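-- GENERATED (merged mirror, NOTES/tools/trim/merge3_helper67.py): 10 modules of the originals, bodies verbatim.
import Fermat.Agent.Zm.S44_L15_000
import Fermat.Agent.Zm.S33_L09_000
import Fermat.Agent.Zm.S44_L03_000
import Fermat.Agent.Zm.S44_L01_003
import Fermat.Agent.Zm.S33_L03_001
import Fermat.Agent.Zm.S44_L14_000
import Fermat.Agent.Zm.S44_L01_000
import Fermat.Agent.Zm.S44_L09_000
import Fermat.Agent.Zm.S44_L02_004
import Fermat.Agent.Zm.S44_L02_001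
import Fermat.Agent.Zm.S44_L08_000
import Fermat.Agent.Zm.S44_L03_003
import Fermat.Agent.Zm.S44_L05_001
import Fermat.Agent.Zm.S44_L10_000
import Fermat.Agent.Zm.S44_L12_000
import Fermat.Agent.Zm.S44_L04_000

-- ==== BEGIN Fermat.Agent.BADP.H18_EisMod
section
attribute [local instance 10000] SubalgebraClass.toAlgebra
attribute [local instance 10000] HahnSeries.powerSeriesAlgebra

set_option autoImplicit false
set_option linter.style.haveILetI false
set_option linter.unusedSectionVars false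
set_option synthInstance.maxHeartbeats 400000
set_option maxHeartbeats 1000000

noncomputable section

open AlgebraicCurve ModularCurve

namespace Fermat.Agent.BADP.H18E

open Fermat.Agent.BAD Fermat.Agent.S44 Fermat.Agent.S43.BadQ Fermat.Agent.S28.H73
  Fermat.Agent.RED.H73 Fermat.Agent.BADP

/-! ## Kummer pairs -/

section Kummer

variable (N : ℕ) [NeZero N]

/-- The transport of a Kummer pair by `σ`. -/
theorem ord_galF (n : ℕ)
    (D : Divisor.degZero (K := AlgebraicClosure ℚ) (F := ↥(FNbar N))) (f : ↥(FNbar N))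
    (hD : ∀ P : Place (AlgebraicClosure ℚ) ↥(FNbar N),
      (n : ℤ) * (D : Divisor (AlgebraicClosure ℚ) ↥(FNbar N)) P = P.ord f)
    (σ : GalQ) (P : Place (AlgebraicClosure ℚ) ↥(FNbar N)) :
    (n : ℤ) * ((SemilinearAut.degZeroSMulHom (galF N σ) D :
      Divisor.degZero (K := AlgebraicClosure ℚ) (F := ↥(FNbar N))) :
        Divisor (AlgebraicClosure ℚ) ↥(FNbar N)) P = P.ord (galF N σ • f) := by
  rw [SemilinearAut.coe_degZeroSMulHom, SemilinearAut.divisor_smul_apply, hD]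
  have h := SemilinearAut.ord_smul (galF N σ) ((galF N σ)⁻¹ • P) f
  rw [smul_inv_smul] at h
  exact h.symm

/-- **(KUM-FIX)** from (KUM-CMP). -/
theorem kum_fix (hCmp : Stmt_KumCmp) (n : ℕ)
    (D : Divisor.degZero (K := AlgebraicClosure ℚ) (F := ↥(FNbar N))) (f : ↥(FNbar N))
    (hf0 : f ≠ 0)
    (hD : ∀ P : Place (AlgebraicClosure ℚ) ↥(FNbar N),
      (n : ℤ) * (D : Divisor (AlgebraicClosure ℚ) ↥(FNbar N)) P = P.ord f)
    (σ : GalQ) (hσ : σ • (Pic0.mk D : JZero N) = Pic0.mk D) :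
    ∃ (e : AlgebraicClosure ℚ) (T : ↥(FNbar N)),
      galF N σ • f = algebraMap (AlgebraicClosure ℚ) ↥(FNbar N) e * f * T ^ n := by
  refine hCmp N n (SemilinearAut.degZeroSMulHom (galF N σ) D) D (galF N σ • f) f ?_ hf0
    (ord_galF N n D f hD σ) hD ?_
  · rw [Ne, smul_eq_zero_iff_eq]
    exact hf0
  · rw [← SemilinearAut.pic0_smul_mk]
    exact hσ

/-- The Kummer functions of `σ x` and of `x + y`. -/
theorem kum_sigma (hCmp : Stmt_KumCmp) (n : ℕ)
    (D D₀ : Divisor.degZero (K := AlgebraicClosure ℚ) (F := ↥(FNbar N))) (f f₀ : ↥(FNbar N))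
    (hf0 : f ≠ 0) (hf₀0 : f₀ ≠ 0)
    (hD : ∀ P : Place (AlgebraicClosure ℚ) ↥(FNbar N),
      (n : ℤ) * (D : Divisor (AlgebraicClosure ℚ) ↥(FNbar N)) P = P.ord f)
    (hD₀ : ∀ P : Place (AlgebraicClosure ℚ) ↥(FNbar N),
      (n : ℤ) * (D₀ : Divisor (AlgebraicClosure ℚ) ↥(FNbar N)) P = P.ord f₀)
    (σ : GalQ) (hσ : σ • (Pic0.mk D : JZero N) - Pic0.mk D = Pic0.mk D₀) :
    ∃ (e : AlgebraicClosure ℚ) (T : ↥(FNbar N)),
      galF N σ • f = algebraMap (AlgebraicClosure ℚ) ↥(FNbar N) e * (f * f₀) * T ^ n := by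
  refine hCmp N n (SemilinearAut.degZeroSMulHom (galF N σ) D) (D + D₀) (galF N σ • f) (f * f₀)
    ?_ (mul_ne_zero hf0 hf₀0) (ord_galF N n D f hD σ) ?_ ?_
  · rw [Ne, smul_eq_zero_iff_eq]
    exact hf0
  · intro P
    rw [Place.ord_mul _ hf0 hf₀0, ← hD, ← hD₀]
    show (n : ℤ) * ((D : Divisor (AlgebraicClosure ℚ) ↥(FNbar N)) +
      (D₀ : Divisor (AlgebraicClosure ℚ) ↥(FNbar N))) P = _
    rw [Finsupp.add_apply, mul_add]
  · rw [← SemilinearAut.pic0_smul_mk, Pic0.mk_add, ← hσ]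
    show σ • (Pic0.mk D : JZero N) = _
    abel

end Kummer


/-! ## Stabilisers in the inertia group -/

section Stab

variable (A : ValuationSubring (AlgebraicClosure ℚ))

/-- The pointwise stabiliser of `T ⊆ ℚ̄` in the inertia group at `A`. -/
def stabSub (T : Set (AlgebraicClosure ℚ)) : Subgroup GalQ where
  carrier := {σ | σ ∈ A.inertiaSubgroupIn ℚ ∧ ∀ t ∈ T, σ t = t}
  mul_mem' := by
    rintro σ τ ⟨hσ, hσT⟩ ⟨hτ, hτT⟩
    refine ⟨Subgroup.mul_mem _ hσ hτ, fun t ht => ?_⟩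
    rw [AlgEquiv.mul_apply, hτT t ht, hσT t ht]
  one_mem' := ⟨Subgroup.one_mem _, fun _ _ => rfl⟩
  inv_mem' := by
    rintro σ ⟨hσ, hσT⟩
    refine ⟨Subgroup.inv_mem _ hσ, fun t ht => ?_⟩
    have h1 : σ⁻¹ (σ t) = t := by
      rw [← AlgEquiv.mul_apply, inv_mul_cancel]
      rfl
    rw [hσT t ht] at h1
    exact h1

theorem mem_stabSub {T : Set (AlgebraicClosure ℚ)} {σ : GalQ} :
    σ ∈ stabSub A T ↔ σ ∈ A.inertiaSubgroupIn ℚ ∧ ∀ t ∈ T, σ t = t := Iff.rfl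

theorem mem_stabAuts_iff (N : ℕ) {T : Set (AlgebraicClosure ℚ)}
    {τ : SemilinearAut (AlgebraicClosure ℚ) ↥(FNbar N)} :
    τ ∈ stabAuts A N T ↔ ∃ σ ∈ stabSub A T, τ = galF N σ := by
  constructor
  · rintro ⟨σ, hσ, hT, rfl⟩
    exact ⟨σ, ⟨hσ, hT⟩, rfl⟩
  · rintro ⟨σ, ⟨hσ, hT⟩, rfl⟩
    exact ⟨σ, hσ, hT, rfl⟩

theorem stabAuts_subset_inertiaAuts (N : ℕ) (T : Set (AlgebraicClosure ℚ)) :
    stabAuts A N T ⊆ inertiaAuts A N := by
  rintro τ ⟨σ, hσ, -, rfl⟩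
  exact ⟨σ, hσ, rfl⟩

theorem stabAuts_mono (N : ℕ) {T T' : Set (AlgebraicClosure ℚ)} (h : T ⊆ T') :
    stabAuts A N T' ⊆ stabAuts A N T := by
  rintro τ ⟨σ, hσ, hT, rfl⟩
  exact ⟨σ, hσ, fun t ht => hT t (h ht), rfl⟩

/-- An automorphism fixing a primitive `p`-th root of unity fixes all `p`-th roots of unity. -/
theorem fix_roots {p : ℕ} (hp : 0 < p) {ζ : AlgebraicClosure ℚ} (hζ : IsPrimitiveRoot ζ p)
    {σ : GalQ} (hσ : σ ζ = ζ) (ζ' : AlgebraicClosure ℚ) (hζ' : ζ' ^ p = 1) : σ ζ' = ζ' := by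
  haveI : NeZero p := ⟨hp.ne'⟩
  obtain ⟨i, -, rfl⟩ := hζ.eq_pow_of_pow_eq_one hζ'
  rw [map_pow, hσ]

/-- An automorphism fixing a primitive `p`-th root of unity and a `p`-th root of `c ≠ 0` fixes
all `p`-th roots of `c`. -/
theorem fix_pth_roots {p : ℕ} (hp : 0 < p) {ζ : AlgebraicClosure ℚ} (hζ : IsPrimitiveRoot ζ p)
    {σ : GalQ} (hσ : σ ζ = ζ) {c w : AlgebraicClosure ℚ} (hc : c ≠ 0) (hw : w ^ p = c)
    (hσw : σ w = w) (z : AlgebraicClosure ℚ) (hz : z ^ p = c) : σ z = z := by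
  have hw0 : w ≠ 0 := by
    rintro rfl
    rw [zero_pow hp.ne'] at hw
    exact hc hw.symm
  have hq : (z / w) ^ p = 1 := by
    rw [div_pow, hz, hw, div_self hc]
  have h3 := fix_roots hp hζ hσ (z / w) hq
  have hz' : z = (z / w) * w := by field_simp
  rw [hz', map_mul, h3, hσw]

end Stab


/-! ## A Kummer pair fixed by a subgroup -/

section Pair

variable (N : ℕ) [NeZero N] (A : ValuationSubring (AlgebraicClosure ℚ))

/-- A class of `J₀(N)[n]` fixed by a subgroup `H` has a Kummer pair `(D, f)` with `f` a unit of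
the Gauss valuation ring fixed by `H`. -/
theorem exists_pair_of_fixed (H : Subgroup GalQ) (n : ℕ) (x : JZero N) (hn : n • x = 0)
    (hfix : ∀ σ ∈ H, σ • x = x) :
    ∃ (D : Divisor.degZero (K := AlgebraicClosure ℚ) (F := ↥(FNbar N))) (f : ↥(FNbar N))
      (hf : f ∈ gaussV A N), f ≠ 0 ∧ x = Pic0.mk D ∧ gaussRes A N ⟨f, hf⟩ ≠ 0 ∧
      (∀ P : Place (AlgebraicClosure ℚ) ↥(FNbar N),
        (n : ℤ) * (D : Divisor (AlgebraicClosure ℚ) ↥(FNbar N)) P = P.ord f) ∧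
      ∀ σ ∈ H, galF N σ • f = f := by
  obtain ⟨D, h, hh0, hx, hord, -, hhfix, -, -⟩ :=
    Fermat.Agent.S36.H61.stmt_NUB0 (N := N) H n x hn hfix
  have hmem : h ∈ H15.fixF N (H : Set GalQ) := fun σ hσ => hhfix σ hσ
  obtain ⟨c, hc0, hc, hm, hr⟩ := H15.exists_unit_of_fixed N A (H : Set GalQ) hmem hh0
  have hcF : algebraMap (AlgebraicClosure ℚ) ↥(FNbar N) c ≠ 0 :=
    (map_ne_zero_iff _ (algebraMap (AlgebraicClosure ℚ) ↥(FNbar N)).injective).mpr hc0
  refine ⟨D, algebraMap (AlgebraicClosure ℚ) ↥(FNbar N) c * h, hm, mul_ne_zero hcF hh0, hx, hr,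
    fun P => ?_, fun σ hσ => ?_⟩
  · rw [Fermat.Agent.RED.H17.ord_algebraMap_mul P hc0, hord]
  · rw [smul_mul', H15.galF_const, hc σ hσ, hhfix σ hσ]

end Pair

/-! ## From the nodes to the Eisenstein pair -/

section Final

variable (A : ValuationSubring (AlgebraicClosure ℚ)) (p M : ℕ) (a b : ℤ)
  (hab : a * p + b * M = 1) (hp : p.Prime) [NeZero (M * p)] [NeZero p]

/-- The sum over a fibre of a divisor which vanishes on the fibre. -/
theorem mapDomain_eq_zero {α β : Type*} (r : α → β) (D : α →₀ ℤ) (y : β)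
    (h : ∀ P, r P = y → D P = 0) : Finsupp.mapDomain r D y = 0 := by
  classical
  rw [Finsupp.mapDomain, Finsupp.sum_apply]
  refine Finset.sum_eq_zero fun P _ => ?_
  show Finsupp.single (r P) (D P) y = 0
  rw [Finsupp.single_apply]
  split_ifs with h1
  · exact h P h1
  · rfl

include hab hp in
/-- The Eisenstein pair from the congruences at the nodes. -/
theorem eisPair_of_nodes
    (S : SSD (AlgebraicClosure ℚ) ↥(FNbar (M * p)) (kV A) (RedF A (M * p)) (RedF A (M * p)))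
    (hS : IsModDatumU A p M a b hab hp S) (x : JZero (M * p))
    (D : Divisor.degZero (K := AlgebraicClosure ℚ) (F := ↥(FNbar (M * p))))
    (f : ↥(FNbar (M * p))) (hfV : f ∈ gaussV A (M * p))
    (hfr : gaussRes A (M * p) ⟨f, hfV⟩ ≠ 0) (hx : x = Pic0.mk D)
    (hD : ∀ P : Place (AlgebraicClosure ℚ) ↥(FNbar (M * p)),
      (p : ℤ) * (D : Divisor (AlgebraicClosure ℚ) ↥(FNbar (M * p))) P = P.ord f)
    (m : ℤ)
    (hm : ∀ s ∈ S.nodes, (p : ℤ) ∣ s.1.ord (S.c₁.rd f) -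
      m * s.1.ord (S.c₁.rd (Fermat.Agent.BAD.H30.unitF (M * p) p (Dvd.intro_left M rfl)))) :
    IsEisPair A (M * p) p (Dvd.intro_left M rfl) x D ⟨f, hfV⟩ m := by
  set U := Fermat.Agent.BAD.H30.unitF (M * p) p (Dvd.intro_left M rfl) with hUdef
  have hUV : U ∈ gaussV A (M * p) :=
    Fermat.Agent.BAD.H30.unitF_mem_gaussV A (M * p) p (Dvd.intro_left M rfl)
  have hUr : gaussRes A (M * p) ⟨U, hUV⟩ ≠ 0 :=
    Fermat.Agent.BAD.H30.gaussRes_unitF_ne_zero A (M * p) p (Dvd.intro_left M rfl)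
  have hfS : f ∈ S.c₁.V := (hS.datum.mem₁ f).2 hfV
  have hUS : U ∈ S.c₁.V := (hS.datum.mem₁ U).2 hUV
  have hrdf : S.c₁.rd f = gaussRes A (M * p) ⟨f, hfV⟩ := by
    rw [S.c₁.rd_of_mem hfS]
    exact hS.datum.red₁ ⟨f, hfV⟩ hfS
  have hrdU : S.c₁.rd U = gaussRes A (M * p) ⟨U, hUV⟩ := by
    rw [S.c₁.rd_of_mem hUS]
    exact hS.datum.red₁ ⟨U, hUV⟩ hUS
  have hU0 : U ≠ 0 := by
    rintro h0
    apply hUr
    have : (⟨U, hUV⟩ : ↥(gaussV A (M * p))) = 0 := Subtype.ext h0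
    rw [this, map_zero]
  -- the good places
  have hgood : ∀ Q ∈ S.c₁.good, (p : ℤ) ∣ Q.ord (gaussRes A (M * p) ⟨f, hfV⟩) := by
    intro Q hQ
    have h1 := S.c₁.DI ⟨f, hfS⟩ (by rw [← S.c₁.rd_of_mem hfS, hrdf]; exact hfr)
      ((p : ℤ) • (D : Divisor (AlgebraicClosure ℚ) ↥(FNbar (M * p))))
      (fun P => by rw [Finsupp.smul_apply, smul_eq_mul]; exact hD P) Q hQ
    rw [← S.c₁.rd_of_mem hfS, hrdf, Finsupp.mapDomain_smul, Finsupp.smul_apply,
      smul_eq_mul] at h1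
    exact ⟨_, h1.symm⟩
  have hgoodU : ∀ Q ∈ S.c₁.good, 0 ≤ Q.ord (Fermat.Agent.BAD.H91.jRed A (M * p)) →
      Q.ord (gaussRes A (M * p) ⟨U, hUV⟩) = 0 := by
    intro Q hQ hj
    obtain ⟨DU, hDU, -⟩ := hS.datum.ff.principal.exists_divisor U hU0
    have h1 := S.c₁.DI ⟨U, hUS⟩ (by rw [← S.c₁.rd_of_mem hUS, hrdU]; exact hUr) DU hDU Q hQ
    rw [← S.c₁.rd_of_mem hUS, hrdU] at h1
    rw [← h1]
    refine mapDomain_eq_zero _ _ _ fun P hP => ?_
    rw [hDU]
    exact hS.unit_ord P Q hP hj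
  refine ⟨hx, hfr, hD, fun Q => ?_⟩
  by_cases hQ : Q ∈ S.c₁.good
  · refine ⟨fun hj => ?_, fun _ => hgood Q hQ⟩
    have h2 : Q.ord (unitRed A (M * p) p (Dvd.intro_left M rfl)) = 0 := hgoodU Q hQ hj
    rw [h2, mul_zero, sub_zero]
    exact hgood Q hQ
  · have hnode : ∃ s ∈ S.nodes, s.1 = Q := by
      by_contra hcon
      push Not at hcon
      exact hQ ((S.good₁ Q).2 hcon)
    obtain ⟨s, hs, rfl⟩ := hnode
    refine ⟨fun _ => ?_, fun hj => absurd (hS.cusp_good _ hj) hQ⟩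
    have h3 := hm s hs
    rw [hrdf, hrdU] at h3
    exact h3

end Final


/-! ## The common data of the two cases -/

section Common

variable (A : ValuationSubring (AlgebraicClosure ℚ)) (p M : ℕ) (a b : ℤ)
  (hab : a * p + b * M = 1) (hp : p.Prime) [NeZero (M * p)] [NeZero p]

/-- The fixed field of the inertia group, in the form used by the abstract statements. -/
theorem mem_F0_iff (y : ↥(FNbar (M * p))) :
    y ∈ H15.fixF (M * p) (H15.inertiaSet A) ↔ ∀ τ ∈ inertiaAuts A (M * p), τ • y = y := by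
  constructor
  · rintro hy τ ⟨σ, hσ, rfl⟩
    exact hy σ hσ
  · intro hy σ hσ
    exact hy _ ⟨σ, hσ, rfl⟩

include hab hp in
theorem const_mem_c1
    (S : SSD (AlgebraicClosure ℚ) ↥(FNbar (M * p)) (kV A) (RedF A (M * p)) (RedF A (M * p)))
    (hS : IsModDatum A p M a b hab hp S) (c : AlgebraicClosure ℚ) :
    algebraMap (AlgebraicClosure ℚ) ↥(FNbar (M * p)) c ∈ S.c₁.V ↔ c ∈ A :=
  (hS.mem₁ _).trans (Fermat.Agent.BAD.H88.const_mem1 A p M c)

include hab hp in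
theorem const_mem_c2
    (S : SSD (AlgebraicClosure ℚ) ↥(FNbar (M * p)) (kV A) (RedF A (M * p)) (RedF A (M * p)))
    (hS : IsModDatum A p M a b hab hp S) (c : AlgebraicClosure ℚ) :
    algebraMap (AlgebraicClosure ℚ) ↥(FNbar (M * p)) c ∈ S.c₂.V ↔ c ∈ A := by
  rw [← S.const_mem]
  exact const_mem_c1 A p M a b hab hp S hS c

include hab hp in
/-- The values of `F^I` are powers of the value of `p`. -/
theorem val_F0 (hA : A.LiesOverPrime p) {k' F' : Type} [Field k'] [Field F'] [Algebra k' F']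
    (T : PRed (AlgebraicClosure ℚ) ↥(FNbar (M * p)) k' F')
    (hT : ∀ c : AlgebraicClosure ℚ,
      algebraMap (AlgebraicClosure ℚ) ↥(FNbar (M * p)) c ∈ T.V ↔ c ∈ A)
    (hA1 : ∀ g ∈ H15.fixF (M * p) (H15.inertiaSet A), g ≠ 0 → ∃ c ∈ H97.K0 A, c ≠ 0 ∧
      T.IsGU (algebraMap (AlgebraicClosure ℚ) ↥(FNbar (M * p)) c * g)) :
    ∀ y ∈ H15.fixF (M * p) (H15.inertiaSet A), y ≠ 0 →
      ∃ n : ℤ, T.V.valuation y = T.V.valuation (p : ↥(FNbar (M * p))) ^ n := by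
  intro g hg hg0
  obtain ⟨c, hcK, hc0, hu⟩ := hA1 g hg hg0
  obtain ⟨n, hn⟩ := H97.val_K0 hp hA c hcK hc0
  have h1 := H97.val_const_zpow hT hn
  rw [map_natCast] at h1
  have h2 := H97.isGU_iff_val_eq_one.1 hu
  rw [map_mul, h1] at h2
  refine ⟨-n, ?_⟩
  rw [zpow_neg]
  exact eq_inv_of_mul_eq_one_right h2

end Common


/-! ## The main theorem -/

section Main

/-- **EIS-MOD.** -/
theorem stmt_EisMod : Stmt_EisMod := by
  intro hMod hK0 hCmp hW hAbs hTame p _ hp hp5 N _ hd hp2N A hA x Y u hY hsub hu hfix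
  -- the level
  obtain ⟨M, hM⟩ := id hd
  have hN : N = M * p := by rw [hM, mul_comm]
  subst hN
  have hp2 : p ≠ 2 := by omega
  have hpM : ¬ p ∣ M := by
    rintro ⟨k, rfl⟩
    exact hp2N ⟨k, by ring⟩
  obtain ⟨a, b, hab⟩ : ∃ a b : ℤ, a * p + b * M = 1 := by
    have hcop : Nat.Coprime p M := (Nat.Prime.coprime_iff_not_dvd hp).2 hpM
    obtain ⟨a, b, h⟩ := Nat.isCoprime_iff_coprime.2 hcop
    exact ⟨a, b, h⟩
  haveI : IsAlgClosed (kV A) := isAlgClosed_kV A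
  haveI hchar : CharP (kV A) p := Fermat.Agent.BAD.H82.charP_kV A hp hA
  have hp0 : (p : AlgebraicClosure ℚ) ≠ 0 := by exact_mod_cast hp.ne_zero
  -- the datum
  obtain ⟨S, hS⟩ := hMod p hp5 M a b hab hp A hA
  have hK := hK0 p hp5 M a b hab hp A hA S hS.datum
  obtain ⟨g, g₁, c, c₁, hg, hg₁, hnum⟩ := hS.datum.genus
  have hT₁ := const_mem_c1 A p M a b hab hp S hS.datum
  have hT₂ := const_mem_c2 A p M a b hab hp S hS.datum
  have hV₁ : ∀ f, f ∈ gaussV A (M * p) → f ∈ S.c₁.V := fun f hf => (hS.datum.mem₁ f).2 hf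
  have hV₂ : ∀ f, f ∈ Fermat.Agent.BAD.H88.V2 A p M a b hab hp → f ∈ S.c₂.V :=
    fun f hf => (hS.datum.mem₂ f).2 hf
  have hA1₁ := H15.stmt_A1 (M * p) A S.c₁ hV₁
  have hA1₂ := H15.stmt_A1_two A p M a b hab hp S.c₂ hV₂
  have hinert : ∀ τ ∈ inertiaAuts A (M * p), S.IsInertial τ := by
    rintro τ ⟨σ, hσ, rfl⟩
    exact hS.datum.inertial σ hσ
  -- the unit
  set U := Fermat.Agent.BAD.H30.unitF (M * p) p (Dvd.intro_left M rfl) with hUdef
  have hUV : U ∈ gaussV A (M * p) :=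
    Fermat.Agent.BAD.H30.unitF_mem_gaussV A (M * p) p (Dvd.intro_left M rfl)
  have hUr : gaussRes A (M * p) ⟨U, hUV⟩ ≠ 0 :=
    Fermat.Agent.BAD.H30.gaussRes_unitF_ne_zero A (M * p) p (Dvd.intro_left M rfl)
  have hUGU : S.c₁.IsGU U := by
    refine ⟨hV₁ U hUV, ?_⟩
    rw [S.c₁.rd_of_mem (hV₁ U hUV), hS.datum.red₁ ⟨U, hUV⟩ (hV₁ U hUV)]
    exact hUr
  have hUfix : ∀ τ ∈ inertiaAuts A (M * p), τ • U = U := by
    rintro τ ⟨σ, hσ, rfl⟩
    exact hS.unit_fixed σ hσ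
  have hUnode : ∀ P : Place (AlgebraicClosure ℚ) ↥(FNbar (M * p)), S.IsNodeP P →
      P.ord U = 0 := by
    rintro P ⟨s, hs, hr⟩
    refine hS.unit_ord P s.1 hr ?_
    by_contra hcon
    rw [not_le] at hcon
    exact (S.good₁ s.1).1 (hS.cusp_good s.1 hcon) s hs rfl
  have hp12 : ¬ p ∣ 12 := by
    intro h
    have h4 : p ∣ 4 * 3 := h
    rcases (Nat.Prime.dvd_mul hp).1 h4 with h2 | h2
    · have h22 : p ∣ 2 * 2 := h2
      rcases (Nat.Prime.dvd_mul hp).1 h22 with h3 | h3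
      · have := Nat.le_of_dvd (by norm_num) h3
        omega
      · have := Nat.le_of_dvd (by norm_num) h3
        omega
    · have := Nat.le_of_dvd (by norm_num) h2
      omega
  -- the torsion point
  have htors : p • jzModule.pt (M * p) p x = 0 := by
    have h := jzModule.pt_torsion (M * p) p x
    rwa [natCast_zsmul] at h
  have hu0 : (u : AlgebraicClosure ℚ) ≠ 0 := by
    intro h
    apply hu
    have h1 : u = 0 := by exact_mod_cast h
    rw [h1]
    exact dvd_zero _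
  -- a primitive root of unity
  obtain ⟨ζ, hζ⟩ : ∃ ζ : AlgebraicClosure ℚ, IsPrimitiveRoot ζ p := by
    haveI : NeZero (p : AlgebraicClosure ℚ) := ⟨hp0⟩
    exact HasEnoughRootsOfUnity.exists_primitiveRoot (AlgebraicClosure ℚ) p
  -- the descent for `I₁`
  have hdesc1 : ∀ y : ↥(FNbar (M * p)), (∀ τ ∈ stabAuts A (M * p) {ζ}, τ • y = y) →
      y ∈ IntermediateField.adjoin (H15.fixF (M * p) (H15.inertiaSet A))
        ({algebraMap (AlgebraicClosure ℚ) ↥(FNbar (M * p)) ζ} : Set ↥(FNbar (M * p))) := by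
    intro y hy
    refine H15.mem_adjoin_singleton_of_fixed (M * p) A hp hA ζ fun σ hσ hσζ => ?_
    exact hy _ ⟨σ, hσ, fun t ht => by rw [Set.mem_singleton_iff.1 ht]; exact hσζ, rfl⟩
  have hbase1 : ∀ τ ∈ stabAuts A (M * p) {ζ}, SemilinearAut.baseAut τ ζ = ζ := by
    rintro τ ⟨σ, -, hT, rfl⟩
    exact hT ζ rfl
  -- the final step
  have hfinal : ∀ (D : Divisor.degZero (K := AlgebraicClosure ℚ) (F := ↥(FNbar (M * p))))
      (f : ↥(FNbar (M * p))) (hfV : f ∈ gaussV A (M * p)),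
      gaussRes A (M * p) ⟨f, hfV⟩ ≠ 0 → jzModule.pt (M * p) p x = Pic0.mk D →
      (∀ P : Place (AlgebraicClosure ℚ) ↥(FNbar (M * p)),
        (p : ℤ) * (D : Divisor (AlgebraicClosure ℚ) ↥(FNbar (M * p))) P = P.ord f) →
      (∃ m : ℤ, ∀ s ∈ S.nodes, (p : ℤ) ∣ s.1.ord (S.c₁.rd f) - m * s.1.ord (S.c₁.rd U)) →
      ∃ (D : Divisor.degZero (K := AlgebraicClosure ℚ) (F := ↥(FNbar (M * p))))
        (f : ↥(gaussV A (M * p))) (c : ℤ),
        IsEisPair A (M * p) p hd (jzModule.pt (M * p) p x) D f c := by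
    rintro D f hfV hfr hxD hDf ⟨m, hm⟩
    exact ⟨D, ⟨f, hfV⟩, m, eisPair_of_nodes A p M a b hab hp S hS _ D f hfV hfr hxD hDf m hm⟩
  have hGU_of : ∀ (f : ↥(FNbar (M * p))) (hfV : f ∈ gaussV A (M * p)),
      gaussRes A (M * p) ⟨f, hfV⟩ ≠ 0 → S.c₁.IsGU f := by
    intro f hfV hfr
    refine ⟨hV₁ f hfV, ?_⟩
    rw [S.c₁.rd_of_mem (hV₁ f hfV), hS.datum.red₁ ⟨f, hfV⟩ (hV₁ f hfV)]
    exact hfr
  -- the dichotomy
  rcases H97.karith_dichotomy hp hp2 hA u hu hζ with ⟨z, hzK, hz⟩ | ⟨t, ω, σ, htK, -, htω, hσ, hKD⟩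
  · -- the tame case
    have hx1 : ∀ τ ∈ stabSub A {ζ}, τ • jzModule.pt (M * p) p x = jzModule.pt (M * p) p x := by
      rintro τ ⟨hτ, hτT⟩
      have hτζ : τ ζ = ζ := hτT ζ rfl
      have hτz : τ z = z := H97.mem_K0.1 hzK τ hτ
      have h1 := hfix τ hτ (fix_roots hp.pos hζ hτζ)
        (fix_pth_roots hp.pos hζ hτζ hu0 hz hτz)
      rw [← jzModule.pt_gal, h1]
    obtain ⟨D, f, hfV, hf0, hxD, hfr, hDf, hffix⟩ :=
      exists_pair_of_fixed (M * p) A (stabSub A {ζ}) p _ htors hx1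
    refine hfinal D f hfV hfr hxD hDf ?_
    refine hTame (AlgebraicClosure ℚ) ↥(FNbar (M * p)) (kV A) (RedF A (M * p)) (RedF A (M * p)) S
      hS.datum.ff hS.datum.ff₁ hS.datum.ff₁ g g₁ g₁ c c₁ c₁ hg hg₁ hg₁ hnum p hp hp2 hchar hp0
      (inertiaAuts A (M * p)) (stabAuts A (M * p) {ζ}) hinert
      (stabAuts_subset_inertiaAuts A (M * p) {ζ}) hK
      (H15.fixF (M * p) (H15.inertiaSet A)) (mem_F0_iff A p M) ζ hζ
      (val_F0 A p M a b hab hp hA S.c₁ hT₁ hA1₁) (val_F0 A p M a b hab hp hA S.c₂ hT₂ hA1₂)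
      hdesc1 hbase1 U 12 hUGU hUfix hUnode hS.unit_two hp12 f (hGU_of f hfV hfr)
      (fun P => ⟨_, (hDf P).symm⟩) ?_
    rintro τ ⟨σ, hσ, hT, rfl⟩
    exact hffix σ ⟨hσ, hT⟩
  · -- the wild case
    have hσζ : σ ζ = ζ := hKD.σζ
    have hσω : σ ω = ζ * ω := hKD.σω
    have hx2 : ∀ τ ∈ stabSub A {ζ, ω},
        τ • jzModule.pt (M * p) p x = jzModule.pt (M * p) p x := by
      rintro τ ⟨hτ, hτT⟩
      have hτζ : τ ζ = ζ := hτT ζ (Set.mem_insert _ _)
      have hτω : τ ω = ω := hτT ω (Set.mem_insert_of_mem _ rfl)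
      have hτt : τ t = t := H97.mem_K0.1 htK τ hτ
      have h1 := hfix τ hτ (fix_roots hp.pos hζ hτζ)
        (fix_pth_roots hp.pos hζ hτζ hu0 htω (by rw [map_mul, hτt, hτω]))
      rw [← jzModule.pt_gal, h1]
    obtain ⟨D, f, hfV, hf0, hxD, hfr, hDf, hffix⟩ :=
      exists_pair_of_fixed (M * p) A (stabSub A {ζ, ω}) p _ htors hx2
    refine hfinal D f hfV hfr hxD hDf ?_
    -- the class `y₀ = σ x - x`
    have hy₀Y : (jzModule (M * p) p).gal σ x - x ∈ Y := hsub σ hσ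
    have hY0 := isCycOn_le p M a b hab hp A hp2 hA Y hY hy₀Y
    obtain ⟨hK1, hK1w⟩ := (mem_toric_iff p M a b hab hp p A _).1 hY0
    obtain ⟨D₀, f₀, f₀', h₀, c₀, hf₀V, hf₀'V, hy₀D, hD₀, hr₀, hr₀', hfact⟩ :=
      hW p M a b hab hp p A _ hK1 hK1w
    have hf₀0 : f₀ ≠ 0 := by
      rintro rfl
      have : (⟨0, hf₀V⟩ : ↥(gaussV A (M * p))) = 0 := rfl
      rw [this, map_zero] at hr₀
      exact zero_ne_one hr₀
    -- the class of `y₀` is fixed by `I₁`
    have hcyc : ∀ τ ∈ A.inertiaSubgroupIn ℚ, τ ζ = ζ →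
        τ • (Pic0.mk D₀ : JZero (M * p)) = Pic0.mk D₀ := by
      intro τ hτ hτζ
      have h1 := hY τ hτ 1 (fun ζ' hζ' => by rw [pow_one]; exact fix_roots hp.pos hζ hτζ ζ' hζ')
        _ hy₀Y
      rw [Nat.cast_one, one_smul] at h1
      have h2 := congrArg (jzModule.pt (M * p) p) h1
      rw [jzModule.pt_gal] at h2
      rw [← hy₀D]
      exact h2
    have hσD : σ • (Pic0.mk D : JZero (M * p)) - Pic0.mk D = Pic0.mk D₀ := by
      rw [← hy₀D, ← hxD]
      rfl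
    obtain ⟨e, T, hσf⟩ := kum_sigma (M * p) hCmp p D D₀ f f₀ hf0 hf₀0 hDf hD₀ σ hσD
    -- the data of K-ARITH
    have hσ1 : galF (M * p) σ ∈ stabAuts A (M * p) {ζ} :=
      ⟨σ, hσ, fun t ht => by rw [Set.mem_singleton_iff.1 ht]; exact hσζ, rfl⟩
    have hkd₁ := H97.kdata_fn hT₁ hA hKD hσ (galF (M * p) σ) (fun _ => rfl)
      (hS.datum.inertial σ hσ).mem₁ (H15.fixF (M * p) (H15.inertiaSet A))
      (fun c hc => H15.const_mem_F0 (M * p) A hc) (fun g hg => H15.galF_F0 (M * p) A hσ hg) hA1₁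
    have hkd₂ := H97.kdata_fn hT₂ hA hKD hσ (galF (M * p) σ) (fun _ => rfl)
      (hS.datum.inertial σ hσ).mem₂ (H15.fixF (M * p) (H15.inertiaSet A))
      (fun c hc => H15.const_mem_F0 (M * p) A hc) (fun g hg => H15.galF_F0 (M * p) A hσ hg) hA1₂
    have hdesc2 : ∀ y : ↥(FNbar (M * p)), (∀ τ ∈ stabAuts A (M * p) {ζ, ω}, τ • y = y) →
        y ∈ IntermediateField.adjoin (H15.fixF (M * p) (H15.inertiaSet A))
          ({algebraMap (AlgebraicClosure ℚ) ↥(FNbar (M * p)) ζ,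
            algebraMap (AlgebraicClosure ℚ) ↥(FNbar (M * p)) ω} : Set ↥(FNbar (M * p))) := by
      intro y hy
      refine H15.mem_adjoin_pair_of_fixed (M * p) A hp hA ζ ω fun τ hτ hτζ hτω => ?_
      refine hy _ ⟨τ, hτ, fun t ht => ?_, rfl⟩
      rcases ht with rfl | ht
      · exact hτζ
      · rw [Set.mem_singleton_iff.1 ht]
        exact hτω
    have hbase2 : ∀ τ ∈ stabAuts A (M * p) {ζ, ω},
        SemilinearAut.baseAut τ ζ = ζ ∧ SemilinearAut.baseAut τ ω = ω := by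
      rintro τ ⟨τ', -, hT, rfl⟩
      exact ⟨hT ζ (Set.mem_insert _ _), hT ω (Set.mem_insert_of_mem _ rfl)⟩
    have hσinv : ∀ z : AlgebraicClosure ℚ, σ⁻¹ (σ z) = z := by
      intro z
      rw [← AlgEquiv.mul_apply, inv_mul_cancel]
      rfl
    have hnorm : ∀ y : ↥(FNbar (M * p)), (∀ τ ∈ stabAuts A (M * p) {ζ, ω}, τ • y = y) →
        ∀ τ ∈ stabAuts A (M * p) {ζ, ω}, τ • (galF (M * p) σ • y) = galF (M * p) σ • y := by
      rintro y hy τ ⟨τ', hτ', hT, rfl⟩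
      have hτζ : τ' ζ = ζ := hT ζ (Set.mem_insert _ _)
      have hτω : τ' ω = ω := hT ω (Set.mem_insert_of_mem _ rfl)
      have hmem : galF (M * p) (σ⁻¹ * τ' * σ) ∈ stabAuts A (M * p) {ζ, ω} := by
        refine ⟨σ⁻¹ * τ' * σ,
          Subgroup.mul_mem _ (Subgroup.mul_mem _ (Subgroup.inv_mem _ hσ) hτ') hσ,
          fun t ht => ?_, rfl⟩
        rcases ht with rfl | ht
        · rw [AlgEquiv.mul_apply, AlgEquiv.mul_apply, hσζ, hτζ]
          have := hσinv t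
          rwa [hσζ] at this
        · rw [Set.mem_singleton_iff.1 ht, AlgEquiv.mul_apply, AlgEquiv.mul_apply, hσω, map_mul,
            hτζ, hτω, ← hσω]
          exact hσinv ω
      have h1 := hy _ hmem
      have h2 : galF (M * p) τ' * galF (M * p) σ =
          galF (M * p) σ * galF (M * p) (σ⁻¹ * τ' * σ) := by
        rw [← map_mul, ← map_mul]
        congr 1
        group
      rw [← mul_smul, h2, mul_smul, h1]
    -- the abstract statement
    refine hAbs (AlgebraicClosure ℚ) ↥(FNbar (M * p)) (kV A) (RedF A (M * p)) (RedF A (M * p)) S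
      hS.datum.ff hS.datum.ff₁ hS.datum.ff₁ g g₁ g₁ c c₁ c₁ hg hg₁ hg₁ hnum p hp hp2 hchar hp0
      (inertiaAuts A (M * p)) (stabAuts A (M * p) {ζ}) (stabAuts A (M * p) {ζ, ω}) hinert
      (stabAuts_subset_inertiaAuts A (M * p) {ζ})
      (stabAuts_mono A (M * p) (by
        intro t ht
        rw [Set.mem_singleton_iff.1 ht]
        exact Set.mem_insert _ _)) hK
      (H15.fixF (M * p) (H15.inertiaSet A)) (mem_F0_iff A p M) ζ ω (galF (M * p) σ) hσ1
      hkd₁ hkd₂ hdesc2 hdesc1 hbase2 hbase1 hnorm U 12 hUGU hUfix hUnode hS.unit_two hp12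
      f (hGU_of f hfV hfr) (fun P => ⟨_, (hDf P).symm⟩) ?_
      f₀ f₀' h₀ T c₀ e (hV₁ f₀ hf₀V) ?_ (fun P => ⟨_, (hD₀ P).symm⟩)
      ((hS.datum.mem₂ f₀').2 hf₀'V) ?_ hfact ?_ ?_
    · rintro τ ⟨τ', hτ', hT, rfl⟩
      exact hffix τ' ⟨hτ', hT⟩
    · rw [S.c₁.rd_of_mem (hV₁ f₀ hf₀V), hS.datum.red₁ ⟨f₀, hf₀V⟩ (hV₁ f₀ hf₀V)]
      exact hr₀
    · rw [S.c₂.rd_of_mem ((hS.datum.mem₂ f₀').2 hf₀'V),
        hS.datum.red₂ f₀' ((hS.datum.mem₂ f₀').2 hf₀'V) hf₀'V]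
      exact hr₀'
    · rintro τ ⟨τ', hτ', hT, rfl⟩
      exact kum_fix (M * p) hCmp p D₀ f₀ hf₀0 hD₀ τ' (hcyc τ' hτ' (hT ζ rfl))
    · rw [hσf, mul_assoc (algebraMap (AlgebraicClosure ℚ) ↥(FNbar (M * p)) e) f f₀]

end Main

end Fermat.Agent.BADP.H18E

end
end
-- ==== END Fermat.Agent.BADP.H18_EisMod

-- ==== BEGIN Fermat.Agent.BADP.H33_ModU
section
attribute [local instance 10000] SubalgebraClass.toAlgebra
attribute [local instance 10000] HahnSeries.powerSeriesAlgebra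

set_option autoImplicit false
set_option linter.style.haveILetI false
set_option synthInstance.maxHeartbeats 400000
set_option maxHeartbeats 1000000

noncomputable section

open HahnSeries IntermediateField AlgebraicCurve ModularCurve
open Fermat.Agent.S28.H73 Fermat.Agent.RED.H73 Fermat.Agent.RED Fermat.Agent.S24
open Fermat.Agent.BAD.H88

namespace Fermat.Agent.BADP.H33

open Fermat.Agent.BAD Fermat.Agent.BAD.H91 Fermat.Agent.S43.BadQ

section Unit

variable (A : ValuationSubring (AlgebraicClosure ℚ)) (p M : ℕ) (a b : ℤ)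
  (hab : a * p + b * M = 1) (hp : p.Prime) [NeZero (M * p)] [NeZero p] (h5 : 5 ≤ p)
  (hA : A.LiesOverPrime p)

/-- The modular unit is fixed by the coefficientwise Galois action. -/
theorem unit_fixed (σ : GalQ) (hd : p ∣ M * p) :
    galF (M * p) σ • Fermat.Agent.BAD.H30.unitF (M * p) p hd =
      Fermat.Agent.BAD.H30.unitF (M * p) p hd := by
  apply Subtype.ext
  rw [coe_arithmeticGalois_smul]
  show coeffMap _ (coeffEmb (AlgebraicClosure ℚ) _) = coeffEmb (AlgebraicClosure ℚ) _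
  exact coeffMap_coeffEmb σ _

/-- The modular unit is a unit of the Gauss valuation ring. -/
theorem unit_inv_mem (hd : p ∣ M * p) :
    (Fermat.Agent.BAD.H30.unitF (M * p) p hd)⁻¹ ∈ V1 A p M ∧
      ∀ h : (Fermat.Agent.BAD.H30.unitF (M * p) p hd)⁻¹ ∈ V1 A p M,
        red1 A p M ⟨_, h⟩ ≠ 0 := by
  have hu : Fermat.Agent.BAD.H30.unitF (M * p) p hd ∈ V1 A p M :=
    Fermat.Agent.BAD.H30.unitF_mem_gaussV A (M * p) p hd
  have hne : red1 A p M ⟨_, hu⟩ ≠ 0 :=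
    Fermat.Agent.BAD.H30.gaussRes_unitF_ne_zero A (M * p) p hd
  have hnm : (⟨_, hu⟩ : ↥(V1 A p M)) ∉ IsLocalRing.maximalIdeal ↥(V1 A p M) := fun h =>
    hne ((red1_eq_zero_iff A p M _).2 h)
  have hunit : IsUnit (⟨_, hu⟩ : ↥(V1 A p M)) := by
    by_contra h
    exact hnm ((IsLocalRing.mem_maximalIdeal _).2 h)
  obtain ⟨v, hv⟩ := hunit
  have hinv : (((v⁻¹ : (↥(V1 A p M))ˣ) : ↥(V1 A p M)) : FN (M * p)) =
      (Fermat.Agent.BAD.H30.unitF (M * p) p hd)⁻¹ := by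
    have h3 : (((v⁻¹ : (↥(V1 A p M))ˣ) : ↥(V1 A p M)) : FN (M * p)) *
        Fermat.Agent.BAD.H30.unitF (M * p) p hd = 1 := by
      have h4 := congrArg (fun z : ↥(V1 A p M) => (z : FN (M * p))) (Units.inv_mul v)
      rw [hv] at h4
      exact h4
    exact eq_inv_of_mul_eq_one_left h3
  have hmem : (Fermat.Agent.BAD.H30.unitF (M * p) p hd)⁻¹ ∈ V1 A p M := by
    rw [← hinv]
    exact ((v⁻¹ : (↥(V1 A p M))ˣ) : ↥(V1 A p M)).2
  refine ⟨hmem, fun h h0 => ?_⟩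
  have h1 : (⟨_, h⟩ : ↥(V1 A p M)) * ⟨_, hu⟩ = 1 := by
    apply Subtype.ext
    show (Fermat.Agent.BAD.H30.unitF (M * p) p hd)⁻¹ * Fermat.Agent.BAD.H30.unitF (M * p) p hd
      = 1
    exact inv_mul_cancel₀ (Fermat.Agent.BAD.H30.unitF_ne_zero (M * p) p hd)
  have h2 := congrArg (red1 A p M) h1
  rw [map_mul, h0, zero_mul, map_one] at h2
  exact zero_ne_one h2

/-- `w_p (U / p ^ 12) = U⁻¹`. -/
theorem wq_unit_div (hd : p ∣ M * p) :
    wq p M a b hab hp (Fermat.Agent.BAD.H30.unitF (M * p) p hd /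
      algebraMap (AlgebraicClosure ℚ) ↥(FNbar (M * p)) ((p : AlgebraicClosure ℚ) ^ 12))
      = (Fermat.Agent.BAD.H30.unitF (M * p) p hd)⁻¹ := by
  have hp0 : ((p : AlgebraicClosure ℚ) ^ 12) ≠ 0 :=
    pow_ne_zero _ (Nat.cast_ne_zero.2 hp.ne_zero)
  have hc0 : algebraMap (AlgebraicClosure ℚ) ↥(FNbar (M * p)) ((p : AlgebraicClosure ℚ) ^ 12)
      ≠ 0 := by
    intro h
    exact hp0 ((map_eq_zero _).1 h)
  rw [map_div₀, Fermat.Agent.BAD.H21.wq_unitF p M a b hab hp hd, AlgEquiv.commutes]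
  field_simp

end Unit

section Datum

variable (A : ValuationSubring (AlgebraicClosure ℚ)) (p M : ℕ) (a b : ℤ)
  (hab : a * p + b * M = 1) (hp : p.Prime) [NeZero (M * p)] [NeZero p] (h5 : 5 ≤ p)
  (hA : A.LiesOverPrime p)

/-- `unit_fixed` for the modular datum. -/
theorem unit_fixed_modS : ∀ σ ∈ A.inertiaSubgroupIn ℚ,
    galF (M * p) σ • Fermat.Agent.BAD.H30.unitF (M * p) p (Dvd.intro_left M rfl) =
      Fermat.Agent.BAD.H30.unitF (M * p) p (Dvd.intro_left M rfl) :=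
  fun σ _ => unit_fixed p M σ _

/-- `unit_two` for the modular datum: `U / p ^ 12` is a unit for the second valuation. -/
theorem unit_two_modS :
    (modS A p M a b hab hp h5 hA).c₂.IsGU
      (Fermat.Agent.BAD.H30.unitF (M * p) p (Dvd.intro_left M rfl) /
        algebraMap (AlgebraicClosure ℚ) ↥(FNbar (M * p)) ((p : AlgebraicClosure ℚ) ^ 12)) := by
  obtain ⟨hmem, hne⟩ := unit_inv_mem A p M (Dvd.intro_left M rfl)
  have hw := wq_unit_div p M a b hab hp (Dvd.intro_left M rfl)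
  have hV : Fermat.Agent.BAD.H30.unitF (M * p) p (Dvd.intro_left M rfl) /
      algebraMap (AlgebraicClosure ℚ) ↥(FNbar (M * p)) ((p : AlgebraicClosure ℚ) ^ 12) ∈
        V2 A p M a b hab hp := by
    rw [mem_V2_iff, hw]
    exact hmem
  refine ⟨hV, ?_⟩
  rw [(modS A p M a b hab hp h5 hA).c₂.rd_of_mem hV]
  show red1 A p M ⟨wq p M a b hab hp
    (Fermat.Agent.BAD.H30.unitF (M * p) p (Dvd.intro_left M rfl) /
      algebraMap (AlgebraicClosure ℚ) ↥(FNbar (M * p)) ((p : AlgebraicClosure ℚ) ^ 12)), hV⟩ ≠ 0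
  have e : (⟨wq p M a b hab hp (Fermat.Agent.BAD.H30.unitF (M * p) p (Dvd.intro_left M rfl) /
      algebraMap (AlgebraicClosure ℚ) ↥(FNbar (M * p)) ((p : AlgebraicClosure ℚ) ^ 12)), hV⟩ :
        ↥(V1 A p M)) = ⟨_, hmem⟩ := Subtype.ext hw
  rw [e]
  exact hne hmem

/-- `unit_ord` for the modular datum: the modular unit has neither zero nor pole on the fibres
of the non-cuspidal places of the first component. -/
theorem unit_ord_modS (P : Place (AlgebraicClosure ℚ) ↥(FNbar (M * p)))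
    (Q : Place (kV A) (RedF A (M * p)))
    (hr : (modS A p M a b hab hp h5 hA).c₁.r P = some Q)
    (hQ : 0 ≤ Q.ord (Fermat.Agent.BAD.H91.jRed A (M * p))) :
    P.ord (Fermat.Agent.BAD.H30.unitF (M * p) p (Dvd.intro_left M rfl)) = 0 := by
  have hqM : ¬ p ∣ M := not_dvd_of_bezout hab hp
  haveI : NeZero M := neZero_left M p
  have ht : TameAt M p := Or.inl h5
  have hr' : (modTot A p M a b hab hp h5 hA).r₁ P = some Q := hr
  obtain ⟨hρ, -⟩ := H79.TotData.r₁_eq_some_iff.1 hr'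
  have hρ' : rhoF1 a b hab hp hA hqM ht P = Q := hρ
  apply ord_unitF_eq_zero_of_rhoM hp hqM ht hA (Dvd.intro_left M rfl) P
  have hk : kappa A p M a b hab hp hA Q = rhoM hp hqM ht hA P := by
    rw [← hρ']
    exact kappa_rhoF1 a b hab hp hA hqM ht P
  rw [← hk]
  have hcoe : ((Fermat.Agent.BAD.H91.jRed A (M * p) : F1 A p M) : LaurentSeries (kV A))
      = ((Fermat.Agent.BAD.H91.jRed A M : ↥(Fermat.Agent.BAD.H91.redM A M)) :
          LaurentSeries (kV A)) := by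
    rw [show ((Fermat.Agent.BAD.H91.jRed A M : ↥(Fermat.Agent.BAD.H91.redM A M)) :
        LaurentSeries (kV A)) = jqModC (kV A) from RED.H73.red_jF A M]
    exact RED.H73.red_jF A (M * p)
  rw [kappa_ord A p M a b hab hp hA Q (Fermat.Agent.BAD.H91.jRed A (M * p))
    (Fermat.Agent.BAD.H91.jRed A M) hcoe]
  exact hQ

end Datum

/-- **(CUSP), general level, for the fixed modular datum**: the cusps of the reduction (the poles
of `j~`) are not nodes. -/
def Stmt_CuspNotNode : Prop :=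
  ∀ (p : ℕ) (h5 : 5 ≤ p) (M : ℕ) (a b : ℤ) (hab : a * p + b * M = 1) (hp : p.Prime)
    [NeZero (M * p)],
    ∀ (A : ValuationSubring (AlgebraicClosure ℚ)) (hA : A.LiesOverPrime p),
    ∀ Q : Place (kV A) (RedF A (M * p)),
      Q.ord (Fermat.Agent.BAD.H91.jRed A (M * p)) < 0 →
        ¬ (modTot A p M a b hab hp h5 hA).IsNode Q

/-- `cusp_good` for the modular datum, from (CUSP). -/
theorem cusp_good_modS (hC : Stmt_CuspNotNode) (A : ValuationSubring (AlgebraicClosure ℚ))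
    (p M : ℕ) (a b : ℤ) (hab : a * p + b * M = 1) (hp : p.Prime) [NeZero (M * p)] (h5 : 5 ≤ p)
    (hA : A.LiesOverPrime p) (Q : Place (kV A) (RedF A (M * p)))
    (hQ : Q.ord (Fermat.Agent.BAD.H91.jRed A (M * p)) < 0) :
    Q ∈ (modS A p M a b hab hp h5 hA).c₁.good := by
  haveI : IsAlgClosed (kV A) := isAlgClosed_kV A
  rw [(modS A p M a b hab hp h5 hA).good₁]
  intro s hs hsQ
  have hs' : s ∈ (modTot A p M a b hab hp h5 hA).nodes (ffHyp p M).principal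
      (ffHyp₁ A p M a b hab hp h5 hA).principal := hs
  obtain ⟨hnode, -⟩ := (H79.TotData.mem_nodes _ _).1 hs'
  rw [hsQ] at hnode
  exact hC p h5 M a b hab hp A hA Q hQ hnode

/-- **(MOD-P+)** from (CUSP). -/
theorem stmt_ModPlusP_of (hC : Stmt_CuspNotNode) : Stmt_ModPlusP := by
  intro p _ h5 M a b hab hp _ A hA
  exact ⟨modS A p M a b hab hp h5 hA,
    { datum := isModDatum_modS A p M a b hab hp h5 hA
      cusp_good := fun Q hQ => cusp_good_modS hC A p M a b hab hp h5 hA Q hQ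
      unit_ord := fun P Q hr hQ => unit_ord_modS A p M a b hab hp h5 hA P Q hr hQ
      unit_two := unit_two_modS A p M a b hab hp h5 hA
      unit_fixed := unit_fixed_modS A p M }⟩

end Fermat.Agent.BADP.H33

end
end
-- ==== END Fermat.Agent.BADP.H33_ModU

-- ==== BEGIN Fermat.Agent.S43.Old.Final
section

/-!
# S43, leaf OLD (= LIFT-EIG): OLD from the two open leaves (helper75)

STAR (`H75.stmt_Star`), TORS-REL (`L.LiftEig.H37.stmt_TorsRel`, helper37) and CHAR-M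
(`L.LiftEig.H46.stmt_CharM`, helper46) are proved.  Open: OLD-RED (helper35) and
`RED.H51.Stmt_HRcore` (helper95, helper51, helper11).

* `old_of` : `Stmt_OldRed → Stmt_HRcore →` OLD for every prime `p` and every prime `q ∥ N`;
* `stmt_Old_of` : `Stmt_OldRed → Stmt_HRcore → S43.BadQ.Stmt_Old`.
-/

set_option autoImplicit false
set_option synthInstance.maxHeartbeats 400000
set_option maxHeartbeats 1600000

noncomputable section

open AlgebraicCurve ModularCurve Fermat.Agent.S28.H73 Fermat.Agent.RED.H73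
open Fermat.Agent.RED Fermat.Agent.BAD Fermat.Agent.S43.BadQ Fermat.Agent.S44

namespace Fermat.Agent.S43.Old

/-- **OLD** (general form) from OLD-RED and HRcore. -/
theorem old_of (hOR : Stmt_OldRed) (hcore : H51.Stmt_HRcore)
    (p : ℕ) (hp : p.Prime) (N : ℕ) [NeZero N] (q : ℕ) (hq : q.Prime) (hqN : q ∣ N)
    (hq2 : ¬ q ^ 2 ∣ N) (A : ValuationSubring (AlgebraicClosure ℚ)) (hA : A.LiesOverPrime q)
    (S : Finset ℕ) (t : ℕ → ℤ) (x : (jzModule N p).J)
    (hF : Fin1 A N p (jzModule.pt N p x)) (hK : ¬ InK1 A N p (jzModule.pt N p x))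
    (hT : ∀ ℓ : ℕ, ℓ.Prime → ℓ ∉ S → ¬ ℓ ∣ N → ℓ ≠ p →
      (jzModule N p).T ℓ x = ((t ℓ : ℤ) : ZMod p) • x) :
    ∃ (g : CuspForm (CongruenceSubgroup.Gamma0 (N / q)) 2) (𝔪 : Ideal ZBar),
      g.IsNormalizedEigenform ∧ 𝔪.IsMaximal ∧ (p : ZBar) ∈ 𝔪 ∧
      ∀ ℓ : ℕ, ℓ.Prime → ℓ ∉ S → ¬ ℓ ∣ N → ℓ ≠ p →
        ∃ a : ZBar, (a : ℂ) = ModularFormClass.qCoeff g ℓ ∧ a - ((t ℓ : ℤ) : ZBar) ∈ 𝔪 :=
  old_of_leaves hOR H75.stmt_Star (H75.stmt_KerStable_of hcore)
    Fermat.Agent.L.LiftEig.H37.stmt_TorsRel Fermat.Agent.L.LiftEig.H46.stmt_CharM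
    p hp N q hq hqN hq2 A hA S t x hF hK hT

/-- **`S43.BadQ.Stmt_Old`** from OLD-RED and HRcore. -/
theorem stmt_Old_of (hOR : Stmt_OldRed) (hcore : H51.Stmt_HRcore) : Stmt_Old :=
  stmt_Old_of_leaves hOR H75.stmt_Star (H75.stmt_KerStable_of hcore)
    Fermat.Agent.L.LiftEig.H37.stmt_TorsRel Fermat.Agent.L.LiftEig.H46.stmt_CharM

end Fermat.Agent.S43.Old

end
end
-- ==== END Fermat.Agent.S43.Old.Final

-- ==== BEGIN Fermat.Agent.S43.Old.H75_FromHRdiv
section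
attribute [local instance 10000] SubalgebraClass.toAlgebra
attribute [local instance 10000] HahnSeries.powerSeriesAlgebra

/-!
# S43, leaf OLD: everything from the divisor form of HR at the good primes (helper75)

`Stmt_HRdiv` : for `q ∤ M`, `A` over `q`, `ℓ ∤ M q` a prime, `r` the reduction map of places of
level `M`:  `r_* (T_ℓ D) ≡ T~_ℓ (r_* D)` modulo principal divisors, for ALL divisors `D` of `F_M`;
`T~_ℓ = α~_* β~^*` the correspondence of the reduced Hecke tower (`H35.alphaT`, `H35.betaT`).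

* `stmt_HeckeRed_of_HRdiv`  : `Stmt_HRdiv → Stmt_HeckeRed`  (with `H35.levelN_eigen_T`);
* `stmt_KerStable_of_HRdiv` : `Stmt_HRdiv → Stmt_KerStable`;
* `stmt_OldRed_of_HRdiv`    : `Stmt_HRdiv → Stmt_OldRed`;
* `old_of_HRdiv`, `stmt_Old_of_HRdiv` : `Stmt_HRdiv →` OLD (any `p`, `q ∥ N`), `S43.BadQ.Stmt_Old`.
-/

set_option autoImplicit false
set_option linter.style.haveILetI false
set_option linter.unusedSectionVars false
set_option synthInstance.maxHeartbeats 400000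
set_option maxHeartbeats 1600000

noncomputable section

open AlgebraicCurve ModularCurve Fermat.Agent.S28.H73 Fermat.Agent.RED.H73
open Fermat.Agent.RED Fermat.Agent.BAD Fermat.Agent.S43.BadQ Fermat.Agent.S44

namespace Fermat.Agent.S43.Old

/-- **HR, divisor form**, at the good primes: `r_* T_ℓ ≡ T~_ℓ r_*` modulo principal divisors. -/
def Stmt_HRdiv : Prop :=
  ∀ (M q ℓ : ℕ) [NeZero M] [NeZero ℓ], q.Prime → ¬ q ∣ M → ℓ.Prime → ¬ ℓ ∣ M → ℓ ≠ q →
    ∀ A : ValuationSubring (AlgebraicClosure ℚ), A.LiesOverPrime q →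
    ∀ (hα' : (H35.alphaT A M ℓ).toRingHom.IsIntegral)
      (hβ' : (H35.betaT A M ℓ).toRingHom.IsIntegral)
      [HasPrincipalDivisors (kV A) ↥(H35.Ft A (M * ℓ))]
      (hα : HeckeAlphaBarIntegral (AlgebraicClosure ℚ) M ℓ)
      (hβ : HeckeBetaBarIntegral (AlgebraicClosure ℚ) M ℓ)
      [HasPrincipalDivisors (AlgebraicClosure ℚ) ↥(modularFunctionFieldBar (M * ℓ))]
      (r : Place (AlgebraicClosure ℚ) ↥(modularFunctionFieldBar M) →
        Place (kV A) ↥(H35.Ft A M)),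
      IsRed A (hasScale_laurentBaseChange A M) r →
      HasMove A (hasScale_laurentBaseChange A M) r →
      ∀ Dz : Divisor (AlgebraicClosure ℚ) ↥(modularFunctionFieldBar M),
        Divisor.IsPrincipal (K := kV A) (F := ↥(H35.Ft A M))
          (Finsupp.mapDomain r (heckeDivBar hα hβ Dz)
            - Divisor.correspondence (H35.betaT A M ℓ) (H35.alphaT A M ℓ) hβ' hα'
                (Finsupp.mapDomain r Dz))

/-- `Stmt_HRdiv → Stmt_HeckeRed`. -/
theorem stmt_HeckeRed_of_HRdiv (h : Stmt_HRdiv) : Stmt_HeckeRed := by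
  intro p hp M q ℓ _ _ _ hq hqM hℓ hℓN A hA
  have hℓq : ℓ ≠ q := fun h' => hℓN (h' ▸ dvd_mul_left ℓ M)
  have hℓM : ¬ ℓ ∣ M := fun h' => hℓN (h'.mul_right q)
  have hqMℓ : ¬ q ∣ M * ℓ := by
    intro h'
    rcases (Nat.Prime.dvd_mul hq).1 h' with h1 | h1
    · exact hqM h1
    · exact hℓq ((Nat.prime_dvd_prime_iff_eq hq hℓ).1 h1).symm
  have TI := H35.towerInputs (A := A) (M := M) (ℓ := ℓ) hq hA hqMℓ
  haveI := TI.hP
  refine ⟨Divisor.correspondence (H35.betaT A M ℓ) (H35.alphaT A M ℓ) TI.hβ TI.hα, ?_, ?_⟩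
  · intro hα hβ _ r hr hmove Dz
    exact h M q ℓ hq hqM hℓ hℓM hℓq A hA TI.hα TI.hβ hα hβ r hr hmove Dz
  · intro hα hβ _ D f hf hD g hg D' hD' t heig
    exact H35.levelN_eigen_T A p hp.ne_zero q M ℓ hq hqM hℓ hℓN hA hα hβ TI.hα TI.hβ D f hf hD
      g hg D' hD' t heig

/-- `Stmt_HRdiv → Stmt_KerStable`. -/
theorem stmt_KerStable_of_HRdiv (h : Stmt_HRdiv) : Stmt_KerStable := by
  intro M q _ hq hqM A hA r hr hmove ℓ hℓM hℓq z hz
  haveI : NeZero (ℓ : ℕ) := ⟨ℓ.2.ne_zero⟩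
  have hqMℓ : ¬ q ∣ M * (ℓ : ℕ) := by
    intro h'
    rcases (Nat.Prime.dvd_mul hq).1 h' with h1 | h1
    · exact hqM h1
    · exact hℓq ((Nat.prime_dvd_prime_iff_eq hq ℓ.2).1 h1).symm
  have TI := H35.towerInputs (A := A) (M := M) (ℓ := (ℓ : ℕ)) hq hA hqMℓ
  haveI := TI.hP
  obtain ⟨hα, hβ, hP, hfin, hFI, hNF⟩ := H51.stmt_HKA M (ℓ : ℕ)
  obtain ⟨D, rfl⟩ := Pic0.mk_surjective z
  rw [heckeOperatorBar_apply, heckeOperatorAlong_eq hα hβ hFI hfin hNF]
  have hmk : heckePic0Bar hα hβ hFI hfin hNF (Pic0.mk D)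
      = Pic0.mk (Pic0.degZeroCorrespondence (heckeBetaBar (AlgebraicClosure ℚ) M (ℓ : ℕ))
          (heckeAlphaBar (AlgebraicClosure ℚ) M (ℓ : ℕ)) hβ hα hFI D) := rfl
  rw [hmk, H36.redPic_mk_eq_zero_iff]
  rw [H36.redPic_mk_eq_zero_iff] at hz
  have h1 := h M q (ℓ : ℕ) hq hqM ℓ.2 hℓM hℓq A hA TI.hα TI.hβ hα hβ r hr hmove
    (D : Divisor (AlgebraicClosure ℚ) ↥(modularFunctionFieldBar M))
  have h2 : Divisor.correspondence (H35.betaT A M (ℓ : ℕ)) (H35.alphaT A M (ℓ : ℕ)) TI.hβ TI.hα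
      (Finsupp.mapDomain r (D : Divisor (AlgebraicClosure ℚ) ↥(modularFunctionFieldBar M)))
      ∈ Divisor.principal (K := kV A) (F := ↥(H35.Ft A M)) :=
    Divisor.correspondence_mem_principal (H35.betaT A M (ℓ : ℕ)) (H35.alphaT A M (ℓ : ℕ))
      TI.hβ TI.hα TI.hfin TI.hNF hz
  have h3 := (Divisor.principal (K := kV A) (F := ↥(H35.Ft A M))).add_mem h1 h2
  rw [sub_add_cancel] at h3
  exact h3

/-- `Stmt_HRdiv → Stmt_OldRed`. -/
theorem stmt_OldRed_of_HRdiv (h : Stmt_HRdiv) : Stmt_OldRed :=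
  stmt_OldRed_of_heckeRed (stmt_HeckeRed_of_HRdiv h)

/-- **OLD** (general form: `p` any prime, `q ∥ N`, `q = p` allowed) from `Stmt_HRdiv`. -/
theorem old_of_HRdiv (h : Stmt_HRdiv)
    (p : ℕ) (hp : p.Prime) (N : ℕ) [NeZero N] (q : ℕ) (hq : q.Prime) (hqN : q ∣ N)
    (hq2 : ¬ q ^ 2 ∣ N) (A : ValuationSubring (AlgebraicClosure ℚ)) (hA : A.LiesOverPrime q)
    (S : Finset ℕ) (t : ℕ → ℤ) (x : (jzModule N p).J)
    (hF : Fin1 A N p (jzModule.pt N p x)) (hK : ¬ InK1 A N p (jzModule.pt N p x))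
    (hT : ∀ ℓ : ℕ, ℓ.Prime → ℓ ∉ S → ¬ ℓ ∣ N → ℓ ≠ p →
      (jzModule N p).T ℓ x = ((t ℓ : ℤ) : ZMod p) • x) :
    ∃ (g : CuspForm (CongruenceSubgroup.Gamma0 (N / q)) 2) (𝔪 : Ideal ZBar),
      g.IsNormalizedEigenform ∧ 𝔪.IsMaximal ∧ (p : ZBar) ∈ 𝔪 ∧
      ∀ ℓ : ℕ, ℓ.Prime → ℓ ∉ S → ¬ ℓ ∣ N → ℓ ≠ p →
        ∃ a : ZBar, (a : ℂ) = ModularFormClass.qCoeff g ℓ ∧ a - ((t ℓ : ℤ) : ZBar) ∈ 𝔪 :=
  old_of_leaves (stmt_OldRed_of_HRdiv h) H75.stmt_Star (stmt_KerStable_of_HRdiv h)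
    Fermat.Agent.L.LiftEig.H37.stmt_TorsRel Fermat.Agent.L.LiftEig.H46.stmt_CharM
    p hp N q hq hqN hq2 A hA S t x hF hK hT

/-- **`S43.BadQ.Stmt_Old`** from `Stmt_HRdiv`. -/
theorem stmt_Old_of_HRdiv (h : Stmt_HRdiv) : Stmt_Old := by
  intro p hp _ N _ q hq _ hqN hq2 A hA S t x hF hK hT
  exact old_of_HRdiv h p hp N q hq hqN hq2 A hA S t x hF hK hT

end Fermat.Agent.S43.Old

end
end
-- ==== END Fermat.Agent.S43.Old.H75_FromHRdiv

-- ==== BEGIN Fermat.Agent.BADP.H33_ModFinal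
section

set_option autoImplicit false
set_option linter.style.haveILetI false
set_option synthInstance.maxHeartbeats 400000
set_option maxHeartbeats 1000000

noncomputable section

open HahnSeries IntermediateField AlgebraicCurve ModularCurve
open Fermat.Agent.S28.H73 Fermat.Agent.RED.H73 Fermat.Agent.RED Fermat.Agent.S24
open Fermat.Agent.BAD.H88

namespace Fermat.Agent.BADP.H33

open Fermat.Agent.BAD Fermat.Agent.BAD.H91 Fermat.Agent.S43.BadQ

/-- **(CUSP)** for the fixed modular datum: the poles of `j~` are not nodes. -/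
theorem stmt_CuspNotNode : Stmt_CuspNotNode := by
  intro p h5 M a b hab hp _ A hA Q hQ hnode
  have hqM : ¬ p ∣ M := not_dvd_of_bezout hab hp
  haveI : NeZero M := neZero_left M p
  haveI : NeZero p := ⟨hp.ne_zero⟩
  have ht : TameAt M p := Or.inl h5
  have hcoe : ((Fermat.Agent.BAD.H91.jRed A (M * p) : F1 A p M) : LaurentSeries (kV A))
      = ((Fermat.Agent.BAD.H91.jRed A M : ↥(Fermat.Agent.BAD.H91.redM A M)) :
          LaurentSeries (kV A)) := by
    rw [show ((Fermat.Agent.BAD.H91.jRed A M : ↥(Fermat.Agent.BAD.H91.redM A M)) :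
        LaurentSeries (kV A)) = jqModC (kV A) from RED.H73.red_jF A M]
    exact RED.H73.red_jF A (M * p)
  have hz₀ : (kappa A p M a b hab hp hA Q).ord (Fermat.Agent.BAD.H91.jRed A M) < 0 := by
    rw [kappa_ord A p M a b hab hp hA Q (Fermat.Agent.BAD.H91.jRed A (M * p))
      (Fermat.Agent.BAD.H91.jRed A M) hcoe]
    exact hQ
  have h := Fermat.Agent.S15.Desc.H69C.coordCusp_gen a b hab hp hA hqM ht
    (totMod A p M a b hab hp hA hqM ht) (kappa A p M a b hab hp hA Q) hz₀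
  rw [Equiv.symm_apply_apply] at h
  exact h hnode

/-- **(MOD-P+)**: the modular datum with the cusps and the modular unit exists. -/
theorem stmt_ModPlusP : Stmt_ModPlusP := stmt_ModPlusP_of stmt_CuspNotNode

end Fermat.Agent.BADP.H33

end
end
-- ==== END Fermat.Agent.BADP.H33_ModFinal

-- ==== BEGIN Fermat.Agent.S43.Old.FinalP
section

/-!
# S44, clause (c) `Stmt_OldP` from the OLD assembly with `q := p` (helper75)

`stmt_OldP_of : Stmt_OldRed → RED.H51.Stmt_HRcore → S44.Stmt_OldP`.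
-/

set_option autoImplicit false
set_option synthInstance.maxHeartbeats 400000
set_option maxHeartbeats 1600000

noncomputable section

open AlgebraicCurve ModularCurve Fermat.Agent.S28.H73 Fermat.Agent.RED.H73
open Fermat.Agent.RED Fermat.Agent.BAD Fermat.Agent.S43.BadQ Fermat.Agent.S44

namespace Fermat.Agent.S43.Old

/-- **`S44.Stmt_OldP`** from OLD-RED and HRcore. -/
theorem stmt_OldP_of (hOR : Stmt_OldRed) (hcore : H51.Stmt_HRcore) : Stmt_OldP := by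
  intro p hp _ N _ hpN hp2 A hA S t x hF hK hT
  exact old_of hOR hcore p hp N p hp hpN hp2 A hA S t x hF hK hT

end Fermat.Agent.S43.Old

end
end
-- ==== END Fermat.Agent.S43.Old.FinalP

-- ==== BEGIN Fermat.Agent.S43.Old.OldDone
section

/-!
# S43 leaf OLD and S44 clause (c) `Stmt_OldP`: UNCONDITIONAL (helper75)

helper35's `H35.hr_div` (HR on all divisors, equality form) gives `Stmt_HRdiv`, hence

* `stmt_HRdiv_done : Stmt_HRdiv`;
* `old_done` : OLD for every prime `p` and every prime `q ∥ N` (`q = p` allowed);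
* `stmt_Old_done : S43.BadQ.Stmt_Old`;
* `stmt_OldOdd_done : S43.BadQ.Stmt_OldOdd` (if available, see `BadQ`);
* `stmt_OldP_done : S44.Stmt_OldP`.
-/

set_option autoImplicit false
set_option linter.style.haveILetI false
set_option linter.unusedSectionVars false
set_option synthInstance.maxHeartbeats 400000
set_option maxHeartbeats 1600000

noncomputable section

open AlgebraicCurve ModularCurve Fermat.Agent.S28.H73 Fermat.Agent.RED.H73
open Fermat.Agent.RED Fermat.Agent.BAD Fermat.Agent.S43.BadQ Fermat.Agent.S44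

namespace Fermat.Agent.S43.Old

/-- **HR, divisor form**, at the good primes (helper35's `hr_div`). -/
theorem stmt_HRdiv_done : Stmt_HRdiv := by
  intro M q ℓ _ _ hq hqM hℓ hℓM hℓq A hA hα' hβ' _ hα hβ _ r hr hm Dz
  rw [H35.hr_div A q M ℓ hq hℓ hℓq hqM hA hα hβ hα' hβ' r hr hm Dz, sub_self]
  exact (Divisor.principal (K := kV A) (F := ↥(H35.Ft A M))).zero_mem

/-- **OLD**, unconditional (general form: `p` any prime, `q ∥ N`, `q = p` allowed). -/
theorem old_done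
    (p : ℕ) (hp : p.Prime) (N : ℕ) [NeZero N] (q : ℕ) (hq : q.Prime) (hqN : q ∣ N)
    (hq2 : ¬ q ^ 2 ∣ N) (A : ValuationSubring (AlgebraicClosure ℚ)) (hA : A.LiesOverPrime q)
    (S : Finset ℕ) (t : ℕ → ℤ) (x : (jzModule N p).J)
    (hF : Fin1 A N p (jzModule.pt N p x)) (hK : ¬ InK1 A N p (jzModule.pt N p x))
    (hT : ∀ ℓ : ℕ, ℓ.Prime → ℓ ∉ S → ¬ ℓ ∣ N → ℓ ≠ p →
      (jzModule N p).T ℓ x = ((t ℓ : ℤ) : ZMod p) • x) :
    ∃ (g : CuspForm (CongruenceSubgroup.Gamma0 (N / q)) 2) (𝔪 : Ideal ZBar),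
      g.IsNormalizedEigenform ∧ 𝔪.IsMaximal ∧ (p : ZBar) ∈ 𝔪 ∧
      ∀ ℓ : ℕ, ℓ.Prime → ℓ ∉ S → ¬ ℓ ∣ N → ℓ ≠ p →
        ∃ a : ZBar, (a : ℂ) = ModularFormClass.qCoeff g ℓ ∧ a - ((t ℓ : ℤ) : ZBar) ∈ 𝔪 :=
  old_of_HRdiv stmt_HRdiv_done p hp N q hq hqN hq2 A hA S t x hF hK hT

/-- **`S43.BadQ.Stmt_Old`**, unconditional. -/
theorem stmt_Old_done : Stmt_Old := stmt_Old_of_HRdiv stmt_HRdiv_done

/-- **`S44.Stmt_OldP`**, unconditional. -/
theorem stmt_OldP_done : Stmt_OldP := by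
  intro p hp _ N _ hpN hp2 A hA S t x hF hK hT
  exact old_done p hp N p hp hpN hp2 A hA S t x hF hK hT

end Fermat.Agent.S43.Old

end
end
-- ==== END Fermat.Agent.S43.Old.OldDone

-- ==== BEGIN Fermat.Agent.S44.Final4
section

set_option autoImplicit false
set_option synthInstance.maxHeartbeats 400000
set_option maxHeartbeats 1000000

noncomputable section

open AlgebraicCurve ModularCurve

namespace Fermat.Agent.S44

open Fermat.Agent.BADP

/-- `Stmt_ModPlusP` gives `Stmt_ModP`. -/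
theorem stmt_ModP_of_plus (h : Stmt_ModPlusP) : Stmt_ModP := by
  intro p hp5 M a b hab hp _ A hA
  have : NeZero p := ⟨hp.ne_zero⟩
  obtain ⟨S, hS⟩ := h p hp5 M a b hab hp A hA
  exact ⟨S, hS.datum⟩

open WeierstrassCurve WeierstrassCurve.Affine WeierstrassCurve.Affine.Point in
open scoped WeierstrassCurve.Affine in
/-- **S44 from the leaves.**  The conclusion is the frozen statement S44. -/
theorem result_of_leaves4
    (hOR : Fermat.Agent.S43.Old.Stmt_OldRed) (hcore : Fermat.Agent.RED.H51.Stmt_HRcore)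
    (hDrop : Stmt_HDropP)
    (hMod : Stmt_ModPlusP) (hK0 : Stmt_K0LiftP)
    (hCmp : Stmt_KumCmp) (hFix : Stmt_KumFix) (hW : Stmt_KumW)
    (hEisAbs : Stmt_EisAbs) (hEisTame : Stmt_EisAbsTame) (hEisMod : Stmt_EisMod)
    (hRayMod : Stmt_RayMod) (hRoot : Stmt_GoodRoot)
    (P : FreyPackage) {N : ℕ} (hcond : P.IsConductorLevel N) (hpN : P.p ∣ N)
    (hirr : GaloisRepIsIrreducible (K := AlgebraicClosure ℚ) ℚ P.freyCurve P.p)
    (hmod : P.ModularRepOfLevel N) :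
    ∃ M : ℕ, M ∣ N ∧ ¬ P.p ∣ M ∧ P.ModularRepOfLevel M :=
  result_of_leavesP (Fermat.Agent.S43.Old.stmt_OldP_of hOR hcore)
    (stmt_SlopeP_of (hEisMod hMod hK0 hCmp hW hEisAbs hEisTame) hDrop)
    (stmt_RayP_of_rayK3x (hRayMod (stmt_ModP_of_plus hMod) hK0 hFix hW) hRoot)
    Fermat.Agent.S44.C.H33.stmt_FreyFiniteAtP P hcond hpN hirr hmod

end Fermat.Agent.S44

end
end
-- ==== END Fermat.Agent.S44.Final4

-- ==== BEGIN Fermat.Agent.S44.Final5
section

set_option autoImplicit false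
set_option synthInstance.maxHeartbeats 400000
set_option maxHeartbeats 1000000

noncomputable section

open AlgebraicCurve ModularCurve

namespace Fermat.Agent.S44

open Fermat.Agent.BADP

open WeierstrassCurve WeierstrassCurve.Affine WeierstrassCurve.Affine.Point in
open scoped WeierstrassCurve.Affine in
/-- **S44 from the open leaves** (state 03:45Z).  The conclusion is the frozen statement S44. -/
theorem result_of_open5
    (hOR : Fermat.Agent.S43.Old.Stmt_OldRed) (hcore : Fermat.Agent.RED.H51.Stmt_HRcore)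
    (hK0 : Stmt_K0LiftP)
    (hCmp : Stmt_KumCmp) (hFix : Stmt_KumFix) (hW : Stmt_KumW)
    (hEisAbs : Stmt_EisAbs) (hEisMod : Stmt_EisMod)
    (hRayMod : Stmt_RayMod)
    (P : FreyPackage) {N : ℕ} (hcond : P.IsConductorLevel N) (hpN : P.p ∣ N)
    (hirr : GaloisRepIsIrreducible (K := AlgebraicClosure ℚ) ℚ P.freyCurve P.p)
    (hmod : P.ModularRepOfLevel N) :
    ∃ M : ℕ, M ∣ N ∧ ¬ P.p ∣ M ∧ P.ModularRepOfLevel M :=
  result_of_leaves4 hOR hcore Fermat.Agent.BADP.H74.stmt_HDropP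
    Fermat.Agent.BADP.H33.stmt_ModPlusP hK0 hCmp hFix hW hEisAbs
    (Fermat.Agent.BADP.H66.stmt_EisAbsTame_of Fermat.Agent.BADP.H38.stmt_NodeVal)
    hEisMod hRayMod Fermat.Agent.S44.H66.stmt_GoodRoot P hcond hpN hirr hmod

end Fermat.Agent.S44

end
end
-- ==== END Fermat.Agent.S44.Final5

-- ==== BEGIN Fermat.Agent.S44.Final6
section

set_option autoImplicit false
set_option synthInstance.maxHeartbeats 400000
set_option maxHeartbeats 1000000

noncomputable section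

open AlgebraicCurve ModularCurve

namespace Fermat.Agent.S44

open Fermat.Agent.BADP

/-- (e) RAY, unconditional. -/
theorem stmt_RayP_done : Stmt_RayP :=
  stmt_RayP_of_rayK3x
    (Fermat.Agent.BADP.H15.stmt_RayMod (stmt_ModP_of_plus Fermat.Agent.BADP.H33.stmt_ModPlusP)
      Fermat.Agent.BADP.H11.stmt_K0LiftP Fermat.Agent.BADP.H57.stmt_KumFix
      Fermat.Agent.BADP.H57.stmt_KumW)
    Fermat.Agent.S44.H66.stmt_GoodRoot

/-- (d) SLOPE from EIS-MOD. -/
theorem stmt_SlopeP_of_eisMod (hEisMod : Stmt_EisMod) : Stmt_SlopeP :=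
  stmt_SlopeP_of
    (hEisMod Fermat.Agent.BADP.H33.stmt_ModPlusP Fermat.Agent.BADP.H11.stmt_K0LiftP
      Fermat.Agent.BADP.H57.stmt_KumCmp Fermat.Agent.BADP.H57.stmt_KumW
      Fermat.Agent.BADP.H97.stmt_EisAbs
      (Fermat.Agent.BADP.H66.stmt_EisAbsTame_of Fermat.Agent.BADP.H38.stmt_NodeVal))
    Fermat.Agent.BADP.H74.stmt_HDropP

open WeierstrassCurve WeierstrassCurve.Affine WeierstrassCurve.Affine.Point in
open scoped WeierstrassCurve.Affine in
/-- **S44 from EIS-SLOPE** (`BADP.Stmt_EisSlopeP`).  The conclusion is the frozen statement. -/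
theorem result_of_eisSlope (hEis : Stmt_EisSlopeP)
    (P : FreyPackage) {N : ℕ} (hcond : P.IsConductorLevel N) (hpN : P.p ∣ N)
    (hirr : GaloisRepIsIrreducible (K := AlgebraicClosure ℚ) ℚ P.freyCurve P.p)
    (hmod : P.ModularRepOfLevel N) :
    ∃ M : ℕ, M ∣ N ∧ ¬ P.p ∣ M ∧ P.ModularRepOfLevel M :=
  result_of_leavesP Fermat.Agent.S43.Old.stmt_OldP_done
    (stmt_SlopeP_of hEis Fermat.Agent.BADP.H74.stmt_HDropP)
    stmt_RayP_done
    Fermat.Agent.S44.C.H33.stmt_FreyFiniteAtP P hcond hpN hirr hmod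

open WeierstrassCurve WeierstrassCurve.Affine WeierstrassCurve.Affine.Point in
open scoped WeierstrassCurve.Affine in
/-- **S44 from EIS-MOD.**  The conclusion is the frozen statement S44. -/
theorem result_of_eisMod (hEisMod : Stmt_EisMod)
    (P : FreyPackage) {N : ℕ} (hcond : P.IsConductorLevel N) (hpN : P.p ∣ N)
    (hirr : GaloisRepIsIrreducible (K := AlgebraicClosure ℚ) ℚ P.freyCurve P.p)
    (hmod : P.ModularRepOfLevel N) :
    ∃ M : ℕ, M ∣ N ∧ ¬ P.p ∣ M ∧ P.ModularRepOfLevel M :=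
  result_of_leavesP Fermat.Agent.S43.Old.stmt_OldP_done (stmt_SlopeP_of_eisMod hEisMod)
    stmt_RayP_done
    Fermat.Agent.S44.C.H33.stmt_FreyFiniteAtP P hcond hpN hirr hmod

end Fermat.Agent.S44

end
end
-- ==== END Fermat.Agent.S44.Final6
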