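-- GENERATED (merged mirror, NOTES/tools/trim/merge3_helper67.py): 9 modules of the originals, bodies verbatim.
import Mathlib
import Fermat.Prelude.Def_Algebra_PatchingDatum
import Fermat.Prelude.Def_CuspForm_HeckeGaloisRepDatum
import Fermat.Prelude.Def_GaloisRep_DeformationRingData
import Fermat.Agent.Zm.S43_L04_001
import Fermat.Agent.Zm.S43_L03_003
import Fermat.Agent.Zm.S43_L02_002
import Fermat.Agent.Zm.S43_L04_002
import Fermat.Agent.Zm.S44_L16_000
import Fermat.Agent.Zm.S43_L03_005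
import Fermat.Agent.Zm.S43_L01_004
import Fermat.Agent.Zm.S35_L21_000
import Fermat.Agent.Zm.S33_L01_005
import Fermat.Agent.Zm.S33_L01_002
import Fermat.Agent.Zm.S48_L02_003
import Fermat.Agent.Zm.S43_L02_003
import Fermat.Agent.Zm.S43_L02_004

-- ==== BEGIN Fermat.Agent.S43.CompEis.H60_Final
section

set_option autoImplicit false
set_option synthInstance.maxHeartbeats 400000
set_option maxHeartbeats 1000000
set_option linter.style.haveILetI false
set_option linter.unusedSectionVars false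

noncomputable section

open AlgebraicCurve ModularCurve

namespace Fermat.Agent.S43.CompEis.H60

open Fermat.Agent.BAD Fermat.Agent.S44 Fermat.Agent.S28.H73 Fermat.Agent.RED.H73
open Fermat.Agent.S43.BadQ Fermat.Agent.RED

/-- **COORD at the tame levels** (the form in which COMP-EIS consumes COORD). -/
def Stmt_CE_CoordTame : Prop :=
  ∀ (p : ℕ), p.Prime → 5 ≤ p →
    ∀ (q M : ℕ) (a b : ℤ) (hab : a * q + b * M = 1) (hq : q.Prime) [NeZero (M * q)], q ≠ p →
    ¬ q ∣ M → (5 ≤ q ∨ (q = 3 ∧ 2 ∣ M) ∨ (q = 2 ∧ 3 ∣ M)) →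
    Stmt_CE_Coord p q M a b hab hq

theorem lift_self {N : ℕ} (x : ↥(FNbar N)) : lift (dvd_refl N) x = x :=
  Subtype.ext (coe_lift _ x)

section Wire

variable {A : ValuationSubring (AlgebraicClosure ℚ)}
variable {q M : ℕ} {a b : ℤ} {hab : a * q + b * M = 1} {hq : q.Prime} [NeZero (M * q)]

/-- The slopes do not depend on the level. -/
theorem hasSlope_transfer (hW : Stmt_CE_WUp) {R : ℕ} {a' b' : ℤ}
    {hab' : a' * q + b' * ((M * R : ℕ) : ℤ) = 1} [NeZero (M * R * q)]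
    {x : ↥(FNbar (M * q))} {y : ↥(FNbar (M * R * q))}
    (hxy : (y : LaurentSeries (AlgebraicClosure ℚ)) = (x : LaurentSeries (AlgebraicClosure ℚ)))
    {k : ℤ} (h : HasSlope A q (M * R) a' b' hab' hq y k) : HasSlope A q M a b hab hq x k := by
  obtain ⟨c₁, c₂, h1, h2, h3⟩ := h
  refine ⟨c₁, c₂, (isGaussUnit_transfer (const_mul_transfer hxy c₁)).mp h1, ?_, h3⟩
  have hw := hW q M R a b hab a' b' hab' hq x y hxy
  exact (isGaussUnit_transfer (const_mul_transfer hw c₂)).mp h2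

/-- COMP-EIS at a level with COORD. -/
theorem compEisAt_tame (p : ℕ) (hp : p.Prime) (hA : A.LiesOverPrime q)
    (hC : Stmt_CE_Coord p q M a b hab hq) : CompEisAt p (M * q) A := by
  refine compEisAt_core (M' := M) (a' := a) (b' := b) (hab' := hab) p hp hA (dvd_refl _)
    (H9H.stmt_CE_Hecke q M a b hab hq) hC ?_ ?_
  · intro x k h
    rwa [lift_self] at h
  · intro f f' hff' h
    have hf : f' = f := Subtype.ext (Subtype.ext hff')
    subst hf
    exact h

include hab in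
/-- COMP-EIS at the level `M q` from COORD at the level `M r q`, `r = 2` or `3`. -/
theorem compEisAt_desc (p : ℕ) (hp : p.Prime) (hp5 : 5 ≤ p) (hA : A.LiesOverPrime q)
    (hsq : ¬ q ^ 2 ∣ M * q) (r : ℕ) (hr : r = 2 ∨ r = 3) (hrq : r ≠ q) {a' b' : ℤ}
    {hab' : a' * q + b' * ((M * r : ℕ) : ℤ) = 1} [NeZero (M * r * q)]
    (hC : Stmt_CE_Coord p q (M * r) a' b' hab' hq) : CompEisAt p (M * q) A := by
  refine compEisAt_core (M' := M * r) (a' := a') (b' := b') (hab' := hab') p hp hA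
    ⟨r, by ring⟩ (H9H.stmt_CE_Hecke q M a b hab hq) hC ?_ ?_
  · intro x k h
    exact hasSlope_transfer H80.stmt_CE_WUp (coe_lift _ x) h
  · intro f f' hff' h
    exact H57.stmt_CE_Desc' p hp hp5 q hq (M * q) (M * r * q) r hr hrq (by ring) hsq A hA
      f f' hff' h

end Wire

/-- COMP-EIS at the level `M q` from COORD at the tame level `M r q`, `r = 2` or `3`. -/
theorem compEisAt_of_mul (hC : Stmt_CE_CoordTame) (p : ℕ) (hp : p.Prime) (hp5 : 5 ≤ p)
    (q M : ℕ) [NeZero (M * q)] (hq : q.Prime) (hqp : q ≠ p) (hqM : ¬ q ∣ M)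
    (hq2 : ¬ q ^ 2 ∣ M * q) (A : ValuationSubring (AlgebraicClosure ℚ))
    (hA : A.LiesOverPrime q) (a b : ℤ) (hab : a * q + b * M = 1)
    (r : ℕ) (hr : r = 2 ∨ r = 3) (hrq : r ≠ q)
    (ht : 5 ≤ q ∨ (q = 3 ∧ 2 ∣ M * r) ∨ (q = 2 ∧ 3 ∣ M * r)) : CompEisAt p (M * q) A := by
  have hrp : r.Prime := by
    rcases hr with rfl | rfl
    · exact Nat.prime_two
    · exact Nat.prime_three
  have hqMr : ¬ q ∣ M * r := by
    intro h
    rcases (Nat.Prime.dvd_mul hq).mp h with h | h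
    · exact hqM h
    · exact hrq ((Nat.prime_dvd_prime_iff_eq hq hrp).mp h).symm
  have hcop' : IsCoprime (q : ℤ) ((M * r : ℕ) : ℤ) :=
    Nat.isCoprime_iff_coprime.2 ((Nat.Prime.coprime_iff_not_dvd hq).2 hqMr)
  obtain ⟨a', b', hab'⟩ := hcop'
  have hMq : M * q ≠ 0 := NeZero.ne (M * q)
  haveI : NeZero (M * r * q) := ⟨by
    intro h0
    apply hMq
    have h1 : M * r * q = r * (M * q) := by ring
    rw [h1] at h0
    exact (Nat.mul_eq_zero.mp h0).resolve_left hrp.ne_zero⟩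
  exact compEisAt_desc (hab := hab) (hq := hq) p hp hp5 hA hq2 r hr hrq (hab' := hab')
    (hC p hp hp5 q (M * r) a' b' hab' hq hqp hqMr ht)

/-- **COMP-EIS** (all levels `N`, `q ‖ N`, `p ≥ 5`) from COORD at the tame levels. -/
theorem stmt_CompEis_of_coord (hC : Stmt_CE_CoordTame) : Stmt_CompEis := by
  refine stmt_CompEis_iff.mpr ?_
  intro p hp hp5 N _ q hq hqp hqN hq2 A hA
  obtain ⟨M, rfl⟩ : ∃ M, N = M * q := ⟨N / q, (Nat.div_mul_cancel hqN).symm⟩
  have hqM : ¬ q ∣ M := by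
    rintro ⟨k, rfl⟩
    exact hq2 ⟨k, by ring⟩
  have hcop : IsCoprime (q : ℤ) (M : ℤ) :=
    Nat.isCoprime_iff_coprime.2 ((Nat.Prime.coprime_iff_not_dvd hq).2 hqM)
  obtain ⟨a, b, hab⟩ := hcop
  by_cases htame : 5 ≤ q ∨ (q = 3 ∧ 2 ∣ M) ∨ (q = 2 ∧ 3 ∣ M)
  · exact compEisAt_tame (hab := hab) (hq := hq) p hp hA
      (hC p hp hp5 q M a b hab hq hqp hqM htame)
  · have hq23 : q = 2 ∨ q = 3 := by
      have h2 := hq.two_le
      have h4 : q ≠ 4 := by
        rintro rfl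
        exact absurd hq (by decide)
      have h5 : ¬ 5 ≤ q := fun h => htame (Or.inl h)
      omega
    rcases hq23 with h2 | h3
    · exact compEisAt_of_mul hC p hp hp5 q M hq hqp hqM hq2 A hA a b hab 3 (Or.inr rfl)
        (by omega) (Or.inr (Or.inr ⟨h2, dvd_mul_left 3 M⟩))
    · exact compEisAt_of_mul hC p hp hp5 q M hq hqp hqM hq2 A hA a b hab 2 (Or.inl rfl)
        (by omega) (Or.inr (Or.inl ⟨h3, dvd_mul_left 2 M⟩))

/-- **COMP-EIS (the form needed by S43) from COORD at the tame levels.** -/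
theorem stmt_CompEisOdd_of_coord (hC : Stmt_CE_CoordTame) : Stmt_CompEisOdd :=
  compEisOdd_of (stmt_CompEis_of_coord hC)

end Fermat.Agent.S43.CompEis.H60

end
end
-- ==== END Fermat.Agent.S43.CompEis.H60_Final

-- ==== BEGIN Fermat.Agent.S43.Final2
section

set_option autoImplicit false

open WeierstrassCurve WeierstrassCurve.Affine WeierstrassCurve.Affine.Point
open scoped WeierstrassCurve.Affine

namespace Fermat.Agent.S43.BadQ

open Fermat.Agent.S44 Fermat.Agent.L.Pivot Fermat.Agent.L.Pivot.H76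

/-- **S43 from the four open packages (version 2).**  The conclusion is the frozen statement
S43. -/
theorem result_of_open2 (h44 : Stmt_S44T) (hS : Stmt_ModSSDW_tame) (hC : Stmt_CompEisOdd)
    (hPF : Stmt_PivotFrey2)
    (P : FreyPackage) {N q : ℕ}
    (hcond : P.IsConductorLevel N) (hq : q.Prime) (hq2 : q ≠ 2) (hqp : q ≠ P.p) (hqN : q ∣ N)
    (hirr : GaloisRepIsIrreducible (K := AlgebraicClosure ℚ) ℚ P.freyCurve P.p)
    (hmod : P.ModularRepOfLevel N) (hunr : P.GaloisRepUnramifiedAt q) :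
    ∃ M : ℕ, M ∣ N ∧ ¬ q ∣ M ∧ P.ModularRepOfLevel M :=
  result_of_s44' h44 (frobToricOdd_of_modSSDW_tame hS Fermat.Agent.S43.H13.stmt_FrobDesc) hC
    (oldOdd_of Fermat.Agent.S43.Old.stmt_Old_done) hPF P hcond hq hq2 hqp hqN hirr hmod hunr

end Fermat.Agent.S43.BadQ

end
-- ==== END Fermat.Agent.S43.Final2

-- ==== BEGIN Fermat.Agent.S59.Asm.Core
section

/-!
# S59, package ASM (helper53): the algebraic core of the Taylor–Wiles assembly

`twLevel_of_core`: rings `RQ ↠ R` (deformation rings), an `RQ`-module structure on `V` and an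
`R`-module structure on `M` through ring homomorphisms into the endomorphism rings, operators
`d_j` on `V` (diamond operators) which are the images of elements `δ_j ∈ RQ`
(local–global compatibility), freeness of `V` over `𝒪[Δ]`, and a projection `π : V → M` with
kernel `∑ (d_j - 1) V`, give a `TWLevel`.
-/

set_option autoImplicit false
set_option linter.unusedSectionVars false

open IsLocalRing

namespace Fermat.Agent.S59.Asm

open Fermat.Agent.S59 Fermat.Agent.S59.TWH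

section mon

variable {𝒪 : Type} [CommRing 𝒪] {V : Type} [AddCommGroup V] [Module 𝒪 V]

/-- the image of a product of powers under a ring homomorphism into `End V` is the monomial
`mon`. -/
theorem map_prod_pow_eq_mon {R : Type} [CommRing R] (f : R →+* Module.End 𝒪 V) {r : ℕ}
    (δ : Fin r → R) (x : Fin r → ℕ) :
    f (∏ j, δ j ^ x j) = H90.mon (fun j => f (δ j)) x := by
  rw [H90.mon, ← List.prod_ofFn, map_list_prod, List.map_ofFn]
  congr 1
  exact congrArg List.ofFn (funext fun j => by simp)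

end mon

/-- **The algebraic core of the Taylor–Wiles assembly.** -/
theorem twLevel_of_core {𝒪 : Type} [CommRing 𝒪] [IsLocalRing 𝒪] {p r n : ℕ}
    {R : Type} [CommRing R] [Algebra 𝒪 R]
    {M : Type} [AddCommGroup M] [Module 𝒪 M]
    (fM : R →ₐ[𝒪] Module.End 𝒪 M)
    {RQ : Type} [CommRing RQ] [IsLocalRing RQ] [Algebra 𝒪 RQ]
    (γ : MvPowerSeries (Fin r) 𝒪 →ₐ[𝒪] RQ) (hγ : Function.Surjective γ)
    (τ : RQ →ₐ[𝒪] R) (hτ : Function.Surjective τ)
    {V : Type} [AddCommGroup V] [Module 𝒪 V]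
    (fV : RQ →ₐ[𝒪] Module.End 𝒪 V)
    (δ : Fin r → RQ) (hδm : ∀ j, δ j - 1 ∈ maximalIdeal RQ) (hτδ : ∀ j, τ (δ j) = 1)
    (d : Fin r → Module.End 𝒪 V) (hδd : ∀ j, fV (δ j) = d j)
    (hdpow : ∀ j, d j ^ (p ^ n) = 1)
    (rk : ℕ) (b : Fin rk → V)
    (hb : Function.Bijective (fun f : Fin rk × (Fin r → Fin (p ^ n)) → 𝒪 =>
      ∑ x : Fin rk × (Fin r → Fin (p ^ n)), f x • H90.mon d (fun j => (x.2 j : ℕ)) (b x.1)))
    (π : V →ₗ[𝒪] M) (hπs : Function.Surjective π)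
    (hker : LinearMap.ker π = ⨆ j, LinearMap.range (d j - 1))
    (hπ : ∀ (a : RQ) (v : V), π (fV a v) = fM (τ a) (π v)) :
    Nonempty (@TWLevel 𝒪 _ _ p r R _ _ M _ (Module.compHom M (fM : R →+* Module.End 𝒪 M)) n) := by
  let _ : Module R M := Module.compHom M (fM : R →+* Module.End 𝒪 M)
  let _ : Module RQ V := Module.compHom V (fV : RQ →+* Module.End 𝒪 V)
  have hsmV : ∀ (a : RQ) (v : V), a • v = fV a v := fun _ _ => rfl
  have hsmM : ∀ (a : R) (x : M), a • x = fM a x := fun _ _ => rfl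
  have hδsm : ∀ (j : Fin r) (v : V), δ j • v = d j v := fun j v => by rw [hsmV, hδd]
  refine ⟨{
    RQ := RQ
    γ := γ
    γ_surjective := hγ
    τ := τ
    τ_surjective := hτ
    δ := δ
    δ_sub_one := ?_
    τ_δ := hτδ
    N := V
    δ_pow := ?_
    π := π.toAddMonoidHom
    π_smul := ?_
    π_surjective := hπs
    ker_π := ?_
    d := rk
    b := b
    b_basis := ?_ }⟩
  · -- δ_sub_one
    intro j
    obtain ⟨y, hy⟩ := hγ (δ j - 1)
    refine ⟨y, ?_, hy⟩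
    by_contra hym
    have hu : IsUnit y := by
      by_contra hnu
      exact hym ((mem_maximalIdeal y).mpr hnu)
    have : IsUnit (γ y) := hu.map γ
    rw [hy] at this
    exact ((mem_maximalIdeal _).mp (hδm j)) this
  · -- δ_pow
    intro j x
    rw [hsmV, map_pow, hδd, hdpow]
    rfl
  · -- π_smul
    intro a x
    show π (a • x) = τ a • π x
    rw [hsmV, hπ, hsmM]
  · -- ker_π
    intro x
    show π x = 0 ↔ _
    rw [← LinearMap.mem_ker, hker]
    constructor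
    · intro hx
      refine Submodule.iSup_induction (fun j => LinearMap.range (d j - 1)) (motive := fun x =>
        x ∈ (Ideal.span (Set.range fun j : Fin r => δ j - 1)) • (⊤ : Submodule RQ V)) hx ?_ ?_ ?_
      · rintro j y ⟨z, rfl⟩
        have : (d j - 1) z = (δ j - 1) • z := by
          rw [sub_smul, one_smul, hδsm]
          rfl
        rw [this]
        exact Submodule.smul_mem_smul (Ideal.subset_span ⟨j, rfl⟩) Submodule.mem_top
      · exact Submodule.zero_mem _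
      · intro y z hy hz
        exact Submodule.add_mem _ hy hz
    · intro hx
      refine Submodule.smul_induction_on hx ?_ ?_
      · intro a ha z _
        refine Submodule.span_induction (p := fun a _ => ∀ z : V, a • z ∈
          ⨆ j, LinearMap.range (d j - 1)) ?_ ?_ ?_ ?_ ha z
        · rintro _ ⟨j, rfl⟩ z
          have : (δ j - 1) • z = (d j - 1) z := by
            rw [sub_smul, one_smul, hδsm]
            rfl
          rw [this]
          exact Submodule.mem_iSup_of_mem j ⟨z, rfl⟩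
        · intro z
          rw [zero_smul]
          exact Submodule.zero_mem _
        · intro a b _ _ iha ihb z
          rw [add_smul]
          exact Submodule.add_mem _ (iha z) (ihb z)
        · intro c a _ iha z
          rw [smul_eq_mul, mul_comm, mul_smul]
          exact iha (c • z)
      · intro y z hy hz
        exact Submodule.add_mem _ hy hz
  · -- b_basis
    have hfun : (fun f : Fin rk × (Fin r → Fin (p ^ n)) → 𝒪 =>
        ∑ x : Fin rk × (Fin r → Fin (p ^ n)),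
          (algebraMap 𝒪 RQ (f x) * ∏ j, δ j ^ (x.2 j : ℕ)) • b x.1) =
        (fun f : Fin rk × (Fin r → Fin (p ^ n)) → 𝒪 =>
          ∑ x : Fin rk × (Fin r → Fin (p ^ n)),
            f x • H90.mon d (fun j => (x.2 j : ℕ)) (b x.1)) := by
      funext f
      refine Finset.sum_congr rfl fun x _ => ?_
      rw [hsmV, map_mul, AlgHom.commutes, Module.End.mul_apply]
      have h1 : (fV : RQ →+* Module.End 𝒪 V) (∏ j, δ j ^ (x.2 j : ℕ)) =
          H90.mon (fun j => (fV : RQ →+* Module.End 𝒪 V) (δ j)) (fun j => (x.2 j : ℕ)) :=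
        map_prod_pow_eq_mon (fV : RQ →+* Module.End 𝒪 V) δ _
      have h2 : (fun j => (fV : RQ →+* Module.End 𝒪 V) (δ j)) = d := funext hδd
      rw [h2] at h1
      have h3 : fV (∏ j, δ j ^ (x.2 j : ℕ)) = H90.mon d (fun j => (x.2 j : ℕ)) := h1
      rw [h3]
      rfl
    rw [hfun]
    exact hb

end Fermat.Agent.S59.Asm

end
-- ==== END Fermat.Agent.S59.Asm.Core

-- ==== BEGIN Fermat.Agent.S59.Asm.H41_RestTW
section

/-!
# S59, package ASM, leaf REST at a Taylor–Wiles family (helper41)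

The restriction `heckeAlgebra (twLevel N qv) 2 (twSet S qv) →+* heckeAlgebra N 2 S` in exactly the
shape of the fields `rest`, `rest_T` of `TWGeom`, for a family `qv` of primes.

Complete proofs, standard axioms only.
-/

set_option autoImplicit false

open CuspForm

namespace Fermat.Agent.S59.Asm.H41

theorem dvd_twLevel (N : ℕ) {r : ℕ} (qv : Fin r → ℕ) : N ∣ twLevel N qv :=
  Dvd.intro _ rfl

theorem subset_twSet (S : Finset ℕ) {r : ℕ} (qv : Fin r → ℕ) :
    (↑S : Set ℕ) ⊆ (↑(twSet S qv) : Set ℕ) := by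
  intro x hx
  simp only [twSet, Finset.coe_union, Set.mem_union]
  exact Or.inl hx

theorem new_prime_mem_twSet (N : ℕ) (S : Finset ℕ) {r : ℕ} (qv : Fin r → ℕ)
    (hqv : ∀ j, (qv j).Prime) (q : ℕ) (hq : q.Prime) (hqN' : q ∣ twLevel N qv)
    (hqN : ¬ q ∣ N) : q ∈ (↑(twSet S qv) : Set ℕ) := by
  have h1 : q ∣ ∏ j, qv j ^ 2 := by
    rcases (Nat.Prime.dvd_mul hq).1 hqN' with h | h
    · exact absurd h hqN
    · exact h
  obtain ⟨j, -, hj⟩ := (Prime.dvd_finsetProd_iff hq.prime _).1 h1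
  have h2 : q ∣ qv j := hq.dvd_of_dvd_pow hj
  have h3 : q = qv j := (Nat.prime_dvd_prime_iff_eq hq (hqv j)).1 h2
  simp only [twSet, Finset.coe_union, Set.mem_union, Finset.coe_image, Finset.coe_univ,
    Set.image_univ, Set.mem_range]
  exact Or.inr ⟨j, h3.symm⟩

/-- The restriction of Hecke operators at a Taylor–Wiles family. -/
noncomputable def restTW (N : ℕ) [NeZero N] (S : Finset ℕ) {r : ℕ} (qv : Fin r → ℕ)
    [NeZero (twLevel N qv)] (hqv : ∀ j, (qv j).Prime) :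
    CuspForm.heckeAlgebra (twLevel N qv) 2 (↑(twSet S qv) : Set ℕ) →+*
      CuspForm.heckeAlgebra N 2 (↑S : Set ℕ) :=
  rest (dvd_twLevel N qv) 2 (subset_twSet S qv) (new_prime_mem_twSet N S qv hqv)

theorem restTW_T (N : ℕ) [NeZero N] (S : Finset ℕ) {r : ℕ} (qv : Fin r → ℕ)
    [NeZero (twLevel N qv)] (hqv : ∀ j, (qv j).Prime)
    (ℓ : ℕ) (hℓ : ℓ.Prime) (hℓN' : ¬ ℓ ∣ twLevel N qv)
    (hℓS' : ℓ ∉ (↑(twSet S qv) : Set ℕ)) (hℓN : ¬ ℓ ∣ N) (hℓS : ℓ ∉ (↑S : Set ℕ)) :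
    restTW N S qv hqv (CuspForm.heckeAlgebra.T hℓ hℓN' hℓS') = CuspForm.heckeAlgebra.T hℓ hℓN hℓS :=
  rest_T _ 2 _ _ hℓ hℓN' hℓS' hℓN hℓS

/-- The level inclusion intertwines `t` and `restTW t`. -/
theorem restTW_spec (N : ℕ) [NeZero N] (S : Finset ℕ) {r : ℕ} (qv : Fin r → ℕ)
    [NeZero (twLevel N qv)] (hqv : ∀ j, (qv j).Prime)
    (t : CuspForm.heckeAlgebra (twLevel N qv) 2 (↑(twSet S qv) : Set ℕ))
    (f : CuspForm (CongruenceSubgroup.Gamma0 N) 2) :
    t.1 (levelIncl (dvd_twLevel N qv) 2 f) =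
      levelIncl (dvd_twLevel N qv) 2 ((restTW N S qv hqv t).1 f) :=
  rest_spec _ 2 _ _ t f

end Fermat.Agent.S59.Asm.H41

end
-- ==== END Fermat.Agent.S59.Asm.H41_RestTW

-- ==== BEGIN Fermat.Agent.S59.Datum.Final
section

set_option autoImplicit false

namespace Fermat.Agent.S59.Datum

/-- **DATUM**, unconditional. -/
theorem stmt_DATUM : Stmt_DATUM := stmt_DATUM_of_S30 Fermat.Agent.R.H33.stmt_S30

end Fermat.Agent.S59.Datum

end
-- ==== END Fermat.Agent.S59.Datum.Final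

-- ==== BEGIN Fermat.Agent.S59.H99_Split
section

/-!
# S59, leaf SPLIT and the wiring `mlt_of_split` (helper99)

* `Stmt_Split` / `stmt_Split` : every `ρ : GaloisRepAdic 𝒪` has a base change `ρ'` to a complete
  discrete valuation ring `𝒪'` (characteristic `0`, finite residue field), along a local
  homomorphism `ι : 𝒪 → 𝒪'`, such that all the hypotheses of `Stmt_MLT` pass from `ρ` to `ρ'`
  and the characteristic polynomials of `ρ'.residual` split into linear factors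
  (hypothesis `hsplit` of the frozen S56).
* `Stmt_MLT'` : `Stmt_MLT` with the additional hypothesis `hsplit`.
* `mlt_of_split : Stmt_Split → Stmt_MLT' → Stmt_MLT`, hence `mlt_of_mlt' : Stmt_MLT' → Stmt_MLT`.
-/

set_option autoImplicit false

open Polynomial IsLocalRing

namespace Fermat.Agent.S59.H99

open Fermat.Agent.S59

/-- Characteristic polynomials of the residual representation. -/
theorem charpoly_residual {A : Type} [CommRing A] [IsLocalRing A] (ρ : GaloisRepAdic A)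
    (σ : AlgebraicClosure ℚ ≃ₐ[ℚ] AlgebraicClosure ℚ) :
    LinearMap.charpoly (ρ.residual.ρ σ) = (LinearMap.charpoly (ρ.ρ σ)).map (residue A) :=
  LinearMap.charpoly_baseChange (A := ResidueField A) (ρ.ρ σ)

/-- **Stmt_Split.** -/
def Stmt_Split : Prop :=
  ∀ (𝒪 : Type) [CommRing 𝒪] [IsDomain 𝒪] [IsDiscreteValuationRing 𝒪]
    [IsAdicComplete (maximalIdeal 𝒪) 𝒪] [Finite (ResidueField 𝒪)] [CharZero 𝒪]
    (ρ : GaloisRepAdic 𝒪),
    ∃ (𝒪' : Type) (_ : CommRing 𝒪') (_ : IsDomain 𝒪') (_ : IsDiscreteValuationRing 𝒪')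
      (_ : IsAdicComplete (maximalIdeal 𝒪') 𝒪') (_ : Finite (ResidueField 𝒪'))
      (_ : CharZero 𝒪') (ι : 𝒪 →+* 𝒪') (_ : IsLocalHom ι) (ρ' : GaloisRepAdic 𝒪'),
      (∀ σ : AlgebraicClosure ℚ ≃ₐ[ℚ] AlgebraicClosure ℚ,
        LinearMap.charpoly (ρ'.ρ σ) = (LinearMap.charpoly (ρ.ρ σ)).map ι) ∧
      (∀ p : ℕ, ρ.DetIsCyclotomic p → ρ'.DetIsCyclotomic p) ∧
      (∀ q : ℕ, ρ.IsUnramifiedAt q → ρ'.IsUnramifiedAt q) ∧
      (∀ q : ℕ, ρ.IsUnipotentOnInertiaAt q → ρ'.IsUnipotentOnInertiaAt q) ∧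
      (∀ p : ℕ, p.Prime → ρ.IsFlatAt p → ρ'.IsFlatAt p) ∧
      (∀ p : ℕ, ρ.IsStrictOrdinaryAt p → ρ'.IsStrictOrdinaryAt p) ∧
      (ρ.residual.IsAbsolutelyIrreducible → ρ'.residual.IsAbsolutelyIrreducible) ∧
      (TWCond ρ.residual → TWCond ρ'.residual) ∧
      ∀ σ : AlgebraicClosure ℚ ≃ₐ[ℚ] AlgebraicClosure ℚ,
        ∃ α β : ResidueField 𝒪',
          LinearMap.charpoly (ρ'.residual.ρ σ) = (X - C α) * (X - C β)

theorem stmt_Split : Stmt_Split := by
  intro 𝒪 _ _ _ _ _ _ ρ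
  obtain ⟨𝒪', i1, i2, i3, i4, i5, i6, i7, i8, hfree, i9, hquad⟩ := exists_split_ext 𝒪
  have halg : (algebraMap 𝒪 𝒪').toAlgebra = i7 := Algebra.algebra_ext _ _ (fun r => rfl)
  refine ⟨𝒪', i1, i2, i3, i4, i5, i6, algebraMap 𝒪 𝒪', i9,
    ρ.baseChangeAlong (algebraMap 𝒪 𝒪') i9, ?_, ?_, ?_, ?_, ?_, ?_, ?_, ?_, ?_⟩
  · exact fun σ => Fermat.Agent.R.H86.baseChangeAlong_charpoly _ i9 ρ σ
  · exact fun p h => Fermat.Agent.S56.H92.detIsCyclotomic_baseChangeAlong _ i9 ρ p h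
  · exact fun q h => Fermat.Agent.S56.H92.isUnramifiedAt_baseChangeAlong _ i9 ρ q h
  · exact fun q h => Fermat.Agent.S56.H92.isUnipotentOnInertiaAt_baseChangeAlong _ i9 ρ q h
  · intro p hp h
    refine isFlatAt_baseChangeAlong_of_finite_free (algebraMap 𝒪 𝒪') i9 ?_ ?_ i5 ρ p hp h
    · exact halg ▸ hfree
    · exact halg ▸ i8
  · exact fun p h => Fermat.Agent.S56.H92.isStrictOrdinaryAt_baseChangeAlong _ i9 ρ p h
  · exact fun h => Fermat.Agent.R.H86.residual_absIrr_baseChangeAlong _ i9 ρ h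
  · exact fun h => twCond_baseChangeAlong _ i9 ρ h
  · intro σ
    have hm : (LinearMap.charpoly (ρ.residual.ρ σ)).Monic := LinearMap.charpoly_monic _
    have hd : (LinearMap.charpoly (ρ.residual.ρ σ)).natDegree = 2 := by
      rw [LinearMap.charpoly_natDegree, ρ.residual.finrank_eq]
    obtain ⟨α, β, hαβ⟩ := hquad _ hm hd
    refine ⟨α, β, ?_⟩
    rw [← hαβ, charpoly_residual, charpoly_residual,
      Fermat.Agent.R.H86.baseChangeAlong_charpoly, Polynomial.map_map, Polynomial.map_map]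
    congr 1

/-- **Stmt_MLT'**: `Stmt_MLT` (S59/Wiring.lean) with the additional hypothesis `hsplit` on the
residual representation (the shape of `hsplit` in the frozen S56). -/
def Stmt_MLT' : Prop :=
  ∀ (p : ℕ) [Fact p.Prime], p ≠ 2 →
  ∀ (𝒪 : Type) [CommRing 𝒪] [IsDomain 𝒪] [IsDiscreteValuationRing 𝒪]
    [IsAdicComplete (IsLocalRing.maximalIdeal 𝒪) 𝒪] [Finite (IsLocalRing.ResidueField 𝒪)]
    [CharZero 𝒪] (ρ : GaloisRepAdic 𝒪) (a : ℕ → ℤ) (Sig : Finset ℕ),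
    (∀ q ∈ Sig, q.Prime ∧ q ≠ p) →
    ρ.DetIsCyclotomic p →
    (∀ q : ℕ, q.Prime → q ≠ p → q ∉ Sig → ρ.IsUnramifiedAt q) →
    (∀ q ∈ Sig, ρ.IsUnipotentOnInertiaAt q) →
    (ρ.IsFlatAt p ∨ ρ.IsStrictOrdinaryAt p) →
    (∀ ℓ : ℕ, ℓ.Prime → ℓ ≠ p → ℓ ∉ Sig →
      ∀ A : ValuationSubring (AlgebraicClosure ℚ), A.LiesOverPrime ℓ →
        ∀ σ : AlgebraicClosure ℚ ≃ₐ[ℚ] AlgebraicClosure ℚ, A.IsFrobeniusAt σ ℓ →
          LinearMap.charpoly (ρ.ρ σ) = X ^ 2 - C (((a ℓ : ℤ) : 𝒪)) * X + C ((ℓ : 𝒪))) →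
    ρ.residual.IsAbsolutelyIrreducible → TWCond ρ.residual →
    (∀ σ : AlgebraicClosure ℚ ≃ₐ[ℚ] AlgebraicClosure ℚ,
      ∃ α β : IsLocalRing.ResidueField 𝒪,
        LinearMap.charpoly (ρ.residual.ρ σ) = (X - C α) * (X - C β)) →
    ∀ (M₀ : ℕ), M₀ ≠ 0 → ¬ p ^ 2 ∣ M₀ → (∀ q : ℕ, q.Prime → q ≠ p → ¬ q ^ 3 ∣ M₀) →
    ∀ (f₀ : CuspForm (CongruenceSubgroup.Gamma0 M₀) 2) (𝔪 : Ideal (integralClosure ℤ ℂ)),
      f₀.IsNormalizedEigenform → 𝔪.IsMaximal → (p : integralClosure ℤ ℂ) ∈ 𝔪 →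
      (∀ ℓ : ℕ, ℓ.Prime → ℓ ∉ Sig → ¬ ℓ ∣ M₀ → ℓ ≠ p →
        ∃ b : integralClosure ℤ ℂ, (b : ℂ) = ModularFormClass.qCoeff f₀ ℓ ∧
          b - ((a ℓ : ℤ) : integralClosure ℤ ℂ) ∈ 𝔪) →
    ∃ N : ℕ, ¬ p ^ 2 ∣ N ∧ (∀ q : ℕ, q.Prime → ¬ q ^ 3 ∣ N) ∧
      ∃ f : CuspForm (CongruenceSubgroup.Gamma0 N) 2, f.IsNormalizedEigenform ∧
        ∀ ℓ : ℕ, ℓ.Prime → ℓ ≠ p → ℓ ∉ Sig → ¬ ℓ ∣ N →
          ModularFormClass.qCoeff f ℓ = (a ℓ : ℂ)

/-- **Wiring**: modularity lifting with split residual characteristic polynomials suffices. -/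
theorem mlt_of_split (hS : Stmt_Split) (hM : Stmt_MLT') : Stmt_MLT := by
  intro p hpF hp2 𝒪 _ _ _ _ _ _ ρ a Sig hSig hdet hunr hunip hloc hfrob habs hTW M₀ hM₀ hp2M
    hcube f₀ 𝔪 hf₀ h𝔪 hp𝔪 hcong
  obtain ⟨𝒪', i1, i2, i3, i4, i5, i6, ι, hι, ρ', hchar, h1, h2, h3, h4, h5, h6, h7, h8⟩ :=
    hS 𝒪 ρ
  refine hM p hp2 𝒪' ρ' a Sig hSig (h1 p hdet) (fun q hq hqp hqS => h2 q (hunr q hq hqp hqS))
    (fun q hq => h3 q (hunip q hq)) (hloc.imp (h4 p hpF.out) (h5 p)) ?_ (h6 habs) (h7 hTW) h8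
    M₀ hM₀ hp2M hcube f₀ 𝔪 hf₀ h𝔪 hp𝔪 hcong
  intro ℓ hℓ hℓp hℓS A hA σ hσ
  rw [hchar, hfrob ℓ hℓ hℓp hℓS A hA σ hσ]
  simp only [Polynomial.map_add, Polynomial.map_sub, Polynomial.map_mul, Polynomial.map_pow,
    Polynomial.map_X, map_intCast, map_natCast, Polynomial.map_intCast,
    Polynomial.map_natCast]

/-- Modularity lifting with split residual characteristic polynomials suffices. -/
theorem mlt_of_mlt' (hM : Stmt_MLT') : Stmt_MLT := mlt_of_split stmt_Split hM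

end Fermat.Agent.S59.H99

end
-- ==== END Fermat.Agent.S59.H99_Split

-- ==== BEGIN Fermat.Agent.S59.Lim.Defs
section

/-!
# S59, package LIM (helper94): from the torsion levels to `TWGeom` — definitions and leaves

Layer A (pure algebra): the MIRROR of `Asm.TWGeom` at the divisible level.

* the `ϖ`-adic Tate module is helper2's `H2.tate ϖ W` (`S59/Lim/H2_Tate.lean`, LIM-TATE DONE).
* `IsDiv ϖ W`  : `W` is `ϖ`-power torsion, `ϖ`-divisible, and `W[ϖ]` is finite.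
* `gk B`       : the generalised kernel `⋃_N ker B^N`.
* `HDiv`       : mirror of `Asm.HMod` (a divisible module with a Hecke action, local at `θ`).
* `TWDiv`      : mirror of `Asm.TWGeom`.

Leaves (exact statements): `Stmt_DEC_W` (LIM-DEC, torsion form; the Tate part is
`H2.isCompl_tateSub`), `Stmt_KERNM` (kernel of the total norm on a free `𝒪[Δ]`-module),
`Stmt_LIM_A` (assembly).

No `sorry`; definitions only.
-/

set_option autoImplicit false

open Polynomial CuspForm IsLocalRing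

namespace Fermat.Agent.S59.Lim

open Fermat.Agent.S59.Asm

/-! ## 1. Divisible modules, generalised kernels

The Tate module `H2.tate ϖ W`, `H2.ev`, `H2.map`, `H2.mapEnd`, `H2.tateSub` and their properties
are helper2's (`S59/Lim/H2_Tate.lean`, `H2_TateMap.lean`). -/

section Tate

variable {𝒪 : Type*} [CommRing 𝒪]

variable {ϖ : 𝒪} {W : Type*} [AddCommGroup W] [Module 𝒪 W]

/-- `W` is `ϖ`-power torsion, `ϖ`-divisible, and `W[ϖ]` is finite. -/
structure IsDiv (ϖ : 𝒪) (W : Type*) [AddCommGroup W] [Module 𝒪 W] : Prop where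
  tors : ∀ x : W, ∃ k : ℕ, ϖ ^ k • x = 0
  div : ∀ x : W, ∃ y : W, ϖ • y = x
  fin : Finite (Submodule.torsionBy 𝒪 W ϖ)

/-- The generalised kernel `⋃_N ker B^N`. -/
def gk (B : Module.End 𝒪 W) : Submodule 𝒪 W where
  carrier := {x | ∃ N : ℕ, (B ^ N) x = 0}
  zero_mem' := ⟨0, map_zero _⟩
  add_mem' := by
    rintro x y ⟨N, hN⟩ ⟨N', hN'⟩
    refine ⟨N + N', ?_⟩
    rw [map_add]
    have h1 : (B ^ (N + N')) x = 0 := by
      rw [add_comm, pow_add, Module.End.mul_apply, hN, map_zero]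
    have h2 : (B ^ (N + N')) y = 0 := by
      rw [pow_add, Module.End.mul_apply, hN', map_zero]
    rw [h1, h2, add_zero]
  smul_mem' := by
    rintro c x ⟨N, hN⟩
    exact ⟨N, by rw [map_smul, hN, smul_zero]⟩

theorem mem_gk {B : Module.End 𝒪 W} {x : W} : x ∈ gk B ↔ ∃ N : ℕ, (B ^ N) x = 0 := Iff.rfl

end Tate

/-! ## 2. The mirror of `HMod` and `TWGeom` at the divisible level -/

/-- A divisible module with a Hecke action, local at `θ` (mirror of `Asm.HMod`). -/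
structure HDiv (𝒪 : Type) [CommRing 𝒪] [IsLocalRing 𝒪] (ϖ : 𝒪) (N : ℕ) [NeZero N] (S : Set ℕ)
    (θ : CuspForm.heckeAlgebra N 2 S →+* ResidueField 𝒪) : Type 1 where
  /-- the module -/
  W : Type
  [instAddCommGroup : AddCommGroup W]
  [instModule : Module 𝒪 W]
  isDiv : IsDiv ϖ W
  /-- the Hecke action -/
  η : CuspForm.heckeAlgebra N 2 S →+* Module.End 𝒪 W
  η_local : ∀ (t : CuspForm.heckeAlgebra N 2 S) (a : 𝒪), residue 𝒪 a = θ t →
    ∀ x : W, ϖ • x = 0 → ∃ m : ℕ, ((η t - a • (1 : Module.End 𝒪 W)) ^ m) x = 0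

attribute [instance] HDiv.instAddCommGroup HDiv.instModule

/-- The data at a Taylor–Wiles family at the divisible level (mirror of `Asm.TWGeom`).
`gal` is the TWISTED Galois action. -/
structure TWDiv (𝒪 : Type) [CommRing 𝒪] [IsLocalRing 𝒪] (ϖ : 𝒪) (p : ℕ)
    (ρbar : ResidualGaloisRep (ResidueField 𝒪))
    (N : ℕ) [NeZero N] (S : Finset ℕ)
    (θ : CuspForm.heckeAlgebra N 2 (↑S : Set ℕ) →+* ResidueField 𝒪)
    (MD : HDiv 𝒪 ϖ N (↑S : Set ℕ) θ) {r : ℕ} (n : ℕ) (qv : Fin r → ℕ)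
    [NeZero (twLevel N qv)] : Type 1 where
  /-- restriction of Hecke operators (package REST) -/
  rest : CuspForm.heckeAlgebra (twLevel N qv) 2 (↑(twSet S qv) : Set ℕ) →+*
    CuspForm.heckeAlgebra N 2 (↑S : Set ℕ)
  rest_T : ∀ (ℓ : ℕ) (hℓ : ℓ.Prime) (hℓN' : ¬ ℓ ∣ twLevel N qv)
    (hℓS' : ℓ ∉ (↑(twSet S qv) : Set ℕ)) (hℓN : ¬ ℓ ∣ N) (hℓS : ℓ ∉ (↑S : Set ℕ)),
    rest (CuspForm.heckeAlgebra.T hℓ hℓN' hℓS') = CuspForm.heckeAlgebra.T hℓ hℓN hℓS
  /-- the divisible Hecke module at the level `N · ∏ q_j²` -/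
  WD : HDiv 𝒪 ϖ (twLevel N qv) (↑(twSet S qv) : Set ℕ) (θ.comp rest)
  /-- the twisted Galois action -/
  gal : GalQ →* Module.End 𝒪 WD.W
  /-- every element is fixed by an open subgroup -/
  gal_cont : ∀ x : WD.W, ∃ L : IntermediateField ℚ (AlgebraicClosure ℚ),
    FiniteDimensional ℚ L ∧ ∀ σ : GalQ, (∀ y ∈ L, σ y = y) → gal σ x = x
  gal_η : ∀ (g : GalQ) (t : CuspForm.heckeAlgebra (twLevel N qv) 2 (↑(twSet S qv) : Set ℕ)),
    Commute (gal g) (WD.η t)
  /-- Eichler–Shimura -/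
  es : ∀ (ℓ : ℕ) (hℓ : ℓ.Prime) (hℓN : ¬ ℓ ∣ twLevel N qv)
    (hℓS : ℓ ∉ (↑(twSet S qv) : Set ℕ)),
    ∀ A : ValuationSubring (AlgebraicClosure ℚ), A.LiesOverPrime ℓ →
      ∀ σ : GalQ, A.IsFrobeniusAt σ ℓ →
        gal σ * gal σ - WD.η (CuspForm.heckeAlgebra.T hℓ hℓN hℓS) * gal σ
          + (ℓ : 𝒪) • (1 : Module.End 𝒪 WD.W) = 0
  /-- the diamond operators -/
  d : Fin r → Module.End 𝒪 WD.W
  d_pow : ∀ j, d j ^ (p ^ n) = 1
  d_comm : ∀ i j, Commute (d i) (d j)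
  d_η : ∀ (j : Fin r) (t : CuspForm.heckeAlgebra (twLevel N qv) 2 (↑(twSet S qv) : Set ℕ)),
    Commute (d j) (WD.η t)
  d_gal : ∀ (j : Fin r) (g : GalQ), Commute (d j) (gal g)
  /-- norm surjectivity along the tower, on `W[ϖ]` (hypothesis `hstep` of `H90.tower_basis`) -/
  hstep : ∀ (j : Fin r) (v : WD.W), ϖ • v = 0 → (∀ i, i ≤ j → d i v = v) →
    ∃ w : WD.W, ϖ • w = 0 ∧ (∀ i, i < j → d i w = w) ∧
      Fermat.Agent.S59.TWH.H90.nm (p ^ n) (d j) w = v
  /-- the projection to the minimal level (`π_*` followed by the identification with level `N`) -/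
  π : WD.W →ₗ[𝒪] MD.W
  /-- the pull-back (`π^*`) -/
  πup : MD.W →ₗ[𝒪] WD.W
  πup_injective : Function.Injective πup
  /-- `π^* π_* = ∑_δ δ` -/
  πup_π : ∀ x : WD.W, πup (π x) = Fermat.Agent.S59.TWH.H90.nmTot (p ^ n) d x
  d_πup : ∀ (j : Fin r) (y : MD.W), d j (πup y) = πup y
  /-- (INV) on `W[ϖ]`: invariants are pull-backs -/
  inv : ∀ v : WD.W, ϖ • v = 0 → (∀ j, d j v = v) → ∃ y : MD.W, πup y = v
  π_η : ∀ (t : CuspForm.heckeAlgebra (twLevel N qv) 2 (↑(twSet S qv) : Set ℕ)) (v : WD.W),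
    π (WD.η t v) = MD.η (rest t) (π v)
  /-- local–global compatibility at `q_j`, geometric form -/
  P : Fin r → ValuationSubring (AlgebraicClosure ℚ)
  P_over : ∀ j, (P j).LiesOverPrime (qv j)
  frob : Fin r → GalQ
  frob_spec : ∀ j, (P j).IsFrobeniusAt (frob j) (qv j)
  σ : Fin r → GalQ
  σ_mem : ∀ j, σ j ∈ (P j).inertiaSubgroupIn ℚ
  a : Fin r → 𝒪
  a' : Fin r → 𝒪
  a_ne : ∀ j, residue 𝒪 (a j) ≠ residue 𝒪 (a' j)
  charpoly_frob : ∀ j, LinearMap.charpoly (ρbar.ρ (frob j)) =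
    (X - C (residue 𝒪 (a j))) * (X - C (residue 𝒪 (a' j)))
  /-- `(F - a)(F - a')` is nilpotent on `W[ϖ]` (all Jordan–Hölder factors are `ρbar`) -/
  frob_nil : ∀ (j : Fin r) (x : WD.W), ϖ • x = 0 → ∃ m : ℕ,
    (((gal (frob j) - a j • (1 : Module.End 𝒪 WD.W)) *
      (gal (frob j) - a' j • (1 : Module.End 𝒪 WD.W))) ^ m) x = 0
  /-- the inertia element `σ_j` acts on the generalised `a_j`-eigenspace of `frob_j` as `d_j` -/
  lg : ∀ (j : Fin r) (x : WD.W), x ∈ gk (gal (frob j) - a j • (1 : Module.End 𝒪 WD.W)) →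
    gal (σ j) x = d j x

/-! ## 3. Leaves -/

/-- **LIM-DEC, torsion form (W)**: on a `ϖ`-power torsion module, if `(F - a)(F - a')` is
nilpotent on every element of `W[ϖ]` and `a - a'` is a unit, then `W` is the direct sum of the
generalised kernels of `F - a` and `F - a'`. -/
def Stmt_DEC_W : Prop :=
  ∀ (𝒪 : Type) [CommRing 𝒪] (ϖ : 𝒪) (W : Type) [AddCommGroup W] [Module 𝒪 W],
    (∀ x : W, ∃ k : ℕ, ϖ ^ k • x = 0) →
    ∀ (F : Module.End 𝒪 W) (a a' : 𝒪), IsUnit (a - a') →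
    (∀ x : W, ϖ • x = 0 → ∃ m : ℕ,
      (((F - a • (1 : Module.End 𝒪 W)) * (F - a' • (1 : Module.End 𝒪 W))) ^ m) x = 0) →
    IsCompl (gk (F - a • (1 : Module.End 𝒪 W))) (gk (F - a' • (1 : Module.End 𝒪 W)))

/-- **KERNM**: on a module which is free over `𝒪[Δ]` in the `mon`-shape, the kernel of the total
norm is `∑_j (d_j - 1) V`, and the invariants are the total norms. -/
def Stmt_KERNM : Prop :=
  ∀ (𝒪 : Type) [CommRing 𝒪] (V : Type) [AddCommGroup V] [Module 𝒪 V] (m r : ℕ), 0 < m →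
    ∀ (d : Fin r → Module.End 𝒪 V), (∀ i j, Commute (d i) (d j)) → (∀ j, d j ^ m = 1) →
    ∀ (rk : ℕ) (b : Fin rk → V),
    Function.Bijective (fun f : Fin rk × (Fin r → Fin m) → 𝒪 =>
      ∑ x : Fin rk × (Fin r → Fin m),
        f x • Fermat.Agent.S59.TWH.H90.mon d (fun j => (x.2 j : ℕ)) (b x.1)) →
    (LinearMap.ker (Fermat.Agent.S59.TWH.H90.nmTot m d) = ⨆ j, LinearMap.range (d j - 1)) ∧
    (∀ v : V, (∀ j, d j v = v) → ∃ w : V, Fermat.Agent.S59.TWH.H90.nmTot m d w = v)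

/-- **LIM-A**: the assembly `TWDiv ⟹ TWGeom`.  The minimal-level module is
`M.V = H2.tate ϖ MD.W`. -/
def Stmt_LIM_A : Prop :=
  ∀ (𝒪 : Type) [CommRing 𝒪] [IsDomain 𝒪] [IsDiscreteValuationRing 𝒪]
    [IsAdicComplete (maximalIdeal 𝒪) 𝒪] (ϖ : 𝒪), Irreducible ϖ →
    ∀ (p : ℕ) [Fact p.Prime], (p : 𝒪) ∈ maximalIdeal 𝒪 →
    ∀ (ρbar : ResidualGaloisRep (ResidueField 𝒪)) (N : ℕ) [NeZero N] (S : Finset ℕ)
      (θ : CuspForm.heckeAlgebra N 2 (↑S : Set ℕ) →+* ResidueField 𝒪)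
      (MD : HDiv 𝒪 ϖ N (↑S : Set ℕ) θ),
    ∃ M : HMod 𝒪 N (↑S : Set ℕ) θ, (Nontrivial MD.W → Nontrivial M.V) ∧
      ∀ (r n : ℕ) (qv : Fin r → ℕ) [NeZero (twLevel N qv)],
        TWDiv 𝒪 ϖ p ρbar N S θ MD n qv → Nonempty (TWGeom 𝒪 p ρbar N S θ M n qv)

end Fermat.Agent.S59.Lim

end
-- ==== END Fermat.Agent.S59.Lim.Defs

-- ==== BEGIN Fermat.Agent.S59.TW
section

/-!
# S59 wiring (helper53), layer 3: `R = T` from a Taylor–Wiles patching datum

* `injective_of_patchingDatum` : if `M ≠ 0` is a module over the deformation ring `D.R` on which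
  `ker (φ : D.R → T)` acts trivially, and there is a patching datum for `(D.R, M)`, then `φ` is
  injective.  (PATCH + S57: `M` is a faithful `D.R`-module.)
* `eigenform_of_patchingDatum` : hence every representation of type `𝒟` over `𝒪` lifting `ρbar`
  with integral Frobenius traces comes from a normalised eigenform of the level of `T`.

What remains for the minimal case of the modularity lifting theorem is therefore exactly the
construction of the patching datum (package TW-DATUM of `NOTES/plan/S59.md`).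
-/

set_option autoImplicit false

open Polynomial CuspForm CongruenceSubgroup ModularFormClass IsLocalRing

namespace Fermat.Agent.S59

/-- `R = T` from a patching datum. -/
theorem injective_of_patchingDatum
    {𝒪 : Type} [CommRing 𝒪] [IsDomain 𝒪] [IsDiscreteValuationRing 𝒪]
    [IsAdicComplete (maximalIdeal 𝒪) 𝒪] [Finite (ResidueField 𝒪)]
    {p : ℕ} (hp : (p : 𝒪) ∈ maximalIdeal 𝒪)
    {ρbar : ResidualGaloisRep (ResidueField 𝒪)}
    {𝒟 : ∀ ⦃A : Type⦄ [CommRing A] [IsLocalRing A] [Algebra 𝒪 A], GaloisRepAdic A → Prop}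
    (D : GaloisRep.DeformationRingData 𝒪 ρbar 𝒟)
    {T : Type} [CommRing T] [Algebra 𝒪 T] (φ : D.R →ₐ[𝒪] T)
    {M : Type} [AddCommGroup M] [Module D.R M] [Nontrivial M]
    (hM : ∀ a ∈ RingHom.ker (φ : D.R →+* T), ∀ x : M, a • x = 0)
    {r : ℕ} (P : Algebra.PatchingDatum 𝒪 p r D.R M) :
    Function.Injective φ := by
  obtain ⟨L⟩ := Fermat.Agent.S59.Patch.patch hp D.residue_surjective P
  obtain ⟨-, hann, -⟩ := Fermat.Agent.S57.result L
  rw [injective_iff_map_eq_zero]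
  intro a ha
  have h1 : a ∈ Module.annihilator D.R M := by
    rw [Module.mem_annihilator]
    exact hM a ha
  rw [hann] at h1
  exact (Submodule.mem_bot _).mp h1

/-- The minimal case of modularity lifting, from a patching datum. -/
theorem eigenform_of_patchingDatum
    {𝒪 : Type} [CommRing 𝒪] [IsDomain 𝒪] [IsDiscreteValuationRing 𝒪]
    [IsAdicComplete (maximalIdeal 𝒪) 𝒪] [Finite (ResidueField 𝒪)] [CharZero 𝒪]
    {p : ℕ} (hp : (p : 𝒪) ∈ maximalIdeal 𝒪)
    {ρbar : ResidualGaloisRep (ResidueField 𝒪)}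
    {𝒟 : ∀ ⦃A : Type⦄ [CommRing A] [IsLocalRing A] [Algebra 𝒪 A], GaloisRepAdic A → Prop}
    (D : GaloisRep.DeformationRingData 𝒪 ρbar 𝒟)
    {N : ℕ} [NeZero N] {S : Set ℕ}
    {θ : CuspForm.heckeAlgebra N 2 S →+* ResidueField 𝒪}
    {T : Type} [CommRing T] [IsLocalRing T] [IsNoetherianRing T]
    [IsAdicComplete (maximalIdeal T) T] [Algebra 𝒪 T] [IsLocalHom (algebraMap 𝒪 T)]
    [Module.Finite 𝒪 T] [Module.Free 𝒪 T]
    (H : CuspForm.HeckeGaloisRepDatum N S 𝒪 θ T)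
    (φ : D.R →ₐ[𝒪] T) (hφs : Function.Surjective φ) (hφ : IsLocalHom (φ : D.R →+* T))
    (e : (D.ρ.baseChangeAlong (φ : D.R →+* T) hφ).IsEquiv H.ρ)
    {M : Type} [AddCommGroup M] [Module D.R M] [Nontrivial M]
    (hM : ∀ a ∈ RingHom.ker (φ : D.R →+* T), ∀ x : M, a • x = 0)
    {r : ℕ} (P : Algebra.PatchingDatum 𝒪 p r D.R M)
    (ρ : GaloisRepAdic 𝒪) (hρ : 𝒟 ρ)
    (hres : ρ.residual.IsEquiv
      (ρbar.baseChangeAlong (ResidueField.map (algebraMap 𝒪 𝒪))))
    (a : ℕ → ℤ)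
    (hfrob : ∀ ℓ : ℕ, ℓ.Prime → ¬ ℓ ∣ N → ℓ ∉ S →
      ∀ A : ValuationSubring (AlgebraicClosure ℚ), A.LiesOverPrime ℓ →
        ∀ σ : AlgebraicClosure ℚ ≃ₐ[ℚ] AlgebraicClosure ℚ, A.IsFrobeniusAt σ ℓ →
          LinearMap.charpoly (ρ.ρ σ) = X ^ 2 - C (((a ℓ : ℤ) : 𝒪)) * X + C ((ℓ : 𝒪))) :
    ∃ g : CuspForm (Gamma0 N) 2, g.IsNormalizedEigenform ∧
      ∀ ℓ : ℕ, ℓ.Prime → ¬ ℓ ∣ N → ℓ ∉ S → qCoeff ⇑g ℓ = (a ℓ : ℂ) :=
  eigenform_of_RT D H φ hφs (injective_of_patchingDatum hp D φ hM P) hφ e ρ hρ hres a hfrob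

end Fermat.Agent.S59

end
-- ==== END Fermat.Agent.S59.TW

-- ==== BEGIN Fermat.Agent.S59.TWH.H14_Div
section

/-!
# S59 TW-DATUM leaf DIV (helper14)

`stmt_DIV` : for a complete noetherian local ring `𝒪` with `(p : 𝒪) ∈ 𝔪`, `p` prime,
every power series in `𝒪⟦X₁,…,X_r⟧` is congruent modulo
`J_n = ((1 + X_j)^(p^n) - 1)_j` to an `𝒪`-combination of the `∏_j (1 + X_j)^(e_j)`, `e_j < p^n`.

More generally (`stmt_DIV_of_fg`): any commutative ring `𝒪` complete for a finitely generated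
ideal `I` containing `p`.
-/

set_option autoImplicit false
set_option linter.style.haveILetI false

open MvPowerSeries

namespace Fermat.Agent.S59.TWH.H14

section Pi

variable {𝒪 : Type*} [CommRing 𝒪]

theorem forall_mem_of_mem_smul_top_pi {ι : Type*} {J : Ideal 𝒪} (g : ι → 𝒪)
    (hg : g ∈ (J • ⊤ : Submodule 𝒪 (ι → 𝒪))) (i : ι) : g i ∈ J := by
  induction hg using Submodule.smul_induction_on' with
  | smul a ha m _ => exact J.mul_mem_right _ ha
  | add x _ y _ hx hy => exact J.add_mem hx hy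

theorem mem_smul_top_pi_of_forall {ι : Type*} {J : Ideal 𝒪} (hJ : J.FG) (g : ι → 𝒪)
    (hg : ∀ i, g i ∈ J) : g ∈ (J • ⊤ : Submodule 𝒪 (ι → 𝒪)) := by
  classical
  obtain ⟨s, rfl⟩ := hJ
  have h1 : ∀ i, ∃ c : 𝒪 → 𝒪, g i = ∑ a ∈ s, c a * a := by
    intro i
    have h := hg i
    rw [Submodule.mem_span_finset] at h
    obtain ⟨f, -, hf⟩ := h
    exact ⟨f, by simpa [smul_eq_mul] using hf.symm⟩
  choose c hc using h1
  have h2 : g = ∑ a ∈ s, a • (fun i => c i a) := by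
    ext i
    simp only [Finset.sum_apply, Pi.smul_apply, smul_eq_mul]
    rw [hc i]
    exact Finset.sum_congr rfl fun a _ => mul_comm _ _
  rw [h2]
  exact Submodule.sum_mem _ fun a ha =>
    Submodule.smul_mem_smul (Ideal.subset_span ha) Submodule.mem_top

theorem isHausdorff_pi (I : Ideal 𝒪) (ι : Type*) [IsHausdorff I 𝒪] : IsHausdorff I (ι → 𝒪) := by
  refine ⟨fun x hx => funext fun i => ?_⟩
  apply IsHausdorff.haus' (I := I) (x i)
  intro n
  have h := hx n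
  rw [SModEq.zero] at h ⊢
  have h' := forall_mem_of_mem_smul_top_pi x h i
  simpa using h'

theorem isPrecomplete_pi {I : Ideal 𝒪} (hI : I.FG) (ι : Type*) [IsPrecomplete I 𝒪] :
    IsPrecomplete I (ι → 𝒪) := by
  refine ⟨fun f hf => ?_⟩
  have h1 : ∀ i, ∃ L : 𝒪, ∀ n, f n i ≡ L [SMOD (I ^ n • ⊤ : Submodule 𝒪 𝒪)] := by
    intro i
    apply IsPrecomplete.prec' (fun n => f n i)
    intro m n hmn
    have h := hf hmn
    rw [SModEq.sub_mem] at h ⊢
    have h' := forall_mem_of_mem_smul_top_pi _ h i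
    simpa using h'
  choose L hL using h1
  refine ⟨L, fun n => ?_⟩
  rw [SModEq.sub_mem]
  apply mem_smul_top_pi_of_forall (hI.pow)
  intro i
  have h := hL i n
  rw [SModEq.sub_mem] at h
  simpa using h

end Pi

section Split

variable {𝒪 : Type*} [CommRing 𝒪] {r : ℕ}

/-- the part of `t` of degree `< N` in `X_j` -/
noncomputable def truncAt (j : Fin r) (N : ℕ) (t : MvPowerSeries (Fin r) 𝒪) :
    MvPowerSeries (Fin r) 𝒪 :=
  fun m => if m j < N then coeff m t else 0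

/-- the quotient of `t` by `X_j^N` -/
noncomputable def shiftAt (j : Fin r) (N : ℕ) (t : MvPowerSeries (Fin r) 𝒪) :
    MvPowerSeries (Fin r) 𝒪 :=
  fun m => coeff (m + Finsupp.single j N) t

theorem coeff_truncAt (j : Fin r) (N : ℕ) (t : MvPowerSeries (Fin r) 𝒪) (m : Fin r →₀ ℕ) :
    coeff m (truncAt j N t) = if m j < N then coeff m t else 0 := rfl

theorem coeff_shiftAt (j : Fin r) (N : ℕ) (t : MvPowerSeries (Fin r) 𝒪) (m : Fin r →₀ ℕ) :
    coeff m (shiftAt j N t) = coeff (m + Finsupp.single j N) t := rfl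

/-- single-variable division by `X_j^N` -/
theorem exists_div_X_pow (j : Fin r) (N : ℕ) (t : MvPowerSeries (Fin r) 𝒪) :
    ∃ t' d : MvPowerSeries (Fin r) 𝒪, t = t' + X j ^ N * d ∧
      ∀ m, coeff m t' = if m j < N then coeff m t else 0 := by
  classical
  refine ⟨truncAt j N t, shiftAt j N t, ?_, fun m => rfl⟩
  ext m
  rw [map_add, X_pow_eq, coeff_monomial_mul, one_mul, coeff_truncAt, coeff_shiftAt]
  by_cases h : m j < N
  · have h' : ¬ (Finsupp.single j N ≤ m) := by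
      intro hle
      have := hle j
      simp at this
      omega
    rw [if_pos h, if_neg h', add_zero]
  · have h' : Finsupp.single j N ≤ m := by
      intro i
      by_cases hij : i = j
      · subst hij; simp; omega
      · simp [Ne.symm hij]
    rw [if_neg h, if_pos h', zero_add, tsub_add_cancel_of_le h']

/-- division by all the `X_j^N`, `j ∈ S` -/
theorem exists_div_X_pow_finset (N : ℕ) (c : MvPowerSeries (Fin r) 𝒪) (S : Finset (Fin r)) :
    ∃ (t : MvPowerSeries (Fin r) 𝒪) (d : Fin r → MvPowerSeries (Fin r) 𝒪),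
      c = t + ∑ j ∈ S, X j ^ N * d j ∧
      ∀ m, (∃ j ∈ S, N ≤ m j) → coeff m t = 0 := by
  classical
  induction S using Finset.induction_on with
  | empty => exact ⟨c, fun _ => 0, by simp, by simp⟩
  | insert j S hj ih =>
    obtain ⟨t, d, hc, ht⟩ := ih
    obtain ⟨t', d', htt', ht'⟩ := exists_div_X_pow j N t
    refine ⟨t', Function.update d j d', ?_, ?_⟩
    · rw [Finset.sum_insert hj, Function.update_self, hc, htt']
      have : ∑ x ∈ S, X x ^ N * Function.update d j d' x = ∑ x ∈ S, X x ^ N * d x := by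
        refine Finset.sum_congr rfl fun x hx => ?_
        rw [Function.update_of_ne]
        rintro rfl
        exact hj hx
      rw [this]
      ring
    · rintro m ⟨i, hi, hNi⟩
      rw [ht']
      split_ifs with h
      · rcases Finset.mem_insert.mp hi with rfl | hiS
        · omega
        · exact ht m ⟨i, hiS, hNi⟩
      · rfl

/-- the exponent vector of `e : Fin r → Fin N` -/
noncomputable def toF {N : ℕ} (e : Fin r → Fin N) : Fin r →₀ ℕ :=
  Finsupp.equivFunOnFinite.symm (fun j => (e j : ℕ))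

@[simp] theorem toF_apply {N : ℕ} (e : Fin r → Fin N) (j : Fin r) : toF e j = (e j : ℕ) := rfl

theorem toF_injective {N : ℕ} : Function.Injective (toF : (Fin r → Fin N) → (Fin r →₀ ℕ)) := by
  intro e e' h
  funext j
  have := DFunLike.congr_fun h j
  simp only [toF_apply] at this
  exact Fin.ext this

theorem prod_X_pow_eq_monomial {N : ℕ} (e : Fin r → Fin N) :
    (∏ j, (X j : MvPowerSeries (Fin r) 𝒪) ^ (e j : ℕ)) = monomial (toF e) 1 := by
  rw [monomial_eq', map_one, one_mul, Finsupp.prod_fintype]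
  · rfl
  · intro i; simp

/-- a power series all of whose exponents are `< N` is a combination of monomials -/
theorem eq_sum_monomials (N : ℕ) (t : MvPowerSeries (Fin r) 𝒪)
    (ht : ∀ m, (∃ j, N ≤ m j) → coeff m t = 0) :
    t = ∑ e : Fin r → Fin N, C (coeff (toF e) t) * ∏ j, (X j) ^ (e j : ℕ) := by
  classical
  ext m
  rw [map_sum]
  simp only [prod_X_pow_eq_monomial, coeff_C_mul, coeff_monomial]
  by_cases h : ∃ j, N ≤ m j
  · rw [ht m h]
    symm
    refine Finset.sum_eq_zero fun e _ => ?_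
    rw [if_neg, mul_zero]
    rintro rfl
    obtain ⟨j, hj⟩ := h
    have := (e j).2
    simp only [toF_apply] at hj
    omega
  · simp only [not_exists, not_le] at h
    rw [Finset.sum_eq_single (fun j => ⟨m j, h j⟩)]
    · have : toF (fun j => (⟨m j, h j⟩ : Fin N)) = m := by
        ext j; simp
      rw [this, if_pos rfl, mul_one]
    · intro e _ he
      rw [if_neg, mul_zero]
      rintro rfl
      apply he
      funext j
      exact Fin.ext (by simp)
    · intro h'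
      exact absurd (Finset.mem_univ _) h'

/-- **SPLIT** -/
theorem exists_split (N : ℕ) (c : MvPowerSeries (Fin r) 𝒪) :
    ∃ (a : (Fin r → Fin N) → 𝒪) (d : Fin r → MvPowerSeries (Fin r) 𝒪),
      c = ∑ e : Fin r → Fin N, C (a e) * ∏ j, (X j) ^ (e j : ℕ) + ∑ j, X j ^ N * d j := by
  obtain ⟨t, d, hc, ht⟩ := exists_div_X_pow_finset N c Finset.univ
  refine ⟨fun e => coeff (toF e) t, d, ?_⟩
  rw [← eq_sum_monomials N t (fun m ⟨j, hj⟩ => ht m ⟨j, Finset.mem_univ _, hj⟩)]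
  exact hc

end Split

section Basis

variable {𝒪 : Type*} [CommRing 𝒪] {R : Type*} [CommRing R] [Algebra 𝒪 R]

theorem pow_mem_span_one_add_pow (x : R) (N k : ℕ) (hk : k < N) :
    x ^ k ∈ Submodule.span 𝒪 (Set.range fun i : Fin N => (1 + x) ^ (i : ℕ)) := by
  have h : x ^ k = ((1 + x) + (-1)) ^ k := by ring
  rw [h, add_pow]
  refine Submodule.sum_mem _ fun i hi => ?_
  have hi' : i < N := by
    have := Finset.mem_range.mp hi
    omega
  have h2 : (1 + x) ^ i * (-1) ^ (k - i) * (k.choose i : R)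
      = ((-1) ^ (k - i) * (k.choose i : 𝒪)) • (1 + x) ^ i := by
    rw [Algebra.smul_def, map_mul, map_pow, map_neg, map_one, map_natCast]
    ring
  rw [h2]
  exact Submodule.smul_mem _ _ (Submodule.subset_span ⟨⟨i, hi'⟩, rfl⟩)

theorem prod_mem_span_prod {r N : ℕ} (y u : Fin r → R)
    (hu : ∀ j, u j ∈ Submodule.span 𝒪 (Set.range fun i : Fin N => (y j) ^ (i : ℕ))) :
    ∏ j, u j ∈ Submodule.span 𝒪 (Set.range fun e : Fin r → Fin N => ∏ j, (y j) ^ (e j : ℕ)) := by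
  classical
  have h1 : ∀ j, ∃ c : Fin N → 𝒪, ∑ i, c i • (y j) ^ (i : ℕ) = u j := fun j =>
    (Submodule.mem_span_range_iff_exists_fun 𝒪).mp (hu j)
  choose c hc using h1
  have h2 : ∏ j, u j = ∑ e : Fin r → Fin N, (∏ j, c j (e j)) • ∏ j, (y j) ^ (e j : ℕ) := by
    simp_rw [← hc]
    rw [Finset.prod_univ_sum]
    simp only [Fintype.piFinset_univ]
    refine Finset.sum_congr rfl fun e _ => ?_
    simp only [Algebra.smul_def, Finset.prod_mul_distrib, map_prod]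
  rw [h2]
  exact Submodule.sum_mem _ fun e _ => Submodule.smul_mem _ _ (Submodule.subset_span ⟨e, rfl⟩)

theorem exists_pow_prime_pow_eq {p : ℕ} (hp : p.Prime) (n : ℕ) (x : R) :
    ∃ g : R, x ^ (p ^ n) = ((1 + x) ^ (p ^ n) - 1) - (p : R) * g := by
  obtain ⟨g, hg⟩ := exists_add_pow_prime_pow_eq hp 1 x n
  refine ⟨1 * x * g, ?_⟩
  rw [hg, one_pow]
  ring

end Basis

section Main

variable (𝒪 : Type) [CommRing 𝒪] (p r n : ℕ)

/-- the `𝒪`-linear map `(a, d) ↦ Σ a_e Y^e + Σ d_j f_j` -/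
noncomputable def divMap :
    ((Fin r → Fin (p ^ n)) → 𝒪) × (Fin r → MvPowerSeries (Fin r) 𝒪) →ₗ[𝒪]
      MvPowerSeries (Fin r) 𝒪 :=
  (Fintype.linearCombination 𝒪 (fun e : Fin r → Fin (p ^ n) => onePlusXPow 𝒪 e)).coprod
    ((Fintype.linearCombination (MvPowerSeries (Fin r) 𝒪)
      (fun j : Fin r => ((1 + X j) ^ (p ^ n) - 1 : MvPowerSeries (Fin r) 𝒪))).restrictScalars 𝒪)

theorem divMap_apply (a : (Fin r → Fin (p ^ n)) → 𝒪) (d : Fin r → MvPowerSeries (Fin r) 𝒪) :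
    divMap 𝒪 p r n (a, d) = ∑ e, C (a e) * onePlusXPow 𝒪 e +
      ∑ j, d j * ((1 + X j) ^ (p ^ n) - 1) := by
  simp [divMap, Fintype.linearCombination_apply, smul_eq_C_mul]

/-- the source as a Pi type -/
noncomputable def divEquiv :
    ((Fin r → Fin (p ^ n)) ⊕ (Fin r × (Fin r →₀ ℕ)) → 𝒪) ≃ₗ[𝒪]
      ((Fin r → Fin (p ^ n)) → 𝒪) × (Fin r → MvPowerSeries (Fin r) 𝒪) :=
  (LinearEquiv.sumArrowLequivProdArrow _ _ 𝒪 𝒪).trans
    ((LinearEquiv.refl 𝒪 _).prodCongr (LinearEquiv.curry 𝒪 𝒪 (Fin r) (Fin r →₀ ℕ)))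

variable {p} in
theorem exists_step (I : Ideal 𝒪) (hp : p.Prime) (hpI : (p : 𝒪) ∈ I)
    (c : MvPowerSeries (Fin r) 𝒪) :
    ∃ x, c - divMap 𝒪 p r n x ∈ (I • ⊤ : Submodule 𝒪 (MvPowerSeries (Fin r) 𝒪)) := by
  obtain ⟨a, d, hc⟩ := exists_split (p ^ n) c
  have h1 : ∑ e : Fin r → Fin (p ^ n),
      C (a e) * ∏ j, (X j : MvPowerSeries (Fin r) 𝒪) ^ (e j : ℕ) ∈
        Submodule.span 𝒪 (Set.range fun e : Fin r → Fin (p ^ n) => onePlusXPow 𝒪 e) := by
    refine Submodule.sum_mem _ fun e _ => ?_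
    rw [← smul_eq_C_mul]
    refine Submodule.smul_mem _ _ ?_
    exact prod_mem_span_prod (fun j => 1 + X j) (fun j => X j ^ (e j : ℕ))
      (fun j => pow_mem_span_one_add_pow (X j) (p ^ n) (e j) (e j).2)
  rw [← Fintype.range_linearCombination] at h1
  obtain ⟨a', ha'⟩ := h1
  choose g hg using fun j : Fin r =>
    exists_pow_prime_pow_eq (R := MvPowerSeries (Fin r) 𝒪) hp n (X j)
  refine ⟨(a', d), ?_⟩
  have h2 : c - divMap 𝒪 p r n (a', d) = (p : 𝒪) • (- ∑ j, g j * d j) := by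
    have h3 : divMap 𝒪 p r n (a', d) =
        ∑ e : Fin r → Fin (p ^ n), C (a e) * ∏ j, (X j : MvPowerSeries (Fin r) 𝒪) ^ (e j : ℕ) +
        ∑ j, d j * ((1 + X j) ^ (p ^ n) - 1) := by
      rw [← ha']
      simp [divMap, Fintype.linearCombination_apply]
    rw [h3, hc]
    simp_rw [hg]
    rw [Algebra.smul_def, map_natCast, mul_neg, Finset.mul_sum, ← Finset.sum_neg_distrib,
      add_sub_add_left_eq_sub, ← Finset.sum_sub_distrib]
    refine Finset.sum_congr rfl fun j _ => ?_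
    ring
  rw [h2]
  exact Submodule.smul_mem_smul hpI Submodule.mem_top

variable {p} in
/-- **DIV**, general form: `𝒪` complete for a finitely generated ideal containing `p`. -/
theorem stmt_DIV_of_fg (I : Ideal 𝒪) (hI : I.FG) [IsAdicComplete I 𝒪] (hp : p.Prime)
    (hpI : (p : 𝒪) ∈ I) : Stmt_DIV 𝒪 p r n := by
  intro c
  haveI : IsPrecomplete I ((Fin r → Fin (p ^ n)) ⊕ (Fin r × (Fin r →₀ ℕ)) → 𝒪) :=
    isPrecomplete_pi hI _
  haveI : IsHausdorff I (MvPowerSeries (Fin r) 𝒪) := isHausdorff_pi I (Fin r →₀ ℕ)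
  have hsurj : Function.Surjective
      ((divMap 𝒪 p r n) ∘ₗ (divEquiv 𝒪 p r n).toLinearMap) := by
    apply surjective_of_mkQ_comp_surjective (I := I)
    intro y
    obtain ⟨c', rfl⟩ := Submodule.mkQ_surjective _ y
    obtain ⟨x, hx⟩ := exists_step 𝒪 r n I hp hpI c'
    refine ⟨(divEquiv 𝒪 p r n).symm x, ?_⟩
    simp only [LinearMap.coe_comp, Function.comp_apply, LinearEquiv.coe_coe,
      LinearEquiv.apply_symm_apply, Submodule.mkQ_apply]
    rw [eq_comm, Submodule.Quotient.eq]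
    exact hx
  obtain ⟨x, hx⟩ := hsurj c
  obtain ⟨⟨a, d⟩, had⟩ : ∃ ad, ad = divEquiv 𝒪 p r n x := ⟨_, rfl⟩
  refine ⟨a, ?_⟩
  have h : c - ∑ e, C (a e) * onePlusXPow 𝒪 e = ∑ j, d j * ((1 + X j) ^ (p ^ n) - 1) := by
    rw [← hx, LinearMap.comp_apply, LinearEquiv.coe_coe, ← had, divMap_apply]
    ring
  rw [h, twIdeal]
  exact Ideal.sum_mem _ fun j _ => Ideal.mul_mem_left _ _ (Ideal.subset_span ⟨j, rfl⟩)

variable {p} in
/-- **DIV** for a complete noetherian local ring with `p ∈ 𝔪`. -/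
theorem stmt_DIV [IsLocalRing 𝒪] [IsNoetherianRing 𝒪]
    [IsAdicComplete (IsLocalRing.maximalIdeal 𝒪) 𝒪] (hp : p.Prime)
    (hpm : (p : 𝒪) ∈ IsLocalRing.maximalIdeal 𝒪) : Stmt_DIV 𝒪 p r n :=
  stmt_DIV_of_fg 𝒪 r n (IsLocalRing.maximalIdeal 𝒪) (IsNoetherian.noetherian _) hp hpm

end Main

end Fermat.Agent.S59.TWH.H14

end
-- ==== END Fermat.Agent.S59.TWH.H14_Div
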