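-- GENERATED (merged mirror, NOTES/tools/trim/merge3_helper67.py): 11 modules of the originals, bodies verbatim.
import Mathlib
import Fermat.Agent.Zm.S43_L02_001
import Fermat.Agent.Zm.S43_L01_001
import Fermat.Agent.Zm.S44_L06_000
import Fermat.Agent.Zm.S35_L01_003
import Fermat.Agent.Lib.EllFinite.Main
import Fermat.Agent.Zm.S35_L02_001
import Fermat.Agent.Zm.S44_L01_001
import Fermat.Agent.Zm.S48_L16_000
import Fermat.Agent.S17.OpenStab
import Fermat.Agent.Zm.S43_L01_002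
import Fermat.Agent.Zm.S48_L07_000
import Fermat.Agent.Zm.S48_L03_000
import Fermat.Agent.NEB.H29_PiOntoAlg
import Fermat.Agent.Zm.S43_L02_002
import Fermat.Agent.Zm.S35_L04_005
import Fermat.Agent.Zm.S35_L06_003
import Fermat.Agent.Zm.S35_L21_000
import Fermat.Agent.Zm.S35_L16_000
import Fermat.Agent.Zm.S35_L04_002
import Fermat.Agent.Zm.S43_L01_003
import Fermat.Agent.Zm.S43_L02_000
import Fermat.Agent.Zm.S44_L14_000
import Fermat.Agent.Zm.S33_L03_000
import Fermat.Agent.Zm.S56_L04_000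
import Fermat.Agent.Zm.S35_L10_005
import Fermat.Agent.Zm.S35_L11_001

-- ==== BEGIN Fermat.Agent.L.Pivot.H76_TypeIdx
section

set_option autoImplicit false

namespace Fermat.Agent.L.Pivot.H76

open MvPowerSeries

section Idx

variable {α : Type*} (k g : ℕ)

/-- A function on `Fin (6 * k + g)` from its values at `cIdx j i` and at `xIdx a`. -/
def mk6 (f : Fin k → Fin 6 → α) (h : Fin g → α) (i : Fin (6 * k + g)) : α :=
  if hi : i.1 < 6 * k then f ⟨i.1 / 6, by omega⟩ ⟨i.1 % 6, Nat.mod_lt _ (by norm_num)⟩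
  else h ⟨i.1 - 6 * k, by have := i.2; omega⟩

/-- A function on `Fin (4 * k + g)` from its values at `cIdx' j i` and at `xIdx' a`. -/
def mk4 (f : Fin k → Fin 4 → α) (h : Fin g → α) (i : Fin (4 * k + g)) : α :=
  if hi : i.1 < 4 * k then f ⟨i.1 / 4, by omega⟩ ⟨i.1 % 4, Nat.mod_lt _ (by norm_num)⟩
  else h ⟨i.1 - 4 * k, by have := i.2; omega⟩

variable {k g}

@[simp] theorem mk6_cIdx (f : Fin k → Fin 6 → α) (h : Fin g → α) (j : Fin k) (i : Fin 6) :
    mk6 k g f h (cIdx k g j i) = f j i := by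
  have hj := j.2
  have hi := i.2
  have h1 : (cIdx k g j i).1 = 6 * j.1 + i.1 := rfl
  have h4 : (cIdx k g j i).1 < 6 * k := by rw [h1]; omega
  unfold mk6
  rw [dif_pos h4]
  congr 1
  · apply Fin.ext
    simp only [h1]
    omega
  · apply Fin.ext
    simp only [h1]
    omega

@[simp] theorem mk6_xIdx (f : Fin k → Fin 6 → α) (h : Fin g → α) (a : Fin g) :
    mk6 k g f h (xIdx k g a) = h a := by
  have ha := a.2
  have h1 : (xIdx k g a).1 = 6 * k + a.1 := rfl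
  unfold mk6
  rw [dif_neg (by rw [h1]; omega)]
  congr 1
  apply Fin.ext
  simp only [h1]
  omega

@[simp] theorem mk4_cIdx' (f : Fin k → Fin 4 → α) (h : Fin g → α) (j : Fin k) (i : Fin 4) :
    mk4 k g f h (cIdx' k g j i) = f j i := by
  have hj := j.2
  have hi := i.2
  have h1 : (cIdx' k g j i).1 = 4 * j.1 + i.1 := rfl
  have h4 : (cIdx' k g j i).1 < 4 * k := by rw [h1]; omega
  unfold mk4
  rw [dif_pos h4]
  congr 1
  · apply Fin.ext
    simp only [h1]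
    omega
  · apply Fin.ext
    simp only [h1]
    omega

@[simp] theorem mk4_xIdx' (f : Fin k → Fin 4 → α) (h : Fin g → α) (a : Fin g) :
    mk4 k g f h (xIdx' k g a) = h a := by
  have ha := a.2
  have h1 : (xIdx' k g a).1 = 4 * k + a.1 := rfl
  unfold mk4
  rw [dif_neg (by rw [h1]; omega)]
  congr 1
  apply Fin.ext
  simp only [h1]
  omega

theorem idx_cases (i : Fin (6 * k + g)) :
    (∃ (j : Fin k) (i' : Fin 6), i = cIdx k g j i') ∨ ∃ a : Fin g, i = xIdx k g a := by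
  by_cases h : i.1 < 6 * k
  · left
    refine ⟨⟨i.1 / 6, by omega⟩, ⟨i.1 % 6, Nat.mod_lt _ (by norm_num)⟩, ?_⟩
    apply Fin.ext
    simp only [cIdx]
    omega
  · right
    refine ⟨⟨i.1 - 6 * k, by have := i.2; omega⟩, ?_⟩
    apply Fin.ext
    simp only [xIdx]
    omega

theorem idx_cases' (i : Fin (4 * k + g)) :
    (∃ (j : Fin k) (i' : Fin 4), i = cIdx' k g j i') ∨ ∃ a : Fin g, i = xIdx' k g a := by
  by_cases h : i.1 < 4 * k
  · left
    refine ⟨⟨i.1 / 4, by omega⟩, ⟨i.1 % 4, Nat.mod_lt _ (by norm_num)⟩, ?_⟩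
    apply Fin.ext
    simp only [cIdx']
    omega
  · right
    refine ⟨⟨i.1 - 4 * k, by have := i.2; omega⟩, ?_⟩
    apply Fin.ext
    simp only [xIdx']
    omega

theorem fin6_cases (i : Fin 6) : i = 0 ∨ i = 1 ∨ i = 2 ∨ i = 3 ∨ i = 4 ∨ i = 5 := by
  fin_cases i <;> simp

theorem fin4_cases (i : Fin 4) : i = 0 ∨ i = 1 ∨ i = 2 ∨ i = 3 := by
  fin_cases i <;> simp

end Idx

section Uniq

variable {σ : Type*} [Finite σ] {𝒪 : Type*} [CommRing 𝒪] {E : Type*} [CommRing E]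

/-- Key estimate for `(U)`, for ring homomorphisms (after helper52's `algHom_sub_mem_pow`). -/
theorem ringHom_sub_mem_pow (J : Ideal E) (φ ψ : MvPowerSeries σ 𝒪 →+* E)
    (hC : ∀ c : 𝒪, φ (C c) = ψ (C c))
    (hX : ∀ i, φ (X i) = ψ (X i)) (hm : ∀ i, ψ (X i) ∈ J) (N : ℕ) (f : MvPowerSeries σ 𝒪) :
    φ f - ψ f ∈ J ^ N := by
  induction N generalizing f with
  | zero => simp
  | succ N ih =>
    have key : ∀ h ∈ Ideal.span (Set.range fun s => (X s : MvPowerSeries σ 𝒪)),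
        φ h - ψ h ∈ J ^ (N + 1) ∧ ψ h ∈ J := by
      intro h hh
      induction hh using Submodule.span_induction with
      | mem x hx =>
        obtain ⟨i, rfl⟩ := hx
        refine ⟨?_, hm i⟩
        simp only [hX i, sub_self]
        exact Ideal.zero_mem _
      | zero => simp
      | add x y _ _ hx hy =>
        refine ⟨?_, ?_⟩
        · have : φ (x + y) - ψ (x + y) = (φ x - ψ x) + (φ y - ψ y) := by
            simp only [map_add]; ring
          rw [this]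
          exact Ideal.add_mem _ hx.1 hy.1
        · rw [map_add]
          exact Ideal.add_mem _ hx.2 hy.2
      | smul a x _ hx =>
        refine ⟨?_, ?_⟩
        · have : φ (a • x) - ψ (a • x) = φ a * (φ x - ψ x) + (φ a - ψ a) * ψ x := by
            simp only [smul_eq_mul, map_mul]; ring
          rw [this]
          refine Ideal.add_mem _ (Ideal.mul_mem_left _ _ hx.1) ?_
          rw [pow_succ]
          exact Ideal.mul_mem_mul (ih a) hx.2
        · rw [smul_eq_mul, map_mul]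
          exact Ideal.mul_mem_left _ _ hx.2
    have h1 := (key _ (H52.sub_C_constantCoeff_mem_span_X f)).1
    have h2 : φ (f - C (constantCoeff f)) - ψ (f - C (constantCoeff f)) = φ f - ψ f := by
      simp only [map_sub, hC]; ring
    rwa [h2] at h1

/-- `(U)` for ring homomorphisms into a ring with a nilpotent ideal containing the images of the
variables. -/
theorem ringHom_eq_of_pow_eq_bot (J : Ideal E) (N : ℕ) (hJ : J ^ N = ⊥)
    (φ ψ : MvPowerSeries σ 𝒪 →+* E) (hC : ∀ c : 𝒪, φ (C c) = ψ (C c))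
    (hX : ∀ i, φ (X i) = ψ (X i)) (hm : ∀ i, ψ (X i) ∈ J) (f : MvPowerSeries σ 𝒪) :
    φ f = ψ f := by
  have h := ringHom_sub_mem_pow J φ ψ hC hX hm N f
  rw [hJ, Ideal.mem_bot] at h
  exact sub_eq_zero.1 h

/-- `(U)` for ring homomorphisms into a ring that is `J`-adically Hausdorff. -/
theorem ringHom_eq_of_isHausdorff (J : Ideal E) [IsHausdorff J E]
    (φ ψ : MvPowerSeries σ 𝒪 →+* E) (hC : ∀ c : 𝒪, φ (C c) = ψ (C c))
    (hX : ∀ i, φ (X i) = ψ (X i)) (hm : ∀ i, ψ (X i) ∈ J) (f : MvPowerSeries σ 𝒪) :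
    φ f = ψ f := by
  have h : φ f - ψ f = 0 := by
    refine IsHausdorff.haus ‹_› _ fun n => ?_
    rw [SModEq.zero]
    simpa using ringHom_sub_mem_pow J φ ψ hC hX hm n f
  exact sub_eq_zero.1 h

end Uniq

end Fermat.Agent.L.Pivot.H76

end
-- ==== END Fermat.Agent.L.Pivot.H76_TypeIdx

-- ==== BEGIN Fermat.Agent.L.Pivot.H76_Wire2F
section

set_option autoImplicit false
set_option linter.style.haveILetI false
set_option linter.unusedVariables false

open WeierstrassCurve WeierstrassCurve.Affine WeierstrassCurve.Affine.Point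
open scoped WeierstrassCurve.Affine

namespace Fermat.Agent.L.Pivot.H76

open Fermat.Agent.L.Pivot Fermat.Agent.S44 Fermat.Agent.S43

/-- Two integral models of the same curve have the same `a_ℓ` modulo `p` at a common good prime
`ℓ ≠ p`. -/
theorem apOfModel_congr {E : WeierstrassCurve ℚ} {W W' : WeierstrassCurve ℤ}
    (hW : W.IsIntegralModelOf E) (hW' : W'.IsIntegralModelOf E) (p : ℕ) [Fact p.Prime]
    {ℓ : ℕ} (hℓ : ℓ.Prime) (hpℓ : p ≠ ℓ) (hg : W.IsGoodPrimeFor ℓ)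
    (hg' : W'.IsGoodPrimeFor ℓ) :
    ((W.apOfModel ℓ : ℤ) : ZMod p) = ((W'.apOfModel ℓ : ℤ) : ZMod p) := by
  obtain ⟨A, σ, hA, hσ⟩ := Fermat.Agent.Lib.FrobExists.exists_place_and_frobenius ℓ hℓ
  obtain ⟨C, hC⟩ := hW
  obtain ⟨C', hC'⟩ := hW'
  have h1 := (Fermat.Agent.Lib.EllFinite.stmt_main W p ℓ hℓ hpℓ hg A hA σ hσ).2.1
  have h2 := (Fermat.Agent.Lib.EllFinite.stmt_main W' p ℓ hℓ hpℓ hg' A hA σ hσ).2.1
  have e1 := Fermat.Agent.L.H19.galoisTrace_eq (K := AlgebraicClosure ℚ) hC p σ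
  have e2 := Fermat.Agent.L.H19.galoisTrace_eq (K := AlgebraicClosure ℚ) hC' p σ
  rw [← h1, ← h2, ← e1, ← e2]

/-- The congruence for one model gives the congruence for another model. -/
theorem cong_of_model {E : WeierstrassCurve ℚ} {W W' : WeierstrassCurve ℤ}
    (hW : W.IsIntegralModelOf E) (hW' : W'.IsIntegralModelOf E) (p : ℕ) [Fact p.Prime]
    {ℓ : ℕ} (hℓ : ℓ.Prime) (hpℓ : p ≠ ℓ) (hg : W.IsGoodPrimeFor ℓ)
    (hg' : W'.IsGoodPrimeFor ℓ) (𝔪 : Ideal (integralClosure ℤ ℂ))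
    (hp𝔪 : (p : integralClosure ℤ ℂ) ∈ 𝔪) (a : integralClosure ℤ ℂ)
    (h : a - ((W'.apOfModel ℓ : ℤ) : integralClosure ℤ ℂ) ∈ 𝔪) :
    a - ((W.apOfModel ℓ : ℤ) : integralClosure ℤ ℂ) ∈ 𝔪 := by
  have h1 := apOfModel_congr hW hW' p hℓ hpℓ hg hg'
  have h2 : (p : ℤ) ∣ W'.apOfModel ℓ - W.apOfModel ℓ :=
    (ZMod.intCast_eq_intCast_iff_dvd_sub _ _ _).mp h1
  obtain ⟨m, hm⟩ := h2
  have h3 : a - ((W.apOfModel ℓ : ℤ) : integralClosure ℤ ℂ)
      = (a - ((W'.apOfModel ℓ : ℤ) : integralClosure ℤ ℂ))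
        + (p : integralClosure ℤ ℂ) * ((m : ℤ) : integralClosure ℤ ℂ) := by
    have h4 : ((W'.apOfModel ℓ : ℤ) : integralClosure ℤ ℂ)
        - ((W.apOfModel ℓ : ℤ) : integralClosure ℤ ℂ)
        = (p : integralClosure ℤ ℂ) * ((m : ℤ) : integralClosure ℤ ℂ) := by
      have := congrArg (fun z : ℤ => (z : integralClosure ℤ ℂ)) hm
      simpa using this
    rw [← h4]
    ring
  rw [h3]
  exact 𝔪.add_mem h (𝔪.mul_mem_right _ hp𝔪)

/-- Transfer between a curve over `ℚ` and its integral model. -/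
theorem transfer_of_map_eq {W : WeierstrassCurve ℤ} {E : WeierstrassCurve ℚ}
    (h : W.map (Int.castRingHom ℚ) = E) (p : ℕ) :
    (∀ q : ℕ, UnrW W p q ↔
      GaloisRepUnramifiedAt (K := AlgebraicClosure ℚ) ℚ E.toAffine p q) ∧
    (∀ q : ℕ, IsExcW W p q ↔ (p ∣ q - 1 ∧
      ∃ A : ValuationSubring (AlgebraicClosure ℚ), A.LiesOverPrime q ∧
        ∃ c : ZMod p, ∀ σ : GQ, A.IsFrobeniusAt σ q → ∀ v : Tors E p,
          galoisRepModuleEnd (S := ℚ) (K := AlgebraicClosure ℚ) E.toAffine p σ v = c • v)) ∧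
    (GaloisRepIsIrreducible (K := AlgebraicClosure ℚ) ℚ E.toAffine p ↔
      GaloisRepIsIrreducible (K := AlgebraicClosure ℚ) ℚ
        (W.map (Int.castRingHom ℚ)).toAffine p) := by
  subst h
  exact ⟨fun q => Iff.rfl, fun q => Iff.rfl, Iff.rfl⟩

/-- **Layer F of PV-WIRE2**: PIVOT for the Frey curve from the curve form. -/
theorem pivotFrey2_of (hW : Stmt_PivotWCore5) : Stmt_PivotFrey2 := by
  intro P N q hcond hpN hq hqp hqN hirr hmod hunr hall
  obtain ⟨f, W', 𝔪, hf, hW', h𝔪, hp𝔪, hcong⟩ := hmod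
  haveI : Fact P.p.Prime := ⟨P.pp⟩
  have hmap := Fermat.Agent.S04.H59.freyCurveInt_map P
  have hΔ₀ := Fermat.Agent.S04.H59.freyCurveInt_Δ_ne_zero P
  have hss := Fermat.Agent.S04.H59.freyCurveInt_isSemistableModel P
  have hW₀ := Fermat.Agent.L.H52.freyCurveInt_isIntegralModelOf P
  have hΔ' : W'.Δ ≠ 0 := integralModel_Δ_ne_zero P hW'
  obtain ⟨hunr_iff, hexc_iff, hirr_iff⟩ := transfer_of_map_eq hmap P.p
  have hL : LowerConcl P.p N q P.freyCurveInt := by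
    refine hW P.p P.pp P.hp5 P.freyCurveInt hΔ₀ hss (hirr_iff.mp hirr) N q hcond.squarefree hpN hq
      hqN ((hunr_iff q).mpr hunr) ?_ f 𝔪 W'.Δ.natAbs.primeFactors hf h𝔪 hp𝔪 ?_
    · intro q' hq' hq'N hu
      obtain ⟨hdvd, A, hA, c, hc⟩ := hall q' hq' hq'N ((hunr_iff q').mp hu)
      exact (hexc_iff q').mpr ⟨hdvd, A, hA, c, hc⟩
    · intro ℓ hℓ hℓS hg hℓN hℓp
      have hg' : W'.IsGoodPrimeFor ℓ := prime_not_mem_of_good hℓ hΔ' hℓS
      obtain ⟨a, ha, hac⟩ := hcong ℓ hℓ hg' hℓN hℓp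
      exact ⟨a, ha, cong_of_model hW₀ hW' P.p hℓ (Ne.symm hℓp) hg hg' 𝔪 hp𝔪 a hac⟩
  exact result_of_lowerConcl P hcond hq hqN P.freyCurveInt hW₀ hL

end Fermat.Agent.L.Pivot.H76

end
-- ==== END Fermat.Agent.L.Pivot.H76_Wire2F

-- ==== BEGIN Fermat.Agent.NEB.Geom.H29_ZGalCont
section

/-!
# NEB-GEOM, leaf Z-GALCONT (helper29): points of `J_H` have open stabilisers

* `galcont_of_isFF`   : for a function field `ℚ̄ · F₀ ⊂ ℚ̄((q))` (`F₀ ⊂ ℚ((q))`), every divisor class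
  of degree `0` is fixed by `Gal(ℚ̄/L)` for a number field `L`.
* `stmt_ZGALCONT`     : the case `J_H = JH M c H`.
* `stmt_ZFIN_final`   : `J_H[p^k]` is finite, UNCONDITIONALLY (Z-FIN with EIG-MONO of helper98).
* `galcont_finite`    : one number field for a finite set of classes.
* `stmt_ZGALCONT_tors`: one number field `L` such that `Gal(ℚ̄/L)` fixes `J_H[p^k]` pointwise.
-/

set_option autoImplicit false

noncomputable section

namespace Fermat.Agent.NEB.Geom.H29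

open AlgebraicCurve ModularCurve IntermediateField
open Fermat.Agent.NEB Fermat.Agent.NEB.H14 Fermat.Agent.NEB.JH Fermat.Agent.RED

/-- Finiteness of zeros from `IsFF`. -/
theorem zerosFinite_of_isFF (F₀ : IntermediateField ℚ (LaurentSeries ℚ))
    (hFF : IsFF Kbar ↥(laurentBaseChange Kbar F₀)) : Fermat.Agent.S17.ZerosFinite F₀ := by
  intro x hx
  have : HasPrincipalDivisors Kbar ↥(laurentBaseChange Kbar F₀) := hasPD hFF
  obtain ⟨D, hD, -⟩ := HasPrincipalDivisors.exists_divisor (K := Kbar) x hx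
  refine D.support.finite_toSet.subset fun v hv => ?_
  have h0 : 0 < v.ord x := hv
  rw [Finset.mem_coe, Finsupp.mem_support_iff, hD v]
  exact h0.ne'

/-- **GALCONT**, general form: every class of `Pic⁰(ℚ̄ · F₀)` is fixed by the Galois group of a
number field. -/
theorem galcont_of_isFF (F₀ : IntermediateField ℚ (LaurentSeries ℚ))
    (hFF : IsFF Kbar ↥(laurentBaseChange Kbar F₀))
    (y : Pic0 Kbar ↥(laurentBaseChange Kbar F₀)) :
    ∃ L : IntermediateField ℚ Kbar, FiniteDimensional ℚ L ∧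
      ∀ σ : Kbar ≃ₐ[ℚ] Kbar, (∀ x ∈ L, σ x = x) → σ • y = y := by
  obtain ⟨L, hL, h⟩ :=
    Fermat.Agent.S17.exists_field_fixing_class F₀ (zerosFinite_of_isFF F₀ hFF) y
  exact ⟨L, hL, fun σ hσ => h σ ((IntermediateField.mem_fixingSubgroup_iff L σ).2 hσ)⟩

/-- One number field for finitely many classes. -/
theorem galcont_finite (F₀ : IntermediateField ℚ (LaurentSeries ℚ))
    (hFF : IsFF Kbar ↥(laurentBaseChange Kbar F₀))
    (S : Set (Pic0 Kbar ↥(laurentBaseChange Kbar F₀))) (hS : S.Finite) :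
    ∃ L : IntermediateField ℚ Kbar, FiniteDimensional ℚ L ∧
      ∀ σ : Kbar ≃ₐ[ℚ] Kbar, (∀ x ∈ L, σ x = x) → ∀ y ∈ S, σ • y = y := by
  induction S, hS using Set.Finite.induction_on with
  | empty => exact ⟨⊥, inferInstance, fun _ _ y hy => absurd hy (Set.notMem_empty y)⟩
  | @insert a S _ _ ih =>
      obtain ⟨L₁, h₁, hL₁⟩ := ih
      obtain ⟨L₂, h₂, hL₂⟩ := galcont_of_isFF F₀ hFF a
      refine ⟨L₁ ⊔ L₂, IntermediateField.finiteDimensional_sup L₁ L₂, fun σ hσ y hy => ?_⟩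
      rcases hy with rfl | hy
      · exact hL₂ σ fun x hx => hσ x ((le_sup_right : L₂ ≤ L₁ ⊔ L₂) hx)
      · exact hL₁ σ (fun x hx => hσ x ((le_sup_left : L₁ ≤ L₁ ⊔ L₂) hx)) y hy

/-- **Z-GALCONT**: every point of `J_H` is fixed by the Galois group of a number field. -/
theorem stmt_ZGALCONT (M c : ℕ) [NeZero M] (H : Subgroup (ZMod c)ˣ) (h2 : 2 ≤ c) (hc : c ∣ M)
    (y : JH M c H) :
    ∃ L : IntermediateField ℚ Kbar, FiniteDimensional ℚ L ∧
      ∀ σ : Kbar ≃ₐ[ℚ] Kbar, (∀ x ∈ L, σ x = x) → σ • y = y :=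
  galcont_of_isFF (FHQ M c H) (isFF_JH M c H h2 hc) y

/-- An embedding `ℚ̄ → ℂ`. -/
theorem exists_kbar_to_complex : Nonempty (Kbar →+* ℂ) := by
  have : Algebra.IsAlgebraic ℚ (AlgebraicClosure ℚ) := AlgebraicClosure.isAlgebraic ℚ
  exact ⟨(IsAlgClosed.lift : AlgebraicClosure ℚ →ₐ[ℚ] ℂ).toRingHom⟩

/-- **Z-FIN**, unconditional: `J_H[p^k]` is finite. -/
theorem stmt_ZFIN_final {M c : ℕ} [NeZero M] [NeZero c] (H : Subgroup (ZMod c)ˣ) (h2 : 2 ≤ c)
    (hc : c ∣ M) (p : ℕ) [Fact p.Prime] (k : ℕ) :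
    {y : JH M c H | ((p ^ k : ℕ) : ℤ) • y = 0}.Finite := by
  obtain ⟨ι⟩ := exists_kbar_to_complex
  exact stmt_ZFIN' H h2 hc p ι
    (Fermat.Agent.NEB.EIG.H98.stmt_MonoH ι h2 hc (NeZero.ne M) (Fact.out : p.Prime).ne_zero) k

/-- **Z-GALCONT** for torsion: one number field `L` such that `Gal(ℚ̄/L)` fixes `J_H[p^k]`. -/
theorem stmt_ZGALCONT_tors {M c : ℕ} [NeZero M] [NeZero c] (H : Subgroup (ZMod c)ˣ) (h2 : 2 ≤ c)
    (hc : c ∣ M) (p : ℕ) [Fact p.Prime] (k : ℕ) :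
    ∃ L : IntermediateField ℚ Kbar, FiniteDimensional ℚ L ∧
      ∀ σ : Kbar ≃ₐ[ℚ] Kbar, (∀ x ∈ L, σ x = x) →
        ∀ y : JH M c H, ((p ^ k : ℕ) : ℤ) • y = 0 → σ • y = y :=
  galcont_finite (FHQ M c H) (isFF_JH M c H h2 hc) _ (stmt_ZFIN_final H h2 hc p k)

end Fermat.Agent.NEB.Geom.H29

end
end
-- ==== END Fermat.Agent.NEB.Geom.H29_ZGalCont

-- ==== BEGIN Fermat.Agent.NEB.Geom.H46_WLGCore
section

/-!
# NEB-GEOM, leaf W-LG (helper46): the core, over an abstract finite module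

`V` is a finite module over the finite commutative ring `R`, killed by `p ^ m`; `Γ` acts on `V` by
`galV`, `G` by `dV` (through elements of `R`).  From `TWH.absLG` for a tame generator `τ₀` and the
tame relations we get: the whole of `I` acts trivially on the generalised eigenspace `φ = u`.
-/

set_option autoImplicit false

namespace Fermat.Agent.NEB.Geom.H46

open Fermat.Agent.S59.TWH

section Cancel

variable {V : Type*} [AddCommGroup V]

/-- An element killed by two coprime integers is zero. -/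
theorem eq_zero_of_coprime_nsmul {Q P : ℕ} (h : Nat.Coprime Q P) {y : V} (h1 : Q • y = 0)
    (h2 : P • y = 0) : y = 0 := by
  have d1 : addOrderOf y ∣ Q := addOrderOf_dvd_of_nsmul_eq_zero h1
  have d2 : addOrderOf y ∣ P := addOrderOf_dvd_of_nsmul_eq_zero h2
  have d3 : addOrderOf y = 1 := Nat.eq_one_of_dvd_coprimes h d1 d2
  exact AddMonoid.addOrderOf_eq_one_iff.mp d3

end Cancel

section Generic

variable {R : Type*} [CommRing R] {V : Type*} [AddCommGroup V] [Module R V]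

theorem isUnit_add_mul_sub {c x y z : R} (hc : IsUnit c) (hx : IsNilpotent x)
    (hz : IsNilpotent z) : IsUnit (c + (x * y - z)) := by
  refine IsNilpotent.isUnit_add_left_of_commute ?_ hc (Commute.all _ _)
  exact (Commute.all _ _).isNilpotent_sub ((Commute.all _ _).isNilpotent_mul_right hx) hz

theorem smul_one_pow_eq_zero (r : R) (M : ℕ) (h : r ^ M = 0) :
    ((r • (1 : Module.End R V)) ^ M) = 0 := by
  rw [smul_pow, h, zero_smul]

theorem commute_smul_one (E : Module.End R V) (r : R) :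
    Commute E (r • (1 : Module.End R V)) :=
  (Commute.one_right E).smul_right r

theorem sub_smul_one_sub (E : Module.End R V) (a u : R) :
    E - a • (1 : Module.End R V) - (u - a) • (1 : Module.End R V)
      = (E - u • LinearMap.id : V →ₗ[R] V) := by
  rw [sub_smul]
  show _ = E - u • (1 : Module.End R V)
  abel

/-- the generalised eigenvectors of `E` for `a` are generalised eigenvectors for `u`, if `u - a`
is nilpotent -/
theorem gen_eigen_shift (E : Module.End R V) (a u : R) {M N : ℕ} (hM : (u - a) ^ M = 0)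
    {v : V} (hv : ((E - a • (1 : Module.End R V)) ^ N) v = 0) :
    (((E - u • LinearMap.id : V →ₗ[R] V)) ^ (N + M)) v = 0 := by
  have h := pow_sub_apply_eq_zero (E - a • (1 : Module.End R V)) ((u - a) • (1 : Module.End R V))
    (commute_smul_one _ _) (smul_one_pow_eq_zero (V := V) (u - a) M hM) hv
  rw [sub_smul_one_sub] at h
  exact h

end Generic

section Core

variable {R : Type*} [CommRing R] [Finite R] {V : Type*} [AddCommGroup V] [Module R V] [Finite V]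

/-- a unipotent operator of order prime to `p` on a `p`-group is trivial -/
theorem end_eq_one_of_unip {p m : ℕ} (hV : ∀ v : V, p ^ m • v = 0) (g : Module.End R V)
    (n Q : ℕ) (hQ : Nat.Coprime Q p) (hE : ∀ v, ((g - 1) ^ n) v = 0) (hg : ∀ v, (g ^ Q) v = v) :
    g = 1 := by
  apply eq_one_of_unip g n Q
  · exact LinearMap.ext hE
  · exact LinearMap.ext hg
  · intro f hf
    ext v
    rw [LinearMap.zero_apply]
    apply eq_zero_of_coprime_nsmul (Nat.Coprime.pow_right m hQ) _ (hV (f v))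
    have := congrArg (fun F : Module.End R V => F v) hf
    simpa [Module.End.mul_apply, Nat.cast_smul_eq_nsmul] using this

/-- **Core of W-LG.** -/
theorem wlg_core {p : ℕ} [Fact p.Prime] {m : ℕ} (hV : ∀ v : V, p ^ m • v = 0)
    {Γ : Type*} [Group Γ] (galV : Γ →* Module.End R V)
    {G : Type*} [Group G] (dV : G →* Module.End R V) (n : ℕ)
    (hdp : ∀ g, dV g ^ (p ^ n) = 1) (hd : ∀ g, ∃ z : R, ∀ v, dV g v = z • v)
    (KV : Submodule R V) (hKgal : ∀ g, ∀ x ∈ KV, galV g x ∈ KV)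
    (I : Subgroup Γ) (frob : Γ) (hnorm : ∀ σ ∈ I, frob * σ * frob⁻¹ ∈ I)
    (hinert : ∀ σ ∈ I, ∀ v, galV σ v - v ∈ KV)
    (u₀ : G) (u : R) (q : ℕ)
    (h5 : IsUnit (u ^ 2 - (q : R))) (h6a : IsNilpotent ((q : R) - 1))
    (hkey : ∀ x ∈ KV, (∀ g, dV g x = x) → u • galV frob x = (q : R) • x)
    (htriv : ∀ σ ∈ I, ∀ v : V, (∀ r : R, IsNilpotent r → r • v = 0) → galV σ v = v)
    (τ₀ : Γ) (hτ₀ : τ₀ ∈ I)
    (htame1 : ∀ σ ∈ I, ∃ j Q : ℕ, Nat.Coprime Q p ∧
      ∀ v, galV (((τ₀ ^ j)⁻¹ * σ) ^ Q) v = v)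
    (htame2 : ∃ Q : ℕ, Nat.Coprime Q p ∧
      ∀ v, galV (((τ₀ ^ q)⁻¹ * (frob * τ₀ * frob⁻¹)) ^ Q) v = v)
    (σ : Γ) (hσ : σ ∈ I) (v : V) (N : ℕ)
    (hv : (((galV frob * dV u₀ - u • LinearMap.id : V →ₗ[R] V)) ^ N) v = 0) :
    galV σ v = v := by
  classical
  -- the nilradical is nilpotent
  haveI : IsArtinianRing R := inferInstance
  obtain ⟨n𝔪, hn𝔪⟩ := IsArtinianRing.isNilpotent_nilradical (R := R)
  have h𝔪 : ∀ r ∈ (nilradical R) ^ n𝔪, ∀ v : V, r • v = 0 := by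
    intro r hr v
    rw [hn𝔪] at hr
    have : r = 0 := hr
    rw [this, zero_smul]
  have h6b : ∀ τ ∈ I, ∀ v : V, (∀ r ∈ nilradical R, r • v = 0) → galV τ v = v := by
    intro τ hτ v hv
    exact htriv τ hτ v (fun r hr => hv r (mem_nilradical.mpr hr))
  -- every element of inertia of order prime to `p` on `V` is trivial on `V`
  have hone : ∀ τ ∈ I, ∀ Q : ℕ, Nat.Coprime Q p → (∀ v, galV (τ ^ Q) v = v) → galV τ = 1 := by
    intro τ hτ Q hQ hτQ
    apply end_eq_one_of_unip hV (galV τ) n𝔪 Q hQ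
    · intro v
      exact pow_sub_one_apply_eq_zero (𝔪 := nilradical R) (galV τ) (h6b τ hτ) n𝔪 h𝔪 v
    · intro v
      rw [← map_pow]
      exact hτQ v
  -- the tame relation
  have hg : galV ((τ₀ ^ q)⁻¹ * (frob * τ₀ * frob⁻¹)) = 1 := by
    obtain ⟨Q, hQ, hQv⟩ := htame2
    exact hone _ (I.mul_mem (I.inv_mem (I.pow_mem hτ₀ q)) (hnorm τ₀ hτ₀)) Q hQ hQv
  have hrel : galV frob * galV τ₀ = galV τ₀ ^ q * galV frob := by
    have e : frob * τ₀ = τ₀ ^ q * ((τ₀ ^ q)⁻¹ * (frob * τ₀ * frob⁻¹)) * frob := by group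
    rw [← map_mul, e, map_mul, map_mul, hg, mul_one, map_pow]
  -- `dV` commutes with `R`-linear maps
  have hdcomm : ∀ (g : G) (F : Module.End R V), Commute (dV g) F := by
    intro g F
    obtain ⟨z, hz⟩ := hd g
    ext w
    rw [Module.End.mul_apply, Module.End.mul_apply, hz, hz, map_smul]
  -- the `p`-group `Δ`
  set Δ : Subgroup (Module.End R V)ˣ := (MonoidHom.toHomUnits dV).range with hΔdef
  have hΔ : IsPGroup p Δ := by
    rintro ⟨δ, g, rfl⟩
    refine ⟨n, ?_⟩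
    apply Subtype.ext
    apply Units.ext
    simp only [SubmonoidClass.mk_pow, Subgroup.coe_one, Units.val_pow_eq_pow_val,
      MonoidHom.coe_toHomUnits, Units.val_one]
    exact hdp g
  have hΔsmul : ∀ (δ : Δ) (w : V), ∃ g : G, δ • w = dV g w := by
    rintro ⟨δ, g, rfl⟩ w
    exact ⟨g, rfl⟩
  have hΔfix : ∀ w : V, (∀ δ : Δ, δ • w = w) → ∀ g, dV g w = w := by
    intro w hw g
    exact hw ⟨MonoidHom.toHomUnits dV g, ⟨g, rfl⟩⟩
  have hVp : ∀ w : V, ∃ k : ℕ, (p ^ k) • w = 0 := fun w => ⟨m, hV w⟩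
  set φ : V →ₗ[R] V := galV frob * dV u₀ with hφ
  have key := absLG hΔ hVp φ (galV τ₀) u q (nilradical R) n𝔪 h𝔪 KV
    (by
      intro δ x hx
      obtain ⟨g, hg⟩ := hΔsmul δ x
      obtain ⟨z, hz⟩ := hd g
      rw [hg, hz]
      exact KV.smul_mem z hx)
    (by
      intro x hx
      rw [hφ, Module.End.mul_apply]
      apply hKgal
      obtain ⟨z, hz⟩ := hd u₀
      rw [hz]
      exact KV.smul_mem z hx)
    (by
      intro δ w
      obtain ⟨δ, g, rfl⟩ := δ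
      show φ (dV g w) = dV g (φ w)
      exact (congrArg (fun F : Module.End R V => F w) (hdcomm g φ).eq).symm)
    (by
      intro δ w
      obtain ⟨δ, g, rfl⟩ := δ
      show dV g (u • w) = u • dV g w
      rw [map_smul])
    (hinert τ₀ hτ₀)
    (by
      intro x hx hfix
      have hfix' := hΔfix x hfix
      rw [hφ, Module.End.mul_apply, hfix' u₀]
      exact hkey x hx hfix')
    h5 (mem_nilradical.mpr h6a) (h6b τ₀ hτ₀)
    (by
      intro w
      rw [hφ]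
      have h1 : (galV frob * dV u₀) ((galV τ₀) w) = (galV frob * galV τ₀) (dV u₀ w) := by
        rw [Module.End.mul_apply, Module.End.mul_apply]
        congr 1
        exact congrArg (fun F : Module.End R V => F w) (hdcomm u₀ (galV τ₀)).eq
      rw [h1, hrel]
      rfl)
    v N hv
  -- general `σ`
  obtain ⟨j, Q, hQ, hQv⟩ := htame1 σ hσ
  have hh : galV ((τ₀ ^ j)⁻¹ * σ) = 1 :=
    hone _ (I.mul_mem (I.inv_mem (I.pow_mem hτ₀ j)) hσ) Q hQ hQv
  have e : σ = τ₀ ^ j * ((τ₀ ^ j)⁻¹ * σ) := by group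
  rw [e, map_mul, hh, mul_one, map_pow]
  have : ∀ i : ℕ, (galV τ₀ ^ i) v = v := by
    intro i
    induction i with
    | zero => rfl
    | succ i ih => rw [pow_succ, Module.End.mul_apply, key.1, ih]
  exact this j

end Core

end Fermat.Agent.NEB.Geom.H46

end
-- ==== END Fermat.Agent.NEB.Geom.H46_WLGCore

-- ==== BEGIN Fermat.Agent.NEB.Geom.H70_Fix
section

/-!
# Item 72 (LG-NEB), package NEB-GEOM, leaf FIX' (helper70)

`fix'`: at a place `P` over a prime `r ∤ M p`, for a `Δ`-fixed `p`-power torsion class `x` of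
`J_H`: if `t x` (`t = T_ℓ^H - (ℓ + 1)`) lies in the kernel of reduction then `t x = 0`.

Proof: INV' (helper29): `t x = π^* y₀`, `y₀ ∈ J₀(M)[p^k]`; CL-RES: `y₀ = y₁ + z` with
`y₁ ∈ K1(F₀(M))` and `π^* z = 0`; CL-TI: `y₁ = 0`.
-/

set_option autoImplicit false

noncomputable section

open ModularCurve AlgebraicCurve

namespace Fermat.Agent.NEB.Geom.H70

open Fermat.Agent.NEB Fermat.Agent.NEB.JH Fermat.Agent.NEB.H14

/-- **FIX'**. -/
theorem fix' (M c : ℕ) (H : Subgroup (ZMod c)ˣ) (p : ℕ) (hp : p.Prime) (hc2 : 2 ≤ c)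
    (hc : c ∣ M) (hM : M ≠ 0) (n : ℕ)
    (hexp : ∀ d : (ZMod c)ˣ, d ^ (p ^ n) ∈ H ∨ -(d ^ (p ^ n)) ∈ H)
    (hunr : ∀ w : Place Kbar ↥(FHbar M c H),
      ∃ x : ↥(modularFunctionFieldBar M), w.ord (inclBar M c H x) = 1)
    (ℓ : ℕ) [NeZero M] [NeZero ℓ] (hℓ : ℓ.Prime) (hℓM : ¬ ℓ ∣ M) (hd : HeckeData M c ℓ H)
    (P : ValuationSubring Kbar) (r : ℕ) (hr : r.Prime) (hrM : ¬ r ∣ M) (hrp : r ≠ p)
    (hP : P.LiesOverPrime r) (x : JH M c H) (hx : IsPTors p x)
    (hfix : ∀ d, hd.dd.ρ d • x = x)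
    (hK : InK1 P p (FHbar M c H) (TH hd.hβ x - (ℓ + 1) • x)) :
    TH hd.hβ x - (ℓ + 1) • x = 0 := by
  obtain ⟨k, hk⟩ := hx
  have hm0 : p ^ k ≠ 0 := pow_ne_zero k hp.ne_zero
  have hxm : ((p ^ k : ℕ) : ℤ) • x = 0 := by
    rw [natCast_zsmul]
    exact hk
  obtain ⟨y₀, hy₀, hup⟩ :=
    Fermat.Agent.NEB.H29.stmt_INV_JH' hd hℓ hℓM hunr (p ^ k) hm0 x hxm hfix
  have hy₀t : IsPTors p y₀ := ⟨k, by
    rw [natCast_zsmul] at hy₀
    exact hy₀⟩
  rw [← hup] at hK ⊢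
  obtain ⟨y₁, z, hyz, hy₁, hz⟩ := cl_RES M c H p hp hc2 hc hM hunr n hexp P r hr hrp hP y₀ hy₀t hK
  have hy₁0 : y₁ = 0 := cl_TI M p hp r hr hrM hrp P hP y₁ hy₁
  rw [hyz, hy₁0, zero_add]
  exact hz

end Fermat.Agent.NEB.Geom.H70

end
end
-- ==== END Fermat.Agent.NEB.Geom.H70_Fix

-- ==== BEGIN Fermat.Agent.NEB.H29_PiOnto
section

/-!
# LG-NEB, package PI-ONTO: cyclic covers of function fields (helper29)

`K` algebraically closed, `φ : E → L` a homomorphism of function fields over `K`, `c` a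
`K`-automorphism of `L` with `c ^ (p ^ a) = 1`, trivial on `φ E`, with
`φ (Norm x) = ∏_{i < p ^ a} c ^ i x`  (`L / E` cyclic with group `⟨c⟩` of order `p ^ a`).
`Φ` a correspondence on `L` of degree `d` whose function commutes with `c`, `T₀` an endomorphism of
`Pic⁰(E)` with `π_* ∘ Φ = T₀ ∘ π_*`; `t := Φ - d`, `t₀ := T₀ - d`.

* `pionto_ker`     : `x ∈ ker π_* ⟹ t x ∈ (c - 1) Pic⁰(L)`  (TSEN + F1);
* `stmt_PIONTO_FF` : if `t₀ ^ N₀ Pic⁰(E) ⊆ p Pic⁰(E)`, then `t ^ ((N₀ + 1) p ^ a) Pic⁰(L) ⊆ p Pic⁰(L)`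
  and every `y₀ ∈ Pic⁰(E)[p ^ k]` has `t₀ ^ ((N₀ + 1) p ^ a k + 1) y₀ = π_* y`, `y ∈ Pic⁰(L)[p ^ k]`.
-/

set_option autoImplicit false
set_option linter.style.haveILetI false

noncomputable section

namespace Fermat.Agent.NEB.H29

open AlgebraicCurve Fermat.Agent.RED Fermat.Agent.NEB.H14

section PiOnto

variable {K E L : Type} [Field K] [Field E] [Field L] [Algebra K E] [Algebra K L] [IsAlgClosed K]

omit [IsAlgClosed K] in
/-- A class is zero iff the divisor is principal. -/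
theorem pic0_mk_eq_zero_iff (D : Divisor.degZero (K := K) (F := L)) :
    Pic0.mk D = 0 ↔ (D : Divisor K L) ∈ Divisor.principal (K := K) (F := L) := by
  rw [Pic0.mk, QuotientAddGroup.eq_zero_iff, AddSubgroup.mem_addSubgroupOf]

/-- A correspondence whose function commutes with `c` commutes with `c` on divisors. -/
theorem corr_smul_comm (hL : IsFF K L) {Φ : Divisor K L →+ Divisor K L} {N : L → L} {d : ℤ}
    (hΦ : IsCorr Φ N d) (c : L ≃ₐ[K] L) (hNc : ∀ f, f ≠ 0 → N (c f) = c (N f))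
    (D : Divisor K L) : Φ (c • D) = c • Φ D := by
  haveI := hasPD hL
  have h := (hΦ.comp (isCorr_smulD c)).eq ((isCorr_smulD c).comp hΦ) (fun f hf => hNc f hf)
  exact DFunLike.congr_fun h D

/-- The induced map on `Pic⁰` commutes with `c`. -/
theorem picMap_smul_comm (hL : IsFF K L) {Φ : Divisor K L →+ Divisor K L} {N : L → L} {d : ℤ}
    (hΦ : IsCorr Φ N d) (c : L ≃ₐ[K] L) (hNc : ∀ f, f ≠ 0 → N (c f) = c (N f))
    (x : Pic0 K L) : picMap Φ (c • x) = c • picMap Φ x := by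
  obtain ⟨D, rfl⟩ := Pic0.mk_surjective x
  rw [Pic0.smul_mk, picMap_mk hΦ.isGood, picMap_mk hΦ.isGood, Pic0.smul_mk]
  refine congrArg Pic0.mk (Subtype.ext ?_)
  simp only [coe_degZeroMap, Pic0.coe_degZeroSMulHom]
  exact corr_smul_comm hL hΦ c hNc _

/-- **(KER)**: the kernel of `π_*` is Eisenstein modulo `(c - 1)`. -/
theorem pionto_ker (hE : IsFF K E) (hL : IsFF K L) (φ : E →ₐ[K] L) (c : L ≃ₐ[K] L)
    (n : ℕ) (hn : 0 < n) (hcn : c ^ n = 1)
    (hnorm : ∀ x : L, x ≠ 0 → φ (normFn φ x) = ∏ i : Fin n, (c ^ (i : ℕ)) x)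
    {Φ : Divisor K L →+ Divisor K L} {N : L → L} {d : ℤ} (hΦ : IsCorr Φ N d)
    (hNc : ∀ f, f ≠ 0 → N (c f) = c (N f))
    (x : Pic0 K L) (hx : pushP φ x = 0) :
    ∃ u : Pic0 K L, picMap Φ x - d • x = c • u - u := by
  haveI := hasPD hL
  haveI := hasPD hE
  obtain ⟨D, rfl⟩ := Pic0.mk_surjective x
  have hpush := isCorr_pushD hE hL φ
  -- `π_* D = div e`
  rw [pushP, picMap_mk hpush.isGood, pic0_mk_eq_zero_iff] at hx
  obtain ⟨e, he, hDe⟩ := hx
  simp only [coe_degZeroMap] at hDe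
  -- `e = Norm f`
  obtain ⟨f, hf⟩ := stmt_TSEN K E L hE hL φ e
  have hf0 : f ≠ 0 := by
    rintro rfl
    apply he
    rw [← hf]
    letI := algebraAlong φ
    haveI : Module.Finite E L := finiteAlong_hom hE hL φ
    show Algebra.norm E (0 : L) = 0
    exact Algebra.norm_zero
  -- the divisor of `f`
  obtain ⟨Df, hDf, hDf0⟩ := HasPrincipalDivisors.exists_divisor (K := K) f hf0
  -- `D' := D - div f` is killed by `π_*`
  have h1 : pushD φ ((D : Divisor K L) - Df) = 0 := by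
    apply Finsupp.ext
    intro v
    rw [map_sub, Finsupp.sub_apply, hDe v, (hpush.hasFn f hf0).2 Df hDf v, hf, sub_self,
      Finsupp.zero_apply]
  -- hence by the norm `∑ c^i`
  have h2 : ∑ i ∈ Finset.range n, (c ^ i) • ((D : Divisor K L) - Df) = 0 := by
    have h3 := pullD_comp_pushD_of_norm hE hL φ (fun i : Fin n => c ^ (i : ℕ)) hnorm
    have h4 := DFunLike.congr_fun h3 ((D : Divisor K L) - Df)
    rw [AddMonoidHom.comp_apply, h1, map_zero, AddMonoidHom.finsetSum_apply] at h4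
    rw [← Fin.sum_univ_eq_sum_range (fun i => (c ^ i) • ((D : Divisor K L) - Df)) n]
    exact h4.symm
  -- F1
  obtain ⟨B, hB⟩ := Fermat.Agent.NEB.H4.stmt_F1 K L c n hn hcn _ h2
  -- `τ B := Φ B - d B` has degree zero
  have hτ : Φ B - d • B ∈ Divisor.degZero (K := K) (F := L) := by
    rw [Divisor.mem_degZero, map_sub, hΦ.degMul, map_zsmul, smul_eq_mul, sub_self]
  refine ⟨Pic0.mk ⟨Φ B - d • B, hτ⟩, ?_⟩
  -- the class of `D` is the class of `D'`
  have hDf' : Df ∈ Divisor.degZero (K := K) (F := L) := hDf0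
  have hD' : Pic0.mk D = Pic0.mk (D - ⟨Df, hDf'⟩) := by
    have h5 : Pic0.mk (⟨Df, hDf'⟩ : Divisor.degZero (K := K) (F := L)) = 0 := by
      rw [pic0_mk_eq_zero_iff]
      exact ⟨f, hf0, hDf⟩
    have h6 : D = (D - ⟨Df, hDf'⟩) + ⟨Df, hDf'⟩ := by abel
    rw [h6, Pic0.mk_add, h5, add_zero]
    congr 1
    abel
  rw [hD', picMap_mk hΦ.isGood, Pic0.smul_mk]
  have e1 : ∀ (m : ℤ) (X : Divisor.degZero (K := K) (F := L)), m • Pic0.mk X = Pic0.mk (m • X) :=
    fun m X => rfl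
  have e2 : ∀ X Y : Divisor.degZero (K := K) (F := L), Pic0.mk X - Pic0.mk Y = Pic0.mk (X - Y) :=
    fun X Y => rfl
  rw [e1, e2, e2]
  refine congrArg Pic0.mk (Subtype.ext ?_)
  simp only [AddSubgroup.coe_sub, coe_degZeroMap, Pic0.coe_degZeroSMulHom, AddSubgroup.coe_zsmul]
  rw [hB, map_sub, corr_smul_comm hL hΦ c hNc, smul_sub, smul_sub]
  have e3 : c • (d • B) = d • (c • B) := by
    rw [smul_comm]
  rw [e3]
  abel

/-- The automorphism `c` as an endomorphism of `Pic⁰`. -/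
def cEnd (c : L ≃ₐ[K] L) : AddMonoid.End (Pic0 K L) :=
  DistribMulAction.toAddMonoidEnd (L ≃ₐ[K] L) (Pic0 K L) c

omit [IsAlgClosed K] in
theorem cEnd_apply (c : L ≃ₐ[K] L) (x : Pic0 K L) : cEnd c x = c • x := rfl

/-- An additive endomorphism as an element of the endomorphism ring. -/
def homToEnd {A : Type*} [AddCommGroup A] (T : A →+ A) : AddMonoid.End A := T

theorem homToEnd_apply {A : Type*} [AddCommGroup A] (T : A →+ A) (x : A) :
    homToEnd T x = T x := rfl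

/-- `t = Φ - d` as an endomorphism of `Pic⁰`. -/
def tEnd (T : Pic0 K L →+ Pic0 K L) (d : ℤ) : AddMonoid.End (Pic0 K L) :=
  homToEnd T - (d : AddMonoid.End (Pic0 K L))

omit [IsAlgClosed K] in
theorem tEnd_apply (T : Pic0 K L →+ Pic0 K L) (d : ℤ) (x : Pic0 K L) :
    tEnd T d x = T x - d • x := rfl

/-- **PI-ONTO for a cyclic cover of function fields** of degree `p ^ a`. -/
theorem stmt_PIONTO_FF (hE : IsFF K E) (hL : IsFF K L) (φ : E →ₐ[K] L) (c : L ≃ₐ[K] L)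
    (p : ℕ) [Fact p.Prime] (a : ℕ) (hc : c ^ (p ^ a) = 1)
    (hcφ : ∀ x : E, c (φ x) = φ x)
    (hnorm : ∀ x : L, x ≠ 0 → φ (normFn φ x) = ∏ i : Fin (p ^ a), (c ^ (i : ℕ)) x)
    {Φ : Divisor K L →+ Divisor K L} {N : L → L} {d : ℤ} (hΦ : IsCorr Φ N d)
    (hNc : ∀ f, f ≠ 0 → N (c f) = c (N f))
    (T₀ : Pic0 K E →+ Pic0 K E)
    (hpush : ∀ x : Pic0 K L, pushP φ (picMap Φ x) = T₀ (pushP φ x))
    (N₀ : ℕ) (hdiv₀ : ∀ x₀ : Pic0 K E, ∃ y₀ : Pic0 K E, (tEnd T₀ d ^ N₀) x₀ = p • y₀) :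
    (∀ x : Pic0 K L, ∃ y : Pic0 K L, (tEnd (picMap Φ) d ^ ((N₀ + 1) * p ^ a)) x = p • y) ∧
    ∀ (k : ℕ) (y₀ : Pic0 K E), p ^ k • y₀ = 0 →
      ∃ y : Pic0 K L, p ^ k • y = 0 ∧
        pushP φ y = (tEnd T₀ d ^ ((N₀ + 1) * p ^ a * k + 1)) y₀ := by
  have hp : 0 < p ^ a := pow_pos (Fact.out : p.Prime).pos a
  refine stmt_PIONTO_alg p a N₀ (cEnd c) (tEnd (picMap Φ) d) ?_ ?_ (pushP φ) ?_ ?_
    (tEnd T₀ d) ?_ ?_ hdiv₀
  · -- `c ^ (p ^ a) = 1`
    rw [cEnd, ← map_pow, hc, map_one]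
  · -- `c` commutes with `t`
    show cEnd c * tEnd (picMap Φ) d = tEnd (picMap Φ) d * cEnd c
    refine DFunLike.ext _ _ fun x => ?_
    rw [endMul_apply, endMul_apply, cEnd_apply, cEnd_apply, tEnd_apply, tEnd_apply,
      picMap_smul_comm hL hΦ c hNc, smul_sub, smul_comm]
  · exact fun y => Fermat.Agent.NEB.H58.stmt_E3 K E L hE hL φ y
  · intro x
    have h := pushP_algEquiv hE hL φ (1 : E ≃ₐ[K] E) c (fun x => (hcφ x).symm) x
    rw [one_smul] at h
    exact h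
  · intro x
    rw [tEnd_apply, tEnd_apply, map_sub, map_zsmul, hpush]
  · intro x hx
    obtain ⟨u, hu⟩ := pionto_ker hE hL φ c (p ^ a) hp hc hnorm hΦ hNc x hx
    exact ⟨u, hu⟩

end PiOnto

end Fermat.Agent.NEB.H29

end
end
-- ==== END Fermat.Agent.NEB.H29_PiOnto

-- ==== BEGIN Fermat.Agent.NEB.OLD.H14_Real
section

/-!
# NEB, package OLDNEW (helper14): realizations and the one-step theorem

A `Realization 𝒪` is an additive functor from the groups `J₀(M)` (with all additive maps between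
them) to `𝒪`-modules; the example is `M ↦ 𝒪 ⊗_ℤ J₀(M)[p^∞]`.

* `Realization`, `Realization.map_zero/neg/sub/nsmul/comp_apply`;
* `InE R M S c x` : `x ∈ gk (U_ℓ - c ℓ)` for all primes `ℓ ∈ S` (`U_ℓ = R.map (U0 M ℓ)`);
* `oneStep` : for `q ∤ N`, `a_* : J₀(Nq) → J₀(N)` induces a bijection
  `{v | InE (Nq) S c v, v ∈ gk (U_q - a)} → {x | InE N S c x, x ∈ gk (T_q - s)}`
  (from `Stmt_OldNewStep`, the relations of `H14_Geo` and the compatibilities).
-/

set_option autoImplicit false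
set_option linter.unusedSectionVars false
set_option linter.style.haveILetI false

noncomputable section

namespace Fermat.Agent.NEB.OLD

open AlgebraicCurve ModularCurve Fermat.Agent.S24
open Fermat.Agent.NEB.H14 Fermat.Agent.NEB.JH Fermat.Agent.RED

local notation "Kb" => AlgebraicClosure ℚ

/-- An additive functor from the groups `J₀(M)` to `𝒪`-modules.  (Relations are stated
pointwise, to be independent of the algebraic structure on the sets of homomorphisms.) -/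
structure Realization (𝒪 : Type) [CommRing 𝒪] where
  /-- the module at level `M` -/
  X : (M : ℕ) → [NeZero M] → Type
  [instACG : ∀ (M : ℕ) [NeZero M], AddCommGroup (X M)]
  [instMod : ∀ (M : ℕ) [NeZero M], Module 𝒪 (X M)]
  /-- the action on additive maps -/
  map : ∀ {M M' : ℕ} [NeZero M] [NeZero M'], (JZero M →+ JZero M') → (X M →ₗ[𝒪] X M')
  map_id : ∀ (M : ℕ) [NeZero M] (f : JZero M →+ JZero M), (∀ x, f x = x) → ∀ v, map f v = v
  map_comp : ∀ {M M' M'' : ℕ} [NeZero M] [NeZero M'] [NeZero M''] (f : JZero M' →+ JZero M'')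
    (g : JZero M →+ JZero M') (h : JZero M →+ JZero M''), (∀ x, h x = f (g x)) →
    ∀ v, map h v = map f (map g v)
  map_add : ∀ {M M' : ℕ} [NeZero M] [NeZero M'] (f g h : JZero M →+ JZero M'),
    (∀ x, h x = f x + g x) → ∀ v, map h v = map f v + map g v

attribute [instance] Realization.instACG Realization.instMod

namespace Realization

variable {𝒪 : Type} [CommRing 𝒪] (R : Realization 𝒪)

theorem map_congr {M M' : ℕ} [NeZero M] [NeZero M'] (f g : JZero M →+ JZero M')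
    (h : ∀ x, f x = g x) (v : R.X M) : R.map f v = R.map g v := by
  have : f = g := AddMonoidHom.ext h
  rw [this]

theorem map_zero {M M' : ℕ} [NeZero M] [NeZero M'] (f : JZero M →+ JZero M')
    (hf : ∀ x, f x = 0) (v : R.X M) : R.map f v = 0 := by
  have h := R.map_add f f f (fun x => by rw [hf x, add_zero]) v
  exact left_eq_add.mp h

theorem map_neg {M M' : ℕ} [NeZero M] [NeZero M'] (f h : JZero M →+ JZero M')
    (hf : ∀ x, h x = -f x) (v : R.X M) : R.map h v = -R.map f v := by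
  have h1 := R.map_add f h (0 : JZero M →+ JZero M')
    (fun x => by rw [hf x, add_neg_cancel]; rfl) v
  rw [R.map_zero (0 : JZero M →+ JZero M') (fun _ => rfl)] at h1
  exact (neg_eq_of_add_eq_zero_right h1.symm).symm

theorem map_sub {M M' : ℕ} [NeZero M] [NeZero M'] (f g h : JZero M →+ JZero M')
    (hf : ∀ x, h x = f x - g x) (v : R.X M) : R.map h v = R.map f v - R.map g v := by
  have h1 := R.map_add h g f (fun x => by rw [hf x, sub_add_cancel]) v
  rw [h1, add_sub_cancel_right]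

theorem map_nsmul {M M' : ℕ} [NeZero M] [NeZero M'] (n : ℕ) (f h : JZero M →+ JZero M')
    (hf : ∀ x, h x = n • f x) (v : R.X M) : R.map h v = n • R.map f v := by
  induction n generalizing h with
  | zero =>
    rw [zero_nsmul]
    exact R.map_zero h (fun x => by rw [hf x, zero_nsmul]) v
  | succ n ih =>
    rw [succ_nsmul, ← ih ((nsmulAddMonoidHom n).comp f) (fun x => rfl)]
    exact R.map_add _ f h (fun x => by
      rw [hf x, succ_nsmul]
      rfl) v

/-- Transfer of a relation `f ∘ g = h ∘ k` given pointwise. -/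
theorem map_square {M M₁ M₂ M' : ℕ} [NeZero M] [NeZero M₁] [NeZero M₂] [NeZero M']
    (f : JZero M₁ →+ JZero M') (g : JZero M →+ JZero M₁) (h : JZero M₂ →+ JZero M')
    (k : JZero M →+ JZero M₂) (hsq : ∀ x, f (g x) = h (k x)) (v : R.X M) :
    R.map f (R.map g v) = R.map h (R.map k v) := by
  rw [← R.map_comp f g (f.comp g) (fun _ => rfl) v, ← R.map_comp h k (f.comp g) hsq v]

end Realization

section InE

variable {𝒪 : Type} [CommRing 𝒪] (R : Realization 𝒪)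

/-- The operator at the prime `ℓ` on the realization. -/
def Uop (M : ℕ) [NeZero M] (ℓ : ℕ) (hℓ : ℓ.Prime) : Module.End 𝒪 (R.X M) :=
  haveI : NeZero ℓ := ⟨hℓ.ne_zero⟩
  R.map (U0 M ℓ)

/-- `x` is a generalised eigenvector. -/
def IsGk {W : Type} [AddCommGroup W] [Module 𝒪 W] (B : Module.End 𝒪 W) (a : 𝒪) (x : W) : Prop :=
  ∃ n : ℕ, ((B - a • (1 : Module.End 𝒪 W)) ^ n) x = 0

/-- `x ∈ gk (U_ℓ - c ℓ)` for all primes `ℓ ∈ S`. -/
def InE (M : ℕ) [NeZero M] (S : Set ℕ) (c : ℕ → 𝒪) (x : R.X M) : Prop :=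
  ∀ (ℓ : ℕ) (hℓ : ℓ.Prime), ℓ ∈ S → IsGk (Uop R M ℓ hℓ) (c ℓ) x

theorem InE.congr {M : ℕ} [NeZero M] {S S' : Set ℕ} {c c' : ℕ → 𝒪} {x : R.X M}
    (h : InE R M S c x) (hS : ∀ ℓ, ℓ.Prime → ℓ ∈ S' → ℓ ∈ S) (hc : ∀ ℓ ∈ S', c ℓ = c' ℓ) :
    InE R M S' c' x := by
  intro ℓ hℓ hℓS
  rw [← hc ℓ hℓS]
  exact h ℓ hℓ (hS ℓ hℓ hℓS)

end InE

end Fermat.Agent.NEB.OLD

end
end
-- ==== END Fermat.Agent.NEB.OLD.H14_Real

-- ==== BEGIN Fermat.Agent.NEB.OLD.H38_OldStep
section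

set_option autoImplicit false

namespace Fermat.Agent.NEB.OLD.H38

/-- Leaf **OLD-STEP** of package OLDNEW. -/
theorem stmt_OldNewStep : Stmt_OldNewStep := by
  intro 𝒪 _ A B _ _ _ _ as bs ad bd T U W q a a' s ι t t' c h1 h2 h3 h4 h5 h6 h7 h8 h9 h10
    cas cbs cad cbd ud ua ua' uq ua0 nA _ ns
  exact oldNewStep as bs ad bd T U W q a a' s t t' c h1 h2 h3 h4 h5 h6 h7 h8 h9 h10
    cas cbs cad cbd ud ua ua' uq ua0 nA ns

end Fermat.Agent.NEB.OLD.H38

end
-- ==== END Fermat.Agent.NEB.OLD.H38_OldStep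

-- ==== BEGIN Fermat.Agent.S34.H91_Chain
section

/-!
# S34: the complete chain from the two open geometric inputs  (helper91)

`s34_of_leaves`: the frozen statement S34 from

* `hS`   : the modular semistable Deuring datum `BAD.Stmt_ModSSD M q` at the tame `(M, q)`, `q ‖ M`
           (item 65, package BAD_q: `TotData` leaves + NUM + GENUS + G-RED `Stmt_DR2`);
* `hRed` : the reduction packages of G-RED at all levels (`GTor.H81.AllRed`).

Everything else is proved: `BAD.stmt_ABS`, `BAD.H91.stmt_B0`, Kummer descent, T-U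
(`GTor.H81.tatePieceU_of`), the assembly `S30.stmt_Assemble_of_FD`, Frobenius density and the
algebra of cluster R (`S34.of_S30U`).
-/

set_option autoImplicit false

open Polynomial IsLocalRing

namespace Fermat.Agent.S34.H91

/-- `Stmt_TatePieceU` from the two geometric inputs. -/
theorem tatePieceU_of_leaves
    (hS : ∀ (M q : ℕ) [NeZero M], q.Prime → q ∣ M → ¬ q ^ 2 ∣ M →
      Fermat.Agent.BAD.H91.Tame M q → Fermat.Agent.BAD.Stmt_ModSSD M q)
    (hRed : ∀ (N : ℕ) [NeZero N] (p : ℕ), p.Prime → Fermat.Agent.GTor.H81.AllRed N p) :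
    Stmt_TatePieceU :=
  Fermat.Agent.GTor.H81.tatePieceU_of
    (fun N _ p hp => Fermat.Agent.BAD.H91.torsUnip_of_tame hS N p hp) hRed

/-- **S34 from the two geometric inputs.** -/
theorem s34_of_leaves
    (hS : ∀ (M q : ℕ) [NeZero M], q.Prime → q ∣ M → ¬ q ^ 2 ∣ M →
      Fermat.Agent.BAD.H91.Tame M q → Fermat.Agent.BAD.Stmt_ModSSD M q)
    (hRed : ∀ (N : ℕ) [NeZero N] (p : ℕ), p.Prime → Fermat.Agent.GTor.H81.AllRed N p)
    {𝒪 : Type} [CommRing 𝒪] [IsDomain 𝒪] [IsDiscreteValuationRing 𝒪]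
    [IsAdicComplete (maximalIdeal 𝒪) 𝒪] [Finite (ResidueField 𝒪)] [CharZero 𝒪]
    {p : ℕ} (hp : p.Prime) (hp𝒪 : (p : 𝒪) ∈ maximalIdeal 𝒪)
    {N : ℕ} [NeZero N] {S : Finset ℕ} (hpS : p ∈ S) (hNS : ∀ q : ℕ, q.Prime → q ∣ N → q ∈ S)
    {θ : CuspForm.heckeAlgebra N 2 (↑S : Set ℕ) →+* ResidueField 𝒪}
    {T : Type} [CommRing T] [IsLocalRing T] [IsNoetherianRing T]
    [IsAdicComplete (maximalIdeal T) T] [Algebra 𝒪 T] [IsLocalHom (algebraMap 𝒪 T)]
    [Module.Finite 𝒪 T] [Module.Free 𝒪 T]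
    (H : CuspForm.HeckeGaloisRepDatum N (↑S : Set ℕ) 𝒪 θ T)
    (q : ℕ) (hq : q.Prime) (hqp : q ≠ p) (hqN : q ∣ N) (hq2 : ¬ q ^ 2 ∣ N) :
    H.ρ.IsUnipotentOnInertiaAt q :=
  Fermat.Agent.S34.of_S30U
    (stmt_S30U_of (tatePieceU_of_leaves hS hRed)
      (Fermat.Agent.S30.H29.stmt_Assemble_of_FD Fermat.Agent.Lib.FrobDensity.stmt_FD))
    hp hp𝒪 hpS hNS H q hq hqp hqN hq2

end Fermat.Agent.S34.H91

end
-- ==== END Fermat.Agent.S34.H91_Chain

-- ==== BEGIN Fermat.Agent.S43.CompEis.H60_CoordWire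
section

set_option autoImplicit false
set_option synthInstance.maxHeartbeats 400000
set_option maxHeartbeats 1000000
set_option linter.style.haveILetI false
set_option linter.unusedSectionVars false

noncomputable section

open AlgebraicCurve ModularCurve

namespace Fermat.Agent.S43.CompEis.H60

open Fermat.Agent.BAD Fermat.Agent.S44 Fermat.Agent.S28.H73 Fermat.Agent.RED.H73
open Fermat.Agent.S43.BadQ Fermat.Agent.RED Fermat.Agent.BAD.H88 Fermat.Agent.BAD.H91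

theorem not_dvd_of_dvd_twelve {p n : ℕ} (hp : p.Prime) (hp5 : 5 ≤ p) (hn : n ∣ 12) :
    ¬ p ∣ n := by
  intro hpn
  have h12 : p ∣ 12 := hpn.trans hn
  have hle : p ≤ 12 := Nat.le_of_dvd (by norm_num) h12
  interval_cases p <;> revert hp h12 <;> decide

section Wire

variable (A : ValuationSubring (AlgebraicClosure ℚ)) (q M : ℕ) (a b : ℤ)
  (hab : a * q + b * M = 1) (hq : q.Prime) [NeZero M] [NeZero (M * q)] [NeZero q]
  (hA : A.LiesOverPrime q) (hqM : ¬ q ∣ M) (ht : TameAt M q)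

/-- helper21's modular datum at a tame level is a modular datum (helper93's `IsModDatum`). -/
theorem isModDatum_theS :
    Fermat.Agent.BADP.IsModDatum A q M a b hab hq
      (Fermat.Agent.BADP.H21.theS A q M a b hab hq hA hqM ht) :=
  { mem₁ := fun _ => Iff.rfl
    red₁ := fun _ _ => rfl
    mem₂ := fun _ => Iff.rfl
    red₂ := fun _ _ _ => rfl
    ff := Fermat.Agent.BADP.H21.ffL q M
    ff₁ := Fermat.Agent.BADP.H21.ff1 A q M a b hab hq hA hqM ht
    genus := Fermat.Agent.BADP.H21.modS_genus A q M a b hab hq hA hqM ht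
      (Fermat.Agent.BADP.H21.totModAt A q M a b hab hq hA hqM ht)
    inertial := fun _ hσ => Fermat.Agent.BADP.H21.modS_inertial A q M a b hab hq hA hqM ht
      (Fermat.Agent.BADP.H21.totModAt A q M a b hab hq hA hqM ht) hσ }

end Wire

/-- **COORD at a tame level.** -/
theorem stmt_CE_Coord_tame (p q M : ℕ) (a b : ℤ) (hab : a * q + b * M = 1) (hq : q.Prime)
    [NeZero (M * q)] (hp : p.Prime) (hp5 : 5 ≤ p) (hqM : ¬ q ∣ M) (ht : TameAt M q) :
    Stmt_CE_Coord p q M a b hab hq := by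
  intro A hA
  haveI : NeZero M := ⟨fun h => NeZero.ne (M * q) (by rw [h, zero_mul])⟩
  haveI : NeZero q := ⟨hq.ne_zero⟩
  have hS := isModDatum_theS A q M a b hab hq hA hqM ht
  refine ⟨F1 A q M, inferInstance, inferInstance,
    Fermat.Agent.BADP.H21.theS A q M a b hab hq hA hqM ht,
    hS.mem₁, hS.red₁, hS.mem₂, hS.inertial, ?_⟩
  intro s hs
  obtain ⟨n, t, -, hn12, hcoord, hfix⟩ :=
    Fermat.Agent.BADP.H21.coord_theS A q M a b hab hq hA hqM ht
      (Fermat.Agent.BADP.H11.isK0Lift_mod hA hS _ (fun _ hτ => hτ)) hs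
  exact ⟨n, t, not_dvd_of_dvd_twelve hp hp5 hn12, hcoord, hfix⟩

end Fermat.Agent.S43.CompEis.H60

end
end
-- ==== END Fermat.Agent.S43.CompEis.H60_CoordWire

-- ==== BEGIN Fermat.Agent.S43.CompEis.H60_Node
section
attribute [local instance 10000] SubalgebraClass.toAlgebra
attribute [local instance 10000] HahnSeries.powerSeriesAlgebra

set_option autoImplicit false
set_option synthInstance.maxHeartbeats 400000
set_option maxHeartbeats 1000000
set_option linter.style.haveILetI false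
set_option linter.unusedSectionVars false

noncomputable section

open AlgebraicCurve ModularCurve

attribute [local instance] Classical.propDecidable

namespace Fermat.Agent.S43.CompEis.H60

open Fermat.Agent.BAD Fermat.Agent.S44 Fermat.Agent.S28.H73 Fermat.Agent.RED.H73
open Fermat.Agent.S43.BadQ Fermat.Agent.RED.H17 Fermat.Agent.RED

section PRedUnit

variable {K F k F' : Type*} [Field K] [Field F] [Algebra K F] [Field k] [Field F']
  [Algebra k F'] (S : PRed K F k F')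

/-- A Gauss unit is a nonzero function which is integral together with its inverse. -/
theorem isGU_iff_inv_mem (φ : F) : S.IsGU φ ↔ φ ≠ 0 ∧ φ ∈ S.V ∧ φ⁻¹ ∈ S.V := by
  constructor
  · intro h
    exact ⟨h.ne_zero, h.mem, h.inv_mem⟩
  · rintro ⟨h0, h1, h2⟩
    refine ⟨h1, fun hr => ?_⟩
    have h3 : S.rd (φ * φ⁻¹) = S.rd φ * S.rd φ⁻¹ := S.rd_mul h1 h2
    rw [mul_inv_cancel₀ h0, S.rd_one, hr, zero_mul] at h3
    exact one_ne_zero h3

end PRedUnit

section Dict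

variable {A : ValuationSubring (AlgebraicClosure ℚ)}
variable {q M : ℕ} {a b : ℤ} {hab : a * q + b * M = 1} {hq : q.Prime} [NeZero (M * q)]
variable {k F₁ F₂ : Type*} [Field k] [Field F₁] [Algebra k F₁] [Field F₂] [Algebra k F₂]
variable (S : SSD (AlgebraicClosure ℚ) ↥(FNbar (M * q)) k F₁ F₂)

theorem isGU₁_iff (hV₁ : ∀ f : ↥(FNbar (M * q)), f ∈ S.c₁.V ↔ f ∈ gaussV A (M * q))
    (φ : ↥(FNbar (M * q))) : S.c₁.IsGU φ ↔ IsGaussUnit A (M * q) φ := by
  rw [isGU_iff_inv_mem, hV₁, hV₁]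
  rfl

theorem isGU₂_iff
    (hV₂ : ∀ f : ↥(FNbar (M * q)), f ∈ S.c₂.V ↔ wS q M a b hab hq • f ∈ gaussV A (M * q))
    (φ : ↥(FNbar (M * q))) :
    S.c₂.IsGU φ ↔ IsGaussUnit A (M * q) (wS q M a b hab hq • φ) := by
  rw [isGU_iff_inv_mem, hV₂, hV₂, smul_inv'']
  unfold IsGaussUnit
  constructor
  · rintro ⟨h0, h1, h2⟩
    exact ⟨wS_smul_ne_zero h0, h1, h2⟩
  · rintro ⟨h0, h1, h2⟩
    refine ⟨fun h => h0 ?_, h1, h2⟩
    rw [h, smul_zero]

theorem isCU_iff (hV₁ : ∀ f : ↥(FNbar (M * q)), f ∈ S.c₁.V ↔ f ∈ gaussV A (M * q))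
    (c : AlgebraicClosure ℚ) : S.IsCU c ↔ A.valuation c = 1 := by
  unfold SSD.IsCU
  rw [isGU₁_iff S hV₁, isGaussUnit_const_iff]

end Dict

section Node

variable {A : ValuationSubring (AlgebraicClosure ℚ)}
variable {q M : ℕ} {a b : ℤ} {hab : a * q + b * M = 1} {hq : q.Prime} [NeZero (M * q)]
variable {k F₁ F₂ : Type*} [Field k] [Field F₁] [Algebra k F₁] [Field F₂] [Algebra k F₂]
variable (S : SSD (AlgebraicClosure ℚ) ↥(FNbar (M * q)) k F₁ F₂)

/-- **The slope at a node**: for an inertia-fixed function `f` whose divisor is divisible by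
`n` on the fibre of the node `s` (with an inertia-fixed coordinate of thickness `q ^ e`), and
scalings `c₁ f`, `c₂ f` to Gauss units of `V₁`, `V₂`:
`|c₁| = |c₂| |q| ^ (e m + n k)`, `m = ord_{s.1} (rd₁ (c₁ f))`, for some integer `k`. -/
theorem slope_node (hq' : q.Prime) (hA : A.LiesOverPrime q)
    (hP : HasPrincipalDivisors (AlgebraicClosure ℚ) ↥(FNbar (M * q)))
    (hdeg : ∀ v : Place (AlgebraicClosure ℚ) ↥(FNbar (M * q)), v.deg = 1)
    (hV₁ : ∀ f : ↥(FNbar (M * q)), f ∈ S.c₁.V ↔ f ∈ gaussV A (M * q))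
    (hin : ∀ σ ∈ A.inertiaSubgroupIn ℚ, S.IsInertial (galF (M * q) σ))
    {s : Place k F₁ × Place k F₂} (hs : s ∈ S.nodes) {e : ℕ} {t : ↥(FNbar (M * q))}
    (ht : S.IsAnnCoord s t ((q : AlgebraicClosure ℚ) ^ e))
    (htfix : ∀ σ ∈ A.inertiaSubgroupIn ℚ, galF (M * q) σ • t = t)
    {f : ↥(FNbar (M * q))} (hffix : ∀ σ ∈ A.inertiaSubgroupIn ℚ, galF (M * q) σ • f = f)
    {c₁ c₂ : AlgebraicClosure ℚ}
    (h₁ : S.c₁.IsGU (algebraMap (AlgebraicClosure ℚ) ↥(FNbar (M * q)) c₁ * f))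
    (h₂ : S.c₂.IsGU (algebraMap (AlgebraicClosure ℚ) ↥(FNbar (M * q)) c₂ * f))
    (n : ℕ) (D : Place (AlgebraicClosure ℚ) ↥(FNbar (M * q)) → ℤ)
    (hD : ∀ P, S.c₁.r P = some s.1 → P.ord f = n * D P) :
    ∃ k : ℤ, A.valuation c₁ = A.valuation c₂ * A.valuation (q : AlgebraicClosure ℚ) ^
      ((e : ℤ) * s.1.ord (S.c₁.rd (algebraMap (AlgebraicClosure ℚ) ↥(FNbar (M * q)) c₁ * f))
        + n * k) := by
  obtain ⟨I, hI⟩ : ∃ I : Set (SemilinearAut (AlgebraicClosure ℚ) ↥(FNbar (M * q))),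
      I = {g | ∃ σ ∈ A.inertiaSubgroupIn ℚ, g = galF (M * q) σ} := ⟨_, rfl⟩
  have hImem : ∀ σ ∈ A.inertiaSubgroupIn ℚ, galF (M * q) σ ∈ I := by
    intro σ hσ
    rw [hI]
    exact ⟨σ, hσ, rfl⟩
  obtain ⟨Y, hY0, hYfix, hCU⟩ := S.nodeRad_isInertial hP hdeg hs ht h₁ h₂ n D hD I (by
    intro g hg
    rw [hI] at hg
    obtain ⟨σ, hσ, rfl⟩ := hg
    refine ⟨hin σ hσ, htfix σ hσ, ?_, hffix σ hσ⟩
    show σ ((q : AlgebraicClosure ℚ) ^ e) = (q : AlgebraicClosure ℚ) ^ e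
    rw [map_pow, map_natCast])
  have hYfix' : ∀ σ ∈ A.inertiaSubgroupIn ℚ, σ Y = Y := fun σ hσ =>
    hYfix (galF (M * q) σ) (hImem σ hσ)
  obtain ⟨k, hk⟩ := Fermat.Agent.R.H6.stmt_UnrFix q hq' A hA Y hY0 hYfix'
  refine ⟨k, ?_⟩
  rw [isCU_iff S hV₁] at hCU
  have hc₂ : c₂ ≠ 0 := by
    rintro rfl
    exact h₂.ne_zero (by rw [map_zero, zero_mul])
  have hq0 : A.valuation (q : AlgebraicClosure ℚ) ≠ 0 := valuation_q_ne_zero hq'
  have hden : A.valuation (c₂ * ((q : AlgebraicClosure ℚ) ^ e) ^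
      s.1.ord (S.c₁.rd (algebraMap (AlgebraicClosure ℚ) ↥(FNbar (M * q)) c₁ * f)) * Y ^ n) ≠ 0 := by
    rw [Valuation.ne_zero_iff]
    refine mul_ne_zero (mul_ne_zero hc₂ (zpow_ne_zero _ (pow_ne_zero _ ?_))) (pow_ne_zero _ hY0)
    exact Nat.cast_ne_zero.mpr hq'.ne_zero
  rw [map_div₀, div_eq_one_iff_eq hden] at hCU
  rw [hCU, map_mul, map_mul, map_zpow₀, map_pow, map_pow, hk, mul_assoc]
  congr 1
  rw [zpow_add₀ hq0, zpow_mul, zpow_natCast, mul_comm (n : ℤ) k, zpow_mul, zpow_natCast]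

end Node

section Coord

variable {A : ValuationSubring (AlgebraicClosure ℚ)}
variable {q M : ℕ} {a b : ℤ} {hab : a * q + b * M = 1} {hq : q.Prime} [NeZero (M * q)]

theorem hP_FN (N : ℕ) [NeZero N] : HasPrincipalDivisors (AlgebraicClosure ℚ) ↥(FNbar N) :=
  (Fermat.Agent.RED.H17.ffHyp_of_isFF _ _ (Fermat.Agent.RED.H95.stmt_HKA_isFF N)).principal

theorem hdeg_FN (N : ℕ) [NeZero N] (v : Place (AlgebraicClosure ℚ) ↥(FNbar N)) : v.deg = 1 :=
  (Fermat.Agent.RED.H17.ffHyp_of_isFF _ _ (Fermat.Agent.RED.H95.stmt_HKA_isFF N)).deg_one v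

/-- **Integrality of slopes** at a level with coordinates: every inertia-fixed function has a
slope. -/
theorem exists_hasSlope_of_coord (p : ℕ) (hA : A.LiesOverPrime q)
    (hC : Stmt_CE_Coord p q M a b hab hq) {g : ↥(FNbar (M * q))} (hg : g ≠ 0)
    (hfix : ∀ σ ∈ A.inertiaSubgroupIn ℚ, galF (M * q) σ • g = g) :
    ∃ k : ℤ, HasSlope A q M a b hab hq g k := by
  obtain ⟨F₂, _, _, S, hV₁, hred, hV₂, hin, hcoord⟩ := hC A hA
  obtain ⟨s, hs⟩ := S.nodes_nonempty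
  obtain ⟨e, t, -, ht, htfix⟩ := hcoord s hs
  obtain ⟨c₁, -, h₁⟩ := S.c₁.exists_isGU_scale hg
  obtain ⟨c₂, -, h₂⟩ := S.c₂.exists_isGU_scale hg
  obtain ⟨k, hk⟩ := slope_node S hq hA (hP_FN (M * q)) (hdeg_FN (M * q)) hV₁ hin hs ht htfix
    hfix h₁ h₂ 1 (fun P => P.ord g) (fun P _ => by rw [Nat.cast_one, one_mul])
  refine ⟨_, c₁, c₂, (isGU₁_iff S hV₁ _).mp h₁, ?_, hk⟩
  have := (isGU₂_iff S hV₂ _).mp h₂
  rwa [smul_mul', wS_smul_algebraMap] at this

/-- **Slope `≡ 0` implies that all orders of the reduction are `≡ 0`**, at a level with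
coordinates of thickness prime to `p`. -/
theorem fin_of_coord (p : ℕ) (hp : p.Prime) (hA : A.LiesOverPrime q)
    (hC : Stmt_CE_Coord p q M a b hab hq) {f : ↥(FNbar (M * q))}
    (hfix : ∀ σ ∈ A.inertiaSubgroupIn ℚ, galF (M * q) σ • f = f)
    (hdiv : ∀ P : Place (AlgebraicClosure ℚ) ↥(FNbar (M * q)), (p : ℤ) ∣ P.ord f)
    {K : ℤ} (hK : HasSlope A q M a b hab hq f K) (hpK : (p : ℤ) ∣ K) :
    ∃ (c : AlgebraicClosure ℚ)
      (h : IsGaussUnit A (M * q) (algebraMap (AlgebraicClosure ℚ) ↥(FNbar (M * q)) c * f)),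
      c ≠ 0 ∧
      ∀ Q : Place (kV A) ↥(redField A (FNbar (M * q)) (hasScale_laurentBaseChange A (M * q))),
        (p : ℤ) ∣ Q.ord (gaussRes A (M * q) ⟨_, h.mem⟩) := by
  obtain ⟨F₂, _, _, S, hV₁, hred, hV₂, hin, hcoord⟩ := hC A hA
  obtain ⟨c₁, c₂, h₁, h₂, hv⟩ := hK
  have hf0 : f ≠ 0 := right_ne_zero_of_mul h₁.1
  have hc₁ : c₁ ≠ 0 := by
    rintro rfl
    exact h₁.1 (by rw [map_zero, zero_mul])
  have hc₂ : c₂ ≠ 0 := by
    rintro rfl
    exact h₂.1 (by rw [map_zero, zero_mul])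
  have G₁ : S.c₁.IsGU (algebraMap (AlgebraicClosure ℚ) ↥(FNbar (M * q)) c₁ * f) :=
    (isGU₁_iff S hV₁ _).mpr h₁
  have G₂ : S.c₂.IsGU (algebraMap (AlgebraicClosure ℚ) ↥(FNbar (M * q)) c₂ * f) := by
    rw [isGU₂_iff S hV₂, smul_mul', wS_smul_algebraMap]
    exact h₂
  have hrd : S.c₁.rd (algebraMap (AlgebraicClosure ℚ) ↥(FNbar (M * q)) c₁ * f)
      = gaussRes A (M * q) ⟨_, h₁.mem⟩ := by
    rw [S.c₁.rd_of_mem G₁.1]
    exact hred ⟨_, h₁.mem⟩ G₁.1
  refine ⟨c₁, h₁, hc₁, fun Q => ?_⟩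
  rw [← hrd]
  by_cases hQ : Q ∈ S.c₁.good
  · rw [S.c₁.ord_rd_eq_sum (hP_FN (M * q)) G₁ Q hQ]
    refine Finset.dvd_sum fun P _ => ?_
    split_ifs
    · rw [ord_algebraMap_mul P hc₁]
      exact hdiv P
    · exact dvd_zero _
  · rw [S.good₁] at hQ
    push Not at hQ
    obtain ⟨s, hs, rfl⟩ := hQ
    obtain ⟨e, t, hpe, ht, htfix⟩ := hcoord s hs
    obtain ⟨k, hk⟩ := slope_node S hq hA (hP_FN (M * q)) (hdeg_FN (M * q)) hV₁ hin hs ht htfix
      hfix G₁ G₂ p (fun P => P.ord f / p)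
      (fun P _ => (Int.mul_ediv_cancel' (hdiv P)).symm)
    rw [hv] at hk
    have hv0 : A.valuation c₂ ≠ 0 := (Valuation.ne_zero_iff _).mpr hc₂
    have h3 := mul_left_cancel₀ hv0 hk
    have hq0 := valuation_q_ne_zero (A := A) hq
    have h4 : K = (e : ℤ) * s.1.ord
        (S.c₁.rd (algebraMap (AlgebraicClosure ℚ) ↥(FNbar (M * q)) c₁ * f)) + p * k :=
      zpow_right_injective₀ (zero_lt_iff.mpr hq0) (valuation_q_lt_one hA).ne h3
    have h5 : (p : ℤ) ∣ (e : ℤ) * s.1.ord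
        (S.c₁.rd (algebraMap (AlgebraicClosure ℚ) ↥(FNbar (M * q)) c₁ * f)) := by
      have : (e : ℤ) * s.1.ord
          (S.c₁.rd (algebraMap (AlgebraicClosure ℚ) ↥(FNbar (M * q)) c₁ * f)) = K - p * k := by
        rw [h4]; ring
      rw [this]
      exact dvd_sub hpK (dvd_mul_right _ _)
    have hpp : Prime (p : ℤ) := Nat.prime_iff_prime_int.mp hp
    rcases hpp.dvd_or_dvd h5 with h6 | h6
    · exact absurd (Int.natCast_dvd_natCast.mp h6) hpe
    · exact h6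

end Coord

end Fermat.Agent.S43.CompEis.H60

end
end
-- ==== END Fermat.Agent.S43.CompEis.H60_Node
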