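-- GENERATED (merged mirror, NOTES/tools/trim/merge3_helper67.py): 2 modules of the originals, bodies verbatim.
import Mathlib
import Fermat.Agent.Zm.S43_L03_002
import Fermat.Agent.Zm.S43_L03_005
import Fermat.Agent.Zm.S43_L02_005
import Fermat.Agent.Zm.S43_L03_006

-- ==== BEGIN Fermat.Agent.NEB.OLD.H14_Step
section

/-!
# NEB, package OLDNEW (helper14): the one-step theorem on a realization

`oneStep` : for `q ∤ N`, `a_* : J₀(Nq) → J₀(N)` induces a bijection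
`{v | InE (Nq) S c v, v ∈ gk (U_q - a)} → {x | InE N S c x, x ∈ gk (T_q - s)}`
(from `Stmt_OldNewStep`, the relations of `H14_Geo` and the four compatibilities).
-/

set_option autoImplicit false
set_option linter.unusedSectionVars false
set_option linter.style.haveILetI false

noncomputable section

namespace Fermat.Agent.NEB.OLD

open AlgebraicCurve ModularCurve Fermat.Agent.S24
open Fermat.Agent.NEB.H14 Fermat.Agent.NEB.JH Fermat.Agent.RED

local notation "Kb" => AlgebraicClosure ℚ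

section Step

variable {𝒪 : Type} [CommRing 𝒪] (R : Realization 𝒪)

/-- The Atkin–Lehner involution as an additive map of `J₀(Nq)`. -/
def WHom (N q : ℕ) [NeZero N] [NeZero q] (a b : ℤ) (hab : a * q + b * N = 1) (hq : q.Prime) :
    JZero (N * q) →+ JZero (N * q) :=
  DistribSMul.toAddMonoidHom (JZero (N * q)) (Fermat.Agent.BAD.H88.wq q N a b hab hq)

theorem WHom_apply (N q : ℕ) [NeZero N] [NeZero q] (a b : ℤ) (hab : a * q + b * N = 1)
    (hq : q.Prime) (y : JZero (N * q)) :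
    WHom N q a b hab hq y = Fermat.Agent.BAD.H88.wq q N a b hab hq • y := rfl

/-- **The one-step theorem.** -/
theorem oneStep (hStep : Stmt_OldNewStep) (hSQW : Stmt_SquareW) (hDEG : Stmt_DegBeta)
    (hAs : Stmt_CompatAs) (hBs : Stmt_CompatBs) (hAd : Stmt_CompatAd) (hBd : Stmt_CompatBd)
    (N q : ℕ) [NeZero N] [NeZero q] (hq : q.Prime) (hqN : ¬ q ∣ N)
    (S : Set ℕ) (hS : ∀ ℓ ∈ S, ℓ ≠ q ∧ ¬ ℓ ^ 2 ∣ N) (c : ℕ → 𝒪) (a a' s : 𝒪)
    (ud : IsUnit (a - a')) (ua : IsUnit (a * a - 1)) (ua' : IsUnit (a' * a' - 1))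
    (uq : IsUnit (q : 𝒪)) (uA : IsUnit a)
    (nA : ∀ x : R.X N, ∃ n : ℕ, ((q : 𝒪) - a * a') ^ n • x = 0)
    (nB : ∀ y : R.X (N * q), ∃ n : ℕ, ((q : 𝒪) - a * a') ^ n • y = 0)
    (ns : ∀ x : R.X N, ∃ n : ℕ, (s - (a + a')) ^ n • x = 0) :
    (∀ v : R.X (N * q), InE R (N * q) S c v → IsGk (Uop R (N * q) q hq) a v →
        InE R N S c (R.map (pushP (heckeAlphaBar Kb N q)) v) ∧
          IsGk (Uop R N q hq) s (R.map (pushP (heckeAlphaBar Kb N q)) v)) ∧
    (∀ x : R.X N, InE R N S c x → IsGk (Uop R N q hq) s x →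
        ∃ v : R.X (N * q), InE R (N * q) S c v ∧ IsGk (Uop R (N * q) q hq) a v ∧
          R.map (pushP (heckeAlphaBar Kb N q)) v = x) ∧
    (∀ v : R.X (N * q), InE R (N * q) S c v → IsGk (Uop R (N * q) q hq) a v →
        R.map (pushP (heckeAlphaBar Kb N q)) v = 0 → v = 0) := by
  obtain ⟨u, w, hab⟩ := exists_bezout_of_not_dvd hq hqN
  -- the family of operators
  let ι : Type := {ℓ : ℕ // ℓ.Prime ∧ ℓ ∈ S}
  have key := hStep 𝒪 (R.X N) (R.X (N * q))
    (R.map (pullP (heckeAlphaBar Kb N q))) (R.map (pullP (heckeBetaBar Kb N q)))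
    (R.map (pushP (heckeAlphaBar Kb N q))) (R.map (pushP (heckeBetaBar Kb N q)))
    (Uop R N q hq) (Uop R (N * q) q hq) (R.map (WHom N q u w hab hq)) q a a' s
    ι (fun i => Uop R N i.1 i.2.1) (fun i => Uop R (N * q) i.1 i.2.1) (fun i => c i.1)
    ?h1 ?h2 ?h3 ?h4 ?h5 ?h6 ?h7 ?h8 ?h9 ?h10 ?c1 ?c2 ?c3 ?c4 ud ua ua' uq uA nA nB ns
  case h1 =>
    intro x
    rw [← R.map_comp _ _ ((pushP (heckeAlphaBar Kb N q)).comp (pullP (heckeAlphaBar Kb N q)))
      (fun _ => rfl) x,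
      R.map_nsmul (q + 1) (AddMonoidHom.id _) _ (fun y => ad_as N q u w hab hq y) x,
      R.map_id N _ (fun _ => rfl)]
  case h2 =>
    intro x
    rw [← R.map_comp _ _ ((pushP (heckeBetaBar Kb N q)).comp (pullP (heckeBetaBar Kb N q)))
      (fun _ => rfl) x,
      R.map_nsmul (q + 1) (AddMonoidHom.id _) _ (fun y => bd_bs N q u w hab hq y) x,
      R.map_id N _ (fun _ => rfl)]
  case h3 =>
    intro x
    exact (R.map_comp _ _ (U0 N q) (fun y => by
      rw [U0_eq_T0 N q u w hab hq y]; rfl) x).symm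
  case h4 =>
    intro x
    exact (R.map_comp _ _ (U0 N q) (fun _ => rfl) x).symm
  case h5 =>
    intro y
    show R.map (U0 (N * q) q) y = _
    rw [R.map_sub ((pullP (heckeAlphaBar Kb N q)).comp (pushP (heckeBetaBar Kb N q)))
      (WHom N q u w hab hq) (U0 (N * q) q) (fun z => U_eq N q u w hab hq hSQW hDEG z) y,
      R.map_comp _ _ _ (fun _ => rfl) y]
  case h6 =>
    intro x
    rw [← R.map_comp _ _ ((WHom N q u w hab hq).comp (pullP (heckeAlphaBar Kb N q)))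
      (fun _ => rfl) x]
    exact R.map_congr _ _ (fun y => W_as N q u w hab hq y) x
  case h7 =>
    intro x
    rw [← R.map_comp _ _ ((WHom N q u w hab hq).comp (pullP (heckeBetaBar Kb N q)))
      (fun _ => rfl) x]
    exact R.map_congr _ _ (fun y => W_bs N q u w hab hq y) x
  case h8 =>
    intro y
    rw [← R.map_comp _ _ ((WHom N q u w hab hq).comp (WHom N q u w hab hq)) (fun _ => rfl) y]
    exact R.map_id _ _ (fun z => W_W N q u w hab hq z) y
  case h9 =>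
    intro y
    rw [← R.map_comp _ _ ((pushP (heckeAlphaBar Kb N q)).comp (WHom N q u w hab hq))
      (fun _ => rfl) y]
    exact R.map_congr _ _ (fun z => ad_W N q u w hab hq z) y
  case h10 =>
    intro y
    rw [← R.map_comp _ _ ((pushP (heckeBetaBar Kb N q)).comp (WHom N q u w hab hq))
      (fun _ => rfl) y]
    exact R.map_congr _ _ (fun z => bd_W N q u w hab hq z) y
  case c1 =>
    rintro ⟨ℓ, hℓ, hℓS⟩ x
    haveI : NeZero ℓ := ⟨hℓ.ne_zero⟩
    exact R.map_square _ _ _ _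
      (fun y => hAs N q ℓ hq hℓ (hS ℓ hℓS).1.symm hqN (hS ℓ hℓS).2 y) x
  case c2 =>
    rintro ⟨ℓ, hℓ, hℓS⟩ x
    haveI : NeZero ℓ := ⟨hℓ.ne_zero⟩
    exact R.map_square _ _ _ _
      (fun y => hBs N q ℓ hq hℓ (hS ℓ hℓS).1.symm hqN (hS ℓ hℓS).2 y) x
  case c3 =>
    rintro ⟨ℓ, hℓ, hℓS⟩ y
    haveI : NeZero ℓ := ⟨hℓ.ne_zero⟩
    exact R.map_square _ _ _ _
      (fun z => hAd N q ℓ hq hℓ (hS ℓ hℓS).1.symm hqN (hS ℓ hℓS).2 z) y
  case c4 =>
    rintro ⟨ℓ, hℓ, hℓS⟩ y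
    haveI : NeZero ℓ := ⟨hℓ.ne_zero⟩
    exact R.map_square _ _ _ _
      (fun z => hBd N q ℓ hq hℓ (hS ℓ hℓS).1.symm hqN (hS ℓ hℓS).2 z) y
  obtain ⟨k1, k2, k3⟩ := key
  refine ⟨fun v hv hU => ?_, fun x hx hT => ?_, fun v hv hU h0 => ?_⟩
  · obtain ⟨h1, h2⟩ := k1 v (fun i => hv i.1 i.2.1 i.2.2) hU
    exact ⟨fun ℓ hℓ hℓS => h1 ⟨ℓ, hℓ, hℓS⟩, h2⟩
  · obtain ⟨v, h1, h2, h3⟩ := k2 x (fun i => hx i.1 i.2.1 i.2.2) hT
    exact ⟨v, fun ℓ hℓ hℓS => h1 ⟨ℓ, hℓ, hℓS⟩, h2, h3⟩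
  · exact k3 v (fun i => hv i.1 i.2.1 i.2.2) hU h0

end Step

end Fermat.Agent.NEB.OLD

end
end
-- ==== END Fermat.Agent.NEB.OLD.H14_Step

-- ==== BEGIN Fermat.Agent.Tate.T7.Main
section

set_option autoImplicit false

namespace Fermat.Agent.Tate.T7

/-- **LOCss**: supersingular type when all of `E[p]` lies in the kernel of reduction. -/
theorem stmt_LOCss : Stmt_LOCss :=
  H52.stmt_LOCss_of H97.stmt_RAD H46.stmt_SSval H46.stmt_SSsep H46.stmt_SSmul

/-- **TWT**: the image of every subgroup of index two spans `End (E[p])`. -/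
theorem stmt_TWT : Stmt_TWT :=
  H7.stmt_TWT_of H14.stmt_LOCbad H7.stmt_LOCgood stmt_LOCss H52.stmt_CYC

/-- **T7b**: the Taylor–Wiles condition. -/
theorem stmt_T7b : Stmt_T7b := H99.stmt_XFER stmt_TWT

/-- **T7**: residual absolute irreducibility and the Taylor–Wiles condition. -/
theorem stmt_T7 : Fermat.Agent.Tate.Stmt_T7 := H99.stmt_T7_of_TWT stmt_TWT

end Fermat.Agent.Tate.T7

end
-- ==== END Fermat.Agent.Tate.T7.Main
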