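-- GENERATED (merged mirror, NOTES/tools/trim/merge3_helper67.py): 6 modules of the originals, bodies verbatim.
import Mathlib
import Fermat.Agent.Zm.S43_L01_005
import Fermat.Agent.Zm.S43_L02_004
import Fermat.Agent.Zm.S43_L03_004
import Fermat.Agent.Zm.S43_L03_001
import Fermat.Agent.Zm.S43_L04_001
import Fermat.Agent.Zm.S56_L07_005
import Fermat.Agent.Zm.S43_L04_003
import Fermat.Agent.Zm.S35_L05_001
import Fermat.Agent.Zm.S35_L21_000

-- ==== BEGIN Fermat.Agent.L.Pivot.H76_PatchProj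
section

/-!
# PIVOT / PV-PATCH (helper76): the limit of the projections to level `∅`

`ψ∞ w = lim_𝔘 ψ_n w`, `π∞ [v] = lim_𝔘 π_n (gen_n v)`; `ker π∞ = (φ∞ s_j)_j • N∞`;
an ideal `Ξ ≤ ψ_n(𝔵)` for all `n` satisfies `Ξ ≤ ψ∞(𝔵)` (ideals of `P` are closed).
-/

set_option autoImplicit false
set_option linter.style.haveILetI false
set_option linter.unusedSectionVars false

namespace Fermat.Agent.L.Pivot.H76

open IsLocalRing MvPowerSeries Filter
open Fermat.Agent.S59.Patch (FinQuot ulim ulim_spec ulim_spec' ulim_eq ulim_eq' ulim_const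
  ulim_add ulim_mul ulim_smul ulim_eq_zero eq_of_forall_mem mem_pow_smul_top_iff
  mem_smul_top_pi_iff exists_sum_of_mem_span_smul_top pow_smul_top_le_of_card_le)

section ProjLimit

variable {𝒪 : Type} [CommRing 𝒪] [IsLocalRing 𝒪] {r h d : ℕ}
  [IsAdicComplete (maximalIdeal (MvPowerSeries (Fin r) 𝒪)) (MvPowerSeries (Fin r) 𝒪)]
  [FinQuot (maximalIdeal (MvPowerSeries (Fin r) 𝒪)) (MvPowerSeries (Fin r) 𝒪)]
  [IsAdicComplete (maximalIdeal (MvPowerSeries (Fin r) 𝒪)) (Fin d → MvPowerSeries (Fin r) 𝒪)]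
  [FinQuot (maximalIdeal (MvPowerSeries (Fin r) 𝒪)) (Fin d → MvPowerSeries (Fin r) 𝒪)]
  [IsAdicComplete (maximalIdeal (MvPowerSeries (Fin h) 𝒪)) (MvPowerSeries (Fin h) 𝒪)]
  [FinQuot (maximalIdeal (MvPowerSeries (Fin h) 𝒪)) (MvPowerSeries (Fin h) 𝒪)]
  [IsAdicComplete (maximalIdeal (MvPowerSeries (Fin h) 𝒪)) (Fin d → MvPowerSeries (Fin h) 𝒪)]
  [FinQuot (maximalIdeal (MvPowerSeries (Fin h) 𝒪)) (Fin d → MvPowerSeries (Fin h) 𝒪)]
  {T : Type} [CommRing T] [IsLocalRing T] [Algebra 𝒪 T]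
  {M : Type} [AddCommGroup M] [Module T M]
  [IsAdicComplete (maximalIdeal T) T] [FinQuot (maximalIdeal T) T]
  [IsAdicComplete (maximalIdeal T) M] [FinQuot (maximalIdeal T) M]
  {φ : ℕ → MvPowerSeries (Fin r) 𝒪 →ₐ[𝒪] MvPowerSeries (Fin h) 𝒪}
  (ψ : ℕ → MvPowerSeries (Fin h) 𝒪 →ₐ[𝒪] T)
  (𝔘 : Ultrafilter ℕ)

/-- `ψ∞`. -/
noncomputable def psiInf : MvPowerSeries (Fin h) 𝒪 →ₐ[𝒪] T where
  toFun w := ulim (maximalIdeal T) 𝔘 (fun n => ψ n w)
  map_one' := by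
    simp only [map_one]
    exact ulim_const _ 𝔘 1
  map_mul' a b := by
    simp only [map_mul]
    exact ulim_mul _ 𝔘 _ _
  map_zero' := by
    simp only [map_zero]
    exact ulim_const _ 𝔘 0
  map_add' a b := by
    simp only [map_add]
    exact ulim_add _ 𝔘 _ _
  commutes' c := by
    simp only [AlgHom.commutes]
    exact ulim_const _ 𝔘 _

theorem psiInf_apply (w : MvPowerSeries (Fin h) 𝒪) :
    _root_.Fermat.Agent.L.Pivot.H76.psiInf ψ 𝔘 w = ulim (maximalIdeal T) 𝔘 (fun n => ψ n w) := rfl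

/-- `(I2)` -/
theorem psi_close (w : MvPowerSeries (Fin h) 𝒪) (m : ℕ) :
    ∀ᶠ n in (𝔘 : Filter ℕ), ψ n w - _root_.Fermat.Agent.L.Pivot.H76.psiInf ψ 𝔘 w ∈ maximalIdeal T ^ m :=
  ulim_spec' _ 𝔘 _ m

/-- `(V1)`: `ψ∞` is surjective. -/
theorem psiInf_surjective (hψ : ∀ n, Function.Surjective (ψ n)) :
    Function.Surjective (_root_.Fermat.Agent.L.Pivot.H76.psiInf ψ 𝔘) := by
  intro y
  have h1 : ∀ n, ∃ w, ψ n w = y := fun n => hψ n y
  choose w hw using h1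
  refine ⟨ulim (maximalIdeal (MvPowerSeries (Fin h) 𝒪)) 𝔘 w, ?_⟩
  rw [_root_.Fermat.Agent.L.Pivot.H76.psiInf_apply]
  refine ulim_eq' _ 𝔘 _ _ (fun m => Eventually.frequently ?_)
  filter_upwards [ulim_spec' (maximalIdeal (MvPowerSeries (Fin h) 𝒪)) 𝔘 w m] with n hn
  have h2 : ψ n (ulim (maximalIdeal (MvPowerSeries (Fin h) 𝒪)) 𝔘 w) - y =
      - ψ n (w n - ulim (maximalIdeal (MvPowerSeries (Fin h) 𝒪)) 𝔘 w) := by
    rw [map_sub, hw n]; ring
  rw [h2]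
  exact neg_mem (_root_.Fermat.Agent.L.Pivot.H76.psi_mem_pow (ψ n) (hψ n) hn)

/-- `(V2)`: `ψ∞ (φ∞ X_i) = 0`. -/
theorem psiInf_phiInf_X (hψ : ∀ n, Function.Surjective (ψ n))
    (h0 : ∀ n (i : Fin r), ψ n (φ n (X i)) = 0) (i : Fin r) :
    _root_.Fermat.Agent.L.Pivot.H76.psiInf ψ 𝔘 (_root_.Fermat.Agent.L.Pivot.H76.phiInf φ 𝔘 (X i)) = 0 := by
  rw [_root_.Fermat.Agent.L.Pivot.H76.psiInf_apply]
  refine ulim_eq' _ 𝔘 _ _ (fun m => Eventually.frequently ?_)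
  filter_upwards [_root_.Fermat.Agent.L.Pivot.H76.phi_close φ 𝔘 (X i) m] with n hn
  rw [sub_zero]
  have h2 : ψ n (_root_.Fermat.Agent.L.Pivot.H76.phiInf φ 𝔘 (X i)) = - ψ n (φ n (X i) - _root_.Fermat.Agent.L.Pivot.H76.phiInf φ 𝔘 (X i)) := by
    rw [map_sub, h0 n i]; ring
  rw [h2]
  exact neg_mem (_root_.Fermat.Agent.L.Pivot.H76.psi_mem_pow (ψ n) (hψ n) hn)

/-- Ideals of `P` are closed: `Ξ ≤ ψ_n(𝔵)` for all `n` implies `Ξ ≤ ψ∞(𝔵)`. -/
theorem le_map_psiInf [IsNoetherianRing (MvPowerSeries (Fin h) 𝒪)]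
    (hψ : ∀ n, Function.Surjective (ψ n))
    (𝔵 : Ideal (MvPowerSeries (Fin h) 𝒪)) (Ξ : Ideal T)
    (hΞ : ∀ n, Ξ ≤ Ideal.map (ψ n : MvPowerSeries (Fin h) 𝒪 →+* T) 𝔵) :
    Ξ ≤ Ideal.map (_root_.Fermat.Agent.L.Pivot.H76.psiInf ψ 𝔘 : MvPowerSeries (Fin h) 𝒪 →+* T) 𝔵 := by
  intro x hx
  have h1 : ∀ n, ∃ f ∈ 𝔵, ψ n f = x := fun n =>
    (Ideal.mem_map_iff_of_surjective (ψ n : MvPowerSeries (Fin h) 𝒪 →+* T) (hψ n)).mp (hΞ n hx)
  choose f hf hfx using h1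
  set g := ulim (maximalIdeal (MvPowerSeries (Fin h) 𝒪)) 𝔘 f with hg
  -- `g ∈ 𝔵`
  have hg𝔵 : g ∈ 𝔵 := by
    have h2 : (Ideal.Quotient.mk 𝔵 g : MvPowerSeries (Fin h) 𝒪 ⧸ 𝔵) ∈
        (⨅ i : ℕ, (maximalIdeal (MvPowerSeries (Fin h) 𝒪)) ^ i •
          (⊤ : Submodule (MvPowerSeries (Fin h) 𝒪) (MvPowerSeries (Fin h) 𝒪 ⧸ 𝔵))) := by
      rw [Submodule.mem_iInf]
      intro m
      obtain ⟨n, hn⟩ := (ulim_spec' (maximalIdeal (MvPowerSeries (Fin h) 𝒪)) 𝔘 f m).exists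
      have h3 : (Ideal.Quotient.mk 𝔵 g : MvPowerSeries (Fin h) 𝒪 ⧸ 𝔵) =
          (g - f n) • (1 : MvPowerSeries (Fin h) 𝒪 ⧸ 𝔵) := by
        have h4 : (g - f n) • (1 : MvPowerSeries (Fin h) 𝒪 ⧸ 𝔵) =
            Ideal.Quotient.mk 𝔵 (g - f n) := by
          have h5 : (1 : MvPowerSeries (Fin h) 𝒪 ⧸ 𝔵) = Ideal.Quotient.mk 𝔵 1 := rfl
          rw [h5]
          change Ideal.Quotient.mk 𝔵 ((g - f n) • 1) = _
          rw [smul_eq_mul, mul_one]
        rw [h4, map_sub, (Ideal.Quotient.eq_zero_iff_mem).mpr (hf n), sub_zero]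
      rw [h3]
      refine Submodule.smul_mem_smul ?_ Submodule.mem_top
      have : g - f n = - (f n - g) := by ring
      rw [this]
      exact neg_mem hn
    rw [Ideal.iInf_pow_smul_eq_bot_of_isLocalRing _ (maximalIdeal.isMaximal _).ne_top,
      Submodule.mem_bot] at h2
    exact (Ideal.Quotient.eq_zero_iff_mem).mp h2
  have hgx : _root_.Fermat.Agent.L.Pivot.H76.psiInf ψ 𝔘 g = x := by
    rw [_root_.Fermat.Agent.L.Pivot.H76.psiInf_apply]
    refine ulim_eq' _ 𝔘 _ _ (fun m => Eventually.frequently ?_)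
    filter_upwards [ulim_spec' (maximalIdeal (MvPowerSeries (Fin h) 𝒪)) 𝔘 f m] with n hn
    have h2 : ψ n g - x = - ψ n (f n - g) := by
      rw [map_sub, hfx n]; ring
    rw [h2]
    exact neg_mem (_root_.Fermat.Agent.L.Pivot.H76.psi_mem_pow (ψ n) (hψ n) hn)
  rw [← hgx]
  exact Ideal.mem_map_of_mem _ hg𝔵

variable {J : ℕ → Ideal (MvPowerSeries (Fin r) 𝒪)} (F : ∀ n, Frame (φ n) (J n) d)
  (π : ∀ n, (F n).N →+ M)

variable (T) in
/-- `π̃ : P^d → M`. -/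
noncomputable def piLim : (Fin d → MvPowerSeries (Fin h) 𝒪) →+ M where
  toFun v := ulim (maximalIdeal T) 𝔘 (fun n => π n (_root_.Fermat.Agent.L.Pivot.H76.gen (F n) v))
  map_zero' := by
    simp only [map_zero]
    exact ulim_const (maximalIdeal T) 𝔘 0
  map_add' v w := by
    simp only [map_add]
    exact ulim_add (maximalIdeal T) 𝔘 _ _

theorem piLim_apply (v : Fin d → MvPowerSeries (Fin h) 𝒪) :
    _root_.Fermat.Agent.L.Pivot.H76.piLim T 𝔘 F π v = ulim (maximalIdeal T) 𝔘 (fun n => π n (_root_.Fermat.Agent.L.Pivot.H76.gen (F n) v)) := rfl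

theorem piLim_smul
    (hπ : ∀ n (f : MvPowerSeries (Fin h) 𝒪) (x : (F n).N), π n (f • x) = ψ n f • π n x)
    (f : MvPowerSeries (Fin h) 𝒪) (v : Fin d → MvPowerSeries (Fin h) 𝒪) :
    _root_.Fermat.Agent.L.Pivot.H76.piLim T 𝔘 F π (f • v) = _root_.Fermat.Agent.L.Pivot.H76.psiInf ψ 𝔘 f • _root_.Fermat.Agent.L.Pivot.H76.piLim T 𝔘 F π v := by
  rw [_root_.Fermat.Agent.L.Pivot.H76.piLim_apply, _root_.Fermat.Agent.L.Pivot.H76.piLim_apply, _root_.Fermat.Agent.L.Pivot.H76.psiInf_apply, ← ulim_smul]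
  congr 1
  funext n
  rw [map_smul, hπ n]

theorem piLim_eq_zero_of_mem (hψ : ∀ n, Function.Surjective (ψ n))
    (hπ : ∀ n (f : MvPowerSeries (Fin h) 𝒪) (x : (F n).N), π n (f • x) = ψ n f • π n x)
    {v : Fin d → MvPowerSeries (Fin h) 𝒪} (hv : v ∈ _root_.Fermat.Agent.L.Pivot.H76.Kinf 𝔘 F) :
    _root_.Fermat.Agent.L.Pivot.H76.piLim T 𝔘 F π v = 0 := by
  rw [_root_.Fermat.Agent.L.Pivot.H76.piLim_apply]
  refine ulim_eq_zero (maximalIdeal T) 𝔘 _ (fun m => Eventually.frequently ?_)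
  filter_upwards [hv m] with n hn
  exact _root_.Fermat.Agent.L.Pivot.H76.pi_mem (ψ n) (π n) (hψ n) (hπ n) hn

/-- `π∞ : N∞ → M`. -/
noncomputable def piInf (hψ : ∀ n, Function.Surjective (ψ n))
    (hπ : ∀ n (f : MvPowerSeries (Fin h) 𝒪) (x : (F n).N), π n (f • x) = ψ n f • π n x) :
    _root_.Fermat.Agent.L.Pivot.H76.Ninf 𝔘 F →+ M :=
  QuotientAddGroup.lift (_root_.Fermat.Agent.L.Pivot.H76.Kinf 𝔘 F).toAddSubgroup (_root_.Fermat.Agent.L.Pivot.H76.piLim T 𝔘 F π)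
    (fun _ hv => _root_.Fermat.Agent.L.Pivot.H76.piLim_eq_zero_of_mem ψ 𝔘 F π hψ hπ hv)

theorem piInf_mk (hψ : ∀ n, Function.Surjective (ψ n))
    (hπ : ∀ n (f : MvPowerSeries (Fin h) 𝒪) (x : (F n).N), π n (f • x) = ψ n f • π n x)
    (v : Fin d → MvPowerSeries (Fin h) 𝒪) :
    _root_.Fermat.Agent.L.Pivot.H76.piInf ψ 𝔘 F π hψ hπ (Submodule.Quotient.mk v) = _root_.Fermat.Agent.L.Pivot.H76.piLim T 𝔘 F π v := rfl

/-- `(V3)` -/
theorem piInf_smul (hψ : ∀ n, Function.Surjective (ψ n))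
    (hπ : ∀ n (f : MvPowerSeries (Fin h) 𝒪) (x : (F n).N), π n (f • x) = ψ n f • π n x)
    (f : MvPowerSeries (Fin h) 𝒪) (x : _root_.Fermat.Agent.L.Pivot.H76.Ninf 𝔘 F) :
    _root_.Fermat.Agent.L.Pivot.H76.piInf ψ 𝔘 F π hψ hπ (f • x) = _root_.Fermat.Agent.L.Pivot.H76.psiInf ψ 𝔘 f • _root_.Fermat.Agent.L.Pivot.H76.piInf ψ 𝔘 F π hψ hπ x := by
  obtain ⟨v, rfl⟩ := Submodule.Quotient.mk_surjective _ x
  rw [← Submodule.Quotient.mk_smul, _root_.Fermat.Agent.L.Pivot.H76.piInf_mk, _root_.Fermat.Agent.L.Pivot.H76.piInf_mk, _root_.Fermat.Agent.L.Pivot.H76.piLim_smul ψ 𝔘 F π hπ]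

/-- `(V4)` -/
theorem piInf_surjective (hψ : ∀ n, Function.Surjective (ψ n))
    (hπ : ∀ n (f : MvPowerSeries (Fin h) 𝒪) (x : (F n).N), π n (f • x) = ψ n f • π n x)
    (hπs : ∀ n, Function.Surjective (π n)) :
    Function.Surjective (_root_.Fermat.Agent.L.Pivot.H76.piInf ψ 𝔘 F π hψ hπ) := by
  intro y
  have h1 : ∀ n, ∃ v, π n (_root_.Fermat.Agent.L.Pivot.H76.gen (F n) v) = y := fun n => by
    obtain ⟨x, hx⟩ := hπs n y
    obtain ⟨v, rfl⟩ := _root_.Fermat.Agent.L.Pivot.H76.gen_surjective (F n) x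
    exact ⟨v, hx⟩
  choose v hv using h1
  refine ⟨Submodule.Quotient.mk
    (ulim (maximalIdeal (MvPowerSeries (Fin h) 𝒪)) 𝔘 v), ?_⟩
  rw [_root_.Fermat.Agent.L.Pivot.H76.piInf_mk, _root_.Fermat.Agent.L.Pivot.H76.piLim_apply]
  refine ulim_eq (maximalIdeal T) 𝔘 _ _ (fun m => ?_)
  filter_upwards [ulim_spec (maximalIdeal (MvPowerSeries (Fin h) 𝒪)) 𝔘 v m] with n hn
  have h2 : π n (_root_.Fermat.Agent.L.Pivot.H76.gen (F n) (ulim (maximalIdeal (MvPowerSeries (Fin h) 𝒪)) 𝔘 v)) - y =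
      - π n (_root_.Fermat.Agent.L.Pivot.H76.gen (F n) (v n - ulim (maximalIdeal (MvPowerSeries (Fin h) 𝒪)) 𝔘 v)) := by
    rw [map_sub, map_sub, hv n]; abel
  rw [h2]
  exact neg_mem (_root_.Fermat.Agent.L.Pivot.H76.pi_mem (ψ n) (π n) (hψ n) (hπ n) (_root_.Fermat.Agent.L.Pivot.H76.gen_mem (F n) hn))

theorem span_le_ker_psiInf (hψ : ∀ n, Function.Surjective (ψ n))
    (h0 : ∀ n (i : Fin r), ψ n (φ n (X i)) = 0) :
    Ideal.span (Set.range fun i : Fin r => _root_.Fermat.Agent.L.Pivot.H76.phiInf φ 𝔘 (MvPowerSeries.X i)) ≤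
      RingHom.ker (_root_.Fermat.Agent.L.Pivot.H76.psiInf ψ 𝔘 : MvPowerSeries (Fin h) 𝒪 →+* T) := by
  rw [Ideal.span_le]
  rintro _ ⟨j, rfl⟩
  exact _root_.Fermat.Agent.L.Pivot.H76.psiInf_phiInf_X ψ 𝔘 hψ h0 j

/-- `(V5)` -/
theorem ker_piInf (h𝔘 : (𝔘 : Filter ℕ) ≤ atTop)
    (hψ : ∀ n, Function.Surjective (ψ n))
    (h0 : ∀ n (i : Fin r), ψ n (φ n (X i)) = 0)
    (hπ : ∀ n (f : MvPowerSeries (Fin h) 𝒪) (x : (F n).N), π n (f • x) = ψ n f • π n x)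
    (hπs : ∀ n, Function.Surjective (π n))
    (hker : ∀ n (x : (F n).N), π n x = 0 ↔
      x ∈ (Ideal.span (Set.range fun i : Fin r => φ n (MvPowerSeries.X i))) •
        (⊤ : Submodule (MvPowerSeries (Fin h) 𝒪) (F n).N))
    (x : _root_.Fermat.Agent.L.Pivot.H76.Ninf 𝔘 F) :
    _root_.Fermat.Agent.L.Pivot.H76.piInf ψ 𝔘 F π hψ hπ x = 0 ↔
      x ∈ (Ideal.span (Set.range fun i : Fin r => _root_.Fermat.Agent.L.Pivot.H76.phiInf φ 𝔘 (MvPowerSeries.X i))) •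
        (⊤ : Submodule (MvPowerSeries (Fin h) 𝒪) (_root_.Fermat.Agent.L.Pivot.H76.Ninf 𝔘 F)) := by
  classical
  constructor
  · intro hx
    obtain ⟨v, rfl⟩ := Submodule.Quotient.mk_surjective _ x
    rw [_root_.Fermat.Agent.L.Pivot.H76.piInf_mk, _root_.Fermat.Agent.L.Pivot.H76.piLim_apply] at hx
    set Pr : ℕ → ℕ → Prop := fun n m => π n (_root_.Fermat.Agent.L.Pivot.H76.gen (F n) v) ∈
      (maximalIdeal T ^ m) • (⊤ : Submodule T M) with hPr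
    have hP0 : ∀ n, Pr n 0 := fun n => by
      simp only [hPr, pow_zero, Ideal.one_eq_top, Submodule.top_smul, Submodule.mem_top]
    set μ : ℕ → ℕ := fun n => Nat.findGreatest (Pr n) n with hμ
    have hPμ : ∀ n, Pr n (μ n) := fun n => Nat.findGreatest_spec (Nat.zero_le n) (hP0 n)
    have h1 : ∀ n, ∃ u : Fin r → (Fin d → MvPowerSeries (Fin h) 𝒪),
        _root_.Fermat.Agent.L.Pivot.H76.gen (F n) (v - ∑ j, φ n (X j) • u j) ∈
          (maximalIdeal (MvPowerSeries (Fin h) 𝒪) ^ μ n) •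
            (⊤ : Submodule (MvPowerSeries (Fin h) 𝒪) (F n).N) := by
      intro n
      obtain ⟨xn, hxn, hxn'⟩ := _root_.Fermat.Agent.L.Pivot.H76.exists_pi_eq_of_mem (ψ n) (π n) (hψ n) (hπ n) (hπs n) (hPμ n)
      have h2 : π n (_root_.Fermat.Agent.L.Pivot.H76.gen (F n) v - xn) = 0 := by rw [map_sub, hxn', sub_self]
      obtain ⟨y, hy⟩ := exists_sum_of_mem_span_smul_top _ ((hker n _).mp h2)
      have h3 : ∀ j, ∃ u, _root_.Fermat.Agent.L.Pivot.H76.gen (F n) u = y j := fun j => _root_.Fermat.Agent.L.Pivot.H76.gen_surjective (F n) (y j)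
      choose u hu using h3
      refine ⟨u, ?_⟩
      have h4 : _root_.Fermat.Agent.L.Pivot.H76.gen (F n) (v - ∑ j, φ n (X j) • u j) = xn := by
        rw [map_sub, map_sum]
        simp only [map_smul, hu]
        rw [← hy]
        abel
      rw [h4]
      exact hxn
    choose u hu using h1
    set U : Fin r → (Fin d → MvPowerSeries (Fin h) 𝒪) := fun j =>
      ulim (maximalIdeal (MvPowerSeries (Fin h) 𝒪)) 𝔘 (fun n => u n j) with hU
    have hmem : v - ∑ j, _root_.Fermat.Agent.L.Pivot.H76.phiInf φ 𝔘 (X j) • U j ∈ _root_.Fermat.Agent.L.Pivot.H76.Kinf 𝔘 F := by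
      refine _root_.Fermat.Agent.L.Pivot.H76.mem_Kinf_of_close 𝔘 F (fun n => v - ∑ j, φ n (X j) • u n j) ?_ ?_
      · intro m
        have h5 : ∀ᶠ n in (𝔘 : Filter ℕ), ∀ j : Fin r,
            φ n (X j) - _root_.Fermat.Agent.L.Pivot.H76.phiInf φ 𝔘 (X j) ∈ maximalIdeal (MvPowerSeries (Fin h) 𝒪) ^ m :=
          Filter.eventually_all.mpr fun j => _root_.Fermat.Agent.L.Pivot.H76.phi_close φ 𝔘 _ m
        have h6 : ∀ᶠ n in (𝔘 : Filter ℕ), ∀ j : Fin r, u n j - U j ∈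
            (maximalIdeal (MvPowerSeries (Fin h) 𝒪) ^ m) •
              (⊤ : Submodule (MvPowerSeries (Fin h) 𝒪) (Fin d → MvPowerSeries (Fin h) 𝒪)) :=
          Filter.eventually_all.mpr fun j =>
            ulim_spec (maximalIdeal (MvPowerSeries (Fin h) 𝒪)) 𝔘 (fun n => u n j) m
        filter_upwards [h5, h6] with n h7 h8
        have h9 : (v - ∑ j, _root_.Fermat.Agent.L.Pivot.H76.phiInf φ 𝔘 (X j) • U j) - (v - ∑ j, φ n (X j) • u n j) =
            ∑ j, (φ n (X j) • (u n j - U j) +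
              (φ n (X j) - _root_.Fermat.Agent.L.Pivot.H76.phiInf φ 𝔘 (X j)) • U j) := by
          simp only [smul_sub, sub_smul, Finset.sum_add_distrib, Finset.sum_sub_distrib]
          abel
        rw [h9]
        refine Submodule.sum_mem _ fun j _ => Submodule.add_mem _ ?_ ?_
        · exact Submodule.smul_mem _ _ (h8 j)
        · exact Submodule.smul_mem_smul (h7 j) Submodule.mem_top
      · intro m
        have h10 : ∀ᶠ n in (𝔘 : Filter ℕ), m ≤ n := h𝔘 (eventually_ge_atTop m)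
        have h11 : ∀ᶠ n in (𝔘 : Filter ℕ), Pr n m := by
          have := ulim_spec (maximalIdeal T) 𝔘 (fun n => π n (_root_.Fermat.Agent.L.Pivot.H76.gen (F n) v)) m
          rw [hx] at this
          filter_upwards [this] with n hn
          simpa [hPr] using hn
        filter_upwards [h10, h11] with n h12 h13
        have h14 : m ≤ μ n := Nat.le_findGreatest h12 h13
        exact Submodule.smul_mono_left (Ideal.pow_le_pow_right h14) (hu n)
    have hx' : (Submodule.Quotient.mk v : _root_.Fermat.Agent.L.Pivot.H76.Ninf 𝔘 F) =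
        ∑ j, _root_.Fermat.Agent.L.Pivot.H76.phiInf φ 𝔘 (X j) • (Submodule.Quotient.mk (U j) : _root_.Fermat.Agent.L.Pivot.H76.Ninf 𝔘 F) := by
      have := (Submodule.Quotient.eq (_root_.Fermat.Agent.L.Pivot.H76.Kinf 𝔘 F)).mpr hmem
      rw [this, ← Submodule.mkQ_apply, map_sum]
      refine Finset.sum_congr rfl fun j _ => ?_
      rw [map_smul, Submodule.mkQ_apply]
    rw [hx']
    refine Submodule.sum_mem _ fun j _ => ?_
    exact Submodule.smul_mem_smul (Ideal.subset_span (Set.mem_range_self j)) Submodule.mem_top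
  · intro hx
    refine Submodule.smul_induction_on hx ?_ ?_
    · intro a ha y _
      rw [_root_.Fermat.Agent.L.Pivot.H76.piInf_smul]
      have := _root_.Fermat.Agent.L.Pivot.H76.span_le_ker_psiInf ψ 𝔘 hψ h0 ha
      rw [RingHom.mem_ker] at this
      have h2 : _root_.Fermat.Agent.L.Pivot.H76.psiInf ψ 𝔘 a = 0 := this
      rw [h2, zero_smul]
    · intro y z hy hz
      rw [map_add, hy, hz, add_zero]

end ProjLimit

end Fermat.Agent.L.Pivot.H76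

end
-- ==== END Fermat.Agent.L.Pivot.H76_PatchProj

-- ==== BEGIN Fermat.Agent.L.Pivot.H76_TypeKill
section

set_option autoImplicit false

namespace Fermat.Agent.L.Pivot.H76

open MvPowerSeries IsLocalRing

section Rescale

variable {σ : Type*} {D : Type*} [CommRing D]

theorem rescale_C' (c : σ → D) (a : D) : rescale c (C a : MvPowerSeries σ D) = C a := by
  classical
  ext n
  rw [coeff_rescale, coeff_C]
  split_ifs with h
  · subst h
    simp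
  · rw [mul_zero]

theorem rescale_X' (c : σ → D) (s : σ) :
    rescale c (X s : MvPowerSeries σ D) = C (c s) * X s := by
  classical
  ext n
  rw [coeff_rescale, coeff_C_mul, coeff_X]
  split_ifs with h
  · subst h
    simp
  · simp

theorem constantCoeff_rescale' (c : σ → D) (F : MvPowerSeries σ D) :
    constantCoeff (rescale c F) = constantCoeff F := by
  rw [← coeff_zero_eq_constantCoeff_apply, coeff_rescale]
  simp

theorem rescale_injective' [IsDomain D] (c : σ → D) (hc : ∀ s, c s ≠ 0) :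
    Function.Injective (rescale c : MvPowerSeries σ D →+* MvPowerSeries σ D) := by
  rw [injective_iff_map_eq_zero]
  intro F hF
  ext n
  have h1 := congrArg (coeff n) hF
  rw [coeff_rescale, map_zero] at h1
  rcases mul_eq_zero.1 h1 with h2 | h2
  · exfalso
    rw [Finsupp.prod, Finset.prod_eq_zero_iff] at h2
    obtain ⟨s, -, hs⟩ := h2
    exact pow_ne_zero _ (hc s) hs
  · rw [h2, map_zero]

theorem mem_maximalIdeal_mvPowerSeries [IsLocalRing D] (F : MvPowerSeries σ D) :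
    F ∈ maximalIdeal (MvPowerSeries σ D) ↔ constantCoeff F ∈ maximalIdeal D := by
  rw [mem_maximalIdeal, mem_nonunits_iff, isUnit_iff_constantCoeff, mem_maximalIdeal,
    mem_nonunits_iff]

end Rescale

section Scale

variable {𝒪 : Type} [CommRing 𝒪] {k g : ℕ}
variable {D : Type} [CommRing D] [IsDomain D] [Algebra 𝒪 D]

/-- Step 0: the point `θ(v, w, s)_j` is proportional to `θ(y, z, m)_j`. -/
theorem exists_scale (δ : Fin k → 𝒪) (hδ : ∀ j, δ j ≠ 0) (θ : PRing 𝒪 k g →ₐ[𝒪] D)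
    (hinj : Function.Injective (algebraMap 𝒪 D)) (𝔪 : Ideal D) (hmem : ∀ i, θ (X i) ∈ 𝔪)
    (ht : IsTypePoint g δ θ) (j : Fin k) :
    ∃ c b : D, c ≠ 0 ∧ b ∈ 𝔪 ∧ c * θ (cv 𝒪 g j) = b * θ (cy 𝒪 g j) ∧
      c * θ (cw 𝒪 g j) = b * θ (cz 𝒪 g j) ∧ c * θ (cs 𝒪 g j) = b * θ (cm 𝒪 g j) := by
  obtain ⟨hQ, h1, h2, h3⟩ := ht j
  simp only [minor1, minor2, minor3, map_sub, map_mul] at h1 h2 h3
  by_cases hy : θ (cy 𝒪 g j) = 0
  · by_cases hz : θ (cz 𝒪 g j) = 0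
    · have hm : θ (cm 𝒪 g j) ≠ 0 := by
        intro hm
        have h4 : θ (Q1 𝒪 g j) = 0 := by
          simp only [Q1, map_add, map_mul, map_pow, hy, hz, hm]
          ring
        rw [hQ, map_pow] at h4
        have h5 : algebraMap 𝒪 D (δ j) = 0 := (pow_eq_zero_iff two_ne_zero).1 h4
        exact hδ j ((map_eq_zero_iff _ hinj).1 h5)
      refine ⟨θ (cm 𝒪 g j), θ (cs 𝒪 g j), hm, hmem _, ?_, ?_, ?_⟩
      · linear_combination -h2
      · linear_combination -h3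
      · ring
    · refine ⟨θ (cz 𝒪 g j), θ (cw 𝒪 g j), hz, hmem _, ?_, ?_, ?_⟩
      · linear_combination -h1
      · ring
      · linear_combination h3
  · refine ⟨θ (cy 𝒪 g j), θ (cv 𝒪 g j), hy, hmem _, ?_, ?_, ?_⟩
    · ring
    · linear_combination h1
    · linear_combination h2

end Scale

/-- **TYPE-KILL.** -/
theorem stmt_TypeKill : Stmt_TypeKill := by
  intro 𝒪 _ _ k g δ hδ D _ _ _ _ _ _ θ hinj hmem ht f hf
  rw [RingHom.mem_ker]
  choose c b hc hb hv hw hs using exists_scale δ hδ θ hinj (maximalIdeal D) hmem ht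
  have : IsAdicComplete (maximalIdeal (MvPowerSeries (Fin k) D)) (MvPowerSeries (Fin k) D) :=
    Fermat.Agent.S53.Limit.isAdicComplete_mvPowerSeries_fin D k
  -- the homomorphism `Θ`
  have hΘmem : ∀ i, (C (θ (X i)) * (tw D k g i : MvPowerSeries (Fin k) D)) ∈
      maximalIdeal (MvPowerSeries (Fin k) D) := by
    intro i
    rw [mem_maximalIdeal_mvPowerSeries, map_mul, constantCoeff_C]
    exact Ideal.mul_mem_right _ _ (hmem i)
  obtain ⟨Θ, hΘ⟩ := Fermat.Agent.S56.H50.exists_eval (𝒪 := 𝒪) (6 * k + g)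
    (fun i => C (θ (X i)) * (tw D k g i : MvPowerSeries (Fin k) D)) hΘmem
  -- the homomorphism `Ψ`
  have hΨmem : ∀ i, mk4 k g (fun j i' => ![(C (θ (cy 𝒪 g j)) : MvPowerSeries (Fin k) D),
      C (θ (cz 𝒪 g j)), C (θ (cm 𝒪 g j)), C (b j) * X j] i')
      (fun a => C (θ (X (xIdx k g a)))) i ∈ maximalIdeal (MvPowerSeries (Fin k) D) := by
    intro i
    rw [mem_maximalIdeal_mvPowerSeries]
    rcases idx_cases' i with ⟨j, i', rfl⟩ | ⟨a, rfl⟩
    · rw [mk4_cIdx']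
      rcases fin4_cases i' with rfl | rfl | rfl | rfl
      · show constantCoeff (C (θ (cy 𝒪 g j)) : MvPowerSeries (Fin k) D) ∈ _
        rw [constantCoeff_C]
        exact hmem _
      · show constantCoeff (C (θ (cz 𝒪 g j)) : MvPowerSeries (Fin k) D) ∈ _
        rw [constantCoeff_C]
        exact hmem _
      · show constantCoeff (C (θ (cm 𝒪 g j)) : MvPowerSeries (Fin k) D) ∈ _
        rw [constantCoeff_C]
        exact hmem _
      · show constantCoeff (C (b j) * X j : MvPowerSeries (Fin k) D) ∈ _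
        rw [map_mul, constantCoeff_C]
        exact Ideal.mul_mem_right _ _ (hb j)
    · rw [mk4_xIdx', constantCoeff_C]
      exact hmem _
  obtain ⟨Ψ, hΨ⟩ := Fermat.Agent.S56.H50.exists_eval (𝒪 := 𝒪) (4 * k + g) _ hΨmem
  have hΨy : ∀ j, Ψ (py 𝒪 g j) = C (θ (cy 𝒪 g j)) := fun j => by
    rw [py, hΨ, mk4_cIdx']; rfl
  have hΨz : ∀ j, Ψ (pz 𝒪 g j) = C (θ (cz 𝒪 g j)) := fun j => by
    rw [pz, hΨ, mk4_cIdx']; rfl
  have hΨm : ∀ j, Ψ (pm 𝒪 g j) = C (θ (cm 𝒪 g j)) := fun j => by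
    rw [pm, hΨ, mk4_cIdx']; rfl
  have hΨβ : ∀ j, Ψ (pβ 𝒪 g j) = C (b j) * X j := fun j => by
    rw [pβ, hΨ, mk4_cIdx']; rfl
  have hΨx : ∀ a, Ψ (px 𝒪 g a) = C (θ (X (xIdx k g a))) := fun a => by
    rw [px, hΨ, mk4_xIdx']
  -- `Ψ ∘ Sub = rescale c ∘ Θ`
  have hcomp : ∀ f, Ψ (Sub 𝒪 k g f) = rescale c (Θ f) := by
    intro f
    refine ringHom_eq_of_isHausdorff (maximalIdeal (MvPowerSeries (Fin k) D))
      ((Ψ : PRing' 𝒪 k g →+* MvPowerSeries (Fin k) D).comp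
        (Sub 𝒪 k g : PRing 𝒪 k g →+* PRing' 𝒪 k g))
      ((rescale c).comp (Θ : PRing 𝒪 k g →+* MvPowerSeries (Fin k) D)) ?_ ?_ ?_ f
    · intro a
      have ha : (C a : PRing 𝒪 k g) = algebraMap 𝒪 _ a := rfl
      simp only [RingHom.comp_apply, RingHom.coe_coe, ha, AlgHom.commutes]
      rw [MvPowerSeries.algebraMap_apply, rescale_C']
    · intro i
      simp only [RingHom.comp_apply, RingHom.coe_coe]
      rw [hΘ, map_mul, rescale_C']
      rcases idx_cases i with ⟨j, i', rfl⟩ | ⟨a, rfl⟩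
      · rcases fin6_cases i' with rfl | rfl | rfl | rfl | rfl | rfl
        · rw [tw_cIdx_lt _ _ _ (by decide), MvPolynomial.coe_one, map_one, mul_one]
          exact (congrArg Ψ (Sub_cy j)).trans (hΨy j)
        · rw [tw_cIdx_lt _ _ _ (by decide), MvPolynomial.coe_one, map_one, mul_one]
          exact (congrArg Ψ (Sub_cz j)).trans (hΨz j)
        · rw [tw_cIdx_lt _ _ _ (by decide), MvPolynomial.coe_one, map_one, mul_one]
          exact (congrArg Ψ (Sub_cm j)).trans (hΨm j)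
        · rw [tw_cIdx_ge _ _ _ (by decide), MvPolynomial.coe_X, rescale_X']
          have h1 : Ψ (Sub 𝒪 k g (X (cIdx k g j 3))) = C (b j) * X j * C (θ (cy 𝒪 g j)) := by
            rw [show (X (cIdx k g j 3) : PRing 𝒪 k g) = cv 𝒪 g j from rfl, Sub_cv, map_mul,
              hΨβ, hΨy]
          have h2 : (C (c j) * C (θ (cv 𝒪 g j)) : MvPowerSeries (Fin k) D) =
              C (b j) * C (θ (cy 𝒪 g j)) := by
            rw [← map_mul, ← map_mul, hv j]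
          rw [h1]
          have h3 : (X (cIdx k g j 3) : PRing 𝒪 k g) = cv 𝒪 g j := rfl
          rw [h3]
          linear_combination (-(X j : MvPowerSeries (Fin k) D)) * h2
        · rw [tw_cIdx_ge _ _ _ (by decide), MvPolynomial.coe_X, rescale_X']
          have h1 : Ψ (Sub 𝒪 k g (X (cIdx k g j 4))) = C (b j) * X j * C (θ (cz 𝒪 g j)) := by
            rw [show (X (cIdx k g j 4) : PRing 𝒪 k g) = cw 𝒪 g j from rfl, Sub_cw, map_mul,
              hΨβ, hΨz]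
          have h2 : (C (c j) * C (θ (cw 𝒪 g j)) : MvPowerSeries (Fin k) D) =
              C (b j) * C (θ (cz 𝒪 g j)) := by
            rw [← map_mul, ← map_mul, hw j]
          rw [h1]
          have h3 : (X (cIdx k g j 4) : PRing 𝒪 k g) = cw 𝒪 g j := rfl
          rw [h3]
          linear_combination (-(X j : MvPowerSeries (Fin k) D)) * h2
        · rw [tw_cIdx_ge _ _ _ (by decide), MvPolynomial.coe_X, rescale_X']
          have h1 : Ψ (Sub 𝒪 k g (X (cIdx k g j 5))) = C (b j) * X j * C (θ (cm 𝒪 g j)) := by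
            rw [show (X (cIdx k g j 5) : PRing 𝒪 k g) = cs 𝒪 g j from rfl, Sub_cs, map_mul,
              hΨβ, hΨm]
          have h2 : (C (c j) * C (θ (cs 𝒪 g j)) : MvPowerSeries (Fin k) D) =
              C (b j) * C (θ (cm 𝒪 g j)) := by
            rw [← map_mul, ← map_mul, hs j]
          rw [h1]
          have h3 : (X (cIdx k g j 5) : PRing 𝒪 k g) = cs 𝒪 g j := rfl
          rw [h3]
          linear_combination (-(X j : MvPowerSeries (Fin k) D)) * h2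
      · rw [tw_xIdx, MvPolynomial.coe_one, map_one, mul_one, Sub_xIdx, hΨx]
    · intro i
      simp only [RingHom.comp_apply, RingHom.coe_coe]
      rw [mem_maximalIdeal_mvPowerSeries, constantCoeff_rescale',
        ← mem_maximalIdeal_mvPowerSeries, hΘ]
      exact hΘmem i
  -- `Ψ` kills the generators `F_j`
  have hΨF : ∀ j, Ψ (typeF (g := g) δ j) = 0 := by
    intro j
    have h4 : Ψ (4 : PRing' 𝒪 k g) = 4 := map_ofNat _ 4
    have h5 : Ψ (C (δ j ^ 2)) = C (θ (Q1 𝒪 g j)) := by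
      have h6 : (C (δ j ^ 2) : PRing' 𝒪 k g) = algebraMap 𝒪 _ (δ j ^ 2) := rfl
      rw [h6, AlgHom.commutes, MvPowerSeries.algebraMap_apply, (ht j).1]
    have h7 : θ (4 : PRing 𝒪 k g) = 4 := map_ofNat _ 4
    rw [typeF, map_sub, map_add, map_mul, map_mul, map_pow, h4, h5, hΨy, hΨz, hΨm, Q1,
      map_add, map_mul, map_mul, map_pow, h7]
    simp only [map_add, map_mul, map_pow, map_ofNat]
    ring
  have hΨI : typeIdeal' g δ ≤ RingHom.ker (Ψ : PRing' 𝒪 k g →+* MvPowerSeries (Fin k) D) := by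
    rw [typeIdeal', Ideal.span_le]
    rintro _ ⟨j, rfl⟩
    exact hΨF j
  have h1 : rescale c (Θ f) = 0 := by
    rw [← hcomp]
    exact hΨI hf
  have h2 : Θ f = 0 := rescale_injective' c hc (h1.trans (map_zero _).symm)
  exact theta_eq_zero_of_Theta θ hmem Θ hΘ f h2

end Fermat.Agent.L.Pivot.H76

end
-- ==== END Fermat.Agent.L.Pivot.H76_TypeKill

-- ==== BEGIN Fermat.Agent.L.Pivot3.H9_UnrAux2
section

set_option autoImplicit false

namespace Fermat.Agent.L.Pivot3.H9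

/-- **UNRCOND**, `5 ≤ p` or an auxiliary prime `r ≡ 2 mod 3` dividing `N1 ∣ M`. -/
theorem unrCond_of_hU (p E : ℕ) (hp : p.Prime) (hp2 : p ≠ 2) (c M N1 : ℕ) (hsq : Squarefree c)
    (hcM : c ∣ M) (hN1 : N1 ∣ M)
    (hU : 5 ≤ p ∨ ∃ r : ℕ, r.Prime ∧ r ∣ N1 ∧ r % 3 = 2)
    (H : Subgroup (ZMod c)ˣ) (hH : ∀ x : (ZMod c)ˣ, x ^ (p ^ E) ∈ H) :
    Fermat.Agent.NEB.UnrCond M c H := by
  rcases hU with h5 | ⟨r, hr, hrN, hr3⟩
  · exact Fermat.Agent.L.Pivot.Geom.H70.unrCond_of_five_le p E hp h5 c M hsq hcM H hH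
  · exact unrCond_of_aux p E hp hp2 c M r hsq hcM (hrN.trans hN1)
      (no_root_of_mod_three hr hr3) H hH

open ModularCurve AlgebraicCurve in
/-- **FH-UNR**, `5 ≤ p` or an auxiliary prime `r ≡ 2 mod 3` dividing `N1 ∣ M`. -/
theorem fh_unr_of_hU (p E : ℕ) (hp : p.Prime) (hp2 : p ≠ 2) (c M N1 : ℕ) (hc2 : 2 ≤ c)
    (hM : M ≠ 0) (hsq : Squarefree c) (hcM : c ∣ M) (hN1 : N1 ∣ M)
    (hU : 5 ≤ p ∨ ∃ r : ℕ, r.Prime ∧ r ∣ N1 ∧ r % 3 = 2)
    (H : Subgroup (ZMod c)ˣ) (hH : ∀ x : (ZMod c)ˣ, x ^ (p ^ E) ∈ H) :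
    ∀ w : Place Fermat.Agent.NEB.Kbar ↥(Fermat.Agent.NEB.FHbar M c H),
      ∃ x : ↥(modularFunctionFieldBar M), w.ord (Fermat.Agent.NEB.inclBar M c H x) = 1 :=
  Fermat.Agent.NEB.H34.fh_unr c M H hc2 hcM hM
    (unrCond_of_hU p E hp hp2 c M N1 hsq hcM hN1 hU H hH)

end Fermat.Agent.L.Pivot3.H9

end
-- ==== END Fermat.Agent.L.Pivot3.H9_UnrAux2

-- ==== BEGIN Fermat.Agent.NEB.H29_HstepJH
section

/-!
# LG-NEB: the norm step of the tower at the level of `J_H` (helper29)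

`H ≤ H₁ ≤ H₂ ≤ (ℤ/c)ˣ`, `F_{H₁} / F_{H₂}` cyclic of degree `p ^ a` generated by `⟨δ⟩`,
`t = T^H_ℓ - (ℓ + 1)` (`ℓ ∤ M` prime), `F_H / F₀` unramified.

* `stmt_INV_JHrel`   : `v ∈ J_H[m]` fixed by `⟨d⟩`, `d ∈ H'`  ⟹  `t v ∈ π^* J_{H'}[m]`;
* `jh_divisible_top` : `J_H` is `p`-divisible if `±H = (ℤ/c)ˣ` and `J₀` is;
* `stmt_HSTEP_JH`    : `v ∈ J_H[p ^ k]` fixed by `⟨d⟩`, `d ∈ H₂`  ⟹  `t ^ N v = ∑_{i < p ^ a} ⟨δ⟩ ^ i w`
  with `w ∈ J_H[p ^ k]` fixed by `⟨d⟩`, `d ∈ H₁`  (hypothesis `hstep` of `H90.tower_basis`, up to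
  the power of `t`, which is invertible at a non-Eisenstein maximal ideal).
-/

set_option autoImplicit false
set_option linter.style.haveILetI false

noncomputable section

namespace Fermat.Agent.NEB.H29

open AlgebraicCurve ModularCurve
open Fermat.Agent.NEB Fermat.Agent.NEB.H14 Fermat.Agent.NEB.JH Fermat.Agent.RED

section Rel

variable {M c ℓ : ℕ} [NeZero M] [NeZero c] [NeZero ℓ] {H H' : Subgroup (ZMod c)ˣ}

omit [NeZero M] [NeZero c] in
/-- `ρ_H d = 1` for `d ∈ H`. -/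
theorem rho_eq_one_of_mem (dd : DiamondData M c H) {d : (ZMod c)ˣ} (hd : d ∈ H) : dd.ρ d = 1 :=
  (dd.ker d).mpr (Or.inl hd)

omit [NeZero M] [NeZero c] in
/-- The Galois group of `F_H / F_{H ⊔ ⟨δ⟩}` is generated by `⟨δ⟩`. -/
theorem relGal_sup_zpowers (dd : DiamondData M c H) (δ : (ZMod c)ˣ) :
    relGal dd (H ⊔ Subgroup.zpowers δ) = Subgroup.zpowers (dd.ρ δ) := by
  rw [relGal, Subgroup.map_sup, MonoidHom.map_zpowers]
  have h1 : H.map dd.ρ = ⊥ := by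
    rw [eq_bot_iff]
    rintro g ⟨d, hd, rfl⟩
    rw [Subgroup.mem_bot]
    exact rho_eq_one_of_mem dd hd
  rw [h1, bot_sup_eq]

/-- **INV** for the relative cover `F_H / F_{H'}`. -/
theorem stmt_INV_JHrel (hH : H ≤ H') (hd : HeckeData M c ℓ H) (hd' : HeckeData M c ℓ H')
    (hℓ : ℓ.Prime) (hM : ¬ ℓ ∣ M)
    (hunr : ∀ w : Place Kbar ↥(FHbar M c H),
      ∃ x : ↥(modularFunctionFieldBar M), w.ord (inclBar M c H x) = 1)
    (m : ℕ) (hm : m ≠ 0) (y : JH M c H) (hy : (m : ℤ) • y = 0)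
    (hyG : ∀ d ∈ H', hd.dd.ρ d • y = y) :
    ∃ y₀ : JH M c H', (m : ℤ) • y₀ = 0 ∧
      piUpRel M hH y₀ = TH hd.hβ y - (ℓ + 1) • y := by
  haveI := finite_units_zmod c
  have hop := opHyp_THfn hd m
  have hop' : OpHyp (hd.dd.ρ.comp H'.subtype) (THfn hd.hβ) m
      (finrankAlong Kbar (alphaH M c ℓ H)) :=
    ⟨hop.ne_zero, hop.mul, fun d x => hop.equiv (d : (ZMod c)ˣ) x, hop.const⟩
  have h := stmt_INV_FF hd'.isFF hd.isFF (inclRel M hH) (hd.dd.ρ.comp H'.subtype)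
    (fun x hx => relFixed hH hd.dd hd'.dd x (fun d hdH => hx ⟨d, hdH⟩))
    (fun w => by
      obtain ⟨x, hx⟩ := hunr w
      exact ⟨inclBar M c H' x, by rw [inclRel_inclBar hH]; exact hx⟩)
    m _ hm (isCorr_THdiv hd.isFF hd.isFF' hd.hβ) hop' y hy (fun d => hyG d d.2)
  rw [finrankAlong_alphaH hd hℓ hM, ← TH_eq_picMap hd.isFF hd.isFF' hd.hβ] at h
  exact h

omit [NeZero c] in
/-- If `±H = (ℤ/c)ˣ` then `π^* π_* = 1` on `J_H`. -/
theorem piUp_piDown_top (hd : HeckeData M c ℓ H) (htop : ∀ d, d ∈ H ∨ -d ∈ H) (x : JH M c H) :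
    piUp M c H (piDown M c H x) = x := by
  have hbot : hd.dd.ρ.range = ⊥ := by
    rw [eq_bot_iff]
    rintro g ⟨d, rfl⟩
    rw [Subgroup.mem_bot]
    exact (hd.dd.ker d).mpr (htop d)
  haveI : Fintype hd.dd.ρ.range := by
    rw [hbot]
    infer_instance
  have h := piUp_piDown hd.isFF hd.dd hd.dd.ρ.range rfl x
  rw [h]
  have h1 : ∀ g : hd.dd.ρ.range, (g : ↥(FHbar M c H) ≃ₐ[Kbar] ↥(FHbar M c H)) = 1 := by
    intro g
    obtain ⟨d, hdg⟩ := g.2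
    rw [← hdg]
    exact (hd.dd.ker d).mpr (htop d)
  have hcard : Fintype.card hd.dd.ρ.range = 1 := by
    rw [Fintype.card_eq_one_iff]
    exact ⟨1, fun g => Subtype.ext (h1 g)⟩
  rw [Finset.sum_congr rfl (fun g _ => by rw [h1 g, one_smul]), Finset.sum_const,
    Finset.card_univ, hcard, one_smul]

omit [NeZero c] in
/-- **Base of the tower**: if `±H = (ℤ/c)ˣ` then `J_H` is `p`-divisible (as `J₀` is). -/
theorem jh_divisible_top (hd : HeckeData M c ℓ H) (htop : ∀ d, d ∈ H ∨ -d ∈ H) (p : ℕ)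
    (hdiv0 : ∀ x : JZero M, ∃ y : JZero M, p • y = x) (x : JH M c H) :
    ∃ y : JH M c H, p • y = x := by
  obtain ⟨y₀, hy₀⟩ := hdiv0 (piDown M c H x)
  refine ⟨piUp M c H y₀, ?_⟩
  rw [← map_nsmul, hy₀, piUp_piDown_top hd htop]

/-- `π^*` commutes with the powers of `t`. -/
theorem piUpRel_tEnd_pow (hH : H ≤ H') (hd : HeckeData M c ℓ H) (hd' : HeckeData M c ℓ H')
    (d : ℤ) (N : ℕ) (x : JH M c H') :
    piUpRel M hH ((tEnd (TH hd'.hβ) d ^ N) x) = (tEnd (TH hd.hβ) d ^ N) (piUpRel M hH x) := by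
  induction N generalizing x with
  | zero => rfl
  | succ N ih =>
    rw [pow_succ, pow_succ, endMul_apply, endMul_apply, ih, tEnd_apply, tEnd_apply, map_sub,
      map_zsmul, piUpRel_TH hH hd hd']

omit [NeZero c] in
/-- the powers of `t` commute with the diamond operators. -/
theorem tEnd_pow_diamond (hd : HeckeData M c ℓ H) (d : ℤ) (N : ℕ) (δ : (ZMod c)ˣ)
    (x : JH M c H) :
    (tEnd (TH hd.hβ) d ^ N) (hd.dd.ρ δ • x) = hd.dd.ρ δ • (tEnd (TH hd.hβ) d ^ N) x := by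
  induction N generalizing x with
  | zero => rfl
  | succ N ih =>
    rw [pow_succ, endMul_apply, endMul_apply, tEnd_apply, tEnd_apply]
    have h1 := TH_diamond hd δ x
    have e : hd.dd.ρ δ • TH hd.hβ x - hd.dd.ρ δ • d • x
        = hd.dd.ρ δ • (TH hd.hβ x - d • x) := (smul_sub _ _ _).symm
    rw [h1, smul_comm d (hd.dd.ρ δ) x, e, ih]

end Rel

section Step

variable {M c ℓ : ℕ} [NeZero M] [NeZero c] [NeZero ℓ] {H H₁ H₂ : Subgroup (ZMod c)ˣ}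

/-- **The norm step of the tower.**  `H ≤ H₁ ≤ H₂`, `F_{H₁} / F_{H₂}` cyclic of degree `p ^ a`
generated by `⟨δ⟩`, `J_{H₂}` divisible up to `t ^ N₀`.  A class `v ∈ J_H[p ^ k]` fixed by `H₂` is,
up to a power of `t`, the `⟨δ⟩`-norm of a class `w ∈ J_H[p ^ k]` fixed by `H₁`. -/
theorem stmt_HSTEP_JH (hH₁ : H ≤ H₁) (hH₂ : H₁ ≤ H₂)
    (hd : HeckeData M c ℓ H) (hd₁ : HeckeData M c ℓ H₁) (hd₂ : HeckeData M c ℓ H₂)
    (hℓ : ℓ.Prime) (hM : ¬ ℓ ∣ M)
    (hunr : ∀ w : Place Kbar ↥(FHbar M c H),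
      ∃ x : ↥(modularFunctionFieldBar M), w.ord (inclBar M c H x) = 1)
    (δ : (ZMod c)ˣ) (hgen : relGal hd₁.dd H₂ = Subgroup.zpowers (hd₁.dd.ρ δ))
    (p : ℕ) [Fact p.Prime] (a : ℕ) (hord : orderOf (hd₁.dd.ρ δ) = p ^ a)
    (N₀ : ℕ)
    (hdiv₀ : ∀ x₀ : JH M c H₂, ∃ y₀ : JH M c H₂,
      (tEnd (TH hd₂.hβ) ((ℓ + 1 : ℕ) : ℤ) ^ N₀) x₀ = p • y₀)
    (k : ℕ) (v : JH M c H) (hv : p ^ k • v = 0) (hvG : ∀ d ∈ H₂, hd.dd.ρ d • v = v) :
    ∃ w : JH M c H, p ^ k • w = 0 ∧ (∀ d ∈ H₁, hd.dd.ρ d • w = w) ∧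
      ∑ i ∈ Finset.range (p ^ a), (hd.dd.ρ δ) ^ i • w
        = (tEnd (TH hd.hβ) ((ℓ + 1 : ℕ) : ℤ) ^ ((N₀ + 1) * p ^ a * k + 1 + 1)) v := by
  have hp : 0 < p ^ a := pow_pos (Fact.out : p.Prime).pos a
  have hpk : p ^ k ≠ 0 := (pow_pos (Fact.out : p.Prime).pos k).ne'
  -- (1) INV for `H ≤ H₂`
  obtain ⟨v', hv', hvv'⟩ := stmt_INV_JHrel (hH₁.trans hH₂) hd hd₂ hℓ hM hunr (p ^ k) hpk v
    (by rw [natCast_zsmul]; exact hv) hvG
  rw [natCast_zsmul] at hv'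
  -- (2) ONTO for `H₁ ≤ H₂`
  obtain ⟨w', hw', hww'⟩ := (stmt_PIONTO_JH hH₂ hd₁ hd₂ hℓ hM δ hgen p a hord N₀ hdiv₀).2 k v' hv'
  -- (3) pull back to `H`
  refine ⟨piUpRel M hH₁ w', ?_, ?_, ?_⟩
  · rw [← map_nsmul, hw', map_zero]
  · intro d hdH
    exact diamond_piUpRel_of_mem hH₁ hd.isFF hd₁.isFF hd.dd hd₁.dd hdH w'
  · have e1 : ∀ i : ℕ, (hd.dd.ρ δ) ^ i • piUpRel M hH₁ w'
        = piUpRel M hH₁ ((hd₁.dd.ρ δ) ^ i • w') := by
      intro i
      rw [← map_pow, ← map_pow]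
      exact (diamond_piUpRel hH₁ hd.isFF hd₁.isFF hd.dd hd₁.dd (δ ^ i) w').symm
    rw [Finset.sum_congr rfl (fun i _ => e1 i), ← map_sum]
    haveI := finite_relGal hd₁.dd H₂
    haveI : Fintype (relGal hd₁.dd H₂) := Fintype.ofFinite _
    have e2 := piUpRel_piDownRel hH₂ hd₁.isFF hd₂.isFF hd₁.dd hd₂.dd (relGal hd₁.dd H₂) rfl w'
    rw [sum_subgroup_eq_sum_fin (hd₁.dd.ρ δ) (relGal hd₁.dd H₂) hgen (p ^ a) hord hp
      (fun g => g • w'), Fin.sum_univ_eq_sum_range (fun i => (hd₁.dd.ρ δ) ^ i • w') (p ^ a)] at e2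
    rw [← e2, hww', piUpRel_trans hH₁ hH₂ hd.isFF hd₁.isFF hd₂.isFF,
      piUpRel_tEnd_pow (hH₁.trans hH₂) hd hd₂, hvv']
    have e3 : TH hd.hβ v - (ℓ + 1) • v = tEnd (TH hd.hβ) ((ℓ + 1 : ℕ) : ℤ) v := by
      rw [tEnd_apply, natCast_zsmul]
    rw [e3, ← endMul_apply, ← pow_succ]

end Step

end Fermat.Agent.NEB.H29

end
end
-- ==== END Fermat.Agent.NEB.H29_HstepJH

-- ==== BEGIN Fermat.Agent.NEB.OLD.H14_Iter
section

/-!
# NEB, package OLDNEW (helper14): the iteration over the Taylor–Wiles primes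

`iter` : for distinct primes `q₁, …, q_r` not dividing `N` and `Q = N q₁ ⋯ q_r` there is an
additive map `Φ : J₀(Q) → J₀(N)` (the composite of the `a_*`), commuting with the Galois action
and with the operators `U0 · ℓ` at the primes `ℓ ∉ {q_j}`, such that on every realization `R`
`R.map Φ` is a bijection

`{v ∈ R.X Q | v ∈ gk (U_ℓ - c' ℓ) (ℓ ∈ S), v ∈ gk (U_{q_j} - c' q_j)}
   → {x ∈ R.X N | x ∈ gk (U_ℓ - c ℓ) (ℓ ∈ S), x ∈ gk (T_{q_j} - c q_j)}`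

(`c' = c` on `S`, `c q_j ≡ c' q_j + a' q_j`, `q_j ≡ c' q_j · a' q_j`).
-/

set_option autoImplicit false
set_option linter.unusedSectionVars false
set_option linter.style.haveILetI false

noncomputable section

namespace Fermat.Agent.NEB.OLD

open AlgebraicCurve ModularCurve Fermat.Agent.S24
open Fermat.Agent.NEB.H14 Fermat.Agent.NEB.JH Fermat.Agent.RED

local notation "Kb" => AlgebraicClosure ℚ

section Galois

/-- `a_*` commutes with the Galois action. -/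
theorem ad_galois (N q : ℕ) [NeZero N] [NeZero q] (σ : Kb ≃ₐ[ℚ] Kb) (y : JZero (N * q)) :
    pushP (heckeAlphaBar Kb N q) (σ • y) = σ • pushP (heckeAlphaBar Kb N q) y := by
  rw [galois_smul_pic0_def, galois_smul_pic0_def]
  exact pushP_semilinear (isFF0 N) (isFF0 (N * q)) _ _ _
    (Fermat.Agent.GTor.H2.intertwines_heckeAlphaBar N q σ) y

end Galois

section Iter

variable {𝒪 : Type} [CommRing 𝒪] (R : Realization 𝒪)

theorem inE_union_singleton {M : ℕ} [NeZero M] {S : Set ℕ} {c : ℕ → 𝒪} {q : ℕ} (hq : q.Prime)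
    {x : R.X M} (h1 : InE R M S c x) (h2 : IsGk (Uop R M q hq) (c q) x) :
    InE R M (S ∪ {q}) c x := by
  intro ℓ hℓ hℓS
  rcases hℓS with h | h
  · exact h1 ℓ hℓ h
  · rw [Set.mem_singleton_iff] at h
    subst h
    exact h2

theorem not_sq_dvd_mul {ℓ q N : ℕ} (hℓ : ℓ.Prime) (hq : q.Prime) (hne : ℓ ≠ q)
    (h : ¬ ℓ ^ 2 ∣ N) : ¬ ℓ ^ 2 ∣ N * q := by
  intro h2
  have hco : Nat.Coprime (ℓ ^ 2) q :=
    Nat.Coprime.pow_left 2 ((Nat.coprime_primes hℓ hq).mpr hne)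
  exact h (hco.dvd_of_dvd_mul_right h2)

theorem not_sq_dvd_self_mul {q N : ℕ} (hq : q.Prime) (h : ¬ q ∣ N) : ¬ q ^ 2 ∣ N * q := by
  intro h2
  rw [pow_two] at h2
  exact h (Nat.dvd_of_mul_dvd_mul_right hq.pos h2)

theorem not_sq_dvd_of_not_dvd {ℓ N : ℕ} (h : ¬ ℓ ∣ N) : ¬ ℓ ^ 2 ∣ N := fun h2 =>
  h (dvd_trans (dvd_pow_self ℓ (by norm_num)) h2)

/-- **OLDNEW, iterated.** -/
theorem iter (hStep : Stmt_OldNewStep) (hSQW : Stmt_SquareW) (hDEG : Stmt_DegBeta)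
    (hAs : Stmt_CompatAs) (hBs : Stmt_CompatBs) (hAd : Stmt_CompatAd) (hBd : Stmt_CompatBd)
    (c' a' : ℕ → 𝒪) :
    ∀ (qs : List ℕ) (N : ℕ) [NeZero N] (S : Set ℕ) (c : ℕ → 𝒪),
    qs.Nodup → (∀ q ∈ qs, q.Prime ∧ ¬ q ∣ N) →
    (∀ ℓ ∈ S, ℓ.Prime ∧ ℓ ∉ qs ∧ ¬ ℓ ^ 2 ∣ N ∧ c' ℓ = c ℓ) →
    (∀ q ∈ qs, IsUnit (c' q - a' q) ∧ IsUnit (c' q * c' q - 1) ∧ IsUnit (a' q * a' q - 1) ∧
        IsUnit (q : 𝒪) ∧ IsUnit (c' q)) →
    (∀ q ∈ qs, ∀ (M : ℕ) [NeZero M] (x : R.X M),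
        (∃ n : ℕ, ((q : 𝒪) - c' q * a' q) ^ n • x = 0) ∧
          ∃ n : ℕ, (c q - (c' q + a' q)) ^ n • x = 0) →
    ∀ (Q : ℕ) [NeZero Q], Q = N * qs.prod →
    ∃ Φ : JZero Q →+ JZero N,
      (∀ (ℓ : ℕ) [NeZero ℓ], ℓ.Prime → ℓ ∉ qs → ¬ ℓ ^ 2 ∣ N →
        ∀ y, Φ (U0 Q ℓ y) = U0 N ℓ (Φ y)) ∧
      (∀ (σ : Kb ≃ₐ[ℚ] Kb) (y : JZero Q), Φ (σ • y) = σ • Φ y) ∧
      (∀ v, InE R Q (S ∪ {q | q ∈ qs}) c' v → InE R N (S ∪ {q | q ∈ qs}) c (R.map Φ v)) ∧
      (∀ x, InE R N (S ∪ {q | q ∈ qs}) c x →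
        ∃ v, InE R Q (S ∪ {q | q ∈ qs}) c' v ∧ R.map Φ v = x) ∧
      (∀ v, InE R Q (S ∪ {q | q ∈ qs}) c' v → R.map Φ v = 0 → v = 0) := by
  intro qs
  induction qs with
  | nil =>
    intro N _ S c _ _ hS _ _ Q _ hQ
    have hQ' : Q = N := by rw [hQ, List.prod_nil, mul_one]
    subst hQ'
    refine ⟨AddMonoidHom.id _, fun ℓ _ _ _ _ y => rfl, fun σ y => rfl, fun v hv => ?_,
      fun x hx => ⟨x, ?_, R.map_id _ _ (fun _ => rfl) x⟩, fun v _ h0 => ?_⟩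
    · rw [R.map_id _ _ (fun _ => rfl) v]
      refine hv.congr R (fun ℓ _ h => h) (fun ℓ hℓ => ?_)
      rcases hℓ with h | h
      · exact (hS ℓ h).2.2.2
      · exact absurd h (by simp)
    · refine hx.congr R (fun ℓ _ h => h) (fun ℓ hℓ => ?_)
      rcases hℓ with h | h
      · exact ((hS ℓ h).2.2.2).symm
      · exact absurd h (by simp)
    · rw [R.map_id _ _ (fun _ => rfl) v] at h0
      exact h0
  | cons q qs ih =>
    intro N _ S c hnd hqs hS hu ht Q _ hQ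
    obtain ⟨hq, hqN⟩ := hqs q (List.mem_cons_self)
    haveI : NeZero q := ⟨hq.ne_zero⟩
    have hqqs : q ∉ qs := (List.nodup_cons.mp hnd).1
    have hnd' : qs.Nodup := (List.nodup_cons.mp hnd).2
    have hne : ∀ ℓ ∈ qs, ℓ ≠ q := fun ℓ hℓ h => hqqs (h ▸ hℓ)
    -- the constants at the level `N q`
    let c₁ : ℕ → 𝒪 := Function.update c q (c' q)
    have hc₁q : c₁ q = c' q := Function.update_self _ _ _
    have hc₁ : ∀ ℓ, ℓ ≠ q → c₁ ℓ = c ℓ := fun ℓ h => Function.update_of_ne h _ _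
    -- the induction hypothesis at the level `N q`
    obtain ⟨Φ', hΦU, hΦG, hΦ1, hΦ2, hΦ3⟩ := ih (N * q) (S ∪ {q}) c₁ hnd'
      (fun ℓ hℓ => by
        obtain ⟨hℓp, hℓN⟩ := hqs ℓ (List.mem_cons_of_mem _ hℓ)
        refine ⟨hℓp, fun h => ?_⟩
        rcases (Nat.Prime.dvd_mul hℓp).mp h with h | h
        · exact hℓN h
        · exact hne ℓ hℓ ((Nat.prime_dvd_prime_iff_eq hℓp hq).mp h))
      (fun ℓ hℓ => by
        rcases hℓ with h | h
        · obtain ⟨hℓp, hℓqs, hℓN, hℓc⟩ := hS ℓ h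
          have hℓq : ℓ ≠ q := fun e => hℓqs (e ▸ List.mem_cons_self)
          exact ⟨hℓp, fun h' => hℓqs (List.mem_cons_of_mem _ h'),
            not_sq_dvd_mul hℓp hq hℓq hℓN, by rw [hc₁ ℓ hℓq]; exact hℓc⟩
        · rw [Set.mem_singleton_iff] at h
          subst h
          exact ⟨hq, hqqs, not_sq_dvd_self_mul hq hqN, hc₁q.symm⟩)
      (fun ℓ hℓ => hu ℓ (List.mem_cons_of_mem _ hℓ))
      (fun ℓ hℓ M _ x => by
        rw [hc₁ ℓ (hne ℓ hℓ)]
        exact ht ℓ (List.mem_cons_of_mem _ hℓ) M x)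
      Q (by rw [hQ, List.prod_cons, mul_assoc])
    -- the step at `(N, q)`
    obtain ⟨u1, u2, u3, u4, u5⟩ := hu q (List.mem_cons_self)
    have hS₁ : ∀ ℓ ∈ S ∪ {q' | q' ∈ qs}, ℓ ≠ q ∧ ¬ ℓ ^ 2 ∣ N := by
      intro ℓ hℓ
      rcases hℓ with h | h
      · obtain ⟨_, hℓqs, hℓN, _⟩ := hS ℓ h
        exact ⟨fun e => hℓqs (e ▸ List.mem_cons_self), hℓN⟩
      · exact ⟨hne ℓ h, not_sq_dvd_of_not_dvd (hqs ℓ (List.mem_cons_of_mem _ h)).2⟩
    obtain ⟨k1, k2, k3⟩ := oneStep R hStep hSQW hDEG hAs hBs hAd hBd N q hq hqN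
      (S ∪ {q' | q' ∈ qs}) hS₁ c (c' q) (a' q) (c q) u1 u2 u3 u4 u5
      (fun x => (ht q (List.mem_cons_self) N x).1)
      (fun y => (ht q (List.mem_cons_self) (N * q) y).1)
      (fun x => (ht q (List.mem_cons_self) N x).2)
    -- membership bookkeeping
    have top_iff : ∀ v : R.X Q, InE R Q (S ∪ {q' | q' ∈ q :: qs}) c' v ↔
        InE R Q (S ∪ {q} ∪ {q' | q' ∈ qs}) c' v := by
      intro v
      constructor
      · intro h
        refine h.congr R (fun ℓ _ hℓ => ?_) (fun _ _ => rfl)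
        rcases hℓ with (h | h) | h
        · exact Or.inl h
        · exact Or.inr (by rw [Set.mem_singleton_iff] at h; subst h; exact List.mem_cons_self)
        · exact Or.inr (List.mem_cons_of_mem _ h)
      · intro h
        refine h.congr R (fun ℓ _ hℓ => ?_) (fun _ _ => rfl)
        rcases hℓ with h | h
        · exact Or.inl (Or.inl h)
        · rcases List.mem_cons.mp h with h | h
          · exact Or.inl (Or.inr (by rw [h]; rfl))
          · exact Or.inr h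
    have mid_split : ∀ z : R.X (N * q), InE R (N * q) (S ∪ {q} ∪ {q' | q' ∈ qs}) c₁ z →
        InE R (N * q) (S ∪ {q' | q' ∈ qs}) c z ∧ IsGk (Uop R (N * q) q hq) (c' q) z := by
      intro z hz
      refine ⟨hz.congr R (fun ℓ _ hℓ => ?_) (fun ℓ hℓ => hc₁ ℓ (hS₁ ℓ hℓ).1), ?_⟩
      · rcases hℓ with h | h
        · exact Or.inl (Or.inl h)
        · exact Or.inr h
      · have := hz q hq (Or.inl (Or.inr rfl))
        rw [hc₁q] at this
        exact this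
    have mid_join : ∀ z : R.X (N * q), InE R (N * q) (S ∪ {q' | q' ∈ qs}) c z →
        IsGk (Uop R (N * q) q hq) (c' q) z →
        InE R (N * q) (S ∪ {q} ∪ {q' | q' ∈ qs}) c₁ z := by
      intro z hz hzq ℓ hℓ hℓS
      rcases hℓS with (h | h) | h
      · rw [hc₁ ℓ (hS₁ ℓ (Or.inl h)).1]
        exact hz ℓ hℓ (Or.inl h)
      · rw [Set.mem_singleton_iff] at h
        subst h
        rw [hc₁q]
        exact hzq
      · rw [hc₁ ℓ (hS₁ ℓ (Or.inr h)).1]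
        exact hz ℓ hℓ (Or.inr h)
    have bot_split : ∀ x : R.X N, InE R N (S ∪ {q' | q' ∈ q :: qs}) c x →
        InE R N (S ∪ {q' | q' ∈ qs}) c x ∧ IsGk (Uop R N q hq) (c q) x := by
      intro x hx
      refine ⟨hx.congr R (fun ℓ _ hℓ => ?_) (fun _ _ => rfl), hx q hq (Or.inr List.mem_cons_self)⟩
      rcases hℓ with h | h
      · exact Or.inl h
      · exact Or.inr (List.mem_cons_of_mem _ h)
    have bot_join : ∀ x : R.X N, InE R N (S ∪ {q' | q' ∈ qs}) c x →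
        IsGk (Uop R N q hq) (c q) x → InE R N (S ∪ {q' | q' ∈ q :: qs}) c x := by
      intro x hx hxq ℓ hℓ hℓS
      rcases hℓS with h | h
      · exact hx ℓ hℓ (Or.inl h)
      · rcases List.mem_cons.mp h with h | h
        · subst h
          exact hxq
        · exact hx ℓ hℓ (Or.inr h)
    have hcomp : ∀ v : R.X Q, R.map ((pushP (heckeAlphaBar Kb N q)).comp Φ') v
        = R.map (pushP (heckeAlphaBar Kb N q)) (R.map Φ' v) :=
      fun v => R.map_comp _ _ _ (fun _ => rfl) v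
    refine ⟨(pushP (heckeAlphaBar Kb N q)).comp Φ', ?_, ?_, ?_, ?_, ?_⟩
    · intro ℓ _ hℓ hℓqs hℓN y
      have hℓq : ℓ ≠ q := fun e => hℓqs (e ▸ List.mem_cons_self)
      rw [AddMonoidHom.comp_apply, AddMonoidHom.comp_apply,
        hΦU ℓ hℓ (fun h => hℓqs (List.mem_cons_of_mem _ h)) (not_sq_dvd_mul hℓ hq hℓq hℓN) y]
      exact hAd N q ℓ hq hℓ (Ne.symm hℓq) hqN hℓN _
    · intro σ y
      rw [AddMonoidHom.comp_apply, AddMonoidHom.comp_apply, hΦG σ y]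
      exact ad_galois N q σ _
    · intro v hv
      rw [hcomp]
      obtain ⟨h1, h2⟩ := mid_split _ (hΦ1 v ((top_iff v).mp hv))
      obtain ⟨h3, h4⟩ := k1 _ h1 h2
      exact bot_join _ h3 h4
    · intro x hx
      obtain ⟨h1, h2⟩ := bot_split x hx
      obtain ⟨z, hz1, hz2, hz3⟩ := k2 x h1 h2
      obtain ⟨v, hv1, hv2⟩ := hΦ2 z (mid_join z hz1 hz2)
      exact ⟨v, (top_iff v).mpr hv1, by rw [hcomp, hv2, hz3]⟩
    · intro v hv h0
      rw [hcomp] at h0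
      obtain ⟨h1, h2⟩ := mid_split _ (hΦ1 v ((top_iff v).mp hv))
      exact hΦ3 v ((top_iff v).mp hv) (k3 _ h1 h2 h0)

end Iter

end Fermat.Agent.NEB.OLD

end
end
-- ==== END Fermat.Agent.NEB.OLD.H14_Iter

-- ==== BEGIN Fermat.Agent.S34.H91_Chain3
section

/-!
# S34 from the law of total conservation  (helper91)

`s34_of_totMod : BAD.H91.Stmt_TotMod → <frozen S34>`: everything in the chain of S34 is proved
except the law of total conservation of the modular datum of level `M q` (TOT-MOD).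
-/

set_option autoImplicit false

open Polynomial IsLocalRing

namespace Fermat.Agent.S34.H91

/-- **S34 from TOT-MOD.** -/
theorem s34_of_totMod (hTot : Fermat.Agent.BAD.H91.Stmt_TotMod)
    {𝒪 : Type} [CommRing 𝒪] [IsDomain 𝒪] [IsDiscreteValuationRing 𝒪]
    [IsAdicComplete (maximalIdeal 𝒪) 𝒪] [Finite (ResidueField 𝒪)] [CharZero 𝒪]
    {p : ℕ} (hp : p.Prime) (hp𝒪 : (p : 𝒪) ∈ maximalIdeal 𝒪)
    {N : ℕ} [NeZero N] {S : Finset ℕ} (hpS : p ∈ S) (hNS : ∀ q : ℕ, q.Prime → q ∣ N → q ∈ S)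
    {θ : CuspForm.heckeAlgebra N 2 (↑S : Set ℕ) →+* ResidueField 𝒪}
    {T : Type} [CommRing T] [IsLocalRing T] [IsNoetherianRing T]
    [IsAdicComplete (maximalIdeal T) T] [Algebra 𝒪 T] [IsLocalHom (algebraMap 𝒪 T)]
    [Module.Finite 𝒪 T] [Module.Free 𝒪 T]
    (H : CuspForm.HeckeGaloisRepDatum N (↑S : Set ℕ) 𝒪 θ T)
    (q : ℕ) (hq : q.Prime) (hqp : q ≠ p) (hqN : q ∣ N) (hq2 : ¬ q ^ 2 ∣ N) :
    H.ρ.IsUnipotentOnInertiaAt q :=
  s34_of_modSSD
    (fun M q _ hq hqM hq2 ht => Fermat.Agent.BAD.H91.modSSD_tame_of hTot M q hq hqM hq2 ht)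
    hp hp𝒪 hpS hNS H q hq hqp hqN hq2

end Fermat.Agent.S34.H91

end
-- ==== END Fermat.Agent.S34.H91_Chain3
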