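-- GENERATED (merged mirror, NOTES/tools/trim/merge3_helper67.py): 11 modules of the originals, bodies verbatim.
import Mathlib
import Fermat.Prelude.Thm_IsAdicComplete_of_module_finite
import Fermat.Statements.S34
import Fermat.Agent.Zm.S56_L01_001
import Fermat.Agent.Zm.S43_L01_005
import Fermat.Agent.Zm.S43_L02_004
import Fermat.Agent.Zm.S43_L01_000
import Fermat.Agent.Zm.S43_L03_001
import Fermat.Agent.Zm.S43_L04_001
import Fermat.Agent.Zm.S43_L05_001
import Fermat.Agent.Zm.S35_L21_000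
import Fermat.Agent.Zm.S43_L05_002
import Fermat.Agent.Zm.S43_L03_002
import Fermat.Agent.Zm.S43_L02_003
import Fermat.Agent.S44
import Fermat.Agent.Zm.S43_L01_004
import Fermat.Agent.Zm.S56_L01_003
import Fermat.Agent.Zm.S43_L04_002

-- ==== BEGIN Fermat.Agent.L.Pivot.H76_Patch
section

/-!
# PIVOT / PV-PATCH (helper76): patching for the PIVOT datum

`Fermat.Agent.L.Pivot.H76.stmt_PVPatch : Stmt_PVPatch`: pivot levels with relation ideals
`((1 + s_j) ^ (p ^ n) - 1)_j` for every `n` give a pivot level with relation ideal `⊥`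
(limit along a non-principal ultrafilter on `ℕ`, as in `Fermat.Agent.S59.Patch.patch`).
-/

set_option autoImplicit false
set_option linter.style.haveILetI false
set_option linter.unusedSectionVars false

namespace Fermat.Agent.L.Pivot.H76

open IsLocalRing MvPowerSeries Filter
open Fermat.Agent.S59.Patch (FinQuot finQuot_of_isLocalRing finQuot_of_finite relIdeal_le_pow)

section Assemble

variable {𝒪 : Type} [CommRing 𝒪] [IsLocalRing 𝒪] {r h d : ℕ}
  [IsAdicComplete (maximalIdeal (MvPowerSeries (Fin r) 𝒪)) (MvPowerSeries (Fin r) 𝒪)]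
  [FinQuot (maximalIdeal (MvPowerSeries (Fin r) 𝒪)) (MvPowerSeries (Fin r) 𝒪)]
  [IsAdicComplete (maximalIdeal (MvPowerSeries (Fin r) 𝒪)) (Fin d → MvPowerSeries (Fin r) 𝒪)]
  [FinQuot (maximalIdeal (MvPowerSeries (Fin r) 𝒪)) (Fin d → MvPowerSeries (Fin r) 𝒪)]
  [IsAdicComplete (maximalIdeal (MvPowerSeries (Fin h) 𝒪)) (MvPowerSeries (Fin h) 𝒪)]
  [FinQuot (maximalIdeal (MvPowerSeries (Fin h) 𝒪)) (MvPowerSeries (Fin h) 𝒪)]
  [IsAdicComplete (maximalIdeal (MvPowerSeries (Fin h) 𝒪)) (Fin d → MvPowerSeries (Fin h) 𝒪)]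
  [FinQuot (maximalIdeal (MvPowerSeries (Fin h) 𝒪)) (Fin d → MvPowerSeries (Fin h) 𝒪)]
  [IsNoetherianRing (MvPowerSeries (Fin h) 𝒪)]
  {T : Type} [CommRing T] [IsLocalRing T] [Algebra 𝒪 T]
  {M : Type} [AddCommGroup M] [Module T M]
  [IsAdicComplete (maximalIdeal T) T] [FinQuot (maximalIdeal T) T]
  [IsAdicComplete (maximalIdeal T) M] [FinQuot (maximalIdeal T) M]
  {ϖ : 𝒪} {I1 Iχ 𝔵 : Ideal (MvPowerSeries (Fin h) 𝒪)} {Ξ : Ideal T}
  {J : ℕ → Ideal (MvPowerSeries (Fin r) 𝒪)}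
  (L : ∀ n, PivotLevel 𝒪 r h T M ϖ I1 Iχ 𝔵 Ξ (J n) d) (𝔘 : Ultrafilter ℕ)

/-- the maps `φ_n` -/
abbrev phiSeq : ℕ → MvPowerSeries (Fin r) 𝒪 →ₐ[𝒪] MvPowerSeries (Fin h) 𝒪 := fun n => (L n).φ

/-- the maps `ψ_n` -/
abbrev psiSeq : ℕ → MvPowerSeries (Fin h) 𝒪 →ₐ[𝒪] T := fun n => (L n).ψ

/-- the frames of unipotent type -/
abbrev frameSeq1 : ∀ n, Frame (phiSeq L n) (J n) d := fun n => frame1 (L n)

/-- the frames of the ramified types -/
abbrev frameSeqχ : ∀ n, Frame (phiSeq L n) (J n) d := fun n => frameχ (L n)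

/-- the projections -/
abbrev piSeq : ∀ n, (frameSeq1 L n).N →+ M := fun n => (L n).π

theorem psiSeq_surjective (n : ℕ) : Function.Surjective (psiSeq L n) := (L n).ψ_surjective

theorem piSeq_smul (n : ℕ) (f : MvPowerSeries (Fin h) 𝒪) (x : (frameSeq1 L n).N) :
    piSeq L n (f • x) = psiSeq L n f • piSeq L n x := (L n).π_smul f x

theorem cmp_inf (h𝔘 : (𝔘 : Filter ℕ) ≤ atTop) (v : Fin d → MvPowerSeries (Fin h) 𝒪) :
    (∑ i, v i • (Submodule.Quotient.mk (Pi.single i 1) : _root_.Fermat.Agent.L.Pivot.H76.Ninf 𝔘 (frameSeq1 L)) ∈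
      (Ideal.span {(MvPowerSeries.C ϖ : MvPowerSeries (Fin h) 𝒪)}) •
        (⊤ : Submodule (MvPowerSeries (Fin h) 𝒪) (_root_.Fermat.Agent.L.Pivot.H76.Ninf 𝔘 (frameSeq1 L)))) ↔
    (∑ i, v i • (Submodule.Quotient.mk (Pi.single i 1) : _root_.Fermat.Agent.L.Pivot.H76.Ninf 𝔘 (frameSeqχ L)) ∈
      (Ideal.span {(MvPowerSeries.C ϖ : MvPowerSeries (Fin h) 𝒪)}) •
        (⊤ : Submodule (MvPowerSeries (Fin h) 𝒪) (_root_.Fermat.Agent.L.Pivot.H76.Ninf 𝔘 (frameSeqχ L)))) := by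
  rw [← _root_.Fermat.Agent.L.Pivot.H76.mk_eq_sum 𝔘 (frameSeq1 L) v, ← _root_.Fermat.Agent.L.Pivot.H76.mk_eq_sum 𝔘 (frameSeqχ L) v]
  constructor
  · refine cmp_inf_aux 𝔘 (frameSeq1 L) (frameSeqχ L) h𝔘 _ ?_ v
    intro n w hw
    rw [_root_.Fermat.Agent.L.Pivot.H76.gen_apply] at hw ⊢
    exact ((L n).cmp w).mp hw
  · refine cmp_inf_aux 𝔘 (frameSeqχ L) (frameSeq1 L) h𝔘 _ ?_ v
    intro n w hw
    rw [_root_.Fermat.Agent.L.Pivot.H76.gen_apply] at hw ⊢
    exact ((L n).cmp w).mpr hw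

/-- The limit level. -/
noncomputable def limPivot (h𝔘 : (𝔘 : Filter ℕ) ≤ atTop)
    (hJ : ∀ n, J n ≤ maximalIdeal (MvPowerSeries (Fin r) 𝒪) ^ (n + 1)) :
    PivotLevel 𝒪 r h T M ϖ I1 Iχ 𝔵 Ξ ⊥ d where
  N1 := _root_.Fermat.Agent.L.Pivot.H76.Ninf 𝔘 (frameSeq1 L)
  Nχ := _root_.Fermat.Agent.L.Pivot.H76.Ninf 𝔘 (frameSeqχ L)
  φ := _root_.Fermat.Agent.L.Pivot.H76.phiInf (phiSeq L) 𝔘
  ψ := _root_.Fermat.Agent.L.Pivot.H76.psiInf (psiSeq L) 𝔘
  ψ_surjective := _root_.Fermat.Agent.L.Pivot.H76.psiInf_surjective (psiSeq L) 𝔘 (psiSeq_surjective L)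
  ψ_φ_X := _root_.Fermat.Agent.L.Pivot.H76.psiInf_phiInf_X (psiSeq L) 𝔘 (psiSeq_surjective L) (fun n => (L n).ψ_φ_X)
  Ξ_le := le_map_psiInf (psiSeq L) 𝔘 (psiSeq_surjective L) 𝔵 Ξ (fun n => (L n).Ξ_le)
  π := _root_.Fermat.Agent.L.Pivot.H76.piInf (psiSeq L) 𝔘 (frameSeq1 L) (piSeq L) (psiSeq_surjective L) (piSeq_smul L)
  π_smul := _root_.Fermat.Agent.L.Pivot.H76.piInf_smul (psiSeq L) 𝔘 (frameSeq1 L) (piSeq L) (psiSeq_surjective L) (piSeq_smul L)
  π_surjective := _root_.Fermat.Agent.L.Pivot.H76.piInf_surjective (psiSeq L) 𝔘 (frameSeq1 L) (piSeq L) (psiSeq_surjective L)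
    (piSeq_smul L) (fun n => (L n).π_surjective)
  ker_π := _root_.Fermat.Agent.L.Pivot.H76.ker_piInf (psiSeq L) 𝔘 (frameSeq1 L) (piSeq L) h𝔘 (psiSeq_surjective L)
    (fun n => (L n).ψ_φ_X) (piSeq_smul L) (fun n => (L n).π_surjective) (fun n => (L n).ker_π)
  b1 := fun i => Submodule.Quotient.mk (Pi.single i 1)
  bχ := fun i => Submodule.Quotient.mk (Pi.single i 1)
  b1_span := _root_.Fermat.Agent.L.Pivot.H76.b_span_inf 𝔘 (frameSeq1 L)
  b1_rel := _root_.Fermat.Agent.L.Pivot.H76.b_rel_inf 𝔘 (frameSeq1 L) h𝔘 hJ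
  bχ_span := _root_.Fermat.Agent.L.Pivot.H76.b_span_inf 𝔘 (frameSeqχ L)
  bχ_rel := _root_.Fermat.Agent.L.Pivot.H76.b_rel_inf 𝔘 (frameSeqχ L) h𝔘 hJ
  rel1 := fun f hf x => rel_inf 𝔘 (frameSeq1 L) f (fun n y => (L n).rel1 f hf y) x
  relχ := fun f hf x => rel_inf 𝔘 (frameSeqχ L) f (fun n y => (L n).relχ f hf y) x
  cmp := cmp_inf L 𝔘 h𝔘

end Assemble

/-- **PV-PATCH**: pivot levels for all Taylor–Wiles relation ideals give a pivot level with
trivial relation ideal. -/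
theorem stmt_PVPatch : Stmt_PVPatch := by
  intro 𝒪 _ _ _ _ _ p hp r h T _ _ _ _ _ _ hres M _ _ ϖ I1 Iχ 𝔵 Ξ d hL
  classical
  let L : ∀ n, PivotLevel 𝒪 r h T M ϖ I1 Iχ 𝔵 Ξ (twIdealP 𝒪 r p n) d := fun n => (hL n).some
  -- the profinite structures
  haveI : IsAdicComplete (maximalIdeal (MvPowerSeries (Fin r) 𝒪)) (MvPowerSeries (Fin r) 𝒪) :=
    Fermat.Agent.S53.Limit.isAdicComplete_mvPowerSeries_fin 𝒪 r
  haveI : IsLocalHom (algebraMap 𝒪 (MvPowerSeries (Fin r) 𝒪)) :=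
    Fermat.Agent.S53.Limit.isLocalHom_algebraMap_mvPowerSeries 𝒪 (Fin r)
  haveI : Finite (ResidueField (MvPowerSeries (Fin r) 𝒪)) :=
    Fermat.Agent.S53.H50.finite_residueField_of_surjective 𝒪 (MvPowerSeries (Fin r) 𝒪)
      (Fermat.Agent.S53.Limit.residue_surjective_mvPowerSeries 𝒪 (Fin r))
  haveI : FinQuot (maximalIdeal (MvPowerSeries (Fin r) 𝒪)) (MvPowerSeries (Fin r) 𝒪) :=
    finQuot_of_isLocalRing _
  haveI : IsAdicComplete (maximalIdeal (MvPowerSeries (Fin r) 𝒪))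
      (Fin d → MvPowerSeries (Fin r) 𝒪) :=
    IsAdicComplete.of_module_finite _ _
  haveI : FinQuot (maximalIdeal (MvPowerSeries (Fin r) 𝒪)) (Fin d → MvPowerSeries (Fin r) 𝒪) :=
    finQuot_of_finite _
  haveI : IsAdicComplete (maximalIdeal (MvPowerSeries (Fin h) 𝒪)) (MvPowerSeries (Fin h) 𝒪) :=
    Fermat.Agent.S53.Limit.isAdicComplete_mvPowerSeries_fin 𝒪 h
  haveI : IsLocalHom (algebraMap 𝒪 (MvPowerSeries (Fin h) 𝒪)) :=
    Fermat.Agent.S53.Limit.isLocalHom_algebraMap_mvPowerSeries 𝒪 (Fin h)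
  haveI : Finite (ResidueField (MvPowerSeries (Fin h) 𝒪)) :=
    Fermat.Agent.S53.H50.finite_residueField_of_surjective 𝒪 (MvPowerSeries (Fin h) 𝒪)
      (Fermat.Agent.S53.Limit.residue_surjective_mvPowerSeries 𝒪 (Fin h))
  haveI : FinQuot (maximalIdeal (MvPowerSeries (Fin h) 𝒪)) (MvPowerSeries (Fin h) 𝒪) :=
    finQuot_of_isLocalRing _
  haveI : IsAdicComplete (maximalIdeal (MvPowerSeries (Fin h) 𝒪))
      (Fin d → MvPowerSeries (Fin h) 𝒪) :=
    IsAdicComplete.of_module_finite _ _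
  haveI : FinQuot (maximalIdeal (MvPowerSeries (Fin h) 𝒪)) (Fin d → MvPowerSeries (Fin h) 𝒪) :=
    finQuot_of_finite _
  haveI : Finite (ResidueField T) :=
    Fermat.Agent.S53.H50.finite_residueField_of_surjective 𝒪 T hres
  haveI : FinQuot (maximalIdeal T) T := finQuot_of_isLocalRing _
  haveI : Module.Finite T M := moduleFinite_of_level (L 0)
  haveI : IsAdicComplete (maximalIdeal T) M := IsAdicComplete.of_module_finite _ _
  haveI : FinQuot (maximalIdeal T) M := finQuot_of_finite _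
  -- a non-principal ultrafilter
  have h𝔘 : ((hyperfilter ℕ : Ultrafilter ℕ) : Filter ℕ) ≤ atTop := by
    rw [← Nat.cofinite_eq_atTop]
    exact hyperfilter_le_cofinite
  exact ⟨limPivot L (hyperfilter ℕ) h𝔘 (fun n => relIdeal_le_pow r hp n)⟩

end Fermat.Agent.L.Pivot.H76

end
-- ==== END Fermat.Agent.L.Pivot.H76_Patch

-- ==== BEGIN Fermat.Agent.NEB.H29_TowerJH
section

/-!
# LG-NEB: divisibility and the norm steps along a tower of cyclic covers (helper29)

A tower `H = Hs 0 ≤ Hs 1 ≤ ⋯ ≤ Hs r` of subgroups of `(ℤ/c)ˣ` with `Hs (j + 1) = Hs j ⊔ ⟨δ j⟩`,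
`⟨δ j⟩` of order `p ^ n` on `F_{Hs j}`, and `± Hs r = (ℤ/c)ˣ`;  `t = T^H_ℓ - (ℓ + 1)`.

* `stmt_DIV_chain`   : `t ^ divExp (p ^ n) (r - j) J_{Hs j} ⊆ p J_{Hs j}`;
* `stmt_DIV_tower`   : `t ^ divExp (p ^ n) r J_H ⊆ p J_H`;
* `stmt_HSTEP_tower` : the hypothesis `hstep` of `H90.tower_basis` on `J_H[p ^ k]`, up to a power
  of `t`.
-/

set_option autoImplicit false
set_option linter.style.haveILetI false

noncomputable section

namespace Fermat.Agent.NEB.H29

open AlgebraicCurve ModularCurve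
open Fermat.Agent.NEB Fermat.Agent.NEB.H14 Fermat.Agent.NEB.JH Fermat.Agent.RED

/-- The exponents of `t` in the divisibility along the tower. -/
def divExp (q : ℕ) : ℕ → ℕ
  | 0 => 0
  | i + 1 => (divExp q i + 1) * q

@[simp] theorem divExp_zero (q : ℕ) : divExp q 0 = 0 := rfl

theorem divExp_succ (q i : ℕ) : divExp q (i + 1) = (divExp q i + 1) * q := rfl

section Tower

variable {M c ℓ : ℕ} [NeZero M] [NeZero c] [NeZero ℓ]

omit [NeZero M] [NeZero c] [NeZero ℓ] in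
/-- The tower is increasing. -/
theorem tower_mono (Hs : ℕ → Subgroup (ZMod c)ˣ) (r : ℕ) (δ : ℕ → (ZMod c)ˣ)
    (hsucc : ∀ j < r, Hs (j + 1) = Hs j ⊔ Subgroup.zpowers (δ j)) :
    ∀ i j, i ≤ j → j ≤ r → Hs i ≤ Hs j := by
  intro i j hij
  induction j, hij using Nat.le_induction with
  | base => exact fun _ => le_rfl
  | succ j _ ih =>
    intro hj
    refine (ih (Nat.le_of_succ_le hj)).trans ?_
    rw [hsucc j hj]
    exact le_sup_left

omit [NeZero M] [NeZero c] [NeZero ℓ] in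
theorem delta_mem_tower (Hs : ℕ → Subgroup (ZMod c)ˣ) (r : ℕ) (δ : ℕ → (ZMod c)ˣ)
    (hsucc : ∀ j < r, Hs (j + 1) = Hs j ⊔ Subgroup.zpowers (δ j)) (j : ℕ) (hj : j < r) :
    δ j ∈ Hs (j + 1) := by
  rw [hsucc j hj]
  exact (le_sup_right : Subgroup.zpowers (δ j) ≤ _) (Subgroup.mem_zpowers _)

/-- **Divisibility along the tower**, at every level. -/
theorem stmt_DIV_chain (Hs : ℕ → Subgroup (ZMod c)ˣ) (hds : ∀ j, HeckeData M c ℓ (Hs j))
    (hℓ : ℓ.Prime) (hM : ¬ ℓ ∣ M) (r : ℕ) (δ : ℕ → (ZMod c)ˣ)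
    (hsucc : ∀ j < r, Hs (j + 1) = Hs j ⊔ Subgroup.zpowers (δ j))
    (p n : ℕ) [Fact p.Prime] (hord : ∀ j < r, orderOf ((hds j).dd.ρ (δ j)) = p ^ n)
    (htop : ∀ d, d ∈ Hs r ∨ -d ∈ Hs r)
    (hdiv0 : ∀ x : JZero M, ∃ y : JZero M, p • y = x) :
    ∀ i j, j + i = r → ∀ x : JH M c (Hs j), ∃ y : JH M c (Hs j),
      (tEnd (TH (hds j).hβ) ((ℓ + 1 : ℕ) : ℤ) ^ divExp (p ^ n) i) x = p • y := by
  intro i
  induction i with
  | zero =>
    intro j hj x
    rw [add_zero] at hj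
    subst hj
    obtain ⟨y, hy⟩ := jh_divisible_top (hds j) htop p hdiv0 x
    exact ⟨y, by rw [divExp_zero, pow_zero]; exact hy.symm⟩
  | succ i ih =>
    intro j hj x
    have hjr : j < r := by omega
    have hH : Hs j ≤ Hs (j + 1) := by
      rw [hsucc j hjr]
      exact le_sup_left
    have hgen : relGal (hds j).dd (Hs (j + 1)) = Subgroup.zpowers ((hds j).dd.ρ (δ j)) := by
      rw [hsucc j hjr]
      exact relGal_sup_zpowers _ _
    exact (stmt_PIONTO_JH hH (hds j) (hds (j + 1)) hℓ hM (δ j) hgen p n (hord j hjr)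
      (divExp (p ^ n) i) (ih (j + 1) (by omega))).1 x

/-- **Divisibility at the top of the tower**: `t ^ N J_H ⊆ p J_H`, `N = divExp (p ^ n) r`. -/
theorem stmt_DIV_tower {H : Subgroup (ZMod c)ˣ} (hd : HeckeData M c ℓ H)
    (Hs : ℕ → Subgroup (ZMod c)ˣ) (h0 : Hs 0 = H) (hds : ∀ j, HeckeData M c ℓ (Hs j))
    (hℓ : ℓ.Prime) (hM : ¬ ℓ ∣ M) (r : ℕ) (δ : ℕ → (ZMod c)ˣ)
    (hsucc : ∀ j < r, Hs (j + 1) = Hs j ⊔ Subgroup.zpowers (δ j))
    (p n : ℕ) [Fact p.Prime] (hord : ∀ j < r, orderOf ((hds j).dd.ρ (δ j)) = p ^ n)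
    (htop : ∀ d, d ∈ Hs r ∨ -d ∈ Hs r)
    (hdiv0 : ∀ x : JZero M, ∃ y : JZero M, p • y = x) (x : JH M c H) :
    ∃ y : JH M c H, (tEnd (TH hd.hβ) ((ℓ + 1 : ℕ) : ℤ) ^ divExp (p ^ n) r) x = p • y := by
  subst h0
  exact stmt_DIV_chain Hs hds hℓ hM r δ hsucc p n hord htop hdiv0 r 0 (zero_add r) x

/-- **The norm steps of the tower** on `J_H[p ^ k]`: the hypothesis `hstep` of
`H90.tower_basis`, up to a power of `t = T^H_ℓ - (ℓ + 1)`. -/
theorem stmt_HSTEP_tower {H : Subgroup (ZMod c)ˣ} (hd : HeckeData M c ℓ H)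
    (Hs : ℕ → Subgroup (ZMod c)ˣ) (h0 : Hs 0 = H) (hds : ∀ j, HeckeData M c ℓ (Hs j))
    (hℓ : ℓ.Prime) (hM : ¬ ℓ ∣ M)
    (hunr : ∀ w : Place Kbar ↥(FHbar M c H),
      ∃ x : ↥(modularFunctionFieldBar M), w.ord (inclBar M c H x) = 1)
    (r : ℕ) (δ : ℕ → (ZMod c)ˣ)
    (hsucc : ∀ j < r, Hs (j + 1) = Hs j ⊔ Subgroup.zpowers (δ j))
    (p n : ℕ) [Fact p.Prime] (hord : ∀ j < r, orderOf ((hds j).dd.ρ (δ j)) = p ^ n)
    (htop : ∀ d, d ∈ Hs r ∨ -d ∈ Hs r)
    (hdiv0 : ∀ x : JZero M, ∃ y : JZero M, p • y = x)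
    (j : ℕ) (hj : j < r) (k : ℕ) (v : JH M c H) (hv : p ^ k • v = 0)
    (hvG : ∀ i ≤ j, hd.dd.ρ (δ i) • v = v) :
    ∃ w : JH M c H, p ^ k • w = 0 ∧ (∀ i < j, hd.dd.ρ (δ i) • w = w) ∧
      ∑ e ∈ Finset.range (p ^ n), (hd.dd.ρ (δ j)) ^ e • w
        = (tEnd (TH hd.hβ) ((ℓ + 1 : ℕ) : ℤ)
            ^ ((divExp (p ^ n) (r - (j + 1)) + 1) * p ^ n * k + 1 + 1)) v := by
  have hmono := tower_mono Hs r δ hsucc
  have hH₁ : H ≤ Hs j := h0 ▸ hmono 0 j (Nat.zero_le j) hj.le
  have hH₂ : Hs j ≤ Hs (j + 1) := hmono j (j + 1) (Nat.le_succ j) hj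
  have hgen : relGal (hds j).dd (Hs (j + 1)) = Subgroup.zpowers ((hds j).dd.ρ (δ j)) := by
    rw [hsucc j hj]
    exact relGal_sup_zpowers _ _
  -- `v` is fixed by `Hs (j + 1)`
  have hfix : ∀ i, i ≤ j + 1 → ∀ d ∈ Hs i, hd.dd.ρ d • v = v := by
    set S : Subgroup (ZMod c)ˣ := (MulAction.stabilizer _ v).comap hd.dd.ρ with hS
    have hmemS : ∀ d, d ∈ S ↔ hd.dd.ρ d • v = v := fun d => by
      rw [hS, Subgroup.mem_comap, MulAction.mem_stabilizer_iff]
    have hle : ∀ i, i ≤ j + 1 → Hs i ≤ S := by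
      intro i
      induction i with
      | zero =>
        intro _ d hdH
        rw [h0] at hdH
        rw [hmemS, rho_eq_one_of_mem hd.dd hdH, one_smul]
      | succ i ih =>
        intro hi
        have hir : i < r := by omega
        rw [hsucc i hir]
        refine sup_le (ih (by omega)) ?_
        rw [Subgroup.zpowers_le, hmemS]
        exact hvG i (by omega)
    exact fun i hi d hdH => (hmemS d).mp (hle i hi hdH)
  obtain ⟨w, hw1, hw2, hw3⟩ := stmt_HSTEP_JH hH₁ hH₂ hd (hds j) (hds (j + 1)) hℓ hM hunr (δ j)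
    hgen p n (hord j hj) (divExp (p ^ n) (r - (j + 1)))
    (stmt_DIV_chain Hs hds hℓ hM r δ hsucc p n hord htop hdiv0 (r - (j + 1)) (j + 1) (by omega))
    k v hv (hfix (j + 1) le_rfl)
  refine ⟨w, hw1, fun i hi => ?_, hw3⟩
  exact hw2 (δ i) (hmono (i + 1) j hi hj.le (delta_mem_tower Hs r δ hsucc i (by omega)))

end Tower

end Fermat.Agent.NEB.H29

end
end
-- ==== END Fermat.Agent.NEB.H29_TowerJH

-- ==== BEGIN Fermat.Agent.NEB.OLD.H14_RealT
section

/-!
# NEB, package OLDNEW (helper14): the realization `M ↦ 𝒪 ⊗_ℤ J₀(M)[p^∞]`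

* `ptSub p A`  : the `p`-power torsion subgroup of an abelian group `A`;
* `ptMap p f`  : the restriction of an additive map to the `p`-power torsion;
* `ptLin p f`  : the same as a `ℤ`-linear map;
* `realT 𝒪 p`  : the realization `M ↦ 𝒪 ⊗_ℤ ↥(ptSub p (JZero M))`, `f ↦ (ptLin p f).baseChange 𝒪`;
* `realT_tors` : every element of `realT 𝒪 p` is killed by a power of `e`, if `p ∣ e ^ m`.
-/

set_option autoImplicit false
set_option linter.unusedSectionVars false
set_option linter.style.haveILetI false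

noncomputable section

namespace Fermat.Agent.NEB.OLD

open AlgebraicCurve ModularCurve TensorProduct

section PT

variable (p : ℕ) {A B C : Type*} [AddCommGroup A] [AddCommGroup B] [AddCommGroup C]

/-- The `p`-power torsion subgroup. -/
def ptSub (A : Type*) [AddCommGroup A] : AddSubgroup A where
  carrier := {x | ∃ k : ℕ, p ^ k • x = 0}
  zero_mem' := ⟨0, smul_zero _⟩
  add_mem' := by
    rintro x y ⟨k, hk⟩ ⟨l, hl⟩
    refine ⟨k + l, ?_⟩
    have h1 : p ^ (k + l) • x = 0 := by rw [pow_add, mul_comm, mul_smul, hk, smul_zero]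
    have h2 : p ^ (k + l) • y = 0 := by rw [pow_add, mul_smul, hl, smul_zero]
    rw [smul_add, h1, h2, add_zero]
  neg_mem' := by
    rintro x ⟨k, hk⟩
    exact ⟨k, by rw [smul_neg, hk, neg_zero]⟩

theorem mem_ptSub {x : A} : x ∈ ptSub p A ↔ ∃ k : ℕ, p ^ k • x = 0 := Iff.rfl

/-- The restriction of an additive map to the `p`-power torsion. -/
def ptMap (f : A →+ B) : ↥(ptSub p A) →+ ↥(ptSub p B) :=
  (f.comp (ptSub p A).subtype).codRestrict (ptSub p B) (by
    rintro ⟨x, k, hk⟩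
    exact ⟨k, by
      show p ^ k • f x = 0
      rw [← map_nsmul, hk, map_zero]⟩)

@[simp]
theorem coe_ptMap (f : A →+ B) (x : ↥(ptSub p A)) : ((ptMap p f x : ↥(ptSub p B)) : B) = f x :=
  rfl

/-- The restriction to the `p`-power torsion, as a `ℤ`-linear map. -/
def ptLin (f : A →+ B) : ↥(ptSub p A) →ₗ[ℤ] ↥(ptSub p B) := (ptMap p f).toIntLinearMap

@[simp]
theorem ptLin_apply (f : A →+ B) (x : ↥(ptSub p A)) : ptLin p f x = ptMap p f x := rfl

theorem ptLin_id (f : A →+ A) (hf : ∀ x, f x = x) : ptLin p f = LinearMap.id :=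
  LinearMap.ext fun x => Subtype.ext (hf x)

theorem ptLin_comp (f : B →+ C) (g : A →+ B) (h : A →+ C) (hh : ∀ x, h x = f (g x)) :
    ptLin p h = (ptLin p f).comp (ptLin p g) :=
  LinearMap.ext fun x => Subtype.ext (hh x)

theorem ptLin_add (f g h : A →+ B) (hh : ∀ x, h x = f x + g x) :
    ptLin p h = ptLin p f + ptLin p g :=
  LinearMap.ext fun x => Subtype.ext (hh x)

end PT

section RealT

variable (𝒪 : Type) [CommRing 𝒪] (p : ℕ)

section BC

variable {A B C : Type} [AddCommGroup A] [AddCommGroup B] [AddCommGroup C]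

theorem bc_id (f : A →+ A) (hf : ∀ x, f x = x) (v : 𝒪 ⊗[ℤ] ↥(ptSub p A)) :
    (ptLin p f).baseChange 𝒪 v = v := by
  rw [ptLin_id p f hf, LinearMap.baseChange_id]
  rfl

theorem bc_comp (f : B →+ C) (g : A →+ B) (h : A →+ C) (hh : ∀ x, h x = f (g x))
    (v : 𝒪 ⊗[ℤ] ↥(ptSub p A)) :
    (ptLin p h).baseChange 𝒪 v = (ptLin p f).baseChange 𝒪 ((ptLin p g).baseChange 𝒪 v) := by
  rw [ptLin_comp p f g h hh, LinearMap.baseChange_comp]
  rfl

theorem bc_add (f g h : A →+ B) (hh : ∀ x, h x = f x + g x) (v : 𝒪 ⊗[ℤ] ↥(ptSub p A)) :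
    (ptLin p h).baseChange 𝒪 v = (ptLin p f).baseChange 𝒪 v + (ptLin p g).baseChange 𝒪 v := by
  rw [ptLin_add p f g h hh, LinearMap.baseChange_add]
  rfl

end BC

/-- **The realization `M ↦ 𝒪 ⊗_ℤ J₀(M)[p^∞]`.** -/
def realT : Realization 𝒪 where
  X M _ := 𝒪 ⊗[ℤ] ↥(ptSub p (JZero M))
  instACG M _ := inferInstanceAs (AddCommGroup (𝒪 ⊗[ℤ] ↥(ptSub p (JZero M))))
  instMod M _ := inferInstanceAs (Module 𝒪 (𝒪 ⊗[ℤ] ↥(ptSub p (JZero M))))
  map f := (ptLin p f).baseChange 𝒪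
  map_id _ _ f hf v := bc_id 𝒪 p f hf v
  map_comp f g h hh v := bc_comp 𝒪 p f g h hh v
  map_add f g h hh v := bc_add 𝒪 p f g h hh v

theorem realT_X (M : ℕ) [NeZero M] : (realT 𝒪 p).X M = (𝒪 ⊗[ℤ] ↥(ptSub p (JZero M))) := rfl

theorem realT_map {M M' : ℕ} [NeZero M] [NeZero M'] (f : JZero M →+ JZero M') :
    (realT 𝒪 p).map f = (ptLin p f).baseChange 𝒪 := rfl

/-- Every element of `𝒪 ⊗ A[p^∞]` is killed by a power of `e`, if `p ∣ e ^ m`. -/
theorem tensor_ptSub_tors {A : Type*} [AddCommGroup A] (e : 𝒪) (m : ℕ) (b : 𝒪)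
    (he : e ^ m = (p : 𝒪) * b) (x : 𝒪 ⊗[ℤ] ↥(ptSub p A)) : ∃ n : ℕ, e ^ n • x = 0 := by
  induction x using TensorProduct.induction_on with
  | zero => exact ⟨0, smul_zero _⟩
  | tmul a y =>
    obtain ⟨k, hk⟩ := y.2
    refine ⟨m * k, ?_⟩
    rw [TensorProduct.smul_tmul', smul_eq_mul, pow_mul, he, mul_pow, mul_assoc]
    have h1 : ((p : 𝒪) ^ k * (b ^ k * a)) ⊗ₜ[ℤ] y = (b ^ k * a) ⊗ₜ[ℤ] ((p ^ k : ℕ) • y) := by
      rw [TensorProduct.tmul_smul, TensorProduct.smul_tmul', nsmul_eq_mul]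
      push_cast
      rfl
    rw [h1]
    have h2 : (p ^ k : ℕ) • y = 0 := Subtype.ext (by
      rw [AddSubgroup.coe_nsmul]
      exact hk)
    rw [h2, TensorProduct.tmul_zero]
  | add x y hx hy =>
    obtain ⟨n, hn⟩ := hx
    obtain ⟨n', hn'⟩ := hy
    refine ⟨n + n', ?_⟩
    have h1 : e ^ (n + n') • x = 0 := by rw [pow_add, mul_comm, mul_smul, hn, smul_zero]
    have h2 : e ^ (n + n') • y = 0 := by rw [pow_add, mul_smul, hn', smul_zero]
    rw [smul_add, h1, h2, add_zero]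

theorem realT_tors (e : 𝒪) (m : ℕ) (b : 𝒪) (he : e ^ m = (p : 𝒪) * b) (M : ℕ) [NeZero M]
    (x : (realT 𝒪 p).X M) : ∃ n : ℕ, e ^ n • x = 0 :=
  tensor_ptSub_tors 𝒪 p e m b he x

end RealT

end Fermat.Agent.NEB.OLD

end
end
-- ==== END Fermat.Agent.NEB.OLD.H14_RealT

-- ==== BEGIN Fermat.Agent.S34
section

set_option autoImplicit false
set_option autoImplicit false
open IsLocalRing
open CuspForm CuspForm.HeckeGaloisRepDatum

namespace Fermat.Agent.S34

/-- The law of total conservation for the modular datum of level `M q` (helper23's `tot_mod`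
at helper82's identification (D)). -/
theorem stmt_TotMod_S34 : Fermat.Agent.BAD.H91.Stmt_TotMod :=
  fun A q M a b hab hq _ _ hA hqM ht =>
    Fermat.Agent.BAD.H23.tot_mod A q M a b hab hq hA hqM ht
      (Fermat.Agent.BAD.H82.redField_eq_fullC q M a b hab hq A hA)

theorem result
    {𝒪 : Type} [CommRing 𝒪] [IsDomain 𝒪] [IsDiscreteValuationRing 𝒪]
    [IsAdicComplete (maximalIdeal 𝒪) 𝒪] [Finite (ResidueField 𝒪)] [CharZero 𝒪]
    {p : ℕ} (hp : p.Prime) (hp𝒪 : (p : 𝒪) ∈ maximalIdeal 𝒪)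
    {N : ℕ} [NeZero N] {S : Finset ℕ} (hpS : p ∈ S) (hNS : ∀ q : ℕ, q.Prime → q ∣ N → q ∈ S)
    {θ : CuspForm.heckeAlgebra N 2 (↑S : Set ℕ) →+* ResidueField 𝒪}
    {T : Type} [CommRing T] [IsLocalRing T] [IsNoetherianRing T]
    [IsAdicComplete (maximalIdeal T) T] [Algebra 𝒪 T] [IsLocalHom (algebraMap 𝒪 T)]
    [Module.Finite 𝒪 T] [Module.Free 𝒪 T]
    (H : CuspForm.HeckeGaloisRepDatum N (↑S : Set ℕ) 𝒪 θ T)
    (q : ℕ) (hq : q.Prime) (hqp : q ≠ p) (hqN : q ∣ N) (hq2 : ¬ q ^ 2 ∣ N) :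
    H.ρ.IsUnipotentOnInertiaAt q := by
  exact Fermat.Agent.S34.H91.s34_of_totMod stmt_TotMod_S34 hp hp𝒪 hpS hNS H q hq hqp hqN hq2

end Fermat.Agent.S34

end
-- ==== END Fermat.Agent.S34

-- ==== BEGIN Fermat.Agent.S43.CompEis.H60_CompEis
section

set_option autoImplicit false

noncomputable section

namespace Fermat.Agent.S43.CompEis.H60

open Fermat.Agent.S43.BadQ

/-- **COORD at the tame levels.** -/
theorem stmt_CE_CoordTame : Stmt_CE_CoordTame :=
  fun p hp hp5 q M a b hab hq _ _ hqM ht => stmt_CE_Coord_tame p q M a b hab hq hp hp5 hqM ht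

/-- **COMP-EIS**, all levels. -/
theorem stmt_CompEis : Stmt_CompEis :=
  stmt_CompEis_of_coord stmt_CE_CoordTame

/-- **COMP-EIS**, in the form needed by S43. -/
theorem stmt_CompEisOdd : Stmt_CompEisOdd :=
  stmt_CompEisOdd_of_coord stmt_CE_CoordTame

end Fermat.Agent.S43.CompEis.H60

end
end
-- ==== END Fermat.Agent.S43.CompEis.H60_CompEis

-- ==== BEGIN Fermat.Agent.S43.Final3
section

set_option autoImplicit false

open WeierstrassCurve WeierstrassCurve.Affine WeierstrassCurve.Affine.Point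
open scoped WeierstrassCurve.Affine

namespace Fermat.Agent.S43.BadQ

open Fermat.Agent.L.Pivot Fermat.Agent.L.Pivot.H76

/-- The frozen S44 in the form consumed by the wiring. -/
theorem stmt_S44T_done : Stmt_S44T :=
  fun P _ hcond hpN hirr hmod => Fermat.Agent.S44.result P hcond hpN hirr hmod

/-- **S43 from the two open packages (version 3).**  The conclusion is the frozen statement
S43. -/
theorem result_of_open3 (hC : Stmt_CompEisOdd) (hPF : Stmt_PivotFrey2)
    (P : FreyPackage) {N q : ℕ}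
    (hcond : P.IsConductorLevel N) (hq : q.Prime) (hq2 : q ≠ 2) (hqp : q ≠ P.p) (hqN : q ∣ N)
    (hirr : GaloisRepIsIrreducible (K := AlgebraicClosure ℚ) ℚ P.freyCurve P.p)
    (hmod : P.ModularRepOfLevel N) (hunr : P.GaloisRepUnramifiedAt q) :
    ∃ M : ℕ, M ∣ N ∧ ¬ q ∣ M ∧ P.ModularRepOfLevel M :=
  result_of_open2 stmt_S44T_done Fermat.Agent.S43.H91.stmt_ModSSDW_tame hC hPF
    P hcond hq hq2 hqp hqN hirr hmod hunr

end Fermat.Agent.S43.BadQ

end
-- ==== END Fermat.Agent.S43.Final3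

-- ==== BEGIN Fermat.Agent.S59.Lim.DefsB
section

/-!
# S59, package LIM (helper94), Layer B: tensoring with `𝒪` and localisation — generic leaves

* `primPart I W` : the `I`-primary part `{x | ∃ n, I ^ n • x = 0}` of an `R`-module.
* `stabPart I W` : `⨆_{L finite} ⨅_n I ^ n • L` (the complement on locally finite modules).
* `Stmt_LOC`     : on a locally finite module, `W = primPart ⊕ stabPart`.
  (Naturality is formal: an `R`-linear map sends `primPart` to `primPart` and `stabPart` to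
  `stabPart`, see `Stmt_LOC_nat`.)
* `Stmt_LOC_gk`  : on a locally finite module, `x` is primary for `span s` iff every `t ∈ s` is
  nilpotent on `x`.
* `Stmt_TENS`    : `𝒪 ⊗_ℤ A` is `IsDiv` for a `p`-power torsion, `p`-divisible abelian group `A`
  with `A[p]` finite (`𝒪` a DVR of characteristic `0` with finite residue field of
  characteristic `p`).

No `sorry`; definitions only.
-/

set_option autoImplicit false

open IsLocalRing TensorProduct

namespace Fermat.Agent.S59.Lim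

section Loc

variable {R : Type*} [CommRing R]

/-- The `I`-primary part of a module. -/
def primPart (I : Ideal R) (W : Type*) [AddCommGroup W] [Module R W] : Submodule R W where
  carrier := {x | ∃ n : ℕ, ∀ r ∈ I ^ n, r • x = 0}
  zero_mem' := ⟨0, fun r _ => smul_zero r⟩
  add_mem' := by
    rintro x y ⟨n, hn⟩ ⟨m, hm⟩
    refine ⟨n + m, fun r hr => ?_⟩
    rw [smul_add, hn r (Ideal.pow_le_pow_right (Nat.le_add_right n m) hr),
      hm r (Ideal.pow_le_pow_right (Nat.le_add_left m n) hr), add_zero]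
  smul_mem' := by
    rintro c x ⟨n, hn⟩
    exact ⟨n, fun r hr => by rw [smul_comm, hn r hr, smul_zero]⟩

theorem mem_primPart {I : Ideal R} {W : Type*} [AddCommGroup W] [Module R W] {x : W} :
    x ∈ primPart I W ↔ ∃ n : ℕ, ∀ r ∈ I ^ n, r • x = 0 := Iff.rfl

/-- The `I`-stable part: the union over the finite submodules `L` of `⋂_n I ^ n L`. -/
def stabPart (I : Ideal R) (W : Type*) [AddCommGroup W] [Module R W] : Submodule R W :=
  ⨆ (L : Submodule R W) (_ : Finite L), ⨅ n : ℕ, (I ^ n • L : Submodule R W)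

end Loc

/-- **LIM-LOC**: primary decomposition of a locally finite module. -/
def Stmt_LOC : Prop :=
  ∀ (R : Type) [CommRing R] (I : Ideal R) (W : Type) [AddCommGroup W] [Module R W],
    (∀ x : W, Finite (Submodule.span R {x})) → IsCompl (primPart I W) (stabPart I W)

/-- **LIM-LOC, naturality** (formal). -/
def Stmt_LOC_nat : Prop :=
  ∀ (R : Type) [CommRing R] (I : Ideal R) (W W' : Type) [AddCommGroup W] [Module R W]
    [AddCommGroup W'] [Module R W'] (f : W →ₗ[R] W'),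
    (∀ x ∈ primPart I W, f x ∈ primPart I W') ∧ (∀ x ∈ stabPart I W, f x ∈ stabPart I W')

/-- **LIM-LOC, consequences**: on locally finite modules, a surjective linear map maps the primary
part ONTO the primary part, and the primary part of a `c`-divisible module is `c`-divisible. -/
def Stmt_LOC_onto : Prop :=
  ∀ (R : Type) [CommRing R] (I : Ideal R) (W W' : Type) [AddCommGroup W] [Module R W]
    [AddCommGroup W'] [Module R W'],
    (∀ x : W, Finite (Submodule.span R {x})) → (∀ x : W', Finite (Submodule.span R {x})) →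
    (∀ (f : W →ₗ[R] W'), Function.Surjective f →
      ∀ y ∈ primPart I W', ∃ x ∈ primPart I W, f x = y) ∧
    (∀ c : R, (∀ x : W, ∃ y : W, c • y = x) → ∀ x ∈ primPart I W, ∃ y ∈ primPart I W, c • y = x)

/-- **LIM-LOC, generator form**: on a locally finite module, an element is primary for the ideal
generated by `s` iff every `t ∈ s` is nilpotent on it.  (In the application `R` is a commutative
ring of operators, e.g. `Algebra.adjoin 𝒪 (range T)` for commuting `T i`, and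
`s = {ϖ} ∪ {T i - a i}`.) -/
def Stmt_LOC_gk : Prop :=
  ∀ (R : Type) [CommRing R] (W : Type) [AddCommGroup W] [Module R W],
    (∀ x : W, Finite (Submodule.span R {x})) →
    ∀ (s : Set R) (x : W),
      (∀ t ∈ s, ∃ N : ℕ, t ^ N • x = 0) ↔ x ∈ primPart (Ideal.span s) W

/-- **LIM-TENS**: `𝒪 ⊗_ℤ A` is a divisible module of finite corank. -/
def Stmt_TENS : Prop :=
  ∀ (𝒪 : Type) [CommRing 𝒪] [IsDomain 𝒪] [IsDiscreteValuationRing 𝒪] [Finite (ResidueField 𝒪)]
    (ϖ : 𝒪), Irreducible ϖ → ∀ (p : ℕ) [Fact p.Prime], (p : 𝒪) ∈ maximalIdeal 𝒪 → (p : 𝒪) ≠ 0 →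
    ∀ (A : Type) [AddCommGroup A], (∀ x : A, ∃ k : ℕ, p ^ k • x = 0) →
      (∀ x : A, ∃ y : A, p • y = x) → Finite {x : A // p • x = 0} →
      IsDiv ϖ (𝒪 ⊗[ℤ] A)

/-- **LIM-TENS, faithfulness**: `x ↦ 1 ⊗ x` is injective on a `p`-power torsion group (so relations
between operators can be checked after tensoring, and conversely). -/
def Stmt_TENS_inj : Prop :=
  ∀ (𝒪 : Type) [CommRing 𝒪] [IsDomain 𝒪] [IsDiscreteValuationRing 𝒪] [Finite (ResidueField 𝒪)]
    (p : ℕ) [Fact p.Prime], (p : 𝒪) ∈ maximalIdeal 𝒪 → (p : 𝒪) ≠ 0 →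
    ∀ (A : Type) [AddCommGroup A], (∀ x : A, ∃ k : ℕ, p ^ k • x = 0) →
      Function.Injective (fun x : A => (1 : 𝒪) ⊗ₜ[ℤ] x)

end Fermat.Agent.S59.Lim

end
-- ==== END Fermat.Agent.S59.Lim.DefsB

-- ==== BEGIN Fermat.Agent.S59.Lim.H2_KerNm
section

/-!
# S59, package LIM, leaf KERNM (helper2): kernel of the total norm on a free `𝒪[Δ]`-module

`V` an `𝒪`-module with commuting operators `d j` (`j : Fin r`), `d j ^ m = 1`, and an `𝒪`-basis
of the shape `mon d x (b i)` (`i : Fin rk`, `x : Fin r → Fin m`).  Then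
`ker (nmTot m d) = ⨆ j, range (d j - 1)` and every invariant vector is a total norm.

* `mul_nmTot`, `range_sub_one_le_ker_nmTot`, `mon_apply_sub_mem`, `mon_mod`, `mul_mon`,
  `const_of_update_invariant`, `stmt_KERNM : Lim.Stmt_KERNM`.

This file contains no `sorry`.
-/

set_option autoImplicit false
set_option linter.style.haveILetI false
set_option linter.unusedSectionVars false
set_option linter.unusedVariables false
set_option maxHeartbeats 1000000

noncomputable section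

open Module

namespace Fermat.Agent.S59.Lim.H2

open Fermat.Agent.S59.TWH.H90

section Abs

variable {𝒪 : Type*} [CommRing 𝒪] {V : Type*} [AddCommGroup V] [Module 𝒪 V] {m : ℕ}

theorem mul_nm_self {c : End 𝒪 V} (hc : c ^ m = 1) : c * nm m c = nm m c := by
  have h := sub_one_mul_nm m c
  rw [hc, sub_self, sub_mul, one_mul] at h
  exact sub_eq_zero.mp h

/-- `d j * nmTot = nmTot`. -/
theorem mul_nmTot : ∀ {r : ℕ} (d : Fin r → End 𝒪 V), (∀ i j, Commute (d i) (d j)) →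
    (∀ j, d j ^ m = 1) → ∀ j, d j * nmTot m d = nmTot m d := by
  intro r
  induction r with
  | zero => intro d _ _ j; exact j.elim0
  | succ r ih =>
    intro d hcomm hpow j
    rw [nmTot_succ]
    refine Fin.cases ?_ (fun j' => ?_) j
    · rw [← mul_assoc, mul_nm_self (hpow 0)]
    · rw [← mul_assoc, ← (commute_nm m (hcomm 0 j'.succ)).eq, mul_assoc,
        ih (fun k => d k.succ) (fun i k => hcomm i.succ k.succ) (fun k => hpow k.succ) j']

theorem range_sub_one_le_ker_nmTot {r : ℕ} (d : Fin r → End 𝒪 V)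
    (hcomm : ∀ i j, Commute (d i) (d j)) (hpow : ∀ j, d j ^ m = 1) (j : Fin r) :
    LinearMap.range (d j - 1) ≤ LinearMap.ker (nmTot m d) := by
  rintro _ ⟨w, rfl⟩
  rw [LinearMap.mem_ker, ← Module.End.mul_apply, mul_sub, mul_one,
    ← (commute_nmTot m d (fun k => hcomm j k)).eq, mul_nmTot d hcomm hpow j, sub_self]
  rfl

theorem iSup_range_le_ker_nmTot {r : ℕ} (d : Fin r → End 𝒪 V)
    (hcomm : ∀ i j, Commute (d i) (d j)) (hpow : ∀ j, d j ^ m = 1) :
    (⨆ j, LinearMap.range (d j - 1)) ≤ LinearMap.ker (nmTot m d) :=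
  iSup_le fun j => range_sub_one_le_ker_nmTot d hcomm hpow j

/-- A product of operators congruent to `1` modulo `S` is congruent to `1` modulo `S`. -/
theorem list_prod_apply_sub_mem (S : Submodule 𝒪 V) (l : List (End 𝒪 V))
    (hl : ∀ e ∈ l, ∀ w : V, e w - w ∈ S) (w : V) : l.prod w - w ∈ S := by
  induction l generalizing w with
  | nil => simp
  | cons e l ih =>
    rw [List.prod_cons, Module.End.mul_apply]
    have h1 : e (l.prod w) - l.prod w ∈ S := hl e (List.mem_cons_self) _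
    have h2 : l.prod w - w ∈ S := ih (fun e' he' => hl e' (List.mem_cons_of_mem _ he')) w
    have : e (l.prod w) - w = (e (l.prod w) - l.prod w) + (l.prod w - w) := by abel
    rw [this]
    exact S.add_mem h1 h2

theorem pow_apply_sub_mem (S : Submodule 𝒪 V) (e : End 𝒪 V) (he : ∀ w : V, e w - w ∈ S)
    (k : ℕ) (w : V) : (e ^ k) w - w ∈ S := by
  induction k generalizing w with
  | zero => simp
  | succ k ih =>
    rw [pow_succ, Module.End.mul_apply]
    have : (e ^ k) (e w) - w = ((e ^ k) (e w) - e w) + (e w - w) := by abel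
    rw [this]
    exact S.add_mem (ih _) (he w)

/-- `mon d x w ≡ w` modulo `∑ range (d j - 1)`. -/
theorem mon_apply_sub_mem {r : ℕ} (d : Fin r → End 𝒪 V) (x : Fin r → ℕ) (w : V) :
    mon d x w - w ∈ (⨆ j, LinearMap.range (d j - 1)) := by
  rw [mon]
  apply list_prod_apply_sub_mem
  intro e he
  obtain ⟨j, rfl⟩ := (List.mem_ofFn' _ _).mp he
  apply pow_apply_sub_mem
  intro w
  have : d j w - w = (d j - 1) w := by simp
  rw [this]
  exact (le_iSup (fun j => LinearMap.range (d j - 1)) j) (LinearMap.mem_range_self _ w)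

theorem mon_mod {r : ℕ} (d : Fin r → End 𝒪 V) (hpow : ∀ j, d j ^ m = 1) (x : Fin r → ℕ) :
    mon d x = mon d (fun j => x j % m) := by
  have h : (fun j => d j ^ x j) = fun j => d j ^ (x j % m) :=
    funext fun j => pow_eq_pow_mod (x j) (hpow j)
  rw [mon, mon, h]

/-- `d j * mon d x = mon d (x + e_j)`. -/
theorem mul_mon : ∀ {r : ℕ} (d : Fin r → End 𝒪 V), (∀ i j, Commute (d i) (d j)) →
    ∀ (j : Fin r) (x : Fin r → ℕ), d j * mon d x = mon d (Function.update x j (x j + 1)) := by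
  intro r
  induction r with
  | zero => intro d _ j; exact j.elim0
  | succ r ih =>
    intro d hcomm j x
    rw [mon_succ, mon_succ]
    refine Fin.cases ?_ (fun j' => ?_) j
    · have h1 : (fun k : Fin r => Function.update x 0 (x 0 + 1) k.succ) = fun k => x k.succ := by
        funext k
        rw [Function.update_of_ne (Fin.succ_ne_zero k)]
      rw [Function.update_self, ← mul_assoc, ← pow_succ', h1]
    · rw [Function.update_of_ne (Fin.succ_ne_zero j').symm, ← mul_assoc,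
        ((hcomm j'.succ 0).pow_right (x 0)).eq, mul_assoc,
        ih (fun k => d k.succ) (fun i k => hcomm i.succ k.succ) j' (fun k => x k.succ)]
      have h2 : (Function.update (fun k : Fin r => x k.succ) j' (x j'.succ + 1))
          = fun k => Function.update x j'.succ (x j'.succ + 1) k.succ := by
        funext k
        by_cases hk : k = j'
        · subst hk
          rw [Function.update_self, Function.update_self]
        · rw [Function.update_of_ne hk, Function.update_of_ne (fun h => hk (Fin.succ_inj.mp h))]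
      rw [h2]

/-- A function on a box which is invariant under changing one coordinate is constant. -/
theorem const_of_update_invariant {r : ℕ} {α β : Type*} [DecidableEq (Fin r)]
    (g : (Fin r → α) → β)
    (hg : ∀ (x : Fin r → α) (j : Fin r) (a : α), g (Function.update x j a) = g x)
    (x y : Fin r → α) : g x = g y := by
  classical
  have key : ∀ s : Finset (Fin r), ∀ x y : Fin r → α, (∀ j, j ∉ s → x j = y j) → g x = g y := by
    intro s
    induction s using Finset.induction with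
    | empty =>
      intro x y h
      have : x = y := funext fun j => h j (Finset.notMem_empty j)
      rw [this]
    | insert a s ha ih =>
      intro x y h
      rw [← hg x a (y a)]
      apply ih
      intro j hj
      by_cases hja : j = a
      · subst hja
        rw [Function.update_self]
      · rw [Function.update_of_ne hja]
        exact h j (by simp [hja, hj])
  exact key Finset.univ x y (fun j hj => absurd (Finset.mem_univ j) hj)

end Abs

section Main

variable {𝒪 : Type*} [CommRing 𝒪] {V : Type*} [AddCommGroup V] [Module 𝒪 V] {m r rk : ℕ}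

/-- the shift of the `j`-th coordinate of the box. -/
def sh (hm : 0 < m) (j : Fin r) (x : Fin r → Fin m) : Fin r → Fin m :=
  Function.update x j ⟨((x j : ℕ) + 1) % m, Nat.mod_lt _ hm⟩

theorem sh_injective (hm : 0 < m) (j : Fin r) : Function.Injective (sh (r := r) hm j) := by
  intro x y hxy
  funext k
  have h := congrFun hxy k
  by_cases hk : k = j
  · subst hk
    rw [sh, sh, Function.update_self, Function.update_self, Fin.mk.injEq] at h
    have h1 : ((x k : ℕ) + 1) ≡ ((y k : ℕ) + 1) [MOD m] := h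
    have h2 : (x k : ℕ) ≡ (y k : ℕ) [MOD m] := Nat.ModEq.add_right_cancel' 1 h1
    have h3 : (x k : ℕ) % m = (y k : ℕ) % m := h2
    rw [Nat.mod_eq_of_lt (x k).2, Nat.mod_eq_of_lt (y k).2] at h3
    exact Fin.ext h3
  · rw [sh, sh, Function.update_of_ne hk, Function.update_of_ne hk] at h
    exact h

/-- the shift as a permutation of the box. -/
def shE (hm : 0 < m) (j : Fin r) : (Fin r → Fin m) ≃ (Fin r → Fin m) :=
  Equiv.ofBijective (sh hm j) (Finite.injective_iff_bijective.mp (sh_injective hm j))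

theorem shE_apply (hm : 0 < m) (j : Fin r) (x : Fin r → Fin m) : shE hm j x = sh hm j x := rfl

theorem apply_mon_box (d : Fin r → End 𝒪 V) (hcomm : ∀ i j, Commute (d i) (d j))
    (hpow : ∀ j, d j ^ m = 1) (hm : 0 < m) (j : Fin r) (x : Fin r → Fin m) (w : V) :
    d j (mon d (fun k => (x k : ℕ)) w) = mon d (fun k => ((sh hm j x) k : ℕ)) w := by
  rw [← Module.End.mul_apply, mul_mon d hcomm j, mon_mod d hpow]
  congr 2
  funext k
  by_cases hk : k = j
  · subst hk
    rw [Function.update_self, sh, Function.update_self]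
  · rw [Function.update_of_ne hk, sh, Function.update_of_ne hk]
    exact Nat.mod_eq_of_lt (x k).2

/-- **KERNM**. -/
theorem kernm (hm : 0 < m) (d : Fin r → End 𝒪 V) (hcomm : ∀ i j, Commute (d i) (d j))
    (hpow : ∀ j, d j ^ m = 1) (b : Fin rk → V)
    (hb : Function.Bijective (fun f : Fin rk × (Fin r → Fin m) → 𝒪 =>
      ∑ x : Fin rk × (Fin r → Fin m), f x • mon d (fun j => (x.2 j : ℕ)) (b x.1))) :
    (LinearMap.ker (nmTot m d) = ⨆ j, LinearMap.range (d j - 1)) ∧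
    (∀ v : V, (∀ j, d j v = v) → ∃ w : V, nmTot m d w = v) := by
  classical
  set S : Submodule 𝒪 V := ⨆ j, LinearMap.range (d j - 1) with hS
  -- the total norm of a combination of the `b i`
  have hnm : ∀ g : Fin rk → 𝒪, nmTot m d (∑ i, g i • b i)
      = ∑ x : Fin rk × (Fin r → Fin m), g x.1 • mon d (fun j => (x.2 j : ℕ)) (b x.1) := by
    intro g
    rw [map_sum, Fintype.sum_prod_type]
    refine Finset.sum_congr rfl fun i _ => ?_
    rw [map_smul, nmTot_apply_eq_sum, Finset.smul_sum]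
  have x₀ : Fin r → Fin m := fun _ => ⟨0, hm⟩
  refine ⟨le_antisymm ?_ (iSup_range_le_ker_nmTot d hcomm hpow), ?_⟩
  · -- ker ≤ S
    intro v hv
    obtain ⟨f, hf⟩ := hb.2 v
    simp only at hf
    set g : Fin rk → 𝒪 := fun i => ∑ x : Fin r → Fin m, f (i, x) with hg
    set u : V := ∑ i, g i • b i with hu
    have hvu : v - u ∈ S := by
      have h1 : v - u = ∑ x : Fin rk × (Fin r → Fin m),
          f x • (mon d (fun j => (x.2 j : ℕ)) (b x.1) - b x.1) := by
        rw [← hf, hu]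
        simp only [smul_sub, Finset.sum_sub_distrib]
        congr 1
        rw [Fintype.sum_prod_type]
        refine Finset.sum_congr rfl fun i _ => ?_
        rw [hg, Finset.sum_smul]
      rw [h1]
      exact S.sum_mem fun x _ => S.smul_mem _ (mon_apply_sub_mem d _ _)
    have hu0 : nmTot m d u = 0 := by
      have h1 : nmTot m d (v - u) = 0 := iSup_range_le_ker_nmTot d hcomm hpow hvu
      rw [map_sub, LinearMap.mem_ker.mp hv, zero_sub, neg_eq_zero] at h1
      exact h1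
    rw [hu, hnm] at hu0
    have hg0 : (fun x : Fin rk × (Fin r → Fin m) => g x.1) = 0 := by
      apply hb.1
      simp only
      rw [hu0]
      simp
    have hgi : ∀ i, g i = 0 := fun i => congrFun hg0 (i, x₀)
    have hu' : u = 0 := by
      rw [hu]
      exact Finset.sum_eq_zero fun i _ => by rw [hgi i, zero_smul]
    rw [hu', sub_zero] at hvu
    exact hvu
  · -- invariants are norms
    intro v hv
    obtain ⟨f, hf⟩ := hb.2 v
    simp only at hf
    -- invariance of the coordinates under the shifts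
    have hsh : ∀ (j : Fin r) (i : Fin rk) (x : Fin r → Fin m), f (i, sh hm j x) = f (i, x) := by
      intro j i x
      have h1 : d j v = ∑ x : Fin rk × (Fin r → Fin m),
          f (x.1, (shE hm j).symm x.2) • mon d (fun k => (x.2 k : ℕ)) (b x.1) := by
        rw [← hf, map_sum]
        rw [← ((Equiv.refl (Fin rk)).prodCongr (shE hm j)).sum_comp
          (fun x : Fin rk × (Fin r → Fin m) =>
            f (x.1, (shE hm j).symm x.2) • mon d (fun k => (x.2 k : ℕ)) (b x.1))]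
        refine Finset.sum_congr rfl fun x _ => ?_
        rw [map_smul, apply_mon_box d hcomm hpow hm]
        simp only [Equiv.prodCongr_apply, Equiv.coe_refl, Prod.map_fst, Prod.map_snd, id_eq,
          Equiv.symm_apply_apply]
        rfl
      rw [hv j] at h1
      have h2 : (fun x : Fin rk × (Fin r → Fin m) => f x)
          = fun x : Fin rk × (Fin r → Fin m) => f (x.1, (shE hm j).symm x.2) := by
        apply hb.1
        simp only
        rw [hf]
        exact h1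
      have h3 := congrFun h2 (i, sh hm j x)
      simp only at h3
      rw [h3]
      congr 2
      exact (shE hm j).symm_apply_apply x
    -- invariance under updates
    have hupd : ∀ (i : Fin rk) (x : Fin r → Fin m) (j : Fin r) (a : Fin m),
        f (i, Function.update x j a) = f (i, x) := by
      intro i x j a
      have h0 : ∀ (t : ℕ) (ht : t < m),
          f (i, Function.update x j ⟨t, ht⟩) = f (i, Function.update x j ⟨0, hm⟩) := by
        intro t
        induction t with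
        | zero => intro _; rfl
        | succ t ih =>
          intro ht
          have ht' : t < m := by omega
          rw [← ih ht', ← hsh j i (Function.update x j ⟨t, ht'⟩)]
          congr 2
          funext k
          by_cases hk : k = j
          · subst hk
            rw [sh, Function.update_self, Function.update_self]
            apply Fin.ext
            show t + 1 = ((Function.update x k ⟨t, ht'⟩ k : Fin m) + 1) % m
            rw [Function.update_self]
            exact (Nat.mod_eq_of_lt ht).symm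
          · rw [sh, Function.update_of_ne hk, Function.update_of_ne hk,
              Function.update_of_ne hk]
      have h1 := h0 a.1 a.2
      have h2 := h0 (x j).1 (x j).2
      rw [Fin.eta] at h1 h2
      rw [Function.update_eq_self] at h2
      rw [h1, ← h2]
    have hconst : ∀ (i : Fin rk) (x : Fin r → Fin m), f (i, x) = f (i, x₀) := fun i x =>
      const_of_update_invariant (fun x => f (i, x)) (hupd i) x x₀
    refine ⟨∑ i, f (i, x₀) • b i, ?_⟩
    rw [hnm, ← hf]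
    refine Finset.sum_congr rfl fun x _ => ?_
    rw [hconst x.1 x.2]

/-- **KERNM** in the form of `Lim.Stmt_KERNM`. -/
theorem stmt_KERNM : Fermat.Agent.S59.Lim.Stmt_KERNM := by
  intro 𝒪 _ V _ _ m r hm d hcomm hpow rk b hb
  exact kernm hm d hcomm hpow b hb

end Main

end Fermat.Agent.S59.Lim.H2

end
end
-- ==== END Fermat.Agent.S59.Lim.H2_KerNm

-- ==== BEGIN Fermat.Agent.S59.Lim.H61_DecW
section

/-!
# S59, package LIM, leaf LIM-DEC in torsion form (helper61): `Stmt_DEC_W`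

`stmt_DEC_W : Stmt_DEC_W`, from helper2's `H2.isCompl_maxGenEigenspace`:
* an operator which is nilpotent on every element of `W[ϖ]` (exponent depending on the element)
  is locally nilpotent on a `ϖ`-power torsion module;
* `gk (F - a • 1) = F.maxGenEigenspace a`.

Also the stability of `gk` under commuting operators and the transport of nilpotence.

No `sorry`.
-/

set_option autoImplicit false

namespace Fermat.Agent.S59.Lim.H61

open Module

variable {𝒪 : Type*} [CommRing 𝒪] {W : Type*} [AddCommGroup W] [Module 𝒪 W]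

/-- An operator which is nilpotent on every element of `W[ϖ]` is locally nilpotent on a
`ϖ`-power torsion module (no uniformity needed). -/
theorem locNil_of_torsion_pointwise (ϖ : 𝒪) (B : End 𝒪 W)
    (hB : ∀ x : W, ϖ • x = 0 → ∃ m : ℕ, (B ^ m) x = 0) :
    ∀ (k : ℕ) (x : W), ϖ ^ k • x = 0 → ∃ m : ℕ, (B ^ m) x = 0 := by
  intro k
  induction k with
  | zero =>
    intro x hx
    refine ⟨0, ?_⟩
    simpa using hx
  | succ k ih =>
    intro x hx
    rw [pow_succ, mul_smul] at hx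
    obtain ⟨m₁, hm₁⟩ := ih (ϖ • x) hx
    rw [map_smul] at hm₁
    obtain ⟨m₂, hm₂⟩ := hB _ hm₁
    refine ⟨m₂ + m₁, ?_⟩
    rw [pow_add, Module.End.mul_apply]
    exact hm₂

/-- The generalised kernel of `F - a` is Mathlib's maximal generalised eigenspace. -/
theorem gk_eq_maxGenEigenspace (F : End 𝒪 W) (a : 𝒪) :
    gk (F - a • (1 : End 𝒪 W)) = F.maxGenEigenspace a := by
  ext x
  rw [mem_gk, End.mem_maxGenEigenspace]

/-- **LIM-DEC, torsion form.** -/
theorem stmt_DEC_W : Stmt_DEC_W := by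
  intro 𝒪 _ ϖ W _ _ htors F a a' hu hnil
  rw [gk_eq_maxGenEigenspace, gk_eq_maxGenEigenspace]
  refine H2.isCompl_maxGenEigenspace F a a' hu fun w => ?_
  obtain ⟨k, hk⟩ := htors w
  exact locNil_of_torsion_pointwise ϖ _ hnil k w hk

/-- `gk (F - a)` is stable under everything commuting with `F`. -/
theorem gk_stable (F G : End 𝒪 W) (hG : Commute F G) (a : 𝒪) {x : W}
    (hx : x ∈ gk (F - a • (1 : End 𝒪 W))) : G x ∈ gk (F - a • (1 : End 𝒪 W)) := by
  rw [gk_eq_maxGenEigenspace] at hx ⊢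
  exact End.mapsTo_maxGenEigenspace_of_comm hG a hx

/-- On `gk (F - a)`, `((F - a)(F - a'))^N x = 0` forces `(F - a)^N x = 0`. -/
theorem pow_apply_eq_zero_of_mem_gk (F : End 𝒪 W) (a a' : 𝒪) (hu : IsUnit (a - a')) (N : ℕ)
    {x : W} (hx : x ∈ gk (F - a • (1 : End 𝒪 W)))
    (h : (((F - a • (1 : End 𝒪 W)) * (F - a' • (1 : End 𝒪 W))) ^ N) x = 0) :
    ((F - a • (1 : End 𝒪 W)) ^ N) x = 0 := by
  rw [gk_eq_maxGenEigenspace] at hx
  exact H2.pow_apply_eq_zero_of_mem_maxGenEigenspace F a a' hu N x hx h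

/-- On `gk (F - a')`, `((F - a)(F - a'))^N x = 0` forces `(F - a')^N x = 0`. -/
theorem pow_apply_eq_zero_of_mem_gk' (F : End 𝒪 W) (a a' : 𝒪) (hu : IsUnit (a - a')) (N : ℕ)
    {x : W} (hx : x ∈ gk (F - a' • (1 : End 𝒪 W)))
    (h : (((F - a • (1 : End 𝒪 W)) * (F - a' • (1 : End 𝒪 W))) ^ N) x = 0) :
    ((F - a' • (1 : End 𝒪 W)) ^ N) x = 0 := by
  rw [gk_eq_maxGenEigenspace] at hx
  exact H2.pow_apply_eq_zero_of_mem_maxGenEigenspace' F a a' hu N x hx h

end Fermat.Agent.S59.Lim.H61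

end
-- ==== END Fermat.Agent.S59.Lim.H61_DecW

-- ==== BEGIN Fermat.Agent.S59.Lim.H94_Min
section

/-!
# S59, package LIM (helper94): `HDiv ⟹ HMod`

`toHMod hϖ MD : Asm.HMod 𝒪 N S θ` with `V = H2.tate ϖ MD.W`, `η = mapEnd ∘ MD.η`.

Generic tools:
* `exists_pow_kill_torsion` : an endomorphism which is nilpotent on each element of the finite
  module `W[ϖ]` has a power killing `W[ϖ]`.
* `fg_torsionBy` : `W[ϖ]` is finitely generated.
-/

set_option autoImplicit false
set_option linter.style.haveILetI false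

noncomputable section

open IsLocalRing CuspForm

namespace Fermat.Agent.S59.Lim

open Fermat.Agent.S59.Asm

section Gen

variable {𝒪 : Type*} [CommRing 𝒪] {ϖ : 𝒪} {W : Type*} [AddCommGroup W] [Module 𝒪 W]

theorem IsDiv.fg_torsionBy (h : IsDiv ϖ W) : (Submodule.torsionBy 𝒪 W ϖ).FG := by
  haveI := h.fin
  haveI : Module.Finite 𝒪 (Submodule.torsionBy 𝒪 W ϖ) := Module.Finite.of_finite
  exact Module.Finite.iff_fg.mp inferInstance

/-- A family of elementwise nilpotency exponents on a finite set has a uniform bound. -/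
theorem exists_pow_kill_of_finite {U : Submodule 𝒪 W} [Finite U] (B : Module.End 𝒪 W)
    (hB : ∀ x ∈ U, ∃ m : ℕ, (B ^ m) x = 0) : ∃ m : ℕ, ∀ x ∈ U, (B ^ m) x = 0 := by
  classical
  have h1 : ∀ x : U, ∃ m : ℕ, (B ^ m) (x : W) = 0 := fun x => hB x x.2
  choose f hf using h1
  haveI : Fintype U := Fintype.ofFinite U
  refine ⟨∑ x : U, f x, fun x hx => ?_⟩
  have hle : f ⟨x, hx⟩ ≤ ∑ y : U, f y :=
    Finset.single_le_sum (f := f) (fun _ _ => Nat.zero_le _) (Finset.mem_univ (⟨x, hx⟩ : U))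
  obtain ⟨c, hc⟩ := Nat.exists_eq_add_of_le hle
  rw [hc, add_comm, pow_add, Module.End.mul_apply]
  have := hf ⟨x, hx⟩
  simp only at this
  rw [this, map_zero]

theorem IsDiv.exists_pow_kill_torsion (h : IsDiv ϖ W) (B : Module.End 𝒪 W)
    (hB : ∀ x : W, ϖ • x = 0 → ∃ m : ℕ, (B ^ m) x = 0) :
    ∃ m : ℕ, ∀ x : W, ϖ • x = 0 → (B ^ m) x = 0 := by
  haveI := h.fin
  obtain ⟨m, hm⟩ := exists_pow_kill_of_finite (U := Submodule.torsionBy 𝒪 W ϖ) B
    (fun x hx => hB x ((Submodule.mem_torsionBy_iff _ _).mp hx))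
  exact ⟨m, fun x hx => hm x ((Submodule.mem_torsionBy_iff _ _).mpr hx)⟩

/-- `W[ϖ^k]` is finite for a module with `W[ϖ]` finite. -/
theorem IsDiv.finite_torsionBy_pow (h : IsDiv ϖ W) (k : ℕ) :
    Finite (Submodule.torsionBy 𝒪 W (ϖ ^ k)) := by
  haveI := h.fin
  induction k with
  | zero =>
    have : ∀ x : Submodule.torsionBy 𝒪 W (ϖ ^ 0), x = 0 := by
      rintro ⟨x, hx⟩
      apply Subtype.ext
      have := (Submodule.mem_torsionBy_iff _ _).mp hx
      simpa using this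
    haveI : Subsingleton (Submodule.torsionBy 𝒪 W (ϖ ^ 0)) :=
      ⟨fun a b => by rw [this a, this b]⟩
    infer_instance
  | succ k ih =>
    -- `x ↦ ϖ ^ k • x` maps `W[ϖ^(k+1)]` to `W[ϖ]` with fibres in bijection with `W[ϖ^k]`
    haveI := ih
    let f : Submodule.torsionBy 𝒪 W (ϖ ^ (k + 1)) →ₗ[𝒪] Submodule.torsionBy 𝒪 W ϖ :=
      { toFun := fun x => ⟨ϖ ^ k • (x : W), by
          rw [Submodule.mem_torsionBy_iff, ← mul_smul, ← pow_succ']
          exact (Submodule.mem_torsionBy_iff _ _).mp x.2⟩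
        map_add' := fun x y => Subtype.ext (smul_add _ _ _)
        map_smul' := fun c x => Subtype.ext (smul_comm _ _ _) }
    let g : LinearMap.ker f → Submodule.torsionBy 𝒪 W (ϖ ^ k) := fun x =>
      ⟨((x : Submodule.torsionBy 𝒪 W (ϖ ^ (k + 1))) : W), by
        rw [Submodule.mem_torsionBy_iff]
        have := x.2
        rw [LinearMap.mem_ker] at this
        exact congrArg Subtype.val this⟩
    have hg : Function.Injective g := by
      intro x y hxy
      apply Subtype.ext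
      apply Subtype.ext
      have := congrArg Subtype.val hxy
      exact this
    haveI : Finite (LinearMap.ker f) := Finite.of_injective g hg
    haveI : Finite (LinearMap.range f) := inferInstance
    have e := f.quotKerEquivRange
    haveI : Finite (Submodule.torsionBy 𝒪 W (ϖ ^ (k + 1)) ⧸ LinearMap.ker f) :=
      Finite.of_equiv _ e.symm.toEquiv
    have hc := Submodule.card_eq_card_quotient_mul_card (LinearMap.ker f)
    have h1 : 0 < Nat.card (LinearMap.ker f) := Nat.card_pos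
    have h2 : 0 < Nat.card (Submodule.torsionBy 𝒪 W (ϖ ^ (k + 1)) ⧸ LinearMap.ker f) :=
      Nat.card_pos
    exact Nat.finite_of_card_ne_zero (by rw [hc]; positivity)

theorem IsDiv.nontrivial_tate (h : IsDiv ϖ W) [Nontrivial W] : Nontrivial (H2.tate ϖ W) := by
  obtain ⟨w, hw⟩ := exists_ne (0 : W)
  obtain ⟨k, x, hx⟩ := H2.exists_ev_eq_of_torsion h.div h.tors w
  refine ⟨⟨x, 0, fun h0 => hw ?_⟩⟩
  rw [← hx, h0, map_zero]

/-- the image under `mapEnd` of `f - a • 1`. -/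
theorem mapEnd_sub_smul_one (f : Module.End 𝒪 W) (a : 𝒪) (m : ℕ) :
    (H2.mapEnd ϖ W f - a • (1 : Module.End 𝒪 (H2.tate ϖ W))) ^ m
      = H2.mapEnd ϖ W ((f - a • (1 : Module.End 𝒪 W)) ^ m) := by
  rw [map_pow, map_sub, map_smul, map_one]

end Gen

section HMod

variable {𝒪 : Type} [CommRing 𝒪] [IsDomain 𝒪] [IsDiscreteValuationRing 𝒪]
  [IsAdicComplete (maximalIdeal 𝒪) 𝒪] {ϖ : 𝒪}
  {N : ℕ} [NeZero N] {S : Set ℕ} {θ : CuspForm.heckeAlgebra N 2 S →+* ResidueField 𝒪}

omit [IsAdicComplete (maximalIdeal 𝒪) 𝒪] in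
theorem mem_maximalIdeal_of_irreducible (hϖ : Irreducible ϖ) : ϖ ∈ maximalIdeal 𝒪 :=
  (IsLocalRing.mem_maximalIdeal ϖ).mpr hϖ.not_isUnit

/-- **`HDiv ⟹ HMod`**: the Tate module of a divisible Hecke module. -/
def HDiv.toHMod (hϖ : Irreducible ϖ) (MD : HDiv 𝒪 ϖ N S θ) : HMod 𝒪 N S θ where
  V := H2.tate ϖ MD.W
  instFinite := H2.finite_tate_dvr hϖ MD.isDiv.div MD.isDiv.fg_torsionBy
  instFree := H2.free_tate hϖ MD.isDiv.div MD.isDiv.fg_torsionBy
  η := ((H2.mapEnd ϖ MD.W : Module.End 𝒪 MD.W →ₐ[𝒪] Module.End 𝒪 (H2.tate ϖ MD.W)) :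
    Module.End 𝒪 MD.W →+* Module.End 𝒪 (H2.tate ϖ MD.W)).comp MD.η
  η_local := by
    intro t a hta
    obtain ⟨m, hm⟩ := MD.isDiv.exists_pow_kill_torsion
      (MD.η t - a • (1 : Module.End 𝒪 MD.W)) (MD.η_local t a hta)
    refine ⟨m, fun v => ?_⟩
    have e : ((((H2.mapEnd ϖ MD.W : Module.End 𝒪 MD.W →ₐ[𝒪] Module.End 𝒪 (H2.tate ϖ MD.W)) :
        Module.End 𝒪 MD.W →+* Module.End 𝒪 (H2.tate ϖ MD.W)).comp MD.η) t
          - a • (1 : Module.End 𝒪 (H2.tate ϖ MD.W))) ^ m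
        = H2.mapEnd ϖ MD.W ((MD.η t - a • (1 : Module.End 𝒪 MD.W)) ^ m) :=
      mapEnd_sub_smul_one (MD.η t) a m
    rw [e]
    exact H2.map_mem_maximalIdeal_smul (mem_maximalIdeal_of_irreducible hϖ) _ hm v

@[simp]
theorem HDiv.toHMod_V (hϖ : Irreducible ϖ) (MD : HDiv 𝒪 ϖ N S θ) :
    (MD.toHMod hϖ).V = H2.tate ϖ MD.W := rfl

theorem HDiv.toHMod_η (hϖ : Irreducible ϖ) (MD : HDiv 𝒪 ϖ N S θ)
    (t : CuspForm.heckeAlgebra N 2 S) :
    (MD.toHMod hϖ).η t = H2.mapEnd ϖ MD.W (MD.η t) := rfl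

end HMod

end Fermat.Agent.S59.Lim

end
end
-- ==== END Fermat.Agent.S59.Lim.H94_Min

-- ==== BEGIN Fermat.Agent.S59.Min
section

/-!
# S59 wiring (helper53), layer 2: the MINIMAL case of the modularity lifting theorem

`mlt_min : Stmt_DEF → Stmt_TWprimes → Stmt_TWH → Stmt_DIVall → Stmt_MLTmin`

* `cond 𝒪 p fl Smin T` : the deformation condition (flat if `fl = true`, strictly ordinary if
  `fl = false`) of the frozen S56: determinant cyclotomic, local type at `p`, unramified outside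
  `Smin ∪ T`, unipotent on inertia at `Smin ∖ {p}`.
* `minLevel p fl Smin` : the minimal level `∏_{q ∈ Smin, q ≠ p} q · (1 or p)`.
* `Stmt_DEF`      : the universal deformation ring of `cond` exists (S53 + deformation condition
                    + finite tangent space).
* `Stmt_TWprimes` : one half of the frozen S56, in terms of `cond`.
* `Stmt_TWH`      : the Hecke side: Hecke–Galois datum over the FULL Hecke ring `T` at the minimal
                    level, `φ : R ↠ T`, a nonzero `T`-module `M`, and for every Taylor–Wiles family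
                    `Q` of level `n` a `TWLevel` (TW-GAL + TW-HECKE = LG-NEB).
* `Stmt_MLTmin`   : modularity lifting for `ρ` of minimal type.
-/

set_option autoImplicit false
set_option linter.style.haveILetI false
set_option linter.unusedSectionVars false

open Polynomial CuspForm CongruenceSubgroup ModularFormClass IsLocalRing

namespace Fermat.Agent.S59

/-- The deformation condition of the frozen S56: flat (`fl = true`) or strictly ordinary
(`fl = false`) at `p`. -/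
def cond (𝒪 : Type) [CommRing 𝒪] (p : ℕ) : Bool → Finset ℕ → Finset ℕ →
    ∀ ⦃A : Type⦄ [CommRing A] [IsLocalRing A] [Algebra 𝒪 A], GaloisRepAdic A → Prop
  | true => Fermat.Agent.S56.condFl 𝒪 p
  | false => Fermat.Agent.S56.condSO 𝒪 p

/-- The minimal level. -/
def minLevel (p : ℕ) (fl : Bool) (Smin : Finset ℕ) : ℕ :=
  (∏ q ∈ Smin.erase p, q) * (if fl then 1 else p)

theorem minLevel_ne_zero {p : ℕ} (hp : p.Prime) (fl : Bool) {Smin : Finset ℕ}
    (hS : ∀ q ∈ Smin, q.Prime) : minLevel p fl Smin ≠ 0 := by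
  unfold minLevel
  refine mul_ne_zero (Finset.prod_ne_zero_iff.mpr fun q hq => ?_) ?_
  · exact (hS q (Finset.mem_of_mem_erase hq)).ne_zero
  · split
    · exact one_ne_zero
    · exact hp.ne_zero

/-- **DEF**: the universal deformation ring of `cond` exists. -/
def Stmt_DEF : Prop :=
  ∀ (𝒪 : Type) [CommRing 𝒪] [IsDomain 𝒪] [IsDiscreteValuationRing 𝒪]
    [IsAdicComplete (maximalIdeal 𝒪) 𝒪] [Finite (ResidueField 𝒪)]
    (p : ℕ) [Fact p.Prime], p ≠ 2 → (p : 𝒪) ∈ maximalIdeal 𝒪 →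
    ∀ (fl : Bool) (ρbar : ResidualGaloisRep (ResidueField 𝒪)),
    ρbar.IsAbsolutelyIrreducible →
    ∀ (Smin T : Finset ℕ), p ∈ Smin → (∀ q ∈ Smin ∪ T, q.Prime) →
    cond 𝒪 p fl Smin T (GaloisRepAdic.ofResidualGaloisRep ρbar) →
    Nonempty (GaloisRep.DeformationRingData 𝒪 ρbar (cond 𝒪 p fl Smin T))

/-- The standing hypotheses on the residual representation. -/
structure ResHyp {𝒪 : Type} [CommRing 𝒪] [IsLocalRing 𝒪] (p : ℕ)
    (ρbar : ResidualGaloisRep (ResidueField 𝒪)) (Smin : Finset ℕ) : Prop where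
  habs : ρbar.IsAbsolutelyIrreducible
  hdet : (GaloisRepAdic.ofResidualGaloisRep ρbar).DetIsCyclotomic p
  hsplit : ∀ σ : AlgebraicClosure ℚ ≃ₐ[ℚ] AlgebraicClosure ℚ,
    ∃ α β : ResidueField 𝒪, LinearMap.charpoly (ρbar.ρ σ) = (X - C α) * (X - C β)
  hTW : ∀ (K : Type) [Field K] [Algebra (ResidueField 𝒪) K]
    (G : Subgroup (AlgebraicClosure ℚ ≃ₐ[ℚ] AlgebraicClosure ℚ)), G.index = 2 →
    ∀ V : Submodule K (ρbar.baseChange K).V,
      (∀ σ ∈ G, ∀ x ∈ V, (ρbar.baseChange K).ρ σ x ∈ V) → V = ⊥ ∨ V = ⊤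
  hpSmin : p ∈ Smin
  hS : ∀ q ∈ Smin, q.Prime
  hmin : ∀ q : ℕ, q.Prime → q ≠ p → (q ∈ Smin ↔ ¬ ρbar.IsUnramifiedAt q)

/-- **TW primes** (one half of the frozen S56, with `S = Smin`). -/
def Stmt_TWprimes : Prop :=
  ∀ (𝒪 : Type) [CommRing 𝒪] [IsDomain 𝒪] [IsDiscreteValuationRing 𝒪]
    [IsAdicComplete (maximalIdeal 𝒪) 𝒪] [Finite (ResidueField 𝒪)]
    (p : ℕ) [Fact p.Prime], p ≠ 2 → (p : 𝒪) ∈ maximalIdeal 𝒪 →
    ∀ (fl : Bool) (ρbar : ResidualGaloisRep (ResidueField 𝒪)) (Smin : Finset ℕ),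
    ResHyp p ρbar Smin →
    ∃ r : ℕ, ∀ n : ℕ, ∃ qv : Fin r → ℕ, Fermat.Agent.S56.IsTWFamily ρbar p n Smin qv ∧
      ∀ DQ : GaloisRep.DeformationRingData 𝒪 ρbar (cond 𝒪 p fl Smin (Finset.univ.image qv)),
        ∃ γ : MvPowerSeries (Fin r) 𝒪 →ₐ[𝒪] DQ.R, Function.Surjective γ

/-- The Hecke side at the minimal level: the full Hecke ring with its Galois representation, the
surjection from the deformation ring and a Hecke module. -/
structure MinData {𝒪 : Type} [CommRing 𝒪] [IsDomain 𝒪] [IsDiscreteValuationRing 𝒪]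
    [IsAdicComplete (maximalIdeal 𝒪) 𝒪]
    {ρbar : ResidualGaloisRep (ResidueField 𝒪)}
    {𝒟 : ∀ ⦃A : Type⦄ [CommRing A] [IsLocalRing A] [Algebra 𝒪 A], GaloisRepAdic A → Prop}
    (D : GaloisRep.DeformationRingData 𝒪 ρbar 𝒟)
    (N : ℕ) [NeZero N] (S : Set ℕ) (θ : CuspForm.heckeAlgebra N 2 S →+* ResidueField 𝒪) :
    Type 1 where
  T : Type
  [instCommRing : CommRing T]
  [instIsLocalRing : IsLocalRing T]
  [instIsNoetherianRing : IsNoetherianRing T]
  [instIsAdicComplete : IsAdicComplete (maximalIdeal T) T]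
  [instAlgebra : Algebra 𝒪 T]
  [instIsLocalHom : IsLocalHom (algebraMap 𝒪 T)]
  [instFinite : Module.Finite 𝒪 T]
  [instFree : Module.Free 𝒪 T]
  H : CuspForm.HeckeGaloisRepDatum N S 𝒪 θ T
  φ : D.R →ₐ[𝒪] T
  φ_surjective : Function.Surjective φ
  φ_local : IsLocalHom (φ : D.R →+* T)
  φ_equiv : (D.ρ.baseChangeAlong (φ : D.R →+* T) φ_local).IsEquiv H.ρ
  M : Type
  [instAddCommGroup : AddCommGroup M]
  [instModule : Module D.R M]
  [instNontrivial : Nontrivial M]
  ker_smul : ∀ a ∈ RingHom.ker (φ : D.R →+* T), ∀ x : M, a • x = 0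

attribute [instance] MinData.instCommRing MinData.instIsLocalRing MinData.instIsNoetherianRing
  MinData.instIsAdicComplete MinData.instAlgebra MinData.instIsLocalHom MinData.instFinite
  MinData.instFree MinData.instAddCommGroup MinData.instModule MinData.instNontrivial

/-- **TW-HECKE + TW-GAL + DATUM** at the minimal level: the Hecke data and, for every
Taylor–Wiles family, the Taylor–Wiles level. -/
def Stmt_TWH : Prop :=
  ∀ (𝒪 : Type) [CommRing 𝒪] [IsDomain 𝒪] [IsDiscreteValuationRing 𝒪]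
    [IsAdicComplete (maximalIdeal 𝒪) 𝒪] [Finite (ResidueField 𝒪)] [CharZero 𝒪]
    (p : ℕ) [Fact p.Prime], p ≠ 2 → (p : 𝒪) ∈ maximalIdeal 𝒪 →
    ∀ (fl : Bool) (ρbar : ResidualGaloisRep (ResidueField 𝒪)) (Smin : Finset ℕ),
    ResHyp p ρbar Smin →
    ∀ (D : GaloisRep.DeformationRingData 𝒪 ρbar (cond 𝒪 p fl Smin ∅))
      (N : ℕ) [NeZero N], N = minLevel p fl Smin →
    ∀ (θ : CuspForm.heckeAlgebra N 2 (Smin : Set ℕ) →+* ResidueField 𝒪),
    (∀ (ℓ : ℕ) (hℓ : ℓ.Prime) (hℓN : ¬ ℓ ∣ N) (hℓS : ℓ ∉ (Smin : Set ℕ)),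
      ∀ A : ValuationSubring (AlgebraicClosure ℚ), A.LiesOverPrime ℓ →
        ∀ σ : AlgebraicClosure ℚ ≃ₐ[ℚ] AlgebraicClosure ℚ, A.IsFrobeniusAt σ ℓ →
          LinearMap.charpoly (ρbar.ρ σ) =
            X ^ 2 - C (θ (heckeAlgebra.T hℓ hℓN hℓS)) * X + C ((ℓ : ResidueField 𝒪))) →
    ∃ X : MinData D N (Smin : Set ℕ) θ,
      ∀ (r n : ℕ) (qv : Fin r → ℕ), Fermat.Agent.S56.IsTWFamily ρbar p n Smin qv →
        ∀ (DQ : GaloisRep.DeformationRingData 𝒪 ρbar (cond 𝒪 p fl Smin (Finset.univ.image qv)))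
          (γ : MvPowerSeries (Fin r) 𝒪 →ₐ[𝒪] DQ.R), Function.Surjective γ →
          Nonempty (TWLevel 𝒪 p r D.R X.M n)

/-- DIV for all complete discrete valuation rings. -/
def Stmt_DIVall : Prop :=
  ∀ (𝒪 : Type) [CommRing 𝒪] [IsDomain 𝒪] [IsDiscreteValuationRing 𝒪]
    [IsAdicComplete (maximalIdeal 𝒪) 𝒪] (p : ℕ), (p : 𝒪) ∈ maximalIdeal 𝒪 →
    ∀ (r n : ℕ), Stmt_DIV 𝒪 p r n

/-- **Modularity lifting, minimal case.** -/
def Stmt_MLTmin : Prop :=
  ∀ (𝒪 : Type) [CommRing 𝒪] [IsDomain 𝒪] [IsDiscreteValuationRing 𝒪]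
    [IsAdicComplete (maximalIdeal 𝒪) 𝒪] [Finite (ResidueField 𝒪)] [CharZero 𝒪]
    (p : ℕ) [Fact p.Prime], p ≠ 2 → (p : 𝒪) ∈ maximalIdeal 𝒪 →
    ∀ (fl : Bool) (ρbar : ResidualGaloisRep (ResidueField 𝒪)) (Smin : Finset ℕ),
    ResHyp p ρbar Smin →
    cond 𝒪 p fl Smin ∅ (GaloisRepAdic.ofResidualGaloisRep ρbar) →
    ∀ (N : ℕ) [NeZero N], N = minLevel p fl Smin →
    ∀ (θ : CuspForm.heckeAlgebra N 2 (Smin : Set ℕ) →+* ResidueField 𝒪),
    (∀ (ℓ : ℕ) (hℓ : ℓ.Prime) (hℓN : ¬ ℓ ∣ N) (hℓS : ℓ ∉ (Smin : Set ℕ)),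
      ∀ A : ValuationSubring (AlgebraicClosure ℚ), A.LiesOverPrime ℓ →
        ∀ σ : AlgebraicClosure ℚ ≃ₐ[ℚ] AlgebraicClosure ℚ, A.IsFrobeniusAt σ ℓ →
          LinearMap.charpoly (ρbar.ρ σ) =
            X ^ 2 - C (θ (heckeAlgebra.T hℓ hℓN hℓS)) * X + C ((ℓ : ResidueField 𝒪))) →
    ∀ (ρ : GaloisRepAdic 𝒪), cond 𝒪 p fl Smin ∅ ρ →
    ρ.residual.IsEquiv (ρbar.baseChangeAlong (ResidueField.map (algebraMap 𝒪 𝒪))) →
    ∀ (a : ℕ → ℤ),
    (∀ ℓ : ℕ, ℓ.Prime → ¬ ℓ ∣ N → ℓ ∉ (Smin : Set ℕ) →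
      ∀ A : ValuationSubring (AlgebraicClosure ℚ), A.LiesOverPrime ℓ →
        ∀ σ : AlgebraicClosure ℚ ≃ₐ[ℚ] AlgebraicClosure ℚ, A.IsFrobeniusAt σ ℓ →
          LinearMap.charpoly (ρ.ρ σ) = X ^ 2 - C (((a ℓ : ℤ) : 𝒪)) * X + C ((ℓ : 𝒪))) →
    ∃ g : CuspForm (Gamma0 N) 2, g.IsNormalizedEigenform ∧
      ∀ ℓ : ℕ, ℓ.Prime → ¬ ℓ ∣ N → ℓ ∉ (Smin : Set ℕ) → qCoeff ⇑g ℓ = (a ℓ : ℂ)

/-- **The minimal case of the modularity lifting theorem** from its four inputs. -/
theorem mlt_min (hDEF : Stmt_DEF) (hTWP : Stmt_TWprimes) (hTWH : Stmt_TWH)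
    (hDIV : Stmt_DIVall) : Stmt_MLTmin := by
  intro 𝒪 _ _ _ _ _ _ p _ hp2 hp𝒪 fl ρbar Smin hyp hbar N _ hN θ hθ ρ hρ hres a hfrob
  obtain ⟨D⟩ := hDEF 𝒪 p hp2 hp𝒪 fl ρbar hyp.habs Smin ∅ hyp.hpSmin
    (fun q hq => hyp.hS q (by simpa using hq)) hbar
  obtain ⟨X, hX⟩ := hTWH 𝒪 p hp2 hp𝒪 fl ρbar Smin hyp D N hN θ hθ
  obtain ⟨r, hr⟩ := hTWP 𝒪 p hp2 hp𝒪 fl ρbar Smin hyp
  have hL : ∀ n, Nonempty (TWLevel 𝒪 p r D.R X.M n) := by
    intro n
    obtain ⟨qv, hqv, hγ⟩ := hr n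
    have hbarQ : cond 𝒪 p fl Smin (Finset.univ.image qv)
        (GaloisRepAdic.ofResidualGaloisRep ρbar) := by
      cases fl
      · refine ⟨⟨hbar.1.1, hbar.1.2.1, fun q hq hqS => hbar.1.2.2 q hq ?_⟩, hbar.2⟩
        intro h
        exact hqS (Finset.mem_union_left _ (by simpa using h))
      · refine ⟨⟨hbar.1.1, hbar.1.2.1, fun q hq hqS => hbar.1.2.2 q hq ?_⟩, hbar.2⟩
        intro h
        exact hqS (Finset.mem_union_left _ (by simpa using h))
    obtain ⟨DQ⟩ := hDEF 𝒪 p hp2 hp𝒪 fl ρbar hyp.habs Smin (Finset.univ.image qv) hyp.hpSmin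
      (fun q hq => by
        rcases Finset.mem_union.mp hq with h | h
        · exact hyp.hS q h
        · obtain ⟨i, -, rfl⟩ := Finset.mem_image.mp h
          exact (hqv.2.1 i).1) hbarQ
    obtain ⟨γ, hγs⟩ := hγ DQ
    exact hX r n qv hqv DQ γ hγs
  obtain ⟨P⟩ := patchingDatum_of_twLevels (fun n => hDIV 𝒪 p hp𝒪 r n) hL
  exact eigenform_of_patchingDatum hp𝒪 D X.H X.φ X.φ_surjective X.φ_local X.φ_equiv X.ker_smul P
    ρ hρ hres a hfrob

end Fermat.Agent.S59

end
-- ==== END Fermat.Agent.S59.Min
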