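-- GENERATED (merged mirror, NOTES/tools/trim/merge3_helper67.py): 6 modules of the originals, bodies verbatim.
import Fermat.Agent.Zm.S43_L03_000
import Fermat.Agent.Zm.S43_L02_000
import Fermat.Agent.Zm.S35_L16_000
import Fermat.Agent.Zm.S35_L04_001
import Fermat.Agent.Zm.S43_L03_005
import Fermat.Agent.Zm.S43_L01_000
import Fermat.Agent.Zm.S43_L02_004
import Fermat.Agent.Zm.S43_L03_001

-- ==== BEGIN Fermat.Agent.L.Pivot.Geom.H24_B2Asm
section

/-!
# PIVOT, PV-GEOM, leaf PVG-B2 (helper24), part 5: assembly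

* `torChar_push` : generic: if the norm along `p : F_M → F_{Mq}` transports characters `φ ↦ ψ φ`
  (after base change to `ℂ`), then `p_*` transports `TorChar`;
* `torChar_alphaPush` : **the `α` half of PVG-B2**:
  `TorChar (M q) n ι x φ → TorChar M n ι (α_* x) (cor1 φ)` (all `M`, `q`).
-/

set_option autoImplicit false
set_option linter.style.haveILetI false
set_option linter.unusedSectionVars false

open ModularCurve AlgebraicCurve CongruenceSubgroup
open scoped MatrixGroups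

noncomputable section

namespace Fermat.Agent.L.Pivot.Geom.H24

open Fermat.Agent.GTor Fermat.Agent.GTor.Clo Fermat.Agent.GTor.Clo.H96 Fermat.Agent.Lib.HeckeComm

local notation "Kb" => AlgebraicClosure ℚ

variable (M q n : ℕ) [NeZero M] [NeZero q]

/-- Generic assembly: transport of `TorChar` along a push-forward. -/
theorem torChar_push (ι : Kb →+* ℂ)
    (p : Fermat.Agent.S24.FN M →ₐ[Kb] Fermat.Agent.S24.FN (M * q))
    (hp : p.toRingHom.IsIntegral) (hfin : FiniteAlong Kb p) (hN : NormFormulaAlong Kb p hfin)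
    (ψ : (Additive (Gamma0 (M * q)) →+ ZMod n) → (Additive (Gamma0 M) →+ ZMod n))
    (hch : ∀ (f : Fermat.Agent.S24.FN (M * q)) (φ : Additive (Gamma0 (M * q)) →+ ZMod n),
      f ≠ 0 → HasChar (M * q) n (toFNLc (M * q) (bcC ι (M * q) f)) φ →
        HasChar M n (toFNLc M (bcC ι M (normAlongHom p.toRingHom f))) (ψ φ))
    (x : JZero (M * q)) (φ : Additive (Gamma0 (M * q)) →+ ZMod n)
    (h : TorChar (M * q) n ι x φ) :
    TorChar M n ι (Fermat.Agent.S36.H44.pic0Push p hp hfin hN x) (ψ φ) := by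
  obtain ⟨D, f, f', hf, hx, hord, hco, hchar⟩ := h
  have hf' : f' = toFNLc (M * q) (bcC ι (M * q) f) := by
    apply Subtype.ext
    ext m
    rw [hco m]
    rfl
  refine ⟨Fermat.Agent.S36.H44.degZeroPush p hp D, normAlongHom p.toRingHom f,
    toFNLc M (bcC ι M (normAlongHom p.toRingHom f)),
    Fermat.Agent.S36.H44.normAlongHom_ne_zero p hfin hf, ?_, ?_, ?_, ?_⟩
  · rw [hx]
    rfl
  · intro v
    have hE : ∀ w : Place Kb (Fermat.Agent.S24.FN (M * q)),
        ((n : ℤ) • (D : Divisor Kb (Fermat.Agent.S24.FN (M * q)))) w = w.ord f := fun w => by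
      rw [Finsupp.smul_apply, smul_eq_mul]
      exact hord w
    have h1 := Fermat.Agent.S36.H44.pushforwardAlong_ord p hp hfin hN hf _ hE v
    rw [map_zsmul, Finsupp.smul_apply, smul_eq_mul] at h1
    exact h1
  · intro m
    rfl
  · rw [hf'] at hchar
    exact hch f φ hf hchar

/-- **PVG-B2, the `α` half**: the Betti character of `α_* x` is `cor1 φ`. -/
theorem torChar_alphaPush (ι : Kb →+* ℂ) (x : JZero (M * q))
    (φ : Additive (Gamma0 (M * q)) →+ ZMod n) (h : TorChar (M * q) n ι x φ) :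
    TorChar M n ι (Fermat.Agent.S36.H44.alphaPush M q x)
      (Fermat.Agent.S41.cor1 M q (ZMod n) φ) := by
  refine torChar_push M q n ι (heckeAlphaBar Kb M q) _ _ _
    (fun φ => Fermat.Agent.S41.cor1 M q (ZMod n) φ) ?_ x φ h
  intro f φ _ hc
  rw [bcC_normAlpha]
  exact hasChar_normAlpha M q n _ φ hc

end Fermat.Agent.L.Pivot.Geom.H24

end
end
-- ==== END Fermat.Agent.L.Pivot.Geom.H24_B2Asm

-- ==== BEGIN Fermat.Agent.L.Pivot.Geom.H4_B1
section

/-!
# PIVOT / PV-GEOM, leaf PVG-B1 (helper4): Betti `q`-newness of twists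

`stmt_TWnew` : the statement of `NEB.EIG.H39.stmt_TW` (Betti twisting) for a list `qs` of primes
and a pivot prime `q ∈ qs` with `χ_q ≠ 1`, with the additional conclusion that the twisted classes
`Tw φ ∈ Hom(Γ₀(N₁ q), L)` (`N₁ q = N c²`) are killed by both transfers `S41.cor1`, `S41.cor2` to
level `N₁`.

Construction: the twisting map of helper39 for the list ordered with `q` LAST
(`tw_exists_new`, induction over the other primes); the last step is `stepMap` at `q` with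
`c₁ = 1`, killed by the transfers by `cor1_stepMap` (`H4_B1Alpha.lean`) and `cor2_stepMap`
(`H4_B1Beta.lean`).

Complete proofs, standard axioms only.
-/

set_option autoImplicit false

namespace Fermat.Agent.L.Pivot.Geom.H4

open CongruenceSubgroup Matrix.SpecialLinearGroup ModularForm Finset
open scoped MatrixGroups
open Fermat.Agent.NEB.EIG.H39 Fermat.Agent.S41 Fermat.Agent.Betti ModularCurve.Period

section Induction

variable {L : Type*} [Field L] [CharZero L]

/-- The twisted classes are killed by the two transfers at `q`. -/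
def IsNewAt (χ : (q : ℕ) → MulChar (ZMod q) L) (qs : List ℕ) (q M M₁ c : ℕ) (hc : c ∣ M)
    (Tw : (Additive (Gam1 M c) →+ L) →ₗ[L] (Additive (Gam1 (M₁ * q) 1) →+ L)) : Prop :=
  ∀ φ, IsEig M c hc (Om χ qs) φ →
    cor1 M₁ q L (resK (Gamma0_le_Gam1_one (M₁ * q)) (Tw φ)) = 0 ∧
    cor2 M₁ q L (resK (Gamma0_le_Gam1_one (M₁ * q)) (Tw φ)) = 0

/-- The base case: the list `[q]`. -/
theorem tw_exists_new_nil (χ : (q : ℕ) → MulChar (ZMod q) L) (q : ℕ) (hχq : χ q ≠ 1)
    (hq : q.Prime)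
    (hχ : χ q = 1 ∨ ∃ T : ℤ, ¬ (q : ℤ) ∣ T ∧ χ q ((T : ℤ) : ZMod q) ^ 2 ≠ 1)
    (N₀ M M₁ c : ℕ) (hqN : ¬ q ∣ N₀) (hcp : c = [q].prod) (hM : M = N₀ * c)
    (hM₁ : M₁ * q = M * c) (hc : c ∣ M) :
    ∃ Tw : (Additive (Gam1 M c) →+ L) →ₗ[L] (Additive (Gam1 (M₁ * q) 1) →+ L),
      IsTwMap χ [q] M (M₁ * q) c hc Tw ∧ IsNewAt χ [q] q M M₁ c hc Tw := by
  have hc' : c = q * 1 := by rw [hcp]; simp
  subst hc'
  have hM2 : M = q * (N₀ * 1) := by rw [hM]; ring
  subst hM2
  have hM₁' : M₁ = q * (N₀ * 1) := Nat.eq_of_mul_eq_mul_right hq.pos (by rw [hM₁]; ring)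
  subst hM₁'
  have hqm : ¬ q ∣ N₀ * 1 := by rwa [mul_one]
  have hω : ∀ g : SL(2, ℤ), Om χ [] g = 1 := fun g => Om_nil χ g
  have hEig : ∀ φ, IsEig (q * (N₀ * 1)) (q * 1) hc (Om χ [q]) φ →
      IsEig (q * (N₀ * 1)) (q * 1) (step_hcK1 (one_dvd (N₀ * 1)))
        (fun g => χ q ((g 0 0 : ℤ) : ZMod q) ^ 2 * Om χ [] g) φ :=
    fun φ hφ => hφ.congr (fun g _ => Om_cons χ q [] g)
  refine ⟨stepMap hq (one_dvd (N₀ * 1)) (χ q), fun φ hφ => ⟨?_, ?_, ?_⟩, fun φ hφ => ⟨?_, ?_⟩⟩
  · exact stepMap_inj hq hqm (one_dvd _) (χ q) (Om χ []) (fun g _ => hω g) hχ (hEig φ hφ)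
  · intro ℓ hℓ hℓM hℓM'
    have e : χ q (ℓ : ZMod q) * 1 = χ q (ℓ : ZMod q) := mul_one _
    rw [stepMap_TD hq hqm (one_dvd _) (χ q) (Om χ []) (fun g _ => hω g) (hEig φ hφ) hℓ hℓM hℓM',
      chiProd_cons, chiProd_nil, e]
  · exact stepMap_isPar hq hqm (one_dvd _) (χ q) (Om χ []) (fun g _ => hω g) (hEig φ hφ)
  · exact cor1_stepMap hq hqm (χ q) hχq (Om χ []) (fun g _ => hω g) (hEig φ hφ)
  · exact cor2_stepMap hq hqm (χ q) hχq (Om χ []) (fun g _ => hω g) (hEig φ hφ)

/-- **Betti twisting with the pivot prime `q` last**, by induction over the other primes. -/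
theorem tw_exists_new (χ : (q : ℕ) → MulChar (ZMod q) L) (q : ℕ) (hχq : χ q ≠ 1) :
    ∀ (qs : List ℕ), (qs ++ [q]).Nodup → (∀ q' ∈ qs ++ [q], q'.Prime) →
      (∀ q' ∈ qs ++ [q],
        χ q' = 1 ∨ ∃ T : ℤ, ¬ (q' : ℤ) ∣ T ∧ χ q' ((T : ℤ) : ZMod q') ^ 2 ≠ 1) →
      ∀ (N₀ M M₁ c : ℕ), N₀ ≠ 0 → (∀ q' ∈ qs ++ [q], ¬ q' ∣ N₀) → c = (qs ++ [q]).prod →
        M = N₀ * c → M₁ * q = M * c → ∀ hc : c ∣ M,
          ∃ Tw : (Additive (Gam1 M c) →+ L) →ₗ[L] (Additive (Gam1 (M₁ * q) 1) →+ L),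
            IsTwMap χ (qs ++ [q]) M (M₁ * q) c hc Tw ∧
              IsNewAt χ (qs ++ [q]) q M M₁ c hc Tw := by
  intro qs
  induction qs with
  | nil =>
    intro _ hpr hχ N₀ M M₁ c hN₀ hqN hcp hM hM₁ hc
    exact tw_exists_new_nil χ q hχq (hpr q (by simp)) (hχ q (by simp)) N₀ M M₁ c
      (hqN q (by simp)) hcp hM hM₁ hc
  | cons q₁ qs' ih =>
    intro hnd hpr hχ N₀ M M₁ c hN₀ hqN hcp hM hM₁ hc
    rw [List.cons_append] at hnd hpr hχ hqN hcp ⊢
    have hq₁ : q₁.Prime := hpr q₁ List.mem_cons_self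
    have hnd' : (qs' ++ [q]).Nodup := (List.nodup_cons.mp hnd).2
    have hq_notin : q₁ ∉ qs' ++ [q] := (List.nodup_cons.mp hnd).1
    have hpr' : ∀ q' ∈ qs' ++ [q], q'.Prime := fun q' h => hpr q' (List.mem_cons_of_mem _ h)
    have hχ' : ∀ q' ∈ qs' ++ [q],
        χ q' = 1 ∨ ∃ T : ℤ, ¬ (q' : ℤ) ∣ T ∧ χ q' ((T : ℤ) : ZMod q') ^ 2 ≠ 1 :=
      fun q' h => hχ q' (List.mem_cons_of_mem _ h)
    obtain ⟨c₁, hc₁def⟩ : ∃ c₁ : ℕ, c₁ = (qs' ++ [q]).prod := ⟨_, rfl⟩
    rw [List.prod_cons, ← hc₁def] at hcp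
    subst hcp
    have hM2 : M = q₁ * (N₀ * c₁) := by rw [hM]; ring
    subst hM2
    have hc₁ : c₁ ∣ N₀ * c₁ := dvd_mul_left _ _
    have hq_c₁ : ¬ q₁ ∣ c₁ := by
      intro h
      rw [hc₁def] at h
      obtain ⟨a, ha, hqa⟩ := (Prime.dvd_prod_iff (Nat.Prime.prime hq₁)).mp h
      have : q₁ = a := (Nat.prime_dvd_prime_iff_eq hq₁ (hpr' a ha)).mp hqa
      exact hq_notin (this ▸ ha)
    have hqm : ¬ q₁ ∣ N₀ * c₁ := by
      intro h
      rcases (Nat.Prime.dvd_mul hq₁).mp h with h | h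
      · exact hqN q₁ List.mem_cons_self h
      · exact hq_c₁ h
    have hω : ∀ g ∈ Gam1 (q₁ * (N₀ * c₁) * q₁) c₁, Om χ (qs' ++ [q]) g = 1 := fun g hg =>
      Om_eq_one χ (qs' ++ [q]) (hc₁def ▸ hg.2.2)
    have hN₀' : N₀ * q₁ * q₁ ≠ 0 :=
      Nat.mul_ne_zero (Nat.mul_ne_zero hN₀ hq₁.ne_zero) hq₁.ne_zero
    have hqN' : ∀ q' ∈ qs' ++ [q], ¬ q' ∣ N₀ * q₁ * q₁ := by
      intro q' hq' h
      have hq'p := hpr' q' hq'
      have hne : q' ≠ q₁ := fun e => hq_notin (e ▸ hq')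
      have h1 : ¬ q' ∣ q₁ := fun h' => hne ((Nat.prime_dvd_prime_iff_eq hq'p hq₁).mp h')
      rcases (Nat.Prime.dvd_mul hq'p).mp h with h | h
      · rcases (Nat.Prime.dvd_mul hq'p).mp h with h | h
        · exact hqN q' (List.mem_cons_of_mem _ hq') h
        · exact h1 h
      · exact h1 h
    have hM₂ : q₁ * (N₀ * c₁) * q₁ = N₀ * q₁ * q₁ * c₁ := by ring
    have hM'₂ : M₁ * q = q₁ * (N₀ * c₁) * q₁ * c₁ := by rw [hM₁]; ring
    obtain ⟨Tw', hTw', hNew'⟩ := ih hnd' hpr' hχ' (N₀ * q₁ * q₁) (q₁ * (N₀ * c₁) * q₁) M₁ c₁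
      hN₀' hqN' hc₁def hM₂ hM'₂ (step_hcK2 hc₁)
    refine ⟨Tw'.comp (stepMap hq₁ hc₁ (χ q₁)), fun φ hφ => ?_, fun φ hφ => ?_⟩
    · have hφ' : IsEig (q₁ * (N₀ * c₁)) (q₁ * c₁) (step_hcK1 hc₁)
          (fun g => χ q₁ ((g 0 0 : ℤ) : ZMod q₁) ^ 2 * Om χ (qs' ++ [q]) g) φ :=
        hφ.congr (fun g _ => Om_cons χ q₁ (qs' ++ [q]) g)
      have hS := stepMap_isEig hq₁ hqm hc₁ (χ q₁) (Om χ (qs' ++ [q])) hω hφ'
      obtain ⟨h1, h2, h3⟩ := hTw' _ hS
      refine ⟨?_, ?_, ?_⟩
      · intro h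
        exact stepMap_inj hq₁ hqm hc₁ (χ q₁) (Om χ (qs' ++ [q])) hω
          (hχ q₁ List.mem_cons_self) hφ' (h1 h)
      · intro ℓ hℓ hℓM hℓM'
        have hℓ2 : ¬ ℓ ∣ q₁ * (N₀ * c₁) * q₁ := fun h => hℓM' (h.trans ⟨c₁, hM'₂⟩)
        rw [LinearMap.comp_apply, h2 ℓ hℓ hℓ2 hℓM',
          stepMap_TD hq₁ hqm hc₁ (χ q₁) (Om χ (qs' ++ [q])) hω hφ' hℓ hℓM hℓ2, map_smul,
          smul_smul, chiProd_cons, mul_inv, mul_comm ((χ q₁) (ℓ : ZMod q₁))⁻¹]
        rfl
      · intro hpar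
        exact h3 (stepMap_isPar hq₁ hqm hc₁ (χ q₁) (Om χ (qs' ++ [q])) hω hφ' hpar)
    · have hφ' : IsEig (q₁ * (N₀ * c₁)) (q₁ * c₁) (step_hcK1 hc₁)
          (fun g => χ q₁ ((g 0 0 : ℤ) : ZMod q₁) ^ 2 * Om χ (qs' ++ [q]) g) φ :=
        hφ.congr (fun g _ => Om_cons χ q₁ (qs' ++ [q]) g)
      have hS := stepMap_isEig hq₁ hqm hc₁ (χ q₁) (Om χ (qs' ++ [q])) hω hφ'
      exact hNew' _ hS

omit [CharZero L] in
theorem Om_perm (χ : (q : ℕ) → MulChar (ZMod q) L) {qs qs' : List ℕ} (h : qs.Perm qs')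
    (g : SL(2, ℤ)) : Om χ qs g = Om χ qs' g := by
  unfold Om
  exact (h.map _).prod_eq

omit [CharZero L] in
theorem chiProd_perm (χ : (q : ℕ) → MulChar (ZMod q) L) {qs qs' : List ℕ} (h : qs.Perm qs')
    (ℓ : ℕ) : chiProd χ qs ℓ = chiProd χ qs' ℓ := by
  unfold chiProd
  exact (h.map _).prod_eq

/-- **PVG-B1** (Betti `q`-newness of twists).  `qs` a list of distinct primes not dividing `N`,
`c = ∏ qs`, characters `χ_q'` mod `q' ∈ qs` (`χ_q' = 1` or `χ_q'² ≠ 1`), `q ∈ qs` a prime with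
`χ_q ≠ 1`, and the level `N c² = N₁ q`.  There is a twisting map
`Tw : Hom(Γ₀(N c) ∩ Γ₁(c), L) → Hom(Γ₀(N₁ q), L)` with all the properties of
`NEB.EIG.H39.stmt_TW` (injective on the eigenspace, `TB_ℓ (Tw φ) = (∏ χ(ℓ))⁻¹ Tw (T_ℓ φ)`, parabolic
classes are preserved) such that in addition the twisted classes are **`q`-new**: they are killed
by the two transfers `S41.cor1`, `S41.cor2 : Hom(Γ₀(N₁ q), L) → Hom(Γ₀(N₁), L)`. -/
theorem stmt_TWnew (N : ℕ) (hN : N ≠ 0) (qs : List ℕ) (hnd : qs.Nodup)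
    (hpr : ∀ q' ∈ qs, q'.Prime) (hqN : ∀ q' ∈ qs, ¬ q' ∣ N)
    (χ : (q : ℕ) → MulChar (ZMod q) L)
    (hχ : ∀ q' ∈ qs, χ q' = 1 ∨ ∃ T : ℤ, ¬ (q' : ℤ) ∣ T ∧ χ q' ((T : ℤ) : ZMod q') ^ 2 ≠ 1)
    (q : ℕ) (hq : q ∈ qs) (hχq : χ q ≠ 1) (N₁ : ℕ) (hN₁ : N₁ * q = N * qs.prod * qs.prod) :
    ∃ Tw : (Additive (Gam1 (N * qs.prod) qs.prod) →+ L) →ₗ[L]
        (Additive (Gamma0 (N₁ * q)) →+ L),
      ∀ φ, IsEig (N * qs.prod) qs.prod (dvd_mul_left _ _) (Om χ qs) φ →
        (Tw φ = 0 → φ = 0) ∧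
        (∀ (ℓ : ℕ) (hℓ : ℓ.Prime) (hℓM : ¬ ℓ ∣ N * qs.prod) (hℓM' : ¬ ℓ ∣ N₁ * q),
          TB (N₁ * q) L hℓ hℓM' (Tw φ)
            = (chiProd χ qs ℓ)⁻¹ •
              Tw (TD (N * qs.prod) qs.prod (dvd_mul_left _ _) hℓ hℓM φ)) ∧
        (IsParabolicHom (Gam1 (N * qs.prod) qs.prod) φ →
          IsParabolicHom (Gamma0 (N₁ * q)) (Tw φ)) ∧
        cor1 N₁ q L (Tw φ) = 0 ∧ cor2 N₁ q L (Tw φ) = 0 := by
  classical
  have hc0 : qs.prod ≠ 0 := prod_primes_ne_zero hpr
  haveI : NeZero (N₁ * q) := ⟨by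
    rw [hN₁]; exact Nat.mul_ne_zero (Nat.mul_ne_zero hN hc0) hc0⟩
  have hperm : qs.Perm (qs.erase q ++ [q]) :=
    (List.perm_cons_erase hq).trans (List.perm_append_singleton q (qs.erase q)).symm
  have hmem : ∀ q' ∈ qs.erase q ++ [q], q' ∈ qs := fun q' h => hperm.mem_iff.mpr h
  obtain ⟨Tw, hTw, hNew⟩ := tw_exists_new χ q hχq (qs.erase q) (hperm.nodup_iff.mp hnd)
    (fun q' h => hpr q' (hmem q' h)) (fun q' h => hχ q' (hmem q' h)) N (N * qs.prod) N₁ qs.prod hN
    (fun q' h => hqN q' (hmem q' h)) hperm.prod_eq rfl hN₁ (dvd_mul_left _ _)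
  refine ⟨(resLin (Gamma0_le_Gam1_one _)).comp Tw, fun φ hφ => ?_⟩
  have hφ' : IsEig (N * qs.prod) qs.prod (dvd_mul_left _ _) (Om χ (qs.erase q ++ [q])) φ :=
    hφ.congr (fun g _ => Om_perm χ hperm g)
  obtain ⟨h1, h2, h3⟩ := hTw φ hφ'
  obtain ⟨h4, h5⟩ := hNew φ hφ'
  refine ⟨?_, ?_, ?_, h4, h5⟩
  · intro h
    apply h1
    have hz : resK (Gamma0_le_Gam1_one (N₁ * q))
        (0 : Additive (Gam1 (N₁ * q) 1) →+ L) = 0 := AddMonoidHom.zero_comp _
    exact resK_inj (Gamma0_le_Gam1_one _) (Gamma_le_Gamma0' _) (h.trans hz.symm)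
  · intro ℓ hℓ hℓM hℓM'
    rw [LinearMap.comp_apply, LinearMap.comp_apply, resLin_apply, resLin_apply,
      ← resK_TD_TB _ hℓ hℓM', h2 ℓ hℓ hℓM hℓM', resK_smul, chiProd_perm χ hperm]
  · intro hpar
    exact isPar_resK _ (h3 hpar)

end Induction

end Fermat.Agent.L.Pivot.Geom.H4

end
-- ==== END Fermat.Agent.L.Pivot.Geom.H4_B1

-- ==== BEGIN Fermat.Agent.L.Pivot.Geom.H59_TowerE
section

/-!
# PIVOT, package PV-GEOM, leaf PVG-A' (helper59): the tower with MIXED exponents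

The freeness criterion `H90.tower_basis` for commuting automorphisms `c j` of order dividing
`p ^ e j` (the exponents depend on `j`): if the layer norms are onto and the total norms
`nmTotE c (b i)` are a basis of the totally fixed elements, then the `mon c x (b i)`,
`x ∈ ∏ j, Fin (p ^ e j)`, are a basis.  Also: the kernel of the total norm on such a module.

Pure algebra; only `H90_Tower` (and through it `AbsFree`) is used.
-/

set_option autoImplicit false

namespace Fermat.Agent.L.Pivot.Geom.H59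

open Fermat.Agent.S59.TWH Fermat.Agent.S59.TWH.H90

universe u

section defs

variable {A : Type*} [CommRing A] {V : Type*} [AddCommGroup V] [Module A V]

/-- the total norm `nm (m 0) (c 0) * nm (m 1) (c 1) * …` with exponents `m j`. -/
def nmTotE {r : ℕ} (m : Fin r → ℕ) (c : Fin r → Module.End A V) : Module.End A V :=
  (List.ofFn fun j => nm (m j) (c j)).prod

theorem nmTotE_zero (m : Fin 0 → ℕ) (c : Fin 0 → Module.End A V) : nmTotE m c = 1 := by
  simp [nmTotE]

theorem nmTotE_succ {r : ℕ} (m : Fin (r + 1) → ℕ) (c : Fin (r + 1) → Module.End A V) :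
    nmTotE m c = nm (m 0) (c 0) * nmTotE (fun j => m j.succ) (fun j => c j.succ) := by
  simp [nmTotE, List.ofFn_succ]

theorem nmTotE_const (m : ℕ) {r : ℕ} (c : Fin r → Module.End A V) :
    nmTotE (fun _ => m) c = nmTot m c := rfl

theorem commute_nmTotE {r : ℕ} (m : Fin r → ℕ) (c : Fin r → Module.End A V)
    {d : Module.End A V} (h : ∀ j, Commute d (c j)) : Commute d (nmTotE m c) := by
  rw [nmTotE]
  apply Commute.list_prod_right
  intro y hy
  obtain ⟨j, rfl⟩ := (List.mem_ofFn' _ _).mp hy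
  exact (commute_nm (m j) (h j).symm).symm

end defs

section rest

variable {A : Type*} [CommRing A] {V : Type*} [AddCommGroup V] [Module A V]

variable {r : ℕ} (c : Fin (r + 1) → Module.End A V) (hcomm : ∀ i j, Commute (c i) (c j))

theorem coe_nmTotE_rst (m : Fin r → ℕ) (v : fx (c 0)) :
    ((nmTotE m (rst c hcomm) v : fx (c 0)) : V) = nmTotE m (fun j => c j.succ) v :=
  coe_list_prod (c 0) _ _ (fun j v => coe_nm_rs (m j) (c 0) (c j.succ) (hcomm 0 j.succ) v) v

theorem rst_powE (j : Fin r) {m : ℕ} (hc : c j.succ ^ m = 1) : rst c hcomm j ^ m = 1 := by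
  apply LinearMap.ext
  intro v
  apply Subtype.ext
  rw [rst, coe_rs_pow, hc]
  rfl

theorem rst_stepE {m : Fin (r + 1) → ℕ}
    (hstep : ∀ (j : Fin (r + 1)) (v : V), (∀ i, i ≤ j → c i v = v) →
        ∃ w, (∀ i, i < j → c i w = w) ∧ nm (m j) (c j) w = v)
    (j : Fin r) (v : fx (c 0)) (hv : ∀ i, i ≤ j → rst c hcomm i v = v) :
    ∃ w, (∀ i, i < j → rst c hcomm i w = w) ∧ nm (m j.succ) (rst c hcomm j) w = v := by
  obtain ⟨w, hw1, hw2⟩ := hstep j.succ (v : V) (by
    intro i hi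
    refine Fin.cases ?_ (fun i' => ?_) i hi
    · intro _
      exact mem_fx.mp v.2
    · intro hi'
      have := hv i' (Fin.succ_le_succ_iff.mp hi')
      exact congrArg Subtype.val this)
  have hw0 : w ∈ fx (c 0) := mem_fx.mpr (hw1 0 (Fin.succ_pos j))
  refine ⟨⟨w, hw0⟩, ?_, ?_⟩
  · intro i hi
    apply Subtype.ext
    rw [coe_rst]
    exact hw1 i.succ (Fin.succ_lt_succ_iff.mpr hi)
  · apply Subtype.ext
    rw [rst, coe_nm_rs]
    exact hw2

end rest

section main

variable {A : Type*} [CommRing A] {ι : Type*} [Fintype ι]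

/-- the family `c ^ x (b i)`, `x ∈ ∏ j, Fin (m j)`. -/
def famE {V : Type*} [AddCommGroup V] [Module A V] {r : ℕ} (m : Fin r → ℕ)
    (c : Fin r → Module.End A V) (b : ι → V) : ι × (∀ j : Fin r, Fin (m j)) → V :=
  fun x => mon c (fun j => (x.2 j : ℕ)) (b x.1)

theorem towerE_aux {p : ℕ} [Fact p.Prime] :
    ∀ (r : ℕ) (e : Fin r → ℕ) (V : Type u) [AddCommGroup V] [Module A V] [Finite V]
      (_ : ∀ v : V, ∃ k : ℕ, (p ^ k) • v = 0)
      (c : Fin r → Module.End A V) (_ : ∀ i j, Commute (c i) (c j))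
      (_ : ∀ j, c j ^ (p ^ e j) = 1)
      (_ : ∀ (j : Fin r) (v : V), (∀ i, i ≤ j → c i v = v) →
        ∃ w, (∀ i, i < j → c i w = w) ∧ nm (p ^ e j) (c j) w = v)
      (b : ι → V)
      (_ : LinearIndependent A (fun i => nmTotE (fun j => p ^ e j) c (b i)))
      (_ : ∀ v, (∀ j, c j v = v) →
        v ∈ Submodule.span A (Set.range fun i => nmTotE (fun j => p ^ e j) c (b i))),
      LinearIndependent A (famE (fun j => p ^ e j) c b) ∧
        Submodule.span A (Set.range (famE (fun j => p ^ e j) c b)) = ⊤ := by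
  intro r
  induction r with
  | zero =>
    intro e V _ _ _ hV c hcomm hc hstep b hli hspan
    have hfam : famE (fun j => p ^ e j) c b
        = (fun i => nmTotE (fun j => p ^ e j) c (b i)) ∘ Prod.fst := by
      funext x
      simp [famE, mon_zero, nmTotE_zero]
    constructor
    · rw [hfam]
      exact hli.comp _ (fun x y h => Prod.ext h (Subsingleton.elim _ _))
    · have hs : Function.Surjective
          (Prod.fst : ι × (∀ j : Fin 0, Fin (p ^ e j)) → ι) :=
        fun i => ⟨(i, fun j => j.elim0), rfl⟩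
      rw [hfam, Set.range_comp, hs.range_eq, Set.image_univ, eq_top_iff]
      intro v _
      exact hspan v (fun j => j.elim0)
  | succ r ih =>
    intro e V _ _ _ hV c hcomm hc hstep b hli hspan
    classical
    have hne : NeZero (p ^ e 0) := ⟨(pow_pos (Fact.out : p.Prime).pos (e 0)).ne'⟩
    have hN₀cs : ∀ j : Fin r, Commute (nm (p ^ e 0) (c 0)) (c j.succ) :=
      fun j => commute_nm _ (hcomm 0 j.succ)
    have hN₀mem : ∀ v, nm (p ^ e 0) (c 0) v ∈ fx (c 0) :=
      fun v => mem_fx.mpr (nm_fixed (hc 0) v)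
    let b' : ι → fx (c 0) := fun i => ⟨nm (p ^ e 0) (c 0) (b i), hN₀mem (b i)⟩
    -- total norm relation
    have htot : ∀ i, ((nmTotE (fun j : Fin r => p ^ e j.succ) (rst c hcomm) (b' i) :
        fx (c 0)) : V) = nmTotE (fun j => p ^ e j) c (b i) := by
      intro i
      rw [coe_nmTotE_rst, nmTotE_succ, Module.End.mul_apply]
      have := (commute_nmTotE (fun j : Fin r => p ^ e j.succ) (fun j : Fin r => c j.succ)
        hN₀cs).eq
      exact (congrArg (fun f : Module.End A V => f (b i)) this).symm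
    have hli' : LinearIndependent A
        (fun i => nmTotE (fun j : Fin r => p ^ e j.succ) (rst c hcomm) (b' i)) := by
      apply LinearIndependent.of_comp (fx (c 0)).subtype
      have : (fx (c 0)).subtype ∘
          (fun i => nmTotE (fun j : Fin r => p ^ e j.succ) (rst c hcomm) (b' i))
          = fun i => nmTotE (fun j => p ^ e j) c (b i) := by
        funext i
        exact htot i
      rw [this]
      exact hli
    have hspan' : ∀ v : fx (c 0), (∀ j, rst c hcomm j v = v) →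
        v ∈ Submodule.span A
          (Set.range fun i => nmTotE (fun j : Fin r => p ^ e j.succ) (rst c hcomm) (b' i)) := by
      intro v hv
      have h1 : (v : V) ∈ Submodule.span A
          (Set.range fun i => nmTotE (fun j => p ^ e j) c (b i)) := by
        apply hspan
        intro j
        refine Fin.cases ?_ (fun j' => ?_) j
        · exact mem_fx.mp v.2
        · exact congrArg Subtype.val (hv j')
      have h2 : (Set.range fun i => nmTotE (fun j => p ^ e j) c (b i))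
          = (fx (c 0)).subtype ''
            (Set.range fun i => nmTotE (fun j : Fin r => p ^ e j.succ) (rst c hcomm) (b' i)) := by
        rw [← Set.range_comp]
        congr 1
        funext i
        exact (htot i).symm
      rw [h2, ← Submodule.map_span] at h1
      obtain ⟨y, hy, hyv⟩ := h1
      have : y = v := Subtype.ext hyv
      rw [← this]
      exact hy
    have hV' : ∀ v : fx (c 0), ∃ k : ℕ, (p ^ k) • v = 0 := by
      intro v
      obtain ⟨k, hk⟩ := hV (v : V)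
      exact ⟨k, Subtype.ext (by simpa using hk)⟩
    obtain ⟨hLI, hSP⟩ := ih (fun j => e j.succ) (fx (c 0)) hV' (rst c hcomm)
      (rst_commute c hcomm) (fun j => rst_powE c hcomm j (hc j.succ))
      (rst_stepE c hcomm (m := fun j => p ^ e j) hstep) b' hli' hspan'
    let e' : Module.Basis (ι × (∀ j : Fin r, Fin (p ^ e j.succ))) A (fx (c 0)) :=
      Module.Basis.mk hLI hSP.ge
    have he' : ∀ x, e' x = famE (fun j : Fin r => p ^ e j.succ) (rst c hcomm) b' x := fun x => by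
      simp [e']
    let πd : V →ₗ[A] fx (c 0) := (nm (p ^ e 0) (c 0)).codRestrict (fx (c 0)) hN₀mem
    let w : ι × (∀ j : Fin r, Fin (p ^ e j.succ)) → V :=
      famE (fun j : Fin r => p ^ e j.succ) (fun j : Fin r => c j.succ) b
    have hbij := sumMap_bijective hV (c 0) (e 0) (hc 0) πd (fx (c 0)).subtype
      (fun v => by
        show nm (p ^ e 0) (c 0) v = _
        rw [nm_apply])
      (Submodule.injective_subtype _)
      (fun y => by
        obtain ⟨w, -, hw⟩ := hstep 0 (y : V) (fun i hi => by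
          have : i = 0 := Fin.le_zero_iff.mp hi
          rw [this]
          exact mem_fx.mp y.2)
        exact ⟨w, Subtype.ext hw⟩)
      (fun v hv => ⟨⟨v, mem_fx.mpr hv⟩, rfl⟩)
      e' w (fun x => by
        apply Subtype.ext
        rw [he']
        show nm (p ^ e 0) (c 0)
          (famE (fun j : Fin r => p ^ e j.succ) (fun j : Fin r => c j.succ) b x) = _
        rw [famE, famE, coe_mon_rst]
        have := (commute_mon (fun j : Fin r => c j.succ) (fun j => (x.2 j : ℕ)) hN₀cs).eq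
        exact congrArg (fun f : Module.End A V => f (b x.1)) this)
    let G : (ι × (∀ j : Fin r, Fin (p ^ e j.succ))) × ZMod (p ^ e 0) → V :=
      fun x => (c 0 ^ x.2.val) (w x.1)
    have hGli : LinearIndependent A G := by
      rw [Fintype.linearIndependent_iff]
      intro g hg i
      have : sumMap (p ^ e 0) (c 0) w g = sumMap (p ^ e 0) (c 0) w 0 := by
        rw [sumMap_apply, map_zero]
        exact hg
      exact congrFun (hbij.1 this) i
    have hGsp : Submodule.span A (Set.range G) = ⊤ := by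
      rw [eq_top_iff]
      intro v _
      obtain ⟨f, rfl⟩ := hbij.2 v
      rw [sumMap_apply]
      exact Submodule.sum_mem _ fun x _ =>
        Submodule.smul_mem _ _ (Submodule.subset_span ⟨x, rfl⟩)
    let φ : ι × (∀ j : Fin (r + 1), Fin (p ^ e j)) →
        (ι × (∀ j : Fin r, Fin (p ^ e j.succ))) × ZMod (p ^ e 0) :=
      fun x => ((x.1, fun j => x.2 j.succ), ((x.2 0 : ℕ) : ZMod (p ^ e 0)))
    have hφinj : Function.Injective φ := by
      rintro ⟨i, y⟩ ⟨i', y'⟩ h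
      simp only [φ, Prod.mk.injEq] at h
      obtain ⟨⟨h1, h2⟩, h3⟩ := h
      have h4 : ((y 0 : ℕ) : ZMod (p ^ e 0)).val = ((y' 0 : ℕ) : ZMod (p ^ e 0)).val := by
        rw [h3]
      rw [ZMod.val_natCast_of_lt (y 0).2, ZMod.val_natCast_of_lt (y' 0).2] at h4
      refine Prod.ext h1 ?_
      funext j
      refine Fin.cases ?_ (fun j' => ?_) j
      · exact Fin.ext h4
      · exact congrFun h2 j'
    have hφsurj : Function.Surjective φ := by
      rintro ⟨⟨i, x⟩, z⟩
      refine ⟨(i, Fin.cons (α := fun j : Fin (r + 1) => Fin (p ^ e j))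
        ⟨z.val, ZMod.val_lt z⟩ x), ?_⟩
      simp only [φ, Fin.cons_succ, Fin.cons_zero, ZMod.natCast_zmod_val]
    have hfam : famE (fun j => p ^ e j) c b = G ∘ φ := by
      funext x
      show mon c _ (b x.1) = (c 0 ^ ((x.2 0 : ℕ) : ZMod (p ^ e 0)).val)
        (mon (fun j : Fin r => c j.succ) _ (b x.1))
      rw [mon_succ, Module.End.mul_apply, ZMod.val_natCast_of_lt (x.2 0).2]
    constructor
    · rw [hfam]
      exact hGli.comp φ hφinj
    · rw [hfam, Set.range_comp, hφsurj.range_eq, Set.image_univ]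
      exact hGsp

/-- the total norm is onto the totally fixed elements (mixed exponents). -/
theorem exists_nmTotE_eq :
    ∀ (r : ℕ) (m : Fin r → ℕ) (V : Type u) [AddCommGroup V] [Module A V]
      (c : Fin r → Module.End A V) (_ : ∀ i j, Commute (c i) (c j))
      (_ : ∀ (j : Fin r) (v : V), (∀ i, i ≤ j → c i v = v) →
        ∃ w, (∀ i, i < j → c i w = w) ∧ nm (m j) (c j) w = v)
      (v : V) (_ : ∀ j, c j v = v), ∃ w, nmTotE m c w = v := by
  intro r
  induction r with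
  | zero =>
    intro m V _ _ c _ _ v _
    exact ⟨v, by rw [nmTotE_zero]; rfl⟩
  | succ r ih =>
    intro m V _ _ c hcomm hstep v hv
    have hv0 : v ∈ fx (c 0) := mem_fx.mpr (hv 0)
    obtain ⟨w', hw'⟩ := ih (fun j => m j.succ) (fx (c 0)) (rst c hcomm) (rst_commute c hcomm)
      (rst_stepE c hcomm hstep) ⟨v, hv0⟩ (fun j => Subtype.ext (hv j.succ))
    obtain ⟨w, -, hw⟩ := hstep 0 (w' : V) (fun i hi => by
      have : i = 0 := Fin.le_zero_iff.mp hi
      rw [this]
      exact mem_fx.mp w'.2)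
    refine ⟨w, ?_⟩
    have h1 := congrArg Subtype.val hw'
    rw [coe_nmTotE_rst] at h1
    rw [nmTotE_succ, Module.End.mul_apply]
    have h2 := (commute_nmTotE (fun j : Fin r => m j.succ) (fun j : Fin r => c j.succ)
      (fun j => commute_nm (m 0) (hcomm 0 j.succ))).eq
    have h3 := congrArg (fun f : Module.End A V => f w) h2
    simp only [Module.End.mul_apply] at h3
    rw [h3, hw]
    exact h1

/-- **TOWER with mixed exponents, for given lifts.**  If `b i` has total norm `e i`, then the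
`c ^ x (b i)` form an `A`-basis of `V`. -/
theorem towerE_basis_of_lift {p : ℕ} [Fact p.Prime] (r : ℕ) (e : Fin r → ℕ)
    {V : Type u} [AddCommGroup V] [Module A V] [Finite V]
    (hV : ∀ v : V, ∃ k : ℕ, (p ^ k) • v = 0)
    (c : Fin r → Module.End A V) (hcomm : ∀ i j, Commute (c i) (c j))
    (hc : ∀ j, c j ^ (p ^ e j) = 1)
    (hstep : ∀ (j : Fin r) (v : V), (∀ i, i ≤ j → c i v = v) →
        ∃ w, (∀ i, i < j → c i w = w) ∧ nm (p ^ e j) (c j) w = v)
    (ε : ι → V) (he_li : LinearIndependent A ε)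
    (he_span : ∀ v, (∀ j, c j v = v) → v ∈ Submodule.span A (Set.range ε))
    (b : ι → V) (hb : ∀ i, nmTotE (fun j => p ^ e j) c (b i) = ε i) :
    LinearIndependent A (famE (fun j => p ^ e j) c b) ∧
      Submodule.span A (Set.range (famE (fun j => p ^ e j) c b)) = ⊤ ∧
      Function.Bijective
        (fun f : ι × (∀ j : Fin r, Fin (p ^ e j)) → A =>
          ∑ x, f x • famE (fun j => p ^ e j) c b x) := by
  have he : (fun i => nmTotE (fun j => p ^ e j) c (b i)) = ε := funext hb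
  obtain ⟨h1, h2⟩ := towerE_aux r e V hV c hcomm hc hstep b (by rw [he]; exact he_li)
    (by rw [he]; exact he_span)
  exact ⟨h1, h2, bijective_sum_of_li_span _ h1 h2⟩

end main

end Fermat.Agent.L.Pivot.Geom.H59

end
-- ==== END Fermat.Agent.L.Pivot.Geom.H59_TowerE

-- ==== BEGIN Fermat.Agent.L.Pivot.H3_Abs
section

set_option autoImplicit false
set_option linter.style.haveILetI false
set_option linter.unusedSectionVars false

namespace Fermat.Agent.L.Pivot.H3

open MvPowerSeries Fermat.Agent.L.Pivot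

section Abs

variable {𝒪 : Type} [CommRing 𝒪] [IsDomain 𝒪] [IsLocalRing 𝒪]
  {r h : ℕ} {T : Type} [CommRing T] [Algebra 𝒪 T]
  {M : Type} [AddCommGroup M] [Module T M]
  {ϖ : 𝒪} {I1 Iχ 𝔵 : Ideal (MvPowerSeries (Fin h) 𝒪)} {Ξ : Ideal T} {d : ℕ}

/-- The augmentation ideal of `𝒪⟦s₁..s_r⟧` is prime. -/
theorem span_range_X_isPrime :
    (Ideal.span (Set.range fun i : Fin r => (X i : MvPowerSeries (Fin r) 𝒪))).IsPrime := by
  have h : Ideal.span (Set.range fun i : Fin r => (X i : MvPowerSeries (Fin r) 𝒪)) =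
      RingHom.ker (constantCoeff : MvPowerSeries (Fin r) 𝒪 →+* 𝒪) := by
    ext f
    rw [Fermat.Agent.S59.Patch.mem_span_range_X_iff, RingHom.mem_ker]
  rw [h]
  exact RingHom.ker_isPrime _

/-- Abstract form: a finite module with generators `b`, free over `S` through `φ`. -/
theorem torsionFree_of_rel {S P N : Type*} [CommRing S] [IsDomain S] [CommRing P]
    [AddCommGroup N] [Module P N] (φ : S →+* P) {d : ℕ} (b : Fin d → N)
    (hspan : ∀ x : N, ∃ c : Fin d → S, x = ∑ i, φ (c i) • b i)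
    (hrel : ∀ c : Fin d → S, ∑ i, φ (c i) • b i = 0 ↔ ∀ i, c i ∈ (⊥ : Ideal S))
    (s : S) (x : N) (hsx : φ s • x = 0) : s = 0 ∨ x = 0 := by
  obtain ⟨c, rfl⟩ := hspan x
  by_cases hs : s = 0
  · exact Or.inl hs
  · right
    have h1 : ∑ i, φ (s * c i) • b i = 0 := by
      rw [← hsx, Finset.smul_sum]
      refine Finset.sum_congr rfl fun i _ => ?_
      rw [map_mul, mul_smul]
    have h2 := (hrel _).1 h1
    rw [(hrel c)]
    intro i
    have h3 := h2 i
    rw [Ideal.mem_bot] at h3 ⊢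
    exact (mul_eq_zero.1 h3).resolve_left hs

/-- **PV-ABS.** -/
theorem pivot_abs [Nontrivial M] (hϖ : ϖ ≠ 0)
    (L : PivotLevel 𝒪 r h T M ϖ I1 Iχ 𝔵 Ξ ⊥ d)
    (hdimS : ((r + 1 : ℕ) : WithBot ℕ∞) ≤ ringKrullDim (MvPowerSeries (Fin r) 𝒪))
    {ι : Type*} (t : Finset ι) (𝔞 : ι → Ideal (MvPowerSeries (Fin h) 𝒪))
    (h𝔞prime : ∀ i ∈ t, (𝔞 i).IsPrime) (h𝔞 : t.inf 𝔞 ≤ Iχ)
    (h𝔞dim : ∀ i ∈ t, ringKrullDim (MvPowerSeries (Fin h) 𝒪 ⧸ 𝔞 i) ≤ ((r + 1 : ℕ) : WithBot ℕ∞))
    (𝔮 : Ideal (MvPowerSeries (Fin h) 𝒪)) [𝔮.IsPrime]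
    (h𝔞𝔮 : ∀ i ∈ t, 𝔞 i ≤ 𝔮) (hϖ𝔮 : (C ϖ : MvPowerSeries (Fin h) 𝒪) ∈ 𝔮)
    (hdich : ∀ 𝔭 : Ideal (MvPowerSeries (Fin h) 𝒪), 𝔭.IsPrime → I1 ≤ 𝔭 → 𝔭 ≤ 𝔮 → 𝔵 ≤ 𝔭) :
    ∃ 𝔱 : Ideal T, 𝔱.IsPrime ∧ Module.annihilator T M ≤ 𝔱 ∧ algebraMap 𝒪 T ϖ ∉ 𝔱 ∧ Ξ ≤ 𝔱 := by
  classical
  -- notation
  let S := MvPowerSeries (Fin r) 𝒪
  let P := MvPowerSeries (Fin h) 𝒪
  letI algSP : Algebra S P := (L.φ : S →+* P).toAlgebra
  have halg : ∀ s : S, algebraMap S P s = L.φ s := fun s => rfl
  letI mod1 : Module S L.N1 := Module.compHom L.N1 (L.φ : S →+* P)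
  letI modχ : Module S L.Nχ := Module.compHom L.Nχ (L.φ : S →+* P)
  have hsm1 : ∀ (s : S) (x : L.N1), s • x = L.φ s • x := fun s x => rfl
  have hsmχ : ∀ (s : S) (x : L.Nχ), s • x = L.φ s • x := fun s x => rfl
  haveI tow1 : IsScalarTower S P L.N1 := ⟨fun s f x => by
    rw [hsm1, Algebra.smul_def, halg, mul_smul]⟩
  haveI towχ : IsScalarTower S P L.Nχ := ⟨fun s f x => by
    rw [hsmχ, Algebra.smul_def, halg, mul_smul]⟩
  -- finiteness
  haveI fin1 : Module.Finite S L.N1 := by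
    refine Module.Finite.of_surjective (Fintype.linearCombination S L.b1) ?_
    intro x
    obtain ⟨c, hc⟩ := L.b1_span x
    refine ⟨c, ?_⟩
    rw [Fintype.linearCombination_apply, hc]
    rfl
  haveI finχ : Module.Finite S L.Nχ := by
    refine Module.Finite.of_surjective (Fintype.linearCombination S L.bχ) ?_
    intro x
    obtain ⟨c, hc⟩ := L.bχ_span x
    refine ⟨c, ?_⟩
    rw [Fintype.linearCombination_apply, hc]
    rfl
  -- torsion-freeness
  haveI domS : IsDomain (MvPowerSeries (Fin r) 𝒪) := NoZeroDivisors.to_isDomain _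
  have htf1 : ∀ (s : S) (m : L.N1), s • m = 0 → s = 0 ∨ m = 0 := fun s m hsm =>
    torsionFree_of_rel (L.φ : S →+* P) L.b1 L.b1_span L.b1_rel s m hsm
  have htfχ : ∀ (s : S) (m : L.Nχ), s • m = 0 → s = 0 ∨ m = 0 := fun s m hsm =>
    torsionFree_of_rel (L.φ : S →+* P) L.bχ L.bχ_span L.bχ_rel s m hsm
  -- `d ≠ 0` and `Nχ ≠ 0`
  have hd : 0 < d := by
    rcases Nat.eq_zero_or_pos d with h0 | h0
    · exfalso
      subst h0
      obtain ⟨x, hx⟩ := exists_ne (0 : M)
      obtain ⟨y, rfl⟩ := L.π_surjective x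
      obtain ⟨c, hc⟩ := L.b1_span y
      apply hx
      rw [hc]
      simp
    · exact h0
  haveI ntχ : Nontrivial L.Nχ := by
    refine ⟨⟨L.bχ ⟨0, hd⟩, 0, fun h0 => ?_⟩⟩
    have h1 : ∑ i, L.φ ((Pi.single (⟨0, hd⟩ : Fin d) (1 : S) : Fin d → S) i) • L.bχ i = 0 := by
      rw [Finset.sum_eq_single (⟨0, hd⟩ : Fin d)]
      · rw [Pi.single_eq_same, map_one, one_smul, h0]
      · intro i _ hi
        rw [Pi.single_eq_of_ne hi, map_zero, zero_smul]
      · intro hi
        exact absurd (Finset.mem_univ _) hi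
    have h2 := (L.bχ_rel _).1 h1 ⟨0, hd⟩
    rw [Pi.single_eq_same, Ideal.mem_bot] at h2
    exact one_ne_zero h2
  -- the augmentation ideal
  let 𝔰 : Ideal S := Ideal.span (Set.range fun i : Fin r => (X i : MvPowerSeries (Fin r) 𝒪))
  haveI h𝔰 : 𝔰.IsPrime := span_range_X_isPrime
  -- `ϖ`
  have hCϖ : algebraMap S P (C ϖ : S) = (C ϖ : P) := by
    rw [halg]
    have h1 : (C ϖ : S) = algebraMap 𝒪 S ϖ := by
      rw [MvPowerSeries.algebraMap_apply, Algebra.algebraMap_self, RingHom.id_apply]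
    have h2 : (C ϖ : P) = algebraMap 𝒪 P ϖ := by
      rw [MvPowerSeries.algebraMap_apply, Algebra.algebraMap_self, RingHom.id_apply]
    rw [h1, h2]
    exact L.φ.commutes ϖ
  -- comparison modulo `ϖ`
  have hcomp : Module.annihilator P
      (L.N1 ⧸ (Ideal.span {algebraMap S P (C ϖ : S)} • ⊤ : Submodule P L.N1)) ≤
      Module.annihilator P
        (L.Nχ ⧸ (Ideal.span {algebraMap S P (C ϖ : S)} • ⊤ : Submodule P L.Nχ)) := by
    rw [hCϖ]
    intro f hf
    rw [Module.mem_annihilator] at hf ⊢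
    have hb : ∀ i : Fin d, f • L.bχ i ∈
        (Ideal.span {(C ϖ : P)} • ⊤ : Submodule P L.Nχ) := by
      intro i
      have h1 := hf (Submodule.Quotient.mk (L.b1 i))
      rw [← Submodule.Quotient.mk_smul, Submodule.Quotient.mk_eq_zero] at h1
      have h2 : ∑ j, (Pi.single i f : Fin d → P) j • L.b1 j = f • L.b1 i := by
        rw [Finset.sum_eq_single i]
        · rw [Pi.single_eq_same]
        · intro j _ hj
          rw [Pi.single_eq_of_ne hj, zero_smul]
        · intro hi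
          exact absurd (Finset.mem_univ _) hi
      have h3 : ∑ j, (Pi.single i f : Fin d → P) j • L.bχ j = f • L.bχ i := by
        rw [Finset.sum_eq_single i]
        · rw [Pi.single_eq_same]
        · intro j _ hj
          rw [Pi.single_eq_of_ne hj, zero_smul]
        · intro hi
          exact absurd (Finset.mem_univ _) hi
      rw [← h3]
      refine (L.cmp _).1 ?_
      rw [h2]
      exact h1
    intro y
    obtain ⟨x, rfl⟩ := Submodule.Quotient.mk_surjective _ y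
    rw [← Submodule.Quotient.mk_smul, Submodule.Quotient.mk_eq_zero]
    obtain ⟨c, rfl⟩ := L.bχ_span x
    rw [Finset.smul_sum]
    refine Submodule.sum_mem _ fun i _ => ?_
    rw [smul_comm]
    exact Submodule.smul_mem _ _ (hb i)
  -- the relations
  have hχ : t.inf 𝔞 ≤ Module.annihilator P L.Nχ := by
    intro f hf
    rw [Module.mem_annihilator]
    exact L.relχ f (h𝔞 hf)
  have h1 : I1 ≤ Module.annihilator P L.N1 := by
    intro f hf
    rw [Module.mem_annihilator]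
    exact L.rel1 f hf
  have hϖ𝔮' : algebraMap S P (C ϖ : S) ∈ 𝔮 := by rw [hCϖ]; exact hϖ𝔮
  -- the endgame
  obtain ⟨𝔯, h𝔯prime, hA𝔯, h𝔵𝔯, h𝔯𝔰⟩ := pivot_endgame_multi' (S := S) (P := P)
    (Mχ := L.Nχ) (M₁ := L.N1) htfχ htf1 (C ϖ : S) 𝔰 (r + 1) hdimS t 𝔞 h𝔞prime hχ h𝔞dim hcomp
    𝔮 𝔵 h𝔞𝔮 hϖ𝔮' (fun 𝔭 h𝔭 hA hle => hdich 𝔭 h𝔭 (h1.trans hA) hle)
  -- descent to `T`
  haveI finP : Module.Finite P L.N1 := Module.Finite.of_restrictScalars_finite S P L.N1
  let 𝔖 : Ideal P := Ideal.span (Set.range fun i : Fin r => L.φ (X i))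
  have h𝔖𝔯 : 𝔖 ≤ 𝔯 := by
    rw [Ideal.span_le]
    rintro _ ⟨i, rfl⟩
    have h2 : (X i : S) ∈ 𝔯.comap (algebraMap S P) := by
      rw [h𝔯𝔰]
      exact Ideal.subset_span ⟨i, rfl⟩
    exact h2
  have hsupp : (⟨𝔯, h𝔯prime⟩ : PrimeSpectrum P) ∈
      Module.support P (L.N1 ⧸ (𝔖 • ⊤ : Submodule P L.N1)) := by
    rw [Module.support_quotient]
    refine ⟨?_, ?_⟩
    · rw [Module.support_eq_zeroLocus, PrimeSpectrum.mem_zeroLocus]
      exact hA𝔯
    · rw [PrimeSpectrum.mem_zeroLocus]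
      exact h𝔖𝔯
  have hkey : ∀ f : P, (∀ x : L.N1, L.π (f • x) = 0) → f ∈ 𝔯 := by
    intro f hf
    rw [Module.support_eq_zeroLocus, PrimeSpectrum.mem_zeroLocus] at hsupp
    apply hsupp
    rw [SetLike.mem_coe, Module.mem_annihilator]
    intro y
    obtain ⟨x, rfl⟩ := Submodule.Quotient.mk_surjective _ y
    rw [← Submodule.Quotient.mk_smul, Submodule.Quotient.mk_eq_zero]
    exact (L.ker_π _).1 (hf x)
  have hker : RingHom.ker (L.ψ : P →+* T) ≤ 𝔯 := by
    intro f hf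
    apply hkey
    intro x
    rw [L.π_smul]
    have : L.ψ f = 0 := hf
    rw [this, zero_smul]
  have hψs : Function.Surjective (L.ψ : P →+* T) := L.ψ_surjective
  refine ⟨Ideal.map (L.ψ : P →+* T) 𝔯, Ideal.map_isPrime_of_surjective hψs hker, ?_, ?_, ?_⟩
  · intro τ hτ
    obtain ⟨f, rfl⟩ := hψs τ
    refine Ideal.mem_map_of_mem _ (hkey f fun x => ?_)
    rw [L.π_smul]
    exact Module.mem_annihilator.1 hτ _
  · intro hmem
    have h2 : algebraMap 𝒪 T ϖ = (L.ψ : P →+* T) (C ϖ : P) := by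
      have h3 : (C ϖ : P) = algebraMap 𝒪 P ϖ := by
        rw [MvPowerSeries.algebraMap_apply, Algebra.algebraMap_self, RingHom.id_apply]
      rw [h3]
      exact (L.ψ.commutes ϖ).symm
    rw [h2, Ideal.mem_map_iff_of_surjective _ hψs] at hmem
    obtain ⟨g, hg, hgϖ⟩ := hmem
    have h3 : (C ϖ : P) - g ∈ 𝔯 := hker (by
      rw [RingHom.mem_ker, map_sub, hgϖ, sub_self])
    have h4 : (C ϖ : P) ∈ 𝔯 := by
      have := 𝔯.add_mem h3 hg
      rwa [sub_add_cancel] at this
    have h5 : (C ϖ : S) ∈ 𝔯.comap (algebraMap S P) := by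
      rw [Ideal.mem_comap, hCϖ]
      exact h4
    rw [h𝔯𝔰] at h5
    have h6 := (Fermat.Agent.S59.Patch.mem_span_range_X_iff (C ϖ : S)).1 h5
    rw [constantCoeff_C] at h6
    exact hϖ h6
  · exact L.Ξ_le.trans (Ideal.map_mono h𝔵𝔯)

end Abs

section Assemble

/-- **PIVOT, abstract form.**  From the local algebra (PV-LOC), patching (PV-PATCH) and the
levels of the patching datum (the global input: PV-GAL + PV-HECKE + PV-NU): a prime `𝔱` of the
Hecke ring `T` of unipotent type at level `∅`, in the support of `M`, of characteristic zero,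
containing `Ξ` (the entries of `ρ(σ) − 1`, `σ` in the inertia groups at the pivot primes).

`t` = the finite set of types `δ = (ζ_j − ζ_j⁻¹)_j` that may occur in the ramified module. -/
theorem pivot_of_levels (hType : Stmt_PVLoc_type) (hUnr : Stmt_PVLoc_unr)
    (hDim : Stmt_PVLoc_dimS) (hPatch : Stmt_PVPatch)
    {𝒪 : Type} [CommRing 𝒪] [IsDomain 𝒪] [IsDiscreteValuationRing 𝒪]
    [IsAdicComplete (IsLocalRing.maximalIdeal 𝒪) 𝒪] [Finite (IsLocalRing.ResidueField 𝒪)]
    {p : ℕ} (hp : (p : 𝒪) ∈ IsLocalRing.maximalIdeal 𝒪)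
    {k g r : ℕ} (hr : r + 1 = 1 + 3 * k + g)
    {T : Type} [CommRing T] [IsLocalRing T] [IsNoetherianRing T]
    [IsAdicComplete (IsLocalRing.maximalIdeal T) T] [Algebra 𝒪 T]
    [IsLocalHom (algebraMap 𝒪 T)]
    (hres : Function.Surjective (IsLocalRing.residue T ∘ algebraMap 𝒪 T))
    {M : Type} [AddCommGroup M] [Module T M] [Nontrivial M]
    {ϖ : 𝒪} (hϖ : IsLocalRing.maximalIdeal 𝒪 = Ideal.span {ϖ}) (h2 : IsUnit (2 : 𝒪))
    (q₀ : Fin k → 𝒪) (hq₀ : ∀ j, q₀ j - 1 ∈ IsLocalRing.maximalIdeal 𝒪)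
    (t : Finset (Fin k → 𝒪)) (ht0 : ∀ δ ∈ t, ∀ j, δ j ≠ 0)
    (htm : ∀ δ ∈ t, ∀ j, δ j ∈ IsLocalRing.maximalIdeal 𝒪)
    (Ξ : Ideal T) (d : ℕ)
    (levels : ∀ 𝔞 : (Fin k → 𝒪) → Ideal (PRing 𝒪 k g), (∀ δ ∈ t, KilledByType g δ (𝔞 δ)) →
      ∀ n : ℕ, Nonempty (PivotLevel 𝒪 r (6 * k + g) T M ϖ (idealUnip g q₀) (t.inf 𝔞)
        (idealX 𝒪 k g) Ξ (twIdealP 𝒪 r p n) d)) :
    ∃ 𝔱 : Ideal T, 𝔱.IsPrime ∧ Module.annihilator T M ≤ 𝔱 ∧ algebraMap 𝒪 T ϖ ∉ 𝔱 ∧ Ξ ≤ 𝔱 := by
  classical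
  have hϖ0 : ϖ ≠ 0 := by
    rintro rfl
    have h1 : IsLocalRing.maximalIdeal 𝒪 = ⊥ := by
      rw [hϖ, Ideal.span_singleton_eq_bot]
    exact IsDiscreteValuationRing.not_a_field 𝒪 h1
  -- the local ideals
  have hex : ∀ δ : Fin k → 𝒪, ∃ 𝔞 : Ideal (PRing 𝒪 k g), δ ∈ t → (𝔞.IsPrime ∧
      ringKrullDim (PRing 𝒪 k g ⧸ 𝔞) ≤ ((1 + 3 * k + g : ℕ) : WithBot ℕ∞) ∧
      𝔞 ≤ idealQ k g ϖ ∧ KilledByType g δ 𝔞) := by
    intro δ
    by_cases hδ : δ ∈ t
    · obtain ⟨𝔞, h⟩ := hType 𝒪 k g ϖ δ h2 hϖ (ht0 δ hδ) (htm δ hδ)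
      exact ⟨𝔞, fun _ => h⟩
    · exact ⟨⊥, fun h => absurd h hδ⟩
  choose 𝔞 h𝔞 using hex
  obtain ⟨hQprime, he⟩ := hUnr 𝒪 k g ϖ q₀ h2 hϖ hq₀
  obtain ⟨L⟩ := hPatch 𝒪 p hp r (6 * k + g) T hres M ϖ (idealUnip g q₀) (t.inf 𝔞)
    (idealX 𝒪 k g) Ξ d (levels 𝔞 fun δ hδ => (h𝔞 δ hδ).2.2.2)
  haveI := hQprime
  refine pivot_abs hϖ0 L (hDim 𝒪 r) t 𝔞 (fun δ hδ => (h𝔞 δ hδ).1) le_rfl
    (fun δ hδ => ?_) (idealQ k g ϖ) (fun δ hδ => (h𝔞 δ hδ).2.2.1) ?_ ?_
  · rw [hr]
    exact (h𝔞 δ hδ).2.1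
  · exact Ideal.mem_sup_right (Ideal.subset_span rfl)
  · intro 𝔭 h𝔭 hI hle
    refine dich_of_rel (fun x : Fin k × Fin 3 => eElt g q₀ x.1) (sigmaCoord 𝒪 g) le_rfl
      (fun x => Ideal.subset_span (Set.mem_range_self x)) (fun x => he x.1) 𝔭 h𝔭 hI hle

end Assemble

end Fermat.Agent.L.Pivot.H3

end
-- ==== END Fermat.Agent.L.Pivot.H3_Abs

-- ==== BEGIN Fermat.Agent.L.Pivot.H52_TPQPrime
section

set_option autoImplicit false
set_option linter.style.haveILetI false
set_option linter.unusedSectionVars false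

namespace Fermat.Agent.L.Pivot.H52

open Polynomial

section PolySide

variable {B : Type*} [CommRing B] [IsDomain B]

/-- The polynomial `X² − D`. -/
noncomputable def quadPoly (D : B) : B[X] := X ^ 2 - C D

theorem quadPoly_monic (D : B) : (quadPoly D).Monic := monic_X_pow_sub_C D two_ne_zero

theorem quadPoly_natDegree (D : B) : (quadPoly D).natDegree = 2 := natDegree_X_pow_sub_C

theorem quadPoly_irreducible_map {D : B} (ha : Aniso D) :
    Irreducible ((quadPoly D).map (algebraMap B (FractionRing B))) := by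
  have h1 : (quadPoly D).map (algebraMap B (FractionRing B)) =
      X ^ 2 - C (algebraMap B (FractionRing B) D) := by
    simp [quadPoly]
  rw [h1]
  refine X_pow_sub_C_irreducible_of_prime Nat.prime_two fun r hr => ?_
  obtain ⟨p, q, hq, rfl⟩ := IsFractionRing.div_surjective (A := B) r
  have hq0 : algebraMap B (FractionRing B) q ≠ 0 := by
    intro h
    have : q = 0 := (IsFractionRing.injective B (FractionRing B)) (by rw [h, map_zero])
    exact (nonZeroDivisors.ne_zero hq) this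
  have h2 : algebraMap B (FractionRing B) (p ^ 2) = algebraMap B (FractionRing B) (q ^ 2 * D) := by
    rw [map_mul, map_pow, map_pow, ← hr]
    field_simp
  have h3 := IsFractionRing.injective B (FractionRing B) h2
  exact (nonZeroDivisors.ne_zero hq) (ha p q h3)

theorem quadPoly_dvd_of_map_dvd (D : B) (f : B[X])
    (h : (quadPoly D).map (algebraMap B (FractionRing B)) ∣ f.map (algebraMap B (FractionRing B))) :
    quadPoly D ∣ f := by
  have hm := quadPoly_monic D
  rw [← modByMonic_eq_zero_iff_dvd hm]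
  have h1 : (f %ₘ quadPoly D).map (algebraMap B (FractionRing B)) = 0 := by
    rw [map_modByMonic _ hm, modByMonic_eq_zero_iff_dvd (hm.map _)]
    exact h
  exact (Polynomial.map_injective _ (IsFractionRing.injective B (FractionRing B)))
    (by rw [h1, Polynomial.map_zero])

theorem span_quadPoly_isPrime {D : B} (ha : Aniso D) :
    (Ideal.span {quadPoly D}).IsPrime := by
  have hirr := quadPoly_irreducible_map ha
  have hp : (Ideal.span {(quadPoly D).map (algebraMap B (FractionRing B))}).IsPrime :=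
    (Ideal.span_singleton_prime hirr.ne_zero).2 hirr.prime
  have he : Ideal.span {quadPoly D} =
      Ideal.comap (mapRingHom (algebraMap B (FractionRing B)))
        (Ideal.span {(quadPoly D).map (algebraMap B (FractionRing B))}) := by
    ext f
    rw [Ideal.mem_comap, Ideal.mem_span_singleton, Ideal.mem_span_singleton, coe_mapRingHom]
    constructor
    · intro h
      exact Polynomial.map_dvd _ h
    · exact quadPoly_dvd_of_map_dvd D f
  rw [he]
  exact Ideal.comap_isPrime _ _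

theorem C_mem_span_quadPoly {D : B} {b : B} (h : C b ∈ Ideal.span {quadPoly D}) : b = 0 := by
  rw [Ideal.mem_span_singleton] at h
  by_contra hb
  have h1 := natDegree_le_of_dvd h (by simpa using hb)
  rw [quadPoly_natDegree, natDegree_C] at h1
  omega

end PolySide

section SeriesSide

variable {B : Type*} [CommRing B] [IsDomain B] (I : Ideal B) [IsAdicComplete I B]

theorem quadPoly_isDistinguishedAt {D : B} (hD : D ∈ I) : (quadPoly D).IsDistinguishedAt I := by
  refine ⟨⟨fun {n} hn => ?_⟩, quadPoly_monic D⟩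
  rw [quadPoly_natDegree] at hn
  rw [quadPoly, coeff_sub, coeff_X_pow, coeff_C]
  interval_cases n
  · simpa using hD
  · simp

theorem coe_quadPoly (D : B) :
    ((quadPoly D : B[X]) : PowerSeries B) = PowerSeries.X ^ 2 - PowerSeries.C D := by
  simp [quadPoly]

/-- **QPRIME**. -/
theorem qprime {D : B} (hD : D ∈ I) (ha : Aniso D) :
    (Ideal.span {(PowerSeries.X ^ 2 - PowerSeries.C D : PowerSeries B)}).IsPrime ∧
    ∀ b : B, PowerSeries.C b ∈
      Ideal.span {(PowerSeries.X ^ 2 - PowerSeries.C D : PowerSeries B)} → b = 0 := by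
  have H := quadPoly_isDistinguishedAt I hD
  let e := H.algEquivQuotient
  rw [← coe_quadPoly]
  haveI := span_quadPoly_isPrime ha
  constructor
  · rw [← Ideal.Quotient.isDomain_iff_prime]
    exact e.symm.toMulEquiv.isDomain _
  · intro b hb
    have h1 : Ideal.Quotient.mk (Ideal.span {((quadPoly D : B[X]) : PowerSeries B)})
        (PowerSeries.C b) = 0 := Ideal.Quotient.eq_zero_iff_mem.2 hb
    have h2 : e (algebraMap B _ b) = 0 := by
      rw [AlgEquiv.commutes]
      exact h1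
    have h3 : algebraMap B (B[X] ⧸ Ideal.span {quadPoly D}) b = 0 := by
      have := e.injective (h2.trans (map_zero e).symm)
      exact this
    have h4 : C b ∈ Ideal.span {quadPoly D} := Ideal.Quotient.eq_zero_iff_mem.1 h3
    exact C_mem_span_quadPoly h4

end SeriesSide

end Fermat.Agent.L.Pivot.H52

end
-- ==== END Fermat.Agent.L.Pivot.H52_TPQPrime

-- ==== BEGIN Fermat.Agent.L.Pivot.H76_CoreSplit
section

set_option autoImplicit false

namespace Fermat.Agent.L.Pivot.H76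

open Fermat.Agent.S59.TWH

section Mon

variable {A : Type*} [CommRing A] {V : Type*} [AddCommGroup V] [Module A V]

theorem mon_zero_exp {k : ℕ} (c : Fin k → Module.End A V) : H90.mon c (fun _ => 0) = 1 := by
  induction k with
  | zero => exact H90.mon_zero _ _
  | succ k ih =>
    rw [H90.mon_succ, pow_zero, one_mul]
    exact ih _

theorem mon_add {k : ℕ} (c : Fin k → Module.End A V) (hc : ∀ i j, Commute (c i) (c j))
    (x y : Fin k → ℕ) : H90.mon c (x + y) = H90.mon c x * H90.mon c y := by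
  induction k with
  | zero => simp [H90.mon_zero]
  | succ k ih =>
    rw [H90.mon_succ, H90.mon_succ c x, H90.mon_succ c y]
    have h1 := ih (fun j => c j.succ) (fun i j => hc _ _) (fun j => x j.succ) (fun j => y j.succ)
    have h2 : (fun j : Fin k => (x + y) j.succ) = (fun j => x j.succ) + fun j => y j.succ := rfl
    rw [h2, h1, Pi.add_apply, pow_add]
    have h3 : Commute (c 0 ^ y 0) (H90.mon (fun j => c j.succ) fun j => x j.succ) :=
      H90.commute_mon _ _ fun j => (hc 0 j.succ).pow_left _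
    rw [mul_assoc, mul_assoc, ← mul_assoc (c 0 ^ y 0), h3.eq, mul_assoc]

theorem mon_single {k : ℕ} (c : Fin k → Module.End A V) (j : Fin k) :
    H90.mon c (Pi.single j 1) = c j := by
  induction k with
  | zero => exact j.elim0
  | succ k ih =>
    rw [H90.mon_succ]
    refine Fin.cases ?_ (fun j' => ?_) j
    · have h1 : (fun i : Fin k => (Pi.single (0 : Fin (k + 1)) 1 : Fin (k + 1) → ℕ) i.succ) =
          fun _ => 0 := by
        funext i
        exact Pi.single_eq_of_ne (Fin.succ_ne_zero i) 1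
      rw [h1, mon_zero_exp, Pi.single_eq_same, pow_one, mul_one]
    · have h1 : (fun i : Fin k => (Pi.single j'.succ 1 : Fin (k + 1) → ℕ) i.succ) =
          Pi.single j' 1 := by
        funext i
        by_cases hi : i = j'
        · subst hi
          rw [Pi.single_eq_same, Pi.single_eq_same]
        · rw [Pi.single_eq_of_ne hi, Pi.single_eq_of_ne (fun h => hi (Fin.succ_injective _ h))]
      rw [h1, ih (fun j => c j.succ) j', Pi.single_eq_of_ne (Fin.succ_ne_zero j').symm, pow_zero,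
        one_mul]

theorem mon_mod {k : ℕ} (c : Fin k → Module.End A V) (m : Fin k → ℕ)
    (hm : ∀ j, c j ^ m j = 1) (x : Fin k → ℕ) :
    H90.mon c x = H90.mon c (fun j => x j % m j) := by
  induction k with
  | zero => rw [H90.mon_zero, H90.mon_zero]
  | succ k ih =>
    rw [H90.mon_succ, H90.mon_succ c (fun j => x j % m j),
      ih (fun j => c j.succ) (fun j => m j.succ) (fun j => hm _) (fun j => x j.succ),
      pow_eq_pow_mod (x 0) (hm 0)]

/-- `∑_j (c_j - ψ_j) V`. -/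
def tsub {k : ℕ} (c : Fin k → Module.End A V) (ψ : Fin k → A) : Submodule A V :=
  ⨆ j, LinearMap.range (c j - ψ j • (1 : Module.End A V))

theorem sub_apply_mem_tsub {k : ℕ} (c : Fin k → Module.End A V) (ψ : Fin k → A) (j : Fin k)
    (v : V) : c j v - ψ j • v ∈ tsub c ψ :=
  Submodule.mem_iSup_of_mem j ⟨v, rfl⟩

/-- `∑_j (c_j - ψ_j) V` is stable under the operators commuting with the `c_j`. -/
theorem map_mem_tsub {k : ℕ} (c : Fin k → Module.End A V) (ψ : Fin k → A)
    (D : Module.End A V) (hD : ∀ j, Commute D (c j)) {v : V} (hv : v ∈ tsub c ψ) :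
    D v ∈ tsub c ψ := by
  refine Submodule.iSup_induction (fun j => LinearMap.range (c j - ψ j • (1 : Module.End A V)))
    (motive := fun v => D v ∈ tsub c ψ) hv ?_ ?_ ?_
  · rintro j _ ⟨w, rfl⟩
    have h1 : D ((c j - ψ j • (1 : Module.End A V)) w) = c j (D w) - ψ j • D w := by
      have h2 := congrArg (fun f : Module.End A V => f w) (hD j).eq
      simp only [Module.End.mul_apply] at h2
      simp only [LinearMap.sub_apply, LinearMap.smul_apply, Module.End.one_apply, map_sub,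
        map_smul, h2]
    rw [h1]
    exact sub_apply_mem_tsub c ψ j _
  · rw [map_zero]
    exact Submodule.zero_mem _
  · intro x y hx hy
    rw [map_add]
    exact Submodule.add_mem _ hx hy

theorem pow_sub_mem_range (c : Module.End A V) (a : A) (n : ℕ) (w : V) :
    (c ^ n) w - a ^ n • w ∈ LinearMap.range (c - a • (1 : Module.End A V)) := by
  induction n with
  | zero => simp
  | succ n ih =>
    have h1 : (c ^ (n + 1)) w - a ^ (n + 1) • w =
        (c - a • (1 : Module.End A V)) ((c ^ n) w) + a • ((c ^ n) w - a ^ n • w) := by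
      simp only [LinearMap.sub_apply, LinearMap.smul_apply, Module.End.one_apply, pow_succ',
        Module.End.mul_apply, smul_sub, smul_smul]
      abel
    rw [h1]
    exact Submodule.add_mem _ ⟨_, rfl⟩ (Submodule.smul_mem _ _ ih)

/-- the value of the character `c_j ↦ ψ_j` at the monomial `c ^ x`. -/
def chi {k : ℕ} (ψ : Fin k → A) (x : Fin k → ℕ) : A :=
  H90.mon (fun j => ψ j • (1 : Module.End A A)) x 1

theorem smul_one_pow_apply (a : A) (n : ℕ) (z : A) :
    ((a • (1 : Module.End A A)) ^ n) z = a ^ n * z := by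
  rw [smul_pow, one_pow, LinearMap.smul_apply, Module.End.one_apply, smul_eq_mul]

theorem chi_succ {k : ℕ} (ψ : Fin (k + 1) → A) (x : Fin (k + 1) → ℕ) :
    chi ψ x = ψ 0 ^ x 0 * chi (fun j => ψ j.succ) (fun j => x j.succ) := by
  rw [chi, H90.mon_succ, Module.End.mul_apply, smul_one_pow_apply]
  rfl

theorem chi_zero_exp {k : ℕ} (ψ : Fin k → A) : chi ψ (fun _ => 0) = 1 := by
  rw [chi, mon_zero_exp, Module.End.one_apply]

theorem commute_smul_one {k : ℕ} (ψ : Fin k → A) (i j : Fin k) :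
    Commute (ψ i • (1 : Module.End A A)) (ψ j • (1 : Module.End A A)) := by
  rw [Commute, SemiconjBy, smul_mul_smul_comm, smul_mul_smul_comm, mul_comm (ψ i)]

/-- `c ^ x w ≡ ψ ^ x w` modulo `∑_j (c_j - ψ_j) V`. -/
theorem mon_sub_chi_mem {k : ℕ} (c : Fin k → Module.End A V)
    (hc : ∀ i j, Commute (c i) (c j)) (ψ : Fin k → A) (x : Fin k → ℕ) (w : V) :
    H90.mon c x w - chi ψ x • w ∈ tsub c ψ := by
  induction k with
  | zero =>
    rw [H90.mon_zero, chi, H90.mon_zero]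
    simp
  | succ k ih =>
    have h1 := ih (fun j => c j.succ) (fun i j => hc _ _) (fun j => ψ j.succ) (fun j => x j.succ)
    have hle : tsub (fun j => c j.succ) (fun j => ψ j.succ) ≤ tsub c ψ :=
      iSup_le fun j => le_iSup (fun j => LinearMap.range (c j - ψ j • (1 : Module.End A V))) j.succ
    have h2 : H90.mon c x w - chi ψ x • w =
        (c 0 ^ x 0) (H90.mon (fun j => c j.succ) (fun j => x j.succ) w -
          chi (fun j => ψ j.succ) (fun j => x j.succ) • w) +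
        chi (fun j => ψ j.succ) (fun j => x j.succ) • ((c 0 ^ x 0) w - ψ 0 ^ x 0 • w) := by
      rw [H90.mon_succ, chi_succ, Module.End.mul_apply, map_sub, map_smul, smul_sub, smul_smul,
        mul_comm (chi _ _)]
      abel
    rw [h2]
    refine Submodule.add_mem _ ?_ (Submodule.smul_mem _ _ ?_)
    · exact map_mem_tsub c ψ _ (fun j => (hc 0 j).pow_left _) (hle h1)
    · exact le_iSup (fun j => LinearMap.range (c j - ψ j • (1 : Module.End A V))) 0
        (pow_sub_mem_range (c 0) (ψ 0) (x 0) w)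

end Mon

section Split

variable {A : Type*} [CommRing A] {V : Type*} [AddCommGroup V] [Module A V]
variable {k : ℕ} (c : Fin k → Module.End A V) (m : Fin k → ℕ)

/-- the shift of the `j`-th exponent by one, modulo `m j`. -/
def shiftX (hm0 : ∀ j, 0 < m j) (j : Fin k) (x : ∀ j, Fin (m j)) : ∀ j, Fin (m j) :=
  Function.update x j ⟨((x j : ℕ) + 1) % m j, Nat.mod_lt _ (hm0 j)⟩

theorem shiftX_val (hm0 : ∀ j, 0 < m j) (j : Fin k) (x : ∀ j, Fin (m j)) :
    (fun i => ((shiftX m hm0 j x i : Fin (m i)) : ℕ)) =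
      fun i => ((fun i => ((x i : Fin (m i)) : ℕ)) + Pi.single j 1 : Fin k → ℕ) i % m i := by
  funext i
  by_cases hi : i = j
  · subst hi
    simp [shiftX]
  · rw [shiftX, Function.update_of_ne hi, Pi.add_apply, Pi.single_eq_of_ne hi, add_zero,
      Nat.mod_eq_of_lt (x i).2]

theorem mon_shiftX (hc : ∀ i j, Commute (c i) (c j)) (hm : ∀ j, c j ^ m j = 1)
    (hm0 : ∀ j, 0 < m j) (j : Fin k) (x : ∀ j, Fin (m j)) :
    H90.mon c (fun i => ((shiftX m hm0 j x i : Fin (m i)) : ℕ)) =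
      H90.mon c (fun i => ((x i : Fin (m i)) : ℕ)) * c j := by
  rw [shiftX_val, ← mon_mod c m hm, mon_add c hc, mon_single]

theorem chi_shiftX (ψ : Fin k → A) (hψ : ∀ j, ψ j ^ m j = 1)
    (hm0 : ∀ j, 0 < m j) (j : Fin k) (x : ∀ j, Fin (m j)) :
    chi ψ (fun i => ((shiftX m hm0 j x i : Fin (m i)) : ℕ)) =
      ψ j * chi ψ (fun i => ((x i : Fin (m i)) : ℕ)) := by
  have h1 : ∀ j, (ψ j • (1 : Module.End A A)) ^ m j = 1 := fun j => by
    rw [smul_pow, one_pow, hψ, one_smul]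
  rw [chi, mon_shiftX _ m (commute_smul_one ψ) h1 hm0, Module.End.mul_apply,
    LinearMap.smul_apply, Module.End.one_apply, map_smul, smul_eq_mul]
  rfl

variable {I Y : Type*} [Fintype I] [Fintype Y] (W : I → Y → V)

/-- the basis vectors `c ^ x (W i y)`. -/
def bvec (κ : I × (∀ j, Fin (m j)) × Y) : V :=
  H90.mon c (fun j => ((κ.2.1 j : Fin (m j)) : ℕ)) (W κ.1 κ.2.2)

variable {c m W}

/-- the coordinates with respect to the basis `bvec`. -/
noncomputable def coordE
    (hb : Function.Bijective (Fintype.linearCombination A (bvec c m W))) :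
    (I × (∀ j, Fin (m j)) × Y → A) ≃ₗ[A] V :=
  LinearEquiv.ofBijective (Fintype.linearCombination A (bvec c m W)) hb

theorem coordE_symm_bvec
    (hb : Function.Bijective (Fintype.linearCombination A (bvec c m W)))
    [DecidableEq (I × (∀ j, Fin (m j)) × Y)] (κ : I × (∀ j, Fin (m j)) × Y) :
    (coordE hb).symm (bvec c m W κ) = Pi.single κ 1 := by
  rw [LinearEquiv.symm_apply_eq]
  show _ = Fintype.linearCombination A (bvec c m W) (Pi.single κ 1)
  rw [Fintype.linearCombination_apply_single, one_smul]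

/-- the functionals `Λ_z`: the coordinates of the image in `V / ∑ (c_j - ψ_j) V`. -/
noncomputable def lam
    (hb : Function.Bijective (Fintype.linearCombination A (bvec c m W)))
    (ψ : Fin k → A) (z : I × Y) : V →ₗ[A] A :=
  (∑ x : (∀ j, Fin (m j)), chi ψ (fun j => ((x j : Fin (m j)) : ℕ)) •
    (LinearMap.proj (R := A) (φ := fun _ : I × (∀ j, Fin (m j)) × Y => A) (z.1, x, z.2))) ∘ₗ
    (coordE hb).symm.toLinearMap

theorem lam_bvec
    (hb : Function.Bijective (Fintype.linearCombination A (bvec c m W)))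
    (ψ : Fin k → A) [DecidableEq I] [DecidableEq Y] (z : I × Y)
    (κ : I × (∀ j, Fin (m j)) × Y) :
    lam hb ψ z (bvec c m W κ) =
      if (κ.1, κ.2.2) = z then chi ψ (fun j => ((κ.2.1 j : Fin (m j)) : ℕ)) else 0 := by
  classical
  rw [lam, LinearMap.comp_apply, LinearEquiv.coe_coe, coordE_symm_bvec, LinearMap.sum_apply]
  simp only [LinearMap.smul_apply, LinearMap.proj_apply, smul_eq_mul]
  split_ifs with h
  · subst h
    rw [Finset.sum_eq_single κ.2.1]
    · rw [Pi.single_eq_same, mul_one]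
    · intro x _ hx
      rw [Pi.single_eq_of_ne, mul_zero]
      intro h'
      exact hx (congrArg (fun κ' : I × (∀ j, Fin (m j)) × Y => κ'.2.1) h')
    · intro h'
      exact absurd (Finset.mem_univ _) h'
  · refine Finset.sum_eq_zero fun x _ => ?_
    rw [Pi.single_eq_of_ne, mul_zero]
    intro h'
    apply h
    rw [← h']

theorem lam_eq_zero_of_mem (hc : ∀ i j, Commute (c i) (c j)) (hm : ∀ j, c j ^ m j = 1)
    (hm0 : ∀ j, 0 < m j)
    (hb : Function.Bijective (Fintype.linearCombination A (bvec c m W)))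
    (ψ : Fin k → A) (hψ : ∀ j, ψ j ^ m j = 1) (z : I × Y) {v : V} (hv : v ∈ tsub c ψ) :
    lam hb ψ z v = 0 := by
  classical
  refine Submodule.iSup_induction (fun j => LinearMap.range (c j - ψ j • (1 : Module.End A V)))
    (motive := fun v => lam hb ψ z v = 0) hv ?_ (map_zero _) ?_
  · rintro j _ ⟨w, rfl⟩
    obtain ⟨G, rfl⟩ := hb.2 w
    rw [Fintype.linearCombination_apply, map_sum, map_sum]
    refine Finset.sum_eq_zero fun κ _ => ?_
    rw [map_smul, map_smul]
    have h1 : (c j - ψ j • (1 : Module.End A V)) (bvec c m W κ) =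
        bvec c m W (κ.1, shiftX m hm0 j κ.2.1, κ.2.2) - ψ j • bvec c m W κ := by
      have h2 : c j (bvec c m W κ) = bvec c m W (κ.1, shiftX m hm0 j κ.2.1, κ.2.2) := by
        rw [bvec, bvec, mon_shiftX c m hc hm hm0,
          ← (H90.commute_mon c _ (fun i => hc j i)).eq, Module.End.mul_apply]
      rw [LinearMap.sub_apply, LinearMap.smul_apply, Module.End.one_apply, h2]
    rw [h1, map_sub, map_smul, lam_bvec, lam_bvec]
    simp only [chi_shiftX m ψ hψ hm0]
    split_ifs <;> simp only [smul_eq_mul, sub_self, mul_zero, smul_zero, sub_zero]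
  · intro x y hx hy
    rw [map_add, hx, hy, add_zero]

/-- **SPLIT, linear independence.** -/
theorem split_li (hc : ∀ i j, Commute (c i) (c j)) (hm : ∀ j, c j ^ m j = 1)
    (hm0 : ∀ j, 0 < m j)
    (hb : Function.Bijective (Fintype.linearCombination A (bvec c m W)))
    (ψ : Fin k → A) (hψ : ∀ j, ψ j ^ m j = 1) (f : I × Y → A)
    (hf : ∑ z : I × Y, f z • W z.1 z.2 ∈ tsub c ψ) : f = 0 := by
  classical
  funext z
  have h1 := lam_eq_zero_of_mem hc hm hm0 hb ψ hψ z hf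
  have h2 : ∀ z' : I × Y, W z'.1 z'.2 = bvec c m W (z'.1, (fun j => ⟨0, hm0 j⟩), z'.2) := by
    intro z'
    rw [bvec]
    show _ = H90.mon c (fun _ => 0) _
    rw [mon_zero_exp, Module.End.one_apply]
  rw [map_sum] at h1
  simp only [map_smul, h2, lam_bvec] at h1
  rw [Finset.sum_eq_single z] at h1
  · rw [if_pos rfl] at h1
    have h3 : chi ψ (fun j : Fin k => ((⟨0, hm0 j⟩ : Fin (m j)) : ℕ)) = 1 := chi_zero_exp ψ
    rw [h3, smul_eq_mul, mul_one] at h1
    exact h1
  · intro z' _ hz'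
    rw [if_neg hz', smul_zero]
  · intro h'
    exact absurd (Finset.mem_univ _) h'

/-- **SPLIT, generation.** -/
theorem split_span (hc : ∀ i j, Commute (c i) (c j))
    (hb : Function.Bijective (Fintype.linearCombination A (bvec c m W)))
    (ψ : Fin k → A) (v : V) :
    ∃ f : I × Y → A, v - ∑ z : I × Y, f z • W z.1 z.2 ∈ tsub c ψ := by
  classical
  obtain ⟨G, rfl⟩ := hb.2 v
  refine ⟨fun z => ∑ x : (∀ j, Fin (m j)), G (z.1, x, z.2) *
    chi ψ (fun j => ((x j : Fin (m j)) : ℕ)), ?_⟩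
  have h1 : ∑ z : I × Y, (∑ x : (∀ j, Fin (m j)), G (z.1, x, z.2) *
      chi ψ (fun j => ((x j : Fin (m j)) : ℕ))) • W z.1 z.2 =
      ∑ κ : I × (∀ j, Fin (m j)) × Y,
        (G κ * chi ψ (fun j => ((κ.2.1 j : Fin (m j)) : ℕ))) • W κ.1 κ.2.2 := by
    simp only [Finset.sum_smul]
    rw [Fintype.sum_prod_type, Fintype.sum_prod_type]
    refine Finset.sum_congr rfl fun i _ => ?_
    rw [Fintype.sum_prod_type, Finset.sum_comm]
  rw [h1, Fintype.linearCombination_apply, ← Finset.sum_sub_distrib]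
  refine Submodule.sum_mem _ fun κ _ => ?_
  rw [mul_smul, ← smul_sub]
  exact Submodule.smul_mem _ _ (mon_sub_chi_mem c hc ψ _ _)

end Split

end Fermat.Agent.L.Pivot.H76

end
-- ==== END Fermat.Agent.L.Pivot.H76_CoreSplit
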