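-- GENERATED (merged mirror, NOTES/tools/trim/merge3_helper67.py): 4 modules of the originals, bodies verbatim.
import Fermat.Prelude.Def_CuspForm_Newforms
import Fermat.Agent.Zm.S43_L03_000
import Fermat.Agent.Zm.S43_L04_001
import Fermat.Agent.Zm.S43_L04_000
import Fermat.Agent.Zm.S35_L08_001
import Fermat.Agent.Zm.S48_L14_000
import Fermat.Agent.Zm.S43_L01_000
import Fermat.Agent.Zm.S56_L06_004
import Fermat.Agent.Zm.S43_L04_002
import Fermat.Agent.Zm.S33_L02_003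
import Fermat.Agent.Zm.S35_L02_005

-- ==== BEGIN Fermat.Agent.L.Pivot.Geom.H24_B2
section

/-!
# PIVOT, PV-GEOM, leaf PVG-B2 (helper24): the Betti characters of `α_* x` and `β_* x`

* `hasChar_normBeta` : the character of (the base change of) the norm along `β` is `cor2 φ`
  (`q ∣ M` prime);
* `torChar_betaPush` : **the `β` half**;
* `stmt_B2` : **PVG-B2**: for a prime `q ∣ M`,
  `TorChar (M q) n ι x φ → TorChar M n ι (α_* x) (cor1 φ) ∧ TorChar M n ι (β_* x) (cor2 φ)`.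
-/

set_option autoImplicit false
set_option linter.style.haveILetI false
set_option linter.unusedSectionVars false

open UpperHalfPlane ModularForm CongruenceSubgroup ModularCurve AlgebraicCurve
open scoped MatrixGroups ModularForm Manifold

noncomputable section

namespace Fermat.Agent.L.Pivot.Geom.H24

open Fermat.Agent.S23.H22 (Nice)
open Fermat.Agent.S28.H30 (pexp BPH)
open Fermat.Agent.GTor Fermat.Agent.GTor.H76 Fermat.Agent.GTor.H44 Fermat.Agent.GTor.Clo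
  Fermat.Agent.GTor.Clo.H96 Fermat.Agent.Lib.HeckeComm Fermat.Agent.S41

local notation "Kb" => AlgebraicClosure ℚ

/-! ### Expansions -/

section Exp

variable (q : ℕ) [NeZero q]

/-- `∏_{j<q} A ((z + j) / q)`. -/
def uComp (A : ℍ → ℂ) : ℍ → ℂ := ∏ j ∈ Finset.range q, fun z => A (heckeMatrix q j • z)

theorem pexp_uComp {A : ℍ → ℂ} (hA : Nice 1 A) :
    pexp q (uComp q A) = ∏ j ∈ Finset.range q, twistBy (zetaUnit q ^ j) (qLaurent A) := by
  have h1 : ∀ j ∈ Finset.range q, BPH q (fun z => A (heckeMatrix q j • z)) :=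
    fun j _ => bph_comp_heckeMatrix q hA j
  rw [uComp, Fermat.Agent.S28.H30.pexp_prod _ _ h1]
  exact Finset.prod_congr rfl fun j _ => pexp_comp_heckeMatrix q hA j

theorem qExpand_qLaurent_uComp {A : ℍ → ℂ} (hA : Nice 1 A) (hP : Nice 1 (uComp q A)) :
    qExpand ℂ q (qLaurent (uComp q A))
      = ∏ j ∈ Finset.range q, twistBy (zetaUnit q ^ j) (qLaurent A) := by
  rw [← pexp_uComp q hA]
  exact (Fermat.Agent.S28.H76.ofPS_qExpansion_natCast q hP).symm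

/-- The constant `q^(-q n)`. -/
def uConst (n : ℕ) : ℂ := ((q : ℂ)⁻¹) ^ (q * n)

theorem uConst_ne_zero (n : ℕ) : uConst q n ≠ 0 := by
  have h : (q : ℂ) ≠ 0 := by exact_mod_cast NeZero.ne q
  exact pow_ne_zero _ (inv_ne_zero h)

theorem uProd_pow_eq (k : ℤ) (n : ℕ) (R : ℍ → ℂ) :
    (fun z => uProd k q R z ^ n) = uConst q n • uComp q (fun z => R z ^ n) := by
  funext τ
  rw [uProd_apply, Pi.smul_apply, uComp, Finset.prod_apply, smul_eq_mul, Finset.prod_mul_distrib,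
    Finset.prod_const, Finset.card_range, mul_pow, ← pow_mul, uConst, Finset.prod_pow]

theorem uComp_eq (k : ℤ) (n : ℕ) (R : ℍ → ℂ) :
    uComp q (fun z => R z ^ n) = (uConst q n)⁻¹ • (fun z => uProd k q R z ^ n) := by
  rw [uProd_pow_eq, smul_smul, inv_mul_cancel₀ (uConst_ne_zero q n), one_smul]

end Exp

/-! ### The character of the norm along `β` -/

variable (M q n : ℕ) [NeZero M] [NeZero q]

theorem hasChar_normBeta (hq : q.Prime) (hqM : q ∣ M) (ι : Kb →+* ℂ)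
    (f : Fermat.Agent.S24.FN (M * q)) (φ : Additive (Gamma0 (M * q)) →+ ZMod n)
    (h : HasChar (M * q) n (toFNLc (M * q) (bcC ι (M * q) f)) φ) :
    HasChar M n (toFNLc M (bcC ι M (normAlongHom (heckeBetaBar Kb M q).toRingHom f)))
      (cor2 M q (ZMod n) φ) := by
  obtain ⟨k, R, B, hR, hB, hqe⟩ := h
  have hBt : IsTwistedForm (M * q) n k 0 (B : ℍ → ℂ) := H56.isTwistedForm_of_modularForm n B
  have hRn : Nice 1 (fun z => R z ^ n) := hR.nice_pow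
  have hBn : Nice 1 (fun z => (B : ℍ → ℂ) z ^ n) := hBt.nice_pow
  have hUR : Nice 1 (uComp q (fun z => R z ^ n)) := by
    rw [uComp_eq q k n R]
    exact (isTwistedForm_uProd hq hqM hR).nice_pow.smul _
  have hUB : Nice 1 (uComp q (fun z => (B : ℍ → ℂ) z ^ n)) := by
    rw [uComp_eq q k n (B : ℍ → ℂ)]
    exact (isTwistedForm_uProd hq hqM hBt).nice_pow.smul _
  have hqe' : qLaurent (fun z => R z ^ n)
      = coeffMap ι (f : LaurentSeries Kb) * qLaurent (fun z => (B : ℍ → ℂ) z ^ n) := hqe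
  have key : qLaurent (uComp q (fun z => R z ^ n))
      = coeffMap ι ((normAlongHom (heckeBetaBar Kb M q).toRingHom f : Fermat.Agent.S24.FN M) :
          LaurentSeries Kb) * qLaurent (uComp q (fun z => (B : ℍ → ℂ) z ^ n)) := by
    apply H44.qExpand_injective (K := ℂ) (ℓ := q)
    rw [map_mul, qExpand_qLaurent_uComp q hRn hUR, qExpand_qLaurent_uComp q hBn hUB, hqe',
      qExpand_bc_normBeta M q hq hqM ι f, ← Finset.prod_mul_distrib]
    exact Finset.prod_congr rfl fun j _ => map_mul _ _ _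
  refine hasChar_uProd hq hqM hR hB _ ?_
  rw [uProd_pow_eq, uProd_pow_eq, qLaurent_smul _ hUR, qLaurent_smul _ hUB, key]
  show _ = coeffMap ι ((normAlongHom (heckeBetaBar Kb M q).toRingHom f : Fermat.Agent.S24.FN M) :
          LaurentSeries Kb) * _
  ring

/-- **PVG-B2, the `β` half**: the Betti character of `β_* x` is `cor2 φ` (`q ∣ M` prime). -/
theorem torChar_betaPush (hq : q.Prime) (hqM : q ∣ M) (ι : Kb →+* ℂ) (x : JZero (M * q))
    (φ : Additive (Gamma0 (M * q)) →+ ZMod n) (h : TorChar (M * q) n ι x φ) :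
    TorChar M n ι (Fermat.Agent.S36.H44.betaPush M q x) (cor2 M q (ZMod n) φ) := by
  refine torChar_push M q n ι (heckeBetaBar Kb M q) _ _ _
    (fun φ => cor2 M q (ZMod n) φ) ?_ x φ h
  intro f φ _ hc
  exact hasChar_normBeta M q n hq hqM ι f φ hc

/-- **PVG-B2.** -/
theorem stmt_B2 (hq : q.Prime) (hqM : q ∣ M) (ι : Kb →+* ℂ) (x : JZero (M * q))
    (φ : Additive (Gamma0 (M * q)) →+ ZMod n) (h : TorChar (M * q) n ι x φ) :
    TorChar M n ι (Fermat.Agent.S36.H44.alphaPush M q x) (cor1 M q (ZMod n) φ) ∧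
    TorChar M n ι (Fermat.Agent.S36.H44.betaPush M q x) (cor2 M q (ZMod n) φ) :=
  ⟨torChar_alphaPush M q n ι x φ h, torChar_betaPush M q n hq hqM ι x φ h⟩

end Fermat.Agent.L.Pivot.Geom.H24

end
end
-- ==== END Fermat.Agent.L.Pivot.Geom.H24_B2

-- ==== BEGIN Fermat.Agent.L.Pivot.Geom.H4_NewOp
section

/-!
# PIVOT / PV-GEOM, leaf PVG-NEWOP (helper4): the `q`-new intertwiner on an eigenspace

`exists_Theta_new` : the variant of `NEB.EIG.H39.exists_Theta` (same input: `μ`, `TV`, `dia`, `j`,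
`ψ`) built with the `q`-new twisting map `H4.stmt_TWnew` instead of `H39.stmt_TW`.  For a pivot
prime `q ∈ qs` at which `ψ` is non-trivial (there is `a ≡ 1` modulo the other primes of `qs` with
`ψ a ≠ 1`) and `N₁` with `N₁ q = N c²`, the intertwiner
`Θ : V → Hom(Γ₀(N₁ q), L)` has the three properties of `exists_Theta` on the `ψ`-eigenspace of the
diamond operators and in addition its values there are **`q`-new**: they are killed by the two
transfers `S41.cor1`, `S41.cor2 : Hom(Γ₀(N₁ q), L) → Hom(Γ₀(N₁), L)`.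

Complete proofs, standard axioms only.
-/

set_option autoImplicit false

namespace Fermat.Agent.L.Pivot.Geom.H4

open CongruenceSubgroup Matrix.SpecialLinearGroup ModularForm Finset
open scoped MatrixGroups
open Fermat.Agent.NEB.EIG.H39 Fermat.Agent.S41 Fermat.Agent.Betti ModularCurve.Period

section NewOp

variable {L : Type} [Field L] [CharZero L] {V : Type*} [AddCommGroup V] [Module L V]

omit [CharZero L] in
/-- The component at `q` of a character which is non-trivial at `q` is non-trivial. -/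
theorem chi_ne_one_of_psi (qs : List ℕ) (ψ : MulChar (ZMod qs.prod) L)
    (χ : (q : ℕ) → MulChar (ZMod q) L)
    (hχ1 : ∀ a : ℤ, IsUnit ((a : ℤ) : ZMod qs.prod) →
      ψ ((a : ℤ) : ZMod qs.prod) = (qs.map fun q => χ q ((a : ℤ) : ZMod q)).prod)
    (q : ℕ) (hq : q ∈ qs)
    (hψq : ∃ a : ℤ, IsUnit ((a : ℤ) : ZMod qs.prod) ∧
      (∀ q' ∈ qs, q' ≠ q → ((a : ℤ) : ZMod q') = 1) ∧ ψ ((a : ℤ) : ZMod qs.prod) ≠ 1) :
    χ q ≠ 1 := by
  obtain ⟨a, hu, ha1, hψa⟩ := hψq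
  intro h
  apply hψa
  rw [hχ1 a hu]
  apply List.prod_eq_one
  intro x hx
  obtain ⟨q', hq', rfl⟩ := List.mem_map.mp hx
  by_cases hqq : q' = q
  · subst hqq
    rw [h]
    have huq : IsUnit (((a : ℤ) : ZMod q')) := by
      have hdvd : q' ∣ qs.prod := List.dvd_prod hq
      have := hu.map (ZMod.castHom hdvd (ZMod q'))
      simpa using this
    exact MulChar.one_apply huq
  · rw [ha1 q' hq' hqq, map_one]

omit [CharZero L] in
/-- If `χ ^ (2 j + 1)` is trivial on units and `χ ≠ 1` then `χ ^ (j + 1) ≠ 1`. -/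
theorem chi_pow_ne_one {q : ℕ} (χ : MulChar (ZMod q) L) (j : ℕ)
    (hχn : ∀ x : (ZMod q)ˣ, χ (x : ZMod q) ^ (2 * j + 1) = 1) (hχ : χ ≠ 1) :
    χ ^ (j + 1) ≠ 1 := by
  intro h
  apply hχ
  rw [MulChar.eq_one_iff]
  intro x
  have h1 : (χ ^ (j + 1)) (x : ZMod q) = 1 := by
    rw [h]
    exact MulChar.one_apply x.isUnit
  rw [MulChar.pow_apply' _ (Nat.succ_ne_zero j)] at h1
  have h2 : χ (x : ZMod q) ^ ((j + 1) * 2) = 1 := by rw [pow_mul, h1, one_pow]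
  have e : (j + 1) * 2 = (2 * j + 1) + 1 := by ring
  rw [e, pow_succ, hχn x, one_mul] at h2
  exact h2

omit [CharZero L] in
theorem cor1_zero_h4 (N q : ℕ) : cor1 N q L (0 : Additive (Gamma0 (N * q)) →+ L) = 0 := by
  have h := H19.corAlong_sub (A := L) (inclG N q) 0 0
  rw [sub_zero, sub_self] at h
  exact h

omit [CharZero L] in
theorem cor2_zero_h4 (N q : ℕ) : cor2 N q L (0 : Additive (Gamma0 (N * q)) →+ L) = 0 := by
  have h := H19.corAlong_sub (A := L) (conjG N q) 0 0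
  rw [sub_zero, sub_self] at h
  exact h

/-- **PVG-NEWOP.**  The `q`-new intertwiner on the `ψ`-eigenspace: the statement of
`NEB.EIG.H39.exists_Theta` at the level `N₁ q = N c²`, for a prime `q ∈ qs` at which `ψ` is
non-trivial, with the additional conclusion that the values of `Θ` on the `ψ`-eigenspace are killed
by the transfers `S41.cor1`, `S41.cor2` to level `N₁`. -/
theorem exists_Theta_new (N : ℕ) (hN : N ≠ 0) (qs : List ℕ) (hnd : qs.Nodup)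
    (hpr : ∀ q ∈ qs, q.Prime) (hqN : ∀ q ∈ qs, ¬ q ∣ N)
    (μ : V →ₗ[L] (Additive (Gam1 (N * qs.prod) qs.prod) →+ L)) (hμ : Function.Injective μ)
    (hμpar : ∀ v, IsParabolicHom (Gam1 (N * qs.prod) qs.prod) (μ v))
    (TV : ℕ → Module.End L V)
    (hTV : ∀ (ℓ : ℕ) (hℓ : ℓ.Prime) (hℓM : ¬ ℓ ∣ N * qs.prod) (v : V),
      μ (TV ℓ v) = TD (N * qs.prod) qs.prod (dvd_mul_left _ _) hℓ hℓM (μ v))
    (dia : (ZMod qs.prod)ˣ →* Module.End L V)
    (hdia : ∀ (g : SL(2, ℤ)) (hg : ((N * qs.prod : ℕ) : ℤ) ∣ g 1 0) (d : (ZMod qs.prod)ˣ),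
      (d : ZMod qs.prod) = ((g 0 0 : ℤ) : ZMod qs.prod) →
      ∀ v, μ (dia d v) = Dop (dvd_mul_left _ _) g hg (μ v))
    (j : ℕ) (hdn : ∀ d, dia d ^ (2 * j + 1) = 1) (ψ : MulChar (ZMod qs.prod) L)
    (q : ℕ) (hq : q ∈ qs)
    (hψq : ∃ a : ℤ, IsUnit ((a : ℤ) : ZMod qs.prod) ∧
      (∀ q' ∈ qs, q' ≠ q → ((a : ℤ) : ZMod q') = 1) ∧ ψ ((a : ℤ) : ZMod qs.prod) ≠ 1)
    (N₁ : ℕ) (hN₁ : N₁ * q = N * qs.prod * qs.prod) :
    ∃ Θ : V →ₗ[L] (Additive (Gamma0 (N₁ * q)) →+ L),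
      (∀ v ∈ eigSp dia ψ, IsParabolicHom (Gamma0 (N₁ * q)) (Θ v)) ∧
      (∀ v ∈ eigSp dia ψ, Θ v = 0 → v = 0) ∧
      (∀ (ℓ : ℕ) (hℓ : ℓ.Prime) (hℓN : ¬ ℓ ∣ N₁ * q), ∀ v ∈ eigSp dia ψ,
        Θ (tOp TV dia j ℓ v) = TB (N₁ * q) L hℓ hℓN (Θ v)) ∧
      (∀ v ∈ eigSp dia ψ, cor1 N₁ q L (Θ v) = 0 ∧ cor2 N₁ q L (Θ v) = 0) := by
  by_cases hbot : eigSp dia ψ = ⊥
  · refine ⟨0, fun v _ => ?_, fun v hv _ => ?_, fun ℓ hℓ hℓN v _ => ?_, fun v _ => ?_⟩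
    · intro γ _
      rfl
    · rw [hbot] at hv
      exact (Submodule.mem_bot L).mp hv
    · rw [LinearMap.zero_apply, LinearMap.zero_apply, map_zero]
    · rw [LinearMap.zero_apply]
      exact ⟨cor1_zero_h4 N₁ q, cor2_zero_h4 N₁ q⟩
  · obtain ⟨v₀, hv₀, hv0⟩ := Submodule.exists_mem_ne_zero_of_ne_bot hbot
    have hψn : ∀ d : (ZMod qs.prod)ˣ, ψ (d : ZMod qs.prod) ^ (2 * j + 1) = 1 :=
      psi_pow_eq_one hv₀ hv0 hdn
    obtain ⟨χ, hχ1, hχ2⟩ := char_dec qs hnd hpr qs.prod rfl ψ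
    have hχn : ∀ q ∈ qs, ∀ x : (ZMod q)ˣ, χ q (x : ZMod q) ^ (2 * j + 1) = 1 := by
      intro q hq x
      obtain ⟨y, hy⟩ := hχ2 q hq x
      rw [hy]
      exact hψn y
    have hχ'' : ∀ q ∈ qs, (χ q ^ (j + 1) = 1) ∨
        ∃ T : ℤ, ¬ (q : ℤ) ∣ T ∧ (χ q ^ (j + 1)) ((T : ℤ) : ZMod q) ^ 2 ≠ 1 := by
      intro q hq
      by_cases h : χ q = 1
      · left
        rw [h, one_pow]
      · right
        obtain ⟨x, hx⟩ := MulChar.ne_one_iff.mp h
        have hqp := hpr q hq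
        haveI : Fact q.Prime := ⟨hqp⟩
        refine ⟨(((x : ZMod q).val : ℕ) : ℤ), ?_, ?_⟩
        · intro hdvd
          have h0 : (((((x : ZMod q).val : ℕ) : ℤ) : ℤ) : ZMod q) = 0 :=
            (ZMod.intCast_zmod_eq_zero_iff_dvd _ _).mpr hdvd
          rw [Int.cast_natCast, ZMod.natCast_zmod_val] at h0
          exact x.ne_zero h0
        · rw [Int.cast_natCast, ZMod.natCast_zmod_val,
            MulChar.pow_apply' _ (Nat.succ_ne_zero j), ← pow_mul]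
          have e : (j + 1) * 2 = (2 * j + 1) + 1 := by ring
          rw [e, pow_succ, hχn q hq x, one_mul]
          exact hx
    have hχq : χ q ^ (j + 1) ≠ 1 :=
      chi_pow_ne_one (χ q) j (hχn q hq) (chi_ne_one_of_psi qs ψ χ hχ1 q hq hψq)
    obtain ⟨Tw, hTw⟩ := stmt_TWnew N hN qs hnd hpr hqN (fun q => χ q ^ (j + 1)) hχ'' q hq hχq
      N₁ hN₁
    have hEig : ∀ v ∈ eigSp dia ψ, IsEig (N * qs.prod) qs.prod (dvd_mul_left _ _)
        (Om (fun q => χ q ^ (j + 1)) qs) (μ v) := by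
      intro v hv g hg
      have hgc : ((qs.prod : ℕ) : ℤ) ∣ g 1 0 :=
        (Int.natCast_dvd_natCast.mpr (dvd_mul_left qs.prod N)).trans hg
      have hu : IsUnit (((g 0 0 : ℤ) : ZMod qs.prod)) :=
        IsUnit.of_mul_eq_one _ (entry_mul_eq_one hgc)
      have h1 := hdia g hg hu.unit rfl v
      rw [hv hu.unit, map_smul] at h1
      rw [← h1, Om_pow_eq qs ψ χ hχ1 j hχn g hgc]
      rfl
    refine ⟨Tw.comp μ, fun v hv => ?_, fun v hv h0 => ?_, fun ℓ hℓ hℓN v hv => ?_,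
      fun v hv => ?_⟩
    · exact (hTw (μ v) (hEig v hv)).2.2.1 (hμpar v)
    · have := (hTw (μ v) (hEig v hv)).1 h0
      exact hμ (by rw [this, map_zero])
    · have hℓM : ¬ ℓ ∣ N * qs.prod := fun h =>
        hℓN (hN₁ ▸ h.trans (dvd_mul_right _ _))
      have hℓc : ¬ ℓ ∣ qs.prod := fun h => hℓM (h.trans (dvd_mul_left _ _))
      have hcop : Nat.Coprime ℓ qs.prod := (Nat.Prime.coprime_iff_not_dvd hℓ).mpr hℓc
      have hunit : IsUnit ((ℓ : ℕ) : ZMod qs.prod) := by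
        rw [← unitOf_coe hcop]
        exact Units.isUnit _
      rw [tOp_apply_of_mem TV dia j ℓ hv, LinearMap.comp_apply, LinearMap.comp_apply, map_smul,
        map_smul, hTV ℓ hℓ hℓM v, (hTw (μ v) (hEig v hv)).2.1 ℓ hℓ hℓM hℓN,
        chiProd_pow_eq qs ψ χ hχ1 j ℓ hunit, unitOf_coe hcop]
      congr 1
      have h2 := hψn (unitOf qs.prod ℓ)
      rw [unitOf_coe hcop] at h2
      have e : 2 * j + 1 = j + (j + 1) := by ring
      rw [e, pow_add] at h2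
      exact (inv_eq_of_mul_eq_one_left h2).symm
    · exact (hTw (μ v) (hEig v hv)).2.2.2

end NewOp

end Fermat.Agent.L.Pivot.Geom.H4

end
-- ==== END Fermat.Agent.L.Pivot.Geom.H4_NewOp

-- ==== BEGIN Fermat.Agent.L.Pivot.Global
section

set_option autoImplicit false

noncomputable section

namespace Fermat.Agent.L.Pivot

open Polynomial IsLocalRing CuspForm Fermat.Agent.S56 Fermat.Agent.S59.Asm

/-! ### The pivot primes -/

/-- `τ` is a uniform generator of the tame inertia at the place `P` over `q`: in every finite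
level every element of the inertia group is a power of `τ` up to an element of `q`-power order. -/
def IsTameGen (q : ℕ) (P : ValuationSubring (AlgebraicClosure ℚ)) (τ : _root_.Fermat.Agent.S56.GQ) : Prop :=
  τ ∈ P.inertiaSubgroupIn ℚ ∧
    ∀ F : IntermediateField ℚ (AlgebraicClosure ℚ), FiniteDimensional ℚ F →
      ∀ σ ∈ P.inertiaSubgroupIn ℚ, ∃ i e : ℕ, ∀ x ∈ F, (((τ ^ i)⁻¹ * σ) ^ (q ^ e)) x = x

/-- A family of `k` pivot primes `q_j` with places `P_j`, Frobenius lifts `frob j` and uniform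
tame generators `τ j`. -/
structure PivotPrimes (k : ℕ) : Type where
  /-- the primes -/
  q : Fin k → ℕ
  q_inj : Function.Injective q
  q_prime : ∀ j, (q j).Prime
  /-- places -/
  P : Fin k → ValuationSubring (AlgebraicClosure ℚ)
  P_over : ∀ j, (P j).LiesOverPrime (q j)
  /-- Frobenius lifts -/
  frob : Fin k → _root_.Fermat.Agent.S56.GQ
  frob_spec : ∀ j, (P j).IsFrobeniusAt (frob j) (q j)
  /-- tame generators -/
  τ : Fin k → _root_.Fermat.Agent.S56.GQ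
  τ_gen : ∀ j, IsTameGen (q j) (P j) (τ j)
  /-- the tame relation `φ τ φ⁻¹ = τ ^ q` up to `q`-power torsion, in every finite level -/
  τ_frob : ∀ j, ∀ F : IntermediateField ℚ (AlgebraicClosure ℚ), FiniteDimensional ℚ F →
    ∃ e : ℕ, ∀ x ∈ F,
      ((((τ j) ^ (q j))⁻¹ * (frob j * τ j * (frob j)⁻¹)) ^ ((q j) ^ e)) x = x

/-- The set of pivot primes. -/
def PivotPrimes.set {k : ℕ} (Pv : PivotPrimes k) : Finset ℕ := Finset.univ.image Pv.q

/-- The pivot primes are exceptional for `ρbar`: `q ≡ 1 mod p`, `ρbar` unramified at `q` and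
`ρbar (Frob_q)` scalar. -/
def PivotPrimes.IsExceptional {k : ℕ} (Pv : PivotPrimes k) (p : ℕ) {κ : Type} [Field κ]
    (ρbar : ResidualGaloisRep κ) : Prop :=
  ∀ j, p ∣ Pv.q j - 1 ∧ Pv.q j ≠ p ∧ ρbar.IsUnramifiedAt (Pv.q j) ∧
    ∃ c : κ, ρbar.ρ (Pv.frob j) = c • (1 : Module.End κ ρbar.V)

/-! ### Galois side: PV-GAL -/

/-- The condition `𝒟⁰`: flat at `p`, unipotent at `Smin`, unramified outside `Smin ∪ Σ ∪ T`,
nothing at `T`, and at the pivot primes `ρ (τ_j) = 1`, `ρ (frob_j)` scalar. -/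
def condPv0 (𝒪 : Type) [CommRing 𝒪] (p : ℕ) (Smin : Finset ℕ) {k : ℕ} (Pv : PivotPrimes k)
    (T : Finset ℕ) : Cond 𝒪 :=
  fun A _ _ _ ρ => condFl 𝒪 p Smin (Pv.set ∪ T) ρ ∧
    ∀ j, ρ.ρ (Pv.τ j) = 1 ∧ ∃ c : A, ρ.ρ (Pv.frob j) = c • (1 : Module.End A ρ.V)

/-- A homomorphism `γ : P → A` sends the local coordinates to the traceless parts of the matrices
`Mσ j` (image of the tame generator) and `Mφ j` (image of the Frobenius lift). -/
def IsCoordHom {𝒪 : Type} [CommRing 𝒪] {k g : ℕ} {A : Type} [CommRing A] [Algebra 𝒪 A]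
    (γ : PRing 𝒪 k g →ₐ[𝒪] A) (Mσ Mφ : Fin k → Matrix (Fin 2) (Fin 2) A) : Prop :=
  ∀ j, γ (cy 𝒪 g j) = Mσ j 0 1 ∧ γ (cz 𝒪 g j) = Mσ j 1 0 ∧
    γ (cm 𝒪 g j) = Mσ j 0 0 - Mσ j 1 1 ∧
    γ (cv 𝒪 g j) = Mφ j 0 1 ∧ γ (cw 𝒪 g j) = Mφ j 1 0 ∧
    γ (cs 𝒪 g j) = Mφ j 0 0 - Mφ j 1 1

/-- **PV-GAL-N** (number theory; S56 machinery with the local condition `L = 0` at the pivot
primes): Taylor–Wiles families of `r = 3k + g` primes with the tangent bound `|k|^g` for `𝒟⁰`.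
[Greenberg–Wiles: `dim Sel⁰_Q ≤ dim Sel⁰'_Q + (r - 3k)`; `dim L_q - h⁰ = -3` at a pivot prime;
`r := dim Sel⁰'_∅ ≥ 3k` by the same inequality for `Q = ∅`; TW-SELECT for `Sel⁰'_∅`.] -/
def Stmt_PVGalN : Prop :=
  ∀ (𝒪 : Type) [CommRing 𝒪] [IsDomain 𝒪] [IsDiscreteValuationRing 𝒪]
    [IsAdicComplete (maximalIdeal 𝒪) 𝒪] [Finite (ResidueField 𝒪)]
    (p : ℕ) [Fact p.Prime] (ρbar : ResidualGaloisRep (ResidueField 𝒪)) (S Smin : Finset ℕ),
    Hyp 𝒪 p ρbar S Smin →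
    ∀ (k : ℕ) (Pv : PivotPrimes k), Pv.IsExceptional p ρbar → Pv.set ⊆ S →
    ∃ r g : ℕ, r = 3 * k + g ∧ ∀ n : ℕ, ∃ qv : Fin r → ℕ, IsTWFamily ρbar p n S qv ∧
      TangentLE 𝒪 ρbar (condPv0 𝒪 p Smin Pv (Finset.univ.image qv)) g

/-- **PV-GAL-A** (relative form of T-A, commutative algebra + universal property): if `𝒟⁰` has
tangent bound `|k|^g` then every universal ring of `condFl … (Σ ∪ T)` is a quotient of `P` by a
homomorphism sending the local coordinates to the traceless parts of `ρ (τ_j)`, `ρ (frob_j)`. -/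
def Stmt_PVGalA : Prop :=
  ∀ (𝒪 : Type) [CommRing 𝒪] [IsDomain 𝒪] [IsDiscreteValuationRing 𝒪]
    [IsAdicComplete (maximalIdeal 𝒪) 𝒪] [Finite (ResidueField 𝒪)]
    (p : ℕ) [Fact p.Prime] (ρbar : ResidualGaloisRep (ResidueField 𝒪)) (S Smin : Finset ℕ),
    Hyp 𝒪 p ρbar S Smin →
    ∀ (k : ℕ) (Pv : PivotPrimes k), Pv.IsExceptional p ρbar → ∀ (T : Finset ℕ) (g : ℕ),
    TangentLE 𝒪 ρbar (condPv0 𝒪 p Smin Pv T) g →
    ∀ DQ : GaloisRep.DeformationRingData 𝒪 ρbar (condFl 𝒪 p Smin (Pv.set ∪ T)),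
    ∀ b : Module.Basis (Fin 2) DQ.R DQ.ρ.V,
      ∃ γ : PRing 𝒪 k g →ₐ[𝒪] DQ.R, Function.Surjective γ ∧
        IsCoordHom γ (fun j => LinearMap.toMatrix b b (DQ.ρ.ρ (Pv.τ j)))
          (fun j => LinearMap.toMatrix b b (DQ.ρ.ρ (Pv.frob j)))

/-- **PV-GAL** = PV-GAL-N + PV-GAL-A. -/
def Stmt_PVGal : Prop :=
  ∀ (𝒪 : Type) [CommRing 𝒪] [IsDomain 𝒪] [IsDiscreteValuationRing 𝒪]
    [IsAdicComplete (maximalIdeal 𝒪) 𝒪] [Finite (ResidueField 𝒪)]
    (p : ℕ) [Fact p.Prime] (ρbar : ResidualGaloisRep (ResidueField 𝒪)) (S Smin : Finset ℕ),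
    Hyp 𝒪 p ρbar S Smin →
    ∀ (k : ℕ) (Pv : PivotPrimes k), Pv.IsExceptional p ρbar → Pv.set ⊆ S →
    ∃ r g : ℕ, r = 3 * k + g ∧ ∀ n : ℕ, ∃ qv : Fin r → ℕ, IsTWFamily ρbar p n S qv ∧
      ∀ DQ : GaloisRep.DeformationRingData 𝒪 ρbar
          (condFl 𝒪 p Smin (Pv.set ∪ Finset.univ.image qv)),
      ∀ b : Module.Basis (Fin 2) DQ.R DQ.ρ.V,
        ∃ γ : PRing 𝒪 k g →ₐ[𝒪] DQ.R, Function.Surjective γ ∧
          IsCoordHom γ (fun j => LinearMap.toMatrix b b (DQ.ρ.ρ (Pv.τ j)))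
            (fun j => LinearMap.toMatrix b b (DQ.ρ.ρ (Pv.frob j)))

theorem stmt_PVGal_of (hN : Stmt_PVGalN) (hA : Stmt_PVGalA) : Stmt_PVGal := by
  intro 𝒪 _ _ _ _ _ p _ ρbar S Smin hyp k Pv hex hPS
  obtain ⟨r, g, hrg, h⟩ := hN 𝒪 p ρbar S Smin hyp k Pv hex hPS
  refine ⟨r, g, hrg, fun n => ?_⟩
  obtain ⟨qv, hqv, hT⟩ := h n
  exact ⟨qv, hqv, fun DQ b => hA 𝒪 p ρbar S Smin hyp k Pv hex _ g hT DQ b⟩

/-! ### Hecke side: the geometric datum -/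

/-- The `Γ₀`-level of the twisted module at the pivot primes and a Taylor–Wiles family:
`N1 · ∏ q_j · ∏ qv_i²` (`N1 = M₀ ∏ q_j` already contains the pivot primes once). -/
def pvLevel (N1 : ℕ) {k r : ℕ} (qP : Fin k → ℕ) (qv : Fin r → ℕ) : ℕ :=
  twLevel N1 qv * ∏ j, qP j

/-- The quotient `W / ∑_j (c_j - ψ_j) W`, as a submodule to divide by. -/
def typeSub {𝒪 : Type} [CommRing 𝒪] {V : Type} [AddCommGroup V] [Module 𝒪 V] {k : ℕ}
    (c : Fin k → Module.End 𝒪 V) (ψ : Fin k → 𝒪) : Submodule 𝒪 V :=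
  ⨆ j, LinearMap.range (c j - ψ j • (1 : Module.End 𝒪 V))

/-- **The geometric datum of PIVOT** at the pivot primes `qP` (`p^(eP j) ∥ qP j - 1`) and a
Taylor–Wiles family `qv` of level `n`: a `Δ_Σ`-thickening of a Taylor–Wiles datum `G1` of base
level `N1 = M₀ ∏ qP j` (level `Γ₀(q_j)` at the pivot primes: unipotent type).
`W` = Tate module of `J_H`, `H ⊂ ∏_{Σ ∪ Q} (ℤ/q)^×` of `p`-power index, localised, TWISTED
(determinant `ε`), a Hecke module of level `M₀ ∏ q_j² ∏ qv_i²`; `c_j` = diamond operators at the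
pivot primes, `d_i` = diamond operators at the Taylor–Wiles primes; `W / ∑ (c_j - 1) W = G1.W`. -/
structure PVGeom (𝒪 : Type) [CommRing 𝒪] [IsLocalRing 𝒪] (p : ℕ)
    (ρbar : ResidualGaloisRep (ResidueField 𝒪))
    (N1 : ℕ) [NeZero N1] (S : Finset ℕ)
    (θ : CuspForm.heckeAlgebra N1 2 (↑S : Set ℕ) →+* ResidueField 𝒪)
    (M : HMod 𝒪 N1 (↑S : Set ℕ) θ) {k : ℕ} (qP : Fin k → ℕ) (eP : Fin k → ℕ)
    {r : ℕ} (n : ℕ) (qv : Fin r → ℕ)
    [NeZero (twLevel N1 qv)] [NeZero (pvLevel N1 qP qv)] : Type 1 where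
  /-- the Taylor–Wiles datum of unipotent type -/
  G1 : TWGeom 𝒪 p ρbar N1 S θ M n qv
  /-- restriction of Hecke operators to the level `N1 ∏ qv_i²` -/
  rest : CuspForm.heckeAlgebra (pvLevel N1 qP qv) 2 (↑(twSet S qv) : Set ℕ) →+*
    CuspForm.heckeAlgebra (twLevel N1 qv) 2 (↑(twSet S qv) : Set ℕ)
  rest_T : ∀ (ℓ : ℕ) (hℓ : ℓ.Prime) (hℓN' : ¬ ℓ ∣ pvLevel N1 qP qv)
    (hℓS : ℓ ∉ (↑(twSet S qv) : Set ℕ)) (hℓN : ¬ ℓ ∣ twLevel N1 qv),
    rest (CuspForm.heckeAlgebra.T hℓ hℓN' hℓS) = CuspForm.heckeAlgebra.T hℓ hℓN hℓS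
  /-- the Hecke module at the level `M₀ ∏ q_j² ∏ qv_i²` -/
  W : HMod 𝒪 (pvLevel N1 qP qv) (↑(twSet S qv) : Set ℕ) ((θ.comp G1.rest).comp rest)
  /-- the twisted Galois action -/
  gal : GalQ →* Module.End 𝒪 W.V
  gal_cont : GaloisActionIsAdicContinuous 𝒪 gal
  gal_η : ∀ (g : GalQ)
    (t : CuspForm.heckeAlgebra (pvLevel N1 qP qv) 2 (↑(twSet S qv) : Set ℕ)),
    Commute (gal g) (W.η t)
  /-- Eichler–Shimura -/
  es : ∀ (ℓ : ℕ) (hℓ : ℓ.Prime) (hℓN : ¬ ℓ ∣ pvLevel N1 qP qv)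
    (hℓS : ℓ ∉ (↑(twSet S qv) : Set ℕ)),
    ∀ A : ValuationSubring (AlgebraicClosure ℚ), A.LiesOverPrime ℓ →
      ∀ σ : GalQ, A.IsFrobeniusAt σ ℓ →
        gal σ * gal σ - W.η (CuspForm.heckeAlgebra.T hℓ hℓN hℓS) * gal σ
          + (ℓ : 𝒪) • (1 : Module.End 𝒪 W.V) = 0
  /-- the diamond operators at the pivot primes -/
  c : Fin k → Module.End 𝒪 W.V
  c_pow : ∀ j, c j ^ (p ^ eP j) = 1
  /-- the diamond operators at the Taylor–Wiles primes -/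
  d : Fin r → Module.End 𝒪 W.V
  d_pow : ∀ i, d i ^ (p ^ n) = 1
  c_comm : ∀ i j, Commute (c i) (c j)
  d_comm : ∀ i j, Commute (d i) (d j)
  c_d : ∀ j i, Commute (c j) (d i)
  c_η : ∀ (j : Fin k)
    (t : CuspForm.heckeAlgebra (pvLevel N1 qP qv) 2 (↑(twSet S qv) : Set ℕ)),
    Commute (c j) (W.η t)
  d_η : ∀ (i : Fin r)
    (t : CuspForm.heckeAlgebra (pvLevel N1 qP qv) 2 (↑(twSet S qv) : Set ℕ)),
    Commute (d i) (W.η t)
  c_gal : ∀ (j : Fin k) (g : GalQ), Commute (c j) (gal g)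
  d_gal : ∀ (i : Fin r) (g : GalQ), Commute (d i) (gal g)
  /-- freeness over `𝒪[Δ_Σ × Δ_Q]` -/
  rk : ℕ
  b : Fin rk → W.V
  b_basis : Function.Bijective
    (fun f : Fin rk × (∀ j : Fin k, Fin (p ^ eP j)) × (Fin r → Fin (p ^ n)) → 𝒪 =>
      ∑ x : Fin rk × (∀ j : Fin k, Fin (p ^ eP j)) × (Fin r → Fin (p ^ n)),
        f x • Fermat.Agent.S59.TWH.H90.mon c (fun j => (x.2.1 j : ℕ))
          (Fermat.Agent.S59.TWH.H90.mon d (fun i => (x.2.2 i : ℕ)) (b x.1)))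
  /-- the projection to the unipotent type -/
  κ : W.V →ₗ[𝒪] G1.W.V
  κ_surjective : Function.Surjective κ
  ker_κ : LinearMap.ker κ = typeSub c (fun _ => (1 : 𝒪))
  κ_η : ∀ (t : CuspForm.heckeAlgebra (pvLevel N1 qP qv) 2 (↑(twSet S qv) : Set ℕ)) (v : W.V),
    κ (W.η t v) = G1.W.η (rest t) (κ v)
  κ_d : ∀ (i : Fin r) (v : W.V), κ (d i v) = G1.d i (κ v)
  κ_gal : ∀ (g : GalQ) (v : W.V), κ (gal g v) = G1.gal g (κ v)
  /-- **the ramified types are new at the pivot primes** (Atkin–Li): an eigensystem with values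
  in a domain of characteristic `0` which occurs in `W / ∑ (c_j - ψ_j) W`, all `ψ_j ≠ 1`, does
  not come from the level `N' / q_j`. -/
  new : ∀ (ψ : Fin k → 𝒪), (∀ j, ψ j ^ (p ^ eP j) = 1 ∧ ψ j ≠ 1) →
    ∀ (D : Type) [CommRing D] [IsDomain D] [CharZero D]
      (χ : CuspForm.heckeAlgebra (pvLevel N1 qP qv) 2 (↑(twSet S qv) : Set ℕ) →+* D),
      (∀ t, (∀ v : W.V, W.η t v ∈ typeSub c ψ) → χ t = 0) →
      ∀ (j : Fin k) [NeZero (pvLevel N1 qP qv / qP j)]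
        (χ' : CuspForm.heckeAlgebra (pvLevel N1 qP qv / qP j) 2 (↑(twSet S qv) : Set ℕ) →+* D),
        ¬ ∀ (ℓ : ℕ) (hℓ : ℓ.Prime) (hℓN' : ¬ ℓ ∣ pvLevel N1 qP qv)
          (hℓS : ℓ ∉ (↑(twSet S qv) : Set ℕ)) (hℓN : ¬ ℓ ∣ pvLevel N1 qP qv / qP j),
          χ' (CuspForm.heckeAlgebra.T hℓ hℓN hℓS) = χ (CuspForm.heckeAlgebra.T hℓ hℓN' hℓS)

/-- **PV-GEOM** (item 72, LG-NEB with `Δ = Δ_Σ × Δ_Q`): the geometric datum exists for every
Taylor–Wiles family.  `N1 = M₀ ∏ q_j` squarefree, prime to `p`; the pivot primes divide `N1`. -/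
def Stmt_PVGeom : Prop :=
  ∀ (𝒪 : Type) [CommRing 𝒪] [IsDomain 𝒪] [IsDiscreteValuationRing 𝒪]
    [IsAdicComplete (maximalIdeal 𝒪) 𝒪] [Finite (ResidueField 𝒪)] [CharZero 𝒪]
    (p : ℕ) [Fact p.Prime], 5 ≤ p → (p : 𝒪) ∈ maximalIdeal 𝒪 →
    ∀ (N1 : ℕ) [NeZero N1] (S : Finset ℕ), p ∈ S → (∀ q : ℕ, q.Prime → q ∣ N1 → q ∈ S) →
    Squarefree N1 → ¬ p ∣ N1 →
    ∀ (ρbar : ResidualGaloisRep (ResidueField 𝒪)), ρbar.IsAbsolutelyIrreducible →
    ∀ (θ : CuspForm.heckeAlgebra N1 2 (↑S : Set ℕ) →+* ResidueField 𝒪),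
      Fermat.Agent.S59.Datum.FrobHyp ρbar N1 S θ →
    ∀ (k : ℕ) (Pv : PivotPrimes k), Pv.IsExceptional p ρbar → (∀ j, Pv.q j ∣ N1) →
    ∀ (eP : Fin k → ℕ), (∀ j, p ^ eP j ∣ Pv.q j - 1 ∧ ¬ p ^ (eP j + 1) ∣ Pv.q j - 1) →
    ∃ M : HMod 𝒪 N1 (↑S : Set ℕ) θ, Nontrivial M.V ∧
      ∀ (r n : ℕ) (qv : Fin r → ℕ), IsTWFamily ρbar p n S qv →
        ∀ [NeZero (twLevel N1 qv)] [NeZero (pvLevel N1 Pv.q qv)],
          Nonempty (PVGeom 𝒪 p ρbar N1 S θ M Pv.q eP n qv)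

/-! ### The algebraic core of the assembly -/

/-- **PV-CORE** (pure algebra; model: `Fermat.Agent.S59.Asm.twLevel_of_core` and
`Fermat.Agent.S59.TWLevel.toPatchingLevel`).  `P ↠ RQ ↠ T`, `RQ` acts on `V`, `V` is free over
`𝒪[Δ_Σ × Δ_Q]` with diamond operators `c_j` (commuting with `RQ`) and `d_i = fV (δ_i)`;
`N1 = V / ∑ (c_j - 1) V`, `Nχ = V / ∑ (c_j - ψ_j) V` with `ψ_j ≡ 1 mod ϖ`;
`π : V → M` with kernel `∑ (c_j - 1) V + ∑ (d_i - 1) V`. -/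
def Stmt_PVCore : Prop :=
  ∀ (𝒪 : Type) [CommRing 𝒪] [IsLocalRing 𝒪] [IsNoetherianRing 𝒪]
    [IsAdicComplete (maximalIdeal 𝒪) 𝒪] (ϖ : 𝒪) (p r n k h : ℕ)
    (T : Type) [CommRing T] [Algebra 𝒪 T]
    (M : Type) [AddCommGroup M] [Module 𝒪 M] [Module T M] [IsScalarTower 𝒪 T M]
    (I1 Iχ 𝔵 : Ideal (MvPowerSeries (Fin h) 𝒪)) (Ξ : Ideal T)
    (RQ : Type) [CommRing RQ] [IsLocalRing RQ] [Algebra 𝒪 RQ]
    (γ : MvPowerSeries (Fin h) 𝒪 →ₐ[𝒪] RQ), Function.Surjective γ →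
    ∀ (τ : RQ →ₐ[𝒪] T), Function.Surjective τ →
    Ξ ≤ Ideal.map ((τ.comp γ : MvPowerSeries (Fin h) 𝒪 →ₐ[𝒪] T) :
      MvPowerSeries (Fin h) 𝒪 →+* T) 𝔵 →
    ∀ (V : Type) [AddCommGroup V] [Module 𝒪 V] (fV : RQ →ₐ[𝒪] Module.End 𝒪 V)
      (δ : Fin r → RQ), (∀ i, δ i - 1 ∈ maximalIdeal RQ) → (∀ i, τ (δ i) = 1) →
    ∀ (d : Fin r → Module.End 𝒪 V), (∀ i, fV (δ i) = d i) → (∀ i, d i ^ (p ^ n) = 1) →
    ∀ (e : Fin k → ℕ) (c : Fin k → Module.End 𝒪 V), (∀ j, c j ^ (p ^ e j) = 1) →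
      (∀ i j, Commute (c i) (c j)) → (∀ j (a : RQ), Commute (c j) (fV a)) →
    ∀ (ψ : Fin k → 𝒪), (∀ j, ψ j ^ (p ^ e j) = 1) → (∀ j, ψ j - 1 ∈ Ideal.span {ϖ}) →
    ∀ (rk : ℕ) (b : Fin rk → V),
      Function.Bijective
        (fun f : Fin rk × (∀ j : Fin k, Fin (p ^ e j)) × (Fin r → Fin (p ^ n)) → 𝒪 =>
          ∑ x : Fin rk × (∀ j : Fin k, Fin (p ^ e j)) × (Fin r → Fin (p ^ n)),
            f x • Fermat.Agent.S59.TWH.H90.mon c (fun j => (x.2.1 j : ℕ))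
              (Fermat.Agent.S59.TWH.H90.mon d (fun i => (x.2.2 i : ℕ)) (b x.1))) →
    ∀ (π : V →ₗ[𝒪] M), Function.Surjective π →
      LinearMap.ker π = typeSub c (fun _ => (1 : 𝒪)) ⊔ ⨆ i, LinearMap.range (d i - 1) →
      (∀ (a : RQ) (v : V), π (fV a v) = τ a • π v) →
      (∀ f ∈ I1, ∀ v : V, fV (γ f) v ∈ typeSub c (fun _ => (1 : 𝒪))) →
      (∀ f ∈ Iχ, ∀ v : V, fV (γ f) v ∈ typeSub c ψ) →
      Nonempty (PivotLevel 𝒪 r h T M ϖ I1 Iχ 𝔵 Ξ (twIdealP 𝒪 r p n) rk)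

/-! ### Old forms: PV-OLD -/

open Fermat.Agent.S30 in
/-- **Interface to BAD_q (item 65), Steinberg primes, inertia invariants.**  The Tate piece of a
newform `g` of level `M` (as in `Fermat.Agent.S35.Stmt_TatePieceSt`) with, in addition: at a prime
`q ∥ M`, `q ≠ λ`, every vector fixed by an inertia group `I_A` over `q` satisfies
`Frob² v = q² v` (the inertia invariants of the `q`-new part are the toric part, on which
Frobenius is `± q`). -/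
def Stmt_TatePieceStI : Prop :=
  ∀ {M : ℕ} [NeZero M] {g : CuspForm (CongruenceSubgroup.Gamma0 M) 2} (_hg : g.IsNewform)
    (lam : ℕ) [Fact lam.Prime] (S : Finset ℕ)
    (O' : Type) [CommRing O'] [IsDomain O'] [IsDiscreteValuationRing O']
    [IsAdicComplete (IsLocalRing.maximalIdeal O') O'] [Finite (IsLocalRing.ResidueField O')]
    [CharZero O'] (_hlamO' : (lam : O') ∈ IsLocalRing.maximalIdeal O')
    (chig : CuspForm.heckeAlgebra M 2 (↑S : Set ℕ) →+* ℂ)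
    (_hchig : ∀ (ℓ : ℕ) (hℓ : ℓ.Prime) (hℓM : ¬ ℓ ∣ M) (hℓS : ℓ ∉ (↑S : Set ℕ)),
      chig (CuspForm.heckeAlgebra.T hℓ hℓM hℓS) = ModularFormClass.qCoeff g ℓ)
    (iota : chig.range →+* O')
    (_hlamS : lam ∈ S) (_hMS : ∀ q : ℕ, q.Prime → q ∣ M → q ∈ S),
    ∃ (r : ℕ) (ρ : Fermat.Agent.S30.GQ →* Matrix (Fin r) (Fin r) O'), 0 < r ∧ MatAdicCont ρ ∧
      (∀ (ℓ : ℕ) (hℓ : ℓ.Prime) (hℓM : ¬ ℓ ∣ M) (hℓS : ℓ ∉ (↑S : Set ℕ)),
        ∀ A : ValuationSubring (AlgebraicClosure ℚ), A.LiesOverPrime ℓ →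
          ∀ σ : Fermat.Agent.S30.GQ, A.IsFrobeniusAt σ ℓ →
            ρ σ * ρ σ - (iota.comp chig.rangeRestrict) (CuspForm.heckeAlgebra.T hℓ hℓM hℓS) • ρ σ
              + (ℓ : O') • (1 : Matrix _ _ O') = 0) ∧
      (∀ q : ℕ, q.Prime → q ≠ lam → q ∣ M → ¬ q ^ 2 ∣ M →
        ∀ A : ValuationSubring (AlgebraicClosure ℚ), A.LiesOverPrime q →
          ∀ σ : Fermat.Agent.S30.GQ, A.IsFrobeniusAt σ q →
            ∀ v : Fin r → O', (∀ τ ∈ A.inertiaSubgroupIn ℚ, (ρ τ).mulVec v = v) →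
              (ρ σ).mulVec ((ρ σ).mulVec v) = (q : O') ^ 2 • v)

/-- **PV-OLD.**  A characteristic-`0` point of a Hecke–Galois datum of level `N` at which the
representation is unramified at a prime `q ∥ N`, `q ≠ p`, comes (residually) from the level
`N / q`.  [Newform of the eigensystem: level `M_g ∣ N`; if `q ∣ M_g` then `Stmt_TatePieceStI`
gives `Frob² = q²` on a two-dimensional unramified piece of determinant `q`: `q⁴ = q²`.] -/
def Stmt_PVOld : Prop :=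
  ∀ (𝒪 : Type) [CommRing 𝒪] [IsDomain 𝒪] [IsDiscreteValuationRing 𝒪]
    [IsAdicComplete (maximalIdeal 𝒪) 𝒪] [Finite (ResidueField 𝒪)] [CharZero 𝒪]
    (p : ℕ) [Fact p.Prime], p ≠ 2 → (p : 𝒪) ∈ maximalIdeal 𝒪 →
    ∀ (N : ℕ) [NeZero N] (S : Finset ℕ), p ∈ S → (∀ q : ℕ, q.Prime → q ∣ N → q ∈ S) →
    ∀ (θ : CuspForm.heckeAlgebra N 2 (↑S : Set ℕ) →+* ResidueField 𝒪)
      (T : Type) [CommRing T] [IsLocalRing T] [IsNoetherianRing T]
      [IsAdicComplete (maximalIdeal T) T] [Algebra 𝒪 T] [IsLocalHom (algebraMap 𝒪 T)]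
      [Module.Finite 𝒪 T] [Module.Free 𝒪 T]
      (H : CuspForm.HeckeGaloisRepDatum N (↑S : Set ℕ) 𝒪 θ T), H.ρ.DetIsCyclotomic p →
    ∀ (q : ℕ), q.Prime → q ≠ p → q ∣ N → ¬ q ^ 2 ∣ N →
    ∀ (𝔱 : Ideal T), 𝔱.IsPrime → (p : T) ∉ 𝔱 →
      (∀ A : ValuationSubring (AlgebraicClosure ℚ), A.LiesOverPrime q →
        ∀ σ ∈ A.inertiaSubgroupIn ℚ, ∀ v : H.ρ.V,
          H.ρ.ρ σ v - v ∈ (𝔱 • ⊤ : Submodule T H.ρ.V)) →
      ∀ [NeZero (N / q)], ∃ θ' : CuspForm.heckeAlgebra (N / q) 2 (↑S : Set ℕ) →+* ResidueField 𝒪,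
        ∀ (ℓ : ℕ) (hℓ : ℓ.Prime) (hℓN : ¬ ℓ ∣ N) (hℓS : ℓ ∉ (↑S : Set ℕ)) (hℓN' : ¬ ℓ ∣ N / q),
          θ' (CuspForm.heckeAlgebra.T hℓ hℓN' hℓS) = θ (CuspForm.heckeAlgebra.T hℓ hℓN hℓS)

/-! ### The target -/

/-- **PIVOT, Hecke–Galois form.**  `ρbar` (absolutely irreducible, Taylor–Wiles condition,
cyclotomic determinant) is modular of level `N1` (squarefree, prime to `p`; `θ`); `S` = `p`, the
primes where `ρbar` is ramified (`Smin`, all dividing `N1`) and the exceptional primes `Pv`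
dividing `N1`; `𝒪` contains the `p`-power roots of unity of order dividing `q_j - 1`.
Then `ρbar` is modular of level `N1 / q_j` for every pivot prime `q_j`. -/
def Stmt_PivotCore : Prop :=
  ∀ (𝒪 : Type) [CommRing 𝒪] [IsDomain 𝒪] [IsDiscreteValuationRing 𝒪]
    [IsAdicComplete (maximalIdeal 𝒪) 𝒪] [Finite (ResidueField 𝒪)] [CharZero 𝒪]
    (p : ℕ) [Fact p.Prime], 5 ≤ p →
    ∀ (ρbar : ResidualGaloisRep (ResidueField 𝒪)) (S Smin : Finset ℕ),
    Hyp 𝒪 p ρbar S Smin →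
    ∀ (N1 : ℕ) [NeZero N1], Squarefree N1 → ¬ p ∣ N1 → (∀ q : ℕ, q.Prime → q ∣ N1 → q ∈ S) →
    ∀ (θ : CuspForm.heckeAlgebra N1 2 (↑S : Set ℕ) →+* ResidueField 𝒪),
      Fermat.Agent.S59.Datum.FrobHyp ρbar N1 S θ →
    ∀ (k : ℕ) (Pv : PivotPrimes k), Pv.IsExceptional p ρbar → (∀ j, Pv.q j ∣ N1) →
      S = Smin ∪ Pv.set → (∀ q ∈ Smin, q ≠ p → q ∣ N1) →
      (∀ (j : Fin k) (e : ℕ), p ^ e ∣ Pv.q j - 1 → ∃ ζ : 𝒪, IsPrimitiveRoot ζ (p ^ e)) →
    ∀ (j : Fin k) [NeZero (N1 / Pv.q j)],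
      ∃ θ' : CuspForm.heckeAlgebra (N1 / Pv.q j) 2 (↑S : Set ℕ) →+* ResidueField 𝒪,
        ∀ (ℓ : ℕ) (hℓ : ℓ.Prime) (hℓN : ¬ ℓ ∣ N1) (hℓS : ℓ ∉ (↑S : Set ℕ))
          (hℓN' : ¬ ℓ ∣ N1 / Pv.q j),
          θ' (CuspForm.heckeAlgebra.T hℓ hℓN' hℓS) = θ (CuspForm.heckeAlgebra.T hℓ hℓN hℓS)

end Fermat.Agent.L.Pivot

end

end
-- ==== END Fermat.Agent.L.Pivot.Global

-- ==== BEGIN Fermat.Agent.L.Pivot.H52_TPTower
section

set_option autoImplicit false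
set_option linter.style.haveILetI false
set_option linter.unusedSectionVars false

namespace Fermat.Agent.L.Pivot.H52

open IsLocalRing

/-! ### Kernel of `PowerSeries.map` -/

section KerMap

variable {R A : Type*} [CommRing R] [CommRing A]

theorem ker_powerSeries_map (Φ : R →+* A) (hfg : (RingHom.ker Φ).FG) :
    RingHom.ker (PowerSeries.map Φ) = (RingHom.ker Φ).map (PowerSeries.C (R := R)) := by
  classical
  apply le_antisymm
  · intro f hf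
    obtain ⟨s, hs⟩ := hfg
    have hcoef : ∀ n, PowerSeries.coeff n f ∈ Ideal.span (s : Set R) := by
      intro n
      rw [hs, RingHom.mem_ker]
      have := congrArg (PowerSeries.coeff n) ((RingHom.mem_ker).1 hf)
      simpa using this
    have hex : ∀ n, ∃ c : R → R, ∑ i ∈ s, c i * i = PowerSeries.coeff n f := by
      intro n
      obtain ⟨c, -, hc⟩ := Submodule.mem_span_finset.1 (hcoef n)
      exact ⟨c, by simpa [smul_eq_mul] using hc⟩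
    choose c hc using hex
    have hf' : f = ∑ i ∈ s, PowerSeries.mk (fun n => c n i) * PowerSeries.C i := by
      ext n
      rw [map_sum]
      simp only [PowerSeries.coeff_mul_C, PowerSeries.coeff_mk]
      exact (hc n).symm
    rw [hf']
    refine Ideal.sum_mem _ fun i hi => Ideal.mul_mem_left _ _ (Ideal.mem_map_of_mem _ ?_)
    rw [← hs]
    exact Ideal.subset_span hi
  · rw [Ideal.map_le_iff_le_comap]
    intro x hx
    rw [Ideal.mem_comap, RingHom.mem_ker, PowerSeries.map_C]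
    rw [RingHom.mem_ker] at hx
    rw [hx, map_zero]

end KerMap

/-! ### Quotients of complete noetherian local rings -/

section Quot

variable {R : Type} [CommRing R] [IsLocalRing R] [IsNoetherianRing R]
  [IsAdicComplete (maximalIdeal R) R]

theorem isLocalRing_quotient (I : Ideal R) (hI : I ≠ ⊤) : IsLocalRing (R ⧸ I) := by
  haveI : Nontrivial (R ⧸ I) := Ideal.Quotient.nontrivial_iff.2 hI
  exact IsLocalRing.of_surjective' (Ideal.Quotient.mk I) Ideal.Quotient.mk_surjective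

theorem isLocalHom_quotient_mk (I : Ideal R) (hI : I ≠ ⊤) : IsLocalHom (Ideal.Quotient.mk I) := by
  apply isLocalHom_of_le_jacobson_bot
  rw [IsLocalRing.jacobson_eq_maximalIdeal ⊥ bot_ne_top]
  exact IsLocalRing.le_maximalIdeal hI

theorem isAdicComplete_quotient (I : Ideal R) (hI : I ≠ ⊤) :
    letI := isLocalRing_quotient I hI
    IsAdicComplete (maximalIdeal (R ⧸ I)) (R ⧸ I) := by
  letI := isLocalRing_quotient I hI
  haveI : IsLocalHom (algebraMap R (R ⧸ I)) := isLocalHom_quotient_mk I hI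
  exact IsLocalRing.isAdicComplete_of_module_finite (𝒪 := R) (T := R ⧸ I)

theorem mk_mem_maximalIdeal (I : Ideal R) (hI : I ≠ ⊤) {x : R} (hx : x ∈ maximalIdeal R) :
    letI := isLocalRing_quotient I hI
    Ideal.Quotient.mk I x ∈ maximalIdeal (R ⧸ I) := by
  letI := isLocalRing_quotient I hI
  rw [mem_maximalIdeal, mem_nonunits_iff] at hx ⊢
  intro h
  haveI := isLocalHom_quotient_mk I hI
  exact hx (isUnit_of_map_unit (Ideal.Quotient.mk I) x h)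

end Quot

/-! ### The tower `R_n = 𝒪⟦X_0, …, X_{n-1}⟧` -/

section Tower

variable (𝒪 : Type) [CommRing 𝒪]

/-- `R_n = 𝒪⟦X_0, …, X_{n-1}⟧`. -/
abbrev Rn (n : ℕ) : Type := MvPowerSeries (Fin n) 𝒪

/-- `R_{n+1} ≃ R_n⟦X⟧` as a ring homomorphism. -/
noncomputable def fseHom (n : ℕ) : Rn 𝒪 (n + 1) →+* PowerSeries (Rn 𝒪 n) :=
  ((MvPowerSeries.finSuccEquiv 𝒪 n).toRingEquiv : Rn 𝒪 (n + 1) →+* PowerSeries (Rn 𝒪 n))

/-- The inclusion `R_n → R_{n+1}`, `X_i ↦ X_{i+1}`. -/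
noncomputable def shift (n : ℕ) : Rn 𝒪 n →+* Rn 𝒪 (n + 1) :=
  ((MvPowerSeries.finSuccEquiv 𝒪 n).symm.toRingEquiv :
    PowerSeries (Rn 𝒪 n) →+* Rn 𝒪 (n + 1)).comp PowerSeries.C

variable {𝒪}

theorem fseHom_apply (n : ℕ) (f : Rn 𝒪 (n + 1)) :
    fseHom 𝒪 n f = MvPowerSeries.finSuccEquiv 𝒪 n f := rfl

theorem fseHom_bijective (n : ℕ) : Function.Bijective (fseHom 𝒪 n) :=
  (MvPowerSeries.finSuccEquiv 𝒪 n).toRingEquiv.bijective

theorem fseHom_shift (n : ℕ) (f : Rn 𝒪 n) : fseHom 𝒪 n (shift 𝒪 n f) = PowerSeries.C f := by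
  change MvPowerSeries.finSuccEquiv 𝒪 n ((MvPowerSeries.finSuccEquiv 𝒪 n).symm (PowerSeries.C f)) = _
  exact AlgEquiv.apply_symm_apply _ _

theorem shift_X (n : ℕ) (i : Fin n) :
    shift 𝒪 n (MvPowerSeries.X i) = MvPowerSeries.X i.succ := by
  apply (fseHom_bijective n).1
  rw [fseHom_shift, fseHom_apply, MvPowerSeries.finSuccEquiv_X_succ]

theorem shift_C (n : ℕ) (a : 𝒪) :
    shift 𝒪 n (MvPowerSeries.C a) = MvPowerSeries.C a := by
  apply (fseHom_bijective n).1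
  rw [fseHom_shift, fseHom_apply, MvPowerSeries.finSuccEquiv_C]

theorem fseHom_X_zero (n : ℕ) :
    fseHom 𝒪 n (MvPowerSeries.X 0) = PowerSeries.X := by
  rw [fseHom_apply, MvPowerSeries.finSuccEquiv_X_zero]

/-- The map `R_{n+1} → E⟦X⟧` induced by `Φ : R_n → E`. -/
noncomputable def lift1 {n : ℕ} {E : Type*} [CommRing E] (Φ : Rn 𝒪 n →+* E) :
    Rn 𝒪 (n + 1) →+* PowerSeries E :=
  (PowerSeries.map Φ).comp (fseHom 𝒪 n)

section Lift1

variable {n : ℕ} {E : Type*} [CommRing E] (Φ : Rn 𝒪 n →+* E)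

theorem lift1_apply (f : Rn 𝒪 (n + 1)) : lift1 Φ f = PowerSeries.map Φ (fseHom 𝒪 n f) := rfl

theorem lift1_shift (f : Rn 𝒪 n) : lift1 Φ (shift 𝒪 n f) = PowerSeries.C (Φ f) := by
  rw [lift1_apply, fseHom_shift, PowerSeries.map_C]

theorem lift1_X_zero : lift1 Φ (MvPowerSeries.X 0) = PowerSeries.X := by
  rw [lift1_apply, fseHom_X_zero, PowerSeries.map_X]

theorem lift1_X_succ (i : Fin n) :
    lift1 Φ (MvPowerSeries.X i.succ) = PowerSeries.C (Φ (MvPowerSeries.X i)) := by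
  rw [← shift_X, lift1_shift]

theorem lift1_C (a : 𝒪) :
    lift1 Φ (MvPowerSeries.C a) = PowerSeries.C (Φ (MvPowerSeries.C a)) := by
  rw [← shift_C, lift1_shift]

theorem lift1_surjective (hΦ : Function.Surjective Φ) : Function.Surjective (lift1 Φ) :=
  (PowerSeries.map_surjective Φ hΦ).comp (fseHom_bijective n).2

theorem ker_lift1 (hfg : (RingHom.ker Φ).FG) :
    RingHom.ker (lift1 Φ) = (RingHom.ker Φ).map (shift 𝒪 n) := by
  ext x
  rw [RingHom.mem_ker, lift1_apply, ← RingHom.mem_ker, ker_powerSeries_map Φ hfg]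
  constructor
  · intro h
    have h1 : x = ((MvPowerSeries.finSuccEquiv 𝒪 n).symm.toRingEquiv :
        PowerSeries (Rn 𝒪 n) →+* Rn 𝒪 (n + 1)) (fseHom 𝒪 n x) := by
      change x = (MvPowerSeries.finSuccEquiv 𝒪 n).symm (MvPowerSeries.finSuccEquiv 𝒪 n x)
      exact (AlgEquiv.symm_apply_apply _ _).symm
    rw [h1]
    have h2 := Ideal.mem_map_of_mem ((MvPowerSeries.finSuccEquiv 𝒪 n).symm.toRingEquiv :
        PowerSeries (Rn 𝒪 n) →+* Rn 𝒪 (n + 1)) h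
    rw [Ideal.map_map] at h2
    exact h2
  · intro h
    have h2 := Ideal.mem_map_of_mem (fseHom 𝒪 n) h
    rw [Ideal.map_map] at h2
    have h3 : (fseHom 𝒪 n).comp (shift 𝒪 n) = PowerSeries.C := by
      ext f : 1
      exact fseHom_shift n f
    rwa [h3] at h2

end Lift1

variable (𝒪)

/-- `S` generates a prime ideal of `R_n` that meets `𝒪` trivially. -/
def Good (n : ℕ) (S : Set (Rn 𝒪 n)) : Prop :=
  (Ideal.span S).IsPrime ∧ ∀ a : 𝒪, MvPowerSeries.C a ∈ Ideal.span S → a = 0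

variable {𝒪}

theorem ker_fg [IsNoetherianRing 𝒪] {n : ℕ} {E : Type*} [CommRing E] (Φ : Rn 𝒪 n →+* E) :
    (RingHom.ker Φ).FG :=
  (isNoetherianRing_iff_ideal_fg _).1 inferInstance _

/-- Adding a free variable. -/
theorem good_free_step [IsNoetherianRing 𝒪] {n : ℕ} {S : Set (Rn 𝒪 n)} (hS : Good 𝒪 n S) :
    Good 𝒪 (n + 1) (shift 𝒪 n '' S) := by
  obtain ⟨hp, h0⟩ := hS
  haveI := hp
  let Φ₀ : Rn 𝒪 n →+* Rn 𝒪 n ⧸ Ideal.span S := Ideal.Quotient.mk _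
  have hk0 : RingHom.ker Φ₀ = Ideal.span S := Ideal.mk_ker
  have hk1 : RingHom.ker (lift1 Φ₀) = Ideal.span (shift 𝒪 n '' S) := by
    rw [ker_lift1 Φ₀ (ker_fg Φ₀), hk0, Ideal.map_span]
  rw [Good, ← hk1]
  refine ⟨RingHom.ker_isPrime _, fun a ha => ?_⟩
  rw [RingHom.mem_ker, lift1_C] at ha
  have h1 : Φ₀ (MvPowerSeries.C a) = 0 := by
    have := congrArg PowerSeries.constantCoeff ha
    simpa using this
  exact h0 a (by rw [← hk0]; exact h1)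

end Tower

/-! ### Adjoining a quadric `m² + 4yz = δ²` -/

section QuadStep

variable {𝒪 : Type} [CommRing 𝒪]

/-- The quadric `X_{p 2}² + 4 X_{p 0} X_{p 1} − d²`. -/
noncomputable def towerGen {n : ℕ} (p : Fin 3 → Fin n) (d : 𝒪) : Rn 𝒪 n :=
  MvPowerSeries.X (p 2) ^ 2 + 4 * MvPowerSeries.X (p 0) * MvPowerSeries.X (p 1) -
    MvPowerSeries.C (d ^ 2)

/-- The positions of a new block: `y ↦ 2`, `z ↦ 1`, `m ↦ 0`. -/
def pos0 (n : ℕ) (t : Fin 3) : Fin (n + 3) := ⟨2 - t.1, by omega⟩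

theorem shift_towerGen {n : ℕ} (p : Fin 3 → Fin n) (d : 𝒪) :
    shift 𝒪 n (towerGen p d) = towerGen (fun t => (p t).succ) d := by
  have h4 : shift 𝒪 n (4 : Rn 𝒪 n) = 4 := map_ofNat _ 4
  simp only [towerGen, map_sub, map_add, map_mul, map_pow, shift_X, shift_C, h4]

variable [IsDomain 𝒪] [IsLocalRing 𝒪] [IsNoetherianRing 𝒪] [IsAdicComplete (maximalIdeal 𝒪) 𝒪]

theorem C_mem_maximalIdeal_Rn (n : ℕ) {a : 𝒪} (ha : a ∈ maximalIdeal 𝒪) :
    (MvPowerSeries.C a : Rn 𝒪 n) ∈ maximalIdeal (Rn 𝒪 n) := by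
  rw [mem_maximalIdeal, mem_nonunits_iff, MvPowerSeries.isUnit_iff_constantCoeff]
  simpa using ha

/-- Adjoining a quadric: three new variables `m = X_0`, `z = X_1`, `y = X_2` and the relation
`m² + 4yz = δ²`. -/
theorem good_quad_step {n : ℕ} {S : Set (Rn 𝒪 n)} (hS : Good 𝒪 n S) (hu : IsUnit (2 : 𝒪))
    {δ : 𝒪} (hδ0 : δ ≠ 0) (hδm : δ ∈ maximalIdeal 𝒪) :
    Good 𝒪 (n + 3) (shift 𝒪 (n + 2) '' (shift 𝒪 (n + 1) '' (shift 𝒪 n '' S)) ∪
      {towerGen (pos0 n) δ}) := by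
  obtain ⟨hp, h0⟩ := hS
  haveI := hp
  haveI : IsAdicComplete (maximalIdeal (Rn 𝒪 n)) (Rn 𝒪 n) :=
    Fermat.Agent.S53.Limit.isAdicComplete_mvPowerSeries_fin 𝒪 n
  have hne : Ideal.span S ≠ ⊤ := hp.ne_top
  letI : IsLocalRing (Rn 𝒪 n ⧸ Ideal.span S) := isLocalRing_quotient _ hne
  haveI : IsAdicComplete (maximalIdeal (Rn 𝒪 n ⧸ Ideal.span S)) (Rn 𝒪 n ⧸ Ideal.span S) :=
    isAdicComplete_quotient _ hne
  let Φ₀ : Rn 𝒪 n →+* Rn 𝒪 n ⧸ Ideal.span S := Ideal.Quotient.mk _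
  have hδ'0 : Φ₀ (MvPowerSeries.C δ) ≠ 0 :=
    fun h => hδ0 (h0 δ (Ideal.Quotient.eq_zero_iff_mem.1 h))
  have hδ'm : Φ₀ (MvPowerSeries.C δ) ∈ maximalIdeal (Rn 𝒪 n ⧸ Ideal.span S) :=
    mk_mem_maximalIdeal _ hne (C_mem_maximalIdeal_Rn n hδm)
  have hu' : IsUnit (2 : Rn 𝒪 n ⧸ Ideal.span S) := by
    have := hu.map (Φ₀.comp (MvPowerSeries.C (σ := Fin n) (R := 𝒪)))
    rwa [map_ofNat] at this
  have han := aniso_disc hu' hδ'0 hδ'm
  haveI c1 : IsAdicComplete (maximalIdeal (PowerSeries (Rn 𝒪 n ⧸ Ideal.span S)))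
      (PowerSeries (Rn 𝒪 n ⧸ Ideal.span S)) :=
    Fermat.Agent.S53.Limit.isAdicComplete_powerSeries _
  haveI c2 : IsAdicComplete (maximalIdeal (PowerSeries (PowerSeries (Rn 𝒪 n ⧸ Ideal.span S))))
      (PowerSeries (PowerSeries (Rn 𝒪 n ⧸ Ideal.span S))) :=
    Fermat.Agent.S53.Limit.isAdicComplete_powerSeries _
  have hDm : (PowerSeries.C (PowerSeries.C (Φ₀ (MvPowerSeries.C δ) ^ 2)) -
      4 * PowerSeries.C (PowerSeries.X : PowerSeries (Rn 𝒪 n ⧸ Ideal.span S)) * PowerSeries.X :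
      PowerSeries (PowerSeries (Rn 𝒪 n ⧸ Ideal.span S))) ∈
      maximalIdeal (PowerSeries (PowerSeries (Rn 𝒪 n ⧸ Ideal.span S))) := by
    rw [mem_maximalIdeal, mem_nonunits_iff, PowerSeries.isUnit_iff_constantCoeff,
      PowerSeries.isUnit_iff_constantCoeff]
    have h1 : PowerSeries.constantCoeff (PowerSeries.constantCoeff
        (PowerSeries.C (PowerSeries.C (Φ₀ (MvPowerSeries.C δ) ^ 2)) -
      4 * PowerSeries.C (PowerSeries.X : PowerSeries (Rn 𝒪 n ⧸ Ideal.span S)) * PowerSeries.X :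
      PowerSeries (PowerSeries (Rn 𝒪 n ⧸ Ideal.span S)))) = Φ₀ (MvPowerSeries.C δ) ^ 2 := by
      simp
    rw [h1]
    have h2 := Ideal.pow_mem_of_mem _ hδ'm 2 (by norm_num)
    rwa [mem_maximalIdeal, mem_nonunits_iff] at h2
  obtain ⟨hq1, hq2⟩ := qprime (maximalIdeal (PowerSeries (PowerSeries (Rn 𝒪 n ⧸ Ideal.span S))))
    hDm han
  have hG : lift1 (lift1 (lift1 Φ₀)) (towerGen (pos0 n) δ) =
      PowerSeries.X ^ 2 - PowerSeries.C
        (PowerSeries.C (PowerSeries.C (Φ₀ (MvPowerSeries.C δ) ^ 2)) -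
          4 * PowerSeries.C (PowerSeries.X : PowerSeries (Rn 𝒪 n ⧸ Ideal.span S)) *
            PowerSeries.X) := by
    have e2 : pos0 n 2 = 0 := rfl
    have e0 : pos0 n 0 = ((0 : Fin (n + 1)).succ).succ := rfl
    have e1 : pos0 n 1 = (0 : Fin (n + 2)).succ := rfl
    have h4 : lift1 (lift1 (lift1 Φ₀)) (4 : Rn 𝒪 (n + 3)) = 4 := map_ofNat _ 4
    have h4' : (PowerSeries.C (4 : PowerSeries (PowerSeries (Rn 𝒪 n ⧸ Ideal.span S)))) = 4 :=
      map_ofNat _ 4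
    rw [towerGen, e2, e0, e1]
    simp only [map_sub, map_add, map_mul, map_pow, h4, h4', lift1_X_zero, lift1_X_succ, lift1_C]
    ring
  have hk3 : RingHom.ker (lift1 (lift1 (lift1 Φ₀))) =
      Ideal.span (shift 𝒪 (n + 2) '' (shift 𝒪 (n + 1) '' (shift 𝒪 n '' S))) := by
    rw [ker_lift1 _ (ker_fg _), ker_lift1 _ (ker_fg _), ker_lift1 _ (ker_fg _), Ideal.mk_ker,
      Ideal.map_span, Ideal.map_span, Ideal.map_span]
  have hsurj : Function.Surjective (lift1 (lift1 (lift1 Φ₀))) :=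
    lift1_surjective _ (lift1_surjective _ (lift1_surjective _ Ideal.Quotient.mk_surjective))
  have hI3 : Ideal.span (shift 𝒪 (n + 2) '' (shift 𝒪 (n + 1) '' (shift 𝒪 n '' S)) ∪
      {towerGen (pos0 n) δ}) = Ideal.comap (lift1 (lift1 (lift1 Φ₀)))
        (Ideal.span {PowerSeries.X ^ 2 - PowerSeries.C
        (PowerSeries.C (PowerSeries.C (Φ₀ (MvPowerSeries.C δ) ^ 2)) -
          4 * PowerSeries.C (PowerSeries.X : PowerSeries (Rn 𝒪 n ⧸ Ideal.span S)) *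
            PowerSeries.X)}) := by
    have hcomap : Ideal.comap (lift1 (lift1 (lift1 Φ₀)))
        (Ideal.span {lift1 (lift1 (lift1 Φ₀)) (towerGen (pos0 n) δ)}) =
        RingHom.ker (lift1 (lift1 (lift1 Φ₀))) ⊔ Ideal.span {towerGen (pos0 n) δ} := by
      have h1 : Ideal.span {lift1 (lift1 (lift1 Φ₀)) (towerGen (pos0 n) δ)} =
          Ideal.map (lift1 (lift1 (lift1 Φ₀))) (Ideal.span {towerGen (pos0 n) δ}) := by
        rw [Ideal.map_span, Set.image_singleton]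
      rw [h1, Ideal.comap_map_of_surjective _ hsurj, sup_comm]
      rfl
    rw [Ideal.span_union, ← hk3, ← hG, hcomap]
  rw [Good, hI3]
  refine ⟨Ideal.comap_isPrime _ _, fun a ha => ?_⟩
  rw [Ideal.mem_comap, lift1_C, lift1_C, lift1_C] at ha
  have h1 := hq2 _ ha
  have h2 : Φ₀ (MvPowerSeries.C a) = 0 := by
    have := congrArg PowerSeries.constantCoeff (congrArg PowerSeries.constantCoeff h1)
    simpa using this
  exact h0 a (Ideal.Quotient.eq_zero_iff_mem.1 h2)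

end QuadStep

end Fermat.Agent.L.Pivot.H52

end
-- ==== END Fermat.Agent.L.Pivot.H52_TPTower
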