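-- GENERATED (merged mirror, NOTES/tools/trim/merge3_helper67.py): 7 modules of the originals, bodies verbatim.
import Fermat.Agent.Zm.S43_L01_000
import Fermat.Agent.Zm.S43_L05_000
import Fermat.Agent.Zm.S43_L05_002
import Fermat.Agent.Zm.S43_L04_000
import Fermat.Agent.Zm.S56_L09_002
import Fermat.Agent.Zm.S56_L11_003
import Fermat.Agent.Zm.S56_L03_005
import Fermat.Agent.Zm.S56_L09_005
import Fermat.Agent.Zm.S43_L01_001
import Fermat.Agent.Zm.S35_L05_005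
import Fermat.Agent.Zm.S35_L06_003
import Fermat.Agent.Zm.S35_L04_002
import Fermat.Agent.Zm.S35_L02_001
import Fermat.Agent.Zm.S43_L01_003
import Fermat.Agent.Zm.S33_L01_002
import Fermat.Agent.Zm.S56_L02_000
import Fermat.Agent.Zm.S43_L01_004
import Fermat.Agent.Zm.S35_L24_000

-- ==== BEGIN Fermat.Agent.L.Pivot.Geom.H3_Lin
section

/-!
# PIVOT, PV-GEOM, leaf PVG-LIN (helper3)

`F` a finite free `𝒪`-module (the Tate module of `W`), `c_j` commuting automorphisms of finite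
order `n_j` (the diamond operators at the pivot primes), `ψ_j ∈ 𝒪` with `ψ_j ^ n_j = 1`,
`typeSub c ψ = ∑ range (c_j - ψ_j)` saturated in `F`; `η : 𝕋 → End_𝒪 F` a ring homomorphism
commuting with the `c_j`, `𝕋` integral over `ℤ`; `χ : 𝕋 → D` (a domain of characteristic `0`)
which kills every `t` with `η t F ⊆ typeSub c ψ`; `L` an algebraically closed field containing
`𝒪`.

* `lin_typeSub` (tensor form): there are `χ' : 𝕋 → L` with `ker χ' = ker χ` and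
  `0 ≠ v ∈ L ⊗ F` with `(η t ⊗ 1) v = χ' t • v` and `(c_j ⊗ 1) v = ψ_j • v`.
* `lin_transport` (transport form): the same in any `L`-vector space `E` with an `𝒪`-linear
  `ι : F → E` mapping a basis of `F` to an `L`-linearly independent family: `0 ≠ w ∈ E` such
  that every `L`-linear `TE : E → E` with `TE ∘ ι = ι ∘ η t` satisfies `TE w = χ' t • w`, and
  every `CE` with `CE ∘ ι = ι ∘ c_j` satisfies `CE w = ψ_j • w`.
* `Stmt_LIN` / `stmt_LIN`: the tensor form as a `Prop` (all types in `Type`).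
-/

set_option autoImplicit false

open TensorProduct

namespace Fermat.Agent.L.Pivot.Geom.H3

open Fermat.Agent.L.Pivot

section

variable {𝒪 : Type} [CommRing 𝒪] {F : Type} [AddCommGroup F] [Module 𝒪 F]

theorem typeSub_eq {k : ℕ} (c : Fin k → Module.End 𝒪 F) (ψ : Fin k → 𝒪) :
    typeSub c ψ = ⨆ j, LinearMap.range (c j - ψ j • (1 : Module.End 𝒪 F)) := rfl

/-- **PVG-LIN, tensor form, with `typeSub`.** -/
theorem lin_typeSub [IsDomain 𝒪] [CharZero 𝒪] {L : Type*} [Field L] [Algebra 𝒪 L]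
    [IsAlgClosed L] (hL : Function.Injective (algebraMap 𝒪 L)) [Module.Finite 𝒪 F]
    [Module.Free 𝒪 F] {k : ℕ} (c : Fin k → Module.End 𝒪 F) (n : Fin k → ℕ) (hn : ∀ j, 0 < n j)
    (hc : ∀ j, c j ^ n j = 1) (hcc : ∀ i j, Commute (c i) (c j))
    (ψ : Fin k → 𝒪) (hψ : ∀ j, ψ j ^ n j = 1)
    (hsat : ∀ (a : 𝒪) (y : F), a ≠ 0 → a • y ∈ typeSub c ψ → y ∈ typeSub c ψ)
    {𝕋 : Type*} [CommRing 𝕋] [Algebra.IsIntegral ℤ 𝕋] (η : 𝕋 →+* Module.End 𝒪 F)
    (hηc : ∀ t j, Commute (η t) (c j))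
    {D : Type*} [CommRing D] [IsDomain D] [CharZero D] (χ : 𝕋 →+* D)
    (hχ : ∀ t, (∀ v, η t v ∈ typeSub c ψ) → χ t = 0) :
    ∃ χ' : 𝕋 →+* L, RingHom.ker χ' = RingHom.ker χ ∧ ∃ v : L ⊗[𝒪] F, v ≠ 0 ∧
      (∀ t, (η t).baseChange L v = χ' t • v) ∧
      (∀ j, (c j).baseChange L v = algebraMap 𝒪 L (ψ j) • v) :=
  lin_tensor hL c n hn hc hcc ψ hψ hsat η hηc χ hχ

/-- The `L`-linear extension of `ι : F → E` is injective when `ι` maps a basis of `F` to an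
`L`-linearly independent family. -/
theorem liftBaseChange_injective {L : Type*} [Field L] [Algebra 𝒪 L] {E : Type*}
    [AddCommGroup E] [Module L E] [Module 𝒪 E] [IsScalarTower 𝒪 L E] (ι : F →ₗ[𝒪] E)
    {κ : Type*} (b : Module.Basis κ 𝒪 F) (hb : LinearIndependent L (fun i => ι (b i))) :
    Function.Injective (ι.liftBaseChange L) := by
  classical
  have h : ι.liftBaseChange L = (Finsupp.linearCombination L (fun i => ι (b i))) ∘ₗ
      ((Algebra.TensorProduct.basis L b).repr : L ⊗[𝒪] F →ₗ[L] κ →₀ L) := by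
    refine (Algebra.TensorProduct.basis L b).ext (fun i => ?_)
    simp
  rw [h, LinearMap.coe_comp]
  exact Function.Injective.comp hb (Algebra.TensorProduct.basis L b).repr.injective

/-- **PVG-LIN, transport form.** -/
theorem lin_transport [IsDomain 𝒪] [CharZero 𝒪] {L : Type*} [Field L] [Algebra 𝒪 L]
    [IsAlgClosed L] (hL : Function.Injective (algebraMap 𝒪 L)) [Module.Finite 𝒪 F]
    [Module.Free 𝒪 F] {k : ℕ} (c : Fin k → Module.End 𝒪 F) (n : Fin k → ℕ) (hn : ∀ j, 0 < n j)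
    (hc : ∀ j, c j ^ n j = 1) (hcc : ∀ i j, Commute (c i) (c j))
    (ψ : Fin k → 𝒪) (hψ : ∀ j, ψ j ^ n j = 1)
    (hsat : ∀ (a : 𝒪) (y : F), a ≠ 0 → a • y ∈ typeSub c ψ → y ∈ typeSub c ψ)
    {𝕋 : Type*} [CommRing 𝕋] [Algebra.IsIntegral ℤ 𝕋] (η : 𝕋 →+* Module.End 𝒪 F)
    (hηc : ∀ t j, Commute (η t) (c j))
    {D : Type*} [CommRing D] [IsDomain D] [CharZero D] (χ : 𝕋 →+* D)
    (hχ : ∀ t, (∀ v, η t v ∈ typeSub c ψ) → χ t = 0)
    {E : Type*} [AddCommGroup E] [Module L E] [Module 𝒪 E] [IsScalarTower 𝒪 L E]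
    (ι : F →ₗ[𝒪] E) {κ : Type*} (b : Module.Basis κ 𝒪 F)
    (hb : LinearIndependent L (fun i => ι (b i))) :
    ∃ χ' : 𝕋 →+* L, RingHom.ker χ' = RingHom.ker χ ∧ ∃ w : E, w ≠ 0 ∧
      (∀ (t : 𝕋) (TE : Module.End L E), (∀ x, TE (ι x) = ι (η t x)) → TE w = χ' t • w) ∧
      (∀ (j : Fin k) (CE : Module.End L E), (∀ x, CE (ι x) = ι (c j x)) →
        CE w = algebraMap 𝒪 L (ψ j) • w) := by
  obtain ⟨χ', hker, v, hv0, hvη, hvc⟩ :=
    lin_tensor hL c n hn hc hcc ψ hψ hsat η hηc χ hχ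
  have hinj := liftBaseChange_injective ι b hb
  have hint : ∀ (g : Module.End 𝒪 F) (TE : Module.End L E), (∀ x, TE (ι x) = ι (g x)) →
      ∀ u : L ⊗[𝒪] F, TE (ι.liftBaseChange L u) = ι.liftBaseChange L (g.baseChange L u) := by
    intro g TE hTE u
    induction u using TensorProduct.induction_on with
    | zero => simp
    | tmul l x =>
      rw [LinearMap.liftBaseChange_tmul, LinearMap.baseChange_tmul,
        LinearMap.liftBaseChange_tmul, map_smul, hTE]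
    | add u u' hu hu' => rw [map_add, map_add, map_add, map_add, hu, hu']
  refine ⟨χ', hker, ι.liftBaseChange L v, ?_, ?_, ?_⟩
  · intro h
    exact hv0 (hinj (by rw [h, map_zero]))
  · intro t TE hTE
    rw [hint (η t) TE hTE v, hvη t, map_smul]
  · intro j CE hCE
    rw [hint (c j) CE hCE v, hvc j, map_smul]

end

/-- **PVG-LIN** as a `Prop` (tensor form, all types in `Type`). -/
def Stmt_LIN : Prop :=
  ∀ (𝒪 : Type) [CommRing 𝒪] [IsDomain 𝒪] [CharZero 𝒪] (L : Type) [Field L] [Algebra 𝒪 L]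
    [IsAlgClosed L], Function.Injective (algebraMap 𝒪 L) →
  ∀ (F : Type) [AddCommGroup F] [Module 𝒪 F] [Module.Finite 𝒪 F] [Module.Free 𝒪 F]
    (k : ℕ) (c : Fin k → Module.End 𝒪 F) (n : Fin k → ℕ), (∀ j, 0 < n j) →
    (∀ j, c j ^ n j = 1) → (∀ i j, Commute (c i) (c j)) →
  ∀ (ψ : Fin k → 𝒪), (∀ j, ψ j ^ n j = 1) →
    (∀ (a : 𝒪) (y : F), a ≠ 0 → a • y ∈ typeSub c ψ → y ∈ typeSub c ψ) →
  ∀ (𝕋 : Type) [CommRing 𝕋] [Algebra.IsIntegral ℤ 𝕋] (η : 𝕋 →+* Module.End 𝒪 F),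
    (∀ t j, Commute (η t) (c j)) →
  ∀ (D : Type) [CommRing D] [IsDomain D] [CharZero D] (χ : 𝕋 →+* D),
    (∀ t, (∀ v, η t v ∈ typeSub c ψ) → χ t = 0) →
    ∃ χ' : 𝕋 →+* L, RingHom.ker χ' = RingHom.ker χ ∧ ∃ v : L ⊗[𝒪] F, v ≠ 0 ∧
      (∀ t, (η t).baseChange L v = χ' t • v) ∧
      (∀ j, (c j).baseChange L v = algebraMap 𝒪 L (ψ j) • v)

theorem stmt_LIN : Stmt_LIN := by
  intro 𝒪 _ _ _ L _ _ _ hL F _ _ _ _ k c n hn hc hcc ψ hψ hsat 𝕋 _ _ η hηc D _ _ _ χ hχ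
  exact lin_tensor hL c n hn hc hcc ψ hψ hsat η hηc χ hχ

end Fermat.Agent.L.Pivot.Geom.H3

end
-- ==== END Fermat.Agent.L.Pivot.Geom.H3_Lin

-- ==== BEGIN Fermat.Agent.L.Pivot.Geom.H4_Rest
section

/-!
# PIVOT (item 66), package PV-GEOM, leaf PVG-REST (helper4)

The restriction of Hecke operators
`heckeAlgebra (pvLevel N1 qP qv) 2 (twSet S qv) →+* heckeAlgebra (twLevel N1 qv) 2 (twSet S qv)`
in exactly the shape of the fields `rest`, `rest_T` of `PVGeom`: the pivot primes divide `N1`, so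
the level `pvLevel N1 qP qv = twLevel N1 qv * ∏ qP j` has no new prime.

Complete proofs, standard axioms only.
-/

set_option autoImplicit false

open CuspForm Fermat.Agent.S59 Fermat.Agent.S59.Asm

namespace Fermat.Agent.L.Pivot.Geom.H4

theorem twLevel_dvd_pvLevel (N1 : ℕ) {k r : ℕ} (qP : Fin k → ℕ) (qv : Fin r → ℕ) :
    twLevel N1 qv ∣ pvLevel N1 qP qv :=
  Dvd.intro _ rfl

/-- The level `pvLevel` has the same prime divisors as `twLevel` when the pivot primes divide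
`N1`. -/
theorem prime_dvd_twLevel_of_dvd_pvLevel (N1 : ℕ) {k r : ℕ} (qP : Fin k → ℕ) (qv : Fin r → ℕ)
    (hdvd : ∀ j, qP j ∣ N1) (q : ℕ) (hq : q.Prime) (hqN' : q ∣ pvLevel N1 qP qv) :
    q ∣ twLevel N1 qv := by
  rcases (Nat.Prime.dvd_mul hq).1 hqN' with h | h
  · exact h
  · obtain ⟨j, -, hj⟩ := (Prime.dvd_finsetProd_iff hq.prime _).1 h
    exact dvd_trans hj (dvd_trans (hdvd j) (H41.dvd_twLevel N1 qv))

theorem new_prime_mem (N1 : ℕ) (S : Finset ℕ) {k r : ℕ} (qP : Fin k → ℕ) (qv : Fin r → ℕ)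
    (hdvd : ∀ j, qP j ∣ N1) (q : ℕ) (hq : q.Prime) (hqN' : q ∣ pvLevel N1 qP qv)
    (hqN : ¬ q ∣ twLevel N1 qv) : q ∈ (↑(twSet S qv) : Set ℕ) :=
  absurd (prime_dvd_twLevel_of_dvd_pvLevel N1 qP qv hdvd q hq hqN') hqN

/-- **PVG-REST**: the restriction of Hecke operators from the level `pvLevel N1 qP qv` to the
level `twLevel N1 qv`. -/
noncomputable def restPV (N1 : ℕ) (S : Finset ℕ) {k r : ℕ} (qP : Fin k → ℕ) (qv : Fin r → ℕ)
    [NeZero (twLevel N1 qv)] [NeZero (pvLevel N1 qP qv)] (hdvd : ∀ j, qP j ∣ N1) :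
    CuspForm.heckeAlgebra (pvLevel N1 qP qv) 2 (↑(twSet S qv) : Set ℕ) →+*
      CuspForm.heckeAlgebra (twLevel N1 qv) 2 (↑(twSet S qv) : Set ℕ) :=
  H41.rest (twLevel_dvd_pvLevel N1 qP qv) 2 (le_refl _) (new_prime_mem N1 S qP qv hdvd)

theorem restPV_T (N1 : ℕ) (S : Finset ℕ) {k r : ℕ} (qP : Fin k → ℕ) (qv : Fin r → ℕ)
    [NeZero (twLevel N1 qv)] [NeZero (pvLevel N1 qP qv)] (hdvd : ∀ j, qP j ∣ N1)
    (ℓ : ℕ) (hℓ : ℓ.Prime) (hℓN' : ¬ ℓ ∣ pvLevel N1 qP qv)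
    (hℓS : ℓ ∉ (↑(twSet S qv) : Set ℕ)) (hℓN : ¬ ℓ ∣ twLevel N1 qv) :
    restPV N1 S qP qv hdvd (CuspForm.heckeAlgebra.T hℓ hℓN' hℓS) =
      CuspForm.heckeAlgebra.T hℓ hℓN hℓS :=
  H41.rest_T _ 2 _ _ hℓ hℓN' hℓS hℓN hℓS

theorem restPV_U (N1 : ℕ) (S : Finset ℕ) {k r : ℕ} (qP : Fin k → ℕ) (qv : Fin r → ℕ)
    [NeZero (twLevel N1 qv)] [NeZero (pvLevel N1 qP qv)] (hdvd : ∀ j, qP j ∣ N1)
    (q : ℕ) (hq : q.Prime) (hqN' : q ∣ pvLevel N1 qP qv)
    (hqS : q ∉ (↑(twSet S qv) : Set ℕ)) (hqN : q ∣ twLevel N1 qv) :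
    restPV N1 S qP qv hdvd (CuspForm.heckeAlgebra.U hq hqN' hqS) =
      CuspForm.heckeAlgebra.U hq hqN hqS :=
  H41.rest_U _ 2 _ _ hq hqN' hqS hqN hqS

/-- The level inclusion intertwines `t` and `restPV t`. -/
theorem restPV_spec (N1 : ℕ) (S : Finset ℕ) {k r : ℕ} (qP : Fin k → ℕ) (qv : Fin r → ℕ)
    [NeZero (twLevel N1 qv)] [NeZero (pvLevel N1 qP qv)] (hdvd : ∀ j, qP j ∣ N1)
    (t : CuspForm.heckeAlgebra (pvLevel N1 qP qv) 2 (↑(twSet S qv) : Set ℕ))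
    (f : CuspForm (CongruenceSubgroup.Gamma0 (twLevel N1 qv)) 2) :
    t.1 (H41.levelIncl (twLevel_dvd_pvLevel N1 qP qv) 2 f) =
      H41.levelIncl (twLevel_dvd_pvLevel N1 qP qv) 2 ((restPV N1 S qP qv hdvd t).1 f) :=
  H41.rest_spec _ 2 _ _ t f

/-- **PVG-REST**, as a statement: the fields `rest`, `rest_T` of `PVGeom` exist. -/
def Stmt_PVGRest : Prop :=
  ∀ (N1 : ℕ) (S : Finset ℕ) (k r : ℕ) (qP : Fin k → ℕ) (qv : Fin r → ℕ)
    [NeZero (twLevel N1 qv)] [NeZero (pvLevel N1 qP qv)], (∀ j, qP j ∣ N1) →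
    ∃ rest : CuspForm.heckeAlgebra (pvLevel N1 qP qv) 2 (↑(twSet S qv) : Set ℕ) →+*
        CuspForm.heckeAlgebra (twLevel N1 qv) 2 (↑(twSet S qv) : Set ℕ),
      ∀ (ℓ : ℕ) (hℓ : ℓ.Prime) (hℓN' : ¬ ℓ ∣ pvLevel N1 qP qv)
        (hℓS : ℓ ∉ (↑(twSet S qv) : Set ℕ)) (hℓN : ¬ ℓ ∣ twLevel N1 qv),
        rest (CuspForm.heckeAlgebra.T hℓ hℓN' hℓS) = CuspForm.heckeAlgebra.T hℓ hℓN hℓS

theorem stmt_PVGRest : Stmt_PVGRest := fun N1 S _ _ qP qv _ _ hdvd =>
  ⟨restPV N1 S qP qv hdvd, restPV_T N1 S qP qv hdvd⟩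

end Fermat.Agent.L.Pivot.Geom.H4

end
-- ==== END Fermat.Agent.L.Pivot.Geom.H4_Rest

-- ==== BEGIN Fermat.Agent.L.Pivot.Global2
section

set_option autoImplicit false

noncomputable section

namespace Fermat.Agent.L.Pivot

open Polynomial IsLocalRing CuspForm Fermat.Agent.S56 Fermat.Agent.S59.Asm

/-- The ideal of the entries of `ρ (τ_j) - 1`, `j < k`, in the basis `b`. -/
def pvXi {T : Type} [CommRing T] [IsLocalRing T] (ρ : GaloisRepAdic T)
    (b : Module.Basis (Fin 2) T ρ.V) {k : ℕ} (Pv : PivotPrimes k) : Ideal T :=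
  Ideal.span {x | ∃ (j : Fin k) (a c : Fin 2),
    x = (LinearMap.toMatrix b b (ρ.ρ (Pv.τ j)) - 1) a c}

/-- If the entries of the matrix of `f - 1` lie in `J` then `f v - v ∈ J V`. -/
theorem sub_mem_smul_top_of_entries {T : Type} [CommRing T] {V : Type} [AddCommGroup V]
    [Module T V] (b : Module.Basis (Fin 2) T V) (f : Module.End T V) (J : Ideal T)
    (h : ∀ a c : Fin 2, (LinearMap.toMatrix b b f - 1) a c ∈ J) (v : V) :
    f v - v ∈ (J • ⊤ : Submodule T V) := by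
  have h1 : f v - v = ∑ a, ((LinearMap.toMatrix b b (f - 1)).mulVec (b.repr v)) a • b a := by
    rw [LinearMap.toMatrix_mulVec_repr]
    rw [b.sum_repr]
    rfl
  rw [h1]
  refine Submodule.sum_mem _ fun a _ => ?_
  refine Submodule.smul_mem_smul ?_ Submodule.mem_top
  rw [Matrix.mulVec, dotProduct]
  refine Ideal.sum_mem _ fun c _ => ?_
  refine Ideal.mul_mem_right _ _ ?_
  have h2 : LinearMap.toMatrix b b (f - 1) = LinearMap.toMatrix b b f - 1 := by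
    rw [map_sub, LinearMap.toMatrix_one]
  rw [h2]
  exact h a c

/-- **PV-TAME, form used by the assembly.** -/
def Stmt_PVTame1 : Prop :=
  ∀ (A : Type) [CommRing A] [IsLocalRing A] [IsNoetherianRing A]
    [IsAdicComplete (maximalIdeal A) A] (p : ℕ) [Fact p.Prime], (p : A) ∈ maximalIdeal A →
    ∀ (ρ : GaloisRepAdic A) (q : ℕ), q.Prime → q ≠ p → ρ.residual.IsUnramifiedAt q →
    ∀ (P : ValuationSubring (AlgebraicClosure ℚ)), P.LiesOverPrime q →
    ∀ (τ : GQ), IsTameGen q P τ →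
    ∀ (J : Ideal A), (∀ v : ρ.V, ρ.ρ τ v - v ∈ (J • ⊤ : Submodule A ρ.V)) →
    ∀ (A' : ValuationSubring (AlgebraicClosure ℚ)), A'.LiesOverPrime q →
      ∀ σ ∈ A'.inertiaSubgroupIn ℚ, ∀ v : ρ.V, ρ.ρ σ v - v ∈ (J • ⊤ : Submodule A ρ.V)

/-- **PV-ASM: the levels.**  Under the hypotheses of `Stmt_PivotCore`: a Hecke–Galois datum `H`
of level `N1` with cyclotomic determinant, residually unramified at the pivot primes, a
nontrivial module `M` over its ring, a finite set `t` of types, and levels of the PIVOT patching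
datum for every family of ideals killed by the types. -/
def Stmt_PVLevels : Prop :=
  ∀ (𝒪 : Type) [CommRing 𝒪] [IsDomain 𝒪] [IsDiscreteValuationRing 𝒪]
    [IsAdicComplete (maximalIdeal 𝒪) 𝒪] [Finite (ResidueField 𝒪)] [CharZero 𝒪]
    (p : ℕ) [Fact p.Prime], 5 ≤ p →
    ∀ (ρbar : ResidualGaloisRep (ResidueField 𝒪)) (S Smin : Finset ℕ),
    Hyp 𝒪 p ρbar S Smin →
    ∀ (N1 : ℕ) [NeZero N1], Squarefree N1 → ¬ p ∣ N1 → (∀ q : ℕ, q.Prime → q ∣ N1 → q ∈ S) →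
    ∀ (θ : CuspForm.heckeAlgebra N1 2 (↑S : Set ℕ) →+* ResidueField 𝒪),
      Fermat.Agent.S59.Datum.FrobHyp ρbar N1 S θ →
    ∀ (k : ℕ) (Pv : PivotPrimes k), Pv.IsExceptional p ρbar → (∀ j, Pv.q j ∣ N1) →
      S = Smin ∪ Pv.set → (∀ q ∈ Smin, q ≠ p → q ∣ N1) →
      (∀ (j : Fin k) (e : ℕ), p ^ e ∣ Pv.q j - 1 → ∃ ζ : 𝒪, IsPrimitiveRoot ζ (p ^ e)) →
    ∀ (ϖ : 𝒪), maximalIdeal 𝒪 = Ideal.span {ϖ} →
    ∃ (T : Type) (_ : CommRing T) (_ : IsLocalRing T) (_ : IsNoetherianRing T)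
      (_ : IsAdicComplete (maximalIdeal T) T) (_ : Algebra 𝒪 T)
      (_ : IsLocalHom (algebraMap 𝒪 T)) (_ : Module.Finite 𝒪 T) (_ : Module.Free 𝒪 T)
      (H : CuspForm.HeckeGaloisRepDatum N1 (↑S : Set ℕ) 𝒪 θ T)
      (b : Module.Basis (Fin 2) T H.ρ.V)
      (M : Type) (_ : AddCommGroup M) (_ : Module T M) (_ : Nontrivial M)
      (r g d : ℕ) (t : Finset (Fin k → 𝒪)),
      H.ρ.DetIsCyclotomic p ∧ (∀ j, H.ρ.residual.IsUnramifiedAt (Pv.q j)) ∧
      r + 1 = 1 + 3 * k + g ∧ (∀ δ ∈ t, ∀ j, δ j ≠ 0) ∧ (∀ δ ∈ t, ∀ j, δ j ∈ maximalIdeal 𝒪) ∧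
      ∀ 𝔞 : (Fin k → 𝒪) → Ideal (PRing 𝒪 k g), (∀ δ ∈ t, KilledByType g δ (𝔞 δ)) →
        ∀ n : ℕ, Nonempty (PivotLevel 𝒪 r (6 * k + g) T M ϖ
          (idealUnip g (fun j => ((Pv.q j : ℕ) : 𝒪))) (t.inf 𝔞)
          (idealX 𝒪 k g) (pvXi H.ρ b Pv) (twIdealP 𝒪 r p n) d)

/-- **PIVOT (Hecke–Galois form) from the packages.** -/
theorem pivotCore_of (hType : Stmt_PVLoc_type) (hUnr : Stmt_PVLoc_unr)
    (hDim : Stmt_PVLoc_dimS) (hPatch : Stmt_PVPatch) (hLev : Stmt_PVLevels)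
    (hTame : Stmt_PVTame1) (hOld : Stmt_PVOld) : Stmt_PivotCore := by
  intro 𝒪 _ _ _ _ _ _ p _ hp5 ρbar S Smin hyp N1 _ hsq hpN hNS θ hθ k Pv hex hPvN hS hSminN
    hζ j _
  obtain ⟨ϖ, hϖirr⟩ := IsDiscreteValuationRing.exists_irreducible 𝒪
  have hϖ' : maximalIdeal 𝒪 = Ideal.span {ϖ} :=
    (IsDiscreteValuationRing.irreducible_iff_uniformizer ϖ).mp hϖirr
  obtain ⟨T, _, _, _, _, _, _, _, _, H, b, M, _, _, _, r, g, d, t, hdet, hunr, hr, ht0, htm,
    hlev⟩ := hLev 𝒪 p hp5 ρbar S Smin hyp N1 hsq hpN hNS θ hθ k Pv hex hPvN hS hSminN hζ ϖ hϖ'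
  have hp𝒪 : (p : 𝒪) ∈ maximalIdeal 𝒪 := hyp.hp𝒪
  -- `2` is a unit
  have h2 : IsUnit (2 : 𝒪) := by
    by_contra h
    have h2m : (2 : 𝒪) ∈ maximalIdeal 𝒪 := (IsLocalRing.mem_maximalIdeal _).mpr h
    have hodd : Odd p := (Fact.out : p.Prime).odd_of_ne_two hyp.hp2
    obtain ⟨m, hm⟩ := hodd
    have h1 : (1 : 𝒪) = (p : 𝒪) - 2 * (m : 𝒪) := by
      rw [hm]; push_cast; ring
    have : (1 : 𝒪) ∈ maximalIdeal 𝒪 := by
      rw [h1]
      exact Ideal.sub_mem _ hp𝒪 (Ideal.mul_mem_right _ _ h2m)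
    exact (Ideal.ne_top_iff_one _).mp (IsLocalRing.maximalIdeal.isMaximal 𝒪).ne_top this
  -- `q ≡ 1`
  have hq₀ : ∀ i, ((Pv.q i : ℕ) : 𝒪) - 1 ∈ maximalIdeal 𝒪 := by
    intro i
    obtain ⟨m, hm⟩ := (hex i).1
    have hq1 : 1 ≤ Pv.q i := (Pv.q_prime i).one_le
    have h1 : ((Pv.q i : ℕ) : 𝒪) - 1 = (p : 𝒪) * (m : 𝒪) := by
      have : Pv.q i = p * m + 1 := by omega
      rw [this]; push_cast; ring
    rw [h1]
    exact Ideal.mul_mem_right _ _ hp𝒪
  obtain ⟨𝔱, h𝔱, -, hϖ𝔱, hΞ⟩ := H3.pivot_of_levels hType hUnr hDim hPatch hp𝒪 hr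
    H.residue_surjective hϖ' h2 (fun i => ((Pv.q i : ℕ) : 𝒪)) hq₀ t ht0 htm
    (pvXi H.ρ b Pv) d hlev
  -- `p ∉ 𝔱`
  have hpT : (p : T) ∉ 𝔱 := by
    intro hp
    have h1 : (p : 𝒪) ∈ Ideal.span {ϖ} := hϖ' ▸ hp𝒪
    -- `ϖ ∣ p`, and `p ≠ 0`: write `p = ϖ ^ e * u`
    have hp0 : (p : 𝒪) ≠ 0 := by
      exact_mod_cast (Fact.out : p.Prime).ne_zero
    have hirr : Irreducible ϖ := by
      have hne : ϖ ≠ 0 := by
        rintro rfl
        have h1 : maximalIdeal 𝒪 = ⊥ := by rw [hϖ', Ideal.span_singleton_eq_bot]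
        exact IsDiscreteValuationRing.not_a_field 𝒪 h1
      exact (IsDiscreteValuationRing.irreducible_iff_uniformizer ϖ).mpr hϖ'
    obtain ⟨e, u, hu⟩ := IsDiscreteValuationRing.eq_unit_mul_pow_irreducible hp0 hirr
    have h3 : (p : T) = algebraMap 𝒪 T (u : 𝒪) * (algebraMap 𝒪 T ϖ) ^ e := by
      rw [← map_pow, ← map_mul, ← hu, map_natCast]
    rw [h3] at hp
    rcases h𝔱.mem_or_mem hp with h | h
    · have hu' : IsUnit (algebraMap 𝒪 T (u : 𝒪)) := (u.isUnit).map _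
      exact h𝔱.ne_top (Ideal.eq_top_of_isUnit_mem _ h hu')
    · exact hϖ𝔱 (h𝔱.mem_of_pow_mem e h)
  -- unramified modulo `𝔱` at `q_j`
  have hτ : ∀ v : H.ρ.V, H.ρ.ρ (Pv.τ j) v - v ∈ (𝔱 • ⊤ : Submodule T H.ρ.V) := by
    intro v
    refine sub_mem_smul_top_of_entries b _ 𝔱 (fun a c => ?_) v
    exact hΞ (Ideal.subset_span ⟨j, a, c, rfl⟩)
  have hpTm : (p : T) ∈ maximalIdeal T := hdet.1
  have hall := hTame T p hpTm H.ρ (Pv.q j) (Pv.q_prime j) (hex j).2.1 (hunr j) (Pv.P j)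
    (Pv.P_over j) (Pv.τ j) (Pv.τ_gen j) 𝔱 hτ
  have hqN : ¬ (Pv.q j) ^ 2 ∣ N1 := by
    intro h
    have := Nat.squarefree_iff_prime_squarefree.mp hsq (Pv.q j) (Pv.q_prime j)
    exact this (by rwa [← pow_two])
  have hpS : p ∈ S := hyp.hSmin hyp.hpSmin
  exact hOld 𝒪 p hyp.hp2 hp𝒪 N1 S hpS hNS θ T H hdet (Pv.q j) (Pv.q_prime j) (hex j).2.1
    (hPvN j) hqN 𝔱 h𝔱 hpT hall

end Fermat.Agent.L.Pivot

end

end
-- ==== END Fermat.Agent.L.Pivot.Global2

-- ==== BEGIN Fermat.Agent.L.Pivot.H4_GalNAsm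
section

set_option autoImplicit false
set_option linter.unusedSectionVars false
set_option linter.unusedVariables false
set_option linter.style.haveILetI false

noncomputable section

namespace Fermat.Agent.L.Pivot.H4

open Polynomial IsLocalRing CategoryTheory groupCohomology ExtCitation Module
  Fermat.Agent.S53 Fermat.Agent.S56

section Assembly

variable {𝒪 : Type} [CommRing 𝒪] [IsDomain 𝒪] [IsDiscreteValuationRing 𝒪]
  [IsAdicComplete (maximalIdeal 𝒪) 𝒪] [Finite (ResidueField 𝒪)]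

/-- **Assembly with pivot primes (generic in the family of conditions).** -/
theorem assembly_core_pv
    (hGW : Stmt_GW) (hTWsel : Stmt_TW_select) (hglob : Stmt_glob_h0) (hinf : Stmt_loc_inf)
    (hlocTW : Stmt_loc_TW) (hlocTWh0 : Stmt_loc_TW_h0) (hunr : Stmt_unr_of_res_zero)
    (hdex : Stmt_dict_exists) (hdinj : Stmt_dict_inj) (hdcont : Stmt_dict_cont)
    (had0 : Stmt_ad0_basic) (htate : Stmt_tate_basic)
    (p : ℕ) [Fact p.Prime] (ρbar : ResidualGaloisRep (ResidueField 𝒪)) (S Smin : Finset ℕ)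
    (hyp : Hyp 𝒪 p ρbar S Smin)
    (Sp : Finset ℕ) (hSpS : Sp ⊆ S) (hSpmin : ∀ q ∈ Sp, q ∉ Smin)
    (hSph0 : ∀ q : Nat.Primes, (q : ℕ) ∈ Sp →
      3 ≤ finrank (ResidueField 𝒪) (locRep (ad0 ρbar) q).ρ.invariants)
    (𝒟 : Finset ℕ → Cond 𝒪)
    (h𝒟det : ∀ (T : Finset ℕ) ⦃A : Type⦄ [CommRing A] [IsLocalRing A] [Algebra 𝒪 A]
      (ρ : GaloisRepAdic A), 𝒟 T ρ → ρ.DetIsCyclotomic p)
    (h𝒟unr : ∀ (T : Finset ℕ) ⦃A : Type⦄ [CommRing A] [IsLocalRing A] [Algebra 𝒪 A]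
      (ρ : GaloisRepAdic A), 𝒟 T ρ → ∀ q : ℕ, q.Prime → q ∉ Smin ∪ (Sp ∪ T) →
        ρ.IsUnramifiedAt q)
    (hLB : ∀ q : Nat.Primes, (q : ℕ) ∈ Smin →
      LocalBound ρbar 𝒟 q (if (q : ℕ) = p then 1 else 0))
    (hLBp : ∀ q : Nat.Primes, (q : ℕ) ∈ Sp → ∀ (T : Finset ℕ) (x : TSub 𝒪 ρbar (𝒟 T))
      (ξ : H1 (ad0 ρbar)), IsClassOf x ξ → resAt (ad0 ρbar) q ξ = 0) :
    ∃ r g : ℕ, r = 3 * Sp.card + g ∧ ∀ n : ℕ, ∃ qv : Fin r → ℕ, IsTWFamily ρbar p n S qv ∧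
      TangentLE 𝒪 ρbar (𝒟 (Finset.univ.image qv)) g := by
  classical
  haveI hchar : CharP (ResidueField 𝒪) p := charP_residueField p hyp.hp𝒪
  obtain ⟨hMfd, hMsm, hMur⟩ := had0 (ResidueField 𝒪) ρbar
  haveI := hMfd
  obtain ⟨hM'fd, hM'sm, hM'ur⟩ := htate p (ResidueField 𝒪) (ad0 ρbar) hMsm
  haveI := hM'fd
  obtain ⟨P, hperf, hGWP⟩ := hGW p hyp.hp2 (ResidueField 𝒪) (ad0 ρbar) hMsm
  obtain ⟨hh0, hh0'⟩ := hglob 𝒪 p ρbar S Smin hyp
  obtain ⟨hinf0, hinf1⟩ := hinf 𝒪 p ρbar S Smin hyp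
  -- unramifiedness of `ρbar` outside `Smin`
  have hρur : ∀ q : ℕ, q.Prime → q ∉ Smin → ρbar.IsUnramifiedAt q := by
    intro q hq hqS
    have hqp : q ≠ p := fun h => hqS (h ▸ hyp.hpSmin)
    by_contra hcon
    exact hqS ((hyp.hmin q hq hqp).2 hcon)
  -- per-prime conditions
  let Wall : ∀ q : Nat.Primes, Submodule (ResidueField 𝒪) (H1 (locRep (ad0 ρbar) q)) := fun q =>
    if h : (q : ℕ) ∈ Smin then Classical.choose (hLB q h)
    else if (q : ℕ) ∈ Sp then ⊥ else locH1 (ad0 ρbar) q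
  have hWall_in : ∀ (q : Nat.Primes) (h : (q : ℕ) ∈ Smin),
      Wall q = Classical.choose (hLB q h) := fun q h => dif_pos h
  have hWall_piv : ∀ q : Nat.Primes, (q : ℕ) ∉ Smin → (q : ℕ) ∈ Sp → Wall q = ⊥ := by
    intro q h h'
    show (if h : (q : ℕ) ∈ Smin then Classical.choose (hLB q h)
      else if (q : ℕ) ∈ Sp then ⊥ else locH1 (ad0 ρbar) q) = ⊥
    rw [dif_neg h, if_pos h']
  have hWall_out : ∀ q : Nat.Primes, (q : ℕ) ∉ Smin → (q : ℕ) ∉ Sp →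
      Wall q = locH1 (ad0 ρbar) q := by
    intro q h h'
    show (if h : (q : ℕ) ∈ Smin then Classical.choose (hLB q h)
      else if (q : ℕ) ∈ Sp then ⊥ else locH1 (ad0 ρbar) q) = locH1 (ad0 ρbar) q
    rw [dif_neg h, if_neg h']
  have hWall_le : ∀ q : Nat.Primes, Wall q ≤ locH1 (ad0 ρbar) q := by
    intro q
    by_cases h : (q : ℕ) ∈ Smin
    · rw [hWall_in q h]; exact (Classical.choose_spec (hLB q h)).1
    · by_cases h' : (q : ℕ) ∈ Sp
      · rw [hWall_piv q h h']; exact bot_le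
      · rw [hWall_out q h h']
  have hWall_rank : ∀ (q : Nat.Primes), (q : ℕ) ∈ Smin →
      finrank (ResidueField 𝒪) (Wall q) ≤
        finrank (ResidueField 𝒪) (locRep (ad0 ρbar) q).ρ.invariants +
          (if (q : ℕ) = p then 1 else 0) := by
    intro q h
    rw [hWall_in q h]; exact (Classical.choose_spec (hLB q h)).2.2.1
  have hWall_class : ∀ (q : Nat.Primes), (q : ℕ) ∈ Smin → ∀ (T : Finset ℕ)
      (x : TSub 𝒪 ρbar (𝒟 T)) (ξ : H1 (ad0 ρbar)), IsClassOf x ξ →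
      resAt (ad0 ρbar) q ξ ∈ Wall q := by
    intro q h T x ξ hx
    rw [hWall_in q h]; exact (Classical.choose_spec (hLB q h)).2.2.2 T x ξ hx
  -- the sets of primes
  have hpSg : ∀ T : Finset ℕ, pPrime p ∈ primesOf (Smin ∪ (Sp ∪ T)) := fun T =>
    mem_primesOf.2 (Finset.mem_union_left _ hyp.hpSmin)
  have hurSg : ∀ T : Finset ℕ, ∀ q : Nat.Primes, q ∉ primesOf (Smin ∪ (Sp ∪ T)) →
      IsUnramifiedRepAt (ad0 ρbar) (q : ℕ) := by
    intro T q hq
    refine hMur q (hρur q q.2 fun h => hq (mem_primesOf.2 (Finset.mem_union_left _ h)))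
  have hLle : ∀ (T : Finset ℕ) (v : extArithIndex (primesOf (Smin ∪ (Sp ∪ T)))),
      condFam (ad0 ρbar) Wall (primesOf (Smin ∪ (Sp ∪ T))) v ≤
        continuousH1 (extArithLoc (primesOf (Smin ∪ (Sp ∪ T))) v)
          (Rep.res (extArithLoc (primesOf (Smin ∪ (Sp ∪ T))) v) (ad0 ρbar)) := by
    intro T v
    rcases v with u | q
    · exact bot_le
    · exact hWall_le q.1
  have hGWT := fun T : Finset ℕ => hGWP (primesOf (Smin ∪ (Sp ∪ T))) (hpSg T) (hurSg T)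
    (condFam (ad0 ρbar) Wall (primesOf (Smin ∪ (Sp ∪ T)))) (hLle T)
  -- the count, for every auxiliary set of Taylor-Wiles type
  have hcount : ∀ T : Finset ℕ,
      (∀ q : Nat.Primes, (q : ℕ) ∈ T → (q : ℕ) ∉ Smin ∧ (q : ℕ) ∉ Sp ∧ (q : ℕ) % p = 1 ∧
        ρbar.IsUnramifiedAt (q : ℕ) ∧
        finrank (ResidueField 𝒪) (locRep (ad0 ρbar) q).ρ.invariants = 1) →
      finrank (ResidueField 𝒪)
          (selmerAdm (extArithLoc (primesOf (Smin ∪ (Sp ∪ T)))) (ad0 ρbar)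
            (condFam (ad0 ρbar) Wall (primesOf (Smin ∪ (Sp ∪ T))))
            (continuousH1S (primesOf (Smin ∪ (Sp ∪ T))) (ad0 ρbar))) + 3 * Sp.card ≤
        finrank (ResidueField 𝒪)
          (selmerAdm (extArithLoc (primesOf (Smin ∪ (Sp ∪ T)))) (tateDual p (ad0 ρbar))
            (dualConditions (extArithLoc (primesOf (Smin ∪ (Sp ∪ T)))) (ad0 ρbar)
              (tateDual p (ad0 ρbar)) (P.fam (primesOf (Smin ∪ (Sp ∪ T))))
              (condFam (ad0 ρbar) Wall (primesOf (Smin ∪ (Sp ∪ T)))))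
            (continuousH1S (primesOf (Smin ∪ (Sp ∪ T))) (tateDual p (ad0 ρbar)))) + T.card := by
    intro T hT
    have hle := (hGWT T).le
    unfold greenbergWilesLeAdm at hle
    rw [sum_h0, sum_condFam] at hle
    rw [hh0, hh0', hinf1] at hle
    have h1 : ∀ q ∈ primesOf (Smin ∪ (Sp ∪ T)),
        finrank (ResidueField 𝒪) (Wall q) + (if (q : ℕ) ∈ Sp then 3 else 0) ≤
          finrank (ResidueField 𝒪) (locRep (ad0 ρbar) q).ρ.invariants +
            ((if (q : ℕ) = p then 1 else 0) + (if (q : ℕ) ∈ T then 1 else 0)) := by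
      intro q hq
      by_cases h : (q : ℕ) ∈ Smin
      · have := hWall_rank q h
        have hqSp : (q : ℕ) ∉ Sp := fun h' => hSpmin _ h' h
        rw [if_neg hqSp]
        omega
      · by_cases h' : (q : ℕ) ∈ Sp
        · have := hSph0 q h'
          rw [hWall_piv q h h', if_pos h', finrank_bot]
          omega
        · have hqT : (q : ℕ) ∈ T := by
            rcases Finset.mem_union.1 (mem_primesOf.1 hq) with h'' | h''
            · exact absurd h'' h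
            · rcases Finset.mem_union.1 h'' with h3 | h3
              · exact absurd h3 h'
              · exact h3
          obtain ⟨-, -, hq1, hur, hh⟩ := hT q hqT
          have := (hlocTW p q hq1 (ResidueField 𝒪) (ad0 ρbar) hMsm (hMur q hur)).2
          rw [hWall_out q h h', if_pos hqT, if_neg h']
          rw [hh] at this ⊢
          omega
    have h2 : ∑ q ∈ primesOf (Smin ∪ (Sp ∪ T)), (if (q : ℕ) = p then 1 else 0) ≤ 1 := by
      rw [Finset.sum_boole]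
      simp only [Nat.cast_id]
      refine Finset.card_le_one.2 fun a ha b hb => ?_
      exact Subtype.ext ((Finset.mem_filter.1 ha).2.trans (Finset.mem_filter.1 hb).2.symm)
    have h3 : ∑ q ∈ primesOf (Smin ∪ (Sp ∪ T)), (if (q : ℕ) ∈ T then 1 else 0) ≤ T.card := by
      rw [Finset.sum_boole]
      simp only [Nat.cast_id]
      exact Finset.card_le_card_of_injOn (fun q : Nat.Primes => (q : ℕ))
        (fun q hq => (Finset.mem_filter.1 hq).2)
        (fun a _ b _ hab => Subtype.ext hab)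
    have h5 : 3 * Sp.card ≤
        ∑ q ∈ primesOf (Smin ∪ (Sp ∪ T)), (if (q : ℕ) ∈ Sp then 3 else 0) := by
      have e : ∑ q ∈ primesOf (Smin ∪ (Sp ∪ T)), (if (q : ℕ) ∈ Sp then 3 else 0) =
          3 * ((primesOf (Smin ∪ (Sp ∪ T))).filter (fun q : Nat.Primes => (q : ℕ) ∈ Sp)).card := by
        rw [← Finset.sum_filter, Finset.sum_const, smul_eq_mul, mul_comm]
      rw [e]
      refine Nat.mul_le_mul_left 3 ?_
      have himg : Sp ⊆ ((primesOf (Smin ∪ (Sp ∪ T))).filter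
          (fun q : Nat.Primes => (q : ℕ) ∈ Sp)).image (fun q : Nat.Primes => (q : ℕ)) := by
        intro q hq
        refine Finset.mem_image.2 ⟨⟨q, hyp.hS q (hSpS hq)⟩, Finset.mem_filter.2 ⟨?_, hq⟩, rfl⟩
        exact mem_primesOf.2 (Finset.mem_union_right _ (Finset.mem_union_left _ hq))
      exact (Finset.card_le_card himg).trans Finset.card_image_le
    have h4 : ∑ q ∈ primesOf (Smin ∪ (Sp ∪ T)), finrank (ResidueField 𝒪) (Wall q) +
        3 * Sp.card ≤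
        ∑ q ∈ primesOf (Smin ∪ (Sp ∪ T)),
          finrank (ResidueField 𝒪) (locRep (ad0 ρbar) q).ρ.invariants + (1 + T.card) := by
      calc _ ≤ ∑ q ∈ primesOf (Smin ∪ (Sp ∪ T)), finrank (ResidueField 𝒪) (Wall q) +
            ∑ q ∈ primesOf (Smin ∪ (Sp ∪ T)), (if (q : ℕ) ∈ Sp then 3 else 0) := by
              exact Nat.add_le_add_left h5 _
        _ = ∑ q ∈ primesOf (Smin ∪ (Sp ∪ T)),
            (finrank (ResidueField 𝒪) (Wall q) + (if (q : ℕ) ∈ Sp then 3 else 0)) := by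
              rw [Finset.sum_add_distrib]
        _ ≤ ∑ q ∈ primesOf (Smin ∪ (Sp ∪ T)),
            (finrank (ResidueField 𝒪) (locRep (ad0 ρbar) q).ρ.invariants +
            ((if (q : ℕ) = p then 1 else 0) +
              (if (q : ℕ) ∈ T then 1 else 0))) := Finset.sum_le_sum h1
        _ = _ + (_ + _) := by rw [Finset.sum_add_distrib, Finset.sum_add_distrib]
        _ ≤ _ := by gcongr
    omega
  -- the dual Selmer group for `T = ∅`
  let Z : Submodule (ResidueField 𝒪) (H1 (tateDual p (ad0 ρbar))) :=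
    selmerAdm (extArithLoc (primesOf (Smin ∪ (Sp ∪ ∅)))) (tateDual p (ad0 ρbar))
      (dualConditions (extArithLoc (primesOf (Smin ∪ (Sp ∪ ∅)))) (ad0 ρbar)
        (tateDual p (ad0 ρbar))
        (P.fam (primesOf (Smin ∪ (Sp ∪ ∅))))
        (condFam (ad0 ρbar) Wall (primesOf (Smin ∪ (Sp ∪ ∅)))))
      (continuousH1S (primesOf (Smin ∪ (Sp ∪ ∅))) (tateDual p (ad0 ρbar)))
  haveI hZfin : Module.Finite (ResidueField 𝒪) Z := (hGWT ∅).finite_dualSelmer
  have hZle : Z ≤ continuousH1 (MonoidHom.id Fermat.Agent.S56.GQ) (tateDual p (ad0 ρbar)) :=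
    (selmerAdm_le_adm _ _ _ _).trans (continuousH1S_le_continuousH1 _ _)
  have hr3 : 3 * Sp.card ≤ finrank (ResidueField 𝒪) Z := by
    have := hcount ∅ (fun q hq => absurd hq (Finset.notMem_empty _))
    rw [Finset.card_empty, add_zero] at this
    exact le_trans (Nat.le_add_left _ _) this
  refine ⟨finrank (ResidueField 𝒪) Z, finrank (ResidueField 𝒪) Z - 3 * Sp.card, by omega,
    fun n => ?_⟩
  obtain ⟨qv, hqv, hkill⟩ := hTWsel 𝒪 p ρbar S Smin hyp Z hZle n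
  refine ⟨qv, hqv, ?_⟩
  obtain ⟨-, hqv2, hqv3⟩ := hqv
  -- facts on the Taylor-Wiles primes
  have hT : ∀ q : Nat.Primes, (q : ℕ) ∈ Finset.univ.image qv →
      (q : ℕ) ∉ Smin ∧ (q : ℕ) ∉ Sp ∧ (q : ℕ) % p = 1 ∧ ρbar.IsUnramifiedAt (q : ℕ) ∧
        finrank (ResidueField 𝒪) (locRep (ad0 ρbar) q).ρ.invariants = 1 := by
    intro q hq
    obtain ⟨i, -, hi⟩ := Finset.mem_image.1 hq
    obtain ⟨hi1, hi2, hi3⟩ := hqv2 i
    have hqS : (q : ℕ) ∉ Smin := fun h => hi2 (hyp.hSmin (hi ▸ h))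
    have hqSp : (q : ℕ) ∉ Sp := fun h => hi2 (hSpS (hi ▸ h))
    have hur : ρbar.IsUnramifiedAt (q : ℕ) := hρur q q.2 hqS
    refine ⟨hqS, hqSp, ?_, hur, ?_⟩
    · rw [← hi]; exact mod_eq_one_of_pow_dvd (Fact.out : p.Prime) hi1 hi3
    · refine hlocTWh0 (ResidueField 𝒪) ρbar q hur ?_
      rw [← hi]; exact hqv3 i
  -- the dual Selmer group for `T` vanishes
  have hsub : primesOf (Smin ∪ (Sp ∪ ∅)) ⊆ primesOf (Smin ∪ (Sp ∪ Finset.univ.image qv)) := by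
    intro q hq
    rw [mem_primesOf] at hq ⊢
    rcases Finset.mem_union.1 hq with h | h
    · exact Finset.mem_union_left _ h
    · rcases Finset.mem_union.1 h with h' | h'
      · exact Finset.mem_union_right _ (Finset.mem_union_left _ h')
      · exact absurd h' (Finset.notMem_empty _)
  have hnew : ∀ q ∈ primesOf (Smin ∪ (Sp ∪ Finset.univ.image qv)),
      q ∉ primesOf (Smin ∪ (Sp ∪ ∅)) → (q : ℕ) ∈ Finset.univ.image qv := by
    intro q hq hq0
    rw [mem_primesOf] at hq hq0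
    rcases Finset.mem_union.1 hq with h | h
    · exact absurd (Finset.mem_union_left _ h) hq0
    · rcases Finset.mem_union.1 h with h' | h'
      · exact absurd (Finset.mem_union_right _ (Finset.mem_union_left _ h')) hq0
      · exact h'
  have hdual0 : ∀ ξ ∈ selmerAdm (extArithLoc (primesOf (Smin ∪ (Sp ∪ Finset.univ.image qv))))
      (tateDual p (ad0 ρbar))
      (dualConditions (extArithLoc (primesOf (Smin ∪ (Sp ∪ Finset.univ.image qv)))) (ad0 ρbar)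
        (tateDual p (ad0 ρbar)) (P.fam (primesOf (Smin ∪ (Sp ∪ Finset.univ.image qv))))
        (condFam (ad0 ρbar) Wall (primesOf (Smin ∪ (Sp ∪ Finset.univ.image qv)))))
      (continuousH1S (primesOf (Smin ∪ (Sp ∪ Finset.univ.image qv))) (tateDual p (ad0 ρbar))),
      ξ = 0 := by
    intro ξ hξ
    obtain ⟨hξ1, hξ2⟩ := (mem_dualSelmer_condFam_iff (ad0 ρbar) P Wall _ _ ξ).1 hξ
    have hres0 : ∀ q : Nat.Primes, (q : ℕ) ∈ Finset.univ.image qv →
        resAt (tateDual p (ad0 ρbar)) q ξ = 0 := by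
      intro q hq
      obtain ⟨hqS, hqSp, hq1, hur, -⟩ := hT q hq
      have hqSg : q ∈ primesOf (Smin ∪ (Sp ∪ Finset.univ.image qv)) :=
        mem_primesOf.2 (Finset.mem_union_right _ (Finset.mem_union_right _ hq))
      refine hperf q hq1 (hMur q hur) _ (res_contS _ _ q ξ hξ2) fun x hx => ?_
      exact hξ1 q hqSg x (by rw [hWall_out q hqS hqSp]; exact hx)
    have hξ3 : ξ ∈ continuousH1S (primesOf (Smin ∪ (Sp ∪ ∅))) (tateDual p (ad0 ρbar)) := by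
      refine hunr (ResidueField 𝒪) (tateDual p (ad0 ρbar)) hM'sm _ _ hsub ?_ ξ hξ2 ?_
      · intro q hq hq0
        obtain ⟨hqS, -, -, hur, -⟩ := hT q (hnew q hq hq0)
        have hqp : (q : ℕ) ≠ p := fun h => hqS (h ▸ hyp.hpSmin)
        exact hM'ur q q.2 hqp (hMur q hur)
      · intro q hq hq0
        exact hres0 q (hnew q hq hq0)
    have hξZ : ξ ∈ Z :=
      (mem_dualSelmer_condFam_iff (ad0 ρbar) P Wall _ _ ξ).2
        ⟨fun q hq x hx => hξ1 q (hsub hq) x hx, hξ3⟩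
    exact hkill ξ hξZ fun q hq => hres0 q hq
  -- all classes lie in the Selmer group
  have hclassSel : ∀ (x : TSub 𝒪 ρbar (𝒟 (Finset.univ.image qv))) (ξ : H1 (ad0 ρbar)),
      IsClassOf x ξ →
      ξ ∈ selmerAdm (extArithLoc (primesOf (Smin ∪ (Sp ∪ Finset.univ.image qv)))) (ad0 ρbar)
        (condFam (ad0 ρbar) Wall (primesOf (Smin ∪ (Sp ∪ Finset.univ.image qv))))
        (continuousH1S (primesOf (Smin ∪ (Sp ∪ Finset.univ.image qv))) (ad0 ρbar)) := by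
    intro x ξ hx
    have hcont : ξ ∈ continuousH1S (primesOf (Smin ∪ (Sp ∪ Finset.univ.image qv)))
        (ad0 ρbar) := by
      refine hdcont 𝒪 ρbar (𝒟 (Finset.univ.image qv)) _ x ξ ?_ hx
      intro q hq
      letI := dualNumberAlgebra 𝒪
      exact h𝒟unr _ x.1 x.2.1 q q.2 (fun h => hq (mem_primesOf.2 h))
    refine (mem_selmerAdm_condFam_iff _ _ _ _ ξ).2 ⟨hinf0 _, fun q hq => ?_, hcont⟩
    by_cases h : (q : ℕ) ∈ Smin
    · exact hWall_class q h _ x ξ hx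
    · by_cases h' : (q : ℕ) ∈ Sp
      · rw [hWall_piv q h h', hLBp q h' _ x ξ hx]
        exact Submodule.zero_mem _
      · rw [hWall_out q h h']; exact res_contS _ _ q ξ hcont
  refine Dict.tangentLE_of_classes ρbar (𝒟 (Finset.univ.image qv)) _
    (hdex 𝒪 p ρbar (𝒟 (Finset.univ.image qv)) hyp.hp2 hyp.hp𝒪 hyp.hdet (h𝒟det _))
    (hdinj 𝒪 ρbar (𝒟 (Finset.univ.image qv))) _ (hGWT (Finset.univ.image qv)).finite_selmer
    hclassSel ?_
  -- the count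
  have hle := hcount (Finset.univ.image qv) hT
  have hdualrank : finrank (ResidueField 𝒪)
      (selmerAdm (extArithLoc (primesOf (Smin ∪ (Sp ∪ Finset.univ.image qv))))
      (tateDual p (ad0 ρbar))
      (dualConditions (extArithLoc (primesOf (Smin ∪ (Sp ∪ Finset.univ.image qv)))) (ad0 ρbar)
        (tateDual p (ad0 ρbar)) (P.fam (primesOf (Smin ∪ (Sp ∪ Finset.univ.image qv))))
        (condFam (ad0 ρbar) Wall (primesOf (Smin ∪ (Sp ∪ Finset.univ.image qv)))))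
      (continuousH1S (primesOf (Smin ∪ (Sp ∪ Finset.univ.image qv)))
        (tateDual p (ad0 ρbar)))) = 0 := by
    rw [(Submodule.eq_bot_iff _).2 hdual0]; exact finrank_bot _ _
  rw [hdualrank, zero_add] at hle
  have hcard : (Finset.univ.image qv).card ≤ finrank (ResidueField 𝒪) Z := by
    calc (Finset.univ.image qv).card
        ≤ (Finset.univ : Finset (Fin (finrank (ResidueField 𝒪) Z))).card := Finset.card_image_le
      _ = finrank (ResidueField 𝒪) Z := by simp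
  omega

end Assembly

end Fermat.Agent.L.Pivot.H4

end

end
-- ==== END Fermat.Agent.L.Pivot.H4_GalNAsm

-- ==== BEGIN Fermat.Agent.L.Pivot.H4_GalNLoc
section

set_option autoImplicit false
set_option linter.unusedSectionVars false
set_option linter.unusedVariables false
set_option linter.style.haveILetI false

noncomputable section

namespace Fermat.Agent.L.Pivot.H4

open Polynomial IsLocalRing CategoryTheory groupCohomology ExtCitation Module
  Fermat.Agent.S56 Fermat.Agent.S56.H9 Fermat.Agent.S56.Dict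
  Fermat.Agent.S56.Dict.H85
open scoped TensorProduct Pointwise

local notation "Qbar" => AlgebraicClosure ℚ

/-! ### Conjugacy of decomposition groups -/

/-- Decomposition groups over the same prime are conjugate. -/
theorem exists_conj_mem_decomposition (ℓ : ℕ) (hℓ : ℓ.Prime)
    (A A' : ValuationSubring Qbar) (hA : A.LiesOverPrime ℓ) (hA' : A'.LiesOverPrime ℓ) :
    ∃ g : GQ, ∀ s : GQ, s ∈ A'.decompositionSubgroup ℚ →
      g⁻¹ * s * g ∈ A.decompositionSubgroup ℚ := by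
  obtain ⟨g, hg⟩ := Fermat.Agent.Lib.InertiaConj.exists_smul_primeUnder ℓ hℓ A A' hA hA'
  refine ⟨g, fun s hs => ?_⟩
  rw [Fermat.Agent.Lib.InertiaBridge.mem_decompositionSubgroup_iff ℓ hℓ A' hA', hg] at hs
  rw [Fermat.Agent.Lib.InertiaBridge.mem_decompositionSubgroup_iff ℓ hℓ A hA]
  rw [mul_smul, mul_smul, hs, inv_smul_smul]

/-! ### Scalars on the decomposition group -/

section scalar

variable {R V : Type*} [CommRing R] [AddCommGroup V] [Module R V]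

theorem scalar_on_decomposition (ρ : GQ →* Module.End R V) (q : ℕ) (hq : q.Prime)
    (P : ValuationSubring Qbar) (hP : P.LiesOverPrime q) (φ : GQ) (hφ : P.IsFrobeniusAt φ q)
    (F : IntermediateField ℚ Qbar) (hF : FiniteDimensional ℚ F)
    (hFker : ∀ s ∈ F.fixingSubgroup, ρ s = 1)
    (hI : ∀ ι ∈ P.inertiaSubgroupIn ℚ, ρ ι = 1) (c : R) (hc : ρ φ = c • (1 : Module.End R V))
    (A' : ValuationSubring Qbar) (hA' : A'.LiesOverPrime q) (σ : GQ)
    (hσ : σ ∈ A'.decompositionSubgroup ℚ) :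
    ∃ c' : R, ρ σ = c' • (1 : Module.End R V) := by
  obtain ⟨g, hg⟩ := exists_conj_mem_decomposition q hq P A' hP hA'
  obtain ⟨-, -, -, -, hgen⟩ :=
    Fermat.Agent.S59.TWGal.H59.stmt_TAME q hq P hP φ hφ F hF
  obtain ⟨n, ι, hι, hker⟩ := hgen _ (hg σ hσ)
  have h1 := hFker _ hker
  have h2 : ρ (g⁻¹ * σ * g) = ρ (φ ^ n * ι) := by
    have e : g⁻¹ * σ * g = (φ ^ n * ι) * ((φ ^ n * ι)⁻¹ * (g⁻¹ * σ * g)) := by
      rw [mul_inv_cancel_left]
    rw [e, map_mul, h1, mul_one]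
  have h3 : ρ (φ ^ n * ι) = (c ^ n) • (1 : Module.End R V) := by
    rw [map_mul, hI ι hι, mul_one, map_pow, hc, _root_.smul_pow, one_pow]
  refine ⟨c ^ n, ?_⟩
  have e : σ = g * (g⁻¹ * σ * g) * g⁻¹ := by group
  rw [e, map_mul, map_mul, h2, h3, mul_smul_comm, mul_one, smul_mul_assoc, ← map_mul,
    mul_inv_cancel, map_one]

end scalar

/-! ### H0-PV: the local invariants at an exceptional prime -/

section h0

variable {k : Type} [Field k]

/-- `dim ad⁰ ≥ 3`. -/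
theorem three_le_finrank_ad0Sub (ρbar : ResidualGaloisRep k) :
    3 ≤ finrank k (ad0Sub ρbar) := by
  have h := LinearMap.finrank_range_add_finrank_ker (LinearMap.trace k ρbar.V)
  have h4 : finrank k (ρbar.V →ₗ[k] ρbar.V) = 4 := by
    have := Module.finrank_linearMap k k ρbar.V ρbar.V
    rw [ρbar.finrank_eq] at this
    exact this
  have h1 : finrank k (LinearMap.range (LinearMap.trace k ρbar.V)) ≤ 1 := by
    calc _ ≤ finrank k k := Submodule.finrank_le _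
      _ = 1 := Module.finrank_self k
  show 3 ≤ finrank k (LinearMap.ker (LinearMap.trace k ρbar.V))
  rw [h4] at h
  omega

/-- If `ρbar` is scalar on the decomposition group at `q` then `h⁰(ℚ_q, ad⁰ ρbar) ≥ 3`. -/
theorem three_le_h0_of_scalar (ρbar : ResidualGaloisRep k) (q : Nat.Primes)
    (hscal : ∀ g : primeLocalGaloisGroup q,
      ∃ c : k, ρbar.ρ (primeLocalToGlobal q g) = c • (1 : Module.End k ρbar.V)) :
    3 ≤ finrank k (locRep (ad0 ρbar) q).ρ.invariants := by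
  let ι : (locRep (ad0 ρbar) q).V →ₗ[k] Module.End k ρbar.V := (ad0Sub ρbar).subtype
  have hι_inj : Function.Injective ι := (ad0Sub ρbar).injective_subtype
  have htop : (locRep (ad0 ρbar) q).ρ.invariants = ⊤ := by
    rw [eq_top_iff]
    intro x _
    rw [Representation.mem_invariants]
    intro g
    obtain ⟨c, hc⟩ := hscal g
    have h : adRepr ρbar (primeLocalToGlobal q g) (ι x) = ι x := by
      rw [Fermat.Agent.S56.H59.adRepr_eq_iff, hc, smul_mul_assoc, one_mul, mul_smul_comm,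
        mul_one]
    exact hι_inj h
  rw [htop, finrank_top]
  exact three_le_finrank_ad0Sub ρbar

/-- **H0-PV.** -/
theorem three_le_h0 (ρbar : ResidualGaloisRep k) (q : Nat.Primes)
    (hur : ρbar.IsUnramifiedAt (q : ℕ))
    (P : ValuationSubring Qbar) (hP : P.LiesOverPrime (q : ℕ)) (φ : GQ)
    (hφ : P.IsFrobeniusAt φ (q : ℕ))
    (hsc : ∃ c : k, ρbar.ρ φ = c • (1 : Module.End k ρbar.V)) :
    3 ≤ finrank k (locRep (ad0 ρbar) q).ρ.invariants := by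
  obtain ⟨c, hc⟩ := hsc
  obtain ⟨L, hL, hLker⟩ := ρbar.factorsThroughFiniteLevel
  refine three_le_h0_of_scalar ρbar q fun g => ?_
  exact scalar_on_decomposition ρbar.ρ (q : ℕ) q.2 P hP φ hφ L hL
    (fun s hs => hLker s fun y hy => (IntermediateField.mem_fixingSubgroup_iff L s).1 hs y hy)
    (fun ι hι => hur P hP ι hι) c hc (primeLocalPlace q) (primeLocalPlace_liesOver q) _
    (primeLocalToGlobal_mem_decomposition q g)

end h0

/-! ### LOC-PV: the classes are locally trivial at the pivot primes -/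

section locpv

variable {𝒪 : Type} [CommRing 𝒪] [IsLocalRing 𝒪]
variable {ρbar : ResidualGaloisRep (ResidueField 𝒪)} {𝒟 : Cond 𝒪}

/-- `ρ_x σ = 1` if `ρbar σ = 1` and `c σ = 0`. -/
theorem rho_eq_one_of (x : Fermat.Agent.S53.TSub 𝒪 ρbar 𝒟) (c : GQ → Module.End (ResidueField 𝒪) ρbar.V)
    (hc : IsCocycleOf x c) (σ : GQ) (h1 : ρbar.ρ σ = 1) (h2 : c σ = 0) : x.1.ρ σ = 1 := by
  obtain ⟨θ, hθ⟩ := hc
  apply LinearMap.ext
  intro w
  obtain ⟨z, rfl⟩ := θ.surjective w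
  rw [Module.End.one_apply]
  induction z using TensorProduct.induction_on with
  | zero => rw [map_zero, map_zero]
  | tmul a v =>
    have e : a ⊗ₜ[ResidueField 𝒪] v
        = a • ((1 : DualNumber (ResidueField 𝒪)) ⊗ₜ[ResidueField 𝒪] v) := by
      rw [TensorProduct.smul_tmul', smul_eq_mul, mul_one]
    rw [e, map_smul, map_smul, hθ σ v, h1, h2, Module.End.one_apply, LinearMap.zero_apply,
      TensorProduct.tmul_zero, add_zero]
  | add z w hz hw => rw [map_add, map_add, hz, hw]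

/-- If `ρ_x σ` is a scalar then the (traceless) cocycle vanishes at `σ`. -/
theorem cocycle_eq_zero_of_scalar (h2 : (2 : ResidueField 𝒪) ≠ 0) (x : Fermat.Agent.S53.TSub 𝒪 ρbar 𝒟)
    (c : GQ → Module.End (ResidueField 𝒪) ρbar.V) (hc : IsCocycleOf x c) (σ : GQ)
    (htr : LinearMap.trace (ResidueField 𝒪) ρbar.V (c σ) = 0)
    (s : DualNumber (ResidueField 𝒪))
    (hs : x.1.ρ σ = s • (1 : Module.End (DualNumber (ResidueField 𝒪)) x.1.V)) : c σ = 0 := by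
  obtain ⟨θ, hθ⟩ := hc
  have key : ∀ v : ρbar.V, ρbar.ρ σ v = s.fst • v ∧ c σ (ρbar.ρ σ v) = s.snd • v := by
    intro v
    have h := hθ σ v
    rw [hs, LinearMap.smul_apply, Module.End.one_apply, ← map_smul] at h
    have e : s • ((1 : DualNumber (ResidueField 𝒪)) ⊗ₜ[ResidueField 𝒪] v)
        = (1 : DualNumber (ResidueField 𝒪)) ⊗ₜ[ResidueField 𝒪] (s.fst • v)
          + (DualNumber.eps : DualNumber (ResidueField 𝒪)) ⊗ₜ[ResidueField 𝒪] (s.snd • v) := by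
      rw [TensorProduct.smul_tmul', smul_eq_mul, mul_one]
      have hs' : s = s.fst • (1 : DualNumber (ResidueField 𝒪))
          + s.snd • (DualNumber.eps : DualNumber (ResidueField 𝒪)) := by
        ext <;> simp
      conv_lhs => rw [hs']
      rw [TensorProduct.add_tmul, TensorProduct.smul_tmul, TensorProduct.smul_tmul]
    rw [e] at h
    obtain ⟨e1, e2⟩ := Fermat.Agent.S56.LocMin.eq_of_theta_eq θ h
    exact ⟨e1.symm, e2.symm⟩
  have hinv : ∀ v : ρbar.V, ρbar.ρ σ⁻¹ (ρbar.ρ σ v) = v := by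
    intro v
    have : ρbar.ρ σ⁻¹ * ρbar.ρ σ = 1 := by rw [← map_mul, inv_mul_cancel, map_one]
    exact congrArg (fun f : Module.End (ResidueField 𝒪) ρbar.V => f v) this
  haveI : Nontrivial ρbar.V := by
    apply Module.nontrivial_of_finrank_pos (R := ResidueField 𝒪)
    rw [ρbar.finrank_eq]; norm_num
  have hfst : s.fst ≠ 0 := by
    intro h0
    obtain ⟨v, hv⟩ := exists_ne (0 : ρbar.V)
    apply hv
    have h1 := (key v).1
    rw [h0, zero_smul] at h1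
    have h3 := hinv v
    rw [h1, map_zero] at h3
    exact h3.symm
  have hcσ : c σ = (s.fst⁻¹ * s.snd) • (1 : Module.End (ResidueField 𝒪) ρbar.V) := by
    apply LinearMap.ext
    intro v
    obtain ⟨h1, h3⟩ := key v
    rw [h1, map_smul] at h3
    rw [LinearMap.smul_apply, Module.End.one_apply, mul_smul, ← h3, smul_smul,
      inv_mul_cancel₀ hfst, one_smul]
  rw [hcσ, map_smul, LinearMap.trace_one, ρbar.finrank_eq, smul_eq_mul] at htr
  have h5 : s.fst⁻¹ * s.snd = 0 := by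
    rcases mul_eq_zero.1 htr with h | h
    · exact h
    · exact absurd (by exact_mod_cast h) h2
  rw [hcσ, h5, zero_smul]

/-- **LOC-PV** (abstract form).  `ρbar` unramified at `q ≠ p`; `x` a first-order deformation with
`ρ_x (τ) = 1` at a uniform tame generator and `ρ_x (φ)` scalar at a Frobenius of a place over
`q`.  Then the class of `x` is locally trivial at `q`. -/
theorem resAt_eq_zero_of_tame (p : ℕ) (hp : p.Prime) (hp2 : p ≠ 2)
    (hpk : (p : ResidueField 𝒪) = 0) (q : Nat.Primes) (hqp : (q : ℕ) ≠ p)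
    (hur : ρbar.IsUnramifiedAt (q : ℕ))
    (P : ValuationSubring Qbar) (hP : P.LiesOverPrime (q : ℕ)) (φ : GQ)
    (hφ : P.IsFrobeniusAt φ (q : ℕ)) (τ : GQ) (hτ : IsTameGen (q : ℕ) P τ)
    (x : Fermat.Agent.S53.TSub 𝒪 ρbar 𝒟) (hxτ : x.1.ρ τ = 1)
    (hxφ : ∃ s : DualNumber (ResidueField 𝒪),
      x.1.ρ φ = s • (1 : Module.End (DualNumber (ResidueField 𝒪)) x.1.V))
    (ξ : H1 (ad0 ρbar)) (hξ : IsClassOf x ξ) :
    resAt (ad0 ρbar) q ξ = 0 := by
  classical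
  obtain ⟨c, hc, rfl⟩ := hξ
  haveI hchar : CharP (ResidueField 𝒪) p := (CharP.charP_iff_prime_eq_zero hp).2 hpk
  have h2k : (2 : ResidueField 𝒪) ≠ 0 := by
    intro h2
    have h3 : ((2 : ℕ) : ResidueField 𝒪) = 0 := by exact_mod_cast h2
    have h4 := (CharP.cast_eq_zero_iff (ResidueField 𝒪) p 2).1 h3
    exact hp2 ((Nat.prime_dvd_prime_iff_eq hp Nat.prime_two).1 h4)
  obtain ⟨L, hL, hLker⟩ := exists_finite_le_ker x
  -- inertia at `P` acts trivially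
  have hI : ∀ ι ∈ P.inertiaSubgroupIn ℚ, x.1.ρ ι = 1 := by
    intro ι hι
    have hbar : ρbar.ρ ι = 1 := hur P hP ι hι
    obtain ⟨i, e, hie⟩ := hτ.2 L hL ι hι
    have hmem : ((τ ^ i)⁻¹ * ι) ^ ((q : ℕ) ^ e) ∈ L.fixingSubgroup := by
      rw [IntermediateField.mem_fixingSubgroup_iff]
      exact hie
    have h1 : x.1.ρ (((τ ^ i)⁻¹ * ι) ^ ((q : ℕ) ^ e)) = 1 := MonoidHom.mem_ker.1 (hLker hmem)
    have hτi : x.1.ρ ((τ ^ i)⁻¹) = 1 := by
      have := map_mul x.1.ρ ((τ ^ i)⁻¹) (τ ^ i)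
      rw [inv_mul_cancel, map_one, map_pow x.1.ρ τ i, hxτ, one_pow, mul_one] at this
      exact this.symm
    have h3 : x.1.ρ (ι ^ ((q : ℕ) ^ e)) = x.1.ρ 1 := by
      rw [map_pow, map_mul, hτi, one_mul, ← map_pow] at h1
      rw [h1, map_one]
    have h4 := (Fermat.Agent.S56.LocMin.eq_of_rho_eq x _ hc h3).2
    have h5 : (c : GQ → ad0 ρbar) (ι ^ ((q : ℕ) ^ e))
        = ((((q : ℕ) ^ e : ℕ)) : ResidueField 𝒪) • (c : GQ → ad0 ρbar) ι :=
      cocycle_pow_of_trivial c (Fermat.Agent.S56.H47.ad0_ρ_eq_one ρbar ι hbar) _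
    have h6 : (c : GQ → ad0 ρbar) 1 = 0 := cocycles₁_map_one c
    have h7 : (c : GQ → ad0 ρbar) (ι ^ ((q : ℕ) ^ e)) = 0 := by
      apply Fermat.Agent.S56.H47.ad0Val_injective ρbar
      rw [h4, h6]
    have hq0 : ((((q : ℕ) ^ e : ℕ)) : ResidueField 𝒪) ≠ 0 := by
      intro h0
      have h8 := (CharP.cast_eq_zero_iff (ResidueField 𝒪) p _).1 h0
      have h9 := hp.dvd_of_dvd_pow h8
      exact hqp ((Nat.prime_dvd_prime_iff_eq hp q.2).1 h9).symm
    have h10 : (c : GQ → ad0 ρbar) ι = 0 := by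
      rw [h5] at h7
      exact (smul_eq_zero.1 h7).resolve_left hq0
    exact rho_eq_one_of x _ hc ι hbar (by rw [h10, map_zero])
  -- scalars on the decomposition group of the standard place
  obtain ⟨s, hs⟩ := hxφ
  have h0 : ∀ g : primeLocalGaloisGroup q, (c : GQ → ad0 ρbar) (primeLocalToGlobal q g) = 0 := by
    intro g
    obtain ⟨s', hs'⟩ := scalar_on_decomposition x.1.ρ (q : ℕ) q.2 P hP φ hφ L hL
      (fun t ht => MonoidHom.mem_ker.1 (hLker ht)) hI s hs (primeLocalPlace q)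
      (primeLocalPlace_liesOver q) _ (primeLocalToGlobal_mem_decomposition q g)
    apply Fermat.Agent.S56.H47.ad0Val_injective ρbar
    rw [map_zero]
    exact cocycle_eq_zero_of_scalar h2k x _ hc _
      ((c : GQ → ad0 ρbar) (primeLocalToGlobal q g)).2 s' hs'
  rw [Fermat.Agent.S56.Dict.H85.resAt_H1π]
  have hzero : resCocycle (primeLocalToGlobal q) (ad0 ρbar) c = 0 := by
    apply Subtype.ext
    funext g
    exact h0 g
  rw [hzero, map_zero]

end locpv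

end Fermat.Agent.L.Pivot.H4

end

end
-- ==== END Fermat.Agent.L.Pivot.H4_GalNLoc

-- ==== BEGIN Fermat.Agent.L.Pivot.H50_OldNew
section

/-!
# PIVOT, package PV-OLD (helper50): the `q`-new case over a discrete valuation ring

`Stmt_RamNew` : an eigensystem `χ` of level `N = M q` (`q ∤ M`, `q ≠ p`) with values in a
complete discrete valuation ring which does NOT occur at level `M` has no unramified (at `q`)
residually absolutely irreducible Galois representation with its Frobenius characteristic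
polynomials.

`ramNew_of_tatePieceStI : Stmt_TatePieceStI → Stmt_RamNew`.

Proof: newform `g` of `χ` (`exists_newform_iota`), level `Mg ∣ N`.  If `q ∤ Mg` then `Mg ∣ M`
and `χ` occurs at level `M` (restriction of Hecke operators, helper41).  If `q ∣ Mg`: the Tate
piece `ρ_g` of `Stmt_TatePieceStI`, the structural assembly `ρ₂` (helper29/helper89), Frobenius
density + Carayol: `ρ₂ ≅ ρ ⊗ 𝒪''`, so `ρ₂` is unramified at `q` and not of the shape
`ψ ⊕ ε ψ⁻¹`; hence `ρ₂` is a subrepresentation of `ρ_g`, all of its vectors are fixed by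
inertia, `ρ₂ (Frob) ^ 2 = q ^ 2`, and `det ρ₂ (Frob) = q` gives `q ^ 2 = q ^ 4`.
-/

set_option autoImplicit false
set_option linter.style.haveILetI false
set_option linter.unusedVariables false

open Polynomial IsLocalRing CuspForm

namespace Fermat.Agent.L.Pivot.H50

open Fermat.Agent.R Fermat.Agent.S30

/-- **The `q`-new case over a discrete valuation ring.** -/
def Stmt_RamNew : Prop :=
  ∀ (p N M q : ℕ) [NeZero N] [NeZero M] (S : Finset ℕ)
    (𝒪 : Type) [CommRing 𝒪] [IsDomain 𝒪] [IsDiscreteValuationRing 𝒪]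
    [IsAdicComplete (maximalIdeal 𝒪) 𝒪] [Finite (ResidueField 𝒪)] [CharZero 𝒪],
    p.Prime → (p : 𝒪) ∈ maximalIdeal 𝒪 → q.Prime → q ≠ p → N = M * q → ¬ q ∣ M →
    p ∈ S → (∀ q' : ℕ, q'.Prime → q' ∣ N → q' ∈ S) →
    ∀ (χ : CuspForm.heckeAlgebra N 2 (↑S : Set ℕ) →+* 𝒪) (ρ : GaloisRepAdic 𝒪),
      HasFrobCharpoly χ ρ → ρ.residual.IsAbsolutelyIrreducible →
      ¬ OccursAtLevel χ M → ¬ ρ.IsUnramifiedAt q

/-- Two representations over a noetherian local ring with the same Frobenius characteristic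
polynomials outside a finite set of primes, the first one residually absolutely irreducible,
are equivalent (as `Fermat.Agent.S59.Asm.H57.isEquiv_of_frobenius`; repeated here to keep the
import closure small). -/
theorem isEquiv_of_frob {A : Type} [CommRing A] [IsLocalRing A] [IsNoetherianRing A]
    (ρ₁ ρ₂ : GaloisRepAdic A) (hirr : ρ₁.residual.IsAbsolutelyIrreducible) (S : Finset ℕ)
    (h : ∀ ℓ : ℕ, ℓ.Prime → ℓ ∉ S → ∀ B : ValuationSubring (AlgebraicClosure ℚ),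
      B.LiesOverPrime ℓ → ∀ σ : GQ, B.IsFrobeniusAt σ ℓ →
        LinearMap.charpoly (ρ₁.ρ σ) = LinearMap.charpoly (ρ₂.ρ σ)) :
    ρ₁.IsEquiv ρ₂ := by
  have hT : ∀ x : A, (∀ n : ℕ, x ∈ maximalIdeal A ^ n) → x = 0 := by
    intro x hx
    have h0 : x ∈ (⨅ i : ℕ, maximalIdeal A ^ i : Ideal A) := by
      rw [Ideal.mem_iInf]
      exact hx
    rw [Ideal.iInf_pow_eq_bot_of_isLocalRing (maximalIdeal A)
      (maximalIdeal.isMaximal A).ne_top, Ideal.mem_bot] at h0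
    exact h0
  have hcp := Fermat.Agent.R.H91.charpoly_eq_of_frobenius
    Fermat.Agent.Lib.FrobDensity.stmt_FD hT ρ₁ ρ₂ S h
  refine Fermat.Agent.R.H25.isEquiv_of_trace_eq ρ₁ ρ₂ hirr fun σ => ?_
  exact (trace_det_eq_of_charpoly_eq ρ₁.finrank_eq ρ₂.finrank_eq _ _ (hcp σ)).1

/-- The old case: if the level `Mg` of the newform of `χ` divides `M`, then `χ` occurs at
level `M`. -/
theorem occursAtLevel_of_newform {N M Mg : ℕ} [NeZero N] [NeZero M] [NeZero Mg] (S : Finset ℕ)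
    (hNS : ∀ q' : ℕ, q'.Prime → q' ∣ N → q' ∈ S) (hMN : M ∣ N) (hMgM : Mg ∣ M)
    {𝒪 : Type} [CommRing 𝒪] (χ : CuspForm.heckeAlgebra N 2 (↑S : Set ℕ) →+* 𝒪)
    (χg : CuspForm.heckeAlgebra Mg 2 (↑S : Set ℕ) →+* 𝒪)
    (hχg : ∀ (ℓ : ℕ) (hℓ : ℓ.Prime) (hℓMg : ¬ ℓ ∣ Mg) (hℓS : ℓ ∉ (↑S : Set ℕ)) (hℓN : ¬ ℓ ∣ N),
      χg (heckeAlgebra.T hℓ hℓMg hℓS) = χ (heckeAlgebra.T hℓ hℓN hℓS)) :
    OccursAtLevel χ M := by
  have hnew : ∀ q' : ℕ, q'.Prime → q' ∣ M → ¬ q' ∣ Mg → q' ∈ (↑S : Set ℕ) :=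
    fun q' hq' h _ => Finset.mem_coe.2 (hNS q' hq' (h.trans hMN))
  refine ⟨χg.comp (Fermat.Agent.S59.Asm.H41.rest hMgM 2 (le_refl _) hnew), ?_⟩
  intro ℓ hℓ hℓN hℓM hℓS
  have hℓMg : ¬ ℓ ∣ Mg := fun h => hℓM (h.trans hMgM)
  rw [RingHom.comp_apply,
    Fermat.Agent.S59.Asm.H41.rest_T hMgM 2 (le_refl _) hnew hℓ hℓM hℓS hℓMg hℓS]
  exact hχg ℓ hℓ hℓMg hℓS hℓN

/-- The new case: contradiction from an unramified representation and a Tate piece with
`Frob² = q²` on the inertia invariants. -/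
theorem false_of_unramified_of_stI
    {𝒪 : Type} [CommRing 𝒪] [IsDomain 𝒪] [IsDiscreteValuationRing 𝒪]
    [IsAdicComplete (maximalIdeal 𝒪) 𝒪] [Finite (ResidueField 𝒪)] [CharZero 𝒪]
    {p q : ℕ} (hq : q.Prime) (S : Finset ℕ) (a : ℕ → 𝒪)
    (ρ : GaloisRepAdic 𝒪) (habs : ρ.residual.IsAbsolutelyIrreducible)
    (hρ : ∀ ℓ : ℕ, ℓ.Prime → ℓ ∉ S → ∀ A : ValuationSubring (AlgebraicClosure ℚ),
      A.LiesOverPrime ℓ → ∀ σ : GQ, A.IsFrobeniusAt σ ℓ →
        LinearMap.charpoly (ρ.ρ σ) = X ^ 2 - C (a ℓ) * X + C ((ℓ : 𝒪)))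
    (hunr : ρ.IsUnramifiedAt q)
    (r : ℕ) (hr : 0 < r) (ρg : GQ →* Matrix (Fin r) (Fin r) 𝒪) (hcont : MatAdicCont ρg)
    (ε : GQ →* 𝒪ˣ) (hε1 : CharAdicCont ε) (hε2 : CharCycAt ε S) (hES : MatES ρg a S)
    (hεq : ∀ A : ValuationSubring (AlgebraicClosure ℚ), A.LiesOverPrime q →
      ∀ σ : GQ, A.IsFrobeniusAt σ q → ((ε σ : 𝒪ˣ) : 𝒪) = (q : 𝒪))
    (hStI : ∀ A : ValuationSubring (AlgebraicClosure ℚ), A.LiesOverPrime q →
      ∀ σ : GQ, A.IsFrobeniusAt σ q →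
        ∀ v : Fin r → 𝒪, (∀ τ ∈ A.inertiaSubgroupIn ℚ, (ρg τ).mulVec v = v) →
          (ρg σ).mulVec ((ρg σ).mulVec v) = (q : 𝒪) ^ 2 • v) : False := by
  classical
  obtain ⟨𝒪'', i1, i2, i3, i4, i5, i6, i7, i8, i9, hinj, ρ₂, hc, hdet, hstruct⟩ :=
    (Fermat.Agent.S30.H29.assembleS_of_FD Fermat.Agent.Lib.FrobDensity.stmt_FD)
      𝒪 S a r hr ρg ε hcont hε1 hES hε2
  have hs : Fermat.Agent.S35.H89.Struct ρg ε ρ₂ := hstruct
  -- the representation of `ρ₂`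
  let ρ'' : GaloisRepAdic 𝒪'' :=
    { V := Fin 2 → 𝒪''
      finrank_eq := by simp
      ρ := Fermat.Agent.S30.H2.matToEnd ρ₂
      isAdicContinuous := Fermat.Agent.S30.H2.matToEnd_adicContinuous ρ₂ hc }
  -- the base change of `ρ`
  let ρB : GaloisRepAdic 𝒪'' := ρ.baseChangeAlong (algebraMap 𝒪 𝒪'') i9
  have habsB : ρB.residual.IsAbsolutelyIrreducible :=
    Fermat.Agent.R.H86.residual_absIrr_baseChangeAlong _ i9 ρ habs
  have hfrob : ∀ ℓ : ℕ, ℓ.Prime → ℓ ∉ S → ∀ B : ValuationSubring (AlgebraicClosure ℚ),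
      B.LiesOverPrime ℓ → ∀ σ : GQ, B.IsFrobeniusAt σ ℓ →
        LinearMap.charpoly (ρB.ρ σ) = LinearMap.charpoly (ρ''.ρ σ) := by
    intro ℓ hℓ hℓS B hB σ hσ
    rw [Fermat.Agent.R.H86.baseChangeAlong_charpoly, hρ ℓ hℓ hℓS B hB σ hσ]
    show _ = LinearMap.charpoly (Matrix.toLin' (ρ₂ σ))
    rw [Matrix.charpoly_toLin']
    have h1 := hES ℓ hℓ hℓS B hB σ hσ
    have h2 : ((ε σ : 𝒪ˣ) : 𝒪) = (ℓ : 𝒪) := hε2 ℓ hℓ hℓS B hB σ hσ
    rw [← h2] at h1
    rw [Fermat.Agent.S35.H89.struct_quad hs hdet σ (a ℓ) h1, h2, map_natCast]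
    simp [Polynomial.map_sub, Polynomial.map_add, Polynomial.map_mul, Polynomial.map_pow]
  obtain ⟨e⟩ := isEquiv_of_frob ρB ρ'' habsB S hfrob
  -- transport of identities from `ρB` to `ρ₂`
  have htrans : ∀ σ τ : GQ, ρB.ρ σ = ρB.ρ τ → ρ₂ σ = ρ₂ τ := by
    intro σ τ h
    have h1 : ρ''.ρ σ = ρ''.ρ τ := by
      apply LinearMap.ext
      intro y
      obtain ⟨x, rfl⟩ := e.toLinearEquiv.surjective y
      rw [← e.map_apply, ← e.map_apply, h]
    have h2 : Matrix.toLin' (ρ₂ σ) = Matrix.toLin' (ρ₂ τ) := h1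
    exact Matrix.toLin'.injective h2
  have htrans' : ∀ σ τ : GQ, ρ₂ σ = ρ₂ τ → ρB.ρ σ = ρB.ρ τ := by
    intro σ τ h
    apply LinearMap.ext
    intro x
    apply e.toLinearEquiv.injective
    rw [e.map_apply, e.map_apply]
    show Matrix.toLin' (ρ₂ σ) _ = Matrix.toLin' (ρ₂ τ) _
    rw [h]
  obtain ⟨A, φ, hA, hφ⟩ := Fermat.Agent.Lib.FrobExists.exists_place_and_frobenius q hq
  -- `ρ₂` is unramified at `q`
  have hunr₂ : ∀ τ ∈ A.inertiaSubgroupIn ℚ, ρ₂ τ = 1 := by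
    intro τ hτ
    rw [← map_one ρ₂]
    apply htrans
    have h1 : ρ.ρ τ = ρ.ρ 1 := by rw [hunr A hA τ hτ, map_one]
    letI : Algebra 𝒪 𝒪'' := (algebraMap 𝒪 𝒪'').toAlgebra
    show (ρ.ρ τ).baseChange 𝒪'' = (ρ.ρ 1).baseChange 𝒪''
    rw [h1]
  rcases hs with ⟨P, Q, hQP, hP⟩ | ⟨ψ, v, hv, hψ, hρ₂⟩
  · -- `ρ₂` is a subrepresentation of the Tate piece
    have hfix : ∀ (w : Fin 2 → 𝒪'') (τ : A.inertiaSubgroupIn ℚ),
        ((ρg (τ : GQ)).map (algebraMap 𝒪 𝒪'')).mulVec (P.mulVec w) = P.mulVec w := by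
      intro w τ
      rw [Matrix.mulVec_mulVec, hP, hunr₂ _ τ.2, Matrix.mul_one]
    have hB : ∀ w : Fin 2 → 𝒪'',
        (((ρg φ).map (algebraMap 𝒪 𝒪'')) * ((ρg φ).map (algebraMap 𝒪 𝒪''))).mulVec (P.mulVec w)
          = algebraMap 𝒪 𝒪'' ((q : 𝒪) ^ 2) • P.mulVec w := by
      intro w
      have h1 := fixedQ_baseChange hinj (fun τ : A.inertiaSubgroupIn ℚ => ρg (τ : GQ))
        (ρg φ * ρg φ) ((q : 𝒪) ^ 2)
        (fun v hv => by
          rw [← Matrix.mulVec_mulVec]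
          exact hStI A hA φ hφ v (fun τ hτ => hv ⟨τ, hτ⟩))
        (P.mulVec w) (hfix w)
      rw [Matrix.map_mul] at h1
      exact h1
    have hsq := plane_sq hQP (hP φ) _ hB
    have hd := sq_scalar_det hsq
    rw [hdet φ, hεq A hA φ hφ] at hd
    simp only [map_pow, map_natCast] at hd
    have hd' : q ^ 2 = (q ^ 2) ^ 2 := by exact_mod_cast hd
    have hq2 : 2 ≤ q := hq.two_le
    have h1 : q ^ 2 * 1 = q ^ 2 * q ^ 2 := by rw [mul_one, ← pow_two]; exact hd'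
    have h2 : 1 = q ^ 2 := Nat.eq_of_mul_eq_mul_left (pow_pos hq.pos 2) h1
    have h3 : 4 ≤ q ^ 2 := by nlinarith
    omega
  · -- `ρ₂` is diagonal: impossible, `ρ` is residually absolutely irreducible
    have hcomm₂ : ∀ σ τ : GQ, ρ₂ (σ * τ) = ρ₂ (τ * σ) := by
      intro σ τ
      rw [map_mul, map_mul, hρ₂ σ, hρ₂ τ, Matrix.diagonal_mul_diagonal,
        Matrix.diagonal_mul_diagonal]
      congr 1
      funext i
      exact mul_comm _ _
    let b : Module.Basis (Fin 2) 𝒪'' ρB.V := Module.finBasisOfFinrankEq 𝒪'' ρB.V ρB.finrank_eq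
    obtain ⟨g, hg⟩ := Fermat.Agent.R.H86.exists_eq_sum_matrix ρB habsB b
    refine not_commute_of_span (fun p => LinearMap.toMatrix b b (ρB.ρ (g p))) ?_ hg
    intro i j
    show LinearMap.toMatrix b b (ρB.ρ (g i)) * LinearMap.toMatrix b b (ρB.ρ (g j))
      = LinearMap.toMatrix b b (ρB.ρ (g j)) * LinearMap.toMatrix b b (ρB.ρ (g i))
    rw [← LinearMap.toMatrix_mul, ← LinearMap.toMatrix_mul, ← map_mul, ← map_mul,
      htrans' _ _ (hcomm₂ (g i) (g j))]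

/-- **PV-OLD, point level**: the `q`-new case from the Tate piece with inertia invariants. -/
theorem ramNew_of_tatePieceStI (hT : Stmt_TatePieceStI) : Stmt_RamNew := by
  intro p N M q _ _ S 𝒪 _ _ _ _ _ _ hp hp𝒪 hq hqp hNM hqM hpS hNS χ ρ hρ habs hno hunr
  haveI : Fact p.Prime := ⟨hp⟩
  obtain ⟨Mg, iMg, hMgN, g, hg, iota, hiota⟩ := exists_newform_iota S hNS χ
  have hMN : M ∣ N := ⟨q, hNM⟩
  by_cases hqMg : q ∣ Mg
  · -- the newform is new at `q`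
    have hq2Mg : ¬ q ^ 2 ∣ Mg := by
      intro h
      apply hqM
      have h1 : q ^ 2 ∣ M * q := hNM ▸ h.trans hMgN
      rw [pow_two] at h1
      exact (Nat.mul_dvd_mul_iff_right hq.pos).1 h1
    have hMgS : ∀ q' : ℕ, q'.Prime → q' ∣ Mg → q' ∈ S :=
      fun q' hq' h => hNS q' hq' (h.trans hMgN)
    obtain ⟨r, ρg, hr, hcont, hES, hStI⟩ := hT hg p S 𝒪 hp𝒪
      (Fermat.Agent.R.H99.eigenCharC (↑S : Set ℕ) hg.1)
      (fun ℓ hℓ hℓM hℓS => Fermat.Agent.R.H99.eigenCharC_T (↑S : Set ℕ) hg.1 hℓ hℓM hℓS)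
      iota hpS hMgS
    obtain ⟨ε, hε1, hε2, hES', hεq⟩ := Fermat.Agent.S35.H89.core p S 𝒪 hp𝒪
      (iota.comp (Fermat.Agent.R.H99.eigenCharC (↑S : Set ℕ) hg.1).rangeRestrict)
      hpS hMgS r ρg hES
    refine false_of_unramified_of_stI (p := p) hq S
      (Fermat.Agent.S35.H89.aOf S
        (iota.comp (Fermat.Agent.R.H99.eigenCharC (↑S : Set ℕ) hg.1).rangeRestrict))
      ρ habs ?_ hunr r hr ρg hcont ε hε1 hε2 hES' (hεq q hq hqp) (hStI q hq hqp hqMg hq2Mg)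
    intro ℓ hℓ hℓS A hA σ hσ
    have hℓN : ¬ ℓ ∣ N := fun h => hℓS (hNS ℓ hℓ h)
    have hℓMg : ¬ ℓ ∣ Mg := fun h => hℓN (h.trans hMgN)
    have hℓS' : ℓ ∉ (↑S : Set ℕ) := fun h => hℓS (Finset.mem_coe.1 h)
    rw [hρ ℓ hℓ hℓN hℓS' A hA σ hσ, Fermat.Agent.S35.H89.aOf_eq S _ ℓ hℓ hℓMg hℓS',
      hiota ℓ hℓ hℓMg hℓS' hℓN]
  · -- the newform has level prime to `q`: the eigensystem occurs at level `M`
    have hMgM : Mg ∣ M := by
      have hcop : Nat.Coprime Mg q :=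
        Nat.Coprime.symm ((Nat.Prime.coprime_iff_not_dvd hq).2 hqMg)
      exact hcop.dvd_of_dvd_mul_right (hNM ▸ hMgN)
    exact hno (occursAtLevel_of_newform S hNS hMN hMgM χ
      (iota.comp (Fermat.Agent.R.H99.eigenCharC (↑S : Set ℕ) hg.1).rangeRestrict) hiota)

end Fermat.Agent.L.Pivot.H50

end
-- ==== END Fermat.Agent.L.Pivot.H50_OldNew

-- ==== BEGIN Fermat.Agent.L.Pivot.H50_TX
section

/-!
# PIVOT, PV-OLD: the Tate piece with inertia invariants from a torsion-level statement (helper50)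

* `Stmt_TorsStI M q p` **(StI)**: level `M q`, `q ∤ M`, `p ≠ q`: for every valuation ring `A` over
  `q` and every Frobenius element `σ` at `A` there is `c` such that `p ^ c` kills
  `(σ² - q²) x` for every `q`-new `x ∈ J₀(M q)[p^∞]` fixed by the inertia group of `A`.
  ("The inertia invariants of the `q`-new part are the toric part, up to a finite group, and
  Frobenius² is `q²` on the toric part.")
* `piece_StI` : (StI) on a piece of the Tate limit.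
* `tatePieceStI_of`, `tatePieceStI_final :
    (∀ M q p, Stmt_TorsStI M q p) → L.Pivot.Stmt_TatePieceStI`.

The wiring is helper81's T-X (`GTor/H81_StNU.lean`, `GTor/H81_TX.lean`) with the clause (StI).
-/

set_option autoImplicit false
set_option linter.unusedSectionVars false

noncomputable section

namespace Fermat.Agent.L.Pivot.H50

open AlgebraicCurve ModularCurve Fermat.Agent.GTor Fermat.Agent.GTor.H58T1
open Fermat.Agent.Betti.H76 Fermat.Agent.S35.H89 Fermat.Agent.GTor.H81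

/-- **(StI)**: at a prime `q ∤ M`, `p` prime, `q ≠ p`: up to a bounded power of `p`, every
Frobenius element `σ` at `A` satisfies `σ² = q²` on the `q`-new `p`-power torsion points of
`J₀(M q)` which are fixed by the inertia group of `A`. -/
def Stmt_TorsStI (M q p : ℕ) [NeZero M] [NeZero q] : Prop :=
  q.Prime → ¬ q ∣ M → p.Prime → q ≠ p →
    ∀ A : ValuationSubring (AlgebraicClosure ℚ), A.LiesOverPrime q →
      ∀ σ : AlgebraicClosure ℚ ≃ₐ[ℚ] AlgebraicClosure ℚ, A.IsFrobeniusAt σ q →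
        ∃ c : ℕ, ∀ x : JZero (M * q), (∃ n : ℕ, p ^ n • x = 0) → IsQNew M q x →
          (∀ τ ∈ A.inertiaSubgroupIn ℚ, τ • x = x) →
          p ^ c • (σ • σ • x - q ^ 2 • x) = 0

section Abs

variable {R A : Type} [CommRing R] [AddCommGroup A] {r : ℕ}

/-- abstract form of the (StI) computation in coordinates. -/
theorem mulVec_StI_abs (θ : A ≃+ (Fin r → R)) (ρ W : Matrix (Fin r) (Fin r) R) (G Wf : A → A)
    (hG : ∀ y, θ (G y) = ρ.mulVec (θ y)) (hW : ∀ x, θ (Wf x) = W.mulVec (θ x))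
    (a c : ℕ) (x : A)
    (hz : a • (G (G (Wf x)) - c • Wf x) = 0) :
    (((a : ℕ) : Matrix (Fin r) (Fin r) R) *
      (ρ * ρ - ((c : ℕ) : Matrix (Fin r) (Fin r) R)) * W).mulVec (θ x) = 0 := by
  have e2 : (ρ * ρ).mulVec (θ (Wf x)) = θ (G (G (Wf x))) := by
    rw [hG, hG]
    simp only [Matrix.mulVec_mulVec]
  have h0 := congrArg θ hz
  rw [map_zero, map_nsmul, map_sub, map_nsmul, ← e2] at h0
  rw [← Matrix.mulVec_mulVec, ← hW, ← Matrix.mulVec_mulVec, Matrix.sub_mulVec,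
    Matrix.natCast_mulVec, Matrix.natCast_mulVec, Nat.cast_smul_eq_nsmul,
    Nat.cast_smul_eq_nsmul]
  exact h0

end Abs

section Level

variable {M q p : ℕ} [NeZero M] [NeZero q] [Fact p.Prime] {S : Set ℕ}
  {C : TateCoords (M * q) p S}

/-- **(StI) at level `k`**, in coordinates. -/
theorem rho_StI (hY : Stmt_Y1 M q) (hS : ∀ l : ℕ, l.Prime → l ∣ M * q → l ∈ S) {c : ℕ}
    {A : ValuationSubring (AlgebraicClosure ℚ)} {σ : GQ}
    (h : ∀ x : JZero (M * q), (∃ n : ℕ, p ^ n • x = 0) → IsQNew M q x →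
      (∀ τ ∈ A.inertiaSubgroupIn ℚ, τ • x = x) → p ^ c • (σ • σ • x - q ^ 2 • x) = 0)
    {w : FreeAlgebra ℤ (Gen S)} (hw : wordSH M S w = 0) (k : ℕ)
    (v : Fin C.r → ZMod (p ^ k))
    (hv : ∀ τ : A.inertiaSubgroupIn ℚ, (C.ρ k (τ : GQ) - 1).mulVec v = 0) :
    (((p ^ c : ℕ) : Matrix (Fin C.r) (Fin C.r) (ZMod (p ^ k))) *
      (C.ρ k σ * C.ρ k σ - ((q ^ 2 : ℕ) : Matrix (Fin C.r) (Fin C.r) (ZMod (p ^ k)))) *
      Mc (ZMod (p ^ k)) C.M (wordSH (M * q) S w)).mulVec v = 0 := by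
  have hpp : p.Prime := Fact.out
  obtain ⟨x, rfl⟩ := (C.θ k).surjective v
  -- `x` is fixed by inertia
  have hfix : ∀ τ ∈ A.inertiaSubgroupIn ℚ, τ • (x : JZero (M * q)) = (x : JZero (M * q)) := by
    intro τ hτ
    have h1 := hv ⟨τ, hτ⟩
    have h2 : C.mat k (TateCoords.galEnd k τ - 1) = C.ρ k τ - 1 := by
      rw [map_sub, map_one, C.mat_gal]
    rw [← h2, C.mat_mulVec] at h1
    have h3 : (TateCoords.galEnd k τ - 1 : AddMonoid.End (Jtor (M * q) (p ^ k))) x = 0 :=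
      (C.θ k).injective (h1.trans (map_zero _).symm)
    have h4 := congrArg (fun y : Jtor (M * q) (p ^ k) => (y : JZero (M * q))) h3
    have h5 : τ • (x : JZero (M * q)) - (x : JZero (M * q)) = 0 := h4
    exact sub_eq_zero.1 h5
  refine mulVec_StI_abs (C.θ k) (C.ρ k σ) (Mc (ZMod (p ^ k)) C.M (wordSH (M * q) S w))
    (fun y => JZero.torsionGaloisRep (M * q) (p ^ k) σ y)
    (fun x => resTor (M * q) (p ^ k) (wordJ (M * q) S w) x)
    (fun y => C.gal k σ y) (fun x => ?_) (p ^ c) (q ^ 2) x ?_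
  · rw [← C.mat_word hS k w, C.mat_mulVec]
  · have key := h (wordJ (M * q) S w (x : JZero (M * q)))
      (word_torsion w (pow_nsmul_coe' k x))
      (isQNew_word hpp hY hS hw (x : JZero (M * q)) (pow_nsmul_coe' k x))
      (fun τ hτ => by rw [wordJ_gal, hfix τ hτ])
    exact Subtype.ext key

end Level

/-! ## The piece -/

section Piece

variable {M q p : ℕ} [NeZero M] [NeZero q] [Fact p.Prime] {S : Set ℕ}
  {C : TateCoords (M * q) p S}
variable {𝒪 : Type} [CommRing 𝒪] [IsLocalRing 𝒪]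
  [IsAdicComplete (IsLocalRing.maximalIdeal 𝒪) 𝒪]
  {hp : (p : 𝒪) ∈ IsLocalRing.maximalIdeal 𝒪} (L : TateLimit C 𝒪 hp)
variable [IsDomain 𝒪] (Pc : SubPiece L.ρL)

/-- **(StI) on the piece.** -/
theorem piece_StI (hY : Stmt_Y1 M q) (hS : ∀ l : ℕ, l.Prime → l ∣ M * q → l ∈ S) {c : ℕ}
    {A : ValuationSubring (AlgebraicClosure ℚ)} {σ : GQ}
    (h : ∀ x : JZero (M * q), (∃ n : ℕ, p ^ n • x = 0) → IsQNew M q x →
      (∀ τ ∈ A.inertiaSubgroupIn ℚ, τ • x = x) → p ^ c • (σ • σ • x - q ^ 2 • x) = 0)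
    {w : FreeAlgebra ℤ (Gen S)} (hw : wordSH M S w = 0) (a : 𝒪)
    (ha : Mc 𝒪 C.M (wordSH (M * q) S w) * Pc.P = a • Pc.P) (ha0 : a ≠ 0)
    (hp0 : (p : 𝒪) ≠ 0) (v : Fin Pc.d → 𝒪)
    (hv : ∀ τ ∈ A.inertiaSubgroupIn ℚ, (Pc.rep τ).mulVec v = v) :
    (Pc.rep σ).mulVec ((Pc.rep σ).mulVec v) = (q : 𝒪) ^ 2 • v := by
  have hpp : p.Prime := Fact.out
  -- the vector on the big module
  have hu₀ : ∀ τ ∈ A.inertiaSubgroupIn ℚ, (L.ρL τ - 1).mulVec (Pc.P.mulVec v) = 0 := by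
    intro τ hτ
    rw [Matrix.sub_mulVec, Matrix.one_mulVec, (Pc.rel_rep τ).mulVec v, hv τ hτ, sub_self]
  have hkey : (((p ^ c : ℕ) : Matrix (Fin C.r) (Fin C.r) 𝒪) *
      (L.ρL σ * L.ρL σ - ((q ^ 2 : ℕ) : Matrix (Fin C.r) (Fin C.r) 𝒪)) *
      Mc 𝒪 C.M (wordSH (M * q) S w)).mulVec (Pc.P.mulVec v) = 0 := by
    generalize Pc.P.mulVec v = u₀ at hu₀ ⊢
    funext i
    apply eq_of_forall_piK (IsLocalRing.maximalIdeal 𝒪)
    intro k
    have : NeZero (p ^ k) := ⟨pow_ne_zero k hpp.ne_zero⟩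
    have hk := mulVec_eq_zero_of_family (p ^ k)
      (fun τ : ↥(A.inertiaSubgroupIn ℚ) => C.ρ k (τ : GQ) - 1)
      (((p ^ c : ℕ) : Matrix (Fin C.r) (Fin C.r) (ZMod (p ^ k))) *
        (C.ρ k σ * C.ρ k σ - ((q ^ 2 : ℕ) : Matrix (Fin C.r) (Fin C.r) (ZMod (p ^ k)))) *
        Mc (ZMod (p ^ k)) C.M (wordSH (M * q) S w))
      (fun v hv => rho_StI hY hS h hw k v hv)
      (cK (IsLocalRing.maximalIdeal 𝒪) p hp k)
      ((piK (IsLocalRing.maximalIdeal 𝒪) k) ∘ u₀) ?_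
    · have e : (((p ^ c : ℕ) : Matrix (Fin C.r) (Fin C.r) (ZMod (p ^ k))) *
          (C.ρ k σ * C.ρ k σ - ((q ^ 2 : ℕ) : Matrix (Fin C.r) (Fin C.r) (ZMod (p ^ k)))) *
          Mc (ZMod (p ^ k)) C.M (wordSH (M * q) S w)).map
            (cK (IsLocalRing.maximalIdeal 𝒪) p hp k) =
          (((p ^ c : ℕ) : Matrix (Fin C.r) (Fin C.r) 𝒪) *
            (L.ρL σ * L.ρL σ - ((q ^ 2 : ℕ) : Matrix (Fin C.r) (Fin C.r) 𝒪)) *
            Mc 𝒪 C.M (wordSH (M * q) S w)).map (piK (IsLocalRing.maximalIdeal 𝒪) k) :=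
        ((((compat_natCast (hp := hp) (p ^ c)).mul
          (((L.spec σ).mul (L.spec σ)).sub (compat_natCast (q ^ 2)))).mul
          (compat_Mc C.M _)) k).symm
      rw [e] at hk
      have h1 := congrFun hk i
      rw [← RingHom.map_mulVec] at h1
      rw [h1]
      simp
    · intro τ
      have e : (C.ρ k (τ : GQ) - 1).map (cK (IsLocalRing.maximalIdeal 𝒪) p hp k) =
          (L.ρL (τ : GQ) - 1).map (piK (IsLocalRing.maximalIdeal 𝒪) k) :=
        (((L.spec (τ : GQ)).sub compat_one) k).symm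
      show ((C.ρ k (τ : GQ) - 1).map (cK (IsLocalRing.maximalIdeal 𝒪) p hp k)).mulVec _ = 0
      rw [e]
      funext i
      rw [← RingHom.map_mulVec, hu₀ τ τ.2]
      simp
  -- transport to the piece
  have hrel : Pc.Rel (((p ^ c : ℕ) : Matrix (Fin C.r) (Fin C.r) 𝒪) *
      (L.ρL σ * L.ρL σ - ((q ^ 2 : ℕ) : Matrix (Fin C.r) (Fin C.r) 𝒪)) *
      Mc 𝒪 C.M (wordSH (M * q) S w))
      ((((p ^ c : ℕ) : 𝒪) • (1 : Matrix (Fin Pc.d) (Fin Pc.d) 𝒪)) *
        (Pc.rep σ * Pc.rep σ - ((q ^ 2 : ℕ) : 𝒪) • (1 : Matrix (Fin Pc.d) (Fin Pc.d) 𝒪)) *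
        (a • (1 : Matrix (Fin Pc.d) (Fin Pc.d) 𝒪))) := by
    rw [← natCast_smul_one 𝒪 (p ^ c), ← natCast_smul_one 𝒪 (q ^ 2)]
    exact ((Pc.rel_one.smul ((p ^ c : ℕ) : 𝒪)).mul
      (((Pc.rel_rep σ).mul (Pc.rel_rep σ)).sub (Pc.rel_one.smul ((q ^ 2 : ℕ) : 𝒪)))).mul
      (SubPiece.rel_of_eig ha)
  have h2 := hrel.mulVec v
  rw [hkey] at h2
  have h3 : ((((p ^ c : ℕ) : 𝒪) • (1 : Matrix (Fin Pc.d) (Fin Pc.d) 𝒪)) *
        (Pc.rep σ * Pc.rep σ - ((q ^ 2 : ℕ) : 𝒪) • (1 : Matrix (Fin Pc.d) (Fin Pc.d) 𝒪)) *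
        (a • (1 : Matrix (Fin Pc.d) (Fin Pc.d) 𝒪))).mulVec v = 0 := by
    apply SubPiece.P_mulVec_injective (Pc := Pc)
    show Pc.P.mulVec _ = Pc.P.mulVec 0
    rw [← h2, Matrix.mulVec_zero]
  have hpc : ((p ^ c : ℕ) : 𝒪) ≠ 0 := by
    rw [Nat.cast_pow]
    exact pow_ne_zero c hp0
  have h4 : ((p ^ c : ℕ) : 𝒪) • a •
      ((Pc.rep σ).mulVec ((Pc.rep σ).mulVec v) - (q : 𝒪) ^ 2 • v) = 0 := by
    rw [← h3]
    simp only [Matrix.smul_mul, Matrix.one_mul, Matrix.mul_smul, Matrix.mul_one,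
      Matrix.smul_mulVec, Matrix.sub_mulVec, Matrix.mulVec_mulVec, Matrix.one_mulVec,
      Nat.cast_pow]
    rw [smul_comm]
  have h5 : (Pc.rep σ).mulVec ((Pc.rep σ).mulVec v) - (q : 𝒪) ^ 2 • v = 0 := by
    funext i
    have h6 := congrFun h4 i
    simp only [Pi.smul_apply, smul_eq_mul, Pi.zero_apply] at h6
    exact (mul_eq_zero.1 ((mul_eq_zero.1 h6).resolve_left hpc)).resolve_left ha0
  exact sub_eq_zero.1 h5

end Piece

section Clauses

variable {M q p : ℕ} [NeZero M] [NeZero q] [Fact p.Prime]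

/-- **the clause (StI)** at level `M * q`. -/
theorem stI_clause (hSt : Stmt_TorsStI M q p) (hY : Stmt_Y1 M q)
    (hS30 : Fermat.Agent.R.Stmt_S30)
    {g : CuspForm (CongruenceSubgroup.Gamma0 (M * q)) 2} (hg : g.IsNewform) (S : Finset ℕ)
    (hS : ∀ l : ℕ, l.Prime → l ∣ M * q → l ∈ S)
    (O' : Type) [CommRing O'] [IsDomain O'] [IsDiscreteValuationRing O']
    [IsAdicComplete (IsLocalRing.maximalIdeal O') O'] [CharZero O']
    (hpO' : (p : O') ∈ IsLocalRing.maximalIdeal O')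
    (chig : CuspForm.heckeAlgebra (M * q) 2 (↑S : Set ℕ) →+* ℂ)
    (hchig : ∀ (ℓ : ℕ) (hℓ : ℓ.Prime) (hℓM : ¬ ℓ ∣ M * q) (hℓS : ℓ ∉ (↑S : Set ℕ)),
      chig (CuspForm.heckeAlgebra.T hℓ hℓM hℓS) = ModularFormClass.qCoeff g ℓ)
    (iota : chig.range →+* O')
    {C : TateCoords (M * q) p (↑S : Set ℕ)} (L : TateLimit C O' hpO') (Pc : SubPiece L.ρL)
    (hPc : ∀ t, Mc O' C.M t * Pc.P = (iota.comp chig.rangeRestrict) t • Pc.P)
    (hq : q.Prime) (hqp : q ≠ p) (hqM : ¬ q ∣ M)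
    (A : ValuationSubring (AlgebraicClosure ℚ)) (hA : A.LiesOverPrime q) (σ : GQ)
    (hσ : A.IsFrobeniusAt σ q) (v : Fin Pc.d → O')
    (hv : ∀ τ ∈ A.inertiaSubgroupIn ℚ, (Pc.rep τ).mulVec v = v) :
    (Pc.rep σ).mulVec ((Pc.rep σ).mulVec v) = (q : O') ^ 2 • v := by
  have hpp : p.Prime := Fact.out
  obtain ⟨c, hc⟩ := hSt hq hqM hpp hqp A hA σ hσ
  obtain ⟨w, hw0, hw1⟩ := exists_oldKiller hS30 hq.ne_one hg S chig hchig
  have hS' : ∀ l : ℕ, l.Prime → l ∣ M * q → l ∈ (↑S : Set ℕ) := fun l hl h =>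
    Finset.mem_coe.2 (hS l hl h)
  have ha0 := iota_comp_ne_zero chig iota _ hw1
  have hp0 : (p : O') ≠ 0 := Nat.cast_ne_zero.2 hpp.ne_zero
  exact piece_StI L Pc hY hS' hc hw0 _ (hPc _) ha0 hp0 v hv

end Clauses

/-- **T-StI**: the Tate piece with inertia invariants of PV-OLD. -/
theorem tatePieceStI_of
    (hSt : ∀ (M q p : ℕ) [NeZero M] [NeZero q], Stmt_TorsStI M q p)
    (hY : ∀ (M q : ℕ) [NeZero M] [NeZero q], Stmt_Y1 M q)
    (hS30 : Fermat.Agent.R.Stmt_S30)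
    (hRed : ∀ (N : ℕ) [NeZero N] (p : ℕ), p.Prime → AllRed N p) :
    Fermat.Agent.L.Pivot.Stmt_TatePieceStI := by
  intro M _ g hg lam hlam S O' _ _ _ _ _ _ hlamO' chig hchig iota hlamS hMS
  have hpp : lam.Prime := hlam.out
  obtain ⟨C⟩ := tateCoords M lam (↑S : Set ℕ) hpp
    (fun q hq hqM => Finset.mem_coe.2 (hMS q hq hqM))
  obtain ⟨L⟩ := exists_tateLimit C O' hlamO'
  obtain ⟨Pc, hPc⟩ := exists_piece_eig L (iota.comp chig.rangeRestrict)
  refine ⟨Pc.d, Pc.rep, Pc.pos, L.cont_piece Pc, ?_, ?_⟩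
  · intro ℓ hℓ hℓN hℓS A hA σ hσ
    have hℓp : ℓ ≠ lam := by
      rintro rfl
      exact hℓS (Finset.mem_coe.2 hlamS)
    exact piece_ES L Pc (torsES_of_red hpp (hRed M lam hpp)) hℓ hℓN hℓp hℓS _ (hPc _) A hA σ hσ
  · intro q hq hqlam hqM hq2 A hA σ hσ v hv
    obtain ⟨M₀, hM⟩ : ∃ M₀, M = M₀ * q := ⟨M / q, (Nat.div_mul_cancel hqM).symm⟩
    subst hM
    have : NeZero q := ⟨hq.ne_zero⟩
    have : NeZero M₀ := ⟨fun h => NeZero.ne (M₀ * q) (by rw [h, zero_mul])⟩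
    have hqM₀ : ¬ q ∣ M₀ := fun h => hq2 (by
      rw [pow_two]
      exact Nat.mul_dvd_mul h (dvd_refl q))
    exact stI_clause (hSt M₀ q lam) (hY M₀ q) hS30 hg S hMS O' hlamO' chig hchig iota L Pc
      hPc hq hqlam hqM₀ A hA σ hσ v hv

/-- **T-StI**, final form. -/
theorem tatePieceStI_final
    (hSt : ∀ (M q p : ℕ) [NeZero M] [NeZero q], Stmt_TorsStI M q p) :
    Fermat.Agent.L.Pivot.Stmt_TatePieceStI :=
  tatePieceStI_of hSt (fun M q _ _ => Fermat.Agent.S36.H44.stmt_Y1 M q)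
    Fermat.Agent.R.H33.stmt_S30 (fun N _ p _ => Fermat.Agent.R.H33.allRed N p)

end Fermat.Agent.L.Pivot.H50

end
end
-- ==== END Fermat.Agent.L.Pivot.H50_TX
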