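-- GENERATED (merged mirror, NOTES/tools/trim/merge3_helper67.py): 6 modules of the originals, bodies verbatim.
import Fermat.Agent.Zm.S43_L05_000
import Fermat.Agent.Zm.S43_L02_001
import Fermat.Agent.Zm.S43_L05_001
import Fermat.Agent.Zm.S43_L03_001
import Fermat.Agent.Zm.S35_L02_001
import Fermat.Agent.Zm.S48_L01_002
import Fermat.Agent.Zm.S43_L01_001
import Fermat.Agent.Zm.S56_L09_005
import Fermat.Agent.Zm.S43_L01_000
import Fermat.Agent.Zm.S43_L04_000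
import Fermat.Agent.Zm.S43_L05_002

-- ==== BEGIN Fermat.Agent.L.Pivot.H52_TPMain
section

set_option autoImplicit false
set_option linter.style.haveILetI false
set_option linter.unusedSectionVars false

namespace Fermat.Agent.L.Pivot.H52

open IsLocalRing

/-- Two injective families in a finite type differ by a permutation. -/
theorem exists_perm_extend {ι α : Type*} [Finite α] {u u' : ι → α}
    (hu : Function.Injective u) (hu' : Function.Injective u') :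
    ∃ e : Equiv.Perm α, ∀ i, e (u i) = u' i := by
  classical
  let e₀ : {x // x ∈ Set.range u} ≃ {x // x ∈ Set.range u'} :=
    (Equiv.ofInjective u hu).symm.trans (Equiv.ofInjective u' hu')
  refine ⟨e₀.extendSubtype, fun i => ?_⟩
  rw [Equiv.extendSubtype_apply_of_mem e₀ (u i) ⟨i, rfl⟩]
  simp [e₀]

section Rename

variable {𝒪 : Type} [CommRing 𝒪]

theorem renameEquiv_X' {n : ℕ} (e : Fin n ≃ Fin n) (i : Fin n) :
    MvPowerSeries.renameEquiv 𝒪 e (MvPowerSeries.X i) = MvPowerSeries.X (e i) := by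
  change MvPowerSeries.rename (⇑e) (MvPowerSeries.X i) = _
  exact MvPowerSeries.rename_X _ i

theorem renameEquiv_C' {n : ℕ} (e : Fin n ≃ Fin n) (a : 𝒪) :
    MvPowerSeries.renameEquiv 𝒪 e (MvPowerSeries.C a : Rn 𝒪 n) = MvPowerSeries.C a := by
  change MvPowerSeries.rename (⇑e) (MvPowerSeries.C a) = _
  exact MvPowerSeries.rename_C _ a

theorem rename_towerGen {n : ℕ} (e : Fin n ≃ Fin n) (p : Fin 3 → Fin n) (d : 𝒪) :
    MvPowerSeries.renameEquiv 𝒪 e (towerGen p d) = towerGen (fun t => e (p t)) d := by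
  have h4 : MvPowerSeries.renameEquiv 𝒪 e (4 : Rn 𝒪 n) = 4 := map_ofNat _ 4
  simp only [towerGen, map_sub, map_add, map_mul, map_pow, h4, renameEquiv_X', renameEquiv_C']

theorem good_of_rename {n : ℕ} (e : Fin n ≃ Fin n) {S : Set (Rn 𝒪 n)}
    (h : Good 𝒪 n ((MvPowerSeries.renameEquiv 𝒪 e) '' S)) : Good 𝒪 n S := by
  obtain ⟨hp, h0⟩ := h
  have hbij : Function.Bijective
      ((MvPowerSeries.renameEquiv 𝒪 e : Rn 𝒪 n ≃ₐ[𝒪] Rn 𝒪 n) : Rn 𝒪 n →+* Rn 𝒪 n) :=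
    (MvPowerSeries.renameEquiv 𝒪 e).bijective
  have hmap : Ideal.map
      ((MvPowerSeries.renameEquiv 𝒪 e : Rn 𝒪 n ≃ₐ[𝒪] Rn 𝒪 n) : Rn 𝒪 n →+* Rn 𝒪 n)
      (Ideal.span S) = Ideal.span ((MvPowerSeries.renameEquiv 𝒪 e) '' S) := by
    rw [Ideal.map_span]
    rfl
  have hcomap : Ideal.span S = Ideal.comap
      ((MvPowerSeries.renameEquiv 𝒪 e : Rn 𝒪 n ≃ₐ[𝒪] Rn 𝒪 n) : Rn 𝒪 n →+* Rn 𝒪 n)
      (Ideal.span ((MvPowerSeries.renameEquiv 𝒪 e) '' S)) := by
    rw [← hmap, Ideal.comap_map_of_bijective _ hbij]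
  refine ⟨?_, fun a ha => ?_⟩
  · rw [hcomap]
    haveI := hp
    exact Ideal.comap_isPrime _ _
  · apply h0 a
    rw [hcomap, Ideal.mem_comap] at ha
    have h1 : ((MvPowerSeries.renameEquiv 𝒪 e : Rn 𝒪 n ≃ₐ[𝒪] Rn 𝒪 n) : Rn 𝒪 n →+* Rn 𝒪 n)
        (MvPowerSeries.C a) = MvPowerSeries.C a := by
      exact renameEquiv_C' e a
    rwa [h1] at ha

end Rename

section Main

variable {𝒪 : Type} [CommRing 𝒪] [IsDomain 𝒪] [IsLocalRing 𝒪] [IsNoetherianRing 𝒪]
  [IsAdicComplete (maximalIdeal 𝒪) 𝒪]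

theorem pos0_injective (n : ℕ) : Function.Injective (pos0 n) := by
  intro t t' h
  have h1 := congrArg Fin.val h
  simp only [pos0] at h1
  ext
  have := t.2
  have := t'.2
  omega

/-- **The quadric tower**: for pairwise distinct positions `pos j t` (`t = 0, 1, 2` for
`y_j, z_j, m_j`), the quadrics `m_j² + 4 y_j z_j − δ_j²` generate a prime ideal meeting `𝒪`
trivially. -/
theorem good_range_towerGen (hu : IsUnit (2 : 𝒪)) :
    ∀ (j n : ℕ) (pos : Fin j → Fin 3 → Fin n) (δ : Fin j → 𝒪),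
      Function.Injective (fun x : Fin j × Fin 3 => pos x.1 x.2) →
      (∀ i, δ i ≠ 0) → (∀ i, δ i ∈ maximalIdeal 𝒪) →
      Good 𝒪 n (Set.range fun i => towerGen (pos i) (δ i)) := by
  intro j
  induction j with
  | zero =>
    intro n pos δ _ _ _
    have h1 : (Set.range fun i : Fin 0 => towerGen (pos i) (δ i)) = ∅ := Set.range_eq_empty _
    rw [h1, Good, Ideal.span_empty]
    refine ⟨Ideal.isPrime_bot, fun a ha => ?_⟩
    rw [Ideal.mem_bot] at ha
    exact MvPowerSeries.C_injective (by rw [ha, map_zero])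
  | succ j ih =>
    intro n pos δ hinj hδ0 hδm
    have hinj0 : Function.Injective (pos 0) := fun t t' h => by
      have := hinj (a₁ := (0, t)) (a₂ := (0, t')) h
      exact (Prod.mk.inj this).2
    have h3 : 3 ≤ n := by
      have := Fintype.card_le_of_injective _ hinj0
      simpa using this
    obtain ⟨n', rfl⟩ : ∃ n', n = n' + 3 := ⟨n - 3, by omega⟩
    obtain ⟨e, he⟩ := exists_perm_extend hinj0 (pos0_injective n')
    -- the other blocks avoid the positions `0, 1, 2` after renaming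
    have hge : ∀ (i : Fin j) (t : Fin 3), 3 ≤ (e (pos i.succ t)).1 := by
      intro i t
      by_contra hlt
      have hlt' : (e (pos i.succ t)).1 < 3 := by omega
      have h1 : e (pos i.succ t) = pos0 n' ⟨2 - (e (pos i.succ t)).1, by omega⟩ := by
        apply Fin.ext
        simp only [pos0]
        omega
      rw [← he] at h1
      have h2 := hinj (a₁ := (i.succ, t)) (a₂ := (0, _)) (e.injective h1)
      exact Fin.succ_ne_zero i (Prod.mk.inj h2).1
    let pos' : Fin j → Fin 3 → Fin n' := fun i t =>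
      ⟨(e (pos i.succ t)).1 - 3, by have := (e (pos i.succ t)).2; have := hge i t; omega⟩
    have hpos' : ∀ i t, ((pos' i t).succ.succ.succ : Fin (n' + 3)) = e (pos i.succ t) := by
      intro i t
      apply Fin.ext
      have := hge i t
      simp only [pos', Fin.val_succ]
      omega
    have hinj' : Function.Injective (fun x : Fin j × Fin 3 => pos' x.1 x.2) := by
      rintro ⟨i, t⟩ ⟨i', t'⟩ h
      have h1 : e (pos i.succ t) = e (pos i'.succ t') := by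
        rw [← hpos', ← hpos']
        exact congrArg (fun x : Fin n' => x.succ.succ.succ) h
      have h2 := hinj (a₁ := (i.succ, t)) (a₂ := (i'.succ, t')) (e.injective h1)
      have h3 := Prod.mk.inj h2
      exact Prod.ext (Fin.succ_injective _ h3.1) h3.2
    have hih := ih n' pos' (fun i => δ i.succ) hinj' (fun i => hδ0 _) (fun i => hδm _)
    have hq := good_quad_step hih hu (hδ0 0) (hδm 0)
    apply good_of_rename e
    have hset : (MvPowerSeries.renameEquiv 𝒪 e) ''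
        (Set.range fun i => towerGen (pos i) (δ i)) =
        shift 𝒪 (n' + 2) '' (shift 𝒪 (n' + 1) '' (shift 𝒪 n' ''
          (Set.range fun i => towerGen (pos' i) (δ i.succ)))) ∪ {towerGen (pos0 n') (δ 0)} := by
      have hold : ∀ i : Fin j, shift 𝒪 (n' + 2) (shift 𝒪 (n' + 1) (shift 𝒪 n'
          (towerGen (pos' i) (δ i.succ)))) =
          MvPowerSeries.renameEquiv 𝒪 e (towerGen (pos i.succ) (δ i.succ)) := by
        intro i
        rw [shift_towerGen, shift_towerGen, shift_towerGen, rename_towerGen]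
        congr 1
        funext t
        exact hpos' i t
      have hnew : towerGen (pos0 n') (δ 0) =
          MvPowerSeries.renameEquiv 𝒪 e (towerGen (pos 0) (δ 0)) := by
        rw [rename_towerGen]
        congr 1
        funext t
        exact (he t).symm
      ext x
      simp only [Set.mem_image, Set.mem_range, Set.mem_union, Set.mem_singleton_iff,
        exists_exists_eq_and]
      constructor
      · rintro ⟨i, rfl⟩
        refine Fin.cases ?_ (fun i' => ?_) i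
        · right
          exact hnew.symm
        · left
          exact ⟨i', hold i'⟩
      · rintro (⟨i, rfl⟩ | rfl)
        · exact ⟨i.succ, (hold i).symm⟩
        · exact ⟨0, hnew.symm⟩
    rw [hset]
    exact hq

end Main

/-! ### The leaf `Stmt_TypePrime` -/

section Leaf

theorem cIdx'_injective3 (k g : ℕ) :
    Function.Injective (fun x : Fin k × Fin 3 =>
      cIdx' k g x.1 ⟨x.2.1, by have := x.2.2; omega⟩) := by
  rintro ⟨j, t⟩ ⟨j', t'⟩ h
  have h1 := congrArg Fin.val h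
  simp only [cIdx'] at h1
  have := t.2
  have := t'.2
  have hj : j.1 = j'.1 := by omega
  have ht : t.1 = t'.1 := by omega
  exact Prod.ext (Fin.ext hj) (Fin.ext ht)

theorem typeF_eq_towerGen {𝒪 : Type} [CommRing 𝒪] {k : ℕ} (g : ℕ) (δ : Fin k → 𝒪) (j : Fin k) :
    typeF (g := g) δ j =
      towerGen (fun t : Fin 3 => cIdx' k g j ⟨t.1, by have := t.2; omega⟩) (δ j) := rfl

/-- **TYPE-PRIME**. -/
theorem stmt_TypePrime : Stmt_TypePrime := by
  intro 𝒪 _ _ _ _ k g δ hu hδ0 hδm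
  have h := good_range_towerGen (𝒪 := 𝒪) hu k (4 * k + g)
    (fun j t => cIdx' k g j ⟨t.1, by have := t.2; omega⟩) δ (cIdx'_injective3 k g) hδ0 hδm
  exact h.1

end Leaf

end Fermat.Agent.L.Pivot.H52

end
-- ==== END Fermat.Agent.L.Pivot.H52_TPMain

-- ==== BEGIN Fermat.Agent.L.Pivot.H52_TypeLeQ
section

set_option autoImplicit false
set_option linter.style.haveILetI false
set_option linter.unusedSectionVars false

namespace Fermat.Agent.L.Pivot.H52

open MvPowerSeries IsLocalRing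

/-! ### The target ring -/

/-- The variables `a_j, b_j, μ_j, x_a` of the target ring. -/
abbrev TV (k g : ℕ) : Type := Fin k ⊕ (Fin k ⊕ (Fin k ⊕ Fin g))

section Target

variable (𝒪 : Type) [CommRing 𝒪] (k g : ℕ)

/-- The target ring `D₀ = 𝒪⟦a_j, b_j, μ_j, x⟧`. -/
abbrev D0 : Type := MvPowerSeries (TV k g) 𝒪

variable {k}

/-- `a_j`. -/
noncomputable def tA (j : Fin k) : D0 𝒪 k g := X (Sum.inl j)
/-- `b_j`. -/
noncomputable def tB (j : Fin k) : D0 𝒪 k g := X (Sum.inr (Sum.inl j))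
/-- `μ_j`. -/
noncomputable def tM (j : Fin k) : D0 𝒪 k g := X (Sum.inr (Sum.inr (Sum.inl j)))
variable (k)

/-- `x_a`. -/
noncomputable def tX (a : Fin g) : D0 𝒪 k g := X (Sum.inr (Sum.inr (Sum.inr a)))

theorem isAdicComplete_D0 [IsLocalRing 𝒪] [IsNoetherianRing 𝒪]
    [IsAdicComplete (maximalIdeal 𝒪) 𝒪] :
    IsAdicComplete (maximalIdeal (D0 𝒪 k g)) (D0 𝒪 k g) := by
  have e : TV k g ≃ Fin (Fintype.card (TV k g)) := Fintype.equivFin _
  haveI := Fermat.Agent.S53.Limit.isAdicComplete_mvPowerSeries_fin 𝒪 (Fintype.card (TV k g))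
  exact Fermat.Agent.S53.Limit.isAdicComplete_of_ringEquiv
    (MvPowerSeries.renameEquiv 𝒪 e).symm.toRingEquiv

variable {𝒪 k g}

theorem mem_maximalIdeal_D0 [IsLocalRing 𝒪] (F : D0 𝒪 k g) :
    F ∈ maximalIdeal (D0 𝒪 k g) ↔ constantCoeff F ∈ maximalIdeal 𝒪 :=
  Fermat.Agent.L.Pivot.H76.mem_maximalIdeal_mvPowerSeries F

/-- A square root of `1 + 4 a_j b_j` (Hensel). -/
theorem exists_sqrt [IsLocalRing 𝒪] [IsNoetherianRing 𝒪] [IsAdicComplete (maximalIdeal 𝒪) 𝒪]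
    (hu : IsUnit (2 : 𝒪)) (j : Fin k) :
    ∃ ρ u : D0 𝒪 k g, ρ ^ 2 = 1 + 4 * tA 𝒪 g j * tB 𝒪 g j ∧ ρ * u = 1 := by
  haveI := isAdicComplete_D0 𝒪 k g
  have hH : HenselianRing (D0 𝒪 k g) (maximalIdeal (D0 𝒪 k g)) := inferInstance
  let c : D0 𝒪 k g := 1 + 4 * tA 𝒪 g j * tB 𝒪 g j
  have hmon : (Polynomial.X ^ 2 - Polynomial.C c : Polynomial (D0 𝒪 k g)).Monic :=
    Polynomial.monic_X_pow_sub_C c two_ne_zero
  have h1 : (Polynomial.X ^ 2 - Polynomial.C c : Polynomial (D0 𝒪 k g)).eval 1 ∈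
      maximalIdeal (D0 𝒪 k g) := by
    rw [mem_maximalIdeal_D0]
    simp [c, tA, tB]
  have h2 : IsUnit (Ideal.Quotient.mk (maximalIdeal (D0 𝒪 k g))
      ((Polynomial.X ^ 2 - Polynomial.C c : Polynomial (D0 𝒪 k g)).derivative.eval 1)) := by
    have h3 : (Polynomial.X ^ 2 - Polynomial.C c : Polynomial (D0 𝒪 k g)).derivative.eval 1 =
        2 := by
      simp
      norm_num
    rw [h3]
    have h4 : IsUnit (2 : D0 𝒪 k g) := by
      have := hu.map (C : 𝒪 →+* D0 𝒪 k g)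
      rwa [map_ofNat] at this
    exact h4.map _
  obtain ⟨ρ, hρ, hρ1⟩ := hH.is_henselian _ hmon 1 h1 h2
  have hρ2 : ρ ^ 2 = c := by
    have := hρ
    simp only [Polynomial.IsRoot, Polynomial.eval_sub, Polynomial.eval_pow, Polynomial.eval_X,
      Polynomial.eval_C] at this
    exact sub_eq_zero.1 this
  have hunit : IsUnit ρ := by
    by_contra hnu
    have h5 : ρ ∈ maximalIdeal (D0 𝒪 k g) := by
      rwa [mem_maximalIdeal, mem_nonunits_iff]
    have h6 : (1 : D0 𝒪 k g) ∈ maximalIdeal (D0 𝒪 k g) := by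
      have := (maximalIdeal (D0 𝒪 k g)).sub_mem h5 hρ1
      rwa [sub_sub_cancel] at this
    exact (Ideal.ne_top_iff_one _).1 (maximalIdeal.isMaximal _).ne_top h6
  obtain ⟨u, hu'⟩ := hunit.exists_right_inv
  exact ⟨ρ, u, hρ2, hu'⟩

end Target

/-! ### The test point -/

section TestPoint

variable {𝒪 : Type} [CommRing 𝒪] {k g : ℕ}

/-- The images of the variables under the test point. -/
noncomputable def imgT (δ : Fin k → 𝒪) (u : Fin k → D0 𝒪 k g) :
    Fin (6 * k + g) → D0 𝒪 k g :=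
  Fermat.Agent.L.Pivot.H76.mk6 k g (fun j t =>
    if t = 0 then C (δ j) * u j * tA 𝒪 g j
    else if t = 1 then C (δ j) * u j * tB 𝒪 g j
    else if t = 2 then C (δ j) * u j
    else if t = 3 then tM 𝒪 g j * tA 𝒪 g j
    else if t = 4 then tM 𝒪 g j * tB 𝒪 g j
    else tM 𝒪 g j) (fun a => tX 𝒪 k g a)

theorem imgT_0 (δ : Fin k → 𝒪) (u : Fin k → D0 𝒪 k g) (j : Fin k) :
    imgT δ u (cIdx k g j 0) = C (δ j) * u j * tA 𝒪 g j := by
  simp [imgT]
theorem imgT_1 (δ : Fin k → 𝒪) (u : Fin k → D0 𝒪 k g) (j : Fin k) :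
    imgT δ u (cIdx k g j 1) = C (δ j) * u j * tB 𝒪 g j := by
  simp [imgT]
theorem imgT_2 (δ : Fin k → 𝒪) (u : Fin k → D0 𝒪 k g) (j : Fin k) :
    imgT δ u (cIdx k g j 2) = C (δ j) * u j := by
  simp [imgT]
theorem imgT_3 (δ : Fin k → 𝒪) (u : Fin k → D0 𝒪 k g) (j : Fin k) :
    imgT δ u (cIdx k g j 3) = tM 𝒪 g j * tA 𝒪 g j := by
  simp [imgT]
theorem imgT_4 (δ : Fin k → 𝒪) (u : Fin k → D0 𝒪 k g) (j : Fin k) :
    imgT δ u (cIdx k g j 4) = tM 𝒪 g j * tB 𝒪 g j := by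
  simp [imgT]
theorem imgT_5 (δ : Fin k → 𝒪) (u : Fin k → D0 𝒪 k g) (j : Fin k) :
    imgT δ u (cIdx k g j 5) = tM 𝒪 g j := by
  simp [imgT]
theorem imgT_x (δ : Fin k → 𝒪) (u : Fin k → D0 𝒪 k g) (a : Fin g) :
    imgT δ u (xIdx k g a) = tX 𝒪 k g a := by
  simp [imgT]

theorem imgT_mem [IsLocalRing 𝒪] (δ : Fin k → 𝒪) (hδm : ∀ j, δ j ∈ maximalIdeal 𝒪)
    (u : Fin k → D0 𝒪 k g) (i : Fin (6 * k + g)) :
    imgT δ u i ∈ maximalIdeal (D0 𝒪 k g) := by
  rw [mem_maximalIdeal_D0]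
  rcases Fermat.Agent.L.Pivot.H76.idx_cases i with ⟨j, t, rfl⟩ | ⟨a, rfl⟩
  · rcases Fermat.Agent.L.Pivot.H76.fin6_cases t with rfl | rfl | rfl | rfl | rfl | rfl
    · rw [imgT_0]; simp [tA]
    · rw [imgT_1]; simp [tB]
    · rw [imgT_2, map_mul, constantCoeff_C]
      exact Ideal.mul_mem_right _ _ (hδm j)
    · rw [imgT_3]; simp [tA]
    · rw [imgT_4]; simp [tB]
    · rw [imgT_5]; simp [tM]
  · rw [imgT_x]; simp [tX]

variable [IsDomain 𝒪] [IsLocalRing 𝒪] [IsNoetherianRing 𝒪] [IsAdicComplete (maximalIdeal 𝒪) 𝒪]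

/-- The test point exists and kills `typeIdeal`. -/
theorem exists_testPoint (hkill : Stmt_TypeKill) (hu : IsUnit (2 : 𝒪)) (δ : Fin k → 𝒪)
    (hδ0 : ∀ j, δ j ≠ 0) (hδm : ∀ j, δ j ∈ maximalIdeal 𝒪) :
    ∃ (u : Fin k → D0 𝒪 k g) (θ : PRing 𝒪 k g →ₐ[𝒪] D0 𝒪 k g),
      (∀ i, θ (X i) = imgT δ u i) ∧ typeIdeal g δ ≤ RingHom.ker (θ : PRing 𝒪 k g →+* D0 𝒪 k g) := by
  haveI := isAdicComplete_D0 𝒪 k g
  choose ρ u hρ hρu using fun j => exists_sqrt (𝒪 := 𝒪) (g := g) hu j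
  obtain ⟨θ, hθ⟩ := Fermat.Agent.S56.H50.exists_eval (𝒪 := 𝒪) (R := D0 𝒪 k g) (6 * k + g)
    (imgT δ u) (imgT_mem δ hδm u)
  refine ⟨u, θ, hθ, ?_⟩
  haveI : IsDomain (D0 𝒪 k g) := NoZeroDivisors.to_isDomain _
  refine hkill 𝒪 k g δ hδ0 (D0 𝒪 k g) θ ?_ ?_ ?_
  · exact MvPowerSeries.C_injective
  · intro i
    rw [hθ]
    exact imgT_mem δ hδm u i
  · intro j
    have hC : algebraMap 𝒪 (D0 𝒪 k g) (δ j ^ 2) = C (δ j) ^ 2 := by
      rw [← map_pow]; rfl
    have h4 : θ (4 : PRing 𝒪 k g) = 4 := map_ofNat _ 4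
    refine ⟨?_, ?_, ?_, ?_⟩
    · rw [hC]
      simp only [Q1, cy, cz, cm, map_add, map_mul, map_pow, h4, hθ, imgT_0, imgT_1, imgT_2]
      linear_combination (C (δ j) ^ 2 * (ρ j * u j + 1)) * hρu j -
        (C (δ j) ^ 2 * u j ^ 2) * hρ j
    · simp only [minor1, cy, cz, cv, cw, map_sub, map_mul, hθ, imgT_0, imgT_1, imgT_3, imgT_4]
      ring
    · simp only [minor2, cy, cm, cv, cs, map_sub, map_mul, hθ, imgT_0, imgT_2, imgT_3, imgT_5]
      ring
    · simp only [minor3, cz, cm, cw, cs, map_sub, map_mul, hθ, imgT_1, imgT_2, imgT_4, imgT_5]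
      ring

end TestPoint

/-! ### The monomial substitution `v ↦ μ a, w ↦ μ b, s ↦ μ` -/

section Mono

variable (𝒪 : Type) [CommRing 𝒪] (k g : ℕ)

/-- The images of the variables under the monomial substitution. -/
noncomputable def img0 : Fin (6 * k + g) → D0 𝒪 k g :=
  Fermat.Agent.L.Pivot.H76.mk6 k g (fun j t =>
    if t = 3 then tM 𝒪 g j * tA 𝒪 g j
    else if t = 4 then tM 𝒪 g j * tB 𝒪 g j
    else if t = 5 then tM 𝒪 g j
    else 0) (fun a => tX 𝒪 k g a)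

variable {𝒪 k g}

theorem img0_sigma (j : Fin k) (t : Fin 6) (ht : t.1 < 3) : img0 𝒪 k g (cIdx k g j t) = 0 := by
  rcases Fermat.Agent.L.Pivot.H76.fin6_cases t with rfl | rfl | rfl | rfl | rfl | rfl <;>
    simp [img0] at ht ⊢
theorem img0_3 (j : Fin k) : img0 𝒪 k g (cIdx k g j 3) = tM 𝒪 g j * tA 𝒪 g j := by
  simp [img0]
theorem img0_4 (j : Fin k) : img0 𝒪 k g (cIdx k g j 4) = tM 𝒪 g j * tB 𝒪 g j := by
  simp [img0]
theorem img0_5 (j : Fin k) : img0 𝒪 k g (cIdx k g j 5) = tM 𝒪 g j := by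
  simp [img0]
theorem img0_x (a : Fin g) : img0 𝒪 k g (xIdx k g a) = tX 𝒪 k g a := by
  simp [img0]

theorem cIdx_eq_iff (j j' : Fin k) (t t' : Fin 6) :
    cIdx k g j t = cIdx k g j' t' ↔ j = j' ∧ t = t' := by
  constructor
  · intro h
    have := cIdx_injective k g (a₁ := (j, t)) (a₂ := (j', t')) h
    exact ⟨(Prod.mk.inj this).1, (Prod.mk.inj this).2⟩
  · rintro ⟨rfl, rfl⟩
    rfl

theorem cIdx_ne_xIdx (j : Fin k) (t : Fin 6) (a : Fin g) : cIdx k g j t ≠ xIdx k g a := by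
  intro h
  have h1 := congrArg Fin.val h
  simp only [cIdx, xIdx] at h1
  have := j.2
  have := t.2
  omega

theorem xIdx_eq_iff (a a' : Fin g) : xIdx k g a = xIdx k g a' ↔ a = a' := by
  constructor
  · intro h
    have h1 := congrArg Fin.val h
    simp only [xIdx] at h1
    exact Fin.ext (by omega)
  · rintro rfl
    rfl

theorem mem_sigmaIdx_cIdx (j : Fin k) (t : Fin 6) : cIdx k g j t ∈ sigmaIdx k g ↔ t.1 < 3 := by
  constructor
  · intro h
    by_contra hlt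
    exact cIdx_notMem_sigmaIdx k g j t (by omega) h
  · intro h
    rw [mem_sigmaIdx]
    exact ⟨(j, ⟨t.1, h⟩), rfl⟩

theorem xIdx_notMem_sigmaIdx (a : Fin g) : xIdx k g a ∉ sigmaIdx k g := by
  rw [mem_sigmaIdx]
  rintro ⟨⟨j, t⟩, h⟩
  exact cIdx_ne_xIdx _ _ _ h

/-- The exponent of the image of a monomial. -/
noncomputable def LM (d : Fin (6 * k + g) →₀ ℕ) : TV k g →₀ ℕ :=
  Finsupp.equivFunOnFinite.symm (fun t => match t with
    | Sum.inl j => d (cIdx k g j 3)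
    | Sum.inr (Sum.inl j) => d (cIdx k g j 4)
    | Sum.inr (Sum.inr (Sum.inl j)) => d (cIdx k g j 3) + d (cIdx k g j 4) + d (cIdx k g j 5)
    | Sum.inr (Sum.inr (Sum.inr a)) => d (xIdx k g a))

@[simp] theorem LM_a (d : Fin (6 * k + g) →₀ ℕ) (j : Fin k) :
    LM d (Sum.inl j) = d (cIdx k g j 3) := rfl
@[simp] theorem LM_b (d : Fin (6 * k + g) →₀ ℕ) (j : Fin k) :
    LM d (Sum.inr (Sum.inl j)) = d (cIdx k g j 4) := rfl
@[simp] theorem LM_m (d : Fin (6 * k + g) →₀ ℕ) (j : Fin k) :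
    LM d (Sum.inr (Sum.inr (Sum.inl j))) =
      d (cIdx k g j 3) + d (cIdx k g j 4) + d (cIdx k g j 5) := rfl
@[simp] theorem LM_x (d : Fin (6 * k + g) →₀ ℕ) (a : Fin g) :
    LM d (Sum.inr (Sum.inr (Sum.inr a))) = d (xIdx k g a) := rfl

theorem LM_zero : LM (0 : Fin (6 * k + g) →₀ ℕ) = 0 := by
  ext t
  rcases t with j | j | j | a <;> simp

theorem LM_add (d d' : Fin (6 * k + g) →₀ ℕ) : LM (d + d') = LM d + LM d' := by
  ext t
  rcases t with j | j | j | a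
  · simp
  · simp
  · simp; ring
  · simp

/-- `d` does not involve the variables `y_j, z_j, m_j`. -/
def Avoid (d : Fin (6 * k + g) →₀ ℕ) : Prop :=
  ∀ s ∈ (sigmaIdx k g : Set (Fin (6 * k + g))), d s = 0

theorem LM_injOn {d ν : Fin (6 * k + g) →₀ ℕ} (hd : Avoid d) (hν : Avoid ν)
    (h : LM d = LM ν) : d = ν := by
  ext s
  rcases Fermat.Agent.L.Pivot.H76.idx_cases s with ⟨j, t, rfl⟩ | ⟨a, rfl⟩
  · have ha := DFunLike.congr_fun h (Sum.inl j)
    have hb := DFunLike.congr_fun h (Sum.inr (Sum.inl j))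
    have hm := DFunLike.congr_fun h (Sum.inr (Sum.inr (Sum.inl j)))
    simp only [LM_a, LM_b, LM_m] at ha hb hm
    by_cases ht : t.1 < 3
    · rw [hd _ ((mem_sigmaIdx_cIdx j t).2 ht), hν _ ((mem_sigmaIdx_cIdx j t).2 ht)]
    · rcases Fermat.Agent.L.Pivot.H76.fin6_cases t with rfl | rfl | rfl | rfl | rfl | rfl
      · exact absurd (by decide) ht
      · exact absurd (by decide) ht
      · exact absurd (by decide) ht
      · exact ha
      · exact hb
      · omega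
  · have hx := DFunLike.congr_fun h (Sum.inr (Sum.inr (Sum.inr a)))
    simpa using hx

theorem prod_img0_of_avoid (d : Fin (6 * k + g) →₀ ℕ) (hd : Avoid d) :
    (d.prod fun s n => img0 𝒪 k g s ^ n) = monomial (LM d) 1 := by
  classical
  induction d using Finsupp.induction_linear with
  | zero =>
    rw [Finsupp.prod_zero_index, LM_zero]
    rfl
  | add d d' h h' =>
    have hd1 : Avoid d := fun s hs => by
      have := hd s hs
      rw [Finsupp.add_apply] at this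
      omega
    have hd2 : Avoid d' := fun s hs => by
      have := hd s hs
      rw [Finsupp.add_apply] at this
      omega
    rw [Finsupp.prod_add_index' (fun _ => pow_zero _) (fun _ _ _ => pow_add _ _ _), h hd1, h' hd2,
      monomial_mul_monomial, LM_add, mul_one]
  | single s n =>
    rw [Finsupp.prod_single_index (h := fun s n => img0 𝒪 k g s ^ n) (pow_zero _)]
    by_cases hn : n = 0
    · subst hn
      rw [pow_zero, Finsupp.single_zero, LM_zero]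
      rfl
    have hs : s ∉ sigmaIdx k g := by
      intro hs
      have := hd s hs
      rw [Finsupp.single_eq_same] at this
      exact hn this
    rcases Fermat.Agent.L.Pivot.H76.idx_cases s with ⟨j, t, rfl⟩ | ⟨a, rfl⟩
    · have ht : ¬ t.1 < 3 := fun ht => hs ((mem_sigmaIdx_cIdx j t).2 ht)
      rcases Fermat.Agent.L.Pivot.H76.fin6_cases t with rfl | rfl | rfl | rfl | rfl | rfl
      · exact absurd (by decide) ht
      · exact absurd (by decide) ht
      · exact absurd (by decide) ht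
      · have hL : LM (Finsupp.single (cIdx k g j 3) n) =
            Finsupp.single (Sum.inr (Sum.inr (Sum.inl j))) n + Finsupp.single (Sum.inl j) n := by
          ext t
          rcases t with j' | j' | j' | a <;>
            simp [Finsupp.single_apply, cIdx_eq_iff, cIdx_ne_xIdx]
        rw [img0_3, hL, ← mul_one (1 : 𝒪), ← monomial_mul_monomial, ← X_pow_eq, ← X_pow_eq,
          mul_pow]
        rfl
      · have hL : LM (Finsupp.single (cIdx k g j 4) n) =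
            Finsupp.single (Sum.inr (Sum.inr (Sum.inl j))) n +
              Finsupp.single (Sum.inr (Sum.inl j)) n := by
          ext t
          rcases t with j' | j' | j' | a <;>
            simp [Finsupp.single_apply, cIdx_eq_iff, cIdx_ne_xIdx]
        rw [img0_4, hL, ← mul_one (1 : 𝒪), ← monomial_mul_monomial, ← X_pow_eq, ← X_pow_eq,
          mul_pow]
        rfl
      · have hL : LM (Finsupp.single (cIdx k g j 5) n) =
            Finsupp.single (Sum.inr (Sum.inr (Sum.inl j))) n := by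
          ext t
          rcases t with j' | j' | j' | a <;>
            simp [Finsupp.single_apply, cIdx_eq_iff, cIdx_ne_xIdx]
        rw [img0_5, hL, ← X_pow_eq]
        rfl
    · have hL : LM (Finsupp.single (xIdx k g a) n) =
          Finsupp.single (Sum.inr (Sum.inr (Sum.inr a))) n := by
        ext t
        rcases t with j' | j' | j' | a' <;>
          simp [Finsupp.single_apply, xIdx_eq_iff, (cIdx_ne_xIdx _ _ _).symm]
      rw [img0_x, hL, ← X_pow_eq]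
      rfl

theorem prod_img0_of_not_avoid (d : Fin (6 * k + g) →₀ ℕ) (hd : ¬ Avoid d) :
    (d.prod fun s n => img0 𝒪 k g s ^ n) = 0 := by
  rw [Avoid] at hd
  push Not at hd
  obtain ⟨s, hs, hds⟩ := hd
  rw [Finsupp.prod]
  apply Finset.prod_eq_zero (i := s) (Finsupp.mem_support_iff.2 hds)
  obtain ⟨⟨j, t⟩, rfl⟩ := (mem_sigmaIdx k g).1 hs
  rw [img0_sigma j _ (by simp), zero_pow hds]

theorem constantCoeff_img0 (s : Fin (6 * k + g)) : constantCoeff (img0 𝒪 k g s) = 0 := by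
  rcases Fermat.Agent.L.Pivot.H76.idx_cases s with ⟨j, t, rfl⟩ | ⟨a, rfl⟩
  · rcases Fermat.Agent.L.Pivot.H76.fin6_cases t with rfl | rfl | rfl | rfl | rfl | rfl
    · rw [img0_sigma j _ (by decide), map_zero]
    · rw [img0_sigma j _ (by decide), map_zero]
    · rw [img0_sigma j _ (by decide), map_zero]
    · rw [img0_3]; simp [tA]
    · rw [img0_4]; simp [tB]
    · rw [img0_5]; simp [tM]
  · rw [img0_x]; simp [tX]

theorem hasSubst_img0 : HasSubst (img0 𝒪 k g) :=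
  hasSubst_of_constantCoeff_zero constantCoeff_img0

/-- The coefficients of `f` at the monomials avoiding `y, z, m` are coefficients of the image of
`f` under the monomial substitution. -/
theorem coeff_subst_img0 (f : PRing 𝒪 k g) (ν : Fin (6 * k + g) →₀ ℕ) (hν : Avoid ν) :
    coeff (LM ν) (subst (img0 𝒪 k g) f) = coeff ν f := by
  rw [coeff_subst hasSubst_img0, finsum_eq_single _ ν]
  · rw [prod_img0_of_avoid ν hν, coeff_monomial_same, smul_eq_mul, mul_one]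
  · intro d hd
    by_cases hav : Avoid d
    · rw [prod_img0_of_avoid d hav, coeff_monomial, if_neg, smul_zero]
      intro h
      exact hd (LM_injOn hav hν h.symm)
    · rw [prod_img0_of_not_avoid d hav, map_zero, smul_zero]

end Mono

/-! ### The leaf `Stmt_TypeLeQ` -/

section Leaf

variable {𝒪 : Type} [CommRing 𝒪] [IsDomain 𝒪] [IsLocalRing 𝒪] [IsNoetherianRing 𝒪]
  [IsAdicComplete (maximalIdeal 𝒪) 𝒪] {k g : ℕ}

theorem imgT_sub_img0_mem (ϖ : 𝒪) (hϖ : maximalIdeal 𝒪 = Ideal.span {ϖ}) (δ : Fin k → 𝒪)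
    (hδm : ∀ j, δ j ∈ maximalIdeal 𝒪) (u : Fin k → D0 𝒪 k g) (i : Fin (6 * k + g)) :
    imgT δ u i - img0 𝒪 k g i ∈ Ideal.span {(C ϖ : D0 𝒪 k g)} := by
  have hC : ∀ j, (C (δ j) : D0 𝒪 k g) ∈ Ideal.span {(C ϖ : D0 𝒪 k g)} := by
    intro j
    have := hδm j
    rw [hϖ, Ideal.mem_span_singleton'] at this
    obtain ⟨a, ha⟩ := this
    rw [← ha, map_mul]
    exact Ideal.mul_mem_left _ _ (Ideal.subset_span rfl)
  rcases Fermat.Agent.L.Pivot.H76.idx_cases i with ⟨j, t, rfl⟩ | ⟨a, rfl⟩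
  · rcases Fermat.Agent.L.Pivot.H76.fin6_cases t with rfl | rfl | rfl | rfl | rfl | rfl
    · rw [imgT_0, img0_sigma j _ (by decide), sub_zero, mul_assoc]
      exact Ideal.mul_mem_right _ _ (hC j)
    · rw [imgT_1, img0_sigma j _ (by decide), sub_zero, mul_assoc]
      exact Ideal.mul_mem_right _ _ (hC j)
    · rw [imgT_2, img0_sigma j _ (by decide), sub_zero]
      exact Ideal.mul_mem_right _ _ (hC j)
    · rw [imgT_3, img0_3, sub_self]; exact Ideal.zero_mem _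
    · rw [imgT_4, img0_4, sub_self]; exact Ideal.zero_mem _
    · rw [imgT_5, img0_5, sub_self]; exact Ideal.zero_mem _
  · rw [imgT_x, img0_x, sub_self]; exact Ideal.zero_mem _

theorem img0_mem (i : Fin (6 * k + g)) : img0 𝒪 k g i ∈ maximalIdeal (D0 𝒪 k g) := by
  rw [mem_maximalIdeal_D0, constantCoeff_img0]
  exact Ideal.zero_mem _

/-- `typeIdeal ≤ idealQ`, from TYPE-KILL. -/
theorem typeIdeal_le_idealQ (hkill : Stmt_TypeKill) (hu : IsUnit (2 : 𝒪)) (ϖ : 𝒪)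
    (hϖ : maximalIdeal 𝒪 = Ideal.span {ϖ}) (δ : Fin k → 𝒪)
    (hδ0 : ∀ j, δ j ≠ 0) (hδm : ∀ j, δ j ∈ maximalIdeal 𝒪) :
    typeIdeal g δ ≤ idealQ k g ϖ := by
  haveI := isAdicComplete_D0 𝒪 k g
  obtain ⟨u, θ, hθ, hker⟩ := exists_testPoint (g := g) hkill hu δ hδ0 hδm
  -- the quotient `E = D₀ / (ϖ)`
  have hϖm : (C ϖ : D0 𝒪 k g) ∈ maximalIdeal (D0 𝒪 k g) := by
    rw [mem_maximalIdeal_D0, constantCoeff_C, hϖ]
    exact Ideal.subset_span rfl
  have hne : Ideal.span {(C ϖ : D0 𝒪 k g)} ≠ ⊤ := by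
    intro h
    rw [Ideal.span_singleton_eq_top] at h
    exact hϖm h
  letI : IsLocalRing (D0 𝒪 k g ⧸ Ideal.span {(C ϖ : D0 𝒪 k g)}) := isLocalRing_quotient _ hne
  haveI : IsAdicComplete (maximalIdeal (D0 𝒪 k g ⧸ Ideal.span {(C ϖ : D0 𝒪 k g)}))
      (D0 𝒪 k g ⧸ Ideal.span {(C ϖ : D0 𝒪 k g)}) := isAdicComplete_quotient _ hne
  let mk := Ideal.Quotient.mkₐ 𝒪 (Ideal.span {(C ϖ : D0 𝒪 k g)})
  have hcomp : mk.comp θ = mk.comp (substAlgHom (R := 𝒪) (hasSubst_img0 (𝒪 := 𝒪) (k := k) (g := g))) := by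
    refine algHom_ext_of_X' (maximalIdeal (D0 𝒪 k g ⧸ Ideal.span {(C ϖ : D0 𝒪 k g)})) _ _ ?_ ?_
    · intro i
      rw [AlgHom.comp_apply, AlgHom.comp_apply, hθ, substAlgHom_X]
      exact (Ideal.Quotient.mk_eq_mk_iff_sub_mem _ _).2 (imgT_sub_img0_mem ϖ hϖ δ hδm u i)
    · intro i
      rw [AlgHom.comp_apply, substAlgHom_X]
      exact mk_mem_maximalIdeal _ hne (img0_mem i)
  intro f hf
  have h1 : θ f = 0 := hker hf
  have h2 : mk (substAlgHom (R := 𝒪) (hasSubst_img0 (𝒪 := 𝒪) (k := k) (g := g)) f) = 0 := by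
    have := congrArg (fun φ : PRing 𝒪 k g →ₐ[𝒪] _ => φ f) hcomp
    simp only [AlgHom.comp_apply] at this
    rw [← this, h1, map_zero]
  have h3 : subst (img0 𝒪 k g) f ∈ Ideal.span {(C ϖ : D0 𝒪 k g)} := by
    rw [substAlgHom_apply] at h2
    exact Ideal.Quotient.eq_zero_iff_mem.1 h2
  obtain ⟨h, hh⟩ := Ideal.mem_span_singleton'.1 h3
  rw [idealQ_eq, mem_coeffIdeal]
  intro ν hν
  rw [← coeff_subst_img0 f ν hν, ← hh, coeff_mul_C]
  exact Ideal.mul_mem_left _ _ (Ideal.subset_span rfl)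

/-- **TYPE-LEQ** from TYPE-KILL. -/
theorem stmt_TypeLeQ_of_kill (hkill : Stmt_TypeKill) : Stmt_TypeLeQ := by
  intro 𝒪 _ _ _ _ k g ϖ δ hu hϖ hδ0 hδm
  exact typeIdeal_le_idealQ hkill hu ϖ hϖ δ hδ0 hδm

/-- **TYPE-LEQ**. -/
theorem stmt_TypeLeQ : Stmt_TypeLeQ :=
  stmt_TypeLeQ_of_kill Fermat.Agent.L.Pivot.H76.stmt_TypeKill

end Leaf

end Fermat.Agent.L.Pivot.H52

end
-- ==== END Fermat.Agent.L.Pivot.H52_TypeLeQ

-- ==== BEGIN Fermat.Agent.L.Pivot.H59_TameGlobal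
section

/-!
# PIVOT, package PV-TAME (helper59): bridge to the global interfaces of `L/Pivot/Global.lean`

* `exists_pivotPrimes` : every injective family of primes carries a `PivotPrimes` structure
  (places, Frobenius lifts, uniform tame generators).
* `det_eq_one_of_mem_inertia`, `det_frob_eq` : cyclotomic determinant at a prime `q ≠ p`.
* `pivot_matrices` : the matrices `Σ_j = ρ(τ_j)`, `Φ_j = ρ(frob_j)` of a deformation satisfy the
  hypotheses of `tame_types`.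
* `types_of_point` : every point `x : R → D` of a ring `R` carrying a deformation `ρ` with a
  coordinate homomorphism `γ : P → R` has a type: exponents `i_j`; if all `i_j ≠ 0` then `x ∘ γ`
  is a point of type `δ`, if all `i_j = 0` then `x ∘ γ` kills `idealUnip`.
-/

set_option autoImplicit false
set_option linter.style.haveILetI false

namespace Fermat.Agent.L.Pivot.H59

open IsLocalRing Matrix Fermat.Agent.S59.TWGal

/-! ### `PivotPrimes` exist -/

theorem PivotPrimes.tameAt {k : ℕ} (Pv : PivotPrimes k) (j : Fin k)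
    (F : IntermediateField ℚ (AlgebraicClosure ℚ)) (hF : FiniteDimensional ℚ F) :
    TameAt (Pv.P j) (Pv.frob j) (Pv.q j) F (Pv.τ j) := by
  refine ⟨fun σ hσ => ?_, ?_⟩
  · obtain ⟨i, e, h⟩ := (Pv.τ_gen j).2 F hF σ hσ
    exact ⟨i, e, (IntermediateField.mem_fixingSubgroup_iff F _).2 h⟩
  · obtain ⟨e, h⟩ := Pv.τ_frob j F hF
    exact ⟨e, (IntermediateField.mem_fixingSubgroup_iff F _).2 h⟩

/-- Every injective family of primes carries a `PivotPrimes` structure. -/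
theorem exists_pivotPrimes (k : ℕ) (q : Fin k → ℕ) (hinj : Function.Injective q)
    (hq : ∀ j, (q j).Prime) : ∃ Pv : PivotPrimes k, Pv.q = q := by
  classical
  have h1 : ∀ j, ∃ (A : ValuationSubring (AlgebraicClosure ℚ))
      (σ : AlgebraicClosure ℚ ≃ₐ[ℚ] AlgebraicClosure ℚ),
      A.LiesOverPrime (q j) ∧ A.IsFrobeniusAt σ (q j) :=
    fun j => Fermat.Agent.Lib.FrobExists.exists_place_and_frobenius (q j) (hq j)
  choose P frob hP hfrob using h1
  have h2 : ∀ j, ∃ τ₀ ∈ (P j).inertiaSubgroupIn ℚ,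
      ∀ F : IntermediateField ℚ Qb, FiniteDimensional ℚ F → TameAt (P j) (frob j) (q j) F τ₀ :=
    fun j => exists_uniform_tame_generator (q j) (hq j) (P j) (hP j) (frob j) (hfrob j)
  choose τ hτ hτF using h2
  refine ⟨{ q := q, q_inj := hinj, q_prime := hq, P := P, P_over := hP, frob := frob,
            frob_spec := hfrob, τ := τ, τ_gen := fun j => ⟨hτ j, fun F hF σ hσ => ?_⟩,
            τ_frob := fun j F hF => ?_ }, rfl⟩
  · obtain ⟨i, e, h⟩ := (hτF j F hF).1 σ hσ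
    exact ⟨i, e, (IntermediateField.mem_fixingSubgroup_iff F _).1 h⟩
  · obtain ⟨e, h⟩ := (hτF j F hF).2
    exact ⟨e, (IntermediateField.mem_fixingSubgroup_iff F _).1 h⟩

/-! ### The determinant at `q ≠ p` -/

section det

variable {A : Type} [CommRing A] [IsLocalRing A] [IsNoetherianRing A]

/-- Krull: an element divisible by all powers of `p ∈ 𝔪` vanishes. -/
theorem eq_zero_of_forall_mem_span_pow (p : ℕ) (hpA : (p : A) ∈ maximalIdeal A) (x : A)
    (h : ∀ n : ℕ, x ∈ Ideal.span {((p ^ n : ℕ) : A)}) : x = 0 := by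
  have hk := Ideal.iInf_pow_eq_bot_of_isLocalRing (maximalIdeal A)
    (maximalIdeal.isMaximal A).ne_top
  have hmem : x ∈ ⨅ i : ℕ, maximalIdeal A ^ i := by
    rw [Ideal.mem_iInf]
    intro n
    obtain ⟨c, hc⟩ := Ideal.mem_span_singleton.1 (h n)
    rw [hc, Nat.cast_pow]
    exact Ideal.mul_mem_right _ _ (Ideal.pow_mem_pow hpA n)
  rw [hk] at hmem
  exact (Submodule.mem_bot A).1 hmem

/-- Cyclotomic determinant: inertia at `q ≠ p` has determinant `1`. -/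
theorem det_eq_one_of_mem_inertia (p : ℕ) (hp : p.Prime) (ρ : GaloisRepAdic A)
    (hdet : ρ.DetIsCyclotomic p) (q : ℕ) (hq : q.Prime) (hqp : q ≠ p)
    (P : ValuationSubring (AlgebraicClosure ℚ)) (hP : P.LiesOverPrime q)
    (σ : AlgebraicClosure ℚ ≃ₐ[ℚ] AlgebraicClosure ℚ) (hσ : σ ∈ P.inertiaSubgroupIn ℚ) :
    LinearMap.det (ρ.ρ σ) = 1 := by
  rw [← sub_eq_zero]
  refine eq_zero_of_forall_mem_span_pow p hdet.1 _ fun n => ?_
  have h := hdet.2 n σ 1 (fun μ hμ => by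
    rw [pow_one]
    exact Fermat.Agent.R.H89.inertia_fixes_rootsOfUnity q P hP σ hσ (p ^ n)
      (Nat.Coprime.pow_left n ((Nat.coprime_primes hp hq).2 (Ne.symm hqp))) μ hμ)
  rwa [Nat.cast_one] at h

/-- Cyclotomic determinant: a Frobenius at `q ≠ p` has determinant `q`. -/
theorem det_frob_eq (p : ℕ) (hp : p.Prime) (ρ : GaloisRepAdic A)
    (hdet : ρ.DetIsCyclotomic p) (q : ℕ) (hq : q.Prime) (hqp : q ≠ p)
    (P : ValuationSubring (AlgebraicClosure ℚ)) (hP : P.LiesOverPrime q)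
    (σ : AlgebraicClosure ℚ ≃ₐ[ℚ] AlgebraicClosure ℚ) (hσ : P.IsFrobeniusAt σ q) :
    LinearMap.det (ρ.ρ σ) = (q : A) := by
  rw [← sub_eq_zero]
  refine eq_zero_of_forall_mem_span_pow p hdet.1 _ fun n => ?_
  exact hdet.2 n σ q (fun μ hμ =>
    Fermat.Agent.R.H89.stmt_FrobCyc q hq P hP σ hσ (p ^ n)
      (Nat.Coprime.pow_left n ((Nat.coprime_primes hp hq).2 (Ne.symm hqp))) μ hμ)

end det

/-! ### The matrices of a deformation at the pivot primes -/

section matrices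

variable {R : Type} [CommRing R] [IsLocalRing R] [IsNoetherianRing R]

/-- The matrices `Σ = ρ(τ_j)`, `Φ = ρ(frob_j)`, `Φ' = ρ(frob_j⁻¹)` of a deformation `ρ` (with
cyclotomic determinant, residually unramified at `q_j`) in a basis `b`. -/
theorem pivot_matrices (p : ℕ) (hp : p.Prime) (ρ : GaloisRepAdic R)
    (hdet : ρ.DetIsCyclotomic p) {k : ℕ} (Pv : PivotPrimes k) (j : Fin k)
    (hqp : Pv.q j ≠ p)
    (hI : ∀ σ ∈ (Pv.P j).inertiaSubgroupIn ℚ, ∀ v : ρ.V,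
      ρ.ρ σ v - v ∈ maximalIdeal R • (⊤ : Submodule R ρ.V))
    (b : Module.Basis (Fin 2) R ρ.V) :
    (LinearMap.toMatrix b b (ρ.ρ (Pv.τ j))).det = 1 ∧
    (LinearMap.toMatrix b b (ρ.ρ (Pv.frob j))).det = (Pv.q j : R) ∧
    (∀ a c, (LinearMap.toMatrix b b (ρ.ρ (Pv.τ j)) - 1) a c ∈ maximalIdeal R) ∧
    LinearMap.toMatrix b b (ρ.ρ (Pv.frob j)) * LinearMap.toMatrix b b (ρ.ρ (Pv.frob j)⁻¹) = 1 ∧
    LinearMap.toMatrix b b (ρ.ρ (Pv.frob j)) * LinearMap.toMatrix b b (ρ.ρ (Pv.τ j)) =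
      LinearMap.toMatrix b b (ρ.ρ (Pv.τ j)) ^ Pv.q j * LinearMap.toMatrix b b (ρ.ρ (Pv.frob j)) ∧
    ∀ J : Ideal R, (∀ a c, (LinearMap.toMatrix b b (ρ.ρ (Pv.τ j)) - 1) a c ∈ J) →
      ∀ σ ∈ (Pv.P j).inertiaSubgroupIn ℚ, ∀ a c,
        (LinearMap.toMatrix b b (ρ.ρ σ) - 1) a c ∈ J := by
  have hτ := (Pv.τ_gen j).1
  have hfrobD : Pv.frob j ∈ (Pv.P j).decompositionSubgroup ℚ :=
    (Pv.frob_spec j).mem_decompositionSubgroup
  have hadic := tame_adic R p hp hdet.1 ρ (Pv.q j) (Pv.q_prime j) hqp (Pv.P j) hI (Pv.frob j)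
    hfrobD (Pv.τ j) hτ (fun F hF => PivotPrimes.tameAt Pv j F hF)
  have hmat : ∀ f : Module.End R ρ.V, LinearMap.toMatrix b b f = mat b f := fun _ => rfl
  refine ⟨?_, ?_, ?_, ?_, ?_, ?_⟩
  · rw [LinearMap.det_toMatrix]
    exact det_eq_one_of_mem_inertia p hp ρ hdet (Pv.q j) (Pv.q_prime j) hqp (Pv.P j)
      (Pv.P_over j) _ hτ
  · rw [LinearMap.det_toMatrix]
    exact det_frob_eq p hp ρ hdet (Pv.q j) (Pv.q_prime j) hqp (Pv.P j) (Pv.P_over j) _
      (Pv.frob_spec j)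
  · intro a c
    rw [hmat]
    exact mat_sub_one_mem b _ _ (hI _ hτ) a c
  · rw [← LinearMap.toMatrix_mul, ← map_mul, mul_inv_cancel, map_one, LinearMap.toMatrix_one]
  · have h1 := congrArg (fun f : Module.End R ρ.V => mat b f) hadic.1
    simp only [map_mul, map_pow] at h1
    exact h1
  · intro J hJ σ hσ a c
    rw [hmat]
    refine mat_sub_one_mem b J _ (hadic.2 J ?_ σ hσ) a c
    intro v
    refine sub_mem_smul_top_of_mat b J _ ?_ v
    intro a c
    rw [← hmat]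
    exact hJ a c

end matrices

/-! ### The type of a point -/

/-- `IsCoordHom` in terms of `IsCoordOf` (sign `ε = 1`), after a homomorphism `x`. -/
theorem isCoordOf_of_isCoordHom {𝒪 : Type} [CommRing 𝒪] {k g : ℕ} {R : Type} [CommRing R]
    [Algebra 𝒪 R] {D : Type} [CommRing D] [Algebra 𝒪 D] (γ : PRing 𝒪 k g →ₐ[𝒪] R)
    (Mσ Mφ : Fin k → Matrix (Fin 2) (Fin 2) R) (hγ : IsCoordHom γ Mσ Mφ) (x : R →ₐ[𝒪] D)
    (j : Fin k) :
    IsCoordOf (x.comp γ) j 1 ((x : R →+* D).mapMatrix (Mσ j))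
      ((x : R →+* D).mapMatrix (Mφ j)) := by
  obtain ⟨h1, h2, h3, h4, h5, h6⟩ := hγ j
  refine ⟨?_, ?_, ?_, ?_, ?_, ?_⟩
  · rw [AlgHom.comp_apply, h1]; rfl
  · rw [AlgHom.comp_apply, h2]; rfl
  · rw [AlgHom.comp_apply, h3, map_sub]; rfl
  · rw [AlgHom.comp_apply, h4, one_mul]; rfl
  · rw [AlgHom.comp_apply, h5, one_mul]; rfl
  · rw [AlgHom.comp_apply, h6, one_mul, map_sub]; rfl

/-- **PV-TAME, global form.**  `R` a noetherian local `𝒪`-algebra carrying a deformation `ρ` with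
cyclotomic determinant, residually unramified at the pivot primes `q_j = 1 + p ^ n_j m'_j`;
`γ : P → R` a coordinate homomorphism for `(ρ(τ_j), ρ(frob_j))` in a basis `b`;
`x : R → D` a point with values in a noetherian local domain `D ⊇ 𝒪`, `x(𝔪_R) ⊆ 𝔪_D`.
Then there are exponents `i_j < p ^ n_j` such that
* `tr x(ρ(τ_j)) = ζ_j + ζ_j⁻¹`, `ζ_j = ζ₀_j ^ i_j`;
* if all `i_j ≠ 0`: `x ∘ γ` is a point of type `δ_j = ζ_j − ζ_j⁻¹`;
* if all `i_j = 0`: `x ∘ γ` kills `idealUnip g q`;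
* `i_j = 0` iff `x(ρ(σ)) = 1 + nilpotent of square 0` for the generator. -/
theorem types_of_point {𝒪 : Type} [CommRing 𝒪] (p : ℕ) (hp : p.Prime) (hp2 : p ≠ 2)
    {k : ℕ} (g : ℕ) (Pv : PivotPrimes k) (n m' : Fin k → ℕ) (hn : ∀ j, n j ≠ 0)
    (hq : ∀ j, Pv.q j = 1 + p ^ n j * m' j) (hm' : ∀ j, ¬ p ∣ m' j)
    (ζ₀ : Fin k → 𝒪) (hζ₀ : ∀ j, IsPrimitiveRoot (ζ₀ j) (p ^ n j))
    (R : Type) [CommRing R] [IsLocalRing R] [IsNoetherianRing R] [Algebra 𝒪 R]
    (ρ : GaloisRepAdic R) (hdet : ρ.DetIsCyclotomic p)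
    (hI : ∀ j, ∀ σ ∈ (Pv.P j).inertiaSubgroupIn ℚ, ∀ v : ρ.V,
      ρ.ρ σ v - v ∈ maximalIdeal R • (⊤ : Submodule R ρ.V))
    (b : Module.Basis (Fin 2) R ρ.V) (γ : PRing 𝒪 k g →ₐ[𝒪] R)
    (hγ : IsCoordHom γ (fun j => LinearMap.toMatrix b b (ρ.ρ (Pv.τ j)))
      (fun j => LinearMap.toMatrix b b (ρ.ρ (Pv.frob j))))
    (D : Type) [CommRing D] [IsDomain D] [IsLocalRing D] [IsNoetherianRing D] [Algebra 𝒪 D]
    (hinj : Function.Injective (algebraMap 𝒪 D)) (x : R →ₐ[𝒪] D)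
    (hx : ∀ a ∈ maximalIdeal R, x a ∈ maximalIdeal D) :
    ∃ i : Fin k → ℕ, (∀ j, i j < p ^ n j) ∧
      (∀ j, ((x : R →+* D).mapMatrix (LinearMap.toMatrix b b (ρ.ρ (Pv.τ j)))).trace =
        algebraMap 𝒪 D (ζ₀ j ^ i j + ζ₀ j ^ (p ^ n j - i j))) ∧
      ((∀ j, i j ≠ 0) →
        IsTypePoint g (fun j => ζ₀ j ^ i j - ζ₀ j ^ (p ^ n j - i j)) (x.comp γ)) ∧
      ((∀ j, i j = 0) →
        idealUnip g (fun j => (Pv.q j : 𝒪)) ≤
          RingHom.ker ((x.comp γ : PRing 𝒪 k g →ₐ[𝒪] D) : PRing 𝒪 k g →+* D)) := by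
  classical
  have hqp : ∀ j, Pv.q j ≠ p := by
    intro j h
    have h1 : p ∣ p ^ n j * m' j := Dvd.dvd.mul_right (dvd_pow_self p (hn j)) _
    have h2 : p ∣ 1 := by
      have h3 : p ∣ 1 + p ^ n j * m' j := by rw [← hq j, h]
      exact (Nat.dvd_add_left h1).1 h3
    exact hp.one_lt.ne' (Nat.dvd_one.1 h2)
  have hM := fun j => pivot_matrices p hp ρ hdet Pv j (hqp j) (hI j) b
  have hpD : (p : D) ∈ maximalIdeal D := by
    have := hx _ hdet.1
    rwa [map_natCast] at this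
  obtain ⟨Sg, hSg⟩ : ∃ Sg : Fin k → Matrix (Fin 2) (Fin 2) D, ∀ j, Sg j =
      (x : R →+* D).mapMatrix (LinearMap.toMatrix b b (ρ.ρ (Pv.τ j))) := ⟨_, fun _ => rfl⟩
  obtain ⟨Ph, hPh⟩ : ∃ Ph : Fin k → Matrix (Fin 2) (Fin 2) D, ∀ j, Ph j =
      (x : R →+* D).mapMatrix (LinearMap.toMatrix b b (ρ.ρ (Pv.frob j))) := ⟨_, fun _ => rfl⟩
  obtain ⟨Ph', hPh'⟩ : ∃ Ph' : Fin k → Matrix (Fin 2) (Fin 2) D, ∀ j, Ph' j =
      (x : R →+* D).mapMatrix (LinearMap.toMatrix b b (ρ.ρ (Pv.frob j)⁻¹)) := ⟨_, fun _ => rfl⟩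
  have hc : ∀ j, IsCoordOf (x.comp γ) j 1 (Sg j) (Ph j) := by
    intro j
    rw [hSg j, hPh j]
    exact isCoordOf_of_isCoordHom γ _ _ hγ x j
  have hdetS : ∀ j, (Sg j).det = 1 := by
    intro j
    rw [hSg j, ← RingHom.map_det, (hM j).1, map_one]
  have hdetP : ∀ j, (Ph j).det = algebraMap 𝒪 D (Pv.q j : 𝒪) := by
    intro j
    rw [hPh j, ← RingHom.map_det, (hM j).2.1, map_natCast, map_natCast]
  have hS1 : ∀ j, ∀ a c, (Sg j - 1) a c ∈ maximalIdeal D := by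
    intro j a c
    have h1 := hx _ ((hM j).2.2.1 a c)
    have h2 : (Sg j - 1) a c = x ((LinearMap.toMatrix b b (ρ.ρ (Pv.τ j)) - 1) a c) := by
      rw [hSg j, Matrix.sub_apply, Matrix.sub_apply, map_sub, RingHom.mapMatrix_apply,
        Matrix.map_apply]
      by_cases hac : a = c
      · rw [hac, Matrix.one_apply_eq, Matrix.one_apply_eq, map_one]; rfl
      · rw [Matrix.one_apply_ne hac, Matrix.one_apply_ne hac, map_zero]; rfl
    rw [h2]
    exact h1
  have hPP : ∀ j, Ph j * Ph' j = 1 := by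
    intro j
    have h := congrArg (x : R →+* D).mapMatrix (hM j).2.2.2.1
    rw [map_mul, map_one] at h
    rw [hPh j, hPh' j]
    exact h
  have hrel : ∀ j, Ph j * Sg j = Sg j ^ Pv.q j * Ph j := by
    intro j
    have h := congrArg (x : R →+* D).mapMatrix (hM j).2.2.2.2.1
    rw [map_mul, map_mul, map_pow] at h
    rw [hPh j, hSg j]
    exact h
  obtain ⟨i, hi, htr, htype, hunip⟩ := exists_type_of_tame hinj p hp hp2 hpD Pv.q n m' hn hq hm'
    ζ₀ hζ₀ (x.comp γ) (fun _ => 1) Sg Ph Ph' hc hdetS hS1 hPP hrel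
  refine ⟨i, hi, fun j => by rw [← hSg j]; exact htr j, htype, fun hi0 => ?_⟩
  refine idealUnip_le_ker_of_coord _ (x.comp γ) (fun _ => 1) Sg Ph hc (fun _ => one_pow 2) hdetP
    (fun j => (hunip j (hi0 j)).1) (fun j => (hunip j (hi0 j)).2.1) (fun j => ?_)
  rw [(hunip j (hi0 j)).2.2, map_natCast]

end Fermat.Agent.L.Pivot.H59

end
-- ==== END Fermat.Agent.L.Pivot.H59_TameGlobal

-- ==== BEGIN Fermat.Agent.L.Pivot.H72_NUArith
section

set_option autoImplicit false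

namespace Fermat.Agent.L.Pivot.H72

open Fermat.Agent.S59.Asm

section Arith

variable (N1 : ℕ) {k r : ℕ} (qP : Fin k → ℕ) (qv : Fin r → ℕ)

theorem pvLevel_eq_mul : pvLevel N1 qP qv = N1 * (∏ i, qv i ^ 2) * ∏ j, qP j := rfl

/-- The prime divisors of `pvLevel`. -/
theorem prime_dvd_pvLevel (hqP : ∀ j, (qP j).Prime) (hqv : ∀ i, (qv i).Prime)
    {q' : ℕ} (hq' : q'.Prime) (h : q' ∣ pvLevel N1 qP qv) :
    q' ∣ N1 ∨ (∃ i, q' = qv i) ∨ ∃ j, q' = qP j := by
  rw [pvLevel_eq_mul] at h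
  rcases (Nat.Prime.dvd_mul hq').1 h with h | h
  · rcases (Nat.Prime.dvd_mul hq').1 h with h | h
    · exact Or.inl h
    · obtain ⟨i, -, hi⟩ := (Prime.dvd_finsetProd_iff hq'.prime _).1 h
      exact Or.inr (Or.inl ⟨i, (Nat.prime_dvd_prime_iff_eq hq' (hqv i)).1
        (hq'.dvd_of_dvd_pow hi)⟩)
  · obtain ⟨j, -, hj⟩ := (Prime.dvd_finsetProd_iff hq'.prime _).1 h
    exact Or.inr (Or.inr ⟨j, (Nat.prime_dvd_prime_iff_eq hq' (hqP j)).1 hj⟩)

/-- `q_j² ∥ pvLevel`. -/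
theorem factorization_pvLevel (hN1 : N1 ≠ 0) (hsq : Squarefree N1)
    (hqP : ∀ j, (qP j).Prime) (hinj : Function.Injective qP) (hqv : ∀ i, (qv i).Prime)
    (j : Fin k) (hdiv : qP j ∣ N1) (hne : ∀ i, qv i ≠ qP j) :
    (pvLevel N1 qP qv).factorization (qP j) = 2 := by
  have hA : (∏ i, qv i ^ 2) ≠ 0 :=
    Finset.prod_ne_zero_iff.2 fun i _ => pow_ne_zero 2 (hqv i).ne_zero
  have hB : (∏ j, qP j) ≠ 0 := Finset.prod_ne_zero_iff.2 fun j _ => (hqP j).ne_zero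
  rw [pvLevel_eq_mul, Nat.factorization_mul (mul_ne_zero hN1 hA) hB,
    Nat.factorization_mul hN1 hA]
  simp only [Finsupp.coe_add, Pi.add_apply]
  have h1 : N1.factorization (qP j) = 1 := by
    have h2 := Squarefree.natFactorization_le_one (qP j) hsq
    have h3 := Nat.Prime.factorization_pos_of_dvd (hqP j) hN1 hdiv
    omega
  have h2 : (∏ i, qv i ^ 2).factorization (qP j) = 0 := by
    apply Nat.factorization_eq_zero_of_not_dvd
    intro h
    obtain ⟨i, -, hi⟩ := (Prime.dvd_finsetProd_iff (hqP j).prime _).1 h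
    exact hne i ((Nat.prime_dvd_prime_iff_eq (hqP j) (hqv i)).1
      ((hqP j).dvd_of_dvd_pow hi)).symm
  have h3 : (∏ j, qP j).factorization (qP j) = 1 := by
    rw [Nat.factorization_prod (fun x _ => (hqP x).ne_zero), Finsupp.finsetSum_apply,
      Finset.sum_eq_single j]
    · rw [(hqP j).factorization, Finsupp.single_eq_same]
    · intro j' _ hj'
      rw [(hqP j').factorization, Finsupp.single_eq_of_ne]
      exact fun h => hj' (hinj h).symm
    · intro h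
      exact absurd (Finset.mem_univ j) h
  rw [h1, h2, h3]

/-- `pvLevel = M q_j²` with `q_j ∤ M`. -/
theorem pvLevel_split (hN1 : N1 ≠ 0) (hsq : Squarefree N1)
    (hqP : ∀ j, (qP j).Prime) (hinj : Function.Injective qP) (hqv : ∀ i, (qv i).Prime)
    (j : Fin k) (hdiv : qP j ∣ N1) (hne : ∀ i, qv i ≠ qP j) :
    pvLevel N1 qP qv = pvLevel N1 qP qv / qP j ^ 2 * qP j ^ 2 ∧
      ¬ qP j ∣ pvLevel N1 qP qv / qP j ^ 2 ∧
      pvLevel N1 qP qv / qP j ^ 2 * qP j = pvLevel N1 qP qv / qP j := by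
  have hf := factorization_pvLevel N1 qP qv hN1 hsq hqP hinj hqv j hdiv hne
  have hN : pvLevel N1 qP qv ≠ 0 := by
    rw [pvLevel_eq_mul]
    exact mul_ne_zero (mul_ne_zero hN1
      (Finset.prod_ne_zero_iff.2 fun i _ => pow_ne_zero 2 (hqv i).ne_zero))
      (Finset.prod_ne_zero_iff.2 fun j _ => (hqP j).ne_zero)
  have h1 := Nat.ordProj_mul_ordCompl_eq_self (pvLevel N1 qP qv) (qP j)
  have h2 := Nat.not_dvd_ordCompl (hqP j) hN
  rw [hf] at h1 h2
  refine ⟨by rw [mul_comm]; exact h1.symm, h2, ?_⟩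
  have hq0 : 0 < qP j := (hqP j).pos
  have h3 : pvLevel N1 qP qv = (pvLevel N1 qP qv / qP j ^ 2 * qP j) * qP j := by
    rw [mul_assoc, ← pow_two, mul_comm]
    exact h1.symm
  conv_rhs => rw [h3]
  rw [Nat.mul_div_cancel _ hq0]

end Arith

end Fermat.Agent.L.Pivot.H72

end
-- ==== END Fermat.Agent.L.Pivot.H72_NUArith

-- ==== BEGIN Fermat.Agent.L.Pivot.H72_PVGalA
section

set_option autoImplicit false
set_option linter.unusedSectionVars false
set_option linter.style.haveILetI false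

namespace Fermat.Agent.L.Pivot.H72

open IsLocalRing Fermat.Agent.S53 Fermat.Agent.S56
open scoped TensorProduct

section Coord

variable {R : Type} [CommRing R] {k : ℕ}

/-- The six local coordinates at the `j`-th pivot prime. -/
def coordOf (Mσ Mφ : Fin k → Matrix (Fin 2) (Fin 2) R) (j : Fin k) : Fin 6 → R :=
  ![Mσ j 0 1, Mσ j 1 0, Mσ j 0 0 - Mσ j 1 1, Mφ j 0 1, Mφ j 1 0, Mφ j 0 0 - Mφ j 1 1]

/-- The family of `6k + g` elements. -/
def famY (g : ℕ) (c : Fin k → Fin 6 → R) (x : Fin g → R) (n : Fin (6 * k + g)) : R :=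
  if h : n.1 < 6 * k then c ⟨n.1 / 6, by omega⟩ ⟨n.1 % 6, Nat.mod_lt _ (by norm_num)⟩
  else x ⟨n.1 - 6 * k, by have := n.2; omega⟩

theorem famY_cIdx (g : ℕ) (c : Fin k → Fin 6 → R) (x : Fin g → R) (j : Fin k) (i : Fin 6) :
    famY g c x (cIdx k g j i) = c j i := by
  have h : (cIdx k g j i).1 < 6 * k := by
    show 6 * j.1 + i.1 < 6 * k
    have := j.2; have := i.2; omega
  rw [famY, dif_pos h]
  congr 1
  · apply Fin.ext
    show (6 * j.1 + i.1) / 6 = j.1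
    have := i.2; omega
  · apply Fin.ext
    show (6 * j.1 + i.1) % 6 = i.1
    have := i.2; omega

theorem famY_xIdx (g : ℕ) (c : Fin k → Fin 6 → R) (x : Fin g → R) (a : Fin g) :
    famY g c x (xIdx k g a) = x a := by
  have h : ¬ (xIdx k g a).1 < 6 * k := by
    show ¬ 6 * k + a.1 < 6 * k
    omega
  rw [famY, dif_neg h]
  congr 1
  apply Fin.ext
  show 6 * k + a.1 - 6 * k = a.1
  omega

end Coord

section Main

variable {𝒪 : Type} [CommRing 𝒪] [IsDomain 𝒪] [IsDiscreteValuationRing 𝒪]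
  [IsAdicComplete (maximalIdeal 𝒪) 𝒪] [Finite (ResidueField 𝒪)]
variable {p : ℕ} [Fact p.Prime] {ρbar : ResidualGaloisRep (ResidueField 𝒪)}
variable {S Smin : Finset ℕ} {k : ℕ} {Pv : PivotPrimes k} {T : Finset ℕ}
variable {𝒟 : Cond 𝒪}

/-- Residues of the matrix entries of the universal deformation at an element acting as a
scalar in `ρbar`. -/
theorem residue_entry (DQ : GaloisRep.DeformationRingData 𝒪 ρbar 𝒟)
    (b : Module.Basis (Fin 2) DQ.R DQ.ρ.V) (σ : Fermat.Agent.S53.GQ) (c : ResidueField 𝒪)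
    (h : ρbar.ρ σ = c • (1 : Module.End (ResidueField 𝒪) ρbar.V)) (i j : Fin 2) :
    residue DQ.R (LinearMap.toMatrix b b (DQ.ρ.ρ σ) i j) =
      if i = j then ResidueField.map (algebraMap 𝒪 DQ.R) c else 0 := by
  letI : Algebra (ResidueField 𝒪) (ResidueField DQ.R) :=
    (ResidueField.map (algebraMap 𝒪 DQ.R)).toAlgebra
  exact residue_toMatrix_of_scalar DQ.ρ _ DQ.residual_isEquiv σ _
    (resBaseChange_scalar ρbar σ c h) b i j

/-- The tame generators act trivially in `ρbar`. -/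
theorem rhobar_tau (hex : Pv.IsExceptional p ρbar) (j : Fin k) :
    ρbar.ρ (Pv.τ j) = (1 : ResidueField 𝒪) • (1 : Module.End (ResidueField 𝒪) ρbar.V) := by
  rw [one_smul]
  exact (hex j).2.2.1 (Pv.P j) (Pv.P_over j) (Pv.τ j) (Pv.τ_gen j).1

/-- The coordinates of the universal deformation at the pivot primes. -/
noncomputable def ucoord (DQ : GaloisRep.DeformationRingData 𝒪 ρbar 𝒟)
    (b : Module.Basis (Fin 2) DQ.R DQ.ρ.V) (Pv : PivotPrimes k) : Fin k → Fin 6 → DQ.R :=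
  coordOf (fun j => LinearMap.toMatrix b b (DQ.ρ.ρ (Pv.τ j)))
    (fun j => LinearMap.toMatrix b b (DQ.ρ.ρ (Pv.frob j)))

theorem ucoord_mem (hex : Pv.IsExceptional p ρbar)
    (DQ : GaloisRep.DeformationRingData 𝒪 ρbar 𝒟)
    (b : Module.Basis (Fin 2) DQ.R DQ.ρ.V) (j : Fin k) (i : Fin 6) :
    ucoord DQ b Pv j i ∈ maximalIdeal DQ.R := by
  obtain ⟨c, hc⟩ := (hex j).2.2.2
  have hτ := rhobar_tau hex j
  rw [← residue_eq_zero_iff]
  have e1 := residue_entry DQ b (Pv.τ j) 1 hτ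
  have e2 := residue_entry DQ b (Pv.frob j) c hc
  fin_cases i
  · show residue DQ.R (LinearMap.toMatrix b b (DQ.ρ.ρ (Pv.τ j)) 0 1) = 0
    rw [e1 0 1]; simp
  · show residue DQ.R (LinearMap.toMatrix b b (DQ.ρ.ρ (Pv.τ j)) 1 0) = 0
    rw [e1 1 0]; simp
  · show residue DQ.R (LinearMap.toMatrix b b (DQ.ρ.ρ (Pv.τ j)) 0 0 -
      LinearMap.toMatrix b b (DQ.ρ.ρ (Pv.τ j)) 1 1) = 0
    rw [map_sub, e1 0 0, e1 1 1]; simp
  · show residue DQ.R (LinearMap.toMatrix b b (DQ.ρ.ρ (Pv.frob j)) 0 1) = 0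
    rw [e2 0 1]; simp
  · show residue DQ.R (LinearMap.toMatrix b b (DQ.ρ.ρ (Pv.frob j)) 1 0) = 0
    rw [e2 1 0]; simp
  · show residue DQ.R (LinearMap.toMatrix b b (DQ.ρ.ρ (Pv.frob j)) 0 0 -
      LinearMap.toMatrix b b (DQ.ρ.ρ (Pv.frob j)) 1 1) = 0
    rw [map_sub, e2 0 0, e2 1 1]; simp

/-- `p = 0` in `k[ε]`. -/
theorem natCast_p_dualNumber (hp𝒪 : (p : 𝒪) ∈ maximalIdeal 𝒪) :
    ((p : ℕ) : DualNumber (ResidueField 𝒪)) = 0 := by
  letI := dualNumberAlgebra 𝒪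
  rw [← map_natCast (algebraMap 𝒪 (DualNumber (ResidueField 𝒪))) p]
  show TrivSqZeroExt.inl (residue 𝒪 (p : 𝒪)) = 0
  rw [(residue_eq_zero_iff _).2 hp𝒪, TrivSqZeroExt.inl_zero]

/-- A scalar of determinant `1` which is residually `1` is `1` (odd residue characteristic). -/
theorem scalar_eq_one {A : Type} [CommRing A] [IsLocalRing A] (hp2 : p ≠ 2)
    (hpA : (p : A) ∈ maximalIdeal A) (ρ : GaloisRepAdic A)
    (ρ' : ResidualGaloisRep (ResidueField A)) (h : ρ.residual.IsEquiv ρ')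
    (σ : Fermat.Agent.S53.GQ) (hσ' : ρ'.ρ σ = (1 : ResidueField A) • 1)
    (s : A) (hσ : ρ.ρ σ = s • (1 : Module.End A ρ.V)) (hdet : LinearMap.det (ρ.ρ σ) = 1) :
    s = 1 := by
  have hp : p.Prime := Fact.out
  apply eq_one_of_sq_eq_one (isUnit_two_of_odd hp hp2 hpA)
  · rw [hσ, LinearMap.det_smul, ρ.finrank_eq, map_one, mul_one] at hdet
    rw [← hdet]; ring
  · obtain ⟨r, b, hb⟩ := exists_isMatOf ρ
    have h1 := residue_toMatrix_of_scalar ρ ρ' h σ 1 hσ' b 0 0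
    rw [hσ, map_smul] at h1
    have : LinearMap.toMatrix b b (1 : Module.End A ρ.V) = 1 := LinearMap.toMatrix_one _
    rw [this] at h1
    simp only [Matrix.smul_apply, Matrix.one_apply_eq, smul_eq_mul, mul_one, if_true] at h1
    rw [← residue_eq_zero_iff, map_sub, h1, map_one, sub_self]

/-- The first-order deformation of type `𝒟⁰` attached to a homomorphism `R → k[ε]` killing the
local coordinates. -/
theorem exists_tsub0 (hyp : Hyp 𝒪 p ρbar S Smin) (hex : Pv.IsExceptional p ρbar)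
    (DQ : GaloisRep.DeformationRingData 𝒪 ρbar (condFl 𝒪 p Smin (Pv.set ∪ T)))
    (b : Module.Basis (Fin 2) DQ.R DQ.ρ.V)
    (φ : letI := dualNumberAlgebra 𝒪; DQ.R →ₐ[𝒪] DualNumber (ResidueField 𝒪))
    (hφJ : ∀ j i, φ (ucoord DQ b Pv j i) = 0) :
    letI := dualNumberAlgebra 𝒪
    ∃ (hφ : IsLocalHom (φ : DQ.R →+* DualNumber (ResidueField 𝒪)))
      (x : TSub 𝒪 ρbar (condPv0 𝒪 p Smin Pv T)),
      x.1 = DQ.ρ.baseChangeAlong (φ : DQ.R →+* DualNumber (ResidueField 𝒪)) hφ := by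
  letI := dualNumberAlgebra 𝒪
  letI := resDualNumberAlgebra 𝒪
  have hp : p.Prime := Fact.out
  obtain ⟨hφ, x, hx⟩ := Fermat.Agent.S56.H50.exists_tsub_of_algHom
    (Fermat.Agent.S56.H92.stmt_stable_Fl 𝒪 p Smin (Pv.set ∪ T)) DQ φ
  have hFl : condFl 𝒪 p Smin (Pv.set ∪ T)
      (DQ.ρ.baseChangeAlong (φ : DQ.R →+* DualNumber (ResidueField 𝒪)) hφ) := hx ▸ x.2.1
  have hres : (DQ.ρ.baseChangeAlong (φ : DQ.R →+* DualNumber (ResidueField 𝒪)) hφ).residual.IsEquiv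
      (ρbar.baseChange (ResidueField (DualNumber (ResidueField 𝒪)))) := hx ▸ x.2.2
  refine ⟨hφ, ⟨DQ.ρ.baseChangeAlong (φ : DQ.R →+* DualNumber (ResidueField 𝒪)) hφ,
    ⟨hFl, fun j => ⟨?_, ?_⟩⟩, hres⟩, rfl⟩
  · -- the tame generator
    have h01 : (φ : DQ.R →+* DualNumber (ResidueField 𝒪))
        (LinearMap.toMatrix b b (DQ.ρ.ρ (Pv.τ j)) 0 1) = 0 := hφJ j 0
    have h10 : (φ : DQ.R →+* DualNumber (ResidueField 𝒪))
        (LinearMap.toMatrix b b (DQ.ρ.ρ (Pv.τ j)) 1 0) = 0 := hφJ j 1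
    have hd : (φ : DQ.R →+* DualNumber (ResidueField 𝒪))
        (LinearMap.toMatrix b b (DQ.ρ.ρ (Pv.τ j)) 0 0 -
          LinearMap.toMatrix b b (DQ.ρ.ρ (Pv.τ j)) 1 1) = 0 := hφJ j 2
    have hσ := baseChange_eq_smul_of_map (φ : DQ.R →+* DualNumber (ResidueField 𝒪)) b
      (DQ.ρ.ρ (Pv.τ j)) h01 h10 hd
    have hσ2 : (DQ.ρ.baseChangeAlong (φ : DQ.R →+* DualNumber (ResidueField 𝒪)) hφ).ρ (Pv.τ j) =
        (φ : DQ.R →+* DualNumber (ResidueField 𝒪))
          (LinearMap.toMatrix b b (DQ.ρ.ρ (Pv.τ j)) 0 0) • 1 := hσ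
    have hcop : (p ^ 1).Coprime (Pv.q j) :=
      Nat.Coprime.pow_left 1 ((Nat.coprime_primes hp (Pv.q_prime j)).2 (Ne.symm (hex j).2.1))
    have hdet0 := hFl.1.1.2 1 (Pv.τ j) 1 (fun μ hμ => by
      rw [pow_one]
      exact Fermat.Agent.R.H89.inertia_fixes_rootsOfUnity (Pv.q j) (Pv.P j) (Pv.P_over j)
        (Pv.τ j) (Pv.τ_gen j).1 (p ^ 1) hcop μ hμ)
    have hdet : LinearMap.det
        ((DQ.ρ.baseChangeAlong (φ : DQ.R →+* DualNumber (ResidueField 𝒪)) hφ).ρ (Pv.τ j)) = 1 := by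
      rw [pow_one, natCast_p_dualNumber hyp.hp𝒪, Ideal.span_singleton_zero, Ideal.mem_bot,
        Nat.cast_one, sub_eq_zero] at hdet0
      exact hdet0
    have hs := scalar_eq_one hyp.hp2 hFl.1.1.1 _ _ hres (Pv.τ j)
      (by
        have := resBaseChange_scalar (k' := ResidueField (DualNumber (ResidueField 𝒪)))
          ρbar (Pv.τ j) 1 (rhobar_tau hex j)
        rw [map_one] at this
        exact this) _ hσ2 hdet
    rw [hσ2, hs, one_smul]
  · -- the Frobenius lift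
    have h01 : (φ : DQ.R →+* DualNumber (ResidueField 𝒪))
        (LinearMap.toMatrix b b (DQ.ρ.ρ (Pv.frob j)) 0 1) = 0 := hφJ j 3
    have h10 : (φ : DQ.R →+* DualNumber (ResidueField 𝒪))
        (LinearMap.toMatrix b b (DQ.ρ.ρ (Pv.frob j)) 1 0) = 0 := hφJ j 4
    have hd : (φ : DQ.R →+* DualNumber (ResidueField 𝒪))
        (LinearMap.toMatrix b b (DQ.ρ.ρ (Pv.frob j)) 0 0 -
          LinearMap.toMatrix b b (DQ.ρ.ρ (Pv.frob j)) 1 1) = 0 := hφJ j 5
    exact ⟨_, baseChange_eq_smul_of_map (φ : DQ.R →+* DualNumber (ResidueField 𝒪)) b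
      (DQ.ρ.ρ (Pv.frob j)) h01 h10 hd⟩

/-- The ideal of the local coordinates. -/
noncomputable def ucoordIdeal (DQ : GaloisRep.DeformationRingData 𝒪 ρbar 𝒟)
    (b : Module.Basis (Fin 2) DQ.R DQ.ρ.V) (Pv : PivotPrimes k) : Ideal DQ.R :=
  Ideal.span (Set.range fun x : Fin k × Fin 6 => ucoord DQ b Pv x.1 x.2)

theorem ucoordIdeal_le (hex : Pv.IsExceptional p ρbar)
    (DQ : GaloisRep.DeformationRingData 𝒪 ρbar 𝒟)
    (b : Module.Basis (Fin 2) DQ.R DQ.ρ.V) : ucoordIdeal DQ b Pv ≤ maximalIdeal DQ.R := by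
  refine Ideal.span_le.2 ?_
  rintro _ ⟨x, rfl⟩
  exact ucoord_mem hex DQ b x.1 x.2

/-- The homomorphisms `R → k[ε]` killing the local coordinates inject into the classes of
first-order deformations of type `𝒟⁰`. -/
theorem card_algHom0_le (hyp : Hyp 𝒪 p ρbar S Smin) (hex : Pv.IsExceptional p ρbar)
    (DQ : GaloisRep.DeformationRingData 𝒪 ρbar (condFl 𝒪 p Smin (Pv.set ∪ T)))
    (b : Module.Basis (Fin 2) DQ.R DQ.ρ.V) :
    letI := dualNumberAlgebra 𝒪
    ∃ F : {φ : DQ.R →ₐ[𝒪] DualNumber (ResidueField 𝒪) //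
        ∀ x ∈ ucoordIdeal DQ b Pv, φ x = 0} →
      Quotient (TSetoid 𝒪 ρbar (condPv0 𝒪 p Smin Pv T)), Function.Injective F := by
  letI := dualNumberAlgebra 𝒪
  letI := resDualNumberAlgebra 𝒪
  haveI := isLocalHom_algebraMap_dualNumber 𝒪
  haveI := finite_dualNumber 𝒪
  haveI := Fermat.Agent.S56.H50.isAdicComplete_dualNumber (𝒪 := 𝒪)
  have key : ∀ φ : {φ : DQ.R →ₐ[𝒪] DualNumber (ResidueField 𝒪) //
      ∀ x ∈ ucoordIdeal DQ b Pv, φ x = 0}, ∀ j i, φ.1 (ucoord DQ b Pv j i) = 0 :=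
    fun φ j i => φ.2 _ (Ideal.subset_span ⟨(j, i), rfl⟩)
  choose hloc G hG using fun φ : {φ : DQ.R →ₐ[𝒪] DualNumber (ResidueField 𝒪) //
      ∀ x ∈ ucoordIdeal DQ b Pv, φ x = 0} => exists_tsub0 (T := T) hyp hex DQ b φ.1 (key φ)
  refine ⟨fun φ => Quotient.mk (TSetoid 𝒪 ρbar (condPv0 𝒪 p Smin Pv T)) (G φ), fun φ ψ h => ?_⟩
  have h1 : (G φ).1.IsEquiv (G ψ).1 := Quotient.exact h
  rw [hG φ, hG ψ] at h1
  obtain ⟨rbar, hbar⟩ := exists_isMatOfRes ρbar
  obtain ⟨r, hr, hl⟩ := Fermat.Agent.S56.H50.exists_mat_baseChange DQ hbar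
  have hmat : IsMatOf (DQ.ρ.baseChangeAlong (ψ.1 : DQ.R →+* DualNumber (ResidueField 𝒪)) (hloc ψ))
      (fun σ => (r σ).map ψ.1) :=
    hr.baseChangeAlong (ψ.1 : DQ.R →+* DualNumber (ResidueField 𝒪)) (hloc ψ)
  have hl' : IsLift 𝒪 rbar (fun σ => (r σ).map ψ.1) := Univ.IsLift.map ψ.1 (hloc ψ) hl
  have hres := residual_isEquiv_of_isLift hbar hmat hl'
  have hD : condFl 𝒪 p Smin (Pv.set ∪ T)
      (DQ.ρ.baseChangeAlong (ψ.1 : DQ.R →+* DualNumber (ResidueField 𝒪)) (hloc ψ)) :=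
    (hG ψ ▸ (G ψ).2.1).1
  have huniv := DQ.universal (DualNumber (ResidueField 𝒪)) (res_surj_dualNumber 𝒪)
    (DQ.ρ.baseChangeAlong (ψ.1 : DQ.R →+* DualNumber (ResidueField 𝒪)) (hloc ψ)) hD hres
  exact Subtype.ext (huniv.unique ⟨hloc φ, h1⟩ ⟨hloc ψ, ⟨GaloisRepAdic.Equiv.refl _⟩⟩)

end Main

/-- **PV-GAL-A.** -/
theorem stmt_PVGalA : Stmt_PVGalA := by
  intro 𝒪 _ _ _ _ _ p _ ρbar S Smin hyp k Pv hex T g htan DQ b
  obtain ⟨hfin, hcard⟩ := htan
  haveI := hfin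
  obtain ⟨F, hF⟩ := card_algHom0_le (T := T) hyp hex DQ b
  obtain ⟨x, hx, hgen⟩ := exists_gens_rel DQ.residue_surjective (ucoordIdeal DQ b Pv)
    (ucoordIdeal_le hex DQ b) g hcard F hF
  have hy : ∀ n, famY g (ucoord DQ b Pv) x n ∈ maximalIdeal DQ.R := by
    intro n
    unfold famY
    split_ifs
    · exact ucoord_mem hex DQ b _ _
    · exact hx _
  obtain ⟨γ, hγ⟩ := Fermat.Agent.S56.H50.exists_eval (𝒪 := 𝒪) (6 * k + g)
    (famY g (ucoord DQ b Pv) x) hy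
  have hc : ∀ (j : Fin k) (i : Fin 6),
      γ (MvPowerSeries.X (cIdx k g j i)) = ucoord DQ b Pv j i := fun j i => by
    rw [hγ, famY_cIdx]
  refine ⟨γ, Fermat.Agent.S56.H50.surjective_of_gens DQ.residue_surjective _ _ γ hγ ?_,
    fun j => ⟨hc j 0, hc j 1, hc j 2, hc j 3, hc j 4, hc j 5⟩⟩
  refine hgen.trans (sup_le (sup_le ?_ le_sup_right) ?_)
  · refine le_sup_of_le_left (Ideal.span_le.2 ?_)
    rintro _ ⟨a, rfl⟩
    exact Ideal.subset_span ⟨xIdx k g a, famY_xIdx g _ x a⟩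
  · refine le_sup_of_le_left (Ideal.span_le.2 ?_)
    rintro _ ⟨⟨j, i⟩, rfl⟩
    exact Ideal.subset_span ⟨cIdx k g j i, famY_cIdx g _ x j i⟩

end Fermat.Agent.L.Pivot.H72

end
-- ==== END Fermat.Agent.L.Pivot.H72_PVGalA

-- ==== BEGIN Fermat.Agent.L.Pivot.H76_CoreLin
section

set_option autoImplicit false

namespace Fermat.Agent.L.Pivot.H76

open Fermat.Agent.S59.TWH Fermat.Agent.S59 MvPowerSeries

theorem twIdealP_eq (𝒪 : Type) [CommRing 𝒪] (r p n : ℕ) :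
    twIdealP 𝒪 r p n = twIdeal 𝒪 p r n := rfl

section Lin

variable {𝒪 : Type} [CommRing 𝒪] {V : Type} [AddCommGroup V] [Module 𝒪 V] {p r n k : ℕ}
variable (G : MvPowerSeries (Fin r) 𝒪 →ₐ[𝒪] Module.End 𝒪 V) (d : Fin r → Module.End 𝒪 V)

theorem G_C (a : 𝒪) (v : V) : G (C a) v = a • v := by
  have h1 : (C a : MvPowerSeries (Fin r) 𝒪) = algebraMap 𝒪 _ a := rfl
  rw [h1, AlgHom.commutes, Module.algebraMap_end_apply]

variable {G d}

theorem G_onePlusXPow (hG : ∀ i, G (X i) = d i - 1) {N : ℕ} (y : Fin r → Fin N) :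
    G (onePlusXPow 𝒪 y) = H90.mon d (fun j => (y j : ℕ)) := by
  have h1 := Fermat.Agent.S59.Asm.map_prod_pow_eq_mon
    (G : MvPowerSeries (Fin r) 𝒪 →+* Module.End 𝒪 V) (fun j => 1 + X j) (fun j => (y j : ℕ))
  have h2 : (fun j => (G : MvPowerSeries (Fin r) 𝒪 →+* Module.End 𝒪 V) (1 + X j)) = d := by
    funext j
    show G (1 + X j) = d j
    rw [map_add, map_one, hG]
    abel
  rw [h2] at h1
  exact h1

theorem G_eq_zero_of_mem (hG : ∀ i, G (X i) = d i - 1) (hd : ∀ i, d i ^ (p ^ n) = 1)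
    {s : MvPowerSeries (Fin r) 𝒪} (hs : s ∈ twIdealP 𝒪 r p n) : G s = 0 := by
  rw [twIdealP] at hs
  obtain ⟨g, rfl⟩ := (Ideal.mem_span_range_iff_exists_fun).mp hs
  rw [map_sum]
  refine Finset.sum_eq_zero fun j _ => ?_
  rw [map_mul, map_sub, map_pow, map_add, map_one, hG]
  have h1 : (1 + (d j - 1)) ^ (p ^ n) = d j ^ (p ^ n) := by
    congr 1
    abel
  rw [h1, hd, sub_self, mul_zero]

variable {c : Fin k → Module.End 𝒪 V} {e : Fin k → ℕ} {rk : ℕ} {b : Fin rk → V}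

/-- the basis hypothesis of `Stmt_PVCore`, in the form used by the splitting lemma. -/
theorem bijective_bvec
    (hb : Function.Bijective
      (fun f : Fin rk × (∀ j : Fin k, Fin (p ^ e j)) × (Fin r → Fin (p ^ n)) → 𝒪 =>
        ∑ x : Fin rk × (∀ j : Fin k, Fin (p ^ e j)) × (Fin r → Fin (p ^ n)),
          f x • H90.mon c (fun j => (x.2.1 j : ℕ))
            (H90.mon d (fun i => (x.2.2 i : ℕ)) (b x.1)))) :
    Function.Bijective (Fintype.linearCombination 𝒪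
      (bvec c (fun j => p ^ e j)
        (fun (i : Fin rk) (y : Fin r → Fin (p ^ n)) => H90.mon d (fun i => (y i : ℕ)) (b i)))) := by
  have h1 : (⇑(Fintype.linearCombination 𝒪
      (bvec c (fun j => p ^ e j)
        (fun (i : Fin rk) (y : Fin r → Fin (p ^ n)) =>
          H90.mon d (fun i => (y i : ℕ)) (b i))))) =
      (fun f : Fin rk × (∀ j : Fin k, Fin (p ^ e j)) × (Fin r → Fin (p ^ n)) → 𝒪 =>
        ∑ x : Fin rk × (∀ j : Fin k, Fin (p ^ e j)) × (Fin r → Fin (p ^ n)),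
          f x • H90.mon c (fun j => (x.2.1 j : ℕ))
            (H90.mon d (fun i => (x.2.2 i : ℕ)) (b x.1))) := by
    funext f
    rw [Fintype.linearCombination_apply]
    rfl
  rw [h1]
  exact hb

theorem sum_G_apply (hG : ∀ i, G (X i) = d i - 1)
    (a : Fin rk × (Fin r → Fin (p ^ n)) → 𝒪) :
    ∑ i, G (∑ y, C (a (i, y)) * onePlusXPow 𝒪 y) (b i) =
      ∑ z : Fin rk × (Fin r → Fin (p ^ n)),
        a z • H90.mon d (fun j => (z.2 j : ℕ)) (b z.1) := by
  rw [Fintype.sum_prod_type]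
  refine Finset.sum_congr rfl fun i _ => ?_
  rw [map_sum, LinearMap.sum_apply]
  refine Finset.sum_congr rfl fun y _ => ?_
  rw [map_mul, Module.End.mul_apply, G_C, G_onePlusXPow hG]

/-- **generation** -/
theorem core_span (hG : ∀ i, G (X i) = d i - 1)
    (hcc : ∀ i j, Commute (c i) (c j))
    (hb : Function.Bijective
      (fun f : Fin rk × (∀ j : Fin k, Fin (p ^ e j)) × (Fin r → Fin (p ^ n)) → 𝒪 =>
        ∑ x : Fin rk × (∀ j : Fin k, Fin (p ^ e j)) × (Fin r → Fin (p ^ n)),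
          f x • H90.mon c (fun j => (x.2.1 j : ℕ))
            (H90.mon d (fun i => (x.2.2 i : ℕ)) (b x.1))))
    (ψ : Fin k → 𝒪) (v : V) :
    ∃ cc : Fin rk → MvPowerSeries (Fin r) 𝒪, v - ∑ i, G (cc i) (b i) ∈ tsub c ψ := by
  obtain ⟨a, ha⟩ := split_span hcc (bijective_bvec hb) ψ v
  refine ⟨fun i => ∑ y, C (a (i, y)) * onePlusXPow 𝒪 y, ?_⟩
  rw [sum_G_apply hG]
  exact ha

/-- **relations** -/
theorem core_rel (hp : 0 < p) (hDIV : Stmt_DIV 𝒪 p r n) (hG : ∀ i, G (X i) = d i - 1)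
    (hd : ∀ i, d i ^ (p ^ n) = 1)
    (hcc : ∀ i j, Commute (c i) (c j)) (hcpow : ∀ j, c j ^ (p ^ e j) = 1)
    (hb : Function.Bijective
      (fun f : Fin rk × (∀ j : Fin k, Fin (p ^ e j)) × (Fin r → Fin (p ^ n)) → 𝒪 =>
        ∑ x : Fin rk × (∀ j : Fin k, Fin (p ^ e j)) × (Fin r → Fin (p ^ n)),
          f x • H90.mon c (fun j => (x.2.1 j : ℕ))
            (H90.mon d (fun i => (x.2.2 i : ℕ)) (b x.1))))
    (ψ : Fin k → 𝒪) (hψ : ∀ j, ψ j ^ (p ^ e j) = 1)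
    (cc : Fin rk → MvPowerSeries (Fin r) 𝒪) :
    ∑ i, G (cc i) (b i) ∈ tsub c ψ ↔ ∀ i, cc i ∈ twIdealP 𝒪 r p n := by
  constructor
  · intro hmem i
    choose a ha using fun i => hDIV (cc i)
    have h1 : ∀ i, G (cc i) = G (∑ y, C (a i y) * onePlusXPow 𝒪 y) := by
      intro i
      have h2 : cc i = (cc i - ∑ y, C (a i y) * onePlusXPow 𝒪 y) +
          ∑ y, C (a i y) * onePlusXPow 𝒪 y := by ring
      conv_lhs => rw [h2]
      rw [map_add, G_eq_zero_of_mem hG hd (ha i), zero_add]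
    have h3 : ∑ i, G (cc i) (b i) =
        ∑ z : Fin rk × (Fin r → Fin (p ^ n)),
          (fun z : Fin rk × (Fin r → Fin (p ^ n)) => a z.1 z.2) z •
            H90.mon d (fun j => (z.2 j : ℕ)) (b z.1) := by
      rw [← sum_G_apply hG]
      exact Finset.sum_congr rfl fun i _ => by rw [h1]
    rw [h3] at hmem
    have h4 := split_li hcc hcpow (fun j => pow_pos hp _) (bijective_bvec hb) ψ hψ _ hmem
    have h5 : ∀ y, a i y = 0 := fun y => congrFun h4 (i, y)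
    have h6 := ha i
    simp only [h5, map_zero, zero_mul, Finset.sum_const_zero, sub_zero] at h6
    exact h6
  · intro hmem
    have h1 : ∑ i, G (cc i) (b i) = 0 :=
      Finset.sum_eq_zero fun i _ => by
        rw [G_eq_zero_of_mem hG hd (hmem i), LinearMap.zero_apply]
    rw [h1]
    exact Submodule.zero_mem _

/-- **comparison modulo `ϖ`** -/
theorem core_cmp_aux (ϖ : 𝒪) (ψ ψ' : Fin k → 𝒪) (hψ : ∀ j, ψ j - ψ' j ∈ Ideal.span {ϖ})
    (w : V) (hw : ∃ u : V, w - ϖ • u ∈ tsub c ψ) : ∃ u : V, w - ϖ • u ∈ tsub c ψ' := by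
  obtain ⟨u, hu⟩ := hw
  have key : ∀ x ∈ tsub c ψ, ∃ u' : V, x - ϖ • u' ∈ tsub c ψ' := by
    intro x hx
    refine Submodule.iSup_induction
      (fun j => LinearMap.range (c j - ψ j • (1 : Module.End 𝒪 V)))
      (motive := fun x => ∃ u' : V, x - ϖ • u' ∈ tsub c ψ') hx ?_ ?_ ?_
    · rintro j _ ⟨t, rfl⟩
      obtain ⟨a, ha⟩ := Ideal.mem_span_singleton'.1 (hψ j)
      refine ⟨-(a • t), ?_⟩
      have h1 : (c j - ψ j • (1 : Module.End 𝒪 V)) t - ϖ • -(a • t) = c j t - ψ' j • t := by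
        rw [LinearMap.sub_apply, LinearMap.smul_apply, Module.End.one_apply, smul_neg,
          sub_neg_eq_add, smul_smul, mul_comm ϖ a, ha, sub_smul]
        abel
      rw [h1]
      exact sub_apply_mem_tsub c ψ' j t
    · exact ⟨0, by simp⟩
    · rintro x y ⟨ux, hx⟩ ⟨uy, hy⟩
      refine ⟨ux + uy, ?_⟩
      have h1 : x + y - ϖ • (ux + uy) = (x - ϖ • ux) + (y - ϖ • uy) := by
        rw [smul_add]
        abel
      rw [h1]
      exact Submodule.add_mem _ hx hy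
  obtain ⟨u', hu'⟩ := key _ hu
  refine ⟨u + u', ?_⟩
  have h1 : w - ϖ • (u + u') = w - ϖ • u - ϖ • u' := by
    rw [smul_add]
    abel
  rw [h1]
  exact hu'

end Lin

end Fermat.Agent.L.Pivot.H76

end
-- ==== END Fermat.Agent.L.Pivot.H76_CoreLin
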