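-- GENERATED (merged mirror, NOTES/tools/trim/merge3_helper67.py): 1 modules of the originals, bodies verbatim.
import Fermat.Agent.Zm.S56_L07_000
import Fermat.Agent.Zm.S56_L08_000
import Fermat.Agent.Zm.S56_L07_003
import Fermat.Agent.Zm.S56_L07_002

-- ==== BEGIN Fermat.Agent.S55.CFT.GS.H78_LocKum
section

set_option autoImplicit false
set_option linter.unusedSectionVars false
set_option linter.unusedVariables false
set_option linter.style.haveILetI false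

noncomputable section

namespace Fermat.Agent.S55.CFT.GS.H78

open Fermat.Agent.S55 Fermat.Agent.S55.Top Fermat.Agent.S55.CFT.LOC groupCohomology ExtCitation

local notation "Qb" => AlgebraicClosure ℚ

section loc

variable {q : ℕ} [Fact q.Prime] {p : ℕ} [Fact p.Prime]

/-- **GS-LocKum** at a subgroup of the local Galois group which is a fixing subgroup, in the
prelude's terms (level constancy in the number field sense). -/
theorem lockum_at (Γ : Subgroup (PadicAlgCl q ≃ₐ[ℚ_[q]] PadicAlgCl q))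
    (hΓ : ∃ F : IntermediateField ℚ_[q] (PadicAlgCl q), Γ = F.fixingSubgroup)
    {ζ : PadicAlgCl q} (hζ : IsPrimitiveRoot ζ p)
    (hζfix : ∀ g : ↥Γ, (g : PadicAlgCl q ≃ₐ[ℚ_[q]] PadicAlgCl q) ζ = ζ)
    (c : ↥Γ × ↥Γ → ZMod p) (β : ↥Γ → PadicAlgCl q) (hβ0 : ∀ g, β g ≠ 0)
    (hβlev : IsLevelConstant₁ (H5.rG Γ) β)
    (hβ : ∀ g h : ↥Γ, ζ ^ (c (g, h)).val * β (g * h) =
      (g : PadicAlgCl q ≃ₐ[ℚ_[q]] PadicAlgCl q) (β h) * β g) :
    ∃ m : ↥Γ → ZMod p, IsLevelConstant₁ (H5.rG Γ) m ∧ tOne m = c := by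
  obtain ⟨F, rfl⟩ := hΓ
  have hloc := (H5.lev₁_iff_loc₁ H5.stmt_L5_Krasner F.fixingSubgroup β).1 hβlev
  obtain ⟨m, hm, hmc⟩ := lockum_abs (k := ℚ_[q]) (Ω := PadicAlgCl q) F hζ hζfix c β hβ0 hloc hβ
  exact ⟨m, (H5.lev₁_iff_loc₁ H5.stmt_L5_Krasner F.fixingSubgroup m).2 hm, hmc⟩

end loc

/-- **GS-LocKum**. -/
theorem stmt_GS_LocKum : Stmt_GS_LocKum := by
  intro p _ hp2 S hpS K hK 𝔓 ζ hζK hζ a ha q w hloc
  haveI : Fact ((q.1 : ℕ)).Prime := ⟨q.1.2⟩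
  obtain ⟨F, hFfin, hFΓ, hFζ, -⟩ := H45P.stmt_L5_Places p S K hK 𝔓 q
  have hΓ : 𝔓.Γw q w = (F w).fixingSubgroup := Subgroup.ext fun h => (hFΓ w h).symm
  obtain ⟨β, hβ0, hβlev, hβ⟩ := hloc
  -- the local root of unity
  have hζ' : IsPrimitiveRoot (ζ : Qb) p := IsPrimitiveRoot.coe_units_iff.2 hζ
  have hζq : IsPrimitiveRoot (padicEmbedding (q.1 : ℕ) (𝔓.σ q w (ζ : Qb))) p :=
    (hζ'.map_of_injective (f := (𝔓.σ q w)) (𝔓.σ q w).injective).map_of_injective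
      (f := padicEmbedding (q.1 : ℕ)) (padicEmbedding (q.1 : ℕ)).injective
  have hfix : ∀ h : 𝔓.Γw q w,
      (glAut q.1 h.1) (padicEmbedding (q.1 : ℕ) (𝔓.σ q w (ζ : Qb))) =
        padicEmbedding (q.1 : ℕ) (𝔓.σ q w (ζ : Qb)) := by
    intro h
    have h1 : (𝔓.σ q w)⁻¹ * rl q.1 h.1 * 𝔓.σ q w ∈ K.fixingSubgroup := 𝔓.conj_mem q w h
    rw [IntermediateField.mem_fixingSubgroup_iff] at h1
    have h2 : (𝔓.σ q w)⁻¹ (rl q.1 h.1 (𝔓.σ q w (ζ : Qb))) = (ζ : Qb) := h1 _ hζK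
    have h3 : rl q.1 h.1 (𝔓.σ q w (ζ : Qb)) = 𝔓.σ q w (ζ : Qb) := by
      have := congrArg (𝔓.σ q w) h2
      rwa [show (𝔓.σ q w) ((𝔓.σ q w)⁻¹ (rl q.1 h.1 (𝔓.σ q w (ζ : Qb)))) =
        rl q.1 h.1 (𝔓.σ q w (ζ : Qb)) from (𝔓.σ q w).apply_symm_apply _] at this
    have h4 := padicEmbedding_localGaloisToGlobal (q.1 : ℕ)
      (glAut q.1 h.1) (𝔓.σ q w (ζ : Qb))
    rw [← h4]
    exact congrArg (padicEmbedding (q.1 : ℕ)) h3
  obtain ⟨m, hm, hmc⟩ := lockum_at (q := (q.1 : ℕ)) (p := p) (𝔓.Γw q w) ⟨F w, hΓ⟩ hζq hfix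
    (𝔓.res₂ q w a) β hβ0 hβlev (by
      intro g h
      have h1 := hβ g h
      simp only [Units.val_pow_eq_pow_val, map_pow] at h1
      exact h1)
  exact ⟨m, hm, hmc⟩

end Fermat.Agent.S55.CFT.GS.H78

end
end
-- ==== END Fermat.Agent.S55.CFT.GS.H78_LocKum
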