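-- GENERATED (merged mirror, NOTES/tools/trim/merge3_helper67.py): 7 modules of the originals, bodies verbatim.
import Fermat.Agent.Zm.S56_L07_000
import Fermat.Agent.Zm.S56_L09_002
import Fermat.Agent.Zm.S56_L09_000
import Fermat.Agent.Zm.S56_L04_002
import Fermat.Agent.Zm.S56_L09_004
import Fermat.Agent.Zm.S56_L01_002
import Fermat.Agent.Zm.S56_L08_001
import Fermat.Agent.Zm.S56_L03_002
import Fermat.Agent.Zm.S56_L01_001
import Fermat.Agent.Zm.S56_L05_001
import Fermat.Agent.S55.CFT.H24_InfRes2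
import Fermat.Agent.Zm.S56_L06_000

-- ==== BEGIN Fermat.Agent.S55.CFT.GS.H24_AsmHasse
section

set_option autoImplicit false
set_option linter.unusedSectionVars false
set_option linter.unusedVariables false
set_option linter.style.haveILetI false

open CategoryTheory Module groupCohomology ExtCitation

open scoped Pointwise

noncomputable section

namespace Fermat.Agent.S55.CFT.GS.H24

open Fermat.Agent.S55 Fermat.Agent.S55.Top Fermat.Agent.S55.CFT.GS

local notation "Qb" => AlgebraicClosure ℚ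

section zp

variable {p : ℕ} [Fact p.Prime] {S : Finset Nat.Primes} {K : IntermediateField ℚ Qb}

/-- `G_K` fixes the elements of `Kˣ`. -/
theorem smul_eq_of_mem_K {ζ : Qbˣ} (hζK : (ζ : Qb) ∈ K) (g : ↥K.fixingSubgroup) : g • ζ = ζ := by
  apply Units.ext
  have := g.2
  rw [IntermediateField.mem_fixingSubgroup_iff] at this
  exact this _ hζK

/-- The datum `(ζ^a, 1)`. -/
theorem pTorsData_zp (hK : K.IsUnramifiedOutside S) {ζ : Qbˣ} (hζK : (ζ : Qb) ∈ K)
    (hζ : IsPrimitiveRoot ζ p) {a : ↥K.fixingSubgroup × ↥K.fixingSubgroup → ZMod p}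
    (ha : IsZ2K S K a) :
    PTorsData S p K (fun t => ζ ^ (a t).val) (fun _ => 1) where
  levc := ha.2.comp (fun x : ZMod p => ζ ^ x.val)
  omc := fun t => by
    refine inOm_of_mem hK ?_
    rw [Units.val_pow_eq_pow_val]
    exact pow_mem hζK _
  coc := by
    rw [mTwo_zp hζ.pow_eq_one (smul_eq_of_mem_K hζK), ha.1]
    funext t
    simp
  levb := ⟨K, hK, fun _ _ _ => rfl⟩
  omb := fun _ => by simpa using inOm_one
  pow := fun t => by
    have e : (fun _ : ↥K.fixingSubgroup => (1 : Qbˣ)) = 1 := rfl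
    rw [e, mOne_one, Pi.one_apply]
    exact zp_pow_p hζ.pow_eq_one _

/-- The residues of `(ζ^a, 1)` vanish. -/
theorem resTrivAt_one (A : ValuationSubring Qb) (q : ℕ) :
    ResTrivAt p K A q (fun _ => 1) := by
  intro g _
  refine ⟨0, ?_⟩
  simp [OrdIs]

end zp

section loc

variable {p : ℕ} [Fact p.Prime] {S : Finset Nat.Primes} {K : IntermediateField ℚ Qb}
  (𝔓 : PlaceSys S K)

/-- `rl h ∘ σ_w = σ_w ∘ ρ_w h`. -/
theorem rl_sigma (q : ↥S) (w : 𝔓.W q) (h : 𝔓.Γw q w) (x : Qb) :
    rl q.1 h.1 (𝔓.σ q w x) = 𝔓.σ q w ((𝔓.ρw q w h : GQ) x) := by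
  have : ((𝔓.ρw q w h : ↥K.fixingSubgroup) : GQ) = (𝔓.σ q w)⁻¹ * rl q.1 h.1 * 𝔓.σ q w := rfl
  rw [this]
  simp [AlgEquiv.mul_apply]

/-- The local embedding `j_w = ι_q ∘ σ_w` of an element of `K` is fixed by `Γ_w`. -/
theorem glAut_jw_of_mem_K (q : ↥S) (w : 𝔓.W q) (h : 𝔓.Γw q w) {x : Qb} (hx : x ∈ K) :
    haveI : Fact ((q.1 : ℕ)).Prime := ⟨q.1.2⟩
    glAut q.1 (h : Gl q.1) (padicEmbedding (q.1 : ℕ) (𝔓.σ q w x)) =
      padicEmbedding (q.1 : ℕ) (𝔓.σ q w x) := by
  haveI : Fact ((q.1 : ℕ)).Prime := ⟨q.1.2⟩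
  have h1 := padicEmbedding_localGaloisToGlobal (q.1 : ℕ) (glAut q.1 (h : Gl q.1)) (𝔓.σ q w x)
  have h2 : localGaloisToGlobal (q.1 : ℕ) (glAut q.1 (h : Gl q.1)) (𝔓.σ q w x) =
      rl q.1 h.1 (𝔓.σ q w x) := rfl
  rw [← h1, h2, rl_sigma]
  have h3 := (𝔓.ρw q w h).2
  rw [IntermediateField.mem_fixingSubgroup_iff] at h3
  rw [h3 x hx]

/-- If `a` is locally a coboundary at `w`, then `ζ^a` is locally trivial at `w`. -/
theorem locTrivS_of_mem_B2w {ζ : Qbˣ} (hζK : (ζ : Qb) ∈ K) (hζ : IsPrimitiveRoot ζ p)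
    (a : ↥K.fixingSubgroup × ↥K.fixingSubgroup → ZMod p) (q : ↥S) (w : 𝔓.W q)
    (h : 𝔓.res₂ q w a ∈ B2w (ZMod p) 𝔓 q w) :
    LocTrivS 𝔓 q w (fun t => ζ ^ (a t).val) := by
  haveI : Fact ((q.1 : ℕ)).Prime := ⟨q.1.2⟩
  obtain ⟨g, hg, hga⟩ := h
  set ξ : PadicAlgCl (q.1 : ℕ) := padicEmbedding (q.1 : ℕ) (𝔓.σ q w (ζ : Qb)) with hξ
  have hξ1 : ξ ^ p = 1 := by
    rw [hξ, ← map_pow, ← map_pow, ← Units.val_pow_eq_pow_val, hζ.pow_eq_one]
    simp
  have hξ0 : ξ ≠ 0 := by
    intro h0
    rw [h0, zero_pow (Fact.out : p.Prime).ne_zero] at hξ1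
    exact zero_ne_one hξ1
  refine ⟨fun h => ξ ^ (g h).val, fun h => pow_ne_zero _ hξ0,
    hg.comp (fun x : ZMod p => ξ ^ x.val), ?_⟩
  intro h₁ h₂
  have e1 : a (𝔓.ρw q w h₁, 𝔓.ρw q w h₂) = g h₂ - g (h₁ * h₂) + g h₁ := by
    have := congrFun hga (h₁, h₂)
    simpa [PlaceSys.res₂, tOne] using this.symm
  have e2 : glAut q.1 (h₁ : Gl q.1) (ξ ^ (g h₂).val) = ξ ^ (g h₂).val := by
    rw [map_pow, hξ, glAut_jw_of_mem_K 𝔓 q w h₁ hζK]
  rw [e2]
  simp only [Units.val_pow_eq_pow_val, map_pow]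
  rw [← hξ, e1]
  -- units of the local field
  set ξu : (PadicAlgCl (q.1 : ℕ))ˣ := Units.mk0 ξ hξ0 with hξu
  have hξu1 : ξu ^ p = 1 := by
    apply Units.ext
    simpa [hξu] using hξ1
  have key : ξu ^ (g h₂ - g (h₁ * h₂) + g h₁).val * ξu ^ (g (h₁ * h₂)).val =
      ξu ^ (g h₂).val * ξu ^ (g h₁).val := by
    rw [zp_add hξu1, zp_sub hξu1]
    apply Additive.ofMul.injective
    simp only [ofMul_mul, ofMul_div]
    abel
  have := congrArg (fun u : (PadicAlgCl (q.1 : ℕ))ˣ => (u : PadicAlgCl (q.1 : ℕ))) key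
  simpa [hξu] using this

end loc

/-- **GS-AsmHasse.** -/
theorem asmHasse : Stmt_GS_AsmHasse := by
  intro hB p _ hp2 S hp K hK 𝔓 ζ hζK hζ a ha hloc
  obtain ⟨b', hb', hb'Ω, hcb⟩ := hB p hp2 S hp K hK 𝔓 _ _ (pTorsData_zp hK.1 hζK hζ ha)
    (fun q w => locTrivS_of_mem_B2w 𝔓 hζK hζ a q w (hloc q w))
    (fun q _ A _ => resTrivAt_one A q)
  exact ⟨b', hb', hb'Ω, fun g h => hcb (g, h)⟩

/-- **GS-AsmOne.** -/
theorem asmOne : Stmt_GS_AsmOne := by
  intro hB hLK p _ hp2 S hp K hK 𝔓 a ha q₀ w₀ hloc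
  have hpp : p.Prime := Fact.out
  obtain ⟨ζ₀, hζ₀K, hζ₀⟩ := hK.2
  have hζ₀0 : ζ₀ ≠ 0 := hζ₀.ne_zero hpp.ne_zero
  obtain ⟨ζ, rfl⟩ : ∃ ζ : Qbˣ, (ζ : Qb) = ζ₀ := ⟨Units.mk0 ζ₀ hζ₀0, rfl⟩
  have hζ : IsPrimitiveRoot ζ p := IsPrimitiveRoot.coe_units_iff.1 hζ₀
  refine hLK p hp2 S hp K hK 𝔓 ζ hζ₀K hζ a ha q₀ w₀ ?_
  exact hB p hp2 S hp K hK 𝔓 _ _ (pTorsData_zp hK.1 hζ₀K hζ ha) q₀ w₀
    (fun q w hne => locTrivS_of_mem_B2w 𝔓 hζ₀K hζ a q w (hloc q w hne))
    (fun q _ A _ => resTrivAt_one A q)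

end Fermat.Agent.S55.CFT.GS.H24

end

end
-- ==== END Fermat.Agent.S55.CFT.GS.H24_AsmHasse

-- ==== BEGIN Fermat.Agent.S55.CFT.GS.H31_H3G
section

/-!
# S55/E4 island GS, Layer A, leaf A-H3 (helper31)

`stmt_BrH3G_of : Stmt_BrH3 → GS.Stmt_BrH3G`: `p`-primary classes of `H³(Gal(L/K), Lˣ)` die in the
cyclotomic tower, `L/K` any finite Galois extension.

Route: `P` a Sylow `p`-subgroup of `Gal(L/K)`, `K' = L^P`.  `Stmt_BrH3` for the `p`-extension
`L/K'` gives `M₁` with `inf_{L → L(ζ_{p^{M₁}})} = 0` on `H³(Gal(L/K'), Lˣ)`.  For `M ≥ M₁` and a model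
`N` of `L(ζ_{p^M})` there is an `L`-embedding `L(ζ_{p^{M₁}}) → N`, and inflation is transitive, so
`inf_{L → N} = 0` on `H³(Gal(L/K'), Lˣ)`.  Now `res_{K → K'} ∘ inf = inf ∘ res_{K → K'}`, hence the
restriction of `inf x` to `Gal(N/K')` vanishes, hence `[K' : K] • inf x = cor (res (inf x)) = 0`
(helper58), and `[K' : K] = [G : P]` is prime to `p`.
-/

set_option autoImplicit false
set_option linter.unusedSectionVars false

open NumberField TensorProduct CategoryTheory groupCohomology IntermediateField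

noncomputable section

namespace Fermat.Agent.S55.CFT.GS.H31

open Fermat.Agent.S55.CFT

/-! ### Transitivity of inflation -/

section trans

variable (K L N₁ N : Type) [Field K] [Field L] [Field N₁] [Field N] [NumberField K]
  [NumberField L] [NumberField N₁] [NumberField N] [Algebra K L] [Algebra K N₁] [Algebra K N]
  [Algebra L N₁] [Algebra L N] [Algebra N₁ N] [IsScalarTower K L N₁] [IsScalarTower K L N]
  [IsScalarTower K N₁ N] [IsScalarTower L N₁ N] [Normal K L] [Normal K N₁]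

/-- Inflation is transitive. -/
theorem infL_infL (n : ℕ) (x : groupCohomology (repL K L) n) :
    infL K N₁ N n (infL K L N₁ n x) = infL K L N n x := by
  have h1 : groupCohomology.map (AlgEquiv.restrictNormalHom (F := K) (K₁ := N₁) L)
        (infRepL K L N₁) n ≫
      groupCohomology.map (AlgEquiv.restrictNormalHom (F := K) (K₁ := N) N₁)
        (infRepL K N₁ N) n =
      groupCohomology.map (AlgEquiv.restrictNormalHom (F := K) (K₁ := N) L)
        (infRepL K L N) n := by
    rw [← groupCohomology.map_comp]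
    apply groupCohomology.map_congr
    · exact (IsScalarTower.AlgEquiv.restrictNormalHom_comp K L N₁ N).symm
    · ext x
      apply congrArg Additive.ofMul
      apply Units.ext
      exact (IsScalarTower.algebraMap_apply L N₁ N _).symm
  exact congrArg (fun f => f.hom x) h1

end trans

section embed

variable (K L N₁ N : Type) [Field K] [Field L] [Field N₁] [Field N] [NumberField K]
  [NumberField L] [NumberField N₁] [NumberField N] [Algebra K L] [Algebra K N₁] [Algebra K N]
  [Algebra L N₁] [Algebra L N] [IsScalarTower K L N₁] [IsScalarTower K L N]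
  [Normal K L] [Normal K N₁]

/-- If a class dies in `N₁` and `N₁` embeds into `N` over `L`, then the class dies in `N`. -/
theorem infL_eq_zero_of_algHom (f : N₁ →ₐ[L] N) (n : ℕ) (x : groupCohomology (repL K L) n)
    (h : infL K L N₁ n x = 0) : infL K L N n x = 0 := by
  letI : Algebra N₁ N := f.toRingHom.toAlgebra
  haveI : IsScalarTower L N₁ N := IsScalarTower.of_algebraMap_eq (fun y => (f.commutes y).symm)
  haveI : IsScalarTower K N₁ N := IsScalarTower.of_algebraMap_eq (fun y => by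
    rw [IsScalarTower.algebraMap_apply K L N, IsScalarTower.algebraMap_apply K L N₁]
    exact (f.commutes _).symm)
  rw [← infL_infL K L N₁ N n x, h, map_zero]

end embed

/-! ### Restriction commutes with inflation -/

section resinf

variable (K K' L N : Type) [Field K] [Field K'] [Field L] [Field N] [NumberField K]
  [NumberField K'] [NumberField L] [NumberField N] [Algebra K K'] [Algebra K L] [Algebra K N]
  [Algebra K' L] [Algebra K' N] [Algebra L N] [IsScalarTower K K' L] [IsScalarTower K K' N]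
  [IsScalarTower K L N] [IsScalarTower K' L N] [Normal K L] [Normal K' L]

lemma restrictNormalHom_galRes (τ : N ≃ₐ[K'] N) :
    AlgEquiv.restrictNormalHom (F := K) (K₁ := N) L (galRes K K' N τ) =
      galRes K K' L (AlgEquiv.restrictNormalHom (F := K') (K₁ := N) L τ) := by
  ext y
  apply (algebraMap L N).injective
  have h1 := AlgEquiv.restrictNormal_commutes (galRes K K' N τ) L y
  have h2 := AlgEquiv.restrictNormal_commutes τ L y
  exact h1.trans h2.symm

/-- `res ∘ inf = inf ∘ res`. -/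
theorem resL_infL (n : ℕ) (x : groupCohomology (repL K L) n) :
    resL K K' N n (infL K L N n x) = infL K' L N n (resL K K' L n x) := by
  have h1 : groupCohomology.map (AlgEquiv.restrictNormalHom (F := K) (K₁ := N) L)
        (infRepL K L N) n ≫
      groupCohomology.map (galRes K K' N) (resRepL K K' N) n =
      groupCohomology.map (galRes K K' L) (resRepL K K' L) n ≫
      groupCohomology.map (AlgEquiv.restrictNormalHom (F := K') (K₁ := N) L)
        (infRepL K' L N) n := by
    rw [← groupCohomology.map_comp, ← groupCohomology.map_comp]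
    apply groupCohomology.map_congr
    · ext τ : 1
      exact restrictNormalHom_galRes K K' L N τ
    · rfl
  exact congrArg (fun f => f.hom x) h1

end resinf

/-! ### From `Gal(N/K')` to the subgroup of `Gal(N/K)` -/

section sub

variable (K K' N : Type) [Field K] [Field K'] [Field N] [NumberField K]
  [NumberField K'] [NumberField N] [Algebra K K'] [Algebra K N]
  [Algebra K' N] [IsScalarTower K K' N]

/-- The subgroup `Gal(N/K')` of `Gal(N/K)`. -/
def galSub : Subgroup (N ≃ₐ[K] N) := (galRes K K' N).range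

/-- `galSub → Gal(N/K')`. -/
def toGalSub : galSub K K' N →* (N ≃ₐ[K'] N) where
  toFun h :=
    { (h : N ≃ₐ[K] N).toRingEquiv with
      commutes' := fun x => by
        obtain ⟨s, hs⟩ := h.2
        change (h : N ≃ₐ[K] N) (algebraMap K' N x) = algebraMap K' N x
        rw [← hs]
        exact s.commutes x }
  map_one' := by
    ext x
    rfl
  map_mul' g h := by
    ext x
    rfl

lemma galRes_toGalSub (h : galSub K K' N) :
    galRes K K' N (toGalSub K K' N h) = (h : N ≃ₐ[K] N) := by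
  ext x
  rfl

/-- The identity of `Nˣ`, from the `Gal(N/K')`-module restricted to `galSub` to the
`Gal(N/K)`-module restricted to `galSub`. -/
def subRep : Rep.res (toGalSub K K' N) (repL K' N) ⟶ resSub (repL K N) (galSub K K' N) :=
  Rep.ofHom (LinearMap.intertwiningMap_of_isIntertwiningMap _ _
    ((MonoidHom.id Nˣ).toAdditive.toIntLinearMap)
    (fun _ _ => rfl))

/-- A class whose restriction to `Gal(N/K')` vanishes restricts to zero on `galSub`. -/
theorem resMap_eq_zero_of_resL' (n : ℕ)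
    (x : groupCohomology (repL K N) n) (hx : resL K K' N n x = 0) :
    resMap (repL K N) (galSub K K' N) n x = 0 := by
  have h1 : groupCohomology.map (galRes K K' N) (resRepL K K' N) n ≫
      groupCohomology.map (toGalSub K K' N) (subRep K K' N) n =
      groupCohomology.map (galSub K K' N).subtype (𝟙 (resSub (repL K N) (galSub K K' N))) n := by
    rw [← groupCohomology.map_comp]
    apply groupCohomology.map_congr
    · ext h x
      rfl
    · rfl
  have h2 := congrArg (fun f => f.hom x) h1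
  have h3 : (groupCohomology.map (toGalSub K K' N) (subRep K K' N) n).hom
      (resL K K' N n x) = resMap (repL K N) (galSub K K' N) n x := h2
  rw [← h3, hx, map_zero]

/-- The index of `Gal(N/K')` in `Gal(N/K)` is `[K' : K]`. -/
theorem index_galSub [IsGalois K N] : (galSub K K' N).index = Module.finrank K K' := by
  haveI : IsGalois K' N := IsGalois.tower_top_of_isGalois K K' N
  have hinj : Function.Injective (galRes K K' N) := by
    intro s t hst
    ext x
    exact congrArg (fun f : N ≃ₐ[K] N => f x) hst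
  have h1 : Nat.card (galSub K K' N) = Module.finrank K' N := by
    rw [← IsGalois.card_aut_eq_finrank K' N]
    exact (Nat.card_congr (Equiv.ofInjective _ hinj)).symm
  have h2 := (galSub K K' N).index_mul_card
  rw [h1, IsGalois.card_aut_eq_finrank K N, ← Module.finrank_mul_finrank K K' N] at h2
  have hpos : 0 < Module.finrank K' N := Module.finrank_pos
  exact Nat.eq_of_mul_eq_mul_right hpos h2

end sub

/-! ### The abstract step -/

section step

variable (p : ℕ) (K K' L N₁ N : Type) [Field K] [Field K'] [Field L] [Field N₁] [Field N]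
  [NumberField K] [NumberField K'] [NumberField L] [NumberField N₁] [NumberField N]
  [Algebra K K'] [Algebra K L] [Algebra K N] [Algebra K' L] [Algebra K' N₁] [Algebra K' N]
  [Algebra L N₁] [Algebra L N]
  [IsScalarTower K K' L] [IsScalarTower K K' N] [IsScalarTower K L N] [IsScalarTower K' L N]
  [IsScalarTower K' L N₁] [Normal K L] [Normal K' L] [Normal K' N₁] [IsGalois K N]

theorem brH3G_step (hp : p.Prime) (hidx : ¬ p ∣ Module.finrank K K')
    (h1 : ∀ x' : groupCohomology (repL K' L) 3, infL K' L N₁ 3 x' = 0)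
    (f : N₁ →ₐ[L] N) (k : ℕ) (x : groupCohomology (repL K L) 3) (hx : ((p : ℤ) ^ k) • x = 0) :
    infL K L N 3 x = 0 := by
  have h2 : resL K K' N 3 (infL K L N 3 x) = 0 := by
    rw [resL_infL]
    exact infL_eq_zero_of_algHom K' L N₁ N f 3 _ (h1 _)
  have h3 := resMap_eq_zero_of_resL' K K' N 3 _ h2
  obtain ⟨cor, hcor⟩ := Fermat.Agent.S55.CFT.H58.stmt_CorRes (N ≃ₐ[K] N) (repL K N)
    (galSub K K' N) 3
  have h4 : (galSub K K' N).index • infL K L N 3 x = 0 := by
    rw [← hcor, h3, map_zero]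
  rw [index_galSub] at h4
  have h5 : ((p : ℤ) ^ k) • infL K L N 3 x = 0 := by
    have h6 := congrArg (infL K L N 3) hx
    rw [map_zero] at h6
    rw [← h6]
    exact (map_zsmul (infL K L N 3) _ _).symm
  exact H72.eq_zero_of_index_of_pow p k _ hp hidx _ h5 h4

end step

/-! ### The embedding of cyclotomic extensions -/

section cyclo

open Polynomial

/-- A model of `L(ζ_{p^{M₁}})` embeds over `L` into every model of `L(ζ_{p^M})`, `M₁ ≤ M`. -/
theorem exists_algHom_cyclo (p M₁ M : ℕ) (hp : p.Prime) (hM : M₁ ≤ M) (L N₁ N : Type) [Field L]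
    [Field N₁] [Field N] [Algebra L N₁] [Algebra L N] [IsCyclotomicExtension {p ^ M₁} L N₁]
    [IsCyclotomicExtension {p ^ M} L N] : Nonempty (N₁ →ₐ[L] N) := by
  haveI : NeZero (p ^ M₁) := ⟨pow_ne_zero _ hp.ne_zero⟩
  haveI : NeZero (p ^ M) := ⟨pow_ne_zero _ hp.ne_zero⟩
  obtain ⟨ζ, hζ⟩ := IsCyclotomicExtension.exists_isPrimitiveRoot L N
    (Set.mem_singleton (p ^ M)) (pow_ne_zero _ hp.ne_zero)
  have hprod : p ^ M = p ^ (M - M₁) * p ^ M₁ := by
    rw [← pow_add, Nat.sub_add_cancel hM]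
  have hζ' : IsPrimitiveRoot (ζ ^ p ^ (M - M₁)) (p ^ M₁) :=
    hζ.pow (pow_pos hp.pos _) hprod
  haveI : IsSplittingField L N₁ (X ^ (p ^ M₁) - 1) :=
    IsCyclotomicExtension.isSplittingField_X_pow_sub_one (p ^ M₁) L N₁
  have hsplit : ((X ^ (p ^ M₁) - 1 : L[X]).map (algebraMap L N)).Splits := by
    have := X_pow_sub_one_splits hζ'
    simpa using this
  exact ⟨IsSplittingField.lift N₁ (X ^ (p ^ M₁) - 1 : L[X]) hsplit⟩

end cyclo

/-! ### The step for the model `CyclotomicField (p ^ M₁) L` -/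

section stepCyclo

variable (p M₁ M : ℕ) [NeZero (p ^ M₁)] (K K' L N : Type) [Field K] [Field K'] [Field L] [Field N]
  [NumberField K] [NumberField K'] [NumberField L] [NumberField N]
  [Algebra K K'] [Algebra K L] [Algebra K N] [Algebra K' L] [Algebra K' N] [Algebra L N]
  [IsScalarTower K K' L] [IsScalarTower K K' N] [IsScalarTower K L N] [IsScalarTower K' L N]
  [Normal K L] [Normal K' L] [IsGalois K N]

theorem brH3G_cyclo (hp : p.Prime) (hM : M₁ ≤ M) (hgal : IsGalois K' L)
    (hcyc : IsCyclotomicExtension {p ^ M} L N) (hidx : ¬ p ∣ Module.finrank K K')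
    (h1 : ∀ x' : groupCohomology (repL K' L) 3, infLCyc K' L p M₁ 3 x' = 0)
    (k : ℕ) (x : groupCohomology (repL K L) 3) (hx : ((p : ℤ) ^ k) • x = 0) :
    infL K L N 3 x = 0 := by
  haveI hgalN₁ : IsGalois K' (CyclotomicField (p ^ M₁) L) :=
    Fermat.Agent.S55.CFT.H56.isGalois_cyclo K' L (p ^ M₁)
  haveI : Normal K' (CyclotomicField (p ^ M₁) L) := hgalN₁.to_normal
  obtain ⟨f⟩ := exists_algHom_cyclo p M₁ M hp hM L (CyclotomicField (p ^ M₁) L) N
  exact brH3G_step p K K' L (CyclotomicField (p ^ M₁) L) N hp hidx h1 f k x hx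

end stepCyclo

/-! ### A-H3 -/

/-- **A-H3**: `p`-primary classes of `H³` die in the cyclotomic tower, general Galois. -/
theorem stmt_BrH3G_of (hH : Stmt_BrH3) : Stmt_BrH3G := by
  intro p K L _ _ _ _ _ hyp
  have : Fact p.Prime := ⟨hyp.prime⟩
  have := hyp.gal
  obtain ⟨P⟩ : Nonempty (Sylow p (L ≃ₐ[K] L)) := inferInstance
  have hdeg : Module.finrank ↥(fixedField (P : Subgroup (L ≃ₐ[K] L))) L =
      Nat.card (P : Subgroup (L ≃ₐ[K] L)) :=
    IntermediateField.finrank_fixedField_eq_card _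
  obtain ⟨m, hm⟩ := (IsPGroup.iff_card (p := p)).1 P.isPGroup'
  obtain ⟨ζ, hζ⟩ := hyp.zeta
  have hyp3 : Hyp3 ↥(fixedField (P : Subgroup (L ≃ₐ[K] L))) L p m :=
    ⟨hyp.prime, hyp.odd, ⟨algebraMap K _ ζ, hζ.map_of_injective (algebraMap K _).injective⟩,
      inferInstance, by rw [hdeg, hm]⟩
  obtain ⟨M₁, hne, hM₁⟩ := hH p m ↥(fixedField (P : Subgroup (L ≃ₐ[K] L))) L hyp3
  refine ⟨M₁, fun M hM N _ _ _ _ _ hgal hcyc k x hx => ?_⟩
  haveI hgalL : IsGalois ↥(fixedField (P : Subgroup (L ≃ₐ[K] L))) L := inferInstance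
  haveI : Normal ↥(fixedField (P : Subgroup (L ≃ₐ[K] L))) L := hgalL.to_normal
  have hidx : ¬ p ∣ Module.finrank K ↥(fixedField (P : Subgroup (L ≃ₐ[K] L))) := by
    have h1 := (P : Subgroup (L ≃ₐ[K] L)).index_mul_card
    rw [← hdeg, IsGalois.card_aut_eq_finrank K L,
      ← Module.finrank_mul_finrank K ↥(fixedField (P : Subgroup (L ≃ₐ[K] L))) L] at h1
    have hpos : 0 < Module.finrank ↥(fixedField (P : Subgroup (L ≃ₐ[K] L))) L := Module.finrank_pos
    rw [← Nat.eq_of_mul_eq_mul_right hpos h1]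
    exact P.not_dvd_index
  exact brH3G_cyclo p M₁ M K ↥(fixedField (P : Subgroup (L ≃ₐ[K] L))) L N hyp.prime hM hgalL hcyc
    hidx hM₁ k x hx

end Fermat.Agent.S55.CFT.GS.H31

end
end
-- ==== END Fermat.Agent.S55.CFT.GS.H31_H3G

-- ==== BEGIN Fermat.Agent.S55.CFT.GS.H80_Real3Abs
section

set_option autoImplicit false
set_option linter.unusedSectionVars false

open CategoryTheory groupCohomology

noncomputable section

namespace Fermat.Agent.S55.CFT.GS.H80

open Fermat.Agent.S55.CFT Fermat.Agent.S55.CFT.GS Fermat.Agent.S55.CFT.GS.Bri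

section dformulas

variable {G : Type} [Group G] (A : Rep.{0} ℤ G)

/-- Mathlib's `d³` of inhomogeneous cochains, written out. -/
lemma d3_apply (f : (Fin 3 → G) → A.V) (g : Fin 4 → G) :
    (inhomogeneousCochains.d A 3).hom f g =
      A.ρ (g 0) (f ![g 1, g 2, g 3]) - f ![g 0 * g 1, g 2, g 3] + f ![g 0, g 1 * g 2, g 3]
        - f ![g 0, g 1, g 2 * g 3] + f ![g 0, g 1, g 2] := by
  rw [inhomogeneousCochains.d_hom_apply]
  have e0 : (fun i : Fin 3 => g i.succ) = ![g 1, g 2, g 3] := by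
    funext k; fin_cases k <;> rfl
  have e1 : Fin.contractNth 0 (· * ·) g = ![g 0 * g 1, g 2, g 3] := by
    funext k; fin_cases k <;> simp [Fin.contractNth]
  have e2 : Fin.contractNth 1 (· * ·) g = ![g 0, g 1 * g 2, g 3] := by
    funext k; fin_cases k <;> simp [Fin.contractNth]
  have e3 : Fin.contractNth 2 (· * ·) g = ![g 0, g 1, g 2 * g 3] := by
    funext k; fin_cases k <;> simp [Fin.contractNth]
  have e4 : Fin.contractNth 3 (· * ·) g = ![g 0, g 1, g 2] := by
    funext k; fin_cases k <;> simp [Fin.contractNth]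
  rw [Fin.sum_univ_four, e0, e1, e2, e3, e4]
  have p1 : ((-1 : ℤ) ^ (((0 : Fin 4) : ℕ) + 1)) = -1 := by norm_num
  have p2 : ((-1 : ℤ) ^ (((1 : Fin 4) : ℕ) + 1)) = 1 := by norm_num
  have p3 : ((-1 : ℤ) ^ (((2 : Fin 4) : ℕ) + 1)) = -1 := by norm_num
  have p4 : ((-1 : ℤ) ^ (((3 : Fin 4) : ℕ) + 1)) = 1 := by norm_num
  have h1 := fun x : A.V =>
    @one_smul ℤ A.V _ (@Module.toDistribMulAction ℤ A.V _ _ A.hV2).toMulAction x
  rw [p1, p2, p3, p4, neg_one_smul, neg_one_smul, h1, h1]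
  simp only [sub_eq_add_neg, add_assoc]

/-- Mathlib's `d²` of inhomogeneous cochains, written out. -/
lemma d2_apply (f : (Fin 2 → G) → A.V) (g : Fin 3 → G) :
    (inhomogeneousCochains.d A 2).hom f g =
      A.ρ (g 0) (f ![g 1, g 2]) - f ![g 0 * g 1, g 2] + f ![g 0, g 1 * g 2]
        - f ![g 0, g 1] := by
  rw [inhomogeneousCochains.d_hom_apply]
  have e0 : (fun i : Fin 2 => g i.succ) = ![g 1, g 2] := by
    funext k; fin_cases k <;> rfl
  have e1 : Fin.contractNth 0 (· * ·) g = ![g 0 * g 1, g 2] := by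
    funext k; fin_cases k <;> simp [Fin.contractNth]
  have e2 : Fin.contractNth 1 (· * ·) g = ![g 0, g 1 * g 2] := by
    funext k; fin_cases k <;> simp [Fin.contractNth]
  have e3 : Fin.contractNth 2 (· * ·) g = ![g 0, g 1] := by
    funext k; fin_cases k <;> simp [Fin.contractNth]
  rw [Fin.sum_univ_three, e0, e1, e2, e3]
  have p1 : ((-1 : ℤ) ^ (((0 : Fin 3) : ℕ) + 1)) = -1 := by norm_num
  have p2 : ((-1 : ℤ) ^ (((1 : Fin 3) : ℕ) + 1)) = 1 := by norm_num
  have p3 : ((-1 : ℤ) ^ (((2 : Fin 3) : ℕ) + 1)) = -1 := by norm_num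
  have h1 := fun x : A.V =>
    @one_smul ℤ A.V _ (@Module.toDistribMulAction ℤ A.V _ _ A.hV2).toMulAction x
  rw [p1, p2, p3, neg_one_smul, neg_one_smul, h1]
  simp only [sub_eq_add_neg, add_assoc]

end dformulas

section infl

variable {G : Type} [Group G] {M : Type} [CommGroup M] [MulDistribMulAction G M]
  {Γ : Type} [Group Γ] {X : Type} [CommGroup X] [MulDistribMulAction Γ X]
  (ρ : Γ →* G) (ι : M →* X)

/-- Abstract inflation of an `n`-cochain along `ρ : Γ → G`, `ι : M → X`. -/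
def inflA (n : ℕ) (f : (Fin n → G) → (Rep.ofMulDistribMulAction G M : Rep.{0} ℤ G).V) :
    (Fin n → Γ) → X :=
  fun t => ι (Additive.toMul (f (fun i => ρ (t i))))

lemma inflA_apply (n : ℕ) (f : (Fin n → G) → (Rep.ofMulDistribMulAction G M : Rep.{0} ℤ G).V)
    (t : Fin n → Γ) :
    inflA ρ ι n f t = ι (Additive.toMul (f (fun i => ρ (t i)))) := rfl

lemma comp_vec2 (g₁ g₂ : Γ) : (fun i => ρ (![g₁, g₂] i)) = ![ρ g₁, ρ g₂] := by
  funext k; fin_cases k <;> rfl

lemma comp_vec3 (g₁ g₂ g₃ : Γ) : (fun i => ρ (![g₁, g₂, g₃] i)) = ![ρ g₁, ρ g₂, ρ g₃] := by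
  funext k; fin_cases k <;> rfl

lemma comp_vec4 (g₁ g₂ g₃ g₄ : Γ) :
    (fun i => ρ (![g₁, g₂, g₃, g₄] i)) = ![ρ g₁, ρ g₂, ρ g₃, ρ g₄] := by
  funext k; fin_cases k <;> rfl

omit [Group Γ] [CommGroup X] [MulDistribMulAction Γ X] in
lemma toMul_add_rep (a b : (Rep.ofMulDistribMulAction G M : Rep.{0} ℤ G).V) :
    (Additive.toMul : Additive M ≃ M) (a + b) =
      (Additive.toMul : Additive M ≃ M) a * (Additive.toMul : Additive M ≃ M) b := rfl

omit [Group Γ] [CommGroup X] [MulDistribMulAction Γ X] in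
lemma toMul_sub_rep (a b : (Rep.ofMulDistribMulAction G M : Rep.{0} ℤ G).V) :
    (Additive.toMul : Additive M ≃ M) (a - b) =
      (Additive.toMul : Additive M ≃ M) a / (Additive.toMul : Additive M ≃ M) b := rfl

omit [Group Γ] [CommGroup X] [MulDistribMulAction Γ X] in
lemma toMul_zero_rep :
    (Additive.toMul : Additive M ≃ M) (0 : (Rep.ofMulDistribMulAction G M : Rep.{0} ℤ G).V) = 1 :=
  rfl

omit [Group Γ] [CommGroup X] [MulDistribMulAction Γ X] in
lemma toMul_rho_rep (g : G) (a : (Rep.ofMulDistribMulAction G M : Rep.{0} ℤ G).V) :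
    (Additive.toMul : Additive M ≃ M) ((Rep.ofMulDistribMulAction G M : Rep.{0} ℤ G).ρ g a) =
      g • (Additive.toMul : Additive M ≃ M) a := rfl

variable {ρ ι}

/-- Inflation commutes with `d²`. -/
lemma inflA_d2 (hρι : ∀ γ m, ι (ρ γ • m) = γ • ι m)
    (f : (Fin 2 → G) → (Rep.ofMulDistribMulAction G M : Rep.{0} ℤ G).V) (g₁ g₂ g₃ : Γ) :
    inflA ρ ι 3 ((inhomogeneousCochains.d (Rep.ofMulDistribMulAction G M) 2).hom f)
        ![g₁, g₂, g₃] =
      mTwo (fun t : Γ × Γ => inflA ρ ι 2 f ![t.1, t.2]) (g₁, g₂, g₃) := by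
  simp only [inflA_apply, mTwo, comp_vec2, comp_vec3]
  rw [d2_apply]
  simp only [Matrix.cons_val_zero, Matrix.cons_val_one, Matrix.cons_val, ← map_mul]
  rw [← hρι, toMul_sub_rep, toMul_add_rep, toMul_sub_rep, toMul_rho_rep, map_div, map_mul,
    map_div]

/-- Inflation commutes with `d³`. -/
lemma inflA_d3 (hρι : ∀ γ m, ι (ρ γ • m) = γ • ι m)
    (f : (Fin 3 → G) → (Rep.ofMulDistribMulAction G M : Rep.{0} ℤ G).V) (g₁ g₂ g₃ g₄ : Γ) :
    inflA ρ ι 4 ((inhomogeneousCochains.d (Rep.ofMulDistribMulAction G M) 3).hom f)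
        ![g₁, g₂, g₃, g₄] =
      mThree (fun t : Γ × Γ × Γ => inflA ρ ι 3 f ![t.1, t.2.1, t.2.2]) (g₁, g₂, g₃, g₄) := by
  simp only [inflA_apply, mThree, comp_vec3, comp_vec4]
  rw [d3_apply]
  simp only [Matrix.cons_val_zero, Matrix.cons_val_one, Matrix.cons_val, ← map_mul]
  rw [← hρι, toMul_add_rep, toMul_sub_rep, toMul_add_rep, toMul_sub_rep, toMul_rho_rep, map_mul,
    map_div, map_mul, map_div]

/-- Inflation is injective on cochains. -/
lemma inflA_injective (hρ : Function.Surjective ρ) (hι : Function.Injective ι) (n : ℕ)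
    (f f' : (Fin n → G) → (Rep.ofMulDistribMulAction G M : Rep.{0} ℤ G).V)
    (h : ∀ t, inflA ρ ι n f t = inflA ρ ι n f' t) : f = f' := by
  funext u
  choose s hs using hρ
  have h1 := h (fun i => s (u i))
  simp only [inflA_apply, hs] at h1
  exact Additive.toMul.injective (hι h1)

/-- A cochain on `Γ` which is constant along the fibres of `ρ` and has values in the range of `ι`
is an inflation. -/
lemma exists_desc (hρ : Function.Surjective ρ) (n : ℕ) (c : (Fin n → Γ) → X)
    (hlev : ∀ t t' : Fin n → Γ, (∀ i, ρ (t i) = ρ (t' i)) → c t = c t')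
    (hval : ∀ t, c t ∈ Set.range ι) :
    ∃ f : (Fin n → G) → (Rep.ofMulDistribMulAction G M : Rep.{0} ℤ G).V,
      ∀ t, inflA ρ ι n f t = c t := by
  choose s hs using hρ
  choose m hm using hval
  refine ⟨fun u => (Additive.ofMul : M ≃ Additive M) (m (fun i => s (u i))), fun t => ?_⟩
  change ι (m _) = c t
  rw [hm]
  exact hlev _ _ (fun i => hs _)

end infl

section realA

variable {G : Type} [Group G] {M : Type} [CommGroup M] [MulDistribMulAction G M]
  {Γ : Type} [Group Γ] {X : Type} [CommGroup X] [MulDistribMulAction Γ X]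
  (ρ : Γ →* G) (ι : M →* X)

/-- Abstract realisation: the cochain `c` on `Γ` is the inflation of a cocycle with class `x`. -/
def RealA (n : ℕ) (c : (Fin n → Γ) → X)
    (x : groupCohomology (Rep.ofMulDistribMulAction G M : Rep.{0} ℤ G) n) : Prop :=
  ∃ z : cocycles (Rep.ofMulDistribMulAction G M : Rep.{0} ℤ G) n,
    (∀ t, inflA ρ ι n (iCocycles _ n z) t = c t) ∧ π _ n z = x

variable {ρ ι}

lemma iCocycles_injective (n : ℕ) :
    Function.Injective (iCocycles (Rep.ofMulDistribMulAction G M : Rep.{0} ℤ G) n) :=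
  (ModuleCat.mono_iff_injective _).1 inferInstance

/-- The class of a cochain is unique. -/
theorem realA_uniq (hρ : Function.Surjective ρ) (hι : Function.Injective ι) (n : ℕ)
    (c : (Fin n → Γ) → X) (x x' : groupCohomology (Rep.ofMulDistribMulAction G M : Rep.{0} ℤ G) n)
    (h : RealA ρ ι n c x) (h' : RealA ρ ι n c x') : x = x' := by
  obtain ⟨z, hz, rfl⟩ := h
  obtain ⟨z', hz', rfl⟩ := h'
  have : z = z' := by
    apply iCocycles_injective
    exact inflA_injective hρ hι n _ _ (fun t => (hz t).trans (hz' t).symm)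
  rw [this]

/-- Powers correspond to multiples. -/
theorem realA_pow (n : ℕ) (c : (Fin n → Γ) → X)
    (x : groupCohomology (Rep.ofMulDistribMulAction G M : Rep.{0} ℤ G) n)
    (h : RealA ρ ι n c x) (m : ℕ) : RealA ρ ι n (fun t => c t ^ m) ((m : ℤ) • x) := by
  obtain ⟨z, hz, rfl⟩ := h
  refine ⟨(m : ℤ) • z, fun t => ?_, map_zsmul (π _ n).hom _ _⟩
  have h1 : iCocycles _ n ((m : ℤ) • z) = (m : ℤ) • iCocycles _ n z :=
    map_zsmul (iCocycles _ n).hom _ _
  change _ = c t ^ m
  rw [← hz t, h1]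
  simp only [inflA_apply]
  rw [← map_pow, ← zpow_natCast]
  rfl

omit [MulDistribMulAction Γ X] in
lemma vec3_eta (t : Fin 3 → Γ) : ![t 0, t 1, t 2] = t := by
  funext k; fin_cases k <;> rfl

omit [MulDistribMulAction Γ X] in
lemma vec4_eta (t : Fin 4 → Γ) : ![t 0, t 1, t 2, t 3] = t := by
  funext k; fin_cases k <;> rfl

omit [MulDistribMulAction Γ X] in
lemma vec2_eta (t : Fin 2 → Γ) : ![t 0, t 1] = t := by
  funext k; fin_cases k <;> rfl

/-- Existence of the class of a level cocycle (degree 3). -/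
theorem realA_ex3 (hρ : Function.Surjective ρ) (hι : Function.Injective ι)
    (hρι : ∀ γ m, ι (ρ γ • m) = γ • ι m) (c : Γ × Γ × Γ → X)
    (hlev : ∀ t t' : Fin 3 → Γ, (∀ i, ρ (t i) = ρ (t' i)) →
      c (t 0, t 1, t 2) = c (t' 0, t' 1, t' 2))
    (hval : ∀ t, c t ∈ Set.range ι) (hc : mThree c = 1) :
    ∃ x, RealA ρ ι 3 (fun t => c (t 0, t 1, t 2)) x := by
  obtain ⟨f, hf⟩ := exists_desc (ρ := ρ) (ι := ι) hρ 3 (fun t => c (t 0, t 1, t 2)) hlev
    (fun t => hval _)
  have hd : (inhomogeneousCochains.d (Rep.ofMulDistribMulAction G M : Rep.{0} ℤ G) 3).hom f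
      = 0 := by
    apply inflA_injective hρ hι 4
    intro t
    have h1 := inflA_d3 hρι f (t 0) (t 1) (t 2) (t 3)
    rw [vec4_eta] at h1
    rw [h1]
    have h2 : (fun t : Γ × Γ × Γ => inflA ρ ι 3 f ![t.1, t.2.1, t.2.2]) = c := by
      funext u
      exact hf _
    rw [h2, hc]
    change (1 : X) = ι 1
    rw [map_one]
  refine ⟨π _ 3 (cocyclesMk f hd), cocyclesMk f hd, fun t => ?_, rfl⟩
  rw [iCocycles_mk]
  exact hf t

/-- Vanishing of the class (degree 3). -/
theorem realA_zero3 (hρ : Function.Surjective ρ) (hι : Function.Injective ι)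
    (hρι : ∀ γ m, ι (ρ γ • m) = γ • ι m) (c : Γ × Γ × Γ → X)
    (x : groupCohomology (Rep.ofMulDistribMulAction G M : Rep.{0} ℤ G) 3)
    (h : RealA ρ ι 3 (fun t => c (t 0, t 1, t 2)) x) :
    x = 0 ↔ ∃ y : Γ × Γ → X,
      (∀ t t' : Fin 2 → Γ, (∀ i, ρ (t i) = ρ (t' i)) → y (t 0, t 1) = y (t' 0, t' 1)) ∧
      (∀ t, y t ∈ Set.range ι) ∧ ∀ t, c t = mTwo y t := by
  obtain ⟨z, hz, rfl⟩ := h
  rw [H19.pi_eq_zero_iff]
  constructor
  · rintro ⟨u, hu⟩
    refine ⟨fun t => inflA ρ ι 2 u ![t.1, t.2], fun t t' htt' => ?_, fun t => ⟨_, rfl⟩,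
      fun t => ?_⟩
    · simp only [inflA_apply]
      congr 3
      funext k
      fin_cases k
      · exact htt' 0
      · exact htt' 1
    · obtain ⟨g₁, g₂, g₃⟩ := t
      rw [← inflA_d2 hρι u g₁ g₂ g₃]
      have h1 := hz ![g₁, g₂, g₃]
      simp only [Matrix.cons_val_zero, Matrix.cons_val_one, Matrix.cons_val] at h1
      rw [← h1]
      exact congrArg (fun f => inflA ρ ι 3 f ![g₁, g₂, g₃]) hu.symm
  · rintro ⟨y, hlev, hval, hy⟩
    obtain ⟨u, hu⟩ := exists_desc (ρ := ρ) (ι := ι) hρ 2 (fun t => y (t 0, t 1)) hlev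
      (fun t => hval _)
    refine ⟨u, ?_⟩
    apply inflA_injective hρ hι 3
    intro t
    rw [hz t]
    have h1 := inflA_d2 hρι u (t 0) (t 1) (t 2)
    rw [vec3_eta] at h1
    change inflA ρ ι 3 ((inhomogeneousCochains.d _ 2).hom u) t = c (t 0, t 1, t 2)
    rw [h1, hy]
    congr 1
    funext v
    exact hu _

end realA

section realInf

variable {G : Type} [Group G] {M : Type} [CommGroup M] [MulDistribMulAction G M]
  {G' : Type} [Group G'] {M' : Type} [CommGroup M'] [MulDistribMulAction G' M']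
  {Γ : Type} [Group Γ] {X : Type} [CommGroup X] [MulDistribMulAction Γ X]
  {ρ : Γ →* G} {ι : M →* X} {ρ' : Γ →* G'} {ι' : M' →* X}

/-- Inflation in a tower is invisible on the `Γ`-side. -/
theorem realA_inf (r : G' →* G) (j : M →* M')
    (φ : Rep.res r (Rep.ofMulDistribMulAction G M : Rep.{0} ℤ G) ⟶
      (Rep.ofMulDistribMulAction G' M' : Rep.{0} ℤ G'))
    (hφ : ∀ a : (Rep.ofMulDistribMulAction G M : Rep.{0} ℤ G).V,
      (Additive.toMul : Additive M' ≃ M') (φ.hom a) = j ((Additive.toMul : Additive M ≃ M) a))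
    (hρ : ∀ γ, r (ρ' γ) = ρ γ) (hι : ∀ m, ι' (j m) = ι m) (n : ℕ) (c : (Fin n → Γ) → X)
    (x : groupCohomology (Rep.ofMulDistribMulAction G M : Rep.{0} ℤ G) n)
    (h : RealA ρ ι n c x) : RealA ρ' ι' n c ((map r φ n).hom x) := by
  obtain ⟨z, hz, rfl⟩ := h
  refine ⟨cocyclesMap r φ n z, fun t => ?_, ?_⟩
  · have h1 : iCocycles _ n (cocyclesMap r φ n z) =
        ((cochainsMap r φ).f n).hom (iCocycles _ n z) :=
      congrArg (fun f => f.hom z) (HomologicalComplex.cyclesMap_i (cochainsMap r φ) n)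
    have h2 : ∀ (F : (Fin n → G) → (Rep.ofMulDistribMulAction G M : Rep.{0} ℤ G).V)
        (t' : Fin n → G'),
        ((cochainsMap r φ).f n).hom F t' = φ.hom (F (fun i => r (t' i))) := fun _ _ => rfl
    rw [h1, ← hz t]
    simp only [inflA_apply]
    rw [← hι, ← hφ, h2]
    simp only [hρ]
  · exact (congrArg (fun f => f.hom z) (π_map r φ n)).symm

end realInf

end Fermat.Agent.S55.CFT.GS.H80

end
end
-- ==== END Fermat.Agent.S55.CFT.GS.H80_Real3Abs

-- ==== BEGIN Fermat.Agent.S55.CFT.H12_ValExactFinal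
section

set_option autoImplicit false

namespace Fermat.Agent.S55.CFT.H12

/-- **VAL-a**: for admissible `T`, a class of `H²(G, Lˣ)` which is locally trivial at all places
outside `T` comes from `H²(G, O_{L,T}ˣ)`. -/
theorem stmt_ValExact : Stmt_ValExact :=
  stmt_ValExact_of H80.stmt_LocUnitGroup

end Fermat.Agent.S55.CFT.H12

end
-- ==== END Fermat.Agent.S55.CFT.H12_ValExactFinal

-- ==== BEGIN Fermat.Agent.S55.CFT.H13_CFindTr
section

set_option autoImplicit false
set_option linter.unusedSectionVars false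
open NumberField TensorProduct CategoryTheory CategoryTheory.Limits

noncomputable section
namespace Fermat.Agent.S55.CFT.H13

open Fermat.Agent.S55.CFT

attribute [local instance 1100] Rep.hV2

section Abstract

/-- Transport of cohomology along an isomorphism of pairs (group, module). -/
def transportIso {G H : Type} [Group G] [Group H] (e : G ≃* H)
    (A : Rep.{0} ℤ H) (B : Rep.{0} ℤ G) (Ψ : B ⟶ Rep.res e.toMonoidHom A)
    (hΨ : Function.Bijective Ψ.hom) (n : ℕ) :
    groupCohomology B n ≅ groupCohomology A n :=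
  groupCohomology.mapIso (A := A) (B := B) e
    (LinearEquiv.ofBijective Ψ.hom.toLinearMap hΨ)
    (fun g => LinearMap.ext fun c => Rep.hom_comm_apply Ψ g c) n

theorem subsingleton_of_iso {X Y : ModuleCat.{0} ℤ} (I : X ≅ Y) [Subsingleton Y] :
    Subsingleton X :=
  I.toLinearEquiv.toEquiv.subsingleton

theorem finite_of_iso {X Y : ModuleCat.{0} ℤ} (I : X ≅ Y) [Finite Y] : Finite X :=
  Finite.of_equiv _ I.toLinearEquiv.toEquiv.symm

theorem card_eq_of_iso {X Y : ModuleCat.{0} ℤ} (I : X ≅ Y) : Nat.card X = Nat.card Y :=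
  Nat.card_congr I.toLinearEquiv.toEquiv

end Abstract

section Sub
variable (F M L : Type) [Field F] [Field M] [Field L] [NumberField F] [NumberField M]
  [NumberField L] [Algebra F M] [Algebra M L] [Algebra F L] [IsScalarTower F M L]
  (T : Finset Nat.Primes) (H : Subgroup (L ≃ₐ[F] L)) (e : (L ≃ₐ[M] L) ≃* H)
  (he : ∀ σ : L ≃ₐ[M] L, ((e σ : H) : L ≃ₐ[F] L) = σ.restrictScalars F)

/-- `J_L → C_L`, from `Gal(L/M)`-modules to `H`-modules (`H ≅ Gal(L/M)`). -/
def subJ : repJ M L T ⟶ Rep.res e.toMonoidHom (resSub (repC F L T) H) :=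
  mkHomZ (A := repJ M L T) (B := Rep.res e.toMonoidHom (resSub (repC F L T) H))
    (H12.cokerAdd (diagRep F L T)) (fun σ j => by
      change H12.idClass F L T (σ • (Additive.toMul (j : Additive (IdeleT L T)) : IdeleT L T)) =
        (repC F L T).ρ ((e σ : H) : L ≃ₐ[F] L)
          (H12.idClass F L T (Additive.toMul (j : Additive (IdeleT L T)) : IdeleT L T))
      rw [he σ, ← H12.idClass_smul, smul_restrictScalars])

theorem diag_subJ : diagRep M L T ≫ subJ F M L T H e he = 0 := by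
  refine Rep.hom_ext (DFunLike.ext _ _ fun x => ?_)
  exact H12.idClass_diag F L T (Additive.toMul x)

/-- `C_L` as a `Gal(L/M)`-module → `C_L` as an `H`-module. -/
def subMap : repC M L T ⟶ Rep.res e.toMonoidHom (resSub (repC F L T) H) :=
  cokernel.desc (diagRep M L T) (subJ F M L T H e he) (diag_subJ F M L T H e he)

theorem subMap_idClass (j : IdeleT L T) :
    (subMap F M L T H e he).hom (H12.idClass M L T j) = H12.idClass F L T j := by
  have h := cokernel.π_desc (diagRep M L T) (subJ F M L T H e he) (diag_subJ F M L T H e he)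
  exact congrArg (fun f => f.hom (Additive.ofMul j : Additive (IdeleT L T))) h

theorem subMap_bijective : Function.Bijective (subMap F M L T H e he).hom := by
  constructor
  · intro c c' h
    obtain ⟨j, rfl⟩ := H12.idClass_surjective M L T c
    obtain ⟨j', rfl⟩ := H12.idClass_surjective M L T c'
    rw [subMap_idClass, subMap_idClass] at h
    exact (idClass_eq_iff_tower F M L T j j').1 h
  · intro b
    obtain ⟨j, rfl⟩ := H12.idClass_surjective F L T b
    exact ⟨H12.idClass M L T j, subMap_idClass F M L T H e he j⟩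

/-- `Hⁿ(Gal(L/M), C_L) ≅ Hⁿ(H, C_L)` for `H ≅ Gal(L/M)` inside `Gal(L/F)`. -/
def subIso (n : ℕ) :
    groupCohomology (repC M L T) n ≅ groupCohomology (resSub (repC F L T) H) n :=
  transportIso e (resSub (repC F L T) H) (repC M L T) (subMap F M L T H e he)
    (subMap_bijective F M L T H e he) n

end Sub

section Quot
variable (K L N : Type) [Field K] [Field L] [Field N] [NumberField K] [NumberField L]
  [NumberField N] [Algebra K L] [Algebra L N] [Algebra K N] [IsScalarTower K L N]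
  (T : Finset Nat.Primes) [IsGalois K L] [IsGalois K N]

/-- `Hⁿ(Gal(L/K), C_L) ≅ Hⁿ(Gal(N/K)/Gal(N/L), (C_N)^{Gal(N/L)})`. -/
def quotIso [IsGalois L N] (hunr : UnramifiedOutsideT L N T)
    (hcl : ClTrivial L T) (hT : T.Nonempty) (n : ℕ) :
    groupCohomology (repC K L T) n ≅ groupCohomology (quotC K L N T) n :=
  transportIso (galQuot K L N) (quotC K L N T) (repC K L T)
    (clsMap K L N T) ⟨clsMap_injective K L N T hT, clsMap_surjective K L N T hunr hcl hT⟩ n

end Quot

end Fermat.Agent.S55.CFT.H13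

end
end
-- ==== END Fermat.Agent.S55.CFT.H13_CFindTr

-- ==== BEGIN Fermat.Agent.S55.CFT.H13_Fund
section

set_option autoImplicit false
set_option linter.unusedSectionVars false
set_option linter.style.haveILetI false
open NumberField TensorProduct CategoryTheory CategoryTheory.Limits

noncomputable section
namespace Fermat.Agent.S55.CFT.H13

open Fermat.Agent.S55.CFT

section Setup
variable (K L N : Type) [Field K] [Field L] [Field N] [NumberField K] [NumberField L]
  [NumberField N] [Algebra K L] [Algebra L N] [Algebra K N] [IsScalarTower K L N]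

/-- `Gal(N/L) ∩ Gal(N/K(ζ)) = 1` when `N = L(ζ)`. -/
theorem kerRes_inf_eq_bot (n : ℕ) [NeZero n] [IsCyclotomicExtension {n} L N] [Normal K L]
    {ζ : N} (hζ : IsPrimitiveRoot ζ n) (F : IntermediateField K N) [Normal K F] (hF : ζ ∈ F) :
    kerRes K L N ⊓ kerRes K F N = ⊥ := by
  rw [Subgroup.eq_bot_iff_forall]
  intro σ hσ
  obtain ⟨h1, h2⟩ := Subgroup.mem_inf.1 hσ
  have hσζ : σ ζ = ζ := (mem_kerRes_iff K F N σ).1 h2 ⟨ζ, hF⟩
  set σ' : N ≃ₐ[L] N := (kerResEquiv K L N).symm ⟨σ, h1⟩ with hσ'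
  have hσ'x : ∀ x : N, σ' x = σ x := fun x => rfl
  have htop := IsCyclotomicExtension.adjoin_primitive_root_eq_top (A := L) (B := N) hζ
  have heq : (σ' : N →ₐ[L] N) = AlgHom.id L N := by
    apply AlgHom.ext_of_adjoin_eq_top htop
    intro x hx
    rw [Set.mem_singleton_iff] at hx
    subst hx
    exact hσζ
  apply AlgEquiv.ext
  intro x
  have := congrArg (fun f : N →ₐ[L] N => f x) heq
  exact this

/-- `Gal(N/K)/Gal(N/K(ζ))` is cyclic. -/
theorem isCyclic_quot_kerRes (p M : ℕ) [NeZero (p ^ M)] (hp : p.Prime) (hodd : p ≠ 2)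
    [IsGalois K N] {ζ : N} (hζ : IsPrimitiveRoot ζ (p ^ M)) :
    haveI : IsCyclotomicExtension {p ^ M} K ↥(IntermediateField.adjoin K {ζ}) :=
      hζ.intermediateField_adjoin_isCyclotomicExtension K
    haveI : IsGalois K ↥(IntermediateField.adjoin K {ζ}) :=
      IsCyclotomicExtension.isGalois {p ^ M} K _
    IsCyclic ((N ≃ₐ[K] N) ⧸ kerRes K ↥(IntermediateField.adjoin K {ζ}) N) := by
  haveI : IsCyclotomicExtension {p ^ M} K ↥(IntermediateField.adjoin K {ζ}) :=
    hζ.intermediateField_adjoin_isCyclotomicExtension K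
  haveI : IsGalois K ↥(IntermediateField.adjoin K {ζ}) :=
    IsCyclotomicExtension.isGalois {p ^ M} K _
  haveI : IsCyclic (ZMod (p ^ M))ˣ := ZMod.isCyclic_units_of_prime_pow p hp hodd M
  have hmem : ζ ∈ IntermediateField.adjoin K {ζ} :=
    IntermediateField.mem_adjoin_simple_self K ζ
  have hζ' : IsPrimitiveRoot (⟨ζ, hmem⟩ : ↥(IntermediateField.adjoin K {ζ})) (p ^ M) := by
    have : IsPrimitiveRoot (algebraMap ↥(IntermediateField.adjoin K {ζ}) N ⟨ζ, hmem⟩) (p ^ M) := hζ
    exact this.of_map_of_injective (algebraMap ↥(IntermediateField.adjoin K {ζ}) N).injective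
  haveI : IsCyclic (↥(IntermediateField.adjoin K {ζ}) ≃ₐ[K] ↥(IntermediateField.adjoin K {ζ})) :=
    isCyclic_of_injective (hζ'.autToPow K) (hζ'.autToPow_injective K)
  exact (quotKerRes K ↥(IntermediateField.adjoin K {ζ}) N).isCyclic.2 inferInstance

/-- `[N : K]` is a power of `p`. -/
theorem finrank_tower_prime_pow (p m M : ℕ) [NeZero (p ^ M)] (hp : p.Prime)
    [IsCyclotomicExtension {p ^ M} L N] (hz : ∃ ζ : K, IsPrimitiveRoot ζ p)
    (hdeg : Module.finrank K L = p ^ m) :
    ∃ m' : ℕ, Module.finrank K N = p ^ m' := by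
  haveI : Fact p.Prime := ⟨hp⟩
  haveI : IsGalois L N := IsCyclotomicExtension.isGalois {p ^ M} L N
  have hzL : ∃ ζ : L, IsPrimitiveRoot ζ p := by
    obtain ⟨z, hz⟩ := hz
    exact ⟨algebraMap K L z, hz.map_of_injective (algebraMap K L).injective⟩
  have hpg := isPGroup_gal_cyclotomic L N p M hp hzL
  obtain ⟨k, hk⟩ := IsPGroup.iff_card.1 hpg
  rw [IsGalois.card_aut_eq_finrank] at hk
  refine ⟨m + k, ?_⟩
  rw [← Module.finrank_mul_finrank K L N, hdeg, hk, pow_add]

end Setup

attribute [local instance 1100] Rep.hV2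

section Main
variable (K L N : Type) [Field K] [Field L] [Field N] [NumberField K] [NumberField L]
  [NumberField N] [Algebra K L] [Algebra L N] [Algebra K N] [IsScalarTower K L N]

/-- **FUND**, for a model `N` of `L(ζ_{p^M})` and an idele `x` of `K` whose cyclotomic symbol has
order `p ^ m = [L : K]`. -/
theorem fund_of_tower (hCF : Stmt_CFind) (hCyc : Stmt_CycRec) (hTN : Stmt_ThetaNorm)
    (p : Nat.Primes) (m M : ℕ) [NeZero ((p : ℕ) ^ M)] [IsCyclotomicExtension {(p : ℕ) ^ M} L N]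
    (T : Finset Nat.Primes)
    (hodd : (p : ℕ) ≠ 2) (hz : ∃ ζ : K, IsPrimitiveRoot ζ (p : ℕ))
    (hdeg : Module.finrank K L = (p : ℕ) ^ m)
    (hadm : Admissible K L T p) (hadmN : Admissible K N T p)
    (x : IdeleT K T) (hx : orderOf (cycloTheta K p M T x) = (p : ℕ) ^ m) :
    ∃ γ : groupCohomology (repC K L T) 2, ∀ k : ℕ, k • γ = 0 → (p : ℕ) ^ m ∣ k := by
  classical
  have hp : (p : ℕ).Prime := p.2
  haveI : IsGalois K L := hadm.gal
  haveI : IsGalois K N := hadmN.gal
  haveI : IsGalois L N := IsGalois.tower_top_of_isGalois K L N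
  obtain ⟨ζ, hζ⟩ : ∃ ζ : N, IsPrimitiveRoot ζ ((p : ℕ) ^ M) :=
    ⟨_, IsCyclotomicExtension.zeta_spec ((p : ℕ) ^ M) L N⟩
  haveI hcycK : IsCyclotomicExtension {(p : ℕ) ^ M} K ↥(IntermediateField.adjoin K {ζ}) :=
    hζ.intermediateField_adjoin_isCyclotomicExtension K
  haveI : IsGalois K ↥(IntermediateField.adjoin K {ζ}) :=
    IsCyclotomicExtension.isGalois {(p : ℕ) ^ M} K _
  haveI : IsGalois ↥(IntermediateField.adjoin K {ζ}) N :=
    IsGalois.tower_top_of_isGalois K ↥(IntermediateField.adjoin K {ζ}) N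
  have hmem : ζ ∈ IntermediateField.adjoin K {ζ} :=
    IntermediateField.mem_adjoin_simple_self K ζ
  have hζ' : IsPrimitiveRoot (⟨ζ, hmem⟩ : ↥(IntermediateField.adjoin K {ζ})) ((p : ℕ) ^ M) := by
    have : IsPrimitiveRoot (algebraMap ↥(IntermediateField.adjoin K {ζ}) N ⟨ζ, hmem⟩)
        ((p : ℕ) ^ M) := hζ
    exact this.of_map_of_injective (algebraMap ↥(IntermediateField.adjoin K {ζ}) N).injective
  -- admissibility
  have hadmL : Admissible L N T p := H56.admissible_up K L N T p hadmN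
  have hadmF : Admissible ↥(IntermediateField.adjoin K {ζ}) N T p :=
    H56.admissible_up K ↥(IntermediateField.adjoin K {ζ}) N T p hadmN
  obtain ⟨q, hqT, hqp⟩ := hadm.pmem
  have hq : q = p := Subtype.ext hqp
  rw [hq] at hqT
  have hT : T.Nonempty := ⟨_, hqT⟩
  -- the symbol
  have hθu : ∀ e ∈ TUnits K T, H56.cycloThetaHom K p M T (diagIdele K T e) = 1 :=
    H56.stmt_ThetaUnits p M K T hqT hadm.cplx
  have hθn : ∀ w : IdeleT ↥(IntermediateField.adjoin K {ζ}) T,
      H56.cycloThetaHom K p M T (normLK K ↥(IntermediateField.adjoin K {ζ}) T w) = 1 := by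
    intro w
    exact (H56.cycloTheta_normLK K ↥(IntermediateField.adjoin K {ζ}) p M T w).trans
      (hTN p M ↥(IntermediateField.adjoin K {ζ}) T hodd ⟨_, hζ'⟩ w)
  -- the groups
  have hcyc : IsCyclic ((N ≃ₐ[K] N) ⧸ kerRes K ↥(IntermediateField.adjoin K {ζ}) N) :=
    isCyclic_quot_kerRes K N p M hp hodd hζ
  have hint : kerRes K L N ⊓ kerRes K ↥(IntermediateField.adjoin K {ζ}) N = ⊥ :=
    kerRes_inf_eq_bot K L N ((p : ℕ) ^ M) hζ _ hmem
  obtain ⟨m', hm'⟩ := finrank_tower_prime_pow K L N p m M hp hz hdeg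
  have hS := (hCF p m' K N T hp hm' hadmN (kerRes K L N)).1
  have hS' := (hCF p m' K N T hp hm' hadmN (kerRes K ↥(IntermediateField.adjoin K {ζ}) N)).1
  -- the class
  have ha : ∀ g : N ≃ₐ[K] N, (repC K N T).ρ g (H12.idClass K N T (baseIdele K N T x)) =
      H12.idClass K N T (baseIdele K N T x) := by
    intro g
    rw [← H12.idClass_smul, H12.smul_baseIdele]
  letI : Fintype ((N ≃ₐ[K] N) ⧸ kerRes K ↥(IntermediateField.adjoin K {ζ}) N) :=
    Fintype.ofFinite _
  letI : Fintype (kerRes K L N) := Fintype.ofFinite _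
  have h1 : ∀ k : ℕ, (∃ b : ((repC K N T).quotientToInvariants
        (kerRes K ↥(IntermediateField.adjoin K {ζ}) N)).V,
      k • H12.idClass K N T (baseIdele K N T x) =
        ((∑ y : (N ≃ₐ[K] N) ⧸ kerRes K ↥(IntermediateField.adjoin K {ζ}) N,
          ((repC K N T).quotientToInvariants
            (kerRes K ↥(IntermediateField.adjoin K {ζ}) N)).ρ y b :
          ((repC K N T).quotientToInvariants
            (kerRes K ↥(IntermediateField.adjoin K {ζ}) N)).V) : (repC K N T).V)) →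
      (p : ℕ) ^ m ∣ k := by
    rintro k ⟨b, hb⟩
    have h := symbol_pow_eq_one_of_norm K ↥(IntermediateField.adjoin K {ζ}) N T hadmF.unr
      (hadmF.cl _) hT (H56.cycloThetaHom K p M T) hθu hθn x k b hb
    rw [← hx]
    exact orderOf_dvd_of_pow_eq_one h
  have h2 : ∃ b : (repC K N T).V, H12.idClass K N T (baseIdele K N T x) =
      ∑ s : kerRes K L N, (repC K N T).ρ (s : N ≃ₐ[K] N) b := by
    apply class_eq_norm_of_mem_normGroup K L N T hT x
    refine (hCyc p M L N T hodd inferInstance hadmL _).2 ?_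
    rw [H56.cycloTheta_base K L p M T x, hdeg, ← hx]
    exact pow_orderOf_eq_one _
  have hfund := fund_abstract (repC K N T) (kerRes K L N)
    (kerRes K ↥(IntermediateField.adjoin K {ζ}) N) hcyc hint hS hS'
    (H12.idClass K N T (baseIdele K N T x)) ha ((p : ℕ) ^ m) h1 h2
  exact exists_class_transport K L N T hadmL.unr (hadmL.cl L) hT ((p : ℕ) ^ m) hfund

end Main

/-- **FUND** (`Stmt_FundExists`) from CF-ind, CYC and TH-2. -/
theorem stmt_FundExists_of (hCF : Stmt_CFind) (hCyc : Stmt_CycRec) (hTN : Stmt_ThetaNorm) :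
    Stmt_FundExists := by
  intro p m M _ K L _ _ _ _ _ T hyp
  have hp := hyp.prime
  have hd : Module.finrank K (CyclotomicField (p ^ M) K) ≤
      Nat.card (Set.range (H56.cycloThetaHom K ⟨p, hp⟩ M T)) :=
    H56.stmt_ThetaOnto ⟨p, hp⟩ M K (CyclotomicField (p ^ M) K) T hyp.odd inferInstance
      hyp.admCycK
  obtain ⟨x, hx⟩ := exists_orderOf_eq_prime_pow p M m hp hyp.odd
    (H56.cycloThetaHom K ⟨p, hp⟩ M T) _ hd hyp.big Module.finrank_pos.ne'
  exact fund_of_tower K L (CyclotomicField (p ^ M) L) hCF hCyc hTN ⟨p, hp⟩ m M T hyp.odd hyp.zeta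
    hyp.deg hyp.adm hyp.admCyc x hx

end Fermat.Agent.S55.CFT.H13

end
end
-- ==== END Fermat.Agent.S55.CFT.H13_Fund

-- ==== BEGIN Fermat.Agent.S55.CFT.H13_H3UInf
section

set_option autoImplicit false
set_option linter.unusedSectionVars false
set_option linter.style.haveILetI false
open NumberField TensorProduct CategoryTheory CategoryTheory.Limits

noncomputable section
namespace Fermat.Agent.S55.CFT.H13

open Fermat.Agent.S55.CFT

section Generic

variable {k G H Γ : Type} [CommRing k] [Group G] [Group H] [Group Γ]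

/-- The inverse of `mapIso` followed by a map to a third pair. -/
theorem map_mapIso_inv (e : G ≃* H) (A : Rep.{0} k H) (B : Rep.{0} k G) (E : B.V ≃ₗ[k] A.V)
    (hE : ∀ g, E.toLinearMap ∘ₗ B.ρ g = A.ρ (e g) ∘ₗ E.toLinearMap)
    (C : Rep.{0} k Γ) (q : Γ →* H) (ι : Rep.res q A ⟶ C) (f : Γ →* G) (φ : Rep.res f B ⟶ C)
    (hq : ∀ σ, e (f σ) = q σ) (hι : ∀ b : B.V, ι.hom (E b) = φ.hom b) (n : ℕ)
    (γ : groupCohomology A n) :
    (groupCohomology.map f φ n).hom
        ((groupCohomology.mapIso (A := A) (B := B) e E hE n).inv.hom γ) =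
      (groupCohomology.map q ι n).hom γ := by
  obtain ⟨Ψi, hΨi⟩ : ∃ Ψi : Rep.res e.toMonoidHom A ⟶ B,
      (groupCohomology.mapIso (A := A) (B := B) e E hE n).inv =
        groupCohomology.map e.toMonoidHom Ψi n ∧ ∀ a : A.V, Ψi.hom a = E.symm a :=
    ⟨_, rfl, fun a => rfl⟩
  rw [hΨi.1]
  have hcomp := groupCohomology.map_comp (A := A) (B := B) (C := C) e.toMonoidHom f Ψi φ n
  have hcongr : groupCohomology.map (e.toMonoidHom.comp f)
      ((Rep.resFunctor f).map Ψi ≫ φ) n = groupCohomology.map q ι n := by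
    have hfg : e.toMonoidHom.comp f = q := MonoidHom.ext hq
    have hlin : ((Rep.resFunctor f).map Ψi ≫ φ).hom.toLinearMap = ι.hom.toLinearMap := by
      refine LinearMap.ext fun a => ?_
      change φ.hom (Ψi.hom a) = ι.hom a
      rw [← hι, hΨi.2, E.apply_symm_apply]
    exact groupCohomology.map_congr (A := A) (B := C) (f := e.toMonoidHom.comp f) (g := q)
      (φ := (Rep.resFunctor f).map Ψi ≫ φ) (ψ := ι) hfg hlin n
  exact congrArg (fun m => m.hom γ) (hcomp.symm.trans hcongr)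

/-- The inclusion `A^S → A` as a morphism of representations of `Γ`. -/
def infIncl (C : Rep.{0} k Γ) (S : Subgroup Γ) [S.Normal] :
    Rep.res (QuotientGroup.mk' S) (C.quotientToInvariants S) ⟶ C :=
  Rep.ofHom <| C.ρ.quotientToInvariants_lift S

theorem infIncl_apply (C : Rep.{0} k Γ) (S : Subgroup Γ) [S.Normal]
    (b : (C.quotientToInvariants S).V) : (infIncl C S).hom b = (b : C.V) := rfl

theorem inf₂_eq_map_infIncl (C : Rep.{0} k Γ) (S : Subgroup Γ) [S.Normal] :
    H24.inf₂ C S = groupCohomology.map (QuotientGroup.mk' S) (infIncl C S) 2 := rfl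

end Generic

attribute [local instance 1100] Rep.hV2

section Abstract

/-- Transport of a class of full order along an isomorphism of pairs (group, module), with the
compatibility of the transported class with maps to a third pair. -/
theorem exists_class_transport_abstract_lift {G H : Type} [Group G] [Group H] (e : G ≃* H)
    (A : Rep.{0} ℤ H) (B : Rep.{0} ℤ G) (Ψ : B ⟶ Rep.res e.toMonoidHom A)
    (hΨ : Function.Bijective Ψ.hom) (P : ℕ)
    (γ : groupCohomology A 2) (hγ : ∀ k : ℕ, k • γ = 0 → P ∣ k) :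
    ∃ γ₀ : groupCohomology B 2, (∀ k : ℕ, k • γ₀ = 0 → P ∣ k) ∧
      ∀ {Γ : Type} [Group Γ] (C : Rep.{0} ℤ Γ) (q : Γ →* H) (ι : Rep.res q A ⟶ C)
        (f : Γ →* G) (φ : Rep.res f B ⟶ C), (∀ σ, e (f σ) = q σ) →
        (∀ b : B.V, ι.hom (Ψ.hom b) = φ.hom b) →
        (groupCohomology.map f φ 2).hom γ₀ = (groupCohomology.map q ι 2).hom γ := by
  obtain ⟨E, hE⟩ : ∃ E : B.V ≃ₗ[ℤ] A.V, ∀ b, E b = Ψ.hom b :=
    ⟨LinearEquiv.ofBijective Ψ.hom.toLinearMap hΨ, fun b => rfl⟩
  have hEcomm : ∀ g, E.toLinearMap ∘ₗ B.ρ g = A.ρ (e g) ∘ₗ E.toLinearMap := by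
    intro g
    refine LinearMap.ext fun c => ?_
    change E (B.ρ g c) = A.ρ (e g) (E c)
    rw [hE, hE]
    exact Rep.hom_comm_apply Ψ g c
  obtain ⟨I, hI⟩ : ∃ I : groupCohomology B 2 ≅ groupCohomology A 2, I =
      groupCohomology.mapIso (A := A) (B := B) e E hEcomm 2 := ⟨_, rfl⟩
  refine ⟨I.inv.hom γ, ?_, ?_⟩
  · intro k hk
    apply hγ k
    have h1 := congrArg I.hom.hom hk
    rw [map_nsmul, map_zero] at h1
    have h2 : I.hom.hom (I.inv.hom γ) = γ := by
      have := I.inv_hom_id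
      exact congrArg (fun f => f.hom γ) this
    rw [h2] at h1
    exact h1
  · intro Γ _ C q ι f φ hq hι
    rw [hI]
    exact map_mapIso_inv e A B E hEcomm C q ι f φ hq (fun b => by rw [hE]; exact hι b) 2 γ

end Abstract

section Inf
variable (K L N : Type) [Field K] [Field L] [Field N] [NumberField K] [NumberField L]
  [NumberField N] [Algebra K L] [Algebra L N] [Algebra K N] [IsScalarTower K L N]
  (T : Finset Nat.Primes)

/-- Inflation `J_{L,T} → J_{N,T}` as a morphism of `Gal(N/K)`-modules. -/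
def infRepJ [Normal K L] :
    Rep.res (AlgEquiv.restrictNormalHom (F := K) (K₁ := N) L) (repJ K L T) ⟶ repJ K N T :=
  Rep.ofHom (LinearMap.intertwiningMap_of_isIntertwiningMap _ _
    ((baseIdele L N T).toAdditive.toIntLinearMap)
    (fun τ x => congrArg Additive.ofMul
      (smul_baseIdele_tower K L N T τ (Additive.toMul x : IdeleT L T)).symm))

theorem infRepJ_apply [Normal K L] (j : Additive (IdeleT L T)) :
    (infRepJ K L N T).hom j =
      Additive.ofMul (baseIdele L N T (Additive.toMul j : IdeleT L T)) := rfl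

variable [IsGalois K L] [IsGalois K N]

/-- The additive map `C_{L,T} → C_{N,T}`. -/
def infCAdd : (repC K L T).V →+ (repC K N T).V where
  toFun c := (((clsMap K L N T).hom c : (quotC K L N T).V) : (repC K N T).V)
  map_zero' := by rw [map_zero]; rfl
  map_add' x y := by rw [map_add]; rfl

theorem infCAdd_idClass (j : IdeleT L T) :
    infCAdd K L N T (H12.idClass K L T j) = H12.idClass K N T (baseIdele L N T j) :=
  clsMap_idClass K L N T j

/-- Inflation `C_{L,T} → C_{N,T}` as a morphism of `Gal(N/K)`-modules. -/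
def infRepC :
    Rep.res (AlgEquiv.restrictNormalHom (F := K) (K₁ := N) L) (repC K L T) ⟶ repC K N T :=
  mkHomZ (A := Rep.res (AlgEquiv.restrictNormalHom (F := K) (K₁ := N) L) (repC K L T))
    (B := repC K N T) (infCAdd K L N T) (fun σ c => by
      obtain ⟨j, rfl⟩ := H12.idClass_surjective K L T c
      rw [Rep.coe_res_obj_ρ', ← H12.idClass_smul, infCAdd_idClass, infCAdd_idClass,
        ← smul_baseIdele_tower, H12.idClass_smul])

theorem infRepC_idClass (j : IdeleT L T) :
    (infRepC K L N T).hom (H12.idClass K L T j) = H12.idClass K N T (baseIdele L N T j) :=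
  infCAdd_idClass K L N T j

theorem infRepC_eq_clsMap (c : (repC K L T).V) :
    (infRepC K L N T).hom c = (((clsMap K L N T).hom c : (quotC K L N T).V) : (repC K N T).V) :=
  rfl

/-- The square `E → J` commutes with inflation. -/
theorem infRep_sq12 :
    (Rep.resFunctor (AlgEquiv.restrictNormalHom (F := K) (K₁ := N) L)).map (diagRep K L T) ≫
      infRepJ K L N T = infRepE K L N T ≫ diagRep K N T := by
  refine Rep.hom_ext (DFunLike.ext _ _ fun x => ?_)
  change Additive.ofMul (baseIdele L N T (diagIdele L T ((Additive.toMul x : TUnits L T) : Lˣ))) =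
    Additive.ofMul (diagIdele N T
      ((tUnitsMap L N T (Additive.toMul x : TUnits L T) : TUnits N T) : Nˣ))
  rw [H12.baseIdele_diagIdele]
  rfl

/-- The square `J → C` commutes with inflation. -/
theorem infRep_sq23 :
    (Rep.resFunctor (AlgEquiv.restrictNormalHom (F := K) (K₁ := N) L)).map (toC K L T) ≫
      infRepC K L N T = infRepJ K L N T ≫ toC K N T := by
  refine Rep.hom_ext (DFunLike.ext _ _ fun x => ?_)
  exact infRepC_idClass K L N T (Additive.toMul x)

/-- Transport of a class of full order from `H²(Gal(N/K)/Gal(N/L), (C_N)^{Gal(N/L)})` to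
`H²(Gal(L/K), C_L)`; the inflation of the transported class to `Gal(N/K)` is the inflation of the
given class. -/
theorem exists_class_transport_lift [IsGalois L N] (hunr : UnramifiedOutsideT L N T)
    (hcl : ClTrivial L T) (hT : T.Nonempty) (P : ℕ)
    (γ : groupCohomology (quotC K L N T) 2) (hγ : ∀ k : ℕ, k • γ = 0 → P ∣ k) :
    ∃ γ₀ : groupCohomology (repC K L T) 2, (∀ k : ℕ, k • γ₀ = 0 → P ∣ k) ∧
      (groupCohomology.map (AlgEquiv.restrictNormalHom (F := K) (K₁ := N) L)
          (infRepC K L N T) 2).hom γ₀ =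
        (H24.inf₂ (repC K N T) (kerRes K L N)).hom γ := by
  obtain ⟨γ₀, h1, h2⟩ := exists_class_transport_abstract_lift (galQuot K L N) (quotC K L N T)
    (repC K L T) (clsMap K L N T)
    ⟨clsMap_injective K L N T hT, clsMap_surjective K L N T hunr hcl hT⟩ P γ hγ
  refine ⟨γ₀, h1, ?_⟩
  rw [inf₂_eq_map_infIncl]
  exact h2 (repC K N T) (QuotientGroup.mk' (kerRes K L N))
    (infIncl (repC K N T) (kerRes K L N))
    (AlgEquiv.restrictNormalHom (F := K) (K₁ := N) L) (infRepC K L N T)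
    (fun σ => galQuot_restrict K L N σ) (fun b => rfl)

end Inf

end Fermat.Agent.S55.CFT.H13

end
end
-- ==== END Fermat.Agent.S55.CFT.H13_H3UInf
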