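-- GENERATED (merged mirror, NOTES/tools/trim/merge3_helper67.py): 1 modules of the originals, bodies verbatim.
import Fermat.Agent.Zm.S56_L10_000

-- ==== BEGIN Fermat.Agent.S55.CFT.GS.H80_Real3
section

set_option autoImplicit false
set_option linter.unusedSectionVars false

open CategoryTheory groupCohomology ExtCitation

noncomputable section

namespace Fermat.Agent.S55.CFT.GS.H80

open Fermat.Agent.S55 Fermat.Agent.S55.Top Fermat.Agent.S55.CFT Fermat.Agent.S55.CFT.GS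
  Fermat.Agent.S55.CFT.GS.Bri

local notation "Qb" => AlgebraicClosure ℚ

section base

variable {K N : IntermediateField ℚ Qb} (hKN : K ≤ N) [Normal ↥K ↥(H6.NK hKN)]

lemma r3_resG_apply (g : ↥K.fixingSubgroup) (x : ↥(H6.NK hKN)) :
    ((resG hKN g x : ↥(H6.NK hKN)) : Qb) = (g : GQ) (x : Qb) :=
  AlgEquiv.restrictNormal_commutes (IntermediateField.fixingSubgroupEquiv K g) (H6.NK hKN) x

lemma r3_resG_surjective : Function.Surjective (resG hKN) := by
  intro τ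
  have : Normal ℚ Qb := H6.qb_normal
  have : Normal ↥K Qb := Normal.tower_top_of_normal ℚ K Qb
  obtain ⟨σ, hσ⟩ := AlgEquiv.restrictNormalHom_surjective (F := ↥K) (K₁ := ↥(H6.NK hKN)) Qb τ
  exact ⟨(IntermediateField.fixingSubgroupEquiv K).symm σ, by simpa [resG] using hσ⟩

lemma r3_mem_of_resG_eq (g g' : ↥K.fixingSubgroup) (h : resG hKN g = resG hKN g') :
    ((g⁻¹ * g' : ↥K.fixingSubgroup) : GQ) ∈ N.fixingSubgroup := by
  rw [IntermediateField.mem_fixingSubgroup_iff]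
  intro x hx
  have h1 : resG hKN (g⁻¹ * g') = 1 := by rw [map_mul, map_inv, h, inv_mul_cancel]
  have h2 := r3_resG_apply hKN (g⁻¹ * g') ⟨x, hx⟩
  rw [h1] at h2
  exact h2.symm

omit [Normal ↥K ↥(H6.NK hKN)] in
lemma r3_valU_injective : Function.Injective (valU hKN) := by
  intro u v h
  apply Units.ext
  apply Subtype.ext
  exact congrArg (fun w : Qbˣ => (w : Qb)) h

set_option synthInstance.maxHeartbeats 400000 in
lemma r3_valU_smul (g : ↥K.fixingSubgroup) (m : (↥(H6.NK hKN))ˣ) :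
    valU hKN (resG hKN g • m) = g • valU hKN m := by
  apply Units.ext
  exact r3_resG_apply hKN g (m : ↥(H6.NK hKN))

omit [Normal ↥K ↥(H6.NK hKN)] in
lemma r3_mem_range_valU (u : Qbˣ) (hu : (u : Qb) ∈ N) : u ∈ Set.range (valU hKN) := by
  refine ⟨Units.mk0 (⟨(u : Qb), hu⟩ : ↥(H6.NK hKN)) (fun h => u.ne_zero (congrArg Subtype.val h)),
    ?_⟩
  apply Units.ext
  rfl

omit [Normal ↥K ↥(H6.NK hKN)] in
lemma r3_valU_mem (m : (↥(H6.NK hKN))ˣ) : ((valU hKN m : Qbˣ) : Qb) ∈ N :=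
  (m : ↥(H6.NK hKN)).2

lemma r3_resG_eq_of_mem (g s : ↥K.fixingSubgroup) (hs : (s : GQ) ∈ N.fixingSubgroup) :
    resG hKN (g * s) = resG hKN g := by
  have h1 : resG hKN s = 1 := by
    apply AlgEquiv.ext
    intro x
    apply Subtype.ext
    rw [r3_resG_apply]
    exact (IntermediateField.mem_fixingSubgroup_iff N (s : GQ)).1 hs _ x.2
  rw [map_mul, h1, mul_one]

/-- The level condition in terms of `resG` (degree 3). -/
lemma r3_lev3 (c : ↥K.fixingSubgroup × ↥K.fixingSubgroup × ↥K.fixingSubgroup → Qbˣ)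
    (hc : IsLevN₃ K N c) (t t' : Fin 3 → ↥K.fixingSubgroup)
    (h : ∀ i, resG hKN (t i) = resG hKN (t' i)) :
    c (t 0, t 1, t 2) = c (t' 0, t' 1, t' 2) := by
  have h1 := hc.1 (t 0) (t 1) (t 2) _ _ _ (r3_mem_of_resG_eq hKN _ _ (h 0))
    (r3_mem_of_resG_eq hKN _ _ (h 1)) (r3_mem_of_resG_eq hKN _ _ (h 2))
  rw [mul_inv_cancel_left, mul_inv_cancel_left, mul_inv_cancel_left] at h1
  exact h1.symm

/-- The level condition in terms of `resG` (degree 2). -/
lemma r3_lev2_iff (y : ↥K.fixingSubgroup × ↥K.fixingSubgroup → Qbˣ) :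
    IsLevN₂ K N y ↔
      (∀ t t' : Fin 2 → ↥K.fixingSubgroup, (∀ i, resG hKN (t i) = resG hKN (t' i)) →
        y (t 0, t 1) = y (t' 0, t' 1)) ∧ ∀ t, y t ∈ Set.range (valU hKN) := by
  constructor
  · intro hy
    refine ⟨fun t t' h => ?_, fun t => r3_mem_range_valU hKN _ (hy.2 t)⟩
    have h1 := hy.1 (t 0) (t 1) _ _ (r3_mem_of_resG_eq hKN _ _ (h 0))
      (r3_mem_of_resG_eq hKN _ _ (h 1))
    rw [mul_inv_cancel_left, mul_inv_cancel_left] at h1
    exact h1.symm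
  · rintro ⟨h1, h2⟩
    refine ⟨fun g₁ g₂ s₁ s₂ hs₁ hs₂ => ?_, fun t => ?_⟩
    · refine h1 ![g₁ * s₁, g₂ * s₂] ![g₁, g₂] (fun i => ?_)
      fin_cases i
      · exact r3_resG_eq_of_mem hKN g₁ s₁ hs₁
      · exact r3_resG_eq_of_mem hKN g₂ s₂ hs₂
    · obtain ⟨m, hm⟩ := h2 t
      rw [← hm]
      exact r3_valU_mem hKN m

end base

section stmts

variable {K N : IntermediateField ℚ Qb} (hKN : K ≤ N)
  [NumberField ↥K] [NumberField ↥(H6.NK hKN)] [Normal ↥K ↥(H6.NK hKN)]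

/-- `Real₃` is the abstract realisation along `resG`, `valU`. -/
lemma real3_iff (c : ↥K.fixingSubgroup × ↥K.fixingSubgroup × ↥K.fixingSubgroup → Qbˣ)
    (x : groupCohomology (repL ↥K ↥(H6.NK hKN)) 3) :
    Real₃ hKN c x ↔ RealA (resG hKN) (valU hKN) 3 (fun t => c (t 0, t 1, t 2)) x := by
  constructor
  · rintro ⟨z, hz, hx⟩
    refine ⟨z, fun t => ?_, hx⟩
    have h1 := hz (t 0) (t 1) (t 2)
    rw [vec3_eta] at h1
    exact h1
  · rintro ⟨z, hz, hx⟩
    exact ⟨z, fun g₁ g₂ g₃ => hz ![g₁, g₂, g₃], hx⟩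

end stmts

/-- **R3-ex**. -/
theorem stmt_R3_ex : Stmt_R3_ex := by
  intro K N hKN _ _ _ c hlev hc
  obtain ⟨x, hx⟩ := realA_ex3 (ρ := resG hKN) (ι := valU hKN) (r3_resG_surjective hKN)
    (r3_valU_injective hKN) (r3_valU_smul hKN) c (r3_lev3 hKN c hlev)
    (fun t => r3_mem_range_valU hKN _ (hlev.2 t)) hc
  exact ⟨x, (real3_iff hKN c x).2 hx⟩

/-- **R3-mul**. -/
theorem stmt_R3_mul : Stmt_R3_mul := by
  intro K N hKN _ _ _ c x hx
  rw [real3_iff] at hx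
  refine ⟨fun x' hx' => ?_, fun n => ?_⟩
  · rw [real3_iff] at hx'
    exact realA_uniq (r3_resG_surjective hKN) (r3_valU_injective hKN) 3 _ x x' hx hx'
  · rw [real3_iff]
    exact realA_pow 3 _ x hx n

/-- **R3-zero**. -/
theorem stmt_R3_zero : Stmt_R3_zero := by
  intro K N hKN _ _ _ c x hx
  rw [real3_iff] at hx
  rw [realA_zero3 (r3_resG_surjective hKN) (r3_valU_injective hKN) (r3_valU_smul hKN) c x hx]
  constructor
  · rintro ⟨y, h1, h2, h3⟩
    exact ⟨y, (r3_lev2_iff hKN y).2 ⟨h1, h2⟩, h3⟩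
  · rintro ⟨y, h1, h3⟩
    obtain ⟨h1, h2⟩ := (r3_lev2_iff hKN y).1 h1
    exact ⟨y, h1, h2, h3⟩

/-- **R3-inf**. -/
theorem stmt_R3_inf : Stmt_R3_inf := by
  intro K N N' hKN hNN' _ _ _ _ _ c x hx
  let _ := algIncl hKN hNN'
  have := isScalarTower_incl hKN hNN'
  rw [real3_iff] at hx
  rw [real3_iff]
  refine realA_inf (ρ := resG hKN) (ι := valU hKN) (ρ' := resG (hKN.trans hNN'))
    (ι' := valU (hKN.trans hNN'))
    (AlgEquiv.restrictNormalHom (F := ↥K) (K₁ := ↥(H6.NK (hKN.trans hNN'))) ↥(H6.NK hKN))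
    (Units.map (algebraMap ↥(H6.NK hKN) ↥(H6.NK (hKN.trans hNN')) :
      ↥(H6.NK hKN) →* ↥(H6.NK (hKN.trans hNN'))))
    (infRepL ↥K ↥(H6.NK hKN) ↥(H6.NK (hKN.trans hNN'))) (fun a => rfl) (fun γ => ?_)
    (fun m => ?_) 3 _ x hx
  · apply AlgEquiv.ext
    intro y
    apply Subtype.ext
    rw [r3_resG_apply]
    have h1 := AlgEquiv.restrictNormal_commutes (resG (hKN.trans hNN') γ) ↥(H6.NK hKN) y
    have h2 := congrArg Subtype.val h1
    rw [r3_resG_apply] at h2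
    exact h2
  · apply Units.ext
    rfl

end Fermat.Agent.S55.CFT.GS.H80

end
end
-- ==== END Fermat.Agent.S55.CFT.GS.H80_Real3
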