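-- GENERATED (merged mirror, NOTES/tools/trim/merge3_helper67.py): 10 modules of the originals, bodies verbatim.
import Fermat.Agent.Zm.S56_L10_008
import Fermat.Agent.Zm.S56_L10_000
import Fermat.Agent.Zm.S56_L03_003
import Fermat.Agent.Zm.S56_L02_002
import Fermat.Agent.Zm.S56_L04_002
import Fermat.Agent.Zm.S56_L10_001
import Fermat.Agent.Zm.S56_L07_002
import Fermat.Agent.Zm.S56_L07_003
import Fermat.Agent.Zm.S56_L09_000
import Fermat.Agent.Zm.S56_L03_002
import Fermat.Agent.Zm.S56_L07_000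
import Fermat.Agent.Zm.S56_L06_002
import Fermat.Agent.Zm.S56_L10_002
import Fermat.Agent.Zm.S56_L04_004

-- ==== BEGIN Fermat.Agent.S55.CFT.GS.H01_UR_TC
section

set_option autoImplicit false

open scoped NumberField

namespace Fermat.Agent.S55.CFT.GS.H01

open NumberField

/-- No real places: `K` contains a root of unity of order `> 2`. -/
theorem card_infinitePlace_of_primitiveRoot (K : Type) [Field K] [NumberField K] (n : ℕ)
    (hn : 2 < n) {ζ : K} (hζ : IsPrimitiveRoot ζ n) :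
    2 * Fintype.card (InfinitePlace K) = Module.finrank ℚ K := by
  have h0 := NumberField.InfinitePlace.IsPrimitiveRoot.nrRealPlaces_eq_zero_of_two_lt hn hζ
  have h1 := InfinitePlace.card_add_two_mul_card_eq_rank K
  have h3 := InfinitePlace.card_eq_nrRealPlaces_add_nrComplexPlaces K
  omega

/-- **UR-TC.** -/
theorem stmt_UR_TC : H6.Stmt_UR_TC := by
  intro K _ _ p hp hp2 hζ
  obtain ⟨ζ, hζ⟩ := hζ
  have h2 : 2 < p := lt_of_le_of_ne hp.two_le (Ne.symm hp2)
  have h1 := card_infinitePlace_of_primitiveRoot K p h2 hζ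
  have h4 : 0 < Fintype.card (InfinitePlace K) := Fintype.card_pos
  unfold NumberField.Units.rank
  omega

end Fermat.Agent.S55.CFT.GS.H01

end
-- ==== END Fermat.Agent.S55.CFT.GS.H01_UR_TC

-- ==== BEGIN Fermat.Agent.S55.CFT.GS.H01_UR_U
section

set_option autoImplicit false
set_option linter.style.haveILetI false
set_option linter.unusedSectionVars false

open scoped NumberField

noncomputable section

namespace Fermat.Agent.S55.CFT.GS.H01

open Fermat.Agent.S55 Fermat.Agent.S55.Top Fermat.Agent.Lib.FrobExists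
  Fermat.Agent.Lib.Minkowski Fermat.Agent.Lib.UnramVal IsDedekindDomain

local notation "Qb" => AlgebraicClosure ℚ

/-! ### Generalities -/

/-- The index of the `p`-th powers is an isomorphism invariant. -/
theorem index_range_pow_congr {G G' : Type*} [CommGroup G] [CommGroup G'] (e : G ≃* G')
    (p : ℕ) :
    (powMonoidHom p : G →* G).range.index = (powMonoidHom p : G' →* G').range.index := by
  have h : (powMonoidHom p : G →* G).range.map e.toMonoidHom
      = (powMonoidHom p : G' →* G').range := by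
    ext x
    simp only [Subgroup.mem_map, MonoidHom.mem_range, powMonoidHom_apply]
    constructor
    · rintro ⟨y, ⟨z, rfl⟩, rfl⟩
      exact ⟨e z, by simp⟩
    · rintro ⟨z, rfl⟩
      exact ⟨(e.symm z) ^ p, ⟨e.symm z, rfl⟩, by simp⟩
  rw [← h]
  exact (Subgroup.index_map_equiv _ e).symm

/-- A prime ideal containing a positive integer contains a prime number. -/
theorem exists_prime_mem_of_natCast_mem {R : Type*} [CommRing R] (P : Ideal R) [hP : P.IsPrime]
    (n : ℕ) (hn : 0 < n) (hmem : (n : R) ∈ P) : ∃ q : ℕ, q.Prime ∧ (q : R) ∈ P := by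
  induction n using Nat.strong_induction_on with
  | _ n ih =>
    by_cases h1 : n = 1
    · exfalso
      rw [h1, Nat.cast_one] at hmem
      exact hP.ne_top ((Ideal.eq_top_iff_one P).mpr hmem)
    · have hq := Nat.minFac_prime h1
      obtain ⟨m, hm⟩ := Nat.minFac_dvd n
      have hm0 : 0 < m := by
        rcases Nat.eq_zero_or_pos m with h | h
        · rw [h, mul_zero] at hm; omega
        · exact h
      have hmem' : ((n.minFac : R) * (m : R)) ∈ P := by
        rw [← Nat.cast_mul, ← hm]; exact hmem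
      rcases hP.mem_or_mem hmem' with h | h
      · exact ⟨n.minFac, hq, h⟩
      · refine ih m ?_ hm0 h
        have h2 := hq.two_le
        nlinarith

/-! ### Places of `ℚ̄` over the primes of `K` -/

section places

variable (K : IntermediateField ℚ Qb) [NumberField ↥K]

/-- Every prime of `𝓞 K` lies under a valuation subring of `ℚ̄`. -/
theorem exists_place_over (v : HeightOneSpectrum (𝓞 ↥K)) :
    ∃ A : ValuationSubring Qb, primeBelow K A = v.asIdeal := by
  classical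
  let f : 𝓞 ↥K →+* Qb := algebraMap (𝓞 ↥K) Qb
  have hf : Function.Injective f := FaithfulSMul.algebraMap_injective (𝓞 ↥K) Qb
  let R : Subring Qb := f.range
  let φ : 𝓞 ↥K →+* R := f.rangeRestrict
  have hφs : Function.Surjective φ := f.rangeRestrict_surjective
  let I : Ideal R := v.asIdeal.map φ
  have hI : I ≠ ⊤ := by
    intro h
    have h1 : (1 : R) ∈ I := by rw [h]; exact Submodule.mem_top
    obtain ⟨x, hx, hx1⟩ := (Ideal.mem_map_iff_of_surjective φ hφs).mp h1
    have h2 : f x = f 1 := by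
      have h := congrArg Subtype.val hx1
      rw [map_one]
      exact h
    have h3 : x = 1 := hf h2
    rw [h3] at hx
    exact v.isPrime.ne_top ((Ideal.eq_top_iff_one _).mpr hx)
  obtain ⟨B, -, hB⟩ := Ideal.image_subset_nonunits_valuationSubring I hI
  refine ⟨B, ?_⟩
  have hle : v.asIdeal ≤ primeBelow K B := by
    intro b hb
    rw [mem_primeBelow]
    have h1 : f b ∈ B.nonunits := by
      apply hB
      exact ⟨φ b, Ideal.mem_map_of_mem φ hb, rfl⟩
    exact B.mem_nonunits_iff.mp h1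
  exact (v.isMaximal.eq_of_le (primeBelow_isPrime K B).ne_top hle).symm

variable {K}

/-- A unit at `A` is a unit at the prime of `K` under `A`. -/
theorem valuation_eq_one_of_val_eq_one (v : HeightOneSpectrum (𝓞 ↥K)) (A : ValuationSubring Qb)
    (hA : primeBelow K A = v.asIdeal) (a : ↥K) (ha : A.valuation (a : Qb) = 1) :
    v.valuation ↥K a = 1 := by
  have hcast : ∀ b : 𝓞 ↥K, algebraMap (𝓞 ↥K) Qb b = ((algebraMap (𝓞 ↥K) ↥K b : ↥K) : Qb) :=
    fun b => rfl
  have hnot : ∀ b : 𝓞 ↥K, b ∉ v.asIdeal →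
      A.valuation ((algebraMap (𝓞 ↥K) ↥K b : ↥K) : Qb) = 1 := by
    intro b hb
    rw [← hcast]
    exact val_eq_one_of_notMem K A b (by rw [hA]; exact hb)
  have hconv : ∀ b : 𝓞 ↥K, A.valuation ((algebraMap (𝓞 ↥K) ↥K b : ↥K) : Qb) = 1 →
      v.valuation ↥K (algebraMap (𝓞 ↥K) ↥K b) = 1 := by
    intro b hb
    rw [HeightOneSpectrum.valuation_eq_one_iff_notMem, ← hA, mem_primeBelow, hcast, hb]
    exact lt_irrefl _
  obtain ⟨n, d, h | h⟩ := HeightOneSpectrum.exists_primeCompl_mul_eq_or_mul_eq (K := ↥K) v a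
  · have hd : v.valuation ↥K (algebraMap (𝓞 ↥K) ↥K d) = 1 :=
      (HeightOneSpectrum.valuation_eq_one_iff_notMem (v := v)).mpr d.2
    have h3 : (a : Qb) * ((algebraMap (𝓞 ↥K) ↥K d : ↥K) : Qb)
        = ((algebraMap (𝓞 ↥K) ↥K n : ↥K) : Qb) := by
      rw [← h]; rfl
    have h4 := congrArg A.valuation h3
    rw [map_mul, ha, hnot d d.2, one_mul] at h4
    have hn := hconv n h4.symm
    have h5 := congrArg (v.valuation ↥K) h
    rw [map_mul, hd, mul_one, hn] at h5
    exact h5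
  · have hd : v.valuation ↥K (algebraMap (𝓞 ↥K) ↥K d) = 1 :=
      (HeightOneSpectrum.valuation_eq_one_iff_notMem (v := v)).mpr d.2
    have h3 : (a : Qb) * ((algebraMap (𝓞 ↥K) ↥K n : ↥K) : Qb)
        = ((algebraMap (𝓞 ↥K) ↥K d : ↥K) : Qb) := by
      rw [← h]; rfl
    have h4 := congrArg A.valuation h3
    rw [map_mul, ha, hnot d d.2, one_mul] at h4
    have hn := hconv n h4
    have h5 := congrArg (v.valuation ↥K) h
    rw [map_mul, hd, hn, mul_one] at h5
    exact h5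

/-- Every prime of `𝓞 K` contains a prime number. -/
theorem exists_prime_mem (v : HeightOneSpectrum (𝓞 ↥K)) :
    ∃ q : ℕ, q.Prime ∧ ((q : ℕ) : 𝓞 ↥K) ∈ v.asIdeal := by
  haveI := v.isPrime
  have h0 : Ideal.absNorm v.asIdeal ≠ 0 := by
    rw [Ne, Ideal.absNorm_eq_zero_iff]
    exact v.ne_bot
  exact exists_prime_mem_of_natCast_mem v.asIdeal (Ideal.absNorm v.asIdeal)
    (Nat.pos_of_ne_zero h0) (Ideal.absNorm_mem v.asIdeal)

end places

/-! ### UR-U -/

/-- **UR-U.** -/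
theorem stmt_UR_U : H6.Stmt_UR_U := by
  intro S K _ hK SK hSK p
  haveI : FiniteDimensional ℚ ↥K := NumberField.to_finiteDimensional
  let φ : (↥K)ˣ →* Qbˣ := Units.map ((algebraMap ↥K Qb : ↥K →+* Qb) : ↥K →* Qb)
  have hφ : Function.Injective φ :=
    Units.map_injective (algebraMap ↥K Qb).injective
  have hφv : ∀ x : (↥K)ˣ, ((φ x : Qbˣ) : Qb) = ((x : ↥K) : Qb) := fun x => rfl
  refine ⟨((SK : Set (HeightOneSpectrum (𝓞 ↥K))).unit ↥K).map φ, ?_, ?_⟩
  · ext u
    constructor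
    · rintro ⟨x, hx, rfl⟩
      refine ⟨?_, ⟨K, hK, ?_⟩, fun q hq A hA => ?_⟩
      · rw [hφv]; exact (x : ↥K).2
      · rw [hφv]; exact (x : ↥K).2
      · rw [hφv]
        apply val_eq_one_of_valuation_eq_one K (q : ℕ) q.2 A hA (x : ↥K)
        apply hx
        -- the prime under `A` is not in `SK`
        intro hv
        obtain ⟨q', hq'S, hq'⟩ := (hSK _).mp (Finset.mem_coe.mp hv)
        have hqmem : (((q : ℕ) : 𝓞 ↥K)) ∈ (vBelow K (q : ℕ) q.2 A hA).asIdeal :=
          natCast_mem_primeBelow K A (q : ℕ) hA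
        have hne : (q : ℕ) ≠ (q' : ℕ) := by
          intro h
          apply hq
          have : q = q' := Subtype.ext h
          rw [this]; exact hq'S
        have hcop : Nat.Coprime (q : ℕ) (q' : ℕ) := (Nat.coprime_primes q.2 q'.2).mpr hne
        have hprime := (vBelow K (q : ℕ) q.2 A hA).isPrime
        apply hprime.ne_top
        rw [Ideal.eq_top_iff_one]
        have hbez : ((q : ℕ) : ℤ) * Nat.gcdA q q' + ((q' : ℕ) : ℤ) * Nat.gcdB q q' = 1 := by
          have := Nat.gcd_eq_gcd_ab (q : ℕ) (q' : ℕ)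
          rw [hcop.gcd_eq_one] at this
          exact_mod_cast this.symm
        have h1 : (((((q : ℕ) : ℤ) * Nat.gcdA q q' + ((q' : ℕ) : ℤ) * Nat.gcdB q q' : ℤ))
            : 𝓞 ↥K) = 1 := by
          rw [hbez, Int.cast_one]
        rw [← h1]
        push_cast
        exact Ideal.add_mem _ (Ideal.mul_mem_right _ _ hqmem) (Ideal.mul_mem_right _ _ hq')
    · rintro ⟨huK, -, hu⟩
      have hu0 : (⟨(u : Qb), huK⟩ : ↥K) ≠ 0 := fun h => u.ne_zero (congrArg Subtype.val h)
      refine ⟨Units.mk0 ⟨(u : Qb), huK⟩ hu0, ?_, Units.ext rfl⟩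
      intro v hv
      rw [Units.val_mk0]
      obtain ⟨A, hA⟩ := exists_place_over K v
      obtain ⟨q, hqp, hq⟩ := exists_prime_mem v
      have hqS : (⟨q, hqp⟩ : Nat.Primes) ∉ S := by
        intro hqS
        apply hv
        exact Finset.mem_coe.mpr ((hSK v).mpr ⟨⟨q, hqp⟩, hqS, hq⟩)
      have hAq : A.LiesOverPrime q := by
        have h1 : ((q : ℕ) : 𝓞 ↥K) ∈ primeBelow K A := by rw [hA]; exact hq
        rw [mem_primeBelow, map_natCast] at h1
        exact A.mem_nonunits_iff.mpr h1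
      exact valuation_eq_one_of_val_eq_one v A hA ⟨(u : Qb), huK⟩ (hu ⟨q, hqp⟩ hqS A hAq)
  · exact index_range_pow_congr
      ((((SK : Set (HeightOneSpectrum (𝓞 ↥K))).unit ↥K).equivMapOfInjective φ hφ).symm) p

end Fermat.Agent.S55.CFT.GS.H01

end
end
-- ==== END Fermat.Agent.S55.CFT.GS.H01_UR_U

-- ==== BEGIN Fermat.Agent.S55.CFT.H13_CFind
section

set_option autoImplicit false
set_option linter.unusedSectionVars false
set_option linter.style.haveILetI false
open NumberField TensorProduct CategoryTheory CategoryTheory.Limits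

noncomputable section
namespace Fermat.Agent.S55.CFT.H13

open Fermat.Agent.S55.CFT

attribute [local instance 1100] Rep.hV2

section Layers
variable {Γ : Type} [Group Γ] (A : Rep.{0} ℤ Γ) (S : Subgroup Γ) [S.Normal]

/-- Inflation–restriction in degree 1: vanishing. -/
theorem subsingleton_H1_of_layers
    (h1 : Subsingleton (groupCohomology (A.quotientToInvariants S) 1))
    (h2 : Subsingleton (groupCohomology (resSub A S) 1)) :
    Subsingleton (groupCohomology A 1) := by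
  have hex := groupCohomology.H1InfRes_exact A S
  have hz1 : IsZero (groupCohomology.H1InfRes A S).X₁ :=
    (ModuleCat.isZero_iff_subsingleton).2 h1
  have hz3 : IsZero (groupCohomology.H1InfRes A S).X₃ :=
    (ModuleCat.isZero_iff_subsingleton).2 h2
  exact (ModuleCat.isZero_iff_subsingleton).1 (hex.isZero_of_both_isZero hz1 hz3)

/-- Inflation–restriction in degree 2: divisibility of orders. -/
theorem card_H2_dvd_of_layers
    (h1 : Subsingleton (groupCohomology (resSub A S) 1))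
    [Finite (groupCohomology (A.quotientToInvariants S) 2)]
    [Finite (groupCohomology (resSub A S) 2)] :
    Finite (groupCohomology A 2) ∧
      Nat.card (groupCohomology A 2) ∣
        Nat.card (groupCohomology (A.quotientToInvariants S) 2) *
          Nat.card (groupCohomology (resSub A S) 2) := by
  obtain ⟨-, hex, -⟩ := H24.stmt_ALG2 Γ A S h1
  exact H58.card_dvd_of_exact_add (infMap₂ A S).toAddMonoidHom (resMap A S 2).toAddMonoidHom
    (fun x hx => (hex x).1 hx)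

end Layers

section Gal
variable (F M L : Type) [Field F] [Field M] [Field L] [Algebra F M] [Algebra M L] [Algebra F L]
  [IsScalarTower F M L]

/-- `Gal(L/M) ≃* ker(Gal(L/F) → Gal(M/F))`. -/
def kerResMulEquiv [Normal F M] : (L ≃ₐ[M] L) ≃* kerRes F M L :=
  { kerResEquiv F M L with
    map_mul' := fun σ τ => Subtype.ext (by apply AlgEquiv.ext; intro x; rfl) }

theorem kerResMulEquiv_coe [Normal F M] (σ : L ≃ₐ[M] L) :
    ((kerResMulEquiv F M L σ : kerRes F M L) : L ≃ₐ[F] L) = σ.restrictScalars F := rfl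

end Gal

section GalFix
variable {F L : Type} [Field F] [Field L] [Algebra F L] [FiniteDimensional F L]

/-- `Gal(L / L^H) ≃* H`. -/
def galFixEquiv (H : Subgroup (L ≃ₐ[F] L)) :
    (L ≃ₐ[IntermediateField.fixedField H] L) ≃* H :=
  ((MulEquiv.subgroupCongr (IntermediateField.fixingSubgroup_fixedField H).symm).trans
    (IntermediateField.fixingSubgroupEquiv (IntermediateField.fixedField H))).symm

theorem galFixEquiv_coe (H : Subgroup (L ≃ₐ[F] L))
    (σ : L ≃ₐ[IntermediateField.fixedField H] L) :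
    ((galFixEquiv H σ : H) : L ≃ₐ[F] L) = σ.restrictScalars F := by
  apply AlgEquiv.ext
  intro x
  rfl

end GalFix

section Induction

/-- The induction over the base field (`L` fixed): for `L/F` admissible of degree `p ^ n`,
`H¹(Gal(L/F), C_L) = 0` and `#H²(Gal(L/F), C_L)` divides `p ^ n`. -/
theorem cfind_aux (hcyc : Stmt_CFcyc) (p : ℕ) (hp : p.Prime) (T : Finset Nat.Primes)
    (L : Type) [Field L] [NumberField L] (n : ℕ) :
    ∀ (F : Type) [Field F] [NumberField F] [Algebra F L], Admissible F L T p →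
      Module.finrank F L = p ^ n →
      Subsingleton (groupCohomology (repC F L T) 1) ∧
        Finite (groupCohomology (repC F L T) 2) ∧
        Nat.card (groupCohomology (repC F L T) 2) ∣ p ^ n := by
  induction n with
  | zero =>
    intro F _ _ _ hadm hdeg
    haveI := hadm.gal
    have hcard : Nat.card (L ≃ₐ[F] L) = 1 := by
      rw [IsGalois.card_aut_eq_finrank, hdeg, pow_zero]
    haveI : Subsingleton (L ≃ₐ[F] L) := (Nat.card_eq_one_iff_unique.mp hcard).1
    have hz1 : Subsingleton (groupCohomology (repC F L T) 1) :=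
      ModuleCat.subsingleton_of_isZero (isZero_groupCohomology_succ_of_subsingleton _ 0)
    have hz2 : Subsingleton (groupCohomology (repC F L T) 2) :=
      ModuleCat.subsingleton_of_isZero (isZero_groupCohomology_succ_of_subsingleton _ 1)
    refine ⟨hz1, inferInstance, ?_⟩
    rw [Nat.card_unique]
    exact one_dvd _
  | succ n ih =>
    intro F _ _ _ hadm hdeg
    haveI := hadm.gal
    haveI : Fact p.Prime := ⟨hp⟩
    have hcard : Nat.card (L ≃ₐ[F] L) = p ^ (n + 1) := by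
      rw [IsGalois.card_aut_eq_finrank, hdeg]
    obtain ⟨S, hS⟩ := Sylow.exists_subgroup_card_pow_prime (G := (L ≃ₐ[F] L)) p (n := n)
      (by rw [hcard]; exact pow_dvd_pow p (Nat.le_succ n))
    have hidx : S.index = p := by
      have h1 := S.card_mul_index
      rw [hS, hcard, pow_succ] at h1
      exact Nat.eq_of_mul_eq_mul_left (pow_pos hp.pos n) h1
    haveI hnorm : S.Normal := by
      apply Subgroup.normal_of_index_eq_minFac_card
      rw [hidx, hcard, hp.pow_minFac (Nat.succ_ne_zero n)]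
    obtain ⟨M, hM⟩ : ∃ M : IntermediateField F L, M = IntermediateField.fixedField S :=
      ⟨_, rfl⟩
    haveI : IsGalois F M := by
      rw [hM]; exact IsGalois.of_fixedField_normal_subgroup S
    have hML : Module.finrank M L = p ^ n := by
      rw [hM, IntermediateField.finrank_fixedField_eq_card, hS]
    have hFM : Module.finrank F M = p := by
      have h := Module.finrank_mul_finrank F M L
      rw [hML, hdeg, pow_succ, mul_comm] at h
      exact Nat.eq_of_mul_eq_mul_left (pow_pos hp.pos n) h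
    have hadmM : Admissible M L T p := H56.admissible_up F M L T p hadm
    have hadmFM : Admissible F M T p := H56.admissible_sub F M L T p hadm
    obtain ⟨q, hqT, -⟩ := hadm.pmem
    have hT : T.Nonempty := ⟨q, hqT⟩
    obtain ⟨hc1, hc2⟩ := hcyc p F M T hp hFM hadmFM
    obtain ⟨hi1, hi2, hi3⟩ := ih M hadmM hML
    haveI := hadmM.gal
    -- the quotient layer
    have hq1 : Subsingleton (groupCohomology (quotC F M L T) 1) :=
      subsingleton_of_iso (quotIso F M L T hadmM.unr (hadmM.cl M) hT 1).symm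
    haveI hc2fin : Finite (groupCohomology (repC F M T) 2) :=
      Nat.finite_of_card_ne_zero (by rw [hc2]; exact hp.ne_zero)
    haveI hq2 : Finite (groupCohomology (quotC F M L T) 2) :=
      finite_of_iso (quotIso F M L T hadmM.unr (hadmM.cl M) hT 2).symm
    have hq3 : Nat.card (groupCohomology (quotC F M L T) 2) = p := by
      rw [card_eq_of_iso (quotIso F M L T hadmM.unr (hadmM.cl M) hT 2).symm, hc2]
    -- the subgroup layer
    have hs1 : Subsingleton (groupCohomology (resSub (repC F L T) (kerRes F M L)) 1) :=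
      subsingleton_of_iso (subIso F M L T (kerRes F M L) (kerResMulEquiv F M L)
        (kerResMulEquiv_coe F M L) 1).symm
    haveI hs2 : Finite (groupCohomology (resSub (repC F L T) (kerRes F M L)) 2) :=
      finite_of_iso (subIso F M L T (kerRes F M L) (kerResMulEquiv F M L)
        (kerResMulEquiv_coe F M L) 2).symm
    have hs3 : Nat.card (groupCohomology (resSub (repC F L T) (kerRes F M L)) 2) =
        Nat.card (groupCohomology (repC M L T) 2) :=
      card_eq_of_iso (subIso F M L T (kerRes F M L) (kerResMulEquiv F M L)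
        (kerResMulEquiv_coe F M L) 2).symm
    refine ⟨subsingleton_H1_of_layers (repC F L T) (kerRes F M L) hq1 hs1, ?_⟩
    obtain ⟨hfin, hdvd⟩ := card_H2_dvd_of_layers (repC F L T) (kerRes F M L) hs1
    refine ⟨hfin, hdvd.trans ?_⟩
    rw [hq3, hs3, pow_succ, mul_comm]
    exact Nat.mul_dvd_mul_right hi3 p

end Induction

/-- **CF-ind** (`Stmt_CFind`) from the cyclic layers (`Stmt_CFcyc`). -/
theorem stmt_CFind_of (hcyc : Stmt_CFcyc) : Stmt_CFind := by
  intro p m K L _ _ _ _ _ T hp hdeg hadm H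
  haveI := hadm.gal
  have hcard : Nat.card (L ≃ₐ[K] L) = p ^ m := by
    rw [IsGalois.card_aut_eq_finrank, hdeg]
  obtain ⟨k, -, hHk⟩ := (Nat.dvd_prime_pow hp).1 (hcard ▸ Subgroup.card_subgroup_dvd_card H)
  have hadmM : Admissible (IntermediateField.fixedField H) L T p :=
    H56.admissible_up K (IntermediateField.fixedField H) L T p hadm
  have hML : Module.finrank (IntermediateField.fixedField H) L = p ^ k := by
    rw [IntermediateField.finrank_fixedField_eq_card, hHk]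
  obtain ⟨h1, h2, h3⟩ := cfind_aux hcyc p hp T L k (IntermediateField.fixedField H) hadmM hML
  have I := fun n => subIso K (IntermediateField.fixedField H) L T H (galFixEquiv H)
    (galFixEquiv_coe H) n
  refine ⟨subsingleton_of_iso (I 1).symm, finite_of_iso (I 2).symm, ?_⟩
  rw [card_eq_of_iso (I 2).symm, hHk]
  exact h3

end Fermat.Agent.S55.CFT.H13

end
end
-- ==== END Fermat.Agent.S55.CFT.H13_CFind

-- ==== BEGIN Fermat.Agent.S55.CFT.H25_LTO_ThetaLoc
section

set_option autoImplicit false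
set_option linter.unusedSectionVars false
set_option linter.style.haveILetI false

namespace Fermat.Agent.S55.CFT.H25

open Fermat.Agent.S55.CFT Fermat.Agent.S55.CFT.LOC Fermat.Agent.S55.CFT.LOC.H25
open NumberField TensorProduct Polynomial

theorem isCyclotomicExtension_rat (n : ℕ) [NeZero n] :
    IsCyclotomicExtension {n} ℚ (CyclotomicField n ℚ) := by
  have h := CyclotomicField.isCyclotomicExtension n ℚ
  have e : (CyclotomicField.algebra n ℚ) = DivisionRing.toRatAlgebra := Subsingleton.elim _ _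
  rw [e] at h
  exact h

section

variable (p : Nat.Primes) (M : ℕ) (E : Type) [Field E] [Algebra (Qp p) E]
  [FiniteDimensional (Qp p) E]

/-- `ℚ_p ⊗ ℚ(ζ_{p^M}) ≅ ℚ_p(ζ_{p^M})`. -/
theorem exists_semiLocal_equiv (hM : M ≠ 0) {ζ : E} (hζ : IsPrimitiveRoot ζ ((p : ℕ) ^ M))
    (K₀ : Type) [Field K₀] [NumberField K₀] [IsCyclotomicExtension {(p : ℕ) ^ M} ℚ K₀] :
    Nonempty (SemiLocal K₀ p ≃ₐ[Qp p] (IntermediateField.adjoin (Qp p) {ζ})) := by
  classical
  haveI := fact_primes p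
  haveI : NeZero ((p : ℕ) ^ M) := ⟨pow_ne_zero _ p.2.ne_zero⟩
  have hpM : 0 < (p : ℕ) ^ M := pow_pos p.2.pos M
  haveI : CharZero E := charZero_of_padic (p : ℕ) E
  have hirr : Irreducible (cyclotomic ((p : ℕ) ^ M) ℚ) := cyclotomic.irreducible_rat hpM
  have hζ₀ := IsCyclotomicExtension.zeta_spec ((p : ℕ) ^ M) ℚ K₀
  have hζC := isPrimitiveRoot_adjoin (p : ℕ) E hζ
  let ψ : K₀ →ₐ[ℚ] (IntermediateField.adjoin (Qp p) {ζ}) :=
    (hζ₀.embeddingsEquivPrimitiveRoots (IntermediateField.adjoin (Qp p) {ζ}) hirr).symm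
      ⟨_, (mem_primitiveRoots hpM).mpr hζC⟩
  have hψ : ψ (IsCyclotomicExtension.zeta ((p : ℕ) ^ M) ℚ K₀) =
      (⟨ζ, IntermediateField.mem_adjoin_simple_self (Qp p) ζ⟩ :
        IntermediateField.adjoin (Qp p) {ζ}) := by
    have h1 := (hζ₀.embeddingsEquivPrimitiveRoots (IntermediateField.adjoin (Qp p) {ζ})
      hirr).apply_symm_apply ⟨_, (mem_primitiveRoots hpM).mpr hζC⟩
    have h2 := congrArg Subtype.val h1
    rwa [IsPrimitiveRoot.embeddingsEquivPrimitiveRoots_apply_coe] at h2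
  let lam : SemiLocal K₀ p →ₐ[Qp p] (IntermediateField.adjoin (Qp p) {ζ}) :=
    Algebra.TensorProduct.lift (Algebra.ofId (Qp p) _) ψ (fun _ _ => Commute.all _ _)
  have hlam : ∀ (a : Qp p) (k : K₀), lam (a ⊗ₜ[ℚ] k) =
      algebraMap (Qp p) (IntermediateField.adjoin (Qp p) {ζ}) a * ψ k := by
    intro a k
    simp [lam, Algebra.ofId_apply]
  -- surjectivity
  have hint : IsIntegral (Qp p) ζ := Algebra.IsIntegral.isIntegral ζ
  have hsurj : Function.Surjective lam := by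
    rw [← AlgHom.range_eq_top]
    have hgen : (IntermediateField.adjoin.powerBasis hint).gen ∈ lam.range := by
      refine ⟨(1 : Qp p) ⊗ₜ[ℚ] (IsCyclotomicExtension.zeta ((p : ℕ) ^ M) ℚ K₀), ?_⟩
      have h5 := hlam 1 (IsCyclotomicExtension.zeta ((p : ℕ) ^ M) ℚ K₀)
      rw [map_one, one_mul, hψ] at h5
      exact h5
    rw [eq_top_iff, ← (IntermediateField.adjoin.powerBasis hint).adjoin_gen_eq_top]
    exact Algebra.adjoin_le (Set.singleton_subset_iff.mpr hgen)
  -- dimensions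
  have hdim : Module.finrank (Qp p) (SemiLocal K₀ p) =
      Module.finrank (Qp p) (IntermediateField.adjoin (Qp p) {ζ}) := by
    rw [finrank_adjoin_zeta (p : ℕ) E hM hζ, Module.finrank_baseChange,
      IsCyclotomicExtension.finrank K₀ hirr]
  have hinj : Function.Injective lam :=
    (LinearMap.injective_iff_surjective_of_finrank_eq_finrank (f := lam.toLinearMap) hdim).mpr
      hsurj
  exact ⟨AlgEquiv.ofBijective lam ⟨hinj, hsurj⟩⟩

/-- **TH-2, local form at `p`.** -/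
theorem thetaLoc_norm_local (hp2 : (p : ℕ) ≠ 2)
    (hζ : ∃ ζ : E, IsPrimitiveRoot ζ ((p : ℕ) ^ M)) (y : Eˣ) :
    thetaLoc p M p (Units.map (Algebra.norm (Qp p) : E →* Qp p) y) = 1 := by
  classical
  haveI := fact_primes p
  rcases Nat.eq_zero_or_pos M with hM0 | hMpos
  · subst hM0
    haveI : Subsingleton (ZMod ((p : ℕ) ^ 0))ˣ := by
      rw [pow_zero]
      infer_instance
    exact Subsingleton.elim _ _
  obtain ⟨ζ, hζ⟩ := hζ
  haveI : NeZero ((p : ℕ) ^ M) := ⟨pow_ne_zero _ p.2.ne_zero⟩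
  haveI := isCyclotomicExtension_rat ((p : ℕ) ^ M)
  obtain ⟨e⟩ := exists_semiLocal_equiv p M E hMpos.ne' hζ (CyclotomicField ((p : ℕ) ^ M) ℚ)
  -- the norm to `ℚ_p(ζ)`
  set z : IntermediateField.adjoin (Qp p) {ζ} :=
    Algebra.norm (IntermediateField.adjoin (Qp p) {ζ}) (y : E) with hz
  have hz0 : z ≠ 0 := Algebra.norm_ne_zero_iff.mpr y.ne_zero
  have hu0 : IsUnit (e.symm z) := (isUnit_iff_ne_zero.mpr hz0).map e.symm
  have h1 : Algebra.norm (Qp p) (y : E) = Algebra.norm (Qp p) (e.symm z) := by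
    rw [← Algebra.norm_eq_of_algEquiv e (e.symm z), e.apply_symm_apply, hz, Algebra.norm_norm]
  have h2 := thetaLoc_norm_self p M (CyclotomicField ((p : ℕ) ^ M) ℚ) hp2 hu0.unit
  have h3 : Units.map (Algebra.norm (Qp p) : E →* Qp p) y =
      Units.map (Algebra.norm (Qp p) :
        SemiLocal (CyclotomicField ((p : ℕ) ^ M) ℚ) p →* Qp p) hu0.unit := by
    apply Units.ext
    exact h1
  rw [h3]
  exact h2

end
end Fermat.Agent.S55.CFT.H25

end
-- ==== END Fermat.Agent.S55.CFT.H25_LTO_ThetaLoc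

-- ==== BEGIN Fermat.Agent.S55.CFT.H25_Theta
section

set_option autoImplicit false
set_option linter.unusedSectionVars false
set_option linter.style.haveILetI false

namespace Fermat.Agent.S55.CFT.H25

open Fermat.Agent.S55.CFT
open NumberField TensorProduct

/-- The local statement at `q` for a number field `L` containing a cyclotomic subfield `K₀`. -/
theorem thetaLoc_norm_of_tower (p : Nat.Primes) (M : ℕ) (hp2 : (p : ℕ) ≠ 2)
    (K₀ L : Type) [Field K₀] [Field L] [NumberField K₀] [NumberField L] [Algebra K₀ L]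
    [IsCyclotomicExtension {(p : ℕ) ^ M} ℚ K₀] (q : Nat.Primes) (u : (SemiLocal L q)ˣ) :
    thetaLoc p M q (Units.map (Algebra.norm (Qp q) : SemiLocal L q →* Qp q) u) = 1 := by
  letI : Algebra (SemiLocal K₀ q) (SemiLocal L q) := (semiLocalMap K₀ L q).toRingHom.toAlgebra
  set v : (SemiLocal K₀ q)ˣ :=
    Units.map (Algebra.norm (SemiLocal K₀ q) : SemiLocal L q →* SemiLocal K₀ q) u with hv
  have h1 : Units.map (Algebra.norm (Qp q) : SemiLocal L q →* Qp q) u =
      Units.map (Algebra.norm (Qp q) : SemiLocal K₀ q →* Qp q) v := by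
    apply Units.ext
    exact (H56.semiLocal_norm_norm K₀ L q (u : SemiLocal L q)).symm
  rw [h1]
  by_cases hqp : q = p
  · subst hqp
    exact thetaLoc_norm_self q M K₀ hp2 v
  · exact thetaLoc_norm_of_ne p q M K₀ hqp v

/-- **TH-2**. -/
theorem stmt_ThetaNorm : Stmt_ThetaNorm := by
  intro p M L _ _ T hp2 hζ y
  obtain ⟨ζ, hζ⟩ := hζ
  rw [cycloTheta, thetaQ]
  refine Finset.prod_eq_one (fun q _ => ?_)
  haveI : NeZero ((p : ℕ) ^ M) := neZero_pow p M
  haveI : IsCyclotomicExtension {(p : ℕ) ^ M} ℚ (IntermediateField.adjoin ℚ {ζ}) :=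
    hζ.intermediateField_adjoin_isCyclotomicExtension ℚ
  exact thetaLoc_norm_of_tower p M hp2 (IntermediateField.adjoin ℚ {ζ}) L q.1 (y q)

end Fermat.Agent.S55.CFT.H25

end
-- ==== END Fermat.Agent.S55.CFT.H25_Theta

-- ==== BEGIN Fermat.Agent.S55.CFT.H45_ValCSemi
section

set_option autoImplicit false
set_option linter.unusedSectionVars false
set_option linter.style.haveILetI false

noncomputable section

namespace Fermat.Agent.S55.CFT.H45

open CategoryTheory groupCohomology Rep Fermat.Agent.S55.CFT.LOC H58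

section semi

variable (q : ℕ) [Fact q.Prime] {G : Type} [Group G] [Finite G] {B : Type} [CommRing B]
  [MulSemiringAction G B] [Algebra ℚ_[q] B] [Module.Finite ℚ_[q] B] (M : Ideal B)
  [hM : M.IsMaximal]

/-- The absolute value of the residue field `B ⧸ M`. -/
def qnrm (x : B ⧸ M) : ℝ :=
  letI : Field (B ⧸ M) := Ideal.Quotient.field M
  nrm q (B ⧸ M) x

theorem qnrm_nonneg (x : B ⧸ M) : 0 ≤ qnrm q M x := by
  letI : Field (B ⧸ M) := Ideal.Quotient.field M
  exact nrm_nonneg q (B ⧸ M) x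

theorem qnrm_zero : qnrm q M 0 = 0 := by
  letI : Field (B ⧸ M) := Ideal.Quotient.field M
  exact nrm_zero q (B ⧸ M)

theorem qnrm_one : qnrm q M 1 = 1 := by
  letI : Field (B ⧸ M) := Ideal.Quotient.field M
  exact nrm_one q (B ⧸ M)

theorem qnrm_mul (x y : B ⧸ M) : qnrm q M (x * y) = qnrm q M x * qnrm q M y := by
  letI : Field (B ⧸ M) := Ideal.Quotient.field M
  exact nrm_mul q (B ⧸ M) x y

theorem qnrm_pow (x : B ⧸ M) (n : ℕ) : qnrm q M (x ^ n) = qnrm q M x ^ n := by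
  letI : Field (B ⧸ M) := Ideal.Quotient.field M
  exact nrm_pow q (B ⧸ M) x n

theorem qnrm_add_le_max (x y : B ⧸ M) : qnrm q M (x + y) ≤ max (qnrm q M x) (qnrm q M y) := by
  letI : Field (B ⧸ M) := Ideal.Quotient.field M
  exact nrm_add_le_max q (B ⧸ M) x y

theorem qnrm_natCast_of_not_dvd {m : ℕ} (hm : ¬ q ∣ m) : qnrm q M (m : B ⧸ M) = 1 := by
  letI : Field (B ⧸ M) := Ideal.Quotient.field M
  exact H25.nrm_natCast_of_not_dvd q (B ⧸ M) hm

theorem qnrm_natCast_q : qnrm q M ((q : ℕ) : B ⧸ M) < 1 := by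
  letI : Field (B ⧸ M) := Ideal.Quotient.field M
  show nrm q (B ⧸ M) ((q : ℕ) : B ⧸ M) < 1
  rw [nrm_natCast_q]
  have : (1 : ℝ) < (q : ℝ) := by exact_mod_cast (Fact.out : q.Prime).one_lt
  exact inv_lt_one_of_one_lt₀ this

theorem qnrm_le_one_of_isIntegral {y : B ⧸ M} (hy : IsIntegral ℤ y) : qnrm q M y ≤ 1 := by
  letI : Field (B ⧸ M) := Ideal.Quotient.field M
  letI := H72.algZ q (B ⧸ M)
  show nrm q (B ⧸ M) y ≤ 1
  rw [← H72.isIntegral_iff_nrm_le_one]
  exact hy.tower_top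

theorem valc_abstract (hJ : OrbitSeparates G M)
    (hk : ∀ (g : G) (c : ℚ_[q]), g • algebraMap ℚ_[q] B c = algebraMap ℚ_[q] B c)
    (hin : ∀ d : decomp G M,
      (∀ x : B ⧸ M, qnrm q M x ≤ 1 → qnrm q M (d • x - x) < 1) → d = 1)
    {VA : Type} [AddCommGroup VA] {ρA : Representation ℤ G VA}
    (f : ρA.IntertwiningMap (unitsRho G B))
    (hf : ∀ a : VA, qnrm q M (Ideal.Quotient.mk M (((f a).toMul : Bˣ) : B)) = 1)
    (x : groupCohomology (Rep.of ρA) 2) :
    ((groupCohomology.functor ℤ G 2).map (Rep.ofHom f : Rep.of ρA ⟶ unitsRepOf G B)).hom x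
      = 0 := by
  classical
  letI : Field (B ⧸ M) := Ideal.Quotient.field M
  letI : Fintype (decomp G M) := Fintype.ofFinite _
  have hk' : ∀ (d : decomp G M) (c : ℚ_[q]),
      d • algebraMap ℚ_[q] (B ⧸ M) c = algebraMap ℚ_[q] (B ⧸ M) c := by
    intro d c
    have h1 : algebraMap ℚ_[q] (B ⧸ M) c = Ideal.Quotient.mk M (algebraMap ℚ_[q] B c) := rfl
    rw [h1, quot_smul_mk, hk]
  obtain ⟨hcyc, hnorm⟩ := cyclic_and_norm_of_inertia q (decomp G M) (B ⧸ M) hk' hin
  -- the units of absolute value `1`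
  let O : Subgroup (B ⧸ M)ˣ :=
    { carrier := {u | nrm q (B ⧸ M) (u : B ⧸ M) = 1}
      one_mem' := by
        show nrm q (B ⧸ M) ((1 : (B ⧸ M)ˣ) : B ⧸ M) = 1
        rw [Units.val_one, nrm_one]
      mul_mem' := by
        intro a b ha hb
        show nrm q (B ⧸ M) ((a * b : (B ⧸ M)ˣ) : B ⧸ M) = 1
        rw [Units.val_mul, nrm_mul, ha, hb, mul_one]
      inv_mem' := by
        intro a ha
        show nrm q (B ⧸ M) ((a⁻¹ : (B ⧸ M)ˣ) : B ⧸ M) = 1
        rw [Units.val_inv_eq_inv_val, nrm_inv, ha, inv_one] }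
  have hO : ∀ (d : decomp G M) (u : (B ⧸ M)ˣ), u ∈ O →
      unitsSmul (decomp G M) (B ⧸ M) d u ∈ O := by
    intro d u hu
    show nrm q (B ⧸ M) (d • (u : B ⧸ M)) = 1
    rw [nrm_smul_eq q (decomp G M) (B ⧸ M) hk' d]
    exact hu
  have hH2 : Subsingleton (groupCohomology (Rep.of (subRho M O hO)) 2) := by
    haveI := hcyc
    obtain ⟨g, hg⟩ := hcyc.exists_generator
    refine h2_subsingleton_of_cyclic (subRho M O hO) g hg (fun a ha => ?_)
    have hgu : g • (((a.toMul : O) : (B ⧸ M)ˣ) : B ⧸ M) = (((a.toMul : O) : (B ⧸ M)ˣ) : B ⧸ M) :=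
      congrArg (fun z : Additive O => (((z.toMul : O) : (B ⧸ M)ˣ) : B ⧸ M)) ha
    have hall : ∀ d : decomp G M,
        d • (((a.toMul : O) : (B ⧸ M)ˣ) : B ⧸ M) = (((a.toMul : O) : (B ⧸ M)ˣ) : B ⧸ M) := by
      intro d
      have h1 : Subgroup.zpowers g ≤
          MulAction.stabilizer (decomp G M) ((((a.toMul : O) : (B ⧸ M)ˣ) : B ⧸ M)) := by
        rw [Subgroup.zpowers_le]
        exact hgu
      exact h1 (hg d)
    obtain ⟨w, hw1, hw⟩ := hnorm _ hall (a.toMul.2)
    have hw0 : w ≠ 0 := by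
      rintro rfl
      rw [nrm_zero] at hw1
      exact zero_ne_one hw1
    refine ⟨Additive.ofMul (⟨Units.mk0 w hw0, hw1⟩ : O), ?_⟩
    rw [finsum_eq_sum_of_fintype]
    apply Additive.toMul.injective
    rw [toMul_sum]
    apply Subtype.ext
    rw [SubmonoidClass.coe_finsetProd]
    apply Units.ext
    rw [Units.coe_prod]
    exact hw
  exact map_eq_zero_of_factors M O hO f hJ (fun a => hf a) hH2 x

/-! ### The same for any compatible action on the units -/

section bridge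

variable [MulDistribMulAction G Bˣ]

/-- `Rep.ofMulDistribMulAction G Bˣ → unitsRepOf G B`. -/
def bridgeHom (hc : ∀ (g : G) (u : Bˣ), ((g • u : Bˣ) : B) = g • (u : B)) :
    Rep.ofMulDistribMulAction G Bˣ ⟶ unitsRepOf G B :=
  Rep.ofHom (LinearMap.intertwiningMap_of_isIntertwiningMap _ _
    (LinearMap.id : Additive Bˣ →ₗ[ℤ] Additive Bˣ)
    (fun g a => congrArg Additive.ofMul (Units.ext (hc g a.toMul))))

/-- `unitsRepOf G B → Rep.ofMulDistribMulAction G Bˣ`. -/
def bridgeInv (hc : ∀ (g : G) (u : Bˣ), ((g • u : Bˣ) : B) = g • (u : B)) :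
    unitsRepOf G B ⟶ Rep.ofMulDistribMulAction G Bˣ :=
  Rep.ofHom (LinearMap.intertwiningMap_of_isIntertwiningMap _ _
    (LinearMap.id : Additive Bˣ →ₗ[ℤ] Additive Bˣ)
    (fun g a => congrArg Additive.ofMul (Units.ext (hc g a.toMul).symm)))

theorem bridge_comp (hc : ∀ (g : G) (u : Bˣ), ((g • u : Bˣ) : B) = g • (u : B)) :
    bridgeHom hc ≫ bridgeInv hc = 𝟙 (Rep.ofMulDistribMulAction G Bˣ) := by
  apply Rep.hom_ext
  apply Representation.IntertwiningMap.ext
  rfl

theorem valc_abstract' (hc : ∀ (g : G) (u : Bˣ), ((g • u : Bˣ) : B) = g • (u : B))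
    (hJ : OrbitSeparates G M)
    (hk : ∀ (g : G) (c : ℚ_[q]), g • algebraMap ℚ_[q] B c = algebraMap ℚ_[q] B c)
    (hin : ∀ d : decomp G M,
      (∀ x : B ⧸ M, qnrm q M x ≤ 1 → qnrm q M (quotRingHom G M d x - x) < 1) → d = 1)
    {VA : Type} [AddCommGroup VA] {ρA : Representation ℤ G VA}
    (φ : Rep.of ρA ⟶ Rep.ofMulDistribMulAction G Bˣ)
    (hφ : ∀ a : VA, qnrm q M (Ideal.Quotient.mk M
      (((Rep.toAdditive (φ.hom a)).toMul : Bˣ) : B)) = 1)
    (x : groupCohomology (Rep.of ρA) 2) :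
    ((groupCohomology.functor ℤ G 2).map φ).hom x = 0 := by
  have key := valc_abstract q M hJ hk hin (φ ≫ bridgeHom hc).hom (fun a => hφ a) x
  have e1 : (Rep.ofHom (φ ≫ bridgeHom hc).hom : Rep.of ρA ⟶ unitsRepOf G B) =
      φ ≫ bridgeHom hc := rfl
  rw [e1] at key
  have e2 : ((groupCohomology.functor ℤ G 2).map (bridgeHom hc)).hom
      (((groupCohomology.functor ℤ G 2).map φ).hom x) = 0 := by
    rw [← key, Functor.map_comp]
    rfl
  have e3 := congrArg ((groupCohomology.functor ℤ G 2).map (bridgeInv hc)).hom e2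
  rw [map_zero] at e3
  have e4 : ((groupCohomology.functor ℤ G 2).map (bridgeInv hc)).hom
      (((groupCohomology.functor ℤ G 2).map (bridgeHom hc)).hom
        (((groupCohomology.functor ℤ G 2).map φ).hom x)) =
      ((groupCohomology.functor ℤ G 2).map φ).hom x := by
    have h5 : (groupCohomology.functor ℤ G 2).map (bridgeHom hc) ≫
        (groupCohomology.functor ℤ G 2).map (bridgeInv hc) = 𝟙 _ := by
      rw [← Functor.map_comp, bridge_comp]
      exact (groupCohomology.functor ℤ G 2).map_id _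
    have h6 := congrArg (fun ψ => ψ.hom (((groupCohomology.functor ℤ G 2).map φ).hom x)) h5
    exact h6
  rw [e4] at e3
  exact e3

end bridge

end semi

end Fermat.Agent.S55.CFT.H45

end
end
-- ==== END Fermat.Agent.S55.CFT.H45_ValCSemi

-- ==== BEGIN Fermat.Agent.S55.CFT.H61_WTwoFinal
section

set_option autoImplicit false
set_option linter.style.haveILetI false
set_option linter.unusedSectionVars false

open NumberField TensorProduct CategoryTheory

noncomputable section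

namespace Fermat.Agent.S55.CFT.H61

open Fermat.Agent.S55.CFT groupCohomology

open Classical in
/-- **W-Two**: BR-Two from the wave-3 leaves. -/
theorem stmt_BrTwo_of (hDG : Stmt_DegGrow) (hLII : Stmt_LocInfImage) (hInj : Stmt_InfJvInj)
    (hCyc : Stmt_CycClass) (hTHL : Stmt_THL) (hRec : Stmt_CycRec) (hUNN : Stmt_UnrNorm) :
    Stmt_BrTwo := by
  intro p m K L _ _ _ _ _ h v₁ v₂ hne b
  haveI : IsGalois K L := h.gal
  have hp : p.Prime := h.prime
  have hodd : p ≠ 2 := h.odd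
  obtain ⟨M₁, hM₁⟩ := hDG p m K hp h.zeta v₁
  obtain ⟨M₂, hM₂⟩ := hDG p m K hp h.zeta v₂
  obtain ⟨q₁, w₁⟩ := v₁
  obtain ⟨q₂, w₂⟩ := v₂
  have hneM : NeZero (p ^ max M₁ M₂) := ⟨pow_ne_zero _ hp.ne_zero⟩
  refine ⟨max M₁ M₂, hneM, ?_⟩
  haveI := hneM
  haveI hgalN : IsGalois K (CyclotomicField (p ^ max M₁ M₂) L) :=
    H56.isGalois_cyclo K L (p ^ max M₁ M₂)
  obtain ⟨m', hm'⟩ := H13.finrank_tower_prime_pow K L (CyclotomicField (p ^ max M₁ M₂) L)
    p m (max M₁ M₂) hp h.zeta h.deg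
  have hN : Hyp3 K (CyclotomicField (p ^ max M₁ M₂) L) p m' :=
    { prime := hp, odd := hodd, zeta := h.zeta, gal := hgalN, deg := hm' }
  obtain ⟨ζ, hζ⟩ : ∃ ζ : CyclotomicField (p ^ max M₁ M₂) L, IsPrimitiveRoot ζ (p ^ max M₁ M₂) :=
    ⟨_, IsCyclotomicExtension.zeta_spec (p ^ max M₁ M₂) L _⟩
  haveI hcycK : IsCyclotomicExtension {p ^ max M₁ M₂} K ↥(IntermediateField.adjoin K {ζ}) :=
    hζ.intermediateField_adjoin_isCyclotomicExtension K
  haveI hgalL' : IsGalois K ↥(IntermediateField.adjoin K {ζ}) :=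
    IsCyclotomicExtension.isGalois {p ^ max M₁ M₂} K _
  haveI : IsCyclic (ZMod (p ^ max M₁ M₂))ˣ :=
    ZMod.isCyclic_units_of_prime_pow p hp hodd (max M₁ M₂)
  have hmem : ζ ∈ IntermediateField.adjoin K {ζ} :=
    IntermediateField.mem_adjoin_simple_self K ζ
  have hζ' : IsPrimitiveRoot (⟨ζ, hmem⟩ : ↥(IntermediateField.adjoin K {ζ}))
      (p ^ max M₁ M₂) := by
    have : IsPrimitiveRoot (algebraMap ↥(IntermediateField.adjoin K {ζ})
        (CyclotomicField (p ^ max M₁ M₂) L) ⟨ζ, hmem⟩) (p ^ max M₁ M₂) := hζ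
    exact this.of_map_of_injective
      (algebraMap ↥(IntermediateField.adjoin K {ζ}) (CyclotomicField (p ^ max M₁ M₂) L)).injective
  have hcycl : IsCyclic
      (↥(IntermediateField.adjoin K {ζ}) ≃ₐ[K] ↥(IntermediateField.adjoin K {ζ})) :=
    isCyclic_of_injective (hζ'.autToPow K) (hζ'.autToPow_injective K)
  have hcplx : IsTotallyComplex K := H56.isTotallyComplex_of_primitiveRoot p hp hodd K h.zeta
  obtain ⟨T, hT, hadm⟩ := H56.stmt_AdmissibleExists p K ↥(IntermediateField.adjoin K {ζ})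
    {q₁, q₂} hp hgalL' hcplx
  have h₁T : q₁ ∈ T := hT (by simp)
  have h₂T : q₂ ∈ T := hT (by simp)
  have hd₁ := hM₁ (max M₁ M₂) (le_max_left _ _) ↥(IntermediateField.adjoin K {ζ}) hcycK
  have hd₂ := hM₂ (max M₁ M₂) (le_max_right _ _) ↥(IntermediateField.adjoin K {ζ}) hcycK
  exact brTwo_tower K L ↥(IntermediateField.adjoin K {ζ}) (CyclotomicField (p ^ max M₁ M₂) L)
    hLII hInj hCyc hTHL hRec hUNN ⟨p, hp⟩ m m' (max M₁ M₂) hN h.gal h.deg hgalL' hcycK hcycl
    T hadm q₁ q₂ w₁ w₂ hne h₁T h₂T hd₁ hd₂ b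

end Fermat.Agent.S55.CFT.H61

end
end
-- ==== END Fermat.Agent.S55.CFT.H61_WTwoFinal

-- ==== BEGIN Fermat.Agent.S55.CFT.LOC.H25_UC
section

set_option autoImplicit false
set_option linter.unusedSectionVars false
set_option linter.style.haveILetI false

namespace Fermat.Agent.S55.CFT.LOC.H25

open Fermat.Agent.S55.CFT.LOC

section galois

variable (F E : Type) [Field F] [Field E] [Algebra F E] [IsGalois F E] [CharZero F]

/-- `E(ζ)/F` is Galois for `E/F` Galois and `ζ` a root of unity. -/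
theorem isGalois_adjoin_root {M : ℕ} [NeZero M] {ζ : AlgebraicClosure E}
    (hζ : IsPrimitiveRoot ζ M) :
    IsGalois F (IntermediateField.adjoin E {ζ}) := by
  classical
  let Ω := AlgebraicClosure E
  let φ : E →ₐ[F] Ω := IsScalarTower.toAlgHom F E Ω
  let E₁ : IntermediateField F Ω := φ.fieldRange
  let i : E ≃ₐ[F] E₁ := AlgEquiv.ofInjectiveField φ
  haveI : Algebra.IsAlgebraic F Ω := Algebra.IsAlgebraic.trans F E Ω
  haveI : Algebra.IsIntegral F Ω := Algebra.IsAlgebraic.isIntegral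
  have h1 : (IntermediateField.adjoin E {ζ}).restrictScalars F =
      E₁ ⊔ IntermediateField.adjoin F {ζ} := by
    rw [IntermediateField.restrictScalars_adjoin_of_algEquiv (F := F) (E := Ω) i (by rfl) {ζ},
      IntermediateField.restrictScalars_adjoin_eq_sup]
  haveI hn1 : Normal F E₁ := Normal.of_algEquiv i
  haveI hc : IsCyclotomicExtension {M} F (IntermediateField.adjoin F {ζ}) :=
    hζ.intermediateField_adjoin_isCyclotomicExtension F
  haveI hn2 : Normal F (IntermediateField.adjoin F {ζ}) :=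
    (IsCyclotomicExtension.isGalois {M} F (IntermediateField.adjoin F {ζ})).to_normal
  have hn3 : Normal F ((IntermediateField.adjoin E {ζ}).restrictScalars F) := by
    rw [h1]
    infer_instance
  have hn4 : Normal F (IntermediateField.adjoin E {ζ}) := hn3
  exact ⟨⟩

omit [IsGalois F E] [CharZero F] in
/-- `E(ζ) = E·F(ζ)`. -/
theorem sup_fieldRange_eq_top {ζ : AlgebraicClosure E} :
    IntermediateField.adjoin F
        {(⟨ζ, IntermediateField.mem_adjoin_simple_self E ζ⟩ : IntermediateField.adjoin E {ζ})} ⊔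
      (IsScalarTower.toAlgHom F E (IntermediateField.adjoin E {ζ})).fieldRange = ⊤ := by
  rw [eq_top_iff]
  rintro ⟨x, hx⟩ -
  set T := IntermediateField.adjoin F
        {(⟨ζ, IntermediateField.mem_adjoin_simple_self E ζ⟩ : IntermediateField.adjoin E {ζ})} ⊔
      (IsScalarTower.toAlgHom F E (IntermediateField.adjoin E {ζ})).fieldRange with hT
  induction hx using IntermediateField.adjoin_induction with
  | mem y hy =>
    rw [Set.mem_singleton_iff] at hy
    subst hy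
    exact (le_sup_left : _ ≤ T) (IntermediateField.mem_adjoin_simple_self F _)
  | algebraMap y =>
    refine (le_sup_right : _ ≤ T) ?_
    exact ⟨y, rfl⟩
  | add y z hy hz ihy ihz => exact T.add_mem ihy ihz
  | inv y hy ihy => exact T.inv_mem ihy
  | mul y z hy hz ihy ihz => exact T.mul_mem ihy ihz

end galois

/-- **LOC-2c**: the unramified compositum. -/
theorem stmt_UnramCompositum : Stmt_UnramCompositum := by
  intro q _ F E _ _ _ _ _ _ _ _ _
  classical
  haveI : CharZero F := charZero_of_injective_algebraMap (algebraMap ℚ_[q] F).injective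
  haveI : FiniteDimensional ℚ_[q] E := Module.Finite.trans F E
  haveI : CharZero E := charZero_of_injective_algebraMap (algebraMap F E).injective
  haveI : CharZero (AlgebraicClosure E) :=
    charZero_of_injective_algebraMap (algebraMap E (AlgebraicClosure E)).injective
  have hnpos : 0 < Module.finrank F E := Module.finrank_pos
  obtain ⟨f0, -, hf0⟩ := FiniteField.card (resF q F) q
  obtain ⟨a, -, ha⟩ := FiniteField.card (resF q E) q
  have hNF : resCard q F = q ^ (f0 : ℕ) := hf0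
  have hNE : resCard q E = q ^ (a : ℕ) := ha
  have hM : resCard q F ^ (Module.finrank F E * a) = resCard q E ^ (Module.finrank F E * f0) := by
    rw [hNF, hNE, ← pow_mul, ← pow_mul]
    congr 1
    ring
  have hna : 0 < Module.finrank F E * (a : ℕ) := Nat.mul_pos hnpos a.pos
  have hnf : 0 < Module.finrank F E * (f0 : ℕ) := Nat.mul_pos hnpos f0.pos
  haveI : NeZero (resCard q F ^ (Module.finrank F E * a) - 1) :=
    ⟨(pow_resCard_sub_one_pos q F hna).ne'⟩
  haveI : NeZero (resCard q E ^ (Module.finrank F E * f0) - 1) :=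
    ⟨(pow_resCard_sub_one_pos q E hnf).ne'⟩
  haveI : NeZero ((resCard q F ^ (Module.finrank F E * a) - 1 : ℕ) : AlgebraicClosure E) :=
    NeZero.charZero
  obtain ⟨ζ, hζ⟩ := HasEnoughRootsOfUnity.exists_primitiveRoot (AlgebraicClosure E)
    (resCard q F ^ (Module.finrank F E * a) - 1)
  let L : IntermediateField E (AlgebraicClosure E) := IntermediateField.adjoin E {ζ}
  let ζL : L := ⟨ζ, IntermediateField.mem_adjoin_simple_self E ζ⟩
  have hζL : IsPrimitiveRoot ζL (resCard q F ^ (Module.finrank F E * a) - 1) := by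
    have h1 : IsPrimitiveRoot (algebraMap L (AlgebraicClosure E) ζL)
        (resCard q F ^ (Module.finrank F E * a) - 1) := hζ
    exact IsPrimitiveRoot.of_map_of_injective (f := algebraMap L (AlgebraicClosure E)) h1
      (algebraMap L (AlgebraicClosure E)).injective
  have hζL' : IsPrimitiveRoot ζL (resCard q E ^ (Module.finrank F E * f0) - 1) := by
    rw [← hM]
    exact hζL
  haveI hcycL : IsCyclotomicExtension {resCard q E ^ (Module.finrank F E * f0) - 1} E L := by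
    have := hζ.intermediateField_adjoin_isCyclotomicExtension E
    rw [hM] at this
    exact this
  haveI : FiniteDimensional E L :=
    IsCyclotomicExtension.finiteDimensional {resCard q E ^ (Module.finrank F E * f0) - 1} E L
  haveI : FiniteDimensional F L := Module.Finite.trans E L
  haveI hST : IsScalarTower ℚ_[q] F L := IsScalarTower.of_algebraMap_eq (fun r => by
    rw [IsScalarTower.algebraMap_apply ℚ_[q] E L, IsScalarTower.algebraMap_apply ℚ_[q] F E,
      ← IsScalarTower.algebraMap_apply F E L])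
  haveI : FiniteDimensional ℚ_[q] L := Module.Finite.trans F L
  haveI hGalFL : IsGalois F L := isGalois_adjoin_root F E hζ
  haveI hGalEL : IsGalois E L :=
    IsCyclotomicExtension.isGalois {resCard q E ^ (Module.finrank F E * f0) - 1} E L
  let E' : IntermediateField F L := IntermediateField.adjoin F {ζL}
  haveI hcycE' : IsCyclotomicExtension {resCard q F ^ (Module.finrank F E * a) - 1} F E' :=
    hζL.intermediateField_adjoin_isCyclotomicExtension F
  haveI : FiniteDimensional ℚ_[q] E' := Module.Finite.trans F E'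
  let ζE' : E' := ⟨ζL, IntermediateField.mem_adjoin_simple_self F ζL⟩
  have hζE' : IsPrimitiveRoot ζE' (resCard q F ^ (Module.finrank F E * a) - 1) := by
    have h1 : IsPrimitiveRoot (algebraMap E' L ζE')
        (resCard q F ^ (Module.finrank F E * a) - 1) := hζL
    exact IsPrimitiveRoot.of_map_of_injective (f := algebraMap E' L) h1
      (algebraMap E' L).injective
  have hGalE' : IsGalois F E' :=
    IsCyclotomicExtension.isGalois {resCard q F ^ (Module.finrank F E * a) - 1} F E'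
  have hcE' : IsCyclic (E' ≃ₐ[F] E') := isCyclic_aut q F E' hna hζE'
  have hdE' : Module.finrank F E' = Module.finrank F E * a := finrank_eq q F E' hna hζE'
  have huE' : IsUnram q F E' := isUnram q F E' hna hζE'
  have hcL : IsCyclic (L ≃ₐ[E] L) := isCyclic_aut q E L hnf hζL'
  have hdL : Module.finrank E L = Module.finrank F E * f0 := finrank_eq q E L hnf hζL'
  have huL : IsUnram q E L := isUnram q E L hnf hζL'
  have hres : ∀ y : L, nrm q L y ≤ 1 → ∃ x : E', nrm q L (y - algebraMap E' L x) < 1 := by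
    intro y hy
    obtain ⟨y', hy'S, hy'⟩ := exists_mem_subring_congr q E L hnf hζL' E'.toSubring
      (IntermediateField.mem_adjoin_simple_self F ζL) y hy
    exact ⟨⟨y', hy'S⟩, hy'⟩
  refine ⟨L, inferInstance, inferInstance, inferInstance, inferInstance, hST, inferInstance,
    inferInstance, hGalFL, E', a, a.pos, hGalE', hcE', hdE', huE', sup_fieldRange_eq_top F E,
    hcL, ?_⟩
  intro x hx
  exact exists_norm_eq_pow q F E L E' a f0 huE' huL hres hdE' hdL hcL x hx

end Fermat.Agent.S55.CFT.LOC.H25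

end
-- ==== END Fermat.Agent.S55.CFT.LOC.H25_UC

-- ==== BEGIN Fermat.Agent.S55.CFT.LOC.H41_THLQ
section

/-!
# S55 / E4 / CFT, leaf THL-Q (helper41)

`stmt_THL_GenQ : Stmt_THL_GenQ`: for `q ≠ p`, `F/ℚ_q` finite, `E/F` finite, `ζ ∈ E` a primitive
`p^M`-th root of unity, there is `β ∈ Fˣ` (a uniformiser) such that every `σ ∈ Aut(E/F)` maps
`ζ` to `ζ ^ (θ(β) ^ j)`.

* `exists_pow_of_hom_all` : an endomorphism of a finite field over a subfield with `N` elements
  is a power of `x ↦ x ^ N`.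
* `aut_root_eq_pow` : `σ ζ = ζ ^ (#k_F) ^ j` for a root of unity `ζ` of order prime to `q`.
* `exists_unif_norm` : a uniformiser `π` of `F` has `|N_{F/ℚ_q} π| = q ^ (-f)`, `#k_F = q ^ f`.
-/

set_option autoImplicit false
set_option linter.unusedSectionVars false
set_option linter.style.haveILetI false

noncomputable section

namespace Fermat.Agent.S55.CFT.LOC.H41

open Fermat.Agent.S55.CFT Fermat.Agent.S55.CFT.LOC Polynomial

section finite

variable {K L : Type*} [Field K] [Fintype K] [Field L] [Finite L] (φ : K →+* L)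

/-- An endomorphism of the finite field `L` over the subfield `K` with `N` elements is a power
of the Frobenius `x ↦ x ^ N`. -/
theorem exists_pow_of_hom_all (τ : L →+* L) (hτ : τ.comp φ = φ) :
    ∃ j : ℕ, ∀ x : L, τ x = x ^ (Fintype.card K) ^ j := by
  classical
  letI : Fintype L := Fintype.ofFinite L
  letI : Algebra K L := φ.toAlgebra
  have hN : 2 ≤ Fintype.card K := Fintype.one_lt_card
  have hd : 0 < Module.finrank K L := Module.finrank_pos
  have hcard : Fintype.card L = Fintype.card K ^ Module.finrank K L :=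
    Module.card_eq_pow_finrank (K := K) (V := L)
  obtain ⟨g, hg⟩ := IsCyclic.exists_generator (α := Lˣ)
  have hord : orderOf g = Fintype.card K ^ Module.finrank K L - 1 := by
    rw [orderOf_eq_card_of_forall_mem_zpowers hg, Nat.card_eq_fintype_card, Fintype.card_units,
      hcard]
  have hz : IsPrimitiveRoot (g : L) (Fintype.card K ^ Module.finrank K L - 1) := by
    rw [← hord]
    exact IsPrimitiveRoot.coe_units_iff.mpr (IsPrimitiveRoot.orderOf g)
  obtain ⟨j, -, hj⟩ := H25.exists_pow_of_hom φ hd hz τ hτ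
  refine ⟨j, fun x => ?_⟩
  by_cases hx : x = 0
  · rw [hx, map_zero, zero_pow (pow_ne_zero _ (by omega))]
  · have hx1 : x ^ (Fintype.card K ^ Module.finrank K L - 1) = 1 := by
      rw [← hcard]
      exact FiniteField.pow_card_sub_one_eq_one x hx
    haveI : NeZero (Fintype.card K ^ Module.finrank K L - 1) := ⟨by
      have h2 : Fintype.card K ^ 1 ≤ Fintype.card K ^ Module.finrank K L :=
        Nat.pow_le_pow_right (by omega) hd
      rw [pow_one] at h2
      omega⟩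
    obtain ⟨i, -, hi⟩ := hz.eq_pow_of_pow_eq_one hx1
    rw [← hi, map_pow, hj, ← pow_mul, ← pow_mul, mul_comm]

end finite

section tower

variable (q : ℕ) [Fact q.Prime] (F E : Type) [Field F] [Field E] [Algebra ℚ_[q] F]
  [FiniteDimensional ℚ_[q] F] [Algebra ℚ_[q] E] [FiniteDimensional ℚ_[q] E] [Algebra F E]
  [IsScalarTower ℚ_[q] F E]

/-- An automorphism of `E/F` acts on the roots of unity of order prime to `q` by a power of
`x ↦ x ^ #k_F`. -/
theorem aut_root_eq_pow {m : ℕ} (hm : ¬ q ∣ m) {ζ : E} (hζ : ζ ^ m = 1) (σ : E ≃ₐ[F] E) :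
    ∃ j : ℕ, σ ζ = ζ ^ (H25.resCard q F) ^ j := by
  have hm0 : m ≠ 0 := by
    rintro rfl
    exact hm (dvd_zero q)
  have hζ1 : nrm q E ζ = 1 := H25.nrm_of_pow_eq_one q E hm0 hζ
  let ζO : H25.vring q E := ⟨ζ, hζ1.le⟩
  have hζO : ζO ^ m = 1 := by
    apply Subtype.ext
    change ζ ^ m = 1
    exact hζ
  obtain ⟨j, hj⟩ := exists_pow_of_hom_all (H25.resMap q F E) (H25.resAut q F E σ)
    (H25.resAut_comp_resMap q F E σ)
  refine ⟨j, ?_⟩
  have h1 := hj (H25.res q E ζO)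
  rw [H25.resAut_res, ← map_pow] at h1
  have hx : (H25.vringAut q F E σ ζO) ^ m = 1 := by
    rw [← map_pow, hζO, map_one]
  have hy : (ζO ^ Fintype.card (H25.resF q F) ^ j) ^ m = 1 := by
    rw [← pow_mul, mul_comm, pow_mul, hζO, one_pow]
  have h3 := H25.eq_of_res_eq q E hm _ _ hx hy h1
  exact congrArg Subtype.val h3

end tower

section unif

variable (q : ℕ) [Fact q.Prime] (F : Type) [Field F] [Algebra ℚ_[q] F]
  [FiniteDimensional ℚ_[q] F]

/-- A uniformiser `π` of `F` has `|N_{F/ℚ_q} π| = q ^ (-f)`, where `#k_F = q ^ f`. -/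
theorem exists_unif_norm :
    ∃ (π : F) (f : ℕ), π ≠ 0 ∧ 0 < f ∧ H25.resCard q F = q ^ f ∧
      ‖Algebra.norm ℚ_[q] π‖ = ((q : ℝ)⁻¹) ^ f := by
  classical
  have hq : q.Prime := Fact.out
  have hq1 : (1 : ℝ) < q := by exact_mod_cast hq.one_lt
  have hq0 : (0 : ℝ) < q := by linarith
  haveI : CharZero F := charZero_of_injective_algebraMap (algebraMap ℚ_[q] F).injective
  obtain ⟨f, hf, hNf0⟩ := exists_resCard_eq_pow q ℚ_[q] F
  have hNf : H25.resCard q F = q ^ f := by rw [hNf0, H25.resCard_padic]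
  obtain ⟨ξ, hξ0⟩ := exists_primitiveRoot_resCard q F
  have hξ : IsPrimitiveRoot ξ (H25.resCard q ℚ_[q] ^ f - 1) := by
    rw [← hNf0]
    exact hξ0
  -- the unramified subfield
  let F₀ : IntermediateField ℚ_[q] F := IntermediateField.adjoin ℚ_[q] {ξ}
  haveI hne : NeZero (H25.resCard q ℚ_[q] ^ f - 1) :=
    ⟨(H25.pow_resCard_sub_one_pos q ℚ_[q] hf).ne'⟩
  haveI hcyc : IsCyclotomicExtension {H25.resCard q ℚ_[q] ^ f - 1} ℚ_[q] F₀ :=
    hξ.intermediateField_adjoin_isCyclotomicExtension ℚ_[q]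
  haveI hfd : FiniteDimensional ℚ_[q] F₀ :=
    IsCyclotomicExtension.finiteDimensional {H25.resCard q ℚ_[q] ^ f - 1} ℚ_[q] F₀
  let ξE : F₀ := ⟨ξ, IntermediateField.mem_adjoin_simple_self ℚ_[q] ξ⟩
  have hξE : IsPrimitiveRoot ξE (H25.resCard q ℚ_[q] ^ f - 1) := by
    have h1 : IsPrimitiveRoot (algebraMap F₀ F ξE) (H25.resCard q ℚ_[q] ^ f - 1) := hξ
    exact IsPrimitiveRoot.of_map_of_injective (f := algebraMap F₀ F) h1
      (algebraMap F₀ F).injective
  have hfin0 : Module.finrank ℚ_[q] F₀ = f := H25.finrank_eq q ℚ_[q] F₀ hf hξE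
  have hunr : IsUnram q ℚ_[q] F₀ := H25.isUnram q ℚ_[q] F₀ hf hξE
  -- the uniformiser
  obtain ⟨π, hπ0, hπ1, hπ⟩ := H68.stmt_Uniformizer q F
  have hπne : π ≠ 0 := by
    intro h
    rw [h, nrm_zero] at hπ0
    exact lt_irrefl _ hπ0
  have hres : ∀ y : F, nrm q F y ≤ 1 → ∃ x : F₀, nrm q F (y - algebraMap F₀ F x) < 1 := by
    intro y hy
    by_cases h1 : nrm q F y = 1
    · obtain ⟨i, hi⟩ := H25.exists_pow_congr q F F hξ0 y h1
      exact ⟨ξE ^ i, hi⟩
    · refine ⟨0, ?_⟩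
      rw [map_zero, sub_zero]
      exact lt_of_le_of_ne hy h1
  have hTR := stmt_TotRamNorm q F₀ F hres π hπ0 hπ1 hπ
  set ν : F₀ := Algebra.norm F₀ π with hν
  have hν0 : ν ≠ 0 := Algebra.norm_ne_zero_iff.mpr hπne
  have hFF₀ : FiniteDimensional F₀ F := FiniteDimensional.right ℚ_[q] F₀ F
  have hνnrm : nrm q F₀ ν = nrm q F π ^ Module.finrank F₀ F := H20.stmt_NrmNormGen q F₀ F π
  have hνlt : nrm q F₀ ν < 1 := by
    rw [hνnrm]
    exact pow_lt_one₀ hπ0.le hπ1 Module.finrank_pos.ne'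
  obtain ⟨x, hx⟩ := hunr ν
  rw [H25.nrm_padic] at hx
  have hx0 : x ≠ 0 := by
    intro h
    rw [h, norm_zero] at hx
    exact hν0 ((nrm_eq_zero_iff q F₀).mp hx)
  have hxv : ‖x‖ = (q : ℝ) ^ (-x.valuation) := Padic.norm_eq_zpow_neg_valuation hx0
  have hqF₀ : ((q : ℕ) : F₀) ≠ 0 := by exact_mod_cast hq.ne_zero
  obtain ⟨k, hk⟩ := hTR ((q : ℕ) : F₀) hqF₀
  rw [nrm_natCast_q, hx, hxv, ← zpow_mul, ← zpow_neg_one] at hk
  have hvk : (-1 : ℤ) = -x.valuation * k := zpow_right_injective₀ hq0 hq1.ne' hk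
  have hvpos : 0 < x.valuation := by
    by_contra h
    push Not at h
    have h1 : (1 : ℝ) ≤ (q : ℝ) ^ (-x.valuation) := one_le_zpow₀ hq1.le (by omega)
    rw [← hxv, ← hx] at h1
    linarith
  have hv1 : x.valuation = 1 := by
    have h1 : x.valuation * k = 1 := by linarith
    exact Int.eq_one_of_mul_eq_one_right hvpos.le h1
  have hνq : nrm q F₀ ν = (q : ℝ)⁻¹ := by
    rw [hx, hxv, hv1, zpow_neg_one]
  -- the norm to `ℚ_q`
  have hNN : Algebra.norm ℚ_[q] π = Algebra.norm ℚ_[q] ν :=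
    (Algebra.norm_norm (R := ℚ_[q]) (S := F₀) (a := π)).symm
  refine ⟨π, f, hπne, hf, hNf, ?_⟩
  rw [hNN, ← H25.nrm_padic, H20.stmt_NrmNormGen q ℚ_[q] F₀ ν, hνq, hfin0]

end unif

/-- **THL-Q.** -/
theorem stmt_THL_GenQ : Stmt_THL_GenQ := by
  intro p M q F E _ _ _ _ _ _ hqp ζ hζ
  classical
  haveI := fact_primes q
  haveI := fact_primes p
  letI : Algebra (Qp q) E := ((algebraMap F E).comp (algebraMap (Qp q) F)).toAlgebra
  haveI : IsScalarTower (Qp q) F E := IsScalarTower.of_algebraMap_eq (fun _ => rfl)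
  haveI : FiniteDimensional (Qp q) E := Module.Finite.trans F E
  have hq1 : (1 : ℝ) < (q : ℕ) := by exact_mod_cast q.2.one_lt
  have hq0 : (0 : ℝ) < (q : ℕ) := by linarith
  obtain ⟨π, f, hπ0, hf, hNf, hnorm⟩ := exists_unif_norm (q : ℕ) F
  refine ⟨Units.mk0 π hπ0, fun σ => ?_⟩
  have hm : ¬ (q : ℕ) ∣ (p : ℕ) ^ M := by
    intro h
    have h1 := (Nat.prime_dvd_prime_iff_eq q.2 p.2).mp (q.2.dvd_of_dvd_pow h)
    exact hqp (Subtype.ext h1)
  obtain ⟨j, hj⟩ := aut_root_eq_pow (q : ℕ) F E hm hζ.pow_eq_one σ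
  refine ⟨j, ?_⟩
  rw [hj]
  -- the valuation of the norm
  have hN0 : Algebra.norm (Qp q) π ≠ 0 := Algebra.norm_ne_zero_iff.mpr hπ0
  have hval : Padic.valuation (Algebra.norm (Qp q) π) = (f : ℤ) := by
    have h1 := Padic.norm_eq_zpow_neg_valuation hN0
    rw [hnorm, ← zpow_natCast, ← zpow_neg_one, ← zpow_mul] at h1
    have h2 := zpow_right_injective₀ hq0 hq1.ne' h1
    linarith
  have hθ : thetaAlg p M q F (Units.mk0 π hπ0) = primeUnit p q M hqp ^ f := by
    unfold thetaAlg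
    rw [H56.thetaLoc_ne p M q hqp]
    change primeUnit p q M hqp ^ Padic.valuation (Algebra.norm (Qp q) π) = _
    rw [hval, zpow_natCast]
  have hθ' : (((thetaAlg p M q F (Units.mk0 π hπ0)) ^ j : (ZMod ((p : ℕ) ^ M))ˣ) :
      ZMod ((p : ℕ) ^ M)) = ((H25.resCard (q : ℕ) F ^ j : ℕ) : ZMod ((p : ℕ) ^ M)) := by
    rw [hθ, hNf, Units.val_pow_eq_pow_val, Units.val_pow_eq_pow_val]
    unfold primeUnit
    rw [ZMod.coe_unitOfCoprime]
    push_cast
    rfl
  rw [hθ', ZMod.val_natCast]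
  exact pow_eq_pow_mod _ hζ.pow_eq_one

end Fermat.Agent.S55.CFT.LOC.H41

end
end
-- ==== END Fermat.Agent.S55.CFT.LOC.H41_THLQ

-- ==== BEGIN Fermat.Agent.S55.Top.Adj
section

set_option autoImplicit false
set_option linter.unusedSectionVars false
set_option linter.unusedSimpArgs false

open CategoryTheory Module groupCohomology ExtCitation

noncomputable section

namespace Fermat.Agent.S55.Top

open Fermat.Agent.S55 OrbitData

attribute [local instance] locAct

variable {k : Type} [Field k] {S : Finset Nat.Primes}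
  {K : IntermediateField ℚ (AlgebraicClosure ℚ)}

/-! ### Cone cup products in coordinates -/

/-- cone on the left, degrees `(2, 1)`, in coordinates. -/
def cA2 (x : C2c S (FX k K)) (B : GQ → XK K → k) : C3c S (FX k K) :=
  (cup21 (x.1 : GQ × GQ → XK K → k) B,
   fun q => cup11 (x.2 q : Gl q.1 → XK K → k) (resOne q.1 B))

/-- cone on the left, degrees `(3, 0)`, in coordinates. -/
def cA3 (x : C3c S (FX k K)) (m : XK K → k) : C3c S (FX k K) :=
  (cup30 (x.1 : GQ × GQ × GQ → XK K → k) m,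
   fun q => cup20 (x.2 q : Gl q.1 × Gl q.1 → XK K → k) m)

/-- cone on the right, degrees `(2, 1)`, in coordinates. -/
def cB1 (A : GQ × GQ → XK K → k) (y : C1c S (FX k K)) : C3c S (FX k K) :=
  (cup21 A (y.1 : GQ → XK K → k),
   fun q => cup20 (resTwo q.1 A) (y.2 q : XK K → k))

/-- cone on the right, degrees `(1, 2)`, in coordinates. -/
def cB2 (A : GQ → XK K → k) (y : C2c S (FX k K)) : C3c S (FX k K) :=
  (cup12 A (y.1 : GQ × GQ → XK K → k),
   fun q => - cup11 (resOne q.1 A) (y.2 q : Gl q.1 → XK K → k))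

/-! ### Restriction and cup products -/

lemma res_cup21 (q : Nat.Primes) (A : GQ × GQ → XK K → k) (B : GQ → XK K → k) :
    resThree q (cup21 A B) = cup21 (resTwo q A) (resOne q B) := by
  funext t x
  simp only [resThree, cup21, resTwo, resOne, locAct_smul, map_inv]

lemma res_cup12 (q : Nat.Primes) (A : GQ → XK K → k) (B : GQ × GQ → XK K → k) :
    resThree q (cup12 A B) = cup12 (resOne q A) (resTwo q B) := by
  funext t x
  simp only [resThree, cup12, resTwo, resOne, locAct_smul, map_inv]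

variable (𝔓 : PlaceSys S K)

/-! ### Induction of products -/

lemma PlaceSys.indK₃_mul21 (a : ↥K.fixingSubgroup × ↥K.fixingSubgroup → k)
    (b : ↥K.fixingSubgroup → k) :
    𝔓.indK₃ (fun t => a (t.1, t.2.1) * b t.2.2) = cup21 (𝔓.indK₂ a) (𝔓.indK₁ b) := by
  unfold PlaceSys.indK₃ PlaceSys.indK₂ PlaceSys.indK₁
  rw [← ind3_pc21]
  apply ind3_congr
  intro r t h1 h2 h3
  obtain ⟨g₁, g₂, g₃⟩ := t
  have m1 := (𝔓.glob_stab g₁).1 h1
  have m2 := (𝔓.glob_stab g₂).1 h2
  have m3 := (𝔓.glob_stab g₃).1 h3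
  rw [eG₃_mem _ m1 m2 m3]
  simp only [pc21, eG₂_mem _ m1 m2, eG₁_mem _ m3]

lemma PlaceSys.indK₃_mul12 (a : ↥K.fixingSubgroup → k)
    (b : ↥K.fixingSubgroup × ↥K.fixingSubgroup → k) :
    𝔓.indK₃ (fun t => a t.1 * b (t.2.1, t.2.2)) = cup12 (𝔓.indK₁ a) (𝔓.indK₂ b) := by
  unfold PlaceSys.indK₃ PlaceSys.indK₂ PlaceSys.indK₁
  rw [← ind3_pc12]
  apply ind3_congr
  intro r t h1 h2 h3
  obtain ⟨g₁, g₂, g₃⟩ := t
  have m1 := (𝔓.glob_stab g₁).1 h1
  have m2 := (𝔓.glob_stab g₂).1 h2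
  have m3 := (𝔓.glob_stab g₃).1 h3
  rw [eG₃_mem _ m1 m2 m3]
  simp only [pc12, eG₂_mem _ m2 m3, eG₁_mem _ m1]

lemma PlaceSys.indL₂_mul11 (q : ↥S) (z z' : ∀ w : 𝔓.W q, 𝔓.Γw q w → k) :
    𝔓.indL₂ q (fun w t => z w t.1 * z' w t.2) = cup11 (𝔓.indL₁ q z) (𝔓.indL₁ q z') := by
  unfold PlaceSys.indL₂ PlaceSys.indL₁
  rw [← ind2_pc11]
  apply ind2_congr
  intro w t h1 h2
  obtain ⟨g₁, g₂⟩ := t
  have m1 : g₁ ∈ 𝔓.Γw q w := h1
  have m2 : g₂ ∈ 𝔓.Γw q w := h2
  rw [𝔓.eL₂_mem q _ w m1 m2]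
  simp only [pc11, 𝔓.eL₁_mem q _ w m1, 𝔓.eL₁_mem q _ w m2]

lemma PlaceSys.indL₂_mul20 (q : ↥S) (z : ∀ w : 𝔓.W q, 𝔓.Γw q w × 𝔓.Γw q w → k)
    (m : 𝔓.W q → k) :
    𝔓.indL₂ q (fun w t => z w t * m w) = cup20 (𝔓.indL₂ q z) ((𝔓.loc q).ind0 m) := by
  unfold PlaceSys.indL₂
  rw [← ind2_pc20]
  apply ind2_congr
  intro w t h1 h2
  obtain ⟨g₁, g₂⟩ := t
  have m1 : g₁ ∈ 𝔓.Γw q w := h1
  have m2 : g₂ ∈ 𝔓.Γw q w := h2
  rw [𝔓.eL₂_mem q _ w m1 m2]
  simp only [pc20, 𝔓.eL₂_mem q _ w m1 m2]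

lemma PlaceSys.indL₂_neg (q : ↥S) (z : ∀ w : 𝔓.W q, 𝔓.Γw q w × 𝔓.Γw q w → k) :
    𝔓.indL₂ q (fun w t => - z w t) = - 𝔓.indL₂ q z := by
  have h := 𝔓.eL₂_sub q 0 z
  rw [𝔓.eL₂_zero] at h
  have h' : (fun w t => - z w t) = (0 : ∀ w : 𝔓.W q, 𝔓.Γw q w × 𝔓.Γw q w → k) - z := by
    funext w t
    simp
  unfold PlaceSys.indL₂
  rw [h', h]
  funext t x
  simp [ind2]

variable {𝔓}

/-! ### Common facts about the restrictions of induced cocycles -/

lemma d1_res_indK₁ {b : ↥K.fixingSubgroup → k} (hb : tOne b = 0) (q : ↥S) :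
    d1 (resOne q.1 (𝔓.indK₁ b)) = 0 := by
  rw [← res_d1, 𝔓.d1_indK₁, hb, 𝔓.indK₂_zero]
  rfl

lemma d2_res_indK₂ {a : ↥K.fixingSubgroup × ↥K.fixingSubgroup → k} (ha : tTwo a = 0) (q : ↥S) :
    d2 (resTwo q.1 (𝔓.indK₂ a)) = 0 := by
  rw [← res_d2, 𝔓.d2_indK₂, ha, 𝔓.indK₃_zero]
  rfl

lemma d1_U₂_snd (hK : K.IsUnramifiedOutside S) {x : 𝔓.C2 k} (hx : IsZ2cK 𝔓 x) (q : ↥S) :
    d1 ((𝔓.U₂ x).2 q : Gl q.1 → XK K → k) = resTwo q.1 (𝔓.indK₂ x.1) := by
  have h := dCone2_eq_zero (isZ2c_U₂ hK hx)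
  have h2 := congrFun (congrArg Prod.snd h) q
  rw [← dOneL_FX]
  exact (sub_eq_zero.1 h2).symm

/-! ### The three adjunction statements -/

theorem isB3c_adjA2 (hK : K.IsUnramifiedOutside S) {x : 𝔓.C2 k} (hx : IsZ2cK 𝔓 x)
    {b : ↥K.fixingSubgroup → k} (hb : IsZ1K S K b) :
    IsB3c S (FX k K) (𝔓.U₃ (cupA2K 𝔓 x b) - cA2 (𝔓.U₂ x) (𝔓.indK₁ b)) := by
  have hlA : ∀ q : ↥S, IsLevelConstant₂ (rl q.1) (resTwo q.1 (𝔓.indK₂ x.1)) := fun q =>
    levL₂_resTwo q.1 (lev_indK₂ hK hx.1.2)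
  have hlV : ∀ q : ↥S, IsLevelConstant₁ (rl q.1) ((𝔓.U₂ x).2 q) :=
    lev_U₂_snd hK hx.1.2 (fun q w => (hx.2 q w).1)
  rw [isB3c_iff]
  refine ⟨(0, fun q => - (cup10 ((𝔓.U₂ x).2 q : Gl q.1 → XK K → k)
      ((𝔓.loc q).hty1 (resOne q.1 (𝔓.indK₁ b))) -
      (𝔓.loc q).hty2 (cup20 (resTwo q.1 (𝔓.indK₂ x.1))
        ((𝔓.loc q).hty1 (resOne q.1 (𝔓.indK₁ b)))))),
    isLevelConstantS₂_const S _, fun q => ?_, ?_⟩
  · exact levL₁_neg q.1 (levL₁_sub q.1 (lev_cup10 hK q (hlV q) _)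
      (lev_loc_hty2 hK q (lev_cup20 hK q (hlA q) _)))
  · refine Prod.ext ?_ (funext fun q => ?_)
    · show 𝔓.indK₃ (fun t => x.1 (t.1, t.2.1) * b t.2.2) - cup21 (𝔓.indK₂ x.1) (𝔓.indK₁ b) =
        d2 (0 : GQ × GQ → XK K → k)
      rw [𝔓.indK₃_mul21, sub_self, d2_zero]
    · show (𝔓.indL₂ q (fun w t => x.2 q w t.1 * b (𝔓.ρw q w t.2)) +
          (𝔓.loc q).hty3 (resThree q.1 (𝔓.indK₃ (fun t => x.1 (t.1, t.2.1) * b t.2.2)))) -
          cup11 ((𝔓.U₂ x).2 q : Gl q.1 → XK K → k) (resOne q.1 (𝔓.indK₁ b)) =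
        resTwo q.1 (0 : GQ × GQ → XK K → k) - dOneL (FX k K) q.1 (- (cup10 _ _ - _))
      have hg := (𝔓.loc q).adjA2 (resTwo q.1 (𝔓.indK₂ x.1)) ((𝔓.U₂ x).2 q)
        (𝔓.eL₁ q (x.2 q)) (resOne q.1 (𝔓.indK₁ b)) (d2_res_indK₂ hx.1.1 q)
        (d1_U₂_snd hK hx q) rfl (d1_res_indK₁ hb.1 q)
      have e1 : 𝔓.indL₂ q (fun w t => x.2 q w t.1 * b (𝔓.ρw q w t.2)) =
          cup11 ((𝔓.loc q).ind1 (𝔓.eL₁ q (x.2 q)))
            ((𝔓.loc q).ind1 ((𝔓.loc q).sh1 (resOne q.1 (𝔓.indK₁ b)))) := by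
        rw [𝔓.ind_sh_res_ind₁]
        exact 𝔓.indL₂_mul11 q (x.2 q) (fun w => 𝔓.res₁ q w b)
      rw [e1, 𝔓.indK₃_mul21, res_cup21, hg, dOneL_FX, d1_neg]
      have : resTwo q.1 (0 : GQ × GQ → XK K → k) = 0 := rfl
      rw [this, zero_sub, neg_neg]

theorem isB3c_adjB1 (hK : K.IsUnramifiedOutside S)
    {a : ↥K.fixingSubgroup × ↥K.fixingSubgroup → k} (ha : IsZ2K S K a)
    {y : 𝔓.C1 k} (hy : IsZ1cK 𝔓 y) :
    IsB3c S (FX k K) (𝔓.U₃ (cupB1K 𝔓 a y) - cB1 (𝔓.indK₂ a) (𝔓.U₁ y)) := by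
  have hlA : ∀ q : ↥S, IsLevelConstant₂ (rl q.1) (resTwo q.1 (𝔓.indK₂ a)) := fun q =>
    levL₂_resTwo q.1 (lev_indK₂ hK ha.2)
  rw [isB3c_iff]
  refine ⟨(0, fun q => cup10 ((𝔓.loc q).hty2 (resTwo q.1 (𝔓.indK₂ a)))
      ((𝔓.loc q).ind0 (y.2 q)) +
      (𝔓.loc q).hty2 (cup20 (resTwo q.1 (𝔓.indK₂ a))
        ((𝔓.loc q).hty1 (resOne q.1 (𝔓.indK₁ y.1))))),
    isLevelConstantS₂_const S _, fun q => ?_, ?_⟩
  · exact (lev_cup10 hK q (lev_loc_hty2 hK q (hlA q)) _).add
      (lev_loc_hty2 hK q (lev_cup20 hK q (hlA q) _))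
  · refine Prod.ext ?_ (funext fun q => ?_)
    · show 𝔓.indK₃ (fun t => a (t.1, t.2.1) * y.1 t.2.2) - cup21 (𝔓.indK₂ a) (𝔓.indK₁ y.1) =
        d2 (0 : GQ × GQ → XK K → k)
      rw [𝔓.indK₃_mul21, sub_self, d2_zero]
    · show (𝔓.indL₂ q (fun w t => a (𝔓.ρw q w t.1, 𝔓.ρw q w t.2) * y.2 q w) +
          (𝔓.loc q).hty3 (resThree q.1 (𝔓.indK₃ (fun t => a (t.1, t.2.1) * y.1 t.2.2)))) -
          cup20 (resTwo q.1 (𝔓.indK₂ a)) ((𝔓.loc q).ind0 (y.2 q) +
            (𝔓.loc q).hty1 (resOne q.1 (𝔓.indK₁ y.1))) =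
        resTwo q.1 (0 : GQ × GQ → XK K → k) - dOneL (FX k K) q.1 (cup10 _ _ + _)
      have hB0 : (𝔓.loc q).ind1 ((𝔓.loc q).sh1 (resOne q.1 (𝔓.indK₁ y.1))) = 0 := by
        rw [𝔓.ind_sh_res_ind₁]
        have : (fun w => 𝔓.res₁ q w y.1) = (0 : ∀ w : 𝔓.W q, 𝔓.Γw q w → k) := by
          funext w
          exact hy.2 q w
        rw [this, 𝔓.indL₁_zero]
      have hg := (𝔓.loc q).adjB1 (resTwo q.1 (𝔓.indK₂ a)) (resOne q.1 (𝔓.indK₁ y.1)) (y.2 q)
        (d2_res_indK₂ ha.1 q) (d1_res_indK₁ hy.1.1 q) hB0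
      have e1 : 𝔓.indL₂ q (fun w t => a (𝔓.ρw q w t.1, 𝔓.ρw q w t.2) * y.2 q w) =
          cup20 ((𝔓.loc q).ind2 ((𝔓.loc q).sh2 (resTwo q.1 (𝔓.indK₂ a))))
            ((𝔓.loc q).ind0 (y.2 q)) := by
        rw [𝔓.ind_sh_res_ind₂]
        exact 𝔓.indL₂_mul20 q (fun w => 𝔓.res₂ q w a) (y.2 q)
      rw [e1, 𝔓.indK₃_mul21, res_cup21, hg, dOneL_FX]
      have : resTwo q.1 (0 : GQ × GQ → XK K → k) = 0 := rfl
      rw [this, zero_sub]

theorem isB3c_adjB2 (hK : K.IsUnramifiedOutside S)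
    {a : ↥K.fixingSubgroup → k} (ha : IsZ1K S K a)
    {y : 𝔓.C2 k} (hy : IsZ2cK 𝔓 y) :
    IsB3c S (FX k K) (𝔓.U₃ (cupB2K 𝔓 a y) - cB2 (𝔓.indK₁ a) (𝔓.U₂ y)) := by
  have hlB : ∀ q : ↥S, IsLevelConstant₂ (rl q.1) (resTwo q.1 (𝔓.indK₂ y.1)) := fun q =>
    levL₂_resTwo q.1 (lev_indK₂ hK hy.1.2)
  have hlV : ∀ q : ↥S, IsLevelConstant₁ (rl q.1) ((𝔓.U₂ y).2 q) :=
    lev_U₂_snd hK hy.1.2 (fun q w => (hy.2 q w).1)
  rw [isB3c_iff]
  refine ⟨(0, fun q => - (cup01 ((𝔓.loc q).hty1 (resOne q.1 (𝔓.indK₁ a)))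
      ((𝔓.U₂ y).2 q : Gl q.1 → XK K → k) -
      (𝔓.loc q).hty2 (cup02 ((𝔓.loc q).hty1 (resOne q.1 (𝔓.indK₁ a)))
        (resTwo q.1 (𝔓.indK₂ y.1))))),
    isLevelConstantS₂_const S _, fun q => ?_, ?_⟩
  · exact levL₁_neg q.1 (levL₁_sub q.1 (lev_cup01 q (hlV q) _)
      (lev_loc_hty2 hK q (lev_cup02 q (hlB q) _)))
  · refine Prod.ext ?_ (funext fun q => ?_)
    · show 𝔓.indK₃ (fun t => a t.1 * y.1 (t.2.1, t.2.2)) - cup12 (𝔓.indK₁ a) (𝔓.indK₂ y.1) =
        d2 (0 : GQ × GQ → XK K → k)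
      rw [𝔓.indK₃_mul12, sub_self, d2_zero]
    · show (𝔓.indL₂ q (fun w t => - (a (𝔓.ρw q w t.1) * y.2 q w t.2)) +
          (𝔓.loc q).hty3 (resThree q.1 (𝔓.indK₃ (fun t => a t.1 * y.1 (t.2.1, t.2.2))))) -
          - cup11 (resOne q.1 (𝔓.indK₁ a)) ((𝔓.U₂ y).2 q : Gl q.1 → XK K → k) =
        resTwo q.1 (0 : GQ × GQ → XK K → k) - dOneL (FX k K) q.1 (- (cup01 _ _ - _))
      have hg := (𝔓.loc q).adjB2 (resOne q.1 (𝔓.indK₁ a)) (resTwo q.1 (𝔓.indK₂ y.1))
        ((𝔓.U₂ y).2 q) (𝔓.eL₁ q (y.2 q)) (d1_res_indK₁ ha.1 q) (d2_res_indK₂ hy.1.1 q)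
        (d1_U₂_snd hK hy q) rfl
      have e1 : 𝔓.indL₂ q (fun w t => - (a (𝔓.ρw q w t.1) * y.2 q w t.2)) =
          - cup11 ((𝔓.loc q).ind1 ((𝔓.loc q).sh1 (resOne q.1 (𝔓.indK₁ a))))
            ((𝔓.loc q).ind1 (𝔓.eL₁ q (y.2 q))) := by
        rw [𝔓.ind_sh_res_ind₁, 𝔓.indL₂_neg]
        congr 1
        exact 𝔓.indL₂_mul11 q (fun w => 𝔓.res₁ q w a) (y.2 q)
      rw [e1, 𝔓.indK₃_mul12, res_cup12, sub_neg_eq_add, hg, dOneL_FX, d1_neg]
      have : resTwo q.1 (0 : GQ × GQ → XK K → k) = 0 := rfl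
      rw [this, zero_sub, neg_neg]

end Fermat.Agent.S55.Top

end

end
-- ==== END Fermat.Agent.S55.Top.Adj
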