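-- GENERATED (merged mirror, NOTES/tools/trim/merge3_helper67.py): 3 modules of the originals, bodies verbatim.
import Fermat.Agent.Zm.S56_L10_006
import Fermat.Agent.Zm.S56_L07_002
import Fermat.Agent.Zm.S56_L10_003
import Fermat.Agent.Zm.S56_L01_005
import Fermat.Agent.Zm.S56_L04_004
import Fermat.Agent.Zm.S56_L10_004
import Fermat.Agent.Zm.S56_L01_000
import Fermat.Agent.Zm.S56_L03_000
import Fermat.Agent.Zm.S56_L09_005
import Fermat.Agent.Zm.S56_L09_004
import Fermat.Agent.Zm.S48_L01_002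

-- ==== BEGIN Fermat.Agent.S55.CFT.GS.H64_ResLocDefs
section

set_option autoImplicit false

open CategoryTheory groupCohomology ExtCitation

open scoped Pointwise

noncomputable section

namespace Fermat.Agent.S55.CFT.GS.Bri

open Fermat.Agent.S55 Fermat.Agent.S55.Top Fermat.Agent.S55.CFT

local notation "Qb" => AlgebraicClosure ℚ

/-- **UNR-H2** (`H²(Gal(E/F₀), U_E) = 0` for unramified `E/F₀`, cochain form).
`F₀ ⊆ E` finite extensions of `ℚ_q` inside `Ω`, `E` stable under `Γ = Gal(Ω/F₀)`, the value group of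
`E` is `q^ℤ` (so `E/ℚ_q` and `E/F₀` are unramified), `Gal(E/F₀)` is cyclic (generated by the image
of `φ`).  A 2-cocycle of `Γ` with values in the units of `E` (norm `1`), constant modulo
`Gal(Ω/E)`, is the coboundary of a 1-cochain with values in the units of `E`, constant modulo
`Gal(Ω/E)`.
(Descend to `C = Gal(E/F₀)`; every class of `H²(C, M)`, `C` cyclic, is the class of a cyclic
cocycle `cyc a`, `a ∈ M^C`, and `[cyc a] = 0` iff `a` is a norm: `CFT/H19_CycAbs.lean`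
(`exists_cycCl`, `cycCl_eq_zero_iff`) or `LOC/H68_CycCocycle.lean`; `M = U_E`, `M^C = U_{F₀}`;
units are norms of units: `LOC.H68.stmt_UnramNormUnits`; `IsUnram q F₀ E` from the value
group.) -/
def Stmt_UnrH2 : Prop :=
  ∀ (q : ℕ) [Fact q.Prime] (F₀ E : IntermediateField ℚ_[q] (PadicAlgCl q)),
    FiniteDimensional ℚ_[q] ↥F₀ → FiniteDimensional ℚ_[q] ↥E → F₀ ≤ E →
    (∀ h : PadicAlgCl q ≃ₐ[ℚ_[q]] PadicAlgCl q, h ∈ F₀.fixingSubgroup →
      ∀ x : PadicAlgCl q, x ∈ E → h x ∈ E) →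
    (∀ y : PadicAlgCl q, y ∈ E → y ≠ 0 → ∃ k : ℤ, ‖y‖ = ‖((q : ℕ) : PadicAlgCl q)‖ ^ k) →
    (∃ φ : ↥F₀.fixingSubgroup, ∀ h : ↥F₀.fixingSubgroup, ∃ (n : ℕ) (s : ↥F₀.fixingSubgroup),
      (s : PadicAlgCl q ≃ₐ[ℚ_[q]] PadicAlgCl q) ∈ E.fixingSubgroup ∧ h = φ ^ n * s) →
    ∀ cw : ↥F₀.fixingSubgroup × ↥F₀.fixingSubgroup → PadicAlgCl q,
      (∀ t, cw t ∈ E) → (∀ t, ‖cw t‖ = 1) →
      (∀ h₁ h₂ s₁ s₂ : ↥F₀.fixingSubgroup,
        (s₁ : PadicAlgCl q ≃ₐ[ℚ_[q]] PadicAlgCl q) ∈ E.fixingSubgroup →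
        (s₂ : PadicAlgCl q ≃ₐ[ℚ_[q]] PadicAlgCl q) ∈ E.fixingSubgroup →
        cw (h₁ * s₁, h₂ * s₂) = cw (h₁, h₂)) →
      (∀ h₁ h₂ h₃ : ↥F₀.fixingSubgroup,
        (h₁ : PadicAlgCl q ≃ₐ[ℚ_[q]] PadicAlgCl q) (cw (h₂, h₃)) * cw (h₁, h₂ * h₃) =
          cw (h₁ * h₂, h₃) * cw (h₁, h₂)) →
      ∃ u : ↥F₀.fixingSubgroup → PadicAlgCl q, (∀ h, u h ∈ E) ∧ (∀ h, ‖u h‖ = 1) ∧
        (∀ h s : ↥F₀.fixingSubgroup,
          (s : PadicAlgCl q ≃ₐ[ℚ_[q]] PadicAlgCl q) ∈ E.fixingSubgroup → u (h * s) = u h) ∧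
        ∀ h₁ h₂ : ↥F₀.fixingSubgroup,
          cw (h₁, h₂) * u (h₁ * h₂) =
            (h₁ : PadicAlgCl q ≃ₐ[ℚ_[q]] PadicAlgCl q) (u h₂) * u h₁

/-- **UNR-VAL** (the completion of a field unramified at `q` is unramified): if `N` is unramified
outside `S` and `q ∉ S`, the value group of `ℚ_q(ι_q(σ N))` (`LOC.H45P.Floc`) is `q^ℤ`.
(For `y ∈ N`: `|ι σ y| = |y|_A`, `A = σ⁻¹ • primeLocalPlace q`, and `ord_A(y) ∈ ℤ`
(`H6.isOrd_ordS`); `ι σ N` is dense in `ℚ_q(ι σ N) = ℚ_q · ι σ N`: approximate the coefficients by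
rational numbers.) -/
def Stmt_UnrVal : Prop :=
  ∀ (S : Finset Nat.Primes) (N : IntermediateField ℚ Qb), N.IsUnramifiedOutside S →
    ∀ (q : ℕ) [Fact q.Prime], (∀ q' : Nat.Primes, (q' : ℕ) = q → q' ∉ S) → ∀ σ : GQ,
    ∀ y : PadicAlgCl q, y ∈ LOC.H45P.Floc q N σ → y ≠ 0 →
      ∃ k : ℤ, ‖y‖ = ‖((q : ℕ) : PadicAlgCl q)‖ ^ k

end Fermat.Agent.S55.CFT.GS.Bri

end

end
-- ==== END Fermat.Agent.S55.CFT.GS.H64_ResLocDefs

-- ==== BEGIN Fermat.Agent.S56.GW.H9_PerfLoc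
section

/-!
# S56, package GW-PERF: tame data of the local Galois group at a finite level (helper9)

* `tameData_ker`   : the tame data of a group mapping to a finite group of automorphisms of a
                     Dedekind domain, with the inertia group explicit, and the Frobenius property.
* `inertiaF q F`   : the inertia subgroup of `G_q` at the level `F`.
* `tameData_level` : tame data of `G_q` at the level `F`.
-/

set_option autoImplicit false
set_option linter.unusedSectionVars false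
set_option linter.style.haveILetI false

namespace Fermat.Agent.S56.H9

open NumberField CategoryTheory groupCohomology ExtCitation

local notation "Qbar" => AlgebraicClosure ℚ

section generic

theorem tameData_ker {G : Type*} [Group G]
    {B : Type*} [CommRing B] [IsDedekindDomain B] {Γ : Type*} [Group Γ] [Finite Γ]
    [MulSemiringAction Γ B] [FaithfulSMul Γ B]
    (𝔓 : Ideal B) [𝔓.IsMaximal] (h𝔓 : 𝔓 ≠ ⊥) (q : ℕ) [Fact q.Prime] [CharP (B ⧸ 𝔓) q]
    [Finite (B ⧸ 𝔓)]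
    (rt : G →* Γ) (hstab : ∀ g : G, ∀ x : B, rt g • x ∈ 𝔓 ↔ x ∈ 𝔓) :
    ∃ (P : Subgroup G) (φ τ₀ : G) (a : ℕ),
      TameData rt.ker ((𝔓.inertia Γ).comap rt) P φ τ₀ q (q ^ a) ∧
        ∀ x : B, rt φ • x - x ^ (q ^ a) ∈ 𝔓 := by
  classical
  have hq𝔓 : (q : B) ∈ 𝔓 := by
    rw [← Ideal.Quotient.eq_zero_iff_mem, map_natCast]
    exact CharP.cast_eq_zero (B ⧸ 𝔓) q
  have h𝔓top : 𝔓 ≠ ⊤ := Ideal.IsPrime.ne_top inferInstance
  have hD' : ∀ σ ∈ rt.range, ∀ x, σ • x ∈ 𝔓 ↔ x ∈ 𝔓 := by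
    rintro _ ⟨g, rfl⟩ x
    exact hstab g x
  obtain ⟨φ', hφ', a, hφa, hgen'⟩ := exists_frob_generator 𝔓 q rt.range hD'
  obtain ⟨φ, rfl⟩ := hφ'
  have hJ : rt.range ⊓ 𝔓.inertia Γ ≤ 𝔓.inertia Γ := inf_le_right
  obtain ⟨τ₀', hτ₀', hcyc'⟩ := exists_generator_mod_wild h𝔓 (rt.range ⊓ 𝔓.inertia Γ) hJ
  obtain ⟨⟨τ₀, rfl⟩, hτ₀I⟩ := hτ₀'
  refine ⟨(wild 𝔓 Γ).comap rt, φ, τ₀, a, ⟨?_, ?_, hτ₀I, ?_, ?_, ?_, ?_, ?_⟩, hφa⟩
  · intro g hg
    rw [Subgroup.mem_comap, MonoidHom.mem_ker.1 hg]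
    exact one_mem _
  · intro g hg
    exact wild_le_inertia 𝔓 hg
  · intro g i hi
    rw [Subgroup.mem_comap, map_mul, map_mul, map_inv]
    exact conj_mem_inertia (hstab g) hi
  · intro g
    obtain ⟨n, hn⟩ := hgen' (rt g) ⟨g, rfl⟩
    refine ⟨n, (φ ^ n)⁻¹ * g, ?_, ?_⟩
    · rw [Subgroup.mem_comap, map_mul, map_inv, map_pow]
      exact hn
    · rw [mul_inv_cancel_left]
  · intro i hi
    obtain ⟨n, hn⟩ := hcyc' (rt i) ⟨⟨i, rfl⟩, hi⟩
    refine ⟨n, (τ₀ ^ n)⁻¹ * i, ?_, ?_⟩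
    · rw [Subgroup.mem_comap, map_mul, map_inv, map_pow]
      exact hn
    · rw [mul_inv_cancel_left]
  · intro x hx
    have hσ : rt x ∈ wild 𝔓 Γ := hx
    have hord : orderOf (rt x) ≠ 0 := (orderOf_pos (rt x)).ne'
    obtain ⟨e, n, hn, hen⟩ := Nat.exists_eq_pow_mul_and_not_dvd hord q
      (Fact.out : q.Prime).ne_one
    refine ⟨e, ?_⟩
    rw [MonoidHom.mem_ker, map_pow]
    have hcop : n.Coprime q :=
      (Nat.Coprime.symm ((Nat.Prime.coprime_iff_not_dvd (Fact.out : q.Prime)).2 hn))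
    have hpow : ∀ y : B, ((rt x ^ q ^ e) ^ n) • y = y := by
      intro y
      rw [← pow_mul, ← hen, pow_orderOf_eq_one, one_smul]
    have htriv := smul_eq_of_mem_wild_of_coprime 𝔓 h𝔓top hq𝔓 (pow_mem hσ (q ^ e)) hcop hpow
    apply FaithfulSMul.eq_of_smul_eq_smul (α := B)
    intro y
    rw [htriv y, one_smul]
  · refine ⟨(τ₀ ^ q ^ a)⁻¹ * (φ * τ₀ * φ⁻¹), ?_, ?_⟩
    · rw [Subgroup.mem_comap]
      simp only [map_mul, map_inv, map_pow]
      exact conj_mem_wild h𝔓 (hstab φ) hφa hτ₀I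
    · rw [mul_inv_cancel_left]

end generic

section level

variable (q : Nat.Primes)

/-- The restriction map `G_q → Gal(F/ℚ)`. -/
noncomputable def rtF (F : IntermediateField ℚ Qbar) [Normal ℚ F] :
    primeLocalGaloisGroup q →* (F ≃ₐ[ℚ] F) :=
  (AlgEquiv.restrictNormalHom F).comp (primeLocalToGlobal q)

/-- The inertia subgroup of `G_q` at the level `F`. -/
noncomputable def inertiaF (F : IntermediateField ℚ Qbar) [NumberField F] [Normal ℚ F] :
    Subgroup (primeLocalGaloisGroup q) :=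
  ((primeAt (primeLocalPlace q) F).inertia (F ≃ₐ[ℚ] F)).comap (rtF q F)

variable {q}

lemma mem_inertiaF_iff {F : IntermediateField ℚ Qbar} [NumberField F] [Normal ℚ F]
    {g : primeLocalGaloisGroup q} :
    g ∈ inertiaF q F ↔ ∀ x : Qbar, x ∈ F → IsIntegral ℤ x →
      (primeLocalPlace q).valuation (primeLocalToGlobal q g x - x) < 1 := by
  constructor
  · intro hg x hx hxi
    have hxi' : IsIntegral ℤ (⟨x, hx⟩ : F) := by
      refine (isIntegral_algebraMap_iff (B := Qbar) ?_).1 hxi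
      exact (algebraMap F Qbar).injective
    obtain ⟨y, hy⟩ : ∃ y : 𝓞 F, intIncl F y = x := ⟨⟨⟨x, hx⟩, hxi'⟩, rfl⟩
    have h1 : rtF q F g • y - y ∈ primeAt (primeLocalPlace q) F := hg y
    rw [mem_primeAt, map_sub] at h1
    have h2 : intIncl F (rtF q F g • y) = primeLocalToGlobal q g (intIncl F y) :=
      intIncl_restrictNormal_smul F (primeLocalToGlobal q g) y
    rw [h2, hy] at h1
    exact h1
  · intro h y
    show rtF q F g • y - y ∈ primeAt (primeLocalPlace q) F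
    rw [mem_primeAt, map_sub]
    have h2 : intIncl F (rtF q F g • y) = primeLocalToGlobal q g (intIncl F y) :=
      intIncl_restrictNormal_smul F (primeLocalToGlobal q g) y
    rw [h2]
    exact h _ (y : F).2 (isIntegral_intIncl F y)

lemma inertiaF_anti {F F' : IntermediateField ℚ Qbar} [NumberField F] [Normal ℚ F]
    [NumberField F'] [Normal ℚ F'] (h : F ≤ F') : inertiaF q F' ≤ inertiaF q F := by
  intro g hg
  rw [mem_inertiaF_iff] at hg ⊢
  exact fun x hx hxi => hg x (h hx) hxi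

lemma levelSubgroup_eq_ker' (F : IntermediateField ℚ Qbar) [Normal ℚ F] :
    levelSubgroup q F = (rtF q F).ker :=
  levelSubgroup_eq_ker q F

/-- Global inertia elements restrict to the level inertia, via local lifts. -/
lemma exists_lift_inertia (F : IntermediateField ℚ Qbar) [NumberField F] [Normal ℚ F]
    (σ : Qbar ≃ₐ[ℚ] Qbar) (hσ : σ ∈ (primeLocalPlace q).inertiaSubgroupIn ℚ) :
    ∃ τ ∈ inertiaF q F, ∀ x ∈ F, primeLocalToGlobal q τ x = σ x := by
  haveI : Fact (q : ℕ).Prime := ⟨q.2⟩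
  have hdec : σ ∈ (padicPlace (q : ℕ)).decompositionSubgroup ℚ :=
    S05.H95.mem_decomposition_of_mem_inertia (primeLocalPlace q) hσ
  obtain ⟨τ, hτ⟩ : ∃ τ : primeLocalGaloisGroup q, ∀ x ∈ F, primeLocalToGlobal q τ x = σ x :=
    Fermat.Agent.Lib.LocalGlobalDense.exists_local_lift_field (q : ℕ) σ hdec F
  refine ⟨τ, ?_, hτ⟩
  rw [mem_inertiaF_iff]
  intro x hx hxi
  have h1 : primeLocalToGlobal q τ x = σ x := hτ x hx
  rw [h1]
  have hxA : x ∈ primeLocalPlace q :=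
    ((primeLocalPlace q).valuation_le_one_iff x).1
      (Fermat.Agent.Lib.FrobExists.valuation_le_one_of_isIntegral _ x hxi)
  exact ((primeLocalPlace q).mem_nonunits_iff).1
    (S05.H95.sub_mem_nonunits_of_mem_inertia (primeLocalPlace q) hσ hxA)

/-- An unramified representation, trivial on `Gal(ℚ̄/F)`, is trivial on the inertia at the
level `F`. -/
lemma rho_eq_one_of_mem_inertiaF {k : Type} [Field k] (M : Rep k GQ)
    (hur : IsUnramifiedRepAt M (q : ℕ))
    (F : IntermediateField ℚ Qbar) [NumberField F] [Normal ℚ F]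
    (hF : ∀ s ∈ F.fixingSubgroup, M.ρ s = 1) {g : primeLocalGaloisGroup q}
    (hg : g ∈ inertiaF q F) : M.ρ (primeLocalToGlobal q g) = 1 := by
  have h : ∀ x : Qbar, x ∈ F → IsIntegral ℤ x →
      (primeLocalToGlobal q g) x - x ∈ (primeLocalPlace q).nonunits := by
    intro x hx hxi
    exact (ValuationSubring.mem_nonunits_iff _).2 (mem_inertiaF_iff.1 hg x hx hxi)
  obtain ⟨σ, hσ, hσF⟩ := Fermat.Agent.Lib.InertiaLift.exists_mem_inertiaSubgroupIn_eqOn
    (q : ℕ) q.2 (primeLocalPlace q) (primeLocalPlace_liesOver q) F (primeLocalToGlobal q g) h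
  have h2 : σ⁻¹ * primeLocalToGlobal q g ∈ F.fixingSubgroup := by
    rw [IntermediateField.mem_fixingSubgroup_iff]
    intro x hx
    show σ⁻¹ (primeLocalToGlobal q g x) = x
    rw [← hσF x hx]
    exact σ.symm_apply_apply x
  have h3 := hF _ h2
  have h4 := hur _ (primeLocalPlace_liesOver q) σ hσ
  have h5 : M.ρ (primeLocalToGlobal q g) = M.ρ σ * M.ρ (σ⁻¹ * primeLocalToGlobal q g) := by
    rw [← map_mul, mul_inv_cancel_left]
  rw [h5, h3, h4, one_mul]

/-- Tame data of `G_q` at the level `F`. -/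
theorem tameData_level (F : IntermediateField ℚ Qbar) [NumberField F] [Normal ℚ F] :
    ∃ (P : Subgroup (primeLocalGaloisGroup q)) (φ τ₀ : primeLocalGaloisGroup q) (a : ℕ),
      TameData (levelSubgroup q F) (inertiaF q F) P φ τ₀ (q : ℕ) ((q : ℕ) ^ a) ∧
        ∀ x : Qbar, x ∈ F → IsIntegral ℤ x →
          (primeLocalPlace q).valuation (primeLocalToGlobal q φ x - x ^ ((q : ℕ) ^ a)) < 1 := by
  haveI : Fact (q : ℕ).Prime := ⟨q.2⟩
  have hA : ((q : ℕ) : Qbar) ∈ (primeLocalPlace q).nonunits := primeLocalPlace_liesOver q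
  have hq0 : (q : ℕ) ≠ 0 := q.2.ne_zero
  haveI : (primeAt (primeLocalPlace q) F).IsMaximal := primeAt_isMaximal _ _ hq0 hA
  haveI : Finite (𝓞 F ⧸ primeAt (primeLocalPlace q) F) := finite_quotient_primeAt _ _ hq0 hA
  haveI : CharP (𝓞 F ⧸ primeAt (primeLocalPlace q) F) (q : ℕ) :=
    charP_quotient_primeAt _ _ q.2 hA
  have hstab : ∀ g : primeLocalGaloisGroup q, ∀ x : 𝓞 F,
      rtF q F g • x ∈ primeAt (primeLocalPlace q) F ↔ x ∈ primeAt (primeLocalPlace q) F := by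
    intro g x
    rw [mem_primeAt, mem_primeAt]
    have h2 : intIncl F (rtF q F g • x) = primeLocalToGlobal q g (intIncl F x) :=
      intIncl_restrictNormal_smul F (primeLocalToGlobal q g) x
    rw [h2]
    exact Fermat.Agent.Lib.InertiaBridge.valuation_map_lt_one_iff _ _
      (primeLocalToGlobal_mem_decomposition q g) _
  obtain ⟨P, φ, τ₀, a, hT, hfrob⟩ := tameData_ker (primeAt (primeLocalPlace q) F)
    (primeAt_ne_bot _ _ hq0 hA) (q : ℕ) (rtF q F) hstab
  refine ⟨P, φ, τ₀, a, ?_, ?_⟩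
  · rw [levelSubgroup_eq_ker']
    exact hT
  · intro x hx hxi
    have hxi' : IsIntegral ℤ (⟨x, hx⟩ : F) := by
      refine (isIntegral_algebraMap_iff (B := Qbar) ?_).1 hxi
      exact (algebraMap F Qbar).injective
    obtain ⟨y, hy⟩ : ∃ y : 𝓞 F, intIncl F y = x := ⟨⟨⟨x, hx⟩, hxi'⟩, rfl⟩
    have h1 := hfrob y
    rw [mem_primeAt, map_sub, map_pow] at h1
    have h2 : intIncl F (rtF q F φ • y) = primeLocalToGlobal q φ (intIncl F y) :=
      intIncl_restrictNormal_smul F (primeLocalToGlobal q φ) y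
    rw [h2, hy] at h1
    exact h1

end level

end Fermat.Agent.S56.H9

end
-- ==== END Fermat.Agent.S56.GW.H9_PerfLoc

-- ==== BEGIN Fermat.Agent.S56.TWS.H64_Prime
section

set_option autoImplicit false
set_option linter.style.haveILetI false
set_option linter.unusedSectionVars false

/-!
# S56 / TW-SELECT, package TWS-D (helper64): `Stmt_prime`

From an element `σ` fixing `μ_{p^(n+1)}`, with distinct eigenvalues and `c σ ∉ (σ - 1) M'`, to a
Taylor-Wiles prime `q` at which the class of `c` is not locally trivial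
(Frobenius density `stmt_FD2` + local-global glue).

The local input (`Stmt_loc`, proved by helper13 in `H13_Loc.lean`): if the class of a level-constant
cocycle is locally trivial at `q`, then `c φ ∈ (φ - 1) M` for every `φ` in the decomposition group
of any place over `q`.
-/

noncomputable section

namespace Fermat.Agent.S56.TWS.H64

open Polynomial IsLocalRing CategoryTheory groupCohomology ExtCitation Fermat.Agent.S53 Module
open Fermat.Agent.S56 Fermat.Agent.Lib.FrobIntegers Fermat.Agent.Lib.FrobExists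
  Fermat.Agent.Lib.InertiaBridge Fermat.Agent.Lib.InertiaConj
open scoped Pointwise

attribute [local instance] qbar_isAlgebraic qbar_isAlgClosure qbar_isGalois zbar_isInvariant
  zbarTopologicalSpace zbar_discreteTopology zbar_continuousSMul

/-- The local input of TWS-D. -/
def Stmt_loc : Prop :=
  ∀ (k : Type) [Field k] (M : Rep k _root_.Fermat.Agent.S56.GQ) (F : IntermediateField ℚ (AlgebraicClosure ℚ)),
    FiniteDimensional ℚ F → (∀ s ∈ F.fixingSubgroup, M.ρ s = 1) →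
    ∀ c : cocycles₁ M, (∀ g s : _root_.Fermat.Agent.S56.GQ, s ∈ F.fixingSubgroup → c (g * s) = c g) →
    ∀ (q : Nat.Primes) (A : ValuationSubring (AlgebraicClosure ℚ)), A.LiesOverPrime (q : ℕ) →
    ∀ φ : _root_.Fermat.Agent.S56.GQ, φ ∈ A.decompositionSubgroup ℚ → resAt M q ((H1π M).hom c) = 0 →
      ∃ m : M, c φ = M.ρ φ m - m

/-! ### Agreement on a subfield -/

theorem inv_mul_mem_fixingSubgroup (L : IntermediateField ℚ (AlgebraicClosure ℚ)) (g h : _root_.Fermat.Agent.S56.GQ)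
    (hgh : ∀ x ∈ L, g x = h x) : g⁻¹ * h ∈ L.fixingSubgroup := by
  rw [IntermediateField.mem_fixingSubgroup_iff]
  intro x hx
  show g⁻¹ (h x) = x
  rw [← hgh x hx]
  exact g.symm_apply_apply x

theorem eq_mul_of_agree (g h : _root_.Fermat.Agent.S56.GQ) : h = g * (g⁻¹ * h) := by
  rw [mul_inv_cancel_left]

/-- A level-constant function takes the same value on automorphisms agreeing on the level. -/
theorem levelConstant_agree {X : Type} (f : _root_.Fermat.Agent.S56.GQ → X)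
    (F : IntermediateField ℚ (AlgebraicClosure ℚ))
    (hF : ∀ g s : _root_.Fermat.Agent.S56.GQ, s ∈ F.fixingSubgroup → f (g * s) = f g)
    (g h : _root_.Fermat.Agent.S56.GQ) (hgh : ∀ x ∈ F, g x = h x) : f h = f g := by
  rw [eq_mul_of_agree g h]
  exact hF g _ (inv_mul_mem_fixingSubgroup F g h hgh)

/-- A homomorphism trivial on the fixing subgroup of `L` takes the same value on automorphisms
agreeing on `L`. -/
theorem hom_agree {H : Type} [Monoid H] (f : _root_.Fermat.Agent.S56.GQ →* H)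
    (L : IntermediateField ℚ (AlgebraicClosure ℚ))
    (hL : ∀ s : _root_.Fermat.Agent.S56.GQ, s ∈ L.fixingSubgroup → f s = 1)
    (g h : _root_.Fermat.Agent.S56.GQ) (hgh : ∀ x ∈ L, g x = h x) : f h = f g := by
  rw [eq_mul_of_agree g h, map_mul, hL _ (inv_mul_mem_fixingSubgroup L g h hgh), mul_one]

/-! ### The cyclotomic field -/

/-- The field generated by the `m`-th roots of unity. -/
def cycField (m : ℕ) : IntermediateField ℚ (AlgebraicClosure ℚ) :=
  IntermediateField.adjoin ℚ {z | z ^ m = 1}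

theorem finite_roots (m : ℕ) (hm : 0 < m) : {z : AlgebraicClosure ℚ | z ^ m = 1}.Finite := by
  have := (nthRootsFinset m (1 : AlgebraicClosure ℚ)).finite_toSet
  refine this.subset ?_
  intro z hz
  simp only [Finset.mem_coe, mem_nthRootsFinset hm]
  exact hz

theorem cycField_finiteDimensional (m : ℕ) (hm : 0 < m) : FiniteDimensional ℚ (cycField m) := by
  haveI : Finite {z : AlgebraicClosure ℚ | z ^ m = 1} := (finite_roots m hm).to_subtype
  exact IntermediateField.finiteDimensional_adjoin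
    (fun x _ => ((AlgebraicClosure.isAlgebraic ℚ).isAlgebraic x).isIntegral)

theorem mem_cycField (m : ℕ) (z : AlgebraicClosure ℚ) (hz : z ^ m = 1) : z ∈ cycField m :=
  IntermediateField.subset_adjoin ℚ _ hz

theorem mem_cycKer_of_agree (p n : ℕ) (σ φ : _root_.Fermat.Agent.S56.GQ) (j' : ℕ)
    (L : IntermediateField ℚ (AlgebraicClosure ℚ)) (hL : cycField (p ^ (n + 1)) ≤ L)
    (hσ : σ ∈ cycKer p n) (h : ∀ x ∈ L, (σ ^ j') x = φ x) : φ ∈ cycKer p n := by
  intro μ hμ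
  have hμL : μ ∈ L := hL (mem_cycField _ μ hμ)
  rw [← h μ hμL]
  exact (cycKer p n).pow_mem hσ j' μ hμ

/-- A Frobenius element at `ℓ ≠ p` fixing `μ_{p^(n+1)}` forces `ℓ ≡ 1 mod p^(n+1)`. -/
theorem dvd_sub_one_of_frob (p n : ℕ) (hp : p.Prime) (ℓ : ℕ) (hℓ : ℓ.Prime) (hℓp : ℓ ≠ p)
    (A : ValuationSubring (AlgebraicClosure ℚ)) (hA : A.LiesOverPrime ℓ) (φ : _root_.Fermat.Agent.S56.GQ)
    (hφ : A.IsFrobeniusAt φ ℓ) (hφK : φ ∈ cycKer p n) : p ^ (n + 1) ∣ ℓ - 1 := by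
  haveI : NeZero (p ^ (n + 1)) := ⟨pow_ne_zero _ hp.ne_zero⟩
  obtain ⟨ζ, hζ⟩ := HasEnoughRootsOfUnity.exists_primitiveRoot (AlgebraicClosure ℚ) (p ^ (n + 1))
  have hcop : (p ^ (n + 1)).Coprime ℓ :=
    Nat.Coprime.pow_left _ ((Nat.coprime_primes hp hℓ).2 (Ne.symm hℓp))
  have h1 : φ ζ = ζ ^ ℓ :=
    Fermat.Agent.R.H89.stmt_FrobCyc ℓ hℓ A hA φ hφ (p ^ (n + 1)) hcop ζ hζ.pow_eq_one
  have h2 : φ ζ = ζ := hφK ζ hζ.pow_eq_one
  have hζ0 : ζ ≠ 0 := hζ.ne_zero (pow_ne_zero _ hp.ne_zero)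
  have h3 : ζ ^ (ℓ - 1) = 1 := by
    have h4 : ζ ^ (ℓ - 1) * ζ = 1 * ζ := by
      rw [← pow_succ, Nat.sub_add_cancel hℓ.one_le, ← h1, h2, one_mul]
    exact mul_right_cancel₀ hζ0 h4
  exact (hζ.pow_eq_one_iff_dvd _).1 h3

/-! ### Linear algebra: eigenvalues of powers -/

section LinAlg

variable {k V : Type} [Field k] [AddCommGroup V] [Module k V] [Module.Finite k V]

theorem pow_apply_eigen (T : Module.End k V) (v : V) (a : k) (h : T v = a • v) (j : ℕ) :
    (T ^ j) v = a ^ j • v := by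
  induction j with
  | zero => simp
  | succ j ih =>
    rw [pow_succ, Module.End.mul_apply, h, map_smul, ih, smul_smul, pow_succ, mul_comm]

theorem charpoly_of_diag (b : Basis (Fin 2) k V) (T : Module.End k V) (a d : k)
    (h0 : T (b 0) = a • b 0) (h1 : T (b 1) = d • b 1) :
    LinearMap.charpoly T = (X - C a) * (X - C d) := by
  rw [← LinearMap.charpoly_toMatrix T b]
  have : LinearMap.toMatrix b b T = Matrix.diagonal ![a, d] := by
    ext i j
    rw [LinearMap.toMatrix_apply]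
    fin_cases i <;> fin_cases j <;> simp [h0, h1, Matrix.diagonal]
  rw [this, Matrix.charpoly_diagonal]
  simp [Fin.prod_univ_two]

/-- If `T = S ^ j'` and `S = T ^ j` and `S` has distinct eigenvalues, so has `T`. -/
theorem distinct_of_pow (hV : finrank k V = 2) (S T : Module.End k V) (j j' : ℕ)
    (h1 : T = S ^ j') (h2 : S = T ^ j)
    (hS : ∃ α β : k, α ≠ β ∧ LinearMap.charpoly S = (X - C α) * (X - C β)) :
    ∃ α β : k, α ≠ β ∧ LinearMap.charpoly T = (X - C α) * (X - C β) := by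
  obtain ⟨α, β, hαβ, hchar⟩ := hS
  obtain ⟨b, hb0, hb1⟩ := Fermat.Agent.S56.H59.exists_eigenbasis hV S α β hαβ hchar
  have hT0 : T (b 0) = α ^ j' • b 0 := by rw [h1]; exact pow_apply_eigen S _ α hb0 j'
  have hT1 : T (b 1) = β ^ j' • b 1 := by rw [h1]; exact pow_apply_eigen S _ β hb1 j'
  refine ⟨α ^ j', β ^ j', ?_, charpoly_of_diag b T _ _ hT0 hT1⟩
  intro heq
  have hS0 : S (b 0) = (α ^ j') ^ j • b 0 := by
    rw [h2]; exact pow_apply_eigen T _ _ hT0 j
  have hS1 : S (b 1) = (α ^ j') ^ j • b 1 := by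
    rw [h2]; exact pow_apply_eigen T _ _ (by rw [heq]; exact hT1) j
  have e0 : α = (α ^ j') ^ j := smul_left_injective k (b.ne_zero 0) (hb0.symm.trans hS0)
  have e1 : β = (α ^ j') ^ j := smul_left_injective k (b.ne_zero 1) (hb1.symm.trans hS1)
  exact hαβ (e0.trans e1.symm)

theorem charpoly_conj_of_inv (a a' T : Module.End k V) (h : a' * a = 1) :
    LinearMap.charpoly (a * T * a') = LinearMap.charpoly T := by
  let b := Module.finBasis k V
  rw [← LinearMap.charpoly_toMatrix (a * T * a') b, ← LinearMap.charpoly_toMatrix T b,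
    LinearMap.toMatrix_mul, Matrix.charpoly_mul_comm, ← LinearMap.toMatrix_mul, ← mul_assoc, h,
    one_mul]

end LinAlg

/-! ### Frobenius elements over the same prime -/

/-- The Frobenius congruence on algebraic integers. -/
theorem frob_sub_pow_mem (ℓ : ℕ) (A : ValuationSubring (AlgebraicClosure ℚ)) (φ : _root_.Fermat.Agent.S56.GQ)
    (hφ : A.IsFrobeniusAt φ ℓ) (b : ZBar) : φ • b - b ^ ℓ ∈ primeUnder A := by
  rw [mem_primeUnder]
  have hb : (b : AlgebraicClosure ℚ) ∈ A :=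
    (A.valuation_le_one_iff _).1 (valuation_le_one_of_isIntegral A _ b.2)
  exact Fermat.Agent.Lib.FrobDensity.H97.valuation_frob_sub_pow_lt_one A φ ℓ hφ _ hb

/-- Two Frobenius elements at places over the same prime are conjugate modulo inertia. -/
theorem exists_conj_frob (ℓ : ℕ) (hℓ : ℓ.Prime)
    (A P : ValuationSubring (AlgebraicClosure ℚ)) (hA : A.LiesOverPrime ℓ)
    (hP : P.LiesOverPrime ℓ) (φ φ' : _root_.Fermat.Agent.S56.GQ) (hφ : A.IsFrobeniusAt φ ℓ)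
    (hφ' : P.IsFrobeniusAt φ' ℓ) :
    ∃ g : _root_.Fermat.Agent.S56.GQ, (g * φ * g⁻¹)⁻¹ * φ' ∈ P.inertiaSubgroupIn ℚ := by
  obtain ⟨g, hg⟩ := exists_smul_primeUnder ℓ hℓ A P hA hP
  refine ⟨g, ?_⟩
  have hφstab : φ • primeUnder A = primeUnder A :=
    (mem_decompositionSubgroup_iff ℓ hℓ A hA φ).1 hφ.mem_decompositionSubgroup
  set ψ : _root_.Fermat.Agent.S56.GQ := g * φ * g⁻¹ with hψ
  have hψstab : ψ • primeUnder P = primeUnder P := by
    rw [hg, hψ, mul_smul, mul_smul, inv_smul_smul, hφstab]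
  have hψinv : ψ⁻¹ • primeUnder P = primeUnder P := by
    conv_lhs => rw [← hψstab]
    rw [inv_smul_smul]
  rw [mem_inertiaSubgroupIn_iff ℓ hℓ P hP]
  intro b
  have h1 : φ' • b - b ^ ℓ ∈ primeUnder P := frob_sub_pow_mem ℓ P φ' hφ' b
  have h2 : ψ • b - b ^ ℓ ∈ primeUnder P := by
    have h3 : φ • (g⁻¹ • b) - (g⁻¹ • b) ^ ℓ ∈ primeUnder A := frob_sub_pow_mem ℓ A φ hφ _
    have h4 : g • (φ • (g⁻¹ • b) - (g⁻¹ • b) ^ ℓ) ∈ g • primeUnder A :=
      Ideal.smul_mem_pointwise_smul_iff.2 h3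
    rw [← hg] at h4
    have h5 : g • (φ • (g⁻¹ • b) - (g⁻¹ • b) ^ ℓ) = ψ • b - b ^ ℓ := by
      rw [smul_sub, smul_pow', smul_inv_smul, hψ, mul_smul, mul_smul]
    rw [h5] at h4
    exact h4
  have h6 : φ' • b - ψ • b ∈ primeUnder P := by
    have := (primeUnder P).sub_mem h1 h2
    rwa [sub_sub_sub_cancel_right] at this
  have h7 : ψ⁻¹ • (φ' • b - ψ • b) ∈ ψ⁻¹ • primeUnder P :=
    Ideal.smul_mem_pointwise_smul_iff.2 h6
  rw [hψinv, smul_sub, inv_smul_smul, ← mul_smul] at h7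
  exact h7

/-- For an unramified residual representation the characteristic polynomial of Frobenius does
not depend on the choice of the place and of the Frobenius element. -/
theorem charpoly_frob_eq {k : Type} [Field k] (ρbar : ResidualGaloisRep k) (ℓ : ℕ) (hℓ : ℓ.Prime)
    (hunr : ρbar.IsUnramifiedAt ℓ)
    (A P : ValuationSubring (AlgebraicClosure ℚ)) (hA : A.LiesOverPrime ℓ)
    (hP : P.LiesOverPrime ℓ) (φ φ' : _root_.Fermat.Agent.S56.GQ) (hφ : A.IsFrobeniusAt φ ℓ)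
    (hφ' : P.IsFrobeniusAt φ' ℓ) :
    LinearMap.charpoly (ρbar.ρ φ') = LinearMap.charpoly (ρbar.ρ φ) := by
  obtain ⟨g, hg⟩ := exists_conj_frob ℓ hℓ A P hA hP φ φ' hφ hφ'
  have h1 : ρbar.ρ ((g * φ * g⁻¹)⁻¹ * φ') = 1 := hunr P hP _ hg
  have h2 : ρbar.ρ φ' = ρbar.ρ g * ρbar.ρ φ * ρbar.ρ g⁻¹ := by
    have h3 : φ' = (g * φ * g⁻¹) * ((g * φ * g⁻¹)⁻¹ * φ') := by rw [mul_inv_cancel_left]
    conv_lhs => rw [h3]
    rw [map_mul, h1, mul_one, map_mul, map_mul]
  rw [h2]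
  exact charpoly_conj_of_inv _ _ _ (by rw [← map_mul, inv_mul_cancel, map_one])

/-! ### The main theorem -/

/-- **TWS-D** from the local input. -/
theorem stmt_prime_of_loc (hloc : Stmt_loc) : Stmt_prime := by
  intro 𝒪 _ _ _ _ _ p _ _ ρbar S Smin hyp c hc n σ hσ hdist hne S'
  have hp : p.Prime := Fact.out
  obtain ⟨F, hFfin, hF⟩ := hc
  obtain ⟨Lρ, hLρfin, hLρ⟩ := ρbar.factorsThroughFiniteLevel
  have hcycfin := cycField_finiteDimensional (p ^ (n + 1)) (pow_pos hp.pos _)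
  haveI := hFfin
  haveI := hLρfin
  haveI := hcycfin
  set L : IntermediateField ℚ (AlgebraicClosure ℚ) := F ⊔ Lρ ⊔ cycField (p ^ (n + 1)) with hL
  have hLfin : FiniteDimensional ℚ L := inferInstance
  have hFL : F ≤ L := le_sup_of_le_left le_sup_left
  have hLρL : Lρ ≤ L := le_sup_of_le_left le_sup_right
  have hcycL : cycField (p ^ (n + 1)) ≤ L := le_sup_right
  -- `ρbar` and `M'` are trivial on the fixing subgroup of `L`
  have hρL : ∀ s : _root_.Fermat.Agent.S56.GQ, s ∈ L.fixingSubgroup → ρbar.ρ s = 1 := fun s hs =>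
    hLρ s fun x hx => (IntermediateField.mem_fixingSubgroup_iff L s).1 hs x (hLρL hx)
  have hML : ∀ s : _root_.Fermat.Agent.S56.GQ, s ∈ L.fixingSubgroup → (tateDual p (ad0 ρbar)).ρ s = 1 := by
    intro s hs
    refine Fermat.Agent.S56.H47.tateDual_ρ_eq_one p (ad0 ρbar) s
      (Fermat.Agent.S56.H47.ad0_ρ_eq_one ρbar s (hρL s hs)) ?_
    refine Fermat.Agent.S56.H47.cycloK_eq_one_of_fix p _ s fun t ht => ?_
    refine (IntermediateField.mem_fixingSubgroup_iff L s).1 hs t (hcycL (mem_cycField _ t ?_))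
    rw [pow_succ, pow_mul', ht, one_pow]
  have hcL : ∀ g s : _root_.Fermat.Agent.S56.GQ, s ∈ L.fixingSubgroup →
      (c : _root_.Fermat.Agent.S56.GQ → tateDual p (ad0 ρbar)) (g * s) = c g := fun g s hs =>
    hF g s (IntermediateField.fixingSubgroup_antitone hFL hs)
  -- Frobenius density
  obtain ⟨ℓ, A, φ, j, j', hℓ, hℓS, hA, hφ, h1, h2⟩ :=
    Fermat.Agent.Lib.FrobDensity.H47.stmt_FD2 (S' ∪ S ∪ {p}) L hLfin σ
  have hℓS' : ℓ ∉ S' := fun h => hℓS (Finset.mem_union_left _ (Finset.mem_union_left _ h))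
  have hℓS0 : ℓ ∉ S := fun h => hℓS (Finset.mem_union_left _ (Finset.mem_union_right _ h))
  have hℓp : ℓ ≠ p := fun h => hℓS (Finset.mem_union_right _ (Finset.mem_singleton.2 h))
  have hunr : ρbar.IsUnramifiedAt ℓ := by
    by_contra hcon
    exact hℓS0 (hyp.hSmin ((hyp.hmin ℓ hℓ hℓp).2 hcon))
  have hρφ : ρbar.ρ φ = ρbar.ρ σ ^ j' := by
    rw [← map_pow]
    exact hom_agree ρbar.ρ L hρL (σ ^ j') φ h2
  have hρσ : ρbar.ρ σ = ρbar.ρ φ ^ j := by
    rw [← map_pow]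
    exact hom_agree ρbar.ρ L hρL (φ ^ j) σ h1
  have hdistφ : HasDistinctEig ρbar φ :=
    distinct_of_pow ρbar.finrank_eq (ρbar.ρ σ) (ρbar.ρ φ) j j' hρφ hρσ hdist
  refine ⟨⟨ℓ, hℓ⟩, hℓS', hℓS0, ?_, ?_, ?_⟩
  · exact dvd_sub_one_of_frob p n hp ℓ hℓ hℓp A hA φ hφ
      (mem_cycKer_of_agree p n σ φ j' L hcycL hσ h2)
  · intro P hP φ' hφ'
    obtain ⟨α, β, hαβ, hchar⟩ := hdistφ
    exact ⟨α, β, hαβ, (charpoly_frob_eq ρbar ℓ hℓ hunr A P hA hP φ φ' hφ hφ').trans hchar⟩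
  · intro h0
    obtain ⟨m, hm⟩ := hloc _ (tateDual p (ad0 ρbar)) L hLfin hML c hcL ⟨ℓ, hℓ⟩ A hA φ
      hφ.mem_decompositionSubgroup h0
    have h3 := Fermat.Agent.S56.H9.cocycle_pow c φ m hm j
    have h4 : (c : _root_.Fermat.Agent.S56.GQ → tateDual p (ad0 ρbar)) σ = c (φ ^ j) :=
      levelConstant_agree (c : _root_.Fermat.Agent.S56.GQ → tateDual p (ad0 ρbar)) L hcL (φ ^ j) σ h1
    have h5 : (tateDual p (ad0 ρbar)).ρ σ = (tateDual p (ad0 ρbar)).ρ (φ ^ j) :=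
      hom_agree (tateDual p (ad0 ρbar)).ρ L hML (φ ^ j) σ h1
    exact hne m (by rw [h4, h3, h5])

end Fermat.Agent.S56.TWS.H64

end

end
-- ==== END Fermat.Agent.S56.TWS.H64_Prime
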