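-- GENERATED (merged mirror, NOTES/tools/trim/merge3_helper67.py): 10 modules of the originals, bodies verbatim.
import Fermat.Agent.Zm.S56_L11_003
import Fermat.Agent.Zm.S56_L11_004
import Fermat.Agent.Zm.S56_L03_000
import Fermat.Agent.Zm.S56_L11_000
import Fermat.Agent.Zm.S56_L10_000
import Fermat.Agent.Zm.S56_L04_002
import Fermat.Agent.Zm.S56_L08_001
import Fermat.Agent.Zm.S56_L06_001
import Fermat.Agent.Zm.S56_L07_000
import Fermat.Agent.Zm.S56_L04_003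
import Fermat.Agent.Zm.S56_L01_002
import Fermat.Agent.Zm.S56_L07_001
import Fermat.Agent.Zm.S56_L05_000
import Fermat.Agent.Zm.S56_L05_001
import Fermat.Agent.Zm.S56_L05_002
import Fermat.Agent.Zm.S56_L08_002
import Fermat.Agent.Zm.S56_L11_001
import Fermat.Agent.Zm.S56_L05_003
import Fermat.Agent.Zm.S56_L06_003
import Fermat.Agent.Zm.S56_L07_003
import Fermat.Agent.Zm.S56_L06_002
import Fermat.Agent.Zm.S56_L10_003
import Fermat.Agent.Zm.S56_L11_002
import Fermat.Agent.Zm.S56_L01_005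
import Fermat.Agent.Zm.S56_L02_001

-- ==== BEGIN Fermat.Agent.S55.CFT.GS.H49_Real2Inf
section

set_option autoImplicit false
set_option linter.unusedSectionVars false
set_option linter.style.haveILetI false

open CategoryTheory groupCohomology ExtCitation

open scoped Pointwise

noncomputable section

namespace Fermat.Agent.S55.CFT.GS.H49

open Fermat.Agent.S55 Fermat.Agent.S55.Top Fermat.Agent.S55.CFT Fermat.Agent.S55.CFT.GS.Bri

local notation "Qb" => AlgebraicClosure ℚ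

attribute [local instance 10000] smulGalUnits

variable {K N N' : IntermediateField ℚ Qb} (hKN : K ≤ N) (hNN' : N ≤ N')

theorem algIncl_val (x : ↥(H6.NK hKN)) :
    letI := algIncl hKN hNN'
    ((algebraMap ↥(H6.NK hKN) ↥(H6.NK (hKN.trans hNN')) x : ↥(H6.NK (hKN.trans hNN'))) : Qb) =
      (x : Qb) := rfl

theorem valU_incl (u : (↥(H6.NK hKN))ˣ) :
    letI := algIncl hKN hNN'
    valU (hKN.trans hNN') (Units.map
      (algebraMap ↥(H6.NK hKN) ↥(H6.NK (hKN.trans hNN')) :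
        ↥(H6.NK hKN) →* ↥(H6.NK (hKN.trans hNN'))) u) = valU hKN u :=
  Units.ext rfl

variable [Normal ↥K ↥(H6.NK hKN)] [Normal ↥K ↥(H6.NK (hKN.trans hNN'))]

/-- Restrictions are compatible. -/
theorem restrict_resG (g : ↥K.fixingSubgroup) :
    letI := algIncl hKN hNN'
    haveI := isScalarTower_incl hKN hNN'
    AlgEquiv.restrictNormalHom (F := ↥K) (K₁ := ↥(H6.NK (hKN.trans hNN'))) ↥(H6.NK hKN)
      (resG (hKN.trans hNN') g) = resG hKN g := by
  letI := algIncl hKN hNN'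
  haveI := isScalarTower_incl hKN hNN'
  ext x
  rw [resG_apply]
  have h := AlgEquiv.restrictNormal_commutes (resG (hKN.trans hNN') g) ↥(H6.NK hKN) x
  have h2 := congrArg (fun y : ↥(H6.NK (hKN.trans hNN')) => (y : Qb)) h
  simp only [algIncl_val] at h2
  rw [resG_apply] at h2
  exact h2

omit [Normal ↥K ↥(H6.NK hKN)] [Normal ↥K ↥(H6.NK (hKN.trans hNN'))] in
/-- **R2-inf**. -/
theorem stmt_R2_inf : Stmt_R2_inf := by
  rintro K N N' hKN hNN' _ _ _ _ _ c x ⟨f, hf, hx⟩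
  letI := algIncl hKN hNN'
  haveI := isScalarTower_incl hKN hNN'
  refine ⟨mapCocycles₂ (AlgEquiv.restrictNormalHom (F := ↥K) (K₁ := ↥(H6.NK (hKN.trans hNN')))
    ↥(H6.NK hKN)) (infRepL ↥K ↥(H6.NK hKN) ↥(H6.NK (hKN.trans hNN'))) f, ?_, ?_⟩
  · rw [← hf]
    funext ⟨g₁, g₂⟩
    show valU (hKN.trans hNN') (Units.map
      (algebraMap ↥(H6.NK hKN) ↥(H6.NK (hKN.trans hNN')) :
        ↥(H6.NK hKN) →* ↥(H6.NK (hKN.trans hNN')))
      (Additive.toMul (f.1 (AlgEquiv.restrictNormalHom (F := ↥K)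
        (K₁ := ↥(H6.NK (hKN.trans hNN'))) ↥(H6.NK hKN) (resG (hKN.trans hNN') g₁),
        AlgEquiv.restrictNormalHom (F := ↥K)
        (K₁ := ↥(H6.NK (hKN.trans hNN'))) ↥(H6.NK hKN) (resG (hKN.trans hNN') g₂))))) =
      valU hKN (Additive.toMul (f.1 (resG hKN g₁, resG hKN g₂)))
    rw [restrict_resG, restrict_resG, valU_incl]
  · rw [← hx]
    exact (congrArg (fun φ => φ.hom f) (H2π_comp_map
      (AlgEquiv.restrictNormalHom (F := ↥K) (K₁ := ↥(H6.NK (hKN.trans hNN'))) ↥(H6.NK hKN))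
      (infRepL ↥K ↥(H6.NK hKN) ↥(H6.NK (hKN.trans hNN'))))).symm

end Fermat.Agent.S55.CFT.GS.H49

end

end
-- ==== END Fermat.Agent.S55.CFT.GS.H49_Real2Inf

-- ==== BEGIN Fermat.Agent.S55.CFT.GS.H64_ResLocCore
section

set_option autoImplicit false

noncomputable section

namespace Fermat.Agent.S55.CFT.GS.H64

open Fermat.Agent.S55.CFT.GS.Bri

section core

variable (q : ℕ) [Fact q.Prime]

local notation "Ω" => PadicAlgCl q

theorem norm_q_pos : 0 < ‖((q : ℕ) : Ω)‖ := by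
  rw [Fermat.Agent.Lib.LocalKummer.norm_natCast_p]
  have : (0 : ℝ) < q := by exact_mod_cast (Fact.out : q.Prime).pos
  positivity

theorem norm_q_ne_one : ‖((q : ℕ) : Ω)‖ ≠ 1 := by
  rw [Fermat.Agent.Lib.LocalKummer.norm_natCast_p]
  have h1 : (1 : ℝ) < q := by exact_mod_cast (Fact.out : q.Prime).one_lt
  intro h
  rw [inv_eq_one] at h
  linarith

theorem natCast_q_ne_zero : ((q : ℕ) : Ω) ≠ 0 := by
  intro h
  have := norm_q_pos q
  rw [h, norm_zero] at this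
  exact lt_irrefl _ this

/-- The local core of `RESLOC (⟸)`. -/
theorem local_core (hH2 : Stmt_UnrH2) (p : ℕ) (hp : 0 < p)
    (F₀ E : IntermediateField ℚ_[q] Ω)
    (hF₀ : FiniteDimensional ℚ_[q] ↥F₀) (hE : FiniteDimensional ℚ_[q] ↥E) (hle : F₀ ≤ E)
    (hstab : ∀ h : Ω ≃ₐ[ℚ_[q]] Ω, h ∈ F₀.fixingSubgroup → ∀ x : Ω, x ∈ E → h x ∈ E)
    (hval : ∀ y : Ω, y ∈ E → y ≠ 0 → ∃ k : ℤ, ‖y‖ = ‖((q : ℕ) : Ω)‖ ^ k)
    (hcyc : ∃ φ : ↥F₀.fixingSubgroup, ∀ h : ↥F₀.fixingSubgroup,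
      ∃ (n : ℕ) (s : ↥F₀.fixingSubgroup),
        (s : Ω ≃ₐ[ℚ_[q]] Ω) ∈ E.fixingSubgroup ∧ h = φ ^ n * s)
    (cw : ↥F₀.fixingSubgroup × ↥F₀.fixingSubgroup → Ω) (bw : ↥F₀.fixingSubgroup → Ω)
    (hcwE : ∀ t, cw t ∈ E)
    (hcwlev : ∀ h₁ h₂ s₁ s₂ : ↥F₀.fixingSubgroup,
      (s₁ : Ω ≃ₐ[ℚ_[q]] Ω) ∈ E.fixingSubgroup → (s₂ : Ω ≃ₐ[ℚ_[q]] Ω) ∈ E.fixingSubgroup →
      cw (h₁ * s₁, h₂ * s₂) = cw (h₁, h₂))
    (hcwcoc : ∀ h₁ h₂ h₃ : ↥F₀.fixingSubgroup,
      (h₁ : Ω ≃ₐ[ℚ_[q]] Ω) (cw (h₂, h₃)) * cw (h₁, h₂ * h₃) = cw (h₁ * h₂, h₃) * cw (h₁, h₂))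
    (hbwlev : ∀ h s : ↥F₀.fixingSubgroup, (s : Ω ≃ₐ[ℚ_[q]] Ω) ∈ E.fixingSubgroup →
      bw (h * s) = bw h)
    (hpow : ∀ h₁ h₂ : ↥F₀.fixingSubgroup,
      cw (h₁, h₂) ^ p * bw (h₁ * h₂) = (h₁ : Ω ≃ₐ[ℚ_[q]] Ω) (bw h₂) * bw h₁)
    (hres : ∀ h : ↥F₀.fixingSubgroup, ∃ k : ℤ, ‖bw h‖ = ‖((q : ℕ) : Ω)‖ ^ ((p : ℤ) * k)) :
    ∃ β : ↥F₀.fixingSubgroup → Ω, (∀ h, β h ≠ 0) ∧
      (∀ h s : ↥F₀.fixingSubgroup, (s : Ω ≃ₐ[ℚ_[q]] Ω) ∈ E.fixingSubgroup → β (h * s) = β h) ∧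
      ∀ h₁ h₂ : ↥F₀.fixingSubgroup,
        cw (h₁, h₂) * β (h₁ * h₂) = (h₁ : Ω ≃ₐ[ℚ_[q]] Ω) (β h₂) * β h₁ := by
  classical
  have hq0 := norm_q_pos q
  have hq1 := norm_q_ne_one q
  have hqne := natCast_q_ne_zero q
  have hp0 : (p : ℤ) ≠ 0 := by exact_mod_cast hp.ne'
  -- the exponents
  choose m hm using hres
  have hbw0 : ∀ h, bw h ≠ 0 := by
    intro h h0
    have := hm h
    rw [h0, norm_zero] at this
    exact (zpow_pos hq0 _).ne this
  have hmlev : ∀ h s : ↥F₀.fixingSubgroup, (s : Ω ≃ₐ[ℚ_[q]] Ω) ∈ E.fixingSubgroup →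
      m (h * s) = m h := by
    intro h s hs
    have h1 : ‖((q : ℕ) : Ω)‖ ^ ((p : ℤ) * m (h * s)) = ‖((q : ℕ) : Ω)‖ ^ ((p : ℤ) * m h) := by
      rw [← hm, ← hm, hbwlev h s hs]
    have h2 := zpow_right_injective₀ hq0 hq1 h1
    exact mul_left_cancel₀ hp0 h2
  -- `β₀ = q ^ m`
  set β₀ : ↥F₀.fixingSubgroup → Ω := fun h => ((q : ℕ) : Ω) ^ (m h) with hβ₀
  have hβ₀0 : ∀ h, β₀ h ≠ 0 := fun h => zpow_ne_zero _ hqne
  have hβ₀fix : ∀ (g : Ω ≃ₐ[ℚ_[q]] Ω) (h : ↥F₀.fixingSubgroup), g (β₀ h) = β₀ h := by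
    intro g h
    simp only [hβ₀, map_zpow₀, map_natCast]
  have hβ₀E : ∀ h, β₀ h ∈ E := fun h => zpow_mem (natCast_mem E q) _
  have hβ₀norm : ∀ h, ‖β₀ h‖ ^ p = ‖bw h‖ := by
    intro h
    rw [hm h, hβ₀, norm_zpow, ← zpow_natCast, ← zpow_mul, mul_comm]
  -- the unit valued cocycle
  set c' : ↥F₀.fixingSubgroup × ↥F₀.fixingSubgroup → Ω :=
    fun t => cw t * β₀ (t.1 * t.2) / (β₀ t.2 * β₀ t.1) with hc'
  have hcw0 : ∀ t, cw t ≠ 0 := by
    rintro ⟨h₁, h₂⟩ h0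
    have := hpow h₁ h₂
    rw [h0, zero_pow hp.ne', zero_mul] at this
    exact mul_ne_zero ((map_ne_zero _).mpr (hbw0 h₂)) (hbw0 h₁) this.symm
  have hc'E : ∀ t, c' t ∈ E := fun t =>
    div_mem (mul_mem (hcwE t) (hβ₀E _)) (mul_mem (hβ₀E _) (hβ₀E _))
  have hc'norm : ∀ t, ‖c' t‖ = 1 := by
    rintro ⟨h₁, h₂⟩
    have h1 : ‖c' (h₁, h₂)‖ ^ p = 1 := by
      simp only [hc', norm_div, norm_mul, div_pow, mul_pow, hβ₀norm]
      rw [← norm_pow, ← norm_mul, hpow h₁ h₂, norm_mul,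
        Fermat.Agent.Lib.LocalKummer.norm_algEquiv]
      exact div_self (mul_ne_zero (norm_ne_zero_iff.mpr (hbw0 _)) (norm_ne_zero_iff.mpr (hbw0 _)))
    exact (pow_eq_one_iff_of_nonneg (norm_nonneg _) hp.ne').mp h1
  have hc'lev : ∀ h₁ h₂ s₁ s₂ : ↥F₀.fixingSubgroup,
      (s₁ : Ω ≃ₐ[ℚ_[q]] Ω) ∈ E.fixingSubgroup → (s₂ : Ω ≃ₐ[ℚ_[q]] Ω) ∈ E.fixingSubgroup →
      c' (h₁ * s₁, h₂ * s₂) = c' (h₁, h₂) := by
    intro h₁ h₂ s₁ s₂ hs₁ hs₂
    -- `E.fixingSubgroup ∩ Γ` is normal in `Γ`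
    have hconj : ((h₂⁻¹ * s₁ * h₂ : ↥F₀.fixingSubgroup) : Ω ≃ₐ[ℚ_[q]] Ω) ∈ E.fixingSubgroup := by
      rw [IntermediateField.mem_fixingSubgroup_iff]
      intro x hx
      have h1 : (h₂ : Ω ≃ₐ[ℚ_[q]] Ω) x ∈ E := hstab _ h₂.2 x hx
      have h2 := (IntermediateField.mem_fixingSubgroup_iff E _).mp hs₁ _ h1
      show (h₂ : Ω ≃ₐ[ℚ_[q]] Ω)⁻¹ ((s₁ : Ω ≃ₐ[ℚ_[q]] Ω) ((h₂ : Ω ≃ₐ[ℚ_[q]] Ω) x)) = x
      rw [h2]
      exact AlgEquiv.symm_apply_apply _ x
    have h3 : h₁ * s₁ * (h₂ * s₂) = h₁ * h₂ * ((h₂⁻¹ * s₁ * h₂) * s₂) := by group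
    simp only [hc']
    rw [hcwlev h₁ h₂ s₁ s₂ hs₁ hs₂]
    have e1 : β₀ (h₁ * s₁ * (h₂ * s₂)) = β₀ (h₁ * h₂) := by
      simp only [hβ₀]
      rw [h3, hmlev _ _ (mul_mem hconj hs₂)]
    have e2 : β₀ (h₂ * s₂) = β₀ h₂ := by simp only [hβ₀]; rw [hmlev _ _ hs₂]
    have e3 : β₀ (h₁ * s₁) = β₀ h₁ := by simp only [hβ₀]; rw [hmlev _ _ hs₁]
    rw [e1, e2, e3]
  have hc'coc : ∀ h₁ h₂ h₃ : ↥F₀.fixingSubgroup,
      (h₁ : Ω ≃ₐ[ℚ_[q]] Ω) (c' (h₂, h₃)) * c' (h₁, h₂ * h₃) =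
        c' (h₁ * h₂, h₃) * c' (h₁, h₂) := by
    intro h₁ h₂ h₃
    simp only [hc', map_div₀, map_mul, hβ₀fix]
    have := hcwcoc h₁ h₂ h₃
    have a1 := hβ₀0 h₁
    have a2 := hβ₀0 h₂
    have a3 := hβ₀0 h₃
    have a4 := hβ₀0 (h₁ * h₂)
    have a5 := hβ₀0 (h₂ * h₃)
    have a6 := hβ₀0 (h₁ * (h₂ * h₃))
    rw [mul_assoc h₁ h₂ h₃]
    field_simp
    exact this
  obtain ⟨u, huE, hunorm, hulev, hu⟩ :=
    hH2 q F₀ E hF₀ hE hle hstab hval hcyc c' hc'E hc'norm hc'lev hc'coc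
  have hu0 : ∀ h, u h ≠ 0 := by
    intro h h0
    have := hunorm h
    rw [h0, norm_zero] at this
    exact zero_ne_one this
  refine ⟨fun h => u h * β₀ h, fun h => mul_ne_zero (hu0 h) (hβ₀0 h), ?_, ?_⟩
  · intro h s hs
    show u (h * s) * β₀ (h * s) = u h * β₀ h
    rw [hulev h s hs]
    simp only [hβ₀]
    rw [hmlev h s hs]
  · intro h₁ h₂
    have := hu h₁ h₂
    simp only [hc'] at this
    rw [map_mul, hβ₀fix]
    have a1 := hβ₀0 h₁
    have a2 := hβ₀0 h₂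
    field_simp at this
    linear_combination this

end core

end Fermat.Agent.S55.CFT.GS.H64

end

end
-- ==== END Fermat.Agent.S55.CFT.GS.H64_ResLocCore

-- ==== BEGIN Fermat.Agent.S55.CFT.GS.H68_UnrH2_Defs
section

set_option autoImplicit false

noncomputable section

namespace Fermat.Agent.S55.CFT.GS.H68

/-- **UNR-H2, core** (`H²(Gal(E/F₀), U_E) = 0`, `E/F₀` unramified, at the level of
`Δ = Gal(E/F₀)`, `E` as the intermediate field `extendScalars hle` of `Ω/F₀`): a 2-cocycle of `Δ`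
with values of norm `1` in `E` is the coboundary of a 1-cochain with values of norm `1`. -/
def Stmt_UnrH2_Core : Prop :=
  ∀ (q : ℕ) [Fact q.Prime] (F₀ E : IntermediateField ℚ_[q] (PadicAlgCl q)),
    FiniteDimensional ℚ_[q] ↥F₀ → FiniteDimensional ℚ_[q] ↥E → ∀ hle : F₀ ≤ E,
    (∀ h : PadicAlgCl q ≃ₐ[ℚ_[q]] PadicAlgCl q, h ∈ F₀.fixingSubgroup →
      ∀ x : PadicAlgCl q, x ∈ E → h x ∈ E) →
    (∀ y : PadicAlgCl q, y ∈ E → y ≠ 0 → ∃ k : ℤ, ‖y‖ = ‖((q : ℕ) : PadicAlgCl q)‖ ^ k) →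
    (∃ φ : ↥F₀.fixingSubgroup, ∀ h : ↥F₀.fixingSubgroup, ∃ (n : ℕ) (s : ↥F₀.fixingSubgroup),
      (s : PadicAlgCl q ≃ₐ[ℚ_[q]] PadicAlgCl q) ∈ E.fixingSubgroup ∧ h = φ ^ n * s) →
    ∀ c : (↥(IntermediateField.extendScalars hle) ≃ₐ[↥F₀] ↥(IntermediateField.extendScalars hle)) ×
        (↥(IntermediateField.extendScalars hle) ≃ₐ[↥F₀] ↥(IntermediateField.extendScalars hle)) →
        ↥(IntermediateField.extendScalars hle),
      (∀ t, ‖((c t : ↥(IntermediateField.extendScalars hle)) : PadicAlgCl q)‖ = 1) →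
      (∀ τ₁ τ₂ τ₃ : ↥(IntermediateField.extendScalars hle) ≃ₐ[↥F₀]
          ↥(IntermediateField.extendScalars hle),
        τ₁ (c (τ₂, τ₃)) * c (τ₁, τ₂ * τ₃) = c (τ₁ * τ₂, τ₃) * c (τ₁, τ₂)) →
      ∃ u : (↥(IntermediateField.extendScalars hle) ≃ₐ[↥F₀]
          ↥(IntermediateField.extendScalars hle)) → ↥(IntermediateField.extendScalars hle),
        (∀ τ, ‖((u τ : ↥(IntermediateField.extendScalars hle)) : PadicAlgCl q)‖ = 1) ∧
        ∀ τ₁ τ₂ : ↥(IntermediateField.extendScalars hle) ≃ₐ[↥F₀]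
            ↥(IntermediateField.extendScalars hle),
          c (τ₁, τ₂) * u (τ₁ * τ₂) = τ₁ (u τ₂) * u τ₁

end Fermat.Agent.S55.CFT.GS.H68

end

end
-- ==== END Fermat.Agent.S55.CFT.GS.H68_UnrH2_Defs

-- ==== BEGIN Fermat.Agent.S55.CFT.H13_CFp
section

set_option autoImplicit false
set_option linter.unusedSectionVars false
set_option linter.style.haveILetI false
open NumberField TensorProduct CategoryTheory CategoryTheory.Limits

noncomputable section
namespace Fermat.Agent.S55.CFT.H13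

open Fermat.Agent.S55.CFT

/-- Counting in a cyclic group: a class `γ` of order divisible by `#G`, together with
`#H²(H, C) ∣ #H` for all subgroups and corestriction, makes every `H²(H, C)` cyclic of order
`#H`, generated by `res γ`. -/
theorem cfp_abstract (hcor : Stmt_CorRes) {G : Type} [Group G] [Finite G] (C : Rep ℤ G)
    (γ : groupCohomology C 2) (hγ : ∀ k : ℕ, k • γ = 0 → Nat.card G ∣ k)
    (hcard : ∀ H : Subgroup G, Finite (groupCohomology (resSub C H) 2) ∧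
      Nat.card (groupCohomology (resSub C H) 2) ∣ Nat.card H) (H : Subgroup G) :
    Nat.card (groupCohomology (resSub C H) 2) = Nat.card H ∧
      ∀ x : groupCohomology (resSub C H) 2, ∃ n : ℤ, x = n • resMap C H 2 γ := by
  obtain ⟨hfin, hdvd⟩ := hcard H
  obtain ⟨cor, hcor'⟩ := hcor G C H 2
  set y := resMap C H 2 γ with hy
  have hr1 : addOrderOf y ∣ Nat.card (groupCohomology (resSub C H) 2) :=
    addOrderOf_dvd_natCard y
  have hr2 : Nat.card H ∣ addOrderOf y := by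
    have h0 : (addOrderOf y) • y = 0 := addOrderOf_nsmul_eq_zero y
    have h1 : cor ((addOrderOf y) • y) = 0 := by rw [h0, map_zero]
    rw [map_nsmul, hcor' γ, ← mul_nsmul'] at h1
    have h2 := hγ _ h1
    rw [← H.card_mul_index] at h2
    have hidx : 0 < H.index := Nat.pos_of_ne_zero Subgroup.index_ne_zero_of_finite
    exact Nat.dvd_of_mul_dvd_mul_right hidx h2
  have hr3 : addOrderOf y = Nat.card (groupCohomology (resSub C H) 2) :=
    Nat.dvd_antisymm hr1 (hdvd.trans hr2)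
  have hXH : Nat.card (groupCohomology (resSub C H) 2) = Nat.card H :=
    Nat.dvd_antisymm hdvd (hr3 ▸ hr2)
  refine ⟨hXH, fun x => ?_⟩
  have htop : AddSubgroup.zmultiples y = ⊤ := by
    apply AddSubgroup.eq_top_of_card_eq
    rw [Nat.card_zmultiples, hr3]
  have hx : x ∈ AddSubgroup.zmultiples y := by rw [htop]; trivial
  obtain ⟨n, hn⟩ := AddSubgroup.mem_zmultiples_iff.1 hx
  exact ⟨n, hn.symm⟩

/-- **CF-G'** (`Stmt_CFp'`) from CF-ind and FUND (COR is `H58.stmt_CorRes`). -/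
theorem stmt_CFp'_of (hCF : Stmt_CFind) (hF : Stmt_FundExists) : Stmt_CFp' := by
  intro p m M _ K L _ _ _ _ _ T hyp
  haveI := hyp.adm.gal
  obtain ⟨γ, hγ⟩ := hF p m M K L T hyp
  have hcard : Nat.card (L ≃ₐ[K] L) = p ^ m := by
    rw [IsGalois.card_aut_eq_finrank, hyp.deg]
  refine ⟨γ, fun H => (hCF p m K L T hyp.prime hyp.deg hyp.adm H).1, fun H => ?_⟩
  exact cfp_abstract H58.stmt_CorRes (repC K L T) γ (fun k hk => hcard ▸ hγ k hk)
    (fun H' => (hCF p m K L T hyp.prime hyp.deg hyp.adm H').2) H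

/-! ### Wiring to the two open leaves `Stmt_JCyclic` (GLB-3a) and `Stmt_SIindex` (SI'') -/

theorem stmt_CFind_of_leaves (hJC : Stmt_JCyclic) (hSI : Stmt_SIindex) : Stmt_CFind :=
  stmt_CFind_of (H19.stmt_CFcyc_of_leaves hJC hSI)

theorem stmt_FundExists_of_leaves (hJC : Stmt_JCyclic) (hSI : Stmt_SIindex) :
    Stmt_FundExists :=
  stmt_FundExists_of (stmt_CFind_of_leaves hJC hSI)
    (H56.stmt_CycRec H25.stmt_ThetaNorm hSI) H25.stmt_ThetaNorm

theorem stmt_CFp'_of_leaves (hJC : Stmt_JCyclic) (hSI : Stmt_SIindex) : Stmt_CFp' :=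
  stmt_CFp'_of (stmt_CFind_of_leaves hJC hSI) (stmt_FundExists_of_leaves hJC hSI)

end Fermat.Agent.S55.CFT.H13

end
end
-- ==== END Fermat.Agent.S55.CFT.H13_CFp

-- ==== BEGIN Fermat.Agent.S55.CFT.H56_WOne
section

set_option autoImplicit false
set_option linter.style.haveILetI false
set_option linter.unusedSectionVars false

open NumberField TensorProduct CategoryTheory

noncomputable section
namespace Fermat.Agent.S55.CFT.H56

open Fermat.Agent.S55.CFT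

/-! ### Every element of `Kˣ` is a `T`-unit for large `T` -/

lemma exists_nat_isIntegral (K : Type) [Field K] [NumberField K] (z : K) :
    ∃ n : ℕ, n ≠ 0 ∧ IsIntegral ℤ ((n : K) * z) := by
  have halg : IsAlgebraic ℤ z := by
    have h1 : IsAlgebraic ℚ z := Algebra.IsAlgebraic.isAlgebraic z
    exact (IsFractionRing.isAlgebraic_iff ℤ ℚ K).2 h1
  obtain ⟨y, hy0, hy⟩ := halg.exists_integral_multiple
  refine ⟨y.natAbs, Int.natAbs_ne_zero.2 hy0, ?_⟩
  rcases Int.natAbs_eq y with h | h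
  · have : ((y.natAbs : ℕ) : K) * z = y • z := by
      rw [zsmul_eq_mul]
      congr 1
      conv_rhs => rw [h]
      simp
    rw [this]
    exact hy
  · have : ((y.natAbs : ℕ) : K) * z = -(y • z) := by
      rw [zsmul_eq_mul, ← neg_mul]
      congr 1
      conv_rhs => rw [h]
      simp
    rw [this]
    exact hy.neg

/-- Every `a ∈ Kˣ` is a `T`-unit for all `T` containing a suitable finite set. -/
theorem exists_finset_forall_mem_TUnits (K : Type) [Field K] [NumberField K] (a : Kˣ) :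
    ∃ T₀ : Finset Nat.Primes, ∀ T : Finset Nat.Primes, T₀ ⊆ T → a ∈ TUnits K T := by
  classical
  obtain ⟨n₁, hn₁, h₁⟩ := exists_nat_isIntegral K (a : K)
  obtain ⟨n₂, hn₂, h₂⟩ := exists_nat_isIntegral K ((a⁻¹ : Kˣ) : K)
  set n := n₁ * n₂ with hn
  have hn0 : n ≠ 0 := Nat.mul_ne_zero hn₁ hn₂
  refine ⟨primesOf n, ?_⟩
  intro T hT
  obtain ⟨e, c, hc⟩ := dvd_prodT_pow T n hn0 hT
  refine ⟨e, ?_, ?_⟩
  · have e1 : ((prodT T : K)) ^ e * (a : K) = ((c * n₂ : ℕ) : K) * ((n₁ : K) * (a : K)) := by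
      have : ((prodT T : K)) ^ e = ((prodT T ^ e : ℕ) : K) := by push_cast; rfl
      rw [this, hc, hn]
      push_cast
      ring
    rw [e1]
    have h0 : IsIntegral ℤ (((c * n₂ : ℕ) : K)) := by
      have := isIntegral_algebraMap (R := ℤ) (A := K) (x := ((c * n₂ : ℕ) : ℤ))
      simpa using this
    exact h0.mul h₁
  · have e1 : ((prodT T : K)) ^ e * ((a⁻¹ : Kˣ) : K) =
        ((c * n₁ : ℕ) : K) * ((n₂ : K) * ((a⁻¹ : Kˣ) : K)) := by
      have : ((prodT T : K)) ^ e = ((prodT T ^ e : ℕ) : K) := by push_cast; rfl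
      rw [this, hc, hn]
      push_cast
      ring
    rw [e1]
    have h0 : IsIntegral ℤ (((c * n₁ : ℕ) : K)) := by
      have := isIntegral_algebraMap (R := ℤ) (A := K) (x := ((c * n₁ : ℕ) : ℤ))
      simpa using this
    exact h0.mul h₂


/-! ### The core of W-One, for a model `F` of `K(ζ_{p^M})` inside a common Galois extension `N` -/

section core

variable (K L F N : Type) [Field K] [Field L] [Field F] [Field N] [NumberField K] [NumberField L]
  [NumberField F] [NumberField N] [Algebra K L] [Algebra K F] [Algebra K N] [Algebra L N]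
  [Algebra F N] [IsScalarTower K L N] [IsScalarTower K F N]

/-- The Galois group of a cyclotomic extension of `p`-power conductor, `p` odd, is cyclic. -/
lemma isCyclic_gal_cyclotomic (p M : ℕ) (hp : p.Prime) (hodd : p ≠ 2)
    [hcyc : IsCyclotomicExtension {p ^ M} K F] : IsCyclic (F ≃ₐ[K] F) := by
  haveI : NeZero (p ^ M) := ⟨pow_ne_zero _ hp.ne_zero⟩
  haveI : IsCyclic (ZMod (p ^ M))ˣ := ZMod.isCyclic_units_of_prime_pow p hp hodd M
  have hζ := IsCyclotomicExtension.zeta_spec (p ^ M) K F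
  exact isCyclic_of_injective (hζ.autToPow K) (hζ.autToPow_injective K)

lemma placeT_ext (T : Finset Nat.Primes) (ω ω' : H80.PlaceT K T)
    (h : (⟨ω.1.1, ω.2⟩ : Place K) = ⟨ω'.1.1, ω'.2⟩) : ω = ω' := by
  obtain ⟨⟨q, hq⟩, w⟩ := ω
  obtain ⟨⟨q', hq'⟩, w'⟩ := ω'
  obtain ⟨h1, h2⟩ := Sigma.mk.inj_iff.1 h
  change q = q' at h1
  subst h1
  have h3 : w = w' := eq_of_heq h2
  subst h3
  rfl

theorem brOne_core (hHasse : Stmt_BrHasse) (hLS : Stmt_LocSplit) (hIR : Stmt_InfResL)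
    (hInj : Stmt_InfJvInj) (hCyc : Stmt_CycClass) (hTHL : Stmt_THL)
    (p : Nat.Primes) (m m' m'' M : ℕ)
    (h3 : Hyp3 K L (p : ℕ) m) (h3N : Hyp3 K N (p : ℕ) m') (h3F : Hyp3 F N (p : ℕ) m'')
    (hcycF : IsCyclotomicExtension {(p : ℕ) ^ M} K F)
    (x : groupCohomology (repL K L) 2) (q₀ : Nat.Primes) (w₀ : MaximalSpectrum (SemiLocal K q₀))
    (hdeg : (p : ℕ) * Nat.card (MaximalSpectrum (LocAlg K F ⟨q₀, w₀⟩)) ∣ Module.finrank K F)
    (hx : ∀ v : Place K, v ≠ ⟨q₀, w₀⟩ → locMap K L v 2 x = 0)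
    (hpx : (p : ℕ) • locMap K L ⟨q₀, w₀⟩ 2 x = 0) : locMap K L ⟨q₀, w₀⟩ 2 x = 0 := by
  classical
  haveI hgL : IsGalois K L := h3.gal
  haveI : Normal K L := h3.gal.to_normal
  haveI hgN : IsGalois K N := h3N.gal
  haveI : NeZero ((p : ℕ) ^ M) := ⟨pow_ne_zero _ p.2.ne_zero⟩
  haveI hgF : IsGalois K F := IsCyclotomicExtension.isGalois {(p : ℕ) ^ M} K F
  haveI : Normal K F := hgF.to_normal
  have hodd : (p : ℕ) ≠ 2 := h3.odd
  have hlocy : ∀ v : Place K, locMap K N v 2 (infL K L N 2 x) =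
      infJv K L N v 2 (locMap K L v 2 x) := fun v => locMap_infL K L N v 2 x
  -- step 1: `res inf x` is locally trivial
  have h1 : ∀ u : Place F, locMap F N u 2 (resL K F N 2 (infL K L N 2 x)) = 0 := by
    rintro ⟨q, u⟩
    by_cases hv : (⟨q, placeBelow K F q u⟩ : Place K) = ⟨q₀, w₀⟩
    · obtain ⟨hq, hw⟩ := Sigma.mk.inj_iff.1 hv
      subst hq
      have hw' : placeBelow K F q u = w₀ := eq_of_heq hw
      subst hw'
      refine hLS (p : ℕ) m' K F N h3N hgF q (placeBelow K F q u) u rfl hdeg _ ?_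
      rw [hlocy, ← map_nsmul, hpx, map_zero]
    · refine locMap_resL_eq_zero K F N q (placeBelow K F q u) u rfl 2 _ ?_
      rw [hlocy, hx _ hv, map_zero]
  -- step 2: Hasse
  have h2 : resL K F N 2 (infL K L N 2 x) = 0 := hHasse (p : ℕ) m'' F N h3F _ h1
  -- step 3: inflation-restriction
  obtain ⟨x', hx'⟩ := hIR K F N hgF hgN _ h2
  -- step 4: cyclic classes
  have hcyclic : IsCyclic (F ≃ₐ[K] F) := isCyclic_gal_cyclotomic K F (p : ℕ) M p.2 hodd
  obtain ⟨cyc, cycv, -, hsurj, hv, hcompat⟩ := hCyc K F hgF hcyclic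
  obtain ⟨a, rfl⟩ := hsurj x'
  -- step 5: `a` is a local norm outside `v₀`
  have hinjF := hInj K F N hgF hgN
  have hinjL := hInj K L N hgL hgN
  have hlocF : ∀ v : Place K, infJv K F N v 2 (locMap K F v 2 (cyc a)) =
      infJv K L N v 2 (locMap K L v 2 x) := by
    intro v
    rw [← locMap_infL, hx', hlocy]
  have h5 : ∀ v : Place K, v ≠ ⟨q₀, w₀⟩ → IsLocNorm K F v (locHom K K v a) := by
    intro v hv'
    rw [← (hv v).2.2, ← hcompat]
    apply hinjF v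
    rw [hlocF, hx v hv', map_zero, map_zero]
  -- step 6: the set `T`
  obtain ⟨T₀, hT₀⟩ := exists_finset_forall_mem_TUnits K a
  set T : Finset Nat.Primes := insert q₀ (insert p T₀) with hT
  have hq₀T : q₀ ∈ T := Finset.mem_insert_self _ _
  have hpT : p ∈ T := Finset.mem_insert_of_mem (Finset.mem_insert_self _ _)
  have haT : a ∈ TUnits K T :=
    hT₀ T (fun q hq => Finset.mem_insert_of_mem (Finset.mem_insert_of_mem hq))
  -- step 7: the idele `(a at v₀, 1 elsewhere)`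
  have hmem := secHom_mem_normGroup K F T ⟨⟨q₀, hq₀T⟩, w₀⟩ a haT (by
    intro ω hω
    apply h5
    intro h
    exact hω (placeT_ext K T ω ⟨⟨q₀, hq₀T⟩, w₀⟩ h))
  have hcplx : IsTotallyComplex K :=
    isTotallyComplex_of_primitiveRoot (p : ℕ) p.2 hodd K h3.zeta
  have hζF : ∃ ζ : F, IsPrimitiveRoot ζ ((p : ℕ) ^ M) :=
    ⟨_, IsCyclotomicExtension.zeta_spec ((p : ℕ) ^ M) K F⟩
  have hθ : cycloTheta K p M T
      (H80.secHom K K T ⟨⟨q₀, hq₀T⟩, w₀⟩ (locHom K K ⟨q₀, w₀⟩ a)) = 1 :=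
    MonoidHom.mem_ker.1
      (normGroup_le_ker H25.stmt_ThetaNorm p M K F T hodd hζF hpT hcplx hmem)
  have h7 := (hTHL p M K F T hodd h3.zeta hcycF ⟨q₀, hq₀T⟩ w₀).1
    (H80.secHom K K T ⟨⟨q₀, hq₀T⟩, w₀⟩ (locHom K K ⟨q₀, w₀⟩ a))
    (fun q v hne => H80.proj_secHom_ne K K T ⟨⟨q₀, hq₀T⟩, w₀⟩ ⟨q, v⟩ hne _) hθ
  rw [H80.proj_secHom_self K K T ⟨⟨q₀, hq₀T⟩, w₀⟩] at h7
  -- step 8
  apply hinjL ⟨q₀, w₀⟩
  rw [map_zero, ← hlocF, hcompat, ((hv _).2.2 _).2 h7, map_zero]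

end core


/-! ### W-One -/

/-- **W-One**: BR-One from BR-Hasse, LOC-SPLIT, INF-RES, SHL-inf, CYC-CLASS, THL, DEG-GROW. -/
theorem stmt_BrOne_of_leaves (hHasse : Stmt_BrHasse) (hLS : Stmt_LocSplit) (hIR : Stmt_InfResL)
    (hInj : Stmt_InfJvInj) (hCyc : Stmt_CycClass) (hTHL : Stmt_THL) (hDeg : Stmt_DegGrow) :
    Stmt_BrOne := by
  intro p m K L _ _ _ _ _ h3 x v₀ hx
  classical
  obtain ⟨q₀, w₀⟩ := v₀
  have hp := h3.prime
  haveI hgL : IsGalois K L := h3.gal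
  haveI : Normal K L := hgL.to_normal
  obtain ⟨M, hM⟩ := hDeg p 1 K hp h3.zeta ⟨q₀, w₀⟩
  haveI : NeZero (p ^ M) := ⟨pow_ne_zero _ hp.ne_zero⟩
  haveI hgN : IsGalois K (CyclotomicField (p ^ M) L) := isGalois_cyclo K L (p ^ M)
  obtain ⟨ζ, hζ⟩ : ∃ ζ : CyclotomicField (p ^ M) L, IsPrimitiveRoot ζ (p ^ M) :=
    ⟨_, IsCyclotomicExtension.zeta_spec (p ^ M) L _⟩
  haveI hcycF : IsCyclotomicExtension {p ^ M} K ↥(IntermediateField.adjoin K {ζ}) :=
    hζ.intermediateField_adjoin_isCyclotomicExtension K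
  haveI hgF : IsGalois K ↥(IntermediateField.adjoin K {ζ}) :=
    IsCyclotomicExtension.isGalois {p ^ M} K _
  haveI hgFN : IsGalois ↥(IntermediateField.adjoin K {ζ}) (CyclotomicField (p ^ M) L) :=
    IsGalois.tower_top_of_isGalois K _ _
  obtain ⟨m', hm'⟩ := H13.finrank_tower_prime_pow K L (CyclotomicField (p ^ M) L) p m M hp
    h3.zeta h3.deg
  have hdvd : Module.finrank ↥(IntermediateField.adjoin K {ζ}) (CyclotomicField (p ^ M) L) ∣
      p ^ m' := by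
    rw [← hm', ← Module.finrank_mul_finrank K ↥(IntermediateField.adjoin K {ζ})
      (CyclotomicField (p ^ M) L)]
    exact dvd_mul_left _ _
  obtain ⟨m'', -, hm''⟩ := (Nat.dvd_prime_pow hp).1 hdvd
  have h3N : Hyp3 K (CyclotomicField (p ^ M) L) p m' := ⟨hp, h3.odd, h3.zeta, hgN, hm'⟩
  have hzF : ∃ z : ↥(IntermediateField.adjoin K {ζ}), IsPrimitiveRoot z p := by
    obtain ⟨z, hz⟩ := h3.zeta
    exact ⟨algebraMap K _ z, hz.map_of_injective (algebraMap K _).injective⟩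
  have h3F : Hyp3 ↥(IntermediateField.adjoin K {ζ}) (CyclotomicField (p ^ M) L) p m'' :=
    ⟨hp, h3.odd, hzF, hgFN, hm''⟩
  have hdeg := hM M le_rfl ↥(IntermediateField.adjoin K {ζ}) hcycF
  rw [pow_one] at hdeg
  have core : ∀ x : groupCohomology (repL K L) 2,
      (∀ v : Place K, v ≠ ⟨q₀, w₀⟩ → locMap K L v 2 x = 0) →
      p • locMap K L ⟨q₀, w₀⟩ 2 x = 0 → locMap K L ⟨q₀, w₀⟩ 2 x = 0 :=
    fun x hx hpx => brOne_core K L ↥(IntermediateField.adjoin K {ζ}) (CyclotomicField (p ^ M) L)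
      hHasse hLS hIR hInj hCyc hTHL ⟨p, hp⟩ m m' m'' M h3 h3N h3F hcycF x q₀ w₀ hdeg hx hpx
  have hind : ∀ k : ℕ, ∀ x : groupCohomology (repL K L) 2,
      (∀ v : Place K, v ≠ ⟨q₀, w₀⟩ → locMap K L v 2 x = 0) →
      p ^ k • locMap K L ⟨q₀, w₀⟩ 2 x = 0 → locMap K L ⟨q₀, w₀⟩ 2 x = 0 := by
    intro k
    induction k with
    | zero =>
      intro x _ h
      simpa using h
    | succ k ih =>
      intro x hx h
      apply ih x hx
      rw [← map_nsmul]
      apply core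
      · intro v hv
        rw [map_nsmul, hx v hv, smul_zero]
      · rw [map_nsmul, smul_smul, ← pow_succ']
        exact h
  apply hind m x hx
  have hcard := LOC.H72.card_nsmul_H2 (repJv K L ⟨q₀, w₀⟩) (locMap K L ⟨q₀, w₀⟩ 2 x)
  rw [IsGalois.card_aut_eq_finrank, h3.deg] at hcard
  exact hcard

end Fermat.Agent.S55.CFT.H56

end
end
-- ==== END Fermat.Agent.S55.CFT.H56_WOne

-- ==== BEGIN Fermat.Agent.S55.CFT.H72_THLIdele
section

set_option autoImplicit false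
set_option linter.unusedSectionVars false
set_option linter.style.haveILetI false

open NumberField TensorProduct CategoryTheory

noncomputable section

namespace Fermat.Agent.S55.CFT.H72

variable (K L : Type) [Field K] [Field L] [NumberField K] [NumberField L] [Algebra K L]
  (T : Finset Nat.Primes)

/-! ### Ideles supported at one place -/

/-- An idele which is `1` at all places but `ω` is the section of its component at `ω`. -/
theorem eq_secHom_of_supported (ω : H80.PlaceT K T) (x : IdeleT K T)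
    (hx : ∀ (q : T) (v : MaximalSpectrum (SemiLocal K q.1)),
      (⟨q, v⟩ : (q : T) × MaximalSpectrum (SemiLocal K q.1)) ≠ ω → projIdele K K T q v x = 1) :
    x = H80.secHom K K T ω (projIdele K K T ω.1 ω.2 x) := by
  apply H80.compHom_injective K K T
  funext ω'
  rw [H80.compHom_apply, H80.compHom_apply]
  by_cases h : ω' = ω
  · subst h
    rw [H80.proj_secHom_self]
  · rw [H80.proj_secHom_ne K K T ω ω' h]
    exact hx ω'.1 ω'.2 h

/-- The section is supported at `ω`. -/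
theorem secHom_supported (ω : H80.PlaceT K T) (β : (LocAlg K K ⟨ω.1.1, ω.2⟩)ˣ)
    (q : T) (v : MaximalSpectrum (SemiLocal K q.1))
    (h : (⟨q, v⟩ : (q : T) × MaximalSpectrum (SemiLocal K q.1)) ≠ ω) :
    projIdele K K T q v (H80.secHom K K T ω β) = 1 :=
  H80.proj_secHom_ne K K T ω ⟨q, v⟩ h β

/-- The components of the section at the primes `q ≠ ω.1` are `1`. -/
theorem secHom_apply_of_ne (ω : H80.PlaceT K T) (β : (LocAlg K K ⟨ω.1.1, ω.2⟩)ˣ)
    (q : T) (h : q ≠ ω.1) : H80.secHom K K T ω β q = 1 := by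
  apply Units.ext
  apply (H80.crt_bijective K K q.1).1
  funext v
  have h1 : (⟨q, v⟩ : H80.PlaceT K T) ≠ ω := fun e => h (congrArg Sigma.fst e)
  have h2 := H80.proj_secHom_ne K K T ω ⟨q, v⟩ h1 β
  have h3 := congrArg (fun u : (LocAlg K K ⟨q.1, v⟩)ˣ => (u : LocAlg K K ⟨q.1, v⟩)) h2
  rw [H80.crtMap_apply]
  simp only [Units.val_one, map_one]
  exact h3

/-- The component of the section at the prime `ω.1`, reduced modulo the place. -/
theorem mk_secHom_self (ω : H80.PlaceT K T) (β : (LocAlg K K ⟨ω.1.1, ω.2⟩)ˣ) :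
    Ideal.Quotient.mk (placeIdeal K K ⟨ω.1.1, ω.2⟩)
      ((H80.secHom K K T ω β ω.1 : (SemiLocal K ω.1.1)ˣ) : SemiLocal K ω.1.1) = (β : _) := by
  have h2 := H80.proj_secHom_self K K T ω β
  exact congrArg (fun u : (LocAlg K K ⟨ω.1.1, ω.2⟩)ˣ => (u : LocAlg K K ⟨ω.1.1, ω.2⟩)) h2

/-- The component of the section at the prime `ω.1` is `1` modulo the other places. -/
theorem secHom_sub_one_mem (ω : H80.PlaceT K T) (β : (LocAlg K K ⟨ω.1.1, ω.2⟩)ˣ)
    (v : MaximalSpectrum (SemiLocal K ω.1.1)) (hv : v ≠ ω.2) :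
    ((H80.secHom K K T ω β ω.1 : (SemiLocal K ω.1.1)ˣ) : SemiLocal K ω.1.1) - 1 ∈
      placeIdeal K K ⟨ω.1.1, v⟩ := by
  have h1 : (⟨ω.1, v⟩ : H80.PlaceT K T) ≠ ω := by
    intro e
    apply hv
    obtain ⟨q, w⟩ := ω
    simpa using e
  have h2 := H80.proj_secHom_ne K K T ω ⟨ω.1, v⟩ h1 β
  have h3 := congrArg (fun u : (LocAlg K K ⟨ω.1.1, v⟩)ˣ => (u : LocAlg K K ⟨ω.1.1, v⟩)) h2
  rw [← Ideal.Quotient.eq_zero_iff_mem, map_sub, map_one, sub_eq_zero]
  exact h3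

/-- The norm of the component at `ω.1` of the section is the norm of `β`. -/
theorem norm_secHom_self (ω : H80.PlaceT K T) (β : (LocAlg K K ⟨ω.1.1, ω.2⟩)ˣ) :
    Algebra.norm (Qp ω.1.1)
      ((H80.secHom K K T ω β ω.1 : (SemiLocal K ω.1.1)ˣ) : SemiLocal K ω.1.1) =
    Algebra.norm (Qp ω.1.1) (β : LocAlg K K ⟨ω.1.1, ω.2⟩) := by
  classical
  haveI : Fintype (MaximalSpectrum (SemiLocal K ω.1.1)) := Fintype.ofFinite _
  set x : SemiLocal K ω.1.1 :=
    ((H80.secHom K K T ω β ω.1 : (SemiLocal K ω.1.1)ˣ) : SemiLocal K ω.1.1) with hx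
  set e : SemiLocal K ω.1.1 := H80.wIdem K K ω.1.1 ω.2 with he
  have hee : e * e = e := ((H80.wIdem_complete K K ω.1.1).idem ω.2).eq
  have hspan : placeIdeal K K ⟨ω.1.1, ω.2⟩ = Ideal.span {1 - e} :=
    H80.placeIdeal_eq_span K K ω.1.1 ω.2
  have he1 : 1 - e ∈ placeIdeal K K ⟨ω.1.1, ω.2⟩ := by
    rw [hspan]
    exact Ideal.subset_span rfl
  have he0 : ∀ i ∈ placeIdeal K K ⟨ω.1.1, ω.2⟩, i * e = 0 := by
    intro i hi
    rw [hspan, Ideal.mem_span_singleton'] at hi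
    obtain ⟨a, rfl⟩ := hi
    rw [mul_assoc, sub_mul, one_mul, hee, sub_self, mul_zero]
  have h0 : (x - 1) * (1 - e) = 0 := by
    apply (H80.crt_bijective K K ω.1.1).1
    funext v
    rw [H80.crtMap_apply, map_zero, Pi.zero_apply, map_mul]
    by_cases hv : v = ω.2
    · subst hv
      rw [Ideal.Quotient.eq_zero_iff_mem.mpr he1, mul_zero]
    · rw [Ideal.Quotient.eq_zero_iff_mem.mpr (secHom_sub_one_mem K T ω β v hv), zero_mul]
  rw [norm_eq_norm_quot (R := Qp ω.1.1) (placeIdeal K K ⟨ω.1.1, ω.2⟩) e he1 he0 x h0, hx,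
    mk_secHom_self]

/-- **THL-I**: the cyclotomic symbol of an idele supported at `ω` is the local symbol of its
component. -/
theorem cycloTheta_secHom (p : Nat.Primes) (M : ℕ) (ω : H80.PlaceT K T)
    (β : (LocAlg K K ⟨ω.1.1, ω.2⟩)ˣ) :
    cycloTheta K p M T (H80.secHom K K T ω β) =
      thetaAlg p M ω.1.1 (LocAlg K K ⟨ω.1.1, ω.2⟩) β := by
  rw [H56.cycloTheta_eq, Finset.prod_eq_single ω.1]
  · unfold thetaAlg
    congr 1
    apply Units.ext
    exact norm_secHom_self K T ω β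
  · intro q _ hq
    have h1 : normToQ K T (H80.secHom K K T ω β) q = 1 := by
      show Units.map _ (H80.secHom K K T ω β q) = 1
      rw [secHom_apply_of_ne K T ω β q hq, map_one]
    rw [h1]
    exact (H56.thetaLocHom p M q.1).map_one
  · intro h
    exact absurd (Finset.mem_univ _) h

/-! ### Local norms are in the kernel of the local symbol -/

/-- The components of a base-changed idele. -/
theorem projIdele_baseIdele (q : T) (v : MaximalSpectrum (SemiLocal K q.1)) (x : IdeleT K T) :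
    projIdele K L T q v (baseIdele K L T x) =
      Units.map (locAlgTower K K L ⟨q.1, v⟩ : LocAlg K K ⟨q.1, v⟩ →* LocAlg K L ⟨q.1, v⟩)
        (projIdele K K T q v x) := by
  apply Units.ext
  rfl

/-- The base change of a section is the section of the base change. -/
theorem baseIdele_secHom (ω : H80.PlaceT K T) (β : (LocAlg K K ⟨ω.1.1, ω.2⟩)ˣ) :
    baseIdele K L T (H80.secHom K K T ω β) =
      H80.secHom K L T ω
        (Units.map (locAlgTower K K L ⟨ω.1.1, ω.2⟩ :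
          LocAlg K K ⟨ω.1.1, ω.2⟩ →* LocAlg K L ⟨ω.1.1, ω.2⟩) β) := by
  apply H80.compHom_injective K L T
  funext ω'
  rw [H80.compHom_apply, H80.compHom_apply, projIdele_baseIdele]
  by_cases h : ω' = ω
  · subst h
    rw [H80.proj_secHom_self, H80.proj_secHom_self]
  · rw [H80.proj_secHom_ne K K T ω ω' h, H80.proj_secHom_ne K L T ω ω' h, map_one]

/-- The symbol of an idele supported at `ω` whose component is a local norm from
`L ∋ ζ_{p^M}` is trivial. -/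
theorem cycloTheta_secHom_of_isLocNorm [IsGalois K L] (p : Nat.Primes) (M : ℕ)
    (hp2 : (p : ℕ) ≠ 2) (hζ : ∃ ζ : L, IsPrimitiveRoot ζ ((p : ℕ) ^ M))
    (ω : H80.PlaceT K T) (β : (LocAlg K K ⟨ω.1.1, ω.2⟩)ˣ)
    (h : IsLocNorm K L ⟨ω.1.1, ω.2⟩ β) :
    cycloTheta K p M T (H80.secHom K K T ω β) = 1 := by
  classical
  obtain ⟨y, hy⟩ := h
  rw [finprod_eq_prod_of_fintype] at hy
  set Y : IdeleT L T := H80.secHom K L T ω y with hY
  have h1 : ∏ σ : L ≃ₐ[K] L, σ • Y = H80.secHom K L T ω (∏ σ : L ≃ₐ[K] L, σ • y) := by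
    rw [map_prod]
    refine Finset.prod_congr rfl (fun σ _ => ?_)
    rw [hY, H80.secHom_smul]
  have h2 : baseIdele K L T (normLK K L T Y) =
      baseIdele K L T (H80.secHom K K T ω β) := by
    rw [H12.baseIdele_normLK, h1, hy, baseIdele_secHom]
  have h3 := H12.baseIdele_injective K L T h2
  rw [← h3, H56.cycloTheta_normLK]
  exact H25.stmt_ThetaNorm p M L T hp2 hζ Y

/-- **THL-N**: the local symbol is trivial on local norms from `L ∋ ζ_{p^M}`. -/
theorem thetaAlg_of_isLocNorm [IsGalois K L] (p : Nat.Primes) (M : ℕ)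
    (hp2 : (p : ℕ) ≠ 2) (hζ : ∃ ζ : L, IsPrimitiveRoot ζ ((p : ℕ) ^ M))
    (v : Place K) (β : (LocAlg K K v)ˣ) (h : IsLocNorm K L v β) :
    thetaAlg p M v.1 (LocAlg K K v) β = 1 := by
  have hmem : v.1 ∈ ({v.1} : Finset Nat.Primes) := Finset.mem_singleton_self _
  have h1 := cycloTheta_secHom_of_isLocNorm K L {v.1} p M hp2 hζ ⟨⟨v.1, hmem⟩, v.2⟩ β h
  rw [cycloTheta_secHom] at h1
  exact h1

end Fermat.Agent.S55.CFT.H72

end
end
-- ==== END Fermat.Agent.S55.CFT.H72_THLIdele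

-- ==== BEGIN Fermat.Agent.S55.CFT.LOC.H68_H2Order
section

set_option autoImplicit false
set_option linter.unusedSectionVars false
set_option linter.style.haveILetI false
set_option linter.unusedVariables false

namespace Fermat.Agent.S55.CFT.LOC.H68

open Fermat.Agent.S55.CFT.LOC Fermat.Agent.S55.CFT groupCohomology

attribute [local instance] addDMA

/-- an injective homomorphism of finite cyclic groups maps a suitable generator `ψ` to
`φ ^ (n / m)`. -/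
theorem exists_gen_map_eq {C D : Type} [Group C] [Group D] [Finite C] [Finite D]
    (φ : C) (hφ : ∀ σ : C, σ ∈ Subgroup.zpowers φ)
    (ρ : D →* C) (hρ : Function.Injective ρ) :
    ∃ ψ : D, (∀ σ : D, σ ∈ Subgroup.zpowers ψ) ∧ orderOf ψ ∣ orderOf φ ∧
      ρ ψ = φ ^ (orderOf φ / orderOf ψ) := by
  classical
  haveI : Fintype C := Fintype.ofFinite C
  haveI : Fintype D := Fintype.ofFinite D
  haveI : IsCyclic C := ⟨⟨φ, hφ⟩⟩
  set n := orderOf φ with hn
  set m := Nat.card D with hm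
  have hnC : n = Nat.card C := orderOf_eq_card_of_forall_mem_zpowers hφ
  have hmpos : 0 < m := Nat.card_pos
  have hnpos : 0 < n := orderOf_pos φ
  have hmn : m ∣ n := by
    rw [hnC]
    exact Subgroup.card_dvd_of_injective ρ hρ
  obtain ⟨t, ht⟩ := hmn
  have htpos : 0 < t := by
    rcases Nat.eq_zero_or_pos t with h0 | h0
    · rw [h0, mul_zero] at ht; omega
    · exact h0
  have hdiv : n / m = t := by rw [ht, Nat.mul_div_cancel_left _ hmpos]
  -- the set of `m`-torsion elements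
  let T : Finset C := Finset.univ.filter fun a : C => a ^ m = 1
  have hT : T.card ≤ m := IsCyclic.card_pow_eq_one_le hmpos
  let R : Finset C := Finset.univ.image ρ
  have hRcard : R.card = m := by
    rw [Finset.card_image_of_injective _ hρ, Finset.card_univ, hm, Nat.card_eq_fintype_card]
  have hRT : R ⊆ T := by
    intro x hx
    obtain ⟨d, -, rfl⟩ := Finset.mem_image.1 hx
    refine Finset.mem_filter.2 ⟨Finset.mem_univ _, ?_⟩
    rw [← map_pow, hm, pow_card_eq_one', map_one]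
  have hRT' : R = T := Finset.eq_of_subset_of_card_le hRT (by rw [hRcard]; exact hT)
  have hmem : φ ^ t ∈ T := by
    refine Finset.mem_filter.2 ⟨Finset.mem_univ _, ?_⟩
    rw [← pow_mul, mul_comm, ← ht, hn, pow_orderOf_eq_one]
  rw [← hRT'] at hmem
  obtain ⟨ψ, -, hψ⟩ := Finset.mem_image.1 hmem
  have hord : orderOf ψ = m := by
    rw [← orderOf_injective ρ hρ ψ, hψ, orderOf_pow' φ htpos.ne', ← hn, ht,
      Nat.gcd_eq_right (Dvd.intro_left m rfl), Nat.mul_div_cancel _ htpos]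
  refine ⟨ψ, ?_, ?_, ?_⟩
  · intro σ
    have : Subgroup.zpowers ψ = ⊤ := by
      apply Subgroup.eq_top_of_card_eq
      rw [Nat.card_zpowers, hord]
    rw [this]
    exact Subgroup.mem_top σ
  · rw [hord]; exact ⟨t, ht⟩
  · rw [hord, hdiv, hψ]

section restr

variable (F E L : Type) [Field F] [Field E] [Field L] [Algebra F E] [Algebra F L] [Algebra E L]
  [IsScalarTower F E L] [FiniteDimensional F L] [IsGalois F L] [Normal F E]
  (E' : IntermediateField F L) [Normal F E']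

/-- the restriction `Gal(L/E) → Gal(E'/F)` -/
noncomputable def resToSub : (L ≃ₐ[E] L) →* (E' ≃ₐ[F] E') :=
  (AlgEquiv.restrictNormalHom E').comp (AlgEquiv.restrictScalarsHom F)

theorem resToSub_apply (d : L ≃ₐ[E] L) :
    resToSub F E L E' d = AlgEquiv.restrictNormalHom E' (d.restrictScalars F) := rfl

theorem resToSub_injective
    (hsup : E' ⊔ (IsScalarTower.toAlgHom F E L).fieldRange = ⊤) :
    Function.Injective (resToSub F E L E') := by
  rw [injective_iff_map_eq_one]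
  intro d hd
  have h1 : d.restrictScalars F ∈ E'.fixingSubgroup := by
    rw [IntermediateField.mem_fixingSubgroup_iff]
    intro x hx
    have h := AlgEquiv.restrictNormal_commutes (d.restrictScalars F) E' ⟨x, hx⟩
    have h2 : (d.restrictScalars F).restrictNormal E' ⟨x, hx⟩ = ⟨x, hx⟩ := by
      show (resToSub F E L E' d) ⟨x, hx⟩ = ⟨x, hx⟩
      rw [hd]; rfl
    rw [h2] at h
    exact h.symm
  have h2 : d.restrictScalars F ∈ (IsScalarTower.toAlgHom F E L).fieldRange.fixingSubgroup := by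
    rw [IntermediateField.mem_fixingSubgroup_iff]
    rintro x ⟨e, rfl⟩
    exact d.commutes e
  have h3 : d.restrictScalars F ∈ (E' ⊔ (IsScalarTower.toAlgHom F E L).fieldRange).fixingSubgroup := by
    rw [IntermediateField.fixingSubgroup_sup]
    exact ⟨h1, h2⟩
  rw [hsup, IntermediateField.fixingSubgroup_top] at h3
  have h4 : d.restrictScalars F = 1 := Subgroup.mem_bot.1 h3
  ext x
  have := congrArg (fun σ : L ≃ₐ[F] L => σ x) h4
  exact this

/-- **Step 3**: the inflation of the cyclic cocycle of `aL`, restricted to `Gal(L/E)`, is a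
coboundary as soon as `aL` is a norm from `L` to `E`. -/
theorem exists_cobound_on_ker [FiniteDimensional E L]
    (hsup : E' ⊔ (IsScalarTower.toAlgHom F E L).fieldRange = ⊤)
    (φ : E' ≃ₐ[F] E') (hφ : ∀ σ : E' ≃ₐ[F] E', σ ∈ Subgroup.zpowers φ)
    (aL y : Additive Lˣ) (hy : ∑ d : L ≃ₐ[E] L, d • y = aL) :
    ∃ z : (L ≃ₐ[F] L) → Additive Lˣ, ∀ n n' : L ≃ₐ[F] L,
      AlgEquiv.restrictNormalHom E n = 1 → AlgEquiv.restrictNormalHom E n' = 1 →
      n • z n' - z (n * n') + z n =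
        cycCarry φ hφ (AlgEquiv.restrictNormalHom E' n) (AlgEquiv.restrictNormalHom E' n') • aL := by
  classical
  obtain ⟨ψ, hψ, hdvd, hρψ⟩ := exists_gen_map_eq φ hφ (resToSub F E L E')
    (resToSub_injective F E L E' hsup)
  have hcob := isCoboundary₂_cycCocycle_of_norm ψ hψ y
  rw [cycPart_orderOf_eq_sum ψ hψ y, hy] at hcob
  obtain ⟨xD, hxD⟩ := hcob
  refine ⟨fun n => if h : AlgEquiv.restrictNormalHom E n = 1 then xD (kerLift F E L n h) else 0,
    fun n n' hn hn' => ?_⟩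
  have hnn' : AlgEquiv.restrictNormalHom E (n * n') = 1 := by rw [map_mul, hn, hn', one_mul]
  simp only [dif_pos hn, dif_pos hn', dif_pos hnn']
  rw [kerLift_mul F E L n n' hn hn', ← kerLift_smul F E L n hn, hxD]
  simp only [cycCocycle]
  rw [← cycCarry_comp φ hφ ψ hψ (resToSub F E L E') hdvd hρψ]
  rw [resToSub_apply, resToSub_apply, kerLift_restrictScalars, kerLift_restrictScalars]

end restr

section normElt

variable (E L : Type) [Field E] [Field L] [Algebra E L] [FiniteDimensional E L] [IsGalois E L]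

/-- a norm equation in `E`, additively in `Additive Lˣ` -/
theorem exists_sum_smul_eq_of_norm (y : L) (b : E) (hb : b ≠ 0) (h : Algebra.norm E y = b) :
    ∃ y' : Additive Lˣ, ∑ d : L ≃ₐ[E] L, d • y' =
      Additive.ofMul (Units.mk0 (algebraMap E L b) (by simpa using hb)) := by
  classical
  have hy0 : y ≠ 0 := by
    rintro rfl
    rw [Algebra.norm_zero] at h
    exact hb h.symm
  refine ⟨Additive.ofMul (Units.mk0 y hy0), ?_⟩
  apply additive_units_ext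
  have h1 := Algebra.norm_eq_prod_automorphisms E y
  rw [h] at h1
  show ((Additive.toMul (∑ d : L ≃ₐ[E] L, d • Additive.ofMul (Units.mk0 y hy0)) : Lˣ) : L) =
    algebraMap E L b
  rw [h1]
  have h2 : (Additive.toMul (∑ d : L ≃ₐ[E] L, d • Additive.ofMul (Units.mk0 y hy0)) : Lˣ) =
      ∏ d : L ≃ₐ[E] L, d • Units.mk0 y hy0 := by
    rw [toMul_sum]
    rfl
  rw [h2, Units.coe_prod]
  rfl

end normElt

section sumNorm

variable (F K : Type) [Field F] [Field K] [Algebra F K] [FiniteDimensional F K] [IsGalois F K]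

/-- a sum over the Galois group in `Additive Kˣ` is a norm -/
theorem norm_eq_of_sum_smul (y a : Additive Kˣ) (h : ∑ σ : K ≃ₐ[F] K, σ • y = a) :
    algebraMap F K (Algebra.norm F ((Additive.toMul y : Kˣ) : K)) = ((Additive.toMul a : Kˣ) : K) := by
  classical
  rw [Algebra.norm_eq_prod_automorphisms, ← h]
  have h2 : (Additive.toMul (∑ d : K ≃ₐ[F] K, d • y) : Kˣ) =
      ∏ d : K ≃ₐ[F] K, d • (Additive.toMul y : Kˣ) := by
    rw [toMul_sum]
    rfl
  rw [h2, Units.coe_prod]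
  rfl

end sumNorm

end Fermat.Agent.S55.CFT.LOC.H68

end
-- ==== END Fermat.Agent.S55.CFT.LOC.H68_H2Order

-- ==== BEGIN Fermat.Agent.S55.Top.H48_PTConeMono
section

set_option autoImplicit false

open CategoryTheory Module groupCohomology ExtCitation

noncomputable section

namespace Fermat.Agent.S55.Top.H48

open Fermat.Agent.S55 Fermat.Agent.S55.Top

variable {k : Type} [Field k] {S : Finset Nat.Primes}
  {K : IntermediateField ℚ (AlgebraicClosure ℚ)} {𝔓 : PlaceSys S K}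

/-- `K`-level `β¹mono`, cone side: a cone 1-cocycle orthogonal to all of `Z²_S(G_K)` is a cone
1-coboundary. -/
def BetaOneMonoConeK (tr : TraceK 𝔓 k) : Prop :=
  ∀ y : 𝔓.C1 k, IsZ1cK 𝔓 y →
    (∀ a : ↥K.fixingSubgroup × ↥K.fixingSubgroup → k, IsZ2K S K a →
      tr.toFun (cupB1K 𝔓 a y) = 0) → IsB1cK 𝔓 y

section single

open Classical in
/-- The family of local 2-cochains supported at the place `i` with value `z`. -/
def sg (i : Σ q : ↥S, 𝔓.W q) (z : 𝔓.Γw i.1 i.2 × 𝔓.Γw i.1 i.2 → k) :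
    ∀ (q : ↥S) (w : 𝔓.W q), 𝔓.Γw q w × 𝔓.Γw q w → k :=
  fun q w => (Function.update
    (fun j : (Σ q : ↥S, 𝔓.W q) => (0 : 𝔓.Γw j.1 j.2 × 𝔓.Γw j.1 j.2 → k)) i z) ⟨q, w⟩

lemma sg_self (i : Σ q : ↥S, 𝔓.W q) (z : 𝔓.Γw i.1 i.2 × 𝔓.Γw i.1 i.2 → k) :
    sg i z i.1 i.2 = z := by
  classical
  exact Function.update_self _ _ _

lemma sg_ne (i : Σ q : ↥S, 𝔓.W q) (z : 𝔓.Γw i.1 i.2 × 𝔓.Γw i.1 i.2 → k) (q : ↥S)
    (w : 𝔓.W q) (h : (⟨q, w⟩ : Σ q : ↥S, 𝔓.W q) ≠ i) : sg i z q w = 0 := by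
  classical
  exact Function.update_of_ne h _ _

lemma sg_mem (i : Σ q : ↥S, 𝔓.W q) {z : 𝔓.Γw i.1 i.2 × 𝔓.Γw i.1 i.2 → k}
    (hz : z ∈ Z2w k 𝔓 i.1 i.2) (q : ↥S) (w : 𝔓.W q) : sg i z q w ∈ Z2w k 𝔓 q w := by
  by_cases h : (⟨q, w⟩ : Σ q : ↥S, 𝔓.W q) = i
  · subst h
    rw [sg_self]
    exact hz
  · rw [sg_ne i z q w h]
    exact (Z2w k 𝔓 q w).zero_mem

lemma smul_sg (c : ∀ q : ↥S, 𝔓.W q → k) (i : Σ q : ↥S, 𝔓.W q)
    (z : 𝔓.Γw i.1 i.2 × 𝔓.Γw i.1 i.2 → k) (q : ↥S) (w : 𝔓.W q) :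
    c q w • sg i z q w = sg i (c i.1 i.2 • z) q w := by
  by_cases h : (⟨q, w⟩ : Σ q : ↥S, 𝔓.W q) = i
  · subst h
    rw [sg_self, sg_self]
  · rw [sg_ne i z q w h, sg_ne i _ q w h, smul_zero]

end single

/-- The local trace at a place does not vanish on a class that is not a coboundary. -/
lemma tr_sg_ne_zero (tr : TraceK 𝔓 k) (hα3 : AlphaThreeMonoK tr)
    (hI4b : ∀ c : ∀ (q : ↥S) (w : 𝔓.W q), 𝔓.Γw q w × 𝔓.Γw q w → k,
      (∀ q w, c q w ∈ Z2w k 𝔓 q w) → IsB3cK 𝔓 ((0, c) : 𝔓.C3 k) →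
      ∀ (q₀ : ↥S) (w₀ : 𝔓.W q₀),
        (∀ (q : ↥S) (w : 𝔓.W q), (⟨q, w⟩ : Σ q : ↥S, 𝔓.W q) ≠ ⟨q₀, w₀⟩ → c q w = 0) →
        c q₀ w₀ ∈ B2w k 𝔓 q₀ w₀)
    (i : Σ q : ↥S, 𝔓.W q) {z : 𝔓.Γw i.1 i.2 × 𝔓.Γw i.1 i.2 → k}
    (hz : z ∈ Z2w k 𝔓 i.1 i.2) (hz' : z ∉ B2w k 𝔓 i.1 i.2) :
    tr.toFun ((0, sg i z) : 𝔓.C3 k) ≠ 0 := by
  intro h0
  have hB := isB3cK_loc_of_tr_eq_zero tr hα3 (sg i z) (sg_mem i hz) h0
  have h1 := hI4b (sg i z) (sg_mem i hz) hB i.1 i.2 (fun q w h => sg_ne i z q w h)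
  rw [sg_self] at h1
  exact hz' h1

/-- Every local `H²` contains a class which is not a coboundary. -/
lemma exists_not_mem_B2w (hI1b : ∀ (q : ↥S) (w : 𝔓.W q), finrank k (H2w k 𝔓 q w) = 1)
    (q : ↥S) (w : 𝔓.W q) :
    ∃ z : 𝔓.Γw q w × 𝔓.Γw q w → k, z ∈ Z2w k 𝔓 q w ∧ z ∉ B2w k 𝔓 q w := by
  haveI : Nontrivial (H2w k 𝔓 q w) :=
    Module.nontrivial_of_finrank_pos (R := k) (by rw [hI1b q w]; exact Nat.one_pos)
  obtain ⟨x, hx⟩ := exists_ne (0 : H2w k 𝔓 q w)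
  obtain ⟨z, rfl⟩ := Submodule.mkQ_surjective _ x
  refine ⟨z.1, z.2, fun h => hx ?_⟩
  exact (Submodule.Quotient.mk_eq_zero _).2 h

/-- **`β¹mono`, cone side.** -/
theorem betaOneMonoConeK_of (tr : TraceK 𝔓 k) (hα2 : AlphaTwoEpiK tr)
    (hα3 : AlphaThreeMonoK tr)
    (hI1b : ∀ (q : ↥S) (w : 𝔓.W q), finrank k (H2w k 𝔓 q w) = 1)
    (hI4b : ∀ c : ∀ (q : ↥S) (w : 𝔓.W q), 𝔓.Γw q w × 𝔓.Γw q w → k,
      (∀ q w, c q w ∈ Z2w k 𝔓 q w) → IsB3cK 𝔓 ((0, c) : 𝔓.C3 k) →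
      ∀ (q₀ : ↥S) (w₀ : 𝔓.W q₀),
        (∀ (q : ↥S) (w : 𝔓.W q), (⟨q, w⟩ : Σ q : ↥S, 𝔓.W q) ≠ ⟨q₀, w₀⟩ → c q w = 0) →
        c q₀ w₀ ∈ B2w k 𝔓 q₀ w₀) :
    BetaOneMonoConeK tr := by
  classical
  intro y hy h
  -- step 1: the global component vanishes
  have hb : y.1 = 0 := by
    by_contra hne
    obtain ⟨g, hg⟩ : ∃ g, y.1 g ≠ 0 := by
      by_contra h'
      simp only [not_exists, not_not] at h'
      exact hne (funext h')
    obtain ⟨x, hx, hxφ⟩ := hα2 (LinearMap.proj g)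
    have h1 := hxφ y.1 hy.1
    have h2 : tr.toFun (cupA2K 𝔓 x y.1) = tr.toFun (cupB1K 𝔓 x.1 y) := by
      apply tr_eq_of_sub
      rw [cupA2K_sub_cupB1K 𝔓 x y hx hy]
      exact isB3cK_dCone2K 𝔓 (isLevK₂_const (0 : k))
        (fun q w => levL₁_smul q w (y.2 q w) (hx.2 q w).1)
    rw [h2, h x.1 hx.1] at h1
    exact hg h1.symm
  -- the pairing with a global cocycle in terms of the local components
  have hcup : ∀ a : ↥K.fixingSubgroup × ↥K.fixingSubgroup → k,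
      cupB1K 𝔓 a y = ((0, fun q w => y.2 q w • 𝔓.res₂ q w a) : 𝔓.C3 k) := by
    intro a
    refine Prod.ext (funext fun t => ?_) (funext fun q => funext fun w => funext fun t => ?_)
    · show a (t.1, t.2.1) * y.1 t.2.2 = 0
      rw [hb, Pi.zero_apply, mul_zero]
    · show a (𝔓.ρw q w t.1, 𝔓.ρw q w t.2) * y.2 q w = y.2 q w * 𝔓.res₂ q w a t
      rw [mul_comm]
      rfl
  -- step 2: the local components are constant
  have key : ∀ i j : (Σ q : ↥S, 𝔓.W q), i ≠ j → y.2 i.1 i.2 = y.2 j.1 j.2 := by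
    intro i j hij
    obtain ⟨z₁, hz₁, hz₁'⟩ := exists_not_mem_B2w hI1b i.1 i.2
    obtain ⟨z₂, hz₂, hz₂'⟩ := exists_not_mem_B2w hI1b j.1 j.2
    have ht₁ := tr_sg_ne_zero tr hα3 hI4b i hz₁ hz₁'
    have ht₂ := tr_sg_ne_zero tr hα3 hI4b j hz₂ hz₂'
    set t₁ := tr.toFun ((0, sg i z₁) : 𝔓.C3 k) with ht₁def
    set t₂ := tr.toFun ((0, sg j z₂) : 𝔓.C3 k) with ht₂def
    -- the family `Z = t₂ • sg i z₁ - t₁ • sg j z₂` has trace zero
    let Z : ∀ (q : ↥S) (w : 𝔓.W q), 𝔓.Γw q w × 𝔓.Γw q w → k :=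
      t₂ • sg i z₁ + (-t₁) • sg j z₂
    have hZmem : ∀ q w, Z q w ∈ Z2w k 𝔓 q w := fun q w =>
      (Z2w k 𝔓 q w).add_mem ((Z2w k 𝔓 q w).smul_mem _ (sg_mem i hz₁ q w))
        ((Z2w k 𝔓 q w).smul_mem _ (sg_mem j hz₂ q w))
    have hZtr : tr.toFun ((0, Z) : 𝔓.C3 k) = 0 := by
      show tr.toFun ((0, t₂ • sg i z₁ + (-t₁) • sg j z₂) : 𝔓.C3 k) = 0
      rw [pair_loc_add, pair_loc_smul, pair_loc_smul, map_add, map_smul, map_smul,
        ← ht₁def, ← ht₂def, smul_eq_mul, smul_eq_mul]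
      ring
    obtain ⟨f, g, hf, hg, h1, h2⟩ := isB3cK_loc_of_tr_eq_zero tr hα3 Z hZmem hZtr
    have hfZ : IsZ2K S K f := ⟨h1.symm, hf⟩
    have h3 := h f hfZ
    rw [hcup] at h3
    -- `res f = Z + d g`
    have h4 : ∀ q w, 𝔓.res₂ q w f = Z q w + tOne (g q w) := by
      intro q w
      have e1 : Z q w = 𝔓.res₂ q w f - tOne (g q w) := h2 q w
      rw [e1, sub_add_cancel]
    have h5 : ((0, fun q w => y.2 q w • 𝔓.res₂ q w f) : 𝔓.C3 k) =
        ((0, (t₂ * y.2 i.1 i.2) • sg i z₁ + (-(t₁ * y.2 j.1 j.2)) • sg j z₂) : 𝔓.C3 k) +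
          ((0, fun q w => tOne (y.2 q w • g q w)) : 𝔓.C3 k) := by
      rw [← pair_loc_add]
      congr 1
      funext q w
      rw [h4 q w, smul_add]
      show y.2 q w • Z q w + y.2 q w • tOne (g q w) =
        ((t₂ * y.2 i.1 i.2) • sg i z₁ q w + (-(t₁ * y.2 j.1 j.2)) • sg j z₂ q w) +
          tOne (y.2 q w • g q w)
      rw [tOne_smul]
      congr 1
      show y.2 q w • (t₂ • sg i z₁ q w + (-t₁) • sg j z₂ q w) =
        (t₂ * y.2 i.1 i.2) • sg i z₁ q w + (-(t₁ * y.2 j.1 j.2)) • sg j z₂ q w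
      rw [smul_add, smul_comm (y.2 q w) t₂, smul_comm (y.2 q w) (-t₁), smul_sg, smul_sg]
      have e1 : sg i (y.2 i.1 i.2 • z₁) q w = y.2 i.1 i.2 • sg i z₁ q w := by
        by_cases hq : (⟨q, w⟩ : Σ q : ↥S, 𝔓.W q) = i
        · subst hq
          rw [sg_self, sg_self]
        · rw [sg_ne i _ q w hq, sg_ne i _ q w hq, smul_zero]
      have e2 : sg j (y.2 j.1 j.2 • z₂) q w = y.2 j.1 j.2 • sg j z₂ q w := by
        by_cases hq : (⟨q, w⟩ : Σ q : ↥S, 𝔓.W q) = j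
        · subst hq
          rw [sg_self, sg_self]
        · rw [sg_ne j _ q w hq, sg_ne j _ q w hq, smul_zero]
      rw [e1, e2, smul_smul, smul_smul, neg_mul]
    have h6 : tr.toFun ((0, fun q w => tOne (y.2 q w • g q w)) : 𝔓.C3 k) = 0 := by
      apply tr.zero_of_isB3cK
      rw [local_cob]
      exact isB3cK_dCone2K 𝔓 (isLevK₂_const (0 : k))
        (fun q w => _root_.Fermat.Agent.S55.Top.H48.levL₁_neg q w (levL₁_smul q w (y.2 q w) (hg q w)))
    rw [h5, map_add, h6, add_zero, pair_loc_add, pair_loc_smul, pair_loc_smul, map_add,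
      map_smul, map_smul, ← ht₁def, ← ht₂def, smul_eq_mul, smul_eq_mul] at h3
    have h7 : (y.2 i.1 i.2 - y.2 j.1 j.2) * (t₁ * t₂) = 0 := by
      linear_combination h3
    rcases mul_eq_zero.1 h7 with h8 | h8
    · exact sub_eq_zero.1 h8
    · exact absurd h8 (mul_ne_zero ht₁ ht₂)
  by_cases hV : Nonempty (Σ q : ↥S, 𝔓.W q)
  · obtain ⟨i⟩ := hV
    refine ⟨y.2 i.1 i.2, hb, fun q w => ?_⟩
    by_cases hq : (⟨q, w⟩ : Σ q : ↥S, 𝔓.W q) = i
    · subst hq
      rfl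
    · exact key ⟨q, w⟩ i hq
  · exact ⟨0, hb, fun q w => absurd ⟨⟨q, w⟩⟩ hV⟩

/-- The cone side of `β¹mono` for all base fields. -/
def Stmt_TopK_cone : Prop :=
  ∀ (p : ℕ) [Fact p.Prime], p ≠ 2 → ∀ (S : Finset Nat.Primes), pPrime p ∈ S →
    ∀ K : IntermediateField ℚ (AlgebraicClosure ℚ), IsBaseField S p K →
    ∀ (𝔓 : PlaceSys S K) (tr : TraceK 𝔓 (ZMod p)),
      (∃ x : 𝔓.C3 (ZMod p), IsZ3cK 𝔓 x ∧ tr.toFun x ≠ 0) →
      BetaOneMonoConeK tr

/-- **PT-LIN**, cone side of `β¹mono`: `I1 → I4 → TopK → TopK_cone`. -/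
theorem stmt_TopK_cone_of_topK (h1 : Stmt_I1) (h4 : Stmt_I4) (hT : Stmt_TopK) :
    Stmt_TopK_cone := by
  intro p _ hp S hpS K hK 𝔓 tr hne
  obtain ⟨hα2, hα3, -, -⟩ := hT p hp S hpS K hK 𝔓 tr hne
  exact betaOneMonoConeK_of tr hα2 hα3 (h1 p hp S hpS K hK 𝔓).2.1 (h4 p hp S hpS K hK 𝔓).2

/-- **PT-LIN**, cone side of `β¹mono`: `I1 → I2 → I3 → I4 → G1K → TopK_cone`. -/
theorem stmt_TopK_cone_of (h1 : Stmt_I1) (h2 : Stmt_I2) (h3 : Stmt_I3) (h4 : Stmt_I4)
    (hG : Stmt_G1K) : Stmt_TopK_cone :=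
  stmt_TopK_cone_of_topK h1 h4 (stmt_TopK_of h1 h2 h3 h4 hG)

end Fermat.Agent.S55.Top.H48

end

end
-- ==== END Fermat.Agent.S55.Top.H48_PTConeMono

-- ==== BEGIN Fermat.Agent.S55.Top.SHPrep
section

set_option autoImplicit false
set_option linter.unusedSectionVars false
set_option linter.unusedSimpArgs false

open CategoryTheory Module groupCohomology ExtCitation

noncomputable section

namespace Fermat.Agent.S55.Top

open Fermat.Agent.S55 OrbitData

attribute [local instance] locAct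

variable {k : Type} [Field k] {S : Finset Nat.Primes}
  {K : IntermediateField ℚ (AlgebraicClosure ℚ)}

/-! ### Closure properties of coboundaries -/

section closure

variable {M : Rep.{0} k GQ}

lemma isB3c_add {x x' : C3c S M} (hx : IsB3c S M x) (hx' : IsB3c S M x') :
    IsB3c S M (x + x') := by
  rw [isB3c_iff] at hx hx' ⊢
  obtain ⟨y, h1, h2, rfl⟩ := hx
  obtain ⟨y', h1', h2', rfl⟩ := hx'
  exact ⟨y + y', h1.add h1', fun q => (h2 q).add (h2' q), (dCone2_add y y').symm⟩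

lemma isB3c_zero : IsB3c S M (0 : C3c S M) := by
  rw [isB3c_iff]
  refine ⟨0, isLevelConstantS₂_const S _, fun q => isLevelConstant₁_const (rl q.1) _, ?_⟩
  refine Prod.ext ?_ (funext fun q => ?_)
  · funext t; simp [dCone2, dTwo]
  · funext t; simp [dCone2, resTwo, dOneL]

lemma isB3c_smul (c : k) {x : C3c S M} (hx : IsB3c S M x) : IsB3c S M (c • x) := by
  rw [isB3c_iff] at hx ⊢
  obtain ⟨y, h1, h2, rfl⟩ := hx
  refine ⟨c • y, levS₂_comp h1 (fun m => c • m), fun q => levL₁_comp q.1 (h2 q) (fun m => c • m),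
    ?_⟩
  refine Prod.ext ?_ (funext fun q => ?_)
  · funext t
    simp only [dCone2, dTwo, Prod.smul_fst, Pi.smul_apply, map_smul, smul_sub, smul_add]
  · funext t
    simp only [dCone2, dOneL, resTwo, Prod.smul_snd, Prod.smul_fst, Pi.smul_apply, Pi.sub_apply,
      map_smul, smul_sub, smul_add]

lemma isB3c_neg {x : C3c S M} (hx : IsB3c S M x) : IsB3c S M (-x) := by
  have := isB3c_smul (-1 : k) hx
  simpa using this

lemma isB3c_sub {x x' : C3c S M} (hx : IsB3c S M x) (hx' : IsB3c S M x') :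
    IsB3c S M (x - x') := by
  rw [sub_eq_add_neg]
  exact isB3c_add hx (isB3c_neg hx')

lemma isB2c_add {x x' : C2c S M} (hx : IsB2c S M x) (hx' : IsB2c S M x') :
    IsB2c S M (x + x') := by
  rw [isB2c_iff] at hx hx' ⊢
  obtain ⟨y, h1, rfl⟩ := hx
  obtain ⟨y', h1', rfl⟩ := hx'
  exact ⟨y + y', h1.add h1', (dCone1_add y y').symm⟩

/-- the cone 3-coboundaries as a submodule -/
def B3cSub (S : Finset Nat.Primes) (M : Rep.{0} k GQ) : Submodule k (C3c S M) where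
  carrier := {x | IsB3c S M x}
  add_mem' := fun hx hx' => isB3c_add hx hx'
  zero_mem' := isB3c_zero
  smul_mem' := fun c _ hx => isB3c_smul c hx

lemma tr_sub_of_isB3c {χ : GQ →* kˣ} (tr : Trace S χ) {x x' : C3c S (kχ χ)}
    (h : IsB3c S (kχ χ) (x - x')) : tr.toFun x = tr.toFun x' := by
  have := tr.zero_of_isB3c _ h
  rw [map_sub, sub_eq_zero] at this
  exact this

end closure

/-! ### The module `FX` has level `S` -/

lemma lev_FX (hK : K.IsUnramifiedOutside S) : Lev S (FX k K) := by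
  obtain ⟨F, _, hF, hG⟩ := exists_goodLev_S hK hK
  refine ⟨F, hF, fun s hs m => ?_⟩
  funext x
  rw [FX_rho_apply, hG.triv _ (F.fixingSubgroup.inv_mem hs)]

/-! ### Leibniz, cone on the right, degrees `(1, 2)` -/

theorem tr_cupB2_isB2c {χ : GQ →* kˣ} (hχ : LevChar S χ) {M : Rep.{0} k GQ} (hM : Lev S M)
    (tr : Trace S χ) {a : GQ → M} (ha : IsZ1S S M a) {y : C2c S (Md χ M)}
    (hy : IsB2c S (Md χ M) y) : tr.toFun (cupB2 S χ M a y) = 0 := by
  rw [isB2c_iff] at hy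
  obtain ⟨y', hl, rfl⟩ := hy
  have h := dCone2_cupB11 χ M a y'
  rw [ha.1] at h
  have h0 : cupB1 S χ M (0 : GQ × GQ → M) y' = 0 := by
    refine Prod.ext (funext fun t => ?_) (funext fun q => funext fun t => ?_)
    · simp [cupB1]
    · simp [cupB1]
  rw [h0, zero_sub] at h
  have h' : cupB2 S χ M a (dCone1 S (Md χ M) y') = - dCone2 S (kχ χ) (cupB11 χ M a y') := by
    rw [h, neg_neg]
  rw [h', map_neg, neg_eq_zero]
  obtain ⟨h1, h2⟩ := lev_cupB11 χ M (fun F hF => H48.exists_normal_level S F hF) hχ hM ha.2 hl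
  exact tr.zero_of_isB3c _ (isB3c_dCone2 h1 h2)

end Fermat.Agent.S55.Top

end

end
-- ==== END Fermat.Agent.S55.Top.SHPrep

-- ==== BEGIN Fermat.Agent.S56.EC.Defs
section

set_option autoImplicit false

/-!
# Cluster T / S56, GW-CORE, package EC (Tate's global Euler characteristic): interfaces

Owner-planner: helper27.  Plan: `NOTES/plan/T_EC.md`.  Target: `Stmt_EC` (`S56/GW/Defs2.lean`).

Notation: `ecDefect S N = h¹_S(N) - h²_S(N) - h⁰(N) - (dim N - h⁰(ℝ, N))`  (`Stmt_EC ⟺ 0 ≤ ecDefect`),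
`gwDefect S N = h¹_S(N) + h⁰(N') - ∑_{q ∈ S} h⁰(ℚ_q, N') - h⁰(ℝ, N') - h⁰(N)`  (`N' = N*(1)`).

Layer 1 (assembly `EC/Asm.lean`):
  `Stmt_EC  ⟸ Stmt_RSEC + Stmt_ECp`                                  (restriction of scalars)
  `Stmt_ECp ⟸ Stmt_LEVEL + Stmt_GOOD + Stmt_DESC + Stmt_ADD + IND.Stmt_IND + Stmt_BASE`
Layer 2:
  `Stmt_ADD  ⟸ Stmt_ADDH + GWC.Stmt_H3S + Stmt_fin2p + Stmt_fin_glob`
  `Stmt_BASE ⟸ Stmt_COMPL + Stmt_ADD + Stmt_T + Stmt_O`
  `Stmt_T    ⟸ Stmt_KDT + Stmt_PT2lb`,   `Stmt_O ⟸ Stmt_KDO + Stmt_PT2ub + Stmt_SHA0`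
-/

noncomputable section

namespace Fermat.Agent.S56.EC

open CategoryTheory groupCohomology ExtCitation Module

/-! ### The defects -/

section defs

variable {k : Type} [Field k]

/-- `dim N - h⁰(ℝ, N)`. -/
def archDefect (N : Rep.{0} k GQ) : ℤ :=
  (finrank k N : ℤ) - finrank k (Rep.res archimedeanLoc N).ρ.invariants

/-- `h¹_S(N) - h²_S(N) - h⁰(N) - (dim N - h⁰(ℝ, N))`. -/
def ecDefect (S : Finset Nat.Primes) (N : Rep.{0} k GQ) : ℤ :=
  (finrank k (continuousH1S S N) : ℤ) - finrank k (continuousH2S S N)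
    - finrank k N.ρ.invariants - archDefect N

/-- `h¹_S(N) + h⁰(N') - ∑_{q ∈ S} h⁰(ℚ_q, N') - h⁰(ℝ, N') - h⁰(N)`, `N' = N*(1)`. -/
def gwDefect (p : ℕ) [Fact p.Prime] [CharP k p] (S : Finset Nat.Primes) (N : Rep.{0} k GQ) : ℤ :=
  (finrank k (continuousH1S S N) : ℤ) + finrank k (tateDual p N).ρ.invariants
    - (∑ q ∈ S, (finrank k (locRep (tateDual p N) q).ρ.invariants : ℤ))
    - finrank k (Rep.res archimedeanLoc (tateDual p N)).ρ.invariants
    - finrank k N.ρ.invariants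

end defs

/-! ### Galois levels -/

section levels

/-- The finite Galois group `Gal(L/ℚ)`. -/
abbrev GalL (L : IntermediateField ℚ (AlgebraicClosure ℚ)) : Type := (↥L ≃ₐ[ℚ] ↥L)

/-- The restriction `G_ℚ → Gal(L/ℚ)` (`L/ℚ` normal). -/
def resL (L : IntermediateField ℚ (AlgebraicClosure ℚ)) [Normal ℚ L] : GQ →* GalL L :=
  AlgEquiv.restrictNormalHom L

variable {k : Type} [Field k]

/-- Inflation of a representation of `Gal(L/ℚ)` to `G_ℚ`. -/
def infl (L : IntermediateField ℚ (AlgebraicClosure ℚ)) [Normal ℚ L] {V : Type} [AddCommGroup V]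
    [Module k V] (ρ : Representation k (GalL L) V) : Rep.{0} k GQ :=
  Rep.of (ρ.comp (resL L))

/-- `L` is a Galois level for `(p, S)`: unramified outside `S` and `ζ_p ∈ L`
(normality and finiteness are instance arguments). -/
def IsGalLevel (p : ℕ) (S : Finset Nat.Primes) (L : IntermediateField ℚ (AlgebraicClosure ℚ)) :
    Prop :=
  L.IsUnramifiedOutside S ∧ ∃ ζ : AlgebraicClosure ℚ, ζ ∈ L ∧ IsPrimitiveRoot ζ p

/-- `(L, S)` is a good pair: `L` is a Galois level for `(p, S)`, `Cl_S(L) = 1`, and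
`Ш¹_S(𝔽_p[G_ℚ/G_L]') = 0` (no unramified `ℤ/p`-extension of `L` in which all places over `S`
split). -/
def IsGoodPair (p : ℕ) [Fact p.Prime] (S : Finset Nat.Primes)
    (L : IntermediateField ℚ (AlgebraicClosure ℚ)) : Prop :=
  IsGalLevel p S L ∧ (∀ [NumberField ↥L], S55.CFT.ClTrivial ↥L S) ∧
    sha₁ S (tateDual p (S55.permRep (ZMod p) L)) = ⊥

end levels

/-! ### Layer 1 -/

/-- **EC over `𝔽_p`**, in the form `0 ≤ ecDefect`. -/
def Stmt_ECp : Prop :=
  ∀ (p : ℕ) [Fact p.Prime], p ≠ 2 → ∀ (S : Finset Nat.Primes), pPrime p ∈ S →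
    ∀ (N : Rep.{0} (ZMod p) GQ) [FiniteDimensional (ZMod p) N], S55.Lev S N →
      0 ≤ ecDefect S N

/-- **Package RSEC** (restriction of scalars `k → 𝔽_p`): `N` over `k` is an `𝔽_p[G_ℚ]`-module
`N₀` on the same type; `continuousH1S`, `continuousH2S`, the invariants are the same sets for
`N` and `N₀`, so every `finrank` over `𝔽_p` is `[k : 𝔽_p]` times the `finrank` over `k`.
(Same bridge as `GWC.Stmt_RS`, T_GWC.md §3, steps 1-3 and 5.) -/
def Stmt_RSEC : Prop := Stmt_ECp → Stmt_EC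

/-- **Package FIN2**: `H²_S(N)` is finite-dimensional (from `GWC.Stmt_PT2e` for `X = N'` and
`N'' ≅ N`, or by dévissage). -/
def Stmt_fin2p : Prop :=
  ∀ (p : ℕ) [Fact p.Prime], p ≠ 2 → ∀ (S : Finset Nat.Primes), pPrime p ∈ S →
    ∀ (N : Rep.{0} (ZMod p) GQ) [FiniteDimensional (ZMod p) N], S55.Lev S N →
      Module.Finite (ZMod p) (continuousH2S S N)

/-- **Package LEVEL**: a finite-dimensional module of level `S ∋ p` is trivial on `G_L` for a
Galois level `L` (Galois closure of the level field, with `ζ_p` adjoined; compare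
`S55.H13` E3 and `S55.Stmt_levChar`). -/
def Stmt_LEVEL : Prop :=
  ∀ (p : ℕ) [Fact p.Prime] (S : Finset Nat.Primes), pPrime p ∈ S →
    ∀ (N : Rep.{0} (ZMod p) GQ) [FiniteDimensional (ZMod p) N], S55.Lev S N →
      ∃ L : IntermediateField ℚ (AlgebraicClosure ℚ), Normal ℚ L ∧ FiniteDimensional ℚ L ∧
        IsGalLevel p S L ∧ ∀ s ∈ L.fixingSubgroup, N.ρ s = 1

/-- **Package GOOD**: every Galois level `L` for `(p, S)` is part of a good pair `(L, S')`,
`S ⊆ S'`.  (`Cl_{S'}(L) = 1`: `S55.CFT.H56.clTrivial_of_clSet_subset`.  `Ш¹ = 0`: `Ш¹_S` is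
finite-dimensional and shrinks when `S` grows; a class `χ ≠ 0` is killed by adding a prime `ℓ`
with a Frobenius on which `χ ≠ 0` (`Lib.FrobDensity.stmt_FD_NF`); or Hilbert 94 from
`S55.CFT.Stmt_EHerbrand` + `H12.isMulCoboundary₁_tUnits`.) -/
def Stmt_GOOD : Prop :=
  ∀ (p : ℕ) [Fact p.Prime], p ≠ 2 → ∀ (S : Finset Nat.Primes), pPrime p ∈ S →
    ∀ (L : IntermediateField ℚ (AlgebraicClosure ℚ)) [Normal ℚ L] [FiniteDimensional ℚ L],
      IsGalLevel p S L → ∃ S' : Finset Nat.Primes, S ⊆ S' ∧ IsGoodPair p S' L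

/-- **Package DESC** (monotonicity in `S`): `ecDefect S' N ≤ ecDefect S N` for `S ⊆ S'`, `N` of
level `S`; i.e. `h¹_{S'} - h¹_S ≤ h²_{S'} - h²_S`.  Route: see T_EC.md §DESC (five-term sequence
for `G_{S'} → G_S`, tame inertia at `q ∈ S' \ S`, `β¹mono` at level `S'`, `H²_ur = 0`). -/
def Stmt_DESC : Prop :=
  ∀ (p : ℕ) [Fact p.Prime], p ≠ 2 → ∀ (S S' : Finset Nat.Primes), pPrime p ∈ S → S ⊆ S' →
    ∀ (N : Rep.{0} (ZMod p) GQ) [FiniteDimensional (ZMod p) N], S55.Lev S N →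
      ecDefect S' N ≤ ecDefect S N

/-- **Package ADD** (exact additivity of the Euler characteristic). -/
def Stmt_ADD : Prop :=
  ∀ (p : ℕ) [Fact p.Prime], p ≠ 2 → ∀ (S : Finset Nat.Primes), pPrime p ∈ S →
    ∀ (N₁ N N₂ : Rep.{0} (ZMod p) GQ) [FiniteDimensional (ZMod p) N₁]
      [FiniteDimensional (ZMod p) N] [FiniteDimensional (ZMod p) N₂]
      (i : N₁ ⟶ N) (π : N ⟶ N₂), S55.IsSES i π →
      S55.Lev S N₁ → S55.Lev S N → S55.Lev S N₂ →
      ecDefect S N = ecDefect S N₁ + ecDefect S N₂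

/-- **Package BASE** (the equivariant base case): over a good pair `(L, S)`, the Euler
characteristic formula holds for every module induced from a cyclic subgroup of `Gal(L/ℚ)` of
order prime to `p`. -/
def Stmt_BASE : Prop :=
  ∀ (p : ℕ) [Fact p.Prime], p ≠ 2 → ∀ (S : Finset Nat.Primes), pPrime p ∈ S →
    ∀ (L : IntermediateField ℚ (AlgebraicClosure ℚ)) [Normal ℚ L] [FiniteDimensional ℚ L],
      IsGoodPair p S L →
      ∀ (V : Type) [AddCommGroup V] [Module (ZMod p) V] [FiniteDimensional (ZMod p) V]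
        (ρ : Representation (ZMod p) (GalL L) V) (B : Subgroup (GalL L)) (W : Submodule (ZMod p) V),
        IsCyclic B → ¬ p ∣ Nat.card B → IND.IsInducedFrom ρ B W → ecDefect S (infl L ρ) = 0

/-! ### Layer 2: additivity -/

/-- **Package SUPERADD** (no `H³` needed): for `0 → N₁ → N → N₂ → 0` of level `S` with all
`H¹_S`, `H²_S` finite-dimensional, `ecDefect N₁ + ecDefect N₂ ≤ ecDefect N`.
(Long exact sequence in degrees `0..2`, exact up to `H²_S(N)`; `h⁰(ℝ, ·)` is additive, `p` odd.) -/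
def Stmt_superadd : Prop :=
  ∀ (k : Type) [Field k], (2 : k) ≠ 0 → ∀ (S : Finset Nat.Primes)
    (N₁ N N₂ : Rep.{0} k GQ) [FiniteDimensional k N₁] [FiniteDimensional k N]
      [FiniteDimensional k N₂] (i : N₁ ⟶ N) (π : N ⟶ N₂), S55.IsSES i π →
      S55.Lev S N₁ → S55.Lev S N → S55.Lev S N₂ →
      Module.Finite k (continuousH1S S N₁) → Module.Finite k (continuousH1S S N) →
      Module.Finite k (continuousH1S S N₂) → Module.Finite k (continuousH2S S N₁) →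
      Module.Finite k (continuousH2S S N) → Module.Finite k (continuousH2S S N₂) →
      ecDefect S N₁ + ecDefect S N₂ ≤ ecDefect S N

/-- **Package ADDH** (additivity from `H³_S(N₁) = 0`): as `Stmt_superadd`, with equality. -/
def Stmt_ADDH : Prop :=
  ∀ (k : Type) [Field k], (2 : k) ≠ 0 → ∀ (S : Finset Nat.Primes)
    (N₁ N N₂ : Rep.{0} k GQ) [FiniteDimensional k N₁] [FiniteDimensional k N]
      [FiniteDimensional k N₂] (i : N₁ ⟶ N) (π : N ⟶ N₂), S55.IsSES i π →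
      S55.Lev S N₁ → S55.Lev S N → S55.Lev S N₂ → GWC.H3S S N₁ →
      Module.Finite k (continuousH1S S N₁) → Module.Finite k (continuousH1S S N) →
      Module.Finite k (continuousH1S S N₂) → Module.Finite k (continuousH2S S N₁) →
      Module.Finite k (continuousH2S S N) → Module.Finite k (continuousH2S S N₂) →
      ecDefect S N = ecDefect S N₁ + ecDefect S N₂

/-! ### Layer 2: the base case -/

/-- **Package COMPL** (pure algebra; Maschke).  `G` finite, `B ≤ G` of order invertible in `k`,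
`f` additive.  If `f ≤ 0` on the regular representation and `0 ≤ f` on every module induced from
`B`, then `f = 0` on every module induced from `B`.
(`W ⊕ W' ≅ k[B]^n` as `B`-modules, so `Ind W ⊕ Ind W' ≅ k[G]^n`.) -/
def Stmt_COMPL : Prop :=
  ∀ (k : Type) [Field k] (G : Type) [Group G] [Finite G] (f : Rep.{0} k G → ℤ),
    IND.IsAdditiveFn k G f → ∀ B : Subgroup G, ((Nat.card B : ℕ) : k) ≠ 0 →
    f (Rep.of (IND.permRep k G G)) ≤ 0 →
    (∀ (V : Type) [AddCommGroup V] [Module k V] [FiniteDimensional k V]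
      (ρ : Representation k G V) (W : Submodule k V), IND.IsInducedFrom ρ B W →
      0 ≤ f (Rep.of ρ)) →
    ∀ (V : Type) [AddCommGroup V] [Module k V] [FiniteDimensional k V]
      (ρ : Representation k G V) (W : Submodule k V), IND.IsInducedFrom ρ B W →
      f (Rep.of ρ) = 0

/-- **Package T** (total count): over a good pair, `ecDefect ≤ 0` for the regular
representation `𝔽_p[Gal(L/ℚ)]`. -/
def Stmt_T : Prop :=
  ∀ (p : ℕ) [Fact p.Prime], p ≠ 2 → ∀ (S : Finset Nat.Primes), pPrime p ∈ S →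
    ∀ (L : IntermediateField ℚ (AlgebraicClosure ℚ)) [Normal ℚ L] [FiniteDimensional ℚ L],
      IsGoodPair p S L → ecDefect S (infl L (IND.permRep (ZMod p) (GalL L) (GalL L))) ≤ 0

/-- **Package O** (one-sided equivariant inequality): over a good pair, `0 ≤ ecDefect` for
every module induced from a cyclic subgroup of order prime to `p`. -/
def Stmt_O : Prop :=
  ∀ (p : ℕ) [Fact p.Prime], p ≠ 2 → ∀ (S : Finset Nat.Primes), pPrime p ∈ S →
    ∀ (L : IntermediateField ℚ (AlgebraicClosure ℚ)) [Normal ℚ L] [FiniteDimensional ℚ L],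
      IsGoodPair p S L →
      ∀ (V : Type) [AddCommGroup V] [Module (ZMod p) V] [FiniteDimensional (ZMod p) V]
        (ρ : Representation (ZMod p) (GalL L) V) (B : Subgroup (GalL L)) (W : Submodule (ZMod p) V),
        IsCyclic B → ¬ p ∣ Nat.card B → IND.IsInducedFrom ρ B W → 0 ≤ ecDefect S (infl L ρ)

/-! ### Layer 3: duality inputs (exports of the PT2 lane) and Kummer-Dirichlet -/

/-- **PT2lb** (`= Stmt_PT2` over `𝔽_p` for `M = N'`, `M' ≅ N`): lower bound for `h²`,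
`ш¹_S(N') + ∑_q h⁰(ℚ_q, N') ≤ h²_S(N) + h⁰(N')`. -/
def Stmt_PT2lb : Prop :=
  ∀ (p : ℕ) [Fact p.Prime], p ≠ 2 → ∀ (S : Finset Nat.Primes), pPrime p ∈ S →
    ∀ (N : Rep.{0} (ZMod p) GQ) [FiniteDimensional (ZMod p) N], S55.Lev S N →
      finrank (ZMod p) (sha₁ S (tateDual p N)) +
          ∑ q ∈ S, finrank (ZMod p) (locRep (tateDual p N) q).ρ.invariants ≤
        finrank (ZMod p) (continuousH2S S N) + finrank (ZMod p) (tateDual p N).ρ.invariants

/-- **PT2ub** (`β¹epi` + cone sequence; export of `GWC.Stmt_B1`, `Stmt_DUALCOUNT`,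
`Stmt_CONE1`): upper bound for `h²`,
`h²_S(N) + h⁰(N') ≤ ш¹_S(N') + ∑_q h⁰(ℚ_q, N')`. -/
def Stmt_PT2ub : Prop :=
  ∀ (p : ℕ) [Fact p.Prime], p ≠ 2 → ∀ (S : Finset Nat.Primes), pPrime p ∈ S →
    ∀ (N : Rep.{0} (ZMod p) GQ) [FiniteDimensional (ZMod p) N], S55.Lev S N →
      finrank (ZMod p) (continuousH2S S N) + finrank (ZMod p) (tateDual p N).ρ.invariants ≤
        finrank (ZMod p) (sha₁ S (tateDual p N)) +
          ∑ q ∈ S, finrank (ZMod p) (locRep (tateDual p N) q).ρ.invariants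

/-- **Package SHA0**: over a good pair, `Ш¹_S(N') = 0` for every `N` inflated from
`Gal(L/ℚ)` and induced from a subgroup of order prime to `p`.
(`N ⊕ N^c ≅ 𝔽_p[G]^n`, so `N'` is a retract of `(𝔽_p[G_ℚ/G_L]')^n`; `sha₁` is functorial.) -/
def Stmt_SHA0 : Prop :=
  ∀ (p : ℕ) [Fact p.Prime], p ≠ 2 → ∀ (S : Finset Nat.Primes), pPrime p ∈ S →
    ∀ (L : IntermediateField ℚ (AlgebraicClosure ℚ)) [Normal ℚ L] [FiniteDimensional ℚ L],
      IsGoodPair p S L →
      ∀ (V : Type) [AddCommGroup V] [Module (ZMod p) V] [FiniteDimensional (ZMod p) V]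
        (ρ : Representation (ZMod p) (GalL L) V) (B : Subgroup (GalL L)) (W : Submodule (ZMod p) V),
        ¬ p ∣ Nat.card B → IND.IsInducedFrom ρ B W → sha₁ S (tateDual p (infl L ρ)) = ⊥

/-- **Package KDT** (Kummer + Dirichlet, total count; no duality, no `H²`).  Over a good pair
`gwDefect ≤ 0` for the regular representation: with `P = 𝔽_p[Gal(L/ℚ)]`,
`h¹_S(G_L, 𝔽_p) = h¹_S(P) ≤ dim O_{L,S}ˣ/p = #{places of L over S} + [L:ℚ]/2`
(every level-`S` character of `G_L` is a Kummer character of an `S`-unit, as `Cl_S(L) = 1`;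
Dirichlet's unit theorem `S55.CFT.H12.stmt_SUnitRank`), `h⁰(P) = h⁰(P') = 1`,
`h⁰(ℚ_q, P') = #{places of L over q}`, `h⁰(ℝ, P') = [L:ℚ]/2`. -/
def Stmt_KDT : Prop :=
  ∀ (p : ℕ) [Fact p.Prime], p ≠ 2 → ∀ (S : Finset Nat.Primes), pPrime p ∈ S →
    ∀ (L : IntermediateField ℚ (AlgebraicClosure ℚ)) [Normal ℚ L] [FiniteDimensional ℚ L],
      IsGoodPair p S L → gwDefect p S (infl L (IND.permRep (ZMod p) (GalL L) (GalL L))) ≤ 0

/-- **Package KDO** (equivariant Kummer + Dirichlet, one-sided; no duality, no `H²`).  Over a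
good pair, `0 ≤ gwDefect` for every module `N = Ind_B^G W`, `B` cyclic of order prime to `p`:
`h¹_S(N) ≥ dim (O_{L,S}ˣ/p ⊗ W(-1))^B` (Shapiro, inflation-restriction for the `p'`-group `B`,
Kummer classes of `S`-units, equivariantly) and
`dim (O_{L,S}ˣ/p ⊗ W(-1))^B = h⁰(N) - h⁰(N') + ∑_q h⁰(ℚ_q, N') + h⁰(ℝ, N')`
(equivariant Dirichlet: the characteristic polynomial of a generator `b` of `B` on
`O_{L,S}ˣ/p` is that on `μ_p ⊕ 𝔽_p[places over S ∪ ∞]` divided by `X - 1`). -/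
def Stmt_KDO : Prop :=
  ∀ (p : ℕ) [Fact p.Prime], p ≠ 2 → ∀ (S : Finset Nat.Primes), pPrime p ∈ S →
    ∀ (L : IntermediateField ℚ (AlgebraicClosure ℚ)) [Normal ℚ L] [FiniteDimensional ℚ L],
      IsGoodPair p S L →
      ∀ (V : Type) [AddCommGroup V] [Module (ZMod p) V] [FiniteDimensional (ZMod p) V]
        (ρ : Representation (ZMod p) (GalL L) V) (B : Subgroup (GalL L)) (W : Submodule (ZMod p) V),
        IsCyclic B → ¬ p ∣ Nat.card B → IND.IsInducedFrom ρ B W → 0 ≤ gwDefect p S (infl L ρ)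

end Fermat.Agent.S56.EC

end

end
-- ==== END Fermat.Agent.S56.EC.Defs
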