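-- GENERATED (merged mirror, NOTES/tools/trim/merge3_helper67.py): 1 modules of the originals, bodies verbatim.
import Fermat.Agent.Zm.S56_L10_008
import Fermat.Agent.Zm.S56_L01_000

-- ==== BEGIN Fermat.Agent.S55.CFT.GS.H6_UR_PL
section

set_option autoImplicit false
set_option linter.unusedSectionVars false
set_option linter.style.haveILetI false

open scoped Pointwise NumberField

noncomputable section

namespace Fermat.Agent.S55.CFT.GS.H6

open Fermat.Agent.S55 Fermat.Agent.S55.Top Fermat.Agent.Lib.FrobExists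
  Fermat.Agent.Lib.InertiaBridge Fermat.Agent.Lib.Minkowski Fermat.Agent.Lib.UnramVal
  Fermat.Agent.Lib.InertiaLift IsDedekindDomain ExtCitation

local notation "Qb" => AlgebraicClosure ℚ

/-! ### Places of `ℚ̄` and the Galois action -/

section places

attribute [local instance] Fermat.Agent.Lib.InertiaLift.qbar_isAlgebraic'
  Fermat.Agent.Lib.InertiaLift.qbar_isAlgClosure' Fermat.Agent.Lib.InertiaLift.qbar_isGalois'
  Fermat.Agent.Lib.FrobIntegers.zbar_isInvariant
  Fermat.Agent.Lib.FrobIntegers.zbarTopologicalSpace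
  Fermat.Agent.Lib.FrobIntegers.zbar_discreteTopology
  Fermat.Agent.Lib.FrobIntegers.zbar_continuousSMul

theorem ur_mem_smul_iff (A : ValuationSubring Qb) (g : GQ) (x : Qb) :
    x ∈ g • A ↔ g⁻¹ x ∈ A := by
  rw [ValuationSubring.mem_pointwise_smul_iff_inv_smul_mem]
  rfl

theorem ur_valuation_smul_le (A : ValuationSubring Qb) (g : GQ) (x : Qb) :
    (g • A).valuation x ≤ 1 ↔ A.valuation (g⁻¹ x) ≤ 1 := by
  rw [ValuationSubring.valuation_le_one_iff, ValuationSubring.valuation_le_one_iff,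
    ur_mem_smul_iff]

theorem ur_valuation_smul_lt (A : ValuationSubring Qb) (g : GQ) (x : Qb) :
    (g • A).valuation x < 1 ↔ A.valuation (g⁻¹ x) < 1 := by
  by_cases hx : x = 0
  · subst hx
    simp
  have hgx : g⁻¹ x ≠ 0 := (map_ne_zero _).mpr hx
  have h1 : (g • A).valuation x⁻¹ ≤ 1 ↔ A.valuation (g⁻¹ x⁻¹) ≤ 1 :=
    ur_valuation_smul_le A g x⁻¹
  rw [map_inv₀, map_inv₀, map_inv₀,
    inv_le_one₀ (zero_lt_iff.mpr ((Valuation.ne_zero_iff _).mpr hx)),
    inv_le_one₀ (zero_lt_iff.mpr ((Valuation.ne_zero_iff _).mpr hgx))] at h1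
  constructor
  · intro h
    by_contra hcon
    exact absurd (h1.mpr (not_lt.mp hcon)) (not_le.mpr h)
  · intro h
    by_contra hcon
    exact absurd (h1.mp (not_lt.mp hcon)) (not_le.mpr h)

theorem ur_liesOver_smul (A : ValuationSubring Qb) (g : GQ) (q : ℕ) (hA : A.LiesOverPrime q) :
    (g • A).LiesOverPrime q := by
  have h1 : A.valuation (q : Qb) < 1 := A.mem_nonunits_iff.mp hA
  show (q : Qb) ∈ (g • A).nonunits
  rw [ValuationSubring.mem_nonunits_iff, ur_valuation_smul_lt, map_natCast]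
  exact h1

theorem ur_natCast_mem_primeUnder (A : ValuationSubring Qb) (q : ℕ) (hA : A.LiesOverPrime q) :
    ((q : ℕ) : integralClosure ℤ Qb) ∈ primeUnder A := by
  rw [mem_primeUnder]
  have h1 : A.valuation (q : Qb) < 1 := A.mem_nonunits_iff.mp hA
  simpa using h1

/-- `A' = g • A` if the primes of `ZBar` correspond. -/
theorem ur_eq_smul_of_primeUnder (A A' : ValuationSubring Qb) (q : ℕ) (hq : q.Prime)
    (hA : A.LiesOverPrime q) (hA' : A'.LiesOverPrime q) (g : GQ)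
    (hg : primeUnder A' = g • primeUnder A) : A' = g • A := by
  have hg' : primeUnder A = g⁻¹ • primeUnder A' := by rw [hg, inv_smul_smul]
  ext x
  rw [ur_mem_smul_iff]
  constructor
  · intro hx
    exact map_mem_of_primeUnder_smul A' A q hq hA' g⁻¹ hg' x hx
  · intro hx
    have h1 := map_mem_of_primeUnder_smul A A' q hq hA g hg _ hx
    have h2 : g (g⁻¹ x) = x := AlgEquiv.apply_symm_apply g x
    rwa [h2] at h1

/-- `G_ℚ` is transitive on the places over `q`. -/
theorem ur_exists_smul (A A' : ValuationSubring Qb) (q : ℕ) (hq : q.Prime)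
    (hA : A.LiesOverPrime q) (hA' : A'.LiesOverPrime q) : ∃ g : GQ, A' = g • A := by
  have hP := primeUnder_isPrime A
  have hP' := primeUnder_isPrime A'
  have hunder : (primeUnder A).under ℤ = (primeUnder A').under ℤ := by
    rw [Fermat.Agent.Lib.FrobIntegers.zbar_under_eq q hq (primeUnder A)
      (ur_natCast_mem_primeUnder A q hA),
      Fermat.Agent.Lib.FrobIntegers.zbar_under_eq q hq (primeUnder A')
      (ur_natCast_mem_primeUnder A' q hA')]
  obtain ⟨g, hg⟩ := Algebra.IsInvariant.exists_smul_of_under_eq_of_profinite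
    (A := ℤ) (G := GQ) (primeUnder A) (primeUnder A') hunder
  exact ⟨g, ur_eq_smul_of_primeUnder A A' q hq hA hA' g hg⟩

end places

/-! ### Places of `ℚ̄` and primes of `K` -/

section primes

variable (K : IntermediateField ℚ Qb) [NumberField ↥K]

theorem ur_algebraMap_mem (b : 𝓞 ↥K) : algebraMap (𝓞 ↥K) Qb b ∈ K := (b : ↥K).2

/-- The prime of `K` under a place does not change under `G_K`. -/
theorem ur_primeBelow_smul (A : ValuationSubring Qb) (g : GQ) (hg : g ∈ K.fixingSubgroup) :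
    primeBelow K (g • A) = primeBelow K A := by
  ext b
  rw [mem_primeBelow, mem_primeBelow, ur_valuation_smul_lt]
  have h1 : g⁻¹ (algebraMap (𝓞 ↥K) Qb b) = algebraMap (𝓞 ↥K) Qb b :=
    (IntermediateField.mem_fixingSubgroup_iff K g⁻¹).mp (inv_mem hg) _ (ur_algebraMap_mem K b)
  rw [h1]

/-- Two places over the same prime of `K` are conjugate under `G_K`. -/
theorem ur_exists_fixing (A A' : ValuationSubring Qb) (q : ℕ) (hq : q.Prime)
    (hA : A.LiesOverPrime q) (hA' : A'.LiesOverPrime q)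
    (h : primeBelow K A = primeBelow K A') : ∃ g : GQ, g ∈ K.fixingSubgroup ∧ A' = g • A := by
  obtain ⟨g, hgK, hg⟩ := exists_fixing_smul K A A' h
  exact ⟨g, hgK, ur_eq_smul_of_primeUnder A A' q hq hA hA' g hg⟩

/-- Every prime of `𝓞 K` over `q` is under a place of `ℚ̄` over `q`. -/
theorem ur_exists_place (v : HeightOneSpectrum (𝓞 ↥K)) (q : ℕ)
    (hqv : ((q : ℕ) : 𝓞 ↥K) ∈ v.asIdeal) :
    ∃ A : ValuationSubring Qb, A.LiesOverPrime q ∧ primeBelow K A = v.asIdeal := by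
  obtain ⟨φ, hφ⟩ : ∃ φ : 𝓞 ↥K →+* Qb, φ = algebraMap (𝓞 ↥K) Qb := ⟨_, rfl⟩
  have hinj : Function.Injective φ := by
    rw [hφ]
    exact FaithfulSMul.algebraMap_injective (𝓞 ↥K) Qb
  have hI : Ideal.map φ.rangeRestrict v.asIdeal ≠ ⊤ := by
    intro h
    have h1 : (1 : φ.range) ∈ Ideal.map φ.rangeRestrict v.asIdeal := by
      rw [h]; exact Submodule.mem_top
    rw [Ideal.mem_map_iff_of_surjective φ.rangeRestrict φ.rangeRestrict_surjective] at h1
    obtain ⟨x, hx, hx1⟩ := h1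
    have h2 : φ x = 1 := congrArg Subtype.val hx1
    have h3 : x = 1 := hinj (by rw [h2, map_one])
    rw [h3] at hx
    exact v.isPrime.ne_top ((Ideal.eq_top_iff_one _).mpr hx)
  obtain ⟨B, -, hB⟩ := Ideal.image_subset_nonunits_valuationSubring _ hI
  have hle : v.asIdeal ≤ primeBelow K B := by
    intro b hb
    rw [mem_primeBelow, ← ValuationSubring.mem_nonunits_iff, ← hφ]
    exact hB ⟨φ.rangeRestrict b, Ideal.mem_map_of_mem _ hb, rfl⟩
  have hmax : v.asIdeal.IsMaximal := v.isMaximal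
  have heq : v.asIdeal = primeBelow K B := hmax.eq_of_le (primeBelow_isPrime K B).ne_top hle
  refine ⟨B, ?_, heq.symm⟩
  show (q : Qb) ∈ B.nonunits
  have h4 := hle hqv
  rw [mem_primeBelow, map_natCast] at h4
  exact B.mem_nonunits_iff.mpr h4

end primes

/-! ### The orbits of the local Galois group -/

section orbits

variable (K : IntermediateField ℚ Qb) [NumberField ↥K] (q : Nat.Primes)

/-- The distinguished place over `q`. -/
def urA0 : ValuationSubring Qb := primeLocalPlace q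

theorem urA0_lies : (urA0 q).LiesOverPrime (q : ℕ) := by
  haveI : Fact (q : ℕ).Prime := ⟨q.2⟩
  show ((q : ℕ) : Qb) ∈ (padicPlace (q : ℕ)).nonunits
  rw [ValuationSubring.mem_nonunits_iff_or]
  right
  intro hmem
  rw [← Fermat.Agent.Lib.LocalGlobalDense.absQ_le_one_iff, map_inv₀,
    Fermat.Agent.Lib.LocalGlobalDense.absQ_natCast_self, inv_inv] at hmem
  have h1 : (1 : ℝ) < (q : ℕ) := by exact_mod_cast q.2.one_lt
  linarith

theorem ur_rl_smul (τ : Gl q) : rl q τ • urA0 q = urA0 q := by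
  haveI : Fact (q : ℕ).Prime := ⟨q.2⟩
  exact localGaloisToGlobal_mem_decompositionSubgroup (q : ℕ) τ

/-- The prime of `K` attached to `σ ∈ G_ℚ`: the one under `σ⁻¹ • A₀`. -/
def urPl (σ : GQ) : HeightOneSpectrum (𝓞 ↥K) :=
  vBelow K (q : ℕ) q.2 (σ⁻¹ • urA0 q) (ur_liesOver_smul _ _ _ (urA0_lies q))

theorem urPl_asIdeal (σ : GQ) : (urPl K q σ).asIdeal = primeBelow K (σ⁻¹ • urA0 q) := rfl

theorem urPl_mem (σ : GQ) : (((q : ℕ) : 𝓞 ↥K)) ∈ (urPl K q σ).asIdeal :=
  natCast_mem_primeBelow K _ (q : ℕ) (ur_liesOver_smul _ _ _ (urA0_lies q))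

theorem urPl_mul_right (σ g : GQ) (hg : g ∈ K.fixingSubgroup) :
    urPl K q (σ * g) = urPl K q σ := by
  apply HeightOneSpectrum.ext
  rw [urPl_asIdeal, urPl_asIdeal, mul_inv_rev, mul_smul]
  exact ur_primeBelow_smul K _ g⁻¹ (inv_mem hg)

theorem urPl_mul_left (d σ : GQ) (hd : d • urA0 q = urA0 q) :
    urPl K q (d * σ) = urPl K q σ := by
  apply HeightOneSpectrum.ext
  have h1 : d⁻¹ • urA0 q = urA0 q := by
    rw [inv_smul_eq_iff, hd]
  rw [urPl_asIdeal, urPl_asIdeal, mul_inv_rev, mul_smul, h1]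

theorem urPl_eq (σ σ' : GQ) (h : urPl K q σ = urPl K q σ') :
    ∃ d g : GQ, d • urA0 q = urA0 q ∧ g ∈ K.fixingSubgroup ∧ σ' = d * σ * g := by
  have h1 : primeBelow K (σ⁻¹ • urA0 q) = primeBelow K (σ'⁻¹ • urA0 q) := by
    rw [← urPl_asIdeal, ← urPl_asIdeal, h]
  obtain ⟨g, hgK, hg⟩ := ur_exists_fixing K _ _ (q : ℕ) q.2
    (ur_liesOver_smul _ σ⁻¹ _ (urA0_lies q)) (ur_liesOver_smul _ σ'⁻¹ _ (urA0_lies q)) h1
  refine ⟨σ' * g * σ⁻¹, g⁻¹, ?_, inv_mem hgK, by group⟩
  rw [mul_smul, mul_smul, ← hg, smul_inv_smul]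

theorem urPl_surj (v : HeightOneSpectrum (𝓞 ↥K)) (hqv : (((q : ℕ) : 𝓞 ↥K)) ∈ v.asIdeal) :
    ∃ σ : GQ, urPl K q σ = v := by
  obtain ⟨A, hA, hAv⟩ := ur_exists_place K v (q : ℕ) hqv
  obtain ⟨τ, hτ⟩ := ur_exists_smul (urA0 q) A (q : ℕ) q.2 (urA0_lies q) hA
  refine ⟨τ⁻¹, ?_⟩
  apply HeightOneSpectrum.ext
  rw [urPl_asIdeal, inv_inv, ← hτ, hAv]

/-- An element of the decomposition group acts on a coset of `G_K` as a local automorphism. -/
theorem ur_exists_local (d σ : GQ) (hd : d • urA0 q = urA0 q) :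
    ∃ τ : Gl q, ((rl q τ * σ : GQ) : XK K) = ((d * σ : GQ) : XK K) := by
  haveI : Fact (q : ℕ).Prime := ⟨q.2⟩
  haveI : FiniteDimensional ℚ (K.map (σ : Qb ≃ₐ[ℚ] Qb).toAlgHom) :=
    IntermediateField.finiteDimensional_map _
  have hd' : d ∈ (padicPlace (q : ℕ)).decompositionSubgroup ℚ := hd
  obtain ⟨τ, hτ⟩ := Fermat.Agent.Lib.LocalGlobalDense.exists_local_lift_field (q : ℕ) d hd'
    (K.map (σ : Qb ≃ₐ[ℚ] Qb).toAlgHom)
  refine ⟨τ, ?_⟩
  rw [QuotientGroup.eq, IntermediateField.mem_fixingSubgroup_iff]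
  intro x hx
  have h1 : σ x ∈ K.map (σ : Qb ≃ₐ[ℚ] Qb).toAlgHom :=
    (IntermediateField.mem_map K).mpr ⟨x, hx, rfl⟩
  have h2 : rl q τ (σ x) = d (σ x) := hτ _ h1
  show ((rl q τ * σ)⁻¹ * (d * σ)) x = x
  rw [mul_inv_rev, AlgEquiv.mul_apply, AlgEquiv.mul_apply, AlgEquiv.mul_apply, ← h2]
  show σ⁻¹ ((rl q τ)⁻¹ (rl q τ (σ x))) = x
  rw [show (rl q τ)⁻¹ (rl q τ (σ x)) = σ x from AlgEquiv.symm_apply_apply _ _]
  exact AlgEquiv.symm_apply_apply σ x

/-- **UR-PL**: the orbits of the local Galois group at `q` on `G_ℚ / G_K` are as many as the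
primes of `𝓞 K` over `q`. -/
theorem stmt_UR_PL : Stmt_UR_PL := by
  intro K _ q W _ D
  letI := locAct K q
  have hsmul : ∀ (τ : Gl q) (σ : GQ), τ • ((σ : GQ) : XK K) = ((rl q τ * σ : GQ) : XK K) :=
    fun τ σ => rfl
  -- the map
  obtain ⟨f, hf⟩ : ∃ f : W → {v : HeightOneSpectrum (𝓞 ↥K) | (((q : ℕ) : 𝓞 ↥K)) ∈ v.asIdeal},
      ∀ w, (f w : HeightOneSpectrum (𝓞 ↥K)) = urPl K q (Quotient.out (D.rep w)) :=
    ⟨fun w => ⟨urPl K q (Quotient.out (D.rep w)), urPl_mem K q _⟩, fun w => rfl⟩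
  have hout : ∀ x : XK K, ((Quotient.out x : GQ) : XK K) = x := fun x => QuotientGroup.out_eq' x
  have hbij : Function.Bijective f := by
    constructor
    · intro w w' hww
      have h1 : urPl K q (Quotient.out (D.rep w)) = urPl K q (Quotient.out (D.rep w')) := by
        rw [← hf, ← hf, hww]
      obtain ⟨d, g, hd, hg, hσ⟩ := urPl_eq K q _ _ h1
      obtain ⟨τ, hτ⟩ := ur_exists_local K q d (Quotient.out (D.rep w)) hd
      have h2 : D.rep w' = τ • D.rep w := by
        calc D.rep w' = ((Quotient.out (D.rep w') : GQ) : XK K) := (hout _).symm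
          _ = ((d * Quotient.out (D.rep w) * g : GQ) : XK K) := by rw [hσ]
          _ = ((d * Quotient.out (D.rep w) : GQ) : XK K) := by
              rw [QuotientGroup.eq]
              have h3 : (d * Quotient.out (D.rep w) * g)⁻¹ * (d * Quotient.out (D.rep w))
                  = g⁻¹ := by group
              rw [h3]
              exact inv_mem hg
          _ = ((rl q τ * Quotient.out (D.rep w) : GQ) : XK K) := hτ.symm
          _ = τ • ((Quotient.out (D.rep w) : GQ) : XK K) := (hsmul τ _).symm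
          _ = τ • D.rep w := by rw [hout]
      have h4 := congrArg D.o h2
      rw [D.o_smul, D.o_rep, D.o_rep] at h4
      exact h4.symm
    · rintro ⟨v, hv⟩
      obtain ⟨σ, hσ⟩ := urPl_surj K q v hv
      refine ⟨D.o ((σ : GQ) : XK K), Subtype.ext ?_⟩
      rw [hf]
      show urPl K q (Quotient.out (D.rep (D.o ((σ : GQ) : XK K)))) = v
      -- `rep (o x) = (t x)⁻¹ • x`
      have h1 : D.rep (D.o ((σ : GQ) : XK K)) =
          (((rl q (D.t ((σ : GQ) : XK K)))⁻¹ * σ : GQ) : XK K) := by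
        have h2 := D.t_smul ((σ : GQ) : XK K)
        have h3 : D.rep (D.o ((σ : GQ) : XK K)) = (D.t ((σ : GQ) : XK K))⁻¹ • ((σ : GQ) : XK K) := by
          rw [eq_inv_smul_iff]
          exact h2
        rw [h3, hsmul, map_inv]
      obtain ⟨g, hg⟩ := QuotientGroup.mk_out_eq_mul K.fixingSubgroup
        ((rl q (D.t ((σ : GQ) : XK K)))⁻¹ * σ)
      rw [h1]
      have h5 : Quotient.out ((((rl q (D.t ((σ : GQ) : XK K)))⁻¹ * σ : GQ)) : XK K) =
          (rl q (D.t ((σ : GQ) : XK K)))⁻¹ * σ * g := hg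
      rw [h5, urPl_mul_right K q _ _ g.2, urPl_mul_left K q _ _ ?_, hσ]
      rw [inv_smul_eq_iff, ur_rl_smul]
  rw [← Nat.card_eq_fintype_card, ← Nat.card_coe_set_eq]
  exact Nat.card_eq_of_bijective f hbij

end orbits

end Fermat.Agent.S55.CFT.GS.H6

end
end
-- ==== END Fermat.Agent.S55.CFT.GS.H6_UR_PL
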