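-- GENERATED (merged mirror, NOTES/tools/trim/merge3_helper67.py): 7 modules of the originals, bodies verbatim.
import Fermat.Agent.Zm.S56_L09_004
import Fermat.Agent.Zm.S56_L11_006
import Fermat.Agent.Zm.S56_L05_003
import Fermat.Agent.Zm.S56_L10_003
import Fermat.Agent.Zm.S56_L11_003
import Fermat.Agent.Zm.S56_L11_004
import Fermat.Agent.Zm.S56_L11_002
import Fermat.Agent.Zm.S56_L07_003

-- ==== BEGIN Fermat.Agent.S55.CFT.GS.H64_BriAsm
section

set_option autoImplicit false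

open CategoryTheory groupCohomology ExtCitation

open scoped Pointwise

noncomputable section

namespace Fermat.Agent.S55.CFT.GS.H64

open Fermat.Agent.S55 Fermat.Agent.S55.Top Fermat.Agent.S55.CFT Fermat.Agent.S55.CFT.GS.Bri

local notation "Qb" => AlgebraicClosure ℚ

/-! ### Level fields -/

section level

variable (S : Finset Nat.Primes) (K : IntermediateField ℚ Qb)

/-- A level-`S` function on `G_K × G_K` takes finitely many values. -/
theorem finite_range_of_isLevK₂ {X : Type*} (hK : K.IsUnramifiedOutside S)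
    (c : ↥K.fixingSubgroup × ↥K.fixingSubgroup → X) (hlev : IsLevK₂ S K c) :
    (Set.range c).Finite := by
  obtain ⟨F, hF, hc⟩ := hlev
  -- the function `g ↦ c (g, ·)` is of level `S`
  have h1 : IsLevK₁ S K (fun g : ↥K.fixingSubgroup => fun h : ↥K.fixingSubgroup => c (g, h)) :=
    ⟨F, hF, fun g s hs => funext fun h => by
      have := hc g h s 1 hs (one_mem _)
      simpa using this⟩
  have hfin1 := H6.finite_range_of_isLevK₁ S K hK _ h1
  have h2 : ∀ g : ↥K.fixingSubgroup, (Set.range (fun h : ↥K.fixingSubgroup => c (g, h))).Finite :=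
    fun g => H6.finite_range_of_isLevK₁ S K hK _ ⟨F, hF, fun h s hs => by
      have := hc g h 1 s (one_mem _) hs
      simpa using this⟩
  have h3 : Set.range c ⊆ ⋃ φ ∈ Set.range
      (fun g : ↥K.fixingSubgroup => fun h : ↥K.fixingSubgroup => c (g, h)), Set.range φ := by
    rintro _ ⟨⟨g, h⟩, rfl⟩
    simp only [Set.mem_iUnion]
    exact ⟨_, ⟨g, rfl⟩, h, rfl⟩
  refine (Set.Finite.biUnion hfin1 ?_).subset h3
  rintro _ ⟨g, rfl⟩
  exact h2 g

/-- A common normal level field for a 2-cochain and a 1-cochain. -/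
theorem exists_levelField (hK : K.IsUnramifiedOutside S)
    (c : ↥K.fixingSubgroup × ↥K.fixingSubgroup → Qbˣ) (b : ↥K.fixingSubgroup → Qbˣ)
    (hc : IsLevK₂ S K c) (hcΩ : ∀ t, InOm S (c t : Qb))
    (hb : IsLevK₁ S K b) (hbΩ : ∀ g, InOm S (b g : Qb)) :
    ∃ N : IntermediateField ℚ Qb, K ≤ N ∧ N.IsUnramifiedOutside S ∧ N.fixingSubgroup.Normal ∧
      IsLevN₂ K N c ∧ IsLevN₁ K N b := by
  have hfc : (Set.range (fun t => (c t : Qb))).Finite := by
    have := (finite_range_of_isLevK₂ S K hK c hc).image (fun u : Qbˣ => (u : Qb))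
    refine this.subset ?_
    rintro _ ⟨t, rfl⟩
    exact ⟨c t, ⟨t, rfl⟩, rfl⟩
  have hfb : (Set.range (fun g => (b g : Qb))).Finite := by
    have := (H6.finite_range_of_isLevK₁ S K hK b hb).image (fun u : Qbˣ => (u : Qb))
    refine this.subset ?_
    rintro _ ⟨t, rfl⟩
    exact ⟨b t, ⟨t, rfl⟩, rfl⟩
  obtain ⟨N₁, hN₁, hval⟩ := H6.exists_level_of_finite S _ (hfc.union hfb) (by
    rintro x (⟨t, rfl⟩ | ⟨g, rfl⟩)
    · exact hcΩ t
    · exact hbΩ g)
  obtain ⟨Fc, hFc, hc'⟩ := hc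
  obtain ⟨Fb, hFb, hb'⟩ := hb
  obtain ⟨N, hle, hNS, hNn⟩ := Fermat.Agent.S55.H48.exists_normal_level S (K ⊔ Fc ⊔ Fb ⊔ N₁)
    (((hK.sup hFc).sup hFb).sup hN₁)
  have hKN : K ≤ N := ((le_sup_left.trans le_sup_left).trans le_sup_left).trans hle
  have hFcN : Fc ≤ N := ((le_sup_right.trans le_sup_left).trans le_sup_left).trans hle
  have hFbN : Fb ≤ N := (le_sup_right.trans le_sup_left).trans hle
  have hN₁N : N₁ ≤ N := le_sup_right.trans hle
  refine ⟨N, hKN, hNS, hNn, ⟨fun g₁ g₂ s₁ s₂ h₁ h₂ => hc' g₁ g₂ s₁ s₂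
    (IntermediateField.fixingSubgroup_antitone hFcN h₁)
    (IntermediateField.fixingSubgroup_antitone hFcN h₂), fun t => hN₁N (hval _ (Or.inl ⟨t, rfl⟩))⟩,
    ⟨fun g s hs => hb' g s (IntermediateField.fixingSubgroup_antitone hFbN hs),
      fun g => hN₁N (hval _ (Or.inr ⟨g, rfl⟩))⟩⟩

variable {S K}

theorem IsLevN₂.isLevK₂ {N : IntermediateField ℚ Qb} (hN : N.IsUnramifiedOutside S)
    {c : ↥K.fixingSubgroup × ↥K.fixingSubgroup → Qbˣ} (hc : IsLevN₂ K N c) :
    IsLevK₂ S K c ∧ ∀ t, InOm S (c t : Qb) :=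
  ⟨⟨N, hN, hc.1⟩, fun t => ⟨N, hN, hc.2 t⟩⟩

theorem IsLevN₁.isLevK₁ {N : IntermediateField ℚ Qb} (hN : N.IsUnramifiedOutside S)
    {b : ↥K.fixingSubgroup → Qbˣ} (hb : IsLevN₁ K N b) :
    IsLevK₁ S K b ∧ ∀ g, InOm S (b g : Qb) :=
  ⟨⟨N, hN, hb.1⟩, fun g => ⟨N, hN, hb.2 g⟩⟩

/-- The primitive root of unity of a base field, in the abstract field. -/
theorem exists_zeta {p : ℕ} (hK : IsBaseField S p K) : ∃ ζ : ↥K, IsPrimitiveRoot ζ p := by
  obtain ⟨ζ, hζK, hζ⟩ := hK.2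
  refine ⟨⟨ζ, hζK⟩, ?_⟩
  exact IsPrimitiveRoot.of_map_of_injective (f := algebraMap ↥K Qb) hζ
    (algebraMap ↥K Qb).injective

end level

/-! ### `p`-torsion -/

section tors

variable {K N : IntermediateField ℚ Qb} (hKN : K ≤ N)
  [NumberField ↥K] [NumberField ↥(H6.NK hKN)] [IsGalois ↥K ↥(H6.NK hKN)]

/-- The class of a cocycle `c` with `cᵖ = d b` is killed by `p`. -/
theorem smul_eq_zero_of_pow (hmul : Stmt_R2_mul) (hzero : Stmt_R2_zero) (p : ℕ)
    (c : ↥K.fixingSubgroup × ↥K.fixingSubgroup → Qbˣ) (b : ↥K.fixingSubgroup → Qbˣ)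
    (x : groupCohomology (repL ↥K ↥(H6.NK hKN)) 2) (hx : Real₂ hKN c x) (hb : IsLevN₁ K N b)
    (hpow : ∀ t, c t ^ p = mOne b t) : (p : ℤ) • x = 0 :=
  (hzero K N hKN _ _ ((hmul K N hKN c c x x hx hx).2.2 p)).2 ⟨b, hb, hpow⟩

/-- A class killed by `p` with cocycle `c`: `cᵖ = d b`. -/
theorem exists_pow_of_smul_eq_zero (hmul : Stmt_R2_mul) (hzero : Stmt_R2_zero) (p : ℕ)
    (c : ↥K.fixingSubgroup × ↥K.fixingSubgroup → Qbˣ)
    (x : groupCohomology (repL ↥K ↥(H6.NK hKN)) 2) (hx : Real₂ hKN c x)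
    (hpx : (p : ℤ) • x = 0) :
    ∃ b : ↥K.fixingSubgroup → Qbˣ, IsLevN₁ K N b ∧ ∀ t, c t ^ p = mOne b t :=
  (hzero K N hKN _ _ ((hmul K N hKN c c x x hx hx).2.2 p)).1 hpx

end tors

/-! ### BRI-Hasse and BRI-One -/

/-- The local components of the class of a `p`-torsion datum which is locally trivial over `S`
(but possibly at one place) and has zero residues outside `S`. -/
theorem locMap_eq_zero_of (hPlEx : Stmt_PlEx) (hPlS : Stmt_PlS) (hLocS : Stmt_LocS)
    (hLocOut : Stmt_LocOut) (p : ℕ) [Fact p.Prime] (S : Finset Nat.Primes)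
    {K N : IntermediateField ℚ Qb} (hKN : K ≤ N)
    [NumberField ↥K] [NumberField ↥(H6.NK hKN)] [IsGalois ↥K ↥(H6.NK hKN)]
    (hNS : N.IsUnramifiedOutside S) (𝔓 : PlaceSys S K)
    (c : ↥K.fixingSubgroup × ↥K.fixingSubgroup → Qbˣ) (b : ↥K.fixingSubgroup → Qbˣ)
    (x : groupCohomology (repL ↥K ↥(H6.NK hKN)) 2) (hx : Real₂ hKN c x) (hb : IsLevN₁ K N b)
    (hpow : ∀ t, c t ^ p = mOne b t)
    (hOut : ∀ q : Nat.Primes, q ∉ S → ∀ A : ValuationSubring Qb, A.LiesOverPrime (q : ℕ) →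
      ResTrivAt p K A (q : ℕ) b)
    (v : Place ↥K)
    (hS : ∀ (q : ↥S) (w : 𝔓.W q), v = plσ K q.1 (𝔓.σ q w) → LocTrivS 𝔓 q w c) :
    locMap ↥K ↥(H6.NK hKN) v 2 x = 0 := by
  by_cases hv : v.1 ∈ S
  · obtain ⟨w, hw⟩ := (hPlS S K 𝔓).2 ⟨v.1, hv⟩ v rfl
    have h1 := (hLocS S K N hKN 𝔓 ⟨v.1, hv⟩ w c x hx).2 (hS _ w hw)
    rw [hw]
    exact h1
  · obtain ⟨σ, hσ⟩ := hPlEx K v
    have hA : (σ⁻¹ • primeLocalPlace v.1).LiesOverPrime (v.1 : ℕ) :=
      H6.ur_liesOver_smul _ _ _ (H6.urA0_lies v.1)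
    have h1 := (hLocOut p S K N hKN hNS v.1 hv (σ⁻¹ • primeLocalPlace v.1) σ
      (smul_inv_smul σ _) c b x hx hb hpow).2 (hOut v.1 hv _ hA)
    rw [hσ]
    exact h1

/-- **BRI-Hasse** from REAL, PL, LOC-S, LOC-OUT. -/
theorem briHasse_of (hex : Stmt_R2_ex) (hmul : Stmt_R2_mul) (hzero : Stmt_R2_zero)
    (hPlEx : Stmt_PlEx) (hPlS : Stmt_PlS) (hLocS : Stmt_LocS) (hLocOut : Stmt_LocOut) :
    Stmt_GS_BriHasse := by
  intro hA p _ hp2 S _ K hK 𝔓 c b hcb hS hOut
  obtain ⟨N, hKN, hNS, hNn, hcN, hbN⟩ :=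
    exists_levelField S K hK.1 c b hcb.levc hcb.omc hcb.levb hcb.omb
  have := hK.1.1
  have : NumberField ↥K := numberField_base K
  have := hNS.1
  have : NumberField ↥(H6.NK hKN) := numberField_top hKN
  have : IsGalois ↥K ↥(H6.NK hKN) := isGalois_top hKN hNn
  obtain ⟨x, hx⟩ := hex K N hKN c hcN hcb.coc
  have hpx : ((p : ℤ) ^ 1) • x = 0 := by
    rw [pow_one]
    exact smul_eq_zero_of_pow hKN hmul hzero p c b x hx hbN hcb.pow
  have hyp : HypG ↥K ↥(H6.NK hKN) p := ⟨Fact.out, hp2, exists_zeta hK, inferInstance⟩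
  have hloc : ∀ v : Place ↥K, locMap ↥K ↥(H6.NK hKN) v 2 x = 0 := fun v =>
    locMap_eq_zero_of hPlEx hPlS hLocS hLocOut p S hKN hNS 𝔓 c b x hx hbN hcb.pow hOut v
      (fun q w _ => hS q w)
  have hx0 := hA p ↥K ↥(H6.NK hKN) hyp 1 x hpx hloc
  obtain ⟨b', hb', hcb'⟩ := (hzero K N hKN c x hx).1 hx0
  exact ⟨b', (IsLevN₁.isLevK₁ hNS hb').1, (IsLevN₁.isLevK₁ hNS hb').2, hcb'⟩

/-- **BRI-One** from REAL, PL, LOC-S, LOC-OUT. -/
theorem briOne_of (hex : Stmt_R2_ex) (hmul : Stmt_R2_mul) (hzero : Stmt_R2_zero)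
    (hPlEx : Stmt_PlEx) (hPlS : Stmt_PlS) (hLocS : Stmt_LocS) (hLocOut : Stmt_LocOut) :
    Stmt_GS_BriOne := by
  intro hA p _ hp2 S _ K hK 𝔓 c b hcb q₀ w₀ hS hOut
  obtain ⟨N, hKN, hNS, hNn, hcN, hbN⟩ :=
    exists_levelField S K hK.1 c b hcb.levc hcb.omc hcb.levb hcb.omb
  have := hK.1.1
  have : NumberField ↥K := numberField_base K
  have := hNS.1
  have : NumberField ↥(H6.NK hKN) := numberField_top hKN
  have : IsGalois ↥K ↥(H6.NK hKN) := isGalois_top hKN hNn
  obtain ⟨x, hx⟩ := hex K N hKN c hcN hcb.coc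
  have hpx : ((p : ℤ) ^ 1) • x = 0 := by
    rw [pow_one]
    exact smul_eq_zero_of_pow hKN hmul hzero p c b x hx hbN hcb.pow
  have hyp : HypG ↥K ↥(H6.NK hKN) p := ⟨Fact.out, hp2, exists_zeta hK, inferInstance⟩
  have hloc : ∀ v : Place ↥K, v ≠ plσ K q₀.1 (𝔓.σ q₀ w₀) →
      locMap ↥K ↥(H6.NK hKN) v 2 x = 0 := fun v hv =>
    locMap_eq_zero_of hPlEx hPlS hLocS hLocOut p S hKN hNS 𝔓 c b x hx hbN hcb.pow hOut v
      (fun q w hvw => hS q w (by
        rintro h
        apply hv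
        rw [hvw]
        have h1 : q = q₀ := congrArg Sigma.fst h
        subst h1
        have h2 : w = w₀ := eq_of_heq (Sigma.mk.inj h).2
        rw [h2]))
  have hx0 := hA p ↥K ↥(H6.NK hKN) hyp 1 x (plσ K q₀.1 (𝔓.σ q₀ w₀)) hpx hloc
  exact (hLocS S K N hKN 𝔓 q₀ w₀ c x hx).1 hx0

/-! ### BRI-TwoIn and BRI-TwoOut -/

section two

variable {S : Finset Nat.Primes} {K : IntermediateField ℚ Qb} [NumberField ↥K]

/-- `(q, w) ↦ v(q, w)` is injective. -/
theorem plσ_S_inj (hPlS : Stmt_PlS) (𝔓 : PlaceSys S K) {q q' : ↥S} {w : 𝔓.W q} {w' : 𝔓.W q'}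
    (h : plσ K q.1 (𝔓.σ q w) = plσ K q'.1 (𝔓.σ q' w')) :
    (⟨q, w⟩ : Σ q : ↥S, 𝔓.W q) = ⟨q', w'⟩ := by
  have h1 : q.1 = q'.1 := congrArg Sigma.fst h
  have h2 : q = q' := Subtype.ext h1
  subst h2
  rw [(hPlS S K 𝔓).1 q w w' h]

/-- Every place of `ℚ̄` over `q` is `σ⁻¹ • primeLocalPlace q`. -/
theorem exists_smul_eq_primeLocalPlace (q : Nat.Primes) (A : ValuationSubring Qb)
    (hA : A.LiesOverPrime (q : ℕ)) : ∃ σ : GQ, σ • A = primeLocalPlace q := by
  obtain ⟨g, hg⟩ := H6.ur_exists_smul A (primeLocalPlace q) q q.2 hA (H6.urA0_lies q)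
  exact ⟨g, hg.symm⟩

/-- The data extracted from a class over the cyclotomic model. -/
theorem exists_ptors (hsurj : Stmt_R2_surj) (hmul : Stmt_R2_mul) (hzero : Stmt_R2_zero)
    (p : ℕ) {N : IntermediateField ℚ Qb} (hKN : K ≤ N)
    [NumberField ↥(H6.NK hKN)] [IsGalois ↥K ↥(H6.NK hKN)] (hNS : N.IsUnramifiedOutside S)
    (x : groupCohomology (repL ↥K ↥(H6.NK hKN)) 2) (hpx : (p : ℤ) • x = 0) :
    ∃ (c : ↥K.fixingSubgroup × ↥K.fixingSubgroup → Qbˣ) (b : ↥K.fixingSubgroup → Qbˣ),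
      PTorsData S p K c b ∧ Real₂ hKN c x ∧ IsLevN₁ K N b ∧ ∀ t, c t ^ p = mOne b t := by
  obtain ⟨c, hcN, hcoc, hx⟩ := hsurj K N hKN x
  obtain ⟨b, hbN, hpow⟩ := exists_pow_of_smul_eq_zero hKN hmul hzero p c x hx hpx
  exact ⟨c, b, ⟨(IsLevN₂.isLevK₂ hNS hcN).1, (IsLevN₂.isLevK₂ hNS hcN).2, hcoc,
    (IsLevN₁.isLevK₁ hNS hbN).1, (IsLevN₁.isLevK₁ hNS hbN).2, hpow⟩, hx, hbN, hpow⟩

end two

/-- **BRI-TwoIn** from REAL, CYC, PL, LOC-S, LOC-OUT. -/
theorem briTwoIn_of (hsurj : Stmt_R2_surj) (hmul : Stmt_R2_mul) (hzero : Stmt_R2_zero)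
    (hcyc : Stmt_CycBase) (hPlS : Stmt_PlS) (hLocS : Stmt_LocS) (hLocOut : Stmt_LocOut) :
    Stmt_GS_BriTwoIn := by
  intro hA p _ hp2 S hpS K hK 𝔓 q₁ w₁ q₂ w₂ hne
  have := hK.1.1
  have : NumberField ↥K := numberField_base K
  have hv : plσ K q₁.1 (𝔓.σ q₁ w₁) ≠ plσ K q₂.1 (𝔓.σ q₂ w₂) := fun h =>
    hne (plσ_S_inj hPlS 𝔓 h)
  obtain ⟨M₀, hM⟩ := hA p ↥K Fact.out hp2 (exists_zeta hK) _ _ hv
  obtain ⟨N, hKN, hNS, hgal, hcycl⟩ := hcyc p S hpS K hK.1 M₀
  have := hNS.1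
  have : NumberField ↥(H6.NK hKN) := numberField_top hKN
  obtain ⟨x, hpx, hx1, hx2⟩ := hM M₀ le_rfl ↥(H6.NK hKN) hcycl
  obtain ⟨c, b, hcb, hx, hbN, hpow⟩ := exists_ptors hsurj hmul hzero p hKN hNS x hpx
  refine ⟨c, b, hcb, fun h => hx1 ((hLocS S K N hKN 𝔓 q₁ w₁ c x hx).2 h), ?_, ?_⟩
  · intro q w h1 h2
    exact (hLocS S K N hKN 𝔓 q w c x hx).1
      (hx2 _ (fun h => h1 (plσ_S_inj hPlS 𝔓 h)) (fun h => h2 (plσ_S_inj hPlS 𝔓 h)))
  · intro q hq A hA
    obtain ⟨σ, hσ⟩ := exists_smul_eq_primeLocalPlace q A hA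
    refine (hLocOut p S K N hKN hNS q hq A σ hσ c b x hx hbN hpow).1 (hx2 _ ?_ ?_)
    · intro h
      have h1 : q = q₁.1 := congrArg Sigma.fst h
      exact hq (h1 ▸ q₁.2)
    · intro h
      have h1 : q = q₂.1 := congrArg Sigma.fst h
      exact hq (h1 ▸ q₂.2)

/-- **BRI-TwoOut** from REAL, CYC, PL, LOC-OUT. -/
theorem briTwoOut_of (hsurj : Stmt_R2_surj) (hmul : Stmt_R2_mul) (hzero : Stmt_R2_zero)
    (hcyc : Stmt_CycBase) (hPlEq : Stmt_PlEq) (hLocOut : Stmt_LocOut) :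
    Stmt_GS_BriTwoOut := by
  intro hA p _ hp2 S hpS K hK q₁ hq₁ A₁ hA₁
  have := hK.1.1
  have : NumberField ↥K := numberField_base K
  obtain ⟨σ₁, hσ₁⟩ := exists_smul_eq_primeLocalPlace q₁ A₁ hA₁
  have hv : plσ K q₁ σ₁ ≠ plσ K (pPrime p) 1 := by
    intro h
    have h1 : q₁ = pPrime p := congrArg Sigma.fst h
    exact hq₁ (h1 ▸ hpS)
  obtain ⟨M₀, hM⟩ := hA p ↥K Fact.out hp2 (exists_zeta hK) _ _ hv
  obtain ⟨N, hKN, hNS, hgal, hcycl⟩ := hcyc p S hpS K hK.1 M₀
  have := hNS.1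
  have : NumberField ↥(H6.NK hKN) := numberField_top hKN
  obtain ⟨x, hpx, hx1, hx2⟩ := hM M₀ le_rfl ↥(H6.NK hKN) hcycl
  obtain ⟨c, b, hcb, hx, hbN, hpow⟩ := exists_ptors hsurj hmul hzero p hKN hNS x hpx
  refine ⟨c, b, hcb,
    fun h => hx1 ((hLocOut p S K N hKN hNS q₁ hq₁ A₁ σ₁ hσ₁ c b x hx hbN hpow).2 h), ?_⟩
  intro q hq A hA hnc
  obtain ⟨σ, hσ⟩ := exists_smul_eq_primeLocalPlace q A hA
  refine (hLocOut p S K N hKN hNS q hq A σ hσ c b x hx hbN hpow).1 (hx2 _ ?_ ?_)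
  · intro h
    have h1 : q = q₁ := congrArg Sigma.fst h
    subst h1
    obtain ⟨h', g, hg, hσσ⟩ := (hPlEq K q σ σ₁).1 h
    apply hnc ⟨g, hg⟩
    -- `A₁ = σ₁⁻¹ • A₀`, `A = σ⁻¹ • A₀`, `σ₁ = rl h' * σ * g`
    have hA₁' : A₁ = σ₁⁻¹ • primeLocalPlace q := by rw [← hσ₁, inv_smul_smul]
    have hA' : A = σ⁻¹ • primeLocalPlace q := by rw [← hσ, inv_smul_smul]
    have hrl : (rl q h')⁻¹ • primeLocalPlace q = primeLocalPlace q := by
      have := H6.ur_rl_smul q h'
      rw [inv_smul_eq_iff]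
      exact this.symm
    show g • A₁ = A
    rw [hA₁', hA', hσσ, mul_inv_rev, mul_inv_rev, mul_smul, mul_smul, hrl, smul_inv_smul]
  · intro h
    have h1 : q = pPrime p := congrArg Sigma.fst h
    exact hq (h1 ▸ hpS)

end Fermat.Agent.S55.CFT.GS.H64

end

end
-- ==== END Fermat.Agent.S55.CFT.GS.H64_BriAsm

-- ==== BEGIN Fermat.Agent.S56.GW.H27_Arch
section

set_option autoImplicit false

/-!
# Cluster T / S56, package GW-LB-c (helper27): `Stmt_ARCH`

Complex conjugation `c` acts on `M` as an involution `A`; on `M' = M*(1)` it acts by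
`φ ↦ -φ ∘ A` (the cyclotomic character of `c` is `-1`).  So the invariants of `M'` are the
annihilator of `ker (A - 1)`, and `h⁰(ℝ, M) + h⁰(ℝ, M') = dim M`.
-/

noncomputable section

namespace Fermat.Agent.S56.H27

open Polynomial IsLocalRing CategoryTheory groupCohomology ExtCitation Module
open Fermat.Agent.S56 Fermat.Agent.S56.TWS.H27

section Cyclo

variable (p : ℕ) [Fact p.Prime]

/-- The cyclotomic character of complex conjugation is `-1`. -/
theorem cycloK_complexConjugation (k : Type) [Field k] [CharP k p] :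
    (cycloK p k complexConjugation : k) = -1 := by
  have hp : p.Prime := Fact.out
  have : NeZero p := ⟨hp.ne_zero⟩
  have : NeZero (p : AlgebraicClosure ℚ) := ⟨Nat.cast_ne_zero.mpr hp.ne_zero⟩
  obtain ⟨ζ₀, hζ⟩ : ∃ ζ₀ : AlgebraicClosure ℚ, IsPrimitiveRoot ζ₀ p :=
    HasEnoughRootsOfUnity.exists_primitiveRoot (AlgebraicClosure ℚ) p
  rw [cycloK_val]
  have h1 : ζ₀ ^ (cycloExp p complexConjugation) = ζ₀ ^ (p - 1) := by
    rw [← map_root_eq_pow p complexConjugation ζ₀ hζ.pow_eq_one]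
    exact H13.complexConjugation_root p hp.pos ζ₀ hζ.pow_eq_one
  have h2 : cycloExp p complexConjugation ≡ p - 1 [MOD p] := by
    obtain ⟨u, hu⟩ := hζ.isUnit hp.ne_zero
    have hu' : IsPrimitiveRoot u p := by
      rw [← IsPrimitiveRoot.coe_units_iff, hu]; exact hζ
    rw [← hu, ← Units.val_pow_eq_pow_val, ← Units.val_pow_eq_pow_val, Units.val_inj,
      pow_eq_pow_iff_modEq, ← hu'.eq_orderOf] at h1
    exact h1
  rw [(CharP.natCast_eq_natCast k p).mpr h2, Nat.cast_sub hp.one_le, CharP.cast_eq_zero k p]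
  simp

end Cyclo

section Arch

variable {k : Type} [Field k]

/-- The invariants of `Rep.res archimedeanLoc M` are the fixed vectors of complex conjugation. -/
theorem mem_invariants_arch (M : Rep.{0} k GQ) (m : M) :
    m ∈ (Rep.res archimedeanLoc M).ρ.invariants ↔ M.ρ complexConjugation m = m := by
  rw [Representation.mem_invariants]
  constructor
  · intro h
    exact h archimedeanGen
  · intro h g
    rcases H13.archimedean_cases g with rfl | rfl
    · show M.ρ (archimedeanLoc 1) m = m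
      rw [map_one, map_one]
      rfl
    · exact h

/-- Linear algebra: for an involution `A` (characteristic `≠ 2`), a functional `φ` with
`φ ∘ A = -φ` is the same as a functional vanishing on the fixed vectors of `A`. -/
theorem anti_iff_annihilates {V : Type*} [AddCommGroup V] [Module k V] (h2 : (2 : k) ≠ 0)
    (A : V →ₗ[k] V) (hA : ∀ v, A (A v) = v) (φ : Module.Dual k V) :
    (∀ v, φ (A v) = - φ v) ↔ ∀ v, A v = v → φ v = 0 := by
  constructor
  · intro h v hv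
    have h1 := h v
    rw [hv] at h1
    have h3 : (2 : k) * φ v = 0 := by linear_combination h1
    rcases mul_eq_zero.mp h3 with h4 | h4
    · exact absurd h4 h2
    · exact h4
  · intro h v
    have h1 := h (A v + v) (by rw [map_add, hA, add_comm])
    rw [map_add] at h1
    linear_combination h1

/-- **GW-LB-c.** -/
theorem stmt_ARCH : Stmt_ARCH := by
  intro p _ hp2 k _ _ _ M _
  have h2 : (2 : k) ≠ 0 := H13.two_ne_zero_of p hp2 (CharP.cast_eq_zero k p)
  have hAA : ∀ v : M, M.ρ complexConjugation (M.ρ complexConjugation v) = v := by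
    intro v
    rw [← Module.End.mul_apply, ← map_mul, complexConjugation_mul_self, map_one]
    rfl
  let W0 : Submodule k M := LinearMap.ker (M.ρ complexConjugation - 1)
  have hW0 : ∀ m : M, m ∈ W0 ↔ M.ρ complexConjugation m = m := by
    intro m
    simp only [W0, LinearMap.mem_ker, LinearMap.sub_apply, Module.End.one_apply, sub_eq_zero]
  have e1 : finrank k (Rep.res archimedeanLoc M).ρ.invariants = finrank k W0 := by
    have h : (Rep.res archimedeanLoc M).ρ.invariants = W0 := by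
      ext m
      rw [mem_invariants_arch]
      exact (hW0 m).symm
    rw [h]
  have e2 : finrank k (Rep.res archimedeanLoc (tateDual p M)).ρ.invariants =
      finrank k W0.dualAnnihilator := by
    have h : (Rep.res archimedeanLoc (tateDual p M)).ρ.invariants = W0.dualAnnihilator := by
      ext φ
      rw [mem_invariants_arch, Submodule.mem_dualAnnihilator, Rep.dualTwist_ρ_apply,
        cycloK_complexConjugation, complexConjugation_inv]
      have key := anti_iff_annihilates h2 (M.ρ complexConjugation) hAA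
        (show Module.Dual k M from φ)
      constructor
      · intro h w hw
        refine key.mp (fun v => ?_) w ((hW0 w).mp hw)
        have h1 := congrArg (fun ψ : Module.Dual k M => ψ v) h
        simp only [LinearMap.smul_apply, LinearMap.comp_apply, smul_eq_mul] at h1
        linear_combination -h1
      · intro h
        have h3 := key.mpr (fun v hv => h v ((hW0 v).mpr hv))
        apply LinearMap.ext
        intro v
        simp only [LinearMap.smul_apply, LinearMap.comp_apply, smul_eq_mul]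
        rw [h3 v]
        ring
    rw [h]
  rw [e1, e2]
  exact Subspace.finrank_add_finrank_dualAnnihilator_eq W0

end Arch

end Fermat.Agent.S56.H27

end

end
-- ==== END Fermat.Agent.S56.GW.H27_Arch

-- ==== BEGIN Fermat.Agent.S56.GW.H9_PerfRoots
section

/-!
# S56, package GW-PERF: roots of unity, Frobenius and the Kummer character (helper9)

* `root_rigid'`        : roots of unity of order prime to the residue characteristic which are
                         congruent are equal.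
* `rq_fix_root`        : for `q ≡ 1 mod p` the local Galois group at `q` fixes the `p`-th roots of
                         unity; `cycloK_rq_eq_one`.
* `dvd_of_pow_mem_inertiaF` : if the level contains the roots of unity of order `q ^ t - 1`, the
                         order of any generator of `G_q` modulo inertia is divisible by `t`.
* `kummerQ`            : the Kummer character of `q ^ (1/p)`, additive and ramified.
-/

set_option autoImplicit false
set_option linter.unusedSectionVars false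
set_option linter.style.haveILetI false

namespace Fermat.Agent.S56.H9

open NumberField CategoryTheory groupCohomology ExtCitation
open Fermat.Agent.Lib.LocalKummer

local notation "Qbar" => AlgebraicClosure ℚ

open Fermat.Agent.Lib.Minkowski in
attribute [local instance] qbar_isAlgebraic qbar_isAlgClosure qbar_isGalois qbar_normal

section rigid

variable {L : Type*} [Field L] (A : ValuationSubring L)

/-- A root of unity of order `n`, `n` a unit of `A`, congruent to `1`, is `1`. -/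
theorem root_rigid {n : ℕ} (hn : A.valuation (n : L) = 1) {u : L} (hu : u ^ n = 1)
    (hv : A.valuation (u - 1) < 1) : u = 1 := by
  by_contra hne
  have hvu : A.valuation u ≤ 1 := by
    have h1 : u = (u - 1) + 1 := by ring
    rw [h1]
    refine le_trans (A.valuation.map_add _ _) (max_le hv.le ?_)
    rw [map_one]
  have hsum : ∑ i ∈ Finset.range n, u ^ i = 0 := by
    have h := mul_geom_sum u n
    rw [hu, sub_self] at h
    exact (mul_eq_zero.mp h).resolve_left (sub_ne_zero.mpr hne)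
  have hn_eq : (n : L) = ∑ i ∈ Finset.range n, (1 - u ^ i) := by
    rw [Finset.sum_sub_distrib, hsum, sub_zero]
    simp
  have hterm : ∀ i ∈ Finset.range n, A.valuation (1 - u ^ i) < 1 := by
    intro i _
    have h := mul_geom_sum u i
    have h2 : 1 - u ^ i = -((u - 1) * ∑ j ∈ Finset.range i, u ^ j) := by rw [h]; ring
    rw [h2, Valuation.map_neg, map_mul]
    refine mul_lt_one_of_lt_of_le hv ?_
    refine Valuation.map_sum_le _ fun j _ => ?_
    rw [map_pow]
    exact pow_le_one₀ zero_le hvu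
  have hvn : A.valuation (n : L) < 1 := by
    rw [hn_eq]
    exact Valuation.map_sum_lt _ one_ne_zero hterm
  rw [hn] at hvn
  exact lt_irrefl _ hvn

theorem root_rigid' {n : ℕ} (hn : A.valuation (n : L) = 1) {u v : L} (hu : u ^ n = 1)
    (hv : v ^ n = 1) (h : A.valuation (u - v) < 1) : u = v := by
  have hn0 : n ≠ 0 := by
    rintro rfl
    rw [Nat.cast_zero, map_zero] at hn
    exact zero_ne_one hn
  have hv0 : v ≠ 0 := by
    rintro rfl
    rw [zero_pow hn0] at hv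
    exact zero_ne_one hv
  have hvv : A.valuation v = 1 := by
    have h1 : A.valuation v ^ n = 1 := by rw [← map_pow, hv, map_one]
    exact (pow_eq_one_iff.1 h1).resolve_right hn0
  have hw : (u * v⁻¹) ^ n = 1 := by rw [mul_pow, inv_pow, hu, hv, inv_one, mul_one]
  have hsub : u * v⁻¹ - 1 = (u - v) * v⁻¹ := by
    field_simp
  have hlt : A.valuation (u * v⁻¹ - 1) < 1 := by
    rw [hsub, map_mul, map_inv₀, hvv, inv_one, mul_one]
    exact h
  have h1 := root_rigid A hn hw hlt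
  have := congrArg (· * v) h1
  simpa [hv0] using this

end rigid

section frob

variable (q : Nat.Primes)

/-- Natural numbers prime to `q` are units at the place of `G_q`. -/
lemma valuation_natCast_eq_one {n : ℕ} (hn : ¬ (q : ℕ) ∣ n) :
    (primeLocalPlace q).valuation (n : Qbar) = 1 := by
  have h := Fermat.Agent.Lib.FrobExists.valuation_intCast_eq_one (primeLocalPlace q) (q : ℕ) q.2
    (primeLocalPlace_liesOver q) (n : ℤ) (by exact_mod_cast hn)
  simpa using h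

lemma isIntegral_of_pow_eq_one {n : ℕ} (hn : n ≠ 0) {t : Qbar} (ht : t ^ n = 1) :
    IsIntegral ℤ t :=
  IsIntegral.of_pow (Nat.pos_of_ne_zero hn) (by rw [ht]; exact isIntegral_one)

variable {q}

/-- For `q ≡ 1 mod p`, the local Galois group at `q` fixes the `p`-th roots of unity. -/
theorem rq_fix_root {p : ℕ} (hp : p.Prime) (hq1 : (q : ℕ) % p = 1)
    (g : primeLocalGaloisGroup q) (t : Qbar) (ht : t ^ p = 1) :
    primeLocalToGlobal q g t = t := by
  classical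
  have hpq : ¬ (q : ℕ) ∣ p := by
    intro h
    have h1 := (Nat.prime_dvd_prime_iff_eq q.2 hp).1 h
    rw [h1, Nat.mod_self] at hq1
    exact zero_ne_one hq1
  have hvp := valuation_natCast_eq_one q hpq
  -- the level generated by the `p`-th roots of unity
  let S : Set Qbar := {x | x ^ p = 1}
  have hSfin : S.Finite := by
    have h1 : S ⊆ ((Polynomial.X ^ p - 1 : Polynomial Qbar).roots.toFinset : Set Qbar) := by
      intro x hx
      have hx' : x ^ p = 1 := hx
      have hne : (Polynomial.X ^ p - 1 : Polynomial Qbar) ≠ 0 :=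
        Polynomial.X_pow_sub_C_ne_zero hp.pos 1
      simp only [Finset.mem_coe, Multiset.mem_toFinset]
      rw [Polynomial.mem_roots hne]
      simp [hx']
    exact (Finset.finite_toSet _).subset h1
  let K : IntermediateField ℚ Qbar := IntermediateField.adjoin ℚ S
  haveI hfin : FiniteDimensional ℚ K := by
    haveI : Finite S := hSfin
    exact IntermediateField.finiteDimensional_adjoin
      (fun x _ => Algebra.IsIntegral.isIntegral x)
  have hnorm' : @Normal ℚ K _ _ (IntermediateField.algebra' K) := by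
    rw [IntermediateField.normal_iff_forall_map_le']
    intro σ
    rw [IntermediateField.adjoin_map, IntermediateField.adjoin_le_iff]
    rintro _ ⟨y, hy, rfl⟩
    refine IntermediateField.subset_adjoin ℚ S ?_
    show (σ y) ^ p = 1
    have hy' : y ^ p = 1 := hy
    have : σ y ^ p = σ (y ^ p) := (map_pow σ y p).symm
    rw [this, hy', map_one]
  haveI hnorm : Normal ℚ K := by
    convert hnorm'
    exact Subsingleton.elim _ _
  haveI : NumberField K :=
    { to_charZero := inferInstance, to_finiteDimensional := inferInstance }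
  obtain ⟨P, φ, τ₀, a, hT, hfrob⟩ := tameData_level (q := q) K
  have hroot : ∀ s : Qbar, s ^ p = 1 → s ∈ K := fun s hs =>
    IntermediateField.subset_adjoin ℚ S hs
  -- inertia fixes the roots
  have hI : ∀ i ∈ inertiaF q K, ∀ s : Qbar, s ^ p = 1 → primeLocalToGlobal q i s = s := by
    intro i hi s hs
    have h1 := mem_inertiaF_iff.1 hi s (hroot s hs) (isIntegral_of_pow_eq_one hp.ne_zero hs)
    exact root_rigid' _ hvp (by rw [← map_pow, hs, map_one]) hs h1
  -- the Frobenius generator fixes the roots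
  have hφ : ∀ s : Qbar, s ^ p = 1 → primeLocalToGlobal q φ s = s := by
    intro s hs
    have h1 := hfrob s (hroot s hs) (isIntegral_of_pow_eq_one hp.ne_zero hs)
    have h2 : s ^ ((q : ℕ) ^ a) = s := by
      rw [pow_eq_pow_mod _ hs, Nat.pow_mod, hq1, one_pow, Nat.mod_eq_of_lt hp.one_lt, pow_one]
    rw [h2] at h1
    exact root_rigid' _ hvp (by rw [← map_pow, hs, map_one]) hs h1
  obtain ⟨n, i, hi, rfl⟩ := hT.hgen g
  rw [map_mul, map_pow, AlgEquiv.mul_apply, hI i hi t ht]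
  induction n with
  | zero => simp
  | succ n ih => rw [pow_succ, AlgEquiv.mul_apply, hφ t ht, ih]

theorem cycloK_rq_eq_one (p : ℕ) [Fact p.Prime] (k : Type) [Field k] [CharP k p]
    (hq1 : (q : ℕ) % p = 1) (g : primeLocalGaloisGroup q) :
    cycloK p k (primeLocalToGlobal q g) = 1 :=
  H47.cycloK_eq_one_of_fix p k _ (fun t ht => rq_fix_root Fact.out hq1 g t ht)

/-- A Frobenius element raises the roots of unity of order prime to `q` to the `q`-th power. -/
lemma frob_root_general (σ : Qbar ≃ₐ[ℚ] Qbar) (hσ : (primeLocalPlace q).IsFrobeniusAt σ (q : ℕ))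
    {n : ℕ} (hn : ¬ (q : ℕ) ∣ n) {z : Qbar} (hz : z ^ n = 1) : σ z = z ^ (q : ℕ) := by
  have hn0 : n ≠ 0 := fun h => hn (h ▸ dvd_zero _)
  have hzA : z ∈ primeLocalPlace q :=
    ((primeLocalPlace q).valuation_le_one_iff z).1
      (Fermat.Agent.Lib.FrobExists.valuation_le_one_of_isIntegral _ z
        (isIntegral_of_pow_eq_one hn0 hz))
  obtain ⟨hσd, hx⟩ := hσ
  have h1 := hx (IsLocalRing.residue (primeLocalPlace q) ⟨z, hzA⟩)
  rw [← IsLocalRing.ResidueField.residue_smul, ← map_pow, ← sub_eq_zero, ← map_sub,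
    IsLocalRing.residue_eq_zero_iff, ← ValuationSubring.coe_mem_nonunits_iff,
    (primeLocalPlace q).mem_nonunits_iff] at h1
  refine root_rigid' _ (valuation_natCast_eq_one q hn) ?_ ?_ h1
  · rw [← map_pow, hz, map_one]
  · rw [← pow_mul, mul_comm, pow_mul, hz, one_pow]

/-- If the level `F` contains a primitive root of unity of order `q ^ t - 1`, then every `c`
with `φ' ^ c` in the inertia group at the level `F`, `φ'` a generator modulo inertia, is a
multiple of `t`. -/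
theorem dvd_of_pow_mem_inertiaF (F : IntermediateField ℚ Qbar) [NumberField F] [Normal ℚ F]
    {t : ℕ} (ht : 0 < t) {z : Qbar} (hz : IsPrimitiveRoot z ((q : ℕ) ^ t - 1)) (hzF : z ∈ F)
    {φ' : primeLocalGaloisGroup q}
    (hnorm' : ∀ g : primeLocalGaloisGroup q, ∀ i ∈ inertiaF q F, g * i * g⁻¹ ∈ inertiaF q F)
    (hgen' : ∀ g : primeLocalGaloisGroup q, ∃ n : ℕ, ∃ i ∈ inertiaF q F, g = φ' ^ n * i)
    {c : ℕ} (hc : φ' ^ c ∈ inertiaF q F) : t ∣ c := by
  haveI : Fact (q : ℕ).Prime := ⟨q.2⟩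
  set n := (q : ℕ) ^ t - 1 with hn
  have hq2 : 2 ≤ (q : ℕ) := q.2.two_le
  have hqt : 2 ≤ (q : ℕ) ^ t :=
    hq2.trans (by calc (q : ℕ) = (q : ℕ) ^ 1 := (pow_one _).symm
      _ ≤ (q : ℕ) ^ t := Nat.pow_le_pow_right (by omega) ht)
  have hndvd : ¬ (q : ℕ) ∣ n := by
    intro h
    have h1 : (q : ℕ) ∣ (q : ℕ) ^ t := dvd_pow_self _ ht.ne'
    have h2 : (q : ℕ) ∣ (q : ℕ) ^ t - n := Nat.dvd_sub h1 h
    have h3 : (q : ℕ) ^ t - n = 1 := by omega
    rw [h3] at h2
    exact q.2.one_lt.ne' (Nat.dvd_one.1 h2)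
  have hn0 : n ≠ 0 := by omega
  have hzn : z ^ n = 1 := hz.pow_eq_one
  -- a Frobenius element and its local lift
  obtain ⟨σ, hσ⟩ := Fermat.Agent.Lib.FrobExists.exists_isFrobeniusAt (q : ℕ) q.2
    (primeLocalPlace q) (primeLocalPlace_liesOver q)
  have hdec : σ ∈ (padicPlace (q : ℕ)).decompositionSubgroup ℚ := hσ.mem_decompositionSubgroup
  obtain ⟨τ, hτ⟩ : ∃ τ : primeLocalGaloisGroup q, ∀ x ∈ F, primeLocalToGlobal q τ x = σ x :=
    Fermat.Agent.Lib.LocalGlobalDense.exists_local_lift_field (q : ℕ) σ hdec F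
  have hτz : primeLocalToGlobal q τ z = z ^ (q : ℕ) := by
    rw [hτ z hzF]
    exact frob_root_general σ hσ hndvd hzn
  have hτpow : ∀ j : ℕ, primeLocalToGlobal q (τ ^ j) z = z ^ ((q : ℕ) ^ j) := by
    intro j
    induction j with
    | zero => simp
    | succ j ih =>
      rw [pow_succ', map_mul, AlgEquiv.mul_apply, ih, map_pow, hτz, ← pow_mul, pow_succ']
  -- `τ ^ c` lies in the inertia group
  haveI : (inertiaF q F).Normal := ⟨fun i hi g => hnorm' g i hi⟩
  obtain ⟨a, i, hi, hτφ⟩ := hgen' τ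
  have hτc : τ ^ c ∈ inertiaF q F := by
    rw [← QuotientGroup.eq_one_iff, QuotientGroup.mk_pow, hτφ, QuotientGroup.mk_mul,
      (QuotientGroup.eq_one_iff i).2 hi, mul_one, QuotientGroup.mk_pow, ← pow_mul, mul_comm,
      pow_mul, ← QuotientGroup.mk_pow, (QuotientGroup.eq_one_iff (φ' ^ c)).2 hc, one_pow]
  have h1 := mem_inertiaF_iff.1 hτc z hzF (isIntegral_of_pow_eq_one hn0 hzn)
  rw [hτpow c] at h1
  have h2 : z ^ ((q : ℕ) ^ c) = z :=
    root_rigid' _ (valuation_natCast_eq_one q hndvd)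
      (by rw [← pow_mul, mul_comm, pow_mul, hzn, one_pow]) hzn h1
  have hz0 : z ≠ 0 := by
    rintro rfl
    rw [zero_pow hn0] at hzn
    exact zero_ne_one hzn
  have hqc : 1 ≤ (q : ℕ) ^ c := Nat.one_le_pow _ _ (by omega)
  have h3 : z ^ ((q : ℕ) ^ c - 1) = 1 := by
    have h4 : z ^ ((q : ℕ) ^ c - 1) * z = 1 * z := by
      rw [← pow_succ, Nat.sub_add_cancel hqc, h2, one_mul]
    exact mul_right_cancel₀ hz0 h4
  have h5 : n ∣ (q : ℕ) ^ c - 1 := (hz.pow_eq_one_iff_dvd _).1 h3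
  have h6 : Nat.gcd ((q : ℕ) ^ t - 1) ((q : ℕ) ^ c - 1) = (q : ℕ) ^ t - 1 :=
    Nat.gcd_eq_left h5
  rw [Nat.pow_sub_one_gcd_pow_sub_one] at h6
  have h7 : (q : ℕ) ^ Nat.gcd t c = (q : ℕ) ^ t := by
    have h8 : 1 ≤ (q : ℕ) ^ Nat.gcd t c := Nat.one_le_pow _ _ (by omega)
    omega
  have h9 : Nat.gcd t c = t := Nat.pow_right_injective hq2 h7
  rw [← h9]
  exact Nat.gcd_dvd_right t c

end frob

end Fermat.Agent.S56.H9

end
-- ==== END Fermat.Agent.S56.GW.H9_PerfRoots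

-- ==== BEGIN Fermat.Agent.S56.GWC.Defs_INV
section

set_option autoImplicit false

/-!
# Cluster T / S56, package GW-CORE, layer 2: interfaces for `Stmt_INV`

Owner-planner: helper64.  Plan: `NOTES/plan/T_GWC.md` §5.

`Stmt_INV` (`S56/GW/Defs2.lean`) asks for ONE family of local invariants `inv_q` with the
reciprocity law for ALL finite sets `Sg ∋ p`.  The S55-E4 lane produces, for every `S ∋ p`,
some trace `tr_S` on cone 3-cochains of `𝔽_p(1)`; `inv_q^S z := tr_S (0, δ_q z)`.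

* `LocTwoMono`, `LocTwoEpi` : local duality in degrees `(2, 0)` for a trace (the local `H²`
  against the local invariants of the dual);
* `Stmt_E4X`  : the base case exported by the E4 lane (PT-LIN + Shapiro), all properties for the
  same trace;
* `Stmt_L2_ret` : retracts;
* `Stmt_CHI`  : `𝔽_p(1)` is a retract of `𝔽_p[G_ℚ/G_K]`, `K = ℚ(μ_p)`;
* `Stmt_UR2`  : unramified local 2-cocycles are coboundaries (`H²(Ẑ, X) = 0`);
* assembly (normalisation at `p`, independence of `S`, coordinates `𝔽_p → k`): helper64.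
-/

noncomputable section

namespace Fermat.Agent.S56.GWC

open CategoryTheory groupCohomology ExtCitation Module

section defs

variable {k : Type} [Field k] {S : Finset Nat.Primes} {χ : S55.GQ →* kˣ}

/-- The cone 3-cochain `(0, δ_q c)`: zero global component, `c` at `q`, zero at the other
primes. -/
def at3 (S : Finset Nat.Primes) (X : Rep.{0} k S55.GQ) (q : ↥S)
    (c : S55.Gl q.1 × S55.Gl q.1 → X) : S55.C3c S X :=
  (0, Pi.single q c)

/-- Local duality `(2, 0)`, injectivity: a level-constant local 2-cocycle `c` of `X` at `q`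
with `tr ((0, δ_q c) ∪ m') = 0` for all `m' ∈ H⁰(ℚ_q, X')` is the coboundary of a level-constant
cochain.  (`H²(ℚ_q, X) ↪ H⁰(ℚ_q, X')^∨`.) -/
def LocTwoMono (tr : S55.Trace S χ) (X : Rep.{0} k S55.GQ) (q : ↥S) : Prop :=
  ∀ c : S55.Gl q.1 × S55.Gl q.1 → X, S55.dTwoL X q.1 c = 0 → IsLevelConstant₂ (S55.rl q.1) c →
    (∀ m' : S55.Md χ X, (∀ h : S55.Gl q.1, (S55.Md χ X).ρ (S55.rl q.1 h) m' = m') →
      tr.toFun (S55.cupA3 S χ X (at3 S X q c) m') = 0) →
    ∃ g : S55.Gl q.1 → X, IsLevelConstant₁ (S55.rl q.1) g ∧ S55.dOneL X q.1 g = c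

/-- Local duality `(2, 0)`, surjectivity: every functional on `H⁰(ℚ_q, X')` is
`m' ↦ tr ((0, δ_q c) ∪ m')` for a level-constant local 2-cocycle `c` of `X` at `q`.
(`H²(ℚ_q, X) ↠ H⁰(ℚ_q, X')^∨`.) -/
def LocTwoEpi (tr : S55.Trace S χ) (X : Rep.{0} k S55.GQ) (q : ↥S) : Prop :=
  ∀ φ : S55.Md χ X →ₗ[k] k,
    ∃ c : S55.Gl q.1 × S55.Gl q.1 → X, S55.dTwoL X q.1 c = 0 ∧
      IsLevelConstant₂ (S55.rl q.1) c ∧
      ∀ m' : S55.Md χ X, (∀ h : S55.Gl q.1, (S55.Md χ X).ρ (S55.rl q.1 h) m' = m') →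
        tr.toFun (S55.cupA3 S χ X (at3 S X q c) m') = φ m'

end defs

/-- **Package E4X** (S55-E4 lane: PT-LIN + Shapiro/Mackey): `S55.Top.Stmt_E4P` together with
`β¹mono` and local duality `(2, 0)` at every `q ∈ S`, for the SAME trace.
`K`-level content of the two local properties: for every place `w | q` of `K` the functional
`c ↦ tr_K (0, δ_w c)` on `Z²(K_w, 𝔽_p)` is nonzero with kernel `B²(K_w, 𝔽_p)`
(from `Top.Stmt_I1`: `dim H²(K_w) = 1`, `Top.Stmt_I4` (b) and `α³mono`). -/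
def Stmt_E4X : Prop :=
  ∀ (p : ℕ) [Fact p.Prime], p ≠ 2 → ∀ S : Finset Nat.Primes, pPrime p ∈ S →
    ∀ K : IntermediateField ℚ (AlgebraicClosure ℚ), S55.IsBaseField S p K →
      ¬ p ∣ K.fixingSubgroup.index →
      ∃ tr : S55.Trace S (cycloChar p),
        S55.AlphaTwoEpi tr (S55.permRep (ZMod p) K) ∧
        S55.AlphaThreeMono tr (S55.permRep (ZMod p) K) ∧
        S55.BetaOneEpi tr (S55.permRep (ZMod p) K) ∧
        S55.BetaTwoMono tr (S55.permRep (ZMod p) K) ∧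
        BetaOneMono tr (S55.permRep (ZMod p) K) ∧
        ∀ q : ↥S, LocTwoMono tr (S55.permRep (ZMod p) K) q ∧
          LocTwoEpi tr (S55.permRep (ZMod p) K) q

/-- **Package L2-ret**: local duality `(2, 0)` passes to retracts. -/
def Stmt_L2_ret : Prop :=
  ∀ (k : Type) [Field k] (S : Finset Nat.Primes) (χ : S55.GQ →* kˣ) (tr : S55.Trace S χ)
    (X Y : Rep.{0} k S55.GQ) (q : ↥S), S55.IsRetract X Y →
      (LocTwoMono tr Y q → LocTwoMono tr X q) ∧ (LocTwoEpi tr Y q → LocTwoEpi tr X q)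

/-- **Package CHI** (representation theory of `(ℤ/p)ˣ`): for `S ∋ p` there is a base field `K`
(`K = ℚ(μ_p)`) of degree prime to `p` such that `𝔽_p(1)` is a retract of `𝔽_p[G_ℚ/G_K]`
(`1 ↦ ∑_x χ(x)⁻¹ [x]`, `[x] ↦ -χ(x)`). -/
def Stmt_CHI : Prop :=
  ∀ (p : ℕ) [Fact p.Prime], p ≠ 2 → ∀ S : Finset Nat.Primes, pPrime p ∈ S →
    ∃ K : IntermediateField ℚ (AlgebraicClosure ℚ), S55.IsBaseField S p K ∧
      ¬ p ∣ K.fixingSubgroup.index ∧
      S55.IsRetract (S55.kχ (cycloChar p)) (S55.permRep (ZMod p) K)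

/-- **Package UR2** (`H²(Ẑ, X) = 0`).  `X` a module of characteristic `p` of level `S₀`, `z` a
level-`S₀` global 2-cocycle, `q ∉ S₀`: the restriction of `z` to `G_{ℚ_q}` is the coboundary of a
level-constant 1-cochain.
(`res_q z` factors through a finite cyclic group `D = ⟨Frob⟩` of order `n`; after inflation to
the cyclic group of order `np` (a cyclotomic extension unramified at `q`) it is the coboundary of
`g(φ^j) = ∑_{i<j} φ^i z(φ, φ^{j-1-i})`-type sums: the sum over a full period is killed by `p`.) -/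
def Stmt_UR2 : Prop :=
  ∀ (p : ℕ) [Fact p.Prime] (k : Type) [Field k] [CharP k p] (S₀ : Finset Nat.Primes)
    (X : Rep.{0} k S55.GQ), S55.Lev S₀ X →
    ∀ z : S55.GQ × S55.GQ → X, S55.IsZ2S S₀ X z → ∀ q : Nat.Primes, q ∉ S₀ →
      ∃ g : S55.Gl q → X, IsLevelConstant₁ (S55.rl q) g ∧
        S55.dOneL X q g = S55.resTwo q z

/-- **Package INV-A** (helper47: formal from `S55.Stmt_E4` + CHI + Minkowski): for every `S ∋ p`
there is a trace with `α³mono` for `𝔽_p(1)` and local injectivity at every `q ∈ S`. -/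
def Stmt_INV_A : Prop :=
  ∀ (p : ℕ) [Fact p.Prime], p ≠ 2 → ∀ S : Finset Nat.Primes, pPrime p ∈ S →
    ∃ tr : S55.Trace S (cycloChar p),
      S55.AlphaThreeMono tr (S55.kχ (cycloChar p)) ∧
      ∀ q : ↥S, LocTwoMono tr (S55.kχ (cycloChar p)) q

/-- **Package INV-B** (helper47): `H²(ℚ_p, 𝔽_p(1)) ≠ 0`: there is a level-constant local
2-cocycle at `p` which is not the coboundary of a level-constant cochain. -/
def Stmt_INV_B : Prop :=
  ∀ (p : ℕ) [Fact p.Prime], p ≠ 2 →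
    ∃ c : S55.Gl (pPrime p) × S55.Gl (pPrime p) → S55.kχ (cycloChar p),
      S55.dTwoL (S55.kχ (cycloChar p)) (pPrime p) c = 0 ∧
      IsLevelConstant₂ (S55.rl (pPrime p)) c ∧
      ¬ ∃ g : S55.Gl (pPrime p) → S55.kχ (cycloChar p),
        IsLevelConstant₁ (S55.rl (pPrime p)) g ∧
          S55.dOneL (S55.kχ (cycloChar p)) (pPrime p) g = c

end Fermat.Agent.S56.GWC

end

end
-- ==== END Fermat.Agent.S56.GWC.Defs_INV

-- ==== BEGIN Fermat.Agent.S56.GWC.H01_Cone1
section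

/-!
# S56 / GW-CORE / PT2, package CONE1 (helper1): `Stmt_CONE1`

The cone sequence in degree `≤ 1`, in terms of cardinalities:
`#H¹_c(X) · #H⁰(X) = #Ш¹_S(X) · ∏_{q ∈ S} #H⁰(ℚ_q, X)`.

Inside the group `C = C¹_c` of cone 1-cochains: `Z = Z¹_c`, `B = B¹_c`,
`Kc = {y ∈ Z : y.1 is a coboundary}`, `N₀ = {(0, (n_q)) : n_q ∈ H⁰(ℚ_q, X)}`.
* `Z / Kc ≅ Ш¹_S(X)` (bridge of helper48: `shaπ1_surjective`, `isSha1_of_mem`,
  `exists_mem_of_isSha1`), so `[Z : Kc] = #Ш¹`;
* `Kc = (B ⊓ Z) ⊔ N₀`, so `[Kc : B ⊓ Z] = [N₀ : B ⊓ Z ⊓ N₀]`;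
* `B ⊓ Z ⊓ N₀ ≅ H⁰(X)` (`S` nonempty), `N₀ ≅ ∏_q H⁰(ℚ_q, X)`.
No hypothesis on the level of `X`, no finiteness is needed.
-/

set_option autoImplicit false

noncomputable section

namespace Fermat.Agent.S56.GWC.H01

open CategoryTheory groupCohomology ExtCitation Module
open Fermat.Agent

variable {k : Type} [Field k] (S : Finset Nat.Primes) (X : Rep.{0} k S55.GQ)

/-- `N₀ = {(0, (n_q)) : n_q ∈ H⁰(ℚ_q, X)}`. -/
def grpN0 : AddSubgroup (S55.C1c S X) where
  carrier := {y | y.1 = 0 ∧ ∀ q : ↥S, S55.dZeroL X q.1 (y.2 q) = 0}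
  zero_mem' := ⟨rfl, fun q => S55.dZeroL_zero X q.1⟩
  add_mem' := by
    rintro y y' ⟨h1, h2⟩ ⟨h1', h2'⟩
    refine ⟨?_, fun q => ?_⟩
    · show y.1 + y'.1 = 0
      rw [h1, h1', add_zero]
    · show S55.dZeroL X q.1 (y.2 q + y'.2 q) = 0
      rw [S55.dZeroL_add, h2 q, h2' q, add_zero]
  neg_mem' := by
    rintro y ⟨h1, h2⟩
    refine ⟨?_, fun q => ?_⟩
    · show -y.1 = 0
      rw [h1, neg_zero]
    · show S55.dZeroL X q.1 (-(y.2 q)) = 0
      have h := S55.dZeroL_sub X q.1 0 (y.2 q)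
      rw [zero_sub, S55.dZeroL_zero, h2 q, sub_zero] at h
      exact h

theorem mem_grpN0 {y : S55.C1c S X} :
    y ∈ grpN0 S X ↔ y.1 = 0 ∧ ∀ q : ↥S, S55.dZeroL X q.1 (y.2 q) = 0 := Iff.rfl

/-- `Kc = {y ∈ Z¹_c : y.1 is a coboundary}`. -/
def grpKc : AddSubgroup (S55.C1c S X) where
  carrier := {y | y ∈ grpZ1c S X ∧ ∃ m : X, y.1 = S55.dZero X m}
  zero_mem' := ⟨(grpZ1c S X).zero_mem, 0, by funext g; simp [S55.dZero]⟩
  add_mem' := by
    rintro y y' ⟨h, m, hm⟩ ⟨h', m', hm'⟩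
    refine ⟨(grpZ1c S X).add_mem h h', m + m', ?_⟩
    show y.1 + y'.1 = _
    rw [S55.dZero_add, hm, hm']
  neg_mem' := by
    rintro y ⟨h, m, hm⟩
    refine ⟨(grpZ1c S X).neg_mem h, -m, ?_⟩
    show -y.1 = _
    have e := S55.dZero_sub X 0 m
    rw [zero_sub] at e
    rw [e, hm]
    have e0 : S55.dZero X 0 = 0 := by funext g; simp [S55.dZero]
    rw [e0, zero_sub]

theorem mem_grpKc {y : S55.C1c S X} :
    y ∈ grpKc S X ↔ y ∈ grpZ1c S X ∧ ∃ m : X, y.1 = S55.dZero X m := Iff.rfl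

theorem mem_grpZ1c {y : S55.C1c S X} : y ∈ grpZ1c S X ↔ S55.IsZ1c S X y := Iff.rfl

theorem mem_grpB1c {y : S55.C1c S X} : y ∈ grpB1c S X ↔ S55.IsB1c S X y := Iff.rfl

theorem grpKc_le : grpKc S X ≤ grpZ1c S X := fun _ h => h.1

theorem inf_le_grpKc : grpB1c S X ⊓ grpZ1c S X ≤ grpKc S X := by
  rintro y ⟨⟨m, hm, -⟩, hZ⟩
  exact ⟨hZ, m, hm⟩

theorem grpN0_le : grpN0 S X ≤ grpKc S X := by
  rintro y ⟨h1, h2⟩
  refine ⟨⟨⟨?_, ?_⟩, fun q => ?_⟩, 0, ?_⟩
  · rw [h1]
    funext x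
    simp [S55.dOne]
  · rw [h1]
    exact isLevelConstantS₁_const S (0 : X)
  · rw [h1, h2 q]
    rfl
  · rw [h1]
    funext g
    simp [S55.dZero]

/-- `Kc = (B ⊓ Z) ⊔ N₀`. -/
theorem grpKc_eq_sup : grpKc S X = (grpB1c S X ⊓ grpZ1c S X) ⊔ grpN0 S X := by
  apply le_antisymm
  · rintro y ⟨hZ, m, hm⟩
    -- `y = (d m, (m)) + (0, (y.2 q - m))`
    have hZ' : S55.IsZ1c S X y := hZ
    obtain ⟨⟨hd, hl⟩, hq⟩ := hZ'
    set y₁ : S55.C1c S X := (S55.dZero X m, fun _ => m) with hy₁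
    set y₂ : S55.C1c S X := (0, fun q => y.2 q - m) with hy₂
    have hy : y = y₁ + y₂ := by
      refine Prod.ext ?_ (funext fun q => ?_)
      · show y.1 = S55.dZero X m + 0
        rw [add_zero, hm]
      · show y.2 q = m + (y.2 q - m)
        abel
    rw [hy]
    refine AddSubgroup.add_mem_sup ⟨⟨m, rfl, fun _ => rfl⟩, ⟨⟨?_, ?_⟩, fun q => rfl⟩⟩ ⟨rfl, fun q => ?_⟩
    · show S55.dOne X (S55.dZero X m) = 0
      exact S55.dOne_dZero X m
    · show IsLevelConstantS₁ S (S55.dZero X m)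
      rw [← hm]
      exact hl
    · show S55.dZeroL X q.1 (y.2 q - m) = 0
      rw [S55.dZeroL_sub, ← hq q, hm]
      exact sub_self _
  · exact sup_le (inf_le_grpKc S X) (grpN0_le S X)

/-! ### The map to `Ш¹` -/

/-- The cocycle of a cone cocycle. -/
def toCocycle : ↥(grpZ1c S X) →+ ↥(cocycles₁ X) where
  toFun y := ⟨y.1.1, (S55.H48.mem_cocycles₁_iff_dOne X _).2 y.2.1.1⟩
  map_zero' := rfl
  map_add' _ _ := rfl

theorem toCocycle_coe (y : ↥(grpZ1c S X)) :
    ((toCocycle S X y : ↥(cocycles₁ X)) : S55.GQ → X) = y.1.1 := rfl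

theorem isSha1_of_mem_grpZ1c (y : ↥(grpZ1c S X)) : S55.H48.IsSha1 S X y.1.1 :=
  ⟨y.2.1, fun q => ⟨y.1.2 q, y.2.2 q⟩⟩

theorem toCocycle_mem (h2 : (2 : k) ≠ 0) (y : ↥(grpZ1c S X)) :
    toCocycle S X y ∈ S55.H48.shaZ1 S X := by
  obtain ⟨c, hc⟩ := S55.H48.exists_mem_of_isSha1 S X h2 (isSha1_of_mem_grpZ1c S X y)
  have : toCocycle S X y = c.1 := Subtype.ext hc.symm
  rw [this]
  exact c.2

/-- The map `Z¹_c → Ш¹_S(X)`. -/
def toSha (h2 : (2 : k) ≠ 0) : ↥(grpZ1c S X) →+ ↥(sha₁ S X) where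
  toFun y := S55.H48.shaπ1 S X ⟨toCocycle S X y, toCocycle_mem S X h2 y⟩
  map_zero' := by
    apply Subtype.ext
    rw [S55.H48.shaπ1_coe]
    show (H1π X).hom (toCocycle S X 0) = 0
    rw [map_zero, map_zero]
  map_add' y y' := by
    apply Subtype.ext
    rw [S55.H48.shaπ1_coe]
    show (H1π X).hom (toCocycle S X (y + y')) = _
    rw [map_add, map_add]
    rfl

theorem toSha_surjective (h2 : (2 : k) ≠ 0) : Function.Surjective (toSha S X h2) := by
  intro β
  obtain ⟨c, rfl⟩ := S55.H48.shaπ1_surjective S X β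
  obtain ⟨hZ, hloc⟩ := S55.H48.isSha1_of_mem S X c
  choose m hm using hloc
  refine ⟨⟨(((c.1 : ↥(cocycles₁ X)) : S55.GQ → X), m), ⟨hZ, hm⟩⟩, ?_⟩
  apply Subtype.ext
  rfl

theorem toSha_ker (h2 : (2 : k) ≠ 0) :
    (toSha S X h2).ker = (grpKc S X).addSubgroupOf (grpZ1c S X) := by
  ext y
  rw [AddMonoidHom.mem_ker, AddSubgroup.mem_addSubgroupOf, mem_grpKc]
  show S55.H48.shaπ1 S X ⟨toCocycle S X y, toCocycle_mem S X h2 y⟩ = 0 ↔ _
  rw [S55.H48.shaπ1_eq_zero_iff]
  constructor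
  · rintro ⟨m, hm⟩
    exact ⟨y.2, m, hm⟩
  · rintro ⟨-, m, hm⟩
    exact ⟨m, hm⟩

theorem relIndex_grpKc (h2 : (2 : k) ≠ 0) :
    (grpKc S X).relIndex (grpZ1c S X) = Nat.card (sha₁ S X) := by
  unfold AddSubgroup.relIndex
  rw [← toSha_ker S X h2, AddSubgroup.index_ker,
    AddMonoidHom.range_eq_top.mpr (toSha_surjective S X h2)]
  exact Nat.card_congr (AddSubgroup.topEquiv).toEquiv

/-! ### The local invariants -/

/-- `N₀ ≅ ∏_q H⁰(ℚ_q, X)`. -/
def equivN0 : ↥(grpN0 S X) ≃ (∀ q : ↥S, ↥((S56.locRep X q.1).ρ.invariants)) where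
  toFun y := fun q => ⟨y.1.2 q, fun h => by
    have := congrFun (y.2.2 q) h
    simp only [S55.dZeroL, Pi.zero_apply, sub_eq_zero] at this
    exact this⟩
  invFun n := ⟨(0, fun q => (n q).1), rfl, fun q => by
    funext h
    have := (n q).2 h
    simp only [S55.dZeroL, Pi.zero_apply, sub_eq_zero]
    exact this⟩
  left_inv y := by
    apply Subtype.ext
    exact Prod.ext y.2.1.symm rfl
  right_inv n := rfl

theorem card_grpN0 :
    Nat.card ↥(grpN0 S X) = ∏ q ∈ S, Nat.card ↥((S56.locRep X q).ρ.invariants) := by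
  rw [Nat.card_congr (equivN0 S X), Nat.card_pi]
  exact Finset.prod_coe_sort S fun q => Nat.card ↥((S56.locRep X q).ρ.invariants)

/-- `B ⊓ Z ⊓ N₀ ≅ H⁰(X)` (if `S` is nonempty). -/
def equivInf (hS : S.Nonempty) :
    ↥(X.ρ.invariants) ≃ ↥((grpB1c S X ⊓ grpZ1c S X) ⊓ grpN0 S X) where
  toFun m := ⟨(0, fun _ => m.1), by
    have hd : S55.dZero X m.1 = 0 := by
      funext g
      simp only [S55.dZero, Pi.zero_apply, sub_eq_zero]
      exact m.2 g
    have hN : ((0, fun _ => m.1) : S55.C1c S X) ∈ grpN0 S X := by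
      refine ⟨rfl, fun q => ?_⟩
      funext h
      simp only [S55.dZeroL, Pi.zero_apply, sub_eq_zero]
      exact m.2 _
    exact ⟨⟨⟨m.1, hd.symm, fun _ => rfl⟩, (grpKc_le S X) (grpN0_le S X hN)⟩, hN⟩⟩
  invFun y := ⟨y.1.2 ⟨hS.choose, hS.choose_spec⟩, by
    obtain ⟨⟨⟨m, hm, hq⟩, -⟩, h1, -⟩ := y.2
    intro g
    rw [hq]
    have := congrFun (hm.symm.trans h1) g
    simp only [S55.dZero, Pi.zero_apply, sub_eq_zero] at this
    exact this⟩
  left_inv m := rfl
  right_inv y := by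
    obtain ⟨⟨⟨m, hm, hq⟩, -⟩, h1, -⟩ := y.2
    apply Subtype.ext
    refine Prod.ext h1.symm (funext fun q => ?_)
    show y.1.2 ⟨hS.choose, hS.choose_spec⟩ = y.1.2 q
    rw [hq, hq]

/-- **Package CONE1.** -/
theorem stmt_CONE1 : Stmt_CONE1 := by
  intro k _ h2 S X _ hS
  unfold cardH1c
  have e1 : (grpB1c S X).relIndex (grpZ1c S X)
      = (grpB1c S X ⊓ grpZ1c S X).relIndex (grpKc S X) * Nat.card (sha₁ S X) := by
    rw [← relIndex_grpKc S X h2,
      AddSubgroup.relIndex_mul_relIndex _ _ _ (inf_le_grpKc S X) (grpKc_le S X),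
      AddSubgroup.inf_relIndex_right]
  have e2 : (grpB1c S X ⊓ grpZ1c S X).relIndex (grpKc S X)
      = ((grpB1c S X ⊓ grpZ1c S X) ⊓ grpN0 S X).relIndex (grpN0 S X) := by
    rw [grpKc_eq_sup, AddSubgroup.relIndex_sup_left, AddSubgroup.inf_relIndex_right]
  have e3 : Nat.card ↥((grpB1c S X ⊓ grpZ1c S X) ⊓ grpN0 S X)
      * ((grpB1c S X ⊓ grpZ1c S X) ⊓ grpN0 S X).relIndex (grpN0 S X)
      = Nat.card ↥(grpN0 S X) := by
    have := AddSubgroup.relIndex_mul_relIndex (⊥ : AddSubgroup (S55.C1c S X))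
      ((grpB1c S X ⊓ grpZ1c S X) ⊓ grpN0 S X) (grpN0 S X) bot_le inf_le_right
    rwa [AddSubgroup.relIndex_bot_left, AddSubgroup.relIndex_bot_left] at this
  rw [e1, e2, ← card_grpN0, ← e3, Nat.card_congr (equivInf S X hS)]
  ring

end Fermat.Agent.S56.GWC.H01

end

end
-- ==== END Fermat.Agent.S56.GWC.H01_Cone1

-- ==== BEGIN Fermat.Agent.S56.GWC.H46_DD
section

set_option autoImplicit false

noncomputable section

namespace Fermat.Agent.S56.GWC.H46

open CategoryTheory groupCohomology ExtCitation Module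

variable {k : Type} [Field k]

/-- The map induced on cone 1-cochains by an additive map of the coefficients. -/
def coneMap (S : Finset Nat.Primes) (X Y : Rep.{0} k S55.GQ) (e : X →+ Y) :
    S55.C1c S X →+ S55.C1c S Y where
  toFun y := (fun g => e (y.1 g), fun q => e (y.2 q))
  map_zero' := by
    ext <;> simp
  map_add' y y' := by
    ext <;> simp

lemma coneMap_injective (S : Finset Nat.Primes) (X Y : Rep.{0} k S55.GQ) (e : X →+ Y)
    (he : Function.Injective e) : Function.Injective (coneMap S X Y e) := by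
  intro y y' h
  have h1 : ∀ g, e (y.1 g) = e (y'.1 g) := fun g => congrFun (congrArg Prod.fst h) g
  have h2 : ∀ q, e (y.2 q) = e (y'.2 q) := fun q => congrFun (congrArg Prod.snd h) q
  refine Prod.ext (funext fun g => he (h1 g)) (funext fun q => he (h2 q))

section transport

variable (S : Finset Nat.Primes) (X Y : Rep.{0} k S55.GQ) (e : X ≃+ Y)
  (he : ∀ (g : S55.GQ) (x : X), e (X.ρ g x) = Y.ρ g (e x))

include he in
lemma isZ1c_coneMap (y : S55.C1c S X) (hy : S55.IsZ1c S X y) :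
    S55.IsZ1c S Y (coneMap S X Y e.toAddMonoidHom y) := by
  obtain ⟨⟨hd, hl⟩, hq⟩ := hy
  refine ⟨⟨?_, hl.comp e⟩, fun q => ?_⟩
  · funext t
    have := congrFun hd t
    simp only [S55.dOne, Pi.zero_apply] at this ⊢
    show Y.ρ t.1 (e (y.1 t.2)) - e (y.1 (t.1 * t.2)) + e (y.1 t.1) = 0
    rw [← he, ← map_sub, ← map_add, this, map_zero]
  · funext h
    have := congrFun (hq q) h
    simp only [S55.resOne, S55.dZeroL] at this ⊢
    show e (y.1 (S55.rl q.1 h)) = Y.ρ (S55.rl q.1 h) (e (y.2 q)) - e (y.2 q)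
    rw [this, map_sub, he]

include he in
lemma isB1c_coneMap (y : S55.C1c S X) (hy : S55.IsB1c S X y) :
    S55.IsB1c S Y (coneMap S X Y e.toAddMonoidHom y) := by
  obtain ⟨m, hm, hq⟩ := hy
  refine ⟨e m, ?_, fun q => ?_⟩
  · funext g
    show e (y.1 g) = Y.ρ g (e m) - e m
    rw [hm, ← he, ← map_sub]
    rfl
  · show e (y.2 q) = e m
    rw [hq q]

end transport

/-- `#H¹_c` only depends on the coefficient module up to equivariant additive bijection. -/
theorem cardH1c_congr (S : Finset Nat.Primes) (X Y : Rep.{0} k S55.GQ) (e : X ≃+ Y)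
    (he : ∀ (g : S55.GQ) (x : X), e (X.ρ g x) = Y.ρ g (e x)) :
    cardH1c S Y = cardH1c S X := by
  have he' : ∀ (g : S55.GQ) (x : Y), e.symm (Y.ρ g x) = X.ρ g (e.symm x) := by
    intro g x
    apply e.injective
    rw [he, e.apply_symm_apply, e.apply_symm_apply]
  have hZ : (grpZ1c S X).map (coneMap S X Y e.toAddMonoidHom) = grpZ1c S Y := by
    ext y
    constructor
    · rintro ⟨x, hx, rfl⟩
      exact isZ1c_coneMap S X Y e he x hx
    · intro hy
      refine ⟨coneMap S Y X e.symm.toAddMonoidHom y, isZ1c_coneMap S Y X e.symm he' y hy, ?_⟩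
      refine Prod.ext (funext fun g => ?_) (funext fun q => ?_)
      · exact e.apply_symm_apply _
      · exact e.apply_symm_apply _
  have hB : (grpB1c S X).map (coneMap S X Y e.toAddMonoidHom) = grpB1c S Y := by
    ext y
    constructor
    · rintro ⟨x, hx, rfl⟩
      exact isB1c_coneMap S X Y e he x hx
    · intro hy
      refine ⟨coneMap S Y X e.symm.toAddMonoidHom y, isB1c_coneMap S Y X e.symm he' y hy, ?_⟩
      refine Prod.ext (funext fun g => ?_) (funext fun q => ?_)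
      · exact e.apply_symm_apply _
      · exact e.apply_symm_apply _
  unfold cardH1c
  rw [← hZ, ← hB]
  exact AddSubgroup.relIndex_map_map_of_injective _ _
    (coneMap_injective S X Y e.toAddMonoidHom e.injective)

/-- **Package DD**. -/
theorem stmt_DD : Stmt_DD := by
  intro k _ S χ X hfd
  refine cardH1c_congr S X (S55.Md χ (S55.Md χ X))
    ((Module.evalEquiv k X).toAddEquiv) ?_
  intro g x
  apply LinearMap.ext
  intro φ
  show φ (X.ρ g x) = (χ g : k) • ((χ g⁻¹ : k) • φ (X.ρ g⁻¹⁻¹ x))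
  rw [inv_inv, smul_smul, map_inv, Units.mul_inv, one_smul]

end Fermat.Agent.S56.GWC.H46

end

end
-- ==== END Fermat.Agent.S56.GWC.H46_DD

-- ==== BEGIN Fermat.Agent.S56.GWC.H46_DualCount
section

set_option autoImplicit false

noncomputable section

namespace Fermat.Agent.S56.GWC.H46

open CategoryTheory groupCohomology ExtCitation Module
open Fermat.Agent.S55

variable {k : Type} [Field k] {S : Finset Nat.Primes} {χ : _root_.Fermat.Agent.S56.GQ →* kˣ}

/-- For a 2-cocycle `a`, the cup product with a cone 1-coboundary is a cone differential. -/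
lemma cupB1_coboundary (Y : Rep.{0} k _root_.Fermat.Agent.S56.GQ) (a : _root_.Fermat.Agent.S56.GQ × _root_.Fermat.Agent.S56.GQ → Y) (hd : dTwo Y a = 0) (m' : Md χ Y) :
    cupB1 S χ Y a (dZero (Md χ Y) m', fun _ => m') =
      dCone2 S (kχ χ) (cupA20 χ Y ((a, 0) : C2c S Y) m') := by
  rw [dCone2_cupA20]
  refine Prod.ext (funext fun t => ?_) (funext fun q => funext fun t => ?_)
  · obtain ⟨g₁, g₂, g₃⟩ := t
    simp only [cupB1, cupA3, cupA2, dCone2, Prod.fst_add, Pi.add_apply, hd, Pi.zero_apply,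
      ev_zero_left, zero_add]
  · obtain ⟨h₁, h₂⟩ := t
    simp only [cupB1, cupA3, cupA2, dCone2, Prod.snd_add, Pi.add_apply, Pi.zero_apply,
      ev_zero_left, add_zero, resTwo, Pi.sub_apply]
    have : dOneL Y q.1 (0 : Gl q.1 → Y) (h₁, h₂) = 0 := by
      simp [dOneL]
    rw [this, sub_zero]

/-- The trace of `a ∪ y` vanishes for a level-`S` 2-cocycle `a` and a cone 1-coboundary `y`. -/
theorem tr_cupB1_coboundary (hχ : LevChar S χ) (Y : Rep.{0} k _root_.Fermat.Agent.S56.GQ) (hY : Lev S Y)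
    (tr : Trace S χ) {a : _root_.Fermat.Agent.S56.GQ × _root_.Fermat.Agent.S56.GQ → Y} (ha : IsZ2S S Y a) {y : C1c S (Md χ Y)}
    (hy : IsB1c S (Md χ Y) y) : tr.toFun (cupB1 S χ Y a y) = 0 := by
  obtain ⟨m', h1, h2⟩ := hy
  have hy' : y = (dZero (Md χ Y) m', fun _ => m') := Prod.ext h1 (funext h2)
  rw [hy', cupB1_coboundary Y a ha.1 m']
  have hNC : NC S := fun F hF => H48.exists_normal_level S F hF
  obtain ⟨l1, l2⟩ := lev_cupA20 (x := ((a, 0) : C2c S Y)) χ Y hNC hχ hY ha.2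
    (fun q : ↥S => isLevelConstant₁_const (rl q.1) (0 : Y)) m'
  exact tr.zero_of_isB3c _ (isB3c_dCone2 l1 l2)

section pairing

variable (hχ : LevChar S χ) (Y : Rep.{0} k _root_.Fermat.Agent.S56.GQ) (hY : Lev S Y) (tr : Trace S χ)

/-- The functional `a ↦ tr (a ∪ y)` on `Z²_S(Y)`. -/
def pairZ2 (y : C1c S (Md χ Y)) : ↥(levelCocyclesS₂ S Y) →ₗ[k] k :=
  tr.toFun ∘ₗ (cupB1ₗ S χ Y y) ∘ₗ (levelCocyclesS₂ S Y).subtype

@[simp] lemma pairZ2_apply (y : C1c S (Md χ Y)) (a : ↥(levelCocyclesS₂ S Y)) :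
    pairZ2 Y tr y a = tr.toFun (cupB1 S χ Y (a : _root_.Fermat.Agent.S56.GQ × _root_.Fermat.Agent.S56.GQ → Y) y) := rfl

include hχ hY in
lemma pairZ2_vanish {y : C1c S (Md χ Y)} (hy : IsZ1c S (Md χ Y) y) :
    (levelCoboundariesS₂ S Y).comap (levelCocyclesS₂ S Y).subtype ≤
      LinearMap.ker (pairZ2 Y tr y) := by
  intro a ha
  rw [Submodule.mem_comap] at ha
  obtain ⟨f, hf, hfa⟩ := (mem_levelCoboundariesS₂_iff S Y _).1 ha
  rw [LinearMap.mem_ker, pairZ2_apply]
  have e : ((levelCocyclesS₂ S Y).subtype a : _root_.Fermat.Agent.S56.GQ × _root_.Fermat.Agent.S56.GQ → Y) = dOne Y f := hfa.symm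
  have e' : (a : _root_.Fermat.Agent.S56.GQ × _root_.Fermat.Agent.S56.GQ → Y) = dOne Y f := e
  rw [e']
  exact H48.tr_cupB1_dOne (fun F hF => H48.exists_normal_level S F hF) hχ hY tr hy hf

/-- The induced functional on `H²_S(Y)`. -/
def pairH2 {y : C1c S (Md χ Y)} (hy : IsZ1c S (Md χ Y) y) : continuousH2S S Y →ₗ[k] k :=
  Submodule.liftQ _ (pairZ2 Y tr y) (pairZ2_vanish hχ Y hY tr hy)

lemma pairH2_mk {y : C1c S (Md χ Y)} (hy : IsZ1c S (Md χ Y) y) (a : ↥(levelCocyclesS₂ S Y)) :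
    pairH2 hχ Y hY tr hy (continuousH2Sπ S Y a) = tr.toFun (cupB1 S χ Y (a : _root_.Fermat.Agent.S56.GQ × _root_.Fermat.Agent.S56.GQ → Y) y) :=
  rfl

/-- `Ψ : Z¹_c(Y') → H²_S(Y)^∨`. -/
def Psi : ↥(grpZ1c S (Md χ Y)) →+ (continuousH2S S Y →ₗ[k] k) where
  toFun y := pairH2 hχ Y hY tr y.2
  map_zero' := by
    apply LinearMap.ext
    intro x
    obtain ⟨a, rfl⟩ := Submodule.mkQ_surjective _ x
    show tr.toFun (cupB1 S χ Y (a : _root_.Fermat.Agent.S56.GQ × _root_.Fermat.Agent.S56.GQ → Y) 0) = 0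
    have : cupB1 S χ Y (a : _root_.Fermat.Agent.S56.GQ × _root_.Fermat.Agent.S56.GQ → Y) (0 : C1c S (Md χ Y)) = 0 := by
      refine Prod.ext (funext fun t => ?_) (funext fun q => funext fun t => ?_) <;>
        simp [cupB1]
    rw [this, map_zero]
  map_add' y y' := by
    apply LinearMap.ext
    intro x
    obtain ⟨a, rfl⟩ := Submodule.mkQ_surjective _ x
    show tr.toFun (cupB1 S χ Y (a : _root_.Fermat.Agent.S56.GQ × _root_.Fermat.Agent.S56.GQ → Y) (y.1 + y'.1)) =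
      tr.toFun (cupB1 S χ Y (a : _root_.Fermat.Agent.S56.GQ × _root_.Fermat.Agent.S56.GQ → Y) y.1) + tr.toFun (cupB1 S χ Y (a : _root_.Fermat.Agent.S56.GQ × _root_.Fermat.Agent.S56.GQ → Y) y'.1)
    rw [cupB1_add_right, map_add]

lemma Psi_apply_mk (y : ↥(grpZ1c S (Md χ Y))) (a : ↥(levelCocyclesS₂ S Y)) :
    Psi hχ Y hY tr y (continuousH2Sπ S Y a) =
      tr.toFun (cupB1 S χ Y (a : _root_.Fermat.Agent.S56.GQ × _root_.Fermat.Agent.S56.GQ → Y) y.1) := rfl

lemma mem_levelCocyclesS₂_iff_isZ2S (a : _root_.Fermat.Agent.S56.GQ × _root_.Fermat.Agent.S56.GQ → Y) :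
    a ∈ levelCocyclesS₂ S Y ↔ IsZ2S S Y a := by
  rw [mem_levelCocyclesS₂_iff, H48.mem_cocycles₂_iff_dTwo]
  rfl

include hχ hY in
/-- The kernel of `Ψ` is `B¹_c` (`β¹` mono). -/
lemma ker_Psi (hmono : BetaOneMono tr Y) :
    (Psi hχ Y hY tr).ker = (grpB1c S (Md χ Y)).addSubgroupOf (grpZ1c S (Md χ Y)) := by
  ext y
  rw [AddMonoidHom.mem_ker, AddSubgroup.mem_addSubgroupOf]
  constructor
  · intro h
    refine hmono y.1 y.2 (fun a ha => ?_)
    have := LinearMap.congr_fun h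
      (continuousH2Sπ S Y ⟨a, (mem_levelCocyclesS₂_iff_isZ2S Y a).2 ha⟩)
    rw [Psi_apply_mk] at this
    exact this
  · intro h
    apply LinearMap.ext
    intro x
    obtain ⟨a, rfl⟩ := Submodule.mkQ_surjective _ x
    show tr.toFun (cupB1 S χ Y (a : _root_.Fermat.Agent.S56.GQ × _root_.Fermat.Agent.S56.GQ → Y) y.1) = 0
    exact tr_cupB1_coboundary hχ Y hY tr ((mem_levelCocyclesS₂_iff_isZ2S Y a).1 a.2) h

include hχ hY in
/-- `Ψ` is onto (`β¹` epi). -/
lemma Psi_surjective (hepi : BetaOneEpi tr Y) : Function.Surjective (Psi hχ Y hY tr) := by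
  intro ψ
  obtain ⟨φ, hφ⟩ := LinearMap.exists_extend (ψ ∘ₗ continuousH2Sπ S Y)
  have hφ' : ∀ a : ↥(levelCocyclesS₂ S Y), φ (a : _root_.Fermat.Agent.S56.GQ × _root_.Fermat.Agent.S56.GQ → Y) = ψ (continuousH2Sπ S Y a) :=
    fun a => LinearMap.congr_fun hφ a
  have hNC : NC S := fun F hF => H48.exists_normal_level S F hF
  obtain ⟨y, hy, hyφ⟩ := hepi φ (fun a ha => by
    obtain ⟨f, hf, hfa⟩ := ha
    have hZ : IsZ2S S Y a := by
      rw [← hfa]
      exact ⟨dTwo_dOne Y f, isLevelConstantS₂_dOne Y hNC hY hf⟩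
    have hmem : a ∈ levelCocyclesS₂ S Y := (mem_levelCocyclesS₂_iff_isZ2S Y a).2 hZ
    have h0 : continuousH2Sπ S Y ⟨a, hmem⟩ = 0 := by
      rw [continuousH2Sπ_eq_zero_iff]
      exact (mem_levelCoboundariesS₂_iff S Y a).2 ⟨f, hf, hfa⟩
    have := hφ' ⟨a, hmem⟩
    rw [h0, map_zero] at this
    exact this)
  refine ⟨⟨y, hy⟩, ?_⟩
  apply LinearMap.ext
  intro x
  obtain ⟨a, rfl⟩ := Submodule.mkQ_surjective _ x
  rw [Psi_apply_mk]
  show tr.toFun (cupB1 S χ Y (a : _root_.Fermat.Agent.S56.GQ × _root_.Fermat.Agent.S56.GQ → Y) y) = _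
  rw [hyφ _ ((mem_levelCocyclesS₂_iff_isZ2S Y a).1 a.2), hφ']

end pairing

/-- A vector space over a finite field with finite dual is finite, of the same cardinality. -/
lemma card_eq_card_dual (k : Type) [Field k] [Finite k] (V : Type) [AddCommGroup V] [Module k V]
    (h : Finite (V →ₗ[k] k)) : Finite V ∧ Nat.card V = Nat.card (V →ₗ[k] k) := by
  have h1 : Finite ((V →ₗ[k] k) →ₗ[k] k) :=
    Finite.of_injective (fun f => (f : (V →ₗ[k] k) → k)) DFunLike.coe_injective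
  have h2 : Finite V := Finite.of_injective _ (Module.eval_apply_injective k (V := V))
  have h3 : Module.Finite k V := Module.Finite.of_finite
  refine ⟨h2, ?_⟩
  exact Nat.card_congr (Module.finBasis k V).toDualEquiv.toEquiv

/-- **Package DUALCOUNT**. -/
theorem stmt_DUALCOUNT : Stmt_DUALCOUNT := by
  intro k _ _ S χ tr hχ Y hY hepi hmono hcard
  have hiso := QuotientAddGroup.quotientKerEquivOfSurjective (Psi hχ Y hY tr)
    (Psi_surjective hχ Y hY tr hepi)
  have hc : cardH1c S (Md χ Y) = Nat.card (continuousH2S S Y →ₗ[k] k) := by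
    unfold cardH1c
    rw [AddSubgroup.relIndex, ← ker_Psi hχ Y hY tr hmono, AddSubgroup.index_eq_card]
    exact Nat.card_congr hiso.toEquiv
  have hfin : Finite (continuousH2S S Y →ₗ[k] k) := by
    apply Nat.finite_of_card_ne_zero
    rw [← hc]
    exact hcard
  obtain ⟨h1, h2⟩ := card_eq_card_dual k (continuousH2S S Y) hfin
  exact ⟨h1, h2.trans hc.symm⟩

end Fermat.Agent.S56.GWC.H46

end

end
-- ==== END Fermat.Agent.S56.GWC.H46_DualCount
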