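-- GENERATED (merged mirror, NOTES/tools/trim/merge3_helper67.py): 1 modules of the originals, bodies verbatim.
import Fermat.Agent.Zm.S56_L09_005
import Fermat.Agent.Zm.S56_L07_002
import Fermat.Agent.Zm.S56_L08_000

-- ==== BEGIN Fermat.Agent.S55.CFT.GS.H6_CD
section

set_option autoImplicit false
set_option linter.unusedSectionVars false

open scoped Pointwise NumberField

noncomputable section

namespace Fermat.Agent.S55.CFT.GS.H6

open Fermat.Agent.S55 Fermat.Agent.S55.Top Fermat.Agent.Lib.FrobExists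
  Fermat.Agent.Lib.InertiaBridge Fermat.Agent.Lib.Minkowski Fermat.Agent.Lib.UnramVal
  IsDedekindDomain

local notation "Qb" => AlgebraicClosure ℚ

/-! ### `Ω` is a Galois-stable subfield -/

section omega

variable {S : Finset Nat.Primes}

theorem inOm_one : InOm S (1 : Qb) := ⟨⊥, IntermediateField.isUnramifiedOutside_bot S, one_mem _⟩

theorem inOm_natCast (n : ℕ) : InOm S (n : Qb) :=
  ⟨⊥, IntermediateField.isUnramifiedOutside_bot S, natCast_mem _ n⟩

theorem inOm_mul {x y : Qb} (hx : InOm S x) (hy : InOm S y) : InOm S (x * y) := by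
  obtain ⟨F, hF, hxF⟩ := hx
  obtain ⟨F', hF', hyF'⟩ := hy
  exact ⟨F ⊔ F', hF.sup hF', mul_mem ((le_sup_left : F ≤ F ⊔ F') hxF)
    ((le_sup_right : F' ≤ F ⊔ F') hyF')⟩

theorem inOm_inv {x : Qb} (hx : InOm S x) : InOm S x⁻¹ := by
  obtain ⟨F, hF, hxF⟩ := hx
  exact ⟨F, hF, inv_mem hxF⟩

theorem inOm_div {x y : Qb} (hx : InOm S x) (hy : InOm S y) : InOm S (x / y) := by
  rw [div_eq_mul_inv]
  exact inOm_mul hx (inOm_inv hy)

theorem inOm_pow {x : Qb} (hx : InOm S x) (n : ℕ) : InOm S (x ^ n) := by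
  obtain ⟨F, hF, hxF⟩ := hx
  exact ⟨F, hF, pow_mem hxF n⟩

theorem inOm_map {x : Qb} (hx : InOm S x) (g : GQ) : InOm S (g x) := by
  obtain ⟨F, hF, hxF⟩ := hx
  obtain ⟨F', hle, hF', hn⟩ := Fermat.Agent.S55.H48.exists_normal_level S F hF
  exact ⟨F', hF', map_mem_of_normal F' hn g x (hle hxF)⟩

theorem inOm_of_mem {K : IntermediateField ℚ Qb} (hK : K.IsUnramifiedOutside S) {x : Qb}
    (hx : x ∈ K) : InOm S x := ⟨K, hK, hx⟩

end omega

/-! ### The subgroups -/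

section subgroups

variable (S : Finset Nat.Primes) (p : ℕ) (K : IntermediateField ℚ Qb)

/-- `Kˣ` as a subgroup of `ℚ̄ˣ`. -/
def KxSub : Subgroup Qbˣ where
  carrier := Kx K
  mul_mem' := fun {a b} ha hb => by
    show ((a * b : Qbˣ) : Qb) ∈ K
    rw [Units.val_mul]; exact mul_mem ha hb
  one_mem' := by
    show ((1 : Qbˣ) : Qb) ∈ K
    rw [Units.val_one]; exact one_mem _
  inv_mem' := fun {a} ha => by
    show ((a⁻¹ : Qbˣ) : Qb) ∈ K
    rw [Units.val_inv_eq_inv_val]; exact inv_mem ha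

/-- `W = (Ωˣ)ᵖ` as a subgroup of `ℚ̄ˣ`. -/
def WSub : Subgroup Qbˣ where
  carrier := {x | InW S p x}
  mul_mem' := by
    rintro a b ⟨t, ht, rfl⟩ ⟨s, hs, rfl⟩
    refine ⟨t * s, ?_, mul_pow t s p⟩
    rw [Units.val_mul]; exact inOm_mul ht hs
  one_mem' := ⟨1, by rw [Units.val_one]; exact inOm_one, one_pow p⟩
  inv_mem' := by
    rintro a ⟨t, ht, rfl⟩
    refine ⟨t⁻¹, ?_, inv_pow t p⟩
    rw [Units.val_inv_eq_inv_val]; exact inOm_inv ht

/-- `T` as a subgroup of `ℚ̄ˣ`. -/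
def TSub : Subgroup Qbˣ where
  carrier := TK S p K
  mul_mem' := by
    rintro a b ⟨ha, ha'⟩ ⟨hb, hb'⟩
    refine ⟨by rw [Units.val_mul]; exact inOm_mul ha hb, fun g => ?_⟩
    have h1 : g • (a * b) / (a * b) = (g • a / a) * (g • b / b) := by
      rw [smul_mul', div_mul_div_comm]
    rw [h1]
    exact (WSub S p).mul_mem (ha' g) (hb' g)
  one_mem' := by
    refine ⟨by rw [Units.val_one]; exact inOm_one, fun g => ?_⟩
    rw [smul_one, div_one]
    exact (WSub S p).one_mem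
  inv_mem' := by
    rintro a ⟨ha, ha'⟩
    refine ⟨by rw [Units.val_inv_eq_inv_val]; exact inOm_inv ha, fun g => ?_⟩
    have h1 : g • a⁻¹ / a⁻¹ = (g • a / a)⁻¹ := by
      rw [smul_inv', inv_div_inv, inv_div]
    rw [h1]
    exact (WSub S p).inv_mem (ha' g)

/-- `U_K` as a subgroup of `ℚ̄ˣ`. -/
def USub : Subgroup Qbˣ where
  carrier := UK S K
  mul_mem' := by
    rintro a b ⟨ha, ha1, ha2⟩ ⟨hb, hb1, hb2⟩
    refine ⟨by rw [Units.val_mul]; exact mul_mem ha hb,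
      by rw [Units.val_mul]; exact inOm_mul ha1 hb1, fun q hq A hA => ?_⟩
    rw [Units.val_mul, map_mul, ha2 q hq A hA, hb2 q hq A hA, one_mul]
  one_mem' := by
    refine ⟨by rw [Units.val_one]; exact one_mem _, by rw [Units.val_one]; exact inOm_one,
      fun q hq A hA => ?_⟩
    rw [Units.val_one, map_one]
  inv_mem' := by
    rintro a ⟨ha, ha1, ha2⟩
    refine ⟨by rw [Units.val_inv_eq_inv_val]; exact inv_mem ha,
      by rw [Units.val_inv_eq_inv_val]; exact inOm_inv ha1, fun q hq A hA => ?_⟩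
    rw [Units.val_inv_eq_inv_val, map_inv₀, ha2 q hq A hA, inv_one]

/-- `V_S = Kˣ ∩ W`. -/
def VSub : Subgroup Qbˣ := KxSub K ⊓ WSub S p

/-- `U_K Kˣᵖ`. -/
def V'Sub : Subgroup Qbˣ where
  carrier := UKP S p K
  mul_mem' := by
    rintro a b ⟨u, c, hu, hc, rfl⟩ ⟨u', c', hu', hc', rfl⟩
    refine ⟨u * u', c * c', (USub S K).mul_mem hu hu', (KxSub K).mul_mem hc hc', ?_⟩
    rw [mul_pow]
    exact mul_mul_mul_comm u (c ^ p) u' (c' ^ p)
  one_mem' := ⟨1, 1, (USub S K).one_mem, (KxSub K).one_mem, by rw [one_pow, one_mul]⟩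
  inv_mem' := by
    rintro a ⟨u, c, hu, hc, rfl⟩
    refine ⟨u⁻¹, c⁻¹, (USub S K).inv_mem hu, (KxSub K).inv_mem hc, ?_⟩
    rw [mul_inv, inv_pow]

/-- `Kˣ W`. -/
def T'Sub : Subgroup Qbˣ where
  carrier := KW S p K
  mul_mem' := by
    rintro a b ⟨c, s, hc, hs, rfl⟩ ⟨c', s', hc', hs', rfl⟩
    refine ⟨c * c', s * s', (KxSub K).mul_mem hc hc', by rw [Units.val_mul]; exact inOm_mul hs hs', ?_⟩
    rw [mul_pow]
    exact mul_mul_mul_comm c (s ^ p) c' (s' ^ p)
  one_mem' := ⟨1, 1, (KxSub K).one_mem, by rw [Units.val_one]; exact inOm_one,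
    by rw [one_pow, one_mul]⟩
  inv_mem' := by
    rintro a ⟨c, s, hc, hs, rfl⟩
    refine ⟨c⁻¹, s⁻¹, (KxSub K).inv_mem hc, by rw [Units.val_inv_eq_inv_val]; exact inOm_inv hs, ?_⟩
    rw [mul_inv, inv_pow]

end subgroups

/-! ### The divisor map -/

section datum

variable (S : Finset Nat.Primes) (K : IntermediateField ℚ Qb) [FiniteDimensional ℚ K]

attribute [local instance] numberField_K

/-- The primes of `K` under the places of `ℚ̄` over the primes outside `S`. -/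
def PSet : Set (HeightOneSpectrum (𝓞 K)) :=
  {v | ∃ (q : Nat.Primes) (_ : q ∉ S) (A : ValuationSubring Qb) (hA : A.LiesOverPrime (q : ℕ)),
    v = vBelow K q q.2 A hA}

variable {S K}

/-- The residue characteristic of `v`. -/
def qOf (v : PSet S K) : Nat.Primes := v.2.choose

theorem qOf_notMem (v : PSet S K) : qOf v ∉ S := v.2.choose_spec.choose

/-- The chosen place of `ℚ̄` over `v`. -/
def AOf (v : PSet S K) : ValuationSubring Qb := v.2.choose_spec.choose_spec.choose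

theorem AOf_lies (v : PSet S K) : (AOf v).LiesOverPrime (qOf v : ℕ) :=
  v.2.choose_spec.choose_spec.choose_spec.choose

theorem vBelow_AOf (v : PSet S K) :
    (v : HeightOneSpectrum (𝓞 K)) = vBelow K (qOf v) (qOf v).2 (AOf v) (AOf_lies v) :=
  v.2.choose_spec.choose_spec.choose_spec.choose_spec

theorem vBelow_mem_PSet (q : Nat.Primes) (hq : q ∉ S) (A : ValuationSubring Qb)
    (hA : A.LiesOverPrime (q : ℕ)) : vBelow K q q.2 A hA ∈ PSet S K :=
  ⟨q, hq, A, hA, rfl⟩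

/-- The order of `x` at `A` (`0` if it does not exist). -/
def ordZ (A : ValuationSubring Qb) (q : ℕ) (x : Qb) : ℤ :=
  haveI := Classical.propDecidable (∃ k : ℤ, IsOrd A q x k)
  if h : ∃ k : ℤ, IsOrd A q x k then h.choose else 0

theorem ordZ_eq {A : ValuationSubring Qb} {q : ℕ} (hq : q.Prime) (hA : A.LiesOverPrime q)
    {x : Qb} {k : ℤ} (h : IsOrd A q x k) : ordZ A q x = k := by
  have hex : ∃ k : ℤ, IsOrd A q x k := ⟨k, h⟩
  rw [ordZ, dif_pos hex]
  exact hex.choose_spec.unique hq hA h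

theorem isOrd_ordZ (q : Nat.Primes) (hq : q ∉ S) (A : ValuationSubring Qb)
    (hA : A.LiesOverPrime (q : ℕ)) (x : Qb) (hx : x ≠ 0) (hΩ : InOm S x) :
    IsOrd A (q : ℕ) x (ordZ A (q : ℕ) x) := by
  obtain ⟨k, hk⟩ := exists_isOrd S q hq A hA x hx hΩ
  rw [ordZ_eq q.2 hA hk]
  exact hk

variable (S K)

/-- The divisor of `x`, as a function. -/
def epsFun (x : Qbˣ) : PSet S K → ℤ := fun v => ordZ (AOf v) (qOf v : ℕ) (x : Qb)

theorem finite_support_epsFun (x : Qbˣ) : (Function.support (epsFun S K x)).Finite := by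
  obtain ⟨N, hN0, hN⟩ := exists_bound_unit (x : Qb) x.ne_zero
  have hN0' : Ideal.span {(N : 𝓞 K)} ≠ 0 := by
    rw [Ne, Ideal.zero_eq_bot, Ideal.span_singleton_eq_bot]
    exact_mod_cast hN0
  have hfin := Ideal.finite_factors hN0'
  refine (hfin.preimage (Subtype.val_injective.injOn)).subset ?_
  intro v hv
  rw [Function.mem_support] at hv
  show (v : HeightOneSpectrum (𝓞 K)).asIdeal ∣ Ideal.span {(N : 𝓞 K)}
  rw [Ideal.dvd_iff_le, Ideal.span_singleton_le_iff_mem]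
  by_contra hmem
  apply hv
  have hnd : ¬ ((qOf v : ℕ) : ℤ) ∣ N := by
    rintro ⟨m, rfl⟩
    apply hmem
    have h1 : (((qOf v : ℕ) : 𝓞 K)) ∈ (v : HeightOneSpectrum (𝓞 K)).asIdeal := by
      rw [vBelow_AOf v]
      exact natCast_mem_primeBelow K (AOf v) (qOf v) (AOf_lies v)
    have h2 : (((((qOf v : ℕ) : ℤ) * m : ℤ)) : 𝓞 K) = ((qOf v : ℕ) : 𝓞 K) * (m : 𝓞 K) := by
      push_cast; rfl
    rw [h2]
    exact Ideal.mul_mem_right _ _ h1
  have h3 := hN (qOf v) (qOf v).2 hnd (AOf v) (AOf_lies v)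
  exact ordZ_eq (qOf v).2 (AOf_lies v) (isOrd_zero_iff.mpr h3)

/-- The divisor of `x` outside `S`. -/
def eps (x : Qbˣ) : PSet S K →₀ ℤ :=
  Finsupp.ofSupportFinite (epsFun S K x) (finite_support_epsFun S K x)

theorem eps_apply (x : Qbˣ) (v : PSet S K) :
    eps S K x v = ordZ (AOf v) (qOf v : ℕ) (x : Qb) := rfl

variable {S K}

theorem isOrd_eps (x : Qbˣ) (hx : InOm S (x : Qb)) (v : PSet S K) :
    IsOrd (AOf v) (qOf v : ℕ) (x : Qb) (eps S K x v) :=
  isOrd_ordZ (qOf v) (qOf_notMem v) (AOf v) (AOf_lies v) (x : Qb) x.ne_zero hx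

theorem eps_eq_of_isOrd (x : Qbˣ) (v : PSet S K) (k : ℤ)
    (h : IsOrd (AOf v) (qOf v : ℕ) (x : Qb) k) : eps S K x v = k :=
  ordZ_eq (qOf v).2 (AOf_lies v) h

theorem eps_mul (x y : Qbˣ) (hx : InOm S (x : Qb)) (hy : InOm S (y : Qb)) :
    eps S K (x * y) = eps S K x + eps S K y := by
  ext v
  rw [Finsupp.add_apply]
  apply eps_eq_of_isOrd
  rw [Units.val_mul]
  exact (isOrd_eps x hx v).mul (qOf v).2 (isOrd_eps y hy v)

theorem eps_pow (x : Qbˣ) (hx : InOm S (x : Qb)) (n : ℕ) :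
    eps S K (x ^ n) = n • eps S K x := by
  ext v
  rw [Finsupp.smul_apply, nsmul_eq_mul]
  apply eps_eq_of_isOrd
  rw [Units.val_pow_eq_pow_val]
  exact (isOrd_eps x hx v).pow n

/-- On `Kˣ` the divisor is the divisor of the number field `K`. -/
theorem eps_of_mem (hK : K.IsUnramifiedOutside S) (x : Qbˣ) (hx : (x : Qb) ∈ K)
    (v : PSet S K) : eps S K x v = ordAt (v : HeightOneSpectrum (𝓞 K)) (⟨(x : Qb), hx⟩ : K) := by
  apply eps_eq_of_isOrd
  have h0 : (⟨(x : Qb), hx⟩ : K) ≠ 0 := fun h => x.ne_zero (congrArg Subtype.val h)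
  have h1 := isOrd_of_mem hK (qOf v) (qOf_notMem v) (AOf v) (AOf_lies v) ⟨(x : Qb), hx⟩ h0
  rw [← vBelow_AOf v] at h1
  exact h1

end datum

/-! ### The hypotheses of CD-ABS -/

section hyps

variable {S : Finset Nat.Primes} {p : ℕ} {K : IntermediateField ℚ Qb} [FiniteDimensional ℚ K]

attribute [local instance] numberField_K

theorem smul_eq_of_mem (g : ↥K.fixingSubgroup) (a : Qbˣ) (ha : (a : Qb) ∈ K) : g • a = a := by
  apply Units.ext
  show (g : GQ) (a : Qb) = (a : Qb)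
  exact (IntermediateField.mem_fixingSubgroup_iff K (g : GQ)).mp g.2 _ ha

theorem kx_le_T (hK : K.IsUnramifiedOutside S) : KxSub K ≤ TSub S p K := by
  intro a ha
  refine ⟨inOm_of_mem hK ha, fun g => ?_⟩
  rw [smul_eq_of_mem g a ha, div_self']
  exact (WSub S p).one_mem

theorem w_le_T : WSub S p ≤ TSub S p K := by
  rintro _ ⟨t, ht, rfl⟩
  refine ⟨by rw [Units.val_pow_eq_pow_val]; exact inOm_pow ht p, fun g => ?_⟩
  refine ⟨g • t / t, ?_, ?_⟩
  · rw [Units.val_div_eq_div_val]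
    exact inOm_div (inOm_map ht (g : GQ)) ht
  · rw [div_pow, smul_pow']

theorem u_le_kx : USub S K ≤ KxSub K := fun _ ha => ha.1

/-- the residue characteristic is determined by the prime of `K` -/
theorem qOf_eq (v : PSet S K) (q : Nat.Primes) (A : ValuationSubring Qb)
    (hA : A.LiesOverPrime (q : ℕ)) (hv : (v : HeightOneSpectrum (𝓞 K)) = vBelow K q q.2 A hA) :
    qOf v = q := by
  by_contra hne
  have h1 : ((q : ℕ) : 𝓞 K) ∈ (v : HeightOneSpectrum (𝓞 K)).asIdeal := by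
    rw [hv]
    exact natCast_mem_primeBelow K A q hA
  rw [vBelow_AOf v] at h1
  have h2 : (AOf v).valuation ((q : ℕ) : Qb) < 1 := by
    have := (mem_primeBelow K (AOf v) ((q : ℕ) : 𝓞 K)).mp h1
    rwa [map_natCast] at this
  have hnd : ¬ ((qOf v : ℕ) : ℤ) ∣ ((q : ℕ) : ℤ) := by
    intro hdvd
    have h3 : (qOf v : ℕ) ∣ (q : ℕ) := by exact_mod_cast hdvd
    exact hne (Subtype.ext ((Nat.prime_dvd_prime_iff_eq (qOf v).2 q.2).mp h3))
  have h4 := valuation_intCast_eq_one (AOf v) (qOf v) (qOf v).2 (AOf_lies v) ((q : ℕ) : ℤ) hnd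
  rw [Int.cast_natCast] at h4
  rw [h4] at h2
  exact lt_irrefl _ h2

/-- For `t ∈ T` the orders at two places over the same prime of `K` are congruent mod `p`. -/
theorem isOrd_of_T (hp : p.Prime) (hpS : ∀ q : Nat.Primes, q ∉ S → (q : ℕ) ≠ p)
    (q : Nat.Primes) (hq : q ∉ S) (A A' : ValuationSubring Qb) (hA : A.LiesOverPrime (q : ℕ))
    (hA' : A'.LiesOverPrime (q : ℕ)) (h : primeBelow K A = primeBelow K A') (t : Qbˣ)
    (ht : t ∈ TSub S p K) (k : ℤ) (hk : IsOrd A (q : ℕ) (t : Qb) k) :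
    ∃ m : ℤ, IsOrd A' (q : ℕ) (t : Qb) (k - p * m) := by
  obtain ⟨g, hgK, hg⟩ := exists_fixing_smul K A A' h
  have h1 : IsOrd A' (q : ℕ) (g (t : Qb)) k :=
    isOrd_of_primeUnder_smul A A' q q.2 hA g hg _ k hk
  have h2 : InW S p ((⟨g, hgK⟩ : ↥K.fixingSubgroup) • t / t) := ht.2 ⟨g, hgK⟩
  have h3 : InOm S ((((⟨g, hgK⟩ : ↥K.fixingSubgroup) • t / t : Qbˣ)) : Qb) := by
    rw [Units.val_div_eq_div_val]
    exact inOm_div (inOm_map ht.1 g) ht.1
  obtain ⟨m, hm⟩ := (inW_iff S p hp hpS _ h3).mp h2 q hq A' hA'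
  refine ⟨m, ?_⟩
  rw [Units.val_div_eq_div_val] at hm
  have h4 : ((((⟨g, hgK⟩ : ↥K.fixingSubgroup) • t : Qbˣ)) : Qb) = g (t : Qb) := rfl
  rw [h4] at hm
  have h5 := h1.div q.2 hm
  have h6 : g (t : Qb) / (g (t : Qb) / (t : Qb)) = (t : Qb) := by
    have hg0 : g (t : Qb) ≠ 0 := (map_ne_zero g).mpr t.ne_zero
    field_simp
  rwa [h6] at h5

end hyps

/-! ### The assembly -/

section assembly

attribute [local instance] numberField_K

/-- **GS-CD** from the two leaves CD-ABS and CD-NF. -/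
theorem stmt_GS_ClassDim_of (habs : Stmt_CD_ABS) (hnf : Stmt_CD_NF) : Stmt_GS_ClassDim := by
  intro p _ hp2 S hpS K hK
  have hp : p.Prime := Fact.out
  have hKS : K.IsUnramifiedOutside S := hK.1
  have : FiniteDimensional ℚ K := hKS.1
  have hpS' : ∀ q : Nat.Primes, q ∉ S → (q : ℕ) ≠ p := by
    intro q hq h
    apply hq
    have h1 : q = ExtCitation.pPrime p := Subtype.ext h
    rw [h1]
    exact hpS
  refine ⟨VSub S p K, V'Sub S p K, TSub S p K, T'Sub S p K, ?_, rfl, rfl, rfl, ?_⟩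
  · ext x
    show x ∈ KxSub K ⊓ WSub S p ↔ _
    rw [Subgroup.mem_inf]
    rfl
  refine habs Qbˣ (PSet S K →₀ ℤ) p hp (KxSub K) (WSub S p) (TSub S p K) (USub S K)
    (kx_le_T hKS) w_le_T u_le_kx (eps S K) ?hadd ?htf ?hfin ?hW ?hU
    (VSub S p K) (V'Sub S p K) (T'Sub S p K) ?hV ?hV' ?hT'
  case hadd => exact fun x hx y hy => eps_mul x y hx.1 hy.1
  case htf =>
    intro x hx
    ext v
    have h1 := congrArg (fun f : PSet S K →₀ ℤ => f v) hx
    simp only [Finsupp.smul_apply, Finsupp.zero_apply, nsmul_eq_mul] at h1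
    rcases mul_eq_zero.mp h1 with h | h
    · exact absurd (by exact_mod_cast h) hp.ne_zero
    · exact h
  case hfin =>
    obtain ⟨F, hF⟩ := hnf ↥K (PSet S K)
    refine ⟨F, fun x => ?_⟩
    obtain ⟨f, hf, a, ha, hxa⟩ := hF x
    have ha' : (a : Qb) ≠ 0 := fun h => ha (Subtype.ext h)
    refine ⟨f, hf, Units.mk0 (a : Qb) ha', a.2, ?_⟩
    ext v
    rw [Finsupp.add_apply, hxa v, eps_of_mem hKS (Units.mk0 (a : Qb) ha') a.2 v]
    rfl
  case hW =>
    intro t ht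
    constructor
    · rintro ⟨s, hs, rfl⟩
      exact ⟨eps S K s, eps_pow s hs p⟩
    · rintro ⟨x, hx⟩
      refine (inW_iff S p hp hpS' t ht.1).mpr ?_
      intro q hq A hA
      obtain ⟨v, hv⟩ : ∃ v : PSet S K, (v : HeightOneSpectrum (𝓞 K)) = vBelow K q q.2 A hA :=
        ⟨⟨vBelow K q q.2 A hA, vBelow_mem_PSet q hq A hA⟩, rfl⟩
      have hqv : qOf v = q := qOf_eq v q A hA hv
      have h1 : IsOrd (AOf v) (qOf v : ℕ) (t : Qb) (eps S K t v) := isOrd_eps t ht.1 v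
      have h2 : eps S K t v = p * x v := by
        rw [hx, Finsupp.smul_apply, nsmul_eq_mul]
      have hA' : (AOf v).LiesOverPrime (qOf v : ℕ) := AOf_lies v
      have h3 : primeBelow K (AOf v) = primeBelow K A := by
        have h4 := vBelow_AOf v
        rw [hv] at h4
        exact (congrArg HeightOneSpectrum.asIdeal h4).symm
      subst hqv
      obtain ⟨m, hm⟩ := isOrd_of_T hp hpS' (qOf v) hq (AOf v) A hA' hA h3 t ht (eps S K t v) h1
      refine ⟨x v - m, ?_⟩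
      rw [h2] at hm
      have h5 : (p : ℤ) * (x v - m) = p * x v - p * m := by ring
      rw [h5]
      exact hm
  case hU =>
    intro a ha
    constructor
    · rintro ⟨_, _, hu⟩
      ext v
      rw [Finsupp.zero_apply]
      apply eps_eq_of_isOrd
      exact isOrd_zero_iff.mpr (hu (qOf v) (qOf_notMem v) (AOf v) (AOf_lies v))
    · intro h0
      refine ⟨ha, inOm_of_mem hKS ha, fun q hq A hA => ?_⟩
      obtain ⟨v, hv⟩ : ∃ v : PSet S K, (v : HeightOneSpectrum (𝓞 K)) = vBelow K q q.2 A hA :=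
        ⟨⟨vBelow K q q.2 A hA, vBelow_mem_PSet q hq A hA⟩, rfl⟩
      have h1 := eps_of_mem hKS a ha v
      rw [h0, Finsupp.zero_apply, hv] at h1
      have h0' : (⟨(a : Qb), ha⟩ : K) ≠ 0 := fun h => a.ne_zero (congrArg Subtype.val h)
      have h2 := isOrd_of_mem hKS q hq A hA ⟨(a : Qb), ha⟩ h0'
      rw [← h1] at h2
      exact isOrd_zero_iff.mp h2
  case hV => exact fun x => Subgroup.mem_inf
  case hV' => exact fun x => Iff.rfl
  case hT' =>
    intro x
    constructor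
    · rintro ⟨c, s, hc, hs, rfl⟩
      exact ⟨c, s ^ p, hc, ⟨s, hs, rfl⟩, rfl⟩
    · rintro ⟨c, _, hc, ⟨s, hs, rfl⟩, rfl⟩
      exact ⟨c, s, hc, hs, rfl⟩

/-- **GS-CD** (`Stmt_GS_ClassDim`): `[T : T ∩ Kˣ W] ≤ [V_S : V_S ∩ U_K Kˣᵖ] < ∞`. -/
theorem stmt_GS_ClassDim : Stmt_GS_ClassDim :=
  stmt_GS_ClassDim_of Fermat.Agent.S55.CFT.GS.H93.stmt_CD_ABS
    Fermat.Agent.S55.CFT.GS.H93.stmt_CD_NF

end assembly

end Fermat.Agent.S55.CFT.GS.H6

end
end
-- ==== END Fermat.Agent.S55.CFT.GS.H6_CD
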