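-- GENERATED (merged mirror, NOTES/tools/trim/merge3_helper67.py): 1 modules of the originals, bodies verbatim.
import Fermat.Agent.Zm.S56_L10_007

-- ==== BEGIN Fermat.Agent.S55.CFT.GS.H6_Cap
section

set_option autoImplicit false
set_option linter.unusedSectionVars false
set_option linter.style.haveILetI false

open scoped Pointwise NumberField

noncomputable section

namespace Fermat.Agent.S55.CFT.GS.H6

open Fermat.Agent.S55 Fermat.Agent.S55.Top Fermat.Agent.Lib.FrobExists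
  Fermat.Agent.Lib.InertiaBridge Fermat.Agent.Lib.Minkowski Fermat.Agent.Lib.UnramVal
  IsDedekindDomain

local notation "Qb" => AlgebraicClosure ℚ

section cap

attribute [local instance] numberField_K

theorem ordAt_mul {K : Type} [Field K] [NumberField K] (v : HeightOneSpectrum (𝓞 K)) {a b : K}
    (ha : a ≠ 0) (hb : b ≠ 0) : ordAt v (a * b) = ordAt v a + ordAt v b := by
  unfold ordAt
  rw [map_mul, WithZero.log_mul ((Valuation.ne_zero_iff _).mpr ha)
    ((Valuation.ne_zero_iff _).mpr hb)]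
  ring

theorem ordAt_inv {K : Type} [Field K] [NumberField K] (v : HeightOneSpectrum (𝓞 K)) (a : K) :
    ordAt v a⁻¹ = -ordAt v a := by
  unfold ordAt
  rw [map_inv₀, WithZero.log_inv]

theorem ordAt_div {K : Type} [Field K] [NumberField K] (v : HeightOneSpectrum (𝓞 K)) {a b : K}
    (ha : a ≠ 0) (hb : b ≠ 0) : ordAt v (a / b) = ordAt v a - ordAt v b := by
  rw [div_eq_mul_inv, ordAt_mul v ha (inv_ne_zero hb), ordAt_inv]
  ring

variable {S : Finset Nat.Primes} {K : IntermediateField ℚ Qb} [FiniteDimensional ℚ K]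

/-- A power of a prime outside `S` is principal up to primes over `S`. -/
theorem exists_principal_pow (hnf : Stmt_CD_NF) (v : PSet S K) :
    ∃ (h : ℕ) (a : K), 0 < h ∧ a ≠ 0 ∧ ordAt (v : HeightOneSpectrum (𝓞 K)) a = (h : ℤ) ∧
      ∀ v' : PSet S K, v' ≠ v → ordAt (v' : HeightOneSpectrum (𝓞 K)) a = 0 := by
  classical
  obtain ⟨F, hF⟩ := hnf ↥K (PSet S K)
  choose f hf a ha hfa using fun n : ℕ => hF (Finsupp.single v (n : ℤ))
  obtain ⟨n₁, n₂, hne, heq⟩ := Finite.exists_ne_map_eq_of_infinite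
    (fun n : ℕ => (⟨f n, hf n⟩ : ↥F))
  have heq' : f n₁ = f n₂ := congrArg Subtype.val heq
  wlog hlt : n₁ < n₂ generalizing n₁ n₂
  · exact this n₂ n₁ hne.symm heq.symm heq'.symm (lt_of_le_of_ne (not_lt.mp hlt) hne.symm)
  refine ⟨n₂ - n₁, a n₂ / a n₁, Nat.sub_pos_of_lt hlt, div_ne_zero (ha n₂) (ha n₁), ?_,
    fun v' hv => ?_⟩
  · rw [ordAt_div _ (ha n₂) (ha n₁)]
    have h1 := hfa n₁ v
    have h2 := hfa n₂ v
    rw [heq'] at h1
    rw [Finsupp.single_eq_same] at h1 h2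
    push_cast [Nat.cast_sub hlt.le]
    linarith
  · rw [ordAt_div _ (ha n₂) (ha n₁)]
    have h1 := hfa n₁ v'
    have h2 := hfa n₂ v'
    rw [heq'] at h1
    rw [Finsupp.single_eq_of_ne hv] at h1 h2
    linarith

/-- `Ω` contains the `pᵏ`-th roots of its elements whose orders outside `S` are divisible by
`pᵏ`. -/
theorem exists_root_pow {p : ℕ} (hp : p.Prime) (hpS : ∀ q : Nat.Primes, q ∉ S → (q : ℕ) ≠ p)
    (k : ℕ) : ∀ x : Qbˣ, InOm S (x : Qb) →
    (∀ q : Nat.Primes, q ∉ S → ∀ A : ValuationSubring Qb, A.LiesOverPrime (q : ℕ) →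
      ∃ m : ℤ, IsOrd A (q : ℕ) (x : Qb) ((p : ℤ) ^ k * m)) →
    ∃ t : Qbˣ, InOm S (t : Qb) ∧ t ^ (p ^ k) = x := by
  induction k with
  | zero =>
    intro x hx _
    exact ⟨x, hx, by rw [pow_zero, pow_one]⟩
  | succ k ih =>
    intro x hx hord
    obtain ⟨s, hs⟩ := IsAlgClosed.exists_pow_nat_eq (x : Qb) hp.pos
    have hs0 : s ≠ 0 := by
      rintro rfl
      rw [zero_pow hp.ne_zero] at hs
      exact x.ne_zero hs.symm
    have hsΩ : InOm S s := by
      refine inOm_of_pow S p hp hpS s (x : Qb) x.ne_zero hs hx ?_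
      intro q hq A hA
      obtain ⟨m, hm⟩ := hord q hq A hA
      refine ⟨(p : ℤ) ^ k * m, ?_⟩
      have h1 : (p : ℤ) * ((p : ℤ) ^ k * m) = (p : ℤ) ^ (k + 1) * m := by ring
      rw [h1]
      exact hm
    obtain ⟨t, ht, htx⟩ := ih (Units.mk0 s hs0) hsΩ (by
      intro q hq A hA
      obtain ⟨m, hm⟩ := hord q hq A hA
      obtain ⟨j, hj⟩ := exists_isOrd S q hq A hA s hs0 hsΩ
      refine ⟨m, ?_⟩
      have h2 := hj.pow p
      rw [hs] at h2
      have h3 := h2.unique q.2 hA hm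
      have hp0 : (p : ℤ) ≠ 0 := by exact_mod_cast hp.ne_zero
      have h4 : j = (p : ℤ) ^ k * m := by
        have h5 : (p : ℤ) * j = (p : ℤ) * ((p : ℤ) ^ k * m) := by rw [h3]; ring
        exact mul_left_cancel₀ hp0 h5
      show IsOrd A (q : ℕ) s ((p : ℤ) ^ k * m)
      rw [← h4]
      exact hj)
    refine ⟨t, ht, ?_⟩
    rw [pow_succ, pow_mul, htx]
    exact Units.ext hs

/-- **Capitulation**: for a place `A` over `q ∉ S` there is `t ∈ Ωˣ` of order `1 + p c` at the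
places over the prime `A ∩ K` of `K` and of order `0` at all other places outside `S`. -/
theorem exists_cap (hnf : Stmt_CD_NF) {p : ℕ} (hp : p.Prime)
    (hpS : ∀ q : Nat.Primes, q ∉ S → (q : ℕ) ≠ p) (hK : K.IsUnramifiedOutside S)
    (q : Nat.Primes) (hq : q ∉ S) (A : ValuationSubring Qb) (hA : A.LiesOverPrime (q : ℕ)) :
    ∃ (t : Qbˣ) (c : ℤ), InOm S (t : Qb) ∧
      ∀ q' : Nat.Primes, q' ∉ S → ∀ A' : ValuationSubring Qb, A'.LiesOverPrime (q' : ℕ) →
        (primeBelow K A' = primeBelow K A → IsOrd A' (q' : ℕ) (t : Qb) (1 + p * c)) ∧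
        (primeBelow K A' ≠ primeBelow K A → IsOrd A' (q' : ℕ) (t : Qb) 0) := by
  obtain ⟨v, hv⟩ : ∃ v : PSet S K, (v : HeightOneSpectrum (𝓞 K)) = vBelow K q q.2 A hA :=
    ⟨⟨vBelow K q q.2 A hA, vBelow_mem_PSet q hq A hA⟩, rfl⟩
  obtain ⟨h, a, hh, ha, hav, hav'⟩ := exists_principal_pow hnf v
  obtain ⟨k, m₀, hm₀, hhk⟩ := Nat.exists_eq_pow_mul_and_not_dvd hh.ne' p hp.ne_one
  -- the orders of `a`
  have horda : ∀ q' : Nat.Primes, q' ∉ S → ∀ A' : ValuationSubring Qb,
      A'.LiesOverPrime (q' : ℕ) →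
      (primeBelow K A' = primeBelow K A → IsOrd A' (q' : ℕ) (a : Qb) ((p : ℤ) ^ k * m₀)) ∧
      (primeBelow K A' ≠ primeBelow K A → IsOrd A' (q' : ℕ) (a : Qb) 0) := by
    intro q' hq' A' hA'
    obtain ⟨v', hv'⟩ : ∃ v' : PSet S K,
        (v' : HeightOneSpectrum (𝓞 K)) = vBelow K q' q'.2 A' hA' :=
      ⟨⟨vBelow K q' q'.2 A' hA', vBelow_mem_PSet q' hq' A' hA'⟩, rfl⟩
    have h1 := isOrd_of_mem hK q' hq' A' hA' a ha
    rw [← hv'] at h1
    constructor
    · intro heq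
      have h2 : v' = v := by
        apply Subtype.ext
        rw [hv', hv]
        exact HeightOneSpectrum.ext heq
      rw [h2, hav, hhk] at h1
      push_cast at h1
      exact h1
    · intro hne
      have h2 : v' ≠ v := by
        intro h3
        apply hne
        have h4 := congrArg (fun w : PSet S K => (w : HeightOneSpectrum (𝓞 K)).asIdeal) h3
        simp only [hv', hv] at h4
        exact h4
      rw [hav' v' h2] at h1
      exact h1
  have ha0 : (a : Qb) ≠ 0 := fun h0 => ha (Subtype.ext h0)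
  obtain ⟨t₀, ht₀, ht₀a⟩ := exists_root_pow hp hpS k (Units.mk0 (a : Qb) ha0)
    (inOm_of_mem hK a.2) (by
      intro q' hq' A' hA'
      by_cases heq : primeBelow K A' = primeBelow K A
      · exact ⟨m₀, (horda q' hq' A' hA').1 heq⟩
      · exact ⟨0, by rw [mul_zero]; exact (horda q' hq' A' hA').2 heq⟩)
  have ht₀a' : (t₀ : Qb) ^ (p ^ k) = (a : Qb) := by
    rw [← Units.val_pow_eq_pow_val, ht₀a]
    rfl
  -- the orders of `t₀`
  have hord₀ : ∀ q' : Nat.Primes, q' ∉ S → ∀ A' : ValuationSubring Qb,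
      A'.LiesOverPrime (q' : ℕ) →
      (primeBelow K A' = primeBelow K A → IsOrd A' (q' : ℕ) (t₀ : Qb) m₀) ∧
      (primeBelow K A' ≠ primeBelow K A → IsOrd A' (q' : ℕ) (t₀ : Qb) 0) := by
    intro q' hq' A' hA'
    obtain ⟨j, hj⟩ := exists_isOrd S q' hq' A' hA' (t₀ : Qb) t₀.ne_zero ht₀
    have h2 := hj.pow (p ^ k)
    rw [ht₀a'] at h2
    have hpk : ((p ^ k : ℕ) : ℤ) ≠ 0 := by exact_mod_cast (pow_pos hp.pos k).ne'
    constructor
    · intro heq
      have h3 := h2.unique q'.2 hA' ((horda q' hq' A' hA').1 heq)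
      have h4 : j = m₀ := by
        have h5 : ((p ^ k : ℕ) : ℤ) * j = ((p ^ k : ℕ) : ℤ) * m₀ := by
          rw [h3]; push_cast; ring
        exact mul_left_cancel₀ hpk h5
      rw [← h4]
      exact hj
    · intro hne
      have h3 := h2.unique q'.2 hA' ((horda q' hq' A' hA').2 hne)
      have h4 : j = 0 := by
        rcases mul_eq_zero.mp h3 with h5 | h5
        · exact absurd h5 hpk
        · exact h5
      rw [← h4]
      exact hj
  -- Bezout
  have hcop : Nat.Coprime m₀ p := (Nat.Coprime.symm ((Nat.Prime.coprime_iff_not_dvd hp).mpr hm₀))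
  obtain ⟨m', -, hm'⟩ := Nat.exists_mul_mod_eq_one_of_coprime hcop hp.one_lt
  have hdiv : m₀ * m' = p * (m₀ * m' / p) + 1 := by
    have := Nat.div_add_mod (m₀ * m') p
    rw [hm'] at this
    exact this.symm
  refine ⟨t₀ ^ m', ((m₀ * m' / p : ℕ) : ℤ), ?_, ?_⟩
  · rw [Units.val_pow_eq_pow_val]
    exact inOm_pow ht₀ m'
  · intro q' hq' A' hA'
    rw [Units.val_pow_eq_pow_val]
    constructor
    · intro heq
      have h1 := ((hord₀ q' hq' A' hA').1 heq).pow m'
      have h2 : ((m' : ℕ) : ℤ) * (m₀ : ℤ) = 1 + (p : ℤ) * ((m₀ * m' / p : ℕ) : ℤ) := by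
        have := congrArg (fun n : ℕ => (n : ℤ)) hdiv
        push_cast at this ⊢
        linarith
      rw [h2] at h1
      exact h1
    · intro hne
      have h1 := ((hord₀ q' hq' A' hA').2 hne).pow m'
      rw [mul_zero] at h1
      exact h1

/-- **Capitulation**, unconditional form. -/
theorem stmt_cap {p : ℕ} (hp : p.Prime)
    (hpS : ∀ q : Nat.Primes, q ∉ S → (q : ℕ) ≠ p) (hK : K.IsUnramifiedOutside S)
    (q : Nat.Primes) (hq : q ∉ S) (A : ValuationSubring Qb) (hA : A.LiesOverPrime (q : ℕ)) :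
    ∃ (t : Qbˣ) (c : ℤ), InOm S (t : Qb) ∧
      ∀ q' : Nat.Primes, q' ∉ S → ∀ A' : ValuationSubring Qb, A'.LiesOverPrime (q' : ℕ) →
        (primeBelow K A' = primeBelow K A → IsOrd A' (q' : ℕ) (t : Qb) (1 + p * c)) ∧
        (primeBelow K A' ≠ primeBelow K A → IsOrd A' (q' : ℕ) (t : Qb) 0) :=
  exists_cap Fermat.Agent.S55.CFT.GS.H93.stmt_CD_NF hp hpS hK q hq A hA

end cap

end Fermat.Agent.S55.CFT.GS.H6

end
end
-- ==== END Fermat.Agent.S55.CFT.GS.H6_Cap
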