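-- GENERATED (merged mirror, NOTES/tools/trim/merge3_helper67.py): 5 modules of the originals, bodies verbatim.
import Fermat.Agent.Zm.S56_L11_005
import Fermat.Agent.Zm.S56_L11_006
import Fermat.Agent.Zm.S56_L11_002
import Fermat.Agent.Zm.S56_L06_003
import Fermat.Agent.Zm.S56_L07_003
import Fermat.Agent.Zm.S56_L08_002
import Fermat.Agent.Zm.S56_L11_003
import Fermat.Agent.Zm.S56_L01_005
import Fermat.Agent.Zm.S56_L09_005
import Fermat.Agent.Zm.S56_L02_000
import Fermat.Agent.Zm.S56_L11_004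
import Fermat.Agent.Zm.S56_L10_004
import Fermat.Agent.Zm.S56_L07_005
import Fermat.Agent.Zm.S56_L09_002
import Fermat.Agent.Zm.S56_L09_004
import Fermat.Agent.Zm.S56_L04_004
import Fermat.Agent.Zm.S56_L10_002
import Fermat.Agent.Zm.S56_L08_003

-- ==== BEGIN Fermat.Agent.S55.CFT.GS.H6_Ord
section

set_option autoImplicit false
set_option linter.unusedSectionVars false
set_option linter.style.haveILetI false

open scoped Pointwise NumberField

noncomputable section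

namespace Fermat.Agent.S55.CFT.GS.H6

open Fermat.Agent.S55 Fermat.Agent.S55.Top Fermat.Agent.Lib.FrobExists
  Fermat.Agent.Lib.InertiaBridge Fermat.Agent.Lib.Minkowski Fermat.Agent.Lib.UnramVal
  IsDedekindDomain

local notation "Qb" => AlgebraicClosure ℚ

section ordS

variable {S : Finset Nat.Primes}

/-- `A` is a place of `ℚ̄` over a prime outside `S`. -/
def OutS (S : Finset Nat.Primes) (A : ValuationSubring Qb) : Prop :=
  ∃ q : Nat.Primes, q ∉ S ∧ A.LiesOverPrime (q : ℕ)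

theorem OutS.smul {A : ValuationSubring Qb} (h : OutS S A) (g : GQ) : OutS S (g • A) := by
  obtain ⟨q, hq, hA⟩ := h
  exact ⟨q, hq, ur_liesOver_smul A g (q : ℕ) hA⟩

/-- A place lies over one rational prime only. -/
theorem liesOver_unique (A : ValuationSubring Qb) (q q' : Nat.Primes)
    (hq : A.LiesOverPrime (q : ℕ)) (hq' : A.LiesOverPrime (q' : ℕ)) : q = q' := by
  by_contra hne
  have h2 : A.valuation ((q' : ℕ) : Qb) < 1 := val_q_lt_one A (q' : ℕ) hq'
  have hnd : ¬ ((q : ℕ) : ℤ) ∣ ((q' : ℕ) : ℤ) := by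
    intro hdvd
    have h3 : (q : ℕ) ∣ (q' : ℕ) := by exact_mod_cast hdvd
    exact hne (Subtype.ext ((Nat.prime_dvd_prime_iff_eq q.2 q'.2).mp h3))
  have h4 := valuation_intCast_eq_one A q q.2 hq ((q' : ℕ) : ℤ) hnd
  rw [Int.cast_natCast] at h4
  rw [h4] at h2
  exact lt_irrefl _ h2

/-- The residue characteristic of a place (`0` if there is none). -/
def resChar (A : ValuationSubring Qb) : ℕ :=
  haveI := Classical.propDecidable (∃ q : Nat.Primes, A.LiesOverPrime (q : ℕ))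
  if h : ∃ q : Nat.Primes, A.LiesOverPrime (q : ℕ) then (h.choose : ℕ) else 0

theorem resChar_eq {A : ValuationSubring Qb} (q : Nat.Primes) (hA : A.LiesOverPrime (q : ℕ)) :
    resChar A = (q : ℕ) := by
  have hex : ∃ q : Nat.Primes, A.LiesOverPrime (q : ℕ) := ⟨q, hA⟩
  rw [resChar, dif_pos hex]
  exact congrArg Subtype.val (liesOver_unique A _ q hex.choose_spec hA)

/-- The order of `x` at the place `A`. -/
def ordS (A : ValuationSubring Qb) (x : Qb) : ℤ := ordZ A (resChar A) x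

theorem isOrd_ordS {A : ValuationSubring Qb} (q : Nat.Primes) (hq : q ∉ S)
    (hA : A.LiesOverPrime (q : ℕ)) {x : Qb} (hx0 : x ≠ 0) (hx : InOm S x) :
    IsOrd A (q : ℕ) x (ordS A x) := by
  rw [ordS, resChar_eq q hA]
  exact isOrd_ordZ q hq A hA x hx0 hx

theorem ordS_eq {A : ValuationSubring Qb} (q : Nat.Primes) (hA : A.LiesOverPrime (q : ℕ))
    {x : Qb} {k : ℤ} (h : IsOrd A (q : ℕ) x k) : ordS A x = k := by
  rw [ordS, resChar_eq q hA]
  exact ordZ_eq q.2 hA h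

variable {A : ValuationSubring Qb}

theorem ordS_one (hA : OutS S A) : ordS A 1 = 0 := by
  obtain ⟨q, _, hA⟩ := hA
  exact ordS_eq q hA isOrd_one

theorem ordS_mul (hA : OutS S A) {x y : Qb} (hx0 : x ≠ 0) (hx : InOm S x) (hy0 : y ≠ 0)
    (hy : InOm S y) : ordS A (x * y) = ordS A x + ordS A y := by
  obtain ⟨q, hq, hA⟩ := hA
  exact ordS_eq q hA ((isOrd_ordS q hq hA hx0 hx).mul q.2 (isOrd_ordS q hq hA hy0 hy))

theorem ordS_inv (hA : OutS S A) {x : Qb} (hx0 : x ≠ 0) (hx : InOm S x) :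
    ordS A x⁻¹ = -ordS A x := by
  obtain ⟨q, hq, hA⟩ := hA
  exact ordS_eq q hA (isOrd_ordS q hq hA hx0 hx).inv

theorem ordS_div (hA : OutS S A) {x y : Qb} (hx0 : x ≠ 0) (hx : InOm S x) (hy0 : y ≠ 0)
    (hy : InOm S y) : ordS A (x / y) = ordS A x - ordS A y := by
  obtain ⟨q, hq, hA⟩ := hA
  exact ordS_eq q hA ((isOrd_ordS q hq hA hx0 hx).div q.2 (isOrd_ordS q hq hA hy0 hy))

theorem ordS_pow (hA : OutS S A) {x : Qb} (hx0 : x ≠ 0) (hx : InOm S x) (n : ℕ) :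
    ordS A (x ^ n) = n * ordS A x := by
  obtain ⟨q, hq, hA⟩ := hA
  exact ordS_eq q hA ((isOrd_ordS q hq hA hx0 hx).pow n)

/-- Galois transport: `ord_A (g x) = ord_{g⁻¹ A} x`. -/
theorem ordS_smul (hA : OutS S A) (g : GQ) {x : Qb} (hx0 : x ≠ 0) (hx : InOm S x) :
    ordS A (g x) = ordS (g⁻¹ • A) x := by
  obtain ⟨q, hq, hA⟩ := hA
  have hA' : (g⁻¹ • A).LiesOverPrime (q : ℕ) := ur_liesOver_smul A g⁻¹ (q : ℕ) hA
  have h1 : IsOrd (g⁻¹ • A) (q : ℕ) x (ordS (g⁻¹ • A) x) := isOrd_ordS q hq hA' hx0 hx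
  have h2 : IsOrd (g • (g⁻¹ • A)) (q : ℕ) (g x) (ordS (g⁻¹ • A) x) :=
    (isOrd_smul_iff q.2 g).mpr h1
  rw [smul_inv_smul] at h2
  exact ordS_eq q hA h2

/-- The order at `g • A` of `g x`. -/
theorem ordS_smul_smul (hA : OutS S A) (g : GQ) {x : Qb} (hx0 : x ≠ 0) (hx : InOm S x) :
    ordS (g • A) (g x) = ordS A x := by
  rw [ordS_smul (hA.smul g) g hx0 hx, inv_smul_smul]

/-- **Kummer criterion** in terms of `ordS`. -/
theorem inW_iff_ordS {p : ℕ} (hp : p.Prime) (hpS : ∀ q : Nat.Primes, q ∉ S → (q : ℕ) ≠ p)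
    (x : Qbˣ) (hx : InOm S (x : Qb)) :
    InW S p x ↔ ∀ A : ValuationSubring Qb, OutS S A → (p : ℤ) ∣ ordS A (x : Qb) := by
  rw [inW_iff S p hp hpS x hx]
  constructor
  · rintro h A ⟨q, hq, hA⟩
    obtain ⟨m, hm⟩ := h q hq A hA
    rw [ordS_eq q hA hm]
    exact dvd_mul_right _ _
  · intro h q hq A hA
    obtain ⟨m, hm⟩ := h A ⟨q, hq, hA⟩
    refine ⟨m, ?_⟩
    rw [← hm]
    exact isOrd_ordS q hq hA x.ne_zero hx

/-- The order of `x ∈ Ωˣ` vanishes outside finitely many rational primes. -/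
theorem exists_bound_ordS (x : Qb) (hx0 : x ≠ 0) :
    ∃ N : ℤ, N ≠ 0 ∧ ∀ (q : Nat.Primes), ¬ ((q : ℕ) : ℤ) ∣ N → ∀ A : ValuationSubring Qb,
      A.LiesOverPrime (q : ℕ) → ordS A x = 0 := by
  obtain ⟨N, hN0, hN⟩ := exists_bound_unit x hx0
  refine ⟨N, hN0, fun q hq A hA => ?_⟩
  exact ordS_eq q hA (isOrd_zero_iff.mpr (hN (q : ℕ) q.2 hq A hA))

/-- The order of an element of `F` depends only on the prime of `F` under the place. -/
theorem ordS_eq_of_primeBelow (F : IntermediateField ℚ Qb) [NumberField ↥F]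
    {A A' : ValuationSubring Qb} (hA : OutS S A) (hA' : OutS S A')
    (h : primeBelow F A = primeBelow F A') {x : Qb} (hx0 : x ≠ 0) (hx : InOm S x)
    (hxF : x ∈ F) : ordS A' x = ordS A x := by
  obtain ⟨q, hq, hAq⟩ := hA
  obtain ⟨q', hq', hAq'⟩ := hA'
  have hqq : q' = q := by
    have h1 : (((q : ℕ) : 𝓞 ↥F)) ∈ primeBelow F A' := by
      rw [← h]
      exact natCast_mem_primeBelow F A (q : ℕ) hAq
    have h2 : A'.valuation ((q : ℕ) : Qb) < 1 := by
      have := (mem_primeBelow F A' ((q : ℕ) : 𝓞 ↥F)).mp h1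
      rwa [map_natCast] at this
    exact liesOver_unique A' q' q hAq' (A'.mem_nonunits_iff.mpr h2)
  subst hqq
  obtain ⟨g, hgF, hg⟩ := ur_exists_fixing F A A' (q' : ℕ) q'.2 hAq hAq' h
  have hgx : g x = x := (IntermediateField.mem_fixingSubgroup_iff F g).mp hgF x hxF
  rw [hg]
  have := ordS_smul_smul (S := S) ⟨q', hq, hAq⟩ g hx0 hx
  rwa [hgx] at this

/-- **Capitulation** in terms of `ordS`. -/
theorem exists_cap_ordS {p : ℕ} (hp : p.Prime) (hpS : ∀ q : Nat.Primes, q ∉ S → (q : ℕ) ≠ p)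
    {F : IntermediateField ℚ Qb} (hF : F.IsUnramifiedOutside S) (A : ValuationSubring Qb)
    (hA : OutS S A) :
    ∃ (t : Qbˣ) (c : ℤ), InOm S (t : Qb) ∧
      ∀ A' : ValuationSubring Qb, OutS S A' →
        (primeBelow F A' = primeBelow F A → ordS A' (t : Qb) = 1 + p * c) ∧
        (primeBelow F A' ≠ primeBelow F A → ordS A' (t : Qb) = 0) := by
  obtain ⟨q, hq, hAq⟩ := hA
  have hfd : FiniteDimensional ℚ F := hF.1
  obtain ⟨t, c, ht, h⟩ := stmt_cap hp hpS hF q hq A hAq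
  refine ⟨t, c, ht, ?_⟩
  rintro A' ⟨q', hq', hA'⟩
  exact ⟨fun h1 => ordS_eq q' hA' ((h q' hq' A' hA').1 h1),
    fun h1 => ordS_eq q' hA' ((h q' hq' A' hA').2 h1)⟩

end ordS

end Fermat.Agent.S55.CFT.GS.H6

end
end
-- ==== END Fermat.Agent.S55.CFT.GS.H6_Ord

-- ==== BEGIN Fermat.Agent.S56.GWC.H64_B1M
section

set_option autoImplicit false

open CategoryTheory Module groupCohomology ExtCitation

noncomputable section

namespace Fermat.Agent.S56.GWC.H64

open Fermat.Agent.S55 Fermat.Agent.S56.GWC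

variable {k : Type} [Field k] {S : Finset Nat.Primes} {χ : _root_.Fermat.Agent.S56.GQ →* kˣ}

/-! ### Cone 1-coboundaries -/

/-- The cone 1-coboundary of `m`. -/
def bdry (S : Finset Nat.Primes) (M : Rep.{0} k _root_.Fermat.Agent.S56.GQ) (m : M) : C1c S M :=
  (dZero M m, fun _ => m)

lemma isB1c_iff_bdry {M : Rep.{0} k _root_.Fermat.Agent.S56.GQ} (y : C1c S M) : IsB1c S M y ↔ ∃ m : M, y = bdry S M m := by
  constructor
  · rintro ⟨m, h1, h2⟩
    exact ⟨m, Prod.ext h1 (funext h2)⟩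
  · rintro ⟨m, rfl⟩
    exact ⟨m, rfl, fun _ => rfl⟩

lemma mapC1_bdry {A B : Rep.{0} k _root_.Fermat.Agent.S56.GQ} (u : A ⟶ B) (m : A) :
    mapC1 (S := S) u.hom (bdry S A m) = bdry S B (u.hom m) := by
  refine Prod.ext ?_ rfl
  show (fun g => u.hom (dZero A m g)) = dZero B (u.hom m)
  exact (dZero_comp u m).symm

lemma isB1c_push {A B : Rep.{0} k _root_.Fermat.Agent.S56.GQ} (u : A ⟶ B) {y : C1c S A} (hy : IsB1c S A y) :
    IsB1c S B (mapC1 u.hom y) := by
  rw [isB1c_iff_bdry] at hy ⊢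
  obtain ⟨m, rfl⟩ := hy
  exact ⟨u.hom m, mapC1_bdry u m⟩

lemma bdry_add {M : Rep.{0} k _root_.Fermat.Agent.S56.GQ} (m m' : M) : bdry S M (m + m') = bdry S M m + bdry S M m' := by
  refine Prod.ext ?_ rfl
  show dZero M (m + m') = dZero M m + dZero M m'
  exact dZero_add M m m'

lemma isZ1c_bdry {M : Rep.{0} k _root_.Fermat.Agent.S56.GQ} (hM : Lev S M) (m : M) : IsZ1c S M (bdry S M m) :=
  ⟨⟨dOne_dZero M m, isLevelConstantS₁_dZero M hM m⟩, fun _ => rfl⟩

/-- The cup product of a level-`S` 2-cocycle with a cone 1-coboundary is a cone 3-coboundary. -/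
lemma cupB1_bdry (M : Rep.{0} k _root_.Fermat.Agent.S56.GQ) {a : _root_.Fermat.Agent.S56.GQ × _root_.Fermat.Agent.S56.GQ → M} (ha : dTwo M a = 0) (m' : Md χ M) :
    cupB1 S χ M a (bdry S (Md χ M) m') =
      dCone2 S (kχ χ) (cupA20 χ M ((a, fun _ => 0) : C2c S M) m') := by
  rw [dCone2_cupA20]
  refine Prod.ext (funext fun t => ?_) (funext fun q => funext fun t => ?_)
  · simp only [cupB1, bdry, cupA3, cupA2, dCone2, ha, Prod.fst_add, Pi.add_apply, Pi.zero_apply]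
    simp [ev]
  · simp only [cupB1, bdry, cupA3, cupA2, dCone2, Prod.snd_add, Pi.add_apply, Pi.sub_apply]
    simp [ev, resTwo, dOneL]

theorem tr_cupB1_bdry (hNC : NC S) (hχ : LevChar S χ) (M : Rep.{0} k _root_.Fermat.Agent.S56.GQ) (hM : Lev S M)
    (tr : Trace S χ) {a : _root_.Fermat.Agent.S56.GQ × _root_.Fermat.Agent.S56.GQ → M} (ha : IsZ2S S M a) (m' : Md χ M) :
    tr.toFun (cupB1 S χ M a (bdry S (Md χ M) m')) = 0 := by
  rw [cupB1_bdry M ha.1 m']
  have hl' : ∀ q : ↥S, IsLevelConstant₁ (rl q.1) (((a, fun _ => 0) : C2c S M).2 q) := fun q =>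
    isLevelConstant₁_const (rl q.1) (0 : M)
  obtain ⟨h1, h2⟩ := lev_cupA20 χ M hNC hχ hM (x := ((a, fun _ => 0) : C2c S M)) ha.2 hl' m'
  exact tr.zero_of_isB3c _ (isB3c_dCone2 h1 h2)

/-! ### Retracts -/

theorem betaOneMono_of_retract {M N : Rep.{0} k _root_.Fermat.Agent.S56.GQ} (i : M ⟶ N) (r : N ⟶ M)
    (hri : ∀ m : M, r.hom (i.hom m) = m) (tr : Trace S χ) (hN : BetaOneMono tr N) :
    BetaOneMono tr M := by
  intro y hy hpair
  have h1 : IsB1c S (Md χ N) (mapC1 (dHom χ r).hom y) := by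
    refine hN _ (H48.isZ1c_push (dHom χ r) hy) fun a ha => ?_
    rw [H48.cupB1_mapC1]
    exact hpair _ (H48.isZ2S_push r ha)
  have h2 := isB1c_push (dHom χ i) h1
  have h3 : mapC1 (dHom χ i).hom (mapC1 (dHom χ r).hom y) = y := by
    refine Prod.ext (funext fun t => ?_) (funext fun q => ?_)
    · exact H48.dMap_retract χ i r hri _
    · exact H48.dMap_retract χ i r hri _
  rwa [h3] at h2

/-- **B1M-ret**. -/
theorem stmt_B1M_ret : Stmt_B1M_ret := by
  intro k _ S χ tr X Y hret hY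
  obtain ⟨i, r, hri⟩ := hret
  exact betaOneMono_of_retract i r hri tr hY

/-- **H3-ret**. -/
theorem stmt_H3S_ret : Stmt_H3S_ret := by
  intro k _ S X Y hret hY z hz hl
  obtain ⟨i, r, hri⟩ := hret
  have hz' : dThree Y (fun t => i.hom (z t)) = 0 := by
    rw [dThree_comp, hz]
    funext t
    simp
  obtain ⟨b, hb, hdb⟩ := hY _ hz' (levS₃_comp hl _)
  refine ⟨fun t => r.hom (b t), levS₂_comp hb _, ?_⟩
  rw [dTwo_comp, hdb]
  funext t
  exact hri _

/-! ### Extensions: `H³_S` -/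

set_option maxHeartbeats 800000 in
theorem h3S_ext_of_NC (hNC : NC S) {X₁ X X₂ : Rep.{0} k _root_.Fermat.Agent.S56.GQ} (i : X₁ ⟶ X) (π : X ⟶ X₂)
    (hses : IsSES i π) (hX : Lev S X) (h₁ : H3S S X₁) (h₂ : H3S S X₂) : H3S S X := by
  obtain ⟨hi, hπ, hex⟩ := hses
  obtain ⟨σ, hσ⟩ := LinearMap.exists_rightInverse_of_surjective π.hom.toLinearMap
    (LinearMap.range_eq_top.2 hπ)
  have hσ' : ∀ m₂ : X₂, π.hom (σ m₂) = m₂ := fun m₂ =>
    congrArg (fun f : X₂ →ₗ[k] X₂ => f m₂) hσ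
  obtain ⟨r, hr⟩ := LinearMap.exists_leftInverse_of_injective i.hom.toLinearMap
    (LinearMap.ker_eq_bot.2 hi)
  have hr' : ∀ m₁ : X₁, r (i.hom m₁) = m₁ := fun m₁ =>
    congrArg (fun f : X₁ →ₗ[k] X₁ => f m₁) hr
  have hir : ∀ m : X, π.hom m = 0 → i.hom (r m) = m := by
    intro m hm
    obtain ⟨m₁, rfl⟩ := (hex m).1 hm
    rw [hr']
  intro z hz hl
  -- the image in `X₂`
  have hz₂ : dThree X₂ (fun t => π.hom (z t)) = 0 := by
    rw [dThree_comp, hz]
    funext t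
    simp
  obtain ⟨b₂, hb₂, hdb₂⟩ := h₂ _ hz₂ (levS₃_comp hl _)
  -- lift
  let b : _root_.Fermat.Agent.S56.GQ × _root_.Fermat.Agent.S56.GQ → X := fun t => σ (b₂ t)
  have hbl : IsLevelConstantS₂ S b := levS₂_comp hb₂ _
  have hπb : (fun t => π.hom (b t)) = b₂ := funext fun t => hσ' _
  let w : _root_.Fermat.Agent.S56.GQ × _root_.Fermat.Agent.S56.GQ × _root_.Fermat.Agent.S56.GQ → X := z - dTwo X b
  have hπw : ∀ t, π.hom (w t) = 0 := by
    intro t
    have h1 := congrFun (dTwo_comp π b) t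
    rw [hπb, hdb₂] at h1
    show π.hom (z t - dTwo X b t) = 0
    rw [map_sub, ← h1, sub_self]
  let z₁ : _root_.Fermat.Agent.S56.GQ × _root_.Fermat.Agent.S56.GQ × _root_.Fermat.Agent.S56.GQ → X₁ := fun t => r (w t)
  have hiz₁ : (fun t => i.hom (z₁ t)) = w := funext fun t => hir _ (hπw t)
  have hwl : IsLevS₃ S w := by
    have h1 : IsLevS₃ S (dTwo X b) := isLevS₃_dTwo X hNC hX hbl
    obtain ⟨F₁, hF₁, hc₁⟩ := hl
    obtain ⟨F₂, hF₂, hc₂⟩ := h1
    obtain ⟨F, h1F, h2F, hF, -⟩ := exists_common_level hNC hF₁ hF₂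
    refine ⟨F, hF, fun g₁ g₂ g₃ s₁ s₂ s₃ hs₁ hs₂ hs₃ => ?_⟩
    show z _ - dTwo X b _ = z _ - dTwo X b _
    rw [hc₁ g₁ g₂ g₃ s₁ s₂ s₃ (mem_fix_of_le h1F hs₁) (mem_fix_of_le h1F hs₂)
      (mem_fix_of_le h1F hs₃),
      hc₂ g₁ g₂ g₃ s₁ s₂ s₃ (mem_fix_of_le h2F hs₁) (mem_fix_of_le h2F hs₂)
      (mem_fix_of_le h2F hs₃)]
  have hdw : dThree X w = 0 := by
    have e : dThree X w = dThree X z - dThree X (dTwo X b) := by
      funext t
      simp only [w, dThree, Pi.sub_apply, map_sub]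
      abel
    rw [e, hz, dThree_dTwo, sub_zero]
  have hz₁ : dThree X₁ z₁ = 0 := by
    funext t
    apply hi
    have := congrFun (dThree_comp i z₁) t
    rw [hiz₁, hdw] at this
    simp only [Pi.zero_apply, map_zero]
    exact this.symm
  obtain ⟨b₁, hb₁, hdb₁⟩ := h₁ z₁ hz₁ (levS₃_comp hwl _)
  refine ⟨b + fun t => i.hom (b₁ t), hbl.add (levS₂_comp hb₁ _), ?_⟩
  rw [dTwo_add, dTwo_comp, hdb₁, hiz₁]
  show dTwo X b + (z - dTwo X b) = z
  abel

/-- **H3-ext**. -/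
theorem stmt_H3S_ext : Stmt_H3S_ext := by
  intro k _ S X₁ X X₂ i π hses _ hX _ h₁ h₂
  exact h3S_ext_of_NC (Fermat.Agent.S55.H49.nc_all S) i π hses hX h₁ h₂

/-! ### Extensions: `β¹mono` -/

set_option maxHeartbeats 1600000 in
theorem betaOneMono_ext_of_NC (hNC : NC S) (hχ : LevChar S χ) (tr : Trace S χ)
    {M₁ M M₂ : Rep.{0} k _root_.Fermat.Agent.S56.GQ} (i : M₁ ⟶ M) (π : M ⟶ M₂) (hses : IsSES i π)
    (hM : Lev S M) (hB₁ : BetaOneMono tr M₁) (hB₂ : BetaOneMono tr M₂) (hH : H3S S M₁) :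
    BetaOneMono tr M := by
  obtain ⟨hi, hπ, hex⟩ := hses
  have hM' : Lev S (Md χ M) := lev_Md M hχ hM
  -- linear section of `π`, linear retraction of `i`
  obtain ⟨σ, hσ⟩ := LinearMap.exists_rightInverse_of_surjective π.hom.toLinearMap
    (LinearMap.range_eq_top.2 hπ)
  have hσ' : ∀ m₂ : M₂, π.hom (σ m₂) = m₂ := fun m₂ =>
    congrArg (fun f : M₂ →ₗ[k] M₂ => f m₂) hσ
  obtain ⟨r, hr⟩ := LinearMap.exists_leftInverse_of_injective i.hom.toLinearMap
    (LinearMap.ker_eq_bot.2 hi)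
  have hr' : ∀ m₁ : M₁, r (i.hom m₁) = m₁ := fun m₁ =>
    congrArg (fun f : M₁ →ₗ[k] M₁ => f m₁) hr
  have hir : ∀ m : M, π.hom m = 0 → i.hom (r m) = m := by
    intro m hm
    obtain ⟨m₁, rfl⟩ := (hex m).1 hm
    rw [hr']
  -- the duals of `σ` and `r`
  let F : Md χ M →ₗ[k] Md χ M₂ :=
    { toFun := fun ψ => (show Module.Dual k M from ψ).comp σ
      map_add' := fun _ _ => rfl
      map_smul' := fun _ _ => rfl }
  let ι : Md χ M₁ →ₗ[k] Md χ M :=
    { toFun := fun ψ => (show Module.Dual k M₁ from ψ).comp r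
      map_add' := fun _ _ => rfl
      map_smul' := fun _ _ => rfl }
  have hι : ∀ ψ₁ : Md χ M₁, dMap χ i (ι ψ₁) = ψ₁ := by
    intro ψ₁
    apply Md_ext
    intro m₁
    rw [ev_dMap]
    change (show Module.Dual k M₁ from ψ₁) (r (i.hom m₁)) = _
    rw [hr']
    rfl
  have hF : ∀ ψ : Md χ M, dMap χ i ψ = 0 → dMap χ π (F ψ) = ψ := by
    intro ψ hψ
    apply Md_ext
    intro m
    rw [ev_dMap]
    change (show Module.Dual k M from ψ) (σ (π.hom m)) = (show Module.Dual k M from ψ) m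
    have h1 : π.hom (σ (π.hom m) - m) = 0 := by rw [map_sub, hσ', sub_self]
    obtain ⟨m₁, hm₁⟩ := (hex _).1 h1
    have h2 : (show Module.Dual k M from ψ) (i.hom m₁) = 0 :=
      congrArg (fun ψ' : Md χ M₁ => ev χ M₁ m₁ ψ') hψ
    rw [hm₁, map_sub, sub_eq_zero] at h2
    exact h2
  intro y hy hpair
  -- Step 1: the image in `M₁'` is a coboundary
  have hy₁ : IsB1c S (Md χ M₁) (mapC1 (dMap χ i) y) := by
    refine hB₁ _ (H49.isZ1c_mapC1 (dHom χ i) hy) fun a₁ ha₁ => ?_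
    rw [← cupB1_comp]
    exact hpair _ (H49.isZ2S_comp i ha₁)
  obtain ⟨m₁', hm₁'⟩ := (isB1c_iff_bdry _).1 hy₁
  -- Step 2: correct `y` by a coboundary
  let yb : C1c S (Md χ M) := bdry S (Md χ M) (ι m₁')
  have hybZ : IsZ1c S (Md χ M) yb := isZ1c_bdry hM' _
  let y' : C1c S (Md χ M) := y - yb
  have hy'Z : IsZ1c S (Md χ M) y' := by
    have h1 : y' ∈ grpZ1c S (Md χ M) := (grpZ1c S (Md χ M)).sub_mem hy hybZ
    exact h1
  have hiy' : mapC1 (dMap χ i) y' = 0 := by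
    have h1 : mapC1 (S := S) (dMap χ i) yb = bdry S (Md χ M₁) m₁' := by
      have := mapC1_bdry (S := S) (dHom χ i) (ι m₁')
      rw [show (dHom χ i).hom (ι m₁') = m₁' from hι m₁'] at this
      exact this
    refine Prod.ext (funext fun t => ?_) (funext fun q => ?_)
    · show dMap χ i (y.1 t - yb.1 t) = 0
      rw [map_sub, sub_eq_zero]
      have e1 := congrFun (congrArg Prod.fst hm₁') t
      have e2 := congrFun (congrArg Prod.fst h1) t
      exact e1.trans e2.symm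
    · show dMap χ i (y.2 q - yb.2 q) = 0
      rw [map_sub, sub_eq_zero]
      have e1 := congrFun (congrArg Prod.snd hm₁') q
      have e2 := congrFun (congrArg Prod.snd h1) q
      exact e1.trans e2.symm
  let y₂ : C1c S (Md χ M₂) := mapC1 F y'
  have hπy₂ : mapC1 (dMap χ π) y₂ = y' := by
    refine Prod.ext (funext fun t => ?_) (funext fun q => ?_)
    · exact hF _ (congrFun (congrArg Prod.fst hiy') t)
    · exact hF _ (congrFun (congrArg Prod.snd hiy') q)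
  have hy'Z' := (isZ1c_iff y').1 hy'Z
  have hy₂Z : IsZ1c S (Md χ M₂) y₂ := by
    rw [isZ1c_iff]
    have hl2 : IsLevelConstantS₁ S y₂.1 := by
      show IsLevelConstantS₁ S (fun g => F (y'.1 g))
      exact levS₁_comp hy'Z'.1 _
    refine ⟨hl2, ?_⟩
    have h1 := dCone1_mapC1 (S := S) (dHom χ π) y₂
    have e : mapC1 (dHom χ π).hom y₂ = y' := hπy₂
    rw [e, hy'Z'.2] at h1
    refine Prod.ext (funext fun t => ?_) (funext fun q => funext fun t => ?_)
    · apply dMap_injective χ π hπ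
      have := congrFun (congrArg Prod.fst h1) t
      simp only [Prod.fst_zero, Pi.zero_apply, map_zero]
      exact this.symm
    · apply dMap_injective χ π hπ
      have := congrFun (congrFun (congrArg Prod.snd h1) q) t
      simp only [Prod.snd_zero, Pi.zero_apply, map_zero]
      exact this.symm
  -- Step 3: `y₂` is orthogonal to `Z²_S(M₂)`
  have hstep3 : ∀ a₂ : _root_.Fermat.Agent.S56.GQ × _root_.Fermat.Agent.S56.GQ → M₂, IsZ2S S M₂ a₂ → tr.toFun (cupB1 S χ M₂ a₂ y₂) = 0 := by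
    intro a₂ ha₂
    let ah : _root_.Fermat.Agent.S56.GQ × _root_.Fermat.Agent.S56.GQ → M := fun t => σ (a₂ t)
    have hahl : IsLevelConstantS₂ S ah := levS₂_comp ha₂.2 _
    have hπah : (fun t => π.hom (ah t)) = a₂ := funext fun t => hσ' _
    have hπd : ∀ t, π.hom (dTwo M ah t) = 0 := by
      intro t
      have := congrFun (dTwo_comp π ah) t
      rw [hπah, ha₂.1] at this
      exact this.symm
    let z₁ : _root_.Fermat.Agent.S56.GQ × _root_.Fermat.Agent.S56.GQ × _root_.Fermat.Agent.S56.GQ → M₁ := fun t => r (dTwo M ah t)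
    have hiz₁ : (fun t => i.hom (z₁ t)) = dTwo M ah := funext fun t => hir _ (hπd t)
    have hz₁ : dThree M₁ z₁ = 0 := by
      funext t
      apply hi
      have := congrFun (dThree_comp i z₁) t
      rw [hiz₁, dThree_dTwo] at this
      simp only [Pi.zero_apply, map_zero]
      exact this.symm
    obtain ⟨b₁, hb₁, hdb₁⟩ := hH z₁ hz₁ (levS₃_comp (isLevS₃_dTwo M hNC hM hahl) _)
    let a : _root_.Fermat.Agent.S56.GQ × _root_.Fermat.Agent.S56.GQ → M := ah - fun t => i.hom (b₁ t)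
    have haZ : IsZ2S S M a := by
      refine ⟨?_, levS₂_sub hahl (levS₂_comp hb₁ _)⟩
      show dTwo M (ah - fun t => i.hom (b₁ t)) = 0
      rw [dTwo_sub, dTwo_comp, hdb₁, hiz₁, sub_self]
    have hπa : (fun t => π.hom (a t)) = a₂ := by
      funext t
      show π.hom (ah t - i.hom (b₁ t)) = a₂ t
      rw [map_sub, (hex _).2 ⟨b₁ t, rfl⟩, sub_zero]
      exact hσ' _
    rw [← hπa, cupB1_comp, hπy₂]
    have e1 : cupB1 S χ M a y' = cupB1 S χ M a y - cupB1 S χ M a yb := by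
      have h := cupB1_add_right (S := S) (χ := χ) (M := M) a y' yb
      rw [show y' + yb = y from sub_add_cancel y yb] at h
      rw [h, add_sub_cancel_right]
    rw [e1, map_sub, hpair a haZ, tr_cupB1_bdry hNC hχ M hM tr haZ, sub_zero]
  -- Step 4: conclusion
  obtain ⟨m₂', hm₂'⟩ := (isB1c_iff_bdry _).1 (hB₂ y₂ hy₂Z hstep3)
  rw [isB1c_iff_bdry]
  refine ⟨ι m₁' + dMap χ π m₂', ?_⟩
  have h1 : y' = bdry S (Md χ M) (dMap χ π m₂') := by
    rw [← hπy₂, hm₂']
    exact mapC1_bdry (S := S) (dHom χ π) m₂'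
  rw [bdry_add, ← h1]
  show y = yb + (y - yb)
  abel

/-- **B1M-ext**. -/
theorem stmt_B1M_ext : Stmt_B1M_ext := by
  intro k _ S χ tr hχ X₁ X X₂ i π hses _ hX _ h₁ h₂ hH
  exact betaOneMono_ext_of_NC (Fermat.Agent.S55.H49.nc_all S) hχ tr i π hses hX h₁ h₂ hH

end Fermat.Agent.S56.GWC.H64

end

end
-- ==== END Fermat.Agent.S56.GWC.H64_B1M

-- ==== BEGIN Fermat.Agent.S56.H57_Line
section

/-!
# S56, leaf LOC-p-SO (helper57): strict-ordinary lines of `ρbar` at `p`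

* `soLine_unique`: a strict-ordinary line is unique (the cyclotomic character is ramified at `p`).
* `nEnd`, `hEnd`: the nilpotent `n₀` and the semisimple `h` attached to a basis `(v₀, w)`;
  the action of the decomposition group on them.
-/

set_option autoImplicit false
set_option linter.unusedSectionVars false
set_option linter.unusedVariables false

noncomputable section

namespace Fermat.Agent.S56.H57

open Fermat.Agent.S53 IsLocalRing groupCohomology ExtCitation Module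
  Fermat.Agent.S56.Dict.H85

section Unique

variable (p : ℕ) [Fact p.Prime] {k : Type} [Field k] [CharP k p] (ρbar : ResidualGaloisRep k)

theorem fix_of_omegaK_eq_one (σ : _root_.Fermat.Agent.S56.GQ) (h : omegaK p k σ = 1) (t : AlgebraicClosure ℚ)
    (ht : t ^ p = 1) : σ t = t := by
  have hp : p.Prime := Fact.out
  rw [map_root_eq_pow p σ t (by rw [pow_one]; exact ht)]
  have h1 : ((cycloExp p σ : ℕ) : k) = ((1 : ℕ) : k) := by
    rw [← omegaK_eq_natCast, h, Nat.cast_one]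
  have h2 : cycloExp p σ ≡ 1 [MOD p] := (CharP.natCast_eq_natCast k p).1 h1
  have h4 : cycloExp p σ % p = 1 := by
    have : cycloExp p σ % p = 1 % p := h2
    rwa [Nat.mod_eq_of_lt hp.one_lt] at this
  have h3 : cycloExp p σ = p * (cycloExp p σ / p) + 1 := by
    have := Nat.div_add_mod (cycloExp p σ) p
    omega
  rw [h3, pow_succ, pow_mul, ht, one_pow, one_mul]

/-- there is a vector outside a given line -/
theorem exists_not_smul (v₀ : ρbar.V) : ∃ v : ρbar.V, ∀ t : k, v ≠ t • v₀ := by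
  by_contra hcon
  have hall : ∀ v : ρbar.V, ∃ t : k, v = t • v₀ := by
    intro v
    by_contra h
    exact hcon ⟨v, fun t ht => h ⟨t, ht⟩⟩
  have htop : (⊤ : Submodule k ρbar.V) ≤ Submodule.span k {v₀} := by
    intro v _
    obtain ⟨t, rfl⟩ := hall v
    exact Submodule.smul_mem _ _ (Submodule.mem_span_singleton_self _)
  have h1 := Submodule.finrank_mono htop
  rw [finrank_top, ρbar.finrank_eq] at h1
  have h2 := finrank_span_singleton_le_one (k := k) v₀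
  omega

/-- **Uniqueness of the strict-ordinary line.** -/
theorem soLine_unique (hp2 : p ≠ 2) (P : ValuationSubring (AlgebraicClosure ℚ))
    (hP : P.LiesOverPrime p) (v₀ v₀' : ρbar.V) (h : IsSOLine p ρbar P v₀)
    (h' : IsSOLine p ρbar P v₀') : ∃ t : k, v₀' = t • v₀ := by
  obtain ⟨σ, hσ, ζ, hζ, hne⟩ := Fermat.Agent.R.H2.stmt_CycInertia p Fact.out hp2 P hP
  have hω : omegaK p k σ ≠ 1 := fun h1 => hne (fix_of_omegaK_eq_one p σ h1 ζ hζ)
  have hσD := mem_decomposition_of_mem_inertia P σ hσ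
  obtain ⟨z', hz1, hz2, hz3⟩ := h'.2.2 σ hσD
  -- `z' = 1`
  have hz : z' = 1 := by
    obtain ⟨v, hv⟩ := exists_not_smul ρbar v₀'
    obtain ⟨t₁, ht₁⟩ := hz3 v
    obtain ⟨t₂, ht₂⟩ := h'.2.1 σ hσ v
    by_contra hz
    have hz' : z' - 1 ≠ 0 := sub_ne_zero.2 hz
    have e : (z' - 1) • v = (t₂ - t₁) • v₀' := by
      rw [sub_smul, sub_smul, one_smul, ← ht₁, ← ht₂]
      abel
    apply hv ((z' - 1)⁻¹ * (t₂ - t₁))
    rw [mul_smul, ← e, smul_smul, inv_mul_cancel₀ hz', one_smul]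
  rw [hz, mul_one] at hz2
  obtain ⟨t, ht⟩ := h.2.1 σ hσ v₀'
  rw [hz2] at ht
  have hω' : omegaK p k σ - 1 ≠ 0 := sub_ne_zero.2 hω
  refine ⟨(omegaK p k σ - 1)⁻¹ * t, ?_⟩
  rw [mul_smul, ← ht]
  have : omegaK p k σ • v₀' - v₀' = (omegaK p k σ - 1) • v₀' := by rw [sub_smul, one_smul]
  rw [this, smul_smul, inv_mul_cancel₀ hω', one_smul]

end Unique

section NV

variable {k : Type} [Field k] {V : Type} [AddCommGroup V] [Module k V]

/-- `f` kills `v₀` and has image in `k v₀`. -/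
def NV (v₀ : V) (f : Module.End k V) : Prop :=
  f v₀ = 0 ∧ ∀ v : V, ∃ t : k, f v = t • v₀

theorem NV.zero (v₀ : V) : NV v₀ (0 : Module.End k V) :=
  ⟨rfl, fun _ => ⟨0, by simp⟩⟩

theorem NV.add {v₀ : V} {f g : Module.End k V} (hf : NV v₀ f) (hg : NV v₀ g) :
    NV v₀ (f + g) := by
  refine ⟨by rw [LinearMap.add_apply, hf.1, hg.1, add_zero], fun v => ?_⟩
  obtain ⟨t, ht⟩ := hf.2 v
  obtain ⟨s, hs⟩ := hg.2 v
  exact ⟨t + s, by rw [LinearMap.add_apply, ht, hs, add_smul]⟩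

theorem NV.smul {v₀ : V} {f : Module.End k V} (hf : NV v₀ f) (a : k) : NV v₀ (a • f) := by
  refine ⟨by rw [LinearMap.smul_apply, hf.1, smul_zero], fun v => ?_⟩
  obtain ⟨t, ht⟩ := hf.2 v
  exact ⟨a * t, by rw [LinearMap.smul_apply, ht, smul_smul]⟩

theorem NV.of_smul {v₀ v₀' : V} (hv₀ : v₀ ≠ 0) (hv₀' : v₀' ≠ 0) (t : k) (ht : v₀' = t • v₀)
    {f : Module.End k V} (hf : NV v₀' f) : NV v₀ f := by
  have ht0 : t ≠ 0 := by
    rintro rfl
    rw [zero_smul] at ht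
    exact hv₀' ht
  refine ⟨?_, fun v => ?_⟩
  · have h1 := hf.1
    rw [ht, map_smul] at h1
    exact (smul_eq_zero.1 h1).resolve_left ht0
  · obtain ⟨s, hs⟩ := hf.2 v
    exact ⟨s * t, by rw [hs, ht, smul_smul]⟩

end NV

section Basis

variable {k : Type} [Field k] {V : Type} [AddCommGroup V] [Module k V]

theorem exists_basis_of_ne_zero (hV : finrank k V = 2) (v₀ : V) (hv₀ : v₀ ≠ 0) :
    ∃ b : Basis (Fin 2) k V, b 0 = v₀ := by
  have : FiniteDimensional k V := Module.finite_of_finrank_eq_succ hV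
  obtain ⟨w, hw⟩ := exists_linearIndependent_pair_of_one_lt_finrank (R := k) (M := V)
    (by rw [hV]; norm_num) hv₀
  refine ⟨basisOfLinearIndependentOfCardEqFinrank hw (by rw [hV]; rfl), ?_⟩
  rw [coe_basisOfLinearIndependentOfCardEqFinrank]
  rfl

variable (b : Basis (Fin 2) k V)

/-- the nilpotent endomorphism `v ↦ (coordinate of v along b 1) • b 0` -/
def nEnd : Module.End k V := (b.coord 1).smulRight (b 0)

/-- the semisimple endomorphism with `b 0 ↦ b 0`, `b 1 ↦ - b 1` -/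
def hEnd : Module.End k V := LinearMap.id - (2 : k) • (b.coord 1).smulRight (b 1)

@[simp] theorem nEnd_apply (v : V) : nEnd b v = b.coord 1 v • b 0 := rfl

@[simp] theorem hEnd_apply (v : V) : hEnd b v = v - (2 : k) • (b.coord 1 v • b 1) := rfl

theorem trace_nEnd : LinearMap.trace k V (nEnd b) = 0 := by
  have : Module.Finite k V := Module.Finite.of_basis b
  rw [nEnd, LinearMap.trace_smulRight]
  simp

theorem trace_hEnd (hV : finrank k V = 2) : LinearMap.trace k V (hEnd b) = 0 := by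
  have : Module.Finite k V := Module.Finite.of_basis b
  rw [hEnd, map_sub, map_smul, LinearMap.trace_smulRight, LinearMap.trace_id, hV]
  simp

theorem nEnd_ne_zero : nEnd b ≠ 0 := by
  intro h
  have := congrArg (fun f : Module.End k V => b.coord 0 (f (b 1))) h
  simp at this

theorem nEnd_NV : NV (b 0) (nEnd b) :=
  ⟨by simp, fun v => ⟨b.coord 1 v, rfl⟩⟩

/-- an endomorphism killing `b 0` with image in `k (b 0)` is a multiple of `nEnd` -/
theorem eq_smul_nEnd_of_NV (f : Module.End k V) (hf : NV (b 0) f) :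
    f = (b.coord 0 (f (b 1))) • nEnd b := by
  apply b.ext
  intro i
  fin_cases i
  · simp [hf.1]
  · obtain ⟨t, ht⟩ := hf.2 (b 1)
    simp [ht]

theorem hEnd_ne_smul_nEnd (h2 : (2 : k) ≠ 0) (d : k) : hEnd b ≠ d • nEnd b := by
  intro h
  have := congrArg (fun f : Module.End k V => b.coord 0 (f (b 0))) h
  simp at this

end Basis

end Fermat.Agent.S56.H57

end

end
-- ==== END Fermat.Agent.S56.H57_Line

-- ==== BEGIN Fermat.Agent.S56.TWS.H64_PrimeFinal
section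

set_option autoImplicit false

/-!
# S56 / TW-SELECT, package TWS-D: `stmt_prime : Stmt_prime` (helper64 + helper13)
-/

namespace Fermat.Agent.S56.TWS.H64

open groupCohomology ExtCitation Fermat.Agent.S56

theorem stmt_loc : Stmt_loc := by
  intro k _ M F hF hM c hc q A hA φ hφ h0
  haveI := hF
  exact Fermat.Agent.S56.TWS.H13.loc_coboundary M F hM c hc q A hA φ hφ h0

/-- **TWS-D.** -/
theorem stmt_prime : Stmt_prime := stmt_prime_of_loc stmt_loc

end Fermat.Agent.S56.TWS.H64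

end
-- ==== END Fermat.Agent.S56.TWS.H64_PrimeFinal

-- ==== BEGIN Fermat.Agent.S56.Wiring3
section

set_option autoImplicit false

/-!
# Cluster T / S56: third-level wiring (the current frontier)

`wiring3` proves the frozen statement S56 from the leaves that are still open:

* GW-FIN-glob `Stmt_fin_glob`, GW-FIN-loc `Stmt_fin_loc`, GW-CORE `Stmt_GW_core` (`GW/Defs.lean`),
* TW-SELECT `Stmt_TW_select`,
* LOC-p-SO `Stmt_loc_p_SO`, LOC-p-FL `Stmt_loc_p_Fl`, LOC-min `Stmt_loc_min`.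

Everything else (T-A, T-S-SO, T-S-Fl, DICT, GLOB-h0, LOC-inf, LOC-TW, LOC-TW-h0, UNR, AD0-basic,
TATE-basic, ASSEMBLY, GW-ALG) is proved and discharged here.  No `sorry`.
-/

namespace Fermat.Agent.S56

open Polynomial IsLocalRing

theorem wiring3 (hfg : Stmt_fin_glob) (hfl : Stmt_fin_loc) (hcore : Stmt_GW_core)
    (hTWsel : Stmt_TW_select)
    (hlocpSO : Stmt_loc_p_SO) (hlocpFl : Stmt_loc_p_Fl) (hlocmin : Stmt_loc_min)
    {𝒪 : Type} [CommRing 𝒪] [IsDomain 𝒪] [IsDiscreteValuationRing 𝒪]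
    [IsAdicComplete (maximalIdeal 𝒪) 𝒪] [Finite (ResidueField 𝒪)]
    (p : ℕ) [Fact p.Prime] (hp2 : p ≠ 2) (hp𝒪 : (p : 𝒪) ∈ maximalIdeal 𝒪)
    (ρbar : ResidualGaloisRep (ResidueField 𝒪))
    (habs : ρbar.IsAbsolutelyIrreducible)
    (hdet : (GaloisRepAdic.ofResidualGaloisRep ρbar).DetIsCyclotomic p)
    (hsplit : ∀ σ : AlgebraicClosure ℚ ≃ₐ[ℚ] AlgebraicClosure ℚ,
      ∃ α β : ResidueField 𝒪, LinearMap.charpoly (ρbar.ρ σ) = (X - C α) * (X - C β))
    (hTW : ∀ (K : Type) [Field K] [Algebra (ResidueField 𝒪) K]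
      (G : Subgroup (AlgebraicClosure ℚ ≃ₐ[ℚ] AlgebraicClosure ℚ)), G.index = 2 →
      ∀ V : Submodule K (ρbar.baseChange K).V,
        (∀ σ ∈ G, ∀ x ∈ V, (ρbar.baseChange K).ρ σ x ∈ V) → V = ⊥ ∨ V = ⊤)
    (S Smin : Finset ℕ) (hpSmin : p ∈ Smin) (hSmin : Smin ⊆ S) (hS : ∀ q ∈ S, q.Prime)
    (hmin : ∀ q : ℕ, q.Prime → q ≠ p → (q ∈ Smin ↔ ¬ ρbar.IsUnramifiedAt q)) :
    (∃ r : ℕ, ∀ n : ℕ, ∃ qv : Fin r → ℕ, Function.Injective qv ∧
      (∀ i, (qv i).Prime ∧ qv i ∉ S ∧ p ^ (n + 1) ∣ qv i - 1) ∧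
      (∀ i, ∀ P : ValuationSubring (AlgebraicClosure ℚ), P.LiesOverPrime (qv i) →
        ∀ φ : AlgebraicClosure ℚ ≃ₐ[ℚ] AlgebraicClosure ℚ, P.IsFrobeniusAt φ (qv i) →
          ∃ α β : ResidueField 𝒪, α ≠ β ∧ LinearMap.charpoly (ρbar.ρ φ) = (X - C α) * (X - C β)) ∧
      ∀ DQ : GaloisRep.DeformationRingData 𝒪 ρbar (fun _A _ _ _ ρ =>
          GaloisRep.strictOrdinaryCondition 𝒪 p (Smin ∪ Finset.univ.image qv) ρ ∧
            ∀ q ∈ Smin, q.Prime → q ≠ p → ρ.IsUnipotentOnInertiaAt q),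
        ∃ γ : MvPowerSeries (Fin r) 𝒪 →ₐ[𝒪] DQ.R, Function.Surjective γ) ∧
    (∃ r : ℕ, ∀ n : ℕ, ∃ qv : Fin r → ℕ, Function.Injective qv ∧
      (∀ i, (qv i).Prime ∧ qv i ∉ S ∧ p ^ (n + 1) ∣ qv i - 1) ∧
      (∀ i, ∀ P : ValuationSubring (AlgebraicClosure ℚ), P.LiesOverPrime (qv i) →
        ∀ φ : AlgebraicClosure ℚ ≃ₐ[ℚ] AlgebraicClosure ℚ, P.IsFrobeniusAt φ (qv i) →
          ∃ α β : ResidueField 𝒪, α ≠ β ∧ LinearMap.charpoly (ρbar.ρ φ) = (X - C α) * (X - C β)) ∧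
      ∀ DQ : GaloisRep.DeformationRingData 𝒪 ρbar (fun _A _ _ _ ρ =>
          GaloisRep.flatCondition 𝒪 p (Smin ∪ Finset.univ.image qv) ρ ∧
            ∀ q ∈ Smin, q.Prime → q ≠ p → ρ.IsUnipotentOnInertiaAt q),
        ∃ γ : MvPowerSeries (Fin r) 𝒪 →ₐ[𝒪] DQ.R, Function.Surjective γ) :=
  wiring H50.surj H92.stmt_stable_SO H92.stmt_stable_Fl
    (stmt_TW_SO_of_leaves (gw_of_core hfg hfl hcore) hTWsel H27.stmt_glob_h0 H13.stmt_loc_inf
      H9.stmt_loc_TW H59.stmt_loc_TW_h0 H13.stmt_unr_of_res_zero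
      Dict.stmt_dict_exists Dict.H85.stmt_dict_inj Dict.stmt_dict_cont H47.ad0_basic
      H47.tate_basic hlocpSO hlocmin)
    (stmt_TW_Fl_of_leaves (gw_of_core hfg hfl hcore) hTWsel H27.stmt_glob_h0 H13.stmt_loc_inf
      H9.stmt_loc_TW H59.stmt_loc_TW_h0 H13.stmt_unr_of_res_zero
      Dict.stmt_dict_exists Dict.H85.stmt_dict_inj Dict.stmt_dict_cont H47.ad0_basic
      H47.tate_basic hlocpFl hlocmin)
    p hp2 hp𝒪 ρbar habs hdet hsplit hTW S Smin hpSmin hSmin hS hmin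

end Fermat.Agent.S56

end
-- ==== END Fermat.Agent.S56.Wiring3
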