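-- GENERATED (merged mirror, NOTES/tools/trim/merge3_helper67.py): 9 modules of the originals, bodies verbatim.
import Fermat.Agent.Zm.S56_L08_000
import Fermat.Agent.Zm.S56_L09_002
import Fermat.Agent.Zm.S56_L12_003
import Fermat.Agent.Zm.S56_L12_000
import Fermat.Agent.Zm.S56_L02_002
import Fermat.Agent.Zm.S56_L01_003
import Fermat.Agent.Zm.S56_L09_001
import Fermat.Agent.Zm.S56_L12_005
import Fermat.Agent.Zm.S56_L11_000
import Fermat.Agent.Zm.S56_L12_002
import Fermat.Agent.Zm.S56_L11_002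
import Fermat.Agent.Zm.S56_L09_004

-- ==== BEGIN Fermat.Agent.S55.CFT.GS.H24_ResInj
section

set_option autoImplicit false
set_option linter.unusedSectionVars false
set_option linter.unusedVariables false
set_option linter.style.haveILetI false

open CategoryTheory Module groupCohomology ExtCitation

open scoped Pointwise

noncomputable section

namespace Fermat.Agent.S55.CFT.GS.H24

open Fermat.Agent.S55 Fermat.Agent.S55.Top Fermat.Agent.S55.CFT.GS

local notation "Qb" => AlgebraicClosure ℚ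

section resR

variable {p : ℕ} [Fact p.Prime] {S : Finset Nat.Primes} {K : IntermediateField ℚ Qb}

/-- `p ∉` the primes outside `S`. -/
theorem hpS_of_mem (hp : pPrime p ∈ S) : ∀ q : Nat.Primes, q ∉ S → (q : ℕ) ≠ p := by
  intro q hq h
  apply hq
  have h1 : q = pPrime p := Subtype.ext h
  rw [h1]
  exact hp

/-- The residue cochain: `(g, A) ↦ ord_A(b g) mod p` at the places outside `S`. -/
def resR (S : Finset Nat.Primes) (p : ℕ) (b : ↥K.fixingSubgroup → Qbˣ)
    (g : ↥K.fixingSubgroup) (A : ValuationSubring Qb) : ZMod p :=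
  haveI := Classical.propDecidable (H6.OutS S A)
  if H6.OutS S A then ((H6.ordS A (b g : Qb) : ℤ) : ZMod p) else 0

theorem resR_of_outS {b : ↥K.fixingSubgroup → Qbˣ} (g : ↥K.fixingSubgroup)
    {A : ValuationSubring Qb} (hA : H6.OutS S A) :
    resR S p b g A = ((H6.ordS A (b g : Qb) : ℤ) : ZMod p) := by
  unfold resR
  rw [if_pos hA]

theorem resR_of_not_outS {b : ↥K.fixingSubgroup → Qbˣ} (g : ↥K.fixingSubgroup)
    {A : ValuationSubring Qb} (hA : ¬ H6.OutS S A) : resR S p b g A = 0 := by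
  unfold resR
  rw [if_neg hA]

theorem outS_smul_iff (g : GQ) (A : ValuationSubring Qb) : H6.OutS S (g • A) ↔ H6.OutS S A := by
  constructor
  · intro h
    have := h.smul g⁻¹
    rwa [inv_smul_smul] at this
  · intro h
    exact h.smul g

theorem smul_def_K (g : ↥K.fixingSubgroup) (A : ValuationSubring Qb) :
    g • A = (g : GQ) • A := rfl

/-- The cocycle identity of the residue cochain. -/
theorem resR_cocycle (hp : pPrime p ∈ S) {b : ↥K.fixingSubgroup → Qbˣ}
    (hbΩ : ∀ g, InOm S (b g : Qb)) (hW : ∀ t, InW S p (mOne b t))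
    (g h : ↥K.fixingSubgroup) (A : ValuationSubring Qb) :
    resR S p b (g * h) A = resR S p b h (g⁻¹ • A) + resR S p b g A := by
  have hpp : p.Prime := Fact.out
  by_cases hA : H6.OutS S A
  · have hA' : H6.OutS S (g⁻¹ • A) := by
      rw [smul_def_K]
      exact hA.smul _
    rw [resR_of_outS _ hA, resR_of_outS _ hA, resR_of_outS _ hA']
    have hΩ : InOm S ((mOne b (g, h) : Qbˣ) : Qb) := inOm_mOne hbΩ (g, h)
    have h1 := (H6.inW_iff_ordS hpp (hpS_of_mem hp) _ hΩ).1 (hW (g, h)) A hA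
    have e : ((mOne b (g, h) : Qbˣ) : Qb) =
        (g : GQ) (b h : Qb) / (b (g * h) : Qb) * (b g : Qb) := by
      rw [mOne_apply, Units.val_mul, Units.val_div_eq_div_val]
      rfl
    rw [e] at h1
    have hgb : InOm S ((g : GQ) (b h : Qb)) := inOm_map (hbΩ h) _
    have hgb0 : (g : GQ) (b h : Qb) ≠ 0 := by
      rw [Ne, map_eq_zero_iff _ (g : GQ).injective]
      exact (b h).ne_zero
    rw [H6.ordS_mul hA (div_ne_zero hgb0 (b (g * h)).ne_zero) (inOm_div hgb (hbΩ _))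
      (b g).ne_zero (hbΩ g), H6.ordS_div hA hgb0 hgb (b (g * h)).ne_zero (hbΩ _),
      H6.ordS_smul hA (g : GQ) (b h).ne_zero (hbΩ h)] at h1
    have h2 := (ZMod.intCast_zmod_eq_zero_iff_dvd _ p).2 h1
    push_cast at h2
    have e2 : (g⁻¹ : ↥K.fixingSubgroup) • A = ((g : GQ))⁻¹ • A := rfl
    rw [e2]
    linear_combination -h2
  · have hA' : ¬ H6.OutS S (g⁻¹ • A) := by
      rw [smul_def_K, outS_smul_iff]
      exact hA
    rw [resR_of_not_outS _ hA, resR_of_not_outS _ hA, resR_of_not_outS _ hA', add_zero]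

/-- Vanishing residues. -/
theorem resR_stab {b : ↥K.fixingSubgroup → Qbˣ}
    (hres : ∀ q : Nat.Primes, q ∉ S → ∀ A : ValuationSubring Qb, A.LiesOverPrime (q : ℕ) →
      ResTrivAt p K A (q : ℕ) b)
    (g : ↥K.fixingSubgroup) (A : ValuationSubring Qb) (hg : g • A = A) :
    resR S p b g A = 0 := by
  by_cases hA : H6.OutS S A
  · rw [resR_of_outS _ hA]
    obtain ⟨q, hq, hAq⟩ := hA
    obtain ⟨k, hk⟩ := hres q hq A hAq g hg
    rw [H6.ordS_eq q hAq hk]
    push_cast
    simp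
  · exact resR_of_not_outS _ hA

/-- The level of the residue cochain. -/
theorem resR_level {b : ↥K.fixingSubgroup → Qbˣ} {F : IntermediateField ℚ Qb}
    (hF : ∀ g s : ↥K.fixingSubgroup, (s : GQ) ∈ F.fixingSubgroup → b (g * s) = b g)
    (g s : ↥K.fixingSubgroup) (hs : (s : GQ) ∈ F.fixingSubgroup) :
    resR S p b (g * s) = resR S p b g := by
  funext A
  unfold resR
  rw [hF g s hs]

/-- The residue cochain is supported over finitely many primes. -/
theorem resR_support (hK : K.IsUnramifiedOutside S) {b : ↥K.fixingSubgroup → Qbˣ}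
    (hb : IsLevK₁ S K b) :
    ∃ N : ℤ, N ≠ 0 ∧ ∀ q : Nat.Primes, ¬ ((q : ℕ) : ℤ) ∣ N → ∀ A : ValuationSubring Qb,
      A.LiesOverPrime (q : ℕ) → ∀ g, resR S p b g A = 0 := by
  classical
  have hfin := H6.finite_range_of_isLevK₁ (S := S) K hK b hb
  choose N hN0 hN using fun x : Qbˣ => H6.exists_bound_ordS (x : Qb) x.ne_zero
  refine ⟨∏ x ∈ hfin.toFinset, N x, Finset.prod_ne_zero_iff.2 fun x _ => hN0 x, ?_⟩
  intro q hq A hA g
  have hg : b g ∈ hfin.toFinset := by
    rw [Set.Finite.mem_toFinset]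
    exact ⟨g, rfl⟩
  have h1 : ¬ ((q : ℕ) : ℤ) ∣ N (b g) := fun h => hq (h.trans (Finset.dvd_prod_of_mem N hg))
  unfold resR
  split_ifs
  · rw [hN (b g) q h1 A hA]
    simp
  · rfl

/-- The set of primes dividing a nonzero integer is finite. -/
theorem finite_primes_dvd {N : ℤ} (hN : N ≠ 0) :
    {q : Nat.Primes | ((q : ℕ) : ℤ) ∣ N}.Finite := by
  have h1 : {q : Nat.Primes | ((q : ℕ) : ℤ) ∣ N} ⊆
      (fun q : Nat.Primes => (q : ℕ)) ⁻¹' (Set.Iic N.natAbs) := by
    intro q hq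
    have h2 : (q : ℕ) ∣ N.natAbs := Int.natCast_dvd.1 hq
    exact Nat.le_of_dvd (Int.natAbs_pos.2 hN) h2
  exact ((Set.finite_Iic N.natAbs).preimage
    (Set.injOn_of_injective Subtype.coe_injective)).subset h1

/-- Conjugation invariance of the residues: `r(h g h⁻¹)(h A) = r(g)(A)` for `g ∈ D_A`. -/
theorem resR_conj {X M : Type} {G : Type} [Group G] [MulAction G X] [AddCommGroup M]
    {r : G → X → M} (hr : ∀ g h x, r (g * h) x = r h (g⁻¹ • x) + r g x)
    (h1 : ∀ x, r 1 x = 0) (g h : G) (x : X) (hg : g • x = x) :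
    r (h * g * h⁻¹) (h • x) = r g x := by
  have e1 := hr (h * g) h⁻¹ (h • x)
  have e2 := hr h g (h • x)
  have e3 := hr h h⁻¹ (h • x)
  rw [mul_inv_cancel, h1] at e3
  rw [inv_smul_smul] at e2
  have e4 : (h * g)⁻¹ • h • x = x := by
    rw [mul_inv_rev, mul_smul, inv_smul_smul]
    have : g⁻¹ • g • x = g⁻¹ • x := by rw [hg]
    rw [inv_smul_smul] at this
    exact this.symm
  rw [e4] at e1
  rw [inv_smul_smul] at e3
  rw [e1, e2]
  have e5 : r h⁻¹ x = - r h (h • x) := eq_neg_of_add_eq_zero_left e3.symm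
  rw [e5]
  abel

/-- **RES-INJ**: a cochain with coboundary in `W` and vanishing residues is a coboundary modulo
`W`. -/
theorem resInj (hCap : Stmt_RES_Cap) (hp : pPrime p ∈ S) (hK : K.IsUnramifiedOutside S)
    {b : ↥K.fixingSubgroup → Qbˣ} (hb : IsLevK₁ S K b) (hbΩ : ∀ g, InOm S (b g : Qb))
    (hW : ∀ t, InW S p (mOne b t))
    (hres : ∀ g : ↥K.fixingSubgroup, ∀ A : ValuationSubring Qb, g • A = A →
      resR S p b g A = 0) :
    ∃ t : Qbˣ, InOm S (t : Qb) ∧ ∀ g, InW S p (b g / (g • t / t)) := by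
  classical
  have hpp : p.Prime := Fact.out
  obtain ⟨φ, hφ1, hφ2, hφ3⟩ := resSh1 ↥K.fixingSubgroup (ValuationSubring Qb) (ZMod p)
    (resR S p b) (resR_cocycle hp hbΩ hW) hres
  obtain ⟨F, hF, hFb⟩ := hb
  obtain ⟨N, hN0, hN⟩ := resR_support (p := p) hK ⟨F, hF, hFb⟩
  obtain ⟨t, htΩ, ht⟩ := hCap p S hp φ (K ⊔ F) (hK.sup hF)
    (by
      intro s hs A
      have hsK : s ∈ K.fixingSubgroup :=
        IntermediateField.fixingSubgroup_antitone le_sup_left hs
      have hsF : s ∈ F.fixingSubgroup :=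
        IntermediateField.fixingSubgroup_antitone le_sup_right hs
      exact hφ2 ⟨s, hsK⟩ (fun g => resR_level hFb g ⟨s, hsK⟩ hsF) A)
    (by
      refine (finite_primes_dvd hN0).subset ?_
      rintro q ⟨A, hA, hφA⟩
      by_contra hq
      apply hφA
      apply hφ3
      intro g h
      have hA' : (h • A).LiesOverPrime (q : ℕ) := H6.ur_liesOver_smul A (h : GQ) (q : ℕ) hA
      exact hN q hq (h • A) hA' g)
  refine ⟨t, htΩ, fun g => ?_⟩
  have hxΩ : InOm S ((b g / (g • t / t) : Qbˣ) : Qb) := by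
    rw [Units.val_div_eq_div_val]
    exact inOm_div (hbΩ g) (inOm_bdry htΩ g)
  rw [H6.inW_iff_ordS hpp (hpS_of_mem hp) _ hxΩ]
  intro A hA
  have hA' : H6.OutS S ((g : GQ)⁻¹ • A) := hA.smul _
  have e : ((b g / (g • t / t) : Qbˣ) : Qb) = (b g : Qb) / ((g : GQ) (t : Qb) / (t : Qb)) := by
    rw [Units.val_div_eq_div_val, Units.val_div_eq_div_val]
    rfl
  have hgt : InOm S ((g : GQ) (t : Qb)) := inOm_map htΩ _
  have hgt0 : (g : GQ) (t : Qb) ≠ 0 := by
    rw [Ne, map_eq_zero_iff _ (g : GQ).injective]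
    exact t.ne_zero
  rw [e, H6.ordS_div hA (b g).ne_zero (hbΩ g) (div_ne_zero hgt0 t.ne_zero) (inOm_div hgt htΩ),
    H6.ordS_div hA hgt0 hgt t.ne_zero htΩ, H6.ordS_smul hA (g : GQ) t.ne_zero htΩ]
  rw [← ZMod.intCast_zmod_eq_zero_iff_dvd]
  push_cast
  -- the values of `φ`
  have key : ∀ B : ValuationSubring Qb, H6.OutS S B → ((H6.ordS B (t : Qb) : ℤ) : ZMod p) = φ B := by
    rintro B ⟨q, hq, hB⟩
    obtain ⟨k, hk, hkφ⟩ := ht q hq B hB
    rw [H6.ordS_eq q hB hk, hkφ]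
  rw [key A hA, key _ hA']
  have h1 : resR S p b g A = φ (((g : GQ))⁻¹ • A) - φ A := hφ1 g A
  rw [resR_of_outS _ hA] at h1
  rw [h1]
  ring

end resR

end Fermat.Agent.S55.CFT.GS.H24

end

end
-- ==== END Fermat.Agent.S55.CFT.GS.H24_ResInj

-- ==== BEGIN Fermat.Agent.S55.CFT.GS.H25_UnrH2Desc
section

set_option autoImplicit false
set_option linter.unusedSectionVars false
set_option linter.style.haveILetI false
set_option linter.unusedVariables false

namespace Fermat.Agent.S55.CFT.GS.H25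

open Fermat.Agent.S55.CFT Fermat.Agent.S55.CFT.LOC

/-- **UNR-H2, descent.** -/
theorem stmt_UnrH2_of (hcore : H68.Stmt_UnrH2_Core) : Bri.Stmt_UnrH2 := by
  intro q _ F₀ E hF₀ hE hle hst hval hcyc cw hcwE hcwn hcwc hcoc
  classical
  haveI : Normal ↥F₀ ↥(IntermediateField.extendScalars hle) :=
    normal_extendScalars F₀ E hle hst
  -- the cochain at the level of `Δ`
  let Cfun : ↥F₀.fixingSubgroup × ↥F₀.fixingSubgroup → ↥(IntermediateField.extendScalars hle) :=
    fun t => ⟨cw t, hcwE t⟩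
  have hCloc : ∀ g g' s s' : ↥F₀.fixingSubgroup,
      (s : PadicAlgCl q ≃ₐ[ℚ_[q]] PadicAlgCl q) ∈ E.fixingSubgroup →
      (s' : PadicAlgCl q ≃ₐ[ℚ_[q]] PadicAlgCl q) ∈ E.fixingSubgroup →
      Cfun (g * s, g' * s') = Cfun (g, g') := by
    intro g g' s s' hs hs'
    exact Subtype.ext (hcwc g g' s s' hs hs')
  obtain ⟨cbar, hcbar⟩ := LOC.H68.exists_factor₂ F₀ (IntermediateField.extendScalars hle) E
    (fun x hx => hx) Cfun hCloc
  have hcbar' : ∀ g h : ↥F₀.fixingSubgroup,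
      ((cbar (LOC.H68.resΓ F₀ (IntermediateField.extendScalars hle) g,
        LOC.H68.resΓ F₀ (IntermediateField.extendScalars hle) h) :
          ↥(IntermediateField.extendScalars hle)) : PadicAlgCl q) = cw (g, h) := by
    intro g h
    rw [← hcbar]
  obtain ⟨ubar, hun, hueq⟩ := hcore q F₀ E hF₀ hE hle hst hval hcyc cbar
    (by
      rintro ⟨τ₁, τ₂⟩
      obtain ⟨σ₁, rfl⟩ := LOC.H68.resΓ_surjective F₀ (IntermediateField.extendScalars hle) τ₁
      obtain ⟨σ₂, rfl⟩ := LOC.H68.resΓ_surjective F₀ (IntermediateField.extendScalars hle) τ₂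
      rw [hcbar']
      exact hcwn _)
    (by
      intro τ₁ τ₂ τ₃
      obtain ⟨σ₁, rfl⟩ := LOC.H68.resΓ_surjective F₀ (IntermediateField.extendScalars hle) τ₁
      obtain ⟨σ₂, rfl⟩ := LOC.H68.resΓ_surjective F₀ (IntermediateField.extendScalars hle) τ₂
      obtain ⟨σ₃, rfl⟩ := LOC.H68.resΓ_surjective F₀ (IntermediateField.extendScalars hle) τ₃
      apply Subtype.ext
      rw [← map_mul, ← map_mul]
      show ((LOC.H68.resΓ F₀ (IntermediateField.extendScalars hle) σ₁ _ :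
          ↥(IntermediateField.extendScalars hle)) : PadicAlgCl q) * _ = _ * _
      rw [LOC.H68.resΓ_apply, hcbar', hcbar', hcbar', hcbar']
      exact hcoc σ₁ σ₂ σ₃)
  refine ⟨fun h => ((ubar (LOC.H68.resΓ F₀ (IntermediateField.extendScalars hle) h) :
      ↥(IntermediateField.extendScalars hle)) : PadicAlgCl q), fun h => ?_, fun h => hun _,
    fun h s hs => ?_, fun h₁ h₂ => ?_⟩
  · exact (ubar (LOC.H68.resΓ F₀ (IntermediateField.extendScalars hle) h)).2
  · have h1 : LOC.H68.resΓ F₀ (IntermediateField.extendScalars hle) s = 1 := by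
      rw [LOC.H68.resΓ_eq_one_iff]
      intro x hx
      exact (IntermediateField.mem_fixingSubgroup_iff E _).1 hs x hx
    show ((ubar (LOC.H68.resΓ F₀ (IntermediateField.extendScalars hle) (h * s)) :
      ↥(IntermediateField.extendScalars hle)) : PadicAlgCl q) = _
    rw [map_mul, h1, mul_one]
  · have h := hueq (LOC.H68.resΓ F₀ (IntermediateField.extendScalars hle) h₁)
      (LOC.H68.resΓ F₀ (IntermediateField.extendScalars hle) h₂)
    have h2 := congrArg (Subtype.val : ↥(IntermediateField.extendScalars hle) → PadicAlgCl q) h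
    rw [← map_mul] at h2
    have h3 : ((cbar (LOC.H68.resΓ F₀ (IntermediateField.extendScalars hle) h₁,
          LOC.H68.resΓ F₀ (IntermediateField.extendScalars hle) h₂) :
          ↥(IntermediateField.extendScalars hle)) : PadicAlgCl q) *
        ((ubar (LOC.H68.resΓ F₀ (IntermediateField.extendScalars hle) (h₁ * h₂)) :
          ↥(IntermediateField.extendScalars hle)) : PadicAlgCl q) =
        ((LOC.H68.resΓ F₀ (IntermediateField.extendScalars hle) h₁
          (ubar (LOC.H68.resΓ F₀ (IntermediateField.extendScalars hle) h₂)) :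
          ↥(IntermediateField.extendScalars hle)) : PadicAlgCl q) *
        ((ubar (LOC.H68.resΓ F₀ (IntermediateField.extendScalars hle) h₁) :
          ↥(IntermediateField.extendScalars hle)) : PadicAlgCl q) := h2
    rw [LOC.H68.resΓ_apply, hcbar'] at h3
    exact h3

end Fermat.Agent.S55.CFT.GS.H25

end
-- ==== END Fermat.Agent.S55.CFT.GS.H25_UnrH2Desc

-- ==== BEGIN Fermat.Agent.S55.CFT.GS.H56_CocUnits
section

set_option autoImplicit false
set_option linter.unusedSectionVars false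
set_option linter.style.haveILetI false

open NumberField TensorProduct CategoryTheory

noncomputable section

namespace Fermat.Agent.S55.CFT.GS.H56

open Fermat.Agent.S55.CFT groupCohomology

/-- A class of `H²(G, B)` represented by a cocycle with values in the image of an injective
morphism `A → B` comes from `H²(G, A)`. -/
theorem exists_map_eq_of_values {k G : Type} [CommRing k] [Group G] (A B : Rep.{0} k G)
    (φ : A ⟶ B) (hφ : Function.Injective φ.hom) (c : cocycles₂ B)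
    (hc : ∀ gh : G × G, ∃ a : A.V, φ.hom a = c gh) :
    ∃ e : groupCohomology A 2, (groupCohomology.map (MonoidHom.id G) φ 2).hom e = H2π B c := by
  choose cT hcT using hc
  have hcoc : cT ∈ cocycles₂ A := by
    rw [mem_cocycles₂_iff]
    intro g h j
    apply hφ
    have h0 := (mem_cocycles₂_iff (c : G × G → B.V)).1 c.2 g h j
    rw [map_add, map_add, Rep.hom_comm_apply, hcT, hcT, hcT, hcT]
    exact h0
  refine ⟨H2π A ⟨cT, hcoc⟩, ?_⟩
  refine (H2π_comp_map_apply (MonoidHom.id G) φ ⟨cT, hcoc⟩).trans ?_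
  congr 1
  apply Subtype.ext
  funext gh
  exact hcT gh

variable (K L : Type) [Field K] [Field L] [NumberField K] [NumberField L] [Algebra K L]

/-- Every class of `H²(Gal(L/K), Lˣ)` is the image of a class with values in the `T`-units, for
every `T` containing a suitable finite set. -/
theorem exists_unitsMap_eq (x : groupCohomology (repL K L) 2) :
    ∃ T₀ : Finset Nat.Primes, ∀ T : Finset Nat.Primes, T₀ ⊆ T →
      ∃ e : groupCohomology (repE K L T) 2, unitsMap K L T 2 e = x := by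
  classical
  haveI : FiniteDimensional K L := Module.Finite.of_restrictScalars_finite ℚ K L
  letI : Fintype (L ≃ₐ[K] L) := Fintype.ofFinite _
  induction x using H2_induction_on with
  | h c =>
    have hex : ∀ gh : (L ≃ₐ[K] L) × (L ≃ₐ[K] L), ∃ T₀ : Finset Nat.Primes,
        ∀ T : Finset Nat.Primes, T₀ ⊆ T → (Additive.toMul (c gh) : Lˣ) ∈ TUnits L T :=
      fun gh => Fermat.Agent.S55.CFT.H56.exists_finset_forall_mem_TUnits L _
    choose T₀' hT₀' using hex
    refine ⟨Finset.univ.biUnion T₀', fun T hT => ?_⟩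
    have hmem : ∀ gh, (Additive.toMul (c gh) : Lˣ) ∈ TUnits L T := fun gh =>
      hT₀' gh T ((Finset.subset_biUnion_of_mem T₀' (Finset.mem_univ gh)).trans hT)
    have hinj : Function.Injective (unitsToL K L T).hom := by
      intro a b hab
      have h1 : ((Additive.toMul a : TUnits L T) : Lˣ) = ((Additive.toMul b : TUnits L T) : Lˣ) :=
        congrArg Additive.toMul hab
      exact congrArg Additive.ofMul (Subtype.ext h1)
    exact exists_map_eq_of_values (repE K L T) (repL K L) (unitsToL K L T) hinj c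
      (fun gh => ⟨Additive.ofMul (⟨_, hmem gh⟩ : TUnits L T), rfl⟩)

end Fermat.Agent.S55.CFT.GS.H56

end
end
-- ==== END Fermat.Agent.S55.CFT.GS.H56_CocUnits

-- ==== BEGIN Fermat.Agent.S55.CFT.GS.H68_UnrH2
section

set_option autoImplicit false
set_option linter.unusedSectionVars false
set_option linter.style.haveILetI false
set_option linter.unusedVariables false

open CategoryTheory groupCohomology

noncomputable section

namespace Fermat.Agent.S55.CFT.GS.H68

open Fermat.Agent.S55.CFT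

/-- `H²` of a finite cyclic group vanishes if every invariant is a norm (multiplicative
cochain form). -/
theorem isMulCoboundary₂_of_cyclic_norm {Δ U : Type} [Group Δ] [Fintype Δ] [CommGroup U]
    [MulDistribMulAction Δ U] (σ : Δ) (hσ : ∀ x, x ∈ Subgroup.zpowers σ)
    (hN : ∀ a : U, (∀ g : Δ, g • a = a) → ∃ b : U, a = ∏ x : Δ, x • b)
    (f : Δ × Δ → U) (hf : IsMulCocycle₂ f) : IsMulCoboundary₂ f := by
  obtain ⟨e, he⟩ := H13.exists_dlog σ hσ
  obtain ⟨a, ha, hx⟩ := H19.exists_cycCl (Rep.ofMulDistribMulAction Δ U) he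
    (H2π (Rep.ofMulDistribMulAction Δ U) (cocyclesOfIsMulCocycle₂ hf))
  obtain ⟨b, hb⟩ := hN (Additive.toMul a) (fun g => ha g)
  have h0 : H19.cycCl (Rep.ofMulDistribMulAction Δ U) he a ha = 0 := by
    rw [H19.cycCl_eq_zero_iff]
    refine ⟨Additive.ofMul b, ?_⟩
    have h1 : (∑ x : Δ, (Rep.ofMulDistribMulAction Δ U).ρ x (Additive.ofMul b)) =
        Additive.ofMul (∏ x : Δ, x • b) := by
      rw [ofMul_prod]
      rfl
    rw [h1, ← hb]
    rfl
  rw [h0] at hx
  have h2 := (H2π_eq_zero_iff _).1 hx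
  exact isMulCoboundary₂_of_mem_coboundaries₂ _ h2

section units

variable {q : ℕ} [Fact q.Prime] (F₀ : IntermediateField ℚ_[q] (PadicAlgCl q))
  (E' : IntermediateField ↥F₀ (PadicAlgCl q))

theorem ist_top : IsScalarTower ℚ_[q] ↥E' (PadicAlgCl q) :=
  IsScalarTower.of_algebraMap_eq (fun _ => rfl)

attribute [local instance] ist_top

theorem nrm_eq_norm_top (y : ↥E') : LOC.nrm q ↥E' y = ‖(y : PadicAlgCl q)‖ := by
  rw [← PadicAlgCl.spectralNorm_eq]
  exact spectralNorm.eq_of_tower (K := ℚ_[q]) (L := PadicAlgCl q) (E := ↥E') y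

theorem nrm_eq_norm_base (x : ↥F₀) : LOC.nrm q ↥F₀ x = ‖(x : PadicAlgCl q)‖ := by
  rw [← PadicAlgCl.spectralNorm_eq]
  exact spectralNorm.eq_of_tower (K := ℚ_[q]) (L := PadicAlgCl q) (E := ↥F₀) x

theorem norm_aut_eq (τ : ↥E' ≃ₐ[↥F₀] ↥E') (y : ↥E') :
    ‖((τ y : ↥E') : PadicAlgCl q)‖ = ‖(y : PadicAlgCl q)‖ := by
  rw [← nrm_eq_norm_top, ← nrm_eq_norm_top]
  exact (spectralNorm_eq_of_equiv (τ.restrictScalars ℚ_[q]) y).symm

/-- the units of `E` of absolute value `1` -/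
def unitSub : Subgroup (↥E')ˣ where
  carrier := {u | ‖(((u : (↥E')ˣ) : ↥E') : PadicAlgCl q)‖ = 1}
  mul_mem' := by
    intro a b ha hb
    show ‖((((a * b : (↥E')ˣ)) : ↥E') : PadicAlgCl q)‖ = 1
    rw [Units.val_mul, MulMemClass.coe_mul, norm_mul, ha, hb, one_mul]
  one_mem' := by
    show ‖((((1 : (↥E')ˣ)) : ↥E') : PadicAlgCl q)‖ = 1
    simp
  inv_mem' := by
    intro a ha
    show ‖((((a⁻¹ : (↥E')ˣ)) : ↥E') : PadicAlgCl q)‖ = 1
    have h1 : ((a : ↥E') : PadicAlgCl q) * (((a⁻¹ : (↥E')ˣ) : ↥E') : PadicAlgCl q) = 1 := by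
      rw [← MulMemClass.coe_mul, ← Units.val_mul, mul_inv_cancel]
      rfl
    have h2 := congrArg norm h1
    rw [norm_mul, ha, one_mul, norm_one] at h2
    exact h2

theorem mem_unitSub (u : (↥E')ˣ) :
    u ∈ unitSub F₀ E' ↔ ‖(((u : (↥E')ˣ) : ↥E') : PadicAlgCl q)‖ = 1 := Iff.rfl

/-- the action of `Gal(E/F₀)` on the units of absolute value `1` -/
instance unitAct : MulDistribMulAction (↥E' ≃ₐ[↥F₀] ↥E') ↥(unitSub F₀ E') where
  smul τ u := ⟨Units.map (τ : ↥E' →* ↥E') u.1, by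
    rw [mem_unitSub]
    exact (norm_aut_eq F₀ E' τ _).trans u.2⟩
  one_smul u := by
    apply Subtype.ext
    apply Units.ext
    rfl
  mul_smul a b u := by
    apply Subtype.ext
    apply Units.ext
    rfl
  smul_mul τ u v := by
    apply Subtype.ext
    apply Units.ext
    exact map_mul τ _ _
  smul_one τ := by
    apply Subtype.ext
    apply Units.ext
    exact map_one τ

theorem unitAct_val (τ : ↥E' ≃ₐ[↥F₀] ↥E') (u : ↥(unitSub F₀ E')) :
    (((τ • u : ↥(unitSub F₀ E')) : (↥E')ˣ) : ↥E') = τ ((u : (↥E')ˣ) : ↥E') := rfl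

theorem unitAct_val' (τ : ↥E' ≃ₐ[↥F₀] ↥E') (u : ↥(unitSub F₀ E')) :
    (((τ • u : ↥(unitSub F₀ E')) : (↥E')ˣ)) = Units.map (τ : ↥E' →* ↥E') u.1 := rfl

/-- the value of an element of `unitSub` -/
def unitVal : ↥(unitSub F₀ E') →* ↥E' :=
  (Units.coeHom ↥E').comp (unitSub F₀ E').subtype

theorem unitVal_apply (u : ↥(unitSub F₀ E')) :
    unitVal F₀ E' u = ((u : (↥E')ˣ) : ↥E') := rfl

theorem unitVal_injective : Function.Injective (unitVal F₀ E') := by
  intro a b h
  apply Subtype.ext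
  apply Units.ext
  exact h

theorem unitVal_smul (τ : ↥E' ≃ₐ[↥F₀] ↥E') (u : ↥(unitSub F₀ E')) :
    unitVal F₀ E' (τ • u) = τ (unitVal F₀ E' u) := rfl

theorem norm_unitVal (u : ↥(unitSub F₀ E')) : ‖((unitVal F₀ E' u : ↥E') : PadicAlgCl q)‖ = 1 :=
  u.2

/-- an element of norm `1` as an element of `unitSub` -/
def mkUnit (y : ↥E') (hy : ‖(y : PadicAlgCl q)‖ = 1) : ↥(unitSub F₀ E') :=
  ⟨Units.mk0 y (by
    rintro rfl
    simp at hy), hy⟩

theorem unitVal_mkUnit (y : ↥E') (hy : ‖(y : PadicAlgCl q)‖ = 1) :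
    unitVal F₀ E' (mkUnit F₀ E' y hy) = y := rfl

/-- **UNR-H2, core**, general form. -/
theorem core_gen [FiniteDimensional ℚ_[q] ↥F₀] [FiniteDimensional ↥F₀ ↥E'] [IsGalois ↥F₀ ↥E']
    (hcyc : IsCyclic (↥E' ≃ₐ[↥F₀] ↥E')) (hunr : LOC.IsUnram q ↥F₀ ↥E')
    (c : (↥E' ≃ₐ[↥F₀] ↥E') × (↥E' ≃ₐ[↥F₀] ↥E') → ↥E')
    (hc1 : ∀ t, ‖((c t : ↥E') : PadicAlgCl q)‖ = 1)
    (hcoc : ∀ τ₁ τ₂ τ₃ : ↥E' ≃ₐ[↥F₀] ↥E',
      τ₁ (c (τ₂, τ₃)) * c (τ₁, τ₂ * τ₃) = c (τ₁ * τ₂, τ₃) * c (τ₁, τ₂)) :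
    ∃ u : (↥E' ≃ₐ[↥F₀] ↥E') → ↥E', (∀ τ, ‖((u τ : ↥E') : PadicAlgCl q)‖ = 1) ∧
      ∀ τ₁ τ₂ : ↥E' ≃ₐ[↥F₀] ↥E', c (τ₁, τ₂) * u (τ₁ * τ₂) = τ₁ (u τ₂) * u τ₁ := by
  classical
  obtain ⟨σ, hσ⟩ := hcyc.exists_generator
  let f : (↥E' ≃ₐ[↥F₀] ↥E') × (↥E' ≃ₐ[↥F₀] ↥E') → ↥(unitSub F₀ E') :=
    fun t => mkUnit F₀ E' (c t) (hc1 t)
  have hf : IsMulCocycle₂ f := by
    intro g h j
    apply unitVal_injective
    rw [map_mul, map_mul, unitVal_smul]
    exact (hcoc g h j).symm
  have hN : ∀ a : ↥(unitSub F₀ E'), (∀ g : ↥E' ≃ₐ[↥F₀] ↥E', g • a = a) →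
      ∃ b : ↥(unitSub F₀ E'), a = ∏ x : ↥E' ≃ₐ[↥F₀] ↥E', x • b := by
    intro a ha
    have hfix : ∀ g : ↥E' ≃ₐ[↥F₀] ↥E', g (unitVal F₀ E' a) = unitVal F₀ E' a := by
      intro g
      rw [← unitVal_smul, ha g]
    obtain ⟨x, hx⟩ := (IsGalois.mem_range_algebraMap_iff_fixed (F := ↥F₀) (E := ↥E')
      (unitVal F₀ E' a)).2 hfix
    have hx1 : LOC.nrm q ↥F₀ x = 1 := by
      rw [nrm_eq_norm_base]
      have h1 : ((x : ↥F₀) : PadicAlgCl q) = ((unitVal F₀ E' a : ↥E') : PadicAlgCl q) :=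
        congrArg (Subtype.val : ↥E' → PadicAlgCl q) hx
      rw [h1]
      exact norm_unitVal F₀ E' a
    obtain ⟨w, hw1, hw⟩ := LOC.H68.stmt_UnramNormUnits q ↥F₀ ↥E' hcyc hunr x hx1
    have hw1' : ‖((w : ↥E') : PadicAlgCl q)‖ = 1 := by
      rw [← nrm_eq_norm_top]
      exact hw1
    refine ⟨mkUnit F₀ E' w hw1', ?_⟩
    apply unitVal_injective
    rw [map_prod]
    have h2 := Algebra.norm_eq_prod_automorphisms ↥F₀ w
    rw [hw, hx] at h2
    rw [h2]
    apply Finset.prod_congr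
    · ext
      simp
    · intro τ _
      rfl
  obtain ⟨x, hx⟩ := isMulCoboundary₂_of_cyclic_norm σ hσ hN f hf
  refine ⟨fun τ => unitVal F₀ E' (x τ), fun τ => norm_unitVal F₀ E' _, ?_⟩
  intro τ₁ τ₂
  have h1 := hx τ₁ τ₂
  have h2 : f (τ₁, τ₂) * x (τ₁ * τ₂) = τ₁ • x τ₂ * x τ₁ := by
    rw [← h1]
    rw [div_mul_eq_mul_div, div_mul_cancel]
  have h3 := congrArg (unitVal F₀ E') h2
  rw [map_mul, map_mul, unitVal_smul] at h3
  exact h3

end units

section final

variable {q : ℕ} [Fact q.Prime]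

theorem stmt_UnrH2_Core : Stmt_UnrH2_Core := by
  intro q _ F₀ E hF hE hle hst hval hφ c hc1 hcoc
  classical
  haveI := hF
  haveI := hE
  haveI : Normal ↥F₀ ↥(IntermediateField.extendScalars hle) :=
    H25.normal_extendScalars F₀ E hle hst
  haveI : FiniteDimensional ℚ_[q] ↥(IntermediateField.extendScalars hle) := by
    show FiniteDimensional ℚ_[q] ↥E
    infer_instance
  haveI : FiniteDimensional ↥F₀ ↥(IntermediateField.extendScalars hle) :=
    FiniteDimensional.right ℚ_[q] ↥F₀ _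
  haveI : IsGalois ↥F₀ ↥(IntermediateField.extendScalars hle) := ⟨⟩
  -- cyclic
  have hcyc : IsCyclic (↥(IntermediateField.extendScalars hle) ≃ₐ[↥F₀]
      ↥(IntermediateField.extendScalars hle)) := by
    obtain ⟨φ, hφ'⟩ := hφ
    refine ⟨⟨LOC.H68.resΓ F₀ (IntermediateField.extendScalars hle) φ, ?_⟩⟩
    intro τ
    obtain ⟨h, rfl⟩ := LOC.H68.resΓ_surjective F₀ (IntermediateField.extendScalars hle) τ
    obtain ⟨n, s, hs, rfl⟩ := hφ' h
    have hs1 : LOC.H68.resΓ F₀ (IntermediateField.extendScalars hle) s = 1 := by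
      rw [LOC.H68.resΓ_eq_one_iff]
      intro x hx
      exact (IntermediateField.mem_fixingSubgroup_iff E _).1 hs x hx
    refine ⟨(n : ℤ), ?_⟩
    show LOC.H68.resΓ F₀ (IntermediateField.extendScalars hle) φ ^ (n : ℤ) = _
    rw [map_mul, map_pow, hs1, mul_one, zpow_natCast]
  -- unramified
  have hunr : LOC.IsUnram q ↥F₀ ↥(IntermediateField.extendScalars hle) := by
    intro y
    by_cases hy : y = 0
    · refine ⟨0, ?_⟩
      rw [hy, LOC.nrm_zero, LOC.nrm_zero]
    · have hy' : (y : PadicAlgCl q) ≠ 0 := fun h => hy (Subtype.ext h)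
      obtain ⟨k, hk⟩ := hval (y : PadicAlgCl q) y.2 hy'
      refine ⟨((q : ℕ) : ↥F₀) ^ k, ?_⟩
      rw [nrm_eq_norm_top, nrm_eq_norm_base, hk]
      have h1 : (((((q : ℕ) : ↥F₀) ^ k : ↥F₀)) : PadicAlgCl q) = ((q : ℕ) : PadicAlgCl q) ^ k := by
        have := map_zpow₀ (algebraMap ↥F₀ (PadicAlgCl q)) ((q : ℕ) : ↥F₀) k
        rw [map_natCast] at this
        exact this
      rw [h1, norm_zpow]
  exact core_gen F₀ (IntermediateField.extendScalars hle) hcyc hunr c hc1 hcoc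

end final

end Fermat.Agent.S55.CFT.GS.H68

end

end
-- ==== END Fermat.Agent.S55.CFT.GS.H68_UnrH2

-- ==== BEGIN Fermat.Agent.S55.CFT.GS.H6_URFinal
section

set_option autoImplicit false

namespace Fermat.Agent.S55.CFT.GS.H6

/-- **GS-UR** (`Stmt_GS_UnitRank`): `[U_K : U_Kᵖ] = p ^ n` with `2 n = [K : ℚ] + 2 #V`. -/
theorem stmt_GS_UnitRank : Stmt_GS_UnitRank :=
  stmt_GS_UnitRank_of Fermat.Agent.S55.CFT.GS.H01.stmt_UR_TC
    Fermat.Agent.S55.CFT.GS.H01.stmt_UR_U

end Fermat.Agent.S55.CFT.GS.H6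

end
-- ==== END Fermat.Agent.S55.CFT.GS.H6_URFinal

-- ==== BEGIN Fermat.Agent.S55.CFT.LOC.H68_H2Order2
section

set_option autoImplicit false
set_option linter.unusedSectionVars false
set_option linter.style.haveILetI false
set_option linter.unusedVariables false

namespace Fermat.Agent.S55.CFT.LOC.H68

open Fermat.Agent.S55.CFT.LOC Fermat.Agent.S55.CFT groupCohomology

attribute [local instance] addDMA

section order

variable (F E L : Type) [Field F] [Field E] [Field L] [Algebra F E] [Algebra F L] [Algebra E L]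
  [IsScalarTower F E L] [FiniteDimensional F L] [IsGalois F L] [FiniteDimensional F E]
  [IsGalois F E] [FiniteDimensional E L]
  (E' : IntermediateField F L) [IsGalois F E']

/-- **Steps 2–5, abstractly**: if the invariant element `a` of the cyclic extension `E'/F`
becomes a norm from `L = E·E'` to `E`, then `H²(Gal(E/F), Eˣ)` contains a class `γ` such that
`k'•γ = 0` implies that `k'•a` is a norm from `E'` to `F`. -/
theorem exists_class_order
    (hsup : E' ⊔ (IsScalarTower.toAlgHom F E L).fieldRange = ⊤)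
    (φ : E' ≃ₐ[F] E') (hφ : ∀ σ : E' ≃ₐ[F] E', σ ∈ Subgroup.zpowers φ)
    (a : Additive (↥E')ˣ) (ha : ∀ σ : E' ≃ₐ[F] E', σ • a = a)
    (y : Additive Lˣ) (hy : ∑ d : L ≃ₐ[E] L, d • y = unitsIncl E' L a) :
    ∃ γ : groupCohomology (unitsRep F E) 2, ∀ k' : ℤ, k' • γ = 0 →
      ∃ w : Additive (↥E')ˣ, ∑ σ : E' ≃ₐ[F] E', σ • w = k' • a := by
  classical
  have GI' := galois_infData F E' L
  have GIE := galois_infData F E L
  have hc₁ := isCocycle₂_cycCocycle φ hφ a ha
  have hc₂ : IsCocycle₂ (infl (AlgEquiv.restrictNormalHom E' : (L ≃ₐ[F] L) →* (E' ≃ₐ[F] E'))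
      (unitsIncl E' L) (cycCocycle φ hφ a)) := isCocycle₂_infl GI' hc₁
  obtain ⟨z, hz⟩ := exists_cobound_on_ker F E L E' hsup φ hφ (unitsIncl E' L a) y hy
  have hres : ∃ z : (L ≃ₐ[F] L) → Additive Lˣ, ∀ n n' : L ≃ₐ[F] L,
      (AlgEquiv.restrictNormalHom E : (L ≃ₐ[F] L) →* (E ≃ₐ[F] E)) n = 1 →
      (AlgEquiv.restrictNormalHom E : (L ≃ₐ[F] L) →* (E ≃ₐ[F] E)) n' = 1 →
      n • z n' - z (n * n') + z n =
        infl (AlgEquiv.restrictNormalHom E' : (L ≃ₐ[F] L) →* (E' ≃ₐ[F] E'))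
          (unitsIncl E' L) (cycCocycle φ hφ a) (n, n') := by
    refine ⟨z, fun n n' hn hn' => ?_⟩
    rw [hz n n' hn hn']
    simp only [infl, cycCocycle, map_nsmul]
  have key := H24.stmt_InfResExact (L ≃ₐ[F] L) (E ≃ₐ[F] E) (Additive Lˣ) (Additive Eˣ)
    (AlgEquiv.restrictNormalHom E : (L ≃ₐ[F] L) →* (E ≃ₐ[F] E)) (unitsIncl E L) GIE
    (infl (AlgEquiv.restrictNormalHom E' : (L ≃ₐ[F] L) →* (E' ≃ₐ[F] E'))
      (unitsIncl E' L) (cycCocycle φ hφ a)) hc₂ hres
  obtain ⟨c, hc, x, hx⟩ := key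
  have hmul : IsMulCocycle₂ (fun p : (E ≃ₐ[F] E) × (E ≃ₐ[F] E) => (Additive.toMul (c p) : Eˣ)) :=
    fun g h j => hc g h j
  have hmem : c ∈ cocycles₂ (unitsRep F E) := (cocyclesOfIsMulCocycle₂ hmul).2
  have step : ∀ k' : ℤ, k' • (H2π (unitsRep F E)) ⟨c, hmem⟩ = 0 →
      ∃ w : (E ≃ₐ[F] E) → Additive Eˣ, ∀ g h : E ≃ₐ[F] E,
        g • w h - w (g * h) + w g = k' • c (g, h) := by
    intro k' hk'
    have h0 : (H2π (unitsRep F E)) (k' • (⟨c, hmem⟩ : cocycles₂ (unitsRep F E))) = 0 := by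
      rw [map_zsmul]; exact hk'
    rw [H2π_eq_zero_iff] at h0
    obtain ⟨w, hw⟩ := h0
    refine ⟨w, fun g h => ?_⟩
    have := congrFun hw (g, h)
    exact this
  have fin : ∀ k' : ℤ, k' • (H2π (unitsRep F E)) ⟨c, hmem⟩ = 0 →
      ∃ w : Additive (↥E')ˣ, ∑ σ : E' ≃ₐ[F] E', σ • w = k' • a := by
    intro k' hk'
    obtain ⟨w, hw⟩ := step k' hk'
    have ha' : ∀ σ : E' ≃ₐ[F] E', σ • (k' • a) = k' • a := by
      intro σ
      rw [smul_comm, ha]
    have hcob : IsCoboundary₂ (cycCocycle φ hφ (k' • a)) := by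
      refine inf_injective GI' (cycCocycle φ hφ (k' • a))
        (isCocycle₂_cycCocycle φ hφ (k' • a) ha')
        (fun g => unitsIncl E L (w (AlgEquiv.restrictNormalHom E g)) + k' • x g) (fun g h => ?_)
      have h1 := infl_coboundary GIE w g h
      have h2 := hx g h
      have h3 := hw (AlgEquiv.restrictNormalHom E g) (AlgEquiv.restrictNormalHom E h)
      rw [h3, map_zsmul] at h1
      have h4 : unitsIncl E' L (cycCocycle φ hφ (k' • a)
          ((AlgEquiv.restrictNormalHom E') g, (AlgEquiv.restrictNormalHom E') h)) =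
          k' • infl (AlgEquiv.restrictNormalHom E' : (L ≃ₐ[F] L) →* (E' ≃ₐ[F] E'))
            (unitsIncl E' L) (cycCocycle φ hφ a) (g, h) := by
        rw [cycCocycle_zsmul]
        simp only [infl, Pi.smul_apply, map_zsmul]
      rw [h4, h2]
      have e1 : g • (unitsIncl E L (w (AlgEquiv.restrictNormalHom E h)) + k' • x h) =
          g • unitsIncl E L (w (AlgEquiv.restrictNormalHom E h)) + k' • (g • x h) := by
        rw [smul_add, smul_comm]
      have e2 : k' • (unitsIncl E L (c ((AlgEquiv.restrictNormalHom E) g,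
            (AlgEquiv.restrictNormalHom E) h)) + (g • x h - x (g * h) + x g)) =
          k' • unitsIncl E L (c ((AlgEquiv.restrictNormalHom E) g,
            (AlgEquiv.restrictNormalHom E) h)) +
            (k' • (g • x h) - k' • x (g * h) + k' • x g) := by
        rw [zsmul_add, zsmul_add, zsmul_sub]
      rw [e1, e2]
      linear_combination (norm := abel) -h1
    exact exists_norm_of_isCoboundary₂ φ hφ (k' • a) hcob
  exact ⟨(H2π (unitsRep F E)) ⟨c, hmem⟩, fin⟩

end order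

/-- **LOC-4f**: `H²(Gal(E/F), Eˣ)` contains a class of order `[E:F]`. -/
theorem stmt_LocalH2Order : Stmt_LocalH2Order := by
  intro q _ F E _ _ _ _ _ _ _
  classical
  letI : Algebra ℚ_[q] E := ((algebraMap F E).comp (algebraMap ℚ_[q] F)).toAlgebra
  haveI : IsScalarTower ℚ_[q] F E := IsScalarTower.of_algebraMap_eq (fun _ => rfl)
  obtain ⟨L, iField, iAlgQ, iAlgF, iAlgE, iTQ, iTF, iFD, iGal, E', k, hk, hGalE', hcycE', hdeg,
    hunr, hsup, hcycLE, hnorm⟩ := H25.stmt_UnramCompositum q F E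
  haveI : FiniteDimensional E L := FiniteDimensional.right F E L
  haveI : IsGalois E L := IsGalois.tower_top_of_isGalois F E L
  haveI : FiniteDimensional ℚ_[q] ↥E' := FiniteDimensional.trans ℚ_[q] F ↥E'
  obtain ⟨π, hπ0, hπ1, hπ⟩ := H68.stmt_Uniformizer q F
  have hπne : π ≠ 0 := by
    rintro rfl
    have : nrm q F (0 : F) = 0 := (nrm_eq_zero_iff q F).2 rfl
    rw [this] at hπ0
    exact lt_irrefl _ hπ0
  obtain ⟨φ, hφ⟩ := hcycE'.exists_generator
  have hne' : algebraMap F E' π ≠ 0 := by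
    rw [Ne, map_eq_zero_iff _ (algebraMap F ↥E').injective]
    exact hπne
  have hne : (algebraMap F E' π) ^ k ≠ 0 := pow_ne_zero _ hne'
  set a : Additive (↥E')ˣ := Additive.ofMul (Units.mk0 ((algebraMap F E' π) ^ k) hne) with hadef
  have ha : ∀ σ : E' ≃ₐ[F] E', σ • a = a := by
    intro σ
    apply additive_units_ext
    show σ ((algebraMap F E' π) ^ k) = _
    rw [map_pow, σ.commutes]
    rfl
  obtain ⟨y0, hy0⟩ := hnorm π hπne
  have hbne : algebraMap F E π ^ k ≠ 0 := by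
    apply pow_ne_zero
    rw [Ne, map_eq_zero_iff _ (algebraMap F E).injective]
    exact hπne
  obtain ⟨y, hy⟩ := exists_sum_smul_eq_of_norm E L y0 (algebraMap F E π ^ k) hbne hy0
  have hy' : ∑ d : L ≃ₐ[E] L, d • y = unitsIncl E' L a := by
    rw [hy]
    apply additive_units_ext
    show algebraMap E L (algebraMap F E π ^ k) = algebraMap E' L (algebraMap F E' π ^ k)
    rw [map_pow, map_pow, ← IsScalarTower.algebraMap_apply, ← IsScalarTower.algebraMap_apply]
  obtain ⟨γ, hγ⟩ := exists_class_order F E L E' hsup φ hφ a ha y hy'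
  refine ⟨γ, fun k' hk' => ?_⟩
  obtain ⟨w, hw⟩ := hγ k' hk'
  have hN := norm_eq_of_sum_smul F E' w (k' • a) hw
  set w₀ : ↥E' := ((Additive.toMul w : (↥E')ˣ) : ↥E') with hw₀
  have hw₀ne : w₀ ≠ 0 := (Additive.toMul w : (↥E')ˣ).ne_zero
  have hak : ((Additive.toMul (k' • a) : (↥E')ˣ) : ↥E') = algebraMap F E' ((π ^ k) ^ k') := by
    rw [toMul_zsmul, Units.val_zpow_eq_zpow_val, map_zpow₀, map_pow]
    rfl
  rw [hak] at hN
  have hN' : Algebra.norm F w₀ = (π ^ k) ^ k' := (algebraMap F ↥E').injective hN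
  have h1 := nrm_norm q F ↥E' w₀
  rw [hN', nrm_zpow, nrm_pow] at h1
  obtain ⟨x, hx⟩ := hunr w₀
  have hxne : x ≠ 0 := by
    rintro rfl
    have h0 : nrm q F (0 : F) = 0 := (nrm_eq_zero_iff q F).2 rfl
    rw [h0] at hx
    exact hw₀ne ((nrm_eq_zero_iff q ↥E').1 hx)
  obtain ⟨j, hj⟩ := hπ x hxne
  rw [hx, hj, hdeg] at h1
  -- `nrm π ^ (k * k') = nrm π ^ (j * (n * k))`
  have h2 : (nrm q F π) ^ ((k : ℤ) * k') = (nrm q F π) ^ (j * ((Module.finrank F E * k : ℕ) : ℤ)) := by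
    rw [zpow_mul, zpow_natCast, h1, zpow_mul, zpow_natCast]
  have h3 := zpow_right_injective₀ hπ0 (ne_of_lt hπ1) h2
  have hk0 : (k : ℤ) ≠ 0 := by exact_mod_cast hk.ne'
  have h4 : k' = j * (Module.finrank F E : ℤ) := by
    apply mul_left_cancel₀ hk0
    rw [h3]
    push_cast
    ring
  exact ⟨j, by rw [h4]; ring⟩

end Fermat.Agent.S55.CFT.LOC.H68

end
-- ==== END Fermat.Agent.S55.CFT.LOC.H68_H2Order2

-- ==== BEGIN Fermat.Agent.S55.Top.SHCoord
section

set_option autoImplicit false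
set_option linter.unusedSectionVars false
set_option linter.unusedSimpArgs false

open CategoryTheory Module groupCohomology ExtCitation

noncomputable section

namespace Fermat.Agent.S55.Top

open Fermat.Agent.S55 OrbitData

attribute [local instance] locAct

variable {k : Type} [Field k] {S : Finset Nat.Primes}
  {K : IntermediateField ℚ (AlgebraicClosure ℚ)} {χ : GQ →* kˣ} (𝔲 : Untwist χ K)
  [Fintype (XK K)] [DecidableEq (XK K)]

/-! ### The twisted sum -/

/-- the twisted sum as a linear map -/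
def Untwist.sumLin : (XK K → k) →ₗ[k] k where
  toFun := 𝔲.sum
  map_add' φ ψ := by
    simp only [Untwist.sum, Pi.add_apply, mul_add, Finset.sum_add_distrib]
  map_smul' c φ := by
    simp only [Untwist.sum, Pi.smul_apply, smul_eq_mul, RingHom.id_apply, Finset.mul_sum]
    refine Finset.sum_congr rfl fun x _ => ?_
    ring

/-- the twisted sum as a morphism `FX → k(χ)` -/
def Untwist.sumHom : FX k K ⟶ kχ χ :=
  Rep.ofHom ⟨𝔲.sumLin, fun g => by
    apply LinearMap.ext
    intro φ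
    exact 𝔲.sum_smul g φ⟩

lemma Untwist.sumHom_apply (φ : FX k K) : 𝔲.sumHom.hom φ = 𝔲.sum φ := rfl

/-- the map `k(χ) → FX`, `c ↦ c / u` -/
def Untwist.jLin : k →ₗ[k] (XK K → k) where
  toFun c := fun x => c * (𝔲.u x : k)⁻¹
  map_add' c c' := by
    funext x
    simp only [Pi.add_apply, add_mul]
  map_smul' c c' := by
    funext x
    simp only [Pi.smul_apply, smul_eq_mul, RingHom.id_apply, mul_assoc]

/-- the map `k(χ) → FX` as a morphism -/
def Untwist.jHom : kχ χ ⟶ FX k K :=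
  Rep.ofHom ⟨𝔲.jLin, fun g => by
    apply LinearMap.ext
    intro c
    funext x
    show ((χ g : k) * c) * (𝔲.u x : k)⁻¹ = c * (𝔲.u (g⁻¹ • x) : k)⁻¹
    have h2 := 𝔲.smul g (g⁻¹ • x)
    rw [smul_inv_smul] at h2
    have h2' : (𝔲.u x : k) = (χ g : k) * (𝔲.u (g⁻¹ • x) : k) := by
      rw [h2]; push_cast; rfl
    rw [h2']
    have hu := 𝔲.u_ne_zero (g⁻¹ • x)
    have hχ : (χ g : k) ≠ 0 := (χ g).ne_zero
    field_simp⟩

lemma Untwist.sum_j (c : k) : 𝔲.sum (𝔲.jLin c) = (Fintype.card (XK K) : k) * c := by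
  unfold Untwist.sum
  have h : ∀ x : XK K, (𝔲.u x : k) * 𝔲.jLin c x = c := by
    intro x
    show (𝔲.u x : k) * (c * (𝔲.u x : k)⁻¹) = c
    have hu := 𝔲.u_ne_zero x
    field_simp
  simp only [h, Finset.sum_const, Finset.card_univ, nsmul_eq_mul]

/-! ### The cup products in coordinates -/

lemma inv_mul_smul (g h : GQ) (x : XK K) : (g * h)⁻¹ • x = h⁻¹ • g⁻¹ • x := by
  rw [mul_inv_rev, mul_smul]

lemma Untwist.ev_rho_eq (m : FX k K) (g : GQ) (φ : Md χ (FX k K)) :
    ev χ (FX k K) m ((Md χ (FX k K)).ρ g φ) =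
      𝔲.sum (fun x => (m : XK K → k) x * 𝔲.coLin φ (g⁻¹ • x)) := by
  rw [𝔲.ev_eq]
  congr 1
  funext x
  rw [𝔲.coLin_rho]

lemma Untwist.cupA2_eq (x : C2c S (FX k K)) (b : GQ → Md χ (FX k K)) :
    cupA2 S χ (FX k K) x b = mapC3 𝔲.sum (cA2 x (fun g => 𝔲.coLin (b g))) := by
  refine Prod.ext (funext fun t => ?_) (funext fun q => funext fun t => ?_)
  · show ev χ (FX k K) _ ((Md χ (FX k K)).ρ (t.1 * t.2.1) (b t.2.2)) = 𝔲.sum _
    rw [𝔲.ev_rho_eq]
    congr 1
    funext y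
    simp only [cA2, cup21, inv_mul_smul]
  · show ev χ (FX k K) _ ((Md χ (FX k K)).ρ (rl q.1 t.1) (b (rl q.1 t.2))) = 𝔲.sum _
    rw [𝔲.ev_rho_eq]
    congr 1
    funext y
    simp only [cA2, cup11, resOne, locAct_smul, map_inv]

lemma Untwist.cupA3_eq (x : C3c S (FX k K)) (m' : Md χ (FX k K)) :
    cupA3 S χ (FX k K) x m' = mapC3 𝔲.sum (cA3 x (𝔲.coLin m')) := by
  refine Prod.ext (funext fun t => ?_) (funext fun q => funext fun t => ?_)
  · show ev χ (FX k K) _ ((Md χ (FX k K)).ρ (t.1 * t.2.1 * t.2.2) m') = 𝔲.sum _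
    rw [𝔲.ev_rho_eq]
    congr 1
    funext y
    simp only [cA3, cup30, inv_mul_smul]
  · show ev χ (FX k K) _ ((Md χ (FX k K)).ρ (rl q.1 (t.1 * t.2)) m') = 𝔲.sum _
    rw [𝔲.ev_rho_eq]
    congr 1
    funext y
    simp only [cA3, cup20, locAct_smul, map_inv, map_mul, inv_mul_smul]

lemma Untwist.cupB1_eq (a : GQ × GQ → FX k K) (y : C1c S (Md χ (FX k K))) :
    cupB1 S χ (FX k K) a y = mapC3 𝔲.sum (cB1 a (mapC1 𝔲.coLin y)) := by
  refine Prod.ext (funext fun t => ?_) (funext fun q => funext fun t => ?_)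
  · show ev χ (FX k K) _ ((Md χ (FX k K)).ρ (t.1 * t.2.1) (y.1 t.2.2)) = 𝔲.sum _
    rw [𝔲.ev_rho_eq]
    congr 1
    funext z
    simp only [cB1, cup21, mapC1, inv_mul_smul]
  · show ev χ (FX k K) _ ((Md χ (FX k K)).ρ (rl q.1 (t.1 * t.2)) (y.2 q)) = 𝔲.sum _
    rw [𝔲.ev_rho_eq]
    congr 1
    funext z
    simp only [cB1, cup20, mapC1, resTwo, locAct_smul, map_inv, map_mul, inv_mul_smul]

lemma Untwist.cupB2_eq (a : GQ → FX k K) (y : C2c S (Md χ (FX k K))) :
    cupB2 S χ (FX k K) a y = mapC3 𝔲.sum (cB2 a (mapC2 𝔲.coLin y)) := by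
  refine Prod.ext (funext fun t => ?_) (funext fun q => funext fun t => ?_)
  · show ev χ (FX k K) _ ((Md χ (FX k K)).ρ t.1 (y.1 (t.2.1, t.2.2))) = 𝔲.sum _
    rw [𝔲.ev_rho_eq]
    congr 1
  · show - ev χ (FX k K) _ ((Md χ (FX k K)).ρ (rl q.1 t.1) (y.2 q t.2)) = 𝔲.sum _
    rw [𝔲.ev_rho_eq]
    have : ∀ φ : XK K → k, - 𝔲.sum φ = 𝔲.sum (- φ) := fun φ =>
      (𝔲.sumLin.map_neg φ).symm
    rw [this]
    congr 1
    funext z
    simp only [cB2, cup11, mapC2, resOne, locAct_smul, map_inv, Pi.neg_apply]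

end Fermat.Agent.S55.Top

end

end
-- ==== END Fermat.Agent.S55.Top.SHCoord

-- ==== BEGIN Fermat.Agent.S56.EC.Asm
section

set_option autoImplicit false

/-!
# Cluster T / S56, GW-CORE, package EC: assembly (sorry-free)

* `stmt_EC_of_leaves`: `Stmt_EC` from the leaves of `EC/Defs.lean`
* `stmt_ECp_of`, `stmt_ADD_of`, `stmt_BASE_of`, `stmt_T_of`, `stmt_O_of`: the layers
* tools: `ecDefect_congr` (isomorphism invariance from additivity), `isAdditiveFn_fEC`,
  `descend` (a module trivial on `G_L` as a representation of `Gal(L/ℚ)`), `lev_infl`.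
-/

noncomputable section

namespace Fermat.Agent.S56.EC

open CategoryTheory groupCohomology ExtCitation Module

theorem stmt_EC_of (h : Stmt_RSEC) (h' : Stmt_ECp) : Stmt_EC := h h'

theorem two_ne_zero_zmod (p : ℕ) [Fact p.Prime] (hp2 : p ≠ 2) : (2 : ZMod p) ≠ 0 :=
  H13.two_ne_zero_of p hp2 (CharP.cast_eq_zero (ZMod p) p)

section infl

variable {k : Type} [Field k] (L : IntermediateField ℚ (AlgebraicClosure ℚ)) [Normal ℚ L]

theorem resL_eq_one {s : GQ} (hs : s ∈ L.fixingSubgroup) : resL L s = 1 := by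
  apply AlgEquiv.ext
  intro x
  apply Subtype.ext
  have h := AlgEquiv.restrictNormal_commutes s L x
  have h2 : s (x : AlgebraicClosure ℚ) = x := hs x
  show ((AlgEquiv.restrictNormal s L x : L) : AlgebraicClosure ℚ) = x
  rw [← h2]
  exact h

theorem infl_ρ_apply {V : Type} [AddCommGroup V] [Module k V] (ρ : Representation k (GalL L) V)
    (g : GQ) (v : V) : (infl L ρ).ρ g v = ρ (resL L g) v := rfl

theorem lev_infl {p : ℕ} {S : Finset Nat.Primes} (hL : IsGalLevel p S L) {V : Type}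
    [AddCommGroup V] [Module k V] (ρ : Representation k (GalL L) V) : S55.Lev S (infl L ρ) := by
  refine ⟨L, hL.1, fun s hs m => ?_⟩
  rw [infl_ρ_apply, resL_eq_one L hs, map_one]
  rfl

instance finiteDimensional_infl {V : Type} [AddCommGroup V] [Module k V] [FiniteDimensional k V]
    (ρ : Representation k (GalL L) V) : FiniteDimensional k (infl L ρ) :=
  ‹FiniteDimensional k V›

end infl

/-- The Euler characteristic defect in terms of the dual archimedean term. -/
theorem ecDefect_eq (p : ℕ) [Fact p.Prime] (hp2 : p ≠ 2) (S : Finset Nat.Primes)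
    (N : Rep.{0} (ZMod p) GQ) [FiniteDimensional (ZMod p) N] :
    ecDefect S N = (finrank (ZMod p) (continuousH1S S N) : ℤ) - finrank (ZMod p) (continuousH2S S N)
      - finrank (ZMod p) N.ρ.invariants
      - finrank (ZMod p) (Rep.res archimedeanLoc (tateDual p N)).ρ.invariants := by
  have h := H27.stmt_ARCH p hp2 (ZMod p) N
  unfold ecDefect archDefect
  omega

theorem stmt_T_of (hK : Stmt_KDT) (hP : Stmt_PT2lb) : Stmt_T := by
  intro p _ hp2 S hpS L _ _ hgood
  have h1 := hK p hp2 S hpS L hgood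
  have hlev := lev_infl (k := ZMod p) L hgood.1 (IND.permRep (ZMod p) (GalL L) (GalL L))
  have h2 := hP p hp2 S hpS (infl L (IND.permRep (ZMod p) (GalL L) (GalL L))) hlev
  rw [ecDefect_eq p hp2]
  unfold gwDefect at h1
  push_cast at h1
  have h3 : (0 : ℤ) ≤ finrank (ZMod p)
      (sha₁ S (tateDual p (infl L (IND.permRep (ZMod p) (GalL L) (GalL L))))) := by positivity
  zify at h2
  linarith

theorem stmt_O_of (hK : Stmt_KDO) (hP : Stmt_PT2ub) (hS : Stmt_SHA0) : Stmt_O := by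
  intro p _ hp2 S hpS L _ _ hgood V _ _ _ ρ B W hB hpB hind
  have h1 := hK p hp2 S hpS L hgood V ρ B W hB hpB hind
  have hlev := lev_infl (k := ZMod p) L hgood.1 ρ
  have h2 := hP p hp2 S hpS (infl L ρ) hlev
  have h3 := hS p hp2 S hpS L hgood V ρ B W hpB hind
  rw [h3, finrank_bot, zero_add] at h2
  rw [ecDefect_eq p hp2]
  unfold gwDefect at h1
  zify at h2
  linarith


/-! ### Additivity -/

theorem smooth_of_lev {k : Type} [Field k] {S : Finset Nat.Primes} {M : Rep.{0} k GQ}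
    (h : S55.Lev S M) : IsSmoothRep M := by
  obtain ⟨F, hF, hfix⟩ := h
  exact fun m => ⟨F, hF.1, fun s hs => hfix s hs m⟩

theorem stmt_ADD_of (hA : Stmt_ADDH) (hH : GWC.Stmt_H3S) (hF2 : Stmt_fin2p)
    (hF1 : Stmt_fin_glob) : Stmt_ADD := by
  intro p _ hp2 S hpS N₁ N N₂ _ _ _ i π hses h1 h h2
  exact hA (ZMod p) (two_ne_zero_zmod p hp2) S N₁ N N₂ i π hses h1 h h2
    (hH p hp2 S N₁ hpS h1)
    (hF1 (ZMod p) N₁ (smooth_of_lev h1) S) (hF1 (ZMod p) N (smooth_of_lev h) S)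
    (hF1 (ZMod p) N₂ (smooth_of_lev h2) S)
    (hF2 p hp2 S hpS N₁ h1) (hF2 p hp2 S hpS N h) (hF2 p hp2 S hpS N₂ h2)

/-! ### Consequences of additivity: the zero module, isomorphism invariance -/

section congr

variable {p : ℕ} [Fact p.Prime]

/-- The zero representation. -/
def zeroRep : Rep.{0} (ZMod p) GQ := Rep.of (1 : Representation (ZMod p) GQ PUnit)

instance : FiniteDimensional (ZMod p) (zeroRep (p := p)) :=
  (inferInstance : FiniteDimensional (ZMod p) PUnit)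

theorem lev_zeroRep (S : Finset Nat.Primes) : S55.Lev S (zeroRep (p := p)) :=
  ⟨⊥, IntermediateField.isUnramifiedOutside_bot S, fun _ _ _ => rfl⟩

/-- A morphism of representations from an equivariant linear map. -/
def homOf {M N : Rep.{0} (ZMod p) GQ} (f : M →ₗ[ZMod p] N)
    (hf : ∀ g m, f (M.ρ g m) = N.ρ g (f m)) : M ⟶ N :=
  Rep.ofHom ⟨f, fun g => by
    apply LinearMap.ext
    intro m
    exact hf g m⟩

theorem homOf_hom {M N : Rep.{0} (ZMod p) GQ} (f : M →ₗ[ZMod p] N)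
    (hf : ∀ g m, f (M.ρ g m) = N.ρ g (f m)) (m : M) : (homOf f hf).hom m = f m := rfl

theorem ecDefect_zeroRep (hA : Stmt_ADD) (hp2 : p ≠ 2) (S : Finset Nat.Primes)
    (hpS : pPrime p ∈ S) : ecDefect S (zeroRep (p := p)) = 0 := by
  have h := hA p hp2 S hpS zeroRep zeroRep zeroRep
    (homOf (LinearMap.id) (fun _ _ => rfl)) (homOf (0 : PUnit →ₗ[ZMod p] PUnit) (fun _ _ => rfl))
    ⟨fun a b _ => Subsingleton.elim (α := PUnit) a b,
      fun b => ⟨PUnit.unit, Subsingleton.elim (α := PUnit) _ _⟩,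
      fun m => ⟨fun _ => ⟨PUnit.unit, Subsingleton.elim (α := PUnit) _ _⟩, fun _ => rfl⟩⟩
    (lev_zeroRep S) (lev_zeroRep S) (lev_zeroRep S)
  linarith

theorem ecDefect_congr (hA : Stmt_ADD) (hp2 : p ≠ 2) (S : Finset Nat.Primes)
    (hpS : pPrime p ∈ S) (M N : Rep.{0} (ZMod p) GQ) [FiniteDimensional (ZMod p) M]
    [FiniteDimensional (ZMod p) N] (hM : S55.Lev S M) (hN : S55.Lev S N)
    (e : M ≃ₗ[ZMod p] N) (he : ∀ g m, e (M.ρ g m) = N.ρ g (e m)) :
    ecDefect S M = ecDefect S N := by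
  have h := hA p hp2 S hpS zeroRep M N
    (homOf (0 : PUnit →ₗ[ZMod p] M) (fun g m => by
      show (0 : M) = M.ρ g 0
      rw [map_zero]))
    (homOf (e : M →ₗ[ZMod p] N) he)
    ⟨fun a b _ => Subsingleton.elim (α := PUnit) a b,
      fun b => ⟨e.symm b, e.apply_symm_apply b⟩,
      fun m => ⟨fun hm => ⟨PUnit.unit, by
          have : e m = 0 := hm
          have h0 : m = 0 := by
            rwa [LinearEquiv.map_eq_zero_iff] at this
          rw [h0]; rfl⟩,
        fun ⟨_, hm⟩ => by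
          have : (0 : M) = m := hm
          rw [← this]
          exact map_zero e⟩⟩
    (lev_zeroRep S) hM hN
  rw [h, ecDefect_zeroRep hA hp2 S hpS, zero_add]

end congr


/-! ### The additive function of a Galois level -/

section level

variable {p : ℕ} [Fact p.Prime] (L : IntermediateField ℚ (AlgebraicClosure ℚ)) [Normal ℚ L]

/-- `V ↦ ecDefect S (infl V)`. -/
def fEC (S : Finset Nat.Primes) : Rep.{0} (ZMod p) (GalL L) → ℤ :=
  fun V => ecDefect S (infl L V.ρ)

theorem fEC_of (S : Finset Nat.Primes) {V : Type} [AddCommGroup V] [Module (ZMod p) V]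
    (ρ : Representation (ZMod p) (GalL L) V) : fEC L S (Rep.of ρ) = ecDefect S (infl L ρ) := rfl

theorem isAdditiveFn_fEC (hA : Stmt_ADD) (hp2 : p ≠ 2) {S : Finset Nat.Primes}
    (hpS : pPrime p ∈ S) (hL : IsGalLevel p S L) :
    IND.IsAdditiveFn (ZMod p) (GalL L) (fEC (p := p) L S) := by
  constructor
  · intro V W _ _ _ _ _ ρ σ e he
    have : FiniteDimensional (ZMod p) W := LinearEquiv.finiteDimensional e
    rw [fEC_of, fEC_of]
    exact ecDefect_congr hA hp2 S hpS (infl L ρ) (infl L σ) (lev_infl L hL ρ) (lev_infl L hL σ) e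
      (fun g m => he (resL L g) m)
  · intro V _ _ _ ρ W hW
    rw [fEC_of, fEC_of, fEC_of]
    refine hA p hp2 S hpS (infl L (ρ.subrepresentation W hW)) (infl L ρ)
      (infl L (ρ.quotient W hW))
      (homOf (M := infl L (ρ.subrepresentation W hW)) (N := infl L ρ) W.subtype
        (fun _ _ => rfl))
      (homOf (M := infl L ρ) (N := infl L (ρ.quotient W hW)) W.mkQ (fun _ _ => rfl))
      ⟨?_, ?_, ?_⟩ (lev_infl L hL _) (lev_infl L hL _) (lev_infl L hL _)
    · exact Subtype.val_injective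
    · exact Submodule.mkQ_surjective W
    · intro m
      constructor
      · intro hm
        have hm' : W.mkQ m = 0 := hm
        rw [Submodule.mkQ_apply, Submodule.Quotient.mk_eq_zero] at hm'
        exact ⟨⟨m, hm'⟩, rfl⟩
      · rintro ⟨m₁, rfl⟩
        have hm₁ : W.subtype m₁ ∈ W := Subtype.property (p := fun x => x ∈ W) m₁
        show W.mkQ (W.subtype m₁) = 0
        rw [Submodule.mkQ_apply, Submodule.Quotient.mk_eq_zero]
        exact hm₁

end level

/-! ### The base case -/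

theorem stmt_BASE_of (hC : Stmt_COMPL) (hA : Stmt_ADD) (hT : Stmt_T) (hO : Stmt_O) :
    Stmt_BASE := by
  intro p _ hp2 S hpS L _ _ hgood V _ _ _ ρ B W hB hpB hind
  have hf := isAdditiveFn_fEC (p := p) L hA hp2 hpS hgood.1
  have hcard : ((Nat.card B : ℕ) : ZMod p) ≠ 0 := by
    intro h
    exact hpB ((ZMod.natCast_eq_zero_iff _ _).1 h)
  have h := hC (ZMod p) (GalL L) (fEC (p := p) L S) hf B hcard
    (hT p hp2 S hpS L hgood)
    (fun V' _ _ _ ρ' W' hind' => hO p hp2 S hpS L hgood V' ρ' B W' hB hpB hind')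
    V ρ W hind
  exact h

/-! ### Descent of a representation to `Gal(L/ℚ)` -/

section descend

variable {p : ℕ} [Fact p.Prime] (L : IntermediateField ℚ (AlgebraicClosure ℚ)) [Normal ℚ L]

theorem resL_surjective : Function.Surjective (resL L) := by
  have hgal : IsGalois ℚ (AlgebraicClosure ℚ) := H13.qbar_isGalois13
  have hn : Normal ℚ (AlgebraicClosure ℚ) := hgal.to_normal
  exact AlgEquiv.restrictNormalHom_surjective (AlgebraicClosure ℚ)

theorem mem_fixingSubgroup_of_resL {s : GQ} (hs : resL L s = 1) : s ∈ L.fixingSubgroup := by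
  intro x
  have h := AlgEquiv.restrictNormal_commutes s L x
  have h1 : AlgEquiv.restrictNormal s L x = x := by
    have : (resL L s) x = x := by rw [hs]; rfl
    exact this
  rw [h1] at h
  exact h.symm

theorem ρ_eq_of_resL (N : Rep.{0} (ZMod p) GQ) (hN : ∀ s ∈ L.fixingSubgroup, N.ρ s = 1)
    {a b : GQ} (h : resL L a = resL L b) : N.ρ a = N.ρ b := by
  have h1 : resL L (a⁻¹ * b) = 1 := by
    rw [map_mul, map_inv, h, inv_mul_cancel]
  have h2 := hN _ (mem_fixingSubgroup_of_resL L h1)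
  have h3 : N.ρ b = N.ρ a * N.ρ (a⁻¹ * b) := by
    rw [← map_mul, mul_inv_cancel_left]
  rw [h3, h2, mul_one]

/-- The representation of `Gal(L/ℚ)` on a module which is trivial on `G_L`. -/
def descend (N : Rep.{0} (ZMod p) GQ) (hN : ∀ s ∈ L.fixingSubgroup, N.ρ s = 1) :
    Representation (ZMod p) (GalL L) N where
  toFun g := N.ρ (Function.surjInv (resL_surjective L) g)
  map_one' := by
    have h := ρ_eq_of_resL L N hN (a := Function.surjInv (resL_surjective L) 1) (b := 1)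
      (by rw [Function.surjInv_eq (resL_surjective L), map_one])
    rw [h, map_one]
  map_mul' g h := by
    rw [← map_mul]
    apply ρ_eq_of_resL L N hN
    rw [map_mul, Function.surjInv_eq (resL_surjective L), Function.surjInv_eq (resL_surjective L),
      Function.surjInv_eq (resL_surjective L)]

theorem descend_resL (N : Rep.{0} (ZMod p) GQ) (hN : ∀ s ∈ L.fixingSubgroup, N.ρ s = 1)
    (g : GQ) : descend L N hN (resL L g) = N.ρ g := by
  show N.ρ (Function.surjInv (resL_surjective L) (resL L g)) = N.ρ g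
  apply ρ_eq_of_resL L N hN
  rw [Function.surjInv_eq (resL_surjective L)]

end descend

/-! ### Layer 1 -/

theorem stmt_ECp_of (hLv : Stmt_LEVEL) (hG : Stmt_GOOD) (hD : Stmt_DESC) (hA : Stmt_ADD)
    (hI : IND.Stmt_IND) (hB : Stmt_BASE) : Stmt_ECp := by
  intro p _ hp2 S hpS N _ hN
  obtain ⟨L, hnorm, hfd, hL, htriv⟩ := hLv p S hpS N hN
  have := hnorm
  have := hfd
  obtain ⟨S', hSS', hgood⟩ := hG p hp2 S hpS L hL
  have hpS' : pPrime p ∈ S' := hSS' hpS
  have hf := isAdditiveFn_fEC (p := p) L hA hp2 hpS' hgood.1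
  have h0 := hI p (ZMod p) (GalL L) (fEC (p := p) L S') hf
    (fun V _ _ _ ρ B W hB' hpB hind => hB p hp2 S' hpS' L hgood V ρ B W hB' hpB hind)
    N (descend L N htriv)
  rw [fEC_of] at h0
  have hN' : S55.Lev S' N := by
    obtain ⟨F, hF, hfix⟩ := hN
    exact ⟨F, hF.mono hSS', hfix⟩
  have h1 : ecDefect S' N = ecDefect S' (infl L (descend L N htriv)) :=
    ecDefect_congr hA hp2 S' hpS' N (infl L (descend L N htriv)) hN'
      (lev_infl L hgood.1 _) (LinearEquiv.refl _ _)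
      (fun g m => by
        show N.ρ g m = descend L N htriv (resL L g) m
        rw [descend_resL])
  have h2 := hD p hp2 S S' hpS hSS' N hN
  rw [h1, h0] at h2
  exact h2


/-- **EC from its leaves.** -/
theorem stmt_EC_of_leaves (hRS : Stmt_RSEC) (hLv : Stmt_LEVEL) (hG : Stmt_GOOD) (hD : Stmt_DESC)
    (hI : IND.Stmt_IND) (hAH : Stmt_ADDH) (hH3 : GWC.Stmt_H3S) (hF2 : Stmt_fin2p)
    (hC : Stmt_COMPL) (hKT : Stmt_KDT) (hPl : Stmt_PT2lb) (hKO : Stmt_KDO) (hPu : Stmt_PT2ub)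
    (hS0 : Stmt_SHA0) : Stmt_EC := by
  have hA : Stmt_ADD := stmt_ADD_of hAH hH3 hF2 H92.stmt_fin_glob
  exact stmt_EC_of hRS (stmt_ECp_of hLv hG hD hA hI
    (stmt_BASE_of hC hA (stmt_T_of hKT hPl) (stmt_O_of hKO hPu hS0)))

end Fermat.Agent.S56.EC

end

end
-- ==== END Fermat.Agent.S56.EC.Asm

-- ==== BEGIN Fermat.Agent.S56.EC.Defs_DESC
section

set_option autoImplicit false

/-!
# Cluster T / S56, GW-CORE, package EC, sub-package DESC: interfaces

Owner-planner: helper92.  Plan: `NOTES/plan/T_EC_DESC.md` (details of T_EC.md §5).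
Target: `EC.Stmt_DESC` (`ecDefect S' N ≤ ecDefect S N` for `S ⊆ S'`, `N` of level `S`).

One prime at a time: `S' = insert q S`, `q ∉ S` (so `q ≠ p`).  With
`Ẽ = {f ∈ C¹_{S'} : d f ∈ C²_S} / C¹_S` and `Cok = Z²_{S'} / (B²_{S'} + Z²_S)`:

* `Stmt_DA` (pure algebra):  `h¹_{S'} + h²_S + dim Cok = h¹_S + h²_{S'} + dim Ẽ`;
* `Stmt_DB` (tame inertia):  `dim Ẽ ≤ h⁰(ℚ_q, N')`;
* `Stmt_DC` (duality):       `h⁰(ℚ_q, N') ≤ dim Cok`   (from `GWC.Stmt_B1` and `GWC.Stmt_UR2`);
* `Stmt_DESC1`: the step `S → insert q S`;  `Stmt_DESC ⟸ Stmt_DESC1` by induction.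
-/

noncomputable section

namespace Fermat.Agent.S56.EC.DESC

open CategoryTheory groupCohomology ExtCitation Module

section defs

variable {k : Type} [Field k] (S S' : Finset Nat.Primes) (N : Rep.{0} k GQ)

/-- The 1-cochains of level `S'` whose coboundary has level `S`. -/
def preE : Submodule k (GQ → N) :=
  levelCochainsS₁ S' N ⊓ (levelCochainsS₂ S N).comap (d₁₂ N).hom

/-- `Ẽ = {f ∈ C¹_{S'} : d f ∈ C²_S} / C¹_S`. -/
abbrev Etil : Type :=
  ↥(preE S S' N) ⧸ (levelCochainsS₁ S N).comap (preE S S' N).subtype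

/-- `B²_{S'} + Z²_S`, the 2-cocycles of level `S'` whose class comes from level `S`. -/
def imZ2 : Submodule k (GQ × GQ → N) :=
  levelCoboundariesS₂ S' N ⊔ levelCocyclesS₂ S N

/-- `Cok = Z²_{S'} / (B²_{S'} + Z²_S)`, the cokernel of `H²_S → H²_{S'}`. -/
abbrev Cok2 : Type :=
  ↥(levelCocyclesS₂ S' N) ⧸ (imZ2 S S' N).comap (levelCocyclesS₂ S' N).subtype

end defs

/-- **Package DA** (pure algebra: the five-term sequence of `G_{S'} → G_S` in cochain form).
`h¹_{S'} + h²_S + dim Cok = h¹_S + h²_{S'} + dim Ẽ`. -/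
def Stmt_DA : Prop :=
  ∀ (k : Type) [Field k] (S S' : Finset Nat.Primes) (N : Rep.{0} k GQ), S ⊆ S' → S55.Lev S N →
    Module.Finite k (continuousH1S S' N) → Module.Finite k (continuousH2S S N) →
    Module.Finite k (continuousH2S S' N) → Module.Finite k (Etil S S' N) →
    finrank k (continuousH1S S' N) + finrank k (continuousH2S S N) + finrank k (Cok2 S S' N) =
      finrank k (continuousH1S S N) + finrank k (continuousH2S S' N) + finrank k (Etil S S' N)

/-- **Package DB** (tame inertia at `q`).  `dim Ẽ ≤ h⁰(ℚ_q, N')` for `S' = insert q S`. -/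
def Stmt_DB : Prop :=
  ∀ (p : ℕ) [Fact p.Prime] (S : Finset Nat.Primes) (q : Nat.Primes), pPrime p ∈ S → q ∉ S →
    ∀ (N : Rep.{0} (ZMod p) GQ) [FiniteDimensional (ZMod p) N], S55.Lev S N →
      Module.Finite (ZMod p) (Etil S (insert q S) N) ∧
        finrank (ZMod p) (Etil S (insert q S) N) ≤
          finrank (ZMod p) (locRep (tateDual p N) q).ρ.invariants

/-- **Package DC** (duality).  `h⁰(ℚ_q, N') ≤ dim Cok` for `S' = insert q S`. -/
def Stmt_DC : Prop :=
  ∀ (p : ℕ) [Fact p.Prime], p ≠ 2 → ∀ (S : Finset Nat.Primes) (q : Nat.Primes),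
    pPrime p ∈ S → q ∉ S →
    ∀ (N : Rep.{0} (ZMod p) GQ) [FiniteDimensional (ZMod p) N], S55.Lev S N →
      Module.Finite (ZMod p) (continuousH2S (insert q S) N) →
      finrank (ZMod p) (locRep (tateDual p N) q).ρ.invariants ≤
        finrank (ZMod p) (Cok2 S (insert q S) N)

/-- **DESC, one prime.** -/
def Stmt_DESC1 : Prop :=
  ∀ (p : ℕ) [Fact p.Prime], p ≠ 2 → ∀ (S : Finset Nat.Primes) (q : Nat.Primes),
    pPrime p ∈ S → q ∉ S →
    ∀ (N : Rep.{0} (ZMod p) GQ) [FiniteDimensional (ZMod p) N], S55.Lev S N →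
      ecDefect (insert q S) N ≤ ecDefect S N

end Fermat.Agent.S56.EC.DESC

end

end
-- ==== END Fermat.Agent.S56.EC.Defs_DESC
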