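-- GENERATED (merged mirror, NOTES/tools/trim/merge3_helper67.py): 9 modules of the originals, bodies verbatim.
import Mathlib
import Fermat.Agent.Zm.S56_L12_002
import Fermat.Agent.Zm.S56_L09_002
import Fermat.Agent.Zm.S56_L12_000
import Fermat.Agent.Zm.S56_L03_004
import Fermat.Agent.Zm.S56_L05_003
import Fermat.Agent.Zm.S56_L04_004
import Fermat.Agent.Zm.S56_L07_004
import Fermat.Agent.Zm.S56_L05_004
import Fermat.Agent.Zm.S56_L06_003
import Fermat.Agent.Zm.S56_L09_004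
import Fermat.Agent.Zm.S56_L10_004
import Fermat.Agent.Zm.S56_L12_001
import Fermat.Agent.Zm.S56_L03_005
import Fermat.Agent.Zm.S56_L10_002
import Fermat.Agent.Zm.S56_L12_003

-- ==== BEGIN Fermat.Agent.S55.CFT.GS.H64_BriAsm2
section

set_option autoImplicit false

open CategoryTheory groupCohomology ExtCitation

open scoped Pointwise

noncomputable section

namespace Fermat.Agent.S55.CFT.GS.H64

open Fermat.Agent.S55 Fermat.Agent.S55.Top Fermat.Agent.S55.CFT Fermat.Agent.S55.CFT.GS.Bri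

local notation "Qb" => AlgebraicClosure ℚ

/-! ### BRI-Div -/

/-- **BRI-Div** from REAL and CYC. -/
theorem briDiv_of (hex : Stmt_R2_ex) (hsurj : Stmt_R2_surj) (hmul : Stmt_R2_mul)
    (hzero : Stmt_R2_zero) (hinf : Stmt_R2_inf) (hcyc : Stmt_CycTop) :
    Stmt_GS_BriDiv := by
  intro hA p _ hp2 S hpS K hK c hc hcΩ hcoc
  obtain ⟨N, hKN, hNS, hNn, hcN, -⟩ :=
    exists_levelField S K hK.1 c (fun _ => 1) hc hcΩ (isLevK₁_const 1)
      (fun _ => ⟨⊥, IntermediateField.isUnramifiedOutside_bot S, by simp⟩)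
  have := hK.1.1
  have : NumberField ↥K := numberField_base K
  have := hNS.1
  have : NumberField ↥(H6.NK hKN) := numberField_top hKN
  have hgal : IsGalois ↥K ↥(H6.NK hKN) := isGalois_top hKN hNn
  obtain ⟨x, hx⟩ := hex K N hKN c hcN hcoc
  have hyp : HypG ↥K ↥(H6.NK hKN) p := ⟨Fact.out, hp2, exists_zeta hK, inferInstance⟩
  obtain ⟨M₀, hM⟩ := hA p ↥K ↥(H6.NK hKN) hyp x
  obtain ⟨N', hNN', hN'S, hgal', hcycl⟩ := hcyc p S hpS K N hKN hNS hgal M₀
  have := hN'S.1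
  have : NumberField ↥(H6.NK (hKN.trans hNN')) := numberField_top (hKN.trans hNN')
  let _ : Algebra ↥(H6.NK hKN) ↥(H6.NK (hKN.trans hNN')) := algIncl hKN hNN'
  have : IsScalarTower ↥K ↥(H6.NK hKN) ↥(H6.NK (hKN.trans hNN')) := isScalarTower_incl hKN hNN'
  obtain ⟨z, hz⟩ := hM M₀ le_rfl ↥(H6.NK (hKN.trans hNN')) hgal' hcycl
  obtain ⟨z₀, hz₀N, hz₀coc, hz₀⟩ := hsurj K N' (hKN.trans hNN') z
  have hcx := hinf K N N' hKN hNN' c x hx
  have h1 := (hmul K N' (hKN.trans hNN') z₀ z₀ z z hz₀ hz₀).2.2 p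
  have h2 := (hmul K N' (hKN.trans hNN') c (fun t => z₀ t ^ p) _ _ hcx h1).2.1
  have h3 : infL ↥K ↥(H6.NK hKN) ↥(H6.NK (hKN.trans hNN')) 2 x - (p : ℤ) • z = 0 := by
    rw [hz, sub_self]
  obtain ⟨b, hbN, hb⟩ := (hzero K N' (hKN.trans hNN') _ _ h2).1 h3
  refine ⟨z₀, b, (IsLevN₂.isLevK₂ hN'S hz₀N).1, (IsLevN₂.isLevK₂ hN'S hz₀N).2, hz₀coc,
    (IsLevN₁.isLevK₁ hN'S hbN).1, (IsLevN₁.isLevK₁ hN'S hbN).2, fun t => ?_⟩
  have := hb t
  rw [← this, mul_div_cancel]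

/-! ### BRI-H3 -/

section h3

variable {p : ℕ} [Fact p.Prime] {K : IntermediateField ℚ Qb}

/-- `G_K` fixes the elements of `Kˣ`. -/
theorem smul_zeta_eq {ζ : Qbˣ} (hζK : (ζ : Qb) ∈ K) (g : ↥K.fixingSubgroup) : g • ζ = ζ := by
  apply Units.ext
  have := g.2
  rw [IntermediateField.mem_fixingSubgroup_iff] at this
  exact this _ hζK

/-- `mThree` of a `μ_p`-valued cochain with fixed `ζ`. -/
theorem mThree_zp {Δ : Type} [Group Δ] {X : Type} [CommGroup X]
    [MulDistribMulAction Δ X] {ζ : X} (h1 : ζ ^ p = 1) (hfix : ∀ g : Δ, g • ζ = ζ)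
    (f : Δ × Δ × Δ → ZMod p) :
    mThree (fun t => ζ ^ (f t).val) = fun t : Δ × Δ × Δ × Δ => ζ ^ (tThree f t).val := by
  funext ⟨g, h, k, l⟩
  simp only [mThree, tThree, smul_pow', hfix]
  rw [H24.zp_add h1, H24.zp_sub h1, H24.zp_add h1, H24.zp_sub h1]

end h3

/-- **BRI-H3** from REAL and CYC. -/
theorem briH3_of (hex : Stmt_R3_ex) (hmul : Stmt_R3_mul) (hzero : Stmt_R3_zero)
    (hinf : Stmt_R3_inf) (hcyc : Stmt_CycTop) :
    Stmt_GS_BriH3 := by
  intro hA p _ hp2 S hpS K hK ζ hζK hζ x hx hlev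
  obtain ⟨F, hF, hxF⟩ := hlev
  obtain ⟨N, hle, hNS, hNn⟩ := Fermat.Agent.S55.H48.exists_normal_level S (K ⊔ F)
    (hK.1.sup hF)
  have hKN : K ≤ N := le_sup_left.trans hle
  have hFN : F ≤ N := le_sup_right.trans hle
  have := hK.1.1
  have : NumberField ↥K := numberField_base K
  have := hNS.1
  have : NumberField ↥(H6.NK hKN) := numberField_top hKN
  have hgal : IsGalois ↥K ↥(H6.NK hKN) := isGalois_top hKN hNn
  have hζp : ζ ^ p = 1 := hζ.pow_eq_one
  -- the cocycle `ζ^x`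
  have hcN : IsLevN₃ K N (fun t => ζ ^ (x t).val) := by
    refine ⟨fun g₁ g₂ g₃ s₁ s₂ s₃ h₁ h₂ h₃ => ?_, fun t => ?_⟩
    · show ζ ^ (x _).val = ζ ^ (x _).val
      rw [hxF g₁ g₂ g₃ s₁ s₂ s₃ (IntermediateField.fixingSubgroup_antitone hFN h₁)
        (IntermediateField.fixingSubgroup_antitone hFN h₂)
        (IntermediateField.fixingSubgroup_antitone hFN h₃)]
    · rw [Units.val_pow_eq_pow_val]
      exact hKN (pow_mem hζK _)
  have hcoc : mThree (fun t => ζ ^ (x t).val) = 1 := by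
    rw [mThree_zp hζp (smul_zeta_eq hζK), hx]
    funext t
    simp
  obtain ⟨X, hX⟩ := hex K N hKN _ hcN hcoc
  -- `p • X = 0`
  have hpX : ((p : ℤ) ^ 1) • X = 0 := by
    rw [pow_one]
    refine (hzero K N hKN _ _ ((hmul K N hKN _ X hX).2 p)).2 ⟨fun _ => 1, ⟨fun _ _ _ _ _ _ => rfl,
      fun _ => by simp⟩, fun t => ?_⟩
    show (ζ ^ (x t).val) ^ p = mTwo (fun _ => (1 : Qbˣ)) t
    rw [H24.zp_pow_p hζp]
    simp [mTwo]
  have hyp : HypG ↥K ↥(H6.NK hKN) p := ⟨Fact.out, hp2, exists_zeta hK, inferInstance⟩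
  obtain ⟨M₀, hM⟩ := hA p ↥K ↥(H6.NK hKN) hyp
  obtain ⟨N', hNN', hN'S, hgal', hcycl⟩ := hcyc p S hpS K N hKN hNS hgal M₀
  have := hN'S.1
  have : NumberField ↥(H6.NK (hKN.trans hNN')) := numberField_top (hKN.trans hNN')
  let _ : Algebra ↥(H6.NK hKN) ↥(H6.NK (hKN.trans hNN')) := algIncl hKN hNN'
  have : IsScalarTower ↥K ↥(H6.NK hKN) ↥(H6.NK (hKN.trans hNN')) := isScalarTower_incl hKN hNN'
  have h0 := hM M₀ le_rfl ↥(H6.NK (hKN.trans hNN')) hgal' hcycl 1 X hpX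
  have hcX := hinf K N N' hKN hNN' _ X hX
  obtain ⟨y, hyN, hy⟩ := (hzero K N' (hKN.trans hNN') _ _ hcX).1 h0
  exact ⟨y, (IsLevN₂.isLevK₂ hN'S hyN).1, (IsLevN₂.isLevK₂ hN'S hyN).2, hy⟩

end Fermat.Agent.S55.CFT.GS.H64

end

end
-- ==== END Fermat.Agent.S55.CFT.GS.H64_BriAsm2

-- ==== BEGIN Fermat.Agent.S56.EC.H4_Compl
section

set_option autoImplicit false

namespace Fermat.Agent.S56.EC.H4

/-- **COMPL**. -/
theorem stmt_COMPL : Stmt_COMPL := by
  intro k _ G _ _ f hf B _ hperm hpos V _ _ _ ρ W h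
  exact compl_main hf B hperm hpos V ρ W h

end Fermat.Agent.S56.EC.H4

end
-- ==== END Fermat.Agent.S56.EC.H4_Compl

-- ==== BEGIN Fermat.Agent.S56.EC.H4_Level
section

set_option autoImplicit false

namespace Fermat.Agent.S56.EC.H4

open Fermat.Agent.Lib.FrobIntegers ExtCitation

/-- **LEVEL**: a module of level `S ∋ p` is trivial on `G_L` for a Galois level `L`. -/
theorem stmt_LEVEL : Stmt_LEVEL := by
  intro p _ S hpS N _ hN
  have hp : p.Prime := Fact.out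
  have := qbar_isAlgebraic
  have := qbar_isGalois
  obtain ⟨F, hF, htriv⟩ := hN
  -- the cyclotomic field
  obtain ⟨ζ, hζ⟩ := S55.H48.exists_primitiveRoot p
  have hF' : (IntermediateField.adjoin ℚ ({ζ} : Set (AlgebraicClosure ℚ))).IsUnramifiedOutside S := by
    refine ⟨IntermediateField.adjoin.finiteDimensional
      (Algebra.IsIntegral.isIntegral (R := ℚ) ζ), ?_⟩
    intro q hq A hA g hg
    have hqp : (q : ℕ) ≠ p := by
      intro h
      apply hq
      have : q = pPrime p := Subtype.ext h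
      rw [this]
      exact hpS
    have hfix : g ζ = ζ := S55.H48.inertia_fix_root hp q.2 hqp A hA g hg ζ hζ.pow_eq_one
    rw [IntermediateField.mem_fixingSubgroup_iff]
    exact S55.H48.fixes_adjoin g ζ hfix
  obtain ⟨L, hle, hL, hnorm⟩ := S55.H48.exists_normal_level S _ (hF.sup hF')
  have := hL.1
  have hgal : IsGalois ℚ L := (InfiniteGalois.normal_iff_isGalois L).1 hnorm
  refine ⟨L, hgal.to_normal, hL.1, ⟨hL, ζ, ?_, hζ⟩, ?_⟩
  · exact hle (le_sup_right (a := F)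
      (IntermediateField.mem_adjoin_simple_self ℚ ζ))
  · intro s hs
    have hsF : s ∈ F.fixingSubgroup :=
      IntermediateField.fixingSubgroup_antitone (le_sup_left.trans hle) hs
    exact LinearMap.ext fun m => htriv s hsF m

end Fermat.Agent.S56.EC.H4

end
-- ==== END Fermat.Agent.S56.EC.H4_Level

-- ==== BEGIN Fermat.Agent.S56.EC.H4_Sha0
section

set_option autoImplicit false
set_option linter.unusedSectionVars false

open CategoryTheory Module groupCohomology ExtCitation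

noncomputable section

namespace Fermat.Agent.S56.EC.H4

open Fermat.Agent.S56.IND Fermat.Agent.S55 Fermat.Agent.S55.Top
open scoped Classical

section galois

variable (L : IntermediateField ℚ (AlgebraicClosure ℚ)) [Normal ℚ L]

theorem resL_eq_one' {s : _root_.Fermat.Agent.S56.GQ} (hs : s ∈ L.fixingSubgroup) : resL L s = 1 := by
  apply AlgEquiv.ext
  intro x
  apply Subtype.ext
  have h := AlgEquiv.restrictNormal_commutes s L x
  have h2 : s (x : AlgebraicClosure ℚ) = x := hs x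
  show ((AlgEquiv.restrictNormal s L x : L) : AlgebraicClosure ℚ) = x
  rw [← h2]
  exact h

theorem mem_fix_of_resL_eq_one {s : _root_.Fermat.Agent.S56.GQ} (hs : resL L s = 1) : s ∈ L.fixingSubgroup := by
  rw [IntermediateField.mem_fixingSubgroup_iff]
  intro x hx
  have h := AlgEquiv.restrictNormal_commutes s L ⟨x, hx⟩
  have h1 : AlgEquiv.restrictNormal s L ⟨x, hx⟩ = (⟨x, hx⟩ : L) :=
    congrArg (fun f : GalL L => f ⟨x, hx⟩) hs
  rw [h1] at h
  exact h.symm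

/-- `G_ℚ/G_L → Gal(L/ℚ)`. -/
def phiL : XK L → GalL L :=
  Quotient.lift (fun g : _root_.Fermat.Agent.S56.GQ => resL L g) (fun a b hab => by
    have h1 : a⁻¹ * b ∈ L.fixingSubgroup := QuotientGroup.leftRel_apply.1 hab
    have h3 : resL L (a⁻¹ * b) = 1 := resL_eq_one' L h1
    rw [map_mul, map_inv, inv_mul_eq_one] at h3
    exact h3)

lemma phiL_mk (g : _root_.Fermat.Agent.S56.GQ) : phiL L ((g : _root_.Fermat.Agent.S56.GQ) : XK L) = resL L g := rfl

lemma phiL_smul (g : _root_.Fermat.Agent.S56.GQ) (c : XK L) : phiL L (g • c) = resL L g * phiL L c := by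
  induction c using QuotientGroup.induction_on with
  | H a =>
    rw [MulAction.Quotient.smul_mk, phiL_mk, phiL_mk, smul_eq_mul, map_mul]

lemma phiL_injective : Function.Injective (phiL L) := by
  intro c d
  induction c using QuotientGroup.induction_on with
  | H a =>
    induction d using QuotientGroup.induction_on with
    | H b =>
      intro h
      rw [phiL_mk, phiL_mk] at h
      rw [QuotientGroup.eq]
      have h3 : resL L (a⁻¹ * b) = 1 := by
        rw [map_mul, map_inv, inv_mul_eq_one]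
        exact h
      exact mem_fix_of_resL_eq_one L h3

lemma phiL_surjective : Function.Surjective (phiL L) := by
  intro x
  have : Normal ℚ (AlgebraicClosure ℚ) := h49_qbar_normal
  obtain ⟨g, hg⟩ := AlgEquiv.restrictNormalHom_surjective (F := ℚ) (K₁ := L)
    (AlgebraicClosure ℚ) x
  exact ⟨(g : XK L), hg⟩

/-- `G_ℚ/G_L ≃ Gal(L/ℚ)`. -/
def phiEquiv : XK L ≃ GalL L := Equiv.ofBijective (phiL L) ⟨phiL_injective L, phiL_surjective L⟩

lemma phiEquiv_apply (c : XK L) : phiEquiv L c = phiL L c := rfl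

lemma phiEquiv_symm_mul (g : _root_.Fermat.Agent.S56.GQ) (x : GalL L) :
    (phiEquiv L).symm (resL L g * x) = g • (phiEquiv L).symm x := by
  apply (phiEquiv L).injective
  rw [Equiv.apply_symm_apply, phiEquiv_apply, phiL_smul, ← phiEquiv_apply,
    Equiv.apply_symm_apply]

variable {k : Type} [Field k] [Fintype (GalL L)]
variable {V : Type} [AddCommGroup V] [Module k V] [FiniteDimensional k V]
variable {ρ : Representation k (GalL L) V} {B : Subgroup (GalL L)} {W : Submodule k V}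
  (h : IsInducedFrom ρ B W) {ι : Type} [Fintype ι] (bW : Basis ι k W)

/-- `a_j : Fun(G_ℚ/G_L, k) → V`. -/
def aLin (ρ : Representation k (GalL L) V) {W : Submodule k V} (bW : Basis ι k W) (j : ι) :
    (XK L → k) →ₗ[k] V :=
  aMap ρ bW j ∘ₗ LinearMap.funLeft k k (phiEquiv L).symm

lemma aLin_apply (j : ι) (ψ : XK L → k) :
    aLin L ρ bW j ψ = aMap ρ bW j (fun x => ψ ((phiEquiv L).symm x)) := rfl

/-- `b_j : V → Fun(G_ℚ/G_L, k)`. -/
def bLin (j : ι) : V →ₗ[k] (XK L → k) :=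
  LinearMap.funLeft k k (phiL L) ∘ₗ bMap h bW j

lemma bLin_apply (j : ι) (v : V) (c : XK L) : bLin L h bW j v c = bMap h bW j v (phiL L c) := rfl

/-- `a_j` as a morphism of representations of `G_ℚ`. -/
def aHom (ρ : Representation k (GalL L) V) {W : Submodule k V} (bW : Basis ι k W) (j : ι) :
    FX k L ⟶ infl L ρ :=
  Rep.ofHom ⟨aLin L ρ bW j, fun g => by
    apply LinearMap.ext
    intro ψ
    show aLin L ρ bW j (fun x => ψ (g⁻¹ • x)) = ρ (resL L g) (aLin L ρ bW j ψ)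
    rw [aLin_apply, aLin_apply, ← aMap_perm]
    congr 1
    funext x
    rw [permRep_apply, smul_eq_mul, ← map_inv, phiEquiv_symm_mul]⟩

lemma aHom_hom_apply (j : ι) (ψ : FX k L) : (aHom L ρ bW j).hom ψ = aLin L ρ bW j ψ := rfl

/-- `b_j` as a morphism of representations of `G_ℚ`. -/
def bHom (j : ι) : infl L ρ ⟶ FX k L :=
  Rep.ofHom ⟨bLin L h bW j, fun g => by
    apply LinearMap.ext
    intro v
    funext c
    show bLin L h bW j (ρ (resL L g) v) c = bLin L h bW j v (g⁻¹ • c)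
    rw [bLin_apply, bLin_apply, bMap_rho, permRep_apply, phiL_smul, map_inv, smul_eq_mul]⟩

lemma bHom_hom_apply (j : ι) (v : infl L ρ) : (bHom L h bW j).hom v = bLin L h bW j v := rfl

lemma aLin_bLin (j : ι) (v : V) : aLin L ρ bW j (bLin L h bW j v) = aMap ρ bW j (bMap h bW j v) := by
  rw [aLin_apply]
  congr 1
  funext x
  rw [bLin_apply, ← phiEquiv_apply, Equiv.apply_symm_apply]

end galois

lemma permToFun_funToPerm {k : Type} [Field k] (K : IntermediateField ℚ (AlgebraicClosure ℚ))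
    [Finite (XK K)] (ψ : FX k K) :
    (permToFun (k := k) (K := K)).hom ((funToPerm (k := k) (K := K)).hom ψ) = ψ := by
  show (Finsupp.linearEquivFunOnFinite k k (XK K)) ((MonoidAlgebra.coeffLinearEquiv k)
    ((MonoidAlgebra.coeffLinearEquiv k).symm
      ((Finsupp.linearEquivFunOnFinite k k (XK K)).symm ψ))) = ψ
  rw [LinearEquiv.apply_symm_apply, LinearEquiv.apply_symm_apply]

theorem two_ne_zero_zmod' (p : ℕ) [Fact p.Prime] (hp2 : p ≠ 2) : (2 : ZMod p) ≠ 0 := by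
  intro h
  have h1 : ((2 : ℕ) : ZMod p) = 0 := by exact_mod_cast h
  rw [ZMod.natCast_eq_zero_iff] at h1
  have hp : p.Prime := Fact.out
  exact hp2 ((Nat.prime_dvd_prime_iff_eq hp Nat.prime_two).1 h1)

/-- **Package SHA0**. -/
theorem stmt_SHA0 : Stmt_SHA0 := by
  intro p _ hp2 S hpS L _ _ hgood V _ _ _ ρ B W hpB hind
  cases nonempty_fintype (GalL L)
  have hfin : Finite (XK L) := finite_XK hgood.1.1
  have hB : ((Nat.card B : ℕ) : ZMod p) ≠ 0 := by
    rw [Ne, ZMod.natCast_eq_zero_iff]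
    exact hpB
  let bW : Basis (Fin (finrank (ZMod p) W)) (ZMod p) W := Module.finBasis (ZMod p) W
  refine sha1_eq_bot_of_joint_retract S (two_ne_zero_zmod' p hp2)
    (A := tateDual p (infl L ρ)) (B := tateDual p (S55.permRep (ZMod p) L))
    (fun j => dHom (cycloK p (ZMod p)) (permToFun ≫ aHom L ρ bW j))
    (fun j => dHom (cycloK p (ZMod p)) (bHom L hind bW j ≫ funToPerm)) ?_ hgood.2.2
  intro φ
  apply Md_ext
  intro v
  have h1 : ∀ j : Fin (finrank (ZMod p) W),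
      ev (cycloK p (ZMod p)) (infl L ρ) v
        ((dHom (cycloK p (ZMod p)) (bHom L hind bW j ≫ funToPerm)).hom
          ((dHom (cycloK p (ZMod p)) (permToFun ≫ aHom L ρ bW j)).hom φ))
      = ev (cycloK p (ZMod p)) (infl L ρ) (aMap ρ bW j (bMap hind bW j v)) φ := by
    intro j
    rw [dHom_hom_apply, dHom_hom_apply, ev_dMap, ev_dMap]
    congr 1
    show (aHom L ρ bW j).hom ((permToFun (k := ZMod p) (K := L)).hom
      ((funToPerm (k := ZMod p) (K := L)).hom ((bHom L hind bW j).hom v))) = _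
    rw [permToFun_funToPerm, bHom_hom_apply, aHom_hom_apply]
    exact aLin_bLin L hind bW j v
  have h2 : ev (cycloK p (ZMod p)) (infl L ρ) v
      (∑ j, (dHom (cycloK p (ZMod p)) (bHom L hind bW j ≫ funToPerm)).hom
          ((dHom (cycloK p (ZMod p)) (permToFun ≫ aHom L ρ bW j)).hom φ))
      = ∑ j, ev (cycloK p (ZMod p)) (infl L ρ) v
        ((dHom (cycloK p (ZMod p)) (bHom L hind bW j ≫ funToPerm)).hom
          ((dHom (cycloK p (ZMod p)) (permToFun ≫ aHom L ρ bW j)).hom φ)) :=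
    map_sum (LinearMap.applyₗ (R := ZMod p) (M₂ := ZMod p) (v : V) :
      Module.Dual (ZMod p) V →ₗ[ZMod p] ZMod p) _ _
  rw [h2, Finset.sum_congr rfl (fun j _ => h1 j)]
  have h3 : ∑ j, ev (cycloK p (ZMod p)) (infl L ρ) (aMap ρ bW j (bMap hind bW j v)) φ
      = ev (cycloK p (ZMod p)) (infl L ρ) (∑ j, aMap ρ bW j (bMap hind bW j v)) φ :=
    (map_sum (show Module.Dual (ZMod p) V from φ) _ _).symm
  rw [h3]
  exact congrArg (fun x : V => ev (cycloK p (ZMod p)) (infl L ρ) x φ)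
    (sum_aMap_bMap hind bW hB v)

end Fermat.Agent.S56.EC.H4

end
end
-- ==== END Fermat.Agent.S56.EC.H4_Sha0

-- ==== BEGIN Fermat.Agent.S56.EC.H54_GoodBase
section

set_option autoImplicit false
set_option linter.unusedSectionVars false
set_option linter.style.haveILetI false
set_option linter.unusedVariables false

noncomputable section

namespace Fermat.Agent.S56.EC.H54

open CategoryTheory groupCohomology ExtCitation Module Fermat.Agent.S56

/-- The module `P' = 𝔽_p[G_ℚ/G_L]*(1)`. -/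
abbrev PD (p : ℕ) [Fact p.Prime] (L : IntermediateField ℚ (AlgebraicClosure ℚ)) :
    Rep.{0} (ZMod p) GQ :=
  tateDual p (S55.permRep (ZMod p) L)

section base

variable (p : ℕ) [Fact p.Prime] (L : IntermediateField ℚ (AlgebraicClosure ℚ))

theorem fixingSubgroup_normal [hn : _root_.Normal ℚ L] : L.fixingSubgroup.Normal := by
  have := S55.H48.qbar_isGalois
  rw [InfiniteGalois.normal_iff_isGalois]
  exact @IsGalois.mk _ _ _ _ _ inferInstance hn

theorem finite_quot_fixing [FiniteDimensional ℚ L] : Finite (GQ ⧸ L.fixingSubgroup) :=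
  (S55.H13.fixedField_of_le L L.fixingSubgroup le_rfl).2.2

theorem smul_coset_eq [Normal ℚ L] (s : GQ) (hs : s ∈ L.fixingSubgroup)
    (x : GQ ⧸ L.fixingSubgroup) : s • x = x := by
  have hn := fixingSubgroup_normal L
  induction x using QuotientGroup.induction_on with
  | H g =>
    show ((s * g : GQ) : GQ ⧸ L.fixingSubgroup) = (g : GQ ⧸ L.fixingSubgroup)
    rw [QuotientGroup.eq]
    have h1 : (s * g)⁻¹ * g = g⁻¹ * s⁻¹ * g := by group
    rw [h1]
    have := hn.conj_mem s⁻¹ (inv_mem hs) g⁻¹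
    rwa [inv_inv] at this

theorem ofMulAction_eq_self [Normal ℚ L] (s : GQ) (hs : s ∈ L.fixingSubgroup)
    (v : MonoidAlgebra (ZMod p) (GQ ⧸ L.fixingSubgroup)) :
    (Representation.ofMulAction (ZMod p) GQ (GQ ⧸ L.fixingSubgroup)) s v = v := by
  induction v using MonoidAlgebra.induction_linear with
  | zero => rw [map_zero]
  | add f g hf hg => rw [map_add, hf, hg]
  | single x a =>
    rw [Representation.ofMulAction_single, smul_coset_eq L s hs]

/-- The permutation module is trivial on `G_L`. -/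
theorem permRep_ρ_eq_one [Normal ℚ L] (s : GQ) (hs : s ∈ L.fixingSubgroup) :
    (S55.permRep (ZMod p) L).ρ s = 1 :=
  LinearMap.ext fun v => ofMulAction_eq_self p L s hs v

/-- All `p`-th roots of unity lie in a field containing a primitive one. -/
theorem root_mem_of_primitive {ζ : AlgebraicClosure ℚ} (hζ : IsPrimitiveRoot ζ p) (hζL : ζ ∈ L)
    (t : AlgebraicClosure ℚ) (ht : t ^ p = 1) : t ∈ L := by
  haveI : NeZero p := ⟨(Fact.out : p.Prime).ne_zero⟩
  obtain ⟨i, -, rfl⟩ := hζ.eq_pow_of_pow_eq_one ht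
  exact pow_mem hζL i

/-- `P'` is trivial on `G_L`. -/
theorem pd_ρ_eq_one [Normal ℚ L] (hL : ∃ ζ : AlgebraicClosure ℚ, ζ ∈ L ∧ IsPrimitiveRoot ζ p)
    (s : GQ) (hs : s ∈ L.fixingSubgroup) : (PD p L).ρ s = 1 := by
  obtain ⟨ζ, hζL, hζ⟩ := hL
  refine H47.tateDual_ρ_eq_one p _ s (permRep_ρ_eq_one p L s hs) ?_
  refine H47.cycloK_eq_one_of_fix p _ s fun t ht => ?_
  exact (IntermediateField.mem_fixingSubgroup_iff L s).1 hs t (root_mem_of_primitive p L hζ hζL t ht)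

theorem pd_smooth [Normal ℚ L] [FiniteDimensional ℚ L]
    (hL : ∃ ζ : AlgebraicClosure ℚ, ζ ∈ L ∧ IsPrimitiveRoot ζ p) : IsSmoothRep (PD p L) :=
  fun m => ⟨L, inferInstance, fun s hs => by rw [pd_ρ_eq_one p L hL s hs]; rfl⟩

theorem pd_unram [Normal ℚ L] {T : Finset Nat.Primes} (hT : L.IsUnramifiedOutside T)
    (hL : ∃ ζ : AlgebraicClosure ℚ, ζ ∈ L ∧ IsPrimitiveRoot ζ p) (q : Nat.Primes) (hq : q ∉ T) :
    IsUnramifiedRepAt (PD p L) (q : ℕ) :=
  fun A hA g hg => pd_ρ_eq_one p L hL g (hT.2 q hq A hA hg)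

theorem permRep_finiteDimensional [FiniteDimensional ℚ L] :
    FiniteDimensional (ZMod p) (S55.permRep (ZMod p) L) := by
  haveI := finite_quot_fixing L
  exact Module.Finite.of_basis (MonoidAlgebra.basis (GQ ⧸ L.fixingSubgroup) (ZMod p))

theorem pd_finiteDimensional [FiniteDimensional ℚ L] : FiniteDimensional (ZMod p) (PD p L) := by
  haveI := permRep_finiteDimensional p L
  show FiniteDimensional (ZMod p) (Module.Dual (ZMod p) (S55.permRep (ZMod p) L))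
  infer_instance

end base

/-! ### Vanishing of `H¹(Gal(L/ℚ), P')` -/

section shapiro

variable (p : ℕ) [Fact p.Prime] (L : IntermediateField ℚ (AlgebraicClosure ℚ))

/-- The value of a functional in `P'` on a basis vector. -/
def evalAt (f : PD p L) (x : GQ ⧸ L.fixingSubgroup) : ZMod p :=
  (show Module.Dual (ZMod p) (MonoidAlgebra (ZMod p) (GQ ⧸ L.fixingSubgroup)) from f)
    (MonoidAlgebra.single x 1)

theorem evalAt_add (f g : PD p L) (x : GQ ⧸ L.fixingSubgroup) :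
    evalAt p L (f + g) x = evalAt p L f x + evalAt p L g x := rfl

theorem evalAt_sub (f g : PD p L) (x : GQ ⧸ L.fixingSubgroup) :
    evalAt p L (f - g) x = evalAt p L f x - evalAt p L g x := rfl

theorem evalAt_ext (f g : PD p L) (h : ∀ x, evalAt p L f x = evalAt p L g x) : f = g := by
  refine (MonoidAlgebra.basis (GQ ⧸ L.fixingSubgroup) (ZMod p)).ext fun x => ?_
  rw [MonoidAlgebra.basis_apply]
  exact h x

theorem evalAt_ρ (g : GQ) (f : PD p L) (x : GQ ⧸ L.fixingSubgroup) :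
    evalAt p L ((PD p L).ρ g f) x = (cycloK p (ZMod p) g : ZMod p) * evalAt p L f (g⁻¹ • x) := by
  show (cycloK p (ZMod p) g : ZMod p) •
    (show Module.Dual (ZMod p) (MonoidAlgebra (ZMod p) (GQ ⧸ L.fixingSubgroup)) from f)
      ((Representation.ofMulAction (ZMod p) GQ (GQ ⧸ L.fixingSubgroup)) g⁻¹
        (MonoidAlgebra.single x 1)) = _
  rw [Representation.ofMulAction_single, smul_eq_mul]
  rfl

/-- The primitive of a cocycle vanishing on `G_L`. -/
def primitive (c : cocycles₁ (PD p L)) : PD p L :=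
  show Module.Dual (ZMod p) (MonoidAlgebra (ZMod p) (GQ ⧸ L.fixingSubgroup)) from
    (MonoidAlgebra.basis (GQ ⧸ L.fixingSubgroup) (ZMod p)).constr (ZMod p)
      (fun x => - evalAt p L (c (Quotient.out x)) x)

theorem evalAt_primitive (c : cocycles₁ (PD p L)) (x : GQ ⧸ L.fixingSubgroup) :
    evalAt p L (primitive p L c) x = - evalAt p L (c (Quotient.out x)) x := by
  unfold evalAt primitive
  rw [← MonoidAlgebra.basis_apply (k := ZMod p) x]
  exact Basis.constr_basis _ _ _ x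

/-- A cocycle vanishing on `G_L` is constant on the cosets of `G_L`. -/
theorem cocycle_coset [Normal ℚ L]
    (c : cocycles₁ (PD p L)) (hc : ∀ s ∈ L.fixingSubgroup, c s = 0) (g h : GQ)
    (hgh : (g : GQ ⧸ L.fixingSubgroup) = (h : GQ ⧸ L.fixingSubgroup)) : c g = c h := by
  have hs : g⁻¹ * h ∈ L.fixingSubgroup := QuotientGroup.eq.1 hgh
  have h1 : h = g * (g⁻¹ * h) := by group
  rw [h1, H13.cocycle_mul, hc _ hs, map_zero, zero_add]

/-- **Shapiro vanishing**: a cocycle of `P'` vanishing on `G_L` is a coboundary. -/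
theorem coboundary_of_vanish [Normal ℚ L]
    (c : cocycles₁ (PD p L)) (hc : ∀ s ∈ L.fixingSubgroup, c s = 0) :
    ∃ m : PD p L, ∀ g : GQ, c g = (PD p L).ρ g m - m := by
  refine ⟨primitive p L c, fun g => evalAt_ext p L _ _ fun x => ?_⟩
  rw [evalAt_sub, evalAt_ρ, evalAt_primitive, evalAt_primitive]
  set y : GQ ⧸ L.fixingSubgroup := g⁻¹ • x with hy
  have hxy : ((g * Quotient.out y : GQ) : GQ ⧸ L.fixingSubgroup)
      = ((Quotient.out x : GQ) : GQ ⧸ L.fixingSubgroup) := by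
    have h1 : ((g * Quotient.out y : GQ) : GQ ⧸ L.fixingSubgroup)
        = g • ((Quotient.out y : GQ) : GQ ⧸ L.fixingSubgroup) := rfl
    rw [h1, QuotientGroup.out_eq', QuotientGroup.out_eq', hy, smul_inv_smul]
  have h2 : c (Quotient.out x) = (PD p L).ρ g (c (Quotient.out y)) + c g := by
    rw [← cocycle_coset p L c hc _ _ hxy, H13.cocycle_mul]
  rw [h2, evalAt_add, evalAt_ρ, ← hy]
  ring

end shapiro

end Fermat.Agent.S56.EC.H54

end

end
-- ==== END Fermat.Agent.S56.EC.H54_GoodBase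

-- ==== BEGIN Fermat.Agent.S56.EC.H92_Superadd
section

set_option autoImplicit false
set_option linter.style.haveILetI false

/-!
# Cluster T / S56, package EC: `Stmt_superadd` and `Stmt_ADDH`

From the long exact sequence of level-`S` cohomology (`EC/H92_LES.lean`) and the exactness of
the invariants of complex conjugation (`2` invertible).
-/

noncomputable section

namespace Fermat.Agent.S56.H92

open CategoryTheory groupCohomology ExtCitation Module Fermat.Agent.S56 Fermat.Agent.S56.EC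

section dims

variable {k : Type} [Field k] {A B C : Rep.{0} k GQ} (i : A ⟶ B) (π : B ⟶ C)
  (hi : Function.Injective i.hom) (hπ : Function.Surjective π.hom)
  (hex : ∀ b : B, π.hom b = 0 ↔ ∃ a : A, i.hom a = b)

include hi hπ hex

/-- `dim B = dim A + dim C`. -/
theorem finrank_ses [FiniteDimensional k B] :
    finrank k B = finrank k A + finrank k C := by
  have h1 := LinearMap.finrank_range_add_finrank_ker π.hom.toLinearMap
  have h2 : LinearMap.range π.hom.toLinearMap = ⊤ := LinearMap.range_eq_top.2 hπ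
  have h3 : LinearMap.ker π.hom.toLinearMap = LinearMap.range i.hom.toLinearMap := by
    ext b
    rw [LinearMap.mem_ker, LinearMap.mem_range]
    exact hex b
  have h4 : finrank k ↥(LinearMap.range i.hom.toLinearMap) = finrank k A :=
    LinearMap.finrank_range_of_inj hi
  rw [h2, h3, h4, finrank_top] at h1
  omega

/-- The invariants of complex conjugation, as a submodule of `N`. -/
def archInv (N : Rep.{0} k GQ) : Submodule k N where
  carrier := {m | N.ρ complexConjugation m = m}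
  add_mem' := by
    intro a b ha hb
    simp only [Set.mem_ofPred_eq] at ha hb ⊢
    rw [map_add, ha, hb]
  zero_mem' := by
    simp only [Set.mem_ofPred_eq]
    exact map_zero _
  smul_mem' := by
    intro c a ha
    simp only [Set.mem_ofPred_eq] at ha ⊢
    rw [map_smul, ha]

omit hi hπ hex in
theorem mem_archInv (N : Rep.{0} k GQ) (m : N) :
    m ∈ archInv N ↔ N.ρ complexConjugation m = m := Iff.rfl

omit hi hπ hex in
theorem finrank_archInv (N : Rep.{0} k GQ) :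
    finrank k ↥(archInv N) = finrank k ↥(Rep.res archimedeanLoc N).ρ.invariants := by
  let e : ↥(archInv N) ≃ₗ[k] ↥(Rep.res archimedeanLoc N).ρ.invariants :=
    { toFun := fun m => ⟨(m : N), (H27.mem_invariants_arch N (m : N)).2 m.2⟩
      invFun := fun m => ⟨(m : N), (H27.mem_invariants_arch N (m : N)).1 m.2⟩
      map_add' := fun _ _ => rfl
      map_smul' := fun _ _ => rfl
      left_inv := fun _ => rfl
      right_inv := fun _ => rfl }
  exact e.finrank_eq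

omit hi hπ hex in
theorem rho_conj_conj (N : Rep.{0} k GQ) (m : N) :
    N.ρ complexConjugation (N.ρ complexConjugation m) = m := by
  rw [← Module.End.mul_apply, ← map_mul, complexConjugation_mul_self, map_one,
    Module.End.one_apply]

/-- `h⁰(ℝ, B) = h⁰(ℝ, A) + h⁰(ℝ, C)` when `2` is invertible. -/
theorem finrank_archInv_ses (h2 : (2 : k) ≠ 0) [FiniteDimensional k B] :
    finrank k ↥(archInv B) = finrank k ↥(archInv A) + finrank k ↥(archInv C) := by
  let πc : ↥(archInv B) →ₗ[k] ↥(archInv C) :=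
    LinearMap.restrict π.hom.toLinearMap (p := archInv B) (q := archInv C) (fun m hm => by
      rw [mem_archInv] at hm ⊢
      show C.ρ complexConjugation (π.hom m) = π.hom m
      rw [← Rep.hom_comm_apply, hm])
  let ιc : ↥(archInv A) →ₗ[k] ↥(archInv B) :=
    LinearMap.restrict i.hom.toLinearMap (p := archInv A) (q := archInv B) (fun m hm => by
      rw [mem_archInv] at hm ⊢
      show B.ρ complexConjugation (i.hom m) = i.hom m
      rw [← Rep.hom_comm_apply, hm])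
  have hsurj : Function.Surjective πc := by
    intro y
    obtain ⟨b, hb⟩ := hπ (y : C)
    have hy : C.ρ complexConjugation (y : C) = (y : C) := y.2
    have hm : (2 : k)⁻¹ • (b + B.ρ complexConjugation b) ∈ archInv B := by
      rw [mem_archInv, map_smul, map_add, rho_conj_conj, add_comm]
    refine ⟨⟨_, hm⟩, Subtype.ext ?_⟩
    show π.hom ((2 : k)⁻¹ • (b + B.ρ complexConjugation b)) = (y : C)
    rw [map_smul, map_add, Rep.hom_comm_apply, hb, hy, ← two_smul k (y : C), smul_smul,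
      inv_mul_cancel₀ h2, one_smul]
  have hinj : Function.Injective ιc := by
    intro a a' haa
    apply Subtype.ext
    apply hi
    exact congrArg Subtype.val haa
  have hker : LinearMap.ker πc = LinearMap.range ιc := by
    ext m
    rw [LinearMap.mem_ker, LinearMap.mem_range]
    constructor
    · intro hm
      have hm0 : π.hom (m : B) = 0 := congrArg Subtype.val hm
      obtain ⟨a, ha⟩ := (hex _).1 hm0
      have hmc : B.ρ complexConjugation (m : B) = (m : B) := m.2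
      have hac : a ∈ archInv A := by
        rw [mem_archInv]
        apply hi
        rw [Rep.hom_comm_apply, ha, hmc]
      exact ⟨⟨a, hac⟩, Subtype.ext ha⟩
    · rintro ⟨a, rfl⟩
      apply Subtype.ext
      exact (hex _).2 ⟨(a : A), rfl⟩
  have h1 := LinearMap.finrank_range_add_finrank_ker πc
  have h3 : finrank k ↥(LinearMap.range ιc) = finrank k ↥(archInv A) :=
    LinearMap.finrank_range_of_inj hinj
  rw [LinearMap.range_eq_top.2 hsurj, hker, h3, finrank_top] at h1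
  omega

/-- `archDefect` is additive on short exact sequences when `2` is invertible. -/
theorem archDefect_ses (h2 : (2 : k) ≠ 0) [FiniteDimensional k B] :
    archDefect B = archDefect A + archDefect C := by
  have e1 := finrank_ses i π hi hπ hex
  have e2 := finrank_archInv_ses i π hi hπ hex h2
  rw [finrank_archInv, finrank_archInv, finrank_archInv] at e2
  unfold archDefect
  omega

end dims

/-- **Package SUPERADD.** -/
theorem stmt_superadd : Stmt_superadd := by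
  intro k _ h2 S N₁ N N₂ _ _ _ i π hses hL₁ hL hL₂ f1A f1B f1C f2A f2B f2C
  obtain ⟨hi, hπ, hex⟩ := hses
  haveI := f1A
  haveI := f1B
  haveI := f1C
  haveI := f2A
  haveI := f2B
  haveI := f2C
  have key := LES.superadd S i π hi hπ hex hL₁ hL hL₂
  have harch := archDefect_ses i π hi hπ hex h2
  unfold ecDefect
  rw [harch]
  omega

/-- With `H³_S(N₁) = 0`, every level-`S` 2-cocycle of `N₂` lifts to a level-`S` 2-cocycle of
`N`. -/
theorem exists_lift_of_H3S {k : Type} [Field k] (S : Finset Nat.Primes)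
    {N₁ N N₂ : Rep.{0} k GQ} (i : N₁ ⟶ N) (π : N ⟶ N₂)
    (hi : Function.Injective i.hom) (hπ : Function.Surjective π.hom)
    (hex : ∀ b : N, π.hom b = 0 ↔ ∃ a : N₁, i.hom a = b)
    (hL : S55.Lev S N) (h3 : GWC.H3S S N₁)
    (c : GQ × GQ → N₂) (hc : S55.dTwo N₂ c = 0) (hcl : IsLevelConstantS₂ S c) :
    ∃ b : GQ × GQ → N, S55.dTwo N b = 0 ∧ IsLevelConstantS₂ S b ∧
      ∃ f : GQ → N₂, IsLevelConstantS₁ S f ∧ (fun x => π.hom (b x)) = c + S55.dOne N₂ f := by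
  -- a level-`S` lift of `c`
  let b0 : GQ × GQ → N := Function.surjInv hπ ∘ c
  have hb0l : IsLevelConstantS₂ S b0 := hcl.comp _
  have hπb0 : (fun x => π.hom (b0 x)) = c := by
    funext x
    exact Function.surjInv_eq hπ _
  -- its coboundary comes from `N₁`
  have hz0 : ∀ x, π.hom (S55.dTwo N b0 x) = 0 := by
    intro x
    have := congrFun (S55.dTwo_comp π b0) x
    rw [← this, hπb0, hc]
    rfl
  let a : GQ × GQ × GQ → N₁ := Function.invFun i.hom ∘ S55.dTwo N b0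
  have hia : (fun x => i.hom (a x)) = S55.dTwo N b0 := by
    funext x
    obtain ⟨y, hy⟩ := (hex _).1 (hz0 x)
    show i.hom (Function.invFun i.hom (S55.dTwo N b0 x)) = _
    rw [← hy, Function.leftInverse_invFun hi y]
  have hal : S55.IsLevS₃ S a :=
    S55.levS₃_comp (S55.isLevS₃_dTwo N (LES.nc S) hL hb0l) _
  have had : S55.dThree N₁ a = 0 := by
    funext x
    apply hi
    have h1 := congrFun (S55.dThree_comp i a) x
    rw [hia, S55.dThree_dTwo] at h1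
    show i.hom (S55.dThree N₁ a x) = i.hom 0
    rw [map_zero, ← h1]
    rfl
  obtain ⟨a', ha'l, ha'⟩ := h3 a had hal
  refine ⟨b0 - fun x => i.hom (a' x), ?_, ?_, 0, ?_, ?_⟩
  · rw [S55.dTwo_sub, S55.dTwo_comp i a', ha', hia, sub_self]
  · exact S55.levS₂_sub hb0l (ha'l.comp _)
  · exact isLevelConstantS₁_const S (0 : N₂)
  · funext x
    show π.hom (b0 x - i.hom (a' x)) = c x + S55.dOne N₂ 0 x
    have h0 : S55.dOne N₂ (0 : GQ → N₂) x = 0 := by
      simp [S55.dOne]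
    rw [map_sub, (hex _).2 ⟨_, rfl⟩, sub_zero, h0, add_zero]
    exact congrFun hπb0 x

/-- **Package ADDH.** -/
theorem stmt_ADDH : Stmt_ADDH := by
  intro k _ h2 S N₁ N N₂ _ _ _ i π hses hL₁ hL hL₂ h3 f1A f1B f1C f2A f2B f2C
  obtain ⟨hi, hπ, hex⟩ := hses
  haveI := f1A
  haveI := f1B
  haveI := f1C
  haveI := f2A
  haveI := f2B
  haveI := f2C
  have hs : Function.Surjective (LES.β2 S i π hi hπ hex hL₁ hL hL₂) :=
    LES.β2_surjective_of_lift S i π hi hπ hex hL₁ hL hL₂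
      (fun c hc hcl => exists_lift_of_H3S S i π hi hπ hex hL h3 c hc hcl)
  have key := LES.add_of_surjective S i π hi hπ hex hL₁ hL hL₂ hs
  have harch := archDefect_ses i π hi hπ hex h2
  unfold ecDefect
  rw [harch]
  omega

end Fermat.Agent.S56.H92

end

end
-- ==== END Fermat.Agent.S56.EC.H92_Superadd

-- ==== BEGIN Fermat.Agent.S56.FL.H15_CC2Ctx
section

set_option autoImplicit false
set_option linter.style.haveILetI false
set_option linter.unusedSectionVars false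

/-!
# LOC-p-FL, package UNITS / CC2 (helper15): the context of the level analysis

* `CoreCtx p k`   : the data `L`, `N ≤ G₂`, `ζ`, `χ`, `ℓ₀ : k → 𝔽_p`, a uniformizer `ϖ` of `K = L^N`.
* `CoreCtx.IsKum` : Kummer homomorphisms `h : N → k` (`h (σ n σ⁻¹) = χ σ * h n`).
* `CoreCtx.psi`   : `ψ_x = ℓ₀ (x * h ·)`;  `CoreCtx.lam` : `λ = ω χ⁻¹`.
* `CoreCtx.WitAt` : "`ψ_x` has a witness `α` with `‖α^p - 1‖ ≤ ρ`", and its closure properties.
-/

noncomputable section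

namespace Fermat.Agent.S56.FL.H15

open scoped NNReal
open Fermat.Agent.S56.FL Fermat.Agent.Lib.LocalKummer Fermat.Agent.S56.FL.H85 Module

variable {p : ℕ} [Fact p.Prime] {k : Type} [Field k] [CharP k p]

/-- The data of the level analysis. -/
structure CoreCtx (p : ℕ) [Fact p.Prime] (k : Type) [Field k] [CharP k p] where
  L : IntermediateField ℚ_[p] (PadicAlgCl p)
  N : Subgroup (Gp p)
  G₂ : Subgroup (Gp p)
  ζ : PadicAlgCl p
  ϖ : PadicAlgCl p
  e₀ : ℕ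
  χ : Gp p → k
  ℓ₀ : k →+ ZMod p
  fdL : FiniteDimensional ℚ_[p] L
  normalL : Normal ℚ_[p] L
  hζ : IsPrimitiveRoot ζ p
  hζL : ζ ∈ L
  hN : N.Normal
  hNG : N ≤ G₂
  hNζ : ∀ n ∈ N, n ζ = ζ
  lev : LevCtx (kField L N) ϖ ζ e₀
  hχ : ∀ σ ∈ G₂, ∀ τ ∈ G₂, χ (σ * τ) = χ σ * χ τ
  hχ1 : ∀ n ∈ N, χ n = 1
  hℓ : ∀ (a : ZMod p) (x : k), ℓ₀ (cst p k a * x) = a * ℓ₀ x
  hℓ0 : ∀ y : k, (∀ x : k, ℓ₀ (x * y) = 0) → y = 0

namespace CoreCtx

variable (C : CoreCtx p k)

/-- The field `K = L^N`. -/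
abbrev K : IntermediateField ℚ_[p] (PadicAlgCl p) := kField C.L C.N

/-- The norm of the uniformizer. -/
abbrev r : ℝ := ‖C.ϖ‖

/-- Kummer homomorphisms. -/
structure IsKum (h : Gp p → k) : Prop where
  add : ∀ n ∈ C.N, ∀ n' ∈ C.N, h (n * n') = h n + h n'
  conj : ∀ σ ∈ C.G₂, ∀ n ∈ C.N, h (σ * n * σ⁻¹) = C.χ σ * h n
  triv : ∀ n ∈ C.N, n ∈ C.L.fixingSubgroup → h n = 0

/-- `ψ_x = ℓ₀ (x * h ·)`. -/
def psi (h : Gp p → k) (x : k) : Gp p → ZMod p := fun n => C.ℓ₀ (x * h n)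

/-- `λ = ω χ⁻¹`. -/
def lam (σ : Gp p) : k := cst p k ((omg C.hζ σ : (ZMod p)ˣ) : ZMod p) * (C.χ σ)⁻¹

theorem χ_one : C.χ 1 = 1 := C.hχ1 1 C.N.one_mem

theorem χ_inv {σ : Gp p} (hσ : σ ∈ C.G₂) : C.χ σ⁻¹ = (C.χ σ)⁻¹ := by
  have h1 : C.χ σ * C.χ σ⁻¹ = 1 := by
    rw [← C.hχ σ hσ σ⁻¹ (C.G₂.inv_mem hσ), mul_inv_cancel, C.χ_one]
  exact eq_inv_of_mul_eq_one_right h1

theorem χ_ne_zero {σ : Gp p} (hσ : σ ∈ C.G₂) : C.χ σ ≠ 0 := by
  intro h0
  have h1 : C.χ σ * C.χ σ⁻¹ = 1 := by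
    rw [← C.hχ σ hσ σ⁻¹ (C.G₂.inv_mem hσ), mul_inv_cancel, C.χ_one]
  rw [h0, zero_mul] at h1
  exact zero_ne_one h1

theorem χ_pow {σ : Gp p} (hσ : σ ∈ C.G₂) (j : ℕ) : C.χ (σ ^ j) = C.χ σ ^ j := by
  induction j with
  | zero => rw [pow_zero, pow_zero, C.χ_one]
  | succ j ih => rw [pow_succ, pow_succ, C.hχ _ (C.G₂.pow_mem hσ j) _ hσ, ih]

theorem lam_ne_zero {σ : Gp p} (hσ : σ ∈ C.G₂) : C.lam σ ≠ 0 := by
  refine mul_ne_zero ?_ (inv_ne_zero (C.χ_ne_zero hσ))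
  intro h0
  have h1 : ((omg C.hζ σ : (ZMod p)ˣ) : ZMod p) = 0 :=
    (map_eq_zero_iff (cst p k) (RingHom.injective _)).mp h0
  exact (omg C.hζ σ).ne_zero h1

theorem lam_pow {σ : Gp p} (hσ : σ ∈ C.G₂) (j : ℕ) : C.lam (σ ^ j) = C.lam σ ^ j := by
  unfold lam
  rw [map_pow, C.χ_pow hσ, mul_pow, inv_pow, Units.val_pow_eq_pow_val, map_pow]

theorem psi_add (h : Gp p → k) (x x' : k) (n : Gp p) :
    C.psi h (x + x') n = C.psi h x n + C.psi h x' n := by
  unfold psi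
  rw [add_mul, map_add]

theorem psi_neg (h : Gp p → k) (x : k) (n : Gp p) : C.psi h (-x) n = -C.psi h x n := by
  unfold psi
  rw [neg_mul, map_neg]

theorem psi_cst (h : Gp p → k) (a : ZMod p) (x : k) (n : Gp p) :
    C.psi h (cst p k a * x) n = a * C.psi h x n := by
  unfold psi
  rw [mul_assoc, C.hℓ]

theorem psi_natCast (h : Gp p → k) (m : ℕ) (x : k) (n : Gp p) :
    C.psi h ((m : k) * x) n = (m : ZMod p) * C.psi h x n := by
  have := C.psi_cst h (m : ZMod p) x n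
  rwa [map_natCast] at this

variable {C}

theorem IsKum.psi_mul {h : Gp p → k} (hk : C.IsKum h) (x : k) {n n' : Gp p} (hn : n ∈ C.N)
    (hn' : n' ∈ C.N) : C.psi h x (n * n') = C.psi h x n + C.psi h x n' := by
  unfold psi
  rw [hk.add n hn n' hn', mul_add, map_add]

theorem IsKum.psi_triv {h : Gp p → k} (hk : C.IsKum h) (x : k) {n : Gp p} (hn : n ∈ C.N)
    (hnL : n ∈ C.L.fixingSubgroup) : C.psi h x n = 0 := by
  unfold psi
  rw [hk.triv n hn hnL, mul_zero, map_zero]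

/-- The conjugate of `ψ_x` by `σ ∈ G₂` is `ψ_{λ(σ) x}`. -/
theorem IsKum.psi_conj {h : Gp p → k} (hk : C.IsKum h) (x : k) {σ : Gp p} (hσ : σ ∈ C.G₂)
    {n : Gp p} (hn : n ∈ C.N) :
    ((omg C.hζ σ : (ZMod p)ˣ) : ZMod p) * C.psi h x (σ⁻¹ * n * σ) = C.psi h (C.lam σ * x) n := by
  have h1 : h (σ⁻¹ * n * σ) = (C.χ σ)⁻¹ * h n := by
    have := hk.conj σ⁻¹ (C.G₂.inv_mem hσ) n hn
    rw [inv_inv] at this
    rw [this, C.χ_inv hσ]
  unfold psi lam
  rw [h1, ← C.hℓ]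
  congr 1
  ring

theorem IsKum.zero : C.IsKum (fun _ => 0) :=
  ⟨fun _ _ _ _ => by simp, fun _ _ _ _ => by simp, fun _ _ _ => rfl⟩

theorem IsKum.lin {h₁ h₂ : Gp p → k} (hk₁ : C.IsKum h₁) (hk₂ : C.IsKum h₂) (l₁ l₂ : k) :
    C.IsKum (fun n => l₁ * h₁ n + l₂ * h₂ n) := by
  refine ⟨fun n hn n' hn' => ?_, fun σ hσ n hn => ?_, fun n hn hnL => ?_⟩
  · simp only [hk₁.add n hn n' hn', hk₂.add n hn n' hn']; ring
  · simp only [hk₁.conj σ hσ n hn, hk₂.conj σ hσ n hn]; ring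
  · simp only [hk₁.triv n hn hnL, hk₂.triv n hn hnL]; ring

theorem psi_lin (C : CoreCtx p k) (h₁ h₂ : Gp p → k) (l₁ l₂ x : k) (n : Gp p) :
    C.psi (fun n => l₁ * h₁ n + l₂ * h₂ n) x n = C.psi h₁ (l₁ * x) n + C.psi h₂ (l₂ * x) n := by
  unfold psi
  rw [← map_add]
  congr 1
  ring

/-- If `ψ_x` vanishes on `N` for all `x` then `h` vanishes on `N`. -/
theorem eq_zero_of_psi (C : CoreCtx p k) (h : Gp p → k) {n : Gp p}
    (hψ : ∀ x : k, C.psi h x n = 0) : h n = 0 :=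
  C.hℓ0 (h n) hψ

variable (C)

/-- `ψ_x` has a witness `α` with `‖α^p - 1‖ ≤ ρ`. -/
def WitAt (h : Gp p → k) (x : k) (ρ : ℝ) : Prop :=
  ∃ α, IsWit C.L C.N C.ζ (C.psi h x) α ∧ ‖α ^ p - 1‖ ≤ ρ

variable {C}

theorem WitAt.mono {h : Gp p → k} {x : k} {ρ ρ' : ℝ} (hw : C.WitAt h x ρ) (hρ : ρ ≤ ρ') :
    C.WitAt h x ρ' := by
  obtain ⟨α, hα, hn⟩ := hw
  exact ⟨α, hα, hn.trans hρ⟩

theorem norm_mul_sub_one_le {a b : PadicAlgCl p} {ρ : ℝ} (hρ : ρ ≤ 1) (ha : ‖a - 1‖ ≤ ρ)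
    (hb : ‖b - 1‖ ≤ ρ) : ‖a * b - 1‖ ≤ ρ := by
  have hb1 : ‖b‖ ≤ 1 := by
    have : b = (b - 1) + 1 := by ring
    rw [this]
    exact (IsUltrametricDist.norm_add_le_max _ _).trans (max_le (hb.trans hρ) (by simp))
  have h1 : a * b - 1 = (a - 1) * b + (b - 1) := by ring
  rw [h1]
  refine (IsUltrametricDist.norm_add_le_max _ _).trans (max_le ?_ hb)
  rw [norm_mul]
  calc ‖a - 1‖ * ‖b‖ ≤ ρ * 1 :=
        mul_le_mul ha hb1 (norm_nonneg _) ((norm_nonneg _).trans ha)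
    _ = ρ := mul_one _

theorem norm_eq_one_of_sub_lt {a : PadicAlgCl p} (ha : ‖a - 1‖ < 1) : ‖a‖ = 1 := by
  have : a = 1 + (a - 1) := by ring
  rw [this, norm_add_eq_left (by rw [norm_one]; exact ha), norm_one]

theorem norm_pow_sub_one_le' {a : PadicAlgCl p} (ha : ‖a - 1‖ ≤ 1) (m : ℕ) :
    ‖a ^ m - 1‖ ≤ ‖a - 1‖ := by
  have ha1 : ‖a‖ ≤ 1 := by
    have : a = (a - 1) + 1 := by ring
    rw [this]
    exact (IsUltrametricDist.norm_add_le_max _ _).trans (max_le ha (by simp))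
  have := norm_pow_sub_pow_le_algCl ha1 (norm_one (α := PadicAlgCl p)).le m
  rwa [one_pow] at this

theorem WitAt.add {h : Gp p → k} {x x' : k} {ρ : ℝ} (hρ : ρ ≤ 1) (hw : C.WitAt h x ρ)
    (hw' : C.WitAt h x' ρ) : C.WitAt h (x + x') ρ := by
  obtain ⟨α, hα, hn⟩ := hw
  obtain ⟨α', hα', hn'⟩ := hw'
  refine ⟨α * α', (hα.mul C.hζ.pow_eq_one hα').congr fun n _ => (C.psi_add h x x' n).symm, ?_⟩
  rw [mul_pow]
  exact norm_mul_sub_one_le hρ hn hn'

theorem WitAt.natCast {h : Gp p → k} {x : k} {ρ : ℝ} (hρ : ρ ≤ 1) (hw : C.WitAt h x ρ) (m : ℕ) :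
    C.WitAt h ((m : k) * x) ρ := by
  obtain ⟨α, hα, hn⟩ := hw
  refine ⟨α ^ m, (hα.pow C.hζ.pow_eq_one m).congr fun n _ => (C.psi_natCast h m x n).symm, ?_⟩
  rw [← pow_mul, mul_comm, pow_mul]
  exact (norm_pow_sub_one_le' (hn.trans hρ) m).trans hn

theorem WitAt.conj {h : Gp p → k} (hk : C.IsKum h) {x : k} {ρ : ℝ} (hw : C.WitAt h x ρ)
    {σ : Gp p} (hσ : σ ∈ C.G₂) : C.WitAt h (C.lam σ * x) ρ := by
  obtain ⟨α, hα, hn⟩ := hw
  haveI := C.normalL
  refine ⟨σ α, (hα.conj C.hζ C.hN σ).congr fun n hn' => hk.psi_conj x hσ hn', ?_⟩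
  rw [← map_pow]
  have : σ (α ^ p) - 1 = σ (α ^ p - 1) := by rw [map_sub, map_one]
  rw [this, norm_gal]
  exact hn

theorem WitAt.neg {h : Gp p → k} {x : k} {ρ : ℝ} (hρ : ρ < 1) (hw : C.WitAt h x ρ) :
    C.WitAt h (-x) ρ := by
  obtain ⟨α, hα, hn⟩ := hw
  refine ⟨α⁻¹, (hα.inv C.hζ.pow_eq_one).congr fun n _ => (C.psi_neg h x n).symm, ?_⟩
  have ha1 : ‖α ^ p‖ = 1 := norm_eq_one_of_sub_lt (hn.trans_lt hρ)
  have ha0 : α ^ p ≠ 0 := pow_ne_zero _ hα.ne_zero
  have h1 : α⁻¹ ^ p - 1 = -(α ^ p - 1) / α ^ p := by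
    rw [inv_pow]; field_simp; ring
  rw [h1, norm_div, norm_neg, ha1, div_one]
  exact hn

end CoreCtx

end Fermat.Agent.S56.FL.H15

end

end
-- ==== END Fermat.Agent.S56.FL.H15_CC2Ctx

-- ==== BEGIN Fermat.Agent.S56.FL.H15_CCZ
section

set_option autoImplicit false
set_option linter.style.haveILetI false

/-!
# LOC-p-FL (helper15): the bounded field of a cocycle may be assumed to contain `μ_p`

Since composita of bounded fields are bounded (`H15.isBdd_sup_cyclo`), a bounded cocycle is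
bounded with a field containing `μ_p`: `IsBddCocycle → IsBddCocycleZ`.  Hence
`Stmt_CC1z → Stmt_CC1`, `Stmt_CC2z → Stmt_CC2`, `Stmt_CC3z → Stmt_CC3`.
Moreover two bounded cocycles are bounded with respect to a common field (`exists_common_field`).
-/

noncomputable section

namespace Fermat.Agent.S56.FL.H15

open scoped NNReal
open Fermat.Agent.S56.FL Module IntermediateField

variable {p : ℕ} [Fact p.Prime] {k : Type} [Field k]

theorem fixingSubgroup_sup_le_left {L₁ L₂ : IntermediateField ℚ_[p] (PadicAlgCl p)} :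
    (L₁ ⊔ L₂).fixingSubgroup ≤ L₁.fixingSubgroup :=
  IntermediateField.fixingSubgroup_le (le_sup_left : L₁ ≤ L₁ ⊔ L₂)

/-- A bounded cocycle is bounded with a field containing `μ_p`. -/
theorem isBddCocycleZ_of_isBddCocycle (hp2 : p ≠ 2) {G₁ : Subgroup (Gp p)} {χ : G₁ →* kˣ}
    {c : G₁ → k} (h : IsBddCocycle G₁ χ c) : IsBddCocycleZ G₁ χ c := by
  obtain ⟨h1, L, hfd, hN, hB, h2⟩ := h
  haveI := hfd
  obtain ⟨hfin, hnorm, hb⟩ := isBdd_sup_cyclo hp2 hN hN hB hB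
  refine ⟨h1, L ⊔ L ⊔ cycloField p, hfin, hnorm, hb, ?_, ?_⟩
  · intro ζ hζ
    exact (le_sup_right : cycloField p ≤ L ⊔ L ⊔ cycloField p) (mem_cycloField_of_pow_eq_one hζ)
  · intro σ hσ
    refine h2 σ ?_
    have hle : L ≤ L ⊔ L ⊔ cycloField p := le_sup_left.trans le_sup_left
    exact IntermediateField.fixingSubgroup_le hle hσ

/-- Two bounded cocycles are bounded with respect to a common field containing `μ_p`. -/
theorem exists_common_field (hp2 : p ≠ 2) {G₁ : Subgroup (Gp p)} {χ : G₁ →* kˣ}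
    {c₁ c₂ : G₁ → k} (h₁ : IsBddCocycle G₁ χ c₁) (h₂ : IsBddCocycle G₁ χ c₂) :
    ∃ (L : IntermediateField ℚ_[p] (PadicAlgCl p)) (_ : FiniteDimensional ℚ_[p] L),
      Normal ℚ_[p] L ∧ IsBddField p L ∧ (∀ ζ : PadicAlgCl p, ζ ^ p = 1 → ζ ∈ L) ∧
        ∀ σ : G₁, (σ : Gp p) ∈ L.fixingSubgroup → χ σ = 1 ∧ c₁ σ = 0 ∧ c₂ σ = 0 := by
  obtain ⟨-, L₁, hfd₁, hN₁, hB₁, hc₁⟩ := h₁
  obtain ⟨-, L₂, hfd₂, hN₂, hB₂, hc₂⟩ := h₂
  haveI := hfd₁
  haveI := hfd₂
  obtain ⟨hfin, hnorm, hb⟩ := isBdd_sup_cyclo hp2 hN₁ hN₂ hB₁ hB₂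
  refine ⟨L₁ ⊔ L₂ ⊔ cycloField p, hfin, hnorm, hb, ?_, ?_⟩
  · intro ζ hζ
    exact (le_sup_right : cycloField p ≤ L₁ ⊔ L₂ ⊔ cycloField p)
      (mem_cycloField_of_pow_eq_one hζ)
  · intro σ hσ
    have hle₁ : L₁ ≤ L₁ ⊔ L₂ ⊔ cycloField p := le_sup_left.trans le_sup_left
    have hle₂ : L₂ ≤ L₁ ⊔ L₂ ⊔ cycloField p := le_sup_right.trans le_sup_left
    have r₁ := hc₁ σ (IntermediateField.fixingSubgroup_le hle₁ hσ)
    have r₂ := hc₂ σ (IntermediateField.fixingSubgroup_le hle₂ hσ)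
    exact ⟨r₁.1, r₁.2, r₂.2⟩

theorem dimLeOne_of_dimLeOneZ (hp2 : p ≠ 2) {G₁ : Subgroup (Gp p)} {χ : G₁ →* kˣ}
    (h : DimLeOneZ G₁ χ) : DimLeOne G₁ χ := fun c₁ c₂ h₁ h₂ =>
  h c₁ c₂ (isBddCocycleZ_of_isBddCocycle hp2 h₁) (isBddCocycleZ_of_isBddCocycle hp2 h₂)

theorem stmt_CC1_of_z (h : Stmt_CC1z) : Stmt_CC1 := fun p _ hp2 k _ _ _ χ hχ =>
  dimLeOne_of_dimLeOneZ hp2 (h p hp2 k χ hχ)

theorem stmt_CC2_of_z (h : Stmt_CC2z) : Stmt_CC2 := fun p _ hp2 k _ _ _ G₂ hI hidx χ ψ h1 h2 =>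
  dimLeOne_of_dimLeOneZ hp2 (h p hp2 k G₂ hI hidx χ ψ h1 h2)

theorem stmt_CC3_of_z (h : Stmt_CC3z) : Stmt_CC3 := fun p _ hp2 k _ _ _ χ h1 h2 c hc =>
  h p hp2 k χ h1 h2 c (isBddCocycleZ_of_isBddCocycle hp2 hc)

end Fermat.Agent.S56.FL.H15

end

end
-- ==== END Fermat.Agent.S56.FL.H15_CCZ

-- ==== BEGIN Fermat.Agent.S56.FL.H38_OrdCore
section

set_option autoImplicit false

/-!
# LOC-p-FL, package ORD (helper38), part 1: the algebra on `E = V_x`

`ρx` a first-order deformation of `ρbar` with coordinates `θ : k[ε] ⊗ V ≃ V_x`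
(`H57.co₁`, `H57.co₂`), `Wc = (I - 1) E` the subgroup generated by the `σ e - e`, `σ` in the
inertia group.  `SubqE` is the conclusion of `Stmt_FL_B` for `E`.

* `ordCocycle_of_subq` : `SubqE` + (inertia acts non-trivially on `ℓ`) ⟹ `IsOrdCocycle`-shape.
* `split_of_subq`      : `SubqE` + (`ρbar` ramified at some inertia element) ⟹ a second stable line.
-/

noncomputable section

namespace Fermat.Agent.S56.FL.H38

open scoped NNReal TensorProduct
open Fermat.Agent.S56.FL Fermat.Agent.S56 Fermat.Agent.S56.H57 Fermat.Agent.S53 Module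

variable {p : ℕ} [Fact p.Prime] {k : Type} [Field k]
variable (ρbar : ResidualGaloisRep k) (ρx : GaloisRepAdic (DualNumber k))

/-- The subgroup `(I - 1) E` of `E = V_x`. -/
def Wc (p : ℕ) [Fact p.Prime] : AddSubgroup ρx.V :=
  AddSubgroup.closure
    {y : ρx.V | ∃ σ ∈ inertiaP p, ∃ m' : ρx.V, y = ρx.ρ (localGaloisToGlobal p σ) m' - m'}

/-- The conclusion of `Stmt_FL_B` for the module `E = V_x`. -/
def SubqE (p : ℕ) [Fact p.Prime] : Prop :=
  ∀ M₁ M₂ : AddSubgroup ρx.V, M₁ ≤ M₂ →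
    (∀ σ : Gp p, ∀ m ∈ M₁, ρx.ρ (localGaloisToGlobal p σ) m ∈ M₁) →
    (∀ σ : Gp p, ∀ m ∈ M₂, ρx.ρ (localGaloisToGlobal p σ) m ∈ M₂) →
    (∀ σ ∈ inertiaP p, ∀ m ∈ M₂, ρx.ρ (localGaloisToGlobal p σ) m - m ∈ M₁) →
    ∀ m ∈ M₂, m ∈ Wc ρx p → m ∈ M₁

variable {ρbar ρx}

theorem gen_mem_Wc {σ : Gp p} (hσ : σ ∈ inertiaP p) (m' : ρx.V) :
    ρx.ρ (localGaloisToGlobal p σ) m' - m' ∈ Wc ρx p :=
  AddSubgroup.subset_closure ⟨σ, hσ, m', rfl⟩

theorem Wc_smul (a : DualNumber k) {y : ρx.V} (hy : y ∈ Wc ρx p) : a • y ∈ Wc ρx p := by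
  unfold Wc at hy
  induction hy using AddSubgroup.closure_induction with
  | mem y hy =>
    obtain ⟨σ, hσ, m', rfl⟩ := hy
    have : a • (ρx.ρ (localGaloisToGlobal p σ) m' - m')
        = ρx.ρ (localGaloisToGlobal p σ) (a • m') - a • m' := by
      rw [smul_sub, map_smul]
    rw [this]
    exact gen_mem_Wc hσ _
  | zero => rw [smul_zero]; exact (Wc ρx p).zero_mem
  | add y z _ _ hy hz => rw [smul_add]; exact (Wc ρx p).add_mem hy hz
  | neg y _ hy => rw [smul_neg]; exact (Wc ρx p).neg_mem hy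

theorem Wc_act (τ : Gp p) {y : ρx.V} (hy : y ∈ Wc ρx p) :
    ρx.ρ (localGaloisToGlobal p τ) y ∈ Wc ρx p := by
  unfold Wc at hy
  induction hy using AddSubgroup.closure_induction with
  | mem y hy =>
    obtain ⟨σ, hσ, m', rfl⟩ := hy
    have hconj : τ * σ * τ⁻¹ ∈ inertiaP p := inertiaP_normal.conj_mem σ hσ τ
    have : ρx.ρ (localGaloisToGlobal p τ) (ρx.ρ (localGaloisToGlobal p σ) m' - m')
        = ρx.ρ (localGaloisToGlobal p (τ * σ * τ⁻¹)) (ρx.ρ (localGaloisToGlobal p τ) m')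
          - ρx.ρ (localGaloisToGlobal p τ) m' := by
      rw [map_sub]
      congr 1
      rw [← Module.End.mul_apply, ← Module.End.mul_apply, ← map_mul, ← map_mul, ← map_mul,
        ← map_mul]
      congr 3
      group
    rw [this]
    exact gen_mem_Wc hconj _
  | zero => rw [map_zero]; exact (Wc ρx p).zero_mem
  | add y z _ _ hy hz => rw [map_add]; exact (Wc ρx p).add_mem hy hz
  | neg y _ hy => rw [map_neg]; exact (Wc ρx p).neg_mem hy

section Coord

variable {c : _root_.Fermat.Agent.S56.GQ → Module.End k ρbar.V}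
  {θ : (DualNumber k ⊗[k] ρbar.V) ≃ₗ[DualNumber k] ρx.V}

theorem co₁_add' (y y' : ρx.V) :
    co₁ ρbar ρx θ (y + y') = co₁ ρbar ρx θ y + co₁ ρbar ρx θ y' := by
  rw [co₁, co₁, co₁, map_add, map_add]

theorem co₂_add' (y y' : ρx.V) :
    co₂ ρbar ρx θ (y + y') = co₂ ρbar ρx θ y + co₂ ρbar ρx θ y' := by
  rw [co₂, co₂, co₂, map_add, map_add]

theorem co₁_zero' : co₁ ρbar ρx θ (0 : ρx.V) = 0 := by
  rw [co₁, map_zero, map_zero]

theorem co₂_zero' : co₂ ρbar ρx θ (0 : ρx.V) = 0 := by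
  rw [co₂, map_zero, map_zero]

theorem co₁_neg' (y : ρx.V) : co₁ ρbar ρx θ (-y) = -co₁ ρbar ρx θ y := by
  rw [co₁, co₁, map_neg, map_neg]

theorem co₂_neg' (y : ρx.V) : co₂ ρbar ρx θ (-y) = -co₂ ρbar ρx θ y := by
  rw [co₂, co₂, map_neg, map_neg]

/-- The point of `E` with coordinates `(v, u)`. -/
def pt (θ : (DualNumber k ⊗[k] ρbar.V) ≃ₗ[DualNumber k] ρx.V) (v u : ρbar.V) : ρx.V :=
  θ ((1 : DualNumber k) ⊗ₜ[k] v + (DualNumber.eps : DualNumber k) ⊗ₜ[k] u)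

@[simp] theorem co₁_pt (v u : ρbar.V) : co₁ ρbar ρx θ (pt θ v u) = v := co₁_theta ρbar ρx θ v u

@[simp] theorem co₂_pt (v u : ρbar.V) : co₂ ρbar ρx θ (pt θ v u) = u := co₂_theta ρbar ρx θ v u

theorem eq_of_co {y y' : ρx.V} (h₁ : co₁ ρbar ρx θ y = co₁ ρbar ρx θ y')
    (h₂ : co₂ ρbar ρx θ y = co₂ ρbar ρx θ y') : y = y' := by
  rw [eq_theta_co ρbar ρx θ y, eq_theta_co ρbar ρx θ y', h₁, h₂]

theorem eq_zero_of_co {y : ρx.V} (h₁ : co₁ ρbar ρx θ y = 0) (h₂ : co₂ ρbar ρx θ y = 0) :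
    y = 0 :=
  eq_of_co (θ := θ) (h₁.trans co₁_zero'.symm) (h₂.trans co₂_zero'.symm)

theorem co₁_inl_smul (t : k) (y : ρx.V) :
    co₁ ρbar ρx θ ((TrivSqZeroExt.inl t : DualNumber k) • y) = t • co₁ ρbar ρx θ y := by
  rw [co₁_smul, TrivSqZeroExt.fst_inl]

theorem co₂_inl_smul (t : k) (y : ρx.V) :
    co₂ ρbar ρx θ ((TrivSqZeroExt.inl t : DualNumber k) • y) = t • co₂ ρbar ρx θ y := by
  rw [co₂_smul, TrivSqZeroExt.fst_inl, TrivSqZeroExt.snd_inl, zero_smul, add_zero]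

end Coord

section Main

variable {c : _root_.Fermat.Agent.S56.GQ → Module.End k ρbar.V}
  {θ : (DualNumber k ⊗[k] ρbar.V) ≃ₗ[DualNumber k] ρx.V}

/-- The hypothesis `IsCocycleOf` on `θ`. -/
def IsTheta (c : _root_.Fermat.Agent.S56.GQ → Module.End k ρbar.V)
    (θ : (DualNumber k ⊗[k] ρbar.V) ≃ₗ[DualNumber k] ρx.V) : Prop :=
  ∀ (σ : _root_.Fermat.Agent.S56.GQ) (v : ρbar.V), ρx.ρ σ (θ ((1 : DualNumber k) ⊗ₜ[k] v)) =
    θ ((1 : DualNumber k) ⊗ₜ[k] (ρbar.ρ σ v) +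
      (DualNumber.eps : DualNumber k) ⊗ₜ[k] (c σ (ρbar.ρ σ v)))

theorem co₁_act (hθ : IsTheta c θ) (σ : Gp p) (y : ρx.V) :
    co₁ ρbar ρx θ (ρx.ρ (localGaloisToGlobal p σ) y) = locRho ρbar σ (co₁ ρbar ρx θ y) :=
  co₁_rho hθ _ y

theorem co₂_act (hθ : IsTheta c θ) (σ : Gp p) (y : ρx.V) :
    co₂ ρbar ρx θ (ρx.ρ (localGaloisToGlobal p σ) y)
      = c (localGaloisToGlobal p σ) (locRho ρbar σ (co₁ ρbar ρx θ y))
        + locRho ρbar σ (co₂ ρbar ρx θ y) :=
  co₂_rho hθ _ y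

theorem locRho_inv_apply (σ : Gp p) (v : ρbar.V) :
    locRho ρbar σ (locRho ρbar σ⁻¹ v) = v := by
  rw [← Module.End.mul_apply, ← locRho_mul, mul_inv_cancel, locRho_one, Module.End.one_apply]

/-- (F1) the first coordinate of an element of `(I - 1) E` lies in an ordinary line. -/
theorem co₁_mem_of_mem_Wc (hθ : IsTheta c θ) {ℓ : Submodule k ρbar.V}
    (hℓ : IsOrdLine ρbar p ℓ) {y : ρx.V} (hy : y ∈ Wc ρx p) : co₁ ρbar ρx θ y ∈ ℓ := by
  unfold Wc at hy
  induction hy using AddSubgroup.closure_induction with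
  | mem y hy =>
    obtain ⟨σ, hσ, m', rfl⟩ := hy
    rw [co₁_sub, co₁_act hθ]
    exact hℓ.2 σ hσ _
  | zero => rw [co₁_zero']; exact ℓ.zero_mem
  | add y z _ _ hy hz => rw [co₁_add']; exact ℓ.add_mem hy hz
  | neg y _ hy => rw [co₁_neg']; exact ℓ.neg_mem hy

/-- (F2) an element of `(I - 1) E ∩ ε E` lies in `ε ℓ`. -/
theorem co₂_mem_of_mem_Wc (hθ : IsTheta c θ) (hS : SubqE ρx p) {ℓ : Submodule k ρbar.V}
    (hℓ : IsOrdLine ρbar p ℓ) {y : ρx.V} (hy : y ∈ Wc ρx p) (h0 : co₁ ρbar ρx θ y = 0) :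
    co₂ ρbar ρx θ y ∈ ℓ := by
  let M₂ : AddSubgroup ρx.V :=
    { carrier := {y | co₁ ρbar ρx θ y = 0}
      add_mem' := fun {a b} ha hb => by
        change co₁ ρbar ρx θ (a + b) = 0
        rw [co₁_add', ha, hb, add_zero]
      zero_mem' := co₁_zero'
      neg_mem' := fun {a} ha => by
        change co₁ ρbar ρx θ (-a) = 0
        rw [co₁_neg', ha, neg_zero] }
  let M₁ : AddSubgroup ρx.V :=
    { carrier := {y | co₁ ρbar ρx θ y = 0 ∧ co₂ ρbar ρx θ y ∈ ℓ}
      add_mem' := fun {a b} ha hb => by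
        refine ⟨?_, ?_⟩
        · rw [co₁_add', ha.1, hb.1, add_zero]
        · rw [co₂_add']; exact ℓ.add_mem ha.2 hb.2
      zero_mem' := ⟨co₁_zero', by rw [co₂_zero']; exact ℓ.zero_mem⟩
      neg_mem' := fun {a} ha => by
        refine ⟨?_, ?_⟩
        · rw [co₁_neg', ha.1, neg_zero]
        · rw [co₂_neg']; exact ℓ.neg_mem ha.2 }
  have h12 : M₁ ≤ M₂ := fun y hy => hy.1
  have hst1 : ∀ σ : Gp p, ∀ m ∈ M₁, ρx.ρ (localGaloisToGlobal p σ) m ∈ M₁ := by
    intro σ m hm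
    refine ⟨?_, ?_⟩
    · rw [co₁_act hθ, hm.1, map_zero]
    · rw [co₂_act hθ, hm.1, map_zero, map_zero, zero_add]
      exact hℓ.1.2 σ _ hm.2
  have hst2 : ∀ σ : Gp p, ∀ m ∈ M₂, ρx.ρ (localGaloisToGlobal p σ) m ∈ M₂ := by
    intro σ m hm
    change co₁ ρbar ρx θ _ = 0
    have hm' : co₁ ρbar ρx θ m = 0 := hm
    rw [co₁_act hθ, hm', map_zero]
  have hin : ∀ σ ∈ inertiaP p, ∀ m ∈ M₂, ρx.ρ (localGaloisToGlobal p σ) m - m ∈ M₁ := by
    intro σ hσ m hm
    have hm' : co₁ ρbar ρx θ m = 0 := hm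
    refine ⟨?_, ?_⟩
    · rw [co₁_sub, co₁_act hθ, hm', map_zero, sub_zero]
    · rw [co₂_sub, co₂_act hθ, hm', map_zero, map_zero, zero_add]
      exact hℓ.2 σ hσ _
  exact (hS M₁ M₂ h12 hst1 hst2 hin y h0 hy).2

/-- (★) the shape of `(I - 1) E`. -/
theorem co₂_sub_mem_of_mem_Wc (hθ : IsTheta c θ) (hS : SubqE ρx p) {ℓ : Submodule k ρbar.V}
    (hℓ : IsOrdLine ρbar p ℓ) {v₁ : ρbar.V} (hspan : ∀ v ∈ ℓ, ∃ t : k, v = t • v₁)
    {w : ρx.V} (hw : w ∈ Wc ρx p) (hw1 : co₁ ρbar ρx θ w = v₁)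
    {n : Module.End k ρbar.V} (hn : n v₁ = co₂ ρbar ρx θ w)
    {y : ρx.V} (hy : y ∈ Wc ρx p) :
    co₂ ρbar ρx θ y - n (co₁ ρbar ρx θ y) ∈ ℓ := by
  obtain ⟨t, ht⟩ := hspan _ (co₁_mem_of_mem_Wc hθ hℓ hy)
  have hy' : y - (TrivSqZeroExt.inl t : DualNumber k) • w ∈ Wc ρx p :=
    (Wc ρx p).sub_mem hy (Wc_smul _ hw)
  have h0 : co₁ ρbar ρx θ (y - (TrivSqZeroExt.inl t : DualNumber k) • w) = 0 := by
    rw [co₁_sub, co₁_inl_smul, hw1, ht, sub_self]
  have h1 := co₂_mem_of_mem_Wc hθ hS hℓ hy' h0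
  rw [co₂_sub, co₂_inl_smul] at h1
  rw [ht, map_smul, hn]
  exact h1

/-- **ORD, algebraic core.**  If `SubqE` holds and inertia acts non-trivially on the ordinary line
`ℓ`, the cocycle is ordinary with respect to `ℓ`. -/
theorem ordCocycle_of_subq (hθ : IsTheta c θ) (hS : SubqE ρx p) {ℓ : Submodule k ρbar.V}
    (hℓ : IsOrdLine ρbar p ℓ)
    (hram : ∃ σ₁ ∈ inertiaP p, ∃ v₁ ∈ ℓ, locRho ρbar σ₁ v₁ ≠ v₁) :
    ∃ m : Module.End k ρbar.V, ∀ σ : Gp p,
      (∀ v ∈ ℓ, (c (localGaloisToGlobal p σ)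
          - (locRho ρbar σ * m * locRho ρbar σ⁻¹ - m)) v ∈ ℓ) ∧
      (σ ∈ inertiaP p → ∀ v : ρbar.V, (c (localGaloisToGlobal p σ)
          - (locRho ρbar σ * m * locRho ρbar σ⁻¹ - m)) v ∈ ℓ) := by
  obtain ⟨σ₁, hσ₁, v₁, hv₁, hne⟩ := hram
  have hv₁0 : v₁ ≠ 0 := by
    intro h; apply hne; rw [h, map_zero]
  -- `ℓ = k v₁`
  have hspan : ∀ v ∈ ℓ, ∃ t : k, v = t • v₁ := by
    obtain ⟨v₀, hv₀, hgen⟩ := finrank_eq_one_iff'.mp hℓ.1.1
    obtain ⟨c₁, hc₁⟩ := hgen ⟨v₁, hv₁⟩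
    have hc₁0 : c₁ ≠ 0 := by
      intro h
      rw [h, zero_smul] at hc₁
      exact hv₁0 (congrArg Subtype.val hc₁).symm
    intro v hv
    obtain ⟨c₂, hc₂⟩ := hgen ⟨v, hv⟩
    refine ⟨c₂ * c₁⁻¹, ?_⟩
    have h1 : (v₀ : ρbar.V) = c₁⁻¹ • v₁ := by
      have := congrArg Subtype.val hc₁
      simp only [Submodule.coe_smul] at this
      rw [← this, smul_smul, inv_mul_cancel₀ hc₁0, one_smul]
    have h2 := congrArg Subtype.val hc₂
    simp only [Submodule.coe_smul] at h2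
    rw [← h2, h1, smul_smul]
  obtain ⟨a, ha⟩ := hspan _ (hℓ.1.2 σ₁ v₁ hv₁)
  have ha1 : a - 1 ≠ 0 := by
    intro h
    apply hne
    rw [ha, sub_eq_zero.mp h, one_smul]
  -- the generator `w`
  set g : ρx.V := ρx.ρ (localGaloisToGlobal p σ₁) (pt θ v₁ 0) - pt θ v₁ 0 with hg
  have hgW : g ∈ Wc ρx p := gen_mem_Wc hσ₁ _
  set w : ρx.V := (TrivSqZeroExt.inl (a - 1)⁻¹ : DualNumber k) • g with hw
  have hwW : w ∈ Wc ρx p := Wc_smul _ hgW
  have hw1 : co₁ ρbar ρx θ w = v₁ := by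
    rw [hw, co₁_inl_smul, hg, co₁_sub, co₁_act hθ, co₁_pt, ha]
    have h3 : a • v₁ - v₁ = (a - 1) • v₁ := by rw [sub_smul, one_smul]
    rw [h3, smul_smul, inv_mul_cancel₀ ha1, one_smul]
  obtain ⟨b, hb⟩ := exists_basis_of_ne_zero ρbar.finrank_eq v₁ hv₁0
  set n : Module.End k ρbar.V := (b.coord 0).smulRight (co₂ ρbar ρx θ w) with hn
  have hnv : n v₁ = co₂ ρbar ρx θ w := by
    rw [hn, LinearMap.smulRight_apply, ← hb, Basis.coord_apply, Basis.repr_self,
      Finsupp.single_eq_same, one_smul]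
  have hstar : ∀ {y : ρx.V}, y ∈ Wc ρx p →
      co₂ ρbar ρx θ y - n (co₁ ρbar ρx θ y) ∈ ℓ :=
    fun hy => co₂_sub_mem_of_mem_Wc hθ hS hℓ hspan hwW hw1 hnv hy
  refine ⟨-n, fun σ => ⟨?_, ?_⟩⟩
  · intro v hv
    set v' : ρbar.V := locRho ρbar σ⁻¹ v with hv'
    have hv'ℓ : v' ∈ ℓ := hℓ.1.2 σ⁻¹ v hv
    obtain ⟨t, ht⟩ := hspan v' hv'ℓ
    set y : ρx.V := (TrivSqZeroExt.inl t : DualNumber k) • w with hy
    have hyW : y ∈ Wc ρx p := Wc_smul _ hwW
    have hy1 : co₁ ρbar ρx θ y = v' := by rw [hy, co₁_inl_smul, hw1, ht]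
    have hy2 : co₂ ρbar ρx θ y = n v' := by rw [hy, co₂_inl_smul, ht, map_smul, hnv]
    have h1 := hstar (Wc_act σ hyW)
    rw [co₁_act hθ, co₂_act hθ, hy1, hy2, hv', locRho_inv_apply] at h1
    have h2 : (c (localGaloisToGlobal p σ) - (locRho ρbar σ * -n * locRho ρbar σ⁻¹ - -n)) v
        = c (localGaloisToGlobal p σ) v + locRho ρbar σ (n (locRho ρbar σ⁻¹ v)) - n v := by
      simp only [LinearMap.sub_apply, Module.End.mul_apply, LinearMap.neg_apply, map_neg]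
      abel
    rw [h2]
    exact h1
  · intro hσ v
    set v' : ρbar.V := locRho ρbar σ⁻¹ v with hv'
    have hz : ρx.ρ (localGaloisToGlobal p σ) (pt θ v' (n v')) - pt θ v' (n v') ∈ Wc ρx p :=
      gen_mem_Wc hσ _
    have h1 := hstar hz
    rw [co₁_sub, co₂_sub, co₁_act hθ, co₂_act hθ, co₁_pt, co₂_pt, hv', locRho_inv_apply,
      map_sub] at h1
    have h2 : (c (localGaloisToGlobal p σ) - (locRho ρbar σ * -n * locRho ρbar σ⁻¹ - -n)) v
        = c (localGaloisToGlobal p σ) v + locRho ρbar σ (n (locRho ρbar σ⁻¹ v))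
            - n (locRho ρbar σ⁻¹ v) - (n v - n (locRho ρbar σ⁻¹ v)) := by
      simp only [LinearMap.sub_apply, Module.End.mul_apply, LinearMap.neg_apply, map_neg]
      abel
    rw [h2]
    exact h1

/-- **ORD, algebraic core, second half.**  If `SubqE` holds and `ρbar` is ramified, an unramified
stable line has a stable complement. -/
theorem split_of_subq (hθ : IsTheta c θ) (hS : SubqE ρx p)
    (hram : ∃ σ₁ ∈ inertiaP p, ∃ v : ρbar.V, locRho ρbar σ₁ v ≠ v) : SplitCond ρbar p := by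
  intro ℓ hℓ htriv
  obtain ⟨σ₁, hσ₁, v₀, hv₀⟩ := hram
  have hpt_add : ∀ z z' : ρbar.V, pt θ 0 (z + z') = pt θ 0 z + pt θ 0 z' := by
    intro z z'
    apply eq_of_co (θ := θ)
    · rw [co₁_add', co₁_pt, co₁_pt, co₁_pt, add_zero]
    · rw [co₂_add', co₂_pt, co₂_pt, co₂_pt]
  have hpt_smul : ∀ (t : k) (z : ρbar.V),
      pt θ 0 (t • z) = (TrivSqZeroExt.inl t : DualNumber k) • pt θ 0 z := by
    intro t z
    apply eq_of_co (θ := θ)
    · rw [co₁_inl_smul, co₁_pt, co₁_pt, smul_zero]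
    · rw [co₂_inl_smul, co₂_pt, co₂_pt]
  have hpt_act : ∀ (σ : Gp p) (z : ρbar.V),
      ρx.ρ (localGaloisToGlobal p σ) (pt θ 0 z) = pt θ 0 (locRho ρbar σ z) := by
    intro σ z
    apply eq_of_co (θ := θ)
    · rw [co₁_act hθ, co₁_pt, co₁_pt, map_zero]
    · rw [co₂_act hθ, co₁_pt, co₂_pt, co₂_pt, map_zero, map_zero, zero_add]
  let ℓ' : Submodule k ρbar.V :=
    { carrier := {z | pt θ 0 z ∈ Wc ρx p}
      add_mem' := fun {a b} ha hb => by
        change pt θ 0 (a + b) ∈ Wc ρx p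
        rw [hpt_add]; exact (Wc ρx p).add_mem ha hb
      zero_mem' := by
        change pt θ 0 (0 : ρbar.V) ∈ Wc ρx p
        have : pt θ 0 (0 : ρbar.V) = 0 := by
          apply eq_zero_of_co (θ := θ)
          · rw [co₁_pt]
          · rw [co₂_pt]
        rw [this]; exact (Wc ρx p).zero_mem
      smul_mem' := fun t z hz => by
        change pt θ 0 (t • z) ∈ Wc ρx p
        rw [hpt_smul]; exact Wc_smul _ hz }
  have hmem : ∀ z : ρbar.V, z ∈ ℓ' ↔ pt θ 0 z ∈ Wc ρx p := fun z => Iff.rfl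
  -- `ℓ'` is stable
  have hstab : ∀ (σ : Gp p), ∀ v ∈ ℓ', locRho ρbar σ v ∈ ℓ' := by
    intro σ v hv
    rw [hmem, ← hpt_act]
    exact Wc_act σ hv
  -- `ℓ ⊓ ℓ' = ⊥`
  have hdisj : Disjoint ℓ ℓ' := by
    rw [Submodule.disjoint_def]
    intro z hzℓ hzℓ'
    let M₂ : AddSubgroup ρx.V :=
      { carrier := {y | co₁ ρbar ρx θ y = 0 ∧ co₂ ρbar ρx θ y ∈ ℓ}
        add_mem' := fun {a b} ha hb => by
          refine ⟨?_, ?_⟩
          · rw [co₁_add', ha.1, hb.1, add_zero]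
          · rw [co₂_add']; exact ℓ.add_mem ha.2 hb.2
        zero_mem' := ⟨co₁_zero', by rw [co₂_zero']; exact ℓ.zero_mem⟩
        neg_mem' := fun {a} ha => by
          refine ⟨?_, ?_⟩
          · rw [co₁_neg', ha.1, neg_zero]
          · rw [co₂_neg']; exact ℓ.neg_mem ha.2 }
    have hst1 : ∀ σ : Gp p, ∀ m ∈ (⊥ : AddSubgroup ρx.V),
        ρx.ρ (localGaloisToGlobal p σ) m ∈ (⊥ : AddSubgroup ρx.V) := by
      intro σ m hm
      rw [AddSubgroup.mem_bot] at hm ⊢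
      rw [hm, map_zero]
    have hst2 : ∀ σ : Gp p, ∀ m ∈ M₂, ρx.ρ (localGaloisToGlobal p σ) m ∈ M₂ := by
      intro σ m hm
      refine ⟨?_, ?_⟩
      · rw [co₁_act hθ, hm.1, map_zero]
      · rw [co₂_act hθ, hm.1, map_zero, map_zero, zero_add]
        exact hℓ.2 σ _ hm.2
    have hin : ∀ σ ∈ inertiaP p, ∀ m ∈ M₂,
        ρx.ρ (localGaloisToGlobal p σ) m - m ∈ (⊥ : AddSubgroup ρx.V) := by
      intro σ hσ m hm
      rw [AddSubgroup.mem_bot]
      apply eq_zero_of_co (θ := θ)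
      · rw [co₁_sub, co₁_act hθ, hm.1, map_zero, sub_zero]
      · rw [co₂_sub, co₂_act hθ, hm.1, map_zero, map_zero, zero_add, htriv σ hσ _ hm.2,
          sub_self]
    have hzM₂ : pt θ 0 z ∈ M₂ := ⟨co₁_pt 0 z, by rw [co₂_pt]; exact hzℓ⟩
    have h0 := hS ⊥ M₂ bot_le hst1 hst2 hin _ hzM₂ hzℓ'
    rw [AddSubgroup.mem_bot] at h0
    have := congrArg (co₂ ρbar ρx θ) h0
    rwa [co₂_pt, co₂_zero'] at this
  -- `ℓ' ≠ ⊥`
  have hne : ℓ' ≠ ⊥ := by
    intro h
    have hz : locRho ρbar σ₁ v₀ - v₀ ∈ ℓ' := by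
      rw [hmem]
      have : pt θ 0 (locRho ρbar σ₁ v₀ - v₀)
          = ρx.ρ (localGaloisToGlobal p σ₁) (pt θ 0 v₀) - pt θ 0 v₀ := by
        apply eq_of_co (θ := θ)
        · rw [co₁_sub, co₁_act hθ, co₁_pt, co₁_pt, map_zero, sub_zero]
        · rw [co₂_sub, co₂_act hθ, co₁_pt, co₂_pt, co₂_pt, map_zero, map_zero, zero_add]
      rw [this]
      exact gen_mem_Wc hσ₁ _
    rw [h, Submodule.mem_bot, sub_eq_zero] at hz
    exact hv₀ hz
  have hfin1 : 1 ≤ finrank k ℓ' := by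
    rw [Nat.succ_le_iff, Module.finrank_pos_iff]
    exact Submodule.nontrivial_iff_ne_bot.mpr hne
  have hfin2 : finrank k ℓ + finrank k ℓ' ≤ 2 := by
    have := Submodule.finrank_add_finrank_le_of_disjoint hdisj
    rwa [ρbar.finrank_eq] at this
  have hℓ1 : finrank k ℓ = 1 := hℓ.1
  refine ⟨ℓ', ⟨by omega, hstab⟩, ?_⟩
  intro heq
  rw [heq, disjoint_self] at hdisj
  exact hne (heq.trans hdisj)

end Main

end Fermat.Agent.S56.FL.H38

end

end
-- ==== END Fermat.Agent.S56.FL.H38_OrdCore
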