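-- GENERATED (merged mirror, NOTES/tools/trim/merge3_helper67.py): 1 modules of the originals, bodies verbatim.
import Fermat.Agent.Zm.S56_L07_000
import Fermat.Agent.Zm.S56_L11_006
import Fermat.Agent.Zm.S56_L07_002

-- ==== BEGIN Fermat.Agent.S55.CFT.GS.H6_ResCyc
section

set_option autoImplicit false
set_option linter.unusedSectionVars false
set_option linter.style.haveILetI false

open scoped Pointwise NumberField

noncomputable section

namespace Fermat.Agent.S55.CFT.GS.H6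

open Fermat.Agent.S55 Fermat.Agent.S55.Top Fermat.Agent.Lib.FrobExists
  Fermat.Agent.Lib.InertiaBridge Fermat.Agent.Lib.Minkowski Fermat.Agent.Lib.UnramVal
  IsDedekindDomain ExtCitation

local notation "Qb" => AlgebraicClosure ℚ

section resCyc

/-- The decomposition group of an unramified prime of a number field is cyclic. -/
theorem isCyclic_stabilizer_of_inertia_eq_bot (L : Type) [Field L] [NumberField L]
    (P : Ideal (𝓞 L)) [hP : P.IsPrime] (hP0 : P ≠ ⊥)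
    (hin : P.inertia (L ≃ₐ[ℚ] L) = ⊥) :
    IsCyclic (MulAction.stabilizer (L ≃ₐ[ℚ] L) P) := by
  haveI : P.IsMaximal := hP.isMaximal hP0
  haveI : (P.under ℤ).IsMaximal := Ideal.IsMaximal.under ℤ P
  letI : Field (𝓞 L ⧸ P) := Ideal.Quotient.field P
  letI : Field (ℤ ⧸ P.under ℤ) := Ideal.Quotient.field (P.under ℤ)
  haveI : Finite (𝓞 L ⧸ P) := Ideal.finiteQuotientOfFreeOfNeBot P hP0
  have hker : (Ideal.Quotient.stabilizerHom P (P.under ℤ) (L ≃ₐ[ℚ] L)).ker = ⊥ := by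
    have h1 := Ideal.Quotient.map_ker_stabilizer_subtype P (P.under ℤ) (L ≃ₐ[ℚ] L)
    rw [hin] at h1
    exact (Subgroup.map_eq_bot_iff_of_injective _ (Subgroup.subtype_injective _)).mp h1
  have hinj : Function.Injective (Ideal.Quotient.stabilizerHom P (P.under ℤ) (L ≃ₐ[ℚ] L)) :=
    (MonoidHom.ker_eq_bot_iff _).mp hker
  exact isCyclic_of_injective _ hinj

attribute [local instance] qb_isAlgebraic qb_isAlgClosure qb_normal qb_isGalois

variable (L : IntermediateField ℚ Qb) [FiniteDimensional ℚ L] [Normal ℚ L]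

attribute [local instance] numberField_K

theorem ur_algebraMap_restrict (g : GQ) (b : 𝓞 ↥L) :
    algebraMap (𝓞 ↥L) Qb (AlgEquiv.restrictNormalHom (F := ℚ) (K₁ := Qb) L g • b) =
      g (algebraMap (𝓞 ↥L) Qb b) := by
  have h3 : algebraMap (𝓞 ↥L) Qb (AlgEquiv.restrictNormalHom (F := ℚ) (K₁ := Qb) L g • b)
      = (((AlgEquiv.restrictNormalHom (F := ℚ) (K₁ := Qb) L g) (b : ↥L) : ↥L) : Qb) := rfl
  rw [h3]
  exact AlgEquiv.restrictNormal_commutes g L (b : ↥L)

/-- The restriction of an element of the decomposition group of `A` stabilises the prime of `L`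
under `A`. -/
theorem ur_restrict_mem_stabilizer (A : ValuationSubring Qb) (g : GQ) (hg : g • A = A) :
    AlgEquiv.restrictNormalHom (F := ℚ) (K₁ := Qb) L g ∈
      MulAction.stabilizer (↥L ≃ₐ[ℚ] ↥L) (primeBelow L A) := by
  rw [MulAction.mem_stabilizer_iff]
  ext b
  rw [Ideal.mem_pointwise_smul_iff_inv_smul_mem, ← map_inv, mem_primeBelow, mem_primeBelow,
    ur_algebraMap_restrict]
  have h1 := ur_valuation_smul_lt A g (algebraMap (𝓞 ↥L) Qb b)
  rw [hg] at h1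
  exact h1.symm

/-- **RES-Cyc**. -/
theorem stmt_RES_Cyc : Stmt_RES_Cyc := by
  intro S K F hK hF q hq A hA
  obtain ⟨L, hKFL, hL, hLn⟩ := Fermat.Agent.S55.H48.exists_normal_level S (K ⊔ F) (hK.sup hF)
  have hFL : F ≤ L := le_trans le_sup_right hKFL
  have hfd : FiniteDimensional ℚ L := hL.1
  have hG : IsGalois ℚ L := (InfiniteGalois.normal_iff_isGalois L).mp hLn
  haveI hnorm : Normal ℚ L := IsGalois.to_normal
  haveI : NumberField ↥L := numberField_K L
  -- the prime of `L` under `A` is unramified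
  have hin : (primeBelow L A).inertia (↥L ≃ₐ[ℚ] ↥L) = ⊥ :=
    inertia_primeBelow_eq_bot L liftStmt (q : ℕ) q.2 A hA (fun σ hσ x hx =>
      (IntermediateField.mem_fixingSubgroup_iff L σ).mp (hL.2 q hq A hA hσ) x hx)
  haveI hPprime : (primeBelow L A).IsPrime := primeBelow_isPrime L A
  have hP0 : primeBelow L A ≠ ⊥ := (vBelow L (q : ℕ) q.2 A hA).ne_bot
  haveI hcyc : IsCyclic (MulAction.stabilizer (↥L ≃ₐ[ℚ] ↥L) (primeBelow L A)) :=
    isCyclic_stabilizer_of_inertia_eq_bot ↥L (primeBelow L A) hP0 hin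
  -- the decomposition group in `G_K`, mapped to the stabiliser
  obtain ⟨D, hD⟩ : ∃ D : Subgroup ↥K.fixingSubgroup, ∀ g, g ∈ D ↔ (g : GQ) • A = A :=
    ⟨(MulAction.stabilizer GQ A).subgroupOf K.fixingSubgroup, fun g => by
      rw [Subgroup.mem_subgroupOf, MulAction.mem_stabilizer_iff]⟩
  obtain ⟨ψ, hψ⟩ : ∃ ψ : ↥D →* MulAction.stabilizer (↥L ≃ₐ[ℚ] ↥L) (primeBelow L A),
      ∀ g : ↥D, ((ψ g : MulAction.stabilizer (↥L ≃ₐ[ℚ] ↥L) (primeBelow L A)) : ↥L ≃ₐ[ℚ] ↥L) =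
        AlgEquiv.restrictNormalHom (F := ℚ) (K₁ := Qb) L ((g : ↥K.fixingSubgroup) : GQ) :=
    ⟨(((AlgEquiv.restrictNormalHom (F := ℚ) (K₁ := Qb) L).comp
        (K.fixingSubgroup.subtype.comp D.subtype)).codRestrict
        (MulAction.stabilizer (↥L ≃ₐ[ℚ] ↥L) (primeBelow L A))
        (fun g => ur_restrict_mem_stabilizer L A _ ((hD g.1).mp g.2))), fun g => rfl⟩
  obtain ⟨⟨h₀, hh₀⟩, hgen⟩ := IsCyclic.exists_generator (α := ψ.range)
  obtain ⟨g₀, rfl⟩ := hh₀
  refine ⟨(g₀ : ↥K.fixingSubgroup), (hD _).mp g₀.2, fun g hg => ?_⟩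
  have hmem := hgen ⟨ψ ⟨g, (hD g).mpr hg⟩, MonoidHom.mem_range.mpr ⟨_, rfl⟩⟩
  haveI : Finite (↥L ≃ₐ[ℚ] ↥L) := inferInstance
  rw [← mem_powers_iff_mem_zpowers] at hmem
  obtain ⟨n, hn⟩ := hmem
  have hn' : ψ (g₀ ^ n) = ψ ⟨g, (hD g).mpr hg⟩ := by
    have := congrArg Subtype.val hn
    simpa using this
  have hn'' : AlgEquiv.restrictNormalHom (F := ℚ) (K₁ := Qb) L
      (((g₀ : ↥K.fixingSubgroup) : GQ) ^ n) =
      AlgEquiv.restrictNormalHom (F := ℚ) (K₁ := Qb) L (g : GQ) := by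
    have h1 := congrArg Subtype.val hn'
    rw [hψ, hψ] at h1
    simpa using h1
  have hker : (AlgEquiv.restrictNormalHom (F := ℚ) (K₁ := Qb) L).ker = L.fixingSubgroup :=
    @IntermediateField.restrictNormalHom_ker ℚ Qb _ _ _ L hnorm
  have hs : (((g₀ : ↥K.fixingSubgroup) : GQ) ^ n)⁻¹ * (g : GQ) ∈ L.fixingSubgroup := by
    rw [← hker, MonoidHom.mem_ker, map_mul, map_inv, hn'', inv_mul_cancel]
  exact ⟨n, ((g₀ : ↥K.fixingSubgroup) ^ n)⁻¹ * g,
    IntermediateField.fixingSubgroup_antitone hFL hs, by group⟩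

end resCyc

end Fermat.Agent.S55.CFT.GS.H6

end
end
-- ==== END Fermat.Agent.S55.CFT.GS.H6_ResCyc
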