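-- GENERATED (merged mirror, NOTES/tools/trim/merge3_helper67.py): 6 modules of the originals, bodies verbatim.
import Mathlib
import Fermat.Agent.Zm.S56_L12_000
import Fermat.Agent.Zm.S56_L12_004
import Fermat.Agent.Zm.S56_L11_006
import Fermat.Agent.Zm.S56_L12_001
import Fermat.Agent.Zm.S56_L10_003
import Fermat.Agent.Zm.S56_L09_002
import Fermat.Agent.Zm.S56_L10_002
import Fermat.Agent.Zm.S56_L11_002
import Fermat.Agent.Zm.S56_L01_004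
import Fermat.Agent.Zm.S56_L10_004
import Fermat.Agent.Zm.S56_L08_003
import Fermat.Agent.Zm.S56_L01_005
import Fermat.Agent.Zm.S56_L12_002

-- ==== BEGIN Fermat.Agent.S55.CFT.GS.H64_ResLocBwd
section

set_option autoImplicit false

open CategoryTheory groupCohomology ExtCitation

open scoped Pointwise

noncomputable section

namespace Fermat.Agent.S55.CFT.GS.H64

open Fermat.Agent.S55 Fermat.Agent.S55.Top Fermat.Agent.S55.CFT Fermat.Agent.S55.CFT.GS.Bri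
  Fermat.Agent.S55.CFT.LOC.H45P

local notation "Qb" => AlgebraicClosure ℚ

attribute [local instance] Fermat.Agent.S55.CFT.fact_primes

section transl

variable {S' : Finset Nat.Primes} {K : IntermediateField ℚ Qb} (𝔓 : PlaceSys S' K) (q : ↥S')
  (w : 𝔓.W q)

/-- `j_w = ι_q ∘ σ_w : ℚ̄ → ℚ̄_q`. -/
def jw :
    Qb →+* PadicAlgCl (q.1 : ℕ) :=
  (padicEmbedding (q.1 : ℕ)).toRingHom.comp ((𝔓.σ q w : Qb ≃ₐ[ℚ] Qb) : Qb →+* Qb)

theorem jw_apply (y : Qb) :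
    jw 𝔓 q w y = padicEmbedding (q.1 : ℕ) (𝔓.σ q w y) := rfl

theorem jw_injective : Function.Injective (jw 𝔓 q w) := (jw 𝔓 q w).injective

/-- Equivariance of `j_w` for `ρ_w`. -/
theorem jw_ρw (h : 𝔓.Γw q w) (y : Qb) :
    jw 𝔓 q w ((𝔓.ρw q w h : GQ) y) = glAut q.1 (h : Gl q.1) (jw 𝔓 q w y) := by
  rw [jw_apply, jw_apply]
  show padicEmbedding (q.1 : ℕ) (𝔓.σ q w (((𝔓.σ q w)⁻¹ * rl q.1 h.1 * 𝔓.σ q w) y)) =
    glAut q.1 (h : Gl q.1) (padicEmbedding (q.1 : ℕ) (𝔓.σ q w y))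
  have h1 : 𝔓.σ q w (((𝔓.σ q w)⁻¹ * rl q.1 h.1 * 𝔓.σ q w) y) = rl q.1 h.1 (𝔓.σ q w y) := by
    simp only [AlgEquiv.mul_apply]
    exact AlgEquiv.apply_symm_apply _ _
  rw [h1]
  exact padicEmbedding_localGaloisToGlobal (q.1 : ℕ) (glAut q.1 (h : Gl q.1)) (𝔓.σ q w y)

theorem jw_mem_Floc (F : IntermediateField ℚ Qb) {y : Qb} (hy : y ∈ F) :
    jw 𝔓 q w y ∈ Floc (q.1 : ℕ) F (𝔓.σ q w) :=
  mem_Floc _ F _ hy

/-- `h ∈ Γ_w` iff `h` fixes `F₀ = ℚ_q(j_w K)`. -/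
theorem mem_Γw_iff_Floc (h : Gl q.1) :
    h ∈ 𝔓.Γw q w ↔ glAut q.1 h ∈ (Floc (q.1 : ℕ) K (𝔓.σ q w)).fixingSubgroup := by
  rw [mem_fixingSubgroup_Floc, mem_Γw_iff]
  exact Iff.rfl

/-- For `h ∈ Γ_w`: `ρ_w h ∈ G_F` iff `h` fixes `ℚ_q(j_w F)`. -/
theorem ρw_mem_iff_Floc (F : IntermediateField ℚ Qb) (h : 𝔓.Γw q w) :
    (𝔓.ρw q w h : GQ) ∈ F.fixingSubgroup ↔
      glAut q.1 (h : Gl q.1) ∈ (Floc (q.1 : ℕ) F (𝔓.σ q w)).fixingSubgroup := by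
  rw [mem_fixingSubgroup_Floc]
  exact Iff.rfl

/-- `Γ_w → Gal(Ω/F₀)`. -/
def toLoc (h : 𝔓.Γw q w) :
    ↥(Floc (q.1 : ℕ) K (𝔓.σ q w)).fixingSubgroup :=
  ⟨glAut q.1 (h : Gl q.1), (mem_Γw_iff_Floc 𝔓 q w h.1).1 h.2⟩

/-- `Gal(Ω/F₀) → Γ_w`. -/
def ofLoc :
    ↥(Floc (q.1 : ℕ) K (𝔓.σ q w)).fixingSubgroup → 𝔓.Γw q w :=
  fun h => ⟨(show Gl q.1 from h.1), (mem_Γw_iff_Floc 𝔓 q w _).2 h.2⟩

theorem toLoc_ofLoc (h) : toLoc 𝔓 q w (ofLoc 𝔓 q w h) = h := rfl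

theorem ofLoc_toLoc (h : 𝔓.Γw q w) : ofLoc 𝔓 q w (toLoc 𝔓 q w h) = h := rfl

theorem ofLoc_mul (h₁ h₂) : ofLoc 𝔓 q w (h₁ * h₂) = ofLoc 𝔓 q w h₁ * ofLoc 𝔓 q w h₂ := rfl

theorem toLoc_mul (h₁ h₂ : 𝔓.Γw q w) :
    toLoc 𝔓 q w (h₁ * h₂) = toLoc 𝔓 q w h₁ * toLoc 𝔓 q w h₂ := rfl

theorem glAut_ofLoc (h) :
    glAut q.1 ((ofLoc 𝔓 q w h : 𝔓.Γw q w) : Gl q.1) =
      (h : PadicAlgCl (q.1 : ℕ) ≃ₐ[ℚ_[(q.1 : ℕ)]] PadicAlgCl (q.1 : ℕ)) := rfl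

/-- The decomposition group of `A = σ_w⁻¹ • primeLocalPlace q` contains `ρ_w Γ_w`. -/
theorem ρw_smul (A : ValuationSubring Qb) (hA : 𝔓.σ q w • A = primeLocalPlace q.1)
    (h : 𝔓.Γw q w) : (𝔓.ρw q w h : GQ) • A = A := by
  show ((𝔓.σ q w)⁻¹ * rl q.1 h.1 * 𝔓.σ q w) • A = A
  rw [mul_smul, mul_smul, hA]
  have h1 : rl q.1 h.1 • primeLocalPlace q.1 = primeLocalPlace q.1 := H6.ur_rl_smul q.1 h.1
  rw [h1, ← hA, inv_smul_smul]

theorem mem_iff_norm_jw (A : ValuationSubring Qb) (hA : 𝔓.σ q w • A = primeLocalPlace q.1)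
    (x : Qb) : x ∈ A ↔ ‖jw 𝔓 q w x‖ ≤ 1 := by
  have h1 : 𝔓.σ q w x ∈ 𝔓.σ q w • A ↔ x ∈ A := by
    rw [H6.ur_mem_smul_iff]
    constructor
    · intro h
      have h2 : (𝔓.σ q w)⁻¹ (𝔓.σ q w x) = x := AlgEquiv.symm_apply_apply _ x
      rwa [h2] at h
    · intro h
      have h2 : (𝔓.σ q w)⁻¹ (𝔓.σ q w x) = x := AlgEquiv.symm_apply_apply _ x
      rwa [h2]
  rw [← h1, hA, jw_apply]
  exact (Fermat.Agent.Lib.LocalGlobalDense.absQ_le_one_iff (q.1 : ℕ) (𝔓.σ q w x)).symm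

/-- `ord_A(x) = k` in terms of the norm of `j_w x`. -/
theorem norm_jw_of_ordIs (A : ValuationSubring Qb) (hA : 𝔓.σ q w • A = primeLocalPlace q.1)
    {x : Qb} (hx : x ≠ 0) {k : ℤ} (h : OrdIs A (q.1 : ℕ) x k) :
    ‖jw 𝔓 q w x‖ = ‖(((q.1 : ℕ) : ℕ) : PadicAlgCl (q.1 : ℕ))‖ ^ k := by
  have hq0 : (((q.1 : ℕ) : ℕ) : Qb) ≠ 0 := by exact_mod_cast q.1.2.ne_zero
  have hz0 : x / (((q.1 : ℕ) : ℕ) : Qb) ^ k ≠ 0 := div_ne_zero hx (zpow_ne_zero _ hq0)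
  have hv : A.valuation (x / (((q.1 : ℕ) : ℕ) : Qb) ^ k) = 1 := by
    rw [map_div₀, map_zpow₀]
    have h' : A.valuation x = A.valuation (((q.1 : ℕ) : ℕ) : Qb) ^ k := h
    rw [h']
    exact div_self (zpow_ne_zero _ ((Valuation.ne_zero_iff _).mpr hq0))
  obtain ⟨h1, h2⟩ := (H6.valuation_eq_one_iff_mem A _ hz0).1 hv
  have h3 := (mem_iff_norm_jw 𝔓 q w A hA _).1 h1
  have h4 := (mem_iff_norm_jw 𝔓 q w A hA _).1 h2
  rw [map_inv₀, norm_inv] at h4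
  have hpos : 0 < ‖jw 𝔓 q w (x / (((q.1 : ℕ) : ℕ) : Qb) ^ k)‖ :=
    norm_pos_iff.mpr ((map_ne_zero _).mpr hz0)
  have h5 : ‖jw 𝔓 q w (x / (((q.1 : ℕ) : ℕ) : Qb) ^ k)‖ = 1 :=
    le_antisymm h3 ((inv_le_one₀ hpos).1 h4)
  rw [map_div₀, map_zpow₀, map_natCast, norm_div, norm_zpow] at h5
  have hq0' := norm_q_pos (q.1 : ℕ)
  rw [div_eq_one_iff_eq (zpow_ne_zero _ hq0'.ne')] at h5
  exact h5

theorem Floc_mono {K N : IntermediateField ℚ Qb} (hKN : K ≤ N) (q : ℕ) [Fact q.Prime] (σ : GQ) :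
    Floc q K σ ≤ Floc q N σ :=
  IntermediateField.adjoin.mono _ _ _ (Set.image_mono hKN)

/-- `E = ℚ_q(j_w N)` is stable under `Gal(Ω/F₀)` if `N` is stable under `G_K`. -/
theorem Floc_stable (N : IntermediateField ℚ Qb)
    (hstab : ∀ g : GQ, g ∈ K.fixingSubgroup → ∀ x : Qb, x ∈ N → g x ∈ N)
    (h : PadicAlgCl (q.1 : ℕ) ≃ₐ[ℚ_[(q.1 : ℕ)]] PadicAlgCl (q.1 : ℕ))
    (hh : h ∈ (Floc (q.1 : ℕ) K (𝔓.σ q w)).fixingSubgroup) (x : PadicAlgCl (q.1 : ℕ))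
    (hx : x ∈ Floc (q.1 : ℕ) N (𝔓.σ q w)) : h x ∈ Floc (q.1 : ℕ) N (𝔓.σ q w) := by
  have hle : Floc (q.1 : ℕ) N (𝔓.σ q w) ≤
      (Floc (q.1 : ℕ) N (𝔓.σ q w)).comap (h : PadicAlgCl (q.1 : ℕ) →ₐ[ℚ_[(q.1 : ℕ)]] _) := by
    refine IntermediateField.adjoin_le_iff.2 ?_
    rintro _ ⟨y, hy, rfl⟩
    show h (padicEmbedding (q.1 : ℕ) (𝔓.σ q w y)) ∈ Floc (q.1 : ℕ) N (𝔓.σ q w)
    have h1 := jw_ρw 𝔓 q w (ofLoc 𝔓 q w ⟨h, hh⟩) y
    rw [glAut_ofLoc] at h1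
    have h2 : h (padicEmbedding (q.1 : ℕ) (𝔓.σ q w y)) =
        jw 𝔓 q w ((𝔓.ρw q w (ofLoc 𝔓 q w ⟨h, hh⟩) : GQ) y) := h1.symm
    rw [h2]
    exact jw_mem_Floc 𝔓 q w N (hstab _ (𝔓.ρw q w (ofLoc 𝔓 q w ⟨h, hh⟩)).2 y hy)
  exact hle hx

/-- `Gal(E/F₀)` is cyclic: the image of `Γ_w` in `Gal(N/K)` lies in the image of the
decomposition group of `A`, which is cyclic (`H6.stmt_RES_Cyc`). -/
theorem exists_cyc (S : Finset Nat.Primes) (N : IntermediateField ℚ Qb) (hKN : K ≤ N)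
    (hNS : N.IsUnramifiedOutside S)
    (hstab : ∀ g : GQ, g ∈ K.fixingSubgroup → ∀ x : Qb, x ∈ N → g x ∈ N)
    (hq : q.1 ∉ S) (A : ValuationSubring Qb) (hA : 𝔓.σ q w • A = primeLocalPlace q.1) :
    ∃ φ : ↥(Floc (q.1 : ℕ) K (𝔓.σ q w)).fixingSubgroup,
      ∀ h : ↥(Floc (q.1 : ℕ) K (𝔓.σ q w)).fixingSubgroup,
        ∃ (n : ℕ) (s : ↥(Floc (q.1 : ℕ) K (𝔓.σ q w)).fixingSubgroup),
          (s : PadicAlgCl (q.1 : ℕ) ≃ₐ[ℚ_[(q.1 : ℕ)]] PadicAlgCl (q.1 : ℕ)) ∈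
            (Floc (q.1 : ℕ) N (𝔓.σ q w)).fixingSubgroup ∧ h = φ ^ n * s := by
  have hKS : K.IsUnramifiedOutside S := hNS.of_le hKN
  have hfdN : FiniteDimensional ℚ N := hNS.1
  have hAl : A.LiesOverPrime (q.1 : ℕ) := by
    have h1 : A = (𝔓.σ q w)⁻¹ • primeLocalPlace q.1 := by rw [← hA, inv_smul_smul]
    rw [h1]
    exact H6.ur_liesOver_smul _ _ _ (H6.urA0_lies q.1)
  obtain ⟨g₀, hg₀A, hg₀⟩ := H6.stmt_RES_Cyc S K N hKS hNS q.1 hq A hAl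
  -- the local lift of `σ g₀ σ⁻¹`
  have hd : (𝔓.σ q w * (g₀ : GQ) * (𝔓.σ q w)⁻¹) • primeLocalPlace q.1 = primeLocalPlace q.1 := by
    rw [mul_smul, mul_smul, ← hA, inv_smul_smul, hg₀A]
  have hd' : (𝔓.σ q w * (g₀ : GQ) * (𝔓.σ q w)⁻¹) ∈
      (padicPlace (q.1 : ℕ)).decompositionSubgroup ℚ := hd
  have : FiniteDimensional ℚ (N.map ((𝔓.σ q w : Qb ≃ₐ[ℚ] Qb) : Qb →ₐ[ℚ] Qb)) :=
    IntermediateField.finiteDimensional_map _
  obtain ⟨τ, hτ⟩ := Fermat.Agent.Lib.LocalGlobalDense.exists_local_lift_field (q.1 : ℕ) _ hd'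
    (N.map ((𝔓.σ q w : Qb ≃ₐ[ℚ] Qb) : Qb →ₐ[ℚ] Qb))
  -- `σ⁻¹ rl(τ) σ = g₀` on `N`
  have hτN : ∀ y : Qb, y ∈ N →
      ((𝔓.σ q w)⁻¹ * rl q.1 (show Gl q.1 from τ) * 𝔓.σ q w) y = (g₀ : GQ) y := by
    intro y hy
    have h1 : 𝔓.σ q w y ∈ N.map ((𝔓.σ q w : Qb ≃ₐ[ℚ] Qb) : Qb →ₐ[ℚ] Qb) :=
      (IntermediateField.mem_map N).mpr ⟨y, hy, rfl⟩
    have h2 := hτ _ h1
    show (𝔓.σ q w)⁻¹ (rl q.1 (show Gl q.1 from τ) (𝔓.σ q w y)) = (g₀ : GQ) y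
    have h3 : rl q.1 (show Gl q.1 from τ) (𝔓.σ q w y) =
        (𝔓.σ q w * (g₀ : GQ) * (𝔓.σ q w)⁻¹) (𝔓.σ q w y) := h2
    rw [h3]
    simp only [AlgEquiv.mul_apply]
    have h4 : (𝔓.σ q w)⁻¹ (𝔓.σ q w y) = y := AlgEquiv.symm_apply_apply _ y
    rw [h4]
    exact AlgEquiv.symm_apply_apply _ _
  have hτΓ : (show Gl q.1 from τ) ∈ 𝔓.Γw q w := by
    rw [mem_Γw_iff, IntermediateField.mem_fixingSubgroup_iff]
    intro x hx
    rw [hτN x (hKN hx)]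
    exact (IntermediateField.mem_fixingSubgroup_iff K _).mp g₀.2 x hx
  set φ' : 𝔓.Γw q w := ⟨(show Gl q.1 from τ), hτΓ⟩ with hφ'
  have hφN : ∀ y : Qb, y ∈ N → (𝔓.ρw q w φ' : GQ) y = (g₀ : GQ) y := hτN
  have hpowN : ∀ (n : ℕ) (y : Qb), y ∈ N →
      ((𝔓.ρw q w φ' : GQ) ^ n) y = ((g₀ : GQ) ^ n) y := by
    intro n
    induction n with
    | zero => intro y _; simp
    | succ n ih =>
      intro y hy
      rw [pow_succ, pow_succ, AlgEquiv.mul_apply, AlgEquiv.mul_apply, hφN y hy]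
      exact ih _ (hstab _ g₀.2 y hy)
  refine ⟨toLoc 𝔓 q w φ', fun h => ?_⟩
  obtain ⟨n, s, hsN, hs⟩ := hg₀ (𝔓.ρw q w (ofLoc 𝔓 q w h)) (ρw_smul 𝔓 q w A hA _)
  refine ⟨n, (toLoc 𝔓 q w φ' ^ n)⁻¹ * h, ?_, by group⟩
  have h1 := (ρw_mem_iff_Floc 𝔓 q w N (ofLoc 𝔓 q w ((toLoc 𝔓 q w φ' ^ n)⁻¹ * h))).1 ?_
  · exact h1
  · have h2 : ofLoc 𝔓 q w ((toLoc 𝔓 q w φ' ^ n)⁻¹ * h) = (φ' ^ n)⁻¹ * ofLoc 𝔓 q w h := rfl
    rw [h2, map_mul, map_inv, map_pow, IntermediateField.mem_fixingSubgroup_iff]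
    intro y hy
    have h3 : ((𝔓.ρw q w (ofLoc 𝔓 q w h) : ↥K.fixingSubgroup) : GQ) y = ((g₀ : GQ) ^ n) y := by
      rw [hs]
      show ((g₀ : GQ) ^ n * (s : GQ)) y = ((g₀ : GQ) ^ n) y
      rw [AlgEquiv.mul_apply, (IntermediateField.mem_fixingSubgroup_iff N _).mp hsN y hy]
    show (((𝔓.ρw q w φ' : GQ) ^ n)⁻¹ * ((𝔓.ρw q w (ofLoc 𝔓 q w h) : ↥K.fixingSubgroup) : GQ)) y = y
    rw [AlgEquiv.mul_apply, h3, ← hpowN n y hy]
    exact AlgEquiv.symm_apply_apply _ y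

end transl

/-- **RESLOC (⟸)** from the local leaves. -/
theorem stmt_ResLoc_bwd_of (hH2 : Stmt_UnrH2) (hVal : Stmt_UnrVal) : Stmt_ResLoc_bwd := by
  intro p _ S K N hKN hNS hstab S' 𝔓 q w hq A hA c b hc hcoc hb hpow hres
  have hKS : K.IsUnramifiedOutside S := hNS.of_le hKN
  have hfdK : FiniteDimensional ℚ K := hKS.1
  have hfdN : FiniteDimensional ℚ N := hNS.1
  have hp : 0 < p := (Fact.out : p.Prime).pos
  -- `ρ_w s ∈ G_N` for `s` fixing `E`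
  have hρN : ∀ s : ↥(Floc (q.1 : ℕ) K (𝔓.σ q w)).fixingSubgroup,
      (s : PadicAlgCl (q.1 : ℕ) ≃ₐ[ℚ_[(q.1 : ℕ)]] PadicAlgCl (q.1 : ℕ)) ∈
        (Floc (q.1 : ℕ) N (𝔓.σ q w)).fixingSubgroup →
      ((𝔓.ρw q w (ofLoc 𝔓 q w s) : ↥K.fixingSubgroup) : GQ) ∈ N.fixingSubgroup :=
    fun s hs => (ρw_mem_iff_Floc 𝔓 q w N (ofLoc 𝔓 q w s)).2 hs
  -- the local cochains
  set cw : ↥(Floc (q.1 : ℕ) K (𝔓.σ q w)).fixingSubgroup ×
      ↥(Floc (q.1 : ℕ) K (𝔓.σ q w)).fixingSubgroup → PadicAlgCl (q.1 : ℕ) :=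
    fun t => jw 𝔓 q w ((c (𝔓.ρw q w (ofLoc 𝔓 q w t.1), 𝔓.ρw q w (ofLoc 𝔓 q w t.2)) : Qbˣ) : Qb)
    with hcw
  set bw : ↥(Floc (q.1 : ℕ) K (𝔓.σ q w)).fixingSubgroup → PadicAlgCl (q.1 : ℕ) :=
    fun h => jw 𝔓 q w ((b (𝔓.ρw q w (ofLoc 𝔓 q w h)) : Qbˣ) : Qb) with hbw
  have hcwE : ∀ t, cw t ∈ Floc (q.1 : ℕ) N (𝔓.σ q w) := fun t =>
    jw_mem_Floc 𝔓 q w N (hc.2 _)
  have hcwlev : ∀ h₁ h₂ s₁ s₂ : ↥(Floc (q.1 : ℕ) K (𝔓.σ q w)).fixingSubgroup,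
      (s₁ : PadicAlgCl (q.1 : ℕ) ≃ₐ[ℚ_[(q.1 : ℕ)]] PadicAlgCl (q.1 : ℕ)) ∈
        (Floc (q.1 : ℕ) N (𝔓.σ q w)).fixingSubgroup →
      (s₂ : PadicAlgCl (q.1 : ℕ) ≃ₐ[ℚ_[(q.1 : ℕ)]] PadicAlgCl (q.1 : ℕ)) ∈
        (Floc (q.1 : ℕ) N (𝔓.σ q w)).fixingSubgroup →
      cw (h₁ * s₁, h₂ * s₂) = cw (h₁, h₂) := by
    intro h₁ h₂ s₁ s₂ hs₁ hs₂
    simp only [hcw, ofLoc_mul, map_mul]
    rw [hc.1 _ _ _ _ (hρN s₁ hs₁) (hρN s₂ hs₂)]
  have hbwlev : ∀ h s : ↥(Floc (q.1 : ℕ) K (𝔓.σ q w)).fixingSubgroup,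
      (s : PadicAlgCl (q.1 : ℕ) ≃ₐ[ℚ_[(q.1 : ℕ)]] PadicAlgCl (q.1 : ℕ)) ∈
        (Floc (q.1 : ℕ) N (𝔓.σ q w)).fixingSubgroup → bw (h * s) = bw h := by
    intro h s hs
    simp only [hbw, ofLoc_mul, map_mul]
    rw [hb.1 _ _ (hρN s hs)]
  -- the cocycle identity
  have hcwcoc : ∀ h₁ h₂ h₃ : ↥(Floc (q.1 : ℕ) K (𝔓.σ q w)).fixingSubgroup,
      (h₁ : PadicAlgCl (q.1 : ℕ) ≃ₐ[ℚ_[(q.1 : ℕ)]] PadicAlgCl (q.1 : ℕ)) (cw (h₂, h₃)) *
        cw (h₁, h₂ * h₃) = cw (h₁ * h₂, h₃) * cw (h₁, h₂) := by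
    intro h₁ h₂ h₃
    have h1 := congrFun hcoc (𝔓.ρw q w (ofLoc 𝔓 q w h₁), 𝔓.ρw q w (ofLoc 𝔓 q w h₂),
      𝔓.ρw q w (ofLoc 𝔓 q w h₃))
    simp only [mTwo, Pi.one_apply] at h1
    rw [div_eq_one, div_mul_eq_mul_div, div_eq_iff_eq_mul] at h1
    have h2 := congrArg (fun u : Qbˣ => jw 𝔓 q w (u : Qb)) h1
    simp only [Units.val_mul, map_mul] at h2
    have h3 : jw 𝔓 q w (((𝔓.ρw q w (ofLoc 𝔓 q w h₁) •
        c (𝔓.ρw q w (ofLoc 𝔓 q w h₂), 𝔓.ρw q w (ofLoc 𝔓 q w h₃)) : Qbˣ)) : Qb) =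
        (h₁ : PadicAlgCl (q.1 : ℕ) ≃ₐ[ℚ_[(q.1 : ℕ)]] PadicAlgCl (q.1 : ℕ)) (cw (h₂, h₃)) :=
      jw_ρw 𝔓 q w (ofLoc 𝔓 q w h₁) _
    rw [h3] at h2
    simp only [hcw, ofLoc_mul, map_mul]
    rw [h2, mul_comm]
  -- `cwᵖ = d bw`
  have hpw : ∀ h₁ h₂ : ↥(Floc (q.1 : ℕ) K (𝔓.σ q w)).fixingSubgroup,
      cw (h₁, h₂) ^ p * bw (h₁ * h₂) =
        (h₁ : PadicAlgCl (q.1 : ℕ) ≃ₐ[ℚ_[(q.1 : ℕ)]] PadicAlgCl (q.1 : ℕ)) (bw h₂) * bw h₁ := by
    intro h₁ h₂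
    have h1 := hpow (𝔓.ρw q w (ofLoc 𝔓 q w h₁), 𝔓.ρw q w (ofLoc 𝔓 q w h₂))
    simp only [mOne] at h1
    rw [div_mul_eq_mul_div, eq_div_iff_mul_eq'] at h1
    have h2 := congrArg (fun u : Qbˣ => jw 𝔓 q w (u : Qb)) h1
    simp only [Units.val_mul, Units.val_pow_eq_pow_val, map_mul, map_pow] at h2
    have h3 : jw 𝔓 q w (((𝔓.ρw q w (ofLoc 𝔓 q w h₁) •
        b (𝔓.ρw q w (ofLoc 𝔓 q w h₂)) : Qbˣ)) : Qb) =
        (h₁ : PadicAlgCl (q.1 : ℕ) ≃ₐ[ℚ_[(q.1 : ℕ)]] PadicAlgCl (q.1 : ℕ)) (bw h₂) :=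
      jw_ρw 𝔓 q w (ofLoc 𝔓 q w h₁) _
    rw [h3] at h2
    simp only [hcw, hbw, ofLoc_mul, map_mul]
    exact h2
  -- the residues
  have hresw : ∀ h : ↥(Floc (q.1 : ℕ) K (𝔓.σ q w)).fixingSubgroup,
      ∃ k : ℤ, ‖bw h‖ = ‖(((q.1 : ℕ) : ℕ) : PadicAlgCl (q.1 : ℕ))‖ ^ ((p : ℤ) * k) := by
    intro h
    obtain ⟨k, hk⟩ := hres (𝔓.ρw q w (ofLoc 𝔓 q w h)) (ρw_smul 𝔓 q w A hA _)
    exact ⟨k, norm_jw_of_ordIs 𝔓 q w A hA (Units.ne_zero _) hk⟩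
  obtain ⟨β, hβ0, hβlev, hβ⟩ := local_core (q.1 : ℕ) hH2 p hp
    (Floc (q.1 : ℕ) K (𝔓.σ q w)) (Floc (q.1 : ℕ) N (𝔓.σ q w))
    (finiteDimensional_Floc _ _ _) (finiteDimensional_Floc _ _ _) (Floc_mono hKN _ _)
    (Floc_stable 𝔓 q w N hstab)
    (hVal S N hNS (q.1 : ℕ) (fun q' hq' => by
      have : q' = q.1 := Subtype.ext hq'
      rw [this]
      exact hq) (𝔓.σ q w))
    (exists_cyc 𝔓 q w S N hKN hNS hstab hq A hA) cw bw hcwE hcwlev hcwcoc hbwlev hpw hresw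
  refine ⟨fun h => β (toLoc 𝔓 q w h), fun h => hβ0 _, ?_, ?_⟩
  · -- level constancy: the level field is `σ_w N`
    refine ⟨IntermediateField.map ((𝔓.σ q w : Qb ≃ₐ[ℚ] Qb) : Qb →ₐ[ℚ] Qb) N,
      IntermediateField.finiteDimensional_map _, ?_⟩
    intro g s hs
    have h1 : (𝔓.ρw q w s : GQ) ∈ N.fixingSubgroup := by
      rw [IntermediateField.mem_fixingSubgroup_iff]
      intro y hy
      show ((𝔓.σ q w)⁻¹ * rl q.1 s.1 * 𝔓.σ q w) y = y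
      have h2 : rl q.1 s.1 (𝔓.σ q w y) = 𝔓.σ q w y :=
        (IntermediateField.mem_fixingSubgroup_iff _ _).1 hs _ ⟨y, hy, rfl⟩
      simp only [AlgEquiv.mul_apply]
      rw [h2]
      exact AlgEquiv.symm_apply_apply _ _
    have h3 := (ρw_mem_iff_Floc 𝔓 q w N s).1 h1
    show β (toLoc 𝔓 q w (g * s)) = β (toLoc 𝔓 q w g)
    rw [toLoc_mul]
    exact hβlev _ _ h3
  · intro h₁ h₂
    have := hβ (toLoc 𝔓 q w h₁) (toLoc 𝔓 q w h₂)
    exact this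

end Fermat.Agent.S55.CFT.GS.H64

end

end
-- ==== END Fermat.Agent.S55.CFT.GS.H64_ResLocBwd

-- ==== BEGIN Fermat.Agent.S56.FL.H38_TameFinal
section

set_option autoImplicit false

/-!
# LOC-p-FL, TAME (helper38 + helper59): `H57.Stmt_Tame`, unconditionally

helper59's `H59.locTame` (the structure of `Gal(L/ℚ_p)`) through the bridge `H38.stmt_Tame_of`.
-/

noncomputable section

namespace Fermat.Agent.S56.FL.H38

open Fermat.Agent.S56.FL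

/-- helper59's `H59.locTame` in the shape `Stmt_LocTame`. -/
theorem stmt_LocTame : Stmt_LocTame := by
  intro p _ L _ hL
  obtain ⟨W, φ, s, hWn, -, hWp, -, hs, hT1, hT2, hT3⟩ := H59.locTame (L := L) hL
  exact ⟨W, φ, s, hWn, hWp, hs, hT3, hT1, hT2 s hs⟩

/-- **TAME**: helper57's `Stmt_Tame` of `Fermat/Agent/S56/FL/H57_CohDefs.lean`. -/
theorem stmt_Tame : H57.Stmt_Tame := stmt_Tame_of stmt_LocTame

end Fermat.Agent.S56.FL.H38

end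

end
-- ==== END Fermat.Agent.S56.FL.H38_TameFinal

-- ==== BEGIN Fermat.Agent.S56.FL.H50_CycloInertia
section

set_option autoImplicit false

/-!
# LOC-p-FL, shared TAME lemma (T4): the cyclotomic character is onto on inertia

`ℚ_p(μ_p)/ℚ_p` is totally ramified of degree `p - 1`:
* `norm_pi_sum`            : `‖Σ_{i ∈ s} c_i (ζ - 1)^i‖^(p-1) = p^(z (p-1) - i)` for some `i ∈ s`
                             (`s ⊆ [0, p-1)`, `c_i ∈ ℚ_p` nonzero);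
* `finrank_cycloField`     : `[ℚ_p(μ_p) : ℚ_p] = p - 1`;
* `mem_bot_of_fixed`       : an element of `ℚ_p(μ_p)` fixed by inertia is in `ℚ_p`;
* `inertia_cyclo_surj`     : every `σ` agrees on `μ_p` with an element of the inertia group;
* `exists_gal_pow`, `exists_inertia_pow` : for `p ∤ g` there is `τ` (in inertia) with `τ ζ = ζ ^ g`
                             on `μ_p`.
-/

noncomputable section

namespace Fermat.Agent.S56.FL.H50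

open scoped NNReal
open Polynomial Module IntermediateField Fermat.Agent.S56.FL

variable {p : ℕ} [Fact p.Prime]

theorem norm_algebraMap_padic (c : ℚ_[p]) : ‖algebraMap ℚ_[p] (PadicAlgCl p) c‖ = ‖c‖ :=
  PadicAlgCl.norm_extends p c

/-- `‖c (ζ - 1)^i‖^(p-1) = p^(-(v c) (p-1) - i)`. -/
theorem norm_term_pow {ζ : PadicAlgCl p} (h1 : ζ ≠ 1) (hζ : ζ ^ p = 1) {c : ℚ_[p]} (hc : c ≠ 0)
    (i : ℕ) :
    ‖algebraMap ℚ_[p] (PadicAlgCl p) c * (ζ - 1) ^ i‖ ^ (p - 1)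
      = (p : ℝ) ^ ((-c.valuation) * ((p - 1 : ℕ) : ℤ) - (i : ℤ)) := by
  have hp : p.Prime := Fact.out
  have hp0 : (p : ℝ) ≠ 0 := by exact_mod_cast hp.ne_zero
  rw [norm_mul, norm_pow, mul_pow, norm_algebraMap_padic, Padic.norm_eq_zpow_neg_valuation hc,
    ← pow_mul, mul_comm i (p - 1), pow_mul, H15.norm_zeta_sub_one h1 hζ, zpow_sub₀ hp0,
    zpow_mul, zpow_natCast, zpow_natCast, inv_pow, div_eq_mul_inv]

theorem norm_pi_sum {ζ : PadicAlgCl p} (h1 : ζ ≠ 1) (hζ : ζ ^ p = 1) (c : ℕ → ℚ_[p])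
    (s : Finset ℕ) (hs : ∀ i ∈ s, i < p - 1) (hc : ∀ i ∈ s, c i ≠ 0) (hne : s.Nonempty) :
    ∃ i ∈ s, ∃ z : ℤ,
      ‖∑ i ∈ s, algebraMap ℚ_[p] (PadicAlgCl p) (c i) * (ζ - 1) ^ i‖ ^ (p - 1)
        = (p : ℝ) ^ (z * ((p - 1 : ℕ) : ℤ) - (i : ℤ)) := by
  have hp : p.Prime := Fact.out
  have hp1 : (1 : ℝ) < p := by exact_mod_cast hp.one_lt
  have hp0 : (0 : ℝ) < p := by exact_mod_cast hp.pos
  have hpw : Set.Pairwise (s : Set ℕ) (fun i j =>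
      ‖algebraMap ℚ_[p] (PadicAlgCl p) (c i) * (ζ - 1) ^ i‖
        ≠ ‖algebraMap ℚ_[p] (PadicAlgCl p) (c j) * (ζ - 1) ^ j‖) := by
    intro i hi j hj hij heq
    have h2 : ‖algebraMap ℚ_[p] (PadicAlgCl p) (c i) * (ζ - 1) ^ i‖ ^ (p - 1)
        = ‖algebraMap ℚ_[p] (PadicAlgCl p) (c j) * (ζ - 1) ^ j‖ ^ (p - 1) := by rw [heq]
    rw [norm_term_pow h1 hζ (hc i hi), norm_term_pow h1 hζ (hc j hj)] at h2
    have h3 := zpow_right_injective₀ hp0 hp1.ne' h2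
    have hi' := hs i hi
    have hj' := hs j hj
    apply hij
    have h4 : (((p - 1 : ℕ) : ℤ)) ∣ (i : ℤ) - (j : ℤ) := by
      refine ⟨(c j).valuation - (c i).valuation, ?_⟩
      linear_combination (-1 : ℤ) * h3
    have h5 : ((i : ℤ) - (j : ℤ)).natAbs < p - 1 := by omega
    have h6 : (i : ℤ) - (j : ℤ) = 0 := by
      by_contra hne0
      have := Int.natAbs_dvd_natAbs.mpr h4
      rw [Int.natAbs_natCast] at this
      have hpos : 0 < ((i : ℤ) - (j : ℤ)).natAbs := Int.natAbs_pos.mpr hne0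
      have := Nat.le_of_dvd hpos this
      omega
    omega
  have hsum := IsUltrametricDist.norm_sum_eq_sup'_of_pairwise_ne hne hpw
  obtain ⟨i, hi, hi'⟩ := Finset.exists_mem_eq_sup' hne
    (fun i => ‖algebraMap ℚ_[p] (PadicAlgCl p) (c i) * (ζ - 1) ^ i‖)
  refine ⟨i, hi, -(c i).valuation, ?_⟩
  rw [hsum, hi', norm_term_pow h1 hζ (hc i hi)]

/-- The norm of a polynomial of degree `< p - 1` in `ζ - 1`. -/
theorem norm_aeval_pi {ζ : PadicAlgCl p} (h1 : ζ ≠ 1) (hζ : ζ ^ p = 1) {f : ℚ_[p][X]}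
    (hf : f ≠ 0) (hdeg : f.natDegree < p - 1) :
    ∃ i ∈ f.support, ∃ z : ℤ,
      ‖aeval (ζ - 1) f‖ ^ (p - 1) = (p : ℝ) ^ (z * ((p - 1 : ℕ) : ℤ) - (i : ℤ)) := by
  have hsum : aeval (ζ - 1) f
      = ∑ i ∈ f.support, algebraMap ℚ_[p] (PadicAlgCl p) (f.coeff i) * (ζ - 1) ^ i := by
    rw [aeval_def, eval₂_eq_sum, Polynomial.sum_def]
  rw [hsum]
  refine norm_pi_sum h1 hζ f.coeff f.support (fun i hi => ?_) (fun i hi => ?_) ?_
  · exact lt_of_le_of_lt (le_natDegree_of_mem_supp i hi) hdeg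
  · exact mem_support_iff.mp hi
  · exact nonempty_support_iff.mpr hf

theorem aeval_pi_ne_zero {ζ : PadicAlgCl p} (h1 : ζ ≠ 1) (hζ : ζ ^ p = 1) {f : ℚ_[p][X]}
    (hf : f ≠ 0) (hdeg : f.natDegree < p - 1) : aeval (ζ - 1) f ≠ 0 := by
  have hp : p.Prime := Fact.out
  have hp0 : (0 : ℝ) < p := by exact_mod_cast hp.pos
  obtain ⟨i, -, z, hz⟩ := norm_aeval_pi h1 hζ hf hdeg
  intro h0
  rw [h0, norm_zero, zero_pow (by have := hp.two_le; omega)] at hz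
  exact (zpow_pos hp0 _).ne hz

theorem isIntegral_algCl (x : PadicAlgCl p) : IsIntegral ℚ_[p] x :=
  (Algebra.IsAlgebraic.isAlgebraic x).isIntegral

/-- `[ℚ_p(ζ - 1) : ℚ_p] ≥ p - 1`. -/
theorem le_natDegree_minpoly_pi {ζ : PadicAlgCl p} (h1 : ζ ≠ 1) (hζ : ζ ^ p = 1) :
    p - 1 ≤ (minpoly ℚ_[p] (ζ - 1)).natDegree := by
  by_contra hlt
  rw [not_le] at hlt
  exact aeval_pi_ne_zero h1 hζ (minpoly.ne_zero (isIntegral_algCl _)) hlt (minpoly.aeval _ _)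

theorem adjoin_pi_eq {ζ : PadicAlgCl p} : ℚ_[p]⟮ζ - 1⟯ = ℚ_[p]⟮ζ⟯ := by
  refine le_antisymm ?_ ?_
  · rw [IntermediateField.adjoin_simple_le_iff]
    exact sub_mem (IntermediateField.mem_adjoin_simple_self _ _) (one_mem _)
  · rw [IntermediateField.adjoin_simple_le_iff]
    have h : (ζ - 1) + 1 ∈ ℚ_[p]⟮ζ - 1⟯ :=
      add_mem (IntermediateField.mem_adjoin_simple_self _ _) (one_mem _)
    simpa using h

theorem natDegree_minpoly_pi {ζ : PadicAlgCl p} (h1 : ζ ≠ 1) (hζ : ζ ^ p = 1) :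
    (minpoly ℚ_[p] (ζ - 1)).natDegree = p - 1 := by
  refine le_antisymm ?_ (le_natDegree_minpoly_pi h1 hζ)
  have h2 := H15.finrank_cycloField_lt (p := p)
  rw [H15.cycloField_eq_adjoin h1 hζ, ← adjoin_pi_eq,
    IntermediateField.adjoin.finrank (isIntegral_algCl _)] at h2
  omega

/-- `[ℚ_p(μ_p) : ℚ_p] = p - 1`. -/
theorem finrank_cycloField : finrank ℚ_[p] (H15.cycloField p) = p - 1 := by
  obtain ⟨ζ, h1, hζ⟩ := H15.exists_zeta (p := p)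
  rw [H15.cycloField_eq_adjoin h1 hζ, ← adjoin_pi_eq,
    IntermediateField.adjoin.finrank (isIntegral_algCl _), natDegree_minpoly_pi h1 hζ]

/-- Every element of `ℚ_p(ζ)` is a polynomial of degree `< p - 1` in `ζ - 1`. -/
theorem exists_aeval_pi {ζ : PadicAlgCl p} (h1 : ζ ≠ 1) (hζ : ζ ^ p = 1) {a : PadicAlgCl p}
    (ha : a ∈ H15.cycloField p) :
    ∃ f : ℚ_[p][X], f.natDegree < p - 1 ∧ aeval (ζ - 1) f = a := by
  have hp : p.Prime := Fact.out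
  rw [H15.cycloField_eq_adjoin h1 hζ, ← adjoin_pi_eq] at ha
  have hint : IsIntegral ℚ_[p] (ζ - 1) := isIntegral_algCl _
  have ha' : a ∈ (ℚ_[p]⟮ζ - 1⟯).toSubalgebra := ha
  rw [IntermediateField.adjoin_simple_toSubalgebra_of_isAlgebraic hint.isAlgebraic,
    Algebra.adjoin_singleton_eq_range_aeval] at ha'
  obtain ⟨f, rfl⟩ := ha'
  refine ⟨f %ₘ minpoly ℚ_[p] (ζ - 1), ?_, ?_⟩
  · have hmon : (minpoly ℚ_[p] (ζ - 1)).Monic := minpoly.monic hint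
    have hne1 : minpoly ℚ_[p] (ζ - 1) ≠ 1 := minpoly.ne_one _ _
    have := natDegree_modByMonic_lt f hmon hne1
    rwa [natDegree_minpoly_pi h1 hζ] at this
  · exact (minpoly.aeval_modByMonic_minpoly (A := ℚ_[p]) f (ζ - 1)).symm ▸ rfl

/-- An element of `ℚ_p(μ_p)` fixed by the inertia group lies in `ℚ_p`. -/
theorem mem_bot_of_fixed {a : PadicAlgCl p} (ha : a ∈ H15.cycloField p)
    (hfix : ∀ σ ∈ inertiaP p, σ a = a) : ∃ c : ℚ_[p], algebraMap ℚ_[p] (PadicAlgCl p) c = a := by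
  have hp : p.Prime := Fact.out
  have hp1 : (1 : ℝ) < p := by exact_mod_cast hp.one_lt
  have hp0 : (0 : ℝ) < p := by exact_mod_cast hp.pos
  obtain ⟨ζ, h1, hζ⟩ := H15.exists_zeta (p := p)
  obtain ⟨f, hdeg, rfl⟩ := exists_aeval_pi h1 hζ ha
  refine ⟨f.coeff 0, ?_⟩
  by_contra hne
  set g : ℚ_[p][X] := f - C (f.coeff 0) with hg
  have hg0 : g.coeff 0 = 0 := by simp [hg]
  have hgne : g ≠ 0 := by
    intro h0
    apply hne
    have : f = C (f.coeff 0) := by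
      rw [← sub_eq_zero]; exact h0
    conv_rhs => rw [this]
    simp
  have hgdeg : g.natDegree < p - 1 :=
    lt_of_le_of_lt ((natDegree_sub_le _ _).trans (by simp)) hdeg
  have hgval : aeval (ζ - 1) g = aeval (ζ - 1) f - algebraMap ℚ_[p] (PadicAlgCl p) (f.coeff 0) := by
    simp [hg]
  have hgfix : ∀ σ ∈ inertiaP p, σ (aeval (ζ - 1) g) = aeval (ζ - 1) g := by
    intro σ hσ
    rw [hgval, map_sub, hfix σ hσ, AlgEquiv.commutes]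
  have hgne0 : aeval (ζ - 1) g ≠ 0 := aeval_pi_ne_zero h1 hζ hgne hgdeg
  obtain ⟨k, hk⟩ := H38.norm_eq_zpow_of_fixed hgfix hgne0
  obtain ⟨i, hi, z, hz⟩ := norm_aeval_pi h1 hζ hgne hgdeg
  have hi0 : i ≠ 0 := by
    rintro rfl
    exact (mem_support_iff.mp hi) hg0
  have hilt : i < p - 1 := lt_of_le_of_lt (le_natDegree_of_mem_supp i hi) hgdeg
  rw [hk, ← zpow_natCast, ← zpow_mul] at hz
  have h3 := zpow_right_injective₀ hp0 hp1.ne' hz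
  have h4 : (((p - 1 : ℕ) : ℤ)) ∣ (i : ℤ) := ⟨z - k, by linear_combination h3⟩
  have h5 := Int.natCast_dvd_natCast.mp h4
  have := Nat.le_of_dvd (Nat.pos_of_ne_zero hi0) h5
  omega

/-- **T4.** Every element of `Gal(K̄/ℚ_p)` agrees on `μ_p` with an element of the inertia group. -/
theorem inertia_cyclo_surj (σ : Gp p) :
    ∃ τ ∈ inertiaP p, ∀ ζ : PadicAlgCl p, ζ ^ p = 1 → τ ζ = σ ζ := by
  have : Normal ℚ_[p] (H15.cycloField p) := H15.normal_cycloField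
  set F := H15.cycloField p with hF
  set J : Subgroup (F ≃ₐ[ℚ_[p]] F) := (inertiaP p).map (H38.resL F) with hJ
  have hfixed : IntermediateField.fixedField J = ⊥ := by
    rw [eq_bot_iff]
    intro a ha
    have hfix : ∀ τ ∈ inertiaP p, τ (a : PadicAlgCl p) = (a : PadicAlgCl p) := by
      intro τ hτ
      have h1 : H38.resL F τ ∈ J := Subgroup.mem_map_of_mem _ hτ
      have h2 : H38.resL F τ a = a := ha ⟨_, h1⟩
      rw [← H38.resL_apply τ a, h2]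
    obtain ⟨c, hc⟩ := mem_bot_of_fixed a.2 hfix
    rw [IntermediateField.mem_bot]
    refine ⟨c, ?_⟩
    apply Subtype.ext
    rw [← hc]
    rfl
  have hJtop : J = ⊤ := by
    rw [← IntermediateField.fixingSubgroup_fixedField J, hfixed,
      IntermediateField.fixingSubgroup_bot]
  have hmem : H38.resL F σ ∈ J := by rw [hJtop]; exact Subgroup.mem_top _
  obtain ⟨τ, hτ, hτσ⟩ := Subgroup.mem_map.mp hmem
  refine ⟨τ, hτ, fun ζ hζ => ?_⟩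
  have hζF : ζ ∈ F := H15.mem_cycloField_of_pow_eq_one hζ
  have h1 := H38.resL_apply (L := F) τ ⟨ζ, hζF⟩
  have h2 := H38.resL_apply (L := F) σ ⟨ζ, hζF⟩
  rw [hτσ] at h1
  exact h1.symm.trans h2

/-- For `p ∤ g` there is `σ ∈ Gal(K̄/ℚ_p)` with `σ ζ = ζ ^ g` on `μ_p`. -/
theorem exists_gal_pow {g : ℕ} (hg : ¬ p ∣ g) :
    ∃ σ : Gp p, ∀ ζ : PadicAlgCl p, ζ ^ p = 1 → σ ζ = ζ ^ g := by
  have hp : p.Prime := Fact.out
  have : NeZero p := ⟨hp.ne_zero⟩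
  obtain ⟨ζ₀, h1, hζ₀⟩ := H15.exists_zeta (p := p)
  have hprim : IsPrimitiveRoot ζ₀ p := by
    rw [IsPrimitiveRoot.iff_orderOf]
    exact orderOf_eq_prime hζ₀ h1
  have hg1 : ζ₀ ^ g ≠ 1 := by
    intro h
    exact hg ((hprim.pow_eq_one_iff_dvd g).mp h)
  have hgp : (ζ₀ ^ g) ^ p = 1 := by rw [← pow_mul, mul_comm, pow_mul, hζ₀, one_pow]
  -- the minimal polynomial of `ζ₀ - 1` has degree `p - 1`, so does the one of `ζ₀`
  have hdeg : ∀ ζ : PadicAlgCl p, ζ ≠ 1 → ζ ^ p = 1 → (minpoly ℚ_[p] ζ).natDegree = p - 1 := by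
    intro ζ hζ1 hζp
    rw [← IntermediateField.adjoin.finrank (isIntegral_algCl ζ), ← adjoin_pi_eq,
      IntermediateField.adjoin.finrank (isIntegral_algCl _), natDegree_minpoly_pi hζ1 hζp]
  have hcyc : ∀ ζ : PadicAlgCl p, ζ ≠ 1 → ζ ^ p = 1 → minpoly ℚ_[p] ζ = cyclotomic p ℚ_[p] := by
    intro ζ hζ1 hζp
    have hprimζ : IsPrimitiveRoot ζ p := by
      rw [IsPrimitiveRoot.iff_orderOf]
      exact orderOf_eq_prime hζp hζ1
    have hroot : aeval ζ (cyclotomic p ℚ_[p]) = 0 := by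
      have := hprimζ.isRoot_cyclotomic hp.pos
      rw [IsRoot.def, ← map_cyclotomic p (algebraMap ℚ_[p] (PadicAlgCl p)), eval_map,
        ← aeval_def] at this
      exact this
    have hdvd := minpoly.dvd ℚ_[p] ζ hroot
    have hmon : (minpoly ℚ_[p] ζ).Monic := minpoly.monic (isIntegral_algCl ζ)
    have hmonc : (cyclotomic p ℚ_[p]).Monic := cyclotomic.monic p ℚ_[p]
    have hd : (cyclotomic p ℚ_[p]).natDegree ≤ (minpoly ℚ_[p] ζ).natDegree := by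
      rw [natDegree_cyclotomic, Nat.totient_prime hp, hdeg ζ hζ1 hζp]
    exact (Polynomial.eq_of_monic_of_dvd_of_natDegree_le hmon hmonc hdvd hd).symm
  have hmin : minpoly ℚ_[p] (ζ₀ ^ g) = minpoly ℚ_[p] ζ₀ := by
    rw [hcyc _ hg1 hgp, hcyc _ h1 hζ₀]
  obtain ⟨σ, hσ⟩ := (Normal.minpoly_eq_iff_mem_orbit (F := ℚ_[p]) (PadicAlgCl p)).mp hmin
  refine ⟨σ, fun ζ hζ => ?_⟩
  obtain ⟨j, -, rfl⟩ := hprim.eq_pow_of_pow_eq_one hζ
  have hσ' : σ ζ₀ = ζ₀ ^ g := hσ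
  rw [map_pow, hσ', ← pow_mul, ← pow_mul, mul_comm]

/-- For `p ∤ g` there is `τ` in the inertia group with `τ ζ = ζ ^ g` on `μ_p`. -/
theorem exists_inertia_pow {g : ℕ} (hg : ¬ p ∣ g) :
    ∃ τ ∈ inertiaP p, ∀ ζ : PadicAlgCl p, ζ ^ p = 1 → τ ζ = ζ ^ g := by
  obtain ⟨σ, hσ⟩ := exists_gal_pow (p := p) hg
  obtain ⟨τ, hτ, hτσ⟩ := inertia_cyclo_surj σ
  exact ⟨τ, hτ, fun ζ hζ => (hτσ ζ hζ).trans (hσ ζ hζ)⟩

end Fermat.Agent.S56.FL.H50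

end

end
-- ==== END Fermat.Agent.S56.FL.H50_CycloInertia

-- ==== BEGIN Fermat.Agent.S56.FL.H57_CohBase
section

/-!
# LOC-p-FL, package COH (helper57): basic facts on local cocycles of `ad⁰ ρbar`

* `cocVal_mul`, `trace_cocVal`, `cocycle_ext` : the cocycle identity for the values `cocVal`.
* `cobd ρbar m hm` : the coboundary of a trace-zero endomorphism; `cocVal_cobd`, `H1π_cobd`.
* `IsBddAd.add`, `IsBddAd.smul`, `IsBddAd.sub_cobd` : bounded cocycles form a subspace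
  (composita of bounded fields are bounded: `H15.isBdd_sup`).
* `IsBddCoc χ c` : bounded `χ`-cocycles on `G_p`; `dimLeOne_apply`, `cc0_apply`, `cc1_apply`,
  `cc3_apply` : the counts of `FL/Coh.lean`, `FL/Count.lean` for functions on `G_p`.
* `unr_hom_dependent` : two unramified homomorphisms `G_p → k` of finite level are dependent.
-/

set_option autoImplicit false
set_option linter.unusedSectionVars false
set_option linter.unusedVariables false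
set_option linter.style.haveILetI false

noncomputable section

namespace Fermat.Agent.S56.FL.H57

open Polynomial IsLocalRing CategoryTheory groupCohomology ExtCitation Module
  Fermat.Agent.S56 Fermat.Agent.S56.FL

variable {p : ℕ} [Fact p.Prime] {k : Type} [Field k] (ρbar : ResidualGaloisRep k)

/-! ## The local representation -/

theorem locRho_mul_inv (σ : Gp p) : locRho ρbar σ * locRho ρbar σ⁻¹ = 1 := by
  rw [← locRho_mul, mul_inv_cancel, locRho_one]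

theorem locRho_inv_mul (σ : Gp p) : locRho ρbar σ⁻¹ * locRho ρbar σ = 1 := by
  rw [← locRho_mul, inv_mul_cancel, locRho_one]

theorem locRho_pow (σ : Gp p) (n : ℕ) : locRho ρbar (σ ^ n) = locRho ρbar σ ^ n := by
  induction n with
  | zero => rw [pow_zero, pow_zero, locRho_one]
  | succ n ih => rw [pow_succ, pow_succ, locRho_mul, ih]

/-! ## Values of cocycles -/

theorem cocVal_mul (c : cocycles₁ (locRep (ad0 ρbar) (pPrime p))) (σ τ : Gp p) :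
    cocVal ρbar c (σ * τ) =
      cocVal ρbar c σ + locRho ρbar σ * cocVal ρbar c τ * locRho ρbar σ⁻¹ := by
  have h := (mem_cocycles₁_iff (c : primeLocalGaloisGroup (pPrime p) → ad0 ρbar)).1 c.2 σ τ
  have h2 := congrArg (ad0Val ρbar) h
  rw [map_add] at h2
  rw [add_comm]
  refine h2.trans ?_
  congr 1
  have h3 : locRho ρbar (σ⁻¹ : Gp p) = ρbar.ρ ((localGaloisToGlobal p σ)⁻¹) := by
    unfold locRho
    rw [map_inv (localGaloisToGlobal p)]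
  rw [h3]
  rfl

theorem trace_cocVal (c : cocycles₁ (locRep (ad0 ρbar) (pPrime p))) (σ : Gp p) :
    LinearMap.trace k ρbar.V (cocVal ρbar c σ) = 0 :=
  LinearMap.mem_ker.1 ((c : primeLocalGaloisGroup (pPrime p) → ad0 ρbar) σ).2

theorem cocVal_add (c₁ c₂ : cocycles₁ (locRep (ad0 ρbar) (pPrime p))) (σ : Gp p) :
    cocVal ρbar (c₁ + c₂) σ = cocVal ρbar c₁ σ + cocVal ρbar c₂ σ := rfl

theorem cocVal_smul (a : k) (c : cocycles₁ (locRep (ad0 ρbar) (pPrime p))) (σ : Gp p) :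
    cocVal ρbar (a • c) σ = a • cocVal ρbar c σ := rfl

theorem cocVal_sub (c₁ c₂ : cocycles₁ (locRep (ad0 ρbar) (pPrime p))) (σ : Gp p) :
    cocVal ρbar (c₁ - c₂) σ = cocVal ρbar c₁ σ - cocVal ρbar c₂ σ := rfl

theorem cocVal_zero (σ : Gp p) :
    cocVal ρbar (0 : cocycles₁ (locRep (ad0 ρbar) (pPrime p))) σ = 0 := rfl

theorem cocycle_ext {c₁ c₂ : cocycles₁ (locRep (ad0 ρbar) (pPrime p))}
    (h : ∀ σ : Gp p, cocVal ρbar c₁ σ = cocVal ρbar c₂ σ) : c₁ = c₂ := by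
  apply Subtype.ext
  funext σ
  exact H47.ad0Val_injective ρbar (h σ)

/-! ## Coboundaries -/

/-- The coboundary of a trace-zero endomorphism, as a local cocycle. -/
def cobd (m : Module.End k ρbar.V) (hm : LinearMap.trace k ρbar.V m = 0) :
    cocycles₁ (locRep (ad0 ρbar) (pPrime p)) :=
  ⟨(d₀₁ (locRep (ad0 ρbar) (pPrime p))).hom (⟨m, hm⟩ : ad0Sub ρbar),
    d₀₁_apply_mem_cocycles₁ _⟩

theorem cocVal_cobd (m : Module.End k ρbar.V) (hm : LinearMap.trace k ρbar.V m = 0) (σ : Gp p) :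
    cocVal ρbar (cobd (p := p) ρbar m hm) σ = locRho ρbar σ * m * locRho ρbar σ⁻¹ - m := by
  have h3 : locRho ρbar (σ⁻¹ : Gp p) = ρbar.ρ ((localGaloisToGlobal p σ)⁻¹) := by
    unfold locRho
    rw [map_inv (localGaloisToGlobal p)]
  rw [h3]
  rfl

theorem H1π_cobd (m : Module.End k ρbar.V) (hm : LinearMap.trace k ρbar.V m = 0) :
    (H1π (locRep (ad0 ρbar) (pPrime p))).hom (cobd (p := p) ρbar m hm) = 0 :=
  (H1π_eq_zero_iff _).2 ⟨(⟨m, hm⟩ : ad0Sub ρbar), rfl⟩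

theorem locRho_inv_eq (σ : Gp p) :
    locRho ρbar σ⁻¹ = ρbar.ρ ((localGaloisToGlobal p σ)⁻¹) := by
  unfold locRho
  rw [map_inv (localGaloisToGlobal p)]

theorem mem_invariants_of_conj (m : Module.End k ρbar.V) (hm : LinearMap.trace k ρbar.V m = 0)
    (h : ∀ σ : Gp p, locRho ρbar σ * m * locRho ρbar σ⁻¹ = m) :
    ((⟨m, hm⟩ : ad0Sub ρbar) : locRep (ad0 ρbar) (pPrime p)) ∈
      (locRep (ad0 ρbar) (pPrime p)).ρ.invariants := by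
  have key : ∀ σ' : Gp p, ρbar.ρ (localGaloisToGlobal p σ') ∘ₗ m ∘ₗ
      ρbar.ρ ((localGaloisToGlobal p σ')⁻¹) = m := by
    intro σ'
    have := h σ'
    rw [locRho_inv_eq] at this
    exact this
  intro σ
  apply H47.ad0Val_injective ρbar
  exact key σ

/-! ## Bounded cocycles -/

variable {ρbar}

theorem IsBddAd.add (hp2 : p ≠ 2) {c₁ c₂ : cocycles₁ (locRep (ad0 ρbar) (pPrime p))}
    (h₁ : IsBddAd ρbar c₁) (h₂ : IsBddAd ρbar c₂) : IsBddAd ρbar (c₁ + c₂) := by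
  obtain ⟨L₁, hfd₁, hN₁, hB₁, hfix₁⟩ := h₁
  obtain ⟨L₂, hfd₂, hN₂, hB₂, hfix₂⟩ := h₂
  haveI := hN₁
  haveI := hN₂
  refine ⟨L₁ ⊔ L₂, inferInstance, inferInstance, H15.isBdd_sup hp2 hN₁ hN₂ hB₁ hB₂, ?_⟩
  intro σ hσ
  have hσ₁ : σ ∈ L₁.fixingSubgroup := IntermediateField.fixingSubgroup_antitone le_sup_left hσ
  have hσ₂ : σ ∈ L₂.fixingSubgroup := IntermediateField.fixingSubgroup_antitone le_sup_right hσ
  refine ⟨(hfix₁ σ hσ₁).1, ?_⟩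
  rw [cocVal_add, (hfix₁ σ hσ₁).2, (hfix₂ σ hσ₂).2, add_zero]

theorem IsBddAd.smul (a : k) {c : cocycles₁ (locRep (ad0 ρbar) (pPrime p))}
    (h : IsBddAd ρbar c) : IsBddAd ρbar (a • c) := by
  obtain ⟨L, hfd, hN, hB, hfix⟩ := h
  refine ⟨L, hfd, hN, hB, fun σ hσ => ⟨(hfix σ hσ).1, ?_⟩⟩
  rw [cocVal_smul, (hfix σ hσ).2, smul_zero]

theorem IsBddAd.sub_cobd {c : cocycles₁ (locRep (ad0 ρbar) (pPrime p))}
    (h : IsBddAd ρbar c) (m : Module.End k ρbar.V) (hm : LinearMap.trace k ρbar.V m = 0) :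
    IsBddAd ρbar (c - cobd ρbar m hm) := by
  obtain ⟨L, hfd, hN, hB, hfix⟩ := h
  refine ⟨L, hfd, hN, hB, fun σ hσ => ⟨(hfix σ hσ).1, ?_⟩⟩
  have h1 : locRho ρbar σ = 1 := (hfix σ hσ).1
  have h2 : locRho ρbar σ⁻¹ = 1 := by
    have := locRho_mul_inv ρbar σ
    rwa [h1, one_mul] at this
  rw [cocVal_sub, (hfix σ hσ).2, cocVal_cobd, h1, h2, one_mul, mul_one, sub_self, sub_zero]

/-! ## Characters and cocycles on the whole group -/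

/-- A bounded `χ`-cocycle on `G_p`. -/
def IsBddCoc (χ : Gp p →* kˣ) (c : Gp p → k) : Prop :=
  (∀ σ τ : Gp p, c (σ * τ) = c σ + (χ σ : k) * c τ) ∧
    ∃ (L : IntermediateField ℚ_[p] (PadicAlgCl p)) (_ : FiniteDimensional ℚ_[p] L),
      Normal ℚ_[p] L ∧ IsBddField p L ∧
        ∀ σ : Gp p, σ ∈ L.fixingSubgroup → χ σ = 1 ∧ c σ = 0

/-- The restriction of a character to the subgroup `⊤`. -/
def topChar (χ : Gp p →* kˣ) : (⊤ : Subgroup (Gp p)) →* kˣ :=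
  χ.comp (⊤ : Subgroup (Gp p)).subtype

theorem IsBddCoc.top {χ : Gp p →* kˣ} {c : Gp p → k} (h : IsBddCoc χ c) :
    IsBddCocycle (⊤ : Subgroup (Gp p)) (topChar χ) (fun σ => c (σ : Gp p)) := by
  obtain ⟨h1, L, hfd, hN, hB, hfix⟩ := h
  exact ⟨fun σ τ => h1 σ τ, L, hfd, hN, hB, fun σ hσ => hfix σ hσ⟩

/-- `DimLeOne` on the whole group, for functions on `G_p`. -/
theorem dimLeOne_apply {χ : Gp p →* kˣ} (h : DimLeOne (⊤ : Subgroup (Gp p)) (topChar χ))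
    {c₁ c₂ : Gp p → k} (h₁ : IsBddCoc χ c₁) (h₂ : IsBddCoc χ c₂) :
    ∃ l₁ l₂ a : k, (l₁ ≠ 0 ∨ l₂ ≠ 0) ∧
      ∀ σ : Gp p, l₁ * c₁ σ + l₂ * c₂ σ = ((χ σ : k) - 1) * a := by
  obtain ⟨l₁, l₂, a, hl, e⟩ := h _ _ h₁.top h₂.top
  exact ⟨l₁, l₂, a, hl, fun σ => e ⟨σ, Subgroup.mem_top σ⟩⟩

/-- `Stmt_CC3` on the whole group, for functions on `G_p`. -/
theorem cc3_apply [Finite k] [CharP k p] (h3 : Stmt_CC3) (hp2 : p ≠ 2) {χ : Gp p →* kˣ}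
    (hne : ∃ σ ∈ inertiaP p, χ σ ≠ 1)
    (hnc : ∃ σ ∈ inertiaP p, ¬ IsCycloAt (χ σ : k) σ)
    {c : Gp p → k} (hc : IsBddCoc χ c) :
    ∃ a : k, ∀ σ : Gp p, c σ = ((χ σ : k) - 1) * a := by
  obtain ⟨σ₁, hσ₁, h1⟩ := hne
  obtain ⟨σ₂, hσ₂, h2⟩ := hnc
  obtain ⟨a, ha⟩ := h3 p hp2 k (topChar χ) ⟨⟨σ₁, Subgroup.mem_top _⟩, hσ₁, h1⟩
    ⟨⟨σ₂, Subgroup.mem_top _⟩, hσ₂, h2⟩ _ hc.top
  exact ⟨a, fun σ => ha ⟨σ, Subgroup.mem_top σ⟩⟩

/-- `Stmt_CC1` on the whole group. -/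
theorem cc1_apply [Finite k] [CharP k p] (h1 : Stmt_CC1) (hp2 : p ≠ 2) {χ : Gp p →* kˣ}
    (hcyc : ∀ σ ∈ inertiaP p, IsCycloAt (χ σ : k) σ) :
    DimLeOne (⊤ : Subgroup (Gp p)) (topChar χ) :=
  h1 p hp2 k (topChar χ) fun σ hσ => hcyc σ hσ

/-- `Stmt_CC0` on the whole group: a bounded homomorphism `G_p → k` vanishes on inertia. -/
theorem cc0_apply [CharP k p] (h0 : Stmt_CC0) (hp2 : p ≠ 2) {c : Gp p → k}
    (hc : IsBddCoc (1 : Gp p →* kˣ) c) (σ : Gp p) (hσ : σ ∈ inertiaP p) : c σ = 0 := by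
  have h := h0 p hp2 k (⊤ : Subgroup (Gp p)) le_top (fun σ => c (σ : Gp p)) hc.top
    ⟨σ, Subgroup.mem_top σ⟩ hσ
  exact h

section unr

/-! ## Unramified homomorphisms -/

theorem add_hom_one {a : Gp p → k} (hadd : ∀ σ τ, a (σ * τ) = a σ + a τ) : a 1 = 0 := by
  have h := hadd 1 1
  rw [mul_one] at h
  have h2 : a 1 + 0 = a 1 + a 1 := by rw [add_zero]; exact h
  exact (add_left_cancel h2).symm

theorem add_hom_pow {a : Gp p → k} (hadd : ∀ σ τ, a (σ * τ) = a σ + a τ) (σ : Gp p) (n : ℕ) :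
    a (σ ^ n) = n * a σ := by
  induction n with
  | zero => rw [pow_zero, add_hom_one hadd, Nat.cast_zero, zero_mul]
  | succ n ih => rw [pow_succ, hadd, ih, Nat.cast_succ]; ring

/-- Two unramified homomorphisms `G_p → k` of finite level are linearly dependent. -/
theorem unr_hom_dependent (hT : Stmt_Tame) (a₁ a₂ : Gp p → k)
    (hadd₁ : ∀ σ τ, a₁ (σ * τ) = a₁ σ + a₁ τ) (hadd₂ : ∀ σ τ, a₂ (σ * τ) = a₂ σ + a₂ τ)
    (hI₁ : ∀ σ ∈ inertiaP p, a₁ σ = 0) (hI₂ : ∀ σ ∈ inertiaP p, a₂ σ = 0)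
    (L₁ L₂ : IntermediateField ℚ_[p] (PadicAlgCl p))
    [FiniteDimensional ℚ_[p] L₁] [FiniteDimensional ℚ_[p] L₂]
    (hN₁ : Normal ℚ_[p] L₁) (hN₂ : Normal ℚ_[p] L₂)
    (hL₁ : ∀ σ ∈ L₁.fixingSubgroup, a₁ σ = 0) (hL₂ : ∀ σ ∈ L₂.fixingSubgroup, a₂ σ = 0) :
    ∃ l₁ l₂ : k, (l₁ ≠ 0 ∨ l₂ ≠ 0) ∧ ∀ σ, l₁ * a₁ σ + l₂ * a₂ σ = 0 := by
  haveI := hN₁
  haveI := hN₂
  obtain ⟨P, φ, s, -, -, -, -, hgen, -, -⟩ := hT p (L₁ ⊔ L₂) inferInstance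
  have key₁ : ∀ σ, ∃ n : ℕ, a₁ σ = n * a₁ φ ∧ a₂ σ = n * a₂ φ := by
    intro σ
    obtain ⟨n, ι, hι, τ, hτ, rfl⟩ := hgen σ
    have hτ₁ : τ ∈ L₁.fixingSubgroup := IntermediateField.fixingSubgroup_antitone le_sup_left hτ
    have hτ₂ : τ ∈ L₂.fixingSubgroup := IntermediateField.fixingSubgroup_antitone le_sup_right hτ
    refine ⟨n, ?_, ?_⟩
    · rw [hadd₁, hadd₁, add_hom_pow hadd₁, hI₁ ι hι, hL₁ τ hτ₁, add_zero, add_zero]
    · rw [hadd₂, hadd₂, add_hom_pow hadd₂, hI₂ ι hι, hL₂ τ hτ₂, add_zero, add_zero]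
  by_cases h : a₁ φ = 0 ∧ a₂ φ = 0
  · refine ⟨1, 0, Or.inl one_ne_zero, fun σ => ?_⟩
    obtain ⟨n, h1, -⟩ := key₁ σ
    rw [h1, h.1]
    ring
  · refine ⟨a₂ φ, -a₁ φ, ?_, fun σ => ?_⟩
    · by_contra hcon
      rw [not_or, not_not, not_not, neg_eq_zero] at hcon
      exact h ⟨hcon.2, hcon.1⟩
    · obtain ⟨n, h1, h2⟩ := key₁ σ
      rw [h1, h2]
      ring

end unr

end Fermat.Agent.S56.FL.H57

end

end
-- ==== END Fermat.Agent.S56.FL.H57_CohBase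

-- ==== BEGIN Fermat.Agent.S56.FL.H85_CC1
section

set_option autoImplicit false
set_option linter.unusedSectionVars false
set_option linter.style.haveILetI false
set_option linter.unusedVariables false

/-!
# LOC-p-FL, package UNITS (helper85): `CC1z`

`χ = ω η`, `η` unramified, `K` the fixed field of `H = ker η` (unramified over `ℚ_p`, of degree
prime to `p`).  For a bounded `χ`-cocycle `c` and `y ∈ k` the map `s ↦ λ₀ (y c(s))` (`s ∈ H`) is an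
`ω`-twisted cocycle with values in `𝔽_p`, its Kummer class is `1 + p u` (`KUMBDD` + norm descent),
and `Ψ_c(y) = u mod 𝔪_K ∈ κ_K` is well defined, additive, Galois-equivariant.  Galois descent
(`exists_ne_zero_of_fixed`) gives `(l₁, l₂) ≠ 0` with `Ψ_{l₁ c₁ + l₂ c₂} = 0`; then
`l₁ c₁ + l₂ c₂` vanishes on `H ∩ ker ω` (Hensel), so it is a coboundary (AVG).
-/

noncomputable section

namespace Fermat.Agent.S56.FL.H85

open scoped NNReal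
open Fermat.Agent.S56.FL Fermat.Agent.Lib.LocalKummer

variable {p : ℕ} [Fact p.Prime]

/-- The index of a kernel divides the order of the target. -/
theorem not_dvd_card_quotient_ker {G A : Type*} [Group G] [Group A] [Finite A] (φ : G →* A)
    (h : ¬ p ∣ Nat.card A) : Finite (G ⧸ φ.ker) ∧ ¬ p ∣ Nat.card (G ⧸ φ.ker) := by
  have e := QuotientGroup.quotientKerEquivRange φ
  haveI : Finite (G ⧸ φ.ker) := Finite.of_equiv _ e.symm.toEquiv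
  refine ⟨inferInstance, fun hdvd => h ?_⟩
  rw [Nat.card_congr e.toEquiv] at hdvd
  exact hdvd.trans (Subgroup.card_subgroup_dvd_card _)

theorem not_dvd_card_units (k : Type*) [Field k] [Finite k] [CharP k p] :
    ¬ p ∣ Nat.card kˣ := by
  have hp : p.Prime := Fact.out
  haveI : Fintype k := Fintype.ofFinite k
  have h1 : p ∣ Nat.card k := by
    rw [← CharP.cast_eq_zero_iff k p, Nat.card_eq_fintype_card]
    exact Nat.cast_card_eq_zero k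
  have h2 : Nat.card kˣ + 1 = Nat.card k := by
    rw [Nat.card_units]
    have : 0 < Nat.card k := Nat.card_pos
    omega
  intro h3
  have h4 : p ∣ 1 := by
    have := (Nat.dvd_add_right h3).mp (h2 ▸ h1)
    exact this
  exact hp.one_lt.ne' (Nat.dvd_one.mp h4)

theorem not_dvd_card_zmod_units : ¬ p ∣ Nat.card (ZMod p)ˣ :=
  not_dvd_card_units (ZMod p)

section main

variable {k : Type} [Field k] [Finite k] [CharP k p]

/-- `CC1z` for cocycles on `Gal(K̄/ℚ_p)`. -/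
theorem dimLeOne_main (hND : Stmt_NormDesc) (hRF : Stmt_ResFix) (hp2 : p ≠ 2)
    (χ : Gp p →* kˣ) (hχ : ∀ σ ∈ inertiaP p, IsCycloAt (χ σ : k) σ)
    (c₁ c₂ : Gp p → k)
    (hc₁ : ∀ σ τ, c₁ (σ * τ) = c₁ σ + (χ σ : k) * c₁ τ)
    (hc₂ : ∀ σ τ, c₂ (σ * τ) = c₂ σ + (χ σ : k) * c₂ τ)
    (L₁ L₂ : IntermediateField ℚ_[p] (PadicAlgCl p))
    [FiniteDimensional ℚ_[p] L₁] [FiniteDimensional ℚ_[p] L₂]
    (hN₁ : Normal ℚ_[p] L₁) (hN₂ : Normal ℚ_[p] L₂)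
    (hB₁ : IsBddField p L₁) (hB₂ : IsBddField p L₂)
    (hζ₁ : ∀ ζ : PadicAlgCl p, ζ ^ p = 1 → ζ ∈ L₁) (hζ₂ : ∀ ζ : PadicAlgCl p, ζ ^ p = 1 → ζ ∈ L₂)
    (hL₁ : ∀ σ ∈ L₁.fixingSubgroup, χ σ = 1 ∧ c₁ σ = 0)
    (hL₂ : ∀ σ ∈ L₂.fixingSubgroup, χ σ = 1 ∧ c₂ σ = 0) :
    ∃ l₁ l₂ a : k, (l₁ ≠ 0 ∨ l₂ ≠ 0) ∧
      ∀ σ, l₁ * c₁ σ + l₂ * c₂ σ = ((χ σ : k) - 1) * a := by
  classical
  have hp : p.Prime := Fact.out
  obtain ⟨ζ, hζ⟩ := exists_primitiveRoot_padicAlgCl p p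
  letI : Algebra (ZMod p) k := ZMod.algebra k p
  -- the characters
  let ωk : Gp p →* kˣ := (Units.map ((cst p k : ZMod p →+* k) : ZMod p →* k)).comp (omg hζ)
  have hωk : ∀ σ, ((ωk σ : kˣ) : k) = cst p k ((omg hζ σ : (ZMod p)ˣ) : ZMod p) := fun σ => rfl
  let η : Gp p →* kˣ := χ / ωk
  have hη : ∀ σ, η σ = χ σ / ωk σ := fun σ => rfl
  set H : Subgroup (Gp p) := η.ker with hHdef
  haveI hHn : H.Normal := MonoidHom.normal_ker η
  have hHχ : ∀ s ∈ H, (χ s : k) = cst p k ((omg hζ s : (ZMod p)ˣ) : ZMod p) := by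
    intro s hs
    have h1 : η s = 1 := MonoidHom.mem_ker.mp hs
    rw [hη, div_eq_one] at h1
    rw [h1, hωk]
  have hI : inertiaP p ≤ H := by
    intro σ hσ
    have h1 := (isCycloAt_iff hζ _ σ).mp (hχ σ hσ)
    rw [hHdef, MonoidHom.mem_ker, hη, div_eq_one]
    exact Units.ext (h1.trans (hωk σ).symm)
  have hfixH : ∀ (L : IntermediateField ℚ_[p] (PadicAlgCl p)),
      (∀ ξ : PadicAlgCl p, ξ ^ p = 1 → ξ ∈ L) → (∀ σ ∈ L.fixingSubgroup, χ σ = 1) →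
      ∀ σ ∈ L.fixingSubgroup, σ ∈ H ∧ omg hζ σ = 1 := by
    intro L hLζ hLχ σ hσ
    have h1 : omg hζ σ = 1 := (omg_eq_one_iff hζ σ).mpr
      ((IntermediateField.mem_fixingSubgroup_iff L σ).mp hσ ζ (hLζ ζ hζ.pow_eq_one))
    refine ⟨?_, h1⟩
    rw [hHdef, MonoidHom.mem_ker, hη, div_eq_one, hLχ σ hσ]
    apply Units.ext
    rw [hωk, h1]
    simp
  have hLH₁ : L₁.fixingSubgroup ≤ H := fun σ hσ =>
    (hfixH L₁ hζ₁ (fun σ hσ => (hL₁ σ hσ).1) σ hσ).1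
  have hLH₂ : L₂.fixingSubgroup ≤ H := fun σ hσ =>
    (hfixH L₂ hζ₂ (fun σ hσ => (hL₂ σ hσ).1) σ hσ).1
  -- the index of `H`
  obtain ⟨hHfin, hHidx⟩ := not_dvd_card_quotient_ker (p := p) η (not_dvd_card_units k)
  haveI := hHfin
  -- a nonzero functional
  obtain ⟨lam, hlam⟩ : ∃ lam : k →ₗ[ZMod p] ZMod p, lam 1 ≠ 0 := by
    by_contra hcon
    push Not at hcon
    exact one_ne_zero ((Module.forall_dual_apply_eq_zero_iff (ZMod p) (1 : k)).mp hcon)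
  have hlam0 : ∀ y : k, (∀ x : k, lam (x * y) = 0) → y = 0 := by
    intro y hy
    by_contra hy0
    apply hlam
    have := hy y⁻¹
    rwa [inv_mul_cancel₀ hy0] at this
  have hlamc : ∀ (a : ZMod p) (y : k), lam (cst p k a * y) = a * lam y := by
    intro a y
    have : cst p k a * y = a • y := (Algebra.smul_def a y).symm
    rw [this, map_smul, smul_eq_mul]
  -- the twisted cocycles
  have key : ∀ (c : Gp p → k), (∀ σ τ, c (σ * τ) = c σ + (χ σ : k) * c τ) →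
      ∀ (L : IntermediateField ℚ_[p] (PadicAlgCl p)) [FiniteDimensional ℚ_[p] L],
      Normal ℚ_[p] L → IsBddField p L → (∀ ξ : PadicAlgCl p, ξ ^ p = 1 → ξ ∈ L) →
      (∀ σ ∈ L.fixingSubgroup, χ σ = 1 ∧ c σ = 0) →
      ∃ Ψ : k → kH H,
        (∀ (y : k) (u : PadicAlgCl p) (hu : KumRel ζ H (fun s => lam (y * c s)) u),
          Ψ y = clH H u hu.mem_OH) ∧
        (∀ y : k, ∃ u : PadicAlgCl p, KumRel ζ H (fun s => lam (y * c s)) u) := by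
    intro c hc L _ hN hB hLζ hL
    have hLH : L.fixingSubgroup ≤ H := fun σ hσ =>
      (hfixH L hLζ (fun σ hσ => (hL σ hσ).1) σ hσ).1
    have hex : ∀ y : k, ∃ u : PadicAlgCl p, KumRel ζ H (fun s => lam (y * c s)) u := by
      intro y
      refine exists_kumRel hND hζ L hN hB (hLζ ζ hζ.pow_eq_one) hLH _ ?_ ?_
      · intro s hs t ht
        show lam (y * c (s * t)) = lam (y * c s) + _ * lam (y * c t)
        rw [hc, hHχ s hs, mul_add, map_add, ← hlamc]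
        congr 2
        ring
      · intro s hs
        show lam (y * c s) = 0
        rw [(hL s hs).2, mul_zero, map_zero]
    choose U hU using hex
    refine ⟨fun y => clH H (U y) (hU y).mem_OH, fun y u hu => ?_, fun y => ⟨U y, hU y⟩⟩
    beta_reduce
    rw [clH_eq_iff]
    exact KumRel.unique hζ.pow_eq_one hI (hU y) hu
  obtain ⟨Ψ₁, hΨ₁, hex₁⟩ := key c₁ hc₁ L₁ hN₁ hB₁ hζ₁ hL₁
  obtain ⟨Ψ₂, hΨ₂, hex₂⟩ := key c₂ hc₂ L₂ hN₂ hB₂ hζ₂ hL₂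
  -- properties of `Ψ`
  have hadd : ∀ (c : Gp p → k) (Ψ : k → kH H),
      (∀ (y : k) (u : PadicAlgCl p) (hu : KumRel ζ H (fun s => lam (y * c s)) u),
          Ψ y = clH H u hu.mem_OH) →
      (∀ y : k, ∃ u : PadicAlgCl p, KumRel ζ H (fun s => lam (y * c s)) u) →
      ∀ y y' : k, Ψ (y + y') = Ψ y + Ψ y' := by
    intro c Ψ hΨ hex y y'
    obtain ⟨u, hu⟩ := hex y
    obtain ⟨u', hu'⟩ := hex y'
    have h1 := (hu.add hζ.pow_eq_one hu').congr (f' := fun s => lam ((y + y') * c s))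
      (fun s _ => by
        show lam (y * c s) + lam (y' * c s) = lam ((y + y') * c s)
        rw [add_mul, map_add])
    rw [hΨ _ _ h1, hΨ _ _ hu, hΨ _ _ hu', ← clH_add, clH_eq_iff]
    have h2 : u + u' + (p : PadicAlgCl p) * u * u' - (u + u') = (p : PadicAlgCl p) * u * u' := by
      ring
    rw [h2, norm_mul, norm_mul, norm_p_Ω]
    calc (p : ℝ)⁻¹ * ‖u‖ * ‖u'‖ ≤ (p : ℝ)⁻¹ * 1 * 1 :=
          mul_le_mul (mul_le_mul_of_nonneg_left hu.norm_le pinv_pos.le) hu'.norm_le (norm_nonneg _)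
            (by have := pinv_pos (p := p); positivity)
      _ < 1 := by rw [mul_one, mul_one]; exact pinv_lt_one
  have hcinv : ∀ (c : Gp p → k), (∀ σ τ, c (σ * τ) = c σ + (χ σ : k) * c τ) →
      ∀ g s : Gp p, c (g⁻¹ * s * g)
        = ((χ g)⁻¹ : kˣ) * (c s + ((χ s : k) - 1) * c g) := by
    intro c hc g s
    have h1 : c 1 = 0 := by
      have := hc 1 1
      rw [mul_one, map_one, Units.val_one, one_mul] at this
      linear_combination -this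
    have h2 : c g⁻¹ = -(((χ g)⁻¹ : kˣ) : k) * c g := by
      have := hc g⁻¹ g
      rw [inv_mul_cancel, h1, map_inv] at this
      linear_combination -this
    rw [mul_assoc, hc, hc, h2, map_inv]
    ring
  have hequiv : ∀ (c : Gp p → k), (∀ σ τ, c (σ * τ) = c σ + (χ σ : k) * c τ) →
      ∀ (Ψ : k → kH H),
      (∀ (y : k) (u : PadicAlgCl p) (hu : KumRel ζ H (fun s => lam (y * c s)) u),
          Ψ y = clH H u hu.mem_OH) →
      (∀ y : k, ∃ u : PadicAlgCl p, KumRel ζ H (fun s => lam (y * c s)) u) →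
      ∀ (g : Gp p) (y : k), Ψ ((((η g)⁻¹ : kˣ) : k) * y) = actk H g (Ψ y) := by
    intro c hc Ψ hΨ hex g y
    obtain ⟨u, hu⟩ := hex y
    set m : ZMod p := lam ((((η g)⁻¹ : kˣ) : k) * y * c g) with hm
    have h1 := ((hu.conj hζ hHn g).add hζ.pow_eq_one (KumRel.cob hζ H (-m))).congr
      (f' := fun s => lam ((((η g)⁻¹ : kˣ) : k) * y * c s))
      (fun s hs => by
        show ((omg hζ g : (ZMod p)ˣ) : ZMod p) * lam (y * c (g⁻¹ * s * g))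
            + (((omg hζ s : (ZMod p)ˣ) : ZMod p) - 1) * (-m)
          = lam ((((η g)⁻¹ : kˣ) : k) * y * c s)
        have e1 : (((η g)⁻¹ : kˣ) : k) = cst p k ((omg hζ g : (ZMod p)ˣ) : ZMod p)
            * (((χ g)⁻¹ : kˣ) : k) := by
          rw [hη, inv_div, Units.val_div_eq_div_val, hωk, div_eq_mul_inv, Units.val_inv_eq_inv_val]
        rw [hcinv c hc, hHχ s hs, ← hlamc, hm, e1]
        have e2 : cst p k ((omg hζ g : (ZMod p)ˣ) : ZMod p)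
              * (y * ((((χ g)⁻¹ : kˣ) : k)
                * (c s + (cst p k ((omg hζ s : (ZMod p)ˣ) : ZMod p) - 1) * c g)))
            = cst p k ((omg hζ g : (ZMod p)ˣ) : ZMod p) * (((χ g)⁻¹ : kˣ) : k) * y * c s
              + cst p k (((omg hζ s : (ZMod p)ˣ) : ZMod p) - 1)
                * (cst p k ((omg hζ g : (ZMod p)ˣ) : ZMod p) * (((χ g)⁻¹ : kˣ) : k) * y * c g) := by
          rw [map_sub, map_one]
          ring
        rw [e2, map_add, hlamc]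
        ring)
    have h2 : g u + 0 + (p : PadicAlgCl p) * g u * 0 = g u := by ring
    have h3 : KumRel ζ H (fun s => lam ((((η g)⁻¹ : kˣ) : k) * y * c s)) (g u) := h2 ▸ h1
    rw [hΨ _ _ h3, hΨ _ _ hu, actk_clH]
  -- the count
  let B : k × k → k → kH H := fun l x => Ψ₁ (l.1 * x) + Ψ₂ (l.2 * x)
  obtain ⟨l, hl0, hl⟩ := exists_ne_zero_of_fixed (p := p) (G := Gp p)
    (fun g => (((η g)⁻¹ : kˣ) : k)) (fun g => Units.ne_zero _) (actk H)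
    (actk_fixed H hRF hHidx) B
    (fun l l' x => by
      show Ψ₁ ((l + l').1 * x) + Ψ₂ ((l + l').2 * x)
        = Ψ₁ (l.1 * x) + Ψ₂ (l.2 * x) + (Ψ₁ (l'.1 * x) + Ψ₂ (l'.2 * x))
      rw [Prod.fst_add, Prod.snd_add, add_mul, add_mul, hadd c₁ Ψ₁ hΨ₁ hex₁,
        hadd c₂ Ψ₂ hΨ₂ hex₂]
      ring)
    (fun l x x' => by
      show Ψ₁ (l.1 * (x + x')) + Ψ₂ (l.2 * (x + x'))
        = Ψ₁ (l.1 * x) + Ψ₂ (l.2 * x) + (Ψ₁ (l.1 * x') + Ψ₂ (l.2 * x'))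
      rw [mul_add, mul_add, hadd c₁ Ψ₁ hΨ₁ hex₁, hadd c₂ Ψ₂ hΨ₂ hex₂]
      ring)
    (fun g l x => by
      show Ψ₁ (l.1 * ((((η g)⁻¹ : kˣ) : k) * x)) + Ψ₂ (l.2 * ((((η g)⁻¹ : kˣ) : k) * x))
        = actk H g (Ψ₁ (l.1 * x) + Ψ₂ (l.2 * x))
      rw [mul_left_comm, mul_left_comm l.2, hequiv c₁ hc₁ Ψ₁ hΨ₁ hex₁,
        hequiv c₂ hc₂ Ψ₂ hΨ₂ hex₂, map_add])
  -- the combination vanishes on `H ∩ ker ω`
  let C : Gp p → k := fun σ => l.1 * c₁ σ + l.2 * c₂ σ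
  have hC : ∀ σ τ, C σ = C σ ∧ C (σ * τ) = C σ + (χ σ : k) * C τ := by
    intro σ τ
    refine ⟨rfl, ?_⟩
    show l.1 * c₁ (σ * τ) + l.2 * c₂ (σ * τ)
      = l.1 * c₁ σ + l.2 * c₂ σ + (χ σ : k) * (l.1 * c₁ τ + l.2 * c₂ τ)
    rw [hc₁, hc₂]
    ring
  have hCN : ∀ s ∈ H, s ζ = ζ → C s = 0 := by
    intro s hs hsζ
    apply hlam0
    intro x
    obtain ⟨u₁, hu₁⟩ := hex₁ (l.1 * x)
    obtain ⟨u₂, hu₂⟩ := hex₂ (l.2 * x)
    have h1 := hl x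
    change Ψ₁ (l.1 * x) + Ψ₂ (l.2 * x) = 0 at h1
    rw [hΨ₁ _ _ hu₁, hΨ₂ _ _ hu₂, ← clH_add, clH_eq_zero_iff] at h1
    have h2 := hu₁.add hζ.pow_eq_one hu₂
    have h3 : ‖u₁ + u₂ + (p : PadicAlgCl p) * u₁ * u₂‖ < 1 := by
      refine (IsUltrametricDist.norm_add_le_max _ _).trans_lt (max_lt h1 ?_)
      rw [norm_mul, norm_mul, norm_p_Ω]
      calc (p : ℝ)⁻¹ * ‖u₁‖ * ‖u₂‖ ≤ (p : ℝ)⁻¹ * 1 * 1 :=
            mul_le_mul (mul_le_mul_of_nonneg_left hu₁.norm_le pinv_pos.le) hu₂.norm_le (norm_nonneg _)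
              (by have := pinv_pos (p := p); positivity)
        _ < 1 := by rw [mul_one, mul_one]; exact pinv_lt_one
    have h4 := h2.ker hp2 hζ hI h3 s hs hsζ
    change lam (l.1 * x * c₁ s) + lam (l.2 * x * c₂ s) = 0 at h4
    rw [← map_add] at h4
    have h5 : x * C s = l.1 * x * c₁ s + l.2 * x * c₂ s := by
      show x * (l.1 * c₁ s + l.2 * c₂ s) = _
      ring
    rw [h5]
    exact h4
  -- AVG
  let φ : Gp p →* kˣ × (ZMod p)ˣ := η.prod (omg hζ)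
  have hcardA : ¬ p ∣ Nat.card (kˣ × (ZMod p)ˣ) := by
    rw [Nat.card_prod]
    intro h
    rcases (Nat.Prime.dvd_mul hp).mp h with h | h
    · exact not_dvd_card_units k h
    · exact not_dvd_card_zmod_units h
  obtain ⟨hNfin, hNidx⟩ := not_dvd_card_quotient_ker (p := p) φ hcardA
  haveI := hNfin
  have hφ : ∀ s ∈ φ.ker, C s = 0 := by
    intro s hs
    have h1 : φ s = 1 := MonoidHom.mem_ker.mp hs
    have h2 : η s = 1 ∧ omg hζ s = 1 := by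
      have := Prod.ext_iff.mp h1
      exact ⟨this.1, this.2⟩
    exact hCN s (MonoidHom.mem_ker.mpr h2.1) ((omg_eq_one_iff hζ s).mp h2.2)
  obtain ⟨a, ha⟩ := coboundary_of_vanish χ C (fun σ τ => (hC σ τ).2) φ.ker hφ
    (by rw [Ne, CharP.cast_eq_zero_iff k p]; exact hNidx)
  refine ⟨l.1, l.2, a, ?_, ha⟩
  by_contra hcon
  push Not at hcon
  exact hl0 (Prod.ext hcon.1 hcon.2)

end main

/-- **CC1z**, from the two leaves. -/
theorem stmt_CC1z_of (hND : Stmt_NormDesc) (hRF : Stmt_ResFix) : Stmt_CC1z := by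
  intro p _ hp2 k _ _ _ χ hχ c₁ c₂ hc₁ hc₂
  obtain ⟨h1, L₁, hfd₁, hN₁, hB₁, hζ₁, hL₁⟩ := hc₁
  obtain ⟨h2, L₂, hfd₂, hN₂, hB₂, hζ₂, hL₂⟩ := hc₂
  haveI := hfd₁
  haveI := hfd₂
  let t : Gp p → (⊤ : Subgroup (Gp p)) := fun σ => ⟨σ, Subgroup.mem_top σ⟩
  let χ' : Gp p →* kˣ :=
    { toFun := fun σ => χ (t σ)
      map_one' := map_one χ
      map_mul' := fun σ τ => map_mul χ (t σ) (t τ) }
  obtain ⟨l₁, l₂, a, hl, ha⟩ := dimLeOne_main hND hRF hp2 χ'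
    (fun σ hσ => hχ (t σ) hσ) (fun σ => c₁ (t σ)) (fun σ => c₂ (t σ))
    (fun σ τ => h1 (t σ) (t τ)) (fun σ τ => h2 (t σ) (t τ)) L₁ L₂ hN₁ hN₂ hB₁ hB₂ hζ₁ hζ₂
    (fun σ hσ => hL₁ (t σ) hσ) (fun σ hσ => hL₂ (t σ) hσ)
  exact ⟨l₁, l₂, a, hl, fun σ => ha σ.1⟩

end Fermat.Agent.S56.FL.H85

end

end
-- ==== END Fermat.Agent.S56.FL.H85_CC1

-- ==== BEGIN Fermat.Agent.S56.GW.H9_PerfKummer
section

/-!
# S56, package GW-PERF: the Kummer character of `q ^ (1/p)` at `q ≡ 1 mod p` (helper9)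

`kummerQ` is an additive character `G_q → ZMod p`, trivial on the elements fixing `π = q^(1/p)`,
and nontrivial on the inertia group at every level.
-/

set_option autoImplicit false
set_option linter.unusedSectionVars false
set_option linter.style.haveILetI false

namespace Fermat.Agent.S56.H9

open NumberField CategoryTheory groupCohomology ExtCitation
open Fermat.Agent.Lib.LocalKummer

local notation "Qbar" => AlgebraicClosure ℚ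

open Fermat.Agent.Lib.Minkowski in
attribute [local instance] qbar_isAlgebraic qbar_isAlgClosure qbar_isGalois qbar_normal

section kummer

variable {q : Nat.Primes} {p : ℕ} [NeZero p] {ζ π : Qbar}

lemma pi_ne_zero (hπ : π ^ p = ((q : ℕ) : Qbar)) : π ≠ 0 := by
  rintro rfl
  rw [zero_pow (NeZero.ne p)] at hπ
  have : ((q : ℕ) : Qbar) ≠ 0 := Nat.cast_ne_zero.2 q.2.ne_zero
  exact this hπ.symm

lemma exists_kummerQ (hζ : IsPrimitiveRoot ζ p) (hπ : π ^ p = ((q : ℕ) : Qbar))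
    (g : primeLocalGaloisGroup q) :
    ∃ a : ZMod p, primeLocalToGlobal q g π = zpowZ ζ a * π := by
  have h0 := pi_ne_zero hπ
  have h1 : (primeLocalToGlobal q g π / π) ^ p = 1 := by
    rw [div_pow, ← map_pow, hπ, map_natCast]
    exact div_self (Nat.cast_ne_zero.2 q.2.ne_zero)
  obtain ⟨a, ha⟩ := exists_zpowZ_eq hζ h1
  refine ⟨a, ?_⟩
  rw [ha]
  field_simp

/-- The Kummer character of `π`, `π ^ p = q`. -/
noncomputable def kummerQ (hζ : IsPrimitiveRoot ζ p) (hπ : π ^ p = ((q : ℕ) : Qbar))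
    (g : primeLocalGaloisGroup q) : ZMod p :=
  (exists_kummerQ hζ hπ g).choose

lemma kummerQ_spec (hζ : IsPrimitiveRoot ζ p) (hπ : π ^ p = ((q : ℕ) : Qbar))
    (g : primeLocalGaloisGroup q) :
    primeLocalToGlobal q g π = zpowZ ζ (kummerQ hζ hπ g) * π :=
  (exists_kummerQ hζ hπ g).choose_spec

lemma kummerQ_eq_zero_iff (hζ : IsPrimitiveRoot ζ p) (hπ : π ^ p = ((q : ℕ) : Qbar))
    (g : primeLocalGaloisGroup q) :
    kummerQ hζ hπ g = 0 ↔ primeLocalToGlobal q g π = π := by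
  have h0 := pi_ne_zero hπ
  constructor
  · intro h
    rw [kummerQ_spec hζ hπ g, h, zpowZ_zero, one_mul]
  · intro h
    have h1 := kummerQ_spec hζ hπ g
    rw [h] at h1
    have h2 : zpowZ ζ (kummerQ hζ hπ g) = 1 := by
      have h3 : zpowZ ζ (kummerQ hζ hπ g) * π = 1 * π := by rw [← h1, one_mul]
      exact mul_right_cancel₀ h0 h3
    exact (zpowZ_eq_one_iff hζ _).1 h2

lemma kummerQ_mul (hp : p.Prime) (hq1 : (q : ℕ) % p = 1) (hζ : IsPrimitiveRoot ζ p)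
    (hπ : π ^ p = ((q : ℕ) : Qbar)) (g h : primeLocalGaloisGroup q) :
    kummerQ hζ hπ (g * h) = kummerQ hζ hπ g + kummerQ hζ hπ h := by
  have h0 := pi_ne_zero hπ
  have hfix : ∀ (s : primeLocalGaloisGroup q) (a : ZMod p),
      primeLocalToGlobal q s (zpowZ ζ a) = zpowZ ζ a := by
    intro s a
    exact rq_fix_root hp hq1 s _ (zpowZ_pow ζ hζ.pow_eq_one a)
  have h1 : primeLocalToGlobal q (g * h) π =
      zpowZ ζ (kummerQ hζ hπ g + kummerQ hζ hπ h) * π := by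
    rw [map_mul, AlgEquiv.mul_apply, kummerQ_spec hζ hπ h, map_mul, hfix, kummerQ_spec hζ hπ g,
      zpowZ_add hζ.pow_eq_one]
    ring
  rw [kummerQ_spec hζ hπ (g * h)] at h1
  exact zpowZ_injective hζ (mul_right_cancel₀ h0 h1)

/-- The Kummer character is ramified at every level. -/
theorem kummerQ_ramified (hp : p.Prime) (hq1 : (q : ℕ) % p = 1) (hζ : IsPrimitiveRoot ζ p)
    (hπ : π ^ p = ((q : ℕ) : Qbar))
    (F : IntermediateField ℚ Qbar) [NumberField F] [Normal ℚ F] (hζF : ζ ∈ F) (hπF : π ∈ F) :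
    ∃ i ∈ inertiaF q F, kummerQ hζ hπ i ≠ 0 := by
  classical
  by_contra hcon
  push Not at hcon
  have h0 := pi_ne_zero hπ
  have hq0 : ((q : ℕ) : Qbar) ≠ 0 := Nat.cast_ne_zero.2 q.2.ne_zero
  let S : Set Qbar := {x | x ^ p = ((q : ℕ) : Qbar)}
  have hSfin : S.Finite := by
    have h1 : S ⊆ ((Polynomial.X ^ p - Polynomial.C ((q : ℕ) : Qbar) :
        Polynomial Qbar).roots.toFinset : Set Qbar) := by
      intro x hx
      have hx' : x ^ p = ((q : ℕ) : Qbar) := hx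
      have hne : (Polynomial.X ^ p - Polynomial.C ((q : ℕ) : Qbar) : Polynomial Qbar) ≠ 0 :=
        Polynomial.X_pow_sub_C_ne_zero hp.pos _
      simp only [Finset.mem_coe, Multiset.mem_toFinset]
      rw [Polynomial.mem_roots hne]
      simp [hx']
    exact (Finset.finite_toSet _).subset h1
  have hstab : ∀ σ : Qbar ≃ₐ[ℚ] Qbar, ∀ x ∈ S, σ x ∈ S := by
    intro σ x hx
    show (σ x) ^ p = ((q : ℕ) : Qbar)
    have hx' : x ^ p = ((q : ℕ) : Qbar) := hx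
    rw [← map_pow, hx', map_natCast]
  have hform : ∀ x ∈ S, ∃ b : ZMod p, x = zpowZ ζ b * π := by
    intro x hx
    have hx' : x ^ p = ((q : ℕ) : Qbar) := hx
    have h1 : (x / π) ^ p = 1 := by
      rw [div_pow, hx', hπ]
      exact div_self hq0
    obtain ⟨b, hb⟩ := exists_zpowZ_eq hζ h1
    refine ⟨b, ?_⟩
    rw [hb]
    field_simp
  have hfix : ∀ σ ∈ (primeLocalPlace q).inertiaSubgroupIn ℚ, ∀ x ∈ S, σ x = x := by
    intro σ hσ x hx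
    obtain ⟨τ, hτI, hτ⟩ := exists_lift_inertia (q := q) F σ hσ
    obtain ⟨b, rfl⟩ := hform x hx
    have hmem : zpowZ ζ b * π ∈ F := F.mul_mem (show ζ ^ b.val ∈ F from pow_mem hζF _) hπF
    rw [← hτ _ hmem, map_mul, rq_fix_root hp hq1 τ _ (zpowZ_pow ζ hζ.pow_eq_one b),
      (kummerQ_eq_zero_iff hζ hπ τ).1 (hcon τ hτI)]
  obtain ⟨j, hj⟩ := Fermat.Agent.Lib.UnramVal.valuation_eq_zpow_of_finite (q : ℕ) q.2
    (primeLocalPlace q) (primeLocalPlace_liesOver q) S hSfin hstab hfix π hπ h0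
  set v := (primeLocalPlace q).valuation ((q : ℕ) : Qbar) with hv
  have hv1 : v < 1 := ((primeLocalPlace q).mem_nonunits_iff).1 (primeLocalPlace_liesOver q)
  have hv0 : 0 < v := by
    rw [hv]
    exact zero_lt_iff.2 ((map_ne_zero _).2 hq0)
  have h1 : v ^ (j * (p : ℤ)) = v ^ (1 : ℤ) := by
    rw [zpow_mul, ← hj, zpow_natCast, ← map_pow, hπ, zpow_one]
  have h2 : j * (p : ℤ) = 1 := (zpow_right_strictAnti₀ hv0 hv1).injective h1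
  have h3 : (p : ℤ) ∣ 1 := ⟨j, by rw [← h2]; ring⟩
  have h4 : p ∣ 1 := by exact_mod_cast h3
  exact hp.one_lt.ne' (Nat.dvd_one.1 h4)

end kummer

end Fermat.Agent.S56.H9

end
-- ==== END Fermat.Agent.S56.GW.H9_PerfKummer
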