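-- GENERATED (merged mirror, NOTES/tools/trim/merge3_helper67.py): 10 modules of the originals, bodies verbatim.
import Fermat.Agent.Zm.S56_L07_000
import Fermat.Agent.Zm.S56_L12_003
import Fermat.Agent.Zm.S56_L12_005
import Fermat.Agent.Zm.S56_L12_002
import Fermat.Agent.Zm.S56_L05_003
import Fermat.Agent.Zm.S56_L01_005
import Fermat.Agent.Zm.S56_L04_004
import Fermat.Agent.Zm.S56_L01_000
import Fermat.Agent.Zm.S48_L01_002
import Fermat.Agent.Zm.S56_L10_002
import Fermat.Agent.Zm.S56_L05_004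
import Fermat.Agent.Zm.S56_L06_002
import Fermat.Agent.Zm.S56_L04_003
import Fermat.Agent.Zm.S56_L11_002
import Fermat.Agent.Zm.S56_L08_002
import Fermat.Agent.Zm.S56_L07_005
import Fermat.Agent.Zm.S56_L10_004
import Fermat.Agent.Zm.S56_L11_003
import Fermat.Agent.Zm.S56_L10_005

-- ==== BEGIN Fermat.Agent.S55.CFT.GS.H6_ResCap
section

set_option autoImplicit false
set_option linter.unusedSectionVars false
set_option linter.style.haveILetI false

open scoped Pointwise NumberField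

noncomputable section

namespace Fermat.Agent.S55.CFT.GS.H6

open Fermat.Agent.S55 Fermat.Agent.S55.Top Fermat.Agent.Lib.FrobExists
  Fermat.Agent.Lib.InertiaBridge Fermat.Agent.Lib.Minkowski Fermat.Agent.Lib.UnramVal
  IsDedekindDomain ExtCitation

local notation "Qb" => AlgebraicClosure ℚ

section resCap

variable {S : Finset Nat.Primes}

theorem inOm_prod_pow {ι : Type} (T : Finset ι) (f : ι → Qbˣ) (e : ι → ℕ)
    (hf : ∀ i, InOm S (f i : Qb)) : InOm S ((∏ i ∈ T, f i ^ e i : Qbˣ) : Qb) := by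
  classical
  induction T using Finset.induction_on with
  | empty =>
    rw [Finset.prod_empty, Units.val_one]
    exact inOm_one
  | insert a s ha ih =>
    rw [Finset.prod_insert ha, Units.val_mul, Units.val_pow_eq_pow_val]
    exact inOm_mul (inOm_pow (hf a) _) ih

theorem ordS_prod_pow {A : ValuationSubring Qb} (hA : OutS S A) {ι : Type} (T : Finset ι)
    (f : ι → Qbˣ) (e : ι → ℕ) (hf : ∀ i, InOm S (f i : Qb)) :
    ordS A ((∏ i ∈ T, f i ^ e i : Qbˣ) : Qb) = ∑ i ∈ T, (e i : ℤ) * ordS A (f i : Qb) := by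
  classical
  induction T using Finset.induction_on with
  | empty =>
    rw [Finset.prod_empty, Finset.sum_empty, Units.val_one]
    exact ordS_one hA
  | insert a s ha ih =>
    rw [Finset.prod_insert ha, Finset.sum_insert ha, Units.val_mul,
      ordS_mul hA (Units.ne_zero _) (by rw [Units.val_pow_eq_pow_val]; exact inOm_pow (hf a) _)
        (Units.ne_zero _) (inOm_prod_pow s f e hf), ih, Units.val_pow_eq_pow_val,
      ordS_pow hA (Units.ne_zero _) (hf a)]

/-- **RES-Cap**. -/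
theorem stmt_RES_Cap : Stmt_RES_Cap := by
  intro p _ S hpS φ F hF hφ hfin
  have hp : p.Prime := Fact.out
  have hpS' : ∀ q : Nat.Primes, q ∉ S → (q : ℕ) ≠ p := by
    intro q hq h
    apply hq
    have h1 : q = pPrime p := Subtype.ext h
    rw [h1]
    exact hpS
  have hfd : FiniteDimensional ℚ F := hF.1
  haveI : NumberField ↥F := numberField_K F
  classical
  -- `φ` depends only on the prime of `F` under the place
  have hφF : ∀ A A' : ValuationSubring Qb, OutS S A → OutS S A' →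
      primeBelow F A = primeBelow F A' → φ A' = φ A := by
    rintro A A' ⟨q, hq, hA⟩ ⟨q', hq', hA'⟩ h
    have hqq : q' = q := by
      have h1 : (((q : ℕ) : 𝓞 ↥F)) ∈ primeBelow F A' := by
        rw [← h]
        exact natCast_mem_primeBelow F A (q : ℕ) hA
      have h2 : A'.valuation ((q : ℕ) : Qb) < 1 := by
        have := (mem_primeBelow F A' ((q : ℕ) : 𝓞 ↥F)).mp h1
        rwa [map_natCast] at this
      exact liesOver_unique A' q' q hA' (A'.mem_nonunits_iff.mpr h2)
    subst hqq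
    obtain ⟨g, hgF, hg⟩ := ur_exists_fixing F A A' (q' : ℕ) q'.2 hA hA' h
    rw [hg]
    exact hφ g hgF A
  -- the finite set of primes of `F`
  obtain ⟨T₀, hT₀⟩ : ∃ T₀ : Finset (HeightOneSpectrum (𝓞 ↥F)),
      ∀ w : HeightOneSpectrum (𝓞 ↥F), w ∈ T₀ ↔ ∃ q : Nat.Primes, q ∈ hfin.toFinset ∧ q ∉ S ∧
        (((q : ℕ) : 𝓞 ↥F)) ∈ w.asIdeal := by
    refine ⟨(hfin.toFinset.filter (· ∉ S)).biUnion (fun q => (ur_finite_over F q).toFinset),
      fun w => ?_⟩
    simp only [Finset.mem_biUnion, Finset.mem_filter, Set.Finite.mem_toFinset]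
    constructor
    · rintro ⟨q, ⟨h1, h2⟩, h3⟩
      exact ⟨q, h1, h2, h3⟩
    · rintro ⟨q, h1, h2, h3⟩
      exact ⟨q, ⟨h1, h2⟩, h3⟩
  -- uniformizers modulo `p`
  have hex : ∀ w : HeightOneSpectrum (𝓞 ↥F), ∃ (t : Qbˣ) (c : ℤ) (e : ℕ), InOm S (t : Qb) ∧
      (w ∈ T₀ → ∀ A' : ValuationSubring Qb, OutS S A' →
        (primeBelow F A' = w.asIdeal → ordS A' (t : Qb) = 1 + p * c ∧ (e : ZMod p) = φ A') ∧
        (primeBelow F A' ≠ w.asIdeal → ordS A' (t : Qb) = 0)) := by
    intro w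
    by_cases hw : w ∈ T₀
    · obtain ⟨q, -, hqS, hqw⟩ := (hT₀ w).mp hw
      obtain ⟨A, hA, hAw⟩ := ur_exists_place F w (q : ℕ) hqw
      have hAout : OutS S A := ⟨q, hqS, hA⟩
      obtain ⟨t, c, ht, h⟩ := exists_cap_ordS hp hpS' hF A hAout
      refine ⟨t, c, (φ A).val, ht, fun _ A' hA' => ⟨fun h1 => ⟨?_, ?_⟩, fun h1 => ?_⟩⟩
      · exact (h A' hA').1 (h1.trans hAw.symm)
      · rw [ZMod.natCast_zmod_val]
        exact (hφF A A' hAout hA' (hAw.trans h1.symm)).symm
      · exact (h A' hA').2 (fun h2 => h1 (h2.trans hAw))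
    · exact ⟨1, 0, 0, by rw [Units.val_one]; exact inOm_one, fun h => absurd h hw⟩
  choose tw cw ew htw hw using hex
  refine ⟨∏ w ∈ T₀, tw w ^ ew w, inOm_prod_pow T₀ tw ew htw, ?_⟩
  intro q hq A hA
  have hAout : OutS S A := ⟨q, hq, hA⟩
  refine ⟨ordS A ((∏ w ∈ T₀, tw w ^ ew w : Qbˣ) : Qb),
    isOrd_ordS q hq hA (Units.ne_zero _) (inOm_prod_pow T₀ tw ew htw), ?_⟩
  rw [ordS_prod_pow hAout T₀ tw ew htw]
  obtain ⟨wA, hwA⟩ : ∃ wA : HeightOneSpectrum (𝓞 ↥F), wA = vBelow F (q : ℕ) q.2 A hA := ⟨_, rfl⟩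
  have hwA' : primeBelow F A = wA.asIdeal := by rw [hwA]; rfl
  have hqwA : (((q : ℕ) : 𝓞 ↥F)) ∈ wA.asIdeal := by
    rw [← hwA']
    exact natCast_mem_primeBelow F A (q : ℕ) hA
  by_cases hmem : wA ∈ T₀
  · rw [Finset.sum_eq_single_of_mem wA hmem]
    · obtain ⟨h1, h2⟩ := ((hw wA hmem) A hAout).1 hwA'
      rw [h1, ← h2]
      push_cast
      rw [ZMod.natCast_self]
      ring
    · intro w hwT hne
      have h3 : primeBelow F A ≠ w.asIdeal := by
        rw [hwA']
        intro h4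
        exact hne (HeightOneSpectrum.ext h4).symm
      rw [((hw w hwT) A hAout).2 h3, mul_zero]
  · have h0 : ∑ w ∈ T₀, (ew w : ℤ) * ordS A (tw w : Qb) = 0 := by
      refine Finset.sum_eq_zero (fun w hwT => ?_)
      have h3 : primeBelow F A ≠ w.asIdeal := by
        rw [hwA']
        intro h4
        exact hmem ((HeightOneSpectrum.ext h4) ▸ hwT)
      rw [((hw w hwT) A hAout).2 h3, mul_zero]
    rw [h0, Int.cast_zero]
    by_contra hne
    apply hmem
    rw [hT₀]
    refine ⟨q, ?_, hq, hqwA⟩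
    rw [Set.Finite.mem_toFinset]
    exact ⟨A, hA, fun h => hne h.symm⟩

end resCap

end Fermat.Agent.S55.CFT.GS.H6

end
end
-- ==== END Fermat.Agent.S55.CFT.GS.H6_ResCap

-- ==== BEGIN Fermat.Agent.S56.GWC.H46_Chi
section

/-!
# Cluster T / S56, package GW-CORE, INV plan: package CHI (helper46)

`stmt_CHI : Stmt_CHI`.  `K = ℚ(ζ_p)`: unramified outside `S ∋ p` (helper48's
`inertia_fix_root`), `G_K = ker χ_p`, so `[G_ℚ : G_K]` divides `p - 1`; `𝔽_p(1)` is a retract of
`Ind_K^ℚ Res 𝔽_p(1)` (helper13's `isRetract_ind`), and `Res 𝔽_p(1)` is trivial of dimension one,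
so `Ind_K^ℚ Res 𝔽_p(1) ≅ 𝔽_p[G_ℚ/G_K]` (helper13's `ind_iso_perm`).
-/

set_option autoImplicit false
set_option linter.style.haveILetI false
set_option linter.unusedSectionVars false
set_option linter.unusedVariables false

noncomputable section

namespace Fermat.Agent.S56.GWC.H46

open CategoryTheory groupCohomology ExtCitation Module

/-- Retracts are stable under isomorphism of the big module. -/
theorem isRetract_of_iso {k : Type} [Field k] {M N N' : Rep.{0} k S55.GQ}
    (h : S55.IsRetract M N) (e : N ≅ N') : S55.IsRetract M N' := by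
  obtain ⟨i, r, hir⟩ := h
  refine ⟨i ≫ e.hom, e.inv ≫ r, fun m => ?_⟩
  have h1 : (i ≫ e.hom ≫ e.inv ≫ r) = i ≫ r := by
    rw [Iso.hom_inv_id_assoc]
  have h2 := congrArg (fun f : M ⟶ M => f.hom m) h1
  exact h2.trans (hir m)

/-- The fixing subgroup of `ℚ(ζ_p)` is the kernel of the mod `p` cyclotomic character. -/
theorem fixingSubgroup_adjoin_eq_ker (p : ℕ) [Fact p.Prime] (ζ : AlgebraicClosure ℚ)
    (hζ : IsPrimitiveRoot ζ p) :
    (IntermediateField.adjoin ℚ ({ζ} : Set (AlgebraicClosure ℚ))).fixingSubgroup =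
      (cycloChar p).ker := by
  have hp : p.Prime := Fact.out
  haveI : NeZero p := ⟨hp.ne_zero⟩
  ext s
  rw [IntermediateField.mem_fixingSubgroup_iff, MonoidHom.mem_ker]
  constructor
  · intro hs
    have hsζ : s ζ = ζ := hs ζ (IntermediateField.mem_adjoin_simple_self ℚ ζ)
    apply S55.H48.cycloChar_eq_one_of_fix
    intro t ht
    obtain ⟨j, -, rfl⟩ := hζ.eq_pow_of_pow_eq_one ht
    rw [map_pow, hsζ]
  · intro hs
    exact S55.H48.fixes_adjoin s ζ (S55.H13.fix_of_cycloChar_eq_one p s hs ζ hζ.pow_eq_one)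

/-- The index of the kernel of the mod `p` cyclotomic character is prime to `p`. -/
theorem not_dvd_index_ker_cycloChar (p : ℕ) [Fact p.Prime] :
    ¬ p ∣ (cycloChar p).ker.index := by
  have hp : p.Prime := Fact.out
  haveI : NeZero p := ⟨hp.ne_zero⟩
  rw [Subgroup.index_ker]
  have h1 : Nat.card (cycloChar p).range ∣ Nat.card (ZMod p)ˣ :=
    Subgroup.card_subgroup_dvd_card _
  have h2 : Nat.card (ZMod p)ˣ = p - 1 := by
    rw [Nat.card_eq_fintype_card, ZMod.card_units_eq_totient, Nat.totient_prime hp]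
  rw [h2] at h1
  intro h3
  have h4 : p ∣ p - 1 := h3.trans h1
  have h5 : p ≤ p - 1 := Nat.le_of_dvd (Nat.sub_pos_of_lt hp.one_lt) h4
  have := hp.pos
  omega

/-- **Package CHI.** -/
theorem stmt_CHI : Stmt_CHI := by
  intro p _ hp2 S hpS
  have hp : p.Prime := Fact.out
  haveI := S55.H48.qbar_isAlgebraic
  obtain ⟨ζ, hζ⟩ := S55.H48.exists_primitiveRoot p
  obtain ⟨K, hKdef⟩ : ∃ K : IntermediateField ℚ (AlgebraicClosure ℚ),
      K = IntermediateField.adjoin ℚ ({ζ} : Set (AlgebraicClosure ℚ)) := ⟨_, rfl⟩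
  have hfix : K.fixingSubgroup = (cycloChar p).ker := by
    rw [hKdef]; exact fixingSubgroup_adjoin_eq_ker p ζ hζ
  have hidx : ¬ p ∣ K.fixingSubgroup.index := by
    rw [hfix]; exact not_dvd_index_ker_cycloChar p
  have hKS : K.IsUnramifiedOutside S := by
    rw [hKdef]
    refine ⟨IntermediateField.adjoin.finiteDimensional
      (Algebra.IsIntegral.isIntegral (R := ℚ) ζ), ?_⟩
    intro q hq A hA g hg
    have hqp : (q : ℕ) ≠ p := by
      intro h
      apply hq
      have : q = pPrime p := Subtype.ext h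
      rw [this]
      exact hpS
    have hfixζ : g ζ = ζ := S55.H48.inertia_fix_root hp q.2 hqp A hA g hg ζ hζ.pow_eq_one
    rw [IntermediateField.mem_fixingSubgroup_iff]
    exact S55.H48.fixes_adjoin g ζ hfixζ
  refine ⟨K, ⟨hKS, ζ, ?_, hζ⟩, hidx, ?_⟩
  · rw [hKdef]; exact IntermediateField.mem_adjoin_simple_self ℚ ζ
  -- the retract
  have hidx0 : K.fixingSubgroup.index ≠ 0 := by
    intro h0
    apply hidx
    rw [h0]
    exact dvd_zero p
  haveI : K.fixingSubgroup.FiniteIndex := ⟨hidx0⟩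
  haveI : Finite (S55.GQ ⧸ K.fixingSubgroup) := Subgroup.finite_quotient_of_finiteIndex
  letI : Fintype (S55.GQ ⧸ K.fixingSubgroup) := Fintype.ofFinite _
  have hn : (Fintype.card (S55.GQ ⧸ K.fixingSubgroup) : ZMod p) ≠ 0 := by
    rw [Ne, ZMod.natCast_eq_zero_iff, ← Nat.card_eq_fintype_card, ← Subgroup.index_eq_card]
    exact hidx
  have hret := S55.H13.isRetract_ind K.fixingSubgroup (S55.kχ (cycloChar p)) hn
  have htriv : ∀ h : K.fixingSubgroup,
      (Rep.res K.fixingSubgroup.subtype (S55.kχ (cycloChar p))).ρ h (1 : ZMod p) =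
        (1 : ZMod p) := by
    intro h
    have h1 : cycloChar p (h : S55.GQ) = 1 := by
      have h0 : (h : S55.GQ) ∈ (cycloChar p).ker := hfix ▸ h.2
      exact MonoidHom.mem_ker.mp h0
    show (S55.kχ (cycloChar p)).ρ (h : S55.GQ) (1 : ZMod p) = (1 : ZMod p)
    show ((cycloChar p (h : S55.GQ) : (ZMod p)ˣ) : ZMod p) • (1 : ZMod p) = 1
    rw [h1, Units.val_one, one_smul]
  obtain ⟨e⟩ := S55.H13.ind_iso_perm K.fixingSubgroup
    (Rep.res K.fixingSubgroup.subtype (S55.kχ (cycloChar p))) (1 : ZMod p) htriv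
    one_ne_zero (fun w => ⟨w, by show (w : ZMod p) • (1 : ZMod p) = w; rw [smul_eq_mul, mul_one]⟩)
  exact isRetract_of_iso hret e

end Fermat.Agent.S56.GWC.H46

end

end
-- ==== END Fermat.Agent.S56.GWC.H46_Chi

-- ==== BEGIN Fermat.Agent.S56.GWC.H46_UR2
section

/-!
# Cluster T / S56, package GW-CORE, INV plan: package UR2 (helper46)

`stmt_UR2 : Stmt_UR2` (`H²(Ẑ, X) = 0` for `X` of characteristic `p`).

`N` a finite normal extension of `ℚ`, unramified at `q`, through which `X` and `z` factor,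
`n = [N : ℚ]`, `m = q ^ (p n) - 1`, `F' = N(μ_m)` (normal, unramified at `q`).  The image of
`G_{ℚ_q}` in `Gal(F'/ℚ)` is cyclic, generated by some `φ` (helper9's `exists_frob_generator` and
`exists_mem_inertiaSubgroupIn_eqOn`), the order `N'` of `φ` is a multiple of `p n` (a Frobenius
element acts on `μ_m` as `ζ ↦ ζ ^ q`, of order `p n`), and `φ ^ n` acts trivially on `N`.  The
algebraic core (`exists_cochain_of_cyclic`) then gives the cochain.
-/

set_option autoImplicit false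
set_option linter.style.haveILetI false
set_option linter.unusedSectionVars false
set_option linter.unusedVariables false

noncomputable section

namespace Fermat.Agent.S56.GWC.H46

open CategoryTheory groupCohomology ExtCitation Module NumberField

local notation "Qbar" => AlgebraicClosure ℚ

/-- The field generated by the `m`-th roots of unity. -/
def rootsField (m : ℕ) : IntermediateField ℚ Qbar :=
  IntermediateField.adjoin ℚ {z | z ^ m = 1}

theorem rootsField_finiteDimensional (m : ℕ) (hm : 0 < m) :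
    FiniteDimensional ℚ (rootsField m) := by
  have hfin : {z : Qbar | z ^ m = 1}.Finite := by
    have := (Polynomial.nthRootsFinset m (1 : Qbar)).finite_toSet
    refine this.subset ?_
    intro z hz
    simp only [Finset.mem_coe, Polynomial.mem_nthRootsFinset hm]
    exact hz
  haveI : Finite {z : Qbar | z ^ m = 1} := hfin.to_subtype
  exact IntermediateField.finiteDimensional_adjoin
    (fun x _ => ((AlgebraicClosure.isAlgebraic ℚ).isAlgebraic x).isIntegral)

theorem mem_rootsField (m : ℕ) (z : Qbar) (hz : z ^ m = 1) : z ∈ rootsField m :=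
  IntermediateField.subset_adjoin ℚ _ hz

theorem rootsField_normal (m : ℕ) : Normal ℚ (rootsField m) := by
  haveI := S55.H48.qbar_isAlgebraic
  haveI := S55.H48.qbar_isGalois
  haveI : Normal ℚ Qbar := IsGalois.to_normal
  refine (IntermediateField.normal_iff_forall_map_le' (F := ℚ) (L := Qbar)
    (K := rootsField m)).mpr ?_
  intro σ
  rw [rootsField, IntermediateField.adjoin_map]
  apply IntermediateField.adjoin.mono
  rintro _ ⟨z, hz, rfl⟩
  show (σ z) ^ m = 1
  rw [← map_pow, show z ^ m = 1 from hz, map_one]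

/-- An automorphism fixing the `m`-th roots of unity fixes `rootsField m`. -/
theorem mem_fixingSubgroup_rootsField (m : ℕ) (g : Qbar ≃ₐ[ℚ] Qbar)
    (h : ∀ z : Qbar, z ^ m = 1 → g z = z) : g ∈ (rootsField m).fixingSubgroup := by
  rw [IntermediateField.mem_fixingSubgroup_iff]
  have hle : rootsField m ≤ IntermediateField.fixedField (Subgroup.zpowers g) := by
    rw [rootsField, IntermediateField.adjoin_le_iff]
    intro z hz
    rintro ⟨h', n, rfl⟩
    show (g ^ n) z = z
    have hmem : g ∈ MulAction.stabilizer (Qbar ≃ₐ[ℚ] Qbar) z := h z hz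
    exact zpow_mem hmem n
  intro x hx
  exact hle hx ⟨g, Subgroup.mem_zpowers g⟩

/-- A finite extension whose fixing subgroup is normal is normal. -/
theorem normal_of_fixingSubgroup_normal (N : IntermediateField ℚ Qbar)
    (h : N.fixingSubgroup.Normal) : Normal ℚ N := by
  haveI := S55.H48.qbar_isAlgebraic
  haveI := S55.H48.qbar_isGalois
  haveI : Normal ℚ Qbar := IsGalois.to_normal
  refine (IntermediateField.normal_iff_forall_map_le' (F := ℚ) (L := Qbar) (K := N)).mpr ?_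
  intro σ
  rintro _ ⟨x, hx, rfl⟩
  show σ x ∈ N
  rw [← InfiniteGalois.fixedField_fixingSubgroup N, IntermediateField.mem_fixedField_iff]
  intro g hg
  have h1 : σ⁻¹ * g * σ ∈ N.fixingSubgroup := by
    have := h.conj_mem g hg σ⁻¹
    rw [inv_inv] at this
    exact this
  have h2 : (σ⁻¹ * g * σ) x = x := (IntermediateField.mem_fixingSubgroup_iff N _).mp h1 x hx
  have h3 : σ ((σ⁻¹ * g * σ) x) = g (σ x) := by
    show σ (σ⁻¹ (g (σ x))) = g (σ x)
    exact AlgEquiv.apply_symm_apply σ _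
  rw [← h3, h2]

/-- Iterating an automorphism which raises the `m`-th roots of unity to the `q`-th power. -/
theorem pow_apply_root (m q : ℕ) (g : Qbar ≃ₐ[ℚ] Qbar)
    (h : ∀ z : Qbar, z ^ m = 1 → g z = z ^ q) (j : ℕ) (z : Qbar) (hz : z ^ m = 1) :
    (g ^ j) z = z ^ (q ^ j) := by
  induction j with
  | zero => simp
  | succ j ih =>
    rw [pow_succ', AlgEquiv.mul_apply, ih, map_pow, h z hz, ← pow_mul, pow_succ']

/-- **Package UR2.** -/
theorem stmt_UR2 : Stmt_UR2 := by
  intro p _ k _ _ S₀ X hLev z hz q hq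
  have hp : p.Prime := Fact.out
  haveI := S55.H48.qbar_isAlgebraic
  haveI := S55.H48.qbar_isGalois
  haveI : Normal ℚ Qbar := IsGalois.to_normal
  haveI : Fact (q : ℕ).Prime := ⟨q.2⟩
  obtain ⟨F₁, hF₁, hX⟩ := hLev
  obtain ⟨hz2, F₂, hF₂, hzc⟩ := hz
  obtain ⟨N, hle, hN, hNn⟩ := S55.H48.exists_normal_level S₀ (F₁ ⊔ F₂) (hF₁.sup hF₂)
  have hle₁ : F₁ ≤ N := le_sup_left.trans hle
  have hle₂ : F₂ ≤ N := le_sup_right.trans hle
  haveI hNfin : FiniteDimensional ℚ N := hN.1
  haveI hNnormal : Normal ℚ N := normal_of_fixingSubgroup_normal N hNn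
  -- the index
  obtain ⟨n, hndef⟩ : ∃ n : ℕ, n = N.fixingSubgroup.index := ⟨_, rfl⟩
  have hn0 : 0 < n := by
    obtain ⟨-, -, hfin⟩ := S55.H13.fixedField_of_le N N.fixingSubgroup le_rfl
    haveI := hfin
    rw [hndef]
    exact Nat.pos_of_ne_zero Subgroup.index_ne_zero_of_finite
  -- the cyclotomic level
  obtain ⟨M, hMdef⟩ : ∃ M : ℕ, M = p * n := ⟨_, rfl⟩
  have hM0 : 0 < M := by rw [hMdef]; exact Nat.mul_pos hp.pos hn0
  have hq2 : 2 ≤ (q : ℕ) := q.2.two_le
  obtain ⟨m, hmdef⟩ : ∃ m : ℕ, m = (q : ℕ) ^ M - 1 := ⟨_, rfl⟩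
  have hqM : 2 ≤ (q : ℕ) ^ M :=
    le_trans hq2 (Nat.le_self_pow (Nat.pos_iff_ne_zero.mp hM0) _)
  have hm0 : 0 < m := by rw [hmdef]; omega
  have hmq : m.Coprime (q : ℕ) := by
    have h1 : m + 1 = (q : ℕ) ^ M := by rw [hmdef]; omega
    have h2 : (q : ℕ) ∣ (q : ℕ) ^ M := dvd_pow_self _ (Nat.pos_iff_ne_zero.mp hM0)
    rw [Nat.coprime_comm, Nat.Prime.coprime_iff_not_dvd q.2]
    intro h3
    have h4 : (q : ℕ) ∣ m + 1 := h1 ▸ h2
    have h5 : (q : ℕ) ∣ 1 := (Nat.dvd_add_right h3).mp h4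
    have := Nat.le_of_dvd Nat.one_pos h5
    omega
  haveI : NeZero m := ⟨Nat.pos_iff_ne_zero.mp hm0⟩
  haveI : NeZero (m : Qbar) := ⟨Nat.cast_ne_zero.mpr (NeZero.ne m)⟩
  obtain ⟨ζ, hζ⟩ := HasEnoughRootsOfUnity.exists_primitiveRoot Qbar m
  -- the level `F'`
  haveI := rootsField_finiteDimensional m hm0
  haveI := rootsField_normal m
  obtain ⟨F', hF'def⟩ : ∃ F' : IntermediateField ℚ Qbar, F' = N ⊔ rootsField m := ⟨_, rfl⟩
  haveI hF'fin : FiniteDimensional ℚ F' := by
    rw [hF'def]; exact IntermediateField.finiteDimensional_sup N (rootsField m)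
  haveI hF'normal : Normal ℚ F' := by
    rw [hF'def]
    exact @IntermediateField.normal_sup ℚ Qbar _ _ _ N (rootsField m) hNnormal
      (rootsField_normal m)
  have hNF' : N ≤ F' := by rw [hF'def]; exact le_sup_left
  have hζF' : ∀ t : Qbar, t ^ m = 1 → t ∈ F' := by
    intro t ht
    rw [hF'def]
    exact (le_sup_right : rootsField m ≤ N ⊔ rootsField m) (mem_rootsField m t ht)
  have hA : (primeLocalPlace q).LiesOverPrime (q : ℕ) := H9.primeLocalPlace_liesOver q
  have hIF' : (primeLocalPlace q).inertiaSubgroupIn ℚ ≤ F'.fixingSubgroup := by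
    intro g hg
    rw [hF'def, IntermediateField.fixingSubgroup_sup]
    refine ⟨hN.2 q hq _ hA hg, mem_fixingSubgroup_rootsField m g ?_⟩
    intro t ht
    exact R.H89.inertia_fixes_rootsOfUnity (q : ℕ) _ hA g hg m hmq t ht
  -- helper9's finite-level setting
  haveI : NumberField F' :=
    { to_charZero := inferInstance, to_finiteDimensional := inferInstance }
  have hA' : ((q : ℕ) : Qbar) ∈ (primeLocalPlace q).nonunits := hA
  have hq0 : (q : ℕ) ≠ 0 := q.2.ne_zero
  haveI : (H9.primeAt (primeLocalPlace q) F').IsMaximal := H9.primeAt_isMaximal _ _ hq0 hA'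
  haveI : Finite (𝓞 F' ⧸ H9.primeAt (primeLocalPlace q) F') :=
    H9.finite_quotient_primeAt _ _ hq0 hA'
  haveI : CharP (𝓞 F' ⧸ H9.primeAt (primeLocalPlace q) F') (q : ℕ) :=
    H9.charP_quotient_primeAt _ _ q.2 hA'
  obtain ⟨rt, hrtdef⟩ : ∃ rt : primeLocalGaloisGroup q →* (F' ≃ₐ[ℚ] F'),
      rt = (AlgEquiv.restrictNormalHom F').comp (primeLocalToGlobal q) := ⟨_, rfl⟩
  have hker : ∀ g : primeLocalGaloisGroup q,
      rt g = 1 ↔ primeLocalToGlobal q g ∈ F'.fixingSubgroup := by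
    intro g
    rw [← H9.mem_levelSubgroup, H9.levelSubgroup_eq_ker, MonoidHom.mem_ker, hrtdef]
  have hD' : ∀ σ ∈ rt.range, ∀ x : 𝓞 F',
      σ • x ∈ H9.primeAt (primeLocalPlace q) F' ↔ x ∈ H9.primeAt (primeLocalPlace q) F' := by
    rintro _ ⟨g, rfl⟩ x
    rw [H9.mem_primeAt, H9.mem_primeAt, hrtdef, MonoidHom.comp_apply,
      H9.intIncl_restrictNormal_smul]
    exact Fermat.Agent.Lib.InertiaBridge.valuation_map_lt_one_iff _ _
      (H9.primeLocalToGlobal_mem_decomposition q g) _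
  obtain ⟨φ', hφ', a, -, hgen'⟩ :=
    H9.exists_frob_generator (H9.primeAt (primeLocalPlace q) F') (q : ℕ) rt.range hD'
  obtain ⟨φ, rfl⟩ := hφ'
  -- the finite-level inertia group is trivial on the image of the local group
  have hinert : ∀ g : primeLocalGaloisGroup q,
      rt g ∈ (H9.primeAt (primeLocalPlace q) F').inertia (F' ≃ₐ[ℚ] F') →
        primeLocalToGlobal q g ∈ F'.fixingSubgroup := by
    intro g hg
    have h : ∀ x : Qbar, x ∈ F' → IsIntegral ℤ x →
        (primeLocalToGlobal q g) x - x ∈ (primeLocalPlace q).nonunits := by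
      intro x hx hxi
      have hxi' : IsIntegral ℤ (⟨x, hx⟩ : F') := by
        refine (isIntegral_algebraMap_iff (B := Qbar) ?_).1 hxi
        exact (algebraMap F' Qbar).injective
      obtain ⟨y, hy⟩ : ∃ y : 𝓞 F', H9.intIncl F' y = x := ⟨⟨⟨x, hx⟩, hxi'⟩, rfl⟩
      have h1 : rt g • y - y ∈ H9.primeAt (primeLocalPlace q) F' := hg y
      rw [H9.mem_primeAt, map_sub, hrtdef, MonoidHom.comp_apply,
        H9.intIncl_restrictNormal_smul, hy] at h1
      exact (ValuationSubring.mem_nonunits_iff _).2 h1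
    obtain ⟨σ, hσ, hσF⟩ := Fermat.Agent.Lib.InertiaLift.exists_mem_inertiaSubgroupIn_eqOn
      (q : ℕ) q.2 (primeLocalPlace q) hA F' (primeLocalToGlobal q g) h
    have hσ' : σ ∈ F'.fixingSubgroup := hIF' hσ
    rw [IntermediateField.mem_fixingSubgroup_iff] at hσ' ⊢
    intro x hx
    rw [← hσF x hx]
    exact hσ' x hx
  -- the two open subgroups
  obtain ⟨U, hUdef⟩ : ∃ U : Subgroup (primeLocalGaloisGroup q),
      U = N.fixingSubgroup.comap (primeLocalToGlobal q) := ⟨_, rfl⟩
  obtain ⟨U', hU'def⟩ : ∃ U' : Subgroup (primeLocalGaloisGroup q),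
      U' = F'.fixingSubgroup.comap (primeLocalToGlobal q) := ⟨_, rfl⟩
  have hmemU : ∀ g, g ∈ U ↔ primeLocalToGlobal q g ∈ N.fixingSubgroup := by
    intro g; rw [hUdef]; rfl
  have hmemU' : ∀ g, g ∈ U' ↔ primeLocalToGlobal q g ∈ F'.fixingSubgroup := by
    intro g; rw [hU'def]; rfl
  haveI hU'n : U'.Normal := by
    have h1 : U' = rt.ker := by
      ext g
      rw [hmemU', MonoidHom.mem_ker, hker]
    rw [h1]
    infer_instance
  have hUU : U' ≤ U := by
    intro g hg
    rw [hmemU'] at hg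
    rw [hmemU]
    exact IntermediateField.fixingSubgroup_antitone hNF' hg
  -- generation
  have hgen : ∀ h : primeLocalGaloisGroup q, ∃ j : ℕ, (φ ^ j)⁻¹ * h ∈ U' := by
    intro h
    obtain ⟨j, hj⟩ := hgen' (rt h) ⟨h, rfl⟩
    refine ⟨j, ?_⟩
    rw [hmemU']
    apply hinert
    rw [map_mul, map_inv, map_pow]
    exact hj
  -- the order
  obtain ⟨N', hN'def⟩ : ∃ N' : ℕ, N' = orderOf (rt φ) := ⟨_, rfl⟩
  have hN' : ∀ j : ℕ, φ ^ j ∈ U' → N' ∣ j := by
    intro j hj
    rw [hmemU', ← hker, map_pow] at hj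
    rw [hN'def]
    exact orderOf_dvd_of_pow_eq_one hj
  have hφn : φ ^ n ∈ U := by
    rw [hmemU, map_pow, hndef]
    exact Subgroup.pow_index_mem N.fixingSubgroup _
  -- `p n` divides the order: use a Frobenius element
  have hdiv : p * n ∣ N' := by
    obtain ⟨σ, hσ⟩ := Fermat.Agent.Lib.FrobExists.exists_isFrobeniusAt (q : ℕ) q.2
      (primeLocalPlace q) hA
    obtain ⟨τ, hτ'⟩ : ∃ τ : primeLocalGaloisGroup q,
        ∀ x ∈ F', primeLocalToGlobal q τ x = σ x :=
      Fermat.Agent.Lib.LocalGlobalDense.exists_local_lift_field (q : ℕ) σ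
        hσ.mem_decompositionSubgroup F'
    have hfrob : ∀ t : Qbar, t ^ m = 1 → primeLocalToGlobal q τ t = t ^ (q : ℕ) := by
      intro t ht
      rw [hτ' t (hζF' t ht)]
      exact R.H89.stmt_FrobCyc (q : ℕ) q.2 _ hA σ hσ m hmq t ht
    obtain ⟨j, hj⟩ := hgen τ
    have h1 : rt τ = rt φ ^ j := by
      rw [hmemU', ← hker, map_mul, map_inv, map_pow] at hj
      exact (inv_mul_eq_one.mp hj).symm
    have h2 : rt (τ ^ N') = 1 := by
      rw [map_pow, h1, ← pow_mul, mul_comm, pow_mul, hN'def, pow_orderOf_eq_one, one_pow]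
    have h3 : primeLocalToGlobal q (τ ^ N') ∈ F'.fixingSubgroup := (hker _).mp h2
    have h4 : (primeLocalToGlobal q τ ^ N') ζ = ζ := by
      rw [← map_pow]
      exact (IntermediateField.mem_fixingSubgroup_iff F' _).mp h3 ζ (hζF' ζ hζ.pow_eq_one)
    rw [pow_apply_root m (q : ℕ) _ hfrob N' ζ hζ.pow_eq_one] at h4
    have hpos : 1 ≤ (q : ℕ) ^ N' := Nat.one_le_pow _ _ q.2.pos
    have h5 : ζ ^ ((q : ℕ) ^ N' - 1) = 1 := by
      have hζ0 : ζ ≠ 0 := hζ.ne_zero (NeZero.ne m)
      have h6 : ζ ^ ((q : ℕ) ^ N' - 1) * ζ = 1 * ζ := by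
        rw [← pow_succ, Nat.sub_add_cancel hpos, h4, one_mul]
      exact mul_right_cancel₀ hζ0 h6
    have h7 : m ∣ (q : ℕ) ^ N' - 1 := hζ.dvd_of_pow_eq_one _ h5
    rw [hmdef] at h7
    have h8 := dvd_of_pow_sub_one_dvd (q : ℕ) M N' hq2 hM0 h7
    rw [hMdef] at h8
    exact h8
  -- the algebraic core
  have hpX : ∀ x : X, p • x = 0 := by
    intro x
    rw [← Nat.cast_smul_eq_nsmul k p x, CharP.cast_eq_zero k p, zero_smul]
  obtain ⟨ρ', hρ'def⟩ : ∃ ρ' : Representation k (primeLocalGaloisGroup q) X,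
      ρ' = X.ρ.comp (primeLocalToGlobal q) := ⟨_, rfl⟩
  have hρ'apply : ∀ (g : primeLocalGaloisGroup q) (x : X),
      ρ' g x = X.ρ (primeLocalToGlobal q g) x := by
    intro g x; rw [hρ'def]; rfl
  have hcoc : ∀ a b c : primeLocalGaloisGroup q,
      ρ' a (S55.resTwo q z (b, c)) - S55.resTwo q z (a * b, c) + S55.resTwo q z (a, b * c)
        - S55.resTwo q z (a, b) = 0 := by
    intro a b c
    have h1 := congrFun hz2 (primeLocalToGlobal q a, primeLocalToGlobal q b,
      primeLocalToGlobal q c)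
    rw [hρ'apply]
    show X.ρ (primeLocalToGlobal q a) (z (primeLocalToGlobal q b, primeLocalToGlobal q c))
      - z (primeLocalToGlobal q (a * b), primeLocalToGlobal q c)
      + z (primeLocalToGlobal q a, primeLocalToGlobal q (b * c))
      - z (primeLocalToGlobal q a, primeLocalToGlobal q b) = 0
    rw [map_mul, map_mul]
    exact h1
  have hρ : ∀ s ∈ U, ρ' s = 1 := by
    intro s hs
    rw [hmemU] at hs
    apply LinearMap.ext
    intro x
    rw [hρ'apply]
    exact hX _ (IntermediateField.fixingSubgroup_antitone hle₁ hs) x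
  have hzU : ∀ g g' s s', s ∈ U → s' ∈ U →
      S55.resTwo q z (g * s, g' * s') = S55.resTwo q z (g, g') := by
    intro g g' s s' hs hs'
    rw [hmemU] at hs hs'
    show z (primeLocalToGlobal q (g * s), primeLocalToGlobal q (g' * s')) =
      z (primeLocalToGlobal q g, primeLocalToGlobal q g')
    rw [map_mul, map_mul]
    exact hzc _ _ _ _ (IntermediateField.fixingSubgroup_antitone hle₂ hs)
      (IntermediateField.fixingSubgroup_antitone hle₂ hs')
  obtain ⟨g, hg1, hg2⟩ := exists_cochain_of_cyclic ρ' (S55.resTwo q z) hcoc U U' hUU hρ hzU φ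
    hgen N' hN' p n hpX hφn hdiv
  refine ⟨g, ⟨F', hF'fin, fun h s hs => hg1 h s ((hmemU' s).mpr hs)⟩, ?_⟩
  funext x
  show X.ρ (primeLocalToGlobal q x.1) (g x.2) - g (x.1 * x.2) + g x.1 = S55.resTwo q z x
  rw [← hρ'apply]
  exact hg2 x.1 x.2

end Fermat.Agent.S56.GWC.H46

end

end
-- ==== END Fermat.Agent.S56.GWC.H46_UR2

-- ==== BEGIN Fermat.Agent.S56.GWC.H47_B0Defs
section

set_option autoImplicit false

/-!
# Cluster T / S56, package GW-INV: the leaf B0 (helper47)

`Stmt_B0`: for an odd prime `p` there is a NONZERO additive character `b₀ : G_ℚ → 𝔽_p` of level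
`{p}` (the degree `p` subfield of `ℚ(μ_{p²})`).

Route: `ζ` a primitive `p²`-th root of unity, `σ ζ = ζ ^ a(σ)`, `b₀ σ := (a(σ)^(p-1) - 1) / p mod p`
(Fermat quotient; additive because `(1 + p s)(1 + p t) ≡ 1 + p (s + t) mod p²`); level `{p}`:
`b₀` factors through `Gal(ℚ(μ_{p²})/ℚ)`, and inertia at `q ≠ p` fixes the `p²`-th roots of unity
(they are distinct modulo `q`, as in `S56/H47_Basic.lean`, `inertia_fix_root`); nonzero: the
cyclotomic polynomial is irreducible (`Polynomial.cyclotomic_eq_minpoly_rat`), so some `σ` has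
`σ ζ = ζ ^ (1 + p)` (`minpoly.exists_algEquiv_of_root`), and `(1 + p)^(p-1) ≡ 1 - p mod p²`.

Consumer: `S56/GWC/H47_L2.lean` (the local class `c⁰` at `p` with nonzero invariant).
-/

namespace Fermat.Agent.S56.GWC.H47

open CategoryTheory groupCohomology ExtCitation Module

/-- **Leaf B0**: a nonzero additive character `G_ℚ → 𝔽_p` of level `{p}`. -/
def Stmt_B0 : Prop :=
  ∀ (p : ℕ) [Fact p.Prime], p ≠ 2 →
    ∃ b : S55.GQ → ZMod p, (∀ g h : S55.GQ, b (g * h) = b g + b h) ∧
      IsLevelConstantS₁ ({pPrime p} : Finset Nat.Primes) b ∧ ∃ σ : S55.GQ, b σ ≠ 0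

end Fermat.Agent.S56.GWC.H47

end
-- ==== END Fermat.Agent.S56.GWC.H47_B0Defs

-- ==== BEGIN Fermat.Agent.S56.GWC.H64_BaseH3
section

set_option autoImplicit false
set_option linter.unusedSectionVars false

open CategoryTheory groupCohomology ExtCitation Module

noncomputable section

namespace Fermat.Agent.S56.GWC.H64

open Fermat.Agent.S55 Fermat.Agent.S55.Top Fermat.Agent.S55.Top.OrbitData

attribute [local instance] locAct

variable {k : Type} [Field k] {S : Finset Nat.Primes}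
  {K : IntermediateField ℚ (AlgebraicClosure ℚ)}

lemma d2_add_coord {Γ X : Type} [Group Γ] [MulAction Γ X] (f f' : Γ × Γ → X → k) :
    d2 (f + f') = d2 f + d2 f' := by
  funext g x; simp only [d2, Pi.add_apply]; ring

/-- Shapiro in degree 3: `H³_S(G_K, k) = 0` implies `H³_S(G_ℚ, Fun(G_ℚ/G_K, k)) = 0`. -/
theorem h3S_FX (hK : K.IsUnramifiedOutside S) (𝔓 : PlaceSys S K)
    (hI2 : ∀ F : ↥K.fixingSubgroup × ↥K.fixingSubgroup × ↥K.fixingSubgroup → k,
      tThree F = 0 → IsLevK₃ S K F →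
      ∃ f : ↥K.fixingSubgroup × ↥K.fixingSubgroup → k, IsLevK₂ S K f ∧ tTwo f = F) :
    H3S S (FX k K) := by
  intro z hz hl
  have h3 : d3 (z : _root_.Fermat.Agent.S56.GQ × _root_.Fermat.Agent.S56.GQ × _root_.Fermat.Agent.S56.GQ → XK K → k) = 0 := hz
  obtain ⟨f, hf, hfe⟩ := hI2 (𝔓.shK₃ z) (𝔓.tThree_shK₃ z h3) (lev_shK₃ hl)
  have hg := 𝔓.glob.hty_three' (z : _root_.Fermat.Agent.S56.GQ × _root_.Fermat.Agent.S56.GQ × _root_.Fermat.Agent.S56.GQ → XK K → k)
  rw [h3, hty4_zero, add_zero, ← 𝔓.indK₃_shK₃, ← hfe, ← 𝔓.d2_indK₂] at hg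
  refine ⟨𝔓.indK₂ f + 𝔓.glob.hty3 z, (lev_indK₂ hK hf).add (lev_glob_hty3 hK hl), ?_⟩
  show d2 (𝔓.indK₂ f + 𝔓.glob.hty3 (z : _root_.Fermat.Agent.S56.GQ × _root_.Fermat.Agent.S56.GQ × _root_.Fermat.Agent.S56.GQ → XK K → k)) = z
  rw [d2_add_coord, ← hg]
  abel

/-- **Package H3-base**, from `S55.Top.Stmt_I2`. -/
theorem stmt_H3S_base_of (h2 : Top.Stmt_I2) : Stmt_H3S_base := by
  intro p _ hp2 S hpS K hK _
  have : Finite (XK K) := finite_XK hK.1
  exact stmt_H3S_ret (ZMod p) S (permRep (ZMod p) K) (FX (ZMod p) K) isRetract_perm_FX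
    (h3S_FX hK.1 (placeSysOut S K) (h2 p hp2 S hpS K hK))

end Fermat.Agent.S56.GWC.H64

end
end
-- ==== END Fermat.Agent.S56.GWC.H64_BaseH3

-- ==== BEGIN Fermat.Agent.S56.GWC.H64_Glue
section

set_option autoImplicit false

open CategoryTheory Module groupCohomology ExtCitation

noncomputable section

namespace Fermat.Agent.S56.GWC.H64

open Fermat.Agent.S55 Fermat.Agent.S56.GWC

variable {k : Type} [Field k] {S : Finset Nat.Primes} {χ : _root_.Fermat.Agent.S56.GQ →* kˣ}

/-- `β¹mono` for the zero module. -/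
lemma betaOneMono_of_subsingleton (tr : Trace S χ) (M : Rep.{0} k _root_.Fermat.Agent.S56.GQ) [Subsingleton M] :
    BetaOneMono tr M := by
  intro y _ _
  have hM : ∀ m' : Md χ M, m' = 0 := fun m' => by
    apply LinearMap.ext
    intro m
    rw [Subsingleton.elim m 0]
    simp
  rw [isB1c_iff_bdry]
  refine ⟨0, Prod.ext (funext fun g => ?_) (funext fun q => ?_)⟩
  · exact (hM _).trans (hM _).symm
  · exact (hM _).trans (hM _).symm

/-- Dévissage of `β¹mono`, cone on the right. -/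
theorem betaOneMono_of_devL (tr : Trace S χ) (hχ : LevChar S χ)
    (K : IntermediateField ℚ (AlgebraicClosure ℚ))
    (hK : BetaOneMono tr (permRep k K)) (hK3 : H3S S (permRep k K))
    (N : Rep.{0} k _root_.Fermat.Agent.S56.GQ) (hN : DevL k S K N) : BetaOneMono tr N := by
  induction hN with
  | zero M hM => exact betaOneMono_of_subsingleton tr M
  | ext M₁ M M₂ i π hses hiso h₁ h h₂ _ ih =>
    obtain ⟨e⟩ := hiso
    have hr : IsRetract M₁ (permRep k K) := isRetract_of_iso e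
    exact stmt_B1M_ext k S χ tr hχ M₁ M M₂ i π hses h₁ h h₂
      (stmt_B1M_ret k S χ tr M₁ (permRep k K) hr hK) ih
      (stmt_H3S_ret k S M₁ (permRep k K) hr hK3)

/-- **B1** from the base case. -/
theorem stmt_B1_of (hb : Stmt_B1M_base) (h3 : Stmt_H3S_base) : Stmt_B1 := by
  intro p _ hp2 S X _ hpS hlev
  have hχ : LevChar S (cycloChar p) := H48.stmt_levChar p S hpS
  obtain ⟨K, hK, hidx, N, hret, hL, hR⟩ := H13.stmt_E3_index p (ZMod p) S X hpS hlev
  obtain ⟨tr, -, -, hB1, hB2, hB1M⟩ := hb p hp2 S hpS K hK hidx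
  have hK3 := h3 p hp2 S hpS K hK hidx
  have hβN : BetaOneEpi tr N :=
    betaOneEpi_of_devR H49.stmt_E1B H48.stmt_E2 tr hχ K ⟨hB1, hB2⟩ N hR
  have hmN : BetaOneMono tr N := betaOneMono_of_devL tr hχ K hB1M hK3 N hL
  have hr := H48.stmt_E2 (ZMod p) S (cycloChar p) tr X N hret
  exact ⟨tr, hr.2.2.1 hβN, stmt_B1M_ret (ZMod p) S (cycloChar p) tr X N hret hmN⟩

/-- Level `S` implies smoothness. -/
lemma isSmoothRep_of_lev {M : Rep.{0} k _root_.Fermat.Agent.S56.GQ} (hM : Lev S M) : IsSmoothRep M := by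
  obtain ⟨F, hF, h⟩ := hM
  exact fun m => ⟨F, hF.1, fun s hs => h s hs m⟩

set_option maxHeartbeats 800000 in
/-- **PT2e** from the packages. -/
theorem stmt_PT2e_of (hB : Stmt_B1) (hC : Stmt_CONE1) (hD : Stmt_DUALCOUNT) (hDD : Stmt_DD) :
    Stmt_PT2e := by
  intro p _ hp2 S X _ hpS hlev
  have hχ : LevChar S (cycloChar p) := H48.stmt_levChar p S hpS
  have hY : Lev S (Md (cycloChar p) X) := lev_Md X hχ hlev
  haveI : FiniteDimensional (ZMod p) (Md (cycloChar p) X) := by
    show FiniteDimensional (ZMod p) (Module.Dual (ZMod p) X)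
    infer_instance
  obtain ⟨tr, hE, hM⟩ := hB p hp2 S (Md (cycloChar p) X) hpS hY
  have h2 : (2 : ZMod p) ≠ 0 := H48.two_ne_zero_zmod p hp2
  haveI : Finite X := Module.finite_of_finite (ZMod p)
  have hne : S.Nonempty := ⟨_, hpS⟩
  have hcone := hC (ZMod p) h2 S X inferInstance hne
  have hsm : IsSmoothRep X := isSmoothRep_of_lev hlev
  haveI : Module.Finite (ZMod p) (continuousH1S S X) := H92.stmt_fin_glob (ZMod p) X hsm S
  haveI : Finite (continuousH1S S X) := Module.finite_of_finite (ZMod p)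
  haveI : Finite (sha₁ S X) :=
    Finite.of_injective (Submodule.inclusion (inf_le_left : sha₁ S X ≤ continuousH1S S X))
      (Submodule.inclusion_injective _)
  have hpos : Nat.card (sha₁ S X) * ∏ q ∈ S, Nat.card (S56.locRep X q).ρ.invariants ≠ 0 := by
    refine mul_ne_zero Nat.card_pos.ne' (Finset.prod_ne_zero_iff.2 fun q _ => ?_)
    haveI : Finite (S56.locRep X q) := (inferInstance : Finite X)
    exact Nat.card_pos.ne'
  have hc1 : cardH1c S X ≠ 0 := by
    intro h
    rw [h, zero_mul] at hcone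
    exact hpos hcone.symm
  have hdd := hDD (ZMod p) S (cycloChar p) X inferInstance
  obtain ⟨hfin, hcard⟩ :=
    hD (ZMod p) S (cycloChar p) tr hχ _ hY hE hM (by rw [hdd]; exact hc1)
  refine ⟨hfin, ?_⟩
  rw [hcard, hdd, ← hcone]

/-- **PT2** from the open packages. -/
theorem stmt_PT2_of (hb : Stmt_B1M_base) (h3 : Stmt_H3S_base) (hC : Stmt_CONE1)
    (hD : Stmt_DUALCOUNT) (hDD : Stmt_DD) (hRS : Stmt_RS) : S56.Stmt_PT2 :=
  hRS (stmt_PT2e_of (stmt_B1_of hb h3) hC hD hDD)

end Fermat.Agent.S56.GWC.H64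

end

end
-- ==== END Fermat.Agent.S56.GWC.H64_Glue

-- ==== BEGIN Fermat.Agent.S56.GWC.H64_INV1
section

set_option autoImplicit false

open CategoryTheory Module groupCohomology ExtCitation

noncomputable section

namespace Fermat.Agent.S56.GWC.H64

open Fermat.Agent.S55 Fermat.Agent.S56.GWC

variable {k : Type} [Field k] {S : Finset Nat.Primes} {χ : _root_.Fermat.Agent.S56.GQ →* kˣ}

/-! ### `at3` -/

lemma at3_snd_self (X : Rep.{0} k _root_.Fermat.Agent.S56.GQ) (q : ↥S) (c : Gl q.1 × Gl q.1 → X) :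
    (at3 S X q c).2 q = c := by
  simp [at3]

lemma at3_snd_ne (X : Rep.{0} k _root_.Fermat.Agent.S56.GQ) {q q' : ↥S} (h : q' ≠ q) (c : Gl q.1 × Gl q.1 → X) :
    (at3 S X q c).2 q' = 0 := by
  simp [at3, Pi.single_eq_of_ne h]

lemma mapC3_at3 {A B : Rep.{0} k _root_.Fermat.Agent.S56.GQ} (u : A ⟶ B) (q : ↥S) (c : Gl q.1 × Gl q.1 → A) :
    mapC3 u.hom (at3 S A q c) = at3 S B q (fun t => u.hom (c t)) := by
  refine Prod.ext (funext fun t => ?_) (funext fun q' => funext fun t => ?_)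
  · simp [mapC3, at3]
  · by_cases h : q' = q
    · subst h
      simp [mapC3, at3]
    · simp [mapC3, at3, Pi.single_eq_of_ne h]

/-! ### Retracts -/

theorem locTwoMono_of_retract {M N : Rep.{0} k _root_.Fermat.Agent.S56.GQ} (i : M ⟶ N) (r : N ⟶ M)
    (hri : ∀ m : M, r.hom (i.hom m) = m) (tr : Trace S χ) (q : ↥S)
    (hN : LocTwoMono tr N q) : LocTwoMono tr M q := by
  intro c hc hl hpair
  have hc' : dTwoL N q.1 (fun t => i.hom (c t)) = 0 := by
    rw [dTwoL_comp, hc]
    funext t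
    simp
  obtain ⟨g, hg, hdg⟩ := hN (fun t => i.hom (c t)) hc' (levL₂_comp q.1 hl _) (by
    intro n' hn'
    rw [← mapC3_at3, cupA3_mapC3]
    refine hpair _ fun h => ?_
    rw [← dMap_rho, hn' h])
  refine ⟨fun h => r.hom (g h), levL₁_comp q.1 hg _, ?_⟩
  rw [dOneL_comp, hdg]
  funext t
  exact hri _

theorem locTwoEpi_of_retract {M N : Rep.{0} k _root_.Fermat.Agent.S56.GQ} (i : M ⟶ N) (r : N ⟶ M)
    (hri : ∀ m : M, r.hom (i.hom m) = m) (tr : Trace S χ) (q : ↥S)
    (hN : LocTwoEpi tr N q) : LocTwoEpi tr M q := by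
  intro φ
  obtain ⟨c, hc, hl, hpair⟩ := hN (φ.comp (dMap χ i))
  refine ⟨fun t => r.hom (c t), ?_, levL₂_comp q.1 hl _, fun m' hm' => ?_⟩
  · rw [dTwoL_comp, hc]
    funext t
    simp
  · rw [← mapC3_at3, cupA3_mapC3, hpair _ (fun h => by rw [← dMap_rho, hm' h])]
    show φ (dMap χ i (dMap χ r m')) = φ m'
    rw [H48.dMap_retract χ i r hri]

/-- **L2-ret**. -/
theorem stmt_L2_ret : Stmt_L2_ret := by
  intro k _ S χ tr X Y q hret
  obtain ⟨i, r, hri⟩ := hret
  exact ⟨locTwoMono_of_retract i r hri tr q, locTwoEpi_of_retract i r hri tr q⟩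

end Fermat.Agent.S56.GWC.H64

end

end
-- ==== END Fermat.Agent.S56.GWC.H64_INV1

-- ==== BEGIN Fermat.Agent.S56.GWC.H9_RSTransfer
section

/-!
# S56 / GW-CORE / PT2, package RS (helper9), part 1: transfer along additive equivalences

Let `A` (over `k₁`) and `B` (over `k₂`) be representations of `G_ℚ` and `e : A ≃+ B` an
additive, `G_ℚ`-equivariant bijection (the fields of scalars may differ).  Then
`Ш¹_S`, `H²_S`, `H⁰(ℚ, ·)` and `H⁰(ℚ_q, ·)` of `A` and of `B` have the same cardinality.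
-/

set_option autoImplicit false
set_option linter.unusedSectionVars false

noncomputable section

namespace Fermat.Agent.S56.GWC.H9

open CategoryTheory groupCohomology ExtCitation Module
open Fermat.Agent

/-- Two pairs of subgroups which correspond under an additive equivalence have the same
relative index. -/
lemma relIndex_eq_of_addEquiv {G H : Type*} [AddGroup G] [AddGroup H] (E : G ≃+ H)
    (N K : AddSubgroup G) (N' K' : AddSubgroup H)
    (hN : ∀ x, E x ∈ N' ↔ x ∈ N) (hK : ∀ x, E x ∈ K' ↔ x ∈ K) :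
    N'.relIndex K' = N.relIndex K := by
  have h1 : N' = N.map E.toAddMonoidHom := by
    ext y
    rw [AddSubgroup.mem_map_equiv, ← hN, AddEquiv.apply_symm_apply]
  have h2 : K' = K.map E.toAddMonoidHom := by
    ext y
    rw [AddSubgroup.mem_map_equiv, ← hK, AddEquiv.apply_symm_apply]
  rw [h1, h2]
  exact AddSubgroup.relIndex_map_map_of_injective N K E.injective

section transfer

variable {k₁ k₂ : Type} [Field k₁] [Field k₂] (S : Finset Nat.Primes)
  {A : Rep.{0} k₁ S55.GQ} {B : Rep.{0} k₂ S55.GQ} (e : A ≃+ B)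
  (he : ∀ (g : S55.GQ) (a : A), e (A.ρ g a) = B.ρ g (e a))

include he

lemma comp_dZero (m : A) : (fun g => e (S55.dZero A m g)) = S55.dZero B (e m) := by
  funext g
  simp only [S55.dZero, map_sub, he]

lemma comp_dZeroL (q : Nat.Primes) (m : A) :
    (fun h => e (S55.dZeroL A q m h)) = S55.dZeroL B q (e m) := by
  funext h
  simp only [S55.dZeroL, map_sub, he]

lemma comp_dOne (f : S55.GQ → A) :
    (fun x => e (S55.dOne A f x)) = S55.dOne B (fun g => e (f g)) := by
  funext x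
  simp only [S55.dOne, map_sub, map_add, he]

lemma comp_dTwo (f : S55.GQ × S55.GQ → A) :
    (fun x => e (S55.dTwo A f x)) = S55.dTwo B (fun g => e (f g)) := by
  funext x
  simp only [S55.dTwo, map_sub, map_add, he]

omit he

lemma comp_eq_zero_iff {X : Type*} (f : X → A) : (fun x => e (f x)) = 0 ↔ f = 0 := by
  constructor
  · intro h
    funext x
    have := congrFun h x
    simpa using this
  · rintro rfl
    funext x
    simp

lemma levS₁_comp_iff (f : S55.GQ → A) :
    IsLevelConstantS₁ S (fun g => e (f g)) ↔ IsLevelConstantS₁ S f := by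
  constructor
  · intro h
    have := h.comp e.symm
    have e1 : (e.symm ∘ fun g => e (f g)) = f := by
      funext g
      simp
    rwa [e1] at this
  · intro h
    exact h.comp e

lemma levS₂_comp_iff (f : S55.GQ × S55.GQ → A) :
    IsLevelConstantS₂ S (fun g => e (f g)) ↔ IsLevelConstantS₂ S f := by
  constructor
  · intro h
    have := h.comp e.symm
    have e1 : (e.symm ∘ fun g => e (f g)) = f := by
      funext g
      simp
    rwa [e1] at this
  · intro h
    exact h.comp e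

/-- The induced equivalence on cone 1-cochains. -/
def coneEquiv : S55.C1c S A ≃+ S55.C1c S B :=
  AddEquiv.prodCongr (AddEquiv.piCongrRight fun _ => e) (AddEquiv.piCongrRight fun _ => e)

lemma coneEquiv_fst (y : S55.C1c S A) : (coneEquiv S e y).1 = fun g => e (y.1 g) := rfl

lemma coneEquiv_snd (y : S55.C1c S A) : (coneEquiv S e y).2 = fun q => e (y.2 q) := rfl

include he

lemma isZ1c_coneEquiv_iff (y : S55.C1c S A) :
    S55.IsZ1c S B (coneEquiv S e y) ↔ S55.IsZ1c S A y := by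
  unfold S55.IsZ1c S55.IsZ1S
  rw [coneEquiv_fst, coneEquiv_snd, ← comp_dOne e he, comp_eq_zero_iff, levS₁_comp_iff]
  refine and_congr Iff.rfl (forall_congr' fun q => ?_)
  rw [← comp_dZeroL e he]
  constructor
  · intro h
    funext x
    exact e.injective (congrFun h x)
  · intro h
    funext x
    exact congrArg e (congrFun h x)

lemma mem_grpKc_coneEquiv_iff (y : S55.C1c S A) :
    coneEquiv S e y ∈ H01.grpKc S B ↔ y ∈ H01.grpKc S A := by
  rw [H01.mem_grpKc, H01.mem_grpKc, H01.mem_grpZ1c, H01.mem_grpZ1c, isZ1c_coneEquiv_iff S e he]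
  refine and_congr Iff.rfl ?_
  rw [coneEquiv_fst]
  constructor
  · rintro ⟨m, hm⟩
    refine ⟨e.symm m, ?_⟩
    funext g
    apply e.injective
    have := congrFun hm g
    have h2 := congrFun (comp_dZero e he (e.symm m)) g
    rw [AddEquiv.apply_symm_apply] at h2
    rw [this, h2]
  · rintro ⟨m, hm⟩
    refine ⟨e m, ?_⟩
    rw [← comp_dZero e he, hm]

/-- `#Ш¹_S(A) = #Ш¹_S(B)`. -/
theorem card_sha1_eq (h2₁ : (2 : k₁) ≠ 0) (h2₂ : (2 : k₂) ≠ 0) :
    Nat.card (sha₁ S A) = Nat.card (sha₁ S B) := by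
  rw [← H01.relIndex_grpKc S A h2₁, ← H01.relIndex_grpKc S B h2₂]
  refine (relIndex_eq_of_addEquiv (coneEquiv S e) _ _ _ _ (mem_grpKc_coneEquiv_iff S e he) ?_).symm
  intro y
  rw [H01.mem_grpZ1c, H01.mem_grpZ1c, isZ1c_coneEquiv_iff S e he]

omit he in
/-- `#H²_S(X)` as a relative index. -/
theorem card_H2S_eq_relIndex {k : Type} [Field k] (X : Rep.{0} k S55.GQ) :
    Nat.card (continuousH2S S X) =
      (levelCoboundariesS₂ S X).toAddSubgroup.relIndex (levelCocyclesS₂ S X).toAddSubgroup :=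
  rfl

/-- `#H²_S(A) = #H²_S(B)`. -/
theorem card_H2S_eq : Nat.card (continuousH2S S A) = Nat.card (continuousH2S S B) := by
  rw [card_H2S_eq_relIndex, card_H2S_eq_relIndex]
  refine (relIndex_eq_of_addEquiv
    (AddEquiv.piCongrRight fun _ : S55.GQ × S55.GQ => e) _ _ _ _ ?_ ?_).symm
  · intro x
    show (fun t => e (x t)) ∈ levelCoboundariesS₂ S B ↔ x ∈ levelCoboundariesS₂ S A
    rw [mem_levelCoboundariesS₂_iff, mem_levelCoboundariesS₂_iff]
    constructor
    · rintro ⟨f, hf, hfx⟩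
      refine ⟨fun g => e.symm (f g), hf.comp e.symm, ?_⟩
      rw [S55.H48.d12_eq] at hfx ⊢
      funext t
      apply e.injective
      have h1 := congrFun (comp_dOne e he (fun g => e.symm (f g))) t
      simp only [AddEquiv.apply_symm_apply] at h1
      rw [h1]
      exact congrFun hfx t
    · rintro ⟨f, hf, hfx⟩
      refine ⟨fun g => e (f g), hf.comp e, ?_⟩
      rw [S55.H48.d12_eq] at hfx ⊢
      rw [← comp_dOne e he, hfx]
  · intro x
    show (fun t => e (x t)) ∈ levelCocyclesS₂ S B ↔ x ∈ levelCocyclesS₂ S A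
    rw [mem_levelCocyclesS₂_iff, mem_levelCocyclesS₂_iff, S55.H48.mem_cocycles₂_iff_dTwo,
      S55.H48.mem_cocycles₂_iff_dTwo, ← comp_dTwo e he, comp_eq_zero_iff, levS₂_comp_iff]

/-- `#H⁰(ℚ, A) = #H⁰(ℚ, B)`. -/
theorem card_invariants_eq : Nat.card A.ρ.invariants = Nat.card B.ρ.invariants := by
  refine Nat.card_congr (e.toEquiv.subtypeEquiv fun a => ?_)
  rw [Representation.mem_invariants, Representation.mem_invariants]
  constructor
  · intro h g
    show B.ρ g (e a) = e a
    rw [← he, h]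
  · intro h g
    apply e.injective
    rw [he]
    exact h g

/-- `#H⁰(ℚ_q, A) = #H⁰(ℚ_q, B)`. -/
theorem card_loc_invariants_eq (q : Nat.Primes) :
    Nat.card (S56.locRep A q).ρ.invariants = Nat.card (S56.locRep B q).ρ.invariants := by
  refine Nat.card_congr (e.toEquiv.subtypeEquiv fun a => ?_)
  rw [Representation.mem_invariants, Representation.mem_invariants]
  constructor
  · intro h g
    show B.ρ (primeLocalToGlobal q g) (e a) = e a
    rw [← he]
    exact congrArg e (h g)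
  · intro h g
    apply e.injective
    show e (A.ρ (primeLocalToGlobal q g) a) = e a
    rw [he]
    exact h g

end transfer

end Fermat.Agent.S56.GWC.H9

end
end
-- ==== END Fermat.Agent.S56.GWC.H9_RSTransfer

-- ==== BEGIN Fermat.Agent.S56.H57_Action
section

/-!
# S56, leaf LOC-p-SO (helper57): the action of the decomposition group on `n₀` and `h`
-/

set_option autoImplicit false
set_option linter.unusedSectionVars false
set_option linter.unusedVariables false

noncomputable section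

namespace Fermat.Agent.S56.H57

open Fermat.Agent.S53 IsLocalRing groupCohomology ExtCitation Module
  Fermat.Agent.S56.Dict.H85

section Coord

variable {k : Type} [Field k] {V : Type} [AddCommGroup V] [Module k V] (b : Basis (Fin 2) k V)

@[simp] theorem coord0_b0 : b.coord 0 (b 0) = 1 := by simp
@[simp] theorem coord0_b1 : b.coord 0 (b 1) = 0 := by simp
@[simp] theorem coord1_b0 : b.coord 1 (b 0) = 0 := by simp
@[simp] theorem coord1_b1 : b.coord 1 (b 1) = 1 := by simp

end Coord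

section Action

variable (p : ℕ) [Fact p.Prime] {k : Type} [Field k] [CharP k p] (ρbar : ResidualGaloisRep k)
  (b : Basis (Fin 2) k ρbar.V)

/-- the coefficient of the coboundary of `hEnd` along `nEnd` -/
def chF (σ : _root_.Fermat.Agent.S56.GQ) : k :=
  -(2 * b.coord 1 (ρbar.ρ σ (b 1)) * b.coord 0 (ρbar.ρ σ (b 1)))

variable {p ρbar b}

theorem conj_nEnd {P : ValuationSubring (AlgebraicClosure ℚ)} (hline : IsSOLine p ρbar P (b 0))
    (σ : _root_.Fermat.Agent.S56.GQ) (hσ : σ ∈ P.decompositionSubgroup ℚ) :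
    ρbar.ρ σ ∘ₗ nEnd b ∘ₗ ρbar.ρ σ⁻¹ = omegaK p k σ • nEnd b := by
  obtain ⟨z, hz1, hz2, hz3⟩ := hline.2.2 σ hσ
  refine LinearMap.ext fun v => ?_
  obtain ⟨u, rfl⟩ : ∃ u, ρbar.ρ σ u = v := ⟨ρbar.ρ σ⁻¹ v, rho_rho_inv ρbar σ v⟩
  obtain ⟨t, ht⟩ := hz3 u
  have e : ρbar.ρ σ u = z • u + t • b 0 := by rw [← ht]; abel
  have hc1 : b.coord 1 (ρbar.ρ σ u) = z * b.coord 1 u := by
    rw [e, map_add, map_smul, map_smul, coord1_b0, smul_eq_mul, smul_eq_mul, mul_zero, add_zero]
  simp only [LinearMap.comp_apply, rho_inv_rho, LinearMap.smul_apply, nEnd_apply]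
  rw [map_smul, hz2, hc1, smul_smul, smul_smul]
  congr 1
  ring

theorem conj_hEnd {P : ValuationSubring (AlgebraicClosure ℚ)} (hline : IsSOLine p ρbar P (b 0))
    (σ : _root_.Fermat.Agent.S56.GQ) (hσ : σ ∈ P.decompositionSubgroup ℚ) :
    ρbar.ρ σ ∘ₗ hEnd b ∘ₗ ρbar.ρ σ⁻¹ - hEnd b = chF ρbar b σ • nEnd b := by
  obtain ⟨z, hz1, hz2, hz3⟩ := hline.2.2 σ hσ
  refine LinearMap.ext fun v => ?_
  obtain ⟨u, rfl⟩ : ∃ u, ρbar.ρ σ u = v := ⟨ρbar.ρ σ⁻¹ v, rho_rho_inv ρbar σ v⟩
  obtain ⟨t, ht⟩ := hz3 u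
  obtain ⟨tw, htw⟩ := hz3 (b 1)
  have e : ρbar.ρ σ u = z • u + t • b 0 := by rw [← ht]; abel
  have ew : ρbar.ρ σ (b 1) = z • b 1 + tw • b 0 := by rw [← htw]; abel
  have hc1 : b.coord 1 (ρbar.ρ σ u) = z * b.coord 1 u := by
    rw [e, map_add, map_smul, map_smul, coord1_b0, smul_eq_mul, smul_eq_mul, mul_zero, add_zero]
  have hch : chF ρbar b σ = -(2 * z * tw) := by
    unfold chF
    rw [ew, map_add, map_add, map_smul, map_smul, map_smul, map_smul, coord1_b0, coord1_b1,
      coord0_b0, coord0_b1]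
    simp
  obtain ⟨c, hc⟩ : ∃ c, c = b.coord 1 u := ⟨_, rfl⟩
  have hzz : -(2 * z * tw) * (z * c) = -(2 * tw * c) := by
    linear_combination (-(2 * tw * c)) * hz1
  simp only [LinearMap.comp_apply, rho_inv_rho, LinearMap.smul_apply, LinearMap.sub_apply,
    nEnd_apply, hEnd_apply]
  rw [hc1, hch, ← hc, map_sub, map_smul, map_smul, ew, smul_smul (-(2 * z * tw)), hzz]
  module

end Action

end Fermat.Agent.S56.H57

end

end
-- ==== END Fermat.Agent.S56.H57_Action

-- ==== BEGIN Fermat.Agent.S56.TWS.FinalOf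
section

set_option autoImplicit false

/-!
# TW-SELECT: assembly (helper74)

`stmt_TW_select_of_tr`: `Stmt_TW_select` from the translation TWS-A-tr
(`Stmt_H1_matrix → Stmt_H1_image`); everything else is discharged here.
-/

namespace Fermat.Agent.S56.TWS

/-- TWS-A from the translation. -/
theorem stmt_H1_image_of_tr (hTr : H74.Stmt_H1_matrix → Stmt_H1_image) : Stmt_H1_image :=
  hTr H74.stmt_H1_matrix

/-- `Stmt_core` from the translation. -/
theorem stmt_core_of_tr (hTr : H74.Stmt_H1_matrix → Stmt_H1_image) : Stmt_core :=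
  stmt_core_of
    (H01.stmt_select_of (H59.stmt_levKer_of (stmt_H1_image_of_tr hTr)) H59.stmt_distinct
      H27.stmt_irred)
    H64.stmt_prime

/-- **TW-SELECT** from the translation TWS-A-tr. -/
theorem stmt_TW_select_of_tr (hTr : H74.Stmt_H1_matrix → Stmt_H1_image) : Stmt_TW_select :=
  H01.stmt_TW_select_of (stmt_core_of_tr hTr)

end Fermat.Agent.S56.TWS

end
-- ==== END Fermat.Agent.S56.TWS.FinalOf
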