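-- GENERATED (merged mirror, NOTES/tools/trim/merge3_helper67.py): 6 modules of the originals, bodies verbatim.
import Fermat.Agent.Zm.S56_L13_000
import Fermat.Agent.Zm.S56_L11_006
import Fermat.Agent.Zm.S56_L06_003
import Fermat.Agent.Zm.S56_L13_001
import Fermat.Agent.Zm.S56_L10_004
import Fermat.Agent.Zm.S56_L01_000
import Fermat.Agent.Zm.S56_L11_002
import Fermat.Agent.Zm.S56_L03_002
import Fermat.Agent.Zm.S56_L12_000
import Fermat.Agent.Zm.S56_L13_003
import Fermat.Agent.Zm.S56_L12_002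
import Fermat.Agent.Zm.S48_L01_000

-- ==== BEGIN Fermat.Agent.S55.CFT.GS.H24_ResCalc
section

set_option autoImplicit false
set_option linter.unusedSectionVars false
set_option linter.unusedVariables false
set_option linter.style.haveILetI false

open CategoryTheory Module groupCohomology ExtCitation

open scoped Pointwise

noncomputable section

namespace Fermat.Agent.S55.CFT.GS.H24

open Fermat.Agent.S55 Fermat.Agent.S55.Top Fermat.Agent.S55.CFT.GS

local notation "Qb" => AlgebraicClosure ℚ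

section abs

variable {G X M : Type} [Group G] [MulAction G X] [AddCommGroup M] {r : G → X → M}

theorem coc_one (hr : ∀ g h x, r (g * h) x = r h (g⁻¹ • x) + r g x) (x : X) : r 1 x = 0 := by
  have h := hr 1 1 x
  rw [mul_one, inv_one, one_smul] at h
  exact (left_eq_add.mp h)

theorem coc_mul_stab (hr : ∀ g h x, r (g * h) x = r h (g⁻¹ • x) + r g x) (g h : G) (x : X)
    (hg : g • x = x) : r (g * h) x = r h x + r g x := by
  have e := hr g h x
  have hg' : g⁻¹ • x = x := by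
    rw [inv_smul_eq_iff, hg]
  rw [hg'] at e
  exact e

theorem coc_pow_stab (hr : ∀ g h x, r (g * h) x = r h (g⁻¹ • x) + r g x) (g : G) (x : X)
    (hg : g • x = x) (n : ℕ) : r (g ^ n) x = n • r g x := by
  induction n with
  | zero => simp [coc_one hr]
  | succ n ih =>
    have hgn : g ^ n • x = x := by
      clear ih
      induction n with
      | zero => simp
      | succ n ih => rw [pow_succ, mul_smul, hg, ih]
    rw [pow_succ, coc_mul_stab hr _ _ x hgn, ih, succ_nsmul, add_comm]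

theorem coc_bad_smul (hr : ∀ g h x, r (g * h) x = r h (g⁻¹ • x) + r g x) {x : X}
    (h : ∃ g : G, g • x = x ∧ r g x ≠ 0) (k : G) :
    ∃ g : G, g • (k • x) = k • x ∧ r g (k • x) ≠ 0 := by
  obtain ⟨g, hg, hne⟩ := h
  refine ⟨k * g * k⁻¹, ?_, ?_⟩
  · rw [mul_smul, inv_smul_smul, mul_smul, hg]
  · rw [resR_conj hr (coc_one hr) g k x hg]
    exact hne

end abs

section rcalc

variable {p : ℕ} [Fact p.Prime] {S : Finset Nat.Primes} {K : IntermediateField ℚ Qb}

/-- `b` is a level-`S` cochain with values in `Ωˣ` whose coboundary has values in `W`. -/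
structure ResHyp (S : Finset Nat.Primes) (p : ℕ) (K : IntermediateField ℚ Qb)
    (b : ↥K.fixingSubgroup → Qbˣ) : Prop where
  lev : IsLevK₁ S K b
  om : ∀ g, InOm S (b g : Qb)
  w : ∀ t, InW S p (mOne b t)

theorem resR_one (hp : pPrime p ∈ S) {b : ↥K.fixingSubgroup → Qbˣ} (hb : ResHyp S p K b)
    (A : ValuationSubring Qb) : resR S p b 1 A = 0 :=
  coc_one (resR_cocycle hp hb.om hb.w) A

theorem resR_pow_stab (hp : pPrime p ∈ S) {b : ↥K.fixingSubgroup → Qbˣ} (hb : ResHyp S p K b)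
    (g : ↥K.fixingSubgroup) (A : ValuationSubring Qb) (hg : g • A = A) (n : ℕ) :
    resR S p b (g ^ n) A = (n : ZMod p) * resR S p b g A := by
  rw [coc_pow_stab (resR_cocycle hp hb.om hb.w) g A hg n, nsmul_eq_mul]

/-- The residue cochain of `b / b₁ ^ k`. -/
theorem resR_div_pow {b b₁ : ↥K.fixingSubgroup → Qbˣ} (hbΩ : ∀ g, InOm S (b g : Qb))
    (hb₁Ω : ∀ g, InOm S (b₁ g : Qb)) (k : ℕ) (g : ↥K.fixingSubgroup)
    (A : ValuationSubring Qb) :
    resR S p (fun g => b g / b₁ g ^ k) g A =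
      resR S p b g A - (k : ZMod p) * resR S p b₁ g A := by
  by_cases hA : H6.OutS S A
  · rw [resR_of_outS _ hA, resR_of_outS _ hA, resR_of_outS _ hA]
    have e : ((b g / b₁ g ^ k : Qbˣ) : Qb) = (b g : Qb) / (b₁ g : Qb) ^ k := by
      rw [Units.val_div_eq_div_val, Units.val_pow_eq_pow_val]
    rw [e, H6.ordS_div hA (b g).ne_zero (hbΩ g) (pow_ne_zero _ (b₁ g).ne_zero)
      (inOm_pow (hb₁Ω g) k), H6.ordS_pow hA (b₁ g).ne_zero (hb₁Ω g)]
    push_cast
    ring
  · rw [resR_of_not_outS _ hA, resR_of_not_outS _ hA, resR_of_not_outS _ hA]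
    ring

/-- `ResTrivAt` in terms of the residue cochain. -/
theorem resTrivAt_iff {b : ↥K.fixingSubgroup → Qbˣ} (hbΩ : ∀ g, InOm S (b g : Qb))
    (q : Nat.Primes) (hq : q ∉ S) (A : ValuationSubring Qb) (hA : A.LiesOverPrime (q : ℕ)) :
    ResTrivAt p K A (q : ℕ) b ↔ ∀ g : ↥K.fixingSubgroup, g • A = A → resR S p b g A = 0 := by
  have hout : H6.OutS S A := ⟨q, hq, hA⟩
  constructor
  · intro h g hg
    rw [resR_of_outS _ hout]
    obtain ⟨k, hk⟩ := h g hg
    rw [H6.ordS_eq q hA hk]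
    push_cast
    simp
  · intro h g hg
    have h1 := h g hg
    rw [resR_of_outS _ hout, ZMod.intCast_zmod_eq_zero_iff_dvd] at h1
    obtain ⟨k, hk⟩ := h1
    refine ⟨k, ?_⟩
    have h2 := H6.isOrd_ordS q hq hA (b g).ne_zero (hbΩ g)
    rw [hk] at h2
    exact h2

/-- `A` is a bad place of `b`: the residue of `b` at `A` is not zero. -/
def IsBad (S : Finset Nat.Primes) (p : ℕ) (b : ↥K.fixingSubgroup → Qbˣ)
    (A : ValuationSubring Qb) : Prop :=
  ∃ g : ↥K.fixingSubgroup, g • A = A ∧ resR S p b g A ≠ 0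

theorem IsBad.outS {b : ↥K.fixingSubgroup → Qbˣ} {A : ValuationSubring Qb}
    (h : IsBad S p b A) : H6.OutS S A := by
  obtain ⟨g, _, hg⟩ := h
  by_contra hA
  exact hg (resR_of_not_outS _ hA)

theorem isBad_smul (hp : pPrime p ∈ S) {b : ↥K.fixingSubgroup → Qbˣ} (hb : ResHyp S p K b)
    {A : ValuationSubring Qb} (h : IsBad S p b A) (k : ↥K.fixingSubgroup) :
    IsBad S p b (k • A) :=
  coc_bad_smul (resR_cocycle hp hb.om hb.w) h k

theorem not_isBad_of_forall {b : ↥K.fixingSubgroup → Qbˣ}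
    (h : ∀ A, ¬ IsBad S p b A) (g : ↥K.fixingSubgroup) (A : ValuationSubring Qb)
    (hg : g • A = A) : resR S p b g A = 0 := by
  by_contra hne
  exact h A ⟨g, hg, hne⟩

/-- The bad places are covered by the `G_K`-orbits of the places in `T`. -/
def Covered (S : Finset Nat.Primes) (p : ℕ) (b : ↥K.fixingSubgroup → Qbˣ)
    (T : Finset (ValuationSubring Qb)) : Prop :=
  ∀ A, IsBad S p b A → ∃ A' ∈ T, ∃ k : ↥K.fixingSubgroup, k • A' = A

/-- The bad places lie in finitely many `G_K`-orbits. -/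
theorem exists_cover (hK : K.IsUnramifiedOutside S) {b : ↥K.fixingSubgroup → Qbˣ}
    (hb : ResHyp S p K b) : ∃ T : Finset (ValuationSubring Qb), Covered S p b T := by
  classical
  obtain ⟨N, hN0, hN⟩ := resR_support (p := p) hK hb.lev
  have hfd : FiniteDimensional ℚ K := hK.1
  have := h49_qbar_isGalois
  have hfin : Finite (GQ ⧸ K.fixingSubgroup) :=
    Subgroup.quotient_finite_of_isOpen K.fixingSubgroup K.fixingSubgroup_isOpen
  haveI : Fintype (GQ ⧸ K.fixingSubgroup) := Fintype.ofFinite _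
  refine ⟨((finite_primes_dvd hN0).toFinset ×ˢ (Finset.univ : Finset (GQ ⧸ K.fixingSubgroup))).image
    (fun x => (Quotient.out x.2 : GQ)⁻¹ • H6.urA0 x.1), ?_⟩
  intro A hA
  obtain ⟨q, hq, hAq⟩ := hA.outS
  obtain ⟨g, hg, hne⟩ := hA
  have hqN : ((q : ℕ) : ℤ) ∣ N := by
    by_contra h
    exact hne (hN q h A hAq g)
  obtain ⟨τ, hτ⟩ := H6.ur_exists_smul (H6.urA0 q) A (q : ℕ) q.2 (H6.urA0_lies q) hAq
  -- `τ = k (x.out)⁻¹`
  set x : GQ ⧸ K.fixingSubgroup := ((τ⁻¹ : GQ) : GQ ⧸ K.fixingSubgroup) with hx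
  obtain ⟨k, hk⟩ := QuotientGroup.mk_out_eq_mul K.fixingSubgroup τ⁻¹
  refine ⟨(Quotient.out x : GQ)⁻¹ • H6.urA0 q, ?_, k, ?_⟩
  · rw [Finset.mem_image]
    refine ⟨(q, x), ?_, rfl⟩
    rw [Finset.mem_product]
    exact ⟨by rw [Set.Finite.mem_toFinset]; exact hqN, Finset.mem_univ _⟩
  · have e : (Quotient.out x : GQ) = τ⁻¹ * k := hk
    rw [e, hτ]
    show (k : GQ) • (τ⁻¹ * (k : GQ))⁻¹ • H6.urA0 q = τ • H6.urA0 q
    rw [mul_inv_rev, inv_inv, mul_smul, smul_inv_smul]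

end rcalc

end Fermat.Agent.S55.CFT.GS.H24

end

end
-- ==== END Fermat.Agent.S55.CFT.GS.H24_ResCalc

-- ==== BEGIN Fermat.Agent.S56.EC.H54_DescDA
section

set_option autoImplicit false
set_option linter.unusedSectionVars false
set_option linter.style.haveILetI false
set_option linter.unusedVariables false

noncomputable section

namespace Fermat.Agent.S56.EC.DESC.H54

open CategoryTheory groupCohomology ExtCitation Module Fermat.Agent.S55
  Fermat.Agent.S56.H92.Snake Fermat.Agent.S56.H92.LES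

variable {k : Type} [Field k] {S S' : Finset Nat.Primes} (N : Rep.{0} k _root_.Fermat.Agent.S56.GQ)
  (hSS : S ⊆ S') (hN : Lev S N) (hN' : Lev S' N)

/-! ### The level-`T` cohomology in terms of functions -/

section mk

variable (T : Finset Nat.Primes) (hT : Lev T N)

/-- The class in `H¹_T` of a level-`T` cocycle. -/
def mkH1 (f : _root_.Fermat.Agent.S56.GQ → N) (hf : IsLevelConstantS₁ T f) (hd : dOne N f = 0) :
    Hmid (d0 T N hT) (d1 T N hT) :=
  Hmid.mk _ _ ⟨⟨f, hf⟩, LinearMap.mem_ker.2 (Subtype.ext hd)⟩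

theorem exists_mkH1 (x : Hmid (d0 T N hT) (d1 T N hT)) :
    ∃ (f : _root_.Fermat.Agent.S56.GQ → N) (hf : IsLevelConstantS₁ T f) (hd : dOne N f = 0), mkH1 N T hT f hf hd = x := by
  obtain ⟨z, rfl⟩ := Hmid.mk_surjective _ _ x
  exact ⟨_, (z : ↥(levelCochainsS₁ T N)).2, congrArg Subtype.val (LinearMap.mem_ker.1 z.2), rfl⟩

theorem mkH1_eq_zero_iff (f : _root_.Fermat.Agent.S56.GQ → N) (hf : IsLevelConstantS₁ T f) (hd : dOne N f = 0) :
    mkH1 N T hT f hf hd = 0 ↔ ∃ m : N, dZero N m = f := by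
  unfold mkH1
  rw [Hmid.mk_eq_zero_iff]
  constructor
  · rintro ⟨m, hm⟩
    exact ⟨m, congrArg Subtype.val hm⟩
  · rintro ⟨m, hm⟩
    exact ⟨m, Subtype.ext hm⟩

/-- The class in `H²_T` of a level-`T` 2-cocycle. -/
def mkH2 (a : _root_.Fermat.Agent.S56.GQ × _root_.Fermat.Agent.S56.GQ → N) (ha : IsLevelConstantS₂ T a) (hd : dTwo N a = 0) :
    Hmid (d1 T N hT) (d2 T N) :=
  Hmid.mk _ _ ⟨⟨a, ha⟩, LinearMap.mem_ker.2 hd⟩

theorem exists_mkH2 (x : Hmid (d1 T N hT) (d2 T N)) :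
    ∃ (a : _root_.Fermat.Agent.S56.GQ × _root_.Fermat.Agent.S56.GQ → N) (ha : IsLevelConstantS₂ T a) (hd : dTwo N a = 0),
      mkH2 N T hT a ha hd = x := by
  obtain ⟨z, rfl⟩ := Hmid.mk_surjective _ _ x
  exact ⟨_, (z : ↥(levelCochainsS₂ T N)).2, LinearMap.mem_ker.1 z.2, rfl⟩

theorem mkH2_eq_zero_iff (a : _root_.Fermat.Agent.S56.GQ × _root_.Fermat.Agent.S56.GQ → N) (ha : IsLevelConstantS₂ T a) (hd : dTwo N a = 0) :
    mkH2 N T hT a ha hd = 0 ↔ ∃ f : _root_.Fermat.Agent.S56.GQ → N, IsLevelConstantS₁ T f ∧ dOne N f = a := by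
  unfold mkH2
  rw [Hmid.mk_eq_zero_iff]
  constructor
  · rintro ⟨f, hf⟩
    exact ⟨f, f.2, congrArg Subtype.val hf⟩
  · rintro ⟨f, hf, hfa⟩
    exact ⟨⟨f, hf⟩, Subtype.ext hfa⟩

end mk


/-! ### `Ẽ` and `Cok` in terms of functions -/

section mkE

/-- The class in `Ẽ` of a level-`S'` cochain whose coboundary has level `S`. -/
def mkE (f : _root_.Fermat.Agent.S56.GQ → N) (hf : IsLevelConstantS₁ S' f) (hd : IsLevelConstantS₂ S (dOne N f)) :
    Etil S S' N :=
  Submodule.Quotient.mk ⟨f, ⟨hf, hd⟩⟩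

theorem exists_mkE (x : Etil S S' N) :
    ∃ (f : _root_.Fermat.Agent.S56.GQ → N) (hf : IsLevelConstantS₁ S' f) (hd : IsLevelConstantS₂ S (dOne N f)),
      mkE N f hf hd = x := by
  obtain ⟨z, rfl⟩ := Submodule.Quotient.mk_surjective _ x
  exact ⟨_, z.2.1, z.2.2, rfl⟩

theorem mkE_eq_zero_iff (f : _root_.Fermat.Agent.S56.GQ → N) (hf : IsLevelConstantS₁ S' f)
    (hd : IsLevelConstantS₂ S (dOne N f)) :
    mkE N f hf hd = 0 ↔ IsLevelConstantS₁ S f := by
  unfold mkE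
  rw [Submodule.Quotient.mk_eq_zero, Submodule.mem_comap]
  rfl

/-- The class in `Cok` of a level-`S'` 2-cocycle. -/
def mkC (a : _root_.Fermat.Agent.S56.GQ × _root_.Fermat.Agent.S56.GQ → N) (ha : IsLevelConstantS₂ S' a) (hd : dTwo N a = 0) : Cok2 S S' N :=
  Submodule.Quotient.mk ⟨a, ⟨LinearMap.mem_ker.2 hd, ha⟩⟩

theorem exists_mkC (x : Cok2 S S' N) :
    ∃ (a : _root_.Fermat.Agent.S56.GQ × _root_.Fermat.Agent.S56.GQ → N) (ha : IsLevelConstantS₂ S' a) (hd : dTwo N a = 0),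
      mkC (S := S) N a ha hd = x := by
  obtain ⟨z, rfl⟩ := Submodule.Quotient.mk_surjective _ x
  exact ⟨_, z.2.2, LinearMap.mem_ker.1 z.2.1, rfl⟩

theorem mkC_eq_zero_iff (a : _root_.Fermat.Agent.S56.GQ × _root_.Fermat.Agent.S56.GQ → N) (ha : IsLevelConstantS₂ S' a) (hd : dTwo N a = 0) :
    mkC (S := S) N a ha hd = 0 ↔
      ∃ (f : _root_.Fermat.Agent.S56.GQ → N) (b : _root_.Fermat.Agent.S56.GQ × _root_.Fermat.Agent.S56.GQ → N), IsLevelConstantS₁ S' f ∧ IsLevelConstantS₂ S b ∧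
        dTwo N b = 0 ∧ a = dOne N f + b := by
  unfold mkC
  rw [Submodule.Quotient.mk_eq_zero, Submodule.mem_comap]
  show a ∈ imZ2 S S' N ↔ _
  unfold imZ2
  rw [Submodule.mem_sup]
  constructor
  · rintro ⟨y, hy, z, hz, hyz⟩
    obtain ⟨f, hf, rfl⟩ := (mem_levelCoboundariesS₂_iff S' N y).1 hy
    exact ⟨f, z, hf, hz.2, LinearMap.mem_ker.1 hz.1, hyz.symm⟩
  · rintro ⟨f, b, hf, hb, hdb, rfl⟩
    exact ⟨_, (mem_levelCoboundariesS₂_iff S' N _).2 ⟨f, hf, rfl⟩, b,
      ⟨LinearMap.mem_ker.2 hdb, hb⟩, rfl⟩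

end mkE


/-! ### The maps of the five-term sequence -/

section maps

theorem levelConst₂_of_eq_zero (T : Finset Nat.Primes) (a : _root_.Fermat.Agent.S56.GQ × _root_.Fermat.Agent.S56.GQ → N) (ha : a = 0) :
    IsLevelConstantS₂ T a := by
  rw [ha]
  exact isLevelConstantS₂_const T (0 : N)

/-- `H¹_S → H¹_{S'}`. -/
def a1 : Hmid (d0 S N hN) (d1 S N hN) →ₗ[k] Hmid (d0 S' N hN') (d1 S' N hN') :=
  Hmid.map LinearMap.id
    (Submodule.inclusion (fun f hf => IsLevelConstantS₁.mono hSS hf :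
      levelCochainsS₁ S N ≤ levelCochainsS₁ S' N))
    (Submodule.inclusion (fun f hf => IsLevelConstantS₂.mono hSS hf :
      levelCochainsS₂ S N ≤ levelCochainsS₂ S' N))
    (fun _ => rfl) (fun _ => rfl)

theorem a1_mk (f : _root_.Fermat.Agent.S56.GQ → N) (hf : IsLevelConstantS₁ S f) (hd : dOne N f = 0) :
    a1 N hSS hN hN' (mkH1 N S hN f hf hd) = mkH1 N S' hN' f (hf.mono hSS) hd :=
  Hmid.map_mk _ _ _ _ _ _ _ rfl

/-- `H²_S → H²_{S'}`. -/
def i2 : Hmid (d1 S N hN) (d2 S N) →ₗ[k] Hmid (d1 S' N hN') (d2 S' N) :=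
  Hmid.map
    (Submodule.inclusion (fun f hf => IsLevelConstantS₁.mono hSS hf :
      levelCochainsS₁ S N ≤ levelCochainsS₁ S' N))
    (Submodule.inclusion (fun f hf => IsLevelConstantS₂.mono hSS hf :
      levelCochainsS₂ S N ≤ levelCochainsS₂ S' N))
    LinearMap.id
    (fun _ => rfl) (fun _ => rfl)

theorem i2_mk (a : _root_.Fermat.Agent.S56.GQ × _root_.Fermat.Agent.S56.GQ → N) (ha : IsLevelConstantS₂ S a) (hd : dTwo N a = 0) :
    i2 N hSS hN hN' (mkH2 N S hN a ha hd) = mkH2 N S' hN' a (ha.mono hSS) hd :=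
  Hmid.map_mk _ _ _ _ _ _ _ rfl

/-- `ker d¹_{S'} → Ẽ`. -/
def α₀ : ↥(LinearMap.ker (d1 S' N hN')) →ₗ[k] Etil S S' N :=
  (Submodule.mkQ _) ∘ₗ
    LinearMap.codRestrict (preE S S' N)
      ((levelCochainsS₁ S' N).subtype ∘ₗ (LinearMap.ker (d1 S' N hN')).subtype)
      (fun z => ⟨(z : ↥(levelCochainsS₁ S' N)).2,
        levelConst₂_of_eq_zero N S _ (congrArg Subtype.val (LinearMap.mem_ker.1 z.2))⟩)

/-- `H¹_{S'} → Ẽ`. -/
def α : Hmid (d0 S' N hN') (d1 S' N hN') →ₗ[k] Etil S S' N :=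
  Submodule.liftQ _ (α₀ (S := S) N hN') (fun z hz => by
    rw [Submodule.mem_comap] at hz
    obtain ⟨m, hm⟩ := hz
    rw [LinearMap.mem_ker]
    show Submodule.Quotient.mk _ = 0
    rw [Submodule.Quotient.mk_eq_zero, Submodule.mem_comap]
    show IsLevelConstantS₁ S ((z : ↥(levelCochainsS₁ S' N)) : _root_.Fermat.Agent.S56.GQ → N)
    have h1 : ((z : ↥(levelCochainsS₁ S' N)) : _root_.Fermat.Agent.S56.GQ → N) = dZero N m :=
      (congrArg Subtype.val hm).symm
    rw [h1]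
    exact isLevelConstantS₁_dZero N hN m)

theorem α_mk (f : _root_.Fermat.Agent.S56.GQ → N) (hf : IsLevelConstantS₁ S' f) (hd : dOne N f = 0) :
    α N hN hN' (mkH1 N S' hN' f hf hd) = mkE N f hf (levelConst₂_of_eq_zero N S _ hd) := rfl

/-- `preE → H²_S`. -/
def β₀ : ↥(preE S S' N) →ₗ[k] Hmid (d1 S N hN) (d2 S N) :=
  (Hmid.mk _ _) ∘ₗ
    LinearMap.codRestrict (LinearMap.ker (d2 S N))
      (LinearMap.codRestrict (levelCochainsS₂ S N)
        ((d₁₂ N).hom ∘ₗ (preE S S' N).subtype) (fun z => z.2.2))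
      (fun z => LinearMap.mem_ker.2 (dTwo_dOne N _))

/-- `Ẽ → H²_S`. -/
def β : Etil S S' N →ₗ[k] Hmid (d1 S N hN) (d2 S N) :=
  Submodule.liftQ _ (β₀ (S' := S') N hN) (fun z hz => by
    rw [Submodule.mem_comap] at hz
    rw [LinearMap.mem_ker]
    show Hmid.mk _ _ _ = 0
    rw [Hmid.mk_eq_zero_iff]
    exact ⟨⟨_, hz⟩, rfl⟩)

theorem β_mk (f : _root_.Fermat.Agent.S56.GQ → N) (hf : IsLevelConstantS₁ S' f) (hd : IsLevelConstantS₂ S (dOne N f)) :
    β N hN (mkE N f hf hd) = mkH2 N S hN (dOne N f) hd (dTwo_dOne N f) := rfl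

/-- `ker d²_{S'} → Cok`. -/
def π₀ : ↥(LinearMap.ker (d2 S' N)) →ₗ[k] Cok2 S S' N :=
  (Submodule.mkQ _) ∘ₗ (equivZ2 S' N : ↥(LinearMap.ker (d2 S' N)) →ₗ[k] ↥(levelCocyclesS₂ S' N))

/-- `H²_{S'} → Cok`. -/
def π : Hmid (d1 S' N hN') (d2 S' N) →ₗ[k] Cok2 S S' N :=
  Submodule.liftQ _ (π₀ (S := S) N) (fun z hz => by
    rw [Submodule.mem_comap] at hz
    obtain ⟨f, hf⟩ := hz
    rw [LinearMap.mem_ker]
    show Submodule.Quotient.mk _ = 0
    rw [Submodule.Quotient.mk_eq_zero, Submodule.mem_comap]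
    show ((z : ↥(levelCochainsS₂ S' N)) : _root_.Fermat.Agent.S56.GQ × _root_.Fermat.Agent.S56.GQ → N) ∈ imZ2 S S' N
    refine Submodule.mem_sup_left ((mem_levelCoboundariesS₂_iff S' N _).2 ⟨f, f.2, ?_⟩)
    exact congrArg Subtype.val hf)

theorem π_mk (a : _root_.Fermat.Agent.S56.GQ × _root_.Fermat.Agent.S56.GQ → N) (ha : IsLevelConstantS₂ S' a) (hd : dTwo N a = 0) :
    π N hN' (mkH2 N S' hN' a ha hd) = mkC (S := S) N a ha hd := rfl

end maps


/-! ### Exactness -/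

section exact

theorem lc1_sub (T : Finset Nat.Primes) {f g : _root_.Fermat.Agent.S56.GQ → N} (hf : IsLevelConstantS₁ T f)
    (hg : IsLevelConstantS₁ T g) : IsLevelConstantS₁ T (f - g) :=
  (levelCochainsS₁ T N).sub_mem hf hg

theorem lc1_add (T : Finset Nat.Primes) {f g : _root_.Fermat.Agent.S56.GQ → N} (hf : IsLevelConstantS₁ T f)
    (hg : IsLevelConstantS₁ T g) : IsLevelConstantS₁ T (f + g) :=
  (levelCochainsS₁ T N).add_mem hf hg

theorem lc1_neg (T : Finset Nat.Primes) {f : _root_.Fermat.Agent.S56.GQ → N} (hf : IsLevelConstantS₁ T f) :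
    IsLevelConstantS₁ T (- f) :=
  (levelCochainsS₁ T N).neg_mem hf

theorem lc2_sub (T : Finset Nat.Primes) {f g : _root_.Fermat.Agent.S56.GQ × _root_.Fermat.Agent.S56.GQ → N} (hf : IsLevelConstantS₂ T f)
    (hg : IsLevelConstantS₂ T g) : IsLevelConstantS₂ T (f - g) :=
  (levelCochainsS₂ T N).sub_mem hf hg

theorem mkE_eq_mkE (f f' : _root_.Fermat.Agent.S56.GQ → N) (hf : IsLevelConstantS₁ S' f)
    (hd : IsLevelConstantS₂ S (dOne N f)) (hf' : IsLevelConstantS₁ S' f')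
    (hd' : IsLevelConstantS₂ S (dOne N f')) (h : IsLevelConstantS₁ S (f - f')) :
    mkE N f hf hd = mkE N f' hf' hd' := by
  unfold mkE
  rw [Submodule.Quotient.eq, Submodule.mem_comap]
  exact h

theorem mkH2_eq_mkH2 (T : Finset Nat.Primes) (hT : Lev T N) (a a' : _root_.Fermat.Agent.S56.GQ × _root_.Fermat.Agent.S56.GQ → N)
    (ha : IsLevelConstantS₂ T a) (hd : dTwo N a = 0) (ha' : IsLevelConstantS₂ T a')
    (hd' : dTwo N a' = 0) (f : _root_.Fermat.Agent.S56.GQ → N) (hf : IsLevelConstantS₁ T f) (hfa : dOne N f = a - a') :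
    mkH2 N T hT a ha hd = mkH2 N T hT a' ha' hd' := by
  unfold mkH2
  rw [Hmid.mk_eq_mk_iff]
  exact ⟨⟨f, hf⟩, Subtype.ext hfa⟩

theorem a1_injective : Function.Injective (a1 N hSS hN hN') := by
  rw [injective_iff_map_eq_zero]
  intro u hu
  obtain ⟨f, hf, hd, rfl⟩ := exists_mkH1 N S hN u
  rw [a1_mk, mkH1_eq_zero_iff] at hu
  exact (mkH1_eq_zero_iff N S hN f hf hd).2 hu

theorem exact_H1 (v : Hmid (d0 S' N hN') (d1 S' N hN')) :
    α N hN hN' v = 0 ↔ ∃ u, a1 N hSS hN hN' u = v := by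
  obtain ⟨f, hf, hd, rfl⟩ := exists_mkH1 N S' hN' v
  rw [α_mk, mkE_eq_zero_iff]
  constructor
  · intro h
    exact ⟨mkH1 N S hN f h hd, a1_mk N hSS hN hN' f h hd⟩
  · rintro ⟨u, hu⟩
    obtain ⟨g, hg, hdg, rfl⟩ := exists_mkH1 N S hN u
    rw [a1_mk] at hu
    have h0 : mkH1 N S' hN' (f - g) (lc1_sub N S' hf (hg.mono hSS))
        (by rw [dOne_sub, hd, hdg, sub_self]) = 0 := by
      have h1 : mkH1 N S' hN' (f - g) (lc1_sub N S' hf (hg.mono hSS))
          (by rw [dOne_sub, hd, hdg, sub_self])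
          = mkH1 N S' hN' f hf hd - mkH1 N S' hN' g (hg.mono hSS) hdg := rfl
      rw [h1, hu, sub_self]
    obtain ⟨m, hm⟩ := (mkH1_eq_zero_iff N S' hN' _ _ _).1 h0
    have hfg : f = dZero N m + g := by rw [hm]; abel
    rw [hfg]
    exact lc1_add N S (isLevelConstantS₁_dZero N hN m) hg

include hSS in
theorem exact_E (e : Etil S S' N) :
    β N hN e = 0 ↔ ∃ v, α N hN hN' v = e := by
  obtain ⟨f, hf, hd, rfl⟩ := exists_mkE N e
  rw [β_mk, mkH2_eq_zero_iff]
  constructor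
  · rintro ⟨g, hg, hgf⟩
    refine ⟨mkH1 N S' hN' (f - g) (lc1_sub N S' hf (hg.mono hSS))
      (by rw [dOne_sub, hgf, sub_self]), ?_⟩
    rw [α_mk]
    refine mkE_eq_mkE N _ _ _ _ _ _ ?_
    have : f - g - f = - g := by abel
    rw [this]
    exact lc1_neg N S hg
  · rintro ⟨v, hv⟩
    obtain ⟨g, hg, hdg, rfl⟩ := exists_mkH1 N S' hN' v
    rw [α_mk] at hv
    have h0 : mkE N (f - g) (lc1_sub N S' hf hg)
        (by rw [dOne_sub, hdg, sub_zero]; exact hd) = 0 := by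
      have h1 : mkE N (f - g) (lc1_sub N S' hf hg)
          (by rw [dOne_sub, hdg, sub_zero]; exact hd)
          = mkE N f hf hd - mkE N g hg (levelConst₂_of_eq_zero N S _ hdg) := rfl
      rw [h1, hv, sub_self]
    have h2 := (mkE_eq_zero_iff N _ _ _).1 h0
    exact ⟨f - g, h2, by rw [dOne_sub, hdg, sub_zero]⟩

theorem exact_H2 (h : Hmid (d1 S N hN) (d2 S N)) :
    i2 N hSS hN hN' h = 0 ↔ ∃ e, β (S' := S') N hN e = h := by
  obtain ⟨a, ha, hd, rfl⟩ := exists_mkH2 N S hN h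
  rw [i2_mk, mkH2_eq_zero_iff]
  constructor
  · rintro ⟨f, hf, hfa⟩
    refine ⟨mkE N f hf (by rw [hfa]; exact ha), ?_⟩
    rw [β_mk]
    refine mkH2_eq_mkH2 N S hN _ _ _ _ _ _ 0 (isLevelConstantS₁_const S (0 : N)) ?_
    rw [hfa, sub_self]
    exact dOne_zero N
  · rintro ⟨e, he⟩
    obtain ⟨f, hf, hdf, rfl⟩ := exists_mkE N e
    rw [β_mk] at he
    have h0 : mkH2 N S hN (dOne N f - a) (lc2_sub N S hdf ha)
        (by rw [dTwo_sub, dTwo_dOne, hd, sub_self]) = 0 := by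
      have h1 : mkH2 N S hN (dOne N f - a) (lc2_sub N S hdf ha)
          (by rw [dTwo_sub, dTwo_dOne, hd, sub_self])
          = mkH2 N S hN (dOne N f) hdf (dTwo_dOne N f) - mkH2 N S hN a ha hd := rfl
      rw [h1, he, sub_self]
    obtain ⟨g, hg, hga⟩ := (mkH2_eq_zero_iff N S hN _ _ _).1 h0
    refine ⟨f - g, lc1_sub N S' hf (hg.mono hSS), ?_⟩
    rw [dOne_sub, hga]
    abel

theorem exact_H2' (h' : Hmid (d1 S' N hN') (d2 S' N)) :
    π (S := S) N hN' h' = 0 ↔ ∃ h, i2 N hSS hN hN' h = h' := by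
  obtain ⟨a, ha, hd, rfl⟩ := exists_mkH2 N S' hN' h'
  rw [π_mk, mkC_eq_zero_iff]
  constructor
  · rintro ⟨f, b, hf, hb, hdb, rfl⟩
    refine ⟨mkH2 N S hN b hb hdb, ?_⟩
    rw [i2_mk]
    refine mkH2_eq_mkH2 N S' hN' _ _ _ _ _ _ (- f) (lc1_neg N S' hf) ?_
    have h1 : dOne N (- f) = - dOne N f := by
      have := dOne_sub N 0 f
      rw [zero_sub, dOne_zero, zero_sub] at this
      exact this
    rw [h1]
    abel
  · rintro ⟨h, hh⟩
    obtain ⟨b, hb, hdb, rfl⟩ := exists_mkH2 N S hN h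
    rw [i2_mk] at hh
    have h0 : mkH2 N S' hN' (a - b) (lc2_sub N S' ha (hb.mono hSS))
        (by rw [dTwo_sub, hd, hdb, sub_self]) = 0 := by
      have h1 : mkH2 N S' hN' (a - b) (lc2_sub N S' ha (hb.mono hSS))
          (by rw [dTwo_sub, hd, hdb, sub_self])
          = mkH2 N S' hN' a ha hd - mkH2 N S' hN' b (hb.mono hSS) hdb := rfl
      rw [h1, hh, sub_self]
    obtain ⟨f, hf, hfa⟩ := (mkH2_eq_zero_iff N S' hN' _ _ _).1 h0
    exact ⟨f, b, hf, hb, hdb, by rw [hfa]; abel⟩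

theorem π_surjective : Function.Surjective (π (S := S) N hN') := by
  intro x
  obtain ⟨a, ha, hd, rfl⟩ := exists_mkC N x
  exact ⟨mkH2 N S' hN' a ha hd, π_mk N hN' a ha hd⟩

end exact


/-! ### The count -/

theorem count_aux (x1 x2 x3 x4 x5 x6 y1 y2 y3 y4 y5 X1 X2 X3 X4 : ℕ) (e1 : x1 = y1 + y2)
    (e2 : x5 = y2 + y3) (e3 : x3 = y3 + y4) (e4 : x4 = y4 + y5) (r1 : y1 = x2) (r5 : y5 = x6)
    (g1 : x1 = X1) (g2 : x2 = X2) (g3 : x3 = X3) (g4 : x4 = X4) :
    X1 + X3 + x6 = X2 + X4 + x5 := by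
  omega

/-- **Package DA.** -/
theorem stmt_DA : Stmt_DA := by
  intro k _ S S' N hSS hN hf1 hf2 hf2' hfE
  haveI := hf1
  haveI := hf2
  haveI := hf2'
  haveI := hfE
  have hN' : Lev S' N := by
    obtain ⟨F, hF, hfix⟩ := hN
    exact ⟨F, hF.mono hSS, hfix⟩
  haveI : Module.Finite k (Hmid (d0 S' N hN') (d1 S' N hN')) :=
    Module.Finite.equiv (equivH1 S' N hN').symm
  haveI : Module.Finite k (Hmid (d1 S N hN) (d2 S N)) :=
    Module.Finite.equiv (equivH2 S N hN).symm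
  haveI : Module.Finite k (Hmid (d1 S' N hN') (d2 S' N)) :=
    Module.Finite.equiv (equivH2 S' N hN').symm
  have e1 := finrank_eq_of_exact (a1 N hSS hN hN') (α N hN hN') (exact_H1 N hSS hN hN')
  have e2 := finrank_eq_of_exact (α N hN hN') (β (S' := S') N hN) (exact_E N hSS hN hN')
  have e3 := finrank_eq_of_exact (β (S' := S') N hN) (i2 N hSS hN hN') (exact_H2 N hSS hN hN')
  have e4 := finrank_eq_of_exact (i2 N hSS hN hN') (π (S := S) N hN') (exact_H2' N hSS hN hN')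
  have r1 := finrank_range_of_injective (a1 N hSS hN hN') (a1_injective N hSS hN hN')
  have r5 : finrank k (LinearMap.range (π (S := S) N hN')) = finrank k (Cok2 S S' N) := by
    rw [LinearMap.range_eq_top.2 (π_surjective N hN'), finrank_top]
  exact count_aux _ _ _ _ _ _ _ _ _ _ _ _ _ _ _ e1 e2 e3 e4 r1 r5
    (finrank_H1 S' N hN') (finrank_H1 S N hN) (finrank_H2 S N hN) (finrank_H2 S' N hN')

end Fermat.Agent.S56.EC.DESC.H54

end

end
-- ==== END Fermat.Agent.S56.EC.H54_DescDA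

-- ==== BEGIN Fermat.Agent.S56.EC.H54_Good
section

set_option autoImplicit false
set_option linter.unusedSectionVars false
set_option linter.style.haveILetI false
set_option linter.unusedVariables false

noncomputable section

namespace Fermat.Agent.S56.EC.H54

open CategoryTheory groupCohomology ExtCitation Module Fermat.Agent.S56

/-! ### `sha₁` unpacked -/

theorem mem_sha_iff {k : Type} [Field k] (T : Finset Nat.Primes) (A : Rep.{0} k GQ) (x : H1 A) :
    x ∈ sha₁ T A ↔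
      x ∈ continuousH1S T A ∧ resInf A x = 0 ∧ ∀ q ∈ T, resAt A q x = 0 := by
  unfold sha₁
  rw [Submodule.mem_inf, LinearMap.mem_ker]
  constructor
  · rintro ⟨h1, h2⟩
    refine ⟨h1, ?_, fun q hq => ?_⟩
    · exact congrFun h2 (Sum.inl ())
    · exact congrFun h2 (Sum.inr ⟨q, hq⟩)
  · rintro ⟨h1, h2, h3⟩
    refine ⟨h1, funext fun v => ?_⟩
    rcases v with u | q
    · exact h2
    · exact h3 q.1 q.2

section good

variable (p : ℕ) [Fact p.Prime] (L : IntermediateField ℚ (AlgebraicClosure ℚ))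
  [Normal ℚ L] [FiniteDimensional ℚ L]

/-- `Ш¹_T(P')` is antitone in `T ⊇ S`. -/
theorem sha_antitone {S : Finset Nat.Primes} (hL : IsGalLevel p S L) {T T' : Finset Nat.Primes}
    (hST : S ⊆ T) (hTT' : T ⊆ T') : sha₁ T' (PD p L) ≤ sha₁ T (PD p L) := by
  haveI := pd_finiteDimensional p L
  intro x hx
  obtain ⟨h1, h2, h3⟩ := (mem_sha_iff T' _ x).1 hx
  refine (mem_sha_iff T _ x).2 ⟨?_, h2, fun q hq => h3 q (hTT' hq)⟩
  exact H13.stmt_unr_of_res_zero (ZMod p) (PD p L) (pd_smooth p L hL.2) T T' hTT'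
    (fun q _ hq => pd_unram p L (hL.1.mono hST) hL.2 q hq) x h1 (fun q hq _ => h3 q hq)

/-- A nonzero level-`T` class of `P'` is not locally trivial at some prime outside `T`. -/
theorem exists_prime_res_ne_zero {S : Finset Nat.Primes} (hL : IsGalLevel p S L)
    (T : Finset Nat.Primes) (x : H1 (PD p L)) (hx : x ∈ continuousH1S T (PD p L)) (hx0 : x ≠ 0) :
    ∃ ℓ : Nat.Primes, ℓ ∉ T ∧ resAt (PD p L) ℓ x ≠ 0 := by
  obtain ⟨c, ⟨F, hF, hFc⟩, rfl⟩ := (mem_continuousH1S_iff T _ x).1 hx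
  haveI : FiniteDimensional ℚ F := hF.1
  -- the cocycle does not vanish on `G_L`
  have hσ : ∃ σ ∈ L.fixingSubgroup, c σ ≠ 0 := by
    by_contra hcon
    have hcon' : ∀ s ∈ L.fixingSubgroup, c s = 0 := fun s hs => by
      by_contra h
      exact hcon ⟨s, hs, h⟩
    obtain ⟨m, hm⟩ := coboundary_of_vanish p L c hcon'
    apply hx0
    rw [H1π_eq_zero_iff]
    exact ⟨m, funext fun g => (hm g).symm⟩
  obtain ⟨σ, hσL, hσ0⟩ := hσ
  have hF'fin : FiniteDimensional ℚ (F ⊔ L : IntermediateField ℚ (AlgebraicClosure ℚ)) :=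
    inferInstance
  have hM : ∀ s ∈ (F ⊔ L).fixingSubgroup, (PD p L).ρ s = 1 := fun s hs =>
    pd_ρ_eq_one p L hL.2 s (IntermediateField.fixingSubgroup_antitone le_sup_right hs)
  have hc : ∀ g s : GQ, s ∈ (F ⊔ L).fixingSubgroup → c (g * s) = c g := fun g s hs =>
    hFc g s (IntermediateField.fixingSubgroup_antitone le_sup_left hs)
  obtain ⟨ℓ, A, φ, j, j', hℓ, hℓT, hA, hφ, h1, h2⟩ :=
    Fermat.Agent.Lib.FrobDensity.H47.stmt_FD2 (T.image fun q : Nat.Primes => (q : ℕ))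
      (F ⊔ L) hF'fin σ
  refine ⟨⟨ℓ, hℓ⟩, fun h => hℓT (Finset.mem_image.2 ⟨_, h, rfl⟩), fun h0 => ?_⟩
  obtain ⟨m, hm⟩ := TWS.H13.loc_coboundary_of_pow (PD p L) (F ⊔ L) hM c hc ⟨ℓ, hℓ⟩ A hA φ
    hφ.mem_decompositionSubgroup h0 σ j h1
  apply hσ0
  rw [hm, pd_ρ_eq_one p L hL.2 σ hσL]
  exact sub_self m

/-- Enlarging `T`, `Ш¹_T(P')` becomes zero. -/
theorem exists_sha_eq_bot {S : Finset Nat.Primes} (hL : IsGalLevel p S L) :
    ∀ (n : ℕ) (T : Finset Nat.Primes), S ⊆ T → finrank (ZMod p) (sha₁ T (PD p L)) ≤ n →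
      ∃ T' : Finset Nat.Primes, T ⊆ T' ∧ sha₁ T' (PD p L) = ⊥ := by
  haveI := pd_finiteDimensional p L
  have hfin : ∀ T : Finset Nat.Primes, Module.Finite (ZMod p) (continuousH1S T (PD p L)) :=
    fun T => H92.stmt_fin_glob (ZMod p) (PD p L) (pd_smooth p L hL.2) T
  have hfinsha : ∀ T : Finset Nat.Primes, Module.Finite (ZMod p) (sha₁ T (PD p L)) := by
    intro T
    haveI := hfin T
    exact Submodule.finiteDimensional_of_le (inf_le_left : sha₁ T (PD p L) ≤ continuousH1S T _)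
  intro n
  induction n with
  | zero =>
    intro T hST hn
    haveI := hfinsha T
    exact ⟨T, le_rfl, Submodule.finrank_eq_zero.1 (Nat.le_zero.1 hn)⟩
  | succ n ih =>
    intro T hST hn
    by_cases hbot : sha₁ T (PD p L) = ⊥
    · exact ⟨T, le_rfl, hbot⟩
    obtain ⟨x, hx, hx0⟩ := (Submodule.ne_bot_iff _).1 hbot
    obtain ⟨ℓ, hℓT, hℓ⟩ := exists_prime_res_ne_zero p L hL T x ((mem_sha_iff T _ x).1 hx).1 hx0
    have hTT' : T ⊆ insert ℓ T := Finset.subset_insert ℓ T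
    have hle : sha₁ (insert ℓ T) (PD p L) ≤ sha₁ T (PD p L) := sha_antitone p L hL hST hTT'
    have hlt : sha₁ (insert ℓ T) (PD p L) < sha₁ T (PD p L) := by
      refine lt_of_le_of_ne hle fun heq => ?_
      rw [← heq] at hx
      exact hℓ (((mem_sha_iff _ _ x).1 hx).2.2 ℓ (Finset.mem_insert_self ℓ T))
    haveI := hfinsha T
    have hrk := Submodule.finrank_lt_finrank_of_lt hlt
    obtain ⟨T', hT', hsha⟩ := ih (insert ℓ T) (hST.trans hTT') (by omega)
    exact ⟨T', hTT'.trans hT', hsha⟩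

end good

/-- **Package GOOD.** -/
theorem stmt_GOOD : Stmt_GOOD := by
  intro p _ hp2 S hpS L _ _ hL
  haveI hNF : NumberField ↥L := { }
  obtain ⟨T', hT', hsha⟩ := exists_sha_eq_bot p L hL
    (finrank (ZMod p) (sha₁ (S ∪ S55.CFT.H56.clSet ↥L) (PD p L)))
    (S ∪ S55.CFT.H56.clSet ↥L) Finset.subset_union_left le_rfl
  refine ⟨T', Finset.subset_union_left.trans hT', ⟨hL.1.mono (Finset.subset_union_left.trans hT'),
    hL.2⟩, ?_, hsha⟩
  intro hNF'
  exact S55.CFT.H56.clTrivial_of_clSet_subset ↥L T' (Finset.subset_union_right.trans hT')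

end Fermat.Agent.S56.EC.H54

end

end
-- ==== END Fermat.Agent.S56.EC.H54_Good

-- ==== BEGIN Fermat.Agent.S56.EC.H64_PT2ex
section

set_option autoImplicit false

open CategoryTheory Module groupCohomology ExtCitation

noncomputable section

namespace Fermat.Agent.S56.EC.H64

open Fermat.Agent.S55 Fermat.Agent.S56 Fermat.Agent.S56.GWC Fermat.Agent.S56.EC

/-- Over `𝔽_p`, `cycloK` is `cycloChar`. -/
lemma cycloK_zmod (p : ℕ) [Fact p.Prime] : cycloK p (ZMod p) = cycloChar p := by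
  ext g
  show (ZMod.castHom (dvd_refl p) (ZMod p)) ((cycloChar p g : (ZMod p)ˣ) : ZMod p) = _
  rw [ZMod.castHom_self]
  rfl

section card

variable {p : ℕ} [Fact p.Prime]

/-- `#V = p ^ dim V` for a finite `𝔽_p`-vector space. -/
lemma card_eq_pow (V : Type) [AddCommGroup V] [Module (ZMod p) V] [Finite V] :
    Nat.card V = p ^ finrank (ZMod p) V := by
  haveI : Module.Finite (ZMod p) V := Module.Finite.of_finite
  rw [Module.natCard_eq_pow_finrank (K := ZMod p) (V := V), Nat.card_zmod]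

end card

set_option maxHeartbeats 1600000 in
/-- The counting identity behind PT2ub, PT2lb and FIN2. -/
theorem pt2_count_gen (hB : GWC.Stmt_B1) (p : ℕ) [Fact p.Prime] (hp2 : p ≠ 2)
    (S : Finset Nat.Primes) (hpS : pPrime p ∈ S)
    (N : Rep.{0} (ZMod p) _root_.Fermat.Agent.S56.GQ) [FiniteDimensional (ZMod p) N] (hlev : S55.Lev S N)
    (χ' : _root_.Fermat.Agent.S56.GQ →* (ZMod p)ˣ) (hχ' : χ' = cycloChar p) :
    Module.Finite (ZMod p) (continuousH2S S N) ∧
      finrank (ZMod p) (continuousH2S S N) + finrank (ZMod p) (N.dualTwist χ').ρ.invariants =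
        finrank (ZMod p) (sha₁ S (N.dualTwist χ')) +
          ∑ q ∈ S, finrank (ZMod p) (locRep (N.dualTwist χ') q).ρ.invariants := by
  subst hχ'
  have hχ : LevChar S (cycloChar p) := H48.stmt_levChar p S hpS
  set X : Rep.{0} (ZMod p) _root_.Fermat.Agent.S56.GQ := Md (cycloChar p) N with hX
  have hXl : Lev S X := lev_Md N hχ hlev
  haveI : FiniteDimensional (ZMod p) X := by
    show FiniteDimensional (ZMod p) (Module.Dual (ZMod p) N)
    infer_instance
  obtain ⟨tr, hE, hM⟩ := hB p hp2 S N hpS hlev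
  have h2 : (2 : ZMod p) ≠ 0 := H48.two_ne_zero_zmod p hp2
  haveI : Finite X := Module.finite_of_finite (ZMod p)
  have hne : S.Nonempty := ⟨_, hpS⟩
  have hcone := GWC.H01.stmt_CONE1 (ZMod p) h2 S X inferInstance hne
  have hsm : IsSmoothRep X := GWC.H64.isSmoothRep_of_lev hXl
  haveI : Module.Finite (ZMod p) (continuousH1S S X) := H92.stmt_fin_glob (ZMod p) X hsm S
  haveI : Finite (continuousH1S S X) := Module.finite_of_finite (ZMod p)
  haveI : Finite (sha₁ S X) :=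
    Finite.of_injective (Submodule.inclusion (inf_le_left : sha₁ S X ≤ continuousH1S S X))
      (Submodule.inclusion_injective _)
  haveI hfq : ∀ q : Nat.Primes, Finite (locRep X q).ρ.invariants := fun q => by
    haveI : Finite (locRep X q) := (inferInstance : Finite X)
    infer_instance
  have hpos : Nat.card (sha₁ S X) * ∏ q ∈ S, Nat.card (locRep X q).ρ.invariants ≠ 0 :=
    mul_ne_zero Nat.card_pos.ne' (Finset.prod_ne_zero_iff.2 fun q _ => Nat.card_pos.ne')
  have hc1 : cardH1c S X ≠ 0 := by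
    intro h
    rw [h, zero_mul] at hcone
    exact hpos hcone.symm
  obtain ⟨hfin, hcard⟩ :=
    GWC.H46.stmt_DUALCOUNT (ZMod p) S (cycloChar p) tr hχ N hlev hE hM hc1
  haveI := hfin
  refine ⟨Module.Finite.of_finite, ?_⟩
  -- cardinalities to dimensions
  have hp1 : 1 < p := (Fact.out : p.Prime).one_lt
  have e : Nat.card (continuousH2S S N) * Nat.card X.ρ.invariants =
      Nat.card (sha₁ S X) * ∏ q ∈ S, Nat.card (locRep X q).ρ.invariants := by
    rw [hcard, hcone]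
  rw [card_eq_pow (p := p) (continuousH2S S N), card_eq_pow (p := p) X.ρ.invariants,
    card_eq_pow (p := p) (sha₁ S X),
    Finset.prod_congr rfl (fun q _ => card_eq_pow (p := p) (locRep X q).ρ.invariants),
    Finset.prod_pow_eq_pow_sum, ← pow_add, ← pow_add] at e
  exact Nat.pow_right_injective hp1 e

/-- The counting identity in the vocabulary of `S56`. -/
theorem pt2_count (hB : GWC.Stmt_B1) (p : ℕ) [Fact p.Prime] (hp2 : p ≠ 2)
    (S : Finset Nat.Primes) (hpS : pPrime p ∈ S)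
    (N : Rep.{0} (ZMod p) _root_.Fermat.Agent.S56.GQ) [FiniteDimensional (ZMod p) N] (hlev : S55.Lev S N) :
    Module.Finite (ZMod p) (continuousH2S S N) ∧
      finrank (ZMod p) (continuousH2S S N) + finrank (ZMod p) (tateDual p N).ρ.invariants =
        finrank (ZMod p) (sha₁ S (tateDual p N)) +
          ∑ q ∈ S, finrank (ZMod p) (locRep (tateDual p N) q).ρ.invariants :=
  pt2_count_gen hB p hp2 S hpS N hlev (cycloK p (ZMod p)) (cycloK_zmod p)

/-- **PT2ub**. -/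
theorem stmt_PT2ub_of (hB : GWC.Stmt_B1) : Stmt_PT2ub := by
  intro p _ hp2 S hpS N _ hlev
  exact le_of_eq (pt2_count hB p hp2 S hpS N hlev).2

/-- **PT2lb**. -/
theorem stmt_PT2lb_of (hB : GWC.Stmt_B1) : Stmt_PT2lb := by
  intro p _ hp2 S hpS N _ hlev
  exact le_of_eq (pt2_count hB p hp2 S hpS N hlev).2.symm

/-- **FIN2**. -/
theorem stmt_fin2p_of (hB : GWC.Stmt_B1) : Stmt_fin2p := by
  intro p _ hp2 S hpS N _ hlev
  exact (pt2_count hB p hp2 S hpS N hlev).1

end Fermat.Agent.S56.EC.H64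

end

end
-- ==== END Fermat.Agent.S56.EC.H64_PT2ex

-- ==== BEGIN Fermat.Agent.S56.EC.H92_DescAsm
section

set_option autoImplicit false
set_option linter.style.haveILetI false

/-!
# EC / DESC: the assembly (helper92)

* `lev_mono`           : `Lev S N → S ⊆ S' → Lev S' N`;
* `stmt_DESC1_of`      : `Stmt_DA → Stmt_DB → Stmt_DC → Stmt_fin2p → Stmt_DESC1`;
* `stmt_DESC_of_DESC1` : `Stmt_DESC1 → Stmt_DESC` (induction on `S' \ S`);
* `stmt_DESC_of`       : `Stmt_DA → Stmt_DB → Stmt_DC → Stmt_fin2p → Stmt_DESC`.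
-/

noncomputable section

namespace Fermat.Agent.S56.EC.DESC.H92

open CategoryTheory groupCohomology ExtCitation Module Fermat.Agent.S56.EC
  Fermat.Agent.S56.EC.DESC

theorem lev_mono {k : Type} [Field k] {S S' : Finset Nat.Primes} (h : S ⊆ S')
    {N : Rep.{0} k GQ} (hN : S55.Lev S N) : S55.Lev S' N := by
  obtain ⟨F, hF, hfix⟩ := hN
  exact ⟨F, hF.mono h, hfix⟩

theorem smooth_of_lev' {k : Type} [Field k] {S : Finset Nat.Primes} {M : Rep.{0} k GQ}
    (h : S55.Lev S M) : IsSmoothRep M := by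
  obtain ⟨F, hF, hfix⟩ := h
  exact fun m => ⟨F, hF.1, fun s hs => hfix s hs m⟩

/-- The step `S → insert q S` from the three packages. -/
theorem stmt_DESC1_of (hA : Stmt_DA) (hB : Stmt_DB) (hC : Stmt_DC) (hF2 : Stmt_fin2p) :
    Stmt_DESC1 := by
  intro p _ hp2 S q hpS hqS N _ hN
  have hsub : S ⊆ insert q S := Finset.subset_insert q S
  have hN' : S55.Lev (insert q S) N := lev_mono hsub hN
  have hpS' : pPrime p ∈ insert q S := hsub hpS
  have hsm : IsSmoothRep N := smooth_of_lev' hN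
  have f1' : Module.Finite (ZMod p) (continuousH1S (insert q S) N) :=
    Fermat.Agent.S56.H92.stmt_fin_glob (ZMod p) N hsm (insert q S)
  have f2 : Module.Finite (ZMod p) (continuousH2S S N) := hF2 p hp2 S hpS N hN
  have f2' : Module.Finite (ZMod p) (continuousH2S (insert q S) N) :=
    hF2 p hp2 (insert q S) hpS' N hN'
  obtain ⟨fE, hE⟩ := hB p S q hpS hqS N hN
  have hCk := hC p hp2 S q hpS hqS N hN f2'
  have hcount := hA (ZMod p) S (insert q S) N hsub hN f1' f2 f2' fE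
  unfold ecDefect
  have key : (finrank (ZMod p) (continuousH1S (insert q S) N) : ℤ)
      + finrank (ZMod p) (continuousH2S S N)
      ≤ finrank (ZMod p) (continuousH1S S N) + finrank (ZMod p) (continuousH2S (insert q S) N) := by
    have : finrank (ZMod p) (continuousH1S (insert q S) N) + finrank (ZMod p) (continuousH2S S N)
      ≤ finrank (ZMod p) (continuousH1S S N)
        + finrank (ZMod p) (continuousH2S (insert q S) N) := by
      omega
    exact_mod_cast this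
  linarith

/-- Induction on the set of new primes. -/
theorem stmt_DESC_of_DESC1 (h1 : Stmt_DESC1) : Stmt_DESC := by
  intro p _ hp2 S S' hpS hSS' N _ hN
  classical
  have key : ∀ T : Finset Nat.Primes, ecDefect (S ∪ T) N ≤ ecDefect S N := by
    intro T
    induction T using Finset.induction_on with
    | empty => rw [Finset.union_empty]
    | insert q T hqT ih =>
      by_cases hq : q ∈ S ∪ T
      · have : S ∪ insert q T = S ∪ T := by
          rw [Finset.union_insert, Finset.insert_eq_of_mem hq]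
        rw [this]
        exact ih
      · have : S ∪ insert q T = insert q (S ∪ T) := Finset.union_insert q S T
        rw [this]
        have hsub : S ⊆ S ∪ T := Finset.subset_union_left
        exact (h1 p hp2 (S ∪ T) q (hsub hpS) hq N (lev_mono hsub hN)).trans ih
  have := key S'
  rwa [Finset.union_eq_right.2 hSS'] at this

theorem stmt_DESC_of (hA : Stmt_DA) (hB : Stmt_DB) (hC : Stmt_DC) (hF2 : Stmt_fin2p) :
    Stmt_DESC :=
  stmt_DESC_of_DESC1 (stmt_DESC1_of hA hB hC hF2)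

end Fermat.Agent.S56.EC.DESC.H92

end

end
-- ==== END Fermat.Agent.S56.EC.H92_DescAsm

-- ==== BEGIN Fermat.Agent.S56.EC.H92_DescLower
section

set_option autoImplicit false
set_option linter.style.haveILetI false
set_option linter.unusedSectionVars false

/-!
# EC / DESC / DB, part 1 (helper92): cochain algebra and level lowering

`f : G_ℚ → N` with `d f` constant modulo a subgroup `H` acting trivially on `N`.
`f₀ = f - f 1` satisfies `f₀ (g h) = f₀ g + g f₀ h`, `f₀ (h g) = f₀ h + f₀ g` (`h ∈ H`).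
Level lowering: if `f` has level `insert q S`, `d f` has level `S`, `N` has level `S`, and
`f = f 1` on one inertia group over `q`, then `f` has level `S`.
-/

noncomputable section

namespace Fermat.Agent.S56.EC.DESC.H92

open CategoryTheory groupCohomology ExtCitation Module Fermat.Agent.S56.EC
  Fermat.Agent.S56.EC.DESC

variable {k : Type} [Field k] (N : Rep.{0} k GQ)

/-- `f₀ = f - f 1`. -/
def nrm (f : GQ → N) : GQ → N := fun g => f g - f 1

lemma nrm_one (f : GQ → N) : nrm N f 1 = 0 := sub_self _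

lemma nrm_add (f f' : GQ → N) (g : GQ) : nrm N (f + f') g = nrm N f g + nrm N f' g := by
  simp only [nrm, Pi.add_apply]; abel

lemma nrm_smul (c : k) (f : GQ → N) (g : GQ) : nrm N (c • f) g = c • nrm N f g := by
  simp only [nrm, Pi.smul_apply, smul_sub]

/-- The hypotheses on `(f, H)`: `H` acts trivially and `d f` is constant modulo `H`. -/
structure Adm (H : Subgroup GQ) (f : GQ → N) : Prop where
  triv : ∀ h ∈ H, ∀ n : N, N.ρ h n = n
  lev : ∀ g g' s s' : GQ, s ∈ H → s' ∈ H →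
    S55.dOne N f (g * s, g' * s') = S55.dOne N f (g, g')

variable {N} {H : Subgroup GQ} {f : GQ → N}

lemma Adm.nrm_mul_right (h : Adm N H f) (g : GQ) {s : GQ} (hs : s ∈ H) :
    nrm N f (g * s) = nrm N f g + N.ρ g (nrm N f s) := by
  have h1 := h.lev g 1 1 s (one_mem H) hs
  simp only [S55.dOne, mul_one, one_mul] at h1
  simp only [nrm, map_sub]
  have h2 : f (g * s) = N.ρ g (f s) + f g - (N.ρ g (f 1) - f g + f g) := by
    rw [← h1]; abel
  rw [h2]; abel

lemma Adm.nrm_mul_left (h : Adm N H f) {s : GQ} (hs : s ∈ H) (g : GQ) :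
    nrm N f (s * g) = nrm N f s + nrm N f g := by
  have h1 := h.lev 1 g s 1 hs (one_mem H)
  simp only [S55.dOne, mul_one, one_mul, map_one, Module.End.one_apply] at h1
  rw [h.triv s hs] at h1
  simp only [nrm]
  have h2 : f (s * g) = f g + f s - (f g - f g + f 1) := by
    rw [← h1]; abel
  rw [h2]; abel

lemma Adm.nrm_pow (h : Adm N H f) {s : GQ} (hs : s ∈ H) (n : ℕ) :
    nrm N f (s ^ n) = n • nrm N f s := by
  induction n with
  | zero => rw [pow_zero, zero_smul]; exact nrm_one N f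
  | succ n ih =>
    rw [pow_succ, h.nrm_mul_left (pow_mem hs n), ih, succ_nsmul]

lemma Adm.nrm_inv (h : Adm N H f) {s : GQ} (hs : s ∈ H) :
    nrm N f s⁻¹ = - nrm N f s := by
  have h1 := h.nrm_mul_left hs s⁻¹
  rw [mul_inv_cancel, nrm_one] at h1
  exact eq_neg_of_add_eq_zero_right h1.symm

lemma Adm.nrm_conj (h : Adm N H f) (g : GQ) {s : GQ} (hs : s ∈ H) (hc : g * s * g⁻¹ ∈ H) :
    nrm N f (g * s * g⁻¹) = N.ρ g (nrm N f s) := by
  have h1 := h.nrm_mul_left hc g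
  rw [inv_mul_cancel_right, h.nrm_mul_right g hs] at h1
  exact (add_right_cancel (h1.symm.trans (add_comm _ _))).symm ▸ rfl

/-- The elements of `H` on which `f₀` vanishes. -/
def zeroSub (h : Adm N H f) : Subgroup GQ where
  carrier := {s | s ∈ H ∧ nrm N f s = 0}
  one_mem' := ⟨one_mem H, nrm_one N f⟩
  mul_mem' := by
    rintro a b ⟨ha, ha0⟩ ⟨hb, hb0⟩
    exact ⟨mul_mem ha hb, by rw [h.nrm_mul_left ha b, ha0, hb0, add_zero]⟩
  inv_mem' := by
    rintro a ⟨ha, ha0⟩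
    exact ⟨inv_mem ha, by rw [h.nrm_inv ha, ha0, neg_zero]⟩

lemma mem_zeroSub (h : Adm N H f) {s : GQ} : s ∈ zeroSub h ↔ s ∈ H ∧ nrm N f s = 0 := Iff.rfl

lemma Adm.apply_mul_of_mem_zeroSub (h : Adm N H f) (g : GQ) {s : GQ} (hs : s ∈ zeroSub h) :
    f (g * s) = f g := by
  have h1 := h.nrm_mul_right g hs.1
  rw [hs.2, map_zero, add_zero] at h1
  simpa [nrm] using h1

/-- `Adm` is inherited by smaller subgroups. -/
lemma Adm.mono (h : Adm N H f) {H' : Subgroup GQ} (hle : H' ≤ H) : Adm N H' f :=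
  ⟨fun s hs => h.triv s (hle hs), fun g g' s s' hs hs' => h.lev g g' s s' (hle hs) (hle hs')⟩

lemma Adm.add {f' : GQ → N} (h : Adm N H f) (h' : Adm N H f') : Adm N H (f + f') :=
  ⟨h.triv, fun g g' s s' hs hs' => by
    rw [S55.dOne_add, Pi.add_apply, Pi.add_apply, h.lev g g' s s' hs hs', h'.lev g g' s s' hs hs']⟩

lemma Adm.smul (c : k) (h : Adm N H f) : Adm N H (c • f) :=
  ⟨h.triv, fun g g' s s' hs hs' => by
    rw [S55.dOne_smul, Pi.smul_apply, Pi.smul_apply, h.lev g g' s s' hs hs']⟩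

/-! ### Level lowering -/

section lower

attribute [local instance] S55.h49_qbar_isAlgebraic S55.h49_qbar_isAlgClosure
  S55.h49_qbar_normal S55.h49_qbar_isGalois

variable {S : Finset Nat.Primes} {q : Nat.Primes}

/-- The admissible pair attached to level fields of `N` and `d f`. -/
lemma adm_of_fields {FN Fd : IntermediateField ℚ (AlgebraicClosure ℚ)}
    (hNtriv : ∀ s ∈ FN.fixingSubgroup, ∀ m : N, N.ρ s m = m)
    (hd : ∀ g g' s s' : GQ, s ∈ Fd.fixingSubgroup → s' ∈ Fd.fixingSubgroup →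
      S55.dOne N f (g * s, g' * s') = S55.dOne N f (g, g')) :
    Adm N (FN ⊔ Fd).fixingSubgroup f :=
  ⟨fun s hs n => hNtriv s (S55.mem_fix_of_le le_sup_left hs) n,
   fun g g' s s' hs hs' => hd g g' s s' (S55.mem_fix_of_le le_sup_right hs)
     (S55.mem_fix_of_le le_sup_right hs')⟩

/-- If `f₀` vanishes on one inertia group over `q`, it vanishes on all of them. -/
lemma Adm.nrm_eq_zero_of_inertia (h : Adm N H f)
    (hH : ∀ A : ValuationSubring (AlgebraicClosure ℚ), A.LiesOverPrime (q : ℕ) →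
      A.inertiaSubgroupIn ℚ ≤ H)
    (A₀ : ValuationSubring (AlgebraicClosure ℚ)) (hA₀ : A₀.LiesOverPrime (q : ℕ))
    (hI : ∀ σ ∈ A₀.inertiaSubgroupIn ℚ, nrm N f σ = 0)
    (A : ValuationSubring (AlgebraicClosure ℚ)) (hA : A.LiesOverPrime (q : ℕ))
    {σ : GQ} (hσ : σ ∈ A.inertiaSubgroupIn ℚ) : nrm N f σ = 0 := by
  obtain ⟨g, hg⟩ := Fermat.Agent.Lib.InertiaConj.exists_conj_mem_inertia (q : ℕ) q.2 A₀ A hA₀ hA
  have ht : g⁻¹ * σ * g ∈ A₀.inertiaSubgroupIn ℚ := (hg σ).1 hσ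
  have e : σ = g * (g⁻¹ * σ * g) * g⁻¹ := by group
  have hc : g * (g⁻¹ * σ * g) * g⁻¹ ∈ H := by
    rw [← e]; exact hH A hA hσ
  rw [e, h.nrm_conj g (hH A₀ hA₀ ht) hc, hI _ ht, map_zero]

/-- **Level lowering.** -/
theorem level_lower (hq : q ∉ S) (hN : S55.Lev S N)
    (hf : IsLevelConstantS₁ (insert q S) f) (hdf : IsLevelConstantS₂ S (S55.dOne N f))
    (A₀ : ValuationSubring (AlgebraicClosure ℚ)) (hA₀ : A₀.LiesOverPrime (q : ℕ))
    (hI : ∀ σ ∈ A₀.inertiaSubgroupIn ℚ, f σ = f 1) :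
    IsLevelConstantS₁ S f := by
  obtain ⟨FN, hFN, hNtriv⟩ := hN
  obtain ⟨Fd, hFd, hd⟩ := hdf
  obtain ⟨Ff, hFf, hfc⟩ := hf
  have hF : (FN ⊔ Fd).IsUnramifiedOutside S := hFN.sup hFd
  have hAdm : Adm N (FN ⊔ Fd).fixingSubgroup f := adm_of_fields hNtriv hd
  have hF' : (Ff ⊔ (FN ⊔ Fd)).IsUnramifiedOutside (insert q S) :=
    hFf.sup (hF.mono (Finset.subset_insert q S))
  haveI : FiniteDimensional ℚ (Ff ⊔ (FN ⊔ Fd) : IntermediateField ℚ (AlgebraicClosure ℚ)) :=
    hF'.1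
  -- inertia over `q` lies in `H`
  have hH : ∀ A : ValuationSubring (AlgebraicClosure ℚ), A.LiesOverPrime (q : ℕ) →
      A.inertiaSubgroupIn ℚ ≤ (FN ⊔ Fd).fixingSubgroup := fun A hA => hF.2 q hq A hA
  have hI0 : ∀ σ ∈ A₀.inertiaSubgroupIn ℚ, nrm N f σ = 0 := fun σ hσ => by
    rw [nrm, hI σ hσ, sub_self]
  -- `U ≤ Z`
  have hUZ : (Ff ⊔ (FN ⊔ Fd)).fixingSubgroup ≤ zeroSub hAdm := by
    intro u hu
    refine ⟨S55.mem_fix_of_le le_sup_right hu, ?_⟩
    have := hfc 1 u (S55.mem_fix_of_le le_sup_left hu)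
    rw [one_mul] at this
    rw [nrm, this, sub_self]
  have hZopen : IsOpen ((zeroSub hAdm : Subgroup GQ) : Set GQ) :=
    Subgroup.isOpen_mono hUZ (IntermediateField.fixingSubgroup_isOpen _)
  have hZclosed : IsClosed ((zeroSub hAdm : Subgroup GQ) : Set GQ) :=
    Subgroup.isClosed_of_isOpen _ hZopen
  have hfix : (IntermediateField.fixedField (zeroSub hAdm)).fixingSubgroup = zeroSub hAdm :=
    InfiniteGalois.fixingSubgroup_fixedField ⟨zeroSub hAdm, hZclosed⟩
  have hle : IntermediateField.fixedField (zeroSub hAdm) ≤ Ff ⊔ (FN ⊔ Fd) := by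
    rw [← InfiniteGalois.fixedField_fixingSubgroup (Ff ⊔ (FN ⊔ Fd))]
    refine (IntermediateField.le_iff_le _ _).2 ?_
    rw [hfix]
    exact hUZ
  refine ⟨IntermediateField.fixedField (zeroSub hAdm), ⟨(hF'.of_le hle).1, ?_⟩, ?_⟩
  · intro q' hq' A hA σ hσ
    rw [hfix]
    by_cases hqq : q' = q
    · subst hqq
      exact ⟨hH A hA hσ, hAdm.nrm_eq_zero_of_inertia hH A₀ hA₀ hI0 A hA hσ⟩
    · have hq'' : q' ∉ insert q S := by
        rw [Finset.mem_insert]
        rintro (h | h)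
        · exact hqq h
        · exact hq' h
      exact hUZ (hF'.2 q' hq'' A hA hσ)
  · intro g s hs
    rw [hfix] at hs
    exact hAdm.apply_mul_of_mem_zeroSub g hs

/-- Conversely, a cochain of level `S` is constant on the inertia groups over `q ∉ S`. -/
theorem apply_eq_of_level (hq : q ∉ S) (hf : IsLevelConstantS₁ S f)
    (A : ValuationSubring (AlgebraicClosure ℚ)) (hA : A.LiesOverPrime (q : ℕ))
    {σ : GQ} (hσ : σ ∈ A.inertiaSubgroupIn ℚ) : f σ = f 1 := by
  obtain ⟨F, hF, hc⟩ := hf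
  have := hc 1 σ (hF.2 q hq A hA hσ)
  rwa [one_mul] at this

end lower

end Fermat.Agent.S56.EC.DESC.H92

end

end
-- ==== END Fermat.Agent.S56.EC.H92_DescLower
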