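-- GENERATED (merged mirror, NOTES/tools/trim/merge3_helper67.py): 6 modules of the originals, bodies verbatim.
import Fermat.Agent.Zm.S56_L13_000
import Fermat.Agent.Zm.S56_L10_000
import Fermat.Agent.Zm.S56_L08_001
import Fermat.Agent.Zm.S56_L07_002
import Fermat.Agent.Zm.S56_L01_003
import Fermat.Agent.Zm.S56_L08_002
import Fermat.Agent.Zm.S56_L09_001
import Fermat.Agent.Zm.S56_L10_001
import Fermat.Agent.Zm.S56_L06_003
import Fermat.Agent.Zm.S56_L04_003
import Fermat.Agent.Zm.S56_L13_002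
import Fermat.Agent.Zm.S56_L04_004

-- ==== BEGIN Fermat.Agent.S55.CFT.GS.H24_AsmTwo
section

set_option autoImplicit false
set_option linter.unusedSectionVars false
set_option linter.unusedVariables false
set_option linter.style.haveILetI false

open CategoryTheory Module groupCohomology ExtCitation

open scoped Pointwise

noncomputable section

namespace Fermat.Agent.S55.CFT.GS.H24

open Fermat.Agent.S55 Fermat.Agent.S55.Top Fermat.Agent.S55.CFT.GS

local notation "Qb" => AlgebraicClosure ℚ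

section lift

variable {p : ℕ} [Fact p.Prime] {S : Finset Nat.Primes} {K : IntermediateField ℚ Qb}

/-- The exponent of a `p`-th root of unity (`0` for other elements). -/
def zpLog (p : ℕ) [Fact p.Prime] (ζ : Qbˣ) (x : Qbˣ) : ZMod p :=
  haveI := Classical.propDecidable (∃ a : ZMod p, ζ ^ a.val = x)
  if h : ∃ a : ZMod p, ζ ^ a.val = x then h.choose else 0

theorem zpLog_spec {ζ : Qbˣ} (hζ : IsPrimitiveRoot ζ p) {x : Qbˣ} (hx : x ^ p = 1) :
    ζ ^ (zpLog p ζ x).val = x := by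
  have h := exists_zp hζ hx
  unfold zpLog
  rw [dif_pos h]
  exact h.choose_spec

/-- A `W`-valued level-`S` cochain has a level-`S` `p`-th root with values in `Ωˣ`. -/
theorem exists_root_lev {b : ↥K.fixingSubgroup → Qbˣ} (hb : IsLevK₁ S K b)
    (hW : ∀ g, InW S p (b g)) :
    ∃ β : ↥K.fixingSubgroup → Qbˣ, IsLevK₁ S K β ∧ (∀ g, InOm S (β g : Qb)) ∧
      ∀ g, β g ^ p = b g :=
  ⟨fun g => rootW S p (b g), hb.comp (rootW S p), fun g => rootW_inOm _,
    fun g => rootW_pow (hW g)⟩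

/-- **LiftMu**: a `p`-torsion datum with vanishing residues comes from `μ_p`. -/
theorem liftMu (hCap : Stmt_RES_Cap) (hp : pPrime p ∈ S) (hK : K.IsUnramifiedOutside S)
    {ζ : Qbˣ} (hζK : (ζ : Qb) ∈ K) (hζ : IsPrimitiveRoot ζ p)
    {c : ↥K.fixingSubgroup × ↥K.fixingSubgroup → Qbˣ} {b : ↥K.fixingSubgroup → Qbˣ}
    (hD : PTorsData S p K c b)
    (hres : ∀ q : Nat.Primes, q ∉ S → ∀ A : ValuationSubring Qb, A.LiesOverPrime (q : ℕ) →
      ResTrivAt p K A (q : ℕ) b) :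
    ∃ (a : ↥K.fixingSubgroup × ↥K.fixingSubgroup → ZMod p) (β : ↥K.fixingSubgroup → Qbˣ),
      IsZ2K S K a ∧ IsLevK₁ S K β ∧ (∀ g, InOm S (β g : Qb)) ∧
      ∀ t, c t = ζ ^ (a t).val * mOne β t := by
  classical
  have hW : ∀ t, InW S p (mOne b t) := fun t => by
    rw [← hD.pow t]
    exact inW_pow (hD.omc t)
  obtain ⟨t, htΩ, htW⟩ := resInj hCap hp hK hD.levb hD.omb hW
    (fun g A hg => resR_stab hres g A hg)
  -- the root `β`
  have hlev : IsLevK₁ S K (fun g : ↥K.fixingSubgroup => b g / (g • t / t)) :=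
    (hD.levb.pair (isLevK₁_bdry htΩ)).comp (fun x : Qbˣ × Qbˣ => x.1 / x.2)
  obtain ⟨β, hβ, hβΩ, hβp⟩ := exists_root_lev hlev htW
  have hdβ : ∀ u, mOne β u ^ p = c u ^ p := by
    intro u
    have e1 : (β ^ p : ↥K.fixingSubgroup → Qbˣ) =
        b / (fun g : ↥K.fixingSubgroup => g • t / t) := by
      funext g
      exact hβp g
    have e2 : mOne (β ^ p) = mOne b := by
      rw [e1, mOne_div, mOne_bdry, div_one]
    have e3 := congrFun (mOne_pow β p) u
    rw [e2] at e3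
    rw [hD.pow u, e3, Pi.pow_apply]
  have hroot : ∀ u, (c u / mOne β u) ^ p = 1 := by
    intro u
    rw [div_pow, hdβ u, div_self']
  have hspec : ∀ u, ζ ^ (zpLog p ζ (c u / mOne β u)).val = c u / mOne β u :=
    fun u => zpLog_spec hζ (hroot u)
  have hβ2 : IsLevK₂ S K (mOne β) := isLevK₂_mOne hK hβ hβΩ
  refine ⟨fun u => zpLog p ζ (c u / mOne β u), β, ⟨?_, ?_⟩, hβ, hβΩ, ?_⟩
  · -- cocycle
    have h1 := mTwo_zp hζ.pow_eq_one (smul_eq_of_mem_K (K := K) hζK)
      (fun u => zpLog p ζ (c u / mOne β u))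
    have h2 : (fun u => ζ ^ (zpLog p ζ (c u / mOne β u)).val) = c / mOne β := by
      funext u
      exact hspec u
    rw [h2, mTwo_div, hD.coc, mTwo_mOne, div_one] at h1
    funext u
    have h3 := congrFun h1 u
    rw [Pi.one_apply] at h3
    have h4 : ζ ^ (tTwo (fun u => zpLog p ζ (c u / mOne β u)) u).val = ζ ^ (0 : ZMod p).val := by
      rw [← h3, zp_zero]
    exact zp_inj hζ h4
  · exact (hD.levc.pair hβ2).comp (fun x : Qbˣ × Qbˣ => zpLog p ζ (x.1 / x.2))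
  · intro u
    show c u = ζ ^ (zpLog p ζ (c u / mOne β u)).val * mOne β u
    rw [hspec u, div_mul_cancel]

end lift

section loc

variable {p : ℕ} [Fact p.Prime] {S : Finset Nat.Primes} {K : IntermediateField ℚ Qb}
  (𝔓 : PlaceSys S K)

/-- `j_w ∘ ρ_w h = h ∘ j_w`. -/
theorem jw_rho (q : ↥S) (w : 𝔓.W q) (h : 𝔓.Γw q w) (x : Qb) :
    haveI : Fact ((q.1 : ℕ)).Prime := ⟨q.1.2⟩
    padicEmbedding (q.1 : ℕ) (𝔓.σ q w ((𝔓.ρw q w h : GQ) x)) =
      glAut q.1 (h : Gl q.1) (padicEmbedding (q.1 : ℕ) (𝔓.σ q w x)) := by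
  haveI : Fact ((q.1 : ℕ)).Prime := ⟨q.1.2⟩
  have h1 := padicEmbedding_localGaloisToGlobal (q.1 : ℕ) (glAut q.1 (h : Gl q.1)) (𝔓.σ q w x)
  have h2 : localGaloisToGlobal (q.1 : ℕ) (glAut q.1 (h : Gl q.1)) (𝔓.σ q w x) =
      rl q.1 h.1 (𝔓.σ q w x) := rfl
  rw [← h1, h2, rl_sigma]

/-- Local triviality is insensitive to global coboundaries. -/
theorem locTrivS_mul_bdry {c : ↥K.fixingSubgroup × ↥K.fixingSubgroup → Qbˣ}
    {β : ↥K.fixingSubgroup → Qbˣ} (hβ : IsLevK₁ S K β) (q : ↥S) (w : 𝔓.W q)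
    (h : LocTrivS 𝔓 q w c) : LocTrivS 𝔓 q w (fun t => c t * mOne β t) := by
  haveI : Fact ((q.1 : ℕ)).Prime := ⟨q.1.2⟩
  obtain ⟨β₀, hβ₀, hlev, hco⟩ := h
  have hγlev : IsLevelConstant₁ (𝔓.rw q w)
      (fun h : 𝔓.Γw q w => padicEmbedding (q.1 : ℕ) (𝔓.σ q w ((β (𝔓.ρw q w h) : Qbˣ) : Qb))) :=
    (isLevelConstant₁_res₁ 𝔓 q w hβ).comp
      (fun x : Qbˣ => padicEmbedding (q.1 : ℕ) (𝔓.σ q w (x : Qb)))
  have hγ0 : ∀ x : Qbˣ, padicEmbedding (q.1 : ℕ) (𝔓.σ q w (x : Qb)) ≠ 0 := by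
    intro x
    exact (map_ne_zero (padicEmbedding (q.1 : ℕ))).2 ((map_ne_zero (𝔓.σ q w)).2 x.ne_zero)
  refine ⟨fun h => β₀ h * padicEmbedding (q.1 : ℕ) (𝔓.σ q w ((β (𝔓.ρw q w h) : Qbˣ) : Qb)),
    fun h => mul_ne_zero (hβ₀ h) (hγ0 _), ?_, ?_⟩
  · obtain ⟨F, hF, h1⟩ := hlev
    obtain ⟨F', hF', h2⟩ := hγlev
    haveI := hF
    haveI := hF'
    refine ⟨F ⊔ F', inferInstance, fun g s hs => ?_⟩
    have e1 := h1 g s (IntermediateField.fixingSubgroup_antitone le_sup_left hs)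
    have e2 := h2 g s (IntermediateField.fixingSubgroup_antitone le_sup_right hs)
    simp only at e2 ⊢
    rw [e1, e2]
  · intro h₁ h₂
    have e := hco h₁ h₂
    simp only [mOne_apply, Units.val_mul, Units.val_div_eq_div_val, map_mul, map_div₀]
    have e1 : ((𝔓.ρw q w h₁ • β (𝔓.ρw q w h₂) : Qbˣ) : Qb) =
        (𝔓.ρw q w h₁ : GQ) ((β (𝔓.ρw q w h₂) : Qbˣ) : Qb) := rfl
    rw [e1, jw_rho]
    have h12 := hγ0 (β (𝔓.ρw q w h₁ * 𝔓.ρw q w h₂))
    field_simp
    exact e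

end loc

/-- **GS-AsmTwo.** -/
theorem asmTwo : Stmt_GS_AsmTwo := by
  intro hB _ hCap hLK p _ hp2 S hp K hK 𝔓 q₁ w₁ q₂ w₂ hne
  have hpp : p.Prime := Fact.out
  obtain ⟨ζ₀, hζ₀K, hζ₀⟩ := hK.2
  have hζ₀0 : ζ₀ ≠ 0 := hζ₀.ne_zero hpp.ne_zero
  obtain ⟨ζ, rfl⟩ : ∃ ζ : Qbˣ, (ζ : Qb) = ζ₀ := ⟨Units.mk0 ζ₀ hζ₀0, rfl⟩
  have hζ : IsPrimitiveRoot ζ p := IsPrimitiveRoot.coe_units_iff.1 hζ₀
  obtain ⟨c, b, hD, hn1, htriv, hres⟩ := hB p hp2 S hp K hK 𝔓 q₁ w₁ q₂ w₂ hne
  obtain ⟨a, β, ha, hβ, hβΩ, hcβ⟩ := liftMu hCap hp hK.1 hζ₀K hζ hD hres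
  have hc : (fun t => ζ ^ (a t).val * mOne β t) = c := by
    funext t
    exact (hcβ t).symm
  have hc' : (fun t => c t * mOne (fun g => (β g)⁻¹) t) = fun t => ζ ^ (a t).val := by
    funext t
    have e : (fun g => (β g)⁻¹) = β⁻¹ := rfl
    rw [e, mOne_inv, Pi.inv_apply, hcβ t, mul_inv_cancel_right]
  refine ⟨a, ha, ?_, ?_⟩
  · intro hmem
    apply hn1
    have h1 := locTrivS_of_mem_B2w 𝔓 hζ₀K hζ a q₁ w₁ hmem
    have h2 := locTrivS_mul_bdry 𝔓 hβ q₁ w₁ h1
    rwa [hc] at h2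
  · intro q w h1 h2
    have h3 := htriv q w h1 h2
    have h4 := locTrivS_mul_bdry 𝔓 (hβ.comp (fun x : Qbˣ => x⁻¹)) q w h3
    rw [hc'] at h4
    exact hLK p hp2 S hp K hK 𝔓 ζ hζ₀K hζ a ha q w h4

end Fermat.Agent.S55.CFT.GS.H24

end

end
-- ==== END Fermat.Agent.S55.CFT.GS.H24_AsmTwo

-- ==== BEGIN Fermat.Agent.S55.CFT.LOC.H68_CupND
section

set_option autoImplicit false
set_option linter.unusedSectionVars false
set_option linter.style.haveILetI false
set_option linter.unusedVariables false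

namespace Fermat.Agent.S55.CFT.LOC.H68

open Fermat.Agent.S55.CFT.LOC Fermat.Agent.S55.CFT Fermat.Agent.S55.Top groupCohomology

attribute [local instance] addDMA

section kummerField

variable {k Ω : Type} [Field k] [Field Ω] [Algebra k Ω] [IsAlgClosed Ω] [IsGalois k Ω]
variable {p : ℕ} [Fact p.Prime] (F : IntermediateField k Ω)
variable {ζ : Ω} (a : (↥F)ˣ)

/-- the chosen `p`-th root of `a` -/
noncomputable def kumRoot : Ω := H45.root p ((a : ↥F) : Ω)

theorem kumRoot_pow : kumRoot (p := p) F a ^ p = ((a : ↥F) : Ω) := H45.root_pow _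

theorem kumRoot_ne_zero : kumRoot (p := p) F a ≠ 0 := by
  intro h
  have := kumRoot_pow (p := p) F a
  rw [h, zero_pow (Fact.out : p.Prime).ne_zero] at this
  exact H45.unit_ne_zero a this.symm

/-- the Kummer extension `F(α)`, `α^p = a` -/
noncomputable def kumField : IntermediateField ↥F Ω :=
  IntermediateField.adjoin ↥F {kumRoot (p := p) F a}

theorem kumRoot_mem : kumRoot (p := p) F a ∈ kumField (p := p) F a :=
  IntermediateField.mem_adjoin_simple_self ↥F _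

theorem zeta_mem_of_le (hζF : ζ ∈ F) (L : IntermediateField ↥F Ω) : ζ ∈ L := by
  have : algebraMap ↥F Ω ⟨ζ, hζF⟩ ∈ L := L.algebraMap_mem ⟨ζ, hζF⟩
  exact this

theorem ze_mem (hζF : ζ ∈ F) (L : IntermediateField ↥F Ω) (j : ZMod p) : H45.ze ζ j ∈ L :=
  pow_mem (zeta_mem_of_le F hζF L) _

/-- the action of `Γ` on the root -/
theorem smul_kumRoot (hζ : IsPrimitiveRoot ζ p) (hζF : ζ ∈ F) (σ : ↥F.fixingSubgroup) :
    (σ : Ω ≃ₐ[k] Ω) (kumRoot (p := p) F a) =
      H45.ze ζ (H45.kumΓ (p := p) F ζ a σ) * kumRoot (p := p) F a :=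
  H45.kumΓ_spec hζ hζF a σ (kumRoot_pow F a)

instance kumField_finiteDimensional : FiniteDimensional ↥F ↥(kumField (p := p) F a) :=
  IntermediateField.adjoin.finiteDimensional
    (Algebra.IsIntegral.isIntegral (R := ↥F) (kumRoot (p := p) F a))

theorem kumField_normal (hζ : IsPrimitiveRoot ζ p) (hζF : ζ ∈ F) :
    Normal ↥F ↥(kumField (p := p) F a) := by
  rw [IntermediateField.normal_iff_forall_map_le']
  intro σ
  unfold kumField
  rw [IntermediateField.adjoin_map, IntermediateField.adjoin_le_iff]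
  rintro x ⟨y, hy, rfl⟩
  rw [Set.mem_singleton_iff] at hy
  subst hy
  have h := smul_kumRoot F a hζ hζF ((IntermediateField.fixingSubgroupEquiv F).symm σ)
  have h2 : σ (kumRoot (p := p) F a) =
      H45.ze ζ (H45.kumΓ (p := p) F ζ a ((IntermediateField.fixingSubgroupEquiv F).symm σ)) *
        kumRoot (p := p) F a := h
  show σ (kumRoot (p := p) F a) ∈ IntermediateField.adjoin ↥F {kumRoot (p := p) F a}
  rw [h2]
  exact mul_mem (ze_mem F hζF _ _) (IntermediateField.mem_adjoin_simple_self ↥F _)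

/-- an automorphism fixing the root fixes the Kummer field -/
theorem fix_kumField_of_fix_root (τ : ↥F.fixingSubgroup)
    (hτ : (τ : Ω ≃ₐ[k] Ω) (kumRoot (p := p) F a) = kumRoot (p := p) F a) :
    ∀ x ∈ kumField (p := p) F a, (τ : Ω ≃ₐ[k] Ω) x = x := by
  let τ' : Ω ≃ₐ[↥F] Ω := IntermediateField.fixingSubgroupEquiv F τ
  let T : IntermediateField ↥F Ω := IntermediateField.fixedField (Subgroup.zpowers τ')
  have hα : kumRoot (p := p) F a ∈ T := by
    rw [IntermediateField.mem_fixedField_iff]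
    intro h hh
    have hle : Subgroup.zpowers τ' ≤ MulAction.stabilizer (Ω ≃ₐ[↥F] Ω) (kumRoot (p := p) F a) := by
      rw [Subgroup.zpowers_le]
      exact hτ
    exact hle hh
  have hle : kumField (p := p) F a ≤ T := by
    unfold kumField
    rw [IntermediateField.adjoin_simple_le_iff]
    exact hα
  intro x hx
  have hxT := hle hx
  rw [IntermediateField.mem_fixedField_iff] at hxT
  exact hxT τ' (Subgroup.mem_zpowers τ')

/-- additivity of a homomorphism `Γ → 𝔽_p` given by `tOne g = 0` -/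
theorem add_of_tOne {Δ : Type} [Group Δ] {g : Δ → ZMod p} (hg : tOne g = 0) (σ τ : Δ) :
    g (σ * τ) = g σ + g τ := by
  have := congrFun hg (σ, τ)
  simp only [tOne, Pi.zero_apply] at this
  linear_combination -this

theorem one_of_tOne {Δ : Type} [Group Δ] {g : Δ → ZMod p} (hg : tOne g = 0) : g 1 = 0 := by
  have := add_of_tOne hg 1 1
  rw [mul_one] at this
  linear_combination -this

theorem pow_of_tOne {Δ : Type} [Group Δ] {g : Δ → ZMod p} (hg : tOne g = 0) (σ : Δ) (n : ℕ) :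
    g (σ ^ n) = n * g σ := by
  induction n with
  | zero => rw [pow_zero, one_of_tOne hg]; simp
  | succ n ih => rw [pow_succ, add_of_tOne hg, ih]; push_cast; ring

theorem inv_of_tOne {Δ : Type} [Group Δ] {g : Δ → ZMod p} (hg : tOne g = 0) (σ : Δ) :
    g σ⁻¹ = - g σ := by
  have := add_of_tOne hg σ σ⁻¹
  rw [mul_inv_cancel, one_of_tOne hg] at this
  linear_combination -this

/-- two elements of `Γ` with the same value of the Kummer character restrict to the same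
automorphism of the Kummer field -/
theorem resΓ_eq_of_kum (hζ : IsPrimitiveRoot ζ p) (hζF : ζ ∈ F)
    [Normal ↥F ↥(kumField (p := p) F a)] (σ σ' : ↥F.fixingSubgroup)
    (h : H45.kumΓ (p := p) F ζ a σ = H45.kumΓ (p := p) F ζ a σ') :
    resΓ F (kumField (p := p) F a) σ = resΓ F (kumField (p := p) F a) σ' := by
  rw [resΓ_eq_iff]
  have hg := H45.tOne_kumΓ (p := p) hζ hζF a
  have h0 : H45.kumΓ (p := p) F ζ a (σ⁻¹ * σ') = 0 := by
    rw [add_of_tOne hg, inv_of_tOne hg, h]; ring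
  have hfix : ((σ⁻¹ * σ' : ↥F.fixingSubgroup) : Ω ≃ₐ[k] Ω) (kumRoot (p := p) F a) =
      kumRoot (p := p) F a := by
    rw [smul_kumRoot F a hζ hζF, h0, H45.ze_zero, one_mul]
  intro x hx
  have := fix_kumField_of_fix_root F a (σ⁻¹ * σ') hfix x hx
  rw [Subgroup.coe_mul, Subgroup.coe_inv, AlgEquiv.mul_apply] at this
  have h2 := congrArg (σ : Ω ≃ₐ[k] Ω) this
  rw [← h2]
  exact AlgEquiv.apply_symm_apply (σ : Ω ≃ₐ[k] Ω) _

/-- the generator of the Galois group of the Kummer field -/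
theorem exists_kum_generator (hζ : IsPrimitiveRoot ζ p) (hζF : ζ ∈ F)
    [Normal ↥F ↥(kumField (p := p) F a)] (hg : H45.kumΓ (p := p) F ζ a ≠ 0) :
    ∃ (φ : ↥(kumField (p := p) F a) ≃ₐ[↥F] ↥(kumField (p := p) F a))
      (hφ : ∀ τ : ↥(kumField (p := p) F a) ≃ₐ[↥F] ↥(kumField (p := p) F a),
        τ ∈ Subgroup.zpowers φ),
      orderOf φ = p ∧ ∀ σ : ↥F.fixingSubgroup,
        cycLift φ hφ (resΓ F (kumField (p := p) F a) σ) = (H45.kumΓ (p := p) F ζ a σ).val := by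
  classical
  have hp : p.Prime := Fact.out
  haveI : NeZero p := ⟨hp.ne_zero⟩
  have hg0 := H45.tOne_kumΓ (p := p) hζ hζF a
  set g := H45.kumΓ (p := p) F ζ a with hgdef
  -- an element with `g σ₀ = 1`
  obtain ⟨σ₁, hσ₁⟩ : ∃ σ₁, g σ₁ ≠ 0 := by
    by_contra hcon
    push Not at hcon
    exact hg (funext hcon)
  set σ₀ := σ₁ ^ ((g σ₁)⁻¹).val with hσ₀
  have hgσ₀ : g σ₀ = 1 := by
    rw [hσ₀, pow_of_tOne hg0, ZMod.natCast_zmod_val]
    exact inv_mul_cancel₀ hσ₁
  set E := kumField (p := p) F a with hE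
  set φ : ↥E ≃ₐ[↥F] ↥E := resΓ F E σ₀ with hφdef
  have hpow : ∀ (σ : ↥F.fixingSubgroup) (n : ℕ), (n : ZMod p) = g σ → φ ^ n = resΓ F E σ := by
    intro σ n hn
    rw [hφdef, ← map_pow]
    apply resΓ_eq_of_kum F a hζ hζF
    rw [← hgdef, pow_of_tOne hg0, hgσ₀, mul_one, hn]
  have hφ : ∀ τ : ↥E ≃ₐ[↥F] ↥E, τ ∈ Subgroup.zpowers φ := by
    intro τ
    obtain ⟨σ, rfl⟩ := resΓ_surjective F E τ
    rw [← hpow σ (g σ).val (ZMod.natCast_zmod_val _)]
    exact Subgroup.npow_mem_zpowers φ _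
  have hφp : φ ^ p = 1 := by
    rw [hpow 1 p (by rw [one_of_tOne hg0]; exact ZMod.natCast_self p), map_one]
  have hφ1 : φ ≠ 1 := by
    intro h1
    have h2 := (resΓ_eq_one_iff F E σ₀).1 h1 _ (kumRoot_mem F a)
    rw [smul_kumRoot F a hζ hζF, ← hgdef, hgσ₀] at h2
    have h3 : H45.ze ζ (1 : ZMod p) = 1 := by
      have := mul_right_cancel₀ (kumRoot_ne_zero F a) (h2.trans (one_mul _).symm)
      exact this
    rw [H45.ze_eq_one_iff hζ] at h3
    exact one_ne_zero h3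
  have hord : orderOf φ = p := orderOf_eq_prime hφp hφ1
  refine ⟨φ, hφ, hord, fun σ => ?_⟩
  apply cycLift_eq_of φ hφ
  · rw [hord]; exact ZMod.val_lt _
  · exact hpow σ _ (ZMod.natCast_zmod_val _)

theorem ze_pow_nat (hζ : IsPrimitiveRoot ζ p) (j : ZMod p) (n : ℕ) :
    H45.ze ζ j ^ n = H45.ze ζ ((n : ZMod p) * j) := by
  induction n with
  | zero => simp [H45.ze_zero]
  | succ n ih =>
    rw [pow_succ, ih, ← H45.ze_add hζ]
    congr 1
    push_cast
    ring

/-- the cochain `X σ = B^{g̃(σ)} ζ^{-f(σ)}`, `B^p = β` -/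
noncomputable def kumX (ζ : Ω) (a β : (↥F)ˣ) (f : ↥F.fixingSubgroup → ZMod p)
    (σ : ↥F.fixingSubgroup) : Ω :=
  kumRoot (p := p) F β ^ (H45.kumΓ (p := p) F ζ a σ).val * H45.ze ζ (- f σ)

theorem kumX_ne_zero (hζ : IsPrimitiveRoot ζ p) (a β : (↥F)ˣ) (f : ↥F.fixingSubgroup → ZMod p)
    (σ : ↥F.fixingSubgroup) : kumX F ζ a β f σ ≠ 0 :=
  mul_ne_zero (pow_ne_zero _ (kumRoot_ne_zero F β)) (H45.ze_ne_zero hζ _)

/-- **the cochain identity**: `σ(X τ) · X σ = β^{carry(σ,τ)} · X(στ)` if `d f = b ∪ g`. -/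
theorem kum_cochain_identity (hζ : IsPrimitiveRoot ζ p) (hζF : ζ ∈ F) (a β : (↥F)ˣ)
    (f : ↥F.fixingSubgroup → ZMod p)
    (hf : ∀ σ τ : ↥F.fixingSubgroup, f τ - f (σ * τ) + f σ =
      H45.kumΓ (p := p) F ζ β σ * H45.kumΓ (p := p) F ζ a τ)
    (σ τ : ↥F.fixingSubgroup) :
    (σ : Ω ≃ₐ[k] Ω) (kumX F ζ a β f τ) * kumX F ζ a β f σ =
      ((β : ↥F) : Ω) ^ (((H45.kumΓ (p := p) F ζ a σ).val +
        (H45.kumΓ (p := p) F ζ a τ).val) / p) * kumX F ζ a β f (σ * τ) := by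
  have hp : p.Prime := Fact.out
  haveI : NeZero p := ⟨hp.ne_zero⟩
  have hg0 := H45.tOne_kumΓ (p := p) hζ hζF a
  set g := H45.kumΓ (p := p) F ζ a with hgdef
  set b := H45.kumΓ (p := p) F ζ β with hbdef
  set B := kumRoot (p := p) F β with hBdef
  have hB : B ^ p = ((β : ↥F) : Ω) := kumRoot_pow F β
  have hσB : (σ : Ω ≃ₐ[k] Ω) B = H45.ze ζ (b σ) * B := smul_kumRoot F β hζ hζF σ
  have hgst : (g (σ * τ)).val = ((g σ).val + (g τ).val) % p := by
    rw [add_of_tOne hg0, ZMod.val_add]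
  have hsplit : p * (((g σ).val + (g τ).val) / p) + (g (σ * τ)).val = (g σ).val + (g τ).val := by
    rw [hgst]
    exact Nat.div_add_mod _ _
  unfold kumX
  rw [← hgdef, ← hBdef]
  rw [map_mul, map_pow, hσB, H45.map_ze (H45.fix_of_mem F σ hζF), mul_pow,
    ze_pow_nat hζ, ZMod.natCast_zmod_val, ← hB, ← pow_mul]
  have e1 : H45.ze ζ (g τ * b σ) * B ^ (g τ).val * H45.ze ζ (-f τ) *
      (B ^ (g σ).val * H45.ze ζ (-f σ)) =
      B ^ ((g σ).val + (g τ).val) * H45.ze ζ (g τ * b σ + -f τ + -f σ) := by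
    rw [H45.ze_add hζ, H45.ze_add hζ, pow_add]
    ring
  have e2 : B ^ (p * (((g σ).val + (g τ).val) / p)) *
      (B ^ (g (σ * τ)).val * H45.ze ζ (-f (σ * τ))) =
      B ^ ((g σ).val + (g τ).val) * H45.ze ζ (-f (σ * τ)) := by
    rw [← mul_assoc, ← pow_add, hsplit]
  rw [e1, e2]
  congr 2
  have := hf σ τ
  linear_combination -this

/-- **Symbol ⟹ norm.**  If `b ∪ g = d f` (`b = kumΓ β`, `g = kumΓ a ≠ 0`, `f` locally level
constant), then `β` is a norm from the Kummer field `F(a^{1/p})`. -/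
theorem norm_of_cup_coboundary (hζ : IsPrimitiveRoot ζ p) (hζF : ζ ∈ F) (a β : (↥F)ˣ)
    [Normal ↥F ↥(kumField (p := p) F a)] [IsGalois ↥F ↥(kumField (p := p) F a)]
    (hg : H45.kumΓ (p := p) F ζ a ≠ 0)
    (f : ↥F.fixingSubgroup → ZMod p) (Ef : IntermediateField k Ω) [FiniteDimensional k ↥Ef]
    (hfloc : ∀ g s : ↥F.fixingSubgroup, (s : Ω ≃ₐ[k] Ω) ∈ Ef.fixingSubgroup → f (g * s) = f g)
    (hf : ∀ σ τ : ↥F.fixingSubgroup, f τ - f (σ * τ) + f σ =
      H45.kumΓ (p := p) F ζ β σ * H45.kumΓ (p := p) F ζ a τ) :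
    β ∈ normSubgroup ↥F ↥(kumField (p := p) F a) := by
  classical
  have hp : p.Prime := Fact.out
  haveI : NeZero p := ⟨hp.ne_zero⟩
  obtain ⟨φ, hφ, hord, hlift⟩ := exists_kum_generator F a hζ hζF hg
  have hg0 := H45.tOne_kumΓ (p := p) hζ hζF a
  -- the finite level
  have hαint : IsIntegral k (kumRoot (p := p) F a) := Algebra.IsIntegral.isIntegral _
  have hBint : IsIntegral k (kumRoot (p := p) F β) := Algebra.IsIntegral.isIntegral _
  haveI : FiniteDimensional k ↥(IntermediateField.adjoin k {kumRoot (p := p) F a}) :=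
    IntermediateField.adjoin.finiteDimensional hαint
  haveI : FiniteDimensional k ↥(IntermediateField.adjoin k {kumRoot (p := p) F β}) :=
    IntermediateField.adjoin.finiteDimensional hBint
  let E₀ : IntermediateField k Ω := Ef ⊔ IntermediateField.adjoin k {kumRoot (p := p) F a} ⊔
    IntermediateField.adjoin k {kumRoot (p := p) F β}
  haveI : FiniteDimensional k ↥E₀ := IntermediateField.finiteDimensional_sup _ _
  obtain ⟨L, hLfd, hLgal, hE₀L⟩ := exists_finLevel F E₀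
  haveI := hLfd
  haveI := hLgal
  have hαE₀ : kumRoot (p := p) F a ∈ E₀ :=
    (le_sup_left.trans' le_sup_right : IntermediateField.adjoin k {kumRoot (p := p) F a} ≤ E₀)
      (IntermediateField.mem_adjoin_simple_self k _)
  have hαL : kumRoot (p := p) F a ∈ L := hE₀L _ hαE₀
  have hBL : kumRoot (p := p) F β ∈ L := hE₀L _
    ((le_sup_right : IntermediateField.adjoin k {kumRoot (p := p) F β} ≤ E₀)
      (IntermediateField.mem_adjoin_simple_self k _))
  have hEL : kumField (p := p) F a ≤ L := by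
    unfold kumField
    rw [IntermediateField.adjoin_simple_le_iff]
    exact hαL
  -- the tower `F ⊆ E ⊆ L`
  letI : Algebra ↥(kumField (p := p) F a) ↥L := (IntermediateField.inclusion hEL).toRingHom.toAlgebra
  haveI : IsScalarTower ↥F ↥(kumField (p := p) F a) ↥L :=
    IsScalarTower.of_algebraMap_eq (fun x => rfl)
  have GI := galois_infData ↥F ↥(kumField (p := p) F a) ↥L
  -- compatibility of the restrictions
  have hcompat : ∀ σ : ↥F.fixingSubgroup,
      (AlgEquiv.restrictNormalHom ↥(kumField (p := p) F a) :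
        (↥L ≃ₐ[↥F] ↥L) →* (↥(kumField (p := p) F a) ≃ₐ[↥F] ↥(kumField (p := p) F a)))
          (resΓ F L σ) = resΓ F (kumField (p := p) F a) σ := by
    intro σ
    ext x
    have h1 := AlgEquiv.restrictNormal_commutes (resΓ F L σ) ↥(kumField (p := p) F a) x
    have h2 := congrArg (Subtype.val : ↥L → Ω) h1
    have h4 : (((resΓ F L σ) (algebraMap ↥(kumField (p := p) F a) ↥L x) : ↥L) : Ω) =
        (σ : Ω ≃ₐ[k] Ω) (x : Ω) :=
      resΓ_apply F L σ (algebraMap ↥(kumField (p := p) F a) ↥L x)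
    rw [resΓ_apply]
    exact h2.trans h4
  -- the cochain `X` at level `L`
  have hXL : ∀ σ : ↥F.fixingSubgroup, kumX F ζ a β f σ ∈ L := fun σ =>
    mul_mem (pow_mem hBL _) (ze_mem F hζF L _)
  let Xfun : ↥F.fixingSubgroup → Additive (↥L)ˣ := fun σ =>
    Additive.ofMul (Units.mk0 ⟨kumX F ζ a β f σ, hXL σ⟩
      (fun h => kumX_ne_zero F hζ a β f σ (congrArg Subtype.val h)))
  have hXloc : ∀ σ s : ↥F.fixingSubgroup, (s : Ω ≃ₐ[k] Ω) ∈ E₀.fixingSubgroup →
      Xfun (σ * s) = Xfun σ := by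
    intro σ s hs
    have hs1 : (s : Ω ≃ₐ[k] Ω) ∈ Ef.fixingSubgroup :=
      IntermediateField.fixingSubgroup_antitone (le_sup_left.trans le_sup_left : Ef ≤ E₀) hs
    have hs2 : H45.kumΓ (p := p) F ζ a s = 0 := by
      have hfix : (s : Ω ≃ₐ[k] Ω) (kumRoot (p := p) F a) = kumRoot (p := p) F a :=
        (IntermediateField.mem_fixingSubgroup_iff E₀ _).1 hs (kumRoot (p := p) F a) hαE₀
      refine H45.kumΓ_unique hζ hζF a s (kumRoot_pow F a) ?_
      rw [H45.ze_zero, one_mul]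
      exact hfix
    have e1 : kumX F ζ a β f (σ * s) = kumX F ζ a β f σ := by
      unfold kumX
      rw [add_of_tOne hg0, hs2, add_zero, hfloc σ s hs1]
    apply additive_units_ext
    exact Subtype.ext e1
  obtain ⟨Xbar, hXbar⟩ := exists_factor₁ F L E₀ hE₀L Xfun hXloc
  -- the invariant element
  let βE : Additive (↥(kumField (p := p) F a))ˣ :=
    Additive.ofMul (Units.map (algebraMap ↥F ↥(kumField (p := p) F a) :
      ↥F →* ↥(kumField (p := p) F a)) β)
  have hβinv : ∀ τ : ↥(kumField (p := p) F a) ≃ₐ[↥F] ↥(kumField (p := p) F a), τ • βE = βE := by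
    intro τ
    apply additive_units_ext
    show τ (algebraMap ↥F ↥(kumField (p := p) F a) (β : ↥F)) =
      algebraMap ↥F ↥(kumField (p := p) F a) (β : ↥F)
    exact τ.commutes _
  have hcob : IsCoboundary₂ (cycCocycle φ hφ βE) := by
    refine inf_injective GI (cycCocycle φ hφ βE) (isCocycle₂_cycCocycle φ hφ βE hβinv) Xbar
      (fun s t => ?_)
    obtain ⟨σ, rfl⟩ := resΓ_surjective F L s
    obtain ⟨τ, rfl⟩ := resΓ_surjective F L t
    rw [← map_mul, ← hXbar, ← hXbar, ← hXbar, hcompat, hcompat]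
    simp only [cycCocycle, cycCarry, hlift, hord, map_nsmul]
    apply additive_units_ext
    apply Subtype.ext
    have hid := kum_cochain_identity F hζ hζF a β f hf σ τ
    have hne : kumX F ζ a β f (σ * τ) ≠ 0 := kumX_ne_zero F hζ a β f (σ * τ)
    -- unfold the additive expression
    show ((resΓ F L σ) ⟨kumX F ζ a β f τ, hXL τ⟩ : Ω) * (kumX F ζ a β f (σ * τ))⁻¹ *
        kumX F ζ a β f σ = (((β : ↥F) : Ω)) ^ (((H45.kumΓ (p := p) F ζ a σ).val +
          (H45.kumΓ (p := p) F ζ a τ).val) / p)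
    rw [resΓ_apply]
    show (σ : Ω ≃ₐ[k] Ω) (kumX F ζ a β f τ) * (kumX F ζ a β f (σ * τ))⁻¹ *
        kumX F ζ a β f σ = (((β : ↥F) : Ω)) ^ (((H45.kumΓ (p := p) F ζ a σ).val +
          (H45.kumΓ (p := p) F ζ a τ).val) / p)
    rw [mul_right_comm, hid]
    field_simp
  obtain ⟨y, hy⟩ := exists_norm_of_isCoboundary₂ φ hφ βE hcob
  have hN := norm_eq_of_sum_smul ↥F ↥(kumField (p := p) F a) y βE hy
  have hN' : Algebra.norm ↥F ((Additive.toMul y : (↥(kumField (p := p) F a))ˣ) :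
      ↥(kumField (p := p) F a)) = (β : ↥F) :=
    (algebraMap ↥F ↥(kumField (p := p) F a)).injective hN
  refine ⟨Additive.toMul y, ?_⟩
  apply Units.ext
  exact hN'

end kummerField

/-- **L5-ND**: nondegeneracy of the local cup product. -/
theorem stmt_L5_CupND : Stmt_L5_CupND := by
  intro q _ p _ F hFfd hζ g hg hgloc hgne
  classical
  obtain ⟨ζ, hζF, hζ⟩ := hζ
  haveI := hFfd
  have hp : p.Prime := Fact.out
  obtain ⟨a, ha⟩ := H45.exists_kumΓ_eq (k := ℚ_[q]) (Ω := PadicAlgCl q) (F := F) hζ hζF g hg hgloc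
  have hgne' : H45.kumΓ (p := p) F ζ a ≠ 0 := by rw [ha]; exact hgne
  haveI : Normal ↥F ↥(kumField (p := p) F a) := kumField_normal F a hζ hζF
  haveI : Algebra.IsSeparable ↥F ↥(kumField (p := p) F a) :=
    Algebra.isSeparable_tower_bot_of_isSeparable ↥F ↥(kumField (p := p) F a) (PadicAlgCl q)
  haveI : IsGalois ↥F ↥(kumField (p := p) F a) := ⟨⟩
  obtain ⟨φ, hφ, hord, -⟩ := exists_kum_generator F a hζ hζF hgne'
  have hcyc : IsCyclic (↥(kumField (p := p) F a) ≃ₐ[↥F] ↥(kumField (p := p) F a)) := ⟨⟨φ, hφ⟩⟩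
  have hidx := stmt_LocalNormIndexCyclic q ↥F ↥(kumField (p := p) F a) hcyc
  have hfin : Module.finrank ↥F ↥(kumField (p := p) F a) = p := by
    rw [← IsGalois.card_aut_eq_finrank, ← orderOf_eq_card_of_forall_mem_zpowers hφ, hord]
  rw [hfin] at hidx
  obtain ⟨β, hβ⟩ : ∃ β : (↥F)ˣ, β ∉ normSubgroup ↥F ↥(kumField (p := p) F a) := by
    by_contra hcon
    push Not at hcon
    have htop : normSubgroup ↥F ↥(kumField (p := p) F a) = ⊤ := (Subgroup.eq_top_iff' _).2 hcon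
    rw [htop, Subgroup.index_top] at hidx
    exact hp.one_lt.ne hidx
  obtain ⟨Eg, hEgfd, hgl⟩ := H45.isLocA_kumΓ (k := ℚ_[q]) (p := p) (F := F) hζ hζF a
  obtain ⟨Eb, hEbfd, hbl⟩ := H45.isLocA_kumΓ (k := ℚ_[q]) (p := p) (F := F) hζ hζF β
  refine ⟨H45.kumΓ (p := p) F ζ β, H45.tOne_kumΓ hζ hζF β, ⟨Eb, hEbfd, hbl⟩, ?_⟩
  rintro ⟨f, ⟨Ef, hEffd, hfloc⟩, hf⟩
  apply hβ
  haveI := hEffd
  haveI := hEgfd
  haveI := hEbfd
  haveI : FiniteDimensional ℚ_[q] ↥(Ef ⊔ Eg) := IntermediateField.finiteDimensional_sup _ _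
  haveI : FiniteDimensional ℚ_[q] ↥(Ef ⊔ Eg ⊔ Eb) := IntermediateField.finiteDimensional_sup _ _
  have hga := H45.tOne_kumΓ (p := p) hζ hζF a
  have hgb := H45.tOne_kumΓ (p := p) hζ hζF β
  refine norm_of_cup_coboundary F hζ hζF a β hgne'
    (fun σ => -(H45.kumΓ (p := p) F ζ a σ * H45.kumΓ (p := p) F ζ β σ) - f σ)
    (Ef ⊔ Eg ⊔ Eb) ?_ ?_
  · intro σ s hs
    have hs1 : (s : PadicAlgCl q ≃ₐ[ℚ_[q]] PadicAlgCl q) ∈ Ef.fixingSubgroup :=
      IntermediateField.fixingSubgroup_antitone (le_sup_left.trans le_sup_left) hs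
    have hs2 : (s : PadicAlgCl q ≃ₐ[ℚ_[q]] PadicAlgCl q) ∈ Eg.fixingSubgroup :=
      IntermediateField.fixingSubgroup_antitone (le_sup_right.trans le_sup_left) hs
    have hs3 : (s : PadicAlgCl q ≃ₐ[ℚ_[q]] PadicAlgCl q) ∈ Eb.fixingSubgroup :=
      IntermediateField.fixingSubgroup_antitone le_sup_right hs
    show -(H45.kumΓ (p := p) F ζ a (σ * s) * H45.kumΓ (p := p) F ζ β (σ * s)) - f (σ * s) =
      -(H45.kumΓ (p := p) F ζ a σ * H45.kumΓ (p := p) F ζ β σ) - f σ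
    rw [hfloc σ s hs1, hgl σ s hs2, hbl σ s hs3]
  · intro σ τ
    have h1 := congrFun hf (σ, τ)
    simp only [tOne] at h1
    rw [← ha] at h1
    show -(H45.kumΓ (p := p) F ζ a τ * H45.kumΓ (p := p) F ζ β τ) - f τ -
        (-(H45.kumΓ (p := p) F ζ a (σ * τ) * H45.kumΓ (p := p) F ζ β (σ * τ)) - f (σ * τ)) +
        (-(H45.kumΓ (p := p) F ζ a σ * H45.kumΓ (p := p) F ζ β σ) - f σ) =
      H45.kumΓ (p := p) F ζ β σ * H45.kumΓ (p := p) F ζ a τ
    rw [add_of_tOne hga, add_of_tOne hgb]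
    linear_combination -h1

end Fermat.Agent.S55.CFT.LOC.H68

end
-- ==== END Fermat.Agent.S55.CFT.LOC.H68_CupND

-- ==== BEGIN Fermat.Agent.S55.CFT.LOC.H68_FundClass
section

set_option autoImplicit false
set_option linter.unusedSectionVars false
set_option linter.style.haveILetI false
set_option linter.unusedVariables false

namespace Fermat.Agent.S55.CFT.LOC.H68

open Fermat.Agent.S55.CFT.LOC Fermat.Agent.S55.CFT groupCohomology

/-- a finite abelian group of order `≤ n` with an element of order divisible by `n` is cyclic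
of order `n`, generated by that element -/
theorem cyclic_of_card_le_of_order {X : Type} [AddCommGroup X] [Finite X] (n : ℕ) (hn : 0 < n)
    (hle : Nat.card X ≤ n) (γ : X) (hγ : ∀ k : ℤ, k • γ = 0 → (n : ℤ) ∣ k) :
    Nat.card X = n ∧ ∀ x : X, ∃ m : ℤ, x = m • γ := by
  classical
  have hord : n ∣ addOrderOf γ := by
    have h := hγ (addOrderOf γ : ℤ) (by rw [natCast_zsmul]; exact addOrderOf_nsmul_eq_zero γ)
    exact_mod_cast h
  have hpos : 0 < addOrderOf γ := addOrderOf_pos γ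
  have h1 : n ≤ addOrderOf γ := Nat.le_of_dvd hpos hord
  have h2 : addOrderOf γ ≤ Nat.card X := addOrderOf_le_card
  have hcard : Nat.card X = n := le_antisymm hle (le_trans h1 h2)
  have hordeq : addOrderOf γ = Nat.card X := le_antisymm h2 (by rw [hcard]; exact h1)
  refine ⟨hcard, fun x => ?_⟩
  have htop : AddSubgroup.zmultiples γ = ⊤ := by
    apply AddSubgroup.eq_top_of_card_eq
    rw [Nat.card_zmultiples, hordeq]
  have hx : x ∈ AddSubgroup.zmultiples γ := by rw [htop]; exact AddSubgroup.mem_top x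
  obtain ⟨m, hm⟩ := AddSubgroup.mem_zmultiples_iff.1 hx
  exact ⟨m, hm.symm⟩

/-- **LOC-4f'**: `H²(Gal(E/F), Eˣ)` is cyclic of order `[E:F]` for `p`-extensions. -/
theorem stmt_LocalH2CyclicP : Stmt_LocalH2CyclicP := by
  intro q _ p _ F E _ _ _ _ _ _ _ hp
  obtain ⟨hfin, hle⟩ := H58.stmt_LocalH2Le q p F E hp
  obtain ⟨γ, hγ⟩ := stmt_LocalH2Order q F E
  haveI := hfin
  obtain ⟨h1, h2⟩ := cyclic_of_card_le_of_order (Module.finrank F E) Module.finrank_pos hle γ hγ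
  exact ⟨h1, γ, h2⟩

/-- **LOC-4**: the local fundamental class on `p`-extensions. -/
theorem stmt_LocalFundClass : Stmt_LocalFundClass :=
  H72.stmt_LocalFundClass_of stmt_LocalH2CyclicP

/-- **LOC-4'**: `H³(Gal(E/F), Eˣ) = 0` for `p`-extensions. -/
theorem stmt_LocalH3 : Stmt_LocalH3 :=
  H72.stmt_LocalH3_of stmt_LocalFundClass

/-- **L5-H2a**: the `p`-torsion of `H²(Gal(E/F), Eˣ)` is cyclic. -/
theorem stmt_BrauerPTors : Stmt_BrauerPTors :=
  H72.stmt_BrauerPTors_of stmt_LocalH2CyclicP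

end Fermat.Agent.S55.CFT.LOC.H68

end
-- ==== END Fermat.Agent.S55.CFT.LOC.H68_FundClass

-- ==== BEGIN Fermat.Agent.S55.Top.H48_TQCyc
section

set_option autoImplicit false

open CategoryTheory Module groupCohomology ExtCitation

noncomputable section

namespace Fermat.Agent.S55.Top.H48

open Fermat.Agent.S55 Fermat.Agent.S55.Top

/-- The cyclotomic character of an automorphism acting on the `p`-th roots of unity as
`t ↦ t ^ n`. -/
theorem cycloChar_eq_of_pow (p : ℕ) [Fact p.Prime] (σ : GQ) (a : (ZMod p)ˣ)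
    (h : ∀ t : AlgebraicClosure ℚ, t ^ p = 1 → σ t = t ^ (a : ZMod p).val) :
    cycloChar p σ = a := by
  haveI : NeZero p := ⟨(Fact.out : p.Prime).ne_zero⟩
  haveI : Fact (1 < p) := ⟨(Fact.out : p.Prime).one_lt⟩
  have h1 := modularCyclotomicCharacter.unique (L := AlgebraicClosure ℚ)
    (card_rootsOfUnity_eq_self p) (σ : AlgebraicClosure ℚ ≃+* AlgebraicClosure ℚ)
    (c := (a : ZMod p)) (fun t ht => by
      have ht' : (t : AlgebraicClosure ℚ) ^ p = 1 := by
        have := (mem_rootsOfUnity p t).1 ht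
        rw [← Units.val_pow_eq_pow_val, this, Units.val_one]
      exact h t ht')
  refine Units.ext ?_
  exact h1.symm

/-- **TQ-C.** -/
theorem stmt_TQ_CycSurj : Stmt_TQ_CycSurj := by
  intro p _ a
  have hp : p.Prime := Fact.out
  haveI : NeZero p := ⟨hp.ne_zero⟩
  have hn : ¬ p ∣ (a : ZMod p).val := by
    intro h
    have h0 : ((a : ZMod p).val : ZMod p) = 0 := (ZMod.natCast_eq_zero_iff _ _).2 h
    rw [ZMod.natCast_val, ZMod.cast_id] at h0
    exact a.ne_zero h0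
  obtain ⟨σ, hσ⟩ := Fermat.Agent.S56.FL.H50.exists_gal_pow (p := p) hn
  refine ⟨σ, ?_⟩
  show cycloChar p (localGaloisToGlobal p σ) = a
  apply cycloChar_eq_of_pow
  intro t ht
  apply (padicEmbedding p).injective
  show padicEmbedding p (localGaloisToGlobal p σ t) = padicEmbedding p (t ^ (a : ZMod p).val)
  rw [padicEmbedding_localGaloisToGlobal, map_pow]
  apply hσ
  rw [← map_pow, ht, map_one]

end Fermat.Agent.S55.Top.H48

end

end
-- ==== END Fermat.Agent.S55.Top.H48_TQCyc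

-- ==== BEGIN Fermat.Agent.S55.Top.SHLin
section

set_option autoImplicit false
set_option linter.unusedSectionVars false
set_option linter.unusedSimpArgs false

open CategoryTheory Module groupCohomology ExtCitation

noncomputable section

namespace Fermat.Agent.S55.Top

open Fermat.Agent.S55 OrbitData

attribute [local instance] locAct

variable {k : Type} [Field k] {S : Finset Nat.Primes}
  {K : IntermediateField ℚ (AlgebraicClosure ℚ)} (𝔓 : PlaceSys S K)

/-! ### Extension by zero is linear -/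

lemma eG₁_add (b b' : ↥K.fixingSubgroup → k) : eG₁ (b + b') = eG₁ b + eG₁ b' := by
  funext u g
  by_cases h : g ∈ K.fixingSubgroup
  · simp [eG₁, h]
  · simp [eG₁, h]

lemma eG₁_smul (c : k) (b : ↥K.fixingSubgroup → k) : eG₁ (c • b) = c • eG₁ b := by
  funext u g
  by_cases h : g ∈ K.fixingSubgroup
  · simp [eG₁, h]
  · simp [eG₁, h]

lemma eG₂_add (a a' : ↥K.fixingSubgroup × ↥K.fixingSubgroup → k) :
    eG₂ (a + a') = eG₂ a + eG₂ a' := by
  funext u t
  by_cases h : t.1 ∈ K.fixingSubgroup ∧ t.2 ∈ K.fixingSubgroup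
  · simp [eG₂, h]
  · simp only [eG₂, Pi.add_apply]
    rw [dif_neg h, dif_neg h, dif_neg h, add_zero]

lemma eG₂_smul (c : k) (a : ↥K.fixingSubgroup × ↥K.fixingSubgroup → k) :
    eG₂ (c • a) = c • eG₂ a := by
  funext u t
  by_cases h : t.1 ∈ K.fixingSubgroup ∧ t.2 ∈ K.fixingSubgroup
  · simp [eG₂, h]
  · simp only [eG₂, Pi.smul_apply]
    rw [dif_neg h, dif_neg h, smul_zero]

lemma eG₃_add (a a' : ↥K.fixingSubgroup × ↥K.fixingSubgroup × ↥K.fixingSubgroup → k) :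
    eG₃ (a + a') = eG₃ a + eG₃ a' := by
  funext u t
  by_cases h : t.1 ∈ K.fixingSubgroup ∧ t.2.1 ∈ K.fixingSubgroup ∧ t.2.2 ∈ K.fixingSubgroup
  · simp [eG₃, h]
  · simp only [eG₃, Pi.add_apply]
    rw [dif_neg h, dif_neg h, dif_neg h, add_zero]

lemma eG₃_smul (c : k) (a : ↥K.fixingSubgroup × ↥K.fixingSubgroup × ↥K.fixingSubgroup → k) :
    eG₃ (c • a) = c • eG₃ a := by
  funext u t
  by_cases h : t.1 ∈ K.fixingSubgroup ∧ t.2.1 ∈ K.fixingSubgroup ∧ t.2.2 ∈ K.fixingSubgroup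
  · simp [eG₃, h]
  · simp only [eG₃, Pi.smul_apply]
    rw [dif_neg h, dif_neg h, smul_zero]

lemma PlaceSys.eL₂_add (q : ↥S) (z z' : ∀ w : 𝔓.W q, 𝔓.Γw q w × 𝔓.Γw q w → k) :
    𝔓.eL₂ q (z + z') = 𝔓.eL₂ q z + 𝔓.eL₂ q z' := by
  funext w t
  by_cases h : t.1 ∈ 𝔓.Γw q w ∧ t.2 ∈ 𝔓.Γw q w
  · simp [PlaceSys.eL₂, h]
  · simp only [PlaceSys.eL₂, Pi.add_apply]
    rw [dif_neg h, dif_neg h, dif_neg h, add_zero]

lemma PlaceSys.eL₂_smul (q : ↥S) (c : k) (z : ∀ w : 𝔓.W q, 𝔓.Γw q w × 𝔓.Γw q w → k) :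
    𝔓.eL₂ q (c • z) = c • 𝔓.eL₂ q z := by
  funext w t
  by_cases h : t.1 ∈ 𝔓.Γw q w ∧ t.2 ∈ 𝔓.Γw q w
  · simp [PlaceSys.eL₂, h]
  · simp only [PlaceSys.eL₂, Pi.smul_apply]
    rw [dif_neg h, dif_neg h, smul_zero]

/-! ### Induction is linear -/

/-- `indK₁` as a linear map. -/
def PlaceSys.indK₁ₗ : (↥K.fixingSubgroup → k) →ₗ[k] (GQ → XK K → k) where
  toFun := 𝔓.indK₁
  map_add' b b' := by
    unfold PlaceSys.indK₁
    rw [eG₁_add]
    rfl
  map_smul' c b := by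
    unfold PlaceSys.indK₁
    rw [eG₁_smul]
    rfl

/-- `indK₂` as a linear map. -/
def PlaceSys.indK₂ₗ :
    (↥K.fixingSubgroup × ↥K.fixingSubgroup → k) →ₗ[k] (GQ × GQ → XK K → k) where
  toFun := 𝔓.indK₂
  map_add' b b' := by
    unfold PlaceSys.indK₂
    rw [eG₂_add]
    rfl
  map_smul' c b := by
    unfold PlaceSys.indK₂
    rw [eG₂_smul]
    rfl

lemma PlaceSys.indK₃_add (a a' : ↥K.fixingSubgroup × ↥K.fixingSubgroup × ↥K.fixingSubgroup → k) :
    𝔓.indK₃ (a + a') = 𝔓.indK₃ a + 𝔓.indK₃ a' := by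
  unfold PlaceSys.indK₃
  rw [eG₃_add]
  rfl

lemma PlaceSys.indK₃_smul (c : k)
    (a : ↥K.fixingSubgroup × ↥K.fixingSubgroup × ↥K.fixingSubgroup → k) :
    𝔓.indK₃ (c • a) = c • 𝔓.indK₃ a := by
  unfold PlaceSys.indK₃
  rw [eG₃_smul]
  rfl

lemma PlaceSys.indL₂_add (q : ↥S) (z z' : ∀ w : 𝔓.W q, 𝔓.Γw q w × 𝔓.Γw q w → k) :
    𝔓.indL₂ q (z + z') = 𝔓.indL₂ q z + 𝔓.indL₂ q z' := by
  unfold PlaceSys.indL₂
  rw [𝔓.eL₂_add]
  rfl

lemma PlaceSys.indL₂_smul (q : ↥S) (c : k) (z : ∀ w : 𝔓.W q, 𝔓.Γw q w × 𝔓.Γw q w → k) :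
    𝔓.indL₂ q (c • z) = c • 𝔓.indL₂ q z := by
  unfold PlaceSys.indL₂
  rw [𝔓.eL₂_smul]
  rfl

lemma hty3_smul' {Γ X R : Type} [Group Γ] [MulAction Γ X] (D : OrbitData Γ X R) (c : k)
    (f : Γ × Γ × Γ → X → k) : D.hty3 (c • f) = c • D.hty3 f := by
  funext g x
  simp only [hty3, Pi.smul_apply, smul_eq_mul]
  ring

/-- `U₃` as a linear map. -/
def PlaceSys.U₃ₗ : 𝔓.C3 k →ₗ[k] C3c S (FX k K) where
  toFun := 𝔓.U₃
  map_add' x x' := by
    refine Prod.ext ?_ (funext fun q => ?_)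
    · exact 𝔓.indK₃_add x.1 x'.1
    · show 𝔓.indL₂ q (x.2 q + x'.2 q) + (𝔓.loc q).hty3 (resThree q.1 (𝔓.indK₃ (x.1 + x'.1))) =
        (𝔓.indL₂ q (x.2 q) + (𝔓.loc q).hty3 (resThree q.1 (𝔓.indK₃ x.1))) +
        (𝔓.indL₂ q (x'.2 q) + (𝔓.loc q).hty3 (resThree q.1 (𝔓.indK₃ x'.1)))
      rw [𝔓.indL₂_add, 𝔓.indK₃_add, resThree_add', hty3_add]
      abel
  map_smul' c x := by
    refine Prod.ext ?_ (funext fun q => ?_)
    · exact 𝔓.indK₃_smul c x.1
    · show 𝔓.indL₂ q (c • x.2 q) + (𝔓.loc q).hty3 (resThree q.1 (𝔓.indK₃ (c • x.1))) =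
        c • (𝔓.indL₂ q (x.2 q) + (𝔓.loc q).hty3 (resThree q.1 (𝔓.indK₃ x.1)))
      rw [𝔓.indL₂_smul, 𝔓.indK₃_smul]
      have : resThree q.1 (c • 𝔓.indK₃ x.1) = c • resThree q.1 (𝔓.indK₃ x.1) := rfl
      rw [this, hty3_smul', smul_add]

lemma PlaceSys.U₃ₗ_apply (x : 𝔓.C3 k) : 𝔓.U₃ₗ x = 𝔓.U₃ x := rfl

variable {χ : GQ →* kˣ} (𝔲 : Untwist χ K) [Fintype (XK K)] [DecidableEq (XK K)]

/-- the twisted sum on cone 3-cochains, as a linear map. -/
def Untwist.sumC3 : C3c S (FX k K) →ₗ[k] C3c S (kχ χ) where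
  toFun := mapC3 𝔲.sum
  map_add' x x' := by
    refine Prod.ext (funext fun t => ?_) (funext fun q => funext fun t => ?_)
    · exact 𝔲.sumLin.map_add _ _
    · exact 𝔲.sumLin.map_add _ _
  map_smul' c x := by
    refine Prod.ext (funext fun t => ?_) (funext fun q => funext fun t => ?_)
    · exact 𝔲.sumLin.map_smul _ _
    · exact 𝔲.sumLin.map_smul _ _

lemma Untwist.sumC3_apply (x : C3c S (FX k K)) : 𝔲.sumC3 x = mapC3 𝔲.sum x := rfl

lemma Untwist.isB3c_sumC3 {x : C3c S (FX k K)} (hx : IsB3c S (FX k K) x) :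
    IsB3c S (kχ χ) (𝔲.sumC3 x) :=
  H48.isB3c_push 𝔲.sumHom hx

/-- The `K`-level trace attached to a trace over `ℚ`: `tr ∘ Σ_χ ∘ U₃`. -/
def PlaceSys.trK (hK : K.IsUnramifiedOutside S) (tr : Trace S χ) : TraceK 𝔓 k where
  toFun := tr.toFun ∘ₗ 𝔲.sumC3 ∘ₗ 𝔓.U₃ₗ
  zero_of_isB3cK := fun x hx => tr.zero_of_isB3c _ (𝔲.isB3c_sumC3 (isB3c_U₃ hK hx))

lemma PlaceSys.trK_apply (hK : K.IsUnramifiedOutside S) (tr : Trace S χ) (x : 𝔓.C3 k) :
    (𝔓.trK 𝔲 hK tr).toFun x = tr.toFun (𝔲.sumC3 (𝔓.U₃ x)) := rfl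

/-- the trace of `Σ_χ` only depends on the class modulo coboundaries of `FX`. -/
lemma Untwist.tr_sumC3_eq (tr : Trace S χ) {x x' : C3c S (FX k K)}
    (h : IsB3c S (FX k K) (x - x')) : tr.toFun (𝔲.sumC3 x) = tr.toFun (𝔲.sumC3 x') := by
  apply tr_sub_of_isB3c
  rw [← map_sub]
  exact 𝔲.isB3c_sumC3 h

end Fermat.Agent.S55.Top

end

end
-- ==== END Fermat.Agent.S55.Top.SHLin

-- ==== BEGIN Fermat.Agent.S56.EC.Defs_KD
section

set_option autoImplicit false
set_option linter.unusedSectionVars false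

/-!
# Cluster T / S56, GW-CORE, package EC: interfaces for `Stmt_KDT`, `Stmt_KDO` (Kummer-Dirichlet)

Owner-planner: helper27.  Plan: `NOTES/plan/T_EC.md` §7.

`(L, S)`: `L/ℚ` finite Galois inside `ℚ̄`, unramified outside `S ∋ p`, `ζ_p ∈ L`; `G = Gal(L/ℚ)`,
`𝔽 = ZMod p`.
* `LevHom p S L W`      level-`S` homomorphisms `G_L → W`;
* `EqLevHom p S L ρ B W` the `B`-equivariant ones with values in `W ≤ V` (`h (g σ g⁻¹) = ρ(g) h(σ)`);
* `UmodP p S L`, `unitRep p S L`  the `𝔽[G]`-module `U = O_{L,S}ˣ / p`;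
* `decL L q`, `decInf L`  the decomposition groups in `G` at `q` and at the real place;
* `dualTwistL p L ρ`     the Tate dual `V*(1)` of a representation of `G`.
-/

noncomputable section

namespace Fermat.Agent.S56.EC

open CategoryTheory groupCohomology ExtCitation Module

section defs

variable (p : ℕ) [Fact p.Prime] (S : Finset Nat.Primes)
  (L : IntermediateField ℚ (AlgebraicClosure ℚ)) [Normal ℚ L]

/-- Conjugation by `g ∈ G_ℚ` on `G_L`. -/
def conjL (g : GQ) (σ : ↥L.fixingSubgroup) : ↥L.fixingSubgroup :=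
  ⟨g * σ * g⁻¹, mem_fixingSubgroup_of_resL L (by
    rw [map_mul, map_mul, resL_eq_one L σ.2, mul_one, map_inv, mul_inv_cancel])⟩

@[simp] theorem conjL_coe (g : GQ) (σ : ↥L.fixingSubgroup) :
    ((conjL L g σ : ↥L.fixingSubgroup) : GQ) = g * σ * g⁻¹ := rfl

/-- Level-`S` homomorphisms `G_L → W`. -/
def LevHom (W : Type) [AddCommGroup W] [Module (ZMod p) W] :
    Submodule (ZMod p) (↥L.fixingSubgroup → W) where
  carrier := {h | (∀ σ τ, h (σ * τ) = h σ + h τ) ∧ S55.Top.IsLevK₁ S L h}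
  add_mem' := by
    rintro h h' ⟨ha, F, hF, hl⟩ ⟨ha', F', hF', hl'⟩
    refine ⟨fun σ τ => ?_, F ⊔ F', hF.sup hF', fun g s hs => ?_⟩
    · show h (σ * τ) + h' (σ * τ) = h σ + h' σ + (h τ + h' τ)
      rw [ha, ha']
      abel
    · show h (g * s) + h' (g * s) = h g + h' g
      rw [hl g s (IntermediateField.fixingSubgroup_antitone le_sup_left hs),
        hl' g s (IntermediateField.fixingSubgroup_antitone le_sup_right hs)]
  zero_mem' := ⟨fun _ _ => (add_zero (0 : W)).symm, ⊥, IntermediateField.isUnramifiedOutside_bot S,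
    fun _ _ _ => rfl⟩
  smul_mem' := by
    rintro c h ⟨ha, F, hF, hl⟩
    refine ⟨fun σ τ => ?_, F, hF, fun g s hs => ?_⟩
    · show c • h (σ * τ) = c • h σ + c • h τ
      rw [ha, smul_add]
    · show c • h (g * s) = c • h g
      rw [hl g s hs]

theorem mem_levHom {W : Type} [AddCommGroup W] [Module (ZMod p) W] (h : ↥L.fixingSubgroup → W) :
    h ∈ LevHom p S L W ↔ (∀ σ τ, h (σ * τ) = h σ + h τ) ∧ S55.Top.IsLevK₁ S L h := Iff.rfl

/-- The `B`-equivariant level-`S` homomorphisms `G_L → W ≤ V`: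
`h (g σ g⁻¹) = ρ(g) h(σ)` for all `g ∈ G_ℚ` with image in `B`. -/
def EqLevHom {V : Type} [AddCommGroup V] [Module (ZMod p) V]
    (ρ : Representation (ZMod p) (GalL L) V) (B : Subgroup (GalL L)) (W : Submodule (ZMod p) V) :
    Submodule (ZMod p) (↥L.fixingSubgroup → V) where
  carrier := {h | h ∈ LevHom p S L V ∧ (∀ σ, h σ ∈ W) ∧
    ∀ g : GQ, resL L g ∈ B → ∀ σ, h (conjL L g σ) = ρ (resL L g) (h σ)}
  add_mem' := by
    rintro h h' ⟨h1, h2, h3⟩ ⟨h1', h2', h3'⟩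
    refine ⟨(LevHom p S L V).add_mem h1 h1', fun σ => W.add_mem (h2 σ) (h2' σ), fun g hg σ => ?_⟩
    show h (conjL L g σ) + h' (conjL L g σ) = ρ (resL L g) (h σ + h' σ)
    rw [h3 g hg, h3' g hg, map_add]
  zero_mem' := ⟨(LevHom p S L V).zero_mem, fun _ => W.zero_mem, fun g _ σ => by
    show (0 : V) = ρ (resL L g) 0
    rw [map_zero]⟩
  smul_mem' := by
    rintro c h ⟨h1, h2, h3⟩
    refine ⟨(LevHom p S L V).smul_mem c h1, fun σ => W.smul_mem c (h2 σ), fun g hg σ => ?_⟩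
    show c • h (conjL L g σ) = ρ (resL L g) (c • h σ)
    rw [h3 g hg, map_smul]

/-! ### The unit module `U = O_{L,S}ˣ / p` -/

/-- The `S`-units of `L`, additively. -/
abbrev UnitsAdd : Type := Additive ↥(S55.CFT.TUnits ↥L S)

/-- The `p`-th powers. -/
def pPowers : AddSubgroup (UnitsAdd S L) :=
  (nsmulAddMonoidHom p : UnitsAdd S L →+ UnitsAdd S L).range

/-- `U = O_{L,S}ˣ / p`. -/
abbrev UmodP : Type := UnitsAdd S L ⧸ pPowers p S L

theorem nsmul_umodP (x : UmodP p S L) : p • x = 0 := by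
  induction x using QuotientAddGroup.induction_on with
  | H u =>
    rw [← QuotientAddGroup.mk_nsmul]
    exact (QuotientAddGroup.eq_zero_iff _).2 ⟨u, rfl⟩

instance : Module (ZMod p) (UmodP p S L) := AddCommGroup.zmodModule (nsmul_umodP p S L)

/-- The action of `Gal(L/ℚ)` on the `S`-units, additively. -/
def unitsAct (g : GalL L) : UnitsAdd S L →+ UnitsAdd S L :=
  (MulDistribMulAction.toMonoidHom (↥(S55.CFT.TUnits ↥L S)) g).toAdditive

theorem unitsAct_apply (g : GalL L) (u : ↥(S55.CFT.TUnits ↥L S)) :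
    unitsAct S L g (Additive.ofMul u) = Additive.ofMul (g • u) := rfl

/-- The action of `Gal(L/ℚ)` on `U`. -/
def umodPAct (g : GalL L) : UmodP p S L →+ UmodP p S L :=
  QuotientAddGroup.map _ _ (unitsAct S L g) (by
    rintro x ⟨y, rfl⟩
    exact ⟨unitsAct S L g y, (map_nsmul (unitsAct S L g) p y).symm⟩)

theorem umodPAct_mk (g : GalL L) (u : UnitsAdd S L) :
    umodPAct p S L g (QuotientAddGroup.mk u) = QuotientAddGroup.mk (unitsAct S L g u) := rfl

/-- `U = O_{L,S}ˣ / p` as a representation of `Gal(L/ℚ)` over `𝔽_p`. -/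
def unitRep : Representation (ZMod p) (GalL L) (UmodP p S L) where
  toFun g := (umodPAct p S L g).toZModLinearMap p
  map_one' := by
    apply LinearMap.ext
    intro x
    induction x using QuotientAddGroup.induction_on with
    | H u =>
      show umodPAct p S L 1 (QuotientAddGroup.mk u) = QuotientAddGroup.mk u
      rw [umodPAct_mk]
      congr 1
  map_mul' g h := by
    apply LinearMap.ext
    intro x
    induction x using QuotientAddGroup.induction_on with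
    | H u =>
      show umodPAct p S L (g * h) (QuotientAddGroup.mk u) =
        umodPAct p S L g (umodPAct p S L h (QuotientAddGroup.mk u))
      rw [umodPAct_mk, umodPAct_mk, umodPAct_mk]
      congr 1

/-! ### Decomposition groups and the Tate dual over `Gal(L/ℚ)` -/

/-- The decomposition group at `q` in `Gal(L/ℚ)`. -/
def decL (q : Nat.Primes) : Subgroup (GalL L) := (primeLocalToGlobal q).range.map (resL L)

/-- The decomposition group at the real place in `Gal(L/ℚ)`. -/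
def decInf : Subgroup (GalL L) := archimedeanLoc.range.map (resL L)

/-- The mod `p` cyclotomic character on `Gal(L/ℚ)` (meaningful when `ζ_p ∈ L`). -/
def omegaL (b : GalL L) : (ZMod p)ˣ :=
  cycloChar p (Function.surjInv (resL_surjective L) b)

/-- The Tate dual `V*(1)` of a representation of `Gal(L/ℚ)`:
`(b • φ)(v) = ω(b) φ(b⁻¹ v)` (a representation when `ζ_p ∈ L`; here only the operators). -/
def dualTwistOp {V : Type} [AddCommGroup V] [Module (ZMod p) V]
    (ρ : Representation (ZMod p) (GalL L) V) (b : GalL L) :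
    Module.Dual (ZMod p) V →ₗ[ZMod p] Module.Dual (ZMod p) V :=
  ((omegaL p L b : (ZMod p)ˣ) : ZMod p) • (ρ.dual b)


/-- An automorphism fixing `L ∋ ζ_p` has trivial cyclotomic character. -/
theorem cycloChar_eq_one_of_resL {p : ℕ} [Fact p.Prime] {S : Finset Nat.Primes}
    {L : IntermediateField ℚ (AlgebraicClosure ℚ)} [Normal ℚ L] (hL : IsGalLevel p S L)
    {σ : GQ} (hσ : resL L σ = 1) : cycloChar p σ = 1 := by
  have : NeZero p := ⟨(Fact.out : p.Prime).ne_zero⟩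
  have : Fact (1 < p) := ⟨(Fact.out : p.Prime).one_lt⟩
  obtain ⟨-, ζ, hζL, hζ⟩ := hL
  have hfix : ∀ x ∈ L, σ x = x := fun x hx =>
    (IntermediateField.mem_fixingSubgroup_iff L σ).1 (mem_fixingSubgroup_of_resL L hσ) x hx
  have h1 := modularCyclotomicCharacter.unique (L := AlgebraicClosure ℚ)
    (card_rootsOfUnity_eq_self p) (σ : AlgebraicClosure ℚ ≃+* AlgebraicClosure ℚ)
    (c := (1 : ZMod p)) (fun t ht => by
      rw [ZMod.val_one, pow_one]
      have ht' : (t : AlgebraicClosure ℚ) ^ p = 1 := by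
        have := (mem_rootsOfUnity p t).1 ht
        rw [← Units.val_pow_eq_pow_val, this, Units.val_one]
      obtain ⟨i, -, hi⟩ := hζ.eq_pow_of_pow_eq_one ht'
      have : (t : AlgebraicClosure ℚ) ∈ L := hi ▸ pow_mem hζL i
      exact hfix _ this)
  refine Units.ext ?_
  rw [Units.val_one]
  exact h1.symm

/-- On a Galois level, `omegaL` is the cyclotomic character. -/
theorem omegaL_resL {p : ℕ} [Fact p.Prime] {S : Finset Nat.Primes}
    {L : IntermediateField ℚ (AlgebraicClosure ℚ)} [Normal ℚ L] (hL : IsGalLevel p S L)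
    (g : GQ) : omegaL p L (resL L g) = cycloChar p g := by
  unfold omegaL
  set g' := Function.surjInv (resL_surjective L) (resL L g) with hg'
  have h1 : resL L g' = resL L g := Function.surjInv_eq (resL_surjective L) _
  have h2 : resL L (g'⁻¹ * g) = 1 := by
    rw [map_mul, map_inv, h1, inv_mul_cancel]
  have h3 := cycloChar_eq_one_of_resL hL h2
  rw [map_mul, map_inv, inv_mul_eq_one] at h3
  exact h3

/-- The subspace fixed by the operators `T b`, `b ∈ D`. -/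
def fixedSub {X : Type} [AddCommGroup X] [Module (ZMod p) X] {Γ : Type} (D : Set Γ)
    (T : Γ → X →ₗ[ZMod p] X) : Submodule (ZMod p) X where
  carrier := {x | ∀ b ∈ D, T b x = x}
  add_mem' := fun {x y} hx hy b hb => by rw [map_add, hx b hb, hy b hb]
  zero_mem' := fun b _ => map_zero (T b)
  smul_mem' := fun c x hx b hb => by rw [map_smul, hx b hb]

end defs

/-! ### Statements -/

/-- **Package SHAP-lb** (Shapiro + inflation-restriction, lower bound).  `V = Ind_B^G W`,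
`p ∤ #B`: the `B`-equivariant level-`S` homomorphisms `G_L → W` inject into `H¹_S(G_ℚ, V)`
(corestriction from `G_L` to `G_ℚ` of `h`; `res ∘ cor` has `W`-component `#B · h`). -/
def Stmt_SHAPlb : Prop :=
  ∀ (p : ℕ) [Fact p.Prime], p ≠ 2 → ∀ (S : Finset Nat.Primes), pPrime p ∈ S →
    ∀ (L : IntermediateField ℚ (AlgebraicClosure ℚ)) [Normal ℚ L] [FiniteDimensional ℚ L],
      IsGalLevel p S L →
      ∀ (V : Type) [AddCommGroup V] [Module (ZMod p) V] [FiniteDimensional (ZMod p) V]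
        (ρ : Representation (ZMod p) (GalL L) V) (B : Subgroup (GalL L)) (W : Submodule (ZMod p) V),
        ¬ p ∣ Nat.card B → IND.IsInducedFrom ρ B W →
        ∃ f : ↥(EqLevHom p S L ρ B W) →ₗ[ZMod p] ↥(continuousH1S S (infl L ρ)),
          Function.Injective f

/-- **Package SHAP-ub** (Shapiro for the regular representation, upper bound):
`H¹_S(G_ℚ, 𝔽_p[G]) ↪ Hom_S(G_L, 𝔽_p)` (`S55/Top/ShapiroCore.lean`: `sh1`, `hty_one`;
a cocycle `c : G_ℚ → (G → 𝔽_p)` goes to `σ ↦ c σ 1`). -/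
def Stmt_SHAPub : Prop :=
  ∀ (p : ℕ) [Fact p.Prime], p ≠ 2 → ∀ (S : Finset Nat.Primes), pPrime p ∈ S →
    ∀ (L : IntermediateField ℚ (AlgebraicClosure ℚ)) [Normal ℚ L] [FiniteDimensional ℚ L],
      IsGalLevel p S L →
      ∃ f : ↥(continuousH1S S (infl L (IND.permRep (ZMod p) (GalL L) (GalL L)))) →ₗ[ZMod p]
          ↥(LevHom p S L (ZMod p)),
        Function.Injective f

/-- **Package KUM** (Kummer theory at level `S`).  There is an injective linear map
`κ : O_{L,S}ˣ/p → Hom_S(G_L, 𝔽_p)` (`σ(u^{1/p}) = ζ^{κ_u(σ)} u^{1/p}`) with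
`κ_{g u}(g σ g⁻¹) = ω(g) κ_u(σ)`; it is onto when `Cl_S(L) = 1`.
(Level `S`: `L(u^{1/p})/L` is unramified outside `S ∋ p`.  Onto: `L(χ) = L(a^{1/p})`, unramified
outside `S` ⟹ `p ∣ v(a)` for `v ∉ S` ⟹ `a = u c^p` since `Cl_S(L) = 1`.) -/
def Stmt_KUM : Prop :=
  ∀ (p : ℕ) [Fact p.Prime] (S : Finset Nat.Primes), pPrime p ∈ S →
    ∀ (L : IntermediateField ℚ (AlgebraicClosure ℚ)) [Normal ℚ L] [FiniteDimensional ℚ L],
      IsGalLevel p S L →
      ∃ κ : UmodP p S L →ₗ[ZMod p] (↥L.fixingSubgroup → ZMod p),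
        Function.Injective κ ∧ (∀ u, κ u ∈ LevHom p S L (ZMod p)) ∧
        (∀ (g : GQ) (u : UmodP p S L) (σ : ↥L.fixingSubgroup),
          κ (unitRep p S L (resL L g) u) (conjL L g σ) =
            ((cycloChar p g : (ZMod p)ˣ) : ZMod p) * κ u σ) ∧
        ((∀ [NumberField ↥L], S55.CFT.ClTrivial ↥L S) →
          ∀ h ∈ LevHom p S L (ZMod p), ∃ u, κ u = h)

/-- **Package UBR** (equivariant Dirichlet unit theorem, Brauer character form).
`U = O_{L,S}ˣ/p` is finite-dimensional and for every `b ∈ Gal(L/ℚ)` of order prime to `p`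
`β_U(b) + 1 = τ(ω(b)) + ∑_{q ∈ S} #Fix(b, G/D_q) + #Fix(b, G/D_∞)`.
(`0 → μ(L)/p → U → Λ/p → 0`, `Λ = O_{L,S}ˣ/tors`; `b` acts on `μ(L)/p` by `ω(b)`; the
characteristic polynomial of `b` on `Λ` is determined by the ranks of the fixed points of the
powers of `b`, i.e. by the `S`-unit ranks of the fields `L^{⟨b^e⟩}` (`S55.CFT.H12.finrank_tUnits`)
and these are the numbers of orbits of `⟨b^e⟩` on the places `⊔_v G/D_v`, minus one.) -/
def Stmt_UBR : Prop :=
  ∀ (p : ℕ) [Fact p.Prime], p ≠ 2 → ∀ (S : Finset Nat.Primes), pPrime p ∈ S →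
    ∀ (L : IntermediateField ℚ (AlgebraicClosure ℚ)) [Normal ℚ L] [FiniteDimensional ℚ L],
      IsGalLevel p S L →
      FiniteDimensional (ZMod p) (UmodP p S L) ∧
      ∀ g : GQ, ¬ p ∣ orderOf (resL L g) →
        IND.brauerFn p (Rep.of (unitRep p S L)) (resL L g) + 1 =
          WittVector.teichmuller p (algebraMap (ZMod p) (AlgebraicClosure (ZMod p))
              ((cycloChar p g : (ZMod p)ˣ) : ZMod p))
            + ∑ q ∈ S, (Nat.card {x : GalL L ⧸ decL L q // resL L g • x = x} : IND.WK p (ZMod p))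
            + (Nat.card {x : GalL L ⧸ decInf L // resL L g • x = x} : IND.WK p (ZMod p))

/-- **Package LOC0** (bookkeeping): the `H⁰`-terms of `gwDefect` for `N = infl L ρ` are the
invariants of the decomposition groups in the Tate dual over `Gal(L/ℚ)`. -/
def Stmt_LOC0 : Prop :=
  ∀ (p : ℕ) [Fact p.Prime] (S : Finset Nat.Primes), pPrime p ∈ S →
    ∀ (L : IntermediateField ℚ (AlgebraicClosure ℚ)) [Normal ℚ L] [FiniteDimensional ℚ L],
      IsGalLevel p S L →
      ∀ (V : Type) [AddCommGroup V] [Module (ZMod p) V] [FiniteDimensional (ZMod p) V]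
        (ρ : Representation (ZMod p) (GalL L) V),
        (∀ q : Nat.Primes, finrank (ZMod p) (locRep (tateDual p (infl L ρ)) q).ρ.invariants =
          finrank (ZMod p) (fixedSub p (decL L q : Set (GalL L)) (dualTwistOp p L ρ))) ∧
        finrank (ZMod p) (Rep.res archimedeanLoc (tateDual p (infl L ρ))).ρ.invariants =
          finrank (ZMod p) (fixedSub p (decInf L : Set (GalL L)) (dualTwistOp p L ρ)) ∧
        finrank (ZMod p) (tateDual p (infl L ρ)).ρ.invariants =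
          finrank (ZMod p) (fixedSub p (Set.univ : Set (GalL L)) (dualTwistOp p L ρ)) ∧
        finrank (ZMod p) (infl L ρ).ρ.invariants =
          finrank (ZMod p) (fixedSub p (Set.univ : Set (GalL L)) (fun b => ρ b))

/-- **Package KDALG** (algebra: Brauer-Nesbitt `IND.H74.stmt_BN`, permutation characters
`IND.Stmt_PERM`, Mackey).  See T_EC.md §7: with `Φ(A) = dim Hom_B(W', A)`, `W' = W*(1)`:
`Φ` is additive (`p ∤ #B`), `Φ(U) ≤ dim EqLevHom` (via `κ`), `Φ(𝔽_p(1)) = h⁰(V)`,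
`Φ(𝔽_p) = h⁰(V')`, `Φ(𝔽_p[G/D]) = h⁰(D, V')` for `V = Ind_B^G W`. -/
def Stmt_KDALG : Prop :=
  Stmt_SHAPlb → Stmt_SHAPub → Stmt_KUM → Stmt_UBR → Stmt_LOC0 → Stmt_KDT ∧ Stmt_KDO

end Fermat.Agent.S56.EC

end

end
-- ==== END Fermat.Agent.S56.EC.Defs_KD
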