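-- GENERATED (merged mirror, NOTES/tools/trim/merge3_helper67.py): 5 modules of the originals, bodies verbatim.
import Fermat.Agent.Zm.S56_L13_002
import Fermat.Agent.Zm.S56_L08_000
import Fermat.Agent.Zm.S56_L13_001
import Fermat.Agent.Zm.S56_L11_002
import Fermat.Agent.Zm.S56_L09_002
import Fermat.Agent.Zm.S56_L06_004
import Fermat.Agent.Zm.S56_L04_004
import Fermat.Agent.Zm.S56_L01_004
import Fermat.Agent.Zm.S56_L10_002
import Fermat.Agent.Zm.S56_L11_003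

-- ==== BEGIN Fermat.Agent.S55.CFT.GS.H6_ResLocFwd
section

set_option autoImplicit false
set_option linter.style.haveILetI false
set_option linter.unusedSectionVars false
set_option linter.unusedVariables false

open CategoryTheory groupCohomology ExtCitation

open scoped Pointwise

noncomputable section

namespace Fermat.Agent.S55.CFT.GS.H6

open Fermat.Agent.S55 Fermat.Agent.S55.Top Fermat.Agent.S55.CFT Fermat.Agent.S55.CFT.GS.Bri
  Fermat.Agent.S55.CFT.LOC.H45P Fermat.Agent.S55.CFT.GS.H64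

local notation "Qb" => AlgebraicClosure ℚ

attribute [local instance] Fermat.Agent.S55.CFT.fact_primes

/-- Some positive power of an automorphism fixes a given finite-dimensional intermediate field
pointwise. -/
theorem rlf_exists_pow_mem {k Ω : Type*} [Field k] [Field Ω] [Algebra k Ω]
    (E : IntermediateField k Ω) [FiniteDimensional k E] (h : Ω ≃ₐ[k] Ω) :
    ∃ n : ℕ, 0 < n ∧ h ^ n ∈ E.fixingSubgroup := by
  let f : ℕ → (E →ₐ[k] Ω) := fun n => ((h ^ n : Ω ≃ₐ[k] Ω) : Ω →ₐ[k] Ω).comp E.val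
  have key : ∀ m n : ℕ, m < n → f m = f n → ∃ n : ℕ, 0 < n ∧ h ^ n ∈ E.fixingSubgroup := by
    intro m n hlt hf
    refine ⟨n - m, Nat.sub_pos_of_lt hlt, ?_⟩
    rw [IntermediateField.mem_fixingSubgroup_iff]
    intro x hx
    have h1 : (h ^ m) x = (h ^ n) x := DFunLike.congr_fun hf ⟨x, hx⟩
    have h2 : h ^ n = h ^ m * h ^ (n - m) := by rw [← pow_add, Nat.add_sub_cancel' hlt.le]
    rw [h2, AlgEquiv.mul_apply] at h1
    exact ((h ^ m).injective h1).symm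
  obtain ⟨m, n, hmn, hf⟩ := Finite.exists_ne_map_eq_of_infinite f
  rcases lt_or_gt_of_ne hmn with hlt | hlt
  · exact key m n hlt hf
  · exact key n m hlt hf.symm

section core

variable (q : ℕ) [Fact q.Prime]

local notation "Ω" => PadicAlgCl q

theorem rlf_norm_algEquiv (τ : Ω ≃ₐ[ℚ_[q]] Ω) (y : Ω) : ‖τ y‖ = ‖y‖ :=
  congrArg NNReal.toReal (nnnorm_padicAlgCl_algEquiv q τ y)

/-- The local core of `RESLOC (⟹)`: if `cwᵖ = d bw` and `cw = d b₁` with `bw`, `b₁` constant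
modulo `Gal(Ω/E)`, `E` finite over `ℚ_q`, then `|bw| = |b₁|ᵖ`. -/
theorem rlf_core (p : ℕ) (F₀ E : IntermediateField ℚ_[q] Ω) (hE : FiniteDimensional ℚ_[q] ↥E)
    (cw : ↥F₀.fixingSubgroup × ↥F₀.fixingSubgroup → Ω) (bw b₁ : ↥F₀.fixingSubgroup → Ω)
    (hcw0 : ∀ t, cw t ≠ 0) (hbw0 : ∀ h, bw h ≠ 0) (hb₁0 : ∀ h, b₁ h ≠ 0)
    (hbwlev : ∀ h s : ↥F₀.fixingSubgroup, (s : Ω ≃ₐ[ℚ_[q]] Ω) ∈ E.fixingSubgroup →
      bw (h * s) = bw h)
    (hb₁lev : ∀ h s : ↥F₀.fixingSubgroup, (s : Ω ≃ₐ[ℚ_[q]] Ω) ∈ E.fixingSubgroup →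
      b₁ (h * s) = b₁ h)
    (hpw : ∀ h₁ h₂ : ↥F₀.fixingSubgroup,
      cw (h₁, h₂) ^ p * bw (h₁ * h₂) = (h₁ : Ω ≃ₐ[ℚ_[q]] Ω) (bw h₂) * bw h₁)
    (hb₁ : ∀ h₁ h₂ : ↥F₀.fixingSubgroup,
      cw (h₁, h₂) * b₁ (h₁ * h₂) = (h₁ : Ω ≃ₐ[ℚ_[q]] Ω) (b₁ h₂) * b₁ h₁)
    (h : ↥F₀.fixingSubgroup) : ‖bw h‖ = ‖b₁ h‖ ^ p := by
  set ψ : ↥F₀.fixingSubgroup → ℝ := fun h => ‖bw h‖ / ‖b₁ h‖ ^ p with hψ
  have hBpos : ∀ h, 0 < ‖bw h‖ := fun h => norm_pos_iff.mpr (hbw0 h)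
  have hYpos : ∀ h, 0 < ‖b₁ h‖ := fun h => norm_pos_iff.mpr (hb₁0 h)
  have hCpos : ∀ t, 0 < ‖cw t‖ := fun t => norm_pos_iff.mpr (hcw0 t)
  have hψpos : ∀ h, 0 < ψ h := fun h => div_pos (hBpos h) (pow_pos (hYpos h) p)
  have hψmul : ∀ h₁ h₂, ψ (h₁ * h₂) = ψ h₁ * ψ h₂ := by
    intro h₁ h₂
    have e1 : ‖cw (h₁, h₂)‖ ^ p * ‖bw (h₁ * h₂)‖ = ‖bw h₂‖ * ‖bw h₁‖ := by
      have := congrArg norm (hpw h₁ h₂)
      rwa [norm_mul, norm_pow, norm_mul, rlf_norm_algEquiv] at this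
    have e2 : ‖cw (h₁, h₂)‖ * ‖b₁ (h₁ * h₂)‖ = ‖b₁ h₂‖ * ‖b₁ h₁‖ := by
      have := congrArg norm (hb₁ h₁ h₂)
      rwa [norm_mul, norm_mul, rlf_norm_algEquiv] at this
    have hC := hCpos (h₁, h₂)
    have hY := hYpos (h₁ * h₂)
    have hY1 := hYpos h₁
    have hY2 := hYpos h₂
    simp only [hψ]
    rw [div_mul_div_comm, div_eq_div_iff (pow_pos hY p).ne'
      (mul_pos (pow_pos hY1 p) (pow_pos hY2 p)).ne']
    apply mul_left_cancel₀ (pow_pos hC p).ne'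
    calc ‖cw (h₁, h₂)‖ ^ p * (‖bw (h₁ * h₂)‖ * (‖b₁ h₁‖ ^ p * ‖b₁ h₂‖ ^ p))
        = (‖cw (h₁, h₂)‖ ^ p * ‖bw (h₁ * h₂)‖) * (‖b₁ h₂‖ * ‖b₁ h₁‖) ^ p := by ring
      _ = (‖bw h₂‖ * ‖bw h₁‖) * (‖cw (h₁, h₂)‖ * ‖b₁ (h₁ * h₂)‖) ^ p := by rw [e1, e2]
      _ = ‖cw (h₁, h₂)‖ ^ p * (‖bw h₁‖ * ‖bw h₂‖ * ‖b₁ (h₁ * h₂)‖ ^ p) := by ring
  have hψone : ψ 1 = 1 := by
    have h1 := hψmul 1 1
    rw [mul_one] at h1
    have h2 : ψ 1 * 1 = ψ 1 * ψ 1 := by rw [mul_one]; exact h1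
    exact (mul_left_cancel₀ (hψpos 1).ne' h2).symm
  have hψpow : ∀ (h : ↥F₀.fixingSubgroup) (n : ℕ), ψ (h ^ n) = ψ h ^ n := by
    intro h n
    induction n with
    | zero => rw [pow_zero, pow_zero, hψone]
    | succ n ih => rw [pow_succ, pow_succ, hψmul, ih]
  have hψs : ∀ s : ↥F₀.fixingSubgroup, (s : Ω ≃ₐ[ℚ_[q]] Ω) ∈ E.fixingSubgroup → ψ s = 1 := by
    intro s hs
    have h1 : ψ s = ψ 1 := by
      have e1 := hbwlev 1 s hs
      have e2 := hb₁lev 1 s hs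
      rw [one_mul] at e1 e2
      simp only [hψ, e1, e2]
    rw [h1, hψone]
  obtain ⟨n, hn, hmem⟩ := rlf_exists_pow_mem E (h : Ω ≃ₐ[ℚ_[q]] Ω)
  have h1 : ψ h ^ n = 1 := by
    rw [← hψpow]
    exact hψs _ (by simpa using hmem)
  have h2 : ψ h = 1 := (pow_eq_one_iff_of_nonneg (hψpos h).le hn.ne').1 h1
  have h3 : ‖bw h‖ / ‖b₁ h‖ ^ p = 1 := h2
  rwa [div_eq_one_iff_eq (pow_pos (hYpos h) p).ne'] at h3

end core

section transl

variable {S' : Finset Nat.Primes} {K : IntermediateField ℚ Qb} (𝔓 : PlaceSys S' K) (q : ↥S')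
  (w : 𝔓.W q)

/-- `ord_A(x) = k` from the norm of `j_w x`. -/
theorem rlf_ordIs_of_norm_jw (A : ValuationSubring Qb) (hA : 𝔓.σ q w • A = primeLocalPlace q.1)
    {x : Qb} (hx : x ≠ 0) {k : ℤ}
    (h : ‖jw 𝔓 q w x‖ = ‖(((q.1 : ℕ) : ℕ) : PadicAlgCl (q.1 : ℕ))‖ ^ k) :
    OrdIs A (q.1 : ℕ) x k := by
  have hq0 : (((q.1 : ℕ) : ℕ) : Qb) ≠ 0 := by exact_mod_cast q.1.2.ne_zero
  have hz0 : x / (((q.1 : ℕ) : ℕ) : Qb) ^ k ≠ 0 := div_ne_zero hx (zpow_ne_zero _ hq0)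
  have hq0' := norm_q_pos (q.1 : ℕ)
  have h5 : ‖jw 𝔓 q w (x / (((q.1 : ℕ) : ℕ) : Qb) ^ k)‖ = 1 := by
    rw [map_div₀, map_zpow₀, map_natCast, norm_div, norm_zpow, h]
    exact div_self (zpow_ne_zero _ hq0'.ne')
  have h1 : x / (((q.1 : ℕ) : ℕ) : Qb) ^ k ∈ A :=
    (mem_iff_norm_jw 𝔓 q w A hA _).2 h5.le
  have h2 : (x / (((q.1 : ℕ) : ℕ) : Qb) ^ k)⁻¹ ∈ A := by
    refine (mem_iff_norm_jw 𝔓 q w A hA _).2 ?_
    rw [map_inv₀, norm_inv, h5, inv_one]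
  have hv : A.valuation (x / (((q.1 : ℕ) : ℕ) : Qb) ^ k) = 1 :=
    (H6.valuation_eq_one_iff_mem A _ hz0).2 ⟨h1, h2⟩
  rw [map_div₀, map_zpow₀] at hv
  show A.valuation x = A.valuation (((q.1 : ℕ) : ℕ) : Qb) ^ k
  have hne : A.valuation (((q.1 : ℕ) : ℕ) : Qb) ^ k ≠ 0 :=
    zpow_ne_zero _ ((Valuation.ne_zero_iff _).mpr hq0)
  exact (div_eq_one_iff_eq hne).1 hv

/-- Every element of the decomposition group of `A = σ_w⁻¹ • primeLocalPlace q` in `G_K` agrees on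
a given finite level field `N ⊇ K` with `ρ_w h` for some `h ∈ Γ_w`. -/
theorem rlf_exists_local (N : IntermediateField ℚ Qb) [FiniteDimensional ℚ N] (hKN : K ≤ N)
    (A : ValuationSubring Qb) (hA : 𝔓.σ q w • A = primeLocalPlace q.1)
    (g : ↥K.fixingSubgroup) (hg : (g : GQ) • A = A) :
    ∃ h : 𝔓.Γw q w, ∀ y : Qb, y ∈ N → (𝔓.ρw q w h : GQ) y = (g : GQ) y := by
  have hd : (𝔓.σ q w * (g : GQ) * (𝔓.σ q w)⁻¹) • primeLocalPlace q.1 = primeLocalPlace q.1 := by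
    rw [mul_smul, mul_smul, ← hA, inv_smul_smul, hg]
  have hd' : (𝔓.σ q w * (g : GQ) * (𝔓.σ q w)⁻¹) ∈
      (padicPlace (q.1 : ℕ)).decompositionSubgroup ℚ := hd
  have : FiniteDimensional ℚ (N.map ((𝔓.σ q w : Qb ≃ₐ[ℚ] Qb) : Qb →ₐ[ℚ] Qb)) :=
    IntermediateField.finiteDimensional_map _
  obtain ⟨τ, hτ⟩ := Fermat.Agent.Lib.LocalGlobalDense.exists_local_lift_field (q.1 : ℕ) _ hd'
    (N.map ((𝔓.σ q w : Qb ≃ₐ[ℚ] Qb) : Qb →ₐ[ℚ] Qb))
  have hτN : ∀ y : Qb, y ∈ N →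
      ((𝔓.σ q w)⁻¹ * rl q.1 (show Gl q.1 from τ) * 𝔓.σ q w) y = (g : GQ) y := by
    intro y hy
    have h1 : 𝔓.σ q w y ∈ N.map ((𝔓.σ q w : Qb ≃ₐ[ℚ] Qb) : Qb →ₐ[ℚ] Qb) :=
      (IntermediateField.mem_map N).mpr ⟨y, hy, rfl⟩
    have h2 := hτ _ h1
    show (𝔓.σ q w)⁻¹ (rl q.1 (show Gl q.1 from τ) (𝔓.σ q w y)) = (g : GQ) y
    have h3 : rl q.1 (show Gl q.1 from τ) (𝔓.σ q w y) =
        (𝔓.σ q w * (g : GQ) * (𝔓.σ q w)⁻¹) (𝔓.σ q w y) := h2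
    rw [h3]
    simp only [AlgEquiv.mul_apply]
    have h4 : (𝔓.σ q w)⁻¹ (𝔓.σ q w y) = y := AlgEquiv.symm_apply_apply _ y
    rw [h4]
    exact AlgEquiv.symm_apply_apply _ _
  have hτΓ : (show Gl q.1 from τ) ∈ 𝔓.Γw q w := by
    rw [mem_Γw_iff, IntermediateField.mem_fixingSubgroup_iff]
    intro x hx
    rw [hτN x (hKN hx)]
    exact (IntermediateField.mem_fixingSubgroup_iff K _).mp g.2 x hx
  exact ⟨⟨(show Gl q.1 from τ), hτΓ⟩, hτN⟩

end transl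

/-- **RESLOC (⟹)** from the local leaf `Bri.Stmt_UnrVal`. -/
theorem stmt_ResLoc_fwd_of (hVal : Stmt_UnrVal) : Stmt_ResLoc_fwd := by
  intro p _ S K N hKN hNS hstab S' 𝔓 q w hq A hA c b hc hcoc hb hpow hloc g hgA
  obtain ⟨β, hβ0, hβlev, hβ⟩ := hloc
  have hKS : K.IsUnramifiedOutside S := hNS.of_le hKN
  have hfdK : FiniteDimensional ℚ K := hKS.1
  have hfdN : FiniteDimensional ℚ N := hNS.1
  have hρN : ∀ s : ↥(Floc (q.1 : ℕ) K (𝔓.σ q w)).fixingSubgroup,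
      (s : PadicAlgCl (q.1 : ℕ) ≃ₐ[ℚ_[(q.1 : ℕ)]] PadicAlgCl (q.1 : ℕ)) ∈
        (Floc (q.1 : ℕ) N (𝔓.σ q w)).fixingSubgroup →
      ((𝔓.ρw q w (ofLoc 𝔓 q w s) : ↥K.fixingSubgroup) : GQ) ∈ N.fixingSubgroup :=
    fun s hs => (ρw_mem_iff_Floc 𝔓 q w N (ofLoc 𝔓 q w s)).2 hs
  -- the local cochains
  set cw : ↥(Floc (q.1 : ℕ) K (𝔓.σ q w)).fixingSubgroup ×
      ↥(Floc (q.1 : ℕ) K (𝔓.σ q w)).fixingSubgroup → PadicAlgCl (q.1 : ℕ) :=
    fun t => jw 𝔓 q w ((c (𝔓.ρw q w (ofLoc 𝔓 q w t.1), 𝔓.ρw q w (ofLoc 𝔓 q w t.2)) : Qbˣ) : Qb)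
    with hcw
  set bw : ↥(Floc (q.1 : ℕ) K (𝔓.σ q w)).fixingSubgroup → PadicAlgCl (q.1 : ℕ) :=
    fun h => jw 𝔓 q w ((b (𝔓.ρw q w (ofLoc 𝔓 q w h)) : Qbˣ) : Qb) with hbw
  set β' : ↥(Floc (q.1 : ℕ) K (𝔓.σ q w)).fixingSubgroup → PadicAlgCl (q.1 : ℕ) :=
    fun h => β (ofLoc 𝔓 q w h) with hβ'
  have hcwE : ∀ t, cw t ∈ Floc (q.1 : ℕ) N (𝔓.σ q w) := fun t =>
    jw_mem_Floc 𝔓 q w N (hc.2 _)
  have hcw0 : ∀ t, cw t ≠ 0 := fun t => (map_ne_zero _).mpr (Units.ne_zero _)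
  have hbw0 : ∀ h, bw h ≠ 0 := fun h => (map_ne_zero _).mpr (Units.ne_zero _)
  have hcwlev : ∀ h₁ h₂ s₁ s₂ : ↥(Floc (q.1 : ℕ) K (𝔓.σ q w)).fixingSubgroup,
      (s₁ : PadicAlgCl (q.1 : ℕ) ≃ₐ[ℚ_[(q.1 : ℕ)]] PadicAlgCl (q.1 : ℕ)) ∈
        (Floc (q.1 : ℕ) N (𝔓.σ q w)).fixingSubgroup →
      (s₂ : PadicAlgCl (q.1 : ℕ) ≃ₐ[ℚ_[(q.1 : ℕ)]] PadicAlgCl (q.1 : ℕ)) ∈
        (Floc (q.1 : ℕ) N (𝔓.σ q w)).fixingSubgroup →
      cw (h₁ * s₁, h₂ * s₂) = cw (h₁, h₂) := by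
    intro h₁ h₂ s₁ s₂ hs₁ hs₂
    simp only [hcw, ofLoc_mul, map_mul]
    rw [hc.1 _ _ _ _ (hρN s₁ hs₁) (hρN s₂ hs₂)]
  have hbwlev : ∀ h s : ↥(Floc (q.1 : ℕ) K (𝔓.σ q w)).fixingSubgroup,
      (s : PadicAlgCl (q.1 : ℕ) ≃ₐ[ℚ_[(q.1 : ℕ)]] PadicAlgCl (q.1 : ℕ)) ∈
        (Floc (q.1 : ℕ) N (𝔓.σ q w)).fixingSubgroup → bw (h * s) = bw h := by
    intro h s hs
    simp only [hbw, ofLoc_mul, map_mul]
    rw [hb.1 _ _ (hρN s hs)]
  -- `cwᵖ = d bw`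
  have hpw : ∀ h₁ h₂ : ↥(Floc (q.1 : ℕ) K (𝔓.σ q w)).fixingSubgroup,
      cw (h₁, h₂) ^ p * bw (h₁ * h₂) =
        (h₁ : PadicAlgCl (q.1 : ℕ) ≃ₐ[ℚ_[(q.1 : ℕ)]] PadicAlgCl (q.1 : ℕ)) (bw h₂) * bw h₁ := by
    intro h₁ h₂
    have h1 := hpow (𝔓.ρw q w (ofLoc 𝔓 q w h₁), 𝔓.ρw q w (ofLoc 𝔓 q w h₂))
    simp only [mOne] at h1
    rw [div_mul_eq_mul_div, eq_div_iff_mul_eq'] at h1
    have h2 := congrArg (fun u : Qbˣ => jw 𝔓 q w (u : Qb)) h1
    simp only [Units.val_mul, Units.val_pow_eq_pow_val, map_mul, map_pow] at h2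
    have h3 : jw 𝔓 q w (((𝔓.ρw q w (ofLoc 𝔓 q w h₁) •
        b (𝔓.ρw q w (ofLoc 𝔓 q w h₂)) : Qbˣ)) : Qb) =
        (h₁ : PadicAlgCl (q.1 : ℕ) ≃ₐ[ℚ_[(q.1 : ℕ)]] PadicAlgCl (q.1 : ℕ)) (bw h₂) :=
      jw_ρw 𝔓 q w (ofLoc 𝔓 q w h₁) _
    rw [h3] at h2
    simp only [hcw, hbw, ofLoc_mul, map_mul]
    exact h2
  -- `β'` is locally level constant
  have hβ'loc : LOC.IsLoc₁ (Floc (q.1 : ℕ) K (𝔓.σ q w)).fixingSubgroup β' := by
    obtain ⟨L, hLfd, hL⟩ := hβlev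
    haveI := hLfd
    refine ⟨Floc (q.1 : ℕ) L 1, finiteDimensional_Floc _ _ _, ?_⟩
    intro g' s hs
    have h1 := (mem_fixingSubgroup_Floc (q.1 : ℕ) L 1 _).1 hs
    rw [inv_one, one_mul, mul_one] at h1
    exact hL (ofLoc 𝔓 q w g') (ofLoc 𝔓 q w s) h1
  have hβ'eq : ∀ h₁ h₂ : ↥(Floc (q.1 : ℕ) K (𝔓.σ q w)).fixingSubgroup,
      cw (h₁, h₂) * β' (h₁ * h₂) =
        (h₁ : PadicAlgCl (q.1 : ℕ) ≃ₐ[ℚ_[(q.1 : ℕ)]] PadicAlgCl (q.1 : ℕ)) (β' h₂) * β' h₁ :=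
    fun h₁ h₂ => hβ (ofLoc 𝔓 q w h₁) (ofLoc 𝔓 q w h₂)
  obtain ⟨b₁, hb₁0, hb₁E, hb₁lev, hb₁⟩ := H25.stmt_LocS_H90 (q.1 : ℕ)
    (Floc (q.1 : ℕ) K (𝔓.σ q w)) (Floc (q.1 : ℕ) N (𝔓.σ q w))
    (finiteDimensional_Floc _ _ _) (finiteDimensional_Floc _ _ _) (Floc_mono hKN _ _)
    (Floc_stable 𝔓 q w N hstab) cw β' hcwE hcw0 hcwlev (fun h => hβ0 _) hβ'loc hβ'eq
  -- the element of `Γ_w` inducing `g` on `N`
  obtain ⟨h, hh⟩ := rlf_exists_local 𝔓 q w N hKN A hA g hgA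
  have hgN : ((g⁻¹ * 𝔓.ρw q w h : ↥K.fixingSubgroup) : GQ) ∈ N.fixingSubgroup := by
    rw [IntermediateField.mem_fixingSubgroup_iff]
    intro y hy
    show ((g : GQ)⁻¹ * (𝔓.ρw q w h : GQ)) y = y
    rw [AlgEquiv.mul_apply, hh y hy]
    exact AlgEquiv.symm_apply_apply _ y
  have hbg : b (𝔓.ρw q w h) = b g := by
    have h1 := hb.1 g (g⁻¹ * 𝔓.ρw q w h) hgN
    rwa [mul_inv_cancel_left] at h1
  have hnorm := rlf_core (q.1 : ℕ) p (Floc (q.1 : ℕ) K (𝔓.σ q w))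
    (Floc (q.1 : ℕ) N (𝔓.σ q w)) (finiteDimensional_Floc _ _ _) cw bw b₁ hcw0 hbw0 hb₁0
    hbwlev hb₁lev hpw hb₁ (toLoc 𝔓 q w h)
  obtain ⟨k, hk⟩ := hVal S N hNS (q.1 : ℕ) (fun q' hq' => by
      have : q' = q.1 := Subtype.ext hq'
      rw [this]
      exact hq) (𝔓.σ q w) (b₁ (toLoc 𝔓 q w h)) (hb₁E _) (hb₁0 _)
  refine ⟨k, rlf_ordIs_of_norm_jw 𝔓 q w A hA (Units.ne_zero _) ?_⟩
  have h1 : bw (toLoc 𝔓 q w h) = jw 𝔓 q w ((b g : Qbˣ) : Qb) := by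
    simp only [hbw, ofLoc_toLoc, hbg]
  rw [← h1, hnorm, hk, ← zpow_natCast, ← zpow_mul, mul_comm]

end Fermat.Agent.S55.CFT.GS.H6

end

end
-- ==== END Fermat.Agent.S55.CFT.GS.H6_ResLocFwd

-- ==== BEGIN Fermat.Agent.S56.FL.H15_CC2Step
section

set_option autoImplicit false
set_option linter.style.haveILetI false
set_option linter.unusedSectionVars false

/-!
# LOC-p-FL, package UNITS / CC2 (helper15): the levels

`e' = (p-1) e₀`, levels `e' ≤ i ≤ p e₀`.  The special level is `i*` with `(i* - e')(p+1) = 2 e₀`.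

* `CoreCtx.IsTameGen`            : a generator `σ₁` of the tame inertia of `K`.
* `CoreCtx.witAt_succ`           : one step `i → i+1` at a non special level `i < p e₀`.
* `CoreCtx.witAt_of_le`          : from level `i₀` to level `i` if no special level is in between.
* `CoreCtx.psi_eq_zero_of_witAt` : a witness at the top level `p e₀` forces `ψ_x = 0` on `N`.
-/

noncomputable section

namespace Fermat.Agent.S56.FL.H15

open scoped NNReal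
open Fermat.Agent.S56.FL Fermat.Agent.Lib.LocalKummer Fermat.Agent.S56.FL.H85 Module

/-- The special level `i*`: `(i* - e') (p + 1) = 2 e₀`, `e' = (p - 1) e₀`. -/
def IsSpecial (p e₀ i : ℕ) : Prop := (p - 1) * e₀ ≤ i ∧ (i - (p - 1) * e₀) * (p + 1) = 2 * e₀

theorem isSpecial_of_dvd {p e₀ i : ℕ} (hp : p.Prime) (hp2 : p ≠ 2) (he₀ : 0 < e₀)
    (hie : (p - 1) * e₀ ≤ i) (hi : i < p * e₀)
    (hdvd : (p - 1) * e₀ ∣ (p + 1) / 2 * i - e₀) : IsSpecial p e₀ i := by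
  obtain ⟨q, hq⟩ : ∃ q, p = 2 * q + 1 := by
    rcases hp.eq_two_or_odd' with h | h
    · exact absurd h hp2
    · obtain ⟨q, hq⟩ := h; exact ⟨q, hq⟩
  have hq1 : 1 ≤ q := by
    have := hp.two_le; omega
  subst hq
  have h1 : (2 * q + 1 - 1) = 2 * q := by omega
  have h2 : (2 * q + 1 + 1) / 2 = q + 1 := by omega
  rw [h1] at hie hdvd
  rw [h2] at hdvd
  unfold IsSpecial
  rw [h1]
  refine ⟨hie, ?_⟩
  obtain ⟨i', rfl⟩ : ∃ i', i = 2 * q * e₀ + i' := ⟨i - 2 * q * e₀, by omega⟩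
  have hi' : i' < e₀ := by
    have : (2 * q + 1) * e₀ = 2 * q * e₀ + e₀ := by ring
    omega
  rw [Nat.add_sub_cancel_left]
  -- the integer `d = (q+1) i' - e₀`
  have hqe : e₀ ≤ 2 * q * e₀ := by nlinarith
  have hge : e₀ ≤ (q + 1) * (2 * q * e₀ + i') := by nlinarith
  have hd : ((2 * q * e₀ : ℕ) : ℤ) ∣ ((q + 1 : ℕ) : ℤ) * (i' : ℤ) - (e₀ : ℤ) := by
    have h3 : ((2 * q * e₀ : ℕ) : ℤ) ∣ (((q + 1) * (2 * q * e₀ + i') - e₀ : ℕ) : ℤ) :=
      Int.natCast_dvd_natCast.mpr hdvd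
    rw [Nat.cast_sub hge] at h3
    have h4 : (((q + 1) * (2 * q * e₀ + i') : ℕ) : ℤ) - (e₀ : ℤ)
        = ((q + 1 : ℕ) : ℤ) * (i' : ℤ) - (e₀ : ℤ) + ((2 * q * e₀ : ℕ) : ℤ) * ((q + 1 : ℕ) : ℤ) := by
      push_cast; ring
    rw [h4] at h3
    exact (Int.dvd_add_left (dvd_mul_right _ _)).mp h3
  have habs : |((q + 1 : ℕ) : ℤ) * (i' : ℤ) - (e₀ : ℤ)| < ((2 * q * e₀ : ℕ) : ℤ) := by
    rw [abs_lt]
    push_cast
    have hq1' : (1 : ℤ) ≤ q := by exact_mod_cast hq1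
    have he₀' : (0 : ℤ) < e₀ := by exact_mod_cast he₀
    have hi'' : (i' : ℤ) < e₀ := by exact_mod_cast hi'
    have hi0 : (0 : ℤ) ≤ i' := by positivity
    constructor <;> nlinarith
  have hzero := Int.eq_zero_of_abs_lt_dvd hd habs
  have hnat : (q + 1) * i' = e₀ := by
    have : ((q + 1 : ℕ) : ℤ) * (i' : ℤ) = (e₀ : ℤ) := by linarith
    exact_mod_cast this
  rw [← hnat]; ring

/-- `p ∤ i*`. -/
theorem IsSpecial.not_dvd {p e₀ i : ℕ} (hp : p.Prime) (hp2 : p ≠ 2) (hpe : ¬ p ∣ e₀)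
    (h : IsSpecial p e₀ i) : ¬ p ∣ i := by
  obtain ⟨h1, h2⟩ := h
  intro hdvd
  -- i (p+1) = e₀ (p^2+1)
  have hp1 : 1 ≤ p := hp.one_lt.le
  have h3 : i * (p + 1) = e₀ * (p * p + 1) := by
    have h4 : i = (i - (p - 1) * e₀) + (p - 1) * e₀ := by omega
    have h5 : (p - 1) * (p + 1) + 2 = p * p + 1 := by
      obtain ⟨q, rfl⟩ : ∃ q, p = q + 1 := ⟨p - 1, by omega⟩
      simp only [Nat.add_sub_cancel]; ring
    calc i * (p + 1) = ((i - (p - 1) * e₀) + (p - 1) * e₀) * (p + 1) := by rw [← h4]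
      _ = (i - (p - 1) * e₀) * (p + 1) + e₀ * ((p - 1) * (p + 1)) := by ring
      _ = 2 * e₀ + e₀ * ((p - 1) * (p + 1)) := by rw [h2]
      _ = e₀ * ((p - 1) * (p + 1) + 2) := by ring
      _ = e₀ * (p * p + 1) := by rw [h5]
  have h6 : p ∣ e₀ * (p * p + 1) := by
    rw [← h3]; exact Dvd.dvd.mul_right hdvd _
  rcases (Nat.Prime.dvd_mul hp).mp h6 with h7 | h7
  · exact hpe h7
  · have h8 : p ∣ 1 := (Nat.dvd_add_right (dvd_mul_right p p)).mp h7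
    exact hp.one_lt.ne' (Nat.dvd_one.mp h8)

theorem IsSpecial.lt {p e₀ i : ℕ} (hp : p.Prime) (he₀ : 0 < e₀)
    (h : IsSpecial p e₀ i) : i < p * e₀ := by
  obtain ⟨h1, h2⟩ := h
  have hp2 := hp.two_le
  have h3 : (i - (p - 1) * e₀) < e₀ := by
    by_contra hcon
    have h4 : e₀ ≤ i - (p - 1) * e₀ := not_lt.mp hcon
    have h5 : e₀ * (p + 1) ≤ (i - (p - 1) * e₀) * (p + 1) := Nat.mul_le_mul_right _ h4
    rw [h2] at h5
    nlinarith
  have h6 : p * e₀ = (p - 1) * e₀ + e₀ := by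
    obtain ⟨q, rfl⟩ : ∃ q, p = q + 1 := ⟨p - 1, by omega⟩
    simp only [Nat.add_sub_cancel]; ring
  omega

/-- `e' ∤ i* (p - 1)`. -/
theorem IsSpecial.not_dvd_mul {p e₀ i : ℕ} (hp : p.Prime) (he₀ : 0 < e₀)
    (h : IsSpecial p e₀ i) : ¬ (p - 1) * e₀ ∣ i * (p - 1) := by
  have hlt := h.lt hp he₀
  obtain ⟨h1, h2⟩ := h
  have hp2 := hp.two_le
  intro hdvd
  set i' := i - (p - 1) * e₀ with hi'
  have h4 : i = i' + (p - 1) * e₀ := by omega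
  have h6 : p * e₀ = (p - 1) * e₀ + e₀ := by
    obtain ⟨q, rfl⟩ : ∃ q, p = q + 1 := ⟨p - 1, by omega⟩
    simp only [Nat.add_sub_cancel]; ring
  have hi'lt : i' < e₀ := by omega
  have hi'pos : 0 < i' := by
    rcases Nat.eq_zero_or_pos i' with h0 | h0
    · rw [h0, zero_mul] at h2; omega
    · exact h0
  have h7 : i * (p - 1) = i' * (p - 1) + (p - 1) * e₀ * (p - 1) := by rw [h4]; ring
  rw [h7] at hdvd
  have h8 : (p - 1) * e₀ ∣ i' * (p - 1) := (Nat.dvd_add_left (dvd_mul_right _ _)).mp hdvd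
  have h9 : i' * (p - 1) < (p - 1) * e₀ := by
    have : 0 < p - 1 := by omega
    calc i' * (p - 1) < e₀ * (p - 1) := Nat.mul_lt_mul_of_pos_right hi'lt this
      _ = (p - 1) * e₀ := mul_comm _ _
  have h10 : 0 < i' * (p - 1) := Nat.mul_pos hi'pos (by omega)
  exact absurd (Nat.le_of_dvd h10 h8) (not_le.mpr h9)

variable {p : ℕ} [Fact p.Prime] {k : Type} [Field k] [CharP k p]

namespace CoreCtx

variable {C : CoreCtx p k}

/-- A generator of the tame inertia of `K`, compatible with `χ`. -/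
structure IsTameGen (C : CoreCtx p k) (σ₁ : Gp p) : Prop where
  inert : σ₁ ∈ inertiaP p
  memG : σ₁ ∈ C.G₂
  ord : ∀ n : ℕ, ‖(σ₁ C.ϖ / C.ϖ) ^ n - 1‖ < 1 ↔ (p - 1) * C.e₀ ∣ n
  lam : C.lam σ₁ ^ ((p + 1) / 2) = cst p k ((omg C.hζ σ₁ : (ZMod p)ˣ) : ZMod p)

theorem ζ_mem_K (C : CoreCtx p k) : C.ζ ∈ C.K := C.lev.hζK

/-- The twist `σ α / α^m` of a witness of `ψ_x` is a witness of `ψ_{(λ(σ) - m) x}`. -/
theorem twist_isWit {h : Gp p → k} (hk : C.IsKum h) {x : k} {α : PadicAlgCl p}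
    (hα : IsWit C.L C.N C.ζ (C.psi h x) α) {σ : Gp p} (hσG : σ ∈ C.G₂) (m : ℕ) :
    IsWit C.L C.N C.ζ (C.psi h ((C.lam σ - (m : k)) * x)) (σ α / α ^ m) := by
  haveI := C.normalL
  refine ((hα.conj C.hζ C.hN σ).div C.hζ.pow_eq_one (hα.pow C.hζ.pow_eq_one m)).congr ?_
  intro n hn
  rw [hk.psi_conj x hσG hn, ← C.psi_natCast h m x n, sub_mul, sub_eq_add_neg,
    sub_eq_add_neg, C.psi_add, C.psi_neg]

theorem twist_pow (σ : Gp p) (α : PadicAlgCl p) (m : ℕ) :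
    (σ α / α ^ m) ^ p = σ (α ^ p) / (α ^ p) ^ m := by
  rw [div_pow, map_pow, ← pow_mul, ← pow_mul, mul_comm m p]

theorem norm_div_sub_one {a b : PadicAlgCl p} (hb : ‖b‖ = 1) : ‖a / b - 1‖ = ‖a - b‖ := by
  have hb0 : b ≠ 0 := by
    intro h0; rw [h0, norm_zero] at hb; exact zero_ne_one hb
  have : a / b - 1 = (a - b) / b := by field_simp
  rw [this, norm_div, hb, div_one]

/-- **STEP-core.** -/
theorem step_core {h : Gp p → k} (hk : C.IsKum h) {x : k} {α : PadicAlgCl p}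
    (hα : IsWit C.L C.N C.ζ (C.psi h x) α) {i : ℕ} (hpi : ¬ p ∣ i) (hi : i < p * C.e₀)
    (hn : ‖α ^ p - 1‖ ≤ ‖C.ϖ‖ ^ i) {σ : Gp p} (hσ : σ ∈ inertiaP p) (hσG : σ ∈ C.G₂) {m : ℕ}
    (hm : C.lam σ = (m : k)) :
    ‖α ^ p - 1‖ < ‖C.ϖ‖ ^ i ∨ ‖(σ C.ϖ / C.ϖ) ^ i - (m : PadicAlgCl p)‖ < 1 := by
  have hi0 : 0 < i := by
    rcases Nat.eq_zero_or_pos i with h0 | h0
    · exact absurd (h0 ▸ dvd_zero p) hpi
    · exact h0
  have haK : α ^ p ∈ C.K := hα.pow_p_mem_kField C.hζ.pow_eq_one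
  have ha1 : ‖α ^ p‖ = 1 := norm_eq_one_of_sub_lt (hn.trans_lt (C.lev.pow_lt_one' hi0))
  have ham : ‖(α ^ p) ^ m‖ = 1 := by rw [norm_pow, ha1, one_pow]
  have hγ := twist_isWit hk hα hσG m
  rw [hm, sub_self, zero_mul] at hγ
  have hγK : σ α / α ^ m ∈ C.K := by
    refine hγ.mem_kField_of_zero fun n _ => ?_
    unfold psi; rw [zero_mul, map_zero]
  have hle : ‖(σ α / α ^ m) ^ p - 1‖ ≤ ‖C.ϖ‖ ^ i := by
    rw [twist_pow, norm_div_sub_one ham]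
    exact C.lev.norm_twist_le hn σ m
  have hlt := C.lev.lev1 hγK hpi hi hle
  rw [twist_pow, norm_div_sub_one ham] at hlt
  rcases lt_or_eq_of_le hn with h1 | h1
  · exact Or.inl h1
  · exact Or.inr (C.lev.norm_theta_sub_lt haK hi0 h1 hσ hlt)

/-- The twist of a witness at level `i` by `σ` with `θ_σ^i ≡ m` is a witness at level `i + 1`. -/
theorem twist_witAt {h : Gp p → k} (hk : C.IsKum h) {x : k} {i : ℕ} (hi : 0 < i)
    (hw : C.WitAt h x (‖C.ϖ‖ ^ i)) {σ : Gp p} (hσ : σ ∈ inertiaP p) (hσG : σ ∈ C.G₂) {m : ℕ}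
    (hθ : ‖(σ C.ϖ / C.ϖ) ^ i - (m : PadicAlgCl p)‖ < 1) :
    C.WitAt h ((C.lam σ - (m : k)) * x) (‖C.ϖ‖ ^ (i + 1)) := by
  obtain ⟨α, hα, hn⟩ := hw
  have haK : α ^ p ∈ C.K := hα.pow_p_mem_kField C.hζ.pow_eq_one
  have ha1 : ‖α ^ p‖ = 1 := norm_eq_one_of_sub_lt (hn.trans_lt (C.lev.pow_lt_one' hi))
  have ham : ‖(α ^ p) ^ m‖ = 1 := by rw [norm_pow, ha1, one_pow]
  have hγ := twist_isWit hk hα hσG m
  refine ⟨σ α / α ^ m, hγ, ?_⟩
  have hγK : (σ α / α ^ m) ^ p - 1 ∈ C.K :=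
    C.K.sub_mem (hγ.pow_p_mem_kField C.hζ.pow_eq_one) C.K.one_mem
  refine C.lev.le_pow_succ hγK ?_
  rw [twist_pow, norm_div_sub_one ham]
  exact C.lev.norm_twist_lt haK hi hn hσ hθ

/-- Above the top level all witnesses are trivial. -/
theorem psi_eq_zero_of_witAt_top [hfd : FiniteDimensional ℚ_[p] C.L] {h : Gp p → k} {x : k}
    (hw : C.WitAt h x (‖C.ϖ‖ ^ (p * C.e₀ + 1))) {n : Gp p} (hn : n ∈ C.N) : C.psi h x n = 0 := by
  have hp : p.Prime := Fact.out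
  obtain ⟨α, hα, hle⟩ := hw
  have haK : α ^ p ∈ C.K := hα.pow_p_mem_kField C.hζ.pow_eq_one
  obtain ⟨b, hbK, hb⟩ := C.lev.hens haK hle
  have hb0 : b ≠ 0 := by
    rintro rfl
    rw [zero_pow hp.ne_zero] at hb
    exact pow_ne_zero _ hα.ne_zero hb.symm
  have h1 : (α / b) ^ p = 1 := by rw [div_pow, hb, div_self (pow_ne_zero _ hα.ne_zero)]
  obtain ⟨j, -, hj⟩ := C.hζ.eq_pow_of_pow_eq_one h1
  have hαK : α ∈ C.K := by
    have : α = C.ζ ^ j * b := by rw [hj]; field_simp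
    rw [this]
    exact C.K.mul_mem (pow_mem C.ζ_mem_K j) hbK
  exact hα.zero_of_fixed C.hζ (fun n hn => (mem_kField.mp hαK).2 n hn) hn

/-! ## The steps -/

/-- `n₁ = ω(σ)` as a natural number. -/
def omN (C : CoreCtx p k) (σ : Gp p) : ℕ := ((omg C.hζ σ : (ZMod p)ˣ) : ZMod p).val

theorem cst_omg (C : CoreCtx p k) (σ : Gp p) :
    cst p k ((omg C.hζ σ : (ZMod p)ˣ) : ZMod p) = ((C.omN σ : ℕ) : k) := by
  unfold omN
  rw [ZMod.natCast_val]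
  rfl

theorem natCast_omN (C : CoreCtx p k) (σ : Gp p) :
    ((C.omN σ : ℕ) : ZMod p) = ((omg C.hζ σ : (ZMod p)ˣ) : ZMod p) := by
  unfold omN
  rw [ZMod.natCast_zmod_val]

theorem map_ζ (C : CoreCtx p k) (σ : Gp p) : σ C.ζ = C.ζ ^ C.omN σ := omg_spec C.hζ σ

/-- `ω = θ^{e₀}` for the tame generator. -/
theorem IsTameGen.norm_theta_e₀ {σ₁ : Gp p} (hg : C.IsTameGen σ₁) :
    ‖(σ₁ C.ϖ / C.ϖ) ^ C.e₀ - (C.omN σ₁ : PadicAlgCl p)‖ < 1 :=
  C.lev.norm_theta_pow_sub hg.inert (C.map_ζ σ₁)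

theorem norm_sub_lt_trans {a b c : PadicAlgCl p} (h1 : ‖a - b‖ < 1) (h2 : ‖b - c‖ < 1) :
    ‖a - c‖ < 1 := by
  have : a - c = (a - b) + (b - c) := by ring
  rw [this]
  exact (IsUltrametricDist.norm_add_le_max _ _).trans_lt (max_lt h1 h2)

/-- `θ₁^a ≡ θ₁^b` with `b ≤ a` implies `e' ∣ a - b`. -/
theorem IsTameGen.dvd_sub {σ₁ : Gp p} (hg : C.IsTameGen σ₁) {a b : ℕ} (hab : b ≤ a)
    (h : ‖(σ₁ C.ϖ / C.ϖ) ^ a - (σ₁ C.ϖ / C.ϖ) ^ b‖ < 1) : (p - 1) * C.e₀ ∣ a - b := by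
  rw [← hg.ord]
  have h1 : (σ₁ C.ϖ / C.ϖ) ^ a - (σ₁ C.ϖ / C.ϖ) ^ b
      = (σ₁ C.ϖ / C.ϖ) ^ b * ((σ₁ C.ϖ / C.ϖ) ^ (a - b) - 1) := by
    rw [mul_sub, mul_one, ← pow_add, Nat.add_sub_cancel' hab]
  rw [h1, norm_mul, norm_pow, C.lev.norm_theta σ₁, one_pow, one_mul] at h
  exact h

/-- If `θ_{σ₁^j}^i ≡ ω(σ₁)` then `e' ∣ j i - e₀`. -/
theorem IsTameGen.dvd_of_theta {σ₁ : Gp p} (hg : C.IsTameGen σ₁) {i j : ℕ} (hij : C.e₀ ≤ j * i)
    (h : ‖((σ₁ ^ j) C.ϖ / C.ϖ) ^ i - (C.omN σ₁ : PadicAlgCl p)‖ < 1) :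
    (p - 1) * C.e₀ ∣ j * i - C.e₀ := by
  refine hg.dvd_sub hij ?_
  have h1 : ‖((σ₁ ^ j) C.ϖ / C.ϖ) ^ i - (σ₁ C.ϖ / C.ϖ) ^ (j * i)‖ < 1 := by
    rw [pow_mul]
    refine (norm_pow_sub_pow_le_algCl (C.lev.norm_theta _).le ?_ i).trans_lt
      (C.lev.norm_theta_pow_pow_sub hg.inert j)
    rw [norm_pow, C.lev.norm_theta, one_pow]
  have h2 : ‖(σ₁ C.ϖ / C.ϖ) ^ (j * i) - ((σ₁ ^ j) C.ϖ / C.ϖ) ^ i‖ < 1 := by
    rw [norm_sub_rev]; exact h1
  have h3 : ‖(C.omN σ₁ : PadicAlgCl p) - (σ₁ C.ϖ / C.ϖ) ^ C.e₀‖ < 1 := by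
    rw [norm_sub_rev]; exact hg.norm_theta_e₀
  exact norm_sub_lt_trans (norm_sub_lt_trans h2 h) h3

theorem IsTameGen.lam_pow_half {σ₁ : Gp p} (hg : C.IsTameGen σ₁) :
    C.lam (σ₁ ^ ((p + 1) / 2)) = ((C.omN σ₁ : ℕ) : k) := by
  rw [C.lam_pow hg.memG, hg.lam, C.cst_omg]

/-- **STEP** at a level `i` prime to `p`, not special. -/
theorem witAt_succ_of_not_dvd (hp2 : p ≠ 2) {h : Gp p → k} (hk : C.IsKum h) {σ₁ : Gp p}
    (hg : C.IsTameGen σ₁) {x : k} {i : ℕ} (hie : (p - 1) * C.e₀ ≤ i) (hi : i < p * C.e₀)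
    (hpi : ¬ p ∣ i) (hsp : ¬ IsSpecial p C.e₀ i) (hw : C.WitAt h x (‖C.ϖ‖ ^ i)) :
    C.WitAt h x (‖C.ϖ‖ ^ (i + 1)) := by
  have hp : p.Prime := Fact.out
  obtain ⟨α, hα, hn⟩ := hw
  have haK : α ^ p - 1 ∈ C.K := C.K.sub_mem (hα.pow_p_mem_kField C.hζ.pow_eq_one) C.K.one_mem
  have hσ : σ₁ ^ ((p + 1) / 2) ∈ inertiaP p := (inertiaP p).pow_mem hg.inert _
  have hσG : σ₁ ^ ((p + 1) / 2) ∈ C.G₂ := C.G₂.pow_mem hg.memG _
  rcases step_core hk hα hpi hi hn hσ hσG hg.lam_pow_half with h1 | h1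
  · exact ⟨α, hα, C.lev.le_pow_succ haK h1⟩
  · exfalso
    have he₀ : 0 < C.e₀ := C.lev.e₀_pos
    have hj : 1 ≤ (p + 1) / 2 := by have := hp.two_le; omega
    have hp1 : 1 ≤ p - 1 := by have := hp.two_le; omega
    have hij : C.e₀ ≤ (p + 1) / 2 * i := by
      calc C.e₀ = 1 * C.e₀ := (one_mul _).symm
        _ ≤ (p - 1) * C.e₀ := Nat.mul_le_mul_right _ hp1
        _ ≤ i := hie
        _ = 1 * i := (one_mul _).symm
        _ ≤ (p + 1) / 2 * i := Nat.mul_le_mul_right _ hj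
    exact hsp (isSpecial_of_dvd hp hp2 he₀ hie hi (hg.dvd_of_theta hij h1))

/-- **STEP'** at a level `i` divisible by `p`. -/
theorem witAt_succ_of_dvd [FiniteDimensional ℚ_[p] C.L] {h : Gp p → k} {x : k} {i : ℕ}
    (hi0 : 0 < i) (hi : i < p * C.e₀) (hpi : p ∣ i) (hw : C.WitAt h x (‖C.ϖ‖ ^ i)) :
    C.WitAt h x (‖C.ϖ‖ ^ (i + 1)) := by
  obtain ⟨α, hα, hn⟩ := hw
  have haK : α ^ p ∈ C.K := hα.pow_p_mem_kField C.hζ.pow_eq_one
  obtain ⟨b, hbK, hb0, hb⟩ := C.lev.lev3 haK hpi hi0 hi hn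
  refine ⟨α * b, (hα.mul C.hζ.pow_eq_one (isWit_of_mem_kField hbK hb0)).congr
    fun n _ => by simp, ?_⟩
  rw [mul_pow]
  exact C.lev.le_pow_succ (C.K.sub_mem (C.K.mul_mem haK (pow_mem hbK p)) C.K.one_mem) hb

/-- From level `i₀` to level `i` when no special level lies in `[i₀, i)`. -/
theorem witAt_of_le (hp2 : p ≠ 2) [FiniteDimensional ℚ_[p] C.L] {h : Gp p → k} (hk : C.IsKum h)
    {σ₁ : Gp p} (hg : C.IsTameGen σ₁) {x : k} {i₀ i : ℕ} (h0 : (p - 1) * C.e₀ ≤ i₀)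
    (h01 : i₀ ≤ i) (hi : i ≤ p * C.e₀)
    (hns : ∀ j, i₀ ≤ j → j < i → ¬ IsSpecial p C.e₀ j) (hw : C.WitAt h x (‖C.ϖ‖ ^ i₀)) :
    C.WitAt h x (‖C.ϖ‖ ^ i) := by
  have hp : p.Prime := Fact.out
  have he' : 0 < (p - 1) * C.e₀ :=
    Nat.mul_pos (by have := hp.two_le; omega) C.lev.e₀_pos
  induction i, h01 using Nat.le_induction with
  | base => exact hw
  | succ j hj ih =>
    have hwj := ih (by omega) (fun l hl1 hl2 => hns l hl1 (by omega))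
    by_cases hpj : p ∣ j
    · exact witAt_succ_of_dvd (by omega) (by omega) hpj hwj
    · exact witAt_succ_of_not_dvd hp2 hk hg (by omega) (by omega) hpj
        (hns j hj (by omega)) hwj

end CoreCtx

end Fermat.Agent.S56.FL.H15

end

end
-- ==== END Fermat.Agent.S56.FL.H15_CC2Step

-- ==== BEGIN Fermat.Agent.S56.FL.H38_CC3Lev
section

set_option autoImplicit false

/-!
# LOC-p-FL, CC3z leaves N2, LevC, LevD (helper38)

Local-field facts on `S = ℚ_p^{ur}(ζ_p)` (`H59.InS`): `θ = ‖ζ - 1‖`, `θ ^ (p - 1) = p⁻¹`.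

* `stmt_N2`   : `x ∈ S`, `‖x‖ < 1 ⟹ ‖x‖ ≤ θ`.
* `stmt_LevC` : inertia acts trivially on `U^{(p-1)}/U^{(p)}`.
* `stmt_LevD` : inertia acts through `ω` on `U^{(p)}/U^{(p+1)}`.
-/

noncomputable section

namespace Fermat.Agent.S56.FL.H38

open scoped NNReal
open Fermat.Agent.S56.FL Polynomial Module

variable {p : ℕ} [Fact p.Prime]

/-! ## The field `S` -/

theorem inS_sub {x y : PadicAlgCl p} (hx : H59.InS p x) (hy : H59.InS p y) :
    H59.InS p (x - y) := by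
  intro τ hτ h
  rw [map_sub, hx τ hτ h, hy τ hτ h]

theorem inS_mul {x y : PadicAlgCl p} (hx : H59.InS p x) (hy : H59.InS p y) :
    H59.InS p (x * y) := by
  intro τ hτ h
  rw [map_mul, hx τ hτ h, hy τ hτ h]

theorem inS_div {x y : PadicAlgCl p} (hx : H59.InS p x) (hy : H59.InS p y) :
    H59.InS p (x / y) := by
  intro τ hτ h
  rw [map_div₀, hx τ hτ h, hy τ hτ h]

theorem inS_pow {x : PadicAlgCl p} (hx : H59.InS p x) (n : ℕ) : H59.InS p (x ^ n) := by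
  intro τ hτ h
  rw [map_pow, hx τ hτ h]

theorem inS_one : H59.InS p (1 : PadicAlgCl p) := fun τ _ _ => map_one τ

theorem inS_natCast (n : ℕ) : H59.InS p (n : PadicAlgCl p) := fun τ _ _ => map_natCast τ n

theorem inS_zeta {ζ : PadicAlgCl p} (hζ : ζ ^ p = 1) : H59.InS p ζ := fun _ _ h => h ζ hζ

/-- `S` is stable under `Gal(K̄/ℚ_p)`. -/
theorem inS_map {x : PadicAlgCl p} (hx : H59.InS p x) (g : Gp p) : H59.InS p (g x) := by
  intro τ hτ h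
  have h1 : g⁻¹ * τ * g ∈ inertiaP p := by
    have := inertiaP_normal.conj_mem τ hτ g⁻¹
    rwa [inv_inv] at this
  have h2 : ∀ ζ : PadicAlgCl p, ζ ^ p = 1 → (g⁻¹ * τ * g) ζ = ζ := by
    intro ζ hζ
    have h3 : (g ζ) ^ p = 1 := by rw [← map_pow, hζ, map_one]
    rw [AlgEquiv.mul_apply, AlgEquiv.mul_apply, h (g ζ) h3, ← AlgEquiv.mul_apply, inv_mul_cancel,
      AlgEquiv.one_apply]
  have h4 := hx _ h1 h2
  rw [AlgEquiv.mul_apply, AlgEquiv.mul_apply] at h4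
  have h5 := congrArg g h4
  rwa [← AlgEquiv.mul_apply g g⁻¹, mul_inv_cancel, AlgEquiv.one_apply] at h5

/-! ## N2 -/

/-- **N2**: `H59.Stmt_N2`. -/
theorem stmt_N2 : H59.Stmt_N2 := by
  intro p _ x hx hx1
  have hp : p.Prime := Fact.out
  obtain ⟨ζ, hζ1, hζp⟩ := H15.exists_zeta (p := p)
  have hprim : IsPrimitiveRoot ζ p := by
    rw [IsPrimitiveRoot.iff_orderOf]
    exact orderOf_eq_prime hζp hζ1
  have hex : ∀ u : (ZMod p)ˣ, ∃ τ ∈ inertiaP p, H85.omg hprim τ = u := by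
    intro u
    have hu : ¬ p ∣ (u : ZMod p).val := by
      intro hdvd
      have := (ZMod.natCast_eq_zero_iff _ _).mpr hdvd
      rw [ZMod.natCast_zmod_val] at this
      exact u.ne_zero this
    obtain ⟨τ, hτ, hτζ⟩ := H50.exists_inertia_pow (p := p) hu
    refine ⟨τ, hτ, ?_⟩
    have h3 := hτζ ζ hprim.pow_eq_one
    rw [H85.omg_spec hprim, H85.pow_eq_iff_natCast_eq hprim, ZMod.natCast_zmod_val,
      ZMod.natCast_zmod_val] at h3
    exact Units.ext h3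
  choose T hTI hTω using hex
  set y : PadicAlgCl p := ∏ u : (ZMod p)ˣ, T u x with hy
  have hcard : Fintype.card (ZMod p)ˣ = p - 1 := by
    rw [ZMod.card_units_eq_totient, Nat.totient_prime hp]
  have hy_norm : ‖y‖ = ‖x‖ ^ (p - 1) := by
    rw [hy, norm_prod]
    simp only [norm_gal]
    rw [Finset.prod_const, Finset.card_univ, hcard]
  have hfix : ∀ τ ∈ inertiaP p, τ y = y := by
    intro τ hτ
    have key : ∀ u : (ZMod p)ˣ, τ (T u x) = T (H85.omg hprim τ * u) x := by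
      intro u
      set v : (ZMod p)ˣ := H85.omg hprim τ * u with hv
      have h1 : (T v)⁻¹ * τ * T u ∈ inertiaP p :=
        (inertiaP p).mul_mem ((inertiaP p).mul_mem ((inertiaP p).inv_mem (hTI v)) hτ) (hTI u)
      have h2 : H85.omg hprim ((T v)⁻¹ * τ * T u) = 1 := by
        rw [map_mul, map_mul, map_inv, hTω, hTω, hv]
        group
      have h3 : ∀ ξ : PadicAlgCl p, ξ ^ p = 1 → ((T v)⁻¹ * τ * T u) ξ = ξ := by
        intro ξ hξ
        rw [H85.omg_spec' hprim _ hξ, h2, Units.val_one, ZMod.val_one'' hp.ne_one, pow_one]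
      have h4 := hx _ h1 h3
      rw [AlgEquiv.mul_apply, AlgEquiv.mul_apply] at h4
      have h5 := congrArg (T v) h4
      rwa [← AlgEquiv.mul_apply (T v) (T v)⁻¹, mul_inv_cancel, AlgEquiv.one_apply] at h5
    rw [hy, map_prod, Finset.prod_congr rfl (fun u _ => key u)]
    exact Fintype.prod_equiv (Equiv.mulLeft (H85.omg hprim τ)) _ _ (fun u => rfl)
  have hp1 : p - 1 ≠ 0 := by have := hp.two_le; omega
  have hy1 : ‖y‖ < 1 := by
    rw [hy_norm]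
    exact pow_lt_one₀ (norm_nonneg _) hx1 hp1
  have := norm_le_inv_of_fixed hfix hy1
  rwa [hy_norm] at this

/-! ## LevC, LevD -/

/-- `‖(1 + w) ^ n - 1 - n w‖ ≤ ‖w‖ ^ 2` for an integer `w` of `K̄`. -/
theorem norm_one_add_pow_sub_le_sq {w : PadicAlgCl p} (hw : ‖w‖ ≤ 1) (n : ℕ) :
    ‖(1 + w) ^ n - 1 - n * w‖ ≤ ‖w‖ ^ 2 := by
  have h1w : ‖1 + w‖ ≤ 1 :=
    (IsUltrametricDist.norm_add_le_max _ _).trans (max_le (by rw [norm_one]) hw)
  induction n with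
  | zero => simp
  | succ n ih =>
    have h : (1 + w) ^ (n + 1) - 1 - ((n + 1 : ℕ) : PadicAlgCl p) * w
        = (1 + w) * ((1 + w) ^ n - 1 - n * w) + n * w ^ 2 := by
      push_cast
      ring
    rw [h]
    refine (IsUltrametricDist.norm_add_le_max _ _).trans (max_le ?_ ?_)
    · rw [norm_mul]
      calc ‖1 + w‖ * ‖(1 + w) ^ n - 1 - n * w‖ ≤ 1 * ‖w‖ ^ 2 :=
            mul_le_mul h1w ih (norm_nonneg _) zero_le_one
        _ = ‖w‖ ^ 2 := one_mul _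
    · rw [norm_mul, norm_pow]
      calc ‖(n : PadicAlgCl p)‖ * ‖w‖ ^ 2 ≤ 1 * ‖w‖ ^ 2 :=
            mul_le_mul_of_nonneg_right (norm_natCast_algCl_le_one n) (by positivity)
        _ = ‖w‖ ^ 2 := one_mul _

theorem pred_ne_zero : p - 1 ≠ 0 := by
  have := (Fact.out : p.Prime).two_le
  omega

/-- `N2` in terms of `θ = ‖ζ - 1‖`. -/
theorem norm_le_theta {ζ : PadicAlgCl p} (hζ1 : ζ ≠ 1) (hζp : ζ ^ p = 1) {x : PadicAlgCl p}
    (hx : H59.InS p x) (hx1 : ‖x‖ < 1) : ‖x‖ ≤ ‖ζ - 1‖ := by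
  have h := stmt_N2 p x hx hx1
  rw [← H15.norm_zeta_sub_one hζ1 hζp] at h
  exact le_of_pow_le_pow_left₀ pred_ne_zero (norm_nonneg _) h

theorem norm_eq_one_of_sub_one_lt {a : PadicAlgCl p} (h : ‖a - 1‖ < 1) : ‖a‖ = 1 := by
  have h1 : a = 1 + (a - 1) := by ring
  rw [h1, H15.norm_add_eq_left (by rwa [norm_one]), norm_one]

theorem natCast_p_ne_zero : (p : PadicAlgCl p) ≠ 0 := by
  intro h
  have := H15.norm_p_algCl (p := p)
  rw [h, norm_zero] at this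
  have h2 : (0 : ℝ) < (p : ℝ)⁻¹ := inv_pos.mpr H15.p_pos_real
  linarith

/-- **LevC**: `H59.Stmt_LevC`. -/
theorem stmt_LevC : H59.Stmt_LevC := by
  intro p _ a ha ha1 g hg
  have hp : p.Prime := Fact.out
  have hpR : (1 : ℝ) < p := H15.one_lt_p_real
  have hp0 : (0 : ℝ) < p := H15.p_pos_real
  have hpinv1 : (p : ℝ)⁻¹ < 1 := inv_lt_one_of_one_lt₀ hpR
  have hpK : (p : PadicAlgCl p) ≠ 0 := natCast_p_ne_zero
  have hnp : ‖(p : PadicAlgCl p)‖ = (p : ℝ)⁻¹ := H15.norm_p_algCl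
  have ha_norm : ‖a‖ = 1 := norm_eq_one_of_sub_one_lt (ha1.trans_lt hpinv1)
  have ha0 : a ≠ 0 := by
    intro h
    rw [h, norm_zero] at ha_norm
    exact zero_ne_one ha_norm
  set y : PadicAlgCl p := (a - 1) / p with hy
  have hy_norm : ‖y‖ ≤ 1 := by
    rw [hy, norm_div, hnp]
    exact div_le_one_of_le₀ ha1 (inv_nonneg.mpr hp0.le)
  have hyS : H59.InS p y := inS_div (inS_sub ha inS_one) (inS_natCast p)
  set w : PadicAlgCl p := g y - y with hw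
  have hw1 : ‖w‖ < 1 := hg y hy_norm
  have hwS : H59.InS p w := inS_sub (inS_map hyS g) hyS
  have hwN := stmt_N2 p w hwS hw1
  have hay : a = 1 + p * y := by
    rw [hy]
    field_simp
    ring
  have hga : g a - a = p * w := by
    have h1 : g a = 1 + p * g y := by
      conv_lhs => rw [hay]
      rw [map_add, map_one, map_mul, map_natCast]
    rw [h1, hw]
    conv_lhs => rw [hay]
    ring
  have h2 : g a / a - 1 = (g a - a) / a := by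
    field_simp
  rw [h2, norm_div, ha_norm, div_one, hga, norm_mul, hnp, mul_pow]
  calc ((p : ℝ)⁻¹) ^ (p - 1) * ‖w‖ ^ (p - 1) ≤ ((p : ℝ)⁻¹) ^ (p - 1) * (p : ℝ)⁻¹ :=
        mul_le_mul_of_nonneg_left hwN (by positivity)
    _ = ((p : ℝ)⁻¹) ^ p := by
        rw [← pow_succ, Nat.sub_add_cancel hp.one_le]

/-- **LevD**: `H59.Stmt_LevD`. -/
theorem stmt_LevD : H59.Stmt_LevD := by
  intro p _ _ a ha ha1 g hg n hn
  have hp : p.Prime := Fact.out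
  have hpR : (1 : ℝ) < p := H15.one_lt_p_real
  have hp0 : (0 : ℝ) < p := H15.p_pos_real
  have hpinv1 : (p : ℝ)⁻¹ < 1 := inv_lt_one_of_one_lt₀ hpR
  have hp1 : p - 1 ≠ 0 := pred_ne_zero
  obtain ⟨ζ, hζ1, hζp⟩ := H15.exists_zeta (p := p)
  set π : PadicAlgCl p := ζ - 1 with hπ
  set θ : ℝ := ‖π‖ with hθ
  have hθpow : θ ^ (p - 1) = (p : ℝ)⁻¹ := H15.norm_zeta_sub_one hζ1 hζp
  have hπ0 : π ≠ 0 := sub_ne_zero.mpr hζ1
  have hθ0 : 0 < θ := norm_pos_iff.mpr hπ0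
  have hθ1 : θ < 1 := by
    by_contra h
    have h1 : 1 ≤ θ ^ (p - 1) := one_le_pow₀ (not_lt.mp h)
    rw [hθpow] at h1
    linarith
  -- `‖a - 1‖ ≤ θ ^ p`
  have ha1' : ‖a - 1‖ ≤ θ ^ p := by
    apply le_of_pow_le_pow_left₀ hp1 (by positivity)
    rw [← pow_mul, mul_comm, pow_mul, hθpow]
    exact ha1
  have hθp1 : θ ^ p < 1 := pow_lt_one₀ hθ0.le hθ1 hp.ne_zero
  have ha_norm : ‖a‖ = 1 := norm_eq_one_of_sub_one_lt (ha1'.trans_lt hθp1)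
  have ha0 : a ≠ 0 := by
    intro h
    rw [h, norm_zero] at ha_norm
    exact zero_ne_one ha_norm
  set y : PadicAlgCl p := (a - 1) / π ^ p with hy
  have hy_norm : ‖y‖ ≤ 1 := by
    rw [hy, norm_div, norm_pow]
    exact div_le_one_of_le₀ ha1' (by positivity)
  have hπS : H59.InS p π := inS_sub (inS_zeta hζp) inS_one
  have hyS : H59.InS p y := inS_div (inS_sub ha inS_one) (inS_pow hπS p)
  set w : PadicAlgCl p := g y - y with hw
  have hw1 : ‖w‖ < 1 := hg y hy_norm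
  have hwS : H59.InS p w := inS_sub (inS_map hyS g) hyS
  have hwθ : ‖w‖ ≤ θ := norm_le_theta hζ1 hζp hwS hw1
  -- `g π`
  have hgπ : g π = (1 + π) ^ n - 1 := by
    rw [hπ, map_sub, map_one, hn ζ hζp]
    ring
  have hδ : ‖g π - n * π‖ ≤ θ ^ 2 := by
    rw [hgπ]
    exact norm_one_add_pow_sub_le_sq hθ1.le n
  have hgπ_norm : ‖g π‖ ≤ θ := by rw [norm_gal]
  have hnπ_norm : ‖(n : PadicAlgCl p) * π‖ ≤ θ := by
    rw [norm_mul]
    exact mul_le_of_le_one_left (norm_nonneg _) (norm_natCast_algCl_le_one n)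
  have h1 : ‖(g π) ^ p - ((n : PadicAlgCl p) * π) ^ p‖ ≤ θ ^ (p + 1) := by
    have h := H59.norm_pow_succ_sub_le hgπ_norm hnπ_norm (p - 1)
    rw [Nat.sub_add_cancel hp.one_le] at h
    calc ‖(g π) ^ p - ((n : PadicAlgCl p) * π) ^ p‖ ≤ ‖g π - n * π‖ * θ ^ (p - 1) := h
      _ ≤ θ ^ 2 * θ ^ (p - 1) := mul_le_mul_of_nonneg_right hδ (by positivity)
      _ = θ ^ (p + 1) := by
          rw [← pow_add]
          congr 1
          have := hp.two_le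
          omega
  have h2 : ‖((n : PadicAlgCl p) * π) ^ p - n * π ^ p‖ ≤ θ ^ (p + 1) := by
    have h : ((n : PadicAlgCl p) * π) ^ p - n * π ^ p = ((n : PadicAlgCl p) ^ p - n) * π ^ p := by
      rw [mul_pow, sub_mul]
    rw [h, norm_mul, norm_pow]
    have hfl : ‖(n : PadicAlgCl p) ^ p - n‖ ≤ (p : ℝ)⁻¹ := by
      have hdvd : (p : ℤ) ∣ (n : ℤ) ^ p - n := by
        have h3 : ((n : ℤ) : ZMod p) ^ p = ((n : ℤ) : ZMod p) := ZMod.pow_card _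
        have h4 : (((n : ℤ) ^ p - n : ℤ) : ZMod p) = 0 := by
          push_cast
          rw [sub_eq_zero]
          exact_mod_cast h3
        exact (ZMod.intCast_zmod_eq_zero_iff_dvd _ _).mp h4
      obtain ⟨m, hm⟩ := hdvd
      have h5 : (n : PadicAlgCl p) ^ p - n = (p : PadicAlgCl p) * (m : PadicAlgCl p) := by
        have := congrArg (fun z : ℤ => (z : PadicAlgCl p)) hm
        simpa using this
      rw [h5, norm_mul, H15.norm_p_algCl]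
      have hm1 : ‖(m : PadicAlgCl p)‖ ≤ 1 := by
        have h6 : (m : PadicAlgCl p) = algebraMap ℚ_[p] (PadicAlgCl p) (m : ℚ_[p]) := by simp
        rw [h6, PadicAlgCl.norm_extends]
        exact Padic.norm_int_le_one m
      exact mul_le_of_le_one_right (inv_nonneg.mpr hp0.le) hm1
    calc ‖(n : PadicAlgCl p) ^ p - n‖ * θ ^ p ≤ (p : ℝ)⁻¹ * θ ^ p :=
          mul_le_mul_of_nonneg_right hfl (by positivity)
      _ = θ ^ (p - 1 + p) := by rw [← hθpow, ← pow_add]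
      _ ≤ θ ^ (p + 1) := by
          apply pow_le_pow_of_le_one hθ0.le hθ1.le
          have := hp.two_le
          omega
  have h3 : ‖(g π) ^ p - n * π ^ p‖ ≤ θ ^ (p + 1) := by
    have h : (g π) ^ p - n * π ^ p
        = ((g π) ^ p - ((n : PadicAlgCl p) * π) ^ p)
          + (((n : PadicAlgCl p) * π) ^ p - n * π ^ p) := by ring
    rw [h]
    exact (IsUltrametricDist.norm_add_le_max _ _).trans (max_le h1 h2)
  -- `a = 1 + v`, `v = π ^ p y`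
  set v : PadicAlgCl p := π ^ p * y with hv
  have hay : a = 1 + v := by
    rw [hv, hy]
    field_simp
    ring
  have hvn : ‖v‖ ≤ θ ^ p := by
    rw [hv, norm_mul, norm_pow]
    exact mul_le_of_le_one_right (by positivity) hy_norm
  have hga : g a - 1 - n * v = ((g π) ^ p - n * π ^ p) * g y + n * π ^ p * w := by
    have h : g a = 1 + (g π) ^ p * g y := by
      conv_lhs => rw [hay, hv]
      rw [map_add, map_one, map_mul, map_pow]
    rw [h, hv, hw]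
    ring
  have h4 : ‖g a - 1 - n * v‖ ≤ θ ^ (p + 1) := by
    rw [hga]
    refine (IsUltrametricDist.norm_add_le_max _ _).trans (max_le ?_ ?_)
    · rw [norm_mul, norm_gal]
      calc ‖(g π) ^ p - n * π ^ p‖ * ‖y‖ ≤ θ ^ (p + 1) * 1 :=
            mul_le_mul h3 hy_norm (norm_nonneg _) (by positivity)
        _ = θ ^ (p + 1) := mul_one _
    · rw [norm_mul, norm_mul, norm_pow]
      calc ‖(n : PadicAlgCl p)‖ * ‖π‖ ^ p * ‖w‖ ≤ 1 * θ ^ p * θ := by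
            apply mul_le_mul _ hwθ (norm_nonneg _) (by positivity)
            exact mul_le_mul_of_nonneg_right (norm_natCast_algCl_le_one n) (by positivity)
        _ = θ ^ (p + 1) := by rw [one_mul, pow_succ]
  have h5 : ‖a ^ n - 1 - n * v‖ ≤ θ ^ (p + 1) := by
    rw [hay]
    calc ‖(1 + v) ^ n - 1 - n * v‖ ≤ ‖v‖ ^ 2 :=
          norm_one_add_pow_sub_le_sq (hvn.trans hθp1.le) n
      _ ≤ (θ ^ p) ^ 2 := pow_le_pow_left₀ (norm_nonneg _) hvn 2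
      _ = θ ^ (p * 2) := by rw [← pow_mul]
      _ ≤ θ ^ (p + 1) := by
          apply pow_le_pow_of_le_one hθ0.le hθ1.le
          have := hp.two_le
          omega
  have h6 : ‖g a - a ^ n‖ ≤ θ ^ (p + 1) := by
    have h : g a - a ^ n = (g a - 1 - n * v) - (a ^ n - 1 - n * v) := by ring
    rw [h]
    exact (H15.norm_sub_le_max_algCl _ _).trans (max_le h4 h5)
  have h7 : g a / a ^ n - 1 = (g a - a ^ n) / a ^ n := by
    field_simp
  rw [h7, norm_div, norm_pow, ha_norm, one_pow, div_one]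
  calc ‖g a - a ^ n‖ ^ (p - 1) ≤ (θ ^ (p + 1)) ^ (p - 1) :=
        pow_le_pow_left₀ (norm_nonneg _) h6 _
    _ = (θ ^ (p - 1)) ^ (p + 1) := by rw [← pow_mul, ← pow_mul, mul_comm]
    _ = ((p : ℝ)⁻¹) ^ (p + 1) := by rw [hθpow]

end Fermat.Agent.S56.FL.H38

end

end
-- ==== END Fermat.Agent.S56.FL.H38_CC3Lev

-- ==== BEGIN Fermat.Agent.S56.FL.H38_Ord
section

set_option autoImplicit false

/-!
# LOC-p-FL, package ORD (helper38): `Stmt_FL_B → Stmt_FL_ord`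

* `exists_inertia_det_ne_one` : the determinant of `ρbar` (cyclotomic) is non-trivial on inertia.
* `subqE_of_FL_B`            : `Stmt_FL_B` for the flat module `E = V_x`.
* `stmt_FL_ord_of`           : `Stmt_FL_B → Stmt_FL_ord`.
-/

noncomputable section

namespace Fermat.Agent.S56.FL.H38

open scoped NNReal TensorProduct
open Fermat.Agent.S56.FL Fermat.Agent.S56 Fermat.Agent.S56.H57 Fermat.Agent.S53 Module
  IsLocalRing groupCohomology ExtCitation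

variable {p : ℕ} [Fact p.Prime] {k : Type} [Field k]

/-- The determinant of `ρbar` is non-trivial on the inertia group at `p`. -/
theorem exists_inertia_det_ne_one (hp2 : p ≠ 2) (ρbar : ResidualGaloisRep k)
    (hdet : (GaloisRepAdic.ofResidualGaloisRep ρbar).DetIsCyclotomic p) :
    ∃ σ₁ ∈ inertiaP p, LinearMap.det (locRho ρbar σ₁) ≠ 1 := by
  have hp : p.Prime := Fact.out
  obtain ⟨σ₁, hσ₁, ζ, hζ, hne⟩ := exists_inertia_moves_root hp2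
  refine ⟨σ₁, hσ₁, fun h1 => hne ?_⟩
  obtain ⟨hpk, h⟩ := hdet
  rw [IsLocalRing.maximalIdeal_eq_bot, Ideal.mem_bot] at hpk
  have : CharP k p := (CharP.charP_iff_prime_eq_zero hp).mpr hpk
  have h2 := h 1 (localGaloisToGlobal p σ₁) (cycloExp p (localGaloisToGlobal p σ₁))
    (fun μ hμ => map_root_eq_pow p (localGaloisToGlobal p σ₁) μ hμ)
  rw [pow_one, hpk, Ideal.span_singleton_zero, Ideal.mem_bot, sub_eq_zero] at h2
  have h3 : omegaK p k (localGaloisToGlobal p σ₁) = 1 := by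
    rw [omegaK_eq_natCast, ← h2]; exact h1
  have hfixQ := fix_of_omegaK_eq_one p (localGaloisToGlobal p σ₁) h3
  have : NeZero p := ⟨hp.ne_zero⟩
  obtain ⟨t₀, ht₀⟩ := HasEnoughRootsOfUnity.exists_primitiveRoot (AlgebraicClosure ℚ) p
  have hζ₀ : IsPrimitiveRoot (padicEmbedding p t₀) p :=
    ht₀.map_of_injective (padicEmbedding p).injective
  obtain ⟨i, -, hi⟩ := hζ₀.eq_pow_of_pow_eq_one hζ
  rw [← hi, map_pow, ← padicEmbedding_localGaloisToGlobal, hfixQ t₀ ht₀.pow_eq_one]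

/-- Inertia acts non-trivially on an ordinary line. -/
theorem exists_ne_on_line (ρbar : ResidualGaloisRep k) {ℓ : Submodule k ρbar.V}
    (hℓ : IsOrdLine ρbar p ℓ) {σ₁ : Gp p} (hσ₁ : σ₁ ∈ inertiaP p)
    (hdet : LinearMap.det (locRho ρbar σ₁) ≠ 1) : ∃ v₁ ∈ ℓ, locRho ρbar σ₁ v₁ ≠ v₁ := by
  by_contra hcon
  have hfix : ∀ v ∈ ℓ, locRho ρbar σ₁ v = v := by
    intro v hv
    by_contra hne
    exact hcon ⟨v, hv, hne⟩
  obtain ⟨v₀, hv₀, hgen⟩ := finrank_eq_one_iff'.mp hℓ.1.1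
  have hv₀' : (v₀ : ρbar.V) ≠ 0 := fun h => hv₀ (Subtype.ext h)
  obtain ⟨b, hb⟩ := exists_basis_of_ne_zero ρbar.finrank_eq (v₀ : ρbar.V) hv₀'
  have h0 : locRho ρbar σ₁ (b 0) = (1 : k) • b 0 := by
    rw [hb, one_smul]; exact hfix _ v₀.2
  obtain ⟨l, hl⟩ := hgen ⟨locRho ρbar σ₁ (b 1) - b 1, hℓ.2 σ₁ hσ₁ _⟩
  have hl' : l • (v₀ : ρbar.V) = locRho ρbar σ₁ (b 1) - b 1 := by
    have := congrArg Subtype.val hl
    simpa using this
  have h1 : locRho ρbar σ₁ (b 1) = (1 : k) • b 1 + l • b 0 := by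
    rw [hb, hl', one_smul]; abel
  apply hdet
  rw [det_of_triangular b (locRho ρbar σ₁) 1 1 l h0 h1, mul_one]

/-- `ρbar` is ramified at `p`. -/
theorem exists_ne_of_det (ρbar : ResidualGaloisRep k) {σ₁ : Gp p}
    (hdet : LinearMap.det (locRho ρbar σ₁) ≠ 1) : ∃ v : ρbar.V, locRho ρbar σ₁ v ≠ v := by
  by_contra hcon
  apply hdet
  have h1 : locRho ρbar σ₁ = 1 := by
    apply LinearMap.ext
    intro v
    by_contra hne
    exact hcon ⟨v, hne⟩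
  rw [h1, map_one]

/-- `Stmt_FL_B` for the flat module `E = V_x`. -/
theorem subqE_of_FL_B (hB : Stmt_FL_B) (hp2 : p ≠ 2) (ρx : GaloisRepAdic (DualNumber k))
    (hflat : ρx.IsFlatAt p) (hfin : Finite (DualNumber k)) (hchar : ((p : ℕ) : DualNumber k) = 0) :
    SubqE ρx p := by
  intro M₁ M₂ h12 hst1 hst2 hin m hm hmW
  set I₀ : Ideal (DualNumber k) := ⊥ with hI₀
  have hfinq : Finite (DualNumber k ⧸ I₀) :=
    Finite.of_surjective (Ideal.Quotient.mk I₀) Ideal.Quotient.mk_surjective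
  have hM := hflat.2 I₀ hfinq
  set q : ρx.V →ₗ[DualNumber k] (ρx.V ⧸ (I₀ • (⊤ : Submodule (DualNumber k) ρx.V))) :=
    Submodule.mkQ _ with hq
  have hqinj : Function.Injective q := by
    rw [← LinearMap.ker_eq_bot, hq, Submodule.ker_mkQ, hI₀, Submodule.bot_smul]
  have hqact : ∀ (σ : _root_.Fermat.Agent.S56.GQ) (y : ρx.V), ρx.levelAction I₀ σ (q y) = q (ρx.ρ σ y) := fun σ y => rfl
  have hpM : ∀ m' : ρx.V ⧸ (I₀ • (⊤ : Submodule (DualNumber k) ρx.V)), p • m' = 0 := by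
    intro m'
    rw [← Nat.cast_smul_eq_nsmul (DualNumber k) p m', hchar, zero_smul]
  have key := hB p hp2 (ρx.V ⧸ (I₀ • (⊤ : Submodule (DualNumber k) ρx.V)))
    (fun σ => ρx.levelAction I₀ σ) hpM hM
    (M₁.map q.toAddMonoidHom) (M₂.map q.toAddMonoidHom) (AddSubgroup.map_mono h12)
    (by
      rintro σ _ ⟨y, hy, rfl⟩
      exact ⟨ρx.ρ (localGaloisToGlobal p σ) y, hst1 σ y hy, rfl⟩)
    (by
      rintro σ _ ⟨y, hy, rfl⟩
      exact ⟨ρx.ρ (localGaloisToGlobal p σ) y, hst2 σ y hy, rfl⟩)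
    (by
      rintro σ hσ _ ⟨y, hy, rfl⟩
      refine ⟨ρx.ρ (localGaloisToGlobal p σ) y - y, hin σ hσ y hy, ?_⟩
      change q _ = _
      rw [map_sub]
      rfl)
    (q m) ⟨m, hm, rfl⟩
    (by
      have hmap : (Wc ρx p).map q.toAddMonoidHom ≤ AddSubgroup.closure
          {y | ∃ σ ∈ inertiaP p, ∃ m' : ρx.V ⧸ (I₀ • (⊤ : Submodule (DualNumber k) ρx.V)),
            y = ρx.levelAction I₀ (localGaloisToGlobal p σ) m' - m'} := by
        unfold Wc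
        rw [AddMonoidHom.map_closure, AddSubgroup.closure_le]
        rintro _ ⟨y, ⟨σ, hσ, m', rfl⟩, rfl⟩
        apply AddSubgroup.subset_closure
        refine ⟨σ, hσ, q m', ?_⟩
        change q _ = _
        rw [map_sub]
        rfl
      exact hmap ⟨m, hmW, rfl⟩)
  obtain ⟨m₁, hm₁, hm₁m⟩ := key
  have : m₁ = m := hqinj hm₁m
  rw [← this]
  exact hm₁

/-- **ORD**: `Stmt_FL_ord` follows from `Stmt_FL_B`. -/
theorem stmt_FL_ord_of (hB : Stmt_FL_B) : Stmt_FL_ord := by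
  intro 𝒪 _ _ _ _ _ p _ ρbar hp2 hp𝒪 hdet 𝒟 x hflat c₀ hcoc
  have hp : p.Prime := Fact.out
  obtain ⟨θ, hθ⟩ := hcoc
  have hpk : ((p : ℕ) : ResidueField 𝒪) = 0 := by
    have h1 : residue 𝒪 ((p : ℕ) : 𝒪) = 0 := (residue_eq_zero_iff _).mpr hp𝒪
    rwa [map_natCast] at h1
  have : CharP (ResidueField 𝒪) p := (CharP.charP_iff_prime_eq_zero hp).mpr hpk
  have hchar : ((p : ℕ) : DualNumber (ResidueField 𝒪)) = 0 := natCast_dual_eq_zero p
  have hfin : Finite (DualNumber (ResidueField 𝒪)) := finite_dualNumber 𝒪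
  have hS : SubqE x.1 p := subqE_of_FL_B hB hp2 x.1 hflat hfin hchar
  obtain ⟨σ₁, hσ₁, hdet1⟩ := exists_inertia_det_ne_one hp2 ρbar hdet
  refine ⟨split_of_subq hθ hS ⟨σ₁, hσ₁, exists_ne_of_det ρbar hdet1⟩, fun ℓ hℓ => ?_⟩
  exact ordCocycle_of_subq hθ hS hℓ ⟨σ₁, hσ₁, exists_ne_on_line ρbar hℓ hσ₁ hdet1⟩

end Fermat.Agent.S56.FL.H38

end

end
-- ==== END Fermat.Agent.S56.FL.H38_Ord

-- ==== BEGIN Fermat.Agent.S56.FL.H50_TameChar
section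

set_option autoImplicit false

/-!
# LOC-p-FL, shared TAME lemma (TAME-CHAR): characters of `G_{ℚ_p}` are powers of `ω` on inertia

* `eq_one_of_pow_char_pow`  : in a field of characteristic `p`, `x ^ (p ^ N) = 1 → x = 1`;
* `exists_cst_eq`           : `x ^ p = x` in a field of characteristic `p` ⟹ `x` is in the prime
                              field;
* `TameAt`                  : the conclusion of `H57.Stmt_Tame` for `L`, as a structure;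
* `tame_char`               : `χ : G_p →* kˣ` trivial on `Gal(K̄/L)` ⟹ `∃ a, χ = ω^a` on inertia;
* `omega_inertia_order`     : `ω ^ n = 1` on inertia ⟹ `(p - 1) ∣ n`.
-/

noncomputable section

namespace Fermat.Agent.S56.FL.H50

open scoped NNReal
open Polynomial Module IntermediateField Fermat.Agent.S56.FL

variable {p : ℕ} [Fact p.Prime]

theorem eq_one_of_pow_char_pow {K : Type*} [Field K] [CharP K p] {x : K} {N : ℕ}
    (h : x ^ (p ^ N) = 1) : x = 1 := by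
  have h1 : (x - 1) ^ (p ^ N) = 0 := by
    rw [sub_pow_char_pow, h, one_pow, sub_self]
  exact sub_eq_zero.mp (pow_eq_zero_iff (pow_ne_zero N (Fact.out : p.Prime).ne_zero) |>.mp h1)

theorem unit_eq_one_of_pow_char_pow {K : Type*} [Field K] [CharP K p] {x : Kˣ} {N : ℕ}
    (h : x ^ (p ^ N) = 1) : x = 1 := by
  apply Units.ext
  have h1 : ((x ^ (p ^ N) : Kˣ) : K) = 1 := by rw [h, Units.val_one]
  rw [Units.val_pow_eq_pow_val] at h1
  rw [Units.val_one]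
  exact eq_one_of_pow_char_pow (p := p) h1

/-- An element `x` with `x ^ p = x` of a field of characteristic `p` lies in the prime field. -/
theorem exists_cst_eq {k : Type} [Field k] [CharP k p] {x : k} (hx : x ^ p = x) :
    ∃ u : ZMod p, H85.cst p k u = x := by
  have hp : p.Prime := Fact.out
  have hcard : Fintype.card (ZMod p) = p := ZMod.card p
  have hroots : (X ^ p - X : (ZMod p)[X]).roots = Finset.univ.val := by
    have := FiniteField.roots_X_pow_card_sub_X (ZMod p)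
    rwa [hcard] at this
  have hdeg : (X ^ p - X : (ZMod p)[X]).natDegree = p :=
    FiniteField.X_pow_card_sub_X_natDegree_eq (ZMod p) hp.one_lt
  have hmap := Polynomial.roots_map_of_injective_of_card_eq_natDegree
    (p := (X ^ p - X : (ZMod p)[X])) (f := H85.cst p k) (RingHom.injective _)
    (by rw [hroots, hdeg]; simp)
  have hx' : x ∈ ((X ^ p - X : (ZMod p)[X]).map (H85.cst p k)).roots := by
    rw [Polynomial.mem_roots]
    · simp [hx]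
    · rw [Polynomial.map_ne_zero_iff (RingHom.injective _)]
      exact FiniteField.X_pow_card_sub_X_ne_zero (ZMod p) hp.one_lt
  rw [← hmap, hroots, Multiset.mem_map] at hx'
  obtain ⟨u, -, hu⟩ := hx'
  exact ⟨u, hu⟩

/-- The conclusion of `H57.Stmt_Tame` for the field `L`. -/
structure TameAt (L : IntermediateField ℚ_[p] (PadicAlgCl p)) (P : Subgroup (Gp p))
    (φ s : Gp p) : Prop where
  normal : P.Normal
  le : L.fixingSubgroup ≤ P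
  pgroup : ∀ w ∈ P, ∃ N : ℕ, w ^ (p ^ N) ∈ L.fixingSubgroup
  mem : s ∈ inertiaP p
  gen : ∀ σ : Gp p, ∃ n : ℕ, ∃ ι ∈ inertiaP p, ∃ τ ∈ L.fixingSubgroup, σ = φ ^ n * ι * τ
  tame : ∀ ι ∈ inertiaP p, ∃ n : ℕ, ∃ w ∈ P, ι = s ^ n * w
  conj : ∃ w ∈ P, φ * s * φ⁻¹ = s ^ p * w

theorem exists_tameAt (hT : H57.Stmt_Tame) (L : IntermediateField ℚ_[p] (PadicAlgCl p))
    [FiniteDimensional ℚ_[p] L] (hN : Normal ℚ_[p] L) :
    ∃ (P : Subgroup (Gp p)) (φ s : Gp p), TameAt L P φ s := by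
  obtain ⟨P, φ, s, h1, h2, h3, h4, h5, h6, h7⟩ := hT p L hN
  exact ⟨P, φ, s, ⟨h1, h2, h3, h4, h5, h6, h7⟩⟩

section Char

variable {k : Type} [Field k] [CharP k p]

/-- A homomorphism to a group without `p`-torsion, trivial on `Gal(K̄/L)`, is trivial on `P`. -/
theorem TameAt.hom_eq_one {L : IntermediateField ℚ_[p] (PadicAlgCl p)} {P : Subgroup (Gp p)}
    {φ s : Gp p} (hT : TameAt L P φ s) {A : Type*} [Group A] (f : Gp p →* A)
    (hA : ∀ (x : A) (N : ℕ), x ^ (p ^ N) = 1 → x = 1)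
    (hf : ∀ σ ∈ L.fixingSubgroup, f σ = 1) {w : Gp p} (hw : w ∈ P) : f w = 1 := by
  obtain ⟨N, hN⟩ := hT.pgroup w hw
  have := hf _ hN
  rw [map_pow] at this
  exact hA _ N this

/-- **TAME-CHAR**, in terms of `ω : G_p →* (ℤ/p)ˣ`. -/
theorem tame_char_omg (hT : H57.Stmt_Tame) {ζ : PadicAlgCl p} (hζ : IsPrimitiveRoot ζ p)
    (χ : Gp p →* kˣ)
    (L : IntermediateField ℚ_[p] (PadicAlgCl p)) [FiniteDimensional ℚ_[p] L]
    (hN : Normal ℚ_[p] L) (hχ : ∀ σ ∈ L.fixingSubgroup, χ σ = 1) :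
    ∃ a : ℕ, ∀ τ ∈ inertiaP p,
      (χ τ : k) = H85.cst p k ((H85.omg hζ τ : (ZMod p)ˣ) : ZMod p) ^ a := by
  have hp : p.Prime := Fact.out
  have : Normal ℚ_[p] L := hN
  have : Normal ℚ_[p] (H15.cycloField p) := H15.normal_cycloField
  set L' : IntermediateField ℚ_[p] (PadicAlgCl p) := L ⊔ H15.cycloField p with hL'
  have hN' : Normal ℚ_[p] L' := inferInstance
  obtain ⟨P, φ, s, hTA⟩ := exists_tameAt hT L' hN'
  have hfixL : L'.fixingSubgroup ≤ L.fixingSubgroup :=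
    IntermediateField.fixingSubgroup_le (le_sup_left)
  have hχ' : ∀ σ ∈ L'.fixingSubgroup, χ σ = 1 := fun σ hσ => hχ σ (hfixL hσ)
  have hω' : ∀ σ ∈ L'.fixingSubgroup, H85.omg hζ σ = 1 := by
    intro σ hσ
    rw [H85.omg_eq_one_iff]
    have hζL : ζ ∈ L' := (le_sup_right : H15.cycloField p ≤ L')
      (H15.mem_cycloField_of_pow_eq_one hζ.pow_eq_one)
    exact (IntermediateField.mem_fixingSubgroup_iff L' σ).mp hσ ζ hζL
  have hχP : ∀ w ∈ P, χ w = 1 := fun w hw =>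
    hTA.hom_eq_one χ (fun x N h => unit_eq_one_of_pow_char_pow (p := p) h) hχ' hw
  have hωP : ∀ w ∈ P, H85.omg hζ w = 1 := fun w hw =>
    hTA.hom_eq_one (H85.omg hζ) (fun x N h => unit_eq_one_of_pow_char_pow (p := p) h) hω' hw
  -- `χ s ^ p = χ s`
  obtain ⟨w, hw, hconj⟩ := hTA.conj
  have h1 : χ s ^ p = χ s := by
    have h2 := congrArg χ hconj
    rw [map_mul, map_mul, map_inv, map_mul, map_pow, hχP w hw, mul_one] at h2
    rw [← h2]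
    rw [mul_comm (χ φ), mul_assoc, mul_inv_cancel, mul_one]
  have h1' : (χ s : k) ^ p = (χ s : k) := by
    rw [← Units.val_pow_eq_pow_val, h1]
  obtain ⟨u, hu⟩ := exists_cst_eq (p := p) h1'
  have hu0 : u ≠ 0 := by
    rintro rfl
    rw [map_zero] at hu
    exact (χ s).ne_zero hu.symm
  -- `ω s` generates `(ℤ/p)ˣ`
  have hgen : ∀ v : (ZMod p)ˣ, ∃ m : ℕ, v = H85.omg hζ s ^ m := by
    intro v
    have hv : ¬ p ∣ (v : ZMod p).val := by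
      intro hdvd
      have := (ZMod.natCast_eq_zero_iff _ _).mpr hdvd
      rw [ZMod.natCast_zmod_val] at this
      exact v.ne_zero this
    obtain ⟨σ, hσ, hσζ⟩ := exists_inertia_pow (p := p) hv
    obtain ⟨m, w', hw', rfl⟩ := hTA.tame σ hσ
    refine ⟨m, ?_⟩
    have h3 := hσζ ζ hζ.pow_eq_one
    rw [H85.omg_spec hζ, H85.pow_eq_iff_natCast_eq hζ, ZMod.natCast_zmod_val,
      ZMod.natCast_zmod_val] at h3
    rw [map_mul, map_pow, hωP w' hw', mul_one] at h3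
    exact Units.ext (by rw [← h3])
  obtain ⟨a, ha⟩ := hgen (Units.mk0 u hu0)
  refine ⟨a, fun τ hτ => ?_⟩
  obtain ⟨m, w', hw', rfl⟩ := hTA.tame τ hτ
  rw [map_mul, map_pow, hχP w' hw', mul_one, map_mul, map_pow, hωP w' hw', mul_one,
    Units.val_pow_eq_pow_val, ← hu, Units.val_pow_eq_pow_val, map_pow, ← pow_mul, mul_comm m a,
    pow_mul]
  congr 1
  have := congrArg (fun v : (ZMod p)ˣ => H85.cst p k (v : ZMod p)) ha
  simp only [Units.val_mk0, Units.val_pow_eq_pow_val, map_pow] at this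
  exact this

/-- **TAME-CHAR.** A character `χ : G_p →* kˣ` trivial on `Gal(K̄/L)` (`L/ℚ_p` finite Galois) is a
power of the cyclotomic character on the inertia group. -/
theorem tame_char (hT : H57.Stmt_Tame) (χ : Gp p →* kˣ)
    (L : IntermediateField ℚ_[p] (PadicAlgCl p)) [FiniteDimensional ℚ_[p] L]
    (hN : Normal ℚ_[p] L) (hχ : ∀ σ ∈ L.fixingSubgroup, χ σ = 1) :
    ∃ a : ℕ, ∀ τ ∈ inertiaP p, ∀ x : k, IsCycloAt x τ → (χ τ : k) = x ^ a := by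
  have hp : p.Prime := Fact.out
  obtain ⟨ζ, h1, hζ⟩ := H15.exists_zeta (p := p)
  have hprim : IsPrimitiveRoot ζ p := by
    rw [IsPrimitiveRoot.iff_orderOf]
    exact orderOf_eq_prime hζ h1
  obtain ⟨a, ha⟩ := tame_char_omg hT hprim χ L hN hχ
  refine ⟨a, fun τ hτ x hx => ?_⟩
  rw [ha τ hτ, (H85.isCycloAt_iff hprim x τ).mp hx]

/-- The cyclotomic character has exact order `p - 1` on the inertia group. -/
theorem omega_inertia_order {n : ℕ}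
    (h : ∀ τ ∈ inertiaP p, ∀ x : k, IsCycloAt x τ → x ^ n = 1) : (p - 1) ∣ n := by
  have hp : p.Prime := Fact.out
  obtain ⟨ζ, h1, hζ⟩ := H15.exists_zeta (p := p)
  have hprim : IsPrimitiveRoot ζ p := by
    rw [IsPrimitiveRoot.iff_orderOf]
    exact orderOf_eq_prime hζ h1
  -- every unit of `ℤ/p` has `v ^ n = 1`
  have hall : ∀ v : (ZMod p)ˣ, v ^ n = 1 := by
    intro v
    have hv : ¬ p ∣ (v : ZMod p).val := by
      intro hdvd
      have := (ZMod.natCast_eq_zero_iff _ _).mpr hdvd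
      rw [ZMod.natCast_zmod_val] at this
      exact v.ne_zero this
    obtain ⟨σ, hσ, hσζ⟩ := exists_inertia_pow (p := p) hv
    have h3 := hσζ ζ hprim.pow_eq_one
    rw [H85.omg_spec hprim, H85.pow_eq_iff_natCast_eq hprim, ZMod.natCast_zmod_val,
      ZMod.natCast_zmod_val] at h3
    have h4 := h σ hσ _ ((H85.isCycloAt_iff hprim _ σ).mpr rfl)
    rw [h3, ← map_pow] at h4
    have h5 : (v : ZMod p) ^ n = 1 := by
      apply (H85.cst p k).injective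
      rw [h4, map_one]
    exact Units.ext (by rw [Units.val_pow_eq_pow_val, h5, Units.val_one])
  obtain ⟨g, hg⟩ := IsCyclic.exists_generator (α := (ZMod p)ˣ)
  have hord : orderOf g = p - 1 := by
    rw [orderOf_eq_card_of_forall_mem_zpowers hg, Nat.card_eq_fintype_card, ZMod.card_units_eq_totient,
      Nat.totient_prime hp]
  rw [← hord]
  exact orderOf_dvd_of_pow_eq_one (hall g)

end Char

end Fermat.Agent.S56.FL.H50

end

end
-- ==== END Fermat.Agent.S56.FL.H50_TameChar
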