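-- GENERATED (merged mirror, NOTES/tools/trim/merge3_helper67.py): 9 modules of the originals, bodies verbatim.
import Fermat.Agent.Zm.S56_L14_001
import Fermat.Agent.Zm.S56_L14_002
import Fermat.Agent.Zm.S56_L12_006
import Fermat.Agent.Zm.S56_L02_002
import Fermat.Agent.Zm.S56_L14_000
import Fermat.Agent.Zm.S56_L07_002
import Fermat.Agent.Zm.S56_L06_003
import Fermat.Agent.Zm.S56_L03_003
import Fermat.Agent.Zm.S56_L07_003
import Fermat.Agent.Zm.S56_L08_002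
import Fermat.Agent.Zm.S56_L05_003
import Fermat.Agent.Zm.S56_L04_001

-- ==== BEGIN Fermat.Agent.S55.CFT.GS.H24_AsmResOnto
section

set_option autoImplicit false
set_option linter.unusedSectionVars false
set_option linter.unusedVariables false
set_option linter.style.haveILetI false

open CategoryTheory Module groupCohomology ExtCitation

open scoped Pointwise

noncomputable section

namespace Fermat.Agent.S55.CFT.GS.H24

open Fermat.Agent.S55 Fermat.Agent.S55.Top Fermat.Agent.S55.CFT.GS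

local notation "Qb" => AlgebraicClosure ℚ

section onto

variable {p : ℕ} [Fact p.Prime] {S : Finset Nat.Primes} {K : IntermediateField ℚ Qb}

/-- The conclusion of `GS-ResOnto` for the cochain `b`. -/
def ResConcl (S : Finset Nat.Primes) (p : ℕ) (K : IntermediateField ℚ Qb)
    (b : ↥K.fixingSubgroup → Qbˣ) : Prop :=
  ∃ (z' : ↥K.fixingSubgroup × ↥K.fixingSubgroup → Qbˣ) (b'' : ↥K.fixingSubgroup → Qbˣ)
    (t : Qbˣ),
    IsLevK₂ S K z' ∧ (∀ u, InOm S (z' u : Qb)) ∧ mTwo z' = 1 ∧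
    IsLevK₁ S K b'' ∧ (∀ g, InOm S (b'' g : Qb)) ∧ InOm S (t : Qb) ∧
    (∀ u, z' u ^ p = mOne b'' u) ∧
    ∀ g, InW S p (b g / (b'' g * (g • t / t)))

theorem resHyp_of_pTors {c : ↥K.fixingSubgroup × ↥K.fixingSubgroup → Qbˣ}
    {b : ↥K.fixingSubgroup → Qbˣ} (hD : PTorsData S p K c b) : ResHyp S p K b where
  lev := hD.levb
  om := hD.omb
  w := fun t => by
    rw [← hD.pow t]
    exact inW_pow (hD.omc t)

theorem inOm_units_pow {x : Qbˣ} (hx : InOm S (x : Qb)) (k : ℕ) : InOm S ((x ^ k : Qbˣ) : Qb) := by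
  rw [Units.val_pow_eq_pow_val]
  exact inOm_pow hx k

theorem inOm_units_mul {x y : Qbˣ} (hx : InOm S (x : Qb)) (hy : InOm S (y : Qb)) :
    InOm S ((x * y : Qbˣ) : Qb) := by
  rw [Units.val_mul]
  exact inOm_mul hx hy

theorem inOm_units_div {x y : Qbˣ} (hx : InOm S (x : Qb)) (hy : InOm S (y : Qb)) :
    InOm S ((x / y : Qbˣ) : Qb) := by
  rw [Units.val_div_eq_div_val]
  exact inOm_div hx hy

theorem resHyp_div {b : ↥K.fixingSubgroup → Qbˣ} (hb : ResHyp S p K b)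
    {c₁ : ↥K.fixingSubgroup × ↥K.fixingSubgroup → Qbˣ} {b₁ : ↥K.fixingSubgroup → Qbˣ}
    (hD : PTorsData S p K c₁ b₁) (k : ℕ) :
    ResHyp S p K (fun g => b g / b₁ g ^ k) where
  lev := (hb.lev.pair hD.levb).comp (fun x : Qbˣ × Qbˣ => x.1 / x.2 ^ k)
  om := fun g => inOm_units_div (hb.om g) (inOm_units_pow (hD.omb g) k)
  w := fun t => by
    have e : (fun g => b g / b₁ g ^ k) = b / b₁ ^ k := rfl
    rw [e, mOne_div, mOne_pow, Pi.div_apply, Pi.pow_apply, ← hD.pow t, ← pow_mul, mul_comm,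
      pow_mul]
    exact inW_div (hb.w t) (inW_pow (inOm_units_pow (hD.omc t) k))

theorem resConcl_of_div {b : ↥K.fixingSubgroup → Qbˣ}
    {c₁ : ↥K.fixingSubgroup × ↥K.fixingSubgroup → Qbˣ} {b₁ : ↥K.fixingSubgroup → Qbˣ}
    (hD : PTorsData S p K c₁ b₁) (k : ℕ)
    (h : ResConcl S p K (fun g => b g / b₁ g ^ k)) : ResConcl S p K b := by
  obtain ⟨z', b'', t, hz', hz'Ω, hz'c, hb'', hb''Ω, htΩ, hzb, hW⟩ := h
  refine ⟨fun u => z' u * c₁ u ^ k, fun g => b'' g * b₁ g ^ k, t,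
    (hz'.pair hD.levc).comp (fun x : Qbˣ × Qbˣ => x.1 * x.2 ^ k),
    fun u => inOm_units_mul (hz'Ω u) (inOm_units_pow (hD.omc u) k), ?_,
    (hb''.pair hD.levb).comp (fun x : Qbˣ × Qbˣ => x.1 * x.2 ^ k),
    fun g => inOm_units_mul (hb''Ω g) (inOm_units_pow (hD.omb g) k), htΩ, ?_, ?_⟩
  · have e : (fun u => z' u * c₁ u ^ k) = z' * c₁ ^ k := rfl
    rw [e, mTwo_mul, mTwo_pow, hz'c, hD.coc, one_pow, one_mul]
  · intro u
    have e : (fun g => b'' g * b₁ g ^ k) = b'' * b₁ ^ k := rfl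
    rw [e, mOne_mul, mOne_pow, Pi.mul_apply, Pi.pow_apply, ← hzb u, ← hD.pow u, mul_pow,
      ← pow_mul, ← pow_mul, mul_comm k p]
  · intro g
    have e : b g / (b'' g * b₁ g ^ k * (g • t / t)) =
        b g / b₁ g ^ k / (b'' g * (g • t / t)) := by
      apply Additive.ofMul.injective
      simp only [ofMul_mul, ofMul_div]
      abel
    rw [e]
    exact hW g

theorem resConcl_of_noBad (hCap : Stmt_RES_Cap) (hp : pPrime p ∈ S)
    (hK : K.IsUnramifiedOutside S) {b : ↥K.fixingSubgroup → Qbˣ} (hb : ResHyp S p K b)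
    (h : ∀ A, ¬ IsBad S p b A) : ResConcl S p K b := by
  obtain ⟨t, htΩ, htW⟩ := resInj hCap hp hK hb.lev hb.om hb.w (not_isBad_of_forall h)
  refine ⟨fun _ => 1, fun _ => 1, t, isLevK₂_const 1, fun _ => by simpa using inOm_one, ?_,
    isLevK₁_const 1, fun _ => by simpa using inOm_one, htΩ, ?_, ?_⟩
  · have e : (fun _ : ↥K.fixingSubgroup × ↥K.fixingSubgroup => (1 : Qbˣ)) = 1 := rfl
    rw [e, mTwo_one]
  · intro u
    have e : (fun _ : ↥K.fixingSubgroup => (1 : Qbˣ)) = 1 := rfl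
    rw [e, mOne_one, Pi.one_apply, one_pow]
  · intro g
    rw [one_mul]
    exact htW g

/-- The residue at `A` is determined by its value at a generator of the decomposition group
modulo the level. -/
theorem resR_eq_of_gen (hp : pPrime p ∈ S) {b : ↥K.fixingSubgroup → Qbˣ}
    (hb : ResHyp S p K b) {F : IntermediateField ℚ Qb}
    (hF : ∀ g s : ↥K.fixingSubgroup, (s : GQ) ∈ F.fixingSubgroup → b (g * s) = b g)
    (A : ValuationSubring Qb) (g₀ : ↥K.fixingSubgroup) (hg₀ : g₀ • A = A) (n : ℕ)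
    (s : ↥K.fixingSubgroup) (hs : (s : GQ) ∈ F.fixingSubgroup) :
    resR S p b (g₀ ^ n * s) A = (n : ZMod p) * resR S p b g₀ A := by
  rw [resR_level hF (g₀ ^ n) s hs, resR_pow_stab hp hb g₀ A hg₀ n]

/-- The induction on the number of bad orbits. -/
theorem resOnto_aux (hTwoOut : Stmt_GSB_TwoOut) (hCap : Stmt_RES_Cap) (hCyc : Stmt_RES_Cyc)
    (hp2 : p ≠ 2) (hp : pPrime p ∈ S) (hK : IsBaseField S p K)
    (T : Finset (ValuationSubring Qb)) :
    ∀ b : ↥K.fixingSubgroup → Qbˣ, ResHyp S p K b → Covered S p b T → ResConcl S p K b := by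
  classical
  have hpp : p.Prime := Fact.out
  induction T using Finset.induction_on with
  | empty =>
    intro b hb hcov
    refine resConcl_of_noBad hCap hp hK.1 hb (fun A hA => ?_)
    obtain ⟨A', hA', _⟩ := hcov A hA
    simp at hA'
  | @insert A₁ T' hA₁T' ih =>
    intro b hb hcov
    by_cases hbad : IsBad S p b A₁
    · -- remove the orbit of `A₁`
      obtain ⟨q₁, hq₁, hA₁q⟩ := hbad.outS
      obtain ⟨c₁, b₁, hD, hn, htriv⟩ := hTwoOut p hp2 S hp K hK q₁ hq₁ A₁ hA₁q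
      have hb₁ : ResHyp S p K b₁ := resHyp_of_pTors hD
      have hbad₁ : ∃ g₁ : ↥K.fixingSubgroup, g₁ • A₁ = A₁ ∧ resR S p b₁ g₁ A₁ ≠ 0 := by
        by_contra hcon
        apply hn
        rw [resTrivAt_iff hD.omb q₁ hq₁ A₁ hA₁q]
        intro g hg
        by_contra hne
        exact hcon ⟨g, hg, hne⟩
      obtain ⟨Fb, hFb, hFb'⟩ := hb.lev
      obtain ⟨F₁, hF₁, hF₁'⟩ := hb₁.lev
      obtain ⟨g₀, hg₀, hgen⟩ := hCyc S K (Fb ⊔ F₁) hK.1 (hFb.sup hF₁) q₁ hq₁ A₁ hA₁q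
      have hval : ∀ g : ↥K.fixingSubgroup, g • A₁ = A₁ → ∃ n : ℕ,
          resR S p b g A₁ = (n : ZMod p) * resR S p b g₀ A₁ ∧
          resR S p b₁ g A₁ = (n : ZMod p) * resR S p b₁ g₀ A₁ := by
        intro g hg
        obtain ⟨n, s, hs, rfl⟩ := hgen g hg
        exact ⟨n, resR_eq_of_gen hp hb hFb' A₁ g₀ hg₀ n s
            (IntermediateField.fixingSubgroup_antitone le_sup_left hs),
          resR_eq_of_gen hp hb₁ hF₁' A₁ g₀ hg₀ n s
            (IntermediateField.fixingSubgroup_antitone le_sup_right hs)⟩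
      have hy : resR S p b₁ g₀ A₁ ≠ 0 := by
        intro h0
        obtain ⟨g₁, hg₁, hne⟩ := hbad₁
        obtain ⟨n, _, h2⟩ := hval g₁ hg₁
        rw [h0, mul_zero] at h2
        exact hne h2
      set x := resR S p b g₀ A₁ with hx
      set y := resR S p b₁ g₀ A₁ with hydef
      set m : ZMod p := x * y⁻¹ with hm
      have hkm : ((m.val : ℕ) : ZMod p) = m := ZMod.natCast_zmod_val m
      have hb' : ResHyp S p K (fun g => b g / b₁ g ^ m.val) := resHyp_div hb hD m.val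
      have hres' : ∀ g A, resR S p (fun g => b g / b₁ g ^ m.val) g A =
          resR S p b g A - m * resR S p b₁ g A := by
        intro g A
        rw [resR_div_pow hb.om hb₁.om, hkm]
      have hnb : ¬ IsBad S p (fun g => b g / b₁ g ^ m.val) A₁ := by
        rintro ⟨g, hg, hne⟩
        apply hne
        obtain ⟨n, h1, h2⟩ := hval g hg
        rw [hres', h1, h2, hm]
        field_simp
        ring
      have hcov' : Covered S p (fun g => b g / b₁ g ^ m.val) T' := by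
        intro A hA
        have hnc : ∀ k : ↥K.fixingSubgroup, k • A₁ ≠ A := by
          intro k hk
          apply hnb
          have h1 := isBad_smul hp hb' hA k⁻¹
          have h2 : k⁻¹ • A = A₁ := by
            rw [← hk]
            exact inv_smul_smul k A₁
          rwa [h2] at h1
        obtain ⟨q, hq, hAq⟩ := hA.outS
        have hb₁A := (resTrivAt_iff hD.omb q hq A hAq).1 (htriv q hq A hAq (fun g => hnc g))
        obtain ⟨g, hg, hne⟩ := hA
        have hbadA : IsBad S p b A := by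
          refine ⟨g, hg, ?_⟩
          rw [hres', hb₁A g hg, mul_zero, sub_zero] at hne
          exact hne
        obtain ⟨A', hA'T, k', hk'⟩ := hcov A hbadA
        rw [Finset.mem_insert] at hA'T
        rcases hA'T with rfl | hA'T
        · exact absurd hk' (hnc k')
        · exact ⟨A', hA'T, k', hk'⟩
      exact resConcl_of_div hD m.val (ih _ hb' hcov')
    · -- `A₁` is not needed
      refine ih b hb ?_
      intro A hA
      obtain ⟨A', hA'T, k', hk'⟩ := hcov A hA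
      rw [Finset.mem_insert] at hA'T
      rcases hA'T with rfl | hA'T
      · exfalso
        apply hbad
        have h1 := isBad_smul hp hb hA k'⁻¹
        have h2 : k'⁻¹ • A = A' := by
          rw [← hk']
          exact inv_smul_smul k' A'
        rwa [h2] at h1
      · exact ⟨A', hA'T, k', hk'⟩

end onto

/-- **GS-AsmResOnto.** -/
theorem asmResOnto : Stmt_GS_AsmResOnto := by
  intro hTwoOut _ hCap hCyc p _ hp2 S hp K hK b hb hbΩ hW
  have hR : ResHyp S p K b := ⟨hb, hbΩ, hW⟩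
  obtain ⟨T, hT⟩ := exists_cover hK.1 hR
  exact resOnto_aux hTwoOut hCap hCyc hp2 hp hK T b hR hT

end Fermat.Agent.S55.CFT.GS.H24

end

end
-- ==== END Fermat.Agent.S55.CFT.GS.H24_AsmResOnto

-- ==== BEGIN Fermat.Agent.S55.CFT.GS.H6_ResLocFwdFinal
section

set_option autoImplicit false

namespace Fermat.Agent.S55.CFT.GS.H6

/-- **RESLOC (⟹)**. -/
theorem stmt_ResLoc_fwd : Bri.Stmt_ResLoc_fwd := stmt_ResLoc_fwd_of H78.stmt_UnrVal

end Fermat.Agent.S55.CFT.GS.H6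

end
-- ==== END Fermat.Agent.S55.CFT.GS.H6_ResLocFwdFinal

-- ==== BEGIN Fermat.Agent.S55.CFT.H58_SHLFin
section

/-!
# CFT package SHL (helper58), part 4: the abstract semi-local theorem

A finite `p`-group `G` acts on a finite commutative `ℚ_q`-algebra `B` (`ℚ_q`-linearly), `M` a
maximal ideal of `B` whose conjugates intersect in `0`, `G` acting faithfully on `B ⧸ M`.  Then `H¹(G, Bˣ) = 0`, `H²(G, Bˣ)` is cyclic of order `#G / #MaxSpec B`, `H³(G, Bˣ) = 0`.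
(Shapiro `unitsShapiro`, Artin `fixedIso`, Hilbert 90, LOC-4.)
-/

set_option autoImplicit false
set_option linter.unusedSectionVars false

noncomputable section

namespace Fermat.Agent.S55.CFT.H58

open CategoryTheory groupCohomology Rep

section Fin

variable (q : ℕ) [Fact q.Prime] (p : ℕ) [Fact p.Prime]
  {G : Type} [Group G] [Finite G] {B : Type} [CommRing B] [MulSemiringAction G B]
  [Algebra ℚ_[q] B] [Module.Finite ℚ_[q] B] (M : Ideal B) [hM : M.IsMaximal]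

theorem shl_abstract (hG : IsPGroup p G) (hJ : OrbitSeparates G M)
    (hfaith : ∀ g : G, (∀ b : B, g • b - b ∈ M) → g = 1)
    (hk : ∀ (g : G) (c : ℚ_[q]), g • algebraMap ℚ_[q] B c = algebraMap ℚ_[q] B c) :
    Subsingleton (groupCohomology (unitsRepOf G B) 1) ∧
    Finite (groupCohomology (unitsRepOf G B) 2) ∧
    Nat.card (groupCohomology (unitsRepOf G B) 2) * Nat.card (MaximalSpectrum B) = Nat.card G ∧
    (∃ g : groupCohomology (unitsRepOf G B) 2,
      ∀ x : groupCohomology (unitsRepOf G B) 2, ∃ n : ℤ, x = n • g) ∧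
    Subsingleton (groupCohomology (unitsRepOf G B) 3) := by
  classical
  let _ : Field (B ⧸ M) := Ideal.Quotient.field M
  have hfaith' : ∀ d : decomp G M, (∀ x : B ⧸ M, d • x = x) → d = 1 := by
    intro d hd
    apply Subtype.ext
    apply hfaith
    intro b
    have h1 := hd (Ideal.Quotient.mk M b)
    rw [quot_smul_mk] at h1
    exact Ideal.Quotient.eq.1 h1
  have : FaithfulSMul (decomp G M) (B ⧸ M) := ⟨fun {d₁ d₂} h => by
    have h1 : d₂⁻¹ * d₁ = 1 := hfaith' _ (fun x => by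
      rw [mul_smul, h x, inv_smul_smul])
    exact (inv_mul_eq_one.1 h1).symm⟩
  have hk' : ∀ (d : decomp G M) (c : ℚ_[q]),
      d • algebraMap ℚ_[q] (B ⧸ M) c = algebraMap ℚ_[q] (B ⧸ M) c := by
    intro d c
    have h1 : algebraMap ℚ_[q] (B ⧸ M) c = Ideal.Quotient.mk M (algebraMap ℚ_[q] B c) := rfl
    rw [h1, quot_smul_mk, hk]
  let _ : Algebra ℚ_[q] (FixedPoints.subfield (decomp G M) (B ⧸ M)) :=
    fixedAlgebra (decomp G M) (B ⧸ M) ℚ_[q] hk'
  have : FiniteDimensional ℚ_[q] (FixedPoints.subfield (decomp G M) (B ⧸ M)) :=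
    fixed_finiteDimensional (decomp G M) (B ⧸ M) ℚ_[q] hk'
  have hD : IsPGroup p (decomp G M) := hG.to_subgroup _
  have hP := isPGroup_aut_fixed (decomp G M) (B ⧸ M) p hD
  obtain ⟨hcard, γ, hγ⟩ := LOC.H68.stmt_LocalH2CyclicP q p
    (FixedPoints.subfield (decomp G M) (B ⧸ M)) (B ⧸ M) hP
  have h3 := LOC.H68.stmt_LocalH3 q p
    (FixedPoints.subfield (decomp G M) (B ⧸ M)) (B ⧸ M) hP
  have e : ∀ n : ℕ, groupCohomology (unitsRepOf G B) n ≃ₗ[ℤ]
      groupCohomology (Rep.ofAlgebraAutOnUnits (FixedPoints.subfield (decomp G M) (B ⧸ M))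
        (B ⧸ M)) n := fun n =>
    (unitsShapiro hJ n ≪≫ fixedIso (decomp G M) (B ⧸ M) n).toLinearEquiv
  have hc2 : Nat.card (groupCohomology (unitsRepOf G B) 2) = Nat.card (decomp G M) := by
    rw [Nat.card_congr (e 2).toEquiv]
    have := hcard
    rw [LOC.unitsRep] at this
    rw [this]
    let _ : Fintype (decomp G M) := Fintype.ofFinite _
    rw [FixedPoints.finrank_eq_card, Nat.card_eq_fintype_card]
  refine ⟨?_, ?_, ?_, ?_, ?_⟩
  · have : Subsingleton (groupCohomology (Rep.ofAlgebraAutOnUnits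
        (FixedPoints.subfield (decomp G M) (B ⧸ M)) (B ⧸ M)) 1) :=
      (groupCohomology.H1ofAutOnUnitsUnique
        (FixedPoints.subfield (decomp G M) (B ⧸ M)) (B ⧸ M)).instSubsingleton
    exact (e 1).toEquiv.subsingleton
  · apply Nat.finite_of_card_ne_zero
    rw [hc2]
    exact Nat.card_pos.ne'
  · rw [hc2, mul_comm]
    exact card_maximalSpectrum_mul hJ
  · refine ⟨(e 2).symm γ, fun x => ?_⟩
    obtain ⟨n, hn⟩ := hγ (e 2 x)
    refine ⟨n, ?_⟩
    rw [← map_zsmul, ← hn, LinearEquiv.symm_apply_apply]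
  · have : Subsingleton (groupCohomology (Rep.ofAlgebraAutOnUnits
        (FixedPoints.subfield (decomp G M) (B ⧸ M)) (B ⧸ M)) 3) := h3
    exact (e 3).toEquiv.subsingleton

end Fin

end Fermat.Agent.S55.CFT.H58

end
end
-- ==== END Fermat.Agent.S55.CFT.H58_SHLFin

-- ==== BEGIN Fermat.Agent.S55.CFT.LOC.H25_LTO_Core
section

set_option autoImplicit false
set_option linter.unusedSectionVars false
set_option linter.style.haveILetI false

namespace Fermat.Agent.S55.CFT.LOC.H25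

open groupCohomology Fermat.Agent.S55.CFT.LOC

attribute [local instance] H68.addDMA

section carry

variable {Γ A : Type} [Group Γ] [AddCommGroup A] [DistribMulAction Γ A]

theorem isCocycle₂_carryC {n : ℤ} {ℓ : Γ → ℤ} (h : IsAddMod n ℓ) (a : A)
    (ha : ∀ g : Γ, g • a = a) : IsCocycle₂ (carryC n ℓ a) := by
  intro g k j
  simp only [carryC]
  rw [smul_comm g, ha g, ← add_smul, ← add_smul]
  congr 1
  rcases eq_or_ne n 0 with hn | hn
  · subst hn
    simp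
  obtain ⟨u1, hu1⟩ := h (g * k) j
  obtain ⟨u2, hu2⟩ := h g k
  obtain ⟨u3, hu3⟩ := h k j
  obtain ⟨u4, hu4⟩ := h g (k * j)
  rw [hu1, hu2, hu3, hu4, Int.mul_ediv_cancel_left _ hn, Int.mul_ediv_cancel_left _ hn,
    Int.mul_ediv_cancel_left _ hn, Int.mul_ediv_cancel_left _ hn]
  have : n * (u1 + u2) = n * (u3 + u4) := by
    rw [mul_add, mul_add, ← hu1, ← hu2, ← hu3, ← hu4, mul_assoc]
    ring
  exact mul_left_cancel₀ hn this

/-- If `i • f` and `p • f` are coboundaries and `p ∤ i`, then `f` is a coboundary. -/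
theorem isCoboundary₂_of_smul_of_not_dvd {p : ℕ} (hp : p.Prime) {f : Γ × Γ → A} {i : ℤ}
    (hi : ¬ (p : ℤ) ∣ i) (h1 : IsCoboundary₂ (i • f)) (h2 : IsCoboundary₂ ((p : ℤ) • f)) :
    IsCoboundary₂ f := by
  have hcop : IsCoprime i (p : ℤ) := by
    rw [isCoprime_comm]
    exact (Nat.prime_iff_prime_int.mp hp).coprime_iff_not_dvd.mpr hi
  obtain ⟨u, v, huv⟩ := hcop
  have e : f = u • (i • f) + v • ((p : ℤ) • f) := by
    rw [smul_smul, smul_smul, ← add_smul, huv, one_smul]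
  rw [e]
  exact isCoboundary₂_add (isCoboundary₂_zsmul h1 u) (isCoboundary₂_zsmul h2 v)

end carry

section dep

variable (q : ℕ) [Fact q.Prime] (p : ℕ) [Fact p.Prime] (K Ω : Type) [Field K] [Field Ω]
  [Algebra ℚ_[q] K] [FiniteDimensional ℚ_[q] K] [Algebra K Ω] [FiniteDimensional K Ω]
  [IsGalois K Ω]

omit [FiniteDimensional K Ω] [IsGalois K Ω] [Algebra ℚ_[q] K] [FiniteDimensional ℚ_[q] K] in
theorem isCocycle₂_symC (χ : (Ω ≃ₐ[K] Ω) →* Multiplicative (ZMod p)) (a : Kˣ) :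
    IsCocycle₂ (symC K Ω p χ a) :=
  isCocycle₂_carryC (isAddMod_charLift p χ) _ (fun g => smul_baseUnit K Ω g a)

include q in
/-- Two symbol classes are linearly dependent modulo `p`. -/
theorem symC_dep (χ₁ χ₂ : (Ω ≃ₐ[K] Ω) →* Multiplicative (ZMod p)) (a : Kˣ) :
    ∃ i j : ℤ, (¬ (p : ℤ) ∣ i ∨ ¬ (p : ℤ) ∣ j) ∧
      IsCoboundary₂ (i • symC K Ω p χ₁ a + j • symC K Ω p χ₂ a) := by
  classical
  have mk : ∀ c : (Ω ≃ₐ[K] Ω) × (Ω ≃ₐ[K] Ω) → Additive Ωˣ, IsCocycle₂ c →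
      c ∈ cocycles₂ (unitsRep K Ω) := by
    intro c hc
    have hmul : IsMulCocycle₂ (fun x : (Ω ≃ₐ[K] Ω) × (Ω ≃ₐ[K] Ω) => (Additive.toMul (c x) : Ωˣ)) :=
      fun g h j => hc g h j
    exact (cocyclesOfIsMulCocycle₂ hmul).2
  have hm₁ := mk _ (isCocycle₂_symC p K Ω χ₁ a)
  have hm₂ := mk _ (isCocycle₂_symC p K Ω χ₂ a)
  have tors : ∀ (c : (Ω ≃ₐ[K] Ω) × (Ω ≃ₐ[K] Ω) → Additive Ωˣ) (hc : c ∈ cocycles₂ (unitsRep K Ω)),
      IsCoboundary₂ ((p : ℤ) • c) → (p : ℤ) • (H2π (unitsRep K Ω)) ⟨c, hc⟩ = 0 := by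
    intro c hc hcob
    rw [← map_zsmul, H2π_eq_zero_iff]
    obtain ⟨w, hw⟩ := hcob
    refine ⟨w, ?_⟩
    funext gh
    exact hw gh.1 gh.2
  obtain ⟨i, j, hij, h0⟩ := H68.stmt_BrauerPTors q p K Ω _ _
    (tors _ hm₁ (isCoboundary₂_smul_symC K Ω p χ₁ a))
    (tors _ hm₂ (isCoboundary₂_smul_symC K Ω p χ₂ a))
  refine ⟨i, j, hij, ?_⟩
  rw [← map_zsmul, ← map_zsmul, ← map_add, H2π_eq_zero_iff] at h0
  obtain ⟨w, hw⟩ := h0
  refine ⟨w, fun g h => ?_⟩
  have := congrFun hw (g, h)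
  exact this

end dep

section core

variable (q : ℕ) [Fact q.Prime] (p : ℕ) [Fact p.Prime]
  (K' K Ω : Type) [Field K'] [Field K] [Field Ω] [Algebra K' K] [Algebra K Ω]
  [Algebra K' Ω] [IsScalarTower K' K Ω] (M' : IntermediateField K' Ω) [Normal K' M']
  [Algebra ℚ_[q] K] [FiniteDimensional ℚ_[q] K]
  [FiniteDimensional K' K] [FiniteDimensional K Ω] [IsGalois K Ω]
  [FiniteDimensional K' M'] [IsGalois K' M']

omit [Normal K' M'] [FiniteDimensional K' M'] [IsGalois K' M'] [Algebra K' K] [Algebra K Ω]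
  [IsScalarTower K' K Ω] [FiniteDimensional K' K] [FiniteDimensional K Ω] [IsGalois K Ω]
  [Algebra ℚ_[q] K] [FiniteDimensional ℚ_[q] K] [Field K] [Algebra K' Ω] [Field K']
  [Field Ω] in
theorem toAdd_comb {Γ : Type} [Group Γ] (χ₁ χ₂ : Γ →* Multiplicative (ZMod p)) (i j : ℤ)
    (g : Γ) :
    Multiplicative.toAdd ((χ₁ ^ i * χ₂ ^ j) g) =
      (i : ZMod p) * Multiplicative.toAdd (χ₁ g) + (j : ZMod p) * Multiplicative.toAdd (χ₂ g) := by
  rw [MonoidHom.mul_apply, toAdd_mul]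
  have e : ∀ (χ : Γ →* Multiplicative (ZMod p)) (k : ℤ),
      Multiplicative.toAdd ((χ ^ k) g) = (k : ZMod p) * Multiplicative.toAdd (χ g) := by
    intro χ k
    have : (χ ^ k) g = (χ g) ^ k := rfl
    rw [this, toAdd_zpow, zsmul_eq_mul]
  rw [e, e]

include q in
/-- **Norm limitation, core.** -/
theorem not_norm_core (χ₀' χU' : (M' ≃ₐ[K'] M') →* Multiplicative (ZMod p)) (b : Kˣ)
    (h1 : ¬ ∃ y : kerField K Ω p (χ₀'.comp (resGal K' K Ω M')), Algebra.norm K y = (b : K))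
    (h2 : ¬ ∃ y : kerField K' M' p χU', Algebra.norm K' y = Algebra.norm K' (b : K)) :
    ¬ ∃ y : kerField K' M' p χ₀', Algebra.norm K' y = Algebra.norm K' (b : K) := by
  intro h3
  have hp : p.Prime := Fact.out
  set a : K'ˣ := Units.map (Algebra.norm K' : K →* K') b with ha
  have hacoe : (a : K') = Algebra.norm K' (b : K) := rfl
  rw [← hacoe] at h2 h3
  rw [← symC_coboundary_iff] at h1 h2 h3
  obtain ⟨i, j, hij, hdep⟩ := symC_dep q p K Ω (χ₀'.comp (resGal K' K Ω M'))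
    (χU'.comp (resGal K' K Ω M')) b
  by_cases hj : (p : ℤ) ∣ j
  · -- then `p ∤ i` and `b` is a norm: contradiction with `h1`
    have hi : ¬ (p : ℤ) ∣ i := by
      rcases hij with h | h
      · exact h
      · exact absurd hj h
    obtain ⟨j', rfl⟩ := hj
    have hc2 : IsCoboundary₂ (((p : ℤ) * j') • symC K Ω p (χU'.comp (resGal K' K Ω M')) b) := by
      rw [mul_comm, mul_smul]
      exact isCoboundary₂_zsmul (isCoboundary₂_smul_symC K Ω p _ b) j'
    have hc1 : IsCoboundary₂ (i • symC K Ω p (χ₀'.comp (resGal K' K Ω M')) b) := by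
      have := isCoboundary₂_sub hdep hc2
      rwa [add_sub_cancel_right] at this
    exact h1 (isCoboundary₂_of_smul_of_not_dvd hp hi hc1 (isCoboundary₂_smul_symC K Ω p _ b))
  · -- descent
    set χ₃' : (M' ≃ₐ[K'] M') →* Multiplicative (ZMod p) := χ₀' ^ i * χU' ^ j with hχ₃
    have hcombK := isCoboundary₂_symC_comb K Ω p (χ₀'.comp (resGal K' K Ω M'))
      (χU'.comp (resGal K' K Ω M')) (χ₃'.comp (resGal K' K Ω M')) i j
      (fun g => toAdd_comb p χ₀' χU' i j (resGal K' K Ω M' g)) b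
    have hc3 : IsCoboundary₂ (symC K Ω p (χ₃'.comp (resGal K' K Ω M')) b) := by
      have := isCoboundary₂_add hcombK hdep
      rwa [sub_add_cancel] at this
    have hd := symC_descent K' K Ω M' p χ₃' b hc3
    rw [← ha] at hd
    have hcombK' := isCoboundary₂_symC_comb K' M' p χ₀' χU' χ₃' i j
      (fun g => toAdd_comb p χ₀' χU' i j g) a
    have hc4 : IsCoboundary₂ (i • symC K' M' p χ₀' a + j • symC K' M' p χU' a) := by
      have := isCoboundary₂_sub hd hcombK'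
      rwa [sub_sub_cancel] at this
    have hc5 : IsCoboundary₂ (j • symC K' M' p χU' a) := by
      have := isCoboundary₂_sub hc4 (isCoboundary₂_zsmul h3 i)
      rwa [add_sub_cancel_left] at this
    exact h2 (isCoboundary₂_of_smul_of_not_dvd hp hj hc5 (isCoboundary₂_smul_symC K' M' p _ a))

end core

end Fermat.Agent.S55.CFT.LOC.H25

end
-- ==== END Fermat.Agent.S55.CFT.LOC.H25_LTO_Core

-- ==== BEGIN Fermat.Agent.S55.CFT.LOC.H68_TQL
section

set_option autoImplicit false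
set_option linter.unusedSectionVars false
set_option linter.style.haveILetI false
set_option linter.unusedVariables false

namespace Fermat.Agent.S55.CFT.LOC.H68

open Fermat.Agent.S55.CFT.LOC Fermat.Agent.S55.CFT Fermat.Agent.S55.Top Fermat.Agent.S55
open groupCohomology ExtCitation

section tw

variable {k Ω : Type} [Field k] [Field Ω] [Algebra k Ω] [IsAlgClosed Ω]
variable {p : ℕ} [Fact p.Prime]

theorem root_ne_zero_tq {a : Ω} (ha : a ≠ 0) : H45.root p a ≠ 0 := by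
  intro h
  apply ha
  rw [← H45.root_pow (p := p) a, h, zero_pow (Fact.out : p.Prime).ne_zero]

/-- `ζ^{kum σ} = σ(α)/α` for the chosen root `α` of `a` (`σ` need not fix `ζ`). -/
theorem ze_kum_tq {ζ : Ω} (hζ : IsPrimitiveRoot ζ p) {a : Ω} (ha : a ≠ 0) (σ : Ω ≃ₐ[k] Ω)
    (hσa : σ a = a) :
    H45.ze ζ (H45.kum (p := p) ζ a σ) = σ (H45.root p a) / H45.root p a := by
  have h1 : (σ (H45.root p a) / H45.root p a) ^ p = 1 := by
    rw [div_pow, ← map_pow, H45.root_pow, hσa, div_self ha]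
  exact Function.invFun_eq (H45.exists_ze_eq hζ h1)

/-- the action on `ζ^j` of an automorphism with `σ ζ = ζ^n` -/
theorem map_ze_tq {ζ : Ω} (hζ : IsPrimitiveRoot ζ p) (σ : Ω ≃ₐ[k] Ω) (n : ZMod p)
    (hσζ : σ ζ = H45.ze ζ n) (j : ZMod p) : σ (H45.ze ζ j) = H45.ze ζ (n * j) := by
  haveI : NeZero p := ⟨(Fact.out : p.Prime).ne_zero⟩
  have h1 : σ (H45.ze ζ j) = H45.ze ζ n ^ j.val := by
    unfold H45.ze
    rw [map_pow, hσζ]
    rfl
  rw [h1, ze_pow_nat hζ, ZMod.natCast_zmod_val, mul_comm]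

/-- the twisted cocycle relation of the Kummer cocycle -/
theorem kum_mul_tq {ζ : Ω} (hζ : IsPrimitiveRoot ζ p) {a : Ω} (ha : a ≠ 0) (σ τ : Ω ≃ₐ[k] Ω)
    (hσa : σ a = a) (hτa : τ a = a) (n : ZMod p) (hσζ : σ ζ = H45.ze ζ n) :
    H45.kum (p := p) ζ a (σ * τ) =
      H45.kum (p := p) ζ a σ + n * H45.kum (p := p) ζ a τ := by
  apply H45.ze_injective hζ
  have h0 := root_ne_zero_tq (p := p) ha
  have hστ : (σ * τ) a = a := by rw [AlgEquiv.mul_apply, hτa, hσa]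
  rw [ze_kum_tq hζ ha (σ * τ) hστ, H45.ze_add hζ, ze_kum_tq hζ ha σ hσa,
    ← map_ze_tq hζ σ n hσζ, ze_kum_tq hζ ha τ hτa, AlgEquiv.mul_apply, map_div₀]
  have h1 : σ (H45.root p a) ≠ 0 := by
    intro h
    exact h0 ((map_eq_zero σ).1 h)
  field_simp

/-- the Kummer cocycle vanishes on automorphisms fixing the chosen root -/
theorem kum_eq_zero_tq {ζ : Ω} (hζ : IsPrimitiveRoot ζ p) {a : Ω} (ha : a ≠ 0) (σ : Ω ≃ₐ[k] Ω)
    (hσa : σ a = a) (hσ : σ (H45.root p a) = H45.root p a) :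
    H45.kum (p := p) ζ a σ = 0 := by
  rw [← H45.ze_eq_one_iff hζ, ze_kum_tq hζ ha σ hσa, hσ, div_self (root_ne_zero_tq ha)]

end tw

section cyc

variable {p : ℕ} [Fact p.Prime]

/-- The defining property of the cyclotomic exponent. -/
theorem cyc_map_zeta_tq {ζ₀ : AlgebraicClosure ℚ} (hζ : IsPrimitiveRoot ζ₀ p) (σ : GQ) :
    σ ζ₀ = ζ₀ ^ (cycloExp p σ) := by
  haveI : NeZero p := ⟨(Fact.out : p.Prime).ne_zero⟩
  have hu : IsUnit ζ₀ := hζ.isUnit (Fact.out : p.Prime).ne_zero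
  obtain ⟨u, hu'⟩ := hu
  have hmem : u ∈ rootsOfUnity p (AlgebraicClosure ℚ) := by
    rw [mem_rootsOfUnity]
    ext
    rw [Units.val_pow_eq_pow_val, hu', Units.val_one]
    exact hζ.pow_eq_one
  have := modularCyclotomicCharacter.spec (AlgebraicClosure ℚ) (card_rootsOfUnity_eq_self p)
    (σ : AlgebraicClosure ℚ ≃+* AlgebraicClosure ℚ) hmem
  rw [hu'] at this
  exact this

/-- The local action on the image of a primitive root. -/
theorem local_map_zeta_tq {ζ₀ : AlgebraicClosure ℚ} (hζ : IsPrimitiveRoot ζ₀ p)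
    (h : PadicAlgCl p ≃ₐ[ℚ_[p]] PadicAlgCl p) :
    h (padicEmbedding p ζ₀) =
      H45.ze (p := p) (padicEmbedding p ζ₀)
        ((cycloChar p (localGaloisToGlobal p h) : (ZMod p)ˣ) : ZMod p) := by
  rw [← padicEmbedding_localGaloisToGlobal, cyc_map_zeta_tq hζ, map_pow]
  rfl

end cyc

section main

variable {p : ℕ} [Fact p.Prime]

/-- the degree of `ℚ_p(ζ)` is `< p` -/
theorem finrank_adjoin_zeta_lt {ζ : PadicAlgCl p} (hζ : IsPrimitiveRoot ζ p) :
    Module.finrank ℚ_[p] ↥(IntermediateField.adjoin ℚ_[p] {ζ}) < p := by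
  have hp : p.Prime := Fact.out
  haveI : NeZero p := ⟨hp.ne_zero⟩
  have hint : IsIntegral ℚ_[p] ζ := Algebra.IsIntegral.isIntegral _
  rw [IntermediateField.adjoin.finrank hint]
  have hdvd : minpoly ℚ_[p] ζ ∣ Polynomial.cyclotomic p ℚ_[p] := by
    apply minpoly.dvd
    have := (Polynomial.isRoot_cyclotomic_iff (n := p) (R := PadicAlgCl p)).2 hζ
    rw [← Polynomial.map_cyclotomic p (algebraMap ℚ_[p] (PadicAlgCl p)),
      Polynomial.IsRoot.def, Polynomial.eval_map] at this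
    exact this
  have hne : Polynomial.cyclotomic p ℚ_[p] ≠ 0 := Polynomial.cyclotomic_ne_zero p _
  have hle := Polynomial.natDegree_le_of_dvd hdvd hne
  rw [Polynomial.natDegree_cyclotomic, Nat.totient_prime hp] at hle
  have := hp.pos
  omega

/-- **TQ-L** from the sub-leaves TQL-V and TQL-U. -/
theorem stmt_TQ_Loc_of (hV : Stmt_TQL_Val) (hU : Stmt_TQL_Unr) : Top.Stmt_TQ_Loc := by
  intro p _ _
  classical
  have hp : p.Prime := Fact.out
  haveI : NeZero p := ⟨hp.ne_zero⟩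
  obtain ⟨E₁, u, hE₁fd, hE₁gal, hE₁deg, hE₁unr, hker⟩ := hU p
  haveI := hE₁fd
  obtain ⟨hKa, hKb⟩ := H5.stmt_L5_Krasner p
  -- the root of unity
  obtain ⟨ζ₀, hζ₀⟩ : ∃ ζ₀ : AlgebraicClosure ℚ, IsPrimitiveRoot ζ₀ p :=
    HasEnoughRootsOfUnity.exists_primitiveRoot (AlgebraicClosure ℚ) p
  have hζ : IsPrimitiveRoot (padicEmbedding p ζ₀) p :=
    hζ₀.map_of_injective (padicEmbedding p).toRingHom.injective
  -- the cyclotomic character on the local group
  let χl : (PadicAlgCl p ≃ₐ[ℚ_[p]] PadicAlgCl p) → ZMod p := fun h =>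
    ((cycloChar p (localGaloisToGlobal p h) : (ZMod p)ˣ) : ZMod p)
  have hχ : ∀ h : PadicAlgCl p ≃ₐ[ℚ_[p]] PadicAlgCl p,
      h (padicEmbedding p ζ₀) = H45.ze (p := p) (padicEmbedding p ζ₀) (χl h) :=
    fun h => local_map_zeta_tq hζ₀ h
  -- the twisted Kummer cocycle of `p`
  have hpΩ : ((p : ℕ) : PadicAlgCl p) ≠ 0 := Nat.cast_ne_zero.mpr hp.ne_zero
  have hfixp : ∀ h : PadicAlgCl p ≃ₐ[ℚ_[p]] PadicAlgCl p,
      h ((p : ℕ) : PadicAlgCl p) = ((p : ℕ) : PadicAlgCl p) := fun h => map_natCast h p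
  let κ : (PadicAlgCl p ≃ₐ[ℚ_[p]] PadicAlgCl p) → ZMod p := fun h =>
    H45.kum (p := p) (padicEmbedding p ζ₀) ((p : ℕ) : PadicAlgCl p) h
  have hκ : ∀ h₁ h₂ : PadicAlgCl p ≃ₐ[ℚ_[p]] PadicAlgCl p,
      κ (h₁ * h₂) = κ h₁ + χl h₁ * κ h₂ := fun h₁ h₂ =>
    kum_mul_tq hζ hpΩ h₁ h₂ (hfixp h₁) (hfixp h₂) (χl h₁) (hχ h₁)
  -- the unramified character
  let uA : (PadicAlgCl p ≃ₐ[ℚ_[p]] PadicAlgCl p) → ZMod p := fun h => Multiplicative.toAdd (u h)
  have huA : ∀ h₁ h₂ : PadicAlgCl p ≃ₐ[ℚ_[p]] PadicAlgCl p, uA (h₁ * h₂) = uA h₁ + uA h₂ := by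
    intro h₁ h₂
    show Multiplicative.toAdd (u (h₁ * h₂)) = _
    rw [map_mul]
    rfl
  have huA0 : ∀ h : PadicAlgCl p ≃ₐ[ℚ_[p]] PadicAlgCl p, uA h = 0 ↔ h ∈ E₁.fixingSubgroup := by
    intro h
    rw [← hker, MonoidHom.mem_ker]
    exact Iff.rfl
  -- the finite level of `c`
  have hζint : IsIntegral ℚ_[p] (padicEmbedding p ζ₀) := Algebra.IsIntegral.isIntegral _
  have hπint : IsIntegral ℚ_[p] (H45.root p ((p : ℕ) : PadicAlgCl p)) :=
    Algebra.IsIntegral.isIntegral _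
  haveI : FiniteDimensional ℚ_[p] ↥(IntermediateField.adjoin ℚ_[p]
      {H45.root p ((p : ℕ) : PadicAlgCl p)}) := IntermediateField.adjoin.finiteDimensional hπint
  haveI : FiniteDimensional ℚ_[p] ↥(E₁ ⊔ IntermediateField.adjoin ℚ_[p]
      {H45.root p ((p : ℕ) : PadicAlgCl p)}) := IntermediateField.finiteDimensional_sup _ _
  obtain ⟨N, hNfd, hN⟩ := hKa (E₁ ⊔ IntermediateField.adjoin ℚ_[p]
      {H45.root p ((p : ℕ) : PadicAlgCl p)}) inferInstance
  have hκs : ∀ s : PadicAlgCl p ≃ₐ[ℚ_[p]] PadicAlgCl p,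
      localGaloisToGlobal p s ∈ N.fixingSubgroup → κ s = 0 := by
    intro s hs
    have h1 := hN s hs
    refine kum_eq_zero_tq hζ hpΩ s (hfixp s) ?_
    exact (IntermediateField.mem_fixingSubgroup_iff _ _).1 h1 _
      ((le_sup_right : IntermediateField.adjoin ℚ_[p]
        {H45.root p ((p : ℕ) : PadicAlgCl p)} ≤ _) (IntermediateField.mem_adjoin_simple_self _ _))
  have hus : ∀ s : PadicAlgCl p ≃ₐ[ℚ_[p]] PadicAlgCl p,
      localGaloisToGlobal p s ∈ N.fixingSubgroup → uA s = 0 := by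
    intro s hs
    rw [huA0]
    exact IntermediateField.fixingSubgroup_antitone le_sup_left (hN s hs)
  have hlev : ∀ g g' s s' : PadicAlgCl p ≃ₐ[ℚ_[p]] PadicAlgCl p,
      localGaloisToGlobal p s ∈ N.fixingSubgroup → localGaloisToGlobal p s' ∈ N.fixingSubgroup →
      κ (g * s) * uA (g' * s') = κ g * uA g' := by
    intro g g' s s' hs hs'
    rw [hκ, huA, hκs s hs, hus s' hs', mul_zero, add_zero, add_zero]
  have hcoc : ∀ h₁ h₂ h₃ : PadicAlgCl p ≃ₐ[ℚ_[p]] PadicAlgCl p,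
      χl h₁ * (κ h₂ * uA h₃) - κ (h₁ * h₂) * uA h₃ + κ h₁ * uA (h₂ * h₃) - κ h₁ * uA h₂ = 0 := by
    intro h₁ h₂ h₃
    rw [hκ, huA]
    ring
  -- the cocycle
  refine ⟨fun t => κ (show PadicAlgCl p ≃ₐ[ℚ_[p]] PadicAlgCl p from t.1) *
      uA (show PadicAlgCl p ≃ₐ[ℚ_[p]] PadicAlgCl p from t.2), ⟨N, hNfd, ?_⟩, ?_, ?_⟩
  · intro g g' s s' hs hs'
    exact hlev g g' s s' hs hs'
  · funext x
    exact hcoc x.1 x.2.1 x.2.2
  · rintro ⟨g, ⟨Ng, hNgfd, hg⟩, hdg⟩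
    haveI : Fact (1 < p) := ⟨hp.one_lt⟩
    -- the field `F₀ = ℚ_p(ζ)`
    let F₀ : IntermediateField ℚ_[p] (PadicAlgCl p) :=
      IntermediateField.adjoin ℚ_[p] {padicEmbedding p ζ₀}
    have hζF : padicEmbedding p ζ₀ ∈ F₀ := IntermediateField.mem_adjoin_simple_self _ _
    haveI : FiniteDimensional ℚ_[p] ↥F₀ := IntermediateField.adjoin.finiteDimensional hζint
    have hF₀deg : Module.finrank ℚ_[p] ↥F₀ < p := finrank_adjoin_zeta_lt hζ
    -- `Gal(Ω/F₀) ⊆ Γcyc`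
    have hmem : ∀ h : PadicAlgCl p ≃ₐ[ℚ_[p]] PadicAlgCl p, h ∈ F₀.fixingSubgroup →
        (show Gl (pPrime p) from h) ∈ Γcyc p := by
      intro h hh
      rw [mem_Γcyc]
      have h1 : h (padicEmbedding p ζ₀) = padicEmbedding p ζ₀ :=
        (IntermediateField.mem_fixingSubgroup_iff _ _).1 hh _ hζF
      have h2 := hχ h
      rw [h1] at h2
      have h3 : H45.ze (p := p) (padicEmbedding p ζ₀) (χl h) =
          H45.ze (p := p) (padicEmbedding p ζ₀) 1 := by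
        rw [← h2]
        unfold H45.ze
        rw [ZMod.val_one, pow_one]
      have h4 : χl h = 1 := H45.ze_injective hζ h3
      exact Units.ext h4
    let g' : ↥F₀.fixingSubgroup → ZMod p := fun σ =>
      g ⟨(show Gl (pPrime p) from σ.1), hmem σ.1 σ.2⟩
    -- the local level of `g`
    obtain ⟨Ef, hEffd, hEf⟩ := hKb Ng hNgfd
    haveI := hEffd
    have hfloc : ∀ σ s : ↥F₀.fixingSubgroup,
        (s : PadicAlgCl p ≃ₐ[ℚ_[p]] PadicAlgCl p) ∈ Ef.fixingSubgroup → g' (σ * s) = g' σ := by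
      intro σ s hs
      exact hg ⟨_, hmem σ.1 σ.2⟩ ⟨_, hmem s.1 s.2⟩ (hEf s.1 hs)
    -- the restriction of `u`
    let u₀ : ↥F₀.fixingSubgroup → ZMod p := fun σ => uA σ.1
    have hu₀ : tOne u₀ = 0 := by
      funext t
      show uA t.2.1 - uA (t.1.1 * t.2.1) + uA t.1.1 = 0
      rw [huA]
      ring
    have hu₀loc : H45.IsLocA F₀ u₀ := ⟨E₁, hE₁fd, fun σ s hs => by
      show uA (σ.1 * s.1) = uA σ.1
      rw [huA, (huA0 s.1).2 hs, add_zero]⟩
    obtain ⟨a, ha⟩ := H45.exists_kumΓ_eq (k := ℚ_[p]) (Ω := PadicAlgCl p) (F := F₀) hζ hζF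
      u₀ hu₀ hu₀loc
    have hane : H45.kumΓ (p := p) F₀ (padicEmbedding p ζ₀) a ≠ 0 := by
      rw [ha]
      intro h0
      have hle : E₁ ≤ F₀ := by
        have h1 : F₀.fixingSubgroup ≤ E₁.fixingSubgroup := by
          intro σ hσ
          rw [← huA0]
          exact congrFun h0 ⟨σ, hσ⟩
        have h2 := (IntermediateField.le_iff_le _ _).2 h1
        rwa [InfiniteGalois.fixedField_fixingSubgroup] at h2
      have h3 : Module.finrank ℚ_[p] ↥E₁ ≤ Module.finrank ℚ_[p] ↥F₀ :=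
        Submodule.finrank_mono (s := E₁.toSubalgebra.toSubmodule)
          (t := F₀.toSubalgebra.toSubmodule) hle
      omega
    -- `β = p`
    have hpF₀ : ((p : ℕ) : PadicAlgCl p) ∈ F₀ := natCast_mem F₀ p
    let β : (↥F₀)ˣ := Units.mk0 ⟨((p : ℕ) : PadicAlgCl p), hpF₀⟩
      (fun h => hpΩ (congrArg Subtype.val h))
    have hκβ : ∀ σ : ↥F₀.fixingSubgroup,
        H45.kumΓ (p := p) F₀ (padicEmbedding p ζ₀) β σ = κ σ.1 := fun σ => rfl
    haveI : Normal ↥F₀ ↥(kumField (p := p) F₀ a) := kumField_normal F₀ a hζ hζF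
    haveI : Algebra.IsSeparable ↥F₀ ↥(kumField (p := p) F₀ a) :=
      Algebra.isSeparable_tower_bot_of_isSeparable ↥F₀ ↥(kumField (p := p) F₀ a) (PadicAlgCl p)
    haveI : IsGalois ↥F₀ ↥(kumField (p := p) F₀ a) := ⟨⟩
    have hnorm : β ∈ normSubgroup ↥F₀ ↥(kumField (p := p) F₀ a) := by
      refine norm_of_cup_coboundary F₀ hζ hζF a β hane g' Ef hfloc ?_
      intro σ τ
      have h1 := congrFun hdg (⟨_, hmem σ.1 σ.2⟩, ⟨_, hmem τ.1 τ.2⟩)
      rw [hκβ, ha]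
      exact h1
    obtain ⟨y, hy⟩ := hnorm
    -- `E₁ ⊆ F₀(a^{1/p})`
    have hE₁L : ∀ x : PadicAlgCl p, x ∈ E₁ → x ∈ kumField (p := p) F₀ a := by
      intro x hx
      rw [← InfiniteGalois.fixedField_fixingSubgroup (kumField (p := p) F₀ a),
        IntermediateField.mem_fixedField_iff]
      intro τ hτ
      let σ : ↥F₀.fixingSubgroup := (IntermediateField.fixingSubgroupEquiv F₀).symm τ
      have hστ : ∀ z : PadicAlgCl p, (σ : PadicAlgCl p ≃ₐ[ℚ_[p]] PadicAlgCl p) z = τ z :=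
        fun z => rfl
      have h1 : H45.kumΓ (p := p) F₀ (padicEmbedding p ζ₀) a σ = 0 := by
        refine H45.kumΓ_unique hζ hζF a σ (kumRoot_pow F₀ a) ?_
        rw [H45.ze_zero, one_mul, hστ]
        exact (IntermediateField.mem_fixingSubgroup_iff _ _).1 hτ _ (kumRoot_mem F₀ a)
      rw [ha] at h1
      have h2 : σ.1 ∈ E₁.fixingSubgroup := (huA0 σ.1).1 h1
      rw [← hστ]
      exact (IntermediateField.mem_fixingSubgroup_iff _ _).1 h2 x hx
    refine hV p F₀ E₁ (kumField (p := p) F₀ a) inferInstance hF₀deg hE₁fd hE₁gal hE₁deg hE₁unr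
      inferInstance hE₁L (y : ↥(kumField (p := p) F₀ a)) ?_
    have h1 := congrArg Units.val hy
    rw [Units.coe_map] at h1
    rw [h1]
    apply Subtype.ext
    show ((p : ℕ) : PadicAlgCl p) = algebraMap ℚ_[p] (PadicAlgCl p) ((p : ℕ) : ℚ_[p])
    rw [map_natCast]

end main

end Fermat.Agent.S55.CFT.LOC.H68

end
-- ==== END Fermat.Agent.S55.CFT.LOC.H68_TQL

-- ==== BEGIN Fermat.Agent.S55.CFT.LOC.H72_H2DimFinal
section

/-!
# S55/E4 island LOC, package L5-H2 (helper72): `dim H²(F, 𝔽_p) ≤ 1`, unconditional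

`stmt_L5_H2Dim : Stmt_L5_H2Dim`, from `H72.stmt_L5_H2Dim_of` and helper68's unconditional
`H68.stmt_BrauerPTors`.
-/

set_option autoImplicit false

namespace Fermat.Agent.S55.CFT.LOC.H72

/-- **L5-H2**: `dim H²(F, 𝔽_p) ≤ 1` at the local groups. -/
theorem stmt_L5_H2Dim : Stmt_L5_H2Dim := stmt_L5_H2Dim_of H68.stmt_BrauerPTors

end Fermat.Agent.S55.CFT.LOC.H72

end
-- ==== END Fermat.Agent.S55.CFT.LOC.H72_H2DimFinal

-- ==== BEGIN Fermat.Agent.S55.Top.H48_TQField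
section

set_option autoImplicit false
set_option linter.unusedSectionVars false

open CategoryTheory Module groupCohomology ExtCitation

noncomputable section

namespace Fermat.Agent.S55.Top.H48

open Fermat.Agent.S55 Fermat.Agent.S55.Top OrbitData

attribute [local instance] locAct

variable (p : ℕ) [Fact p.Prime]

/-- The cyclotomic field `ℚ(ζ_p)`. -/
def Kcyc : IntermediateField ℚ (AlgebraicClosure ℚ) :=
  IntermediateField.adjoin ℚ
    ({(Fermat.Agent.S55.H48.exists_primitiveRoot p).choose} : Set (AlgebraicClosure ℚ))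

/-- `G_{ℚ(ζ_p)}` is the kernel of the mod `p` cyclotomic character. -/
theorem Kcyc_fix : (Kcyc p).fixingSubgroup = (cycloChar p).ker := by
  have hζ := (Fermat.Agent.S55.H48.exists_primitiveRoot p).choose_spec
  have hp : p.Prime := Fact.out
  haveI : NeZero p := ⟨hp.ne_zero⟩
  ext s
  rw [IntermediateField.mem_fixingSubgroup_iff, MonoidHom.mem_ker]
  constructor
  · intro hs
    have hsζ := hs _ (IntermediateField.mem_adjoin_simple_self ℚ
      (Fermat.Agent.S55.H48.exists_primitiveRoot p).choose)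
    apply Fermat.Agent.S55.H48.cycloChar_eq_one_of_fix
    intro t ht
    obtain ⟨j, -, rfl⟩ := hζ.eq_pow_of_pow_eq_one ht
    rw [map_pow, hsζ]
  · intro hs
    exact Fermat.Agent.S55.H48.fixes_adjoin s _
      (H13.fix_of_cycloChar_eq_one p s hs _ hζ.pow_eq_one)

/-- `ℚ(ζ_p)` is a base field. -/
theorem Kcyc_isBaseField (S : Finset Nat.Primes) (hpS : pPrime p ∈ S) :
    IsBaseField S p (Kcyc p) := by
  have hζ := (Fermat.Agent.S55.H48.exists_primitiveRoot p).choose_spec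
  have hp : p.Prime := Fact.out
  haveI := Fermat.Agent.S55.H48.qbar_isAlgebraic
  refine ⟨⟨IntermediateField.adjoin.finiteDimensional
    (Algebra.IsIntegral.isIntegral (R := ℚ) _), ?_⟩, _,
    IntermediateField.mem_adjoin_simple_self ℚ _, hζ⟩
  intro q hq A hA g hg
  have hqp : (q : ℕ) ≠ p := by
    intro h
    apply hq
    have : q = pPrime p := Subtype.ext h
    rw [this]
    exact hpS
  have hfixζ := Fermat.Agent.S55.H48.inertia_fix_root hp q.2 hqp A hA g hg _ hζ.pow_eq_one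
  rw [IntermediateField.mem_fixingSubgroup_iff]
  exact Fermat.Agent.S55.H48.fixes_adjoin g _ hfixζ

lemma smul_mk_XK (K : IntermediateField ℚ (AlgebraicClosure ℚ)) (γ g : GQ) :
    γ • (QuotientGroup.mk g : XK K) = (QuotientGroup.mk (γ * g) : XK K) := rfl

/-- The local group at `p` acts transitively on `G_ℚ / G_{ℚ(ζ_p)}`. -/
theorem loc_transitive (x y : XK (Kcyc p)) :
    ∃ h : Gl (pPrime p), rl (pPrime p) h • x = y := by
  induction x using QuotientGroup.induction_on with | _ g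
  induction y using QuotientGroup.induction_on with | _ g'
  obtain ⟨h, hh⟩ := stmt_TQ_CycSurj p (cycloChar p g' * (cycloChar p g)⁻¹)
  have hh' : cycloChar p (rl (pPrime p) h) = cycloChar p g' * (cycloChar p g)⁻¹ := hh
  refine ⟨h, ?_⟩
  rw [smul_mk_XK]
  apply QuotientGroup.eq.2
  rw [Kcyc_fix, MonoidHom.mem_ker, map_mul, map_inv, map_mul, hh']
  group

/-- There is exactly one place of `ℚ(ζ_p)` over `p`. -/
theorem subsingleton_W {S : Finset Nat.Primes} (hpS : pPrime p ∈ S)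
    (𝔓 : PlaceSys S (Kcyc p)) : Subsingleton (𝔓.W ⟨pPrime p, hpS⟩) := by
  refine ⟨fun w w' => ?_⟩
  obtain ⟨h, hh⟩ := loc_transitive p ((𝔓.loc ⟨pPrime p, hpS⟩).rep w)
    ((𝔓.loc ⟨pPrime p, hpS⟩).rep w')
  have h1 := (𝔓.loc ⟨pPrime p, hpS⟩).o_smul h ((𝔓.loc ⟨pPrime p, hpS⟩).rep w)
  rw [locAct_smul] at h1
  have h2 : rl (⟨pPrime p, hpS⟩ : ↥S).1 h • (𝔓.loc ⟨pPrime p, hpS⟩).rep w =
      (𝔓.loc ⟨pPrime p, hpS⟩).rep w' := hh
  rw [h2, (𝔓.loc ⟨pPrime p, hpS⟩).o_rep, (𝔓.loc ⟨pPrime p, hpS⟩).o_rep] at h1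
  exact h1.symm

/-- The stabiliser of any coset is `ker χ_p`. -/
theorem smul_eq_self_iff (γ : GQ) (x : XK (Kcyc p)) : γ • x = x ↔ cycloChar p γ = 1 := by
  induction x using QuotientGroup.induction_on with | _ g
  rw [smul_mk_XK, QuotientGroup.eq, Kcyc_fix, MonoidHom.mem_ker, map_mul, map_inv, map_mul,
    mul_comm (cycloChar p γ), mul_inv_rev, inv_mul_cancel_right, inv_eq_one]

/-- The local group of the place over `p` is `Γcyc p`. -/
theorem mem_Γw_iff_Γcyc {S : Finset Nat.Primes} (hpS : pPrime p ∈ S)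
    (𝔓 : PlaceSys S (Kcyc p)) (w : 𝔓.W ⟨pPrime p, hpS⟩) (h : Gl (pPrime p)) :
    h ∈ 𝔓.Γw ⟨pPrime p, hpS⟩ w ↔ h ∈ Γcyc p := by
  rw [PlaceSys.mem_Γw, mem_Γcyc]
  exact smul_eq_self_iff p _ _

end Fermat.Agent.S55.Top.H48

end

end
-- ==== END Fermat.Agent.S55.Top.H48_TQField

-- ==== BEGIN Fermat.Agent.S55.Top.SHTransfer
section

set_option autoImplicit false
set_option linter.unusedSectionVars false
set_option linter.unusedSimpArgs false
set_option linter.unusedVariables false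

open CategoryTheory Module groupCohomology ExtCitation

noncomputable section

namespace Fermat.Agent.S55.Top

open Fermat.Agent.S55 OrbitData

attribute [local instance] locAct

variable {k : Type} [Field k] {S : Finset Nat.Primes}
  {K : IntermediateField ℚ (AlgebraicClosure ℚ)} {𝔓 : PlaceSys S K}
  {χ : GQ →* kˣ} (𝔲 : Untwist χ K) [Fintype (XK K)] [DecidableEq (XK K)]

/-! ### Small facts -/

lemma cA3_one (x : C3c S (FX k K)) : cA3 x (fun _ => (1 : k)) = x := by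
  refine Prod.ext (funext fun t => funext fun y => ?_)
    (funext fun q => funext fun t => funext fun y => ?_)
  · simp [cA3, cup30]
  · simp [cA3, cup20]

lemma cB2_sub_right (A : GQ → XK K → k) (y y' : C2c S (FX k K)) :
    cB2 A (y - y') = cB2 A y - cB2 A y' := by
  refine Prod.ext (funext fun t => funext fun z => ?_)
    (funext fun q => funext fun t => funext fun z => ?_)
  · simp only [cB2, cup12, Prod.fst_sub, Pi.sub_apply]
    ring
  · simp only [cB2, cup11, Prod.snd_sub, Pi.sub_apply, Pi.neg_apply]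
    ring

lemma Untwist.mapC2_co_oc (Y : C2c S (FX k K)) :
    mapC2 𝔲.coLin (mapC2 (S := S) 𝔲.ocLin Y) = Y := by
  refine Prod.ext (funext fun t => ?_) (funext fun q => funext fun t => ?_)
  · exact 𝔲.coLin_ocLin _
  · exact 𝔲.coLin_ocLin _

lemma Untwist.mapC2_oc_co (y : C2c S (Md χ (FX k K))) :
    mapC2 𝔲.ocLin (mapC2 𝔲.coLin y : C2c S (FX k K)) = y := by
  refine Prod.ext (funext fun t => ?_) (funext fun q => funext fun t => ?_)
  · exact 𝔲.ocLin_coLin _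
  · exact 𝔲.ocLin_coLin _

lemma Untwist.mapC1_co_oc (Y : C1c S (FX k K)) :
    mapC1 𝔲.coLin (mapC1 (S := S) 𝔲.ocLin Y) = Y := by
  refine Prod.ext (funext fun t => ?_) (funext fun q => ?_)
  · exact 𝔲.coLin_ocLin _
  · exact 𝔲.coLin_ocLin _

/-- the invariant functional `m ↦ Σ_x u(x) m(x)`. -/
lemma Untwist.oc_one_inv (g : GQ) :
    (Md χ (FX k K)).ρ g (𝔲.ocLin (fun _ => (1 : k))) = 𝔲.ocLin (fun _ => (1 : k)) := by
  rw [← 𝔲.ocLin_coLin ((Md χ (FX k K)).ρ g (𝔲.ocLin (fun _ => (1 : k))))]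
  congr 1
  funext x
  rw [𝔲.coLin_rho, 𝔲.coLin_ocLin]

variable (hK : K.IsUnramifiedOutside S) (tr : Trace S χ)

/-! ### `α³` -/

theorem alphaThreeMono_FX (h : AlphaThreeMonoK (𝔓.trK 𝔲 hK tr)) :
    AlphaThreeMono tr (FX k K) := by
  intro x hx hpair
  have hxK : IsZ3cK 𝔓 (𝔓.Sh₃ x) := isZ3cK_Sh₃ hK hx
  have hB := isB3c_sub_U₃_Sh₃ (𝔓 := 𝔓) hK hx
  have h0 : (𝔓.trK 𝔲 hK tr).toFun (𝔓.Sh₃ x) = 0 := by
    rw [𝔓.trK_apply, ← 𝔲.tr_sumC3_eq tr hB]
    have h1 := hpair (𝔲.ocLin (fun _ => (1 : k))) (𝔲.oc_one_inv)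
    rw [𝔲.cupA3_eq, 𝔲.coLin_ocLin, cA3_one] at h1
    exact h1
  have hBK : IsB3cK 𝔓 (𝔓.Sh₃ x) := h _ hxK (fun m => by
    have e : cupA3K 𝔓 (𝔓.Sh₃ x) m = m • 𝔓.Sh₃ x := by
      refine Prod.ext (funext fun t => ?_) (funext fun q => funext fun w => funext fun t => ?_)
      · simp [cupA3K, mul_comm]
      · simp [cupA3K, mul_comm]
    rw [e, map_smul, h0, smul_zero])
  have := isB3c_add hB (isB3c_U₃ hK hBK)
  simpa using this

/-! ### `β²` -/

theorem betaTwoMono_FX (hχ : LevChar S χ) (h : BetaTwoMonoK (𝔓.trK 𝔲 hK tr)) :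
    BetaTwoMono tr (FX k K) := by
  intro y hy hpair
  have hY : IsZ2c S (FX k K) (mapC2 𝔲.coLin y) := H48.isZ2c_push 𝔲.coHom hy
  have hYK := isZ2cK_Sh₂ (𝔓 := 𝔓) hK hY
  have hB := isB2c_sub_U₂_Sh₂ (𝔓 := 𝔓) hK hY
  have hBK : IsB2cK 𝔓 (𝔓.Sh₂ (mapC2 𝔲.coLin y)) := h _ hYK (fun a ha => by
    have haQ : IsZ1S S (FX k K) (𝔓.indK₁ a) := isZ1S_indK₁ hK ha
    rw [𝔓.trK_apply, 𝔲.tr_sumC3_eq tr (isB3c_adjB2 hK ha hYK)]
    have e1 : cB2 (𝔓.indK₁ a) (𝔓.U₂ (𝔓.Sh₂ (mapC2 𝔲.coLin y))) =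
        cB2 (𝔓.indK₁ a) (mapC2 𝔲.coLin y) -
          cB2 (𝔓.indK₁ a) (mapC2 𝔲.coLin y - 𝔓.U₂ (𝔓.Sh₂ (mapC2 𝔲.coLin y))) := by
      rw [← cB2_sub_right, sub_sub_cancel]
    rw [e1, map_sub, map_sub]
    have e2 : tr.toFun (𝔲.sumC3 (cB2 (𝔓.indK₁ a) (mapC2 𝔲.coLin y))) = 0 := by
      have := hpair (𝔓.indK₁ a) haQ
      rw [𝔲.cupB2_eq] at this
      exact this
    have e3 : tr.toFun (𝔲.sumC3 (cB2 (𝔓.indK₁ a)
        (mapC2 𝔲.coLin y - 𝔓.U₂ (𝔓.Sh₂ (mapC2 𝔲.coLin y))))) = 0 := by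
      have hb := H48.isB2c_push 𝔲.ocHom hB
      have := tr_cupB2_isB2c hχ (lev_FX hK) tr haQ hb
      rw [𝔲.cupB2_eq] at this
      have e : mapC2 𝔲.coLin (mapC2 (S := S) 𝔲.ocHom.hom
          (mapC2 𝔲.coLin y - 𝔓.U₂ (𝔓.Sh₂ (mapC2 𝔲.coLin y)))) =
          mapC2 𝔲.coLin y - 𝔓.U₂ (𝔓.Sh₂ (mapC2 𝔲.coLin y)) := 𝔲.mapC2_co_oc _
      rw [e] at this
      exact this
    rw [e2, e3, sub_zero])
  have hYB : IsB2c S (FX k K) (mapC2 𝔲.coLin y) := by
    have := isB2c_add hB (isB2c_U₂ hK hBK)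
    simpa using this
  have := H48.isB2c_push 𝔲.ocHom hYB
  have e : mapC2 (S := S) 𝔲.ocHom.hom (mapC2 𝔲.coLin y : C2c S (FX k K)) = y :=
    𝔲.mapC2_oc_co y
  rw [e] at this
  exact this

/-! ### `α²` -/

theorem alphaTwoEpi_FX (hχ : LevChar S χ) (h : AlphaTwoEpiK (𝔓.trK 𝔲 hK tr)) :
    AlphaTwoEpi tr (FX k K) := by
  intro φ hφ
  obtain ⟨xK, hxK, hpair⟩ := h (φ ∘ₗ (𝔲.ocLin.compLeft GQ) ∘ₗ 𝔓.indK₁ₗ)
  refine ⟨𝔓.U₂ xK, isZ2c_U₂ hK hxK, fun b hb => ?_⟩
  have hB : IsZ1S S (FX k K) (fun g => 𝔲.coLin (b g)) := H48.isZ1S_push 𝔲.coHom hb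
  have hbK : IsZ1K S K (𝔓.shK₁ (fun g => 𝔲.coLin (b g))) := isZ1K_shK₁ hB
  have hdec := sub_indK₁_shK₁ (𝔓 := 𝔓) hB
  -- decomposition of `b`
  have hb' : b = (fun g => 𝔲.ocLin (𝔓.indK₁ (𝔓.shK₁ (fun g => 𝔲.coLin (b g))) g)) +
      dZero (Md χ (FX k K)) (𝔲.ocLin (𝔓.glob.hty1 (fun g => 𝔲.coLin (b g)))) := by
    funext g
    have h1 := congrFun hdec g
    have h2 : 𝔲.coLin (b g) = 𝔓.indK₁ (𝔓.shK₁ (fun g => 𝔲.coLin (b g))) g +
        dZero (FX k K) (𝔓.glob.hty1 (fun g => 𝔲.coLin (b g))) g := by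
      rw [← h1]
      simp
    have h3 := congrArg 𝔲.ocLin h2
    rw [𝔲.ocLin_coLin, map_add] at h3
    rw [h3]
    simp only [Pi.add_apply]
    congr 1
    have := Rep.hom_comm_apply 𝔲.ocHom g (𝔓.glob.hty1 (fun g => 𝔲.coLin (b g)))
    simp only [dZero, map_sub]
    rw [← 𝔲.ocHom_apply, ← 𝔲.ocHom_apply, this]
  have key : tr.toFun (cupA2 S χ (FX k K) (𝔓.U₂ xK)
      (fun g => 𝔲.ocLin (𝔓.indK₁ (𝔓.shK₁ (fun g => 𝔲.coLin (b g))) g))) =
      φ (fun g => 𝔲.ocLin (𝔓.indK₁ (𝔓.shK₁ (fun g => 𝔲.coLin (b g))) g)) := by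
    rw [𝔲.cupA2_eq]
    have e : (fun g => 𝔲.coLin (𝔲.ocLin (𝔓.indK₁ (𝔓.shK₁ (fun g => 𝔲.coLin (b g))) g))) =
        𝔓.indK₁ (𝔓.shK₁ (fun g => 𝔲.coLin (b g))) := by
      funext g
      exact 𝔲.coLin_ocLin _
    rw [e]
    have h1 := hpair _ hbK
    rw [𝔓.trK_apply, 𝔲.tr_sumC3_eq tr (isB3c_adjA2 hK hxK hbK)] at h1
    exact h1
  have hz := H48.tr_cupA2_dZero (fun F hF => H48.exists_normal_level S F hF) hχ (lev_FX hK) tr
    (isZ2c_U₂ (𝔓 := 𝔓) hK hxK) (𝔲.ocLin (𝔓.glob.hty1 (fun g => 𝔲.coLin (b g))))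
  have hφ' := hφ (𝔲.ocLin (𝔓.glob.hty1 (fun g => 𝔲.coLin (b g))))
  have lin := (cupA2ₗ S χ (FX k K) (𝔓.U₂ xK)).map_add
    (fun g => 𝔲.ocLin (𝔓.indK₁ (𝔓.shK₁ (fun g => 𝔲.coLin (b g))) g))
    (dZero (Md χ (FX k K)) (𝔲.ocLin (𝔓.glob.hty1 (fun g => 𝔲.coLin (b g)))))
  simp only [cupA2ₗ_apply] at lin
  calc tr.toFun (cupA2 S χ (FX k K) (𝔓.U₂ xK) b)
      = tr.toFun (cupA2 S χ (FX k K) (𝔓.U₂ xK)
          ((fun g => 𝔲.ocLin (𝔓.indK₁ (𝔓.shK₁ (fun g => 𝔲.coLin (b g))) g)) +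
            dZero (Md χ (FX k K)) (𝔲.ocLin (𝔓.glob.hty1 (fun g => 𝔲.coLin (b g)))))) := by
        rw [← hb']
    _ = φ ((fun g => 𝔲.ocLin (𝔓.indK₁ (𝔓.shK₁ (fun g => 𝔲.coLin (b g))) g)) +
            dZero (Md χ (FX k K)) (𝔲.ocLin (𝔓.glob.hty1 (fun g => 𝔲.coLin (b g))))) := by
        rw [lin, map_add, map_add, key, hz, hφ']
    _ = φ b := by rw [← hb']

/-! ### `β¹` -/

set_option maxHeartbeats 2000000 in
theorem betaOneEpi_FX (hχ : LevChar S χ) (h : BetaOneEpiK (𝔓.trK 𝔲 hK tr)) :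
    BetaOneEpi tr (FX k K) := by
  intro φ hφ
  obtain ⟨yK, hyK, hpair⟩ := h (φ ∘ₗ 𝔓.indK₂ₗ) (fun a ha => hφ _ (isB2S_indK₂ hK ha))
  have hyQ : IsZ1c S (Md χ (FX k K)) (mapC1 𝔲.ocLin (𝔓.U₁ yK)) :=
    H48.isZ1c_push 𝔲.ocHom (isZ1c_U₁ hK hyK)
  refine ⟨mapC1 𝔲.ocLin (𝔓.U₁ yK), hyQ, fun a ha => ?_⟩
  have haK : IsZ2K S K (𝔓.shK₂ a) := isZ2K_shK₂ ha
  have hdec := isB2S_sub_indK₂_shK₂ (𝔓 := 𝔓) hK ha
  have key : tr.toFun (cupB1 S χ (FX k K) (𝔓.indK₂ (𝔓.shK₂ a)) (mapC1 𝔲.ocLin (𝔓.U₁ yK))) =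
      φ (𝔓.indK₂ (𝔓.shK₂ a)) := by
    rw [𝔲.cupB1_eq, 𝔲.mapC1_co_oc]
    have h1 := hpair _ haK
    rw [𝔓.trK_apply, 𝔲.tr_sumC3_eq tr (isB3c_adjB1 hK haK hyK)] at h1
    exact h1
  have hz : tr.toFun (cupB1 S χ (FX k K) ((a : GQ × GQ → XK K → k) - 𝔓.indK₂ (𝔓.shK₂ a))
      (mapC1 𝔲.ocLin (𝔓.U₁ yK))) = 0 := by
    obtain ⟨f, hf, hfe⟩ := hdec
    rw [← hfe]
    exact H48.tr_cupB1_dOne (fun F hF => H48.exists_normal_level S F hF) hχ (lev_FX hK) tr
      hyQ hf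
  have hφ' := hφ _ hdec
  have ea : a = 𝔓.indK₂ (𝔓.shK₂ a) + ((a : GQ × GQ → XK K → k) - 𝔓.indK₂ (𝔓.shK₂ a)) := by
    abel
  have lin := (cupB1ₗ S χ (FX k K) (mapC1 𝔲.ocLin (𝔓.U₁ yK))).map_add
    (𝔓.indK₂ (𝔓.shK₂ a)) ((a : GQ × GQ → XK K → k) - 𝔓.indK₂ (𝔓.shK₂ a))
  simp only [cupB1ₗ_apply] at lin
  calc tr.toFun (cupB1 S χ (FX k K) a (mapC1 𝔲.ocLin (𝔓.U₁ yK)))
      = tr.toFun (cupB1 S χ (FX k K)
          (𝔓.indK₂ (𝔓.shK₂ a) + ((a : GQ × GQ → XK K → k) - 𝔓.indK₂ (𝔓.shK₂ a)))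
          (mapC1 𝔲.ocLin (𝔓.U₁ yK))) := by rw [← ea]
    _ = φ (𝔓.indK₂ (𝔓.shK₂ a) + ((a : GQ × GQ → XK K → k) - 𝔓.indK₂ (𝔓.shK₂ a))) := by
        rw [lin, map_add, map_add, key, hz, hφ']
    _ = φ a := by rw [← ea]

end Fermat.Agent.S55.Top

end

end
-- ==== END Fermat.Agent.S55.Top.SHTransfer

-- ==== BEGIN Fermat.Agent.S56.EC.Defs_UBR
section

set_option autoImplicit false
set_option linter.unusedSectionVars false

/-!
# Cluster T / S56, GW-CORE, package EC, leaf UBR (equivariant Dirichlet): interfaces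

Owner: helper27.  Plan: `NOTES/plan/T_EC.md` §8.

`E = O_{L,S}ˣ` (additively `UnitsAdd S L`), `Λ = E / torsion` (`ULat S L`, a free `ℤ`-module of
finite rank) with the action `latAct S L b` of `b ∈ Gal(L/ℚ)`.

* `Stmt_RED`    : for `b` of order prime to `p`: `β_U(b) = τ(ω(b)) + tr(b | Λ)`
                  (`0 → μ(L)/p → U → Λ/p → 0`; lift lemma `IND.H74.lift_trace`);
* `Stmt_TR`     : `tr(b | Λ) + 1 = #Fix(b, places of L over S) + #Fix(b, infinite places of L)`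
                  (equivariant Dirichlet unit theorem, as a trace identity);
* `Stmt_BRIDGE` : the fixed places counted on `Gal(L/ℚ) / D_v`.
Assembly: `stmt_UBR_of` (in `EC/H27_UbrAsm.lean`).
-/

noncomputable section

namespace Fermat.Agent.S56.EC

open CategoryTheory ExtCitation Module NumberField IsDedekindDomain

section defs

variable (S : Finset Nat.Primes) (L : IntermediateField ℚ (AlgebraicClosure ℚ))

/-- A finite extension of `ℚ` inside `ℚ̄` is a number field. -/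
theorem numberFieldL [FiniteDimensional ℚ L] : NumberField ↥L := { }

variable [Normal ℚ L]

/-- The action of `Gal(L/ℚ)` on the `S`-units, `ℤ`-linearly. -/
def unitsActZ (g : GalL L) : UnitsAdd S L →ₗ[ℤ] UnitsAdd S L :=
  (unitsAct S L g).toIntLinearMap

/-- The torsion of the `S`-units (the roots of unity of `L`). -/
abbrev unitsTors : Submodule ℤ (UnitsAdd S L) := Submodule.torsion ℤ (UnitsAdd S L)

theorem unitsActZ_tors (g : GalL L) :
    unitsTors S L ≤ (unitsTors S L).comap (unitsActZ S L g) := by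
  intro x hx
  obtain ⟨a, ha⟩ := hx
  refine ⟨a, ?_⟩
  have ha' : (a : ℤ) • x = 0 := ha
  show (a : ℤ) • unitsActZ S L g x = 0
  rw [← map_smul, ha', map_zero]

/-- The lattice `Λ = O_{L,S}ˣ / torsion`. -/
abbrev ULat : Type := UnitsAdd S L ⧸ unitsTors S L

/-- The action of `Gal(L/ℚ)` on `Λ`. -/
def latAct (g : GalL L) : ULat S L →ₗ[ℤ] ULat S L :=
  (unitsTors S L).mapQ (unitsTors S L) (unitsActZ S L g) (unitsActZ_tors S L g)

theorem latAct_mk (g : GalL L) (u : UnitsAdd S L) :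
    latAct S L g (Submodule.Quotient.mk u) = Submodule.Quotient.mk (unitsActZ S L g u) := rfl

variable [FiniteDimensional ℚ L]

/-- The primes of `L` over `S` which are mapped into themselves by `b`. -/
def fixF (b : GalL L) : Set (HeightOneSpectrum (𝓞 ↥L)) :=
  {w | (∃ q ∈ S, (((q : ℕ) : ℤ) : 𝓞 ↥L) ∈ w.asIdeal) ∧
    ∀ x : 𝓞 ↥L, x ∈ w.asIdeal → ∃ y : 𝓞 ↥L, y ∈ w.asIdeal ∧ (y : ↥L) = b (x : ↥L)}

/-- The infinite places of `L` fixed by `b`. -/
def fixI (b : GalL L) : Set (InfinitePlace ↥L) :=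
  {w | ∀ x : ↥L, w (b x) = w x}

end defs

/-- **UBR-RED** (reduction mod `p` of the unit lattice).  `U = O_{L,S}ˣ/p` is finite-dimensional,
`Λ` is free of finite rank, and for `b` of order prime to `p`
`β_U(b) = τ(ω(b)) + tr(b | Λ)`.
(`T ⊂ U` the image of the torsion `μ(L)`: one-dimensional, `b` acts by `ω(b)`; `U/T ≅ Λ/pΛ`;
`IND.H74.brauer_add`; `IND.H74.lift_trace` for the matrix of `b` on `Λ` over the Witt vectors.) -/
def Stmt_RED : Prop :=
  ∀ (p : ℕ) [Fact p.Prime], p ≠ 2 → ∀ (S : Finset Nat.Primes), pPrime p ∈ S →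
    ∀ (L : IntermediateField ℚ (AlgebraicClosure ℚ)) [Normal ℚ L] [FiniteDimensional ℚ L],
      IsGalLevel p S L →
      FiniteDimensional (ZMod p) (UmodP p S L) ∧
      ∀ g : GQ, ¬ p ∣ orderOf (resL L g) →
        IND.brauerFn p (Rep.of (unitRep p S L)) (resL L g) =
          WittVector.teichmuller p (algebraMap (ZMod p) (AlgebraicClosure (ZMod p))
              ((cycloChar p g : (ZMod p)ˣ) : ZMod p))
            + ((LinearMap.trace ℤ (ULat S L) (latAct S L (resL L g)) : ℤ) : IND.WK p (ZMod p))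

/-- **UBR-TR** (equivariant Dirichlet unit theorem, trace form).  For every `b ∈ Gal(L/ℚ)`:
`tr(b | Λ) + 1 = #{primes of L over S fixed by b} + #{infinite places of L fixed by b}`.
(`ord : Λ/Λ_u ↪ ℤ^{primes over S}` of full rank, `Log : Λ_u ↪ ℝ^{infinite places}` a lattice in
the hyperplane `∑ = 0`; both equivariant; the trace of a permutation is the number of fixed
points.) -/
def Stmt_TR : Prop :=
  ∀ (S : Finset Nat.Primes) (L : IntermediateField ℚ (AlgebraicClosure ℚ)) [Normal ℚ L]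
    [FiniteDimensional ℚ L] (b : GalL L),
    LinearMap.trace ℤ (ULat S L) (latAct S L b) + 1 =
      (Nat.card (fixF S L b) : ℤ) + (Nat.card (fixI L b) : ℤ)

/-- **UBR-BRIDGE** (places as cosets of decomposition groups).  The primes of `L` over `q` form
the `Gal(L/ℚ)`-set `G/D_q`, `D_q = decL L q` the image of the local Galois group; the infinite
places form `G/D_∞`.  (`S55.CFT.GS.H6` `urPl`, `urPl_eq`, `urPl_surj`, `ur_exists_local`;
`Lib.LocalGlobalDense.exists_local_lift_field`; Mathlib `InfinitePlace` under `Gal`.) -/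
def Stmt_BRIDGE : Prop :=
  ∀ (S : Finset Nat.Primes) (L : IntermediateField ℚ (AlgebraicClosure ℚ)) [Normal ℚ L]
    [FiniteDimensional ℚ L] (b : GalL L),
    Nat.card (fixF S L b) = ∑ q ∈ S, Nat.card {x : GalL L ⧸ decL L q // b • x = x} ∧
    Nat.card (fixI L b) = Nat.card {x : GalL L ⧸ decInf L // b • x = x}

/-- Assembly of `Stmt_UBR`. -/
theorem stmt_UBR_of (hR : Stmt_RED) (hT : Stmt_TR) (hB : Stmt_BRIDGE) : Stmt_UBR := by
  intro p _ hp2 S hpS L _ _ hL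
  obtain ⟨hfin, hred⟩ := hR p hp2 S hpS L hL
  refine ⟨hfin, fun g hg => ?_⟩
  have h1 := hred g hg
  have h2 := hT S L (resL L g)
  obtain ⟨h3, h4⟩ := hB S L (resL L g)
  have h5 : ((LinearMap.trace ℤ (ULat S L) (latAct S L (resL L g)) : ℤ) : IND.WK p (ZMod p)) + 1 =
      ∑ q ∈ S, (Nat.card {x : GalL L ⧸ decL L q // resL L g • x = x} : IND.WK p (ZMod p))
        + (Nat.card {x : GalL L ⧸ decInf L // resL L g • x = x} : IND.WK p (ZMod p)) := by
    have h6 : ((LinearMap.trace ℤ (ULat S L) (latAct S L (resL L g)) + 1 : ℤ) :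
        IND.WK p (ZMod p)) = (((Nat.card (fixF S L (resL L g)) : ℤ) +
          (Nat.card (fixI L (resL L g)) : ℤ) : ℤ) : IND.WK p (ZMod p)) := by
      rw [h2]
    rw [h3, h4] at h6
    push_cast at h6
    exact h6
  rw [h1, add_assoc, h5, add_assoc]

end Fermat.Agent.S56.EC

end

end
-- ==== END Fermat.Agent.S56.EC.Defs_UBR
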