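-- GENERATED (merged mirror, NOTES/tools/trim/merge3_helper67.py): 4 modules of the originals, bodies verbatim.
import Fermat.Agent.Zm.S56_L12_002
import Fermat.Agent.Zm.S56_L13_003
import Fermat.Agent.Zm.S56_L07_003
import Fermat.Agent.Zm.S56_L06_003
import Fermat.Agent.Zm.S56_L02_000
import Fermat.Agent.Zm.S56_L01_000
import Fermat.Agent.Zm.S35_L02_001
import Fermat.Agent.Zm.S56_L09_004
import Fermat.Agent.Zm.S56_L04_003

-- ==== BEGIN Fermat.Agent.S56.GWC.H47_L2
section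

set_option autoImplicit false
set_option linter.unusedSectionVars false
set_option linter.style.haveILetI false
set_option linter.unusedVariables false

/-!
# Cluster T / S56, package GW-INV: `Stmt_INV_A` and `Stmt_INV_B` (helper47)

Everything is FORMAL from the four duality properties of `X = 𝔽_p(1)` (which `S55.Stmt_E4`
gives, via the retract `Stmt_CHI`) and Minkowski's theorem:

* `fst_eq_zero_of_isZ1c` : `Ш¹_S(ℚ, N) = 0` for trivial coefficients `N` (Minkowski);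
* `isB2S_of_tr_zero`     : a level-`S` 2-cocycle `f` of `X` with `tr (0, δ_q res_q f) = 0` for all
                           `q ∈ S` is a coboundary (`β¹epi` + the previous item);
* `locTwoMono_of`        : `α³mono(X) ∧ β¹epi(X) ⟹ LocTwoMono tr X q` for all `q ∈ S`;
* `exists_c0`            : `α²epi(X) ∧ β¹epi(X)` and a nonzero additive character of level `S`
                           give a local 2-cocycle with nonzero trace at some `q ∈ S`;
* `stmt_INV_A_of : S55.Stmt_E4 → Stmt_CHI → Stmt_INV_A`,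
  `stmt_INV_B_of : S55.Stmt_E4 → Stmt_CHI → Stmt_B0 → Stmt_INV_B`.

No new export of the S55-E4 lane is needed for `Stmt_INV`.
-/

noncomputable section

namespace Fermat.Agent.S56.GWC.H47

open CategoryTheory groupCohomology ExtCitation Module

/-! ### Minkowski: `Ш¹_S(ℚ, N) = 0` for trivial coefficients -/

section Minkowski

open Fermat.Agent.Lib.LocalGlobalDense

/-- A finite-dimensional intermediate field is fixed by everything fixing one element. -/
lemma exists_finset_fix (F : IntermediateField ℚ (AlgebraicClosure ℚ))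
    [FiniteDimensional ℚ F] :
    ∃ T : Finset (AlgebraicClosure ℚ), ∀ σ : S55.GQ, (∀ x ∈ T, σ x = x) →
      σ ∈ F.fixingSubgroup := by
  obtain ⟨α, hα⟩ := Field.exists_primitive_element ℚ F
  refine ⟨{(α : AlgebraicClosure ℚ)}, fun σ hσ => ?_⟩
  have hσα : σ (α : AlgebraicClosure ℚ) = α := hσ _ (Finset.mem_singleton_self _)
  rw [IntermediateField.mem_fixingSubgroup_iff]
  intro x hx
  let f₁ : F →ₐ[ℚ] AlgebraicClosure ℚ :=
    ((σ : AlgebraicClosure ℚ ≃ₐ[ℚ] AlgebraicClosure ℚ) :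
      AlgebraicClosure ℚ →ₐ[ℚ] AlgebraicClosure ℚ).comp F.val
  let f₂ : F →ₐ[ℚ] AlgebraicClosure ℚ := F.val
  have hf : f₁ = f₂ := by
    have h1 : Algebra.adjoin ℚ {α} = ⊤ := by
      have h2 := IntermediateField.adjoin_simple_toSubalgebra_of_isAlgebraic
        (Algebra.IsAlgebraic.isAlgebraic (R := ℚ) α)
      rw [hα, IntermediateField.top_toSubalgebra] at h2
      exact h2.symm
    refine AlgHom.ext_of_adjoin_eq_top h1 (fun y hy => ?_)
    rw [Set.mem_singleton_iff] at hy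
    subst hy
    exact hσα
  exact DFunLike.congr_fun hf ⟨x, hx⟩

/-- **Minkowski**: an additive character of `G_ℚ` of level `S` which vanishes on the local
groups at all `q ∈ S` is zero. -/
theorem hom_eq_zero_of_loc_triv {N : Type} [AddCommGroup N] (S : Finset Nat.Primes)
    (f : S55.GQ → N) (hadd : ∀ g h : S55.GQ, f (g * h) = f g + f h)
    (hlev : IsLevelConstantS₁ S f)
    (hloc : ∀ q ∈ S, ∀ h : S55.Gl q, f (S55.rl q h) = 0) : f = 0 := by
  have h1 : f 1 = 0 := by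
    have := hadd 1 1
    rw [mul_one] at this
    have h2 : f 1 + 0 = f 1 + f 1 := by rw [add_zero]; exact this
    exact (add_left_cancel h2).symm
  obtain ⟨F, hF, hFc⟩ := hlev
  haveI : FiniteDimensional ℚ F := hF.1
  have hfix : ∀ s ∈ F.fixingSubgroup, f s = 0 := by
    intro s hs
    have := hFc 1 s hs
    rw [one_mul] at this
    rw [this, h1]
  let χ' : S55.GQ →* Multiplicative N :=
    { toFun := fun σ => Multiplicative.ofAdd (f σ)
      map_one' := by rw [h1]; rfl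
      map_mul' := fun σ τ => by rw [hadd]; rfl }
  have key : ∀ σ, χ' σ = 1 := by
    refine Fermat.Agent.Lib.Minkowski.hom_eq_one_of_unramified_everywhere χ' ?_ ?_
    · obtain ⟨T, hT⟩ := exists_finset_fix F
      refine ⟨T, fun σ hσ => ?_⟩
      show Multiplicative.ofAdd (f σ) = 1
      rw [hfix σ (hT σ hσ)]
      rfl
    · intro ℓ hℓ
      by_cases hq : (⟨ℓ, hℓ⟩ : Nat.Primes) ∈ S
      · obtain ⟨q, hqdef⟩ : ∃ q : Nat.Primes, q = ⟨ℓ, hℓ⟩ := ⟨_, rfl⟩
        have hqS : q ∈ S := by rw [hqdef]; exact hq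
        have hqℓ : (q : ℕ) = ℓ := by rw [hqdef]
        haveI : Fact (q : ℕ).Prime := ⟨q.2⟩
        refine ⟨primeLocalPlace q, ?_, fun s hs => ?_⟩
        · rw [← hqℓ]
          exact Fermat.Agent.S56.H13.primeLocalPlace_liesOver q
        · show Multiplicative.ofAdd (f s) = 1
          have hsD : s ∈ (padicPlace (q : ℕ)).decompositionSubgroup ℚ := by
            obtain ⟨t, ht, rfl⟩ := hs
            exact t.2
          obtain ⟨τ, hτ⟩ := exists_local_lift_field (q : ℕ) s hsD F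
          obtain ⟨g, hg⟩ : ∃ g : S55.GQ, g = localGaloisToGlobal (q : ℕ) τ := ⟨_, rfl⟩
          have hgloc : g = primeLocalToGlobal q τ := hg
          have hh : g⁻¹ * s ∈ F.fixingSubgroup := by
            rw [IntermediateField.mem_fixingSubgroup_iff]
            intro x hx
            show g⁻¹ (s x) = x
            rw [← hτ x hx, ← hg]
            exact AlgEquiv.symm_apply_apply g x
          have hs_eq : s = g * (g⁻¹ * s) := by group
          have hfg : f g = 0 := by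
            rw [hgloc]
            exact hloc q hqS τ
          have : f s = 0 := by
            rw [hs_eq, hadd, hfg, hfix _ hh, add_zero]
          rw [this]
          rfl
      · obtain ⟨A, hA⟩ := Fermat.Agent.Lib.FrobExists.exists_liesOverPrime ℓ hℓ
        refine ⟨A, hA, fun s hs => ?_⟩
        show Multiplicative.ofAdd (f s) = 1
        have hsF : s ∈ F.fixingSubgroup := hF.2 ⟨ℓ, hℓ⟩ hq A hA hs
        rw [hfix s hsF]
        rfl
  funext σ
  have := key σ
  exact Multiplicative.ofAdd.injective this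

end Minkowski


/-! ### The module `X = k(χ)` and its twisted dual -/

section Xmod

variable {k : Type} [Field k] (χ : S55.GQ →* kˣ)

/-- Evaluation on `k(χ)` is multiplication by the value at `1`. -/
lemma ev_kχ (x : S55.kχ χ) (φ : S55.Md χ (S55.kχ χ)) :
    S55.ev χ (S55.kχ χ) x φ =
      (show k from x) * S55.ev χ (S55.kχ χ) (show S55.kχ χ from (1 : k)) φ := by
  have h : x = (show k from x) • (show S55.kχ χ from (1 : k)) := by
    show (show k from x) = (show k from x) * 1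
    rw [mul_one]
  conv_lhs => rw [h]
  exact S55.ev_smul_left χ (S55.kχ χ) _ _ φ

/-- The twisted dual of `k(χ)` has trivial action. -/
lemma Md_kχ_rho (g : S55.GQ) (φ : S55.Md χ (S55.kχ χ)) :
    (S55.Md χ (S55.kχ χ)).ρ g φ = φ := by
  apply S55.Md_ext
  intro m
  rw [S55.Md_rho_apply, S55.kχ_rho, ev_kχ χ _ φ, ev_kχ χ m φ, map_inv]
  show (χ g : k) * ((((χ g)⁻¹ : kˣ) : k) * (show k from m) * _) = (show k from m) * _
  rw [← mul_assoc, ← mul_assoc, Units.mul_inv, one_mul]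

/-- The identity functional, as an element of the twisted dual. -/
def idM : S55.Md χ (S55.kχ χ) :=
  show Module.Dual k (S55.kχ χ) from (LinearMap.id : k →ₗ[k] k)

lemma ev_idM (x : S55.kχ χ) : S55.ev χ (S55.kχ χ) x (idM χ) = (show k from x) := rfl

end Xmod

/-! ### Cone computations -/

section Cone

variable {k : Type} [Field k] {S : Finset Nat.Primes} {χ : S55.GQ →* kˣ}

/-- The level-`S` 2-coboundaries as a submodule. -/
def B2Ssub (S : Finset Nat.Primes) (M : Rep.{0} k S55.GQ) :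
    Submodule k (S55.GQ × S55.GQ → M) where
  carrier := {a | S55.IsB2S S M a}
  add_mem' := by
    rintro a a' ⟨f, hf, rfl⟩ ⟨f', hf', rfl⟩
    exact ⟨f + f', hf.add hf', S55.dOne_add M f f'⟩
  zero_mem' := ⟨0, isLevelConstantS₁_const S (0 : M), by
    funext x; simp [S55.dOne]⟩
  smul_mem' := by
    rintro c a ⟨f, hf, rfl⟩
    exact ⟨c • f, hf.comp (c • ·), S55.dOne_smul M c f⟩

lemma mem_B2Ssub {M : Rep.{0} k S55.GQ} (a : S55.GQ × S55.GQ → M) :
    a ∈ B2Ssub S M ↔ S55.IsB2S S M a := Iff.rfl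

/-- `(0, δ_q (d g))` is a cone coboundary. -/
lemma isB3c_at3_dOneL (M : Rep.{0} k S55.GQ) (q : ↥S) (g : S55.Gl q.1 → M)
    (hg : IsLevelConstant₁ (S55.rl q.1) g) :
    S55.IsB3c S M (at3 S M q (S55.dOneL M q.1 g)) := by
  classical
  refine ⟨0, fun q' => if h : q' = q then h ▸ (-g) else 0, isLevelConstantS₂_const S (0 : M),
    ?_, ?_, ?_⟩
  · intro q'
    by_cases h : q' = q
    · subst h
      simp only [dif_pos]
      exact S55.levL₁_neg q'.1 hg
    · simp only [dif_neg h]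
      exact isLevelConstant₁_const (S55.rl q'.1) (0 : M)
  · show (0 : S55.GQ × S55.GQ × S55.GQ → M) = S55.dTwo M 0
    funext x
    simp [S55.dTwo]
  · intro q'
    by_cases h : q' = q
    · subst h
      simp only [dif_pos, at3, Pi.single_eq_same]
      funext t
      simp only [S55.dOneL, S55.resTwo, Pi.sub_apply, Pi.zero_apply, Pi.neg_apply, map_neg]
      abel
    · simp only [dif_neg h, at3, Pi.single_eq_of_ne h]
      funext t
      simp [S55.resTwo]

lemma tr_at3_dOneL (tr : S55.Trace S χ) (q : ↥S) (g : S55.Gl q.1 → S55.kχ χ)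
    (hg : IsLevelConstant₁ (S55.rl q.1) g) :
    tr.toFun (at3 S (S55.kχ χ) q (S55.dOneL (S55.kχ χ) q.1 g)) = 0 :=
  tr.zero_of_isB3c _ (isB3c_at3_dOneL (S55.kχ χ) q g hg)

/-- A purely local cone 3-cochain is the sum of its components. -/
lemma zero_pair_eq_sum (M : Rep.{0} k S55.GQ) (z : ∀ q : ↥S, S55.Gl q.1 × S55.Gl q.1 → M) :
    ((0, z) : S55.C3c S M) = ∑ q : ↥S, at3 S M q (z q) := by
  classical
  refine Prod.ext ?_ ?_
  · simp [at3, Prod.fst_sum]
  · simp only [at3, Prod.snd_sum]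
    exact (Finset.univ_sum_single z).symm

lemma tr_zero_pair (tr : S55.Trace S χ) (z : ∀ q : ↥S, S55.Gl q.1 × S55.Gl q.1 → S55.kχ χ) :
    tr.toFun ((0, z) : S55.C3c S (S55.kχ χ)) = ∑ q : ↥S, tr.toFun (at3 S (S55.kχ χ) q (z q)) := by
  rw [zero_pair_eq_sum, map_sum]

lemma at3_smul (M : Rep.{0} k S55.GQ) (q : ↥S) (c : k) (z : S55.Gl q.1 × S55.Gl q.1 → M) :
    at3 S M q (c • z) = c • at3 S M q z := by
  classical
  refine Prod.ext ?_ ?_
  · simp [at3]
  · simp only [at3, Prod.smul_snd]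
    rw [← Pi.single_smul]

lemma at3_add (M : Rep.{0} k S55.GQ) (q : ↥S) (z z' : S55.Gl q.1 × S55.Gl q.1 → M) :
    at3 S M q (z + z') = at3 S M q z + at3 S M q z' := by
  classical
  refine Prod.ext ?_ ?_
  · simp [at3]
  · simp only [at3, Prod.snd_add]
    rw [← Pi.single_add]


lemma at3_zero (M : Rep.{0} k S55.GQ) (q : ↥S) :
    at3 S M q (0 : S55.Gl q.1 × S55.Gl q.1 → M) = 0 := by
  classical
  refine Prod.ext rfl ?_
  simp only [at3, Prod.snd_zero]
  exact Pi.single_zero q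

/-- The value at `1` of an element of the twisted dual. -/
def sc (χ : S55.GQ →* kˣ) (m' : S55.Md χ (S55.kχ χ)) : k :=
  S55.ev χ (S55.kχ χ) (show S55.kχ χ from (1 : k)) m'

/-- `x ∪ m' = m'(1) • x` for cone 3-cochains of `k(χ)`. -/
lemma cupA3_kχ (x : S55.C3c S (S55.kχ χ)) (m' : S55.Md χ (S55.kχ χ)) :
    S55.cupA3 S χ (S55.kχ χ) x m' = sc χ m' • x := by
  refine Prod.ext (funext fun t => ?_) (funext fun q => funext fun t => ?_)
  · show S55.ev χ (S55.kχ χ) (x.1 t) ((S55.Md χ (S55.kχ χ)).ρ _ m') = sc χ m' • x.1 t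
    rw [Md_kχ_rho, ev_kχ]
    exact mul_comm _ _
  · show S55.ev χ (S55.kχ χ) (x.2 q t) ((S55.Md χ (S55.kχ χ)).ρ _ m') = sc χ m' • x.2 q t
    rw [Md_kχ_rho, ev_kχ]
    exact mul_comm _ _

/-- `a ∪ (0, m') = (0, (m'_q(1) • res_q a)_q)`. -/
lemma cupB1_kχ (a : S55.GQ × S55.GQ → S55.kχ χ) (y : S55.C1c S (S55.Md χ (S55.kχ χ)))
    (hy : y.1 = 0) :
    S55.cupB1 S χ (S55.kχ χ) a y =
      ((0, fun q => sc χ (y.2 q) • S55.resTwo q.1 a) : S55.C3c S (S55.kχ χ)) := by
  refine Prod.ext (funext fun t => ?_) (funext fun q => funext fun t => ?_)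
  · show S55.ev χ (S55.kχ χ) (a (t.1, t.2.1)) ((S55.Md χ (S55.kχ χ)).ρ _ (y.1 t.2.2)) = 0
    rw [hy]
    simp
  · show S55.ev χ (S55.kχ χ) (a (S55.rl q.1 t.1, S55.rl q.1 t.2))
        ((S55.Md χ (S55.kχ χ)).ρ _ (y.2 q)) = sc χ (y.2 q) • S55.resTwo q.1 a t
    rw [Md_kχ_rho, ev_kχ]
    exact mul_comm _ _

/-- **(1)** A level-`S` 2-cocycle of `k(χ)` all of whose local traces vanish is a coboundary
(`β¹epi` + Minkowski). -/
theorem isB2S_of_tr_zero (tr : S55.Trace S χ) (hB : S55.BetaOneEpi tr (S55.kχ χ))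
    (f : S55.GQ × S55.GQ → S55.kχ χ) (hf : S55.IsZ2S S (S55.kχ χ) f)
    (h0 : ∀ q : ↥S, tr.toFun (at3 S (S55.kχ χ) q (S55.resTwo q.1 f)) = 0) :
    S55.IsB2S S (S55.kχ χ) f := by
  by_contra hfB
  have hfB' : f ∉ B2Ssub S (S55.kχ χ) := hfB
  obtain ⟨φ, hφf, hφB⟩ := Submodule.exists_le_ker_of_notMem hfB'
  obtain ⟨y, hy, hyφ⟩ := hB φ (fun a ha => LinearMap.mem_ker.1 (hφB ha))
  have hy1 : y.1 = 0 := by
    refine hom_eq_zero_of_loc_triv S y.1 ?_ hy.1.2 ?_
    · intro g h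
      have h1 : (S55.Md χ (S55.kχ χ)).ρ g (y.1 h) - y.1 (g * h) + y.1 g = 0 :=
        congrFun hy.1.1 (g, h)
      rw [Md_kχ_rho] at h1
      have h2 : y.1 (g * h) = y.1 h + y.1 g := by
        have := sub_eq_zero.1 (by rw [← h1]; abel :
          y.1 h + y.1 g - y.1 (g * h) = 0)
        exact this.symm
      rw [h2, add_comm]
    · intro q hq h
      have h1 : y.1 (S55.rl q h) =
          (S55.Md χ (S55.kχ χ)).ρ (S55.rl q h) (y.2 ⟨q, hq⟩) - y.2 ⟨q, hq⟩ :=
        congrFun (hy.2 ⟨q, hq⟩) h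
      rw [Md_kχ_rho, sub_self] at h1
      exact h1
  have h3 := hyφ f hf
  rw [cupB1_kχ f y hy1, tr_zero_pair] at h3
  have h4 : ∑ q : ↥S, tr.toFun (at3 S (S55.kχ χ) q (sc χ (y.2 q) • S55.resTwo q.1 f)) = 0 := by
    refine Finset.sum_eq_zero fun q _ => ?_
    rw [at3_smul, map_smul, h0 q, smul_zero]
  rw [h4] at h3
  exact hφf h3.symm

/-- **(2)** `α³mono` and `β¹epi` for `k(χ)` give local injectivity at every `q ∈ S`. -/
theorem locTwoMono_of (tr : S55.Trace S χ) (hA : S55.AlphaThreeMono tr (S55.kχ χ))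
    (hB : S55.BetaOneEpi tr (S55.kχ χ)) (q : ↥S) : LocTwoMono tr (S55.kχ χ) q := by
  classical
  intro c hc hlc hall
  have ht : tr.toFun (at3 S (S55.kχ χ) q c) = 0 := by
    have h1 := hall (idM χ) (fun h => Md_kχ_rho χ _ _)
    rw [cupA3_kχ] at h1
    have h2 : sc χ (idM χ) = 1 := rfl
    rw [h2, one_smul] at h1
    exact h1
  have hZ : S55.IsZ3c S (S55.kχ χ) (at3 S (S55.kχ χ) q c) := by
    refine ⟨⟨?_, ⟨⊥, IntermediateField.isUnramifiedOutside_bot S, fun _ _ _ _ _ _ _ _ _ => rfl⟩⟩,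
      fun q' => ?_⟩
    · funext x
      simp [S55.dThree, at3]
    · by_cases h : q' = q
      · subst h
        refine ⟨by simpa [at3] using hlc, ?_⟩
        simp only [at3, Pi.single_eq_same]
        rw [hc]
        rfl
      · refine ⟨?_, ?_⟩
        · simp only [at3, Pi.single_eq_of_ne h]
          exact isLevelConstant₂_const (S55.rl q'.1) (0 : S55.kχ χ)
        · simp only [at3, Pi.single_eq_of_ne h]
          funext x
          simp [S55.dTwoL, S55.resThree]
  have hB3 := hA (at3 S (S55.kχ χ) q c) hZ (fun m' _ => by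
    rw [cupA3_kχ, map_smul, ht, smul_zero])
  obtain ⟨f, g, hf, hg, h1, h2⟩ := hB3
  have hfZ : S55.IsZ2S S (S55.kχ χ) f := ⟨h1.symm, hf⟩
  have hres : ∀ q' : ↥S, S55.resTwo q'.1 f =
      (at3 S (S55.kχ χ) q c).2 q' + S55.dOneL (S55.kχ χ) q'.1 (g q') := fun q' => by
    rw [h2 q']; abel
  have h0 : ∀ q' : ↥S, tr.toFun (at3 S (S55.kχ χ) q' (S55.resTwo q'.1 f)) = 0 := by
    intro q'
    rw [hres q', at3_add, map_add, tr_at3_dOneL tr q' (g q') (hg q'), add_zero]
    by_cases h : q' = q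
    · subst h
      have : (at3 S (S55.kχ χ) q' c).2 q' = c := by simp [at3]
      rw [this, ht]
    · have : (at3 S (S55.kχ χ) q c).2 q' = 0 := by simp [at3, Pi.single_eq_of_ne h]
      rw [this, at3_zero, map_zero]
  obtain ⟨h, hh, hfh⟩ := isB2S_of_tr_zero tr hB f hfZ h0
  refine ⟨S55.resOne q.1 h - g q, S55.levL₁_sub q.1 (S55.levL₁_resOne q.1 hh) (hg q), ?_⟩
  have hq : (at3 S (S55.kχ χ) q c).2 q = c := by simp [at3]
  rw [S55.dOneL_sub, ← S55.resTwo_dOne, hfh, hres q, hq]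
  abel


end Cone

/-! ### `Stmt_INV_A` -/

/-- **INV-A** from `S55.Stmt_E4` and the retract `Stmt_CHI`. -/
theorem stmt_INV_A_of (hE4 : S55.Stmt_E4) (hCHI : Stmt_CHI) : Stmt_INV_A := by
  intro p _ hp2 S hpS
  obtain ⟨K, hK, _, hret⟩ := hCHI p hp2 S hpS
  obtain ⟨tr, hA2, hA3, hB1, hB2⟩ := hE4 p hp2 S hpS K hK
  obtain ⟨_, hA3', hB1', _⟩ := S55.H48.stmt_E2 (ZMod p) S (cycloChar p) tr _ _ hret
  exact ⟨tr, hA3' hA3, fun q => locTwoMono_of tr (hA3' hA3) (hB1' hB1) q⟩

/-! ### `Stmt_INV_B` -/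

section B

variable {k : Type} [Field k] {S : Finset Nat.Primes} {χ : S55.GQ →* kˣ}

/-- The functional `b' ↦ b'(σ₀)(1)` on 1-cochains of the twisted dual. -/
def evAt (χ : S55.GQ →* kˣ) (σ₀ : S55.GQ) : (S55.GQ → S55.Md χ (S55.kχ χ)) →ₗ[k] k where
  toFun b' := sc χ (b' σ₀)
  map_add' b b' := S55.ev_add_right χ (S55.kχ χ) _ _ _
  map_smul' c b := S55.ev_smul_right χ (S55.kχ χ) c _ _

/-- The character `b` as a 1-cochain of the twisted dual. -/
def toMd (χ : S55.GQ →* kˣ) (b : S55.GQ → k) : S55.GQ → S55.Md χ (S55.kχ χ) :=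
  fun g => b g • idM χ

lemma sc_toMd (b : S55.GQ → k) (g : S55.GQ) : sc χ (toMd χ b g) = b g := by
  show S55.ev χ (S55.kχ χ) _ (b g • idM χ) = b g
  rw [S55.ev_smul_right, ev_idM]
  exact mul_one _

lemma ev_toMd (b : S55.GQ → k) (g : S55.GQ) (x : S55.kχ χ) :
    S55.ev χ (S55.kχ χ) x (toMd χ b g) = (show k from x) * b g := by
  have h := sc_toMd (χ := χ) b g
  unfold sc at h
  rw [ev_kχ, h]

lemma isZ1S_toMd (b : S55.GQ → k) (hadd : ∀ g h : S55.GQ, b (g * h) = b g + b h)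
    (hlev : IsLevelConstantS₁ S b) : S55.IsZ1S S (S55.Md χ (S55.kχ χ)) (toMd χ b) := by
  refine ⟨?_, hlev.comp (fun c => c • idM χ)⟩
  funext t
  show (S55.Md χ (S55.kχ χ)).ρ t.1 (toMd χ b t.2) - toMd χ b (t.1 * t.2) + toMd χ b t.1 = 0
  rw [Md_kχ_rho]
  simp only [toMd, hadd, add_smul]
  abel

/-- The auxiliary cone 2-cochain `(h ∪ b, 0)`. -/
def cupHB (S : Finset Nat.Primes) (χ : S55.GQ →* kˣ) (h : S55.GQ → S55.kχ χ)
    (b : S55.GQ → k) : S55.C2c S (S55.kχ χ) :=
  (fun t => (show k from h t.1) * b t.2, 0)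

/-- The local cup product `c ∪ res_q b`. -/
def cupLB (χ : S55.GQ →* kˣ) (q : Nat.Primes) (c : S55.Gl q → S55.kχ χ) (b : S55.GQ → k) :
    S55.Gl q × S55.Gl q → S55.kχ χ :=
  fun t => (show k from c t.1) * b (S55.rl q t.2)

/-- **Leibniz**: for `x = (d h, g)` and an additive character `b`,
`x ∪ b = d_cone (h ∪ b, 0) + (0, ((g_q - res_q h) ∪ res_q b)_q)`. -/
lemma cupA2_toMd (x : S55.C2c S (S55.kχ χ)) (h : S55.GQ → S55.kχ χ)
    (hx : S55.dOne (S55.kχ χ) h = x.1) (b : S55.GQ → k)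
    (hadd : ∀ g h : S55.GQ, b (g * h) = b g + b h) :
    S55.cupA2 S χ (S55.kχ χ) x (toMd χ b) =
      S55.dCone2 S (S55.kχ χ) (cupHB S χ h b) +
        ((0, fun q => cupLB χ q.1 (x.2 q - S55.resOne q.1 h) b) : S55.C3c S (S55.kχ χ)) := by
  refine Prod.ext (funext fun t => ?_) (funext fun q => funext fun t => ?_)
  · obtain ⟨g₁, g₂, g₃⟩ := t
    show S55.ev χ (S55.kχ χ) (x.1 (g₁, g₂)) ((S55.Md χ (S55.kχ χ)).ρ _ (toMd χ b g₃)) =
      S55.dTwo (S55.kχ χ) (cupHB S χ h b).1 (g₁, g₂, g₃) + 0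
    rw [Md_kχ_rho, ev_toMd, ← hx, add_zero]
    show ((χ g₁ : k) * (show k from h g₂) - (show k from h (g₁ * g₂)) + (show k from h g₁)) * b g₃ =
      (χ g₁ : k) * ((show k from h g₂) * b g₃) - (show k from h (g₁ * g₂)) * b g₃
        + (show k from h g₁) * b (g₂ * g₃) - (show k from h g₁) * b g₂
    rw [hadd]
    ring
  · obtain ⟨t₁, t₂⟩ := t
    have h0 : S55.dOneL (S55.kχ χ) q.1 (0 : S55.Gl q.1 → S55.kχ χ) (t₁, t₂) = 0 := by
      simp [S55.dOneL]
    show S55.ev χ (S55.kχ χ) (x.2 q t₁) ((S55.Md χ (S55.kχ χ)).ρ _ (toMd χ b (S55.rl q.1 t₂))) =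
      ((show k from h (S55.rl q.1 t₁)) * b (S55.rl q.1 t₂) -
          S55.dOneL (S55.kχ χ) q.1 (0 : S55.Gl q.1 → S55.kχ χ) (t₁, t₂)) +
        ((show k from x.2 q t₁) - (show k from h (S55.rl q.1 t₁))) * b (S55.rl q.1 t₂)
    rw [Md_kχ_rho, ev_toMd, h0]
    show (show k from x.2 q t₁) * b (S55.rl q.1 t₂) =
      ((show k from h (S55.rl q.1 t₁)) * b (S55.rl q.1 t₂) - 0) +
        ((show k from x.2 q t₁) - (show k from h (S55.rl q.1 t₁))) * b (S55.rl q.1 t₂)
    ring


lemma lev_cupHB (h : S55.GQ → S55.kχ χ) (hh : IsLevelConstantS₁ S h) (b : S55.GQ → k)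
    (hb : IsLevelConstantS₁ S b) : IsLevelConstantS₂ S (cupHB S χ h b).1 := by
  obtain ⟨F, hF, hFc⟩ := hh
  obtain ⟨F', hF', hFc'⟩ := hb
  refine ⟨F ⊔ F', hF.sup hF', fun g g' s s' hs hs' => ?_⟩
  show (show k from h (g * s)) * b (g' * s') = (show k from h g) * b g'
  rw [hFc g s (IntermediateField.fixingSubgroup_antitone le_sup_left hs),
    hFc' g' s' (IntermediateField.fixingSubgroup_antitone le_sup_right hs')]

lemma lev_cupLB (q : Nat.Primes) (c : S55.Gl q → S55.kχ χ)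
    (hc : IsLevelConstant₁ (S55.rl q) c) (b : S55.GQ → k) (hb : IsLevelConstantS₁ S b) :
    IsLevelConstant₂ (S55.rl q) (cupLB χ q c b) := by
  obtain ⟨F, hF, hFc⟩ := hc
  obtain ⟨F', hF', hFc'⟩ := hb
  haveI := hF
  haveI := hF'.1
  refine ⟨F ⊔ F', IntermediateField.finiteDimensional_sup F F', fun g g' s s' hs hs' => ?_⟩
  show (show k from c (g * s)) * b (S55.rl q (g' * s')) = (show k from c g) * b (S55.rl q g')
  rw [hFc g s (IntermediateField.fixingSubgroup_antitone le_sup_left hs), map_mul,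
    hFc' _ _ (IntermediateField.fixingSubgroup_antitone le_sup_right hs')]

lemma dTwoL_cupLB (q : Nat.Primes) (c : S55.Gl q → S55.kχ χ)
    (hc : S55.dOneL (S55.kχ χ) q c = 0) (b : S55.GQ → k)
    (hadd : ∀ g h : S55.GQ, b (g * h) = b g + b h) :
    S55.dTwoL (S55.kχ χ) q (cupLB χ q c b) = 0 := by
  funext t
  obtain ⟨t₁, t₂, t₃⟩ := t
  have h1 : (χ (S55.rl q t₁) : k) * (show k from c t₂) - (show k from c (t₁ * t₂)) +
      (show k from c t₁) = 0 := congrFun hc (t₁, t₂)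
  show (χ (S55.rl q t₁) : k) * ((show k from c t₂) * b (S55.rl q t₃)) -
      (show k from c (t₁ * t₂)) * b (S55.rl q t₃) +
      (show k from c t₁) * b (S55.rl q (t₂ * t₃)) - (show k from c t₁) * b (S55.rl q t₂) = 0
  rw [map_mul, hadd]
  linear_combination b (S55.rl q t₃) * h1

/-- **(4)** `α²epi`, `β¹epi` for `k(χ)` and a nonzero additive character of level `S` give a
local 2-cocycle with nonzero trace at some `q ∈ S`. -/
theorem exists_c0 (tr : S55.Trace S χ) (hA2 : S55.AlphaTwoEpi tr (S55.kχ χ))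
    (hB1 : S55.BetaOneEpi tr (S55.kχ χ)) (b : S55.GQ → k)
    (hadd : ∀ g h : S55.GQ, b (g * h) = b g + b h) (hlev : IsLevelConstantS₁ S b)
    (σ₀ : S55.GQ) (hσ₀ : b σ₀ ≠ 0) :
    ∃ (q : ↥S) (c : S55.Gl q.1 × S55.Gl q.1 → S55.kχ χ),
      S55.dTwoL (S55.kχ χ) q.1 c = 0 ∧ IsLevelConstant₂ (S55.rl q.1) c ∧
        tr.toFun (at3 S (S55.kχ χ) q c) ≠ 0 := by
  obtain ⟨x, hx, hxφ⟩ := hA2 (evAt χ σ₀) (fun m' => by
    show sc χ (S55.dZero (S55.Md χ (S55.kχ χ)) m' σ₀) = 0
    have : S55.dZero (S55.Md χ (S55.kχ χ)) m' σ₀ = 0 := by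
      show (S55.Md χ (S55.kχ χ)).ρ σ₀ m' - m' = 0
      rw [Md_kχ_rho, sub_self]
    rw [this]
    exact S55.ev_zero_right χ (S55.kχ χ) _)
  have h1 := hxφ (toMd χ b) (isZ1S_toMd b hadd hlev)
  have h2 : (evAt χ σ₀) (toMd χ b) = b σ₀ := sc_toMd b σ₀
  rw [h2] at h1
  have h0 : ∀ q : ↥S, tr.toFun (at3 S (S55.kχ χ) q (S55.resTwo q.1 x.1)) = 0 := by
    intro q
    rw [(hx.2 q).2]
    exact tr_at3_dOneL tr q _ (hx.2 q).1
  obtain ⟨h, hh, hfh⟩ := isB2S_of_tr_zero tr hB1 x.1 hx.1 h0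
  have hlevHB : IsLevelConstantS₂ S (cupHB S χ h b).1 := lev_cupHB h hh b hlev
  have hlevHB' : ∀ q : ↥S, IsLevelConstant₁ (S55.rl q.1) ((cupHB S χ h b).2 q) := fun q =>
    isLevelConstant₁_const (S55.rl q.1) (0 : S55.kχ χ)
  rw [cupA2_toMd x h hfh b hadd, map_add,
    tr.zero_of_isB3c _ (S55.isB3c_dCone2 hlevHB hlevHB'), zero_add, tr_zero_pair] at h1
  have h3 : ∑ q : ↥S, tr.toFun (at3 S (S55.kχ χ) q
      (cupLB χ q.1 (x.2 q - S55.resOne q.1 h) b)) ≠ 0 := by
    rw [h1]; exact hσ₀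
  obtain ⟨q, -, hq⟩ := Finset.exists_ne_zero_of_sum_ne_zero h3
  refine ⟨q, cupLB χ q.1 (x.2 q - S55.resOne q.1 h) b, ?_, ?_, hq⟩
  · refine dTwoL_cupLB q.1 _ ?_ b hadd
    rw [S55.dOneL_sub, ← (hx.2 q).2, ← S55.resTwo_dOne, hfh, sub_self]
  · exact lev_cupLB q.1 _ (S55.levL₁_sub q.1 (hx.2 q).1 (S55.levL₁_resOne q.1 hh)) b hlev

end B

/-- **INV-B** from `S55.Stmt_E4`, the retract `Stmt_CHI` and the character `Stmt_B0`. -/
theorem stmt_INV_B_of (hE4 : S55.Stmt_E4) (hCHI : Stmt_CHI) (hB0 : Stmt_B0) : Stmt_INV_B := by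
  intro p _ hp2
  obtain ⟨S, hS⟩ : ∃ S : Finset Nat.Primes, S = {pPrime p} := ⟨_, rfl⟩
  have hpS : pPrime p ∈ S := by rw [hS]; exact Finset.mem_singleton_self _
  obtain ⟨K, hK, _, hret⟩ := hCHI p hp2 S hpS
  obtain ⟨tr, hA2, hA3, hB1, hB2⟩ := hE4 p hp2 S hpS K hK
  obtain ⟨hA2', hA3', hB1', _⟩ := S55.H48.stmt_E2 (ZMod p) S (cycloChar p) tr _ _ hret
  obtain ⟨b, hadd, hlev, σ₀, hσ₀⟩ := hB0 p hp2
  have hlev' : IsLevelConstantS₁ S b := by rw [hS]; exact hlev
  obtain ⟨q, c, hc, hlc, hne⟩ := exists_c0 tr (hA2' hA2) (hB1' hB1) b hadd hlev' σ₀ hσ₀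
  obtain ⟨q1, hq1⟩ := q
  have hq : q1 = pPrime p := by
    rw [hS] at hq1
    exact Finset.mem_singleton.1 hq1
  subst hq
  refine ⟨c, hc, hlc, ?_⟩
  rintro ⟨g, hg, rfl⟩
  exact hne (tr_at3_dOneL tr ⟨pPrime p, hq1⟩ g hg)

end Fermat.Agent.S56.GWC.H47

end

end
-- ==== END Fermat.Agent.S56.GWC.H47_L2

-- ==== BEGIN Fermat.Agent.S56.GWC.H64_B0
section

set_option autoImplicit false

open CategoryTheory groupCohomology ExtCitation Module

noncomputable section

namespace Fermat.Agent.S56.GWC.H64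

/-! ### An additive character separating a non-`p`-divisible element -/

/-- In an abelian group, an element which is not divisible by `p` is detected by an additive
character with values in `𝔽_p`. -/
theorem exists_functional_ne_zero (p : ℕ) [Fact p.Prime] {V : Type*} [AddCommGroup V]
    [Module (ZMod p) V] (v : V) (hv : v ≠ 0) : ∃ φ : V →ₗ[ZMod p] ZMod p, φ v ≠ 0 := by
  by_contra h
  push Not at h
  exact hv ((Module.forall_dual_apply_eq_zero_iff (ZMod p) v).1 h)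

theorem exists_addChar_ne_zero {M : Type*} [AddCommGroup M] (p : ℕ) [Fact p.Prime] (u : M)
    (hu : ∀ v : M, p • v ≠ u) : ∃ f : M →+ ZMod p, f u ≠ 0 := by
  classical
  let N : AddSubgroup M := (nsmulAddMonoidHom (α := M) p).range
  have hp0 : ∀ x : M ⧸ N, p • x = 0 := by
    intro x
    induction x using QuotientAddGroup.induction_on with
    | H m =>
      rw [← QuotientAddGroup.mk_nsmul]
      exact (QuotientAddGroup.eq_zero_iff _).2 ⟨m, rfl⟩
  let inst : Module (ZMod p) (M ⧸ N) := AddCommGroup.zmodModule hp0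
  have hne : (QuotientAddGroup.mk u : M ⧸ N) ≠ 0 := by
    intro h
    obtain ⟨v, hv⟩ := (QuotientAddGroup.eq_zero_iff _).1 h
    exact hu v hv
  obtain ⟨φ, hφ⟩ := exists_functional_ne_zero p (QuotientAddGroup.mk u : M ⧸ N) hne
  exact ⟨φ.toAddMonoidHom.comp (QuotientAddGroup.mk' N), hφ⟩

/-! ### `1 + p` is not a `p`-th power modulo `p²` -/

theorem one_add_p_pow (p : ℕ) (m : ℕ) :
    ((1 : ZMod (p ^ 2)) + (p : ZMod (p ^ 2))) ^ m = 1 + (m : ZMod (p ^ 2)) * (p : ZMod (p ^ 2)) := by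
  have hp2 : (p : ZMod (p ^ 2)) * (p : ZMod (p ^ 2)) = 0 := by
    have : ((p ^ 2 : ℕ) : ZMod (p ^ 2)) = 0 := ZMod.natCast_self _
    rw [← this]
    push_cast
    ring
  induction m with
  | zero => simp
  | succ m ih =>
    rw [pow_succ (1 + (p : ZMod (p ^ 2))) m, ih]
    push_cast
    linear_combination (m : ZMod (p ^ 2)) * hp2

theorem not_pow_p_eq_one_add_p (p : ℕ) [Fact p.Prime] (v : (ZMod (p ^ 2))ˣ) :
    ((v ^ p : (ZMod (p ^ 2))ˣ) : ZMod (p ^ 2)) ≠ 1 + (p : ZMod (p ^ 2)) := by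
  have hp : p.Prime := Fact.out
  have : NeZero (p ^ 2) := ⟨pow_ne_zero 2 hp.ne_zero⟩
  intro h
  have hcard : Fintype.card (ZMod (p ^ 2))ˣ = p * (p - 1) := by
    rw [ZMod.card_units_eq_totient, Nat.totient_prime_pow hp (by norm_num : 0 < 2)]
    simp
  have h1 : (v ^ p) ^ (p - 1) = 1 := by
    rw [← pow_mul, ← hcard]
    exact pow_card_eq_one
  have h2 : (((v ^ p) ^ (p - 1) : (ZMod (p ^ 2))ˣ) : ZMod (p ^ 2)) = 1 := by
    rw [h1, Units.val_one]
  rw [Units.val_pow_eq_pow_val, h, one_add_p_pow] at h2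
  have h3 : (((p - 1) * p : ℕ) : ZMod (p ^ 2)) = 0 := by
    push_cast
    linear_combination h2
  rw [ZMod.natCast_eq_zero_iff] at h3
  have h4 : p ∣ p - 1 := by
    have : p * p ∣ (p - 1) * p := by rwa [pow_two] at h3
    exact Nat.dvd_of_mul_dvd_mul_right hp.pos this
  have h5 := Nat.le_of_dvd (Nat.sub_pos_of_lt hp.one_lt) h4
  have := hp.one_lt
  omega

/-! ### Inertia at `q ≠ p` fixes the `p²`-th roots of unity -/

/-- A `p`-th root of unity congruent to `1` modulo a place over `q ≠ p` is `1`. -/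
theorem root_eq_one_of_val_lt {p q : ℕ} (hp : p.Prime) (hq : q.Prime) (hpq : q ≠ p)
    (A : ValuationSubring (AlgebraicClosure ℚ)) (hA : A.LiesOverPrime q)
    (z : AlgebraicClosure ℚ) (hz : z ^ p = 1) (hv : A.valuation (z - 1) < 1) : z = 1 := by
  by_contra hz1
  have hzprim : IsPrimitiveRoot z p := by
    have : Fact p.Prime := ⟨hp⟩
    have ho : orderOf z = p := orderOf_eq_prime hz hz1
    rw [← ho]
    exact IsPrimitiveRoot.orderOf _
  have hsum : ∑ i ∈ Finset.range p, z ^ i = 0 := hzprim.geom_sum_eq_zero hp.one_lt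
  have hzA : z ∈ A := by
    have : z = (z - 1) + 1 := by ring
    rw [this]
    exact A.add_mem _ _ ((A.valuation_le_one_iff _).1 hv.le) A.one_mem
  have hvi : ∀ i : ℕ, A.valuation (z ^ i - 1) < 1 := by
    intro i
    have h3 : z ^ i - 1 = (z - 1) * ∑ j ∈ Finset.range i, z ^ j :=
      (mul_geom_sum _ _).symm
    rw [h3, map_mul]
    have h4 : A.valuation (∑ j ∈ Finset.range i, z ^ j) ≤ 1 :=
      (A.valuation_le_one_iff _).2 (A.sum_mem fun j _ => A.pow_mem hzA j)
    calc A.valuation (z - 1) * A.valuation (∑ j ∈ Finset.range i, z ^ j)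
        ≤ A.valuation (z - 1) := mul_le_of_le_one_right' h4
      _ < 1 := hv
  have hvp : A.valuation ((p : ℕ) : AlgebraicClosure ℚ) < 1 := by
    have h5 : ((p : ℕ) : AlgebraicClosure ℚ) =
        - ∑ i ∈ Finset.range p, (z ^ i - 1) := by
      rw [Finset.sum_sub_distrib, hsum]
      simp
    rw [h5, Valuation.map_neg]
    exact Valuation.map_sum_lt _ one_ne_zero (fun i _ => hvi i)
  have hvq : A.valuation ((q : ℕ) : AlgebraicClosure ℚ) < 1 := (A.mem_nonunits_iff).1 hA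
  have hcop : Nat.Coprime p q := (Nat.coprime_primes hp hq).2 (Ne.symm hpq)
  have hbez : (p : ℤ) * Int.gcdA p q + (q : ℤ) * Int.gcdB p q = 1 := by
    have := Int.gcd_eq_gcd_ab p q
    rw [← this]
    exact_mod_cast hcop
  have hint : ∀ a : ℤ, A.valuation ((a : ℤ) : AlgebraicClosure ℚ) ≤ 1 := fun a =>
    (A.valuation_le_one_iff _).2 (intCast_mem A a)
  have h6 : (1 : AlgebraicClosure ℚ) =
      ((p : ℕ) : AlgebraicClosure ℚ) * ((Int.gcdA p q : ℤ) : AlgebraicClosure ℚ) +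
        ((q : ℕ) : AlgebraicClosure ℚ) * ((Int.gcdB p q : ℤ) : AlgebraicClosure ℚ) := by
    exact_mod_cast hbez.symm
  have h7 : A.valuation (1 : AlgebraicClosure ℚ) < 1 := by
    rw [h6]
    refine lt_of_le_of_lt (Valuation.map_add _ _ _) (max_lt ?_ ?_)
    · rw [map_mul]
      exact lt_of_le_of_lt (mul_le_of_le_one_right' (hint _)) hvp
    · rw [map_mul]
      exact lt_of_le_of_lt (mul_le_of_le_one_right' (hint _)) hvq
  rw [map_one] at h7
  exact lt_irrefl _ h7

/-- Inertia at `q ≠ p` fixes the `p²`-th roots of unity. -/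
theorem inertia_fix_root_sq {p q : ℕ} (hp : p.Prime) (hq : q.Prime) (hpq : q ≠ p)
    (A : ValuationSubring (AlgebraicClosure ℚ)) (hA : A.LiesOverPrime q) (σ : S55.GQ)
    (hσ : σ ∈ A.inertiaSubgroupIn ℚ) (t : AlgebraicClosure ℚ) (ht : t ^ (p ^ 2) = 1) :
    σ t = t := by
  have hp2 : p ^ 2 ≠ 0 := pow_ne_zero 2 hp.ne_zero
  have hvt : A.valuation t = 1 := by
    have h1 : A.valuation t ^ (p ^ 2) = 1 := by rw [← map_pow, ht, map_one]
    exact (pow_eq_one_iff_of_nonneg zero_le hp2).1 h1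
  have htA : t ∈ A := (A.valuation_le_one_iff t).1 hvt.le
  have ht0 : t ≠ 0 := by
    rintro rfl
    rw [zero_pow hp2] at ht
    exact zero_ne_one ht
  have h1 : σ t - t ∈ A.nonunits := S05.H95.sub_mem_nonunits_of_mem_inertia A hσ htA
  have hz : (σ t * t⁻¹) ^ (p ^ 2) = 1 := by
    rw [mul_pow, ← map_pow, ht, map_one, inv_pow, ht, inv_one, mul_one]
  have hv : A.valuation (σ t * t⁻¹ - 1) < 1 := by
    have h2 : σ t * t⁻¹ - 1 = (σ t - t) * t⁻¹ := by
      field_simp
    rw [h2, map_mul, map_inv₀, hvt, inv_one, mul_one]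
    exact (A.mem_nonunits_iff).1 h1
  have hzA : σ t * t⁻¹ ∈ A := by
    have : σ t * t⁻¹ = (σ t * t⁻¹ - 1) + 1 := by ring
    rw [this]
    exact A.add_mem _ _ ((A.valuation_le_one_iff _).1 hv.le) A.one_mem
  have hvp : A.valuation ((σ t * t⁻¹) ^ p - 1) < 1 := by
    have h3 : (σ t * t⁻¹) ^ p - 1 = (σ t * t⁻¹ - 1) * ∑ j ∈ Finset.range p, (σ t * t⁻¹) ^ j :=
      (mul_geom_sum _ _).symm
    rw [h3, map_mul]
    have h4 : A.valuation (∑ j ∈ Finset.range p, (σ t * t⁻¹) ^ j) ≤ 1 :=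
      (A.valuation_le_one_iff _).2 (A.sum_mem fun j _ => A.pow_mem hzA j)
    calc A.valuation (σ t * t⁻¹ - 1) * A.valuation (∑ j ∈ Finset.range p, (σ t * t⁻¹) ^ j)
        ≤ A.valuation (σ t * t⁻¹ - 1) := mul_le_of_le_one_right' h4
      _ < 1 := hv
  have hzp : (σ t * t⁻¹) ^ p = 1 :=
    root_eq_one_of_val_lt hp hq hpq A hA _ (by rw [← pow_mul, ← pow_two]; exact hz) hvp
  have hz1 : σ t * t⁻¹ = 1 := root_eq_one_of_val_lt hp hq hpq A hA _ hzp hv
  have := congrArg (· * t) hz1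
  simpa [ht0] using this

/-! ### The leaf B0 -/

/-- **Leaf B0**: a nonzero additive character `G_ℚ → 𝔽_p` of level `{p}`. -/
theorem stmt_B0 : H47.Stmt_B0 := by
  intro p _ _
  have hp : p.Prime := Fact.out
  have hp2 : 0 < p ^ 2 := pow_pos hp.pos 2
  have : NeZero (p ^ 2) := ⟨hp2.ne'⟩
  have := S55.H48.qbar_isAlgebraic
  have := S55.H48.qbar_isGalois
  have : Normal ℚ (AlgebraicClosure ℚ) := IsGalois.to_normal
  have : NeZero ((p ^ 2 : ℕ) : AlgebraicClosure ℚ) := ⟨Nat.cast_ne_zero.mpr hp2.ne'⟩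
  obtain ⟨ζ, hζ⟩ : ∃ ζ : AlgebraicClosure ℚ, IsPrimitiveRoot ζ (p ^ 2) :=
    HasEnoughRootsOfUnity.exists_primitiveRoot (AlgebraicClosure ℚ) (p ^ 2)
  -- the automorphism `σ₀` with `σ₀ ζ = ζ ^ (1 + p)`
  have hcop : Nat.Coprime (1 + p) (p ^ 2) := by
    apply Nat.Coprime.pow_right
    rw [Nat.coprime_add_self_left]
    exact Nat.coprime_one_left p
  have hζ' : IsPrimitiveRoot (ζ ^ (1 + p)) (p ^ 2) := hζ.pow_of_coprime _ hcop
  have hmin : minpoly ℚ (ζ ^ (1 + p)) = minpoly ℚ ζ := by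
    rw [← Polynomial.cyclotomic_eq_minpoly_rat hζ hp2,
      ← Polynomial.cyclotomic_eq_minpoly_rat hζ' hp2]
  obtain ⟨σ₀, hσ₀⟩ : ∃ σ : S55.GQ, σ ζ = ζ ^ (1 + p) :=
    minpoly.exists_algEquiv_of_root (x := ζ) (y := ζ ^ (1 + p))
      (Algebra.IsAlgebraic.isAlgebraic _) (by rw [hmin]; exact minpoly.aeval ℚ ζ)
  have hlt : 1 + p < p ^ 2 := by
    have := hp.two_le
    nlinarith
  have ha0 : ((hζ.autToPow ℚ σ₀ : (ZMod (p ^ 2))ˣ) : ZMod (p ^ 2)) = 1 + (p : ZMod (p ^ 2)) := by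
    have h1 := hζ.autToPow_spec ℚ σ₀
    rw [hσ₀] at h1
    have h2 : ((hζ.autToPow ℚ σ₀ : (ZMod (p ^ 2))ˣ) : ZMod (p ^ 2)).val = 1 + p :=
      hζ.pow_inj (ZMod.val_lt _) hlt h1
    have h3 := ZMod.natCast_zmod_val ((hζ.autToPow ℚ σ₀ : (ZMod (p ^ 2))ˣ) : ZMod (p ^ 2))
    rw [h2] at h3
    rw [← h3]
    push_cast
    rfl
  obtain ⟨f, hf⟩ := exists_addChar_ne_zero (M := Additive (ZMod (p ^ 2))ˣ) p
    (Additive.ofMul (hζ.autToPow ℚ σ₀)) (by
      intro v hv
      have h4 : (Additive.toMul v) ^ p = hζ.autToPow ℚ σ₀ := by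
        have := congrArg Additive.toMul hv
        simpa using this
      exact not_pow_p_eq_one_add_p p (Additive.toMul v) (by rw [h4]; exact ha0))
  refine ⟨fun σ => f (Additive.ofMul (hζ.autToPow ℚ σ)), ?_, ?_, ⟨σ₀, hf⟩⟩
  · intro g h
    show f (Additive.ofMul (hζ.autToPow ℚ (g * h))) = _
    rw [map_mul, ofMul_mul, map_add]
  · refine ⟨IntermediateField.adjoin ℚ ({ζ} : Set (AlgebraicClosure ℚ)), ⟨?_, ?_⟩, ?_⟩
    · exact IntermediateField.adjoin.finiteDimensional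
        (Algebra.IsIntegral.isIntegral (R := ℚ) ζ)
    · intro q hq A hA g hg
      have hqp : (q : ℕ) ≠ p := by
        intro h
        apply hq
        rw [Finset.mem_singleton]
        exact Subtype.ext h
      have hfix : g ζ = ζ := inertia_fix_root_sq hp q.2 hqp A hA g hg ζ hζ.pow_eq_one
      rw [IntermediateField.mem_fixingSubgroup_iff]
      exact S55.H48.fixes_adjoin g ζ hfix
    · intro g s hs
      rw [IntermediateField.mem_fixingSubgroup_iff] at hs
      have hsζ : s ζ = ζ := hs ζ (IntermediateField.mem_adjoin_simple_self ℚ ζ)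
      have hs1 : hζ.autToPow ℚ s = 1 := by
        have h1 := hζ.autToPow_spec ℚ s
        rw [hsζ] at h1
        have hone : (1 : ZMod (p ^ 2)).val = 1 := by
          have : Fact (1 < p ^ 2) := ⟨by have := hp.two_le; nlinarith⟩
          exact ZMod.val_one _
        have h2 : ((hζ.autToPow ℚ s : (ZMod (p ^ 2))ˣ) : ZMod (p ^ 2)).val =
            (1 : ZMod (p ^ 2)).val := by
          apply hζ.pow_inj (ZMod.val_lt _) (ZMod.val_lt _)
          rw [h1, hone, pow_one]
        exact Units.ext (ZMod.val_injective _ h2)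
      show f (Additive.ofMul (hζ.autToPow ℚ (g * s))) = f (Additive.ofMul (hζ.autToPow ℚ g))
      rw [map_mul, hs1, mul_one]

end Fermat.Agent.S56.GWC.H64

end
end
-- ==== END Fermat.Agent.S56.GWC.H64_B0

-- ==== BEGIN Fermat.Agent.S56.GWC.H64_INV2
section

set_option autoImplicit false

open CategoryTheory Module groupCohomology ExtCitation

noncomputable section

namespace Fermat.Agent.S56.GWC.H64

open Fermat.Agent.S55 Fermat.Agent.S56.GWC

variable {k : Type} [Field k] {S : Finset Nat.Primes} {χ : _root_.Fermat.Agent.S56.GQ →* kˣ}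

/-! ### The invariant element of `k(χ)'` -/

/-- The canonical invariant element of `k(χ)' = Hom(k(χ), k)(χ)`: the identity. -/
def m0 (χ : _root_.Fermat.Agent.S56.GQ →* kˣ) : Md χ (kχ χ) := (LinearMap.id : k →ₗ[k] k)

lemma ev_m0 (x : kχ χ) : ev χ (kχ χ) x (m0 χ) = (show k from x) := rfl

lemma m0_rho (g : _root_.Fermat.Agent.S56.GQ) : (Md χ (kχ χ)).ρ g (m0 χ) = m0 χ := by
  apply Md_ext
  intro x
  rw [Md_rho_apply, ev_m0, ev_m0]
  show (χ g : k) * ((χ g⁻¹ : k) * (show k from x)) = (show k from x)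
  rw [← mul_assoc, ← Units.val_mul, ← map_mul, mul_inv_cancel, map_one, Units.val_one, one_mul]

lemma Md_kχ_eq (m' : Md χ (kχ χ)) : m' = (ev χ (kχ χ) (1 : k) m') • m0 χ := by
  apply Md_ext
  intro x
  rw [ev_smul_right, ev_m0]
  have h : (show Module.Dual k k from m') (show k from x) =
      (show k from x) * (show Module.Dual k k from m') 1 := by
    have := (show Module.Dual k k from m').map_smul (show k from x) 1
    simpa using this
  show (show Module.Dual k k from m') (show k from x) = _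
  rw [h, mul_comm]
  rfl

lemma cupA3_m0 (x : C3c S (kχ χ)) : cupA3 S χ (kχ χ) x (m0 χ) = x := by
  refine Prod.ext (funext fun t => ?_) (funext fun q => funext fun t => ?_)
  · show ev χ (kχ χ) (x.1 t) ((Md χ (kχ χ)).ρ (t.1 * t.2.1 * t.2.2) (m0 χ)) = x.1 t
    rw [m0_rho, ev_m0]
  · show ev χ (kχ χ) (x.2 q t) ((Md χ (kχ χ)).ρ (rl q.1 (t.1 * t.2)) (m0 χ)) = x.2 q t
    rw [m0_rho, ev_m0]

lemma cupA3_smul_right (X : Rep.{0} k _root_.Fermat.Agent.S56.GQ) (x : C3c S X) (a : k) (m' : Md χ X) :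
    cupA3 S χ X x (a • m') = a • cupA3 S χ X x m' := by
  refine Prod.ext (funext fun t => ?_) (funext fun q => funext fun t => ?_)
  · show ev χ X (x.1 t) ((Md χ X).ρ (t.1 * t.2.1 * t.2.2) (a • m')) =
      a * ev χ X (x.1 t) ((Md χ X).ρ (t.1 * t.2.1 * t.2.2) m')
    rw [map_smul, ev_smul_right]
  · show ev χ X (x.2 q t) ((Md χ X).ρ (rl q.1 (t.1 * t.2)) (a • m')) =
      a * ev χ X (x.2 q t) ((Md χ X).ρ (rl q.1 (t.1 * t.2)) m')
    rw [map_smul, ev_smul_right]

/-! ### The local invariants of a trace -/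

/-- `c ↦ (0, δ_q c)` as a linear map. -/
def at3ₗ (S : Finset Nat.Primes) (X : Rep.{0} k _root_.Fermat.Agent.S56.GQ) (q : ↥S) :
    (Gl q.1 × Gl q.1 → X) →ₗ[k] C3c S X where
  toFun := at3 S X q
  map_add' c c' := by
    refine Prod.ext (by simp [at3]) ?_
    show (Pi.single q (c + c') : ∀ q' : ↥S, Gl q'.1 × Gl q'.1 → X) =
      (Pi.single q c : ∀ q' : ↥S, Gl q'.1 × Gl q'.1 → X) + Pi.single q c'
    exact Pi.single_add (f := fun q' : ↥S => Gl q'.1 × Gl q'.1 → X) q c c'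
  map_smul' a c := by
    refine Prod.ext (by simp [at3]) ?_
    show (Pi.single q (a • c) : ∀ q' : ↥S, Gl q'.1 × Gl q'.1 → X) =
      a • (Pi.single q c : ∀ q' : ↥S, Gl q'.1 × Gl q'.1 → X)
    exact Pi.single_smul (f := fun q' : ↥S => Gl q'.1 × Gl q'.1 → X) q a c

/-- The local invariant at `q ∈ S` defined by a trace: `inv^S_q(c) = tr (0, δ_q c)`. -/
def invS (tr : Trace S χ) (q : ↥S) : (Gl q.1 × Gl q.1 → kχ χ) →ₗ[k] k :=
  tr.toFun.comp (at3ₗ S (kχ χ) q)

lemma invS_apply (tr : Trace S χ) (q : ↥S) (c : Gl q.1 × Gl q.1 → kχ χ) :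
    invS tr q c = tr.toFun (at3 S (kχ χ) q c) := rfl

/-- `(0, δ_q (d g))` is a cone coboundary. -/
lemma at3_dOneL (X : Rep.{0} k _root_.Fermat.Agent.S56.GQ) (q : ↥S) (g : Gl q.1 → X) :
    at3 S X q (dOneL X q.1 g) = dCone2 S X ((0, (Pi.single q (-g) : ∀ q' : ↥S, Gl q'.1 → X)) : C2c S X) := by
  refine Prod.ext ?_ (funext fun q' => ?_)
  · show (0 : _root_.Fermat.Agent.S56.GQ × _root_.Fermat.Agent.S56.GQ × _root_.Fermat.Agent.S56.GQ → X) = dTwo X 0
    funext t
    simp [dTwo]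
  · show (Pi.single q (dOneL X q.1 g) : ∀ q' : ↥S, Gl q'.1 × Gl q'.1 → X) q' =
      resTwo q'.1 (0 : _root_.Fermat.Agent.S56.GQ × _root_.Fermat.Agent.S56.GQ → X) - dOneL X q'.1 ((Pi.single q (-g) : ∀ q' : ↥S, Gl q'.1 → X) q')
    by_cases h : q' = q
    · subst h
      rw [Pi.single_eq_same, Pi.single_eq_same]
      funext t
      simp [resTwo, dOneL]
      abel
    · rw [Pi.single_eq_of_ne h, Pi.single_eq_of_ne h]
      funext t
      simp [resTwo, dOneL]

/-- **(1)** `inv^S_q` kills the coboundaries of level-constant cochains. -/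
theorem invS_dOneL (tr : Trace S χ) (q : ↥S) {g : Gl q.1 → kχ χ}
    (hg : IsLevelConstant₁ (rl q.1) g) : invS tr q (dOneL (kχ χ) q.1 g) = 0 := by
  rw [invS_apply, at3_dOneL]
  refine tr.zero_of_isB3c _ (isB3c_dCone2 (isLevelConstantS₂_const S _) fun q' => ?_)
  show IsLevelConstant₁ (rl q'.1) ((Pi.single q (-g) : ∀ q' : ↥S, Gl q'.1 → kχ χ) q')
  by_cases h : q' = q
  · subst h
    rw [Pi.single_eq_same]
    exact levL₁_neg q'.1 hg
  · rw [Pi.single_eq_of_ne h]
    exact isLevelConstant₁_const (rl q'.1) _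

/-- `∑_q (0, δ_q (res_q z)) = d_cone (z, 0)`. -/
lemma sum_at3_resTwo (X : Rep.{0} k _root_.Fermat.Agent.S56.GQ) {z : _root_.Fermat.Agent.S56.GQ × _root_.Fermat.Agent.S56.GQ → X} (hz : dTwo X z = 0) :
    ∑ q : ↥S, at3 S X q (resTwo q.1 z) = dCone2 S X ((z, 0) : C2c S X) := by
  refine Prod.ext ?_ ?_
  · rw [Prod.fst_sum]
    show ∑ q : ↥S, (0 : _root_.Fermat.Agent.S56.GQ × _root_.Fermat.Agent.S56.GQ × _root_.Fermat.Agent.S56.GQ → X) = dTwo X z
    rw [hz, Finset.sum_const_zero]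
  · rw [Prod.snd_sum]
    funext q'
    rw [Finset.sum_apply]
    have h1 : ∀ q : ↥S, q ∈ Finset.univ → q ≠ q' → (at3 S X q (resTwo q.1 z)).2 q' = 0 :=
      fun q _ hq => at3_snd_ne X (Ne.symm hq) _
    rw [Finset.sum_eq_single q' h1 (fun h => absurd (Finset.mem_univ q') h), at3_snd_self]
    show resTwo q'.1 z = resTwo q'.1 z - dOneL X q'.1 (fun _ => 0)
    funext t
    simp [dOneL]

/-- **(3)** the reciprocity law for `inv^S`. -/
theorem invS_reciprocity (tr : Trace S χ) {z : _root_.Fermat.Agent.S56.GQ × _root_.Fermat.Agent.S56.GQ → kχ χ} (hz : IsZ2S S (kχ χ) z) :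
    ∑ q : ↥S, invS tr q (resTwo q.1 z) = 0 := by
  simp only [invS_apply]
  rw [← map_sum, sum_at3_resTwo (kχ χ) hz.1]
  exact tr.zero_of_isB3c _ (isB3c_dCone2 hz.2 fun q' => isLevelConstant₁_const (rl q'.1) _)

/-- **(2)** injectivity of `inv^S_q` on `H²(ℚ_q, k(χ))`, from `LocTwoMono`. -/
theorem invS_injective (tr : Trace S χ) (q : ↥S) (h2 : LocTwoMono tr (kχ χ) q)
    {c : Gl q.1 × Gl q.1 → kχ χ} (hc : dTwoL (kχ χ) q.1 c = 0)
    (hl : IsLevelConstant₂ (rl q.1) c) (h0 : invS tr q c = 0) :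
    ∃ g : Gl q.1 → kχ χ, IsLevelConstant₁ (rl q.1) g ∧ dOneL (kχ χ) q.1 g = c := by
  refine h2 c hc hl fun m' _ => ?_
  rw [Md_kχ_eq m', cupA3_smul_right, cupA3_m0, map_smul, ← invS_apply, h0, smul_zero]

/-- Surjectivity of `inv^S_q`, from `LocTwoEpi`. -/
theorem invS_surjective (tr : Trace S χ) (q : ↥S) (h2 : LocTwoEpi tr (kχ χ) q) :
    ∃ c : Gl q.1 × Gl q.1 → kχ χ, dTwoL (kχ χ) q.1 c = 0 ∧ IsLevelConstant₂ (rl q.1) c ∧
      invS tr q c = 1 := by
  let φ : Md χ (kχ χ) →ₗ[k] k :=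
    { toFun := fun m' => ev χ (kχ χ) (1 : k) m'
      map_add' := fun _ _ => rfl
      map_smul' := fun _ _ => rfl }
  obtain ⟨c, hc, hl, h⟩ := h2 φ
  refine ⟨c, hc, hl, ?_⟩
  have h1 := h (m0 χ) (fun h => m0_rho _)
  rw [cupA3_m0] at h1
  rw [invS_apply, h1]
  rfl

/-- A cone 3-cocycle of `k(χ)` of trace zero is a cone coboundary, from `α³mono`. -/
theorem isB3c_of_tr_eq_zero (tr : Trace S χ) (h3 : AlphaThreeMono tr (kχ χ))
    {x : C3c S (kχ χ)} (hx : IsZ3c S (kχ χ) x) (h0 : tr.toFun x = 0) : IsB3c S (kχ χ) x := by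
  refine h3 x hx fun m' _ => ?_
  rw [Md_kχ_eq m', cupA3_smul_right, cupA3_m0, map_smul, h0, smul_zero]

end Fermat.Agent.S56.GWC.H64

end

end
-- ==== END Fermat.Agent.S56.GWC.H64_INV2

-- ==== BEGIN Fermat.Agent.S56.GWC.H9_RSDual
section

/-!
# S56 / GW-CORE / PT2, package RS (helper9), part 2: restriction of scalars `k → 𝔽_p`

For `M` over a finite field `k` of characteristic `p`:
* `M0 p M` : the same group with the same action of `G_ℚ`, as a representation over `𝔽_p`;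
* `trDual p M : (M')₀ ≃+ (M₀)'`, `φ ↦ Tr_{k/𝔽_p} ∘ φ`, additive and `G_ℚ`-equivariant.
-/

set_option autoImplicit false
set_option linter.unusedSectionVars false
set_option linter.style.haveILetI false

noncomputable section

namespace Fermat.Agent.S56.GWC.H9

open CategoryTheory groupCohomology ExtCitation Module
open Fermat.Agent

section trace

variable (p : ℕ) [Fact p.Prime] (k : Type) [Field k] [CharP k p]

/-- The trace `k → 𝔽_p`. -/
def trK : k →+ ZMod p :=
  letI : Algebra (ZMod p) k := ZMod.algebra k p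
  (Algebra.trace (ZMod p) k).toAddMonoidHom

lemma trK_cast_mul (c : ZMod p) (x : k) :
    trK p k (ZMod.castHom (dvd_refl p) k c * x) = c * trK p k x := by
  letI : Algebra (ZMod p) k := ZMod.algebra k p
  have h1 : ZMod.castHom (dvd_refl p) k c * x = c • x := (Algebra.smul_def c x).symm
  rw [h1]
  show Algebra.trace (ZMod p) k (c • x) = c * Algebra.trace (ZMod p) k x
  rw [map_smul, smul_eq_mul]

lemma trK_nondeg [Finite k] (x : k) (h : ∀ c : k, trK p k (c * x) = 0) : x = 0 := by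
  letI : Algebra (ZMod p) k := ZMod.algebra k p
  haveI : FiniteDimensional (ZMod p) k := Module.Finite.of_finite
  have hnd := traceForm_nondegenerate (ZMod p) k
  refine hnd.1 x fun c => ?_
  rw [Algebra.traceForm_apply, mul_comm]
  exact h c

end trace

section scalars

variable (p : ℕ) [Fact p.Prime] {k : Type} [Field k] [CharP k p] (M : Rep.{0} k S55.GQ)

/-- The `𝔽_p`-module structure on `M`. -/
@[reducible] def fpModule : Module (ZMod p) M :=
  Module.compHom M (ZMod.castHom (dvd_refl p) k)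

/-- The action of `G_ℚ` on `M`, as a representation over `𝔽_p`. -/
def rho0 : @Representation (ZMod p) S55.GQ M _ _ _ (fpModule p M) :=
  letI := fpModule p M
  { toFun := fun g => (M.ρ g).toAddMonoidHom.toZModLinearMap p
    map_one' := by
      apply LinearMap.ext
      intro m
      show M.ρ 1 m = m
      rw [map_one]
      rfl
    map_mul' := fun g h => by
      apply LinearMap.ext
      intro m
      show M.ρ (g * h) m = M.ρ g (M.ρ h m)
      rw [map_mul]
      rfl }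

/-- `M` as a representation over `𝔽_p`. -/
def M0 : Rep.{0} (ZMod p) S55.GQ :=
  letI := fpModule p M
  Rep.of (rho0 p M)

/-- The identity `M ≃+ M₀`. -/
def idEquiv : M ≃+ M0 p M := AddEquiv.refl M

lemma idEquiv_apply (m : M) : (idEquiv p M m : M) = m := rfl

lemma idEquiv_equivariant (g : S55.GQ) (a : M) :
    idEquiv p M (M.ρ g a) = (M0 p M).ρ g (idEquiv p M a) := rfl

lemma M0_ρ_apply (g : S55.GQ) (a : M) : ((M0 p M).ρ g a : M) = M.ρ g a := rfl

/-- `φ ↦ Tr_{k/𝔽_p} ∘ φ`. -/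
def trDualFun (φ : Module.Dual k M) : Module.Dual (ZMod p) (M0 p M) :=
  AddMonoidHom.toZModLinearMap p
    (((trK p k).comp φ.toAddMonoidHom : M →+ ZMod p) : (M0 p M) →+ ZMod p)

lemma trDualFun_apply (φ : Module.Dual k M) (m : M) :
    trDualFun p M φ (idEquiv p M m) = trK p k (φ m) := rfl

/-- `φ ↦ Tr_{k/𝔽_p} ∘ φ`, as an additive map. -/
def trDualHom : Module.Dual k M →+ Module.Dual (ZMod p) (M0 p M) where
  toFun := trDualFun p M
  map_zero' := by
    apply LinearMap.ext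
    intro m
    obtain ⟨m, rfl⟩ := (idEquiv p M).surjective m
    rw [trDualFun_apply, LinearMap.zero_apply, map_zero]
    rfl
  map_add' := fun φ ψ => by
    apply LinearMap.ext
    intro m
    obtain ⟨m, rfl⟩ := (idEquiv p M).surjective m
    rw [LinearMap.add_apply, trDualFun_apply, trDualFun_apply, trDualFun_apply,
      LinearMap.add_apply, map_add]

lemma trDualHom_apply (φ : Module.Dual k M) (m : M) :
    trDualHom p M φ (idEquiv p M m) = trK p k (φ m) := rfl

lemma trDualHom_injective [Finite k] : Function.Injective (trDualHom p M) := by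
  rw [injective_iff_map_eq_zero]
  intro φ hφ
  apply LinearMap.ext
  intro m
  rw [LinearMap.zero_apply]
  refine trK_nondeg p k (φ m) fun c => ?_
  have h1 : c * φ m = φ (c • m) := by rw [map_smul, smul_eq_mul]
  rw [h1, ← trDualHom_apply, hφ]
  rfl

lemma card_dual_k [Finite k] [FiniteDimensional k M] :
    Nat.card (Module.Dual k M) = Nat.card M := by
  rw [Module.natCard_eq_pow_finrank (K := k) (V := Module.Dual k M), Subspace.dual_finrank_eq,
    ← Module.natCard_eq_pow_finrank]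

lemma finite_M [Finite k] [FiniteDimensional k M] : Finite M := Module.finite_of_finite k

lemma finite_M0 [Finite k] [FiniteDimensional k M] : Finite (M0 p M) := finite_M M

lemma finiteDimensional_M0 [Finite k] [FiniteDimensional k M] :
    FiniteDimensional (ZMod p) (M0 p M) :=
  haveI := finite_M0 p M
  Module.Finite.of_finite

lemma card_dual_fp [Finite k] [FiniteDimensional k M] :
    Nat.card (Module.Dual (ZMod p) (M0 p M)) = Nat.card M := by
  haveI := finiteDimensional_M0 p M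
  rw [Module.natCard_eq_pow_finrank (K := ZMod p) (V := Module.Dual (ZMod p) (M0 p M)),
    Subspace.dual_finrank_eq, ← Module.natCard_eq_pow_finrank]
  rfl

lemma trDualHom_bijective [Finite k] [FiniteDimensional k M] :
    Function.Bijective (trDualHom p M) := by
  haveI := finiteDimensional_M0 p M
  haveI : Finite (Module.Dual (ZMod p) (M0 p M)) := Module.finite_of_finite (ZMod p)
  refine (trDualHom_injective p M).bijective_of_nat_card_le ?_
  rw [card_dual_fp p M, card_dual_k M]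

/-- `τ : (M')₀ ≃+ (M₀)'`, `φ ↦ Tr_{k/𝔽_p} ∘ φ`. -/
def trDual [Finite k] [FiniteDimensional k M] :
    S56.tateDual p M ≃+ S55.Md (cycloChar p) (M0 p M) :=
  AddEquiv.ofBijective (trDualHom p M) (trDualHom_bijective p M)

lemma trDual_apply [Finite k] [FiniteDimensional k M] (φ : S56.tateDual p M) (m : M) :
    (trDual p M φ : Module.Dual (ZMod p) (M0 p M)) (idEquiv p M m) =
      trK p k ((φ : Module.Dual k M) m) := rfl

lemma trDual_equivariant [Finite k] [FiniteDimensional k M] (g : S55.GQ)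
    (φ : S56.tateDual p M) :
    trDual p M ((S56.tateDual p M).ρ g φ) =
      (S55.Md (cycloChar p) (M0 p M)).ρ g (trDual p M φ) := by
  apply LinearMap.ext
  intro m
  obtain ⟨m, rfl⟩ := (idEquiv p M).surjective m
  rw [trDual_apply]
  have h1 : (((S56.tateDual p M).ρ g φ : S56.tateDual p M) : Module.Dual k M) m =
      ZMod.castHom (dvd_refl p) k (cycloChar p g : ZMod p) *
        (φ : Module.Dual k M) (M.ρ g⁻¹ m) := rfl
  have h2 : ((S55.Md (cycloChar p) (M0 p M)).ρ g (trDual p M φ) :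
      Module.Dual (ZMod p) (M0 p M)) (idEquiv p M m) =
      (cycloChar p g : ZMod p) *
        (trDual p M φ : Module.Dual (ZMod p) (M0 p M)) (idEquiv p M (M.ρ g⁻¹ m)) := rfl
  rw [h1, h2, trDual_apply, trK_cast_mul]

end scalars

end Fermat.Agent.S56.GWC.H9

end
end
-- ==== END Fermat.Agent.S56.GWC.H9_RSDual
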