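-- GENERATED (merged mirror, NOTES/tools/trim/merge3_helper67.py): 7 modules of the originals, bodies verbatim.
import Fermat.Agent.Zm.S56_L14_001
import Fermat.Agent.Zm.S56_L13_000
import Fermat.Agent.Zm.S56_L14_004
import Fermat.Agent.Zm.S56_L12_002
import Fermat.Agent.Zm.S56_L04_003
import Fermat.Agent.Zm.S56_L14_000
import Fermat.Agent.Zm.S56_L06_003
import Fermat.Agent.Zm.S56_L02_003
import Fermat.Agent.Zm.S56_L03_005
import Fermat.Agent.Zm.S56_L01_005

-- ==== BEGIN Fermat.Agent.S55.CFT.GS.H24_ResConj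
section

set_option autoImplicit false
set_option linter.unusedSectionVars false
set_option linter.unusedVariables false
set_option linter.style.haveILetI false

open CategoryTheory Module groupCohomology ExtCitation

open scoped Pointwise

noncomputable section

namespace Fermat.Agent.S55.CFT.GS.H24

open Fermat.Agent.S55 Fermat.Agent.S55.Top Fermat.Agent.S55.CFT.GS

local notation "Qb" => AlgebraicClosure ℚ

section conj

variable {p : ℕ} [Fact p.Prime] {S : Finset Nat.Primes} {K : IntermediateField ℚ Qb}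

/-- The cocycle identity of the residue cochain (no hypothesis on `p` and `S`). -/
theorem resR_cocycle' {b : ↥K.fixingSubgroup → Qbˣ}
    (hbΩ : ∀ g, InOm S (b g : Qb)) (hW : ∀ t, InW S p (mOne b t))
    (g h : ↥K.fixingSubgroup) (A : ValuationSubring Qb) :
    resR S p b (g * h) A = resR S p b h (g⁻¹ • A) + resR S p b g A := by
  by_cases hA : H6.OutS S A
  · have hA' : H6.OutS S (g⁻¹ • A) := by
      rw [smul_def_K]
      exact hA.smul _
    rw [resR_of_outS _ hA, resR_of_outS _ hA, resR_of_outS _ hA']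
    obtain ⟨t, htΩ, htp⟩ := hW (g, h)
    have h1 : (p : ℤ) ∣ H6.ordS A ((mOne b (g, h) : Qbˣ) : Qb) := by
      rw [← htp, Units.val_pow_eq_pow_val, H6.ordS_pow hA t.ne_zero htΩ]
      exact dvd_mul_right _ _
    have e : ((mOne b (g, h) : Qbˣ) : Qb) =
        (g : GQ) (b h : Qb) / (b (g * h) : Qb) * (b g : Qb) := by
      rw [mOne_apply, Units.val_mul, Units.val_div_eq_div_val]
      rfl
    rw [e] at h1
    have hgb : InOm S ((g : GQ) (b h : Qb)) := inOm_map (hbΩ h) _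
    have hgb0 : (g : GQ) (b h : Qb) ≠ 0 := by
      rw [Ne, map_eq_zero_iff _ (g : GQ).injective]
      exact (b h).ne_zero
    rw [H6.ordS_mul hA (div_ne_zero hgb0 (b (g * h)).ne_zero) (inOm_div hgb (hbΩ _))
      (b g).ne_zero (hbΩ g), H6.ordS_div hA hgb0 hgb (b (g * h)).ne_zero (hbΩ _),
      H6.ordS_smul hA (g : GQ) (b h).ne_zero (hbΩ h)] at h1
    have h2 := (ZMod.intCast_zmod_eq_zero_iff_dvd _ p).2 h1
    push_cast at h2
    have e2 : (g⁻¹ : ↥K.fixingSubgroup) • A = ((g : GQ))⁻¹ • A := rfl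
    rw [e2]
    linear_combination -h2
  · have hA' : ¬ H6.OutS S (g⁻¹ • A) := by
      rw [smul_def_K, outS_smul_iff]
      exact hA
    rw [resR_of_not_outS _ hA, resR_of_not_outS _ hA, resR_of_not_outS _ hA', add_zero]

/-- Vanishing of the residue is invariant under conjugation, one direction. -/
theorem resTrivAt_smul {b : ↥K.fixingSubgroup → Qbˣ}
    (hbΩ : ∀ g, InOm S (b g : Qb)) (hW : ∀ t, InW S p (mOne b t))
    (q : Nat.Primes) (hq : q ∉ S) (A : ValuationSubring Qb) (hA : A.LiesOverPrime (q : ℕ))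
    (k : ↥K.fixingSubgroup) (h : ResTrivAt p K A (q : ℕ) b) :
    ResTrivAt p K ((k : GQ) • A) (q : ℕ) b := by
  have hkA : ((k : GQ) • A).LiesOverPrime (q : ℕ) := H6.ur_liesOver_smul A (k : GQ) (q : ℕ) hA
  rw [resTrivAt_iff hbΩ q hq _ hkA]
  rw [resTrivAt_iff hbΩ q hq A hA] at h
  intro g hg
  by_contra hne
  have hbad : ∃ g : ↥K.fixingSubgroup, g • (k • A) = k • A ∧ resR S p b g (k • A) ≠ 0 :=
    ⟨g, hg, hne⟩
  obtain ⟨g', hg', hne'⟩ := coc_bad_smul (resR_cocycle' hbΩ hW) hbad k⁻¹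
  have key : ∀ B : ValuationSubring Qb, B = A → g' • B = B → resR S p b g' B ≠ 0 → False := by
    rintro B rfl h1 h2
    exact h2 (h g' h1)
  exact key _ (inv_smul_smul k A) hg' hne'

/-- Vanishing of the residue is invariant under conjugation. -/
theorem resTrivAt_smul_iff {b : ↥K.fixingSubgroup → Qbˣ}
    (hbΩ : ∀ g, InOm S (b g : Qb)) (hW : ∀ t, InW S p (mOne b t))
    (q : Nat.Primes) (hq : q ∉ S) (A : ValuationSubring Qb) (hA : A.LiesOverPrime (q : ℕ))
    (k : GQ) (hk : k ∈ K.fixingSubgroup) :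
    ResTrivAt p K (k • A) (q : ℕ) b ↔ ResTrivAt p K A (q : ℕ) b := by
  constructor
  · intro h
    have hkA : (k • A).LiesOverPrime (q : ℕ) := H6.ur_liesOver_smul A k (q : ℕ) hA
    have := resTrivAt_smul hbΩ hW q hq (k • A) hkA ⟨k⁻¹, inv_mem hk⟩ h
    rwa [show ((⟨k⁻¹, inv_mem hk⟩ : ↥K.fixingSubgroup) : GQ) • k • A = A from
      inv_smul_smul k A] at this
  · intro h
    exact resTrivAt_smul hbΩ hW q hq A hA ⟨k, hk⟩ h

end conj

end Fermat.Agent.S55.CFT.GS.H24

end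

end
-- ==== END Fermat.Agent.S55.CFT.GS.H24_ResConj

-- ==== BEGIN Fermat.Agent.S56.EC.H01_DescDC
section

set_option autoImplicit false
set_option linter.style.haveILetI false
set_option linter.unusedSectionVars false

/-!
# EC / DESC, package DC (helper1): duality, `h⁰(ℚ_q, N') ≤ dim Cok`

Plan: `NOTES/plan/T_EC_DESC.md` (helper92), §DC.  `S' = insert q S`, `q ∉ S ∋ p`, `N` of level `S`.

For `m' ∈ (N')^{G_q}` the cone 1-cochain `y_{m'} = (0, δ_q m')` of `N'` at level `S'` is a cone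
1-cocycle (`isZ1c_at1`), and for a 2-cochain `a` of `N`
`a ∪ y_{m'} = (0, δ_q ⟨res_q a, m'⟩)` (`cupB1_at1`).  The functional
`Ψ(m') : a ↦ tr (a ∪ y_{m'})` on `Z²_{S'}(N)`

* kills `B²_{S'}(N)` (`S55.H48.tr_cupB1_dOne`);
* kills `Z²_S(N)`: `res_q a = d g` with `g` level constant (`GWC.Stmt_UR2`, `q ∉ S`), so
  `⟨res_q a, m'⟩ = d ⟨g, m'⟩` (`ev_dOneL`) and `tr (0, δ_q d ·) = 0` (`GWC.H64.invS_dOneL`);
* is zero only for `m' = 0`: by `β¹mono` (`GWC.Stmt_B1`) `y_{m'} = (d m, (m)_{q'})`, and the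
  component at `p ≠ q` gives `m = 0`.

So `Ψ : (N')^{G_q} → Cok^*` is linear and injective.
-/

open CategoryTheory groupCohomology ExtCitation Module

noncomputable section

namespace Fermat.Agent.S56.EC.DESC.H01

open Fermat.Agent.S55 Fermat.Agent.S56 Fermat.Agent.S56.GWC Fermat.Agent.S56.GWC.H64
  Fermat.Agent.S56.EC Fermat.Agent.S56.EC.DESC

variable {k : Type} [Field k] {S : Finset Nat.Primes} {χ : _root_.Fermat.Agent.S56.GQ →* kˣ}

/-! ### The cone 1-cochain `(0, δ_q m)` -/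

/-- The cone 1-cochain `(0, δ_q m)`: zero global component, `m` at `q`, zero at the other
primes. -/
def at1 (S : Finset Nat.Primes) (X : Rep.{0} k _root_.Fermat.Agent.S56.GQ) (q : ↥S) (m : X) : C1c S X :=
  (0, Pi.single q m)

lemma at1_snd_self (X : Rep.{0} k _root_.Fermat.Agent.S56.GQ) (q : ↥S) (m : X) : (at1 S X q m).2 q = m := by
  simp [at1]

lemma at1_snd_ne (X : Rep.{0} k _root_.Fermat.Agent.S56.GQ) {q q' : ↥S} (h : q' ≠ q) (m : X) :
    (at1 S X q m).2 q' = 0 := by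
  simp [at1, Pi.single_eq_of_ne h]

/-- `(0, δ_q m)` is a cone 1-cocycle if `m` is invariant under `G_q`. -/
lemma isZ1c_at1 (X : Rep.{0} k _root_.Fermat.Agent.S56.GQ) (q : ↥S) (m : X)
    (hm : ∀ h : Gl q.1, X.ρ (rl q.1 h) m = m) : IsZ1c S X (at1 S X q m) := by
  refine ⟨⟨?_, isLevelConstantS₁_const S (0 : X)⟩, fun q' => ?_⟩
  · funext t
    simp [at1, dOne]
  · by_cases h : q' = q
    · subst h
      rw [at1_snd_self]
      funext x
      simp [at1, resOne, dZeroL, hm]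
    · rw [at1_snd_ne X h]
      funext x
      simp [at1, resOne, dZeroL]

/-- The local pairing `t ↦ ⟨res_q a (t), m'⟩`. -/
def locPair (χ : _root_.Fermat.Agent.S56.GQ →* kˣ) (N : Rep.{0} k _root_.Fermat.Agent.S56.GQ) (q : Nat.Primes) (a : _root_.Fermat.Agent.S56.GQ × _root_.Fermat.Agent.S56.GQ → N)
    (m' : Md χ N) : Gl q × Gl q → kχ χ :=
  fun t => ev χ N (resTwo q a t) m'

/-- `a ∪ (0, δ_q m') = (0, δ_q ⟨res_q a, m'⟩)` for `m'` invariant under `G_q`. -/
lemma cupB1_at1 (N : Rep.{0} k _root_.Fermat.Agent.S56.GQ) (a : _root_.Fermat.Agent.S56.GQ × _root_.Fermat.Agent.S56.GQ → N) (q : ↥S) (m' : Md χ N)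
    (hm : ∀ h : Gl q.1, (Md χ N).ρ (rl q.1 h) m' = m') :
    cupB1 S χ N a (at1 S (Md χ N) q m') = at3 S (kχ χ) q (locPair χ N q.1 a m') := by
  refine Prod.ext (funext fun t => ?_) (funext fun q' => ?_)
  · show ev χ N (a (t.1, t.2.1)) ((Md χ N).ρ (t.1 * t.2.1) ((0 : _root_.Fermat.Agent.S56.GQ → Md χ N) t.2.2)) = 0
    rw [Pi.zero_apply, map_zero, ev_zero_right]
  · by_cases h : q' = q
    · subst h
      rw [at3_snd_self]
      funext t
      show ev χ N (a (rl q'.1 t.1, rl q'.1 t.2))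
        ((Md χ N).ρ (rl q'.1 (t.1 * t.2)) ((at1 S (Md χ N) q' m').2 q')) = _
      rw [at1_snd_self, hm]
      rfl
    · rw [at3_snd_ne _ h]
      funext t
      show ev χ N (a (rl q'.1 t.1, rl q'.1 t.2))
        ((Md χ N).ρ (rl q'.1 (t.1 * t.2)) ((at1 S (Md χ N) q m').2 q')) = 0
      rw [at1_snd_ne _ h, map_zero, ev_zero_right]

/-- Leibniz rule against an invariant element: `⟨d g, m'⟩ = d ⟨g, m'⟩`. -/
lemma ev_dOneL (N : Rep.{0} k _root_.Fermat.Agent.S56.GQ) (q : Nat.Primes) (g : Gl q → N) (m' : Md χ N)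
    (hm : ∀ h : Gl q, (Md χ N).ρ (rl q h) m' = m') :
    (fun t => ev χ N (dOneL N q g t) m' : Gl q × Gl q → kχ χ) =
      dOneL (kχ χ) q (fun h => (ev χ N (g h) m' : k)) := by
  funext t
  have h1 : ev χ N (N.ρ (rl q t.1) (g t.2)) m' = (χ (rl q t.1) : k) * ev χ N (g t.2) m' := by
    conv_lhs => rw [← hm t.1]
    exact ev_rho χ N _ _ _
  show ev χ N (N.ρ (rl q t.1) (g t.2) - g (t.1 * t.2) + g t.1) m' = _
  rw [ev_add_left, ev_sub_left, h1]
  rfl

/-! ### The pairing -/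

section pairing

variable (tr : Trace S χ) (N : Rep.{0} k _root_.Fermat.Agent.S56.GQ) (q : ↥S)

/-- The bilinear pairing `(m', a) ↦ tr (0, δ_q ⟨res_q a, m'⟩)`. -/
def phi : Md χ N →ₗ[k] (_root_.Fermat.Agent.S56.GQ × _root_.Fermat.Agent.S56.GQ → N) →ₗ[k] k :=
  LinearMap.mk₂ k (fun m' a => invS tr q (locPair χ N q.1 a m'))
    (fun m₁ m₂ a => by
      have : locPair χ N q.1 a (m₁ + m₂) = locPair χ N q.1 a m₁ + locPair χ N q.1 a m₂ := rfl
      rw [this, map_add])
    (fun c m a => by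
      have : locPair χ N q.1 a (c • m) = c • locPair χ N q.1 a m := rfl
      rw [this, map_smul])
    (fun m a₁ a₂ => by
      have : locPair χ N q.1 (a₁ + a₂) m = locPair χ N q.1 a₁ m + locPair χ N q.1 a₂ m := by
        funext t
        show ev χ N (resTwo q.1 (a₁ + a₂) t) m = _
        exact ev_add_left χ N _ _ m
      rw [this, map_add])
    (fun c m a => by
      have : locPair χ N q.1 (c • a) m = c • locPair χ N q.1 a m := by
        funext t
        show ev χ N (resTwo q.1 (c • a) t) m = _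
        exact ev_smul_left χ N c _ m
      rw [this, map_smul])

lemma phi_apply (m' : Md χ N) (a : _root_.Fermat.Agent.S56.GQ × _root_.Fermat.Agent.S56.GQ → N) :
    phi tr N q m' a = tr.toFun (at3 S (kχ χ) q (locPair χ N q.1 a m')) := rfl

/-- For invariant `m'` the pairing is `tr (a ∪ (0, δ_q m'))`. -/
lemma phi_eq_cupB1 (m' : Md χ N) (hm : ∀ h : Gl q.1, (Md χ N).ρ (rl q.1 h) m' = m')
    (a : _root_.Fermat.Agent.S56.GQ × _root_.Fermat.Agent.S56.GQ → N) :
    phi tr N q m' a = tr.toFun (cupB1 S χ N a (at1 S (Md χ N) q m')) := by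
  rw [phi_apply, cupB1_at1 N a q m' hm]

/-- The pairing kills the coboundaries of level `S`. -/
lemma phi_dOne (hχ : LevChar S χ) (hN : Lev S N) (m' : Md χ N)
    (hm : ∀ h : Gl q.1, (Md χ N).ρ (rl q.1 h) m' = m') {f : _root_.Fermat.Agent.S56.GQ → N}
    (hf : IsLevelConstantS₁ S f) : phi tr N q m' (dOne N f) = 0 := by
  rw [phi_eq_cupB1 tr N q m' hm]
  exact H48.tr_cupB1_dOne (fun F hF => H48.exists_normal_level S F hF) hχ hN tr
    (isZ1c_at1 (Md χ N) q m' hm) hf

/-- The pairing kills the 2-cochains whose restriction to `G_q` is the coboundary of a level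
constant cochain. -/
lemma phi_of_res (m' : Md χ N) (hm : ∀ h : Gl q.1, (Md χ N).ρ (rl q.1 h) m' = m')
    {a : _root_.Fermat.Agent.S56.GQ × _root_.Fermat.Agent.S56.GQ → N} {g : Gl q.1 → N} (hg : IsLevelConstant₁ (rl q.1) g)
    (hga : dOneL N q.1 g = resTwo q.1 a) : phi tr N q m' a = 0 := by
  have h1 : locPair χ N q.1 a m' = dOneL (kχ χ) q.1 (fun h => (ev χ N (g h) m' : k)) := by
    rw [← ev_dOneL N q.1 g m' hm]
    funext t
    show ev χ N (resTwo q.1 a t) m' = ev χ N (dOneL N q.1 g t) m'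
    rw [hga]
  rw [phi_apply, h1]
  exact invS_dOneL tr q (levL₁_comp q.1 hg fun n => (ev χ N n m' : k))

end pairing

/-! ### Finiteness of the cokernel -/

/-- `Cok` is a quotient of `H²_{S'}`. -/
lemma finite_Cok2 (S S' : Finset Nat.Primes) (N : Rep.{0} k _root_.Fermat.Agent.S56.GQ)
    (h : Module.Finite k (continuousH2S S' N)) : Module.Finite k (Cok2 S S' N) := by
  have hle : (levelCoboundariesS₂ S' N).comap (levelCocyclesS₂ S' N).subtype ≤
      ((imZ2 S S' N).comap (levelCocyclesS₂ S' N).subtype).comap LinearMap.id := by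
    intro a ha
    exact Submodule.mem_sup_left ha
  let π : continuousH2S S' N →ₗ[k] Cok2 S S' N := Submodule.mapQ _ _ LinearMap.id hle
  have hπ : Function.Surjective π := by
    intro x
    obtain ⟨a, rfl⟩ := Submodule.mkQ_surjective _ x
    exact ⟨Submodule.Quotient.mk a, rfl⟩
  exact Module.Finite.of_surjective π hπ

/-! ### DC -/

/-- **Package DC**, for a character equal to `cycloChar p`. -/
theorem dc_gen (hB : GWC.Stmt_B1) (hU : GWC.Stmt_UR2) (p : ℕ) [Fact p.Prime] (hp2 : p ≠ 2)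
    (S : Finset Nat.Primes) (q : Nat.Primes) (hpS : pPrime p ∈ S) (hqS : q ∉ S)
    (N : Rep.{0} (ZMod p) _root_.Fermat.Agent.S56.GQ) [FiniteDimensional (ZMod p) N] (hN : S55.Lev S N)
    (hfin : Module.Finite (ZMod p) (continuousH2S (insert q S) N))
    (χ' : _root_.Fermat.Agent.S56.GQ →* (ZMod p)ˣ) (hχ' : χ' = cycloChar p) :
    finrank (ZMod p) (locRep (N.dualTwist χ') q).ρ.invariants ≤
      finrank (ZMod p) (Cok2 S (insert q S) N) := by
  subst hχ'
  set S' : Finset Nat.Primes := insert q S with hS'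
  have hsub : S ⊆ S' := Finset.subset_insert q S
  have hpS' : pPrime p ∈ S' := hsub hpS
  have hN' : S55.Lev S' N := by
    obtain ⟨F, hF, hfix⟩ := hN
    exact ⟨F, hF.mono hsub, hfix⟩
  have hχ : LevChar S' (cycloChar p) := H48.stmt_levChar p S' hpS'
  obtain ⟨tr, -, hM⟩ := hB p hp2 S' N hpS' hN'
  let q' : ↥S' := ⟨q, Finset.mem_insert_self q S⟩
  let p' : ↥S' := ⟨pPrime p, hpS'⟩
  have hpq : p' ≠ q' := by
    intro h
    have h1 : pPrime p = q := congrArg Subtype.val h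
    exact hqS (h1 ▸ hpS)
  haveI hCok : Module.Finite (ZMod p) (Cok2 S S' N) := finite_Cok2 S S' N hfin
  -- invariance, unfolded
  have hinv : ∀ m' : ↥(locRep (N.dualTwist (cycloChar p)) q).ρ.invariants,
      ∀ h : Gl q, (Md (cycloChar p) N).ρ (rl q h) (m' : Md (cycloChar p) N) = m' :=
    fun m' h => m'.2 h
  -- the pairing kills `B²_{S'} + Z²_S`
  have hker : ∀ m' : ↥(locRep (N.dualTwist (cycloChar p)) q).ρ.invariants,
      (imZ2 S S' N).comap (levelCocyclesS₂ S' N).subtype ≤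
        LinearMap.ker ((phi tr N q' (m' : Md (cycloChar p) N)).comp
          (levelCocyclesS₂ S' N).subtype) := by
    intro m' a ha
    rw [Submodule.mem_comap] at ha
    obtain ⟨b, hb, z, hz, hbz⟩ := Submodule.mem_sup.mp ha
    rw [LinearMap.mem_ker, LinearMap.comp_apply, ← hbz, map_add]
    have e1 : phi tr N q' (m' : Md (cycloChar p) N) b = 0 := by
      obtain ⟨f, hf, hfb⟩ := (mem_levelCoboundariesS₂_iff S' N b).1 hb
      have e : b = dOne N f := hfb.symm
      rw [e]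
      exact phi_dOne tr N q' hχ hN' _ (hinv m') hf
    have e2 : phi tr N q' (m' : Md (cycloChar p) N) z = 0 := by
      have hz' : IsZ2S S N z := (H46.mem_levelCocyclesS₂_iff_isZ2S N z).1 hz
      obtain ⟨g, hg, hgz⟩ := hU p (ZMod p) S N hN z hz' q hqS
      exact phi_of_res tr N q' _ (hinv m') hg hgz
    rw [e1, e2, add_zero]
  -- the map `Ψ`
  let Ψ : ↥(locRep (N.dualTwist (cycloChar p)) q).ρ.invariants →ₗ[ZMod p]
      Module.Dual (ZMod p) (Cok2 S S' N) :=
    { toFun := fun m' => Submodule.liftQ _ _ (hker m')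
      map_add' := by
        intro m₁ m₂
        apply LinearMap.ext
        intro x
        obtain ⟨a, rfl⟩ := Submodule.mkQ_surjective _ x
        show phi tr N q' ((m₁ + m₂ : ↥(locRep (N.dualTwist (cycloChar p)) q).ρ.invariants) :
            Md (cycloChar p) N) (a : _root_.Fermat.Agent.S56.GQ × _root_.Fermat.Agent.S56.GQ → N) =
          phi tr N q' (m₁ : Md (cycloChar p) N) (a : _root_.Fermat.Agent.S56.GQ × _root_.Fermat.Agent.S56.GQ → N) +
            phi tr N q' (m₂ : Md (cycloChar p) N) (a : _root_.Fermat.Agent.S56.GQ × _root_.Fermat.Agent.S56.GQ → N)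
        rw [Submodule.coe_add, map_add, LinearMap.add_apply]
      map_smul' := by
        intro c m
        apply LinearMap.ext
        intro x
        obtain ⟨a, rfl⟩ := Submodule.mkQ_surjective _ x
        show phi tr N q' ((c • m : ↥(locRep (N.dualTwist (cycloChar p)) q).ρ.invariants) :
            Md (cycloChar p) N) (a : _root_.Fermat.Agent.S56.GQ × _root_.Fermat.Agent.S56.GQ → N) =
          c • phi tr N q' (m : Md (cycloChar p) N) (a : _root_.Fermat.Agent.S56.GQ × _root_.Fermat.Agent.S56.GQ → N)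
        rw [Submodule.coe_smul, map_smul, LinearMap.smul_apply] }
  have hΨ : Function.Injective Ψ := by
    rw [← LinearMap.ker_eq_bot, LinearMap.ker_eq_bot']
    intro m' hm'
    have h0 : ∀ a : _root_.Fermat.Agent.S56.GQ × _root_.Fermat.Agent.S56.GQ → N, IsZ2S S' N a →
        tr.toFun (cupB1 S' (cycloChar p) N a (at1 S' (Md (cycloChar p) N) q' m')) = 0 := by
      intro a ha
      have hmem : a ∈ levelCocyclesS₂ S' N := (H46.mem_levelCocyclesS₂_iff_isZ2S N a).2 ha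
      have h1 := LinearMap.congr_fun hm' (Submodule.Quotient.mk ⟨a, hmem⟩)
      rw [← phi_eq_cupB1 tr N q' _ (hinv m')]
      exact h1
    obtain ⟨m, -, hm2⟩ := hM _ (isZ1c_at1 (Md (cycloChar p) N) q' _ (hinv m')) h0
    have h1 := hm2 p'
    rw [at1_snd_ne _ hpq] at h1
    have h2 := hm2 q'
    rw [at1_snd_self, ← h1] at h2
    exact Subtype.ext h2
  calc finrank (ZMod p) (locRep (N.dualTwist (cycloChar p)) q).ρ.invariants
      ≤ finrank (ZMod p) (Module.Dual (ZMod p) (Cok2 S S' N)) :=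
        LinearMap.finrank_le_finrank_of_injective hΨ
    _ = finrank (ZMod p) (Cok2 S S' N) := Subspace.dual_finrank_eq

/-- Over `𝔽_p`, `cycloK` is `cycloChar`. -/
lemma cycloK_zmod' (p : ℕ) [Fact p.Prime] : cycloK p (ZMod p) = cycloChar p := by
  ext g
  show (ZMod.castHom (dvd_refl p) (ZMod p)) ((cycloChar p g : (ZMod p)ˣ) : ZMod p) = _
  rw [ZMod.castHom_self]
  rfl

/-- **Package DC.** -/
theorem stmt_DC_of (hB : GWC.Stmt_B1) (hU : GWC.Stmt_UR2) : Stmt_DC := by
  intro p _ hp2 S q hpS hqS N _ hN hfin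
  exact dc_gen hB hU p hp2 S q hpS hqS N hN hfin (cycloK p (ZMod p)) (cycloK_zmod' p)

end Fermat.Agent.S56.EC.DESC.H01

end

end
-- ==== END Fermat.Agent.S56.EC.H01_DescDC

-- ==== BEGIN Fermat.Agent.S56.EC.H15_ShapLb
section

set_option autoImplicit false
set_option linter.unusedSectionVars false
set_option linter.style.haveILetI false
set_option linter.unusedVariables false

noncomputable section

namespace Fermat.Agent.S56.EC.H15

open CategoryTheory groupCohomology ExtCitation Module Fermat.Agent.S55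
  Fermat.Agent.S56.H92.Snake Fermat.Agent.S56.H92.LES

section cor

variable (p : ℕ) [Fact p.Prime] (S : Finset Nat.Primes)
  (L : IntermediateField ℚ (AlgebraicClosure ℚ)) [Normal ℚ L] [FiniteDimensional ℚ L]
  {V : Type} [AddCommGroup V] [Module (ZMod p) V]
  (ρ : Representation (ZMod p) (GalL L) V)

/-- A set-theoretic section of `G_ℚ → Gal(L/ℚ)`. -/
def tsec (x : GalL L) : _root_.Fermat.Agent.S56.GQ := Function.surjInv (resL_surjective L) x

theorem resL_tsec (x : GalL L) : resL L (tsec L x) = x :=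
  Function.surjInv_eq (resL_surjective L) x

/-- The element `t_x g t_{x ḡ}⁻¹` of `G_L`. -/
def tw (x : GalL L) (g : _root_.Fermat.Agent.S56.GQ) : ↥L.fixingSubgroup :=
  ⟨tsec L x * g * (tsec L (x * resL L g))⁻¹, mem_fixingSubgroup_of_resL L (by
    rw [map_mul, map_mul, map_inv, resL_tsec, resL_tsec, mul_inv_cancel])⟩

theorem tw_coe (x : GalL L) (g : _root_.Fermat.Agent.S56.GQ) :
    ((tw L x g : ↥L.fixingSubgroup) : _root_.Fermat.Agent.S56.GQ) = tsec L x * g * (tsec L (x * resL L g))⁻¹ := rfl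

theorem tw_mul (x : GalL L) (g g' : _root_.Fermat.Agent.S56.GQ) :
    tw L x (g * g') = tw L x g * tw L (x * resL L g) g' := by
  apply Subtype.ext
  rw [Subgroup.coe_mul, tw_coe, tw_coe, tw_coe, map_mul, mul_assoc x]
  group

/-- The corestriction cochain of `h : G_L → V`. -/
def cor (h : ↥L.fixingSubgroup → V) (g : _root_.Fermat.Agent.S56.GQ) : V :=
  ∑ x : GalL L, ρ x⁻¹ (h (tw L x g))

theorem cor_add (h h' : ↥L.fixingSubgroup → V) (g : _root_.Fermat.Agent.S56.GQ) :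
    cor p L ρ (h + h') g = cor p L ρ h g + cor p L ρ h' g := by
  unfold cor
  rw [← Finset.sum_add_distrib]
  refine Finset.sum_congr rfl fun x _ => ?_
  rw [Pi.add_apply, map_add]

theorem cor_smul (a : ZMod p) (h : ↥L.fixingSubgroup → V) (g : _root_.Fermat.Agent.S56.GQ) :
    cor p L ρ (a • h) g = a • cor p L ρ h g := by
  unfold cor
  rw [Finset.smul_sum]
  refine Finset.sum_congr rfl fun x _ => ?_
  rw [Pi.smul_apply, map_smul]

/-- The cocycle relation. -/
theorem cor_mul {h : ↥L.fixingSubgroup → V} (ha : ∀ σ τ, h (σ * τ) = h σ + h τ) (g g' : _root_.Fermat.Agent.S56.GQ) :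
    cor p L ρ h (g * g') = cor p L ρ h g + ρ (resL L g) (cor p L ρ h g') := by
  unfold cor
  rw [map_sum, ← Finset.sum_add_distrib]
  have h1 : ∑ x : GalL L, ρ (resL L g) (ρ x⁻¹ (h (tw L x g')))
      = ∑ x : GalL L, ρ x⁻¹ (h (tw L (x * resL L g) g')) := by
    symm
    refine Fintype.sum_equiv (Equiv.mulRight (resL L g)) _ _ fun x => ?_
    show ρ x⁻¹ (h (tw L (x * resL L g) g'))
      = ρ (resL L g) (ρ (x * resL L g)⁻¹ (h (tw L (x * resL L g) g')))
    rw [← Module.End.mul_apply, ← map_mul, mul_inv_rev, mul_inv_cancel_left]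
  rw [Finset.sum_add_distrib, h1, ← Finset.sum_add_distrib]
  refine Finset.sum_congr rfl fun x _ => ?_
  rw [tw_mul, ha, map_add]

/-- Level: `c_h` is level-`S` constant when `h` is. -/
theorem cor_level (hL : L.IsUnramifiedOutside S) {h : ↥L.fixingSubgroup → V}
    (hl : S55.Top.IsLevK₁ S L h) : IsLevelConstantS₁ S (cor p L ρ h) := by
  obtain ⟨F, hF, hh⟩ := hl
  obtain ⟨F', hle, hF', hn⟩ := H48.exists_normal_level S (F ⊔ L) (hF.sup hL)
  refine ⟨F', hF', fun g s hs => ?_⟩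
  have hsL : s ∈ L.fixingSubgroup :=
    IntermediateField.fixingSubgroup_antitone (le_sup_right.trans hle) hs
  have hs1 : resL L s = 1 := resL_eq_one L hsL
  unfold cor
  refine Finset.sum_congr rfl fun x _ => ?_
  congr 1
  set y := tsec L (x * resL L g) with hy
  have hc : y * s * y⁻¹ ∈ F'.fixingSubgroup := hn.conj_mem s hs y
  have hcL : y * s * y⁻¹ ∈ L.fixingSubgroup :=
    IntermediateField.fixingSubgroup_antitone (le_sup_right.trans hle) hc
  have hcF : y * s * y⁻¹ ∈ F.fixingSubgroup :=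
    IntermediateField.fixingSubgroup_antitone (le_sup_left.trans hle) hc
  have e1 : tw L x (g * s) = tw L x g * ⟨y * s * y⁻¹, hcL⟩ := by
    apply Subtype.ext
    rw [Subgroup.coe_mul, tw_coe, tw_coe, map_mul, hs1, mul_one, ← hy]
    show tsec L x * (g * s) * y⁻¹ = tsec L x * g * y⁻¹ * (y * s * y⁻¹)
    group
  rw [e1]
  exact hh _ _ hcF

/-- On `G_L` the corestriction cochain is `∑_x ρ(x)⁻¹ h(t_x σ t_x⁻¹)`. -/
theorem tw_of_mem (x : GalL L) (σ : ↥L.fixingSubgroup) :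
    tw L x (σ : _root_.Fermat.Agent.S56.GQ) = conjL L (tsec L x) σ := by
  apply Subtype.ext
  rw [tw_coe, conjL_coe, resL_eq_one L σ.2, mul_one]

end cor

section main

variable (p : ℕ) [Fact p.Prime] (S : Finset Nat.Primes)
  (L : IntermediateField ℚ (AlgebraicClosure ℚ)) [Normal ℚ L] [FiniteDimensional ℚ L]
  {V : Type} [AddCommGroup V] [Module (ZMod p) V]
  (ρ : Representation (ZMod p) (GalL L) V)

theorem infl_ρ_apply (g : _root_.Fermat.Agent.S56.GQ) (v : V) :
    (infl L ρ).ρ g (show (infl L ρ : Rep.{0} (ZMod p) _root_.Fermat.Agent.S56.GQ) from v) = ρ (resL L g) v := rfl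

theorem lev_infl (hL : IsGalLevel p S L) : Lev S (infl L ρ) :=
  ⟨L, hL.1, fun s hs m => by
    show ρ (resL L s) m = m
    rw [resL_eq_one L hs, map_one]
    rfl⟩

/-- The corestriction cochain as an element of `C¹_S(N)`. -/
def corCochain (hL : IsGalLevel p S L) (h : ↥(LevHom p S L V)) :
    ↥(levelCochainsS₁ S (infl L ρ)) :=
  ⟨(cor p L ρ (h : ↥L.fixingSubgroup → V) : _root_.Fermat.Agent.S56.GQ → V), cor_level p S L ρ hL.1 h.2.2⟩

theorem corCochain_coe (hL : IsGalLevel p S L) (h : ↥(LevHom p S L V)) (g : _root_.Fermat.Agent.S56.GQ) :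
    ((corCochain p S L ρ hL h : ↥(levelCochainsS₁ S (infl L ρ))) : _root_.Fermat.Agent.S56.GQ → infl L ρ) g
      = cor p L ρ (h : ↥L.fixingSubgroup → V) g := rfl

theorem corCochain_mem_ker (hL : IsGalLevel p S L) (h : ↥(LevHom p S L V)) :
    corCochain p S L ρ hL h ∈ LinearMap.ker (d1 S (infl L ρ) (_root_.Fermat.Agent.S56.EC.H15.lev_infl p S L ρ hL)) := by
  rw [LinearMap.mem_ker]
  apply Subtype.ext
  rw [d1_coe]
  funext x
  have hc := cor_mul p L ρ h.2.1 x.1 x.2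
  have key : ∀ a b c : V, c = b + a → a - c + b = 0 := by
    intro a b c hcab
    rw [hcab]
    abel
  exact key _ _ _ hc

/-- `Hom_S(G_L, V) → ker d¹`, `h ↦ c_h`. -/
def corKer (hL : IsGalLevel p S L) :
    ↥(LevHom p S L V) →ₗ[ZMod p] ↥(LinearMap.ker (d1 S (infl L ρ) (_root_.Fermat.Agent.S56.EC.H15.lev_infl p S L ρ hL))) where
  toFun h := ⟨corCochain p S L ρ hL h, corCochain_mem_ker p S L ρ hL h⟩
  map_add' h h' := by
    apply Subtype.ext
    apply Subtype.ext
    funext g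
    exact cor_add p L ρ _ _ g
  map_smul' a h := by
    apply Subtype.ext
    apply Subtype.ext
    funext g
    exact cor_smul p L ρ a _ g

theorem corKer_coe (hL : IsGalLevel p S L) (h : ↥(LevHom p S L V)) (g : _root_.Fermat.Agent.S56.GQ) :
    (((corKer p S L ρ hL h : ↥(LinearMap.ker (d1 S (infl L ρ) (_root_.Fermat.Agent.S56.EC.H15.lev_infl p S L ρ hL)))) :
      ↥(levelCochainsS₁ S (infl L ρ))) : _root_.Fermat.Agent.S56.GQ → infl L ρ) g
      = cor p L ρ (h : ↥L.fixingSubgroup → V) g := rfl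

/-- `Hom_S(G_L, V) → H¹_S(G_ℚ, V)`, the corestriction. -/
def corH1 (hL : IsGalLevel p S L) :
    ↥(LevHom p S L V) →ₗ[ZMod p] ↥(continuousH1S S (infl L ρ)) :=
  ((equivH1 S (infl L ρ) (_root_.Fermat.Agent.S56.EC.H15.lev_infl p S L ρ hL)) :
      Hmid (d0 S (infl L ρ) (_root_.Fermat.Agent.S56.EC.H15.lev_infl p S L ρ hL)) (d1 S (infl L ρ) (_root_.Fermat.Agent.S56.EC.H15.lev_infl p S L ρ hL))
        →ₗ[ZMod p] ↥(continuousH1S S (infl L ρ)))
    ∘ₗ (Hmid.mk (d0 S (infl L ρ) (_root_.Fermat.Agent.S56.EC.H15.lev_infl p S L ρ hL)) (d1 S (infl L ρ) (_root_.Fermat.Agent.S56.EC.H15.lev_infl p S L ρ hL)))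
    ∘ₗ corKer p S L ρ hL

/-- A class in the kernel of the corestriction vanishes on `G_L` as a cochain. -/
theorem cor_eq_zero_of_corH1 (hL : IsGalLevel p S L) (h : ↥(LevHom p S L V))
    (h0 : corH1 p S L ρ hL h = 0) (σ : ↥L.fixingSubgroup) :
    cor p L ρ (h : ↥L.fixingSubgroup → V) (σ : _root_.Fermat.Agent.S56.GQ) = 0 := by
  unfold corH1 at h0
  rw [LinearMap.comp_apply, LinearMap.comp_apply] at h0
  have h1 := (LinearEquiv.map_eq_zero_iff _).1 h0
  rw [Hmid.mk_eq_zero_iff] at h1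
  obtain ⟨m, hm⟩ := h1
  have h2 := congrFun (congrArg Subtype.val hm) (σ : _root_.Fermat.Agent.S56.GQ)
  rw [corKer_coe, d0_coe] at h2
  rw [← h2]
  show (infl L ρ).ρ (σ : _root_.Fermat.Agent.S56.GQ) m - m = 0
  have : (infl L ρ).ρ (σ : _root_.Fermat.Agent.S56.GQ) m = m := by
    show ρ (resL L (σ : _root_.Fermat.Agent.S56.GQ)) m = m
    rw [resL_eq_one L σ.2, map_one]
    rfl
  rw [this, sub_self]

end main

section inj

variable (p : ℕ) [Fact p.Prime] (S : Finset Nat.Primes)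
  (L : IntermediateField ℚ (AlgebraicClosure ℚ)) [Normal ℚ L] [FiniteDimensional ℚ L]
  {V : Type} [AddCommGroup V] [Module (ZMod p) V] [FiniteDimensional (ZMod p) V]
  (ρ : Representation (ZMod p) (GalL L) V) (B : Subgroup (GalL L)) (W : Submodule (ZMod p) V)

open Classical in
/-- `e (c_h σ) = #B • h σ` for equivariant `h` and the projector `e`. -/
theorem proj_cor {h : ↥L.fixingSubgroup → V} (hW : ∀ σ, h σ ∈ W)
    (heq : ∀ g : _root_.Fermat.Agent.S56.GQ, resL L g ∈ B → ∀ σ, h (conjL L g σ) = ρ (resL L g) (h σ))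
    (e : V →ₗ[ZMod p] V) (he1 : ∀ w ∈ W, e w = w)
    (he2 : ∀ g : GalL L, g ∉ B → ∀ w ∈ W, e (ρ g w) = 0) (σ : ↥L.fixingSubgroup) :
    e (cor p L ρ h (σ : _root_.Fermat.Agent.S56.GQ)) = Nat.card B • h σ := by
  unfold cor
  rw [map_sum]
  have h1 : ∀ x : GalL L, e (ρ x⁻¹ (h (tw L x (σ : _root_.Fermat.Agent.S56.GQ)))) = if x ∈ B then h σ else 0 := by
    intro x
    by_cases hx : x ∈ B
    · have h2 : ρ x⁻¹ (ρ x (h σ)) = h σ := by
        rw [← Module.End.mul_apply, ← map_mul, inv_mul_cancel, map_one, Module.End.one_apply]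
      rw [if_pos hx, tw_of_mem, heq _ (by rw [resL_tsec]; exact hx), resL_tsec, h2,
        he1 _ (hW σ)]
    · rw [if_neg hx]
      exact he2 _ (fun h' => hx (by simpa using B.inv_mem h')) _ (hW _)
  rw [Finset.sum_congr rfl fun x _ => h1 x, Finset.sum_ite, Finset.sum_const_zero, add_zero,
    Finset.sum_const]
  congr 1
  rw [Nat.card_eq_fintype_card, Fintype.card_subtype]

/-- **Package SHAP-lb.** -/
theorem stmt_SHAPlb : Stmt_SHAPlb := by
  intro p _ hp2 S hpS L _ _ hL V _ _ _ ρ B W hpB hind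
  obtain ⟨e, he1, he2, -⟩ := H47.exists_indProj ρ B W hind
  have hle : EqLevHom p S L ρ B W ≤ LevHom p S L V := fun h hh => hh.1
  refine ⟨(corH1 p S L ρ hL) ∘ₗ Submodule.inclusion hle, ?_⟩
  rw [injective_iff_map_eq_zero]
  intro h h0
  rw [LinearMap.comp_apply] at h0
  apply Subtype.ext
  funext σ
  have h1 := cor_eq_zero_of_corH1 p S L ρ hL _ h0 σ
  have h2 := proj_cor p L ρ B W (h := (h : ↥L.fixingSubgroup → V)) h.2.2.1 h.2.2.2 e he1 he2 σ
  rw [show ((Submodule.inclusion hle h : ↥(LevHom p S L V)) : ↥L.fixingSubgroup → V)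
    = (h : ↥L.fixingSubgroup → V) from rfl] at h1
  rw [h1, map_zero] at h2
  have h3 : ((Nat.card B : ℕ) : ZMod p) • (h : ↥L.fixingSubgroup → V) σ = 0 := by
    rw [Nat.cast_smul_eq_nsmul]
    exact h2.symm
  have h4 : ((Nat.card B : ℕ) : ZMod p) ≠ 0 := by
    intro h5
    exact hpB ((ZMod.natCast_eq_zero_iff _ _).1 h5)
  exact (smul_eq_zero.1 h3).resolve_left h4

end inj

end Fermat.Agent.S56.EC.H15

end

end
-- ==== END Fermat.Agent.S56.EC.H15_ShapLb

-- ==== BEGIN Fermat.Agent.S56.EC.H47_Higman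
section

set_option autoImplicit false
set_option linter.style.haveILetI false
set_option linter.unusedSectionVars false

/-!
# Cluster T / S56, GW-CORE, package EC: Higman's criterion in norm form (helper47)

Pure algebra, generic field `k` and finite group `G`.  Let `(V, ρ)` be a representation with an
endomorphism `s₀` whose trace over `G` is the identity, `∑ g, ρ g ∘ s₀ ∘ ρ g⁻¹ = id`
(`V` is a projective `k[G]`-module; for `V` induced from a subgroup of order invertible in `k`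
see `H47.exists_relProj`, `EC/H47_IndProj.lean`), `ω : G →* kˣ` a character, `D ≤ G` ANY subgroup.
Then with `N_D = ∑_{d ∈ D} ω(d)⁻¹ ρ(d)`:

* `eigSub_eq_range`     : `{v | ρ d v = ω d • v ∀ d ∈ D} = range N_D`;
* `dualFixSub_eq_range` : `{φ ∈ V* | ω d • ρ.dual d φ = φ ∀ d ∈ D} = range N_Dᵀ`;
* `higman`              : the two spaces have the same dimension.

Bridge to `EC/Defs_KD.lean`: `higman_dualTwist` (`k = ZMod p`, `G = Gal(L/ℚ)`, `ω = omegaL`):
`dim {v | ρ d v = ω d • v ∀ d ∈ D} = dim fixedSub D (dualTwistOp p L ρ)`;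
`higman_induced`: the same for `V` induced from a subgroup `B` with `p ∤ #B`.
-/

noncomputable section

namespace Fermat.Agent.S56.EC.H47

open Fermat.Agent.S56 Module
open scoped Classical

section Higman

variable {k : Type} [Field k] {G : Type} [Group G]
variable {V : Type} [AddCommGroup V] [Module k V]

section defs

variable (ρ : Representation k G V) (ω : G →* kˣ)

/-- The `ω`-eigenvectors of `D`: `ρ d v = ω d • v` for all `d ∈ D`. -/
def eigSub (D : Set G) : Submodule k V where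
  carrier := {v | ∀ d ∈ D, ρ d v = ((ω d : kˣ) : k) • v}
  add_mem' := fun {x y} hx hy d hd => by rw [map_add, hx d hd, hy d hd, smul_add]
  zero_mem' := fun d _ => by rw [map_zero, smul_zero]
  smul_mem' := fun c x hx d hd => by rw [map_smul, hx d hd, smul_comm]

/-- The vectors of the dual fixed by the Tate-twisted dual operators `ω d • ρ.dual d`,
`d ∈ D`. -/
def dualFixSub (D : Set G) : Submodule k (Module.Dual k V) where
  carrier := {φ | ∀ d ∈ D, ((ω d : kˣ) : k) • ρ.dual d φ = φ}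
  add_mem' := fun {x y} hx hy d hd => by rw [map_add, smul_add, hx d hd, hy d hd]
  zero_mem' := fun d _ => by rw [map_zero, smul_zero]
  smul_mem' := fun c x hx d hd => by rw [map_smul, smul_comm, hx d hd]

theorem mem_eigSub {D : Set G} {v : V} :
    v ∈ eigSub ρ ω D ↔ ∀ d ∈ D, ρ d v = ((ω d : kˣ) : k) • v := Iff.rfl

theorem mem_dualFixSub {D : Set G} {φ : Module.Dual k V} :
    φ ∈ dualFixSub ρ ω D ↔ ∀ d ∈ D, ((ω d : kˣ) : k) • ρ.dual d φ = φ := Iff.rfl

/-- The twisted operators `ω(g)⁻¹ ρ(g)`. -/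
def tw (g : G) : V →ₗ[k] V := (((ω g)⁻¹ : kˣ) : k) • ρ g

theorem tw_apply (g : G) (v : V) : tw ρ ω g v = (((ω g)⁻¹ : kˣ) : k) • ρ g v := rfl

theorem tw_mul (a b : G) : tw ρ ω (a * b) = tw ρ ω a ∘ₗ tw ρ ω b := by
  apply LinearMap.ext
  intro v
  rw [LinearMap.comp_apply, tw_apply, tw_apply, tw_apply, map_smul, smul_smul,
    show ρ (a * b) v = ρ a (ρ b v) by rw [map_mul, Module.End.mul_apply],
    show (ω (a * b))⁻¹ = (ω a)⁻¹ * (ω b)⁻¹ by rw [map_mul, mul_inv], Units.val_mul]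

theorem tw_one : tw ρ ω 1 = LinearMap.id := by
  apply LinearMap.ext
  intro v
  rw [tw_apply, map_one, map_one, inv_one, Units.val_one, one_smul]
  rfl

theorem tw_inv_tw (g : G) (v : V) : tw ρ ω g⁻¹ (tw ρ ω g v) = v := by
  rw [← LinearMap.comp_apply, ← tw_mul, inv_mul_cancel, tw_one]
  rfl

theorem rho_eq_smul_tw (g : G) (v : V) : ρ g v = ((ω g : kˣ) : k) • tw ρ ω g v := by
  rw [tw_apply, smul_smul, ← Units.val_mul, mul_inv_cancel, Units.val_one, one_smul]

/-- Conjugation by `tw` is conjugation by `ρ`. -/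
theorem tw_conj (g : G) (s : V →ₗ[k] V) (v : V) :
    tw ρ ω g⁻¹ (s (tw ρ ω g v)) = ρ g⁻¹ (s (ρ g v)) := by
  rw [tw_apply, tw_apply, map_smul, map_smul, smul_smul, ← Units.val_mul,
    show (ω g⁻¹)⁻¹ * (ω g)⁻¹ = 1 by rw [map_inv, inv_inv, mul_inv_cancel],
    Units.val_one, one_smul]

theorem mem_eigSub_iff_tw {D : Set G} {v : V} :
    v ∈ eigSub ρ ω D ↔ ∀ d ∈ D, tw ρ ω d v = v := by
  constructor
  · intro h d hd
    rw [tw_apply, h d hd, smul_smul, ← Units.val_mul, inv_mul_cancel, Units.val_one, one_smul]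
  · intro h d hd
    rw [rho_eq_smul_tw ρ ω d v, h d hd]

theorem dual_smul_eq (g : G) (φ : Module.Dual k V) :
    ((ω g : kˣ) : k) • ρ.dual g φ = φ ∘ₗ tw ρ ω g⁻¹ := by
  apply LinearMap.ext
  intro v
  rw [LinearMap.smul_apply, Representation.dual_apply, Module.Dual.transpose_apply,
    LinearMap.comp_apply, LinearMap.comp_apply, tw_apply, map_smul,
    show (ω g⁻¹)⁻¹ = ω g by rw [map_inv, inv_inv]]

theorem mem_dualFixSub_iff_tw {D : Subgroup G} {φ : Module.Dual k V} :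
    φ ∈ dualFixSub ρ ω (D : Set G) ↔ ∀ d ∈ D, φ ∘ₗ tw ρ ω d = φ := by
  constructor
  · intro h d hd
    have h1 := h d⁻¹ (D.inv_mem hd)
    rw [dual_smul_eq, inv_inv] at h1
    exact h1
  · intro h d hd
    rw [dual_smul_eq]
    exact h d⁻¹ (D.inv_mem hd)

end defs

variable [Fintype G]
variable (ρ : Representation k G V) (ω : G →* kˣ) (D : Subgroup G)

/-- The twisted norm `N_D = ∑_{d ∈ D} ω(d)⁻¹ ρ(d)`. -/
def normD : V →ₗ[k] V := ∑ d : D, tw ρ ω (d : G)

theorem normD_apply (v : V) : normD ρ ω D v = ∑ d : D, tw ρ ω (d : G) v := by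
  simp [normD]

theorem tw_normD {d : G} (hd : d ∈ D) (v : V) : tw ρ ω d (normD ρ ω D v) = normD ρ ω D v := by
  rw [normD_apply, map_sum]
  refine Fintype.sum_equiv (Equiv.mulLeft (⟨d, hd⟩ : D)) _ _ (fun x => ?_)
  rw [← LinearMap.comp_apply, ← tw_mul]
  rfl

theorem normD_tw {d : G} (hd : d ∈ D) (v : V) : normD ρ ω D (tw ρ ω d v) = normD ρ ω D v := by
  rw [normD_apply, normD_apply]
  refine Fintype.sum_equiv (Equiv.mulRight (⟨d, hd⟩ : D)) _ _ (fun x => ?_)
  rw [← LinearMap.comp_apply, ← tw_mul]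
  rfl

/-- The relative trace of `s₀` from the trivial group to the cosets of `D`. -/
def sD (s₀ : V →ₗ[k] V) : V →ₗ[k] V :=
  ∑ r : G ⧸ D, (ρ (Quotient.out r)⁻¹ ∘ₗ s₀) ∘ₗ ρ (Quotient.out r)

theorem sD_apply (s₀ : V →ₗ[k] V) (v : V) :
    sD ρ D s₀ v = ∑ r : G ⧸ D, ρ (Quotient.out r)⁻¹ (s₀ (ρ (Quotient.out r) v)) := by
  simp [sD]

/-- `(r, d) ↦ out r * d` is a bijection `G/D × D → G`. -/
theorem bijective_out_mul :
    Function.Bijective (fun x : (G ⧸ D) × D => Quotient.out x.1 * (x.2 : G)) := by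
  constructor
  · rintro ⟨r, d⟩ ⟨r', d'⟩ h
    have h' : Quotient.out r * (d : G) = Quotient.out r' * (d' : G) := h
    have h1 : ((Quotient.out r * (d : G) : G) : G ⧸ D) = r := by
      rw [QuotientGroup.mk_mul_of_mem _ d.2]
      exact QuotientGroup.out_eq' r
    have h2 : ((Quotient.out r' * (d' : G) : G) : G ⧸ D) = r' := by
      rw [QuotientGroup.mk_mul_of_mem _ d'.2]
      exact QuotientGroup.out_eq' r'
    have h3 : r = r' := by rw [← h1, ← h2, h']
    subst h3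
    have h4 : (d : G) = (d' : G) := mul_left_cancel h'
    rw [Subtype.ext h4]
  · intro g
    refine ⟨((g : G ⧸ D), ⟨(Quotient.out (g : G ⧸ D))⁻¹ * g, ?_⟩), ?_⟩
    · rw [← QuotientGroup.eq]
      exact QuotientGroup.out_eq' _
    · show Quotient.out (g : G ⧸ D) * ((Quotient.out (g : G ⧸ D))⁻¹ * g) = g
      rw [mul_inv_cancel_left]

variable {ρ}

/-- The trace of `sD` over `D` is the trace of `s₀` over `G`. -/
theorem sum_conj_sD {s₀ : V →ₗ[k] V} (hs₀ : ∀ v, ∑ g : G, ρ g (s₀ (ρ g⁻¹ v)) = v) (v : V) :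
    ∑ d : D, ρ (d : G)⁻¹ (sD ρ D s₀ (ρ (d : G) v)) = v := by
  have h1 : ∀ d : D, ρ (d : G)⁻¹ (sD ρ D s₀ (ρ (d : G) v)) =
      ∑ r : G ⧸ D, ρ (Quotient.out r * (d : G))⁻¹ (s₀ (ρ (Quotient.out r * (d : G)) v)) := by
    intro d
    rw [sD_apply, map_sum]
    refine Finset.sum_congr rfl (fun r _ => ?_)
    rw [mul_inv_rev, map_mul, map_mul, Module.End.mul_apply, Module.End.mul_apply]
  rw [Finset.sum_congr rfl (fun d _ => h1 d), Finset.sum_comm, ← Finset.sum_product',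
    Finset.univ_product_univ]
  have h2 : ∑ x : (G ⧸ D) × D, ρ (Quotient.out x.1 * (x.2 : G))⁻¹
        (s₀ (ρ (Quotient.out x.1 * (x.2 : G)) v)) = ∑ g : G, ρ g⁻¹ (s₀ (ρ g v)) :=
    Fintype.sum_bijective _ (bijective_out_mul D) _ _ (fun _ => rfl)
  rw [h2]
  have h3 : ∑ g : G, ρ g⁻¹ (s₀ (ρ g v)) = ∑ g : G, ρ g (s₀ (ρ g⁻¹ v)) :=
    Fintype.sum_equiv (Equiv.inv G) _ _ (fun g => by
      show ρ g⁻¹ (s₀ (ρ g v)) = ρ g⁻¹ (s₀ (ρ g⁻¹⁻¹ v))
      rw [inv_inv])
  rw [h3, hs₀]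

/-- The same for the twisted operators. -/
theorem sum_tw_conj_sD {s₀ : V →ₗ[k] V} (hs₀ : ∀ v, ∑ g : G, ρ g (s₀ (ρ g⁻¹ v)) = v) (v : V) :
    ∑ d : D, tw ρ ω (d : G)⁻¹ (sD ρ D s₀ (tw ρ ω (d : G) v)) = v := by
  have h1 : ∀ d : D, tw ρ ω (d : G)⁻¹ (sD ρ D s₀ (tw ρ ω (d : G) v)) =
      ρ (d : G)⁻¹ (sD ρ D s₀ (ρ (d : G) v)) := fun d => tw_conj ρ ω (d : G) (sD ρ D s₀) v
  rw [Finset.sum_congr rfl (fun d _ => h1 d)]
  exact sum_conj_sD D hs₀ v

/-- The `ω`-eigenvectors of `D` are the image of the twisted norm. -/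
theorem eigSub_eq_range {s₀ : V →ₗ[k] V} (hs₀ : ∀ v, ∑ g : G, ρ g (s₀ (ρ g⁻¹ v)) = v) :
    eigSub ρ ω (D : Set G) = LinearMap.range (normD ρ ω D) := by
  apply le_antisymm
  · intro v hv
    rw [mem_eigSub_iff_tw] at hv
    refine ⟨sD ρ D s₀ v, ?_⟩
    have h1 := sum_tw_conj_sD ω D hs₀ v
    rw [normD_apply]
    refine Eq.trans ?_ h1
    refine Fintype.sum_equiv (Equiv.inv D) _ _ (fun d => ?_)
    show tw ρ ω (d : G) (sD ρ D s₀ v) =
      tw ρ ω ((d : G)⁻¹)⁻¹ (sD ρ D s₀ (tw ρ ω ((d : G)⁻¹) v))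
    rw [hv ((d : G)⁻¹) (D.inv_mem d.2), inv_inv]
  · rintro _ ⟨u, rfl⟩
    rw [mem_eigSub_iff_tw]
    intro d hd
    exact tw_normD ρ ω D hd u

/-- The fixed vectors of the Tate-twisted dual are the image of the transpose of the twisted
norm. -/
theorem dualFixSub_eq_range {s₀ : V →ₗ[k] V} (hs₀ : ∀ v, ∑ g : G, ρ g (s₀ (ρ g⁻¹ v)) = v) :
    dualFixSub ρ ω (D : Set G) = LinearMap.range (normD ρ ω D).dualMap := by
  apply le_antisymm
  · intro φ hφ
    rw [mem_dualFixSub_iff_tw] at hφ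
    refine ⟨φ ∘ₗ sD ρ D s₀, ?_⟩
    apply LinearMap.ext
    intro v
    rw [LinearMap.dualMap_apply, LinearMap.comp_apply, normD_apply, map_sum, map_sum]
    have h1 := sum_tw_conj_sD ω D hs₀ v
    conv_rhs => rw [← h1]
    rw [map_sum]
    refine Finset.sum_congr rfl (fun d _ => ?_)
    have h2 := LinearMap.congr_fun (hφ ((d : G)⁻¹) (D.inv_mem d.2))
      (sD ρ D s₀ (tw ρ ω (d : G) v))
    rw [LinearMap.comp_apply] at h2
    rw [h2]
  · rintro _ ⟨ψ, rfl⟩
    rw [mem_dualFixSub_iff_tw]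
    intro d hd
    apply LinearMap.ext
    intro v
    rw [LinearMap.comp_apply, LinearMap.dualMap_apply, LinearMap.dualMap_apply,
      normD_tw ρ ω D hd v]

/-- **Higman's criterion, norm form**: on a projective module the `ω`-eigenspace of any
subgroup `D` and the fixed space of the Tate-twisted dual have the same dimension. -/
theorem higman [FiniteDimensional k V] {s₀ : V →ₗ[k] V}
    (hs₀ : ∀ v, ∑ g : G, ρ g (s₀ (ρ g⁻¹ v)) = v) :
    finrank k (eigSub ρ ω (D : Set G)) = finrank k (dualFixSub ρ ω (D : Set G)) := by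
  rw [eigSub_eq_range ω D hs₀, dualFixSub_eq_range ω D hs₀,
    LinearMap.finrank_range_dualMap_eq_finrank_range]

end Higman

/-! ### Bridge to `EC/Defs_KD.lean` -/

section Bridge

variable {p : ℕ} [Fact p.Prime] {S : Finset Nat.Primes}
  {L : IntermediateField ℚ (AlgebraicClosure ℚ)} [Normal ℚ L]

/-- On a Galois level `omegaL` is a character of `Gal(L/ℚ)`. -/
def omegaHom (hL : IsGalLevel p S L) : GalL L →* (ZMod p)ˣ :=
  MonoidHom.mk' (omegaL p L) (fun a b => by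
    obtain ⟨g, rfl⟩ := resL_surjective L a
    obtain ⟨g', rfl⟩ := resL_surjective L b
    rw [← map_mul, omegaL_resL hL, omegaL_resL hL, omegaL_resL hL, map_mul])

theorem omegaHom_apply (hL : IsGalLevel p S L) (b : GalL L) :
    omegaHom hL b = omegaL p L b := rfl

/-- `dualFixSub` for `omegaL` is `fixedSub` of `dualTwistOp`. -/
theorem dualFixSub_eq_fixedSub (hL : IsGalLevel p S L) {V : Type} [AddCommGroup V]
    [Module (ZMod p) V] (ρ : Representation (ZMod p) (GalL L) V) (D : Set (GalL L)) :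
    dualFixSub ρ (omegaHom hL) D = fixedSub p D (dualTwistOp p L ρ) := rfl

/-- **Higman, for `Defs_KD`**: if `V` is projective (witness `s₀`), then for every subgroup
`D` of `Gal(L/ℚ)` the `ω`-eigenspace of `D` in `V` has the dimension of the `D`-invariants of
the Tate dual. -/
theorem higman_dualTwist (hL : IsGalLevel p S L) [FiniteDimensional ℚ L] {V : Type}
    [AddCommGroup V] [Module (ZMod p) V] [FiniteDimensional (ZMod p) V]
    (ρ : Representation (ZMod p) (GalL L) V) (D : Subgroup (GalL L)) {s₀ : V →ₗ[ZMod p] V}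
    (hs₀ : ∀ [Fintype (GalL L)], ∀ v, ∑ g : GalL L, ρ g (s₀ (ρ g⁻¹ v)) = v) :
    finrank (ZMod p) (eigSub ρ (omegaHom hL) (D : Set (GalL L))) =
      finrank (ZMod p) (fixedSub p (D : Set (GalL L)) (dualTwistOp p L ρ)) := by
  haveI : Finite (GalL L) := inferInstance
  letI : Fintype (GalL L) := Fintype.ofFinite _
  rw [← dualFixSub_eq_fixedSub hL ρ (D : Set (GalL L))]
  exact higman (omegaHom hL) D (fun v => hs₀ v)

/-- **Higman for induced modules**: `V = Ind_B^G W`, `p ∤ #B`, `D ≤ Gal(L/ℚ)` any subgroup. -/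
theorem higman_induced (hL : IsGalLevel p S L) [FiniteDimensional ℚ L] {V : Type}
    [AddCommGroup V] [Module (ZMod p) V] [FiniteDimensional (ZMod p) V]
    (ρ : Representation (ZMod p) (GalL L) V) (B : Subgroup (GalL L)) (W : Submodule (ZMod p) V)
    (hB : ¬ p ∣ Nat.card B) (h : IND.IsInducedFrom ρ B W) (D : Subgroup (GalL L)) :
    finrank (ZMod p) (eigSub ρ (omegaHom hL) (D : Set (GalL L))) =
      finrank (ZMod p) (fixedSub p (D : Set (GalL L)) (dualTwistOp p L ρ)) := by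
  haveI : Finite (GalL L) := inferInstance
  have hB' : ((Nat.card B : ℕ) : ZMod p) ≠ 0 := fun h0 =>
    hB ((ZMod.natCast_eq_zero_iff _ _).1 h0)
  obtain ⟨s₀, hs₀⟩ := exists_relProj ρ B W h hB'
  exact higman_dualTwist hL ρ D (fun v => hs₀ v)

end Bridge

end Fermat.Agent.S56.EC.H47

end

end
-- ==== END Fermat.Agent.S56.EC.H47_Higman

-- ==== BEGIN Fermat.Agent.S56.EC.H54_Loc0
section

set_option autoImplicit false
set_option linter.unusedSectionVars false
set_option linter.style.haveILetI false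
set_option linter.unusedVariables false

noncomputable section

namespace Fermat.Agent.S56.EC.H54

open CategoryTheory groupCohomology ExtCitation Module Fermat.Agent.S56

section loc0

variable (p : ℕ) [Fact p.Prime] {S : Finset Nat.Primes}
  (L : IntermediateField ℚ (AlgebraicClosure ℚ)) [Normal ℚ L]
  {V : Type} [AddCommGroup V] [Module (ZMod p) V] (ρ : Representation (ZMod p) (GalL L) V)

theorem cycloK_zmod54 (g : GQ) : ((cycloK p (ZMod p) g : (ZMod p)ˣ) : ZMod p)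
    = ((cycloChar p g : (ZMod p)ˣ) : ZMod p) := by
  unfold cycloK
  rw [MonoidHom.comp_apply, Units.coe_map]
  show (ZMod.castHom (dvd_refl p) (ZMod p)) _ = _
  rw [ZMod.castHom_self]
  rfl

/-- The Tate dual of an inflated representation acts through `dualTwistOp`. -/
theorem tateDual_infl_apply (hL : IsGalLevel p S L) (g : GQ) (φ : Module.Dual (ZMod p) V) :
    (tateDual p (infl L ρ)).ρ g φ = dualTwistOp p L ρ (resL L g) φ := by
  show ((cycloK p (ZMod p) g : (ZMod p)ˣ) : ZMod p) • (φ ∘ₗ ρ (resL L g⁻¹)) =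
    ((omegaL p L (resL L g) : (ZMod p)ˣ) : ZMod p) • (φ ∘ₗ ρ (resL L g)⁻¹)
  rw [omegaL_resL hL, cycloK_zmod54, map_inv]

theorem mem_fixedSub {X : Type} [AddCommGroup X] [Module (ZMod p) X] {Γ : Type} (D : Set Γ)
    (T : Γ → X →ₗ[ZMod p] X) (x : X) : x ∈ fixedSub p D T ↔ ∀ b ∈ D, T b x = x := Iff.rfl

/-- Invariants of a restriction of the Tate dual. -/
def invResEquiv (hL : IsGalLevel p S L) {H : Type} [Group H] (f : H →* GQ) :
    ↥((Rep.res f (tateDual p (infl L ρ))).ρ.invariants) ≃ₗ[ZMod p]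
      ↥(fixedSub p ((f.range.map (resL L) : Subgroup (GalL L)) : Set (GalL L))
        (dualTwistOp p L ρ)) where
  toFun x := ⟨(x : Rep.res f (tateDual p (infl L ρ))), by
    rintro b ⟨g, ⟨t, rfl⟩, rfl⟩
    exact (tateDual_infl_apply p L ρ hL (f t) _).symm.trans (x.2 t)⟩
  invFun y := ⟨(y : Module.Dual (ZMod p) V), by
    intro t
    exact (tateDual_infl_apply p L ρ hL (f t) _).trans
      (y.2 (resL L (f t)) ⟨f t, ⟨t, rfl⟩, rfl⟩)⟩
  map_add' _ _ := rfl
  map_smul' _ _ := rfl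
  left_inv _ := rfl
  right_inv _ := rfl

/-- Invariants of the Tate dual. -/
def invEquiv (hL : IsGalLevel p S L) :
    ↥((tateDual p (infl L ρ)).ρ.invariants) ≃ₗ[ZMod p]
      ↥(fixedSub p (Set.univ : Set (GalL L)) (dualTwistOp p L ρ)) where
  toFun x := ⟨(x : tateDual p (infl L ρ)), by
    intro b _
    obtain ⟨g, rfl⟩ := resL_surjective L b
    exact (tateDual_infl_apply p L ρ hL g _).symm.trans (x.2 g)⟩
  invFun y := ⟨(y : Module.Dual (ZMod p) V), by
    intro g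
    exact (tateDual_infl_apply p L ρ hL g _).trans (y.2 (resL L g) (Set.mem_univ _))⟩
  map_add' _ _ := rfl
  map_smul' _ _ := rfl
  left_inv _ := rfl
  right_inv _ := rfl

/-- Invariants of the inflation. -/
def invInflEquiv :
    ↥((infl L ρ).ρ.invariants) ≃ₗ[ZMod p]
      ↥(fixedSub p (Set.univ : Set (GalL L)) (fun b => ρ b)) where
  toFun x := ⟨(x : infl L ρ), by
    intro b _
    obtain ⟨g, rfl⟩ := resL_surjective L b
    exact x.2 g⟩
  invFun y := ⟨(y : V), by
    intro g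
    exact y.2 (resL L g) (Set.mem_univ _)⟩
  map_add' _ _ := rfl
  map_smul' _ _ := rfl
  left_inv _ := rfl
  right_inv _ := rfl

end loc0

/-- **Package LOC0.** -/
theorem stmt_LOC0 : Stmt_LOC0 := by
  intro p _ S hpS L _ _ hL V _ _ _ ρ
  refine ⟨fun q => ?_, ?_, ?_, ?_⟩
  · exact (invResEquiv p L ρ hL (primeLocalToGlobal q)).finrank_eq
  · exact (invResEquiv p L ρ hL archimedeanLoc).finrank_eq
  · exact (invEquiv p L ρ hL).finrank_eq
  · exact (invInflEquiv p L ρ).finrank_eq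

end Fermat.Agent.S56.EC.H54

end

end
-- ==== END Fermat.Agent.S56.EC.H54_Loc0

-- ==== BEGIN Fermat.Agent.S56.EC.H54_ShapUb
section

set_option autoImplicit false
set_option linter.unusedSectionVars false
set_option linter.style.haveILetI false
set_option linter.unusedVariables false

noncomputable section

namespace Fermat.Agent.S56.EC.H54

open CategoryTheory groupCohomology ExtCitation Module Fermat.Agent.S55
  Fermat.Agent.S56.H92.Snake Fermat.Agent.S56.H92.LES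

section shapub

variable (p : ℕ) [Fact p.Prime] (S : Finset Nat.Primes)
  (L : IntermediateField ℚ (AlgebraicClosure ℚ)) [Normal ℚ L]

/-- The regular representation `𝔽_p[Gal(L/ℚ)]`, inflated to `G_ℚ`. -/
abbrev regRep : Rep.{0} (ZMod p) _root_.Fermat.Agent.S56.GQ := infl L (IND.permRep (ZMod p) (GalL L) (GalL L))

/-- Evaluation of an element of the regular representation. -/
def ev (φ : regRep p L) (x : GalL L) : ZMod p := (show GalL L → ZMod p from φ) x

theorem ev_ext (φ ψ : regRep p L) (h : ∀ x, _root_.Fermat.Agent.S56.EC.H54.ev p L φ x = _root_.Fermat.Agent.S56.EC.H54.ev p L ψ x) : φ = ψ := funext h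

theorem ev_add (φ ψ : regRep p L) (x : GalL L) :
    _root_.Fermat.Agent.S56.EC.H54.ev p L (φ + ψ) x = _root_.Fermat.Agent.S56.EC.H54.ev p L φ x + _root_.Fermat.Agent.S56.EC.H54.ev p L ψ x := rfl

theorem ev_sub (φ ψ : regRep p L) (x : GalL L) :
    _root_.Fermat.Agent.S56.EC.H54.ev p L (φ - ψ) x = _root_.Fermat.Agent.S56.EC.H54.ev p L φ x - _root_.Fermat.Agent.S56.EC.H54.ev p L ψ x := rfl

theorem ev_zero (x : GalL L) : _root_.Fermat.Agent.S56.EC.H54.ev p L 0 x = 0 := rfl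

theorem ev_ρ (g : _root_.Fermat.Agent.S56.GQ) (φ : regRep p L) (x : GalL L) :
    _root_.Fermat.Agent.S56.EC.H54.ev p L ((regRep p L).ρ g φ) x = _root_.Fermat.Agent.S56.EC.H54.ev p L φ ((resL L g)⁻¹ * x) := rfl

theorem regRep_ρ_of_mem (s : _root_.Fermat.Agent.S56.GQ) (hs : s ∈ L.fixingSubgroup) (φ : regRep p L) :
    (regRep p L).ρ s φ = φ := by
  refine ev_ext p L _ _ fun x => ?_
  rw [ev_ρ, resL_eq_one L hs, inv_one, one_mul]

theorem lev_regRep (hL : IsGalLevel p S L) : Lev S (regRep p L) :=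
  ⟨L, hL.1, fun s hs m => regRep_ρ_of_mem p L s hs m⟩

theorem coc_mul {c : _root_.Fermat.Agent.S56.GQ → regRep p L} (hc : dOne (regRep p L) c = 0) (g h : _root_.Fermat.Agent.S56.GQ) :
    c (g * h) = (regRep p L).ρ g (c h) + c g := by
  have h1 : dOne (regRep p L) c (g, h) = 0 := by rw [hc]; rfl
  have h2 : (regRep p L).ρ g (c h) - c (g * h) + c g = 0 := h1
  have h3 : c (g * h) = (regRep p L).ρ g (c h) - c (g * h) + c g + c (g * h) - 0 := by
    rw [h2]; abel
  rw [h3]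
  abel

/-- If `c σ 1 = 0` on `G_L`, then `c = 0` on `G_L`. -/
theorem coc_vanish {c : _root_.Fermat.Agent.S56.GQ → regRep p L} (hc : dOne (regRep p L) c = 0)
    (h1 : ∀ σ : _root_.Fermat.Agent.S56.GQ, σ ∈ L.fixingSubgroup → _root_.Fermat.Agent.S56.EC.H54.ev p L (c σ) 1 = 0)
    (σ : _root_.Fermat.Agent.S56.GQ) (hσ : σ ∈ L.fixingSubgroup) : c σ = 0 := by
  refine ev_ext p L _ _ fun x => ?_
  obtain ⟨g, rfl⟩ := resL_surjective L x
  have hconj : g⁻¹ * σ * g ∈ L.fixingSubgroup := by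
    apply mem_fixingSubgroup_of_resL
    rw [map_mul, map_mul, resL_eq_one L hσ, mul_one, map_inv, inv_mul_cancel]
  have e1 : c (σ * g) = (regRep p L).ρ σ (c g) + c σ := coc_mul p L hc σ g
  have e2 : c (σ * g) = (regRep p L).ρ g (c (g⁻¹ * σ * g)) + c g := by
    have : σ * g = g * (g⁻¹ * σ * g) := by group
    rw [this]
    exact coc_mul p L hc g _
  rw [regRep_ρ_of_mem p L σ hσ] at e1
  have e3 : _root_.Fermat.Agent.S56.EC.H54.ev p L ((regRep p L).ρ g (c (g⁻¹ * σ * g))) (resL L g) = 0 := by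
    rw [ev_ρ, inv_mul_cancel]
    exact h1 _ hconj
  have e4 := congrArg (fun φ => _root_.Fermat.Agent.S56.EC.H54.ev p L φ (resL L g)) (e1.symm.trans e2)
  simp only [ev_add] at e4
  rw [e3, zero_add] at e4
  rw [ev_zero]
  exact add_left_cancel (a := _root_.Fermat.Agent.S56.EC.H54.ev p L (c g) (resL L g)) (by rw [e4, add_zero])

/-- A cocycle vanishing on `G_L` is constant on the cosets of `G_L`. -/
theorem coc_coset {c : _root_.Fermat.Agent.S56.GQ → regRep p L} (hc : dOne (regRep p L) c = 0)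
    (h0 : ∀ σ : _root_.Fermat.Agent.S56.GQ, σ ∈ L.fixingSubgroup → c σ = 0) (g h : _root_.Fermat.Agent.S56.GQ) (hgh : resL L g = resL L h) :
    c g = c h := by
  have hs : g⁻¹ * h ∈ L.fixingSubgroup := by
    apply mem_fixingSubgroup_of_resL
    rw [map_mul, map_inv, hgh, inv_mul_cancel]
  have e : h = g * (g⁻¹ * h) := by group
  rw [e, coc_mul p L hc, h0 _ hs, map_zero, zero_add]

/-- The primitive of a cocycle vanishing on `G_L`. -/
def prim (c : _root_.Fermat.Agent.S56.GQ → regRep p L) : regRep p L :=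
  show GalL L → ZMod p from
    fun x => - _root_.Fermat.Agent.S56.EC.H54.ev p L (c (Function.surjInv (resL_surjective L) x)) x

theorem ev_prim (c : _root_.Fermat.Agent.S56.GQ → regRep p L) (x : GalL L) :
    _root_.Fermat.Agent.S56.EC.H54.ev p L (prim p L c) x = - _root_.Fermat.Agent.S56.EC.H54.ev p L (c (Function.surjInv (resL_surjective L) x)) x := rfl

/-- **Shapiro vanishing** for the regular representation. -/
theorem coc_coboundary {c : _root_.Fermat.Agent.S56.GQ → regRep p L} (hc : dOne (regRep p L) c = 0)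
    (h0 : ∀ σ : _root_.Fermat.Agent.S56.GQ, σ ∈ L.fixingSubgroup → c σ = 0) :
    ∃ m : regRep p L, dZero (regRep p L) m = c := by
  refine ⟨prim p L c, ?_⟩
  funext g
  refine ev_ext p L _ _ fun x => ?_
  show _root_.Fermat.Agent.S56.EC.H54.ev p L ((regRep p L).ρ g (prim p L c) - prim p L c) x = _
  rw [ev_sub, ev_ρ, ev_prim, ev_prim]
  set y : GalL L := (resL L g)⁻¹ * x with hy
  have hxy : resL L (g * Function.surjInv (resL_surjective L) y)
      = resL L (Function.surjInv (resL_surjective L) x) := by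
    rw [map_mul, Function.surjInv_eq (resL_surjective L), Function.surjInv_eq (resL_surjective L),
      hy, mul_inv_cancel_left]
  have e1 := coc_coset p L hc h0 _ _ hxy
  rw [coc_mul p L hc] at e1
  have e2 := congrArg (fun φ => _root_.Fermat.Agent.S56.EC.H54.ev p L φ x) e1
  simp only [ev_add, ev_ρ] at e2
  rw [← hy] at e2
  rw [← e2]
  ring

end shapub

/-! ### The map, for a general module trivial on `G_L` with a functional -/

section gen

variable (p : ℕ) [Fact p.Prime] (S : Finset Nat.Primes)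
  (L : IntermediateField ℚ (AlgebraicClosure ℚ)) [Normal ℚ L]
  (N : Rep.{0} (ZMod p) _root_.Fermat.Agent.S56.GQ) (hN : Lev S N) (e : N →ₗ[ZMod p] ZMod p)
  (htriv : ∀ s : _root_.Fermat.Agent.S56.GQ, s ∈ L.fixingSubgroup → ∀ m : N, N.ρ s m = m)

theorem gen_coc_mul {c : _root_.Fermat.Agent.S56.GQ → N} (hc : dOne N c = 0) (g h : _root_.Fermat.Agent.S56.GQ) :
    c (g * h) = N.ρ g (c h) + c g := by
  have h1 : dOne N c (g, h) = 0 := by rw [hc]; rfl
  have h2 : N.ρ g (c h) - c (g * h) + c g = 0 := h1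
  have h3 : c (g * h) = N.ρ g (c h) - c (g * h) + c g + c (g * h) - 0 := by
    rw [h2]; abel
  rw [h3]
  abel

include htriv in
/-- `ker d¹ → Hom_S(G_L, 𝔽_p)`, `c ↦ (σ ↦ e (c σ))`. -/
theorem shap₀_mem (z : ↥(LinearMap.ker (d1 S N hN))) :
    (fun σ : ↥L.fixingSubgroup => e (((z : ↥(levelCochainsS₁ S N)) : _root_.Fermat.Agent.S56.GQ → N) σ))
      ∈ LevHom p S L (ZMod p) := by
  have hz : dOne N ((z : ↥(levelCochainsS₁ S N)) : _root_.Fermat.Agent.S56.GQ → N) = 0 :=
    congrArg Subtype.val (LinearMap.mem_ker.1 z.2)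
  refine ⟨fun σ τ => ?_, ?_⟩
  · show e (((z : ↥(levelCochainsS₁ S N)) : _root_.Fermat.Agent.S56.GQ → N) ((σ : _root_.Fermat.Agent.S56.GQ) * (τ : _root_.Fermat.Agent.S56.GQ))) = _
    rw [gen_coc_mul p N hz, map_add, htriv _ σ.2, add_comm]
  · obtain ⟨F, hF, hl⟩ := (z : ↥(levelCochainsS₁ S N)).2
    refine ⟨F, hF, fun g s hs => ?_⟩
    show e (((z : ↥(levelCochainsS₁ S N)) : _root_.Fermat.Agent.S56.GQ → N) ((g : _root_.Fermat.Agent.S56.GQ) * (s : _root_.Fermat.Agent.S56.GQ))) = _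
    rw [hl _ _ hs]

/-- `ker d¹ → Hom_S(G_L, 𝔽_p)`, `c ↦ (σ ↦ e (c σ))`. -/
def shap₀ : ↥(LinearMap.ker (d1 S N hN)) →ₗ[ZMod p] ↥(LevHom p S L (ZMod p)) where
  toFun z := ⟨fun σ => e (((z : ↥(levelCochainsS₁ S N)) : _root_.Fermat.Agent.S56.GQ → N) σ),
    shap₀_mem p S L N hN e htriv z⟩
  map_add' z z' := by
    apply Subtype.ext
    funext σ
    show e ((((z + z' : ↥(LinearMap.ker (d1 S N hN))) : ↥(levelCochainsS₁ S N)) : _root_.Fermat.Agent.S56.GQ → N) σ) = _
    exact map_add e _ _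
  map_smul' a z := by
    apply Subtype.ext
    funext σ
    show e ((((a • z : ↥(LinearMap.ker (d1 S N hN))) : ↥(levelCochainsS₁ S N)) : _root_.Fermat.Agent.S56.GQ → N) σ) = _
    exact map_smul e _ _

theorem shap₀_apply (z : ↥(LinearMap.ker (d1 S N hN))) (σ : ↥L.fixingSubgroup) :
    ((shap₀ p S L N hN e htriv z : ↥(LevHom p S L (ZMod p))) : ↥L.fixingSubgroup → ZMod p) σ
      = e (((z : ↥(levelCochainsS₁ S N)) : _root_.Fermat.Agent.S56.GQ → N) σ) := rfl

/-- `H¹_S → Hom_S(G_L, 𝔽_p)` on the cochain model. -/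
def shap₁ : Hmid (d0 S N hN) (d1 S N hN) →ₗ[ZMod p] ↥(LevHom p S L (ZMod p)) :=
  Submodule.liftQ _ (shap₀ p S L N hN e htriv) (fun z hz => by
    rw [Submodule.mem_comap] at hz
    obtain ⟨m, hm⟩ := hz
    rw [LinearMap.mem_ker]
    apply Subtype.ext
    funext σ
    rw [shap₀_apply]
    have h1 : ((z : ↥(levelCochainsS₁ S N)) : _root_.Fermat.Agent.S56.GQ → N) = dZero N m :=
      (congrArg Subtype.val hm).symm
    rw [h1]
    show e (N.ρ σ m - m) = 0
    rw [htriv _ σ.2, sub_self, map_zero])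

theorem shap₁_injective
    (hvan : ∀ c : _root_.Fermat.Agent.S56.GQ → N, dOne N c = 0 → (∀ σ : _root_.Fermat.Agent.S56.GQ, σ ∈ L.fixingSubgroup → e (c σ) = 0) →
      ∃ m : N, dZero N m = c) :
    Function.Injective (shap₁ p S L N hN e htriv) := by
  rw [injective_iff_map_eq_zero]
  intro x hx
  obtain ⟨z, rfl⟩ := Hmid.mk_surjective _ _ x
  have hz : dOne N ((z : ↥(levelCochainsS₁ S N)) : _root_.Fermat.Agent.S56.GQ → N) = 0 :=
    congrArg Subtype.val (LinearMap.mem_ker.1 z.2)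
  have h1 : ∀ σ : _root_.Fermat.Agent.S56.GQ, σ ∈ L.fixingSubgroup →
      e (((z : ↥(levelCochainsS₁ S N)) : _root_.Fermat.Agent.S56.GQ → N) σ) = 0 := by
    intro σ hσ
    have := congrFun (congrArg Subtype.val hx) ⟨σ, hσ⟩
    exact this
  obtain ⟨m, hm⟩ := hvan _ hz h1
  rw [Hmid.mk_eq_zero_iff]
  exact ⟨m, Subtype.ext hm⟩

include hN htriv in
theorem exists_shap
    (hvan : ∀ c : _root_.Fermat.Agent.S56.GQ → N, dOne N c = 0 → (∀ σ : _root_.Fermat.Agent.S56.GQ, σ ∈ L.fixingSubgroup → e (c σ) = 0) →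
      ∃ m : N, dZero N m = c) :
    ∃ f : ↥(continuousH1S S N) →ₗ[ZMod p] ↥(LevHom p S L (ZMod p)), Function.Injective f := by
  refine ⟨(shap₁ p S L N hN e htriv) ∘ₗ ((equivH1 S N hN).symm :
    ↥(continuousH1S S N) →ₗ[ZMod p] _), ?_⟩
  rw [LinearMap.coe_comp]
  exact (shap₁_injective p S L N hN e htriv hvan).comp (equivH1 S N hN).symm.injective

end gen

/-- Evaluation at `1` as a linear functional. -/
def evOne (p : ℕ) [Fact p.Prime] (L : IntermediateField ℚ (AlgebraicClosure ℚ)) [Normal ℚ L] :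
    regRep p L →ₗ[ZMod p] ZMod p where
  toFun φ := _root_.Fermat.Agent.S56.EC.H54.ev p L φ 1
  map_add' _ _ := rfl
  map_smul' _ _ := rfl

/-- **Package SHAP-ub.** -/
theorem stmt_SHAPub : Stmt_SHAPub := by
  intro p _ hp2 S hpS L _ _ hL
  exact exists_shap p S L (regRep p L) (lev_regRep p S L hL) (evOne p L)
    (fun s hs m => regRep_ρ_of_mem p L s hs m)
    (fun c hc h1 => coc_coboundary p L hc (coc_vanish p L hc h1))

end Fermat.Agent.S56.EC.H54

end

end
-- ==== END Fermat.Agent.S56.EC.H54_ShapUb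

-- ==== BEGIN Fermat.Agent.S56.EC.H92_DescTame
section

set_option autoImplicit false
set_option linter.style.haveILetI false
set_option linter.unusedSectionVars false

/-!
# EC / DESC / DB, part 2 (helper92): the tame bound at a finite level

`lvl N F' Fd` = cochains constant modulo `G_{F'}` with `d f` constant modulo `G_{Fd}`.
For `FN ≤ Fd ≤ F'` (`N` trivial on `G_{FN}`), `Fd` unramified outside `S`, `F'` unramified
outside `insert q S`: the image of `lvl N F' Fd` in `Ẽ` is finite-dimensional of dimension at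
most `dim ker (φ - q | N)`, `φ` a Frobenius element at `q`.
-/

noncomputable section

namespace Fermat.Agent.S56.EC.DESC.H92

open CategoryTheory groupCohomology ExtCitation Module Fermat.Agent.S56.EC
  Fermat.Agent.S56.EC.DESC

local notation "Qbar" => AlgebraicClosure ℚ

section tame

variable {k : Type} [Field k] {N : Rep.{0} k GQ} {H : Subgroup GQ} {f : GQ → N}

/-- Elements of `q`-power order modulo the zero subgroup are killed (`q` invertible in `k`). -/
lemma Adm.nrm_eq_zero_of_pow (h : Adm N H f) {q : ℕ} (hq : (q : k) ≠ 0) {w : GQ} (hw : w ∈ H)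
    {e : ℕ} (hwe : w ^ (q ^ e) ∈ zeroSub h) : nrm N f w = 0 := by
  have h1 := h.nrm_pow hw (q ^ e)
  rw [hwe.2] at h1
  have h2 : ((q ^ e : ℕ) : k) • nrm N f w = 0 := by
    rw [Nat.cast_smul_eq_nsmul]; exact h1.symm
  have h3 : ((q ^ e : ℕ) : k) ≠ 0 := by rw [Nat.cast_pow]; exact pow_ne_zero _ hq
  exact (smul_eq_zero.1 h2).resolve_left h3

/-- `f₀ τ₀ = 0` implies `f₀ = 0` on the inertia group. -/
lemma Adm.nrm_inertia_eq_zero (h : Adm N H f) {q : ℕ} (hq : (q : k) ≠ 0) (I : Subgroup GQ)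
    (hIH : I ≤ H) {τ₀ : GQ} (hτ₀ : τ₀ ∈ I) (U : Subgroup GQ) (hU : U ≤ zeroSub h)
    (hcyc : ∀ σ ∈ I, ∃ j e : ℕ, ((τ₀ ^ j)⁻¹ * σ) ^ (q ^ e) ∈ U)
    (h0 : nrm N f τ₀ = 0) : ∀ σ ∈ I, nrm N f σ = 0 := by
  intro σ hσ
  obtain ⟨j, e, hje⟩ := hcyc σ hσ
  have hw : (τ₀ ^ j)⁻¹ * σ ∈ H := hIH (mul_mem (inv_mem (pow_mem hτ₀ j)) hσ)
  have h1 := h.nrm_eq_zero_of_pow hq hw (hU hje)
  have e1 : σ = τ₀ ^ j * ((τ₀ ^ j)⁻¹ * σ) := by group
  rw [e1, h.nrm_mul_left (hIH (pow_mem hτ₀ j)), h1, add_zero, h.nrm_pow (hIH hτ₀), h0,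
    smul_zero]

/-- The tame relation: `φ f₀(τ₀) = q f₀(τ₀)`. -/
lemma Adm.rho_frob_nrm (h : Adm N H f) {q : ℕ} (hq : (q : k) ≠ 0) (I : Subgroup GQ)
    (hIH : I ≤ H) {τ₀ φ : GQ} (hτ₀ : τ₀ ∈ I) (hφ : φ * τ₀ * φ⁻¹ ∈ I) (U : Subgroup GQ)
    (hU : U ≤ zeroSub h)
    (hconj : ∃ e : ℕ, ((τ₀ ^ q)⁻¹ * (φ * τ₀ * φ⁻¹)) ^ (q ^ e) ∈ U) :
    N.ρ φ (nrm N f τ₀) = (q : k) • nrm N f τ₀ := by
  obtain ⟨e, he⟩ := hconj
  have hw : (τ₀ ^ q)⁻¹ * (φ * τ₀ * φ⁻¹) ∈ H :=
    hIH (mul_mem (inv_mem (pow_mem hτ₀ q)) hφ)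
  have h1 := h.nrm_eq_zero_of_pow hq hw (hU he)
  have e1 : φ * τ₀ * φ⁻¹ = τ₀ ^ q * ((τ₀ ^ q)⁻¹ * (φ * τ₀ * φ⁻¹)) := by group
  have h2 := h.nrm_conj φ (hIH hτ₀) (hIH hφ)
  have h3 : nrm N f (φ * τ₀ * φ⁻¹) = q • nrm N f τ₀ := by
    rw [e1, h.nrm_mul_left (hIH (pow_mem hτ₀ q)), h1, add_zero, h.nrm_pow (hIH hτ₀)]
  rw [← h2, h3, Nat.cast_smul_eq_nsmul]

end tame

section level

variable {k : Type} [Field k] (N : Rep.{0} k GQ)

/-- Cochains constant modulo `G_{F'}` whose coboundary is constant modulo `G_{Fd}`. -/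
def lvl (F' Fd : IntermediateField ℚ Qbar) : Submodule k (GQ → N) where
  carrier := {f | (∀ g s : GQ, s ∈ F'.fixingSubgroup → f (g * s) = f g) ∧
    ∀ g g' s s' : GQ, s ∈ Fd.fixingSubgroup → s' ∈ Fd.fixingSubgroup →
      S55.dOne N f (g * s, g' * s') = S55.dOne N f (g, g')}
  add_mem' := by
    rintro f f' ⟨h1, h2⟩ ⟨h1', h2'⟩
    refine ⟨fun g s hs => ?_, fun g g' s s' hs hs' => ?_⟩
    · rw [Pi.add_apply, Pi.add_apply, h1 g s hs, h1' g s hs]
    · rw [S55.dOne_add, Pi.add_apply, Pi.add_apply, h2 g g' s s' hs hs', h2' g g' s s' hs hs']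
  zero_mem' := by
    refine ⟨fun g s _ => rfl, fun g g' s s' _ _ => ?_⟩
    simp [S55.dOne]
  smul_mem' := by
    rintro c f ⟨h1, h2⟩
    refine ⟨fun g s hs => ?_, fun g g' s s' hs hs' => ?_⟩
    · rw [Pi.smul_apply, Pi.smul_apply, h1 g s hs]
    · rw [S55.dOne_smul, Pi.smul_apply, Pi.smul_apply, h2 g g' s s' hs hs']

variable {N}

lemma mem_lvl {F' Fd : IntermediateField ℚ Qbar} {f : GQ → N} :
    f ∈ lvl N F' Fd ↔ (∀ g s : GQ, s ∈ F'.fixingSubgroup → f (g * s) = f g) ∧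
      ∀ g g' s s' : GQ, s ∈ Fd.fixingSubgroup → s' ∈ Fd.fixingSubgroup →
        S55.dOne N f (g * s, g' * s') = S55.dOne N f (g, g') := Iff.rfl

lemma lvl_mono {F₁ F₂ D₁ D₂ : IntermediateField ℚ Qbar} (hF : F₁ ≤ F₂) (hD : D₁ ≤ D₂) :
    lvl N F₁ D₁ ≤ lvl N F₂ D₂ := by
  rintro f ⟨h1, h2⟩
  exact ⟨fun g s hs => h1 g s (S55.mem_fix_of_le hF hs),
    fun g g' s s' hs hs' => h2 g g' s s' (S55.mem_fix_of_le hD hs) (S55.mem_fix_of_le hD hs')⟩

lemma lvl_le_preE {S S' : Finset Nat.Primes} {F' Fd : IntermediateField ℚ Qbar}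
    (hF' : F'.IsUnramifiedOutside S') (hFd : Fd.IsUnramifiedOutside S) :
    lvl N F' Fd ≤ preE S S' N := by
  rintro f ⟨h1, h2⟩
  exact ⟨⟨F', hF', h1⟩, ⟨Fd, hFd, h2⟩⟩

/-- Every element of `preE` lies in some `lvl`. -/
lemma exists_lvl_of_mem_preE {S S' : Finset Nat.Primes} {f : GQ → N} (hf : f ∈ preE S S' N) :
    ∃ F' Fd : IntermediateField ℚ Qbar, F'.IsUnramifiedOutside S' ∧
      Fd.IsUnramifiedOutside S ∧ f ∈ lvl N F' Fd := by
  obtain ⟨⟨F', hF', h1⟩, ⟨Fd, hFd, h2⟩⟩ := hf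
  exact ⟨F', Fd, hF', hFd, h1, h2⟩

/-- The evaluation `f ↦ f τ - f 1`. -/
def evN (N : Rep.{0} k GQ) (τ : GQ) : (GQ → N) →ₗ[k] N where
  toFun f := nrm N f τ
  map_add' f f' := nrm_add N f f' τ
  map_smul' c f := nrm_smul N c f τ

lemma evN_apply (τ : GQ) (f : GQ → N) : evN N τ f = nrm N f τ := rfl

/-- The `q`-eigenspace of `φ` on `N`. -/
def eigQ (N : Rep.{0} k GQ) (φ : GQ) (q : ℕ) : Submodule k N :=
  LinearMap.ker (N.ρ φ - (q : k) • (1 : Module.End k N))

lemma mem_eigQ {φ : GQ} {q : ℕ} {n : N} : n ∈ eigQ N φ q ↔ N.ρ φ n = (q : k) • n := by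
  rw [eigQ, LinearMap.mem_ker, LinearMap.sub_apply, LinearMap.smul_apply, Module.End.one_apply,
    sub_eq_zero]

end level

section bound

/-- Inertia is normal in the decomposition group. -/
lemma conj_mem_inertiaSubgroupIn (A : ValuationSubring Qbar) {d τ : GQ}
    (hd : d ∈ A.decompositionSubgroup ℚ) (hτ : τ ∈ A.inertiaSubgroupIn ℚ) :
    d * τ * d⁻¹ ∈ A.inertiaSubgroupIn ℚ := by
  obtain ⟨t, ht, rfl⟩ := hτ
  refine ⟨⟨d, hd⟩ * t * ⟨d, hd⟩⁻¹, ?_, rfl⟩
  have hn : (A.inertiaSubgroup ℚ).Normal := by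
    unfold ValuationSubring.inertiaSubgroup
    infer_instance
  exact hn.conj_mem t ht ⟨d, hd⟩

variable {k : Type} [Field k] {N : Rep.{0} k GQ} [FiniteDimensional k N]
  {S : Finset Nat.Primes} {q : Nat.Primes}

/-- The map from a finite level to `Ẽ`. -/
def toE {F' Fd : IntermediateField ℚ Qbar} (hF' : F'.IsUnramifiedOutside (insert q S))
    (hFd : Fd.IsUnramifiedOutside S) : ↥(lvl N F' Fd) →ₗ[k] Etil S (insert q S) N :=
  (Submodule.mkQ _).comp (Submodule.inclusion (lvl_le_preE hF' hFd))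

lemma toE_eq_zero_iff {F' Fd : IntermediateField ℚ Qbar}
    (hF' : F'.IsUnramifiedOutside (insert q S)) (hFd : Fd.IsUnramifiedOutside S)
    (f : ↥(lvl N F' Fd)) :
    toE hF' hFd f = 0 ↔ IsLevelConstantS₁ S (f : GQ → N) := by
  rw [toE, LinearMap.comp_apply, Submodule.mkQ_apply, Submodule.Quotient.mk_eq_zero,
    Submodule.mem_comap]
  rfl

/-- **The bound at a finite level.** -/
theorem finrank_range_toE_le (hq : q ∉ S) (hqk : ((q : ℕ) : k) ≠ 0)
    (A₀ : ValuationSubring Qbar) (hA₀ : A₀.LiesOverPrime (q : ℕ)) (φ : GQ)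
    (hφ : A₀.IsFrobeniusAt φ (q : ℕ))
    {FN Fd F' : IntermediateField ℚ Qbar}
    (hNtriv : ∀ s ∈ FN.fixingSubgroup, ∀ m : N, N.ρ s m = m)
    (hFN : FN ≤ Fd) (hFdF' : Fd ≤ F') (hFd : Fd.IsUnramifiedOutside S)
    (hF' : F'.IsUnramifiedOutside (insert q S)) :
    Module.Finite k (LinearMap.range (toE (N := N) hF' hFd)) ∧
      finrank k (LinearMap.range (toE (N := N) hF' hFd)) ≤ finrank k (eigQ N φ q) := by
  obtain ⟨τ₀, hτ₀, hcyc, hconj, -⟩ :=
    Fermat.Agent.S59.TWGal.H59.stmt_TAME (q : ℕ) q.2 A₀ hA₀ φ hφ F' hF'.1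
  have hN : S55.Lev S N := ⟨FN, hFd.of_le hFN, hNtriv⟩
  have hAdm : ∀ f : ↥(lvl N F' Fd), Adm N Fd.fixingSubgroup (f : GQ → N) := fun f =>
    ⟨fun s hs n => hNtriv s (S55.mem_fix_of_le hFN hs) n, f.2.2⟩
  have hIH : A₀.inertiaSubgroupIn ℚ ≤ Fd.fixingSubgroup := hFd.2 q hq A₀ hA₀
  have hU : ∀ f : ↥(lvl N F' Fd), F'.fixingSubgroup ≤ zeroSub (hAdm f) := by
    intro f u hu
    refine ⟨S55.mem_fix_of_le hFdF' hu, ?_⟩
    have := f.2.1 1 u hu
    rw [one_mul] at this
    rw [nrm, this, sub_self]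
  have hφτ : φ * τ₀ * φ⁻¹ ∈ A₀.inertiaSubgroupIn ℚ :=
    conj_mem_inertiaSubgroupIn A₀ hφ.mem_decompositionSubgroup hτ₀
  let Λ : ↥(lvl N F' Fd) →ₗ[k] ↥(eigQ N φ q) :=
    LinearMap.codRestrict (eigQ N φ q) ((evN N τ₀).comp (lvl N F' Fd).subtype)
      (fun f => mem_eigQ.2
        ((hAdm f).rho_frob_nrm hqk _ hIH hτ₀ hφτ _ (hU f) hconj))
  have hker : LinearMap.ker Λ ≤ LinearMap.ker (toE (N := N) hF' hFd) := by
    intro f hf
    rw [LinearMap.mem_ker] at hf ⊢
    have h0 : nrm N (f : GQ → N) τ₀ = 0 := congrArg Subtype.val hf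
    have hI := (hAdm f).nrm_inertia_eq_zero hqk _ hIH hτ₀ _ (hU f) hcyc h0
    rw [toE_eq_zero_iff]
    refine level_lower hq hN ⟨F', hF', f.2.1⟩ ⟨Fd, hFd, f.2.2⟩ A₀ hA₀ (fun σ hσ => ?_)
    have := hI σ hσ
    rw [nrm, sub_eq_zero] at this
    exact this
  exact Fermat.Agent.S56.H9.finrank_range_le_of_ker_le _ Λ hker

/-- Finitely many elements of `preE` have a common level. -/
lemma exists_common_lvl (FN : IntermediateField ℚ Qbar) (hFN : FN.IsUnramifiedOutside S)
    (s : Finset ↥(preE S (insert q S) N)) :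
    ∃ F' Fd : IntermediateField ℚ Qbar, FN ≤ Fd ∧ Fd ≤ F' ∧ Fd.IsUnramifiedOutside S ∧
      F'.IsUnramifiedOutside (insert q S) ∧ ∀ f ∈ s, (f : GQ → N) ∈ lvl N F' Fd := by
  classical
  induction s using Finset.induction_on with
  | empty =>
    exact ⟨FN, FN, le_rfl, le_rfl, hFN, hFN.mono (Finset.subset_insert q S),
      fun f hf => absurd hf (Finset.notMem_empty f)⟩
  | insert f s _ ih =>
    obtain ⟨F', Fd, h1, h2, h3, h4, h5⟩ := ih
    obtain ⟨Ff, Fdf, hFf, hFdf, hmem⟩ := exists_lvl_of_mem_preE f.2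
    refine ⟨F' ⊔ (Ff ⊔ Fdf), Fd ⊔ Fdf, h1.trans le_sup_left, ?_, h3.sup hFdf,
      h4.sup (hFf.sup (hFdf.mono (Finset.subset_insert q S))), ?_⟩
    · exact sup_le (h2.trans le_sup_left) (le_sup_right.trans le_sup_right)
    · intro g hg
      rcases Finset.mem_insert.1 hg with rfl | hg
      · exact lvl_mono (le_sup_left.trans le_sup_right) le_sup_right hmem
      · exact lvl_mono le_sup_left le_sup_left (h5 g hg)

/-- **The tame bound in terms of the Frobenius eigenspace.** -/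
theorem finrank_Etil_le_eigQ (hq : q ∉ S) (hqk : ((q : ℕ) : k) ≠ 0)
    (A₀ : ValuationSubring Qbar) (hA₀ : A₀.LiesOverPrime (q : ℕ)) (φ : GQ)
    (hφ : A₀.IsFrobeniusAt φ (q : ℕ)) (hN : S55.Lev S N) :
    Module.Finite k (Etil S (insert q S) N) ∧
      finrank k (Etil S (insert q S) N) ≤ finrank k (eigQ N φ q) := by
  classical
  obtain ⟨FN, hFNu, hNtriv⟩ := hN
  have hrank : Module.rank k (Etil S (insert q S) N) ≤ (finrank k (eigQ N φ q) : ℕ) := by
    apply rank_le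
    intro s hs
    have hsurj : ∀ x : Etil S (insert q S) N, ∃ f : ↥(preE S (insert q S) N),
        Submodule.Quotient.mk f = x := fun x => Submodule.Quotient.mk_surjective _ x
    choose lift hlift using hsurj
    obtain ⟨F', Fd, h1, h2, h3, h4, h5⟩ := exists_common_lvl (N := N) FN hFNu (s.image lift)
    obtain ⟨hfin, hle⟩ := finrank_range_toE_le (N := N) hq hqk A₀ hA₀ φ hφ hNtriv h1 h2 h3 h4
    have hmem : ∀ x ∈ s, x ∈ LinearMap.range (toE (N := N) h4 h3) := by
      intro x hx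
      refine ⟨⟨(lift x : GQ → N), h5 _ (Finset.mem_image_of_mem lift hx)⟩, ?_⟩
      exact (hlift x)
    let v' : s → ↥(LinearMap.range (toE (N := N) h4 h3)) := fun i => ⟨i.1, hmem i.1 i.2⟩
    have hv' : LinearIndependent k v' :=
      LinearIndependent.of_comp (LinearMap.range (toE (N := N) h4 h3)).subtype hs
    have := hv'.fintype_card_le_finrank
    rw [Fintype.card_coe] at this
    exact this.trans hle
  have hfin : Module.Finite k (Etil S (insert q S) N) :=
    Module.rank_lt_aleph0_iff.1 (lt_of_le_of_lt hrank (Cardinal.natCast_lt_aleph0))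
  exact ⟨hfin, finrank_le_of_rank_le hrank⟩

end bound

end Fermat.Agent.S56.EC.DESC.H92

end

end
-- ==== END Fermat.Agent.S56.EC.H92_DescTame
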