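-- GENERATED (merged mirror, NOTES/tools/trim/merge3_helper67.py): 2 modules of the originals, bodies verbatim.
import Fermat.Agent.Zm.S56_L13_003
import Fermat.Agent.Zm.S56_L09_002
import Fermat.Agent.Zm.S56_L10_004
import Fermat.Agent.Zm.S56_L11_003

-- ==== BEGIN Fermat.Agent.S56.H57_LocPSO
section

/-!
# S56, leaf LOC-p-SO (helper57): `Stmt_loc_p_SO`

The local condition at `p` for strict-ordinary deformations: `dim L_p ≤ h⁰ + 1`.

`W` is the space of the classes of the level-constant cocycles of `G_{ℚ_p}` with values in the line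
`k n₀ ⊆ ad⁰ ρbar`, `n₀` the nilpotent endomorphism attached to the (unique) strict-ordinary line
of `ρbar` at `p`.
-/

set_option autoImplicit false
set_option linter.unusedSectionVars false
set_option linter.unusedVariables false

noncomputable section

namespace Fermat.Agent.S56.H57

open Fermat.Agent.S53 IsLocalRing CategoryTheory groupCohomology ExtCitation Module
  Fermat.Agent.S56.Dict Fermat.Agent.S56.Dict.H85
open scoped TensorProduct

section Local

variable (p : ℕ) [Fact p.Prime] {k : Type} [Field k] [CharP k p] (ρbar : ResidualGaloisRep k)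

/-- The underlying endomorphism of an element of the local representation `ad⁰ ρbar`. -/
def locVal : (locRep (ad0 ρbar) (pPrime p)).V →ₗ[k] Module.End k ρbar.V :=
  ad0Val ρbar

theorem locVal_injective : Function.Injective (locVal p ρbar) :=
  Subtype.val_injective

theorem locVal_ρ (s : primeLocalGaloisGroup (pPrime p)) (f : (locRep (ad0 ρbar) (pPrime p)).V) :
    locVal p ρbar ((locRep (ad0 ρbar) (pPrime p)).ρ s f) =
      ρbar.ρ (primeLocalToGlobal (pPrime p) s) ∘ₗ locVal p ρbar f ∘ₗ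
        ρbar.ρ (primeLocalToGlobal (pPrime p) s)⁻¹ := rfl

/-- an element of the local `ad⁰` from a trace-zero endomorphism -/
def locMk (f : Module.End k ρbar.V) (hf : LinearMap.trace k ρbar.V f = 0) :
    (locRep (ad0 ρbar) (pPrime p)).V :=
  (⟨f, hf⟩ : ad0Sub ρbar)

@[simp] theorem locVal_locMk (f : Module.End k ρbar.V) (hf : LinearMap.trace k ρbar.V f = 0) :
    locVal p ρbar (locMk p ρbar f hf) = f := rfl

theorem primeLocalToGlobal_mem (s : primeLocalGaloisGroup (pPrime p)) :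
    primeLocalToGlobal (pPrime p) s ∈ (padicPlace p).decompositionSubgroup ℚ :=
  localGaloisToGlobal_mem_decompositionSubgroup p s

end Local

section AbstractCoeff

variable {k G : Type} [Field k] [Group G] (M : Rep k G)

/-- the coefficient function of a cocycle with values in an eigenline is a crossed
homomorphism -/
theorem coeff_cocycle (n₀ : M) (hn₀ : n₀ ≠ 0) (ω c : G → k) (hω : ∀ s, M.ρ s n₀ = ω s • n₀)
    (f : G → M) (hf : ∀ s t, f (s * t) = M.ρ s (f t) + f s) (hc : ∀ s, f s = c s • n₀)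
    (s t : G) : c (s * t) = c s + ω s * c t := by
  have h := hf s t
  rw [hc, hc, hc, map_smul, hω, smul_smul, ← add_smul] at h
  have := smul_left_injective k hn₀ h
  rw [this]
  ring

/-- the coboundary of `h` satisfies the cocycle identity -/
theorem coboundary_cocycle (h : M) (s t : G) :
    M.ρ (s * t) h - h = M.ρ s (M.ρ t h - h) + (M.ρ s h - h) := by
  rw [map_mul, Module.End.mul_apply, map_sub]
  abel

end AbstractCoeff

section Bound

variable (p : ℕ) [Fact p.Prime] {k : Type} [Field k] [CharP k p] (ρbar : ResidualGaloisRep k)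
  (b : Basis (Fin 2) k ρbar.V)

/-- The level-constant cocycles of `G_{ℚ_p}` with values in the line `k n₀`. -/
def lineCocycles : Submodule k (cocycles₁ (locRep (ad0 ρbar) (pPrime p))) where
  carrier := {C | IsLevelConstant₁ (primeLocalToGlobal (pPrime p))
      (C : primeLocalGaloisGroup (pPrime p) → (locRep (ad0 ρbar) (pPrime p))) ∧
    ∀ s, NV (b 0) (locVal p ρbar (C s))}
  add_mem' := by
    intro C C' hC hC'
    refine ⟨IsLevelConstant₁.add hC.1 hC'.1, fun s => ?_⟩
    have e : (C + C' : cocycles₁ (locRep (ad0 ρbar) (pPrime p))) s = C s + C' s := rfl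
    rw [e, map_add]
    exact (hC.2 s).add (hC'.2 s)
  zero_mem' := by
    refine ⟨⟨⊥, inferInstance, fun _ _ _ => rfl⟩, fun s => ?_⟩
    have e : locVal p ρbar ((0 : cocycles₁ (locRep (ad0 ρbar) (pPrime p))) s) = 0 := rfl
    rw [e]
    exact NV.zero _
  smul_mem' := by
    intro a C hC
    refine ⟨hC.1.comp (fun m => a • m), fun s => ?_⟩
    have e : (a • C : cocycles₁ (locRep (ad0 ρbar) (pPrime p))) s = a • C s := rfl
    rw [e, map_smul]
    exact (hC.2 s).smul a

theorem mem_lineCocycles (C : cocycles₁ (locRep (ad0 ρbar) (pPrime p))) :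
    C ∈ lineCocycles p ρbar b ↔ IsLevelConstant₁ (primeLocalToGlobal (pPrime p))
      (C : primeLocalGaloisGroup (pPrime p) → (locRep (ad0 ρbar) (pPrime p))) ∧
    ∀ s, NV (b 0) (locVal p ρbar (C s)) := Iff.rfl

theorem two_ne_zero_of_odd (hp2 : p ≠ 2) : (2 : k) ≠ 0 := by
  intro h
  have h' : ((2 : ℕ) : k) = 0 := by exact_mod_cast h
  rw [CharP.cast_eq_zero_iff k p] at h'
  exact hp2 ((Nat.prime_dvd_prime_iff_eq (Fact.out : p.Prime) Nat.prime_two).1 h')

/-- the local cyclotomic character -/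
def omegaLoc (k : Type) [Field k] [CharP k p] (s : primeLocalGaloisGroup (pPrime p)) : k :=
  omegaK p k (primeLocalToGlobal (pPrime p) s)

/-- the coefficient of the coboundary of `h` -/
def chLoc (s : primeLocalGaloisGroup (pPrime p)) : k :=
  chF ρbar b (primeLocalToGlobal (pPrime p) s)

theorem isKummerCocycle_of (c : primeLocalGaloisGroup (pPrime p) → k)
    (h1 : ∀ s t, c (s * t) = c s + omegaLoc p k s * c t)
    (h2 : IsLevelConstant₁ (primeLocalToGlobal (pPrime p)) c) : IsKummerCocycle p k c :=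
  ⟨h1, h2⟩

theorem isKummerCocycle_mul (c : primeLocalGaloisGroup (pPrime p) → k)
    (h : IsKummerCocycle p k c) (s t : primeLocalGaloisGroup (pPrime p)) :
    c (s * t) = c s + omegaLoc p k s * c t :=
  h.1 s t

theorem kummer_span (hK : Stmt_localKummer) (hp2 : p ≠ 2) [Finite k] :
    ∃ u₁ u₂ : primeLocalGaloisGroup (pPrime p) → k,
      IsKummerCocycle p k u₁ ∧ IsKummerCocycle p k u₂ ∧
      ∀ c : primeLocalGaloisGroup (pPrime p) → k, IsKummerCocycle p k c →
        ∃ a b d : k, ∀ s, c s = a * u₁ s + b * u₂ s + d * (omegaLoc p k s - 1) :=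
  hK p hp2 k

theorem chLoc_levelConstant :
    IsLevelConstant₁ (primeLocalToGlobal (pPrime p)) (chLoc p ρbar b) := by
  obtain ⟨F, hF, hFρ⟩ := ρbar.factorsThroughFiniteLevel
  refine ⟨F, hF, fun g s hs => ?_⟩
  have h1 : ρbar.ρ (primeLocalToGlobal (pPrime p) s) = 1 :=
    hFρ _ fun x hx => (IntermediateField.mem_fixingSubgroup_iff F _).1 hs x hx
  unfold chLoc chF
  rw [map_mul, map_mul, h1, mul_one]

/-- **The bound** `dim W ≤ h⁰ + 1`. -/
theorem lineCocycles_bound (hK : Stmt_localKummer) (hp2 : p ≠ 2) [Finite k]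
    (hline : IsSOLine p ρbar (padicPlace p) (b 0)) :
    Module.Finite k ((lineCocycles p ρbar b).map (H1π (locRep (ad0 ρbar) (pPrime p))).hom) ∧
      finrank k ((lineCocycles p ρbar b).map (H1π (locRep (ad0 ρbar) (pPrime p))).hom)
        ≤ finrank k (locRep (ad0 ρbar) (pPrime p)).ρ.invariants + 1 := by
  obtain ⟨u₁, u₂, hu₁, hu₂, hspan⟩ := kummer_span p hK hp2 (k := k)
  have h2 : (2 : k) ≠ 0 := two_ne_zero_of_odd p hp2
  have : FiniteDimensional k (locRep (ad0 ρbar) (pPrime p)) := by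
    change FiniteDimensional k (ad0Sub ρbar)
    infer_instance
  obtain ⟨n₀, hn₀⟩ : ∃ n₀, n₀ = locMk p ρbar (nEnd b) (trace_nEnd b) := ⟨_, rfl⟩
  obtain ⟨h, hh⟩ : ∃ h, h = locMk p ρbar (hEnd b) (trace_hEnd b ρbar.finrank_eq) := ⟨_, rfl⟩
  have hvn : locVal p ρbar n₀ = nEnd b := by rw [hn₀]; rfl
  have hvh : locVal p ρbar h = hEnd b := by rw [hh]; rfl
  have hn₀ne : n₀ ≠ 0 := by
    intro h0
    apply nEnd_ne_zero b
    rw [← hvn, h0, map_zero]
  have hω : ∀ s, (locRep (ad0 ρbar) (pPrime p)).ρ s n₀ = omegaLoc p k s • n₀ := by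
    intro s
    apply locVal_injective p ρbar
    rw [locVal_ρ, map_smul, hvn]
    exact conj_nEnd hline _ (primeLocalToGlobal_mem p s)
  have hhh : ∀ s, (locRep (ad0 ρbar) (pPrime p)).ρ s h - h = chLoc p ρbar b s • n₀ := by
    intro s
    apply locVal_injective p ρbar
    rw [map_sub, locVal_ρ, map_smul, hvn, hvh]
    exact conj_hEnd hline _ (primeLocalToGlobal_mem p s)
  have hind : ∀ d : k, h ≠ d • n₀ := by
    intro d hd
    apply hEnd_ne_smul_nEnd b h2 d
    have := congrArg (locVal p ρbar) hd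
    rwa [map_smul, hvn, hvh] at this
  have hch : IsKummerCocycle p k (chLoc p ρbar b) :=
    isKummerCocycle_of p _
      (coeff_cocycle (locRep (ad0 ρbar) (pPrime p)) n₀ hn₀ne (omegaLoc p k) (chLoc p ρbar b) hω
        (fun s => (locRep (ad0 ρbar) (pPrime p)).ρ s h - h)
        (fun s t => coboundary_cocycle _ h s t) hhh)
      (chLoc_levelConstant p ρbar b)
  have h𝒞 : ∀ C ∈ lineCocycles p ρbar b, ∃ c : primeLocalGaloisGroup (pPrime p) → k,
      IsKummerCocycle p k c ∧ ∀ s, (C : primeLocalGaloisGroup (pPrime p) →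
        (locRep (ad0 ρbar) (pPrime p))) s = c s • n₀ := by
    intro C hC
    have hCc : ∀ s, (C : primeLocalGaloisGroup (pPrime p) →
        (locRep (ad0 ρbar) (pPrime p))) s
          = (b.coord 0 (locVal p ρbar (C s) (b 1))) • n₀ := by
      intro s
      apply locVal_injective p ρbar
      rw [map_smul, hvn]
      exact eq_smul_nEnd_of_NV b _ (hC.2 s)
    refine ⟨fun s => b.coord 0 (locVal p ρbar (C s) (b 1)), ?_, hCc⟩
    exact isKummerCocycle_of p _
      (coeff_cocycle (locRep (ad0 ρbar) (pPrime p)) n₀ hn₀ne (omegaLoc p k) _ hω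
        (C : primeLocalGaloisGroup (pPrime p) → (locRep (ad0 ρbar) (pPrime p)))
        (fun s t => (mem_cocycles₁_iff _).1 C.2 s t) hCc)
      (hC.1.comp (fun m => b.coord 0 (locVal p ρbar m (b 1))))
  exact finrank_map_le_of_line n₀ h (omegaLoc p k) (chLoc p ρbar b) u₁ u₂ hω hhh hind
    (IsKummerCocycle p k) (isKummerCocycle_mul p u₁ hu₁) (isKummerCocycle_mul p u₂ hu₂)
    hspan hch (lineCocycles p ρbar b) h𝒞

end Bound

section Final

theorem exists_end_trace_zero {k : Type} [Field k] {V : Type} [AddCommGroup V] [Module k V]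
    (hV : finrank k V = 2) (v₀ : V) (hv₀ : v₀ ≠ 0) (v₁ : V) :
    ∃ m : Module.End k V, m v₀ = v₁ ∧ LinearMap.trace k V m = 0 := by
  obtain ⟨b, hb⟩ := exists_basis_of_ne_zero hV v₀ hv₀
  have : Module.Finite k V := Module.Finite.of_basis b
  refine ⟨(b.coord 0).smulRight v₁ - (b.coord 0 v₁) • (b.coord 1).smulRight (b 1), ?_, ?_⟩
  · rw [← hb]
    simp
  · rw [map_sub, map_smul, LinearMap.trace_smulRight, LinearMap.trace_smulRight]
    simp

variable {𝒪 : Type} [CommRing 𝒪] [IsLocalRing 𝒪]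
variable {ρbar : ResidualGaloisRep (ResidueField 𝒪)} {𝒟 : Cond 𝒪}

theorem global_cocycle_levelConstant (x : TSub 𝒪 ρbar 𝒟) (c₀ : cocycles₁ (ad0 ρbar))
    (hc : IsCocycleOf x (fun σ => ad0Val ρbar ((c₀ : _root_.Fermat.Agent.S56.GQ → ad0 ρbar) σ))) :
    IsLevelConstant₁ (MonoidHom.id _root_.Fermat.Agent.S56.GQ) (c₀ : _root_.Fermat.Agent.S56.GQ → ad0 ρbar) := by
  obtain ⟨L, hL, hLle⟩ := exists_finite_le_ker x
  refine ⟨L, hL, fun g s hs => ?_⟩
  have hs' : s ∈ (x.1.ρ).ker := hLle hs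
  have hcs : (c₀ : _root_.Fermat.Agent.S56.GQ → ad0 ρbar) s = 0 := by
    have := cocycle_eq_zero_of_mem_ker x _ hc s hs'
    exact Subtype.ext this
  have hcoc := (mem_cocycles₁_iff (c₀ : _root_.Fermat.Agent.S56.GQ → ad0 ρbar)).mp c₀.2 g s
  rw [hcoc, hcs, map_zero, zero_add]

theorem coboundary_levelConstant (ρbar : ResidualGaloisRep (ResidueField 𝒪)) (m₀ : ad0 ρbar) :
    IsLevelConstant₁ (MonoidHom.id _root_.Fermat.Agent.S56.GQ) ((d₀₁ (ad0 ρbar)).hom m₀ : _root_.Fermat.Agent.S56.GQ → ad0 ρbar) := by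
  obtain ⟨F, hF, hFρ⟩ := ρbar.factorsThroughFiniteLevel
  refine ⟨F, hF, fun g s hs => ?_⟩
  have h1 : ρbar.ρ s = 1 :=
    hFρ s fun y hy => (IntermediateField.mem_fixingSubgroup_iff F s).1 hs y hy
  have h2 : (ad0 ρbar).ρ s = 1 := H47.ad0_ρ_eq_one ρbar s h1
  rw [d₀₁_hom_apply, d₀₁_hom_apply, map_mul, h2, mul_one]

/-- **Leaf LOC-p-SO**, from the local Kummer bound. -/
theorem stmt_loc_p_SO_of_kummer (hK : Stmt_localKummer) : Stmt_loc_p_SO := by
  intro 𝒪 _ _ _ _ _ p _ ρbar S Smin hyp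
  have hchar : CharP (ResidueField 𝒪) p := charP_residueField p hyp.hp𝒪
  have hP := H59.padicPlace_liesOverPrime p
  have hp2 := hyp.hp2
  by_cases hex : ∃ v₀ : ρbar.V, IsSOLine p ρbar (padicPlace p) v₀
  · obtain ⟨v₀, hv₀⟩ := hex
    obtain ⟨b, hb⟩ := exists_basis_of_ne_zero ρbar.finrank_eq v₀ hv₀.1
    have hline : IsSOLine p ρbar (padicPlace p) (b 0) := by rw [hb]; exact hv₀
    obtain ⟨hfin, hrank⟩ := lineCocycles_bound p ρbar b hK hp2 hline
    refine ⟨(lineCocycles p ρbar b).map (H1π (locRep (ad0 ρbar) (pPrime p))).hom, ?_, hfin,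
      hrank, ?_⟩
    · rintro _ ⟨C, hC, rfl⟩
      exact H1π_mem_continuousH1 _ _ hC.1
    · intro T x ξ hξ
      obtain ⟨c₀, hcoc, rfl⟩ := hξ
      obtain ⟨θ, hθ⟩ := hcoc
      have hcond : GaloisRep.strictOrdinaryCondition 𝒪 p (Smin ∪ T) x.1 := x.2.1.1
      obtain ⟨v₀', v₁, hl', hshape⟩ := exists_shape p hp2 ρbar x.1
        (fun σ => ad0Val ρbar ((c₀ : _root_.Fermat.Agent.S56.GQ → ad0 ρbar) σ)) θ hθ hcond.1 hcond.2.1 (padicPlace p) hP
      obtain ⟨t, ht⟩ := soLine_unique p ρbar hp2 (padicPlace p) hP (b 0) v₀' hline hl'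
      obtain ⟨m, hm0, hmtr⟩ := exists_end_trace_zero ρbar.finrank_eq v₀' hl'.1 v₁
      obtain ⟨m₀, hm₀⟩ : ∃ m₀ : ad0 ρbar, ad0Val ρbar m₀ = m :=
        ⟨(⟨m, hmtr⟩ : ad0Sub ρbar), rfl⟩
      obtain ⟨c', hc'⟩ : ∃ c' : cocycles₁ (ad0 ρbar), c' = c₀ +
          ⟨(d₀₁ (ad0 ρbar)).hom m₀, d₀₁_apply_mem_cocycles₁ m₀⟩ := ⟨_, rfl⟩
      have hcl : (H1π (ad0 ρbar)).hom c' = (H1π (ad0 ρbar)).hom c₀ := by
        rw [hc', map_add]
        have : (H1π (ad0 ρbar)).hom
            (⟨(d₀₁ (ad0 ρbar)).hom m₀, d₀₁_apply_mem_cocycles₁ m₀⟩ : cocycles₁ (ad0 ρbar)) = 0 :=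
          (H1π_eq_zero_iff _).2 ⟨m₀, rfl⟩
        rw [this, add_zero]
      have hfun : ∀ σ : _root_.Fermat.Agent.S56.GQ, (c' : _root_.Fermat.Agent.S56.GQ → ad0 ρbar) σ
          = (c₀ : _root_.Fermat.Agent.S56.GQ → ad0 ρbar) σ + (d₀₁ (ad0 ρbar)).hom m₀ σ := by
        intro σ
        rw [hc']
        rfl
      have hlev : IsLevelConstant₁ (MonoidHom.id _root_.Fermat.Agent.S56.GQ) (c' : _root_.Fermat.Agent.S56.GQ → ad0 ρbar) := by
        have h1 := global_cocycle_levelConstant x c₀ ⟨θ, hθ⟩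
        have h2 := coboundary_levelConstant ρbar m₀
        have h3 := h1.add h2
        have e : (c' : _root_.Fermat.Agent.S56.GQ → ad0 ρbar)
            = (c₀ : _root_.Fermat.Agent.S56.GQ → ad0 ρbar) + ((d₀₁ (ad0 ρbar)).hom m₀ : _root_.Fermat.Agent.S56.GQ → ad0 ρbar) :=
          funext hfun
        rw [e]
        exact h3
      rw [← hcl, _root_.Fermat.Agent.S56.resAt_H1π]
      refine ⟨resCocycle (primeLocalToGlobal (pPrime p)) (ad0 ρbar) c', ⟨?_, ?_⟩, rfl⟩
      · exact isLevelConstant₁_resCocycle (primeLocalToGlobal (pPrime p)) hlev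
      · intro s
        have hs := primeLocalToGlobal_mem p s
        have hnv := hshape _ hs m hm0
        have hval : locVal p ρbar
            ((resCocycle (primeLocalToGlobal (pPrime p)) (ad0 ρbar) c' :
              primeLocalGaloisGroup (pPrime p) → locRep (ad0 ρbar) (pPrime p)) s)
            = ad0Val ρbar ((c₀ : _root_.Fermat.Agent.S56.GQ → ad0 ρbar) (primeLocalToGlobal (pPrime p) s))
              + ρbar.ρ (primeLocalToGlobal (pPrime p) s) ∘ₗ m ∘ₗ
                ρbar.ρ (primeLocalToGlobal (pPrime p) s)⁻¹ - m := by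
          show ad0Val ρbar ((c' : _root_.Fermat.Agent.S56.GQ → ad0 ρbar) (primeLocalToGlobal (pPrime p) s)) = _
          rw [hfun, map_add, ad0Val_d₀₁, hm₀, add_sub_assoc]
        rw [hval]
        exact NV.of_smul hline.1 hl'.1 t ht hnv
  · refine ⟨⊥, bot_le, inferInstance, ?_, ?_⟩
    · rw [finrank_bot]
      exact Nat.zero_le _
    · intro T x ξ hξ
      exfalso
      obtain ⟨c₀, hcoc, -⟩ := hξ
      obtain ⟨θ, hθ⟩ := hcoc
      have hcond : GaloisRep.strictOrdinaryCondition 𝒪 p (Smin ∪ T) x.1 := x.2.1.1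
      obtain ⟨v₀', v₁, hl', -⟩ := exists_shape p hp2 ρbar x.1
        (fun σ => ad0Val ρbar ((c₀ : _root_.Fermat.Agent.S56.GQ → ad0 ρbar) σ)) θ hθ hcond.1 hcond.2.1 (padicPlace p) hP
      exact hex ⟨v₀', hl'⟩

/-- **Leaf LOC-p-SO.** Strict ordinary at `p`: `dim L_p ≤ h⁰ + 1`. -/
theorem stmt_loc_p_SO : Stmt_loc_p_SO :=
  stmt_loc_p_SO_of_kummer Fermat.Agent.S56.H9.stmt_localKummer

end Final

end Fermat.Agent.S56.H57

end

end
-- ==== END Fermat.Agent.S56.H57_LocPSO

-- ==== BEGIN Fermat.Agent.S56.TWS.Final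
section

set_option autoImplicit false

/-!
# TW-SELECT: final statement (helper74, assembly)

`stmt_TW_select : Stmt_TW_select`, unconditional.  Contributors: helper1 (TWS-C, TWS-E, averaging),
helper13 (D-loc), helper27 (TWS-C2, translation), helper59 (TWS-C1, TWS-B), helper64 (TWS-D, N34),
helper74 (plan, matrix layer of TWS-A), helper47 (Frobenius density bridge).
-/

namespace Fermat.Agent.S56.TWS

/-- **TWS-A**: `H¹(ρbar(G_ℚ), ad⁰ ρbar (1)) = 0`. -/
theorem stmt_H1_image : Stmt_H1_image := H27.stmt_H1_image_of H74.stmt_H1_matrix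

/-- **TWS-B**. -/
theorem stmt_levKer : Stmt_levKer := H59.stmt_levKer_of stmt_H1_image

/-- **TWS-C**. -/
theorem stmt_select : Stmt_select :=
  H01.stmt_select_of stmt_levKer H59.stmt_distinct H27.stmt_irred

/-- **TWS-CD**. -/
theorem stmt_core : Stmt_core := stmt_core_of stmt_select H64.stmt_prime

/-- **TW-SELECT**, unconditional. -/
theorem stmt_TW_select : Stmt_TW_select := H01.stmt_TW_select_of stmt_core

end Fermat.Agent.S56.TWS

end
-- ==== END Fermat.Agent.S56.TWS.Final
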