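-- GENERATED (merged mirror, NOTES/tools/trim/merge3_helper67.py): 7 modules of the originals, bodies verbatim.
import Fermat.Agent.Zm.S56_L14_000
import Fermat.Agent.Zm.S56_L12_007
import Fermat.Agent.Zm.S56_L10_003
import Fermat.Agent.Zm.S56_L07_002
import Fermat.Agent.Zm.S56_L12_000
import Fermat.Agent.Zm.S56_L14_004
import Fermat.Agent.Zm.S56_L11_002
import Fermat.Agent.Zm.S56_L04_003
import Fermat.Agent.Zm.S56_L14_002
import Fermat.Agent.Zm.S56_L10_002
import Fermat.Agent.Zm.S56_L03_004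
import Fermat.Agent.Zm.S56_L14_005
import Fermat.Agent.Zm.S56_L12_001
import Fermat.Agent.Zm.S56_L13_002

-- ==== BEGIN Fermat.Agent.S56.EC.H50_Kum
section

set_option autoImplicit false
set_option linter.style.haveILetI false
set_option linter.unusedSectionVars false
set_option linter.unusedVariables false

/-!
# Cluster T / S56, GW-CORE, package EC, leaf KUM (helper50): Kummer theory at level `S`

`L/ℚ` finite Galois inside `ℚ̄`, unramified outside `S ∋ p`, `ζ_p ∈ L`.  The Kummer map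
`κ : O_{L,S}ˣ / p → Hom_S(G_L, 𝔽_p)`, `σ(u^{1/p}) = ζ^{κ_u(σ)} u^{1/p}`: injective, equivariant,
onto if `Cl_S(L) = 1`.  Built on helper24's `kum` (`S55/CFT/GS/H24_KummerH1.lean`), helper6's
Hilbert 90 at level `S`, helper19's valuation sequence and the bridge `H50_KumBridge.lean`.
-/

open scoped NumberField

noncomputable section

namespace Fermat.Agent.S56.EC.H50

open Fermat.Agent.S55 Fermat.Agent.S55.Top Fermat.Agent.S55.CFT Fermat.Agent.S55.CFT.GS
  ExtCitation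

local notation "Qb" => AlgebraicClosure ℚ

attribute [local instance] numberField_L

section kum

variable {p : ℕ} [Fact p.Prime] {S : Finset Nat.Primes} {L : IntermediateField ℚ Qb}
  {ζ : Qbˣ} (hζ : IsPrimitiveRoot ζ p)

/-- The Kummer character only depends on the `p`-th power. -/
theorem kum_congr (hζL : ζ ∈ H24.KxS L) {t t' : Qbˣ} (ht : t ^ p ∈ H24.KxS L)
    (h : t' ^ p = t ^ p) : (H24.kum hζ t' : ↥L.fixingSubgroup → ZMod p) = H24.kum hζ t := by
  have hz : (t' / t) ^ p = 1 := by rw [div_pow, h, div_self']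
  obtain ⟨a, ha⟩ := H24.exists_zp hζ hz
  have hzL : t' / t ∈ H24.KxS L := by
    rw [← ha]
    exact (H24.KxS L).pow_mem hζL _
  have hzp : (t' / t) ^ p ∈ H24.KxS L := (H24.KxS L).pow_mem hzL p
  have h1 : t' = t * (t' / t) := by rw [mul_div_cancel]
  rw [h1, H24.kum_mul hζ ht hzp, (H24.kum_eq_zero_iff hζ hzp).mpr hzL, add_zero]

/-- The action of `G_ℚ` on `p`-th roots of unity. -/
theorem map_zeta_eq {ξ : Qbˣ} (hξ : ξ ^ p = 1) (g : _root_.Fermat.Agent.S56.GQ) :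
    g (ξ : Qb) = (ξ : Qb) ^ ((cycloChar p g : (ZMod p)ˣ) : ZMod p).val := by
  haveI : NeZero p := ⟨(Fact.out : p.Prime).ne_zero⟩
  have hu : ξ ∈ rootsOfUnity p Qb := by
    rw [mem_rootsOfUnity]
    exact hξ
  exact modularCyclotomicCharacter.spec (L := Qb) (n := p) (card_rootsOfUnity_eq_self p)
    (g : Qb ≃+* Qb) hu

end kum

section conj

variable {p : ℕ} [Fact p.Prime] {S : Finset Nat.Primes} {L : IntermediateField ℚ Qb}
  [Normal ℚ L] {ζ : Qbˣ} (hζ : IsPrimitiveRoot ζ p)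

theorem resL_coe (g : _root_.Fermat.Agent.S56.GQ) (x : ↥L) : ((_root_.Fermat.Agent.S56.EC.resL L g x : ↥L) : Qb) = g (x : Qb) :=
  AlgEquiv.restrictNormal_commutes g L x

/-- `G_ℚ` maps `L` into `L`. -/
theorem map_mem_L (g : _root_.Fermat.Agent.S56.GQ) {x : Qb} (hx : x ∈ L) : g x ∈ L := by
  have h := resL_coe (L := L) g ⟨x, hx⟩
  rw [← h]
  exact Subtype.mem _

theorem smul_mem_KxS (g : _root_.Fermat.Agent.S56.GQ) {a : Qbˣ} (ha : a ∈ H24.KxS L) : g • a ∈ H24.KxS L :=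
  map_mem_L (L := L) g ha

/-- Conjugation of the Kummer character. -/
theorem kum_conj (hζL : ζ ∈ H24.KxS L) {t : Qbˣ} (ht : t ^ p ∈ H24.KxS L) (g : _root_.Fermat.Agent.S56.GQ)
    (σ : ↥L.fixingSubgroup) :
    H24.kum hζ (g • t) (conjL L g σ) =
      ((cycloChar p g : (ZMod p)ˣ) : ZMod p) * H24.kum hζ t σ := by
  have htg : (g • t) ^ p ∈ H24.KxS L := by
    rw [← smul_pow']
    exact smul_mem_KxS g ht
  rw [H24.kum_eq_iff hζ htg]
  have hk := H24.kum_spec hζ ht σ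
  have h1 : (conjL L g σ) • (g • t) = g • (σ • t) := by
    apply Units.ext
    show (g * (σ : _root_.Fermat.Agent.S56.GQ) * g⁻¹) (g (t : Qb)) = g ((σ : _root_.Fermat.Agent.S56.GQ) (t : Qb))
    rw [AlgEquiv.mul_apply, AlgEquiv.mul_apply]
    congr 2
    exact (g.symm_apply_apply (t : Qb))
  have h2 : g • ζ = ζ ^ ((cycloChar p g : (ZMod p)ˣ) : ZMod p).val := by
    apply Units.ext
    rw [Units.val_pow_eq_pow_val]
    exact map_zeta_eq hζ.pow_eq_one g
  rw [h1, ← smul_div', ← hk, smul_pow', h2]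
  have h3 := H24.zp_nsmul (ζ := ζ) hζ.pow_eq_one
    ((cycloChar p g : (ZMod p)ˣ) : ZMod p).val (H24.kum hζ t σ)
  rw [ZMod.natCast_zmod_val] at h3
  rw [h3, ← pow_mul, ← pow_mul, mul_comm]

end conj

section roots

variable (p : ℕ) [Fact p.Prime] (L : IntermediateField ℚ Qb)

/-- The embedding `Lˣ → ℚ̄ˣ`. -/
def phiL : (↥L)ˣ →* Qbˣ := Units.map ((algebraMap ↥L Qb : ↥L →+* Qb) : ↥L →* Qb)

theorem phiL_coe (x : (↥L)ˣ) : ((phiL L x : Qbˣ) : Qb) = ((x : ↥L) : Qb) := rfl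

theorem phiL_injective : Function.Injective (phiL L) :=
  Units.map_injective (algebraMap ↥L Qb).injective

theorem phiL_mem (x : (↥L)ˣ) : phiL L x ∈ H24.KxS L := (x : ↥L).2

theorem exists_phiL_eq {a : Qbˣ} (ha : a ∈ H24.KxS L) : ∃ x : (↥L)ˣ, phiL L x = a := by
  have h0 : (⟨(a : Qb), ha⟩ : ↥L) ≠ 0 := fun h => a.ne_zero (congrArg Subtype.val h)
  exact ⟨Units.mk0 ⟨(a : Qb), ha⟩ h0, Units.ext rfl⟩

set_option synthInstance.maxHeartbeats 400000 in
theorem phiL_smul [Normal ℚ L] (g : _root_.Fermat.Agent.S56.GQ) (u : (↥L)ˣ) : phiL L (_root_.Fermat.Agent.S56.EC.resL L g • u) = g • phiL L u := by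
  apply Units.ext
  exact resL_coe g (u : ↥L)

/-- A `p`-th root. -/
theorem exists_root (a : Qbˣ) : ∃ t : Qbˣ, t ^ p = a := by
  have hp : p.Prime := Fact.out
  obtain ⟨t, ht⟩ := IsAlgClosed.exists_pow_nat_eq (a : Qb) hp.pos
  have ht0 : t ≠ 0 := by
    rintro rfl
    rw [zero_pow hp.ne_zero] at ht
    exact a.ne_zero ht.symm
  exact ⟨Units.mk0 t ht0, Units.ext (by rw [Units.val_pow_eq_pow_val]; exact ht)⟩

/-- A chosen `p`-th root of `u ∈ Lˣ`. -/
def rt (u : (↥L)ˣ) : Qbˣ := (exists_root p (phiL L u)).choose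

theorem rt_pow (u : (↥L)ˣ) : rt p L u ^ p = phiL L u := (exists_root p (phiL L u)).choose_spec

end roots

section kumL

variable {p : ℕ} [Fact p.Prime] {S : Finset Nat.Primes} {L : IntermediateField ℚ Qb}
  {ζ : Qbˣ} (hζ : IsPrimitiveRoot ζ p)

/-- The Kummer character of `u ∈ Lˣ`. -/
def kumL (u : (↥L)ˣ) : ↥L.fixingSubgroup → ZMod p := H24.kum hζ (rt p L u)

theorem pow_mem_of_eq {t : Qbˣ} {u : (↥L)ˣ} (ht : t ^ p = phiL L u) : t ^ p ∈ H24.KxS L := by
  rw [ht]; exact phiL_mem L u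

theorem kumL_eq (hζL : ζ ∈ H24.KxS L) (u : (↥L)ˣ) {t : Qbˣ} (ht : t ^ p = phiL L u) :
    kumL hζ u = H24.kum hζ t :=
  kum_congr hζ hζL (pow_mem_of_eq ht) ((rt_pow p L u).trans ht.symm)

theorem kumL_mul (hζL : ζ ∈ H24.KxS L) (u v : (↥L)ˣ) :
    kumL hζ (u * v) = kumL hζ u + kumL hζ v := by
  have h : (rt p L u * rt p L v) ^ p = phiL L (u * v) := by
    rw [mul_pow, rt_pow, rt_pow, map_mul]
  rw [kumL_eq hζ hζL (u * v) h,
    H24.kum_mul hζ (pow_mem_of_eq (rt_pow p L u)) (pow_mem_of_eq (rt_pow p L v))]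
  rfl

theorem kumL_eq_zero_iff (hζL : ζ ∈ H24.KxS L) (u : (↥L)ˣ) :
    kumL hζ u = 0 ↔ ∃ c : (↥L)ˣ, c ^ p = u := by
  constructor
  · intro h
    have h1 := (H24.kum_eq_zero_iff hζ (pow_mem_of_eq (rt_pow p L u))).mp h
    obtain ⟨c, hc⟩ := exists_phiL_eq L h1
    refine ⟨c, phiL_injective L ?_⟩
    rw [map_pow, hc, rt_pow]
  · rintro ⟨c, rfl⟩
    have h : (phiL L c) ^ p = phiL L (c ^ p) := by rw [map_pow]
    rw [kumL_eq hζ hζL (c ^ p) h]
    exact (H24.kum_eq_zero_iff hζ (pow_mem_of_eq h)).mpr (phiL_mem L c)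

theorem kumL_map_mul (hζL : ζ ∈ H24.KxS L) (u : (↥L)ˣ) (σ τ : ↥L.fixingSubgroup) :
    kumL hζ u (σ * τ) = kumL hζ u σ + kumL hζ u τ := by
  have h := H24.kum_tOne hζ (pow_mem_of_eq (rt_pow p L u)) hζL
  have h1 := congrFun h (σ, τ)
  simp only [tOne, Pi.zero_apply] at h1
  unfold kumL
  linear_combination -h1

theorem kumL_level (hpS : pPrime p ∈ S) (hLS : L.IsUnramifiedOutside S)
    [FiniteDimensional ℚ L] {u : (↥L)ˣ} (hu : u ∈ TUnits ↥L S) :
    IsLevK₁ S L (kumL hζ u) := by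
  refine H24.kum_level hζ (pow_mem_of_eq (rt_pow p L u)) ?_
  exact H24.inOm_root hpS hLS (u := phiL L u) (phiL_mem L u)
    (fun q hq A hA => val_eq_one_of_mem_tUnits hu q hq A hA) (rt_pow p L u)

set_option synthInstance.maxHeartbeats 400000 in
theorem kumL_conj [Normal ℚ L] (hζL : ζ ∈ H24.KxS L) (g : _root_.Fermat.Agent.S56.GQ) (u : (↥L)ˣ)
    (σ : ↥L.fixingSubgroup) :
    kumL hζ (_root_.Fermat.Agent.S56.EC.resL L g • u) (conjL L g σ) =
      ((cycloChar p g : (ZMod p)ˣ) : ZMod p) * kumL hζ u σ := by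
  have h : (g • rt p L u) ^ p = phiL L (_root_.Fermat.Agent.S56.EC.resL L g • u) := by
    rw [← smul_pow', rt_pow, phiL_smul]
  rw [kumL_eq hζ hζL _ h]
  exact kum_conj hζ hζL (pow_mem_of_eq (rt_pow p L u)) g σ

end kumL

section main

variable {p : ℕ} [Fact p.Prime] {S : Finset Nat.Primes} {L : IntermediateField ℚ Qb}
  [Normal ℚ L] {ζ : Qbˣ} (hζ : IsPrimitiveRoot ζ p)

theorem kumL_one (hζL : ζ ∈ H24.KxS L) : kumL hζ (1 : (↥L)ˣ) = 0 :=
  (kumL_eq_zero_iff hζ hζL 1).mpr ⟨1, one_pow p⟩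

/-- The Kummer map on the `S`-units. -/
def kap0 (S : Finset Nat.Primes) (hζL : ζ ∈ H24.KxS L) :
    UnitsAdd S L →+ (↥L.fixingSubgroup → ZMod p) where
  toFun u := kumL hζ ((Additive.toMul u : ↥(TUnits ↥L S)) : (↥L)ˣ)
  map_zero' := kumL_one hζ hζL
  map_add' u v := kumL_mul hζ hζL _ _

theorem kap0_apply (hζL : ζ ∈ H24.KxS L) (u : UnitsAdd S L) :
    kap0 hζ S hζL u = kumL hζ ((Additive.toMul u : ↥(TUnits ↥L S)) : (↥L)ˣ) := rfl

theorem pPowers_le_ker (hζL : ζ ∈ H24.KxS L) : pPowers p S L ≤ (kap0 hζ S hζL).ker := by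
  rintro x ⟨y, rfl⟩
  rw [AddMonoidHom.mem_ker, kap0_apply]
  exact (kumL_eq_zero_iff hζ hζL _).mpr ⟨((Additive.toMul y : ↥(TUnits ↥L S)) : (↥L)ˣ), rfl⟩

/-- The Kummer map `κ : O_{L,S}ˣ / p → (G_L → 𝔽_p)`. -/
def kap (S : Finset Nat.Primes) (hζL : ζ ∈ H24.KxS L) :
    UmodP p S L →ₗ[ZMod p] (↥L.fixingSubgroup → ZMod p) :=
  (QuotientAddGroup.lift (pPowers p S L) (kap0 hζ S hζL)
    (pPowers_le_ker hζ hζL)).toZModLinearMap p

theorem kap_mk (hζL : ζ ∈ H24.KxS L) (u : UnitsAdd S L) :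
    kap hζ S hζL (QuotientAddGroup.mk u) =
      kumL hζ ((Additive.toMul u : ↥(TUnits ↥L S)) : (↥L)ˣ) := rfl

end main

/-- **Package KUM.** -/
theorem stmt_KUM : Stmt_KUM := by
  intro p _ S hpS L _ _ hL
  have hp : p.Prime := Fact.out
  obtain ⟨hLS, ζ₀, hζ₀L, hζ₀⟩ := id hL
  have hζ₀0 : ζ₀ ≠ 0 := hζ₀.ne_zero hp.ne_zero
  obtain ⟨ζ, rfl⟩ : ∃ ζ : Qbˣ, (ζ : Qb) = ζ₀ := ⟨Units.mk0 ζ₀ hζ₀0, rfl⟩
  have hζ : IsPrimitiveRoot ζ p := IsPrimitiveRoot.coe_units_iff.mp hζ₀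
  have hζL : ζ ∈ H24.KxS L := hζ₀L
  refine ⟨kap hζ S hζL, ?_, ?_, ?_, ?_⟩
  · -- injectivity
    rw [injective_iff_map_eq_zero]
    intro x hx
    induction x using QuotientAddGroup.induction_on with
    | H u =>
      rw [kap_mk] at hx
      obtain ⟨c, hc⟩ := (kumL_eq_zero_iff hζ hζL _).mp hx
      have hcT : c ∈ TUnits ↥L S :=
        mem_tUnits_of_pow_mem hp.ne_zero (by rw [hc]; exact (Additive.toMul u).2)
      rw [QuotientAddGroup.eq_zero_iff]
      refine ⟨Additive.ofMul ⟨c, hcT⟩, ?_⟩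
      apply Additive.toMul.injective
      apply Subtype.ext
      exact hc
  · -- level `S` homomorphisms
    intro x
    induction x using QuotientAddGroup.induction_on with
    | H u =>
      rw [kap_mk]
      exact ⟨kumL_map_mul hζ hζL _, kumL_level hζ hpS hLS (Additive.toMul u).2⟩
  · -- equivariance
    intro g x σ
    induction x using QuotientAddGroup.induction_on with
    | H u =>
      exact kumL_conj hζ hζL g _ σ
  · -- surjectivity
    intro hcl h hh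
    have hZ : h ∈ Z1K (ZMod p) S L := by
      refine ⟨?_, hh.2⟩
      funext ⟨σ, τ⟩
      show h τ - h (σ * τ) + h σ = 0
      rw [hh.1 σ τ]
      ring
    obtain ⟨t, ht, hkt⟩ := H24.exists_kum_eq hζ H6.stmt_GS_H90 hLS hζL hZ
    have ht1 : InOm S (t : Qb) := (H24.mem_RS.mp ht).1
    have ht2 : t ^ p ∈ H24.KxS L := (H24.mem_RS.mp ht).2
    obtain ⟨a, ha⟩ := exists_phiL_eq L ht2
    have hta : (t : Qb) ^ p = (((a : (↥L)ˣ) : ↥L) : Qb) := by
      rw [← phiL_coe, ha, Units.val_pow_eq_pow_val]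
    obtain ⟨c, hc⟩ := exists_div_pow_mem_tUnits hLS hcl hp.ne_zero a ht1 hta
    refine ⟨QuotientAddGroup.mk (Additive.ofMul ⟨a / c ^ p, hc⟩), ?_⟩
    rw [kap_mk]
    have hroot : (t / phiL L c) ^ p = phiL L (a / c ^ p) := by
      rw [div_pow, map_div, map_pow, ha]
    have hcp : ((phiL L c)⁻¹) ^ p ∈ H24.KxS L :=
      (H24.KxS L).pow_mem ((H24.KxS L).inv_mem (phiL_mem L c)) p
    show kumL hζ (a / c ^ p) = h
    rw [kumL_eq hζ hζL _ hroot, div_eq_mul_inv, H24.kum_mul hζ ht2 hcp,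
      (H24.kum_eq_zero_iff hζ hcp).mpr ((H24.KxS L).inv_mem (phiL_mem L c)), add_zero, hkt]

end Fermat.Agent.S56.EC.H50

end

end
-- ==== END Fermat.Agent.S56.EC.H50_Kum

-- ==== BEGIN Fermat.Agent.S56.EC.H9_RSEC
section

/-!
# S56 / GW-CORE / EC, package RSEC (helper9): `Stmt_RSEC : Stmt_ECp → Stmt_EC`

Restriction of scalars `k → 𝔽_p` for Tate's Euler characteristic inequality.  `N` over `k` is
an `𝔽_p[G_ℚ]`-module `N₀ = GWC.H9.M0 p N` on the same type; `H¹_S`, `H²_S`, `H⁰`, `H⁰(ℝ, ·)` have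
the same cardinality for `N` and `N₀`, hence `dim_{𝔽_p} = [k : 𝔽_p] · dim_k` for each of them.
-/

set_option autoImplicit false
set_option linter.unusedSectionVars false
set_option linter.style.haveILetI false

noncomputable section

namespace Fermat.Agent.S56.EC.H9

open CategoryTheory groupCohomology ExtCitation Module
open Fermat.Agent Fermat.Agent.S56.GWC.H9

/-! ### `#H¹_S` as a relative index -/

section H1

variable {k : Type} [Field k] (S : Finset Nat.Primes) (X : Rep.{0} k S55.GQ)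

/-- Level-`S` 1-cocycles, as a submodule of functions. -/
def subZ1S : Submodule k (S55.GQ → X) := cocycles₁ X ⊓ levelCochainsS₁ S X

/-- 1-coboundaries, as a submodule of functions. -/
def subB1 : Submodule k (S55.GQ → X) := LinearMap.range (d₀₁ X).hom

lemma mem_subZ1S {b : S55.GQ → X} :
    b ∈ subZ1S S X ↔ S55.dOne X b = 0 ∧ IsLevelConstantS₁ S b := by
  unfold subZ1S
  rw [Submodule.mem_inf, S55.H48.mem_cocycles₁_iff_dOne]
  rfl

lemma mem_subB1 {b : S55.GQ → X} : b ∈ subB1 X ↔ ∃ m : X, S55.dZero X m = b := Iff.rfl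

/-- The class map `Z¹_S → H¹_S`. -/
def classMap : ↥(subZ1S S X) →ₗ[k] ↥(continuousH1S S X) :=
  LinearMap.codRestrict (continuousH1S S X)
    ((H1π X).hom ∘ₗ Submodule.inclusion (inf_le_left : subZ1S S X ≤ cocycles₁ X))
    (fun b => (mem_continuousH1S_iff S X _).2
      ⟨Submodule.inclusion (inf_le_left : subZ1S S X ≤ cocycles₁ X) b, b.2.2, rfl⟩)

lemma classMap_coe (b : ↥(subZ1S S X)) :
    ((classMap S X b : ↥(continuousH1S S X)) : H1 X) = (H1π X).hom ⟨b.1, b.2.1⟩ := rfl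

lemma classMap_surjective : Function.Surjective (classMap S X) := by
  rintro ⟨β, hβ⟩
  obtain ⟨c, hc, rfl⟩ := (mem_continuousH1S_iff S X β).1 hβ
  exact ⟨⟨c.1, c.2, hc⟩, Subtype.ext rfl⟩

lemma classMap_ker :
    LinearMap.ker (classMap S X) = (subB1 X).comap (subZ1S S X).subtype := by
  ext b
  rw [LinearMap.mem_ker, Submodule.mem_comap, ← Subtype.coe_inj, classMap_coe]
  refine (H1π_eq_zero_iff _).trans ?_
  rfl

/-- `#H¹_S(X) = [Z¹_S : B¹ ∩ Z¹_S]`. -/
theorem card_H1S_eq_relIndex :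
    Nat.card (continuousH1S S X) =
      (subB1 X).toAddSubgroup.relIndex (subZ1S S X).toAddSubgroup := by
  have e := LinearMap.quotKerEquivOfSurjective (classMap S X) (classMap_surjective S X)
  rw [← Nat.card_congr e.toEquiv]
  have h : Nat.card (↥(subZ1S S X) ⧸ LinearMap.ker (classMap S X)) =
      Nat.card (↥(subZ1S S X) ⧸ (subB1 X).comap (subZ1S S X).subtype) := by
    rw [classMap_ker]
  rw [h]
  rfl

end H1

/-! ### Transfer -/

section transfer

variable {k₁ k₂ : Type} [Field k₁] [Field k₂] (S : Finset Nat.Primes)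
  {A : Rep.{0} k₁ S55.GQ} {B : Rep.{0} k₂ S55.GQ} (e : A ≃+ B)
  (he : ∀ (g : S55.GQ) (a : A), e (A.ρ g a) = B.ρ g (e a))

include he

/-- `#H¹_S(A) = #H¹_S(B)`. -/
theorem card_H1S_eq : Nat.card (continuousH1S S A) = Nat.card (continuousH1S S B) := by
  rw [card_H1S_eq_relIndex, card_H1S_eq_relIndex]
  refine (relIndex_eq_of_addEquiv (AddEquiv.piCongrRight fun _ : S55.GQ => e) _ _ _ _ ?_ ?_).symm
  · intro x
    show (fun t => e (x t)) ∈ subB1 B ↔ x ∈ subB1 A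
    rw [mem_subB1, mem_subB1]
    constructor
    · rintro ⟨m, hm⟩
      refine ⟨e.symm m, ?_⟩
      funext g
      apply e.injective
      have h2 := congrFun (comp_dZero e he (e.symm m)) g
      rw [AddEquiv.apply_symm_apply] at h2
      rw [h2]
      exact congrFun hm g
    · rintro ⟨m, hm⟩
      refine ⟨e m, ?_⟩
      rw [← comp_dZero e he, hm]
  · intro x
    show (fun t => e (x t)) ∈ subZ1S S B ↔ x ∈ subZ1S S A
    rw [mem_subZ1S, mem_subZ1S, ← comp_dOne e he, comp_eq_zero_iff, levS₁_comp_iff]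

/-- `#H⁰(H, A) = #H⁰(H, B)` for the restriction along any `r : H → G_ℚ`. -/
theorem card_res_invariants_eq {H : Type} [Group H] (r : H →* S55.GQ) :
    Nat.card (Rep.res r A).ρ.invariants = Nat.card (Rep.res r B).ρ.invariants := by
  refine Nat.card_congr (e.toEquiv.subtypeEquiv fun a => ?_)
  rw [Representation.mem_invariants, Representation.mem_invariants]
  constructor
  · intro h g
    show B.ρ (r g) (e a) = e a
    rw [← he]
    exact congrArg e (h g)
  · intro h g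
    apply e.injective
    show e (A.ρ (r g) a) = e a
    rw [he]
    exact h g

end transfer

/-! ### Dimensions over `𝔽_p` and over `k` -/

section dims

variable (p : ℕ) [Fact p.Prime] (k : Type) [Field k] [Finite k] [CharP k p]

/-- `[k : 𝔽_p]`. -/
def deg : ℕ :=
  letI : Algebra (ZMod p) k := ZMod.algebra k p
  finrank (ZMod p) k

lemma card_k : Nat.card k = p ^ deg p k := by
  letI : Algebra (ZMod p) k := ZMod.algebra k p
  haveI : Module.Finite (ZMod p) k := Module.Finite.of_finite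
  have h := Module.natCard_eq_pow_finrank (K := ZMod p) (V := k)
  rw [Nat.card_zmod] at h
  exact h

lemma deg_pos : 0 < deg p k := by
  rcases Nat.eq_zero_or_pos (deg p k) with h | h
  · have h1 := card_k p k
    rw [h, pow_zero] at h1
    have h2 := Finite.one_lt_card (α := k)
    omega
  · exact h

/-- If `V` (over `k`, finite) and `V₀` (over `𝔽_p`) have the same cardinality, then
`dim_{𝔽_p} V₀ = [k : 𝔽_p] · dim_k V`. -/
lemma finrank_eq_deg_mul {V V₀ : Type*} [AddCommGroup V] [Module k V] [Finite V]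
    [AddCommGroup V₀] [Module (ZMod p) V₀] (h : Nat.card V = Nat.card V₀) :
    finrank (ZMod p) V₀ = deg p k * finrank k V := by
  haveI : Finite V₀ := by
    apply Nat.finite_of_card_ne_zero
    rw [← h]
    exact Nat.card_pos.ne'
  haveI : Module.Finite k V := Module.Finite.of_finite
  haveI : Module.Finite (ZMod p) V₀ := Module.Finite.of_finite
  have h1 := Module.natCard_eq_pow_finrank (K := k) (V := V)
  have h2 := Module.natCard_eq_pow_finrank (K := ZMod p) (V := V₀)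
  rw [Nat.card_zmod] at h2
  rw [card_k p k, ← pow_mul, h, h2] at h1
  exact Nat.pow_right_injective (Fact.out : p.Prime).two_le h1

end dims

/-- **Package RSEC.** -/
theorem stmt_RSEC : Stmt_RSEC := by
  intro hECp p _ hp2 k _ _ _ N _ hsm Sg hpS hur hH2
  haveI := finiteDimensional_M0 p N
  haveI hNfin : Finite N := finite_M N
  have hHyp : S55.Hyp p Sg (M0 p N) :=
    { hp2 := hp2
      hpS := hpS
      fin := inferInstance
      hsm := fun m => hsm m
      hMur := fun q hq A hA g hg => by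
        apply LinearMap.ext
        intro m
        exact congrArg (fun f : Module.End k N => f m) (hur q hq A hA g hg) }
  have hLev := S55.H48.stmt_lev p Sg (M0 p N) hHyp
  have hE := hECp p hp2 Sg hpS (M0 p N) hLev
  have T1 : Nat.card (continuousH1S Sg N) = Nat.card (continuousH1S Sg (M0 p N)) :=
    card_H1S_eq Sg (idEquiv p N) (idEquiv_equivariant p N)
  have T2 : Nat.card (continuousH2S Sg N) = Nat.card (continuousH2S Sg (M0 p N)) :=
    card_H2S_eq Sg (idEquiv p N) (idEquiv_equivariant p N)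
  have T3 : Nat.card N.ρ.invariants = Nat.card (M0 p N).ρ.invariants :=
    card_invariants_eq (idEquiv p N) (idEquiv_equivariant p N)
  have T4 : Nat.card (Rep.res archimedeanLoc N).ρ.invariants =
      Nat.card (Rep.res archimedeanLoc (M0 p N)).ρ.invariants :=
    card_res_invariants_eq (idEquiv p N) (idEquiv_equivariant p N) archimedeanLoc
  have T5 : Nat.card N = Nat.card (M0 p N) := rfl
  haveI : Module.Finite k (continuousH1S Sg N) := H92.stmt_fin_glob k N hsm Sg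
  haveI : Finite (continuousH1S Sg N) := Module.finite_of_finite k
  haveI : Finite (continuousH2S Sg N) := Module.finite_of_finite k
  have F1 := finrank_eq_deg_mul p k T1
  have F2 := finrank_eq_deg_mul p k T2
  have F3 := finrank_eq_deg_mul p k T3
  have F4 := finrank_eq_deg_mul p k T4
  have F5 := finrank_eq_deg_mul p k T5
  unfold ecDefect archDefect at hE
  rw [F1, F2, F3, F4, F5] at hE
  push_cast at hE
  have hd : (0 : ℤ) < (deg p k : ℤ) := by exact_mod_cast deg_pos p k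
  have hle : finrank k (Rep.res archimedeanLoc N).ρ.invariants ≤ finrank k N :=
    Submodule.finrank_le _
  have h1 : (deg p k : ℤ) * ((finrank k (continuousH2S Sg N) : ℤ) + finrank k N.ρ.invariants +
      ((finrank k N : ℤ) - finrank k (Rep.res archimedeanLoc N).ρ.invariants)) ≤
      (deg p k : ℤ) * (finrank k (continuousH1S Sg N) : ℤ) := by
    linarith
  have h2 := le_of_mul_le_mul_left h1 hd
  zify [hle]
  exact h2

end Fermat.Agent.S56.EC.H9

end
end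
-- ==== END Fermat.Agent.S56.EC.H9_RSEC

-- ==== BEGIN Fermat.Agent.S56.EC.KDT.H74_Fix
section

set_option autoImplicit false
set_option linter.unusedSectionVars false
set_option linter.style.haveILetI false

/-!
# EC / KDALG (helper74): twisted invariants in the dual of the regular representation

`G` a finite group, `ω : G →* 𝔽ˣ`, `D ≤ G`.  On the dual of `G → 𝔽` (regular representation
`IND.permRep 𝔽 G G`) let `T b = ω(b) • ρ.dual b`.  Then the subspace fixed by all `T b`, `b ∈ D`,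
has dimension `[G : D]`.
-/

noncomputable section

namespace Fermat.Agent.S56.EC.KDT

open Module

section fix

variable {p : ℕ} [Fact p.Prime] {G : Type} [Group G]

/-- The twisted dual operators `T b = ω(b) • ρ.dual b` of the regular representation. -/
def twOp (ω : G →* (ZMod p)ˣ) (b : G) :
    Module.Dual (ZMod p) (G → ZMod p) →ₗ[ZMod p] Module.Dual (ZMod p) (G → ZMod p) :=
  ((ω b : (ZMod p)ˣ) : ZMod p) • ((IND.permRep (ZMod p) G G).dual b)

theorem twOp_apply (ω : G →* (ZMod p)ˣ) (b : G) (φ : Module.Dual (ZMod p) (G → ZMod p))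
    (v : G → ZMod p) :
    twOp ω b φ v = ((ω b : (ZMod p)ˣ) : ZMod p) * φ (fun x => v (b * x)) := by
  unfold twOp
  rw [LinearMap.smul_apply, LinearMap.smul_apply, smul_eq_mul, Representation.dual_apply,
    Module.Dual.transpose_apply, LinearMap.comp_apply]
  congr 2
  funext x
  rw [IND.permRep_apply, inv_inv, smul_eq_mul]

variable (D : Subgroup G)

/-- `d_y = y · s(y⁻¹ D) ∈ D`. -/
def dOf (y : G) : G := y * (QuotientGroup.mk y⁻¹ : G ⧸ D).out

theorem dOf_mem (y : G) : dOf D y ∈ D := by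
  unfold dOf
  have h := QuotientGroup.out_eq' (QuotientGroup.mk y⁻¹ : G ⧸ D)
  have h2 := QuotientGroup.eq.1 h
  simpa using D.inv_mem h2

theorem mk_inv_mul (b : G) (hb : b ∈ D) (z : G) :
    (QuotientGroup.mk (b⁻¹ * z)⁻¹ : G ⧸ D) = QuotientGroup.mk z⁻¹ := by
  rw [QuotientGroup.eq]
  simpa using hb

theorem dOf_mul (b : G) (hb : b ∈ D) (z : G) : dOf D (b⁻¹ * z) = b⁻¹ * dOf D z := by
  unfold dOf
  rw [mk_inv_mul D b hb, mul_assoc]

theorem dOf_mul_out_inv (y : G) : dOf D y * ((QuotientGroup.mk y⁻¹ : G ⧸ D).out)⁻¹ = y := by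
  unfold dOf
  rw [mul_inv_cancel_right]

variable [Fintype G] [DecidableEq G]

/-- The coordinates of a functional on coset representatives. -/
def coordMap : Module.Dual (ZMod p) (G → ZMod p) →ₗ[ZMod p] (G ⧸ D → ZMod p) where
  toFun φ x := φ (Pi.single (x.out)⁻¹ 1)
  map_add' _ _ := rfl
  map_smul' _ _ := rfl

theorem coordMap_apply (φ : Module.Dual (ZMod p) (G → ZMod p)) (x : G ⧸ D) :
    coordMap D φ x = φ (Pi.single (x.out)⁻¹ 1) := rfl

/-- The fixed functional with given coordinates. -/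
def fixMap (ω : G →* (ZMod p)ˣ) :
    (G ⧸ D → ZMod p) →ₗ[ZMod p] Module.Dual (ZMod p) (G → ZMod p) :=
  LinearMap.mk₂ (ZMod p)
    (fun ψ v => ∑ y : G, ((ω (dOf D y) : (ZMod p)ˣ) : ZMod p) * ψ (QuotientGroup.mk y⁻¹) * v y)
    (by
      intro ψ ψ' v
      rw [← Finset.sum_add_distrib]
      refine Finset.sum_congr rfl fun y _ => ?_
      rw [Pi.add_apply]
      ring)
    (by
      intro c ψ v
      rw [smul_eq_mul, Finset.mul_sum]
      refine Finset.sum_congr rfl fun y _ => ?_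
      rw [Pi.smul_apply, smul_eq_mul]
      ring)
    (by
      intro ψ v w
      rw [← Finset.sum_add_distrib]
      refine Finset.sum_congr rfl fun y _ => ?_
      rw [Pi.add_apply]
      ring)
    (by
      intro c ψ v
      rw [smul_eq_mul, Finset.mul_sum]
      refine Finset.sum_congr rfl fun y _ => ?_
      rw [Pi.smul_apply, smul_eq_mul]
      ring)

theorem fixMap_apply (ω : G →* (ZMod p)ˣ) (ψ : G ⧸ D → ZMod p) (v : G → ZMod p) :
    fixMap D ω ψ v = ∑ y : G, ((ω (dOf D y) : (ZMod p)ˣ) : ZMod p) *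
        ψ (QuotientGroup.mk y⁻¹) * v y := rfl

theorem fixMap_mem (ω : G →* (ZMod p)ˣ) (ψ : G ⧸ D → ZMod p) :
    fixMap D ω ψ ∈ fixedSub p (D : Set G) (twOp ω) := by
  intro b hb
  apply LinearMap.ext
  intro v
  rw [twOp_apply, fixMap_apply, fixMap_apply, Finset.mul_sum]
  -- reindex `y = b⁻¹ z`
  rw [← Equiv.sum_comp (Equiv.mulLeft b⁻¹)]
  refine Finset.sum_congr rfl fun z _ => ?_
  rw [Equiv.coe_mulLeft, dOf_mul D b hb, mk_inv_mul D b hb, mul_inv_cancel_left, map_mul,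
    map_inv, Units.val_mul]
  have h1 : ((ω b : (ZMod p)ˣ) : ZMod p) * (((ω b)⁻¹ : (ZMod p)ˣ) : ZMod p) = 1 := by
    rw [← Units.val_mul, mul_inv_cancel, Units.val_one]
  calc ((ω b : (ZMod p)ˣ) : ZMod p) *
        ((((ω b)⁻¹ : (ZMod p)ˣ) : ZMod p) * ((ω (dOf D z) : (ZMod p)ˣ) : ZMod p) *
          ψ (QuotientGroup.mk z⁻¹) * v z)
      = (((ω b : (ZMod p)ˣ) : ZMod p) * (((ω b)⁻¹ : (ZMod p)ˣ) : ZMod p)) *
          (((ω (dOf D z) : (ZMod p)ˣ) : ZMod p) * ψ (QuotientGroup.mk z⁻¹) * v z) := by ring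
    _ = _ := by rw [h1, one_mul]

theorem coordMap_fixMap (ω : G →* (ZMod p)ˣ) (ψ : G ⧸ D → ZMod p) :
    coordMap D (fixMap D ω ψ) = ψ := by
  funext x
  rw [coordMap_apply, fixMap_apply, Finset.sum_eq_single (x.out)⁻¹]
  · rw [Pi.single_eq_same, mul_one]
    have h1 : (QuotientGroup.mk ((x.out)⁻¹)⁻¹ : G ⧸ D) = x := by
      rw [inv_inv]
      exact QuotientGroup.out_eq' x
    have h2 : dOf D (x.out)⁻¹ = 1 := by
      unfold dOf
      rw [h1, inv_mul_cancel]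
    rw [h1, h2, map_one, Units.val_one, one_mul]
  · intro y _ hy
    rw [Pi.single_eq_of_ne hy, mul_zero]
  · intro h
    exact absurd (Finset.mem_univ _) h

theorem fixMap_coordMap (ω : G →* (ZMod p)ˣ) (φ : Module.Dual (ZMod p) (G → ZMod p))
    (hφ : φ ∈ fixedSub p (D : Set G) (twOp ω)) : fixMap D ω (coordMap D φ) = φ := by
  apply LinearMap.ext
  intro v
  rw [fixMap_apply]
  have hv : v = ∑ y : G, v y • (Pi.single y (1 : ZMod p) : G → ZMod p) := by
    funext x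
    rw [Finset.sum_apply, Finset.sum_eq_single x]
    · rw [Pi.smul_apply, Pi.single_eq_same, smul_eq_mul, mul_one]
    · intro y _ hy
      rw [Pi.smul_apply, Pi.single_eq_of_ne (Ne.symm hy), smul_zero]
    · intro h
      exact absurd (Finset.mem_univ _) h
  conv_rhs => rw [hv, map_sum]
  refine Finset.sum_congr rfl fun y _ => ?_
  rw [map_smul, smul_eq_mul, coordMap_apply]
  -- the key relation
  have hfix := hφ (dOf D y) (dOf_mem D y)
  have h1 := congrArg (fun ψ : Module.Dual (ZMod p) (G → ZMod p) => ψ (Pi.single y 1)) hfix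
  simp only [twOp_apply] at h1
  have h2 : (fun x => (Pi.single y (1 : ZMod p) : G → ZMod p) (dOf D y * x)) =
      Pi.single ((QuotientGroup.mk y⁻¹ : G ⧸ D).out)⁻¹ 1 := by
    funext x
    by_cases hx : x = ((QuotientGroup.mk y⁻¹ : G ⧸ D).out)⁻¹
    · rw [hx, Pi.single_eq_same, dOf_mul_out_inv, Pi.single_eq_same]
    · rw [Pi.single_eq_of_ne hx, Pi.single_eq_of_ne]
      intro h
      apply hx
      have h3 := dOf_mul_out_inv D y
      have h4 : dOf D y * x = dOf D y * ((QuotientGroup.mk y⁻¹ : G ⧸ D).out)⁻¹ := by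
        rw [h, h3]
      exact mul_left_cancel h4
  rw [h2] at h1
  rw [h1, mul_comm]

/-- The fixed subspace is isomorphic to the functions on `G ⧸ D`. -/
def fixEquiv (ω : G →* (ZMod p)ˣ) :
    ↥(fixedSub p (D : Set G) (twOp ω)) ≃ₗ[ZMod p] (G ⧸ D → ZMod p) where
  toFun φ := coordMap D φ.1
  map_add' _ _ := rfl
  map_smul' _ _ := rfl
  invFun ψ := ⟨fixMap D ω ψ, fixMap_mem D ω ψ⟩
  left_inv φ := Subtype.ext (fixMap_coordMap D ω φ.1 φ.2)
  right_inv ψ := coordMap_fixMap D ω ψ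

end fix

/-- **Twisted invariants of the dual of the regular representation**: dimension `[G : D]`. -/
theorem finrank_fixedSub_twOp {p : ℕ} [Fact p.Prime] {G : Type} [Group G] [Finite G]
    (D : Subgroup G) (ω : G →* (ZMod p)ˣ) :
    finrank (ZMod p) ↥(fixedSub p (D : Set G) (twOp ω)) = Nat.card (G ⧸ D) := by
  classical
  haveI := Fintype.ofFinite G
  haveI := Fintype.ofFinite (G ⧸ D)
  rw [(fixEquiv D ω).finrank_eq, Module.finrank_fintype_fun_eq_card, Nat.card_eq_fintype_card]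

end Fermat.Agent.S56.EC.KDT

end

end
-- ==== END Fermat.Agent.S56.EC.KDT.H74_Fix

-- ==== BEGIN Fermat.Agent.S56.FL.H15_CC2Lead
section

set_option autoImplicit false
set_option linter.style.haveILetI false
set_option linter.unusedSectionVars false

/-!
# LOC-p-FL, package UNITS / CC2 (helper15): leading coefficients at a level

`Lead h i x u`: `u` is an integer of `K` and `ψ_x` has a witness `α` with
`α^p ≡ 1 + u ϖ^i` modulo `r^{i+1}`.

* `Lead.exists`   : existence from a witness at level `i`.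
* `Lead.unique`   : `u` is unique modulo the maximal ideal (`p ∤ i < p e₀`).
* `Lead.add`, `Lead.lin`, `Lead.conj_inertia`, `Lead.conj_frob`.
* `Lead.witAt_succ` : if `‖u‖ < 1` there is a witness at level `i + 1`.
-/

noncomputable section

namespace Fermat.Agent.S56.FL.H15

open scoped NNReal
open Fermat.Agent.S56.FL Fermat.Agent.Lib.LocalKummer Fermat.Agent.S56.FL.H85 Module

variable {p : ℕ} [Fact p.Prime] {k : Type} [Field k] [CharP k p]

namespace CoreCtx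

/-- `u` is a leading coefficient of `x` at level `i`. -/
def Lead (C : CoreCtx p k) (h : Gp p → k) (i : ℕ) (x : k) (u : PadicAlgCl p) : Prop :=
  u ∈ C.K ∧ ‖u‖ ≤ 1 ∧
    ∃ α, IsWit C.L C.N C.ζ (C.psi h x) α ∧ ‖α ^ p - 1 - u * C.ϖ ^ i‖ < ‖C.ϖ‖ ^ i

variable {C : CoreCtx p k} {h : Gp p → k} {i : ℕ} {x x' : k} {u u' : PadicAlgCl p}

theorem norm_mul_pow_le (C : CoreCtx p k) {u : PadicAlgCl p} (hu : ‖u‖ ≤ 1) (i : ℕ) :
    ‖u * C.ϖ ^ i‖ ≤ ‖C.ϖ‖ ^ i := by
  rw [norm_mul, norm_pow]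
  calc ‖u‖ * ‖C.ϖ‖ ^ i ≤ 1 * ‖C.ϖ‖ ^ i := mul_le_mul_of_nonneg_right hu (C.lev.pow_pos' i).le
    _ = ‖C.ϖ‖ ^ i := one_mul _

theorem norm_mul_pow_lt (C : CoreCtx p k) {u : PadicAlgCl p} (hu : ‖u‖ < 1) (i : ℕ) :
    ‖u * C.ϖ ^ i‖ < ‖C.ϖ‖ ^ i := by
  rw [norm_mul, norm_pow]
  calc ‖u‖ * ‖C.ϖ‖ ^ i < 1 * ‖C.ϖ‖ ^ i := mul_lt_mul_of_pos_right hu (C.lev.pow_pos' i)
    _ = ‖C.ϖ‖ ^ i := one_mul _

/-- The witness of a leading coefficient is a witness at level `i`. -/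
theorem norm_le_of_lead {α : PadicAlgCl p} (hu : ‖u‖ ≤ 1)
    (hα : ‖α ^ p - 1 - u * C.ϖ ^ i‖ < ‖C.ϖ‖ ^ i) : ‖α ^ p - 1‖ ≤ ‖C.ϖ‖ ^ i := by
  have h1 : α ^ p - 1 = (α ^ p - 1 - u * C.ϖ ^ i) + u * C.ϖ ^ i := by ring
  rw [h1]
  exact (IsUltrametricDist.norm_add_le_max _ _).trans (max_le hα.le (C.norm_mul_pow_le hu i))

namespace Lead

theorem mem (hl : C.Lead h i x u) : u ∈ C.K ∧ ‖u‖ ≤ 1 := ⟨hl.1, hl.2.1⟩

/-- Existence of leading coefficients. -/
theorem exists_of_witAt (hw : C.WitAt h x (‖C.ϖ‖ ^ i)) : ∃ u, C.Lead h i x u := by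
  obtain ⟨α, hα, hn⟩ := hw
  have haK : α ^ p - 1 ∈ C.K := C.K.sub_mem (hα.pow_p_mem_kField C.hζ.pow_eq_one) C.K.one_mem
  obtain ⟨u, huK, hu1, hau, -⟩ := C.lev.exists_unit_mul haK hn
  refine ⟨u, huK, hu1, α, hα, ?_⟩
  rw [hau, sub_self, norm_zero]
  exact C.lev.pow_pos' i

/-- If the leading coefficient vanishes modulo the maximal ideal, there is a witness at the next
level. -/
theorem witAt_succ (hl : C.Lead h i x u) (hu : ‖u‖ < 1) : C.WitAt h x (‖C.ϖ‖ ^ (i + 1)) := by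
  obtain ⟨-, -, α, hα, hn⟩ := hl
  have haK : α ^ p - 1 ∈ C.K := C.K.sub_mem (hα.pow_p_mem_kField C.hζ.pow_eq_one) C.K.one_mem
  refine ⟨α, hα, C.lev.le_pow_succ haK ?_⟩
  have h1 : α ^ p - 1 = (α ^ p - 1 - u * C.ϖ ^ i) + u * C.ϖ ^ i := by ring
  rw [h1]
  exact (IsUltrametricDist.norm_add_le_max _ _).trans_lt (max_lt hn (C.norm_mul_pow_lt hu i))

/-- Uniqueness of the leading coefficient modulo the maximal ideal. -/
theorem unique (hpi : ¬ p ∣ i) (hi : i < p * C.e₀) (hl : C.Lead h i x u)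
    (hl' : C.Lead h i x u') : ‖u - u'‖ < 1 := by
  obtain ⟨huK, hu1, α, hα, hn⟩ := hl
  obtain ⟨huK', hu1', α', hα', hn'⟩ := hl'
  have hi0 : 0 < i := by
    rcases Nat.eq_zero_or_pos i with h0 | h0
    · exact absurd (h0 ▸ dvd_zero p) hpi
    · exact h0
  have ha := norm_le_of_lead hu1 hn
  have ha' := norm_le_of_lead hu1' hn'
  have ha'1 : ‖α' ^ p‖ = 1 := norm_eq_one_of_sub_lt (ha'.trans_lt (C.lev.pow_lt_one' hi0))
  have hb : IsWit C.L C.N C.ζ (fun n => C.psi h x n - C.psi h x n) (α / α') :=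
    hα.div C.hζ.pow_eq_one hα'
  have hbK : α / α' ∈ C.K := hb.mem_kField_of_zero fun n _ => sub_self _
  have hbp : (α / α') ^ p - 1 = (α ^ p - α' ^ p) / α' ^ p := by
    rw [div_pow]
    have : α' ^ p ≠ 0 := pow_ne_zero _ hα'.ne_zero
    field_simp
  have hle : ‖(α / α') ^ p - 1‖ ≤ ‖C.ϖ‖ ^ i := by
    rw [hbp, norm_div, ha'1, div_one]
    have : α ^ p - α' ^ p = (α ^ p - 1) - (α' ^ p - 1) := by ring
    rw [this]
    exact (norm_sub_le_max_algCl _ _).trans (max_le ha ha')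
  have hlt := C.lev.lev1 hbK hpi hi hle
  rw [hbp, norm_div, ha'1, div_one] at hlt
  have h1 : (u - u') * C.ϖ ^ i
      = (α ^ p - α' ^ p) - (α ^ p - 1 - u * C.ϖ ^ i) + (α' ^ p - 1 - u' * C.ϖ ^ i) := by ring
  have h2 : ‖(u - u') * C.ϖ ^ i‖ < ‖C.ϖ‖ ^ i := by
    rw [h1]
    exact (IsUltrametricDist.norm_add_le_max _ _).trans_lt (max_lt
      ((norm_sub_le_max_algCl _ _).trans_lt (max_lt hlt hn)) hn')
  rw [norm_mul, norm_pow] at h2
  by_contra hcon
  have h3 : 1 ≤ ‖u - u'‖ := not_lt.mp hcon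
  have h4 : ‖C.ϖ‖ ^ i ≤ ‖u - u'‖ * ‖C.ϖ‖ ^ i := by
    calc ‖C.ϖ‖ ^ i = 1 * ‖C.ϖ‖ ^ i := (one_mul _).symm
      _ ≤ _ := mul_le_mul_of_nonneg_right h3 (C.lev.pow_pos' i).le
  exact absurd h2 (not_lt.mpr h4)

/-- The product of two witnesses: the leading coefficients add up. -/
theorem mul_aux (hi0 : 0 < i) {α α' : PadicAlgCl p} (hu : ‖u‖ ≤ 1) (hu' : ‖u'‖ ≤ 1)
    (hn : ‖α ^ p - 1 - u * C.ϖ ^ i‖ < ‖C.ϖ‖ ^ i)
    (hn' : ‖α' ^ p - 1 - u' * C.ϖ ^ i‖ < ‖C.ϖ‖ ^ i) :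
    ‖(α * α') ^ p - 1 - (u + u') * C.ϖ ^ i‖ < ‖C.ϖ‖ ^ i := by
  have ha := norm_le_of_lead hu hn
  have ha' := norm_le_of_lead hu' hn'
  have h1 : (α * α') ^ p - 1 - (u + u') * C.ϖ ^ i
      = (α ^ p - 1 - u * C.ϖ ^ i) + (α' ^ p - 1 - u' * C.ϖ ^ i) + (α ^ p - 1) * (α' ^ p - 1) := by
    ring
  rw [h1]
  refine (IsUltrametricDist.norm_add_le_max _ _).trans_lt (max_lt
    ((IsUltrametricDist.norm_add_le_max _ _).trans_lt (max_lt hn hn')) ?_)
  rw [norm_mul]
  calc ‖α ^ p - 1‖ * ‖α' ^ p - 1‖ ≤ ‖C.ϖ‖ ^ i * ‖C.ϖ‖ ^ i :=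
        mul_le_mul ha ha' (norm_nonneg _) (C.lev.pow_pos' i).le
    _ < ‖C.ϖ‖ ^ i * 1 := mul_lt_mul_of_pos_left (C.lev.pow_lt_one' hi0) (C.lev.pow_pos' i)
    _ = ‖C.ϖ‖ ^ i := mul_one _

theorem add (hi0 : 0 < i) (hl : C.Lead h i x u) (hl' : C.Lead h i x' u') :
    C.Lead h i (x + x') (u + u') := by
  obtain ⟨huK, hu1, α, hα, hn⟩ := hl
  obtain ⟨huK', hu1', α', hα', hn'⟩ := hl'
  refine ⟨C.K.add_mem huK huK',
    (IsUltrametricDist.norm_add_le_max _ _).trans (max_le hu1 hu1'), α * α',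
    (hα.mul C.hζ.pow_eq_one hα').congr fun n _ => (C.psi_add h x x' n).symm,
    mul_aux hi0 hu1 hu1' hn hn'⟩

/-- Leading coefficients of a linear combination of Kummer homomorphisms. -/
theorem lin (hi0 : 0 < i) {h₁ h₂ : Gp p → k} {l₁ l₂ : k} {u₁ u₂ : PadicAlgCl p}
    (hl₁ : C.Lead h₁ i (l₁ * x) u₁) (hl₂ : C.Lead h₂ i (l₂ * x) u₂) :
    C.Lead (fun n => l₁ * h₁ n + l₂ * h₂ n) i x (u₁ + u₂) := by
  obtain ⟨huK, hu1, α, hα, hn⟩ := hl₁
  obtain ⟨huK', hu1', α', hα', hn'⟩ := hl₂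
  refine ⟨C.K.add_mem huK huK',
    (IsUltrametricDist.norm_add_le_max _ _).trans (max_le hu1 hu1'), α * α',
    (hα.mul C.hζ.pow_eq_one hα').congr fun n _ => (C.psi_lin h₁ h₂ l₁ l₂ x n).symm,
    mul_aux hi0 hu1 hu1' hn hn'⟩

theorem theta_mem_K (C : CoreCtx p k) (σ : Gp p) : σ C.ϖ / C.ϖ ∈ C.K := by
  haveI := C.normalL
  exact C.K.div_mem (map_mem_kField C.hN σ C.lev.hϖK) C.lev.hϖK

/-- The action of inertia on leading coefficients. -/
theorem conj_inertia (hk : C.IsKum h) (hl : C.Lead h i x u) {σ : Gp p} (hσ : σ ∈ inertiaP p)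
    (hσG : σ ∈ C.G₂) : C.Lead h i (C.lam σ * x) ((σ C.ϖ / C.ϖ) ^ i * u) := by
  obtain ⟨huK, hu1, α, hα, hn⟩ := hl
  haveI := C.normalL
  have ha := norm_le_of_lead hu1 hn
  have haK : α ^ p - 1 ∈ C.K := C.K.sub_mem (hα.pow_p_mem_kField C.hζ.pow_eq_one) C.K.one_mem
  have hθn : ‖(σ C.ϖ / C.ϖ) ^ i‖ = 1 := by rw [norm_pow, C.lev.norm_theta, one_pow]
  refine ⟨C.K.mul_mem (pow_mem (theta_mem_K C σ) i) huK, ?_, σ α,
    (hα.conj C.hζ C.hN σ).congr fun n hn' => hk.psi_conj x hσG hn', ?_⟩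
  · rw [norm_mul, hθn, one_mul]; exact hu1
  · have h1 : (σ α) ^ p - 1 - (σ C.ϖ / C.ϖ) ^ i * u * C.ϖ ^ i
        = (σ (α ^ p - 1) - (σ C.ϖ / C.ϖ) ^ i * (α ^ p - 1))
          + (σ C.ϖ / C.ϖ) ^ i * (α ^ p - 1 - u * C.ϖ ^ i) := by
      rw [map_sub, map_pow, map_one]; ring
    rw [h1]
    refine (IsUltrametricDist.norm_add_le_max _ _).trans_lt (max_lt
      (C.lev.norm_map_sub_theta hσ haK ha) ?_)
    rw [norm_mul, hθn, one_mul]
    exact hn

/-- The action of (the square of) Frobenius on leading coefficients. -/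
theorem conj_frob (hk : C.IsKum h) (hl : C.Lead h i x u) {Φ : Gp p} (hΦG : Φ ∈ C.G₂)
    (hΦ : ∀ a ∈ C.K, ‖a‖ ≤ 1 → ‖Φ a - a ^ (p ^ 2)‖ < 1) :
    C.Lead h i (C.lam Φ * x) ((Φ C.ϖ / C.ϖ) ^ i * u ^ (p ^ 2)) := by
  obtain ⟨huK, hu1, α, hα, hn⟩ := hl
  haveI := C.normalL
  have hθn : ‖(Φ C.ϖ / C.ϖ) ^ i‖ = 1 := by rw [norm_pow, C.lev.norm_theta, one_pow]
  have hϖ0 : C.ϖ ≠ 0 := C.lev.ϖ_ne_zero
  refine ⟨C.K.mul_mem (pow_mem (theta_mem_K C Φ) i) (pow_mem huK _), ?_, Φ α,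
    (hα.conj C.hζ C.hN Φ).congr fun n hn' => hk.psi_conj x hΦG hn', ?_⟩
  · rw [norm_mul, hθn, one_mul, norm_pow]; exact pow_le_one₀ (norm_nonneg _) hu1
  · have h1 : (Φ α) ^ p - 1 - (Φ C.ϖ / C.ϖ) ^ i * u ^ (p ^ 2) * C.ϖ ^ i
        = Φ (α ^ p - 1 - u * C.ϖ ^ i) + (Φ u - u ^ (p ^ 2)) * (Φ C.ϖ) ^ i := by
      rw [map_sub, map_sub, map_pow, map_one, map_mul, map_pow, div_pow]
      field_simp
      ring
    rw [h1]
    refine (IsUltrametricDist.norm_add_le_max _ _).trans_lt (max_lt ?_ ?_)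
    · rw [norm_gal]; exact hn
    · rw [norm_mul, norm_pow, norm_gal]
      calc ‖Φ u - u ^ (p ^ 2)‖ * ‖C.ϖ‖ ^ i < 1 * ‖C.ϖ‖ ^ i :=
            mul_lt_mul_of_pos_right (hΦ u huK hu1) (C.lev.pow_pos' i)
        _ = ‖C.ϖ‖ ^ i := one_mul _

end Lead

end CoreCtx

end Fermat.Agent.S56.FL.H15

end

end
-- ==== END Fermat.Agent.S56.FL.H15_CC2Lead

-- ==== BEGIN Fermat.Agent.S56.FL.H50_CC2Top
section

set_option autoImplicit false
set_option linter.style.haveILetI false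
set_option linter.unusedSectionVars false

/-!
# LOC-p-FL, package UNITS / CC2, leaf TOP (helper50): the top level `p e₀`

A witness of `ψ_x` at the top level `p e₀` forces `ψ_x = 0` on `N`
(`CoreCtx.psi_eq_zero_of_witAt`): at the level `i = p e₀` the tame generator `σ₁` acts on the
leading coefficient by `θ₁^{p e₀} ≡ ω(σ₁)`, and on `ψ_x` by `λ(σ₁) ≠ ω(σ₁)`; so the twist by
`σ₁` raises the level of `μ x`, `μ = λ(σ₁) - ω(σ₁) ≠ 0`, and the set of `x` with a witness at the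
level `p e₀` is stable under `μ`.
-/

noncomputable section

namespace Fermat.Agent.S56.FL.H15

open scoped NNReal
open Fermat.Agent.S56.FL Fermat.Agent.Lib.LocalKummer Fermat.Agent.S56.FL.H85 Module

variable {p : ℕ} [Fact p.Prime] {k : Type} [Field k] [CharP k p]

/-- Natural numbers which are congruent modulo `p` are congruent modulo the maximal ideal. -/
theorem norm_natCast_sub_lt_of_zmod_eq {a b : ℕ} (h : (a : ZMod p) = (b : ZMod p)) :
    ‖(a : PadicAlgCl p) - (b : PadicAlgCl p)‖ < 1 := by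
  have hp : p.Prime := Fact.out
  have h1 : ((a : ℤ) : ZMod p) = ((b : ℤ) : ZMod p) := by exact_mod_cast h
  have h2 : (p : ℤ) ∣ (a : ℤ) - (b : ℤ) := by
    have h3 := (ZMod.intCast_eq_intCast_iff_dvd_sub (b : ℤ) (a : ℤ) p).mp h1.symm
    exact h3
  obtain ⟨c, hc⟩ := h2
  have h4 : (a : PadicAlgCl p) - (b : PadicAlgCl p) = (p : PadicAlgCl p) * (c : PadicAlgCl p) := by
    have := congrArg (Int.cast : ℤ → PadicAlgCl p) hc
    push_cast at this
    exact this
  rw [h4, norm_mul, norm_p_algCl]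
  have hpinv : (p : ℝ)⁻¹ < 1 := inv_lt_one_of_one_lt₀ one_lt_p_real
  calc (p : ℝ)⁻¹ * ‖(c : PadicAlgCl p)‖ ≤ (p : ℝ)⁻¹ * 1 :=
        mul_le_mul_of_nonneg_left (norm_intCast_le_one c) (inv_nonneg.mpr p_pos_real.le)
    _ < 1 := by rw [mul_one]; exact hpinv

/-- Fermat's little theorem modulo the maximal ideal. -/
theorem norm_natCast_pow_sub_lt (n : ℕ) :
    ‖(n : PadicAlgCl p) ^ p - (n : PadicAlgCl p)‖ < 1 := by
  have h : ((n ^ p : ℕ) : ZMod p) = (n : ZMod p) := by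
    push_cast
    exact ZMod.pow_card _
  have := norm_natCast_sub_lt_of_zmod_eq (p := p) h
  push_cast at this
  exact this

namespace CoreCtx

variable {C : CoreCtx p k}

/-- `θ₁^{p e₀} ≡ ω(σ₁)`. -/
theorem IsTameGen.norm_theta_top {σ₁ : Gp p} (hg : C.IsTameGen σ₁) :
    ‖(σ₁ C.ϖ / C.ϖ) ^ (p * C.e₀) - (C.omN σ₁ : PadicAlgCl p)‖ < 1 := by
  have h1 : ‖((σ₁ C.ϖ / C.ϖ) ^ C.e₀) ^ p - (C.omN σ₁ : PadicAlgCl p) ^ p‖ < 1 := by
    refine (norm_pow_sub_pow_le_algCl ?_ (norm_natCast_le_one _) p).trans_lt hg.norm_theta_e₀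
    rw [norm_pow, C.lev.norm_theta, one_pow]
  rw [mul_comm, pow_mul]
  exact norm_sub_lt_trans h1 (norm_natCast_pow_sub_lt _)

/-- `μ = λ(σ₁) - ω(σ₁) ≠ 0`. -/
theorem IsTameGen.lam_sub_ne_zero (hp2 : p ≠ 2) {σ₁ : Gp p} (hg : C.IsTameGen σ₁) :
    C.lam σ₁ - ((C.omN σ₁ : ℕ) : k) ≠ 0 := by
  have hp : p.Prime := Fact.out
  intro h0
  have hlam : C.lam σ₁ = ((C.omN σ₁ : ℕ) : k) := sub_eq_zero.mp h0
  obtain ⟨q, hq⟩ : ∃ q, p = 2 * q + 1 := by
    rcases hp.eq_two_or_odd' with h | h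
    · exact absurd h hp2
    · obtain ⟨q, hq⟩ := h; exact ⟨q, hq⟩
  have hq1 : 1 ≤ q := by
    have := hp.two_le; omega
  have hhalf : (p + 1) / 2 = q + 1 := by omega
  -- `ω₁^q = 1` in `k`
  have h1 := hg.lam
  rw [C.cst_omg, hlam, hhalf, pow_succ] at h1
  have hne : ((C.omN σ₁ : ℕ) : k) ≠ 0 := by
    rw [← hlam]; exact C.lam_ne_zero hg.memG
  have h2 : ((C.omN σ₁ : ℕ) : k) ^ q = 1 := by
    have h3 : (((C.omN σ₁ : ℕ) : k) ^ q - 1) * ((C.omN σ₁ : ℕ) : k) = 0 := by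
      rw [sub_mul, one_mul, h1, sub_self]
    rcases mul_eq_zero.mp h3 with h4 | h4
    · exact sub_eq_zero.mp h4
    · exact absurd h4 hne
  -- hence in `ZMod p`
  have h5 : ((C.omN σ₁ ^ q : ℕ) : ZMod p) = ((1 : ℕ) : ZMod p) := by
    apply (cst p k).injective
    rw [map_natCast, map_natCast]
    push_cast
    exact h2
  have h6 := norm_natCast_sub_lt_of_zmod_eq (p := p) h5
  push_cast at h6
  -- `θ₁^{e₀ q} ≡ 1`
  have h7 : ‖((σ₁ C.ϖ / C.ϖ) ^ C.e₀) ^ q - (C.omN σ₁ : PadicAlgCl p) ^ q‖ < 1 := by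
    refine (norm_pow_sub_pow_le_algCl ?_ (norm_natCast_le_one _) q).trans_lt hg.norm_theta_e₀
    rw [norm_pow, C.lev.norm_theta, one_pow]
  have h8 : ‖(σ₁ C.ϖ / C.ϖ) ^ (C.e₀ * q) - 1‖ < 1 := by
    rw [pow_mul]
    exact norm_sub_lt_trans h7 h6
  have h9 : (p - 1) * C.e₀ ∣ C.e₀ * q := (hg.ord _).mp h8
  have he₀ : 0 < C.e₀ := C.lev.e₀_pos
  have h10 : 0 < C.e₀ * q := Nat.mul_pos he₀ hq1
  have h11 := Nat.le_of_dvd h10 h9
  have h12 : (p - 1) * C.e₀ = 2 * (C.e₀ * q) := by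
    have : p - 1 = 2 * q := by omega
    rw [this]; ring
  omega

/-- The set of `x` with a witness at a level `ρ < 1` is stable under `μ = λ(σ) - m`. -/
theorem WitAt.sub_natCast {h : Gp p → k} (hk : C.IsKum h) {x : k} {ρ : ℝ} (hρ : ρ < 1)
    (hw : C.WitAt h x ρ) {σ : Gp p} (hσ : σ ∈ C.G₂) (m : ℕ) :
    C.WitAt h ((C.lam σ - (m : k)) * x) ρ := by
  have h1 : (C.lam σ - (m : k)) * x = C.lam σ * x + -((m : k) * x) := by ring
  rw [h1]
  exact WitAt.add hρ.le (WitAt.conj hk hw hσ) (WitAt.neg hρ (WitAt.natCast hρ.le hw m))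

theorem WitAt.sub_natCast_pow {h : Gp p → k} (hk : C.IsKum h) {x : k} {ρ : ℝ} (hρ : ρ < 1)
    (hw : C.WitAt h x ρ) {σ : Gp p} (hσ : σ ∈ C.G₂) (m : ℕ) (j : ℕ) :
    C.WitAt h ((C.lam σ - (m : k)) ^ j * x) ρ := by
  induction j with
  | zero => rwa [pow_zero, one_mul]
  | succ j ih =>
    have := WitAt.sub_natCast hk hρ ih hσ m
    rwa [← mul_assoc, ← pow_succ'] at this

/-- **TOP.**  A witness at the top level `p e₀` forces `ψ_x = 0` on `N`. -/
theorem psi_eq_zero_of_witAt (hp2 : p ≠ 2) [Finite k] [FiniteDimensional ℚ_[p] C.L]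
    {h : Gp p → k} (hk : C.IsKum h) {σ₁ : Gp p} (hg : C.IsTameGen σ₁) {x : k}
    (hw : C.WitAt h x (‖C.ϖ‖ ^ (p * C.e₀))) {n : Gp p} (hn : n ∈ C.N) : C.psi h x n = 0 := by
  classical
  have hp : p.Prime := Fact.out
  haveI : Fintype k := Fintype.ofFinite k
  have he₀ : 0 < C.e₀ := C.lev.e₀_pos
  have hi : 0 < p * C.e₀ := Nat.mul_pos hp.pos he₀
  have hρ : ‖C.ϖ‖ ^ (p * C.e₀) < 1 := C.lev.pow_lt_one' hi
  set μ : k := C.lam σ₁ - ((C.omN σ₁ : ℕ) : k) with hμ
  have hμ0 : μ ≠ 0 := hg.lam_sub_ne_zero hp2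
  have hcard : 2 ≤ Fintype.card k := Fintype.one_lt_card
  have hμpow : μ * μ ^ (Fintype.card k - 2) = 1 := by
    rw [← pow_succ']
    have : Fintype.card k - 2 + 1 = Fintype.card k - 1 := by omega
    rw [this]
    exact FiniteField.pow_card_sub_one_eq_one μ hμ0
  have hw' : C.WitAt h (μ ^ (Fintype.card k - 2) * x) (‖C.ϖ‖ ^ (p * C.e₀)) :=
    WitAt.sub_natCast_pow hk hρ hw hg.memG (C.omN σ₁) _
  have hw'' := twist_witAt hk hi hw' hg.inert hg.memG hg.norm_theta_top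
  rw [← hμ, ← mul_assoc, hμpow, one_mul] at hw''
  exact psi_eq_zero_of_witAt_top hw'' hn

end CoreCtx

end Fermat.Agent.S56.FL.H15

end

end
-- ==== END Fermat.Agent.S56.FL.H50_CC2Top

-- ==== BEGIN Fermat.Agent.S56.FL.H50_CohSSd
section

set_option autoImplicit false
set_option linter.unusedSectionVars false

/-!
# LOC-p-FL, package COH-SS (helper50), part d: the local cocycles of `ad⁰ ρbar` in matrix form
-/

noncomputable section

namespace Fermat.Agent.S56.FL.H50.SS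

open scoped NNReal
open Polynomial IsLocalRing CategoryTheory groupCohomology ExtCitation Fermat.Agent.S53 Module
  Fermat.Agent.S56 Fermat.Agent.S56.FL

variable {p : ℕ} [Fact p.Prime] {k : Type} [Field k] [CharP k p] (ρbar : ResidualGaloisRep k)

/-- The local representation `ρbar ∘ r` as a monoid homomorphism. -/
def rhoL (p : ℕ) [Fact p.Prime] : Gp p →* Module.End k ρbar.V := ρbar.ρ.comp (localGaloisToGlobal p)

theorem rhoL_apply (σ : Gp p) : rhoL ρbar p σ = locRho ρbar σ := rfl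

/-- The cocycle identity for `cocVal`. -/
theorem cocVal_mul (c : cocycles₁ (locRep (ad0 ρbar) (pPrime p))) (σ τ : Gp p) :
    cocVal ρbar c (σ * τ)
      = cocVal ρbar c σ + rhoL ρbar p σ * cocVal ρbar c τ * rhoL ρbar p σ⁻¹ := by
  have h := (mem_cocycles₁_iff (c : primeLocalGaloisGroup (pPrime p) → _)).mp c.2 σ τ
  have h2 : cocVal ρbar c (σ * τ)
      = ρbar.ρ (localGaloisToGlobal p σ) * cocVal ρbar c τ * ρbar.ρ (localGaloisToGlobal p σ)⁻¹
        + cocVal ρbar c σ := congrArg (ad0Val ρbar) h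
  have h3 : rhoL ρbar p σ⁻¹ = ρbar.ρ (localGaloisToGlobal p σ)⁻¹ := by
    show ρbar.ρ (localGaloisToGlobal p σ⁻¹) = ρbar.ρ (localGaloisToGlobal p σ)⁻¹
    rw [map_inv]
  rw [add_comm, h3]
  exact h2

theorem trace_cocVal (c : cocycles₁ (locRep (ad0 ρbar) (pPrime p))) (σ : Gp p) :
    LinearMap.trace k ρbar.V (cocVal ρbar c σ) = 0 :=
  ((c : primeLocalGaloisGroup (pPrime p) → ad0 ρbar) σ).2

/-- A cocycle which is pointwise the coboundary of a trace-zero endomorphism has trivial class. -/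
theorem H1π_eq_zero_of_cob (c : cocycles₁ (locRep (ad0 ρbar) (pPrime p)))
    (m : Module.End k ρbar.V) (hm : LinearMap.trace k ρbar.V m = 0)
    (h : ∀ σ : Gp p, cocVal ρbar c σ = rhoL ρbar p σ * m * rhoL ρbar p σ⁻¹ - m) :
    (H1π (locRep (ad0 ρbar) (pPrime p))).hom c = 0 := by
  rw [H1π_eq_zero_iff]
  refine ⟨H57.locMk p ρbar m hm, ?_⟩
  have key : ∀ σ : Gp p,
      ρbar.ρ (localGaloisToGlobal p σ) * m * ρbar.ρ (localGaloisToGlobal p σ)⁻¹ - m
        = cocVal ρbar c σ := by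
    intro σ
    have h3 : rhoL ρbar p σ⁻¹ = ρbar.ρ (localGaloisToGlobal p σ)⁻¹ := by
      show ρbar.ρ (localGaloisToGlobal p σ⁻¹) = ρbar.ρ (localGaloisToGlobal p σ)⁻¹
      rw [map_inv]
    have h4 := h σ
    rw [h3] at h4
    exact h4.symm
  funext σ
  rw [d₀₁_hom_apply]
  apply H57.locVal_injective p ρbar
  exact key σ

/-! ## Matrix form -/

variable {ρbar} (b : Basis (Fin 2) k ρbar.V)

/-- The local representation in the basis `b`. -/
def Rm : Gp p →* Matrix (Fin 2) (Fin 2) k := matRep b (rhoL ρbar p)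

/-- The values of a local cocycle in the basis `b`. -/
def Cm (c : cocycles₁ (locRep (ad0 ρbar) (pPrime p))) (σ : Gp p) : Matrix (Fin 2) (Fin 2) k :=
  matOf b (cocVal ρbar c σ)

theorem Rm_apply (σ : Gp p) : Rm (p := p) b σ = matOf b (locRho ρbar σ) := rfl

theorem isCocM_Cm (c : cocycles₁ (locRep (ad0 ρbar) (pPrime p))) :
    IsCocM (Rm (p := p) b) (Cm b c) := by
  intro σ τ
  show matOf b (cocVal ρbar c (σ * τ)) = matOf b (cocVal ρbar c σ)
    + matOf b (rhoL ρbar p σ) * matOf b (cocVal ρbar c τ) * matOf b (rhoL ρbar p σ⁻¹)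
  rw [cocVal_mul, matOf_add, matOf_mul, matOf_mul]

theorem Cm_trace (c : cocycles₁ (locRep (ad0 ρbar) (pPrime p))) (σ : Gp p) :
    Cm b c σ 0 0 + Cm b c σ 1 1 = 0 := by
  have := trace_cocVal ρbar c σ
  rw [trace_matOf b] at this
  exact this

theorem Rm_eq_one_of {σ : Gp p} (h : locRho ρbar σ = 1) : Rm (p := p) b σ = 1 := by
  rw [Rm_apply, h, matOf_one]

theorem Cm_eq_zero_of {c : cocycles₁ (locRep (ad0 ρbar) (pPrime p))} {σ : Gp p}
    (h : cocVal ρbar c σ = 0) : Cm b c σ = 0 := by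
  unfold Cm
  rw [h, matOf_zero]

/-- A cocycle which is a coboundary in matrix form has trivial class. -/
theorem H1π_eq_zero_of_cobM (c : cocycles₁ (locRep (ad0 ρbar) (pPrime p)))
    (m : Matrix (Fin 2) (Fin 2) k) (hm : m 0 0 + m 1 1 = 0)
    (h : ∀ σ : Gp p, Cm b c σ = cobM (Rm (p := p) b) m σ) :
    (H1π (locRep (ad0 ρbar) (pPrime p))).hom c = 0 := by
  obtain ⟨m', rfl⟩ := matOf_surjective b m
  refine H1π_eq_zero_of_cob ρbar c m' (by rw [trace_matOf b]; exact hm) (fun σ => ?_)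
  apply matOf_injective b
  rw [matOf_sub, matOf_mul, matOf_mul]
  exact h σ

end Fermat.Agent.S56.FL.H50.SS

end

end
-- ==== END Fermat.Agent.S56.FL.H50_CohSSd

-- ==== BEGIN Fermat.Agent.S56.FL.H50_TameChars
section

set_option autoImplicit false

/-!
# LOC-p-FL, leaf TAME-CHARS of COH-RED (helper57's statement `H57.Stmt_TameChars`)
-/

noncomputable section

namespace Fermat.Agent.S56.FL.H50

open scoped NNReal
open Polynomial Module IntermediateField Fermat.Agent.S56.FL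

variable {p : ℕ} [Fact p.Prime]

theorem isCycloAt_unique {k : Type} [Field k] [CharP k p] {x y : k} {σ : Gp p}
    (hx : IsCycloAt x σ) (hy : IsCycloAt y σ) : x = y := by
  obtain ⟨ζ, h1, hζ⟩ := H15.exists_zeta (p := p)
  have hprim : IsPrimitiveRoot ζ p := by
    rw [IsPrimitiveRoot.iff_orderOf]
    exact orderOf_eq_prime hζ h1
  rw [(H85.isCycloAt_iff hprim x σ).mp hx, (H85.isCycloAt_iff hprim y σ).mp hy]

theorem isCycloAt_ne_zero {k : Type} [Field k] [CharP k p] {x : k} {σ : Gp p}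
    (hx : IsCycloAt x σ) : x ≠ 0 := by
  obtain ⟨ζ, h1, hζ⟩ := H15.exists_zeta (p := p)
  have hprim : IsPrimitiveRoot ζ p := by
    rw [IsPrimitiveRoot.iff_orderOf]
    exact orderOf_eq_prime hζ h1
  rw [(H85.isCycloAt_iff hprim x σ).mp hx]
  intro h
  have := (map_eq_zero (H85.cst p k)).mp h
  exact (H85.omg hprim σ).ne_zero this

theorem stmt_TameChars : H57.Stmt_TameChars := by
  intro p _ hp2 k _ _ χ₁ χ₂ L _ hN hL hcyc
  have hp : p.Prime := Fact.out
  obtain ⟨P, φ, s, hTA⟩ := exists_tameAt H38.stmt_Tame L hN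
  have hχ₁P : ∀ w ∈ P, χ₁ w = 1 := fun w hw =>
    hTA.hom_eq_one χ₁ (fun x N h => unit_eq_one_of_pow_char_pow (p := p) h)
      (fun σ hσ => (hL σ hσ).1) hw
  have hχ₂P : ∀ w ∈ P, χ₂ w = 1 := fun w hw =>
    hTA.hom_eq_one χ₂ (fun x N h => unit_eq_one_of_pow_char_pow (p := p) h)
      (fun σ hσ => (hL σ hσ).2) hw
  have hpow : ∀ ι : Gp p, ι ∈ inertiaP p → ∃ n : ℕ, χ₁ ι = χ₁ s ^ n ∧ χ₂ ι = χ₂ s ^ n := by
    intro ι hι
    obtain ⟨n, w, hw, rfl⟩ := hTA.tame ι hι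
    exact ⟨n, by rw [map_mul, map_pow, hχ₁P w hw, mul_one],
      by rw [map_mul, map_pow, hχ₂P w hw, mul_one]⟩
  refine ⟨s, hTA.mem, hpow, ?_⟩
  intro heq
  -- `χ₁ = χ₂` on inertia
  have h12 : ∀ ι ∈ inertiaP p, χ₁ ι = χ₂ ι := by
    intro ι hι
    obtain ⟨n, h1, h2⟩ := hpow ι hι
    rw [h1, h2, heq]
  obtain ⟨a, ha⟩ := tame_char H38.stmt_Tame χ₁ L hN (fun σ hσ => (hL σ hσ).1)
  -- an odd exponent killing `ω` on inertia
  have hodd : ∀ τ ∈ inertiaP p, ∀ x : k, IsCycloAt x τ → x ^ (2 * a + (p - 2)) = 1 := by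
    intro τ hτ x hx
    have hx0 : x ≠ 0 := isCycloAt_ne_zero hx
    have h1 := hcyc τ hτ
    rw [← h12 τ hτ] at h1
    have h2 : x = (χ₁ τ : k) * (χ₁ τ : k) := isCycloAt_unique hx h1
    have h3 := ha τ hτ x hx
    -- `x = x ^ (2 a)`
    have h4 : x = x ^ (2 * a) := by
      conv_lhs => rw [h2, h3]
      rw [← pow_add, two_mul]
    -- `x ^ (p - 1) = 1`
    have h5 : x ^ (p - 1) = 1 := by
      obtain ⟨ζ, hz1, hζ⟩ := H15.exists_zeta (p := p)
      have hprim : IsPrimitiveRoot ζ p := by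
        rw [IsPrimitiveRoot.iff_orderOf]
        exact orderOf_eq_prime hζ hz1
      rw [(H85.isCycloAt_iff hprim x τ).mp hx, ← map_pow, ← Units.val_pow_eq_pow_val,
        ZMod.units_pow_card_sub_one_eq_one, Units.val_one, map_one]
    have h6 : x ^ (2 * a + (p - 2)) * x = x := by
      rw [← pow_succ, show 2 * a + (p - 2) + 1 = 2 * a + (p - 1) by
        have := hp.two_le; omega, pow_add, h5, mul_one]
      exact h4.symm
    exact mul_right_cancel₀ hx0 (h6.trans (one_mul x).symm)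
  have hdvd := omega_inertia_order (k := k) hodd
  -- parity
  have hp3 : 3 ≤ p := by
    have := hp.two_le
    omega
  have hpodd : p % 2 = 1 := by
    rcases hp.eq_two_or_odd with h | h
    · exact absurd h hp2
    · exact h
  have h2 : (2 : ℕ) ∣ p - 1 := by omega
  have h3 := h2.trans hdvd
  omega

end Fermat.Agent.S56.FL.H50

end

end
-- ==== END Fermat.Agent.S56.FL.H50_TameChars
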