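-- GENERATED (merged mirror, NOTES/tools/trim/merge3_helper67.py): 10 modules of the originals, bodies verbatim.
import Fermat.Agent.Zm.S56_L08_000
import Fermat.Agent.Zm.S56_L10_001
import Fermat.Agent.Zm.S56_L11_002
import Fermat.Agent.Zm.S56_L10_002
import Fermat.Agent.Zm.S56_L14_000
import Fermat.Agent.Zm.S56_L15_000
import Fermat.Agent.Zm.S56_L07_002
import Fermat.Agent.Zm.S56_L10_007
import Fermat.Agent.Zm.S56_L13_000
import Fermat.Agent.Zm.S56_L13_003
import Fermat.Agent.Zm.S56_L12_004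
import Fermat.Agent.Zm.S56_L10_006
import Fermat.Agent.Zm.S56_L10_004
import Fermat.Agent.Zm.S56_L08_002
import Fermat.Agent.Zm.S56_L15_001
import Fermat.Agent.Zm.S56_L02_002
import Fermat.Agent.Zm.S56_L06_001
import Fermat.Agent.Zm.S56_L04_000
import Fermat.Agent.Zm.S56_L09_001
import Fermat.Agent.Zm.S56_L04_003
import Fermat.Agent.S55.H48_E5Lin
import Fermat.Agent.Zm.S56_L01_003
import Fermat.Agent.Zm.S56_L12_002
import Fermat.Agent.Zm.S56_L11_003
import Fermat.Agent.Zm.S35_L02_001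
import Fermat.Agent.Zm.S56_L15_002
import Fermat.Agent.Zm.S56_L02_004

-- ==== BEGIN Fermat.Agent.S55.CFT.GS.H24_Final
section

set_option autoImplicit false

noncomputable section

namespace Fermat.Agent.S55.CFT.GS.H24

open Fermat.Agent.S55 Fermat.Agent.S55.Top Fermat.Agent.S55.CFT.GS

/-- `Stmt_GS_Hasse` from Layer A + bridge. -/
theorem gs_Hasse (hA : Stmt_BrHasseG) (hB : Stmt_GS_BriHasse) : Stmt_GS_Hasse :=
  asmHasse (hB hA)

/-- `Stmt_GS_One` from Layer A + bridge + local Kummer theory. -/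
theorem gs_One (hA : Stmt_BrOneG) (hB : Stmt_GS_BriOne) (hLK : Stmt_GS_LocKum) : Stmt_GS_One :=
  asmOne (hB hA) hLK

/-- `Stmt_GS_Two` from Layer A + bridge + local Kummer theory. -/
theorem gs_Two (hA : Stmt_BrTwoG) (hB : Stmt_GS_BriTwoIn) (hLK : Stmt_GS_LocKum) : Stmt_GS_Two :=
  asmTwo (hB hA) resSh1 H6.stmt_RES_Cap hLK

/-- `Stmt_GS_ResOnto` from Layer A + bridge. -/
theorem gs_ResOnto (hA : Stmt_BrTwoG) (hB : Stmt_GS_BriTwoOut) : Stmt_GS_ResOnto :=
  asmResOnto (hB hA) resSh1 H6.stmt_RES_Cap H6.stmt_RES_Cyc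

/-- **I2** of PT-LIN. -/
theorem gs_I2 (hTwo : Stmt_BrTwoG) (hH3 : Stmt_BrH3G) (hDiv : Stmt_BrDivG)
    (bTwoOut : Stmt_GS_BriTwoOut) (bH3 : Stmt_GS_BriH3) (bDiv : Stmt_GS_BriDiv) : Stmt_I2 :=
  asmI2 (bH3 hH3) (asmLift2 (bDiv hDiv) (gs_ResOnto hTwo bTwoOut))

/-- **I3** of PT-LIN. -/
theorem gs_I3 (hHasse : Stmt_BrHasseG) (hOne : Stmt_BrOneG)
    (bHasse : Stmt_GS_BriHasse) (bOne : Stmt_GS_BriOne) (hLK : Stmt_GS_LocKum)
    (hI1 : Stmt_I1) : Stmt_I3 :=
  asmI3 H6.stmt_GS_H90 (gs_Hasse hHasse bHasse) (gs_One hOne bOne hLK) H6.stmt_GS_UnitRank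
    H6.stmt_GS_ClassDim hI1

/-- **I4** of PT-LIN. -/
theorem gs_I4 (hOne : Stmt_BrOneG) (hTwo : Stmt_BrTwoG)
    (bOne : Stmt_GS_BriOne) (bTwoIn : Stmt_GS_BriTwoIn) (hLK : Stmt_GS_LocKum)
    (hI1 : Stmt_I1) : Stmt_I4 :=
  asmI4 (gs_One hOne bOne hLK) (gs_Two hTwo bTwoIn hLK) hI1

end Fermat.Agent.S55.CFT.GS.H24

end

end
-- ==== END Fermat.Agent.S55.CFT.GS.H24_Final

-- ==== BEGIN Fermat.Agent.S55.CFT.GS.H24_LocOutRed
section

set_option autoImplicit false
set_option linter.unusedSectionVars false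
set_option linter.unusedVariables false
set_option linter.style.haveILetI false

open CategoryTheory groupCohomology ExtCitation

open scoped Pointwise

noncomputable section

namespace Fermat.Agent.S55.CFT.GS.H24

open Fermat.Agent.S55 Fermat.Agent.S55.Top Fermat.Agent.S55.CFT Fermat.Agent.S55.CFT.GS.Bri

local notation "Qb" => AlgebraicClosure ℚ

/-- `N/K` normal: `G_K` maps `N` to itself. -/
theorem map_mem_of_normal_rel {K N : IntermediateField ℚ Qb} (hKN : K ≤ N)
    [Normal ↥K ↥(H6.NK hKN)] (g : GQ) (hg : g ∈ K.fixingSubgroup) (x : Qb) (hx : x ∈ N) :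
    g x ∈ N := by
  haveI : Normal ℚ Qb := H6.qb_normal
  haveI : Normal ↥K Qb := Normal.tower_top_of_normal ℚ ↥K Qb
  let g' : Qb ≃ₐ[↥K] Qb := IntermediateField.fixingSubgroupEquiv K ⟨g, hg⟩
  have h := (IntermediateField.normal_iff_forall_map_le' (K := H6.NK hKN)).mp inferInstance g'
  have h1 : g' x ∈ (H6.NK hKN).map (g' : Qb →ₐ[↥K] Qb) := ⟨x, hx, rfl⟩
  exact h h1

/-- **LOC-OUT** from LOC-S and the local comparison RESLOC. -/
theorem locOut_of (hLocS : Stmt_LocS) (hLev : Stmt_R2_lev) (hFwd : Stmt_ResLoc_fwd)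
    (hBwd : Stmt_ResLoc_bwd) : Stmt_LocOut := by
  intro p _ S K N hKN _ _ _ hNS q hq A σ hσA c b x hx hb hpow
  have hfd : FiniteDimensional ℚ ↥K := inferInstance
  have := h49_qbar_isGalois
  haveI : Finite (XK K) :=
    Subgroup.quotient_finite_of_isOpen K.fixingSubgroup K.fixingSubgroup_isOpen
  obtain ⟨hcN, hcoc⟩ := hLev K N hKN c x hx
  obtain ⟨g, hg, hσ'⟩ := psex K q σ
  have hnorm : ∀ g : GQ, g ∈ K.fixingSubgroup → ∀ x : Qb, x ∈ N → g x ∈ N :=
    fun g hg x hx => map_mem_of_normal_rel hKN g hg x hx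
  -- the place system through `σ`
  have h1 := hLocS ({q} : Finset Nat.Primes) K N hKN (placeSysAt K q σ) (qS q) (wAt K q σ) c x hx
  have hpl : plσ K (qS q).1 ((placeSysAt K q σ).σ (qS q) (wAt K q σ)) = plσ K q σ := by
    rw [hσ']
    have := plσ_eq_of_double K q σ 1 g hg
    rwa [map_one, one_mul] at this
  rw [hpl] at h1
  rw [h1]
  -- the place `g⁻¹ • A`
  have hA' : (placeSysAt K q σ).σ (qS q) (wAt K q σ) • (g⁻¹ • A) = primeLocalPlace (qS q).1 := by
    rw [hσ', mul_smul, smul_inv_smul]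
    exact hσA
  have hAq : A.LiesOverPrime (q : ℕ) := by
    have h2 : A = σ⁻¹ • primeLocalPlace q := by
      rw [← hσA, inv_smul_smul]
    rw [h2]
    exact H6.ur_liesOver_smul _ σ⁻¹ (q : ℕ) (H6.urA0_lies q)
  have hbΩ : ∀ g, InOm S (b g : Qb) := fun g => ⟨N, hNS, hb.2 g⟩
  have hW : ∀ t, InW S p (mOne b t) := fun t => ⟨c t, ⟨N, hNS, hcN.2 t⟩, hpow t⟩
  have hconj := resTrivAt_smul_iff (p := p) hbΩ hW q hq A hAq g⁻¹ (inv_mem hg)
  rw [← hconj]
  constructor
  · intro h
    exact hFwd p S K N hKN hNS hnorm {q} (placeSysAt K q σ) (qS q) (wAt K q σ) hq (g⁻¹ • A) hA'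
      c b hcN hcoc hb hpow h
  · intro h
    exact hBwd p S K N hKN hNS hnorm {q} (placeSysAt K q σ) (qS q) (wAt K q σ) hq (g⁻¹ • A) hA'
      c b hcN hcoc hb hpow h

end Fermat.Agent.S55.CFT.GS.H24

end

end
-- ==== END Fermat.Agent.S55.CFT.GS.H24_LocOutRed

-- ==== BEGIN Fermat.Agent.S55.CFT.H58_SHLLoc
section

/-!
# CFT package SHL (helper58), part 5: the semi-local algebra `K_v ⊗_K L`

`LocAlg K L v = (ℚ_q ⊗ L)/𝔪_v (ℚ_q ⊗ L)` is a nonzero reduced Artinian `ℚ_q`-algebra; its
`Gal(L/K)`-invariants come from `ℚ_q ⊗ K` (trace), so every element of a maximal ideal has norm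
`0`, `Gal(L/K)` permutes the maximal ideals transitively and the conjugates of a maximal ideal
intersect in `0`; `Gal(L/K)` acts faithfully on every residue field.  Hence `shl_place`.
-/

set_option autoImplicit false
set_option linter.unusedSectionVars false

noncomputable section

namespace Fermat.Agent.S55.CFT.H58

open NumberField TensorProduct CategoryTheory

section Loc

variable (K L : Type) [Field K] [Field L] [NumberField K] [NumberField L] [Algebra K L]
  (v : Place K)

instance locAlg_finite : Module.Finite (Qp v.1) (LocAlg K L v) := inferInstance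

instance locAlg_isArtinian : IsArtinianRing (LocAlg K L v) :=
  IsArtinianRing.of_finite (Qp v.1) _

instance locAlg_isReduced : IsReduced (LocAlg K L v) := by
  have : Algebra.FormallyUnramified ℚ L := Algebra.FormallyUnramified.of_isSeparable ℚ L
  have h1 : Algebra.FormallyUnramified (Qp v.1) (SemiLocal L v.1) := inferInstance
  have h2 : Algebra.FormallyUnramified (Qp v.1) (LocAlg K L v) :=
    Algebra.FormallyUnramified.of_surjective (Ideal.Quotient.mkₐ (Qp v.1) (placeIdeal K L v))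
      Ideal.Quotient.mk_surjective
  exact Algebra.FormallyUnramified.isReduced_of_field (Qp v.1) (LocAlg K L v)

/-- `𝔪_v (ℚ_q ⊗ L)` is a proper ideal. -/
theorem placeIdeal_ne_top : placeIdeal K L v ≠ ⊤ := by
  classical
  obtain ⟨q, w⟩ := v
  let _ : Fintype (MaximalSpectrum (SemiLocal K q)) := Fintype.ofFinite _
  intro htop
  have hidem : IsIdempotentElem (H80.wIdem K L q w) := (H80.wIdem_complete K L q).idem w
  have h1 : (1 : SemiLocal L q) ∈ Ideal.span {1 - H80.wIdem K L q w} := by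
    rw [← H80.placeIdeal_eq_span K L q w, htop]
    trivial
  obtain ⟨c, hc⟩ := Ideal.mem_span_singleton'.1 h1
  have h2 : H80.wIdem K L q w = 0 := by
    have h3 : H80.wIdem K L q w = c * (1 - H80.wIdem K L q w) * H80.wIdem K L q w := by
      rw [hc, one_mul]
    rw [h3, mul_assoc, sub_mul, one_mul, hidem.eq, sub_self, mul_zero]
  have h4 : H80.vIdem K q w = 0 := by
    apply H12.semiLocalMap_injective K L q
    rw [map_zero]
    exact h2
  have h5 := H80.mk_vIdem_self K q w
  rw [h4, map_zero] at h5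
  have : Nontrivial (SemiLocal K q ⧸ w.asIdeal) :=
    Ideal.Quotient.nontrivial_iff.2 w.isMaximal.ne_top
  exact zero_ne_one h5

instance locAlg_nontrivial : Nontrivial (LocAlg K L v) :=
  Ideal.Quotient.nontrivial_iff.2 (placeIdeal_ne_top K L v)

/-- The structure map `ℚ_q ⊗ K → K_v ⊗_K L`. -/
def locBase : SemiLocal K v.1 →+* LocAlg K L v :=
  (Ideal.Quotient.mk (placeIdeal K L v)).comp
    (semiLocalMap K L v.1 : SemiLocal K v.1 →+* SemiLocal L v.1)

lemma locBase_apply (a : SemiLocal K v.1) :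
    locBase K L v a = Ideal.Quotient.mk (placeIdeal K L v) (semiLocalMap K L v.1 a) := rfl

lemma locBase_eq_zero (a : SemiLocal K v.1) (ha : a ∈ v.2.asIdeal) : locBase K L v a = 0 := by
  rw [locBase_apply, Ideal.Quotient.eq_zero_iff_mem]
  exact Ideal.mem_map_of_mem _ ha

lemma locBase_mem_iff (P : Ideal (LocAlg K L v)) (hP : P ≠ ⊤) (a : SemiLocal K v.1) :
    locBase K L v a ∈ P ↔ a ∈ v.2.asIdeal := by
  have h1 : v.2.asIdeal ≤ P.comap (locBase K L v) := fun a ha => by
    rw [Ideal.mem_comap, locBase_eq_zero K L v a ha]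
    exact P.zero_mem
  have h2 : P.comap (locBase K L v) ≠ ⊤ := by
    intro h
    apply hP
    rw [Ideal.eq_top_iff_one]
    have : (1 : SemiLocal K v.1) ∈ P.comap (locBase K L v) := by rw [h]; trivial
    simpa using this
  have h3 := v.2.isMaximal.eq_of_le h2 h1
  rw [h3]
  rfl

lemma locAlg_smul_mk (σ : L ≃ₐ[K] L) (y : SemiLocal L v.1) :
    σ • (Ideal.Quotient.mk (placeIdeal K L v) y) =
      Ideal.Quotient.mk (placeIdeal K L v) (σ • y) := rfl

/-- The `Gal(L/K)`-invariants of `K_v ⊗_K L` come from `ℚ_q ⊗ K`. -/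
theorem locAlg_exists_of_invariant [IsGalois K L] (b : LocAlg K L v)
    (hb : ∀ σ : L ≃ₐ[K] L, σ • b = b) : ∃ a : SemiLocal K v.1, locBase K L v a = b := by
  classical
  obtain ⟨y, rfl⟩ := Ideal.Quotient.mk_surjective b
  have hn : ((Module.finrank K L : ℕ) : Qp v.1) ≠ 0 := by
    exact_mod_cast (Module.finrank_pos (R := K) (M := L)).ne'
  refine ⟨algebraMap (Qp v.1) (SemiLocal K v.1) ((Module.finrank K L : ℕ) : Qp v.1)⁻¹ *
    H12.semiLocalTrace K L v.1 y, ?_⟩
  rw [map_mul, locBase_apply, locBase_apply, H12.semiLocalMap_trace, map_sum]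
  have h1 : ∀ σ : L ≃ₐ[K] L, Ideal.Quotient.mk (placeIdeal K L v) (σ • y) =
      Ideal.Quotient.mk (placeIdeal K L v) y := fun σ => by
    rw [← locAlg_smul_mk, hb]
  rw [Finset.sum_congr rfl (fun σ _ => h1 σ), Finset.sum_const, Finset.card_univ,
    ← Nat.card_eq_fintype_card, IsGalois.card_aut_eq_finrank, AlgHom.commutes,
    nsmul_eq_mul, ← mul_assoc]
  have h2 : Ideal.Quotient.mk (placeIdeal K L v)
      (algebraMap (Qp v.1) (SemiLocal L v.1) ((Module.finrank K L : ℕ) : Qp v.1)⁻¹) *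
      ((Module.finrank K L : ℕ) : LocAlg K L v) = 1 := by
    rw [← map_natCast (Ideal.Quotient.mk (placeIdeal K L v)), ← map_mul,
      ← map_natCast (algebraMap (Qp v.1) (SemiLocal L v.1)), ← map_mul, inv_mul_cancel₀ hn,
      map_one, map_one]
  rw [h2, one_mul]

/-- Every element of a maximal ideal of `K_v ⊗_K L` has a conjugate in `M` (its norm is `0`). -/
theorem locAlg_exists_smul_mem [IsGalois K L] (M : Ideal (LocAlg K L v)) [hM : M.IsMaximal]
    (P : Ideal (LocAlg K L v)) (hP : P.IsMaximal) (b : LocAlg K L v) (hb : b ∈ P) :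
    ∃ g : L ≃ₐ[K] L, g • b ∈ M := by
  classical
  have hinv : ∀ σ : L ≃ₐ[K] L, σ • (∏ g : L ≃ₐ[K] L, g • b) = ∏ g : L ≃ₐ[K] L, g • b :=
    fun σ => Finset.smul_prod_perm b σ
  obtain ⟨a, ha⟩ := locAlg_exists_of_invariant K L v _ hinv
  have hmem : (∏ g : L ≃ₐ[K] L, g • b) ∈ P := by
    rw [← Finset.mul_prod_erase Finset.univ _ (Finset.mem_univ (1 : L ≃ₐ[K] L)), one_smul]
    exact P.mul_mem_right _ hb
  rw [← ha, locBase_mem_iff K L v P hP.ne_top] at hmem
  have h0 : (∏ g : L ≃ₐ[K] L, g • b) ∈ M := by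
    rw [← ha, locBase_mem_iff K L v M hM.ne_top]
    exact hmem
  obtain ⟨g, -, hg⟩ := (hM.isPrime.prod_mem_iff).1 h0
  exact ⟨g, hg⟩

theorem locAlg_orbitSeparates [IsGalois K L] (M : Ideal (LocAlg K L v)) [hM : M.IsMaximal] :
    OrbitSeparates (L ≃ₐ[K] L) M :=
  orbitSeparates_of_forall (fun P hP b hb => locAlg_exists_smul_mem K L v M P hP b hb)

/-- `L → K_v ⊗_K L`. -/
def locIncl : L →+* LocAlg K L v :=
  (Ideal.Quotient.mk (placeIdeal K L v)).comp
    ((Algebra.TensorProduct.includeRight : L →ₐ[ℚ] SemiLocal L v.1) : L →+* SemiLocal L v.1)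

lemma locIncl_smul (g : L ≃ₐ[K] L) (x : L) :
    g • locIncl K L v x = locIncl K L v (g x) := by
  change Ideal.Quotient.mk (placeIdeal K L v)
    (semiLocalEquiv K L v.1 g ((1 : Qp v.1) ⊗ₜ[ℚ] x)) = _
  rw [semiLocalEquiv_tmul]
  rfl

theorem locAlg_faithful (M : Ideal (LocAlg K L v)) [hM : M.IsMaximal]
    (g : L ≃ₐ[K] L) (hg : ∀ b : LocAlg K L v, g • b - b ∈ M) : g = 1 := by
  apply AlgEquiv.ext
  intro x
  rw [AlgEquiv.one_apply]
  by_contra hne
  have h1 := hg (locIncl K L v x)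
  rw [locIncl_smul, ← RingHom.map_sub] at h1
  have h2 : IsUnit (g x - x) := IsUnit.mk0 _ (sub_ne_zero.2 hne)
  exact hM.ne_top (Ideal.eq_top_of_isUnit_mem M h1 (h2.map (locIncl K L v)))

lemma locAlg_smul_algebraMap (σ : L ≃ₐ[K] L) (c : Qp v.1) :
    σ • algebraMap (Qp v.1) (LocAlg K L v) c = algebraMap (Qp v.1) (LocAlg K L v) c := by
  change Ideal.Quotient.mk (placeIdeal K L v)
    (semiLocalEquiv K L v.1 σ (algebraMap (Qp v.1) (SemiLocal L v.1) c)) = _
  rw [AlgEquiv.commutes]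
  rfl

/-- **SHL** for one place. -/
theorem shl_place (p m : ℕ) (h : Hyp3 K L p m) :
    Subsingleton (groupCohomology (unitsRepOf (L ≃ₐ[K] L) (LocAlg K L v)) 1) ∧
    Finite (groupCohomology (unitsRepOf (L ≃ₐ[K] L) (LocAlg K L v)) 2) ∧
    Nat.card (groupCohomology (unitsRepOf (L ≃ₐ[K] L) (LocAlg K L v)) 2) *
      Nat.card (MaximalSpectrum (LocAlg K L v)) = Module.finrank K L ∧
    (∃ g : groupCohomology (unitsRepOf (L ≃ₐ[K] L) (LocAlg K L v)) 2,
      ∀ x : groupCohomology (unitsRepOf (L ≃ₐ[K] L) (LocAlg K L v)) 2, ∃ n : ℤ, x = n • g) ∧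
    Subsingleton (groupCohomology (unitsRepOf (L ≃ₐ[K] L) (LocAlg K L v)) 3) := by
  have hgal : IsGalois K L := h.gal
  have hq : Fact ((v.1 : ℕ)).Prime := fact_primes v.1
  have hp : Fact p.Prime := ⟨h.prime⟩
  obtain ⟨M, hM⟩ := Ideal.exists_maximal (LocAlg K L v)
  have hG : IsPGroup p (L ≃ₐ[K] L) :=
    IsPGroup.of_card (n := m) (by rw [IsGalois.card_aut_eq_finrank, h.deg])
  have := shl_abstract (v.1 : ℕ) p M hG (locAlg_orbitSeparates K L v M)
    (locAlg_faithful K L v M) (locAlg_smul_algebraMap K L v)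
  rw [IsGalois.card_aut_eq_finrank] at this
  exact this

end Loc

end Fermat.Agent.S55.CFT.H58

end
end
-- ==== END Fermat.Agent.S55.CFT.H58_SHLLoc

-- ==== BEGIN Fermat.Agent.S55.CFT.LOC.H25_LTO_Aux
section

set_option autoImplicit false
set_option linter.unusedSectionVars false
set_option linter.style.haveILetI false

namespace Fermat.Agent.S55.CFT.LOC.H25

open groupCohomology Fermat.Agent.S55.CFT.LOC Fermat.Agent.S55.CFT

/-- A subgroup of prime index is maximal: a proper subgroup containing it is equal to it. -/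
theorem le_of_index_prime {G : Type*} [Group G] {H K : Subgroup G} {p : ℕ} (hp : p.Prime)
    (hHK : H ≤ K) (hH : H.index = p) (hK : K ≠ ⊤) : K ≤ H := by
  have h1 := Subgroup.relIndex_mul_index hHK
  rw [hH] at h1
  have h2 : K.index ∣ p := Dvd.intro_left _ h1
  have h3 : K.index ≠ 1 := fun h => hK (Subgroup.index_eq_one.mp h)
  have h4 : K.index = p := (Nat.dvd_prime hp).mp h2 |>.resolve_left h3
  rw [h4] at h1
  have h5 : H.relIndex K = 1 := by
    have hp0 : 0 < p := hp.pos
    exact Nat.eq_of_mul_eq_mul_right hp0 (by rw [h1, one_mul])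
  exact Subgroup.relIndex_eq_one.mp h5

theorem exists_norm_congr {K M : Type*} [Field K] [Field M] [Algebra K M]
    {E₁ E₂ : IntermediateField K M} (h : E₁ = E₂) (a : K) :
    (∃ y : E₁, Algebra.norm K y = a) ↔ ∃ y : E₂, Algebra.norm K y = a := by
  subst h
  rfl

/-- membership in the norm subgroup -/
theorem mem_normSubgroup_iff {F E : Type} [Field F] [Field E] [Algebra F E]
    [FiniteDimensional F E] (a : Fˣ) :
    a ∈ normSubgroup F E ↔ ∃ y : E, Algebra.norm F y = (a : F) := by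
  constructor
  · rintro ⟨y, rfl⟩
    exact ⟨(y : E), rfl⟩
  · rintro ⟨y, hy⟩
    have hy0 : y ≠ 0 := by
      rintro rfl
      rw [Algebra.norm_zero] at hy
      exact a.ne_zero hy.symm
    exact ⟨Units.mk0 y hy0, Units.ext hy⟩

section idx

variable (q : ℕ) [Fact q.Prime] (p : ℕ) [Fact p.Prime] (K Ω : Type) [Field K] [Field Ω]
  [Algebra ℚ_[q] K] [FiniteDimensional ℚ_[q] K] [Algebra K Ω] [FiniteDimensional K Ω]
  [IsGalois K Ω]

include q in
/-- The norm group of the fixed field of the kernel of a nontrivial character is proper. -/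
theorem normSubgroup_kerField_ne_top (χ : (Ω ≃ₐ[K] Ω) →* Multiplicative (ZMod p)) (hχ : χ ≠ 1) :
    normSubgroup K (kerField K Ω p χ) ≠ ⊤ := by
  intro htop
  haveI := isGalois_kerField K Ω p χ
  haveI := normal_kerField K Ω p χ
  obtain ⟨g₁, hg₁⟩ := exists_char_gen K Ω p χ hχ
  have hcyc : IsCyclic (kerField K Ω p χ ≃ₐ[K] kerField K Ω p χ) :=
    ⟨⟨_, mem_zpowers_gen K Ω p χ g₁ hg₁⟩⟩
  have hidx := H68.stmt_LocalNormIndexCyclic q K (kerField K Ω p χ) hcyc
  rw [htop, Subgroup.index_top] at hidx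
  have hbot : kerField K Ω p χ = ⊥ := IntermediateField.finrank_eq_one_iff.mp hidx.symm
  have hker : χ.ker = ⊤ := by
    have h1 := IntermediateField.fixingSubgroup_fixedField (F := K) (E := Ω) χ.ker
    have h2 : IntermediateField.fixedField χ.ker = ⊥ := hbot
    rw [h2, IntermediateField.fixingSubgroup_bot] at h1
    exact h1.symm
  apply hχ
  ext g
  have : g ∈ χ.ker := by rw [hker]; exact Subgroup.mem_top g
  exact congrArg _ (MonoidHom.mem_ker.mp this)

end idx

end Fermat.Agent.S55.CFT.LOC.H25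

end
-- ==== END Fermat.Agent.S55.CFT.LOC.H25_LTO_Aux

-- ==== BEGIN Fermat.Agent.S55.CFT.LOC.H5_I1
section

set_option autoImplicit false

namespace Fermat.Agent.S55.CFT.LOC.H5

/-- **LOC-5 = I1**: the local inputs of the `K`-level counting argument. -/
theorem stmt_I1 : Top.Stmt_I1 :=
  stmt_I1_of' H45P.stmt_L5_Places H68.stmt_L5_CupND H72.stmt_L5_H2Dim

end Fermat.Agent.S55.CFT.LOC.H5

end
-- ==== END Fermat.Agent.S55.CFT.LOC.H5_I1

-- ==== BEGIN Fermat.Agent.S55.CFT.LOC.H68_TQLFinal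
section

set_option autoImplicit false

namespace Fermat.Agent.S55.CFT.LOC.H68

/-- **TQ-L**: there is a class in `H²(ℚ_p, μ_p)` with nonzero restriction to `ℚ_p(ζ_p)`. -/
theorem stmt_TQ_Loc : Fermat.Agent.S55.Top.Stmt_TQ_Loc :=
  stmt_TQ_Loc_of H9.stmt_TQL_Val H9.stmt_TQL_Unr

end Fermat.Agent.S55.CFT.LOC.H68

end
-- ==== END Fermat.Agent.S55.CFT.LOC.H68_TQLFinal

-- ==== BEGIN Fermat.Agent.S55.Top.SH
section

set_option autoImplicit false
set_option linter.unusedSectionVars false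
set_option linter.unusedSimpArgs false
set_option linter.unusedVariables false

open CategoryTheory Module groupCohomology ExtCitation

noncomputable section

namespace Fermat.Agent.S55.Top

open Fermat.Agent.S55 OrbitData

attribute [local instance] locAct

/-- The cyclotomic character is trivial on `G_K` for a base field `K`. -/
lemma cycloChar_eq_one_of_baseField {S : Finset Nat.Primes} {p : ℕ} [Fact p.Prime]
    {K : IntermediateField ℚ (AlgebraicClosure ℚ)} (hK : IsBaseField S p K)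
    (s : GQ) (hs : s ∈ K.fixingSubgroup) : cycloChar p s = 1 := by
  obtain ⟨ζ, hζK, hζ⟩ := hK.2
  apply H48.cycloChar_eq_one_of_fix
  intro t ht
  have hp : 0 < p := (Fact.out : p.Prime).pos
  obtain ⟨i, _, rfl⟩ := hζ.eq_pow_of_pow_eq_one ht
  have hmem : ζ ^ i ∈ K := pow_mem hζK i
  exact (IntermediateField.mem_fixingSubgroup_iff K s).1 hs _ hmem

lemma card_XK_ne_zero {p : ℕ} [Fact p.Prime] {K : IntermediateField ℚ (AlgebraicClosure ℚ)}
    [Fintype (XK K)] (hidx : ¬ p ∣ K.fixingSubgroup.index) :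
    (Fintype.card (XK K) : ZMod p) ≠ 0 := by
  intro h0
  apply hidx
  rw [Subgroup.index_eq_card, Nat.card_eq_fintype_card]
  exact (ZMod.natCast_eq_zero_iff _ _).1 h0

section nonvanishing

variable {k : Type} [Field k] {S : Finset Nat.Primes}
  {K : IntermediateField ℚ (AlgebraicClosure ℚ)} {𝔓 : PlaceSys S K}
  {χ : GQ →* kˣ} (𝔲 : Untwist χ K) [Fintype (XK K)] [DecidableEq (XK K)]

lemma Untwist.sumC3_j (z : C3c S (kχ χ)) :
    𝔲.sumC3 (mapC3 𝔲.jLin z : C3c S (FX k K)) = (Fintype.card (XK K) : k) • z := by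
  refine Prod.ext (funext fun t => ?_) (funext fun q => funext fun t => ?_)
  · exact 𝔲.sum_j _
  · exact 𝔲.sum_j _

/-- The `K`-level trace is nonzero on some cone 3-cocycle. -/
theorem trK_ne_zero (hK : K.IsUnramifiedOutside S) (tr : Trace S χ)
    (hcard : (Fintype.card (XK K) : k) ≠ 0) {z : C3c S (kχ χ)} (hz : IsZ3c S (kχ χ) z)
    (htr : tr.toFun z ≠ 0) :
    ∃ x : 𝔓.C3 k, IsZ3cK 𝔓 x ∧ (𝔓.trK 𝔲 hK tr).toFun x ≠ 0 := by
  have hzX : IsZ3c S (FX k K) (mapC3 𝔲.jLin z) := H48.isZ3c_push 𝔲.jHom hz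
  refine ⟨𝔓.Sh₃ (mapC3 𝔲.jLin z), isZ3cK_Sh₃ hK hzX, ?_⟩
  rw [𝔓.trK_apply, ← 𝔲.tr_sumC3_eq tr (isB3c_sub_U₃_Sh₃ (𝔓 := 𝔓) hK hzX), 𝔲.sumC3_j, map_smul]
  exact mul_ne_zero hcard htr

end nonvanishing

/-- **SH**: `Stmt_TopQ0 → Stmt_TopK → Stmt_E4P`. -/
theorem stmt_E4P_of_top (hQ : Stmt_TopQ0) (hT : Stmt_TopK) : Stmt_E4P := by
  intro p _ hp2 S hpS K hK hidx
  classical
  haveI : Finite (XK K) := finite_XK hK.1
  letI : Fintype (XK K) := Fintype.ofFinite _
  have hχ : LevChar S (cycloChar p) := H48.stmt_levChar p S hpS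
  obtain ⟨z, hz, hzB⟩ := hQ p hp2 S hpS
  have hzB' : z ∉ B3cSub S (kχ (cycloChar p)) := hzB
  obtain ⟨φ, hφB, hφz⟩ := H48.exists_functional_sep (B3cSub S (kχ (cycloChar p))) hzB'
  have hcard := card_XK_ne_zero (p := p) (K := K) hidx
  have hne := trK_ne_zero (𝔓 := placeSysOut S K)
    ((placeSysOut S K).untwist (cycloChar p) (cycloChar_eq_one_of_baseField hK)) hK.1
    (⟨φ, fun x hx => hφB x hx⟩ : Trace S (cycloChar p)) hcard hz hφz
  obtain ⟨hA2, hA3, hB1, hB2⟩ := hT p hp2 S hpS K hK (placeSysOut S K) _ hne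
  have hr := H48.stmt_E2 (ZMod p) S (cycloChar p)
    (⟨φ, fun x hx => hφB x hx⟩ : Trace S (cycloChar p)) (permRep (ZMod p) K) (FX (ZMod p) K)
    isRetract_perm_FX
  exact ⟨⟨φ, fun x hx => hφB x hx⟩,
    hr.1 (alphaTwoEpi_FX _ hK.1 _ hχ hA2), hr.2.1 (alphaThreeMono_FX _ hK.1 _ hA3),
    hr.2.2.1 (betaOneEpi_FX _ hK.1 _ hχ hB1), hr.2.2.2 (betaTwoMono_FX _ hK.1 _ hχ hB2)⟩

end Fermat.Agent.S55.Top

end

end
-- ==== END Fermat.Agent.S55.Top.SH

-- ==== BEGIN Fermat.Agent.S56.EC.H27_TrDefs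
section

set_option autoImplicit false
set_option linter.unusedSectionVars false
set_option linter.style.haveILetI false

/-!
# EC / UBR / TR (helper27): the equivariant Dirichlet unit theorem as a trace identity

Definitions: `ordT`, `logT`, `phiT`, `actE`, `sF`, `sInf`, `piT`, `vZero`; equivariance `phiT_actE`.
-/

noncomputable section

namespace Fermat.Agent.S56.EC.H27

open NumberField IsDedekindDomain Module Fermat.Agent.S55.CFT Fermat.Agent.S55.CFT.H12

/-- **PLC**: the Galois action on the finite places is compatible with the valuations. -/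
def Stmt_PLC : Prop :=
  ∀ (K : Type) [Field K] [NumberField K] (σ : K ≃ₐ[ℚ] K) (w : HeightOneSpectrum (𝓞 K)),
    ∃ w' : HeightOneSpectrum (𝓞 K), ∀ x : K, w'.valuation K x = w.valuation K (σ x)

/-- **LOGSPAN**: the full logarithmic embedding of the units spans the hyperplane `∑ = 0`. -/
def Stmt_LOGSPAN : Prop :=
  ∀ (K : Type) [Field K] [NumberField K] (y : InfinitePlace K → ℝ), ∑ w, y w = 0 →
    y ∈ Submodule.span ℝ (Set.range fun u : (𝓞 K)ˣ => fun w : InfinitePlace K =>
      (InfinitePlace.mult w : ℝ) * Real.log (w (u : K)))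

section general

variable (K : Type) [Field K] [NumberField K] (T : Finset Nat.Primes)

/-- The valuation vector of a `T`-unit. -/
def ordT : Additive (TUnits K T) →ₗ[ℤ] (primesT K T → ℤ) :=
  (valAdd K (primesT K T)).comp (tUnitsEquiv K T).toLinearMap

theorem ordT_apply (u : Additive (TUnits K T)) (w : primesT K T) :
    ordT K T u w =
      Multiplicative.toAdd (w.1.valuationOfNeZero ((Additive.toMul u : TUnits K T) : Kˣ)) := rfl

/-- The value of a `T`-unit in `K`. -/
def valK (u : Additive (TUnits K T)) : K := (((Additive.toMul u : TUnits K T) : Kˣ) : K)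

theorem valK_ne_zero (u : Additive (TUnits K T)) : valK K T u ≠ 0 :=
  ((Additive.toMul u : TUnits K T) : Kˣ).ne_zero

theorem valK_add (u v : Additive (TUnits K T)) : valK K T (u + v) = valK K T u * valK K T v := rfl

theorem valK_zero : valK K T 0 = 1 := rfl

theorem valuation_valK (u : Additive (TUnits K T)) (w : primesT K T) :
    w.1.valuation K (valK K T u) =
      ((Multiplicative.ofAdd (ordT K T u w) : Multiplicative ℤ) : WithZero (Multiplicative ℤ)) := by
  rw [ordT_apply, ofAdd_toAdd, HeightOneSpectrum.valuationOfNeZero_eq]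
  rfl

/-- The logarithms of the absolute values of a `T`-unit at the infinite places. -/
def logT : Additive (TUnits K T) →+ (InfinitePlace K → ℝ) where
  toFun u w := (InfinitePlace.mult w : ℝ) * Real.log (w (valK K T u))
  map_zero' := by
    funext w
    show (InfinitePlace.mult w : ℝ) * Real.log (w (valK K T 0)) = 0
    rw [valK_zero, map_one, Real.log_one, mul_zero]
  map_add' u v := by
    funext w
    show (InfinitePlace.mult w : ℝ) * Real.log (w (valK K T (u + v))) =
      (InfinitePlace.mult w : ℝ) * Real.log (w (valK K T u)) +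
        (InfinitePlace.mult w : ℝ) * Real.log (w (valK K T v))
    rw [valK_add, map_mul, Real.log_mul, mul_add]
    · exact (map_ne_zero w).2 (valK_ne_zero K T u)
    · exact (map_ne_zero w).2 (valK_ne_zero K T v)

theorem logT_apply (u : Additive (TUnits K T)) (w : InfinitePlace K) :
    logT K T u w = (InfinitePlace.mult w : ℝ) * Real.log (w (valK K T u)) := rfl

/-- The realisation space. -/
abbrev VK : Type := (primesT K T → ℝ) × (InfinitePlace K → ℝ)

/-- The realisation `u ↦ (ord u, log |u|)`. -/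
def phiT : Additive (TUnits K T) →+ VK K T where
  toFun u := (fun w => ((ordT K T u w : ℤ) : ℝ), logT K T u)
  map_zero' := by
    refine Prod.ext ?_ ?_
    · funext w
      show ((ordT K T 0 w : ℤ) : ℝ) = 0
      rw [map_zero, Pi.zero_apply, Int.cast_zero]
    · exact map_zero (logT K T)
  map_add' u v := by
    refine Prod.ext ?_ ?_
    · funext w
      show ((ordT K T (u + v) w : ℤ) : ℝ) = ((ordT K T u w : ℤ) : ℝ) + ((ordT K T v w : ℤ) : ℝ)
      rw [map_add, Pi.add_apply, Int.cast_add]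
    · exact map_add (logT K T) u v

theorem phiT_fst (u : Additive (TUnits K T)) (w : primesT K T) :
    (phiT K T u).1 w = ((ordT K T u w : ℤ) : ℝ) := rfl

theorem phiT_snd (u : Additive (TUnits K T)) : (phiT K T u).2 = logT K T u := rfl

/-- The action on the `T`-units. -/
def actE (σ : K ≃ₐ[ℚ] K) : Additive (TUnits K T) →ₗ[ℤ] Additive (TUnits K T) :=
  ((MulDistribMulAction.toMonoidHom (TUnits K T) σ).toAdditive).toIntLinearMap

theorem valK_actE (σ : K ≃ₐ[ℚ] K) (u : Additive (TUnits K T)) :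
    valK K T (actE K T σ u) = σ (valK K T u) := rfl

/-! ### The action on the places -/

theorem mem_primesT_iff_val (w : HeightOneSpectrum (𝓞 K)) :
    w ∈ primesT K T ↔ w.valuation K ((prodT T : ℕ) : K) < 1 := by
  have h : algebraMap (𝓞 K) K ((prodT T : ℕ) : 𝓞 K) = ((prodT T : ℕ) : K) :=
    map_natCast (algebraMap (𝓞 K) K) _
  rw [mem_primesT, ← HeightOneSpectrum.valuation_lt_one_iff_mem (K := K), ← h]

variable (hPLC : Stmt_PLC)

/-- The action on the primes over `T`: `w ↦ σ⁻¹ w`. -/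
def sF (σ : K ≃ₐ[ℚ] K) (w : primesT K T) : primesT K T :=
  ⟨Classical.choose (hPLC K σ w.1), by
    rw [mem_primesT_iff_val, Classical.choose_spec (hPLC K σ w.1), map_natCast σ,
      ← mem_primesT_iff_val]
    exact w.2⟩

theorem sF_spec (σ : K ≃ₐ[ℚ] K) (w : primesT K T) (x : K) :
    (sF K T hPLC σ w).1.valuation K x = w.1.valuation K (σ x) :=
  Classical.choose_spec (hPLC K σ w.1) x

/-- The action on the infinite places: `w ↦ w ∘ σ`. -/
def sInf (σ : K ≃ₐ[ℚ] K) (w : InfinitePlace K) : InfinitePlace K :=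
  w.comap ((σ : K ≃+* K) : K →+* K)

theorem sInf_apply (σ : K ≃ₐ[ℚ] K) (w : InfinitePlace K) (x : K) :
    sInf K σ w x = w (σ x) := rfl

theorem mult_sInf (σ : K ≃ₐ[ℚ] K) (w : InfinitePlace K) :
    InfinitePlace.mult (sInf K σ w) = InfinitePlace.mult w := by
  have h := InfinitePlace.isReal_comap_iff (σ : K ≃+* K) (w := w)
  unfold InfinitePlace.mult
  by_cases hw : w.IsReal
  · rw [if_pos hw, if_pos (show (sInf K σ w).IsReal from h.2 hw)]
  · rw [if_neg hw, if_neg (show ¬ (sInf K σ w).IsReal from fun h' => hw (h.1 h'))]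

theorem ordT_actE (σ : K ≃ₐ[ℚ] K) (u : Additive (TUnits K T)) (w : primesT K T) :
    ordT K T (actE K T σ u) w = ordT K T u (sF K T hPLC σ w) := by
  have h1 := valuation_valK K T (actE K T σ u) w
  have h2 := valuation_valK K T u (sF K T hPLC σ w)
  rw [valK_actE, ← sF_spec K T hPLC, h2] at h1
  exact (Multiplicative.ofAdd.injective (WithZero.coe_injective h1)).symm

theorem logT_actE (σ : K ≃ₐ[ℚ] K) (u : Additive (TUnits K T)) (w : InfinitePlace K) :
    logT K T (actE K T σ u) w = logT K T u (sInf K σ w) := by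
  rw [logT_apply, logT_apply, valK_actE, mult_sInf, sInf_apply]

/-- The permutation operator on the realisation space. -/
def piT (σ : K ≃ₐ[ℚ] K) : VK K T →ₗ[ℝ] VK K T :=
  LinearMap.prodMap (LinearMap.funLeft ℝ ℝ (sF K T hPLC σ)) (LinearMap.funLeft ℝ ℝ (sInf K σ))

theorem phiT_actE (σ : K ≃ₐ[ℚ] K) (u : Additive (TUnits K T)) :
    phiT K T (actE K T σ u) = piT K T hPLC σ (phiT K T u) := by
  refine Prod.ext ?_ ?_
  · funext w
    show ((ordT K T (actE K T σ u) w : ℤ) : ℝ) = ((ordT K T u (sF K T hPLC σ w) : ℤ) : ℝ)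
    rw [ordT_actE]
  · funext w
    exact logT_actE K T σ u w

/-- The fixed vector. -/
def vZero : VK K T := (0, fun _ => 1)

theorem piT_vZero (σ : K ≃ₐ[ℚ] K) : piT K T hPLC σ (vZero K T) = vZero K T := by
  refine Prod.ext ?_ ?_
  · funext w
    rfl
  · funext w
    rfl

end general

end Fermat.Agent.S56.EC.H27

end

end
-- ==== END Fermat.Agent.S56.EC.H27_TrDefs

-- ==== BEGIN Fermat.Agent.S56.EC.H92_DescDB
section

set_option autoImplicit false
set_option linter.style.haveILetI false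
set_option linter.unusedSectionVars false

/-!
# EC / DESC / DB, part 3 (helper92): the Frobenius eigenspace and `h⁰(ℚ_q, N')`; `Stmt_DB`

* `cycloK_frob`  : `χ(φ) = q` for a Frobenius element `φ` at `q ≠ p`;
* `finrank_eigQ_le` : `dim ker (φ - q | N) ≤ h⁰(ℚ_q, N')`;
* `stmt_DB : Stmt_DB`.
-/

noncomputable section

namespace Fermat.Agent.S56.EC.DESC.H92

open CategoryTheory groupCohomology ExtCitation Module Fermat.Agent.S56.EC
  Fermat.Agent.S56.EC.DESC

local notation "Qbar" => AlgebraicClosure ℚ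

section cyclo

variable (p : ℕ) [Fact p.Prime] (k : Type) [Field k] [CharP k p] (q : Nat.Primes)

/-- The cyclotomic character of a Frobenius element at `q ≠ p` is `q`. -/
theorem cycloK_frob (hqp : (q : ℕ) ≠ p) (φ : GQ)
    (hφ : (primeLocalPlace q).IsFrobeniusAt φ (q : ℕ)) :
    (cycloK p k φ : k) = ((q : ℕ) : k) := by
  have hp : p.Prime := Fact.out
  obtain ⟨ζ, hζ⟩ := S55.H48.exists_primitiveRoot p
  have hndvd : ¬ (q : ℕ) ∣ p := fun h =>
    hqp ((Nat.prime_dvd_prime_iff_eq q.2 hp).1 h)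
  have h1 := Fermat.Agent.S56.H9.frob_root_general φ hφ hndvd hζ.pow_eq_one
  have h2 := Fermat.Agent.S56.TWS.H27.map_root_eq_pow p φ ζ hζ.pow_eq_one
  have h3 : ζ ^ ((q : ℕ) % p) = ζ ^ (cycloExp p φ % p) := by
    rw [← pow_eq_pow_mod _ hζ.pow_eq_one, ← pow_eq_pow_mod _ hζ.pow_eq_one, ← h1, ← h2]
  have h4 : (q : ℕ) % p = cycloExp p φ % p :=
    hζ.pow_inj (Nat.mod_lt _ hp.pos) (Nat.mod_lt _ hp.pos) h3
  rw [Fermat.Agent.S56.TWS.H27.cycloK_val]
  exact ((CharP.natCast_eq_natCast k p).2 h4).symm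

end cyclo

section inv

variable {p : ℕ} [Fact p.Prime] {k : Type} [Field k] [CharP k p] {N : Rep.{0} k GQ}
  [FiniteDimensional k N] {S : Finset Nat.Primes} {q : Nat.Primes}

/-- A functional `λ` with `λ ∘ φ = q λ` is fixed by `φ` in the Tate dual. -/
lemma tateDual_frob_fix (hqp : (q : ℕ) ≠ p) (φ : GQ)
    (hφ : (primeLocalPlace q).IsFrobeniusAt φ (q : ℕ)) (lam : Module.Dual k N)
    (hlam : lam ∘ₗ N.ρ φ = ((q : ℕ) : k) • lam) :
    (tateDual p N).ρ φ lam = lam := by
  rw [Fermat.Agent.S56.H47.tateDual_ρ_apply, cycloK_frob p k q hqp φ hφ]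
  apply LinearMap.ext
  intro m
  have h1 := LinearMap.congr_fun hlam (N.ρ φ⁻¹ m)
  have h2 : N.ρ φ (N.ρ φ⁻¹ m) = m := by
    rw [← Module.End.mul_apply, ← map_mul, mul_inv_cancel, map_one, Module.End.one_apply]
  rw [LinearMap.comp_apply, h2] at h1
  rw [LinearMap.smul_apply, LinearMap.comp_apply]
  exact h1.symm

/-- Functionals `λ` with `λ ∘ φ = q λ` are `G_q`-invariant elements of `N'`. -/
theorem tateDual_local_fix (hq : q ∉ S) (hqp : (q : ℕ) ≠ p) (hN : S55.Lev S N) (φ : GQ)
    (hφ : (primeLocalPlace q).IsFrobeniusAt φ (q : ℕ)) (lam : Module.Dual k N)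
    (hlam : lam ∘ₗ N.ρ φ = ((q : ℕ) : k) • lam) (g : primeLocalGaloisGroup q) :
    (tateDual p N).ρ (primeLocalToGlobal q g) lam = lam := by
  have hp : p.Prime := Fact.out
  obtain ⟨FN, hFN, hNtriv⟩ := hN
  haveI := hFN.1
  obtain ⟨ζ, hζ⟩ := S55.H48.exists_primitiveRoot p
  have hζint : IsIntegral ℚ ζ := hζ.isIntegral hp.pos |>.tower_top (R := ℤ)
  haveI : FiniteDimensional ℚ (IntermediateField.adjoin ℚ {ζ}) :=
    IntermediateField.adjoin.finiteDimensional hζint
  have hEfd : FiniteDimensional ℚ (FN ⊔ IntermediateField.adjoin ℚ {ζ} :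
      IntermediateField ℚ Qbar) := IntermediateField.finiteDimensional_sup _ _
  have hρ1 : ∀ s ∈ FN.fixingSubgroup, N.ρ s = 1 := fun s hs =>
    LinearMap.ext fun m => hNtriv s hs m
  have hE : ∀ s ∈ (FN ⊔ IntermediateField.adjoin ℚ {ζ} :
      IntermediateField ℚ Qbar).fixingSubgroup, (tateDual p N).ρ s = 1 := by
    intro s hs
    have hs1 : s ∈ FN.fixingSubgroup := IntermediateField.fixingSubgroup_antitone le_sup_left hs
    have hs2 : s ∈ (IntermediateField.adjoin ℚ {ζ}).fixingSubgroup :=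
      IntermediateField.fixingSubgroup_antitone le_sup_right hs
    have hsζ : s ζ = ζ := (IntermediateField.mem_fixingSubgroup_iff _ s).1 hs2 ζ
      (IntermediateField.mem_adjoin_simple_self ℚ ζ)
    have hχ : cycloK p k s = 1 := by
      refine Fermat.Agent.S56.H47.cycloK_eq_one_of_fix p k s fun t ht => ?_
      obtain ⟨i, -, rfl⟩ := hζ.eq_pow_of_pow_eq_one ht
      rw [map_pow, hsζ]
    exact Fermat.Agent.S56.H47.tateDual_ρ_eq_one p N s (hρ1 s hs1) hχ
  have hA₀ := Fermat.Agent.S56.H9.primeLocalPlace_liesOver q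
  obtain ⟨τ₀, -, -, -, hgen⟩ :=
    Fermat.Agent.S59.TWGal.H59.stmt_TAME (q : ℕ) q.2 (primeLocalPlace q) hA₀ φ hφ _ hEfd
  obtain ⟨n, σ, hσ, hu⟩ := hgen (primeLocalToGlobal q g)
    (Fermat.Agent.S56.H9.primeLocalToGlobal_mem_decomposition q g)
  have hσ1 : (tateDual p N).ρ σ = 1 := by
    refine Fermat.Agent.S56.H47.tateDual_ρ_eq_one p N σ
      (hρ1 σ (hFN.2 q hq _ hA₀ hσ)) ?_
    exact Fermat.Agent.S56.H47.cycloK_eq_one_of_fix p k σ fun t ht =>
      Fermat.Agent.S56.H47.inertia_fix_root hp q.2 hqp _ hA₀ σ hσ t ht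
  have e : primeLocalToGlobal q g = φ ^ n * σ * ((φ ^ n * σ)⁻¹ * primeLocalToGlobal q g) := by
    group
  have hφn : ∀ n : ℕ, ((tateDual p N).ρ φ ^ n) lam = lam := by
    intro n
    induction n with
    | zero => rfl
    | succ n ih =>
      rw [pow_succ, Module.End.mul_apply, tateDual_frob_fix hqp φ hφ lam hlam, ih]
  rw [e, map_mul, map_mul, hE _ hu, hσ1, mul_one, mul_one, map_pow]
  exact hφn n

/-- `dim ker (φ - q | N) ≤ h⁰(ℚ_q, N')`. -/
theorem finrank_eigQ_le (hq : q ∉ S) (hqp : (q : ℕ) ≠ p) (hN : S55.Lev S N) (φ : GQ)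
    (hφ : (primeLocalPlace q).IsFrobeniusAt φ (q : ℕ)) :
    finrank k (eigQ N φ q) ≤ finrank k (locRep (tateDual p N) q).ρ.invariants := by
  set T : Module.End k N := N.ρ φ - ((q : ℕ) : k) • (1 : Module.End k N) with hT
  have h1 := LinearMap.finrank_range_add_finrank_ker T
  have h2 := LinearMap.finrank_range_add_finrank_ker T.dualMap
  have h3 := LinearMap.finrank_range_dualMap_eq_finrank_range T
  have h4 : finrank k (Module.Dual k N) = finrank k N := Subspace.dual_finrank_eq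
  have h5 : finrank k (eigQ N φ q) = finrank k (LinearMap.ker T.dualMap) := by
    have : finrank k (eigQ N φ q) = finrank k (LinearMap.ker T) := rfl
    omega
  rw [h5]
  have hmem : ∀ lam : ↥(LinearMap.ker T.dualMap),
      (lam : Module.Dual k N) ∈ (locRep (tateDual p N) q).ρ.invariants := by
    intro lam g
    have h0 : T.dualMap (lam : Module.Dual k N) = 0 := lam.2
    have hlam : (lam : Module.Dual k N) ∘ₗ N.ρ φ = ((q : ℕ) : k) • (lam : Module.Dual k N) := by
      apply LinearMap.ext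
      intro m
      have := LinearMap.congr_fun h0 m
      have hTm : T m = N.ρ φ m - ((q : ℕ) : k) • m := rfl
      rw [LinearMap.dualMap_apply, hTm, map_sub, map_smul, LinearMap.zero_apply,
        sub_eq_zero] at this
      rw [LinearMap.comp_apply, LinearMap.smul_apply]
      exact this
    exact tateDual_local_fix hq hqp hN φ hφ _ hlam g
  haveI : FiniteDimensional k (locRep (tateDual p N) q) :=
    (inferInstance : FiniteDimensional k (Module.Dual k N))
  let Φ : ↥(LinearMap.ker T.dualMap) →ₗ[k] ↥((locRep (tateDual p N) q).ρ.invariants) :=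
    LinearMap.codRestrict _ (LinearMap.ker T.dualMap).subtype hmem
  have hinj : Function.Injective Φ := by
    intro a b hab
    have h := congrArg Subtype.val hab
    exact Subtype.ext h
  exact LinearMap.finrank_le_finrank_of_injective hinj

end inv

/-- **Package DB.** -/
theorem stmt_DB : Stmt_DB := by
  intro p _ S q hpS hqS N _ hN
  have hqp : (q : ℕ) ≠ p := by
    intro h
    apply hqS
    have : q = pPrime p := Subtype.ext h
    rw [this]
    exact hpS
  have hqk : (((q : ℕ)) : ZMod p) ≠ 0 := by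
    rw [Ne, ZMod.natCast_eq_zero_iff]
    intro h
    exact hqp ((Nat.prime_dvd_prime_iff_eq (Fact.out : p.Prime) q.2).1 h).symm
  have hA₀ := Fermat.Agent.S56.H9.primeLocalPlace_liesOver q
  obtain ⟨φ, hφ⟩ := Fermat.Agent.Lib.FrobExists.exists_isFrobeniusAt (q : ℕ) q.2
    (primeLocalPlace q) hA₀
  obtain ⟨hfin, hle⟩ := finrank_Etil_le_eigQ (N := N) hqS hqk (primeLocalPlace q) hA₀ φ hφ hN
  exact ⟨hfin, hle.trans (finrank_eigQ_le hqS hqp hN φ hφ)⟩

end Fermat.Agent.S56.EC.DESC.H92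

end

end
-- ==== END Fermat.Agent.S56.EC.H92_DescDB

-- ==== BEGIN Fermat.Agent.S56.EC.KDT.H74_KDT
section

set_option autoImplicit false
set_option linter.unusedSectionVars false
set_option linter.style.haveILetI false

/-!
# EC / KDALG (helper74), part KDT

`stmt_KDT_of : Stmt_SHAPub → Stmt_KUM → Stmt_UBR → Stmt_LOC0 → Stmt_KDT`.

`h¹_S(P) ≤ dim LevHom` (SHAPub) `≤ dim U` (KUM, onto because `Cl_S(L) = 1`),
`dim U = ∑_q [G : D_q] + [G : D_∞]` (UBR at `b = 1`), and the `h⁰`-terms of `P' = P*(1)` are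
`[G : D]` (LOC0 + `finrank_fixedSub_twOp`).
-/

noncomputable section

namespace Fermat.Agent.S56.EC.KDT

open CategoryTheory groupCohomology ExtCitation Module

/-! ### Characteristic zero of the Witt vectors -/

theorem WK_natCast_eq_zero (p : ℕ) [Fact p.Prime] (k : Type) [Field k] [CharP k p] (n : ℕ)
    (h : (n : IND.WK p k) = 0) : n = 0 := by
  have hp : p.Prime := Fact.out
  haveI : CharP (AlgebraicClosure k) p := charP_of_injective_algebraMap
    (algebraMap k (AlgebraicClosure k)).injective p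
  by_contra hn
  obtain ⟨a, m, hm, rfl⟩ := Nat.exists_eq_pow_mul_and_not_dvd hn p hp.ne_one
  rw [Nat.cast_mul, Nat.cast_pow] at h
  have hp0 : (p : IND.WK p k) ≠ 0 := WittVector.p_nonzero p (AlgebraicClosure k)
  rcases mul_eq_zero.1 h with h1 | h1
  · exact hp0 (pow_eq_zero_iff (n := a) (by
      rintro rfl
      rw [pow_zero] at h1
      exact one_ne_zero h1) |>.1 h1)
  · have h2 := congrArg (WittVector.constantCoeff (p := p) (R := AlgebraicClosure k)) h1
    rw [map_natCast, map_zero] at h2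
    exact hm ((CharP.cast_eq_zero_iff (AlgebraicClosure k) p m).1 h2)

theorem WK_natCast_injective (p : ℕ) [Fact p.Prime] (k : Type) [Field k] [CharP k p] :
    Function.Injective (Nat.cast : ℕ → IND.WK p k) := by
  haveI : CharZero (IND.WK p k) := charZero_of_inj_zero (WK_natCast_eq_zero p k)
  exact Nat.cast_injective

/-! ### The Brauer character at `1` -/

theorem brauer_one (p : ℕ) [Fact p.Prime] {k : Type} [Field k] {G : Type} [Group G]
    {V : Type} [AddCommGroup V] [Module k V] [FiniteDimensional k V]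
    (ρ : Representation k G V) : IND.brauer p ρ 1 = (finrank k V : IND.WK p k) := by
  unfold IND.brauer
  rw [map_one]
  have h1 : LinearMap.charpoly (1 : V →ₗ[k] V) = (Polynomial.X - 1) ^ finrank k V :=
    LinearMap.charpoly_one
  rw [h1]
  have h2 : ((Polynomial.X - 1 : Polynomial k) ^ finrank k V).aroots (AlgebraicClosure k) =
      finrank k V • ({1} : Multiset (AlgebraicClosure k)) := by
    unfold Polynomial.aroots
    rw [Polynomial.map_pow, Polynomial.map_sub, Polynomial.map_X, Polynomial.map_one,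
      Polynomial.roots_pow]
    congr 1
    have : (Polynomial.X - 1 : Polynomial (AlgebraicClosure k)) =
        Polynomial.X - Polynomial.C 1 := by rw [Polynomial.C_1]
    rw [this, Polynomial.roots_X_sub_C]
  rw [h2, Multiset.map_nsmul, Multiset.sum_nsmul, Multiset.map_singleton, Multiset.sum_singleton,
    map_one, nsmul_eq_mul, mul_one]

/-! ### The cyclotomic character on `Gal(L/ℚ)` as a homomorphism -/

section omega

variable {p : ℕ} [Fact p.Prime] {S : Finset Nat.Primes}
  {L : IntermediateField ℚ (AlgebraicClosure ℚ)} [Normal ℚ L]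

/-- `omegaL` as a monoid homomorphism (on a Galois level). -/
def omegaHom (hL : IsGalLevel p S L) : GalL L →* (ZMod p)ˣ where
  toFun := omegaL p L
  map_one' := by
    have h := omegaL_resL hL (1 : GQ)
    rw [map_one, map_one] at h
    exact h
  map_mul' a b := by
    obtain ⟨g, rfl⟩ := resL_surjective L a
    obtain ⟨h, rfl⟩ := resL_surjective L b
    rw [← map_mul, omegaL_resL hL, omegaL_resL hL, omegaL_resL hL, map_mul]

theorem omegaHom_apply (hL : IsGalLevel p S L) (b : GalL L) :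
    omegaHom hL b = omegaL p L b := rfl

theorem dualTwistOp_permRep (hL : IsGalLevel p S L) :
    dualTwistOp p L (IND.permRep (ZMod p) (GalL L) (GalL L)) = twOp (omegaHom hL) := rfl

end omega

/-! ### Invariants of the regular representation -/

theorem one_le_finrank_invariants_permRep {p : ℕ} [Fact p.Prime] {Γ : Type} [Group Γ]
    {X : Type} [Finite X] (x₀ : X)
    (ρ' : Representation (ZMod p) Γ (X → ZMod p))
    (hρ' : ∀ g, ρ' g (fun _ => (1 : ZMod p)) = fun _ => (1 : ZMod p)) :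
    1 ≤ finrank (ZMod p) ↥(ρ'.invariants) := by
  rw [Nat.succ_le_iff, Module.finrank_pos_iff_exists_ne_zero]
  refine ⟨⟨fun _ => 1, fun g => hρ' g⟩, fun h => ?_⟩
  have h1 := congrArg (fun x : ↥(ρ'.invariants) => (x : X → ZMod p) x₀) h
  exact one_ne_zero h1

/-! ### The main theorem -/

theorem card_fixed_one {G : Type} [Group G] (D : Subgroup G) (g : G) (hg : g = 1) :
    Nat.card {x : G ⧸ D // g • x = x} = Nat.card (G ⧸ D) := by
  subst hg
  exact Nat.card_congr (Equiv.subtypeUnivEquiv fun x => one_smul _ x)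

/-- **KDT** from its leaves. -/
theorem stmt_KDT_of (hub : Stmt_SHAPub) (hkum : Stmt_KUM) (hubr : Stmt_UBR) (hloc : Stmt_LOC0) :
    Stmt_KDT := by
  intro p _ hp2 S hpS L _ _ hgood
  have hL : IsGalLevel p S L := hgood.1
  have hcl : ∀ [NumberField ↥L], S55.CFT.ClTrivial ↥L S := by
    intro inst
    exact hgood.2.1
  obtain ⟨f, hf⟩ := hub p hp2 S hpS L hL
  obtain ⟨κ, -, hκlev, -, hκonto⟩ := hkum p S hpS L hL
  obtain ⟨hfin, hbr⟩ := hubr p hp2 S hpS L hL
  haveI := hfin
  haveI : Finite (GalL L) := inferInstance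
  -- `dim LevHom ≤ dim U`
  let κ' : UmodP p S L →ₗ[ZMod p] ↥(LevHom p S L (ZMod p)) :=
    LinearMap.codRestrict (LevHom p S L (ZMod p)) κ hκlev
  have hκ' : Function.Surjective κ' := by
    rintro ⟨h, hh⟩
    obtain ⟨u, hu⟩ := hκonto hcl h hh
    exact ⟨u, Subtype.ext hu⟩
  haveI : Module.Finite (ZMod p) ↥(LevHom p S L (ZMod p)) := Module.Finite.of_surjective κ' hκ'
  have h1 : finrank (ZMod p)
      ↥(continuousH1S S (infl L (IND.permRep (ZMod p) (GalL L) (GalL L)))) ≤
      finrank (ZMod p) ↥(LevHom p S L (ZMod p)) :=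
    LinearMap.finrank_le_finrank_of_injective hf
  have h2 : finrank (ZMod p) ↥(LevHom p S L (ZMod p)) ≤ finrank (ZMod p) (UmodP p S L) :=
    LinearMap.finrank_le_finrank_of_surjective hκ'
  -- `dim U` from UBR at `1`
  have h3 : finrank (ZMod p) (UmodP p S L) =
      ∑ q ∈ S, Nat.card (GalL L ⧸ decL L q) + Nat.card (GalL L ⧸ decInf L) := by
    have hr1 : resL L (1 : GQ) = 1 := map_one _
    have h := hbr 1 (by
      rw [hr1, orderOf_one]
      exact (Fact.out : p.Prime).not_dvd_one)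
    rw [hr1, IND.brauerFn_of, brauer_one, map_one, Units.val_one, map_one, map_one] at h
    have h' : ((finrank (ZMod p) (UmodP p S L) + 1 : ℕ) : IND.WK p (ZMod p)) =
        ((1 + ∑ q ∈ S, Nat.card (GalL L ⧸ decL L q) + Nat.card (GalL L ⧸ decInf L) : ℕ) :
          IND.WK p (ZMod p)) := by
      push_cast
      rw [h]
      congr 1
      · congr 1
        refine Finset.sum_congr rfl fun q _ => ?_
        rw [card_fixed_one _ _ rfl]
      · rw [card_fixed_one _ _ rfl]
    have h'' := WK_natCast_injective p (ZMod p) h'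
    omega
  -- the `h⁰`-terms
  obtain ⟨hq, hinf, hglob, -⟩ := hloc p S hpS L hL (GalL L → ZMod p)
    (IND.permRep (ZMod p) (GalL L) (GalL L))
  have h4 : ∀ q : Nat.Primes, finrank (ZMod p)
      (locRep (tateDual p (infl L (IND.permRep (ZMod p) (GalL L) (GalL L)))) q).ρ.invariants =
      Nat.card (GalL L ⧸ decL L q) := by
    intro q
    rw [hq q, dualTwistOp_permRep hL]
    exact finrank_fixedSub_twOp (decL L q) (omegaHom hL)
  have h5 : finrank (ZMod p) (Rep.res archimedeanLoc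
      (tateDual p (infl L (IND.permRep (ZMod p) (GalL L) (GalL L))))).ρ.invariants =
      Nat.card (GalL L ⧸ decInf L) := by
    rw [hinf, dualTwistOp_permRep hL]
    exact finrank_fixedSub_twOp (decInf L) (omegaHom hL)
  have h6 : finrank (ZMod p)
      (tateDual p (infl L (IND.permRep (ZMod p) (GalL L) (GalL L)))).ρ.invariants = 1 := by
    rw [hglob, dualTwistOp_permRep hL]
    have h := finrank_fixedSub_twOp (⊤ : Subgroup (GalL L)) (omegaHom hL)
    rw [Subgroup.coe_top] at h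
    rw [h]
    haveI : Subsingleton (GalL L ⧸ (⊤ : Subgroup (GalL L))) := QuotientGroup.subsingleton_quotient_top
    exact Nat.card_unique
  have h7 : 1 ≤ finrank (ZMod p)
      (infl L (IND.permRep (ZMod p) (GalL L) (GalL L))).ρ.invariants :=
    one_le_finrank_invariants_permRep (Γ := GQ) (X := GalL L) (1 : GalL L)
      ((IND.permRep (ZMod p) (GalL L) (GalL L)).comp (resL L)) (fun g => rfl)
  -- assembly
  unfold gwDefect
  rw [h5, h6]
  have h8 : (∑ q ∈ S, (finrank (ZMod p)
      (locRep (tateDual p (infl L (IND.permRep (ZMod p) (GalL L) (GalL L)))) q).ρ.invariants : ℤ)) =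
      ((∑ q ∈ S, Nat.card (GalL L ⧸ decL L q) : ℕ) : ℤ) := by
    rw [Nat.cast_sum]
    refine Finset.sum_congr rfl fun q _ => ?_
    rw [h4 q]
  rw [h8]
  have h9 := h1.trans h2
  rw [h3] at h9
  omega

end Fermat.Agent.S56.EC.KDT

end

end
-- ==== END Fermat.Agent.S56.EC.KDT.H74_KDT
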