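-- GENERATED (merged mirror, NOTES/tools/trim/merge3_helper67.py): 4 modules of the originals, bodies verbatim.
import Mathlib
import Fermat.Agent.Zm.S56_L13_002
import Fermat.Agent.Zm.S56_L07_004
import Fermat.Agent.Zm.S56_L13_001
import Fermat.Agent.Zm.S56_L09_002
import Fermat.Agent.Zm.S56_L11_001

-- ==== BEGIN Fermat.Agent.S56.FL.H57_CohCore
section

/-!
# LOC-p-FL, package COH (helper57): the core count for a stable line

`b` a basis of `V` with `ℓ = k (b 0)` stable under `G_p` (`IsLineBasis`), `χ₁, χ₂ = diagChar hb 0, 1`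
the characters on `ℓ`, `V/ℓ`, `χ = quotChar hb = χ₁/χ₂`.

* `IsLineBasis.conj` : the entries of `ρ(σ) f ρ(σ)⁻¹`.
* `ent10_cocVal_mul`, `ent_cocVal_mul_of_line` : cocycle identities for the entries of a cocycle.
* `ent_cobd_triEnd`, `ent_cobd_lowEnd` : entries of coboundaries.
* `kerCoc` : the bounded cocycles with values in `Hom(V/ℓ, ℓ)`; their classes span a space of
  dimension `≤ min (1, h⁰)` if `dim H¹_bdd(G_p, k(χ)) ≤ 1`.
* `core_bound` : **CORE**.
-/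

set_option autoImplicit false
set_option linter.unusedSectionVars false
set_option linter.unusedVariables false
set_option linter.style.haveILetI false

noncomputable section

namespace Fermat.Agent.S56.FL.H57

open Polynomial IsLocalRing CategoryTheory groupCohomology ExtCitation Module
  Fermat.Agent.S56 Fermat.Agent.S56.FL

section entries

variable {k V : Type*} [Field k] [AddCommGroup V] [Module k V] (b : Basis (Fin 2) k V)

theorem ent_mul (f g : Module.End k V) (i j : Fin 2) :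
    ent b (f * g) i j = ent b f i 0 * ent b g 0 j + ent b f i 1 * ent b g 1 j := by
  unfold ent
  rw [Module.End.mul_apply]
  conv_lhs => rw [basis_decomp b (g (b j))]
  rw [map_add, map_smul, map_smul, map_add, map_smul, map_smul, smul_eq_mul, smul_eq_mul]
  ring

theorem ent_one (i j : Fin 2) : ent b (1 : Module.End k V) i j = if i = j then 1 else 0 := by
  unfold ent
  rw [Module.End.one_apply, Basis.coord_apply, Basis.repr_self, Finsupp.single_apply]
  by_cases h : i = j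
  · rw [if_pos h, if_pos h.symm]
  · rw [if_neg h, if_neg (Ne.symm h)]

/-- The endomorphism with matrix `[[s, t], [0, -s]]`. -/
def triEnd (s t : k) : Module.End k V :=
  s • (LinearMap.id - (2 : k) • (b.coord 1).smulRight (b 1)) + t • (b.coord 1).smulRight (b 0)

theorem ent_triEnd (s t : k) :
    ent b (triEnd b s t) 0 0 = s ∧ ent b (triEnd b s t) 0 1 = t ∧
      ent b (triEnd b s t) 1 0 = 0 ∧ ent b (triEnd b s t) 1 1 = -s := by
  unfold ent triEnd
  refine ⟨?_, ?_, ?_, ?_⟩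
  · simp
  · simp
  · simp
  · simp
    ring

theorem trace_triEnd (s t : k) : LinearMap.trace k V (triEnd b s t) = 0 := by
  rw [trace_eq_ent b, (ent_triEnd b s t).1, (ent_triEnd b s t).2.2.2]
  ring

/-- The endomorphism with matrix `[[0, 0], [t, 0]]`. -/
def lowEnd (t : k) : Module.End k V := t • (b.coord 0).smulRight (b 1)

theorem ent_lowEnd (t : k) :
    ent b (lowEnd b t) 0 0 = 0 ∧ ent b (lowEnd b t) 0 1 = 0 ∧
      ent b (lowEnd b t) 1 0 = t ∧ ent b (lowEnd b t) 1 1 = 0 := by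
  unfold ent lowEnd
  refine ⟨?_, ?_, ?_, ?_⟩ <;> simp

theorem trace_lowEnd (t : k) : LinearMap.trace k V (lowEnd b t) = 0 := by
  rw [trace_eq_ent b, (ent_lowEnd b t).1, (ent_lowEnd b t).2.2.2]
  ring

end entries

section line

variable {p : ℕ} [Fact p.Prime] {k : Type} [Field k] (ρbar : ResidualGaloisRep k)
  (b : Basis (Fin 2) k ρbar.V)

/-- `b 0` spans a `G_p`-stable line. -/
def IsLineBasis (p : ℕ) [Fact p.Prime] : Prop :=
  ∀ σ : Gp p, ent b (locRho ρbar σ) 1 0 = 0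

variable {ρbar b}

theorem IsLineBasis.ent00_mul (hb : IsLineBasis ρbar b p) (σ τ : Gp p) :
    ent b (locRho ρbar (σ * τ)) 0 0 = ent b (locRho ρbar σ) 0 0 * ent b (locRho ρbar τ) 0 0 := by
  rw [locRho_mul, ent_mul, hb τ, mul_zero, add_zero]

theorem IsLineBasis.ent11_mul (hb : IsLineBasis ρbar b p) (σ τ : Gp p) :
    ent b (locRho ρbar (σ * τ)) 1 1 = ent b (locRho ρbar σ) 1 1 * ent b (locRho ρbar τ) 1 1 := by
  rw [locRho_mul, ent_mul, hb σ, zero_mul, zero_add]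

theorem IsLineBasis.ent01_mul (hb : IsLineBasis ρbar b p) (σ τ : Gp p) :
    ent b (locRho ρbar (σ * τ)) 0 1 = ent b (locRho ρbar σ) 0 0 * ent b (locRho ρbar τ) 0 1
      + ent b (locRho ρbar σ) 0 1 * ent b (locRho ρbar τ) 1 1 := by
  rw [locRho_mul, ent_mul]

/-- The character of `G_p` on the stable line (`i = 0`), on the quotient (`i = 1`). -/
def diagChar (hb : IsLineBasis ρbar b p) (i : Fin 2) : Gp p →* kˣ :=
  MonoidHom.toHomUnits
    { toFun := fun σ => ent b (locRho ρbar σ) i i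
      map_one' := by rw [locRho_one, ent_one, if_pos rfl]
      map_mul' := by
        intro σ τ
        fin_cases i
        · exact hb.ent00_mul σ τ
        · exact hb.ent11_mul σ τ }

theorem diagChar_val (hb : IsLineBasis ρbar b p) (i : Fin 2) (σ : Gp p) :
    (diagChar hb i σ : k) = ent b (locRho ρbar σ) i i := rfl

/-- The character `χ = χ₁ / χ₂` of `G_p` on `Hom(V/ℓ, ℓ)`. -/
def quotChar (hb : IsLineBasis ρbar b p) : Gp p →* kˣ := diagChar hb 0 / diagChar hb 1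

theorem quotChar_val (hb : IsLineBasis ρbar b p) (σ : Gp p) :
    (quotChar hb σ : k) = ent b (locRho ρbar σ) 0 0 / ent b (locRho ρbar σ) 1 1 := by
  unfold quotChar
  rw [MonoidHom.div_apply, Units.val_div_eq_div_val, diagChar_val, diagChar_val]

theorem IsLineBasis.ent_ne_zero (hb : IsLineBasis ρbar b p) (i : Fin 2) (σ : Gp p) :
    ent b (locRho ρbar σ) i i ≠ 0 := by
  rw [← diagChar_val hb i σ]
  exact Units.ne_zero _

theorem IsLineBasis.apply_b0 (hb : IsLineBasis ρbar b p) (σ : Gp p) :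
    locRho ρbar σ (b 0) = ent b (locRho ρbar σ) 0 0 • b 0 := by
  rw [apply_b b (locRho ρbar σ) 0, hb σ, zero_smul, add_zero]

theorem IsLineBasis.apply_b1 (hb : IsLineBasis ρbar b p) (σ : Gp p) :
    locRho ρbar σ (b 1) = ent b (locRho ρbar σ) 0 1 • b 0 + ent b (locRho ρbar σ) 1 1 • b 1 :=
  apply_b b (locRho ρbar σ) 1

/-- The entries of a conjugate `g = ρ(σ) f ρ(σ)⁻¹`. -/
theorem IsLineBasis.conj (hb : IsLineBasis ρbar b p) (σ : Gp p) (f : Module.End k ρbar.V) :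
    ent b (locRho ρbar σ * f * locRho ρbar σ⁻¹) 1 0
        = ent b f 1 0 * (ent b (locRho ρbar σ) 1 1 / ent b (locRho ρbar σ) 0 0) ∧
    (ent b f 1 0 = 0 →
      ent b (locRho ρbar σ * f * locRho ρbar σ⁻¹) 0 0 = ent b f 0 0 ∧
      ent b (locRho ρbar σ * f * locRho ρbar σ⁻¹) 1 1 = ent b f 1 1 ∧
      ent b (locRho ρbar σ * f * locRho ρbar σ⁻¹) 0 1
        = (quotChar hb σ : k) * ent b f 0 1
          + (ent b (locRho ρbar σ) 0 1 / ent b (locRho ρbar σ) 1 1) * (ent b f 1 1 - ent b f 0 0)) := by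
  have hg : (locRho ρbar σ * f * locRho ρbar σ⁻¹) * locRho ρbar σ = locRho ρbar σ * f := by
    rw [mul_assoc, locRho_inv_mul, mul_one]
  obtain ⟨h1, h2, h3, h4⟩ := conj_upper b (hb.apply_b0 σ) (hb.apply_b1 σ) hg
  have hx1 := hb.ent_ne_zero 0 σ
  have hx2 := hb.ent_ne_zero 1 σ
  have e10 : ent b (locRho ρbar σ * f * locRho ρbar σ⁻¹) 1 0
      = ent b f 1 0 * (ent b (locRho ρbar σ) 1 1 / ent b (locRho ρbar σ) 0 0) := by
    field_simp
    linear_combination h1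
  refine ⟨e10, fun h0 => ?_⟩
  rw [h0, zero_mul] at e10
  rw [h0, mul_zero, add_zero] at h2
  rw [e10, mul_zero, add_zero] at h3
  have e00 := mul_left_cancel₀ hx1 h2
  have e11 := mul_left_cancel₀ hx2 h3
  refine ⟨e00, e11, ?_⟩
  rw [e00] at h4
  rw [quotChar_val]
  field_simp
  linear_combination h4

end line

section cocycles

variable {p : ℕ} [Fact p.Prime] {k : Type} [Field k] {ρbar : ResidualGaloisRep k}
  {b : Basis (Fin 2) k ρbar.V}

theorem ent11_cocVal (b : Basis (Fin 2) k ρbar.V)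
    (c : cocycles₁ (locRep (ad0 ρbar) (pPrime p))) (σ : Gp p) :
    ent b (cocVal ρbar c σ) 1 1 = - ent b (cocVal ρbar c σ) 0 0 := by
  have h := trace_cocVal ρbar c σ
  rw [trace_eq_ent b] at h
  linear_combination h

/-- `ρbar|G_p` is trivial on `Gal(K̄/L)` for a bounded field `L`. -/
def RhoBdd (ρbar : ResidualGaloisRep k) (p : ℕ) [Fact p.Prime] : Prop :=
  ∃ (L : IntermediateField ℚ_[p] (PadicAlgCl p)) (_ : FiniteDimensional ℚ_[p] L),
    Normal ℚ_[p] L ∧ IsBddField p L ∧ ∀ σ : Gp p, σ ∈ L.fixingSubgroup → locRho ρbar σ = 1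

theorem IsBddAd.rhoBdd {c : cocycles₁ (locRep (ad0 ρbar) (pPrime p))} (h : IsBddAd ρbar c) :
    RhoBdd ρbar p := by
  obtain ⟨L, hfd, hN, hB, hfix⟩ := h
  exact ⟨L, hfd, hN, hB, fun σ hσ => (hfix σ hσ).1⟩

theorem RhoBdd.isBddAd_zero (h : RhoBdd ρbar p) :
    IsBddAd ρbar (0 : cocycles₁ (locRep (ad0 ρbar) (pPrime p))) := by
  obtain ⟨L, hfd, hN, hB, hfix⟩ := h
  exact ⟨L, hfd, hN, hB, fun σ hσ => ⟨hfix σ hσ, rfl⟩⟩

/-- The cocycle identity for the lower left entry. -/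
theorem ent10_cocVal_mul (hb : IsLineBasis ρbar b p)
    (c : cocycles₁ (locRep (ad0 ρbar) (pPrime p))) (σ τ : Gp p) :
    ent b (cocVal ρbar c (σ * τ)) 1 0 = ent b (cocVal ρbar c σ) 1 0
      + ((quotChar hb)⁻¹ σ : k) * ent b (cocVal ρbar c τ) 1 0 := by
  rw [cocVal_mul, ent_add, (hb.conj σ _).1, MonoidHom.inv_apply, Units.val_inv_eq_inv_val,
    quotChar_val, inv_div]
  ring

/-- The cocycle identities for a cocycle with values in the endomorphisms preserving the line. -/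
theorem ent_cocVal_mul_of_line (hb : IsLineBasis ρbar b p)
    (c : cocycles₁ (locRep (ad0 ρbar) (pPrime p)))
    (hc : ∀ σ : Gp p, ent b (cocVal ρbar c σ) 1 0 = 0) (σ τ : Gp p) :
    ent b (cocVal ρbar c (σ * τ)) 0 0
        = ent b (cocVal ρbar c σ) 0 0 + ent b (cocVal ρbar c τ) 0 0 ∧
    ent b (cocVal ρbar c (σ * τ)) 0 1
        = ent b (cocVal ρbar c σ) 0 1 + (quotChar hb σ : k) * ent b (cocVal ρbar c τ) 0 1
          - 2 * (ent b (locRho ρbar σ) 0 1 / ent b (locRho ρbar σ) 1 1)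
            * ent b (cocVal ρbar c τ) 0 0 := by
  obtain ⟨h1, -, h3⟩ := (hb.conj σ (cocVal ρbar c τ)).2 (hc τ)
  refine ⟨?_, ?_⟩
  · rw [cocVal_mul, ent_add, h1]
  · rw [cocVal_mul, ent_add, h3, ent11_cocVal]
    ring

/-- The entries of the coboundary of `triEnd b s t`. -/
theorem ent_cobd_triEnd (hb : IsLineBasis ρbar b p) (s t : k) (σ : Gp p) :
    ent b (cocVal ρbar (cobd (p := p) ρbar (triEnd b s t) (trace_triEnd b s t)) σ) 1 0 = 0 ∧
    ent b (cocVal ρbar (cobd (p := p) ρbar (triEnd b s t) (trace_triEnd b s t)) σ) 0 0 = 0 ∧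
    ent b (cocVal ρbar (cobd (p := p) ρbar (triEnd b s t) (trace_triEnd b s t)) σ) 0 1
      = ((quotChar hb σ : k) - 1) * t
        - 2 * (ent b (locRho ρbar σ) 0 1 / ent b (locRho ρbar σ) 1 1) * s := by
  obtain ⟨e00, e01, e10, e11⟩ := ent_triEnd b s t
  obtain ⟨h0, h⟩ := hb.conj σ (triEnd b s t)
  obtain ⟨h1, -, h3⟩ := h e10
  refine ⟨?_, ?_, ?_⟩
  · rw [cocVal_cobd, ent_sub, h0, e10, zero_mul, sub_zero]
  · rw [cocVal_cobd, ent_sub, h1, sub_self]
  · rw [cocVal_cobd, ent_sub, h3, e00, e01, e11]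
    ring

/-- The lower left entry of the coboundary of `lowEnd b t`. -/
theorem ent_cobd_lowEnd (hb : IsLineBasis ρbar b p) (t : k) (σ : Gp p) :
    ent b (cocVal ρbar (cobd (p := p) ρbar (lowEnd b t) (trace_lowEnd b t)) σ) 1 0
      = (((quotChar hb)⁻¹ σ : k) - 1) * t := by
  obtain ⟨e00, e01, e10, e11⟩ := ent_lowEnd b t
  rw [cocVal_cobd, ent_sub, (hb.conj σ _).1, e10, MonoidHom.inv_apply, Units.val_inv_eq_inv_val,
    quotChar_val, inv_div]
  ring

/-- `u / χ₂` is a `χ`-cocycle. -/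
theorem IsLineBasis.extCoc_mul (hb : IsLineBasis ρbar b p) (σ τ : Gp p) :
    ent b (locRho ρbar (σ * τ)) 0 1 / ent b (locRho ρbar (σ * τ)) 1 1
      = ent b (locRho ρbar σ) 0 1 / ent b (locRho ρbar σ) 1 1
        + (quotChar hb σ : k) * (ent b (locRho ρbar τ) 0 1 / ent b (locRho ρbar τ) 1 1) := by
  rw [hb.ent01_mul, hb.ent11_mul, quotChar_val]
  have hx1 := hb.ent_ne_zero 1 σ
  have hx2 := hb.ent_ne_zero 1 τ
  field_simp
  ring

end cocycles

section core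

variable {p : ℕ} [Fact p.Prime] {k : Type} [Field k] {ρbar : ResidualGaloisRep k}
  {b : Basis (Fin 2) k ρbar.V}

/-- The bounded cocycles with values in the line `Hom(V/ℓ, ℓ)`. -/
def kerCoc (hp2 : p ≠ 2) (h₀ : RhoBdd ρbar p) (b : Basis (Fin 2) k ρbar.V) :
    Submodule k (cocycles₁ (locRep (ad0 ρbar) (pPrime p))) where
  carrier := {c | IsBddAd ρbar c ∧ ∀ σ : Gp p, ent b (cocVal ρbar c σ) 1 0 = 0 ∧
    ent b (cocVal ρbar c σ) 0 0 = 0}
  add_mem' := by
    rintro c₁ c₂ ⟨h₁, h₁'⟩ ⟨h₂, h₂'⟩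
    refine ⟨IsBddAd.add hp2 h₁ h₂, fun σ => ⟨?_, ?_⟩⟩
    · rw [cocVal_add, ent_add, (h₁' σ).1, (h₂' σ).1, add_zero]
    · rw [cocVal_add, ent_add, (h₁' σ).2, (h₂' σ).2, add_zero]
  zero_mem' := ⟨h₀.isBddAd_zero, fun σ => ⟨ent_zero b _ _, ent_zero b _ _⟩⟩
  smul_mem' := by
    rintro a c ⟨h, h'⟩
    refine ⟨IsBddAd.smul a h, fun σ => ⟨?_, ?_⟩⟩
    · rw [cocVal_smul, ent_smul, (h' σ).1, mul_zero]
    · rw [cocVal_smul, ent_smul, (h' σ).2, mul_zero]

theorem mem_kerCoc (hp2 : p ≠ 2) (h₀ : RhoBdd ρbar p) (b : Basis (Fin 2) k ρbar.V)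
    (c : cocycles₁ (locRep (ad0 ρbar) (pPrime p))) :
    c ∈ kerCoc hp2 h₀ b ↔ IsBddAd ρbar c ∧ ∀ σ : Gp p, ent b (cocVal ρbar c σ) 1 0 = 0 ∧
      ent b (cocVal ρbar c σ) 0 0 = 0 := Iff.rfl

theorem quotChar_eq_one (hb : IsLineBasis ρbar b p) {σ : Gp p} (h : locRho ρbar σ = 1) :
    quotChar hb σ = 1 := by
  apply Units.ext
  rw [quotChar_val, h, ent_one, ent_one, if_pos rfl, if_pos rfl, div_one, Units.val_one]

/-- The upper right entry of a cocycle of `kerCoc` is a bounded `χ`-cocycle. -/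
theorem isBddCoc_of_mem_kerCoc (hp2 : p ≠ 2) (h₀ : RhoBdd ρbar p) (hb : IsLineBasis ρbar b p)
    {c : cocycles₁ (locRep (ad0 ρbar) (pPrime p))} (hc : c ∈ kerCoc hp2 h₀ b) :
    IsBddCoc (quotChar hb) (fun σ => ent b (cocVal ρbar c σ) 0 1) := by
  obtain ⟨hbdd, hent⟩ := hc
  refine ⟨fun σ τ => ?_, ?_⟩
  · have := (ent_cocVal_mul_of_line hb c (fun σ => (hent σ).1) σ τ).2
    rw [(hent τ).2, mul_zero, sub_zero] at this
    exact this
  · obtain ⟨L, hfd, hN, hB, hfix⟩ := hbdd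
    refine ⟨L, hfd, hN, hB, fun σ hσ => ⟨quotChar_eq_one hb (hfix σ hσ).1, ?_⟩⟩
    show ent b (cocVal ρbar c σ) 0 1 = 0
    rw [(hfix σ hσ).2, ent_zero]

/-- The extension class of `V` is a bounded `χ`-cocycle. -/
theorem isBddCoc_ext (h₀ : RhoBdd ρbar p) (hb : IsLineBasis ρbar b p) :
    IsBddCoc (quotChar hb)
      (fun σ => ent b (locRho ρbar σ) 0 1 / ent b (locRho ρbar σ) 1 1) := by
  refine ⟨fun σ τ => hb.extCoc_mul σ τ, ?_⟩
  obtain ⟨L, hfd, hN, hB, hfix⟩ := h₀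
  refine ⟨L, hfd, hN, hB, fun σ hσ => ⟨quotChar_eq_one hb (hfix σ hσ), ?_⟩⟩
  show ent b (locRho ρbar σ) 0 1 / ent b (locRho ρbar σ) 1 1 = 0
  rw [hfix σ hσ, ent_one, if_neg (by decide), zero_div]

/-- A cocycle of `kerCoc` whose upper right entry is that of a coboundary is a coboundary. -/
theorem eq_cobd_of_mem_kerCoc (hp2 : p ≠ 2) (h₀ : RhoBdd ρbar p) (hb : IsLineBasis ρbar b p)
    {c : cocycles₁ (locRep (ad0 ρbar) (pPrime p))} (hc : c ∈ kerCoc hp2 h₀ b) (s t : k)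
    (h : ∀ σ : Gp p, ent b (cocVal ρbar c σ) 0 1 = ((quotChar hb σ : k) - 1) * t
        - 2 * (ent b (locRho ρbar σ) 0 1 / ent b (locRho ρbar σ) 1 1) * s) :
    c = cobd ρbar (triEnd b s t) (trace_triEnd b s t) := by
  apply cocycle_ext
  intro σ
  obtain ⟨e10, e00, e01⟩ := ent_cobd_triEnd hb s t σ
  apply end_ext b
  intro i j
  fin_cases i <;> fin_cases j
  · exact ((hc.2 σ).2).trans e00.symm
  · exact (h σ).trans e01.symm
  · exact ((hc.2 σ).1).trans e10.symm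
  · show ent b (cocVal ρbar c σ) 1 1 = ent b (cocVal ρbar (cobd ρbar _ _) σ) 1 1
    rw [ent11_cocVal, ent11_cocVal, (hc.2 σ).2, e00]

variable [CharP k p]

theorem two_ne_zero_of_odd' (hp2 : p ≠ 2) : (2 : k) ≠ 0 := by
  intro h
  have h' : ((2 : ℕ) : k) = 0 := by exact_mod_cast h
  rw [CharP.cast_eq_zero_iff k p] at h'
  exact hp2 ((Nat.prime_dvd_prime_iff_eq (Fact.out : p.Prime) Nat.prime_two).1 h')

/-- Two classes of `kerCoc` are dependent. -/
theorem kerCoc_dependent (hp2 : p ≠ 2) (h₀ : RhoBdd ρbar p) (hb : IsLineBasis ρbar b p)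
    (hdim : DimLeOne (⊤ : Subgroup (Gp p)) (topChar (quotChar hb)))
    {c₁ c₂ : cocycles₁ (locRep (ad0 ρbar) (pPrime p))} (hc₁ : c₁ ∈ kerCoc hp2 h₀ b)
    (hc₂ : c₂ ∈ kerCoc hp2 h₀ b) :
    ∃ l₁ l₂ : k, (l₁ ≠ 0 ∨ l₂ ≠ 0) ∧
      l₁ • (H1π (locRep (ad0 ρbar) (pPrime p))).hom c₁
        + l₂ • (H1π (locRep (ad0 ρbar) (pPrime p))).hom c₂ = 0 := by
  obtain ⟨l₁, l₂, a, hl, e⟩ := dimLeOne_apply hdim (isBddCoc_of_mem_kerCoc hp2 h₀ hb hc₁)
    (isBddCoc_of_mem_kerCoc hp2 h₀ hb hc₂)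
  refine ⟨l₁, l₂, hl, ?_⟩
  have hmem : l₁ • c₁ + l₂ • c₂ ∈ kerCoc hp2 h₀ b :=
    Submodule.add_mem _ (Submodule.smul_mem _ _ hc₁) (Submodule.smul_mem _ _ hc₂)
  have hcob := eq_cobd_of_mem_kerCoc hp2 h₀ hb hmem 0 a (fun σ => by
    rw [cocVal_add, cocVal_smul, cocVal_smul, ent_add, ent_smul, ent_smul, e σ]
    ring)
  rw [← map_smul, ← map_smul, ← map_add, hcob]
  exact H1π_cobd ρbar _ _

/-- Without invariants, the classes of `kerCoc` vanish. -/
theorem kerCoc_class_eq_zero (hp2 : p ≠ 2) (h₀ : RhoBdd ρbar p) (hb : IsLineBasis ρbar b p)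
    (hdim : DimLeOne (⊤ : Subgroup (Gp p)) (topChar (quotChar hb)))
    (hinv : (locRep (ad0 ρbar) (pPrime p)).ρ.invariants = ⊥)
    {c : cocycles₁ (locRep (ad0 ρbar) (pPrime p))} (hc : c ∈ kerCoc hp2 h₀ b) :
    (H1π (locRep (ad0 ρbar) (pPrime p))).hom c = 0 := by
  have h2 : (2 : k) ≠ 0 := two_ne_zero_of_odd' hp2
  obtain ⟨l₁, l₂, a, hl, e⟩ := dimLeOne_apply hdim (isBddCoc_of_mem_kerCoc hp2 h₀ hb hc)
    (isBddCoc_ext h₀ hb)
  by_cases hl₁ : l₁ = 0
  · exfalso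
    have hl₂ : l₂ ≠ 0 := by
      rcases hl with h | h
      · exact absurd hl₁ h
      · exact h
    -- `triEnd b 1 (2 a / l₂)` is invariant
    have hinvm : ∀ σ : Gp p, locRho ρbar σ * triEnd b 1 (2 * a / l₂) * locRho ρbar σ⁻¹
        = triEnd b 1 (2 * a / l₂) := by
      intro σ
      obtain ⟨e00, e01, e10, e11⟩ := ent_triEnd b (1 : k) (2 * a / l₂)
      obtain ⟨g0, g⟩ := hb.conj σ (triEnd b 1 (2 * a / l₂))
      obtain ⟨g1, g2, g3⟩ := g e10
      have eσ := e σ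
      rw [hl₁, zero_mul, zero_add] at eσ
      apply end_ext b
      intro i j
      fin_cases i <;> fin_cases j
      · exact g1
      · show ent b (locRho ρbar σ * triEnd b 1 (2 * a / l₂) * locRho ρbar σ⁻¹) 0 1
          = ent b (triEnd b 1 (2 * a / l₂)) 0 1
        rw [g3, e00, e01, e11]
        field_simp
        linear_combination (-2 : k) * eσ
      · show ent b (locRho ρbar σ * triEnd b 1 (2 * a / l₂) * locRho ρbar σ⁻¹) 1 0
          = ent b (triEnd b 1 (2 * a / l₂)) 1 0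
        rw [g0, e10, zero_mul]
      · exact g2
    have hmem := mem_invariants_of_conj ρbar (triEnd b 1 (2 * a / l₂)) (trace_triEnd b _ _) hinvm
    have hz := (Submodule.eq_bot_iff _).1 hinv _ hmem
    have h0 : triEnd b (1 : k) (2 * a / l₂) = 0 := by
      have := congrArg (ad0Val ρbar) hz
      rw [map_zero] at this
      exact this
    have h00 := (ent_triEnd b (1 : k) (2 * a / l₂)).1
    rw [h0, ent_zero] at h00
    exact one_ne_zero h00.symm
  · have hcob := eq_cobd_of_mem_kerCoc hp2 h₀ hb hc (l₂ / (2 * l₁)) (a / l₁) (fun σ => by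
      have eσ := e σ
      generalize ent b (locRho ρbar σ) 0 1 / ent b (locRho ρbar σ) 1 1 = U at eσ ⊢
      apply mul_left_cancel₀ hl₁
      have e1 : l₁ * ent b (cocVal ρbar c σ) 0 1 = ((quotChar hb σ : k) - 1) * a - l₂ * U := by
        linear_combination eσ
      rw [e1]
      field_simp)
    rw [hcob]
    exact H1π_cobd ρbar _ _

/-- A bounded cocycle with values in the endomorphisms preserving the line `k (b 0)`, whose
diagonal part vanishes on inertia. -/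
def IsLineCoc (b : Basis (Fin 2) k ρbar.V) (c : cocycles₁ (locRep (ad0 ρbar) (pPrime p))) :
    Prop :=
  IsBddAd ρbar c ∧ (∀ σ : Gp p, ent b (cocVal ρbar c σ) 1 0 = 0) ∧
    ∀ σ : Gp p, σ ∈ inertiaP p → ent b (cocVal ρbar c σ) 0 0 = 0

/-- **CORE.**  `ℓ = k (b 0)` a stable line, `χ` the character of `G_p` on `Hom(V/ℓ, ℓ)` with
`dim H¹_bdd(G_p, k(χ)) ≤ 1`; a subspace `W` of `H¹(G_p, ad⁰)` all of whose classes have a bounded
representative preserving `ℓ` with unramified diagonal has dimension `≤ h⁰ + 1`. -/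
theorem core_bound (hp2 : p ≠ 2) (hT : Stmt_Tame) (hb : IsLineBasis ρbar b p)
    (hdim : DimLeOne (⊤ : Subgroup (Gp p)) (topChar (quotChar hb)))
    (W : Submodule k (H1 (locRep (ad0 ρbar) (pPrime p))))
    (hW : ∀ ξ ∈ W, ∃ c : cocycles₁ (locRep (ad0 ρbar) (pPrime p)),
      (H1π (locRep (ad0 ρbar) (pPrime p))).hom c = ξ ∧ IsLineCoc b c) :
    Module.Finite k W ∧
      finrank k W ≤ finrank k (locRep (ad0 ρbar) (pPrime p)).ρ.invariants + 1 := by
  have h₀ : RhoBdd ρbar p := by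
    obtain ⟨c, -, hc, -⟩ := hW 0 W.zero_mem
    exact IsBddAd.rhoBdd hc
  have hfinM : FiniteDimensional k (locRep (ad0 ρbar) (pPrime p)) := by
    change FiniteDimensional k (ad0Sub ρbar)
    infer_instance
  set K : Submodule k (H1 (locRep (ad0 ρbar) (pPrime p))) :=
    (kerCoc hp2 h₀ b).map (H1π (locRep (ad0 ρbar) (pPrime p))).hom with hK
  have hKbound : Module.Finite k K ∧
      finrank k K ≤ finrank k (locRep (ad0 ρbar) (pPrime p)).ρ.invariants := by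
    by_cases hinv : finrank k (locRep (ad0 ρbar) (pPrime p)).ρ.invariants = 0
    · have hbot : (locRep (ad0 ρbar) (pPrime p)).ρ.invariants = ⊥ :=
        Submodule.finrank_eq_zero.1 hinv
      have hKbot : K = ⊥ := by
        rw [eq_bot_iff]
        rintro _ ⟨c, hc, rfl⟩
        rw [Submodule.mem_bot]
        exact kerCoc_class_eq_zero hp2 h₀ hb hdim hbot hc
      rw [hKbot]
      exact ⟨inferInstance, by simp⟩
    · obtain ⟨h1, h2⟩ := finrank_le_one_of_dependent K (by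
        rintro _ ⟨c₁, hc₁, rfl⟩ _ ⟨c₂, hc₂, rfl⟩
        exact kerCoc_dependent hp2 h₀ hb hdim hc₁ hc₂)
      refine ⟨h1, h2.trans ?_⟩
      exact Nat.one_le_iff_ne_zero.2 hinv
  haveI := hKbound.1
  refine finrank_le_succ_of_dependent_mod W K _ hKbound.2 ?_
  intro ξ₁ hξ₁ ξ₂ hξ₂
  obtain ⟨c₁, rfl, hbdd₁, h10₁, h00₁⟩ := hW ξ₁ hξ₁
  obtain ⟨c₂, rfl, hbdd₂, h10₂, h00₂⟩ := hW ξ₂ hξ₂
  obtain ⟨L₁, hfd₁, hN₁, hB₁, hfix₁⟩ := id hbdd₁
  obtain ⟨L₂, hfd₂, hN₂, hB₂, hfix₂⟩ := id hbdd₂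
  haveI := hfd₁
  haveI := hfd₂
  obtain ⟨l₁, l₂, hl, e⟩ := unr_hom_dependent hT
    (fun σ => ent b (cocVal ρbar c₁ σ) 0 0) (fun σ => ent b (cocVal ρbar c₂ σ) 0 0)
    (fun σ τ => (ent_cocVal_mul_of_line hb c₁ h10₁ σ τ).1)
    (fun σ τ => (ent_cocVal_mul_of_line hb c₂ h10₂ σ τ).1)
    h00₁ h00₂ L₁ L₂ hN₁ hN₂
    (fun σ hσ => by
      show ent b (cocVal ρbar c₁ σ) 0 0 = 0
      rw [(hfix₁ σ hσ).2, ent_zero])
    (fun σ hσ => by
      show ent b (cocVal ρbar c₂ σ) 0 0 = 0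
      rw [(hfix₂ σ hσ).2, ent_zero])
  refine ⟨l₁, l₂, hl, ?_⟩
  rw [← map_smul, ← map_smul, ← map_add]
  refine Submodule.mem_map_of_mem ⟨IsBddAd.add hp2 (IsBddAd.smul l₁ hbdd₁) (IsBddAd.smul l₂ hbdd₂),
    fun σ => ⟨?_, ?_⟩⟩
  · rw [cocVal_add, cocVal_smul, cocVal_smul, ent_add, ent_smul, ent_smul, h10₁ σ, h10₂ σ]
    ring
  · rw [cocVal_add, cocVal_smul, cocVal_smul, ent_add, ent_smul, ent_smul]
    exact e σ

end core

end Fermat.Agent.S56.FL.H57

end

end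
-- ==== END Fermat.Agent.S56.FL.H57_CohCore

-- ==== BEGIN Fermat.Agent.S56.FL.H59_CC2Asm
section

set_option autoImplicit false
set_option linter.style.haveILetI false
set_option linter.unusedSectionVars false

/-!
# LOC-p-FL, package UNITS / CC2z, leaf ASM (helper59): `Stmt_CC2core → Stmt_CC2z`

`H = ker χ ∩ ker ω ≤ G₂`, `N` = the normal core of `H` in `Gal(K̄/ℚ_p)`; `g ^ m ∈ N` for
`m = 2 (#k - 1) (p - 1)`.  The two cocycles restrict to homomorphisms on `N` to which the core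
applies; a combination vanishes on `N`, hence is a coboundary (`H85.coboundary_of_vanish`, the
index of `N` in `G₂` being prime to `p` by Cauchy).
-/

noncomputable section

namespace Fermat.Agent.S56.FL.H59

open Fermat.Agent.S56.FL Fermat.Agent.S56.FL.H85

variable {p : ℕ} [Fact p.Prime]

section cocycleOn

variable {k : Type} [Field k] {G : Type*} [Group G] (χ : G →* kˣ) (c : G → k)

theorem cocG_one (hcoc : ∀ σ τ, c (σ * τ) = c σ + (χ σ : k) * c τ) : c 1 = 0 := by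
  have h := hcoc 1 1
  rw [mul_one, map_one, Units.val_one, one_mul] at h
  linear_combination -h

theorem cocG_conj (hcoc : ∀ σ τ, c (σ * τ) = c σ + (χ σ : k) * c τ) (g h : G)
    (hh : χ h = 1) : c (g * h * g⁻¹) = (χ g : k) * c h := by
  have h1 := hcoc (g * h) g⁻¹
  have h2 := hcoc g h
  have h3 := hcoc g g⁻¹
  rw [mul_inv_cancel, cocG_one χ c hcoc] at h3
  rw [h1, h2, map_mul, hh, mul_one]
  linear_combination -h3

end cocycleOn

theorem stmt_CC2z_of_core (hcore : H15.Stmt_CC2core) : Stmt_CC2z := by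
  intro p _ hp2 k _ _ _ G₂ hI hidx χ ψ hψ hχψ c₁ c₂ hc₁ hc₂
  classical
  have hp : p.Prime := Fact.out
  obtain ⟨L, hfd, hN, hbdd, hμ, htriv⟩ :=
    H15.exists_common_field hp2 hc₁.isBddCocycle hc₂.isBddCocycle
  haveI := hfd
  haveI : Normal ℚ_[p] L := hN
  have hcoc₁ := hc₁.1
  have hcoc₂ := hc₂.1
  obtain ⟨ζ, hζ1, hζp⟩ := H15.exists_zeta (p := p)
  have hζ : IsPrimitiveRoot ζ p := by
    rw [IsPrimitiveRoot.iff_orderOf]
    exact orderOf_eq_prime hζp hζ1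
  have hζL : ζ ∈ L := hμ ζ hζp
  haveI hG₂n : G₂.Normal := Subgroup.normal_of_index_eq_two hidx
  have hsq : ∀ g : Gp p, g ^ 2 ∈ G₂ := fun g => Subgroup.sq_mem_of_index_two hidx g
  -- the extensions by `1`, `0`
  set χE : Gp p → k := fun σ => if h : σ ∈ G₂ then ((χ ⟨σ, h⟩ : kˣ) : k) else 1 with hχEdef
  set cE₁ : Gp p → k := fun σ => if h : σ ∈ G₂ then c₁ ⟨σ, h⟩ else 0 with hcE₁def
  set cE₂ : Gp p → k := fun σ => if h : σ ∈ G₂ then c₂ ⟨σ, h⟩ else 0 with hcE₂def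
  have hχE : ∀ σ (h : σ ∈ G₂), χE σ = ((χ ⟨σ, h⟩ : kˣ) : k) := fun σ h => dif_pos h
  have hcE₁ : ∀ σ (h : σ ∈ G₂), cE₁ σ = c₁ ⟨σ, h⟩ := fun σ h => dif_pos h
  have hcE₂ : ∀ σ (h : σ ∈ G₂), cE₂ σ = c₂ ⟨σ, h⟩ := fun σ h => dif_pos h
  -- the subgroups `H` and `N`
  set H : Subgroup (Gp p) := (χ.ker.map G₂.subtype) ⊓ (omg hζ).ker with hHdef
  have hmemH : ∀ σ, σ ∈ H ↔ (∃ h : σ ∈ G₂, χ ⟨σ, h⟩ = 1) ∧ omg hζ σ = 1 := by
    intro σ
    rw [hHdef, Subgroup.mem_inf, MonoidHom.mem_ker, Subgroup.mem_map]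
    constructor
    · rintro ⟨⟨x, hx, rfl⟩, h2⟩
      exact ⟨⟨x.2, MonoidHom.mem_ker.1 hx⟩, h2⟩
    · rintro ⟨⟨h, h1⟩, h2⟩
      exact ⟨⟨⟨σ, h⟩, MonoidHom.mem_ker.2 h1, rfl⟩, h2⟩
  set N : Subgroup (Gp p) := H.normalCore with hNdef
  have hNH : N ≤ H := Subgroup.normalCore_le H
  have hNn : N.Normal := Subgroup.normalCore_normal H
  have hNG₂ : N ≤ G₂ := fun n hn => ((hmemH n).1 (hNH hn)).1.1
  have hNζ : ∀ n ∈ N, n ζ = ζ := fun n hn =>
    (omg_eq_one_iff hζ n).1 ((hmemH n).1 (hNH hn)).2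
  have hNχ : ∀ n (hn : n ∈ N), χ ⟨n, hNG₂ hn⟩ = 1 := fun n hn =>
    ((hmemH n).1 (hNH hn)).1.2
  -- the exponent
  have hcardk : ∀ u : kˣ, u ^ (Nat.card k - 1) = 1 := by
    intro u
    haveI : Fintype k := Fintype.ofFinite k
    apply Units.ext
    rw [Units.val_pow_eq_pow_val, Units.val_one, Nat.card_eq_fintype_card]
    exact FiniteField.pow_card_sub_one_eq_one (u : k) u.ne_zero
  have hcardp : ∀ u : (ZMod p)ˣ, u ^ (p - 1) = 1 := fun u => ZMod.units_pow_card_sub_one_eq_one p u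
  set m : ℕ := 2 * (Nat.card k - 1) * (p - 1) with hm
  have hpowH : ∀ x : Gp p, x ^ m ∈ H := by
    intro x
    rw [hmemH]
    have hx2 : x ^ (2 * (Nat.card k - 1) * (p - 1)) ∈ G₂ := by
      rw [mul_assoc, pow_mul]
      exact pow_mem (hsq x) _
    refine ⟨⟨hx2, ?_⟩, ?_⟩
    · have e : (⟨x ^ (2 * (Nat.card k - 1) * (p - 1)), hx2⟩ : G₂)
          = ((⟨x ^ 2, hsq x⟩ : G₂) ^ (Nat.card k - 1)) ^ (p - 1) := by
        apply Subtype.ext
        push_cast
        rw [← pow_mul, ← pow_mul, mul_assoc]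
      rw [e, map_pow, map_pow, hcardk, one_pow]
    · rw [hm, map_pow, mul_comm, pow_mul, hcardp, one_pow]
  have hpowN : ∀ g : Gp p, g ^ m ∈ N := by
    intro g b
    have : b * g ^ m * b⁻¹ = (b * g * b⁻¹) ^ m := (conj_pow (a := b) (b := g) (i := m)).symm
    rw [this]
    exact hpowH _
  have hpm : ¬ p ∣ m := by
    haveI : Fintype k := Fintype.ofFinite k
    obtain ⟨n, hn⟩ := FiniteField.card k p
    have hk1 : 1 < Nat.card k := by
      rw [Nat.card_eq_fintype_card]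
      exact Fintype.one_lt_card
    have hpk : p ∣ Nat.card k := by
      rw [Nat.card_eq_fintype_card, hn.2]
      exact dvd_pow_self p n.pos.ne'
    intro hdvd
    rw [hm] at hdvd
    rcases (Nat.Prime.dvd_mul hp).1 hdvd with h1 | h1
    · rcases (Nat.Prime.dvd_mul hp).1 h1 with h2 | h2
      · exact hp2 ((Nat.prime_dvd_prime_iff_eq hp Nat.prime_two).1 h2)
      · have h3 : p ∣ 1 := by
          have := Nat.dvd_sub hpk h2
          rwa [Nat.sub_sub_self hk1.le] at this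
        exact hp.one_lt.ne' (Nat.dvd_one.1 h3)
    · have h2 : p ≤ p - 1 := Nat.le_of_dvd (by have := hp.two_le; omega) h1
      have := hp.two_le
      omega
  -- finite index
  set M : Subgroup (Gp p) := G₂ ⊓ (H38.resL L).ker with hMdef
  haveI hMn : M.Normal := inferInstance
  have hMle : M ≤ N := by
    rw [hNdef, Subgroup.normal_le_normalCore]
    intro σ hσ
    rw [hMdef, Subgroup.mem_inf, MonoidHom.mem_ker] at hσ
    have hfix : σ ∈ L.fixingSubgroup := H38.mem_fixingSubgroup_of_resL_eq_one hσ.2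
    rw [hmemH]
    refine ⟨⟨hσ.1, (htriv ⟨σ, hσ.1⟩ hfix).1⟩, (omg_eq_one_iff hζ σ).2 ?_⟩
    exact (IntermediateField.mem_fixingSubgroup_iff L σ).1 hfix ζ hζL
  haveI : Finite (Gp p ⧸ L.fixingSubgroup) := finite_quotient_of_le (le_refl _)
  haveI hfi1 : L.fixingSubgroup.FiniteIndex := Subgroup.finiteIndex_of_finite_quotient
  have hker : (H38.resL L).ker = L.fixingSubgroup := by
    ext σ
    rw [MonoidHom.mem_ker]
    exact ⟨H38.mem_fixingSubgroup_of_resL_eq_one, fun h => by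
      apply AlgEquiv.ext
      intro a
      apply Subtype.ext
      rw [H38.resL_apply]
      exact (IntermediateField.mem_fixingSubgroup_iff L σ).mp h a a.2⟩
  haveI hfi2 : (H38.resL L).ker.FiniteIndex := by rw [hker]; exact hfi1
  haveI hfi3 : G₂.FiniteIndex := ⟨by rw [hidx]; norm_num⟩
  haveI hfi4 : M.FiniteIndex := inferInstance
  haveI hfi5 : N.FiniteIndex := Subgroup.finiteIndex_of_le hMle
  haveI hfi6 : (N.subgroupOf G₂).FiniteIndex := inferInstance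
  haveI : Finite (↥G₂ ⧸ N.subgroupOf G₂) := Subgroup.finite_quotient_of_finiteIndex
  haveI hNn' : (N.subgroupOf G₂).Normal := inferInstance
  have hidxk : ((Nat.card (↥G₂ ⧸ N.subgroupOf G₂) : ℕ) : k) ≠ 0 := by
    intro h0
    have hdvd : p ∣ Nat.card (↥G₂ ⧸ N.subgroupOf G₂) := (CharP.cast_eq_zero_iff k p _).1 h0
    obtain ⟨x, hx⟩ := exists_prime_orderOf_dvd_card' (G := ↥G₂ ⧸ N.subgroupOf G₂) p hdvd
    obtain ⟨g, rfl⟩ := QuotientGroup.mk_surjective x
    have h1 : (QuotientGroup.mk g : ↥G₂ ⧸ N.subgroupOf G₂) ^ m = 1 := by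
      rw [← QuotientGroup.mk_pow, QuotientGroup.eq_one_iff, Subgroup.mem_subgroupOf]
      push_cast
      exact hpowN _
    have h2 := orderOf_dvd_of_pow_eq_one h1
    rw [hx] at h2
    exact hpm h2
  -- the hypothesis on inertia
  have hχI : ∀ σ ∈ inertiaP p,
      (cst p k ((omg hζ σ : (ZMod p)ˣ) : ZMod p) * (χE σ)⁻¹) ^ ((p + 1) / 2)
        = cst p k ((omg hζ σ : (ZMod p)ˣ) : ZMod p) := by
    intro σ hσ
    have hσG : σ ∈ G₂ := hI hσ
    have h1 : ((ψ ⟨σ, hσ⟩ : kˣ) : k) ^ (p + 1) = cst p k ((omg hζ σ : (ZMod p)ˣ) : ZMod p) :=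
      (isCycloAt_iff hζ _ σ).1 (hψ ⟨σ, hσ⟩)
    have h2 : ((χ ⟨σ, hσG⟩ : kˣ) : k) * ((ψ ⟨σ, hσ⟩ : kˣ) : k) ^ p = ((ψ ⟨σ, hσ⟩ : kˣ) : k) :=
      hχψ ⟨σ, hσG⟩ hσ
    set y : k := ((ψ ⟨σ, hσ⟩ : kˣ) : k) with hy
    have hy0 : y ≠ 0 := Units.ne_zero _
    set x : k := ((χ ⟨σ, hσG⟩ : kˣ) : k) with hx
    have hx0 : x ≠ 0 := Units.ne_zero _
    rw [hχE σ hσG, ← h1]
    have hodd : 2 * ((p + 1) / 2) = p + 1 := by
      have := hp.eq_two_or_odd'
      rcases this with h | h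
      · exact absurd h hp2
      · obtain ⟨j, hj⟩ := h
        omega
    have h3 : x⁻¹ = y ^ (p - 1) := by
      have e : y ^ p = y ^ (p - 1) * y := by
        rw [← pow_succ]
        congr 1
        have := hp.two_le
        omega
      rw [e] at h2
      have h4 : x * y ^ (p - 1) = 1 := by
        have h5 : (x * y ^ (p - 1)) * y = 1 * y := by rw [one_mul, mul_assoc]; exact h2
        exact mul_right_cancel₀ hy0 h5
      exact inv_eq_of_mul_eq_one_right h4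
    rw [h3, ← pow_add, ← pow_mul]
    have e2 : (p + 1 + (p - 1)) * ((p + 1) / 2) = (p + 1) * p := by
      have h6 : p + 1 + (p - 1) = 2 * p := by have := hp.two_le; omega
      rw [h6, mul_comm 2 p, mul_assoc, hodd, mul_comm]
    rw [e2, pow_mul, h1, ← map_pow, ZMod.pow_card]
  -- the homomorphisms on `N`
  have hadd : ∀ (c : G₂ → k), (∀ σ τ : G₂, c (σ * τ) = c σ + (χ σ : k) * c τ) →
      ∀ (cE : Gp p → k), (∀ σ (h : σ ∈ G₂), cE σ = c ⟨σ, h⟩) →
      (∀ n ∈ N, ∀ n' ∈ N, cE (n * n') = cE n + cE n') ∧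
      (∀ σ ∈ G₂, ∀ n ∈ N, cE (σ * n * σ⁻¹) = χE σ * cE n) := by
    intro c hcoc cE hcE
    constructor
    · intro n hn n' hn'
      rw [hcE _ (hNG₂ (N.mul_mem hn hn')), hcE _ (hNG₂ hn), hcE _ (hNG₂ hn')]
      have := hcoc ⟨n, hNG₂ hn⟩ ⟨n', hNG₂ hn'⟩
      rw [hNχ n hn, Units.val_one, one_mul] at this
      exact this
    · intro σ hσ n hn
      have hmem : σ * n * σ⁻¹ ∈ G₂ := G₂.mul_mem (G₂.mul_mem hσ (hNG₂ hn)) (G₂.inv_mem hσ)
      rw [hcE _ hmem, hcE _ (hNG₂ hn), hχE σ hσ]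
      exact cocG_conj χ c hcoc ⟨σ, hσ⟩ ⟨n, hNG₂ hn⟩ (hNχ n hn)
  obtain ⟨hadd₁, hconj₁⟩ := hadd c₁ hcoc₁ cE₁ hcE₁
  obtain ⟨hadd₂, hconj₂⟩ := hadd c₂ hcoc₂ cE₂ hcE₂
  have hχEmul : ∀ σ ∈ G₂, ∀ τ ∈ G₂, χE (σ * τ) = χE σ * χE τ := by
    intro σ hσ τ hτ
    rw [hχE _ (G₂.mul_mem hσ hτ), hχE σ hσ, hχE τ hτ, ← Units.val_mul, ← map_mul]
    rfl
  have hχEN : ∀ n ∈ N, χE n = 1 := by
    intro n hn
    rw [hχE n (hNG₂ hn), hNχ n hn, Units.val_one]
  obtain ⟨l₁, l₂, hl, hlin⟩ := hcore p hp2 k L hN hbdd ζ hζ hζL G₂ N hI hsq hNn hNG₂ hNζ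
    ⟨m, hpm, hpowN⟩ χE hχEmul hχEN hχI cE₁ cE₂ hadd₁ hconj₁
    (fun n hn hnL => by rw [hcE₁ n (hNG₂ hn)]; exact (htriv ⟨n, hNG₂ hn⟩ hnL).2.1)
    hadd₂ hconj₂
    (fun n hn hnL => by rw [hcE₂ n (hNG₂ hn)]; exact (htriv ⟨n, hNG₂ hn⟩ hnL).2.2)
  -- the combination is a coboundary
  obtain ⟨a, ha⟩ := coboundary_of_vanish χ (fun σ => l₁ * c₁ σ + l₂ * c₂ σ)
    (fun σ τ => by
      rw [hcoc₁, hcoc₂]
      ring)
    (N.subgroupOf G₂)
    (fun n hn => by
      rw [Subgroup.mem_subgroupOf] at hn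
      have := hlin n hn
      rw [hcE₁ n n.2, hcE₂ n n.2] at this
      exact this)
    hidxk
  exact ⟨l₁, l₂, a, hl, ha⟩

end Fermat.Agent.S56.FL.H59

end

end
-- ==== END Fermat.Agent.S56.FL.H59_CC2Asm

-- ==== BEGIN Fermat.Agent.S56.FL.H85_CC1Final
section

set_option autoImplicit false

/-!
# LOC-p-FL, package UNITS (helper85): `CC1z` and `CC1`, unconditional

`stmt_CC1z : Stmt_CC1z` from `stmt_CC1z_of` (helper85) and the leaves `NormDesc`, `ResFix`
(helper38); `stmt_CC1 : Stmt_CC1` by helper15's `stmt_CC1_of_z`.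
-/

namespace Fermat.Agent.S56.FL.H85

open Fermat.Agent.S56.FL

/-- **CC1z.** -/
theorem stmt_CC1z : Stmt_CC1z := stmt_CC1z_of H38.stmt_NormDesc H38.stmt_ResFix

/-- **CC1.** -/
theorem stmt_CC1 : Stmt_CC1 := H15.stmt_CC1_of_z stmt_CC1z

end Fermat.Agent.S56.FL.H85

end
-- ==== END Fermat.Agent.S56.FL.H85_CC1Final

-- ==== BEGIN Fermat.Agent.S56.GW.H9_Perf
section

/-!
# S56, package GW-PERF: tame local duality in cup product form (helper9)

`stmt_PERF_cup : Stmt_PERF_cup`.  For `q ≡ 1 mod p` and `M` unramified at `q`: a continuous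
1-cocycle `y` of `M' = M*(1)` on `G_q` whose cup product with every continuous 1-cocycle of `M`
is a continuous coboundary, is a coboundary.
-/

set_option autoImplicit false
set_option linter.unusedSectionVars false
set_option linter.style.haveILetI false

namespace Fermat.Agent.S56.H9

open NumberField CategoryTheory groupCohomology ExtCitation
open Fermat.Agent.Lib.LocalKummer

local notation "Qbar" => AlgebraicClosure ℚ

open Fermat.Agent.Lib.Minkowski in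
attribute [local instance] qbar_isAlgebraic qbar_isAlgClosure qbar_isGalois qbar_normal

/-- A finite normal extension containing a given finite extension and finitely many elements. -/
theorem exists_normal_field (E : IntermediateField ℚ Qbar) [FiniteDimensional ℚ E]
    (T : Finset Qbar) :
    ∃ F : IntermediateField ℚ Qbar, FiniteDimensional ℚ F ∧ Normal ℚ F ∧ E ≤ F ∧
      ∀ x ∈ T, x ∈ F := by
  classical
  let E₁ : IntermediateField ℚ Qbar := IntermediateField.adjoin ℚ (T : Set Qbar)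
  haveI : FiniteDimensional ℚ E₁ := by
    haveI : Finite (T : Set Qbar) := T.finite_toSet
    exact IntermediateField.finiteDimensional_adjoin
      (fun x _ => Algebra.IsIntegral.isIntegral x)
  let F1 : IntermediateField ℚ Qbar := E ⊔ E₁
  haveI : FiniteDimensional ℚ F1 := IntermediateField.finiteDimensional_sup E E₁
  let F : IntermediateField ℚ Qbar := IntermediateField.normalClosure ℚ F1 Qbar
  have hfd : FiniteDimensional ℚ F := inferInstance
  have hn : Normal ℚ F := normalClosure.normal ℚ F1 Qbar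
  have h1 : F1 ≤ F := F1.le_normalClosure
  refine ⟨F, hfd, hn, le_sup_left.trans h1, fun x hx => ?_⟩
  exact h1 (le_sup_right (a := E) (IntermediateField.subset_adjoin ℚ (T : Set Qbar) hx))

/-- Powers of the order of `Gal(F₀/ℚ)` act trivially on a representation of level `F₀`. -/
lemma rho_pow_card_eq_one {k : Type} [Field k] (M : Rep.{0} k GQ)
    (F₀ : IntermediateField ℚ Qbar) [FiniteDimensional ℚ F₀] [Normal ℚ F₀]
    (hF₀ : ∀ s ∈ F₀.fixingSubgroup, M.ρ s = 1) (s : GQ) :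
    M.ρ s ^ Nat.card (F₀ ≃ₐ[ℚ] F₀) = 1 := by
  rw [← map_pow]
  apply hF₀
  have h1 : AlgEquiv.restrictNormalHom F₀ (s ^ Nat.card (F₀ ≃ₐ[ℚ] F₀)) = 1 := by
    rw [map_pow]
    exact pow_card_eq_one'
  have h2 : s ^ Nat.card (F₀ ≃ₐ[ℚ] F₀) ∈ (AlgEquiv.restrictNormalHom (F := ℚ) (K₁ := Qbar) F₀).ker :=
    MonoidHom.mem_ker.2 h1
  exact (Subgroup.ext_iff.1 (@IntermediateField.restrictNormalHom_ker ℚ Qbar _ _ _ F₀ ‹_›) _).1 h2

theorem stmt_PERF_cup : Stmt_PERF_cup := by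
  intro p _ hp2 k _ _ _ M _ hsm q hq1 hur y hy hall
  classical
  have hp : p.Prime := Fact.out
  haveI : NeZero p := ⟨hp.ne_zero⟩
  have hχ : ∀ g : Gq q, cycloK p k (rq q g) = 1 := fun g => cycloK_rq_eq_one p k hq1 g
  obtain ⟨F₀, hF₀fd, hF₀n, hF₀⟩ := exists_field_trivial M hsm
  obtain ⟨hyc, Ey, hEyfd, hyE⟩ := hy
  haveI := hF₀fd
  haveI := hF₀n
  haveI := hEyfd
  -- the numbers
  set e₀ := Nat.card (F₀ ≃ₐ[ℚ] F₀) with he₀
  have he₀pos : 0 < e₀ := Nat.card_pos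
  set t := e₀ * p with ht
  have htpos : 0 < t := Nat.mul_pos he₀pos hp.pos
  have hq2 : 2 ≤ (q : ℕ) := q.2.two_le
  have hn0 : (q : ℕ) ^ t - 1 ≠ 0 := by
    have : 2 ≤ (q : ℕ) ^ t :=
      hq2.trans (by calc (q : ℕ) = (q : ℕ) ^ 1 := (pow_one _).symm
        _ ≤ (q : ℕ) ^ t := Nat.pow_le_pow_right (by omega) htpos)
    omega
  -- the elements
  haveI : NeZero (((q : ℕ) ^ t - 1 : ℕ) : Qbar) := ⟨Nat.cast_ne_zero.2 hn0⟩
  haveI : NeZero (p : Qbar) := ⟨Nat.cast_ne_zero.2 hp.ne_zero⟩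
  obtain ⟨z, hz⟩ := HasEnoughRootsOfUnity.exists_primitiveRoot Qbar ((q : ℕ) ^ t - 1)
  obtain ⟨ζ, hζ⟩ := HasEnoughRootsOfUnity.exists_primitiveRoot Qbar p
  obtain ⟨π, hπ⟩ := IsAlgClosed.exists_pow_nat_eq (((q : ℕ) : Qbar)) hp.pos
  -- the first level
  haveI : FiniteDimensional ℚ (F₀ ⊔ Ey : IntermediateField ℚ Qbar) :=
    IntermediateField.finiteDimensional_sup F₀ Ey
  obtain ⟨F', hF'fd, hF'n, hF'le, hF'mem⟩ := exists_normal_field (F₀ ⊔ Ey) {z, ζ, π}
  haveI := hF'fd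
  haveI := hF'n
  haveI : NumberField F' :=
    { to_charZero := inferInstance, to_finiteDimensional := inferInstance }
  have hzF' : z ∈ F' := hF'mem z (by simp)
  have hζF' : ζ ∈ F' := hF'mem ζ (by simp)
  have hπF' : π ∈ F' := hF'mem π (by simp)
  have hF₀F' : F₀ ≤ F' := le_sup_left.trans hF'le
  have hEyF' : Ey ≤ F' := le_sup_right.trans hF'le
  -- the representations and the pairing
  let ρ : Representation k (Gq q) M := M.ρ.comp (rq q)
  let ρ' : Representation k (Gq q) (tateDual p M) := (tateDual p M).ρ.comp (rq q)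
  let B : M →ₗ[k] (tateDual p M) →ₗ[k] k := Module.Dual.eval k M
  have hBev : ∀ (a : M) (l : tateDual p M), B a l = evT p M a l := fun _ _ => rfl
  have hnd : ∀ l : tateDual p M, l ≠ 0 → ∃ a : M, B a l ≠ 0 := by
    intro l hl
    by_contra hcon
    push Not at hcon
    apply hl
    exact LinearMap.ext fun a => hcon a
  have hρ'apply : ∀ (g : Gq q) (b : tateDual p M) (a : M),
      B a (ρ' g b) = B (M.ρ (rq q g)⁻¹ a) b := by
    intro g b a
    show ((tateDual p M).ρ (rq q g) b) a = _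
    rw [H47.tateDual_ρ_apply, hχ g, Units.val_one, one_smul]
    rfl
  have hB : ∀ g a b, B (ρ g a) (ρ' g b) = B a b := by
    intro g a b
    rw [hρ'apply]
    show B (M.ρ (rq q g)⁻¹ (M.ρ (rq q g) a)) b = B a b
    rw [← Module.End.mul_apply, ← map_mul, inv_mul_cancel, map_one]
    rfl
  have hann : ∀ (ψ : Gq q) (l : tateDual p M), (∀ a : M, ρ ψ a = a → B a l = 0) →
      ∃ b : tateDual p M, l = ρ' ψ b - b := by
    intro ψ l hl
    let T : M →ₗ[k] M := M.ρ (rq q ψ)⁻¹ - 1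
    have hker : (l : Module.Dual k M) ∈ (LinearMap.ker T).dualAnnihilator := by
      rw [Submodule.mem_dualAnnihilator]
      intro a ha
      have ha' : M.ρ (rq q ψ)⁻¹ a - a = 0 := ha
      have ha2 : M.ρ (rq q ψ)⁻¹ a = a := sub_eq_zero.1 ha'
      have ha3 : ρ ψ a = a := by
        show M.ρ (rq q ψ) a = a
        conv_lhs => rw [← ha2]
        rw [← Module.End.mul_apply, ← map_mul, mul_inv_cancel, map_one]
        rfl
      exact hl a ha3
    rw [← LinearMap.range_dualMap_eq_dualAnnihilator_ker] at hker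
    obtain ⟨b, hb⟩ := hker
    refine ⟨b, ?_⟩
    refine LinearMap.ext fun a => ?_
    have h1 : (l : Module.Dual k M) a = (T.dualMap b) a := by rw [hb]
    rw [h1]
    show b (T a) = B a (ρ' ψ b - b)
    rw [map_sub, hρ'apply]
    show b (M.ρ (rq q ψ)⁻¹ a - a) = b (M.ρ (rq q ψ)⁻¹ a) - b a
    rw [map_sub]
  -- tame data at the first level
  obtain ⟨P', φ', τ₀', a', hT', -⟩ := tameData_level (q := q) F'
  have hdiv : ∀ c : ℕ, φ' ^ c ∈ inertiaF q F' → t ∣ c := fun c hc =>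
    dvd_of_pow_mem_inertiaF F' htpos hz hzF' hT'.hnorm hT'.hgen hc
  have hF'triv : ∀ s ∈ F'.fixingSubgroup, M.ρ s = 1 := fun s hs =>
    hF₀ s (IntermediateField.fixingSubgroup_antitone hF₀F' hs)
  have hρI' : ∀ i ∈ inertiaF q F', ρ i = 1 := fun i hi =>
    rho_eq_one_of_mem_inertiaF M hur F' hF'triv hi
  have hpk : ((p : ℕ) : k) = 0 := CharP.cast_eq_zero k p
  have hφe : ρ φ' ^ e₀ = 1 := rho_pow_card_eq_one M F₀ hF₀ (rq q φ')
  have hN : ∀ (a : M) (c : ℕ), φ' ^ c ∈ inertiaF q F' → normSum ρ φ' a c = 0 := fun a c hc =>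
    normSum_eq_zero ρ φ' hφe hpk (hdiv c hc) a
  have hX : ∀ a : M, ∃ x : Gq q → M, IsCoc ρ x ∧ (∀ i ∈ inertiaF q F', x i = 0) ∧ x φ' = a :=
    fun a => exists_unram_cocycle hT'.hnorm hT'.hgen hρI' a (hN a)
  choose X₁ hX₁ using hX
  -- the Kummer character
  let κ : Gq q → k := fun g => (ZMod.castHom (dvd_refl p) k : ZMod p →+* k) (kummerQ hζ hπ g)
  have hκ : ∀ g h, κ (g * h) = κ g + κ h := by
    intro g h
    show (ZMod.castHom (dvd_refl p) k : ZMod p →+* k) (kummerQ hζ hπ (g * h)) = _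
    rw [kummerQ_mul hp hq1 hζ hπ g h, map_add]
  have hκfix : ∀ u : Gq q, rq q u π = π → κ u = 0 := by
    intro u hu
    show (ZMod.castHom (dvd_refl p) k : ZMod p →+* k) (kummerQ hζ hπ u) = 0
    rw [(kummerQ_eq_zero_iff hζ hπ u).2 hu, map_zero]
  -- the cup products are coboundaries
  have h₁ : ∀ a : M, ∃ (E : IntermediateField ℚ Qbar) (f : Gq q → k), FiniteDimensional ℚ E ∧
      (∀ g s : Gq q, rq q s ∈ E.fixingSubgroup → f (g * s) = f g) ∧
      ∀ g h, B (X₁ a g) (ρ' g (y h)) = f h - f (g * h) + f g := by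
    intro a
    obtain ⟨hxc, hxI, -⟩ := hX₁ a
    have hloc : IsLocZ1 M q (X₁ a) := by
      refine ⟨fun g h => hxc g h, F', hF'fd, fun g s hs => ?_⟩
      have hsI : s ∈ inertiaF q F' := hT'.hPI (hT'.hUP hs)
      rw [hxc g s, hxI s hsI, map_zero, zero_add]
    obtain ⟨f, ⟨E, hE, hfE⟩, hf⟩ := hall (X₁ a) hloc
    refine ⟨E, f, hE, hfE, fun g h => ?_⟩
    have h1 := hf g h
    rw [hχ g, Units.val_one, one_mul] at h1
    exact h1
  choose E₁ f₁ hE₁ hf₁U hf₁ using h₁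
  have h₂ : ∀ a : M, ∃ (E : IntermediateField ℚ Qbar) (f : Gq q → k), FiniteDimensional ℚ E ∧
      ((∀ g, ρ g a = a) → (∀ g s : Gq q, rq q s ∈ E.fixingSubgroup → f (g * s) = f g) ∧
      ∀ g h, B (κ g • a) (ρ' g (y h)) = f h - f (g * h) + f g) := by
    intro a
    by_cases ha : ∀ g, ρ g a = a
    · have hloc : IsLocZ1 M q (fun g => κ g • a) := by
        refine ⟨fun g h => ?_, F', hF'fd, fun g s hs => ?_⟩
        · show κ (g * h) • a = M.ρ (rq q g) (κ h • a) + κ g • a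
          rw [hκ, map_smul, add_smul, add_comm]
          congr 2
          exact (ha g).symm
        · show κ (g * s) • a = κ g • a
          have hsπ : rq q s π = π :=
            (IntermediateField.mem_fixingSubgroup_iff F' (rq q s)).1 hs π hπF'
          rw [hκ, hκfix s hsπ, add_zero]
      obtain ⟨f, ⟨E, hE, hfE⟩, hf⟩ := hall _ hloc
      refine ⟨E, f, hE, fun _ => ⟨hfE, fun g h => ?_⟩⟩
      have h1 := hf g h
      rw [hχ g, Units.val_one, one_mul] at h1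
      exact h1
    · exact ⟨⊥, 0, inferInstance, fun h => absurd h ha⟩
  choose E₂ f₂ hE₂ hf₂ using h₂
  -- the second level
  haveI : Finite M := Module.finite_of_finite k
  haveI : ∀ a, FiniteDimensional ℚ (E₁ a) := hE₁
  haveI : ∀ a, FiniteDimensional ℚ (E₂ a) := hE₂
  haveI hfd1 : FiniteDimensional ℚ (⨆ a, E₁ a : IntermediateField ℚ Qbar) :=
    IntermediateField.finiteDimensional_iSup_of_finite
  haveI hfd2 : FiniteDimensional ℚ (⨆ a, E₂ a : IntermediateField ℚ Qbar) :=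
    IntermediateField.finiteDimensional_iSup_of_finite
  haveI hfd3 : FiniteDimensional ℚ ((⨆ a, E₁ a) ⊔ (⨆ a, E₂ a) : IntermediateField ℚ Qbar) :=
    IntermediateField.finiteDimensional_sup _ _
  haveI hfd4 : FiniteDimensional ℚ
      (F' ⊔ ((⨆ a, E₁ a) ⊔ (⨆ a, E₂ a)) : IntermediateField ℚ Qbar) :=
    IntermediateField.finiteDimensional_sup _ _
  obtain ⟨F'', hF''fd, hF''n, hF''le, -⟩ :=
    exists_normal_field (F' ⊔ ((⨆ a, E₁ a) ⊔ (⨆ a, E₂ a))) ∅
  haveI := hF''fd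
  haveI := hF''n
  haveI : NumberField F'' :=
    { to_charZero := inferInstance, to_finiteDimensional := inferInstance }
  have hF'F'' : F' ≤ F'' := le_sup_left.trans hF''le
  have hE₁F'' : ∀ a, E₁ a ≤ F'' := fun a =>
    (le_iSup E₁ a).trans (le_sup_left.trans (le_sup_right.trans hF''le))
  have hE₂F'' : ∀ a, E₂ a ≤ F'' := fun a =>
    (le_iSup E₂ a).trans (le_sup_right.trans (le_sup_right.trans hF''le))
  obtain ⟨P, φ, τ₀, a, hT, -⟩ := tameData_level (q := q) F''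
  have hqk : (((q : ℕ) : ℕ) : k) = 1 := by
    rw [CharP.cast_eq_mod k p, hq1, Nat.cast_one]
  have hq0 : (((q : ℕ) : ℕ) : k) ≠ 0 := by
    rw [hqk]
    exact one_ne_zero
  have hm : ((((q : ℕ) ^ a : ℕ)) : k) = 1 := by
    rw [Nat.cast_pow, hqk, one_pow]
  have hF''triv : ∀ s ∈ F''.fixingSubgroup, M.ρ s = 1 := fun s hs =>
    hF'triv s (IntermediateField.fixingSubgroup_antitone hF'F'' hs)
  have hρI : ∀ i ∈ inertiaF q F'', ρ i = 1 := fun i hi =>
    rho_eq_one_of_mem_inertiaF M hur F'' hF''triv hi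
  have hρ'I : ∀ i ∈ inertiaF q F'', ρ' i = 1 := fun i hi =>
    H47.tateDual_ρ_eq_one p M (rq q i) (hρI i hi) (hχ i)
  have hyU : ∀ g, ∀ u ∈ levelSubgroup q F'', y (g * u) = y g := fun g u hu =>
    hyE g u (IntermediateField.fixingSubgroup_antitone (hEyF'.trans hF'F'') hu)
  have hpdiv : ∀ c : ℕ, φ' ^ c ∈ inertiaF q F' → p ∣ c := fun c hc =>
    (Dvd.intro_left e₀ rfl).trans (hdiv c hc)
  have hκU : ∀ u ∈ levelSubgroup q F'', κ u = 0 := fun u hu =>
    hκfix u ((IntermediateField.mem_fixingSubgroup_iff F'' (rq q u)).1 hu π (hF'F'' hπF'))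
  have hκram : ∃ i ∈ inertiaF q F'', κ i ≠ 0 := by
    obtain ⟨i, hi, hne⟩ := kummerQ_ramified hp hq1 hζ hπ F'' (hF'F'' hζF') (hF'F'' hπF')
    refine ⟨i, hi, fun h0 => hne ?_⟩
    have hinj : Function.Injective (ZMod.castHom (dvd_refl p) k : ZMod p →+* k) :=
      RingHom.injective _
    exact hinj (h0.trans (map_zero _).symm)
  exact perf_abstract p hp2 hT hq0 hm ρ ρ' B hB hnd hann hρI hρ'I (fun g h => hyc g h) hyU
    (inertiaF_anti hF'F'') hT'.hnorm hT'.hgen hpdiv X₁ hX₁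
    (fun a => ⟨f₁ a, fun g u hu => hf₁U a g u
      (IntermediateField.fixingSubgroup_antitone (hE₁F'' a) hu), hf₁ a⟩)
    κ hκ hκU hκram
    (fun a ha => ⟨f₂ a, fun g u hu => (hf₂ a ha).1 g u
      (IntermediateField.fixingSubgroup_antitone (hE₂F'' a) hu), (hf₂ a ha).2⟩)

end Fermat.Agent.S56.H9

end
-- ==== END Fermat.Agent.S56.GW.H9_Perf
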