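-- GENERATED (merged mirror, NOTES/tools/trim/merge3_helper67.py): 2 modules of the originals, bodies verbatim.
import Fermat.Agent.Zm.S56_L14_004
import Fermat.Agent.Zm.S56_L11_002
import Fermat.Agent.Zm.S56_L04_003
import Fermat.Agent.Zm.S56_L12_003
import Fermat.Agent.Zm.S56_L12_001
import Fermat.Agent.Zm.S56_L12_002
import Fermat.Agent.Zm.S56_L14_005
import Fermat.Agent.Zm.S56_L11_003

-- ==== BEGIN Fermat.Agent.S56.GWC.H9_RS
section

/-!
# S56 / GW-CORE / PT2, package RS (helper9): `Stmt_RS : Stmt_PT2e → Stmt_PT2`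

Restriction of scalars `k → 𝔽_p`.  `M` over `k` is also an `𝔽_p[G_ℚ]`-module `M₀`
(`H9.M0`), and `(M')₀ ≅ (M₀)'` by `φ ↦ Tr_{k/𝔽_p} ∘ φ` (`H9.trDual`).  All the groups in
`Stmt_PT2` have the same cardinality for `M` and for `M₀` (`H9_RSTransfer.lean`), and
`#V = (#k)^{dim_k V}`.
-/

set_option autoImplicit false
set_option linter.unusedSectionVars false
set_option linter.style.haveILetI false

noncomputable section

namespace Fermat.Agent.S56.GWC.H9

open CategoryTheory groupCohomology ExtCitation Module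
open Fermat.Agent

lemma two_ne_zero_of_charP (p : ℕ) [Fact p.Prime] (hp2 : p ≠ 2) (k : Type) [Field k]
    [CharP k p] : (2 : k) ≠ 0 := by
  intro h
  have h1 : ((2 : ℕ) : k) = 0 := by exact_mod_cast h
  have h2 := (CharP.cast_eq_zero_iff k p 2).1 h1
  exact hp2 ((Nat.prime_dvd_prime_iff_eq Fact.out Nat.prime_two).1 h2)

lemma card_eq_pow (k : Type) [Field k] [Finite k] (V : Type*) [AddCommGroup V] [Module k V]
    [Finite V] : Nat.card V = Nat.card k ^ finrank k V :=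
  haveI : Module.Finite k V := Module.Finite.of_finite
  Module.natCard_eq_pow_finrank

/-- **Package RS.** -/
theorem stmt_RS : Stmt_RS := by
  intro hPT2e p _ hp2 k _ _ _ M _ hsm Sg hpS hur
  haveI := finiteDimensional_M0 p M
  haveI hMfin : Finite M := finite_M M
  have hHyp : S55.Hyp p Sg (M0 p M) :=
    { hp2 := hp2
      hpS := hpS
      fin := inferInstance
      hsm := fun m => hsm m
      hMur := fun q hq A hA g hg => by
        apply LinearMap.ext
        intro m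
        exact congrArg (fun f : Module.End k M => f m) (hur q hq A hA g hg) }
  have hLev := S55.H48.stmt_lev p Sg (M0 p M) hHyp
  obtain ⟨hfin, hineq⟩ := hPT2e p hp2 Sg (M0 p M) hpS hLev
  have h2k : (2 : k) ≠ 0 := _root_.Fermat.Agent.S56.GWC.H9.two_ne_zero_of_charP p hp2 k
  have h2p : (2 : ZMod p) ≠ 0 := _root_.Fermat.Agent.S56.GWC.H9.two_ne_zero_of_charP p hp2 (ZMod p)
  have T1 : Nat.card (sha₁ Sg M) = Nat.card (sha₁ Sg (M0 p M)) :=
    card_sha1_eq Sg (idEquiv p M) (idEquiv_equivariant p M) h2k h2p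
  have T2 : ∀ q : Nat.Primes, Nat.card (S56.locRep M q).ρ.invariants =
      Nat.card (S56.locRep (M0 p M) q).ρ.invariants :=
    fun q => card_loc_invariants_eq (idEquiv p M) (idEquiv_equivariant p M) q
  have T3 : Nat.card M.ρ.invariants = Nat.card (M0 p M).ρ.invariants :=
    card_invariants_eq (idEquiv p M) (idEquiv_equivariant p M)
  have T4 : Nat.card (continuousH2S Sg (S56.tateDual p M)) =
      Nat.card (continuousH2S Sg (S55.Md (cycloChar p) (M0 p M))) :=
    card_H2S_eq Sg (trDual p M) (trDual_equivariant p M)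
  -- finiteness
  haveI hH2 : Finite (continuousH2S Sg (S56.tateDual p M)) := by
    apply Nat.finite_of_card_ne_zero
    rw [T4]
    haveI := hfin
    exact Nat.card_pos.ne'
  haveI : Module.Finite k (continuousH1S Sg M) := H92.stmt_fin_glob k M hsm Sg
  haveI : Finite (continuousH1S Sg M) := Module.finite_of_finite k
  haveI hsha : Finite (sha₁ Sg M) :=
    Finite.of_injective (fun x : sha₁ Sg M => (⟨x.1, x.2.1⟩ : continuousH1S Sg M))
      (fun x y h => Subtype.ext (congrArg (fun z : continuousH1S Sg M => (z : H1 M)) h))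
  refine ⟨Module.Finite.of_finite, ?_⟩
  rw [← T1, ← T4, ← T3] at hineq
  simp only [← T2] at hineq
  rw [card_eq_pow k (sha₁ Sg M), card_eq_pow k (continuousH2S Sg (S56.tateDual p M)),
    card_eq_pow k M.ρ.invariants] at hineq
  have hloc : ∏ q ∈ Sg, Nat.card (S56.locRep M q).ρ.invariants =
      Nat.card k ^ ∑ q ∈ Sg, finrank k (S56.locRep M q).ρ.invariants := by
    rw [← Finset.prod_pow_eq_pow_sum]
    refine Finset.prod_congr rfl fun q _ => ?_
    haveI : Finite (S56.locRep M q) := hMfin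
    exact card_eq_pow k _
  rw [hloc, ← pow_add, ← pow_add] at hineq
  exact (Nat.pow_le_pow_iff_right (Finite.one_lt_card (α := k))).1 hineq

end Fermat.Agent.S56.GWC.H9

end
end
-- ==== END Fermat.Agent.S56.GWC.H9_RS

-- ==== BEGIN Fermat.Agent.S56.Wiring4
section

set_option autoImplicit false

/-!
# Cluster T / S56: fourth-level wiring (the current frontier)

`wiring4` proves the frozen statement S56 from the FIVE leaves that are still open:

* GW-INV  `Stmt_INV`      (local invariants + reciprocity law; `GW/Defs2.lean`),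
* GW-PERF `Stmt_PERF_cup` (tame local duality, cup-product form; `GW/Defs2.lean`),
* LB-a    `Stmt_PT2`      (Poitou-Tate in degree 2, injective half; `GW/Defs2.lean`),
* LB-b    `Stmt_EC`       (Tate's global Euler characteristic; `GW/Defs2.lean`),
* LOC-p-FL `Stmt_loc_p_Fl` (flat local condition at `p`; `LeavesNT.lean`).

Everything else is proved and discharged here: GW-FIN-glob (helper92/helper25), GW-FIN-loc
(helper9), LB-c = ARCH (helper27), TW-SELECT (helper74 and team), LOC-p-SO (helper57),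
LOC-min (helper85), and the leaves discharged in `Wiring3.lean`.  No `sorry`.
-/

namespace Fermat.Agent.S56

open Polynomial IsLocalRing

/-- GW-CORE from the four open GW leaves. -/
theorem gw_core_of_leaves (hINV : Stmt_INV) (hPERF : Stmt_PERF_cup) (hPT2 : Stmt_PT2)
    (hEC : Stmt_EC) : Stmt_GW_core :=
  gw_core_of_inv hINV hPERF (lb_of_PT2_EC hPT2 hEC H27.stmt_ARCH)

theorem wiring4 (hINV : Stmt_INV) (hPERF : Stmt_PERF_cup) (hPT2 : Stmt_PT2) (hEC : Stmt_EC)
    (hlocpFl : Stmt_loc_p_Fl)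
    {𝒪 : Type} [CommRing 𝒪] [IsDomain 𝒪] [IsDiscreteValuationRing 𝒪]
    [IsAdicComplete (maximalIdeal 𝒪) 𝒪] [Finite (ResidueField 𝒪)]
    (p : ℕ) [Fact p.Prime] (hp2 : p ≠ 2) (hp𝒪 : (p : 𝒪) ∈ maximalIdeal 𝒪)
    (ρbar : ResidualGaloisRep (ResidueField 𝒪))
    (habs : ρbar.IsAbsolutelyIrreducible)
    (hdet : (GaloisRepAdic.ofResidualGaloisRep ρbar).DetIsCyclotomic p)
    (hsplit : ∀ σ : AlgebraicClosure ℚ ≃ₐ[ℚ] AlgebraicClosure ℚ,
      ∃ α β : ResidueField 𝒪, LinearMap.charpoly (ρbar.ρ σ) = (X - C α) * (X - C β))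
    (hTW : ∀ (K : Type) [Field K] [Algebra (ResidueField 𝒪) K]
      (G : Subgroup (AlgebraicClosure ℚ ≃ₐ[ℚ] AlgebraicClosure ℚ)), G.index = 2 →
      ∀ V : Submodule K (ρbar.baseChange K).V,
        (∀ σ ∈ G, ∀ x ∈ V, (ρbar.baseChange K).ρ σ x ∈ V) → V = ⊥ ∨ V = ⊤)
    (S Smin : Finset ℕ) (hpSmin : p ∈ Smin) (hSmin : Smin ⊆ S) (hS : ∀ q ∈ S, q.Prime)
    (hmin : ∀ q : ℕ, q.Prime → q ≠ p → (q ∈ Smin ↔ ¬ ρbar.IsUnramifiedAt q)) :
    (∃ r : ℕ, ∀ n : ℕ, ∃ qv : Fin r → ℕ, Function.Injective qv ∧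
      (∀ i, (qv i).Prime ∧ qv i ∉ S ∧ p ^ (n + 1) ∣ qv i - 1) ∧
      (∀ i, ∀ P : ValuationSubring (AlgebraicClosure ℚ), P.LiesOverPrime (qv i) →
        ∀ φ : AlgebraicClosure ℚ ≃ₐ[ℚ] AlgebraicClosure ℚ, P.IsFrobeniusAt φ (qv i) →
          ∃ α β : ResidueField 𝒪, α ≠ β ∧ LinearMap.charpoly (ρbar.ρ φ) = (X - C α) * (X - C β)) ∧
      ∀ DQ : GaloisRep.DeformationRingData 𝒪 ρbar (fun _A _ _ _ ρ =>
          GaloisRep.strictOrdinaryCondition 𝒪 p (Smin ∪ Finset.univ.image qv) ρ ∧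
            ∀ q ∈ Smin, q.Prime → q ≠ p → ρ.IsUnipotentOnInertiaAt q),
        ∃ γ : MvPowerSeries (Fin r) 𝒪 →ₐ[𝒪] DQ.R, Function.Surjective γ) ∧
    (∃ r : ℕ, ∀ n : ℕ, ∃ qv : Fin r → ℕ, Function.Injective qv ∧
      (∀ i, (qv i).Prime ∧ qv i ∉ S ∧ p ^ (n + 1) ∣ qv i - 1) ∧
      (∀ i, ∀ P : ValuationSubring (AlgebraicClosure ℚ), P.LiesOverPrime (qv i) →
        ∀ φ : AlgebraicClosure ℚ ≃ₐ[ℚ] AlgebraicClosure ℚ, P.IsFrobeniusAt φ (qv i) →
          ∃ α β : ResidueField 𝒪, α ≠ β ∧ LinearMap.charpoly (ρbar.ρ φ) = (X - C α) * (X - C β)) ∧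
      ∀ DQ : GaloisRep.DeformationRingData 𝒪 ρbar (fun _A _ _ _ ρ =>
          GaloisRep.flatCondition 𝒪 p (Smin ∪ Finset.univ.image qv) ρ ∧
            ∀ q ∈ Smin, q.Prime → q ≠ p → ρ.IsUnipotentOnInertiaAt q),
        ∃ γ : MvPowerSeries (Fin r) 𝒪 →ₐ[𝒪] DQ.R, Function.Surjective γ) :=
  wiring3 H92.stmt_fin_glob H9.stmt_fin_loc (gw_core_of_leaves hINV hPERF hPT2 hEC)
    TWS.stmt_TW_select H57.stmt_loc_p_SO hlocpFl LocMin.stmt_loc_min
    p hp2 hp𝒪 ρbar habs hdet hsplit hTW S Smin hpSmin hSmin hS hmin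

end Fermat.Agent.S56

end
-- ==== END Fermat.Agent.S56.Wiring4
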