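-- GENERATED (merged mirror, NOTES/tools/trim/merge3_helper67.py): 7 modules of the originals, bodies verbatim.
import Mathlib
import Fermat.Agent.Zm.S56_L15_000
import Fermat.Agent.Zm.S56_L11_006
import Fermat.Agent.Zm.S56_L12_005
import Fermat.Agent.Zm.S56_L01_003
import Fermat.Agent.Zm.S56_L15_002
import Fermat.Agent.Zm.S56_L07_004
import Fermat.Agent.Zm.S56_L04_004
import Fermat.Agent.Zm.S56_L14_002
import Fermat.Agent.Zm.S56_L13_002
import Fermat.Agent.Zm.S56_L15_003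
import Fermat.Agent.Zm.S56_L09_002
import Fermat.Agent.Zm.S56_L05_004
import Fermat.Agent.Zm.S56_L15_004
import Fermat.Agent.Zm.S56_L14_003

-- ==== BEGIN Fermat.Agent.S56.EC.H31_BridgeFin
section

/-!
# S56 / EC / UBR, leaf BRIDGE, finite part (helper31)

For a finite Galois extension `L/ℚ` inside `ℚ̄`, `G = Gal(L/ℚ)`, a prime `q` and `b ∈ G`: the
primes of `L` over `q` mapped into themselves by `b` are as many as the fixed points of `b` on
`G / D_q`, `D_q = decL L q`.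

* `urPl_eq_iff` : `urPl L q σ = urPl L q σ' ↔ resL (σ' σ⁻¹) ∈ D_q` (helper6's `urPl_eq`,
  `ur_exists_local`, `urPl_mul_left/right`);
* `mem_urPl_iff` : `y ∈ urPl L q σ ↔ v₀(σ y) < 1`;
* `plMap L q : G ⧸ D_q → primes`, injective, onto the primes over `q`, and
  `b • c = c ↔ b (plMap c) ⊆ plMap c`.
-/

set_option autoImplicit false
set_option linter.unusedSectionVars false
set_option linter.style.haveILetI false

open scoped NumberField Pointwise

noncomputable section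

namespace Fermat.Agent.S56.EC.H31

open Fermat.Agent.S55.CFT.GS.H6 Fermat.Agent.Lib.Minkowski IsDedekindDomain ExtCitation
  Fermat.Agent.S55.Top

local notation "Qb" => AlgebraicClosure ℚ
local notation "rl" => Fermat.Agent.S55.rl

variable (L : IntermediateField ℚ Qb) [Normal ℚ L] [FiniteDimensional ℚ L] (q : Nat.Primes)

attribute [local instance] numberFieldL

theorem resL_eq_one_of_mem {g : GQ} (hg : g ∈ L.fixingSubgroup) : resL L g = 1 := by
  ext x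
  have h := AlgEquiv.restrictNormal_commutes g L x
  have h2 : g (x : Qb) = x := (IntermediateField.mem_fixingSubgroup_iff L g).mp hg _ x.2
  exact h.trans h2

theorem resL_mem_decL_of_smul (d : GQ) (hd : d • urA0 q = urA0 q) : resL L d ∈ decL L q := by
  obtain ⟨τ, hτ⟩ := ur_exists_local L q d 1 hd
  rw [mul_one, mul_one, QuotientGroup.eq] at hτ
  have h1 : resL L ((rl q τ)⁻¹ * d) = 1 := resL_eq_one_of_mem L hτ
  rw [map_mul, map_inv, inv_mul_eq_one] at h1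
  rw [← h1]
  exact ⟨_, ⟨τ, rfl⟩, rfl⟩

theorem urPl_eq_iff (σ σ' : GQ) :
    urPl L q σ = urPl L q σ' ↔ resL L (σ' * σ⁻¹) ∈ decL L q := by
  constructor
  · intro h
    obtain ⟨d, g, hd, hg, hσ⟩ := urPl_eq L q σ σ' h
    have h1 : resL L (σ' * σ⁻¹) = resL L d := by
      rw [hσ, map_mul, map_mul, map_mul, resL_eq_one_of_mem L hg, mul_one, map_inv,
        mul_inv_cancel_right]
    rw [h1]
    exact resL_mem_decL_of_smul L q d hd
  · rintro ⟨d, ⟨τ, rfl⟩, hd⟩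
    have hg : (rl q τ)⁻¹ * (σ' * σ⁻¹) ∈ L.fixingSubgroup := by
      apply mem_fixingSubgroup_of_resL
      rw [map_mul, map_inv, inv_mul_eq_one]
      exact hd
    have hg' : σ⁻¹ * ((rl q τ)⁻¹ * (σ' * σ⁻¹)) * σ ∈ L.fixingSubgroup := by
      apply mem_fixingSubgroup_of_resL
      rw [map_mul, map_mul, resL_eq_one_of_mem L hg, mul_one, map_inv, inv_mul_cancel]
    have h2 : σ' = rl q τ * σ * (σ⁻¹ * ((rl q τ)⁻¹ * (σ' * σ⁻¹)) * σ) := by group
    rw [h2, urPl_mul_right L q _ _ hg', urPl_mul_left L q _ _ (ur_rl_smul q τ)]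

theorem mem_urPl_iff (σ : GQ) (y : 𝓞 ↥L) :
    y ∈ (urPl L q σ).asIdeal ↔ (urA0 q).valuation (σ (algebraMap (𝓞 ↥L) Qb y)) < 1 := by
  rw [urPl_asIdeal, mem_primeBelow, ur_valuation_smul_lt, inv_inv]

/-- The image of an integer under `b ∈ Gal(L/ℚ)`, as an integer. -/
def galInt (b : GalL L) (x : 𝓞 ↥L) : 𝓞 ↥L :=
  ⟨b (x : ↥L), map_isIntegral_int (b : ↥L →ₐ[ℚ] ↥L).toRingHom.toIntAlgHom
    (NumberField.RingOfIntegers.isIntegral_coe x)⟩

theorem coe_galInt (b : GalL L) (x : 𝓞 ↥L) : ((galInt L b x : 𝓞 ↥L) : ↥L) = b (x : ↥L) := rfl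

theorem algebraMap_galInt (β : GQ) (x : 𝓞 ↥L) :
    algebraMap (𝓞 ↥L) Qb (galInt L (resL L β) x) = β (algebraMap (𝓞 ↥L) Qb x) :=
  AlgEquiv.restrictNormal_commutes β L (x : ↥L)

/-- The condition of `fixF` on a prime. -/
def IsStable (b : GalL L) (w : HeightOneSpectrum (𝓞 ↥L)) : Prop :=
  ∀ x : 𝓞 ↥L, x ∈ w.asIdeal → ∃ y : 𝓞 ↥L, y ∈ w.asIdeal ∧ (y : ↥L) = b (x : ↥L)

theorem isStable_iff (b : GalL L) (w : HeightOneSpectrum (𝓞 ↥L)) :
    IsStable L b w ↔ ∀ x : 𝓞 ↥L, x ∈ w.asIdeal → galInt L b x ∈ w.asIdeal := by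
  constructor
  · intro h x hx
    obtain ⟨y, hy, hyx⟩ := h x hx
    have : y = galInt L b x := NumberField.RingOfIntegers.ext hyx
    rw [← this]
    exact hy
  · intro h x hx
    exact ⟨galInt L b x, h x hx, rfl⟩

theorem isStable_urPl_iff (β σ : GQ) :
    IsStable L (resL L β) (urPl L q σ) ↔ resL L (σ * β * σ⁻¹) ∈ decL L q := by
  rw [← urPl_eq_iff, isStable_iff]
  constructor
  · intro h
    apply HeightOneSpectrum.ext
    have hle : (urPl L q σ).asIdeal ≤ (urPl L q (σ * β)).asIdeal := by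
      intro x hx
      have h1 := h x hx
      rw [mem_urPl_iff, algebraMap_galInt] at h1
      rw [mem_urPl_iff]
      exact h1
    have hmax : (urPl L q σ).asIdeal.IsMaximal := (urPl L q σ).isMaximal
    exact hmax.eq_of_le (urPl L q (σ * β)).isPrime.ne_top hle
  · intro h x hx
    rw [mem_urPl_iff, algebraMap_galInt]
    have h1 : x ∈ (urPl L q (σ * β)).asIdeal := by
      rw [← h]
      exact hx
    rw [mem_urPl_iff] at h1
    exact h1

/-- A lift of `x ∈ Gal(L/ℚ)` to `G_ℚ`. -/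
def liftG (x : GalL L) : GQ := Function.surjInv (resL_surjective L) x

theorem resL_liftG (x : GalL L) : resL L (liftG L x) = x :=
  Function.surjInv_eq (resL_surjective L) x

/-- The primes of `L` over `q`. -/
abbrev PrimesOver : Type := {w : HeightOneSpectrum (𝓞 ↥L) // (((q : ℕ) : 𝓞 ↥L)) ∈ w.asIdeal}

/-- `x ↦ x • w₀`, `w₀` the prime of `L` under the distinguished place over `q`. -/
def plOf (x : GalL L) : PrimesOver L q := ⟨urPl L q (liftG L x)⁻¹, urPl_mem L q _⟩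

theorem plOf_eq_iff (x x' : GalL L) : plOf L q x = plOf L q x' ↔ x⁻¹ * x' ∈ decL L q := by
  unfold plOf
  rw [Subtype.mk.injEq, urPl_eq_iff, inv_inv, map_mul, map_inv, resL_liftG, resL_liftG]
  constructor
  · intro h
    have := (decL L q).inv_mem h
    simpa using this
  · intro h
    have := (decL L q).inv_mem h
    simpa using this

theorem plOf_surjective : Function.Surjective (plOf L q) := by
  rintro ⟨v, hv⟩
  obtain ⟨σ, hσ⟩ := urPl_surj L q v hv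
  refine ⟨resL L σ⁻¹, ?_⟩
  unfold plOf
  rw [Subtype.mk.injEq, ← hσ, urPl_eq_iff, inv_inv, map_mul, resL_liftG, map_inv, mul_inv_cancel]
  exact (decL L q).one_mem

theorem isStable_plOf_iff (b x : GalL L) :
    IsStable L b (plOf L q x).1 ↔ x⁻¹ * b * x ∈ decL L q := by
  have h := isStable_urPl_iff L q (liftG L b) (liftG L x)⁻¹
  rw [resL_liftG, inv_inv, map_mul, map_mul, map_inv, resL_liftG, resL_liftG] at h
  exact h

theorem finite_primesOver : Finite (PrimesOver L q) :=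
  Finite.of_surjective (plOf L q) (plOf_surjective L q)

/-- The fixed points of `b` on `G ⧸ D_q` and the `b`-stable primes over `q`. -/
theorem card_fixed_decL (b : GalL L) :
    Nat.card {c : GalL L ⧸ decL L q // b • c = c} =
      Nat.card {w : PrimesOver L q // IsStable L b w.1} :=
  card_fixed_eq (decL L q) (plOf L q) (fun w => IsStable L b w.1) b (plOf_eq_iff L q)
    (plOf_surjective L q) (isStable_plOf_iff L q b)

/-- The `b`-stable primes over `S`, sorted by the prime under them. -/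
def fixFEquiv (S : Finset Nat.Primes) (b : GalL L) :
    (Σ q : ↥S, {w : PrimesOver L q.1 // IsStable L b w.1}) ≃ fixF S L b :=
  Equiv.ofBijective (fun x => ⟨x.2.1.1, ⟨x.1.1, x.1.2, x.2.1.2⟩, x.2.2⟩) (by
    constructor
    · rintro ⟨q, ⟨⟨w, hw⟩, hst⟩⟩ ⟨q', ⟨⟨w', hw'⟩, hst'⟩⟩ h
      have hww : w = w' := congrArg Subtype.val h
      subst hww
      have hqq : q = q' := Subtype.ext (ur_prime_unique L q.1 q'.1 w hw hw')
      subst hqq
      rfl
    · rintro ⟨w, ⟨q, hq, hw⟩, hst⟩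
      exact ⟨⟨⟨q, hq⟩, ⟨⟨w, hw⟩, hst⟩⟩, rfl⟩)

/-- **BRIDGE**, finite part. -/
theorem card_fixF (S : Finset Nat.Primes) (b : GalL L) :
    Nat.card (fixF S L b) = ∑ q ∈ S, Nat.card {x : GalL L ⧸ decL L q // b • x = x} := by
  haveI : ∀ q : ↥S, Finite {w : PrimesOver L q.1 // IsStable L b w.1} := fun q => by
    haveI := finite_primesOver L q.1
    infer_instance
  rw [← Nat.card_congr (fixFEquiv L S b), Nat.card_sigma,
    ← Finset.sum_coe_sort S (fun q => Nat.card {x : GalL L ⧸ decL L q // b • x = x})]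
  refine Finset.sum_congr rfl (fun q _ => ?_)
  exact (card_fixed_decL L q.1 b).symm

end Fermat.Agent.S56.EC.H31

end
end
-- ==== END Fermat.Agent.S56.EC.H31_BridgeFin

-- ==== BEGIN Fermat.Agent.S56.FL.H15_CC2Main
section

set_option autoImplicit false
set_option linter.style.haveILetI false
set_option linter.unusedSectionVars false

/-!
# LOC-p-FL, package UNITS / CC2 (helper15): assembly of `Stmt_CC2core`

`core_of` : `Stmt_CC2core` from the leaves `INERT`, `LEADCNT`, `TOP`, `ELL0`, `LEVX`, `PHI2`, `PE0`.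
-/

noncomputable section

namespace Fermat.Agent.S56.FL.H15

open scoped NNReal
open Fermat.Agent.S56.FL Fermat.Agent.Lib.LocalKummer Fermat.Agent.S56.FL.H85 Module

/-- Leaf **TOP**. -/
def Stmt_TOP : Prop :=
  ∀ (p : ℕ) [Fact p.Prime], p ≠ 2 → ∀ (k : Type) [Field k] [CharP k p] [Finite k]
    (C : CoreCtx p k) [FiniteDimensional ℚ_[p] C.L] (h : Gp p → k), C.IsKum h →
    ∀ σ₁ : Gp p, C.IsTameGen σ₁ → ∀ x : k, C.WitAt h x (‖C.ϖ‖ ^ (p * C.e₀)) →
      ∀ n ∈ C.N, C.psi h x n = 0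

/-- Leaf **ELL0**. -/
def Stmt_ELL0 : Prop :=
  ∀ (p : ℕ) [Fact p.Prime] (k : Type) [Field k] [Finite k] [CharP k p],
    ∃ ℓ₀ : k →+ ZMod p, (∀ (a : ZMod p) (x : k), ℓ₀ (cst p k a * x) = a * ℓ₀ x) ∧
      ∀ y : k, (∀ x : k, ℓ₀ (x * y) = 0) → y = 0

/-- Leaf **LEVX**. -/
def Stmt_LEVX : Prop :=
  ∀ (p : ℕ) [Fact p.Prime] (K : IntermediateField ℚ_[p] (PadicAlgCl p))
    [FiniteDimensional ℚ_[p] K] (ζ : PadicAlgCl p), ζ ∈ K → ζ ≠ 1 → ζ ^ p = 1 →
    ∃ (ϖ : PadicAlgCl p) (e₀ : ℕ), LevCtx K ϖ ζ e₀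

/-- Leaf **PHI2**. -/
def Stmt_PHI2 : Prop :=
  ∀ (p : ℕ) [Fact p.Prime] (K : IntermediateField ℚ_[p] (PadicAlgCl p))
    [FiniteDimensional ℚ_[p] K], Normal ℚ_[p] K →
    ∀ G₂ : Subgroup (Gp p), (∀ g : Gp p, g ^ 2 ∈ G₂) →
      ∃ Φ ∈ G₂, ∀ a ∈ K, ‖a‖ ≤ 1 → ‖Φ a - a ^ (p ^ 2)‖ < 1

/-- Leaf **PE0**. -/
def Stmt_PE0 : Prop :=
  ∀ (p : ℕ) [Fact p.Prime] (k : Type) [Field k] [CharP k p] (C : CoreCtx p k) (σ₁ : Gp p),
    C.IsTameGen σ₁ → ¬ p ∣ C.e₀

theorem IsSpecial.unique {p e₀ i j : ℕ} (hi : IsSpecial p e₀ i) (hj : IsSpecial p e₀ j) :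
    j = i := by
  obtain ⟨h1, h2⟩ := hi
  obtain ⟨h3, h4⟩ := hj
  have h5 : (j - (p - 1) * e₀) * (p + 1) = (i - (p - 1) * e₀) * (p + 1) := by rw [h2, h4]
  have h6 : j - (p - 1) * e₀ = i - (p - 1) * e₀ := Nat.eq_of_mul_eq_mul_right (by omega) h5
  omega

/-- **Assembly of the core.** -/
theorem core_of (hINERT : Stmt_INERT) (hLEADCNT : Stmt_LEADCNT) (hTOP : Stmt_TOP)
    (hELL : Stmt_ELL0) (hLEVX : Stmt_LEVX) (hPHI : Stmt_PHI2) (hPE0 : Stmt_PE0) :
    Stmt_CC2core := by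
  intro p _ hp2 k _ _ _ L _ hNL hbdd ζ hζ hζL G₂ N hI hsq hN hNG hNζ hexp χ hχ hχ1 hχI
    h₁ h₂ a1 a2 a3 b1 b2 b3
  obtain ⟨m, hm, hexp⟩ := hexp
  have hp : p.Prime := Fact.out
  haveI := hNL
  have hζK : ζ ∈ kField L N := mem_kField.mpr ⟨hζL, hNζ⟩
  obtain ⟨ϖ, e₀, hlev⟩ := hLEVX p (kField L N) ζ hζK (hζ.ne_one hp.one_lt) hζ.pow_eq_one
  obtain ⟨ℓ₀, hℓ, hℓ0⟩ := hELL p k
  let C : CoreCtx p k :=
    { L := L, N := N, G₂ := G₂, ζ := ζ, ϖ := ϖ, e₀ := e₀, χ := χ, ℓ₀ := ℓ₀,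
      fdL := inferInstance, normalL := hNL, hζ := hζ, hζL := hζL, hN := hN, hNG := hNG,
      hNζ := hNζ, lev := hlev, hχ := hχ, hχ1 := hχ1, hℓ := hℓ, hℓ0 := hℓ0 }
  haveI : FiniteDimensional ℚ_[p] C.L := (inferInstance : FiniteDimensional ℚ_[p] L)
  have hk₁ : C.IsKum h₁ := ⟨a1, a2, a3⟩
  have hk₂ : C.IsKum h₂ := ⟨b1, b2, b3⟩
  have hKn : Normal ℚ_[p] (kField L N) := normal_kField hN
  obtain ⟨σ₁, hσ₁, hord⟩ := hINERT p (kField L N) hKn (not_dvd_finrank_kField hN hm hexp) ϖ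
    hlev.hϖK hlev.hϖ0 hlev.hϖ1 hlev.hmax ((p - 1) * e₀) hlev.norm_pow_e
  have hg : C.IsTameGen σ₁ := ⟨hσ₁, hI hσ₁, hord, hχI σ₁ hσ₁⟩
  have hpe₀ : ¬ p ∣ e₀ := hPE0 p k C σ₁ hg
  have he₀ : 0 < e₀ := hlev.e₀_pos
  have hpe : p * e₀ = (p - 1) * e₀ + e₀ := by
    obtain ⟨q, rfl⟩ : ∃ q, p = q + 1 := ⟨p - 1, by have := hp.two_le; omega⟩
    simp only [Nat.add_sub_cancel]; ring
  -- witnesses at the first level
  have hW0 : ∀ h : Gp p → k, C.IsKum h → ∀ x : k, C.WitAt h x (‖C.ϖ‖ ^ ((p - 1) * e₀)) := by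
    intro h hk x
    obtain ⟨α, hα, hn⟩ := exists_wit_bdd hp2 hbdd hN hm hexp hζ hζL hNζ (C.psi h x)
      (fun n hn n' hn' => hk.psi_mul x hn hn') (fun n hn hnL => hk.psi_triv x hn hnL)
    refine ⟨α, hα, ?_⟩
    rw [show ‖C.ϖ‖ ^ ((p - 1) * e₀) = (p : ℝ)⁻¹ from hlev.norm_pow_e]
    exact hn
  by_cases hsp : ∃ i, IsSpecial p e₀ i
  · obtain ⟨i, hsp⟩ := hsp
    have hilt : i < p * e₀ := hsp.lt hp he₀
    have hpi : ¬ p ∣ i := hsp.not_dvd hp hp2 hpe₀
    have hie : (p - 1) * e₀ ≤ i := hsp.1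
    have hi0 : 0 < i := by
      rcases Nat.eq_zero_or_pos i with h0 | h0
      · exact absurd (h0 ▸ dvd_zero p) hpi
      · exact h0
    have hW : ∀ h : Gp p → k, C.IsKum h → ∀ x : k, C.WitAt h x (‖C.ϖ‖ ^ i) := by
      intro h hk x
      refine CoreCtx.witAt_of_le hp2 hk hg (le_refl _) hie hilt.le ?_ (hW0 h hk x)
      intro j _ hj hjs
      have := hsp.unique hjs
      omega
    obtain ⟨Φ, hΦG, hΦ⟩ := hPHI p (kField L N) hKn G₂ hsq
    have hθK : (σ₁ ϖ / ϖ) ^ i ∈ kField L N := pow_mem (CoreCtx.Lead.theta_mem_K C σ₁) i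
    have htK : (Φ ϖ / ϖ) ^ i ∈ kField L N := pow_mem (CoreCtx.Lead.theta_mem_K C Φ) i
    have hθ1 : ‖(σ₁ ϖ / ϖ) ^ i‖ = 1 := by rw [norm_pow, hlev.norm_theta, one_pow]
    have ht1 : ‖(Φ ϖ / ϖ) ^ i‖ = 1 := by rw [norm_pow, hlev.norm_theta, one_pow]
    have hθp : ¬ ‖((σ₁ ϖ / ϖ) ^ i) ^ p - (σ₁ ϖ / ϖ) ^ i‖ < 1 := by
      intro hlt
      rw [← pow_mul] at hlt
      have h1 : i ≤ i * p := Nat.le_mul_of_pos_right i hp.pos
      have h2 := hg.dvd_sub h1 hlt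
      have h3 : i * p - i = i * (p - 1) := by rw [Nat.mul_sub_one]
      rw [h3] at h2
      exact hsp.not_dvd_mul hp he₀ h2
    obtain ⟨l₁, l₂, hl, hcnt⟩ := hLEADCNT p k (kField L N) (C.Lead h₁ i) (C.Lead h₂ i)
      (C.lam σ₁) (C.lam Φ) ((σ₁ ϖ / ϖ) ^ i) ((Φ ϖ / ϖ) ^ i) hθK hθ1 htK ht1 hθp
      (fun x u hl => hl.mem)
      (fun x => CoreCtx.Lead.exists_of_witAt (hW h₁ hk₁ x))
      (fun x u u' hl hl' => CoreCtx.Lead.unique hpi hilt hl hl')
      (fun x x' u u' hl hl' => CoreCtx.Lead.add hi0 hl hl')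
      (fun x u hl => CoreCtx.Lead.conj_inertia hk₁ hl hσ₁ (hI hσ₁))
      (fun x u hl => CoreCtx.Lead.conj_frob hk₁ hl hΦG hΦ)
      (fun x u hl => hl.mem)
      (fun x => CoreCtx.Lead.exists_of_witAt (hW h₂ hk₂ x))
      (fun x u u' hl hl' => CoreCtx.Lead.unique hpi hilt hl hl')
      (fun x x' u u' hl hl' => CoreCtx.Lead.add hi0 hl hl')
      (fun x u hl => CoreCtx.Lead.conj_inertia hk₂ hl hσ₁ (hI hσ₁))
      (fun x u hl => CoreCtx.Lead.conj_frob hk₂ hl hΦG hΦ)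
    refine ⟨l₁, l₂, hl, fun n hn => ?_⟩
    have hk := hk₁.lin hk₂ l₁ l₂
    refine C.eq_zero_of_psi (fun n => l₁ * h₁ n + l₂ * h₂ n) fun x => ?_
    obtain ⟨u₁, hu₁⟩ := CoreCtx.Lead.exists_of_witAt (hW h₁ hk₁ (l₁ * x))
    obtain ⟨u₂, hu₂⟩ := CoreCtx.Lead.exists_of_witAt (hW h₂ hk₂ (l₂ * x))
    have hsum := hcnt x u₁ u₂ hu₁ hu₂
    have hw1 := CoreCtx.Lead.witAt_succ (CoreCtx.Lead.lin hi0 hu₁ hu₂) hsum
    have hw2 : C.WitAt (fun n => l₁ * h₁ n + l₂ * h₂ n) x (‖C.ϖ‖ ^ (p * C.e₀)) := by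
      have hCe : C.e₀ = e₀ := rfl
      refine CoreCtx.witAt_of_le hp2 hk hg (by rw [hCe]; omega) (by rw [hCe]; omega)
        (le_refl _) ?_ hw1
      intro j hj _ hjs
      have := hsp.unique hjs
      omega
    exact hTOP p hp2 k C _ hk σ₁ hg x hw2 n hn
  · refine ⟨1, 0, Or.inl one_ne_zero, fun n hn => ?_⟩
    rw [one_mul, zero_mul, add_zero]
    refine C.eq_zero_of_psi h₁ fun x => ?_
    have hw2 : C.WitAt h₁ x (‖C.ϖ‖ ^ (p * C.e₀)) := by
      have hCe : C.e₀ = e₀ := rfl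
      refine CoreCtx.witAt_of_le hp2 hk₁ hg (le_refl _) (by rw [hCe]; omega) (le_refl _) ?_
        (hW0 h₁ hk₁ x)
      intro j _ _ hjs
      exact hsp ⟨j, hjs⟩
    exact hTOP p hp2 k C _ hk₁ σ₁ hg x hw2 n hn

end Fermat.Agent.S56.FL.H15

end

end
-- ==== END Fermat.Agent.S56.FL.H15_CC2Main

-- ==== BEGIN Fermat.Agent.S56.FL.H50_CohSS
section

set_option autoImplicit false
set_option linter.unusedSectionVars false
set_option linter.style.haveILetI false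

/-!
# LOC-p-FL, package COH-SS (helper50): `Stmt_COH_SS` from `Stmt_CC0`, `Stmt_CC2`, `Stmt_Tame`

`ρbar|G_p` without stable line: any two classes of bounded cocycles are dependent, so a subspace
of `H¹(G_p, ad⁰ ρbar)` consisting of such classes has dimension `≤ 1`.
-/

noncomputable section

namespace Fermat.Agent.S56.FL.H50.SS

open scoped NNReal
open Polynomial IsLocalRing CategoryTheory groupCohomology ExtCitation Fermat.Agent.S53 Module
  Fermat.Agent.S56 Fermat.Agent.S56.FL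

variable {p : ℕ} [Fact p.Prime] {k : Type} [Field k] [Finite k] [CharP k p]
  {ρbar : ResidualGaloisRep k}

theorem noLine_of (hns : ¬ ∃ ℓ : Submodule k ρbar.V, IsStableLine ρbar p ℓ) :
    NoLine (rhoL ρbar p) := fun ⟨ℓ, h1, h2⟩ => hns ⟨ℓ, h1, h2⟩

/-- The structure of `ρbar|G_p` without stable line, in matrix form. -/
theorem exists_struct (hT : H57.Stmt_Tame)
    (hloc : LocHyp ρbar p) (hns : ¬ ∃ ℓ : Submodule k ρbar.V, IsStableLine ρbar p ℓ)
    (L : IntermediateField ℚ_[p] (PadicAlgCl p)) [FiniteDimensional ℚ_[p] L]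
    (hN : Normal ℚ_[p] L) (hL : ∀ σ : Gp p, σ ∈ L.fixingSubgroup → locRho ρbar σ = 1) :
    ∃ (b : Basis (Fin 2) k ρbar.V) (g : Gp p),
      (∀ σ, IsDiagM (Rm (p := p) b σ) ∨ IsAntiM (Rm (p := p) b σ)) ∧
      IsAntiM (Rm (p := p) b g) ∧
      ∀ ι ∈ inertiaP p, IsDiagM (Rm (p := p) b ι) ∧
        Rm (p := p) b ι 1 1 = (Rm (p := p) b ι 0 0) ^ p := by
  obtain ⟨P, φ, s, hTA⟩ := exists_tameAt hT L hN
  have hns' := noLine_of hns
  have hP1 : ∀ w ∈ P, rhoL ρbar p w = 1 := by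
    refine trivial_of_pgroup (p := p) ρbar.finrank_eq (rhoL ρbar p) P hTA.normal ?_ hns'
    intro w hw
    obtain ⟨N, hN'⟩ := hTA.pgroup w hw
    exact ⟨N, hL _ hN'⟩
  have hgen : ∀ σ : Gp p, ∃ n : ℕ, ∃ ι ∈ inertiaP p, ∃ τ : Gp p,
      rhoL ρbar p τ = 1 ∧ σ = φ ^ n * ι * τ := by
    intro σ
    obtain ⟨n, ι, hι, τ, hτ, h⟩ := hTA.gen σ
    exact ⟨n, ι, hι, τ, hL τ hτ, h⟩
  obtain ⟨b, h1, h2, h3⟩ := SS_struct (p := p) ρbar.finrank_eq (rhoL ρbar p) (inertiaP p) P φ s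
    H38.inertiaP_normal hTA.mem hP1 hgen hTA.tame hTA.conj hloc.2 hns'
  exact ⟨b, φ, h1, h2, h3⟩

section Core

variable (b : Basis (Fin 2) k ρbar.V)
  (hM1 : ∀ σ, IsDiagM (Rm (p := p) b σ) ∨ IsAntiM (Rm (p := p) b σ))

/-- The `(0,0)`-entry of a bounded cocycle vanishes on the diagonal subgroup. -/
theorem entry00_zero_of_bdd (hp2 : p ≠ 2) (h0 : Stmt_CC0) (hT : H57.Stmt_Tame) {g : Gp p}
    (hg : IsAntiM (Rm (p := p) b g)) (hI : ∀ ι ∈ inertiaP p, IsDiagM (Rm (p := p) b ι))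
    {c : cocycles₁ (locRep (ad0 ρbar) (pPrime p))} (hc : IsBddAd ρbar c) :
    ∀ σ ∈ diagSub (Rm (p := p) b) hM1, Cm b c σ 0 0 = 0 := by
  obtain ⟨L, hfd, hN, hbdd, hL⟩ := hc
  have hIle : inertiaP p ≤ diagSub (Rm (p := p) b) hM1 := fun ι hι => hI ι hι
  have hcoc := isCocM_Cm (p := p) b c
  -- CC0
  have hCI : ∀ ι ∈ inertiaP p, Cm b c ι 0 0 = 0 := by
    intro ι hι
    have hbc : IsBddCocycle (diagSub (Rm (p := p) b) hM1) (1 : _ →* kˣ)
        (fun σ => Cm b c (σ : Gp p) 0 0) := by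
      refine ⟨fun σ τ => ?_, L, hfd, hN, hbdd, fun σ hσ => ⟨rfl, ?_⟩⟩
      · show Cm b c ((σ * τ : diagSub _ _) : Gp p) 0 0 = _ + ((1 : kˣ) : k) * _
        rw [Subgroup.coe_mul, hcoc.entry00_add hM1 σ.2, Units.val_one, one_mul]
      · show Cm b c (σ : Gp p) 0 0 = 0
        rw [Cm_eq_zero_of b (hL _ hσ).2]; rfl
    exact h0 p hp2 k (diagSub (Rm (p := p) b) hM1) hIle _ hbc ⟨ι, hIle hι⟩ hι
  obtain ⟨P, φ', s, hTA⟩ := exists_tameAt hT L hN
  refine hcoc.entry00_zero hM1 (Cm_trace b c) hg (inertiaP p) hIle hCI φ' ?_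
  intro σ
  obtain ⟨n, ι, hι, τ, hτ, h⟩ := hTA.gen σ
  exact ⟨n, ι, hι, τ, ⟨Rm_eq_one_of b (hL τ hτ).1, Cm_eq_zero_of b (hL τ hτ).2⟩, h⟩

/-- The `(0,1)`-entry of a bounded cocycle is a bounded `χ`-cocycle on the diagonal subgroup. -/
theorem entry01_bdd {c : cocycles₁ (locRep (ad0 ρbar) (pPrime p))} (hc : IsBddAd ρbar c) :
    IsBddCocycle (diagSub (Rm (p := p) b) hM1) (diagChi hM1)
      (fun σ => Cm b c (σ : Gp p) 0 1) := by
  obtain ⟨L, hfd, hN, hbdd, hL⟩ := hc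
  have hcoc := isCocM_Cm (p := p) b c
  refine ⟨fun σ τ => ?_, L, hfd, hN, hbdd, fun σ hσ => ⟨?_, ?_⟩⟩
  · show Cm b c ((σ * τ : diagSub _ _) : Gp p) 0 1 = _
    rw [Subgroup.coe_mul, hcoc.entry01_add hM1 σ.2, diagChi_val]
  · apply Units.ext
    rw [diagChi_val, Units.val_one]
    have h1 : Rm (p := p) b (σ : Gp p) = 1 := Rm_eq_one_of b (hL _ hσ).1
    have h2 : Rm (p := p) b (σ : Gp p)⁻¹ = 1 := by
      have := R_inv_mul (Rm (p := p) b) (σ : Gp p)
      rw [h1, mul_one] at this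
      exact this
    rw [h1, h2]
    simp
  · show Cm b c (σ : Gp p) 0 1 = 0
    rw [Cm_eq_zero_of b (hL _ hσ).2]; rfl

end Core

/-- **Dependence.** Without stable line, the classes of two bounded cocycles are dependent. -/
theorem dependent_of_bdd (hp2 : p ≠ 2) (h0 : Stmt_CC0) (h2 : Stmt_CC2) (hT : H57.Stmt_Tame)
    (hloc : LocHyp ρbar p) (hns : ¬ ∃ ℓ : Submodule k ρbar.V, IsStableLine ρbar p ℓ)
    {c₁ c₂ : cocycles₁ (locRep (ad0 ρbar) (pPrime p))}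
    (hc₁ : IsBddAd ρbar c₁) (hc₂ : IsBddAd ρbar c₂) :
    ∃ l₁ l₂ : k, (l₁ ≠ 0 ∨ l₂ ≠ 0) ∧
      l₁ • (H1π (locRep (ad0 ρbar) (pPrime p))).hom c₁
        + l₂ • (H1π (locRep (ad0 ρbar) (pPrime p))).hom c₂ = 0 := by
  have hp : p.Prime := Fact.out
  have hk2 : (2 : k) ≠ 0 := H57.two_ne_zero_of_odd p hp2
  obtain ⟨L, hfd, hN, -, hL⟩ := id hc₁
  obtain ⟨b, g, hM1, hg, hI⟩ := exists_struct hT hloc hns L hN (fun σ hσ => (hL σ hσ).1)
  set R := Rm (p := p) b with hR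
  set G₂ := diagSub R hM1 with hG₂
  have hIle : inertiaP p ≤ G₂ := fun ι hι => (hI ι hι).1
  have hidx : G₂.index = 2 := diagSub_index hM1 hg
  -- the characters
  set χ : G₂ →* kˣ := diagChi hM1 with hχ
  set ψ : inertiaP p →* kˣ := (diagChar0 hM1).comp (Subgroup.inclusion hIle) with hψ
  have hψval : ∀ σ : inertiaP p, ((ψ σ : kˣ) : k) = R (σ : Gp p) 0 0 := fun σ => rfl
  have hyp1 : ∀ σ : inertiaP p, IsCycloAt ((ψ σ : k) ^ (p + 1)) (σ : Gp p) := by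
    intro σ
    have h1 := hloc.1 (σ : Gp p)
    have h3 := hI σ σ.2
    have h4 : LinearMap.det (locRho ρbar (σ : Gp p)) = (ψ σ : k) ^ (p + 1) := by
      rw [det_matOf b, hψval]
      show R (σ : Gp p) 0 0 * R (σ : Gp p) 1 1 - R (σ : Gp p) 0 1 * R (σ : Gp p) 1 0 = _
      rw [h3.2, h3.1.1, zero_mul, sub_zero, pow_succ']
    rw [← h4]
    exact h1
  have hyp2 : ∀ (σ : G₂) (hσ : (σ : Gp p) ∈ inertiaP p),
      (χ σ : k) * (ψ ⟨σ, hσ⟩ : k) ^ p = (ψ ⟨σ, hσ⟩ : k) := by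
    intro σ hσ
    rw [hψval, diagChi_val]
    show R (σ : Gp p) 0 0 * R (σ : Gp p)⁻¹ 1 1 * R (σ : Gp p) 0 0 ^ p = R (σ : Gp p) 0 0
    rw [← (hI σ hσ).2]
    have := diag_inv_11 σ.2 (R_mul_inv R (σ : Gp p))
    linear_combination R (σ : Gp p) 0 0 * this
  have hdim : DimLeOne G₂ χ := h2 p hp2 k G₂ hIle hidx χ ψ hyp1 hyp2
  obtain ⟨l₁, l₂, a, hl, hdep⟩ := hdim _ _ (entry01_bdd b hM1 hc₁) (entry01_bdd b hM1 hc₂)
  refine ⟨l₁, l₂, hl, ?_⟩
  have hIdiag : ∀ ι ∈ inertiaP p, IsDiagM (R ι) := fun ι hι => (hI ι hι).1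
  obtain ⟨m, hm, hm'⟩ := IsCocM.dependent hk2 (isCocM_Cm (p := p) b c₁) (isCocM_Cm (p := p) b c₂)
    G₂ g (diagSub_cover hM1 hg) (diagSub_sq hM1 hg) (fun τ hτ => diagSub_conj hM1 hg hτ)
    (fun τ hτ => hτ) hg (Cm_trace b c₁) (Cm_trace b c₂)
    (entry00_zero_of_bdd b hM1 hp2 h0 hT hg hIdiag hc₁)
    (entry00_zero_of_bdd b hM1 hp2 h0 hT hg hIdiag hc₂) l₁ l₂ a
    (fun τ hτ => by
      have := hdep ⟨τ, hτ⟩
      rw [diagChi_val] at this
      exact this)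
  rw [← map_smul, ← map_smul, ← map_add]
  refine H1π_eq_zero_of_cobM b _ m hm (fun σ => ?_)
  rw [← hm' σ]
  show matOf b (cocVal ρbar (l₁ • c₁ + l₂ • c₂) σ) = _
  rw [H57.cocVal_add, H57.cocVal_smul, H57.cocVal_smul, matOf_add, matOf_smul, matOf_smul]
  rfl

/-- **COH-SS** from `Stmt_CC0`, `Stmt_CC2` and `Stmt_Tame`. -/
theorem stmt_COH_SS_of (h0 : Stmt_CC0) (h2 : Stmt_CC2) (hT : H57.Stmt_Tame) : Stmt_COH_SS := by
  intro p _ hp2 k _ _ _ ρbar hloc hns W hW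
  have hdim := H57.finrank_le_one_of_dependent W (by
    intro ξ₁ hξ₁ ξ₂ hξ₂
    obtain ⟨c₁, rfl, hb₁⟩ := hW ξ₁ hξ₁
    obtain ⟨c₂, rfl, hb₂⟩ := hW ξ₂ hξ₂
    exact dependent_of_bdd hp2 h0 h2 hT hloc hns hb₁ hb₂)
  exact ⟨hdim.1, hdim.2.trans (Nat.le_add_left 1 _)⟩

end Fermat.Agent.S56.FL.H50.SS

end

end
-- ==== END Fermat.Agent.S56.FL.H50_CohSS

-- ==== BEGIN Fermat.Agent.S56.FL.H57_CohRedFinal
section

/-!
# LOC-p-FL, package COH (helper57): `Stmt_COH_RED` from `Stmt_CC1`, `Stmt_CC3`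

The proved leaves `H38.stmt_CC0`, `H38.stmt_Tame`, `H50.stmt_TameChars` are plugged in.
-/

set_option autoImplicit false

noncomputable section

namespace Fermat.Agent.S56.FL.H57

open Fermat.Agent.S56.FL

/-- **COH-RED** from the two counts `CC1`, `CC3`. -/
theorem stmt_COH_RED_of_CC (h1 : Stmt_CC1) (h3 : Stmt_CC3) : Stmt_COH_RED :=
  stmt_COH_RED_of H38.stmt_CC0 h1 h3 H38.stmt_Tame H50.stmt_TameChars

end Fermat.Agent.S56.FL.H57

end

end
-- ==== END Fermat.Agent.S56.FL.H57_CohRedFinal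

-- ==== BEGIN Fermat.Agent.S56.FL.H59_CC3Final
section

set_option autoImplicit false

/-!
# LOC-p-FL, package UNITS: `Stmt_CC3z`, unconditionally (helper59 + helper38 + helper41)
-/

noncomputable section

namespace Fermat.Agent.S56.FL.H59

open Fermat.Agent.S56.FL

/-- **CC3z.** -/
theorem stmt_CC3z : Stmt_CC3z :=
  stmt_CC3z_of H38.stmt_LevC H38.stmt_LevD H41.stmt_HenselF

end Fermat.Agent.S56.FL.H59

end

end
-- ==== END Fermat.Agent.S56.FL.H59_CC3Final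

-- ==== BEGIN Fermat.Agent.S56.GWC.H64_INV4
section

set_option autoImplicit false

open CategoryTheory Module groupCohomology ExtCitation

noncomputable section

namespace Fermat.Agent.S56.GWC.H64

open Fermat.Agent.S55 Fermat.Agent.S56 Fermat.Agent.S56.GWC

section coord

variable (p : ℕ) [Fact p.Prime] (k : Type) [Field k] [Finite k] [CharP k p]

/-- The value of `cycloK` is the image of the value of `cycloChar`. -/
lemma cycloK_val (g : _root_.Fermat.Agent.S56.GQ) :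
    ((cycloK p k g : kˣ) : k) = (ZMod.castHom (dvd_refl p) k) ((cycloChar p g : (ZMod p)ˣ) : ZMod p) :=
  rfl

variable {X : Type} (T : (X → ZMod p) →ₗ[ZMod p] ZMod p)

/-- Extension of scalars of a functional on `𝔽_p`-valued functions to `k`-valued functions,
as a function. -/
def extFun : (X → k) → k :=
  letI := ZMod.algebra k p
  fun z => ∑ i, T (fun x => (Module.finBasis (ZMod p) k).repr (z x) i) •
    (Module.finBasis (ZMod p) k) i

/-- The characteristic property of `extFun`. -/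
lemma extFun_spec (z : X → k) :
    letI := ZMod.algebra k p
    ∀ ψ : k →ₗ[ZMod p] ZMod p, ψ (extFun p k T z) = T (fun x => ψ (z x)) := by
  letI := ZMod.algebra k p
  intro ψ
  have h1 : (fun x => ψ (z x)) =
      ∑ i, ψ ((Module.finBasis (ZMod p) k) i) •
        (fun x => (Module.finBasis (ZMod p) k).repr (z x) i) := by
    funext x
    rw [Finset.sum_apply]
    conv_lhs => rw [← (Module.finBasis (ZMod p) k).sum_repr (z x)]
    rw [map_sum]
    refine Finset.sum_congr rfl fun i _ => ?_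
    rw [map_smul, Pi.smul_apply, smul_eq_mul, smul_eq_mul, mul_comm]
  rw [h1, map_sum, extFun, map_sum]
  refine Finset.sum_congr rfl fun i _ => ?_
  rw [map_smul, map_smul, smul_eq_mul, smul_eq_mul, mul_comm]

/-- Functionals separate the points of `k`. -/
lemma eq_zero_of_forall_dual (y : k)
    (h : letI := ZMod.algebra k p; ∀ ψ : k →ₗ[ZMod p] ZMod p, ψ y = 0) : y = 0 := by
  letI := ZMod.algebra k p
  exact (Module.forall_dual_apply_eq_zero_iff (ZMod p) y).1 h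

/-- Extension of scalars of a functional, as a `k`-linear map. -/
def extLin : (X → k) →ₗ[k] k where
  toFun := extFun p k T
  map_add' z z' := by
    letI := ZMod.algebra k p
    rw [← sub_eq_zero]
    refine eq_zero_of_forall_dual p k _ fun ψ => ?_
    rw [map_sub, map_add, extFun_spec, extFun_spec, extFun_spec, ← map_add, sub_eq_zero]
    congr 1
    funext x
    simp
  map_smul' a z := by
    letI := ZMod.algebra k p
    rw [← sub_eq_zero]
    refine eq_zero_of_forall_dual p k _ fun ψ => ?_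
    let ψa : k →ₗ[ZMod p] ZMod p := ψ.comp (LinearMap.mulLeft (ZMod p) a)
    have h1 : ψ (a • extFun p k T z) = ψa (extFun p k T z) := rfl
    rw [map_sub, RingHom.id_apply, h1, extFun_spec, extFun_spec, sub_eq_zero]
    rfl

lemma extLin_spec (z : X → k) :
    letI := ZMod.algebra k p
    ∀ ψ : k →ₗ[ZMod p] ZMod p, ψ (extLin p k T z) = T (fun x => ψ (z x)) :=
  extFun_spec p k T z

end coord

/-! ### Level-constancy of finite sums -/

lemma levL₁_finset_sum {q : Nat.Primes} {ι : Type} (s : Finset ι) {Y : Type} [AddCommMonoid Y]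
    (G : ι → Gl q → Y) (hG : ∀ i ∈ s, IsLevelConstant₁ (rl q) (G i)) :
    IsLevelConstant₁ (rl q) (fun x => ∑ i ∈ s, G i x) := by
  classical
  induction s using Finset.induction_on with
  | empty =>
    simp only [Finset.sum_empty]
    exact isLevelConstant₁_const (rl q) (0 : Y)
  | insert a s ha ih =>
    have h1 : (fun x => ∑ i ∈ insert a s, G i x) = G a + fun x => ∑ i ∈ s, G i x := by
      funext x
      rw [Finset.sum_insert ha]
      rfl
    rw [h1]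
    exact (hG a (Finset.mem_insert_self a s)).add
      (ih fun i hi => hG i (Finset.mem_insert_of_mem hi))

/-! ### `Stmt_INV` from a family of invariants for `𝔽_p(1)` -/

section final

variable (p : ℕ) [Fact p.Prime] (k : Type) [Field k] [Finite k] [CharP k p]

/-- `ψ (χ_k(g) x) = χ(g) ψ(x)` for an `𝔽_p`-linear functional `ψ`. -/
lemma dual_cycloK_mul (ψ : letI := ZMod.algebra k p; k →ₗ[ZMod p] ZMod p) (g : _root_.Fermat.Agent.S56.GQ) (x : k) :
    letI := ZMod.algebra k p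
    ψ (((cycloK p k g : kˣ) : k) * x) = ((cycloChar p g : (ZMod p)ˣ) : ZMod p) * ψ x := by
  letI := ZMod.algebra k p
  have h : ((cycloK p k g : kˣ) : k) * x = ((cycloChar p g : (ZMod p)ˣ) : ZMod p) • x := by
    rw [Algebra.smul_def]
    rfl
  rw [h, map_smul, smul_eq_mul]

end final

set_option maxHeartbeats 1600000 in
/-- **INV from the `𝔽_p`-family.** -/
theorem stmt_INV_of
    (hA : ∀ (p : ℕ) [Fact p.Prime], p ≠ 2 → InvFamily (cycloChar p) (pPrime p)) :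
    Stmt_INV := by
  intro p _ hp2 k _ _ _
  letI := ZMod.algebra k p
  obtain ⟨inv₀, h1, h2, h3⟩ := hA p hp2
  let inv₁ : ∀ q : Nat.Primes, (Gq q × Gq q → ZMod p) →ₗ[ZMod p] ZMod p := fun q => inv₀ q
  refine ⟨fun q => extLin p k (inv₁ q), ?_, ?_, ?_⟩
  · -- (1)
    rintro q z ⟨f, hf, hz⟩
    refine eq_zero_of_forall_dual p k _ fun ψ => ?_
    rw [extLin_spec]
    refine h1 q _ ⟨fun x => ψ (f x), levL₁_comp q hf _, ?_⟩
    funext t
    show ((cycloChar p (rl q t.1) : (ZMod p)ˣ) : ZMod p) * ψ (f t.2) - ψ (f (t.1 * t.2))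
      + ψ (f t.1) = ψ (z t)
    have e : z t = z (t.1, t.2) := rfl
    rw [e, hz t.1 t.2, map_add, map_sub, dual_cycloK_mul]
  · -- (2)
    intro q _ z hz h0
    obtain ⟨hzc, hzl⟩ := hz
    have key : ∀ ψ : k →ₗ[ZMod p] ZMod p,
        IsB2L (cycloChar p) q (fun t => ψ (z t)) := by
      intro ψ
      refine h2 q _ ⟨?_, levL₂_comp q hzl _⟩ ?_
      · funext t
        show ((cycloChar p (rl q t.1) : (ZMod p)ˣ) : ZMod p) * ψ (z (t.2.1, t.2.2))
          - ψ (z (t.1 * t.2.1, t.2.2)) + ψ (z (t.1, t.2.1 * t.2.2)) - ψ (z (t.1, t.2.1)) = 0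
        rw [← dual_cycloK_mul, ← map_sub, ← map_add, ← map_sub, hzc t.1 t.2.1 t.2.2, map_zero]
      · have := extLin_spec p k (inv₁ q) z ψ
        rw [h0, map_zero] at this
        exact this.symm
    let b := Module.finBasis (ZMod p) k
    choose g hgl hgd using fun i => key (b.coord i)
    refine ⟨fun x => ∑ i, g i x • b i, ?_, fun s t => ?_⟩
    · exact levL₁_finset_sum Finset.univ (fun i x => g i x • b i)
        (fun i _ => levL₁_comp q (hgl i) (· • b i))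
    · have e1 : z (s, t) = ∑ i, b.coord i (z (s, t)) • b i := (b.sum_repr (z (s, t))).symm
      have e2 : ∀ i, b.coord i (z (s, t)) =
          ((cycloChar p (rl q s) : (ZMod p)ˣ) : ZMod p) * g i t - g i (s * t) + g i s := by
        intro i
        have := congrFun (hgd i) (s, t)
        exact this.symm
      rw [e1, Finset.mul_sum, ← Finset.sum_sub_distrib, ← Finset.sum_add_distrib]
      refine Finset.sum_congr rfl fun i _ => ?_
      rw [e2 i, add_smul, sub_smul, mul_smul]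
      congr 2
  · -- (3)
    intro Sg hpg z hz
    obtain ⟨hzc, hzl⟩ := hz
    refine eq_zero_of_forall_dual p k _ fun ψ => ?_
    rw [map_sum]
    have e : ∀ q ∈ Sg, ψ (extLin p k (inv₁ q) (fun t : Gq q × Gq q => z (rq q t.1, rq q t.2))) =
        inv₀ q (resTwo q (fun t => (ψ (z t) : kχ (cycloChar p)))) := fun q _ =>
      extLin_spec p k (inv₁ q) _ ψ
    rw [Finset.sum_congr rfl e]
    refine h3 Sg hpg _ ⟨?_, levS₂_comp hzl _⟩
    funext t
    show ((cycloChar p t.1 : (ZMod p)ˣ) : ZMod p) * ψ (z (t.2.1, t.2.2))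
      - ψ (z (t.1 * t.2.1, t.2.2)) + ψ (z (t.1, t.2.1 * t.2.2)) - ψ (z (t.1, t.2.1)) = 0
    rw [← dual_cycloK_mul, ← map_sub, ← map_add, ← map_sub, hzc t.1 t.2.1 t.2.2, map_zero]

end Fermat.Agent.S56.GWC.H64

end

end
-- ==== END Fermat.Agent.S56.GWC.H64_INV4

-- ==== BEGIN Fermat.Agent.S56.Wiring5
section

set_option autoImplicit false

/-!
# Cluster T / S56: fifth-level wiring (the current frontier)

`wiring5` proves the frozen statement S56 from the FOUR leaves that are still open: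

* GW-INV  `Stmt_INV`      (local invariants + reciprocity law; `GW/Defs2.lean`),
* LB-a    `Stmt_PT2`      (Poitou-Tate in degree 2, injective half; `GW/Defs2.lean`),
* LB-b    `Stmt_EC`       (Tate's global Euler characteristic; `GW/Defs2.lean`),
* LOC-p-FL `Stmt_loc_p_Fl` (flat local condition at `p`; `LeavesNT.lean`).

New with respect to `Wiring4.lean`: GW-PERF (tame local duality, helper9) is discharged.
No `sorry`.
-/

namespace Fermat.Agent.S56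

open Polynomial IsLocalRing

/-- GW-CORE from the three open GW leaves. -/
theorem gw_core_of_leaves5 (hINV : Stmt_INV) (hPT2 : Stmt_PT2) (hEC : Stmt_EC) :
    Stmt_GW_core :=
  gw_core_of_leaves hINV H9.stmt_PERF_cup hPT2 hEC

theorem wiring5 (hINV : Stmt_INV) (hPT2 : Stmt_PT2) (hEC : Stmt_EC)
    (hlocpFl : Stmt_loc_p_Fl)
    {𝒪 : Type} [CommRing 𝒪] [IsDomain 𝒪] [IsDiscreteValuationRing 𝒪]
    [IsAdicComplete (maximalIdeal 𝒪) 𝒪] [Finite (ResidueField 𝒪)]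
    (p : ℕ) [Fact p.Prime] (hp2 : p ≠ 2) (hp𝒪 : (p : 𝒪) ∈ maximalIdeal 𝒪)
    (ρbar : ResidualGaloisRep (ResidueField 𝒪))
    (habs : ρbar.IsAbsolutelyIrreducible)
    (hdet : (GaloisRepAdic.ofResidualGaloisRep ρbar).DetIsCyclotomic p)
    (hsplit : ∀ σ : AlgebraicClosure ℚ ≃ₐ[ℚ] AlgebraicClosure ℚ,
      ∃ α β : ResidueField 𝒪, LinearMap.charpoly (ρbar.ρ σ) = (X - C α) * (X - C β))
    (hTW : ∀ (K : Type) [Field K] [Algebra (ResidueField 𝒪) K]
      (G : Subgroup (AlgebraicClosure ℚ ≃ₐ[ℚ] AlgebraicClosure ℚ)), G.index = 2 →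
      ∀ V : Submodule K (ρbar.baseChange K).V,
        (∀ σ ∈ G, ∀ x ∈ V, (ρbar.baseChange K).ρ σ x ∈ V) → V = ⊥ ∨ V = ⊤)
    (S Smin : Finset ℕ) (hpSmin : p ∈ Smin) (hSmin : Smin ⊆ S) (hS : ∀ q ∈ S, q.Prime)
    (hmin : ∀ q : ℕ, q.Prime → q ≠ p → (q ∈ Smin ↔ ¬ ρbar.IsUnramifiedAt q)) :
    (∃ r : ℕ, ∀ n : ℕ, ∃ qv : Fin r → ℕ, Function.Injective qv ∧
      (∀ i, (qv i).Prime ∧ qv i ∉ S ∧ p ^ (n + 1) ∣ qv i - 1) ∧
      (∀ i, ∀ P : ValuationSubring (AlgebraicClosure ℚ), P.LiesOverPrime (qv i) →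
        ∀ φ : AlgebraicClosure ℚ ≃ₐ[ℚ] AlgebraicClosure ℚ, P.IsFrobeniusAt φ (qv i) →
          ∃ α β : ResidueField 𝒪, α ≠ β ∧ LinearMap.charpoly (ρbar.ρ φ) = (X - C α) * (X - C β)) ∧
      ∀ DQ : GaloisRep.DeformationRingData 𝒪 ρbar (fun _A _ _ _ ρ =>
          GaloisRep.strictOrdinaryCondition 𝒪 p (Smin ∪ Finset.univ.image qv) ρ ∧
            ∀ q ∈ Smin, q.Prime → q ≠ p → ρ.IsUnipotentOnInertiaAt q),
        ∃ γ : MvPowerSeries (Fin r) 𝒪 →ₐ[𝒪] DQ.R, Function.Surjective γ) ∧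
    (∃ r : ℕ, ∀ n : ℕ, ∃ qv : Fin r → ℕ, Function.Injective qv ∧
      (∀ i, (qv i).Prime ∧ qv i ∉ S ∧ p ^ (n + 1) ∣ qv i - 1) ∧
      (∀ i, ∀ P : ValuationSubring (AlgebraicClosure ℚ), P.LiesOverPrime (qv i) →
        ∀ φ : AlgebraicClosure ℚ ≃ₐ[ℚ] AlgebraicClosure ℚ, P.IsFrobeniusAt φ (qv i) →
          ∃ α β : ResidueField 𝒪, α ≠ β ∧ LinearMap.charpoly (ρbar.ρ φ) = (X - C α) * (X - C β)) ∧
      ∀ DQ : GaloisRep.DeformationRingData 𝒪 ρbar (fun _A _ _ _ ρ =>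
          GaloisRep.flatCondition 𝒪 p (Smin ∪ Finset.univ.image qv) ρ ∧
            ∀ q ∈ Smin, q.Prime → q ≠ p → ρ.IsUnipotentOnInertiaAt q),
        ∃ γ : MvPowerSeries (Fin r) 𝒪 →ₐ[𝒪] DQ.R, Function.Surjective γ) :=
  wiring4 hINV H9.stmt_PERF_cup hPT2 hEC hlocpFl
    p hp2 hp𝒪 ρbar habs hdet hsplit hTW S Smin hpSmin hSmin hS hmin

end Fermat.Agent.S56

end
-- ==== END Fermat.Agent.S56.Wiring5
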