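-- GENERATED (merged mirror, NOTES/tools/trim/merge3_helper67.py): 7 modules of the originals, bodies verbatim.
import Fermat.Agent.Zm.S56_L09_004
import Fermat.Agent.Zm.S56_L16_000
import Fermat.Agent.Zm.S56_L01_002
import Fermat.Agent.Zm.S56_L07_000
import Fermat.Agent.Zm.S56_L02_002
import Fermat.Agent.Zm.S56_L05_001
import Fermat.Agent.Zm.S56_L11_000
import Fermat.Agent.Zm.S56_L06_002
import Fermat.Agent.Zm.S56_L04_002
import Fermat.Agent.Zm.S56_L09_001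
import Fermat.Agent.Zm.S56_L11_001
import Fermat.Agent.Zm.S56_L15_000
import Fermat.Agent.Zm.S56_L06_003

-- ==== BEGIN Fermat.Agent.S55.CFT.GS.H68_LocS_Proj
section

set_option autoImplicit false
set_option linter.unusedSectionVars false
set_option linter.style.haveILetI false
set_option linter.unusedVariables false

open CategoryTheory groupCohomology ExtCitation TensorProduct

noncomputable section

namespace Fermat.Agent.S55.CFT.GS.H68

open Fermat.Agent.S55 Fermat.Agent.S55.Top Fermat.Agent.S55.CFT Fermat.Agent.S55.CFT.GS.Bri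

local notation "Qb" => AlgebraicClosure ℚ

attribute [local instance] fact_primes

section proj

variable {K N : IntermediateField ℚ Qb} (hKN : K ≤ N)
  [NumberField ↥K] [NumberField ↥(H6.NK hKN)] (q : Nat.Primes) (σ : GQ)

/-- `j = ι_q ∘ σ : N → ℚ̄_q`. -/
def jN : ↥(H6.NK hKN) →+* PadicAlgCl (q : ℕ) :=
  ((padicEmbedding (q : ℕ)).toRingHom.comp
    ((σ : Qb →ₐ[ℚ] Qb) : Qb →+* Qb)).comp (algebraMap ↥(H6.NK hKN) Qb)

lemma jN_apply (y : ↥(H6.NK hKN)) :
    jN hKN q σ y = padicEmbedding (q : ℕ) (σ (y : Qb)) := rfl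

lemma jN_injective : Function.Injective (jN hKN q σ) := (jN hKN q σ).injective

lemma jN_algebraMap (x : ↥K) :
    jN hKN q σ (algebraMap ↥K ↥(H6.NK hKN) x) = jσ K q σ x := rfl

/-- `ℚ_q ⊗ N → ℚ̄_q`, `a ⊗ y ↦ a · ι_q(σ y)`. -/
def φN : SemiLocal ↥(H6.NK hKN) q →ₐ[Qp q] PadicAlgCl (q : ℕ) :=
  Algebra.TensorProduct.lift (Algebra.ofId (Qp q) (PadicAlgCl (q : ℕ)))
    (jN hKN q σ).toRatAlgHom (fun _ _ => Commute.all _ _)

lemma φN_tmul (a : Qp q) (y : ↥(H6.NK hKN)) :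
    φN hKN q σ (a ⊗ₜ[ℚ] y) = algebraMap (Qp q) (PadicAlgCl (q : ℕ)) a * jN hKN q σ y := by
  simp [φN, Algebra.ofId_apply]

lemma φσ_tmul (a : Qp q) (x : ↥K) :
    φσ K q σ (a ⊗ₜ[ℚ] x) = algebraMap (Qp q) (PadicAlgCl (q : ℕ)) a * jσ K q σ x := by
  simp [φσ, Algebra.ofId_apply]

lemma φN_semiLocalMap (z : SemiLocal ↥K q) :
    φN hKN q σ (semiLocalMap ↥K ↥(H6.NK hKN) q z) = φσ K q σ z := by
  induction z using TensorProduct.induction_on with
  | zero => simp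
  | tmul a x =>
    have h1 : semiLocalMap ↥K ↥(H6.NK hKN) q (a ⊗ₜ[ℚ] x) =
        a ⊗ₜ[ℚ] algebraMap ↥K ↥(H6.NK hKN) x := by
      simp [semiLocalMap]
    rw [h1, φN_tmul, φσ_tmul, jN_algebraMap]
  | add a b ha hb => rw [map_add, map_add, map_add, ha, hb]

lemma placeIdeal_le_ker :
    placeIdeal ↥K ↥(H6.NK hKN) (plσ K q σ) ≤ RingHom.ker (φN hKN q σ) := by
  rw [placeIdeal, Ideal.map_le_iff_le_comap]
  intro z hz
  show φN hKN q σ (semiLocalMap ↥K ↥(H6.NK hKN) q z) = 0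
  rw [φN_semiLocalMap]
  exact hz

/-- The projection `π : LocAlg K N v → ℚ̄_q`. -/
def πN : LocAlg ↥K ↥(H6.NK hKN) (plσ K q σ) →+* PadicAlgCl (q : ℕ) :=
  Ideal.Quotient.lift (placeIdeal ↥K ↥(H6.NK hKN) (plσ K q σ))
    (φN hKN q σ : SemiLocal ↥(H6.NK hKN) q →+* PadicAlgCl (q : ℕ))
    (fun z hz => placeIdeal_le_ker hKN q σ hz)

lemma πN_mk (z : SemiLocal ↥(H6.NK hKN) q) :
    πN hKN q σ (Ideal.Quotient.mk _ z) = φN hKN q σ z := rfl

lemma πN_mk_tmul (a : Qp q) (y : ↥(H6.NK hKN)) :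
    πN hKN q σ (Ideal.Quotient.mk _ (a ⊗ₜ[ℚ] y)) =
      algebraMap (Qp q) (PadicAlgCl (q : ℕ)) a * jN hKN q σ y :=
  φN_tmul hKN q σ a y

/-- `π ∘ loc = j` on `Nˣ`. -/
lemma πN_locHom (u : (↥(H6.NK hKN))ˣ) :
    πN hKN q σ ((locHom ↥K ↥(H6.NK hKN) (plσ K q σ) u : (LocAlg ↥K ↥(H6.NK hKN) (plσ K q σ))ˣ) :
      LocAlg ↥K ↥(H6.NK hKN) (plσ K q σ)) = jN hKN q σ (u : ↥(H6.NK hKN)) := by
  show φN hKN q σ ((1 : Qp q) ⊗ₜ[ℚ] (u : ↥(H6.NK hKN))) = _
  rw [φN_tmul, map_one, one_mul]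

/-- Equivariance: if `h ∘ j = j ∘ τ` on `N` then `π (τ z) = h (π z)`. -/
lemma πN_smul (τ : ↥(H6.NK hKN) ≃ₐ[↥K] ↥(H6.NK hKN))
    (h : PadicAlgCl (q : ℕ) ≃ₐ[ℚ_[(q : ℕ)]] PadicAlgCl (q : ℕ))
    (hτ : ∀ y : ↥(H6.NK hKN), h (jN hKN q σ y) = jN hKN q σ (τ y))
    (z : LocAlg ↥K ↥(H6.NK hKN) (plσ K q σ)) :
    πN hKN q σ (τ • z) = h (πN hKN q σ z) := by
  obtain ⟨y, rfl⟩ := Ideal.Quotient.mk_surjective z
  have key : ∀ y : SemiLocal ↥(H6.NK hKN) q,
      φN hKN q σ (semiLocalEquiv ↥K ↥(H6.NK hKN) q τ y) = h (φN hKN q σ y) := by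
    intro y
    induction y using TensorProduct.induction_on with
    | zero => simp
    | tmul a y =>
      rw [semiLocalEquiv_tmul, φN_tmul, φN_tmul, map_mul, hτ]
      congr 1
      exact (h.commutes a).symm
    | add a b ha hb =>
      rw [map_add, map_add, map_add, map_add, ha, hb]
  exact key y

/-- The kernel of the projection is a maximal ideal. -/
theorem ker_πN_isMaximal : (RingHom.ker (πN hKN q σ)).IsMaximal := by
  have : (RingHom.ker (πN hKN q σ)).IsPrime := RingHom.ker_isPrime _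
  exact IsArtinianRing.isMaximal_of_isPrime _

end proj

/-- **LOCS-DEC** (the decomposition group of `ker π` consists of local automorphisms): every
`d ∈ Gal(N/K)` stabilising `M = ker π` is induced by some `h ∈ Gal(ℚ̄_q/ℚ_q)`: `h ∘ j = j ∘ d`.
(`d` induces a `ℚ_q`-automorphism of `B/M ≅ E := range π ⊆ ℚ̄_q`, `π z ↦ π (d z)`
(`H58.locAlg_smul_algebraMap`); extend it to `ℚ̄_q` (`AlgHom.liftNormal`, bijective because
`ℚ̄_q/ℚ_q` is algebraic); `j y = π (loc y)`, `d • loc y = loc (d y)` (`H58.locIncl_smul`).) -/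
def Stmt_LocS_Dec : Prop :=
  ∀ (K N : IntermediateField ℚ Qb) (hKN : K ≤ N) [NumberField ↥K] [NumberField ↥(H6.NK hKN)]
    [IsGalois ↥K ↥(H6.NK hKN)] (q : Nat.Primes) (σ : GQ)
    (d : ↥(H6.NK hKN) ≃ₐ[↥K] ↥(H6.NK hKN)),
    d ∈ H58.decomp (↥(H6.NK hKN) ≃ₐ[↥K] ↥(H6.NK hKN)) (RingHom.ker (πN hKN q σ)) →
    ∃ h : PadicAlgCl (q : ℕ) ≃ₐ[ℚ_[(q : ℕ)]] PadicAlgCl (q : ℕ),
      ∀ y : ↥(H6.NK hKN), h (jN hKN q σ y) = jN hKN q σ (d y)

end Fermat.Agent.S55.CFT.GS.H68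

end

end
-- ==== END Fermat.Agent.S55.CFT.GS.H68_LocS_Proj

-- ==== BEGIN Fermat.Agent.S55.CFT.H58_InfJv
section

/-!
# CFT package SHL-inf (helper58): `Stmt_InfJvInj`

For a tower `K ⊆ L ⊆ N` of finite Galois extensions of number fields and a place `v` of `K`, the
inflation `H²(Gal(L/K), (K_v ⊗_K L)ˣ) → H²(Gal(N/K), (K_v ⊗_K N)ˣ)` is injective.

Route: `infInj_rep` (inflation is injective on `H²` when `H¹(ker, -) = 0`), with
* `K_v ⊗_K L → K_v ⊗_K N` injective (idempotents),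
* `(K_v ⊗_K N)^{Gal(N/L)} = K_v ⊗_K L` (trace),
* `H¹(Gal(N/L), (K_v ⊗_K N)ˣ) = 0` (`hilbert90_semilocal`).
-/

set_option autoImplicit false
set_option linter.unusedSectionVars false

noncomputable section

namespace Fermat.Agent.S55.CFT.H58

open NumberField TensorProduct CategoryTheory groupCohomology

section Tower

variable (K L N : Type) [Field K] [Field L] [Field N] [NumberField K] [NumberField L]
  [NumberField N] [Algebra K L] [Algebra K N] [Algebra L N] [IsScalarTower K L N] (v : Place K)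

lemma locAlgTower_mk (y : SemiLocal L v.1) :
    locAlgTower K L N v (Ideal.Quotient.mk (placeIdeal K L v) y) =
      Ideal.Quotient.mk (placeIdeal K N v) (semiLocalMap L N v.1 y) := rfl

/-- `K_v ⊗_K L → K_v ⊗_K N` is injective. -/
theorem locAlgTower_injective : Function.Injective (locAlgTower K L N v) := by
  classical
  obtain ⟨q, w⟩ := v
  let _ : Fintype (MaximalSpectrum (SemiLocal K q)) := Fintype.ofFinite _
  rw [injective_iff_map_eq_zero]
  intro x hx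
  obtain ⟨y, rfl⟩ := Ideal.Quotient.mk_surjective x
  rw [locAlgTower_mk, Ideal.Quotient.eq_zero_iff_mem, H80.placeIdeal_eq_span K N q w] at hx
  obtain ⟨c, hc⟩ := Ideal.mem_span_singleton'.1 hx
  have hidemN : IsIdempotentElem (H80.wIdem K N q w) := (H80.wIdem_complete K N q).idem w
  have hwN : H80.wIdem K N q w = semiLocalMap L N q (H80.wIdem K L q w) :=
    (semiLocalMap_comp K L N q _).symm
  have h1 : semiLocalMap L N q (y * H80.wIdem K L q w) = 0 := by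
    rw [map_mul, ← hwN]
    have h2 : semiLocalMap L N q y = c * (1 - H80.wIdem K N q w) := hc.symm
    rw [h2, mul_assoc, sub_mul, one_mul, hidemN.eq, sub_self, mul_zero]
  have h3 : y * H80.wIdem K L q w = 0 := by
    apply H12.semiLocalMap_injective L N q
    rw [h1, map_zero]
  rw [Ideal.Quotient.eq_zero_iff_mem, H80.placeIdeal_eq_span K L q w,
    Ideal.mem_span_singleton']
  refine ⟨y, ?_⟩
  rw [mul_sub, mul_one, h3, sub_zero]

lemma semiLocalEquiv_restrictScalars (q : Nat.Primes) (σ : N ≃ₐ[L] N) (y : SemiLocal N q) :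
    semiLocalEquiv K N q (AlgEquiv.restrictScalarsHom K σ) y = semiLocalEquiv L N q σ y := by
  induction y using TensorProduct.induction_on with
  | zero => simp
  | tmul a b =>
    rw [semiLocalEquiv_tmul, semiLocalEquiv_tmul]
    rfl
  | add a b ha hb => simp only [map_add, ha, hb]

variable [Normal K L]

lemma restrictNormalHom_restrictScalars' (s : N ≃ₐ[L] N) :
    AlgEquiv.restrictNormalHom (F := K) (K₁ := N) L (AlgEquiv.restrictScalarsHom K s) = 1 := by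
  ext x
  apply (algebraMap L N).injective
  have h1 := AlgEquiv.restrictNormal_commutes (AlgEquiv.restrictScalarsHom K s) L x
  exact h1.trans (s.commutes x)

/-- The `Gal(N/L)`-invariants of `K_v ⊗_K N` come from `K_v ⊗_K L`. -/
theorem locAlgTower_exists_of_invariant [IsGalois L N] (x : LocAlg K N v)
    (hx : ∀ n : N ≃ₐ[K] N, AlgEquiv.restrictNormalHom (F := K) (K₁ := N) L n = 1 → n • x = x) :
    ∃ b : LocAlg K L v, locAlgTower K L N v b = x := by
  classical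
  obtain ⟨y, rfl⟩ := Ideal.Quotient.mk_surjective x
  have hn : ((Module.finrank L N : ℕ) : Qp v.1) ≠ 0 := by
    exact_mod_cast (Module.finrank_pos (R := L) (M := N)).ne'
  refine ⟨Ideal.Quotient.mk (placeIdeal K L v)
    (algebraMap (Qp v.1) (SemiLocal L v.1) ((Module.finrank L N : ℕ) : Qp v.1)⁻¹ *
    H12.semiLocalTrace L N v.1 y), ?_⟩
  rw [locAlgTower_mk, map_mul, H12.semiLocalMap_trace, map_mul, map_sum]
  have h1 : ∀ σ : N ≃ₐ[L] N, Ideal.Quotient.mk (placeIdeal K N v) (σ • y) =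
      Ideal.Quotient.mk (placeIdeal K N v) y := fun σ => by
    have h2 := hx (AlgEquiv.restrictScalarsHom K σ) (restrictNormalHom_restrictScalars' K L N σ)
    rw [locAlg_smul_mk] at h2
    rw [← h2]
    congr 1
  rw [Finset.sum_congr rfl (fun σ _ => h1 σ), Finset.sum_const, Finset.card_univ,
    ← Nat.card_eq_fintype_card, IsGalois.card_aut_eq_finrank, AlgHom.commutes,
    nsmul_eq_mul, ← mul_assoc]
  have h2 : Ideal.Quotient.mk (placeIdeal K N v)
      (algebraMap (Qp v.1) (SemiLocal N v.1) ((Module.finrank L N : ℕ) : Qp v.1)⁻¹) *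
      ((Module.finrank L N : ℕ) : LocAlg K N v) = 1 := by
    rw [← map_natCast (Ideal.Quotient.mk (placeIdeal K N v)), ← map_mul,
      ← map_natCast (algebraMap (Qp v.1) (SemiLocal N v.1)), ← map_mul, inv_mul_cancel₀ hn,
      map_one, map_one]
  rw [h2, one_mul]

/-- `(K_v ⊗_K N)ˣ^{Gal(N/L)} = (K_v ⊗_K L)ˣ`. -/
theorem locAlgTower_units_of_invariant [IsGalois L N] (u : (LocAlg K N v)ˣ)
    (hu : ∀ n : N ≃ₐ[K] N, AlgEquiv.restrictNormalHom (F := K) (K₁ := N) L n = 1 →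
      n • (u : LocAlg K N v) = u) :
    ∃ b : (LocAlg K L v)ˣ, Units.map (locAlgTower K L N v : LocAlg K L v →* LocAlg K N v) b = u := by
  obtain ⟨b₀, hb₀⟩ := locAlgTower_exists_of_invariant K L N v (u : LocAlg K N v) hu
  have hinv : ∀ n : N ≃ₐ[K] N, AlgEquiv.restrictNormalHom (F := K) (K₁ := N) L n = 1 →
      n • ((u⁻¹ : (LocAlg K N v)ˣ) : LocAlg K N v) = ((u⁻¹ : (LocAlg K N v)ˣ) : LocAlg K N v) := by
    intro n hn
    have h1 : n • u = u := Units.ext (hu n hn)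
    have h2 : n • u⁻¹ = u⁻¹ := by rw [smul_inv', h1]
    exact congrArg (fun w : (LocAlg K N v)ˣ => (w : LocAlg K N v)) h2
  obtain ⟨b₁, hb₁⟩ := locAlgTower_exists_of_invariant K L N v _ hinv
  have h2 : b₀ * b₁ = 1 := by
    apply locAlgTower_injective K L N v
    rw [map_mul, hb₀, hb₁, map_one, Units.mul_inv]
  exact ⟨⟨b₀, b₁, h2, by rw [mul_comm]; exact h2⟩, Units.ext hb₀⟩

end Tower

section Faithful

variable (K L : Type) [Field K] [Field L] [NumberField K] [NumberField L] [Algebra K L]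
  (v : Place K)

theorem locAlg_faithful₂ (M : Ideal (LocAlg K L v)) (hM : M.IsMaximal)
    (s t : L ≃ₐ[K] L) (h : ∀ b : LocAlg K L v, s • b - t • b ∈ M) : s = t := by
  apply AlgEquiv.ext
  intro x
  by_contra hne
  have h1 := h (locIncl K L v x)
  rw [locIncl_smul, locIncl_smul, ← RingHom.map_sub] at h1
  have h2 : IsUnit (s x - t x) := IsUnit.mk0 _ (sub_ne_zero.2 hne)
  exact hM.ne_top (Ideal.eq_top_of_isUnit_mem M h1 (h2.map (locIncl K L v)))

instance locAlg_finite_maxSpec : Finite (MaximalSpectrum (LocAlg K L v)) := inferInstance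

/-- **Semi-local Hilbert 90**: for every subgroup `H` of `Gal(L/K)`, every 1-cocycle
`H → (K_v ⊗_K L)ˣ` is a coboundary. -/
theorem locAlg_hilbert90 (H : Subgroup (L ≃ₐ[K] L)) (f : (L ≃ₐ[K] L) → (LocAlg K L v)ˣ)
    (hf : ∀ s t : L ≃ₐ[K] L, s ∈ H → t ∈ H → f (s * t) = s • f t * f s) :
    ∃ β : (LocAlg K L v)ˣ, ∀ s : L ≃ₐ[K] L, s ∈ H → s • β = f s * β := by
  have : Finite H := inferInstance
  obtain ⟨β, hβ⟩ := hilbert90_semilocal (G := L ≃ₐ[K] L) (B := LocAlg K L v) H f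
    (fun s t hs ht => by
      rw [hf s t hs ht]
      rfl)
    (fun P hP s t h => Subtype.ext (locAlg_faithful₂ K L v P hP s t h))
  exact ⟨β, fun s hs => Units.ext (hβ s hs)⟩

end Faithful

section Final

/-- **SHL-inf**: local inflation is injective in degree 2. -/
theorem stmt_InfJvInj : Stmt_InfJvInj := by
  intro K L N _ _ _ _ _ _ _ _ _ _ _ hKL hKN v
  classical
  have hLN : IsGalois L N := IsGalois.tower_top_of_isGalois K L N
  let π : (N ≃ₐ[K] N) →* (L ≃ₐ[K] L) := AlgEquiv.restrictNormalHom (F := K) (K₁ := N) L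
  let ι : (repJv K L v) →+ (repJv K N v) :=
    (Units.map (locAlgTower K L N v : LocAlg K L v →* LocAlg K N v)).toAdditive
  have hι : ∀ b : repJv K L v, ι b = (infRepJv K L N v).hom b := fun b => rfl
  rw [injective_iff_map_eq_zero]
  intro x hx
  induction x using H2_induction_on with | @h c =>
  have e1 : infJv K L N v 2 (H2π (repJv K L v) c) =
      H2π (repJv K N v) (mapCocycles₂ π (infRepJv K L N v) c) :=
    H2π_comp_map_apply π (infRepJv K L N v) c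
  rw [e1, H2π_eq_zero_iff] at hx
  obtain ⟨u, hu⟩ := hx
  have hu' : ∀ g h : N ≃ₐ[K] N, ι (c (π g, π h)) =
      (repJv K N v).ρ g (u h) - u (g * h) + u g := fun g h => (congrFun hu (g, h)).symm
  have hc : ∀ g h j : L ≃ₐ[K] L, c (g * h, j) + c (g, h) =
      (repJv K L v).ρ g (c (h, j)) + c (g, h * j) :=
    (mem_cocycles₂_iff (A := repJv K L v) c).1 c.2
  obtain ⟨y, hy⟩ := infInj_rep (repJv K N v) (repJv K L v) π ι
    (AlgEquiv.restrictNormalHom_surjective N)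
    (fun a b hab => by
      have h1 : Units.map (locAlgTower K L N v : LocAlg K L v →* LocAlg K N v) a.toMul =
          Units.map (locAlgTower K L N v : LocAlg K L v →* LocAlg K N v) b.toMul := hab
      have h2 : a.toMul = b.toMul :=
        Units.map_injective (f := (locAlgTower K L N v : LocAlg K L v →* LocAlg K N v))
          (locAlgTower_injective K L N v) h1
      exact h2)
    (fun g b => congrArg Additive.ofMul (Units.ext
      (locAlgTower_smul K L N v g ((Additive.toMul b : (LocAlg K L v)ˣ) : LocAlg K L v))))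
    (fun a ha => by
      obtain ⟨b, hb⟩ := locAlgTower_units_of_invariant K L N v (Additive.toMul a)
        (fun n hn => congrArg (fun w : (LocAlg K N v)ˣ => (w : LocAlg K N v))
          (congrArg Additive.toMul (ha n hn)))
      exact ⟨Additive.ofMul b, congrArg Additive.ofMul hb⟩)
    (fun f hf => by
      obtain ⟨β, hβ⟩ := locAlg_hilbert90 K N v π.ker (fun g => Additive.toMul (f g))
        (fun s t hs ht => congrArg Additive.toMul
          (hf s t (MonoidHom.mem_ker.1 hs) (MonoidHom.mem_ker.1 ht)))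
      refine ⟨Additive.ofMul β, fun n hn => ?_⟩
      have h1 := hβ n (MonoidHom.mem_ker.2 hn)
      exact sub_eq_of_eq_add (congrArg Additive.ofMul h1))
    c hc u hu'
  rw [H2π_eq_zero_iff]
  exact ⟨y, funext fun ⟨q, r⟩ => (hy q r).symm⟩

end Final

end Fermat.Agent.S55.CFT.H58

end
end
-- ==== END Fermat.Agent.S55.CFT.H58_InfJv

-- ==== BEGIN Fermat.Agent.S55.CFT.H58_SHL
section

/-!
# CFT package SHL (helper58): `Stmt_SHL`

Semi-local Hilbert 90 + LOC-4: for `L/K` Galois of degree `p ^ m` and a place `v` of `K`,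
`H¹(G, (K_v ⊗_K L)ˣ) = 0`, `H²(G, (K_v ⊗_K L)ˣ)` is finite cyclic of order
`[L : K] / #{places of L above v}`, and `H³(G, (K_v ⊗_K L)ˣ) = 0`.  Unconditional.
-/

set_option autoImplicit false
set_option linter.unusedSectionVars false

noncomputable section

namespace Fermat.Agent.S55.CFT.H58

open NumberField TensorProduct CategoryTheory groupCohomology

section Bridge

variable (Γ : Type) [Group Γ] (R : Type) [CommRing R] [MulSemiringAction Γ R]
  [MulDistribMulAction Γ Rˣ]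

/-- `Hⁿ(Γ, Rˣ)` for any action on `Rˣ` compatible with the action on `R`, in terms of
`unitsRepOf`. -/
def unitsBridge (h : ∀ (g : Γ) (u : Rˣ), ((g • u : Rˣ) : R) = g • (u : R)) (n : ℕ) :
    groupCohomology (Rep.ofMulDistribMulAction Γ Rˣ) n ≅ groupCohomology (unitsRepOf Γ R) n :=
  mapIso (B := Rep.ofMulDistribMulAction Γ Rˣ) (A := unitsRepOf Γ R)
    (MulEquiv.refl Γ) (LinearEquiv.refl ℤ (Additive Rˣ)) (fun g =>
      LinearMap.ext (fun a => congrArg Additive.ofMul (Units.ext (h g a.toMul)))) n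

end Bridge

section Final

variable (K L : Type) [Field K] [Field L] [NumberField K] [NumberField L] [Algebra K L]
  (v : Place K)

/-- `Hⁿ(G, repJv K L v)` in terms of `unitsRepOf`. -/
def repJvIso (n : ℕ) :
    groupCohomology (repJv K L v) n ≅
      groupCohomology (unitsRepOf (L ≃ₐ[K] L) (LocAlg K L v)) n :=
  unitsBridge (L ≃ₐ[K] L) (LocAlg K L v) (fun _ _ => rfl) n

theorem stmt_SHL : Stmt_SHL := by
  intro p m K L _ _ _ _ _ h v
  obtain ⟨h1, h2, h3, ⟨g, hg⟩, h5⟩ := shl_place K L v p m h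
  have e : ∀ n : ℕ, groupCohomology (repJv K L v) n ≃ₗ[ℤ]
      groupCohomology (unitsRepOf (L ≃ₐ[K] L) (LocAlg K L v)) n := fun n =>
    (repJvIso K L v n).toLinearEquiv
  refine ⟨(e 1).toEquiv.subsingleton, Finite.of_equiv _ (e 2).toEquiv.symm, ?_, ?_,
    (e 3).toEquiv.subsingleton⟩
  · rw [Nat.card_congr (e 2).toEquiv]
    exact h3
  · refine ⟨(e 2).symm g, fun x => ?_⟩
    obtain ⟨n, hn⟩ := hg (e 2 x)
    refine ⟨n, ?_⟩
    rw [← map_zsmul, ← hn, LinearEquiv.symm_apply_apply]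

end Final

end Fermat.Agent.S55.CFT.H58

end
end
-- ==== END Fermat.Agent.S55.CFT.H58_SHL

-- ==== BEGIN Fermat.Agent.S55.CFT.H58_THLW
section

/-!
# CFT leaf THL-W (helper58): `Stmt_THL_Gen → Stmt_THL_Ord`

For `L = K(ζ_{p^M})` and a place `v` of `K` with local degree `d`, some value of the local symbol
`θ_v` has order at least `d`: the decomposition group `D` of a maximal ideal `Mx` of
`B = K_v ⊗_K L` has `d` elements, acts on `B ⧸ Mx` by `K_v`-automorphisms, and is separated by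
its values on `ζ`.
-/

set_option autoImplicit false
set_option linter.unusedSectionVars false

noncomputable section

namespace Fermat.Agent.S55.CFT.H58

open NumberField TensorProduct CategoryTheory
open Fermat.Agent.S55.CFT

section Concrete

variable (K L : Type) [Field K] [Field L] [NumberField K] [NumberField L] [Algebra K L]
  (v : Place K)

lemma locAlgTower_algebraMap (c : Qp v.1) :
    locAlgTower K K L v (algebraMap (Qp v.1) (LocAlg K K v) c) =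
      algebraMap (Qp v.1) (LocAlg K L v) c := by
  change Ideal.Quotient.mk _ (semiLocalMap K L v.1 (algebraMap (Qp v.1) (SemiLocal K v.1) c)) = _
  rw [AlgHom.commutes]
  rfl

lemma locIncl_injective : Function.Injective (locIncl K L v) :=
  (locIncl K L v).injective

/-- The elements of `Gal(L/K)` are separated modulo `Mx` by their values on a generator. -/
lemma eq_of_smul_locIncl_sub_mem (Mx : Ideal (LocAlg K L v)) (hM : Mx.IsMaximal) (ζ : L)
    (htop : Algebra.adjoin K ({ζ} : Set L) = ⊤) (g g' : L ≃ₐ[K] L)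
    (h : g • locIncl K L v ζ - g' • locIncl K L v ζ ∈ Mx) : g = g' := by
  have h1 : g ζ = g' ζ := by
    by_contra hne
    rw [locIncl_smul, locIncl_smul, ← RingHom.map_sub] at h
    have h2 : IsUnit (g ζ - g' ζ) := IsUnit.mk0 _ (sub_ne_zero.2 hne)
    exact hM.ne_top (Ideal.eq_top_of_isUnit_mem Mx h (h2.map (locIncl K L v)))
  have h3 : (g : L →ₐ[K] L) = (g' : L →ₐ[K] L) := by
    apply AlgHom.ext_of_adjoin_eq_top htop
    intro x hx
    rw [Set.mem_singleton_iff] at hx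
    subst hx
    exact h1
  exact AlgEquiv.coe_toAlgHom_injective h3

end Concrete

/-- **THL-W**. -/
theorem stmt_THL_Ord_of (hGen : Stmt_THL_Gen) : Stmt_THL_Ord := by
  intro p M K L _ _ _ _ _ hodd hζK hcyc v d hd
  classical
  have hne : NeZero ((p : ℕ) ^ M) := ⟨pow_ne_zero _ p.2.ne_zero⟩
  have hgal : IsGalois K L := IsCyclotomicExtension.isGalois {(p : ℕ) ^ M} K L
  have hζL : IsPrimitiveRoot (IsCyclotomicExtension.zeta ((p : ℕ) ^ M) K L) ((p : ℕ) ^ M) :=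
    IsCyclotomicExtension.zeta_spec ((p : ℕ) ^ M) K L
  have htop := IsCyclotomicExtension.adjoin_primitive_root_eq_top (A := K) (B := L) hζL
  obtain ⟨Mx, hMx⟩ := Ideal.exists_maximal (LocAlg K L v)
  have hmaxF : (placeIdeal K K v).IsMaximal := by
    rw [H19.placeIdeal_self]
    exact v.2.isMaximal
  let _ : Field (LocAlg K K v) := Ideal.Quotient.field (placeIdeal K K v)
  have hnt : Nontrivial (LocAlg K L v ⧸ Mx) := Ideal.Quotient.nontrivial_iff.2 hMx.ne_top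
  obtain ⟨η, hη⟩ := hζK
  obtain ⟨β, hβ⟩ := card_decomp_le_orderOf (G := L ≃ₐ[K] L) (B := LocAlg K L v) Mx
    (F := LocAlg K K v) (locAlgTower K K L v) (Qp v.1) ((p : ℕ) ^ M)
    (fun β => thetaAlg p M v.1 (LocAlg K K v) β)
    (fun g x => H19.smul_locAlgTower K L v g x)
    (fun c => locAlgTower_algebraMap K L v c)
    (fun E _ _ _ ζ hζ => hGen p M v.1 (LocAlg K K v) E hodd
      ⟨locIncl K K v η, hη.map_of_injective (locIncl_injective K K v)⟩ ζ hζ)
    (locIncl K L v (IsCyclotomicExtension.zeta ((p : ℕ) ^ M) K L))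
    (hζL.map_of_injective (f := (Ideal.Quotient.mk Mx).comp (locIncl K L v))
      (RingHom.injective _))
    (fun g g' h => eq_of_smul_locIncl_sub_mem K L v Mx hMx _ htop g g' h)
  refine ⟨β, le_trans (le_of_eq ?_) hβ⟩
  have h1 := card_maximalSpectrum_mul (locAlg_orbitSeparates K L v Mx)
  rw [IsGalois.card_aut_eq_finrank, ← hd, mul_comm] at h1
  have hpos : 0 < Nat.card (MaximalSpectrum (LocAlg K L v)) := by
    have : Nonempty (MaximalSpectrum (LocAlg K L v)) := ⟨⟨Mx, hMx⟩⟩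
    exact Nat.card_pos
  exact (Nat.eq_of_mul_eq_mul_right hpos h1).symm

end Fermat.Agent.S55.CFT.H58

end
end
-- ==== END Fermat.Agent.S55.CFT.H58_THLW

-- ==== BEGIN Fermat.Agent.S55.CFT.LOC.H25_LTO_Tower
section

set_option autoImplicit false
set_option linter.unusedSectionVars false
set_option linter.style.haveILetI false

namespace Fermat.Agent.S55.CFT.LOC.H25

open groupCohomology Fermat.Agent.S55.CFT.LOC Fermat.Agent.S55.CFT

section unram

variable (q : ℕ) [Fact q.Prime] (K E : Type) [Field K] [Field E] [Algebra ℚ_[q] K]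
  [FiniteDimensional ℚ_[q] K] [Algebra ℚ_[q] E] [FiniteDimensional ℚ_[q] E] [Algebra K E]
  [IsScalarTower ℚ_[q] K E] [FiniteDimensional K E]

/-- Norms from the unramified extension of degree `n` have valuation divisible by `n`. -/
theorem unram_facts {n : ℕ} (hn : 0 < n) {ξ : E} (hξ : IsPrimitiveRoot ξ (resCard q K ^ n - 1))
    [IsCyclotomicExtension {resCard q K ^ n - 1} K E] :
    IsGalois K E ∧ Module.finrank K E = n ∧
      ∀ y : E, ∃ x : K, nrm q K (Algebra.norm K y) = nrm q K x ^ n := by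
  haveI : NeZero (resCard q K ^ n - 1) := ⟨(pow_resCard_sub_one_pos q K hn).ne'⟩
  haveI hgal : IsGalois K E := IsCyclotomicExtension.isGalois {resCard q K ^ n - 1} K E
  have hfr := finrank_eq q K E hn hξ
  refine ⟨hgal, hfr, fun y => ?_⟩
  obtain ⟨x, hx⟩ := isUnram q K E hn hξ y
  exact ⟨x, by rw [nrm_norm q K E y, hx, hfr]⟩

end unram

section cyc

variable (p : Nat.Primes) (c : ℕ) (K E : Type) [Field K] [Field E] [Algebra (Qp p) K]
  [FiniteDimensional (Qp p) K] [Algebra (Qp p) E] [FiniteDimensional (Qp p) E] [Algebra K E]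
  [IsScalarTower (Qp p) K E] [FiniteDimensional K E] [IsGalois K E]

/-- The symbol `θ_{c+1} ∘ N_{K/ℚ_p}` on `Kˣ`. -/
noncomputable def kappa : Kˣ →* (ZMod ((p : ℕ) ^ (c + 1)))ˣ :=
  (H56.thetaLocHom p (c + 1) p).comp (Units.map (Algebra.norm (Qp p) : K →* Qp p))

omit [FiniteDimensional (Qp p) K] in
theorem kappa_apply (a : Kˣ) :
    kappa p c K a = thetaLoc p (c + 1) p (Units.map (Algebra.norm (Qp p) : K →* Qp p) a) := rfl

/-- If `E/K` is Galois of degree `p`, `ζ_{p^(c+1)} ∈ E` and `θ_{c+1} ∘ N_{K/ℚ_p}` is not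
trivial, then its kernel is the norm group of `E/K`. -/
theorem mem_normSubgroup_of_kappa (hp2 : (p : ℕ) ≠ 2)
    (hfr : Module.finrank K E = (p : ℕ))
    (hζ : ∃ ζ : E, IsPrimitiveRoot ζ ((p : ℕ) ^ (c + 1)))
    (hu : ∃ u : Kˣ, thetaLoc p (c + 1) p (Units.map (Algebra.norm (Qp p) : K →* Qp p) u) ≠ 1)
    (a : Kˣ)
    (ha : thetaLoc p (c + 1) p (Units.map (Algebra.norm (Qp p) : K →* Qp p) a) = 1) :
    a ∈ normSubgroup K E := by
  haveI := fact_primes p
  have hle : normSubgroup K E ≤ (kappa p c K).ker := by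
    rintro _ ⟨y, rfl⟩
    rw [MonoidHom.mem_ker, kappa_apply]
    have h1 := Fermat.Agent.S55.CFT.H25.thetaLoc_norm_local p (c + 1) E hp2 hζ y
    have h2 : Units.map (Algebra.norm (Qp p) : K →* Qp p)
        (Units.map (Algebra.norm K : E →* K) y) =
        Units.map (Algebra.norm (Qp p) : E →* Qp p) y := by
      apply Units.ext
      simp only [Units.coe_map]
      exact Algebra.norm_norm (R := Qp p) (S := K)
    rw [h2]
    exact h1
  have hcard : Nat.card (E ≃ₐ[K] E) = (p : ℕ) := by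
    rw [IsGalois.card_aut_eq_finrank, hfr]
  have hcyc : IsCyclic (E ≃ₐ[K] E) := isCyclic_of_prime_card hcard
  have hidx := H68.stmt_LocalNormIndexCyclic (p : ℕ) K E hcyc
  rw [hfr] at hidx
  have hne : (kappa p c K).ker ≠ ⊤ := by
    obtain ⟨u, hu⟩ := hu
    intro htop
    apply hu
    have : u ∈ (kappa p c K).ker := by rw [htop]; exact Subgroup.mem_top u
    exact MonoidHom.mem_ker.mp this
  exact le_of_index_prime p.2 hle hidx hne (MonoidHom.mem_ker.mpr ha)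

end cyc

section tower

variable (p : Nat.Primes) (c : ℕ) (F' F Ω : Type) [Field F'] [Field F] [Field Ω]
  [Algebra (Qp p) F'] [Algebra (Qp p) F] [Algebra (Qp p) Ω] [Algebra F' F] [Algebra F Ω]
  [Algebra F' Ω] [IsScalarTower (Qp p) F' F] [IsScalarTower (Qp p) F' Ω] [IsScalarTower F' F Ω]
  [FiniteDimensional (Qp p) F'] [FiniteDimensional (Qp p) F] [FiniteDimensional F Ω]
  [IsGalois F Ω]
  (M' : IntermediateField F' Ω) [FiniteDimensional F' M'] [IsGalois F' M']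

/-- **`Stmt_LocalThetaOnto` for a given tower.** -/
theorem lto_tower (hTR : Stmt_TotRamNorm) (hCK : Stmt_CharKer) (hKD : Stmt_KummerDeg)
    (hUN : Stmt_UnifNotIn) (hp2 : (p : ℕ) ≠ 2) (hc : 1 ≤ c)
    (hζc : ∃ ζ : F', IsPrimitiveRoot ζ ((p : ℕ) ^ c))
    (hno : ¬ ∃ ζ : F, IsPrimitiveRoot ζ ((p : ℕ) ^ (c + 1)))
    (hres : haveI := fact_primes p
      ∀ y : F, nrm (p : ℕ) F y ≤ 1 → ∃ x : F', nrm (p : ℕ) F (y - algebraMap F' F x) < 1)
    (hu : ∃ u : F'ˣ,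
      thetaLoc p (c + 1) p (Units.map (Algebra.norm (Qp p) : F' →* Qp p) u) ≠ 1)
    (ζ : M') (hζ : IsPrimitiveRoot ζ ((p : ℕ) ^ (c + 1)))
    (ξ : M') (hξ : haveI := fact_primes p
      IsPrimitiveRoot ξ (resCard (p : ℕ) F' ^ (p : ℕ) - 1)) :
    ∃ b : Fˣ, thetaLoc p (c + 1) p (Units.map (Algebra.norm (Qp p) : F →* Qp p) b) ≠ 1 := by
  classical
  haveI hpF : Fact ((p : ℕ).Prime) := fact_primes p
  haveI : FiniteDimensional F' F := FiniteDimensional.right (Qp p) F' F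
  have hp0 : 0 < (p : ℕ) := p.2.pos
  -- the field `E₀ = F'(ζ)`
  set E₀ : IntermediateField F' M' := IntermediateField.adjoin F' {ζ} with hE₀
  haveI : NeZero ((p : ℕ) ^ (c + 1)) := ⟨pow_ne_zero _ p.2.ne_zero⟩
  haveI hcycE₀ : IsCyclotomicExtension {(p : ℕ) ^ (c + 1)} F' E₀ :=
    hζ.intermediateField_adjoin_isCyclotomicExtension F'
  haveI hgalE₀ : IsGalois F' E₀ := IsCyclotomicExtension.isGalois {(p : ℕ) ^ (c + 1)} F' E₀
  have hno' : ¬ ∃ ζ : F', IsPrimitiveRoot ζ ((p : ℕ) ^ (c + 1)) := by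
    rintro ⟨z, hz⟩
    exact hno ⟨algebraMap F' F z, hz.map_of_injective (algebraMap F' F).injective⟩
  have hfrE₀ : Module.finrank F' E₀ = (p : ℕ) := hKD (p : ℕ) c F' M' hc hζc hno' ζ hζ
  obtain ⟨χ₀', hχ₀'⟩ := hCK (p : ℕ) F' M' E₀ hgalE₀ hfrE₀
  have hζE₀ : ζ ∈ E₀ := IntermediateField.mem_adjoin_simple_self F' ζ
  -- the field `E_U = F'(ξ)`
  set EU : IntermediateField F' M' := IntermediateField.adjoin F' {ξ} with hEU
  haveI : NeZero (resCard (p : ℕ) F' ^ (p : ℕ) - 1) :=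
    ⟨(pow_resCard_sub_one_pos (p : ℕ) F' hp0).ne'⟩
  haveI hcycEU : IsCyclotomicExtension {resCard (p : ℕ) F' ^ (p : ℕ) - 1} F' EU :=
    hξ.intermediateField_adjoin_isCyclotomicExtension F'
  haveI : FiniteDimensional (Qp p) EU := Module.Finite.trans F' EU
  let ξE : EU := ⟨ξ, IntermediateField.mem_adjoin_simple_self F' ξ⟩
  have hξE : IsPrimitiveRoot ξE (resCard (p : ℕ) F' ^ (p : ℕ) - 1) :=
    IsPrimitiveRoot.of_map_of_injective (f := algebraMap EU M') hξ (algebraMap EU M').injective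
  obtain ⟨hgalEU, hfrEU, hnormEU⟩ := unram_facts (p : ℕ) F' EU hp0 hξE
  obtain ⟨χU', hχU'⟩ := hCK (p : ℕ) F' M' EU hgalEU hfrEU
  -- the character `χ₀` of `Gal(Ω/F)` is not trivial
  have hχ₀ne : χ₀'.comp (resGal F' F Ω M') ≠ 1 := by
    intro h1
    apply hno
    have hfix : ∀ g : Ω ≃ₐ[F] Ω, g (algebraMap M' Ω ζ) = algebraMap M' Ω ζ := by
      intro g
      have hg : resGal F' F Ω M' g ∈ χ₀'.ker := by
        rw [MonoidHom.mem_ker]
        exact congrArg (fun f => f g) h1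
      have hmem : ζ ∈ IntermediateField.fixedField χ₀'.ker := by
        rw [hχ₀']
        exact hζE₀
      have := (IntermediateField.mem_fixedField_iff _ ζ).mp hmem _ hg
      rw [← resGal_commutes, this]
    obtain ⟨z, hz⟩ := (IsGalois.mem_range_algebraMap_iff_fixed (F := F) (E := Ω) _).mpr hfix
    refine ⟨z, IsPrimitiveRoot.of_map_of_injective (f := algebraMap F Ω) ?_
      (algebraMap F Ω).injective⟩
    rw [hz]
    exact hζ.map_of_injective (algebraMap M' Ω).injective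
  -- a uniformizer `b` of `F` which is not a norm from the fixed field of `ker χ₀`
  have hNtop := normSubgroup_kerField_ne_top (p : ℕ) (p : ℕ) F Ω _ hχ₀ne
  obtain ⟨b, hbH, hb0, hb1, hbgen⟩ := hUN (p : ℕ) F _ hNtop
  have h1 : ¬ ∃ y : kerField F Ω (p : ℕ) (χ₀'.comp (resGal F' F Ω M')),
      Algebra.norm F y = (b : F) := by
    rw [← mem_normSubgroup_iff]
    exact hbH
  -- the norm `a` of `b` is a uniformizer of `F'`
  set a : F' := Algebra.norm F' (b : F) with ha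
  have ha0 : a ≠ 0 := Algebra.norm_ne_zero_iff.mpr b.ne_zero
  have hagen := hTR (p : ℕ) F' F hres (b : F) hb0 hb1 hbgen
  have hapos : 0 < nrm (p : ℕ) F' a := nrm_pos _ _ ha0
  haveI : CharZero F' := charZero_of_padic (p : ℕ) F'
  have hane1 : nrm (p : ℕ) F' a ≠ 1 := by
    intro h
    have hpne : (((p : ℕ) : ℕ) : F') ≠ 0 := Nat.cast_ne_zero.mpr p.2.ne_zero
    obtain ⟨k, hk⟩ := hagen _ hpne
    rw [h, one_zpow, nrm_natCast_q] at hk
    have h5 : ((p : ℕ) : ℝ) = 1 := inv_eq_one.mp hk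
    exact p.2.ne_one (by exact_mod_cast h5)
  have h2 : ¬ ∃ y : kerField F' M' (p : ℕ) χU', Algebra.norm F' y = Algebra.norm F' (b : F) := by
    rw [exists_norm_congr hχU']
    rintro ⟨y, hy⟩
    obtain ⟨x, hx⟩ := hnormEU y
    rw [hy] at hx
    have hx0 : x ≠ 0 := by
      rintro rfl
      rw [nrm_zero, zero_pow p.2.ne_zero] at hx
      exact hapos.ne' hx
    obtain ⟨k, hk⟩ := hagen x hx0
    rw [hk, ← zpow_natCast, ← zpow_mul] at hx
    have h3 : nrm (p : ℕ) F' a ^ (1 : ℤ) = nrm (p : ℕ) F' a ^ (k * ((p : ℕ) : ℤ)) := by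
      rw [zpow_one]
      exact hx
    have h4 := zpow_right_injective₀ hapos hane1 h3
    have h5 : (((p : ℕ) : ℤ)) ∣ ((1 : ℕ) : ℤ) := ⟨k, by rw [Nat.cast_one, h4]; ring⟩
    have h6 := Int.natCast_dvd_natCast.mp h5
    exact p.2.one_lt.ne' (Nat.dvd_one.mp h6)
  -- the core
  have h3 := not_norm_core (p : ℕ) (p : ℕ) F' F Ω M' χ₀' χU' b h1 h2
  rw [exists_norm_congr hχ₀'] at h3
  -- the index argument
  haveI : FiniteDimensional (Qp p) E₀ := Module.Finite.trans F' E₀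
  refine ⟨b, fun hb => ?_⟩
  have hb' : thetaLoc p (c + 1) p (Units.map (Algebra.norm (Qp p) : F' →* Qp p)
      (Units.map (Algebra.norm F' : F →* F') b)) = 1 := by
    have e : Units.map (Algebra.norm (Qp p) : F' →* Qp p)
        (Units.map (Algebra.norm F' : F →* F') b) =
        Units.map (Algebra.norm (Qp p) : F →* Qp p) b := by
      apply Units.ext
      simp only [Units.coe_map]
      exact Algebra.norm_norm (R := Qp p) (S := F')
    rw [e]
    exact hb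
  have hζ' : ∃ z : E₀, IsPrimitiveRoot z ((p : ℕ) ^ (c + 1)) :=
    ⟨⟨ζ, hζE₀⟩, IsPrimitiveRoot.of_map_of_injective (f := algebraMap E₀ M') hζ
      (algebraMap E₀ M').injective⟩
  have hmem := mem_normSubgroup_of_kappa p c F' E₀ hp2 hfrE₀ hζ' hu _ hb'
  rw [mem_normSubgroup_iff] at hmem
  exact h3 hmem

end tower

end Fermat.Agent.S55.CFT.LOC.H25

end
-- ==== END Fermat.Agent.S55.CFT.LOC.H25_LTO_Tower

-- ==== BEGIN Fermat.Agent.S55.H49_AssemblyTop
section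

set_option autoImplicit false

open CategoryTheory Module groupCohomology ExtCitation

namespace Fermat.Agent.S55.H49

open Fermat.Agent.S55

/-- The frozen statement S55 from `Top.Stmt_TopQ0` and `Top.Stmt_TopK`. -/
theorem result_of_top (hQ : Top.Stmt_TopQ0) (hT : Top.Stmt_TopK)
    {p : ℕ} [Fact p.Prime] (hp2 : p ≠ 2) (S : Finset Nat.Primes) (hpS : pPrime p ∈ S)
    (M : Rep.{0} (ZMod p) (AlgebraicClosure ℚ ≃ₐ[ℚ] AlgebraicClosure ℚ))
    [FiniteDimensional (ZMod p) M]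
    (hsm : ∀ m : M, ∃ F : IntermediateField ℚ (AlgebraicClosure ℚ), FiniteDimensional ℚ F ∧
      ∀ s ∈ F.fixingSubgroup, M.ρ s m = m)
    (hMur : ∀ q : Nat.Primes, q ∉ S → ∀ A : ValuationSubring (AlgebraicClosure ℚ),
      A.LiesOverPrime (q : ℕ) → ∀ g ∈ A.inertiaSubgroupIn ℚ, M.ρ g = 1) :
    ∃ B : sha₁ S (M.dualTwist (cycloChar p)) →ₗ[ZMod p] sha₂ S M →ₗ[ZMod p] ZMod p,
      (∀ y, (∀ x, B y x = 0) → y = 0) ∧ (∀ x, (∀ y, B y x = 0) → x = 0) :=
  result_of_E4P (Top.stmt_E4P_of_top hQ hT) hp2 S hpS M hsm hMur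

end Fermat.Agent.S55.H49

end
-- ==== END Fermat.Agent.S55.H49_AssemblyTop

-- ==== BEGIN Fermat.Agent.S55.Top.H48_TQ
section

set_option autoImplicit false
set_option linter.unusedSectionVars false

open CategoryTheory Module groupCohomology ExtCitation

noncomputable section

namespace Fermat.Agent.S55.Top.H48

open Fermat.Agent.S55 Fermat.Agent.S55.Top OrbitData

attribute [local instance] locAct

section cocycle

variable {p : ℕ} [Fact p.Prime] (S : Finset Nat.Primes) (hpS : pPrime p ∈ S)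

/-- The family of local cochains `(0, …, 0, c_p)`. -/
def locFam (c : Gl (pPrime p) × Gl (pPrime p) → ZMod p) :
    ∀ q : ↥S, Gl q.1 × Gl q.1 → ZMod p :=
  Function.update (fun _ => 0) (⟨pPrime p, hpS⟩ : ↥S) c

lemma locFam_self (c : Gl (pPrime p) × Gl (pPrime p) → ZMod p) :
    locFam S hpS c ⟨pPrime p, hpS⟩ = c := by
  unfold locFam
  rw [Function.update_self]

lemma locFam_of_ne (c : Gl (pPrime p) × Gl (pPrime p) → ZMod p) {q : ↥S}
    (hq : q ≠ ⟨pPrime p, hpS⟩) : locFam S hpS c q = 0 := by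
  unfold locFam
  rw [Function.update_of_ne hq]

/-- The cone 3-cochain `(0, (0, …, 0, c_p))` of `k(χ)`. -/
def zTQ (c : Gl (pPrime p) × Gl (pPrime p) → ZMod p) : C3c S (kχ (cycloChar p)) :=
  ((0 : GQ × GQ × GQ → kχ (cycloChar p)), locFam S hpS c)

lemma isZ3c_zTQ {c : Gl (pPrime p) × Gl (pPrime p) → ZMod p}
    (hl : IsLevelConstant₂ (rl (pPrime p)) c)
    (hd : dTwoL (kχ (cycloChar p)) (pPrime p) c = 0) :
    IsZ3c S (kχ (cycloChar p)) (zTQ S hpS c) := by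
  refine ⟨⟨dThree_zero _, ⟨⊥, IntermediateField.isUnramifiedOutside_bot S,
    fun _ _ _ _ _ _ _ _ _ => rfl⟩⟩, fun q => ?_⟩
  by_cases hq : q = ⟨pPrime p, hpS⟩
  · subst hq
    show IsLevelConstant₂ (rl (pPrime p)) (locFam S hpS c ⟨pPrime p, hpS⟩) ∧
      resThree (pPrime p) (0 : GQ × GQ × GQ → kχ (cycloChar p)) =
        dTwoL (kχ (cycloChar p)) (pPrime p) (locFam S hpS c ⟨pPrime p, hpS⟩)
    rw [locFam_self, hd]
    exact ⟨hl, rfl⟩
  · show IsLevelConstant₂ (rl q.1) (locFam S hpS c q) ∧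
      resThree q.1 (0 : GQ × GQ × GQ → kχ (cycloChar p)) =
        dTwoL (kχ (cycloChar p)) q.1 (locFam S hpS c q)
    rw [locFam_of_ne S hpS c hq]
    refine ⟨isLevelConstant₂_const (rl q.1) (0 : ZMod p), ?_⟩
    rw [dTwoL_zero]
    rfl

end cocycle

section main

variable {p : ℕ} [Fact p.Prime] {S : Finset Nat.Primes} (hpS : pPrime p ∈ S)

/-- The `K₀`-level local family obtained from `(0, …, 0, c_p)` by Shapiro. -/
def kFam (𝔓 : PlaceSys S (Kcyc p)) (𝔲 : Untwist (cycloChar p) (Kcyc p))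
    (c : Gl (pPrime p) × Gl (pPrime p) → ZMod p) :
    ∀ (q : ↥S) (w : 𝔓.W q), 𝔓.Γw q w × 𝔓.Γw q w → ZMod p :=
  fun q w t => locFam S hpS c q (t.1.1, t.2.1) * ((𝔲.u ((𝔓.loc q).rep w) : ZMod p))⁻¹

lemma Sh₃_zTQ (𝔓 : PlaceSys S (Kcyc p)) (𝔲 : Untwist (cycloChar p) (Kcyc p))
    (c : Gl (pPrime p) × Gl (pPrime p) → ZMod p) :
    𝔓.Sh₃ (mapC3 𝔲.jLin (zTQ S hpS c) : C3c S (FX (ZMod p) (Kcyc p))) =
      ((0, kFam hpS 𝔓 𝔲 c) : 𝔓.C3 (ZMod p)) := by
  have h1 : (mapC3 𝔲.jLin (zTQ S hpS c) : C3c S (FX (ZMod p) (Kcyc p))) =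
      ((0, fun q t => 𝔲.jLin (locFam S hpS c q t)) : C3c S (FX (ZMod p) (Kcyc p))) := by
    refine Prod.ext (funext fun t => ?_) rfl
    show 𝔲.jLin 0 = 0
    exact map_zero _
  rw [h1, Sh₃_loc]
  rfl

lemma kFam_of_ne (𝔓 : PlaceSys S (Kcyc p)) (𝔲 : Untwist (cycloChar p) (Kcyc p))
    (c : Gl (pPrime p) × Gl (pPrime p) → ZMod p) {q : ↥S} (hq : q ≠ ⟨pPrime p, hpS⟩)
    (w : 𝔓.W q) : kFam hpS 𝔓 𝔲 c q w = 0 := by
  funext t
  show locFam S hpS c q (t.1.1, t.2.1) * _ = 0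
  rw [locFam_of_ne S hpS c hq]
  exact zero_mul _

lemma kFam_self (𝔓 : PlaceSys S (Kcyc p)) (𝔲 : Untwist (cycloChar p) (Kcyc p))
    (c : Gl (pPrime p) × Gl (pPrime p) → ZMod p) (w : 𝔓.W ⟨pPrime p, hpS⟩)
    (t : 𝔓.Γw ⟨pPrime p, hpS⟩ w × 𝔓.Γw ⟨pPrime p, hpS⟩ w) :
    kFam hpS 𝔓 𝔲 c ⟨pPrime p, hpS⟩ w t =
      c (t.1.1, t.2.1) * ((𝔲.u ((𝔓.loc ⟨pPrime p, hpS⟩).rep w) : ZMod p))⁻¹ := by
  show locFam S hpS c ⟨pPrime p, hpS⟩ (t.1.1, t.2.1) * _ = _
  rw [locFam_self]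

/-- **TQ-W**: `H³_c(ℚ, μ_p) ≠ 0` from `I4` for `ℚ(ζ_p)` and the local class. -/
theorem stmt_TopQ0_of (hI4 : Stmt_I4) (hL : Stmt_TQ_Loc) : Stmt_TopQ0 := by
  intro p _ hp2 S hpS
  classical
  obtain ⟨c, hcl, hcd, hcB⟩ := hL p hp2
  refine ⟨zTQ S hpS c, isZ3c_zTQ S hpS hcl hcd, fun hB => hcB ?_⟩
  have hK : IsBaseField S p (Kcyc p) := Kcyc_isBaseField p S hpS
  haveI : Finite (XK (Kcyc p)) := finite_XK hK.1
  letI : Fintype (XK (Kcyc p)) := Fintype.ofFinite _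
  obtain ⟨𝔓, h𝔓⟩ : ∃ 𝔓 : PlaceSys S (Kcyc p), 𝔓 = placeSysOut S (Kcyc p) := ⟨_, rfl⟩
  obtain ⟨𝔲, h𝔲⟩ : ∃ 𝔲 : Untwist (cycloChar p) (Kcyc p),
      𝔲 = 𝔓.untwist (cycloChar p) (cycloChar_eq_one_of_baseField hK) := ⟨_, rfl⟩
  -- push to `FX` and apply Shapiro
  have hZ : IsZ3c S (FX (ZMod p) (Kcyc p)) (mapC3 𝔲.jLin (zTQ S hpS c)) :=
    Fermat.Agent.S55.H48.isZ3c_push 𝔲.jHom (isZ3c_zTQ S hpS hcl hcd)
  have hBX : IsB3c S (FX (ZMod p) (Kcyc p)) (mapC3 𝔲.jLin (zTQ S hpS c)) :=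
    Fermat.Agent.S55.H48.isB3c_push 𝔲.jHom hB
  have hZK := isZ3cK_Sh₃ (𝔓 := 𝔓) hK.1 hZ
  have hBK := isB3cK_Sh₃ 𝔓 hK.1 hBX
  rw [Sh₃_zTQ] at hZK hBK
  -- the local components are cocycles
  have hmem : ∀ (q : ↥S) (w : 𝔓.W q), kFam hpS 𝔓 𝔲 c q w ∈ Z2w (ZMod p) 𝔓 q w := by
    intro q w
    obtain ⟨hlev, hres⟩ := hZK.2 q w
    refine ⟨?_, hlev⟩
    rw [← hres]
    rfl
  -- only one nonzero component
  haveI := subsingleton_W p hpS 𝔓
  obtain ⟨w₀⟩ : Nonempty (𝔓.W ⟨pPrime p, hpS⟩) :=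
    ⟨(𝔓.loc ⟨pPrime p, hpS⟩).o (x0 (Kcyc p))⟩
  have hzero : ∀ (q : ↥S) (w : 𝔓.W q),
      (⟨q, w⟩ : Σ q : ↥S, 𝔓.W q) ≠ ⟨⟨pPrime p, hpS⟩, w₀⟩ → kFam hpS 𝔓 𝔲 c q w = 0 := by
    intro q w hne
    by_cases hq : q = ⟨pPrime p, hpS⟩
    · subst hq
      exact absurd (by rw [Subsingleton.elim w w₀]) hne
    · exact kFam_of_ne hpS 𝔓 𝔲 c hq w
  obtain ⟨g, hgl, hg⟩ := (hI4 p hp2 S hpS (Kcyc p) hK 𝔓).2 (kFam hpS 𝔓 𝔲 c) hmem hBK
    ⟨pPrime p, hpS⟩ w₀ hzero
  -- transport to `Γcyc p`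
  have hΓ : ∀ h : Gl (pPrime p), h ∈ Γcyc p → h ∈ 𝔓.Γw ⟨pPrime p, hpS⟩ w₀ :=
    fun h hh => (mem_Γw_iff_Γcyc p hpS 𝔓 w₀ h).2 hh
  have hu : ((𝔲.u ((𝔓.loc ⟨pPrime p, hpS⟩).rep w₀) : (ZMod p)ˣ) : ZMod p) ≠ 0 :=
    Units.ne_zero _
  refine ⟨fun h => ((𝔲.u ((𝔓.loc ⟨pPrime p, hpS⟩).rep w₀) : (ZMod p)ˣ) : ZMod p) *
    g ⟨h.1, hΓ h.1 h.2⟩, ?_, ?_⟩
  · obtain ⟨F, hF, hFg⟩ := hgl
    refine ⟨F, hF, fun a s hs => ?_⟩
    have := hFg ⟨a.1, hΓ a.1 a.2⟩ ⟨s.1, hΓ s.1 s.2⟩ hs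
    show _ * g ⟨(a * s).1, _⟩ = _ * g ⟨a.1, _⟩
    exact congrArg _ this
  · funext t
    have h1 := congrFun hg (⟨t.1.1, hΓ t.1.1 t.1.2⟩, ⟨t.2.1, hΓ t.2.1 t.2.2⟩)
    rw [kFam_self] at h1
    show _ * g ⟨t.2.1, _⟩ - _ * g ⟨(t.1 * t.2).1, _⟩ + _ * g ⟨t.1.1, _⟩ = c (t.1.1, t.2.1)
    have h2 : c (t.1.1, t.2.1) =
        ((𝔲.u ((𝔓.loc ⟨pPrime p, hpS⟩).rep w₀) : (ZMod p)ˣ) : ZMod p) *
          (c (t.1.1, t.2.1) * ((𝔲.u ((𝔓.loc ⟨pPrime p, hpS⟩).rep w₀) : ZMod p))⁻¹) := by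
      field_simp
    rw [h2, ← h1]
    show _ = _ * (g ⟨t.2.1, _⟩ - g (⟨t.1.1, _⟩ * ⟨t.2.1, _⟩) + g ⟨t.1.1, _⟩)
    have h3 : (⟨(t.1 * t.2).1, hΓ _ (t.1 * t.2).2⟩ : 𝔓.Γw ⟨pPrime p, hpS⟩ w₀) =
        ⟨t.1.1, hΓ t.1.1 t.1.2⟩ * ⟨t.2.1, hΓ t.2.1 t.2.2⟩ := rfl
    rw [h3]
    ring

end main

end Fermat.Agent.S55.Top.H48

end

end
-- ==== END Fermat.Agent.S55.Top.H48_TQ
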