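-- GENERATED (merged mirror, NOTES/tools/trim/merge3_helper67.py): 2 modules of the originals, bodies verbatim.
import Fermat.Agent.Zm.S56_L15_000
import Fermat.Agent.Zm.S56_L01_003
import Fermat.Agent.Zm.S56_L03_004

-- ==== BEGIN Fermat.Agent.S56.EC.H31_BridgeInf
section

/-!
# S56 / EC / UBR, leaf BRIDGE, infinite part (helper31)

For a finite Galois extension `L/ℚ` inside `ℚ̄` and `b ∈ G = Gal(L/ℚ)`: the infinite places of `L`
fixed by `b` are as many as the fixed points of `b` on `G ⧸ D_∞`, `D_∞ = decInf L` the subgroup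
generated by the restriction of the complex conjugation.
-/

set_option autoImplicit false
set_option linter.unusedSectionVars false
set_option linter.style.haveILetI false

open scoped NumberField

noncomputable section

namespace Fermat.Agent.S56.EC.H31

open ExtCitation NumberField

local notation "Qb" => AlgebraicClosure ℚ

variable (L : IntermediateField ℚ Qb) [Normal ℚ L] [FiniteDimensional ℚ L]

/-- The distinguished complex embedding of `L`. -/
def phi0 : ↥L →+* ℂ := (complexEmbedding : Qb →+* ℂ).comp (algebraMap ↥L Qb)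

theorem phi0_apply (x : ↥L) : phi0 L x = complexEmbedding (x : Qb) := rfl

theorem phi0_injective : Function.Injective (phi0 L) := (phi0 L).injective

/-- The restriction of the complex conjugation to `L`. -/
def conjL : GalL L := resL L complexConjugation

theorem phi0_conjL (x : ↥L) : phi0 L (_root_.Fermat.Agent.S56.EC.H31.conjL L x) = starRingEnd ℂ (phi0 L x) := by
  rw [phi0_apply, phi0_apply, ← complexEmbedding_complexConjugation]
  congr 1
  exact AlgEquiv.restrictNormal_commutes complexConjugation L x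

theorem conjL_mul_self : _root_.Fermat.Agent.S56.EC.H31.conjL L * _root_.Fermat.Agent.S56.EC.H31.conjL L = 1 := by
  unfold _root_.Fermat.Agent.S56.EC.H31.conjL
  rw [← map_mul, complexConjugation_mul_self, map_one]

theorem decInf_eq : decInf L = Subgroup.zpowers (_root_.Fermat.Agent.S56.EC.H31.conjL L) := by
  unfold decInf _root_.Fermat.Agent.S56.EC.H31.conjL
  rw [← MonoidHom.map_zpowers]
  congr 1
  ext g
  constructor
  · rintro ⟨x, rfl⟩
    exact x.2
  · intro hg
    exact ⟨⟨g, hg⟩, rfl⟩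

theorem mem_zpowers_conjL (σ : GalL L) :
    σ ∈ Subgroup.zpowers (_root_.Fermat.Agent.S56.EC.H31.conjL L) ↔ σ = 1 ∨ σ = _root_.Fermat.Agent.S56.EC.H31.conjL L := by
  constructor
  · rintro ⟨n, rfl⟩
    have hc : Commute (_root_.Fermat.Agent.S56.EC.H31.conjL L) (_root_.Fermat.Agent.S56.EC.H31.conjL L) := Commute.refl _
    rcases Int.even_or_odd n with ⟨m, rfl⟩ | ⟨m, rfl⟩
    · left
      show _root_.Fermat.Agent.S56.EC.H31.conjL L ^ (m + m) = 1
      rw [zpow_add, ← hc.mul_zpow, conjL_mul_self, one_zpow]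
    · right
      show _root_.Fermat.Agent.S56.EC.H31.conjL L ^ (2 * m + 1) = _root_.Fermat.Agent.S56.EC.H31.conjL L
      rw [zpow_add, zpow_one, two_mul, zpow_add, ← hc.mul_zpow, conjL_mul_self, one_zpow, one_mul]
  · rintro (rfl | rfl)
    · exact Subgroup.one_mem _
    · exact Subgroup.mem_zpowers _

theorem isConj_phi0_iff (σ : GalL L) :
    ComplexEmbedding.IsConj (phi0 L) σ ↔ σ = _root_.Fermat.Agent.S56.EC.H31.conjL L := by
  constructor
  · intro h
    ext x
    apply congrArg Subtype.val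
    apply phi0_injective L
    rw [phi0_conjL]
    exact h.eq x
  · rintro rfl
    apply RingHom.ext
    intro x
    exact (phi0_conjL L x).symm

theorem decInf_eq_stabilizer :
    decInf L = MulAction.stabilizer (GalL L) (InfinitePlace.mk (phi0 L)) := by
  ext σ
  rw [decInf_eq, mem_zpowers_conjL, InfinitePlace.mem_stabilizer_mk_iff, isConj_phi0_iff]

attribute [local instance] numberFieldL

theorem isGaloisL : IsGalois ℚ ↥L := ⟨⟩

theorem pretransitiveL : MulAction.IsPretransitive (GalL L) (InfinitePlace ↥L) :=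
  haveI := isGaloisL L
  ⟨fun _ _ => InfinitePlace.exists_smul_eq_of_comap_eq (k := ℚ) (Subsingleton.elim _ _)⟩

theorem smul_eq_iff (b : GalL L) (w : InfinitePlace ↥L) :
    b • w = w ↔ ∀ x : ↥L, w (b x) = w x := by
  constructor
  · intro h x
    have h1 := congrArg (fun v : InfinitePlace ↥L => v (b x)) h
    simp only [InfinitePlace.smul_apply, AlgEquiv.symm_apply_apply] at h1
    exact h1.symm
  · intro h
    ext x
    rw [InfinitePlace.smul_apply]
    have h1 := h (b.symm x)
    rw [AlgEquiv.apply_symm_apply] at h1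
    exact h1.symm

/-- **BRIDGE**, infinite part. -/
theorem card_fixI (b : GalL L) :
    Nat.card (fixI L b) = Nat.card {x : GalL L ⧸ decInf L // b • x = x} := by
  haveI := pretransitiveL L
  rw [card_fixed_of_stabilizer (InfinitePlace.mk (phi0 L)) (decInf L) (decInf_eq_stabilizer L) b]
  exact Nat.card_congr (Equiv.subtypeEquivRight (fun w => (smul_eq_iff L b w).symm))

end Fermat.Agent.S56.EC.H31

end
end
-- ==== END Fermat.Agent.S56.EC.H31_BridgeInf

-- ==== BEGIN Fermat.Agent.S56.EC.H9_Red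
section

set_option autoImplicit false
set_option linter.unusedSectionVars false
set_option linter.style.haveILetI false
set_option linter.unusedVariables false

noncomputable section

namespace Fermat.Agent.S56.EC.H9

open CategoryTheory ExtCitation Module NumberField

local notation "Qbar" => AlgebraicClosure ℚ

/-- **RED-POW**: the action of `b` on the `S`-units is killed by the order of `b`. -/
def Stmt_RedPow : Prop :=
  ∀ (S : Finset Nat.Primes) (L : IntermediateField ℚ (AlgebraicClosure ℚ)) [Normal ℚ L]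
    [FiniteDimensional ℚ L] (b : GalL L), (unitsActZ S L b) ^ orderOf b = 1

/-- **RED-TORS**: the torsion of the `S`-units is cyclic, generated by an element which is not a
`p`-th power. -/
def Stmt_RedTors : Prop :=
  ∀ (p : ℕ) [Fact p.Prime] (S : Finset Nat.Primes)
    (L : IntermediateField ℚ (AlgebraicClosure ℚ)) [Normal ℚ L] [FiniteDimensional ℚ L],
    IsGalLevel p S L →
    ∃ z : UnitsAdd S L, z ∈ unitsTors S L ∧ (∀ t ∈ unitsTors S L, ∃ n : ℤ, t = n • z) ∧
      z ∉ pPowers p S L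

section char

variable (p : ℕ) [Fact p.Prime]

/-- The action of the global Galois group on `p`-th roots of unity. -/
theorem cycloChar_pow (σ : Qbar ≃ₐ[ℚ] Qbar) {ζ₀ : Qbar} (hζ₀ : ζ₀ ^ p = 1) :
    σ ζ₀ = ζ₀ ^ ((cycloChar p σ : (ZMod p)ˣ) : ZMod p).val := by
  haveI : NeZero p := ⟨(Fact.out : p.Prime).ne_zero⟩
  have h0 : ζ₀ ≠ 0 := by
    rintro rfl
    rw [zero_pow (NeZero.ne p)] at hζ₀
    exact zero_ne_one hζ₀
  let u : Qbarˣ := Units.mk0 ζ₀ h0
  have hu : u ∈ rootsOfUnity p Qbar := by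
    rw [mem_rootsOfUnity]
    apply Units.ext
    simpa [u] using hζ₀
  have h1 := modularCyclotomicCharacter.spec (L := Qbar) (n := p) (card_rootsOfUnity_eq_self p)
    (σ : Qbar ≃+* Qbar) hu
  exact h1

variable (S : Finset Nat.Primes) (L : IntermediateField ℚ (AlgebraicClosure ℚ)) [Normal ℚ L]
  [FiniteDimensional ℚ L]

/-- The class of `ζ_p` in the `S`-units. -/
theorem exists_zeta (hL : IsGalLevel p S L) :
    ∃ w : UnitsAdd S L, w ≠ 0 ∧ p • w = 0 ∧
      ∀ g : GQ, unitsActZ S L (resL L g) w = ((cycloChar p g : (ZMod p)ˣ) : ZMod p).val • w := by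
  have hp : p.Prime := Fact.out
  obtain ⟨-, ζ, hζL, hζ⟩ := hL
  let ζL : ↥L := ⟨ζ, hζL⟩
  have hζLp : ζL ^ p = 1 := Subtype.ext (by simpa using hζ.pow_eq_one)
  have hζL0 : ζL ≠ 0 := by
    intro h
    rw [h, zero_pow hp.ne_zero] at hζLp
    exact zero_ne_one hζLp
  let uζ : (↥L)ˣ := Units.mk0 ζL hζL0
  have huζp : uζ ^ p = 1 := by
    apply Units.ext
    simpa [uζ] using hζLp
  have hint : ∀ v : (↥L)ˣ, v ^ p = 1 → IsIntegral ℤ (v : ↥L) := by
    intro v hv
    refine IsIntegral.of_pow hp.pos ?_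
    rw [← Units.val_pow_eq_pow_val, hv, Units.val_one]
    exact isIntegral_one
  have huζ : uζ ∈ S55.CFT.TUnits ↥L S := by
    refine ⟨0, ?_, ?_⟩
    · rw [pow_zero, one_mul]
      exact hint uζ huζp
    · rw [pow_zero, one_mul]
      exact hint uζ⁻¹ (by rw [inv_pow, huζp, inv_one])
  refine ⟨Additive.ofMul ⟨uζ, huζ⟩, ?_, ?_, ?_⟩
  · intro h
    have h1 : (⟨uζ, huζ⟩ : S55.CFT.TUnits ↥L S) = 1 := h
    have h2 : ζ = 1 := by
      have h3 := congrArg (fun x : S55.CFT.TUnits ↥L S => (((x : (↥L)ˣ) : ↥L) : Qbar)) h1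
      simpa [uζ, ζL] using h3
    exact hζ.ne_one hp.one_lt h2
  · have h1 : (⟨uζ, huζ⟩ : S55.CFT.TUnits ↥L S) ^ p = 1 := Subtype.ext huζp
    show Additive.ofMul ((⟨uζ, huζ⟩ : S55.CFT.TUnits ↥L S) ^ p) = 0
    rw [h1]
    rfl
  · intro g
    have h1 : (resL L g) • (⟨uζ, huζ⟩ : S55.CFT.TUnits ↥L S) =
        (⟨uζ, huζ⟩ : S55.CFT.TUnits ↥L S) ^ ((cycloChar p g : (ZMod p)ˣ) : ZMod p).val := by
      apply Subtype.ext
      apply Units.ext
      apply Subtype.ext
      show ((resL L g ζL : ↥L) : Qbar) = ((ζL ^ ((cycloChar p g : (ZMod p)ˣ) : ZMod p).val : ↥L) : Qbar)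
      have h2 : ((resL L g ζL : ↥L) : Qbar) = g ζ := AlgEquiv.restrictNormal_commutes g L ζL
      rw [h2, cycloChar_pow p g hζ.pow_eq_one]
      simp [ζL]
    show Additive.ofMul ((resL L g) • (⟨uζ, huζ⟩ : S55.CFT.TUnits ↥L S)) = _
    rw [h1]
    rfl

end char


section glue

/-- `Stmt_RED` from the two inputs on the `S`-units. -/
theorem stmt_RED_of (hPow : Stmt_RedPow) (hTors : Stmt_RedTors) : Stmt_RED := by
  intro p _ hp2 S hpS L _ _ hL
  have hp : p.Prime := Fact.out
  haveI := numberFieldL L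
  haveI : Module.Finite ℤ (UnitsAdd S L) := S55.CFT.H12.finite_tUnits ↥L S
  have hfd : FiniteDimensional (ZMod p) (UmodP p S L) :=
    finiteDimensional_quot p (pPowers p S L)
  refine ⟨hfd, fun g hg => ?_⟩
  haveI := hfd
  rw [IND.brauerFn_of]
  obtain ⟨z, hz, hgen, hzP⟩ := hTors p S L hL
  obtain ⟨a, ha⟩ := hgen _ (unitsActZ_tors S L (resL L g) hz)
  -- the character
  obtain ⟨w, hw0, hwp, hwg⟩ := exists_zeta p S L hL
  have hwt : w ∈ unitsTors S L := by
    refine (Submodule.mem_torsion_iff w).2 ⟨⟨(p : ℤ), ?_⟩, ?_⟩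
    · exact mem_nonZeroDivisors_of_ne_zero (by exact_mod_cast hp.ne_zero)
    · show (p : ℤ) • w = 0
      rw [natCast_zsmul]
      exact hwp
  obtain ⟨j, hj⟩ := hgen w hwt
  have h1 : unitsActZ S L (resL L g) w = a • w := by
    rw [hj, map_smul]
    show j • unitsActZ S L (resL L g) z = a • j • z
    have ha' : unitsActZ S L (resL L g) z = a • z := ha
    rw [ha', smul_comm]
  have h2 : (a - (((cycloChar p g : (ZMod p)ˣ) : ZMod p).val : ℤ)) • w = 0 := by
    rw [sub_smul, ← h1, hwg g, natCast_zsmul, sub_self]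
  have h3 : (p : ℤ) ∣ a - (((cycloChar p g : (ZMod p)ˣ) : ZMod p).val : ℤ) := by
    by_contra hnd
    have hcop : IsCoprime (p : ℤ) (a - (((cycloChar p g : (ZMod p)ˣ) : ZMod p).val : ℤ)) :=
      (Nat.prime_iff_prime_int.mp hp).coprime_iff_not_dvd.mpr hnd
    obtain ⟨x, y, hxy⟩ := hcop
    apply hw0
    have h4 : w = (x * (p : ℤ) + y * (a - (((cycloChar p g : (ZMod p)ˣ) : ZMod p).val : ℤ))) • w := by
      rw [hxy, one_smul]
    have h6 : (x * (p : ℤ) + y * (a - (((cycloChar p g : (ZMod p)ˣ) : ZMod p).val : ℤ))) • w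
        = 0 := by
      rw [add_zsmul, mul_zsmul, mul_zsmul, h2, natCast_zsmul, hwp,
        smul_zero, smul_zero, add_zero]
    exact h4.trans h6
  have hχ : (a : ZMod p) = ((cycloChar p g : (ZMod p)ˣ) : ZMod p) := by
    haveI : NeZero p := ⟨hp.ne_zero⟩
    have h5 : ((((cycloChar p g : (ZMod p)ˣ) : ZMod p).val : ℤ) : ZMod p) = (a : ZMod p) :=
      (ZMod.intCast_eq_intCast_iff_dvd_sub _ _ p).2 h3
    rw [← h5]
    simp
  have hP : ∀ u : UnitsAdd S L, u ∈ pPowers p S L ↔ ∃ v : UnitsAdd S L, p • v = u :=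
    fun u => Iff.rfl
  have key := brauer_lattice p (pPowers p S L) hP (unitsActZ S L (resL L g))
    (unitsActZ_tors S L (resL L g)) (unitRep p S L (resL L g)) (fun u => rfl)
    (orderOf (resL L g)) (orderOf_pos _) hg (hPow S L (resL L g)) z hz hgen hzP a ha
  rw [hχ] at key
  exact key

end glue

end Fermat.Agent.S56.EC.H9

end

end
-- ==== END Fermat.Agent.S56.EC.H9_Red
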