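-- GENERATED (merged mirror, NOTES/tools/trim/merge3_helper67.py): 10 modules of the originals, bodies verbatim.
import Fermat.Agent.Zm.S56_L16_000
import Fermat.Agent.Zm.S56_L01_003
import Fermat.Agent.Zm.S56_L16_001
import Fermat.Agent.Zm.S56_L16_002
import Fermat.Agent.Zm.S56_L14_001
import Fermat.Agent.Zm.S56_L15_001
import Fermat.Agent.Zm.S56_L15_000
import Fermat.Agent.Zm.S56_L13_001
import Fermat.Agent.Zm.S56_L15_002
import Fermat.Agent.Zm.S56_L14_003
import Fermat.Agent.Zm.S56_L15_003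
import Fermat.Agent.Zm.S56_L11_002
import Fermat.Agent.Zm.S56_L05_004
import Fermat.Agent.Zm.S56_L09_002
import Fermat.Agent.Zm.S56_L13_002
import Fermat.Agent.Zm.S56_L12_003
import Fermat.Agent.Zm.S56_L12_000
import Fermat.Agent.Zm.S56_L04_003

-- ==== BEGIN Fermat.Agent.S56.EC.H15_TrFix
section

set_option autoImplicit false
set_option linter.unusedSectionVars false
set_option linter.style.haveILetI false
set_option linter.unusedVariables false

noncomputable section

namespace Fermat.Agent.S56.EC.H15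

open NumberField IsDedekindDomain Module Fermat.Agent.S55.CFT Fermat.Agent.S55.CFT.H12

section general

variable (K : Type) [Field K] [NumberField K] (T : Finset Nat.Primes) (hPLC : H27.Stmt_PLC)

/-- `sF σ w = σ⁻¹(w)` as an ideal. -/
theorem mem_sF_asIdeal (σ : K ≃ₐ[ℚ] K) (w : primesT K T) (r : 𝓞 K) :
    r ∈ (H27.sF K T hPLC σ w).1.asIdeal ↔
      NumberField.RingOfIntegers.mapRingEquiv (σ : K ≃+* K) r ∈ w.1.asIdeal := by
  rw [← HeightOneSpectrum.valuation_lt_one_iff_mem (K := K),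
    ← HeightOneSpectrum.valuation_lt_one_iff_mem (K := K), H27.sF_spec]
  rfl

/-- `sF σ w = w` iff `σ` maps `w` into itself. -/
theorem sF_eq_self_iff (σ : K ≃ₐ[ℚ] K) (w : primesT K T) :
    H27.sF K T hPLC σ w = w ↔
      ∀ x : 𝓞 K, x ∈ w.1.asIdeal → ∃ y : 𝓞 K, y ∈ w.1.asIdeal ∧ (y : K) = σ (x : K) := by
  constructor
  · intro h x hx
    refine ⟨NumberField.RingOfIntegers.mapRingEquiv (σ : K ≃+* K) x, ?_, rfl⟩
    rw [← mem_sF_asIdeal K T hPLC, h]
    exact hx
  · intro h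
    apply Subtype.ext
    apply HeightOneSpectrum.ext
    symm
    have hle : w.1.asIdeal ≤ (H27.sF K T hPLC σ w).1.asIdeal := by
      intro x hx
      rw [mem_sF_asIdeal]
      obtain ⟨y, hy, hyx⟩ := h x hx
      have : y = NumberField.RingOfIntegers.mapRingEquiv (σ : K ≃+* K) x :=
        NumberField.RingOfIntegers.ext hyx
      rw [← this]
      exact hy
    exact (w.1.isMaximal.eq_of_le (H27.sF K T hPLC σ w).1.isPrime.ne_top hle)

/-- `sInf σ w = w` iff `w ∘ σ = w`. -/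
theorem sInf_eq_self_iff (σ : K ≃ₐ[ℚ] K) (w : InfinitePlace K) :
    H27.sInf K σ w = w ↔ ∀ x : K, w (σ x) = w x := by
  constructor
  · intro h x
    rw [← H27.sInf_apply, h]
  · intro h
    apply InfinitePlace.ext
    intro x
    rw [H27.sInf_apply, h]

end general

section fix

variable (S : Finset Nat.Primes) (L : IntermediateField ℚ (AlgebraicClosure ℚ)) [Normal ℚ L]
  [FiniteDimensional ℚ L] (b : GalL L) (hPLC : H27.Stmt_PLC)

/-- The fixed primes of `Defs_UBR` are the fixed points of `sF`. -/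
def fixFEquiv [NumberField ↥L] :
    ↥(fixF S L b) ≃ {w : primesT ↥L S // H27.sF ↥L S hPLC b w = w} where
  toFun w := ⟨⟨w.1, (mem_primesT_iff_exists ↥L S w.1).2 w.2.1⟩,
    (sF_eq_self_iff ↥L S hPLC b _).2 w.2.2⟩
  invFun w := ⟨w.1.1, (mem_primesT_iff_exists ↥L S w.1.1).1 w.1.2,
    (sF_eq_self_iff ↥L S hPLC b _).1 w.2⟩
  left_inv _ := rfl
  right_inv _ := rfl

/-- The fixed infinite places of `Defs_UBR` are the fixed points of `sInf`. -/
def fixIEquiv [NumberField ↥L] :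
    ↥(fixI L b) ≃ {w : InfinitePlace ↥L // H27.sInf ↥L b w = w} where
  toFun w := ⟨w.1, (sInf_eq_self_iff ↥L b w.1).2 w.2⟩
  invFun w := ⟨w.1, (sInf_eq_self_iff ↥L b w.1).1 w.2⟩
  left_inv _ := rfl
  right_inv _ := rfl

theorem natCard_fixF [NumberField ↥L] :
    Nat.card (fixF S L b) = Nat.card {w : primesT ↥L S // H27.sF ↥L S hPLC b w = w} :=
  Nat.card_congr (fixFEquiv S L b hPLC)

theorem natCard_fixI [NumberField ↥L] :
    Nat.card (fixI L b) = Nat.card {w : InfinitePlace ↥L // H27.sInf ↥L b w = w} :=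
  Nat.card_congr (fixIEquiv L b)

/-- **FIXPTS, finite places.** -/
theorem card_fixF [NumberField ↥L] [Fintype ↥(primesT ↥L S)]
    [DecidablePred fun w : primesT ↥L S => H27.sF ↥L S hPLC b w = w] :
    Nat.card (fixF S L b) =
      (Finset.univ.filter fun w : primesT ↥L S => H27.sF ↥L S hPLC b w = w).card := by
  rw [natCard_fixF S L b hPLC, Nat.card_eq_fintype_card, Fintype.card_subtype]

/-- **FIXPTS, infinite places.** -/
theorem card_fixI [NumberField ↥L] [Fintype (InfinitePlace ↥L)]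
    [DecidablePred fun w : InfinitePlace ↥L => H27.sInf ↥L b w = w] :
    Nat.card (fixI L b) =
      (Finset.univ.filter fun w : InfinitePlace ↥L => H27.sInf ↥L b w = w).card := by
  rw [natCard_fixI L b, Nat.card_eq_fintype_card, Fintype.card_subtype]

end fix

/-- `H27.Stmt_PLC` holds. -/
theorem stmt_PLC' : H27.Stmt_PLC := fun K _ _ σ w => stmt_PLC K σ w

/-- `H27.Stmt_LOGSPAN` holds. -/
theorem stmt_LOGSPAN' : H27.Stmt_LOGSPAN := fun K _ _ y hy => stmt_LOGSPAN K y hy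

end Fermat.Agent.S56.EC.H15

end

end
-- ==== END Fermat.Agent.S56.EC.H15_TrFix

-- ==== BEGIN Fermat.Agent.S56.EC.H27_TrSpan
section

set_option autoImplicit false
set_option linter.unusedSectionVars false
set_option linter.style.haveILetI false

/-!
# EC / UBR / TR (helper27): the realisation of the `T`-units spans

`span_top_of`: a subspace of `ℝ^{primes over T} × ℝ^{infinite places}` containing the realisation
`phiT u` of every `T`-unit and the vector `(0, 1)` is everything.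
-/

noncomputable section

namespace Fermat.Agent.S56.EC.H27

open NumberField IsDedekindDomain Module Fermat.Agent.S55.CFT Fermat.Agent.S55.CFT.H12

section general

variable (K : Type) [Field K] [NumberField K] (T : Finset Nat.Primes)

/-- A unit as a `T`-unit. -/
def uT (u : (𝓞 K)ˣ) : Additive (TUnits K T) :=
  (tUnitsEquiv K T).symm (unitInclAdd K (primesT K T) (Additive.ofMul u))

theorem valK_uT (u : (𝓞 K)ˣ) : valK K T (uT K T u) = (u : K) := rfl

theorem ordT_uT (u : (𝓞 K)ˣ) : ordT K T (uT K T u) = 0 := by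
  have h : unitInclAdd K (primesT K T) (Additive.ofMul u) ∈
      LinearMap.ker (valAdd K (primesT K T)) := by
    rw [← range_unitInclAdd]
    exact ⟨_, rfl⟩
  show valAdd K (primesT K T) ((tUnitsEquiv K T) ((tUnitsEquiv K T).symm _)) = 0
  rw [LinearEquiv.apply_symm_apply]
  exact h

theorem phiT_uT (u : (𝓞 K)ˣ) :
    phiT K T (uT K T u) = LinearMap.inr ℝ (primesT K T → ℝ) (InfinitePlace K → ℝ)
      (fun w : InfinitePlace K => (InfinitePlace.mult w : ℝ) * Real.log (w (u : K))) := by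
  refine Prod.ext ?_ ?_
  · funext w
    show ((ordT K T (uT K T u) w : ℤ) : ℝ) = 0
    rw [ordT_uT, Pi.zero_apply, Int.cast_zero]
  · rfl

variable {K T}

theorem inr_mem_of (W : Submodule ℝ (VK K T)) (h1 : ∀ u, phiT K T u ∈ W) (h2 : vZero K T ∈ W)
    (y : InfinitePlace K → ℝ) :
    LinearMap.inr ℝ (primesT K T → ℝ) (InfinitePlace K → ℝ) y ∈ W := by
  classical
  set W' : Submodule ℝ (InfinitePlace K → ℝ) :=
    W.comap (LinearMap.inr ℝ (primesT K T → ℝ) (InfinitePlace K → ℝ)) with hW'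
  have hspan : Submodule.span ℝ (Set.range fun u : (𝓞 K)ˣ => fun w : InfinitePlace K =>
      (InfinitePlace.mult w : ℝ) * Real.log (w (u : K))) ≤ W' := by
    rw [Submodule.span_le]
    rintro _ ⟨u, rfl⟩
    show LinearMap.inr ℝ (primesT K T → ℝ) (InfinitePlace K → ℝ) _ ∈ W
    rw [← phiT_uT K T u]
    exact h1 _
  have hone : (fun _ : InfinitePlace K => (1 : ℝ)) ∈ W' := h2
  set n : ℝ := (Fintype.card (InfinitePlace K) : ℝ) with hn
  have hn0 : n ≠ 0 := by
    rw [hn]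
    exact_mod_cast Fintype.card_ne_zero
  set c : ℝ := (∑ w, y w) / n with hc
  have hy : y = (y - c • fun _ : InfinitePlace K => (1 : ℝ)) +
      c • fun _ : InfinitePlace K => (1 : ℝ) := by
    rw [sub_add_cancel]
  have hsum : ∑ w, (y - c • fun _ : InfinitePlace K => (1 : ℝ)) w = 0 := by
    simp only [Pi.sub_apply, Pi.smul_apply, smul_eq_mul, mul_one, Finset.sum_sub_distrib,
      Finset.sum_const, Finset.card_univ, nsmul_eq_mul]
    rw [hc]
    field_simp
    ring
  have h3 : y ∈ W' := by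
    rw [hy]
    exact W'.add_mem (hspan (H15.stmt_LOGSPAN K _ hsum)) (W'.smul_mem c hone)
  exact h3

open Classical in
theorem inl_single_mem_of (W : Submodule ℝ (VK K T)) (h1 : ∀ u, phiT K T u ∈ W)
    (h2 : vZero K T ∈ W) (w : primesT K T) :
    LinearMap.inl ℝ (primesT K T → ℝ) (InfinitePlace K → ℝ) (Pi.single w 1) ∈ W := by
  classical
  obtain ⟨a, c, hc, hac⟩ := exists_sunit_single K (primesT K T) w
  set u : Additive (TUnits K T) := (tUnitsEquiv K T).symm a with hu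
  have hord : ordT K T u = Pi.single w c := by
    show valAdd K (primesT K T) ((tUnitsEquiv K T) ((tUnitsEquiv K T).symm a)) = _
    rw [LinearEquiv.apply_symm_apply, hac]
  have h3 : phiT K T u = LinearMap.inl ℝ (primesT K T → ℝ) (InfinitePlace K → ℝ)
      (Pi.single w (c : ℝ)) + LinearMap.inr ℝ (primesT K T → ℝ) (InfinitePlace K → ℝ)
      (logT K T u) := by
    refine Prod.ext ?_ ?_
    · funext w'
      show ((ordT K T u w' : ℤ) : ℝ) = (Pi.single w (c : ℝ) : primesT K T → ℝ) w' + 0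
      rw [hord, add_zero]
      by_cases hw : w' = w
      · subst hw
        rw [Pi.single_eq_same, Pi.single_eq_same]
      · rw [Pi.single_eq_of_ne hw, Pi.single_eq_of_ne hw, Int.cast_zero]
    · show logT K T u = 0 + logT K T u
      rw [zero_add]
  have h4 : LinearMap.inl ℝ (primesT K T → ℝ) (InfinitePlace K → ℝ) (Pi.single w (c : ℝ)) ∈ W := by
    have := W.sub_mem (h1 u) (inr_mem_of W h1 h2 (logT K T u))
    rw [h3, add_sub_cancel_right] at this
    exact this
  have hc' : (c : ℝ) ≠ 0 := by exact_mod_cast hc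
  have h5 := W.smul_mem (c : ℝ)⁻¹ h4
  rw [← map_smul, ← Pi.single_smul, smul_eq_mul, inv_mul_cancel₀ hc'] at h5
  exact h5

/-- **Spanning.** -/
theorem span_top_of (W : Submodule ℝ (VK K T)) (h1 : ∀ u, phiT K T u ∈ W) (h2 : vZero K T ∈ W) :
    W = ⊤ := by
  classical
  rw [eq_top_iff]
  rintro ⟨x, y⟩ -
  have hxy : ((x, y) : VK K T) = LinearMap.inl ℝ (primesT K T → ℝ) (InfinitePlace K → ℝ) x +
      LinearMap.inr ℝ (primesT K T → ℝ) (InfinitePlace K → ℝ) y := by
    refine Prod.ext ?_ ?_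
    · show x = x + 0
      rw [add_zero]
    · show y = 0 + y
      rw [zero_add]
  rw [hxy]
  refine W.add_mem ?_ (inr_mem_of W h1 h2 y)
  have hx : x = ∑ w, x w • (Pi.single w 1 : primesT K T → ℝ) := by
    funext w'
    rw [Finset.sum_apply]
    simp only [Pi.smul_apply, smul_eq_mul]
    rw [Finset.sum_eq_single w']
    · rw [Pi.single_eq_same, mul_one]
    · intro b _ hb
      rw [Pi.single_eq_of_ne (Ne.symm hb), mul_zero]
    · intro h
      exact absurd (Finset.mem_univ w') h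
  rw [hx, map_sum]
  refine W.sum_mem fun w _ => ?_
  rw [map_smul]
  exact W.smul_mem _ (inl_single_mem_of W h1 h2 w)

end general

end Fermat.Agent.S56.EC.H27

end

end
-- ==== END Fermat.Agent.S56.EC.H27_TrSpan

-- ==== BEGIN Fermat.Agent.S56.EC.H31_Bridge
section

/-!
# S56 / EC / UBR, leaf BRIDGE (helper31)

`stmt_BRIDGE : Stmt_BRIDGE`: the places of `L` fixed by `b ∈ Gal(L/ℚ)` are counted by the fixed
points of `b` on `G ⧸ D_q` (`q ∈ S`) and on `G ⧸ D_∞`.
-/

set_option autoImplicit false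

namespace Fermat.Agent.S56.EC.H31

/-- **UBR-BRIDGE**. -/
theorem stmt_BRIDGE : Stmt_BRIDGE := by
  intro S L _ _ b
  exact ⟨card_fixF L S b, card_fixI L b⟩

end Fermat.Agent.S56.EC.H31

end
-- ==== END Fermat.Agent.S56.EC.H31_Bridge

-- ==== BEGIN Fermat.Agent.S56.EC.H92_DescFinal
section

set_option autoImplicit false

/-!
# EC / DESC: final assembly (helper92)

`stmt_DESC_final : Stmt_fin2p → GWC.Stmt_B1 → GWC.Stmt_UR2 → Stmt_DESC`, from
`H54.stmt_DA` (helper54), `H92.stmt_DB` (helper92), `H01.stmt_DC_of` (helper1).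
-/

namespace Fermat.Agent.S56.EC.DESC.H92

open Fermat.Agent.S56.EC Fermat.Agent.S56.EC.DESC

/-- **Package DESC**, from the three external inputs `FIN2`, `B1`, `UR2`. -/
theorem stmt_DESC_final (hF2 : Stmt_fin2p) (hB : GWC.Stmt_B1) (hU : GWC.Stmt_UR2) :
    Stmt_DESC :=
  stmt_DESC_of Fermat.Agent.S56.EC.DESC.H54.stmt_DA stmt_DB
    (Fermat.Agent.S56.EC.DESC.H01.stmt_DC_of hB hU) hF2

end Fermat.Agent.S56.EC.DESC.H92

end
-- ==== END Fermat.Agent.S56.EC.H92_DescFinal

-- ==== BEGIN Fermat.Agent.S56.EC.H92_RedUnits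
section

set_option autoImplicit false
set_option linter.style.haveILetI false
set_option linter.unusedSectionVars false
set_option linter.unusedVariables false

/-!
# Cluster T / S56, GW-CORE, package EC, leaf UBR-RED: concrete inputs (C5), (C6a) (helper92)

For `E = O_{L,S}ˣ` (additively `UnitsAdd S L`):
* `unitsActZ_pow_orderOf` (C5): `(unitsActZ S L b) ^ orderOf b = 1`;
* `exists_tors_gen` (C6a): the torsion of `E` (the roots of unity of `L`) is cyclic, with a
  generator `z` which is not a `p`-th power (`ζ_p ∈ L`).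
The abstract part of RED is `H9.brauer_lattice` (helper9, `EC/H9_RedAbs.lean`).
-/

noncomputable section

namespace Fermat.Agent.S56.EC.RED.H92

open Module

section act

variable (S : Finset Nat.Primes) (L : IntermediateField ℚ (AlgebraicClosure ℚ)) [Normal ℚ L]

theorem unitsActZ_apply (g : GalL L) (u : UnitsAdd S L) :
    unitsActZ S L g u = unitsAct S L g u := rfl

theorem unitsAct_one (u : UnitsAdd S L) : unitsAct S L 1 u = u := by
  induction u using Additive.rec with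
  | ofMul u => rw [unitsAct_apply, one_smul]

theorem unitsAct_mul (g h : GalL L) (u : UnitsAdd S L) :
    unitsAct S L (g * h) u = unitsAct S L g (unitsAct S L h u) := by
  induction u using Additive.rec with
  | ofMul u => rw [unitsAct_apply, unitsAct_apply, unitsAct_apply, mul_smul]

theorem unitsActZ_one : unitsActZ S L 1 = 1 := by
  ext u
  rw [unitsActZ_apply, unitsAct_one]
  rfl

theorem unitsActZ_mul (g h : GalL L) :
    unitsActZ S L (g * h) = unitsActZ S L g * unitsActZ S L h := by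
  ext u
  rw [unitsActZ_apply, unitsAct_mul]
  rfl

theorem unitsActZ_pow (g : GalL L) (n : ℕ) : unitsActZ S L (g ^ n) = unitsActZ S L g ^ n := by
  induction n with
  | zero => rw [pow_zero, pow_zero, unitsActZ_one]
  | succ n ih => rw [pow_succ, pow_succ, unitsActZ_mul, ih]

/-- **(C5)** -/
theorem unitsActZ_pow_orderOf (b : GalL L) : unitsActZ S L b ^ orderOf b = 1 := by
  rw [← unitsActZ_pow, pow_orderOf_eq_one, unitsActZ_one]

end act

section tors

variable (S : Finset Nat.Primes) (L : IntermediateField ℚ (AlgebraicClosure ℚ)) [Normal ℚ L]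
  [FiniteDimensional ℚ L]

theorem finite_unitsAdd : Module.Finite ℤ (UnitsAdd S L) := by
  haveI : NumberField ↥L := numberFieldL L
  exact S55.CFT.H12.finite_tUnits ↥L S

/-- The torsion of the `S`-units is finite. -/
theorem finite_unitsTors : Finite ↥(unitsTors S L) := by
  haveI := finite_unitsAdd S L
  haveI : IsNoetherian ℤ (UnitsAdd S L) := isNoetherian_of_isNoetherianRing_of_finite ℤ _
  haveI : Module.Finite ℤ ↥(unitsTors S L) := Module.IsNoetherian.finite ℤ _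
  exact Module.finite_of_fg_torsion ↥(unitsTors S L) Submodule.torsion_isTorsion

/-- The torsion of the `S`-units, multiplicatively, into `L`. -/
def torsToL : Multiplicative ↥(unitsTors S L) →* ↥L where
  toFun t := (((Additive.toMul (Multiplicative.toAdd t).1 : ↥(S55.CFT.TUnits ↥L S)) : (↥L)ˣ) : ↥L)
  map_one' := rfl
  map_mul' _ _ := rfl

theorem torsToL_injective : Function.Injective (torsToL S L) := by
  intro s t h
  have h1 : (Additive.toMul (Multiplicative.toAdd s).1 : ↥(S55.CFT.TUnits ↥L S)) =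
      Additive.toMul (Multiplicative.toAdd t).1 := Subtype.ext (Units.ext h)
  have h2 : (Multiplicative.toAdd s).1 = (Multiplicative.toAdd t).1 := h1
  exact Multiplicative.toAdd.injective (Subtype.ext h2)

/-- The torsion of the `S`-units is cyclic. -/
theorem exists_gen_unitsTors :
    ∃ z ∈ unitsTors S L, ∀ t ∈ unitsTors S L, ∃ n : ℤ, t = n • z := by
  haveI := finite_unitsTors S L
  haveI : Finite (Multiplicative ↥(unitsTors S L)) := ‹Finite ↥(unitsTors S L)›
  have hc : IsCyclic (Multiplicative ↥(unitsTors S L)) :=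
    isCyclic_of_injective_ringHom (torsToL S L) (torsToL_injective S L)
  have hc' : IsAddCyclic ↥(unitsTors S L) := isCyclic_multiplicative_iff.mp hc
  obtain ⟨g, hg⟩ := hc'.exists_generator
  refine ⟨g.1, g.2, fun t ht => ?_⟩
  obtain ⟨n, hn⟩ := AddSubgroup.mem_zmultiples_iff.mp (hg ⟨t, ht⟩)
  refine ⟨n, ?_⟩
  have := congrArg Subtype.val hn
  simpa using this.symm

/-- **(C6a)** The torsion of the `S`-units is cyclic, with a generator which is not a `p`-th
power (`ζ_p ∈ L`). -/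
theorem exists_tors_gen (p : ℕ) [Fact p.Prime] (hL : IsGalLevel p S L) :
    ∃ z : UnitsAdd S L, z ∈ unitsTors S L ∧ (∀ t ∈ unitsTors S L, ∃ n : ℤ, t = n • z) ∧
      z ∉ pPowers p S L := by
  have hp : p.Prime := Fact.out
  obtain ⟨z, hz, hgen⟩ := exists_gen_unitsTors S L
  refine ⟨z, hz, hgen, ?_⟩
  rintro ⟨v, hv⟩
  have hv' : p • v = z := hv
  -- `v` is torsion
  have hvt : v ∈ unitsTors S L := by
    obtain ⟨a, ha⟩ := hz
    have ha' : (a : ℤ) • z = 0 := ha
    have hap : (a : ℤ) * (p : ℤ) ∈ nonZeroDivisors ℤ :=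
      mem_nonZeroDivisors_of_ne_zero
        (mul_ne_zero (nonZeroDivisors.ne_zero a.2) (by exact_mod_cast hp.ne_zero))
    refine ⟨⟨_, hap⟩, ?_⟩
    show ((a : ℤ) * (p : ℤ)) • v = 0
    rw [mul_smul, natCast_zsmul, hv', ha']
  obtain ⟨i, hi⟩ := hgen v hvt
  -- the class of `ζ_p`
  obtain ⟨w, hw0, hwp, -⟩ := H9.exists_zeta p S L hL
  have hwt : w ∈ unitsTors S L := by
    refine ⟨⟨(p : ℤ), mem_nonZeroDivisors_of_ne_zero (by exact_mod_cast hp.ne_zero)⟩, ?_⟩
    show (p : ℤ) • w = 0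
    rw [natCast_zsmul, hwp]
  obtain ⟨j, hj⟩ := hgen w hwt
  have h1 : ((p : ℤ) * i) • z = z := by
    rw [mul_smul, ← hi, natCast_zsmul, hv']
  have h2 : ((p : ℤ) * i) • w = w := by
    rw [hj, smul_comm, h1]
  have h3 : ((p : ℤ) * i) • w = 0 := by
    rw [mul_comm, mul_smul, natCast_zsmul, hwp, smul_zero]
  exact hw0 (h2.symm.trans h3)

end tors

/-- **RED-POW.** -/
theorem stmt_RedPow : H9.Stmt_RedPow := by
  intro S L _ _ b
  exact unitsActZ_pow_orderOf S L b

/-- **RED-TORS.** -/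
theorem stmt_RedTors : H9.Stmt_RedTors := by
  intro p _ S L _ _ hL
  exact exists_tors_gen S L p hL

/-- **UBR-RED.** -/
theorem stmt_RED : Stmt_RED := H9.stmt_RED_of stmt_RedPow stmt_RedTors

end Fermat.Agent.S56.EC.RED.H92

end

end
-- ==== END Fermat.Agent.S56.EC.H92_RedUnits

-- ==== BEGIN Fermat.Agent.S56.EC.KDT.Defs_KDO
section

set_option autoImplicit false
set_option linter.unusedSectionVars false

/-!
# EC / KDALG, part KDO: interfaces (owner helper74; route of helper47's note "KDALG without Mackey")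

`G` a finite group, `ω : G →* kˣ`, `(V, ρ)` a finite-dimensional representation which is
relatively projective (`IsRelProj ρ s₀`: `∑_g ρ(g) s₀ ρ(g)⁻¹ = id`; for `V = Ind_B^G W`, `p ∤ #B`:
`EC.H47.exists_relProj`).  For a representation `(A, α)`:

* `twDual ω α g = ω(g) • α.dual g`          the operators of `A*(ω)` on `Dual A`;
* `invSub ω ρ α = Hom_G(A*(ω), V)`          `{T : Dual A →ₗ V | T ∘ twDual ω α g = ρ g ∘ T}`;
* `psi ω ρ A = dim invSub ω ρ A.ρ`           (as an integer);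
* `twFix ω ρ D = {v | ρ d v = ω(d) v ∀ d ∈ D}`;
* `charRep ω`                                the one-dimensional representation `ω`.

Leaves (`theorem … : Stmt_X` in `Fermat/Agent/S56/EC/KDT/H<seat>_<Name>.lean`,
namespace `Fermat.Agent.S56.EC.KDT.H<seat>`):
`Stmt_PSIADD`, `Stmt_PSIPERM`, `Stmt_PSICHAR`, `Stmt_HIGMAN`, `Stmt_LINK`, `Stmt_BNREL`.
Assembly (`H74_KDO.lean`): `Stmt_KDO` from these + `Stmt_SHAPlb`, `Stmt_KUM`, `Stmt_UBR`,
`Stmt_LOC0`.
-/

noncomputable section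

namespace Fermat.Agent.S56.EC.KDT

open CategoryTheory groupCohomology ExtCitation Module

section defs

variable {k : Type} [Field k] {G : Type} [Group G]

/-- The operators of `A*(ω)` on `Dual A`: `ω(g) • α.dual g`. -/
def twDual (ω : G →* kˣ) {A : Type} [AddCommGroup A] [Module k A] (α : Representation k G A)
    (g : G) : Module.Dual k A →ₗ[k] Module.Dual k A :=
  ((ω g : kˣ) : k) • (α.dual g)

theorem twDual_apply (ω : G →* kˣ) {A : Type} [AddCommGroup A] [Module k A]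
    (α : Representation k G A) (g : G) (φ : Module.Dual k A) (a : A) :
    twDual ω α g φ a = ((ω g : kˣ) : k) * φ (α g⁻¹ a) := rfl

/-- `Hom_G(A*(ω), V)`: the linear maps `T : Dual A → V` with `T ∘ (ω(g) α.dual g) = ρ g ∘ T`. -/
def invSub (ω : G →* kˣ) {V : Type} [AddCommGroup V] [Module k V] (ρ : Representation k G V)
    {A : Type} [AddCommGroup A] [Module k A] (α : Representation k G A) :
    Submodule k (Module.Dual k A →ₗ[k] V) where
  carrier := {T | ∀ g, T ∘ₗ twDual ω α g = ρ g ∘ₗ T}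
  add_mem' := by
    intro T T' hT hT' g
    rw [LinearMap.add_comp, LinearMap.comp_add, hT g, hT' g]
  zero_mem' := by
    intro g
    rw [LinearMap.zero_comp, LinearMap.comp_zero]
  smul_mem' := by
    intro c T hT g
    rw [LinearMap.smul_comp, LinearMap.comp_smul, hT g]

theorem mem_invSub (ω : G →* kˣ) {V : Type} [AddCommGroup V] [Module k V]
    (ρ : Representation k G V) {A : Type} [AddCommGroup A] [Module k A]
    (α : Representation k G A) (T : Module.Dual k A →ₗ[k] V) :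
    T ∈ invSub ω ρ α ↔ ∀ g φ, T (twDual ω α g φ) = ρ g (T φ) := by
  constructor
  · intro h g φ
    exact LinearMap.congr_fun (h g) φ
  · intro h g
    exact LinearMap.ext (h g)

/-- `Ψ(A) = dim Hom_G(A*(ω), V)`. -/
def psi (ω : G →* kˣ) {V : Type} [AddCommGroup V] [Module k V] (ρ : Representation k G V)
    (A : Rep.{0} k G) : ℤ :=
  (finrank k ↥(invSub ω ρ A.ρ) : ℤ)

/-- `V^{D,ω} = {v | ρ d v = ω(d) v for all d ∈ D}`. -/
def twFix (ω : G →* kˣ) {V : Type} [AddCommGroup V] [Module k V] (ρ : Representation k G V)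
    (D : Set G) : Submodule k V where
  carrier := {v | ∀ d ∈ D, ρ d v = ((ω d : kˣ) : k) • v}
  add_mem' := by
    intro v w hv hw d hd
    rw [map_add, hv d hd, hw d hd, smul_add]
  zero_mem' := by
    intro d _
    rw [map_zero, smul_zero]
  smul_mem' := by
    intro c v hv d hd
    rw [map_smul, hv d hd, smul_comm]

/-- The one-dimensional representation `ω`. -/
def charRep (ω : G →* kˣ) : Representation k G k where
  toFun g := ((ω g : kˣ) : k) • LinearMap.id
  map_one' := by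
    rw [map_one, Units.val_one, one_smul]
    rfl
  map_mul' g h := by
    apply LinearMap.ext
    intro x
    show ((ω (g * h) : kˣ) : k) * x = ((ω g : kˣ) : k) * (((ω h : kˣ) : k) * x)
    rw [map_mul, Units.val_mul, mul_assoc]

theorem charRep_apply (ω : G →* kˣ) (g : G) (x : k) : charRep ω g x = ((ω g : kˣ) : k) * x := rfl

/-- Relative projectivity: `∑_g ρ(g) s₀ ρ(g)⁻¹ = id`. -/
def IsRelProj {V : Type} [AddCommGroup V] [Module k V] (ρ : Representation k G V)
    (s₀ : V →ₗ[k] V) : Prop :=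
  ∀ [Fintype G], ∀ v, ∑ g : G, ρ g (s₀ (ρ g⁻¹ v)) = v

end defs

/-! ### The leaves -/

/-- **PSIADD**: `Ψ` is additive and isomorphism-invariant when `V` is relatively projective.
(`0 → Hom_G(A₁*(ω), V) → Hom_G(A*(ω), V) → Hom_G(A₂*(ω), V) → 0` for `A₁ ≤ A`, `A₂ = A/A₁`:
`T₁ ↦ T₁ ∘ restriction`, `T ↦ T ∘ (mkQ).dualMap`; onto: for invariant `T₂` take a linear lift
`Y` of `s₀ ∘ T₂` along `(mkQ).dualMap` (injective) and average,
`T = ∑_g ρ(g) ∘ Y ∘ twDual ω α g⁻¹`.) -/
def Stmt_PSIADD : Prop :=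
  ∀ (k : Type) [Field k] (G : Type) [Group G] [Finite G] (ω : G →* kˣ)
    (V : Type) [AddCommGroup V] [Module k V] [FiniteDimensional k V]
    (ρ : Representation k G V) (s₀ : V →ₗ[k] V), IsRelProj ρ s₀ →
    IND.IsAdditiveFn k G (psi ω ρ)

/-- **PSIPERM**: `Ψ(k[G/D]) = dim V^{D,ω}`  (`T ↦ T (ev_{1·D})`; the evaluations `ev_x` form a
basis of `Dual (G ⧸ D → k)` and `twDual ω (permRep) g (ev_x) = ω(g) ev_{g x}`).
No projectivity needed. -/
def Stmt_PSIPERM : Prop :=
  ∀ (k : Type) [Field k] (G : Type) [Group G] [Finite G] (ω : G →* kˣ)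
    (V : Type) [AddCommGroup V] [Module k V] [FiniteDimensional k V]
    (ρ : Representation k G V) (D : Subgroup G),
    psi ω ρ (Rep.of (IND.permRep k G (G ⧸ D))) = (finrank k ↥(twFix ω ρ (D : Set G)) : ℤ)

/-- **PSICHAR**: `Ψ(k(ω)) = dim V^G`  (`Dual k` is a line on which `twDual ω (charRep ω)` is
trivial). -/
def Stmt_PSICHAR : Prop :=
  ∀ (k : Type) [Field k] (G : Type) [Group G] [Finite G] (ω : G →* kˣ)
    (V : Type) [AddCommGroup V] [Module k V] [FiniteDimensional k V]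
    (ρ : Representation k G V),
    psi ω ρ (Rep.of (charRep ω)) = (finrank k ↥(ρ.invariants) : ℤ)

/-- **HIGMAN** (norm form; helper47): for relatively projective `V` and every subgroup `D`,
`dim V^{D,ω} = dim (V*(ω))^D`. -/
def Stmt_HIGMAN : Prop :=
  ∀ (p : ℕ) [Fact p.Prime] (G : Type) [Group G] [Finite G] (ω : G →* (ZMod p)ˣ)
    (V : Type) [AddCommGroup V] [Module (ZMod p) V] [FiniteDimensional (ZMod p) V]
    (ρ : Representation (ZMod p) G V) (s₀ : V →ₗ[ZMod p] V), IsRelProj ρ s₀ →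
    ∀ D : Subgroup G, finrank (ZMod p) ↥(twFix ω ρ (D : Set G)) =
      finrank (ZMod p) ↥(fixedSub p (D : Set G) (twDual ω ρ))

/-- **LINK** (Kummer classes give equivariant homomorphisms): for `κ` as in `Stmt_KUM`
(injective, equivariant) and `V = Ind_B^G W`, `p ∤ #B`, there is an injective linear map
`Hom_G(U*(ω), V) → EqLevHom p S L ρ B W`, namely `T ↦ (σ ↦ e (T (u ↦ κ u σ)))` with `e` the
projector of `EC.H47.exists_indProj`.
(`h_T σ := T (u ↦ κ u σ)` is additive and of level `S` (the common level of `κ u_i`, `u_i` a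
basis), `h_T (g σ g⁻¹) = ρ(g) h_T(σ)`; `T ↦ h_T` is injective because the functionals
`u ↦ κ u σ` span `Dual U` (`κ` injective); `h ↦ e ∘ h` is injective on equivariant `h` since
`#B • h σ = ∑_g ρ(g) e (h (g⁻¹ σ g))`.) -/
def Stmt_LINK : Prop :=
  ∀ (p : ℕ) [Fact p.Prime] (S : Finset Nat.Primes), pPrime p ∈ S →
    ∀ (L : IntermediateField ℚ (AlgebraicClosure ℚ)) [Normal ℚ L] [FiniteDimensional ℚ L]
      (hL : IsGalLevel p S L),
      FiniteDimensional (ZMod p) (UmodP p S L) →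
      ∀ κ : UmodP p S L →ₗ[ZMod p] (↥L.fixingSubgroup → ZMod p),
        Function.Injective κ → (∀ u, κ u ∈ LevHom p S L (ZMod p)) →
        (∀ (g : GQ) (u : UmodP p S L) (σ : ↥L.fixingSubgroup),
          κ (unitRep p S L (resL L g) u) (conjL L g σ) =
            ((cycloChar p g : (ZMod p)ˣ) : ZMod p) * κ u σ) →
      ∀ (V : Type) [AddCommGroup V] [Module (ZMod p) V] [FiniteDimensional (ZMod p) V]
        (ρ : Representation (ZMod p) (GalL L) V) (B : Subgroup (GalL L))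
        (W : Submodule (ZMod p) V),
        ¬ p ∣ Nat.card B → IND.IsInducedFrom ρ B W →
        ∃ f : ↥(invSub (omegaHom hL) ρ (unitRep p S L)) →ₗ[ZMod p] ↥(EqLevHom p S L ρ B W),
          Function.Injective f

/-- **BNREL** (Brauer-Nesbitt applied to the equivariant unit theorem): for every additive
function `F`,  `F(U) + F(𝟙) = F(𝔽(ω)) + ∑_{q ∈ S} F(𝔽[G/D_q]) + F(𝔽[G/D_∞])`.
(`Stmt_UBR` and `IND.H74.stmt_PERM` give the relation between Brauer characters at `p`-regular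
elements, `IND.brauer_pow_card_pow` at all elements; `IND.H74.stmt_BN`.) -/
def Stmt_BNREL : Prop :=
  Stmt_UBR →
  ∀ (p : ℕ) [Fact p.Prime], p ≠ 2 → ∀ (S : Finset Nat.Primes), pPrime p ∈ S →
    ∀ (L : IntermediateField ℚ (AlgebraicClosure ℚ)) [Normal ℚ L] [FiniteDimensional ℚ L]
      (hL : IsGalLevel p S L) (F : Rep.{0} (ZMod p) (GalL L) → ℤ),
      IND.IsAdditiveFn (ZMod p) (GalL L) F →
      F (Rep.of (unitRep p S L)) +
          F (Rep.of (IND.permRep (ZMod p) (GalL L) (GalL L ⧸ (⊤ : Subgroup (GalL L))))) =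
        F (Rep.of (charRep (omegaHom hL))) +
          ∑ q ∈ S, F (Rep.of (IND.permRep (ZMod p) (GalL L) (GalL L ⧸ decL L q))) +
          F (Rep.of (IND.permRep (ZMod p) (GalL L) (GalL L ⧸ decInf L)))

end Fermat.Agent.S56.EC.KDT

end

end
-- ==== END Fermat.Agent.S56.EC.KDT.Defs_KDO

-- ==== BEGIN Fermat.Agent.S56.FL.H15_CC2Final
section

set_option autoImplicit false
set_option linter.style.haveILetI false

/-!
# LOC-p-FL, package UNITS / CC2: `stmt_CC2 : Stmt_CC2`

Wiring of the leaves: `INERT`, `ELL0`, `LEVX`, `PHI2`, `PE0` (helper61), `LEADCNT` (helper85, with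
`CNT` of helper61), `TOP` (helper50), `ASM` (helper59), `FROB`, `KUMBDD` (helper59) and the level
analysis (helper15).
-/

noncomputable section

namespace Fermat.Agent.S56.FL.H15

open Fermat.Agent.S56.FL

theorem stmt_TOP : Stmt_TOP := fun _ _ hp2 _ _ _ _ _ _ _ hk _ hg _ hw _ hn =>
  CoreCtx.psi_eq_zero_of_witAt hp2 hk hg hw hn

theorem stmt_ELL0 : Stmt_ELL0 := fun p _ k _ _ _ => H61.exists_ell0 p k

theorem stmt_LEVX : Stmt_LEVX := fun _ _ K _ _ hζK hζ1 hζp => H61.exists_levCtx K hζK hζ1 hζp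

theorem stmt_PHI2 : Stmt_PHI2 := fun _ _ K _ hK G₂ hsq => H61.exists_frob_sq K hK G₂ hsq

theorem stmt_PE0 : Stmt_PE0 := fun _ _ _ _ _ _ _ hg => H61.not_dvd_e₀ hg

/-- **CC2-core.** -/
theorem stmt_CC2core : Stmt_CC2core :=
  core_of H61.stmt_INERT H85.stmt_LEADCNT stmt_TOP stmt_ELL0 stmt_LEVX stmt_PHI2 stmt_PE0

/-- **CC2z.** -/
theorem stmt_CC2z : Stmt_CC2z := H59.stmt_CC2z_of_core stmt_CC2core

/-- **CC2**: `Stmt_CC2` of `Fermat/Agent/S56/FL/Coh.lean`. -/
theorem stmt_CC2 : Stmt_CC2 := stmt_CC2_of_z stmt_CC2z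

end Fermat.Agent.S56.FL.H15

end

end
-- ==== END Fermat.Agent.S56.FL.H15_CC2Final

-- ==== BEGIN Fermat.Agent.S56.FL.H50_CohSSFinal
section

set_option autoImplicit false

/-!
# LOC-p-FL, package COH-SS (helper50): `Stmt_COH_SS` from `Stmt_CC2` alone
(`Stmt_CC0` and `Stmt_Tame` are proved by helper38).
-/

namespace Fermat.Agent.S56.FL.H50

open Fermat.Agent.S56.FL

theorem stmt_COH_SS_of_CC2 (h2 : Stmt_CC2) : Stmt_COH_SS :=
  SS.stmt_COH_SS_of H38.stmt_CC0 h2 H38.stmt_Tame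

end Fermat.Agent.S56.FL.H50

end
-- ==== END Fermat.Agent.S56.FL.H50_CohSSFinal

-- ==== BEGIN Fermat.Agent.S56.GWC.H64_BaseB1
section

set_option autoImplicit false
set_option linter.unusedSectionVars false
set_option linter.unusedSimpArgs false
set_option linter.unusedVariables false

open CategoryTheory groupCohomology ExtCitation Module

noncomputable section

namespace Fermat.Agent.S56.GWC.H64

open Fermat.Agent.S55 Fermat.Agent.S55.Top Fermat.Agent.S55.Top.OrbitData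

attribute [local instance] locAct

variable {k : Type} [Field k] {S : Finset Nat.Primes}
  {K : IntermediateField ℚ (AlgebraicClosure ℚ)}

/-! ### The cone Shapiro map in degree 1 -/

/-- `Sh₁`: cone 1-cochains of `FX` → `K`-level cone 1-cochains,
`(B, M) ↦ (sh B, sh (M - hty B))`. -/
def sh1c (𝔓 : PlaceSys S K) (y : C1c S (FX k K)) : 𝔓.C1 k :=
  (𝔓.shK₁ y.1, fun q => (𝔓.loc q).sh0 ((y.2 q : XK K → k) - 𝔓.glob.hty1 y.1))

variable {𝔓 : PlaceSys S K}

lemma indK₁_zero' : 𝔓.indK₁ (0 : ↥K.fixingSubgroup → k) = 0 := by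
  unfold PlaceSys.indK₁
  rw [eG₁_zero]
  rfl

/-- the restriction of `ind (sh B)` to the local group at `q` is the coboundary of
`M_q - hty B`. -/
lemma res_indK₁_shK₁ {y : C1c S (FX k K)} (hy : IsZ1c S (FX k K) y) (q : ↥S) :
    resOne q.1 (𝔓.indK₁ (𝔓.shK₁ y.1)) =
      d0 (Γ := Gl q.1) ((y.2 q : XK K → k) - 𝔓.glob.hty1 y.1) := by
  have h1 := sub_indK₁_shK₁ (𝔓 := 𝔓) hy.1
  have h2 : 𝔓.indK₁ (𝔓.shK₁ y.1) =
      (y.1 : _root_.Fermat.Agent.S56.GQ → XK K → k) - dZero (FX k K) (𝔓.glob.hty1 y.1) := by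
    rw [← h1]
    abel
  rw [h2, resOne_sub', d0_sub, ← dZeroL_FX, ← dZeroL_FX, ← hy.2 q]
  rfl

theorem isZ1cK_sh1c {y : C1c S (FX k K)} (hy : IsZ1c S (FX k K) y) :
    IsZ1cK 𝔓 (sh1c 𝔓 y) := by
  refine ⟨isZ1K_shK₁ hy.1, fun q w => ?_⟩
  have h1 := congrFun (𝔓.sh_res_ind₁ q (𝔓.shK₁ y.1)) w
  show 𝔓.res₁ q w (𝔓.shK₁ y.1) = 0
  rw [← h1, res_indK₁_shK₁ hy q]
  funext h
  show d0 (Γ := Gl q.1) ((y.2 q : XK K → k) - 𝔓.glob.hty1 y.1) h.1 ((𝔓.loc q).rep w) = 0
  simp only [d0, 𝔓.loc_stab_inv q w h, sub_self]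

/-- the cone homotopy in degree 1. -/
theorem sub_U₁_sh1c {y : C1c S (FX k K)} (hy : IsZ1c S (FX k K) y) :
    y - 𝔓.U₁ (sh1c 𝔓 y) = bdry S (FX k K) (𝔓.glob.hty1 y.1) := by
  refine Prod.ext ?_ (funext fun q => ?_)
  · exact sub_indK₁_shK₁ (𝔓 := 𝔓) hy.1
  · show (y.2 q : XK K → k) - ((𝔓.loc q).ind0 ((𝔓.loc q).sh0
        ((y.2 q : XK K → k) - 𝔓.glob.hty1 y.1)) +
        (𝔓.loc q).hty1 (resOne q.1 (𝔓.indK₁ (𝔓.shK₁ y.1)))) = 𝔓.glob.hty1 y.1
    rw [res_indK₁_shK₁ hy q]
    funext x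
    have h := (𝔓.loc q).hty_zero ((y.2 q : XK K → k) - 𝔓.glob.hty1 y.1) x
    simp only [Pi.sub_apply, Pi.add_apply] at h ⊢
    linear_combination h

theorem isB1c_U₁ {y : 𝔓.C1 k} (hy : IsB1cK 𝔓 y) : IsB1c S (FX k K) (𝔓.U₁ y) := by
  obtain ⟨m, h1, h2⟩ := hy
  refine ⟨(fun _ => m : XK K → k), ?_, fun q => ?_⟩
  · show 𝔓.indK₁ y.1 = dZero (FX k K) (fun _ => m : XK K → k)
    rw [h1, indK₁_zero']
    funext g x
    show (0 : k) = ((FX k K).ρ g (fun _ => m : XK K → k) : XK K → k) x - m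
    rw [FX_rho_apply, sub_self]
  · show (𝔓.loc q).ind0 (y.2 q) + (𝔓.loc q).hty1 (resOne q.1 (𝔓.indK₁ y.1)) = fun _ => m
    rw [h1, indK₁_zero']
    funext x
    show y.2 q ((𝔓.loc q).o x) + 0 = m
    rw [h2, add_zero]

/-! ### Linearity of `cB1` in the cone variable -/

lemma cB1_sub_right (A : _root_.Fermat.Agent.S56.GQ × _root_.Fermat.Agent.S56.GQ → XK K → k) (y y' : C1c S (FX k K)) :
    cB1 A (y - y') = cB1 A y - cB1 A y' := by
  refine Prod.ext (funext fun t => funext fun z => ?_)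
    (funext fun q => funext fun t => funext fun z => ?_)
  · simp only [cB1, cup21, Prod.fst_sub, Pi.sub_apply]
    ring
  · simp only [cB1, cup20, Prod.snd_sub, Pi.sub_apply]
    ring

variable {χ : _root_.Fermat.Agent.S56.GQ →* kˣ} (𝔲 : Untwist χ K) [Fintype (XK K)] [DecidableEq (XK K)]

lemma mapC1_oc_co' (y : C1c S (Md χ (FX k K))) :
    mapC1 𝔲.ocLin (mapC1 𝔲.coLin y : C1c S (FX k K)) = y := by
  refine Prod.ext (funext fun t => ?_) (funext fun q => ?_)
  · exact 𝔲.ocLin_coLin _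
  · exact 𝔲.ocLin_coLin _

/-! ### `β¹mono` for `FX` -/

theorem betaOneMono_FX (hK : K.IsUnramifiedOutside S) (tr : Trace S χ) (hχ : LevChar S χ)
    (h : H48.BetaOneMonoConeK (𝔓.trK 𝔲 hK tr)) : BetaOneMono tr (FX k K) := by
  intro y hy hpair
  have hY : IsZ1c S (FX k K) (mapC1 𝔲.coLin y) := H48.isZ1c_push 𝔲.coHom hy
  have hYK : IsZ1cK 𝔓 (sh1c 𝔓 (mapC1 𝔲.coLin y)) := isZ1cK_sh1c hY
  have hB : IsB1c S (FX k K) (mapC1 𝔲.coLin y - 𝔓.U₁ (sh1c 𝔓 (mapC1 𝔲.coLin y))) :=
    (isB1c_iff_bdry _).2 ⟨_, sub_U₁_sh1c hY⟩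
  have hBK : IsB1cK 𝔓 (sh1c 𝔓 (mapC1 𝔲.coLin y)) := h _ hYK (fun a ha => by
    have haQ : IsZ2S S (FX k K) (𝔓.indK₂ a) := isZ2S_indK₂ hK ha
    rw [𝔓.trK_apply, 𝔲.tr_sumC3_eq tr (isB3c_adjB1 hK ha hYK)]
    have e1 : cB1 (𝔓.indK₂ a) (𝔓.U₁ (sh1c 𝔓 (mapC1 𝔲.coLin y))) =
        cB1 (𝔓.indK₂ a) (mapC1 𝔲.coLin y) -
          cB1 (𝔓.indK₂ a) (mapC1 𝔲.coLin y - 𝔓.U₁ (sh1c 𝔓 (mapC1 𝔲.coLin y))) := by
      rw [← cB1_sub_right, sub_sub_cancel]
    rw [e1, map_sub, map_sub]
    have e2 : tr.toFun (𝔲.sumC3 (cB1 (𝔓.indK₂ a) (mapC1 𝔲.coLin y))) = 0 := by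
      have := hpair (𝔓.indK₂ a) haQ
      rw [𝔲.cupB1_eq] at this
      exact this
    have e3 : tr.toFun (𝔲.sumC3 (cB1 (𝔓.indK₂ a)
        (mapC1 𝔲.coLin y - 𝔓.U₁ (sh1c 𝔓 (mapC1 𝔲.coLin y))))) = 0 := by
      have hb := isB1c_push 𝔲.ocHom hB
      obtain ⟨m, hm⟩ := (isB1c_iff_bdry _).1 hb
      have := tr_cupB1_bdry (fun F hF => H48.exists_normal_level S F hF) hχ (FX k K)
        (lev_FX hK) tr haQ m
      rw [← hm, 𝔲.cupB1_eq] at this
      have e : mapC1 𝔲.coLin (mapC1 (S := S) 𝔲.ocHom.hom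
          (mapC1 𝔲.coLin y - 𝔓.U₁ (sh1c 𝔓 (mapC1 𝔲.coLin y)))) =
          mapC1 𝔲.coLin y - 𝔓.U₁ (sh1c 𝔓 (mapC1 𝔲.coLin y)) := 𝔲.mapC1_co_oc _
      rw [e] at this
      exact this
    rw [e2, e3, sub_zero])
  have hYB : IsB1c S (FX k K) (mapC1 𝔲.coLin y) := by
    obtain ⟨m₁, hm₁⟩ := (isB1c_iff_bdry _).1 hB
    obtain ⟨m₂, hm₂⟩ := (isB1c_iff_bdry _).1 (isB1c_U₁ hBK)
    refine (isB1c_iff_bdry _).2 ⟨m₁ + m₂, ?_⟩
    rw [bdry_add, ← hm₁, ← hm₂, sub_add_cancel]
  have := isB1c_push 𝔲.ocHom hYB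
  have e : mapC1 (S := S) 𝔲.ocHom.hom (mapC1 𝔲.coLin y : C1c S (FX k K)) = y :=
    mapC1_oc_co' 𝔲 y
  rw [e] at this
  exact this

/-! ### The base export -/

/-- **Package B1M-base**, from `TopQ0`, `TopK` and the cone side of `β¹mono` at `K`-level. -/
theorem stmt_B1M_base_of (hQ : Top.Stmt_TopQ0) (hT : Top.Stmt_TopK)
    (hC : Top.H48.Stmt_TopK_cone) : Stmt_B1M_base := by
  intro p _ hp2 S hpS K hK hidx
  classical
  have : Finite (XK K) := finite_XK hK.1
  let _ : Fintype (XK K) := Fintype.ofFinite _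
  have hχ : LevChar S (cycloChar p) := H48.stmt_levChar p S hpS
  obtain ⟨z, hz, hzB⟩ := hQ p hp2 S hpS
  have hzB' : z ∉ B3cSub S (kχ (cycloChar p)) := hzB
  obtain ⟨φ, hφB, hφz⟩ := H48.exists_functional_sep (B3cSub S (kχ (cycloChar p))) hzB'
  have hcard := card_XK_ne_zero (p := p) (K := K) hidx
  have hne := trK_ne_zero (𝔓 := placeSysOut S K)
    ((placeSysOut S K).untwist (cycloChar p) (cycloChar_eq_one_of_baseField hK)) hK.1
    (⟨φ, fun x hx => hφB x hx⟩ : Trace S (cycloChar p)) hcard hz hφz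
  obtain ⟨hA2, hA3, hB1, hB2⟩ := hT p hp2 S hpS K hK (placeSysOut S K) _ hne
  have hB1m := hC p hp2 S hpS K hK (placeSysOut S K) _ hne
  have hr := H48.stmt_E2 (ZMod p) S (cycloChar p)
    (⟨φ, fun x hx => hφB x hx⟩ : Trace S (cycloChar p)) (permRep (ZMod p) K) (FX (ZMod p) K)
    isRetract_perm_FX
  exact ⟨⟨φ, fun x hx => hφB x hx⟩,
    hr.1 (alphaTwoEpi_FX _ hK.1 _ hχ hA2), hr.2.1 (alphaThreeMono_FX _ hK.1 _ hA3),
    hr.2.2.1 (betaOneEpi_FX _ hK.1 _ hχ hB1), hr.2.2.2 (betaTwoMono_FX _ hK.1 _ hχ hB2),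
    stmt_B1M_ret (ZMod p) S (cycloChar p) _ (permRep (ZMod p) K) (FX (ZMod p) K)
      isRetract_perm_FX (betaOneMono_FX _ hK.1 _ hχ hB1m)⟩

end Fermat.Agent.S56.GWC.H64

end
end
-- ==== END Fermat.Agent.S56.GWC.H64_BaseB1

-- ==== BEGIN Fermat.Agent.S56.GWC.H64_INV5
section

set_option autoImplicit false

open CategoryTheory Module groupCohomology ExtCitation

noncomputable section

namespace Fermat.Agent.S56.GWC.H64

open Fermat.Agent.S55 Fermat.Agent.S56 Fermat.Agent.S56.GWC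

/-- `k(χ)` has level `S` if `χ` has. -/
lemma lev_kχ {k : Type} [Field k] {S : Finset Nat.Primes} {χ : _root_.Fermat.Agent.S56.GQ →* kˣ} (hχ : LevChar S χ) :
    Lev S (kχ χ) := by
  obtain ⟨F, hF, h⟩ := hχ
  refine ⟨F, hF, fun s hs m => ?_⟩
  rw [kχ_rho, h s hs]
  simp

/-- **INV** from the three packages. -/
theorem stmt_INV_of_packages (hA : Stmt_INV_A) (hB : Stmt_INV_B) (hU : Stmt_UR2) : Stmt_INV := by
  refine stmt_INV_of fun p _ hp2 => ?_
  refine invFamily_of (pPrime p) (hA p hp2) ?_ ?_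
  · obtain ⟨c, hc, hl, hn⟩ := hB p hp2
    exact ⟨c, ⟨hc, hl⟩, hn⟩
  · intro S₀ hpS z hz q hq
    exact hU p (ZMod p) S₀ (kχ (cycloChar p)) (lev_kχ (H48.stmt_levChar p S₀ hpS)) z hz q hq

end Fermat.Agent.S56.GWC.H64

end

end
-- ==== END Fermat.Agent.S56.GWC.H64_INV5
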