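-- GENERATED (merged mirror, NOTES/tools/trim/merge3_helper67.py): 11 modules of the originals, bodies verbatim.
import Fermat.Agent.Zm.S56_L07_000
import Fermat.Agent.Zm.S56_L07_002
import Fermat.Agent.Zm.S56_L17_000
import Fermat.Agent.S55.CFT.H13_H3UAbs
import Fermat.Agent.Zm.S56_L04_001
import Fermat.Agent.Zm.S56_L10_000
import Fermat.Agent.Zm.S56_L12_000
import Fermat.Agent.Zm.S56_L07_001
import Fermat.Agent.Zm.S56_L08_001
import Fermat.Agent.Zm.S56_L11_000
import Fermat.Agent.Zm.S56_L05_000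
import Fermat.Agent.Zm.S56_L01_002
import Fermat.Agent.Zm.S56_L01_001
import Fermat.Agent.Zm.S56_L05_001
import Fermat.Agent.Zm.S56_L06_002
import Fermat.Agent.Zm.S56_L10_001
import Fermat.Agent.Zm.S56_L11_001
import Fermat.Agent.Zm.S56_L17_001

-- ==== BEGIN Fermat.Agent.S55.CFT.GS.H19_BrTwoG
section

set_option autoImplicit false
set_option linter.style.haveILetI false
set_option linter.unusedSectionVars false

open NumberField TensorProduct CategoryTheory

noncomputable section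

namespace Fermat.Agent.S55.CFT.GS.H19

open Fermat.Agent.S55.CFT groupCohomology

/-! ### Cyclotomic towers -/

/-- `K(ζ_{p^a})(ζ_{p^b}) = K(ζ_{p^{max a b}})`. -/
theorem isCyclotomicExtension_tower (p a b : ℕ) (hp : p.Prime) (K L N : Type) [Field K]
    [Field L] [Field N] [Algebra K L] [Algebra K N] [Algebra L N] [IsScalarTower K L N]
    [IsCyclotomicExtension {p ^ a} K L] [IsCyclotomicExtension {p ^ b} L N] :
    IsCyclotomicExtension {p ^ max a b} K N := by
  haveI : NeZero (p ^ a) := ⟨pow_ne_zero _ hp.ne_zero⟩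
  haveI : NeZero (p ^ b) := ⟨pow_ne_zero _ hp.ne_zero⟩
  have h1 : IsCyclotomicExtension ({p ^ a} ∪ {p ^ b}) K N :=
    IsCyclotomicExtension.trans {p ^ a} {p ^ b} K L N (algebraMap L N).injective
  rcases le_total a b with hab | hab
  · rw [max_eq_right hab]
    rw [Set.union_comm] at h1
    exact (IsCyclotomicExtension.iff_union_of_dvd (S := {p ^ b}) (n := p ^ a) K N
      ⟨p ^ b, rfl, pow_ne_zero _ hp.ne_zero, pow_dvd_pow p hab⟩).2 h1
  · rw [max_eq_left hab]
    exact (IsCyclotomicExtension.iff_union_of_dvd (S := {p ^ a}) (n := p ^ b) K N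
      ⟨p ^ a, rfl, pow_ne_zero _ hp.ne_zero, pow_dvd_pow p hab⟩).2 h1

/-- For `M₂ ≤ M`, a model of `K(ζ_{p^{M₂}})` embeds into every model of `K(ζ_{p^M})`. -/
theorem exists_algHom_of_le (p M₂ M : ℕ) (hp : p.Prime) (hM : M₂ ≤ M) (K N' N : Type) [Field K]
    [Field N'] [Field N] [Algebra K N'] [Algebra K N] [IsCyclotomicExtension {p ^ M₂} K N']
    [IsCyclotomicExtension {p ^ M} K N] : Nonempty (N' →ₐ[K] N) := by
  haveI : NeZero (p ^ M) := ⟨pow_ne_zero _ hp.ne_zero⟩
  haveI : NeZero (p ^ M₂) := ⟨pow_ne_zero _ hp.ne_zero⟩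
  haveI : Algebra.IsIntegral K N := IsCyclotomicExtension.integral {p ^ M} K N
  have hζ := IsCyclotomicExtension.zeta_spec (p ^ M) K N
  have hζ' : IsPrimitiveRoot (IsCyclotomicExtension.zeta (p ^ M) K N ^ (p ^ (M - M₂)))
      (p ^ M₂) := by
    refine hζ.pow (pow_pos hp.pos _) ?_
    rw [← pow_add]
    congr 1
    omega
  haveI := hζ'.intermediateField_adjoin_isCyclotomicExtension K
  exact ⟨(IntermediateField.val _).comp
    (IsCyclotomicExtension.algEquiv {p ^ M₂} K N'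
      ↥(IntermediateField.adjoin K
        {IsCyclotomicExtension.zeta (p ^ M) K N ^ (p ^ (M - M₂))})).toAlgHom⟩

/-! ### The core -/

theorem brTwoG_core (hTwo : Stmt_BrTwo) (hOne : Stmt_BrOne) (hHasse : Stmt_BrHasse)
    (p M₁ : ℕ) (K L : Type) [Field K] [Field L] [NumberField K] [NumberField L] [Algebra K L]
    (hp : p.Prime) (hodd : p ≠ 2) (hz : ∃ ζ : K, IsPrimitiveRoot ζ p)
    [hcyc : IsCyclotomicExtension {p ^ (M₁ + 1)} K L] (v₁ v₂ : Place K) (hne : v₁ ≠ v₂)
    (hdeg : p * Nat.card (MaximalSpectrum (LocAlg K L v₁)) ∣ Module.finrank K L) :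
    ∃ M₀ : ℕ, ∀ M : ℕ, M₀ ≤ M → ∀ (N : Type) [Field N] [NumberField N] [Algebra K N],
      IsCyclotomicExtension {p ^ M} K N →
      ∃ x : groupCohomology (repL K N) 2, (p : ℤ) • x = 0 ∧ locMap K N v₁ 2 x ≠ 0 ∧
        ∀ v : Place K, v ≠ v₁ → v ≠ v₂ → locMap K N v 2 x = 0 := by
  classical
  haveI : Fact p.Prime := ⟨hp⟩
  haveI hgL : IsGalois K L := IsCyclotomicExtension.isGalois {p ^ (M₁ + 1)} K L
  haveI : Normal K L := hgL.to_normal
  obtain ⟨m, hm⟩ := H96.finrank_eq_prime_pow p M₁ hp K L hz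
  have h3 : Hyp3 K L p m := ⟨hp, hodd, hz, hgL, hm⟩
  -- a local class of order `p`
  obtain ⟨-, hfin, hcard, -, -⟩ := H58.stmt_SHL p m K L h3 v₁
  haveI := hfin
  have hpd : p ∣ Nat.card (groupCohomology (repJv K L v₁) 2) := by
    have hpos : 0 < Nat.card (MaximalSpectrum (LocAlg K L v₁)) := by
      rcases Nat.eq_zero_or_pos (Nat.card (MaximalSpectrum (LocAlg K L v₁))) with h0 | h0
      · rw [h0, mul_zero] at hcard
        exact absurd hcard.symm (Module.finrank_pos).ne'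
      · exact h0
    rw [← hcard] at hdeg
    exact Nat.dvd_of_mul_dvd_mul_right hpos hdeg
  obtain ⟨b, hb⟩ := exists_prime_addOrderOf_dvd_card' p hpd
  have hb0 : b ≠ 0 := by
    rintro rfl
    rw [addOrderOf_zero] at hb
    exact hp.one_lt.ne hb
  have hpb : p • b = 0 := by
    rw [← hb]
    exact addOrderOf_nsmul_eq_zero b
  -- the global class over `N' = L(ζ_{p^{M'}})`
  obtain ⟨M', hneM', x', hx1, hx2⟩ := hTwo p m K L h3 v₁ v₂ hne b
  haveI := hneM'
  haveI hcycN' : IsCyclotomicExtension {p ^ max (M₁ + 1) M'} K (CyclotomicField (p ^ M') L) :=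
    isCyclotomicExtension_tower p (M₁ + 1) M' hp K L (CyclotomicField (p ^ M') L)
  haveI hgN' : IsGalois K (CyclotomicField (p ^ M') L) :=
    IsCyclotomicExtension.isGalois {p ^ max (M₁ + 1) M'} K (CyclotomicField (p ^ M') L)
  haveI : Normal K (CyclotomicField (p ^ M') L) := hgN'.to_normal
  obtain ⟨m', hm'⟩ : ∃ m', Module.finrank K (CyclotomicField (p ^ M') L) = p ^ m' := by
    obtain ⟨M₂, hM₂⟩ : ∃ M₂, max (M₁ + 1) M' = M₂ + 1 :=
      ⟨max (M₁ + 1) M' - 1, (Nat.sub_add_cancel (le_trans (Nat.le_add_left 1 M₁)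
        (le_max_left _ _))).symm⟩
    haveI : IsCyclotomicExtension {p ^ (M₂ + 1)} K (CyclotomicField (p ^ M') L) := by
      rw [← hM₂]
      exact hcycN'
    exact H96.finrank_eq_prime_pow p M₂ hp K (CyclotomicField (p ^ M') L) hz
  have h3' : Hyp3 K (CyclotomicField (p ^ M') L) p m' := ⟨hp, hodd, hz, hgN', hm'⟩
  have hinj := H58.stmt_InfJvInj K L (CyclotomicField (p ^ M') L) hgL hgN' v₁
  have hloc1 : locMap K (CyclotomicField (p ^ M') L) v₁ 2 x' ≠ 0 := by
    rw [hx1]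
    intro h0
    exact hb0 (hinj (h0.trans (map_zero _).symm))
  have hout : ∀ v : Place K, v ≠ v₂ →
      locMap K (CyclotomicField (p ^ M') L) v 2 ((p : ℤ) • x') = 0 := by
    intro v hv
    rw [map_zsmul]
    by_cases hv1 : v = v₁
    · subst hv1
      rw [hx1, ← map_zsmul, natCast_zsmul, hpb, map_zero]
    · rw [hx2 v hv1 hv]
      exact zsmul_zero _
  have hpx' : (p : ℤ) • x' = 0 := by
    apply hHasse p m' K (CyclotomicField (p ^ M') L) h3'
    intro v
    by_cases hv : v = v₂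
    · subst hv
      exact hOne p m' K (CyclotomicField (p ^ M') L) h3' _ v hout
    · exact hout v hv
  -- inflation to the models of `K(ζ_{p^M})`, `M ≥ M₀`
  refine ⟨max (M₁ + 1) M', fun M hM N _ _ _ hcycN => ?_⟩
  haveI := hcycN
  obtain ⟨φ⟩ := exists_algHom_of_le p (max (M₁ + 1) M') M hp hM K (CyclotomicField (p ^ M') L) N
  letI : Algebra (CyclotomicField (p ^ M') L) N := φ.toRingHom.toAlgebra
  haveI : IsScalarTower K (CyclotomicField (p ^ M') L) N :=
    IsScalarTower.of_algebraMap_eq (fun x => (φ.commutes x).symm)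
  haveI hgN : IsGalois K N := IsCyclotomicExtension.isGalois {p ^ M} K N
  refine ⟨infL K (CyclotomicField (p ^ M') L) N 2 x', ?_, ?_, ?_⟩
  · rw [← map_zsmul, hpx', map_zero]
  · rw [H56.locMap_infL]
    intro h0
    exact hloc1 (H58.stmt_InfJvInj K (CyclotomicField (p ^ M') L) N hgN' hgN v₁
      (h0.trans (map_zero _).symm))
  · intro v h1 h2
    rw [H56.locMap_infL, hx2 v h1 h2, map_zero]

/-- **A-Two**: `Stmt_BrTwoG` from BR-Two, BR-One and BR-Hasse. -/
theorem stmt_BrTwoG_of (hTwo : Stmt_BrTwo) (hOne : Stmt_BrOne) (hHasse : Stmt_BrHasse) :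
    Stmt_BrTwoG := by
  intro p K _ _ hp hodd hz v₁ v₂ hne
  obtain ⟨M₁, hM₁⟩ := H96.stmt_DegGrow p 1 K hp hz v₁
  haveI : NeZero (p ^ (M₁ + 1)) := ⟨pow_ne_zero _ hp.ne_zero⟩
  have hdeg := hM₁ (M₁ + 1) (Nat.le_succ _) (CyclotomicField (p ^ (M₁ + 1)) K) inferInstance
  rw [pow_one] at hdeg
  exact brTwoG_core hTwo hOne hHasse p M₁ K (CyclotomicField (p ^ (M₁ + 1)) K) hp hodd hz
    v₁ v₂ hne hdeg

end Fermat.Agent.S55.CFT.GS.H19

end

end
-- ==== END Fermat.Agent.S55.CFT.GS.H19_BrTwoG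

-- ==== BEGIN Fermat.Agent.S55.CFT.GS.H58_PTors
section

/-!
# GS Layer A (helper58), part 1: the `p`-torsion of the semi-local `H²` is cyclic

For `L/K` finite Galois (any group) and a place `v` of `K`: two classes of
`H²(Gal(L/K), (K_v ⊗_K L)ˣ)` killed by `p` are linearly dependent modulo `p`.
(Shapiro `unitsShapiro`, Artin `fixedIso`, `LOC.H68.stmt_BrauerPTors`.)
-/

set_option autoImplicit false
set_option linter.unusedSectionVars false

noncomputable section

namespace Fermat.Agent.S55.CFT.GS.H58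

open CategoryTheory groupCohomology Rep NumberField TensorProduct
open Fermat.Agent.S55.CFT Fermat.Agent.S55.CFT.H58

section Abs

variable (q : ℕ) [Fact q.Prime] (p : ℕ) [Fact p.Prime]
  {G : Type} [Group G] [Finite G] {B : Type} [CommRing B] [MulSemiringAction G B]
  [Algebra ℚ_[q] B] [Module.Finite ℚ_[q] B] (M : Ideal B) [hM : M.IsMaximal]

theorem brauerPTors_abstract (hJ : OrbitSeparates G M)
    (hfaith : ∀ g : G, (∀ b : B, g • b - b ∈ M) → g = 1)
    (hk : ∀ (g : G) (c : ℚ_[q]), g • algebraMap ℚ_[q] B c = algebraMap ℚ_[q] B c)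
    (x y : groupCohomology (unitsRepOf G B) 2) (hx : (p : ℤ) • x = 0) (hy : (p : ℤ) • y = 0) :
    ∃ a b : ℤ, (¬ (p : ℤ) ∣ a ∨ ¬ (p : ℤ) ∣ b) ∧ a • x + b • y = 0 := by
  classical
  let _ : Field (B ⧸ M) := Ideal.Quotient.field M
  have hfaith' : ∀ d : decomp G M, (∀ x : B ⧸ M, d • x = x) → d = 1 := by
    intro d hd
    apply Subtype.ext
    apply hfaith
    intro b
    have h1 := hd (Ideal.Quotient.mk M b)
    rw [quot_smul_mk] at h1
    exact Ideal.Quotient.eq.1 h1
  have : FaithfulSMul (decomp G M) (B ⧸ M) := ⟨fun {d₁ d₂} h => by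
    have h1 : d₂⁻¹ * d₁ = 1 := hfaith' _ (fun x => by
      rw [mul_smul, h x, inv_smul_smul])
    exact (inv_mul_eq_one.1 h1).symm⟩
  have hk' : ∀ (d : decomp G M) (c : ℚ_[q]),
      d • algebraMap ℚ_[q] (B ⧸ M) c = algebraMap ℚ_[q] (B ⧸ M) c := by
    intro d c
    have h1 : algebraMap ℚ_[q] (B ⧸ M) c = Ideal.Quotient.mk M (algebraMap ℚ_[q] B c) := rfl
    rw [h1, quot_smul_mk, hk]
  let _ : Algebra ℚ_[q] (FixedPoints.subfield (decomp G M) (B ⧸ M)) :=
    fixedAlgebra (decomp G M) (B ⧸ M) ℚ_[q] hk'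
  have : FiniteDimensional ℚ_[q] (FixedPoints.subfield (decomp G M) (B ⧸ M)) :=
    fixed_finiteDimensional (decomp G M) (B ⧸ M) ℚ_[q] hk'
  let e : groupCohomology (unitsRepOf G B) 2 ≃ₗ[ℤ]
      groupCohomology (Rep.ofAlgebraAutOnUnits (FixedPoints.subfield (decomp G M) (B ⧸ M))
        (B ⧸ M)) 2 :=
    (unitsShapiro hJ 2 ≪≫ fixedIso (decomp G M) (B ⧸ M) 2).toLinearEquiv
  obtain ⟨a, b, hab, h⟩ := LOC.H68.stmt_BrauerPTors q p
    (FixedPoints.subfield (decomp G M) (B ⧸ M)) (B ⧸ M) (e x) (e y)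
    (by rw [← map_zsmul, hx, map_zero]) (by rw [← map_zsmul, hy, map_zero])
  refine ⟨a, b, hab, ?_⟩
  apply e.injective
  rw [map_add, map_zsmul, map_zsmul, map_zero]
  exact h

end Abs

section Place

variable (K L : Type) [Field K] [Field L] [NumberField K] [NumberField L] [Algebra K L]
  (v : Place K)

/-- The `p`-torsion of `H²(Gal(L/K), (K_v ⊗_K L)ˣ)` is cyclic. -/
theorem brauerPTors_place [IsGalois K L] (p : ℕ) (hp : p.Prime)
    (x y : groupCohomology (repJv K L v) 2) (hx : (p : ℤ) • x = 0) (hy : (p : ℤ) • y = 0) :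
    ∃ a b : ℤ, (¬ (p : ℤ) ∣ a ∨ ¬ (p : ℤ) ∣ b) ∧ a • x + b • y = 0 := by
  have hq : Fact ((v.1 : ℕ)).Prime := fact_primes v.1
  have hp' : Fact p.Prime := ⟨hp⟩
  obtain ⟨M, hM⟩ := Ideal.exists_maximal (LocAlg K L v)
  let e : groupCohomology (repJv K L v) 2 ≃ₗ[ℤ]
      groupCohomology (unitsRepOf (L ≃ₐ[K] L) (LocAlg K L v)) 2 :=
    (repJvIso K L v 2).toLinearEquiv
  obtain ⟨a, b, hab, h⟩ := brauerPTors_abstract (v.1 : ℕ) p M (locAlg_orbitSeparates K L v M)
    (locAlg_faithful K L v M) (locAlg_smul_algebraMap K L v) (e x) (e y)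
    (by rw [← map_zsmul, hx, map_zero]) (by rw [← map_zsmul, hy, map_zero])
  refine ⟨a, b, hab, ?_⟩
  apply e.injective
  rw [map_add, map_zsmul, map_zsmul, map_zero]
  exact h

end Place

end Fermat.Agent.S55.CFT.GS.H58

end
end
-- ==== END Fermat.Agent.S55.CFT.GS.H58_PTors

-- ==== BEGIN Fermat.Agent.S55.CFT.GS.H68_LocS_Defs3
section

set_option autoImplicit false

open CategoryTheory groupCohomology ExtCitation

noncomputable section

namespace Fermat.Agent.S55.CFT.GS.H68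

open Fermat.Agent.S55 Fermat.Agent.S55.Top Fermat.Agent.S55.CFT Fermat.Agent.S55.CFT.GS.Bri

local notation "Qb" => AlgebraicClosure ℚ

attribute [local instance] fact_primes

/-- **LOCS-DESC** (descent of the local trivialisation to the level `E = ℚ_q(j N)`):
if the inflation `c` of `f : Gal(N/K)² → Nˣ` is locally trivial at `w` (`LocTrivS`), then
`j ∘ f ∘ (res ρ_w)² = d b'` on `Γ_w` with `b'` with values in `E = ℚ_q(j N)ˣ`, invariant under
the elements of `Γ_w` fixing `j N` pointwise.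
(From `GS.Stmt_LocS_H90` with `F₀ = ℚ_q(j K)`, `E = ℚ_q(j N)`:
`h ∈ Γ_w ↔ h` fixes `j K` pointwise (`PlaceSys.mem_Γw`, `padicEmbedding_localGaloisToGlobal`, as in
`H68.glAut_jN`), so `Γ_w = F₀.fixingSubgroup`; `E` is finite over `ℚ_q` (`E` = range of
`H68.φN`) and stable under `Γ_w` (`H68.glAut_jN`); `cw = j ∘ f ∘ (res ρ_w)²` is constant modulo
`Gal(Ω/E)`; the level of `β` in the number field sense is a local level by
`LOC.H5.stmt_L5_Krasner` (b).) -/
def Stmt_LocS_Desc : Prop :=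
  ∀ (S : Finset Nat.Primes) (K N : IntermediateField ℚ Qb) (hKN : K ≤ N) [NumberField ↥K]
    [NumberField ↥(H6.NK hKN)] [IsGalois ↥K ↥(H6.NK hKN)] (𝔓 : PlaceSys S K) (q : ↥S)
    (w : 𝔓.W q)
    (f : (↥(H6.NK hKN) ≃ₐ[↥K] ↥(H6.NK hKN)) × (↥(H6.NK hKN) ≃ₐ[↥K] ↥(H6.NK hKN)) →
      (↥(H6.NK hKN))ˣ),
    LocTrivS 𝔓 q w (fun t => valU hKN (f (resG hKN t.1, resG hKN t.2))) →
    ∃ b' : 𝔓.Γw q w → PadicAlgCl (q.1 : ℕ), (∀ h, b' h ≠ 0) ∧
      (∀ h, b' h ∈ IntermediateField.adjoin ℚ_[(q.1 : ℕ)]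
        (Set.range (jN hKN q.1 (𝔓.σ q w)))) ∧
      (∀ h s : 𝔓.Γw q w,
        (∀ y : ↥(H6.NK hKN), glAut q.1 (s : Gl q.1) (jN hKN q.1 (𝔓.σ q w) y) =
          jN hKN q.1 (𝔓.σ q w) y) → b' (h * s) = b' h) ∧
      ∀ h₁ h₂ : 𝔓.Γw q w,
        jN hKN q.1 (𝔓.σ q w)
            ((f (resG hKN (𝔓.ρw q w h₁), resG hKN (𝔓.ρw q w h₂)) : (↥(H6.NK hKN))ˣ) :
              ↥(H6.NK hKN)) * b' (h₁ * h₂) =
          glAut q.1 (h₁ : Gl q.1) (b' h₂) * b' h₁

end Fermat.Agent.S55.CFT.GS.H68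

end

end
-- ==== END Fermat.Agent.S55.CFT.GS.H68_LocS_Defs3

-- ==== BEGIN Fermat.Agent.S55.CFT.H13_H3U
section

set_option autoImplicit false
set_option linter.unusedSectionVars false
set_option linter.style.haveILetI false
open NumberField TensorProduct CategoryTheory CategoryTheory.Limits

noncomputable section
namespace Fermat.Agent.S55.CFT.H13

open Fermat.Agent.S55.CFT

attribute [local instance 1100] Rep.hV2

section Main
variable (K L N : Type) [Field K] [Field L] [Field N] [NumberField K] [NumberField L]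
  [NumberField N] [Algebra K L] [Algebra L N] [Algebra K N] [IsScalarTower K L N]

/-- **FUND** with its by-product: the inflation of the fundamental class to `Gal(N/K)` comes
from `H²(Gal(N/K), J_N)`. -/
theorem fund_of_tower_lift (hCF : Stmt_CFind) (hCyc : Stmt_CycRec) (hTN : Stmt_ThetaNorm)
    (p : Nat.Primes) (m M : ℕ) [NeZero ((p : ℕ) ^ M)] [IsCyclotomicExtension {(p : ℕ) ^ M} L N]
    (T : Finset Nat.Primes)
    (hodd : (p : ℕ) ≠ 2) (hz : ∃ ζ : K, IsPrimitiveRoot ζ (p : ℕ))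
    (hdeg : Module.finrank K L = (p : ℕ) ^ m)
    (hadm : Admissible K L T p) (hadmN : Admissible K N T p)
    (x : IdeleT K T) (hx : orderOf (cycloTheta K p M T x) = (p : ℕ) ^ m) :
    haveI : IsGalois K L := hadm.gal
    haveI : IsGalois K N := hadmN.gal
    ∃ γ : groupCohomology (repC K L T) 2, (∀ k : ℕ, k • γ = 0 → (p : ℕ) ^ m ∣ k) ∧
      ∃ y : groupCohomology (repJ K N T) 2,
        (groupCohomology.map (AlgEquiv.restrictNormalHom (F := K) (K₁ := N) L)
          (infRepC K L N T) 2).hom γ =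
        (groupCohomology.map (MonoidHom.id (N ≃ₐ[K] N)) (toC K N T) 2).hom y := by
  classical
  have hp : (p : ℕ).Prime := p.2
  haveI : IsGalois K L := hadm.gal
  haveI : IsGalois K N := hadmN.gal
  haveI : IsGalois L N := IsGalois.tower_top_of_isGalois K L N
  obtain ⟨ζ, hζ⟩ : ∃ ζ : N, IsPrimitiveRoot ζ ((p : ℕ) ^ M) :=
    ⟨_, IsCyclotomicExtension.zeta_spec ((p : ℕ) ^ M) L N⟩
  haveI hcycK : IsCyclotomicExtension {(p : ℕ) ^ M} K ↥(IntermediateField.adjoin K {ζ}) :=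
    hζ.intermediateField_adjoin_isCyclotomicExtension K
  haveI : IsGalois K ↥(IntermediateField.adjoin K {ζ}) :=
    IsCyclotomicExtension.isGalois {(p : ℕ) ^ M} K _
  haveI : IsGalois ↥(IntermediateField.adjoin K {ζ}) N :=
    IsGalois.tower_top_of_isGalois K ↥(IntermediateField.adjoin K {ζ}) N
  have hmem : ζ ∈ IntermediateField.adjoin K {ζ} :=
    IntermediateField.mem_adjoin_simple_self K ζ
  have hζ' : IsPrimitiveRoot (⟨ζ, hmem⟩ : ↥(IntermediateField.adjoin K {ζ})) ((p : ℕ) ^ M) := by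
    have : IsPrimitiveRoot (algebraMap ↥(IntermediateField.adjoin K {ζ}) N ⟨ζ, hmem⟩)
        ((p : ℕ) ^ M) := hζ
    exact this.of_map_of_injective (algebraMap ↥(IntermediateField.adjoin K {ζ}) N).injective
  -- admissibility
  have hadmL : Admissible L N T p := H56.admissible_up K L N T p hadmN
  have hadmF : Admissible ↥(IntermediateField.adjoin K {ζ}) N T p :=
    H56.admissible_up K ↥(IntermediateField.adjoin K {ζ}) N T p hadmN
  obtain ⟨q, hqT, hqp⟩ := hadm.pmem
  have hq : q = p := Subtype.ext hqp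
  rw [hq] at hqT
  have hT : T.Nonempty := ⟨_, hqT⟩
  -- the symbol
  have hθu : ∀ e ∈ TUnits K T, H56.cycloThetaHom K p M T (diagIdele K T e) = 1 :=
    H56.stmt_ThetaUnits p M K T hqT hadm.cplx
  have hθn : ∀ w : IdeleT ↥(IntermediateField.adjoin K {ζ}) T,
      H56.cycloThetaHom K p M T (normLK K ↥(IntermediateField.adjoin K {ζ}) T w) = 1 := by
    intro w
    exact (H56.cycloTheta_normLK K ↥(IntermediateField.adjoin K {ζ}) p M T w).trans
      (hTN p M ↥(IntermediateField.adjoin K {ζ}) T hodd ⟨_, hζ'⟩ w)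
  -- the groups
  have hcyc : IsCyclic ((N ≃ₐ[K] N) ⧸ kerRes K ↥(IntermediateField.adjoin K {ζ}) N) :=
    isCyclic_quot_kerRes K N p M hp hodd hζ
  have hint : kerRes K L N ⊓ kerRes K ↥(IntermediateField.adjoin K {ζ}) N = ⊥ :=
    kerRes_inf_eq_bot K L N ((p : ℕ) ^ M) hζ _ hmem
  obtain ⟨m', hm'⟩ := finrank_tower_prime_pow K L N p m M hp hz hdeg
  have hS := (hCF p m' K N T hp hm' hadmN (kerRes K L N)).1
  have hS' := (hCF p m' K N T hp hm' hadmN (kerRes K ↥(IntermediateField.adjoin K {ζ}) N)).1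
  -- the class
  have hπb : (toC K N T).hom (Additive.ofMul (baseIdele K N T x) : Additive (IdeleT N T)) =
      H12.idClass K N T (baseIdele K N T x) := rfl
  have hb : ∀ g : N ≃ₐ[K] N, (repJ K N T).ρ g
      (Additive.ofMul (baseIdele K N T x) : Additive (IdeleT N T)) =
      (Additive.ofMul (baseIdele K N T x) : Additive (IdeleT N T)) := by
    intro g
    exact congrArg Additive.ofMul (H12.smul_baseIdele K N T g x)
  letI : Fintype ((N ≃ₐ[K] N) ⧸ kerRes K ↥(IntermediateField.adjoin K {ζ}) N) :=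
    Fintype.ofFinite _
  letI : Fintype (kerRes K L N) := Fintype.ofFinite _
  have h1 : ∀ k : ℕ, (∃ b : ((repC K N T).quotientToInvariants
        (kerRes K ↥(IntermediateField.adjoin K {ζ}) N)).V,
      k • (toC K N T).hom (Additive.ofMul (baseIdele K N T x) : Additive (IdeleT N T)) =
        ((∑ y : (N ≃ₐ[K] N) ⧸ kerRes K ↥(IntermediateField.adjoin K {ζ}) N,
          ((repC K N T).quotientToInvariants
            (kerRes K ↥(IntermediateField.adjoin K {ζ}) N)).ρ y b :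
          ((repC K N T).quotientToInvariants
            (kerRes K ↥(IntermediateField.adjoin K {ζ}) N)).V) : (repC K N T).V)) →
      (p : ℕ) ^ m ∣ k := by
    rintro k ⟨b, hb⟩
    rw [hπb] at hb
    have h := symbol_pow_eq_one_of_norm K ↥(IntermediateField.adjoin K {ζ}) N T hadmF.unr
      (hadmF.cl _) hT (H56.cycloThetaHom K p M T) hθu hθn x k b hb
    rw [← hx]
    exact orderOf_dvd_of_pow_eq_one h
  have h2 : ∃ b : (repC K N T).V,
      (toC K N T).hom (Additive.ofMul (baseIdele K N T x) : Additive (IdeleT N T)) =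
      ∑ s : kerRes K L N, (repC K N T).ρ (s : N ≃ₐ[K] N) b := by
    rw [hπb]
    apply class_eq_norm_of_mem_normGroup K L N T hT x
    refine (hCyc p M L N T hodd inferInstance hadmL _).2 ?_
    rw [H56.cycloTheta_base K L p M T x, hdeg, ← hx]
    exact pow_orderOf_eq_one _
  obtain ⟨γ, hγ, y, hy⟩ := fund_abstract_lift (repC K N T) (kerRes K L N)
    (kerRes K ↥(IntermediateField.adjoin K {ζ}) N) (repJ K N T) (toC K N T) hcyc hint hS hS'
    (Additive.ofMul (baseIdele K N T x) : Additive (IdeleT N T)) hb ((p : ℕ) ^ m) h1 h2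
  obtain ⟨γ₀, hγ₀, hinf⟩ := exists_class_transport_lift K L N T hadmL.unr (hadmL.cl L) hT
    ((p : ℕ) ^ m) γ hγ
  exact ⟨γ₀, hγ₀, y, hinf.trans hy⟩

end Main

/-- `H³(G, J_{L,T}) = 0` (SHL, SLD). -/
theorem subsingleton_H3_repJ (hSHL : Stmt_SHL) (hSLD : Stmt_SLD) (p m : ℕ) (K L : Type)
    [Field K] [Field L] [NumberField K] [NumberField L] [Algebra K L] (T : Finset Nat.Primes)
    (h3 : Hyp3 K L p m) : Subsingleton (groupCohomology (repJ K L T) 3) := by
  have key : ∀ z : groupCohomology (repJ K L T) 3, z = 0 := fun z =>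
    (hSLD K L T 3).1 z (fun q v => by
      haveI := (hSHL p m K L h3 ⟨q.1, v⟩).2.2.2.2
      exact Subsingleton.elim _ _)
  exact ⟨fun x y => by rw [key x, key y]⟩

/-- Every class of `H²(G, C)` is a multiple of a class of order divisible by `#G`, if
`#H²(H, C) ∣ #H` for all subgroups `H`. -/
theorem exists_zsmul_eq_of_order {G : Type} [Group G] [Finite G] (C : Rep ℤ G)
    (γ : groupCohomology C 2) (hγ : ∀ k : ℕ, k • γ = 0 → Nat.card G ∣ k)
    (hcard : ∀ H : Subgroup G, Finite (groupCohomology (resSub C H) 2) ∧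
      Nat.card (groupCohomology (resSub C H) 2) ∣ Nat.card H)
    (c : groupCohomology C 2) : ∃ n : ℤ, c = n • γ := by
  obtain ⟨n, hn⟩ := (cfp_abstract H58.stmt_CorRes C γ hγ hcard ⊤).2 (resMap C ⊤ 2 c)
  refine ⟨n, H56.resMap_top_injective C 2 ?_⟩
  rw [hn, map_zsmul]

/-- **H3-UNITS** (`Stmt_H3Units`) from SHL, SLD, CF-ind, CYC and TH-2. -/
theorem stmt_H3Units_of (hSHL : Stmt_SHL) (hSLD : Stmt_SLD) (hCF : Stmt_CFind)
    (hCyc : Stmt_CycRec) (hTN : Stmt_ThetaNorm) : Stmt_H3Units := by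
  intro p m M _ K L _ _ _ _ _ T hyp e
  have hp := hyp.prime
  haveI : IsGalois K L := hyp.adm.gal
  haveI : IsGalois K (CyclotomicField (p ^ M) L) := hyp.admCyc.gal
  have hT : T.Nonempty := by
    obtain ⟨q, hq, -⟩ := hyp.adm.pmem
    exact ⟨q, hq⟩
  have hd : Module.finrank K (CyclotomicField (p ^ M) K) ≤
      Nat.card (Set.range (H56.cycloThetaHom K ⟨p, hp⟩ M T)) :=
    H56.stmt_ThetaOnto ⟨p, hp⟩ M K (CyclotomicField (p ^ M) K) T hyp.odd inferInstance
      hyp.admCycK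
  obtain ⟨x, hx⟩ := exists_orderOf_eq_prime_pow p M m hp hyp.odd
    (H56.cycloThetaHom K ⟨p, hp⟩ M T) _ hd hyp.big Module.finrank_pos.ne'
  obtain ⟨γ₀, hγ₀, y₀, hy₀⟩ := fund_of_tower_lift K L (CyclotomicField (p ^ M) L) hCF hCyc hTN
    ⟨p, hp⟩ m M T hyp.odd hyp.zeta hyp.deg hyp.adm hyp.admCyc x hx
  have hcard : Nat.card (L ≃ₐ[K] L) = p ^ m := by
    rw [IsGalois.card_aut_eq_finrank, hyp.deg]
  have hgen : ∀ c : groupCohomology (repC K L T) 2, ∃ n : ℤ, c = n • γ₀ :=
    exists_zsmul_eq_of_order (repC K L T) γ₀ (fun k hk => hcard ▸ hγ₀ k hk)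
      (fun H' => (hCF p m K L T hyp.prime hyp.deg hyp.adm H').2)
  have h3 : Hyp3 K L p m := ⟨hyp.prime, hyp.odd, hyp.zeta, hyp.adm.gal, hyp.deg⟩
  have hz := subsingleton_H3_repJ hSHL hSLD p m K L T h3
  have hXL := H56.seqEJC_shortExact K L T hT
  have hXN := H56.seqEJC_shortExact K (CyclotomicField (p ^ M) L) T hT
  refine map_eq_zero_of_lift
    (AlgEquiv.restrictNormalHom (F := K) (K₁ := CyclotomicField (p ^ M) L) L) hXL hXN
    (infRepE K L (CyclotomicField (p ^ M) L) T) (infRepJ K L (CyclotomicField (p ^ M) L) T)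
    (infRepC K L (CyclotomicField (p ^ M) L) T)
    (infRep_sq12 K L (CyclotomicField (p ^ M) L) T)
    (infRep_sq23 K L (CyclotomicField (p ^ M) L) T) 2 hz ?_ e
  intro c
  obtain ⟨n, rfl⟩ := hgen c
  refine ⟨n • y₀, ?_⟩
  rw [map_zsmul, map_zsmul, hy₀]

/-- **H3-UNITS** from CF-ind and CYC (SHL, SLD, TH-2 are proved). -/
theorem stmt_H3Units_of' (hCF : Stmt_CFind) (hCyc : Stmt_CycRec) : Stmt_H3Units :=
  stmt_H3Units_of H58.stmt_SHL H80.stmt_SLD hCF hCyc H25.stmt_ThetaNorm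

/-- **H3-UNITS** from the two open leaves `Stmt_JCyclic` and `Stmt_SIindex`. -/
theorem stmt_H3Units_of_leaves (hJC : Stmt_JCyclic) (hSI : Stmt_SIindex) : Stmt_H3Units :=
  stmt_H3Units_of' (stmt_CFind_of_leaves hJC hSI) (H56.stmt_CycRec H25.stmt_ThetaNorm hSI)

end Fermat.Agent.S55.CFT.H13

end
end
-- ==== END Fermat.Agent.S55.CFT.H13_H3U

-- ==== BEGIN Fermat.Agent.S55.CFT.H20_LocSplitFinal
section

/-!
# S55/E4 wave 3, leaf LSP (helper20), unconditional form

`stmt_LocSplit : Stmt_LocSplit`, from `H20.stmt_LocSplit_of`, `H58.stmt_SHL`, `H58.stmt_InfJvInj`.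
-/

set_option autoImplicit false

namespace Fermat.Agent.S55.CFT.H20

/-- **LSP**, unconditional. -/
theorem stmt_LocSplit : Stmt_LocSplit :=
  stmt_LocSplit_of H58.stmt_SHL H58.stmt_InfJvInj

end Fermat.Agent.S55.CFT.H20

end
-- ==== END Fermat.Agent.S55.CFT.H20_LocSplitFinal

-- ==== BEGIN Fermat.Agent.S55.CFT.H45_ValC
section

set_option autoImplicit false
set_option linter.unusedSectionVars false
set_option linter.style.haveILetI false

noncomputable section

namespace Fermat.Agent.S55.CFT.H45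

open NumberField TensorProduct CategoryTheory groupCohomology Rep
open Fermat.Agent.S55.CFT.LOC H58

/-! ### The residue field at a place and the global field -/

section conc

attribute [local instance] fact_primes

variable (K L : Type) [Field K] [Field L] [NumberField K] [NumberField L] [Algebra K L]
  (v : Place K) (M : Ideal (LocAlg K L v)) [hM : M.IsMaximal]

/-- `L → E_w = (K_v ⊗_K L) ⧸ M`. -/
def resIncl : L →+* LocAlg K L v ⧸ M := (Ideal.Quotient.mk M).comp (locIncl K L v)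

/-- The absolute value of `L` at the place `M`. -/
def wnrm (x : L) : ℝ := qnrm (v.1 : ℕ) M (resIncl K L v M x)

theorem wnrm_nonneg (x : L) : 0 ≤ wnrm K L v M x := qnrm_nonneg (v.1 : ℕ) M _

theorem wnrm_one : wnrm K L v M 1 = 1 := by
  rw [wnrm, RingHom.map_one, qnrm_one]

theorem wnrm_zero : wnrm K L v M 0 = 0 := by
  rw [wnrm, RingHom.map_zero, qnrm_zero]

theorem wnrm_mul (x y : L) : wnrm K L v M (x * y) = wnrm K L v M x * wnrm K L v M y := by
  rw [wnrm, RingHom.map_mul, qnrm_mul]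
  rfl

theorem wnrm_pow (x : L) (n : ℕ) : wnrm K L v M (x ^ n) = wnrm K L v M x ^ n := by
  rw [wnrm, RingHom.map_pow, qnrm_pow]
  rfl

theorem wnrm_add_le (x y : L) :
    wnrm K L v M (x + y) ≤ max (wnrm K L v M x) (wnrm K L v M y) := by
  rw [wnrm, RingHom.map_add]
  exact qnrm_add_le_max (v.1 : ℕ) M _ _

theorem wnrm_le_one_of_isIntegral {x : L} (hx : IsIntegral ℤ x) : wnrm K L v M x ≤ 1 :=
  qnrm_le_one_of_isIntegral (v.1 : ℕ) M (hx.map (resIncl K L v M).toIntAlgHom)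

theorem wnrm_natCast_of_not_dvd {m : ℕ} (hm : ¬ (v.1 : ℕ) ∣ m) : wnrm K L v M (m : L) = 1 := by
  rw [wnrm, map_natCast]
  exact qnrm_natCast_of_not_dvd (v.1 : ℕ) M hm

theorem wnrm_natCast_q : wnrm K L v M (((v.1 : ℕ) : ℕ) : L) < 1 := by
  rw [wnrm, map_natCast]
  exact qnrm_natCast_q (v.1 : ℕ) M

theorem not_dvd_prodT (T : Finset Nat.Primes) (hv : v.1 ∉ T) : ¬ (v.1 : ℕ) ∣ prodT T := by
  intro h
  rw [prodT] at h
  obtain ⟨ℓ, hℓ, hdvd⟩ := (Prime.dvd_finsetProd_iff (Nat.Prime.prime v.1.2) _).1 h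
  have := (Nat.prime_dvd_prime_iff_eq v.1.2 ℓ.2).1 hdvd
  exact hv ((Subtype.ext this : v.1 = ℓ) ▸ hℓ)

/-- `T`-units are units at the places outside `T`. -/
theorem wnrm_tunit (T : Finset Nat.Primes) (hv : v.1 ∉ T) {x : Lˣ} (hx : x ∈ TUnits L T) :
    wnrm K L v M (x : L) = 1 := by
  obtain ⟨n, h1, h2⟩ := hx
  have hp : wnrm K L v M ((prodT T : L) ^ n) = 1 := by
    rw [wnrm_pow, wnrm_natCast_of_not_dvd K L v M (not_dvd_prodT K v T hv), one_pow]
  have h3 := wnrm_le_one_of_isIntegral K L v M h1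
  have h4 := wnrm_le_one_of_isIntegral K L v M h2
  rw [wnrm_mul, hp, one_mul] at h3 h4
  have h5 : wnrm K L v M (x : L) * wnrm K L v M ((x⁻¹ : Lˣ) : L) = 1 := by
    rw [← wnrm_mul, ← Units.val_mul, mul_inv_cancel, Units.val_one, wnrm_one]
  have h6 := wnrm_nonneg K L v M (x : L)
  have h7 := wnrm_nonneg K L v M ((x⁻¹ : Lˣ) : L)
  nlinarith

/-! ### The prime below a place, and the inertia group -/

/-- The prime of `𝓞 L` below the place `M`. -/
def wPrime : Ideal (𝓞 L) where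
  carrier := {x | wnrm K L v M (algebraMap (𝓞 L) L x) < 1}
  add_mem' := by
    intro a b ha hb
    show wnrm K L v M (algebraMap (𝓞 L) L (a + b)) < 1
    rw [map_add]
    exact lt_of_le_of_lt (wnrm_add_le K L v M _ _) (max_lt ha hb)
  zero_mem' := by
    show wnrm K L v M (algebraMap (𝓞 L) L 0) < 1
    rw [map_zero, wnrm_zero]
    exact zero_lt_one
  smul_mem' := by
    intro c x hx
    show wnrm K L v M (algebraMap (𝓞 L) L (c • x)) < 1
    rw [smul_eq_mul, map_mul, wnrm_mul]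
    have h1 : wnrm K L v M (algebraMap (𝓞 L) L c) ≤ 1 :=
      wnrm_le_one_of_isIntegral K L v M (RingOfIntegers.isIntegral_coe c)
    have h2 := wnrm_nonneg K L v M (algebraMap (𝓞 L) L c)
    have h3 := wnrm_nonneg K L v M (algebraMap (𝓞 L) L x)
    have h4 : wnrm K L v M (algebraMap (𝓞 L) L x) < 1 := hx
    nlinarith

theorem mem_wPrime (x : 𝓞 L) :
    x ∈ wPrime K L v M ↔ wnrm K L v M (algebraMap (𝓞 L) L x) < 1 := Iff.rfl

theorem wPrime_isPrime : (wPrime K L v M).IsPrime := by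
  refine ⟨?_, ?_⟩
  · intro h
    have h1 : (1 : 𝓞 L) ∈ wPrime K L v M := by rw [h]; trivial
    rw [mem_wPrime, map_one, wnrm_one] at h1
    exact lt_irrefl _ h1
  · intro x y hxy
    rw [mem_wPrime, map_mul, wnrm_mul] at hxy
    by_contra hcon
    rw [not_or] at hcon
    have hx : wnrm K L v M (algebraMap (𝓞 L) L x) = 1 :=
      le_antisymm (wnrm_le_one_of_isIntegral K L v M (RingOfIntegers.isIntegral_coe x))
        (not_lt.1 hcon.1)
    have hy : wnrm K L v M (algebraMap (𝓞 L) L y) = 1 :=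
      le_antisymm (wnrm_le_one_of_isIntegral K L v M (RingOfIntegers.isIntegral_coe y))
        (not_lt.1 hcon.2)
    rw [hx, hy, mul_one] at hxy
    exact lt_irrefl _ hxy

theorem wPrime_ne_bot : wPrime K L v M ≠ ⊥ := by
  intro h
  have h1 : (((v.1 : ℕ) : ℕ) : 𝓞 L) ∈ wPrime K L v M := by
    rw [mem_wPrime, map_natCast]
    exact wnrm_natCast_q K L v M
  rw [h, Ideal.mem_bot] at h1
  exact (Nat.cast_ne_zero.2 v.1.2.ne_zero) h1

theorem not_mem_wPrime (T : Finset Nat.Primes) (hv : v.1 ∉ T) (ℓ : Nat.Primes) (hℓ : ℓ ∈ T) :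
    (((ℓ : ℕ) : ℤ) : 𝓞 L) ∉ wPrime K L v M := by
  rw [mem_wPrime, map_intCast, Int.cast_natCast]
  have hnd : ¬ (v.1 : ℕ) ∣ (ℓ : ℕ) := by
    intro hdvd
    have := (Nat.prime_dvd_prime_iff_eq v.1.2 ℓ.2).1 hdvd
    exact hv ((Subtype.ext this : v.1 = ℓ) ▸ hℓ)
  rw [wnrm_natCast_of_not_dvd K L v M hnd]
  exact lt_irrefl _

theorem resIncl_smul (d : decomp (L ≃ₐ[K] L) M) (y : L) :
    resIncl K L v M ((d : L ≃ₐ[K] L) y) =
      quotRingHom (L ≃ₐ[K] L) M d (resIncl K L v M y) := by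
  show Ideal.Quotient.mk M (locIncl K L v ((d : L ≃ₐ[K] L) y)) =
    quotRingHom (L ≃ₐ[K] L) M d (Ideal.Quotient.mk M (locIncl K L v y))
  rw [quotRingHom_mk, locIncl_smul]

set_option synthInstance.maxHeartbeats 400000 in
theorem resIncl_sub (a b : L) :
    resIncl K L v M (a - b) = resIncl K L v M a - resIncl K L v M b :=
  map_sub (resIncl K L v M) a b

/-- **Global → local**: at a place outside `T` no nontrivial element of the decomposition group
acts trivially on the residue field. -/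
theorem inertia_trivial (p : ℕ) (T : Finset Nat.Primes) (h : Admissible K L T p)
    (hv : v.1 ∉ T) (d : decomp (L ≃ₐ[K] L) M)
    (hd : ∀ x : LocAlg K L v ⧸ M, qnrm (v.1 : ℕ) M x ≤ 1 →
      qnrm (v.1 : ℕ) M (quotRingHom (L ≃ₐ[K] L) M d x - x) < 1) :
    d = 1 := by
  have hP := h.unr (wPrime K L v M) (wPrime_isPrime K L v M) (wPrime_ne_bot K L v M)
    (fun ℓ hℓ => not_mem_wPrime K L v M T hv ℓ hℓ)
  have hmem : (d : L ≃ₐ[K] L) ∈ (wPrime K L v M).inertia (L ≃ₐ[K] L) := by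
    intro x
    show wnrm K L v M (algebraMap (𝓞 L) L ((d : L ≃ₐ[K] L) • x - x)) < 1
    have h1 : algebraMap (𝓞 L) L ((d : L ≃ₐ[K] L) • x - x) =
        (d : L ≃ₐ[K] L) (algebraMap (𝓞 L) L x) - algebraMap (𝓞 L) L x := by
      rw [map_sub]
      rfl
    rw [h1, wnrm, resIncl_sub, resIncl_smul]
    exact hd _ (wnrm_le_one_of_isIntegral K L v M (RingOfIntegers.isIntegral_coe x))
  rw [hP, Subgroup.mem_bot] at hmem
  exact Subtype.ext hmem

end conc

/-! ### The statement -/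

section final

attribute [local instance] fact_primes

/-- **VAL-c**. -/
theorem stmt_UnitsUnram : Stmt_UnitsUnram := by
  intro p K L _ _ _ _ _ T h e v hv
  haveI : IsGalois K L := h.gal
  obtain ⟨M, hM⟩ := Ideal.exists_maximal (LocAlg K L v)
  have key := valc_abstract' (v.1 : ℕ) M (fun _ _ => rfl)
    (locAlg_orbitSeparates K L v M) (locAlg_smul_algebraMap K L v)
    (fun d hd => inertia_trivial K L v M p T h hv d hd)
    (unitsToL K L T ≫ locRep K L v)
    (fun a => wnrm_tunit K L v M T hv (Additive.toMul a).2) e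
  have e1 := congrArg (fun ψ => ψ.hom e)
    ((groupCohomology.functor ℤ (L ≃ₐ[K] L) 2).map_comp (unitsToL K L T) (locRep K L v))
  exact e1.symm.trans key

end final

end Fermat.Agent.S55.CFT.H45

end
end
-- ==== END Fermat.Agent.S55.CFT.H45_ValC

-- ==== BEGIN Fermat.Agent.S55.CFT.H58_LocInfImage
section

/-!
# CFT (helper58): `Stmt_LocInfImage`, unconditional

Wiring of helper72's `H72.stmt_LocInfImage_of` with `H58.stmt_SHL` and `H58.stmt_InfJvInj`.
-/

set_option autoImplicit false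

namespace Fermat.Agent.S55.CFT.H58

theorem stmt_LocInfImage : Stmt_LocInfImage :=
  H72.stmt_LocInfImage_of stmt_SHL stmt_InfJvInj

end Fermat.Agent.S55.CFT.H58

end
-- ==== END Fermat.Agent.S55.CFT.H58_LocInfImage

-- ==== BEGIN Fermat.Agent.S55.CFT.H72_THL
section

set_option autoImplicit false
set_option linter.unusedSectionVars false
set_option linter.style.haveILetI false

open NumberField TensorProduct CategoryTheory

noncomputable section

namespace Fermat.Agent.S55.CFT.H72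

/-- The local symbol as a homomorphism. -/
def thetaAlgHom (p : Nat.Primes) (M : ℕ) (q : Nat.Primes) (A : Type) [CommRing A]
    [Algebra (Qp q) A] : Aˣ →* (ZMod ((p : ℕ) ^ M))ˣ :=
  (H56.thetaLocHom p M q).comp (Units.map (Algebra.norm (Qp q) : A →* Qp q))

lemma thetaAlgHom_apply (p : Nat.Primes) (M : ℕ) (q : Nat.Primes) (A : Type) [CommRing A]
    [Algebra (Qp q) A] (β : Aˣ) : thetaAlgHom p M q A β = thetaAlg p M q A β := rfl

/-- **THL** from the order statement `Stmt_THL_Ord`. -/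
theorem stmt_THL_of (hOrd : Stmt_THL_Ord) : Stmt_THL := by
  intro p M K L _ _ _ _ _ T hp2 hζK hcyc q₀ v₀
  classical
  haveI : NeZero ((p : ℕ) ^ M) := ⟨pow_ne_zero _ p.2.ne_zero⟩
  haveI hgal : IsGalois K L := IsCyclotomicExtension.isGalois {(p : ℕ) ^ M} K L
  haveI : FiniteDimensional K L := IsCyclotomicExtension.finiteDimensional {(p : ℕ) ^ M} K L
  have hζL := IsCyclotomicExtension.zeta_spec ((p : ℕ) ^ M) K L
  haveI hcycC : IsCyclic (ZMod ((p : ℕ) ^ M))ˣ := ZMod.isCyclic_units_of_prime_pow p p.2 hp2 M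
  have hcycG : IsCyclic (L ≃ₐ[K] L) :=
    isCyclic_of_injective (hζL.autToPow K) (hζL.autToPow_injective K)
  have hpg : IsPGroup (p : ℕ) (L ≃ₐ[K] L) := H13.isPGroup_gal_cyclotomic K L p M p.2 hζK
  haveI : Fact (p : ℕ).Prime := ⟨p.2⟩
  obtain ⟨m, hm⟩ := hpg.exists_card_eq
  have hdeg : Module.finrank K L = (p : ℕ) ^ m := by
    rw [← IsGalois.card_aut_eq_finrank]
    exact hm
  have hyp3 : Hyp3 K L p m := ⟨p.2, hp2, hζK, hgal, hdeg⟩
  obtain ⟨-, hfin, hcard, -, -⟩ := H58.stmt_SHL p m K L hyp3 ⟨q₀.1, v₀⟩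
  obtain ⟨cyc, cycv, -, -, hv, -⟩ := H19.stmt_CycClass K L hgal hcycG
  obtain ⟨hmul, -, hker⟩ := hv ⟨q₀.1, v₀⟩
  haveI := hfin
  have hpos : 0 < Nat.card (MaximalSpectrum (LocAlg K L ⟨q₀.1, v₀⟩)) := by
    rcases Nat.eq_zero_or_pos (Nat.card (MaximalSpectrum (LocAlg K L ⟨q₀.1, v₀⟩))) with h0 | h0
    · exfalso
      rw [h0, mul_zero] at hcard
      exact Module.finrank_pos.ne hcard
    · exact h0
  have key : ∀ d : ℕ,
      d * Nat.card (MaximalSpectrum (LocAlg K L ⟨q₀.1, v₀⟩)) = Module.finrank K L →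
      (∀ β : (LocAlg K K ⟨q₀.1, v₀⟩)ˣ,
        thetaAlg p M q₀.1 (LocAlg K K ⟨q₀.1, v₀⟩) β = 1 → IsLocNorm K L ⟨q₀.1, v₀⟩ β) ∧
      ∀ t : (ZMod ((p : ℕ) ^ M))ˣ, t ^ d = 1 →
        ∃ β : (LocAlg K K ⟨q₀.1, v₀⟩)ˣ, thetaAlg p M q₀.1 (LocAlg K K ⟨q₀.1, v₀⟩) β = t := by
    intro d hd
    obtain ⟨β₀, hβ₀⟩ := hOrd p M K L hp2 hζK hcyc ⟨q₀.1, v₀⟩ d hd
    have hcardH : Nat.card (groupCohomology (repJv K L ⟨q₀.1, v₀⟩) 2) = d :=
      Nat.eq_of_mul_eq_mul_right hpos (hcard.trans hd.symm)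
    exact thl_counting (cycv ⟨q₀.1, v₀⟩) hmul (IsLocNorm K L ⟨q₀.1, v₀⟩) hker
      (thetaAlgHom p M q₀.1 (LocAlg K K ⟨q₀.1, v₀⟩))
      (fun β hβ => thetaAlg_of_isLocNorm K L p M hp2 ⟨_, hζL⟩ ⟨q₀.1, v₀⟩ β hβ) d hcardH β₀ hβ₀
  constructor
  · intro x hx hθx
    apply (key _ hcard).1
    rw [← cycloTheta_secHom K T p M ⟨q₀, v₀⟩, ← eq_secHom_of_supported K T ⟨q₀, v₀⟩ x hx]
    exact hθx
  · intro d t hd ht
    obtain ⟨β, hβ⟩ := (key d hd).2 t ht
    refine ⟨H80.secHom K K T ⟨q₀, v₀⟩ β,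
      fun q v h => secHom_supported K T ⟨q₀, v₀⟩ β q v h, ?_⟩
    rw [cycloTheta_secHom]
    exact hβ

end Fermat.Agent.S55.CFT.H72

end
end
-- ==== END Fermat.Agent.S55.CFT.H72_THL

-- ==== BEGIN Fermat.Agent.S55.CFT.LOC.H25_LTO_Final
section

set_option autoImplicit false
set_option linter.unusedSectionVars false
set_option linter.style.haveILetI false

namespace Fermat.Agent.S55.CFT.LOC.H25

open groupCohomology Fermat.Agent.S55.CFT.LOC Fermat.Agent.S55.CFT

section base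

variable (p : Nat.Primes) (c : ℕ) (F' F : Type) [Field F'] [Field F]
  [Algebra (Qp p) F'] [Algebra (Qp p) F] [Algebra F' F] [IsScalarTower (Qp p) F' F]
  [FiniteDimensional (Qp p) F'] [FiniteDimensional (Qp p) F]

/-- **`Stmt_LocalThetaOnto` for a given base field `F' ⊆ F`.** -/
theorem lto_of_base (hTR : Stmt_TotRamNorm) (hCK : Stmt_CharKer) (hKD : Stmt_KummerDeg)
    (hUN : Stmt_UnifNotIn) (hp2 : (p : ℕ) ≠ 2) (hc : 1 ≤ c)
    (hζc : ∃ ζ : F', IsPrimitiveRoot ζ ((p : ℕ) ^ c))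
    (hno : ¬ ∃ ζ : F, IsPrimitiveRoot ζ ((p : ℕ) ^ (c + 1)))
    (hres : haveI := fact_primes p
      ∀ y : F, nrm (p : ℕ) F y ≤ 1 → ∃ x : F', nrm (p : ℕ) F (y - algebraMap F' F x) < 1)
    (hu : ∃ u : F'ˣ,
      thetaLoc p (c + 1) p (Units.map (Algebra.norm (Qp p) : F' →* Qp p) u) ≠ 1) :
    ∃ b : Fˣ, thetaLoc p (c + 1) p (Units.map (Algebra.norm (Qp p) : F →* Qp p) b) ≠ 1 := by
  classical
  haveI hpF : Fact ((p : ℕ).Prime) := fact_primes p
  have hp0 : 0 < (p : ℕ) := p.2.pos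
  set N' : ℕ := resCard (p : ℕ) F' with hN'
  have hNpos : 0 < N' ^ (p : ℕ) - 1 := pow_resCard_sub_one_pos (p : ℕ) F' hp0
  set m : ℕ := (p : ℕ) ^ (c + 1) * (N' ^ (p : ℕ) - 1) with hm
  have hmpos : 0 < m := Nat.mul_pos (pow_pos hp0 _) hNpos
  haveI : NeZero m := ⟨hmpos.ne'⟩
  haveI : CharZero F := charZero_of_padic (p : ℕ) F
  haveI : CharZero (AlgebraicClosure F) :=
    charZero_of_injective_algebraMap (algebraMap F (AlgebraicClosure F)).injective
  haveI : NeZero ((m : ℕ) : AlgebraicClosure F) := NeZero.charZero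
  obtain ⟨η, hη⟩ := HasEnoughRootsOfUnity.exists_primitiveRoot (AlgebraicClosure F) m
  -- the field `Ω = F(η)`
  let Ω : IntermediateField F (AlgebraicClosure F) := IntermediateField.adjoin F {η}
  haveI hcycΩ : IsCyclotomicExtension {m} F Ω :=
    hη.intermediateField_adjoin_isCyclotomicExtension F
  haveI : FiniteDimensional F Ω := IsCyclotomicExtension.finiteDimensional {m} F Ω
  haveI : IsGalois F Ω := IsCyclotomicExtension.isGalois {m} F Ω
  haveI : IsScalarTower (Qp p) F' Ω := IsScalarTower.of_algebraMap_eq (fun x => by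
    apply Subtype.ext
    exact IsScalarTower.algebraMap_apply (Qp p) F' (AlgebraicClosure F) x)
  let ηΩ : Ω := ⟨η, IntermediateField.mem_adjoin_simple_self F η⟩
  have hηΩ : IsPrimitiveRoot ηΩ m :=
    IsPrimitiveRoot.of_map_of_injective (f := algebraMap Ω (AlgebraicClosure F)) hη
      (algebraMap Ω (AlgebraicClosure F)).injective
  haveI : FiniteDimensional F' F := FiniteDimensional.right (Qp p) F' F
  haveI : FiniteDimensional F' Ω := Module.Finite.trans F Ω
  -- the field `M' = F'(η)`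
  let M' : IntermediateField F' Ω := IntermediateField.adjoin F' {ηΩ}
  haveI hcycM : IsCyclotomicExtension {m} F' M' :=
    hηΩ.intermediateField_adjoin_isCyclotomicExtension F'
  haveI : FiniteDimensional F' M' := IsCyclotomicExtension.finiteDimensional {m} F' M'
  haveI : IsGalois F' M' := IsCyclotomicExtension.isGalois {m} F' M'
  let ηM : M' := ⟨ηΩ, IntermediateField.mem_adjoin_simple_self F' ηΩ⟩
  have hηM : IsPrimitiveRoot ηM m :=
    IsPrimitiveRoot.of_map_of_injective (f := algebraMap M' Ω) hηΩ (algebraMap M' Ω).injective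
  have hζ : IsPrimitiveRoot (ηM ^ (N' ^ (p : ℕ) - 1)) ((p : ℕ) ^ (c + 1)) :=
    hηM.pow hmpos (by rw [hm, mul_comm])
  have hξ : IsPrimitiveRoot (ηM ^ ((p : ℕ) ^ (c + 1))) (N' ^ (p : ℕ) - 1) :=
    hηM.pow hmpos hm
  exact lto_tower p c F' F Ω M' hTR hCK hKD hUN hp2 hc hζc hno hres hu _ hζ _ hξ

end base

/-- **The local input at the places above `p`** (`Stmt_LocalThetaOnto`): if `F/ℚ_p` is finite,
`p` odd, `ζ_{p^c} ∈ F`, `c ≥ 1`, `ζ_{p^(c+1)} ∉ F`, then `θ_{c+1}(N_{F/ℚ_p} b) ≠ 1` for some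
`b ∈ Fˣ`. -/
theorem stmt_LocalThetaOnto : Stmt_LocalThetaOnto := by
  intro p c F _ _ _ hp2 hc hζ hno
  obtain ⟨F', hζc, hres, hu⟩ := H41.stmt_LTOBase p c F hp2 hc hζ
  exact lto_of_base p c F' F H41.stmt_TotRamNorm H78.stmt_CharKer H78.stmt_KummerDeg
    H41.stmt_UnifNotIn hp2 hc hζc hno hres hu

end Fermat.Agent.S55.CFT.LOC.H25

namespace Fermat.Agent.S55.CFT.H25

/-- `Stmt_LocalThetaOnto`, in the namespace of the CFT island. -/
theorem stmt_LocalThetaOnto : Stmt_LocalThetaOnto :=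
  Fermat.Agent.S55.CFT.LOC.H25.stmt_LocalThetaOnto

end Fermat.Agent.S55.CFT.H25

end
-- ==== END Fermat.Agent.S55.CFT.LOC.H25_LTO_Final

-- ==== BEGIN Fermat.Agent.S55.H49_AssemblyI
section

set_option autoImplicit false

open CategoryTheory Module groupCohomology ExtCitation

namespace Fermat.Agent.S55.H49

open Fermat.Agent.S55

/-- `Stmt_TopK` from `I1 … I4`. -/
theorem stmt_TopK_of_I (h1 : Top.Stmt_I1) (h2 : Top.Stmt_I2) (h3 : Top.Stmt_I3)
    (h4 : Top.Stmt_I4) : Top.Stmt_TopK :=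
  Top.H48.stmt_TopK_of h1 h2 h3 h4 (Top.stmt_G1K_of h2 h4)

/-- `Stmt_E4P` from `TopQ0` and `I1 … I4`. -/
theorem stmt_E4P_of_I (hQ : Top.Stmt_TopQ0) (h1 : Top.Stmt_I1) (h2 : Top.Stmt_I2)
    (h3 : Top.Stmt_I3) (h4 : Top.Stmt_I4) : Top.Stmt_E4P :=
  Top.stmt_E4P_of_top hQ (stmt_TopK_of_I h1 h2 h3 h4)

/-- The frozen statement S55 from `Top.Stmt_TopQ0` and `Top.Stmt_I1 … Top.Stmt_I4`. -/
theorem result_of_I (hQ : Top.Stmt_TopQ0) (h1 : Top.Stmt_I1) (h2 : Top.Stmt_I2)
    (h3 : Top.Stmt_I3) (h4 : Top.Stmt_I4)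
    {p : ℕ} [Fact p.Prime] (hp2 : p ≠ 2) (S : Finset Nat.Primes) (hpS : pPrime p ∈ S)
    (M : Rep.{0} (ZMod p) (AlgebraicClosure ℚ ≃ₐ[ℚ] AlgebraicClosure ℚ))
    [FiniteDimensional (ZMod p) M]
    (hsm : ∀ m : M, ∃ F : IntermediateField ℚ (AlgebraicClosure ℚ), FiniteDimensional ℚ F ∧
      ∀ s ∈ F.fixingSubgroup, M.ρ s m = m)
    (hMur : ∀ q : Nat.Primes, q ∉ S → ∀ A : ValuationSubring (AlgebraicClosure ℚ),
      A.LiesOverPrime (q : ℕ) → ∀ g ∈ A.inertiaSubgroupIn ℚ, M.ρ g = 1) :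
    ∃ B : sha₁ S (M.dualTwist (cycloChar p)) →ₗ[ZMod p] sha₂ S M →ₗ[ZMod p] ZMod p,
      (∀ y, (∀ x, B y x = 0) → y = 0) ∧ (∀ x, (∀ y, B y x = 0) → x = 0) :=
  result_of_top hQ (stmt_TopK_of_I h1 h2 h3 h4) hp2 S hpS M hsm hMur

end Fermat.Agent.S55.H49

end
-- ==== END Fermat.Agent.S55.H49_AssemblyI

-- ==== BEGIN Fermat.Agent.S56.EC.H27_Tr
section

set_option autoImplicit false
set_option linter.unusedSectionVars false
set_option linter.style.haveILetI false

/-!
# EC / UBR / TR (helper27): assembly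

`trace_latAct`: `tr(b | Λ) + 1 = #Fix(sF b) + #Fix(sInf b)`.
-/

noncomputable section

namespace Fermat.Agent.S56.EC.H27

open NumberField IsDedekindDomain Module Fermat.Agent.S55.CFT Fermat.Agent.S55.CFT.H12

section general

variable (K : Type) [Field K] [NumberField K] (T : Finset Nat.Primes)

/-- The lattice `Λ = E / torsion`. -/
abbrev LatK : Type := Additive (TUnits K T) ⧸ Submodule.torsion ℤ (Additive (TUnits K T))

theorem actE_tors (σ : K ≃ₐ[ℚ] K) :
    Submodule.torsion ℤ (Additive (TUnits K T)) ≤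
      (Submodule.torsion ℤ (Additive (TUnits K T))).comap (actE K T σ) := by
  intro x hx
  obtain ⟨a, ha⟩ := hx
  refine ⟨a, ?_⟩
  have ha' : (a : ℤ) • x = 0 := ha
  show (a : ℤ) • actE K T σ x = 0
  rw [← map_smul, ha', map_zero]

/-- The action on `Λ`. -/
def latActK (σ : K ≃ₐ[ℚ] K) : LatK K T →ₗ[ℤ] LatK K T :=
  (Submodule.torsion ℤ (Additive (TUnits K T))).mapQ _ (actE K T σ) (actE_tors K T σ)

theorem phiT_tors : Submodule.torsion ℤ (Additive (TUnits K T)) ≤
    LinearMap.ker (phiT K T).toIntLinearMap := by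
  intro x hx
  obtain ⟨a, ha⟩ := hx
  have ha' : (a : ℤ) • x = 0 := ha
  have ha0 : (a : ℤ) ≠ 0 := nonZeroDivisors.coe_ne_zero a
  rw [LinearMap.mem_ker]
  show phiT K T x = 0
  have h1 : (a : ℤ) • phiT K T x = 0 := by
    rw [← map_zsmul, ha', map_zero]
  have h2 : ((a : ℤ) : ℝ) • phiT K T x = 0 := by
    rw [Int.cast_smul_eq_zsmul]
    exact h1
  rcases smul_eq_zero.1 h2 with h | h
  · exact absurd (by exact_mod_cast h) ha0
  · exact h

/-- The realisation of `Λ`. -/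
def phiL : LatK K T →ₗ[ℤ] VK K T :=
  (Submodule.torsion ℤ (Additive (TUnits K T))).liftQ (phiT K T).toIntLinearMap (phiT_tors K T)

theorem phiL_mk (u : Additive (TUnits K T)) :
    phiL K T (Submodule.Quotient.mk u) = phiT K T u := rfl

variable (hPLC : Stmt_PLC)

theorem phiL_latActK (σ : K ≃ₐ[ℚ] K) (m : LatK K T) :
    phiL K T (latActK K T σ m) = piT K T hPLC σ (phiL K T m) := by
  induction m using Submodule.Quotient.induction_on with
  | H u =>
    show phiL K T (Submodule.Quotient.mk (actE K T σ u)) = _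
    rw [phiL_mk, phiL_mk, phiT_actE]

instance finite_EK : Module.Finite ℤ (Additive (TUnits K T)) := finite_tUnits K T

open Classical in
theorem trace_piT (σ : K ≃ₐ[ℚ] K) :
    LinearMap.trace ℝ (VK K T) (piT K T hPLC σ) =
      ((Finset.univ.filter fun w : primesT K T => sF K T hPLC σ w = w).card : ℝ) +
        ((Finset.univ.filter fun w : InfinitePlace K => sInf K σ w = w).card : ℝ) := by
  unfold piT
  rw [LinearMap.trace_prodMap', trace_funLeft, trace_funLeft]

theorem finrank_VK : finrank ℝ (VK K T) =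
    (primesT K T).card + Fintype.card (InfinitePlace K) := by
  rw [Module.finrank_prod, Module.finrank_fintype_fun_eq_card, Module.finrank_fintype_fun_eq_card,
    Fintype.card_coe]

theorem finrank_LatK_le : finrank ℤ (LatK K T) + 1 ≤
    (primesT K T).card + Fintype.card (InfinitePlace K) := by
  have h1 : finrank ℤ (LatK K T) ≤ finrank ℤ (Additive (TUnits K T)) :=
    Submodule.finrank_quotient_le (Submodule.torsion ℤ (Additive (TUnits K T)))
  have h2 := finrank_tUnits K T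
  have h3 : 0 < Fintype.card (InfinitePlace K) := Fintype.card_pos
  have h4 : NumberField.Units.rank K = Fintype.card (InfinitePlace K) - 1 := rfl
  omega

open Classical in
/-- **TR**, in terms of the fixed points of `sF` and `sInf`. -/
theorem trace_latActK (σ : K ≃ₐ[ℚ] K) :
    LinearMap.trace ℤ (LatK K T) (latActK K T σ) + 1 =
      ((Finset.univ.filter fun w : primesT K T => sF K T hPLC σ w = w).card : ℤ) +
        ((Finset.univ.filter fun w : InfinitePlace K => sInf K σ w = w).card : ℤ) := by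
  classical
  set I := Module.Free.ChooseBasisIndex ℤ (LatK K T) with hI
  set e : Basis I ℤ (LatK K T) := Module.Free.chooseBasis ℤ (LatK K T) with he
  set f : Option I → VK K T := fun j => j.elim (vZero K T) (fun i => phiL K T (e i)) with hf
  have hW : Submodule.span ℝ (Set.range f) = ⊤ := by
    refine span_top_of _ (fun u => ?_) ?_
    · rw [← phiL_mk, ← e.sum_repr (Submodule.Quotient.mk u), map_sum]
      refine Submodule.sum_mem _ fun i _ => ?_
      rw [map_zsmul, ← Int.cast_smul_eq_zsmul ℝ]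
      exact Submodule.smul_mem _ _ (Submodule.subset_span ⟨some i, rfl⟩)
    · exact Submodule.subset_span ⟨none, rfl⟩
  have hcard : Fintype.card (Option I) = finrank ℝ (VK K T) := by
    apply le_antisymm
    · rw [Fintype.card_option, ← Module.finrank_eq_card_chooseBasisIndex, finrank_VK]
      exact finrank_LatK_le K T
    · have h1 := finrank_range_le_card (R := ℝ) f
      rw [Set.finrank, hW, finrank_top] at h1
      exact h1
  have key := trace_realize e (latActK K T σ) (piT K T hPLC σ) (phiL K T).toAddMonoidHom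
    (fun m => phiL_latActK K T hPLC σ m) (vZero K T) (piT_vZero K T hPLC σ) (le_of_eq hW.symm) hcard
  rw [trace_piT] at key
  have key' : (((LinearMap.trace ℤ (LatK K T) (latActK K T σ) + 1 : ℤ)) : ℝ) =
      ((((Finset.univ.filter fun w : primesT K T => sF K T hPLC σ w = w).card : ℤ) +
        ((Finset.univ.filter fun w : InfinitePlace K => sInf K σ w = w).card : ℤ) : ℤ) : ℝ) := by
    push_cast
    linarith
  exact_mod_cast key'

end general

end Fermat.Agent.S56.EC.H27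

end

end
-- ==== END Fermat.Agent.S56.EC.H27_Tr
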