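-- GENERATED (merged mirror, NOTES/tools/trim/merge3_helper67.py): 1 modules of the originals, bodies verbatim.
import Fermat.Agent.Zm.S56_L17_000

-- ==== BEGIN Fermat.Agent.S55.CFT.GS.H80_LocSDec
section

set_option autoImplicit false
set_option linter.unusedSectionVars false

open CategoryTheory groupCohomology ExtCitation TensorProduct

noncomputable section

namespace Fermat.Agent.S55.CFT.GS.H80

open Fermat.Agent.S55 Fermat.Agent.S55.Top Fermat.Agent.S55.CFT Fermat.Agent.S55.CFT.GS.Bri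
  Fermat.Agent.S55.CFT.GS.H68

local notation "Qb" => AlgebraicClosure ℚ

attribute [local instance] fact_primes

section abs

/-- Abstract form: `B` an `F`-algebra with an endomorphism `δ` fixing `F`, `π : B → Ω` an
`F`-algebra map to a normal algebraic extension `Ω` of `F` whose kernel is maximal and stable
under `δ`: then `π ∘ δ = h ∘ π` for some `h ∈ Aut(Ω/F)`. -/
theorem exists_algEquiv_of_stable {F B Ω : Type} [Field F] [CommRing B] [Algebra F B] [Field Ω]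
    [Algebra F Ω] [Normal F Ω] (π : B →ₐ[F] Ω) (hmax : (RingHom.ker π).IsMaximal)
    (δ : B →ₐ[F] B) (hδ : ∀ b : B, b ∈ RingHom.ker π → δ b ∈ RingHom.ker π) :
    ∃ h : Ω ≃ₐ[F] Ω, ∀ b : B, h (π b) = π (δ b) := by
  let M : Ideal B := RingHom.ker π
  have hM : M.IsMaximal := hmax
  let _ : Field (B ⧸ M) := Ideal.Quotient.field M
  let ι : (B ⧸ M) →ₐ[F] Ω := Ideal.Quotient.liftₐ M π (fun b hb => hb)
  let _ : Algebra (B ⧸ M) Ω := ι.toRingHom.toAlgebra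
  have : IsScalarTower F (B ⧸ M) Ω := IsScalarTower.of_algebraMap_eq (fun a => by
    change algebraMap F Ω a = ι (algebraMap F (B ⧸ M) a)
    rw [AlgHom.commutes])
  let ϕ : (B ⧸ M) →ₐ[F] (B ⧸ M) :=
    Ideal.Quotient.liftₐ M ((Ideal.Quotient.mkₐ F M).comp δ) (fun b hb => by
      rw [AlgHom.comp_apply, Ideal.Quotient.mkₐ_eq_mk, Ideal.Quotient.eq_zero_iff_mem]
      exact hδ b hb)
  have hbij : Function.Bijective (ϕ.liftNormal Ω) :=
    Algebra.IsAlgebraic.algHom_bijective _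
  refine ⟨AlgEquiv.ofBijective (ϕ.liftNormal Ω) hbij, fun b => ?_⟩
  have h1 := AlgHom.liftNormal_commutes ϕ Ω (Ideal.Quotient.mk M b)
  exact h1

/-- The same with ring homomorphisms: `ε : F → B` the structure map. -/
theorem exists_algEquiv_of_stable' {F B Ω : Type} [Field F] [CommRing B] [Field Ω]
    [Algebra F Ω] [Normal F Ω] (ε : F →+* B) (π : B →+* Ω)
    (hπ : ∀ a : F, π (ε a) = algebraMap F Ω a) (hmax : (RingHom.ker π).IsMaximal)
    (δ : B →+* B) (hδε : ∀ a : F, δ (ε a) = ε a)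
    (hδ : ∀ b : B, b ∈ RingHom.ker π → δ b ∈ RingHom.ker π) :
    ∃ h : Ω ≃ₐ[F] Ω, ∀ b : B, h (π b) = π (δ b) := by
  let _ : Algebra F B := ε.toAlgebra
  exact exists_algEquiv_of_stable (F := F) (B := B) (Ω := Ω)
    { π with commutes' := hπ } hmax { δ with commutes' := hδε } hδ

end abs

/-- **LOCS-DEC**. -/
theorem stmt_LocS_Dec : Stmt_LocS_Dec := by
  intro K N hKN _ _ _ q σ d hd
  have hnorm : Normal ℚ_[(q : ℕ)] (PadicAlgCl (q : ℕ)) :=
    IsAlgClosure.normal ℚ_[(q : ℕ)] (PadicAlgCl (q : ℕ))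
  let ε : ℚ_[(q : ℕ)] →+* LocAlg ↥K ↥(H6.NK hKN) (plσ K q σ) :=
    algebraMap (Qp (plσ K q σ).1) (LocAlg ↥K ↥(H6.NK hKN) (plσ K q σ))
  have hπ : ∀ a : ℚ_[(q : ℕ)],
      πN hKN q σ (ε a) = algebraMap ℚ_[(q : ℕ)] (PadicAlgCl (q : ℕ)) a := by
    intro a
    have h2 := πN_mk_tmul hKN q σ a 1
    rw [map_one, mul_one] at h2
    exact h2
  obtain ⟨h, hh⟩ := exists_algEquiv_of_stable' ε (πN hKN q σ) hπ (ker_πN_isMaximal hKN q σ)
    (MulSemiringAction.toRingHom (↥(H6.NK hKN) ≃ₐ[↥K] ↥(H6.NK hKN))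
      (LocAlg ↥K ↥(H6.NK hKN) (plσ K q σ)) d)
    (fun a => H58.locAlg_smul_algebraMap ↥K ↥(H6.NK hKN) (plσ K q σ) d a)
    (fun b hb => (hd b).2 hb)
  refine ⟨h, fun y => ?_⟩
  have h1 := πN_mk_tmul hKN q σ 1 y
  rw [map_one, one_mul] at h1
  have h2 := πN_mk_tmul hKN q σ 1 (d y)
  rw [map_one, one_mul] at h2
  have h3 := hh (Ideal.Quotient.mk (placeIdeal ↥K ↥(H6.NK hKN) (plσ K q σ))
    ((1 : Qp q) ⊗ₜ[ℚ] y))
  rw [h1] at h3
  rw [h3, ← h2]
  have h4 : semiLocalEquiv ↥K ↥(H6.NK hKN) q d ((1 : Qp q) ⊗ₜ[ℚ] y) = (1 : Qp q) ⊗ₜ[ℚ] (d y) :=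
    semiLocalEquiv_tmul ↥K ↥(H6.NK hKN) q d 1 y
  exact congrArg (fun z => πN hKN q σ (Ideal.Quotient.mk
    (placeIdeal ↥K ↥(H6.NK hKN) (plσ K q σ)) z)) h4

end Fermat.Agent.S55.CFT.GS.H80

end
end
-- ==== END Fermat.Agent.S55.CFT.GS.H80_LocSDec
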