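-- GENERATED (merged mirror, NOTES/tools/trim/merge3_helper67.py): 5 modules of the originals, bodies verbatim.
import Mathlib
import Fermat.Agent.Zm.S56_L10_002
import Fermat.Agent.Zm.S56_L14_005
import Fermat.Agent.Zm.S56_L07_000
import Fermat.Agent.Zm.S56_L08_003
import Fermat.Agent.Zm.S56_L14_003
import Fermat.Agent.Zm.S56_L12_001
import Fermat.Agent.Zm.S56_L04_004
import Fermat.Agent.Zm.S56_L07_005
import Fermat.Agent.Zm.S56_L10_003
import Fermat.Agent.Zm.S56_L14_002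
import Fermat.Agent.Zm.S56_L13_002
import Fermat.Agent.Zm.S56_L11_002
import Fermat.Agent.Zm.S56_L14_004

-- ==== BEGIN Fermat.Agent.S56.FL.H50_Wire
section

set_option autoImplicit false
set_option linter.unusedSectionVars false

/-!
# LOC-p-FL, package WIRE (helper50): `Stmt_loc_p_Fl` from `Stmt_FL_A`, `Stmt_FL_ord`, `Stmt_COH_SS`,
`Stmt_COH_RED`.
-/

noncomputable section

namespace Fermat.Agent.S56.FL.H50

open scoped NNReal
open Polynomial IsLocalRing CategoryTheory groupCohomology ExtCitation Fermat.Agent.S53 Module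
  Fermat.Agent.S56 Fermat.Agent.S56.FL Fermat.Agent.S56.Dict Fermat.Agent.S56.Dict.H85

section Cyclo

variable (p : ℕ) [Fact p.Prime]

/-- Every `p`-th root of unity of `K̄` comes from `ℚ̄`. -/
theorem exists_root_of_unity_preimage (ζ : PadicAlgCl p) (hζ : ζ ^ p = 1) :
    ∃ μ : AlgebraicClosure ℚ, μ ^ p = 1 ∧ padicEmbedding p μ = ζ := by
  have hp : p.Prime := Fact.out
  haveI : NeZero (p : AlgebraicClosure ℚ) := ⟨by exact_mod_cast hp.ne_zero⟩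
  obtain ⟨μ₀, hμ₀⟩ := HasEnoughRootsOfUnity.exists_primitiveRoot (AlgebraicClosure ℚ) p
  have hμ₁ : IsPrimitiveRoot (padicEmbedding p μ₀) p :=
    hμ₀.map_of_injective (padicEmbedding p).injective
  obtain ⟨i, -, hi⟩ := hμ₁.eq_pow_of_pow_eq_one hζ
  refine ⟨μ₀ ^ i, ?_, ?_⟩
  · rw [← pow_mul, mul_comm, pow_mul, hμ₀.pow_eq_one, one_pow]
  · rw [map_pow, hi]

variable {p} {k : Type} [Field k] [CharP k p] (ρbar : ResidualGaloisRep k)

theorem isCycloAt_det (hdet : (GaloisRepAdic.ofResidualGaloisRep ρbar).DetIsCyclotomic p)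
    (σ : Gp p) : IsCycloAt (LinearMap.det (locRho ρbar σ)) σ := by
  have hp : p.Prime := Fact.out
  refine ⟨cycloExp p (localGaloisToGlobal p σ), ?_, ?_⟩
  · have h := hdet.2 1 (localGaloisToGlobal p σ) (cycloExp p (localGaloisToGlobal p σ))
      (fun μ hμ => H57.map_root_eq_pow p _ μ hμ)
    have h0 : Ideal.span {(((p ^ 1 : ℕ) : ℕ) : k)} = ⊥ := by
      rw [pow_one, CharP.cast_eq_zero k p]
      exact Ideal.span_singleton_eq_bot.2 rfl
    rw [h0, Ideal.mem_bot, sub_eq_zero] at h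
    exact h.symm
  · intro ζ hζ
    obtain ⟨μ, hμ, rfl⟩ := exists_root_of_unity_preimage p ζ hζ
    rw [← padicEmbedding_localGaloisToGlobal, ← map_pow]
    congr 1
    exact H57.map_root_eq_pow p _ μ (by rw [pow_one]; exact hμ)

end Cyclo

section Pred

variable (p : ℕ) [Fact p.Prime] {k : Type} [Field k] (ρbar : ResidualGaloisRep k)

theorem cocVal_add (c₁ c₂ : cocycles₁ (locRep (ad0 ρbar) (pPrime p))) (σ : Gp p) :
    cocVal ρbar (c₁ + c₂) σ = cocVal ρbar c₁ σ + cocVal ρbar c₂ σ := by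
  unfold cocVal
  rw [← map_add]
  rfl

theorem cocVal_smul (a : k) (c : cocycles₁ (locRep (ad0 ρbar) (pPrime p))) (σ : Gp p) :
    cocVal ρbar (a • c) σ = a • cocVal ρbar c σ := by
  unfold cocVal
  rw [← map_smul]
  rfl

theorem cocVal_zero (σ : Gp p) :
    cocVal ρbar (0 : cocycles₁ (locRep (ad0 ρbar) (pPrime p))) σ = 0 := by
  unfold cocVal
  exact map_zero _

/-- The local cocycle `c` (and `ρbar`) is trivial on the elements of `G_p` acting trivially on a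
finite flat `G_ℚ`-module killed by `p`. -/
def IsTrivByFlat (c : cocycles₁ (locRep (ad0 ρbar) (pPrime p))) : Prop :=
  ∃ (E : Type) (_ : AddCommGroup E) (act : _root_.Fermat.Agent.S56.GQ → E → E),
    (∀ e : E, p • e = 0) ∧ Fermat.Agent.R.IsFlatGaloisModule p E act ∧
    ∀ σ : Gp p, (∀ e : E, act (localGaloisToGlobal p σ) e = e) →
      locRho ρbar σ = 1 ∧ cocVal ρbar c σ = 0

/-- The predicate defining the local condition. -/
def WP (c : cocycles₁ (locRep (ad0 ρbar) (pPrime p))) : Prop :=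
  IsTrivByFlat p ρbar c ∧
    (∀ ℓ : Submodule k ρbar.V, IsOrdLine ρbar p ℓ → IsOrdCocycle ρbar ℓ c) ∧
    c ∈ levelCocycles₁ (primeLocalToGlobal (pPrime p)) (locRep (ad0 ρbar) (pPrime p))

variable {p ρbar}

theorem IsTrivByFlat.zero {c : cocycles₁ (locRep (ad0 ρbar) (pPrime p))}
    (h : IsTrivByFlat p ρbar c) : IsTrivByFlat p ρbar 0 := by
  obtain ⟨E, i, act, hk, hf, ht⟩ := h
  exact ⟨E, i, act, hk, hf, fun σ hσ => ⟨(ht σ hσ).1, cocVal_zero p ρbar σ⟩⟩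

theorem IsTrivByFlat.smul {c : cocycles₁ (locRep (ad0 ρbar) (pPrime p))}
    (h : IsTrivByFlat p ρbar c) (a : k) : IsTrivByFlat p ρbar (a • c) := by
  obtain ⟨E, i, act, hk, hf, ht⟩ := h
  refine ⟨E, i, act, hk, hf, fun σ hσ => ⟨(ht σ hσ).1, ?_⟩⟩
  rw [cocVal_smul, (ht σ hσ).2, smul_zero]

theorem IsTrivByFlat.add {c₁ c₂ : cocycles₁ (locRep (ad0 ρbar) (pPrime p))}
    (h₁ : IsTrivByFlat p ρbar c₁) (h₂ : IsTrivByFlat p ρbar c₂) :
    IsTrivByFlat p ρbar (c₁ + c₂) := by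
  have hp : p.Prime := Fact.out
  obtain ⟨E₁, i₁, act₁, hk₁, hf₁, ht₁⟩ := h₁
  obtain ⟨E₂, i₂, act₂, hk₂, hf₂, ht₂⟩ := h₂
  refine ⟨E₁ × E₂, inferInstance, fun σ x => (act₁ σ x.1, act₂ σ x.2), ?_,
    Fermat.Agent.R.H54.stmt_FlatProd p hp E₁ E₂ act₁ act₂ hf₁ hf₂, ?_⟩
  · rintro ⟨e₁, e₂⟩
    ext
    · exact hk₁ e₁
    · exact hk₂ e₂
  · intro σ hσ
    have h1 : ∀ e : E₁, act₁ (localGaloisToGlobal p σ) e = e := fun e =>
      congrArg Prod.fst (hσ (e, 0))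
    have h2 : ∀ e : E₂, act₂ (localGaloisToGlobal p σ) e = e := fun e =>
      congrArg Prod.snd (hσ (0, e))
    refine ⟨(ht₁ σ h1).1, ?_⟩
    rw [cocVal_add, (ht₁ σ h1).2, (ht₂ σ h2).2, add_zero]

theorem isOrdCocycle_zero (ℓ : Submodule k ρbar.V) :
    IsOrdCocycle ρbar ℓ (0 : cocycles₁ (locRep (ad0 ρbar) (pPrime p))) := by
  refine ⟨0, fun σ => ?_⟩
  have h0 : cocVal ρbar (0 : cocycles₁ (locRep (ad0 ρbar) (pPrime p))) σ -
      (locRho ρbar σ * 0 * locRho ρbar σ⁻¹ - 0) = 0 := by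
    rw [cocVal_zero]; simp
  rw [h0]
  exact ⟨fun v _ => by simp, fun _ v => by simp⟩

theorem IsOrdCocycle.smul {ℓ : Submodule k ρbar.V}
    {c : cocycles₁ (locRep (ad0 ρbar) (pPrime p))} (h : IsOrdCocycle ρbar ℓ c) (a : k) :
    IsOrdCocycle ρbar ℓ (a • c) := by
  obtain ⟨m, hm⟩ := h
  refine ⟨a • m, fun σ => ?_⟩
  have h0 : cocVal ρbar (a • c) σ - (locRho ρbar σ * (a • m) * locRho ρbar σ⁻¹ - a • m) =
      a • (cocVal ρbar c σ - (locRho ρbar σ * m * locRho ρbar σ⁻¹ - m)) := by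
    rw [cocVal_smul, smul_sub, smul_sub, mul_smul_comm, smul_mul_assoc]
  rw [h0]
  refine ⟨fun v hv => ?_, fun hσ v => ?_⟩
  · rw [LinearMap.smul_apply]; exact ℓ.smul_mem a ((hm σ).1 v hv)
  · rw [LinearMap.smul_apply]; exact ℓ.smul_mem a ((hm σ).2 hσ v)

theorem IsOrdCocycle.add {ℓ : Submodule k ρbar.V}
    {c₁ c₂ : cocycles₁ (locRep (ad0 ρbar) (pPrime p))} (h₁ : IsOrdCocycle ρbar ℓ c₁)
    (h₂ : IsOrdCocycle ρbar ℓ c₂) : IsOrdCocycle ρbar ℓ (c₁ + c₂) := by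
  obtain ⟨m₁, hm₁⟩ := h₁
  obtain ⟨m₂, hm₂⟩ := h₂
  refine ⟨m₁ + m₂, fun σ => ?_⟩
  have h0 : cocVal ρbar (c₁ + c₂) σ -
      (locRho ρbar σ * (m₁ + m₂) * locRho ρbar σ⁻¹ - (m₁ + m₂)) =
      (cocVal ρbar c₁ σ - (locRho ρbar σ * m₁ * locRho ρbar σ⁻¹ - m₁)) +
      (cocVal ρbar c₂ σ - (locRho ρbar σ * m₂ * locRho ρbar σ⁻¹ - m₂)) := by
    rw [cocVal_add, mul_add, add_mul]
    abel
  rw [h0]
  refine ⟨fun v hv => ?_, fun hσ v => ?_⟩
  · rw [LinearMap.add_apply]; exact ℓ.add_mem ((hm₁ σ).1 v hv) ((hm₂ σ).1 v hv)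
  · rw [LinearMap.add_apply]; exact ℓ.add_mem ((hm₁ σ).2 hσ v) ((hm₂ σ).2 hσ v)

theorem WP.zero {c : cocycles₁ (locRep (ad0 ρbar) (pPrime p))} (h : IsTrivByFlat p ρbar c) :
    WP p ρbar 0 :=
  ⟨h.zero, fun ℓ _ => isOrdCocycle_zero ℓ, Submodule.zero_mem _⟩

theorem WP.add {c₁ c₂ : cocycles₁ (locRep (ad0 ρbar) (pPrime p))} (h₁ : WP p ρbar c₁)
    (h₂ : WP p ρbar c₂) : WP p ρbar (c₁ + c₂) :=
  ⟨h₁.1.add h₂.1, fun ℓ hℓ => IsOrdCocycle.add (h₁.2.1 ℓ hℓ) (h₂.2.1 ℓ hℓ),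
    Submodule.add_mem _ h₁.2.2 h₂.2.2⟩

theorem WP.smul {c : cocycles₁ (locRep (ad0 ρbar) (pPrime p))} (h : WP p ρbar c) (a : k) :
    WP p ρbar (a • c) :=
  ⟨h.1.smul a, fun ℓ hℓ => IsOrdCocycle.smul (h.2.1 ℓ hℓ) a, Submodule.smul_mem _ a h.2.2⟩

variable (p ρbar)

/-- The local condition: the classes of the cocycles satisfying `WP`. -/
def flatW (c₀ : cocycles₁ (locRep (ad0 ρbar) (pPrime p))) (h₀ : IsTrivByFlat p ρbar c₀) :
    Submodule k (H1 (locRep (ad0 ρbar) (pPrime p))) where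
  carrier := {η | ∃ c : cocycles₁ (locRep (ad0 ρbar) (pPrime p)),
    (H1π (locRep (ad0 ρbar) (pPrime p))).hom c = η ∧ WP p ρbar c}
  zero_mem' := ⟨0, map_zero _, WP.zero h₀⟩
  add_mem' := by
    rintro _ _ ⟨c₁, rfl, h₁⟩ ⟨c₂, rfl, h₂⟩
    exact ⟨c₁ + c₂, map_add _ _ _, h₁.add h₂⟩
  smul_mem' := by
    rintro a _ ⟨c, rfl, h⟩
    exact ⟨a • c, map_smul _ _ _, h.smul a⟩

end Pred

section Gen

variable {𝒪 : Type} [CommRing 𝒪] [IsLocalRing 𝒪] [Finite (ResidueField 𝒪)]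
variable {ρbar : ResidualGaloisRep (ResidueField 𝒪)} {𝒟 : Cond 𝒪}

/-- An element of the kernel of a first-order deformation acts trivially on `ρbar`. -/
theorem rhobar_eq_one_of_mem_ker (x : TSub 𝒪 ρbar 𝒟)
    (c : _root_.Fermat.Agent.S56.GQ → Module.End (ResidueField 𝒪) ρbar.V) (hc : IsCocycleOf x c) (s : _root_.Fermat.Agent.S56.GQ)
    (hs : s ∈ (x.1.ρ).ker) : ρbar.ρ s = 1 := by
  obtain ⟨θ, hθ⟩ := hc
  rw [MonoidHom.mem_ker] at hs
  refine LinearMap.ext fun v => ?_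
  have h := hθ s v
  rw [hs, Module.End.one_apply] at h
  have h2 := θ.injective h
  have p1 := congrArg (proj₁ ρbar.V) h2
  simp only [map_add, proj₁_tmul, TrivSqZeroExt.fst_one, one_smul, DualNumber.fst_eps,
    zero_smul, add_zero] at p1
  rw [Module.End.one_apply]
  exact p1.symm

variable (p : ℕ) [Fact p.Prime]

/-- The cocycle of a flat first-order deformation is trivialised by a flat module. -/
theorem isTrivByFlat_of_flat (hp𝒪 : (p : 𝒪) ∈ maximalIdeal 𝒪) (x : TSub 𝒪 ρbar 𝒟)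
    (hflat : x.1.IsFlatAt p) (c₀ : cocycles₁ (ad0 ρbar))
    (hc : IsCocycleOf x (fun σ => ad0Val ρbar ((c₀ : _root_.Fermat.Agent.S56.GQ → ad0 ρbar) σ))) :
    IsTrivByFlat p ρbar (resCoc ρbar p c₀) := by
  haveI hchar : CharP (ResidueField 𝒪) p := charP_residueField p hp𝒪
  haveI hfinA : Finite (DualNumber (ResidueField 𝒪)) := finite_dualNumber 𝒪
  have hfinQ : Finite (DualNumber (ResidueField 𝒪) ⧸ (⊥ : Ideal (DualNumber (ResidueField 𝒪)))) :=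
    Finite.of_surjective _ Ideal.Quotient.mk_surjective
  have hfl := ((Fermat.Agent.R.isFlatAt_iff x.1 p).1 hflat).2 ⊥ hfinQ
  refine ⟨_, inferInstance, _, ?_, hfl, ?_⟩
  · intro e
    obtain ⟨v, rfl⟩ := Submodule.Quotient.mk_surjective _ e
    rw [← Submodule.Quotient.mk_smul]
    have h0 : p • v = 0 := by
      rw [← Nat.cast_smul_eq_nsmul (DualNumber (ResidueField 𝒪)),
        H57.natCast_dual_eq_zero p, zero_smul]
    rw [h0, Submodule.Quotient.mk_zero]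
  · intro σ hσ
    have hker : localGaloisToGlobal p σ ∈ (x.1.ρ).ker := by
      rw [MonoidHom.mem_ker]
      refine LinearMap.ext fun v => ?_
      have h1 := hσ (Submodule.Quotient.mk v)
      have h2 : x.1.levelAction ⊥ (localGaloisToGlobal p σ) (Submodule.Quotient.mk v) =
          Submodule.Quotient.mk (x.1.ρ (localGaloisToGlobal p σ) v) := rfl
      rw [h2, Submodule.Quotient.eq, Submodule.bot_smul, Submodule.mem_bot, sub_eq_zero] at h1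
      rw [Module.End.one_apply]
      exact h1
    exact ⟨rhobar_eq_one_of_mem_ker x _ hc _ hker, cocycle_eq_zero_of_mem_ker x _ hc _ hker⟩

end Gen

/-- **WIRE.** `Stmt_loc_p_Fl` from BRIDGE-1, ORD and the two counts. -/
theorem stmt_loc_p_Fl_of (hA : Stmt_FL_A) (hord : Stmt_FL_ord) (hSS : Stmt_COH_SS)
    (hRED : Stmt_COH_RED) : Stmt_loc_p_Fl := by
  intro 𝒪 _ _ _ _ _ p _ ρbar S Smin hyp
  haveI hchar : CharP (ResidueField 𝒪) p := charP_residueField p hyp.hp𝒪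
  have hp2 := hyp.hp2
  -- the cocycle of a flat deformation satisfies `WP`
  have hgen : ∀ (T : Finset ℕ) (x : TSub 𝒪 ρbar (condFl 𝒪 p Smin T)) (c₀ : cocycles₁ (ad0 ρbar)),
      IsCocycleOf x (fun σ => ad0Val ρbar ((c₀ : _root_.Fermat.Agent.S56.GQ → ad0 ρbar) σ)) →
      WP p ρbar (resCoc ρbar p c₀) ∧ SplitCond ρbar p := by
    intro T x c₀ hc
    have hflat : x.1.IsFlatAt p := x.2.1.1.2.1
    obtain ⟨hsplit, hO⟩ := hord 𝒪 p ρbar hp2 hyp.hp𝒪 hyp.hdet _ x hflat c₀ hc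
    refine ⟨⟨isTrivByFlat_of_flat p hyp.hp𝒪 x hflat c₀ hc, hO, ?_⟩, hsplit⟩
    rw [mem_levelCocycles₁_iff]
    exact isLevelConstant₁_resCocycle (primeLocalToGlobal (pPrime p))
      (H57.global_cocycle_levelConstant x c₀ hc)
  by_cases hex : ∃ (T : Finset ℕ) (x : TSub 𝒪 ρbar (condFl 𝒪 p Smin T)) (ξ : H1 (ad0 ρbar)),
      IsClassOf x ξ
  · obtain ⟨T₀, x₀, ξ₀, c₀, hc₀, -⟩ := hex
    obtain ⟨hWP₀, hsplit⟩ := hgen T₀ x₀ c₀ hc₀
    set W := flatW p ρbar (resCoc ρbar p c₀) hWP₀.1 with hW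
    have hbdd : ∀ ξ ∈ W, IsFlatLike ρbar ξ := by
      rintro ξ ⟨c, rfl, ⟨E, i, act, hkill, hfl, htriv⟩, hO, -⟩
      obtain ⟨L, hL, hN, hB, hfix⟩ := hA p hp2 E act hkill hfl
      exact ⟨c, rfl, ⟨L, hL, hN, hB, fun σ hσ => htriv σ (hfix σ hσ)⟩, hO⟩
    have hloc : LocHyp ρbar p := ⟨isCycloAt_det ρbar hyp.hdet, fun σ => hyp.hsplit _⟩
    have hcount : Module.Finite (ResidueField 𝒪) W ∧ finrank (ResidueField 𝒪) W ≤
        finrank (ResidueField 𝒪) (locRep (ad0 ρbar) (pPrime p)).ρ.invariants + 1 := by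
      by_cases hline : ∃ ℓ : Submodule (ResidueField 𝒪) ρbar.V, IsStableLine ρbar p ℓ
      · exact hRED p hp2 _ ρbar hloc hline hsplit W hbdd
      · refine hSS p hp2 _ ρbar hloc hline W fun ξ hξ => ?_
        obtain ⟨c, h1, h2, -⟩ := hbdd ξ hξ
        exact ⟨c, h1, h2⟩
    refine ⟨W, ?_, hcount.1, hcount.2, ?_⟩
    · rintro η ⟨c, rfl, -, -, hlev⟩
      exact H1π_mem_continuousH1 _ _ ((mem_levelCocycles₁_iff _ _ _).1 hlev)
    · intro T x ξ hξ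
      obtain ⟨c, hc, rfl⟩ := hξ
      rw [Fermat.Agent.S56.resAt_H1π]
      exact ⟨resCoc ρbar p c, rfl, (hgen T x c hc).1⟩
  · refine ⟨⊥, bot_le, inferInstance, ?_, ?_⟩
    · rw [finrank_bot]
      exact Nat.zero_le _
    · intro T x ξ hξ
      exact absurd ⟨T, x, ξ, hξ⟩ hex

end Fermat.Agent.S56.FL.H50

end

end
-- ==== END Fermat.Agent.S56.FL.H50_Wire

-- ==== BEGIN Fermat.Agent.S56.FL.H57_CohRed
section

/-!
# LOC-p-FL, package COH (helper57): `Stmt_COH_RED`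

`stmt_COH_RED_of : Stmt_CC0 → Stmt_CC1 → Stmt_CC3 → Stmt_Tame → Stmt_TameChars → Stmt_COH_RED`.

Case analysis (`V = ρbar|G_p` with a stable line, `χ₁` on the line, `χ₂` on the quotient):
* (A) there is an ordinary line `ℓ` (`χ₂` unramified): `χ = χ₁/χ₂` is cyclotomic on inertia (`CC1`),
  the representatives are given by `IsOrdCocycle`; `core_bound`.
* (B) no ordinary line: `χ₂` is ramified, and so is `χ₁` (`SplitCond`).  By `Stmt_TameChars`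
  `χ₁ ≠ χ₂` on inertia; after exchanging the line with a complement (`exists_swap`, when `V` is
  split by `CC3`), `CC3` applies to `χ⁻¹`: every bounded cocycle is cohomologous to one preserving
  the line, with unramified diagonal (`CC0`); `dim H¹_bdd(k(χ)) ≤ 1` by `CC1` or `CC3`; `core_bound`.
-/

set_option autoImplicit false
set_option linter.unusedSectionVars false
set_option linter.unusedVariables false
set_option linter.style.haveILetI false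

noncomputable section

namespace Fermat.Agent.S56.FL.H57

open Polynomial IsLocalRing CategoryTheory groupCohomology ExtCitation Module
  Fermat.Agent.S56 Fermat.Agent.S56.FL

section prelim

variable {p : ℕ} [Fact p.Prime] {k : Type} [Field k]

/-- The value of the cyclotomic character at `σ` is unique. -/
theorem isCycloAt_uniq [CharP k p] {x y : k} {σ : Gp p} (hx : IsCycloAt x σ)
    (hy : IsCycloAt y σ) : x = y := by
  obtain ⟨ζ, h1, hζ⟩ := H15.exists_zeta (p := p)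
  obtain ⟨n, rfl, hn⟩ := hx
  obtain ⟨m, rfl, hm⟩ := hy
  have h2 : ζ ^ n = ζ ^ m := by rw [← hn ζ hζ, ← hm ζ hζ]
  have h3 : orderOf ζ = p := orderOf_eq_prime hζ h1
  have hprim : IsPrimitiveRoot ζ p := by
    rw [IsPrimitiveRoot.iff_orderOf]
    exact h3
  have hp : 0 < p := (Fact.out : p.Prime).pos
  have h4 : n ≡ m [MOD p] := by
    have key : ∀ i : ℕ, ζ ^ (i % p) = ζ ^ i := by
      intro i
      conv_rhs => rw [← Nat.mod_add_div i p]
      rw [pow_add, pow_mul, hζ, one_pow, mul_one]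
    have e1 : ζ ^ (n % p) = ζ ^ (m % p) := by
      rw [key, key]
      exact h2
    exact hprim.pow_inj (Nat.mod_lt _ hp) (Nat.mod_lt _ hp) e1
  exact (CharP.natCast_eq_natCast k p).2 h4

variable {V : Type} [AddCommGroup V] [Module k V]

theorem exists_basis_b0 (hV : finrank k V = 2) (v₀ : V) (hv₀ : v₀ ≠ 0) :
    ∃ b : Basis (Fin 2) k V, b 0 = v₀ := by
  have : FiniteDimensional k V := Module.finite_of_finrank_eq_succ hV
  obtain ⟨w, hw⟩ := exists_linearIndependent_pair_of_one_lt_finrank (R := k) (M := V)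
    (by rw [hV]; norm_num) hv₀
  refine ⟨basisOfLinearIndependentOfCardEqFinrank hw (by rw [hV]; rfl), ?_⟩
  rw [coe_basisOfLinearIndependentOfCardEqFinrank]
  rfl

theorem ent_smul_b0 (b : Basis (Fin 2) k V) (t : k) : b.coord 1 (t • b 0) = 0 := by
  simp

end prelim

section lines

variable {p : ℕ} [Fact p.Prime] {k : Type} [Field k] {ρbar : ResidualGaloisRep k}

/-- `b` is a basis adapted to the line `ℓ`. -/
def IsAdapted (b : Basis (Fin 2) k ρbar.V) (ℓ : Submodule k ρbar.V) : Prop :=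
  b 0 ∈ ℓ ∧ ∀ v ∈ ℓ, ∃ t : k, v = t • b 0

theorem IsAdapted.coord1 {b : Basis (Fin 2) k ρbar.V} {ℓ : Submodule k ρbar.V}
    (h : IsAdapted b ℓ) {v : ρbar.V} (hv : v ∈ ℓ) : b.coord 1 v = 0 := by
  obtain ⟨t, rfl⟩ := h.2 v hv
  exact ent_smul_b0 b t

theorem IsAdapted.mem_of_coord1 {b : Basis (Fin 2) k ρbar.V} {ℓ : Submodule k ρbar.V}
    (h : IsAdapted b ℓ) {v : ρbar.V} (hv : b.coord 1 v = 0) : v ∈ ℓ := by
  rw [basis_decomp b v, hv, zero_smul, add_zero]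
  exact ℓ.smul_mem _ h.1

theorem exists_adapted {ℓ : Submodule k ρbar.V} (hℓ : finrank k ℓ = 1) :
    ∃ b : Basis (Fin 2) k ρbar.V, IsAdapted b ℓ := by
  obtain ⟨⟨v₀, hv₀⟩, hne, hall⟩ := finrank_eq_one_iff'.1 hℓ
  have hv₀' : v₀ ≠ 0 := fun h => hne (Subtype.ext h)
  obtain ⟨b, hb⟩ := exists_basis_b0 ρbar.finrank_eq v₀ hv₀'
  refine ⟨b, by rw [hb]; exact hv₀, fun v hv => ?_⟩
  obtain ⟨t, ht⟩ := hall ⟨v, hv⟩
  refine ⟨t, ?_⟩
  rw [hb]
  exact (congrArg Subtype.val ht).symm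

theorem IsAdapted.isLineBasis {b : Basis (Fin 2) k ρbar.V} {ℓ : Submodule k ρbar.V}
    (h : IsAdapted b ℓ) (hℓ : IsStableLine ρbar p ℓ) : IsLineBasis ρbar b p :=
  fun σ => h.coord1 (hℓ.2 σ _ h.1)

theorem det_eq_ent {b : Basis (Fin 2) k ρbar.V} (hb : IsLineBasis ρbar b p) (σ : Gp p) :
    LinearMap.det (locRho ρbar σ)
      = ent b (locRho ρbar σ) 0 0 * ent b (locRho ρbar σ) 1 1 := by
  rw [← LinearMap.det_toMatrix b, Matrix.det_fin_two]
  have h10 : LinearMap.toMatrix b b (locRho ρbar σ) 1 0 = 0 := by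
    rw [LinearMap.toMatrix_apply]
    exact hb σ
  rw [h10, mul_zero, sub_zero]
  simp [LinearMap.toMatrix_apply, ent]

end lines

section caseA

variable {p : ℕ} [Fact p.Prime] {k : Type} [Field k] [CharP k p] {ρbar : ResidualGaloisRep k}
  {b : Basis (Fin 2) k ρbar.V} {ℓ : Submodule k ρbar.V}

theorem ent11_eq_one_of_ord (hadp : IsAdapted b ℓ) (hord : IsOrdLine ρbar p ℓ) (σ : Gp p)
    (hσ : σ ∈ inertiaP p) : ent b (locRho ρbar σ) 1 1 = 1 := by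
  have h := hadp.coord1 (hord.2 σ hσ (b 1))
  rw [map_sub] at h
  have h1 : b.coord 1 (b 1) = 1 := by simp
  rw [h1] at h
  unfold ent
  linear_combination h

theorem quotChar_cyclo_of_ord (hloc : LocHyp ρbar p) (hadp : IsAdapted b ℓ)
    (hb : IsLineBasis ρbar b p) (hord : IsOrdLine ρbar p ℓ) :
    ∀ σ : Gp p, σ ∈ inertiaP p → IsCycloAt (quotChar hb σ : k) σ := by
  intro σ hσ
  have h1 := ent11_eq_one_of_ord hadp hord σ hσ
  have h2 := hloc.1 σ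
  rw [det_eq_ent hb, h1, mul_one] at h2
  rw [quotChar_val, h1, div_one]
  exact h2

/-- An ordinary bounded cocycle is cohomologous to a line cocycle. -/
theorem exists_lineCoc_of_ord (hp2 : p ≠ 2) (hadp : IsAdapted b ℓ)
    (c : cocycles₁ (locRep (ad0 ρbar) (pPrime p))) (hbdd : IsBddAd ρbar c)
    (hO : IsOrdCocycle ρbar ℓ c) :
    ∃ c' : cocycles₁ (locRep (ad0 ρbar) (pPrime p)),
      (H1π (locRep (ad0 ρbar) (pPrime p))).hom c' = (H1π (locRep (ad0 ρbar) (pPrime p))).hom c ∧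
        IsLineCoc b c' := by
  obtain ⟨m, hm⟩ := hO
  have h2 : (2 : k) ≠ 0 := two_ne_zero_of_odd' hp2
  obtain ⟨m₀, hm₀⟩ : ∃ m₀ : Module.End k ρbar.V,
      m₀ = m - (LinearMap.trace k ρbar.V m / 2) • (1 : Module.End k ρbar.V) := ⟨_, rfl⟩
  have htr : LinearMap.trace k ρbar.V m₀ = 0 := by
    rw [hm₀, map_sub, map_smul, LinearMap.trace_one, ρbar.finrank_eq, smul_eq_mul]
    push_cast
    field_simp
    ring
  have hconj : ∀ σ : Gp p, locRho ρbar σ * m₀ * locRho ρbar σ⁻¹ - m₀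
      = locRho ρbar σ * m * locRho ρbar σ⁻¹ - m := by
    intro σ
    rw [hm₀, mul_sub, sub_mul, mul_smul_comm, smul_mul_assoc, mul_one, locRho_mul_inv]
    abel
  refine ⟨c - cobd ρbar m₀ htr, ?_, IsBddAd.sub_cobd hbdd _ _, ?_, ?_⟩
  · rw [map_sub, H1π_cobd, sub_zero]
  · intro σ
    rw [cocVal_sub, cocVal_cobd, hconj]
    exact hadp.coord1 ((hm σ).1 (b 0) hadp.1)
  · intro σ hσ
    rw [← neg_eq_zero, ← ent11_cocVal, cocVal_sub, cocVal_cobd, hconj]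
    exact hadp.coord1 ((hm σ).2 hσ (b 1))

end caseA

section caseB

variable {p : ℕ} [Fact p.Prime] {k : Type} [Field k] {ρbar : ResidualGaloisRep k}
  {b b' : Basis (Fin 2) k ρbar.V} {ℓ ℓ' : Submodule k ρbar.V}

theorem coord_apply_eq (b : Basis (Fin 2) k ρbar.V) (f : Module.End k ρbar.V) (v : ρbar.V)
    (i : Fin 2) :
    b.coord i (f v) = ent b f i 0 * b.coord 0 v + ent b f i 1 * b.coord 1 v := by
  unfold ent
  conv_lhs => rw [basis_decomp b v]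
  rw [map_add, map_smul, map_smul, map_add, map_smul, map_smul, smul_eq_mul, smul_eq_mul]
  ring

theorem isOrdLine_of_ent11 (hadp : IsAdapted b ℓ) (hℓ : IsStableLine ρbar p ℓ)
    (hb : IsLineBasis ρbar b p)
    (h : ∀ σ : Gp p, σ ∈ inertiaP p → ent b (locRho ρbar σ) 1 1 = 1) : IsOrdLine ρbar p ℓ := by
  refine ⟨hℓ, fun σ hσ v => hadp.mem_of_coord1 ?_⟩
  rw [map_sub, coord_apply_eq, hb σ, h σ hσ]
  ring

/-- The diagonal characters of two distinct stable lines are swapped. -/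
theorem diag_swap (hb : IsLineBasis ρbar b p) (hb' : IsLineBasis ρbar b' p)
    (hne : b.coord 1 (b' 0) ≠ 0) (σ : Gp p) :
    ent b' (locRho ρbar σ) 0 0 = ent b (locRho ρbar σ) 1 1 ∧
      ent b' (locRho ρbar σ) 1 1 = ent b (locRho ρbar σ) 0 0 := by
  have h1 := congrArg (b.coord 1) (hb'.apply_b0 σ)
  rw [coord_apply_eq, hb σ, map_smul, smul_eq_mul, zero_mul, zero_add] at h1
  have e1 : ent b' (locRho ρbar σ) 0 0 = ent b (locRho ρbar σ) 1 1 :=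
    (mul_right_cancel₀ hne h1).symm
  refine ⟨e1, ?_⟩
  have hdet : ent b' (locRho ρbar σ) 0 0 * ent b' (locRho ρbar σ) 1 1
      = ent b (locRho ρbar σ) 0 0 * ent b (locRho ρbar σ) 1 1 := by
    rw [← det_eq_ent hb', ← det_eq_ent hb]
  rw [e1] at hdet
  have hx2 := hb.ent_ne_zero 1 σ
  apply mul_left_cancel₀ hx2
  linear_combination hdet

theorem coord1_ne_zero_of_ne (hadp : IsAdapted b ℓ) (hadp' : IsAdapted b' ℓ')
    (hℓ : finrank k ℓ = 1) (hℓ' : finrank k ℓ' = 1) (hne : ℓ' ≠ ℓ) :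
    b.coord 1 (b' 0) ≠ 0 := by
  intro h0
  apply hne
  have hle : ℓ' ≤ ℓ := by
    intro v hv
    obtain ⟨t, rfl⟩ := hadp'.2 v hv
    exact ℓ.smul_mem _ (hadp.mem_of_coord1 h0)
  exact Submodule.eq_of_le_of_finrank_eq hle (by rw [hℓ, hℓ'])

/-- If the extension class is a coboundary, there is a second stable line. -/
theorem exists_swap (hb : IsLineBasis ρbar b p) (t : k)
    (ht : ∀ σ : Gp p, ent b (locRho ρbar σ) 0 1 / ent b (locRho ρbar σ) 1 1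
      = ((quotChar hb σ : k) - 1) * t) :
    ∃ (b' : Basis (Fin 2) k ρbar.V) (hb' : IsLineBasis ρbar b' p), ∀ σ : Gp p,
      ent b' (locRho ρbar σ) 0 0 = ent b (locRho ρbar σ) 1 1 ∧
        ent b' (locRho ρbar σ) 1 1 = ent b (locRho ρbar σ) 0 0 := by
  have hw : b 1 - t • b 0 ≠ 0 := by
    intro h0
    have := congrArg (b.coord 1) h0
    simp at this
  obtain ⟨b', hb0⟩ := exists_basis_b0 ρbar.finrank_eq (b 1 - t • b 0) hw
  have hb' : IsLineBasis ρbar b' p := by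
    intro σ
    have hx2 := hb.ent_ne_zero 1 σ
    have htσ := ht σ
    rw [quotChar_val, div_eq_iff hx2] at htσ
    have e : locRho ρbar σ (b' 0) = ent b (locRho ρbar σ) 1 1 • b' 0 := by
      rw [hb0, map_sub, map_smul, hb.apply_b0, hb.apply_b1, htσ, smul_sub, smul_smul, smul_smul]
      have e2 : ((ent b (locRho ρbar σ) 0 0 / ent b (locRho ρbar σ) 1 1 - 1) * t
          * ent b (locRho ρbar σ) 1 1) = ent b (locRho ρbar σ) 0 0 * t
            - ent b (locRho ρbar σ) 1 1 * t := by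
        field_simp
      rw [e2, sub_smul]
      rw [mul_comm t (ent b (locRho ρbar σ) 0 0)]
      abel
    unfold ent
    rw [e, map_smul]
    simp
  refine ⟨b', hb', fun σ => diag_swap hb hb' ?_ σ⟩
  rw [hb0]
  simp

theorem quotChar_inv_val (hb : IsLineBasis ρbar b p) (σ : Gp p) :
    (((quotChar hb)⁻¹ σ : kˣ) : k) = ent b (locRho ρbar σ) 1 1 / ent b (locRho ρbar σ) 0 0 := by
  rw [MonoidHom.inv_apply, Units.val_inv_eq_inv_val, quotChar_val, inv_div]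

variable [CharP k p]

/-- If `CC3` applies to `χ⁻¹`, a bounded cocycle is cohomologous to a line cocycle. -/
theorem exists_lineCoc_of_cc3 [Finite k] (h0 : Stmt_CC0) (h3 : Stmt_CC3) (hp2 : p ≠ 2)
    (hb : IsLineBasis ρbar b p)
    (hne : ∃ σ ∈ inertiaP p, (quotChar hb)⁻¹ σ ≠ 1)
    (hnc : ∃ σ ∈ inertiaP p, ¬ IsCycloAt (((quotChar hb)⁻¹ σ : kˣ) : k) σ)
    (c : cocycles₁ (locRep (ad0 ρbar) (pPrime p))) (hbdd : IsBddAd ρbar c) :
    ∃ c' : cocycles₁ (locRep (ad0 ρbar) (pPrime p)),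
      (H1π (locRep (ad0 ρbar) (pPrime p))).hom c' = (H1π (locRep (ad0 ρbar) (pPrime p))).hom c ∧
        IsLineCoc b c' := by
  obtain ⟨L, hfd, hN, hB, hfix⟩ := id hbdd
  have hc10 : IsBddCoc (quotChar hb)⁻¹ (fun σ => ent b (cocVal ρbar c σ) 1 0) := by
    refine ⟨fun σ τ => ent10_cocVal_mul hb c σ τ, L, hfd, hN, hB, fun σ hσ => ⟨?_, ?_⟩⟩
    · rw [MonoidHom.inv_apply, quotChar_eq_one hb (hfix σ hσ).1, inv_one]
    · show ent b (cocVal ρbar c σ) 1 0 = 0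
      rw [(hfix σ hσ).2, ent_zero]
  obtain ⟨a, ha⟩ := cc3_apply h3 hp2 hne hnc hc10
  obtain ⟨c', hc'⟩ : ∃ c' : cocycles₁ (locRep (ad0 ρbar) (pPrime p)),
      c' = c - cobd ρbar (lowEnd b a) (trace_lowEnd b a) := ⟨_, rfl⟩
  have hbdd' : IsBddAd ρbar c' := by
    rw [hc']
    exact IsBddAd.sub_cobd hbdd _ _
  have h10 : ∀ σ : Gp p, ent b (cocVal ρbar c' σ) 1 0 = 0 := by
    intro σ
    rw [hc', cocVal_sub, ent_sub, ent_cobd_lowEnd hb a σ]
    have e1 : ent b (cocVal ρbar c σ) 1 0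
        = ((((quotChar hb)⁻¹ σ : kˣ) : k) - 1) * a := ha σ
    rw [e1, sub_self]
  refine ⟨c', ?_, hbdd', h10, ?_⟩
  · rw [hc', map_sub, H1π_cobd, sub_zero]
  · obtain ⟨L', hfd', hN', hB', hfix'⟩ := id hbdd'
    have hA : IsBddCoc (1 : Gp p →* kˣ) (fun σ => ent b (cocVal ρbar c' σ) 0 0) := by
      refine ⟨fun σ τ => ?_, L', hfd', hN', hB', fun σ hσ => ⟨rfl, ?_⟩⟩
      · have := (ent_cocVal_mul_of_line hb c' h10 σ τ).1
        simp only [MonoidHom.one_apply, Units.val_one, one_mul]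
        exact this
      · show ent b (cocVal ρbar c' σ) 0 0 = 0
        rw [(hfix' σ hσ).2, ent_zero]
    exact fun σ hσ => cc0_apply h0 hp2 hA σ hσ

/-- `dim H¹_bdd(G_p, k(χ)) ≤ 1` for a character `χ` which is ramified. -/
theorem dimLeOne_of_ramified [Finite k] (h1 : Stmt_CC1) (h3 : Stmt_CC3) (hp2 : p ≠ 2)
    (χ : Gp p →* kˣ) (hne : ∃ σ ∈ inertiaP p, χ σ ≠ 1) :
    DimLeOne (⊤ : Subgroup (Gp p)) (topChar χ) := by
  by_cases hcyc : ∀ σ ∈ inertiaP p, IsCycloAt (χ σ : k) σ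
  · exact cc1_apply h1 hp2 hcyc
  · have hnc : ∃ σ ∈ inertiaP p, ¬ IsCycloAt (χ σ : k) σ := by
      by_contra hcon
      apply hcyc
      intro σ hσ
      by_contra h
      exact hcon ⟨σ, hσ, h⟩
    obtain ⟨σ₁, hσ₁, hσ₁'⟩ := hne
    obtain ⟨σ₂, hσ₂, hσ₂'⟩ := hnc
    intro c₁ c₂ hc₁ hc₂
    obtain ⟨a, ha⟩ := h3 p hp2 k (topChar χ) ⟨⟨σ₁, Subgroup.mem_top _⟩, hσ₁, hσ₁'⟩
      ⟨⟨σ₂, Subgroup.mem_top _⟩, hσ₂, hσ₂'⟩ c₁ hc₁
    refine ⟨1, 0, a, Or.inl one_ne_zero, fun σ => ?_⟩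
    rw [one_mul, zero_mul, add_zero]
    exact ha σ

end caseB

section final

variable {p : ℕ} [Fact p.Prime] {k : Type} [Field k] [CharP k p] {ρbar : ResidualGaloisRep k}
  {b : Basis (Fin 2) k ρbar.V}

theorem eq_neg_one_of_sq {x : k} (h : x * x = 1) (h1 : x ≠ 1) : x = -1 := by
  have h2 : (x - 1) * (x + 1) = 0 := by linear_combination h
  rcases mul_eq_zero.1 h2 with h3 | h3
  · exact absurd (sub_eq_zero.1 h3) h1
  · exact eq_neg_of_add_eq_zero_left h3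

/-- In the case without ordinary line: a stable line to whose character `χ⁻¹` the count `CC3`
applies. -/
theorem exists_good_line [Finite k] (h3 : Stmt_CC3) (hTC : Stmt_TameChars) (hp2 : p ≠ 2)
    (hloc : LocHyp ρbar p) (h₀ : RhoBdd ρbar p) (hb : IsLineBasis ρbar b p)
    (hr1 : ∃ σ ∈ inertiaP p, ent b (locRho ρbar σ) 0 0 ≠ 1)
    (hr2 : ∃ σ ∈ inertiaP p, ent b (locRho ρbar σ) 1 1 ≠ 1) :
    ∃ (b' : Basis (Fin 2) k ρbar.V) (hb' : IsLineBasis ρbar b' p),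
      (∃ σ ∈ inertiaP p, (quotChar hb')⁻¹ σ ≠ 1) ∧
        ∃ σ ∈ inertiaP p, ¬ IsCycloAt (((quotChar hb')⁻¹ σ : kˣ) : k) σ := by
  obtain ⟨L, hfd, hN, hB, hfix⟩ := id h₀
  haveI := hfd
  have hone : ∀ (i : Fin 2) (σ : Gp p), locRho ρbar σ = 1 → diagChar hb i σ = 1 := by
    intro i σ h
    apply Units.ext
    rw [diagChar_val, h, ent_one, if_pos rfl, Units.val_one]
  obtain ⟨s, hs, hpow, hsne⟩ := hTC p hp2 k (diagChar hb 0) (diagChar hb 1) L hN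
    (fun σ hσ => ⟨hone 0 σ (hfix σ hσ), hone 1 σ (hfix σ hσ)⟩)
    (fun σ hσ => by
      rw [diagChar_val, diagChar_val, ← det_eq_ent hb]
      exact hloc.1 σ)
  obtain ⟨a₁, ha₁⟩ : ∃ a₁ : k, a₁ = ent b (locRho ρbar s) 0 0 := ⟨_, rfl⟩
  obtain ⟨a₂, ha₂⟩ : ∃ a₂ : k, a₂ = ent b (locRho ρbar s) 1 1 := ⟨_, rfl⟩
  have ha₁0 : a₁ ≠ 0 := by rw [ha₁]; exact hb.ent_ne_zero 0 s
  have ha₂0 : a₂ ≠ 0 := by rw [ha₂]; exact hb.ent_ne_zero 1 s
  have hne12 : a₁ ≠ a₂ := by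
    intro h
    apply hsne
    apply Units.ext
    rw [diagChar_val, diagChar_val, ← ha₁, ← ha₂, h]
  have hne1 : a₁ ≠ 1 := by
    intro h
    obtain ⟨ι, hι, hιne⟩ := hr1
    obtain ⟨n, e1, -⟩ := hpow ι hι
    apply hιne
    have e2 : diagChar hb 0 s = 1 := by
      apply Units.ext
      rw [diagChar_val, ← ha₁, h, Units.val_one]
    rw [← diagChar_val hb 0 ι, e1, e2, one_pow, Units.val_one]
  have hne2 : a₂ ≠ 1 := by
    intro h
    obtain ⟨ι, hι, hιne⟩ := hr2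
    obtain ⟨n, -, e1⟩ := hpow ι hι
    apply hιne
    have e2 : diagChar hb 1 s = 1 := by
      apply Units.ext
      rw [diagChar_val, ← ha₂, h, Units.val_one]
    rw [← diagChar_val hb 1 ι, e1, e2, one_pow, Units.val_one]
  have hdet : IsCycloAt (a₁ * a₂) s := by
    have := hloc.1 s
    rwa [det_eq_ent hb, ← ha₁, ← ha₂] at this
  by_cases hcy : IsCycloAt (a₂ / a₁) s
  · have e1 : a₂ / a₁ = a₁ * a₂ := isCycloAt_uniq hcy hdet
    have hsq1 : a₁ * a₁ = 1 := by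
      rw [div_eq_iff ha₁0] at e1
      have : (a₁ * a₁ - 1) * a₂ = 0 := by linear_combination -e1
      rcases mul_eq_zero.1 this with h | h
      · exact sub_eq_zero.1 h
      · exact absurd h ha₂0
    have hncy : ¬ IsCycloAt (a₁ / a₂) s := by
      intro h
      have e2 : a₁ / a₂ = a₁ * a₂ := isCycloAt_uniq h hdet
      have hsq2 : a₂ * a₂ = 1 := by
        rw [div_eq_iff ha₂0] at e2
        have : (a₂ * a₂ - 1) * a₁ = 0 := by linear_combination -e2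
        rcases mul_eq_zero.1 this with h | h
        · exact sub_eq_zero.1 h
        · exact absurd h ha₁0
      exact hne12 ((eq_neg_one_of_sq hsq1 hne1).trans (eq_neg_one_of_sq hsq2 hne2).symm)
    have hχs : (quotChar hb s : k) = a₁ / a₂ := by rw [quotChar_val, ← ha₁, ← ha₂]
    have hχne : quotChar hb s ≠ 1 := by
      intro h
      have h' := congrArg Units.val h
      rw [hχs, Units.val_one, div_eq_one_iff_eq ha₂0] at h'
      exact hne12 h'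
    obtain ⟨t, ht⟩ := cc3_apply h3 hp2 ⟨s, hs, hχne⟩ ⟨s, hs, by rw [hχs]; exact hncy⟩
      (isBddCoc_ext h₀ hb)
    obtain ⟨b', hb', hsw⟩ := exists_swap hb t ht
    have hval : (((quotChar hb')⁻¹ s : kˣ) : k) = a₁ / a₂ := by
      rw [quotChar_inv_val, (hsw s).1, (hsw s).2, ← ha₁, ← ha₂]
    refine ⟨b', hb', ⟨s, hs, ?_⟩, ⟨s, hs, ?_⟩⟩
    · intro h
      have h' := congrArg Units.val h
      rw [hval, Units.val_one, div_eq_one_iff_eq ha₂0] at h'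
      exact hne12 h'
    · rw [hval]
      exact hncy
  · have hval : (((quotChar hb)⁻¹ s : kˣ) : k) = a₂ / a₁ := by
      rw [quotChar_inv_val, ← ha₁, ← ha₂]
    refine ⟨b, hb, ⟨s, hs, ?_⟩, ⟨s, hs, ?_⟩⟩
    · intro h
      have h' := congrArg Units.val h
      rw [hval, Units.val_one, div_eq_one_iff_eq ha₁0] at h'
      exact hne12 h'.symm
    · rw [hval]
      exact hcy

/-- **COH-RED** from the counts `CC0`, `CC1`, `CC3` and the tame inputs. -/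
theorem stmt_COH_RED_of (h0 : Stmt_CC0) (h1 : Stmt_CC1) (h3 : Stmt_CC3) (hT : Stmt_Tame)
    (hTC : Stmt_TameChars) : Stmt_COH_RED := by
  intro p _ hp2 k _ _ _ ρbar hloc hline hsplit W hW
  have h₀ : RhoBdd ρbar p := by
    obtain ⟨c, -, hc, -⟩ := hW 0 W.zero_mem
    exact IsBddAd.rhoBdd hc
  by_cases hord : ∃ ℓ : Submodule k ρbar.V, IsOrdLine ρbar p ℓ
  · obtain ⟨ℓ, hℓ⟩ := hord
    obtain ⟨b, hadp⟩ := exists_adapted hℓ.1.1
    have hb : IsLineBasis ρbar b p := hadp.isLineBasis hℓ.1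
    refine core_bound hp2 hT hb (cc1_apply h1 hp2 (quotChar_cyclo_of_ord hloc hadp hb hℓ)) W ?_
    intro ξ hξ
    obtain ⟨c, rfl, hbdd, hO⟩ := hW ξ hξ
    exact exists_lineCoc_of_ord hp2 hadp c hbdd (hO ℓ hℓ)
  · obtain ⟨ℓ, hℓ⟩ := hline
    obtain ⟨b, hadp⟩ := exists_adapted hℓ.1
    have hb : IsLineBasis ρbar b p := hadp.isLineBasis hℓ
    have hr2 : ∃ σ ∈ inertiaP p, ent b (locRho ρbar σ) 1 1 ≠ 1 := by
      by_contra hcon
      push Not at hcon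
      exact hord ⟨ℓ, isOrdLine_of_ent11 hadp hℓ hb hcon⟩
    have hr1 : ∃ σ ∈ inertiaP p, ent b (locRho ρbar σ) 0 0 ≠ 1 := by
      by_contra hcon
      push Not at hcon
      have htriv : ∀ σ ∈ inertiaP p, ∀ v ∈ ℓ, locRho ρbar σ v = v := by
        intro σ hσ v hv
        obtain ⟨t, rfl⟩ := hadp.2 v hv
        rw [map_smul, hb.apply_b0, hcon σ hσ, one_smul]
      obtain ⟨ℓ', hℓ', hne⟩ := hsplit ℓ hℓ htriv
      obtain ⟨b', hadp'⟩ := exists_adapted hℓ'.1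
      have hb' : IsLineBasis ρbar b' p := hadp'.isLineBasis hℓ'
      have hsw := diag_swap hb hb' (coord1_ne_zero_of_ne hadp hadp' hℓ.1 hℓ'.1 hne)
      exact hord ⟨ℓ', isOrdLine_of_ent11 hadp' hℓ' hb'
        (fun σ hσ => by rw [(hsw σ).2, hcon σ hσ])⟩
    obtain ⟨b', hb', hne', hnc'⟩ := exists_good_line h3 hTC hp2 hloc h₀ hb hr1 hr2
    have hne'' : ∃ σ ∈ inertiaP p, quotChar hb' σ ≠ 1 := by
      obtain ⟨σ, hσ, h⟩ := hne'
      refine ⟨σ, hσ, fun h' => h ?_⟩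
      rw [MonoidHom.inv_apply, h', inv_one]
    refine core_bound hp2 hT hb' (dimLeOne_of_ramified h1 h3 hp2 _ hne'') W ?_
    intro ξ hξ
    obtain ⟨c, rfl, hbdd, -⟩ := hW ξ hξ
    exact exists_lineCoc_of_cc3 h0 h3 hp2 hb' hne' hnc' c hbdd

end final

end Fermat.Agent.S56.FL.H57

end

end
-- ==== END Fermat.Agent.S56.FL.H57_CohRed

-- ==== BEGIN Fermat.Agent.S56.FL.H59_CC3
section

set_option autoImplicit false
set_option linter.style.haveILetI false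
set_option linter.unusedSectionVars false

/-!
# LOC-p-FL, package UNITS / CC3z (helper59): assembly

`Stmt_CC3z` from the leaves `Stmt_LevC`, `Stmt_LevD`, `Stmt_HenselF` of
`FL/H59_CC3Defs.lean`, `H85.kumbdd_core` (KUMBDD), `H50.tame_char_omg` (TAME-CHAR) and the Kummer
witnesses of `FL/H59_CC3Kum.lean`.

`H = ker χ ∩ ker ω`, `K' = K̄^H`.  For an `𝔽_p`-linear `λ : k → 𝔽_p`, `ψ = λ ∘ c` is an additive
character of `H` with Kummer witness `a ∈ K'`, `a ≡ 1 mod p` (KUMBDD).  For `g` in inertia,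
`ψ(g⁻¹ h g) = ω(g)^{-a} ψ(h)` (`χ = ω^a` on inertia).  Twisting by `σ_B` (`χ ≠ ω`) pushes the
witness into `U^{(p)}`, twisting by `σ_A` (`χ ≠ 1`) into `U^{(p+1)} ⊆ (K'ˣ)^p`; so a nonzero
multiple of `ψ` vanishes.  Hence `c = 0` on `H`, and `c` is a coboundary.
-/

noncomputable section

namespace Fermat.Agent.S56.FL.H59

open Fermat.Agent.S56.FL Fermat.Agent.Lib.LocalKummer Fermat.Agent.S56.FL.H85

variable {p : ℕ} [Fact p.Prime]

section cocycle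

variable {k : Type} [Field k] (χ : Gp p →* kˣ) (c : Gp p → k)

theorem coc_one (hcoc : ∀ σ τ, c (σ * τ) = c σ + (χ σ : k) * c τ) : c 1 = 0 := by
  have h := hcoc 1 1
  rw [mul_one, map_one, Units.val_one, one_mul] at h
  linear_combination -h

theorem coc_conj (hcoc : ∀ σ τ, c (σ * τ) = c σ + (χ σ : k) * c τ) (g h : Gp p)
    (hh : χ h = 1) : c (g⁻¹ * h * g) = (((χ g)⁻¹ : kˣ) : k) * c h := by
  have h1 := hcoc (g⁻¹ * h) g
  have h2 := hcoc g⁻¹ h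
  have h3 := hcoc g⁻¹ g
  rw [inv_mul_cancel, coc_one χ c hcoc, map_inv] at h3
  rw [h1, h2, map_mul, hh, mul_one, map_inv]
  linear_combination -h3

theorem coboundary_of_vanish_comm (hcoc : ∀ σ τ, c (σ * τ) = c σ + (χ σ : k) * c τ)
    (H : Subgroup (Gp p)) (hcomm : ∀ σ τ : Gp p, (τ * σ)⁻¹ * (σ * τ) ∈ H)
    (hvan : ∀ h ∈ H, c h = 0) {σA : Gp p} (hσA : χ σA ≠ 1) :
    ∃ a : k, ∀ σ, c σ = ((χ σ : k) - 1) * a := by
  have hne : (χ σA : k) - 1 ≠ 0 := by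
    intro h
    apply hσA
    apply Units.ext
    rw [Units.val_one]
    exact sub_eq_zero.1 h
  refine ⟨c σA / ((χ σA : k) - 1), fun σ => ?_⟩
  have h1 := hcoc σ σA
  have h2 := hcoc σA σ
  have h3 : c (σ * σA) = c (σA * σ) := by
    have : σ * σA = (σA * σ) * ((σA * σ)⁻¹ * (σ * σA)) := by group
    rw [this, hcoc, hvan _ (hcomm σ σA), mul_zero, add_zero]
  rw [h1, h2] at h3
  field_simp
  linear_combination -h3

end cocycle

/-- **CC3z**, for characters and cocycles on `Gal(K̄/ℚ_p)`. -/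
theorem cc3_core (hC : Stmt_LevC) (hD : Stmt_LevD) (hH : Stmt_HenselF) (hp2 : p ≠ 2)
    {k : Type} [Field k] [Finite k] [CharP k p] (χ : Gp p →* kˣ) (c : Gp p → k)
    (hcoc : ∀ σ τ, c (σ * τ) = c σ + (χ σ : k) * c τ)
    (L : IntermediateField ℚ_[p] (PadicAlgCl p)) [FiniteDimensional ℚ_[p] L]
    (hN : Normal ℚ_[p] L) (hbdd : IsBddField p L)
    (hμ : ∀ ζ : PadicAlgCl p, ζ ^ p = 1 → ζ ∈ L)
    (htriv : ∀ σ ∈ L.fixingSubgroup, χ σ = 1 ∧ c σ = 0)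
    {σA : Gp p} (hAI : σA ∈ inertiaP p) (hA : χ σA ≠ 1)
    {σB : Gp p} (hBI : σB ∈ inertiaP p) (hB : ¬ IsCycloAt (χ σB : k) σB) :
    ∃ a : k, ∀ σ, c σ = ((χ σ : k) - 1) * a := by
  classical
  have hp : p.Prime := Fact.out
  obtain ⟨ζ, hζ1, hζp⟩ := H15.exists_zeta (p := p)
  have hζ : IsPrimitiveRoot ζ p := by
    rw [IsPrimitiveRoot.iff_orderOf]
    exact orderOf_eq_prime hζp hζ1
  obtain ⟨a, ha⟩ := H50.tame_char_omg H38.stmt_Tame hζ χ L hN (fun σ hσ => (htriv σ hσ).1)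
  -- the subgroup `H`
  set H : Subgroup (Gp p) := χ.ker ⊓ (omg hζ).ker with hHdef
  have hmemH : ∀ h, h ∈ H ↔ χ h = 1 ∧ omg hζ h = 1 := fun h => by
    rw [hHdef, Subgroup.mem_inf, MonoidHom.mem_ker, MonoidHom.mem_ker]
  have hHζ : ∀ h ∈ H, h ζ = ζ := fun h hh => (omg_eq_one_iff hζ h).1 ((hmemH h).1 hh).2
  have hUH : L.fixingSubgroup ≤ H := by
    intro u hu
    rw [hmemH]
    refine ⟨(htriv u hu).1, (omg_eq_one_iff hζ u).2 ?_⟩
    exact (IntermediateField.mem_fixingSubgroup_iff L u).1 hu ζ (hμ ζ hζ.pow_eq_one)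
  have hconj : ∀ g : Gp p, ∀ h ∈ H, g⁻¹ * h * g ∈ H := by
    intro g h hh
    rw [hmemH] at hh ⊢
    constructor
    · rw [map_mul, map_mul, hh.1, mul_one, map_inv, inv_mul_cancel]
    · rw [map_mul, map_mul, hh.2, mul_one, map_inv, inv_mul_cancel]
  have hcomm : ∀ σ τ : Gp p, (τ * σ)⁻¹ * (σ * τ) ∈ H := by
    intro σ τ
    rw [hmemH]
    constructor
    · rw [map_mul, map_inv, map_mul, map_mul, mul_comm (χ τ) (χ σ), inv_mul_cancel]
    · rw [map_mul, map_inv, map_mul, map_mul, mul_comm (omg hζ τ) (omg hζ σ), inv_mul_cancel]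
  -- reduce to vanishing on `H`
  suffices hvan : ∀ h ∈ H, c h = 0 from coboundary_of_vanish_comm χ c hcoc H hcomm hvan hA
  -- the field `K'`
  set K' : IntermediateField ℚ_[p] (PadicAlgCl p) := IntermediateField.fixedField H with hK'
  have hmemK : ∀ x, x ∈ K' ↔ ∀ h ∈ H, h x = x := fun x =>
    IntermediateField.mem_fixedField_iff H x
  have hK'L : K' ≤ L := fun x hx => mem_of_fixed_of_le hUH ((hmemK x).1 hx)
  haveI : FiniteDimensional ℚ_[p] K' :=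
    Module.Finite.of_injective (IntermediateField.inclusion hK'L).toLinearMap
      (IntermediateField.inclusion hK'L).injective
  have hζK : ζ ∈ K' := (hmemK ζ).2 hHζ
  -- the units `w g = ω(g)`
  set w : Gp p → ZMod p := fun g => ((omg hζ g : (ZMod p)ˣ) : ZMod p) with hw
  have hw0 : ∀ g, w g ≠ 0 := fun g => Units.ne_zero _
  have hχ : ∀ g ∈ inertiaP p, (χ g : k) = cst p k (w g ^ a) := by
    intro g hg
    rw [ha g hg, map_pow]
  -- elements of `K'` are in `S`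
  have hInS : ∀ x ∈ K', InS p x := by
    intro x hx τ hτ hτζ
    apply (hmemK x).1 hx
    rw [hmemH]
    have hω1 : omg hζ τ = 1 := (omg_eq_one_iff hζ τ).2 (hτζ ζ hζ.pow_eq_one)
    refine ⟨?_, hω1⟩
    apply Units.ext
    rw [hχ τ hτ, hw]
    simp only
    rw [hω1, Units.val_one, one_pow, map_one, Units.val_one]
  letI : Algebra (ZMod p) k := ZMod.algebra k p
  have hχinv : ∀ g ∈ inertiaP p, (((χ g)⁻¹ : kˣ) : k) = cst p k ((w g ^ a)⁻¹) := by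
    intro g hg
    rw [Units.val_inv_eq_inv_val, hχ g hg, map_inv₀]
  intro h hh
  rw [← Module.forall_dual_apply_eq_zero_iff (ZMod p) (c h)]
  intro lam
  -- the character `ψ`
  set ψ : Gp p → ZMod p := fun σ => lam (c σ) with hψ
  have hadd : ∀ h ∈ H, ∀ h' ∈ H, ψ (h * h') = ψ h + ψ h' := by
    intro h hh h' hh'
    simp only [hψ]
    rw [hcoc, ((hmemH h).1 hh).1, Units.val_one, one_mul, map_add]
  have hU : ∀ u ∈ L.fixingSubgroup, ψ u = 0 := by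
    intro u hu
    simp only [hψ]
    rw [(htriv u hu).2, map_zero]
  have hψconj : ∀ g ∈ inertiaP p, ∀ h ∈ H, ψ (g⁻¹ * h * g) = (w g ^ a)⁻¹ * ψ h := by
    intro g hg h hh
    simp only [hψ]
    rw [coc_conj χ c hcoc g h ((hmemH h).1 hh).1, hχinv g hg]
    have h1 : cst p k ((w g ^ a)⁻¹) * c h = ((w g ^ a)⁻¹ : ZMod p) • c h :=
      (Algebra.smul_def _ _).symm
    rw [h1, map_smul, smul_eq_mul]
  -- the Kummer witness
  obtain ⟨γ, hγ0, hγL, hγ⟩ := exists_KW hζ L H hUH hHζ ψ hadd hU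
  have hkw0 : KW ζ H ψ (γ ^ p) := ⟨γ, hγ0, rfl, hγ⟩
  have ha0K : γ ^ p ∈ K' := (hmemK _).2 (hkw0.fixed hζ.pow_eq_one)
  obtain ⟨b, hbK, hb0, hb⟩ := kumbdd_core L K' hN hK'L hbdd
    ⟨ζ, hζK, hζ1, hζp⟩ (γ ^ p) ha0K hkw0.ne_zero ⟨γ, hγL, rfl⟩
  have hkw1 : KW ζ H ψ (γ ^ p * b ^ p) := hkw0.mul_pow hb0 ((hmemK b).1 hbK)
  set a₁ : PadicAlgCl p := γ ^ p * b ^ p with ha₁
  have ha₁K : a₁ ∈ K' := (hmemK _).2 (hkw1.fixed hζ.pow_eq_one)
  -- Step C: twist by `σB`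
  have hkw2 := hkw1.twist hζ σB (hconj σB) 1
  set κB : ZMod p := w σB * (w σB ^ a)⁻¹ - 1 with hκB
  have hkw2' : KW ζ H (fun h => κB * ψ h) (σB a₁ / a₁) := by
    have h1 := hkw2.congr (ψ' := fun h => κB * ψ h) (fun h hh => by
      rw [hψconj σB hBI h hh, Nat.cast_one, one_mul, hκB]
      ring)
    rwa [pow_one] at h1
  have hnC : ‖σB a₁ / a₁ - 1‖ ^ (p - 1) ≤ ((p : ℝ)⁻¹) ^ p :=
    hC p a₁ (hInS a₁ ha₁K) hb σB hBI
  set a₂ : PadicAlgCl p := σB a₁ / a₁ with ha₂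
  have ha₂K : a₂ ∈ K' := (hmemK _).2 (hkw2'.fixed hζ.pow_eq_one)
  -- Step D: twist by `σA`
  set n : ℕ := (w σA).val with hn
  have hnζ : ∀ ξ : PadicAlgCl p, ξ ^ p = 1 → σA ξ = ξ ^ n := fun ξ hξ => omg_spec' hζ σA hξ
  have hkw3 := hkw2'.twist hζ σA (hconj σA) n
  set κA : ZMod p := w σA * (w σA ^ a)⁻¹ - w σA with hκA
  have hkw3' : KW ζ H (fun h => κA * κB * ψ h) (σA a₂ / a₂ ^ n) :=
    hkw3.congr (fun h hh => by
      rw [hψconj σA hAI h hh, hn, ZMod.natCast_zmod_val, hκA]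
      ring)
  have hnD : ‖σA a₂ / a₂ ^ n - 1‖ ^ (p - 1) ≤ ((p : ℝ)⁻¹) ^ (p + 1) :=
    hD p hp2 a₂ (hInS a₂ ha₂K) hnC σA hAI n hnζ
  set a₃ : PadicAlgCl p := σA a₂ / a₂ ^ n with ha₃
  have ha₃K : a₃ ∈ K' := (hmemK _).2 (hkw3'.fixed hζ.pow_eq_one)
  have hlt : ‖a₃ - 1‖ ^ (p - 1) < ((p : ℝ)⁻¹) ^ p := by
    refine lt_of_le_of_lt hnD ?_
    have hpos : 0 < ((p : ℝ)⁻¹) ^ p := by
      have : (0 : ℝ) < (p : ℝ)⁻¹ := inv_pos.mpr (by exact_mod_cast hp.pos)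
      positivity
    have h1 : (p : ℝ)⁻¹ < 1 := inv_lt_one_of_one_lt₀ (by exact_mod_cast hp.one_lt)
    rw [pow_succ]
    calc ((p : ℝ)⁻¹) ^ p * (p : ℝ)⁻¹ < ((p : ℝ)⁻¹) ^ p * 1 :=
          mul_lt_mul_of_pos_left h1 hpos
      _ = ((p : ℝ)⁻¹) ^ p := mul_one _
  obtain ⟨z, hzK, hz⟩ := hH p K' (a₃ - 1) (K'.sub_mem ha₃K K'.one_mem) hlt
  have hz' : (1 + z) ^ p = a₃ := by rw [hz]; ring
  have hfix1z : ∀ h ∈ H, h (1 + z) = 1 + z := (hmemK _).1 (K'.add_mem K'.one_mem hzK)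
  rw [← hz'] at hkw3'
  have hzero := hkw3'.eq_zero hζ hHζ hfix1z h hh
  -- the constants are nonzero
  have hκB0 : κB ≠ 0 := by
    intro h0
    apply hB
    rw [isCycloAt_iff hζ, hχ σB hBI]
    congr 1
    have hwa : w σB ^ a ≠ 0 := pow_ne_zero _ (hw0 σB)
    have h1 : w σB * (w σB ^ a)⁻¹ = 1 := sub_eq_zero.1 h0
    field_simp at h1
    exact h1.symm
  have hκA0 : κA ≠ 0 := by
    intro h0
    apply hA
    apply Units.ext
    rw [hχ σA hAI, Units.val_one]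
    have hwa : w σA ^ a ≠ 0 := pow_ne_zero _ (hw0 σA)
    have h1 : w σA * ((w σA ^ a)⁻¹ - 1) = 0 := by rw [mul_sub, mul_one]; exact h0
    have h2 : (w σA ^ a)⁻¹ - 1 = 0 := (mul_eq_zero.1 h1).resolve_left (hw0 σA)
    have h3 : (w σA ^ a)⁻¹ = 1 := sub_eq_zero.1 h2
    have h4 : w σA ^ a = 1 := inv_eq_one.1 h3
    rw [h4, map_one]
  rcases mul_eq_zero.1 hzero with h1 | h1
  · exact absurd h1 (mul_ne_zero hκA0 hκB0)
  · exact h1

/-- **CC3z** from its leaves. -/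
theorem stmt_CC3z_of (hC : Stmt_LevC) (hD : Stmt_LevD) (hH : Stmt_HenselF) : Stmt_CC3z := by
  intro p _ hp2 k _ _ _ χ hA hB c hc
  obtain ⟨⟨σA, hσA⟩, hAI, hA⟩ := hA
  obtain ⟨⟨σB, hσB⟩, hBI, hB⟩ := hB
  obtain ⟨hcoc, L, hfd, hN, hbdd, hμ, htriv⟩ := hc
  haveI := hfd
  set χ' : Gp p →* kˣ := χ.comp (Subgroup.topEquiv.symm : Gp p ≃* (⊤ : Subgroup (Gp p))).toMonoidHom
    with hχ'
  set c' : Gp p → k := fun σ => c ⟨σ, Subgroup.mem_top σ⟩ with hc'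
  obtain ⟨a, ha⟩ := cc3_core hC hD hH hp2 χ' c'
    (fun σ τ => hcoc ⟨σ, Subgroup.mem_top σ⟩ ⟨τ, Subgroup.mem_top τ⟩) L hN hbdd hμ
    (fun σ hσ => htriv ⟨σ, Subgroup.mem_top σ⟩ hσ) (σA := σA) hAI hA (σB := σB) hBI hB
  exact ⟨a, fun σ => ha σ.1⟩

end Fermat.Agent.S56.FL.H59

end

end
-- ==== END Fermat.Agent.S56.FL.H59_CC3

-- ==== BEGIN Fermat.Agent.S56.FL.H61_CC2Small
section

set_option autoImplicit false
set_option linter.style.haveILetI false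
set_option linter.unusedSectionVars false

noncomputable section

namespace Fermat.Agent.S56.FL.H61

open scoped NNReal
open Fermat.Agent.S56.FL Fermat.Agent.S56.FL.H15 Fermat.Agent.S56.FL.H85 Module

/-- **ELL0.** -/
theorem exists_ell0 (p : ℕ) [Fact p.Prime] (k : Type) [Field k] [Finite k] [CharP k p] :
    ∃ ℓ₀ : k →+ ZMod p, (∀ (a : ZMod p) (x : k), ℓ₀ (H85.cst p k a * x) = a * ℓ₀ x) ∧
      ∀ y : k, (∀ x : k, ℓ₀ (x * y) = 0) → y = 0 := by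
  letI : Algebra (ZMod p) k := ZMod.algebra k p
  have h1 : ¬ ∀ φ : Module.Dual (ZMod p) k, φ (1 : k) = 0 := by
    intro h
    exact one_ne_zero ((Module.forall_dual_apply_eq_zero_iff (ZMod p) (1 : k)).1 h)
  obtain ⟨φ, hφ⟩ := not_forall.1 h1
  refine ⟨φ.toAddMonoidHom, fun a x => ?_, fun y hy => ?_⟩
  · have h2 : H85.cst p k a * x = a • x := (Algebra.smul_def a x).symm
    change φ (H85.cst p k a * x) = a * φ x
    rw [h2, map_smul, smul_eq_mul]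
  · by_contra hy0
    apply hφ
    have := hy y⁻¹
    rwa [inv_mul_cancel₀ hy0] at this

variable {p : ℕ} [Fact p.Prime]

/-- **LEVX.** -/
theorem exists_levCtx (K : IntermediateField ℚ_[p] (PadicAlgCl p)) [FiniteDimensional ℚ_[p] K]
    {ζ : PadicAlgCl p} (hζK : ζ ∈ K) (hζ1 : ζ ≠ 1) (hζp : ζ ^ p = 1) :
    ∃ (ϖ : PadicAlgCl p) (e₀ : ℕ), H15.LevCtx K ϖ ζ e₀ := by
  have hp : p.Prime := Fact.out
  obtain ⟨π, hπ0, hπ1, hπmax⟩ := H15.exists_uniformizer K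
  have hz := H15.norm_zeta_sub_one hζ1 hζp
  have hz1 : ‖ζ - 1‖ ≤ 1 := by
    by_contra hcon
    have h1 : 1 ≤ ‖ζ - 1‖ ^ (p - 1) := one_le_pow₀ (not_le.mp hcon).le
    rw [hz] at h1
    exact absurd (inv_lt_one_of_one_lt₀ (H15.one_lt_p_real (p := p))) (not_lt.mpr h1)
  have hzK : ζ - 1 ∈ K := K.sub_mem hζK K.one_mem
  have hz0 : (⟨ζ - 1, hzK⟩ : K) ≠ 0 := by
    intro h
    have := congrArg (fun a : K => (a : PadicAlgCl p)) h
    exact hζ1 (sub_eq_zero.mp this)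
  obtain ⟨j, hj⟩ := H15.exists_norm_eq_pow K (π := π) hπ0 hπ1 hπmax ⟨ζ - 1, hzK⟩ hz0 hz1
  exact ⟨(π : PadicAlgCl p), j,
    { hϖK := π.2
      hϖ0 := hπ0
      hϖ1 := hπ1
      hmax := fun a ha h => hπmax ⟨a, ha⟩ h
      hζK := hζK
      hζ1 := hζ1
      hζp := hζp
      he₀ := hj }⟩

/-- **PHI2.** -/
theorem exists_frob_sq (K : IntermediateField ℚ_[p] (PadicAlgCl p)) [FiniteDimensional ℚ_[p] K]
    (hK : Normal ℚ_[p] K) (G₂ : Subgroup (Gp p)) (hsq : ∀ g : Gp p, g ^ 2 ∈ G₂) :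
    ∃ Φ ∈ G₂, ∀ a ∈ K, ‖a‖ ≤ 1 → ‖Φ a - a ^ (p ^ 2)‖ < 1 := by
  haveI : Normal ℚ_[p] K := hK
  obtain ⟨φ, hφ⟩ := H59.stmt_FROB p K hK
  refine ⟨φ ^ 2, hsq φ, fun a haK ha => ?_⟩
  have h1 : φ a ∈ K := H15.map_mem_of_normal φ haK
  have h2 : ‖φ a‖ ≤ 1 := by rw [norm_gal]; exact ha
  have h3 := hφ (φ a) h1 h2
  have h4 := hφ a haK ha
  have h5 : ‖(φ a) ^ p - (a ^ p) ^ p‖ < 1 :=
    (H15.norm_pow_sub_pow_le_algCl h2
      (by rw [norm_pow]; exact pow_le_one₀ (norm_nonneg _) ha) p).trans_lt h4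
  have h6 : (φ ^ 2) a - a ^ (p ^ 2) = (φ (φ a) - (φ a) ^ p) + ((φ a) ^ p - (a ^ p) ^ p) := by
    rw [pow_two, pow_two, pow_mul]
    change φ (φ a) - (a ^ p) ^ p = _
    ring
  rw [h6]
  exact (IsUltrametricDist.norm_add_le_max _ _).trans_lt (max_lt h3 h5)

variable {k : Type} [Field k] [CharP k p]

/-- **PE0.** -/
theorem not_dvd_e₀ {C : CoreCtx p k} {σ₁ : Gp p} (hg : C.IsTameGen σ₁) : ¬ p ∣ C.e₀ := by
  have hp : p.Prime := Fact.out
  rintro ⟨e'', he''⟩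
  have he₀ : 0 < C.e₀ := C.lev.e₀_pos
  have hp1 : 1 ≤ p - 1 := by have := hp.two_le; omega
  have h1 : ‖(σ₁ C.ϖ / C.ϖ) ^ ((p - 1) * C.e₀) - 1‖ < 1 := (hg.ord _).2 dvd_rfl
  have h2 : (σ₁ C.ϖ / C.ϖ) ^ ((p - 1) * C.e₀) = ((σ₁ C.ϖ / C.ϖ) ^ ((p - 1) * e'')) ^ p := by
    rw [← pow_mul, he'']
    congr 1
    ring
  rw [h2] at h1
  have h3 := H38.norm_sub_one_lt_of_pow h1
  have h4 : (p - 1) * C.e₀ ∣ (p - 1) * e'' := (hg.ord _).1 h3
  have h5 : 0 < (p - 1) * e'' := by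
    rcases Nat.eq_zero_or_pos e'' with h0 | h0
    · rw [h0, mul_zero] at he''
      omega
    · exact Nat.mul_pos hp1 h0
  have h6 : (p - 1) * C.e₀ ≤ (p - 1) * e'' := Nat.le_of_dvd h5 h4
  have h7 : C.e₀ ≤ e'' := Nat.le_of_mul_le_mul_left h6 hp1
  have h8 : 2 * e'' ≤ p * e'' := Nat.mul_le_mul_right _ hp.two_le
  have h9 : 0 < e'' := by
    rcases Nat.eq_zero_or_pos e'' with h0 | h0
    · rw [h0, mul_zero] at he''
      omega
    · exact h0
  omega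

end Fermat.Agent.S56.FL.H61

end

end
-- ==== END Fermat.Agent.S56.FL.H61_CC2Small

-- ==== BEGIN Fermat.Agent.S56.GWC.H64_INV3
section

set_option autoImplicit false

open CategoryTheory Module groupCohomology ExtCitation

noncomputable section

namespace Fermat.Agent.S56.GWC.H64

open Fermat.Agent.S55 Fermat.Agent.S56.GWC

variable {k : Type} [Field k] (χ : _root_.Fermat.Agent.S56.GQ →* kˣ)

/-- Level-constant local 2-cocycles of `k(χ)` at `q`. -/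
def IsZ2L (q : Nat.Primes) (c : Gl q × Gl q → kχ χ) : Prop :=
  dTwoL (kχ χ) q c = 0 ∧ IsLevelConstant₂ (rl q) c

/-- Coboundaries of level-constant local 1-cochains of `k(χ)` at `q`. -/
def IsB2L (q : Nat.Primes) (c : Gl q × Gl q → kχ χ) : Prop :=
  ∃ g : Gl q → kχ χ, IsLevelConstant₁ (rl q) g ∧ dOneL (kχ χ) q g = c

/-- A family of local invariants for `k(χ)` with the reciprocity law for all `S ∋ p₀`. -/
def InvFamily (p₀ : Nat.Primes) : Prop :=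
  ∃ inv : ∀ q : Nat.Primes, (Gl q × Gl q → kχ χ) →ₗ[k] k,
    (∀ q c, IsB2L χ q c → inv q c = 0) ∧
    (∀ q c, IsZ2L χ q c → inv q c = 0 → IsB2L χ q c) ∧
    ∀ Sg : Finset Nat.Primes, p₀ ∈ Sg → ∀ z : _root_.Fermat.Agent.S56.GQ × _root_.Fermat.Agent.S56.GQ → kχ χ, IsZ2S Sg (kχ χ) z →
      ∑ q ∈ Sg, inv q (resTwo q z) = 0

variable {χ}

lemma IsZ2L.sub {q : Nat.Primes} {c c' : Gl q × Gl q → kχ χ} (h : IsZ2L χ q c)
    (h' : IsZ2L χ q c') : IsZ2L χ q (c - c') :=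
  ⟨by rw [dTwoL_sub, h.1, h'.1, sub_zero], levL₂_sub q h.2 h'.2⟩

lemma IsZ2L.smul {q : Nat.Primes} {c : Gl q × Gl q → kχ χ} (h : IsZ2L χ q c) (a : k) :
    IsZ2L χ q (a • c) := by
  refine ⟨?_, levL₂_comp q h.2 (a • ·)⟩
  have h1 := h.1
  funext x
  have hx := congrFun h1 x
  simp only [dTwoL, Pi.smul_apply, map_smul, Pi.zero_apply] at hx ⊢
  rw [← smul_sub, ← smul_add, ← smul_sub, hx, smul_zero]

lemma isZ2L_zero (q : Nat.Primes) : IsZ2L χ q 0 :=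
  ⟨by funext x; simp [dTwoL], isLevelConstant₂_const (rl q) _⟩

lemma isZ2L_resTwo {S : Finset Nat.Primes} {z : _root_.Fermat.Agent.S56.GQ × _root_.Fermat.Agent.S56.GQ → kχ χ} (hz : IsZ2S S (kχ χ) z)
    (q : Nat.Primes) : IsZ2L χ q (resTwo q z) := by
  refine ⟨?_, levL₂_resTwo q hz.2⟩
  rw [← resThree_dTwo, hz.1]
  rfl

/-! ### Sums over a subset -/

section sums

variable {S₀ Sg : Finset Nat.Primes}

/-- Reciprocity for the big set, restricted to the small set, for cocycles of small level. -/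
theorem sum_small_eq_zero (hsub : S₀ ⊆ Sg) (tr : Trace Sg χ)
    (hUR : ∀ z : _root_.Fermat.Agent.S56.GQ × _root_.Fermat.Agent.S56.GQ → kχ χ, IsZ2S S₀ (kχ χ) z → ∀ q : Nat.Primes, q ∉ S₀ →
      IsB2L χ q (resTwo q z))
    {f : _root_.Fermat.Agent.S56.GQ × _root_.Fermat.Agent.S56.GQ → kχ χ} (hf : IsZ2S S₀ (kχ χ) f) :
    ∑ q' : ↥S₀, invS tr ⟨q'.1, hsub q'.2⟩ (resTwo q'.1 f) = 0 := by
  classical
  let F : Nat.Primes → k := fun q =>
    if h : q ∈ Sg then invS tr ⟨q, h⟩ (resTwo q f) else 0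
  have hfg : IsZ2S Sg (kχ χ) f := ⟨hf.1, hf.2.mono hsub⟩
  have h1 : ∑ q : ↥Sg, invS tr q (resTwo q.1 f) = ∑ q ∈ Sg, F q := by
    rw [← Finset.sum_attach Sg F, Finset.univ_eq_attach]
    refine Finset.sum_congr rfl fun q _ => ?_
    simp only [F, dif_pos q.2]
  have h2 : ∑ q' : ↥S₀, invS tr ⟨q'.1, hsub q'.2⟩ (resTwo q'.1 f) = ∑ q ∈ S₀, F q := by
    rw [← Finset.sum_attach S₀ F, Finset.univ_eq_attach]
    refine Finset.sum_congr rfl fun q _ => ?_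
    simp only [F, dif_pos (hsub q.2)]
  have h3 : ∑ q ∈ S₀, F q = ∑ q ∈ Sg, F q := by
    refine Finset.sum_subset hsub fun q hq hq0 => ?_
    simp only [F, dif_pos hq]
    obtain ⟨g, hg, hdg⟩ := hUR f hf q hq0
    rw [← hdg]
    exact invS_dOneL tr ⟨q, hq⟩ hg
  rw [h2, h3, ← h1]
  exact invS_reciprocity tr hfg

/-- **Uniqueness up to a scalar** (helper47's (3)): a family of local cocycles over `S₀` of
total `tr₀`-invariant zero has total `tr`-invariant zero. -/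
theorem sum_invS_eq_zero_of (hsub : S₀ ⊆ Sg) (tr₀ : Trace S₀ χ) (tr : Trace Sg χ)
    (h3 : AlphaThreeMono tr₀ (kχ χ))
    (hUR : ∀ z : _root_.Fermat.Agent.S56.GQ × _root_.Fermat.Agent.S56.GQ → kχ χ, IsZ2S S₀ (kχ χ) z → ∀ q : Nat.Primes, q ∉ S₀ →
      IsB2L χ q (resTwo q z))
    (c : ∀ q' : ↥S₀, Gl q'.1 × Gl q'.1 → kχ χ) (hc : ∀ q' : ↥S₀, IsZ2L χ q'.1 (c q'))
    (h0 : tr₀.toFun ((0, c) : C3c S₀ (kχ χ)) = 0) :
    ∑ q' : ↥S₀, invS tr ⟨q'.1, hsub q'.2⟩ (c q') = 0 := by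
  have hZ : IsZ3c S₀ (kχ χ) ((0, c) : C3c S₀ (kχ χ)) := by
    refine ⟨⟨?_, ⟨⊥, IntermediateField.isUnramifiedOutside_bot S₀, fun _ _ _ _ _ _ _ _ _ => rfl⟩⟩,
      fun q' => ⟨(hc q').2, ?_⟩⟩
    · funext t
      simp [dThree]
    · show resThree q'.1 (0 : _root_.Fermat.Agent.S56.GQ × _root_.Fermat.Agent.S56.GQ × _root_.Fermat.Agent.S56.GQ → kχ χ) = dTwoL (kχ χ) q'.1 (c q')
      rw [(hc q').1]
      rfl
  obtain ⟨f, g, hfl, hgl, hf0, hfg⟩ := isB3c_of_tr_eq_zero tr₀ h3 hZ h0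
  have hf : IsZ2S S₀ (kχ χ) f := ⟨hf0.symm, hfl⟩
  have hsum := sum_small_eq_zero hsub tr hUR hf
  rw [← hsum]
  refine Finset.sum_congr rfl fun q' _ => ?_
  have e : c q' = resTwo q'.1 f - dOneL (kχ χ) q'.1 (g q') := hfg q'
  rw [e, map_sub, invS_dOneL tr ⟨q'.1, hsub q'.2⟩ (hgl q'), sub_zero]

end sums

/-! ### The assembly -/

section main

variable {S₀ Sg : Finset Nat.Primes}

lemma isZ2L_single (a : ↥S₀) {v : Gl a.1 × Gl a.1 → kχ χ} (hv : IsZ2L χ a.1 v) (q' : ↥S₀) :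
    IsZ2L χ q'.1 ((Pi.single a v : ∀ q' : ↥S₀, Gl q'.1 × Gl q'.1 → kχ χ) q') := by
  by_cases h : q' = a
  · subst h
    rw [Pi.single_eq_same]
    exact hv
  · rw [Pi.single_eq_of_ne h]
    exact isZ2L_zero q'.1

lemma sum_invS_single (hsub : S₀ ⊆ Sg) (tr : Trace Sg χ) (a : ↥S₀)
    (v : Gl a.1 × Gl a.1 → kχ χ) :
    ∑ q' : ↥S₀, invS tr ⟨q'.1, hsub q'.2⟩
        ((Pi.single a v : ∀ q' : ↥S₀, Gl q'.1 × Gl q'.1 → kχ χ) q') =
      invS tr ⟨a.1, hsub a.2⟩ v := by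
  rw [Finset.sum_eq_single a]
  · rw [Pi.single_eq_same]
  · intro q' _ hq'
    rw [Pi.single_eq_of_ne hq', map_zero]
  · intro h
    exact absurd (Finset.mem_univ a) h

set_option maxHeartbeats 1600000 in
/-- **The generic assembly.** -/
theorem invFamily_of (p₀ : Nat.Primes)
    (hT : ∀ S : Finset Nat.Primes, p₀ ∈ S → ∃ tr : Trace S χ,
      AlphaThreeMono tr (kχ χ) ∧ ∀ q : ↥S, LocTwoMono tr (kχ χ) q)
    (hc : ∃ c0 : Gl p₀ × Gl p₀ → kχ χ, IsZ2L χ p₀ c0 ∧ ¬ IsB2L χ p₀ c0)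
    (hUR : ∀ S₀ : Finset Nat.Primes, p₀ ∈ S₀ → ∀ z : _root_.Fermat.Agent.S56.GQ × _root_.Fermat.Agent.S56.GQ → kχ χ, IsZ2S S₀ (kχ χ) z →
      ∀ q : Nat.Primes, q ∉ S₀ → IsB2L χ q (resTwo q z)) :
    InvFamily χ p₀ := by
  classical
  obtain ⟨c0, hc0Z, hc0B⟩ := hc
  choose T hT3 hT2 using hT
  have hlam : ∀ (S : Finset Nat.Primes) (h : p₀ ∈ S), invS (T S h) ⟨p₀, h⟩ c0 ≠ 0 :=
    fun S h h0 =>
      hc0B (invS_injective (T S h) ⟨p₀, h⟩ (hT2 S h ⟨p₀, h⟩) hc0Z.1 hc0Z.2 h0)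
  let n : ∀ (S : Finset Nat.Primes) (h : p₀ ∈ S) (q : ↥S),
      (Gl q.1 × Gl q.1 → kχ χ) →ₗ[k] k :=
    fun S h q => (invS (T S h) ⟨p₀, h⟩ c0)⁻¹ • invS (T S h) q
  have hn : ∀ (S : Finset Nat.Primes) (h : p₀ ∈ S) (q : ↥S) (c : Gl q.1 × Gl q.1 → kχ χ),
      n S h q c = (invS (T S h) ⟨p₀, h⟩ c0)⁻¹ * invS (T S h) q c := fun _ _ _ _ => rfl
  let Sq : Nat.Primes → Finset Nat.Primes := fun q => insert p₀ {q}
  have hp : ∀ q, p₀ ∈ Sq q := fun q => Finset.mem_insert_self _ _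
  have hq : ∀ q, q ∈ Sq q := fun q => Finset.mem_insert_of_mem (Finset.mem_singleton_self q)
  refine ⟨fun q => n (Sq q) (hp q) ⟨q, hq q⟩, ?_, ?_, ?_⟩
  · -- (1)
    rintro q c ⟨g, hg, rfl⟩
    show n (Sq q) (hp q) ⟨q, hq q⟩ (dOneL (kχ χ) q g) = 0
    rw [hn, invS_dOneL (T (Sq q) (hp q)) ⟨q, hq q⟩ hg, mul_zero]
  · -- (2)
    intro q c hcZ h0
    have h1 : invS (T (Sq q) (hp q)) ⟨q, hq q⟩ c = 0 := by
      have h2 : n (Sq q) (hp q) ⟨q, hq q⟩ c = 0 := h0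
      rw [hn] at h2
      rcases mul_eq_zero.1 h2 with h | h
      · exact absurd (inv_eq_zero.1 h) (hlam _ _)
      · exact h
    exact invS_injective (T (Sq q) (hp q)) ⟨q, hq q⟩ (hT2 _ _ _) hcZ.1 hcZ.2 h1
  · -- (3)
    intro Sg hpg z hz
    have claim : ∀ (q : Nat.Primes) (hqg : q ∈ Sg) (c : Gl q × Gl q → kχ χ), IsZ2L χ q c →
        n (Sq q) (hp q) ⟨q, hq q⟩ c = n Sg hpg ⟨q, hqg⟩ c := by
      intro q hqg c hcZ
      have hsub : Sq q ⊆ Sg := by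
        intro x hx
        rcases Finset.mem_insert.1 hx with h | h
        · rw [h]; exact hpg
        · rw [Finset.mem_singleton.1 h]; exact hqg
      set tr₀ := T (Sq q) (hp q) with htr₀
      set tr := T Sg hpg with htr
      set u : k := n (Sq q) (hp q) ⟨q, hq q⟩ c with hu
      have hu' : u * invS tr₀ ⟨p₀, hp q⟩ c0 = invS tr₀ ⟨q, hq q⟩ c := by
        rw [hu, hn, mul_comm, ← mul_assoc, mul_inv_cancel₀ (hlam _ _), one_mul]
      let a : ↥(Sq q) := ⟨p₀, hp q⟩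
      let b : ↥(Sq q) := ⟨q, hq q⟩
      let cf : ∀ q' : ↥(Sq q), Gl q'.1 × Gl q'.1 → kχ χ :=
        (Pi.single a (u • c0) : ∀ q' : ↥(Sq q), Gl q'.1 × Gl q'.1 → kχ χ) -
          (Pi.single b c : ∀ q' : ↥(Sq q), Gl q'.1 × Gl q'.1 → kχ χ)
      have hcf : ∀ q' : ↥(Sq q), IsZ2L χ q'.1 (cf q') := fun q' =>
        (isZ2L_single a (hc0Z.smul u) q').sub (isZ2L_single b hcZ q')
      have hx : ((0, cf) : C3c (Sq q) (kχ χ)) =
          at3 (Sq q) (kχ χ) a (u • c0) - at3 (Sq q) (kχ χ) b c := by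
        refine Prod.ext ?_ rfl
        show (0 : _root_.Fermat.Agent.S56.GQ × _root_.Fermat.Agent.S56.GQ × _root_.Fermat.Agent.S56.GQ → kχ χ) = 0 - 0
        rw [sub_zero]
      have h0 : tr₀.toFun ((0, cf) : C3c (Sq q) (kχ χ)) = 0 := by
        rw [hx, map_sub, ← invS_apply, ← invS_apply, map_smul, smul_eq_mul, hu', sub_self]
      have hsum := sum_invS_eq_zero_of hsub tr₀ tr (hT3 _ _) (hUR (Sq q) (hp q)) cf hcf h0
      have e : ∀ q' : ↥(Sq q), invS tr ⟨q'.1, hsub q'.2⟩ (cf q') =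
          invS tr ⟨q'.1, hsub q'.2⟩
              ((Pi.single a (u • c0) : ∀ q' : ↥(Sq q), Gl q'.1 × Gl q'.1 → kχ χ) q') -
            invS tr ⟨q'.1, hsub q'.2⟩
              ((Pi.single b c : ∀ q' : ↥(Sq q), Gl q'.1 × Gl q'.1 → kχ χ) q') := fun q' =>
        map_sub _ _ _
      simp only [e] at hsum
      rw [Finset.sum_sub_distrib, sum_invS_single hsub tr a, sum_invS_single hsub tr b,
        map_smul, smul_eq_mul, sub_eq_zero] at hsum
      -- `u * λ = inv^{Sg}_q c`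
      have h1 : invS tr ⟨q, hqg⟩ c = u * invS tr ⟨p₀, hpg⟩ c0 := hsum.symm
      rw [hn Sg hpg ⟨q, hqg⟩ c, h1, mul_comm u, ← mul_assoc, inv_mul_cancel₀ (hlam _ _), one_mul]
    let F : Nat.Primes → k := fun q =>
      if h : q ∈ Sg then n Sg hpg ⟨q, h⟩ (resTwo q z) else 0
    have h1 : ∑ q ∈ Sg, n (Sq q) (hp q) ⟨q, hq q⟩ (resTwo q z) = ∑ q ∈ Sg, F q := by
      refine Finset.sum_congr rfl fun q hqg => ?_
      simp only [F, dif_pos hqg]
      exact claim q hqg _ (isZ2L_resTwo hz q)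
    have h2 : ∑ q : ↥Sg, n Sg hpg q (resTwo q.1 z) = ∑ q ∈ Sg, F q := by
      rw [← Finset.sum_attach Sg F, Finset.univ_eq_attach]
      refine Finset.sum_congr rfl fun q _ => ?_
      simp only [F, dif_pos q.2]
    show ∑ q ∈ Sg, n (Sq q) (hp q) ⟨q, hq q⟩ (resTwo q z) = 0
    rw [h1, ← h2]
    simp only [hn]
    rw [← Finset.mul_sum, invS_reciprocity (T Sg hpg) hz, mul_zero]

end main

end Fermat.Agent.S56.GWC.H64

end

end
-- ==== END Fermat.Agent.S56.GWC.H64_INV3
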