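-- GENERATED (merged mirror, NOTES/tools/trim/merge3_helper67.py): 7 modules of the originals, bodies verbatim.
import Fermat.Agent.Zm.S56_L17_000
import Fermat.Agent.Zm.S56_L05_000
import Fermat.Agent.Zm.S56_L17_001
import Fermat.Agent.Zm.S56_L02_003
import Fermat.Agent.Zm.S56_L03_005
import Fermat.Agent.Zm.S56_L02_005
import Fermat.Agent.Zm.S56_L02_004
import Fermat.Agent.Zm.S56_L15_003
import Fermat.Agent.Zm.S56_L12_001
import Fermat.Agent.Zm.S56_L11_001
import Fermat.Agent.Zm.S56_L14_002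
import Fermat.Agent.Zm.S56_L13_001
import Fermat.Agent.Zm.S56_L13_003
import Fermat.Agent.Zm.S56_L12_002

-- ==== BEGIN Fermat.Agent.S55.CFT.GS.H68_LocS_Fwd
section

set_option autoImplicit false
set_option linter.unusedSectionVars false
set_option linter.style.haveILetI false
set_option linter.unusedVariables false

open CategoryTheory groupCohomology ExtCitation TensorProduct

noncomputable section

namespace Fermat.Agent.S55.CFT.GS.H68

open Fermat.Agent.S55 Fermat.Agent.S55.Top Fermat.Agent.S55.CFT Fermat.Agent.S55.CFT.GS.Bri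

local notation "Qb" => AlgebraicClosure ℚ

attribute [local instance] fact_primes

section compat

variable {K N : IntermediateField ℚ Qb} (hKN : K ≤ N)
  [NumberField ↥K] [NumberField ↥(H6.NK hKN)] [Normal ↥K ↥(H6.NK hKN)]

lemma resG_apply (g : ↥K.fixingSubgroup) (y : ↥(H6.NK hKN)) :
    ((resG hKN g y : ↥(H6.NK hKN)) : Qb) = (g : GQ) (y : Qb) :=
  AlgEquiv.restrictNormal_commutes (IntermediateField.fixingSubgroupEquiv K g) ↥(H6.NK hKN) y

lemma resG_eq_one (g : ↥K.fixingSubgroup) (hg : ∀ y : Qb, y ∈ N → (g : GQ) y = y) :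
    resG hKN g = 1 := by
  apply AlgEquiv.ext
  intro y
  apply Subtype.ext
  rw [resG_apply]
  exact hg _ y.2

variable {S : Finset Nat.Primes} (𝔓 : PlaceSys S K) (q : ↥S) (w : 𝔓.W q)

/-- the compatibility of a local automorphism `h ∈ Γ_w` with `res (ρ_w h)` -/
lemma glAut_jN (h : 𝔓.Γw q w) (y : ↥(H6.NK hKN)) :
    glAut q.1 (h : Gl q.1) (jN hKN q.1 (𝔓.σ q w) y) =
      jN hKN q.1 (𝔓.σ q w) (resG hKN (𝔓.ρw q w h) y) := by
  rw [jN_apply, jN_apply, resG_apply]
  show glAut q.1 (h : Gl q.1) (padicEmbedding (q.1 : ℕ) (𝔓.σ q w (y : Qb))) =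
    padicEmbedding (q.1 : ℕ) (𝔓.σ q w (((𝔓.σ q w)⁻¹ * rl q.1 h.1 * 𝔓.σ q w) (y : Qb)))
  have h1 : 𝔓.σ q w (((𝔓.σ q w)⁻¹ * rl q.1 h.1 * 𝔓.σ q w) (y : Qb)) =
      rl q.1 h.1 (𝔓.σ q w (y : Qb)) := by
    simp only [AlgEquiv.mul_apply]
    exact AlgEquiv.apply_symm_apply _ _
  rw [h1]
  exact (padicEmbedding_localGaloisToGlobal (q.1 : ℕ) (glAut q.1 (h : Gl q.1))
    (𝔓.σ q w (y : Qb))).symm

end compat

/-- The forward half of `Bri.Stmt_LocS`. -/
def Stmt_LocS_Fwd : Prop :=
  ∀ (S : Finset Nat.Primes) (K N : IntermediateField ℚ Qb) (hKN : K ≤ N) [NumberField ↥K]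
    [NumberField ↥(H6.NK hKN)] [IsGalois ↥K ↥(H6.NK hKN)] (𝔓 : PlaceSys S K) (q : ↥S)
    (w : 𝔓.W q) (c : ↥K.fixingSubgroup × ↥K.fixingSubgroup → Qbˣ)
    (x : groupCohomology (repL ↥K ↥(H6.NK hKN)) 2), Real₂ hKN c x →
      locMap ↥K ↥(H6.NK hKN) (plσ K q.1 (𝔓.σ q w)) 2 x = 0 → LocTrivS 𝔓 q w c

/-- The backward half of `Bri.Stmt_LocS`. -/
def Stmt_LocS_Bwd : Prop :=
  ∀ (S : Finset Nat.Primes) (K N : IntermediateField ℚ Qb) (hKN : K ≤ N) [NumberField ↥K]
    [NumberField ↥(H6.NK hKN)] [IsGalois ↥K ↥(H6.NK hKN)] (𝔓 : PlaceSys S K) (q : ↥S)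
    (w : 𝔓.W q) (c : ↥K.fixingSubgroup × ↥K.fixingSubgroup → Qbˣ)
    (x : groupCohomology (repL ↥K ↥(H6.NK hKN)) 2), Real₂ hKN c x →
      LocTrivS 𝔓 q w c → locMap ↥K ↥(H6.NK hKN) (plσ K q.1 (𝔓.σ q w)) 2 x = 0

theorem stmt_LocS_of (h1 : Stmt_LocS_Fwd) (h2 : Stmt_LocS_Bwd) : Bri.Stmt_LocS :=
  fun S K N hKN _ _ _ 𝔓 q w c x hx =>
    ⟨h1 S K N hKN 𝔓 q w c x hx, h2 S K N hKN 𝔓 q w c x hx⟩

/-- a cocycle in Mathlib's sense is `cocyclesOfIsMulCocycle₂` of its multiplicative form -/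
lemma cocycles₂_eq {G M : Type} [Group G] [CommGroup M] [MulDistribMulAction G M]
    (f : cocycles₂ (Rep.ofMulDistribMulAction G M)) :
    cocyclesOfIsMulCocycle₂ (@isMulCocycle₂_of_mem_cocycles₂ G M _ _ _ f.1 f.2) = f :=
  Subtype.ext rfl

theorem stmt_LocS_Fwd (hZ : Stmt_LocS_H2Zero) : Stmt_LocS_Fwd := by
  intro S K N hKN _ _ _ 𝔓 q w c x hx hloc
  obtain ⟨f, hfc, hfx⟩ := hx
  -- the localised cocycle is a coboundary
  have hf' := @isMulCocycle₂_of_mem_cocycles₂ (↥(H6.NK hKN) ≃ₐ[↥K] ↥(H6.NK hKN))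
    (↥(H6.NK hKN))ˣ _ _ _ f.1 f.2
  have hx' : locMap ↥K ↥(H6.NK hKN) (plσ K q.1 (𝔓.σ q w)) 2
      (H2π (repL ↥K ↥(H6.NK hKN)) (cocyclesOfIsMulCocycle₂ hf')) = 0 := by
    rw [cocycles₂_eq, hfx]
    exact hloc
  obtain ⟨Bt, hBt⟩ := (hZ ↥K ↥(H6.NK hKN) (plσ K q.1 (𝔓.σ q w)) _ hf').1 hx'
  -- the local cochain
  let β : 𝔓.Γw q w → PadicAlgCl (q.1 : ℕ) := fun h =>
    πN hKN q.1 (𝔓.σ q w) ((Bt (resG hKN (𝔓.ρw q w h)) :
      (LocAlg ↥K ↥(H6.NK hKN) (plσ K q.1 (𝔓.σ q w)))ˣ) :
        LocAlg ↥K ↥(H6.NK hKN) (plσ K q.1 (𝔓.σ q w)))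
  have hβ0 : ∀ h, β h ≠ 0 := by
    intro h
    exact ((Bt (resG hKN (𝔓.ρw q w h))).isUnit.map (πN hKN q.1 (𝔓.σ q w))).ne_zero
  refine ⟨β, hβ0, ?_, ?_⟩
  · -- level constancy: the level field is `σ_w N`
    refine ⟨IntermediateField.map ((𝔓.σ q w : Qb ≃ₐ[ℚ] Qb) : Qb →ₐ[ℚ] Qb) N, ?_, ?_⟩
    · have : FiniteDimensional ℚ ↥N := ‹NumberField ↥(H6.NK hKN)›.to_finiteDimensional
      exact inferInstance
    · intro g s hs
      have h1 : resG hKN (𝔓.ρw q w s) = 1 := by
        apply resG_eq_one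
        intro y hy
        show ((𝔓.σ q w)⁻¹ * rl q.1 s.1 * 𝔓.σ q w) y = y
        have h2 : rl q.1 s.1 (𝔓.σ q w y) = 𝔓.σ q w y :=
          (IntermediateField.mem_fixingSubgroup_iff _ _).1 hs _
            ⟨y, hy, rfl⟩
        simp only [AlgEquiv.mul_apply]
        rw [h2]
        exact AlgEquiv.symm_apply_apply _ _
      show πN hKN q.1 (𝔓.σ q w) ((Bt (resG hKN (𝔓.ρw q w (g * s))) : _) : _) =
        πN hKN q.1 (𝔓.σ q w) ((Bt (resG hKN (𝔓.ρw q w g)) : _) : _)
      rw [map_mul, map_mul, h1, mul_one]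
  · intro h₁ h₂
    have key := hBt (resG hKN (𝔓.ρw q w h₁)) (resG hKN (𝔓.ρw q w h₂))
    have key2 := congrArg (fun u : (LocAlg ↥K ↥(H6.NK hKN) (plσ K q.1 (𝔓.σ q w)))ˣ =>
      πN hKN q.1 (𝔓.σ q w) (u : LocAlg ↥K ↥(H6.NK hKN) (plσ K q.1 (𝔓.σ q w)))) key
    simp only [Units.val_mul, map_mul, map_units_inv] at key2
    rw [πN_locHom] at key2
    have h3 : πN hKN q.1 (𝔓.σ q w)
        (((resG hKN (𝔓.ρw q w h₁) • Bt (resG hKN (𝔓.ρw q w h₂)) :
          (LocAlg ↥K ↥(H6.NK hKN) (plσ K q.1 (𝔓.σ q w)))ˣ)) :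
            LocAlg ↥K ↥(H6.NK hKN) (plσ K q.1 (𝔓.σ q w))) =
        glAut q.1 (h₁ : Gl q.1) (β h₂) :=
      πN_smul hKN q.1 (𝔓.σ q w) (resG hKN (𝔓.ρw q w h₁)) (glAut q.1 (h₁ : Gl q.1))
        (fun y => glAut_jN hKN 𝔓 q w h₁ y) _
    rw [h3] at key2
    have h4 : padicEmbedding (q.1 : ℕ)
        (𝔓.σ q w ((c (𝔓.ρw q w h₁, 𝔓.ρw q w h₂) : Qbˣ) : Qb)) =
        jN hKN q.1 (𝔓.σ q w) ((Additive.toMul (f.1 (resG hKN (𝔓.ρw q w h₁),
          resG hKN (𝔓.ρw q w h₂))) : (↥(H6.NK hKN))ˣ) : ↥(H6.NK hKN)) := by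
      rw [← hfc]
      rfl
    rw [h4]
    have h5 : β (h₁ * h₂) = πN hKN q.1 (𝔓.σ q w)
        ((Bt (resG hKN (𝔓.ρw q w h₁) * resG hKN (𝔓.ρw q w h₂)) : _) : _) := by
      show πN hKN q.1 (𝔓.σ q w) ((Bt (resG hKN (𝔓.ρw q w (h₁ * h₂))) : _) : _) = _
      rw [map_mul, map_mul]
    have h6 := hβ0 (h₁ * h₂)
    rw [h5] at h6 ⊢
    have key3 : jN hKN q.1 (𝔓.σ q w) ((Additive.toMul (f.1 (resG hKN (𝔓.ρw q w h₁),
          resG hKN (𝔓.ρw q w h₂))) : (↥(H6.NK hKN))ˣ) : ↥(H6.NK hKN)) =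
        glAut q.1 (h₁ : Gl q.1) (β h₂) *
          (πN hKN q.1 (𝔓.σ q w)
            ((Bt (resG hKN (𝔓.ρw q w h₁) * resG hKN (𝔓.ρw q w h₂)) : _) : _))⁻¹ * β h₁ := key2
    rw [key3]
    field_simp

end Fermat.Agent.S55.CFT.GS.H68

end

end
-- ==== END Fermat.Agent.S55.CFT.GS.H68_LocS_Fwd

-- ==== BEGIN Fermat.Agent.S56.EC.KDT.H15_Link
section

set_option autoImplicit false
set_option linter.unusedSectionVars false
set_option linter.style.haveILetI false
set_option linter.unusedVariables false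

noncomputable section

namespace Fermat.Agent.S56.EC.KDT.H15

open CategoryTheory groupCohomology ExtCitation Module Fermat.Agent.S55

section link

variable {p : ℕ} [Fact p.Prime] {S : Finset Nat.Primes}
  {L : IntermediateField ℚ (AlgebraicClosure ℚ)} [Normal ℚ L] [FiniteDimensional ℚ L]
  (κ : UmodP p S L →ₗ[ZMod p] (↥L.fixingSubgroup → ZMod p))

/-- The functional `u ↦ κ u σ`. -/
def evK (σ : ↥L.fixingSubgroup) : Module.Dual (ZMod p) (UmodP p S L) :=
  (LinearMap.proj σ) ∘ₗ κ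

theorem evK_apply (σ : ↥L.fixingSubgroup) (u : UmodP p S L) : evK κ σ u = κ u σ := rfl

theorem evK_mul (hκ : ∀ u, κ u ∈ LevHom p S L (ZMod p)) (σ τ : ↥L.fixingSubgroup) :
    evK κ (σ * τ) = evK κ σ + evK κ τ :=
  LinearMap.ext fun u => (hκ u).1 σ τ

/-- A finite supremum of fields unramified outside `S`. -/
theorem isUnramifiedOutside_finset_sup {ι : Type} (s : Finset ι)
    (F : ι → IntermediateField ℚ (AlgebraicClosure ℚ))
    (hF : ∀ i, (F i).IsUnramifiedOutside S) : (s.sup F).IsUnramifiedOutside S :=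
  Finset.sup_induction (p := fun K : IntermediateField ℚ (AlgebraicClosure ℚ) =>
      K.IsUnramifiedOutside S) (IntermediateField.isUnramifiedOutside_bot S)
    (fun _ ha _ hb => IntermediateField.IsUnramifiedOutside.sup ha hb) (fun i _ => hF i)

/-- A common level of all `κ u`. -/
theorem exists_common_level (hfin : FiniteDimensional (ZMod p) (UmodP p S L))
    (hκ : ∀ u, κ u ∈ LevHom p S L (ZMod p)) :
    ∃ F : IntermediateField ℚ (AlgebraicClosure ℚ), F.IsUnramifiedOutside S ∧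
      ∀ (g s : ↥L.fixingSubgroup), (s : _root_.Fermat.Agent.S56.GQ) ∈ F.fixingSubgroup → evK κ (g * s) = evK κ g := by
  haveI : NeZero p := ⟨(Fact.out : p.Prime).ne_zero⟩
  haveI : Finite (UmodP p S L) := Module.finite_of_finite (ZMod p)
  letI : Fintype (UmodP p S L) := Fintype.ofFinite _
  have h1 : ∀ u, ∃ F : IntermediateField ℚ (AlgebraicClosure ℚ), F.IsUnramifiedOutside S ∧
      ∀ g s : ↥L.fixingSubgroup, (s : _root_.Fermat.Agent.S56.GQ) ∈ F.fixingSubgroup → κ u (g * s) = κ u g :=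
    fun u => (hκ u).2
  choose F hF hFl using h1
  refine ⟨Finset.univ.sup F, isUnramifiedOutside_finset_sup _ F hF, fun g s hs => ?_⟩
  apply LinearMap.ext
  intro u
  exact hFl u g s (IntermediateField.fixingSubgroup_antitone
    (Finset.le_sup (Finset.mem_univ u)) hs)

/-- The functionals `u ↦ κ u σ` span the dual when `κ` is injective. -/
theorem span_evK (hfin : FiniteDimensional (ZMod p) (UmodP p S L))
    (hinj : Function.Injective κ) :
    Submodule.span (ZMod p) (Set.range (evK κ)) = ⊤ := by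
  have h1 : (Submodule.span (ZMod p) (Set.range (evK κ))).dualCoannihilator = ⊥ := by
    rw [eq_bot_iff]
    intro u hu
    rw [Submodule.mem_dualCoannihilator] at hu
    rw [Submodule.mem_bot]
    apply hinj
    rw [map_zero]
    funext σ
    exact hu (evK κ σ) (Submodule.subset_span ⟨σ, rfl⟩)
  have h2 := Subspace.dualCoannihilator_dualAnnihilator_eq
    (W := Submodule.span (ZMod p) (Set.range (evK κ)))
  rw [h1, Submodule.dualAnnihilator_bot] at h2
  exact h2.symm

/-- Equivariance of the functionals. -/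
theorem evK_conj (hL : IsGalLevel p S L)
    (heq : ∀ (g : _root_.Fermat.Agent.S56.GQ) (u : UmodP p S L) (σ : ↥L.fixingSubgroup),
      κ (unitRep p S L (resL L g) u) (conjL L g σ) =
        ((cycloChar p g : (ZMod p)ˣ) : ZMod p) * κ u σ)
    (g : _root_.Fermat.Agent.S56.GQ) (σ : ↥L.fixingSubgroup) :
    evK κ (conjL L g σ) = twDual (omegaHom hL) (unitRep p S L) (resL L g) (evK κ σ) := by
  apply LinearMap.ext
  intro u
  rw [twDual_apply, evK_apply, evK_apply, omegaHom_apply, omegaL_resL hL, ← heq,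
    ← Module.End.mul_apply, ← map_mul, mul_inv_cancel, map_one, Module.End.one_apply]

variable {V : Type} [AddCommGroup V] [Module (ZMod p) V] [FiniteDimensional (ZMod p) V]
  (ρ : Representation (ZMod p) (GalL L) V)

/-- `h_T σ = T (u ↦ κ u σ)` is `G`-equivariant. -/
theorem hT_conj (hL : IsGalLevel p S L)
    (heq : ∀ (g : _root_.Fermat.Agent.S56.GQ) (u : UmodP p S L) (σ : ↥L.fixingSubgroup),
      κ (unitRep p S L (resL L g) u) (conjL L g σ) =
        ((cycloChar p g : (ZMod p)ˣ) : ZMod p) * κ u σ)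
    {T : Module.Dual (ZMod p) (UmodP p S L) →ₗ[ZMod p] V}
    (hT : T ∈ invSub (omegaHom hL) ρ (unitRep p S L)) (g : _root_.Fermat.Agent.S56.GQ) (σ : ↥L.fixingSubgroup) :
    T (evK κ (conjL L g σ)) = ρ (resL L g) (T (evK κ σ)) := by
  rw [evK_conj κ hL heq, (mem_invSub _ _ _ _).1 hT]

/-- The map `T ↦ e ∘ h_T` lands in the equivariant level-`S` homomorphisms. -/
theorem link_mem (hL : IsGalLevel p S L) (hfin : FiniteDimensional (ZMod p) (UmodP p S L))
    (hκ : ∀ u, κ u ∈ LevHom p S L (ZMod p))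
    (heq : ∀ (g : _root_.Fermat.Agent.S56.GQ) (u : UmodP p S L) (σ : ↥L.fixingSubgroup),
      κ (unitRep p S L (resL L g) u) (conjL L g σ) =
        ((cycloChar p g : (ZMod p)ˣ) : ZMod p) * κ u σ)
    (B : Subgroup (GalL L)) (W : Submodule (ZMod p) V) (e : V →ₗ[ZMod p] V)
    (he3 : ∀ v, e v ∈ W) (he4 : ∀ b ∈ B, ∀ v, e (ρ b v) = ρ b (e v))
    {T : Module.Dual (ZMod p) (UmodP p S L) →ₗ[ZMod p] V}
    (hT : T ∈ invSub (omegaHom hL) ρ (unitRep p S L)) :
    (fun σ : ↥L.fixingSubgroup => e (T (evK κ σ))) ∈ EqLevHom p S L ρ B W := by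
  refine ⟨⟨fun σ τ => ?_, ?_⟩, fun σ => he3 _, fun g hg σ => ?_⟩
  · show e (T (evK κ (σ * τ))) = e (T (evK κ σ)) + e (T (evK κ τ))
    rw [evK_mul κ hκ, map_add, map_add]
  · obtain ⟨F, hF, hl⟩ := _root_.Fermat.Agent.S56.EC.KDT.H15.exists_common_level κ hfin hκ
    refine ⟨F, hF, fun g s hs => ?_⟩
    show e (T (evK κ (g * s))) = e (T (evK κ g))
    rw [hl g s hs]
  · show e (T (evK κ (conjL L g σ))) = ρ (resL L g) (e (T (evK κ σ)))
    rw [hT_conj κ ρ hL heq hT, he4 _ hg]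

/-- The linear map `T ↦ e ∘ h_T`. -/
def linkMap (hL : IsGalLevel p S L) (hfin : FiniteDimensional (ZMod p) (UmodP p S L))
    (hκ : ∀ u, κ u ∈ LevHom p S L (ZMod p))
    (heq : ∀ (g : _root_.Fermat.Agent.S56.GQ) (u : UmodP p S L) (σ : ↥L.fixingSubgroup),
      κ (unitRep p S L (resL L g) u) (conjL L g σ) =
        ((cycloChar p g : (ZMod p)ˣ) : ZMod p) * κ u σ)
    (B : Subgroup (GalL L)) (W : Submodule (ZMod p) V) (e : V →ₗ[ZMod p] V)
    (he3 : ∀ v, e v ∈ W) (he4 : ∀ b ∈ B, ∀ v, e (ρ b v) = ρ b (e v)) :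
    ↥(invSub (omegaHom hL) ρ (unitRep p S L)) →ₗ[ZMod p] ↥(EqLevHom p S L ρ B W) where
  toFun T := ⟨fun σ => e ((T : Module.Dual (ZMod p) (UmodP p S L) →ₗ[ZMod p] V) (evK κ σ)),
    link_mem κ ρ hL hfin hκ heq B W e he3 he4 T.2⟩
  map_add' T T' := by
    apply Subtype.ext
    funext σ
    show e (((T + T' : ↥(invSub (omegaHom hL) ρ (unitRep p S L))) :
      Module.Dual (ZMod p) (UmodP p S L) →ₗ[ZMod p] V) (evK κ σ)) = _
    rw [Submodule.coe_add, LinearMap.add_apply, map_add]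
    rfl
  map_smul' a T := by
    apply Subtype.ext
    funext σ
    show e (((a • T : ↥(invSub (omegaHom hL) ρ (unitRep p S L))) :
      Module.Dual (ZMod p) (UmodP p S L) →ₗ[ZMod p] V) (evK κ σ)) = _
    rw [Submodule.coe_smul, LinearMap.smul_apply, map_smul]
    rfl

theorem linkMap_apply (hL : IsGalLevel p S L) (hfin : FiniteDimensional (ZMod p) (UmodP p S L))
    (hκ : ∀ u, κ u ∈ LevHom p S L (ZMod p))
    (heq : ∀ (g : _root_.Fermat.Agent.S56.GQ) (u : UmodP p S L) (σ : ↥L.fixingSubgroup),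
      κ (unitRep p S L (resL L g) u) (conjL L g σ) =
        ((cycloChar p g : (ZMod p)ˣ) : ZMod p) * κ u σ)
    (B : Subgroup (GalL L)) (W : Submodule (ZMod p) V) (e : V →ₗ[ZMod p] V)
    (he3 : ∀ v, e v ∈ W) (he4 : ∀ b ∈ B, ∀ v, e (ρ b v) = ρ b (e v))
    (T : ↥(invSub (omegaHom hL) ρ (unitRep p S L))) (σ : ↥L.fixingSubgroup) :
    ((linkMap κ ρ hL hfin hκ heq B W e he3 he4 T : ↥(EqLevHom p S L ρ B W)) :
      ↥L.fixingSubgroup → V) σ
      = e ((T : Module.Dual (ZMod p) (UmodP p S L) →ₗ[ZMod p] V) (evK κ σ)) := rfl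

end link

/-- **Package LINK.** -/
theorem stmt_LINK : Stmt_LINK := by
  intro p _ S hpS L _ _ hL hfin κ hinj hκ heq V _ _ _ ρ B W hpB hind
  obtain ⟨e, he1, he2, he3, he4, he5⟩ := H47.exists_indProj ρ B W hind
  refine ⟨H15.linkMap κ ρ hL hfin hκ heq B W e he3 he4, ?_⟩
  rw [injective_iff_map_eq_zero]
  intro T h0
  have h1 : ∀ σ : ↥L.fixingSubgroup,
      e ((T : Module.Dual (ZMod p) (UmodP p S L) →ₗ[ZMod p] V) (H15.evK κ σ)) = 0 := by
    intro σ
    have := congrFun (congrArg Subtype.val h0) σ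
    rw [H15.linkMap_apply] at this
    exact this
  letI : Fintype (GalL L) := Fintype.ofFinite _
  have h2 : ∀ σ : ↥L.fixingSubgroup,
      (T : Module.Dual (ZMod p) (UmodP p S L) →ₗ[ZMod p] V) (H15.evK κ σ) = 0 := by
    intro σ
    have h3 := he5 ((T : Module.Dual (ZMod p) (UmodP p S L) →ₗ[ZMod p] V) (H15.evK κ σ))
    have h4 : ∀ g : GalL L, ρ g (e (ρ g⁻¹
        ((T : Module.Dual (ZMod p) (UmodP p S L) →ₗ[ZMod p] V) (H15.evK κ σ)))) = 0 := by
      intro g
      obtain ⟨g', hg'⟩ := resL_surjective L g⁻¹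
      rw [← hg', ← H15.hT_conj κ ρ hL heq T.2 g' σ, h1, map_zero]
    rw [Finset.sum_congr rfl fun g _ => h4 g, Finset.sum_const_zero] at h3
    have h5 : ((Nat.card B : ℕ) : ZMod p) ≠ 0 := by
      intro h6
      exact hpB ((ZMod.natCast_eq_zero_iff _ _).1 h6)
    exact (smul_eq_zero.1 h3.symm).resolve_left h5
  apply Subtype.ext
  apply LinearMap.ext_on_range (H15.span_evK κ hfin hinj)
  intro σ
  rw [h2 σ]
  rfl

end Fermat.Agent.S56.EC.KDT.H15

end

end
-- ==== END Fermat.Agent.S56.EC.KDT.H15_Link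

-- ==== BEGIN Fermat.Agent.S56.EC.KDT.H47_PsiAdd
section

set_option autoImplicit false
set_option linter.style.haveILetI false
set_option linter.unusedSectionVars false

/-!
# EC / KDALG, part KDO, leaf PSIADD (helper47)

`stmt_PSIADD : Stmt_PSIADD` (`EC/KDT/Defs_KDO.lean`): for a relatively projective `(V, ρ)` the
function `Ψ(A) = dim Hom_G(A*(ω), V)` is isomorphism-invariant and additive.

An intertwiner `f : A → A'` induces `pushInv f : Hom_G(A*(ω), V) → Hom_G(A'*(ω), V)`,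
`T ↦ T ∘ f.dualMap`.  For `A₁ = W ≤ A`, `A₂ = A ⧸ W` the sequence
`0 → Hom_G(A₁*(ω), V) → Hom_G(A*(ω), V) → Hom_G(A₂*(ω), V) → 0` is exact: on the right, an
invariant `T₂` is the image of the average `∑ g, ρ g ∘ Y ∘ twDual g⁻¹` of any linear extension
`Y` of `s₀ ∘ T₂`.
-/

noncomputable section

namespace Fermat.Agent.S56.EC.KDT.H47

open Module

section basics

variable {k : Type} [Field k] {G : Type} [Group G] (ω : G →* kˣ)
variable {V : Type} [AddCommGroup V] [Module k V] (ρ : Representation k G V)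
variable {A : Type} [AddCommGroup A] [Module k A] (α : Representation k G A)
variable {A' : Type} [AddCommGroup A'] [Module k A'] (α' : Representation k G A')

theorem twDual_mul (a b : G) : twDual ω α (a * b) = twDual ω α a ∘ₗ twDual ω α b := by
  apply LinearMap.ext
  intro φ
  apply LinearMap.ext
  intro x
  rw [LinearMap.comp_apply, twDual_apply, twDual_apply, twDual_apply, map_mul, Units.val_mul,
    mul_inv_rev, map_mul, Module.End.mul_apply, mul_assoc]

theorem twDual_one : twDual ω α 1 = LinearMap.id := by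
  apply LinearMap.ext
  intro φ
  apply LinearMap.ext
  intro x
  rw [twDual_apply, map_one, Units.val_one, one_mul, inv_one, map_one]
  rfl

/-- The dual of an intertwiner intertwines the twisted dual operators. -/
theorem dualMap_twDual (f : A →ₗ[k] A') (hf : ∀ g a, f (α g a) = α' g (f a)) (g : G) :
    f.dualMap ∘ₗ twDual ω α' g = twDual ω α g ∘ₗ f.dualMap := by
  apply LinearMap.ext
  intro φ
  apply LinearMap.ext
  intro a
  rw [LinearMap.comp_apply, LinearMap.comp_apply, LinearMap.dualMap_apply, twDual_apply,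
    twDual_apply, LinearMap.dualMap_apply, hf]

/-- An intertwiner `f : A → A'` maps `Hom_G(A*(ω), V)` to `Hom_G(A'*(ω), V)`. -/
theorem comp_dualMap_mem (f : A →ₗ[k] A') (hf : ∀ g a, f (α g a) = α' g (f a))
    {T : Module.Dual k A →ₗ[k] V} (hT : T ∈ invSub ω ρ α) :
    T ∘ₗ f.dualMap ∈ invSub ω ρ α' := by
  intro g
  rw [LinearMap.comp_assoc, dualMap_twDual ω α α' f hf g, ← LinearMap.comp_assoc, hT g,
    LinearMap.comp_assoc]

/-- `T ↦ T ∘ f.dualMap`, on the invariant subspaces. -/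
def pushInv (f : A →ₗ[k] A') (hf : ∀ g a, f (α g a) = α' g (f a)) :
    ↥(invSub ω ρ α) →ₗ[k] ↥(invSub ω ρ α') :=
  (LinearMap.lcomp k V f.dualMap).restrict (fun _ hT => comp_dualMap_mem ω ρ α α' f hf hT)

theorem pushInv_coe (f : A →ₗ[k] A') (hf : ∀ g a, f (α g a) = α' g (f a))
    (T : ↥(invSub ω ρ α)) :
    ((pushInv ω ρ α α' f hf T : ↥(invSub ω ρ α')) : Module.Dual k A' →ₗ[k] V) =
      (T : Module.Dual k A →ₗ[k] V) ∘ₗ f.dualMap := rfl

/-- The average of a linear map is invariant. -/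
theorem avg_mem [Fintype G] (Y : Module.Dual k A →ₗ[k] V) :
    (∑ g : G, (ρ g ∘ₗ Y) ∘ₗ twDual ω α g⁻¹) ∈ invSub ω ρ α := by
  rw [mem_invSub]
  intro h φ
  rw [LinearMap.sum_apply, LinearMap.sum_apply, map_sum]
  refine Fintype.sum_equiv (Equiv.mulLeft h⁻¹) _ _ (fun g => ?_)
  show ρ g (Y (twDual ω α g⁻¹ (twDual ω α h φ))) =
    ρ h (ρ (h⁻¹ * g) (Y (twDual ω α (h⁻¹ * g)⁻¹ φ)))
  rw [← LinearMap.comp_apply (twDual ω α g⁻¹), ← twDual_mul, ← Module.End.mul_apply (ρ h),
    ← map_mul, mul_inv_cancel_left, mul_inv_rev, inv_inv]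

end basics

section exact

variable {k : Type} [Field k] {G : Type} [Group G] (ω : G →* kˣ)
variable {V : Type} [AddCommGroup V] [Module k V] (ρ : Representation k G V)
variable {A : Type} [AddCommGroup A] [Module k A] (α : Representation k G A)
variable (W : Submodule k A) (hW : ∀ g, W ≤ W.comap (α g))

theorem subtype_intertwines (g : G) (a : W) :
    W.subtype (α.subrepresentation W hW g a) = α g (W.subtype a) := rfl

theorem mkQ_intertwines (g : G) (a : A) :
    W.mkQ (α g a) = α.quotient W hW g (W.mkQ a) := rfl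

/-- `Hom_G(W*(ω), V) → Hom_G(A*(ω), V)`. -/
def pushSub : ↥(invSub ω ρ (α.subrepresentation W hW)) →ₗ[k] ↥(invSub ω ρ α) :=
  pushInv ω ρ (α.subrepresentation W hW) α W.subtype (subtype_intertwines α W hW)

/-- `Hom_G(A*(ω), V) → Hom_G((A/W)*(ω), V)`. -/
def pushQuot : ↥(invSub ω ρ α) →ₗ[k] ↥(invSub ω ρ (α.quotient W hW)) :=
  pushInv ω ρ α (α.quotient W hW) W.mkQ (mkQ_intertwines α W hW)

theorem dualMap_subtype_surjective : Function.Surjective W.subtype.dualMap :=
  LinearMap.dualMap_surjective_of_injective W.injective_subtype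

theorem dualMap_mkQ_injective : Function.Injective W.mkQ.dualMap :=
  LinearMap.dualMap_injective_of_surjective W.mkQ_surjective

theorem pushSub_injective : Function.Injective (pushSub ω ρ α W hW) := by
  intro T T' h
  have h1 : (T : Module.Dual k W →ₗ[k] V) ∘ₗ W.subtype.dualMap =
      (T' : Module.Dual k W →ₗ[k] V) ∘ₗ W.subtype.dualMap := congrArg Subtype.val h
  exact Subtype.ext ((LinearMap.cancel_right (dualMap_subtype_surjective W)).1 h1)

/-- A functional vanishing on `W` comes from the quotient. -/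
theorem mem_range_dualMap_mkQ {φ : Module.Dual k A} (h : W.subtype.dualMap φ = 0) :
    φ ∈ LinearMap.range W.mkQ.dualMap := by
  have h1 : W ≤ LinearMap.ker φ := by
    intro w hw
    have := LinearMap.congr_fun h ⟨w, hw⟩
    exact this
  exact ⟨W.liftQ φ h1, W.liftQ_mkQ φ h1⟩

theorem range_pushSub :
    LinearMap.range (pushSub ω ρ α W hW) = LinearMap.ker (pushQuot ω ρ α W hW) := by
  apply le_antisymm
  · rintro _ ⟨T₁, rfl⟩
    rw [LinearMap.mem_ker]
    apply Subtype.ext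
    show ((T₁ : Module.Dual k W →ₗ[k] V) ∘ₗ W.subtype.dualMap) ∘ₗ W.mkQ.dualMap = 0
    rw [LinearMap.comp_assoc, LinearMap.dualMap_comp_dualMap]
    have h0 : W.mkQ ∘ₗ W.subtype = 0 := by
      apply LinearMap.ext
      intro w
      simp
    rw [h0]
    apply LinearMap.ext
    intro ψ
    rw [LinearMap.comp_apply]
    have h00 : (0 : ↥W →ₗ[k] A ⧸ W).dualMap ψ = 0 := by
      apply LinearMap.ext
      intro w
      rw [LinearMap.dualMap_apply, LinearMap.zero_apply, map_zero, LinearMap.zero_apply]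
    rw [h00, map_zero]
    rfl
  · intro T hT
    rw [LinearMap.mem_ker] at hT
    have hT0 : (T : Module.Dual k A →ₗ[k] V) ∘ₗ W.mkQ.dualMap = 0 := congrArg Subtype.val hT
    obtain ⟨r', hr'⟩ := LinearMap.exists_rightInverse_of_surjective W.subtype.dualMap
      (LinearMap.range_eq_top.2 (dualMap_subtype_surjective W))
    -- `T = T₁ ∘ r` with `T₁ = T ∘ r'`
    have hfac : ((T : Module.Dual k A →ₗ[k] V) ∘ₗ r') ∘ₗ W.subtype.dualMap =
        (T : Module.Dual k A →ₗ[k] V) := by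
      apply LinearMap.ext
      intro φ
      rw [LinearMap.comp_apply, LinearMap.comp_apply]
      have h1 : W.subtype.dualMap (r' (W.subtype.dualMap φ) - φ) = 0 := by
        rw [map_sub]
        have := LinearMap.congr_fun hr' (W.subtype.dualMap φ)
        rw [LinearMap.comp_apply, LinearMap.id_apply] at this
        rw [this, sub_self]
      obtain ⟨ψ, hψ⟩ := mem_range_dualMap_mkQ W h1
      have h2 : (T : Module.Dual k A →ₗ[k] V) (r' (W.subtype.dualMap φ) - φ) = 0 := by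
        rw [← hψ]
        exact LinearMap.congr_fun hT0 ψ
      rw [map_sub, sub_eq_zero] at h2
      exact h2
    have hmem : (T : Module.Dual k A →ₗ[k] V) ∘ₗ r' ∈ invSub ω ρ (α.subrepresentation W hW) := by
      intro g
      apply (LinearMap.cancel_right (dualMap_subtype_surjective W)).1
      rw [LinearMap.comp_assoc,
        ← dualMap_twDual ω (α.subrepresentation W hW) α W.subtype (subtype_intertwines α W hW) g,
        ← LinearMap.comp_assoc, hfac, T.2 g, LinearMap.comp_assoc, hfac]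
    exact ⟨⟨_, hmem⟩, Subtype.ext hfac⟩

theorem pushQuot_surjective [Fintype G] {s₀ : V →ₗ[k] V}
    (hs₀ : ∀ v, ∑ g : G, ρ g (s₀ (ρ g⁻¹ v)) = v) :
    Function.Surjective (pushQuot ω ρ α W hW) := by
  intro T₂
  obtain ⟨q', hq'⟩ := LinearMap.exists_leftInverse_of_injective W.mkQ.dualMap
    (LinearMap.ker_eq_bot.2 (dualMap_mkQ_injective W))
  set Y : Module.Dual k A →ₗ[k] V :=
    (s₀ ∘ₗ (T₂ : Module.Dual k (A ⧸ W) →ₗ[k] V)) ∘ₗ q' with hY
  refine ⟨⟨∑ g : G, (ρ g ∘ₗ Y) ∘ₗ twDual ω α g⁻¹, avg_mem ω ρ α Y⟩, ?_⟩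
  apply Subtype.ext
  show (∑ g : G, (ρ g ∘ₗ Y) ∘ₗ twDual ω α g⁻¹) ∘ₗ W.mkQ.dualMap =
    (T₂ : Module.Dual k (A ⧸ W) →ₗ[k] V)
  apply LinearMap.ext
  intro ψ
  rw [LinearMap.comp_apply, LinearMap.sum_apply]
  have h1 : ∀ g : G, ((ρ g ∘ₗ Y) ∘ₗ twDual ω α g⁻¹) (W.mkQ.dualMap ψ) =
      ρ g (s₀ (ρ g⁻¹ ((T₂ : Module.Dual k (A ⧸ W) →ₗ[k] V) ψ))) := by
    intro g
    have h2 : twDual ω α g⁻¹ (W.mkQ.dualMap ψ) =
        W.mkQ.dualMap (twDual ω (α.quotient W hW) g⁻¹ ψ) :=
      (LinearMap.congr_fun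
        (dualMap_twDual ω α (α.quotient W hW) W.mkQ (mkQ_intertwines α W hW) g⁻¹) ψ).symm
    have h3 : ∀ x, Y (W.mkQ.dualMap x) = s₀ ((T₂ : Module.Dual k (A ⧸ W) →ₗ[k] V) x) := by
      intro x
      have := LinearMap.congr_fun hq' x
      rw [LinearMap.comp_apply, LinearMap.id_apply] at this
      show s₀ ((T₂ : Module.Dual k (A ⧸ W) →ₗ[k] V) (q' (W.mkQ.dualMap x))) = _
      rw [this]
    rw [LinearMap.comp_apply, LinearMap.comp_apply, h2, h3,
      (mem_invSub ω ρ (α.quotient W hW) _).1 T₂.2 g⁻¹ ψ]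
  rw [Finset.sum_congr rfl (fun g _ => h1 g)]
  exact hs₀ _

/-- **Additivity of the dimensions.** -/
theorem finrank_invSub_add [Fintype G] [FiniteDimensional k V] [FiniteDimensional k A]
    {s₀ : V →ₗ[k] V} (hs₀ : ∀ v, ∑ g : G, ρ g (s₀ (ρ g⁻¹ v)) = v) :
    finrank k ↥(invSub ω ρ α) =
      finrank k ↥(invSub ω ρ (α.subrepresentation W hW)) +
        finrank k ↥(invSub ω ρ (α.quotient W hW)) := by
  have h1 := LinearMap.finrank_range_add_finrank_ker (pushQuot ω ρ α W hW)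
  rw [LinearMap.range_eq_top.2 (pushQuot_surjective ω ρ α W hW hs₀), finrank_top,
    ← range_pushSub ω ρ α W hW,
    LinearMap.finrank_range_of_inj (pushSub_injective ω ρ α W hW)] at h1
  rw [← h1, add_comm]

end exact

section iso

variable {k : Type} [Field k] {G : Type} [Group G] (ω : G →* kˣ)
variable {V : Type} [AddCommGroup V] [Module k V] (ρ : Representation k G V)
variable {A : Type} [AddCommGroup A] [Module k A] (α : Representation k G A)
variable {A' : Type} [AddCommGroup A'] [Module k A'] (α' : Representation k G A')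

theorem pushInv_equiv_injective (e : A ≃ₗ[k] A') (he : ∀ g a, e (α g a) = α' g (e a)) :
    Function.Injective (pushInv ω ρ α α' e.toLinearMap he) := by
  intro T T' h
  have h1 : (T : Module.Dual k A →ₗ[k] V) ∘ₗ e.toLinearMap.dualMap =
      (T' : Module.Dual k A →ₗ[k] V) ∘ₗ e.toLinearMap.dualMap := congrArg Subtype.val h
  have hs : Function.Surjective e.toLinearMap.dualMap :=
    LinearMap.dualMap_surjective_of_injective e.injective
  exact Subtype.ext ((LinearMap.cancel_right hs).1 h1)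

theorem finrank_invSub_iso [FiniteDimensional k V] [FiniteDimensional k A]
    (e : A ≃ₗ[k] A') (he : ∀ g a, e (α g a) = α' g (e a)) :
    finrank k ↥(invSub ω ρ α) = finrank k ↥(invSub ω ρ α') := by
  haveI : FiniteDimensional k A' := LinearEquiv.finiteDimensional e
  have he' : ∀ g a, e.symm (α' g a) = α g (e.symm a) := by
    intro g a
    rw [LinearEquiv.symm_apply_eq, he, LinearEquiv.apply_symm_apply]
  apply le_antisymm
  · exact LinearMap.finrank_le_finrank_of_injective (pushInv_equiv_injective ω ρ α α' e he)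
  · exact LinearMap.finrank_le_finrank_of_injective
      (pushInv_equiv_injective ω ρ α' α e.symm he')

end iso

/-- **PSIADD.** -/
theorem stmt_PSIADD : Stmt_PSIADD := by
  intro k _ G _ _ ω V _ _ _ ρ s₀ hs₀
  letI : Fintype G := Fintype.ofFinite G
  have hs : ∀ v, ∑ g : G, ρ g (s₀ (ρ g⁻¹ v)) = v := fun v => hs₀ v
  refine ⟨?_, ?_⟩
  · intro A A' _ _ _ _ _ α α' e he
    show ((finrank k ↥(invSub ω ρ α) : ℕ) : ℤ) = ((finrank k ↥(invSub ω ρ α') : ℕ) : ℤ)
    rw [finrank_invSub_iso ω ρ α α' e he]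
  · intro A _ _ _ α W hW
    show ((finrank k ↥(invSub ω ρ α) : ℕ) : ℤ) =
      ((finrank k ↥(invSub ω ρ (α.subrepresentation W hW)) : ℕ) : ℤ) +
        ((finrank k ↥(invSub ω ρ (α.quotient W hW)) : ℕ) : ℤ)
    rw [finrank_invSub_add ω ρ α W hW hs, Nat.cast_add]

end Fermat.Agent.S56.EC.KDT.H47

end

end
-- ==== END Fermat.Agent.S56.EC.KDT.H47_PsiAdd

-- ==== BEGIN Fermat.Agent.S56.EC.KDT.H74_BNREL
section

set_option autoImplicit false
set_option linter.unusedSectionVars false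
set_option linter.style.haveILetI false

/-!
# EC / KDALG, leaf BNREL (helper74)

`stmt_BNREL : Stmt_BNREL`: the equivariant unit theorem `Stmt_UBR` (a relation between Brauer
characters) gives, by Brauer-Nesbitt, the same relation for every additive function.
-/

noncomputable section

namespace Fermat.Agent.S56.EC.KDT

open CategoryTheory groupCohomology ExtCitation Module Polynomial

/-! ### The Brauer character of a one-dimensional representation -/

theorem charpoly_smul_id_self {k : Type} [Field k] (c : k) :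
    LinearMap.charpoly (c • (LinearMap.id : k →ₗ[k] k)) = X - C c := by
  rw [← LinearMap.charpoly_toMatrix _ (Module.Basis.singleton Unit k)]
  unfold Matrix.charpoly
  rw [Matrix.det_unique, Matrix.charmatrix_apply_eq, LinearMap.toMatrix_apply]
  simp

theorem brauer_charRep (p : ℕ) [Fact p.Prime] {k : Type} [Field k] {G : Type} [Group G]
    (ω : G →* kˣ) (g : G) :
    IND.brauer p (charRep ω) g =
      WittVector.teichmuller p (algebraMap k (AlgebraicClosure k) ((ω g : kˣ) : k)) := by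
  unfold IND.brauer
  have h1 : LinearMap.charpoly (charRep ω g) = X - C ((ω g : kˣ) : k) :=
    charpoly_smul_id_self _
  rw [h1, Polynomial.aroots_X_sub_C, Multiset.map_singleton, Multiset.sum_singleton]

/-! ### The index set of the relation -/

section rel

variable {p : ℕ} [Fact p.Prime] {S : Finset Nat.Primes}
  {L : IntermediateField ℚ (AlgebraicClosure ℚ)} [Normal ℚ L] [FiniteDimensional ℚ L]

/-- The representations of the relation. -/
def relRep (hL : IsGalLevel p S L) :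
    Option (Option (Option (Option ↥S))) → Rep.{0} (ZMod p) (GalL L)
  | none => Rep.of (unitRep p S L)
  | some none =>
      Rep.of (IND.permRep (ZMod p) (GalL L) (GalL L ⧸ (⊤ : Subgroup (GalL L))))
  | some (some none) => Rep.of (charRep (omegaHom hL))
  | some (some (some none)) => Rep.of (IND.permRep (ZMod p) (GalL L) (GalL L ⧸ decInf L))
  | some (some (some (some q))) =>
      Rep.of (IND.permRep (ZMod p) (GalL L) (GalL L ⧸ decL L q.1))

/-- The coefficients of the relation. -/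
def relCoef : Option (Option (Option (Option ↥S))) → ℤ
  | none => 1
  | some none => 1
  | _ => -1

theorem card_fixed_top {G : Type} [Group G] (g : G) :
    Nat.card {x : G ⧸ (⊤ : Subgroup G) // g • x = x} = 1 := by
  haveI : Subsingleton (G ⧸ (⊤ : Subgroup G)) := QuotientGroup.subsingleton_quotient_top
  haveI : Unique {x : G ⧸ (⊤ : Subgroup G) // g • x = x} :=
    { default := ⟨QuotientGroup.mk 1, Subsingleton.elim _ _⟩
      uniq := fun _ => Subtype.ext (Subsingleton.elim _ _) }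
  exact Nat.card_unique

end rel

/-- **BNREL.** -/
theorem stmt_BNREL : Stmt_BNREL := by
  intro hubr p _ hp2 S hpS L _ _ hL F hF
  obtain ⟨hfin, hbr⟩ := hubr p hp2 S hpS L hL
  haveI := hfin
  haveI : Finite (GalL L) := inferInstance
  have hBR := IND.H74.stmt_BR
  have hfd : ∀ i, FiniteDimensional (ZMod p) (relRep (p := p) (S := S) hL i) := by
    intro i
    match i with
    | none => exact hfin
    | some none =>
      exact (inferInstance : FiniteDimensional (ZMod p)
        (GalL L ⧸ (⊤ : Subgroup (GalL L)) → ZMod p))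
    | some (some none) => exact (inferInstance : FiniteDimensional (ZMod p) (ZMod p))
    | some (some (some none)) =>
      exact (inferInstance : FiniteDimensional (ZMod p) (GalL L ⧸ decInf L → ZMod p))
    | some (some (some (some q))) =>
      exact (inferInstance : FiniteDimensional (ZMod p) (GalL L ⧸ decL L q.1 → ZMod p))
  -- the relation between Brauer characters at `p`-regular elements
  have hreg : ∀ g : GalL L, ¬ p ∣ orderOf g →
      ∑ i, relCoef (S := S) i • IND.brauerFn p (relRep (p := p) (S := S) hL i) g = 0 := by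
    intro g hg
    obtain ⟨gt, rfl⟩ := resL_surjective L g
    have h := hbr gt hg
    rw [Fintype.sum_option, Fintype.sum_option, Fintype.sum_option, Fintype.sum_option]
    simp only [relRep, relCoef]
    rw [IND.brauerFn_of, IND.brauerFn_of, IND.brauerFn_of, IND.brauerFn_of,
      IND.H74.stmt_PERM p (ZMod p) (GalL L) _ _ hg, IND.H74.stmt_PERM p (ZMod p) (GalL L) _ _ hg,
      brauer_charRep, card_fixed_top, omegaHom_apply, omegaL_resL hL]
    rw [IND.brauerFn_of] at h
    have h2 : ∑ q : ↥S, (-1 : ℤ) • IND.brauerFn p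
        (Rep.of (IND.permRep (ZMod p) (GalL L) (GalL L ⧸ decL L q.1))) (resL L gt) =
        - ∑ q ∈ S, (Nat.card {x : GalL L ⧸ decL L q // resL L gt • x = x} :
          IND.WK p (ZMod p)) := by
      rw [← Finset.sum_coe_sort S, ← Finset.sum_neg_distrib]
      refine Finset.sum_congr rfl fun q _ => ?_
      rw [IND.brauerFn_of, IND.H74.stmt_PERM p (ZMod p) (GalL L) _ _ hg, neg_smul, one_smul]
    rw [h2, one_smul, one_smul, neg_smul, one_smul, neg_smul, one_smul, Nat.cast_one]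
    linear_combination h
  -- at all elements
  have hall : ∀ g : GalL L,
      ∑ i, relCoef (S := S) i • IND.brauerFn p (relRep (p := p) (S := S) hL i) g = 0 := by
    intro g
    obtain ⟨j, hj⟩ := IND.exists_pow_regular p (ZMod p) (GalL L) g
    have h := hreg _ hj
    rw [← h]
    refine Finset.sum_congr rfl fun i _ => ?_
    congr 1
    haveI := hfd i
    rw [IND.H74.brauerFn_eq]
    exact (IND.brauer_pow_card_pow hBR p (ZMod p) (GalL L) _ _ g j).symm
  have hmain := IND.H74.stmt_BN p (ZMod p) (GalL L) _ (relRep (p := p) (S := S) hL) hfd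
    (relCoef (S := S)) hall F hF
  rw [Fintype.sum_option, Fintype.sum_option, Fintype.sum_option, Fintype.sum_option] at hmain
  simp only [relRep, relCoef] at hmain
  have h3 : ∑ q : ↥S, (-1 : ℤ) *
      F (Rep.of (IND.permRep (ZMod p) (GalL L) (GalL L ⧸ decL L q.1))) =
      - ∑ q ∈ S, F (Rep.of (IND.permRep (ZMod p) (GalL L) (GalL L ⧸ decL L q))) := by
    rw [← Finset.sum_coe_sort S, ← Finset.sum_neg_distrib]
    refine Finset.sum_congr rfl fun q _ => ?_
    ring
  rw [h3] at hmain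
  linarith

end Fermat.Agent.S56.EC.KDT

end

end
-- ==== END Fermat.Agent.S56.EC.KDT.H74_BNREL

-- ==== BEGIN Fermat.Agent.S56.EC.KDT.H74_PsiEval
section

set_option autoImplicit false
set_option linter.unusedSectionVars false
set_option linter.style.haveILetI false

/-!
# EC / KDALG, leaves PSICHAR and PSIPERM (helper74)

* `stmt_PSICHAR : Stmt_PSICHAR` : `Ψ(k(ω)) = dim V^G`;
* `stmt_PSIPERM : Stmt_PSIPERM` : `Ψ(k[G/D]) = dim V^{D,ω}`.
-/

noncomputable section

namespace Fermat.Agent.S56.EC.KDT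

open Module

section char

variable {k : Type} [Field k] {G : Type} [Group G] (ω : G →* kˣ)
  {V : Type} [AddCommGroup V] [Module k V] (ρ : Representation k G V)

theorem twDual_charRep (g : G) (φ : Module.Dual k k) : twDual ω (charRep ω) g φ = φ := by
  apply LinearMap.ext
  intro a
  rw [twDual_apply, charRep_apply, map_inv, mul_comm _ a, ← smul_eq_mul a, map_smul, smul_eq_mul]
  have h : ((ω g : kˣ) : k) * (((ω g)⁻¹ : kˣ) : k) = 1 := by
    rw [← Units.val_mul, mul_inv_cancel, Units.val_one]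
  have h2 : φ (((ω g)⁻¹ : kˣ) : k) = (((ω g)⁻¹ : kˣ) : k) * φ 1 := by
    have := map_smul φ (((ω g)⁻¹ : kˣ) : k) (1 : k)
    rw [smul_eq_mul, mul_one, smul_eq_mul] at this
    exact this
  have h3 : φ a = a * φ 1 := by
    have := map_smul φ a (1 : k)
    rw [smul_eq_mul, mul_one, smul_eq_mul] at this
    exact this
  rw [h2, h3]
  calc ((ω g : kˣ) : k) * (a * ((((ω g)⁻¹ : kˣ) : k) * φ 1))
      = (((ω g : kˣ) : k) * (((ω g)⁻¹ : kˣ) : k)) * (a * φ 1) := by ring
    _ = a * φ 1 := by rw [h, one_mul]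

/-- `Hom_G(k(ω)*(ω), V) ≃ V^G`. -/
def charEquiv : ↥(invSub ω ρ (charRep ω)) ≃ₗ[k] ↥(ρ.invariants) where
  toFun T := ⟨T.1 LinearMap.id, fun g => by
    have h := (mem_invSub ω ρ (charRep ω) T.1).1 T.2 g LinearMap.id
    rw [twDual_charRep] at h
    exact h.symm⟩
  map_add' _ _ := rfl
  map_smul' _ _ := rfl
  invFun v :=
    ⟨{ toFun := fun φ => φ 1 • (v : V)
       map_add' := fun φ ψ => by rw [LinearMap.add_apply, add_smul]
       map_smul' := fun c φ => by
        rw [LinearMap.smul_apply, smul_eq_mul, mul_smul, RingHom.id_apply] },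
      (mem_invSub ω ρ (charRep ω) _).2 fun g φ => by
        show (twDual ω (charRep ω) g φ) 1 • (v : V) = ρ g (φ 1 • (v : V))
        rw [twDual_charRep, map_smul, v.2 g]⟩
  left_inv T := by
    apply Subtype.ext
    apply LinearMap.ext
    intro φ
    show φ 1 • T.1 LinearMap.id = T.1 φ
    rw [← map_smul]
    congr 1
    apply LinearMap.ext
    intro a
    rw [LinearMap.smul_apply, LinearMap.id_apply, smul_eq_mul]
    have := map_smul φ a (1 : k)
    rw [smul_eq_mul, mul_one, smul_eq_mul] at this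
    rw [this, mul_comm]
  right_inv v := by
    apply Subtype.ext
    show (LinearMap.id : k →ₗ[k] k) 1 • (v : V) = v
    rw [LinearMap.id_apply, one_smul]

end char

/-- **PSICHAR.** -/
theorem stmt_PSICHAR : Stmt_PSICHAR := by
  intro k _ G _ _ ω V _ _ _ ρ
  unfold psi
  exact congrArg _ (charEquiv ω ρ).finrank_eq

section perm

variable {k : Type} [Field k] {G : Type} [Group G] (ω : G →* kˣ)
  {V : Type} [AddCommGroup V] [Module k V] (ρ : Representation k G V)
  {X : Type} [MulAction G X] [Fintype X] [DecidableEq X]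

/-- The evaluation at `x`. -/
def evX (x : X) : Module.Dual k (X → k) := LinearMap.proj x

theorem evX_apply (x : X) (f : X → k) : evX (k := k) x f = f x := rfl

theorem twDual_evX (g : G) (x : X) :
    twDual ω (IND.permRep k G X) g (evX x) = ((ω g : kˣ) : k) • evX (g • x) := by
  apply LinearMap.ext
  intro f
  rw [twDual_apply, LinearMap.smul_apply, smul_eq_mul, evX_apply, evX_apply,
    IND.permRep_apply, inv_inv]

theorem dual_eq_sum (φ : Module.Dual k (X → k)) :
    φ = ∑ y : X, φ (Pi.single y 1) • evX y := by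
  apply LinearMap.ext
  intro f
  have hf : f = ∑ y : X, f y • (Pi.single y (1 : k) : X → k) := by
    funext x
    rw [Finset.sum_apply, Finset.sum_eq_single x]
    · rw [Pi.smul_apply, Pi.single_eq_same, smul_eq_mul, mul_one]
    · intro y _ hy
      rw [Pi.smul_apply, Pi.single_eq_of_ne (Ne.symm hy), smul_zero]
    · intro h
      exact absurd (Finset.mem_univ _) h
  conv_lhs => rw [hf, map_sum]
  rw [LinearMap.sum_apply]
  refine Finset.sum_congr rfl fun y _ => ?_
  rw [map_smul, LinearMap.smul_apply, evX_apply, smul_eq_mul, smul_eq_mul, mul_comm]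

theorem inv_evX_smul {T : Module.Dual k (X → k) →ₗ[k] V}
    (hT : T ∈ invSub ω ρ (IND.permRep k G X)) (g : G) (x : X) :
    T (evX (g • x)) = (((ω g)⁻¹ : kˣ) : k) • ρ g (T (evX x)) := by
  have h := (mem_invSub ω ρ _ T).1 hT g (evX x)
  rw [twDual_evX, map_smul] at h
  rw [← h, smul_smul, ← Units.val_mul, inv_mul_cancel, Units.val_one, one_smul]

end perm

section quot

variable {k : Type} [Field k] {G : Type} [Group G] (ω : G →* kˣ)
  {V : Type} [AddCommGroup V] [Module k V] (ρ : Representation k G V) (D : Subgroup G)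
  [Fintype (G ⧸ D)] [DecidableEq (G ⧸ D)]

/-- `c_x = ω(out x)⁻¹ • ρ(out x) v`. -/
def cOf (v : V) (x : G ⧸ D) : V := (((ω x.out)⁻¹ : kˣ) : k) • ρ x.out v

theorem cOf_mk (v : V) (hv : v ∈ twFix ω ρ (D : Set G)) (g : G) :
    cOf ω ρ D v (QuotientGroup.mk g) = (((ω g)⁻¹ : kˣ) : k) • ρ g v := by
  unfold cOf
  set s := (QuotientGroup.mk g : G ⧸ D).out with hs
  have hd : g⁻¹ * s ∈ D := by
    have h := QuotientGroup.out_eq' (QuotientGroup.mk g : G ⧸ D)
    have h2 := QuotientGroup.eq.1 h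
    have h3 := D.inv_mem h2
    simpa using h3
  have hsg : s = g * (g⁻¹ * s) := by rw [mul_inv_cancel_left]
  have h1 : ρ s v = ρ g (ρ (g⁻¹ * s) v) := by
    conv_lhs => rw [hsg, map_mul]
    rfl
  have h2 : ω s = ω g * ω (g⁻¹ * s) := by
    conv_lhs => rw [hsg, map_mul]
  have h3 : (ω s)⁻¹ * ω (g⁻¹ * s) = (ω g)⁻¹ := by
    rw [h2, mul_inv_rev, mul_assoc, mul_comm (ω g)⁻¹, ← mul_assoc, inv_mul_cancel, one_mul]
  rw [h1, hv _ hd, map_smul, smul_smul, ← Units.val_mul, h3]

theorem cOf_smul (v : V) (hv : v ∈ twFix ω ρ (D : Set G)) (g : G) (y : G ⧸ D) :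
    ((ω g : kˣ) : k) • cOf ω ρ D v (g • y) = ρ g (cOf ω ρ D v y) := by
  induction y using QuotientGroup.induction_on with
  | H z =>
    have h1 : g • (QuotientGroup.mk z : G ⧸ D) = QuotientGroup.mk (g * z) := rfl
    have h3 : ω g * (ω (g * z))⁻¹ = (ω z)⁻¹ := by
      rw [map_mul, mul_inv_rev, mul_comm (ω z)⁻¹, ← mul_assoc, mul_inv_cancel, one_mul]
    rw [h1, cOf_mk ω ρ D v hv, cOf_mk ω ρ D v hv, map_smul, smul_smul, ← Units.val_mul, h3,
      map_mul]
    rfl

/-- The map `T_v : φ ↦ ∑_x φ(δ_x) • c_x`. -/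
def permT (v : V) : Module.Dual k (G ⧸ D → k) →ₗ[k] V where
  toFun φ := ∑ x : G ⧸ D, φ (Pi.single x 1) • cOf ω ρ D v x
  map_add' φ ψ := by
    rw [← Finset.sum_add_distrib]
    refine Finset.sum_congr rfl fun x _ => ?_
    rw [LinearMap.add_apply, add_smul]
  map_smul' c φ := by
    rw [RingHom.id_apply, Finset.smul_sum]
    refine Finset.sum_congr rfl fun x _ => ?_
    rw [LinearMap.smul_apply, smul_eq_mul, mul_smul]

theorem permT_apply (v : V) (φ : Module.Dual k (G ⧸ D → k)) :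
    permT ω ρ D v φ = ∑ x : G ⧸ D, φ (Pi.single x 1) • cOf ω ρ D v x := rfl

theorem permT_evX (v : V) (y : G ⧸ D) : permT ω ρ D v (evX y) = cOf ω ρ D v y := by
  rw [permT_apply, Finset.sum_eq_single y]
  · rw [evX_apply, Pi.single_eq_same, one_smul]
  · intro x _ hx
    rw [evX_apply, Pi.single_eq_of_ne (Ne.symm hx), zero_smul]
  · intro h
    exact absurd (Finset.mem_univ _) h

theorem permT_mem (v : V) (hv : v ∈ twFix ω ρ (D : Set G)) :
    permT ω ρ D v ∈ invSub ω ρ (IND.permRep k G (G ⧸ D)) := by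
  rw [mem_invSub]
  intro g φ
  conv_lhs => rw [dual_eq_sum φ, map_sum, map_sum]
  conv_rhs => rw [dual_eq_sum φ, map_sum, map_sum]
  refine Finset.sum_congr rfl fun y _ => ?_
  rw [map_smul, map_smul, map_smul, map_smul, twDual_evX, map_smul, permT_evX, permT_evX,
    cOf_smul ω ρ D v hv]

/-- `Hom_G(k[G/D]*(ω), V) ≃ V^{D,ω}`. -/
def permEquiv : ↥(invSub ω ρ (IND.permRep k G (G ⧸ D))) ≃ₗ[k] ↥(twFix ω ρ (D : Set G)) where
  toFun T := ⟨T.1 (evX (QuotientGroup.mk 1)), fun d hd => by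
    have h := inv_evX_smul ω ρ T.2 d (QuotientGroup.mk 1 : G ⧸ D)
    have h1 : d • (QuotientGroup.mk 1 : G ⧸ D) = QuotientGroup.mk 1 := by
      show (QuotientGroup.mk (d * 1) : G ⧸ D) = QuotientGroup.mk 1
      rw [QuotientGroup.eq]
      simpa using D.inv_mem hd
    rw [h1] at h
    conv_rhs => rw [h]
    rw [smul_smul, ← Units.val_mul, mul_inv_cancel, Units.val_one, one_smul]⟩
  map_add' _ _ := rfl
  map_smul' _ _ := rfl
  invFun v := ⟨permT ω ρ D v.1, permT_mem ω ρ D v.1 v.2⟩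
  left_inv T := by
    apply Subtype.ext
    apply LinearMap.ext
    intro φ
    show permT ω ρ D (T.1 (evX (QuotientGroup.mk 1))) φ = T.1 φ
    conv_rhs => rw [dual_eq_sum φ, map_sum]
    rw [permT_apply]
    refine Finset.sum_congr rfl fun y _ => ?_
    rw [map_smul]
    congr 1
    unfold cOf
    have h := inv_evX_smul ω ρ T.2 y.out (QuotientGroup.mk 1 : G ⧸ D)
    have h1 : y.out • (QuotientGroup.mk 1 : G ⧸ D) = y := by
      show (QuotientGroup.mk (y.out * 1) : G ⧸ D) = y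
      rw [mul_one]
      exact QuotientGroup.out_eq' y
    rw [h1] at h
    exact h.symm
  right_inv v := by
    apply Subtype.ext
    show permT ω ρ D v.1 (evX (QuotientGroup.mk 1)) = v.1
    rw [permT_evX, cOf_mk ω ρ D v.1 v.2, map_one, inv_one, Units.val_one, one_smul, map_one]
    rfl

end quot

/-- **PSIPERM.** -/
theorem stmt_PSIPERM : Stmt_PSIPERM := by
  classical
  intro k _ G _ _ ω V _ _ _ ρ D
  haveI := Fintype.ofFinite (G ⧸ D)
  unfold psi
  exact congrArg _ (permEquiv ω ρ D).finrank_eq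

end Fermat.Agent.S56.EC.KDT

end

end
-- ==== END Fermat.Agent.S56.EC.KDT.H74_PsiEval

-- ==== BEGIN Fermat.Agent.S56.FL.H50_Final0
section

set_option autoImplicit false

/-!
# LOC-p-FL (item 69): assembly of everything that is proved

`Stmt_loc_p_Fl` from the statements that are still open: `Stmt_CC2z` (package UNITS, for COH-SS)
and `Stmt_COH_RED`.
-/

namespace Fermat.Agent.S56.FL.H50

open Fermat.Agent.S56 Fermat.Agent.S56.FL

theorem stmt_FL_ord : Stmt_FL_ord := H38.stmt_FL_ord_of H54.stmt_FL_B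

theorem stmt_loc_p_Fl_of_open (h2 : Stmt_CC2z) (hRED : Stmt_COH_RED) : Stmt_loc_p_Fl :=
  stmt_loc_p_Fl_of H54.stmt_FL_A stmt_FL_ord (stmt_COH_SS_of_CC2 (H15.stmt_CC2_of_z h2)) hRED

end Fermat.Agent.S56.FL.H50

end
-- ==== END Fermat.Agent.S56.FL.H50_Final0

-- ==== BEGIN Fermat.Agent.S56.GWC.H64_Final
section

set_option autoImplicit false

namespace Fermat.Agent.S56.GWC.H64

open Fermat.Agent.S56 Fermat.Agent.S56.GWC

/-- **PT2** from the base case (E4 lane) and restriction of scalars. -/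
theorem stmt_PT2_of_base (hb : Stmt_B1M_base) (h3 : Stmt_H3S_base) (hRS : Stmt_RS) :
    Stmt_PT2 :=
  stmt_PT2_of hb h3 H01.stmt_CONE1 H46.stmt_DUALCOUNT H46.stmt_DD hRS

/-- **PT2e** (counting form over `𝔽_p`) from the base case. -/
theorem stmt_PT2e_of_base (hb : Stmt_B1M_base) (h3 : Stmt_H3S_base) : Stmt_PT2e :=
  stmt_PT2e_of (stmt_B1_of hb h3) H01.stmt_CONE1 H46.stmt_DUALCOUNT H46.stmt_DD

/-- **INV** from helper47's two packages. -/
theorem stmt_INV_of_AB (hA : Stmt_INV_A) (hB : Stmt_INV_B) : Stmt_INV :=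
  stmt_INV_of_packages hA hB H46.stmt_UR2

end Fermat.Agent.S56.GWC.H64

end
-- ==== END Fermat.Agent.S56.GWC.H64_Final
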