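-- GENERATED (merged mirror, NOTES/tools/trim/merge3_helper67.py): 9 modules of the originals, bodies verbatim.
import Fermat.Agent.Zm.S56_L18_000
import Fermat.Agent.Zm.S56_L18_001
import Fermat.Agent.Zm.S56_L07_002
import Fermat.Agent.Zm.S56_L07_003
import Fermat.Agent.Zm.S56_L08_000
import Fermat.Agent.Zm.S56_L17_000
import Fermat.Agent.Zm.S56_L09_000
import Fermat.Agent.Zm.S56_L08_001
import Fermat.Agent.Zm.S56_L07_000
import Fermat.Agent.S55.CFT.LOC.H25_THLP_ZMod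
import Fermat.Agent.Zm.S56_L16_000
import Fermat.Agent.Zm.S56_L17_001
import Fermat.Agent.Zm.S56_L15_001
import Fermat.Agent.Zm.S56_L16_001
import Fermat.Agent.Zm.S56_L14_003
import Fermat.Agent.Zm.S56_L13_003
import Fermat.Agent.Zm.S56_L14_004
import Fermat.Agent.Zm.S56_L15_004

-- ==== BEGIN Fermat.Agent.S55.CFT.GS.H47_LocSDesc
section

set_option autoImplicit false
set_option linter.unusedSectionVars false
set_option linter.style.haveILetI false
set_option linter.unusedVariables false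

open CategoryTheory groupCohomology ExtCitation

noncomputable section

namespace Fermat.Agent.S55.CFT.GS.H47

open Fermat.Agent.S55 Fermat.Agent.S55.Top Fermat.Agent.S55.CFT Fermat.Agent.S55.CFT.GS.Bri
  Fermat.Agent.S55.CFT.GS.H68

local notation "Qb" => AlgebraicClosure ℚ

attribute [local instance] fact_primes

section aux

variable {q : ℕ} [Fact q.Prime]

/-- an automorphism fixing a generating set fixes the generated field -/
lemma h47_mem_fixingSubgroup_adjoin (T : Set (PadicAlgCl q))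
    (s : PadicAlgCl q ≃ₐ[ℚ_[q]] PadicAlgCl q) (hs : ∀ x ∈ T, s x = x) :
    s ∈ (IntermediateField.adjoin ℚ_[q] T).fixingSubgroup := by
  rw [IntermediateField.mem_fixingSubgroup_iff]
  intro x hx
  induction hx using IntermediateField.adjoin_induction with
  | mem y hy => exact hs y hy
  | algebraMap y => exact s.commutes y
  | add y z _ _ hy hz => rw [map_add, hy, hz]
  | inv y _ hy => rw [map_inv₀, hy]
  | mul y z _ _ hy hz => rw [map_mul, hy, hz]

/-- an automorphism mapping a generating set into the generated field preserves the field -/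
lemma h47_map_mem_adjoin (T : Set (PadicAlgCl q))
    (s : PadicAlgCl q ≃ₐ[ℚ_[q]] PadicAlgCl q)
    (hs : ∀ x ∈ T, s x ∈ IntermediateField.adjoin ℚ_[q] T) (x : PadicAlgCl q)
    (hx : x ∈ IntermediateField.adjoin ℚ_[q] T) : s x ∈ IntermediateField.adjoin ℚ_[q] T := by
  induction hx using IntermediateField.adjoin_induction with
  | mem y hy => exact hs y hy
  | algebraMap y =>
    rw [s.commutes]
    exact IntermediateField.algebraMap_mem _ y
  | add y z _ _ hy hz =>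
    rw [map_add]
    exact add_mem hy hz
  | inv y _ hy =>
    rw [map_inv₀]
    exact inv_mem hy
  | mul y z _ _ hy hz =>
    rw [map_mul]
    exact mul_mem hy hz

end aux

/-- **LOCS-DESC** from **LOCS-H90**. -/
theorem stmt_LocS_Desc_of (h90 : GS.Stmt_LocS_H90) : H68.Stmt_LocS_Desc := by
  intro S K N hKN _ _ _ 𝔓 q w f hloc
  obtain ⟨β, hβ0, hβlev, hβ⟩ := hloc
  have hfdK : FiniteDimensional ℚ ↥K := inferInstance
  have hfdN : FiniteDimensional ℚ ↥N := ‹NumberField ↥(H6.NK hKN)›.to_finiteDimensional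
  -- the fields
  let F₀ : IntermediateField ℚ_[(q.1 : ℕ)] (PadicAlgCl (q.1 : ℕ)) :=
    LOC.H45P.Floc (q.1 : ℕ) K (𝔓.σ q w)
  let E : IntermediateField ℚ_[(q.1 : ℕ)] (PadicAlgCl (q.1 : ℕ)) :=
    IntermediateField.adjoin ℚ_[(q.1 : ℕ)] (Set.range (jN hKN q.1 (𝔓.σ q w)))
  have hF₀fd : FiniteDimensional ℚ_[(q.1 : ℕ)] ↥F₀ :=
    LOC.H45P.finiteDimensional_Floc _ _ _
  have hEle : E ≤ LOC.H45P.Floc (q.1 : ℕ) N (𝔓.σ q w) := by
    refine IntermediateField.adjoin_le_iff.2 ?_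
    rintro _ ⟨y, rfl⟩
    exact LOC.H45P.mem_Floc (q.1 : ℕ) N (𝔓.σ q w) y.2
  have hEfd : FiniteDimensional ℚ_[(q.1 : ℕ)] ↥E := by
    have := LOC.H45P.finiteDimensional_Floc (q.1 : ℕ) N (𝔓.σ q w)
    exact Module.Finite.of_injective (IntermediateField.inclusion hEle).toLinearMap
      (IntermediateField.inclusion_injective hEle)
  have hFE : F₀ ≤ E := by
    refine IntermediateField.adjoin_le_iff.2 ?_
    rintro _ ⟨x, hx, rfl⟩
    exact IntermediateField.subset_adjoin _ _ ⟨⟨x, hKN hx⟩, rfl⟩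
  have hΓ : ∀ h : Gl q.1, h ∈ 𝔓.Γw q w ↔ glAut q.1 h ∈ F₀.fixingSubgroup := by
    intro h
    rw [LOC.H45P.mem_fixingSubgroup_Floc, LOC.H45P.mem_Γw_iff]
    exact Iff.rfl
  -- conversions
  let toΓ : ↥F₀.fixingSubgroup → 𝔓.Γw q w := fun h => ⟨h.1, (hΓ h.1).2 h.2⟩
  let ofΓ : 𝔓.Γw q w → ↥F₀.fixingSubgroup := fun h => ⟨glAut q.1 h.1, (hΓ h.1).1 h.2⟩
  have htoΓ_mul : ∀ a b, toΓ (a * b) = toΓ a * toΓ b := fun a b => Subtype.ext rfl
  have hofΓ_mul : ∀ a b, ofΓ (a * b) = ofΓ a * ofΓ b := fun a b => Subtype.ext rfl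
  have hto_of : ∀ h, toΓ (ofΓ h) = h := fun h => Subtype.ext rfl
  -- `res ρ_w s = 1` for the elements fixing `j N`
  have hres1 : ∀ s : 𝔓.Γw q w,
      (∀ y : ↥(H6.NK hKN), glAut q.1 (s : Gl q.1) (jN hKN q.1 (𝔓.σ q w) y) =
        jN hKN q.1 (𝔓.σ q w) y) → resG hKN (𝔓.ρw q w s) = 1 := by
    intro s hs
    apply AlgEquiv.ext
    intro y
    apply jN_injective hKN q.1 (𝔓.σ q w)
    rw [← glAut_jN hKN 𝔓 q w s y, hs y]
    rfl
  -- `E` is stable
  have hstab : ∀ h : PadicAlgCl (q.1 : ℕ) ≃ₐ[ℚ_[(q.1 : ℕ)]] PadicAlgCl (q.1 : ℕ),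
      h ∈ F₀.fixingSubgroup → ∀ x : PadicAlgCl (q.1 : ℕ), x ∈ E → h x ∈ E := by
    intro h hh x hx
    refine h47_map_mem_adjoin _ h ?_ x hx
    rintro _ ⟨y, rfl⟩
    have h2 : h (jN hKN q.1 (𝔓.σ q w) y) =
        jN hKN q.1 (𝔓.σ q w) (resG hKN (𝔓.ρw q w (toΓ ⟨h, hh⟩)) y) :=
      glAut_jN hKN 𝔓 q w (toΓ ⟨h, hh⟩) y
    rw [h2]
    exact IntermediateField.subset_adjoin _ _ ⟨_, rfl⟩
  -- the cochains
  let cw : ↥F₀.fixingSubgroup × ↥F₀.fixingSubgroup → PadicAlgCl (q.1 : ℕ) := fun t =>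
    jN hKN q.1 (𝔓.σ q w)
      ((f (resG hKN (𝔓.ρw q w (toΓ t.1)), resG hKN (𝔓.ρw q w (toΓ t.2))) :
        (↥(H6.NK hKN))ˣ) : ↥(H6.NK hKN))
  let β' : ↥F₀.fixingSubgroup → PadicAlgCl (q.1 : ℕ) := fun h => β (toΓ h)
  have hcwE : ∀ t, cw t ∈ E := fun t => IntermediateField.subset_adjoin _ _ ⟨_, rfl⟩
  have hcw0 : ∀ t, cw t ≠ 0 := by
    intro t
    exact ((f (resG hKN (𝔓.ρw q w (toΓ t.1)), resG hKN (𝔓.ρw q w (toΓ t.2)))).isUnit.map
      (jN hKN q.1 (𝔓.σ q w))).ne_zero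
  have hfix : ∀ s : ↥F₀.fixingSubgroup,
      (s : PadicAlgCl (q.1 : ℕ) ≃ₐ[ℚ_[(q.1 : ℕ)]] PadicAlgCl (q.1 : ℕ)) ∈ E.fixingSubgroup →
      resG hKN (𝔓.ρw q w (toΓ s)) = 1 := by
    intro s hs
    refine hres1 (toΓ s) fun y => ?_
    exact (IntermediateField.mem_fixingSubgroup_iff _ _).1 hs _
      (IntermediateField.subset_adjoin _ _ ⟨y, rfl⟩)
  have hcwinv : ∀ h₁ h₂ s₁ s₂ : ↥F₀.fixingSubgroup,
      (s₁ : PadicAlgCl (q.1 : ℕ) ≃ₐ[ℚ_[(q.1 : ℕ)]] PadicAlgCl (q.1 : ℕ)) ∈ E.fixingSubgroup →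
      (s₂ : PadicAlgCl (q.1 : ℕ) ≃ₐ[ℚ_[(q.1 : ℕ)]] PadicAlgCl (q.1 : ℕ)) ∈ E.fixingSubgroup →
      cw (h₁ * s₁, h₂ * s₂) = cw (h₁, h₂) := by
    intro h₁ h₂ s₁ s₂ hs₁ hs₂
    show jN hKN q.1 (𝔓.σ q w)
      ((f (resG hKN (𝔓.ρw q w (toΓ (h₁ * s₁))), resG hKN (𝔓.ρw q w (toΓ (h₂ * s₂)))) :
        (↥(H6.NK hKN))ˣ) : ↥(H6.NK hKN)) = jN hKN q.1 (𝔓.σ q w)
      ((f (resG hKN (𝔓.ρw q w (toΓ h₁)), resG hKN (𝔓.ρw q w (toΓ h₂))) :
        (↥(H6.NK hKN))ˣ) : ↥(H6.NK hKN))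
    rw [htoΓ_mul, htoΓ_mul, map_mul, map_mul, map_mul, map_mul, hfix s₁ hs₁, hfix s₂ hs₂,
      mul_one, mul_one]
  have hβ'0 : ∀ h, β' h ≠ 0 := fun h => hβ0 _
  have hβloc : LOC.IsLoc₁ F₀.fixingSubgroup β' := by
    obtain ⟨F, hF, hFc⟩ := hβlev
    obtain ⟨E', hE', hE'c⟩ := (LOC.H5.stmt_L5_Krasner (q.1 : ℕ)).2 F hF
    refine ⟨E', hE', fun g s hs => ?_⟩
    show β (toΓ (g * s)) = β (toΓ g)
    rw [htoΓ_mul]
    exact hFc (toΓ g) (toΓ s) (hE'c _ hs)
  have hcob : ∀ h₁ h₂ : ↥F₀.fixingSubgroup,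
      cw (h₁, h₂) * β' (h₁ * h₂) =
        (h₁ : PadicAlgCl (q.1 : ℕ) ≃ₐ[ℚ_[(q.1 : ℕ)]] PadicAlgCl (q.1 : ℕ)) (β' h₂) * β' h₁ := by
    intro h₁ h₂
    have := hβ (toΓ h₁) (toΓ h₂)
    rw [← htoΓ_mul] at this
    exact this
  obtain ⟨b, hb0, hbE, hbinv, hbcob⟩ :=
    h90 (q.1 : ℕ) F₀ E hF₀fd hEfd hFE hstab cw β' hcwE hcw0 hcwinv hβ'0 hβloc hcob
  refine ⟨fun h => b (ofΓ h), fun h => hb0 _, fun h => hbE _, ?_, ?_⟩
  · intro h s hs
    show b (ofΓ (h * s)) = b (ofΓ h)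
    rw [hofΓ_mul]
    refine hbinv _ _ ?_
    refine h47_mem_fixingSubgroup_adjoin _ _ ?_
    rintro _ ⟨y, rfl⟩
    exact hs y
  · intro h₁ h₂
    have := hbcob (ofΓ h₁) (ofΓ h₂)
    rw [← hofΓ_mul] at this
    exact this

end Fermat.Agent.S55.CFT.GS.H47

end

end
-- ==== END Fermat.Agent.S55.CFT.GS.H47_LocSDesc

-- ==== BEGIN Fermat.Agent.S55.CFT.GS.H58_LocSplitG
section

/-!
# GS Layer A (helper58), part 2: local splitting, general form

`locSplitG`: `K ⊆ L ⊆ N`, `N/K` finite Galois (any group), `L/K` a Galois `p`-extension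
(`ζ_p ∈ K`), `u` a place of `L` above `v` with `p ∣` the local degree of `L/K` at `v`.  Then every
class of `H²(Gal(N/K), (K_v ⊗_K N)ˣ)` killed by `p` dies under restriction to
`H²(Gal(N/L), (L_u ⊗_L N)ˣ)`.

Route: the `p`-torsion of the semi-local `H²` is cyclic (`brauerPTors_place`), it contains the
inflation of a class of order `p` of `L/K` (SHL + Cauchy + `stmt_InfJvInj`), and `res ∘ inf = 0`.
-/

set_option autoImplicit false
set_option linter.unusedSectionVars false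

noncomputable section

namespace Fermat.Agent.S55.CFT.GS.H58

open CategoryTheory groupCohomology Rep NumberField TensorProduct
open Fermat.Agent.S55.CFT Fermat.Agent.S55.CFT.H58

/-- A map on `H²` induced by a trivial group homomorphism is zero. -/
theorem map_trivial_eq_zero {S Q : Type} [Group S] [Group Q] (A : Rep.{0} ℤ Q) (B : Rep.{0} ℤ S)
    (f : S →* Q) (hf : ∀ s, f s = 1) (φ : Rep.res f A ⟶ B) (x : groupCohomology A 2) :
    (groupCohomology.map f φ 2).hom x = 0 := by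
  induction x using H2_induction_on with | @h c =>
  have e1 : (groupCohomology.map f φ 2).hom (H2π A c) = H2π B (mapCocycles₂ f φ c) :=
    H2π_comp_map_apply f φ c
  rw [e1, H2π_eq_zero_iff]
  have hinv : ∀ s : S, B.ρ s (φ.hom (c (1, 1))) = φ.hom (c (1, 1)) := by
    intro s
    have h1 := Rep.hom_comm_apply φ s (c (1, 1))
    rw [← h1]
    show φ.hom (A.ρ (f s) (c (1, 1))) = _
    rw [hf s, map_one]
    rfl
  refine ⟨fun _ => φ.hom (c (1, 1)), ?_⟩
  funext ⟨s, t⟩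
  show B.ρ s (φ.hom (c (1, 1))) - φ.hom (c (1, 1)) + φ.hom (c (1, 1)) = φ.hom (c (f s, f t))
  rw [hinv s, hf s, hf t]
  abel

section Tower

variable (K L N : Type) [Field K] [Field L] [Field N] [NumberField K] [NumberField L]
  [NumberField N] [Algebra K L] [Algebra K N] [Algebra L N] [IsScalarTower K L N] [Normal K L]

/-- `res ∘ inf = 0` on the semi-local `H²`. -/
theorem resJv_infJv (u : Place L)
    (η : groupCohomology (repJv K L (H72.placeBelow K L u)) 2) :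
    H72.resJv K L N u 2 (infJv K L N (H72.placeBelow K L u) 2 η) = 0 := by
  have h1 := groupCohomology.map_comp (A := repJv K L (H72.placeBelow K L u))
    (B := repJv K N (H72.placeBelow K L u)) (C := repJv L N u)
    (AlgEquiv.restrictNormalHom (F := K) (K₁ := N) L) (galRes K L N)
    (infRepJv K L N (H72.placeBelow K L u)) (H72.locQuotRep K L N u) 2
  have h2 := congrArg (fun f => f.hom η) h1
  simp only [ModuleCat.hom_comp, LinearMap.coe_comp, Function.comp_apply] at h2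
  have h3 := map_trivial_eq_zero (repJv K L (H72.placeBelow K L u)) (repJv L N u)
    ((AlgEquiv.restrictNormalHom (F := K) (K₁ := N) L).comp (galRes K L N))
    (fun s => restrictNormalHom_restrictScalars' K L N s)
    ((Rep.resFunctor (galRes K L N)).map (infRepJv K L N (H72.placeBelow K L u)) ≫
      H72.locQuotRep K L N u) η
  rw [h3] at h2
  exact h2.symm

end Tower

lemma eq_zero_of_zsmul_of_not_dvd {X : Type} [AddCommGroup X] (p : ℕ)
    (hp : p.Prime) (b : ℤ) (hb : ¬ (p : ℤ) ∣ b) (x : X) (h1 : (p : ℤ) • x = 0)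
    (h2 : b • x = 0) : x = 0 := by
  have hcop : IsCoprime b (p : ℤ) := by
    rw [Int.isCoprime_iff_gcd_eq_one]
    have h3 := (Nat.Prime.coprime_iff_not_dvd hp).2 (fun h => hb (Int.natCast_dvd.2 h))
    rw [Int.gcd_comm]
    exact h3
  obtain ⟨s, t, hst⟩ := hcop
  have : x = (s * b + t * (p : ℤ)) • x := by rw [hst, one_smul]
  rw [this, add_smul, mul_smul, mul_smul, h1, h2, smul_zero, smul_zero, add_zero]

/-- Two elements killed by `p` and linearly dependent mod `p`, the second nonzero: the first is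
a multiple of the second. -/
lemma exists_zsmul_eq_of_rel {X : Type} [AddCommGroup X] (p : ℕ) (hp : p.Prime)
    (ξ ξ₀ : X) (hξ : (p : ℤ) • ξ = 0) (hξ₀ : (p : ℤ) • ξ₀ = 0) (hne : ξ₀ ≠ 0) (a b : ℤ)
    (hab : ¬ (p : ℤ) ∣ a ∨ ¬ (p : ℤ) ∣ b) (hrel : a • ξ + b • ξ₀ = 0) :
    ∃ c : ℤ, ξ = c • ξ₀ := by
  have ha : ¬ (p : ℤ) ∣ a := by
    intro hpa
    have hb : ¬ (p : ℤ) ∣ b := by
      rcases hab with h1 | h1
      · exact absurd hpa h1
      · exact h1
    obtain ⟨a', rfl⟩ := hpa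
    rw [mul_smul, smul_comm, hξ, smul_zero, zero_add] at hrel
    exact hne (eq_zero_of_zsmul_of_not_dvd p hp b hb ξ₀ hξ₀ hrel)
  have hcop : IsCoprime a (p : ℤ) := by
    rw [Int.isCoprime_iff_gcd_eq_one]
    have h3 := (Nat.Prime.coprime_iff_not_dvd hp).2 (fun h => ha (Int.natCast_dvd.2 h))
    rw [Int.gcd_comm]
    exact h3
  obtain ⟨s, t, hst⟩ := hcop
  refine ⟨-(s * b), ?_⟩
  have h1 : ξ = (s * a + t * (p : ℤ)) • ξ := by rw [hst, one_smul]
  have h2 : a • ξ = -(b • ξ₀) := eq_neg_of_add_eq_zero_left hrel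
  rw [h1, add_smul, mul_smul, mul_smul, hξ, smul_zero, add_zero, h2, neg_smul, mul_smul,
    smul_neg]

/-- **LOC-SPLIT, general form.** -/
theorem locSplitG (p m : ℕ) (K L N : Type) [Field K] [Field L] [Field N] [NumberField K]
    [NumberField L] [NumberField N] [Algebra K L] [Algebra K N] [Algebra L N]
    [IsScalarTower K L N] (h : Hyp3 K L p m) (hN : IsGalois K N) (u : Place L)
    (hdeg : p * Nat.card (MaximalSpectrum (LocAlg K L (H72.placeBelow K L u))) ∣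
      Module.finrank K L)
    (ξ : groupCohomology (repJv K N (H72.placeBelow K L u)) 2) (hξ : (p : ℤ) • ξ = 0) :
    H72.resJv K L N u 2 ξ = 0 := by
  classical
  have hgal : IsGalois K L := h.gal
  have hnorm : Normal K L := h.gal.to_normal
  have hp : p.Prime := h.prime
  have hpf : Fact p.Prime := ⟨hp⟩
  obtain ⟨-, hfin, hcard, -, -⟩ := H58.stmt_SHL p m K L h (H72.placeBelow K L u)
  -- `p ∣ #H²`
  have hpos : 0 < Nat.card (MaximalSpectrum (LocAlg K L (H72.placeBelow K L u))) := by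
    have : Nonempty (MaximalSpectrum (LocAlg K L (H72.placeBelow K L u))) := by
      obtain ⟨M, hM⟩ := Ideal.exists_maximal (LocAlg K L (H72.placeBelow K L u))
      exact ⟨⟨M, hM⟩⟩
    exact Nat.card_pos
  have hdvd : p ∣ Nat.card (groupCohomology (repJv K L (H72.placeBelow K L u)) 2) := by
    rw [← hcard] at hdeg
    exact Nat.dvd_of_mul_dvd_mul_right hpos hdeg
  -- a class of order `p`
  obtain ⟨η, hη⟩ := exists_prime_addOrderOf_dvd_card' (G := groupCohomology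
    (repJv K L (H72.placeBelow K L u)) 2) p hdvd
  have hη0 : η ≠ 0 := by
    intro h0
    rw [h0, addOrderOf_zero] at hη
    exact hp.one_lt.ne hη
  have hpη : (p : ℤ) • η = 0 := by
    rw [natCast_zsmul, ← hη]
    exact addOrderOf_nsmul_eq_zero η
  set ξ₀ := infJv K L N (H72.placeBelow K L u) 2 η with hξ₀def
  have hξ₀ : (p : ℤ) • ξ₀ = 0 := by
    rw [hξ₀def, ← map_zsmul, hpη, map_zero]
  have hξ₀ne : ξ₀ ≠ 0 := by
    intro h0
    apply hη0
    apply H58.stmt_InfJvInj K L N hgal hN (H72.placeBelow K L u)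
    rw [map_zero]
    exact h0
  obtain ⟨a, b, hab, hrel⟩ := brauerPTors_place K N (H72.placeBelow K L u) p hp ξ ξ₀ hξ hξ₀
  obtain ⟨c, hc⟩ := exists_zsmul_eq_of_rel p hp ξ ξ₀ hξ hξ₀ hξ₀ne a b hab hrel
  have hξeq : ξ = infJv K L N (H72.placeBelow K L u) 2 (c • η) := by
    rw [map_zsmul]
    exact hc
  rw [hξeq]
  exact resJv_infJv K L N u _

end Fermat.Agent.S55.CFT.GS.H58

end
end
-- ==== END Fermat.Agent.S55.CFT.GS.H58_LocSplitG

-- ==== BEGIN Fermat.Agent.S55.CFT.H13_BRFinal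
section

set_option autoImplicit false

namespace Fermat.Agent.S55.CFT.H13

open Fermat.Agent.S55.CFT

/-- **CF-ind**, unconditional. -/
theorem stmt_CFind : Stmt_CFind :=
  stmt_CFind_of_leaves H80.stmt_JCyclic H12.stmt_SIindex

/-- **CYC**, unconditional. -/
theorem stmt_CycRec : Stmt_CycRec :=
  H56.stmt_CycRec H25.stmt_ThetaNorm H12.stmt_SIindex

/-- **FUND**, unconditional. -/
theorem stmt_FundExists : Stmt_FundExists :=
  stmt_FundExists_of stmt_CFind stmt_CycRec H25.stmt_ThetaNorm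

/-- **CF-G'**, unconditional. -/
theorem stmt_CFp' : Stmt_CFp' :=
  stmt_CFp'_of stmt_CFind stmt_FundExists

/-- **H3-UNITS**, unconditional. -/
theorem stmt_H3Units : Stmt_H3Units :=
  stmt_H3Units_of' stmt_CFind stmt_CycRec

/-- **BR-H3**, unconditional. -/
theorem stmt_BrH3 : Stmt_BrH3 :=
  H61.stmt_BrH3_of' stmt_H3Units H19.stmt_ValH3

end Fermat.Agent.S55.CFT.H13

end
-- ==== END Fermat.Agent.S55.CFT.H13_BRFinal

-- ==== BEGIN Fermat.Agent.S55.CFT.LOC.H25_THLP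
section

set_option autoImplicit false
set_option linter.unusedSectionVars false
set_option linter.style.haveILetI false

namespace Fermat.Agent.S55.CFT.LOC.H25

open Fermat.Agent.S55.CFT.LOC Fermat.Agent.S55.CFT

/-- The symbols `thetaLoc p M p` are compatible with the reductions
`(ℤ/p^M)ˣ → (ℤ/p^c)ˣ`. -/
theorem thetaLoc_unitsMap (p : Nat.Primes) {c M : ℕ} (h : c ≤ M) (x : (Qp p)ˣ) :
    ZMod.unitsMap (pow_dvd_pow (p : ℕ) h) (thetaLoc p M p x) = thetaLoc p c p x := by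
  haveI := fact_primes p
  rw [H56.thetaLoc_self, H56.thetaLoc_self, map_inv]
  congr 1
  apply Units.ext
  rw [ZMod.unitsMap_def]
  simp only [Units.coe_map, RingHom.toMonoidHom_eq_coe, MonoidHom.coe_coe]
  exact RingHom.congr_fun (PadicInt.zmod_cast_comp_toZModPow c M h) _

section main

variable (p : Nat.Primes) (F E : Type) [Field F] [Field E]
  [Algebra (Qp p) F] [FiniteDimensional (Qp p) F] [Algebra F E] [FiniteDimensional F E]

omit [FiniteDimensional (Qp p) F] [Algebra (Qp p) F] [FiniteDimensional F E] in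
/-- an automorphism of `E/F` fixes the roots of unity whose order is realized in `F` -/
theorem aut_fix_of_primitive {m : ℕ} (hm : 0 < m) {z : F} (hz : IsPrimitiveRoot z m) {w : E}
    (hw : w ^ m = 1) (σ : E ≃ₐ[F] E) : σ w = w := by
  haveI : NeZero m := ⟨hm.ne'⟩
  have hz' : IsPrimitiveRoot (algebraMap F E z) m :=
    hz.map_of_injective (algebraMap F E).injective
  obtain ⟨i, -, rfl⟩ := hz'.eq_pow_of_pow_eq_one hw
  rw [map_pow, σ.commutes]

/-- The core of THL-P for `M = n + c`, `c ≥ 1`, `n ≥ 1`, `ζ_{p^c} ∈ F`, `ζ_{p^(c+1)} ∉ F`. -/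
theorem thlP_core (hp2 : (p : ℕ) ≠ 2) {c : ℕ} (hc : 1 ≤ c) (n : ℕ) (hn : 1 ≤ n)
    (hPc : ∃ z : F, IsPrimitiveRoot z ((p : ℕ) ^ c))
    (hno : ¬ ∃ z : F, IsPrimitiveRoot z ((p : ℕ) ^ (c + 1)))
    (ζ : E) (hζ : IsPrimitiveRoot ζ ((p : ℕ) ^ (n + c))) :
    ∃ β : Fˣ, ∀ σ : E ≃ₐ[F] E, ∃ j : ℕ,
      σ ζ = ζ ^ (((thetaAlg p (n + c) p F β) ^ j : (ZMod ((p : ℕ) ^ (n + c)))ˣ) :
        ZMod ((p : ℕ) ^ (n + c))).val := by
  classical
  haveI := fact_primes p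
  have hp := p.2
  haveI : NeZero ((p : ℕ) ^ (n + c)) := ⟨pow_ne_zero _ hp.ne_zero⟩
  haveI : NeZero ((p : ℕ) ^ c) := ⟨pow_ne_zero _ hp.ne_zero⟩
  obtain ⟨b, hb⟩ := _root_.Fermat.Agent.S55.CFT.LOC.H25.stmt_LocalThetaOnto p c F hp2 hc hPc hno
  refine ⟨b, fun σ => ?_⟩
  set t := thetaAlg p (n + c) p F b with ht
  have h1 : ZMod.unitsMap (pow_dvd_pow (p : ℕ) (Nat.le_add_left c n)) t = 1 := by
    rw [ht, thetaAlg, thetaLoc_unitsMap p (Nat.le_add_left c n)]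
    exact Fermat.Agent.S55.CFT.H25.thetaLoc_norm_local p c F hp2 hPc b
  have h2 : ZMod.unitsMap (pow_dvd_pow (p : ℕ) (by omega : c + 1 ≤ n + c)) t ≠ 1 := by
    rw [ht, thetaAlg, thetaLoc_unitsMap p (by omega : c + 1 ≤ n + c)]
    exact hb
  -- the exponent of `σ`
  set a := hζ.autToPow F σ with ha
  have hspec : ζ ^ (a : ZMod ((p : ℕ) ^ (n + c))).val = σ ζ := hζ.autToPow_spec F σ
  have hs : ZMod.unitsMap (pow_dvd_pow (p : ℕ) (Nat.le_add_left c n)) a = 1 := by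
    have hpos : 0 < (p : ℕ) ^ (n + c) := pow_pos hp.pos _
    have hζc : IsPrimitiveRoot (ζ ^ ((p : ℕ) ^ n)) ((p : ℕ) ^ c) :=
      hζ.pow hpos (pow_add _ _ _)
    have hfix : σ (ζ ^ ((p : ℕ) ^ n)) = ζ ^ ((p : ℕ) ^ n) := by
      obtain ⟨z, hz⟩ := hPc
      exact aut_fix_of_primitive F E (pow_pos hp.pos _) hz hζc.pow_eq_one σ
    have h3 : (ζ ^ ((p : ℕ) ^ n)) ^ (a : ZMod ((p : ℕ) ^ (n + c))).val =
        (ζ ^ ((p : ℕ) ^ n)) ^ 1 := by
      rw [pow_one, ← pow_mul, mul_comm, pow_mul, hspec, ← map_pow, hfix]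
    have hfin : IsOfFinOrder (ζ ^ ((p : ℕ) ^ n)) :=
      isOfFinOrder_iff_pow_eq_one.mpr ⟨_, pow_pos hp.pos c, hζc.pow_eq_one⟩
    rw [hfin.pow_eq_pow_iff_modEq, ← hζc.eq_orderOf] at h3
    apply Units.ext
    rw [ZMod.unitsMap_def, Units.coe_map, MonoidHom.coe_coe, ZMod.castHom_apply,
      Units.val_one, ← ZMod.natCast_val]
    have h4 := (ZMod.natCast_eq_natCast_iff _ _ _).mpr h3
    rw [h4, Nat.cast_one]
  have hmem := mem_zpowers_of_unitsMap hp hp2 hc n hn t h1 h2 a hs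
  obtain ⟨j, hj⟩ := mem_powers_iff_mem_zpowers.mpr hmem
  refine ⟨j, ?_⟩
  have hj' : t ^ j = a := hj
  rw [hj']
  exact hspec.symm

/-- **THL-P.** -/
theorem stmt_THL_GenP : Stmt_THL_GenP := by
  intro p M F E _ _ _ _ _ _ hp2 hη ζ hζ
  classical
  haveI := fact_primes p
  have hp := p.2
  rcases Nat.eq_zero_or_pos M with hM0 | hMpos
  · subst hM0
    refine ⟨1, fun σ => ⟨0, ?_⟩⟩
    have h1 : ζ = 1 := by
      rw [pow_zero] at hζ
      exact IsPrimitiveRoot.one_right_iff.mp hζ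
    rw [h1, map_one, one_pow]
  -- the maximal `c`
  obtain ⟨c, hcM, hc1, hPc, hmax⟩ : ∃ c, c ≤ M ∧ 1 ≤ c ∧
      (∃ z : F, IsPrimitiveRoot z ((p : ℕ) ^ c)) ∧
      ∀ k, c < k → k ≤ M → ¬ ∃ z : F, IsPrimitiveRoot z ((p : ℕ) ^ k) := by
    have hP1 : ∃ z : F, IsPrimitiveRoot z ((p : ℕ) ^ 1) := by
      rw [pow_one]
      exact hη
    refine ⟨Nat.findGreatest (fun c => ∃ z : F, IsPrimitiveRoot z ((p : ℕ) ^ c)) M,
      Nat.findGreatest_le M, Nat.le_findGreatest hMpos hP1,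
      Nat.findGreatest_spec (P := fun c => ∃ z : F, IsPrimitiveRoot z ((p : ℕ) ^ c)) hMpos hP1,
      fun k hk hkM => Nat.findGreatest_is_greatest hk hkM⟩
  rcases Nat.eq_or_lt_of_le hcM with hcM' | hcM'
  · -- `ζ_{p^M} ∈ F`
    subst hcM'
    haveI : Fact (1 < (p : ℕ) ^ c) := ⟨Nat.one_lt_pow (by omega) hp.one_lt⟩
    refine ⟨1, fun σ => ⟨0, ?_⟩⟩
    obtain ⟨z, hz⟩ := hPc
    rw [pow_zero, Units.val_one, ZMod.val_one, pow_one]
    exact aut_fix_of_primitive F E (pow_pos hp.pos _) hz hζ.pow_eq_one σ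
  · obtain ⟨n, rfl⟩ : ∃ n, M = n + c := ⟨M - c, by omega⟩
    exact thlP_core p F E hp2 hc1 n (by omega) hPc (hmax (c + 1) (by omega) (by omega)) ζ hζ

end main

end Fermat.Agent.S55.CFT.LOC.H25

namespace Fermat.Agent.S55.CFT.H25

/-- **THL-P**, in the namespace of the CFT island. -/
theorem stmt_THL_GenP : Stmt_THL_GenP := Fermat.Agent.S55.CFT.LOC.H25.stmt_THL_GenP

end Fermat.Agent.S55.CFT.H25

end
-- ==== END Fermat.Agent.S55.CFT.LOC.H25_THLP

-- ==== BEGIN Fermat.Agent.S55.H48_AssemblyGS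
section

set_option autoImplicit false

open CategoryTheory Module groupCohomology ExtCitation

namespace Fermat.Agent.S55.H48

open Fermat.Agent.S55

/-- `H³_c(ℚ, μ_p) ≠ 0` from `I4`. -/
theorem stmt_TopQ0_of_I4 (h4 : Top.Stmt_I4) : Top.Stmt_TopQ0 :=
  Top.H48.stmt_TopQ0_of h4 CFT.LOC.H68.stmt_TQ_Loc

/-- `Stmt_TopK` from `I2`, `I3`, `I4`. -/
theorem stmt_TopK_of_GS (h2 : Top.Stmt_I2) (h3 : Top.Stmt_I3) (h4 : Top.Stmt_I4) :
    Top.Stmt_TopK :=
  H49.stmt_TopK_of_I CFT.LOC.H5.stmt_I1 h2 h3 h4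

/-- The frozen statement S55 from `Top.Stmt_I2`, `Top.Stmt_I3`, `Top.Stmt_I4`. -/
theorem result_of_GS (h2 : Top.Stmt_I2) (h3 : Top.Stmt_I3) (h4 : Top.Stmt_I4)
    {p : ℕ} [Fact p.Prime] (hp2 : p ≠ 2) (S : Finset Nat.Primes) (hpS : pPrime p ∈ S)
    (M : Rep.{0} (ZMod p) (AlgebraicClosure ℚ ≃ₐ[ℚ] AlgebraicClosure ℚ))
    [FiniteDimensional (ZMod p) M]
    (hsm : ∀ m : M, ∃ F : IntermediateField ℚ (AlgebraicClosure ℚ), FiniteDimensional ℚ F ∧
      ∀ s ∈ F.fixingSubgroup, M.ρ s m = m)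
    (hMur : ∀ q : Nat.Primes, q ∉ S → ∀ A : ValuationSubring (AlgebraicClosure ℚ),
      A.LiesOverPrime (q : ℕ) → ∀ g ∈ A.inertiaSubgroupIn ℚ, M.ρ g = 1) :
    ∃ B : sha₁ S (M.dualTwist (cycloChar p)) →ₗ[ZMod p] sha₂ S M →ₗ[ZMod p] ZMod p,
      (∀ y, (∀ x, B y x = 0) → y = 0) ∧ (∀ x, (∀ y, B y x = 0) → x = 0) :=
  H49.result_of_I (stmt_TopQ0_of_I4 h4) CFT.LOC.H5.stmt_I1 h2 h3 h4 hp2 S hpS M hsm hMur

end Fermat.Agent.S55.H48

end
-- ==== END Fermat.Agent.S55.H48_AssemblyGS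

-- ==== BEGIN Fermat.Agent.S56.EC.H27_TrFinal
section

set_option autoImplicit false
set_option linter.unusedSectionVars false
set_option linter.style.haveILetI false

/-!
# EC / UBR / TR (helper27): `stmt_TR : Stmt_TR`, and `stmt_UBR_of_RED : Stmt_RED → Stmt_UBR`

The equivariant Dirichlet unit theorem in trace form: for every `b ∈ Gal(L/ℚ)`,
`tr(b | O_{L,S}ˣ / torsion) + 1 = #{primes over S fixed by b} + #{infinite places fixed by b}`.
Leaves: `H15.stmt_PLC`, `H15.stmt_LOGSPAN`, `H15.card_fixF`, `H15.card_fixI` (helper15).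
-/

noncomputable section

namespace Fermat.Agent.S56.EC.H27

open NumberField IsDedekindDomain Module Fermat.Agent.S55.CFT Fermat.Agent.S55.CFT.H12

/-- **Package UBR-TR.** -/
theorem stmt_TR : Stmt_TR := by
  classical
  intro S L _ _ b
  haveI : NumberField ↥L := numberFieldL L
  have h := trace_latActK ↥L S H15.stmt_PLC' b
  rw [H15.card_fixF S L b H15.stmt_PLC', H15.card_fixI L b]
  exact h

/-- `Stmt_UBR` from `Stmt_RED`. -/
theorem stmt_UBR_of_RED (hR : Stmt_RED) : Stmt_UBR :=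
  stmt_UBR_of hR stmt_TR H31.stmt_BRIDGE

end Fermat.Agent.S56.EC.H27

end

end
-- ==== END Fermat.Agent.S56.EC.H27_TrFinal

-- ==== BEGIN Fermat.Agent.S56.EC.KDT.H74_KDO
section

set_option autoImplicit false
set_option linter.unusedSectionVars false
set_option linter.style.haveILetI false

/-!
# EC / KDALG: assembly of the KDO part (helper74)

`stmt_KDO_of : Stmt_PSIADD → Stmt_fin_glob → Stmt_SHAPlb → Stmt_KUM → Stmt_UBR → Stmt_LOC0 →
  Stmt_KDO` and `stmt_KDALG_of : Stmt_PSIADD → Stmt_fin_glob → Stmt_KDALG`.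

With `Ψ(A) = dim Hom_G(A*(ω), V)`:
`gwDefect(N) = h¹_S(N) - Ψ(U)` (BNREL, PSIPERM, PSICHAR, HIGMAN, LOC0) and `Ψ(U) ≤ h¹_S(N)`
(LINK, SHAPlb).
-/

noncomputable section

namespace Fermat.Agent.S56.EC.KDT

open CategoryTheory groupCohomology ExtCitation Module

section bridge

variable {p : ℕ} [Fact p.Prime] {S : Finset Nat.Primes}
  {L : IntermediateField ℚ (AlgebraicClosure ℚ)} [Normal ℚ L]

theorem omegaHom_eq (hL : IsGalLevel p S L) : H47.omegaHom hL = omegaHom hL :=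
  MonoidHom.ext fun _ => rfl

theorem twFix_eq_eigSub (hL : IsGalLevel p S L) {V : Type} [AddCommGroup V]
    [Module (ZMod p) V] (ρ : Representation (ZMod p) (GalL L) V) (D : Set (GalL L)) :
    twFix (omegaHom hL) ρ D = H47.eigSub ρ (H47.omegaHom hL) D := by
  rw [omegaHom_eq]
  rfl

theorem fixedSub_univ_eq_invariants {V : Type} [AddCommGroup V] [Module (ZMod p) V]
    (ρ : Representation (ZMod p) (GalL L) V) :
    fixedSub p (Set.univ : Set (GalL L)) (fun b => ρ b) = ρ.invariants := by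
  ext v
  constructor
  · intro h g
    exact h g (Set.mem_univ g)
  · intro h g _
    exact h g

end bridge

/-- **KDO** from its leaves. -/
theorem stmt_KDO_of (hadd : Stmt_PSIADD) (hfg : Stmt_fin_glob) (hlb : Stmt_SHAPlb)
    (hkum : Stmt_KUM) (hubr : Stmt_UBR) (hloc : Stmt_LOC0) : Stmt_KDO := by
  intro p _ hp2 S hpS L _ _ hgood V _ _ _ ρ B W _ hpB hind
  have hL : IsGalLevel p S L := hgood.1
  haveI : Finite (GalL L) := inferInstance
  obtain ⟨κ, hκinj, hκlev, hκeq, -⟩ := hkum p S hpS L hL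
  obtain ⟨hfin, -⟩ := hubr p hp2 S hpS L hL
  -- relative projectivity
  have hB0 : ((Nat.card B : ℕ) : ZMod p) ≠ 0 := fun h0 =>
    hpB ((ZMod.natCast_eq_zero_iff _ _).1 h0)
  obtain ⟨s₀, hs₀⟩ := H47.exists_relProj ρ B W hind hB0
  have hrel : IsRelProj ρ s₀ := fun {_} v => hs₀ v
  have hF : IND.IsAdditiveFn (ZMod p) (GalL L) (psi (omegaHom hL) ρ) :=
    hadd (ZMod p) (GalL L) (omegaHom hL) V ρ s₀ hrel
  have hR := stmt_BNREL hubr p hp2 S hpS L hL (psi (omegaHom hL) ρ) hF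
  -- the `h⁰`-terms
  obtain ⟨hq, hinf, hglob, hN⟩ := hloc p S hpS L hL V ρ
  have key : ∀ D : Subgroup (GalL L),
      psi (omegaHom hL) ρ (Rep.of (IND.permRep (ZMod p) (GalL L) (GalL L ⧸ D))) =
        (finrank (ZMod p) ↥(fixedSub p (D : Set (GalL L)) (dualTwistOp p L ρ)) : ℤ) := by
    intro D
    rw [stmt_PSIPERM (ZMod p) (GalL L) (omegaHom hL) V ρ D, twFix_eq_eigSub hL ρ,
      H47.higman_induced hL ρ B W hpB hind D]
  have h1 : ∀ q : Nat.Primes,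
      (finrank (ZMod p) (locRep (tateDual p (infl L ρ)) q).ρ.invariants : ℤ) =
        psi (omegaHom hL) ρ (Rep.of (IND.permRep (ZMod p) (GalL L) (GalL L ⧸ decL L q))) := by
    intro q
    rw [key, hq q]
  have h2 : (finrank (ZMod p) (Rep.res archimedeanLoc (tateDual p (infl L ρ))).ρ.invariants : ℤ) =
      psi (omegaHom hL) ρ (Rep.of (IND.permRep (ZMod p) (GalL L) (GalL L ⧸ decInf L))) := by
    rw [key, hinf]
  have h3 : (finrank (ZMod p) (tateDual p (infl L ρ)).ρ.invariants : ℤ) =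
      psi (omegaHom hL) ρ
        (Rep.of (IND.permRep (ZMod p) (GalL L) (GalL L ⧸ (⊤ : Subgroup (GalL L))))) := by
    rw [key, hglob, Subgroup.coe_top]
  have h4 : (finrank (ZMod p) (infl L ρ).ρ.invariants : ℤ) =
      psi (omegaHom hL) ρ (Rep.of (charRep (omegaHom hL))) := by
    rw [stmt_PSICHAR (ZMod p) (GalL L) (omegaHom hL) V ρ, hN, fixedSub_univ_eq_invariants]
  -- `Ψ(U) ≤ h¹_S(N)`
  obtain ⟨f1, hf1⟩ := H15.stmt_LINK p S hpS L hL hfin κ hκinj hκlev hκeq V ρ B W hpB hind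
  obtain ⟨f2, hf2⟩ := hlb p hp2 S hpS L hL V ρ B W hpB hind
  haveI : Module.Finite (ZMod p) ↥(continuousH1S S (infl L ρ)) :=
    hfg (ZMod p) (infl L ρ) (smooth_of_lev (lev_infl L hL ρ)) S
  have h5 : finrank (ZMod p) ↥(invSub (omegaHom hL) ρ (unitRep p S L)) ≤
      finrank (ZMod p) ↥(continuousH1S S (infl L ρ)) :=
    LinearMap.finrank_le_finrank_of_injective (f := f2 ∘ₗ f1) (hf2.comp hf1)
  have h6 : psi (omegaHom hL) ρ (Rep.of (unitRep p S L)) ≤
      (finrank (ZMod p) ↥(continuousH1S S (infl L ρ)) : ℤ) := by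
    unfold psi
    exact_mod_cast h5
  -- assembly
  unfold gwDefect
  have h7 : (∑ q ∈ S, (finrank (ZMod p) (locRep (tateDual p (infl L ρ)) q).ρ.invariants : ℤ)) =
      ∑ q ∈ S, psi (omegaHom hL) ρ
        (Rep.of (IND.permRep (ZMod p) (GalL L) (GalL L ⧸ decL L q))) :=
    Finset.sum_congr rfl fun q _ => h1 q
  rw [h7, h2, h3, h4]
  linarith

/-- **KDALG** from PSIADD and `Stmt_fin_glob`. -/
theorem stmt_KDALG_of (hadd : Stmt_PSIADD) (hfg : Stmt_fin_glob) : Stmt_KDALG :=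
  fun hlb hub hkum hubr hloc =>
    ⟨stmt_KDT_of hub hkum hubr hloc, stmt_KDO_of hadd hfg hlb hkum hubr hloc⟩

end Fermat.Agent.S56.EC.KDT

end

end
-- ==== END Fermat.Agent.S56.EC.KDT.H74_KDO

-- ==== BEGIN Fermat.Agent.S56.FL.H50_Final1
section

set_option autoImplicit false

/-!
# LOC-p-FL (item 69): assembly, second stage

* `stmt_COH_RED : Stmt_COH_RED`, unconditional (helper57's `stmt_COH_RED_of_CC`, helper85's `CC1`,
  helper59's `CC3z`);
* `stmt_loc_p_Fl_of_core : H15.Stmt_CC2core → Stmt_loc_p_Fl` — the only statement of LOC-p-FL that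
  is still open is `H15.Stmt_CC2core`.
-/

namespace Fermat.Agent.S56.FL.H50

open Fermat.Agent.S56 Fermat.Agent.S56.FL

/-- **COH-RED**, unconditional. -/
theorem stmt_COH_RED : Stmt_COH_RED :=
  H57.stmt_COH_RED_of_CC H85.stmt_CC1 (H15.stmt_CC3_of_z H59.stmt_CC3z)

/-- **LOC-p-FL** from the core of `CC2`. -/
theorem stmt_loc_p_Fl_of_core (h : H15.Stmt_CC2core) : Stmt_loc_p_Fl :=
  stmt_loc_p_Fl_of_open (H59.stmt_CC2z_of_core h) stmt_COH_RED

end Fermat.Agent.S56.FL.H50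

end
-- ==== END Fermat.Agent.S56.FL.H50_Final1

-- ==== BEGIN Fermat.Agent.S56.GWC.H64_FinalTop
section

set_option autoImplicit false

open CategoryTheory groupCohomology ExtCitation Module

namespace Fermat.Agent.S56.GWC.H64

open Fermat.Agent.S55 Fermat.Agent.S56 Fermat.Agent.S56.GWC

/-! ### PT2 -/

/-- **PT2** from the top-level inputs of E4. -/
theorem stmt_PT2_of_top (hQ : Top.Stmt_TopQ0) (hT : Top.Stmt_TopK)
    (hC : Top.H48.Stmt_TopK_cone) (h2 : Top.Stmt_I2) : Stmt_PT2 :=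
  stmt_PT2_of_base (stmt_B1M_base_of hQ hT hC) (stmt_H3S_base_of h2) H9.stmt_RS

/-- **PT2** from the leaves of E4. -/
theorem stmt_PT2_of_inputs (hQ : Top.Stmt_TopQ0) (h1 : Top.Stmt_I1) (h2 : Top.Stmt_I2)
    (h3 : Top.Stmt_I3) (h4 : Top.Stmt_I4) (hG : Top.Stmt_G1K) : Stmt_PT2 :=
  stmt_PT2_of_top hQ (Top.H48.stmt_TopK_of h1 h2 h3 h4 hG)
    (Top.H48.stmt_TopK_cone_of h1 h2 h3 h4 hG) h2

/-! ### INV -/

/-- **INV-A** from the index form of E4. -/
theorem stmt_INV_A_of_E4P (hE4 : Top.Stmt_E4P) : Stmt_INV_A := by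
  intro p _ hp2 S hpS
  obtain ⟨K, hK, hidx, hret⟩ := H46.stmt_CHI p hp2 S hpS
  obtain ⟨tr, hA2, hA3, hB1, hB2⟩ := hE4 p hp2 S hpS K hK hidx
  obtain ⟨_, hA3', hB1', _⟩ := S55.H48.stmt_E2 (ZMod p) S (cycloChar p) tr _ _ hret
  exact ⟨tr, hA3' hA3, fun q => H47.locTwoMono_of tr (hA3' hA3) (hB1' hB1) q⟩

/-- **INV-B** from the index form of E4. -/
theorem stmt_INV_B_of_E4P (hE4 : Top.Stmt_E4P) : Stmt_INV_B := by
  intro p _ hp2
  obtain ⟨S, hS⟩ : ∃ S : Finset Nat.Primes, S = {pPrime p} := ⟨_, rfl⟩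
  have hpS : pPrime p ∈ S := by rw [hS]; exact Finset.mem_singleton_self _
  obtain ⟨K, hK, hidx, hret⟩ := H46.stmt_CHI p hp2 S hpS
  obtain ⟨tr, hA2, hA3, hB1, hB2⟩ := hE4 p hp2 S hpS K hK hidx
  obtain ⟨hA2', hA3', hB1', _⟩ := S55.H48.stmt_E2 (ZMod p) S (cycloChar p) tr _ _ hret
  obtain ⟨b, hadd, hlev, σ₀, hσ₀⟩ := stmt_B0 p hp2
  have hlev' : IsLevelConstantS₁ S b := by rw [hS]; exact hlev
  obtain ⟨q, c, hc, hlc, hne⟩ := H47.exists_c0 tr (hA2' hA2) (hB1' hB1) b hadd hlev' σ₀ hσ₀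
  obtain ⟨q1, hq1⟩ := q
  have hq : q1 = pPrime p := by
    rw [hS] at hq1
    exact Finset.mem_singleton.1 hq1
  subst hq
  refine ⟨c, hc, hlc, ?_⟩
  rintro ⟨g, hg, rfl⟩
  exact hne (H47.tr_at3_dOneL tr ⟨pPrime p, hq1⟩ g hg)

/-- **INV** from the index form of E4. -/
theorem stmt_INV_of_E4P (hE4 : Top.Stmt_E4P) : Stmt_INV :=
  stmt_INV_of_AB (stmt_INV_A_of_E4P hE4) (stmt_INV_B_of_E4P hE4)

/-- **INV** from the top-level inputs of E4. -/
theorem stmt_INV_of_top (hQ : Top.Stmt_TopQ0) (hT : Top.Stmt_TopK) : Stmt_INV :=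
  stmt_INV_of_E4P (Top.stmt_E4P_of_top hQ hT)

/-- **INV** from the leaves of E4. -/
theorem stmt_INV_of_inputs (hQ : Top.Stmt_TopQ0) (h1 : Top.Stmt_I1) (h2 : Top.Stmt_I2)
    (h3 : Top.Stmt_I3) (h4 : Top.Stmt_I4) (hG : Top.Stmt_G1K) : Stmt_INV :=
  stmt_INV_of_top hQ (Top.H48.stmt_TopK_of h1 h2 h3 h4 hG)

end Fermat.Agent.S56.GWC.H64

end
-- ==== END Fermat.Agent.S56.GWC.H64_FinalTop
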