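-- GENERATED (merged mirror, NOTES/tools/trim/merge3_helper67.py): 8 modules of the originals, bodies verbatim.
import Fermat.Agent.Zm.S56_L03_001
import Fermat.Agent.Zm.S56_L07_000
import Fermat.Agent.Zm.S56_L19_000
import Fermat.Agent.Zm.S56_L12_000
import Fermat.Agent.Zm.S56_L09_000
import Fermat.Agent.Zm.S56_L07_001
import Fermat.Agent.Zm.S56_L07_002
import Fermat.Agent.Zm.S56_L08_001
import Fermat.Agent.Zm.S56_L04_002
import Fermat.Agent.Zm.S56_L19_001
import Fermat.Agent.Zm.S56_L18_000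
import Fermat.Agent.Zm.S56_L17_000
import Fermat.Agent.Zm.S56_L11_000
import Fermat.Agent.Zm.S56_L17_001
import Fermat.Agent.Zm.S56_L13_001
import Fermat.Agent.Zm.S56_L14_001
import Fermat.Agent.Zm.S56_L13_003
import Fermat.Agent.Zm.S56_L11_001
import Fermat.Agent.Zm.S56_L13_000
import Fermat.Agent.Zm.S56_L18_001
import Fermat.Agent.Zm.S56_L11_002

-- ==== BEGIN Fermat.Agent.S55.CFT.GS.H56_BrDivCore
section

set_option autoImplicit false
set_option linter.unusedSectionVars false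
set_option linter.style.haveILetI false

open NumberField TensorProduct CategoryTheory

noncomputable section

namespace Fermat.Agent.S55.CFT.GS.H56

open Fermat.Agent.S55.CFT groupCohomology

variable (K L F' F'' N : Type) [Field K] [Field L] [Field F'] [Field F''] [Field N]
  [NumberField K] [NumberField L] [NumberField F'] [NumberField F''] [NumberField N]
  [Algebra K L] [Algebra K F'] [Algebra K F''] [Algebra K N] [Algebra L N] [Algebra F' N]
  [Algebra F'' N] [Algebra F' F''] [IsScalarTower K L N] [IsScalarTower K F' N]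
  [IsScalarTower K F'' N] [IsScalarTower K F' F''] [IsScalarTower F' F'' N]

/-- The inflation of a class of the cyclic extension `F'/K` to the cyclic extension `F''/K` is
divisible by `[F'' : F']`. -/
theorem infL_cyclic_dvd [IsGalois K F'] [IsGalois K F''] (hcyc : IsCyclic (F'' ≃ₐ[K] F''))
    (x' : groupCohomology (repL K F') 2) :
    ∃ c : groupCohomology (repL K F'') 2, infL K F' F'' 2 x' = Module.finrank F' F'' • c := by
  classical
  haveI : FiniteDimensional K F' := Module.Finite.of_restrictScalars_finite ℚ K F'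
  haveI : FiniteDimensional K F'' := Module.Finite.of_restrictScalars_finite ℚ K F''
  obtain ⟨σ, hσ⟩ := hcyc.exists_generator
  have hsurj : Function.Surjective (AlgEquiv.restrictNormalHom (F := K) (K₁ := F'') F') :=
    AlgEquiv.restrictNormalHom_surjective F''
  have hσ' : ∀ y : F' ≃ₐ[K] F',
      y ∈ Subgroup.zpowers (AlgEquiv.restrictNormalHom (F := K) (K₁ := F'') F' σ) := by
    intro y
    obtain ⟨g, rfl⟩ := hsurj y
    obtain ⟨k, rfl⟩ := Subgroup.mem_zpowers_iff.1 (hσ g)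
    rw [map_zpow]
    exact Subgroup.zpow_mem_zpowers _ k
  obtain ⟨e, he⟩ := H13.exists_dlog σ hσ
  obtain ⟨e', he'⟩ := H13.exists_dlog _ hσ'
  have hn : Nat.card (F'' ≃ₐ[K] F'') = Module.finrank F' F'' * Nat.card (F' ≃ₐ[K] F') := by
    rw [IsGalois.card_aut_eq_finrank, IsGalois.card_aut_eq_finrank,
      ← Module.finrank_mul_finrank K F' F'', mul_comm]
  obtain ⟨a, ha, rfl⟩ := H19.exists_cycCl (repL K F') he' x'
  have ha' : ∀ g, (repL K F'').ρ g ((infRepL K F' F'').hom a) = (infRepL K F' F'').hom a := by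
    intro g
    rw [← Rep.hom_comm_apply]
    exact congrArg _ (ha _)
  exact ⟨H19.cycCl (repL K F'') he _ ha',
    inf_cycCl (repL K F') (repL K F'') he he' _ rfl _ hn (infRepL K F' F'') a ha ha'⟩

theorem brDiv_core (hHasse : Stmt_BrHasse) (hLII : Stmt_LocInfImage) (hIR : Stmt_InfResL)
    (p m m' m'' M₁ M : ℕ) (h3 : Hyp3 K L p m) (h3N : Hyp3 K N p m') (h3F : Hyp3 F' N p m'')
    (hcyc' : IsCyclotomicExtension {p ^ M₁} K F') (hcyc'' : IsCyclotomicExtension {p ^ M} K F'')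
    (hd : p ∣ Module.finrank F' F'')
    (x : groupCohomology (repL K L) 2)
    (hloc : ∀ v : Place K, locMap K L v 2 x = 0 ∨
      Module.finrank K L * Nat.card (MaximalSpectrum (LocAlg K F' v)) ∣ Module.finrank K F') :
    haveI : Normal K L := h3.gal.to_normal
    ∃ z : groupCohomology (repL K N) 2, (p : ℤ) • z = infL K L N 2 x := by
  classical
  haveI hgL : IsGalois K L := h3.gal
  haveI : Normal K L := h3.gal.to_normal
  haveI hgN : IsGalois K N := h3N.gal
  have hp : p.Prime := h3.prime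
  haveI : NeZero (p ^ M₁) := ⟨pow_ne_zero _ hp.ne_zero⟩
  haveI : NeZero (p ^ M) := ⟨pow_ne_zero _ hp.ne_zero⟩
  haveI hgF' : IsGalois K F' := IsCyclotomicExtension.isGalois {p ^ M₁} K F'
  haveI hgF'' : IsGalois K F'' := IsCyclotomicExtension.isGalois {p ^ M} K F''
  haveI : Normal K F' := hgF'.to_normal
  haveI : Normal K F'' := hgF''.to_normal
  -- step 1: `res inf x` is locally trivial
  have h1 : ∀ u : Place F', locMap F' N u 2 (resL K F' N 2 (infL K L N 2 x)) = 0 := by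
    intro u
    rw [H72.locMap_resL, Fermat.Agent.S55.CFT.H56.locMap_infL]
    rcases hloc (H72.placeBelow K F' u) with h0 | hdeg
    · rw [h0, map_zero, map_zero]
    · obtain ⟨b', hb'⟩ := hLII p m' K L F' N h3N hgL hgF' (H72.placeBelow K F' u) hdeg
        (locMap K L (H72.placeBelow K F' u) 2 x)
      rw [hb']
      exact H58.resJv_infJv K F' N u b'
  -- step 2: Hasse
  have h2 : resL K F' N 2 (infL K L N 2 x) = 0 := hHasse p m'' F' N h3F _ h1
  -- step 3: inflation-restriction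
  obtain ⟨x', hx'⟩ := hIR K F' N hgF' hgN _ h2
  -- step 4: the cyclic class
  have hcyclic : IsCyclic (F'' ≃ₐ[K] F'') :=
    Fermat.Agent.S55.CFT.H56.isCyclic_gal_cyclotomic K F'' p M hp h3.odd
  obtain ⟨c, hc⟩ := infL_cyclic_dvd K F' F'' hcyclic x'
  obtain ⟨d₀, hd₀⟩ := hd
  refine ⟨d₀ • infL K F'' N 2 c, ?_⟩
  rw [← hx', ← infL_infL K F' F'' N 2 x', hc, hd₀, map_nsmul, mul_nsmul', natCast_zsmul]

end Fermat.Agent.S55.CFT.GS.H56

end
end
-- ==== END Fermat.Agent.S55.CFT.GS.H56_BrDivCore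

-- ==== BEGIN Fermat.Agent.S55.CFT.GS.H58_OneG
section

/-!
# GS Layer A (helper58), leaf A-One: `Stmt_BrOneG`

`stmt_BrOneG_of : Stmt_BrHasse → Stmt_BrOne → Stmt_BrOneG`: a `p`-primary class of
`H²(Gal(L/K), Lˣ)` (`L/K` any finite Galois extension, `ζ_p ∈ K`) with at most one nonzero local
component is locally trivial.

Route (`Defs_GS2.lean`): induction on the exponent with A-Hasse reduces to `p x = 0`; then
`N = L(ζ_{p^M})`, `L' = K(ζ_{p^M}) ⊆ N` with `p ∣` the local degree of `L'/K` at `v₀` (DEG-GROW);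
`res_{N/L'} inf x` is locally trivial (`locSplitG` over `v₀`, restriction elsewhere), hence `0`
(A-Hasse for `N/L'`), hence `inf x = inf x'` (INF-RES); BR-One for the `p`-extension `L'/K`;
local inflation is injective.
-/

set_option autoImplicit false
set_option linter.unusedSectionVars false

noncomputable section

namespace Fermat.Agent.S55.CFT.GS.H58

open CategoryTheory groupCohomology Rep NumberField TensorProduct
open Fermat.Agent.S55.CFT Fermat.Agent.S55.CFT.H58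

/-- A-One in tower form, for classes killed by `p`. -/
theorem oneG_tower (hHasseG : Stmt_BrHasseG) (hOne : Stmt_BrOne) (p m' : ℕ)
    (K L L' N : Type) [Field K] [Field L] [Field L'] [Field N] [NumberField K] [NumberField L]
    [NumberField L'] [NumberField N] [Algebra K L] [Algebra K L'] [Algebra K N] [Algebra L N]
    [Algebra L' N] [IsScalarTower K L N] [IsScalarTower K L' N]
    (hL : IsGalois K L) (hN : IsGalois K N) (hL' : Hyp3 K L' p m') (v₀ : Place K)
    (hdeg : p * Nat.card (MaximalSpectrum (LocAlg K L' v₀)) ∣ Module.finrank K L')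
    (x : groupCohomology (repL K L) 2) (hx : (p : ℤ) • x = 0)
    (hloc : ∀ v : Place K, v ≠ v₀ → locMap K L v 2 x = 0) : locMap K L v₀ 2 x = 0 := by
  classical
  have hnL : Normal K L := hL.to_normal
  have hgL' : IsGalois K L' := hL'.gal
  have hnL' : Normal K L' := hL'.gal.to_normal
  have hgLN : IsGalois L' N := IsGalois.tower_top_of_isGalois K L' N
  set X := infL K L N 2 x with hXdef
  have hpX : (p : ℤ) • X = 0 := by rw [hXdef, ← map_zsmul, hx, map_zero]
  have hXloc : ∀ v : Place K, locMap K N v 2 X = infJv K L N v 2 (locMap K L v 2 x) :=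
    fun v => H61.locMap_infL K L N v 2 x
  -- the restriction to `N/L'` is locally trivial
  have hR : ∀ u : Place L', locMap L' N u 2 (resL K L' N 2 X) = 0 := by
    intro u
    rw [H72.locMap_resL K L' N u 2 X]
    by_cases hu : H72.placeBelow K L' u = v₀
    · subst hu
      apply locSplitG p m' K L' N hL' hN u hdeg
      rw [← map_zsmul, hpX, map_zero]
    · rw [hXloc, hloc _ hu, map_zero, map_zero]
  have hR0 : resL K L' N 2 X = 0 := by
    obtain ⟨ζ, hζ⟩ := hL'.zeta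
    refine hHasseG p L' N ⟨hL'.prime, hL'.odd,
      ⟨algebraMap K L' ζ, hζ.map_of_injective (algebraMap K L').injective⟩, hgLN⟩ 1 _ ?_ hR
    rw [pow_one, ← map_zsmul, hpX, map_zero]
  obtain ⟨x', hx'⟩ := H72.stmt_InfResL K L' N hgL' hN X hR0
  have hx'loc : ∀ v : Place K, v ≠ v₀ → locMap K L' v 2 x' = 0 := by
    intro v hv
    apply H58.stmt_InfJvInj K L' N hgL' hN v
    rw [map_zero, ← H61.locMap_infL K L' N v 2 x', hx', hXloc, hloc v hv, map_zero]
  have h0 : locMap K L' v₀ 2 x' = 0 := hOne p m' K L' hL' x' v₀ hx'loc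
  apply H58.stmt_InfJvInj K L N hL hN v₀
  rw [map_zero, ← hXloc, ← hx', H61.locMap_infL K L' N v₀ 2 x', h0, map_zero]

/-- A-One for classes killed by `p`. -/
theorem oneG_p (hHasseG : Stmt_BrHasseG) (hOne : Stmt_BrOne)
    (p : ℕ) (K L : Type) [Field K] [Field L] [NumberField K] [NumberField L] [Algebra K L]
    (h : HypG K L p) (x : groupCohomology (repL K L) 2) (v₀ : Place K) (hx : (p : ℤ) • x = 0)
    (hloc : ∀ v : Place K, v ≠ v₀ → locMap K L v 2 x = 0) : locMap K L v₀ 2 x = 0 := by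
  classical
  have hp : p.Prime := h.prime
  have hgal : IsGalois K L := h.gal
  obtain ⟨M₀, hM₀⟩ := H96.stmt_DegGrow p 1 K hp h.zeta v₀
  have hne : NeZero (p ^ (M₀ + 1)) := ⟨pow_ne_zero _ hp.ne_zero⟩
  have hgalN : IsGalois K (CyclotomicField (p ^ (M₀ + 1)) L) :=
    H56.isGalois_cyclo K L (p ^ (M₀ + 1))
  obtain ⟨ζ, hζ⟩ : ∃ ζ : CyclotomicField (p ^ (M₀ + 1)) L, IsPrimitiveRoot ζ (p ^ (M₀ + 1)) :=
    ⟨_, IsCyclotomicExtension.zeta_spec (p ^ (M₀ + 1)) L _⟩
  have hcycK : IsCyclotomicExtension {p ^ (M₀ + 1)} K ↥(IntermediateField.adjoin K {ζ}) :=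
    hζ.intermediateField_adjoin_isCyclotomicExtension K
  have hgalL' : IsGalois K ↥(IntermediateField.adjoin K {ζ}) :=
    IsCyclotomicExtension.isGalois {p ^ (M₀ + 1)} K _
  obtain ⟨m', hm'⟩ := H96.finrank_eq_prime_pow p M₀ hp K ↥(IntermediateField.adjoin K {ζ}) h.zeta
  have hL' : Hyp3 K ↥(IntermediateField.adjoin K {ζ}) p m' :=
    { prime := hp, odd := h.odd, zeta := h.zeta, gal := hgalL', deg := hm' }
  have hdeg := hM₀ (M₀ + 1) (Nat.le_succ _) ↥(IntermediateField.adjoin K {ζ}) hcycK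
  rw [pow_one] at hdeg
  exact oneG_tower hHasseG hOne p m' K L ↥(IntermediateField.adjoin K {ζ})
    (CyclotomicField (p ^ (M₀ + 1)) L) hgal hgalN hL' v₀ hdeg x hx hloc

/-- **A-One**: `Stmt_BrOneG` from BR-Hasse and BR-One (the `p`-extension forms). -/
theorem stmt_BrOneG_of (hHasse : Stmt_BrHasse) (hOne : Stmt_BrOne) : Stmt_BrOneG := by
  have hHasseG : Stmt_BrHasseG := H72.stmt_BrHasseG_of hHasse
  intro p K L _ _ _ _ _ h k
  induction k with
  | zero =>
    intro x v₀ hx _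
    rw [pow_zero, one_smul] at hx
    rw [hx, map_zero]
  | succ k ih =>
    intro x v₀ hx hloc
    -- `y = p ^ k • x` is killed by `p`
    have hy : (p : ℤ) • (((p : ℤ) ^ k) • x) = 0 := by
      rw [smul_smul, ← pow_succ']
      exact hx
    have hyloc : ∀ v : Place K, v ≠ v₀ → locMap K L v 2 (((p : ℤ) ^ k) • x) = 0 := by
      intro v hv
      rw [map_zsmul, hloc v hv]
      exact zsmul_zero _
    have hy0 := oneG_p hHasseG hOne p K L h _ v₀ hy hyloc
    have hyall : ∀ v : Place K, locMap K L v 2 (((p : ℤ) ^ k) • x) = 0 := by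
      intro v
      by_cases hv : v = v₀
      · rw [hv]; exact hy0
      · exact hyloc v hv
    have hzero : ((p : ℤ) ^ k) • x = 0 :=
      hHasseG p K L h 1 _ (by rw [pow_one]; exact hy) hyall
    exact ih x v₀ hzero hloc

end Fermat.Agent.S55.CFT.GS.H58

end
end
-- ==== END Fermat.Agent.S55.CFT.GS.H58_OneG

-- ==== BEGIN Fermat.Agent.S55.CFT.GS.H5_LocSRngMem
section

set_option autoImplicit false
set_option linter.unusedSectionVars false
set_option linter.style.haveILetI false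
set_option linter.unusedVariables false

open CategoryTheory groupCohomology ExtCitation TensorProduct

noncomputable section

namespace Fermat.Agent.S55.CFT.GS.H5

open Fermat.Agent.S55 Fermat.Agent.S55.Top Fermat.Agent.S55.CFT Fermat.Agent.S55.CFT.GS.Bri
  Fermat.Agent.S55.CFT.GS.H68

local notation "Qb" => AlgebraicClosure ℚ

attribute [local instance] fact_primes

/-- **LOCS-RNG**. -/
theorem stmt_LocS_Rng : Stmt_LocS_Rng := by
  intro K N hKN _ _ q σ x hx
  have hmax := ker_πN_isMaximal hKN q σ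
  induction hx using IntermediateField.adjoin_induction with
  | mem y hy =>
    obtain ⟨y₀, rfl⟩ := hy
    refine ⟨Ideal.Quotient.mk _ ((1 : Qp q) ⊗ₜ[ℚ] y₀), ?_⟩
    rw [πN_mk_tmul, map_one, one_mul]
  | algebraMap a =>
    refine ⟨Ideal.Quotient.mk _ ((a : Qp q) ⊗ₜ[ℚ] (1 : ↥(H6.NK hKN))), ?_⟩
    rw [πN_mk_tmul, map_one, mul_one]
  | add y z _ _ hy hz =>
    obtain ⟨a, rfl⟩ := hy
    obtain ⟨b, rfl⟩ := hz
    exact ⟨a + b, map_add _ _ _⟩
  | inv y _ hy =>
    obtain ⟨a, rfl⟩ := hy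
    by_cases h0 : πN hKN q σ a = 0
    · exact ⟨0, by rw [h0, inv_zero, map_zero]⟩
    · have ha : a ∉ RingHom.ker (πN hKN q σ) := h0
      obtain ⟨b, i, hi, hbi⟩ := hmax.exists_inv ha
      refine ⟨b, ?_⟩
      have h1 := congrArg (πN hKN q σ) hbi
      rw [map_add, map_mul, map_one, (RingHom.mem_ker).1 hi, add_zero] at h1
      exact eq_inv_of_mul_eq_one_left h1
  | mul y z _ _ hy hz =>
    obtain ⟨a, rfl⟩ := hy
    obtain ⟨b, rfl⟩ := hz
    exact ⟨a * b, map_mul _ _ _⟩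

/-- **LOCS-MEM**. -/
theorem stmt_LocS_Mem : Stmt_LocS_Mem := by
  intro S K N hKN _ _ _ 𝔓 q w d h hd
  -- `g = σ_w⁻¹ (rl h) σ_w` fixes `K`
  have hfix : ∀ k : Qb, k ∈ K → rl q.1 h (𝔓.σ q w k) = 𝔓.σ q w k := by
    intro k hk
    apply (padicEmbedding (q.1 : ℕ)).injective
    have h1 := hd (algebraMap ↥K ↥(H6.NK hKN) ⟨k, hk⟩)
    rw [AlgEquiv.commutes] at h1
    have h2 : padicEmbedding (q.1 : ℕ) (rl q.1 h (𝔓.σ q w k)) =
        glAut q.1 h (padicEmbedding (q.1 : ℕ) (𝔓.σ q w k)) :=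
      padicEmbedding_localGaloisToGlobal (q.1 : ℕ) h (𝔓.σ q w k)
    exact h2.trans h1
  have hgK : (𝔓.σ q w)⁻¹ * rl q.1 h * 𝔓.σ q w ∈ K.fixingSubgroup := by
    rw [IntermediateField.mem_fixingSubgroup_iff]
    intro k hk
    simp only [AlgEquiv.mul_apply]
    rw [hfix k hk]
    exact (𝔓.σ q w).symm_apply_apply k
  have hm : h ∈ 𝔓.Γw q w := by
    rw [PlaceSys.mem_Γw, ← 𝔓.σ_smul q w]
    have h3 : ((𝔓.σ q w)⁻¹ * rl q.1 h * 𝔓.σ q w) • x0 K = x0 K := by
      show (((𝔓.σ q w)⁻¹ * rl q.1 h * 𝔓.σ q w) • ((1 : GQ) : GQ ⧸ K.fixingSubgroup)) = _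
      rw [MulAction.Quotient.smul_mk, smul_eq_mul, mul_one]
      rw [QuotientGroup.eq, mul_one]
      exact K.fixingSubgroup.inv_mem hgK
    calc rl q.1 h • 𝔓.σ q w • x0 K
        = 𝔓.σ q w • (((𝔓.σ q w)⁻¹ * rl q.1 h * 𝔓.σ q w) • x0 K) := by
          rw [← mul_smul, ← mul_smul]
          congr 1
          group
      _ = 𝔓.σ q w • x0 K := by rw [h3]
  refine ⟨hm, ?_⟩
  apply AlgEquiv.ext
  intro y
  apply jN_injective hKN q.1 (𝔓.σ q w)
  rw [← glAut_jN hKN 𝔓 q w ⟨h, hm⟩ y]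
  exact hd y

end Fermat.Agent.S55.CFT.GS.H5

end
end
-- ==== END Fermat.Agent.S55.CFT.GS.H5_LocSRngMem

-- ==== BEGIN Fermat.Agent.S55.CFT.H13_BRFinalTHL
section

set_option autoImplicit false

namespace Fermat.Agent.S55.CFT.H13

open Fermat.Agent.S55.CFT

/-- **THL-Q + THL-P**. -/
theorem stmt_THL_Gen : Stmt_THL_Gen := by
  intro p M q F E _ _ _ _ _ _ hodd hη ζ hζ
  rcases eq_or_ne q p with h | h
  · subst h
    exact H25.stmt_THL_GenP q M F E hodd hη ζ hζ
  · exact LOC.H41.stmt_THL_GenQ p M q F E h ζ hζ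

/-- **THL-W**, unconditional. -/
theorem stmt_THL_Ord : Stmt_THL_Ord := H58.stmt_THL_Ord_of stmt_THL_Gen

/-- **THL**, unconditional. -/
theorem stmt_THL : Stmt_THL := H72.stmt_THL_of stmt_THL_Ord

/-- **BR-Hasse** from VAL-a. -/
theorem stmt_BrHasse_of_val (hVal : Stmt_ValExact) : Stmt_BrHasse :=
  H56.stmt_BrHasse_of hVal H80.stmt_SLD stmt_CFind

/-- **BR-One** from BR-Hasse. -/
theorem stmt_BrOne_of_hasse (hHasse : Stmt_BrHasse) : Stmt_BrOne :=
  H56.stmt_BrOne_of_leaves hHasse H20.stmt_LocSplit H72.stmt_InfResL H58.stmt_InfJvInj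
    H19.stmt_CycClass stmt_THL H96.stmt_DegGrow

/-- **BR-One** from VAL-a. -/
theorem stmt_BrOne_of_val (hVal : Stmt_ValExact) : Stmt_BrOne :=
  stmt_BrOne_of_hasse (stmt_BrHasse_of_val hVal)

/-- **BR-Two** from UNN. -/
theorem stmt_BrTwo_of_unn (hUNN : Stmt_UnrNorm) : Stmt_BrTwo :=
  H61.stmt_BrTwo_of H96.stmt_DegGrow H58.stmt_LocInfImage H58.stmt_InfJvInj H19.stmt_CycClass
    stmt_THL stmt_CycRec hUNN

end Fermat.Agent.S55.CFT.H13

end
-- ==== END Fermat.Agent.S55.CFT.H13_BRFinalTHL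

-- ==== BEGIN Fermat.Agent.S56.EC.H27_Ubr
section

set_option autoImplicit false

/-!
# EC / UBR (helper27): `stmt_UBR : Stmt_UBR`

The Brauer character of `O_{L,S}ˣ/p` (equivariant Dirichlet unit theorem):
`RED` (helper9, helper92) + `TR` (helper27, helper15) + `BRIDGE` (helper31).
-/

namespace Fermat.Agent.S56.EC.H27

/-- **Package UBR.** -/
theorem stmt_UBR : Stmt_UBR := stmt_UBR_of_RED RED.H92.stmt_RED

end Fermat.Agent.S56.EC.H27

end
-- ==== END Fermat.Agent.S56.EC.H27_Ubr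

-- ==== BEGIN Fermat.Agent.S56.EC.H92_Top
section

set_option autoImplicit false

/-!
# EC: `H³_S = 0` for all modules, `ADD` and `DESC` from the leaves of the E4 lane (helper92)

* `stmt_H3S_of`   : `GWC.Stmt_H3S_base → GWC.Stmt_H3S`  (dévissage: `H3-ext`, `H3-ret`, `E3`);
* `stmt_B1_top`   : `GWC.Stmt_B1` from `TopQ0`, `I1..I4`;
* `stmt_ADD_top`  : `EC.Stmt_ADD` from `TopQ0`, `I1..I4`;
* `stmt_DESC_top` : `EC.Stmt_DESC` from `TopQ0`, `I1..I4`.
-/

noncomputable section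

namespace Fermat.Agent.S56.EC.H92T

open CategoryTheory groupCohomology ExtCitation Module Fermat.Agent.S55 Fermat.Agent.S56
  Fermat.Agent.S56.GWC Fermat.Agent.S56.EC

variable {k : Type} [Field k] {S : Finset Nat.Primes}

/-- `H³_S = 0` for the zero module. -/
lemma h3S_of_subsingleton (M : Rep.{0} k _root_.Fermat.Agent.S56.GQ) [Subsingleton M] : H3S S M := by
  intro z _ _
  refine ⟨fun _ => 0, isLevelConstantS₂_const S (0 : M), ?_⟩
  funext t
  exact Subsingleton.elim _ _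

/-- Dévissage of `H³_S = 0`. -/
theorem h3S_of_devL (K : IntermediateField ℚ (AlgebraicClosure ℚ))
    (hK3 : H3S S (permRep k K)) (N : Rep.{0} k _root_.Fermat.Agent.S56.GQ) (hN : DevL k S K N) : H3S S N := by
  induction hN with
  | zero M hM => exact h3S_of_subsingleton M
  | ext M₁ M M₂ i π hses hiso h₁ h h₂ _ ih =>
    obtain ⟨e⟩ := hiso
    have hr : IsRetract M₁ (permRep k K) := isRetract_of_iso e
    exact GWC.H64.stmt_H3S_ext k S M₁ M M₂ i π hses h₁ h h₂
      (GWC.H64.stmt_H3S_ret k S M₁ (permRep k K) hr hK3) ih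

/-- **Package H3** from the base case. -/
theorem stmt_H3S_of (h3 : Stmt_H3S_base) : Stmt_H3S := by
  intro p _ hp2 S X _ hpS hlev
  obtain ⟨K, hK, hidx, N, hret, hL, -⟩ := H13.stmt_E3_index p (ZMod p) S X hpS hlev
  exact GWC.H64.stmt_H3S_ret (ZMod p) S X N hret
    (h3S_of_devL K (h3 p hp2 S hpS K hK hidx) N hL)

/-- **B1** from the leaves of the E4 lane. -/
theorem stmt_B1_top (hQ : Top.Stmt_TopQ0) (h1 : Top.Stmt_I1) (h2 : Top.Stmt_I2)
    (h3 : Top.Stmt_I3) (h4 : Top.Stmt_I4) : Stmt_B1 :=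
  GWC.H64.stmt_B1_of
    (GWC.H64.stmt_B1M_base_of hQ
      (Top.H48.stmt_TopK_of h1 h2 h3 h4 (Top.stmt_G1K_of h2 h4))
      (Top.H48.stmt_TopK_cone_of h1 h2 h3 h4 (Top.stmt_G1K_of h2 h4)))
    (GWC.H64.stmt_H3S_base_of h2)

/-- **ADD** from the leaves of the E4 lane. -/
theorem stmt_ADD_top (hQ : Top.Stmt_TopQ0) (h1 : Top.Stmt_I1) (h2 : Top.Stmt_I2)
    (h3 : Top.Stmt_I3) (h4 : Top.Stmt_I4) : Stmt_ADD :=
  stmt_ADD_of Fermat.Agent.S56.H92.stmt_ADDH (stmt_H3S_of (GWC.H64.stmt_H3S_base_of h2))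
    (EC.H64.stmt_fin2p_of (stmt_B1_top hQ h1 h2 h3 h4)) Fermat.Agent.S56.H92.stmt_fin_glob

/-- **DESC** from the leaves of the E4 lane. -/
theorem stmt_DESC_top (hQ : Top.Stmt_TopQ0) (h1 : Top.Stmt_I1) (h2 : Top.Stmt_I2)
    (h3 : Top.Stmt_I3) (h4 : Top.Stmt_I4) : Stmt_DESC :=
  DESC.H92.stmt_DESC_final (EC.H64.stmt_fin2p_of (stmt_B1_top hQ h1 h2 h3 h4))
    (stmt_B1_top hQ h1 h2 h3 h4) GWC.H46.stmt_UR2

end Fermat.Agent.S56.EC.H92T

end

end
-- ==== END Fermat.Agent.S56.EC.H92_Top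

-- ==== BEGIN Fermat.Agent.S56.EC.KDT.Final
section

set_option autoImplicit false

/-!
# EC / KDALG: DONE

`stmt_KDALG : Stmt_KDALG`, i.e.
`Stmt_SHAPlb → Stmt_SHAPub → Stmt_KUM → Stmt_UBR → Stmt_LOC0 → Stmt_KDT ∧ Stmt_KDO`.

Pieces: KDT part, BNREL, PSIPERM, PSICHAR, assembly (helper74); projector, HIGMAN, PSIADD
(helper47); LINK (helper15).
-/

namespace Fermat.Agent.S56.EC.KDT

theorem stmt_KDALG : Stmt_KDALG :=
  stmt_KDALG_of H47.stmt_PSIADD Fermat.Agent.S56.H92.stmt_fin_glob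

end Fermat.Agent.S56.EC.KDT

end
-- ==== END Fermat.Agent.S56.EC.KDT.Final

-- ==== BEGIN Fermat.Agent.S56.FL.H50_Final
section

set_option autoImplicit false

/-!
# LOC-p-FL (item 69): the flat local condition at `p`, unconditionally

`stmt_loc_p_Fl : Stmt_loc_p_Fl` (`S56/LeavesNT.lean`): `dim H¹_f(ℚ_p, ad⁰) ≤ h⁰ + 1` for flat
deformations.  Assembly of the packages of `NOTES/plan/T-FL.md`:
LIFT, PM (helper50, helper54), CK, HERB, CC2 (helper15), KUM, CC3 (helper59), CC0, ORD, TAME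
(helper38), CC1 (helper85), CONN, BRIDGE (helper54), COH-RED (helper57), COH-SS, CYC, WIRE
(helper50), leaves by helper41, helper61.
-/

namespace Fermat.Agent.S56.FL.H50

open Fermat.Agent.S56 Fermat.Agent.S56.FL

/-- **LOC-p-FL.** -/
theorem stmt_loc_p_Fl : Stmt_loc_p_Fl := stmt_loc_p_Fl_of_core H15.stmt_CC2core

end Fermat.Agent.S56.FL.H50

end
-- ==== END Fermat.Agent.S56.FL.H50_Final
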