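-- GENERATED (merged mirror, NOTES/tools/trim/merge3_helper67.py): 1 modules of the originals, bodies verbatim.
import Fermat.Agent.Zm.S56_L18_000
import Fermat.Agent.Zm.S56_L19_001

-- ==== BEGIN Fermat.Agent.S55.CFT.GS.H68_LocS_Bwd
section

set_option autoImplicit false
set_option linter.unusedSectionVars false
set_option linter.style.haveILetI false
set_option linter.unusedVariables false

open CategoryTheory groupCohomology ExtCitation TensorProduct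

noncomputable section

namespace Fermat.Agent.S55.CFT.GS.H68

open Fermat.Agent.S55 Fermat.Agent.S55.Top Fermat.Agent.S55.CFT Fermat.Agent.S55.CFT.GS.Bri

local notation "Qb" => AlgebraicClosure ℚ

attribute [local instance] fact_primes

theorem stmt_LocS_Bwd (hSh : GS.Stmt_LocS_Shapiro2) (hZ : GS.Stmt_LocS_H2Zero)
    (hDec : Stmt_LocS_Dec) (hDesc : Stmt_LocS_Desc) (hRng : Stmt_LocS_Rng)
    (hMem : Stmt_LocS_Mem) : Stmt_LocS_Bwd := by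
  intro S K N hKN _ _ _ 𝔓 q w c x hx hloc
  classical
  obtain ⟨f, hfc, hfx⟩ := hx
  have hf' := @isMulCocycle₂_of_mem_cocycles₂ (↥(H6.NK hKN) ≃ₐ[↥K] ↥(H6.NK hKN))
    (↥(H6.NK hKN))ˣ _ _ _ f.1 f.2
  -- the multiplicative form of the cocycle
  let f' : (↥(H6.NK hKN) ≃ₐ[↥K] ↥(H6.NK hKN)) × (↥(H6.NK hKN) ≃ₐ[↥K] ↥(H6.NK hKN)) →
      (↥(H6.NK hKN))ˣ := fun t => Additive.toMul (f.1 t)
  have hloc' : LocTrivS 𝔓 q w (fun t => valU hKN (f' (resG hKN t.1, resG hKN t.2))) := by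
    rw [← hfc] at hloc
    exact hloc
  obtain ⟨b', hb0, hbE, hbinv, hbcob⟩ := hDesc S K N hKN 𝔓 q w f' hloc'
  -- the maximal ideal
  haveI hMmax : (RingHom.ker (πN hKN q.1 (𝔓.σ q w))).IsMaximal :=
    ker_πN_isMaximal hKN q.1 (𝔓.σ q w)
  have hOrb := H58.locAlg_orbitSeparates ↥K ↥(H6.NK hKN) (plσ K q.1 (𝔓.σ q w))
    (RingHom.ker (πN hKN q.1 (𝔓.σ q w)))
  -- local automorphisms inducing the elements of the decomposition group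
  have hd : ∀ d : H58.decomp (↥(H6.NK hKN) ≃ₐ[↥K] ↥(H6.NK hKN))
      (RingHom.ker (πN hKN q.1 (𝔓.σ q w))),
      ∃ h : 𝔓.Γw q w, (∀ y : ↥(H6.NK hKN), glAut q.1 (h : Gl q.1)
        (jN hKN q.1 (𝔓.σ q w) y) = jN hKN q.1 (𝔓.σ q w) (d.1 y)) ∧
        resG hKN (𝔓.ρw q w h) = d.1 := by
    intro d
    obtain ⟨h, hh⟩ := hDec K N hKN q.1 (𝔓.σ q w) d.1 d.2
    obtain ⟨hm, hres⟩ := hMem S K N hKN 𝔓 q w d.1 h hh
    exact ⟨⟨h, hm⟩, hh, hres⟩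
  choose hΓ hΓj hΓres using hd
  -- the projection on the quotient
  have hπinj : ∀ z z' : LocAlg ↥K ↥(H6.NK hKN) (plσ K q.1 (𝔓.σ q w)),
      πN hKN q.1 (𝔓.σ q w) z = πN hKN q.1 (𝔓.σ q w) z' →
      Ideal.Quotient.mk (RingHom.ker (πN hKN q.1 (𝔓.σ q w))) z =
        Ideal.Quotient.mk (RingHom.ker (πN hKN q.1 (𝔓.σ q w))) z' := by
    intro z z' h
    rw [Ideal.Quotient.eq, RingHom.mem_ker, map_sub, h, sub_self]
  -- representatives of the values of `b'` and of their inverses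
  have hbex : ∀ d : H58.decomp (↥(H6.NK hKN) ≃ₐ[↥K] ↥(H6.NK hKN))
      (RingHom.ker (πN hKN q.1 (𝔓.σ q w))),
      ∃ z z' : LocAlg ↥K ↥(H6.NK hKN) (plσ K q.1 (𝔓.σ q w)),
          πN hKN q.1 (𝔓.σ q w) z = b' (hΓ d) ∧ πN hKN q.1 (𝔓.σ q w) z' = (b' (hΓ d))⁻¹ := by
    intro d
    obtain ⟨z, hz⟩ := hRng K N hKN q.1 (𝔓.σ q w) _ (hbE (hΓ d))
    obtain ⟨z', hz'⟩ := hRng K N hKN q.1 (𝔓.σ q w) _
      (inv_mem (hbE (hΓ d)))
    exact ⟨z, z', hz, hz'⟩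
  choose bz bz' hbz hbz' using hbex
  have hmk : ∀ d : H58.decomp (↥(H6.NK hKN) ≃ₐ[↥K] ↥(H6.NK hKN))
      (RingHom.ker (πN hKN q.1 (𝔓.σ q w))),
      Ideal.Quotient.mk (RingHom.ker (πN hKN q.1 (𝔓.σ q w))) (bz d * bz' d) =
        Ideal.Quotient.mk (RingHom.ker (πN hKN q.1 (𝔓.σ q w))) 1 := by
    intro d
    apply hπinj
    rw [map_mul, hbz, hbz', map_one, mul_inv_cancel₀ (hb0 _)]
  -- the localised cocycle
  let cbar : (↥(H6.NK hKN) ≃ₐ[↥K] ↥(H6.NK hKN)) × (↥(H6.NK hKN) ≃ₐ[↥K] ↥(H6.NK hKN)) →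
      (LocAlg ↥K ↥(H6.NK hKN) (plσ K q.1 (𝔓.σ q w)))ˣ :=
    fun t => locHom ↥K ↥(H6.NK hKN) (plσ K q.1 (𝔓.σ q w)) (f' t)
  have hcoc : ∀ σ τ υ : ↥(H6.NK hKN) ≃ₐ[↥K] ↥(H6.NK hKN),
      H58.unitsSmul _ _ σ (cbar (τ, υ)) * cbar (σ, τ * υ) =
        cbar (σ * τ, υ) * cbar (σ, τ) := by
    intro σ τ υ
    have h1 := hf' σ τ υ
    have h2 := congrArg (locHom ↥K ↥(H6.NK hKN) (plσ K q.1 (𝔓.σ q w))) h1
    rw [map_mul, map_mul, locHom_smul] at h2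
    exact h2.symm
  have key := hSh _ _ (RingHom.ker (πN hKN q.1 (𝔓.σ q w))) hOrb cbar hcoc
  obtain ⟨βt, hβt⟩ := key
    (fun d => ⟨Ideal.Quotient.mk _ (bz d), Ideal.Quotient.mk _ (bz' d),
      (map_mul _ _ _).symm.trans ((hmk d).trans (map_one _)),
      (mul_comm _ _).trans ((map_mul _ _ _).symm.trans ((hmk d).trans (map_one _)))⟩) (by
    intro d₁ d₂
    apply Units.ext
    show Ideal.Quotient.mk (RingHom.ker (πN hKN q.1 (𝔓.σ q w)))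
        ((cbar (d₁.1, d₂.1) : (LocAlg ↥K ↥(H6.NK hKN) _)ˣ) :
          LocAlg ↥K ↥(H6.NK hKN) _) =
      Ideal.Quotient.mk (RingHom.ker (πN hKN q.1 (𝔓.σ q w)))
        (d₁.1 • bz d₂) *
        Ideal.Quotient.mk (RingHom.ker (πN hKN q.1 (𝔓.σ q w))) (bz' (d₁ * d₂)) *
        Ideal.Quotient.mk (RingHom.ker (πN hKN q.1 (𝔓.σ q w))) (bz d₁)
    rw [← map_mul, ← map_mul]
    apply hπinj
    rw [map_mul, map_mul, hbz, hbz',
      πN_smul hKN q.1 (𝔓.σ q w) d₁.1 (glAut q.1 (hΓ d₁ : Gl q.1)) (hΓj d₁), hbz]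
    show πN hKN q.1 (𝔓.σ q w)
        ((locHom ↥K ↥(H6.NK hKN) (plσ K q.1 (𝔓.σ q w))
          (f' (d₁.1, d₂.1)) : (LocAlg ↥K ↥(H6.NK hKN) _)ˣ) :
            LocAlg ↥K ↥(H6.NK hKN) _) = _
    rw [πN_locHom]
    have h1 := hbcob (hΓ d₁) (hΓ d₂)
    rw [hΓres, hΓres] at h1
    -- `b'` on the product
    have h2 : b' (hΓ d₁ * hΓ d₂) = b' (hΓ (d₁ * d₂)) := by
      have h3 : hΓ d₁ * hΓ d₂ = hΓ (d₁ * d₂) * ((hΓ (d₁ * d₂))⁻¹ * (hΓ d₁ * hΓ d₂)) := by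
        rw [mul_inv_cancel_left]
      rw [h3]
      apply hbinv
      intro y
      have e1 : glAut q.1 (hΓ d₂ : Gl q.1) (jN hKN q.1 (𝔓.σ q w) y) = _ := hΓj d₂ y
      have e2 : glAut q.1 (hΓ d₁ : Gl q.1) (jN hKN q.1 (𝔓.σ q w) (d₂.1 y)) = _ :=
        hΓj d₁ _
      have e3 : glAut q.1 (hΓ (d₁ * d₂) : Gl q.1) (jN hKN q.1 (𝔓.σ q w) y) = _ :=
        hΓj (d₁ * d₂) y
      show (glAut q.1 (hΓ (d₁ * d₂) : Gl q.1))⁻¹ (glAut q.1 (hΓ d₁ : Gl q.1)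
        (glAut q.1 (hΓ d₂ : Gl q.1) (jN hKN q.1 (𝔓.σ q w) y))) = _
      rw [e1, e2]
      have e4 : jN hKN q.1 (𝔓.σ q w) (d₁.1 (d₂.1 y)) =
          glAut q.1 (hΓ (d₁ * d₂) : Gl q.1) (jN hKN q.1 (𝔓.σ q w) y) := e3.symm
      rw [e4]
      exact AlgEquiv.symm_apply_apply _ _
    rw [h2] at h1
    have h5 := hb0 (hΓ (d₁ * d₂))
    field_simp
    exact h1)
  have hzero := (hZ ↥K ↥(H6.NK hKN) (plσ K q.1 (𝔓.σ q w)) _ hf').2 ⟨βt, fun σ τ => hβt σ τ⟩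
  rw [cocycles₂_eq, hfx] at hzero
  exact hzero

end Fermat.Agent.S55.CFT.GS.H68

end

end
-- ==== END Fermat.Agent.S55.CFT.GS.H68_LocS_Bwd
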