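-- GENERATED (merged mirror, NOTES/tools/trim/merge3_helper67.py): 11 modules of the originals, bodies verbatim.
import Fermat.Agent.Zm.S56_L20_000
import Fermat.Agent.Zm.S56_L13_000
import Fermat.Agent.Zm.S56_L20_001
import Fermat.Agent.Zm.S56_L06_000
import Fermat.Agent.Zm.S56_L18_002
import Fermat.Agent.Zm.S56_L08_000
import Fermat.Agent.Zm.S56_L19_000
import Fermat.Agent.Zm.S56_L10_000
import Fermat.Agent.Zm.S56_L15_001
import Fermat.Agent.Zm.S56_L15_002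
import Fermat.Agent.Zm.S56_L13_001
import Fermat.Agent.Zm.S56_L14_001
import Fermat.Agent.Zm.S56_L05_004
import Fermat.Agent.Zm.S56_L16_000
import Fermat.Agent.Zm.S56_L16_001
import Fermat.Agent.Zm.S56_L11_001
import Fermat.Agent.Zm.S56_L04_002
import Fermat.Agent.Zm.S56_L18_000
import Fermat.Agent.Zm.S56_L07_001
import Fermat.Agent.Zm.S56_L07_002
import Fermat.Agent.Zm.S56_L12_002
import Fermat.Agent.Zm.S56_L09_000
import Fermat.Agent.Zm.S56_L09_006
import Fermat.Agent.Zm.S56_L12_001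
import Fermat.Agent.Zm.S56_L12_000
import Fermat.Agent.Zm.S56_L11_007
import Fermat.Agent.Zm.S56_L15_000
import Fermat.Agent.Zm.S56_L13_002
import Fermat.Agent.Zm.S56_L12_006

-- ==== BEGIN Fermat.Agent.S55.CFT.GS.H56_BrDivP
section

set_option autoImplicit false
set_option linter.unusedSectionVars false
set_option linter.style.haveILetI false

open NumberField TensorProduct CategoryTheory

noncomputable section

namespace Fermat.Agent.S55.CFT.GS.H56

open Fermat.Agent.S55.CFT groupCohomology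

/-- The degree of a cyclotomic extension does not depend on the model. -/
lemma finrank_cyclo_eq (n : ℕ) [NeZero n] (K F F₂ : Type) [Field K] [Field F] [Field F₂]
    [Algebra K F] [Algebra K F₂] [IsCyclotomicExtension {n} K F] [IsCyclotomicExtension {n} K F₂] :
    Module.finrank K F = Module.finrank K F₂ :=
  (IsCyclotomicExtension.algEquiv {n} K F F₂).toLinearEquiv.finrank_eq

/-- `p` divides `[K(ζ_{p^M}) : K(ζ_{p^{M₁}})]` for `M ≥ M₁ + [K : ℚ] + 1`. -/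
lemma prime_dvd_finrank_cyclo_tower (p : ℕ) (hp : p.Prime) (M₁ M : ℕ) (hM₁ : 0 < M₁)
    (K F' F'' : Type) [Field K] [Field F'] [Field F''] [NumberField K]
    [Algebra K F'] [Algebra K F''] [Algebra F' F''] [IsScalarTower K F' F'']
    [IsCyclotomicExtension {p ^ M₁} K F'] [IsCyclotomicExtension {p ^ M} K F'']
    (hζ : ∃ ζ : K, IsPrimitiveRoot ζ p) (hM : M₁ + Module.finrank ℚ K + 1 ≤ M) :
    p ∣ Module.finrank F' F'' := by
  haveI : NeZero (p ^ M) := ⟨pow_ne_zero _ hp.ne_zero⟩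
  haveI : NeZero (p ^ M₁) := ⟨pow_ne_zero _ hp.ne_zero⟩
  haveI : FiniteDimensional K F'' := IsCyclotomicExtension.finiteDimensional {p ^ M} K F''
  have a1 : Module.finrank K F' ∣ p ^ (M₁ - 1) :=
    Fermat.Agent.S55.CFT.H56.finrank_cyclo_dvd p hp M₁ hM₁ K F' hζ
  have a2 : p ^ M₁ ∣ Module.finrank K F'' := by
    rw [finrank_cyclo_eq (p ^ M) K F'' (CyclotomicField (p ^ M) K)]
    exact Fermat.Agent.S55.CFT.H56.pow_dvd_finrank_cyclo p hp M₁ M K hζ hM
  obtain ⟨j, hj, hjeq⟩ := (Nat.dvd_prime_pow hp).1 a1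
  have a3 : Module.finrank K F' * Module.finrank F' F'' = Module.finrank K F'' :=
    Module.finrank_mul_finrank K F' F''
  rw [← a3, hjeq] at a2
  have a4 : p ^ M₁ = p ^ j * p ^ (M₁ - j) := by
    rw [← pow_add]
    congr 1
    omega
  rw [a4] at a2
  have a5 : p ^ (M₁ - j) ∣ Module.finrank F' F'' :=
    (Nat.mul_dvd_mul_iff_left (pow_pos hp.pos j)).1 a2
  have a6 : p ∣ p ^ (M₁ - j) := dvd_pow_self p (by omega)
  exact a6.trans a5

/-- **A-Div for `p`-extensions.** -/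
theorem brDiv_pExt (hHasse : Stmt_BrHasse) (hLII : Stmt_LocInfImage) (hIR : Stmt_InfResL)
    (hUU : Stmt_UnitsUnram) (hDeg : Stmt_DegGrow)
    (p m : ℕ) (K L : Type) [Field K] [Field L] [NumberField K] [NumberField L] [Algebra K L]
    (h3 : Hyp3 K L p m) (x : groupCohomology (repL K L) 2) :
    haveI : Normal K L := h3.gal.to_normal
    ∃ M₀ : ℕ, ∀ M : ℕ, M₀ ≤ M → ∀ (N : Type) [Field N] [NumberField N] [Algebra K N]
      [Algebra L N] [IsScalarTower K L N], IsGalois K N → IsCyclotomicExtension {p ^ M} L N →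
      ∃ z : groupCohomology (repL K N) 2, (p : ℤ) • z = infL K L N 2 x := by
  classical
  haveI hgL : IsGalois K L := h3.gal
  haveI : Normal K L := h3.gal.to_normal
  have hp : p.Prime := h3.prime
  have hcplx : IsTotallyComplex K :=
    Fermat.Agent.S55.CFT.H56.isTotallyComplex_of_primitiveRoot p hp h3.odd K h3.zeta
  obtain ⟨T₀, hT₀⟩ := exists_unitsMap_eq K L x
  obtain ⟨T, hTT, hadm⟩ :=
    Fermat.Agent.S55.CFT.H56.stmt_AdmissibleExists p K L T₀ hp h3.gal hcplx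
  obtain ⟨e, he⟩ := hT₀ T hTT
  have hout : ∀ v : Place K, v.1 ∉ T → locMap K L v 2 x = 0 := by
    intro v hv
    rw [← he]
    exact hUU p K L T hadm e v hv
  have hM : ∀ ω : H80.PlaceT K T, ∃ M₀ : ℕ, ∀ M : ℕ, M₀ ≤ M →
      ∀ (F : Type) [Field F] [NumberField F] [Algebra K F], IsCyclotomicExtension {p ^ M} K F →
        p ^ m * Nat.card (MaximalSpectrum (LocAlg K F ⟨ω.1.1, ω.2⟩)) ∣ Module.finrank K F :=
    fun ω => hDeg p m K hp h3.zeta ⟨ω.1.1, ω.2⟩
  choose Mω hMω using hM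
  letI : Fintype (H80.PlaceT K T) := Fintype.ofFinite _
  obtain ⟨M₁, hM₁def⟩ : ∃ M₁ : ℕ, M₁ = Finset.univ.sup Mω + 1 := ⟨_, rfl⟩
  have hM₁pos : 0 < M₁ := by omega
  have hMωle : ∀ ω, Mω ω ≤ M₁ := by
    intro ω
    have := Finset.le_sup (f := Mω) (Finset.mem_univ ω)
    omega
  refine ⟨M₁ + Module.finrank ℚ K + 1, ?_⟩
  intro M hM N _ _ _ _ _ hgN hcycN
  haveI := hgN
  haveI := hcycN
  haveI : NeZero (p ^ M) := ⟨pow_ne_zero _ hp.ne_zero⟩
  haveI : NeZero (p ^ M₁) := ⟨pow_ne_zero _ hp.ne_zero⟩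
  have hM₁M : M₁ ≤ M := by omega
  obtain ⟨ζ, hζ⟩ : ∃ ζ : N, IsPrimitiveRoot ζ (p ^ M) :=
    ⟨_, IsCyclotomicExtension.zeta_spec (p ^ M) L N⟩
  have hζ₁ : IsPrimitiveRoot (ζ ^ p ^ (M - M₁)) (p ^ M₁) := by
    apply hζ.pow (pow_pos hp.pos M)
    rw [← pow_add]
    congr 1
    omega
  have hle : IntermediateField.adjoin K {ζ ^ p ^ (M - M₁)} ≤ IntermediateField.adjoin K {ζ} := by
    rw [IntermediateField.adjoin_le_iff]
    rintro _ rfl
    exact pow_mem (IntermediateField.mem_adjoin_simple_self K ζ) _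
  letI : Algebra ↥(IntermediateField.adjoin K {ζ ^ p ^ (M - M₁)})
      ↥(IntermediateField.adjoin K {ζ}) := (IntermediateField.inclusion hle).toRingHom.toAlgebra
  haveI : IsScalarTower K ↥(IntermediateField.adjoin K {ζ ^ p ^ (M - M₁)})
      ↥(IntermediateField.adjoin K {ζ}) := IsScalarTower.of_algebraMap_eq (fun _ => rfl)
  haveI : IsScalarTower ↥(IntermediateField.adjoin K {ζ ^ p ^ (M - M₁)})
      ↥(IntermediateField.adjoin K {ζ}) N := IsScalarTower.of_algebraMap_eq (fun _ => rfl)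
  haveI hcyc' : IsCyclotomicExtension {p ^ M₁} K
      ↥(IntermediateField.adjoin K {ζ ^ p ^ (M - M₁)}) :=
    hζ₁.intermediateField_adjoin_isCyclotomicExtension K
  haveI hcyc'' : IsCyclotomicExtension {p ^ M} K ↥(IntermediateField.adjoin K {ζ}) :=
    hζ.intermediateField_adjoin_isCyclotomicExtension K
  haveI hgFN : IsGalois ↥(IntermediateField.adjoin K {ζ ^ p ^ (M - M₁)}) N :=
    IsGalois.tower_top_of_isGalois K _ _
  obtain ⟨m', hm'⟩ := H13.finrank_tower_prime_pow K L N p m M hp h3.zeta h3.deg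
  have hdvd : Module.finrank ↥(IntermediateField.adjoin K {ζ ^ p ^ (M - M₁)}) N ∣ p ^ m' := by
    rw [← hm', ← Module.finrank_mul_finrank K ↥(IntermediateField.adjoin K {ζ ^ p ^ (M - M₁)}) N]
    exact dvd_mul_left _ _
  obtain ⟨m'', -, hm''⟩ := (Nat.dvd_prime_pow hp).1 hdvd
  have h3N : Hyp3 K N p m' := ⟨hp, h3.odd, h3.zeta, hgN, hm'⟩
  have hzF : ∃ z : ↥(IntermediateField.adjoin K {ζ ^ p ^ (M - M₁)}), IsPrimitiveRoot z p := by
    obtain ⟨z, hz⟩ := h3.zeta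
    exact ⟨algebraMap K _ z, hz.map_of_injective (algebraMap K _).injective⟩
  have h3F : Hyp3 ↥(IntermediateField.adjoin K {ζ ^ p ^ (M - M₁)}) N p m'' :=
    ⟨hp, h3.odd, hzF, hgFN, hm''⟩
  have hd : p ∣ Module.finrank ↥(IntermediateField.adjoin K {ζ ^ p ^ (M - M₁)})
      ↥(IntermediateField.adjoin K {ζ}) :=
    prime_dvd_finrank_cyclo_tower p hp M₁ M hM₁pos K _ _ h3.zeta hM
  have hloc : ∀ v : Place K, locMap K L v 2 x = 0 ∨
      Module.finrank K L *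
        Nat.card (MaximalSpectrum (LocAlg K ↥(IntermediateField.adjoin K {ζ ^ p ^ (M - M₁)}) v)) ∣
        Module.finrank K ↥(IntermediateField.adjoin K {ζ ^ p ^ (M - M₁)}) := by
    intro v
    by_cases hv : v.1 ∈ T
    · right
      rw [h3.deg]
      exact hMω ⟨⟨v.1, hv⟩, v.2⟩ M₁ (hMωle _) _ hcyc'
    · left
      exact hout v hv
  exact brDiv_core K L ↥(IntermediateField.adjoin K {ζ ^ p ^ (M - M₁)})
    ↥(IntermediateField.adjoin K {ζ}) N hHasse hLII hIR p m m' m'' M₁ M h3 h3N h3F hcyc' hcyc''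
    hd x hloc

end Fermat.Agent.S55.CFT.GS.H56

end
end
-- ==== END Fermat.Agent.S55.CFT.GS.H56_BrDivP

-- ==== BEGIN Fermat.Agent.S55.CFT.GS.H68_LocS_Final
section

set_option autoImplicit false

namespace Fermat.Agent.S55.CFT.GS.H68

/-- **LOC-S** (local triviality of a realised class at the places over `S`). -/
theorem stmt_LocS : Bri.Stmt_LocS :=
  stmt_LocS_of (stmt_LocS_Fwd H5.stmt_LocS_H2Zero)
    (stmt_LocS_Bwd H9.stmt_LocS_Shapiro2 H5.stmt_LocS_H2Zero H80.stmt_LocS_Dec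
      (H47.stmt_LocS_Desc_of H25.stmt_LocS_H90) H5.stmt_LocS_Rng H5.stmt_LocS_Mem)

end Fermat.Agent.S55.CFT.GS.H68

end
-- ==== END Fermat.Agent.S55.CFT.GS.H68_LocS_Final

-- ==== BEGIN Fermat.Agent.S55.CFT.H13_BRFinalOne
section

set_option autoImplicit false

namespace Fermat.Agent.S55.CFT.H13

open Fermat.Agent.S55.CFT

/-- **BR-Hasse**, unconditional. -/
theorem stmt_BrHasse : Stmt_BrHasse := stmt_BrHasse_of_val H12.stmt_ValExact

/-- **BR-One**, unconditional. -/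
theorem stmt_BrOne : Stmt_BrOne := stmt_BrOne_of_hasse stmt_BrHasse

end Fermat.Agent.S55.CFT.H13

end
-- ==== END Fermat.Agent.S55.CFT.H13_BRFinalOne

-- ==== BEGIN Fermat.Agent.S56.EC.H47_ECTop
section

set_option autoImplicit false

/-!
# EC: Tate's global Euler characteristic formula from the leaves of the E4 lane (helper47)

`stmt_EC_top : Top.Stmt_I2 → Top.Stmt_I3 → Top.Stmt_I4 → Stmt_EC`.

All the leaves of `EC/Defs.lean` are proved (RSEC helper9; LEVEL, COMPL, SHA0 helper4; GOOD, LOC0,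
SHAPub helper54; IND helper74/helper1/helper54; ADDH, DESC, H3S helper92; PT2ub/lb, fin2p helper64;
SHAPlb helper15; KUM helper50; UBR helper27/helper9/helper92/helper15/helper31; KDALG helper74,
helper47, helper15); the inputs `B1`, `DESC`, `H3S` depend on the E4 leaves `I2`, `I3`, `I4`
(`TopQ0` follows from `I4`: helper48; `I1` is proved: helper5).
-/

noncomputable section

namespace Fermat.Agent.S56.EC.H47T

open Fermat.Agent.S55 Fermat.Agent.S56 Fermat.Agent.S56.GWC Fermat.Agent.S56.EC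

/-- **EC** from the open leaves of the E4 lane. -/
theorem stmt_EC_top (h2 : Top.Stmt_I2) (h3 : Top.Stmt_I3) (h4 : Top.Stmt_I4) : Stmt_EC := by
  have hQ : Top.Stmt_TopQ0 := Fermat.Agent.S55.H48.stmt_TopQ0_of_I4 h4
  have h1 : Top.Stmt_I1 := Fermat.Agent.S55.CFT.LOC.H5.stmt_I1
  have hB : Stmt_B1 := H92T.stmt_B1_top hQ h1 h2 h3 h4
  have hKD := KDT.stmt_KDALG H15.stmt_SHAPlb H54.stmt_SHAPub H50.stmt_KUM H27.stmt_UBR
    H54.stmt_LOC0
  exact stmt_EC_of_leaves H9.stmt_RSEC H4.stmt_LEVEL H54.stmt_GOOD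
    (H92T.stmt_DESC_top hQ h1 h2 h3 h4) IND.stmt_IND Fermat.Agent.S56.H92.stmt_ADDH
    (H92T.stmt_H3S_of (GWC.H64.stmt_H3S_base_of h2)) (EC.H64.stmt_fin2p_of hB) H4.stmt_COMPL
    hKD.1 (EC.H64.stmt_PT2lb_of hB) hKD.2 (EC.H64.stmt_PT2ub_of hB) H4.stmt_SHA0

end Fermat.Agent.S56.EC.H47T

end

end
-- ==== END Fermat.Agent.S56.EC.H47_ECTop

-- ==== BEGIN Fermat.Agent.S56.Wiring8
section

set_option autoImplicit false

/-!
# Cluster T / S56: eighth-level wiring (the current frontier)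

`wiring8` proves the frozen statement S56 from the leaves that are still open:

* the open leaves of the S55-E4 lane (`S55/Top/Defs*.lean`):
  `Top.Stmt_TopQ0`, `Top.Stmt_I2`, `Top.Stmt_I3`, `Top.Stmt_I4`
  (`Top.Stmt_I1` is proved: helper5, `S55/CFT/LOC/H5_I1.lean`; `Top.Stmt_G1K` follows from
  `I2`, `I4`: helper49, `S55/Top/G1K_Main.lean`);
* LB-b `Stmt_EC`  (Tate's global Euler characteristic; `GW/Defs2.lean`, plan `NOTES/plan/T_EC.md`).

New with respect to `Wiring7.lean`: LOC-p-FL is proved (`FL.H50.stmt_loc_p_Fl`, helper50 and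
helper15 with the LOC-p-FL team, `FL/H50_Final.lean`).  No `sorry`.
-/

namespace Fermat.Agent.S56

open Polynomial IsLocalRing

theorem wiring8 (hQ : S55.Top.Stmt_TopQ0) (h2 : S55.Top.Stmt_I2)
    (h3 : S55.Top.Stmt_I3) (h4 : S55.Top.Stmt_I4) (hEC : Stmt_EC)
    {𝒪 : Type} [CommRing 𝒪] [IsDomain 𝒪] [IsDiscreteValuationRing 𝒪]
    [IsAdicComplete (maximalIdeal 𝒪) 𝒪] [Finite (ResidueField 𝒪)]
    (p : ℕ) [Fact p.Prime] (hp2 : p ≠ 2) (hp𝒪 : (p : 𝒪) ∈ maximalIdeal 𝒪)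
    (ρbar : ResidualGaloisRep (ResidueField 𝒪))
    (habs : ρbar.IsAbsolutelyIrreducible)
    (hdet : (GaloisRepAdic.ofResidualGaloisRep ρbar).DetIsCyclotomic p)
    (hsplit : ∀ σ : AlgebraicClosure ℚ ≃ₐ[ℚ] AlgebraicClosure ℚ,
      ∃ α β : ResidueField 𝒪, LinearMap.charpoly (ρbar.ρ σ) = (X - C α) * (X - C β))
    (hTW : ∀ (K : Type) [Field K] [Algebra (ResidueField 𝒪) K]
      (G : Subgroup (AlgebraicClosure ℚ ≃ₐ[ℚ] AlgebraicClosure ℚ)), G.index = 2 →
      ∀ V : Submodule K (ρbar.baseChange K).V,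
        (∀ σ ∈ G, ∀ x ∈ V, (ρbar.baseChange K).ρ σ x ∈ V) → V = ⊥ ∨ V = ⊤)
    (S Smin : Finset ℕ) (hpSmin : p ∈ Smin) (hSmin : Smin ⊆ S) (hS : ∀ q ∈ S, q.Prime)
    (hmin : ∀ q : ℕ, q.Prime → q ≠ p → (q ∈ Smin ↔ ¬ ρbar.IsUnramifiedAt q)) :
    (∃ r : ℕ, ∀ n : ℕ, ∃ qv : Fin r → ℕ, Function.Injective qv ∧
      (∀ i, (qv i).Prime ∧ qv i ∉ S ∧ p ^ (n + 1) ∣ qv i - 1) ∧
      (∀ i, ∀ P : ValuationSubring (AlgebraicClosure ℚ), P.LiesOverPrime (qv i) →
        ∀ φ : AlgebraicClosure ℚ ≃ₐ[ℚ] AlgebraicClosure ℚ, P.IsFrobeniusAt φ (qv i) →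
          ∃ α β : ResidueField 𝒪, α ≠ β ∧ LinearMap.charpoly (ρbar.ρ φ) = (X - C α) * (X - C β)) ∧
      ∀ DQ : GaloisRep.DeformationRingData 𝒪 ρbar (fun _A _ _ _ ρ =>
          GaloisRep.strictOrdinaryCondition 𝒪 p (Smin ∪ Finset.univ.image qv) ρ ∧
            ∀ q ∈ Smin, q.Prime → q ≠ p → ρ.IsUnipotentOnInertiaAt q),
        ∃ γ : MvPowerSeries (Fin r) 𝒪 →ₐ[𝒪] DQ.R, Function.Surjective γ) ∧
    (∃ r : ℕ, ∀ n : ℕ, ∃ qv : Fin r → ℕ, Function.Injective qv ∧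
      (∀ i, (qv i).Prime ∧ qv i ∉ S ∧ p ^ (n + 1) ∣ qv i - 1) ∧
      (∀ i, ∀ P : ValuationSubring (AlgebraicClosure ℚ), P.LiesOverPrime (qv i) →
        ∀ φ : AlgebraicClosure ℚ ≃ₐ[ℚ] AlgebraicClosure ℚ, P.IsFrobeniusAt φ (qv i) →
          ∃ α β : ResidueField 𝒪, α ≠ β ∧ LinearMap.charpoly (ρbar.ρ φ) = (X - C α) * (X - C β)) ∧
      ∀ DQ : GaloisRep.DeformationRingData 𝒪 ρbar (fun _A _ _ _ ρ =>
          GaloisRep.flatCondition 𝒪 p (Smin ∪ Finset.univ.image qv) ρ ∧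
            ∀ q ∈ Smin, q.Prime → q ≠ p → ρ.IsUnipotentOnInertiaAt q),
        ∃ γ : MvPowerSeries (Fin r) 𝒪 →ₐ[𝒪] DQ.R, Function.Surjective γ) :=
  wiring5
    (GWC.H64.stmt_INV_of_inputs hQ S55.CFT.LOC.H5.stmt_I1 h2 h3 h4 (S55.Top.stmt_G1K_of h2 h4))
    (GWC.H64.stmt_PT2_of_inputs hQ S55.CFT.LOC.H5.stmt_I1 h2 h3 h4 (S55.Top.stmt_G1K_of h2 h4))
    hEC FL.H50.stmt_loc_p_Fl
    p hp2 hp𝒪 ρbar habs hdet hsplit hTW S Smin hpSmin hSmin hS hmin

end Fermat.Agent.S56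

end
-- ==== END Fermat.Agent.S56.Wiring8

-- ==== BEGIN Fermat.Agent.S55.CFT.GS.H56_BrDiv
section

set_option autoImplicit false
set_option linter.unusedSectionVars false
set_option linter.style.haveILetI false

open NumberField TensorProduct CategoryTheory IntermediateField

noncomputable section

namespace Fermat.Agent.S55.CFT.GS.H56

open Fermat.Agent.S55.CFT groupCohomology

section index

variable (K K' N : Type) [Field K] [Field K'] [Field N] [NumberField K] [NumberField K']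
  [NumberField N] [Algebra K K'] [Algebra K N] [Algebra K' N] [IsScalarTower K K' N]

lemma galRes_injective : Function.Injective (galRes K K' N) :=
  AlgEquiv.restrictScalars_injective K

/-- The index of `Gal(N/K')` in `Gal(N/K)` is `[K' : K]`. -/
lemma index_range_galRes [IsGalois K N] [IsGalois K' N] :
    (galRes K K' N).range.index = Module.finrank K K' := by
  haveI : FiniteDimensional K N := Module.Finite.of_restrictScalars_finite ℚ K N
  haveI : FiniteDimensional K' N := Module.Finite.of_restrictScalars_finite ℚ K' N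
  have h1 := Subgroup.index_mul_card (galRes K K' N).range
  have h2 : Nat.card (galRes K K' N).range = Nat.card (N ≃ₐ[K'] N) :=
    Nat.card_congr (MonoidHom.ofInjective (galRes_injective K K' N)).toEquiv.symm
  rw [h2, IsGalois.card_aut_eq_finrank, IsGalois.card_aut_eq_finrank,
    ← Module.finrank_mul_finrank K K' N] at h1
  exact Nat.eq_of_mul_eq_mul_right Module.finrank_pos h1

/-- The identity of `Nˣ`, from the `Gal(N/K')`-module restricted to the subgroup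
`Gal(N/K') ≤ Gal(N/K)` to the restriction of the `Gal(N/K)`-module. -/
def rangeRep :
    Rep.res (MonoidHom.ofInjective (galRes_injective K K' N)).symm.toMonoidHom (repL K' N) ⟶
      resSub (repL K N) (galRes K K' N).range :=
  Rep.ofHom (LinearMap.intertwiningMap_of_isIntertwiningMap _ _
    ((MonoidHom.id Nˣ).toAdditive.toIntLinearMap)
    (fun h x => by
      have h1 := MonoidHom.apply_ofInjective_symm (galRes_injective K K' N) h
      apply congrArg Additive.ofMul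
      apply Units.ext
      change ((MonoidHom.ofInjective (galRes_injective K K' N)).symm h)
          ((Additive.toMul x : Nˣ) : N) = (h : N ≃ₐ[K] N) ((Additive.toMul x : Nˣ) : N)
      conv_rhs => rw [← h1]
      rfl))

/-- `res` to the subgroup `Gal(N/K') ≤ Gal(N/K)` in terms of `resL`. -/
theorem resMap_range (n : ℕ) (y : groupCohomology (repL K N) n) :
    resMap (repL K N) (galRes K K' N).range n y =
      (groupCohomology.map (MonoidHom.ofInjective (galRes_injective K K' N)).symm.toMonoidHom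
        (rangeRep K K' N) n).hom (resL K K' N n y) :=
  resMap_eq_map_map (repL K N) (repL K' N) (galRes K K' N).range (galRes K K' N)
    (MonoidHom.ofInjective (galRes_injective K K' N)).symm.toMonoidHom
    (fun h => MonoidHom.apply_ofInjective_symm (galRes_injective K K' N) h)
    (resRepL K K' N) (rangeRep K K' N) (fun _ => rfl) n y

end index

/-- If `i • y = p • w` with `i` prime to `p`, then `y` is divisible by `p`. -/
lemma exists_zsmul_of_coprime {X : Type} [AddCommGroup X] (p i : ℕ) (hp : p.Prime)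
    (hi : ¬ p ∣ i) (y w : X) (h : i • y = (p : ℤ) • w) : ∃ z : X, (p : ℤ) • z = y := by
  have hc : Nat.Coprime i p := (Nat.Coprime.symm ((Nat.Prime.coprime_iff_not_dvd hp).2 hi))
  have h1 : ((i : ℤ) * Nat.gcdA i p + (p : ℤ) * Nat.gcdB i p) • y = y := by
    rw [← Nat.gcd_eq_gcd_ab, hc]
    simp
  refine ⟨Nat.gcdA i p • w + Nat.gcdB i p • y, ?_⟩
  conv_rhs => rw [← h1]
  rw [smul_add, add_smul, smul_smul, smul_smul, mul_comm (i : ℤ), mul_smul (Nat.gcdA i p) (i : ℤ) y,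
    natCast_zsmul, h, smul_smul, mul_comm (Nat.gcdA i p) (p : ℤ)]

/-- **A-Div** (`Stmt_BrDivG`). -/
theorem stmt_BrDivG_of (hHasse : Stmt_BrHasse) (hLII : Stmt_LocInfImage) (hIR : Stmt_InfResL)
    (hUU : Stmt_UnitsUnram) (hDeg : Stmt_DegGrow) : Stmt_BrDivG := by
  intro p K L _ _ _ _ _ hyp x
  classical
  haveI : Fact p.Prime := ⟨hyp.prime⟩
  haveI hgL : IsGalois K L := hyp.gal
  haveI : Normal K L := hyp.gal.to_normal
  haveI : FiniteDimensional K L := Module.Finite.of_restrictScalars_finite ℚ K L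
  obtain ⟨P⟩ : Nonempty (Sylow p (L ≃ₐ[K] L)) := inferInstance
  have hdeg : Module.finrank ↥(fixedField (P : Subgroup (L ≃ₐ[K] L))) L =
      Nat.card (P : Subgroup (L ≃ₐ[K] L)) :=
    IntermediateField.finrank_fixedField_eq_card _
  obtain ⟨m, hm⟩ := (IsPGroup.iff_card (p := p)).1 P.isPGroup'
  obtain ⟨ζ, hζ⟩ := hyp.zeta
  have hyp3 : Hyp3 ↥(fixedField (P : Subgroup (L ≃ₐ[K] L))) L p m :=
    ⟨hyp.prime, hyp.odd, ⟨algebraMap K _ ζ, hζ.map_of_injective (algebraMap K _).injective⟩,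
      inferInstance, by rw [hdeg, hm]⟩
  obtain ⟨M₀, hM₀⟩ := brDiv_pExt hHasse hLII hIR hUU hDeg p m
    ↥(fixedField (P : Subgroup (L ≃ₐ[K] L))) L hyp3
    (resL K ↥(fixedField (P : Subgroup (L ≃ₐ[K] L))) L 2 x)
  refine ⟨M₀, ?_⟩
  intro M hM N _ _ _ _ _ hgN hcycN
  haveI := hgN
  haveI hgK'N : IsGalois ↥(fixedField (P : Subgroup (L ≃ₐ[K] L))) N :=
    IsGalois.tower_top_of_isGalois K _ N
  obtain ⟨z', hz'⟩ := hM₀ M hM N hgK'N hcycN
  rw [infL_resL K ↥(fixedField (P : Subgroup (L ≃ₐ[K] L))) L N 2 x] at hz'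
  obtain ⟨cor, hcor⟩ := Fermat.Agent.S55.CFT.H58.stmt_CorRes (N ≃ₐ[K] N) (repL K N)
    (galRes K ↥(fixedField (P : Subgroup (L ≃ₐ[K] L))) N).range 2
  have hidx : (galRes K ↥(fixedField (P : Subgroup (L ≃ₐ[K] L))) N).range.index •
      infL K L N 2 x = (p : ℤ) • cor ((groupCohomology.map
        (MonoidHom.ofInjective
          (galRes_injective K ↥(fixedField (P : Subgroup (L ≃ₐ[K] L))) N)).symm.toMonoidHom
        (rangeRep K ↥(fixedField (P : Subgroup (L ≃ₐ[K] L))) N) 2).hom z') := by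
    rw [← hcor, resMap_range, ← hz', map_zsmul, map_zsmul]
  have hndvd : ¬ p ∣ (galRes K ↥(fixedField (P : Subgroup (L ≃ₐ[K] L))) N).range.index := by
    rw [index_range_galRes]
    have h1 : Module.finrank K ↥(fixedField (P : Subgroup (L ≃ₐ[K] L))) *
        Nat.card (P : Subgroup (L ≃ₐ[K] L)) = Nat.card (L ≃ₐ[K] L) := by
      rw [← hdeg, Module.finrank_mul_finrank, IsGalois.card_aut_eq_finrank]
    have h2 := Subgroup.index_mul_card (P : Subgroup (L ≃ₐ[K] L))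
    have h3 : Module.finrank K ↥(fixedField (P : Subgroup (L ≃ₐ[K] L))) =
        (P : Subgroup (L ≃ₐ[K] L)).index :=
      Nat.eq_of_mul_eq_mul_right Nat.card_pos (h1.trans h2.symm)
    rw [h3]
    exact P.not_dvd_index
  exact exists_zsmul_of_coprime p _ hyp.prime hndvd _ _ hidx

end Fermat.Agent.S55.CFT.GS.H56

end
end
-- ==== END Fermat.Agent.S55.CFT.GS.H56_BrDiv

-- ==== BEGIN Fermat.Agent.S56.Wiring9
section

set_option autoImplicit false

/-!
# Cluster T / S56: ninth-level wiring (the current frontier)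

`wiring9` proves the frozen statement S56 from the three leaves of the S55-E4 lane that are still
open (`S55/Top/Defs*.lean`): `Top.Stmt_I2`, `Top.Stmt_I3`, `Top.Stmt_I4`.

New with respect to `Wiring8.lean`: `Stmt_EC` (Tate's global Euler characteristic formula) is
proved from the same leaves (`EC/H47_ECTop.lean`, the EC team of helper27), and `Top.Stmt_TopQ0`
follows from `I4` (helper48, `S55/H48_AssemblyGS.lean`).  No `sorry`.
-/

namespace Fermat.Agent.S56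

open Polynomial IsLocalRing

theorem wiring9 (h2 : S55.Top.Stmt_I2) (h3 : S55.Top.Stmt_I3) (h4 : S55.Top.Stmt_I4)
    {𝒪 : Type} [CommRing 𝒪] [IsDomain 𝒪] [IsDiscreteValuationRing 𝒪]
    [IsAdicComplete (maximalIdeal 𝒪) 𝒪] [Finite (ResidueField 𝒪)]
    (p : ℕ) [Fact p.Prime] (hp2 : p ≠ 2) (hp𝒪 : (p : 𝒪) ∈ maximalIdeal 𝒪)
    (ρbar : ResidualGaloisRep (ResidueField 𝒪))
    (habs : ρbar.IsAbsolutelyIrreducible)
    (hdet : (GaloisRepAdic.ofResidualGaloisRep ρbar).DetIsCyclotomic p)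
    (hsplit : ∀ σ : AlgebraicClosure ℚ ≃ₐ[ℚ] AlgebraicClosure ℚ,
      ∃ α β : ResidueField 𝒪, LinearMap.charpoly (ρbar.ρ σ) = (X - C α) * (X - C β))
    (hTW : ∀ (K : Type) [Field K] [Algebra (ResidueField 𝒪) K]
      (G : Subgroup (AlgebraicClosure ℚ ≃ₐ[ℚ] AlgebraicClosure ℚ)), G.index = 2 →
      ∀ V : Submodule K (ρbar.baseChange K).V,
        (∀ σ ∈ G, ∀ x ∈ V, (ρbar.baseChange K).ρ σ x ∈ V) → V = ⊥ ∨ V = ⊤)
    (S Smin : Finset ℕ) (hpSmin : p ∈ Smin) (hSmin : Smin ⊆ S) (hS : ∀ q ∈ S, q.Prime)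
    (hmin : ∀ q : ℕ, q.Prime → q ≠ p → (q ∈ Smin ↔ ¬ ρbar.IsUnramifiedAt q)) :
    (∃ r : ℕ, ∀ n : ℕ, ∃ qv : Fin r → ℕ, Function.Injective qv ∧
      (∀ i, (qv i).Prime ∧ qv i ∉ S ∧ p ^ (n + 1) ∣ qv i - 1) ∧
      (∀ i, ∀ P : ValuationSubring (AlgebraicClosure ℚ), P.LiesOverPrime (qv i) →
        ∀ φ : AlgebraicClosure ℚ ≃ₐ[ℚ] AlgebraicClosure ℚ, P.IsFrobeniusAt φ (qv i) →
          ∃ α β : ResidueField 𝒪, α ≠ β ∧ LinearMap.charpoly (ρbar.ρ φ) = (X - C α) * (X - C β)) ∧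
      ∀ DQ : GaloisRep.DeformationRingData 𝒪 ρbar (fun _A _ _ _ ρ =>
          GaloisRep.strictOrdinaryCondition 𝒪 p (Smin ∪ Finset.univ.image qv) ρ ∧
            ∀ q ∈ Smin, q.Prime → q ≠ p → ρ.IsUnipotentOnInertiaAt q),
        ∃ γ : MvPowerSeries (Fin r) 𝒪 →ₐ[𝒪] DQ.R, Function.Surjective γ) ∧
    (∃ r : ℕ, ∀ n : ℕ, ∃ qv : Fin r → ℕ, Function.Injective qv ∧
      (∀ i, (qv i).Prime ∧ qv i ∉ S ∧ p ^ (n + 1) ∣ qv i - 1) ∧
      (∀ i, ∀ P : ValuationSubring (AlgebraicClosure ℚ), P.LiesOverPrime (qv i) →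
        ∀ φ : AlgebraicClosure ℚ ≃ₐ[ℚ] AlgebraicClosure ℚ, P.IsFrobeniusAt φ (qv i) →
          ∃ α β : ResidueField 𝒪, α ≠ β ∧ LinearMap.charpoly (ρbar.ρ φ) = (X - C α) * (X - C β)) ∧
      ∀ DQ : GaloisRep.DeformationRingData 𝒪 ρbar (fun _A _ _ _ ρ =>
          GaloisRep.flatCondition 𝒪 p (Smin ∪ Finset.univ.image qv) ρ ∧
            ∀ q ∈ Smin, q.Prime → q ≠ p → ρ.IsUnipotentOnInertiaAt q),
        ∃ γ : MvPowerSeries (Fin r) 𝒪 →ₐ[𝒪] DQ.R, Function.Surjective γ) :=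
  wiring8 (S55.H48.stmt_TopQ0_of_I4 h4) h2 h3 h4 (EC.H47T.stmt_EC_top h2 h3 h4)
    p hp2 hp𝒪 ρbar habs hdet hsplit hTW S Smin hpSmin hSmin hS hmin

end Fermat.Agent.S56

end
-- ==== END Fermat.Agent.S56.Wiring9

-- ==== BEGIN Fermat.Agent.S55.CFT.GS.H56_BrDivFinal
section

set_option autoImplicit false

namespace Fermat.Agent.S55.CFT.GS.H56

open Fermat.Agent.S55.CFT

/-- **A-Div** from VAL-c. -/
theorem stmt_BrDivG_of_unitsUnram (hUU : Stmt_UnitsUnram) : Stmt_BrDivG :=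
  stmt_BrDivG_of H13.stmt_BrHasse H58.stmt_LocInfImage H72.stmt_InfResL hUU H96.stmt_DegGrow

end Fermat.Agent.S55.CFT.GS.H56

end
-- ==== END Fermat.Agent.S55.CFT.GS.H56_BrDivFinal

-- ==== BEGIN Fermat.Agent.S55.CFT.GS.H56_BrDivUncond
section

set_option autoImplicit false

namespace Fermat.Agent.S55.CFT.GS.H56

open Fermat.Agent.S55.CFT

/-- **A-Div**, unconditional. -/
theorem stmt_BrDivG : Stmt_BrDivG :=
  stmt_BrDivG_of_unitsUnram H45.stmt_UnitsUnram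

end Fermat.Agent.S55.CFT.GS.H56

end
-- ==== END Fermat.Agent.S55.CFT.GS.H56_BrDivUncond

-- ==== BEGIN Fermat.Agent.S55.CFT.GS.H24_Wire
section

set_option autoImplicit false

noncomputable section

namespace Fermat.Agent.S55.CFT.GS.H24

open Fermat.Agent.S55 Fermat.Agent.S55.Top Fermat.Agent.S55.CFT Fermat.Agent.S55.CFT.GS
  Fermat.Agent.S55.CFT.GS.Bri

/-- Layer A, Hasse (unconditional). -/
theorem wire_BrHasseG : Stmt_BrHasseG := H72.stmt_BrHasseG_of H13.stmt_BrHasse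

/-- Layer A, One (unconditional). -/
theorem wire_BrOneG : Stmt_BrOneG := H58.stmt_BrOneG_of H13.stmt_BrHasse H13.stmt_BrOne

/-- Layer A, H3 (unconditional). -/
theorem wire_BrH3G : Stmt_BrH3G := H31.stmt_BrH3G_of H13.stmt_BrH3

/-- Layer A, Two. -/
theorem wire_BrTwoG (hUNN : Stmt_UnrNorm) : Stmt_BrTwoG :=
  H19.stmt_BrTwoG_of (H13.stmt_BrTwo_of_unn hUNN) H13.stmt_BrOne H13.stmt_BrHasse

/-- LOC-OUT from LOC-S and RESLOC. -/
theorem wire_LocOut (hLocS : Stmt_LocS) (hFwd : Stmt_ResLoc_fwd) (hBwd : Stmt_ResLoc_bwd) :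
    Stmt_LocOut :=
  locOut_of hLocS H49.stmt_R2_lev hFwd hBwd

/-- **I3** from LOC-S, RESLOC. -/
theorem wire_I3 (hLocS : Stmt_LocS) (hFwd : Stmt_ResLoc_fwd) (hBwd : Stmt_ResLoc_bwd) :
    Stmt_I3 :=
  gs_I3 wire_BrHasseG wire_BrOneG
    (H64.briHasse_of H49.stmt_R2_ex H49.stmt_R2_mul H49.stmt_R2_zero plEx plS hLocS
      (wire_LocOut hLocS hFwd hBwd))
    (H64.briOne_of H49.stmt_R2_ex H49.stmt_R2_mul H49.stmt_R2_zero plEx plS hLocS
      (wire_LocOut hLocS hFwd hBwd))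
    H78.stmt_GS_LocKum LOC.H5.stmt_I1

/-- **I4** from LOC-S, RESLOC, UNN. -/
theorem wire_I4 (hUNN : Stmt_UnrNorm)
    (hLocS : Stmt_LocS) (hFwd : Stmt_ResLoc_fwd) (hBwd : Stmt_ResLoc_bwd) :
    Stmt_I4 :=
  gs_I4 wire_BrOneG (wire_BrTwoG hUNN)
    (H64.briOne_of H49.stmt_R2_ex H49.stmt_R2_mul H49.stmt_R2_zero plEx plS hLocS
      (wire_LocOut hLocS hFwd hBwd))
    (H64.briTwoIn_of H49.stmt_R2_surj H49.stmt_R2_mul H49.stmt_R2_zero H19.stmt_CycBase plS hLocS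
      (wire_LocOut hLocS hFwd hBwd))
    H78.stmt_GS_LocKum LOC.H5.stmt_I1

/-- **I2** from LOC-S, RESLOC, UNN. -/
theorem wire_I2 (hUNN : Stmt_UnrNorm)
    (hLocS : Stmt_LocS) (hFwd : Stmt_ResLoc_fwd) (hBwd : Stmt_ResLoc_bwd) :
    Stmt_I2 :=
  gs_I2 (wire_BrTwoG hUNN) wire_BrH3G H56.stmt_BrDivG
    (H64.briTwoOut_of H49.stmt_R2_surj H49.stmt_R2_mul H49.stmt_R2_zero H19.stmt_CycBase plEq
      (wire_LocOut hLocS hFwd hBwd))
    (H64.briH3_of H80.stmt_R3_ex H80.stmt_R3_mul H80.stmt_R3_zero H80.stmt_R3_inf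
      H19.stmt_CycTop)
    (H64.briDiv_of H49.stmt_R2_ex H49.stmt_R2_surj H49.stmt_R2_mul H49.stmt_R2_zero
      H49.stmt_R2_inf H19.stmt_CycTop)

end Fermat.Agent.S55.CFT.GS.H24

end

end
-- ==== END Fermat.Agent.S55.CFT.GS.H24_Wire

-- ==== BEGIN Fermat.Agent.S55.CFT.GS.H24_GSFinal
section

set_option autoImplicit false

noncomputable section

namespace Fermat.Agent.S55.CFT.GS.H24

open Fermat.Agent.S55 Fermat.Agent.S55.Top Fermat.Agent.S55.CFT Fermat.Agent.S55.CFT.GS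
  Fermat.Agent.S55.CFT.GS.Bri

/-- RESLOC (⟸), unconditional. -/
theorem final_ResLoc_bwd : Stmt_ResLoc_bwd :=
  H64.stmt_ResLoc_bwd_of (H25.stmt_UnrH2_of H68.stmt_UnrH2_Core) H78.stmt_UnrVal

/-- **I2** of PT-LIN, unconditional. -/
theorem stmt_I2 : Stmt_I2 :=
  wire_I2 CFT.H96.stmt_UnrNorm H68.stmt_LocS H6.stmt_ResLoc_fwd final_ResLoc_bwd

/-- **I3** of PT-LIN, unconditional. -/
theorem stmt_I3 : Stmt_I3 :=
  wire_I3 H68.stmt_LocS H6.stmt_ResLoc_fwd final_ResLoc_bwd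

/-- **I4** of PT-LIN, unconditional. -/
theorem stmt_I4 : Stmt_I4 :=
  wire_I4 CFT.H96.stmt_UnrNorm H68.stmt_LocS H6.stmt_ResLoc_fwd final_ResLoc_bwd

end Fermat.Agent.S55.CFT.GS.H24

end

end
-- ==== END Fermat.Agent.S55.CFT.GS.H24_GSFinal
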