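-- GENERATED (merged mirror, NOTES/tools/trim/merge3_helper67.py): 9 modules of the originals, bodies verbatim.
import Fermat.Agent.Zm.S43_L06_000
import Fermat.Agent.Zm.S43_L04_000
import Fermat.Agent.Zm.S43_L06_002
import Fermat.Agent.Zm.S56_L21_000
import Fermat.Agent.Zm.S35_L02_001
import Fermat.Agent.Zm.S35_L18_000
import Fermat.Agent.Zm.S44_L01_003
import Fermat.Agent.Zm.S43_L06_001
import Fermat.Agent.Zm.S43_L03_000
import Fermat.Agent.Zm.S43_L02_001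
import Fermat.Agent.Zm.S48_L01_000
import Fermat.Agent.Zm.S56_L07_005

-- ==== BEGIN Fermat.Agent.L.Pivot.Geom.H19_RestSurj
section

set_option autoImplicit false

open CuspForm Fermat.Agent.S59 Fermat.Agent.S59.Asm

namespace Fermat.Agent.L.Pivot.Geom.H19

/-- **The restriction `pvLevel → twLevel` is surjective**: the two Hecke algebras have the same
generators (the pivot primes divide `N1`). -/
theorem restPV_surjective (N1 : ℕ) (S : Finset ℕ) {k r : ℕ} (qP : Fin k → ℕ) (qv : Fin r → ℕ)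
    [NeZero (twLevel N1 qv)] [NeZero (pvLevel N1 qP qv)] (hdvd : ∀ j, qP j ∣ N1) :
    Function.Surjective (H4.restPV N1 S qP qv hdvd) := by
  rintro ⟨x, hx⟩
  induction hx using Algebra.adjoin_induction with
  | mem x hx =>
    rcases hx with ⟨ℓ, hℓ, hℓN, hℓS, rfl⟩ | ⟨q, hqN, hq, hqS, rfl⟩
    · have hℓN' : ¬ ℓ ∣ pvLevel N1 qP qv := fun h =>
        hℓN (H4.prime_dvd_twLevel_of_dvd_pvLevel N1 qP qv hdvd ℓ hℓ h)
      exact ⟨CuspForm.heckeAlgebra.T hℓ hℓN' hℓS, H4.restPV_T N1 S qP qv hdvd ℓ hℓ hℓN' hℓS hℓN⟩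
    · have hqN' : q ∣ pvLevel N1 qP qv := dvd_trans hqN (H4.twLevel_dvd_pvLevel N1 qP qv)
      exact ⟨CuspForm.heckeAlgebra.U hq hqN' hqS, H4.restPV_U N1 S qP qv hdvd q hq hqN' hqS hqN⟩
  | algebraMap a =>
    refine ⟨(a : CuspForm.heckeAlgebra (pvLevel N1 qP qv) 2 (↑(twSet S qv) : Set ℕ)), ?_⟩
    rw [map_intCast]
    apply Subtype.ext
    simp
  | add x y hx hy ihx ihy =>
    obtain ⟨s, hs⟩ := ihx
    obtain ⟨t, ht⟩ := ihy
    exact ⟨s + t, by rw [map_add, hs, ht]; rfl⟩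
  | mul x y hx hy ihx ihy =>
    obtain ⟨s, hs⟩ := ihx
    obtain ⟨t, ht⟩ := ihy
    exact ⟨s * t, by rw [map_mul, hs, ht]; rfl⟩

end Fermat.Agent.L.Pivot.Geom.H19

end
-- ==== END Fermat.Agent.L.Pivot.Geom.H19_RestSurj

-- ==== BEGIN Fermat.Agent.L.Pivot.Geom.H59_KerNmE
section

/-!
# PIVOT, package PV-GEOM, leaf PVG-A' (helper59): kernel of the total norm, mixed exponents

`V` an `𝒪`-module with commuting operators `c j`, `c j ^ m j = 1`, and an `𝒪`-basis of the shape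
`mon c x (b i)` (`i : ι`, `x ∈ ∏ j, Fin (m j)`).  Then `ker (nmTotE m c) = ⨆ j, range (c j - 1)`.
-/

set_option autoImplicit false
set_option linter.unusedSectionVars false

noncomputable section

open Module

namespace Fermat.Agent.L.Pivot.Geom.H59

open Fermat.Agent.S59.TWH.H90 Fermat.Agent.S59.Lim.H2

section Abs

variable {𝒪 : Type*} [CommRing 𝒪] {V : Type*} [AddCommGroup V] [Module 𝒪 V]

/-- `c j * nmTotE = nmTotE`. -/
theorem mul_nmTotE : ∀ {r : ℕ} (m : Fin r → ℕ) (d : Fin r → End 𝒪 V),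
    (∀ i j, Commute (d i) (d j)) → (∀ j, d j ^ m j = 1) → ∀ j, d j * nmTotE m d = nmTotE m d := by
  intro r
  induction r with
  | zero => intro m d _ _ j; exact j.elim0
  | succ r ih =>
    intro m d hcomm hpow j
    rw [nmTotE_succ]
    refine Fin.cases ?_ (fun j' => ?_) j
    · rw [← mul_assoc, mul_nm_self (hpow 0)]
    · rw [← mul_assoc, ← (commute_nm (m 0) (hcomm 0 j'.succ)).eq, mul_assoc,
        ih (fun k => m k.succ) (fun k => d k.succ) (fun i k => hcomm i.succ k.succ)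
          (fun k => hpow k.succ) j']

theorem range_sub_one_le_ker_nmTotE {r : ℕ} (m : Fin r → ℕ) (d : Fin r → End 𝒪 V)
    (hcomm : ∀ i j, Commute (d i) (d j)) (hpow : ∀ j, d j ^ m j = 1) (j : Fin r) :
    LinearMap.range (d j - 1) ≤ LinearMap.ker (nmTotE m d) := by
  rintro _ ⟨w, rfl⟩
  rw [LinearMap.mem_ker, ← Module.End.mul_apply, mul_sub, mul_one,
    ← (commute_nmTotE m d (fun k => hcomm j k)).eq, mul_nmTotE m d hcomm hpow j, sub_self]
  rfl

theorem iSup_range_le_ker_nmTotE {r : ℕ} (m : Fin r → ℕ) (d : Fin r → End 𝒪 V)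
    (hcomm : ∀ i j, Commute (d i) (d j)) (hpow : ∀ j, d j ^ m j = 1) :
    (⨆ j, LinearMap.range (d j - 1)) ≤ LinearMap.ker (nmTotE m d) :=
  iSup_le fun j => range_sub_one_le_ker_nmTotE m d hcomm hpow j

/-- the total norm as a sum over the box `∏ j, Fin (m j)`. -/
theorem nmTotE_apply_eq_sum :
    ∀ (r : ℕ) (m : Fin r → ℕ) (c : Fin r → End 𝒪 V) (v : V),
      nmTotE m c v = ∑ x : (∀ j : Fin r, Fin (m j)), mon c (fun j => (x j : ℕ)) v := by
  intro r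
  induction r with
  | zero =>
    intro m c v
    rw [nmTotE_zero]
    simp [mon_zero]
  | succ r ih =>
    intro m c v
    rw [nmTotE_succ, Module.End.mul_apply, ih, nm_apply,
      ← (Fin.consEquiv fun j : Fin (r + 1) => Fin (m j)).sum_comp, Fintype.sum_prod_type,
      ← Fin.sum_univ_eq_sum_range (fun k => (c 0 ^ k)
        (∑ x : (∀ j : Fin r, Fin (m j.succ)), mon (fun j => c j.succ) (fun j => (x j : ℕ)) v))
        (m 0)]
    refine Finset.sum_congr rfl fun k _ => ?_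
    rw [map_sum]
    refine Finset.sum_congr rfl fun x _ => ?_
    rw [mon_succ, Module.End.mul_apply]
    rfl

/-- **KERNM with mixed exponents** (kernel part). -/
theorem ker_nmTotE_eq {r : ℕ} (m : Fin r → ℕ) (hm : ∀ j, 0 < m j) (d : Fin r → End 𝒪 V)
    (hcomm : ∀ i j, Commute (d i) (d j)) (hpow : ∀ j, d j ^ m j = 1)
    {ι : Type*} [Fintype ι] (b : ι → V)
    (hb : Function.Bijective (fun f : ι × (∀ j : Fin r, Fin (m j)) → 𝒪 =>
      ∑ x : ι × (∀ j : Fin r, Fin (m j)), f x • mon d (fun j => (x.2 j : ℕ)) (b x.1))) :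
    LinearMap.ker (nmTotE m d) = ⨆ j, LinearMap.range (d j - 1) := by
  classical
  set S : Submodule 𝒪 V := ⨆ j, LinearMap.range (d j - 1) with hS
  have hnm : ∀ g : ι → 𝒪, nmTotE m d (∑ i, g i • b i)
      = ∑ x : ι × (∀ j : Fin r, Fin (m j)), g x.1 • mon d (fun j => (x.2 j : ℕ)) (b x.1) := by
    intro g
    rw [map_sum, Fintype.sum_prod_type]
    refine Finset.sum_congr rfl fun i _ => ?_
    rw [map_smul, nmTotE_apply_eq_sum, Finset.smul_sum]
  have x₀ : ∀ j : Fin r, Fin (m j) := fun j => ⟨0, hm j⟩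
  refine le_antisymm ?_ (iSup_range_le_ker_nmTotE m d hcomm hpow)
  intro v hv
  obtain ⟨f, hf⟩ := hb.2 v
  simp only at hf
  set g : ι → 𝒪 := fun i => ∑ x : (∀ j : Fin r, Fin (m j)), f (i, x) with hg
  set u : V := ∑ i, g i • b i with hu
  have hvu : v - u ∈ S := by
    have h1 : v - u = ∑ x : ι × (∀ j : Fin r, Fin (m j)),
        f x • (mon d (fun j => (x.2 j : ℕ)) (b x.1) - b x.1) := by
      rw [← hf, hu]
      simp only [smul_sub, Finset.sum_sub_distrib]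
      congr 1
      rw [Fintype.sum_prod_type]
      refine Finset.sum_congr rfl fun i _ => ?_
      rw [hg, Finset.sum_smul]
    rw [h1]
    exact S.sum_mem fun x _ => S.smul_mem _ (mon_apply_sub_mem d _ _)
  have hu0 : nmTotE m d u = 0 := by
    have h1 : nmTotE m d (v - u) = 0 := iSup_range_le_ker_nmTotE m d hcomm hpow hvu
    rw [map_sub, LinearMap.mem_ker.mp hv, zero_sub, neg_eq_zero] at h1
    exact h1
  rw [hu, hnm] at hu0
  have hg0 : (fun x : ι × (∀ j : Fin r, Fin (m j)) => g x.1) = 0 := by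
    apply hb.1
    simp only
    rw [hu0]
    simp
  have hgi : ∀ i, g i = 0 := fun i => congrFun hg0 (i, x₀)
  have hu' : u = 0 := by
    rw [hu]
    exact Finset.sum_eq_zero fun i _ => by rw [hgi i, zero_smul]
  rw [hu', sub_zero] at hvu
  exact hvu

end Abs

end Fermat.Agent.L.Pivot.Geom.H59

end
end
-- ==== END Fermat.Agent.L.Pivot.Geom.H59_KerNmE

-- ==== BEGIN Fermat.Agent.L.Pivot.Geom.H70_TowerMix
section

/-!
# PIVOT, package PV-GEOM, leaf P-HSTEP part (i): the tower with MIXED exponents (helper70)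

Clone of `NEB/H29_TowerJH.lean` (helper29) for a tower `H = Hs 0 ≤ Hs 1 ≤ ⋯ ≤ Hs r` of subgroups of
`(ℤ/c)ˣ` with `Hs (j + 1) = Hs j ⊔ ⟨δ j⟩`, `⟨δ j⟩` of order `p ^ e j` on `F_{Hs j}` (the exponent
depends on the step), and `± Hs r = (ℤ/c)ˣ`;  `t = T^H_ℓ - (ℓ + 1)`.

* `divExpM`              : the exponents of `t`;
* `stmt_DIV_chain_mix`   : `t ^ divExpM p e r i J_{Hs j} ⊆ p J_{Hs j}`, `j + i = r`;
* `stmt_DIV_tower_mix`   : `t ^ divExpM p e r r J_H ⊆ p J_H`;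
* `stmt_HSTEP_tower_mix` : the norm steps on `J_H[p ^ k]`, up to a power of `t`.
-/

set_option autoImplicit false
set_option linter.style.haveILetI false

noncomputable section

namespace Fermat.Agent.L.Pivot.Geom.H70

open AlgebraicCurve ModularCurve
open Fermat.Agent.NEB Fermat.Agent.NEB.H14 Fermat.Agent.NEB.JH Fermat.Agent.RED
open Fermat.Agent.NEB.H29

/-- The exponents of `t` in the divisibility along the tower with mixed exponents:
`divExpM p e r i` is the exponent at the level `r - i` (`i` steps below the top). -/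
def divExpM (p : ℕ) (e : ℕ → ℕ) (r : ℕ) : ℕ → ℕ
  | 0 => 0
  | i + 1 => (divExpM p e r i + 1) * p ^ e (r - (i + 1))

@[simp] theorem divExpM_zero (p : ℕ) (e : ℕ → ℕ) (r : ℕ) : divExpM p e r 0 = 0 := rfl

theorem divExpM_succ (p : ℕ) (e : ℕ → ℕ) (r i : ℕ) :
    divExpM p e r (i + 1) = (divExpM p e r i + 1) * p ^ e (r - (i + 1)) := rfl

section Tower

variable {M c ℓ : ℕ} [NeZero M] [NeZero c] [NeZero ℓ]

/-- **Divisibility along the tower** (mixed exponents), at every level. -/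
theorem stmt_DIV_chain_mix (Hs : ℕ → Subgroup (ZMod c)ˣ) (hds : ∀ j, HeckeData M c ℓ (Hs j))
    (hℓ : ℓ.Prime) (hM : ¬ ℓ ∣ M) (r : ℕ) (δ : ℕ → (ZMod c)ˣ)
    (hsucc : ∀ j < r, Hs (j + 1) = Hs j ⊔ Subgroup.zpowers (δ j))
    (p : ℕ) (e : ℕ → ℕ) [Fact p.Prime]
    (hord : ∀ j < r, orderOf ((hds j).dd.ρ (δ j)) = p ^ e j)
    (htop : ∀ d, d ∈ Hs r ∨ -d ∈ Hs r)
    (hdiv0 : ∀ x : JZero M, ∃ y : JZero M, p • y = x) :
    ∀ i j, j + i = r → ∀ x : JH M c (Hs j), ∃ y : JH M c (Hs j),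
      (tEnd (TH (hds j).hβ) ((ℓ + 1 : ℕ) : ℤ) ^ divExpM p e r i) x = p • y := by
  intro i
  induction i with
  | zero =>
    intro j hj x
    rw [add_zero] at hj
    subst hj
    obtain ⟨y, hy⟩ := jh_divisible_top (hds j) htop p hdiv0 x
    exact ⟨y, by rw [divExpM_zero, pow_zero]; exact hy.symm⟩
  | succ i ih =>
    intro j hj x
    have hjr : j < r := by omega
    have hje : r - (i + 1) = j := by omega
    have hH : Hs j ≤ Hs (j + 1) := by
      rw [hsucc j hjr]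
      exact le_sup_left
    have hgen : relGal (hds j).dd (Hs (j + 1)) = Subgroup.zpowers ((hds j).dd.ρ (δ j)) := by
      rw [hsucc j hjr]
      exact relGal_sup_zpowers _ _
    rw [divExpM_succ, hje]
    exact (stmt_PIONTO_JH hH (hds j) (hds (j + 1)) hℓ hM (δ j) hgen p (e j) (hord j hjr)
      (divExpM p e r i) (ih (j + 1) (by omega))).1 x

/-- **Divisibility at the bottom of the tower**: `t ^ N J_H ⊆ p J_H`, `N = divExpM p e r r`. -/
theorem stmt_DIV_tower_mix {H : Subgroup (ZMod c)ˣ} (hd : HeckeData M c ℓ H)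
    (Hs : ℕ → Subgroup (ZMod c)ˣ) (h0 : Hs 0 = H) (hds : ∀ j, HeckeData M c ℓ (Hs j))
    (hℓ : ℓ.Prime) (hM : ¬ ℓ ∣ M) (r : ℕ) (δ : ℕ → (ZMod c)ˣ)
    (hsucc : ∀ j < r, Hs (j + 1) = Hs j ⊔ Subgroup.zpowers (δ j))
    (p : ℕ) (e : ℕ → ℕ) [Fact p.Prime]
    (hord : ∀ j < r, orderOf ((hds j).dd.ρ (δ j)) = p ^ e j)
    (htop : ∀ d, d ∈ Hs r ∨ -d ∈ Hs r)
    (hdiv0 : ∀ x : JZero M, ∃ y : JZero M, p • y = x) (x : JH M c H) :
    ∃ y : JH M c H, (tEnd (TH hd.hβ) ((ℓ + 1 : ℕ) : ℤ) ^ divExpM p e r r) x = p • y := by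
  subst h0
  exact stmt_DIV_chain_mix Hs hds hℓ hM r δ hsucc p e hord htop hdiv0 r 0 (zero_add r) x

/-- **The norm steps of the tower** (mixed exponents) on `J_H[p ^ k]`, up to a power of
`t = T^H_ℓ - (ℓ + 1)`. -/
theorem stmt_HSTEP_tower_mix {H : Subgroup (ZMod c)ˣ} (hd : HeckeData M c ℓ H)
    (Hs : ℕ → Subgroup (ZMod c)ˣ) (h0 : Hs 0 = H) (hds : ∀ j, HeckeData M c ℓ (Hs j))
    (hℓ : ℓ.Prime) (hM : ¬ ℓ ∣ M)
    (hunr : ∀ w : Place Kbar ↥(FHbar M c H),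
      ∃ x : ↥(modularFunctionFieldBar M), w.ord (inclBar M c H x) = 1)
    (r : ℕ) (δ : ℕ → (ZMod c)ˣ)
    (hsucc : ∀ j < r, Hs (j + 1) = Hs j ⊔ Subgroup.zpowers (δ j))
    (p : ℕ) (e : ℕ → ℕ) [Fact p.Prime]
    (hord : ∀ j < r, orderOf ((hds j).dd.ρ (δ j)) = p ^ e j)
    (htop : ∀ d, d ∈ Hs r ∨ -d ∈ Hs r)
    (hdiv0 : ∀ x : JZero M, ∃ y : JZero M, p • y = x)
    (j : ℕ) (hj : j < r) (k : ℕ) (v : JH M c H) (hv : p ^ k • v = 0)
    (hvG : ∀ i ≤ j, hd.dd.ρ (δ i) • v = v) :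
    ∃ w : JH M c H, p ^ k • w = 0 ∧ (∀ i < j, hd.dd.ρ (δ i) • w = w) ∧
      ∑ a ∈ Finset.range (p ^ e j), (hd.dd.ρ (δ j)) ^ a • w
        = (tEnd (TH hd.hβ) ((ℓ + 1 : ℕ) : ℤ)
            ^ ((divExpM p e r (r - (j + 1)) + 1) * p ^ e j * k + 1 + 1)) v := by
  have hmono := tower_mono Hs r δ hsucc
  have hH₁ : H ≤ Hs j := h0 ▸ hmono 0 j (Nat.zero_le j) hj.le
  have hH₂ : Hs j ≤ Hs (j + 1) := hmono j (j + 1) (Nat.le_succ j) hj
  have hgen : relGal (hds j).dd (Hs (j + 1)) = Subgroup.zpowers ((hds j).dd.ρ (δ j)) := by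
    rw [hsucc j hj]
    exact relGal_sup_zpowers _ _
  -- `v` is fixed by `Hs (j + 1)`
  have hfix : ∀ i, i ≤ j + 1 → ∀ d ∈ Hs i, hd.dd.ρ d • v = v := by
    set S : Subgroup (ZMod c)ˣ := (MulAction.stabilizer _ v).comap hd.dd.ρ with hS
    have hmemS : ∀ d, d ∈ S ↔ hd.dd.ρ d • v = v := fun d => by
      rw [hS, Subgroup.mem_comap, MulAction.mem_stabilizer_iff]
    have hle : ∀ i, i ≤ j + 1 → Hs i ≤ S := by
      intro i
      induction i with
      | zero =>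
        intro _ d hdH
        rw [h0] at hdH
        rw [hmemS, rho_eq_one_of_mem hd.dd hdH, one_smul]
      | succ i ih =>
        intro hi
        have hir : i < r := by omega
        rw [hsucc i hir]
        refine sup_le (ih (by omega)) ?_
        rw [Subgroup.zpowers_le, hmemS]
        exact hvG i (by omega)
    exact fun i hi d hdH => (hmemS d).mp (hle i hi hdH)
  obtain ⟨w, hw1, hw2, hw3⟩ := stmt_HSTEP_JH hH₁ hH₂ hd (hds j) (hds (j + 1)) hℓ hM hunr (δ j)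
    hgen p (e j) (hord j hj) (divExpM p e r (r - (j + 1)))
    (stmt_DIV_chain_mix Hs hds hℓ hM r δ hsucc p e hord htop hdiv0 (r - (j + 1)) (j + 1)
      (by omega))
    k v hv (hfix (j + 1) le_rfl)
  refine ⟨w, hw1, fun i hi => ?_, hw3⟩
  exact hw2 (δ i) (hmono (i + 1) j hi hj.le (delta_mem_tower Hs r δ hsucc i (by omega)))

end Tower

end Fermat.Agent.L.Pivot.Geom.H70

end
end
-- ==== END Fermat.Agent.L.Pivot.Geom.H70_TowerMix

-- ==== BEGIN Fermat.Agent.L.Pivot.H4_GalN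
section

set_option autoImplicit false
set_option linter.unusedSectionVars false
set_option linter.unusedVariables false
set_option linter.style.haveILetI false

noncomputable section

namespace Fermat.Agent.L.Pivot.H4

open Polynomial IsLocalRing CategoryTheory groupCohomology ExtCitation Module
  Fermat.Agent.S56

section

variable {𝒪 : Type} [CommRing 𝒪] [IsLocalRing 𝒪]

/-- A local bound for the family `T ↦ condFl Smin T` gives a local bound for the family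
`T ↦ condPv0 Smin Pv T` (which implies `condFl Smin (Σ ∪ T)`). -/
theorem localBound_condPv0 (p : ℕ) (ρbar : ResidualGaloisRep (ResidueField 𝒪))
    (Smin : Finset ℕ) {k : ℕ} (Pv : PivotPrimes k) (q : Nat.Primes) (δ : ℕ)
    (h : LocalBound ρbar (condFl 𝒪 p Smin) q δ) :
    LocalBound ρbar (fun T => condPv0 𝒪 p Smin Pv T) q δ := by
  obtain ⟨W, h1, h2, h3, h4⟩ := h
  refine ⟨W, h1, h2, h3, fun T x ξ hξ => ?_⟩
  letI := Fermat.Agent.S53.dualNumberAlgebra 𝒪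
  letI := Fermat.Agent.S53.resDualNumberAlgebra 𝒪
  let x' : Fermat.Agent.S53.TSub 𝒪 ρbar (condFl 𝒪 p Smin (Pv.set ∪ T)) :=
    ⟨x.1, x.2.1.1, x.2.2⟩
  exact h4 (Pv.set ∪ T) x' ξ hξ

end

/-- **PV-GAL-N from the Greenberg–Wiles package.** -/
theorem stmt_PVGalN_of_GW (hGW : Stmt_GW) : Stmt_PVGalN := by
  intro 𝒪 _ _ _ _ _ p _ ρbar S Smin hyp k Pv hex hPS
  have hp : p.Prime := Fact.out
  have hpk : (p : ResidueField 𝒪) = 0 := by
    have := (IsLocalRing.residue_eq_zero_iff (p : 𝒪)).mpr hyp.hp𝒪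
    simpa using this
  have hcard : Pv.set.card = k := by
    unfold PivotPrimes.set
    rw [Finset.card_image_of_injective _ Pv.q_inj, Finset.card_univ, Fintype.card_fin]
  have key := assembly_core_pv hGW TWS.stmt_TW_select H27.stmt_glob_h0 H13.stmt_loc_inf
    H9.stmt_loc_TW H59.stmt_loc_TW_h0 H13.stmt_unr_of_res_zero
    Dict.stmt_dict_exists Dict.H85.stmt_dict_inj Dict.stmt_dict_cont H47.ad0_basic
    H47.tate_basic p ρbar S Smin hyp Pv.set hPS ?_ ?_ (fun T => condPv0 𝒪 p Smin Pv T)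
    ?_ ?_ ?_ ?_
  · rw [hcard] at key
    exact key
  · -- the pivot primes are not in `Smin`
    intro q hq hqS
    obtain ⟨j, -, rfl⟩ := Finset.mem_image.1 hq
    obtain ⟨-, hqp, hur, -⟩ := hex j
    exact ((hyp.hmin _ (Pv.q_prime j) hqp).1 hqS) hur
  · -- `h⁰ ≥ 3`
    intro q hq
    obtain ⟨j, -, hj⟩ := Finset.mem_image.1 hq
    obtain ⟨-, hqp, hur, hsc⟩ := hex j
    have hPj : (Pv.P j).LiesOverPrime (q : ℕ) := hj ▸ Pv.P_over j
    have hFj : (Pv.P j).IsFrobeniusAt (Pv.frob j) (q : ℕ) := hj ▸ Pv.frob_spec j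
    exact three_le_h0 ρbar q (hj ▸ hur) (Pv.P j) hPj (Pv.frob j) hFj hsc
  · intro T A _ _ _ ρ h
    exact h.1.1.1
  · intro T A _ _ _ ρ h q hq hqS
    exact h.1.1.2.2 q hq hqS
  · -- the local bounds at `Smin`
    intro q hq
    refine localBound_condPv0 p ρbar Smin Pv q _ ?_
    by_cases h : (q : ℕ) = p
    · rw [if_pos h]
      have hqp : q = pPrime p := Subtype.ext h
      rw [hqp]
      exact FL.H50.stmt_loc_p_Fl 𝒪 p ρbar S Smin hyp
    · rw [if_neg h]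
      exact (LocMin.stmt_loc_min 𝒪 p ρbar S Smin hyp q hq h).2
  · -- the classes are locally trivial at the pivot primes
    intro q hq T x ξ hξ
    obtain ⟨j, -, hj⟩ := Finset.mem_image.1 hq
    obtain ⟨-, hqp, hur, -⟩ := hex j
    have hPj : (Pv.P j).LiesOverPrime (q : ℕ) := hj ▸ Pv.P_over j
    have hFj : (Pv.P j).IsFrobeniusAt (Pv.frob j) (q : ℕ) := hj ▸ Pv.frob_spec j
    have hτj : IsTameGen (q : ℕ) (Pv.P j) (Pv.τ j) := hj ▸ Pv.τ_gen j
    letI := Fermat.Agent.S53.dualNumberAlgebra 𝒪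
    exact resAt_eq_zero_of_tame p hp hyp.hp2 hpk q (hj ▸ hqp) (hj ▸ hur) (Pv.P j) hPj
      (Pv.frob j) hFj (Pv.τ j) hτj x (x.2.1.2 j).1 (x.2.1.2 j).2 ξ hξ

/-- **PV-GAL-N from the open leaves of S56** (the inputs of `Fermat.Agent.S56.wiring8`). -/
theorem stmt_PVGalN_of_open (hQ : S55.Top.Stmt_TopQ0) (h2 : S55.Top.Stmt_I2)
    (h3 : S55.Top.Stmt_I3) (h4 : S55.Top.Stmt_I4) (hEC : Stmt_EC) : Stmt_PVGalN :=
  stmt_PVGalN_of_GW
    (gw_of_core H92.stmt_fin_glob H9.stmt_fin_loc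
      (gw_core_of_leaves5
        (GWC.H64.stmt_INV_of_inputs hQ S55.CFT.LOC.H5.stmt_I1 h2 h3 h4
          (S55.Top.stmt_G1K_of h2 h4))
        (GWC.H64.stmt_PT2_of_inputs hQ S55.CFT.LOC.H5.stmt_I1 h2 h3 h4
          (S55.Top.stmt_G1K_of h2 h4))
        hEC))

end Fermat.Agent.L.Pivot.H4

end

end
-- ==== END Fermat.Agent.L.Pivot.H4_GalN

-- ==== BEGIN Fermat.Agent.L.Pivot.H50_Old
section

/-!
# PIVOT, package PV-OLD (helper50): `Stmt_TatePieceStI → Stmt_PVOld`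

* `pvOld_of_ramNew : Stmt_RamNew → Stmt_PVOld` : the prime `𝔱` of `T` gives a point
  `ψ : T → T ⧸ 𝔱 → 𝒪'` (normalisation, helper2); the base change of `H.ρ` along `ψ` is
  unramified at `q`, residually absolutely irreducible, with the Frobenius characteristic
  polynomials of `χ = ψ ∘ H.π`; by `Stmt_RamNew` the eigensystem `χ` occurs at level `N / q`,
  and its reduction takes values in the residue field of `𝒪` (the Hecke algebra is generated by
  the `T_ℓ`, `ℓ ∉ S`).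
* `stmt_PVOld_of : Stmt_TatePieceStI → Stmt_PVOld`.
-/

set_option autoImplicit false
set_option linter.style.haveILetI false
set_option linter.unusedVariables false

open Polynomial IsLocalRing CuspForm
open scoped TensorProduct

namespace Fermat.Agent.L.Pivot.H50

open Fermat.Agent.R Fermat.Agent.S30

/-- The base change along `ψ` of an element acting trivially modulo an ideal killed by `ψ` is
the identity. -/
theorem baseChangeAlong_eq_one_of_sub_mem {A B : Type} [CommRing A] [IsLocalRing A]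
    [CommRing B] [IsLocalRing B] (ψ : A →+* B) (hψ : IsLocalHom ψ) (ρ : GaloisRepAdic A)
    (I : Ideal A) (hI : ∀ a ∈ I, ψ a = 0) (σ : GQ)
    (h : ∀ v : ρ.V, ρ.ρ σ v - v ∈ I • (⊤ : Submodule A ρ.V)) :
    (ρ.baseChangeAlong ψ hψ).ρ σ = 1 := by
  letI : Algebra A B := ψ.toAlgebra
  show (ρ.ρ σ).baseChange B = 1
  have hkill : ∀ x ∈ I • (⊤ : Submodule A ρ.V), ∀ c : B, c ⊗ₜ[A] x = 0 := by
    intro x hx c
    refine Submodule.smul_induction_on (p := fun x => c ⊗ₜ[A] x = (0 : B ⊗[A] ρ.V)) hx ?_ ?_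
    · intro a ha w _
      rw [TensorProduct.tmul_smul, TensorProduct.smul_tmul', Algebra.smul_def]
      have : algebraMap A B a = 0 := hI a ha
      rw [this, zero_mul, TensorProduct.zero_tmul]
    · intro x y hx hy
      rw [TensorProduct.tmul_add, hx, hy, add_zero]
  refine LinearMap.ext fun w => ?_
  induction w using TensorProduct.induction_on with
  | zero => rw [map_zero, map_zero]
  | tmul c v =>
    rw [LinearMap.baseChange_tmul, Module.End.one_apply, ← sub_eq_zero, ← TensorProduct.tmul_sub]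
    exact hkill _ (h v) c
  | add x y hx hy => rw [map_add, map_add, hx, hy]

/-- A homomorphism from the Hecke algebra away from `S` (`S` contains the primes of the
level, so the algebra is generated by the `T_ℓ`, `ℓ ∉ S`) to `k'` whose values at the `T_ℓ` lie in
the image of a field `k` factors through `k`. -/
theorem exists_corestrict {M : ℕ} [NeZero M] (S : Finset ℕ)
    (hMS : ∀ q : ℕ, q.Prime → q ∣ M → q ∈ S) {k k' : Type*} [Field k] [CommRing k']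
    [Nontrivial k'] (ι : k →+* k') (θ'' : heckeAlgebra M 2 (↑S : Set ℕ) →+* k')
    (h : ∀ (ℓ : ℕ) (hℓ : ℓ.Prime) (hℓM : ¬ ℓ ∣ M) (hℓS : ℓ ∉ (↑S : Set ℕ)),
      θ'' (heckeAlgebra.T hℓ hℓM hℓS) ∈ ι.range) :
    ∃ θ' : heckeAlgebra M 2 (↑S : Set ℕ) →+* k, ∀ t, ι (θ' t) = θ'' t := by
  have key : ∀ (x : Module.End ℂ (CuspForm (CongruenceSubgroup.Gamma0 M) 2))
      (hx : x ∈ heckeAlgebra M 2 (↑S : Set ℕ)), θ'' ⟨x, hx⟩ ∈ ι.range := by
    intro x hx
    induction hx using Algebra.adjoin_induction with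
    | mem x hx =>
      rcases hx with ⟨ℓ, hℓ, hℓM, hℓS, rfl⟩ | ⟨q, hqM, hq, hqS, rfl⟩
      · exact h ℓ hℓ hℓM hℓS
      · exact absurd (Finset.mem_coe.2 (hMS q hq hqM)) hqS
    | algebraMap n =>
      refine ⟨(n : k), ?_⟩
      have h1 : (⟨algebraMap ℤ (Module.End ℂ (CuspForm (CongruenceSubgroup.Gamma0 M) 2)) n,
          Subalgebra.algebraMap_mem _ n⟩ : heckeAlgebra M 2 (↑S : Set ℕ))
          = (n : heckeAlgebra M 2 (↑S : Set ℕ)) := by
        apply Subtype.ext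
        simp
      rw [h1, map_intCast, map_intCast]
    | add x y hx hy ihx ihy =>
      have h1 : (⟨x + y, Subalgebra.add_mem _ hx hy⟩ : heckeAlgebra M 2 (↑S : Set ℕ))
          = ⟨x, hx⟩ + ⟨y, hy⟩ := rfl
      rw [h1, map_add]
      exact Subring.add_mem _ ihx ihy
    | mul x y hx hy ihx ihy =>
      have h1 : (⟨x * y, Subalgebra.mul_mem _ hx hy⟩ : heckeAlgebra M 2 (↑S : Set ℕ))
          = ⟨x, hx⟩ * ⟨y, hy⟩ := rfl
      rw [h1, map_mul]
      exact Subring.mul_mem _ ihx ihy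
  have hmem : ∀ t : heckeAlgebra M 2 (↑S : Set ℕ), θ'' t ∈ ι.range := fun t => key t.1 t.2
  choose f hf using hmem
  have hinj : Function.Injective ι := ι.injective
  refine ⟨{ toFun := f
            map_one' := hinj (by rw [hf, map_one, map_one])
            map_mul' := fun x y => hinj (by rw [hf, map_mul, map_mul, hf, hf])
            map_zero' := hinj (by rw [hf, map_zero, map_zero])
            map_add' := fun x y => hinj (by rw [hf, map_add, map_add, hf, hf]) }, hf⟩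

/-- **PV-OLD from the point-level new case.** -/
theorem pvOld_of_ramNew (hR : Stmt_RamNew) : Stmt_PVOld := by
  intro 𝒪 _ _ _ _ _ _ p _ hp2 hp𝒪 N _ S hpS hNS θ T _ _ _ _ _ _ _ _ H hdet q hq hqp hqN hq2N
    𝔱 h𝔱 hp𝔱 hunr _
  classical
  have hp : p.Prime := Fact.out
  by_contra hne
  -- the domain `T ⧸ 𝔱` is finite and faithful over `𝒪`
  haveI : 𝔱.IsPrime := h𝔱
  have hinjD : Function.Injective (algebraMap 𝒪 (T ⧸ 𝔱)) := by
    rw [injective_iff_map_eq_zero]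
    intro a ha
    by_contra ha0
    -- the kernel is a nonzero prime ideal of `𝒪`, hence the maximal ideal
    set 𝔭 : Ideal 𝒪 := RingHom.ker (algebraMap 𝒪 (T ⧸ 𝔱)) with h𝔭
    have h𝔭prime : 𝔭.IsPrime := RingHom.ker_isPrime _
    have h𝔭ne : 𝔭 ≠ ⊥ := fun h => ha0 ((Ideal.mem_bot).1 (h ▸ (RingHom.mem_ker.2 ha)))
    have h𝔭max : 𝔭.IsMaximal := h𝔭prime.isMaximal h𝔭ne
    have h𝔭eq : 𝔭 = maximalIdeal 𝒪 := IsLocalRing.eq_maximalIdeal h𝔭max
    have hpker : (p : 𝒪) ∈ 𝔭 := h𝔭eq ▸ hp𝒪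
    rw [h𝔭, RingHom.mem_ker, map_natCast] at hpker
    apply hp𝔱
    have : (Ideal.Quotient.mk 𝔱) (p : T) = 0 := by rw [map_natCast]; exact hpker
    exact Ideal.Quotient.eq_zero_iff_mem.1 this
  haveI : FaithfulSMul 𝒪 (T ⧸ 𝔱) := (faithfulSMul_iff_algebraMap_injective 𝒪 (T ⧸ 𝔱)).2 hinjD
  obtain ⟨O', iCR, iD, iDVR, iAC, iFin, iCZ, iAlg, iMF, iLH, j, hinjO', hjinj, hjO, hjmax⟩ :=
    Fermat.Agent.R.H2.exists_dvr_of_finite_domain 𝒪 (T ⧸ 𝔱)
  -- the point `ψ : T → O'`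
  set ψ : T →+* O' := j.comp (Ideal.Quotient.mk 𝔱) with hψdef
  have hψ : IsLocalHom ψ := by
    obtain ⟨𝔫, h𝔫⟩ := Ideal.exists_maximal (T ⧸ 𝔱)
    have h1 : (maximalIdeal O').comap j = 𝔫 := hjmax 𝔫 h𝔫
    have h2 : (𝔫.comap (Ideal.Quotient.mk 𝔱)).IsMaximal :=
      Ideal.comap_isMaximal_of_surjective _ Ideal.Quotient.mk_surjective
    have h3 : 𝔫.comap (Ideal.Quotient.mk 𝔱) = maximalIdeal T := IsLocalRing.eq_maximalIdeal h2
    constructor
    intro x hx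
    by_contra hxu
    have hxm : x ∈ maximalIdeal T := (IsLocalRing.mem_maximalIdeal x).2 hxu
    rw [← h3, Ideal.mem_comap, ← h1, Ideal.mem_comap] at hxm
    exact (IsLocalRing.mem_maximalIdeal _).1 hxm hx
  have hψO : ∀ a : 𝒪, ψ (algebraMap 𝒪 T a) = algebraMap 𝒪 O' a := fun a => by
    rw [hψdef, RingHom.comp_apply]
    exact hjO a
  have hψ𝔱 : ∀ a ∈ 𝔱, ψ a = 0 := fun a ha => by
    rw [hψdef, RingHom.comp_apply, Ideal.Quotient.eq_zero_iff_mem.2 ha, map_zero]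
  have hpO' : (p : O') ∈ maximalIdeal O' := by
    have h1 : (p : O') = algebraMap 𝒪 O' (p : 𝒪) := by rw [map_natCast]
    rw [h1, mem_maximalIdeal, mem_nonunits_iff]
    intro hu
    have := (isUnit_map_iff (algebraMap 𝒪 O') (p : 𝒪)).1 hu
    exact ((mem_maximalIdeal _).1 hp𝒪) this
  -- the eigensystem and the representation at the point
  set χ : heckeAlgebra N 2 (↑S : Set ℕ) →+* O' := ψ.comp H.π with hχ
  have hρ : HasFrobCharpoly χ (H.ρ.baseChangeAlong ψ hψ) :=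
    Fermat.Agent.R.H86.hasFrobCharpoly_baseChangeAlong ψ hψ H.π H.ρ
      (fun ℓ hℓ hℓN hℓS B hB σ hσ => H.charpoly_frob ℓ hℓ hℓN hℓS B hB σ hσ)
  have habs : (H.ρ.baseChangeAlong ψ hψ).residual.IsAbsolutelyIrreducible :=
    Fermat.Agent.R.H86.residual_absIrr_baseChangeAlong ψ hψ H.ρ H.residual_absIrr
  have hunr' : (H.ρ.baseChangeAlong ψ hψ).IsUnramifiedAt q := fun A hA σ hσ =>
    baseChangeAlong_eq_one_of_sub_mem ψ hψ H.ρ 𝔱 hψ𝔱 σ (hunr A hA σ hσ)
  -- the level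
  have hNM : N = N / q * q := (Nat.div_mul_cancel hqN).symm
  have hqM : ¬ q ∣ N / q := by
    rintro ⟨c, hc⟩
    apply hq2N
    refine ⟨c, ?_⟩
    rw [hNM, hc]
    ring
  refine hR p N (N / q) q S O' hp hpO' hq hqp hNM hqM hpS hNS χ _ hρ habs ?_ hunr'
  rintro ⟨χ', hχ'⟩
  apply hne
  have hMS : ∀ q' : ℕ, q'.Prime → q' ∣ N / q → q' ∈ S := fun q' hq' h =>
    hNS q' hq' (h.trans (Nat.div_dvd_of_dvd hqN))
  -- the reduction of `χ'` takes values in the residue field of `𝒪`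
  obtain ⟨θ', hθ'⟩ := exists_corestrict S hMS
    (IsLocalRing.ResidueField.map (algebraMap 𝒪 O')) ((residue O').comp χ') (by
      intro ℓ hℓ hℓM hℓS
      have hℓN : ¬ ℓ ∣ N := fun h => hℓS (Finset.mem_coe.2 (hNS ℓ hℓ h))
      refine ⟨θ (heckeAlgebra.T hℓ hℓN hℓS), ?_⟩
      rw [RingHom.comp_apply, hχ' ℓ hℓ hℓN hℓM hℓS, hχ, RingHom.comp_apply]
      obtain ⟨a, ha⟩ := IsLocalRing.residue_surjective (θ (heckeAlgebra.T hℓ hℓN hℓS))
      have h1 := H.residue_π (heckeAlgebra.T hℓ hℓN hℓS)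
      rw [← ha, IsLocalRing.ResidueField.map_residue] at h1
      rw [← ha, IsLocalRing.ResidueField.map_residue, ← hψO a]
      have h2 : H.π (heckeAlgebra.T hℓ hℓN hℓS) - algebraMap 𝒪 T a ∈ maximalIdeal T := by
        rw [← IsLocalRing.residue_eq_zero_iff, map_sub, h1, sub_self]
      have h3 : ψ (H.π (heckeAlgebra.T hℓ hℓN hℓS) - algebraMap 𝒪 T a) ∈ maximalIdeal O' := by
        rw [mem_maximalIdeal, mem_nonunits_iff]
        intro hu
        exact ((mem_maximalIdeal _).1 h2) ((isUnit_map_iff ψ _).1 hu)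
      rw [map_sub, ← IsLocalRing.residue_eq_zero_iff, map_sub, sub_eq_zero] at h3
      exact h3.symm)
  refine ⟨θ', fun ℓ hℓ hℓN hℓS hℓM => ?_⟩
  apply (IsLocalRing.ResidueField.map (algebraMap 𝒪 O')).injective
  rw [hθ', RingHom.comp_apply, hχ' ℓ hℓ hℓN hℓM hℓS, hχ, RingHom.comp_apply]
  obtain ⟨a, ha⟩ := IsLocalRing.residue_surjective (θ (heckeAlgebra.T hℓ hℓN hℓS))
  have h1 := H.residue_π (heckeAlgebra.T hℓ hℓN hℓS)
  rw [← ha, IsLocalRing.ResidueField.map_residue] at h1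
  rw [← ha, IsLocalRing.ResidueField.map_residue, ← hψO a]
  have h2 : H.π (heckeAlgebra.T hℓ hℓN hℓS) - algebraMap 𝒪 T a ∈ maximalIdeal T := by
    rw [← IsLocalRing.residue_eq_zero_iff, map_sub, h1, sub_self]
  have h3 : ψ (H.π (heckeAlgebra.T hℓ hℓN hℓS) - algebraMap 𝒪 T a) ∈ maximalIdeal O' := by
    rw [mem_maximalIdeal, mem_nonunits_iff]
    intro hu
    exact ((mem_maximalIdeal _).1 h2) ((isUnit_map_iff ψ _).1 hu)
  rw [map_sub, ← IsLocalRing.residue_eq_zero_iff, map_sub, sub_eq_zero] at h3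
  exact h3

/-- **PV-OLD** from the Tate piece with inertia invariants. -/
theorem stmt_PVOld_of (hT : Stmt_TatePieceStI) : Stmt_PVOld :=
  pvOld_of_ramNew (ramNew_of_tatePieceStI hT)

end Fermat.Agent.L.Pivot.H50

end
-- ==== END Fermat.Agent.L.Pivot.H50_Old

-- ==== BEGIN Fermat.Agent.L.Pivot.H50_StICore
section
attribute [local instance 10000] SubalgebraClass.toAlgebra
attribute [local instance 10000] HahnSeries.powerSeriesAlgebra

/-!
# PIVOT, PV-OLD (helper50): the Kummer form `Stmt_StICore` of (StI) and its level descent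

`Stmt_StICore M q p` (`q ∤ M` is not assumed here): for every valuation ring `A` of `ℚ̄` over `q`
and every Frobenius `σ` at `A` there is `c` such that for every `m` and every function `f ≠ 0` of
level `M q` with

* `p ^ m ∣ div f`,
* `f` fixed by the inertia group of `A` (coefficientwise action `galF`),
* the push-forwards of `div f` along the two degeneracy maps to level `M` are `p ^ m · div g`,
  `p ^ m · div g'`,

the function `((σ² f) / f ^ (q²)) ^ (p ^ c)` is a `p ^ m`-th power in `F_{M q} · ℚ̄`.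

* `torsStI_of_core : Stmt_StICore M q p → Stmt_TorsStI M q p` (Hilbert 90 descent `stmt_NUB0`);
* `stICore_descend_gen : Stmt_StICore (r * M) q p → Stmt_StICore M q p` for `r ∣ 36`, `q ∤ r`;
* `stICore_all`, `torsStI_all`: from the thin levels
  (`6 ∣ M` for `q ≥ 5`, `4 ∣ M` for `q = 3`, `9 ∣ M` for `q = 2`).
-/

set_option autoImplicit false
set_option linter.style.haveILetI false
set_option linter.unusedSectionVars false
set_option maxHeartbeats 1000000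

noncomputable section

namespace Fermat.Agent.L.Pivot.H50

open AlgebraicCurve ModularCurve Fermat.Agent.S24 Fermat.Agent.Lib.HeckeComm
  Fermat.Agent.S36.H44 Fermat.Agent.BAD Fermat.Agent.S35.H89 Fermat.Agent.S35.H44

local notation "Kb" => AlgebraicClosure ℚ

/-- **Kummer form of (StI)** at `(M, q, p)`. -/
def Stmt_StICore (M q p : ℕ) [NeZero M] [NeZero q] : Prop :=
  ∀ A : ValuationSubring Kb, A.LiesOverPrime q → ∀ σ : GalQ, A.IsFrobeniusAt σ q →
    ∃ c : ℕ, ∀ (m : ℕ) (f : ↥(FNbar (M * q))), f ≠ 0 →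
      (∀ P : Place Kb ↥(FNbar (M * q)), ((p ^ m : ℕ) : ℤ) ∣ P.ord f) →
      (∀ τ ∈ A.inertiaSubgroupIn ℚ, galF (M * q) τ • f = f) →
    ∀ (hα : HeckeAlphaBarIntegral Kb M q) (hβ : HeckeBetaBarIntegral Kb M q)
      (D : Divisor Kb ↥(FNbar (M * q))), (∀ P, D P = P.ord f) →
      (∃ g : ↥(FNbar M), g ≠ 0 ∧ ∀ Q : Place Kb ↥(FNbar M),
        Divisor.pushforwardAlong (heckeAlphaBar Kb M q) hα D Q = (p ^ m : ℕ) * Q.ord g) →
      (∃ g : ↥(FNbar M), g ≠ 0 ∧ ∀ Q : Place Kb ↥(FNbar M),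
        Divisor.pushforwardAlong (heckeBetaBar Kb M q) hβ D Q = (p ^ m : ℕ) * Q.ord g) →
      ∃ t : ↥(FNbar (M * q)), t ^ (p ^ m) =
        ((galF (M * q) (σ * σ) • f) / f ^ (q ^ 2)) ^ (p ^ c)

/-- **`Stmt_TorsStI` from the Kummer form** (Hilbert 90 descent B0 of helper61). -/
theorem torsStI_of_core (M q p : ℕ) [NeZero M] [NeZero q] (hS : Stmt_StICore M q p) :
    Stmt_TorsStI M q p := by
  intro hq hqM hp hqp A hA σ hσ
  obtain ⟨c, hc⟩ := hS A hA σ hσ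
  refine ⟨c, ?_⟩
  intro x hx hnew hI
  obtain ⟨m, hm⟩ := hx
  obtain ⟨D, h, hh0, rfl, hDh, -, hhI, -, -⟩ :=
    Fermat.Agent.S36.H61.stmt_NUB0 (M * q) (A.inertiaSubgroupIn ℚ) (p ^ m) x hm hI
  obtain ⟨hpa, hpb⟩ := (isQNew_iff M q _).mp hnew
  have hDα := (pic0Push_mk_eq_zero_iff _ _ _ _ D).mp hpa
  have hDβ := (pic0Push_mk_eq_zero_iff _ _ _ _ D).mp hpb
  set n : ℕ := p ^ m with hn
  have hn0 : n ≠ 0 := pow_ne_zero _ hp.ne_zero
  have hnZ : (n : ℤ) ≠ 0 := by exact_mod_cast hn0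
  -- the divisor of `h`
  set Df : Divisor Kb ↥(FNbar (M * q)) := (n : ℤ) • (D : Divisor Kb ↥(FNbar (M * q))) with hDf
  have hDf' : ∀ P, Df P = P.ord h := by
    intro P
    rw [← hDh P, hDf]
    simp
  have hdiv : ∀ P : Place Kb ↥(FNbar (M * q)), (n : ℤ) ∣ P.ord h :=
    fun P => ⟨_, (hDh P).symm⟩
  have hpush : ∀ (φ : ↥(FNbar M) →ₐ[Kb] ↥(FNbar (M * q))) (hφ : φ.toRingHom.IsIntegral),
      (Divisor.pushforwardAlong φ hφ (D : Divisor Kb ↥(FNbar (M * q)))).IsPrincipal →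
      ∃ g : ↥(FNbar M), g ≠ 0 ∧ ∀ Q : Place Kb ↥(FNbar M),
        Divisor.pushforwardAlong φ hφ Df Q = n * Q.ord g := by
    rintro φ hφ ⟨g, hg0, hg⟩
    refine ⟨g, hg0, fun Q => ?_⟩
    rw [hDf, map_zsmul, Finsupp.smul_apply, smul_eq_mul, hg Q]
  obtain ⟨t, ht⟩ := hc m h hh0 hdiv hhI (alpha_integral M q) (beta_integral M q) Df hDf'
    (hpush _ _ hDα) (hpush _ _ hDβ)
  -- the class
  set τ : SemilinearAut Kb ↥(FNbar (M * q)) := galF (M * q) (σ * σ) with hτdef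
  have hσ2 : ∀ y : JZero (M * q), σ • σ • y = τ • y := by
    intro y
    rw [← mul_smul]
    rfl
  have hτh0 : τ • h ≠ 0 := smul_ne_zero_of_ne_zero τ hh0
  have hR0 : (τ • h) / h ^ (q ^ 2) ≠ 0 := div_ne_zero hτh0 (pow_ne_zero _ hh0)
  have ht0 : t ≠ 0 := by
    rintro rfl
    rw [zero_pow hn0] at ht
    exact pow_ne_zero _ hR0 ht.symm
  rw [hσ2, SemilinearAut.pic0_smul_mk, ← Fermat.Agent.S35.H89.pic0_mk_nsmul,
    ← Fermat.Agent.S35.H89.pic0_mk_sub, ← Fermat.Agent.S35.H89.pic0_mk_nsmul,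
    Fermat.Agent.S35.H89.pic0_mk_eq_zero_iff]
  refine ⟨t, ht0, fun P => ?_⟩
  have hordτ : ∀ (P : Place Kb ↥(FNbar (M * q))) (y : ↥(FNbar (M * q))),
      P.ord (τ • y) = (τ⁻¹ • P).ord y := fun P y => ord_smul_eq τ P y
  have h1 : (n : ℤ) * P.ord t = (p ^ c : ℕ) * P.ord ((τ • h) / h ^ (q ^ 2)) := by
    rw [← Fermat.Agent.RED.H17.ord_pow, ← Fermat.Agent.RED.H17.ord_pow, ht]
  rw [Fermat.Agent.RED.H17.ord_div P hτh0 (pow_ne_zero _ hh0), Fermat.Agent.RED.H17.ord_pow,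
    hordτ, ← hDh, ← hDh] at h1
  apply mul_left_cancel₀ hnZ
  rw [h1]
  simp only [AddSubgroup.coe_sub, AddSubgroup.coe_nsmul,
    SemilinearAut.coe_degZeroSMulHom, Finsupp.sub_apply, Finsupp.smul_apply,
    SemilinearAut.divisor_smul_apply, nsmul_eq_mul]
  push_cast
  ring

/-- **DESC-StI**: the Kummer form of (StI) descends from level `r M q` to level `M q`
(`r ∣ 36`, `q ∤ r`). -/
theorem stICore_descend_gen (M q p r : ℕ) [NeZero M] [NeZero q] [NeZero r] (hq : q.Prime)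
    (hp : p.Prime) (hqM : ¬ q ∣ M) (hr36 : r ∣ 36) (hqr : ¬ q ∣ r)
    (h : Stmt_StICore (r * M) q p) : Stmt_StICore M q p := by
  intro A hA σ hσ
  obtain ⟨c, hc⟩ := h A hA σ hσ
  refine ⟨c, ?_⟩
  intro m f hf0 hdiv hI hαI hβI D hD hDα hDβ
  obtain ⟨g, hg0, hg⟩ := hDα
  obtain ⟨g', hg'0, hg'⟩ := hDβ
  set n : ℕ := p ^ m with hn
  have hn0 : 0 < n := pow_pos hp.pos m
  -- the function at the upper level
  have hf'0 : inclUp M q r f ≠ 0 := fun h0 =>
    hf0 ((inclUp M q r).toRingHom.injective (by simpa using h0))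
  set f' : FN (r * M * q) := inclUp M q r f with hf'
  have hdiv' : ∀ P' : Place Kb (FN (r * M * q)), (n : ℤ) ∣ P'.ord f' := by
    intro P'
    rw [hf', Place.ord_restrictAlong (inclUp M q r) (inclUp_integral M q r)]
    exact Dvd.dvd.mul_left (hdiv _) _
  have hI' : ∀ τ ∈ A.inertiaSubgroupIn ℚ, galF (r * M * q) τ • f' = f' := by
    intro τ hτ
    rw [hf', ← inclUp_galF, hI τ hτ]
  haveI := hasPrincipalDivisors_FN (r * M * q)
  obtain ⟨D', hD', -⟩ := HasPrincipalDivisors.exists_divisor (K := Kb) f' hf'0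
  have hinj : ∀ x : FN M, x ≠ 0 → inclLo M r x ≠ 0 := fun x hx h0 =>
    hx ((inclLo M r).toRingHom.injective (by simpa using h0))
  obtain ⟨t', ht'⟩ := hc m f' hf'0 hdiv' hI' (alpha_integral (r * M) q)
    (beta_integral (r * M) q) D' hD'
    ⟨inclLo M r g, hinj g hg0, fun Q' =>
      push_up M q r (heckeAlphaBar Kb M q) (heckeAlphaBar Kb (r * M) q) hαI
        (alpha_integral (r * M) q) (norm_alpha_up M q r hq hqM hqr) n f hf0 D hD g hg D' hD' Q'⟩
    ⟨inclLo M r g', hinj g' hg'0, fun Q' =>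
      push_up M q r (heckeBetaBar Kb M q) (heckeBetaBar Kb (r * M) q) hβI
        (beta_integral (r * M) q) (norm_beta_up M q r hq hqM hqr) n f hf0 D hD g' hg' D' hD' Q'⟩
  -- the right hand side at level `M q`
  set τ : SemilinearAut Kb (FN (M * q)) := galF (M * q) (σ * σ) with hτ
  set R : FN (M * q) := ((τ • f) / f ^ (q ^ 2)) ^ (p ^ c) with hR
  have hτf0 : τ • f ≠ 0 := smul_ne_zero_of_ne_zero τ hf0
  have hdivR : ∀ P : Place Kb (FN (M * q)), (n : ℤ) ∣ P.ord R := by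
    intro P
    rw [hR, Fermat.Agent.RED.H17.ord_pow, div_eq_mul_inv,
      Place.ord_mul _ hτf0 (inv_ne_zero (pow_ne_zero _ hf0)), Place.ord_inv,
      Fermat.Agent.RED.H17.ord_pow]
    have h2 : (n : ℤ) ∣ P.ord f := hdiv P
    have h3 : (n : ℤ) ∣ P.ord (τ • f) := by
      rw [hτ, Fermat.Agent.BAD.H91.ord_galF_smul]
      exact hdiv _
    exact Dvd.dvd.mul_left (dvd_add h3 ((dvd_neg).2 (Dvd.dvd.mul_left h2 _))) _
  have hup : inclUp M q r R
      = ((galF (r * M * q) (σ * σ) • f') / f' ^ (q ^ 2)) ^ (p ^ c) := by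
    rw [hR, map_pow, map_div₀, map_pow, hτ, inclUp_galF]
  have hM36 : r * M * q ∣ 36 * (M * q) := by
    obtain ⟨c, hc⟩ := hr36
    exact ⟨c, by rw [hc]; ring⟩
  refine Fermat.Agent.RED.KD.H22.stmt_KD (M * q) (r * M * q) n (dvd_up M q r) hM36 hn0 R hdivR
    ⟨(t' : LaurentSeries Kb), t'.2, ?_⟩
  have h3 := congrArg (Subtype.val : FN (r * M * q) → LaurentSeries Kb) (ht'.trans hup.symm)
  have h4 : ((t' : FN (r * M * q)) : LaurentSeries Kb) ^ n
      = ((inclUp M q r R : FN (r * M * q)) : LaurentSeries Kb) := h3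
  rw [h4, coe_inclUp]

/-- The **thin levels**: no supersingular point of `X₀(M)` in characteristic `q` has an extra
automorphism (helper60's `S43.CompEis.H60.Thin`). -/
def ThinLevel (M q : ℕ) : Prop := (5 ≤ q ∧ 6 ∣ M) ∨ (q = 3 ∧ 4 ∣ M) ∨ (q = 2 ∧ 9 ∣ M)

/-- **The Kummer form of (StI) at every `(M, q)`, `q ∤ M`, from the thin levels.** -/
theorem stICore_all (q p : ℕ) [NeZero q] (hq : q.Prime) (hp : p.Prime)
    (h : ∀ (M : ℕ) [NeZero M], ¬ q ∣ M → ThinLevel M q → Stmt_StICore M q p)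
    (M : ℕ) [NeZero M] (hqM : ¬ q ∣ M) : Stmt_StICore M q p := by
  have key : ∀ r : ℕ, r ∣ 36 → r ≠ 0 → ¬ q ∣ r → ThinLevel (r * M) q → Stmt_StICore M q p := by
    intro r hr36 hr0 hqr hthin
    haveI : NeZero r := ⟨hr0⟩
    refine stICore_descend_gen M q p r hq hp hqM hr36 hqr (h (r * M) ?_ hthin)
    intro hd
    rcases (Nat.Prime.dvd_mul hq).mp hd with h1 | h1
    · exact hqr h1
    · exact hqM h1
  by_cases h5 : 5 ≤ q
  · refine key 6 (by norm_num) (by norm_num) ?_ (Or.inl ⟨h5, dvd_mul_right 6 M⟩)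
    intro hd
    have := Nat.le_of_dvd (by norm_num) hd
    have h6 : q = 5 ∨ q = 6 := by omega
    rcases h6 with h6 | h6
    · rw [h6] at hd
      norm_num at hd
    · rw [h6] at hq
      exact absurd hq (by norm_num)
  have hq2 : 2 ≤ q := hq.two_le
  have h23 : q = 2 ∨ q = 3 ∨ q = 4 := by omega
  rcases h23 with h23 | h23 | h23
  · refine key 9 (by norm_num) (by norm_num) ?_ (Or.inr (Or.inr ⟨h23, dvd_mul_right 9 M⟩))
    rw [h23]
    norm_num
  · refine key 4 (by norm_num) (by norm_num) ?_ (Or.inr (Or.inl ⟨h23, dvd_mul_right 4 M⟩))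
    rw [h23]
    norm_num
  · rw [h23] at hq
    exact absurd hq (by norm_num)

/-- **`Stmt_TorsStI` at every level from the Kummer form at the thin levels.** -/
theorem torsStI_all
    (h : ∀ (M q p : ℕ) [NeZero M] [NeZero q], q.Prime → ¬ q ∣ M → p.Prime → q ≠ p →
      ThinLevel M q → Stmt_StICore M q p)
    (M q p : ℕ) [NeZero M] [NeZero q] : Stmt_TorsStI M q p := by
  intro hq hqM hp hqp
  exact torsStI_of_core M q p
    (stICore_all q p hq hp (fun M' _ hqM' ht => h M' q p hq hqM' hp hqp ht) M hqM)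
    hq hqM hp hqp

end Fermat.Agent.L.Pivot.H50

end
end
-- ==== END Fermat.Agent.L.Pivot.H50_StICore

-- ==== BEGIN Fermat.Agent.L.Pivot.H52_LocType
section

set_option autoImplicit false

namespace Fermat.Agent.L.Pivot.H52

/-- **PV-LOC-TYPE.** -/
theorem stmt_PVLoc_type : Stmt_PVLoc_type :=
  stmt_PVLoc_type_of stmt_TypePrime Fermat.Agent.L.Pivot.H01.stmt_TypeDim
    Fermat.Agent.L.Pivot.H76.stmt_TypeKill stmt_TypeLeQ

end Fermat.Agent.L.Pivot.H52

end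
-- ==== END Fermat.Agent.L.Pivot.H52_LocType

-- ==== BEGIN Fermat.Agent.L.Pivot.H59_Tame1
section

/-!
# PIVOT, package PV-TAME (helper59): `Stmt_PVTame1`

If `ρ(τ) ≡ 1 mod J` for a uniform generator `τ` of the tame inertia at ONE place `P` over `q`,
then `ρ ≡ 1 mod J` on the inertia groups of ALL places over `q` (`ρ` residually unramified at
`q ≠ p`).
-/

set_option autoImplicit false
set_option linter.style.haveILetI false

namespace Fermat.Agent.L.Pivot.H59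

open IsLocalRing Fermat.Agent.S59.TWGal TensorProduct

/-- If the reduction of `f` modulo `𝔪` is the identity then `f v - v ∈ 𝔪 V`. -/
theorem sub_mem_of_baseChange_eq_one {A : Type} [CommRing A] [IsLocalRing A] {V : Type}
    [AddCommGroup V] [Module A V] (b : Module.Basis (Fin 2) A V) (f : Module.End A V)
    (h : f.baseChange (ResidueField A) = 1) (v : V) :
    f v - v ∈ maximalIdeal A • (⊤ : Submodule A V) := by
  have h1 : (1 : ResidueField A) ⊗ₜ[A] (f v - v) = 0 := by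
    have h2 := congrArg (fun g : Module.End (ResidueField A) (ResidueField A ⊗[A] V) =>
      g ((1 : ResidueField A) ⊗ₜ[A] v)) h
    simp only [LinearMap.baseChange_tmul, Module.End.one_apply] at h2
    rw [TensorProduct.tmul_sub, h2, sub_self]
  have h3 : ∀ i, b.repr (f v - v) i ∈ maximalIdeal A := by
    intro i
    have h4 := congrArg (fun w => (b.baseChange (ResidueField A)).repr w i) h1
    simp only [Module.Basis.baseChange_repr_tmul, map_zero, Finsupp.zero_apply] at h4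
    rw [Algebra.smul_def, mul_one, ResidueField.algebraMap_eq] at h4
    exact (residue_eq_zero_iff _).1 h4
  rw [← b.sum_repr (f v - v)]
  exact Submodule.sum_mem _ fun i _ => Submodule.smul_mem_smul (h3 i) Submodule.mem_top

/-- The `J`-clause of `tame_adic` from the cyclicity clause alone. -/
theorem tame_adic_gen (A : Type) [CommRing A] [IsLocalRing A] [IsNoetherianRing A]
    (p : ℕ) (hp : p.Prime) (hpA : (p : A) ∈ maximalIdeal A) (ρ : GaloisRepAdic A)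
    (q : ℕ) (hq : q.Prime) (hqp : q ≠ p) (P : ValuationSubring Qb)
    (hI : ∀ σ ∈ P.inertiaSubgroupIn ℚ, ∀ v : ρ.V,
      ρ.ρ σ v - v ∈ maximalIdeal A • (⊤ : Submodule A ρ.V))
    (τ₀ : GQ) (hτ₀ : τ₀ ∈ P.inertiaSubgroupIn ℚ)
    (hτ : ∀ F : IntermediateField ℚ Qb, FiniteDimensional ℚ F →
      ∀ σ ∈ P.inertiaSubgroupIn ℚ, ∃ j e : ℕ, ((τ₀ ^ j)⁻¹ * σ) ^ (q ^ e) ∈ F.fixingSubgroup)
    (J : Ideal A) (hJ : ∀ v : ρ.V, ρ.ρ τ₀ v - v ∈ J • (⊤ : Submodule A ρ.V))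
    (σ : GQ) (hσ : σ ∈ P.inertiaSubgroupIn ℚ) (v : ρ.V) :
    ρ.ρ σ v - v ∈ J • (⊤ : Submodule A ρ.V) := by
  classical
  have hMU := H01.stmt_MatUnip
  have hcop : ∀ e : ℕ, (q ^ e).Coprime p :=
    fun e => Nat.Coprime.pow_left e ((Nat.coprime_primes hq hp).2 hqp)
  let b : Module.Basis (Fin 2) A ρ.V := Module.finBasisOfFinrankEq A ρ.V ρ.finrank_eq
  let μ : GQ →* Matrix (Fin 2) (Fin 2) A :=
    ((LinearMap.toMatrixAlgEquiv b : Module.End A ρ.V ≃ₐ[A] _) : Module.End A ρ.V →* _).comp ρ.ρ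
  have hμ : ∀ g, μ g = mat b (ρ.ρ g) := fun _ => rfl
  have hτJ : ∀ i j, (μ τ₀ - 1) i j ∈ J := mat_sub_one_mem b J _ hJ
  refine sub_mem_smul_top_of_mat b J (ρ.ρ σ) (fun i j => ?_) v
  refine mem_of_forall_mem_sup_pow J _ fun N => ?_
  obtain ⟨L, hL, hcont⟩ := ρ.isAdicContinuous N
  have hfix : ∀ u ∈ L.fixingSubgroup, red (maximalIdeal A ^ N) (μ u) = 1 := by
    intro u hu
    rw [red_eq_one_iff]
    exact mat_sub_one_mem b _ _
      (hcont u (fun x hx => (IntermediateField.mem_fixingSubgroup_iff L u).1 hu x hx))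
  obtain ⟨j', e, hje⟩ := hτ L hL σ hσ
  have hw : (τ₀ ^ j')⁻¹ * σ ∈ P.inertiaSubgroupIn ℚ := mul_mem (inv_mem (pow_mem hτ₀ j')) hσ
  have h1 : red (maximalIdeal A ^ N) (μ ((τ₀ ^ j')⁻¹ * σ)) = 1 := by
    rw [red_eq_one_iff]
    refine hMU A (maximalIdeal A) p (q ^ e) N hpA (hcop e) (μ ((τ₀ ^ j')⁻¹ * σ)) ?_ ?_
    · exact mat_sub_one_mem b _ _ (hI _ hw)
    · rw [← map_pow, ← red_eq_one_iff]
      exact hfix _ hje
  have key : ∀ W : GQ, red (maximalIdeal A ^ N) (μ W) = 1 → σ = τ₀ ^ j' * W →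
      red (maximalIdeal A ^ N) (μ σ - μ τ₀ ^ j') = 0 := by
    intro W hW h2
    have h3 : μ σ = μ τ₀ ^ j' * μ W := by rw [h2, map_mul, map_pow]
    rw [h3, map_sub, map_mul, hW, mul_one, sub_self]
  have h3 : red (maximalIdeal A ^ N) (μ σ - μ τ₀ ^ j') = 0 := key _ h1 (by group)
  have h4 : (μ σ - μ τ₀ ^ j') i j ∈ maximalIdeal A ^ N := by
    rw [← red_apply_eq_zero_iff, h3, Matrix.zero_apply]
  have h5 : (μ τ₀ ^ j' - 1) i j ∈ J := pow_sub_one_mem J _ hτJ j' i j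
  have h6 : (mat b (ρ.ρ σ) - 1) i j = (μ τ₀ ^ j' - 1) i j + (μ σ - μ τ₀ ^ j') i j := by
    rw [← hμ, Matrix.sub_apply, Matrix.sub_apply, Matrix.sub_apply]
    ring
  rw [h6]
  exact Submodule.add_mem_sup h5 h4

/-- **`Stmt_PVTame1`.** -/
theorem stmt_PVTame1 : Stmt_PVTame1 := by
  intro A _ _ _ _ p _ hpA ρ q hq hqp hunr P hP τ hτ J hJ A' hA' σ hσ v
  have hp : p.Prime := Fact.out
  let b : Module.Basis (Fin 2) A ρ.V := Module.finBasisOfFinrankEq A ρ.V ρ.finrank_eq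
  have hI : ∀ σ ∈ P.inertiaSubgroupIn ℚ, ∀ v : ρ.V,
      ρ.ρ σ v - v ∈ maximalIdeal A • (⊤ : Submodule A ρ.V) := by
    intro s hs w
    exact sub_mem_of_baseChange_eq_one b (ρ.ρ s) (hunr P hP s hs) w
  have hgen : ∀ F : IntermediateField ℚ Qb, FiniteDimensional ℚ F →
      ∀ σ ∈ P.inertiaSubgroupIn ℚ, ∃ j e : ℕ,
        ((τ ^ j)⁻¹ * σ) ^ (q ^ e) ∈ F.fixingSubgroup := by
    intro F hF s hs
    obtain ⟨i, e, h⟩ := hτ.2 F hF s hs
    exact ⟨i, e, (IntermediateField.mem_fixingSubgroup_iff F _).2 h⟩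
  have hP1 : ∀ s ∈ P.inertiaSubgroupIn ℚ, ∀ w : ρ.V,
      ρ.ρ s w - w ∈ J • (⊤ : Submodule A ρ.V) := fun s hs w =>
    tame_adic_gen A p hp hpA ρ q hq hqp P hI τ hτ.1 hgen J hJ s hs w
  -- conjugate places
  obtain ⟨g, hg⟩ := Fermat.Agent.Lib.InertiaConj.exists_conj_mem_inertia q hq P A' hP hA'
  have hs := (hg σ).1 hσ
  have h1 := hP1 _ hs (ρ.ρ g⁻¹ v)
  have h2 : ρ.ρ σ v - v = ρ.ρ g (ρ.ρ (g⁻¹ * σ * g) (ρ.ρ g⁻¹ v) - ρ.ρ g⁻¹ v) := by
    rw [map_sub]
    have e1 : ∀ (a c : GQ) (w : ρ.V), ρ.ρ a (ρ.ρ c w) = ρ.ρ (a * c) w := by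
      intro a c w
      rw [map_mul]
      rfl
    rw [e1, e1, e1]
    have e2 : g * (g⁻¹ * σ * g) * g⁻¹ = σ := by group
    rw [e2, mul_inv_cancel, map_one]
    rfl
  rw [h2]
  -- `J V` is stable under `A`-linear maps
  have hstab : ∀ (f : Module.End A ρ.V) (w : ρ.V), w ∈ J • (⊤ : Submodule A ρ.V) →
      f w ∈ J • (⊤ : Submodule A ρ.V) := by
    intro f w hw
    refine Submodule.smul_induction_on hw ?_ ?_
    · intro a ha x _
      rw [map_smul]
      exact Submodule.smul_mem_smul ha Submodule.mem_top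
    · intro x y hx hy
      rw [map_add]
      exact add_mem hx hy
  exact hstab _ _ h1

end Fermat.Agent.L.Pivot.H59

end
-- ==== END Fermat.Agent.L.Pivot.H59_Tame1

-- ==== BEGIN Fermat.Agent.L.Pivot.H72_PVGalAGen
section

set_option autoImplicit false
set_option linter.unusedSectionVars false
set_option linter.style.haveILetI false

namespace Fermat.Agent.L.Pivot.H72

open IsLocalRing Fermat.Agent.S53 Fermat.Agent.S56
open scoped TensorProduct

/-- The condition `𝒟` together with the pivot constraints `ρ (τ_j) = 1`, `ρ (frob_j)` scalar. -/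
def addPv {𝒪 : Type} [CommRing 𝒪] (𝒟 : Cond 𝒪) {k : ℕ} (Pv : PivotPrimes k) : Cond 𝒪 :=
  fun A _ _ _ ρ => 𝒟 ρ ∧
    ∀ j, ρ.ρ (Pv.τ j) = 1 ∧ ∃ c : A, ρ.ρ (Pv.frob j) = c • (1 : Module.End A ρ.V)

section MainGen

variable {𝒪 : Type} [CommRing 𝒪] [IsDomain 𝒪] [IsDiscreteValuationRing 𝒪]
  [IsAdicComplete (maximalIdeal 𝒪) 𝒪] [Finite (ResidueField 𝒪)]
variable {p : ℕ} [Fact p.Prime] {ρbar : ResidualGaloisRep (ResidueField 𝒪)}
variable {k : ℕ} {Pv : PivotPrimes k}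
variable {𝒟 : Cond 𝒪}

/-- The first-order deformation of type `addPv 𝒟 Pv` attached to a homomorphism `R → k[ε]`
killing the local coordinates. -/
theorem exists_tsub0_gen (hst : StableDual 𝒪 𝒟)
    (hdetD : ∀ ⦃A : Type⦄ [CommRing A] [IsLocalRing A] [Algebra 𝒪 A] (ρ : GaloisRepAdic A),
      𝒟 ρ → ρ.DetIsCyclotomic p)
    (hp2 : p ≠ 2) (hp𝒪 : (p : 𝒪) ∈ maximalIdeal 𝒪) (hex : Pv.IsExceptional p ρbar)
    (DQ : GaloisRep.DeformationRingData 𝒪 ρbar 𝒟)
    (b : Module.Basis (Fin 2) DQ.R DQ.ρ.V)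
    (φ : letI := dualNumberAlgebra 𝒪; DQ.R →ₐ[𝒪] DualNumber (ResidueField 𝒪))
    (hφJ : ∀ j i, φ (ucoord DQ b Pv j i) = 0) :
    letI := dualNumberAlgebra 𝒪
    ∃ (hφ : IsLocalHom (φ : DQ.R →+* DualNumber (ResidueField 𝒪)))
      (x : TSub 𝒪 ρbar (addPv 𝒟 Pv)),
      x.1 = DQ.ρ.baseChangeAlong (φ : DQ.R →+* DualNumber (ResidueField 𝒪)) hφ := by
  letI := dualNumberAlgebra 𝒪
  letI := resDualNumberAlgebra 𝒪
  have hp : p.Prime := Fact.out
  obtain ⟨hφ, x, hx⟩ := Fermat.Agent.S56.H50.exists_tsub_of_algHom hst DQ φ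
  have hFl : 𝒟 (DQ.ρ.baseChangeAlong (φ : DQ.R →+* DualNumber (ResidueField 𝒪)) hφ) :=
    hx ▸ x.2.1
  have hcyc := hdetD _ hFl
  have hres : (DQ.ρ.baseChangeAlong (φ : DQ.R →+* DualNumber (ResidueField 𝒪)) hφ).residual.IsEquiv
      (ρbar.baseChange (ResidueField (DualNumber (ResidueField 𝒪)))) := hx ▸ x.2.2
  refine ⟨hφ, ⟨DQ.ρ.baseChangeAlong (φ : DQ.R →+* DualNumber (ResidueField 𝒪)) hφ,
    ⟨hFl, fun j => ⟨?_, ?_⟩⟩, hres⟩, rfl⟩
  · -- the tame generator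
    have h01 : (φ : DQ.R →+* DualNumber (ResidueField 𝒪))
        (LinearMap.toMatrix b b (DQ.ρ.ρ (Pv.τ j)) 0 1) = 0 := hφJ j 0
    have h10 : (φ : DQ.R →+* DualNumber (ResidueField 𝒪))
        (LinearMap.toMatrix b b (DQ.ρ.ρ (Pv.τ j)) 1 0) = 0 := hφJ j 1
    have hd : (φ : DQ.R →+* DualNumber (ResidueField 𝒪))
        (LinearMap.toMatrix b b (DQ.ρ.ρ (Pv.τ j)) 0 0 -
          LinearMap.toMatrix b b (DQ.ρ.ρ (Pv.τ j)) 1 1) = 0 := hφJ j 2
    have hσ := baseChange_eq_smul_of_map (φ : DQ.R →+* DualNumber (ResidueField 𝒪)) b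
      (DQ.ρ.ρ (Pv.τ j)) h01 h10 hd
    have hσ2 : (DQ.ρ.baseChangeAlong (φ : DQ.R →+* DualNumber (ResidueField 𝒪)) hφ).ρ (Pv.τ j) =
        (φ : DQ.R →+* DualNumber (ResidueField 𝒪))
          (LinearMap.toMatrix b b (DQ.ρ.ρ (Pv.τ j)) 0 0) • 1 := hσ
    have hcop : (p ^ 1).Coprime (Pv.q j) :=
      Nat.Coprime.pow_left 1 ((Nat.coprime_primes hp (Pv.q_prime j)).2 (Ne.symm (hex j).2.1))
    have hdet0 := hcyc.2 1 (Pv.τ j) 1 (fun μ hμ => by
      rw [pow_one]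
      exact Fermat.Agent.R.H89.inertia_fixes_rootsOfUnity (Pv.q j) (Pv.P j) (Pv.P_over j)
        (Pv.τ j) (Pv.τ_gen j).1 (p ^ 1) hcop μ hμ)
    have hdet : LinearMap.det
        ((DQ.ρ.baseChangeAlong (φ : DQ.R →+* DualNumber (ResidueField 𝒪)) hφ).ρ (Pv.τ j)) = 1 := by
      rw [pow_one, natCast_p_dualNumber hp𝒪, Ideal.span_singleton_zero, Ideal.mem_bot,
        Nat.cast_one, sub_eq_zero] at hdet0
      exact hdet0
    have hs := scalar_eq_one hp2 hcyc.1 _ _ hres (Pv.τ j)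
      (by
        have := resBaseChange_scalar (k' := ResidueField (DualNumber (ResidueField 𝒪)))
          ρbar (Pv.τ j) 1 (rhobar_tau hex j)
        rw [map_one] at this
        exact this) _ hσ2 hdet
    rw [hσ2, hs, one_smul]
  · -- the Frobenius lift
    have h01 : (φ : DQ.R →+* DualNumber (ResidueField 𝒪))
        (LinearMap.toMatrix b b (DQ.ρ.ρ (Pv.frob j)) 0 1) = 0 := hφJ j 3
    have h10 : (φ : DQ.R →+* DualNumber (ResidueField 𝒪))
        (LinearMap.toMatrix b b (DQ.ρ.ρ (Pv.frob j)) 1 0) = 0 := hφJ j 4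
    have hd : (φ : DQ.R →+* DualNumber (ResidueField 𝒪))
        (LinearMap.toMatrix b b (DQ.ρ.ρ (Pv.frob j)) 0 0 -
          LinearMap.toMatrix b b (DQ.ρ.ρ (Pv.frob j)) 1 1) = 0 := hφJ j 5
    exact ⟨_, baseChange_eq_smul_of_map (φ : DQ.R →+* DualNumber (ResidueField 𝒪)) b
      (DQ.ρ.ρ (Pv.frob j)) h01 h10 hd⟩

/-- The homomorphisms `R → k[ε]` killing the local coordinates inject into the classes of
first-order deformations of type `addPv 𝒟 Pv`. -/
theorem card_algHom0_le_gen (hst : StableDual 𝒪 𝒟)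
    (hdetD : ∀ ⦃A : Type⦄ [CommRing A] [IsLocalRing A] [Algebra 𝒪 A] (ρ : GaloisRepAdic A),
      𝒟 ρ → ρ.DetIsCyclotomic p)
    (hp2 : p ≠ 2) (hp𝒪 : (p : 𝒪) ∈ maximalIdeal 𝒪) (hex : Pv.IsExceptional p ρbar)
    (DQ : GaloisRep.DeformationRingData 𝒪 ρbar 𝒟)
    (b : Module.Basis (Fin 2) DQ.R DQ.ρ.V) :
    letI := dualNumberAlgebra 𝒪
    ∃ F : {φ : DQ.R →ₐ[𝒪] DualNumber (ResidueField 𝒪) //
        ∀ x ∈ ucoordIdeal DQ b Pv, φ x = 0} →
      Quotient (TSetoid 𝒪 ρbar (addPv 𝒟 Pv)), Function.Injective F := by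
  letI := dualNumberAlgebra 𝒪
  letI := resDualNumberAlgebra 𝒪
  haveI := isLocalHom_algebraMap_dualNumber 𝒪
  haveI := finite_dualNumber 𝒪
  haveI := Fermat.Agent.S56.H50.isAdicComplete_dualNumber (𝒪 := 𝒪)
  have key : ∀ φ : {φ : DQ.R →ₐ[𝒪] DualNumber (ResidueField 𝒪) //
      ∀ x ∈ ucoordIdeal DQ b Pv, φ x = 0}, ∀ j i, φ.1 (ucoord DQ b Pv j i) = 0 :=
    fun φ j i => φ.2 _ (Ideal.subset_span ⟨(j, i), rfl⟩)
  choose hloc G hG using fun φ : {φ : DQ.R →ₐ[𝒪] DualNumber (ResidueField 𝒪) //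
      ∀ x ∈ ucoordIdeal DQ b Pv, φ x = 0} =>
    exists_tsub0_gen hst hdetD hp2 hp𝒪 hex DQ b φ.1 (key φ)
  refine ⟨fun φ => Quotient.mk (TSetoid 𝒪 ρbar (addPv 𝒟 Pv)) (G φ), fun φ ψ h => ?_⟩
  have h1 : (G φ).1.IsEquiv (G ψ).1 := Quotient.exact h
  rw [hG φ, hG ψ] at h1
  obtain ⟨rbar, hbar⟩ := exists_isMatOfRes ρbar
  obtain ⟨r, hr, hl⟩ := Fermat.Agent.S56.H50.exists_mat_baseChange DQ hbar
  have hmat : IsMatOf (DQ.ρ.baseChangeAlong (ψ.1 : DQ.R →+* DualNumber (ResidueField 𝒪)) (hloc ψ))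
      (fun σ => (r σ).map ψ.1) :=
    hr.baseChangeAlong (ψ.1 : DQ.R →+* DualNumber (ResidueField 𝒪)) (hloc ψ)
  have hl' : IsLift 𝒪 rbar (fun σ => (r σ).map ψ.1) := Univ.IsLift.map ψ.1 (hloc ψ) hl
  have hres := residual_isEquiv_of_isLift hbar hmat hl'
  have hD : 𝒟 (DQ.ρ.baseChangeAlong (ψ.1 : DQ.R →+* DualNumber (ResidueField 𝒪)) (hloc ψ)) :=
    (hG ψ ▸ (G ψ).2.1).1
  have huniv := DQ.universal (DualNumber (ResidueField 𝒪)) (res_surj_dualNumber 𝒪)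
    (DQ.ρ.baseChangeAlong (ψ.1 : DQ.R →+* DualNumber (ResidueField 𝒪)) (hloc ψ)) hD hres
  exact Subtype.ext (huniv.unique ⟨hloc φ, h1⟩ ⟨hloc ψ, ⟨GaloisRepAdic.Equiv.refl _⟩⟩)

/-- **PV-GAL-A, general form.** -/
theorem pvGalA_gen (hst : StableDual 𝒪 𝒟)
    (hdetD : ∀ ⦃A : Type⦄ [CommRing A] [IsLocalRing A] [Algebra 𝒪 A] (ρ : GaloisRepAdic A),
      𝒟 ρ → ρ.DetIsCyclotomic p)
    (hp2 : p ≠ 2) (hp𝒪 : (p : 𝒪) ∈ maximalIdeal 𝒪) (hex : Pv.IsExceptional p ρbar) (g : ℕ)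
    (htan : TangentLE 𝒪 ρbar (addPv 𝒟 Pv) g)
    (DQ : GaloisRep.DeformationRingData 𝒪 ρbar 𝒟)
    (b : Module.Basis (Fin 2) DQ.R DQ.ρ.V) :
    ∃ γ : PRing 𝒪 k g →ₐ[𝒪] DQ.R, Function.Surjective γ ∧
      IsCoordHom γ (fun j => LinearMap.toMatrix b b (DQ.ρ.ρ (Pv.τ j)))
        (fun j => LinearMap.toMatrix b b (DQ.ρ.ρ (Pv.frob j))) := by
  obtain ⟨hfin, hcard⟩ := htan
  haveI := hfin
  obtain ⟨F, hF⟩ := card_algHom0_le_gen hst hdetD hp2 hp𝒪 hex DQ b
  obtain ⟨x, hx, hgen⟩ := exists_gens_rel DQ.residue_surjective (ucoordIdeal DQ b Pv)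
    (ucoordIdeal_le hex DQ b) g hcard F hF
  have hy : ∀ n, famY g (ucoord DQ b Pv) x n ∈ maximalIdeal DQ.R := by
    intro n
    unfold famY
    split_ifs
    · exact ucoord_mem hex DQ b _ _
    · exact hx _
  obtain ⟨γ, hγ⟩ := Fermat.Agent.S56.H50.exists_eval (𝒪 := 𝒪) (6 * k + g)
    (famY g (ucoord DQ b Pv) x) hy
  have hc : ∀ (j : Fin k) (i : Fin 6),
      γ (MvPowerSeries.X (cIdx k g j i)) = ucoord DQ b Pv j i := fun j i => by
    rw [hγ, famY_cIdx]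
  refine ⟨γ, Fermat.Agent.S56.H50.surjective_of_gens DQ.residue_surjective _ _ γ hγ ?_,
    fun j => ⟨hc j 0, hc j 1, hc j 2, hc j 3, hc j 4, hc j 5⟩⟩
  refine hgen.trans (sup_le (sup_le ?_ le_sup_right) ?_)
  · refine le_sup_of_le_left (Ideal.span_le.2 ?_)
    rintro _ ⟨a, rfl⟩
    exact Ideal.subset_span ⟨xIdx k g a, famY_xIdx g _ x a⟩
  · refine le_sup_of_le_left (Ideal.span_le.2 ?_)
    rintro _ ⟨⟨j, i⟩, rfl⟩
    exact Ideal.subset_span ⟨cIdx k g j i, famY_cIdx g _ x j i⟩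

end MainGen

section CondInst

variable {𝒪 : Type} [CommRing 𝒪] [IsDomain 𝒪] [IsDiscreteValuationRing 𝒪]
  [IsAdicComplete (maximalIdeal 𝒪) 𝒪] [Finite (ResidueField 𝒪)]
variable {p : ℕ} [Fact p.Prime] {ρbar : ResidualGaloisRep (ResidueField 𝒪)}
variable {k : ℕ} {Pv : PivotPrimes k}

/-- `cond` is stable under `R → k[ε]`. -/
theorem stableDual_cond (fl : Bool) (Smin T : Finset ℕ) :
    StableDual 𝒪 (Fermat.Agent.S59.cond 𝒪 p fl Smin T) := by
  cases fl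
  · exact Fermat.Agent.S56.H92.stmt_stable_SO 𝒪 p Smin T
  · exact Fermat.Agent.S56.H92.stmt_stable_Fl 𝒪 p Smin T

/-- `cond` implies `DetIsCyclotomic`. -/
theorem detIsCyclotomic_of_cond (fl : Bool) (Smin T : Finset ℕ)
    ⦃A : Type⦄ [CommRing A] [IsLocalRing A] [Algebra 𝒪 A] (ρ : GaloisRepAdic A)
    (h : Fermat.Agent.S59.cond 𝒪 p fl Smin T ρ) : ρ.DetIsCyclotomic p := by
  cases fl
  · exact h.1.1
  · exact h.1.1

/-- **PV-GAL-A for `cond 𝒪 p fl Smin (Σ ∪ T)`** (flat or strictly ordinary at `p`). -/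
theorem pvGalA_cond (fl : Bool) (Smin T : Finset ℕ)
    (hp2 : p ≠ 2) (hp𝒪 : (p : 𝒪) ∈ maximalIdeal 𝒪) (hex : Pv.IsExceptional p ρbar) (g : ℕ)
    (htan : TangentLE 𝒪 ρbar (addPv (Fermat.Agent.S59.cond 𝒪 p fl Smin (Pv.set ∪ T)) Pv) g)
    (DQ : GaloisRep.DeformationRingData 𝒪 ρbar (Fermat.Agent.S59.cond 𝒪 p fl Smin (Pv.set ∪ T)))
    (b : Module.Basis (Fin 2) DQ.R DQ.ρ.V) :
    ∃ γ : PRing 𝒪 k g →ₐ[𝒪] DQ.R, Function.Surjective γ ∧
      IsCoordHom γ (fun j => LinearMap.toMatrix b b (DQ.ρ.ρ (Pv.τ j)))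
        (fun j => LinearMap.toMatrix b b (DQ.ρ.ρ (Pv.frob j))) :=
  pvGalA_gen (stableDual_cond fl Smin _) (detIsCyclotomic_of_cond fl Smin _) hp2 hp𝒪 hex g htan
    DQ b

end CondInst

end Fermat.Agent.L.Pivot.H72

end
-- ==== END Fermat.Agent.L.Pivot.H72_PVGalAGen
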