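-- GENERATED (merged mirror, NOTES/tools/trim/merge3_helper67.py): 8 modules of the originals, bodies verbatim.
import Mathlib
import Fermat.Prelude.Def_GaloisRep_StrictOrdinary
import Fermat.Agent.Zm.S43_L05_000
import Fermat.Agent.Zm.S43_L06_001
import Fermat.Agent.Zm.S43_L05_002
import Fermat.Agent.Zm.S56_L07_005
import Fermat.Agent.Zm.S56_L01_001
import Fermat.Agent.Zm.S43_L06_000
import Fermat.Agent.Zm.S43_L01_005
import Fermat.Agent.Zm.S43_L06_002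
import Fermat.Agent.Zm.S43_L03_002
import Fermat.Agent.Zm.S43_L02_000
import Fermat.Agent.Zm.S43_L03_003
import Fermat.Agent.Zm.S43_L03_004
import Fermat.Agent.Zm.S43_L04_001
import Fermat.Agent.Zm.S43_L01_003
import Fermat.Agent.Zm.S36_L02_001
import Fermat.Agent.Zm.S33_L02_003
import Fermat.Agent.Zm.S56_L02_000
import Fermat.Agent.Zm.S43_L04_002

-- ==== BEGIN Fermat.Agent.L.Pivot.H76_Core
section

set_option autoImplicit false

namespace Fermat.Agent.L.Pivot.H76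

open IsLocalRing MvPowerSeries Fermat.Agent.S59 Fermat.Agent.S59.TWH

theorem typeSub_eq_tsub {𝒪 : Type} [CommRing 𝒪] {V : Type} [AddCommGroup V] [Module 𝒪 V]
    {k : ℕ} (c : Fin k → Module.End 𝒪 V) (ψ : Fin k → 𝒪) : typeSub c ψ = tsub c ψ := rfl

section VF

variable {𝒪 : Type} [CommRing 𝒪] {P : Type} [CommRing P] {V : Type} [AddCommGroup V]
  [Module 𝒪 V]

/-- `V` with the `P`-module structure given by `F : P → End V`. -/
def VF (_F : P →+* Module.End 𝒪 V) : Type := V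

variable (F : P →+* Module.End 𝒪 V)

instance : AddCommGroup (VF F) := inferInstanceAs (AddCommGroup V)

noncomputable instance : Module P (VF F) := Module.compHom V F

/-- the identity `V → VF F`. -/
def toVF (v : V) : VF F := v

/-- the identity `VF F → V`. -/
def ofVF (v : VF F) : V := v

theorem smul_toVF (f : P) (v : V) : f • toVF F v = toVF F (F f v) := rfl

variable {k : ℕ} (c : Fin k → Module.End 𝒪 V) (hcF : ∀ (j : Fin k) (f : P), Commute (c j) (F f))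

/-- `∑_j (c_j - ψ_j) V` as a `P`-submodule. -/
def tsubP (ψ : Fin k → 𝒪) : Submodule P (VF F) where
  carrier := {v | ofVF F v ∈ tsub c ψ}
  add_mem' := fun {_ _} hx hy => (tsub c ψ).add_mem hx hy
  zero_mem' := (tsub c ψ).zero_mem
  smul_mem' := fun f _ hv => map_mem_tsub c ψ (F f) (fun j => (hcF j f).symm) hv

theorem mem_tsubP (ψ : Fin k → 𝒪) (v : V) : toVF F v ∈ tsubP F c hcF ψ ↔ v ∈ tsub c ψ :=
  Iff.rfl

/-- the quotient `V / ∑_j (c_j - ψ_j) V` as a `P`-module. -/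
abbrev NQ (ψ : Fin k → 𝒪) : Type := VF F ⧸ tsubP F c hcF ψ

/-- the class of a vector. -/
noncomputable def cls (ψ : Fin k → 𝒪) (v : V) : NQ F c hcF ψ := Submodule.Quotient.mk (toVF F v)

variable {F c hcF}

theorem cls_surjective (ψ : Fin k → 𝒪) : Function.Surjective (cls F c hcF ψ) := by
  intro x
  obtain ⟨v, rfl⟩ := Submodule.Quotient.mk_surjective _ x
  exact ⟨ofVF F v, rfl⟩

theorem cls_eq_zero {ψ : Fin k → 𝒪} {v : V} : cls F c hcF ψ v = 0 ↔ v ∈ tsub c ψ := by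
  rw [cls, Submodule.Quotient.mk_eq_zero]
  rfl

theorem cls_add (ψ : Fin k → 𝒪) (v w : V) :
    cls F c hcF ψ (v + w) = cls F c hcF ψ v + cls F c hcF ψ w := rfl

theorem cls_sub (ψ : Fin k → 𝒪) (v w : V) :
    cls F c hcF ψ (v - w) = cls F c hcF ψ v - cls F c hcF ψ w := rfl

theorem cls_zero (ψ : Fin k → 𝒪) : cls F c hcF ψ 0 = 0 := rfl

theorem cls_eq_cls {ψ : Fin k → 𝒪} {v w : V} :
    cls F c hcF ψ v = cls F c hcF ψ w ↔ v - w ∈ tsub c ψ := by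
  rw [← sub_eq_zero, ← cls_sub, cls_eq_zero]

theorem smul_cls (ψ : Fin k → 𝒪) (f : P) (v : V) :
    f • cls F c hcF ψ v = cls F c hcF ψ (F f v) := rfl

theorem cls_sum (ψ : Fin k → 𝒪) {ι : Type*} (s : Finset ι) (v : ι → V) :
    cls F c hcF ψ (∑ i ∈ s, v i) = ∑ i ∈ s, cls F c hcF ψ (v i) := by
  classical
  induction s using Finset.induction_on with
  | empty => simp [cls_zero]
  | insert a s ha ih => rw [Finset.sum_insert ha, Finset.sum_insert ha, cls_add, ih]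

theorem sum_smul_cls (ψ : Fin k → 𝒪) {ι : Type*} (s : Finset ι) (g : ι → P) (v : ι → V) :
    ∑ i ∈ s, g i • cls F c hcF ψ (v i) = cls F c hcF ψ (∑ i ∈ s, F (g i) (v i)) := by
  rw [cls_sum]
  rfl

theorem cls_mem_span_singleton_smul_top (ψ : Fin k → 𝒪) (a : P) (w : V) :
    cls F c hcF ψ w ∈ (Ideal.span {a}) • (⊤ : Submodule P (NQ F c hcF ψ)) ↔
      ∃ u : V, w - F a u ∈ tsub c ψ := by
  rw [Submodule.ideal_span_singleton_smul, Submodule.mem_smul_pointwise_iff_exists]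
  constructor
  · rintro ⟨y, -, hy⟩
    obtain ⟨u, rfl⟩ := cls_surjective ψ y
    rw [smul_cls, eq_comm, cls_eq_cls] at hy
    exact ⟨u, hy⟩
  · rintro ⟨u, hu⟩
    refine ⟨cls F c hcF ψ u, Submodule.mem_top, ?_⟩
    rw [smul_cls, eq_comm, cls_eq_cls]
    exact hu

/-- additive maps out of the quotient, semilinear for `ψr`. -/
noncomputable def liftNQ {T : Type} [CommRing T] {M : Type} [AddCommGroup M] [Module T M]
    (ψr : P →+* T) (π : V →+ M) (hπ : ∀ (f : P) (v : V), π (F f v) = ψr f • π v)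
    (ψ : Fin k → 𝒪) (hker : ∀ v ∈ tsub c ψ, π v = 0) : NQ F c hcF ψ →+ M :=
  ((tsubP F c hcF ψ).liftQ
    ({ toFun := fun v => π (ofVF F v)
       map_add' := fun _ _ => π.map_add _ _
       map_smul' := fun f _ => hπ f _ } : VF F →ₛₗ[ψr] M)
    (fun _ hv => hker _ hv)).toAddMonoidHom

theorem liftNQ_cls {T : Type} [CommRing T] {M : Type} [AddCommGroup M] [Module T M]
    (ψr : P →+* T) (π : V →+ M) (hπ : ∀ (f : P) (v : V), π (F f v) = ψr f • π v)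
    (ψ : Fin k → 𝒪) (hker : ∀ v ∈ tsub c ψ, π v = 0) (v : V) :
    liftNQ (hcF := hcF) ψr π hπ ψ hker (cls F c hcF ψ v) = π v := rfl

theorem liftNQ_smul {T : Type} [CommRing T] {M : Type} [AddCommGroup M] [Module T M]
    (ψr : P →+* T) (π : V →+ M) (hπ : ∀ (f : P) (v : V), π (F f v) = ψr f • π v)
    (ψ : Fin k → 𝒪) (hker : ∀ v ∈ tsub c ψ, π v = 0) (f : P) (x : NQ F c hcF ψ) :
    liftNQ (hcF := hcF) ψr π hπ ψ hker (f • x) = ψr f • liftNQ (hcF := hcF) ψr π hπ ψ hker x := by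
  obtain ⟨v, rfl⟩ := cls_surjective ψ x
  rw [smul_cls, liftNQ_cls, liftNQ_cls, hπ]

end VF

/-- **PV-CORE** (`Stmt_PVCore` with `p` prime and `p ∈ 𝔪`). -/
theorem pvCore (𝒪 : Type) [CommRing 𝒪] [IsLocalRing 𝒪] [IsNoetherianRing 𝒪]
    [IsAdicComplete (maximalIdeal 𝒪) 𝒪] (ϖ : 𝒪) (p r n k h : ℕ)
    (hp : p.Prime) (hpm : (p : 𝒪) ∈ maximalIdeal 𝒪)
    (T : Type) [CommRing T] [Algebra 𝒪 T]
    (M : Type) [AddCommGroup M] [Module 𝒪 M] [Module T M]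
    (I1 Iχ 𝔵 : Ideal (MvPowerSeries (Fin h) 𝒪)) (Ξ : Ideal T)
    (RQ : Type) [CommRing RQ] [IsLocalRing RQ] [Algebra 𝒪 RQ]
    (γ : MvPowerSeries (Fin h) 𝒪 →ₐ[𝒪] RQ) (hγ : Function.Surjective γ)
    (τ : RQ →ₐ[𝒪] T) (hτ : Function.Surjective τ)
    (hΞ : Ξ ≤ Ideal.map ((τ.comp γ : MvPowerSeries (Fin h) 𝒪 →ₐ[𝒪] T) :
      MvPowerSeries (Fin h) 𝒪 →+* T) 𝔵)
    (V : Type) [AddCommGroup V] [Module 𝒪 V] (fV : RQ →ₐ[𝒪] Module.End 𝒪 V)
    (δ : Fin r → RQ) (hδm : ∀ i, δ i - 1 ∈ maximalIdeal RQ) (hτδ : ∀ i, τ (δ i) = 1)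
    (d : Fin r → Module.End 𝒪 V) (hδd : ∀ i, fV (δ i) = d i) (hdpow : ∀ i, d i ^ (p ^ n) = 1)
    (e : Fin k → ℕ) (c : Fin k → Module.End 𝒪 V) (hcpow : ∀ j, c j ^ (p ^ e j) = 1)
    (hcc : ∀ i j, Commute (c i) (c j)) (hcf : ∀ j (a : RQ), Commute (c j) (fV a))
    (ψ : Fin k → 𝒪) (hψ : ∀ j, ψ j ^ (p ^ e j) = 1) (hψϖ : ∀ j, ψ j - 1 ∈ Ideal.span {ϖ})
    (rk : ℕ) (b : Fin rk → V)
    (hb : Function.Bijective
      (fun f : Fin rk × (∀ j : Fin k, Fin (p ^ e j)) × (Fin r → Fin (p ^ n)) → 𝒪 =>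
        ∑ x : Fin rk × (∀ j : Fin k, Fin (p ^ e j)) × (Fin r → Fin (p ^ n)),
          f x • H90.mon c (fun j => (x.2.1 j : ℕ))
            (H90.mon d (fun i => (x.2.2 i : ℕ)) (b x.1))))
    (π : V →ₗ[𝒪] M) (hπs : Function.Surjective π)
    (hker : LinearMap.ker π = typeSub c (fun _ => (1 : 𝒪)) ⊔ ⨆ i, LinearMap.range (d i - 1))
    (hπ : ∀ (a : RQ) (v : V), π (fV a v) = τ a • π v)
    (h1 : ∀ f ∈ I1, ∀ v : V, fV (γ f) v ∈ typeSub c (fun _ => (1 : 𝒪)))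
    (hχ : ∀ f ∈ Iχ, ∀ v : V, fV (γ f) v ∈ typeSub c ψ) :
    Nonempty (PivotLevel 𝒪 r h T M ϖ I1 Iχ 𝔵 Ξ (twIdealP 𝒪 r p n) rk) := by
  classical
  have hp0 : 0 < p := hp.pos
  have hDIV : Stmt_DIV 𝒪 p r n := H14.stmt_DIV 𝒪 r n hp hpm
  have hcomp : IsAdicComplete (maximalIdeal (MvPowerSeries (Fin h) 𝒪))
      (MvPowerSeries (Fin h) 𝒪) := Fermat.Agent.S53.Limit.isAdicComplete_mvPowerSeries_fin 𝒪 h
  -- the substitution `φ`
  have hy : ∀ i, ∃ y ∈ maximalIdeal (MvPowerSeries (Fin h) 𝒪), γ y = δ i - 1 := by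
    intro i
    obtain ⟨y, hy⟩ := hγ (δ i - 1)
    refine ⟨y, ?_, hy⟩
    by_contra hym
    have hu : IsUnit y := by
      by_contra hnu
      exact hym ((mem_maximalIdeal y).mpr hnu)
    have : IsUnit (γ y) := hu.map γ
    rw [hy] at this
    exact ((mem_maximalIdeal _).mp (hδm i)) this
  choose y hym hγy using hy
  obtain ⟨φ, hφ⟩ := Fermat.Agent.S56.H50.exists_eval (𝒪 := 𝒪) r y hym
  -- the homomorphisms `F = fV ∘ γ` and `G = F ∘ φ`
  obtain ⟨F, hF⟩ : ∃ F : MvPowerSeries (Fin h) 𝒪 →ₐ[𝒪] Module.End 𝒪 V,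
      ∀ f, F f = fV (γ f) := ⟨fV.comp γ, fun _ => rfl⟩
  obtain ⟨G, hG'⟩ : ∃ G : MvPowerSeries (Fin r) 𝒪 →ₐ[𝒪] Module.End 𝒪 V,
      ∀ s, G s = F (φ s) := ⟨F.comp φ, fun _ => rfl⟩
  have hG : ∀ i, G (X i) = d i - 1 := fun i => by
    rw [hG', hF, hφ, hγy, map_sub, map_one, hδd]
  have hcF : ∀ (j : Fin k) (f : MvPowerSeries (Fin h) 𝒪),
      Commute (c j) ((F : MvPowerSeries (Fin h) 𝒪 →+* Module.End 𝒪 V) f) := fun j f => by
    show Commute (c j) (F f)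
    rw [hF]
    exact hcf j _
  have hFC : ∀ (a : 𝒪) (v : V), F (C a) v = a • v := fun a v => by
    have h2 : (C a : MvPowerSeries (Fin h) 𝒪) = algebraMap 𝒪 _ a := rfl
    rw [h2, AlgHom.commutes, Module.algebraMap_end_apply]
  have hψ1 : ∀ j : Fin k, (fun _ : Fin k => (1 : 𝒪)) j ^ (p ^ e j) = 1 := fun j => one_pow _
  -- the projection
  have hπF : ∀ (f : MvPowerSeries (Fin h) 𝒪) (v : V),
      π.toAddMonoidHom ((F : MvPowerSeries (Fin h) 𝒪 →+* Module.End 𝒪 V) f v) =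
        ((τ.comp γ : MvPowerSeries (Fin h) 𝒪 →ₐ[𝒪] T) : MvPowerSeries (Fin h) 𝒪 →+* T) f •
          π.toAddMonoidHom v := fun f v => by
    show π (F f v) = τ (γ f) • π v
    rw [hF, hπ]
  have hπker : ∀ v ∈ tsub c (fun _ : Fin k => (1 : 𝒪)), π.toAddMonoidHom v = 0 := by
    intro v hv
    have h2 : v ∈ LinearMap.ker π := by
      rw [hker]
      exact Submodule.mem_sup_left hv
    exact h2
  have hψφ : ∀ i, (τ.comp γ) (φ (X i)) = 0 := fun i => by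
    show τ (γ (φ (X i))) = 0
    rw [hφ, hγy, map_sub, hτδ, map_one, sub_self]
  refine ⟨{
    N1 := NQ (F : MvPowerSeries (Fin h) 𝒪 →+* Module.End 𝒪 V) c hcF (fun _ => (1 : 𝒪))
    Nχ := NQ (F : MvPowerSeries (Fin h) 𝒪 →+* Module.End 𝒪 V) c hcF ψ
    φ := φ
    ψ := τ.comp γ
    ψ_surjective := hτ.comp hγ
    ψ_φ_X := hψφ
    Ξ_le := hΞ
    π := liftNQ (hcF := hcF) _ π.toAddMonoidHom hπF _ hπker
    π_smul := fun f x => liftNQ_smul _ _ hπF _ hπker f x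
    π_surjective := ?_
    ker_π := ?_
    b1 := fun i => cls _ c hcF _ (b i)
    bχ := fun i => cls _ c hcF _ (b i)
    b1_span := ?_
    b1_rel := ?_
    bχ_span := ?_
    bχ_rel := ?_
    rel1 := ?_
    relχ := ?_
    cmp := ?_ }⟩
  · -- π_surjective
    intro x
    obtain ⟨v, rfl⟩ := hπs x
    exact ⟨cls _ c hcF _ v, rfl⟩
  · -- ker_π
    have hback : ∀ x : NQ (F : MvPowerSeries (Fin h) 𝒪 →+* Module.End 𝒪 V) c hcF
        (fun _ => (1 : 𝒪)),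
        x ∈ (Ideal.span (Set.range fun i : Fin r => φ (X i))) •
          (⊤ : Submodule (MvPowerSeries (Fin h) 𝒪) _) →
        liftNQ (hcF := hcF) _ π.toAddMonoidHom hπF _ hπker x = 0 := by
      intro x hx
      refine Submodule.smul_induction_on hx ?_ ?_
      · intro a ha z _
        rw [liftNQ_smul]
        have h2 : ((τ.comp γ : MvPowerSeries (Fin h) 𝒪 →ₐ[𝒪] T) :
            MvPowerSeries (Fin h) 𝒪 →+* T) a = 0 := by
          have h3 : Ideal.span (Set.range fun i : Fin r => φ (X i)) ≤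
              RingHom.ker ((τ.comp γ : MvPowerSeries (Fin h) 𝒪 →ₐ[𝒪] T) :
                MvPowerSeries (Fin h) 𝒪 →+* T) := by
            rw [Ideal.span_le]
            rintro _ ⟨i, rfl⟩
            exact hψφ i
          exact h3 ha
        rw [h2, zero_smul]
      · intro x y hx hy
        rw [map_add, hx, hy, add_zero]
    intro x
    refine ⟨fun hv => ?_, hback x⟩
    obtain ⟨v, rfl⟩ := cls_surjective _ x
    rw [liftNQ_cls] at hv
    have h2 : v ∈ LinearMap.ker π := hv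
    rw [hker, Submodule.mem_sup] at h2
    obtain ⟨u, hu, w, hw, rfl⟩ := h2
    have h3 : cls (F : MvPowerSeries (Fin h) 𝒪 →+* Module.End 𝒪 V) c hcF
        (fun _ => (1 : 𝒪)) (u + w) = cls _ c hcF _ w := by
      rw [cls_eq_cls, add_sub_cancel_right]
      exact hu
    rw [h3]
    refine Submodule.iSup_induction (fun i => LinearMap.range (d i - 1))
      (motive := fun w => cls (F : MvPowerSeries (Fin h) 𝒪 →+* Module.End 𝒪 V) c hcF
        (fun _ => (1 : 𝒪)) w ∈ (Ideal.span (Set.range fun i : Fin r => φ (X i))) •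
          (⊤ : Submodule (MvPowerSeries (Fin h) 𝒪) _)) hw ?_ ?_ ?_
    · rintro i _ ⟨t, rfl⟩
      have h4 : (d i - 1) t = F (φ (X i)) t := by
        rw [← hG', hG]
      rw [h4]
      have h5 : cls (F : MvPowerSeries (Fin h) 𝒪 →+* Module.End 𝒪 V) c hcF
          (fun _ => (1 : 𝒪)) (F (φ (X i)) t) = φ (X i) • cls _ c hcF _ t := rfl
      rw [h5]
      exact Submodule.smul_mem_smul (Ideal.subset_span ⟨i, rfl⟩) Submodule.mem_top
    · rw [cls_zero]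
      exact Submodule.zero_mem _
    · intro x y hx hy
      rw [cls_add]
      exact Submodule.add_mem _ hx hy
  · -- b1_span
    intro x
    obtain ⟨v, rfl⟩ := cls_surjective _ x
    obtain ⟨cc, hcc'⟩ := core_span hG hcc hb (fun _ => (1 : 𝒪)) v
    refine ⟨cc, ?_⟩
    rw [sum_smul_cls, cls_eq_cls]
    have h7 : ∑ i, G (cc i) (b i) =
        ∑ i, (F : MvPowerSeries (Fin h) 𝒪 →+* Module.End 𝒪 V) (φ (cc i)) (b i) :=
      Finset.sum_congr rfl fun i _ => by rw [hG']; rfl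
    rw [← h7]
    exact hcc'
  · -- b1_rel
    intro cc
    have h7 : ∑ i, G (cc i) (b i) =
        ∑ i, (F : MvPowerSeries (Fin h) 𝒪 →+* Module.End 𝒪 V) (φ (cc i)) (b i) :=
      Finset.sum_congr rfl fun i _ => by rw [hG']; rfl
    rw [sum_smul_cls, cls_eq_zero, ← core_rel hp0 hDIV hG hdpow hcc hcpow hb _ hψ1 cc, h7]
  · -- bχ_span
    intro x
    obtain ⟨v, rfl⟩ := cls_surjective _ x
    obtain ⟨cc, hcc'⟩ := core_span hG hcc hb ψ v
    refine ⟨cc, ?_⟩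
    rw [sum_smul_cls, cls_eq_cls]
    have h7 : ∑ i, G (cc i) (b i) =
        ∑ i, (F : MvPowerSeries (Fin h) 𝒪 →+* Module.End 𝒪 V) (φ (cc i)) (b i) :=
      Finset.sum_congr rfl fun i _ => by rw [hG']; rfl
    rw [← h7]
    exact hcc'
  · -- bχ_rel
    intro cc
    have h7 : ∑ i, G (cc i) (b i) =
        ∑ i, (F : MvPowerSeries (Fin h) 𝒪 →+* Module.End 𝒪 V) (φ (cc i)) (b i) :=
      Finset.sum_congr rfl fun i _ => by rw [hG']; rfl
    rw [sum_smul_cls, cls_eq_zero, ← core_rel hp0 hDIV hG hdpow hcc hcpow hb _ hψ cc, h7]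
  · -- rel1
    intro f hf x
    obtain ⟨v, rfl⟩ := cls_surjective _ x
    rw [smul_cls, cls_eq_zero]
    show F f v ∈ _
    rw [hF]
    exact h1 f hf v
  · -- relχ
    intro f hf x
    obtain ⟨v, rfl⟩ := cls_surjective _ x
    rw [smul_cls, cls_eq_zero]
    show F f v ∈ _
    rw [hF]
    exact hχ f hf v
  · -- cmp
    intro v
    rw [sum_smul_cls, sum_smul_cls, cls_mem_span_singleton_smul_top,
      cls_mem_span_singleton_smul_top]
    have hFϖ : ∀ u : V, (F : MvPowerSeries (Fin h) 𝒪 →+* Module.End 𝒪 V) (C ϖ) u = ϖ • u :=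
      fun u => hFC ϖ u
    simp only [hFϖ]
    constructor
    · exact core_cmp_aux ϖ _ _ (fun j => by
        have := (Ideal.span {ϖ}).neg_mem (hψϖ j)
        rwa [neg_sub] at this) _
    · exact core_cmp_aux ϖ _ _ (fun j => hψϖ j) _

end Fermat.Agent.L.Pivot.H76

end
-- ==== END Fermat.Agent.L.Pivot.H76_Core

-- ==== BEGIN Fermat.Agent.L.Pivot.H76_Unip
section

set_option autoImplicit false
set_option linter.style.haveILetI false

namespace Fermat.Agent.L.Pivot.H76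

open IsLocalRing Matrix Polynomial

/-- a `2 × 2` matrix with characteristic polynomial `(X - 1)²`. -/
theorem sq_zero_and_trace_of_charpoly {R : Type*} [CommRing R] (Y : Matrix (Fin 2) (Fin 2) R)
    (h : Y.charpoly = (X - 1) ^ 2) : (Y - 1) * (Y - 1) = 0 ∧ Y.trace = 2 := by
  constructor
  · have h1 := Matrix.aeval_self_charpoly Y
    rw [h, map_pow, map_sub, aeval_X, map_one, pow_two] at h1
    exact h1
  · have h1 := Matrix.trace_eq_neg_charpoly_coeff Y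
    rw [h, Fintype.card_fin] at h1
    have h2 : ((X - 1 : R[X]) ^ 2).coeff (2 - 1) = -2 := by
      have h3 : (X - 1 : R[X]) ^ 2 = X ^ 2 - C 2 * X + C 1 := by
        rw [map_one, map_ofNat]
        ring
      rw [h3]
      simp [coeff_one, coeff_X_pow]
    rw [h2, neg_neg] at h1
    exact h1

/-- **PV-UNIP, core.** -/
theorem unip_core {𝒪 : Type} [CommRing 𝒪] (p : ℕ) (hp : p.Prime) {k : ℕ} (g : ℕ)
    (Pv : PivotPrimes k) (hqp : ∀ j, Pv.q j ≠ p)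
    (R : Type) [CommRing R] [IsLocalRing R] [IsNoetherianRing R] [IsReduced R] [Algebra 𝒪 R]
    (ρ : GaloisRepAdic R) (hdet : ρ.DetIsCyclotomic p)
    (hI : ∀ j, ∀ σ ∈ (Pv.P j).inertiaSubgroupIn ℚ, ∀ v : ρ.V,
      ρ.ρ σ v - v ∈ maximalIdeal R • (⊤ : Submodule R ρ.V))
    (hU : ∀ j, ρ.IsUnipotentOnInertiaAt (Pv.q j))
    (b : Module.Basis (Fin 2) R ρ.V) (γ : PRing 𝒪 k g →ₐ[𝒪] R)
    (hγ : IsCoordHom γ (fun j => LinearMap.toMatrix b b (ρ.ρ (Pv.τ j)))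
      (fun j => LinearMap.toMatrix b b (ρ.ρ (Pv.frob j)))) :
    idealUnip g (fun j => ((Pv.q j : ℕ) : 𝒪)) ≤ RingHom.ker (γ : PRing 𝒪 k g →+* R) := by
  classical
  intro f hf
  rw [RingHom.mem_ker]
  -- the matrices in `R`
  have hM := fun j => H59.pivot_matrices p hp ρ hdet Pv j (hqp j) (hI j) b
  have hch : ∀ j, (LinearMap.toMatrix b b (ρ.ρ (Pv.τ j))).charpoly = (X - 1) ^ 2 := by
    intro j
    rw [LinearMap.charpoly_toMatrix]
    exact hU j (Pv.P j) (Pv.P_over j) (Pv.τ j) (Pv.τ_gen j).1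
  have hsq := fun j => (sq_zero_and_trace_of_charpoly _ (hch j)).1
  have htr := fun j => (sq_zero_and_trace_of_charpoly _ (hch j)).2
  have hrel : ∀ j, LinearMap.toMatrix b b (ρ.ρ (Pv.frob j)) *
      (LinearMap.toMatrix b b (ρ.ρ (Pv.τ j)) - 1) =
      ((Pv.q j : ℕ) : R) • ((LinearMap.toMatrix b b (ρ.ρ (Pv.τ j)) - 1) *
        LinearMap.toMatrix b b (ρ.ρ (Pv.frob j))) := by
    intro j
    have h1 := (hM j).2.2.2.2.1
    rw [H59.pow_of_sq_zero _ (hsq j)] at h1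
    rw [Matrix.mul_sub, Matrix.mul_one, h1, add_mul, one_mul, add_sub_cancel_left,
      Matrix.smul_mul]
  -- it suffices to work modulo every minimal prime
  have hmem : γ f ∈ sInf (minimalPrimes R) := by
    rw [Submodule.mem_sInf]
    intro 𝔮 h𝔮
    haveI h𝔮p : Ideal.IsPrime 𝔮 := h𝔮.1.1
    obtain ⟨x, hx⟩ : ∃ x : R →ₐ[𝒪] R ⧸ 𝔮, ∀ t, x t = Ideal.Quotient.mk 𝔮 t :=
      ⟨Ideal.Quotient.mkₐ 𝒪 𝔮, fun _ => rfl⟩
    have hxN : ∀ m : ℕ, x (m : R) = algebraMap 𝒪 (R ⧸ 𝔮) (m : 𝒪) := by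
      intro m
      rw [map_natCast, map_natCast]
    have hone : ∀ Y : Matrix (Fin 2) (Fin 2) R,
        (x : R →+* R ⧸ 𝔮).mapMatrix Y - 1 = (x : R →+* R ⧸ 𝔮).mapMatrix (Y - 1) := by
      intro Y
      rw [map_sub, map_one]
    have key := H59.idealUnip_le_ker_of_coord (g := g) (fun j => ((Pv.q j : ℕ) : 𝒪)) (x.comp γ)
      (fun _ => (1 : R ⧸ 𝔮))
      (fun j => (x : R →+* R ⧸ 𝔮).mapMatrix (LinearMap.toMatrix b b (ρ.ρ (Pv.τ j))))
      (fun j => (x : R →+* R ⧸ 𝔮).mapMatrix (LinearMap.toMatrix b b (ρ.ρ (Pv.frob j))))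
      (fun j => H59.isCoordOf_of_isCoordHom γ _ _ hγ x j) (fun _ => one_pow 2)
      (fun j => by
        rw [← RingHom.map_det, (hM j).2.1]
        exact hxN _)
      (fun j => by
        rw [hone, ← map_mul, hsq j, map_zero])
      (fun j => by
        have h1 := congrArg (x : R →+* R ⧸ 𝔮) (htr j)
        rw [map_ofNat] at h1
        rw [← h1]
        simp only [Matrix.trace, Matrix.diag_apply, RingHom.mapMatrix_apply, Matrix.map_apply,
          map_sum])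
      (fun j => by
        have h1 := congrArg (x : R →+* R ⧸ 𝔮).mapMatrix (hrel j)
        rw [map_mul] at h1
        rw [hone, h1, ← hxN]
        ext a c
        simp only [RingHom.mapMatrix_apply, Matrix.map_apply, Matrix.smul_apply, smul_eq_mul,
          map_mul, Matrix.mul_apply, map_sum]
        rfl)
    have h1 := key hf
    rw [RingHom.mem_ker] at h1
    have h2 : x (γ f) = 0 := h1
    rw [hx] at h2
    exact Ideal.Quotient.eq_zero_iff_mem.1 h2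
  have h5 : sInf (minimalPrimes R) = nilradical R := by
    rw [minimalPrimes, Ideal.sInf_minimalPrimes]
    rfl
  rw [h5, nilradical_eq_zero] at hmem
  exact hmem

end Fermat.Agent.L.Pivot.H76

end
-- ==== END Fermat.Agent.L.Pivot.H76_Unip

-- ==== BEGIN Fermat.Agent.L.Pivot.H76_Wire2Pv
section

set_option autoImplicit false
set_option linter.style.haveILetI false

namespace Fermat.Agent.L.Pivot.H76

open Fermat.Agent.L.Pivot Fermat.Agent.L.Pivot.H59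

/-- `PivotPrimes` with prescribed places and Frobenius lifts. -/
theorem exists_pivotPrimes_at (k : ℕ) (q : Fin k → ℕ) (hinj : Function.Injective q)
    (hq : ∀ j, (q j).Prime) (P : Fin k → ValuationSubring (AlgebraicClosure ℚ))
    (hP : ∀ j, (P j).LiesOverPrime (q j))
    (frob : Fin k → (AlgebraicClosure ℚ ≃ₐ[ℚ] AlgebraicClosure ℚ))
    (hfrob : ∀ j, (P j).IsFrobeniusAt (frob j) (q j)) :
    ∃ Pv : PivotPrimes k, Pv.q = q ∧ Pv.P = P ∧ Pv.frob = frob := by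
  classical
  have h2 : ∀ j, ∃ τ₀ ∈ (P j).inertiaSubgroupIn ℚ,
      ∀ F : IntermediateField ℚ (AlgebraicClosure ℚ), FiniteDimensional ℚ F →
        TameAt (P j) (frob j) (q j) F τ₀ :=
    fun j => exists_uniform_tame_generator (q j) (hq j) (P j) (hP j) (frob j) (hfrob j)
  choose τ hτ hτF using h2
  refine ⟨{ q := q, q_inj := hinj, q_prime := hq, P := P, P_over := hP, frob := frob,
            frob_spec := hfrob, τ := τ, τ_gen := fun j => ⟨hτ j, fun F hF σ hσ => ?_⟩,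
            τ_frob := fun j F hF => ?_ }, rfl, rfl, rfl⟩
  · obtain ⟨i, e, h⟩ := (hτF j F hF).1 σ hσ
    exact ⟨i, e, (IntermediateField.mem_fixingSubgroup_iff F _).1 h⟩
  · obtain ⟨e, h⟩ := (hτF j F hF).2
    exact ⟨e, (IntermediateField.mem_fixingSubgroup_iff F _).1 h⟩

/-- `PivotPrimes` for the primes of a finite set, with a property `C q A σ` of the chosen place
and Frobenius lift which holds for some place over `q` and every Frobenius lift at it. -/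
theorem exists_pivotPrimes_finset (Sg : Finset ℕ) (hSg : ∀ q ∈ Sg, q.Prime)
    (C : ℕ → ValuationSubring (AlgebraicClosure ℚ) →
      (AlgebraicClosure ℚ ≃ₐ[ℚ] AlgebraicClosure ℚ) → Prop)
    (hC : ∀ q ∈ Sg, ∃ A : ValuationSubring (AlgebraicClosure ℚ), A.LiesOverPrime q ∧
      ∀ σ : AlgebraicClosure ℚ ≃ₐ[ℚ] AlgebraicClosure ℚ, A.IsFrobeniusAt σ q → C q A σ) :
    ∃ Pv : PivotPrimes Sg.card, Pv.set = Sg ∧ (∀ j, Pv.q j ∈ Sg) ∧
      (∀ q ∈ Sg, ∃ j, Pv.q j = q) ∧ ∀ j, C (Pv.q j) (Pv.P j) (Pv.frob j) := by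
  classical
  let e : Fin Sg.card ≃ Sg := Sg.equivFin.symm
  let q : Fin Sg.card → ℕ := fun j => (e j : ℕ)
  have hqS : ∀ j, q j ∈ Sg := fun j => (e j).2
  have hinj : Function.Injective q := fun i j h => e.injective (Subtype.ext h)
  have hq : ∀ j, (q j).Prime := fun j => hSg _ (hqS j)
  have h1 : ∀ j, ∃ (A : ValuationSubring (AlgebraicClosure ℚ))
      (σ : AlgebraicClosure ℚ ≃ₐ[ℚ] AlgebraicClosure ℚ),
      A.LiesOverPrime (q j) ∧ A.IsFrobeniusAt σ (q j) ∧ C (q j) A σ := by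
    intro j
    obtain ⟨A, hA, hAC⟩ := hC (q j) (hqS j)
    obtain ⟨σ, hσ⟩ := Fermat.Agent.Lib.FrobExists.exists_isFrobeniusAt (q j) (hq j) A hA
    exact ⟨A, σ, hA, hσ, hAC σ hσ⟩
  choose P frob hP hfrob hCj using h1
  obtain ⟨Pv, hPq, hPP, hPf⟩ := exists_pivotPrimes_at Sg.card q hinj hq P hP frob hfrob
  refine ⟨Pv, ?_, ?_, ?_, ?_⟩
  · ext x
    simp only [PivotPrimes.set, Finset.mem_image, Finset.mem_univ, true_and]
    constructor
    · rintro ⟨j, rfl⟩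
      rw [hPq]
      exact hqS j
    · intro hx
      refine ⟨e.symm ⟨x, hx⟩, ?_⟩
      rw [hPq]
      show ((e (e.symm ⟨x, hx⟩) : Sg) : ℕ) = x
      rw [e.apply_symm_apply]
  · intro j
    rw [hPq]
    exact hqS j
  · intro x hx
    refine ⟨e.symm ⟨x, hx⟩, ?_⟩
    rw [hPq]
    show ((e (e.symm ⟨x, hx⟩) : Sg) : ℕ) = x
    rw [e.apply_symm_apply]
  · intro j
    rw [hPq, hPP, hPf]
    exact hCj j

end Fermat.Agent.L.Pivot.H76

end
-- ==== END Fermat.Agent.L.Pivot.H76_Wire2Pv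

-- ==== BEGIN Fermat.Agent.L.Pivot.H76_Xi
section

set_option autoImplicit false

namespace Fermat.Agent.L.Pivot.H76

open IsLocalRing Fermat.Agent.S59.TWGal

theorem entries_mem_of_coords {T : Type*} [CommRing T] (Sg : Matrix (Fin 2) (Fin 2) T)
    (hdet : Sg.det = 1) (hu : IsUnit (1 + Sg 1 1)) (J : Ideal T)
    (h01 : Sg 0 1 ∈ J) (h10 : Sg 1 0 ∈ J) (hm : Sg 0 0 - Sg 1 1 ∈ J) (a c : Fin 2) :
    (Sg - 1) a c ∈ J := by
  rw [Matrix.det_fin_two] at hdet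
  have key : (Sg 0 0 - 1) * (1 + Sg 1 1) = Sg 0 1 * Sg 1 0 + (Sg 0 0 - Sg 1 1) := by
    linear_combination hdet
  have h00 : Sg 0 0 - 1 ∈ J := by
    have h1 : (Sg 0 0 - 1) * (1 + Sg 1 1) ∈ J := by
      rw [key]
      exact J.add_mem (J.mul_mem_right _ h01) hm
    obtain ⟨u, hu⟩ := hu
    have h2 : Sg 0 0 - 1 = (Sg 0 0 - 1) * (1 + Sg 1 1) * ((u⁻¹ : Tˣ) : T) := by
      rw [← hu, mul_assoc, Units.mul_inv, mul_one]
    rw [h2]
    exact J.mul_mem_right _ h1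
  have h11 : Sg 1 1 - 1 ∈ J := by
    have h1 : Sg 1 1 - 1 = (Sg 0 0 - 1) - (Sg 0 0 - Sg 1 1) := by ring
    rw [h1]
    exact J.sub_mem h00 hm
  fin_cases a <;> fin_cases c
  · simpa [Matrix.sub_apply] using h00
  · simpa [Matrix.sub_apply] using h01
  · simpa [Matrix.sub_apply] using h10
  · simpa [Matrix.sub_apply] using h11

/-- `Ξ ≤ J` iff `ρ (τ_j) ≡ 1` modulo `J` for all `j`. -/
theorem pvXi_le_iff {T : Type} [CommRing T] [IsLocalRing T] (ρ : GaloisRepAdic T)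
    (b : Module.Basis (Fin 2) T ρ.V) {k : ℕ} (Pv : PivotPrimes k) (J : Ideal T) :
    pvXi ρ b Pv ≤ J ↔
      ∀ (j : Fin k) (v : ρ.V), ρ.ρ (Pv.τ j) v - v ∈ (J • ⊤ : Submodule T ρ.V) := by
  constructor
  · intro h j v
    exact sub_mem_smul_top_of_entries b _ J
      (fun a c => h (Ideal.subset_span ⟨j, a, c, rfl⟩)) v
  · intro h
    rw [pvXi, Ideal.span_le]
    rintro _ ⟨j, a, c, rfl⟩
    exact mat_sub_one_mem b J _ (h j) a c

/-- `Ξ` does not depend on the basis. -/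
theorem pvXi_eq_of_bases {T : Type} [CommRing T] [IsLocalRing T] (ρ : GaloisRepAdic T)
    (b b' : Module.Basis (Fin 2) T ρ.V) {k : ℕ} (Pv : PivotPrimes k) :
    pvXi ρ b Pv = pvXi ρ b' Pv :=
  le_antisymm ((pvXi_le_iff ρ b Pv _).2 ((pvXi_le_iff ρ b' Pv _).1 le_rfl))
    ((pvXi_le_iff ρ b' Pv _).2 ((pvXi_le_iff ρ b Pv _).1 le_rfl))

theorem sigmaCoord_mem_idealX (𝒪 : Type) [CommRing 𝒪] (k g : ℕ) (x : Fin k × Fin 3) :
    sigmaCoord 𝒪 g x ∈ idealX 𝒪 k g :=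
  Ideal.subset_span ⟨x, rfl⟩

theorem cy_mem_idealX (𝒪 : Type) [CommRing 𝒪] (k g : ℕ) (j : Fin k) :
    cy 𝒪 g j ∈ idealX 𝒪 k g := sigmaCoord_mem_idealX 𝒪 k g (j, 0)

theorem cz_mem_idealX (𝒪 : Type) [CommRing 𝒪] (k g : ℕ) (j : Fin k) :
    cz 𝒪 g j ∈ idealX 𝒪 k g := sigmaCoord_mem_idealX 𝒪 k g (j, 1)

theorem cm_mem_idealX (𝒪 : Type) [CommRing 𝒪] (k g : ℕ) (j : Fin k) :
    cm 𝒪 g j ∈ idealX 𝒪 k g := sigmaCoord_mem_idealX 𝒪 k g (j, 2)

/-- **XI**: the hypothesis `Ξ_le` of `pvCore`.  `ρQ` over `RQ` with a coordinate homomorphism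
`γ` in the basis `bQ`; `τ : RQ → T` and a basis `b'` of `ρ` in which the matrices of `ρ` are the
images of those of `ρQ` (TRANSPORT); `det ρ (τ_j) = 1`, `ρ (τ_j) ≡ 1` modulo `𝔪`, `2` a unit. -/
theorem pvXi_le_map {𝒪 : Type} [CommRing 𝒪] {k g : ℕ}
    {T : Type} [CommRing T] [IsLocalRing T] [Algebra 𝒪 T]
    {RQ : Type} [CommRing RQ] [IsLocalRing RQ] [Algebra 𝒪 RQ]
    (ρ : GaloisRepAdic T) (ρQ : GaloisRepAdic RQ) (Pv : PivotPrimes k)
    (γ : PRing 𝒪 k g →ₐ[𝒪] RQ) (τ : RQ →ₐ[𝒪] T)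
    (b : Module.Basis (Fin 2) T ρ.V) (bQ : Module.Basis (Fin 2) RQ ρQ.V)
    (b' : Module.Basis (Fin 2) T ρ.V)
    (hb' : ∀ (j : Fin k) (i i' : Fin 2), b'.repr (ρ.ρ (Pv.τ j) (b' i)) i' =
      τ (bQ.repr (ρQ.ρ (Pv.τ j) (bQ i)) i'))
    (Mφ : Fin k → Matrix (Fin 2) (Fin 2) RQ)
    (hγ : IsCoordHom γ (fun j => LinearMap.toMatrix bQ bQ (ρQ.ρ (Pv.τ j))) Mφ)
    (h2 : IsUnit (2 : T))
    (hdet : ∀ j, LinearMap.det (ρ.ρ (Pv.τ j)) = 1)
    (hres : ∀ (j : Fin k) (v : ρ.V),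
      ρ.ρ (Pv.τ j) v - v ∈ (maximalIdeal T • ⊤ : Submodule T ρ.V)) :
    pvXi ρ b Pv ≤ Ideal.map ((τ.comp γ : PRing 𝒪 k g →ₐ[𝒪] T) : PRing 𝒪 k g →+* T)
      (idealX 𝒪 k g) := by
  rw [pvXi_le_iff]
  intro j v
  refine sub_mem_smul_top_of_entries b' _ _ (fun a c => ?_) v
  have hmap : ∀ f ∈ idealX 𝒪 k g, τ (γ f) ∈
      Ideal.map ((τ.comp γ : PRing 𝒪 k g →ₐ[𝒪] T) : PRing 𝒪 k g →+* T) (idealX 𝒪 k g) :=
    fun f hf => Ideal.mem_map_of_mem _ hf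
  have hent : ∀ i i' : Fin 2, LinearMap.toMatrix b' b' (ρ.ρ (Pv.τ j)) i' i =
      τ (LinearMap.toMatrix bQ bQ (ρQ.ρ (Pv.τ j)) i' i) := by
    intro i i'
    rw [LinearMap.toMatrix_apply, LinearMap.toMatrix_apply]
    exact hb' j i i'
  obtain ⟨hy0, hz0, hm0, -⟩ := hγ j
  have hy : γ (cy 𝒪 g j) = LinearMap.toMatrix bQ bQ (ρQ.ρ (Pv.τ j)) 0 1 := hy0
  have hz : γ (cz 𝒪 g j) = LinearMap.toMatrix bQ bQ (ρQ.ρ (Pv.τ j)) 1 0 := hz0
  have hm : γ (cm 𝒪 g j) = LinearMap.toMatrix bQ bQ (ρQ.ρ (Pv.τ j)) 0 0 -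
      LinearMap.toMatrix bQ bQ (ρQ.ρ (Pv.τ j)) 1 1 := hm0
  refine entries_mem_of_coords _ ?_ ?_ _ ?_ ?_ ?_ a c
  · rw [LinearMap.det_toMatrix]
    exact hdet j
  · have h1 : (LinearMap.toMatrix b' b' (ρ.ρ (Pv.τ j)) - 1) 1 1 ∈ maximalIdeal T :=
      mat_sub_one_mem b' (maximalIdeal T) _ (hres j) 1 1
    rw [Matrix.sub_apply, Matrix.one_apply_eq] at h1
    have h3 : 1 + LinearMap.toMatrix b' b' (ρ.ρ (Pv.τ j)) 1 1 =
        2 + (LinearMap.toMatrix b' b' (ρ.ρ (Pv.τ j)) 1 1 - 1) := by ring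
    rw [h3]
    by_contra hnu
    have h4 : (2 : T) ∈ maximalIdeal T := by
      have h5 := Ideal.sub_mem _ ((mem_maximalIdeal _).2 hnu) h1
      rwa [add_sub_cancel_right] at h5
    exact ((mem_maximalIdeal _).1 h4) h2
  · rw [hent, ← hy]
    exact hmap _ (cy_mem_idealX 𝒪 k g j)
  · rw [hent, ← hz]
    exact hmap _ (cz_mem_idealX 𝒪 k g j)
  · rw [hent, hent, ← map_sub, ← hm]
    exact hmap _ (cm_mem_idealX 𝒪 k g j)

end Fermat.Agent.L.Pivot.H76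

end
-- ==== END Fermat.Agent.L.Pivot.H76_Xi

-- ==== BEGIN Fermat.Agent.NEB.OLD.H14_Main
section

/-!
# NEB, package OLDNEW (helper14): the main theorems, UNCONDITIONAL

* `U0_eq_asbd`   : `U_q = a^* b_* - W` on `J₀(Mq)` (`OLD.U_eq` with the leaves discharged);
* `oldnew_iter`  : `OLD.iter` with all leaves discharged (any realization);
* `wOld`         : the same on `𝒪 ⊗_ℤ J₀(·)[p^∞]` over a local ring `𝒪`, hypotheses on residues.

Leaves: OLD-SQW helper66, OLD-DEG helper6, OLD-ABS + OLD-STEP helper38, OLD-CAD + OLD-CBD helper52,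
OLD-CAS + OLD-CBS helper57.
-/

set_option autoImplicit false
set_option linter.unusedSectionVars false
set_option linter.style.haveILetI false

noncomputable section

namespace Fermat.Agent.NEB.OLD

open AlgebraicCurve ModularCurve IsLocalRing
open Fermat.Agent.NEB.H14 Fermat.Agent.NEB.JH Fermat.Agent.RED

local notation "Kb" => AlgebraicClosure ℚ

/-- `U_q = a^* b_* - W` on `J₀(Mq)`, unconditional. -/
theorem U0_eq_asbd (M q : ℕ) [NeZero M] [NeZero q] (a b : ℤ) (hab : a * q + b * M = 1)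
    (hq : q.Prime) (y : JZero (M * q)) :
    U0 (M * q) q y = pullP (heckeAlphaBar Kb M q) (pushP (heckeBetaBar Kb M q) y)
      - Fermat.Agent.BAD.H88.wq q M a b hab hq • y :=
  U_eq M q a b hab hq H66.stmt_SquareW H6.stmt_DegBeta y

/-- `U0 = T0` at a prime not dividing the level. -/
theorem U0_eq_T0_of_not_dvd (M ℓ : ℕ) [NeZero M] [NeZero ℓ] (hℓ : ℓ.Prime) (hℓM : ¬ ℓ ∣ M)
    (x : JZero M) : U0 M ℓ x = T0 M ℓ x := by
  obtain ⟨a, b, hab⟩ := exists_bezout_of_not_dvd hℓ hℓM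
  exact U0_eq_T0 M ℓ a b hab hℓ x

/-- `U0` is the prelude's Hecke operator at a prime not dividing the level. -/
theorem U0_eq_heckeOperatorBar (M : ℕ) [NeZero M] (ℓ : Nat.Primes) (hℓM : ¬ (ℓ : ℕ) ∣ M)
    (x : JZero M) :
    (haveI : NeZero (ℓ : ℕ) := ⟨ℓ.2.ne_zero⟩; U0 M ℓ x) = heckeOperatorBar M ℓ x := by
  haveI : NeZero (ℓ : ℕ) := ⟨ℓ.2.ne_zero⟩
  rw [heckeOperatorBar_apply, T0_eq]
  exact U0_eq_T0_of_not_dvd M ℓ ℓ.2 hℓM x

/-- **OLDNEW, iterated, unconditional** (any realization). -/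
theorem oldnew_iter {𝒪 : Type} [CommRing 𝒪] (R : Realization 𝒪) (c' a' : ℕ → 𝒪)
    (qs : List ℕ) (N : ℕ) [NeZero N] (S : Set ℕ) (c : ℕ → 𝒪)
    (hnd : qs.Nodup) (hqs : ∀ q ∈ qs, q.Prime ∧ ¬ q ∣ N)
    (hS : ∀ ℓ ∈ S, ℓ.Prime ∧ ℓ ∉ qs ∧ ¬ ℓ ^ 2 ∣ N ∧ c' ℓ = c ℓ)
    (hu : ∀ q ∈ qs, IsUnit (c' q - a' q) ∧ IsUnit (c' q * c' q - 1) ∧
      IsUnit (a' q * a' q - 1) ∧ IsUnit (q : 𝒪) ∧ IsUnit (c' q))
    (ht : ∀ q ∈ qs, ∀ (M : ℕ) [NeZero M] (x : R.X M),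
        (∃ n : ℕ, ((q : 𝒪) - c' q * a' q) ^ n • x = 0) ∧
          ∃ n : ℕ, (c q - (c' q + a' q)) ^ n • x = 0)
    (Q : ℕ) [NeZero Q] (hQ : Q = N * qs.prod) :
    ∃ Φ : JZero Q →+ JZero N,
      (∀ (ℓ : ℕ) [NeZero ℓ], ℓ.Prime → ℓ ∉ qs → ¬ ℓ ^ 2 ∣ N →
        ∀ y, Φ (U0 Q ℓ y) = U0 N ℓ (Φ y)) ∧
      (∀ (σ : Kb ≃ₐ[ℚ] Kb) (y : JZero Q), Φ (σ • y) = σ • Φ y) ∧
      (∀ v, InE R Q (S ∪ {q | q ∈ qs}) c' v → InE R N (S ∪ {q | q ∈ qs}) c (R.map Φ v)) ∧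
      (∀ x, InE R N (S ∪ {q | q ∈ qs}) c x →
        ∃ v, InE R Q (S ∪ {q | q ∈ qs}) c' v ∧ R.map Φ v = x) ∧
      (∀ v, InE R Q (S ∪ {q | q ∈ qs}) c' v → R.map Φ v = 0 → v = 0) :=
  iter R H38.stmt_OldNewStep H66.stmt_SquareW H6.stmt_DegBeta H57.stmt_CompatAs
    H57.stmt_CompatBs H52.stmt_CompatAd H52.stmt_CompatBd c' a' qs N S c hnd hqs hS hu ht Q hQ

section Local

variable {𝒪 : Type} [CommRing 𝒪] [IsLocalRing 𝒪]

theorem isUnit_of_residue_ne_zero {x : 𝒪} (h : residue 𝒪 x ≠ 0) : IsUnit x := by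
  by_contra hx
  exact h ((residue_eq_zero_iff x).mpr ((mem_maximalIdeal x).mpr hx))

theorem mem_maximalIdeal_of_residue_eq {x y : 𝒪} (h : residue 𝒪 x = residue 𝒪 y) :
    x - y ∈ maximalIdeal 𝒪 := by
  rw [← residue_eq_zero_iff, map_sub, h, sub_self]

/-- **W-OLD** on `𝒪 ⊗_ℤ J₀(·)[p^∞]`: for distinct primes `q ∈ qs` not dividing `N`,
`q ≡ 1`, with `a q ≢ a' q`, `a q · a' q ≡ q`, `c q ≡ a q + a' q` modulo `𝔪_𝒪`, the composite `Φ`
of the `a_*` induces a bijection from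
`{v ∈ 𝒪 ⊗ J₀(Q)[p^∞] | v ∈ gk (U_ℓ - c ℓ) (ℓ ∈ S), v ∈ gk (U_q - a q) (q ∈ qs)}` onto
`{x ∈ 𝒪 ⊗ J₀(N)[p^∞] | x ∈ gk (U_ℓ - c ℓ) (ℓ ∈ S ∪ qs)}`, `Q = N ∏ qs`. -/
theorem wOld (p : ℕ) (hnil : ∀ e ∈ maximalIdeal 𝒪, ∃ (m : ℕ) (b : 𝒪), e ^ m = (p : 𝒪) * b)
    (N : ℕ) [NeZero N] (qs : List ℕ) (hnd : qs.Nodup) (hqs : ∀ q ∈ qs, q.Prime ∧ ¬ q ∣ N)
    (S : Set ℕ) (hS : ∀ ℓ ∈ S, ℓ.Prime ∧ ℓ ∉ qs ∧ ¬ ℓ ^ 2 ∣ N) (c a a' : ℕ → 𝒪)
    (ha : ∀ q ∈ qs, residue 𝒪 (a q) ≠ residue 𝒪 (a' q) ∧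
      residue 𝒪 (a q) * residue 𝒪 (a' q) = 1 ∧ residue 𝒪 (q : 𝒪) = 1 ∧
      residue 𝒪 (c q) = residue 𝒪 (a q) + residue 𝒪 (a' q))
    (Q : ℕ) [NeZero Q] (hQ : Q = N * qs.prod) :
    ∃ Φ : JZero Q →+ JZero N,
      (∀ (ℓ : ℕ) [NeZero ℓ], ℓ.Prime → ℓ ∉ qs → ¬ ℓ ^ 2 ∣ N →
        ∀ y, Φ (U0 Q ℓ y) = U0 N ℓ (Φ y)) ∧
      (∀ (σ : Kb ≃ₐ[ℚ] Kb) (y : JZero Q), Φ (σ • y) = σ • Φ y) ∧
      (∀ v, InE (realT 𝒪 p) Q S c v → InE (realT 𝒪 p) Q {q | q ∈ qs} a v →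
        InE (realT 𝒪 p) N (S ∪ {q | q ∈ qs}) c ((realT 𝒪 p).map Φ v)) ∧
      (∀ x, InE (realT 𝒪 p) N (S ∪ {q | q ∈ qs}) c x →
        ∃ v, InE (realT 𝒪 p) Q S c v ∧ InE (realT 𝒪 p) Q {q | q ∈ qs} a v ∧
          (realT 𝒪 p).map Φ v = x) ∧
      (∀ v, InE (realT 𝒪 p) Q S c v → InE (realT 𝒪 p) Q {q | q ∈ qs} a v →
        (realT 𝒪 p).map Φ v = 0 → v = 0) := by
  classical
  -- the constants at the top level
  let c' : ℕ → 𝒪 := fun ℓ => if ℓ ∈ qs then a ℓ else c ℓ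
  have hc'q : ∀ q ∈ qs, c' q = a q := fun q hq => if_pos hq
  have hc'S : ∀ ℓ ∈ S, c' ℓ = c ℓ := fun ℓ hℓ => if_neg (hS ℓ hℓ).2.1
  have hu : ∀ q ∈ qs, IsUnit (c' q - a' q) ∧ IsUnit (c' q * c' q - 1) ∧
      IsUnit (a' q * a' q - 1) ∧ IsUnit (q : 𝒪) ∧ IsUnit (c' q) := by
    intro q hq
    obtain ⟨h1, h2, h3, h4⟩ := ha q hq
    rw [hc'q q hq]
    have hane : residue 𝒪 (a q) ≠ 0 := fun h0 => by rw [h0, zero_mul] at h2; exact zero_ne_one h2
    have ha'ne : residue 𝒪 (a' q) ≠ 0 := fun h0 => by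
      rw [h0, mul_zero] at h2; exact zero_ne_one h2
    refine ⟨isUnit_of_residue_ne_zero ?_, isUnit_of_residue_ne_zero ?_,
      isUnit_of_residue_ne_zero ?_, isUnit_of_residue_ne_zero ?_,
      isUnit_of_residue_ne_zero hane⟩
    · rw [map_sub]
      exact sub_ne_zero.mpr h1
    · rw [map_sub, map_mul, map_one]
      intro h0
      have h5 : residue 𝒪 (a q) * residue 𝒪 (a q) = residue 𝒪 (a q) * residue 𝒪 (a' q) := by
        rw [h2]
        exact sub_eq_zero.mp h0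
      exact h1 (mul_left_cancel₀ hane h5)
    · rw [map_sub, map_mul, map_one]
      intro h0
      have h5 : residue 𝒪 (a' q) * residue 𝒪 (a' q) = residue 𝒪 (a' q) * residue 𝒪 (a q) := by
        rw [mul_comm (residue 𝒪 (a' q)) (residue 𝒪 (a q)), h2]
        exact sub_eq_zero.mp h0
      exact h1 (mul_left_cancel₀ ha'ne h5).symm
    · rw [h3]
      exact one_ne_zero
  have ht : ∀ q ∈ qs, ∀ (M : ℕ) [NeZero M] (x : (realT 𝒪 p).X M),
      (∃ n : ℕ, ((q : 𝒪) - c' q * a' q) ^ n • x = 0) ∧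
        ∃ n : ℕ, (c q - (c' q + a' q)) ^ n • x = 0 := by
    intro q hq M _ x
    obtain ⟨h1, h2, h3, h4⟩ := ha q hq
    rw [hc'q q hq]
    constructor
    · have hmem : (q : 𝒪) - a q * a' q ∈ maximalIdeal 𝒪 :=
        mem_maximalIdeal_of_residue_eq (by rw [map_mul, h2, h3])
      obtain ⟨m, b, hmb⟩ := hnil _ hmem
      exact realT_tors 𝒪 p _ m b hmb M x
    · have hmem : c q - (a q + a' q) ∈ maximalIdeal 𝒪 :=
        mem_maximalIdeal_of_residue_eq (by rw [map_add, h4])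
      obtain ⟨m, b, hmb⟩ := hnil _ hmem
      exact realT_tors 𝒪 p _ m b hmb M x
  obtain ⟨Φ, h1, h2, h3, h4, h5⟩ := oldnew_iter (realT 𝒪 p) c' a' qs N S c hnd hqs
    (fun ℓ hℓ => ⟨(hS ℓ hℓ).1, (hS ℓ hℓ).2.1, (hS ℓ hℓ).2.2, hc'S ℓ hℓ⟩) hu ht Q hQ
  have top_of : ∀ v, InE (realT 𝒪 p) Q S c v → InE (realT 𝒪 p) Q {q | q ∈ qs} a v →
      InE (realT 𝒪 p) Q (S ∪ {q | q ∈ qs}) c' v := by
    intro v hv1 hv2 ℓ hℓ hℓS
    rcases hℓS with h | h
    · rw [hc'S ℓ h]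
      exact hv1 ℓ hℓ h
    · rw [hc'q ℓ h]
      exact hv2 ℓ hℓ h
  have of_top : ∀ v, InE (realT 𝒪 p) Q (S ∪ {q | q ∈ qs}) c' v →
      InE (realT 𝒪 p) Q S c v ∧ InE (realT 𝒪 p) Q {q | q ∈ qs} a v := by
    intro v hv
    exact ⟨hv.congr _ (fun ℓ _ h => Or.inl h) (fun ℓ h => hc'S ℓ h),
      hv.congr _ (fun ℓ _ h => Or.inr h) (fun ℓ h => hc'q ℓ h)⟩
  refine ⟨Φ, h1, h2, fun v hv1 hv2 => h3 v (top_of v hv1 hv2), fun x hx => ?_,
    fun v hv1 hv2 => h5 v (top_of v hv1 hv2)⟩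
  obtain ⟨v, hv, hvx⟩ := h4 x hx
  exact ⟨v, (of_top v hv).1, (of_top v hv).2, hvx⟩

end Local

end Fermat.Agent.NEB.OLD

end
end
-- ==== END Fermat.Agent.NEB.OLD.H14_Main

-- ==== BEGIN Fermat.Agent.S43.Final4
section

set_option autoImplicit false

open WeierstrassCurve WeierstrassCurve.Affine WeierstrassCurve.Affine.Point
open scoped WeierstrassCurve.Affine

namespace Fermat.Agent.S43.BadQ

open Fermat.Agent.L.Pivot Fermat.Agent.L.Pivot.H76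

/-- Mazur's principle at the primes which are not exceptional, Frey form: DONE. -/
theorem stmt_NonExcFrey2_done : Stmt_NonExcFrey2 :=
  nonExcFrey2_of
    (badQ5odd_of_at
      (frobToricOdd_of_modSSDW_tame Fermat.Agent.S43.H91.stmt_ModSSDW_tame
        Fermat.Agent.S43.H13.stmt_FrobDesc)
      Fermat.Agent.S43.CompEis.H60.stmt_CompEisOdd
      (oldOdd_of Fermat.Agent.S43.Old.stmt_Old_done))

/-- **S43 from PIVOT (version 4).**  The conclusion is the frozen statement S43. -/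
theorem result_of_pivotFrey2 (hPF : Stmt_PivotFrey2)
    (P : FreyPackage) {N q : ℕ}
    (hcond : P.IsConductorLevel N) (hq : q.Prime) (hq2 : q ≠ 2) (hqp : q ≠ P.p) (hqN : q ∣ N)
    (hirr : GaloisRepIsIrreducible (K := AlgebraicClosure ℚ) ℚ P.freyCurve P.p)
    (hmod : P.ModularRepOfLevel N) (hunr : P.GaloisRepUnramifiedAt q) :
    ∃ M : ℕ, M ∣ N ∧ ¬ q ∣ M ∧ P.ModularRepOfLevel M :=
  result_of_open3 Fermat.Agent.S43.CompEis.H60.stmt_CompEisOdd hPF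
    P hcond hq hq2 hqp hqN hirr hmod hunr

end Fermat.Agent.S43.BadQ

end
-- ==== END Fermat.Agent.S43.Final4

-- ==== BEGIN Fermat.Agent.S59.Asm.Cond
section

/-!
# S59 (helper53): package COND (= TYPE) — the Hecke–Galois datum satisfies the deformation condition

* `Stmt_COND` : the datum `H` over the full local Hecke ring at a level
  `N' = (minimal level) · (squares of auxiliary primes)` satisfies `cond 𝒪 p fl Smin Q`.
  - determinant: hypothesis (DATUM gives it);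
  - unramified outside `Smin ∪ Q`: frozen S31 (`Fermat.Agent.S31.result`);
  - unipotent at `q ∈ Smin`, `q ≠ p`: frozen S34 (`Fermat.Agent.S34.result`), `q ∥ N'`;
  - `fl = true`  (`p ∤ N'`): flat at `p`: `S32.of_flatPoint` from `R.Stmt_FlatPoint`;
  - `fl = false` (`p ∥ N'`, `ρbar` NOT flat): STRICTLY ordinary at `p`:
      (1) strict ⟺ ordinary + `z² = 1` (`z` the character of `D_p` on `V/L`; `x z = det = ε`);
          `z² = 1` is tested at the characteristic-0 points of `T` (`T` reduced, `R.H2` SepT);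
      (2) a `p`-old point (`R.OccursAtLevel χ (N'/p)`) is flat at `p` (`R.Stmt_FlatPoint` at level
          `N'/p`), so its reduction `ρbar` would be flat: all points are `p`-new;
      (3) `p`-new points: `Stmt_OrdNewStrict` (geometry of the toric part: GlueFrob at `p`).
* `Stmt_OrdNewStrict` : `R.Stmt_OrdNew` with the conclusion `IsStrictOrdinaryAt`.

Target of the package (owner helper7):
  `theorem stmt_COND_of : R.Stmt_FlatPoint → Stmt_OrdNewStrict → Stmt_COND`.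
-/

set_option autoImplicit false

open Polynomial CuspForm IsLocalRing

namespace Fermat.Agent.S59.Asm

open Fermat.Agent.S59

/-- **S33, strict form, over a complete discrete valuation ring, `p`-new case.** -/
def Stmt_OrdNewStrict : Prop :=
  ∀ (p : ℕ) (N M : ℕ) [NeZero N] [NeZero M] (S : Finset ℕ)
    (𝒪 : Type) [CommRing 𝒪] [IsDomain 𝒪] [IsDiscreteValuationRing 𝒪]
    [IsAdicComplete (maximalIdeal 𝒪) 𝒪] [Finite (ResidueField 𝒪)] [CharZero 𝒪],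
    p.Prime → p ≠ 2 → (p : 𝒪) ∈ maximalIdeal 𝒪 → N = M * p → ¬ p ∣ M →
    (∀ q : ℕ, q.Prime → q ∣ N → q ∈ S) →
    ∀ (χ : CuspForm.heckeAlgebra N 2 (↑S : Set ℕ) →+* 𝒪) (ρ : GaloisRepAdic 𝒪),
      Fermat.Agent.R.HasFrobCharpoly χ ρ → ρ.residual.IsAbsolutelyIrreducible →
      ¬ Fermat.Agent.R.OccursAtLevel χ M →
      ρ.IsStrictOrdinaryAt p

/-- **COND**. -/
def Stmt_COND : Prop :=
  ∀ (𝒪 : Type) [CommRing 𝒪] [IsDomain 𝒪] [IsDiscreteValuationRing 𝒪]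
    [IsAdicComplete (maximalIdeal 𝒪) 𝒪] [Finite (ResidueField 𝒪)] [CharZero 𝒪]
    (p : ℕ) [Fact p.Prime], p ≠ 2 → (p : 𝒪) ∈ maximalIdeal 𝒪 →
    ∀ (fl : Bool) (ρbar : ResidualGaloisRep (ResidueField 𝒪)) (Smin : Finset ℕ),
    ResHyp p ρbar Smin →
    cond 𝒪 p fl Smin ∅ (GaloisRepAdic.ofResidualGaloisRep ρbar) →
    (fl = false → ¬ (GaloisRepAdic.ofResidualGaloisRep ρbar).IsFlatAt p) →
    ∀ (Q : Finset ℕ) (N' : ℕ) [NeZero N'] [Fact (CuspForm.HasIntegralStructure N' 2)]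
      (S' : Finset ℕ),
    S' = Smin ∪ Q →
    (∀ q : ℕ, q.Prime → q ∣ N' → q ∈ S') →
    (∀ q ∈ Smin, q ≠ p → q ∣ N' ∧ ¬ q ^ 2 ∣ N') →
    (fl = true → ¬ p ∣ N') → (fl = false → p ∣ N' ∧ ¬ p ^ 2 ∣ N') →
    ∀ (θ : CuspForm.heckeAlgebra N' 2 (↑S' : Set ℕ) →+* ResidueField 𝒪),
    Fermat.Agent.S59.Datum.FrobHyp ρbar N' S' θ →
    ∀ (H : CuspForm.HeckeGaloisRepDatum N' (↑S' : Set ℕ) 𝒪 θ
        (CuspForm.heckeLocal N' (↑S' : Set ℕ) 𝒪 θ)),
    H.π = CuspForm.heckeLocal.π N' (↑S' : Set ℕ) 𝒪 θ →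
    H.ρ.DetIsCyclotomic p →
    H.ρ.residual.IsEquiv (ρbar.baseChangeAlong
      (ResidueField.map (algebraMap 𝒪 (CuspForm.heckeLocal N' (↑S' : Set ℕ) 𝒪 θ)))) →
    cond 𝒪 p fl Smin Q H.ρ

end Fermat.Agent.S59.Asm

end
-- ==== END Fermat.Agent.S59.Asm.Cond

-- ==== BEGIN Fermat.Agent.S59.Asm.Leaves
section

/-!
# S59, package ASM (helper53): the leaves of the Taylor–Wiles assembly

Exact statements (`Prop`s).  Prove `theorem stmt_X : Stmt_X` in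
`Fermat/Agent/S59/Asm/H<seat>_<Name>.lean`, namespace `Fermat.Agent.S59.Asm.H<seat>`.
Paper proofs: `NOTES/plan/S59_ASM.md`.

* `Stmt_TAU`       : `R_Q ↠ R` (forgetting the ramification at the Taylor–Wiles primes).
* `Stmt_REST`      : restriction of Hecke operators from level `N'` to level `N ∣ N'`.
* `Stmt_LOCMOD`    : a `HMod` is a module over the local Hecke ring `heckeLocal`.
* `Stmt_RESLOC`    : `heckeLocal N' S' → heckeLocal N S` induced by `rest`.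
* `Stmt_CHV`       : Cayley–Hamilton on a Hecke–Galois module, from the relation at Frobenius
                     elements (Frobenius density + continuity + Lucas sequences).
* `Stmt_TRANSPORT` : a basis of `ρ` induces a basis of an equivalent base change, same matrices.
* `Stmt_BRIDGE`    : geometric local–global compatibility (`σ = d` on `V^α`) + Cayley–Hamilton
                     + TW-GAL + BLR ⟹ the character `χ₀(σ) ∈ T` acts on ALL of `V` as `d`.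
-/

set_option autoImplicit false

open Polynomial CuspForm IsLocalRing

namespace Fermat.Agent.S59.Asm

open Fermat.Agent.S59 Fermat.Agent.S59.TWGal

/-- **TAU**: the universal deformation ring with the auxiliary set `Q` surjects onto the one
without, compatibly with the universal representations.
[Existence: universal property of `DQ` applied to `D.ρ` (`cond … ∅ → cond … Q`).  Surjectivity:
injectivity on tangent spaces is formal from the uniqueness in the universal property of `D` at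
`A = k[ε]` (`DualNumber`, cf. S56/Dict), then Nakayama for complete local rings
(`S56.H50.surjective_of_gens` pattern).] -/
def Stmt_TAU : Prop :=
  ∀ (𝒪 : Type) [CommRing 𝒪] [IsDomain 𝒪] [IsDiscreteValuationRing 𝒪]
    [IsAdicComplete (maximalIdeal 𝒪) 𝒪] [Finite (ResidueField 𝒪)]
    (p : ℕ) [Fact p.Prime], p ≠ 2 → (p : 𝒪) ∈ maximalIdeal 𝒪 →
    ∀ (fl : Bool) (ρbar : ResidualGaloisRep (ResidueField 𝒪)) (Smin Q : Finset ℕ),
    p ∈ Smin → (∀ q ∈ Smin ∪ Q, q.Prime) →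
    ∀ (D : GaloisRep.DeformationRingData 𝒪 ρbar (cond 𝒪 p fl Smin ∅))
      (DQ : GaloisRep.DeformationRingData 𝒪 ρbar (cond 𝒪 p fl Smin Q)),
    ∃ τ : DQ.R →ₐ[𝒪] D.R, Function.Surjective τ ∧
      ∃ h : IsLocalHom (τ : DQ.R →+* D.R),
        (DQ.ρ.baseChangeAlong (τ : DQ.R →+* D.R) h).IsEquiv D.ρ

/-- **REST**: restriction of the Hecke algebra of level `N'` to the forms of level `N ∣ N'`. -/
def Stmt_REST : Prop :=
  ∀ (N N' : ℕ) [NeZero N] [NeZero N'] (S S' : Set ℕ), N ∣ N' → S ⊆ S' →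
    ∃ rest : CuspForm.heckeAlgebra N' 2 S' →+* CuspForm.heckeAlgebra N 2 S,
      ∀ (ℓ : ℕ) (hℓ : ℓ.Prime) (hℓN' : ¬ ℓ ∣ N') (hℓS' : ℓ ∉ S') (hℓN : ¬ ℓ ∣ N) (hℓS : ℓ ∉ S),
        rest (CuspForm.heckeAlgebra.T hℓ hℓN' hℓS') = CuspForm.heckeAlgebra.T hℓ hℓN hℓS

/-- **LOCMOD**: a Hecke module which is local at `θ` is a module over `heckeLocal`.
[`𝒪 ⊗ 𝕋 → End V`; an element outside the maximal ideal is `c + (nilpotent modulo 𝔪_𝒪)` with
`c` a unit, hence invertible on the finite free module `V`; `IsLocalization.lift`.] -/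
def Stmt_LOCMOD : Prop :=
  ∀ (𝒪 : Type) [CommRing 𝒪] [IsDomain 𝒪] [IsDiscreteValuationRing 𝒪]
    [IsAdicComplete (maximalIdeal 𝒪) 𝒪]
    (N : ℕ) [NeZero N] [Fact (CuspForm.HasIntegralStructure N 2)] (S : Set ℕ)
    (θ : CuspForm.heckeAlgebra N 2 S →+* ResidueField 𝒪) (M : HMod 𝒪 N S θ),
    ∃ ηhat : CuspForm.heckeLocal N S 𝒪 θ →ₐ[𝒪] Module.End 𝒪 M.V,
      ∀ t : CuspForm.heckeAlgebra N 2 S, ηhat (CuspForm.heckeLocal.π N S 𝒪 θ t) = M.η t

/-- **RESLOC**: the restriction map between the local Hecke rings. -/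
def Stmt_RESLOC : Prop :=
  ∀ (𝒪 : Type) [CommRing 𝒪] [IsDomain 𝒪] [IsDiscreteValuationRing 𝒪]
    [IsAdicComplete (maximalIdeal 𝒪) 𝒪]
    (N N' : ℕ) [NeZero N] [NeZero N'] [Fact (CuspForm.HasIntegralStructure N 2)]
    [Fact (CuspForm.HasIntegralStructure N' 2)] (S S' : Set ℕ)
    (θ : CuspForm.heckeAlgebra N 2 S →+* ResidueField 𝒪)
    (rest : CuspForm.heckeAlgebra N' 2 S' →+* CuspForm.heckeAlgebra N 2 S),
    ∃ res : CuspForm.heckeLocal N' S' 𝒪 (θ.comp rest) →ₐ[𝒪] CuspForm.heckeLocal N S 𝒪 θ,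
      ∀ t : CuspForm.heckeAlgebra N' 2 S',
        res (CuspForm.heckeLocal.π N' S' 𝒪 (θ.comp rest) t) =
          CuspForm.heckeLocal.π N S 𝒪 θ (rest t)

/-- **CHV**: Cayley–Hamilton on a Hecke–Galois module.  If the Frobenius elements outside a
finite set satisfy, on `V`, the characteristic polynomial of `ρ`, then every element of the
Galois group does.
[Modulo `ϖ^k`: both actions factor through a finite level; Frobenius density `R.Stmt_FD` gives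
`g ≡ σ^j`; `A² - tA + d = 0 ⟹ (A^j)² - tr(M^j) A^j + det(M^j) = 0` (Lucas sequences, L-CHPOW over
a commutative ring); `V` is `ϖ`-adically separated.] -/
def Stmt_CHV : Prop :=
  ∀ (𝒪 : Type) [CommRing 𝒪] [IsDomain 𝒪] [IsDiscreteValuationRing 𝒪]
    [IsAdicComplete (maximalIdeal 𝒪) 𝒪]
    (T : Type) [CommRing T] [IsLocalRing T] [Algebra 𝒪 T] [Module.Finite 𝒪 T]
    [IsLocalHom (algebraMap 𝒪 T)] (ρ : GaloisRepAdic T)
    (V : Type) [AddCommGroup V] [Module 𝒪 V] [Module.Finite 𝒪 V] [Module.Free 𝒪 V]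
    (ηhat : T →ₐ[𝒪] Module.End 𝒪 V) (gal : GalQ →* Module.End 𝒪 V),
    GaloisActionIsAdicContinuous 𝒪 gal →
    (∀ (g : GalQ) (t : T), Commute (gal g) (ηhat t)) →
    ∀ S : Finset ℕ,
    (∀ ℓ : ℕ, ℓ.Prime → ℓ ∉ S → ∀ A : ValuationSubring (AlgebraicClosure ℚ),
      A.LiesOverPrime ℓ → ∀ σ : GalQ, A.IsFrobeniusAt σ ℓ →
        gal σ * gal σ - ηhat (ρ.trace σ) * gal σ + ηhat (LinearMap.det (ρ.ρ σ)) = 0) →
    ∀ g : GalQ, gal g * gal g - ηhat (ρ.trace g) * gal g + ηhat (LinearMap.det (ρ.ρ g)) = 0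

/-- **TRANSPORT**: a basis of `ρ` induces a basis of every representation equivalent to a base
change of `ρ`, with the base-changed matrices. -/
def Stmt_TRANSPORT : Prop :=
  ∀ (A B : Type) [CommRing A] [IsLocalRing A] [CommRing B] [IsLocalRing B]
    (f : A →+* B) (hf : IsLocalHom f) (ρ : GaloisRepAdic A) (ρ' : GaloisRepAdic B),
    (ρ.baseChangeAlong f hf).IsEquiv ρ' →
    ∀ b : Module.Basis (Fin 2) A ρ.V, ∃ b' : Module.Basis (Fin 2) B ρ'.V,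
      ∀ (g : GalQ) (i j : Fin 2), b'.repr (ρ'.ρ g (b' i)) j = f (b.repr (ρ.ρ g (b i)) j)

/-- **BRIDGE**: from the geometric local–global compatibility to the Galois one.
`T` a local ring finite over `𝒪`, `ρ` over `T` residually absolutely irreducible, diagonal on the
decomposition group at `P` in the basis `b` with residually distinct Frobenius eigenvalues
`a ≠ a'`; `V` a `T`-module with a commuting Galois action satisfying Cayley–Hamilton for `ρ`;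
`V = Vα ⊕ Vβ` with `gal φ ≡ a` on `Vα`, `gal φ ≡ a'` on `Vβ`; `gal σ = d` on `Vα` for an operator
`d` commuting with everything, unipotent modulo `𝔪_𝒪`.  Then `χ₀(σ)` acts on `V` as `d`.
[Step 1, on `Vα`: `(gal g - χ₀ g)(gal g - χ₁ g) = 0` for `g = φ σ` and `g = φ`, the second factor
is `(a - a') +` commuting nilpotents, so `gal g = χ₀ g` on `Vα`; hence `χ₀ σ = d` on `Vα`.
Step 2: `E := χ₀ σ - d` commutes with Galois and kills `Vα`; if `E ≠ 0` then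
`X := E V / 𝔪_T E V ≠ 0` satisfies Cayley–Hamilton for `ρ.residual`, so `ρ.residual ↪ X` (L-BLR),
and the `a`-eigenvector of `φ` gives a vector of `X` killed by `φ - a`; but `X` is a quotient of
`E Vβ`, on which `φ - a'` is nilpotent: contradiction.] -/
def Stmt_BRIDGE : Prop :=
  ∀ (𝒪 : Type) [CommRing 𝒪] [IsDomain 𝒪] [IsDiscreteValuationRing 𝒪]
    [IsAdicComplete (maximalIdeal 𝒪) 𝒪]
    (T : Type) [CommRing T] [IsLocalRing T] [Algebra 𝒪 T] [Module.Finite 𝒪 T]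
    [IsLocalHom (algebraMap 𝒪 T)],
    Function.Surjective (residue T ∘ algebraMap 𝒪 T) →
    (2 : 𝒪) ∉ maximalIdeal 𝒪 →
    ∀ (ρ : GaloisRepAdic T), ρ.residual.IsAbsolutelyIrreducible →
    ∀ (V : Type) [AddCommGroup V] [Module 𝒪 V] [Module.Finite 𝒪 V] [Module.Free 𝒪 V]
      (ηhat : T →ₐ[𝒪] Module.End 𝒪 V) (gal : GalQ →* Module.End 𝒪 V),
    (∀ (g : GalQ) (t : T), Commute (gal g) (ηhat t)) →
    (∀ g : GalQ, gal g * gal g - ηhat (ρ.trace g) * gal g + ηhat (LinearMap.det (ρ.ρ g)) = 0) →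
    ∀ (P : ValuationSubring Qb) (b : Module.Basis (Fin 2) T ρ.V), DiagOn ρ P b →
    ∀ (φ σ : GalQ), φ ∈ P.decompositionSubgroup ℚ → σ ∈ P.decompositionSubgroup ℚ →
    ∀ (a a' : 𝒪), residue 𝒪 a ≠ residue 𝒪 a' →
    chi ρ b 0 φ - algebraMap 𝒪 T a ∈ maximalIdeal T →
    chi ρ b 1 φ - algebraMap 𝒪 T a' ∈ maximalIdeal T →
    (∀ i : Fin 2, chi ρ b i σ - 1 ∈ maximalIdeal T) →
    ∀ (d : Module.End 𝒪 V),
    (∃ m : ℕ, ∀ v : V, ((d - 1) ^ m) v ∈ (maximalIdeal 𝒪 • ⊤ : Submodule 𝒪 V)) →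
    (∀ t : T, Commute d (ηhat t)) → (∀ g : GalQ, Commute d (gal g)) →
    ∀ (Vα Vβ : Submodule 𝒪 V), IsCompl Vα Vβ →
    (∀ (t : T), ∀ v ∈ Vα, ηhat t v ∈ Vα) → (∀ v ∈ Vα, d v ∈ Vα) →
    (∀ v ∈ Vα, gal φ v ∈ Vα) → (∀ v ∈ Vβ, gal φ v ∈ Vβ) →
    (∃ m : ℕ, ∀ v ∈ Vα, ((gal φ - a • (1 : Module.End 𝒪 V)) ^ m) v ∈
      (maximalIdeal 𝒪 • ⊤ : Submodule 𝒪 V)) →
    (∃ m : ℕ, ∀ v ∈ Vβ, ((gal φ - a' • (1 : Module.End 𝒪 V)) ^ m) v ∈
      (maximalIdeal 𝒪 • ⊤ : Submodule 𝒪 V)) →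
    (∀ v ∈ Vα, gal σ v = d v) →
    ∀ v : V, ηhat (chi ρ b 0 σ) v = d v

end Fermat.Agent.S59.Asm

end
-- ==== END Fermat.Agent.S59.Asm.Leaves
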