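-- GENERATED (merged mirror, NOTES/tools/trim/merge3_helper67.py): 6 modules of the originals, bodies verbatim.
import Fermat.Agent.Zm.S43_L07_000
import Fermat.Agent.Zm.S43_L06_002
import Fermat.Agent.Zm.S43_L03_001
import Fermat.Agent.Zm.S35_L18_000
import Fermat.Agent.Zm.S15_L05_000
import Fermat.Agent.Zm.S44_L02_001
import Fermat.Agent.Zm.S15_L01_000
import Fermat.Agent.Zm.S43_L06_001
import Fermat.Agent.Zm.S43_L02_001
import Fermat.Agent.Zm.S43_L07_001
import Fermat.Agent.Zm.S33_L07_001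

-- ==== BEGIN Fermat.Agent.L.Pivot.H4_GalNB
section

set_option autoImplicit false
set_option linter.unusedSectionVars false
set_option linter.unusedVariables false
set_option linter.style.haveILetI false

noncomputable section

namespace Fermat.Agent.L.Pivot.H4

open Polynomial IsLocalRing CategoryTheory groupCohomology ExtCitation Module
  Fermat.Agent.S56

/-- The condition `𝒟⁰` over a base family `𝒟₀`: `𝒟₀ (Σ ∪ T)` and, at the pivot primes,
`ρ (τ_j) = 1`, `ρ (frob_j)` scalar. -/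
def condPvOf (𝒪 : Type) [CommRing 𝒪] (𝒟₀ : Finset ℕ → Cond 𝒪) {k : ℕ} (Pv : PivotPrimes k)
    (T : Finset ℕ) : Cond 𝒪 :=
  fun A _ _ _ ρ => 𝒟₀ (Pv.set ∪ T) ρ ∧
    ∀ j, ρ.ρ (Pv.τ j) = 1 ∧ ∃ c : A, ρ.ρ (Pv.frob j) = c • (1 : Module.End A ρ.V)

theorem condPvOf_condFl (𝒪 : Type) [CommRing 𝒪] (p : ℕ) (Smin : Finset ℕ) {k : ℕ}
    (Pv : PivotPrimes k) (T : Finset ℕ) :
    condPvOf 𝒪 (condFl 𝒪 p Smin) Pv T = condPv0 𝒪 p Smin Pv T := rfl

section

variable {𝒪 : Type} [CommRing 𝒪] [IsLocalRing 𝒪]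

/-- A local bound for the family `𝒟₀` gives a local bound for the family `condPvOf 𝒟₀ Pv`. -/
theorem localBound_condPvOf (ρbar : ResidualGaloisRep (ResidueField 𝒪))
    (𝒟₀ : Finset ℕ → Cond 𝒪) {k : ℕ} (Pv : PivotPrimes k) (q : Nat.Primes) (δ : ℕ)
    (h : LocalBound ρbar 𝒟₀ q δ) :
    LocalBound ρbar (fun T => condPvOf 𝒪 𝒟₀ Pv T) q δ := by
  obtain ⟨W, h1, h2, h3, h4⟩ := h
  refine ⟨W, h1, h2, h3, fun T x ξ hξ => ?_⟩
  letI := Fermat.Agent.S53.dualNumberAlgebra 𝒪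
  letI := Fermat.Agent.S53.resDualNumberAlgebra 𝒪
  let x' : Fermat.Agent.S53.TSub 𝒪 ρbar (𝒟₀ (Pv.set ∪ T)) := ⟨x.1, x.2.1.1, x.2.2⟩
  exact h4 (Pv.set ∪ T) x' ξ hξ

end

/-- **PV-GAL-N, generic in the base family.** -/
theorem pvGalN_generic (hGW : Stmt_GW)
    {𝒪 : Type} [CommRing 𝒪] [IsDomain 𝒪] [IsDiscreteValuationRing 𝒪]
    [IsAdicComplete (maximalIdeal 𝒪) 𝒪] [Finite (ResidueField 𝒪)]
    (p : ℕ) [Fact p.Prime] (ρbar : ResidualGaloisRep (ResidueField 𝒪)) (S Smin : Finset ℕ)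
    (hyp : Hyp 𝒪 p ρbar S Smin) (𝒟₀ : Finset ℕ → Cond 𝒪)
    (h𝒟det : ∀ (T : Finset ℕ) ⦃A : Type⦄ [CommRing A] [IsLocalRing A] [Algebra 𝒪 A]
      (ρ : GaloisRepAdic A), 𝒟₀ T ρ → ρ.DetIsCyclotomic p)
    (h𝒟unr : ∀ (T : Finset ℕ) ⦃A : Type⦄ [CommRing A] [IsLocalRing A] [Algebra 𝒪 A]
      (ρ : GaloisRepAdic A), 𝒟₀ T ρ → ∀ q : ℕ, q.Prime → q ∉ Smin ∪ T → ρ.IsUnramifiedAt q)
    (hLB : ∀ q : Nat.Primes, (q : ℕ) ∈ Smin →
      LocalBound ρbar 𝒟₀ q (if (q : ℕ) = p then 1 else 0))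
    (k : ℕ) (Pv : PivotPrimes k) (hex : Pv.IsExceptional p ρbar) (hPS : Pv.set ⊆ S) :
    ∃ r g : ℕ, r = 3 * k + g ∧ ∀ n : ℕ, ∃ qv : Fin r → ℕ, IsTWFamily ρbar p n S qv ∧
      TangentLE 𝒪 ρbar (condPvOf 𝒪 𝒟₀ Pv (Finset.univ.image qv)) g := by
  have hp : p.Prime := Fact.out
  have hpk : (p : ResidueField 𝒪) = 0 := by
    have := (IsLocalRing.residue_eq_zero_iff (p : 𝒪)).mpr hyp.hp𝒪
    simpa using this
  have hcard : Pv.set.card = k := by
    unfold PivotPrimes.set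
    rw [Finset.card_image_of_injective _ Pv.q_inj, Finset.card_univ, Fintype.card_fin]
  have key := assembly_core_pv hGW TWS.stmt_TW_select H27.stmt_glob_h0 H13.stmt_loc_inf
    H9.stmt_loc_TW H59.stmt_loc_TW_h0 H13.stmt_unr_of_res_zero
    Dict.stmt_dict_exists Dict.H85.stmt_dict_inj Dict.stmt_dict_cont H47.ad0_basic
    H47.tate_basic p ρbar S Smin hyp Pv.set hPS ?_ ?_ (fun T => condPvOf 𝒪 𝒟₀ Pv T)
    ?_ ?_ ?_ ?_
  · rw [hcard] at key
    exact key
  · intro q hq hqS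
    obtain ⟨j, -, rfl⟩ := Finset.mem_image.1 hq
    obtain ⟨-, hqp, hur, -⟩ := hex j
    exact ((hyp.hmin _ (Pv.q_prime j) hqp).1 hqS) hur
  · intro q hq
    obtain ⟨j, -, hj⟩ := Finset.mem_image.1 hq
    obtain ⟨-, hqp, hur, hsc⟩ := hex j
    have hPj : (Pv.P j).LiesOverPrime (q : ℕ) := hj ▸ Pv.P_over j
    have hFj : (Pv.P j).IsFrobeniusAt (Pv.frob j) (q : ℕ) := hj ▸ Pv.frob_spec j
    exact three_le_h0 ρbar q (hj ▸ hur) (Pv.P j) hPj (Pv.frob j) hFj hsc
  · intro T A _ _ _ ρ h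
    exact h𝒟det _ ρ h.1
  · intro T A _ _ _ ρ h q hq hqS
    exact h𝒟unr _ ρ h.1 q hq hqS
  · intro q hq
    exact localBound_condPvOf ρbar 𝒟₀ Pv q _ (hLB q hq)
  · intro q hq T x ξ hξ
    obtain ⟨j, -, hj⟩ := Finset.mem_image.1 hq
    obtain ⟨-, hqp, hur, -⟩ := hex j
    have hPj : (Pv.P j).LiesOverPrime (q : ℕ) := hj ▸ Pv.P_over j
    have hFj : (Pv.P j).IsFrobeniusAt (Pv.frob j) (q : ℕ) := hj ▸ Pv.frob_spec j
    have hτj : IsTameGen (q : ℕ) (Pv.P j) (Pv.τ j) := hj ▸ Pv.τ_gen j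
    letI := Fermat.Agent.S53.dualNumberAlgebra 𝒪
    exact resAt_eq_zero_of_tame p hp hyp.hp2 hpk q (hj ▸ hqp) (hj ▸ hur) (Pv.P j) hPj
      (Pv.frob j) hFj (Pv.τ j) hτj x (x.2.1.2 j).1 (x.2.1.2 j).2 ξ hξ

/-- **PV-GAL-N for the flat (`fl = true`) and the strictly ordinary (`fl = false`) condition.** -/
theorem pvGalN_bool (hGW : Stmt_GW)
    {𝒪 : Type} [CommRing 𝒪] [IsDomain 𝒪] [IsDiscreteValuationRing 𝒪]
    [IsAdicComplete (maximalIdeal 𝒪) 𝒪] [Finite (ResidueField 𝒪)]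
    (p : ℕ) [Fact p.Prime] (ρbar : ResidualGaloisRep (ResidueField 𝒪)) (S Smin : Finset ℕ)
    (hyp : Hyp 𝒪 p ρbar S Smin) (fl : Bool)
    (k : ℕ) (Pv : PivotPrimes k) (hex : Pv.IsExceptional p ρbar) (hPS : Pv.set ⊆ S) :
    ∃ r g : ℕ, r = 3 * k + g ∧ ∀ n : ℕ, ∃ qv : Fin r → ℕ, IsTWFamily ρbar p n S qv ∧
      TangentLE 𝒪 ρbar
        (condPvOf 𝒪 (Fermat.Agent.S59.cond 𝒪 p fl Smin) Pv (Finset.univ.image qv)) g := by
  cases fl
  · -- strictly ordinary
    refine pvGalN_generic hGW p ρbar S Smin hyp (condSO 𝒪 p Smin) ?_ ?_ ?_ k Pv hex hPS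
    · intro T A _ _ _ ρ h
      exact h.1.1
    · intro T A _ _ _ ρ h q hq hqS
      exact h.1.2.2 q hq hqS
    · intro q hq
      by_cases h : (q : ℕ) = p
      · rw [if_pos h]
        have hqp : q = pPrime p := Subtype.ext h
        rw [hqp]
        exact H57.stmt_loc_p_SO 𝒪 p ρbar S Smin hyp
      · rw [if_neg h]
        exact (LocMin.stmt_loc_min 𝒪 p ρbar S Smin hyp q hq h).1
  · -- flat
    refine pvGalN_generic hGW p ρbar S Smin hyp (condFl 𝒪 p Smin) ?_ ?_ ?_ k Pv hex hPS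
    · intro T A _ _ _ ρ h
      exact h.1.1
    · intro T A _ _ _ ρ h q hq hqS
      exact h.1.2.2 q hq hqS
    · intro q hq
      by_cases h : (q : ℕ) = p
      · rw [if_pos h]
        have hqp : q = pPrime p := Subtype.ext h
        rw [hqp]
        exact FL.H50.stmt_loc_p_Fl 𝒪 p ρbar S Smin hyp
      · rw [if_neg h]
        exact (LocMin.stmt_loc_min 𝒪 p ρbar S Smin hyp q hq h).2

end Fermat.Agent.L.Pivot.H4

end

end
-- ==== END Fermat.Agent.L.Pivot.H4_GalNB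

-- ==== BEGIN Fermat.Agent.L.Pivot.H50_StIMod
section

/-!
# PIVOT, PV-OLD (helper50): the modular interface `Stmt_ModStI` and `Stmt_StICore` from it

`Stmt_ModStI M q p` = what the modular side (item 65, BAD_q) has to provide for (StI), for every
valuation ring `A` of `ℚ̄` over `q ∤ M` and every Frobenius element `σ` at `A`: ONE semistable
Deuring datum `S` for `F = F_{Mq} · ℚ̄` with

* the clauses of helper89's `S35.H89.Stmt_ModSt M q` (both residue fields `E`, `σ²` Frobenius-like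
  of exponent `q²`, total conservation for the two degeneracy maps, conservation at level `M`);
* the clauses of helper91's `BAD.Stmt_ModSSD` (first component = Gauss valuation, inertia acts
  inertially);
* the last clause of helper60's `S43.CompEis.H60.Stmt_CE_Coord`: an inertia-fixed annulus
  coordinate of thickness `q ^ e`, `e ≠ 0`, at every node;
* the input of FROB-FIN: `φb` acts on the constants by `a ↦ a ^ q` and fixes a non-constant
  function.

`stICore_of_modStI : Stmt_ModStI M q p → Stmt_StICore M q p` (GLUE, FROB-FIN, `stmt_UnrFix` are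
plugged in), and

`tatePieceStI_of_modStI : (∀ thin (M, q), q ≠ p, Stmt_ModStI M q p) → L.Pivot.Stmt_TatePieceStI`.
-/

set_option autoImplicit false
set_option linter.style.haveILetI false
set_option maxHeartbeats 1000000

noncomputable section

open AlgebraicCurve ModularCurve Fermat.Agent.S28.H73 Fermat.Agent.RED.H73

attribute [local instance] Classical.propDecidable

namespace Fermat.Agent.L.Pivot.H50

open Fermat.Agent.RED.H17 Fermat.Agent.RED Fermat.Agent.BAD Fermat.Agent.S35.H89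

local notation "Kb" => AlgebraicClosure ℚ

/-- **The modular side of (StI)** at `(M, q, p)`. -/
def Stmt_ModStI (M q p : ℕ) [NeZero M] [NeZero q] : Prop :=
  ∀ A : ValuationSubring Kb, A.LiesOverPrime q →
    ∀ σ : GalQ, A.IsFrobeniusAt σ q →
    ∃ (E : Type) (_ : Field E) (_ : Algebra (kV A) E)
      (S : SSD Kb ↥(FNbar (M * q)) (kV A) E E)
      (_ : FFHyp Kb ↥(FNbar (M * q))) (_ : FFHyp (kV A) E)
      (g g₁ : ℕ) (c c₁ : ℤ) (φb : SemilinearAut (kV A) E) (τb : E →+* E)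
      (ρ ρ' : Place Kb ↥(FNbar (M * q)) → Place (kV A) E)
      (β : Place (kV A) E → Place (kV A) E),
      IsGenus Kb ↥(FNbar (M * q)) g c ∧ IsGenus (kV A) E g₁ c₁ ∧
      g + 1 ≤ g₁ + g₁ + S.nodes.card ∧
      S.IsFrobLike (galF (M * q) (σ * σ)) τb τb (q ^ 2) ∧
      (∀ (u₁ : S.c₁.V) (u₂ : S.c₂.V), S.c₁.red u₁ ≠ 0 → S.c₂.red u₂ ≠ 0 →
        (∃ a : Kb, (u₂ : ↥(FNbar (M * q))) =
          algebraMap Kb ↥(FNbar (M * q)) a * (u₁ : ↥(FNbar (M * q)))) →
        ∀ D : Divisor Kb ↥(FNbar (M * q)),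
          (∀ P, D P = P.ord (u₁ : ↥(FNbar (M * q)))) → ∀ z : Place (kV A) E,
          Finsupp.mapDomain ρ D z = z.ord (S.c₁.red u₁) + (β z).ord (S.c₂.red u₂)) ∧
      (∀ (u₁ : S.c₁.V) (u₂ : S.c₂.V), S.c₁.red u₁ ≠ 0 → S.c₂.red u₂ ≠ 0 →
        (∃ a : Kb, (u₂ : ↥(FNbar (M * q))) =
          algebraMap Kb ↥(FNbar (M * q)) a * (u₁ : ↥(FNbar (M * q)))) →
        ∀ D : Divisor Kb ↥(FNbar (M * q)),
          (∀ P, D P = P.ord (u₁ : ↥(FNbar (M * q)))) → ∀ z : Place (kV A) E,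
          Finsupp.mapDomain ρ' D z = z.ord (S.c₂.red u₂) + (β z).ord (S.c₁.red u₁)) ∧
      (∀ (z : Place (kV A) E) (ψ : E), (β z).ord ψ = z.ord (φb • ψ)) ∧
      (∀ (hα : HeckeAlphaBarIntegral Kb M q) (D : Divisor Kb ↥(FNbar (M * q))),
        (Divisor.pushforwardAlong (heckeAlphaBar Kb M q) hα D).IsPrincipal →
        ∃ h : E, h ≠ 0 ∧ ∀ z : Place (kV A) E, Finsupp.mapDomain ρ D z = z.ord h) ∧
      (∀ (hβ : HeckeBetaBarIntegral Kb M q) (D : Divisor Kb ↥(FNbar (M * q))),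
        (Divisor.pushforwardAlong (heckeBetaBar Kb M q) hβ D).IsPrincipal →
        ∃ h : E, h ≠ 0 ∧ ∀ z : Place (kV A) E, Finsupp.mapDomain ρ' D z = z.ord h) ∧
      (∀ a : kV A, SemilinearAut.baseAut φb a = a ^ q) ∧
      (∃ x : E, x ∉ Set.range (algebraMap (kV A) E) ∧ φb • x = x) ∧
      (∀ f : ↥(FNbar (M * q)), f ∈ gaussV A (M * q) → f ∈ S.c₁.V) ∧
      (∀ (f : ↥(gaussV A (M * q))) (hf : (f : ↥(FNbar (M * q))) ∈ S.c₁.V),
        gaussRes A (M * q) f = 1 → S.c₁.red ⟨(f : ↥(FNbar (M * q))), hf⟩ = 1) ∧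
      (∀ τ ∈ A.inertiaSubgroupIn ℚ, S.IsInertial (galF (M * q) τ)) ∧
      ∀ s ∈ S.nodes, ∃ (e : ℕ) (t : ↥(FNbar (M * q))), e ≠ 0 ∧
        S.IsAnnCoord s t ((q : Kb) ^ e) ∧
        ∀ τ ∈ A.inertiaSubgroupIn ℚ, galF (M * q) τ • t = t

/-- **The Kummer form of (StI) from the modular datum.** -/
theorem stICore_of_modStI (M q p : ℕ) [NeZero M] [NeZero q] (hq : q.Prime) (hp : p.Prime)
    (hqp : q ≠ p) (hS : Stmt_ModStI M q p) : Stmt_StICore M q p := by
  intro A hA σ hσ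
  obtain ⟨E, iE, iA, S, H, HE, g, g₁, c, c₁, φb, τb, ρ, ρ', β, hR, hRE, hnum, hτ, htot,
    htot', hβ, hcα, hcβ, hφk, hφx, hV, hred, hin, hcoord⟩ := hS A hA σ hσ
  haveI : IsAlgClosed (kV A) := isAlgClosed_kV A
  have hqp' : ¬ q ∣ p := fun h => hqp ((Nat.prime_dvd_prime_iff_eq hq hp).mp h)
  have hpk : ((p : ℕ) : kV A) ≠ 0 := H91.natCast_kV_ne_zero A hq hA hqp'
  -- constants
  have hqval : A.valuation (q : Kb) < 1 := hA
  have hq0 : (q : Kb) ≠ 0 := Nat.cast_ne_zero.mpr hq.ne_zero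
  have hqA : (q : Kb) ∈ A := (A.valuation_le_one_iff _).mp hqval.le
  have hqinv : (q : Kb)⁻¹ ∉ A :=
    ((ValuationSubring.mem_nonunits_iff_or A).mp hA).resolve_left hq0
  -- the set of inertial automorphisms
  obtain ⟨I, hIdef⟩ : ∃ I : Set (SemilinearAut Kb ↥(FNbar (M * q))),
      I = {τ | ∃ σ' ∈ A.inertiaSubgroupIn ℚ, τ = galF (M * q) σ'} := ⟨_, rfl⟩
  have hImem : ∀ σ' ∈ A.inertiaSubgroupIn ℚ, galF (M * q) σ' ∈ I := by
    intro σ' hσ'
    rw [hIdef]
    exact ⟨σ', hσ', rfl⟩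
  have hI : ∀ τ ∈ I, S.IsInertial τ := by
    intro τ hτ'
    rw [hIdef] at hτ'
    obtain ⟨σ', hσ', rfl⟩ := hτ'
    exact hin σ' hσ'
  have hbase : ∀ σ' : GalQ, ∀ y : Kb, SemilinearAut.baseAut (galF (M * q) σ') y = σ' y := by
    intro σ' y
    rw [baseAut_arithmeticGalois]
    rfl
  have hπI : ∀ τ ∈ I, SemilinearAut.baseAut τ (q : Kb) = (q : Kb) := by
    intro τ hτ'
    rw [hIdef] at hτ'
    obtain ⟨σ', -, rfl⟩ := hτ'
    rw [hbase]
    exact map_natCast σ' q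
  have hπ : ∀ m : ℤ, S.IsCU ((q : Kb) ^ m) → m = 0 :=
    fun m hm => Fermat.Agent.S15.Desc.H63.zpow_isCU_imp S hV hred hqA hqinv m hm
  have hunr : ∀ Y : Kb, Y ≠ 0 → (∀ τ ∈ I, SemilinearAut.baseAut τ Y = Y) →
      ∃ m : ℤ, S.IsCU (Y / (q : Kb) ^ m) := by
    intro Y hY0 hYI
    have hfix : ∀ σ' ∈ A.inertiaSubgroupIn ℚ, σ' Y = Y := by
      intro σ' hσ'
      have := hYI _ (hImem σ' hσ')
      rwa [hbase] at this
    obtain ⟨m, hm⟩ := Fermat.Agent.R.H6.stmt_UnrFix q hq A hA Y hY0 hfix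
    refine ⟨m, ?_⟩
    have hqm0 : (q : Kb) ^ m ≠ 0 := zpow_ne_zero _ hq0
    have hv1 : A.valuation (Y / (q : Kb) ^ m) = 1 := by
      rw [map_div₀, map_zpow₀, hm]
      exact div_self (zpow_ne_zero _ ((map_ne_zero _).mpr hq0))
    have hv2 : A.valuation (Y / (q : Kb) ^ m)⁻¹ = 1 := by
      rw [map_inv₀, hv1, inv_one]
    exact Fermat.Agent.S15.Desc.H63.isCU_of_unit S hV ((A.valuation_le_one_iff _).mp hv1.le)
      ((A.valuation_le_one_iff _).mp hv2.le) (div_ne_zero hY0 hqm0)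
  have hcoord' : ∀ s ∈ S.nodes, ∃ (e : ℕ) (t : ↥(FNbar (M * q))), e ≠ 0 ∧
      S.IsAnnCoord s t ((q : Kb) ^ e) ∧ ∀ τ ∈ I, τ • t = t := by
    intro s hs
    obtain ⟨e, t, he, ht, htI⟩ := hcoord s hs
    refine ⟨e, t, he, ht, fun τ hτ' => ?_⟩
    rw [hIdef] at hτ'
    obtain ⟨σ', hσ', rfl⟩ := hτ'
    exact htI σ' hσ'
  -- the abstract theorem
  obtain ⟨c', hc'⟩ := stI_abs
    (glueFrobGen_of Fermat.Agent.BAD.stmt_Moving Fermat.Agent.BAD.H28.stmt_GoodLift
      Fermat.Agent.BAD.H28.stmt_TIss)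
    Fermat.Agent.L.H28.stmt_FrobFinExp S H HE g g₁ c c₁ hR hRE hnum
    (galF (M * q) (σ * σ)) φb τb (q ^ 2) hτ q hq.one_lt hφk hφx ρ ρ' β htot htot' hβ
    I hI (q : Kb) hq0 hπI hπ hunr p hp hpk hcoord'
  refine ⟨c', ?_⟩
  intro m f hf0 hdiv hfI hαI hβI D hD hDα hDβ
  set n : ℕ := p ^ m with hn
  have hn0 : n ≠ 0 := pow_ne_zero _ hp.ne_zero
  have hnZ : (n : ℤ) ≠ 0 := by exact_mod_cast hn0
  -- the divisor `D / n`
  have hDn : ∀ P, (n : ℤ) ∣ D P := fun P => by rw [hD P]; exact hdiv P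
  have hDeq : (n : ℤ) • divBy n D = D := nsmul_divBy n D hDn
  have hnew' : ∀ (φ : ↥(FNbar M) →ₐ[Kb] ↥(FNbar (M * q)))
      (hφ : φ.toRingHom.IsIntegral)
      (r : Place Kb ↥(FNbar (M * q)) → Place (kV A) E),
      ((Divisor.pushforwardAlong φ hφ (divBy n D)).IsPrincipal →
        ∃ h : E, h ≠ 0 ∧ ∀ z : Place (kV A) E,
          Finsupp.mapDomain r (divBy n D) z = z.ord h) →
      (∃ g : ↥(FNbar M), g ≠ 0 ∧ ∀ Q : Place Kb ↥(FNbar M),
        Divisor.pushforwardAlong φ hφ D Q = n * Q.ord g) →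
      ∃ h : E, h ≠ 0 ∧ ∀ D' : Divisor Kb ↥(FNbar (M * q)),
        (∀ P, D' P = P.ord f) → ∀ z : Place (kV A) E,
          Finsupp.mapDomain r D' z = (n : ℤ) * z.ord h := by
    rintro φ hφ r hc ⟨g, hg0, hg⟩
    have hprin : (Divisor.pushforwardAlong φ hφ (divBy n D)).IsPrincipal := by
      refine ⟨g, hg0, fun Q => ?_⟩
      have h1 := hg Q
      rw [← hDeq, map_zsmul, Finsupp.smul_apply, smul_eq_mul] at h1
      exact mul_left_cancel₀ hnZ h1
    obtain ⟨h, hh0, hh⟩ := hc hprin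
    refine ⟨h, hh0, fun D' hD' z => ?_⟩
    have e : D' = (n : ℤ) • divBy n D := by
      rw [hDeq]
      ext P
      rw [hD' P, hD P]
    rw [e, Finsupp.mapDomain_smul, Finsupp.smul_apply, hh z, smul_eq_mul]
  exact hc' m f hf0 hdiv (fun τ hτ' => by
      rw [hIdef] at hτ'
      obtain ⟨σ', hσ', rfl⟩ := hτ'
      exact hfI σ' hσ')
    (hnew' _ hαI ρ (hcα hαI _) hDα) (hnew' _ hβI ρ' (hcβ hβI _) hDβ)

/-- **`Stmt_TatePieceStI` from the modular datum at the thin levels.** -/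
theorem tatePieceStI_of_modStI
    (h : ∀ (M q p : ℕ) [NeZero M] [NeZero q], q.Prime → ¬ q ∣ M → p.Prime → q ≠ p →
      ThinLevel M q → Stmt_ModStI M q p) :
    Fermat.Agent.L.Pivot.Stmt_TatePieceStI :=
  tatePieceStI_final fun M q p _ _ =>
    torsStI_all (fun M' q' p' _ _ hq' hqM' hp' hqp' ht =>
      stICore_of_modStI M' q' p' hq' hp' hqp' (h M' q' p' hq' hqM' hp' hqp' ht)) M q p

end Fermat.Agent.L.Pivot.H50

end
end
-- ==== END Fermat.Agent.L.Pivot.H50_StIMod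

-- ==== BEGIN Fermat.Agent.L.Pivot.H59_Unip
section

/-!
# PIVOT, package PV-TAME (helper59), part T1'': the unipotent criterion

`ρ : GaloisRepAdic A` (`A` noetherian local, `p ∈ 𝔪`) with cyclotomic determinant, residually
unramified at `q ≠ p`, `τ` a uniform tame generator at ONE place `P` over `q`.  Then
`tr ρ(τ) = 2` implies that `ρ` is unipotent on ALL inertia groups over `q`
(`GaloisRepAdic.IsUnipotentOnInertiaAt`).

* `exists_pow_approx` : `ρ(σ) ≡ ρ(τ) ^ j mod 𝔪 ^ N` for `σ ∈ I_P` (some `j`, every `N`).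
* `trace_eq_two_of_mem_inertia`, `isUnipotentOnInertiaAt_of_trace`.
* `trace_eq_two_of_isUnipotent` : the converse (the trace of a unipotent element is `2`).
-/

set_option autoImplicit false
set_option linter.style.haveILetI false
set_option linter.unusedSectionVars false

namespace Fermat.Agent.L.Pivot.H59

open IsLocalRing Fermat.Agent.S59.TWGal Polynomial

/-- Inertia elements are approximated by the powers of a uniform tame generator. -/
theorem exists_pow_approx (A : Type) [CommRing A] [IsLocalRing A] [IsNoetherianRing A]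
    (p : ℕ) (hp : p.Prime) (hpA : (p : A) ∈ maximalIdeal A) (ρ : GaloisRepAdic A)
    (q : ℕ) (hq : q.Prime) (hqp : q ≠ p) (P : ValuationSubring Qb)
    (hI : ∀ σ ∈ P.inertiaSubgroupIn ℚ, ∀ v : ρ.V,
      ρ.ρ σ v - v ∈ maximalIdeal A • (⊤ : Submodule A ρ.V))
    (τ₀ : GQ) (hτ₀ : τ₀ ∈ P.inertiaSubgroupIn ℚ)
    (hτ : ∀ F : IntermediateField ℚ Qb, FiniteDimensional ℚ F →
      ∀ σ ∈ P.inertiaSubgroupIn ℚ, ∃ j e : ℕ, ((τ₀ ^ j)⁻¹ * σ) ^ (q ^ e) ∈ F.fixingSubgroup)
    (b : Module.Basis (Fin 2) A ρ.V)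
    (σ : GQ) (hσ : σ ∈ P.inertiaSubgroupIn ℚ) (N : ℕ) :
    ∃ j' : ℕ, ∀ i j, (mat b (ρ.ρ σ) - mat b (ρ.ρ τ₀) ^ j') i j ∈ maximalIdeal A ^ N := by
  classical
  have hMU := H01.stmt_MatUnip
  have hcop : ∀ e : ℕ, (q ^ e).Coprime p :=
    fun e => Nat.Coprime.pow_left e ((Nat.coprime_primes hq hp).2 hqp)
  let μ : GQ →* Matrix (Fin 2) (Fin 2) A :=
    ((LinearMap.toMatrixAlgEquiv b : Module.End A ρ.V ≃ₐ[A] _) : Module.End A ρ.V →* _).comp ρ.ρ
  have hμ : ∀ g, μ g = mat b (ρ.ρ g) := fun _ => rfl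
  obtain ⟨L, hL, hcont⟩ := ρ.isAdicContinuous N
  have hfix : ∀ u ∈ L.fixingSubgroup, red (maximalIdeal A ^ N) (μ u) = 1 := by
    intro u hu
    rw [red_eq_one_iff]
    exact mat_sub_one_mem b _ _
      (hcont u (fun x hx => (IntermediateField.mem_fixingSubgroup_iff L u).1 hu x hx))
  obtain ⟨j', e, hje⟩ := hτ L hL σ hσ
  have hw : (τ₀ ^ j')⁻¹ * σ ∈ P.inertiaSubgroupIn ℚ := mul_mem (inv_mem (pow_mem hτ₀ j')) hσ
  have h1 : red (maximalIdeal A ^ N) (μ ((τ₀ ^ j')⁻¹ * σ)) = 1 := by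
    rw [red_eq_one_iff]
    refine hMU A (maximalIdeal A) p (q ^ e) N hpA (hcop e) (μ ((τ₀ ^ j')⁻¹ * σ)) ?_ ?_
    · exact mat_sub_one_mem b _ _ (hI _ hw)
    · rw [← map_pow, ← red_eq_one_iff]
      exact hfix _ hje
  have key : ∀ W : GQ, red (maximalIdeal A ^ N) (μ W) = 1 → σ = τ₀ ^ j' * W →
      red (maximalIdeal A ^ N) (μ σ - μ τ₀ ^ j') = 0 := by
    intro W hW h2
    have h3 : μ σ = μ τ₀ ^ j' * μ W := by rw [h2, map_mul, map_pow]
    rw [h3, map_sub, map_mul, hW, mul_one, sub_self]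
  have h3 : red (maximalIdeal A ^ N) (μ σ - μ τ₀ ^ j') = 0 := key _ h1 (by group)
  refine ⟨j', fun i j => ?_⟩
  rw [← hμ, ← hμ, ← red_apply_eq_zero_iff, h3, Matrix.zero_apply]

section unip

variable {A : Type} [CommRing A] [IsLocalRing A] [IsNoetherianRing A]

/-- A `2 × 2` matrix of determinant `1` and trace `2` satisfies `(Y - 1)² = 0`. -/
theorem sub_one_sq_of_trace_two (Y : Matrix (Fin 2) (Fin 2) A) (hd : Y.det = 1)
    (ht : Y.trace = 2) : (Y - 1) * (Y - 1) = 0 := by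
  have h := mul_self_of_det_one Y hd
  rw [ht] at h
  have e : (Y - 1) * (Y - 1) = Y * Y - (2 : A) • Y + 1 := by
    rw [sub_mul, mul_sub, mul_one, one_mul, two_smul]
    abel
  rw [e, h]
  abel

/-- The trace of `ρ` on the inertia group at `P` is `2` if it is `2` at a uniform tame
generator. -/
theorem trace_eq_two_of_mem_inertia (p : ℕ) (hp : p.Prime) (ρ : GaloisRepAdic A)
    (hdet : ρ.DetIsCyclotomic p) (q : ℕ) (hq : q.Prime) (hqp : q ≠ p)
    (hunr : ρ.residual.IsUnramifiedAt q)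
    (P : ValuationSubring (AlgebraicClosure ℚ)) (hP : P.LiesOverPrime q)
    (τ : GQ) (hτ : IsTameGen q P τ) (htr : LinearMap.trace A ρ.V (ρ.ρ τ) = 2)
    (σ : GQ) (hσ : σ ∈ P.inertiaSubgroupIn ℚ) :
    LinearMap.trace A ρ.V (ρ.ρ σ) = 2 := by
  classical
  let b : Module.Basis (Fin 2) A ρ.V := Module.finBasisOfFinrankEq A ρ.V ρ.finrank_eq
  have hI : ∀ σ ∈ P.inertiaSubgroupIn ℚ, ∀ v : ρ.V,
      ρ.ρ σ v - v ∈ maximalIdeal A • (⊤ : Submodule A ρ.V) := by
    intro s hs w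
    exact sub_mem_of_baseChange_eq_one b (ρ.ρ s) (hunr P hP s hs) w
  have hgen : ∀ F : IntermediateField ℚ Qb, FiniteDimensional ℚ F →
      ∀ σ ∈ P.inertiaSubgroupIn ℚ, ∃ j e : ℕ,
        ((τ ^ j)⁻¹ * σ) ^ (q ^ e) ∈ F.fixingSubgroup := by
    intro F hF s hs
    obtain ⟨i, e, h⟩ := hτ.2 F hF s hs
    exact ⟨i, e, (IntermediateField.mem_fixingSubgroup_iff F _).2 h⟩
  have hmat : ∀ f : Module.End A ρ.V, LinearMap.trace A ρ.V f = (mat b f).trace :=
    fun f => LinearMap.trace_eq_matrix_trace A b f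
  have hY1 : (mat b (ρ.ρ τ)).det = 1 := by
    have h := det_eq_one_of_mem_inertia p hp ρ hdet q hq hqp P hP τ hτ.1
    rw [← LinearMap.det_toMatrix b] at h
    exact h
  have hY2 : (mat b (ρ.ρ τ)).trace = 2 := by rw [← hmat]; exact htr
  have hsq := sub_one_sq_of_trace_two _ hY1 hY2
  have hpow : ∀ j : ℕ, (mat b (ρ.ρ τ) ^ j).trace = 2 := by
    intro j
    rw [pow_of_sq_zero _ hsq j, Matrix.trace_add, Matrix.trace_smul, Matrix.trace_sub, hY2,
      Matrix.trace_one]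
    simp
  rw [hmat, ← sub_eq_zero]
  have hk := Ideal.iInf_pow_eq_bot_of_isLocalRing (maximalIdeal A)
    (maximalIdeal.isMaximal A).ne_top
  have hmem : (mat b (ρ.ρ σ)).trace - 2 ∈ ⨅ i : ℕ, maximalIdeal A ^ i := by
    rw [Ideal.mem_iInf]
    intro N
    obtain ⟨j', hj'⟩ := exists_pow_approx A p hp hdet.1 ρ q hq hqp P hI τ hτ.1 hgen b σ hσ N
    have e : (mat b (ρ.ρ σ)).trace - 2 = (mat b (ρ.ρ σ) - mat b (ρ.ρ τ) ^ j').trace := by
      rw [Matrix.trace_sub, hpow j']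
    rw [e, Matrix.trace_fin_two]
    exact add_mem (hj' 0 0) (hj' 1 1)
  rw [hk] at hmem
  exact (Submodule.mem_bot A).1 hmem

/-- The characteristic polynomial of an endomorphism of a free module of rank `2` with trace `2`
and determinant `1`. -/
theorem charpoly_eq_of_trace_det {V : Type} [AddCommGroup V] [Module A V]
    [Module.Free A V] [Module.Finite A V]
    (b : Module.Basis (Fin 2) A V) (f : Module.End A V)
    (ht : LinearMap.trace A V f = 2) (hd : LinearMap.det f = 1) :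
    LinearMap.charpoly f = ((X - 1) ^ 2 : A[X]) := by
  rw [← LinearMap.charpoly_toMatrix f b, Matrix.charpoly_fin_two,
    ← LinearMap.trace_eq_matrix_trace A b f, LinearMap.det_toMatrix b, ht, hd]
  simp only [map_one]
  have h2 : (C (2 : A) : A[X]) = 2 := map_ofNat C 2
  rw [h2]
  ring

/-- **T1''.**  Trace `2` at a uniform tame generator at one place over `q` implies that `ρ` is
unipotent on all inertia groups over `q`. -/
theorem isUnipotentOnInertiaAt_of_trace (p : ℕ) (hp : p.Prime) (ρ : GaloisRepAdic A)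
    (hdet : ρ.DetIsCyclotomic p) (q : ℕ) (hq : q.Prime) (hqp : q ≠ p)
    (hunr : ρ.residual.IsUnramifiedAt q)
    (P : ValuationSubring (AlgebraicClosure ℚ)) (hP : P.LiesOverPrime q)
    (τ : GQ) (hτ : IsTameGen q P τ) (htr : LinearMap.trace A ρ.V (ρ.ρ τ) = 2) :
    ρ.IsUnipotentOnInertiaAt q := by
  classical
  intro A' hA' σ hσ
  let b : Module.Basis (Fin 2) A ρ.V := Module.finBasisOfFinrankEq A ρ.V ρ.finrank_eq
  have hd : LinearMap.det (ρ.ρ σ) = 1 :=
    det_eq_one_of_mem_inertia p hp ρ hdet q hq hqp A' hA' σ hσ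
  obtain ⟨g, hg⟩ := Fermat.Agent.Lib.InertiaConj.exists_conj_mem_inertia q hq P A' hP hA'
  have hs := (hg σ).1 hσ
  have h1 := trace_eq_two_of_mem_inertia p hp ρ hdet q hq hqp hunr P hP τ hτ htr _ hs
  have h2 : ρ.ρ σ = ρ.ρ g * (ρ.ρ (g⁻¹ * σ * g) * ρ.ρ g⁻¹) := by
    rw [← map_mul, ← map_mul]
    congr 1
    group
  have ht : LinearMap.trace A ρ.V (ρ.ρ σ) = 2 := by
    rw [h2, LinearMap.trace_mul_comm, mul_assoc, ← map_mul, inv_mul_cancel, map_one, mul_one]
    exact h1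
  exact charpoly_eq_of_trace_det b _ ht hd

/-- Conversely: the trace of a unipotent element is `2`. -/
theorem trace_eq_two_of_charpoly {V : Type} [AddCommGroup V] [Module A V]
    [Module.Free A V] [Module.Finite A V]
    (b : Module.Basis (Fin 2) A V) (f : Module.End A V)
    (h : LinearMap.charpoly f = ((X - 1) ^ 2 : A[X])) : LinearMap.trace A V f = 2 := by
  rw [← LinearMap.charpoly_toMatrix f b, Matrix.charpoly_fin_two,
    ← LinearMap.trace_eq_matrix_trace A b f] at h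
  have h1 := congrArg (fun P : A[X] => P.coeff 1) h
  have e : ((X : A[X]) - 1) ^ 2 = X ^ 2 - C (2 : A) * X + C (1 : A) := by
    have h2 : (C (2 : A) : A[X]) = 2 := map_ofNat C 2
    rw [h2, map_one]
    ring
  rw [e] at h1
  simp only [coeff_add, coeff_sub, coeff_X_pow, coeff_C_mul, coeff_X_one, coeff_C] at h1
  simpa using h1

end unip

end Fermat.Agent.L.Pivot.H59

end
-- ==== END Fermat.Agent.L.Pivot.H59_Unip

-- ==== BEGIN Fermat.Agent.L.Pivot.H76_Rank
section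

set_option autoImplicit false

namespace Fermat.Agent.L.Pivot.H76

open Fermat.Agent.S59.TWH

section Aug

variable {A : Type*} [CommRing A] {V : Type*} [AddCommGroup V] [Module A V]
variable {I K : Type*} [Fintype I] [Fintype K] {bv : I × K → V}

/-- the augmentation functional `Λ_i`: the sum of the coordinates `(i, κ)`, `κ : K`. -/
noncomputable def augL (hb : Function.Bijective (Fintype.linearCombination A bv)) (i : I) :
    V →ₗ[A] A :=
  (∑ κ : K, LinearMap.proj (R := A) (φ := fun _ : I × K => A) (i, κ)) ∘ₗ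
    (LinearEquiv.ofBijective (Fintype.linearCombination A bv) hb).symm.toLinearMap

theorem ofBijective_symm_bv (hb : Function.Bijective (Fintype.linearCombination A bv))
    [DecidableEq (I × K)] (κ : I × K) :
    (LinearEquiv.ofBijective (Fintype.linearCombination A bv) hb).symm (bv κ) =
      Pi.single κ 1 := by
  rw [LinearEquiv.symm_apply_eq]
  show _ = Fintype.linearCombination A bv (Pi.single κ 1)
  rw [Fintype.linearCombination_apply_single, one_smul]

theorem augL_bv (hb : Function.Bijective (Fintype.linearCombination A bv)) [DecidableEq I]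
    (i : I) (κ : I × K) : augL hb i (bv κ) = if κ.1 = i then 1 else 0 := by
  classical
  rw [augL, LinearMap.comp_apply, LinearEquiv.coe_coe, ofBijective_symm_bv, LinearMap.sum_apply]
  simp only [LinearMap.proj_apply]
  split_ifs with h
  · subst h
    rw [Finset.sum_eq_single κ.2]
    · exact Pi.single_eq_same _ _
    · intro x _ hx
      rw [Pi.single_eq_of_ne]
      intro h'
      exact hx (congrArg Prod.snd h')
    · intro h'
      exact absurd (Finset.mem_univ _) h'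
  · refine Finset.sum_eq_zero fun x _ => ?_
    rw [Pi.single_eq_of_ne]
    intro h'
    exact h (congrArg Prod.fst h').symm

/-- `Λ_i` is invariant under an operator permuting the basis vectors within the blocks. -/
theorem augL_invariant (hb : Function.Bijective (Fintype.linearCombination A bv)) (i : I)
    (T : Module.End A V) (σ : K → K) (hT : ∀ κ : I × K, T (bv κ) = bv (κ.1, σ κ.2)) (v : V) :
    augL hb i (T v) = augL hb i v := by
  classical
  obtain ⟨G, rfl⟩ := hb.2 v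
  rw [Fintype.linearCombination_apply, map_sum, map_sum, map_sum]
  refine Finset.sum_congr rfl fun κ _ => ?_
  rw [map_smul, map_smul, map_smul, hT, augL_bv, augL_bv]

theorem augL_sub_one (hb : Function.Bijective (Fintype.linearCombination A bv)) (i : I)
    (T : Module.End A V) (σ : K → K) (hT : ∀ κ : I × K, T (bv κ) = bv (κ.1, σ κ.2)) (v : V) :
    augL hb i ((T - 1) v) = 0 := by
  rw [LinearMap.sub_apply, Module.End.one_apply, map_sub, augL_invariant hb i T σ hT, sub_self]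

end Aug

section Rank

variable {𝒪 : Type} [CommRing 𝒪] {V : Type} [AddCommGroup V] [Module 𝒪 V] {p r n k : ℕ}
variable {d : Fin r → Module.End 𝒪 V} {c : Fin k → Module.End 𝒪 V} {e : Fin k → ℕ} {rk : ℕ}
  {b : Fin rk → V}

/-- the basis vectors `c ^ x d ^ y (b i)`. -/
def bvec2 (c : Fin k → Module.End 𝒪 V) (d : Fin r → Module.End 𝒪 V) (e : Fin k → ℕ) (p n : ℕ)
    (b : Fin rk → V) (κ : Fin rk × (∀ j : Fin k, Fin (p ^ e j)) × (Fin r → Fin (p ^ n))) : V :=
  H90.mon c (fun j => (κ.2.1 j : ℕ)) (H90.mon d (fun i => (κ.2.2 i : ℕ)) (b κ.1))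

theorem bijective_bvec2
    (hb : Function.Bijective
      (fun f : Fin rk × (∀ j : Fin k, Fin (p ^ e j)) × (Fin r → Fin (p ^ n)) → 𝒪 =>
        ∑ x : Fin rk × (∀ j : Fin k, Fin (p ^ e j)) × (Fin r → Fin (p ^ n)),
          f x • H90.mon c (fun j => (x.2.1 j : ℕ))
            (H90.mon d (fun i => (x.2.2 i : ℕ)) (b x.1)))) :
    Function.Bijective (Fintype.linearCombination 𝒪 (bvec2 c d e p n b)) := by
  have h1 : (⇑(Fintype.linearCombination 𝒪 (bvec2 c d e p n b))) =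
      (fun f : Fin rk × (∀ j : Fin k, Fin (p ^ e j)) × (Fin r → Fin (p ^ n)) → 𝒪 =>
        ∑ x : Fin rk × (∀ j : Fin k, Fin (p ^ e j)) × (Fin r → Fin (p ^ n)),
          f x • H90.mon c (fun j => (x.2.1 j : ℕ))
            (H90.mon d (fun i => (x.2.2 i : ℕ)) (b x.1))) := by
    funext f
    rw [Fintype.linearCombination_apply]
    rfl
  rw [h1]
  exact hb

theorem chi_one (x : Fin k → ℕ) : chi (fun _ : Fin k => (1 : 𝒪)) x = 1 := by
  induction k with
  | zero => rw [chi, H90.mon_zero, Module.End.one_apply]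
  | succ k ih => rw [chi_succ, one_pow, one_mul, ih]

theorem tsub_one_eq (d : Fin r → Module.End 𝒪 V) :
    tsub d (fun _ => (1 : 𝒪)) = ⨆ i, LinearMap.range (d i - 1) := by
  rw [tsub]
  simp only [one_smul]

theorem c_bvec2 (hp : 0 < p) (hcc : ∀ i j, Commute (c i) (c j))
    (hc : ∀ j, c j ^ (p ^ e j) = 1) (j : Fin k)
    (κ : Fin rk × (∀ j : Fin k, Fin (p ^ e j)) × (Fin r → Fin (p ^ n))) :
    c j (bvec2 c d e p n b κ) =
      bvec2 c d e p n b (κ.1, (shiftX (fun j => p ^ e j) (fun j => pow_pos hp _) j κ.2.1,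
        κ.2.2)) := by
  rw [bvec2, bvec2]
  show _ = H90.mon c (fun i => ((shiftX (fun j => p ^ e j) (fun j => pow_pos hp _) j κ.2.1 i :
    Fin (p ^ e i)) : ℕ)) _
  rw [mon_shiftX c (fun j => p ^ e j) hcc hc, ← (H90.commute_mon c _ (fun i => hcc j i)).eq,
    Module.End.mul_apply]

theorem d_bvec2 (hp : 0 < p) (hdd : ∀ i j, Commute (d i) (d j))
    (hd : ∀ i, d i ^ (p ^ n) = 1) (hcd : ∀ j i, Commute (c j) (d i)) (i : Fin r)
    (κ : Fin rk × (∀ j : Fin k, Fin (p ^ e j)) × (Fin r → Fin (p ^ n))) :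
    d i (bvec2 c d e p n b κ) =
      bvec2 c d e p n b (κ.1, (κ.2.1,
        shiftX (fun _ : Fin r => p ^ n) (fun _ => pow_pos hp _) i κ.2.2)) := by
  rw [bvec2, bvec2]
  show _ = H90.mon c _ (H90.mon d (fun i' => ((shiftX (fun _ : Fin r => p ^ n)
    (fun _ => pow_pos hp _) i κ.2.2 i' : Fin (p ^ n)) : ℕ)) _)
  rw [mon_shiftX d (fun _ : Fin r => p ^ n) hdd hd,
    ← (H90.commute_mon d _ (fun i' => hdd i i')).eq, Module.End.mul_apply]
  have h1 := (H90.commute_mon c (fun j => (κ.2.1 j : ℕ)) (fun j => (hcd j i).symm)).eq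
  have h2 := congrArg (fun f : Module.End 𝒪 V =>
    f (H90.mon d (fun i => (κ.2.2 i : ℕ)) (b κ.1))) h1
  simp only [Module.End.mul_apply] at h2
  exact h2

theorem b_eq_bvec2 (hp : 0 < p) (i : Fin rk) :
    b i = bvec2 c d e p n b (i, ((fun j => ⟨0, pow_pos hp _⟩), (fun _ => ⟨0, pow_pos hp _⟩))) := by
  rw [bvec2]
  show _ = H90.mon c (fun _ => 0) (H90.mon d (fun _ => 0) (b i))
  rw [mon_zero_exp, mon_zero_exp, Module.End.one_apply, Module.End.one_apply]

theorem bvec2_sub_b_mem (hcc : ∀ i j, Commute (c i) (c j)) (hdd : ∀ i j, Commute (d i) (d j))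
    (κ : Fin rk × (∀ j : Fin k, Fin (p ^ e j)) × (Fin r → Fin (p ^ n))) :
    bvec2 c d e p n b κ - b κ.1 ∈
      typeSub c (fun _ => (1 : 𝒪)) ⊔ ⨆ i, LinearMap.range (d i - 1) := by
  have h1 := mon_sub_chi_mem c hcc (fun _ => (1 : 𝒪)) (fun j => (κ.2.1 j : ℕ))
    (H90.mon d (fun i => (κ.2.2 i : ℕ)) (b κ.1))
  have h2 := mon_sub_chi_mem d hdd (fun _ => (1 : 𝒪)) (fun i => (κ.2.2 i : ℕ)) (b κ.1)
  rw [chi_one, one_smul] at h1 h2
  rw [tsub_one_eq] at h2
  have h3 : bvec2 c d e p n b κ - b κ.1 =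
      (H90.mon c (fun j => (κ.2.1 j : ℕ)) (H90.mon d (fun i => (κ.2.2 i : ℕ)) (b κ.1)) -
        H90.mon d (fun i => (κ.2.2 i : ℕ)) (b κ.1)) +
      (H90.mon d (fun i => (κ.2.2 i : ℕ)) (b κ.1) - b κ.1) := by
    rw [bvec2]
    abel
  rw [h3, typeSub_eq_tsub]
  exact Submodule.add_mem _ (Submodule.mem_sup_left h1) (Submodule.mem_sup_right h2)

/-- **RANK**: `π ∘ b` is a basis of `M`. -/
theorem exists_basis_of_pvCore (hp : 0 < p) {M : Type} [AddCommGroup M] [Module 𝒪 M]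
    (hd : ∀ i, d i ^ (p ^ n) = 1) (hdd : ∀ i j, Commute (d i) (d j))
    (hc : ∀ j, c j ^ (p ^ e j) = 1) (hcc : ∀ i j, Commute (c i) (c j))
    (hcd : ∀ j i, Commute (c j) (d i))
    (hb : Function.Bijective
      (fun f : Fin rk × (∀ j : Fin k, Fin (p ^ e j)) × (Fin r → Fin (p ^ n)) → 𝒪 =>
        ∑ x : Fin rk × (∀ j : Fin k, Fin (p ^ e j)) × (Fin r → Fin (p ^ n)),
          f x • H90.mon c (fun j => (x.2.1 j : ℕ))
            (H90.mon d (fun i => (x.2.2 i : ℕ)) (b x.1))))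
    (π : V →ₗ[𝒪] M) (hπ : Function.Surjective π)
    (hker : LinearMap.ker π =
      typeSub c (fun _ => (1 : 𝒪)) ⊔ ⨆ i, LinearMap.range (d i - 1)) :
    ∃ B : Module.Basis (Fin rk) 𝒪 M, ∀ i, B i = π (b i) := by
  classical
  have hb' := bijective_bvec2 hb
  -- the augmentations kill the kernel
  have hΛ : ∀ (i : Fin rk) (v : V), v ∈ LinearMap.ker π → augL hb' i v = 0 := by
    intro i v hv
    rw [hker] at hv
    have hle : typeSub c (fun _ => (1 : 𝒪)) ⊔ ⨆ i, LinearMap.range (d i - 1) ≤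
        LinearMap.ker (augL hb' i) := by
      refine sup_le ?_ ?_
      · rw [typeSub_eq_tsub, tsub_one_eq]
        refine iSup_le fun j => ?_
        rintro _ ⟨w, rfl⟩
        rw [LinearMap.mem_ker]
        exact augL_sub_one hb' i (c j)
          (fun x => (shiftX (fun j => p ^ e j) (fun j => pow_pos hp _) j x.1, x.2))
          (fun κ => c_bvec2 hp hcc hc j κ) w
      · refine iSup_le fun j => ?_
        rintro _ ⟨w, rfl⟩
        rw [LinearMap.mem_ker]
        exact augL_sub_one hb' i (d j)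
          (fun x => (x.1, shiftX (fun _ : Fin r => p ^ n) (fun _ => pow_pos hp _) j x.2))
          (fun κ => d_bvec2 hp hdd hd hcd j κ) w
    exact hle hv
  have hli : LinearIndependent 𝒪 (fun i => π (b i)) := by
    rw [Fintype.linearIndependent_iff]
    intro f hf i
    have h1 : ∑ i, f i • b i ∈ LinearMap.ker π := by
      rw [LinearMap.mem_ker, map_sum]
      simp only [map_smul]
      exact hf
    have h2 := hΛ i _ h1
    rw [map_sum] at h2
    simp only [map_smul] at h2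
    have h3 : ∀ i' : Fin rk, augL hb' i (b i') = if i' = i then 1 else 0 := by
      intro i'
      have h4 := augL_bv hb' i
        (i', ((fun j => (⟨0, pow_pos hp _⟩ : Fin (p ^ e j))),
          (fun _ : Fin r => (⟨0, pow_pos hp _⟩ : Fin (p ^ n)))))
      rw [← b_eq_bvec2 hp i'] at h4
      exact h4
    simp only [h3, smul_eq_mul, mul_ite, mul_one, mul_zero, Finset.sum_ite_eq',
      Finset.mem_univ, if_true] at h2
    exact h2
  have hsp : ⊤ ≤ Submodule.span 𝒪 (Set.range fun i => π (b i)) := by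
    rintro m -
    obtain ⟨v, rfl⟩ := hπ m
    obtain ⟨G, rfl⟩ := hb'.2 v
    rw [Fintype.linearCombination_apply, map_sum]
    refine Submodule.sum_mem _ fun κ _ => ?_
    rw [map_smul]
    refine Submodule.smul_mem _ _ ?_
    have h1 : π (bvec2 c d e p n b κ) = π (b κ.1) := by
      have h2 : bvec2 c d e p n b κ - b κ.1 ∈ LinearMap.ker π := by
        rw [hker]
        exact bvec2_sub_b_mem hcc hdd κ
      rw [LinearMap.mem_ker, map_sub, sub_eq_zero] at h2
      exact h2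
    rw [h1]
    exact Submodule.subset_span ⟨κ.1, rfl⟩
  exact ⟨Module.Basis.mk hli hsp, fun i => Module.Basis.mk_apply hli hsp i⟩

/-- **RANK**: `Module.finrank 𝒪 M = rk`. -/
theorem finrank_eq_rk [Nontrivial 𝒪] (hp : 0 < p) {M : Type} [AddCommGroup M] [Module 𝒪 M]
    (hd : ∀ i, d i ^ (p ^ n) = 1) (hdd : ∀ i j, Commute (d i) (d j))
    (hc : ∀ j, c j ^ (p ^ e j) = 1) (hcc : ∀ i j, Commute (c i) (c j))
    (hcd : ∀ j i, Commute (c j) (d i))
    (hb : Function.Bijective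
      (fun f : Fin rk × (∀ j : Fin k, Fin (p ^ e j)) × (Fin r → Fin (p ^ n)) → 𝒪 =>
        ∑ x : Fin rk × (∀ j : Fin k, Fin (p ^ e j)) × (Fin r → Fin (p ^ n)),
          f x • H90.mon c (fun j => (x.2.1 j : ℕ))
            (H90.mon d (fun i => (x.2.2 i : ℕ)) (b x.1))))
    (π : V →ₗ[𝒪] M) (hπ : Function.Surjective π)
    (hker : LinearMap.ker π =
      typeSub c (fun _ => (1 : 𝒪)) ⊔ ⨆ i, LinearMap.range (d i - 1)) :
    Module.finrank 𝒪 M = rk := by
  obtain ⟨B, -⟩ := exists_basis_of_pvCore hp hd hdd hc hcc hcd hb π hπ hker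
  rw [Module.finrank_eq_card_basis B, Fintype.card_fin]

end Rank

end Fermat.Agent.L.Pivot.H76

end
-- ==== END Fermat.Agent.L.Pivot.H76_Rank

-- ==== BEGIN Fermat.Agent.L.Pivot.H76_Sat
section

set_option autoImplicit false

namespace Fermat.Agent.L.Pivot.H76

open Fermat.Agent.S59.TWH

section Sat

variable {𝒪 : Type} [CommRing 𝒪] {V : Type} [AddCommGroup V] [Module 𝒪 V] {p r n k : ℕ}
variable {d : Fin r → Module.End 𝒪 V} {c : Fin k → Module.End 𝒪 V} {e : Fin k → ℕ} {rk : ℕ}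
  {b : Fin rk → V}

/-- **SAT, stability.** -/
theorem typeSub_stable (ψ : Fin k → 𝒪) (D : Module.End 𝒪 V) (hD : ∀ j, Commute D (c j))
    {v : V} (hv : v ∈ typeSub c ψ) : D v ∈ typeSub c ψ :=
  map_mem_tsub c ψ D hD hv

/-- **SAT, saturation.** -/
theorem typeSub_saturated [IsDomain 𝒪] (hp : 0 < p)
    (hcc : ∀ i j, Commute (c i) (c j)) (hcpow : ∀ j, c j ^ (p ^ e j) = 1)
    (hb : Function.Bijective
      (fun f : Fin rk × (∀ j : Fin k, Fin (p ^ e j)) × (Fin r → Fin (p ^ n)) → 𝒪 =>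
        ∑ x : Fin rk × (∀ j : Fin k, Fin (p ^ e j)) × (Fin r → Fin (p ^ n)),
          f x • H90.mon c (fun j => (x.2.1 j : ℕ))
            (H90.mon d (fun i => (x.2.2 i : ℕ)) (b x.1))))
    (ψ : Fin k → 𝒪) (hψ : ∀ j, ψ j ^ (p ^ e j) = 1)
    (a : 𝒪) (ha : a ≠ 0) (v : V) (hv : a • v ∈ typeSub c ψ) : v ∈ typeSub c ψ := by
  rw [typeSub_eq_tsub] at hv ⊢
  obtain ⟨f, hf⟩ := split_span hcc (bijective_bvec hb) ψ v
  have h1 : ∑ z : Fin rk × (Fin r → Fin (p ^ n)),
      (a * f z) • H90.mon d (fun i => (z.2 i : ℕ)) (b z.1) ∈ tsub c ψ := by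
    have h2 : ∑ z : Fin rk × (Fin r → Fin (p ^ n)),
        (a * f z) • H90.mon d (fun i => (z.2 i : ℕ)) (b z.1) =
        a • v - a • (v - ∑ z : Fin rk × (Fin r → Fin (p ^ n)),
          f z • H90.mon d (fun i => (z.2 i : ℕ)) (b z.1)) := by
      rw [smul_sub, sub_sub_cancel, Finset.smul_sum]
      exact Finset.sum_congr rfl fun z _ => by rw [smul_smul]
    rw [h2]
    exact Submodule.sub_mem _ hv (Submodule.smul_mem _ _ hf)
  have h3 := split_li hcc hcpow (fun j => pow_pos hp _) (bijective_bvec hb) ψ hψ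
    (fun z => a * f z) h1
  have h4 : f = 0 := by
    funext z
    have h5 : a * f z = 0 := congrFun h3 z
    exact (mul_eq_zero.1 h5).resolve_left ha
  rw [h4] at hf
  simpa using hf

end Sat

end Fermat.Agent.L.Pivot.H76

end
-- ==== END Fermat.Agent.L.Pivot.H76_Sat

-- ==== BEGIN Fermat.Agent.S33.New.H36_Strict
section

/-!
# S33 / S59, package STRICT (helper36): `Stmt_OrdNewStrict` from (T3) and the `K1`-test for the
squares of the elements of the decomposition group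

* `mem_span_b0_iff`, `strict_of_line` : linear algebra of the ordinary line;
* `ordNewStrict_of_k1 : (∀ M p, Stmt_TorsOrdNew M p) → (K1-test for `σ²`, `σ ∈ D_P`) →
  S59.Asm.Stmt_OrdNewStrict`.

`L` = the ordinary line of `H54.ordNew_line`, `x`, `z` the characters of `D_P` on `L`, `V / L`.
The `K1`-test for `σ²` gives `(ρ(σ)² - 1) V ⊆ L`, i.e. `z² = 1`; with `x z = det ρ(σ) ≡ a`
modulo `p^n` (cyclotomic determinant) we get `x - a z = z (x z - a) ∈ (p^n)`.
-/

set_option autoImplicit false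
set_option linter.unusedSectionVars false
set_option linter.unusedVariables false
set_option linter.style.haveILetI false

open Polynomial IsLocalRing

noncomputable section

namespace Fermat.Agent.S33.New.H36

section Line

variable {A V : Type} [CommRing A] [AddCommGroup V] [Module A V]

theorem mem_span_b0_iff (b : Module.Basis (Fin 2) A V) (v : V) :
    v ∈ Submodule.span A {b 0} ↔ b.repr v 1 = 0 := by
  constructor
  · intro h
    obtain ⟨c, rfl⟩ := Submodule.mem_span_singleton.1 h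
    rw [map_smul, Finsupp.smul_apply, Module.Basis.repr_self, Finsupp.single_apply]
    simp
  · intro h
    have h1 := b.sum_repr v
    rw [Fin.sum_univ_two, h, zero_smul, add_zero] at h1
    rw [← h1]
    exact Submodule.smul_mem _ _ (Submodule.subset_span rfl)

/-- An endomorphism which preserves the line `A b₀` and whose square is the identity modulo
the line: the diagonal entries `x`, `z` of its (triangular) matrix satisfy `z² = 1`,
`det = x z`. -/
theorem strict_of_line (b : Module.Basis (Fin 2) A V) (f : Module.End A V)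
    (hf : f (b 0) ∈ Submodule.span A {b 0})
    (hsq : f (f (b 1)) - b 1 ∈ Submodule.span A {b 0}) :
    ∃ x z : A, (∀ w ∈ Submodule.span A {b 0}, f w = x • w) ∧
      (∀ v : V, f v - z • v ∈ Submodule.span A {b 0}) ∧ z * z = 1 ∧
      LinearMap.det f = x * z := by
  classical
  obtain ⟨x, hx⟩ := Submodule.mem_span_singleton.1 hf
  set z : A := b.repr (f (b 1)) 1 with hz
  set y : A := b.repr (f (b 1)) 0 with hy
  have hb1 : f (b 1) = y • b 0 + z • b 1 := by
    have h1 := b.sum_repr (f (b 1))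
    rw [Fin.sum_univ_two] at h1
    exact h1.symm
  have hrep : ∀ v : V, b.repr (f v) 1 = b.repr v 1 * z := by
    intro v
    have h1 := b.sum_repr v
    rw [Fin.sum_univ_two] at h1
    conv_lhs => rw [← h1]
    rw [map_add, map_smul, map_smul, ← hx, hb1]
    simp only [map_add, map_smul, Finsupp.add_apply, Finsupp.smul_apply,
      Module.Basis.repr_self, Finsupp.single_apply, smul_eq_mul]
    simp
  refine ⟨x, z, ?_, ?_, ?_, ?_⟩
  · intro w hw
    obtain ⟨c, rfl⟩ := Submodule.mem_span_singleton.1 hw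
    rw [map_smul, ← hx, smul_comm]
  · intro v
    rw [mem_span_b0_iff, map_sub, map_smul, Finsupp.sub_apply, Finsupp.smul_apply, hrep,
      smul_eq_mul, mul_comm, sub_self]
  · have h1 := (mem_span_b0_iff b _).1 hsq
    rw [map_sub, Finsupp.sub_apply, hrep, ← hz, Module.Basis.repr_self, Finsupp.single_apply,
      if_pos rfl] at h1
    exact sub_eq_zero.1 h1
  · rw [← LinearMap.det_toMatrix b, Matrix.det_fin_two]
    simp only [LinearMap.toMatrix_apply]
    rw [← hx, ← hz]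
    simp only [map_smul, Finsupp.smul_apply, Module.Basis.repr_self, Finsupp.single_apply,
      smul_eq_mul]
    simp

end Line

/-- **`Stmt_OrdNewStrict`** from (T3) and the `K1`-test for the squares of the elements of the
decomposition groups. -/
theorem ordNewStrict_of_k1
    (hT3 : ∀ (M p : ℕ) [NeZero M] [NeZero p], H54.Stmt_TorsOrdNew M p)
    (hK : ∀ (M p : ℕ) [NeZero M] [NeZero p], p.Prime → p ≠ 2 → ¬ p ∣ M →
      ∀ A : ValuationSubring (AlgebraicClosure ℚ), A.LiesOverPrime p →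
        ∀ σ ∈ A.decompositionSubgroup ℚ, H54.K1Test A M p (σ * σ)) :
    Fermat.Agent.S59.Asm.Stmt_OrdNewStrict := by
  intro p N M _ _ S 𝒪 _ _ _ _ _ _ hp hp2 hp𝒪 hNM hpM hNS χ ρ hρ habs hnocc
  subst hNM
  haveI : NeZero p := ⟨hp.ne_zero⟩
  haveI : Fact p.Prime := ⟨hp⟩
  refine ⟨hp𝒪, fun P hP => ?_⟩
  obtain ⟨L, ⟨b, hLb⟩, hD, hI, hK1⟩ :=
    H54.ordNew_line hT3 p M S 𝒪 hp hp2 hp𝒪 hpM hNS χ ρ hρ habs hnocc P hP
  have hdetcyc : ρ.DetIsCyclotomic p :=
    Fermat.Agent.S59.Datum.H41.stmt_DetCyc 𝒪 p hp𝒪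
      (fun n => H54.exists_pow_le_span_natCast hp n) ρ S
      (fun ℓ hℓ hℓS B hB σ hσ => by
        have hℓN : ¬ ℓ ∣ M * p := fun h => hℓS (hNS ℓ hℓ h)
        have hℓS' : ℓ ∉ (↑S : Set ℕ) := by exact_mod_cast hℓS
        exact (Fermat.Agent.S32.H86.trace_det_of_charpoly ρ.finrank_eq (ρ.ρ σ)
          (hρ ℓ hℓ hℓN hℓS' B hB σ hσ)).2)
  refine ⟨L, ⟨b, hLb⟩, hD, hI, fun σ hσ => ?_⟩
  have hb0 : b 0 ∈ L := by
    rw [hLb]
    exact Submodule.subset_span rfl
  have hf : ρ.ρ σ (b 0) ∈ Submodule.span 𝒪 {b 0} := by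
    rw [← hLb]
    exact hD σ hσ _ hb0
  have hsq : ρ.ρ σ (ρ.ρ σ (b 1)) - b 1 ∈ Submodule.span 𝒪 {b 0} := by
    rw [← hLb]
    have h1 := hK1 (σ * σ) (hK M p hp hp2 hpM P hP σ hσ) (b 1)
    rwa [map_mul] at h1
  obtain ⟨x, z, hx, hz, hzz, hdet⟩ := strict_of_line b (ρ.ρ σ) hf hsq
  refine ⟨x, z, ?_, ?_, ?_⟩
  · intro w hw
    exact hx w (hLb ▸ hw)
  · intro v
    rw [hLb]
    exact hz v
  · intro n a ha
    have h1 := hdetcyc.2 n σ a ha
    rw [hdet] at h1
    have e : x - (a : 𝒪) * z = z * (x * z - (a : 𝒪)) := by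
      have : x = x * (z * z) := by rw [hzz, mul_one]
      calc x - (a : 𝒪) * z = x * (z * z) - (a : 𝒪) * z := by rw [← this]
        _ = z * (x * z - (a : 𝒪)) := by ring
    rw [e]
    exact Ideal.mul_mem_left _ _ h1

end Fermat.Agent.S33.New.H36

end
end
-- ==== END Fermat.Agent.S33.New.H36_Strict
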