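-- GENERATED (merged mirror, NOTES/tools/trim/merge3_helper67.py): 5 modules of the originals, bodies verbatim.
import Fermat.Agent.Zm.S43_L07_001
import Fermat.Agent.L.H52_CHpow
import Fermat.Agent.Zm.S43_L01_003
import Fermat.Agent.Zm.S35_L04_002
import Fermat.Agent.Zm.S43_L01_004
import Fermat.Agent.Zm.S43_L02_003
import Fermat.Agent.Zm.S43_L03_003
import Fermat.Agent.Zm.S43_L03_004
import Fermat.Agent.Zm.S33_L01_002

-- ==== BEGIN Fermat.Agent.S59.Asm.H57_CHV
section

/-!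
# S59, package ASM, leaf CHV (helper57): Cayley–Hamilton on a Hecke–Galois module

If the Frobenius elements outside a finite set of primes satisfy, on `V`, the characteristic
polynomial of `ρ`, then every element of the Galois group does.

* `exists_pow_le_map_pow` : for a local ring `T` finite over a local ring `𝒪` (local structure
  map), every `𝔪_𝒪 ^ n T` contains a power of `𝔪_T`.
* `IsSmall` : the endomorphisms with values in `𝔪_𝒪 ^ n V` (a two-sided ideal).
* `quad_pow` : the Lucas relation for powers, pointwise.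
* `stmt_CHV : Stmt_CHV`.
-/

set_option autoImplicit false

open Polynomial IsLocalRing

namespace Fermat.Agent.S59.Asm.H57

open Fermat.Agent.S59 Fermat.Agent.S59.TWGal

section Topology

variable {𝒪 : Type*} [CommRing 𝒪] [IsLocalRing 𝒪]
  {T : Type*} [CommRing T] [IsLocalRing T] [Algebra 𝒪 T] [Module.Finite 𝒪 T]
  [IsLocalHom (algebraMap 𝒪 T)]

omit [Module.Finite 𝒪 T] in
theorem map_maximalIdeal_le : (maximalIdeal 𝒪).map (algebraMap 𝒪 T) ≤ maximalIdeal T := by
  rw [Ideal.map_le_iff_le_comap]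
  intro a ha
  exact Ideal.mem_comap.mpr (map_nonunit (algebraMap 𝒪 T) a ha)

/-- The maximal ideal of `T` is nilpotent modulo `𝔪_𝒪 T`. -/
theorem exists_pow_le_map : ∃ r : ℕ,
    maximalIdeal T ^ r ≤ (maximalIdeal 𝒪).map (algebraMap 𝒪 T) := by
  set I : Ideal T := (maximalIdeal 𝒪).map (algebraMap 𝒪 T) with hI
  have hIle : I ≤ maximalIdeal T := map_maximalIdeal_le
  have hItop : I ≠ ⊤ := fun h => (maximalIdeal.isMaximal T).ne_top (top_le_iff.mp (h ▸ hIle))
  have : Module.Finite (𝒪 ⧸ maximalIdeal 𝒪) (T ⧸ I) :=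
    Module.Finite.of_restrictScalars_finite 𝒪 _ _
  let _ : Field (𝒪 ⧸ maximalIdeal 𝒪) := Ideal.Quotient.field _
  have : IsArtinianRing (T ⧸ I) := IsArtinianRing.of_finite (𝒪 ⧸ maximalIdeal 𝒪) (T ⧸ I)
  have : Nontrivial (T ⧸ I) := Ideal.Quotient.nontrivial_iff.mpr hItop
  have : IsLocalRing (T ⧸ I) :=
    IsLocalRing.of_surjective' (Ideal.Quotient.mk I) Ideal.Quotient.mk_surjective
  have h := IsArtinianRing.isNilpotent_jacobson_bot (R := T ⧸ I)
  rw [IsLocalRing.jacobson_eq_maximalIdeal ⊥ bot_ne_top] at h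
  obtain ⟨r, hr⟩ := h
  refine ⟨r, fun x hx => ?_⟩
  have hmap : (maximalIdeal T).map (Ideal.Quotient.mk I) ≤ maximalIdeal (T ⧸ I) := by
    rw [Ideal.map_le_iff_le_comap]
    intro a ha
    rw [Ideal.mem_comap, mem_maximalIdeal, mem_nonunits_iff]
    intro hu
    have hu' : IsUnit a := by
      obtain ⟨b, hb⟩ := isUnit_iff_exists_inv.mp hu
      obtain ⟨b, rfl⟩ := Ideal.Quotient.mk_surjective b
      rw [← map_mul, ← map_one (Ideal.Quotient.mk I), Ideal.Quotient.eq] at hb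
      have h1 : a * b - 1 ∈ maximalIdeal T := hIle hb
      by_contra hab
      have h2 : a * b ∈ maximalIdeal T :=
        Ideal.mul_mem_right _ _ ((mem_maximalIdeal a).mpr hab)
      have h3 : (1 : T) ∈ maximalIdeal T := by
        have := Ideal.sub_mem _ h2 h1
        rwa [sub_sub_cancel] at this
      exact (Ideal.ne_top_iff_one _).mp (maximalIdeal.isMaximal T).ne_top h3
    exact (mem_maximalIdeal a).mp ha hu'
  have h1 : Ideal.Quotient.mk I x ∈ ((maximalIdeal T).map (Ideal.Quotient.mk I)) ^ r := by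
    rw [← Ideal.map_pow]
    exact Ideal.mem_map_of_mem _ hx
  have h2 : Ideal.Quotient.mk I x ∈ maximalIdeal (T ⧸ I) ^ r := Ideal.pow_right_mono hmap r h1
  rw [hr] at h2
  exact Ideal.Quotient.eq_zero_iff_mem.mp h2

/-- Every `𝔪_𝒪 ^ n T` contains a power of `𝔪_T`. -/
theorem exists_pow_le_map_pow (n : ℕ) : ∃ m : ℕ,
    maximalIdeal T ^ m ≤ (maximalIdeal 𝒪 ^ n).map (algebraMap 𝒪 T) := by
  obtain ⟨r, hr⟩ := exists_pow_le_map (𝒪 := 𝒪) (T := T)
  refine ⟨r * n, ?_⟩
  rw [pow_mul, Ideal.map_pow]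
  exact Ideal.pow_right_mono hr n

end Topology

section Small

variable {𝒪 : Type*} [CommRing 𝒪] {V : Type*} [AddCommGroup V] [Module 𝒪 V]

/-- The endomorphisms of `V` with values in `I V`. -/
def IsSmall (I : Ideal 𝒪) (f : Module.End 𝒪 V) : Prop :=
  ∀ v : V, f v ∈ I • (⊤ : Submodule 𝒪 V)

theorem IsSmall.zero (I : Ideal 𝒪) : IsSmall I (0 : Module.End 𝒪 V) := fun _ =>
  Submodule.zero_mem _

theorem IsSmall.add {I : Ideal 𝒪} {f g : Module.End 𝒪 V} (hf : IsSmall I f) (hg : IsSmall I g) :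
    IsSmall I (f + g) := fun v => Submodule.add_mem _ (hf v) (hg v)

theorem IsSmall.sub {I : Ideal 𝒪} {f g : Module.End 𝒪 V} (hf : IsSmall I f) (hg : IsSmall I g) :
    IsSmall I (f - g) := fun v => Submodule.sub_mem _ (hf v) (hg v)

theorem IsSmall.neg {I : Ideal 𝒪} {f : Module.End 𝒪 V} (hf : IsSmall I f) :
    IsSmall I (-f) := fun v => Submodule.neg_mem _ (hf v)

theorem IsSmall.mul_right {I : Ideal 𝒪} {f : Module.End 𝒪 V} (hf : IsSmall I f)
    (h : Module.End 𝒪 V) : IsSmall I (f * h) := fun v => hf (h v)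

theorem IsSmall.mul_left {I : Ideal 𝒪} {f : Module.End 𝒪 V} (hf : IsSmall I f)
    (h : Module.End 𝒪 V) : IsSmall I (h * f) := by
  intro v
  have hmap : Submodule.map h (I • (⊤ : Submodule 𝒪 V)) ≤ I • (⊤ : Submodule 𝒪 V) := by
    rw [Submodule.map_smul'']
    exact Submodule.smul_mono le_rfl le_top
  exact hmap (Submodule.mem_map_of_mem (hf v))

/-- The image under `ηhat` of an element of `I T` has values in `I V`. -/
theorem isSmall_of_mem_map {T : Type*} [CommRing T] [Algebra 𝒪 T]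
    (ηhat : T →ₐ[𝒪] Module.End 𝒪 V) (I : Ideal 𝒪) {x : T}
    (hx : x ∈ I.map (algebraMap 𝒪 T)) : IsSmall I (ηhat x) := by
  unfold Ideal.map at hx
  induction hx using Submodule.span_induction with
  | mem x hx =>
    obtain ⟨a, ha, rfl⟩ := hx
    intro v
    rw [AlgHom.commutes, Module.algebraMap_end_apply]
    exact Submodule.smul_mem_smul ha Submodule.mem_top
  | zero => rw [map_zero]; exact IsSmall.zero I
  | add x y _ _ hx hy => rw [map_add]; exact hx.add hy
  | smul t x _ hx => rw [smul_eq_mul, map_mul]; exact hx.mul_left _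

end Small

section Lucas

open Fermat.Agent.R.H91

variable {T : Type*} [CommRing T] {E : Type*} [Ring E] (η : T →+* E)

/-- The Lucas relation for the powers of an element satisfying a quadratic relation with
coefficients in the image of a commutative ring. -/
theorem quad_pow (A : E) (hA : ∀ t : T, Commute A (η t)) (t d : T)
    (h : A * A - η t * A + η d = 0) (j : ℕ) :
    A ^ j * A ^ j - η (lucasV t d j) * A ^ j + η (d ^ j) = 0 := by
  set B : E := η t - A with hB
  have hc : Commute A B := (hA t).sub_right (Commute.refl A)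
  have hAA : A * A = η t * A - η d := by
    rw [eq_sub_iff_add_eq, ← sub_eq_zero, ← h]; abel
  have hAB : A * B = η d := by
    rw [hB, mul_sub, (hA t).eq, hAA]; abel
  have hsum : A + B = η t := by rw [hB]; abel
  have hl : ∀ i : ℕ, A ^ i + B ^ i = η (lucasV t d i) := by
    intro i
    induction i using Nat.strong_induction_on with
    | _ i ih =>
      match i with
      | 0 =>
        rw [pow_zero, pow_zero, lucasV_zero, map_ofNat, one_add_one_eq_two]
      | 1 =>
        rw [pow_one, pow_one, lucasV_one, hsum]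
      | (i + 2) =>
        have h1 := ih (i + 1) (by omega)
        have h0 := ih i (by omega)
        have key : A ^ (i + 2) + B ^ (i + 2)
            = (A + B) * (A ^ (i + 1) + B ^ (i + 1)) - (A * B) * (A ^ i + B ^ i) := by
          have e1 : B * A ^ (i + 1) = (A * B) * A ^ i := by
            rw [pow_succ', ← mul_assoc, hc.eq]
          have e2 : A * B ^ (i + 1) = (A * B) * B ^ i := by
            rw [pow_succ', ← mul_assoc]
          rw [add_mul, mul_add, mul_add, mul_add, e1, e2, ← pow_succ', ← pow_succ']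
          abel
        rw [key, hsum, hAB, h1, h0, lucasV_add_two, map_sub, map_mul, map_mul]
  have h1 : η (lucasV t d j) * A ^ j = A ^ j * A ^ j + B ^ j * A ^ j := by
    rw [← hl j, add_mul]
  have h2 : B ^ j * A ^ j = η (d ^ j) := by
    rw [← (hc.symm).mul_pow, hc.symm.eq, hAB, map_pow]
  rw [h1, h2]; abel

end Lucas

section Congruence

open Fermat.Agent.R.H91

variable {T : Type} [CommRing T]

/-- Congruent endomorphisms of a free module of rank two have congruent traces and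
determinants. -/
theorem trace_det_sub_mem {V : Type*} [AddCommGroup V] [Module T V] [Module.Free T V]
    [Module.Finite T V] (hV : Module.finrank T V = 2) (I : Ideal T) (f g : Module.End T V)
    (hfg : ∀ v, f v - g v ∈ I • (⊤ : Submodule T V)) :
    LinearMap.trace T V f - LinearMap.trace T V g ∈ I ∧ LinearMap.det f - LinearMap.det g ∈ I := by
  have h := charpoly_map_eq_of_forall_sub_mem I f g hfg
  rw [charpoly_eq_of_finrank_two hV f, charpoly_eq_of_finrank_two hV g] at h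
  have h1 := congrArg (fun q : (T ⧸ I)[X] => q.coeff 1) h
  have h0 := congrArg (fun q : (T ⧸ I)[X] => q.coeff 0) h
  simp only [Polynomial.map_add, Polynomial.map_sub, Polynomial.map_mul, Polynomial.map_pow,
    Polynomial.map_X, Polynomial.map_C, coeff_add, coeff_sub, coeff_X_pow, coeff_C_mul,
    coeff_X_one, coeff_X_zero, coeff_C_zero, mul_one, mul_zero] at h1 h0
  simp only [coeff_C] at h1 h0
  norm_num at h1 h0
  constructor
  · rw [← Ideal.Quotient.eq_zero_iff_mem, map_sub, h1, sub_self]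
  · rw [← Ideal.Quotient.eq_zero_iff_mem, map_sub, h0, sub_self]

end Congruence

/-- **CHV.** -/
theorem stmt_CHV : Stmt_CHV := by
  intro 𝒪 _ _ _ _ T _ _ _ _ _ ρ V _ _ _ _ ηhat gal hcont hcomm S hfrob g
  classical
  -- the quadratic expression
  set E : GalQ → Module.End 𝒪 V := fun g =>
    gal g * gal g - ηhat (ρ.trace g) * gal g + ηhat (LinearMap.det (ρ.ρ g)) with hE
  show E g = 0
  -- it is small at every level
  have hsmall : ∀ n : ℕ, IsSmall (maximalIdeal 𝒪 ^ n) (E g) := by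
    intro n
    obtain ⟨m, hm⟩ := exists_pow_le_map_pow (𝒪 := 𝒪) (T := T) n
    obtain ⟨L₁, hL₁, h₁⟩ := hcont n
    obtain ⟨L₂, hL₂, h₂⟩ := ρ.isAdicContinuous m
    have := hL₁; have := hL₂
    have hL : FiniteDimensional ℚ ↥(L₁ ⊔ L₂) := IntermediateField.finiteDimensional_sup L₁ L₂
    obtain ⟨ℓ, A, φ, j, hℓ, hℓS, hA, hφ, hj⟩ :=
      Fermat.Agent.Lib.FrobDensity.stmt_FD S (L₁ ⊔ L₂) hL g
    set τ : GalQ := g⁻¹ * φ ^ j with hτdef
    have hτ : ∀ x ∈ L₁ ⊔ L₂, τ x = x := by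
      intro x hx
      rw [hτdef, AlgEquiv.mul_apply, hj x hx]
      exact (AlgEquiv.symm_apply_apply g x)
    have hgτ : g * τ = φ ^ j := by rw [hτdef, mul_inv_cancel_left]
    have hτ₁ : ∀ x ∈ L₁, τ x = x := fun x hx => hτ x ((le_sup_left : L₁ ≤ L₁ ⊔ L₂) hx)
    have hτ₂ : ∀ x ∈ L₂, τ x = x := fun x hx => hτ x ((le_sup_right : L₂ ≤ L₁ ⊔ L₂) hx)
    -- the relation at `φ ^ j`
    have hE0 : E (g * τ) = 0 := by
      rw [hgτ]
      have hq := quad_pow (ηhat : T →+* Module.End 𝒪 V) (gal φ) (fun t => hcomm φ t)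
        (ρ.trace φ) (LinearMap.det (ρ.ρ φ)) (hfrob ℓ hℓ hℓS A hA φ hφ) j
      have htr : ρ.trace (φ ^ j) =
          Fermat.Agent.R.H91.lucasV (ρ.trace φ) (LinearMap.det (ρ.ρ φ)) j := by
        unfold GaloisRepAdic.trace
        rw [map_pow]
        exact Fermat.Agent.R.H91.trace_pow_of_charpoly ρ.finrank_eq (ρ.ρ φ)
          (Fermat.Agent.R.H91.charpoly_eq_of_finrank_two ρ.finrank_eq (ρ.ρ φ)) j
      have hdet : LinearMap.det (ρ.ρ (φ ^ j)) = LinearMap.det (ρ.ρ φ) ^ j := by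
        rw [map_pow, map_pow]
      show gal (φ ^ j) * gal (φ ^ j) - ηhat (ρ.trace (φ ^ j)) * gal (φ ^ j)
        + ηhat (LinearMap.det (ρ.ρ (φ ^ j))) = 0
      rw [map_pow, htr, hdet]
      exact hq
    -- congruences
    have hG : IsSmall (maximalIdeal 𝒪 ^ n) (gal (g * τ) - gal g) := by
      have h1 : gal (g * τ) - gal g = gal g * (gal τ - 1) := by
        rw [map_mul, mul_sub, mul_one]
      rw [h1]
      refine IsSmall.mul_left ?_ _
      intro v
      exact h₁ τ hτ₁ v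
    obtain ⟨htr, hdet⟩ := trace_det_sub_mem ρ.finrank_eq (maximalIdeal T ^ m)
      (ρ.ρ (g * τ)) (ρ.ρ g)
      (Fermat.Agent.R.H91.GaloisRepAdic_sub_mem ρ m g τ (h₂ τ hτ₂))
    have ht : IsSmall (maximalIdeal 𝒪 ^ n) (ηhat (ρ.trace (g * τ)) - ηhat (ρ.trace g)) := by
      rw [← map_sub]
      exact isSmall_of_mem_map ηhat _ (hm htr)
    have hd : IsSmall (maximalIdeal 𝒪 ^ n)
        (ηhat (LinearMap.det (ρ.ρ (g * τ))) - ηhat (LinearMap.det (ρ.ρ g))) := by
      rw [← map_sub]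
      exact isSmall_of_mem_map ηhat _ (hm hdet)
    have hdiff : E g = -((gal (g * τ) - gal g) * gal (g * τ) + gal g * (gal (g * τ) - gal g)
        - ((ηhat (ρ.trace (g * τ)) - ηhat (ρ.trace g)) * gal (g * τ)
            + ηhat (ρ.trace g) * (gal (g * τ) - gal g))
        + (ηhat (LinearMap.det (ρ.ρ (g * τ))) - ηhat (LinearMap.det (ρ.ρ g)))) := by
      have h0 : E g = -(E (g * τ) - E g) := by rw [hE0]; abel
      rw [h0]
      congr 1
      simp only [hE]
      noncomm_ring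
    rw [hdiff]
    exact ((((hG.mul_right _).add (hG.mul_left _)).sub
      ((ht.mul_right _).add (hG.mul_left _))).add hd).neg
  -- separation
  have hsep : (⨅ i : ℕ, maximalIdeal 𝒪 ^ i • ⊤ : Submodule 𝒪 V) = ⊥ :=
    Ideal.iInf_pow_smul_eq_bot_of_isLocalRing (maximalIdeal 𝒪)
      (maximalIdeal.isMaximal 𝒪).ne_top
  refine LinearMap.ext fun v => ?_
  have hv : E g v ∈ (⨅ i : ℕ, maximalIdeal 𝒪 ^ i • ⊤ : Submodule 𝒪 V) := by
    rw [Submodule.mem_iInf]
    intro n
    exact hsmall n v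
  rw [hsep, Submodule.mem_bot] at hv
  rw [hv, LinearMap.zero_apply]

end Fermat.Agent.S59.Asm.H57

end
-- ==== END Fermat.Agent.S59.Asm.H57_CHV

-- ==== BEGIN Fermat.Agent.S59.Asm.H77_Bridge
section

/-!
# S59, package ASM, leaf BRIDGE (helper77)

`stmt_BRIDGE : Stmt_BRIDGE`: from the geometric local–global compatibility (`gal σ = d` on `Vα`)
to the Galois one (`χ₀(σ)` acts on all of `V` as `d`).

Step 1 (on `Vα`): Cayley–Hamilton for `g = φ` and `g = φ σ` factors as
`(gal g - χ₁ g)(gal g - χ₀ g) = 0`, and the first factor is (unit) · (1 + nilpotent mod `𝔪`) on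
`Vα` (`inj_on`, Krull), so `gal g = χ₀ g` on `Vα`; hence `χ₀ σ = d` on `Vα`.
Step 2: `E = χ₀ σ - d` commutes with everything and kills `Vα`; `W = E V` satisfies
Cayley–Hamilton and `gal φ - a'` is nilpotent on `W / 𝔪 W`, so `W = 0` by Boston–Lenstra–Ribet
(`step2`).
-/

set_option autoImplicit false

open Polynomial CuspForm IsLocalRing

namespace Fermat.Agent.S59.Asm.H77

open Fermat.Agent.S59 Fermat.Agent.S59.TWGal Fermat.Agent.S59.Asm

section chi

variable {A : Type} [CommRing A] [IsLocalRing A] {ρ : GaloisRepAdic A}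
  {P : ValuationSubring Qb} {b : Module.Basis (Fin 2) A ρ.V}

theorem apply_eq_chi (hd : DiagOn ρ P b) {g : GQ} (hg : g ∈ P.decompositionSubgroup ℚ)
    (i : Fin 2) : ρ.ρ g (b i) = chi ρ b i g • b i := by
  obtain ⟨x, y, hx, hy⟩ := hd g hg
  unfold chi
  fin_cases i
  · show ρ.ρ g (b 0) = b.repr (ρ.ρ g (b 0)) 0 • b 0
    rw [hx, map_smul, Finsupp.smul_apply, Module.Basis.repr_self, Finsupp.single_eq_same,
      smul_eq_mul, mul_one]
  · show ρ.ρ g (b 1) = b.repr (ρ.ρ g (b 1)) 1 • b 1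
    rw [hy, map_smul, Finsupp.smul_apply, Module.Basis.repr_self, Finsupp.single_eq_same,
      smul_eq_mul, mul_one]

theorem chi_mul' (hd : DiagOn ρ P b) {g h : GQ} (hg : g ∈ P.decompositionSubgroup ℚ)
    (hh : h ∈ P.decompositionSubgroup ℚ) (i : Fin 2) :
    chi ρ b i (g * h) = chi ρ b i g * chi ρ b i h := by
  have h1 : ρ.ρ (g * h) (b i) = (chi ρ b i g * chi ρ b i h) • b i := by
    rw [map_mul, Module.End.mul_apply, apply_eq_chi hd hh, map_smul, apply_eq_chi hd hg,
      smul_smul, mul_comm]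
  unfold chi at h1 ⊢
  rw [h1, map_smul, Finsupp.smul_apply, Module.Basis.repr_self, Finsupp.single_eq_same,
    smul_eq_mul, mul_one]

theorem chi_one' (i : Fin 2) : chi ρ b i 1 = 1 := by
  unfold chi
  rw [map_one, Module.End.one_apply, Module.Basis.repr_self, Finsupp.single_eq_same]

theorem chi_off (hd : DiagOn ρ P b) {g : GQ} (hg : g ∈ P.decompositionSubgroup ℚ)
    {i j : Fin 2} (hij : j ≠ i) : b.repr (ρ.ρ g (b i)) j = 0 := by
  rw [apply_eq_chi hd hg, map_smul, Finsupp.smul_apply, Module.Basis.repr_self,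
    Finsupp.single_eq_of_ne hij, smul_zero]

theorem trace_eq_chi (ρ : GaloisRepAdic A) (b : Module.Basis (Fin 2) A ρ.V) (g : GQ) :
    ρ.trace g = chi ρ b 0 g + chi ρ b 1 g := by
  unfold GaloisRepAdic.trace
  rw [LinearMap.trace_eq_matrix_trace A b, Matrix.trace_fin_two, LinearMap.toMatrix_apply,
    LinearMap.toMatrix_apply]
  rfl

theorem det_eq_chi (hd : DiagOn ρ P b) {g : GQ} (hg : g ∈ P.decompositionSubgroup ℚ) :
    LinearMap.det (ρ.ρ g) = chi ρ b 0 g * chi ρ b 1 g := by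
  rw [← LinearMap.det_toMatrix b, Matrix.det_fin_two, LinearMap.toMatrix_apply,
    LinearMap.toMatrix_apply, LinearMap.toMatrix_apply, LinearMap.toMatrix_apply,
    chi_off hd hg (i := 1) (j := 0) (by decide), zero_mul, sub_zero]
  rfl

end chi

/-- In a local ring, unit plus non-unit is a unit. -/
theorem isUnit_add_of_mem {A : Type} [CommRing A] [IsLocalRing A] {u n : A} (hu : IsUnit u)
    (hn : n ∈ maximalIdeal A) : IsUnit (u + n) := by
  by_contra h
  have h1 : u + n ∈ maximalIdeal A := (mem_maximalIdeal _).2 h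
  have h2 : u ∈ maximalIdeal A := by
    have := (maximalIdeal A).sub_mem h1 hn
    rwa [add_sub_cancel_right] at this
  exact (mem_maximalIdeal _).1 h2 hu

/-- **BRIDGE**. -/
theorem stmt_BRIDGE : Stmt_BRIDGE := by
  intro 𝒪 _ _ _ _ T _ _ _ _ _ _hsurj h2 ρ hirr V _ _ _ _ ηhat gal hgη hCH P b hdiag φ σ hφ hσ
    a a' haa' hχ0 hχ1 hχσ d hdnil hdη hdgal Vα Vβ hcompl hVαη hVαd hVαφ hVβφ hαnil hβnil hlg
  -- basic facts
  have hηa : ∀ (r : 𝒪) (v : V), ηhat (algebraMap 𝒪 T r) v = r • v := by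
    intro r v
    rw [AlgHom.commutes, Module.algebraMap_end_apply]
  have hηmul : ∀ (s t : T) (v : V), ηhat (s * t) v = ηhat s (ηhat t v) := by
    intro s t v
    rw [map_mul, Module.End.mul_apply]
  have hηsub : ∀ (s t : T) (v : V), ηhat (s - t) v = ηhat s v - ηhat t v := by
    intro s t v
    rw [map_sub, LinearMap.sub_apply]
  have hηadd : ∀ (s t : T) (v : V), ηhat (s + t) v = ηhat s v + ηhat t v := by
    intro s t v
    rw [map_add, LinearMap.add_apply]
  have hηone : ∀ v : V, ηhat 1 v = v := by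
    intro v
    rw [map_one, Module.End.one_apply]
  have hgηv : ∀ (g : GalQ) (t : T) (v : V), gal g (ηhat t v) = ηhat t (gal g v) := by
    intro g t v
    exact congrArg (fun F : Module.End 𝒪 V => F v) (hgη g t).eq
  have hdηv : ∀ (t : T) (v : V), d (ηhat t v) = ηhat t (d v) := by
    intro t v
    exact congrArg (fun F : Module.End 𝒪 V => F v) (hdη t).eq
  have hdgalv : ∀ (g : GalQ) (v : V), d (gal g v) = gal g (d v) := by
    intro g v
    exact congrArg (fun F : Module.End 𝒪 V => F v) (hdgal g).eq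
  have hsubunit : IsUnit (a - a') := by
    by_contra h
    have h1 : a - a' ∈ maximalIdeal 𝒪 := (mem_maximalIdeal _).2 h
    have h2 := (residue_eq_zero_iff _).2 h1
    rw [map_sub, sub_eq_zero] at h2
    exact haa' h2
  have hu : IsUnit (algebraMap 𝒪 T (a - a')) := hsubunit.map _
  -- Cayley–Hamilton, factored
  have hfac : ∀ g ∈ P.decompositionSubgroup ℚ, ∀ v : V,
      gal g (gal g v - ηhat (chi ρ b 0 g) v)
        = ηhat (chi ρ b 1 g) (gal g v - ηhat (chi ρ b 0 g) v) := by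
    intro g hg v
    have h := congrArg (fun F : Module.End 𝒪 V => F v) (hCH g)
    simp only [LinearMap.add_apply, LinearMap.sub_apply, Module.End.mul_apply,
      LinearMap.zero_apply] at h
    rw [trace_eq_chi ρ b g, det_eq_chi hdiag hg, hηadd, hηmul] at h
    rw [map_sub, map_sub, hgηv, ← sub_eq_zero]
    have h3 : ηhat (chi ρ b 0 g) (ηhat (chi ρ b 1 g) v)
        = ηhat (chi ρ b 1 g) (ηhat (chi ρ b 0 g) v) := by
      rw [← hηmul, ← hηmul, mul_comm]
    rw [h3] at h
    rw [← h]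
    abel
  -- Step 1 (i)
  have hφα : ∀ v ∈ Vα, gal φ v = ηhat (chi ρ b 0 φ) v := by
    intro v hv
    set w := gal φ v - ηhat (chi ρ b 0 φ) v with hwdef
    have hw : w ∈ Vα := Vα.sub_mem (hVαφ v hv) (hVαη _ v hv)
    have hfw : gal φ w = ηhat (chi ρ b 1 φ) w := hfac φ hφ v
    have ht : IsUnit (algebraMap 𝒪 T a - chi ρ b 1 φ) := by
      have h1 : algebraMap 𝒪 T a - chi ρ b 1 φ
          = algebraMap 𝒪 T (a - a') + -(chi ρ b 1 φ - algebraMap 𝒪 T a') := by
        rw [map_sub]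
        ring
      rw [h1]
      exact isUnit_add_of_mem hu ((maximalIdeal T).neg_mem hχ1)
    obtain ⟨u, hu'⟩ := ht
    have hs : (↑u⁻¹ : T) * (algebraMap 𝒪 T a - chi ρ b 1 φ) = 1 := by
      rw [← hu', Units.inv_mul]
    obtain ⟨m, hm⟩ := hαnil
    have hBS : Commute (ηhat (↑u⁻¹ : T)) (gal φ - a • (1 : Module.End 𝒪 V)) :=
      ((hgη φ _).symm).sub_right ((Commute.one_right _).smul_right a)
    have hB : ∀ v ∈ Vα, (gal φ - a • (1 : Module.End 𝒪 V)) v ∈ Vα := by
      intro v hv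
      rw [LinearMap.sub_apply, LinearMap.smul_apply, Module.End.one_apply]
      exact Vα.sub_mem (hVαφ v hv) (Vα.smul_mem a hv)
    have h : w + ηhat (↑u⁻¹ : T) ((gal φ - a • (1 : Module.End 𝒪 V)) w) = 0 := by
      rw [LinearMap.sub_apply, LinearMap.smul_apply, Module.End.one_apply, hfw, ← hηa a w,
        ← hηsub, ← hηmul]
      have h1 : (↑u⁻¹ : T) * (chi ρ b 1 φ - algebraMap 𝒪 T a) = -1 := by
        rw [← neg_sub, mul_neg, hs]
      rw [h1, map_neg, LinearMap.neg_apply, hηone, add_neg_cancel]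
    have hw0 := inj_on hcompl _ _ hBS hB (hVαη _) m hm hw h
    rw [hwdef] at hw0
    exact sub_eq_zero.1 hw0
  -- Step 1 (ii)
  have hφσ : φ * σ ∈ P.decompositionSubgroup ℚ := mul_mem hφ hσ
  have hgalα : ∀ u ∈ Vα, gal (φ * σ) u = ηhat (chi ρ b 0 φ) (d u) := by
    intro u hu
    rw [map_mul, Module.End.mul_apply, hlg u hu, hφα _ (hVαd u hu)]
  have hσα : ∀ v ∈ Vα, ηhat (chi ρ b 0 σ) v = d v := by
    intro v hv
    set w := gal (φ * σ) v - ηhat (chi ρ b 0 (φ * σ)) v with hwdef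
    have hweq : w = ηhat (chi ρ b 0 φ) (d v - ηhat (chi ρ b 0 σ) v) := by
      rw [hwdef, hgalα v hv, chi_mul' hdiag hφ hσ, hηmul, map_sub]
    have hw : w ∈ Vα := by
      rw [hweq]
      exact hVαη _ _ (Vα.sub_mem (hVαd v hv) (hVαη _ v hv))
    have hfw : gal (φ * σ) w = ηhat (chi ρ b 1 (φ * σ)) w := hfac (φ * σ) hφσ v
    rw [hgalα w hw, chi_mul' hdiag hφ hσ] at hfw
    have ht : IsUnit (chi ρ b 0 φ - chi ρ b 1 φ * chi ρ b 1 σ) := by
      have h1 : chi ρ b 0 φ - chi ρ b 1 φ * chi ρ b 1 σ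
          = algebraMap 𝒪 T (a - a') + ((chi ρ b 0 φ - algebraMap 𝒪 T a)
            - (chi ρ b 1 φ - algebraMap 𝒪 T a') * chi ρ b 1 σ
            - algebraMap 𝒪 T a' * (chi ρ b 1 σ - 1)) := by
        rw [map_sub]
        ring
      rw [h1]
      refine isUnit_add_of_mem hu ?_
      exact (maximalIdeal T).sub_mem ((maximalIdeal T).sub_mem hχ0
        ((maximalIdeal T).mul_mem_right _ hχ1)) ((maximalIdeal T).mul_mem_left _ (hχσ 1))
    obtain ⟨u, hu'⟩ := ht
    have hs : (↑u⁻¹ : T) * (chi ρ b 0 φ - chi ρ b 1 φ * chi ρ b 1 σ) = 1 := by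
      rw [← hu', Units.inv_mul]
    obtain ⟨m, hm⟩ := hdnil
    have hBS : Commute (ηhat ((↑u⁻¹ : T) * chi ρ b 0 φ)) (d - 1) :=
      ((hdη _).symm).sub_right (Commute.one_right _)
    have hB : ∀ v ∈ Vα, (d - 1) v ∈ Vα := by
      intro v hv
      rw [LinearMap.sub_apply, Module.End.one_apply]
      exact Vα.sub_mem (hVαd v hv) hv
    have h : w + ηhat ((↑u⁻¹ : T) * chi ρ b 0 φ) ((d - 1) w) = 0 := by
      rw [LinearMap.sub_apply, Module.End.one_apply, hηmul, map_sub, hfw, ← hηsub, ← hηmul]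
      have h1 : (↑u⁻¹ : T) * (chi ρ b 1 φ * chi ρ b 1 σ - chi ρ b 0 φ) = -1 := by
        rw [← neg_sub, mul_neg, hs]
      rw [h1, map_neg, LinearMap.neg_apply, hηone, add_neg_cancel]
    have hw0 := inj_on hcompl _ _ hBS hB (hVαη _) m (fun v _ => hm v) hw h
    rw [hweq] at hw0
    have hinv : chi ρ b 0 φ⁻¹ * chi ρ b 0 φ = 1 := by
      rw [← chi_mul' hdiag (inv_mem hφ) hφ, inv_mul_cancel, chi_one']
    have h5 := congrArg (ηhat (chi ρ b 0 φ⁻¹)) hw0
    rw [← hηmul, hinv, hηone, map_zero] at h5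
    exact (sub_eq_zero.1 h5).symm
  -- Step 2
  let modT : Module T V := Module.compHom V (ηhat : T →+* Module.End 𝒪 V)
  have hsmul : ∀ (t : T) (v : V), t • v = ηhat t v := fun _ _ => rfl
  have : IsScalarTower 𝒪 T V := ⟨fun r t v => by
    rw [hsmul, hsmul, map_smul, LinearMap.smul_apply]⟩
  let galT : GalQ →* Module.End T V :=
    { toFun := fun g =>
        { toFun := gal g
          map_add' := map_add _
          map_smul' := fun t v => hgηv g t v }
      map_one' := by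
        ext v
        show gal 1 v = v
        rw [map_one, Module.End.one_apply]
      map_mul' := fun g h => by
        ext v
        show gal (g * h) v = gal g (gal h v)
        rw [map_mul, Module.End.mul_apply] }
  have hgalT : ∀ g v, galT g v = gal g v := fun _ _ => rfl
  let ET : Module.End T V :=
    { toFun := fun v => ηhat (chi ρ b 0 σ) v - d v
      map_add' := fun v w => by
        rw [map_add, map_add]
        abel
      map_smul' := fun t v => by
        show ηhat (chi ρ b 0 σ) (ηhat t v) - d (ηhat t v)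
          = ηhat t (ηhat (chi ρ b 0 σ) v - d v)
        rw [map_sub, hdηv, ← hηmul, ← hηmul, mul_comm] }
  have hET : ∀ v, ET v = ηhat (chi ρ b 0 σ) v - d v := fun _ => rfl
  have h2T : (2 : ResidueField T) ≠ 0 := by
    have h3 : IsUnit (2 : 𝒪) := by
      by_contra h
      exact h2 ((mem_maximalIdeal _).2 h)
    have h4 : IsUnit ((2 : T)) := by
      have := h3.map (algebraMap 𝒪 T)
      rwa [map_ofNat] at this
    have h5 := h4.map (residue T)
    rw [map_ofNat] at h5
    exact h5.ne_zero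
  have hCHT : ∀ g, galT g * galT g - ρ.trace g • galT g
      + LinearMap.det (ρ.ρ g) • (1 : Module.End T V) = 0 := by
    intro g
    ext v
    have h := congrArg (fun F : Module.End 𝒪 V => F v) (hCH g)
    simp only [LinearMap.add_apply, LinearMap.sub_apply, Module.End.mul_apply,
      LinearMap.zero_apply] at h
    simp only [LinearMap.add_apply, LinearMap.sub_apply, Module.End.mul_apply,
      LinearMap.smul_apply, Module.End.one_apply, LinearMap.zero_apply, hgalT, hsmul]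
    exact h
  have hxc : IsUnit (chi ρ b 0 φ - algebraMap 𝒪 T a') := by
    have h1 : chi ρ b 0 φ - algebraMap 𝒪 T a'
        = algebraMap 𝒪 T (a - a') + (chi ρ b 0 φ - algebraMap 𝒪 T a) := by
      rw [map_sub]
      ring
    rw [h1]
    exact isUnit_add_of_mem hu hχ0
  have hEcomm : ∀ g, Commute ET (galT g) := by
    intro g
    ext v
    show ET (galT g v) = galT g (ET v)
    rw [hET, hET, hgalT, hgalT, map_sub, hgηv, hdgalv]
  have hEα : ∀ v ∈ Vα, ET v = 0 := by
    intro v hv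
    rw [hET, hσα v hv, sub_self]
  obtain ⟨m, hm⟩ := hβnil
  have hpowT : ∀ (j : ℕ) (v : V),
      ((galT φ - algebraMap 𝒪 T a' • (1 : Module.End T V)) ^ j) v
        = ((gal φ - a' • (1 : Module.End 𝒪 V)) ^ j) v := by
    intro j
    induction j with
    | zero => intro v; simp
    | succ j ih =>
      intro v
      rw [pow_succ, Module.End.mul_apply, ih, pow_succ, Module.End.mul_apply]
      congr 1
      rw [LinearMap.sub_apply, LinearMap.sub_apply, LinearMap.smul_apply, LinearMap.smul_apply,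
        Module.End.one_apply, Module.End.one_apply, hgalT, hsmul, hηa]
  have hnilT : ∀ v ∈ Vβ, ((galT φ - algebraMap 𝒪 T a' • (1 : Module.End T V)) ^ m) v ∈
      (maximalIdeal 𝒪 • ⊤ : Submodule 𝒪 V) := by
    intro v hv
    rw [hpowT]
    exact hm v hv
  have hE0 := step2 (𝒪 := 𝒪) h2T ρ hirr V galT hCHT b φ (chi ρ b 0 φ) (algebraMap 𝒪 T a')
    (apply_eq_chi hdiag hφ 0) hxc ET hEcomm Vα Vβ hcompl.sup_eq_top hEα m hnilT
  intro v
  have h6 := congrArg (fun F : Module.End T V => F v) hE0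
  simp only [LinearMap.zero_apply] at h6
  rw [hET] at h6
  exact sub_eq_zero.1 h6

end Fermat.Agent.S59.Asm.H77

end
-- ==== END Fermat.Agent.S59.Asm.H77_Bridge

-- ==== BEGIN Fermat.Agent.S59.Asm.H77_Transport
section

/-!
# S59, package ASM, leaf TRANSPORT (helper77)

A basis of `ρ` induces a basis of every representation equivalent to a base change of `ρ`,
with the base-changed matrices: `b' i := e (1 ⊗ b i)`.
-/

set_option autoImplicit false

open Polynomial CuspForm IsLocalRing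
open scoped TensorProduct

namespace Fermat.Agent.S59.Asm.H77

open Fermat.Agent.S59 Fermat.Agent.S59.TWGal Fermat.Agent.S59.Asm

/-- **TRANSPORT**. -/
theorem stmt_TRANSPORT : Stmt_TRANSPORT := by
  intro A B _ _ _ _ f hf ρ ρ' hequiv b
  obtain ⟨e⟩ := hequiv
  let _ : Algebra A B := f.toAlgebra
  let bB : Module.Basis (Fin 2) B (B ⊗[A] ρ.V) := b.baseChange B
  let E : (B ⊗[A] ρ.V) ≃ₗ[B] ρ'.V := e.toLinearEquiv
  have hE : ∀ (g : GalQ) (x : B ⊗[A] ρ.V),
      E ((ρ.ρ g).baseChange B x) = ρ'.ρ g (E x) :=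
    fun g x => e.map_apply g x
  refine ⟨bB.map E, fun g i j => ?_⟩
  have h1 : (bB.map E) i = E (bB i) := Module.Basis.map_apply _ _ _
  have h2 : ∀ x : ρ'.V, (bB.map E).repr x = bB.repr (E.symm x) := fun x => rfl
  rw [h1, h2, ← hE, LinearEquiv.symm_apply_apply]
  have h3 : bB i = (1 : B) ⊗ₜ[A] b i := Module.Basis.baseChange_apply B b i
  rw [h3, LinearMap.baseChange_tmul]
  have h4 := Module.Basis.baseChange_repr_tmul B b (1 : B) (ρ.ρ g (b i)) j
  rw [h4, Algebra.smul_def, mul_one]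
  rfl

end Fermat.Agent.S59.Asm.H77

end
-- ==== END Fermat.Agent.S59.Asm.H77_Transport

-- ==== BEGIN Fermat.Agent.S59.Asm.H7_Cond
section

set_option autoImplicit false
set_option linter.style.haveILetI false
set_option linter.unusedSectionVars false

open Polynomial IsLocalRing CuspForm

namespace Fermat.Agent.S59.Asm.H7

open Fermat.Agent.R Fermat.Agent.R.H86 Fermat.Agent.S59 Fermat.Agent.S59.Datum
  Fermat.Agent.S59.Datum.H7 Fermat.Agent.S59.H99

section Fam

variable (𝒪 : Type) [CommRing 𝒪] [IsDomain 𝒪] [IsDiscreteValuationRing 𝒪]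
  [IsAdicComplete (maximalIdeal 𝒪) 𝒪] [Finite (ResidueField 𝒪)] [CharZero 𝒪]
  (p : ℕ) [Fact p.Prime]
  (N : ℕ) [NeZero N] (S : Finset ℕ)
  (T : Type) [CommRing T] [IsLocalRing T] [Algebra 𝒪 T] [IsLocalHom (algebraMap 𝒪 T)]
  [Module.Finite 𝒪 T] [Module.Free 𝒪 T] [IsAdicComplete (maximalIdeal T) T]

/-- The cyclotomic relation descends along a `p`-adically separating family of points. -/
theorem cycRel_of_points {r : ℕ} (P : Fin r → PtRep 𝒪 T) (c : ℕ)
    (hsep : ∀ (n : ℕ) (t : T), (∀ i, (P i).x t ∈ Ideal.span {((p : (P i).O)) ^ (n + c)}) →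
      t ∈ Ideal.span {((p : T)) ^ n})
    (σ : AlgebraicClosure ℚ ≃ₐ[ℚ] AlgebraicClosure ℚ) (x z : T)
    (h : ∀ i, CycRel p σ ((P i).x x) ((P i).x z)) : CycRel p σ x z := by
  intro n a ha
  obtain ⟨b, hb⟩ := exists_actsPow p σ (n + c)
  have h1 : x - (b : T) * z ∈ Ideal.span {((p : T)) ^ n} := by
    refine hsep n _ fun i => ?_
    have h2 := h i (n + c) b hb
    rw [Nat.cast_pow] at h2
    rwa [map_sub, map_mul, map_natCast]
  have hab := (hb.mono (Nat.le_add_right n c)).sub_mem_span (A := T) ha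
  have e : x - (a : T) * z = ((b : T) - (a : T)) * z + (x - (b : T) * z) := by ring
  rw [Nat.cast_pow] at hab ⊢
  rw [e]
  exact Ideal.add_mem _ (Ideal.mul_mem_right _ _ hab) h1

/-- The family of points as a jointly injective family. -/
def ptFam {r : ℕ} (hr : 0 < r) (P : Fin r → PtRep 𝒪 T) (c : ℕ)
    (hinj : ∀ t : T, (∀ i, (P i).x t = 0) → t = 0)
    (hsep : ∀ (n : ℕ) (t : T), (∀ i, (P i).x t ∈ Ideal.span {((p : (P i).O)) ^ (n + c)}) →
      t ∈ Ideal.span {((p : T)) ^ n}) : JFam T p where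
  ι := Fin r
  ne := ⟨⟨0, hr⟩⟩
  B := fun i => (P i).O
  cr := fun _ => inferInstance
  lr := fun _ => inferInstance
  φ := fun i => (P i).x
  hφ := fun i => (P i).isLocalHom
  inj := hinj
  cyc := fun σ x z h => cycRel_of_points 𝒪 p T P c hsep σ x z h

variable [IsNoetherianRing T]

/-- **Strict ordinarity of the datum** at `p ∥ N` when `ρbar` is not flat at `p`. -/
theorem strictOrd_of (hS30 : Stmt_S30) (hFP : Stmt_FlatPoint) (hONS : Stmt_OrdNewStrict)
    (hResIrr : Stmt_ResIrr) (hFD : Stmt_FlatDesc)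
    [IsReduced T] (hp2 : p ≠ 2) (hp𝒪 : (p : 𝒪) ∈ maximalIdeal 𝒪) (hpS : p ∈ S)
    (hNS : ∀ q : ℕ, q.Prime → q ∣ N → q ∈ S) (hN : p ∣ N ∧ ¬ p ^ 2 ∣ N)
    (θ : CuspForm.heckeAlgebra N 2 (↑S : Set ℕ) →+* ResidueField 𝒪)
    (H : CuspForm.HeckeGaloisRepDatum N (↑S : Set ℕ) 𝒪 θ T)
    (ρbar : ResidualGaloisRep (ResidueField 𝒪)) (habs : ρbar.IsAbsolutelyIrreducible)
    (hθ : FrobHyp ρbar N S θ)
    (hnf : ¬ (GaloisRepAdic.ofResidualGaloisRep ρbar).IsFlatAt p) :
    H.ρ.IsStrictOrdinaryAt p := by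
  classical
  have hp : p.Prime := Fact.out
  have hpT := _root_.Fermat.Agent.S59.Datum.H7.natCast_mem_maximalIdeal_of_algebra 𝒪 p T hp𝒪
  obtain ⟨r, P, c, hinj, hsep, -⟩ := exists_points_aux 𝒪 p N S T hS30 hp𝒪 hpS hNS H.π
  have hr : 0 < r := by
    rcases Nat.eq_zero_or_pos r with h0 | h0
    · subst h0
      exact absurd (hinj 1 fun i => i.elim0) one_ne_zero
    · exact h0
  have hpO : ∀ i, (p : (P i).O) ∈ maximalIdeal (P i).O :=
    fun i => PtRep.natCast_mem 𝒪 p T hpT (P i)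
  haveI hloc : ∀ i, IsLocalHom (P i).x := fun i => (P i).isLocalHom
  have hlocO : ∀ i, IsLocalHom (algebraMap 𝒪 (P i).O) := by
    intro i
    have h1 : algebraMap 𝒪 (P i).O = ((P i).x).comp (algebraMap 𝒪 T) :=
      RingHom.ext fun a => ((P i).hxO a).symm
    rw [h1]
    exact RingHom.isLocalHom_comp _ _
  have hfrobH : HasFrobCharpoly H.π H.ρ :=
    fun ℓ hℓ hℓN hℓS B hB σ hσ => H.charpoly_frob ℓ hℓ hℓN hℓS B hB σ hσ
  -- the level `M = N / p`
  obtain ⟨M, hM⟩ := hN.1
  have hNM : N = M * p := by rw [hM, mul_comm]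
  have hM0 : M ≠ 0 := by
    rintro rfl
    exact NeZero.ne N (by rw [hNM, zero_mul])
  haveI : NeZero M := ⟨hM0⟩
  have hpM : ¬ p ∣ M := by
    rintro ⟨d, hd⟩
    exact hN.2 ⟨d, by rw [hNM, hd]; ring⟩
  have hMS : ∀ q : ℕ, q.Prime → q ∣ M → q ∈ S :=
    fun q hq hqM => hNS q hq (hNM ▸ Dvd.dvd.mul_right hqM p)
  refine (ptFam 𝒪 p T hr P c hinj hsep).isStrictOrdinaryAt H.ρ hp2 fun (i : Fin r) => ?_
  change (H.ρ.baseChangeAlong (P i).x (P i).isLocalHom).IsStrictOrdinaryAt p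
  have hfrobi : HasFrobCharpoly ((P i).x.comp H.π)
      (H.ρ.baseChangeAlong (P i).x (P i).isLocalHom) :=
    hasFrobCharpoly_baseChangeAlong (P i).x (P i).isLocalHom H.π H.ρ hfrobH
  have habsi : (H.ρ.baseChangeAlong (P i).x (P i).isLocalHom).residual.IsAbsolutelyIrreducible :=
    residual_absIrr_baseChangeAlong (P i).x (P i).isLocalHom H.ρ H.residual_absIrr
  refine hONS p N M S (P i).O hp hp2 (hpO i) hNM hpM hNS ((P i).x.comp H.π) _ hfrobi habsi ?_
  rintro ⟨χ', hχ'⟩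
  apply hnf
  -- the point is flat
  have hfrob' : HasFrobCharpoly χ' (H.ρ.baseChangeAlong (P i).x (P i).isLocalHom) := by
    intro ℓ hℓ hℓM hℓS B hB σ hσ
    have hℓp : ℓ ≠ p := fun h => hℓS (by rw [h]; exact_mod_cast hpS)
    have hℓN : ¬ ℓ ∣ N := by
      rw [hNM]
      intro hdvd
      rcases (Nat.Prime.dvd_mul hℓ).1 hdvd with h1 | h1
      · exact hℓM h1
      · exact hℓp ((Nat.prime_dvd_prime_iff_eq hℓ hp).1 h1)
    rw [hχ' ℓ hℓ hℓN hℓM hℓS]
    exact hfrobi ℓ hℓ hℓN hℓS B hB σ hσ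
  have hflat : (H.ρ.baseChangeAlong (P i).x (P i).isLocalHom).IsFlatAt p :=
    hFP p M S (P i).O hp hp2 (hpO i) hpM hpS hMS χ' _ hfrob' habsi
  -- the residual representation at the point
  haveI := hlocO i
  have hψ : ∀ t : CuspForm.heckeAlgebra N 2 (↑S : Set ℕ),
      residue (P i).O (((P i).x.comp H.π) t) =
        ResidueField.map (algebraMap 𝒪 (P i).O) (θ t) := by
    intro t
    obtain ⟨a, ha⟩ := IsLocalRing.residue_surjective (θ t)
    have h1 : residue (P i).O ((P i).x (H.π t)) =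
        ResidueField.map (P i).x (residue T (H.π t)) := (ResidueField.map_residue _ _).symm
    rw [RingHom.comp_apply, h1, H.residue_π, ← ha, ResidueField.map_residue,
      ResidueField.map_residue, ResidueField.map_residue, (P i).hxO]
  have hequiv := (hResIrr _ _ (ResidueField.map (algebraMap 𝒪 (P i).O)) ρbar
    (H.ρ.baseChangeAlong (P i).x (P i).isLocalHom).residual S habs
    (fun ℓ hℓ hℓS B hB σ hσ => residual_charpoly 𝒪 N S ((P i).x.comp H.π) θ hψ _ hfrobi
      ρbar hθ hNS ℓ hℓ hℓS B hB σ hσ)).2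
  exact hFD p hp (ResidueField 𝒪) ρbar (P i).O (ResidueField.map (algebraMap 𝒪 (P i).O)) _
    hequiv hflat

end Fam

/-- The type of the frozen S31 for the full local Hecke ring. -/
def Stmt_UnrDatum : Prop :=
  ∀ (𝒪 : Type) [CommRing 𝒪] [IsDomain 𝒪] [IsDiscreteValuationRing 𝒪]
    [IsAdicComplete (maximalIdeal 𝒪) 𝒪] [Finite (ResidueField 𝒪)] [CharZero 𝒪]
    (p : ℕ), p.Prime → (p : 𝒪) ∈ maximalIdeal 𝒪 →
    ∀ (N : ℕ) [NeZero N] [Fact (CuspForm.HasIntegralStructure N 2)] (S : Finset ℕ), p ∈ S →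
    (∀ q : ℕ, q.Prime → q ∣ N → q ∈ S) →
    ∀ (θ : CuspForm.heckeAlgebra N 2 (↑S : Set ℕ) →+* ResidueField 𝒪)
      (H : CuspForm.HeckeGaloisRepDatum N (↑S : Set ℕ) 𝒪 θ
        (CuspForm.heckeLocal N (↑S : Set ℕ) 𝒪 θ)),
    ∀ q : ℕ, q.Prime → q ∉ S → H.ρ.IsUnramifiedAt q

/-- The type of the frozen S34 for the full local Hecke ring. -/
def Stmt_UnipDatum : Prop :=
  ∀ (𝒪 : Type) [CommRing 𝒪] [IsDomain 𝒪] [IsDiscreteValuationRing 𝒪]
    [IsAdicComplete (maximalIdeal 𝒪) 𝒪] [Finite (ResidueField 𝒪)] [CharZero 𝒪]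
    (p : ℕ), p.Prime → (p : 𝒪) ∈ maximalIdeal 𝒪 →
    ∀ (N : ℕ) [NeZero N] [Fact (CuspForm.HasIntegralStructure N 2)] (S : Finset ℕ), p ∈ S →
    (∀ q : ℕ, q.Prime → q ∣ N → q ∈ S) →
    ∀ (θ : CuspForm.heckeAlgebra N 2 (↑S : Set ℕ) →+* ResidueField 𝒪)
      (H : CuspForm.HeckeGaloisRepDatum N (↑S : Set ℕ) 𝒪 θ
        (CuspForm.heckeLocal N (↑S : Set ℕ) 𝒪 θ)),
    ∀ q : ℕ, q.Prime → q ≠ p → q ∣ N → ¬ q ^ 2 ∣ N → H.ρ.IsUnipotentOnInertiaAt q

/-- The type of the frozen S32 for the full local Hecke ring. -/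
def Stmt_FlatDatum : Prop :=
  ∀ (𝒪 : Type) [CommRing 𝒪] [IsDomain 𝒪] [IsDiscreteValuationRing 𝒪]
    [IsAdicComplete (maximalIdeal 𝒪) 𝒪] [Finite (ResidueField 𝒪)] [CharZero 𝒪]
    (p : ℕ), p.Prime → p ≠ 2 → (p : 𝒪) ∈ maximalIdeal 𝒪 →
    ∀ (N : ℕ) [NeZero N] [Fact (CuspForm.HasIntegralStructure N 2)] (S : Finset ℕ), ¬ p ∣ N →
    p ∈ S → (∀ q : ℕ, q.Prime → q ∣ N → q ∈ S) →
    ∀ (θ : CuspForm.heckeAlgebra N 2 (↑S : Set ℕ) →+* ResidueField 𝒪)
      (H : CuspForm.HeckeGaloisRepDatum N (↑S : Set ℕ) 𝒪 θ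
        (CuspForm.heckeLocal N (↑S : Set ℕ) 𝒪 θ)),
    H.ρ.IsFlatAt p

/-- **COND**, core. -/
theorem stmt_COND_core (hUnr : Stmt_UnrDatum) (hUnip : Stmt_UnipDatum) (hFlat : Stmt_FlatDatum)
    (hS30 : Stmt_S30) (hFP : Stmt_FlatPoint) (hONS : Stmt_OrdNewStrict)
    (hResIrr : Stmt_ResIrr) (hFD : Stmt_FlatDesc) : Stmt_COND := by
  intro 𝒪 _ _ _ _ _ _ p _ hp2 hp𝒪 fl ρbar Smin hyp _ hnf Q N' _ _ S' hS' hNS hSmin hfl hso θ hθ
    H _ hcyc _
  have hp : p.Prime := Fact.out
  have hpS : p ∈ S' := by rw [hS']; exact Finset.mem_union_left _ hyp.hpSmin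
  have hunr : ∀ q : ℕ, q.Prime → q ∉ Smin ∪ Q → H.ρ.IsUnramifiedAt q := fun q hq hqS =>
    hUnr 𝒪 p hp hp𝒪 N' S' hpS hNS θ H q hq (by rw [hS']; exact hqS)
  have hunip : ∀ q ∈ Smin, q.Prime → q ≠ p → H.ρ.IsUnipotentOnInertiaAt q := fun q hqS hq hqp =>
    hUnip 𝒪 p hp hp𝒪 N' S' hpS hNS θ H q hq hqp (hSmin q hqS hqp).1 (hSmin q hqS hqp).2
  cases fl
  · -- strictly ordinary
    haveI : Module.Finite ℤ (CuspForm.heckeAlgebra N' 2 (↑S' : Set ℕ)) :=
      Fermat.Agent.S22.result N' 2 (↑S' : Set ℕ)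
    haveI : IsReduced (CuspForm.heckeAlgebra N' 2 (↑S' : Set ℕ)) :=
      H58.stmt_HeckeReduced N' (↑S' : Set ℕ) hNS
    haveI : IsReduced (CuspForm.heckeLocal N' (↑S' : Set ℕ) 𝒪 θ) :=
      H2.isReduced_of_flat_of_adjoin_eq_top (CuspForm.heckeAlgebra N' 2 (↑S' : Set ℕ)) 𝒪
        (CuspForm.heckeLocal N' (↑S' : Set ℕ) 𝒪 θ) H.π H.adjoin_range_π
    have hso' := strictOrd_of 𝒪 p N' S' (CuspForm.heckeLocal N' (↑S' : Set ℕ) 𝒪 θ) hS30 hFP hONS
      hResIrr hFD hp2 hp𝒪 hpS hNS (hso rfl) θ H ρbar hyp.habs hθ (hnf rfl)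
    exact ⟨⟨hcyc, hso', hunr⟩, hunip⟩
  · -- flat
    have hfl' := hFlat 𝒪 p hp hp2 hp𝒪 N' S' (hfl rfl) hpS hNS θ H
    exact ⟨⟨hcyc, hfl', hunr⟩, hunip⟩

end Fermat.Agent.S59.Asm.H7

end
-- ==== END Fermat.Agent.S59.Asm.H7_Cond

-- ==== BEGIN Fermat.Agent.S59.Asm.H85_LocMod
section

set_option autoImplicit false
set_option linter.unusedSectionVars false
set_option linter.style.haveILetI false

/-!
# S59, package ASM (helper85): the leaf LOCMOD

`stmt_LOCMOD : Stmt_LOCMOD` : a Hecke module `M : HMod 𝒪 N S θ` (finite free over `𝒪`, local at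
`θ`) is a module over the local Hecke ring `heckeLocal N S 𝒪 θ`.

Proof.  `g : 𝒪 ⊗ 𝕋 → End_𝒪 V`.  After base change to the residue field `k`, every `x` is of the
form `c + (nilpotent)` with `residue c = residualCharacter x`; so if `residualCharacter x ≠ 0`
the base change of `g x` is invertible, hence `det (g x)` is a unit of `𝒪` and `g x` is
invertible.  Then `exists_lift`.
-/

noncomputable section

open scoped TensorProduct
open IsLocalRing CuspForm

namespace Fermat.Agent.S59.Asm.H85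

open Fermat.Agent.S59.Datum.H85

section general

variable {R : Type*} [CommRing R] [IsLocalRing R] {V : Type*} [AddCommGroup V] [Module R V]

/-- An endomorphism of a finite free module over a local ring is invertible as soon as its base
change to the residue field is. -/
theorem isUnit_of_isUnit_baseChange [Module.Finite R V] [Module.Free R V] (f : Module.End R V)
    (h : IsUnit (f.baseChange (ResidueField R))) : IsUnit f := by
  rw [LinearMap.isUnit_iff_isUnit_det]
  have h1 := LinearMap.isUnit_det _ h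
  rw [LinearMap.det_baseChange] at h1
  exact (isUnit_map_iff (residue R) _).mp h1

/-- An endomorphism with values in `𝔪 V` dies after base change to the residue field. -/
theorem baseChange_eq_zero_of_forall_mem (f : Module.End R V)
    (h : ∀ v, f v ∈ (maximalIdeal R • ⊤ : Submodule R V)) :
    f.baseChange (ResidueField R) = 0 := by
  have key : ∀ w ∈ (maximalIdeal R • ⊤ : Submodule R V),
      ((1 : ResidueField R) ⊗ₜ[R] w : ResidueField R ⊗[R] V) = 0 := by
    intro w hw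
    induction hw using Submodule.smul_induction_on' with
    | smul r hr n _ =>
      rw [← TensorProduct.smul_tmul, Algebra.smul_def, mul_one]
      have : algebraMap R (ResidueField R) r = 0 := (residue_eq_zero_iff r).mpr hr
      rw [this, TensorProduct.zero_tmul]
    | add x _ y _ hx hy => rw [TensorProduct.tmul_add, hx, hy, add_zero]
  apply TensorProduct.AlgebraTensorModule.curry_injective
  ext v
  show (f.baseChange (ResidueField R)) ((1 : ResidueField R) ⊗ₜ[R] v) = 0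
  rw [LinearMap.baseChange_tmul]
  exact key _ (h v)

end general

set_option synthInstance.maxHeartbeats 400000
set_option maxHeartbeats 1000000

/-- **LOCMOD.** -/
theorem stmt_LOCMOD : Stmt_LOCMOD := by
  intro 𝒪 _ _ _ _ N _ _ S θ M
  -- the action of `𝒪 ⊗ 𝕋`
  let g : (𝒪 ⊗[ℤ] ↥(heckeAlgebra N 2 S)) →ₐ[𝒪] Module.End 𝒪 M.V :=
    Algebra.TensorProduct.lift (Algebra.ofId 𝒪 (Module.End 𝒪 M.V)) M.η.toIntAlgHom
      (fun a t => by rw [Algebra.ofId_apply]; exact Algebra.commute_algebraMap_left a _)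
  have hg : ∀ (a : 𝒪) (t : ↥(heckeAlgebra N 2 S)),
      g (a ⊗ₜ[ℤ] t) = algebraMap 𝒪 (Module.End 𝒪 M.V) a * M.η t := fun a t => by
    show Algebra.TensorProduct.lift _ _ _ (a ⊗ₜ[ℤ] t) = _
    rw [Algebra.TensorProduct.lift_tmul]
    rfl
  -- base change to the residue field
  let G : (𝒪 ⊗[ℤ] ↥(heckeAlgebra N 2 S)) →ₐ[𝒪]
      Module.End (ResidueField 𝒪) (ResidueField 𝒪 ⊗[𝒪] M.V) :=
    (Module.End.baseChangeHom 𝒪 (ResidueField 𝒪) M.V).comp g
  have hG : ∀ x, G x = (g x).baseChange (ResidueField 𝒪) := fun x => rfl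
  have hcomm : ∀ x y, Commute (G x) (G y) := fun x y => (Commute.all x y).map G
  -- the key induction
  have key : ∀ x : 𝒪 ⊗[ℤ] ↥(heckeAlgebra N 2 S), ∃ c : 𝒪,
      residualCharacter N S 𝒪 θ x = residue 𝒪 c ∧
        IsNilpotent (G (x - algebraMap 𝒪 _ c)) := by
    intro x
    induction x using TensorProduct.induction_on with
    | zero =>
      refine ⟨0, by rw [map_zero, map_zero], ?_⟩
      rw [map_zero, sub_zero, map_zero]
      exact IsNilpotent.zero
    | tmul a t =>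
      obtain ⟨b, hb⟩ := residue_surjective (θ t)
      refine ⟨a * b, by rw [residualCharacter_tmul, map_mul, hb], ?_⟩
      have h1 : (a ⊗ₜ[ℤ] t : 𝒪 ⊗[ℤ] ↥(heckeAlgebra N 2 S)) - algebraMap 𝒪 _ (a * b)
          = algebraMap 𝒪 _ a * ((1 : 𝒪) ⊗ₜ[ℤ] t - algebraMap 𝒪 _ b) := by
        have h0 : (a ⊗ₜ[ℤ] t : 𝒪 ⊗[ℤ] ↥(heckeAlgebra N 2 S))
            = algebraMap 𝒪 _ a * ((1 : 𝒪) ⊗ₜ[ℤ] t) := by
          rw [Algebra.TensorProduct.algebraMap_apply, Algebra.algebraMap_self, RingHom.id_apply,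
            Algebra.TensorProduct.tmul_mul_tmul, mul_one, one_mul]
        rw [mul_sub, ← map_mul, ← h0]
      rw [h1, map_mul]
      refine Commute.isNilpotent_mul_left (hcomm _ _) ?_
      obtain ⟨m, hm⟩ := M.η_local t b hb
      refine ⟨m, ?_⟩
      rw [hG, ← LinearMap.baseChange_pow]
      apply baseChange_eq_zero_of_forall_mem
      intro v
      have h2 : g ((1 : 𝒪) ⊗ₜ[ℤ] t - algebraMap 𝒪 _ b)
          = M.η t - b • (1 : Module.End 𝒪 M.V) := by
        rw [map_sub, hg, map_one, one_mul, AlgHom.commutes, Algebra.algebraMap_eq_smul_one]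
      rw [h2]
      exact hm v
    | add x y hx hy =>
      obtain ⟨c, hc, hcn⟩ := hx
      obtain ⟨d, hd, hdn⟩ := hy
      refine ⟨c + d, by rw [map_add, map_add, hc, hd], ?_⟩
      have h1 : x + y - algebraMap 𝒪 _ (c + d)
          = (x - algebraMap 𝒪 _ c) + (y - algebraMap 𝒪 _ d) := by
        rw [map_add]; abel
      rw [h1, map_add]
      exact Commute.isNilpotent_add (hcomm _ _) hcn hdn
  -- units
  have hunit : ∀ s, residualCharacter N S 𝒪 θ s ≠ 0 → IsUnit (g s) := by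
    intro s hs
    apply isUnit_of_isUnit_baseChange
    rw [← hG]
    obtain ⟨c, hc, hcn⟩ := key s
    have hcu : IsUnit c := by
      by_contra hnu
      exact hs (hc.trans ((residue_eq_zero_iff _).mpr ((mem_maximalIdeal _).mpr hnu)))
    have h1 : G s = G (algebraMap 𝒪 _ c) + G (s - algebraMap 𝒪 _ c) := by
      rw [← map_add]; congr 1; abel
    rw [h1]
    have hu : IsUnit (G (algebraMap 𝒪 _ c)) := by
      rw [AlgHom.commutes]
      exact hcu.map (algebraMap 𝒪 _)
    have h2 : Commute (G (s - algebraMap 𝒪 _ c)) (G (algebraMap 𝒪 _ c)) := hcomm _ _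
    exact @IsNilpotent.isUnit_add_left_of_commute
      (Module.End (ResidueField 𝒪) (ResidueField 𝒪 ⊗[𝒪] M.V)) _ _ _ hcn hu h2
  obtain ⟨ghat, hghat⟩ := exists_lift 𝒪 N S θ g.toRingHom hunit
  refine ⟨{ ghat with commutes' := fun a => ?_ }, fun t => ?_⟩
  · show ghat (algebraMap 𝒪 (heckeLocal N S 𝒪 θ) a) = algebraMap 𝒪 _ a
    rw [← toLocal_algebraMap, hghat]
    exact g.commutes a
  · show ghat (heckeLocal.π N S 𝒪 θ t) = M.η t
    rw [← toLocal_includeRight, hghat]
    show g ((1 : 𝒪) ⊗ₜ[ℤ] t) = M.η t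
    rw [hg, map_one, one_mul]

end Fermat.Agent.S59.Asm.H85

end

end
-- ==== END Fermat.Agent.S59.Asm.H85_LocMod
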