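-- GENERATED (merged mirror, NOTES/tools/trim/merge3_helper67.py): 4 modules of the originals, bodies verbatim.
import Mathlib
import Fermat.Agent.Zm.S43_L06_002
import Fermat.Agent.Zm.S43_L04_002
import Fermat.Agent.Zm.S43_L03_003
import Fermat.Agent.Zm.S56_L08_003
import Fermat.Agent.Zm.S56_L10_002
import Fermat.Agent.Zm.S56_L11_002
import Fermat.Agent.Zm.S56_L10_004
import Fermat.Agent.Zm.S43_L01_005

-- ==== BEGIN Fermat.Agent.S59.H99_Def
section

/-!
# S59, leaf DEF (helper99): the universal deformation ring of `cond` exists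

`stmt_DEF : Fermat.Agent.S59.Stmt_DEF`.

* `isDeformationCondition_condB` (`H99_DefCond.lean`): `cond` is a deformation condition;
* `tangentFinite_condB`: its tangent space is finite (the dictionary with
  `H¹(G_{ℚ, Smin ∪ T}, ad⁰ ρbar)` and Hermite–Minkowski);
* `Fermat.Agent.S53.result`: existence of the universal deformation ring.
-/

set_option autoImplicit false
set_option linter.unusedSectionVars false
set_option linter.style.haveILetI false

open IsLocalRing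

namespace Fermat.Agent.S59.H99

theorem cond_eq_condB (𝒪 : Type) [CommRing 𝒪] (p : ℕ) (fl : Bool) (Smin T : Finset ℕ) :
    Fermat.Agent.S59.cond 𝒪 p fl Smin T = condB 𝒪 p fl Smin T := by
  funext A _ _ _ ρ
  cases fl
  · exact propext ⟨fun h => ⟨⟨h.1.1, h.1.2.2, h.2⟩, h.1.2.1⟩,
      fun h => ⟨⟨h.1.1, h.2, h.1.2.1⟩, h.1.2.2⟩⟩
  · exact propext ⟨fun h => ⟨⟨h.1.1, h.1.2.2, h.2⟩, h.1.2.1⟩,
      fun h => ⟨⟨h.1.1, h.2, h.1.2.1⟩, h.1.2.2⟩⟩

/-- The tangent space of `condB` is finite. -/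
theorem tangentFinite_condB (𝒪 : Type) [CommRing 𝒪] [IsDomain 𝒪] [IsDiscreteValuationRing 𝒪]
    [IsAdicComplete (maximalIdeal 𝒪) 𝒪] [Finite (ResidueField 𝒪)]
    (p : ℕ) [Fact p.Prime] (hp2 : p ≠ 2) (hp𝒪 : (p : 𝒪) ∈ maximalIdeal 𝒪) (fl : Bool)
    (ρbar : ResidualGaloisRep (ResidueField 𝒪)) (Smin T : Finset ℕ)
    (hbar : condB 𝒪 p fl Smin T (GaloisRepAdic.ofResidualGaloisRep ρbar)) :
    GaloisRep.TangentFinite 𝒪 ρbar (condB 𝒪 p fl Smin T) := by
  rw [Fermat.Agent.S53.tangentFinite_iff]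
  obtain ⟨hfd, hsm, -⟩ := Fermat.Agent.S56.H47.ad0_basic (ResidueField 𝒪) ρbar
  haveI := hfd
  have hWfin := Fermat.Agent.S56.H92.stmt_fin_glob (ResidueField 𝒪) (Fermat.Agent.S56.ad0 ρbar)
    hsm (Fermat.Agent.S56.primesOf (Smin ∪ T))
  refine (Fermat.Agent.S56.Dict.tangentLE_of_classes ρbar (condB 𝒪 p fl Smin T)
    (Module.finrank (ResidueField 𝒪)
      (groupCohomology.continuousH1S (Fermat.Agent.S56.primesOf (Smin ∪ T))
        (Fermat.Agent.S56.ad0 ρbar)))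
    (Fermat.Agent.S56.Dict.stmt_dict_exists 𝒪 p ρbar _ hp2 hp𝒪 hbar.1.1
      (fun A _ _ _ ρ h => h.1.1))
    (Fermat.Agent.S56.Dict.H85.stmt_dict_inj 𝒪 ρbar _)
    (groupCohomology.continuousH1S (Fermat.Agent.S56.primesOf (Smin ∪ T))
      (Fermat.Agent.S56.ad0 ρbar)) hWfin ?_ le_rfl).1
  intro x ξ hx
  refine Fermat.Agent.S56.Dict.stmt_dict_cont 𝒪 ρbar _ _ x ξ ?_ hx
  intro q hq
  letI := Fermat.Agent.S53.dualNumberAlgebra 𝒪
  exact x.2.1.1.2.1 q q.2 (fun h => hq (Fermat.Agent.S56.mem_primesOf.2 h))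

/-- **DEF**: the universal deformation ring of `cond` exists. -/
theorem stmt_DEF : Fermat.Agent.S59.Stmt_DEF := by
  intro 𝒪 _ _ _ _ _ p _ hp2 hp𝒪 fl ρbar habs Smin T _ _ hbar
  rw [cond_eq_condB] at hbar ⊢
  exact Fermat.Agent.S53.result 𝒪 ρbar _ habs (isDeformationCondition_condB 𝒪 p hp2 fl Smin T)
    hbar (tangentFinite_condB 𝒪 p hp2 hp𝒪 fl ρbar Smin T hbar)

end Fermat.Agent.S59.H99

end
-- ==== END Fermat.Agent.S59.H99_Def

-- ==== BEGIN Fermat.Agent.S59.Lim.H2_Tens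
section

/-!
# S59, package LIM, leaf LIM-TENS (helper2): `𝒪 ⊗_ℤ A` for a `p`-divisible group `A`

`𝒪` a DVR with finite residue field, `p ∈ 𝔪`, `p ≠ 0` in `𝒪` (so `𝒪` has characteristic `0` and
is flat over `ℤ`); `A` a `p`-power torsion, `p`-divisible abelian group with `A[p]` finite.

* `charZero_of_mem`, `flat_int`;
* `stmt_TENS : Lim.Stmt_TENS` (`𝒪 ⊗[ℤ] A` is `IsDiv ϖ`);
* `stmt_TENS_inj : Lim.Stmt_TENS_inj` (`x ↦ 1 ⊗ x` is injective).

This file contains no `sorry`.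
-/

set_option autoImplicit false
set_option linter.style.haveILetI false
set_option linter.unusedSectionVars false
set_option linter.unusedVariables false
set_option maxHeartbeats 1000000

noncomputable section

open IsLocalRing TensorProduct

namespace Fermat.Agent.S59.Lim.H2

section Basic

variable {𝒪 : Type*} [CommRing 𝒪] [IsDomain 𝒪] [IsLocalRing 𝒪]

/-- A local domain in which a prime number `p` is a nonzero non-unit has characteristic `0`. -/
theorem charZero_of_mem {p : ℕ} (hp : p.Prime) (hpm : (p : 𝒪) ∈ maximalIdeal 𝒪)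
    (hp0 : (p : 𝒪) ≠ 0) : CharZero 𝒪 := by
  obtain ⟨c, hc⟩ := CharP.exists 𝒪
  rcases CharP.char_is_prime_or_zero 𝒪 c with hcp | hc0
  · exfalso
    have hc0 : (c : 𝒪) = 0 := CharP.cast_eq_zero 𝒪 c
    by_cases hcp' : c = p
    · rw [hcp'] at hc0
      exact hp0 hc0
    · have hcop : Nat.Coprime c p := (Nat.coprime_primes hcp hp).mpr hcp'
      have h1 : ((Nat.gcdA c p : ℤ) : 𝒪) * (c : 𝒪) + ((Nat.gcdB c p : ℤ) : 𝒪) * (p : 𝒪) = 1 := by
        have := Nat.gcd_eq_gcd_ab c p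
        rw [hcop.gcd_eq_one] at this
        have h2 := congrArg (fun z : ℤ => (z : 𝒪)) this
        simp only [Int.cast_add, Int.cast_mul, Int.cast_natCast, Nat.cast_one, Int.cast_one]
          at h2
        rw [h2]
        ring
      rw [hc0, mul_zero, zero_add] at h1
      have h3 : (1 : 𝒪) ∈ maximalIdeal 𝒪 := by
        rw [← h1]
        exact Ideal.mul_mem_left _ _ hpm
      exact (Ideal.ne_top_iff_one _).mp (IsLocalRing.maximalIdeal.isMaximal 𝒪).ne_top h3
  · subst hc0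
    exact CharP.charP_to_charZero 𝒪

theorem isTorsionFree_int [CharZero 𝒪] : Module.IsTorsionFree ℤ 𝒪 := by
  refine ⟨fun n hn => ?_⟩
  have hn0 : n ≠ 0 := hn.ne_zero
  intro x y hxy
  have h1 : (n : 𝒪) * (x - y) = 0 := by
    have : n • x = n • y := hxy
    rw [zsmul_eq_mul, zsmul_eq_mul] at this
    rw [mul_sub, this, sub_self]
  rcases mul_eq_zero.mp h1 with h | h
  · exact absurd (Int.cast_eq_zero.mp h) hn0
  · exact sub_eq_zero.mp h

theorem flat_int [CharZero 𝒪] : Module.Flat ℤ 𝒪 := by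
  haveI := isTorsionFree_int (𝒪 := 𝒪)
  infer_instance

end Basic

section Tens

variable {𝒪 : Type*} [CommRing 𝒪] [IsDomain 𝒪] [IsDiscreteValuationRing 𝒪]
  {A : Type*} [AddCommGroup A]

/-- `p = u ϖ ^ e` with `e ≥ 1`. -/
theorem exists_eq_unit_mul_pow {ϖ : 𝒪} (hϖ : Irreducible ϖ) {p : ℕ}
    (hpm : (p : 𝒪) ∈ maximalIdeal 𝒪) (hp0 : (p : 𝒪) ≠ 0) :
    ∃ (e : ℕ) (u : 𝒪ˣ), 0 < e ∧ (p : 𝒪) = u * ϖ ^ e := by
  obtain ⟨e, u, hu⟩ := IsDiscreteValuationRing.eq_unit_mul_pow_irreducible hp0 hϖ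
  refine ⟨e, u, ?_, hu⟩
  rcases Nat.eq_zero_or_pos e with h | h
  · exfalso
    rw [h, pow_zero, mul_one] at hu
    have : IsUnit (p : 𝒪) := hu ▸ u.isUnit
    exact (IsLocalRing.mem_maximalIdeal _).mp hpm this
  · exact h

theorem natCast_smul_tmul (p : ℕ) (r : 𝒪) (x : A) :
    (p : 𝒪) • (r ⊗ₜ[ℤ] x) = r ⊗ₜ[ℤ] (p • x) := by
  rw [TensorProduct.smul_tmul', smul_eq_mul, ← nsmul_eq_mul, ← TensorProduct.smul_tmul',
    TensorProduct.tmul_smul]

theorem natCast_pow_smul_tmul (p k : ℕ) (r : 𝒪) (x : A) :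
    ((p : 𝒪) ^ k) • (r ⊗ₜ[ℤ] x) = r ⊗ₜ[ℤ] (p ^ k • x) := by
  rw [← Nat.cast_pow, natCast_smul_tmul]

/-- torsion -/
theorem tens_tors {ϖ : 𝒪} (hϖ : Irreducible ϖ) {p : ℕ} (hpm : (p : 𝒪) ∈ maximalIdeal 𝒪)
    (hp0 : (p : 𝒪) ≠ 0) (htors : ∀ x : A, ∃ k : ℕ, p ^ k • x = 0) (w : 𝒪 ⊗[ℤ] A) :
    ∃ k : ℕ, ϖ ^ k • w = 0 := by
  obtain ⟨e, u, he, hu⟩ := exists_eq_unit_mul_pow hϖ hpm hp0
  -- first with powers of `p`
  have hp : ∃ k : ℕ, ((p : 𝒪) ^ k) • w = 0 := by
    induction w using TensorProduct.induction_on with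
    | zero => exact ⟨0, smul_zero _⟩
    | tmul r x =>
      obtain ⟨k, hk⟩ := htors x
      exact ⟨k, by rw [natCast_pow_smul_tmul, hk, tmul_zero]⟩
    | add w₁ w₂ h₁ h₂ =>
      obtain ⟨k₁, hk₁⟩ := h₁
      obtain ⟨k₂, hk₂⟩ := h₂
      refine ⟨k₁ + k₂, ?_⟩
      have e1 : ((p : 𝒪) ^ (k₁ + k₂)) • w₁ = 0 := by
        rw [pow_add, mul_comm, mul_smul, hk₁, smul_zero]
      have e2 : ((p : 𝒪) ^ (k₁ + k₂)) • w₂ = 0 := by
        rw [pow_add, mul_smul, hk₂, smul_zero]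
      rw [smul_add, e1, e2, add_zero]
  obtain ⟨k, hk⟩ := hp
  refine ⟨e * k, ?_⟩
  have h1 : ϖ ^ (e * k) = ((u⁻¹ : 𝒪ˣ) : 𝒪) ^ k * (p : 𝒪) ^ k := by
    rw [hu, mul_pow, ← mul_assoc, ← mul_pow, Units.inv_mul, one_pow, one_mul, pow_mul]
  rw [h1, mul_smul, hk, smul_zero]

/-- divisibility -/
theorem tens_div {ϖ : 𝒪} (hϖ : Irreducible ϖ) {p : ℕ} (hpm : (p : 𝒪) ∈ maximalIdeal 𝒪)
    (hp0 : (p : 𝒪) ≠ 0) (hdiv : ∀ x : A, ∃ y : A, p • y = x) (w : 𝒪 ⊗[ℤ] A) :
    ∃ y : 𝒪 ⊗[ℤ] A, ϖ • y = w := by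
  obtain ⟨e, u, he, hu⟩ := exists_eq_unit_mul_pow hϖ hpm hp0
  have hp : ∃ y : 𝒪 ⊗[ℤ] A, (p : 𝒪) • y = w := by
    induction w using TensorProduct.induction_on with
    | zero => exact ⟨0, smul_zero _⟩
    | tmul r x =>
      obtain ⟨y, hy⟩ := hdiv x
      exact ⟨r ⊗ₜ[ℤ] y, by rw [natCast_smul_tmul, hy]⟩
    | add w₁ w₂ h₁ h₂ =>
      obtain ⟨y₁, hy₁⟩ := h₁
      obtain ⟨y₂, hy₂⟩ := h₂
      exact ⟨y₁ + y₂, by rw [smul_add, hy₁, hy₂]⟩
  obtain ⟨y, hy⟩ := hp
  obtain ⟨e', rfl⟩ : ∃ e', e = e' + 1 := ⟨e - 1, by omega⟩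
  refine ⟨((u : 𝒪) * ϖ ^ e') • y, ?_⟩
  rw [← mul_smul, ← hy, hu]
  congr 1
  ring

end Tens

section Fin

variable {𝒪 : Type*} [CommRing 𝒪] [IsDomain 𝒪] [IsDiscreteValuationRing 𝒪]
  {A : Type*} [AddCommGroup A]

theorem natCast_smul_eq_zsmul (p : ℕ) (w : 𝒪 ⊗[ℤ] A) : (p : 𝒪) • w = (p : ℤ) • w := by
  rw [Nat.cast_smul_eq_nsmul, natCast_zsmul]

/-- `𝒪 ⊗ B` is finite for a finite group `B` killed by `p`. -/
theorem finite_tens_of_finite [Finite (ResidueField 𝒪)] {ϖ : 𝒪} (hϖ : Irreducible ϖ) {p : ℕ}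
    (hpm : (p : 𝒪) ∈ maximalIdeal 𝒪) (hp0 : (p : 𝒪) ≠ 0)
    (B : Type*) [AddCommGroup B] [Finite B] (hB : ∀ b : B, p • b = 0) :
    Finite (𝒪 ⊗[ℤ] B) := by
  classical
  haveI : Fintype B := Fintype.ofFinite B
  obtain ⟨e, u, he, hu⟩ := exists_eq_unit_mul_pow hϖ hpm hp0
  set I : Ideal 𝒪 := (maximalIdeal 𝒪) ^ e with hI
  haveI : Finite (𝒪 ⧸ maximalIdeal 𝒪) := inferInstanceAs (Finite (ResidueField 𝒪))
  haveI : Finite (𝒪 ⧸ I) := Ideal.finite_quotient_pow (IsNoetherian.noetherian _) e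
  have hkill : ∀ (r : 𝒪) (b : B), r ∈ I → r ⊗ₜ[ℤ] b = 0 := by
    intro r b hr
    rw [hI, hϖ.maximalIdeal_eq, Ideal.span_singleton_pow, Ideal.mem_span_singleton'] at hr
    obtain ⟨s, rfl⟩ := hr
    have h1 : s * ϖ ^ e = (p : 𝒪) * (s * ((u⁻¹ : 𝒪ˣ) : 𝒪)) := by
      rw [hu]
      have : (u : 𝒪) * ((u⁻¹ : 𝒪ˣ) : 𝒪) = 1 := Units.mul_inv u
      linear_combination (-(s * ϖ ^ e)) * this
    rw [h1, ← smul_eq_mul, ← TensorProduct.smul_tmul', natCast_smul_tmul, hB, tmul_zero]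
  let ψ : B → ((𝒪 ⧸ I) →ₗ[𝒪] 𝒪 ⊗[ℤ] B) := fun b =>
    Submodule.liftQ I (LinearMap.toSpanSingleton 𝒪 (𝒪 ⊗[ℤ] B) ((1 : 𝒪) ⊗ₜ[ℤ] b)) (by
      intro r hr
      rw [LinearMap.mem_ker, LinearMap.toSpanSingleton_apply, TensorProduct.smul_tmul',
        smul_eq_mul, mul_one]
      exact hkill r b hr)
  have hψ : ∀ (b : B) (r : 𝒪), ψ b (Submodule.Quotient.mk r) = r ⊗ₜ[ℤ] b := by
    intro b r
    show Submodule.liftQ I _ _ (Submodule.Quotient.mk r) = _
    rw [Submodule.liftQ_apply, LinearMap.toSpanSingleton_apply, TensorProduct.smul_tmul',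
      smul_eq_mul, mul_one]
  let Ψ : (B → 𝒪 ⧸ I) →ₗ[𝒪] 𝒪 ⊗[ℤ] B := ∑ b, (ψ b).comp (LinearMap.proj b)
  have hΨ : Function.Surjective Ψ := by
    rw [← LinearMap.range_eq_top, eq_top_iff]
    rintro w -
    induction w using TensorProduct.induction_on with
    | zero => exact Submodule.zero_mem _
    | tmul r b =>
      refine ⟨Pi.single b (Submodule.Quotient.mk r), ?_⟩
      show (∑ b', (ψ b').comp (LinearMap.proj b')) (Pi.single b (Submodule.Quotient.mk r)) = _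
      rw [LinearMap.sum_apply, Finset.sum_eq_single b]
      · rw [LinearMap.comp_apply, LinearMap.proj_apply, Pi.single_eq_same, hψ]
      · intro b' _ hb'
        rw [LinearMap.comp_apply, LinearMap.proj_apply, Pi.single_eq_of_ne hb', map_zero]
      · intro h
        exact absurd (Finset.mem_univ b) h
    | add w₁ w₂ h₁ h₂ => exact Submodule.add_mem _ h₁ h₂
  exact Finite.of_surjective Ψ hΨ

/-- finiteness of the `ϖ`-torsion -/
theorem tens_fin [Finite (ResidueField 𝒪)] {ϖ : 𝒪} (hϖ : Irreducible ϖ) {p : ℕ}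
    (hp : p.Prime) (hpm : (p : 𝒪) ∈ maximalIdeal 𝒪) (hp0 : (p : 𝒪) ≠ 0)
    (hfin : Finite {x : A // p • x = 0}) :
    Finite (Submodule.torsionBy 𝒪 (𝒪 ⊗[ℤ] A) ϖ) := by
  classical
  haveI := charZero_of_mem (𝒪 := 𝒪) hp hpm hp0
  haveI := flat_int (𝒪 := 𝒪)
  obtain ⟨e, u, he, hu⟩ := exists_eq_unit_mul_pow hϖ hpm hp0
  let B : Submodule ℤ A := Submodule.torsionBy ℤ A (p : ℤ)
  have hBmem : ∀ x : A, x ∈ B ↔ p • x = 0 := by
    intro x
    rw [Submodule.mem_torsionBy_iff, natCast_zsmul]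
  haveI : Finite B := by
    refine Finite.of_injective (fun b : B => (⟨b.1, (hBmem _).mp b.2⟩ : {x : A // p • x = 0})) ?_
    intro b b' h
    have h' : (b : A) = (b' : A) := congrArg (fun z : {x : A // p • x = 0} => (z : A)) h
    exact Subtype.ext h'
  haveI : Finite (𝒪 ⊗[ℤ] B) := finite_tens_of_finite hϖ hpm hp0 B (by
    intro b
    apply Subtype.ext
    have := (hBmem _).mp b.2
    simpa using this)
  let f : B →ₗ[ℤ] A := B.subtype
  let g : A →ₗ[ℤ] A := (p : ℤ) • LinearMap.id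
  have hex : Function.Exact f g := by
    intro y
    constructor
    · intro hy
      have : y ∈ B := by
        rw [Submodule.mem_torsionBy_iff]
        exact hy
      exact ⟨⟨y, this⟩, rfl⟩
    · rintro ⟨b, rfl⟩
      exact (Submodule.mem_torsionBy_iff _ _).mp b.2
  have hex' := Module.Flat.lTensor_exact 𝒪 hex
  have hg : ∀ w : 𝒪 ⊗[ℤ] A, g.lTensor 𝒪 w = (p : ℤ) • w := by
    intro w
    show ((p : ℤ) • LinearMap.id).lTensor 𝒪 w = _
    rw [LinearMap.lTensor_smul, LinearMap.lTensor_id]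
    rfl
  have hsub : (Submodule.torsionBy 𝒪 (𝒪 ⊗[ℤ] A) ϖ : Set (𝒪 ⊗[ℤ] A)) ⊆
      Set.range (f.lTensor 𝒪) := by
    intro w hw
    have hw' : ϖ • w = 0 := (Submodule.mem_torsionBy_iff _ _).mp hw
    have h1 : (p : 𝒪) • w = 0 := by
      obtain ⟨e', rfl⟩ : ∃ e', e = e' + 1 := ⟨e - 1, by omega⟩
      rw [hu, pow_succ, ← mul_assoc, mul_smul, hw', smul_zero]
    rw [natCast_smul_eq_zsmul, ← hg] at h1
    exact (hex' w).mp h1
  exact ((Set.finite_range (f.lTensor 𝒪)).subset hsub).to_subtype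

/-- **LIM-TENS**. -/
theorem stmt_TENS : Fermat.Agent.S59.Lim.Stmt_TENS := by
  intro 𝒪 _ _ _ _ ϖ hϖ p hp hpm hp0 A _ htors hdiv hfin
  exact ⟨tens_tors hϖ hpm hp0 htors, tens_div hϖ hpm hp0 hdiv,
    tens_fin hϖ hp.out hpm hp0 hfin⟩

/-- injectivity of `x ↦ 1 ⊗ x` on a `p`-power torsion group -/
theorem tens_inj {p : ℕ} (hp : p.Prime) (hpm : (p : 𝒪) ∈ maximalIdeal 𝒪) (hp0 : (p : 𝒪) ≠ 0)
    (htors : ∀ x : A, ∃ k : ℕ, p ^ k • x = 0) :
    Function.Injective (fun x : A => (1 : 𝒪) ⊗ₜ[ℤ] x) := by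
  classical
  haveI := charZero_of_mem (𝒪 := 𝒪) hp hpm hp0
  haveI := flat_int (𝒪 := 𝒪)
  have key : ∀ x : A, (1 : 𝒪) ⊗ₜ[ℤ] x = 0 → x = 0 := by
    intro x hx
    by_contra hx0
    have hx' : x ⊗ₜ[ℤ] (1 : 𝒪) = 0 := by
      have := congrArg (TensorProduct.comm ℤ 𝒪 A) hx
      simpa using this
    let m : Unit → A := fun _ => x
    let n : Unit → 𝒪 := fun _ => 1
    have hsum : ∑ i, m i ⊗ₜ[ℤ] n i = (0 : A ⊗[ℤ] 𝒪) := by
      rw [Fintype.sum_unique]
      exact hx'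
    have hinj : Function.Injective
        (LinearMap.rTensor 𝒪 (Submodule.span ℤ (Set.range m)).subtype) :=
      Module.Flat.rTensor_preserves_injective_linearMap _ (Submodule.injective_subtype _)
    obtain ⟨k, a, y, h1, h2⟩ :=
      TensorProduct.vanishesTrivially_of_sum_tmul_eq_zero_of_rTensor_injective ℤ hinj hsum
    have h1' : (1 : 𝒪) = ∑ j, a () j • y j := h1 ()
    have h2' : ∀ j, a () j • x = 0 := by
      intro j
      have := h2 j
      rw [Fintype.sum_unique] at this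
      exact this
    obtain ⟨K, hK⟩ := htors x
    have hdvd : ∀ j, (p : ℤ) ∣ a () j := by
      intro j
      by_contra hnd
      have hcop : IsCoprime (a () j) ((p : ℤ) ^ K) := by
        apply IsCoprime.pow_right
        rw [isCoprime_comm]
        exact (Prime.coprime_iff_not_dvd (Nat.prime_iff_prime_int.mp hp)).mpr hnd
      obtain ⟨s, t, hst⟩ := hcop
      apply hx0
      have : (s * a () j + t * (p : ℤ) ^ K) • x = x := by rw [hst, one_smul]
      rw [add_smul, mul_smul, h2' j, smul_zero, zero_add, mul_smul] at this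
      have hK' : ((p : ℤ) ^ K) • x = 0 := by
        rw [← Nat.cast_pow, natCast_zsmul]
        exact hK
      rw [hK', smul_zero] at this
      exact this.symm
    choose c hc using hdvd
    have h3 : (1 : 𝒪) = (p : 𝒪) * ∑ j, (c j : 𝒪) * y j := by
      rw [h1', Finset.mul_sum]
      refine Finset.sum_congr rfl fun j _ => ?_
      rw [hc j, zsmul_eq_mul]
      push_cast
      ring
    have h4 : (1 : 𝒪) ∈ maximalIdeal 𝒪 := by
      rw [h3]
      exact Ideal.mul_mem_right _ _ hpm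
    exact (Ideal.ne_top_iff_one _).mp (IsLocalRing.maximalIdeal.isMaximal 𝒪).ne_top h4
  intro x y hxy
  have h : (1 : 𝒪) ⊗ₜ[ℤ] (x - y) = 0 := by
    rw [TensorProduct.tmul_sub]
    exact sub_eq_zero.mpr hxy
  exact sub_eq_zero.mp (key _ h)

/-- **LIM-TENS, faithfulness**. -/
theorem stmt_TENS_inj : Fermat.Agent.S59.Lim.Stmt_TENS_inj := by
  intro 𝒪 _ _ _ _ p hp hpm hp0 A _ htors
  exact tens_inj hp.out hpm hp0 htors

end Fin

end Fermat.Agent.S59.Lim.H2

end
end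
-- ==== END Fermat.Agent.S59.Lim.H2_Tens

-- ==== BEGIN Fermat.Agent.S59.Lim.H61_Loc
section

/-!
# S59, package LIM, Layer B, leaf LIM-LOC (helper61)

Primary decomposition of a locally finite module `W` over a commutative ring `R` with respect to
an ideal `I`:  `W = primPart I W ⊕ stabPart I W`.

* `stmt_LOC : Stmt_LOC`, `stmt_LOC_nat : Stmt_LOC_nat`, `stmt_LOC_onto : Stmt_LOC_onto`,
  `stmt_LOC_gk : Stmt_LOC_gk`.

Route: for a finite submodule `L` the chain `I ^ n • L` is stationary, with limit `M`, and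
`I • M = M`; by Nakayama there is, for every `k`, some `r` with `r - 1 ∈ I ^ k` and `r • M = 0`.

No `sorry`.
-/

set_option autoImplicit false

namespace Fermat.Agent.S59.Lim.H61

variable {R : Type*} [CommRing R] {W : Type*} [AddCommGroup W] [Module R W]

/-- The chain `I ^ n • L` is antitone. -/
lemma pow_smul_antitone (I : Ideal R) (L : Submodule R W) :
    Antitone (fun n : ℕ => (I ^ n • L : Submodule R W)) :=
  fun _ _ h => Submodule.smul_mono (Ideal.pow_le_pow_right h) le_rfl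

/-- `I ^ n • L ≤ L`. -/
lemma pow_smul_le (I : Ideal R) (L : Submodule R W) (n : ℕ) : (I ^ n • L : Submodule R W) ≤ L :=
  Submodule.smul_le.mpr fun r _ _ hx => L.smul_mem r hx

/-- For a finite submodule `L` the chain `I ^ n • L` is stationary. -/
lemma exists_stab (I : Ideal R) (L : Submodule R W) [Finite L] :
    ∃ n₀ : ℕ, ∀ m : ℕ, n₀ ≤ m → (I ^ m • L : Submodule R W) = I ^ n₀ • L := by
  let f : ℕ →o (Submodule R L)ᵒᵈ :=
    ⟨fun n => OrderDual.toDual ((I ^ n • L : Submodule R W).comap L.subtype), fun m n h =>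
      Submodule.comap_mono (pow_smul_antitone I L h)⟩
  obtain ⟨n₀, hn₀⟩ := IsArtinian.monotone_stabilizes f
  refine ⟨n₀, fun m hm => ?_⟩
  have h1 : (I ^ n₀ • L : Submodule R W).comap L.subtype =
      (I ^ m • L : Submodule R W).comap L.subtype := OrderDual.toDual.injective (hn₀ m hm)
  have h2 := congrArg (Submodule.map L.subtype) h1
  rw [Submodule.map_comap_subtype, Submodule.map_comap_subtype,
    inf_eq_right.mpr (pow_smul_le I L n₀), inf_eq_right.mpr (pow_smul_le I L m)] at h2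
  exact h2.symm

/-- The stable part of a finite submodule. -/
def sInf' (I : Ideal R) (L : Submodule R W) : Submodule R W := ⨅ n : ℕ, (I ^ n • L : Submodule R W)

lemma sInf'_le (I : Ideal R) (L : Submodule R W) : sInf' I L ≤ L :=
  (iInf_le _ 0).trans (pow_smul_le I L 0)

lemma sInf'_mono (I : Ideal R) {L L' : Submodule R W} (h : L ≤ L') : sInf' I L ≤ sInf' I L' :=
  iInf_mono fun _ => Submodule.smul_mono le_rfl h

/-- For a finite submodule, the stable part is `I ^ n • L` for `n` large. -/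
lemma exists_sInf'_eq (I : Ideal R) (L : Submodule R W) [Finite L] :
    ∃ n₀ : ℕ, ∀ m : ℕ, n₀ ≤ m → (I ^ m • L : Submodule R W) = sInf' I L := by
  obtain ⟨n₀, hn₀⟩ := exists_stab I L
  refine ⟨n₀, fun m hm => le_antisymm ?_ (iInf_le _ m)⟩
  refine le_iInf fun k => ?_
  rcases le_total k m with h | h
  · exact pow_smul_antitone I L h
  · rw [hn₀ m hm, ← hn₀ k (hm.trans h)]

/-- `I ^ k • sInf' = sInf'`. -/
lemma pow_smul_sInf' (I : Ideal R) (L : Submodule R W) [Finite L] (k : ℕ) :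
    (I ^ k • sInf' I L : Submodule R W) = sInf' I L := by
  obtain ⟨n₀, hn₀⟩ := exists_sInf'_eq I L
  conv_lhs => rw [← hn₀ n₀ le_rfl]
  rw [← Submodule.mul_smul, ← pow_add]
  exact hn₀ _ (Nat.le_add_left _ _)

/-- Nakayama on the stable part. -/
lemma exists_killer (I : Ideal R) (L : Submodule R W) [Finite L] (k : ℕ) :
    ∃ r : R, r - 1 ∈ I ^ k ∧ ∀ y ∈ sInf' I L, r • y = 0 := by
  have hfin : Finite (sInf' I L) :=
    Finite.of_injective (fun y : sInf' I L => (⟨y.1, sInf'_le I L y.2⟩ : L))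
      (fun a b h => Subtype.ext (congrArg (fun z : L => (z : W)) h))
  have hfg : (sInf' I L).FG := Module.Finite.iff_fg.mp (Module.Finite.of_finite)
  exact Submodule.exists_sub_one_mem_and_smul_eq_zero_of_fg_of_le_smul (I ^ k) (sInf' I L) hfg
    (pow_smul_sInf' I L k).ge

/-- The sum of two finite submodules is finite. -/
lemma finite_sup_of_finite (L₁ L₂ : Submodule R W) [Finite L₁] [Finite L₂] :
    Finite ↥(L₁ ⊔ L₂) := by
  have h : ((L₁ ⊔ L₂ : Submodule R W) : Set W).Finite := by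
    rw [Submodule.coe_sup]
    exact Set.Finite.add (Set.toFinite (L₁ : Set W)) (Set.toFinite (L₂ : Set W))
  exact h.to_subtype

/-- The image of a finite submodule is finite. -/
lemma finite_map_of_finite {W' : Type*} [AddCommGroup W'] [Module R W'] (f : W →ₗ[R] W')
    (L : Submodule R W) [Finite L] : Finite ↥(L.map f) := by
  have h : ((L.map f : Submodule R W') : Set W').Finite := by
    rw [Submodule.map_coe]
    exact (Set.toFinite (L : Set W)).image f
  exact h.to_subtype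

/-- Membership in the stable part. -/
lemma mem_stabPart_iff (I : Ideal R) (x : W) :
    x ∈ stabPart I W ↔ ∃ L : Submodule R W, Finite L ∧ x ∈ sInf' I L := by
  constructor
  · intro hx
    let S : Submodule R W :=
      { carrier := {x | ∃ L : Submodule R W, Finite L ∧ x ∈ sInf' I L}
        zero_mem' := ⟨⊥, inferInstance, zero_mem _⟩
        add_mem' := by
          rintro a b ⟨L₁, h₁, ha⟩ ⟨L₂, h₂, hb⟩
          have := h₁
          have := h₂
          exact ⟨L₁ ⊔ L₂, finite_sup_of_finite L₁ L₂,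
            add_mem (sInf'_mono I le_sup_left ha) (sInf'_mono I le_sup_right hb)⟩
        smul_mem' := by
          rintro c a ⟨L, h, ha⟩
          exact ⟨L, h, Submodule.smul_mem _ c ha⟩ }
    have hle : stabPart I W ≤ S := by
      refine iSup_le fun L => iSup_le fun hL => ?_
      intro y hy
      exact ⟨L, hL, hy⟩
    exact hle hx
  · rintro ⟨L, hL, hx⟩
    exact (le_iSup_of_le L (le_iSup_of_le hL le_rfl) : sInf' I L ≤ stabPart I W) hx

/-- The primary part and the stable part meet trivially. -/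
theorem disjoint_prim_stab (I : Ideal R) : Disjoint (primPart I W) (stabPart I W) := by
  rw [Submodule.disjoint_def]
  intro x hx hx'
  obtain ⟨m, hm⟩ := hx
  obtain ⟨L, hL, hxL⟩ := (mem_stabPart_iff I x).mp hx'
  have := hL
  obtain ⟨r, hr, hr0⟩ := exists_killer I L m
  have h1 := hr0 x hxL
  have h2 := hm (r - 1) hr
  have h3 : x = r • x - (r - 1) • x := by
    rw [sub_smul, one_smul]
    abel
  rw [h3, h1, h2, sub_zero]

/-- On a locally finite module the primary part and the stable part span everything. -/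
theorem codisjoint_prim_stab (I : Ideal R) (hfin : ∀ x : W, Finite (Submodule.span R {x})) :
    Codisjoint (primPart I W) (stabPart I W) := by
  rw [codisjoint_iff, eq_top_iff]
  intro x _
  have := hfin x
  obtain ⟨n₀, hn₀⟩ := exists_sInf'_eq I (Submodule.span R {x})
  obtain ⟨r, hr, hr0⟩ := exists_killer I (Submodule.span R {x}) n₀
  have hxL : x ∈ Submodule.span R {x} := Submodule.mem_span_singleton_self x
  have h1 : r • x ∈ primPart I W := by
    refine ⟨n₀, fun a ha => ?_⟩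
    rw [smul_comm]
    apply hr0
    rw [← hn₀ n₀ le_rfl]
    exact Submodule.smul_mem_smul ha hxL
  have h2 : (1 - r) • x ∈ stabPart I W := by
    rw [mem_stabPart_iff]
    refine ⟨Submodule.span R {x}, inferInstance, ?_⟩
    rw [← hn₀ n₀ le_rfl]
    refine Submodule.smul_mem_smul ?_ hxL
    have h3 : 1 - r = -(r - 1) := by ring
    rw [h3]
    exact neg_mem hr
  rw [Submodule.mem_sup]
  refine ⟨r • x, h1, (1 - r) • x, h2, ?_⟩
  rw [← add_smul, add_sub_cancel, one_smul]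

/-- A linear map preserves the primary parts. -/
lemma map_mem_primPart {W' : Type*} [AddCommGroup W'] [Module R W'] (I : Ideal R)
    (f : W →ₗ[R] W') {x : W} (hx : x ∈ primPart I W) : f x ∈ primPart I W' := by
  obtain ⟨n, hn⟩ := hx
  exact ⟨n, fun r hr => by rw [← map_smul, hn r hr, map_zero]⟩

/-- A linear map preserves the stable parts. -/
lemma map_mem_stabPart {W' : Type*} [AddCommGroup W'] [Module R W'] (I : Ideal R)
    (f : W →ₗ[R] W') {x : W} (hx : x ∈ stabPart I W) : f x ∈ stabPart I W' := by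
  obtain ⟨L, hL, hxL⟩ := (mem_stabPart_iff I x).mp hx
  have := hL
  rw [mem_stabPart_iff]
  refine ⟨L.map f, finite_map_of_finite f L, ?_⟩
  rw [sInf', Submodule.mem_iInf] at hxL ⊢
  intro n
  rw [← Submodule.map_smul'']
  exact Submodule.mem_map_of_mem (hxL n)

/-- **LIM-LOC**. -/
theorem stmt_LOC : Stmt_LOC := by
  intro R _ I W _ _ hfin
  exact ⟨disjoint_prim_stab I, codisjoint_prim_stab I hfin⟩

/-- **LIM-LOC, naturality**. -/
theorem stmt_LOC_nat : Stmt_LOC_nat := by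
  intro R _ I W W' _ _ _ _ f
  exact ⟨fun x hx => map_mem_primPart I f hx, fun x hx => map_mem_stabPart I f hx⟩

/-- The primary component of an element whose image is primary has the same image. -/
lemma exists_prim_of_map_prim {W' : Type*} [AddCommGroup W'] [Module R W'] (I : Ideal R)
    (hfin : ∀ x : W, Finite (Submodule.span R {x})) (f : W →ₗ[R] W') (x₀ : W)
    (hy : f x₀ ∈ primPart I W') : ∃ x ∈ primPart I W, f x = f x₀ := by
  have hx₀ : x₀ ∈ primPart I W ⊔ stabPart I W := by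
    rw [(codisjoint_prim_stab I hfin).eq_top]
    exact Submodule.mem_top
  obtain ⟨a, ha, b, hb, rfl⟩ := Submodule.mem_sup.mp hx₀
  refine ⟨a, ha, ?_⟩
  have hfb : f b ∈ stabPart I W' := map_mem_stabPart I f hb
  have hfa : f a ∈ primPart I W' := map_mem_primPart I f ha
  have hfb' : f b ∈ primPart I W' := by
    have h1 : f b = f (a + b) - f a := by
      rw [map_add]
      abel
    rw [h1]
    exact sub_mem hy hfa
  have h2 := (Submodule.disjoint_def.mp (disjoint_prim_stab I)) (f b) hfb' hfb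
  rw [map_add, h2, add_zero]

/-- **LIM-LOC, consequences**. -/
theorem stmt_LOC_onto : Stmt_LOC_onto := by
  intro R _ I W W' _ _ _ _ hW _
  constructor
  · intro f hf y hy
    obtain ⟨x₀, rfl⟩ := hf y
    exact exists_prim_of_map_prim I hW f x₀ hy
  · intro c hc x hx
    obtain ⟨y, rfl⟩ := hc x
    obtain ⟨a, ha, h⟩ := exists_prim_of_map_prim I hW (LinearMap.lsmul R W c) y hx
    exact ⟨a, ha, h⟩

/-- **LIM-LOC, generator form**. -/
theorem stmt_LOC_gk : Stmt_LOC_gk := by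
  intro R _ W _ _ hfin s x
  constructor
  · intro h
    have := hfin x
    have hxL : x ∈ Submodule.span R {x} := Submodule.mem_span_singleton_self x
    -- every element of `span s` is nilpotent on `span {x}`
    have hrad : Ideal.span s ≤ (Submodule.span R {x}).annihilator.radical := by
      refine Ideal.span_le.mpr fun t ht => ?_
      obtain ⟨N, hN⟩ := h t ht
      refine ⟨N, ?_⟩
      rw [Submodule.mem_annihilator]
      intro y hy
      obtain ⟨c, rfl⟩ := Submodule.mem_span_singleton.mp hy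
      rw [smul_comm, hN, smul_zero]
    obtain ⟨n₀, hn₀⟩ := exists_sInf'_eq (Ideal.span s) (Submodule.span R {x})
    obtain ⟨r, hr, hr0⟩ := exists_killer (Ideal.span s) (Submodule.span R {x}) 1
    rw [pow_one] at hr
    have he : 1 - r ∈ (Submodule.span R {x}).annihilator.radical := by
      have h3 : 1 - r = -(r - 1) := by ring
      rw [h3]
      exact hrad (neg_mem hr)
    obtain ⟨K, hK⟩ := he
    rw [Submodule.mem_annihilator] at hK
    have hzero : sInf' (Ideal.span s) (Submodule.span R {x}) = ⊥ := by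
      rw [eq_bot_iff]
      intro y hy
      have hy1 : (1 - r) • y = y := by
        rw [sub_smul, one_smul, hr0 y hy, sub_zero]
      have hy2 : ∀ j : ℕ, (1 - r) ^ j • y = y := by
        intro j
        induction j with
        | zero => rw [pow_zero, one_smul]
        | succ j ih => rw [pow_succ, mul_smul, hy1, ih]
      have hy3 := hK y (sInf'_le _ _ hy)
      rw [hy2 K] at hy3
      rw [hy3]
      exact zero_mem _
    refine ⟨n₀, fun a ha => ?_⟩
    have h4 : a • x ∈ (Ideal.span s ^ n₀ • Submodule.span R {x} : Submodule R W) :=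
      Submodule.smul_mem_smul ha hxL
    rw [hn₀ n₀ le_rfl, hzero] at h4
    exact (Submodule.mem_bot R).mp h4
  · rintro ⟨n, hn⟩ t ht
    exact ⟨n, hn _ (Ideal.pow_mem_pow (Ideal.subset_span ht) n)⟩

end Fermat.Agent.S59.Lim.H61

end
-- ==== END Fermat.Agent.S59.Lim.H61_Loc

-- ==== BEGIN Fermat.Agent.S59.Lim.H94_Free
section

/-!
# S59, package LIM (helper94): freeness of the Tate module over `𝒪[Δ]`, and the projection `π`

From the norm-surjectivity along the tower on `W[ϖ]` (`hstep`), the pull-back `πup` (injective,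
with `Δ`-invariant image containing all invariants of `W[ϖ]`):

* `exists_basis_tate` : `T_ϖ W` is free over `𝒪[Δ]` in the `H90.mon`-shape (TOWER over the residue
  field on `W[ϖ]`, then O-LIFT);
* `π_torsion_onto`    : `π : W[ϖ] → W_M[ϖ]` is onto if `πup ∘ π = nmTot`;
* `map_π_surjective`  : `T_ϖ π` is onto.
-/

set_option autoImplicit false
set_option linter.style.haveILetI false
set_option linter.unusedSectionVars false

noncomputable section

open IsLocalRing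

namespace Fermat.Agent.S59.Lim

open Fermat.Agent.S59.TWH

/-! ### Transport of `mon`, `nm`, `nmTot` along ring homomorphisms of endomorphism rings -/

section Transfer

variable {A A' : Type*} [CommRing A] [CommRing A'] {V V' : Type*} [AddCommGroup V] [Module A V]
  [AddCommGroup V'] [Module A' V'] (Φ : Module.End A V →+* Module.End A' V')

theorem map_mon {r : ℕ} (c : Fin r → Module.End A V) (x : Fin r → ℕ) :
    Φ (H90.mon c x) = H90.mon (fun j => Φ (c j)) x := by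
  rw [H90.mon, H90.mon, map_list_prod, List.map_ofFn]
  congr 1
  apply congrArg
  funext j
  exact map_pow Φ (c j) (x j)

theorem map_nm (m : ℕ) (c : Module.End A V) : Φ (H90.nm m c) = H90.nm m (Φ c) := by
  rw [H90.nm, H90.nm, map_sum]
  exact Finset.sum_congr rfl fun j _ => map_pow Φ c j

theorem map_nmTot (m : ℕ) {r : ℕ} (c : Fin r → Module.End A V) :
    Φ (H90.nmTot m c) = H90.nmTot m (fun j => Φ (c j)) := by
  rw [H90.nmTot, H90.nmTot, map_list_prod, List.map_ofFn]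
  congr 1
  apply congrArg
  funext j
  exact map_nm Φ m (c j)

end Transfer

/-! ### Restriction to `W[ϖ]` as a module over `𝒪 ⧸ (ϖ)` -/

section Res

variable {𝒪 : Type*} [CommRing 𝒪] (ϖ : 𝒪) {W : Type*} [AddCommGroup W] [Module 𝒪 W]

/-- The restriction of an endomorphism to `W[ϖ]`, linear over `𝒪 ⧸ (ϖ)`. -/
def resT : Module.End 𝒪 W →+*
    Module.End (𝒪 ⧸ Ideal.span {ϖ}) (Submodule.torsionBy 𝒪 W ϖ) where
  toFun f :=
    { toFun := fun x => ⟨f x, by
        rw [Submodule.mem_torsionBy_iff, ← map_smul, (Submodule.mem_torsionBy_iff _ _).mp x.2,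
          map_zero]⟩
      map_add' := fun x y => Subtype.ext (map_add f _ _)
      map_smul' := fun c x => by
        obtain ⟨a, rfl⟩ := Ideal.Quotient.mk_surjective c
        apply Subtype.ext
        show f (a • (x : W)) = a • f (x : W)
        rw [map_smul] }
  map_one' := rfl
  map_mul' _ _ := rfl
  map_zero' := rfl
  map_add' _ _ := rfl

@[simp]
theorem coe_resT (f : Module.End 𝒪 W) (x : Submodule.torsionBy 𝒪 W ϖ) :
    ((resT ϖ f x : Submodule.torsionBy 𝒪 W ϖ) : W) = f (x : W) := rfl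

theorem resT_mon {r : ℕ} (d : Fin r → Module.End 𝒪 W) (x : Fin r → ℕ)
    (v : Submodule.torsionBy 𝒪 W ϖ) :
    ((H90.mon (fun j => resT ϖ (d j)) x v : Submodule.torsionBy 𝒪 W ϖ) : W)
      = H90.mon d x (v : W) := by
  rw [← map_mon (resT ϖ) d x]
  rfl

theorem resT_nm (m : ℕ) (c : Module.End 𝒪 W) (v : Submodule.torsionBy 𝒪 W ϖ) :
    ((H90.nm m (resT ϖ c) v : Submodule.torsionBy 𝒪 W ϖ) : W) = H90.nm m c (v : W) := by
  rw [← map_nm (resT ϖ) m c]
  rfl

theorem resT_nmTot (m : ℕ) {r : ℕ} (d : Fin r → Module.End 𝒪 W)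
    (v : Submodule.torsionBy 𝒪 W ϖ) :
    ((H90.nmTot m (fun j => resT ϖ (d j)) v : Submodule.torsionBy 𝒪 W ϖ) : W)
      = H90.nmTot m d (v : W) := by
  rw [← map_nmTot (resT ϖ) m d]
  rfl

theorem mapEnd_mon {r : ℕ} (d : Fin r → Module.End 𝒪 W) (x : Fin r → ℕ) :
    H90.mon (fun j => H2.mapEnd ϖ W (d j)) x = H2.mapEnd ϖ W (H90.mon d x) :=
  (map_mon ((H2.mapEnd ϖ W : Module.End 𝒪 W →ₐ[𝒪] Module.End 𝒪 (H2.tate ϖ W)) :
    Module.End 𝒪 W →+* Module.End 𝒪 (H2.tate ϖ W)) d x).symm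

theorem mapEnd_nmTot (m : ℕ) {r : ℕ} (d : Fin r → Module.End 𝒪 W) :
    H90.nmTot m (fun j => H2.mapEnd ϖ W (d j)) = H2.mapEnd ϖ W (H90.nmTot m d) :=
  (map_nmTot ((H2.mapEnd ϖ W : Module.End 𝒪 W →ₐ[𝒪] Module.End 𝒪 (H2.tate ϖ W)) :
    Module.End 𝒪 W →+* Module.End 𝒪 (H2.tate ϖ W)) m d).symm

end Res

/-! ### Freeness -/

section Main

variable {𝒪 : Type} [CommRing 𝒪] [IsDomain 𝒪] [IsDiscreteValuationRing 𝒪]
  [IsAdicComplete (maximalIdeal 𝒪) 𝒪] {ϖ : 𝒪}
  {W WM : Type} [AddCommGroup W] [Module 𝒪 W] [AddCommGroup WM] [Module 𝒪 WM]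

omit [IsAdicComplete (maximalIdeal 𝒪) 𝒪] in
theorem natCast_smul_eq_zero_of_torsion (hϖ : Irreducible ϖ) {p : ℕ}
    (hp : (p : 𝒪) ∈ maximalIdeal 𝒪) (v : W) (hv : ϖ • v = 0) : (p : 𝒪) • v = 0 := by
  rw [hϖ.maximalIdeal_eq, Ideal.mem_span_singleton'] at hp
  obtain ⟨s, hs⟩ := hp
  rw [← hs, mul_smul, hv, smul_zero]

/-- **Freeness of the Tate module over `𝒪[Δ]`** (TOWER on `W[ϖ]` + O-LIFT). -/
theorem exists_basis_tate (hϖ : Irreducible ϖ) {p : ℕ} [Fact p.Prime]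
    (hp : (p : 𝒪) ∈ maximalIdeal 𝒪) (n r : ℕ)
    (hW : IsDiv ϖ W) (hWM : IsDiv ϖ WM)
    (d : Fin r → Module.End 𝒪 W) (d_pow : ∀ j, d j ^ (p ^ n) = 1)
    (d_comm : ∀ i j, Commute (d i) (d j))
    (hstep : ∀ (j : Fin r) (v : W), ϖ • v = 0 → (∀ i, i ≤ j → d i v = v) →
      ∃ w : W, ϖ • w = 0 ∧ (∀ i, i < j → d i w = w) ∧ H90.nm (p ^ n) (d j) w = v)
    (πup : WM →ₗ[𝒪] W) (πup_inj : Function.Injective πup)
    (d_πup : ∀ (j : Fin r) (y : WM), d j (πup y) = πup y)
    (inv : ∀ v : W, ϖ • v = 0 → (∀ j, d j v = v) → ∃ y : WM, πup y = v) :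
    ∃ (rk : ℕ) (b : Fin rk → H2.tate ϖ W),
      Function.Bijective (fun f : Fin rk × (Fin r → Fin (p ^ n)) → 𝒪 =>
        ∑ x : Fin rk × (Fin r → Fin (p ^ n)),
          f x • H90.mon (fun j => H2.mapEnd ϖ W (d j)) (fun j => (x.2 j : ℕ)) (b x.1)) := by
  classical
  haveI hmax : (Ideal.span {ϖ}).IsMaximal := PrincipalIdealRing.isMaximal_of_irreducible hϖ
  letI : Field (𝒪 ⧸ Ideal.span {ϖ}) := Ideal.Quotient.field _
  haveI := hW.fin
  haveI := hWM.fin
  -- the operators on `W[ϖ]`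
  set c : Fin r → Module.End (𝒪 ⧸ Ideal.span {ϖ}) (Submodule.torsionBy 𝒪 W ϖ) :=
    fun j => resT ϖ (d j) with hcdef
  have hcomm : ∀ i j, Commute (c i) (c j) := fun i j => (d_comm i j).map (resT ϖ)
  have hc : ∀ j, c j ^ (p ^ n) = 1 := fun j => by
    rw [hcdef]
    show resT ϖ (d j) ^ (p ^ n) = 1
    rw [← map_pow, d_pow, map_one]
  have hV : ∀ v : Submodule.torsionBy 𝒪 W ϖ, ∃ m : ℕ, (p ^ m) • v = 0 := by
    intro v
    refine ⟨1, ?_⟩
    apply Subtype.ext
    rw [pow_one]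
    show (p : ℕ) • (v : W) = 0
    rw [← Nat.cast_smul_eq_nsmul 𝒪]
    exact natCast_smul_eq_zero_of_torsion hϖ hp _ ((Submodule.mem_torsionBy_iff _ _).mp v.2)
  have hstep' : ∀ (j : Fin r) (v : Submodule.torsionBy 𝒪 W ϖ), (∀ i, i ≤ j → c i v = v) →
      ∃ w, (∀ i, i < j → c i w = w) ∧ H90.nm (p ^ n) (c j) w = v := by
    intro j v hv
    obtain ⟨w, hw0, hw1, hw2⟩ := hstep j (v : W) ((Submodule.mem_torsionBy_iff _ _).mp v.2)
      (fun i hi => congrArg Subtype.val (hv i hi))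
    refine ⟨⟨w, (Submodule.mem_torsionBy_iff _ _).mpr hw0⟩, fun i hi => Subtype.ext (hw1 i hi),
      ?_⟩
    apply Subtype.ext
    rw [hcdef]
    show ((H90.nm (p ^ n) (resT ϖ (d j)) _ : Submodule.torsionBy 𝒪 W ϖ) : W) = _
    rw [resT_nm]
    exact hw2
  -- the pull-back on the torsion
  let πk : Submodule.torsionBy 𝒪 WM ϖ →ₗ[𝒪 ⧸ Ideal.span {ϖ}] Submodule.torsionBy 𝒪 W ϖ :=
    { toFun := fun y => ⟨πup (y : WM), by
        rw [Submodule.mem_torsionBy_iff, ← map_smul, (Submodule.mem_torsionBy_iff _ _).mp y.2,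
          map_zero]⟩
      map_add' := fun x y => Subtype.ext (map_add πup _ _)
      map_smul' := fun a x => by
        obtain ⟨a, rfl⟩ := Ideal.Quotient.mk_surjective a
        apply Subtype.ext
        show πup (a • (x : WM)) = a • πup (x : WM)
        rw [map_smul] }
  have hπk_inj : Function.Injective πk := by
    intro x y hxy
    apply Subtype.ext
    apply πup_inj
    exact congrArg Subtype.val hxy
  haveI : Module.Finite (𝒪 ⧸ Ideal.span {ϖ}) (Submodule.torsionBy 𝒪 WM ϖ) :=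
    Module.Finite.of_finite
  let B := Module.finBasis (𝒪 ⧸ Ideal.span {ϖ}) (Submodule.torsionBy 𝒪 WM ϖ)
  set e : Fin (Module.finrank (𝒪 ⧸ Ideal.span {ϖ}) (Submodule.torsionBy 𝒪 WM ϖ)) →
      Submodule.torsionBy 𝒪 W ϖ := fun i => πk (B i) with hedef
  have he_fix : ∀ i j, c j (e i) = e i := fun i j => Subtype.ext (d_πup j _)
  have he_li : LinearIndependent (𝒪 ⧸ Ideal.span {ϖ}) e :=
    B.linearIndependent.map' πk (LinearMap.ker_eq_bot.mpr hπk_inj)
  have he_span : ∀ v, (∀ j, c j v = v) →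
      v ∈ Submodule.span (𝒪 ⧸ Ideal.span {ϖ}) (Set.range e) := by
    intro v hv
    obtain ⟨y, hy⟩ := inv (v : W) ((Submodule.mem_torsionBy_iff _ _).mp v.2)
      (fun j => congrArg Subtype.val (hv j))
    have hy0 : ϖ • y = 0 := by
      apply πup_inj
      rw [map_smul, hy, map_zero]
      exact (Submodule.mem_torsionBy_iff _ _).mp v.2
    have hv' : v = πk ⟨y, (Submodule.mem_torsionBy_iff _ _).mpr hy0⟩ := Subtype.ext hy.symm
    rw [hv']
    have h1 : (⟨y, (Submodule.mem_torsionBy_iff _ _).mpr hy0⟩ : Submodule.torsionBy 𝒪 WM ϖ)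
        ∈ Submodule.span (𝒪 ⧸ Ideal.span {ϖ}) (Set.range B) := by
      rw [B.span_eq]
      exact Submodule.mem_top
    have h2 := Submodule.apply_mem_span_image_of_mem_span πk h1
    have h3 : (πk '' Set.range B) = Set.range e := by
      rw [← Set.range_comp]
      rfl
    rw [h3] at h2
    exact h2
  obtain ⟨b₁, -, -, -, hbij⟩ := H90.tower_basis n r hV c hcomm hc hstep' e he_fix he_li he_span
  -- lift the `b₁ i` to the Tate module
  have hlift : ∀ i, ∃ x : H2.tate ϖ W, H2.ev ϖ W 1 x = (b₁ i : W) := fun i =>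
    H2.exists_ev_eq hW.div 1 _ (by
      rw [pow_one]
      exact (Submodule.mem_torsionBy_iff _ _).mp (b₁ i).2)
  choose b hb using hlift
  refine ⟨_, b, ?_⟩
  haveI : Module.Finite 𝒪 (H2.tate ϖ W) := H2.finite_tate_dvr hϖ hW.div hW.fg_torsionBy
  haveI : Module.Free 𝒪 (H2.tate ϖ W) := H2.free_tate hϖ hW.div hW.fg_torsionBy
  let red : H2.tate ϖ W →ₗ[𝒪] Submodule.torsionBy 𝒪 W ϖ :=
    LinearMap.codRestrict (Submodule.torsionBy 𝒪 W ϖ) (H2.ev ϖ W 1) (fun x => by
      rw [Submodule.mem_torsionBy_iff]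
      have := H2.pow_smul_ev 1 x
      rwa [pow_one] at this)
  have hker : ∀ m, red m = 0 → m ∈ (maximalIdeal 𝒪 • ⊤ : Submodule 𝒪 (H2.tate ϖ W)) :=
    fun m hm => H2.mem_maximalIdeal_smul_of_ev_one hϖ m (congrArg Subtype.val hm)
  refine H14.olift (k := 𝒪 ⧸ Ideal.span {ϖ}) Ideal.Quotient.mk_surjective red hker _ ?_
  have hred : ∀ x : Fin (Module.finrank (𝒪 ⧸ Ideal.span {ϖ}) (Submodule.torsionBy 𝒪 WM ϖ)) ×
      (Fin r → Fin (p ^ n)),
      red (H90.mon (fun j => H2.mapEnd ϖ W (d j)) (fun j => (x.2 j : ℕ)) (b x.1))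
        = H90.fam (p ^ n) c b₁ x := by
    intro x
    apply Subtype.ext
    rw [H90.fam, hcdef, resT_mon, mapEnd_mon]
    show H2.ev ϖ W 1 (H2.mapEnd ϖ W (H90.mon d fun j => (x.2 j : ℕ)) (b x.1)) = _
    rw [H2.ev_mapEnd, hb]
  simp only [hred]
  exact hbij

omit [IsDomain 𝒪] [IsDiscreteValuationRing 𝒪] [IsAdicComplete (maximalIdeal 𝒪) 𝒪] in
/-- `π` maps `W[ϖ]` onto `W_M[ϖ]`. -/
theorem π_torsion_onto {p : ℕ} (n r : ℕ)
    (d : Fin r → Module.End 𝒪 W) (d_comm : ∀ i j, Commute (d i) (d j))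
    (hstep : ∀ (j : Fin r) (v : W), ϖ • v = 0 → (∀ i, i ≤ j → d i v = v) →
      ∃ w : W, ϖ • w = 0 ∧ (∀ i, i < j → d i w = w) ∧ H90.nm (p ^ n) (d j) w = v)
    (π : W →ₗ[𝒪] WM) (πup : WM →ₗ[𝒪] W) (πup_inj : Function.Injective πup)
    (πup_π : ∀ x : W, πup (π x) = H90.nmTot (p ^ n) d x)
    (d_πup : ∀ (j : Fin r) (y : WM), d j (πup y) = πup y)
    (y : WM) (hy : ϖ • y = 0) : ∃ w : W, ϖ • w = 0 ∧ π w = y := by
  classical
  set c : Fin r → Module.End (𝒪 ⧸ Ideal.span {ϖ}) (Submodule.torsionBy 𝒪 W ϖ) :=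
    fun j => resT ϖ (d j) with hcdef
  have hcomm : ∀ i j, Commute (c i) (c j) := fun i j => (d_comm i j).map (resT ϖ)
  have hstep' : ∀ (j : Fin r) (v : Submodule.torsionBy 𝒪 W ϖ), (∀ i, i ≤ j → c i v = v) →
      ∃ w, (∀ i, i < j → c i w = w) ∧ H90.nm (p ^ n) (c j) w = v := by
    intro j v hv
    obtain ⟨w, hw0, hw1, hw2⟩ := hstep j (v : W) ((Submodule.mem_torsionBy_iff _ _).mp v.2)
      (fun i hi => congrArg Subtype.val (hv i hi))
    refine ⟨⟨w, (Submodule.mem_torsionBy_iff _ _).mpr hw0⟩, fun i hi => Subtype.ext (hw1 i hi),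
      ?_⟩
    apply Subtype.ext
    rw [hcdef]
    show ((H90.nm (p ^ n) (resT ϖ (d j)) _ : Submodule.torsionBy 𝒪 W ϖ) : W) = _
    rw [resT_nm]
    exact hw2
  have hv0 : πup y ∈ Submodule.torsionBy 𝒪 W ϖ := by
    rw [Submodule.mem_torsionBy_iff, ← map_smul, hy, map_zero]
  obtain ⟨w, hw⟩ := H90.exists_nmTot_eq (p ^ n) r (Submodule.torsionBy 𝒪 W ϖ) c hcomm hstep'
    ⟨πup y, hv0⟩ (fun j => Subtype.ext (d_πup j y))
  refine ⟨(w : W), (Submodule.mem_torsionBy_iff _ _).mp w.2, ?_⟩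
  apply πup_inj
  rw [πup_π]
  have := congrArg Subtype.val hw
  rw [hcdef, resT_nmTot] at this
  exact this

/-- `T_ϖ π` is onto. -/
theorem map_π_surjective (hϖ : Irreducible ϖ) {p : ℕ} (n r : ℕ)
    (hW : IsDiv ϖ W) (hWM : IsDiv ϖ WM)
    (d : Fin r → Module.End 𝒪 W) (d_comm : ∀ i j, Commute (d i) (d j))
    (hstep : ∀ (j : Fin r) (v : W), ϖ • v = 0 → (∀ i, i ≤ j → d i v = v) →
      ∃ w : W, ϖ • w = 0 ∧ (∀ i, i < j → d i w = w) ∧ H90.nm (p ^ n) (d j) w = v)
    (π : W →ₗ[𝒪] WM) (πup : WM →ₗ[𝒪] W) (πup_inj : Function.Injective πup)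
    (πup_π : ∀ x : W, πup (π x) = H90.nmTot (p ^ n) d x)
    (d_πup : ∀ (j : Fin r) (y : WM), d j (πup y) = πup y) :
    Function.Surjective (H2.map ϖ π) := by
  haveI : Module.Finite 𝒪 (H2.tate ϖ WM) := H2.finite_tate_dvr hϖ hWM.div hWM.fg_torsionBy
  exact H2.map_surjective (mem_maximalIdeal_of_irreducible hϖ) hW.div π
    (fun y hy => π_torsion_onto n r d d_comm hstep π πup πup_inj πup_π d_πup y hy)

omit [IsDomain 𝒪] [IsDiscreteValuationRing 𝒪] [IsAdicComplete (maximalIdeal 𝒪) 𝒪] in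
/-- The kernel of `T_ϖ π` is the kernel of the total norm. -/
theorem ker_map_π_eq_ker_nmTot {p : ℕ} (n r : ℕ)
    (d : Fin r → Module.End 𝒪 W)
    (π : W →ₗ[𝒪] WM) (πup : WM →ₗ[𝒪] W) (πup_inj : Function.Injective πup)
    (πup_π : ∀ x : W, πup (π x) = H90.nmTot (p ^ n) d x) :
    LinearMap.ker (H2.map ϖ π)
      = LinearMap.ker (H90.nmTot (p ^ n) (fun j => H2.mapEnd ϖ W (d j))) := by
  ext x
  rw [LinearMap.mem_ker, LinearMap.mem_ker, mapEnd_nmTot, H2.mapEnd_apply,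
    H2.map_apply_eq_zero_iff, H2.map_apply_eq_zero_iff]
  refine forall_congr' fun k => ?_
  rw [← πup_π]
  constructor
  · intro h
    rw [h, map_zero]
  · intro h
    apply πup_inj
    rw [h, map_zero]

end Main

end Fermat.Agent.S59.Lim

end
end
-- ==== END Fermat.Agent.S59.Lim.H94_Free
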