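-- GENERATED (merged mirror, NOTES/tools/trim/merge3_helper67.py): 4 modules of the originals, bodies verbatim.
import Mathlib
import Fermat.Agent.Zm.S43_L02_003
import Fermat.Agent.Zm.S43_L07_001
import Fermat.Agent.Zm.S43_L07_002
import Fermat.Agent.Zm.S43_L06_002
import Fermat.Agent.Zm.S43_L01_004

-- ==== BEGIN Fermat.Agent.S59.Asm.H85_ResLoc
section

set_option autoImplicit false
set_option linter.unusedSectionVars false
set_option linter.style.haveILetI false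

/-!
# S59, package ASM (helper85): the leaf RESLOC

`stmt_RESLOC : Stmt_RESLOC` : a ring homomorphism `rest : 𝕋' → 𝕋` between Hecke algebras induces
an `𝒪`-algebra homomorphism `heckeLocal N' S' 𝒪 (θ ∘ rest) → heckeLocal N S 𝒪 θ` compatible with
the structure maps `π`.
-/

noncomputable section

open scoped TensorProduct
open IsLocalRing CuspForm

namespace Fermat.Agent.S59.Asm.H85

open Fermat.Agent.S59.Datum.H85

set_option synthInstance.maxHeartbeats 400000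
set_option maxHeartbeats 1000000

/-- **RESLOC.** -/
theorem stmt_RESLOC : Stmt_RESLOC := by
  intro 𝒪 _ _ _ _ N N' _ _ _ _ S S' θ rest
  -- the map `𝒪 ⊗ 𝕋' → 𝒪 ⊗ 𝕋`
  let m : (𝒪 ⊗[ℤ] ↥(heckeAlgebra N' 2 S')) →ₐ[ℤ] (𝒪 ⊗[ℤ] ↥(heckeAlgebra N 2 S)) :=
    Algebra.TensorProduct.map (AlgHom.id ℤ 𝒪) rest.toIntAlgHom
  have hm : ∀ (a : 𝒪) (t : ↥(heckeAlgebra N' 2 S')), m (a ⊗ₜ[ℤ] t) = a ⊗ₜ[ℤ] rest t :=
    fun a t => rfl
  have hres : ∀ x : 𝒪 ⊗[ℤ] ↥(heckeAlgebra N' 2 S'),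
      residualCharacter N S 𝒪 θ (m x) = residualCharacter N' S' 𝒪 (θ.comp rest) x := by
    intro x
    induction x using TensorProduct.induction_on with
    | zero => rw [map_zero, map_zero, map_zero]
    | tmul a t => rw [hm, residualCharacter_tmul, residualCharacter_tmul, RingHom.comp_apply]
    | add x y hx hy => rw [map_add, map_add, map_add, hx, hy]
  let g : (𝒪 ⊗[ℤ] ↥(heckeAlgebra N' 2 S')) →+* heckeLocal N S 𝒪 θ :=
    (toLocal 𝒪 N S θ).comp m.toRingHom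
  have hg : ∀ x, g x = toLocal 𝒪 N S θ (m x) := fun x => rfl
  obtain ⟨ghat, hghat⟩ := exists_lift 𝒪 N' S' (θ.comp rest) g (fun s hs => by
    rw [hg]
    apply isUnit_toLocal
    rw [hres]
    exact hs)
  refine ⟨{ ghat with commutes' := fun a => ?_ }, fun t => ?_⟩
  · show ghat (algebraMap 𝒪 (heckeLocal N' S' 𝒪 (θ.comp rest)) a) = algebraMap 𝒪 _ a
    rw [← toLocal_algebraMap, hghat, hg, Algebra.TensorProduct.algebraMap_apply,
      Algebra.algebraMap_self, RingHom.id_apply, hm, map_one, ← toLocal_algebraMap,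
      Algebra.TensorProduct.algebraMap_apply, Algebra.algebraMap_self, RingHom.id_apply]
  · show ghat (heckeLocal.π N' S' 𝒪 (θ.comp rest) t) = heckeLocal.π N S 𝒪 θ (rest t)
    rw [← toLocal_includeRight, hghat, hg, hm, toLocal_includeRight]

end Fermat.Agent.S59.Asm.H85

end

end
-- ==== END Fermat.Agent.S59.Asm.H85_ResLoc

-- ==== BEGIN Fermat.Agent.S59.Asm.Leaves2
section

/-!
# S59, package ASM (helper53): leaves, second round

* `Stmt_COMPAT` : two local `𝒪`-algebra homomorphisms out of a universal deformation ring with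
                  the same Frobenius characteristic polynomials are equal (Frobenius density +
                  Carayol + uniqueness in the universal property).
-/

set_option autoImplicit false

open Polynomial CuspForm IsLocalRing

namespace Fermat.Agent.S59.Asm

/-- **COMPAT**: `f₁ f₂ : R → A` local `𝒪`-algebra homomorphisms out of a universal deformation
ring; `f₂` classifies `ρA` (of type `𝒟`, lifting `ρbar`), and the base change along `f₁` has the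
Frobenius characteristic polynomials of `ρA` outside a finite set `S`.  Then `f₁ = f₂`.
[`R.H91.charpoly_eq_of_frobenius` (Frobenius density + continuity) gives equal characteristic
polynomials, hence equal traces, everywhere; `ρA` is residually absolutely irreducible
(`D.absIrr` + the residual equivalence), so `R.H25.isEquiv_of_trace_eq` (Carayol) gives
`(D.ρ.baseChangeAlong f₁).IsEquiv ρA`; conclude by the uniqueness in `D.universal`.] -/
def Stmt_COMPAT : Prop :=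
  ∀ (𝒪 : Type) [CommRing 𝒪] [IsDomain 𝒪] [IsDiscreteValuationRing 𝒪]
    [IsAdicComplete (maximalIdeal 𝒪) 𝒪]
    (ρbar : ResidualGaloisRep (ResidueField 𝒪))
    (𝒟 : ∀ ⦃A : Type⦄ [CommRing A] [IsLocalRing A] [Algebra 𝒪 A], GaloisRepAdic A → Prop)
    (D : GaloisRep.DeformationRingData 𝒪 ρbar 𝒟)
    (A : Type) [CommRing A] [IsLocalRing A] [IsNoetherianRing A]
    [IsAdicComplete (maximalIdeal A) A] [Algebra 𝒪 A] [IsLocalHom (algebraMap 𝒪 A)],
    Function.Surjective (residue A ∘ algebraMap 𝒪 A) →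
    ∀ (ρA : GaloisRepAdic A), 𝒟 ρA →
    ρA.residual.IsEquiv (ρbar.baseChangeAlong (ResidueField.map (algebraMap 𝒪 A))) →
    ∀ (f₁ f₂ : D.R →ₐ[𝒪] A) (h₁ : IsLocalHom (f₁ : D.R →+* A))
      (h₂ : IsLocalHom (f₂ : D.R →+* A)) (S : Finset ℕ),
    (∀ ℓ : ℕ, ℓ.Prime → ℓ ∉ S → ∀ B : ValuationSubring (AlgebraicClosure ℚ),
      B.LiesOverPrime ℓ → ∀ σ : GalQ, B.IsFrobeniusAt σ ℓ →
        LinearMap.charpoly ((D.ρ.baseChangeAlong (f₁ : D.R →+* A) h₁).ρ σ) =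
          LinearMap.charpoly (ρA.ρ σ)) →
    (D.ρ.baseChangeAlong (f₂ : D.R →+* A) h₂).IsEquiv ρA →
    f₁ = f₂

end Fermat.Agent.S59.Asm

end
-- ==== END Fermat.Agent.S59.Asm.Leaves2

-- ==== BEGIN Fermat.Agent.S59.Lim.H2_Theta
section

/-!
# S59, package LIM, Layer B, leaf LIM-B1 (helper2): the `θ`-part of `𝒪 ⊗_ℤ A`

`A` an abelian group with a commutative ring `𝕋` of operators (`η : 𝕋 →+* End_ℤ A`),
`θ : 𝕋 →+* k = 𝒪/𝔪`.  The `θ`-part of `W₀ = 𝒪 ⊗_ℤ A` is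
`thetaPart η θ = ⋂_{t, a ↦ θ t} gk (η(t)_𝒪 - a)`.

* `thetaPart`, `mem_thetaPart`, `opRing`, `opHom`, `opModule` (the commutative ring `𝒪 ⊗_ℤ 𝕋`
  acting on `W₀`), `thetaGens`, `mem_thetaPart_iff_primPart(')`;
* (1) `isDiv_thetaPart_of_isDiv`, `isDiv_thetaPart` (under the hypotheses of `Stmt_TENS`),
  `thetaPart_div`, `finite_torsionBy_pow`, `finite_span_opModule`;
* (2) `thetaPart_stable`, `thetaRes` (+ `_apply/_one/_zero/_mul/_add/_sub/_neg/_smul/_pow/_congr/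
  _commute`), `opComm`, `thetaResHom` (algebra hom on the commutant);
  from `End_ℤ A`: `commZ`, `thetaZHom` (ring hom on the commutant), `thetaZ`
  (+ `_apply/_one/_zero/_mul/_add/_sub/_pow/_congr/_commute/_commute_eta/_natCast_smul_one/
  _intCast_smul_one`), `thetaZ_es` (transfer of `g² - T g + ℓ = 0`),
  `thetaEta : 𝕋 →+* End_𝒪 (θ-part)`, `thetaEta_local`, `thetaGal : G →* End_𝒪 (θ-part)`;
* (3) `baseChange_mem_thetaPart`, `thetaMap` (+ `_apply/_id/_comp/_add/_thetaZ/_thetaEta`),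
  `thetaMap_injective` (flat), `thetaMap_surjective` (locally finite),
  `thetaPart_le_comp`, `thetaPart_comp_of_surjective` (change of Hecke algebra);
* (4) `hdivOf θ η hW : HDiv 𝒪 ϖ N S θ`;
* (5) `ker_baseChange_eq`, `exists_of_baseChange_eq_zero` (kernels and flat base change).

The file is complete (no open goals).
-/

set_option autoImplicit false
set_option linter.style.haveILetI false
set_option linter.unusedSectionVars false
set_option linter.unusedVariables false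
set_option maxHeartbeats 1000000

noncomputable section

open IsLocalRing TensorProduct Module

namespace Fermat.Agent.S59.Lim.H2

open Fermat.Agent.S59.Lim

/-! ### Generalities -/

section Gen

variable {𝒪 : Type*} [CommRing 𝒪] {W : Type*} [AddCommGroup W] [Module 𝒪 W]

/-- If `W[ϖ]` is finite then so is every `W[ϖ ^ k]`. -/
theorem finite_torsionBy_pow (ϖ : 𝒪) (hfin : Finite (Submodule.torsionBy 𝒪 W ϖ)) (k : ℕ) :
    Finite (Submodule.torsionBy 𝒪 W (ϖ ^ k)) := by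
  classical
  induction k with
  | zero =>
    have : (Submodule.torsionBy 𝒪 W (ϖ ^ 0) : Set W) ⊆ {0} := by
      intro x hx
      have := (Submodule.mem_torsionBy_iff _ _).mp hx
      rw [pow_zero, one_smul] at this
      exact this
    exact ((Set.finite_singleton (0 : W)).subset this).to_subtype
  | succ k ih =>
    have hs : (Submodule.torsionBy 𝒪 W (ϖ ^ k) : Set W).Finite := Set.toFinite _
    have h1 : (Submodule.torsionBy 𝒪 W ϖ : Set W).Finite := Set.toFinite _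
    have hpre : ((fun x : W => ϖ • x) ⁻¹' (Submodule.torsionBy 𝒪 W (ϖ ^ k) : Set W)).Finite := by
      apply Set.Finite.preimage' hs
      intro b _
      by_cases hb : ∃ x₀ : W, ϖ • x₀ = b
      · obtain ⟨x₀, hx₀⟩ := hb
        have hsub : ((fun x : W => ϖ • x) ⁻¹' {b}) ⊆
            (fun y : W => y + x₀) '' (Submodule.torsionBy 𝒪 W ϖ : Set W) := by
          intro x hx
          refine ⟨x - x₀, ?_, by simp⟩
          have hx' : ϖ • x = b := hx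
          show x - x₀ ∈ Submodule.torsionBy 𝒪 W ϖ
          rw [Submodule.mem_torsionBy_iff, smul_sub, hx', hx₀, sub_self]
        exact (h1.image _).subset hsub
      · have : ((fun x : W => ϖ • x) ⁻¹' {b}) = ∅ := by
          ext x
          simp only [Set.mem_preimage, Set.mem_singleton_iff, Set.mem_empty_iff_false, iff_false]
          intro hx
          exact hb ⟨x, hx⟩
        rw [this]
        exact Set.finite_empty
    have hsub : (Submodule.torsionBy 𝒪 W (ϖ ^ (k + 1)) : Set W) ⊆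
        ((fun x : W => ϖ • x) ⁻¹' (Submodule.torsionBy 𝒪 W (ϖ ^ k) : Set W)) := by
      intro x hx
      have := (Submodule.mem_torsionBy_iff _ _).mp hx
      show ϖ • x ∈ Submodule.torsionBy 𝒪 W (ϖ ^ k)
      rw [Submodule.mem_torsionBy_iff, ← mul_smul, ← pow_succ]
      exact this
    exact (hpre.subset hsub).to_subtype

end Gen

/-! ### The `θ`-part -/

section Def

variable {𝒪 : Type} [CommRing 𝒪] [IsLocalRing 𝒪] {𝕋 : Type} [CommRing 𝕋]
  {A : Type} [AddCommGroup A]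

/-- The `θ`-part of `𝒪 ⊗ A`. -/
def thetaPart (η : 𝕋 →+* Module.End ℤ A) (θ : 𝕋 →+* ResidueField 𝒪) :
    Submodule 𝒪 (𝒪 ⊗[ℤ] A) :=
  ⨅ (t : 𝕋) (a : 𝒪) (_ : residue 𝒪 a = θ t),
    gk ((η t).baseChange 𝒪 - a • (1 : Module.End 𝒪 (𝒪 ⊗[ℤ] A)))

theorem mem_thetaPart {η : 𝕋 →+* Module.End ℤ A} {θ : 𝕋 →+* ResidueField 𝒪}
    {x : 𝒪 ⊗[ℤ] A} :
    x ∈ thetaPart η θ ↔ ∀ (t : 𝕋) (a : 𝒪), residue 𝒪 a = θ t →
      ∃ N : ℕ, (((η t).baseChange 𝒪 - a • (1 : Module.End 𝒪 (𝒪 ⊗[ℤ] A))) ^ N) x = 0 := by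
  simp only [thetaPart, Submodule.mem_iInf, mem_gk]

/-- The commutative ring of operators `𝒪 ⊗_ℤ 𝕋`. -/
abbrev opRing (𝒪 𝕋 : Type) [CommRing 𝒪] [CommRing 𝕋] : Type := 𝒪 ⊗[ℤ] 𝕋

/-- The Hecke operators on `𝒪 ⊗ A`. -/
def opT (𝒪 : Type) [CommRing 𝒪] (η : 𝕋 →+* Module.End ℤ A) :
    𝕋 →+* Module.End 𝒪 (𝒪 ⊗[ℤ] A) :=
  ((Module.End.baseChangeHom ℤ 𝒪 A : Module.End ℤ A →ₐ[ℤ] _) : Module.End ℤ A →+* _).comp η

@[simp] theorem opT_apply (η : 𝕋 →+* Module.End ℤ A) (t : 𝕋) :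
    opT 𝒪 η t = (η t).baseChange 𝒪 := rfl

/-- The action of `𝒪 ⊗_ℤ 𝕋` on `𝒪 ⊗_ℤ A`. -/
def opHom (𝒪 : Type) [CommRing 𝒪] (η : 𝕋 →+* Module.End ℤ A) :
    opRing 𝒪 𝕋 →ₐ[𝒪] Module.End 𝒪 (𝒪 ⊗[ℤ] A) :=
  Algebra.TensorProduct.lift (Algebra.ofId 𝒪 (Module.End 𝒪 (𝒪 ⊗[ℤ] A)))
    (opT 𝒪 η).toIntAlgHom (fun a t => Algebra.commutes a _)

theorem opHom_tmul (η : 𝕋 →+* Module.End ℤ A) (a : 𝒪) (t : 𝕋) :
    opHom 𝒪 η (a ⊗ₜ[ℤ] t) = a • (η t).baseChange 𝒪 := by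
  rw [opHom, Algebra.TensorProduct.lift_tmul, Algebra.ofId_apply, Algebra.algebraMap_eq_smul_one,
    smul_mul_assoc, one_mul]
  rfl

end Def

/-! ### The `θ`-part as a primary part; `IsDiv` -/

section Prim

variable {𝒪 : Type} [CommRing 𝒪] [IsLocalRing 𝒪] {𝕋 : Type} [CommRing 𝕋]
  {A : Type} [AddCommGroup A]

/-- The generators `1 ⊗ t - a ⊗ 1` (`a ↦ θ t`) of the ideal of `𝒪 ⊗ 𝕋` cut out by `θ`. -/
def thetaGens (𝒪 : Type) [CommRing 𝒪] [IsLocalRing 𝒪] (θ : 𝕋 →+* ResidueField 𝒪) :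
    Set (opRing 𝒪 𝕋) :=
  {r | ∃ (t : 𝕋) (a : 𝒪), residue 𝒪 a = θ t ∧ r = (1 : 𝒪) ⊗ₜ[ℤ] t - a ⊗ₜ[ℤ] (1 : 𝕋)}

/-- `𝒪 ⊗ A` as a module over `𝒪 ⊗ 𝕋`. -/
@[reducible] def opModule (𝒪 : Type) [CommRing 𝒪] (η : 𝕋 →+* Module.End ℤ A) :
    Module (opRing 𝒪 𝕋) (𝒪 ⊗[ℤ] A) :=
  Module.compHom (𝒪 ⊗[ℤ] A) (opHom 𝒪 η).toRingHom

theorem opModule_smul (η : 𝕋 →+* Module.End ℤ A) (r : opRing 𝒪 𝕋) (x : 𝒪 ⊗[ℤ] A) :
    (letI := opModule 𝒪 η; r • x) = opHom 𝒪 η r x := rfl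

theorem baseChange_one_eq (𝒪 : Type) [CommRing 𝒪] (A : Type) [AddCommGroup A] :
    (1 : Module.End ℤ A).baseChange 𝒪 = (1 : Module.End 𝒪 (𝒪 ⊗[ℤ] A)) :=
  map_one (Module.End.baseChangeHom ℤ 𝒪 A)

theorem baseChange_mul_eq (𝒪 : Type) [CommRing 𝒪] {A : Type} [AddCommGroup A]
    (f g : Module.End ℤ A) :
    (f * g).baseChange 𝒪 = f.baseChange 𝒪 * g.baseChange 𝒪 :=
  map_mul (Module.End.baseChangeHom ℤ 𝒪 A) f g

theorem baseChange_pow_eq (𝒪 : Type) [CommRing 𝒪] {A : Type} [AddCommGroup A]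
    (f : Module.End ℤ A) (n : ℕ) :
    (f ^ n).baseChange 𝒪 = (f.baseChange 𝒪) ^ n :=
  map_pow (Module.End.baseChangeHom ℤ 𝒪 A) f n

theorem baseChange_commute (𝒪 : Type) [CommRing 𝒪] {A : Type} [AddCommGroup A]
    {f g : Module.End ℤ A} (h : Commute f g) :
    Commute (f.baseChange 𝒪) (g.baseChange 𝒪) :=
  h.map (Module.End.baseChangeHom ℤ 𝒪 A)

theorem opHom_gen (η : 𝕋 →+* Module.End ℤ A) (t : 𝕋) (a : 𝒪) :
    opHom 𝒪 η ((1 : 𝒪) ⊗ₜ[ℤ] t - a ⊗ₜ[ℤ] (1 : 𝕋)) =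
      (η t).baseChange 𝒪 - a • (1 : Module.End 𝒪 (𝒪 ⊗[ℤ] A)) := by
  rw [map_sub, opHom_tmul, opHom_tmul, one_smul, map_one, baseChange_one_eq]

theorem opHom_pi (η : 𝕋 →+* Module.End ℤ A) (c : 𝒪) (x : 𝒪 ⊗[ℤ] A) :
    opHom 𝒪 η (c ⊗ₜ[ℤ] (1 : 𝕋)) x = c • x := by
  rw [opHom_tmul, map_one, baseChange_one_eq]
  rfl

/-- `𝒪 ⊗ A` is locally finite over `𝒪 ⊗ 𝕋`. -/
theorem finite_span_opModule (η : 𝕋 →+* Module.End ℤ A) {ϖ : 𝒪}
    (htors : ∀ x : 𝒪 ⊗[ℤ] A, ∃ k : ℕ, ϖ ^ k • x = 0)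
    (hfin : Finite (Submodule.torsionBy 𝒪 (𝒪 ⊗[ℤ] A) ϖ)) (x : 𝒪 ⊗[ℤ] A) :
    letI := opModule 𝒪 η
    Finite (Submodule.span (opRing 𝒪 𝕋) {x}) := by
  letI := opModule 𝒪 η
  obtain ⟨k, hk⟩ := htors x
  haveI := finite_torsionBy_pow ϖ hfin k
  have hsub : (Submodule.span (opRing 𝒪 𝕋) {x} : Set (𝒪 ⊗[ℤ] A)) ⊆
      (Submodule.torsionBy 𝒪 (𝒪 ⊗[ℤ] A) (ϖ ^ k) : Set (𝒪 ⊗[ℤ] A)) := by
    intro y hy
    obtain ⟨r, rfl⟩ := Submodule.mem_span_singleton.mp hy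
    show r • x ∈ Submodule.torsionBy 𝒪 (𝒪 ⊗[ℤ] A) (ϖ ^ k)
    rw [Submodule.mem_torsionBy_iff]
    show ϖ ^ k • (opHom 𝒪 η r x) = 0
    rw [← map_smul, hk, map_zero]
  exact ((Set.toFinite _).subset hsub).to_subtype

/-- The `θ`-part is the primary part for the ideal generated by `thetaGens` (on a locally
finite module). -/
theorem mem_thetaPart_iff_primPart' (η : 𝕋 →+* Module.End ℤ A) (θ : 𝕋 →+* ResidueField 𝒪)
    (hlf : letI := opModule 𝒪 η; ∀ x : 𝒪 ⊗[ℤ] A, Finite (Submodule.span (opRing 𝒪 𝕋) {x}))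
    (x : 𝒪 ⊗[ℤ] A) :
    letI := opModule 𝒪 η
    x ∈ thetaPart η θ ↔ x ∈ primPart (Ideal.span (thetaGens 𝒪 θ)) (𝒪 ⊗[ℤ] A) := by
  letI := opModule 𝒪 η
  rw [← H61.stmt_LOC_gk (opRing 𝒪 𝕋) (𝒪 ⊗[ℤ] A) hlf (thetaGens 𝒪 θ) x, mem_thetaPart]
  have key : ∀ (t : 𝕋) (a : 𝒪) (N : ℕ),
      (((1 : 𝒪) ⊗ₜ[ℤ] t - a ⊗ₜ[ℤ] (1 : 𝕋) : opRing 𝒪 𝕋) ^ N) • x =
        (((η t).baseChange 𝒪 - a • (1 : Module.End 𝒪 (𝒪 ⊗[ℤ] A))) ^ N) x := by
    intro t a N
    show opHom 𝒪 η (((1 : 𝒪) ⊗ₜ[ℤ] t - a ⊗ₜ[ℤ] (1 : 𝕋) : opRing 𝒪 𝕋) ^ N) x = _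
    rw [map_pow, opHom_gen]
  constructor
  · rintro h r ⟨t, a, ha, rfl⟩
    obtain ⟨N, hN⟩ := h t a ha
    exact ⟨N, by rw [key, hN]⟩
  · intro h t a ha
    obtain ⟨N, hN⟩ := h _ ⟨t, a, ha, rfl⟩
    exact ⟨N, by rw [← key, hN]⟩

/-- The `θ`-part is the primary part for the ideal generated by `thetaGens`. -/
theorem mem_thetaPart_iff_primPart (η : 𝕋 →+* Module.End ℤ A) (θ : 𝕋 →+* ResidueField 𝒪)
    {ϖ : 𝒪} (htors : ∀ x : 𝒪 ⊗[ℤ] A, ∃ k : ℕ, ϖ ^ k • x = 0)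
    (hfin : Finite (Submodule.torsionBy 𝒪 (𝒪 ⊗[ℤ] A) ϖ)) (x : 𝒪 ⊗[ℤ] A) :
    letI := opModule 𝒪 η
    x ∈ thetaPart η θ ↔ x ∈ primPart (Ideal.span (thetaGens 𝒪 θ)) (𝒪 ⊗[ℤ] A) :=
  mem_thetaPart_iff_primPart' η θ (finite_span_opModule η htors hfin) x

/-- The `θ`-part of a `ϖ`-divisible `𝒪 ⊗ A` is `ϖ`-divisible. -/
theorem thetaPart_div (η : 𝕋 →+* Module.End ℤ A) (θ : 𝕋 →+* ResidueField 𝒪)
    {ϖ : 𝒪} (hW : IsDiv ϖ (𝒪 ⊗[ℤ] A)) {x : 𝒪 ⊗[ℤ] A} (hx : x ∈ thetaPart η θ) :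
    ∃ y ∈ thetaPart η θ, ϖ • y = x := by
  letI := opModule 𝒪 η
  have hlf := finite_span_opModule η hW.tors hW.fin
  have hx' := (mem_thetaPart_iff_primPart η θ hW.tors hW.fin x).mp hx
  obtain ⟨y₀, hy₀⟩ := hW.div x
  have hc : ∀ y : 𝒪 ⊗[ℤ] A, (ϖ ⊗ₜ[ℤ] (1 : 𝕋) : opRing 𝒪 𝕋) • y = ϖ • y :=
    fun y => opHom_pi η ϖ y
  have hy₀' : (LinearMap.lsmul (opRing 𝒪 𝕋) (𝒪 ⊗[ℤ] A) (ϖ ⊗ₜ[ℤ] (1 : 𝕋))) y₀ ∈
      primPart (Ideal.span (thetaGens 𝒪 θ)) (𝒪 ⊗[ℤ] A) := by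
    rw [LinearMap.lsmul_apply, hc, hy₀]
    exact hx'
  obtain ⟨y, hy, hyx⟩ := H61.exists_prim_of_map_prim (Ideal.span (thetaGens 𝒪 θ)) hlf
    (LinearMap.lsmul (opRing 𝒪 𝕋) (𝒪 ⊗[ℤ] A) (ϖ ⊗ₜ[ℤ] (1 : 𝕋))) y₀ hy₀'
  refine ⟨y, (mem_thetaPart_iff_primPart η θ hW.tors hW.fin y).mpr hy, ?_⟩
  rw [LinearMap.lsmul_apply, LinearMap.lsmul_apply, hc, hc, hy₀] at hyx
  exact hyx

/-- **LIM-B1 (1), general form**: the `θ`-part of an `IsDiv` module `𝒪 ⊗ A` is `IsDiv`. -/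
theorem isDiv_thetaPart_of_isDiv (η : 𝕋 →+* Module.End ℤ A) (θ : 𝕋 →+* ResidueField 𝒪)
    {ϖ : 𝒪} (hW : IsDiv ϖ (𝒪 ⊗[ℤ] A)) : IsDiv ϖ ↥(thetaPart η θ) where
  tors := fun x => by
    obtain ⟨k, hk⟩ := hW.tors x.1
    refine ⟨k, Subtype.ext ?_⟩
    rw [Submodule.coe_smul, hk]
    rfl
  div := fun x => by
    obtain ⟨y, hy, hyx⟩ := thetaPart_div η θ hW x.2
    exact ⟨⟨y, hy⟩, Subtype.ext hyx⟩
  fin := by
    haveI := hW.fin
    let j : Submodule.torsionBy 𝒪 ↥(thetaPart η θ) ϖ → Submodule.torsionBy 𝒪 (𝒪 ⊗[ℤ] A) ϖ :=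
      fun z => ⟨z.1.1, by
        rw [Submodule.mem_torsionBy_iff]
        have := (Submodule.mem_torsionBy_iff _ _).mp z.2
        have h2 := congrArg Subtype.val this
        rw [Submodule.coe_smul] at h2
        exact h2⟩
    have hj : Function.Injective j := by
      intro z z' h
      have h1 : (j z).1 = (j z').1 := congrArg Subtype.val h
      exact Subtype.ext (Subtype.ext h1)
    exact Finite.of_injective j hj

end Prim

section PrimDVR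

variable {𝒪 : Type} [CommRing 𝒪] [IsDomain 𝒪] [IsDiscreteValuationRing 𝒪]
  [Finite (ResidueField 𝒪)] {𝕋 : Type} [CommRing 𝕋] {A : Type} [AddCommGroup A]

/-- **LIM-B1 (1)**: under the hypotheses of `Stmt_TENS`, the `θ`-part of `𝒪 ⊗ A` is `IsDiv`. -/
theorem isDiv_thetaPart (η : 𝕋 →+* Module.End ℤ A) (θ : 𝕋 →+* ResidueField 𝒪)
    {ϖ : 𝒪} (hϖ : Irreducible ϖ) {p : ℕ} (hp : p.Prime) (hpm : (p : 𝒪) ∈ maximalIdeal 𝒪)
    (hp0 : (p : 𝒪) ≠ 0) (htors : ∀ x : A, ∃ k : ℕ, p ^ k • x = 0)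
    (hdiv : ∀ x : A, ∃ y : A, p • y = x) (hfin : Finite {x : A // p • x = 0}) :
    IsDiv ϖ ↥(thetaPart η θ) :=
  isDiv_thetaPart_of_isDiv η θ
    ⟨tens_tors hϖ hpm hp0 htors, tens_div hϖ hpm hp0 hdiv, tens_fin hϖ hp hpm hp0 hfin⟩

end PrimDVR

/-! ### Restriction of commuting operators to the `θ`-part -/

section Res

variable {𝒪 : Type} [CommRing 𝒪] [IsLocalRing 𝒪] {𝕋 : Type} [CommRing 𝕋]
  {A : Type} [AddCommGroup A]

/-- **LIM-B1 (2)**: the `θ`-part is stable under every endomorphism commuting with the Hecke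
operators. -/
theorem thetaPart_stable {η : 𝕋 →+* Module.End ℤ A} {θ : 𝕋 →+* ResidueField 𝒪}
    {f : Module.End 𝒪 (𝒪 ⊗[ℤ] A)} (hf : ∀ t, Commute ((η t).baseChange 𝒪) f)
    {x : 𝒪 ⊗[ℤ] A} (hx : x ∈ thetaPart η θ) : f x ∈ thetaPart η θ := by
  simp only [thetaPart, Submodule.mem_iInf] at hx ⊢
  intro t a ha
  exact H61.gk_stable _ f (hf t) a (hx t a ha)

/-- The restriction to the `θ`-part of an endomorphism commuting with the Hecke operators. -/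
def thetaRes {η : 𝕋 →+* Module.End ℤ A} (θ : 𝕋 →+* ResidueField 𝒪)
    (f : Module.End 𝒪 (𝒪 ⊗[ℤ] A)) (hf : ∀ t, Commute ((η t).baseChange 𝒪) f) :
    Module.End 𝒪 ↥(thetaPart η θ) :=
  f.restrict (fun _ hx => thetaPart_stable hf hx)

variable {η : 𝕋 →+* Module.End ℤ A} {θ : 𝕋 →+* ResidueField 𝒪}

@[simp] theorem thetaRes_apply (f : Module.End 𝒪 (𝒪 ⊗[ℤ] A))
    (hf : ∀ t, Commute ((η t).baseChange 𝒪) f) (x : ↥(thetaPart η θ)) :
    ((thetaRes θ f hf x : ↥(thetaPart η θ)) : 𝒪 ⊗[ℤ] A) = f x := rfl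

theorem thetaRes_congr {f g : Module.End 𝒪 (𝒪 ⊗[ℤ] A)}
    (hf : ∀ t, Commute ((η t).baseChange 𝒪) f) (hg : ∀ t, Commute ((η t).baseChange 𝒪) g)
    (h : f = g) : thetaRes θ f hf = thetaRes θ g hg := by
  subst h
  rfl

theorem thetaRes_one (h1 : ∀ t, Commute ((η t).baseChange 𝒪) (1 : Module.End 𝒪 (𝒪 ⊗[ℤ] A))) :
    thetaRes θ (1 : Module.End 𝒪 (𝒪 ⊗[ℤ] A)) h1 = 1 :=
  LinearMap.ext fun _ => Subtype.ext rfl

theorem thetaRes_zero (h0 : ∀ t, Commute ((η t).baseChange 𝒪) (0 : Module.End 𝒪 (𝒪 ⊗[ℤ] A))) :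
    thetaRes θ (0 : Module.End 𝒪 (𝒪 ⊗[ℤ] A)) h0 = 0 :=
  LinearMap.ext fun _ => Subtype.ext rfl

theorem thetaRes_mul {f g : Module.End 𝒪 (𝒪 ⊗[ℤ] A)}
    (hf : ∀ t, Commute ((η t).baseChange 𝒪) f) (hg : ∀ t, Commute ((η t).baseChange 𝒪) g)
    (hfg : ∀ t, Commute ((η t).baseChange 𝒪) (f * g)) :
    thetaRes θ (f * g) hfg = thetaRes θ f hf * thetaRes θ g hg :=
  LinearMap.ext fun _ => Subtype.ext rfl

theorem thetaRes_add {f g : Module.End 𝒪 (𝒪 ⊗[ℤ] A)}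
    (hf : ∀ t, Commute ((η t).baseChange 𝒪) f) (hg : ∀ t, Commute ((η t).baseChange 𝒪) g)
    (hfg : ∀ t, Commute ((η t).baseChange 𝒪) (f + g)) :
    thetaRes θ (f + g) hfg = thetaRes θ f hf + thetaRes θ g hg :=
  LinearMap.ext fun _ => Subtype.ext rfl

theorem thetaRes_sub {f g : Module.End 𝒪 (𝒪 ⊗[ℤ] A)}
    (hf : ∀ t, Commute ((η t).baseChange 𝒪) f) (hg : ∀ t, Commute ((η t).baseChange 𝒪) g)
    (hfg : ∀ t, Commute ((η t).baseChange 𝒪) (f - g)) :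
    thetaRes θ (f - g) hfg = thetaRes θ f hf - thetaRes θ g hg :=
  LinearMap.ext fun _ => Subtype.ext rfl

theorem thetaRes_neg {f : Module.End 𝒪 (𝒪 ⊗[ℤ] A)}
    (hf : ∀ t, Commute ((η t).baseChange 𝒪) f)
    (hfg : ∀ t, Commute ((η t).baseChange 𝒪) (-f)) :
    thetaRes θ (-f) hfg = -thetaRes θ f hf :=
  LinearMap.ext fun _ => Subtype.ext rfl

theorem thetaRes_smul (c : 𝒪) {f : Module.End 𝒪 (𝒪 ⊗[ℤ] A)}
    (hf : ∀ t, Commute ((η t).baseChange 𝒪) f)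
    (hcf : ∀ t, Commute ((η t).baseChange 𝒪) (c • f)) :
    thetaRes θ (c • f) hcf = c • thetaRes θ f hf :=
  LinearMap.ext fun _ => Subtype.ext rfl

/-- The commutant of the Hecke operators in `End_𝒪 (𝒪 ⊗ A)`. -/
def opComm (𝒪 : Type) [CommRing 𝒪] (η : 𝕋 →+* Module.End ℤ A) :
    Subalgebra 𝒪 (Module.End 𝒪 (𝒪 ⊗[ℤ] A)) :=
  Subalgebra.centralizer 𝒪 (Set.range fun t => (η t).baseChange 𝒪)

theorem mem_opComm {f : Module.End 𝒪 (𝒪 ⊗[ℤ] A)} :
    f ∈ opComm 𝒪 η ↔ ∀ t, Commute ((η t).baseChange 𝒪) f := by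
  rw [opComm, Subalgebra.mem_centralizer_iff]
  constructor
  · intro h t
    exact h _ ⟨t, rfl⟩
  · rintro h _ ⟨t, rfl⟩
    exact h t

/-- Restriction to the `θ`-part, as an algebra homomorphism on the commutant. -/
def thetaResHom (η : 𝕋 →+* Module.End ℤ A) (θ : 𝕋 →+* ResidueField 𝒪) :
    ↥(opComm 𝒪 η) →ₐ[𝒪] Module.End 𝒪 ↥(thetaPart η θ) where
  toFun f := thetaRes θ f.1 (mem_opComm.mp f.2)
  map_one' := LinearMap.ext fun _ => Subtype.ext rfl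
  map_mul' _ _ := LinearMap.ext fun _ => Subtype.ext rfl
  map_zero' := LinearMap.ext fun _ => Subtype.ext rfl
  map_add' _ _ := LinearMap.ext fun _ => Subtype.ext rfl
  commutes' _ := LinearMap.ext fun _ => Subtype.ext rfl

theorem thetaResHom_apply (f : ↥(opComm 𝒪 η)) :
    thetaResHom η θ f = thetaRes θ f.1 (mem_opComm.mp f.2) := rfl

theorem thetaRes_eq_hom (f : Module.End 𝒪 (𝒪 ⊗[ℤ] A))
    (hf : ∀ t, Commute ((η t).baseChange 𝒪) f) :
    thetaRes θ f hf = thetaResHom η θ ⟨f, mem_opComm.mpr hf⟩ := rfl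

theorem thetaRes_pow {f : Module.End 𝒪 (𝒪 ⊗[ℤ] A)}
    (hf : ∀ t, Commute ((η t).baseChange 𝒪) f) (n : ℕ)
    (hfn : ∀ t, Commute ((η t).baseChange 𝒪) (f ^ n)) :
    thetaRes θ (f ^ n) hfn = thetaRes θ f hf ^ n := by
  rw [thetaRes_eq_hom f hf, ← map_pow]
  rfl

theorem thetaRes_commute {f g : Module.End 𝒪 (𝒪 ⊗[ℤ] A)}
    (hf : ∀ t, Commute ((η t).baseChange 𝒪) f) (hg : ∀ t, Commute ((η t).baseChange 𝒪) g)
    (h : Commute f g) : Commute (thetaRes θ f hf) (thetaRes θ g hg) := by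
  have h1 : f * g = g * f := h
  show thetaRes θ f hf * thetaRes θ g hg = thetaRes θ g hg * thetaRes θ f hf
  rw [← thetaRes_mul hf hg (fun t => (hf t).mul_right (hg t)),
    ← thetaRes_mul hg hf (fun t => (hg t).mul_right (hf t))]
  exact thetaRes_congr _ _ h1

/-! #### Operators coming from `End_ℤ A` -/

/-- The commutant of the Hecke operators in `End_ℤ A`. -/
def commZ (η : 𝕋 →+* Module.End ℤ A) : Subring (Module.End ℤ A) :=
  Subring.centralizer (Set.range η)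

theorem mem_commZ {g : Module.End ℤ A} : g ∈ commZ η ↔ ∀ t, Commute (η t) g := by
  rw [commZ, Subring.mem_centralizer_iff]
  constructor
  · intro h t
    exact h _ ⟨t, rfl⟩
  · rintro h _ ⟨t, rfl⟩
    exact h t

theorem eta_mem_commZ (t : 𝕋) : η t ∈ commZ η :=
  mem_commZ.mpr fun t' => ((Commute.all t' t).map η)

/-- Base change followed by restriction to the `θ`-part, as a ring homomorphism on the
commutant of the Hecke operators in `End_ℤ A`. -/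
def thetaZHom (η : 𝕋 →+* Module.End ℤ A) (θ : 𝕋 →+* ResidueField 𝒪) :
    ↥(commZ η) →+* Module.End 𝒪 ↥(thetaPart η θ) where
  toFun g := thetaRes θ (g.1.baseChange 𝒪)
    (fun t => baseChange_commute 𝒪 (mem_commZ.mp g.2 t))
  map_one' := LinearMap.ext fun x => Subtype.ext (by
    show ((1 : Module.End ℤ A).baseChange 𝒪) x.1 = x.1
    rw [baseChange_one_eq]
    rfl)
  map_mul' g h := LinearMap.ext fun x => Subtype.ext (by
    show ((g.1 * h.1).baseChange 𝒪) x.1 = (g.1.baseChange 𝒪) ((h.1.baseChange 𝒪) x.1)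
    rw [baseChange_mul_eq]
    rfl)
  map_zero' := LinearMap.ext fun x => Subtype.ext (by
    show ((0 : Module.End ℤ A).baseChange 𝒪) x.1 = 0
    rw [LinearMap.baseChange_zero]
    rfl)
  map_add' g h := LinearMap.ext fun x => Subtype.ext (by
    show ((g.1 + h.1).baseChange 𝒪) x.1 = (g.1.baseChange 𝒪) x.1 + (h.1.baseChange 𝒪) x.1
    rw [LinearMap.baseChange_add]
    rfl)

/-- Base change followed by restriction to the `θ`-part. -/
def thetaZ (θ : 𝕋 →+* ResidueField 𝒪) (g : Module.End ℤ A) (hg : ∀ t, Commute (η t) g) :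
    Module.End 𝒪 ↥(thetaPart η θ) :=
  thetaZHom η θ ⟨g, mem_commZ.mpr hg⟩

theorem thetaZ_eq (g : Module.End ℤ A) (hg : ∀ t, Commute (η t) g) :
    thetaZ θ g hg = thetaRes θ (g.baseChange 𝒪) (fun t => baseChange_commute 𝒪 (hg t)) := rfl

@[simp] theorem thetaZ_apply (g : Module.End ℤ A) (hg : ∀ t, Commute (η t) g)
    (x : ↥(thetaPart η θ)) :
    ((thetaZ θ g hg x : ↥(thetaPart η θ)) : 𝒪 ⊗[ℤ] A) = (g.baseChange 𝒪) x := rfl

/-- The Hecke action on the `θ`-part. -/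
def thetaEta (η : 𝕋 →+* Module.End ℤ A) (θ : 𝕋 →+* ResidueField 𝒪) :
    𝕋 →+* Module.End 𝒪 ↥(thetaPart η θ) :=
  (thetaZHom η θ).comp (η.codRestrict (commZ η) eta_mem_commZ)

@[simp] theorem thetaEta_apply (t : 𝕋) (x : ↥(thetaPart η θ)) :
    ((thetaEta η θ t x : ↥(thetaPart η θ)) : 𝒪 ⊗[ℤ] A) = ((η t).baseChange 𝒪) x := rfl

theorem thetaEta_eq (t : 𝕋) :
    thetaEta η θ t = thetaZ θ (η t) (fun t' => (Commute.all t' t).map η) := rfl

/-- The action of a monoid (e.g. the Galois group) commuting with the Hecke operators, on the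
`θ`-part. -/
def thetaGal {G : Type*} [Monoid G] (θ : 𝕋 →+* ResidueField 𝒪) (ρ : G →* Module.End ℤ A)
    (hρ : ∀ g t, Commute (η t) (ρ g)) : G →* Module.End 𝒪 ↥(thetaPart η θ) :=
  ((thetaZHom η θ : ↥(commZ η) →+* _) : ↥(commZ η) →* _).comp
    (ρ.codRestrict (commZ η).toSubmonoid (fun g => mem_commZ.mpr (hρ g)))

@[simp] theorem thetaGal_apply {G : Type*} [Monoid G] (ρ : G →* Module.End ℤ A)
    (hρ : ∀ g t, Commute (η t) (ρ g)) (g : G) (x : ↥(thetaPart η θ)) :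
    ((thetaGal θ ρ hρ g x : ↥(thetaPart η θ)) : 𝒪 ⊗[ℤ] A) = ((ρ g).baseChange 𝒪) x := rfl

theorem thetaGal_eq {G : Type*} [Monoid G] (ρ : G →* Module.End ℤ A)
    (hρ : ∀ g t, Commute (η t) (ρ g)) (g : G) :
    thetaGal θ ρ hρ g = thetaZ θ (ρ g) (hρ g) := rfl

theorem thetaZ_commute {g h : Module.End ℤ A} (hg : ∀ t, Commute (η t) g)
    (hh : ∀ t, Commute (η t) h) (hgh : Commute g h) :
    Commute (thetaZ θ g hg) (thetaZ θ h hh) := by
  have : Commute (⟨g, mem_commZ.mpr hg⟩ : ↥(commZ η)) ⟨h, mem_commZ.mpr hh⟩ :=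
    Subtype.ext hgh
  exact this.map (thetaZHom η θ)

theorem thetaZ_commute_eta {g : Module.End ℤ A} (hg : ∀ t, Commute (η t) g) (t : 𝕋) :
    Commute (thetaZ θ g hg) (thetaEta η θ t) :=
  thetaZ_commute hg (fun t' => (Commute.all t' t).map η) (hg t).symm

/-- the Hecke operators are locally of the form `a + nilpotent` on the `θ`-part -/
theorem thetaEta_local (t : 𝕋) (a : 𝒪) (ha : residue 𝒪 a = θ t) (x : ↥(thetaPart η θ)) :
    ∃ m : ℕ, ((thetaEta η θ t - a • (1 : Module.End 𝒪 ↥(thetaPart η θ))) ^ m) x = 0 := by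
  obtain ⟨m, hm⟩ := mem_thetaPart.mp x.2 t a ha
  refine ⟨m, Subtype.ext ?_⟩
  have key : ∀ (k : ℕ) (y : ↥(thetaPart η θ)),
      ((((thetaEta η θ t - a • (1 : Module.End 𝒪 ↥(thetaPart η θ))) ^ k) y :
        ↥(thetaPart η θ)) : 𝒪 ⊗[ℤ] A) =
      (((η t).baseChange 𝒪 - a • (1 : Module.End 𝒪 (𝒪 ⊗[ℤ] A))) ^ k) y.1 := by
    intro k
    induction k with
    | zero => intro y; rfl
    | succ k ih =>
      intro y
      rw [pow_succ, Module.End.mul_apply, ih, pow_succ, Module.End.mul_apply]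
      rfl
  rw [key, hm]
  rfl

/-! #### Transfer of relations -/

theorem thetaZ_congr {g h : Module.End ℤ A} (hg : ∀ t, Commute (η t) g)
    (hh : ∀ t, Commute (η t) h) (e : g = h) : thetaZ θ g hg = thetaZ θ h hh := by
  subst e
  rfl

theorem thetaZ_one (h1 : ∀ t, Commute (η t) (1 : Module.End ℤ A)) :
    thetaZ θ (1 : Module.End ℤ A) h1 = 1 :=
  map_one (thetaZHom η θ)

theorem thetaZ_zero (h0 : ∀ t, Commute (η t) (0 : Module.End ℤ A)) :
    thetaZ θ (0 : Module.End ℤ A) h0 = 0 :=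
  map_zero (thetaZHom η θ)

theorem thetaZ_mul {g h : Module.End ℤ A} (hg : ∀ t, Commute (η t) g)
    (hh : ∀ t, Commute (η t) h) (hgh : ∀ t, Commute (η t) (g * h)) :
    thetaZ θ (g * h) hgh = thetaZ θ g hg * thetaZ θ h hh :=
  LinearMap.ext fun x => Subtype.ext (by
    show ((g * h).baseChange 𝒪) x.1 = (g.baseChange 𝒪) ((h.baseChange 𝒪) x.1)
    rw [baseChange_mul_eq]
    rfl)

theorem thetaZ_add {g h : Module.End ℤ A} (hg : ∀ t, Commute (η t) g)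
    (hh : ∀ t, Commute (η t) h) (hgh : ∀ t, Commute (η t) (g + h)) :
    thetaZ θ (g + h) hgh = thetaZ θ g hg + thetaZ θ h hh :=
  LinearMap.ext fun x => Subtype.ext (by
    show ((g + h).baseChange 𝒪) x.1 = (g.baseChange 𝒪) x.1 + (h.baseChange 𝒪) x.1
    rw [LinearMap.baseChange_add]
    rfl)

theorem thetaZ_sub {g h : Module.End ℤ A} (hg : ∀ t, Commute (η t) g)
    (hh : ∀ t, Commute (η t) h) (hgh : ∀ t, Commute (η t) (g - h)) :
    thetaZ θ (g - h) hgh = thetaZ θ g hg - thetaZ θ h hh :=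
  LinearMap.ext fun x => Subtype.ext (by
    show ((g - h).baseChange 𝒪) x.1 = (g.baseChange 𝒪) x.1 - (h.baseChange 𝒪) x.1
    rw [LinearMap.baseChange_sub]
    rfl)

theorem thetaZ_pow {g : Module.End ℤ A} (hg : ∀ t, Commute (η t) g) (n : ℕ)
    (hgn : ∀ t, Commute (η t) (g ^ n)) :
    thetaZ θ (g ^ n) hgn = thetaZ θ g hg ^ n := by
  induction n with
  | zero =>
    simp only [pow_zero]
    exact thetaZ_one _
  | succ n ih =>
    have hn : ∀ t, Commute (η t) (g ^ n) := fun t => (hg t).pow_right n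
    have h1 : ∀ t, Commute (η t) (g ^ n * g) := fun t => (hn t).mul_right (hg t)
    rw [pow_succ (thetaZ θ g hg), ← ih hn, ← thetaZ_mul hn hg h1]
    exact thetaZ_congr _ _ (pow_succ g n)

/-- an integer multiple of the identity becomes the corresponding scalar -/
theorem thetaZ_intCast_smul_one (n : ℤ) (hn : ∀ t, Commute (η t) (n • (1 : Module.End ℤ A))) :
    thetaZ θ (n • (1 : Module.End ℤ A)) hn = (n : 𝒪) • (1 : Module.End 𝒪 ↥(thetaPart η θ)) := by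
  refine LinearMap.ext fun x => Subtype.ext ?_
  show ((n • (1 : Module.End ℤ A)).baseChange 𝒪) x.1 = (n : 𝒪) • x.1
  rw [LinearMap.baseChange_smul, baseChange_one_eq, LinearMap.smul_apply, Module.End.one_apply,
    Int.cast_smul_eq_zsmul]

/-- a natural multiple of the identity becomes the corresponding scalar -/
theorem thetaZ_natCast_smul_one (n : ℕ) (hn : ∀ t, Commute (η t) (n • (1 : Module.End ℤ A))) :
    thetaZ θ (n • (1 : Module.End ℤ A)) hn = (n : 𝒪) • (1 : Module.End 𝒪 ↥(thetaPart η θ)) := by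
  refine LinearMap.ext fun x => Subtype.ext ?_
  show ((n • (1 : Module.End ℤ A)).baseChange 𝒪) x.1 = (n : 𝒪) • x.1
  have h1 : (n • (1 : Module.End ℤ A)) = ((n : ℤ) • (1 : Module.End ℤ A)) :=
    (natCast_zsmul _ n).symm
  rw [h1, LinearMap.baseChange_smul, baseChange_one_eq, LinearMap.smul_apply,
    Module.End.one_apply, ← Int.cast_smul_eq_zsmul 𝒪, Int.cast_natCast]

/-- Transfer of the Eichler–Shimura relation `g² - T g + ℓ = 0` to the `θ`-part. -/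
theorem thetaZ_es {g T : Module.End ℤ A} (hg : ∀ t, Commute (η t) g)
    (hT : ∀ t, Commute (η t) T) (ℓ : ℕ)
    (h : g * g - T * g + ℓ • (1 : Module.End ℤ A) = 0) :
    thetaZ θ g hg * thetaZ θ g hg - thetaZ θ T hT * thetaZ θ g hg
      + (ℓ : 𝒪) • (1 : Module.End 𝒪 ↥(thetaPart η θ)) = 0 := by
  have hℓ : ∀ t, Commute (η t) (ℓ • (1 : Module.End ℤ A)) :=
    fun t => (Commute.one_right _).smul_right ℓ
  have hgg : ∀ t, Commute (η t) (g * g) := fun t => (hg t).mul_right (hg t)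
  have hTg : ∀ t, Commute (η t) (T * g) := fun t => (hT t).mul_right (hg t)
  have hsub : ∀ t, Commute (η t) (g * g - T * g) := fun t => (hgg t).sub_right (hTg t)
  have hall : ∀ t, Commute (η t) (g * g - T * g + ℓ • (1 : Module.End ℤ A)) :=
    fun t => (hsub t).add_right (hℓ t)
  have h0 : ∀ t, Commute (η t) (0 : Module.End ℤ A) := fun t => Commute.zero_right _
  have := thetaZ_congr (θ := θ) hall h0 h
  rw [thetaZ_zero, thetaZ_add hsub hℓ, thetaZ_sub hgg hTg, thetaZ_mul hg hg, thetaZ_mul hT hg,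
    thetaZ_natCast_smul_one] at this
  exact this

end Res

/-! ### Functoriality in `A` -/

section Map

variable {𝒪 : Type} [CommRing 𝒪] [IsLocalRing 𝒪] {𝕋 : Type} [CommRing 𝕋]
  {A : Type} [AddCommGroup A] {A' : Type} [AddCommGroup A'] {A'' : Type} [AddCommGroup A'']
  {η : 𝕋 →+* Module.End ℤ A} {η' : 𝕋 →+* Module.End ℤ A'} {η'' : 𝕋 →+* Module.End ℤ A''}
  {θ : 𝕋 →+* ResidueField 𝒪}

theorem baseChange_comp_eq (𝒪 : Type) [CommRing 𝒪] {f : Module.End ℤ A} {f' : Module.End ℤ A'}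
    {g : A →ₗ[ℤ] A'} (h : g ∘ₗ f = f' ∘ₗ g) :
    g.baseChange 𝒪 ∘ₗ f.baseChange 𝒪 = f'.baseChange 𝒪 ∘ₗ g.baseChange 𝒪 := by
  rw [← LinearMap.baseChange_comp, ← LinearMap.baseChange_comp, h]

theorem baseChange_intertwine (g : A →ₗ[ℤ] A') (hg : ∀ t, g ∘ₗ η t = η' t ∘ₗ g) (t : 𝕋)
    (a : 𝒪) :
    ((η' t).baseChange 𝒪 - a • (1 : Module.End 𝒪 (𝒪 ⊗[ℤ] A'))).comp (g.baseChange 𝒪) =
      (g.baseChange 𝒪).comp ((η t).baseChange 𝒪 - a • (1 : Module.End 𝒪 (𝒪 ⊗[ℤ] A))) := by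
  rw [LinearMap.sub_comp, LinearMap.comp_sub, baseChange_comp_eq 𝒪 (hg t)]
  congr 1
  refine LinearMap.ext fun x => ?_
  simp only [LinearMap.comp_apply, LinearMap.smul_apply, Module.End.one_apply, map_smul]

/-- **LIM-B1 (3)**: an intertwining map sends the `θ`-part to the `θ`-part. -/
theorem baseChange_mem_thetaPart (g : A →ₗ[ℤ] A') (hg : ∀ t, g ∘ₗ η t = η' t ∘ₗ g)
    {x : 𝒪 ⊗[ℤ] A} (hx : x ∈ thetaPart η θ) : g.baseChange 𝒪 x ∈ thetaPart η' θ := by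
  rw [mem_thetaPart] at hx ⊢
  intro t a ha
  obtain ⟨N, hN⟩ := hx t a ha
  refine ⟨N, ?_⟩
  have := Module.End.commute_pow_left_of_commute (baseChange_intertwine (𝒪 := 𝒪) g hg t a) N
  have h2 := congrArg (fun F => F x) this
  simp only [LinearMap.comp_apply] at h2
  rw [h2, hN, map_zero]

/-- The map induced on `θ`-parts by an intertwining map. -/
def thetaMap (θ : 𝕋 →+* ResidueField 𝒪) (g : A →ₗ[ℤ] A') (hg : ∀ t, g ∘ₗ η t = η' t ∘ₗ g) :
    ↥(thetaPart η θ) →ₗ[𝒪] ↥(thetaPart η' θ) :=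
  (g.baseChange 𝒪).restrict (fun _ hx => baseChange_mem_thetaPart g hg hx)

@[simp] theorem thetaMap_apply (g : A →ₗ[ℤ] A') (hg : ∀ t, g ∘ₗ η t = η' t ∘ₗ g)
    (x : ↥(thetaPart η θ)) :
    ((thetaMap θ g hg x : ↥(thetaPart η' θ)) : 𝒪 ⊗[ℤ] A') = g.baseChange 𝒪 x.1 := rfl

theorem thetaMap_id (h : ∀ t, (LinearMap.id : A →ₗ[ℤ] A) ∘ₗ η t = η t ∘ₗ LinearMap.id) :
    thetaMap θ (LinearMap.id : A →ₗ[ℤ] A) h = LinearMap.id := by
  refine LinearMap.ext fun x => Subtype.ext ?_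
  rw [thetaMap_apply, LinearMap.baseChange_id]
  rfl

theorem thetaMap_comp (g : A →ₗ[ℤ] A') (hg : ∀ t, g ∘ₗ η t = η' t ∘ₗ g)
    (g' : A' →ₗ[ℤ] A'') (hg' : ∀ t, g' ∘ₗ η' t = η'' t ∘ₗ g')
    (h : ∀ t, (g' ∘ₗ g) ∘ₗ η t = η'' t ∘ₗ (g' ∘ₗ g)) :
    thetaMap θ (g' ∘ₗ g) h = (thetaMap θ g' hg').comp (thetaMap θ g hg) := by
  refine LinearMap.ext fun x => Subtype.ext ?_
  rw [thetaMap_apply, LinearMap.baseChange_comp]
  rfl

theorem thetaMap_add (g₁ g₂ : A →ₗ[ℤ] A') (h₁ : ∀ t, g₁ ∘ₗ η t = η' t ∘ₗ g₁)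
    (h₂ : ∀ t, g₂ ∘ₗ η t = η' t ∘ₗ g₂) (h : ∀ t, (g₁ + g₂) ∘ₗ η t = η' t ∘ₗ (g₁ + g₂)) :
    thetaMap θ (g₁ + g₂) h = thetaMap θ g₁ h₁ + thetaMap θ g₂ h₂ := by
  refine LinearMap.ext fun x => Subtype.ext ?_
  rw [thetaMap_apply, LinearMap.baseChange_add]
  rfl

/-- `thetaMap` intertwines the operators `thetaZ`. -/
theorem thetaMap_thetaZ (g : A →ₗ[ℤ] A') (hg : ∀ t, g ∘ₗ η t = η' t ∘ₗ g)
    {f : Module.End ℤ A} {f' : Module.End ℤ A'} (hf : ∀ t, Commute (η t) f)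
    (hf' : ∀ t, Commute (η' t) f') (h : g ∘ₗ f = f' ∘ₗ g) (x : ↥(thetaPart η θ)) :
    thetaMap θ g hg (thetaZ θ f hf x) = thetaZ θ f' hf' (thetaMap θ g hg x) := by
  refine Subtype.ext ?_
  rw [thetaMap_apply, thetaZ_apply, thetaZ_apply, thetaMap_apply]
  exact congrArg (fun F => F x.1) (baseChange_comp_eq 𝒪 h)

/-- `thetaMap` is Hecke-equivariant. -/
theorem thetaMap_thetaEta (g : A →ₗ[ℤ] A') (hg : ∀ t, g ∘ₗ η t = η' t ∘ₗ g) (t : 𝕋)
    (x : ↥(thetaPart η θ)) :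
    thetaMap θ g hg (thetaEta η θ t x) = thetaEta η' θ t (thetaMap θ g hg x) :=
  thetaMap_thetaZ g hg (fun t' => (Commute.all t' t).map η) (fun t' => (Commute.all t' t).map η')
    (hg t) x

/-- `thetaMap` of an injective map is injective (`𝒪` flat over `ℤ`). -/
theorem thetaMap_injective [Module.Flat ℤ 𝒪] (g : A →ₗ[ℤ] A')
    (hg : ∀ t, g ∘ₗ η t = η' t ∘ₗ g) (hinj : Function.Injective g) :
    Function.Injective (thetaMap θ g hg) := by
  have h1 : Function.Injective (g.baseChange 𝒪) := by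
    rw [LinearMap.baseChange_eq_ltensor]
    exact Module.Flat.lTensor_preserves_injective_linearMap g hinj
  intro x y hxy
  have h2 := congrArg Subtype.val hxy
  rw [thetaMap_apply, thetaMap_apply] at h2
  exact Subtype.ext (h1 h2)

/-- the base change of an intertwining map is linear over `𝒪 ⊗ 𝕋` -/
theorem opHom_baseChange (g : A →ₗ[ℤ] A') (hg : ∀ t, g ∘ₗ η t = η' t ∘ₗ g)
    (r : opRing 𝒪 𝕋) (x : 𝒪 ⊗[ℤ] A) :
    g.baseChange 𝒪 (opHom 𝒪 η r x) = opHom 𝒪 η' r (g.baseChange 𝒪 x) := by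
  induction r using TensorProduct.induction_on with
  | zero => simp only [map_zero, LinearMap.zero_apply]
  | tmul a t =>
    rw [opHom_tmul, opHom_tmul, LinearMap.smul_apply, LinearMap.smul_apply, map_smul]
    congr 1
    exact congrArg (fun F => F x) (baseChange_comp_eq 𝒪 (hg t))
  | add r₁ r₂ h₁ h₂ =>
    rw [map_add, map_add, LinearMap.add_apply, LinearMap.add_apply, map_add, h₁, h₂]

/-- `thetaMap` of a surjective map is surjective (on locally finite modules). -/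
theorem thetaMap_surjective (g : A →ₗ[ℤ] A') (hg : ∀ t, g ∘ₗ η t = η' t ∘ₗ g)
    (hsurj : Function.Surjective g) {ϖ : 𝒪}
    (htors : ∀ x : 𝒪 ⊗[ℤ] A, ∃ k : ℕ, ϖ ^ k • x = 0)
    (hfin : Finite (Submodule.torsionBy 𝒪 (𝒪 ⊗[ℤ] A) ϖ)) :
    Function.Surjective (thetaMap θ g hg) := by
  have h1 : Function.Surjective (g.baseChange 𝒪) := by
    rw [LinearMap.baseChange_eq_ltensor]
    exact LinearMap.lTensor_surjective 𝒪 hsurj
  letI i1 := opModule 𝒪 η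
  letI i2 := opModule 𝒪 η'
  have hlf := finite_span_opModule η htors hfin
  let gR : (𝒪 ⊗[ℤ] A) →ₗ[opRing 𝒪 𝕋] (𝒪 ⊗[ℤ] A') :=
    { toFun := g.baseChange 𝒪
      map_add' := fun x y => map_add _ x y
      map_smul' := fun r x => opHom_baseChange g hg r x }
  have hlf' : ∀ y : 𝒪 ⊗[ℤ] A', Finite (Submodule.span (opRing 𝒪 𝕋) {y}) := by
    intro y
    obtain ⟨x, rfl⟩ := h1 y
    haveI := hlf x
    have hmap : Submodule.span (opRing 𝒪 𝕋) {g.baseChange 𝒪 x} =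
        (Submodule.span (opRing 𝒪 𝕋) {x}).map gR := by
      rw [Submodule.map_span, Set.image_singleton]
      rfl
    rw [hmap]
    exact H61.finite_map_of_finite gR _
  intro y
  obtain ⟨x₀, hx₀⟩ := h1 y.1
  have hy : gR x₀ ∈ primPart (Ideal.span (thetaGens 𝒪 θ)) (𝒪 ⊗[ℤ] A') := by
    have : gR x₀ = y.1 := hx₀
    rw [this]
    exact (mem_thetaPart_iff_primPart' η' θ hlf' y.1).mp y.2
  obtain ⟨x, hx, hxx₀⟩ := H61.exists_prim_of_map_prim (Ideal.span (thetaGens 𝒪 θ)) hlf gR x₀ hy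
  refine ⟨⟨x, (mem_thetaPart_iff_primPart' η θ hlf x).mpr hx⟩, Subtype.ext ?_⟩
  rw [thetaMap_apply]
  exact hxx₀.trans hx₀

end Map

/-! ### Change of Hecke algebra -/

section Rest

variable {𝒪 : Type} [CommRing 𝒪] [IsLocalRing 𝒪] {𝕋 : Type} [CommRing 𝕋]
  {𝕋' : Type} [CommRing 𝕋'] {A : Type} [AddCommGroup A]

/-- The `θ`-part for `𝕋` is contained in the `θ ∘ rest`-part for `𝕋'`. -/
theorem thetaPart_le_comp (η : 𝕋 →+* Module.End ℤ A) (θ : 𝕋 →+* ResidueField 𝒪)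
    (rest : 𝕋' →+* 𝕋) : thetaPart η θ ≤ thetaPart (η.comp rest) (θ.comp rest) := by
  intro x hx
  rw [mem_thetaPart] at hx ⊢
  intro t a ha
  exact hx (rest t) a ha

/-- If `rest` is surjective the two parts agree. -/
theorem thetaPart_comp_of_surjective (η : 𝕋 →+* Module.End ℤ A) (θ : 𝕋 →+* ResidueField 𝒪)
    (rest : 𝕋' →+* 𝕋) (h : Function.Surjective rest) :
    thetaPart (η.comp rest) (θ.comp rest) = thetaPart η θ := by
  refine le_antisymm ?_ (thetaPart_le_comp η θ rest)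
  intro x hx
  rw [mem_thetaPart] at hx ⊢
  intro t a ha
  obtain ⟨t', rfl⟩ := h t
  exact hx t' a ha

end Rest

/-! ### The `HDiv` attached to a Hecke module `A` -/

section HDivOf

variable {𝒪 : Type} [CommRing 𝒪] [IsLocalRing 𝒪] {A : Type} [AddCommGroup A]

/-- **LIM-B1 (4)**: the `HDiv` attached to an abelian group with Hecke action whose `𝒪 ⊗ A` is
`IsDiv`. -/
def hdivOf {ϖ : 𝒪} {N : ℕ} [NeZero N] {S : Set ℕ}
    (θ : CuspForm.heckeAlgebra N 2 S →+* ResidueField 𝒪)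
    (η : CuspForm.heckeAlgebra N 2 S →+* Module.End ℤ A) (hW : IsDiv ϖ (𝒪 ⊗[ℤ] A)) :
    HDiv 𝒪 ϖ N S θ where
  W := ↥(thetaPart η θ)
  isDiv := isDiv_thetaPart_of_isDiv η θ hW
  η := thetaEta η θ
  η_local := fun t a ha x _ => thetaEta_local t a ha x

@[simp] theorem hdivOf_W {ϖ : 𝒪} {N : ℕ} [NeZero N] {S : Set ℕ}
    (θ : CuspForm.heckeAlgebra N 2 S →+* ResidueField 𝒪)
    (η : CuspForm.heckeAlgebra N 2 S →+* Module.End ℤ A) (hW : IsDiv ϖ (𝒪 ⊗[ℤ] A)) :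
    (hdivOf θ η hW).W = ↥(thetaPart η θ) := rfl

@[simp] theorem hdivOf_η {ϖ : 𝒪} {N : ℕ} [NeZero N] {S : Set ℕ}
    (θ : CuspForm.heckeAlgebra N 2 S →+* ResidueField 𝒪)
    (η : CuspForm.heckeAlgebra N 2 S →+* Module.End ℤ A) (hW : IsDiv ϖ (𝒪 ⊗[ℤ] A)) :
    (hdivOf θ η hW).η = thetaEta η θ := rfl

end HDivOf

/-! ### Kernels and flat base change -/

section Flat

variable {𝒪 : Type} [CommRing 𝒪] [Module.Flat ℤ 𝒪] {A : Type} [AddCommGroup A]
  {A' : Type} [AddCommGroup A']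

/-- **LIM-B1 (5)**: kernels commute with the flat base change `𝒪 ⊗ -`. -/
theorem ker_baseChange_eq (f : A →ₗ[ℤ] A') :
    LinearMap.ker (f.baseChange 𝒪) =
      LinearMap.range ((LinearMap.ker f).subtype.baseChange 𝒪) := by
  have hex : Function.Exact (LinearMap.ker f).subtype f := fun x => by
    constructor
    · intro hx
      exact ⟨⟨x, hx⟩, rfl⟩
    · rintro ⟨y, rfl⟩
      exact y.2
  have := Module.Flat.lTensor_exact 𝒪 hex
  ext x
  rw [LinearMap.mem_ker, LinearMap.mem_range]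
  have h2 := this x
  rw [← LinearMap.baseChange_eq_ltensor, ← LinearMap.baseChange_eq_ltensor] at h2
  rw [h2]
  rfl

/-- an element of `𝒪 ⊗ A` killed by `f_𝒪` comes from `𝒪 ⊗ ker f` -/
theorem exists_of_baseChange_eq_zero (f : A →ₗ[ℤ] A') {x : 𝒪 ⊗[ℤ] A}
    (hx : f.baseChange 𝒪 x = 0) :
    ∃ y : 𝒪 ⊗[ℤ] ↥(LinearMap.ker f), (LinearMap.ker f).subtype.baseChange 𝒪 y = x := by
  have : x ∈ LinearMap.ker (f.baseChange 𝒪) := hx
  rw [ker_baseChange_eq] at this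
  exact this

end Flat

end Fermat.Agent.S59.Lim.H2

end
end
-- ==== END Fermat.Agent.S59.Lim.H2_Theta

-- ==== BEGIN Fermat.Agent.S59.Lim.H94_AsmGen
section

/-!
# S59, package LIM (helper94): generic transfer lemmas for the assembly `TWDiv ⟹ TWGeom`

Everything here is stated for plain modules `W`, so that the assembly (`H94_Asm.lean`) only has
to instantiate.
-/

set_option autoImplicit false
set_option linter.style.haveILetI false
set_option linter.unusedSectionVars false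

noncomputable section

open IsLocalRing Polynomial

namespace Fermat.Agent.S59.Lim

open Fermat.Agent.S59.TWH

section Cont

variable {𝒪 : Type} [CommRing 𝒪] {ϖ : 𝒪} {W : Type} [AddCommGroup W] [Module 𝒪 W]

/-- From pointwise open stabilisers to a uniform number field on the finite set `W[ϖ^n]`. -/
theorem exists_uniform_field (hW : IsDiv ϖ W)
    (gal : (AlgebraicClosure ℚ ≃ₐ[ℚ] AlgebraicClosure ℚ) →* Module.End 𝒪 W)
    (h : ∀ x : W, ∃ L : IntermediateField ℚ (AlgebraicClosure ℚ),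
      FiniteDimensional ℚ L ∧ ∀ σ : AlgebraicClosure ℚ ≃ₐ[ℚ] AlgebraicClosure ℚ,
        (∀ y ∈ L, σ y = y) → gal σ x = x) (n : ℕ) :
    ∃ L : IntermediateField ℚ (AlgebraicClosure ℚ), FiniteDimensional ℚ L ∧
      ∀ σ : AlgebraicClosure ℚ ≃ₐ[ℚ] AlgebraicClosure ℚ, (∀ x ∈ L, σ x = x) →
        ∀ w : W, ϖ ^ n • w = 0 → gal σ w = w := by
  classical
  haveI := hW.finite_torsionBy_pow n
  choose Lf hLf1 hLf2 using h
  refine ⟨⨆ w : Submodule.torsionBy 𝒪 W (ϖ ^ n), Lf (w : W), ?_, fun σ hσ w hw => ?_⟩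
  · haveI : ∀ w : Submodule.torsionBy 𝒪 W (ϖ ^ n), FiniteDimensional ℚ (Lf (w : W)) :=
      fun w => hLf1 _
    exact IntermediateField.finiteDimensional_iSup_of_finite
  · apply hLf2 w σ
    intro y hy
    apply hσ
    have hle : Lf w ≤ ⨆ w : Submodule.torsionBy 𝒪 W (ϖ ^ n), Lf (w : W) :=
      le_iSup (fun w : Submodule.torsionBy 𝒪 W (ϖ ^ n) => Lf (w : W))
        ⟨w, (Submodule.mem_torsionBy_iff _ _).mpr hw⟩
    exact hle hy

end Cont

section Gen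

variable {𝒪 : Type} [CommRing 𝒪] {ϖ : 𝒪} {W : Type} [AddCommGroup W] [Module 𝒪 W]
  {WM : Type} [AddCommGroup WM] [Module 𝒪 WM]

theorem mapEnd_pow_eq_one {f : Module.End 𝒪 W} {m : ℕ} (h : f ^ m = 1) :
    H2.mapEnd ϖ W f ^ m = 1 := by
  rw [← map_pow, h, map_one]

theorem mapEnd_commute {f g : Module.End 𝒪 W} (h : Commute f g) :
    Commute (H2.mapEnd ϖ W f) (H2.mapEnd ϖ W g) :=
  h.map (H2.mapEnd ϖ W)

/-- transfer of the Eichler–Shimura relation -/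
theorem mapEnd_es {g T : Module.End 𝒪 W} {c : 𝒪}
    (h : g * g - T * g + c • (1 : Module.End 𝒪 W) = 0) :
    H2.mapEnd ϖ W g * H2.mapEnd ϖ W g - H2.mapEnd ϖ W T * H2.mapEnd ϖ W g
      + c • (1 : Module.End 𝒪 (H2.tate ϖ W)) = 0 := by
  have h' := congrArg (H2.mapEnd ϖ W) h
  rw [map_add, map_sub, map_mul, map_mul, map_smul, map_one, map_zero] at h'
  exact h'

/-- transfer of equivariance -/
theorem map_equivariant (π : W →ₗ[𝒪] WM) (T : Module.End 𝒪 W) (T' : Module.End 𝒪 WM)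
    (h : ∀ v, π (T v) = T' (π v)) (v : H2.tate ϖ W) :
    H2.map ϖ π (H2.mapEnd ϖ W T v) = H2.mapEnd ϖ WM T' (H2.map ϖ π v) := by
  apply H2.tate_ext
  intro k
  exact h _

/-- transfer of local–global compatibility -/
theorem map_lg (F s d : Module.End 𝒪 W) (a : 𝒪)
    (h : ∀ x : W, x ∈ gk (F - a • (1 : Module.End 𝒪 W)) → s x = d x)
    (v : H2.tate ϖ W) (hv : v ∈ H2.tateSub ϖ (F.maxGenEigenspace a)) :
    H2.mapEnd ϖ W s v = H2.mapEnd ϖ W d v := by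
  apply H2.tate_ext
  intro k
  have hk := H2.mem_tateSub.mp hv k
  exact h _ ((Module.End.mem_maxGenEigenspace _ _ _).mp hk)

end Gen

end Fermat.Agent.S59.Lim

end
end
-- ==== END Fermat.Agent.S59.Lim.H94_AsmGen
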