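-- GENERATED (merged mirror, NOTES/tools/trim/merge3_helper67.py): 7 modules of the originals, bodies verbatim.
import Fermat.Agent.Zm.S43_L07_000
import Fermat.Agent.Zm.S43_L08_002
import Fermat.Agent.Zm.S43_L02_000
import Fermat.Agent.Zm.S43_L06_000
import Fermat.Agent.Zm.S43_L01_001
import Fermat.Agent.Zm.S35_L06_000
import Fermat.Agent.Zm.S43_L08_000
import Fermat.Agent.Zm.S35_L24_000
import Fermat.Agent.Zm.S35_L15_000
import Fermat.Agent.Zm.S43_L07_001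
import Fermat.Agent.Zm.S43_L08_001
import Fermat.Agent.Zm.S48_L15_000
import Fermat.Agent.Zm.S43_L01_002

-- ==== BEGIN Fermat.Agent.L.Pivot.Geom.H59_LayerA1
section

/-!
# PIVOT, package PV-GEOM, leaf PVG-A' (helper59): freeness of the Tate module over
`𝒪[Δ_Σ × Δ_Q]` and the projection `κ` (abstract modules)

`W` (level `Γ_H'`), `W1` (level `Γ_{H_Q}`, `Γ₀` at the pivot primes), `WM` (minimal level),
`c j` the diamond operators at the pivot primes (`c j ^ (p ^ e j) = 1`), `d i`, `d1 i` those at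
the Taylor–Wiles primes.

* `exists_basis_torsion`  : the tower over `Δ_Q` on `W1[ϖ]` (first half of `exists_basis_tate`);
* `κ_torsion_onto`        : `κ` maps `W[ϖ]` onto `W1[ϖ]`;
* `exists_basis_tate_pv`  : `T_ϖ W` is free over `𝒪[Δ_Σ × Δ_Q]` in the shape of `PVGeom.b_basis`;
* `map_κ_surjective`, `ker_map_κ` : `T_ϖ κ` is onto with kernel `∑ (c_j - 1) T_ϖ W`.
-/

set_option autoImplicit false
set_option linter.style.haveILetI false
set_option linter.unusedSectionVars false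

noncomputable section

open IsLocalRing

namespace Fermat.Agent.L.Pivot.Geom.H59

open Fermat.Agent.S59.TWH Fermat.Agent.S59.Lim

/-! ### Transport of `nmTotE` -/

section Transfer

variable {A A' : Type*} [CommRing A] [CommRing A'] {V V' : Type*} [AddCommGroup V] [Module A V]
  [AddCommGroup V'] [Module A' V'] (Φ : Module.End A V →+* Module.End A' V')

theorem map_nmTotE {r : ℕ} (m : Fin r → ℕ) (c : Fin r → Module.End A V) :
    Φ (nmTotE m c) = nmTotE m (fun j => Φ (c j)) := by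
  rw [nmTotE, nmTotE, map_list_prod, List.map_ofFn]
  congr 1
  apply congrArg
  funext j
  exact map_nm Φ (m j) (c j)

end Transfer

section Res

variable {𝒪 : Type*} [CommRing 𝒪] (ϖ : 𝒪) {W : Type*} [AddCommGroup W] [Module 𝒪 W]
  {W' : Type*} [AddCommGroup W'] [Module 𝒪 W']

theorem resT_nmTotE {r : ℕ} (m : Fin r → ℕ) (d : Fin r → Module.End 𝒪 W)
    (v : Submodule.torsionBy 𝒪 W ϖ) :
    ((nmTotE m (fun j => resT ϖ (d j)) v : Submodule.torsionBy 𝒪 W ϖ) : W)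
      = nmTotE m d (v : W) := by
  rw [← map_nmTotE (resT ϖ) m d]
  rfl

theorem mapEnd_nmTotE {r : ℕ} (m : Fin r → ℕ) (d : Fin r → Module.End 𝒪 W) :
    nmTotE m (fun j => H2.mapEnd ϖ W (d j)) = H2.mapEnd ϖ W (nmTotE m d) :=
  (map_nmTotE ((H2.mapEnd ϖ W : Module.End 𝒪 W →ₐ[𝒪] Module.End 𝒪 (H2.tate ϖ W)) :
    Module.End 𝒪 W →+* Module.End 𝒪 (H2.tate ϖ W)) m d).symm

/-- The restriction of a linear map to the `ϖ`-torsion, linear over `𝒪 ⧸ (ϖ)`. -/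
def resL (f : W →ₗ[𝒪] W') :
    Submodule.torsionBy 𝒪 W ϖ →ₗ[𝒪 ⧸ Ideal.span {ϖ}] Submodule.torsionBy 𝒪 W' ϖ where
  toFun y := ⟨f (y : W), by
    rw [Submodule.mem_torsionBy_iff, ← map_smul, (Submodule.mem_torsionBy_iff _ _).mp y.2,
      map_zero]⟩
  map_add' x y := Subtype.ext (map_add f _ _)
  map_smul' a x := by
    obtain ⟨a, rfl⟩ := Ideal.Quotient.mk_surjective a
    apply Subtype.ext
    show f (a • (x : W)) = a • f (x : W)
    rw [map_smul]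

@[simp]
theorem coe_resL (f : W →ₗ[𝒪] W') (x : Submodule.torsionBy 𝒪 W ϖ) :
    ((resL ϖ f x : Submodule.torsionBy 𝒪 W' ϖ) : W') = f (x : W) := rfl

theorem resL_injective {f : W →ₗ[𝒪] W'} (hf : Function.Injective f) :
    Function.Injective (resL ϖ f) := by
  intro x y hxy
  apply Subtype.ext
  apply hf
  exact congrArg Subtype.val hxy

end Res

/-! ### Reindexing a sum map -/

section Reindex

variable {A : Type*} [CommRing A] {V : Type*} [AddCommGroup V] [Module A V]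

theorem bijective_sum_equiv {X Y : Type*} [Fintype X] [Fintype Y] (e : X ≃ Y) (F : Y → V)
    (h : Function.Bijective (fun f : Y → A => ∑ y, f y • F y)) :
    Function.Bijective (fun f : X → A => ∑ x, f x • F (e x)) := by
  have h1 : (fun f : X → A => ∑ x, f x • F (e x))
      = (fun f : Y → A => ∑ y, f y • F y) ∘ (fun f : X → A => fun y => f (e.symm y)) := by
    funext f
    simp only [Function.comp_apply]
    refine Fintype.sum_equiv e _ _ fun x => ?_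
    rw [Equiv.symm_apply_apply]
  rw [h1]
  refine h.comp ?_
  constructor
  · intro f g hfg
    funext x
    have := congrFun hfg (e x)
    simpa using this
  · intro g
    refine ⟨fun x => g (e x), ?_⟩
    funext y
    simp

end Reindex

/-! ### The towers -/

section Main

variable {𝒪 : Type} [CommRing 𝒪] [IsDomain 𝒪] [IsDiscreteValuationRing 𝒪]
  [IsAdicComplete (maximalIdeal 𝒪) 𝒪] {ϖ : 𝒪}
  {W W1 WM : Type} [AddCommGroup W] [Module 𝒪 W] [AddCommGroup W1] [Module 𝒪 W1]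
  [AddCommGroup WM] [Module 𝒪 WM]

omit [IsAdicComplete (maximalIdeal 𝒪) 𝒪] in
theorem torsion_pgroup (hϖ : Irreducible ϖ) {p : ℕ} (hp : (p : 𝒪) ∈ maximalIdeal 𝒪)
    (v : Submodule.torsionBy 𝒪 W ϖ) : ∃ m : ℕ, (p ^ m) • v = 0 := by
  refine ⟨1, ?_⟩
  apply Subtype.ext
  rw [pow_one]
  show (p : ℕ) • (v : W) = 0
  rw [← Nat.cast_smul_eq_nsmul 𝒪]
  exact natCast_smul_eq_zero_of_torsion hϖ hp _ ((Submodule.mem_torsionBy_iff _ _).mp v.2)

omit [IsDomain 𝒪] [IsDiscreteValuationRing 𝒪] [IsAdicComplete (maximalIdeal 𝒪) 𝒪] in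
/-- the layer-norm hypothesis on `W[ϖ]`, for the restricted operators. -/
theorem hstep_resT {r : ℕ} (m : Fin r → ℕ) (d : Fin r → Module.End 𝒪 W)
    (hstep : ∀ (j : Fin r) (v : W), ϖ • v = 0 → (∀ i, i ≤ j → d i v = v) →
      ∃ w : W, ϖ • w = 0 ∧ (∀ i, i < j → d i w = w) ∧ H90.nm (m j) (d j) w = v)
    (j : Fin r) (v : Submodule.torsionBy 𝒪 W ϖ) (hv : ∀ i, i ≤ j → resT ϖ (d i) v = v) :
    ∃ w, (∀ i, i < j → resT ϖ (d i) w = w) ∧ H90.nm (m j) (resT ϖ (d j)) w = v := by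
  obtain ⟨w, hw0, hw1, hw2⟩ := hstep j (v : W) ((Submodule.mem_torsionBy_iff _ _).mp v.2)
    (fun i hi => congrArg Subtype.val (hv i hi))
  refine ⟨⟨w, (Submodule.mem_torsionBy_iff _ _).mpr hw0⟩, fun i hi => Subtype.ext (hw1 i hi),
    ?_⟩
  apply Subtype.ext
  rw [resT_nm]
  exact hw2

/-- **The tower over `Δ_Q` on `W1[ϖ]`** (first half of `Lim.exists_basis_tate`). -/
theorem exists_basis_torsion (hϖ : Irreducible ϖ) {p : ℕ} [Fact p.Prime]
    (hp : (p : 𝒪) ∈ maximalIdeal 𝒪) (n r : ℕ)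
    (hW : IsDiv ϖ W1) (hWM : IsDiv ϖ WM)
    (d : Fin r → Module.End 𝒪 W1) (d_pow : ∀ j, d j ^ (p ^ n) = 1)
    (d_comm : ∀ i j, Commute (d i) (d j))
    (hstep : ∀ (j : Fin r) (v : W1), ϖ • v = 0 → (∀ i, i ≤ j → d i v = v) →
      ∃ w : W1, ϖ • w = 0 ∧ (∀ i, i < j → d i w = w) ∧ H90.nm (p ^ n) (d j) w = v)
    (πup : WM →ₗ[𝒪] W1) (πup_inj : Function.Injective πup)
    (d_πup : ∀ (j : Fin r) (y : WM), d j (πup y) = πup y)
    (inv : ∀ v : W1, ϖ • v = 0 → (∀ j, d j v = v) → ∃ y : WM, πup y = v) :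
    ∃ (rk : ℕ) (b₁ : Fin rk → Submodule.torsionBy 𝒪 W1 ϖ),
      LinearIndependent (𝒪 ⧸ Ideal.span {ϖ}) (H90.fam (p ^ n) (fun j => resT ϖ (d j)) b₁) ∧
      Submodule.span (𝒪 ⧸ Ideal.span {ϖ})
        (Set.range (H90.fam (p ^ n) (fun j => resT ϖ (d j)) b₁)) = ⊤ := by
  classical
  haveI hmax : (Ideal.span {ϖ}).IsMaximal := PrincipalIdealRing.isMaximal_of_irreducible hϖ
  letI : Field (𝒪 ⧸ Ideal.span {ϖ}) := Ideal.Quotient.field _
  haveI := hW.fin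
  haveI := hWM.fin
  set c : Fin r → Module.End (𝒪 ⧸ Ideal.span {ϖ}) (Submodule.torsionBy 𝒪 W1 ϖ) :=
    fun j => resT ϖ (d j) with hcdef
  have hcomm : ∀ i j, Commute (c i) (c j) := fun i j => (d_comm i j).map (resT ϖ)
  have hc : ∀ j, c j ^ (p ^ n) = 1 := fun j => by
    rw [hcdef]
    show resT ϖ (d j) ^ (p ^ n) = 1
    rw [← map_pow, d_pow, map_one]
  have hV : ∀ v : Submodule.torsionBy 𝒪 W1 ϖ, ∃ m : ℕ, (p ^ m) • v = 0 :=
    fun v => torsion_pgroup hϖ hp v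
  have hstep' : ∀ (j : Fin r) (v : Submodule.torsionBy 𝒪 W1 ϖ), (∀ i, i ≤ j → c i v = v) →
      ∃ w, (∀ i, i < j → c i w = w) ∧ H90.nm (p ^ n) (c j) w = v :=
    fun j v hv => hstep_resT (fun _ => p ^ n) d hstep j v hv
  have hπk_inj : Function.Injective (resL ϖ πup) := resL_injective ϖ πup_inj
  haveI : Module.Finite (𝒪 ⧸ Ideal.span {ϖ}) (Submodule.torsionBy 𝒪 WM ϖ) :=
    Module.Finite.of_finite
  let B := Module.finBasis (𝒪 ⧸ Ideal.span {ϖ}) (Submodule.torsionBy 𝒪 WM ϖ)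
  set e : Fin (Module.finrank (𝒪 ⧸ Ideal.span {ϖ}) (Submodule.torsionBy 𝒪 WM ϖ)) →
      Submodule.torsionBy 𝒪 W1 ϖ := fun i => resL ϖ πup (B i) with hedef
  have he_fix : ∀ i j, c j (e i) = e i := fun i j => Subtype.ext (d_πup j _)
  have he_li : LinearIndependent (𝒪 ⧸ Ideal.span {ϖ}) e :=
    B.linearIndependent.map' (resL ϖ πup) (LinearMap.ker_eq_bot.mpr hπk_inj)
  have he_span : ∀ v, (∀ j, c j v = v) →
      v ∈ Submodule.span (𝒪 ⧸ Ideal.span {ϖ}) (Set.range e) := by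
    intro v hv
    obtain ⟨y, hy⟩ := inv (v : W1) ((Submodule.mem_torsionBy_iff _ _).mp v.2)
      (fun j => congrArg Subtype.val (hv j))
    have hy0 : ϖ • y = 0 := by
      apply πup_inj
      rw [map_smul, hy, map_zero]
      exact (Submodule.mem_torsionBy_iff _ _).mp v.2
    have hv' : v = resL ϖ πup ⟨y, (Submodule.mem_torsionBy_iff _ _).mpr hy0⟩ :=
      Subtype.ext hy.symm
    rw [hv']
    have h1 : (⟨y, (Submodule.mem_torsionBy_iff _ _).mpr hy0⟩ : Submodule.torsionBy 𝒪 WM ϖ)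
        ∈ Submodule.span (𝒪 ⧸ Ideal.span {ϖ}) (Set.range B) := by
      rw [B.span_eq]
      exact Submodule.mem_top
    have h2 := Submodule.apply_mem_span_image_of_mem_span (resL ϖ πup) h1
    have h3 : ((resL ϖ πup) '' Set.range B) = Set.range e := by
      rw [← Set.range_comp]
      rfl
    rw [h3] at h2
    exact h2
  obtain ⟨b₁, -, h1, h2, -⟩ := H90.tower_basis n r hV c hcomm hc hstep' e he_fix he_li he_span
  exact ⟨_, b₁, h1, h2⟩

omit [IsDomain 𝒪] [IsDiscreteValuationRing 𝒪] [IsAdicComplete (maximalIdeal 𝒪) 𝒪] in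
/-- `κ` maps `W[ϖ]` onto `W1[ϖ]`. -/
theorem κ_torsion_onto {k : ℕ} (m : Fin k → ℕ)
    (c : Fin k → Module.End 𝒪 W) (c_comm : ∀ i j, Commute (c i) (c j))
    (hstep : ∀ (j : Fin k) (v : W), ϖ • v = 0 → (∀ i, i ≤ j → c i v = v) →
      ∃ w : W, ϖ • w = 0 ∧ (∀ i, i < j → c i w = w) ∧ H90.nm (m j) (c j) w = v)
    (κ : W →ₗ[𝒪] W1) (κup : W1 →ₗ[𝒪] W) (κup_inj : Function.Injective κup)
    (κup_κ : ∀ x : W, κup (κ x) = nmTotE m c x)
    (c_κup : ∀ (j : Fin k) (y : W1), c j (κup y) = κup y)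
    (y : W1) (hy : ϖ • y = 0) : ∃ w : W, ϖ • w = 0 ∧ κ w = y := by
  classical
  have hcomm : ∀ i j, Commute (resT ϖ (c i)) (resT ϖ (c j)) :=
    fun i j => (c_comm i j).map (resT ϖ)
  have hv0 : κup y ∈ Submodule.torsionBy 𝒪 W ϖ := by
    rw [Submodule.mem_torsionBy_iff, ← map_smul, hy, map_zero]
  obtain ⟨w, hw⟩ := exists_nmTotE_eq k m (Submodule.torsionBy 𝒪 W ϖ)
    (fun j => resT ϖ (c j)) hcomm (hstep_resT m c hstep)
    ⟨κup y, hv0⟩ (fun j => Subtype.ext (c_κup j y))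
  refine ⟨(w : W), (Submodule.mem_torsionBy_iff _ _).mp w.2, ?_⟩
  apply κup_inj
  rw [κup_κ]
  have := congrArg Subtype.val hw
  rw [resT_nmTotE] at this
  exact this

/-- `T_ϖ κ` is onto. -/
theorem map_κ_surjective (hϖ : Irreducible ϖ) {k : ℕ} (m : Fin k → ℕ)
    (hW : IsDiv ϖ W) (hW1 : IsDiv ϖ W1)
    (c : Fin k → Module.End 𝒪 W) (c_comm : ∀ i j, Commute (c i) (c j))
    (hstep : ∀ (j : Fin k) (v : W), ϖ • v = 0 → (∀ i, i ≤ j → c i v = v) →
      ∃ w : W, ϖ • w = 0 ∧ (∀ i, i < j → c i w = w) ∧ H90.nm (m j) (c j) w = v)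
    (κ : W →ₗ[𝒪] W1) (κup : W1 →ₗ[𝒪] W) (κup_inj : Function.Injective κup)
    (κup_κ : ∀ x : W, κup (κ x) = nmTotE m c x)
    (c_κup : ∀ (j : Fin k) (y : W1), c j (κup y) = κup y) :
    Function.Surjective (H2.map ϖ κ) := by
  haveI : Module.Finite 𝒪 (H2.tate ϖ W1) := H2.finite_tate_dvr hϖ hW1.div hW1.fg_torsionBy
  exact H2.map_surjective (mem_maximalIdeal_of_irreducible hϖ) hW.div κ
    (fun y hy => κ_torsion_onto m c c_comm hstep κ κup κup_inj κup_κ c_κup y hy)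

omit [IsDomain 𝒪] [IsDiscreteValuationRing 𝒪] [IsAdicComplete (maximalIdeal 𝒪) 𝒪] in
/-- The kernel of `T_ϖ κ` is the kernel of the total norm. -/
theorem ker_map_κ_eq_ker_nmTotE {k : ℕ} (m : Fin k → ℕ)
    (c : Fin k → Module.End 𝒪 W)
    (κ : W →ₗ[𝒪] W1) (κup : W1 →ₗ[𝒪] W) (κup_inj : Function.Injective κup)
    (κup_κ : ∀ x : W, κup (κ x) = nmTotE m c x) :
    LinearMap.ker (H2.map ϖ κ)
      = LinearMap.ker (nmTotE m (fun j => H2.mapEnd ϖ W (c j))) := by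
  ext x
  rw [LinearMap.mem_ker, LinearMap.mem_ker, mapEnd_nmTotE, H2.mapEnd_apply,
    H2.map_apply_eq_zero_iff, H2.map_apply_eq_zero_iff]
  refine forall_congr' fun k => ?_
  rw [← κup_κ]
  constructor
  · intro h
    rw [h, map_zero]
  · intro h
    apply κup_inj
    rw [h, map_zero]

end Main

end Fermat.Agent.L.Pivot.Geom.H59

end
end
-- ==== END Fermat.Agent.L.Pivot.Geom.H59_LayerA1

-- ==== BEGIN Fermat.Agent.L.Pivot.Geom.H81_NewAsmGen
section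

/-!
# PIVOT, PV-GEOM, leaf PVG-NEW-ASM (helper81), part 2: generic lemmas

* `polyEndH81` : the ring homomorphism `ℤ[X_i] → E` of a commuting family;
* `eigen_of_gens` : an eigenvector of the generators is an eigenvector of the polynomial ring;
* `finiteDimensional_Vsp` : `Vsp ι ms ⊆ Hom(Γ, L)` is finite-dimensional;
* `polyEnd_gen`, `eta_eq_zero_of_rhoV` : the ANNIHILATOR TRANSFER `ker ρ_V ≤ ker ρ_A`
  (`ρ_V` on the span of the characters of `T_p A`, `ρ_A` on `A`);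
* `thetaEta_eq_zero_of` ;
* `padic_hom_injective` : ring homomorphisms `ℤ_[p] → R` (`R` a domain of characteristic `0`)
  are injective;
* `lin_typeSub_nosat` : helper3's PVG-LIN WITHOUT the saturation hypothesis;
* `exists_prod_eq_mul`, `not_sq_dvd_div`: arithmetic of `N c²`, `c` a product of distinct primes.
-/

set_option autoImplicit false

open IsLocalRing TensorProduct

namespace Fermat.Agent.L.Pivot.Geom.H81

open CongruenceSubgroup Matrix.SpecialLinearGroup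
open scoped MatrixGroups
open Fermat.Agent.NEB.EIG.H39 Fermat.Agent.Betti
open Fermat.Agent.S59.Lim Fermat.Agent.L.Pivot

/-! ### Polynomial rings acting through commuting operators -/

section Poly

/-- The ring homomorphism from a polynomial ring to a (non-commutative) ring `E` given by a
commuting family. -/
noncomputable def polyEndH81 {σ : Type} {E : Type} [Ring E] (f : σ → E)
    (hf : ∀ i j, Commute (f i) (f j)) : MvPolynomial σ ℤ →+* E :=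
  letI : CommRing ↥(Algebra.adjoin ℤ (Set.range f)) :=
    { (inferInstance : Ring ↥(Algebra.adjoin ℤ (Set.range f))) with
      mul_comm := by
        haveI := Algebra.isMulCommutative_adjoin ℤ (s := Set.range f) (by
          rintro _ ⟨i, rfl⟩ _ ⟨j, rfl⟩
          exact (hf i j).eq)
        exact fun a b => mul_comm' a b }
  (Algebra.adjoin ℤ (Set.range f)).val.toRingHom.comp
    (MvPolynomial.aeval (R := ℤ) (S₁ := ↥(Algebra.adjoin ℤ (Set.range f)))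
      (fun i => (⟨f i, Algebra.subset_adjoin ⟨i, rfl⟩⟩ :
        ↥(Algebra.adjoin ℤ (Set.range f))))).toRingHom

theorem polyEndH81_X {σ : Type} {E : Type} [Ring E] (f : σ → E)
    (hf : ∀ i j, Commute (f i) (f j)) (i : σ) :
    polyEndH81 f hf (MvPolynomial.X i) = f i := by
  unfold polyEndH81
  simp

/-- An eigenvector of the generators is an eigenvector of the whole polynomial ring. -/
theorem eigen_of_gens {σ : Type} {L : Type} [Field L] {E : Type*} [AddCommGroup E] [Module L E]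
    (ρ : MvPolynomial σ ℤ →+* Module.End L E) (lam : σ → L) (v : E)
    (h : ∀ i, ρ (MvPolynomial.X i) v = lam i • v) (f : MvPolynomial σ ℤ) :
    ρ f v = (MvPolynomial.eval₂Hom (Int.castRingHom L) lam f) • v := by
  induction f using MvPolynomial.induction_on with
  | C a =>
    rw [show (MvPolynomial.C a : MvPolynomial σ ℤ) = ((a : ℤ) : MvPolynomial σ ℤ) from
      eq_intCast (MvPolynomial.C : ℤ →+* MvPolynomial σ ℤ) a, map_intCast, map_intCast,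
      Module.End.intCast_apply, Int.cast_smul_eq_zsmul]
  | add f g hf hg => rw [map_add, map_add, LinearMap.add_apply, hf, hg, add_smul]
  | mul_X f i hf =>
    rw [map_mul, map_mul, Module.End.mul_apply, h i, map_smul, hf, smul_smul, mul_comm]
    congr 2
    simp

end Poly

/-! ### Finite-dimensionality -/

section FinDim

theorem Gamma_le_Gam1_h81 (M c : ℕ) : Gamma (M * c) ≤ Gam1 M c := by
  intro γ hγ
  rw [Gamma_mem] at hγ
  obtain ⟨h00, -, h10, -⟩ := hγ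
  have h1 : ((M * c : ℕ) : ℤ) ∣ γ 1 0 := (ZMod.intCast_zmod_eq_zero_iff_dvd _ _).mp h10
  have h2 : ((M * c : ℕ) : ℤ) ∣ γ 0 0 - 1 := by
    apply (ZMod.intCast_zmod_eq_zero_iff_dvd _ _).mp
    push_cast
    rw [h00, sub_self]
  have hM : (M : ℤ) ∣ ((M * c : ℕ) : ℤ) := by
    rw [Nat.cast_mul]
    exact dvd_mul_right _ _
  have hc : (c : ℤ) ∣ ((M * c : ℕ) : ℤ) := by
    rw [Nat.cast_mul]
    exact dvd_mul_left _ _
  exact ⟨hM.trans h1, hc.trans h1, hc.trans h2⟩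

theorem finite_quot_Gam1_h81 (M c : ℕ) (hM : M ≠ 0) (hc : c ≠ 0) :
    Finite (SL(2, ℤ) ⧸ Gam1 M c) := by
  haveI : NeZero (M * c) := ⟨mul_ne_zero hM hc⟩
  haveI : (Gam1 M c).FiniteIndex := Subgroup.finiteIndex_of_le (Gamma_le_Gam1_h81 M c)
  exact Subgroup.finite_quotient_of_finiteIndex

theorem finiteDimensional_hom_Gam1 (M c : ℕ) (hM : M ≠ 0) (hc : c ≠ 0) (L : Type) [Field L] :
    FiniteDimensional L (Additive (Gam1 M c) →+ L) := by
  haveI := finite_quot_Gam1_h81 M c hM hc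
  exact Fermat.Agent.Betti.H77.finite_homK L (Gam1 M c) SpecialLinearGroup.SL2Z_generators

theorem finiteDimensional_Vsp {p : ℕ} [Fact p.Prime] {M c : ℕ} {A : Type} [AddCommGroup A]
    {L : Type} [Field L] (ι : ℤ_[p] →+* L) (ms : MonoSys p M c A) (hM : M ≠ 0) (hc : c ≠ 0) :
    FiniteDimensional L ↥(Vsp ι ms) := by
  haveI := finiteDimensional_hom_Gam1 M c hM hc L
  exact FiniteDimensional.finiteDimensional_submodule _

end FinDim

/-! ### The annihilator transfer -/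

section Ann

variable {T₀ : Type} [AddCommGroup T₀] {L : Type} [Field L] {V : Type} [AddCommGroup V]
  [Module L V] (gn : T₀ →ₗ[ℤ] V)
  {𝕋 : Type} [CommRing 𝕋] (e : 𝕋 →+* Module.End ℤ T₀) {σ : Type} (g : σ → 𝕋)
  (ρV : MvPolynomial σ ℤ →+* Module.End L V)

/-- If the generators of the polynomial ring act compatibly on `V` and on `T₀`, so does the whole
ring. -/
theorem polyEnd_gen
    (h : ∀ i ξ, ρV (MvPolynomial.X i) (gn ξ) = gn (e (g i) ξ))
    (f : MvPolynomial σ ℤ) (ξ : T₀) :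
    ρV f (gn ξ) = gn (e (MvPolynomial.eval₂Hom (Int.castRingHom 𝕋) g f) ξ) := by
  induction f using MvPolynomial.induction_on generalizing ξ with
  | C a =>
    have e0 : (MvPolynomial.C a : MvPolynomial σ ℤ) = ((a : ℤ) : MvPolynomial σ ℤ) :=
      eq_intCast (MvPolynomial.C : ℤ →+* MvPolynomial σ ℤ) a
    have e1 : ρV ((a : ℤ) : MvPolynomial σ ℤ) = ((a : ℤ) : Module.End L V) :=
      map_intCast ρV a
    have e2 : e (MvPolynomial.eval₂Hom (Int.castRingHom 𝕋) g ((a : ℤ) : MvPolynomial σ ℤ))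
        = ((a : ℤ) : Module.End ℤ T₀) := by
      rw [map_intCast, map_intCast]
    rw [e0, e1, e2, Module.End.intCast_apply, Module.End.intCast_apply, map_zsmul]
  | add f f' hf hf' =>
    rw [map_add, map_add, map_add, LinearMap.add_apply, LinearMap.add_apply, map_add,
      hf, hf']
  | mul_X f i hf =>
    rw [map_mul, map_mul, map_mul, Module.End.mul_apply, Module.End.mul_apply, h i ξ,
      hf]
    congr 3
    simp

/-- **Annihilator transfer**: an element of the polynomial ring which kills `V` kills `T₀`. -/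
theorem eq_zero_of_rhoV (hgn : Function.Injective gn)
    (h : ∀ i ξ, ρV (MvPolynomial.X i) (gn ξ) = gn (e (g i) ξ))
    (f : MvPolynomial σ ℤ) (h0 : ρV f = 0) :
    e (MvPolynomial.eval₂Hom (Int.castRingHom 𝕋) g f) = 0 := by
  refine LinearMap.ext fun ξ => ?_
  apply hgn
  rw [← polyEnd_gen gn e g ρV h f ξ, h0, LinearMap.zero_apply, LinearMap.zero_apply, map_zero]

end Ann

section Theta

variable {𝒪 : Type} [CommRing 𝒪] [IsLocalRing 𝒪] {𝕋 : Type} [CommRing 𝕋]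
  {A : Type} [AddCommGroup A] (η : 𝕋 →+* Module.End ℤ A) (θ : 𝕋 →+* ResidueField 𝒪)

theorem thetaEta_eq_zero_of (t : 𝕋) (h : η t = 0) : H2.thetaEta η θ t = 0 := by
  refine LinearMap.ext fun x => Subtype.ext ?_
  rw [H2.thetaEta_apply, h, LinearMap.baseChange_zero]
  rfl

end Theta

/-! ### Ring homomorphisms from `ℤ_[p]` -/

section Padic

theorem padic_hom_injective {p : ℕ} [Fact p.Prime] {R : Type*} [CommRing R] [IsDomain R]
    [CharZero R] (f : ℤ_[p] →+* R) : Function.Injective f := by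
  rw [injective_iff_map_eq_zero]
  intro x hx
  by_contra hx0
  have h1 := PadicInt.unitCoeff_spec hx0
  rw [h1, map_mul, map_pow, map_natCast] at hx
  have hp : ((p : ℕ) : R) ≠ 0 := Nat.cast_ne_zero.mpr (Fact.out : p.Prime).ne_zero
  have hu : IsUnit (f ((PadicInt.unitCoeff hx0 : ℤ_[p]ˣ) : ℤ_[p])) :=
    (PadicInt.unitCoeff hx0).isUnit.map f
  rcases mul_eq_zero.mp hx with h | h
  · exact hu.ne_zero h
  · exact pow_ne_zero _ hp h

end Padic

/-! ### PVG-LIN without saturation -/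

section Lin

variable {𝒪 : Type} [CommRing 𝒪] {F : Type} [AddCommGroup F] [Module 𝒪 F]

/-- **PVG-LIN without the saturation hypothesis** (variant of helper3's `H3.lin_tensor`): if `t`
kills the `ψ`-eigenvectors then `N t` maps `F` into `typeSub c ψ` for some `N ≠ 0` in `ℕ`, so
`N χ(t) = 0` and `χ(t) = 0` because `D` has characteristic `0`. -/
theorem lin_typeSub_nosat [IsDomain 𝒪] [CharZero 𝒪] {L : Type*} [Field L] [Algebra 𝒪 L]
    [IsAlgClosed L] (hL : Function.Injective (algebraMap 𝒪 L)) [Module.Finite 𝒪 F]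
    [Module.Free 𝒪 F] {k : ℕ} (c : Fin k → Module.End 𝒪 F) (n : Fin k → ℕ) (hn : ∀ j, 0 < n j)
    (hc : ∀ j, c j ^ n j = 1) (hcc : ∀ i j, Commute (c i) (c j))
    (ψ : Fin k → 𝒪) (hψ : ∀ j, ψ j ^ n j = 1)
    {𝕋 : Type*} [CommRing 𝕋] [Algebra.IsIntegral ℤ 𝕋] (η : 𝕋 →+* Module.End 𝒪 F)
    (hηc : ∀ t j, Commute (η t) (c j))
    {D : Type*} [CommRing D] [IsDomain D] [CharZero D] (χ : 𝕋 →+* D)
    (hχ : ∀ t, (∀ v, η t v ∈ typeSub c ψ) → χ t = 0) :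
    ∃ χ' : 𝕋 →+* L, RingHom.ker χ' = RingHom.ker χ ∧ ∃ v : L ⊗[𝒪] F, v ≠ 0 ∧
      (∀ t, (η t).baseChange L v = χ' t • v) ∧
      (∀ j, (c j).baseChange L v = algebraMap 𝒪 L (ψ j) • v) := by
  classical
  -- the eigenspace
  obtain ⟨V, hV⟩ : ∃ V : Submodule L (L ⊗[𝒪] F),
      ∀ v, v ∈ V ↔ ∀ j, (c j).baseChange L v = algebraMap 𝒪 L (ψ j) • v := by
    refine ⟨⨅ j, LinearMap.ker ((c j).baseChange L -
      algebraMap 𝒪 L (ψ j) • (1 : Module.End L (L ⊗[𝒪] F))), fun v => ?_⟩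
    simp only [Submodule.mem_iInf, LinearMap.mem_ker, LinearMap.sub_apply,
      LinearMap.smul_apply, Module.End.one_apply, sub_eq_zero]
  have hcomm : ∀ t j v, (c j).baseChange L ((η t).baseChange L v) =
      (η t).baseChange L ((c j).baseChange L v) := by
    intro t j v
    have h1 := congrArg (fun f : Module.End 𝒪 F => f.baseChange L) (hηc t j).eq
    simp only [LinearMap.baseChange_mul] at h1
    have h2 := congrArg (fun f : Module.End L (L ⊗[𝒪] F) => f v) h1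
    simp only [Module.End.mul_apply] at h2
    exact h2.symm
  have hstab : ∀ t, ∀ v ∈ V, (η t).baseChange L v ∈ V := by
    intro t v hv
    rw [hV] at hv ⊢
    intro j
    rw [hcomm, hv j, map_smul]
  obtain ⟨ρV, hρV⟩ : ∃ ρV : 𝕋 →+* Module.End L V,
      ∀ t (v : V), ((ρV t v : V) : L ⊗[𝒪] F) = (η t).baseChange L (v : L ⊗[𝒪] F) :=
    ⟨H3.restrictRingHom (((Module.End.baseChangeHom 𝒪 L F :
      Module.End 𝒪 F →ₐ[𝒪] Module.End L (L ⊗[𝒪] F)) :
      Module.End 𝒪 F →+* Module.End L (L ⊗[𝒪] F)).comp η) V hstab, fun t v => rfl⟩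
  -- the kernel
  have hker : RingHom.ker ρV ≤ RingHom.ker χ := by
    intro t ht
    rw [RingHom.mem_ker] at ht ⊢
    obtain ⟨N, P, hN, hPc, hPe, hPr⟩ := H3.exists_proj c n hn hc hcc ψ hψ Finset.univ
    have hkill : ∀ m : F, (∀ j, c j m = ψ j • m) → η t m = 0 := by
      intro m hm
      apply H3.tmul_one_injective (L := L) hL
      have hmV : (1 : L) ⊗ₜ[𝒪] m ∈ V := by
        rw [hV]
        intro j
        rw [LinearMap.baseChange_tmul, hm j, TensorProduct.tmul_smul, algebraMap_smul]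
      have h1 := hρV t ⟨_, hmV⟩
      rw [ht] at h1
      simp only [LinearMap.zero_apply, Submodule.coe_zero, LinearMap.baseChange_tmul] at h1
      exact h1.symm
    have h4 : (⨆ j ∈ (Finset.univ : Finset (Fin k)),
        LinearMap.range (c j - ψ j • (1 : Module.End 𝒪 F))) = typeSub c ψ := by
      simp [typeSub]
    have h5 : χ ((N : 𝕋) * t) = 0 := by
      apply hχ
      intro v
      have h1 : η t (P v) = 0 := hkill (P v) (fun j => hPe j (Finset.mem_univ j) v)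
      have h2 : P (η t v) = 0 := by
        have := congrArg (fun f : Module.End 𝒪 F => f v) (hPc (η t) (hηc t)).eq
        simp only [Module.End.mul_apply] at this
        rw [← this, h1]
      have h3 := hPr (η t v)
      rw [h2, sub_zero, h4] at h3
      have h6 : η ((N : 𝕋) * t) v = (N : 𝒪) • η t v := by
        rw [map_mul, map_natCast, Module.End.mul_apply, Module.End.natCast_apply,
          Nat.cast_smul_eq_nsmul]
      rw [h6]
      exact h3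
    rw [map_mul, map_natCast] at h5
    rcases mul_eq_zero.mp h5 with h | h
    · exact absurd (Nat.cast_eq_zero.mp h) hN.ne'
    · exact h
  have : (RingHom.ker χ).IsPrime := RingHom.ker_isPrime χ
  have hmin : RingHom.ker χ ∈ (RingHom.ker ρV).minimalPrimes := by
    refine H3.mem_minimalPrimes_of_integral _ _ hker ?_
    intro m hm
    rw [RingHom.mem_ker, map_intCast] at hm
    exact_mod_cast hm
  have hfinE : Module.Finite L (L ⊗[𝒪] F) := Module.Finite.base_change 𝒪 L F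
  have hfinV : FiniteDimensional L V := FiniteDimensional.finiteDimensional_submodule V
  have key := @H3.exists_eigen_of_minimalPrime L _ _ V _ _ hfinV 𝕋 _ ρV (RingHom.ker χ) hmin
  obtain ⟨χ', hχ', v, hv0, hv⟩ := key
  refine ⟨χ', hχ', (v : L ⊗[𝒪] F), ?_, ?_, ?_⟩
  · intro h
    exact hv0 (Subtype.ext h)
  · intro t
    rw [← hρV, hv t]
    rfl
  · exact (hV _).mp v.2

end Lin

/-! ### Arithmetic of `N c²` -/

section Arith

/-- A prime of a list of distinct primes divides the product exactly once. -/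
theorem exists_prod_eq_mul (qs : List ℕ) (hnd : qs.Nodup) (hpr : ∀ q ∈ qs, q.Prime)
    {q : ℕ} (hq : q ∈ qs) : ∃ c₁ : ℕ, qs.prod = q * c₁ ∧ ¬ q ∣ c₁ := by
  refine ⟨(qs.erase q).prod, (List.prod_erase hq).symm, fun hd => ?_⟩
  obtain ⟨a, ha, hqa⟩ := ((hpr q hq).prime.dvd_prod_iff).mp hd
  have ha' : a ∈ qs := List.mem_of_mem_erase ha
  have hqa' : q = a := (Nat.prime_dvd_prime_iff_eq (hpr q hq) (hpr a ha')).mp hqa
  rw [← hqa'] at ha
  exact (hnd.mem_erase_iff.mp ha).1 rfl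

/-- `q ∥ N c² / q` for a prime `q` of `c`, `q ∤ N`. -/
theorem level_div_facts (N : ℕ) (qs : List ℕ) (hnd : qs.Nodup) (hpr : ∀ q ∈ qs, q.Prime)
    (hqN : ∀ q ∈ qs, ¬ q ∣ N) {q : ℕ} (hq : q ∈ qs) :
    N * qs.prod * qs.prod / q * q = N * qs.prod * qs.prod ∧
    q ∣ N * qs.prod * qs.prod / q ∧ ¬ q ^ 2 ∣ N * qs.prod * qs.prod / q := by
  obtain ⟨c₁, hc₁, hqc₁⟩ := exists_prod_eq_mul qs hnd hpr hq
  have hqp := hpr q hq
  have hq0 : 0 < q := hqp.pos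
  have e1 : N * qs.prod * qs.prod = (N * c₁ * c₁ * q) * q := by rw [hc₁]; ring
  have e2 : N * qs.prod * qs.prod / q = N * c₁ * c₁ * q := by
    rw [e1]
    exact Nat.mul_div_cancel _ hq0
  refine ⟨?_, ?_, ?_⟩
  · rw [e2, ← e1]
  · rw [e2]
    exact dvd_mul_left _ _
  · rw [e2, pow_two]
    intro hd
    have h1 : q ∣ N * c₁ * c₁ := (Nat.mul_dvd_mul_iff_right hq0).mp hd
    rcases (hqp.dvd_mul).mp h1 with h2 | h2
    · rcases (hqp.dvd_mul).mp h2 with h3 | h3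
      · exact hqN q hq h3
      · exact hqc₁ h3
    · exact hqc₁ h2

end Arith

end Fermat.Agent.L.Pivot.Geom.H81

end
-- ==== END Fermat.Agent.L.Pivot.Geom.H81_NewAsmGen

-- ==== BEGIN Fermat.Agent.L.Pivot.H50_StIInst
section
attribute [local instance 10000] SubalgebraClass.toAlgebra
attribute [local instance 10000] HahnSeries.powerSeriesAlgebra

/-!
# PIVOT, PV-OLD (helper50): the modular datum for (StI)

`q ∤ M` tame, `A` over `q`, `S = BADP.H21.theS ..` (helper21) THE modular semistable Deuring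
datum (`= (S35.H89.modTot ..).toSSD ..`, helper89, helper91).

* `phiSemiMod_baseAut` : `φ̄` acts on the constants by `a ↦ a ^ q`;
* `phiSemiMod_fixed_nonconst` : `φ̄` fixes the non-constant function `j~`;
* `Stmt_K0Tame M q` : **ARITH-0** (helper93's `IsK0Lift`) for `theS` at `(M, q)`, the only
  hypothesis left;
* `modStI_body`, `modStI_of_k0 : Stmt_K0Tame M q → Stmt_ModStI M q p` for tame `(M, q)`;
* `tatePieceStI_of_k0 : (∀ thin (M, q), Stmt_K0Tame M q) → L.Pivot.Stmt_TatePieceStI`.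
-/

set_option autoImplicit false
set_option linter.style.haveILetI false
set_option linter.unusedSectionVars false
set_option synthInstance.maxHeartbeats 400000
set_option maxHeartbeats 1000000

noncomputable section

open HahnSeries IntermediateField AlgebraicCurve ModularCurve
open Fermat.Agent.S28.H73 Fermat.Agent.RED.H73 Fermat.Agent.RED Fermat.Agent.S24
open Fermat.Agent.BAD.H88 Fermat.Agent.BAD

namespace Fermat.Agent.L.Pivot.H50

open Fermat.Agent.S35.H89 Fermat.Agent.BADP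

section Frob

variable (A : ValuationSubring Kbar) (q M : ℕ) (a b : ℤ) (hab : a * q + b * M = 1)
  (hq : q.Prime) [NeZero M] [NeZero (M * q)] (hA : A.LiesOverPrime q)

/-- `φ̄` acts on the constants by `a ↦ a ^ q`. -/
theorem phiSemiMod_baseAut (x : kV A) :
    SemilinearAut.baseAut (phiSemiMod A q M a b hab hq hA) x = x ^ q := by
  haveI : Fact q.Prime := ⟨hq⟩
  haveI := BAD.H82.charP_kV A hq hA
  haveI := BAD.H73.perfectRing_kV A q
  show frobeniusEquiv (kV A) q x = x ^ q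
  exact frobeniusEquiv_apply (kV A) q x

/-- `φ̄` fixes the non-constant function `j~`. -/
theorem phiSemiMod_fixed_nonconst :
    ∃ x : F1 A q M, x ∉ Set.range (algebraMap (kV A) (F1 A q M)) ∧
      phiSemiMod A q M a b hab hq hA • x = x := by
  have hD := H82.redField_eq_fullC q M a b hab hq A hA
  refine ⟨⟨jqModC (kV A), BAD.H73.jqModC_mem_F1 A q M M hD⟩, ?_, ?_⟩
  · rintro ⟨c, hc⟩
    have h1 : algebraMap (kV A) (LaurentSeries (kV A)) c = jqModC (kV A) :=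
      congrArg Subtype.val hc
    exact transcendental_jqModC (kV A) (h1 ▸ isAlgebraic_algebraMap c)
  · rw [phiSemiMod_smul]
    apply Subtype.ext
    haveI : Fact q.Prime := ⟨hq⟩
    haveI := BAD.H82.charP_kV A hq hA
    haveI := BAD.H73.perfectRing_kV A q
    show BAD.H73.frobL (kV A) q (jqModC (kV A)) = jqModC (kV A)
    rw [BAD.H73.frobL_eq_coeffMap]
    exact coeffMap_jqModC' _

end Frob

section Body

variable (A : ValuationSubring Kbar) (q M : ℕ) (a b : ℤ) (hab : a * q + b * M = 1)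
  (hq : q.Prime) [NeZero M] [NeZero (M * q)] [NeZero q] (hA : A.LiesOverPrime q)
  (hqM : ¬ q ∣ M) (ht : H91.TameAt M q)

/-- The body of `Stmt_ModStI M q p` at `A`, `σ`, for `q ∤ M` tame, from ARITH-0. -/
theorem modStI_body
    (hK0 : IsK0Lift (H21.theS A q M a b hab hq hA hqM ht) (H21.inertiaSet A (M * q)))
    (σ : GalQ) (hσ : A.IsFrobeniusAt σ q) :
    ∃ (E : Type) (_ : Field E) (_ : Algebra (kV A) E)
      (S : SSD Kbar ↥(FNbar (M * q)) (kV A) E E)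
      (_ : RED.H17.FFHyp Kbar ↥(FNbar (M * q))) (_ : RED.H17.FFHyp (kV A) E)
      (g g₁ : ℕ) (c c₁ : ℤ) (φb : SemilinearAut (kV A) E) (τb : E →+* E)
      (ρ ρ' : Place Kbar ↥(FNbar (M * q)) → Place (kV A) E)
      (β : Place (kV A) E → Place (kV A) E),
      RED.H17.IsGenus Kbar ↥(FNbar (M * q)) g c ∧ RED.H17.IsGenus (kV A) E g₁ c₁ ∧
      g + 1 ≤ g₁ + g₁ + S.nodes.card ∧
      S.IsFrobLike (galF (M * q) (σ * σ)) τb τb (q ^ 2) ∧
      (∀ (u₁ : S.c₁.V) (u₂ : S.c₂.V), S.c₁.red u₁ ≠ 0 → S.c₂.red u₂ ≠ 0 →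
        (∃ a : Kbar, (u₂ : ↥(FNbar (M * q))) =
          algebraMap Kbar ↥(FNbar (M * q)) a * (u₁ : ↥(FNbar (M * q)))) →
        ∀ D : Divisor Kbar ↥(FNbar (M * q)),
          (∀ P, D P = P.ord (u₁ : ↥(FNbar (M * q)))) → ∀ z : Place (kV A) E,
          Finsupp.mapDomain ρ D z = z.ord (S.c₁.red u₁) + (β z).ord (S.c₂.red u₂)) ∧
      (∀ (u₁ : S.c₁.V) (u₂ : S.c₂.V), S.c₁.red u₁ ≠ 0 → S.c₂.red u₂ ≠ 0 →
        (∃ a : Kbar, (u₂ : ↥(FNbar (M * q))) =
          algebraMap Kbar ↥(FNbar (M * q)) a * (u₁ : ↥(FNbar (M * q)))) →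
        ∀ D : Divisor Kbar ↥(FNbar (M * q)),
          (∀ P, D P = P.ord (u₁ : ↥(FNbar (M * q)))) → ∀ z : Place (kV A) E,
          Finsupp.mapDomain ρ' D z = z.ord (S.c₂.red u₂) + (β z).ord (S.c₁.red u₁)) ∧
      (∀ (z : Place (kV A) E) (ψ : E), (β z).ord ψ = z.ord (φb • ψ)) ∧
      (∀ (hα : HeckeAlphaBarIntegral Kbar M q) (D : Divisor Kbar ↥(FNbar (M * q))),
        (Divisor.pushforwardAlong (heckeAlphaBar Kbar M q) hα D).IsPrincipal →
        ∃ h : E, h ≠ 0 ∧ ∀ z : Place (kV A) E, Finsupp.mapDomain ρ D z = z.ord h) ∧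
      (∀ (hβ : HeckeBetaBarIntegral Kbar M q) (D : Divisor Kbar ↥(FNbar (M * q))),
        (Divisor.pushforwardAlong (heckeBetaBar Kbar M q) hβ D).IsPrincipal →
        ∃ h : E, h ≠ 0 ∧ ∀ z : Place (kV A) E, Finsupp.mapDomain ρ' D z = z.ord h) ∧
      (∀ a : kV A, SemilinearAut.baseAut φb a = a ^ q) ∧
      (∃ x : E, x ∉ Set.range (algebraMap (kV A) E) ∧ φb • x = x) ∧
      (∀ f : ↥(FNbar (M * q)), f ∈ gaussV A (M * q) → f ∈ S.c₁.V) ∧
      (∀ (f : ↥(gaussV A (M * q))) (hf : (f : ↥(FNbar (M * q))) ∈ S.c₁.V),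
        gaussRes A (M * q) f = 1 → S.c₁.red ⟨(f : ↥(FNbar (M * q))), hf⟩ = 1) ∧
      (∀ τ ∈ A.inertiaSubgroupIn ℚ, S.IsInertial (galF (M * q) τ)) ∧
      ∀ s ∈ S.nodes, ∃ (e : ℕ) (t : ↥(FNbar (M * q))), e ≠ 0 ∧
        S.IsAnnCoord s t ((q : Kbar) ^ e) ∧
        ∀ τ ∈ A.inertiaSubgroupIn ℚ, galF (M * q) τ • t = t := by
  haveI : IsAlgClosed (kV A) := isAlgClosed_kV A
  have hRed := Fermat.Agent.S35.H44.stmt_FrobRed
  have hRho := Fermat.Agent.S35.H52.stmt_FrobRho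
  have hFix := Fermat.Agent.S35.H30.sigmaFix_of hRho
  have H := H21.ffL q M
  have H₁ := H21.ff1 A q M a b hab hq hA hqM ht
  have hne := H21.exists_node A q M a b hab hq hA hqM ht (H21.totModAt A q M a b hab hq hA hqM ht)
  obtain ⟨g, g₁, c, c₁, hg, hg₁, hnum⟩ :=
    H21.modS_genus A q M a b hab hq hA hqM ht (H21.totModAt A q M a b hab hq hA hqM ht)
  refine ⟨F1 A q M, inferInstance, inferInstance, H21.theS A q M a b hab hq hA hqM ht, H, H₁,
    g, g₁, c, c₁, phiSemiMod A q M a b hab hq hA, tauMod A q M a b hab hq hA,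
    H91.rhoF1 a b hab hq hA hqM ht,
    fun P => H91.rhoF1 a b hab hq hA hqM ht (wq q M a b hab hq • P),
    betaMod A q M a b hab hq hA, hg, hg₁, hnum, ?_, ?_, ?_, ?_, ?_, ?_, ?_, ?_, ?_, ?_, ?_, ?_⟩
  · exact (modTotFrob A q M a b hab hq hA hRed hRho hqM ht hFix σ hσ).isFrobLike
      H.principal H.deg_one H₁.principal H₁.deg_one hne
  · exact (modTot A q M a b hab hq hA hqM ht).toSSD_tot H.principal H.deg_one H₁.principal
      H₁.deg_one H₁.deg_one hne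
  · exact (modTot A q M a b hab hq hA hqM ht).toSSD_mirror H.principal H.deg_one H₁.principal
      H₁.deg_one H₁.deg_one hne (wq q M a b hab hq) (fun P => wq q M a b hab hq • P)
      (wq_wq q M a b hab hq) (fun c x => by rw [map_mul, AlgEquiv.commutes])
      (fun P f => by
        have h := Place.ord_smul (wq q M a b hab hq) P (wq q M a b hab hq f)
        rw [wq_wq] at h
        exact h)
      (fun x => Iff.rfl) (fun x h₂ h₁ => rfl)
  · intro z ψ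
    exact BAD.H73.betaF1_ord A q M hq hA M (H82.redField_eq_fullC q M a b hab hq A hA) z ψ
  · intro hα D hD
    exact cons_alpha A q M a b hab hq hA hqM ht hα D hD
  · intro hβ D hD
    exact cons_beta A q M a b hab hq hA hqM ht hβ D hD
  · exact phiSemiMod_baseAut A q M a b hab hq hA
  · exact phiSemiMod_fixed_nonconst A q M a b hab hq hA
  · intro f hf
    exact hf
  · intro f hf h1
    exact h1
  · intro τ hτ
    exact H21.modS_inertial A q M a b hab hq hA hqM ht (H21.totModAt A q M a b hab hq hA hqM ht)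
      hτ
  · intro s hs
    obtain ⟨n, t, hn, -, hcoord, hfix⟩ := H21.coord_theS A q M a b hab hq hA hqM ht hK0 hs
    exact ⟨n, t, hn.ne', hcoord, hfix⟩

end Body

/-- **ARITH-0 at `(M, q)`** (helper93's `IsK0Lift` for helper21's modular datum `theS`): the
`K₀`-rational part of a function which is integral for both valuations. -/
def Stmt_K0Tame (M q : ℕ) [NeZero M] [NeZero q] : Prop :=
  ∀ (A : ValuationSubring Kbar) (a b : ℤ) (hab : a * q + b * M = 1) (hq : q.Prime)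
    [NeZero (M * q)] (hA : A.LiesOverPrime q) (hqM : ¬ q ∣ M) (ht : H91.TameAt M q),
    IsK0Lift (H21.theS A q M a b hab hq hA hqM ht) (H21.inertiaSet A (M * q))

/-- **The modular side of (StI) at all tame `(M, q)`**, from ARITH-0. -/
theorem modStI_of_k0 (M q p : ℕ) [NeZero M] [NeZero q] (hq : q.Prime) (hqM : ¬ q ∣ M)
    (ht : H91.TameAt M q) (hK0 : Stmt_K0Tame M q) : Stmt_ModStI M q p := by
  intro A hA σ hσ
  haveI hMq : NeZero (M * q) := ⟨Nat.mul_ne_zero (NeZero.ne M) (NeZero.ne q)⟩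
  obtain ⟨a, b, hab⟩ : ∃ a b : ℤ, a * q + b * M = 1 := by
    have hcop : Nat.Coprime q M := (Nat.Prime.coprime_iff_not_dvd hq).2 hqM
    obtain ⟨a, b, h⟩ := Nat.isCoprime_iff_coprime.2 hcop
    exact ⟨a, b, h⟩
  exact modStI_body A q M a b hab hq hA hqM ht (hK0 A a b hab hq hA hqM ht) σ hσ

/-- A thin level is tame. -/
theorem tameAt_of_thinLevel {M q : ℕ} (h : ThinLevel M q) : H91.TameAt M q := by
  rcases h with ⟨h5, -⟩ | ⟨h3, h4⟩ | ⟨h2, h9⟩
  · exact Or.inl h5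
  · exact Or.inr (Or.inl ⟨h3, dvd_trans (by norm_num) h4⟩)
  · exact Or.inr (Or.inr ⟨h2, dvd_trans (by norm_num) h9⟩)

/-- **`Stmt_TatePieceStI` from ARITH-0 at the thin levels.** -/
theorem tatePieceStI_of_k0
    (hK0 : ∀ (M q : ℕ) [NeZero M] [NeZero q], q.Prime → ¬ q ∣ M → ThinLevel M q →
      Stmt_K0Tame M q) :
    Fermat.Agent.L.Pivot.Stmt_TatePieceStI :=
  tatePieceStI_of_modStI fun M q p _ _ hq hqM _ _ hthin =>
    modStI_of_k0 M q p hq hqM (tameAt_of_thinLevel hthin) (hK0 M q hq hqM hthin)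

end Fermat.Agent.L.Pivot.H50

end
end
-- ==== END Fermat.Agent.L.Pivot.H50_StIInst

-- ==== BEGIN Fermat.Agent.L.Pivot.H76_UnipAbs
section

set_option autoImplicit false
set_option linter.style.haveILetI false

namespace Fermat.Agent.L.Pivot.H76

open IsLocalRing Matrix Polynomial Fermat.Agent.S59.Asm

/-- TRANSPORT of a coordinate homomorphism. -/
theorem isCoordHom_transport {𝒪 : Type} [CommRing 𝒪] {k g : ℕ}
    {RQ : Type} [CommRing RQ] [IsLocalRing RQ] [Algebra 𝒪 RQ]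
    {T : Type} [CommRing T] [IsLocalRing T] [Algebra 𝒪 T]
    (ρQ : GaloisRepAdic RQ) (ρ : GaloisRepAdic T) (σ φ : Fin k → GalQ)
    (bQ : Module.Basis (Fin 2) RQ ρQ.V) (b : Module.Basis (Fin 2) T ρ.V)
    (f : RQ →ₐ[𝒪] T)
    (hb : ∀ (s : GalQ) (i j : Fin 2), b.repr (ρ.ρ s (b i)) j = f (bQ.repr (ρQ.ρ s (bQ i)) j))
    (γ : PRing 𝒪 k g →ₐ[𝒪] RQ)
    (hγ : IsCoordHom γ (fun j => LinearMap.toMatrix bQ bQ (ρQ.ρ (σ j)))
      (fun j => LinearMap.toMatrix bQ bQ (ρQ.ρ (φ j)))) :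
    IsCoordHom (f.comp γ) (fun j => LinearMap.toMatrix b b (ρ.ρ (σ j)))
      (fun j => LinearMap.toMatrix b b (ρ.ρ (φ j))) := by
  have hent : ∀ (s : GalQ) (i j : Fin 2), LinearMap.toMatrix b b (ρ.ρ s) i j =
      f (LinearMap.toMatrix bQ bQ (ρQ.ρ s) i j) := by
    intro s i j
    rw [LinearMap.toMatrix_apply, LinearMap.toMatrix_apply]
    exact hb s j i
  intro j
  obtain ⟨h1, h2, h3, h4, h5, h6⟩ := hγ j
  refine ⟨?_, ?_, ?_, ?_, ?_, ?_⟩
  · show f (γ _) = LinearMap.toMatrix b b (ρ.ρ (σ j)) 0 1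
    rw [h1, hent]
  · show f (γ _) = LinearMap.toMatrix b b (ρ.ρ (σ j)) 1 0
    rw [h2, hent]
  · show f (γ _) = LinearMap.toMatrix b b (ρ.ρ (σ j)) 0 0 -
      LinearMap.toMatrix b b (ρ.ρ (σ j)) 1 1
    rw [h3, hent, hent, map_sub]
  · show f (γ _) = LinearMap.toMatrix b b (ρ.ρ (φ j)) 0 1
    rw [h4, hent]
  · show f (γ _) = LinearMap.toMatrix b b (ρ.ρ (φ j)) 1 0
    rw [h5, hent]
  · show f (γ _) = LinearMap.toMatrix b b (ρ.ρ (φ j)) 0 0 -
      LinearMap.toMatrix b b (ρ.ρ (φ j)) 1 1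
    rw [h6, hent, hent, map_sub]

/-- residually unramified ⟹ trivial modulo `𝔪` on inertia. -/
theorem sub_mem_of_residual_unramified {T : Type} [CommRing T] [IsLocalRing T]
    (ρ : GaloisRepAdic T) (q : ℕ) (h : ρ.residual.IsUnramifiedAt q)
    (P : ValuationSubring (AlgebraicClosure ℚ)) (hP : P.LiesOverPrime q)
    (σ : GalQ) (hσ : σ ∈ P.inertiaSubgroupIn ℚ) (v : ρ.V) :
    ρ.ρ σ v - v ∈ maximalIdeal T • (⊤ : Submodule T ρ.V) := by
  obtain ⟨b⟩ : Nonempty (Module.Basis (Fin 2) T ρ.V) := by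
    have hb := Module.finBasisOfFinrankEq T ρ.V ρ.finrank_eq
    exact ⟨hb⟩
  exact H59.sub_mem_of_baseChange_eq_one b (ρ.ρ σ) (h P hP σ hσ) v

/-- **PV-UNIP, ring form.** -/
theorem pvUnip_ring {𝒪 : Type} [CommRing 𝒪] (p : ℕ) (hp : p.Prime) {k : ℕ} (g : ℕ)
    (Pv : PivotPrimes k) (hqp : ∀ j, Pv.q j ≠ p)
    (RQ : Type) [CommRing RQ] [IsLocalRing RQ] [Algebra 𝒪 RQ] (ρQ : GaloisRepAdic RQ)
    (bQ : Module.Basis (Fin 2) RQ ρQ.V) (γ : PRing 𝒪 k g →ₐ[𝒪] RQ)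
    (hγ : IsCoordHom γ (fun j => LinearMap.toMatrix bQ bQ (ρQ.ρ (Pv.τ j)))
      (fun j => LinearMap.toMatrix bQ bQ (ρQ.ρ (Pv.frob j))))
    (T : Type) [CommRing T] [IsLocalRing T] [IsNoetherianRing T] [IsReduced T] [Algebra 𝒪 T]
    (ρ : GaloisRepAdic T) (hdet : ρ.DetIsCyclotomic p)
    (hres : ∀ j, ρ.residual.IsUnramifiedAt (Pv.q j))
    (hU : ∀ j, ρ.IsUnipotentOnInertiaAt (Pv.q j))
    (f : RQ →ₐ[𝒪] T) (hf : IsLocalHom (f : RQ →+* T))
    (he : (ρQ.baseChangeAlong (f : RQ →+* T) hf).IsEquiv ρ) :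
    ∀ x ∈ idealUnip g (fun j => ((Pv.q j : ℕ) : 𝒪)), f (γ x) = 0 := by
  obtain ⟨b, hb⟩ := H77.stmt_TRANSPORT RQ T (f : RQ →+* T) hf ρQ ρ he bQ
  have hγ' := isCoordHom_transport ρQ ρ Pv.τ Pv.frob bQ b f hb γ hγ
  have key := unip_core p hp g Pv hqp T ρ hdet
    (fun j σ hσ v => sub_mem_of_residual_unramified ρ (Pv.q j) (hres j) (Pv.P j) (Pv.P_over j)
      σ hσ v) hU b (f.comp γ) hγ'
  intro x hx
  have h1 := key hx
  rw [RingHom.mem_ker] at h1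
  exact h1

/-- **PV-UNIP, module form (rel1).** -/
theorem pvUnip_mod {𝒪 : Type} [CommRing 𝒪] (p : ℕ) (hp : p.Prime) {k : ℕ} (g : ℕ)
    (Pv : PivotPrimes k) (hqp : ∀ j, Pv.q j ≠ p)
    (RQ : Type) [CommRing RQ] [IsLocalRing RQ] [Algebra 𝒪 RQ] (ρQ : GaloisRepAdic RQ)
    (bQ : Module.Basis (Fin 2) RQ ρQ.V) (γ : PRing 𝒪 k g →ₐ[𝒪] RQ)
    (hγ : IsCoordHom γ (fun j => LinearMap.toMatrix bQ bQ (ρQ.ρ (Pv.τ j)))
      (fun j => LinearMap.toMatrix bQ bQ (ρQ.ρ (Pv.frob j))))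
    (T₁ : Type) [CommRing T₁] [IsLocalRing T₁] [IsNoetherianRing T₁] [IsReduced T₁]
    [Algebra 𝒪 T₁]
    (ρ₁ : GaloisRepAdic T₁) (hdet : ρ₁.DetIsCyclotomic p)
    (hres : ∀ j, ρ₁.residual.IsUnramifiedAt (Pv.q j))
    (hU : ∀ j, ρ₁.IsUnipotentOnInertiaAt (Pv.q j))
    (T' : Type) [CommRing T'] [Algebra 𝒪 T'] (φQ : RQ →ₐ[𝒪] T') (res : T' →ₐ[𝒪] T₁)
    (hf : IsLocalHom ((res.comp φQ : RQ →ₐ[𝒪] T₁) : RQ →+* T₁))
    (he : (ρQ.baseChangeAlong ((res.comp φQ : RQ →ₐ[𝒪] T₁) : RQ →+* T₁) hf).IsEquiv ρ₁)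
    (W : Type) [AddCommGroup W] [Module 𝒪 W] (W₁ : Type) [AddCommGroup W₁] [Module 𝒪 W₁]
    (c : Fin k → Module.End 𝒪 W)
    (κ : W →ₗ[𝒪] W₁) (hker : LinearMap.ker κ = typeSub c (fun _ => (1 : 𝒪)))
    (ηW : T' →ₐ[𝒪] Module.End 𝒪 W) (ηW₁ : T₁ →ₐ[𝒪] Module.End 𝒪 W₁)
    (hκ : ∀ (t : T') (v : W), κ (ηW t v) = ηW₁ (res t) (κ v)) :
    ∀ x ∈ idealUnip g (fun j => ((Pv.q j : ℕ) : 𝒪)), ∀ v : W,
      ηW (φQ (γ x)) v ∈ typeSub c (fun _ => (1 : 𝒪)) := by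
  intro x hx v
  have h1 := pvUnip_ring p hp g Pv hqp RQ ρQ bQ γ hγ T₁ ρ₁ hdet hres hU (res.comp φQ) hf he
    x hx
  rw [← hker, LinearMap.mem_ker, hκ]
  have h2 : res (φQ (γ x)) = 0 := h1
  rw [h2, map_zero, LinearMap.zero_apply]

end Fermat.Agent.L.Pivot.H76

end
-- ==== END Fermat.Agent.L.Pivot.H76_UnipAbs

-- ==== BEGIN Fermat.Agent.NEB.Geom.DefsW
section

/-!
# Item 72 (LG-NEB), package NEB-GEOM (helper84): the `𝒪`-level leaves `W-*` (pure algebra)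

Plan: `NOTES/plan/NEB_GEOM.md`, section 2.  Everything here is PURE ALGEBRA on helper2's
`θ`-part (`S59/Lim/H2_Theta.lean`):

* `A` : an abelian group, `p`-power torsion with `A[p]` finite (`= J_H[p^∞]`);
* `𝕋` : a commutative ring with `η : 𝕋 →+* End_ℤ A` (`= ℤ[T'_ℓ, U_j, ⟨d⟩]`, a polynomial ring) and
  `θ : 𝕋 →+* k = 𝒪/𝔪`;  `W := H2.thetaPart η θ ⊆ X := 𝒪 ⊗_ℤ A`;
* `K : AddSubgroup A` : the kernel of reduction `K_A` at a place; `KO 𝒪 K = 𝒪 ⊗ K ⊆ X`;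
* `dia : G →* End_ℤ A` : the diamond operators (`G = (ℤ/c)ˣ`), `dia u ^ (p^n) = 1`, `dia u ∈ η(𝕋)`;
* `t₀ : 𝕋` with `θ t₀ ≠ 0` (`= T_ℓ₀ - (ℓ₀ + 1)`, the Eisenstein operator): bijective on `W`.

Leaves (exact statements): `Stmt_W_unit`, `Stmt_W_ES`, `Stmt_W_LG`, `Stmt_W_DIV`, `Stmt_W_HSTEP`,
`Stmt_W_INV`, `Stmt_W_FROBNIL`, `Stmt_W_proj`.  Definitions and `Prop`s only; no `sorry`.

All operators on `X` are base changes `f.baseChange 𝒪` of `ℤ`-linear endomorphisms of `A`;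
flatness of `𝒪` over `ℤ` (`H2.flat_int`) makes kernels/invariants commute with `𝒪 ⊗ -`
(`H2.ker_baseChange_eq`).
-/

set_option autoImplicit false

noncomputable section

open IsLocalRing TensorProduct Module

namespace Fermat.Agent.NEB.Geom

open Fermat.Agent.S59.Lim Fermat.Agent.S59.Lim.H2

/-- `𝒪 ⊗ K ⊆ 𝒪 ⊗ A` (the image). -/
def KO (𝒪 : Type) [CommRing 𝒪] {A : Type} [AddCommGroup A] (K : AddSubgroup A) :
    Submodule 𝒪 (𝒪 ⊗[ℤ] A) :=
  LinearMap.range ((AddSubgroup.toIntSubmodule K).subtype.baseChange 𝒪)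

/-- **W-UNIT**: an operator `t₀` with `θ t₀ ≠ 0` is bijective on the `θ`-part. -/
def Stmt_W_unit : Prop :=
  ∀ (𝒪 : Type) [CommRing 𝒪] [IsLocalRing 𝒪] (A : Type) [AddCommGroup A]
    (𝕋 : Type) [CommRing 𝕋] (η : 𝕋 →+* Module.End ℤ A) (θ : 𝕋 →+* ResidueField 𝒪)
    (t₀ : 𝕋), θ t₀ ≠ 0 → Function.Bijective (thetaEta η θ t₀)

/-- **W-PROJ**: the `θ`-part is a direct summand of `X`, functorially: there is a projector `e`
onto it commuting with all base-changed operators which commute with `η`, and compatible with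
equivariant maps. -/
def Stmt_W_proj : Prop :=
  ∀ (𝒪 : Type) [CommRing 𝒪] [IsDomain 𝒪] [IsDiscreteValuationRing 𝒪] [Finite (ResidueField 𝒪)]
    (ϖ : 𝒪), Irreducible ϖ → ∀ (p : ℕ) [Fact p.Prime], (p : 𝒪) ∈ maximalIdeal 𝒪 → (p : 𝒪) ≠ 0 →
    ∀ (𝕋 : Type) [CommRing 𝕋] (θ : 𝕋 →+* ResidueField 𝒪),
    ∃ e : ∀ (A : Type) [AddCommGroup A], (𝕋 →+* Module.End ℤ A) →
        Module.End 𝒪 (𝒪 ⊗[ℤ] A),
      ∀ (A : Type) [AddCommGroup A], (∀ x : A, ∃ k : ℕ, p ^ k • x = 0) →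
        Finite {x : A // p • x = 0} → ∀ (η : 𝕋 →+* Module.End ℤ A),
        (∀ x, e A η x ∈ thetaPart η θ) ∧ (∀ x ∈ thetaPart η θ, e A η x = x) ∧
        (∀ f : Module.End ℤ A, (∀ t, Commute (η t) f) →
          Commute (f.baseChange 𝒪) (e A η)) ∧
        (∀ (B : Type) [AddCommGroup B], (∀ x : B, ∃ k : ℕ, p ^ k • x = 0) →
          Finite {x : B // p • x = 0} → ∀ (ηB : 𝕋 →+* Module.End ℤ B) (g : A →ₗ[ℤ] B),
          (∀ t, g ∘ₗ η t = ηB t ∘ₗ g) →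
            ∀ x, g.baseChange 𝒪 (e A η x) = e B ηB (g.baseChange 𝒪 x))

/-- **W-ES** (the fixed-point trick): an operator `E` with values in `K` (commuting with `η`)
vanishes on the `θ`-part, if the `Δ`-fixed part of `K` is killed by `t₀` with `θ t₀ ≠ 0`.
(`E = ⟨ℓ⟩φ² - T_ℓ φ + ℓ`: CL-ES; the hypothesis on `K` is FIX.) -/
def Stmt_W_ES : Prop :=
  ∀ (𝒪 : Type) [CommRing 𝒪] [IsDomain 𝒪] [IsDiscreteValuationRing 𝒪] [Finite (ResidueField 𝒪)]
    (ϖ : 𝒪), Irreducible ϖ → ∀ (p : ℕ) [Fact p.Prime], (p : 𝒪) ∈ maximalIdeal 𝒪 → (p : 𝒪) ≠ 0 →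
    ∀ (A : Type) [AddCommGroup A], (∀ x : A, ∃ k : ℕ, p ^ k • x = 0) →
      Finite {x : A // p • x = 0} →
    ∀ (𝕋 : Type) [CommRing 𝕋] (η : 𝕋 →+* Module.End ℤ A) (θ : 𝕋 →+* ResidueField 𝒪)
      (G : Type) [CommGroup G] [Finite G] (dia : G →* Module.End ℤ A) (n : ℕ),
      (∀ u, dia u ^ (p ^ n) = 1) → (∀ u, ∃ z : 𝕋, η z = dia u) →
    ∀ (K : AddSubgroup A) (t₀ : 𝕋), θ t₀ ≠ 0 →
      (∀ x ∈ K, (∀ u, dia u x = x) → η t₀ x = 0) →
    ∀ E : Module.End ℤ A, (∀ t, Commute (η t) E) → (∀ x, E x ∈ K) →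
      ∀ x ∈ thetaPart η θ, E.baseChange 𝒪 x = 0

/-- **W-LG** (local–global compatibility at a Taylor–Wiles prime, via `TWH.absLG`).
`Γ` = the decomposition group, `I` = inertia, `frob` a Frobenius, `φ = gal frob * dia u₀` the
twisted Frobenius, `U : 𝕋` the operator `U_q`, `a` a lift of `θ U`.
Hypotheses: `K` is stable under `η`, `φ`; `(σ - 1) A ⊆ K` for `σ ∈ I` (CL-INERTIA);
`U φ x = q x` on `KO ∩ W^Δ` (W-KEYq); `θ(U)² ≠ q = 1` in `k`; inertia is trivial on `W[ϖ]^Δ`;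
the tame relations at every finite level `A[p^m]` (`TWGal.Stmt_TAME`).
Conclusion: inertia is trivial on the generalised `a`-eigenspace of `φ` in `W`. -/
def Stmt_W_LG : Prop :=
  ∀ (𝒪 : Type) [CommRing 𝒪] [IsDomain 𝒪] [IsDiscreteValuationRing 𝒪] [Finite (ResidueField 𝒪)]
    (ϖ : 𝒪), Irreducible ϖ → ∀ (p : ℕ) [Fact p.Prime], (p : 𝒪) ∈ maximalIdeal 𝒪 → (p : 𝒪) ≠ 0 →
    ∀ (A : Type) [AddCommGroup A], (∀ x : A, ∃ k : ℕ, p ^ k • x = 0) →
      Finite {x : A // p • x = 0} →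
    ∀ (𝕋 : Type) [CommRing 𝕋] (η : 𝕋 →+* Module.End ℤ A) (θ : 𝕋 →+* ResidueField 𝒪)
      (G : Type) [CommGroup G] [Finite G] (dia : G →* Module.End ℤ A) (n : ℕ),
      (∀ u, dia u ^ (p ^ n) = 1) → (∀ u, ∃ z : 𝕋, η z = dia u) →
    ∀ (K : AddSubgroup A), (∀ (t : 𝕋) (x : A), x ∈ K → η t x ∈ K) →
    ∀ (Γ : Type) [Group Γ] (gal : Γ →* Module.End ℤ A), (∀ g t, Commute (η t) (gal g)) →
      (∀ g, ∀ x ∈ K, gal g x ∈ K) →
    ∀ (I : Subgroup Γ) (frob : Γ), (∀ σ ∈ I, frob * σ * frob⁻¹ ∈ I) →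
      (∀ σ ∈ I, ∀ x : A, gal σ x - x ∈ K) →
    ∀ (u₀ : G) (U : 𝕋) (q : ℕ) (a : 𝒪), residue 𝒪 a = θ U →
      (q : ResidueField 𝒪) = 1 → θ U ^ 2 ≠ 1 →
      -- W-KEYq
      (∀ x ∈ thetaPart η θ, x ∈ KO 𝒪 K → (∀ u, (dia u).baseChange 𝒪 x = x) →
        (η U).baseChange 𝒪 ((gal frob).baseChange 𝒪 x) = (q : 𝒪) • x) →
      -- inertia is trivial on `W[ϖ]^Δ`
      (∀ σ ∈ I, ∀ x ∈ thetaPart η θ, ϖ • x = 0 → (∀ u, (dia u).baseChange 𝒪 x = x) →
        (gal σ).baseChange 𝒪 x = x) →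
      -- tame relations at finite level
      (∀ m : ℕ, ∃ τ₀ ∈ I,
        (∀ σ ∈ I, ∃ j e : ℕ, ∀ x : A, p ^ m • x = 0 →
          gal (((τ₀ ^ j)⁻¹ * σ) ^ (q ^ e)) x = x) ∧
        (∃ e : ℕ, ∀ x : A, p ^ m • x = 0 →
          gal (((τ₀ ^ q)⁻¹ * (frob * τ₀ * frob⁻¹)) ^ (q ^ e)) x = x)) →
    ∀ σ ∈ I, ∀ x ∈ thetaPart η θ,
      (∃ N : ℕ, ((((gal frob * dia u₀).baseChange 𝒪 -
        a • (1 : Module.End 𝒪 (𝒪 ⊗[ℤ] A))) ^ N) x = 0)) →
      (gal σ).baseChange 𝒪 x = x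

/-- **W-DIV**: if `t₀ ^ N A ⊆ p A` for some `N` (`NEB.H29.stmt_DIV_tower`) and `θ t₀ ≠ 0`, then
the `θ`-part is `ϖ`-divisible (hence `IsDiv`). -/
def Stmt_W_DIV : Prop :=
  ∀ (𝒪 : Type) [CommRing 𝒪] [IsDomain 𝒪] [IsDiscreteValuationRing 𝒪] [Finite (ResidueField 𝒪)]
    (ϖ : 𝒪), Irreducible ϖ → ∀ (p : ℕ) [Fact p.Prime], (p : 𝒪) ∈ maximalIdeal 𝒪 → (p : 𝒪) ≠ 0 →
    ∀ (A : Type) [AddCommGroup A], (∀ x : A, ∃ k : ℕ, p ^ k • x = 0) →
      Finite {x : A // p • x = 0} →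
    ∀ (𝕋 : Type) [CommRing 𝕋] (η : 𝕋 →+* Module.End ℤ A) (θ : 𝕋 →+* ResidueField 𝒪)
      (t₀ : 𝕋), θ t₀ ≠ 0 → (∃ N : ℕ, ∀ x : A, ∃ y : A, (η t₀ ^ N) x = p • y) →
      IsDiv ϖ ↥(thetaPart η θ)

/-- **W-HSTEP**: norm surjectivity along the tower on `W[ϖ]`, from the `ℤ`-level statement
(`NEB.H29.stmt_HSTEP_tower`: surjectivity up to a power of the Eisenstein operator `t₀`). -/
def Stmt_W_HSTEP : Prop :=
  ∀ (𝒪 : Type) [CommRing 𝒪] [IsDomain 𝒪] [IsDiscreteValuationRing 𝒪] [Finite (ResidueField 𝒪)]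
    (ϖ : 𝒪), Irreducible ϖ → ∀ (p : ℕ) [Fact p.Prime], (p : 𝒪) ∈ maximalIdeal 𝒪 → (p : 𝒪) ≠ 0 →
    ∀ (A : Type) [AddCommGroup A], (∀ x : A, ∃ k : ℕ, p ^ k • x = 0) →
      Finite {x : A // p • x = 0} →
    ∀ (𝕋 : Type) [CommRing 𝕋] (η : 𝕋 →+* Module.End ℤ A) (θ : 𝕋 →+* ResidueField 𝒪)
      (t₀ : 𝕋), θ t₀ ≠ 0 →
    ∀ (r n : ℕ) (d : Fin r → Module.End ℤ A), (∀ j, ∃ z : 𝕋, η z = d j) →
      (∀ (j : Fin r) (v : A), p • v = 0 → (∀ i, i ≤ j → d i v = v) →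
        ∃ (w : A) (m : ℕ), p • w = 0 ∧ (∀ i, i < j → d i w = w) ∧
          ∑ e ∈ Finset.range (p ^ n), (d j ^ e) w = (η t₀ ^ m) v) →
    ∀ (j : Fin r) (v : 𝒪 ⊗[ℤ] A), v ∈ thetaPart η θ → ϖ • v = 0 →
      (∀ i, i ≤ j → (d i).baseChange 𝒪 v = v) →
      ∃ w ∈ thetaPart η θ, ϖ • w = 0 ∧ (∀ i, i < j → (d i).baseChange 𝒪 w = w) ∧
        ∑ e ∈ Finset.range (p ^ n), (((d j).baseChange 𝒪) ^ e) w = v

/-- **W-INV**: the `Δ`-invariants of `W[ϖ]` are pull-backs from the `θ`-part of the lower level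
`B`, from the `ℤ`-level statement (`NEB.H29.stmt_INV_JH'`: up to the Eisenstein operator). -/
def Stmt_W_INV : Prop :=
  ∀ (𝒪 : Type) [CommRing 𝒪] [IsDomain 𝒪] [IsDiscreteValuationRing 𝒪] [Finite (ResidueField 𝒪)]
    (ϖ : 𝒪), Irreducible ϖ → ∀ (p : ℕ) [Fact p.Prime], (p : 𝒪) ∈ maximalIdeal 𝒪 → (p : 𝒪) ≠ 0 →
    ∀ (A : Type) [AddCommGroup A], (∀ x : A, ∃ k : ℕ, p ^ k • x = 0) →
      Finite {x : A // p • x = 0} →
    ∀ (B : Type) [AddCommGroup B], (∀ x : B, ∃ k : ℕ, p ^ k • x = 0) →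
      Finite {x : B // p • x = 0} →
    ∀ (𝕋 : Type) [CommRing 𝕋] (η : 𝕋 →+* Module.End ℤ A) (ηB : 𝕋 →+* Module.End ℤ B)
      (θ : 𝕋 →+* ResidueField 𝒪) (t₀ : 𝕋), θ t₀ ≠ 0 →
    ∀ (up : B →ₗ[ℤ] A), (∀ t, up ∘ₗ ηB t = η t ∘ₗ up) →
    ∀ (G : Type) [CommGroup G] [Finite G] (dia : G →* Module.End ℤ A),
      (∀ u, ∃ z : 𝕋, η z = dia u) →
      (∀ y : A, p • y = 0 → (∀ u, dia u y = y) →
        ∃ (y₀ : B) (m : ℕ), p • y₀ = 0 ∧ up y₀ = (η t₀ ^ m) y) →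
    ∀ v ∈ thetaPart η θ, ϖ • v = 0 → (∀ u, (dia u).baseChange 𝒪 v = v) →
      ∃ y ∈ thetaPart ηB θ, ϖ • y = 0 ∧ up.baseChange 𝒪 y = v

/-- **W-FROBNIL** (socle filtration): an operator `Q` commuting with commuting operators `d j` of
`p`-power order, which is nilpotent on every `Δ`-fixed element of `W[ϖ]`, is nilpotent on every
element of `W[ϖ]`. -/
def Stmt_W_FROBNIL : Prop :=
  ∀ (𝒪 : Type) [CommRing 𝒪] [IsLocalRing 𝒪] (ϖ : 𝒪) (p : ℕ) [Fact p.Prime],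
    (p : 𝒪) ∈ Ideal.span {ϖ} →
    ∀ (W : Type) [AddCommGroup W] [Module 𝒪 W], Finite (Submodule.torsionBy 𝒪 W ϖ) →
    ∀ (r n : ℕ) (d : Fin r → Module.End 𝒪 W), (∀ j, d j ^ (p ^ n) = 1) →
      (∀ i j, Commute (d i) (d j)) →
    ∀ Q : Module.End 𝒪 W, (∀ j, Commute (d j) Q) →
      (∀ x : W, ϖ • x = 0 → (∀ j, d j x = x) → ∃ m : ℕ, (Q ^ m) x = 0) →
      ∀ x : W, ϖ • x = 0 → ∃ m : ℕ, (Q ^ m) x = 0

end Fermat.Agent.NEB.Geom

end
end
-- ==== END Fermat.Agent.NEB.Geom.DefsW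

-- ==== BEGIN Fermat.Agent.NEB.Geom.H14_PiAbs
section

/-!
# Item 72 (LG-NEB), package NEB-GEOM, leaf PI-WIRE (helper14): the abstract construction

`A ⇄ B → C` abelian groups with Hecke rings `𝕋₁` (on `A`, `B`) and `𝕋₂` (on `C`);
`up : B → A`, `down : A → B` intertwining; `φ : B → C` inducing a bijection of the `θ`-parts;
`up` injective on the `θ₁`-part of `𝒪 ⊗ B`.  Then `π = φ ∘ down`, `πup = up ∘ φ⁻¹` on `θ`-parts.
-/

set_option autoImplicit false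
set_option linter.unusedSectionVars false
set_option linter.unusedVariables false

noncomputable section

open IsLocalRing TensorProduct

namespace Fermat.Agent.NEB.Geom.H14

open Fermat.Agent.S59.Lim Fermat.Agent.S59.Lim.H2

variable {𝒪 : Type} [CommRing 𝒪] [IsLocalRing 𝒪] {𝕋₁ 𝕋₂ : Type} [CommRing 𝕋₁] [CommRing 𝕋₂]
  {A B C : Type} [AddCommGroup A] [AddCommGroup B] [AddCommGroup C]

/-- **The abstract construction of `π` and `πup`.** -/
theorem pi_wire_abs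
    (ηA : 𝕋₁ →+* Module.End ℤ A) (ηB : 𝕋₁ →+* Module.End ℤ B) (ηC : 𝕋₂ →+* Module.End ℤ C)
    (θ₁ : 𝕋₁ →+* ResidueField 𝒪) (θ₂ : 𝕋₂ →+* ResidueField 𝒪)
    (up : B →ₗ[ℤ] A) (hup : ∀ t, up ∘ₗ ηB t = ηA t ∘ₗ up)
    (down : A →ₗ[ℤ] B) (hdown : ∀ t, down ∘ₗ ηA t = ηB t ∘ₗ down)
    (φ : B →ₗ[ℤ] C)
    (hφ1 : ∀ v ∈ thetaPart ηB θ₁, φ.baseChange 𝒪 v ∈ thetaPart ηC θ₂)
    (hφ2 : ∀ x ∈ thetaPart ηC θ₂, ∃ v ∈ thetaPart ηB θ₁, φ.baseChange 𝒪 v = x)
    (hφ3 : ∀ v ∈ thetaPart ηB θ₁, φ.baseChange 𝒪 v = 0 → v = 0)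
    (hinj : ∀ y ∈ thetaPart ηB θ₁, up.baseChange 𝒪 y = 0 → y = 0) :
    ∃ (π : ↥(thetaPart ηA θ₁) →ₗ[𝒪] ↥(thetaPart ηC θ₂))
      (πup : ↥(thetaPart ηC θ₂) →ₗ[𝒪] ↥(thetaPart ηA θ₁)),
      Function.Injective πup ∧
      (∀ x : ↥(thetaPart ηA θ₁),
        ((πup (π x) : ↥(thetaPart ηA θ₁)) : 𝒪 ⊗[ℤ] A) = (up ∘ₗ down).baseChange 𝒪 x.1) ∧
      (∀ (v : 𝒪 ⊗[ℤ] B) (hv : v ∈ thetaPart ηB θ₁),
        ((πup ⟨φ.baseChange 𝒪 v, hφ1 v hv⟩ : ↥(thetaPart ηA θ₁)) : 𝒪 ⊗[ℤ] A)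
          = up.baseChange 𝒪 v) ∧
      (∀ x : ↥(thetaPart ηA θ₁),
        ((π x : ↥(thetaPart ηC θ₂)) : 𝒪 ⊗[ℤ] C) = φ.baseChange 𝒪 (down.baseChange 𝒪 x.1)) := by
  -- `ω`
  let ω₀ : ↥(thetaPart ηB θ₁) →ₗ[𝒪] ↥(thetaPart ηC θ₂) :=
    (φ.baseChange 𝒪).restrict hφ1
  have hω₀ : ∀ v : ↥(thetaPart ηB θ₁),
      ((ω₀ v : ↥(thetaPart ηC θ₂)) : 𝒪 ⊗[ℤ] C) = φ.baseChange 𝒪 v.1 := fun v => rfl
  have hbij : Function.Bijective ω₀ := by
    constructor
    · rw [← LinearMap.ker_eq_bot, LinearMap.ker_eq_bot']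
      intro v hv
      have h0 : φ.baseChange 𝒪 v.1 = 0 := by
        rw [← hω₀, hv]
        rfl
      exact Subtype.ext (hφ3 v.1 v.2 h0)
    · intro x
      obtain ⟨v, hv, hvx⟩ := hφ2 x.1 x.2
      exact ⟨⟨v, hv⟩, Subtype.ext hvx⟩
  let ω : ↥(thetaPart ηB θ₁) ≃ₗ[𝒪] ↥(thetaPart ηC θ₂) := LinearEquiv.ofBijective ω₀ hbij
  have hω : ∀ v, ω v = ω₀ v := fun v => rfl
  let U : ↥(thetaPart ηB θ₁) →ₗ[𝒪] ↥(thetaPart ηA θ₁) := thetaMap θ₁ up hup
  let D : ↥(thetaPart ηA θ₁) →ₗ[𝒪] ↥(thetaPart ηB θ₁) := thetaMap θ₁ down hdown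
  have hU : ∀ v : ↥(thetaPart ηB θ₁),
      ((U v : ↥(thetaPart ηA θ₁)) : 𝒪 ⊗[ℤ] A) = up.baseChange 𝒪 v.1 := fun v => rfl
  have hD : ∀ x : ↥(thetaPart ηA θ₁),
      ((D x : ↥(thetaPart ηB θ₁)) : 𝒪 ⊗[ℤ] B) = down.baseChange 𝒪 x.1 := fun x => rfl
  have hUinj : Function.Injective U := by
    rw [← LinearMap.ker_eq_bot, LinearMap.ker_eq_bot']
    intro v hv
    have h0 : up.baseChange 𝒪 v.1 = 0 := by
      rw [← hU, hv]
      rfl
    exact Subtype.ext (hinj v.1 v.2 h0)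
  refine ⟨ω.toLinearMap ∘ₗ D, U ∘ₗ ω.symm.toLinearMap, ?_, ?_, ?_, ?_⟩
  · exact hUinj.comp ω.symm.injective
  · intro x
    show ((U (ω.symm (ω (D x))) : ↥(thetaPart ηA θ₁)) : 𝒪 ⊗[ℤ] A) = _
    rw [LinearEquiv.symm_apply_apply, hU, hD, LinearMap.baseChange_comp]
    rfl
  · intro v hv
    show ((U (ω.symm ⟨φ.baseChange 𝒪 v, hφ1 v hv⟩) : ↥(thetaPart ηA θ₁)) : 𝒪 ⊗[ℤ] A) = _
    have h1 : (⟨φ.baseChange 𝒪 v, hφ1 v hv⟩ : ↥(thetaPart ηC θ₂)) = ω ⟨v, hv⟩ := rfl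
    rw [h1, LinearEquiv.symm_apply_apply, hU]
  · intro x
    show ((ω (D x) : ↥(thetaPart ηC θ₂)) : 𝒪 ⊗[ℤ] C) = _
    rw [hω, hω₀, hD]

end Fermat.Agent.NEB.Geom.H14

end
end
-- ==== END Fermat.Agent.NEB.Geom.H14_PiAbs

-- ==== BEGIN Fermat.Agent.NEB.Geom.H39_WEig
section

/-!
# NEB-GEOM, leaf **W-EIG** (helper39), abstract form

`A` an abelian group with operators `η : 𝕋 →+* End_ℤ A` (`𝕋` commutative), `W = thetaPart η θ`
the `θ`-part of `𝒪 ⊗ A` (helper2), assumed `p`-divisible.  `D ⊆ A` a subgroup containing `p ^ e A`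
on which the Hecke algebra of level `N'` acts (`etaD`, from `H39.stmt_EIG_A`), the generators
`T_ℓ` acting as `η (z ℓ)`.

`stmt_W_EIG` : there is a ring homomorphism `etaW : heckeAlgebra N' 2 S → End_𝒪 W` with
`etaW (T_ℓ) = thetaEta η θ (z ℓ)`, and every `etaW x` is of the form `thetaEta η θ t` with
`θ' x = θ t` (so: `etaW x` commutes with everything commuting with `η`, and `etaW x - a` is
locally nilpotent for `a ↦ θ' x`).
-/

set_option autoImplicit false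

namespace Fermat.Agent.NEB.Geom.H39

open IsLocalRing TensorProduct Module
open Fermat.Agent.S59.Lim Fermat.Agent.S59.Lim.H2
open Fermat.Agent.NEB.EIG.H39

section WEig

variable {𝒪 : Type} [CommRing 𝒪] [IsLocalRing 𝒪] {𝕋 : Type} [CommRing 𝕋]
  {A : Type} [AddCommGroup A] (η : 𝕋 →+* Module.End ℤ A) (θ : 𝕋 →+* ResidueField 𝒪)

theorem exists_pow_smul_of_div (p : ℕ)
    (hWdiv : ∀ w : ↥(thetaPart η θ), ∃ w' : ↥(thetaPart η θ), (p : 𝒪) • w' = w) (e : ℕ)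
    (w : ↥(thetaPart η θ)) : ∃ w' : ↥(thetaPart η θ), (p : 𝒪) ^ e • w' = w := by
  induction e generalizing w with
  | zero => exact ⟨w, by rw [pow_zero, one_smul]⟩
  | succ e ih =>
    obtain ⟨w₁, hw₁⟩ := hWdiv w
    obtain ⟨w₂, hw₂⟩ := ih w₁
    exact ⟨w₂, by rw [pow_succ, mul_comm, mul_smul, hw₂, hw₁]⟩

/-- An element of `𝕋` which kills `p ^ e A` acts as zero on a `p`-divisible `θ`-part. -/
theorem thetaEta_eq_zero_of (p e : ℕ)
    (hWdiv : ∀ w : ↥(thetaPart η θ), ∃ w' : ↥(thetaPart η θ), (p : 𝒪) • w' = w)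
    (t : 𝕋) (ht : ∀ x : A, η t (p ^ e • x) = 0) : thetaEta η θ t = 0 := by
  have h0 : ((p ^ e : ℕ) : ℤ) • η t = 0 := by
    refine LinearMap.ext fun x => ?_
    rw [LinearMap.smul_apply, LinearMap.zero_apply, ← map_zsmul, natCast_zsmul]
    exact ht x
  refine LinearMap.ext fun w => ?_
  obtain ⟨w', rfl⟩ := exists_pow_smul_of_div η θ p hWdiv e w
  rw [map_smul, LinearMap.zero_apply]
  refine Subtype.ext ?_
  rw [Submodule.coe_smul, thetaEta_apply, Submodule.coe_zero]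
  have h1 : ((((p ^ e : ℕ) : ℤ) • η t).baseChange 𝒪) (w' : 𝒪 ⊗[ℤ] A) = 0 := by
    rw [h0, LinearMap.baseChange_zero, LinearMap.zero_apply]
  rw [LinearMap.baseChange_smul, LinearMap.smul_apply, ← Int.cast_smul_eq_zsmul 𝒪] at h1
  rw [← h1]
  push_cast
  rfl

variable {N' : ℕ} [NeZero N'] {S : Set ℕ}

/-- **W-EIG**, abstract form. -/
theorem stmt_W_EIG (p e : ℕ)
    (hWdiv : ∀ w : ↥(thetaPart η θ), ∃ w' : ↥(thetaPart η θ), (p : 𝒪) • w' = w)
    (D : AddSubgroup A) (hD : ∀ x : A, p ^ e • x ∈ D)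
    (hS : ∀ q : ℕ, q.Prime → q ∣ N' → q ∈ S)
    (etaD : CuspForm.heckeAlgebra N' 2 S →+* Module.End ℤ ↥D)
    (z : ℕ → 𝕋)
    (hz : ∀ (ℓ : ℕ) (hℓ : ℓ.Prime) (hℓN : ¬ ℓ ∣ N') (hℓS : ℓ ∉ S) (x : ↥D),
      ((etaD (CuspForm.heckeAlgebra.T hℓ hℓN hℓS) x : ↥D) : A) = η (z ℓ) (x : A))
    (θ' : CuspForm.heckeAlgebra N' 2 S →+* ResidueField 𝒪)
    (hθ : ∀ (ℓ : ℕ) (hℓ : ℓ.Prime) (hℓN : ¬ ℓ ∣ N') (hℓS : ℓ ∉ S),
      θ' (CuspForm.heckeAlgebra.T hℓ hℓN hℓS) = θ (z ℓ)) :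
    ∃ etaW : CuspForm.heckeAlgebra N' 2 S →+* Module.End 𝒪 ↥(thetaPart η θ),
      (∀ (ℓ : ℕ) (hℓ : ℓ.Prime) (hℓN : ¬ ℓ ∣ N') (hℓS : ℓ ∉ S),
        etaW (CuspForm.heckeAlgebra.T hℓ hℓN hℓS) = thetaEta η θ (z ℓ)) ∧
      (∀ x, ∃ t : 𝕋, etaW x = thetaEta η θ t ∧ θ' x = θ t) ∧
      (∀ (x : CuspForm.heckeAlgebra N' 2 S) (a : 𝒪), residue 𝒪 a = θ' x →
        ∀ w : ↥(thetaPart η θ),
          ∃ m : ℕ, ((etaW x - a • (1 : Module.End 𝒪 ↥(thetaPart η θ))) ^ m) w = 0) := by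
  have hall : ∀ x : CuspForm.heckeAlgebra N' 2 S, ∃ t : 𝕋,
      (∀ y : ↥D, ((etaD x y : ↥D) : A) = η t (y : A)) ∧ θ' x = θ t := by
    refine hecke_induction hS (fun ℓ hℓ hℓN hℓS => ⟨z ℓ, hz ℓ hℓ hℓN hℓS, hθ ℓ hℓ hℓN hℓS⟩)
      (fun n => ⟨(n : 𝕋), fun y => ?_, ?_⟩) (fun x x' hx hx' => ?_) (fun x x' hx hx' => ?_)
    · rw [map_intCast, map_intCast, Module.End.intCast_apply, Module.End.intCast_apply]
      rfl
    · rw [map_intCast, map_intCast]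
    · obtain ⟨t, ht, ht'⟩ := hx
      obtain ⟨u, hu, hu'⟩ := hx'
      refine ⟨t + u, fun y => ?_, by rw [map_add, map_add, ht', hu']⟩
      rw [map_add, map_add, LinearMap.add_apply, LinearMap.add_apply, AddSubgroup.coe_add,
        ht y, hu y]
    · obtain ⟨t, ht, ht'⟩ := hx
      obtain ⟨u, hu, hu'⟩ := hx'
      refine ⟨t * u, fun y => ?_, by rw [map_mul, map_mul, ht', hu']⟩
      rw [map_mul, map_mul, Module.End.mul_apply, Module.End.mul_apply, ht, hu]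
  choose c hc1 hc2 using hall
  have huniq : ∀ (x : CuspForm.heckeAlgebra N' 2 S) (t : 𝕋),
      (∀ y : ↥D, ((etaD x y : ↥D) : A) = η t (y : A)) →
        thetaEta η θ (c x) = thetaEta η θ t := by
    intro x t ht
    have hs : thetaEta η θ (c x - t) = 0 := by
      apply thetaEta_eq_zero_of η θ p e hWdiv
      intro a
      rw [map_sub, LinearMap.sub_apply]
      have h1 := hc1 x ⟨p ^ e • a, hD a⟩
      have h2 := ht ⟨p ^ e • a, hD a⟩
      rw [← h1, ← h2, sub_self]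
    rw [map_sub] at hs
    exact sub_eq_zero.mp hs
  refine ⟨{ toFun := fun x => thetaEta η θ (c x)
            map_one' := by
              rw [huniq 1 1 (fun y => by rw [map_one, map_one]; rfl), map_one]
            map_mul' := fun x x' => by
              rw [huniq (x * x') (c x * c x') (fun y => by
                rw [map_mul, map_mul, Module.End.mul_apply, Module.End.mul_apply, hc1, hc1]),
                map_mul]
            map_zero' := by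
              rw [huniq 0 0 (fun y => by rw [map_zero, map_zero]; rfl), map_zero]
            map_add' := fun x x' => by
              rw [huniq (x + x') (c x + c x') (fun y => by
                rw [map_add, map_add, LinearMap.add_apply, LinearMap.add_apply,
                  AddSubgroup.coe_add, hc1, hc1]), map_add] },
    fun ℓ hℓ hℓN hℓS => huniq _ _ (hz ℓ hℓ hℓN hℓS), fun x => ⟨c x, rfl, hc2 x⟩,
    fun x a ha w => thetaEta_local (c x) a (ha.trans (hc2 x)) w⟩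

end WEig

end Fermat.Agent.NEB.Geom.H39

end
-- ==== END Fermat.Agent.NEB.Geom.H39_WEig
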