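-- GENERATED (merged mirror, NOTES/tools/trim/merge3_helper67.py): 8 modules of the originals, bodies verbatim.
import Mathlib
import Mathlib.LinearAlgebra.TensorProduct.Pi
import Fermat.Agent.Zm.S43_L08_002
import Fermat.Agent.Zm.S43_L01_002
import Fermat.Agent.Zm.S43_L08_000
import Fermat.Agent.Zm.S43_L02_002
import Fermat.Agent.Zm.S43_L03_005
import Fermat.Agent.Zm.S33_L10_000
import Fermat.Agent.Zm.S33_L04_002
import Fermat.Agent.Zm.S33_L04_001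
import Fermat.Agent.Zm.S33_L05_001
import Fermat.Agent.Zm.S33_L08_000
import Fermat.Agent.Zm.S43_L03_003
import Fermat.Agent.Zm.S43_L01_003
import Fermat.Agent.Zm.S35_L04_002
import Fermat.Agent.Zm.S43_L08_001
import Fermat.Agent.Zm.S35_L21_000
import Fermat.Agent.Zm.S43_L06_002
import Fermat.Agent.Zm.S33_L03_002

-- ==== BEGIN Fermat.Agent.NEB.Geom.H6_ThetaNontriv
section

/-!
# NEB-GEOM, leaf W-MD, abstract part N2 (helper6, for helper26)

`nontrivial_thetaPart_of_functional`: the `θ`-part of `𝒪 ⊗ B` is nontrivial if the finite group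
`B` (killed by `p`) carries a nonzero Hecke-eigen functional `μ : B → k` with eigensystem `θ`.

Proof: `λ(a ⊗ x) = ā μ(x)` kills `I • (𝒪 ⊗ B)`, `I` the ideal generated by the `1 ⊗ t - a ⊗ 1`
(`ā = θ t`); in the primary decomposition `w₀ = y + z` of `w₀ = 1 ⊗ x₀` (LOC, helper61) the
stable part `z` lies in `I • L`, so `λ y = μ x₀ ≠ 0` and `y ≠ 0` lies in the `θ`-part.
-/

set_option autoImplicit false
set_option linter.style.haveILetI false

noncomputable section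

open IsLocalRing TensorProduct

namespace Fermat.Agent.NEB.Geom.H6

open Fermat.Agent.S59.Lim Fermat.Agent.S59.Lim.H2

section N2

variable {𝒪 : Type} [CommRing 𝒪] [IsDomain 𝒪] [IsDiscreteValuationRing 𝒪]
  {𝕋 : Type} [CommRing 𝕋] {B : Type} [AddCommGroup B]

/-- The bilinear map `(a, x) ↦ ā μ(x)`. -/
def tensBilin (μ : B →+ ResidueField 𝒪) : 𝒪 →ₗ[ℤ] B →ₗ[ℤ] ResidueField 𝒪 :=
  LinearMap.mk₂ ℤ (fun (a : 𝒪) (x : B) => residue 𝒪 a * μ x)
    (fun a a' x => by rw [map_add, add_mul])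
    (fun c a x => by rw [map_zsmul, smul_mul_assoc])
    (fun a x x' => by rw [map_add, mul_add])
    (fun c a x => by rw [map_zsmul, mul_smul_comm])

/-- The functional `a ⊗ x ↦ ā μ(x)` on `𝒪 ⊗ B`. -/
def tensFunctional (μ : B →+ ResidueField 𝒪) : 𝒪 ⊗[ℤ] B →+ ResidueField 𝒪 :=
  (TensorProduct.lift (tensBilin μ)).toAddMonoidHom

theorem tensFunctional_tmul (μ : B →+ ResidueField 𝒪) (a : 𝒪) (x : B) :
    tensFunctional μ (a ⊗ₜ[ℤ] x) = residue 𝒪 a * μ x :=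
  TensorProduct.lift.tmul (f' := tensBilin μ) a x

/-- `λ` kills the image of `η t - a` when `ā = θ t`. -/
theorem tensFunctional_gen (η : 𝕋 →+* Module.End ℤ B) (θ : 𝕋 →+* ResidueField 𝒪)
    (μ : B →+ ResidueField 𝒪) (hμ : ∀ t x, μ (η t x) = θ t * μ x)
    (t : 𝕋) (a : 𝒪) (ha : residue 𝒪 a = θ t) (w : 𝒪 ⊗[ℤ] B) :
    tensFunctional μ (((η t).baseChange 𝒪 - a • (1 : Module.End 𝒪 (𝒪 ⊗[ℤ] B))) w) = 0 := by
  induction w using TensorProduct.induction_on with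
  | zero => rw [map_zero, map_zero]
  | tmul b x =>
    rw [LinearMap.sub_apply, LinearMap.smul_apply, Module.End.one_apply,
      LinearMap.baseChange_tmul, TensorProduct.smul_tmul', smul_eq_mul, map_sub,
      tensFunctional_tmul, tensFunctional_tmul, hμ, map_mul, ha]
    ring
  | add w w' hw hw' =>
    rw [map_add, map_add, hw, hw', add_zero]

/-- **N2**: the `θ`-part of `𝒪 ⊗ B` is nontrivial if the finite group `B` (killed by `p`)
carries a Hecke-eigen functional. -/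
theorem nontrivial_thetaPart_of_functional [Finite (ResidueField 𝒪)]
    {p : ℕ} (hpm : (p : 𝒪) ∈ maximalIdeal 𝒪) (hp0 : (p : 𝒪) ≠ 0)
    [Finite B] (hB : ∀ b : B, p • b = 0)
    (η : 𝕋 →+* Module.End ℤ B) (θ : 𝕋 →+* ResidueField 𝒪)
    (μ : B →+ ResidueField 𝒪) (hμ : ∀ t x, μ (η t x) = θ t * μ x)
    (x₀ : B) (hx₀ : μ x₀ ≠ 0) :
    Nontrivial ↥(thetaPart η θ) := by
  obtain ⟨ϖ, hϖ⟩ := IsDiscreteValuationRing.exists_irreducible 𝒪
  haveI hfinX : Finite (𝒪 ⊗[ℤ] B) := finite_tens_of_finite hϖ hpm hp0 B hB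
  letI := opModule 𝒪 η
  have hlf : ∀ x : 𝒪 ⊗[ℤ] B, Finite (Submodule.span (opRing 𝒪 𝕋) {x}) :=
    fun x => inferInstance
  set I : Ideal (opRing 𝒪 𝕋) := Ideal.span (thetaGens 𝒪 θ) with hI
  -- `λ` kills `I • X`
  have hgen : ∀ g ∈ thetaGens 𝒪 θ, ∀ w : 𝒪 ⊗[ℤ] B,
      tensFunctional μ (opHom 𝒪 η g w) = 0 := by
    rintro g ⟨t, a, ha, rfl⟩ w
    rw [opHom_gen]
    exact tensFunctional_gen η θ μ hμ t a ha w
  have hI0' : ∀ r ∈ I, ∀ w : 𝒪 ⊗[ℤ] B, tensFunctional μ (opHom 𝒪 η r w) = 0 := by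
    intro r hr
    induction hr using Submodule.span_induction with
    | mem g hg => exact hgen g hg
    | zero => intro w; rw [map_zero, LinearMap.zero_apply, map_zero]
    | add r r' _ _ h h' => intro w; rw [map_add, LinearMap.add_apply, map_add, h w, h' w, add_zero]
    | smul s r _ h =>
      intro w
      rw [smul_eq_mul, mul_comm, map_mul, Module.End.mul_apply]
      exact h _
  have hI0 : ∀ r ∈ I, ∀ w : 𝒪 ⊗[ℤ] B, tensFunctional μ (r • w) = 0 := hI0'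
  -- the decomposition of `w₀`
  have hcod := H61.codisjoint_prim_stab I hlf
  have hmem : ((1 : 𝒪) ⊗ₜ[ℤ] x₀ : 𝒪 ⊗[ℤ] B) ∈
      primPart I (𝒪 ⊗[ℤ] B) ⊔ stabPart I (𝒪 ⊗[ℤ] B) := by
    rw [codisjoint_iff.mp hcod]
    exact Submodule.mem_top
  obtain ⟨y, hy, z, hz, hyz⟩ := Submodule.mem_sup.mp hmem
  obtain ⟨L, _, hzL⟩ := (H61.mem_stabPart_iff I z).mp hz
  have hz1 : z ∈ (I • L : Submodule (opRing 𝒪 𝕋) (𝒪 ⊗[ℤ] B)) := by
    have h1 : H61.sInf' I L ≤ (I ^ 1 • L : Submodule (opRing 𝒪 𝕋) (𝒪 ⊗[ℤ] B)) := iInf_le _ 1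
    have h2 := h1 hzL
    rwa [pow_one] at h2
  have hz0 : tensFunctional μ z = 0 := by
    refine Submodule.smul_induction_on hz1 (fun r hr l _ => hI0 r hr l) (fun a b ha hb => ?_)
    rw [map_add, ha, hb, add_zero]
  have hy0 : tensFunctional μ y ≠ 0 := by
    have h1 : tensFunctional μ y = μ x₀ := by
      have h2 := congrArg (tensFunctional μ) hyz
      rw [map_add, hz0, add_zero, tensFunctional_tmul, map_one, one_mul] at h2
      exact h2
    rw [h1]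
    exact hx₀
  have hyne : y ≠ 0 := by
    intro h
    apply hy0
    rw [h, map_zero]
  have hyθ : y ∈ thetaPart η θ := (mem_thetaPart_iff_primPart' η θ hlf y).mpr hy
  exact ⟨⟨⟨y, hyθ⟩, 0, fun h => hyne (congrArg Subtype.val h)⟩⟩

end N2

end Fermat.Agent.NEB.Geom.H6

end
end
-- ==== END Fermat.Agent.NEB.Geom.H6_ThetaNontriv

-- ==== BEGIN Fermat.Agent.NEB.OLD.H14_Gen
section

/-!
# NEB (helper14): the `θ`-part is cut out by generators

`mem_thetaPart_iff_gens` : if the ring `𝕋` is generated by a set `G` and `x ∈ 𝒪 ⊗_ℤ A` is killed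
by a power of every `e ∈ 𝔪_𝒪`, then

`x ∈ thetaPart η θ ↔ ∀ g ∈ G, ∃ a, residue a = θ g ∧ x ∈ gk ((η g)_𝒪 - a)`.

Method: `nilIdeal ρ x = {r | ∃ n, ρ(r)^n x = 0}` is an ideal of the commutative ring
`𝒪 ⊗_ℤ 𝕋` (`ρ = opHom 𝒪 η`).
-/

set_option autoImplicit false
set_option linter.unusedSectionVars false
set_option linter.style.haveILetI false

noncomputable section

open IsLocalRing TensorProduct Module

namespace Fermat.Agent.NEB.OLD

open Fermat.Agent.S59.Lim Fermat.Agent.S59.Lim.H2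

section NilIdeal

variable {𝒪 : Type*} [CommRing 𝒪] {W : Type*} [AddCommGroup W] [Module 𝒪 W]
  {R : Type*} [CommRing R]

/-- The elements of a commutative ring of operators which are nilpotent on `x`. -/
def nilIdeal (ρ : R →+* Module.End 𝒪 W) (x : W) : Ideal R where
  carrier := {r | ∃ n : ℕ, ((ρ r) ^ n) x = 0}
  zero_mem' := ⟨1, by rw [map_zero, pow_one, LinearMap.zero_apply]⟩
  add_mem' := by
    rintro r s ⟨n, hn⟩ ⟨k, hk⟩
    refine ⟨n + k, ?_⟩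
    rw [map_add]
    exact Fermat.Agent.NEB.OLD.H38.add_pow_apply_eq_zero ((Commute.all r s).map ρ) hn hk
  smul_mem' := by
    rintro c r ⟨n, hn⟩
    refine ⟨n, ?_⟩
    rw [smul_eq_mul, map_mul, ((Commute.all c r).map ρ).mul_pow, Module.End.mul_apply, hn,
      map_zero]

theorem mem_nilIdeal {ρ : R →+* Module.End 𝒪 W} {x : W} {r : R} :
    r ∈ nilIdeal ρ x ↔ ∃ n : ℕ, ((ρ r) ^ n) x = 0 := Iff.rfl

end NilIdeal

section Abstract

variable {𝒪 : Type*} [CommRing 𝒪] [IsLocalRing 𝒪] {𝕋 : Type*} [CommRing 𝕋]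
  {R : Type*} [CommRing R]

/-- The abstract form: in a commutative ring `R` with `ι₁ : 𝒪 → R`, `ι₂ : 𝕋 → R` and an ideal
`I ⊇ ι₁ 𝔪`: if `ι₂ g - ι₁ a_g ∈ I` for generators `g` (some lift `a_g` of `θ g`), then
`ι₂ t - ι₁ a ∈ I` for all `t` and all lifts `a` of `θ t`. -/
theorem mem_ideal_of_gens (ι₁ : 𝒪 →+* R) (ι₂ : 𝕋 →+* R) (I : Ideal R)
    (θ : 𝕋 →+* ResidueField 𝒪) (G : Set 𝕋)
    (hm : ∀ e ∈ maximalIdeal 𝒪, ι₁ e ∈ I)
    (hG : ∀ g ∈ G, ∃ a : 𝒪, residue 𝒪 a = θ g ∧ ι₂ g - ι₁ a ∈ I)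
    (t : 𝕋) (ht : t ∈ Subring.closure G) (a : 𝒪) (ha : residue 𝒪 a = θ t) :
    ι₂ t - ι₁ a ∈ I := by
  have hres : ∀ u v : 𝒪, residue 𝒪 u = residue 𝒪 v → ι₁ u - ι₁ v ∈ I := by
    intro u v huv
    rw [← map_sub]
    refine hm _ ?_
    rw [← residue_eq_zero_iff, map_sub, huv, sub_self]
  induction ht using Subring.closure_induction generalizing a with
  | mem g hg =>
    obtain ⟨a₀, ha₀, h₀⟩ := hG g hg
    have e : ι₂ g - ι₁ a = (ι₂ g - ι₁ a₀) + (ι₁ a₀ - ι₁ a) := by ring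
    rw [e]
    exact I.add_mem h₀ (hres a₀ a (ha₀.trans ha.symm))
  | zero =>
    have e : ι₂ 0 - ι₁ a = ι₁ 0 - ι₁ a := by rw [map_zero, map_zero]
    rw [e]
    exact hres 0 a (by rw [ha, map_zero, map_zero])
  | one =>
    have e : ι₂ 1 - ι₁ a = ι₁ 1 - ι₁ a := by rw [map_one, map_one]
    rw [e]
    exact hres 1 a (by rw [ha, map_one, map_one])
  | add t t' _ _ iht iht' =>
    obtain ⟨b, hb⟩ := residue_surjective (θ t)
    obtain ⟨b', hb'⟩ := residue_surjective (θ t')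
    have e : ι₂ (t + t') - ι₁ a
        = (ι₂ t - ι₁ b) + (ι₂ t' - ι₁ b') + (ι₁ (b + b') - ι₁ a) := by
      rw [map_add, map_add]; ring
    rw [e]
    exact I.add_mem (I.add_mem (iht b hb) (iht' b' hb'))
      (hres (b + b') a (by rw [map_add, hb, hb', ha, map_add]))
  | neg t _ iht =>
    have e : ι₂ (-t) - ι₁ a = -(ι₂ t - ι₁ (-a)) := by
      rw [map_neg, map_neg]; ring
    rw [e]
    exact I.neg_mem (iht (-a) (by rw [map_neg, ha, map_neg, neg_neg]))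
  | mul t t' _ _ iht iht' =>
    obtain ⟨b, hb⟩ := residue_surjective (θ t)
    obtain ⟨b', hb'⟩ := residue_surjective (θ t')
    have e : ι₂ (t * t') - ι₁ a
        = ι₂ t * (ι₂ t' - ι₁ b') + ι₁ b' * (ι₂ t - ι₁ b) + (ι₁ (b * b') - ι₁ a) := by
      rw [map_mul, map_mul]; ring
    rw [e]
    exact I.add_mem (I.add_mem (I.mul_mem_left _ (iht' b' hb')) (I.mul_mem_left _ (iht b hb)))
      (hres (b * b') a (by rw [map_mul, hb, hb', ha, map_mul]))

end Abstract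

section Gen

variable {𝒪 : Type} [CommRing 𝒪] [IsLocalRing 𝒪] {𝕋 : Type} [CommRing 𝕋]
  {A : Type} [AddCommGroup A]

/-- **The `θ`-part is cut out by generators.** -/
theorem mem_thetaPart_iff_gens (η : 𝕋 →+* Module.End ℤ A) (θ : 𝕋 →+* ResidueField 𝒪)
    (G : Set 𝕋) (hG : Subring.closure G = ⊤) (x : 𝒪 ⊗[ℤ] A)
    (htors : ∀ e ∈ maximalIdeal 𝒪, ∃ n : ℕ, e ^ n • x = 0) :
    x ∈ thetaPart η θ ↔ ∀ g ∈ G, ∃ a : 𝒪, residue 𝒪 a = θ g ∧
      ∃ n : ℕ, (((η g).baseChange 𝒪 - a • (1 : Module.End 𝒪 (𝒪 ⊗[ℤ] A))) ^ n) x = 0 := by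
  constructor
  · intro hx g _
    obtain ⟨a, ha⟩ := residue_surjective (θ g)
    exact ⟨a, ha, mem_thetaPart.mp hx g a ha⟩
  · intro hx
    rw [mem_thetaPart]
    intro t a ha
    let ρ : opRing 𝒪 𝕋 →+* Module.End 𝒪 (𝒪 ⊗[ℤ] A) := (opHom 𝒪 η).toRingHom
    let ι₁ : 𝒪 →+* opRing 𝒪 𝕋 := Algebra.TensorProduct.includeLeftRingHom
    let ι₂ : 𝕋 →+* opRing 𝒪 𝕋 :=
      (Algebra.TensorProduct.includeRight : 𝕋 →ₐ[ℤ] 𝒪 ⊗[ℤ] 𝕋).toRingHom
    have hρ : ∀ (t : 𝕋) (a : 𝒪), ρ (ι₂ t - ι₁ a)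
        = (η t).baseChange 𝒪 - a • (1 : Module.End 𝒪 (𝒪 ⊗[ℤ] A)) := fun t a => opHom_gen η t a
    have hm : ∀ e ∈ maximalIdeal 𝒪, ι₁ e ∈ nilIdeal ρ x := by
      intro e he
      obtain ⟨n, hn⟩ := htors e he
      refine ⟨n, ?_⟩
      rw [← map_pow]
      have : (ι₁ e) ^ n = ι₁ (e ^ n) := (map_pow ι₁ e n).symm
      rw [this]
      exact (opHom_pi η (e ^ n) x).trans hn
    have hG' : ∀ g ∈ G, ∃ a : 𝒪, residue 𝒪 a = θ g ∧ ι₂ g - ι₁ a ∈ nilIdeal ρ x := by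
      intro g hg
      obtain ⟨a, ha, n, hn⟩ := hx g hg
      exact ⟨a, ha, n, by rw [hρ]; exact hn⟩
    have key := mem_ideal_of_gens ι₁ ι₂ (nilIdeal ρ x) θ G hm hG' t
      (by rw [hG]; exact Subring.mem_top t) a ha
    obtain ⟨n, hn⟩ := key
    exact ⟨n, by rw [hρ] at hn; exact hn⟩

end Gen

end Fermat.Agent.NEB.OLD

end
end
-- ==== END Fermat.Agent.NEB.OLD.H14_Gen

-- ==== BEGIN Fermat.Agent.S33.New.H36_StrictFinal
section

/-!
# S59, package COND, leaf STRICT (helper36): `Stmt_OrdNewStrict`, unconditional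

`stmt_OrdNewStrict : S59.Asm.Stmt_OrdNewStrict` : in the `p`-new case the representation is
STRICTLY ordinary at `p`.

* (T3) at all levels: helper86's `torsOrdNew_all` (as in `Fermat/Agent/S33.lean`);
* the `K1`-test for `σ²`, `σ` in the decomposition group: (FROB2) at the tame levels
  (`H36.stmt_Frob2Tame`), descent at `p = 3` (`H86.stmt_Frob2Desc3`), `H86.k1Test_sq_all`;
* the line and the characters: `H54.ordNew_line`, `H36.ordNewStrict_of_k1`.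
-/

set_option autoImplicit false

noncomputable section

namespace Fermat.Agent.S33.New.H36

/-- **(T3)** at all levels (as in `Fermat/Agent/S33.lean`). -/
theorem stmt_TorsOrdNew_all (M p : ℕ) [NeZero M] [NeZero p] :
    Fermat.Agent.S33.New.H54.Stmt_TorsOrdNew M p :=
  Fermat.Agent.S33.New.H86.torsOrdNew_all Fermat.Agent.BADP.H19.stmt_ABSP
    Fermat.Agent.S33.New.H9.stmt_NormWq Fermat.Agent.S33.New.H28.stmt_Red2
    Fermat.Agent.S33.New.H86.stmt_PW1 Fermat.Agent.S33.New.H51.stmt_Desc3 M p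

/-- **`Stmt_OrdNewStrict`**, unconditional. -/
theorem stmt_OrdNewStrict : Fermat.Agent.S59.Asm.Stmt_OrdNewStrict :=
  ordNewStrict_of_k1 (fun M p _ _ => stmt_TorsOrdNew_all M p)
    (fun M p _ _ hp hp2 hpM A hA σ hσ =>
      Fermat.Agent.S33.New.H86.k1Test_sq_all stmt_Frob2Tame M p hp hp2 hpM A hA σ hσ)

end Fermat.Agent.S33.New.H36

end
end
-- ==== END Fermat.Agent.S33.New.H36_StrictFinal

-- ==== BEGIN Fermat.Agent.S59.Asm.H57_Compat
section

/-!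
# S59, package ASM, leaf COMPAT (helper57)

Two local `𝒪`-algebra homomorphisms `f₁ f₂ : D.R → A` out of a universal deformation ring, the
second one classifying `ρA`, the first one giving the Frobenius characteristic polynomials of
`ρA` outside a finite set of primes, are equal.

Frobenius density + continuity (`R.H91.charpoly_eq_of_frobenius`) give equal characteristic
polynomials everywhere; Carayol's theorem (`R.H25.isEquiv_of_trace_eq`) gives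
`ρA ≅ D.ρ ⊗_{f₁} A`; conclude by the uniqueness in the universal property.
-/

set_option autoImplicit false

open Polynomial IsLocalRing

namespace Fermat.Agent.S59.Asm.H57

open Fermat.Agent.S59 Fermat.Agent.S59.TWGal

/-- Two representations over a noetherian local ring with the same Frobenius characteristic
polynomials outside a finite set of primes, the first one residually absolutely irreducible,
are equivalent. -/
theorem isEquiv_of_frobenius {A : Type} [CommRing A] [IsLocalRing A] [IsNoetherianRing A]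
    (ρ₁ ρ₂ : GaloisRepAdic A) (hirr : ρ₁.residual.IsAbsolutelyIrreducible) (S : Finset ℕ)
    (h : ∀ ℓ : ℕ, ℓ.Prime → ℓ ∉ S → ∀ B : ValuationSubring (AlgebraicClosure ℚ),
      B.LiesOverPrime ℓ → ∀ σ : GalQ, B.IsFrobeniusAt σ ℓ →
        LinearMap.charpoly (ρ₁.ρ σ) = LinearMap.charpoly (ρ₂.ρ σ)) :
    ρ₁.IsEquiv ρ₂ := by
  have hT : ∀ x : A, (∀ n : ℕ, x ∈ maximalIdeal A ^ n) → x = 0 := by
    intro x hx
    have h0 : x ∈ (⨅ i : ℕ, maximalIdeal A ^ i : Ideal A) := by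
      rw [Ideal.mem_iInf]
      exact hx
    rw [Ideal.iInf_pow_eq_bot_of_isLocalRing (maximalIdeal A)
      (maximalIdeal.isMaximal A).ne_top, Ideal.mem_bot] at h0
    exact h0
  have hcp := Fermat.Agent.R.H91.charpoly_eq_of_frobenius
    Fermat.Agent.Lib.FrobDensity.stmt_FD hT ρ₁ ρ₂ S h
  refine Fermat.Agent.R.H25.isEquiv_of_trace_eq ρ₁ ρ₂ hirr fun σ => ?_
  have h1 := hcp σ
  rw [Fermat.Agent.R.H91.charpoly_eq_of_finrank_two ρ₁.finrank_eq,
    Fermat.Agent.R.H91.charpoly_eq_of_finrank_two ρ₂.finrank_eq] at h1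
  have h2 := congrArg (fun q : A[X] => q.coeff 1) h1
  simp only [coeff_add, coeff_sub, coeff_X_pow, coeff_C_mul, coeff_X_one, coeff_C, mul_one] at h2
  norm_num at h2
  exact h2

/-- **COMPAT.** -/
theorem stmt_COMPAT : Stmt_COMPAT := by
  intro 𝒪 _ _ _ _ ρbar 𝒟 D A _ _ _ _ _ _ hsurj ρA hρA hres f₁ f₂ h₁ h₂ S hfrob he₂
  -- the universal representation is residually absolutely irreducible
  have hD : D.ρ.residual.IsAbsolutelyIrreducible :=
    Fermat.Agent.S59.Datum.H57.absIrr_of_isEquiv D.residual_isEquiv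
      (Fermat.Agent.S59.Datum.H57.absIrr_baseChangeAlong _ ρbar D.absIrr)
  have hirr₁ : (D.ρ.baseChangeAlong (f₁ : D.R →+* A) h₁).residual.IsAbsolutelyIrreducible :=
    Fermat.Agent.R.H86.residual_absIrr_baseChangeAlong _ h₁ D.ρ hD
  have he₁ : (D.ρ.baseChangeAlong (f₁ : D.R →+* A) h₁).IsEquiv ρA :=
    isEquiv_of_frobenius _ ρA hirr₁ S hfrob
  obtain ⟨φ, -, huniq⟩ := D.universal A hsurj ρA hρA hres
  rw [huniq f₁ ⟨h₁, he₁⟩, huniq f₂ ⟨h₂, he₂⟩]

end Fermat.Agent.S59.Asm.H57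

end
-- ==== END Fermat.Agent.S59.Asm.H57_Compat

-- ==== BEGIN Fermat.Agent.S59.Asm.H7_CondFinal
section

set_option autoImplicit false

open Polynomial IsLocalRing CuspForm

namespace Fermat.Agent.S59.Asm.H7

open Fermat.Agent.R Fermat.Agent.S59 Fermat.Agent.S59.Datum

/-- Frozen S31 for the full local Hecke ring. -/
theorem stmt_UnrDatum : Stmt_UnrDatum :=
  fun _ _ _ _ _ _ _ _ hp hp𝒪 _ _ _ _ hpS hNS _ H q hq hqS =>
    Fermat.Agent.S31.result hp hp𝒪 hpS hNS H q hq hqS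

/-- Frozen S34 for the full local Hecke ring. -/
theorem stmt_UnipDatum : Stmt_UnipDatum :=
  fun _ _ _ _ _ _ _ _ hp hp𝒪 _ _ _ _ hpS hNS _ H q hq hqp hqN hq2 =>
    Fermat.Agent.S34.result hp hp𝒪 hpS hNS H q hq hqp hqN hq2

/-- S32 for the full local Hecke ring, from its version at the points. -/
theorem stmt_FlatDatum_of (hFP : Stmt_FlatPoint) : Stmt_FlatDatum :=
  fun _ _ _ _ _ _ _ _ hp hp2 hp𝒪 _ _ _ _ hpN hpS hNS _ H =>
    Fermat.Agent.S32.of_flatPoint hFP hp hp2 hp𝒪 hpN hpS hNS H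

end Fermat.Agent.S59.Asm.H7

namespace Fermat.Agent.S59.Asm

/-- **COND**. -/
theorem stmt_COND_of (hFP : Fermat.Agent.R.Stmt_FlatPoint) (hONS : Stmt_OrdNewStrict) :
    Stmt_COND :=
  H7.stmt_COND_core H7.stmt_UnrDatum H7.stmt_UnipDatum (H7.stmt_FlatDatum_of hFP)
    Fermat.Agent.R.H33.stmt_S30 hFP hONS Fermat.Agent.S59.Datum.H57.stmt_ResIrr
    Fermat.Agent.S59.Datum.H78.stmt_FlatDesc

end Fermat.Agent.S59.Asm

end
-- ==== END Fermat.Agent.S59.Asm.H7_CondFinal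

-- ==== BEGIN Fermat.Agent.S59.Asm.Plumb
section

/-!
# S59, package ASM (helper53): plumbing for the final assembly

Small general lemmas used by `Fermat.Agent.S59.Asm.twLevel_of_twGeom` (`Main.lean`).
-/

set_option autoImplicit false
set_option linter.unusedSectionVars false

open Polynomial CuspForm IsLocalRing

namespace Fermat.Agent.S59.Asm

open Fermat.Agent.S59 Fermat.Agent.S59.TWGal

section LocalHom

variable {𝒪 : Type*} [CommRing 𝒪] [IsLocalRing 𝒪]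
  {A : Type*} [CommRing A] [IsLocalRing A] [Algebra 𝒪 A] [Module.Finite 𝒪 A]
  [IsLocalHom (algebraMap 𝒪 A)]
  {B : Type*} [CommRing B] [IsLocalRing B] [Algebra 𝒪 B] [IsLocalHom (algebraMap 𝒪 B)]

/-- An `𝒪`-algebra homomorphism out of a local ring which is finite over `𝒪` is local. -/
theorem isLocalHom_of_finite (f : A →ₐ[𝒪] B) : IsLocalHom (f : A →+* B) := by
  constructor
  intro x hx
  by_contra hnu
  have hxm : x ∈ maximalIdeal A := (mem_maximalIdeal x).mpr hnu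
  obtain ⟨r, hr⟩ := H57.exists_pow_le_map (𝒪 := 𝒪) (T := A)
  have h1 : x ^ r ∈ (maximalIdeal 𝒪).map (algebraMap 𝒪 A) := hr (Ideal.pow_mem_pow hxm r)
  have h2 : (f : A →+* B) (x ^ r) ∈ ((maximalIdeal 𝒪).map (algebraMap 𝒪 A)).map (f : A →+* B) :=
    Ideal.mem_map_of_mem _ h1
  rw [Ideal.map_map] at h2
  have h3 : ((f : A →+* B).comp (algebraMap 𝒪 A)) = algebraMap 𝒪 B := f.comp_algebraMap
  rw [h3] at h2
  have h4 : (f : A →+* B) (x ^ r) ∈ maximalIdeal B := H57.map_maximalIdeal_le h2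
  rw [map_pow] at h4
  exact ((mem_maximalIdeal _).mp h4) (hx.pow r)

end LocalHom

section Adjoin

variable {𝒪 : Type*} [CommRing 𝒪] {T : Type*} [CommRing T] [Algebra 𝒪 T]

/-- Induction over an algebra generated by a set. -/
theorem adjoin_top_induction {s : Set T} (hs : Algebra.adjoin 𝒪 s = ⊤) {P : T → Prop}
    (hgen : ∀ x ∈ s, P x) (halg : ∀ a : 𝒪, P (algebraMap 𝒪 T a))
    (hadd : ∀ x y, P x → P y → P (x + y)) (hmul : ∀ x y, P x → P y → P (x * y)) (x : T) :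
    P x := by
  have hx : x ∈ Algebra.adjoin 𝒪 s := by rw [hs]; exact Algebra.mem_top
  induction hx using Algebra.adjoin_induction with
  | mem x hx => exact hgen x hx
  | algebraMap a => exact halg a
  | add x y _ _ hx hy => exact hadd x y hx hy
  | mul x y _ _ hx hy => exact hmul x y hx hy

end Adjoin

section Unip

variable {𝒪 : Type*} [CommRing 𝒪] [IsLocalRing 𝒪] {V : Type*} [AddCommGroup V] [Module 𝒪 V]

/-- An operator of `p`-power order is unipotent modulo the maximal ideal (`p` odd, `p ∈ 𝔪`). -/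
theorem unip_of_pow {p n : ℕ} (hp : p.Prime) (hp2 : p ≠ 2) (hp𝒪 : (p : 𝒪) ∈ maximalIdeal 𝒪)
    (d : Module.End 𝒪 V) (hd : d ^ (p ^ n) = 1) :
    ∃ m : ℕ, ∀ v : V, ((d - 1) ^ m) v ∈ (maximalIdeal 𝒪 • ⊤ : Submodule 𝒪 V) := by
  refine ⟨p ^ n, fun v => ?_⟩
  have hcomm : Commute d (-1 : Module.End 𝒪 V) := (Commute.one_right d).neg_right
  obtain ⟨r, hr⟩ := hcomm.exists_add_pow_prime_pow_eq hp n
  have hodd : Odd (p ^ n) := (hp.odd_of_ne_two hp2).pow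
  rw [hd, hodd.neg_one_pow, add_neg_cancel, zero_add, ← sub_eq_add_neg, mul_assoc, mul_assoc] at hr
  rw [hr, Module.End.mul_apply]
  have h1 : ∀ w : V, ((p : Module.End 𝒪 V)) w = (p : 𝒪) • w := by
    intro w
    have : ((p : ℕ) : Module.End 𝒪 V) = (p : 𝒪) • (1 : Module.End 𝒪 V) := by
      rw [Nat.cast_smul_eq_nsmul, nsmul_eq_mul, mul_one]
    rw [this, LinearMap.smul_apply, Module.End.one_apply]
  rw [h1]
  exact Submodule.smul_mem_smul hp𝒪 Submodule.mem_top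

end Unip

section Two

variable {𝒪 : Type*} [CommRing 𝒪] [IsLocalRing 𝒪]

/-- `2` is a unit when the residue characteristic is odd. -/
theorem two_notMem_maximalIdeal {p : ℕ} (hp : p.Prime) (hp2 : p ≠ 2)
    (hp𝒪 : (p : 𝒪) ∈ maximalIdeal 𝒪) : (2 : 𝒪) ∉ maximalIdeal 𝒪 := by
  intro h2
  have hcop : Nat.Coprime p 2 := (Nat.coprime_primes hp Nat.prime_two).mpr hp2
  have h1 : ((Nat.gcd p 2 : ℕ) : ℤ) = p * Nat.gcdA p 2 + 2 * Nat.gcdB p 2 := by
    have := Nat.gcd_eq_gcd_ab p 2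
    push_cast at this ⊢
    exact this
  rw [hcop] at h1
  have h3 : (1 : 𝒪) = (p : 𝒪) * ((Nat.gcdA p 2 : ℤ) : 𝒪) + 2 * ((Nat.gcdB p 2 : ℤ) : 𝒪) := by
    have := congrArg (fun z : ℤ => (z : 𝒪)) h1
    simpa using this
  have h4 : (1 : 𝒪) ∈ maximalIdeal 𝒪 := by
    rw [h3]
    exact Ideal.add_mem _ (Ideal.mul_mem_right _ _ hp𝒪) (Ideal.mul_mem_right _ _ h2)
  exact (Ideal.ne_top_iff_one _).mp (maximalIdeal.isMaximal 𝒪).ne_top h4

/-- `q ≡ 1` modulo the maximal ideal when `p ∣ q - 1`. -/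
theorem natCast_sub_one_mem {A : Type*} [CommRing A] [IsLocalRing A] {p q k : ℕ}
    (hpA : (p : A) ∈ maximalIdeal A) (hq : 1 ≤ q) (hk : p ^ (k + 1) ∣ q - 1) :
    (q : A) - 1 ∈ maximalIdeal A := by
  obtain ⟨c, hc⟩ := hk
  have h1 : q = p ^ (k + 1) * c + 1 := by omega
  rw [h1]
  push_cast
  rw [add_sub_cancel_right, pow_succ]
  exact Ideal.mul_mem_right _ _ (Ideal.mul_mem_left _ _ hpA)

/-- the image of `p` in a local `𝒪`-algebra lies in the maximal ideal -/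
theorem natCast_mem_of_algebra {A : Type*} [CommRing A] [IsLocalRing A] [Algebra 𝒪 A]
    [IsLocalHom (algebraMap 𝒪 A)] {p : ℕ} (hp𝒪 : (p : 𝒪) ∈ maximalIdeal 𝒪) :
    (p : A) ∈ maximalIdeal A := by
  have h := map_nonunit (algebraMap 𝒪 A) (p : 𝒪) hp𝒪
  rwa [map_natCast] at h

end Two

end Fermat.Agent.S59.Asm

end
-- ==== END Fermat.Agent.S59.Asm.Plumb

-- ==== BEGIN Fermat.Agent.S59.Lim.H94_Asm
section

/-!
# S59, package LIM (helper94): the assembly `TWDiv ⟹ TWGeom` (Layer A)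

* `twGeom_of_twDiv` : `Stmt_KERNM → TWDiv … MD n qv → Nonempty (TWGeom … (MD.toHMod hϖ) n qv)`.
* `stmt_LIM_A_of`   : `Stmt_KERNM → Stmt_LIM_A`.
-/

set_option autoImplicit false
set_option linter.style.haveILetI false
set_option linter.unusedSectionVars false

noncomputable section

open IsLocalRing Polynomial CuspForm

namespace Fermat.Agent.S59.Lim

open Fermat.Agent.S59.Asm Fermat.Agent.S59.TWH

section Asm

variable {𝒪 : Type} [CommRing 𝒪] [IsDomain 𝒪] [IsDiscreteValuationRing 𝒪]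
  [IsAdicComplete (maximalIdeal 𝒪) 𝒪] {ϖ : 𝒪}

/-- **Layer A**: the Tate module of the divisible data is a `TWGeom`. -/
theorem twGeom_of_twDiv (hK : Stmt_KERNM) (hϖ : Irreducible ϖ) (p : ℕ) [Fact p.Prime]
    (hp : (p : 𝒪) ∈ maximalIdeal 𝒪)
    (ρbar : ResidualGaloisRep (ResidueField 𝒪)) (N : ℕ) [NeZero N] (S : Finset ℕ)
    (θ : CuspForm.heckeAlgebra N 2 (↑S : Set ℕ) →+* ResidueField 𝒪)
    (MD : HDiv 𝒪 ϖ N (↑S : Set ℕ) θ) {r : ℕ} (n : ℕ) (qv : Fin r → ℕ)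
    [NeZero (twLevel N qv)] (D : TWDiv 𝒪 ϖ p ρbar N S θ MD n qv) :
    Nonempty (TWGeom 𝒪 p ρbar N S θ (MD.toHMod hϖ) n qv) := by
  classical
  have hϖm : ϖ ∈ maximalIdeal 𝒪 := mem_maximalIdeal_of_irreducible hϖ
  -- freeness
  have hfree := exists_basis_tate (W := D.WD.W) (WM := MD.W) hϖ hp n r D.WD.isDiv MD.isDiv
    D.d D.d_pow D.d_comm D.hstep D.πup D.πup_injective D.d_πup D.inv
  obtain ⟨rk, b, hb⟩ := hfree
  -- the operators on the Tate module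
  have hdpow : ∀ j, H2.mapEnd ϖ D.WD.W (D.d j) ^ (p ^ n) = 1 := fun j =>
    mapEnd_pow_eq_one (W := D.WD.W) (D.d_pow j)
  have hdcomm : ∀ i j, Commute (H2.mapEnd ϖ D.WD.W (D.d i)) (H2.mapEnd ϖ D.WD.W (D.d j)) :=
    fun i j => mapEnd_commute (W := D.WD.W) (D.d_comm i j)
  -- kernel of the total norm
  have hker := (hK 𝒪 (H2.tate ϖ D.WD.W) (p ^ n) r (pow_pos (Fact.out : p.Prime).pos n)
    (fun j => H2.mapEnd ϖ D.WD.W (D.d j)) hdcomm hdpow rk b hb).1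
  -- the decomposition at the Taylor–Wiles primes
  have hu : ∀ j, IsUnit (D.a j - D.a' j) := fun j => H2.isUnit_sub_of_residue_ne (D.a_ne j)
  have hN : ∀ j, ∃ Nj : ℕ, ∀ w : D.WD.W, ϖ • w = 0 →
      (((D.gal (D.frob j) - D.a j • (1 : Module.End 𝒪 D.WD.W)) *
        (D.gal (D.frob j) - D.a' j • (1 : Module.End 𝒪 D.WD.W))) ^ Nj) w = 0 :=
    fun j => IsDiv.exists_pow_kill_torsion (W := D.WD.W) D.WD.isDiv _ (D.frob_nil j)
  choose Nf hNf using hN
  have hdec := fun j => H2.tate_dec (W := D.WD.W) hϖm D.WD.isDiv.tors (D.gal (D.frob j))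
    (D.a j) (D.a' j) (hu j) (Nf j) (hNf j)
  have hsurj := map_π_surjective (W := D.WD.W) (WM := MD.W) hϖ n r D.WD.isDiv MD.isDiv D.d
    D.d_comm D.hstep D.π D.πup D.πup_injective D.πup_π D.d_πup
  have hkerπ : LinearMap.ker (H2.map ϖ D.π) =
      ⨆ j, LinearMap.range (H2.mapEnd ϖ D.WD.W (D.d j) - 1) :=
    (ker_map_π_eq_ker_nmTot (W := D.WD.W) (WM := MD.W) n r D.d D.π D.πup D.πup_injective
      D.πup_π).trans hker
  have hcont := H2.adicContinuous_tateGal (W := D.WD.W) hϖ D.gal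
      (fun k => exists_uniform_field (W := D.WD.W) D.WD.isDiv D.gal D.gal_cont k)
  have hes : ∀ (ℓ : ℕ) (hℓ : ℓ.Prime) (hℓN : ¬ ℓ ∣ twLevel N qv)
      (hℓS : ℓ ∉ (↑(twSet S qv) : Set ℕ)),
      ∀ A : ValuationSubring (AlgebraicClosure ℚ), A.LiesOverPrime ℓ →
        ∀ σ : GalQ, A.IsFrobeniusAt σ ℓ →
          H2.mapEnd ϖ D.WD.W (D.gal σ) * H2.mapEnd ϖ D.WD.W (D.gal σ)
            - H2.mapEnd ϖ D.WD.W (D.WD.η (CuspForm.heckeAlgebra.T hℓ hℓN hℓS))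
              * H2.mapEnd ϖ D.WD.W (D.gal σ)
            + (ℓ : 𝒪) • (1 : Module.End 𝒪 (H2.tate ϖ D.WD.W)) = 0 :=
    fun ℓ hℓ hℓN hℓS A hA σ hσ => mapEnd_es (W := D.WD.W) (D.es ℓ hℓ hℓN hℓS A hA σ hσ)
  have hπη : ∀ (t : CuspForm.heckeAlgebra (twLevel N qv) 2 (↑(twSet S qv) : Set ℕ))
      (v : H2.tate ϖ D.WD.W),
      H2.map ϖ D.π (H2.mapEnd ϖ D.WD.W (D.WD.η t) v)
        = H2.mapEnd ϖ MD.W (MD.η (D.rest t)) (H2.map ϖ D.π v) :=
    fun t v => map_equivariant (W := D.WD.W) (WM := MD.W) D.π (D.WD.η t) (MD.η (D.rest t))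
      (D.π_η t) v
  have hlg : ∀ j, ∀ v ∈ H2.tateSub ϖ ((D.gal (D.frob j)).maxGenEigenspace (D.a j)),
      H2.mapEnd ϖ D.WD.W (D.gal (D.σ j)) v = H2.mapEnd ϖ D.WD.W (D.d j) v :=
    fun j v hv => map_lg (W := D.WD.W) (D.gal (D.frob j)) (D.gal (D.σ j)) (D.d j) (D.a j)
      (D.lg j) v hv
  exact ⟨{
    rest := D.rest
    rest_T := D.rest_T
    W := D.WD.toHMod hϖ
    gal := H2.tateGal ϖ D.gal
    gal_cont := hcont
    gal_η := fun g t => mapEnd_commute (W := D.WD.W) (D.gal_η g t)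
    es := hes
    d := fun j => H2.mapEnd ϖ D.WD.W (D.d j)
    d_pow := hdpow
    d_comm := hdcomm
    d_η := fun j t => mapEnd_commute (W := D.WD.W) (D.d_η j t)
    d_gal := fun j g => mapEnd_commute (W := D.WD.W) (D.d_gal j g)
    rk := rk
    b := b
    b_basis := hb
    π := H2.map ϖ D.π
    π_surjective := hsurj
    ker_π := hkerπ
    π_η := hπη
    P := D.P
    P_over := D.P_over
    frob := D.frob
    frob_spec := D.frob_spec
    σ := D.σ
    σ_mem := D.σ_mem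
    a := D.a
    a' := D.a'
    a_ne := D.a_ne
    charpoly_frob := D.charpoly_frob
    Vα := fun j => H2.tateSub ϖ ((D.gal (D.frob j)).maxGenEigenspace (D.a j))
    Vβ := fun j => H2.tateSub ϖ ((D.gal (D.frob j)).maxGenEigenspace (D.a' j))
    isCompl := fun j => (hdec j).1
    Vα_η := fun j t v hv => (hdec j).2.1 (D.WD.η t) (D.gal_η (D.frob j) t) v hv
    Vα_d := fun j i v hv => (hdec j).2.1 (D.d i) (D.d_gal i (D.frob j)).symm v hv
    Vα_frob := fun j v hv => (hdec j).2.1 (D.gal (D.frob j)) (Commute.refl _) v hv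
    Vβ_frob := fun j v hv => (hdec j).2.2.1 (D.gal (D.frob j)) (Commute.refl _) v hv
    Vα_nil := fun j => ⟨Nf j, (hdec j).2.2.2.1⟩
    Vβ_nil := fun j => ⟨Nf j, (hdec j).2.2.2.2⟩
    lg := hlg }⟩

/-- **LIM-A** (modulo the leaf KERNM). -/
theorem stmt_LIM_A_of (hK : Stmt_KERNM) : Stmt_LIM_A := by
  intro 𝒪 _ _ _ _ ϖ hϖ p _ hp ρbar N _ S θ MD
  refine ⟨MD.toHMod hϖ, ?_, ?_⟩
  · intro hnt
    exact MD.isDiv.nontrivial_tate
  · intro r n qv _ D
    exact twGeom_of_twDiv hK hϖ p hp ρbar N S θ MD n qv D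

end Asm

end Fermat.Agent.S59.Lim


end
end
-- ==== END Fermat.Agent.S59.Lim.H94_Asm

-- ==== BEGIN Fermat.Agent.S59.Lim.H94_ThetaTw
section

/-!
# S59, package LIM (helper94), Layer B: the `θ`-part under Eisenstein-twisted hypotheses

Abstract (pure algebra) forms of the leaves W-DIV, W-HSTEP, W-INV of NEB-GEOM: the `ℤ`-level
statements hold only "up to a power of `t₀`" (`t₀ = T_ℓ - (ℓ + 1)`, with `θ t₀ ≠ 0`), and give
the clean statements on the `θ`-part `W = thetaPart η θ ⊆ 𝒪 ⊗ A`.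

* `exists_smul_eq_of_smul_eq_zero` : in `𝒪 ⊗_ℤ K`, `ϖ z = 0 ⟹ z ∈ c₀ (𝒪 ⊗ K)` (`p = ϖ c₀`).
* `thetaEta_bijective` (W-UNIT) : `t₀` with `θ t₀ ≠ 0` is bijective on the `θ`-part.
* `exists_theta_decomp` : the `θ`-component of an element of `𝒪 ⊗ A`, with transfer of values.
* `isDiv_thetaPart_of_pow` (W-DIV).
* `exists_of_forall_baseChange_eq_zero` : simultaneous kernels and flat base change.
* `theta_lift` : the general lifting lemma (common form of W-HSTEP and W-INV).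
-/

set_option autoImplicit false
set_option linter.unusedSectionVars false
set_option linter.unusedVariables false
set_option linter.style.haveILetI false

open IsLocalRing TensorProduct

noncomputable section

namespace Fermat.Agent.S59.Lim.H94

open Fermat.Agent.S59.Lim Fermat.Agent.S59.Lim.H2

/-! ## A. Torsion in `𝒪 ⊗_ℤ K` -/

section SubLemma

variable {𝒪 : Type} [CommRing 𝒪] {K : Type} [AddCommGroup K]

/-- scalar multiplication on `𝒪 ⊗ K` as an `rTensor` -/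
theorem smul_eq_rTensor (c : 𝒪) (z : 𝒪 ⊗[ℤ] K) :
    c • z = ((LinearMap.mulLeft ℤ c).rTensor K) z := by
  induction z using TensorProduct.induction_on with
  | zero => rw [smul_zero, map_zero]
  | tmul a k => rw [TensorProduct.smul_tmul', LinearMap.rTensor_tmul, LinearMap.mulLeft_apply,
      smul_eq_mul]
  | add x y hx hy => rw [smul_add, hx, hy, map_add]

/-- An injective homomorphism of elementary abelian `p`-groups has an additive left inverse. -/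
theorem exists_leftInverse_of_torsion {Q₁ Q₂ : Type} [AddCommGroup Q₁] [AddCommGroup Q₂] (p : ℕ)
    [Fact p.Prime] (h₁ : ∀ q : Q₁, p • q = 0) (h₂ : ∀ q : Q₂, p • q = 0) (μ : Q₁ →+ Q₂)
    (hμ : Function.Injective μ) : ∃ r : Q₂ →+ Q₁, ∀ q, r (μ q) = q := by
  letI m₁ : Module (ZMod p) Q₁ := AddCommGroup.zmodModule h₁
  letI m₂ : Module (ZMod p) Q₂ := AddCommGroup.zmodModule h₂
  have key : ∃ rZ : Q₂ →ₗ[ZMod p] Q₁, rZ ∘ₗ (AddMonoidHom.toZModLinearMap p μ) = LinearMap.id :=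
    LinearMap.exists_leftInverse_of_injective (AddMonoidHom.toZModLinearMap p μ)
      (LinearMap.ker_eq_bot.mpr hμ)
  obtain ⟨rZ, hrZ⟩ := key
  refine ⟨rZ.toAddMonoidHom, fun q => ?_⟩
  have h3 := LinearMap.congr_fun hrZ q
  exact h3

variable [IsDomain 𝒪]

/-- In `𝒪 ⊗_ℤ K`: if `ϖ z = 0` and `p = ϖ c₀` then `z ∈ c₀ (𝒪 ⊗ K)`. -/
theorem exists_smul_eq_of_smul_eq_zero {p : ℕ} (hp : p.Prime) {ϖ c₀ : 𝒪} (hϖ0 : ϖ ≠ 0)
    (hpc : (p : 𝒪) = ϖ * c₀) (z : 𝒪 ⊗[ℤ] K) (hz : ϖ • z = 0) :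
    ∃ z' : 𝒪 ⊗[ℤ] K, c₀ • z' = z := by
  haveI : Fact p.Prime := ⟨hp⟩
  set I₁ : Ideal 𝒪 := Ideal.span {c₀} with hI₁
  set I₂ : Ideal 𝒪 := Ideal.span {(p : 𝒪)} with hI₂
  -- the maps
  let g₁ : 𝒪 →ₗ[ℤ] (𝒪 ⧸ I₁) := (Submodule.mkQ I₁).restrictScalars ℤ
  let g₂ : 𝒪 →ₗ[ℤ] (𝒪 ⧸ I₂) := (Submodule.mkQ I₂).restrictScalars ℤ
  have hle : I₁ ≤ Submodule.comap (LinearMap.mulLeft 𝒪 ϖ) I₂ := by
    intro x hx
    obtain ⟨y, rfl⟩ := Ideal.mem_span_singleton'.mp hx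
    rw [Submodule.mem_comap, LinearMap.mulLeft_apply]
    refine Ideal.mem_span_singleton'.mpr ⟨y, ?_⟩
    rw [hpc]
    ring
  let μ₀ : (𝒪 ⧸ I₁) →ₗ[𝒪] (𝒪 ⧸ I₂) := Submodule.mapQ I₁ I₂ (LinearMap.mulLeft 𝒪 ϖ) hle
  have hμ₀ : ∀ x : 𝒪, μ₀ (Submodule.Quotient.mk x) = Submodule.Quotient.mk (ϖ * x) := fun x => rfl
  have hinj : Function.Injective μ₀ := by
    rw [← LinearMap.ker_eq_bot, LinearMap.ker_eq_bot']
    intro q hq
    obtain ⟨x, rfl⟩ := Submodule.Quotient.mk_surjective I₁ q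
    rw [hμ₀, Submodule.Quotient.mk_eq_zero] at hq
    obtain ⟨y, hy⟩ := Ideal.mem_span_singleton'.mp hq
    rw [Submodule.Quotient.mk_eq_zero]
    refine Ideal.mem_span_singleton'.mpr ⟨y, ?_⟩
    apply mul_left_cancel₀ hϖ0
    rw [← hy, hpc]
    ring
  -- both quotients are killed by `p`
  have hp₁ : ∀ q : 𝒪 ⧸ I₁, p • q = 0 := by
    intro q
    obtain ⟨x, rfl⟩ := Submodule.Quotient.mk_surjective I₁ q
    rw [← Submodule.Quotient.mk_smul, Submodule.Quotient.mk_eq_zero]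
    refine Ideal.mem_span_singleton'.mpr ⟨ϖ * x, ?_⟩
    rw [nsmul_eq_mul, hpc]
    ring
  have hp₂ : ∀ q : 𝒪 ⧸ I₂, p • q = 0 := by
    intro q
    obtain ⟨x, rfl⟩ := Submodule.Quotient.mk_surjective I₂ q
    rw [← Submodule.Quotient.mk_smul, Submodule.Quotient.mk_eq_zero]
    refine Ideal.mem_span_singleton'.mpr ⟨x, ?_⟩
    rw [nsmul_eq_mul]
    ring
  let μ : (𝒪 ⧸ I₁) →ₗ[ℤ] (𝒪 ⧸ I₂) := μ₀.restrictScalars ℤ
  obtain ⟨r₀, hr₀⟩ := exists_leftInverse_of_torsion p hp₁ hp₂ μ₀.toAddMonoidHom hinj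
  let r : (𝒪 ⧸ I₂) →ₗ[ℤ] (𝒪 ⧸ I₁) := r₀.toIntLinearMap
  have hrμ : r ∘ₗ μ = LinearMap.id := by
    refine LinearMap.ext fun q => ?_
    exact hr₀ q
  have hμg : μ ∘ₗ g₁ = g₂ ∘ₗ LinearMap.mulLeft ℤ ϖ := by
    refine LinearMap.ext fun x => ?_
    rfl
  -- exactness
  have hex : Function.Exact (LinearMap.mulLeft ℤ c₀) g₁ := by
    intro x
    constructor
    · intro hx
      have hx' : (Submodule.Quotient.mk x : 𝒪 ⧸ I₁) = 0 := hx
      rw [Submodule.Quotient.mk_eq_zero] at hx'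
      obtain ⟨y, hy⟩ := Ideal.mem_span_singleton'.mp hx'
      exact ⟨y, by rw [LinearMap.mulLeft_apply, mul_comm, hy]⟩
    · rintro ⟨y, rfl⟩
      show (Submodule.Quotient.mk (c₀ * y) : 𝒪 ⧸ I₁) = 0
      rw [Submodule.Quotient.mk_eq_zero]
      exact Ideal.mem_span_singleton'.mpr ⟨y, mul_comm _ _⟩
  have hsurj : Function.Surjective g₁ := Submodule.Quotient.mk_surjective I₁
  have hexT := rTensor_exact K hex hsurj
  -- the image of `z` in `(𝒪 ⧸ c₀) ⊗ K` vanishes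
  have h1 : (μ.rTensor K) ((g₁.rTensor K) z) = 0 := by
    rw [← LinearMap.comp_apply, ← LinearMap.rTensor_comp, hμg, LinearMap.rTensor_comp,
      LinearMap.comp_apply, ← smul_eq_rTensor, hz, map_zero]
  have h2 : (g₁.rTensor K) z = 0 := by
    have := congrArg (r.rTensor K) h1
    rw [← LinearMap.comp_apply, ← LinearMap.rTensor_comp, hrμ, LinearMap.rTensor_id,
      LinearMap.id_apply, map_zero] at this
    exact this
  obtain ⟨z', hz'⟩ := (hexT z).mp h2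
  exact ⟨z', by rw [smul_eq_rTensor, hz']⟩

end SubLemma

/-! ## B. W-UNIT -/

section Unit

variable {𝒪 : Type*} [CommRing 𝒪] {W : Type*} [AddCommGroup W] [Module 𝒪 W]

/-- an operator which is locally `unit + nilpotent` is injective -/
theorem injective_of_locally_unit_add_nilp (T : Module.End 𝒪 W) (a : 𝒪) (ha : IsUnit a)
    (h : ∀ x : W, ∃ m : ℕ, ((T - a • (1 : Module.End 𝒪 W)) ^ m) x = 0) :
    Function.Injective T := by
  rw [injective_iff_map_eq_zero]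
  intro x hx
  obtain ⟨m, hm⟩ := h x
  have key : ∀ k : ℕ, ((T - a • (1 : Module.End 𝒪 W)) ^ k) x = ((-a) ^ k) • x := by
    intro k
    induction k with
    | zero => rw [pow_zero, pow_zero, one_smul]; rfl
    | succ k ih =>
      rw [pow_succ, Module.End.mul_apply, LinearMap.sub_apply, hx, LinearMap.smul_apply,
        Module.End.one_apply, zero_sub, ← neg_smul, map_smul, ih, smul_smul, pow_succ, mul_comm]
  rw [key] at hm
  have hu : IsUnit ((-a) ^ m) := (ha.neg).pow m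
  exact (hu.smul_eq_zero).mp hm

/-- an operator which is locally `unit + nilpotent` is surjective -/
theorem surjective_of_locally_unit_add_nilp (T : Module.End 𝒪 W) (a : 𝒪) (ha : IsUnit a)
    (h : ∀ x : W, ∃ m : ℕ, ((T - a • (1 : Module.End 𝒪 W)) ^ m) x = 0) :
    Function.Surjective T := by
  intro x
  obtain ⟨m, hm⟩ := h x
  obtain ⟨u, rfl⟩ := ha
  set B : Module.End 𝒪 W := T - (u : 𝒪) • (1 : Module.End 𝒪 W) with hB
  set C : Module.End 𝒪 W := (-(↑u⁻¹ : 𝒪)) • B with hC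
  have hT : T = (u : 𝒪) • ((1 : Module.End 𝒪 W) - C) := by
    rw [hC, smul_sub, smul_smul, mul_neg, Units.mul_inv, neg_smul, one_smul, sub_neg_eq_add, hB]
    abel
  have hCm : (C ^ m) x = 0 := by
    rw [hC, smul_pow, LinearMap.smul_apply, hm, smul_zero]
  refine ⟨((↑u⁻¹ : 𝒪) • ∑ i ∈ Finset.range m, C ^ i) x, ?_⟩
  have h1 : T * ((↑u⁻¹ : 𝒪) • ∑ i ∈ Finset.range m, C ^ i) = 1 - C ^ m := by
    rw [hT, smul_mul_assoc, mul_smul_comm, smul_smul, Units.mul_inv, one_smul, mul_neg_geom_sum]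
  rw [← Module.End.mul_apply, h1, LinearMap.sub_apply, hCm, sub_zero, Module.End.one_apply]

theorem bijective_of_locally_unit_add_nilp (T : Module.End 𝒪 W) (a : 𝒪) (ha : IsUnit a)
    (h : ∀ x : W, ∃ m : ℕ, ((T - a • (1 : Module.End 𝒪 W)) ^ m) x = 0) :
    Function.Bijective T :=
  ⟨injective_of_locally_unit_add_nilp T a ha h, surjective_of_locally_unit_add_nilp T a ha h⟩

end Unit

section UnitTheta

variable {𝒪 : Type} [CommRing 𝒪] [IsLocalRing 𝒪] {𝕋 : Type} [CommRing 𝕋]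
  {A : Type} [AddCommGroup A]

/-- **W-UNIT** -/
theorem thetaEta_bijective (η : 𝕋 →+* Module.End ℤ A) (θ : 𝕋 →+* ResidueField 𝒪) (t₀ : 𝕋)
    (ht₀ : θ t₀ ≠ 0) : Function.Bijective (thetaEta η θ t₀) := by
  obtain ⟨a, ha⟩ := residue_surjective (θ t₀)
  have hau : IsUnit a := by
    by_contra hna
    apply ht₀
    rw [← ha]
    exact (residue_eq_zero_iff a).mpr ((mem_maximalIdeal a).mpr hna)
  exact bijective_of_locally_unit_add_nilp _ a hau (fun x => thetaEta_local t₀ a ha x)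

theorem thetaEta_pow_coe (η : 𝕋 →+* Module.End ℤ A) (θ : 𝕋 →+* ResidueField 𝒪) (t : 𝕋) (M : ℕ)
    (x : ↥(thetaPart η θ)) :
    ((((thetaEta η θ t) ^ M) x : ↥(thetaPart η θ)) : 𝒪 ⊗[ℤ] A) =
      (((η t).baseChange 𝒪) ^ M) x.1 := by
  induction M generalizing x with
  | zero => rfl
  | succ k ih =>
    rw [pow_succ, Module.End.mul_apply, ih, pow_succ, Module.End.mul_apply]
    rfl

theorem thetaEta_pow_bijective (η : 𝕋 →+* Module.End ℤ A) (θ : 𝕋 →+* ResidueField 𝒪) (t₀ : 𝕋)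
    (ht₀ : θ t₀ ≠ 0) (M : ℕ) : Function.Bijective ((thetaEta η θ t₀) ^ M) := by
  rw [Module.End.coe_pow]
  exact (thetaEta_bijective η θ t₀ ht₀).iterate M

/-- (U1) surjectivity of powers of `t₀` on the `θ`-part, in `X` -/
theorem exists_pow_eq_of_mem (η : 𝕋 →+* Module.End ℤ A) (θ : 𝕋 →+* ResidueField 𝒪) (t₀ : 𝕋)
    (ht₀ : θ t₀ ≠ 0) (M : ℕ) {x : 𝒪 ⊗[ℤ] A} (hx : x ∈ thetaPart η θ) :
    ∃ y ∈ thetaPart η θ, (((η t₀).baseChange 𝒪) ^ M) y = x := by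
  obtain ⟨y, hy⟩ := (thetaEta_pow_bijective η θ t₀ ht₀ M).2 ⟨x, hx⟩
  refine ⟨y.1, y.2, ?_⟩
  rw [← thetaEta_pow_coe, hy]

/-- (U2) injectivity of powers of `t₀` on the `θ`-part, in `X` -/
theorem eq_zero_of_pow_eq_zero (η : 𝕋 →+* Module.End ℤ A) (θ : 𝕋 →+* ResidueField 𝒪) (t₀ : 𝕋)
    (ht₀ : θ t₀ ≠ 0) (M : ℕ) {x : 𝒪 ⊗[ℤ] A} (hx : x ∈ thetaPart η θ)
    (h0 : (((η t₀).baseChange 𝒪) ^ M) x = 0) : x = 0 := by
  have h1 : ((thetaEta η θ t₀) ^ M) ⟨x, hx⟩ = 0 := by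
    apply Subtype.ext
    rw [thetaEta_pow_coe]
    exact h0
  have h2 := (thetaEta_pow_bijective η θ t₀ ht₀ M).1 (h1.trans (map_zero _).symm)
  exact congrArg Subtype.val h2

end UnitTheta

/-! ## C. The `θ`-component -/

section Decomp

variable {R : Type*} [CommRing R] {W : Type*} [AddCommGroup W] [Module R W]

theorem exists_prim_stab (I : Ideal R) (hfin : ∀ x : W, Finite (Submodule.span R {x})) (x₀ : W) :
    ∃ x ∈ primPart I W, ∃ x' ∈ stabPart I W, x + x' = x₀ := by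
  have hx₀ : x₀ ∈ primPart I W ⊔ stabPart I W := by
    rw [(H61.codisjoint_prim_stab I hfin).eq_top]
    exact Submodule.mem_top
  obtain ⟨a, ha, b, hb, h⟩ := Submodule.mem_sup.mp hx₀
  exact ⟨a, ha, b, hb, h⟩

theorem map_eq_of_prim_stab {W' : Type*} [AddCommGroup W'] [Module R W'] (I : Ideal R)
    (f : W →ₗ[R] W') {x x' : W} (hx : x ∈ primPart I W) (hx' : x' ∈ stabPart I W)
    (hy : f (x + x') ∈ primPart I W') : f x = f (x + x') := by
  have hfb : f x' ∈ stabPart I W' := H61.map_mem_stabPart I f hx'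
  have hfa : f x ∈ primPart I W' := H61.map_mem_primPart I f hx
  have hfb' : f x' ∈ primPart I W' := by
    have h1 : f x' = f (x + x') - f x := by
      rw [map_add]
      abel
    rw [h1]
    exact sub_mem hy hfa
  have h2 := (Submodule.disjoint_def.mp (H61.disjoint_prim_stab I)) (f x') hfb' hfb
  rw [map_add, h2, add_zero]

end Decomp

section ThetaDecomp

variable {𝒪 : Type} [CommRing 𝒪] [IsLocalRing 𝒪] {𝕋 : Type} [CommRing 𝕋]
  {A : Type} [AddCommGroup A] {B : Type} [AddCommGroup B]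

/-- an `𝒪`-linear map intertwining the Hecke operators is linear over `𝒪 ⊗ 𝕋` -/
theorem opHom_intertwine (ηB : 𝕋 →+* Module.End ℤ B) (η : 𝕋 →+* Module.End ℤ A)
    (F : (𝒪 ⊗[ℤ] B) →ₗ[𝒪] (𝒪 ⊗[ℤ] A))
    (hF : ∀ t x, F ((ηB t).baseChange 𝒪 x) = (η t).baseChange 𝒪 (F x))
    (r : opRing 𝒪 𝕋) (x : 𝒪 ⊗[ℤ] B) :
    F (opHom 𝒪 ηB r x) = opHom 𝒪 η r (F x) := by
  induction r using TensorProduct.induction_on with
  | zero => simp only [map_zero, LinearMap.zero_apply]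
  | tmul a t =>
    rw [opHom_tmul, opHom_tmul, LinearMap.smul_apply, LinearMap.smul_apply, map_smul, hF]
  | add r₁ r₂ h₁ h₂ =>
    rw [map_add, map_add, LinearMap.add_apply, LinearMap.add_apply, map_add, h₁, h₂]

/-- the `θ`-component of an element: every intertwining map with `θ`-primary value at `x₀` takes
the same value at the component. -/
theorem exists_theta_decomp (ηB : 𝕋 →+* Module.End ℤ B) (θ : 𝕋 →+* ResidueField 𝒪)
    (hlfB : letI := opModule 𝒪 ηB; ∀ x : 𝒪 ⊗[ℤ] B, Finite (Submodule.span (opRing 𝒪 𝕋) {x}))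
    (x₀ : 𝒪 ⊗[ℤ] B) :
    ∃ x ∈ thetaPart ηB θ, ∀ (A : Type) [AddCommGroup A] (η : 𝕋 →+* Module.End ℤ A),
      (letI := opModule 𝒪 η; ∀ x : 𝒪 ⊗[ℤ] A, Finite (Submodule.span (opRing 𝒪 𝕋) {x})) →
      ∀ (F : (𝒪 ⊗[ℤ] B) →ₗ[𝒪] (𝒪 ⊗[ℤ] A)),
        (∀ t x, F ((ηB t).baseChange 𝒪 x) = (η t).baseChange 𝒪 (F x)) →
        F x₀ ∈ thetaPart η θ → F x = F x₀ := by
  letI i1 := opModule 𝒪 ηB
  obtain ⟨x, hx, x', hx', hsum⟩ := exists_prim_stab (Ideal.span (thetaGens 𝒪 θ)) hlfB x₀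
  refine ⟨x, (mem_thetaPart_iff_primPart' ηB θ hlfB x).mpr hx, ?_⟩
  intro A _ η hlfA F hF hFx₀
  letI i2 := opModule 𝒪 η
  let FR : (𝒪 ⊗[ℤ] B) →ₗ[opRing 𝒪 𝕋] (𝒪 ⊗[ℤ] A) :=
    { toFun := F
      map_add' := fun x y => map_add _ x y
      map_smul' := fun r x => opHom_intertwine ηB η F hF r x }
  have h1 : FR (x + x') ∈ primPart (Ideal.span (thetaGens 𝒪 θ)) (𝒪 ⊗[ℤ] A) := by
    have : FR (x + x') = F x₀ := by rw [hsum]; rfl
    rw [this]
    exact (mem_thetaPart_iff_primPart' η θ hlfA (F x₀)).mp hFx₀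
  have h2 := map_eq_of_prim_stab (Ideal.span (thetaGens 𝒪 θ)) FR hx hx' h1
  rw [hsum] at h2
  exact h2

end ThetaDecomp

/-! ## D. W-DIV -/

section Div

variable {𝒪 : Type} [CommRing 𝒪] [IsDomain 𝒪] [IsDiscreteValuationRing 𝒪]
  [Finite (ResidueField 𝒪)] {𝕋 : Type} [CommRing 𝕋] {A : Type} [AddCommGroup A]

/-- local finiteness of `𝒪 ⊗ A` over `𝒪 ⊗ 𝕋` under the standing hypotheses -/
theorem lf_of_torsion (η : 𝕋 →+* Module.End ℤ A) {ϖ : 𝒪} (hϖ : Irreducible ϖ) {p : ℕ}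
    (hp : p.Prime) (hpm : (p : 𝒪) ∈ maximalIdeal 𝒪) (hp0 : (p : 𝒪) ≠ 0)
    (htors : ∀ x : A, ∃ k : ℕ, p ^ k • x = 0) (hfin : Finite {x : A // p • x = 0}) :
    letI := opModule 𝒪 η
    ∀ x : 𝒪 ⊗[ℤ] A, Finite (Submodule.span (opRing 𝒪 𝕋) {x}) :=
  finite_span_opModule η (tens_tors hϖ hpm hp0 htors) (tens_fin hϖ hp hpm hp0 hfin)

theorem exists_mul_eq_natCast {ϖ : 𝒪} (hϖ : Irreducible ϖ) {p : ℕ}
    (hpm : (p : 𝒪) ∈ maximalIdeal 𝒪) : ∃ c₀ : 𝒪, (p : 𝒪) = ϖ * c₀ := by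
  rw [Irreducible.maximalIdeal_eq hϖ] at hpm
  obtain ⟨c, hc⟩ := Ideal.mem_span_singleton'.mp hpm
  exact ⟨c, by rw [← hc, mul_comm]⟩

/-- **W-DIV** -/
theorem isDiv_thetaPart_of_pow (η : 𝕋 →+* Module.End ℤ A) (θ : 𝕋 →+* ResidueField 𝒪)
    {ϖ : 𝒪} (hϖ : Irreducible ϖ) {p : ℕ} (hp : p.Prime) (hpm : (p : 𝒪) ∈ maximalIdeal 𝒪)
    (hp0 : (p : 𝒪) ≠ 0) (htors : ∀ x : A, ∃ k : ℕ, p ^ k • x = 0)
    (hfin : Finite {x : A // p • x = 0}) (t₀ : 𝕋) (ht₀ : θ t₀ ≠ 0)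
    (hN : ∃ N : ℕ, ∀ x : A, ∃ y : A, (η t₀ ^ N) x = p • y) :
    IsDiv ϖ ↥(thetaPart η θ) where
  tors := fun x => by
    obtain ⟨k, hk⟩ := tens_tors hϖ hpm hp0 htors x.1
    refine ⟨k, Subtype.ext ?_⟩
    rw [Submodule.coe_smul, hk]
    rfl
  div := fun x => by
    obtain ⟨N, hN⟩ := hN
    obtain ⟨x', hx', hxx'⟩ := exists_pow_eq_of_mem η θ t₀ ht₀ N x.2
    have key : ∀ z : 𝒪 ⊗[ℤ] A, ∃ z' : 𝒪 ⊗[ℤ] A, ((η t₀ ^ N).baseChange 𝒪) z = (p : 𝒪) • z' := by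
      intro z
      induction z using TensorProduct.induction_on with
      | zero => exact ⟨0, by rw [map_zero, smul_zero]⟩
      | tmul c k =>
        obtain ⟨y, hy⟩ := hN k
        exact ⟨c ⊗ₜ[ℤ] y, by rw [LinearMap.baseChange_tmul, hy, natCast_smul_tmul]⟩
      | add z₁ z₂ h₁ h₂ =>
        obtain ⟨y₁, hy₁⟩ := h₁
        obtain ⟨y₂, hy₂⟩ := h₂
        exact ⟨y₁ + y₂, by rw [map_add, hy₁, hy₂, smul_add]⟩
    obtain ⟨z', hz'⟩ := key x'
    obtain ⟨c₀, hc₀⟩ := exists_mul_eq_natCast hϖ hpm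
    have hlf := lf_of_torsion η hϖ hp hpm hp0 htors hfin
    obtain ⟨y, hy, hyF⟩ := exists_theta_decomp η θ hlf (c₀ • z')
    have h1 : ϖ • (c₀ • z') = x.1 := by
      rw [smul_smul, ← hc₀, ← hz', baseChange_pow_eq]
      exact hxx'
    have h2 := hyF A η hlf (ϖ • (LinearMap.id : (𝒪 ⊗[ℤ] A) →ₗ[𝒪] (𝒪 ⊗[ℤ] A)))
      (fun t z => by
        rw [LinearMap.smul_apply, LinearMap.smul_apply, LinearMap.id_apply, LinearMap.id_apply,
          map_smul])
      (by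
        rw [LinearMap.smul_apply, LinearMap.id_apply, h1]
        exact x.2)
    rw [LinearMap.smul_apply, LinearMap.smul_apply, LinearMap.id_apply, LinearMap.id_apply,
      h1] at h2
    exact ⟨⟨y, hy⟩, Subtype.ext h2⟩
  fin := by
    haveI := tens_fin hϖ hp hpm hp0 hfin
    let j : Submodule.torsionBy 𝒪 ↥(thetaPart η θ) ϖ → Submodule.torsionBy 𝒪 (𝒪 ⊗[ℤ] A) ϖ :=
      fun z => ⟨z.1.1, by
        rw [Submodule.mem_torsionBy_iff]
        have := (Submodule.mem_torsionBy_iff _ _).mp z.2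
        have h2 := congrArg Subtype.val this
        rw [Submodule.coe_smul] at h2
        exact h2⟩
    have hj : Function.Injective j := by
      intro z z' h
      have h1 : (j z).1 = (j z').1 := congrArg Subtype.val h
      exact Subtype.ext (Subtype.ext h1)
    exact Finite.of_injective j hj

end Div

/-! ## E. Simultaneous kernels -/

section Ker

variable {𝒪 : Type} [CommRing 𝒪] [Module.Flat ℤ 𝒪] {A : Type} [AddCommGroup A]
  {A' : Type} [AddCommGroup A']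

/-- simultaneous kernels commute with the flat base change `𝒪 ⊗ -` (finite families) -/
theorem exists_of_forall_baseChange_eq_zero {ι : Type} [Finite ι] (f : ι → (A →ₗ[ℤ] A'))
    {v : 𝒪 ⊗[ℤ] A} (hv : ∀ i, (f i).baseChange 𝒪 v = 0) :
    ∃ y : 𝒪 ⊗[ℤ] ↥(LinearMap.ker (LinearMap.pi f)),
      (LinearMap.ker (LinearMap.pi f)).subtype.baseChange 𝒪 y = v := by
  classical
  haveI := Fintype.ofFinite ι
  apply exists_of_baseChange_eq_zero
  have key : ∀ w : 𝒪 ⊗[ℤ] A, TensorProduct.piRight ℤ 𝒪 𝒪 (fun _ : ι => A')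
      ((LinearMap.pi f).baseChange 𝒪 w) = fun i => (f i).baseChange 𝒪 w := by
    intro w
    induction w using TensorProduct.induction_on with
    | zero =>
      funext i
      simp only [map_zero, Pi.zero_apply]
    | tmul c k =>
      rw [LinearMap.baseChange_tmul, TensorProduct.piRight_apply, TensorProduct.piRightHom_tmul]
      funext i
      rw [LinearMap.baseChange_tmul]
      rfl
    | add w₁ w₂ h₁ h₂ =>
      rw [map_add, map_add, h₁, h₂]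
      funext i
      rw [Pi.add_apply, map_add]
  have h1 : TensorProduct.piRight ℤ 𝒪 𝒪 (fun _ : ι => A') ((LinearMap.pi f).baseChange 𝒪 v) = 0 := by
    rw [key]
    funext i
    exact hv i
  exact (LinearEquiv.map_eq_zero_iff _).mp h1

theorem baseChange_subtype_injective (K : Submodule ℤ A) :
    Function.Injective (K.subtype.baseChange 𝒪) := by
  rw [LinearMap.baseChange_eq_ltensor]
  exact Module.Flat.lTensor_preserves_injective_linearMap K.subtype K.subtype_injective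

end Ker

/-! ## F. The lifting lemma -/

section UnitOne

variable {𝒪 : Type} [CommRing 𝒪] [IsLocalRing 𝒪] {𝕋 : Type} [CommRing 𝕋]
  {A : Type} [AddCommGroup A]

theorem exists_apply_eq_of_mem (η : 𝕋 →+* Module.End ℤ A) (θ : 𝕋 →+* ResidueField 𝒪) (s : 𝕋)
    (hs : θ s ≠ 0) {x : 𝒪 ⊗[ℤ] A} (hx : x ∈ thetaPart η θ) :
    ∃ y ∈ thetaPart η θ, ((η s).baseChange 𝒪) y = x := by
  obtain ⟨y, hy, h⟩ := exists_pow_eq_of_mem η θ s hs 1 hx
  exact ⟨y, hy, by rw [pow_one] at h; exact h⟩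

theorem eq_zero_of_apply_eq_zero (η : 𝕋 →+* Module.End ℤ A) (θ : 𝕋 →+* ResidueField 𝒪) (s : 𝕋)
    (hs : θ s ≠ 0) {x : 𝒪 ⊗[ℤ] A} (hx : x ∈ thetaPart η θ)
    (h0 : ((η s).baseChange 𝒪) x = 0) : x = 0 :=
  eq_zero_of_pow_eq_zero η θ s hs 1 hx (by rw [pow_one]; exact h0)

end UnitOne

section Lift

variable {𝒪 : Type} [CommRing 𝒪] [IsDomain 𝒪] [IsDiscreteValuationRing 𝒪]
  [Finite (ResidueField 𝒪)] {𝕋 : Type} [CommRing 𝕋] {A : Type} [AddCommGroup A]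
  {B : Type} [AddCommGroup B]

/-- multiplication by `p` as an endomorphism -/
def pMul (A : Type) [AddCommGroup A] (p : ℕ) : Module.End ℤ A := (p : ℤ) • (1 : Module.End ℤ A)

theorem pMul_apply (p : ℕ) (k : A) : pMul A p k = p • k := by
  rw [pMul, LinearMap.smul_apply, Module.End.one_apply, natCast_zsmul]

theorem pMul_baseChange (p : ℕ) (w : 𝒪 ⊗[ℤ] A) : (pMul A p).baseChange 𝒪 w = (p : 𝒪) • w := by
  induction w using TensorProduct.induction_on with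
  | zero => rw [map_zero, smul_zero]
  | tmul c k => rw [LinearMap.baseChange_tmul, pMul_apply, natCast_smul_tmul]
  | add w₁ w₂ h₁ h₂ => rw [map_add, h₁, h₂, smul_add]

/-- The general lifting lemma (single operator `s`). -/
theorem theta_lift_aux (η : 𝕋 →+* Module.End ℤ A) (ηB : 𝕋 →+* Module.End ℤ B)
    (θ : 𝕋 →+* ResidueField 𝒪)
    {ϖ : 𝒪} (hϖ : Irreducible ϖ) {p : ℕ} (hp : p.Prime) (hpm : (p : 𝒪) ∈ maximalIdeal 𝒪)
    (hp0 : (p : 𝒪) ≠ 0) (htorsA : ∀ x : A, ∃ k : ℕ, p ^ k • x = 0)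
    (hfinA : Finite {x : A // p • x = 0}) (htorsB : ∀ x : B, ∃ k : ℕ, p ^ k • x = 0)
    (hfinB : Finite {x : B // p • x = 0}) (s : 𝕋) (hs : θ s ≠ 0)
    (g : B →ₗ[ℤ] A) (hg : ∀ t, g ∘ₗ ηB t = η t ∘ₗ g)
    {ι : Type} [Finite ι] (f : ι → Module.End ℤ A)
    {ι' : Type} (h : ι' → Module.End ℤ B) (hh : ∀ i t, Commute (ηB t) (h i))
    (hyp : ∀ k : A, p • k = 0 → (∀ i, f i k = 0) →
      ∃ y : B, p • y = 0 ∧ (∀ i, h i y = 0) ∧ g y = η s k)
    {v : 𝒪 ⊗[ℤ] A} (hv : v ∈ thetaPart η θ) (hϖv : ϖ • v = 0)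
    (hfv : ∀ i, (f i).baseChange 𝒪 v = 0) :
    ∃ y ∈ thetaPart ηB θ, ϖ • y = 0 ∧ (∀ i, (h i).baseChange 𝒪 y = 0) ∧
      g.baseChange 𝒪 y = v := by
  classical
  haveI := charZero_of_mem (𝒪 := 𝒪) hp hpm hp0
  haveI := flat_int (𝒪 := 𝒪)
  obtain ⟨c₀, hc₀⟩ := exists_mul_eq_natCast hϖ hpm
  have hpv : (p : 𝒪) • v = 0 := by rw [hc₀, mul_comm, mul_smul, hϖv, smul_zero]
  -- the family
  let f' : Option ι → Module.End ℤ A := fun o => Option.elim o (pMul A p) f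
  have hf'v : ∀ o, (f' o).baseChange 𝒪 v = 0 := by
    intro o
    cases o with
    | none => exact (pMul_baseChange p v).trans hpv
    | some i => exact hfv i
  obtain ⟨vK, hvK⟩ := exists_of_forall_baseChange_eq_zero f' hf'v
  have hK : ∀ k : ↥(LinearMap.ker (LinearMap.pi f')), p • k.1 = 0 ∧ ∀ i, f i k.1 = 0 := by
    intro k
    have hk : LinearMap.pi f' k.1 = 0 := k.2
    refine ⟨?_, fun i => ?_⟩
    · have := congrFun hk none
      rw [← pMul_apply]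
      exact this
    · exact congrFun hk (some i)
  have hϖvK : ϖ • vK = 0 :=
    baseChange_subtype_injective (𝒪 := 𝒪) _ (by rw [map_smul, hvK, hϖv, map_zero])
  obtain ⟨z, hz⟩ := exists_smul_eq_of_smul_eq_zero hp hϖ.ne_zero hc₀ vK hϖvK
  -- transfer
  have key : ∀ z : 𝒪 ⊗[ℤ] ↥(LinearMap.ker (LinearMap.pi f')), ∃ y₀ : 𝒪 ⊗[ℤ] B,
      (p : 𝒪) • y₀ = 0 ∧ (∀ i, (h i).baseChange 𝒪 y₀ = 0) ∧
      g.baseChange 𝒪 y₀ = (η s).baseChange 𝒪
        ((LinearMap.ker (LinearMap.pi f')).subtype.baseChange 𝒪 z) := by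
    intro z
    induction z using TensorProduct.induction_on with
    | zero => exact ⟨0, smul_zero _, fun i => map_zero _, by rw [map_zero, map_zero, map_zero]⟩
    | tmul c k =>
      obtain ⟨y, hy1, hy2, hy3⟩ := hyp k.1 (hK k).1 (hK k).2
      refine ⟨c ⊗ₜ[ℤ] y, ?_, ?_, ?_⟩
      · rw [natCast_smul_tmul, hy1, tmul_zero]
      · intro i
        rw [LinearMap.baseChange_tmul, hy2, tmul_zero]
      · rw [LinearMap.baseChange_tmul, LinearMap.baseChange_tmul, LinearMap.baseChange_tmul, hy3]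
        rfl
    | add z₁ z₂ h₁ h₂ =>
      obtain ⟨y₁, a1, a2, a3⟩ := h₁
      obtain ⟨y₂, b1, b2, b3⟩ := h₂
      refine ⟨y₁ + y₂, by rw [smul_add, a1, b1, add_zero],
        fun i => by rw [map_add, a2, b2, add_zero], ?_⟩
      rw [map_add, a3, b3, map_add, map_add]
  obtain ⟨y₀, hy1, hy2, hy3⟩ := key z
  have hlfA := lf_of_torsion η hϖ hp hpm hp0 htorsA hfinA
  have hlfB := lf_of_torsion ηB hϖ hp hpm hp0 htorsB hfinB
  obtain ⟨yp, hyp_mem, hypF⟩ := exists_theta_decomp ηB θ hlfB (c₀ • y₀)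
  have e1 : ϖ • (c₀ • y₀) = 0 := by rw [smul_smul, ← hc₀, hy1]
  have e2 : ∀ i, (h i).baseChange 𝒪 (c₀ • y₀) = 0 := fun i => by rw [map_smul, hy2, smul_zero]
  have e3 : g.baseChange 𝒪 (c₀ • y₀) = (η s).baseChange 𝒪 v := by
    rw [map_smul, hy3, ← map_smul, ← map_smul, hz, hvK]
  have hEv : (η s).baseChange 𝒪 v ∈ thetaPart η θ :=
    thetaPart_stable (fun t => baseChange_commute 𝒪 ((Commute.all t s).map η)) hv
  have hgI : ∀ t x, g.baseChange 𝒪 ((ηB t).baseChange 𝒪 x) =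
      (η t).baseChange 𝒪 (g.baseChange 𝒪 x) := fun t x =>
    LinearMap.congr_fun (baseChange_comp_eq 𝒪 (hg t)) x
  have hhI : ∀ i t x, (h i).baseChange 𝒪 ((ηB t).baseChange 𝒪 x) =
      (ηB t).baseChange 𝒪 ((h i).baseChange 𝒪 x) := fun i t x =>
    (LinearMap.congr_fun (baseChange_commute 𝒪 (hh i t)).eq x).symm
  have p1 : ϖ • yp = 0 := by
    have h2 := hypF B ηB hlfB (ϖ • (LinearMap.id : (𝒪 ⊗[ℤ] B) →ₗ[𝒪] (𝒪 ⊗[ℤ] B)))
      (fun t z => by
        rw [LinearMap.smul_apply, LinearMap.smul_apply, LinearMap.id_apply, LinearMap.id_apply,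
          map_smul])
      (by
        rw [LinearMap.smul_apply, LinearMap.id_apply, e1]
        exact zero_mem _)
    rw [LinearMap.smul_apply, LinearMap.smul_apply, LinearMap.id_apply, LinearMap.id_apply,
      e1] at h2
    exact h2
  have p2 : ∀ i, (h i).baseChange 𝒪 yp = 0 := by
    intro i
    have h2 := hypF B ηB hlfB ((h i).baseChange 𝒪) (hhI i)
      (by rw [e2 i]; exact zero_mem _)
    rw [e2 i] at h2
    exact h2
  have p3 : g.baseChange 𝒪 yp = (η s).baseChange 𝒪 v := by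
    have h2 := hypF A η hlfA (g.baseChange 𝒪) hgI (by rw [e3]; exact hEv)
    rw [e3] at h2
    exact h2
  -- invert `s`
  obtain ⟨y₂, hy₂, hy₂E⟩ := exists_apply_eq_of_mem ηB θ s hs hyp_mem
  refine ⟨y₂, hy₂, ?_, ?_, ?_⟩
  · apply eq_zero_of_apply_eq_zero ηB θ s hs ((thetaPart ηB θ).smul_mem ϖ hy₂)
    rw [map_smul, hy₂E, p1]
  · intro i
    apply eq_zero_of_apply_eq_zero ηB θ s hs
      (thetaPart_stable (fun t => baseChange_commute 𝒪 (hh i t)) hy₂)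
    rw [← hhI, hy₂E, p2]
  · have hmem : g.baseChange 𝒪 y₂ - v ∈ thetaPart η θ :=
      sub_mem (baseChange_mem_thetaPart g hg hy₂) hv
    have := eq_zero_of_apply_eq_zero η θ s hs hmem
      (by rw [map_sub, ← hgI, hy₂E, p3, sub_self])
    exact sub_eq_zero.mp this

end Lift

/-! ## G. Uniformisation and the final form -/

section Uniform

variable {𝒪 : Type} [CommRing 𝒪] [IsLocalRing 𝒪] {𝕋 : Type} [CommRing 𝕋]
  {A : Type} [AddCommGroup A] {B : Type} [AddCommGroup B]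

/-- uniformisation of the exponent of `t₀` (finiteness of `A[p]`) -/
theorem exists_uniform (η : 𝕋 →+* Module.End ℤ A) (ηB : 𝕋 →+* Module.End ℤ B)
    (θ : 𝕋 →+* ResidueField 𝒪) {p : ℕ} (hfinA : Finite {x : A // p • x = 0})
    (t₀ : 𝕋) (ht₀ : θ t₀ ≠ 0) (g : B →ₗ[ℤ] A) (hg : ∀ t, g ∘ₗ ηB t = η t ∘ₗ g)
    {ι : Type} (f : ι → Module.End ℤ A)
    {ι' : Type} (h : ι' → Module.End ℤ B) (hh : ∀ i t, Commute (ηB t) (h i))
    (hyp : ∀ k : A, p • k = 0 → (∀ i, f i k = 0) →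
      ∃ (y : B) (m : ℕ), p • y = 0 ∧ (∀ i, h i y = 0) ∧ g y = (η t₀ ^ m) k) :
    ∃ s : 𝕋, θ s ≠ 0 ∧ ∀ k : A, p • k = 0 → (∀ i, f i k = 0) →
      ∃ y : B, p • y = 0 ∧ (∀ i, h i y = 0) ∧ g y = η s k := by
  classical
  have hyp' : ∀ x : {x : A // p • x = 0}, ∃ m : ℕ, (∀ i, f i x.1 = 0) →
      ∃ y : B, p • y = 0 ∧ (∀ i, h i y = 0) ∧ g y = (η t₀ ^ m) x.1 := by
    intro x
    by_cases hx : ∀ i, f i x.1 = 0
    · obtain ⟨y, m, h1, h2, h3⟩ := hyp x.1 x.2 hx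
      exact ⟨m, fun _ => ⟨y, h1, h2, h3⟩⟩
    · exact ⟨0, fun h' => absurd h' hx⟩
  choose m hm using hyp'
  obtain ⟨M, hM⟩ := Finite.exists_le m
  refine ⟨t₀ ^ M, ?_, ?_⟩
  · rw [map_pow]
    exact pow_ne_zero M ht₀
  · intro k hk hfk
    obtain ⟨y, h1, h2, h3⟩ := hm ⟨k, hk⟩ hfk
    have hle : m ⟨k, hk⟩ ≤ M := hM _
    refine ⟨ηB (t₀ ^ (M - m ⟨k, hk⟩)) y, ?_, ?_, ?_⟩
    · rw [← map_nsmul, h1, map_zero]
    · intro i
      have hc := LinearMap.congr_fun (hh i (t₀ ^ (M - m ⟨k, hk⟩))).eq y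
      rw [Module.End.mul_apply, Module.End.mul_apply] at hc
      rw [← hc, h2 i, map_zero]
    · have hc := LinearMap.congr_fun (hg (t₀ ^ (M - m ⟨k, hk⟩))) y
      rw [LinearMap.comp_apply, LinearMap.comp_apply] at hc
      rw [hc, h3, ← map_pow, ← Module.End.mul_apply, ← map_mul, ← pow_add,
        Nat.sub_add_cancel hle]

end Uniform

section Main

variable {𝒪 : Type} [CommRing 𝒪] [IsDomain 𝒪] [IsDiscreteValuationRing 𝒪]
  [Finite (ResidueField 𝒪)] {𝕋 : Type} [CommRing 𝕋] {A : Type} [AddCommGroup A]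
  {B : Type} [AddCommGroup B]

/-- The general lifting lemma: a `ℤ`-level lifting statement "up to a power of `t₀`" gives the
clean lifting statement on the `ϖ`-torsion of the `θ`-part. -/
theorem theta_lift (η : 𝕋 →+* Module.End ℤ A) (ηB : 𝕋 →+* Module.End ℤ B)
    (θ : 𝕋 →+* ResidueField 𝒪)
    {ϖ : 𝒪} (hϖ : Irreducible ϖ) {p : ℕ} (hp : p.Prime) (hpm : (p : 𝒪) ∈ maximalIdeal 𝒪)
    (hp0 : (p : 𝒪) ≠ 0) (htorsA : ∀ x : A, ∃ k : ℕ, p ^ k • x = 0)
    (hfinA : Finite {x : A // p • x = 0}) (htorsB : ∀ x : B, ∃ k : ℕ, p ^ k • x = 0)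
    (hfinB : Finite {x : B // p • x = 0}) (t₀ : 𝕋) (ht₀ : θ t₀ ≠ 0)
    (g : B →ₗ[ℤ] A) (hg : ∀ t, g ∘ₗ ηB t = η t ∘ₗ g)
    {ι : Type} [Finite ι] (f : ι → Module.End ℤ A)
    {ι' : Type} (h : ι' → Module.End ℤ B) (hh : ∀ i t, Commute (ηB t) (h i))
    (hyp : ∀ k : A, p • k = 0 → (∀ i, f i k = 0) →
      ∃ (y : B) (m : ℕ), p • y = 0 ∧ (∀ i, h i y = 0) ∧ g y = (η t₀ ^ m) k)
    {v : 𝒪 ⊗[ℤ] A} (hv : v ∈ thetaPart η θ) (hϖv : ϖ • v = 0)
    (hfv : ∀ i, (f i).baseChange 𝒪 v = 0) :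
    ∃ y ∈ thetaPart ηB θ, ϖ • y = 0 ∧ (∀ i, (h i).baseChange 𝒪 y = 0) ∧
      g.baseChange 𝒪 y = v := by
  obtain ⟨s, hs, hyp'⟩ := exists_uniform η ηB θ hfinA t₀ ht₀ g hg f h hh hyp
  exact theta_lift_aux η ηB θ hϖ hp hpm hp0 htorsA hfinA htorsB hfinB s hs g hg f h hh hyp'
    hv hϖv hfv

theorem sub_one_baseChange (d : Module.End ℤ A) (x : 𝒪 ⊗[ℤ] A) :
    (d - 1).baseChange 𝒪 x = d.baseChange 𝒪 x - x := by
  rw [LinearMap.baseChange_sub, LinearMap.sub_apply, baseChange_one_eq]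
  rfl

theorem sum_pow_baseChange (d : Module.End ℤ A) (N : ℕ) (x : 𝒪 ⊗[ℤ] A) :
    (∑ e ∈ Finset.range N, d ^ e).baseChange 𝒪 x =
      ∑ e ∈ Finset.range N, ((d.baseChange 𝒪) ^ e) x := by
  have h1 : (∑ e ∈ Finset.range N, d ^ e).baseChange 𝒪 =
      ∑ e ∈ Finset.range N, (d.baseChange 𝒪) ^ e := by
    have := map_sum (Module.End.baseChangeHom ℤ 𝒪 A) (fun e => d ^ e) (Finset.range N)
    refine this.trans (Finset.sum_congr rfl fun e _ => ?_)
    exact map_pow (Module.End.baseChangeHom ℤ 𝒪 A) d e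
  rw [h1, LinearMap.sum_apply]

end Main

end Fermat.Agent.S59.Lim.H94

end
end
-- ==== END Fermat.Agent.S59.Lim.H94_ThetaTw
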