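-- GENERATED (merged mirror, NOTES/tools/trim/merge3_helper67.py): 8 modules of the originals, bodies verbatim.
import Fermat.Agent.Zm.S43_L09_000
import Fermat.Agent.Zm.S43_L09_001
import Fermat.Agent.Zm.S43_L03_005
import Fermat.Agent.Zm.S43_L05_000
import Fermat.Agent.Zm.S43_L01_000
import Fermat.Agent.Zm.S35_L12_000
import Fermat.Agent.Zm.S35_L06_003
import Fermat.Agent.Zm.S44_L14_000
import Fermat.Agent.Zm.S43_L07_000
import Fermat.Agent.Zm.S48_L14_001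
import Fermat.Agent.Zm.S43_L01_002
import Fermat.Agent.Zm.S48_L14_000

-- ==== BEGIN Fermat.Agent.L.Pivot.Geom.H59_LayerA2
section

/-!
# PIVOT, package PV-GEOM, leaf PVG-A' (helper59): freeness of `T_ϖ W` over `𝒪[Δ_Σ × Δ_Q]`

`exists_basis_tate_pv`: the Tate module of `W` has an `𝒪`-basis of the shape
`mon c x (mon d y (b i))`, `x ∈ ∏ j, Fin (p ^ e j)`, `y ∈ (Fin (p ^ n)) ^ r` (the shape of
`PVGeom.b_basis`), from
* the tower over `Δ_Q` on `W1[ϖ]` with totally fixed part `πup (WM[ϖ])` (data of `TWDiv`),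
* the tower over `Δ_Σ` on `W[ϖ]` with totally fixed part `κup (W1[ϖ])`.
-/

set_option autoImplicit false
set_option linter.style.haveILetI false
set_option linter.unusedSectionVars false

noncomputable section

open IsLocalRing

namespace Fermat.Agent.L.Pivot.Geom.H59

open Fermat.Agent.S59.TWH Fermat.Agent.S59.Lim

section Intertwine

variable {A : Type*} [CommRing A] {V V' : Type*} [AddCommGroup V] [Module A V]
  [AddCommGroup V'] [Module A V']

theorem pow_intertwine (L : V →ₗ[A] V') (f : Module.End A V) (g : Module.End A V')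
    (h : ∀ v, L (f v) = g (L v)) (m : ℕ) (v : V) : L ((f ^ m) v) = (g ^ m) (L v) := by
  induction m generalizing v with
  | zero => simp
  | succ m ih =>
    rw [pow_succ, pow_succ, Module.End.mul_apply, Module.End.mul_apply, ih, h]

theorem mon_intertwine (L : V →ₗ[A] V') :
    ∀ {r : ℕ} (f : Fin r → Module.End A V) (g : Fin r → Module.End A V'),
      (∀ j v, L (f j v) = g j (L v)) → ∀ (x : Fin r → ℕ) (v : V),
      L (H90.mon f x v) = H90.mon g x (L v) := by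
  intro r
  induction r with
  | zero =>
    intro f g _ x v
    rw [H90.mon_zero, H90.mon_zero]
    rfl
  | succ r ih =>
    intro f g h x v
    rw [H90.mon_succ, H90.mon_succ, Module.End.mul_apply, Module.End.mul_apply,
      pow_intertwine L (f 0) (g 0) (h 0),
      ih (fun j => f j.succ) (fun j => g j.succ) (fun j => h j.succ)]

end Intertwine

section Main

variable {𝒪 : Type} [CommRing 𝒪] [IsDomain 𝒪] [IsDiscreteValuationRing 𝒪]
  [IsAdicComplete (maximalIdeal 𝒪) 𝒪] {ϖ : 𝒪}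
  {W W1 WM : Type} [AddCommGroup W] [Module 𝒪 W] [AddCommGroup W1] [Module 𝒪 W1]
  [AddCommGroup WM] [Module 𝒪 WM]

/-- **Freeness of the Tate module over `𝒪[Δ_Σ × Δ_Q]`.** -/
theorem exists_basis_tate_pv (hϖ : Irreducible ϖ) {p : ℕ} [Fact p.Prime]
    (hp : (p : 𝒪) ∈ maximalIdeal 𝒪) (n r k : ℕ) (eP : Fin k → ℕ)
    (hW : IsDiv ϖ W) (hW1 : IsDiv ϖ W1) (hWM : IsDiv ϖ WM)
    (d1 : Fin r → Module.End 𝒪 W1) (d1_pow : ∀ j, d1 j ^ (p ^ n) = 1)
    (d1_comm : ∀ i j, Commute (d1 i) (d1 j))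
    (hstep1 : ∀ (j : Fin r) (v : W1), ϖ • v = 0 → (∀ i, i ≤ j → d1 i v = v) →
      ∃ w : W1, ϖ • w = 0 ∧ (∀ i, i < j → d1 i w = w) ∧ H90.nm (p ^ n) (d1 j) w = v)
    (πup : WM →ₗ[𝒪] W1) (πup_inj : Function.Injective πup)
    (d1_πup : ∀ (j : Fin r) (y : WM), d1 j (πup y) = πup y)
    (inv1 : ∀ v : W1, ϖ • v = 0 → (∀ j, d1 j v = v) → ∃ y : WM, πup y = v)
    (c : Fin k → Module.End 𝒪 W) (c_pow : ∀ j, c j ^ (p ^ eP j) = 1)
    (c_comm : ∀ i j, Commute (c i) (c j))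
    (d : Fin r → Module.End 𝒪 W) (c_d : ∀ j i, Commute (c j) (d i))
    (hstep_c : ∀ (j : Fin k) (v : W), ϖ • v = 0 → (∀ i, i ≤ j → c i v = v) →
      ∃ w : W, ϖ • w = 0 ∧ (∀ i, i < j → c i w = w) ∧ H90.nm (p ^ eP j) (c j) w = v)
    (κ : W →ₗ[𝒪] W1) (κup : W1 →ₗ[𝒪] W) (κup_inj : Function.Injective κup)
    (κup_κ : ∀ x : W, κup (κ x) = nmTotE (fun j => p ^ eP j) c x)
    (c_κup : ∀ (j : Fin k) (y : W1), c j (κup y) = κup y)
    (inv_c : ∀ v : W, ϖ • v = 0 → (∀ j, c j v = v) → ∃ y : W1, κup y = v)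
    (κ_d : ∀ (i : Fin r) (v : W), κ (d i v) = d1 i (κ v)) :
    ∃ (rk : ℕ) (b : Fin rk → H2.tate ϖ W),
      Function.Bijective
        (fun f : Fin rk × (∀ j : Fin k, Fin (p ^ eP j)) × (Fin r → Fin (p ^ n)) → 𝒪 =>
          ∑ x : Fin rk × (∀ j : Fin k, Fin (p ^ eP j)) × (Fin r → Fin (p ^ n)),
            f x • H90.mon (fun j => H2.mapEnd ϖ W (c j)) (fun j => (x.2.1 j : ℕ))
              (H90.mon (fun i => H2.mapEnd ϖ W (d i)) (fun i => (x.2.2 i : ℕ)) (b x.1))) := by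
  classical
  haveI hmax : (Ideal.span {ϖ}).IsMaximal := PrincipalIdealRing.isMaximal_of_irreducible hϖ
  letI : Field (𝒪 ⧸ Ideal.span {ϖ}) := Ideal.Quotient.field _
  haveI := hW.fin
  haveI := hW1.fin
  -- stage 1: the tower over `Δ_Q` on `W1[ϖ]`
  obtain ⟨rk, b₁, hli1, hsp1⟩ := exists_basis_torsion hϖ hp n r hW1 hWM d1 d1_pow d1_comm
    hstep1 πup πup_inj d1_πup inv1
  -- the operators on `W[ϖ]`
  set cV : Fin k → Module.End (𝒪 ⧸ Ideal.span {ϖ}) (Submodule.torsionBy 𝒪 W ϖ) :=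
    fun j => resT ϖ (c j) with hcV
  set dV : Fin r → Module.End (𝒪 ⧸ Ideal.span {ϖ}) (Submodule.torsionBy 𝒪 W ϖ) :=
    fun i => resT ϖ (d i) with hdV
  set d1V : Fin r → Module.End (𝒪 ⧸ Ideal.span {ϖ}) (Submodule.torsionBy 𝒪 W1 ϖ) :=
    fun i => resT ϖ (d1 i) with hd1V
  have hcomm : ∀ i j, Commute (cV i) (cV j) := fun i j => (c_comm i j).map (resT ϖ)
  have hcd : ∀ j i, Commute (cV j) (dV i) := fun j i => (c_d j i).map (resT ϖ)
  have hc : ∀ j, cV j ^ (p ^ eP j) = 1 := fun j => by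
    rw [hcV]
    show resT ϖ (c j) ^ (p ^ eP j) = 1
    rw [← map_pow, c_pow, map_one]
  have hV : ∀ v : Submodule.torsionBy 𝒪 W ϖ, ∃ m : ℕ, (p ^ m) • v = 0 :=
    fun v => torsion_pgroup hϖ hp v
  have hstep' : ∀ (j : Fin k) (v : Submodule.torsionBy 𝒪 W ϖ), (∀ i, i ≤ j → cV i v = v) →
      ∃ w, (∀ i, i < j → cV i w = w) ∧ H90.nm (p ^ eP j) (cV j) w = v :=
    fun j v hv => hstep_resT (fun j => p ^ eP j) c hstep_c j v hv
  -- the pull-back on the torsion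
  set κk : Submodule.torsionBy 𝒪 W1 ϖ →ₗ[𝒪 ⧸ Ideal.span {ϖ}] Submodule.torsionBy 𝒪 W ϖ :=
    resL ϖ κup with hκk
  have hκk_inj : Function.Injective κk := resL_injective ϖ κup_inj
  -- the pull-back commutes with the diamond operators at the Taylor–Wiles primes
  have hκd : ∀ (i : Fin r) (y : Submodule.torsionBy 𝒪 W1 ϖ), κk (d1V i y) = dV i (κk y) := by
    intro i y
    obtain ⟨w, -, hw⟩ := κ_torsion_onto (fun j => p ^ eP j) c c_comm hstep_c κ κup κup_inj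
      κup_κ c_κup (y : W1) ((Submodule.mem_torsionBy_iff _ _).mp y.2)
    apply Subtype.ext
    show κup (d1 i (y : W1)) = d i (κup (y : W1))
    rw [← hw, ← κ_d, κup_κ, κup_κ]
    have h1 := (commute_nmTotE (fun j => p ^ eP j) c (d := d i) (fun j => (c_d j i).symm)).eq
    exact (congrArg (fun f : Module.End 𝒪 W => f w) h1).symm
  -- the basis of the fixed part
  set e' : Fin rk × (Fin r → Fin (p ^ n)) → Submodule.torsionBy 𝒪 W ϖ :=
    fun x => κk (H90.fam (p ^ n) d1V b₁ x) with he'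
  have he_li : LinearIndependent (𝒪 ⧸ Ideal.span {ϖ}) e' :=
    hli1.map' κk (LinearMap.ker_eq_bot.mpr hκk_inj)
  have he_span : ∀ v, (∀ j, cV j v = v) →
      v ∈ Submodule.span (𝒪 ⧸ Ideal.span {ϖ}) (Set.range e') := by
    intro v hv
    obtain ⟨y, hy⟩ := inv_c (v : W) ((Submodule.mem_torsionBy_iff _ _).mp v.2)
      (fun j => congrArg Subtype.val (hv j))
    have hy0 : ϖ • y = 0 := by
      apply κup_inj
      rw [map_smul, hy, map_zero]
      exact (Submodule.mem_torsionBy_iff _ _).mp v.2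
    have hv' : v = κk ⟨y, (Submodule.mem_torsionBy_iff _ _).mpr hy0⟩ := Subtype.ext hy.symm
    rw [hv']
    have h1 : (⟨y, (Submodule.mem_torsionBy_iff _ _).mpr hy0⟩ : Submodule.torsionBy 𝒪 W1 ϖ)
        ∈ Submodule.span (𝒪 ⧸ Ideal.span {ϖ}) (Set.range (H90.fam (p ^ n) d1V b₁)) := by
      rw [hsp1]
      exact Submodule.mem_top
    have h2 := Submodule.apply_mem_span_image_of_mem_span κk h1
    have h3 : (κk '' Set.range (H90.fam (p ^ n) d1V b₁)) = Set.range e' := by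
      rw [← Set.range_comp]
      rfl
    rw [h3] at h2
    exact h2
  -- lifts of the `κk (b₁ i)` along the total norm of `Δ_Σ`
  have hex : ∀ i, ∃ w, nmTotE (fun j => p ^ eP j) cV w = κk (b₁ i) := fun i =>
    exists_nmTotE_eq k (fun j => p ^ eP j) (Submodule.torsionBy 𝒪 W ϖ) cV hcomm hstep'
      (κk (b₁ i)) (fun j => Subtype.ext (c_κup j _))
  choose b₀ hb₀ using hex
  set b' : Fin rk × (Fin r → Fin (p ^ n)) → Submodule.torsionBy 𝒪 W ϖ :=
    fun x => H90.mon dV (fun i => (x.2 i : ℕ)) (b₀ x.1) with hb'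
  have hnb' : ∀ x, nmTotE (fun j => p ^ eP j) cV (b' x) = e' x := by
    intro x
    have h1 : Commute (H90.mon dV (fun i => (x.2 i : ℕ))) (nmTotE (fun j => p ^ eP j) cV) :=
      commute_nmTotE (fun j => p ^ eP j) cV
        (fun j => (H90.commute_mon dV (fun i => (x.2 i : ℕ)) (fun i => hcd j i)).symm)
    rw [hb', he']
    show nmTotE (fun j => p ^ eP j) cV (H90.mon dV (fun i => (x.2 i : ℕ)) (b₀ x.1)) = _
    have h2 := congrArg (fun f : Module.End (𝒪 ⧸ Ideal.span {ϖ})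
      (Submodule.torsionBy 𝒪 W ϖ) => f (b₀ x.1)) h1.eq
    simp only [Module.End.mul_apply] at h2
    rw [← h2, hb₀]
    exact (mon_intertwine κk d1V dV hκd _ _).symm
  -- the tower over `Δ_Σ` on `W[ϖ]`
  obtain ⟨-, -, hbij⟩ := towerE_basis_of_lift k eP hV cV hcomm hc hstep' e' he_li he_span b' hnb'
  -- lift the `b₀ i` to the Tate module
  have hlift : ∀ i, ∃ x : H2.tate ϖ W, H2.ev ϖ W 1 x = (b₀ i : W) := fun i =>
    H2.exists_ev_eq hW.div 1 _ (by
      rw [pow_one]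
      exact (Submodule.mem_torsionBy_iff _ _).mp (b₀ i).2)
  choose b hb using hlift
  refine ⟨rk, b, ?_⟩
  haveI : Module.Finite 𝒪 (H2.tate ϖ W) := H2.finite_tate_dvr hϖ hW.div hW.fg_torsionBy
  haveI : Module.Free 𝒪 (H2.tate ϖ W) := H2.free_tate hϖ hW.div hW.fg_torsionBy
  let red : H2.tate ϖ W →ₗ[𝒪] Submodule.torsionBy 𝒪 W ϖ :=
    LinearMap.codRestrict (Submodule.torsionBy 𝒪 W ϖ) (H2.ev ϖ W 1) (fun x => by
      rw [Submodule.mem_torsionBy_iff]
      have := H2.pow_smul_ev 1 x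
      rwa [pow_one] at this)
  have hker : ∀ m, red m = 0 → m ∈ (maximalIdeal 𝒪 • ⊤ : Submodule 𝒪 (H2.tate ϖ W)) :=
    fun m hm => H2.mem_maximalIdeal_smul_of_ev_one hϖ m (congrArg Subtype.val hm)
  refine H14.olift (k := 𝒪 ⧸ Ideal.span {ϖ}) Ideal.Quotient.mk_surjective red hker _ ?_
  -- reindexing
  let ε : Fin rk × (∀ j : Fin k, Fin (p ^ eP j)) × (Fin r → Fin (p ^ n)) ≃
      (Fin rk × (Fin r → Fin (p ^ n))) × (∀ j : Fin k, Fin (p ^ eP j)) :=
    { toFun := fun x => ((x.1, x.2.2), x.2.1)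
      invFun := fun y => (y.1.1, y.2, y.1.2)
      left_inv := fun _ => rfl
      right_inv := fun _ => rfl }
  have hred : ∀ x : Fin rk × (∀ j : Fin k, Fin (p ^ eP j)) × (Fin r → Fin (p ^ n)),
      red (H90.mon (fun j => H2.mapEnd ϖ W (c j)) (fun j => (x.2.1 j : ℕ))
        (H90.mon (fun i => H2.mapEnd ϖ W (d i)) (fun i => (x.2.2 i : ℕ)) (b x.1)))
        = famE (fun j => p ^ eP j) cV b' (ε x) := by
    intro x
    apply Subtype.ext
    rw [famE, hcV, resT_mon]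
    show H2.ev ϖ W 1 _ = H90.mon c _ ((H90.mon dV (fun i => (x.2.2 i : ℕ)) (b₀ x.1) :
      Submodule.torsionBy 𝒪 W ϖ) : W)
    rw [hdV, resT_mon, mapEnd_mon, mapEnd_mon, H2.ev_mapEnd, H2.ev_mapEnd, hb]
    rfl
  simp only [hred]
  exact bijective_sum_equiv ε _ hbij

end Main

end Fermat.Agent.L.Pivot.Geom.H59

end
end
-- ==== END Fermat.Agent.L.Pivot.Geom.H59_LayerA2

-- ==== BEGIN Fermat.Agent.L.Pivot.Geom.H59_LayerB1
section

/-!
# PIVOT, package PV-GEOM, Layer B' (helper59): the range of the total norm (abstract part)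

`W` a divisible module with commuting operators `c j` (`c j ^ m j = 1`), `N := nmTotE m c`.

* `inv_torsion_mem_range` : `Δ`-invariants of `W[ϖ]` are norms of elements of `W[ϖ]` (from `hstep`);
* `inv_mem_range`         : `Δ`-invariants of a `ϖ`-power torsion, `ϖ`-divisible `W` are norms;
* `resRange`, `resRangeHom`, `resRangeMonoidHom` : restriction of operators commuting with `N` to
  `range N`;
* `isDiv_range`           : `range N` is `IsDiv`.
-/

set_option autoImplicit false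
set_option linter.style.haveILetI false
set_option linter.unusedSectionVars false

noncomputable section

open IsLocalRing

namespace Fermat.Agent.L.Pivot.Geom.H59

open Fermat.Agent.S59.TWH Fermat.Agent.S59.Lim

section Inv

variable {𝒪 : Type} [CommRing 𝒪] {ϖ : 𝒪} {W : Type} [AddCommGroup W] [Module 𝒪 W]

/-- `Δ`-invariants of `W[ϖ]` are total norms of elements of `W[ϖ]`. -/
theorem inv_torsion_mem_range {k : ℕ} (m : Fin k → ℕ)
    (c : Fin k → Module.End 𝒪 W) (c_comm : ∀ i j, Commute (c i) (c j))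
    (hstep : ∀ (j : Fin k) (v : W), ϖ • v = 0 → (∀ i, i ≤ j → c i v = v) →
      ∃ w : W, ϖ • w = 0 ∧ (∀ i, i < j → c i w = w) ∧ H90.nm (m j) (c j) w = v)
    (v : W) (hv : ϖ • v = 0) (hfix : ∀ j, c j v = v) :
    ∃ w : W, ϖ • w = 0 ∧ nmTotE m c w = v := by
  classical
  have hcomm : ∀ i j, Commute (resT ϖ (c i)) (resT ϖ (c j)) :=
    fun i j => (c_comm i j).map (resT ϖ)
  have hv0 : v ∈ Submodule.torsionBy 𝒪 W ϖ := (Submodule.mem_torsionBy_iff _ _).mpr hv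
  obtain ⟨w, hw⟩ := exists_nmTotE_eq k m (Submodule.torsionBy 𝒪 W ϖ)
    (fun j => resT ϖ (c j)) hcomm (hstep_resT m c hstep)
    ⟨v, hv0⟩ (fun j => Subtype.ext (hfix j))
  refine ⟨(w : W), (Submodule.mem_torsionBy_iff _ _).mp w.2, ?_⟩
  have := congrArg Subtype.val hw
  rw [resT_nmTotE] at this
  exact this

/-- the total norm has invariant values. -/
theorem fix_nmTotE {k : ℕ} (m : Fin k → ℕ)
    (c : Fin k → Module.End 𝒪 W) (c_comm : ∀ i j, Commute (c i) (c j))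
    (c_pow : ∀ j, c j ^ m j = 1) (j : Fin k) (x : W) :
    c j (nmTotE m c x) = nmTotE m c x := by
  have h := mul_nmTotE m c c_comm c_pow j
  have h2 := congrArg (fun f : Module.End 𝒪 W => f x) h
  exact h2

/-- `Δ`-invariants of a `ϖ`-power torsion, `ϖ`-divisible module are total norms. -/
theorem inv_mem_range {k : ℕ} (m : Fin k → ℕ)
    (c : Fin k → Module.End 𝒪 W) (c_comm : ∀ i j, Commute (c i) (c j))
    (c_pow : ∀ j, c j ^ m j = 1)
    (htors : ∀ x : W, ∃ e : ℕ, ϖ ^ e • x = 0) (hdiv : ∀ x : W, ∃ y : W, ϖ • y = x)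
    (hstep : ∀ (j : Fin k) (v : W), ϖ • v = 0 → (∀ i, i ≤ j → c i v = v) →
      ∃ w : W, ϖ • w = 0 ∧ (∀ i, i < j → c i w = w) ∧ H90.nm (m j) (c j) w = v)
    (x : W) (hfix : ∀ j, c j x = x) : ∃ w : W, nmTotE m c w = x := by
  have hdivpow : ∀ (e : ℕ) (x : W), ∃ y : W, ϖ ^ e • y = x := by
    intro e
    induction e with
    | zero => intro x; exact ⟨x, by rw [pow_zero, one_smul]⟩
    | succ e ih =>
      intro x
      obtain ⟨y, hy⟩ := hdiv x
      obtain ⟨z, hz⟩ := ih y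
      exact ⟨z, by rw [pow_succ, mul_comm, mul_smul, hz, hy]⟩
  have key : ∀ (e : ℕ) (x : W), ϖ ^ e • x = 0 → (∀ j, c j x = x) →
      ∃ w : W, nmTotE m c w = x := by
    intro e
    induction e with
    | zero =>
      intro x hx _
      rw [pow_zero, one_smul] at hx
      exact ⟨0, by rw [map_zero, hx]⟩
    | succ e ih =>
      intro x hx hfx
      have h1 : ϖ • (ϖ ^ e • x) = 0 := by
        rw [← mul_smul, ← pow_succ']
        exact hx
      have h2 : ∀ j, c j (ϖ ^ e • x) = ϖ ^ e • x := fun j => by rw [map_smul, hfx j]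
      obtain ⟨w, -, hw⟩ := inv_torsion_mem_range m c c_comm hstep _ h1 h2
      obtain ⟨w', hw'⟩ := hdivpow e w
      have h3 : ϖ ^ e • (x - nmTotE m c w') = 0 := by
        rw [smul_sub, ← map_smul, hw', hw, sub_self]
      have h4 : ∀ j, c j (x - nmTotE m c w') = x - nmTotE m c w' := fun j => by
        rw [map_sub, hfx j, fix_nmTotE m c c_comm c_pow j]
      obtain ⟨w'', hw''⟩ := ih _ h3 h4
      exact ⟨w'' + w', by rw [map_add, hw'']; abel⟩
  obtain ⟨e, he⟩ := htors x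
  exact key e x he hfix

end Inv

section Res

variable {𝒪 : Type} [CommRing 𝒪] {W : Type} [AddCommGroup W] [Module 𝒪 W]

/-- restriction of an endomorphism commuting with `N` to `range N`. -/
def resRange (N f : Module.End 𝒪 W) (h : Commute f N) : Module.End 𝒪 ↥(LinearMap.range N) :=
  f.restrict (p := LinearMap.range N) (q := LinearMap.range N) (fun x hx => by
    obtain ⟨y, rfl⟩ := hx
    refine ⟨f y, ?_⟩
    have := congrArg (fun g : Module.End 𝒪 W => g y) h.eq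
    exact this.symm)

@[simp] theorem coe_resRange (N f : Module.End 𝒪 W) (h : Commute f N)
    (x : ↥(LinearMap.range N)) : ((resRange N f h x : ↥(LinearMap.range N)) : W) = f x := rfl

theorem resRange_mul (N f g : Module.End 𝒪 W) (hf : Commute f N) (hg : Commute g N) :
    resRange N (f * g) (hf.mul_left hg) = resRange N f hf * resRange N g hg := by
  ext x
  rfl

theorem resRange_one (N : Module.End 𝒪 W) :
    resRange N 1 (Commute.one_left N) = 1 := by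
  ext x
  rfl

theorem resRange_commute (N f g : Module.End 𝒪 W) (hf : Commute f N) (hg : Commute g N)
    (h : Commute f g) : Commute (resRange N f hf) (resRange N g hg) := by
  apply LinearMap.ext
  intro x
  apply Subtype.ext
  have := congrArg (fun u : Module.End 𝒪 W => u (x : W)) h.eq
  exact this

theorem resRange_pow (N f : Module.End 𝒪 W) (hf : Commute f N) (e : ℕ) :
    resRange N f hf ^ e = resRange N (f ^ e) (hf.pow_left e) := by
  induction e with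
  | zero =>
    apply LinearMap.ext
    intro x
    rfl
  | succ e ih =>
    rw [pow_succ, ih]
    apply LinearMap.ext
    intro x
    apply Subtype.ext
    show (f ^ e) (f x) = (f ^ (e + 1)) x
    rw [pow_succ]
    rfl

theorem coe_resRange_pow (N f : Module.End 𝒪 W) (hf : Commute f N) (e : ℕ)
    (x : ↥(LinearMap.range N)) :
    (((resRange N f hf ^ e) x : ↥(LinearMap.range N)) : W) = (f ^ e) x := by
  rw [resRange_pow]
  rfl

/-- restriction of a ring homomorphism with values commuting with `N`. -/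
def resRangeHom {T : Type*} [Semiring T] (N : Module.End 𝒪 W) (η : T →+* Module.End 𝒪 W)
    (h : ∀ t, Commute (η t) N) : T →+* Module.End 𝒪 ↥(LinearMap.range N) where
  toFun t := resRange N (η t) (h t)
  map_one' := by
    apply LinearMap.ext
    intro x
    apply Subtype.ext
    show η 1 (x : W) = x
    rw [map_one]
    rfl
  map_mul' s t := by
    apply LinearMap.ext
    intro x
    apply Subtype.ext
    show η (s * t) (x : W) = η s (η t x)
    rw [map_mul]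
    rfl
  map_zero' := by
    apply LinearMap.ext
    intro x
    apply Subtype.ext
    show η 0 (x : W) = 0
    rw [map_zero]
    rfl
  map_add' s t := by
    apply LinearMap.ext
    intro x
    apply Subtype.ext
    show η (s + t) (x : W) = η s x + η t x
    rw [map_add]
    rfl

@[simp] theorem coe_resRangeHom {T : Type*} [Semiring T] (N : Module.End 𝒪 W)
    (η : T →+* Module.End 𝒪 W) (h : ∀ t, Commute (η t) N) (t : T)
    (x : ↥(LinearMap.range N)) :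
    ((resRangeHom N η h t x : ↥(LinearMap.range N)) : W) = η t x := rfl

/-- restriction of a monoid homomorphism with values commuting with `N`. -/
def resRangeMonoidHom {G : Type*} [Monoid G] (N : Module.End 𝒪 W) (ρ : G →* Module.End 𝒪 W)
    (h : ∀ g, Commute (ρ g) N) : G →* Module.End 𝒪 ↥(LinearMap.range N) where
  toFun g := resRange N (ρ g) (h g)
  map_one' := by
    apply LinearMap.ext
    intro x
    apply Subtype.ext
    show ρ 1 (x : W) = x
    rw [map_one]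
    rfl
  map_mul' s t := by
    apply LinearMap.ext
    intro x
    apply Subtype.ext
    show ρ (s * t) (x : W) = ρ s (ρ t x)
    rw [map_mul]
    rfl

@[simp] theorem coe_resRangeMonoidHom {G : Type*} [Monoid G] (N : Module.End 𝒪 W)
    (ρ : G →* Module.End 𝒪 W) (h : ∀ g, Commute (ρ g) N) (g : G)
    (x : ↥(LinearMap.range N)) :
    ((resRangeMonoidHom N ρ h g x : ↥(LinearMap.range N)) : W) = ρ g x := rfl

/-- `range N` is `IsDiv` if `W` is. -/
theorem isDiv_range {ϖ : 𝒪} (hW : IsDiv ϖ W) (N : Module.End 𝒪 W) :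
    IsDiv ϖ ↥(LinearMap.range N) where
  tors x := by
    obtain ⟨k, hk⟩ := hW.tors (x : W)
    exact ⟨k, Subtype.ext hk⟩
  div x := by
    obtain ⟨y, hy⟩ := x.2
    obtain ⟨z, hz⟩ := hW.div y
    refine ⟨⟨N z, ⟨z, rfl⟩⟩, Subtype.ext ?_⟩
    show ϖ • N z = (x : W)
    rw [← map_smul, hz, hy]
  fin := by
    haveI := hW.fin
    let f : Submodule.torsionBy 𝒪 ↥(LinearMap.range N) ϖ → Submodule.torsionBy 𝒪 W ϖ :=
      fun x => ⟨((x : ↥(LinearMap.range N)) : W), by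
        rw [Submodule.mem_torsionBy_iff]
        have := (Submodule.mem_torsionBy_iff _ _).mp x.2
        exact congrArg Subtype.val this⟩
    have hf : Function.Injective f := by
      intro x y hxy
      apply Subtype.ext
      apply Subtype.ext
      have h1 : ((f x : Submodule.torsionBy 𝒪 W ϖ) : W) = ((f y : Submodule.torsionBy 𝒪 W ϖ) : W) :=
        congrArg Subtype.val hxy
      exact h1
    exact Finite.of_injective f hf

end Res

end Fermat.Agent.L.Pivot.Geom.H59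

end

end
-- ==== END Fermat.Agent.L.Pivot.Geom.H59_LayerB1

-- ==== BEGIN Fermat.Agent.L.Pivot.Geom.H70_WHstepMix
section

/-!
# PIVOT, package PV-GEOM, leaf P-HSTEP part (ii): the norm steps on the `θ`-part (helper70)

Pure algebra on `X = 𝒪 ⊗_ℤ A` (`A` a `p`-primary torsion group with `A[p]` finite, `η : 𝕋 → End_ℤ A`,
`θ : 𝕋 → k`, `W = thetaPart η θ`), from the lifting lemma `S59.Lim.H94.theta_lift` (helper94).

* `whstep_mix`     : the general step: a `ℤ`-level norm-surjectivity statement "up to a power of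
  `t₀`" (`θ t₀ ≠ 0`) for operators `F i` (fixing `v`), `Hh i` (fixing `w`) and the norm
  `∑_{a < m} D ^ a` gives the clean statement on `W[ϖ]`;
* `hstepC_thetaZ`  : the shape of `PVBase.hstepC` (tower of the pivot primes, exponents `eP j`);
* `hstepD_thetaZ`  : the shape of `PVBase.hstepD` (tower of the Taylor–Wiles primes on the
  invariants of the pivot diamonds).
-/

set_option autoImplicit false
set_option linter.unusedSectionVars false
set_option linter.unusedVariables false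
set_option linter.style.haveILetI false

open IsLocalRing TensorProduct

noncomputable section

namespace Fermat.Agent.L.Pivot.Geom.H70

open Fermat.Agent.S59.Lim Fermat.Agent.S59.Lim.H2 Fermat.Agent.S59.Lim.H94

section Abs

variable {𝒪 : Type} [CommRing 𝒪] [IsDomain 𝒪] [IsDiscreteValuationRing 𝒪]
  [Finite (ResidueField 𝒪)] {A : Type} [AddCommGroup A] {𝕋 : Type} [CommRing 𝕋]

/-- **The general norm step** on the `ϖ`-torsion of the `θ`-part. -/
theorem whstep_mix {ϖ : 𝒪} (hϖ : Irreducible ϖ) {p : ℕ} (hp : p.Prime)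
    (hpm : (p : 𝒪) ∈ maximalIdeal 𝒪) (hp0 : (p : 𝒪) ≠ 0)
    (htors : ∀ x : A, ∃ k : ℕ, p ^ k • x = 0) (hfin : Finite {x : A // p • x = 0})
    (η : 𝕋 →+* Module.End ℤ A) (θ : 𝕋 →+* ResidueField 𝒪) (t₀ : 𝕋) (ht₀ : θ t₀ ≠ 0)
    {ι : Type} [Finite ι] (F : ι → Module.End ℤ A)
    {ι' : Type} (Hh : ι' → Module.End ℤ A) (hHh : ∀ i t, Commute (η t) (Hh i))
    (D : Module.End ℤ A) (hD : ∀ t, Commute (η t) D) (m : ℕ)
    (hyp : ∀ v : A, p • v = 0 → (∀ i, F i v = v) →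
      ∃ (w : A) (m' : ℕ), p • w = 0 ∧ (∀ i, Hh i w = w) ∧
        ∑ a ∈ Finset.range m, (D ^ a) w = (η t₀ ^ m') v)
    (v : 𝒪 ⊗[ℤ] A) (hv : v ∈ thetaPart η θ) (hϖv : ϖ • v = 0)
    (hFv : ∀ i, (F i).baseChange 𝒪 v = v) :
    ∃ w ∈ thetaPart η θ, ϖ • w = 0 ∧ (∀ i, (Hh i).baseChange 𝒪 w = w) ∧
      ∑ a ∈ Finset.range m, ((D.baseChange 𝒪) ^ a) w = v := by
  classical
  let g : Module.End ℤ A := ∑ a ∈ Finset.range m, D ^ a
  have hgc : ∀ t, Commute (η t) g := fun t =>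
    Commute.sum_right _ _ _ fun a _ => (hD t).pow_right a
  have hg : ∀ t, g ∘ₗ η t = η t ∘ₗ g := fun t => (hgc t).eq.symm
  have hh : ∀ i t, Commute (η t) (Hh i - 1) := fun i t =>
    (hHh i t).sub_right (Commute.one_right _)
  have hyp' : ∀ k : A, p • k = 0 → (∀ i, (F i - 1) k = 0) →
      ∃ (y : A) (m' : ℕ), p • y = 0 ∧ (∀ i, (Hh i - 1) y = 0) ∧ g y = (η t₀ ^ m') k := by
    intro k hk hfk
    obtain ⟨w, m', h1, h2, h3⟩ := hyp k hk (fun i => by
      have := hfk i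
      rw [LinearMap.sub_apply, Module.End.one_apply] at this
      exact sub_eq_zero.mp this)
    refine ⟨w, m', h1, fun i => ?_, ?_⟩
    · rw [LinearMap.sub_apply, Module.End.one_apply, h2 i, sub_self]
    · rw [← h3]
      exact LinearMap.sum_apply _ _ _
  have hfv : ∀ i, (F i - 1).baseChange 𝒪 v = 0 := fun i => by
    rw [sub_one_baseChange, hFv i, sub_self]
  obtain ⟨y, hy, hy1, hy2, hy3⟩ := theta_lift η η θ hϖ hp hpm hp0 htors hfin htors hfin t₀
    ht₀ g hg (fun i => F i - 1) (fun i => Hh i - 1) hh hyp' hv hϖv hfv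
  refine ⟨y, hy, hy1, fun i => ?_, ?_⟩
  · have := hy2 i
    rw [sub_one_baseChange] at this
    exact sub_eq_zero.mp this
  · rw [← sum_pow_baseChange]
    exact hy3

end Abs

section Sub

variable {𝒪 : Type} [CommRing 𝒪] [IsLocalRing 𝒪] {𝕋 : Type} [CommRing 𝕋]
  {A : Type} [AddCommGroup A]

theorem coe_pow_thetaZ_mix (η : 𝕋 →+* Module.End ℤ A) (θ : 𝕋 →+* ResidueField 𝒪)
    (g : Module.End ℤ A) (hg : ∀ t, Commute (η t) g) (e : ℕ) (x : ↥(thetaPart η θ)) :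
    ((((thetaZ θ g hg) ^ e) x : ↥(thetaPart η θ)) : 𝒪 ⊗[ℤ] A)
      = ((g.baseChange 𝒪) ^ e) x.1 := by
  induction e generalizing x with
  | zero => rfl
  | succ e ih =>
    rw [pow_succ, Module.End.mul_apply, ih, pow_succ, Module.End.mul_apply]
    rfl

theorem coe_nm_thetaZ_mix (η : 𝕋 →+* Module.End ℤ A) (θ : 𝕋 →+* ResidueField 𝒪)
    (g : Module.End ℤ A) (hg : ∀ t, Commute (η t) g) (m : ℕ) (x : ↥(thetaPart η θ)) :
    ((Fermat.Agent.S59.TWH.H90.nm m (thetaZ θ g hg) x : ↥(thetaPart η θ)) : 𝒪 ⊗[ℤ] A)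
      = ∑ e ∈ Finset.range m, ((g.baseChange 𝒪) ^ e) x.1 := by
  rw [Fermat.Agent.S59.TWH.H90.nm_apply]
  rw [← Finset.sum_congr rfl (fun e _ => coe_pow_thetaZ_mix η θ g hg e x)]
  exact map_sum (Submodule.subtype (thetaPart η θ)) _ _

theorem thetaZ_eq_self_iff (η : 𝕋 →+* Module.End ℤ A) (θ : 𝕋 →+* ResidueField 𝒪)
    (g : Module.End ℤ A) (hg : ∀ t, Commute (η t) g) (x : ↥(thetaPart η θ)) :
    thetaZ θ g hg x = x ↔ (g.baseChange 𝒪) x.1 = x.1 :=
  ⟨fun h => congrArg Subtype.val h, fun h => Subtype.ext h⟩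

end Sub

section PV

variable {𝒪 : Type} [CommRing 𝒪] [IsDomain 𝒪] [IsDiscreteValuationRing 𝒪]
  [Finite (ResidueField 𝒪)] {A : Type} [AddCommGroup A] {𝕋 : Type} [CommRing 𝕋]

/-- **The shape of `PVBase.hstepC`**: the norm steps along the tower of the pivot primes, on
`W[ϖ]`, `W = thetaPart η θ`, from the `ℤ`-level statement (up to a power of `t₀`). -/
theorem hstepC_thetaZ {ϖ : 𝒪} (hϖ : Irreducible ϖ) {p : ℕ} (hp : p.Prime)
    (hpm : (p : 𝒪) ∈ maximalIdeal 𝒪) (hp0 : (p : 𝒪) ≠ 0)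
    (htors : ∀ x : A, ∃ k : ℕ, p ^ k • x = 0) (hfin : Finite {x : A // p • x = 0})
    (η : 𝕋 →+* Module.End ℤ A) (θ : 𝕋 →+* ResidueField 𝒪) (t₀ : 𝕋) (ht₀ : θ t₀ ≠ 0)
    {k : ℕ} (eP : Fin k → ℕ) (cZ : Fin k → Module.End ℤ A)
    (hc : ∀ j t, Commute (η t) (cZ j))
    (hyp : ∀ (j : Fin k) (v : A), p • v = 0 → (∀ i, i ≤ j → cZ i v = v) →
      ∃ (w : A) (m : ℕ), p • w = 0 ∧ (∀ i, i < j → cZ i w = w) ∧
        ∑ a ∈ Finset.range (p ^ eP j), (cZ j ^ a) w = (η t₀ ^ m) v)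
    (j : Fin k) (v : ↥(thetaPart η θ)) (hv : ϖ • v = 0)
    (hcv : ∀ i, i ≤ j → thetaZ θ (cZ i) (hc i) v = v) :
    ∃ w : ↥(thetaPart η θ), ϖ • w = 0 ∧ (∀ i, i < j → thetaZ θ (cZ i) (hc i) w = w) ∧
      Fermat.Agent.S59.TWH.H90.nm (p ^ eP j) (thetaZ θ (cZ j) (hc j)) w = v := by
  obtain ⟨w, hw, hw1, hw2, hw3⟩ := whstep_mix hϖ hp hpm hp0 htors hfin η θ t₀ ht₀
    (fun i : {i : Fin k // i ≤ j} => cZ i.1) (fun i : {i : Fin k // i < j} => cZ i.1)
    (fun i t => hc i.1 t) (cZ j) (hc j) (p ^ eP j)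
    (fun v' hv' hfix => by
      obtain ⟨w', m, h1, h2, h3⟩ := hyp j v' hv' (fun i hij => hfix ⟨i, hij⟩)
      exact ⟨w', m, h1, fun i => h2 i.1 i.2, h3⟩)
    v.1 v.2 (congrArg Subtype.val hv)
    (fun i => (thetaZ_eq_self_iff η θ (cZ i.1) (hc i.1) v).mp (hcv i.1 i.2))
  refine ⟨⟨w, hw⟩, Subtype.ext hw1, fun i hij => Subtype.ext (hw2 ⟨i, hij⟩), Subtype.ext ?_⟩
  exact (coe_nm_thetaZ_mix η θ (cZ j) (hc j) (p ^ eP j) ⟨w, hw⟩).trans hw3

/-- **The shape of `PVBase.hstepD`**: the norm steps along the tower of the Taylor–Wiles primes,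
on the invariants of the pivot diamonds in `W[ϖ]`, from the `ℤ`-level statement. -/
theorem hstepD_thetaZ {ϖ : 𝒪} (hϖ : Irreducible ϖ) {p : ℕ} (hp : p.Prime)
    (hpm : (p : 𝒪) ∈ maximalIdeal 𝒪) (hp0 : (p : 𝒪) ≠ 0)
    (htors : ∀ x : A, ∃ k : ℕ, p ^ k • x = 0) (hfin : Finite {x : A // p • x = 0})
    (η : 𝕋 →+* Module.End ℤ A) (θ : 𝕋 →+* ResidueField 𝒪) (t₀ : 𝕋) (ht₀ : θ t₀ ≠ 0)
    {k r : ℕ} (n : ℕ) (cZ : Fin k → Module.End ℤ A) (dZ : Fin r → Module.End ℤ A)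
    (hc : ∀ j t, Commute (η t) (cZ j)) (hd : ∀ i t, Commute (η t) (dZ i))
    (hyp : ∀ (i : Fin r) (v : A), p • v = 0 → (∀ j, cZ j v = v) →
      (∀ i', i' ≤ i → dZ i' v = v) →
      ∃ (w : A) (m : ℕ), p • w = 0 ∧ (∀ j, cZ j w = w) ∧ (∀ i', i' < i → dZ i' w = w) ∧
        ∑ a ∈ Finset.range (p ^ n), (dZ i ^ a) w = (η t₀ ^ m) v)
    (i : Fin r) (v : ↥(thetaPart η θ)) (hv : ϖ • v = 0)
    (hcv : ∀ j, thetaZ θ (cZ j) (hc j) v = v)
    (hdv : ∀ i', i' ≤ i → thetaZ θ (dZ i') (hd i') v = v) :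
    ∃ w : ↥(thetaPart η θ), ϖ • w = 0 ∧ (∀ j, thetaZ θ (cZ j) (hc j) w = w) ∧
      (∀ i', i' < i → thetaZ θ (dZ i') (hd i') w = w) ∧
      Fermat.Agent.S59.TWH.H90.nm (p ^ n) (thetaZ θ (dZ i) (hd i)) w = v := by
  obtain ⟨w, hw, hw1, hw2, hw3⟩ := whstep_mix hϖ hp hpm hp0 htors hfin η θ t₀ ht₀
    (fun x : Fin k ⊕ {i' : Fin r // i' ≤ i} => Sum.elim cZ (fun i' => dZ i'.1) x)
    (fun x : Fin k ⊕ {i' : Fin r // i' < i} => Sum.elim cZ (fun i' => dZ i'.1) x)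
    (fun x t => by
      cases x with
      | inl j => exact hc j t
      | inr i' => exact hd i'.1 t)
    (dZ i) (hd i) (p ^ n)
    (fun v' hv' hfix => by
      obtain ⟨w', m, h1, h2, h3, h4⟩ := hyp i v' hv' (fun j => hfix (Sum.inl j))
        (fun i' hi' => hfix (Sum.inr ⟨i', hi'⟩))
      refine ⟨w', m, h1, fun x => ?_, h4⟩
      cases x with
      | inl j => exact h2 j
      | inr i' => exact h3 i'.1 i'.2)
    v.1 v.2 (congrArg Subtype.val hv)
    (fun x => by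
      cases x with
      | inl j => exact (thetaZ_eq_self_iff η θ (cZ j) (hc j) v).mp (hcv j)
      | inr i' => exact (thetaZ_eq_self_iff η θ (dZ i'.1) (hd i'.1) v).mp (hdv i'.1 i'.2))
  refine ⟨⟨w, hw⟩, Subtype.ext hw1, fun j => Subtype.ext (hw2 (Sum.inl j)),
    fun i' hi' => Subtype.ext (hw2 (Sum.inr ⟨i', hi'⟩)), Subtype.ext ?_⟩
  exact (coe_nm_thetaZ_mix η θ (dZ i) (hd i) (p ^ n) ⟨w, hw⟩).trans hw3

end PV

end Fermat.Agent.L.Pivot.Geom.H70

end
end
-- ==== END Fermat.Agent.L.Pivot.Geom.H70_WHstepMix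

-- ==== BEGIN Fermat.Agent.L.Pivot.Geom.H81_NewAsmBetti
section

/-!
# PIVOT, PV-GEOM, leaf PVG-NEW-ASM (helper81), part 4: the Betti side

`false_of_eigen_new`: `V ↪ Hom_par(Γ₀(N c) ∩ Γ₁(c), L)` with the operators `TV ℓ`, `dia d`
(setting of `NEB.EIG.H39.stmt_OP` / `H4.exists_Theta_new`).  A nonzero vector
`w ∈ (⟨δ⟩ - 1) V` (`δ ≡ 1` modulo the primes of `c` other than `q`) which is an eigenvector of the
twisted Hecke operators `tOp ℓ` with eigenvalues `a ℓ`, together with a character of the Hecke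
algebra of level `N c² / q` with the same eigenvalues, contradicts `Stmt_NewJ0 (N c² / q) q p`.
-/

set_option autoImplicit false

open IsLocalRing

namespace Fermat.Agent.L.Pivot.Geom.H81

open CongruenceSubgroup Matrix.SpecialLinearGroup ModularForm Finset
open scoped MatrixGroups
open Fermat.Agent.NEB.EIG.H39 Fermat.Agent.S41 Fermat.Agent.Betti ModularCurve.Period

section EigComp

variable {c : ℕ} {L : Type} [Field L] {V : Type} [AddCommGroup V] [Module L V]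
  [NeZero c] [CharZero L] [HasEnoughRootsOfUnity L (Monoid.exponent (ZMod c)ˣ)]

/-- An operator commuting with the diamond operators commutes with the projectors. -/
theorem eigComp_comm (dia : (ZMod c)ˣ →* Module.End L V) (ψ : MulChar (ZMod c) L)
    (X : Module.End L V) (hX : ∀ d, Commute X (dia d)) (v : V) :
    X (eigComp dia ψ v) = eigComp dia ψ (X v) := by
  unfold eigComp
  rw [map_smul, map_sum]
  congr 1
  refine Finset.sum_congr rfl fun d _ => ?_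
  rw [map_smul]
  congr 1
  have := congrArg (fun F : Module.End L V => F v) (hX d).eq
  simpa only [Module.End.mul_apply] using this

theorem eigComp_smul (dia : (ZMod c)ˣ →* Module.End L V) (ψ : MulChar (ZMod c) L)
    (a : L) (v : V) : eigComp dia ψ (a • v) = a • eigComp dia ψ v := by
  have h := eigComp_comm dia ψ (a • (1 : Module.End L V))
    (fun d => (Commute.one_left (dia d)).smul_left a) v
  rw [LinearMap.smul_apply, Module.End.one_apply, LinearMap.smul_apply,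
    Module.End.one_apply] at h
  exact h.symm

end EigComp

set_option maxHeartbeats 1000000 in
/-- **The Betti side of PVG-NEW-ASM.** -/
theorem false_of_eigen_new
    {𝒪 : Type} [CommRing 𝒪] [IsDomain 𝒪] [IsDiscreteValuationRing 𝒪]
    [IsAdicComplete (maximalIdeal 𝒪) 𝒪]
    (p : ℕ) (hp : p.Prime) (hp𝒪 : (p : 𝒪) ∈ maximalIdeal 𝒪) (hp0 : (p : 𝒪) ≠ 0)
    {L : Type} [Field L] [CharZero L] [IsAlgClosed L] [Algebra 𝒪 L]
    (hL : Function.Injective (algebraMap 𝒪 L))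
    {V : Type} [AddCommGroup V] [Module L V]
    (N : ℕ) (hN : N ≠ 0) (qs : List ℕ) (hnd : qs.Nodup)
    (hpr : ∀ q ∈ qs, q.Prime) (hqN : ∀ q ∈ qs, ¬ q ∣ N) (S : Finset ℕ)
    (μ : V →ₗ[L] (Additive (Gam1 (N * qs.prod) qs.prod) →+ L)) (hμ : Function.Injective μ)
    (hμpar : ∀ v, IsParabolicHom (Gam1 (N * qs.prod) qs.prod) (μ v))
    (TV : ℕ → Module.End L V)
    (hTV : ∀ (ℓ : ℕ) (hℓ : ℓ.Prime) (hℓM : ¬ ℓ ∣ N * qs.prod) (v : V),
      μ (TV ℓ v) = TD (N * qs.prod) qs.prod (dvd_mul_left _ _) hℓ hℓM (μ v))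
    (dia : (ZMod qs.prod)ˣ →* Module.End L V)
    (hdia : ∀ (g : SL(2, ℤ)) (hg : ((N * qs.prod : ℕ) : ℤ) ∣ g 1 0) (d : (ZMod qs.prod)ˣ),
      (d : ZMod qs.prod) = ((g 0 0 : ℤ) : ZMod qs.prod) →
      ∀ v, μ (dia d v) = Dop (dvd_mul_left _ _) g hg (μ v))
    (hcommV : ∀ ℓ d, Commute (TV ℓ) (dia d))
    (j : ℕ) (hdn : ∀ d, dia d ^ (2 * j + 1) = 1)
    (q : ℕ) (hq : q ∈ qs) (hqp : q ≠ p)
    [NeZero (N * qs.prod * qs.prod / q)] [NeZero q]
    (hN2 : H50.Stmt_NewJ0 (N * qs.prod * qs.prod / q) q p)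
    (δ : (ZMod qs.prod)ˣ)
    (hδ : ∀ q' ∈ qs, q' ≠ q → ∀ hd : q' ∣ qs.prod, ZMod.unitsMap hd δ = 1)
    (a : ℕ → L) (w : V) (hw0 : w ≠ 0)
    (hwδ : w ∈ LinearMap.range (dia δ - (1 : Module.End L V)))
    (hwT : ∀ ℓ : ℕ, ℓ.Prime → ¬ ℓ ∣ N * qs.prod * qs.prod → ℓ ∉ S →
      tOp TV dia j ℓ w = a ℓ • w)
    (χlow : CuspForm.heckeAlgebra (N * qs.prod * qs.prod / q) 2 (↑S : Set ℕ) →+* L)
    (hχlow : ∀ (ℓ : ℕ) (hℓ : ℓ.Prime) (hℓN : ¬ ℓ ∣ N * qs.prod * qs.prod / q)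
      (hℓS : ℓ ∉ (↑S : Set ℕ)), ¬ ℓ ∣ N * qs.prod * qs.prod →
      χlow (CuspForm.heckeAlgebra.T hℓ hℓN hℓS) = a ℓ) : False := by
  classical
  haveI : NeZero qs.prod := ⟨prod_primes_ne_zero hpr⟩
  haveI := hasEnough_of_algClosed L qs.prod
  obtain ⟨hlev, hqM, hq2M⟩ := level_div_facts N qs hnd hpr hqN hq
  -- a nonzero component of `w`
  obtain ⟨ψ', hψ'⟩ : ∃ ψ' : DirichletCharacter L qs.prod, eigComp dia ψ' w ≠ 0 := by
    by_contra h
    push Not at h
    apply hw0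
    rw [← sum_eigComp dia w]
    exact Finset.sum_eq_zero (fun ψ _ => h ψ)
  have hw'mem : eigComp dia ψ' w ∈ eigSp dia ψ' := eigComp_mem dia ψ' w
  have hdd : ∀ d d', Commute (dia d) (dia d') := fun d d' => (Commute.all d d').map dia
  have htd : ∀ ℓ d, Commute (tOp TV dia j ℓ) (dia d) := fun ℓ d =>
    (hcommV ℓ d).mul_left ((hdd _ d).pow_left j)
  have hw'T : ∀ ℓ : ℕ, ℓ.Prime → ¬ ℓ ∣ N * qs.prod * qs.prod → ℓ ∉ S →
      tOp TV dia j ℓ (eigComp dia ψ' w) = a ℓ • eigComp dia ψ' w := by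
    intro ℓ h1 h2 h3
    rw [eigComp_comm dia ψ' _ (htd ℓ) w, hwT ℓ h1 h2 h3, eigComp_smul]
  -- `ψ'` is non-trivial at `δ`
  have hψδ : ψ' ((δ : (ZMod qs.prod)ˣ) : ZMod qs.prod) ≠ 1 := by
    intro h1
    apply hψ'
    obtain ⟨u, hu⟩ := hwδ
    have h2 := eigComp_comm dia ψ' (dia δ - (1 : Module.End L V))
      (fun d => (hdd δ d).sub_left (Commute.one_left _)) u
    rw [hu] at h2
    rw [← h2, LinearMap.sub_apply, Module.End.one_apply, eigComp_mem dia ψ' u δ, h1, one_smul,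
      sub_self]
  have hψq : ∃ a : ℤ, IsUnit ((a : ℤ) : ZMod qs.prod) ∧
      (∀ q' ∈ qs, q' ≠ q → ((a : ℤ) : ZMod q') = 1) ∧ ψ' ((a : ℤ) : ZMod qs.prod) ≠ 1 := by
    have e1 : ((((δ : ZMod qs.prod).val : ℕ) : ℤ) : ZMod qs.prod) = (δ : ZMod qs.prod) := by
      rw [Int.cast_natCast, ZMod.natCast_zmod_val]
    refine ⟨(((δ : ZMod qs.prod).val : ℕ) : ℤ), ?_, ?_, ?_⟩
    · rw [e1]
      exact δ.isUnit
    · intro q' hq' hne
      have hd : q' ∣ qs.prod := List.dvd_prod hq'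
      have h1 := congrArg (fun u : (ZMod q')ˣ => (u : ZMod q')) (hδ q' hq' hne hd)
      simp only [ZMod.unitsMap_def, Units.coe_map, Units.val_one, MonoidHom.coe_coe,
        ZMod.castHom_apply] at h1
      rw [Int.cast_natCast, ZMod.natCast_val]
      exact h1
    · rw [e1]
      exact hψδ
  -- the `q`-new intertwiner
  obtain ⟨Θ, hΘpar, hΘinj, hΘT, hΘnew⟩ := H4.exists_Theta_new N hN qs hnd hpr hqN μ hμ hμpar
    TV hTV dia hdia j hdn ψ' q hq hψq (N * qs.prod * qs.prod / q) hlev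
  -- the class at the lower level
  obtain ⟨Φ', hΦ'0, hΦ'par, hΦ'T, -⟩ :=
    Fermat.Agent.Betti.stmt_eigen (N * qs.prod * qs.prod / q) (↑S : Set ℕ) L χlow
  refine hN2 (hpr q hq) hqM hq2M hp hqp S 𝒪 hp𝒪 hp0 L hL a (Θ (eigComp dia ψ' w)) ?_
    (hΘpar _ hw'mem) ?_ (hΘnew _ hw'mem).1 (hΘnew _ hw'mem).2 Φ' hΦ'0 hΦ'par ?_
  · intro h
    exact hψ' (hΘinj _ hw'mem h)
  · intro ℓ hℓ hℓN hℓS _
    rw [← hΘT ℓ hℓ hℓN _ hw'mem, hw'T ℓ hℓ (by rw [← hlev]; exact hℓN) hℓS, map_smul]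
  · intro ℓ hℓ hℓN hℓN' hℓS _
    have hℓS' : ℓ ∉ (↑S : Set ℕ) := fun h => hℓS (Finset.mem_coe.mp h)
    rw [hΦ'T ℓ hℓ hℓN hℓS', hχlow ℓ hℓ hℓN hℓS' (by rw [← hlev]; exact hℓN')]

end Fermat.Agent.L.Pivot.Geom.H81

end
-- ==== END Fermat.Agent.L.Pivot.Geom.H81_NewAsmBetti

-- ==== BEGIN Fermat.Agent.L.Pivot.Geom.H81_NewAsmCore
section

/-!
# PIVOT, PV-GEOM, leaf PVG-NEW-ASM (helper81), part 3: the algebraic core

`exists_eigen_new`: the ANNIHILATOR argument.  `V` a finite-dimensional `L`-vector space containing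
(through `gn`) a lattice `T₀` (in the application the Tate module of the divisible part of
`J_H[p^∞]`); `W` an `𝒪`-module (in the application `W = thetaPart η θ`).  A commutative ring `𝕋⁺`
acts on `T₀` (`ρT`) and on `W` (`ρW`), and every element which kills `T₀` kills `W` (`hker`).
The Hecke algebra `𝕋(N')` acts on `V` (`etaV`) and on `W` (`etaW`), the generators `T_ℓ` through
`z ℓ : 𝕋⁺`; the pivot diamond operators `cV i`, `cW i` through `zc i : 𝕋⁺`.  If `χ` kills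
the annihilator of `Tate_ϖ W / typeSub c ψ` (`ψ i ≠ 1`), then there are a character
`χ'' : 𝕋(N') → L` with `ker χ'' = ker χ` and an eigenvector `0 ≠ w ∈ (cV i₀ - 1) V` of `etaV`
with eigenvalues `χ''`.
-/

set_option autoImplicit false

open IsLocalRing TensorProduct

namespace Fermat.Agent.L.Pivot.Geom.H81

open Fermat.Agent.NEB.EIG.H39 Fermat.Agent.S59.Lim Fermat.Agent.L.Pivot

set_option maxHeartbeats 1000000 in
/-- **The annihilator argument.** -/
theorem exists_eigen_new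
    {𝒪 : Type} [CommRing 𝒪] [IsDomain 𝒪] [IsDiscreteValuationRing 𝒪]
    [IsAdicComplete (maximalIdeal 𝒪) 𝒪] [CharZero 𝒪]
    (ϖ : 𝒪) (hϖ : Irreducible ϖ) (p : ℕ) (hp : 0 < p)
    {L : Type} [Field L] [IsAlgClosed L] [Algebra 𝒪 L]
    (hL : Function.Injective (algebraMap 𝒪 L))
    {V : Type} [AddCommGroup V] [Module L V] [FiniteDimensional L V]
    (N' : ℕ) [NeZero N'] (S : Finset ℕ)
    (hS : ∀ q : ℕ, q.Prime → q ∣ N' → q ∈ (↑S : Set ℕ))
    {T₀ : Type} [AddCommGroup T₀]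
    (gn : T₀ →ₗ[ℤ] V) (hgn : Function.Injective gn)
    {𝕋 : Type} [CommRing 𝕋] (ρT : 𝕋 →+* Module.End ℤ T₀)
    {W : Type} [AddCommGroup W] [Module 𝒪 W] (hW : IsDiv ϖ W)
    (ρW : 𝕋 →+* Module.End 𝒪 W) (hker : ∀ s, ρT s = 0 → ρW s = 0)
    (z : ℕ → 𝕋) {k : ℕ} (zc : Fin k → 𝕋)
    (etaV : CuspForm.heckeAlgebra N' 2 (↑S : Set ℕ) →+* Module.End L V)
    (hetaV : ∀ (ℓ : ℕ) (hℓ : ℓ.Prime) (hℓN : ¬ ℓ ∣ N') (hℓS : ℓ ∉ (↑S : Set ℕ)) (ξ : T₀),
      etaV (CuspForm.heckeAlgebra.T hℓ hℓN hℓS) (gn ξ) = gn (ρT (z ℓ) ξ))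
    (cV : Fin k → Module.End L V)
    (hcV : ∀ i ξ, cV i (gn ξ) = gn (ρT (zc i) ξ))
    (hcVeta : ∀ i t, Commute (etaV t) (cV i))
    (etaW : CuspForm.heckeAlgebra N' 2 (↑S : Set ℕ) →+* Module.End 𝒪 W)
    (hetaW : ∀ (ℓ : ℕ) (hℓ : ℓ.Prime) (hℓN : ¬ ℓ ∣ N') (hℓS : ℓ ∉ (↑S : Set ℕ)),
      etaW (CuspForm.heckeAlgebra.T hℓ hℓN hℓS) = ρW (z ℓ))
    (cW : Fin k → Module.End 𝒪 W)
    (hcW : ∀ i, cW i = ρW (zc i))
    (eP : Fin k → ℕ) (hcWpow : ∀ i, cW i ^ (p ^ eP i) = 1)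
    (ψ : Fin k → 𝒪) (hψ : ∀ i, ψ i ^ (p ^ eP i) = 1 ∧ ψ i ≠ 1)
    (D : Type) [CommRing D] [IsDomain D] [CharZero D]
    (χ : CuspForm.heckeAlgebra N' 2 (↑S : Set ℕ) →+* D)
    (hχ : ∀ t, (∀ v : H2.tate ϖ W, H2.mapEnd ϖ W (etaW t) v ∈
          typeSub (fun i => H2.mapEnd ϖ W (cW i)) ψ) → χ t = 0)
    (i₀ : Fin k) :
    ∃ (χ'' : CuspForm.heckeAlgebra N' 2 (↑S : Set ℕ) →+* L) (w : V),
      RingHom.ker χ'' = RingHom.ker χ ∧ w ≠ 0 ∧
      w ∈ LinearMap.range (cV i₀ - (1 : Module.End L V)) ∧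
      ∀ t, etaV t w = χ'' t • w := by
  classical
  -- (1) the actions are compatible on the whole Hecke algebra
  have hall : ∀ t : CuspForm.heckeAlgebra N' 2 (↑S : Set ℕ), ∃ s : 𝕋,
      etaW t = ρW s ∧ ∀ ξ, etaV t (gn ξ) = gn (ρT s ξ) := by
    refine hecke_induction hS
      (fun ℓ hℓ hℓN hℓS => ⟨z ℓ, hetaW ℓ hℓ hℓN hℓS, hetaV ℓ hℓ hℓN hℓS⟩)
      (fun n => ⟨(n : 𝕋), ?_, fun ξ => ?_⟩) (fun x y hx hy => ?_) (fun x y hx hy => ?_)
    · rw [map_intCast, map_intCast]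
    · rw [map_intCast, map_intCast, Module.End.intCast_apply, Module.End.intCast_apply,
        map_zsmul]
    · obtain ⟨s, hs1, hs2⟩ := hx
      obtain ⟨s', hs1', hs2'⟩ := hy
      refine ⟨s + s', ?_, fun ξ => ?_⟩
      · rw [map_add, map_add, hs1, hs1']
      · rw [map_add, map_add, LinearMap.add_apply, LinearMap.add_apply, map_add, hs2, hs2']
    · obtain ⟨s, hs1, hs2⟩ := hx
      obtain ⟨s', hs1', hs2'⟩ := hy
      refine ⟨s * s', ?_, fun ξ => ?_⟩
      · rw [map_mul, map_mul, hs1, hs1']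
      · rw [map_mul, map_mul, Module.End.mul_apply, Module.End.mul_apply, hs2', hs2]
  -- (2) LIN on the Tate module of `W`
  have hfg : (Submodule.torsionBy 𝒪 W ϖ).FG := by
    haveI := hW.fin
    haveI : Module.Finite 𝒪 (Submodule.torsionBy 𝒪 W ϖ) := Module.Finite.of_finite
    exact Module.Finite.iff_fg.mp inferInstance
  haveI : Module.Finite 𝒪 (H2.tate ϖ W) := H2.finite_tate_dvr hϖ hW.div hfg
  haveI : Module.Free 𝒪 (H2.tate ϖ W) := H2.free_tate hϖ hW.div hfg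
  haveI : Module.Finite ℤ (CuspForm.heckeAlgebra N' 2 (↑S : Set ℕ)) :=
    Fermat.Agent.S22.result N' 2 (↑S : Set ℕ)
  let ηF : CuspForm.heckeAlgebra N' 2 (↑S : Set ℕ) →+* Module.End 𝒪 (H2.tate ϖ W) :=
    ((H2.mapEnd ϖ W : Module.End 𝒪 W →ₐ[𝒪] _) : Module.End 𝒪 W →+* _).comp etaW
  have hcF : ∀ i, H2.mapEnd ϖ W (cW i) ^ (p ^ eP i) = 1 := fun i => by
    rw [← map_pow, hcWpow i, map_one]
  have hccF : ∀ i i', Commute (H2.mapEnd ϖ W (cW i)) (H2.mapEnd ϖ W (cW i')) := fun i i' => by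
    rw [hcW i, hcW i']
    exact ((Commute.all (zc i) (zc i')).map ρW).map (H2.mapEnd ϖ W)
  have hηcF : ∀ t i, Commute (ηF t) (H2.mapEnd ϖ W (cW i)) := fun t i => by
    obtain ⟨s, hs1, -⟩ := hall t
    show Commute (H2.mapEnd ϖ W (etaW t)) (H2.mapEnd ϖ W (cW i))
    rw [hs1, hcW i]
    exact ((Commute.all s (zc i)).map ρW).map (H2.mapEnd ϖ W)
  have hχF : ∀ t, (∀ v : ↥(H2.tate ϖ W), ηF t v ∈
      typeSub (fun i => H2.mapEnd ϖ W (cW i)) ψ) → χ t = 0 := hχ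
  obtain ⟨χ', hker', v, hv0, hvη, hvc⟩ :=
    lin_typeSub_nosat (𝒪 := 𝒪) (F := ↥(H2.tate ϖ W)) (L := L) hL
      (fun i => H2.mapEnd ϖ W (cW i))
      (fun i => p ^ eP i) (fun i => pow_pos hp _) hcF hccF
      ψ (fun i => (hψ i).1) ηF hηcF χ hχF
  -- (3) the subspace `(cV i₀ - 1) V`
  have hstab : ∀ t, ∀ x ∈ LinearMap.range (cV i₀ - (1 : Module.End L V)),
      etaV t x ∈ LinearMap.range (cV i₀ - (1 : Module.End L V)) := by
    rintro t _ ⟨y, rfl⟩
    refine ⟨etaV t y, ?_⟩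
    have h1 : etaV t (cV i₀ y) = cV i₀ (etaV t y) := by
      have := congrArg (fun f : Module.End L V => f y) (hcVeta i₀ t).eq
      simpa only [Module.End.mul_apply] using this
    rw [LinearMap.sub_apply, LinearMap.sub_apply, Module.End.one_apply, Module.End.one_apply,
      map_sub, h1]
  let ρ₀ : CuspForm.heckeAlgebra N' 2 (↑S : Set ℕ) →+*
      Module.End L ↥(LinearMap.range (cV i₀ - (1 : Module.End L V))) :=
    H3.restrictRingHom etaV _ hstab
  have hρ₀ : ∀ t (x : ↥(LinearMap.range (cV i₀ - (1 : Module.End L V)))),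
      ((ρ₀ t x : ↥(LinearMap.range (cV i₀ - (1 : Module.End L V)))) : V) = etaV t (x : V) :=
    fun t x => rfl
  have hker : RingHom.ker ρ₀ ≤ RingHom.ker χ := by
    intro t ht
    rw [RingHom.mem_ker] at ht
    rw [← hker', RingHom.mem_ker]
    obtain ⟨s, hs1, hs2⟩ := hall t
    have h1 : ∀ ξ, gn (ρT (s * (zc i₀ - 1)) ξ) = 0 := by
      intro ξ
      have h2 := hρ₀ t ⟨(cV i₀ - (1 : Module.End L V)) (gn ξ), ⟨_, rfl⟩⟩
      rw [ht] at h2
      simp only [LinearMap.zero_apply, Submodule.coe_zero] at h2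
      rw [LinearMap.sub_apply, Module.End.one_apply, hcV i₀ ξ, ← map_sub, hs2] at h2
      rw [map_mul, Module.End.mul_apply, map_sub, map_one,
        LinearMap.sub_apply, Module.End.one_apply]
      exact h2.symm
    have h2 : ρT (s * (zc i₀ - 1)) = 0 := by
      refine LinearMap.ext fun ξ => ?_
      apply hgn
      rw [h1 ξ, LinearMap.zero_apply, map_zero]
    have h3 : ∀ x : W, etaW t (cW i₀ x - x) = 0 := by
      intro x
      have e1 : ρW (s * (zc i₀ - 1)) x = etaW t (cW i₀ x - x) := by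
        rw [map_mul, Module.End.mul_apply, map_sub, map_one, LinearMap.sub_apply,
          Module.End.one_apply, ← hs1, ← hcW i₀]
      rw [← e1, hker _ h2, LinearMap.zero_apply]
    have h4 : ∀ y : H2.tate ϖ W, ηF t (H2.mapEnd ϖ W (cW i₀) y - y) = 0 := by
      intro y
      apply H2.tate_ext
      intro m
      show H2.ev ϖ W m (H2.mapEnd ϖ W (etaW t) (H2.mapEnd ϖ W (cW i₀) y - y)) = _
      rw [H2.ev_mapEnd, map_sub, H2.ev_mapEnd, h3, map_zero]
    have h5 : (ηF t).baseChange L (((H2.mapEnd ϖ W (cW i₀)).baseChange L) v - v) = 0 := by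
      have h6 : ∀ u : L ⊗[𝒪] ↥(H2.tate ϖ W),
          (ηF t).baseChange L (((H2.mapEnd ϖ W (cW i₀)).baseChange L) u - u) = 0 := by
        intro u
        induction u using TensorProduct.induction_on with
        | zero => simp
        | tmul l y =>
          rw [LinearMap.baseChange_tmul, ← TensorProduct.tmul_sub, LinearMap.baseChange_tmul,
            h4, TensorProduct.tmul_zero]
        | add u u' hu hu' =>
          rw [map_add, add_sub_add_comm, map_add, hu, hu', add_zero]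
      exact h6 v
    rw [hvc i₀, map_sub, map_smul, hvη t] at h5
    have h5a : (algebraMap 𝒪 L (ψ i₀) * χ' t) • v = χ' t • v := by
      rw [mul_smul]
      exact sub_eq_zero.mp h5
    have h5b : algebraMap 𝒪 L (ψ i₀) * χ' t = χ' t := smul_left_injective L hv0 h5a
    have h6 : (algebraMap 𝒪 L (ψ i₀) - 1) * χ' t = 0 := by
      rw [sub_mul, one_mul, h5b, sub_self]
    rcases mul_eq_zero.mp h6 with h7 | h7
    · exfalso
      apply (hψ i₀).2
      apply hL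
      rw [map_one]
      exact sub_eq_zero.mp h7
    · exact h7
  -- (4) the eigenvector
  have : (RingHom.ker χ).IsPrime := RingHom.ker_isPrime χ
  have hmin : RingHom.ker χ ∈ (RingHom.ker ρ₀).minimalPrimes := by
    refine H3.mem_minimalPrimes_of_integral _ _ hker ?_
    intro m hm
    rw [RingHom.mem_ker, map_intCast] at hm
    exact_mod_cast hm
  have hfinV : FiniteDimensional L ↥(LinearMap.range (cV i₀ - (1 : Module.End L V))) :=
    FiniteDimensional.finiteDimensional_submodule _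
  obtain ⟨χ'', hχ'', w, hw0, hw⟩ := H3.exists_eigen_of_minimalPrime ρ₀ (RingHom.ker χ) hmin
  refine ⟨χ'', (w : V), hχ'', ?_, w.2, fun t => ?_⟩
  · intro h
    exact hw0 (Subtype.ext h)
  · rw [← hρ₀, hw t]
    rfl

end Fermat.Agent.L.Pivot.Geom.H81

end
-- ==== END Fermat.Agent.L.Pivot.Geom.H81_NewAsmCore

-- ==== BEGIN Fermat.Agent.L.Pivot.H50_StIFinal
section

/-!
# PIVOT, PV-OLD (helper50): `Stmt_TatePieceStI` and `Stmt_PVOld`, unconditionally

* `isModDatum_theS` : helper21's modular datum `theS` is a modular datum (helper93's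
  `BADP.IsModDatum`) at every tame `(M, q)` (also `q = 2, 3`);
* `stmt_K0Tame` : ARITH-0 for `theS` (helper11's `BADP.H11.isK0Lift_mod`);
* `stmt_TatePieceStI : L.Pivot.Stmt_TatePieceStI`;
* `stmt_PVOld : L.Pivot.Stmt_PVOld`.
-/

set_option autoImplicit false
set_option linter.style.haveILetI false
set_option linter.unusedSectionVars false
set_option synthInstance.maxHeartbeats 400000
set_option maxHeartbeats 1000000

noncomputable section

open HahnSeries IntermediateField AlgebraicCurve ModularCurve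
open Fermat.Agent.S28.H73 Fermat.Agent.RED.H73 Fermat.Agent.RED Fermat.Agent.S24
open Fermat.Agent.BAD.H88 Fermat.Agent.BAD

namespace Fermat.Agent.L.Pivot.H50

open Fermat.Agent.BADP

/-- helper21's modular datum is a modular datum, at every tame `(M, q)`. -/
theorem isModDatum_theS (A : ValuationSubring Kbar) (q M : ℕ) (a b : ℤ)
    (hab : a * q + b * M = 1) (hq : q.Prime) [NeZero M] [NeZero (M * q)] [NeZero q]
    (hA : A.LiesOverPrime q) (hqM : ¬ q ∣ M) (ht : H91.TameAt M q) :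
    IsModDatum A q M a b hab hq (H21.theS A q M a b hab hq hA hqM ht) where
  mem₁ := fun _ => Iff.rfl
  red₁ := fun _ _ => rfl
  mem₂ := fun _ => Iff.rfl
  red₂ := fun _ _ _ => rfl
  ff := H21.ffL q M
  ff₁ := H21.ff1 A q M a b hab hq hA hqM ht
  genus := H21.modS_genus A q M a b hab hq hA hqM ht (H21.totModAt A q M a b hab hq hA hqM ht)
  inertial := fun _ hσ =>
    H21.modS_inertial A q M a b hab hq hA hqM ht (H21.totModAt A q M a b hab hq hA hqM ht) hσ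

/-- **ARITH-0 for the modular datum at every tame `(M, q)`** (helper11). -/
theorem stmt_K0Tame (M q : ℕ) [NeZero M] [NeZero q] : Stmt_K0Tame M q := by
  intro A a b hab hq _ hA hqM ht
  exact Fermat.Agent.BADP.H11.isK0Lift_mod hA (isModDatum_theS A q M a b hab hq hA hqM ht) _
    (fun τ hτ => hτ)

/-- **(StI)**: the Tate piece with inertia invariants, unconditionally. -/
theorem stmt_TatePieceStI : Fermat.Agent.L.Pivot.Stmt_TatePieceStI :=
  tatePieceStI_of_k0 fun M q _ _ _ _ _ => stmt_K0Tame M q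

/-- **PV-OLD**, unconditionally. -/
theorem stmt_PVOld : Fermat.Agent.L.Pivot.Stmt_PVOld :=
  stmt_PVOld_of stmt_TatePieceStI

end Fermat.Agent.L.Pivot.H50

end
end
-- ==== END Fermat.Agent.L.Pivot.H50_StIFinal

-- ==== BEGIN Fermat.Agent.L.Pivot.H76_UnipAbs2
section

set_option autoImplicit false
set_option linter.style.haveILetI false

namespace Fermat.Agent.L.Pivot.H76

open IsLocalRing Matrix Polynomial Fermat.Agent.S59.Asm Fermat.Agent.S59.TWGal

/-- triviality modulo `𝔪` is transported along a local homomorphism. -/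
theorem sub_mem_of_transport {RQ : Type} [CommRing RQ] [IsLocalRing RQ]
    {T : Type} [CommRing T] [IsLocalRing T]
    (ρQ : GaloisRepAdic RQ) (ρ : GaloisRepAdic T)
    (bQ : Module.Basis (Fin 2) RQ ρQ.V) (b : Module.Basis (Fin 2) T ρ.V)
    (f : RQ →+* T) (hf : IsLocalHom f)
    (hb : ∀ (s : GalQ) (i j : Fin 2), b.repr (ρ.ρ s (b i)) j = f (bQ.repr (ρQ.ρ s (bQ i)) j))
    (σ : GalQ) (hσ : ρQ.residual.ρ σ = 1) (v : ρ.V) :
    ρ.ρ σ v - v ∈ maximalIdeal T • (⊤ : Submodule T ρ.V) := by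
  refine H59.sub_mem_smul_top_of_mat b (maximalIdeal T) (ρ.ρ σ) (fun i j => ?_) v
  have h1 : (mat bQ (ρQ.ρ σ) - 1) i j ∈ maximalIdeal RQ :=
    mat_sub_one_mem bQ (maximalIdeal RQ) (ρQ.ρ σ)
      (fun w => H59.sub_mem_of_baseChange_eq_one bQ (ρQ.ρ σ) hσ w) i j
  have h2 : (mat b (ρ.ρ σ) - 1) i j = f ((mat bQ (ρQ.ρ σ) - 1) i j) := by
    rw [Matrix.sub_apply, Matrix.sub_apply, map_sub, mat_apply, mat_apply, hb]
    by_cases hij : i = j
    · rw [hij, Matrix.one_apply_eq, Matrix.one_apply_eq, map_one]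
    · rw [Matrix.one_apply_ne hij, Matrix.one_apply_ne hij, map_zero]
  rw [h2]
  exact map_nonunit f _ h1

/-- **PV-UNIP, ring form** (residual hypothesis on `ρQ`). -/
theorem pvUnip_ringQ {𝒪 : Type} [CommRing 𝒪] (p : ℕ) (hp : p.Prime) {k : ℕ} (g : ℕ)
    (Pv : PivotPrimes k) (hqp : ∀ j, Pv.q j ≠ p)
    (RQ : Type) [CommRing RQ] [IsLocalRing RQ] [Algebra 𝒪 RQ] (ρQ : GaloisRepAdic RQ)
    (hresQ : ∀ j, ∀ σ ∈ (Pv.P j).inertiaSubgroupIn ℚ, ρQ.residual.ρ σ = 1)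
    (bQ : Module.Basis (Fin 2) RQ ρQ.V) (γ : PRing 𝒪 k g →ₐ[𝒪] RQ)
    (hγ : IsCoordHom γ (fun j => LinearMap.toMatrix bQ bQ (ρQ.ρ (Pv.τ j)))
      (fun j => LinearMap.toMatrix bQ bQ (ρQ.ρ (Pv.frob j))))
    (T : Type) [CommRing T] [IsLocalRing T] [IsNoetherianRing T] [IsReduced T] [Algebra 𝒪 T]
    (ρ : GaloisRepAdic T) (hdet : ρ.DetIsCyclotomic p)
    (hU : ∀ j, ρ.IsUnipotentOnInertiaAt (Pv.q j))
    (f : RQ →ₐ[𝒪] T) (hf : IsLocalHom (f : RQ →+* T))
    (he : (ρQ.baseChangeAlong (f : RQ →+* T) hf).IsEquiv ρ) :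
    ∀ x ∈ idealUnip g (fun j => ((Pv.q j : ℕ) : 𝒪)), f (γ x) = 0 := by
  obtain ⟨b, hb⟩ := H77.stmt_TRANSPORT RQ T (f : RQ →+* T) hf ρQ ρ he bQ
  have hγ' := isCoordHom_transport ρQ ρ Pv.τ Pv.frob bQ b f hb γ hγ
  have key := unip_core p hp g Pv hqp T ρ hdet
    (fun j σ hσ v => sub_mem_of_transport ρQ ρ bQ b (f : RQ →+* T) hf hb σ (hresQ j σ hσ) v)
    hU b (f.comp γ) hγ'
  intro x hx
  have h1 := key hx
  rw [RingHom.mem_ker] at h1
  exact h1

/-- **PV-UNIP, module form (rel1)** (residual hypothesis on `ρQ`). -/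
theorem pvUnip_modQ {𝒪 : Type} [CommRing 𝒪] (p : ℕ) (hp : p.Prime) {k : ℕ} (g : ℕ)
    (Pv : PivotPrimes k) (hqp : ∀ j, Pv.q j ≠ p)
    (RQ : Type) [CommRing RQ] [IsLocalRing RQ] [Algebra 𝒪 RQ] (ρQ : GaloisRepAdic RQ)
    (hresQ : ∀ j, ∀ σ ∈ (Pv.P j).inertiaSubgroupIn ℚ, ρQ.residual.ρ σ = 1)
    (bQ : Module.Basis (Fin 2) RQ ρQ.V) (γ : PRing 𝒪 k g →ₐ[𝒪] RQ)
    (hγ : IsCoordHom γ (fun j => LinearMap.toMatrix bQ bQ (ρQ.ρ (Pv.τ j)))
      (fun j => LinearMap.toMatrix bQ bQ (ρQ.ρ (Pv.frob j))))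
    (T₁ : Type) [CommRing T₁] [IsLocalRing T₁] [IsNoetherianRing T₁] [IsReduced T₁]
    [Algebra 𝒪 T₁]
    (ρ₁ : GaloisRepAdic T₁) (hdet : ρ₁.DetIsCyclotomic p)
    (hU : ∀ j, ρ₁.IsUnipotentOnInertiaAt (Pv.q j))
    (T' : Type) [CommRing T'] [Algebra 𝒪 T'] (φQ : RQ →ₐ[𝒪] T') (res : T' →ₐ[𝒪] T₁)
    (hf : IsLocalHom ((res.comp φQ : RQ →ₐ[𝒪] T₁) : RQ →+* T₁))
    (he : (ρQ.baseChangeAlong ((res.comp φQ : RQ →ₐ[𝒪] T₁) : RQ →+* T₁) hf).IsEquiv ρ₁)
    (W : Type) [AddCommGroup W] [Module 𝒪 W] (W₁ : Type) [AddCommGroup W₁] [Module 𝒪 W₁]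
    (c : Fin k → Module.End 𝒪 W)
    (κ : W →ₗ[𝒪] W₁) (hker : LinearMap.ker κ = typeSub c (fun _ => (1 : 𝒪)))
    (ηW : T' →ₐ[𝒪] Module.End 𝒪 W) (ηW₁ : T₁ →ₐ[𝒪] Module.End 𝒪 W₁)
    (hκ : ∀ (t : T') (v : W), κ (ηW t v) = ηW₁ (res t) (κ v)) :
    ∀ x ∈ idealUnip g (fun j => ((Pv.q j : ℕ) : 𝒪)), ∀ v : W,
      ηW (φQ (γ x)) v ∈ typeSub c (fun _ => (1 : 𝒪)) := by
  intro x hx v
  have h1 := pvUnip_ringQ p hp g Pv hqp RQ ρQ hresQ bQ γ hγ T₁ ρ₁ hdet hU (res.comp φQ) hf he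
    x hx
  rw [← hker, LinearMap.mem_ker, hκ]
  have h2 : res (φQ (γ x)) = 0 := h1
  rw [h2, map_zero, LinearMap.zero_apply]

end Fermat.Agent.L.Pivot.H76

end
-- ==== END Fermat.Agent.L.Pivot.H76_UnipAbs2

-- ==== BEGIN Fermat.Agent.NEB.Geom.DefsC
section

/-!
# Item 72 (LG-NEB), package NEB-GEOM (helper84): the concrete `ℤ`-level objects

* `ptors p X`, `resP p f` : the `p`-power torsion subgroup and the restriction of a homomorphism.
* `AH M c H p = J_H[p^∞]` with its operators `Tz ℓ` (`T_ℓ^H`), `Uz q` (`U_q^H`),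
  `diaZ` (diamonds), `galZ` (Galois), and the twisted operators
  `TzTw j ℓ = T_ℓ^H ⟨ℓ⟩^j`, `galTw j σ = σ ⟨χ_c σ⟩^(j+1)`.
* `A0 M p = J₀(M)[p^∞]` with `Tz0`, `galZ0`, `upZ`, `downZ`.
* the Taylor–Wiles setting: `twC qv = ∏ q_j`, `twH p n qv` = the `p^n`-th powers in `(ℤ/c)ˣ`.

Definitions only; no `sorry`.
-/

set_option autoImplicit false
set_option linter.unusedSectionVars false
set_option linter.style.haveILetI false

noncomputable section

open ModularCurve AlgebraicCurve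

namespace Fermat.Agent.NEB.Geom

open Fermat.Agent.NEB Fermat.Agent.NEB.JH

/-! ## `p`-power torsion -/

/-- The `p`-power torsion subgroup. -/
def ptors (p : ℕ) (X : Type*) [AddCommGroup X] : AddSubgroup X where
  carrier := {x | IsPTors p x}
  zero_mem' := ⟨0, smul_zero _⟩
  add_mem' := by
    rintro x y ⟨k, hk⟩ ⟨k', hk'⟩
    refine ⟨k + k', ?_⟩
    have h1 : (p ^ (k + k') : ℕ) • x = 0 := by
      rw [pow_add, mul_comm, mul_smul, hk, smul_zero]
    have h2 : (p ^ (k + k') : ℕ) • y = 0 := by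
      rw [pow_add, mul_smul, hk', smul_zero]
    rw [smul_add, h1, h2, add_zero]
  neg_mem' := by
    rintro x ⟨k, hk⟩
    exact ⟨k, by rw [smul_neg, hk, neg_zero]⟩

theorem mem_ptors {p : ℕ} {X : Type*} [AddCommGroup X] {x : X} :
    x ∈ ptors p X ↔ IsPTors p x := Iff.rfl

theorem isPTors_map {p : ℕ} {X Y : Type*} [AddCommGroup X] [AddCommGroup Y] (f : X →+ Y)
    {x : X} (hx : IsPTors p x) : IsPTors p (f x) := by
  obtain ⟨k, hk⟩ := hx
  exact ⟨k, by rw [← map_nsmul, hk, map_zero]⟩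

/-- Restriction of a homomorphism to the `p`-power torsion, as a `ℤ`-linear map. -/
def resP (p : ℕ) {X Y : Type*} [AddCommGroup X] [AddCommGroup Y] (f : X →+ Y) :
    ↥(ptors p X) →ₗ[ℤ] ↥(ptors p Y) :=
  AddMonoidHom.toIntLinearMap
    ((f.comp (ptors p X).subtype).codRestrict (ptors p Y) (fun x => isPTors_map f x.2))

@[simp] theorem coe_resP (p : ℕ) {X Y : Type*} [AddCommGroup X] [AddCommGroup Y] (f : X →+ Y)
    (x : ↥(ptors p X)) : ((resP p f x : ↥(ptors p Y)) : Y) = f (x : X) := rfl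

theorem resP_comp (p : ℕ) {X Y Z : Type*} [AddCommGroup X] [AddCommGroup Y] [AddCommGroup Z]
    (g : Y →+ Z) (f : X →+ Y) : resP p (g.comp f) = (resP p g) ∘ₗ (resP p f) := by
  ext x; rfl

theorem resP_id (p : ℕ) {X : Type*} [AddCommGroup X] :
    resP p (AddMonoidHom.id X) = LinearMap.id := by
  ext x; rfl

theorem resP_add (p : ℕ) {X Y : Type*} [AddCommGroup X] [AddCommGroup Y] (f g : X →+ Y) :
    resP p (f + g) = resP p f + resP p g := by
  ext x; rfl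

theorem resP_sub (p : ℕ) {X Y : Type*} [AddCommGroup X] [AddCommGroup Y] (f g : X →+ Y) :
    resP p (f - g) = resP p f - resP p g := by
  ext x; rfl

theorem resP_mul (p : ℕ) {X : Type*} [AddCommGroup X] (f g : X →+ X) :
    resP p (f.comp g) = (resP p f : Module.End ℤ ↥(ptors p X)) * resP p g := by
  ext x; rfl

theorem isPTors_coe {p : ℕ} {X : Type*} [AddCommGroup X] (x : ↥(ptors p X)) :
    ∃ k : ℕ, p ^ k • x = 0 := by
  obtain ⟨k, hk⟩ := x.2
  exact ⟨k, Subtype.ext hk⟩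

/-! ## The operators on `J_H[p^∞]` -/

section JHop

variable (M c : ℕ) [NeZero M] (H : Subgroup (ZMod c)ˣ) (h2 : 2 ≤ c) (hc : c ∣ M) (p : ℕ)

/-- `J_H[p^∞]`. -/
abbrev AH : Type := ↥(ptors p (JH M c H))

/-- `J₀(M)[p^∞]`. -/
abbrev A0 : Type := ↥(ptors p (JZero M))

/-- `T_ℓ^H` on `J_H[p^∞]` (`ℓ ∤ M`; junk for `ℓ = 0`). -/
def Tz (ℓ : ℕ) : Module.End ℤ (AH M c H p) :=
  if h : ℓ = 0 then 0 else
    haveI : NeZero ℓ := ⟨h⟩
    resP p (TH (heckeData M c ℓ H h2 hc).hβ)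

/-- `U_q^H` on `J_H[p^∞]` (`q ∣ M`; junk for `q = 0`). -/
def Uz (q : ℕ) : Module.End ℤ (AH M c H p) :=
  if h : q = 0 then 0 else
    haveI : NeZero q := ⟨h⟩
    resP p (UH (heckeData M c q H h2 hc).hβ)

theorem Tz_apply (ℓ : ℕ) [NeZero ℓ] (x : AH M c H p) :
    ((Tz M c H h2 hc p ℓ x : AH M c H p) : JH M c H)
      = TH (heckeData M c ℓ H h2 hc).hβ (x : JH M c H) := by
  have h : ¬ ℓ = 0 := NeZero.ne ℓ
  simp only [Tz, dif_neg h]
  rfl

theorem Uz_apply (q : ℕ) [NeZero q] (x : AH M c H p) :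
    ((Uz M c H h2 hc p q x : AH M c H p) : JH M c H)
      = UH (heckeData M c q H h2 hc).hβ (x : JH M c H) := by
  have h : ¬ q = 0 := NeZero.ne q
  simp only [Uz, dif_neg h]
  rfl

/-- The diamond operators on `J_H[p^∞]`. -/
def diaZ : (ZMod c)ˣ →* Module.End ℤ (AH M c H p) where
  toFun u := resP p (diamond (diamondData M c H h2 hc) u)
  map_one' := by
    ext x
    show (diamondData M c H h2 hc).ρ 1 • (x : JH M c H) = (x : JH M c H)
    rw [map_one, one_smul]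
  map_mul' u v := by
    ext x
    show (diamondData M c H h2 hc).ρ (u * v) • (x : JH M c H)
      = (diamondData M c H h2 hc).ρ u • ((diamondData M c H h2 hc).ρ v • (x : JH M c H))
    rw [map_mul, mul_smul]

theorem diaZ_apply (u : (ZMod c)ˣ) (x : AH M c H p) :
    ((diaZ M c H h2 hc p u x : AH M c H p) : JH M c H)
      = (diamondData M c H h2 hc).ρ u • (x : JH M c H) := rfl

/-- The Galois action on `J_H[p^∞]`. -/
def galZ : _root_.Fermat.Agent.NEB.Geom.GalQ →* Module.End ℤ (AH M c H p) where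
  toFun σ := resP p (DistribSMul.toAddMonoidHom (JH M c H) σ)
  map_one' := by
    ext x
    show (1 : _root_.Fermat.Agent.NEB.Geom.GalQ) • (x : JH M c H) = (x : JH M c H)
    rw [one_smul]
  map_mul' σ τ := by
    ext x
    show (σ * τ) • (x : JH M c H) = σ • (τ • (x : JH M c H))
    rw [mul_smul]

theorem galZ_apply (σ : _root_.Fermat.Agent.NEB.Geom.GalQ) (x : AH M c H p) :
    ((galZ M c H p σ x : AH M c H p) : JH M c H) = σ • (x : JH M c H) := rfl

/-- The twisted Hecke operator `T'_ℓ = T_ℓ^H ⟨ℓ⟩^j`. -/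
def TzTw (j ℓ : ℕ) : Module.End ℤ (AH M c H p) :=
  Tz M c H h2 hc p ℓ * diaZ M c H h2 hc p (Fermat.Agent.NEB.EIG.H39.unitOf c ℓ) ^ j

/-- The twisted Galois action `gal'(σ) = σ ⟨χ_c σ⟩^(j+1)`, as a function (it is a monoid
homomorphism: `galTw_mul`). -/
def galTw [NeZero c] (j : ℕ) (σ : _root_.Fermat.Agent.NEB.Geom.GalQ) : Module.End ℤ (AH M c H p) :=
  galZ M c H p σ * diaZ M c H h2 hc p (Fermat.Agent.NEB.Geom.H6.chiC c σ) ^ (j + 1)

/-- `T_ℓ` on `J₀(M)[p^∞]` (`= U_ℓ` if `ℓ ∣ M`). -/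
def Tz0 (ℓ : ℕ) : Module.End ℤ (A0 M p) :=
  if h : ℓ = 0 then 0 else
    haveI : NeZero ℓ := ⟨h⟩
    resP p (T0 M ℓ)

theorem Tz0_apply (ℓ : ℕ) [NeZero ℓ] (x : A0 M p) :
    ((Tz0 M p ℓ x : A0 M p) : JZero M) = T0 M ℓ (x : JZero M) := by
  have h : ¬ ℓ = 0 := NeZero.ne ℓ
  simp only [Tz0, dif_neg h]
  rfl

/-- `U_q = β_* α^*` on `J₀(M)[p^∞]` (`q ∣ M`; the transpose of `Tz0`). -/
def Uz0 (q : ℕ) : Module.End ℤ (A0 M p) :=
  if h : q = 0 then 0 else
    haveI : NeZero q := ⟨h⟩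
    resP p (U0 M q)

theorem Uz0_apply (q : ℕ) [NeZero q] (x : A0 M p) :
    ((Uz0 M p q x : A0 M p) : JZero M) = U0 M q (x : JZero M) := by
  have h : ¬ q = 0 := NeZero.ne q
  simp only [Uz0, dif_neg h]
  rfl

/-- The Galois action on `J₀(M)[p^∞]`. -/
def galZ0 : _root_.Fermat.Agent.NEB.Geom.GalQ →* Module.End ℤ (A0 M p) where
  toFun σ := resP p (DistribSMul.toAddMonoidHom (JZero M) σ)
  map_one' := by
    ext x
    show (1 : _root_.Fermat.Agent.NEB.Geom.GalQ) • (x : JZero M) = (x : JZero M)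
    rw [one_smul]
  map_mul' σ τ := by
    ext x
    show (σ * τ) • (x : JZero M) = σ • (τ • (x : JZero M))
    rw [mul_smul]

/-- `π^* : J₀(M)[p^∞] → J_H[p^∞]`. -/
def upZ : A0 M p →ₗ[ℤ] AH M c H p := resP p (piUp M c H)

/-- `π_* : J_H[p^∞] → J₀(M)[p^∞]`. -/
def downZ : AH M c H p →ₗ[ℤ] A0 M p := resP p (piDown M c H)

end JHop

/-! ## The Taylor–Wiles setting -/

/-- `c = ∏ q_j`. -/
def twC {r : ℕ} (qv : Fin r → ℕ) : ℕ := ∏ j, qv j

/-- `H` = the `p^n`-th powers in `(ℤ/c)ˣ`. -/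
def twH (p n : ℕ) {r : ℕ} (qv : Fin r → ℕ) : Subgroup (ZMod (twC qv))ˣ :=
  (powMonoidHom (p ^ n) : (ZMod (twC qv))ˣ →* (ZMod (twC qv))ˣ).range

/-! ## The polynomial Hecke ring `𝕋⁺ = ℤ[x_ℓ, y_j, z_u]` -/

/-- The ring homomorphism from a polynomial ring to a (non-commutative) ring `E` given by a
commuting family. -/
def polyHom {ι : Type} {E : Type} [Ring E] (f : ι → E) (hf : ∀ i j, Commute (f i) (f j)) :
    MvPolynomial ι ℤ →+* E :=
  letI : CommRing ↥(Algebra.adjoin ℤ (Set.range f)) :=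
    { (inferInstance : Ring ↥(Algebra.adjoin ℤ (Set.range f))) with
      mul_comm := by
        haveI := Algebra.isMulCommutative_adjoin ℤ (s := Set.range f) (by
          rintro _ ⟨i, rfl⟩ _ ⟨j, rfl⟩
          exact (hf i j).eq)
        exact fun a b => mul_comm' a b }
  (Algebra.adjoin ℤ (Set.range f)).val.toRingHom.comp
    (MvPolynomial.aeval (R := ℤ) (S₁ := ↥(Algebra.adjoin ℤ (Set.range f)))
      (fun i => (⟨f i, Algebra.subset_adjoin ⟨i, rfl⟩⟩ :
        ↥(Algebra.adjoin ℤ (Set.range f))))).toRingHom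

theorem polyHom_X {ι : Type} {E : Type} [Ring E] (f : ι → E) (hf : ∀ i j, Commute (f i) (f j))
    (i : ι) : polyHom f hf (MvPolynomial.X i) = f i := by
  unfold polyHom
  simp

section TW

open Fermat.Agent.S59.Asm

variable (N : ℕ) (S : Finset ℕ) (p n : ℕ) {r : ℕ} (qv : Fin r → ℕ)

/-- The good primes at the Taylor–Wiles level. -/
def GoodTw (ℓ : ℕ) : Prop := ℓ.Prime ∧ ¬ ℓ ∣ twLevel N qv ∧ ℓ ∉ (↑(twSet S qv) : Set ℕ)

theorem GoodTw.not_dvd {N : ℕ} {S : Finset ℕ} {r : ℕ} {qv : Fin r → ℕ} {ℓ : ℕ}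
    (h : GoodTw N S qv ℓ) : ¬ ℓ ∣ N :=
  fun hd => h.2.1 (Dvd.dvd.mul_right hd _)

theorem GoodTw.not_mem {N : ℕ} {S : Finset ℕ} {r : ℕ} {qv : Fin r → ℕ} {ℓ : ℕ}
    (h : GoodTw N S qv ℓ) : ℓ ∉ (↑S : Set ℕ) := by
  intro hS
  apply h.2.2
  simp only [twSet, Finset.coe_union, Set.mem_union]
  exact Or.inl hS

/-- The index set of the generators of `𝕋⁺`: `T'_ℓ`, `U_{q_j}`, `⟨u⟩`. -/
abbrev IdxTw (r c : ℕ) : Type := ℕ ⊕ (Fin r ⊕ (ZMod c)ˣ)

/-- `𝕋⁺`. -/
abbrev PolyTw (r c : ℕ) : Type := MvPolynomial (IdxTw r c) ℤ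

/-- `j₀ = (p^n - 1)/2`: `⟨d⟩^{j₀} = ⟨d⟩^{-1/2}` on the `p`-group `Δ`. -/
def jTw (p n : ℕ) : ℕ := (p ^ n - 1) / 2

variable [NeZero (N * twC qv)] (h2 : 2 ≤ twC qv)

open Classical in
/-- The operators on `J_H[p^∞]`: `T'_ℓ` (good `ℓ`), `U_{q_j}`, `⟨u⟩`. -/
def opsTw : IdxTw r (twC qv) → Module.End ℤ (AH (N * twC qv) (twC qv) (twH p n qv) p)
  | Sum.inl ℓ => if GoodTw N S qv ℓ then
      TzTw (N * twC qv) (twC qv) (twH p n qv) h2 (dvd_mul_left _ _) p (jTw p n) ℓ else 0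
  | Sum.inr (Sum.inl j) => Uz (N * twC qv) (twC qv) (twH p n qv) h2 (dvd_mul_left _ _) p (qv j)
  | Sum.inr (Sum.inr u) => diaZ (N * twC qv) (twC qv) (twH p n qv) h2 (dvd_mul_left _ _) p u

open Classical in
/-- The operators on `J₀(N c)[p^∞]`: `T_ℓ` (good `ℓ`), `U_{q_j}`, `1`. -/
def opsTw0 : IdxTw r (twC qv) → Module.End ℤ (A0 (N * twC qv) p)
  | Sum.inl ℓ => if GoodTw N S qv ℓ then Tz0 (N * twC qv) p ℓ else 0
  | Sum.inr (Sum.inl j) => Uz0 (N * twC qv) p (qv j)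
  | Sum.inr (Sum.inr _) => 1

section Theta

variable {k : Type} [Field k] [NeZero N]

open Classical in
/-- The values of `θ⁺` on the generators. -/
def thetaVal (θ : CuspForm.heckeAlgebra N 2 (↑S : Set ℕ) →+* k) (α : Fin r → k) :
    IdxTw r (twC qv) → k
  | Sum.inl ℓ => if h : GoodTw N S qv ℓ then
      θ (CuspForm.heckeAlgebra.T h.1 h.not_dvd h.not_mem) else 0
  | Sum.inr (Sum.inl j) => α j
  | Sum.inr (Sum.inr _) => 1

/-- `θ⁺ : 𝕋⁺ → k`. -/
def thetaTw (θ : CuspForm.heckeAlgebra N 2 (↑S : Set ℕ) →+* k) (α : Fin r → k) :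
    PolyTw r (twC qv) →+* k :=
  MvPolynomial.eval₂Hom (Int.castRingHom k) (thetaVal N S qv θ α)

end Theta

end TW

end Fermat.Agent.NEB.Geom

end
end
-- ==== END Fermat.Agent.NEB.Geom.DefsC
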