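-- GENERATED (merged mirror, NOTES/tools/trim/merge3_helper67.py): 7 modules of the originals, bodies verbatim.
import Mathlib
import Fermat.Agent.Zm.S43_L09_000
import Fermat.Agent.Zm.S43_L01_001
import Fermat.Agent.Zm.S43_L03_002
import Fermat.Agent.Zm.S43_L09_001
import Fermat.Agent.Zm.S43_L06_002

-- ==== BEGIN Fermat.Agent.NEB.Geom.H12_WES
section

/-!
# Item 72 (LG-NEB), package NEB-GEOM, leaf W-ES (helper12): the fixed-point trick

`stmt_W_ES : Stmt_W_ES`.  An operator `E` of `A` with values in `K`, commuting with the Hecke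
operators, vanishes on the `θ`-part `W ⊆ 𝒪 ⊗ A` as soon as `t₀` (with `θ t₀ ≠ 0`) kills the
`Δ`-fixed part of `K`.

Proof: `Y = E_𝒪 (W) ⊆ W` is stable under the diamond operators (they lie in `η(𝕋)`).  If `Y ≠ 0`
then `Y[ϖ] ≠ 0` contains a nonzero `Δ`-fixed element `y₀` (`Δ` acts through commuting operators
of `p`-power order on a module killed by `p`: `exists_fixed_ne_zero`).  By flatness of `𝒪` over
`ℤ`, `y₀` comes from `𝒪 ⊗ K^Δ`, so `t₀ y₀ = 0`; but `t₀` is injective on `W`.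
-/

set_option autoImplicit false
set_option linter.style.haveILetI false
set_option linter.unusedSectionVars false
set_option linter.unusedVariables false

noncomputable section

open IsLocalRing TensorProduct Module Polynomial

namespace Fermat.Agent.NEB.Geom.H12

open Fermat.Agent.S59.Lim Fermat.Agent.S59.Lim.H2 Fermat.Agent.NEB.Geom

/-! ### Operators of `p`-power order on modules killed by `p` -/

/-- `(X - 1)^(p^n) = X^(p^n) - 1 + p g` in `ℤ[X]`. -/
theorem exists_sub_one_pow_eq (p n : ℕ) [hp : Fact p.Prime] :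
    ∃ g : Polynomial ℤ, (X - 1 : Polynomial ℤ) ^ (p ^ n) = X ^ (p ^ n) - 1 + C (p : ℤ) * g := by
  have hdvd : C (p : ℤ) ∣ (X - 1 : Polynomial ℤ) ^ (p ^ n) - (X ^ (p ^ n) - 1) := by
    rw [Polynomial.C_dvd_iff_dvd_coeff]
    intro i
    rw [← ZMod.intCast_zmod_eq_zero_iff_dvd]
    have h1 : ((X - 1 : Polynomial ℤ) ^ (p ^ n) - (X ^ (p ^ n) - 1)).map (Int.castRingHom (ZMod p))
        = 0 := by
      simp only [Polynomial.map_sub, Polynomial.map_pow, Polynomial.map_X, Polynomial.map_one]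
      rw [sub_pow_char_pow, one_pow, sub_self]
    have h2 := congrArg (fun q => Polynomial.coeff q i) h1
    simp only [Polynomial.coeff_map, Polynomial.coeff_zero] at h2
    exact h2
  obtain ⟨g, hg⟩ := hdvd
  exact ⟨g, by rw [← hg]; ring⟩

/-- an operator of order `p^n` is unipotent on the elements killed by `p`. -/
theorem sub_one_pow_apply_eq_zero {R M : Type*} [CommRing R] [AddCommGroup M] [Module R M]
    (p n : ℕ) [Fact p.Prime] (f : Module.End R M) (hf : f ^ (p ^ n) = 1) (y : M)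
    (hy : p • y = 0) : ((f - 1) ^ (p ^ n)) y = 0 := by
  obtain ⟨g, hg⟩ := exists_sub_one_pow_eq p n
  have h1 := congrArg (Polynomial.aeval f) hg
  simp only [map_pow, map_sub, Polynomial.aeval_X, map_one, map_add, map_mul,
    Polynomial.aeval_C] at h1
  rw [h1, hf, sub_self, zero_add]
  have h2 : (algebraMap ℤ (Module.End R M) (p : ℤ)) = (p : ℕ) • (1 : Module.End R M) := by
    rw [Algebra.algebraMap_eq_smul_one]
    exact natCast_zsmul _ _
  rw [h2, Module.End.mul_apply, LinearMap.smul_apply, Module.End.one_apply, ← map_nsmul, hy,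
    map_zero]

/-- commuting operators of `p`-power order on a nonzero module killed by `p` have a nonzero
common fixed vector. -/
theorem exists_fixed_ne_zero {R M : Type*} [CommRing R] [AddCommGroup M] [Module R M]
    (p n : ℕ) [Fact p.Prime] {G : Type*} (d : G → Module.End R M)
    (hcomm : ∀ u v, Commute (d u) (d v)) (hpow : ∀ u, d u ^ (p ^ n) = 1)
    (Y : Submodule R M) (hY : ∀ u, ∀ y ∈ Y, d u y ∈ Y) (hp : ∀ y ∈ Y, p • y = 0)
    (hne : ∃ y ∈ Y, y ≠ 0) (s : Finset G) :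
    ∃ y ∈ Y, y ≠ 0 ∧ ∀ u ∈ s, d u y = y := by
  classical
  induction s using Finset.induction_on with
  | empty =>
    obtain ⟨y, hy, hy0⟩ := hne
    exact ⟨y, hy, hy0, fun u hu => absurd hu (Finset.notMem_empty u)⟩
  | insert u s hu ih =>
    obtain ⟨y, hy, hy0, hfix⟩ := ih
    have hnil : ((d u - 1) ^ (p ^ n)) y = 0 :=
      sub_one_pow_apply_eq_zero p n (d u) (hpow u) y (hp y hy)
    have hex : ∃ m : ℕ, ((d u - 1) ^ m) y = 0 := ⟨_, hnil⟩
    have hm : ((d u - 1) ^ (Nat.find hex)) y = 0 := Nat.find_spec hex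
    have hm0 : Nat.find hex ≠ 0 := by
      intro h0
      rw [h0, pow_zero, Module.End.one_apply] at hm
      exact hy0 hm
    obtain ⟨k, hk⟩ := Nat.exists_eq_succ_of_ne_zero hm0
    have hk' : ((d u - 1) ^ k) y ≠ 0 := Nat.find_min hex (by omega : k < Nat.find hex)
    have hstab : ∀ (j : ℕ), ∀ z ∈ Y, ((d u - 1) ^ j) z ∈ Y := by
      intro j
      induction j with
      | zero => intro z hz; rw [pow_zero, Module.End.one_apply]; exact hz
      | succ j ihj =>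
        intro z hz
        rw [pow_succ', Module.End.mul_apply, LinearMap.sub_apply, Module.End.one_apply]
        exact Y.sub_mem (hY u _ (ihj z hz)) (ihj z hz)
    refine ⟨((d u - 1) ^ k) y, hstab k y hy, hk', ?_⟩
    intro v hv
    rcases Finset.mem_insert.mp hv with rfl | hv
    · have h1 : (d v - 1) (((d v - 1) ^ k) y) = 0 := by
        rw [← Module.End.mul_apply, ← pow_succ']
        rw [hk] at hm
        exact hm
      rw [LinearMap.sub_apply, Module.End.one_apply, sub_eq_zero] at h1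
      exact h1
    · have hc : Commute (d v) ((d u - 1) ^ k) :=
        ((hcomm v u).sub_right (Commute.one_right _)).pow_right k
      have h1 := congrArg (fun f : Module.End R M => f y) hc.eq
      simp only [Module.End.mul_apply] at h1
      rw [h1, hfix v hv]

/-! ### Injectivity of `t₀` on the `θ`-part -/

section Inj

variable {𝒪 : Type} [CommRing 𝒪] [IsLocalRing 𝒪] {𝕋 : Type} [CommRing 𝕋]
  {A : Type} [AddCommGroup A]

/-- an element of the `θ`-part killed by `t₀`, `θ t₀ ≠ 0`, is zero. -/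
theorem eq_zero_of_eta_eq_zero (η : 𝕋 →+* Module.End ℤ A) (θ : 𝕋 →+* ResidueField 𝒪)
    (t₀ : 𝕋) (ht₀ : θ t₀ ≠ 0) {y : 𝒪 ⊗[ℤ] A} (hy : y ∈ thetaPart η θ)
    (h0 : (η t₀).baseChange 𝒪 y = 0) : y = 0 := by
  obtain ⟨a, ha⟩ := IsLocalRing.residue_surjective (θ t₀)
  have hau : IsUnit a := by
    by_contra hna
    apply ht₀
    rw [← ha]
    exact (IsLocalRing.residue_eq_zero_iff a).mpr ((IsLocalRing.mem_maximalIdeal a).mpr hna)
  obtain ⟨N, hN⟩ := mem_thetaPart.mp hy t₀ a ha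
  have key : ∀ k : ℕ,
      (((η t₀).baseChange 𝒪 - a • (1 : Module.End 𝒪 (𝒪 ⊗[ℤ] A))) ^ k) y = (-a) ^ k • y := by
    intro k
    induction k with
    | zero => rw [pow_zero, pow_zero, one_smul, Module.End.one_apply]
    | succ k ih =>
      rw [pow_succ', Module.End.mul_apply, ih, map_smul, LinearMap.sub_apply, h0,
        LinearMap.smul_apply, Module.End.one_apply, zero_sub, smul_neg, ← neg_smul, smul_smul,
        pow_succ]
      congr 1
      ring
  rw [key] at hN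
  have hu : IsUnit ((-a) ^ N) := (hau.neg).pow N
  obtain ⟨b, hb⟩ := hu.exists_left_inv
  have := congrArg (fun z => b • z) hN
  simp only [smul_smul, hb, one_smul, smul_zero] at this
  exact this

end Inj

/-! ### The comparison `𝒪 ⊗ (G → A) → (G → 𝒪 ⊗ A)` -/

section Pi

variable {𝒪 : Type} [CommRing 𝒪] {A B : Type} [AddCommGroup A] [AddCommGroup B]
  {G : Type} [Finite G]

/-- a family of maps whose base changes all kill `z`: the base change of the product map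
kills `z`. -/
theorem baseChange_pi_eq_zero (f : G → (B →ₗ[ℤ] A)) (z : 𝒪 ⊗[ℤ] B)
    (h : ∀ u, (f u).baseChange 𝒪 z = 0) : (LinearMap.pi f).baseChange 𝒪 z = 0 := by
  classical
  haveI : Fintype G := Fintype.ofFinite G
  have hcomp : ∀ (u : G) (w : 𝒪 ⊗[ℤ] (G → A)),
      TensorProduct.piRightHom ℤ 𝒪 𝒪 (fun _ : G => A) w u
        = (LinearMap.proj u : (G → A) →ₗ[ℤ] A).baseChange 𝒪 w := by
    intro u w
    induction w using TensorProduct.induction_on with
    | zero => rw [map_zero, map_zero]; rfl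
    | tmul x g => rfl
    | add w₁ w₂ h₁ h₂ => rw [map_add, map_add, Pi.add_apply, h₁, h₂]
  apply (TensorProduct.piRight ℤ 𝒪 𝒪 (fun _ : G => A)).injective
  rw [map_zero, TensorProduct.piRight_apply]
  funext u
  rw [hcomp, ← LinearMap.comp_apply, ← LinearMap.baseChange_comp, LinearMap.proj_pi, h u]
  rfl

end Pi

/-! ### W-ES -/

/-- **W-ES**. -/
theorem stmt_W_ES : Stmt_W_ES := by
  intro 𝒪 _ _ _ _ ϖ hϖ p hpF hpm hp0 A _ htors hfin 𝕋 _ η θ G _ _ dia n hdia hz K t₀ ht₀ hfix E hE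
    hEK x hx
  classical
  haveI : CharZero 𝒪 := charZero_of_mem (𝒪 := 𝒪) hpF.out hpm hp0
  haveI : Module.Flat ℤ 𝒪 := flat_int (𝒪 := 𝒪)
  haveI : Fintype G := Fintype.ofFinite G
  by_contra hne
  -- the operators
  let d : G → Module.End 𝒪 (𝒪 ⊗[ℤ] A) := fun u => (dia u).baseChange 𝒪
  have hdcommη : ∀ u t, Commute ((η t).baseChange 𝒪) (d u) := by
    intro u t
    obtain ⟨z, hz'⟩ := hz u
    show Commute ((η t).baseChange 𝒪) ((dia u).baseChange 𝒪)
    rw [← hz']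
    exact baseChange_commute 𝒪 ((Commute.all t z).map η)
  have hdcomm : ∀ u v, Commute (d u) (d v) := by
    intro u v
    obtain ⟨z, hz'⟩ := hz u
    show Commute ((dia u).baseChange 𝒪) (d v)
    rw [← hz']
    exact hdcommη v z
  have hdpow : ∀ u, d u ^ (p ^ n) = 1 := by
    intro u
    show ((dia u).baseChange 𝒪) ^ (p ^ n) = 1
    rw [← baseChange_pow_eq, hdia u, baseChange_one_eq]
  have hEcomm : ∀ t, Commute ((η t).baseChange 𝒪) (E.baseChange 𝒪) :=
    fun t => baseChange_commute 𝒪 (hE t)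
  have hEd : ∀ u, Commute (d u) (E.baseChange 𝒪) := by
    intro u
    obtain ⟨z, hz'⟩ := hz u
    show Commute ((dia u).baseChange 𝒪) (E.baseChange 𝒪)
    rw [← hz']
    exact hEcomm z
  -- `Y = E (W) ∩ X[ϖ]`
  let Y : Submodule 𝒪 (𝒪 ⊗[ℤ] A) :=
    (Submodule.map (E.baseChange 𝒪) (thetaPart η θ)) ⊓ Submodule.torsionBy 𝒪 (𝒪 ⊗[ℤ] A) ϖ
  have hYmem : ∀ y, y ∈ Y ↔ (∃ w ∈ thetaPart η θ, E.baseChange 𝒪 w = y) ∧ ϖ • y = 0 := by
    intro y
    show y ∈ (Submodule.map (E.baseChange 𝒪) (thetaPart η θ)) ⊓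
      Submodule.torsionBy 𝒪 (𝒪 ⊗[ℤ] A) ϖ ↔ _
    rw [Submodule.mem_inf, Submodule.mem_map, Submodule.mem_torsionBy_iff]
  have hYW : ∀ y ∈ Y, y ∈ thetaPart η θ := by
    intro y hy
    obtain ⟨⟨w, hw, rfl⟩, -⟩ := (hYmem y).mp hy
    exact thetaPart_stable hEcomm hw
  have hYstab : ∀ u, ∀ y ∈ Y, d u y ∈ Y := by
    intro u y hy
    obtain ⟨⟨w, hw, rfl⟩, hy2⟩ := (hYmem _).mp hy
    refine (hYmem _).mpr ⟨⟨d u w, thetaPart_stable (fun t => hdcommη u t) hw, ?_⟩, ?_⟩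
    · have := congrArg (fun f : Module.End 𝒪 (𝒪 ⊗[ℤ] A) => f w) (hEd u).eq
      simp only [Module.End.mul_apply] at this
      exact this.symm
    · rw [← map_smul, hy2, map_zero]
  obtain ⟨e, v, he, hv⟩ := exists_eq_unit_mul_pow hϖ hpm hp0
  have hYp : ∀ y ∈ Y, p • y = 0 := by
    intro y hy
    obtain ⟨-, hy2⟩ := (hYmem y).mp hy
    have h1 : (p : 𝒪) • y = 0 := by
      obtain ⟨e', rfl⟩ := Nat.exists_eq_succ_of_ne_zero he.ne'
      rw [hv, pow_succ, ← mul_assoc, mul_smul, hy2, smul_zero]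
    rw [← h1]
    exact (Nat.cast_smul_eq_nsmul 𝒪 p y).symm
  -- `Y ≠ 0`
  have hYne : ∃ y ∈ Y, y ≠ 0 := by
    obtain ⟨k, hk⟩ := tens_tors hϖ hpm hp0 htors (E.baseChange 𝒪 x)
    have hex : ∃ m : ℕ, ϖ ^ m • (E.baseChange 𝒪 x) = 0 := ⟨k, hk⟩
    have hm := Nat.find_spec hex
    have hm0 : Nat.find hex ≠ 0 := by
      intro h0
      rw [h0, pow_zero, one_smul] at hm
      exact hne hm
    obtain ⟨j, hj⟩ := Nat.exists_eq_succ_of_ne_zero hm0
    have hj' : ϖ ^ j • (E.baseChange 𝒪 x) ≠ 0 := Nat.find_min hex (by omega : j < Nat.find hex)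
    refine ⟨ϖ ^ j • (E.baseChange 𝒪 x),
      (hYmem _).mpr ⟨⟨ϖ ^ j • x, (thetaPart η θ).smul_mem _ hx, ?_⟩, ?_⟩, hj'⟩
    · rw [map_smul]
    · rw [smul_smul, ← pow_succ']
      rw [hj] at hm
      exact hm
  -- a nonzero fixed vector
  obtain ⟨y₀, hy₀Y, hy₀ne, hy₀fix⟩ :=
    exists_fixed_ne_zero p n d hdcomm hdpow Y hYstab hYp hYne Finset.univ
  have hy₀W : y₀ ∈ thetaPart η θ := hYW y₀ hy₀Y
  apply hy₀ne
  apply eq_zero_of_eta_eq_zero η θ t₀ ht₀ hy₀W
  -- `y₀` comes from `𝒪 ⊗ K`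
  let KZ : Submodule ℤ A := AddSubgroup.toIntSubmodule K
  let E' : A →ₗ[ℤ] KZ := E.codRestrict KZ (fun a => hEK a)
  have hEE' : E = KZ.subtype ∘ₗ E' := by
    ext a
    rfl
  obtain ⟨⟨w, hw, hwy⟩, -⟩ := (hYmem y₀).mp hy₀Y
  have hy₀K : y₀ = KZ.subtype.baseChange 𝒪 (E'.baseChange 𝒪 w) := by
    rw [← hwy, ← LinearMap.comp_apply, ← LinearMap.baseChange_comp, ← hEE']
  set k₀ : 𝒪 ⊗[ℤ] KZ := E'.baseChange 𝒪 w with hk₀
  -- `k₀` comes from `𝒪 ⊗ K^Δ`
  let F : KZ →ₗ[ℤ] (G → A) := LinearMap.pi fun u => (dia u - 1) ∘ₗ KZ.subtype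
  have hFk₀ : F.baseChange 𝒪 k₀ = 0 := by
    apply baseChange_pi_eq_zero
    intro u
    rw [LinearMap.baseChange_comp, LinearMap.comp_apply, ← hy₀K, LinearMap.baseChange_sub,
      LinearMap.sub_apply, sub_eq_zero]
    have h1 : (1 : Module.End ℤ A).baseChange 𝒪 y₀ = y₀ := by
      rw [baseChange_one_eq, Module.End.one_apply]
    rw [h1]
    exact hy₀fix u (Finset.mem_univ u)
  obtain ⟨k₁, hk₁⟩ := exists_of_baseChange_eq_zero (𝒪 := 𝒪) F hFk₀
  -- `t₀` kills `K^Δ`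
  have hzero : (η t₀) ∘ₗ KZ.subtype ∘ₗ (LinearMap.ker F).subtype = 0 := by
    ext ⟨⟨a, ha⟩, hak⟩
    show η t₀ a = 0
    apply hfix a ha
    intro u
    have h1 : F ⟨a, ha⟩ = 0 := hak
    have h2 := congrFun h1 u
    have h3 : dia u a - a = 0 := h2
    exact sub_eq_zero.mp h3
  have := congrArg (fun f => f k₁) (congrArg (fun f => f.baseChange 𝒪) hzero)
  simp only [LinearMap.baseChange_comp, LinearMap.comp_apply, LinearMap.baseChange_zero,
    LinearMap.zero_apply] at this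
  rw [hk₁, ← hy₀K] at this
  exact this

end Fermat.Agent.NEB.Geom.H12

end
end
-- ==== END Fermat.Agent.NEB.Geom.H12_WES

-- ==== BEGIN Fermat.Agent.NEB.Geom.H39_WEig2
section

/-!
# NEB-GEOM, leaf **W-EIG** (helper39): EIG-A + W-EIG

`stmt_EIG_W` : `A` a `p`-power torsion abelian group with `A[p]` finite (NO divisibility), with a
system of characters `ms : MonoSys p (N c) c A` and operators `TA ℓ`, `diaA d` as in
`H39.stmt_EIG_A`; `etaT : 𝕋 →+* End_ℤ A` with `etaT (z ℓ) = TA ℓ * diaA ⟨ℓ⟩ ^ j` for the good primes;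
the `θ`-part `W` of `𝒪 ⊗ A` is `p`-divisible.  Then the Hecke algebra of level `N c²` acts on `W`,
`T_ℓ ↦ thetaEta etaT θ (z ℓ)`.

Proof: `D = p ^ e A` is `p`-divisible (`exists_pow_smul_stable`), `stmt_EIG_A` on `D`, `stmt_W_EIG`.
-/

set_option autoImplicit false

namespace Fermat.Agent.NEB.Geom.H39

open IsLocalRing TensorProduct Module
open CongruenceSubgroup Matrix.SpecialLinearGroup ModularForm
open scoped MatrixGroups
open Fermat.Agent.Betti ModularCurve.Period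
open Fermat.Agent.S59.Lim Fermat.Agent.S59.Lim.H2
open Fermat.Agent.NEB.EIG.H39

section Restrict

variable {p M c : ℕ} {A : Type} [AddCommGroup A]

/-- Restriction of a system of characters to a subgroup. -/
def monoRestrict (ms : MonoSys p M c A) (D : AddSubgroup A) : MonoSys p M c ↥D where
  m k x := ms.m k (x : A)
  m_add k x y hx hy := ms.m_add k x y (congrArg Subtype.val hx) (congrArg Subtype.val hy)
  h := ms.h
  h_ne := ms.h_ne
  m_ker k x hx h0 := Subtype.ext (ms.m_ker k x (congrArg Subtype.val hx) h0)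
  m_par k x hx := ms.m_par k x (congrArg Subtype.val hx)
  m_red k x hx γ := ms.m_red k x (congrArg Subtype.val hx) γ

end Restrict

section Main

/-- **EIG-A + W-EIG**. -/
theorem stmt_EIG_W (p : ℕ) [Fact p.Prime] (N : ℕ) (hN : N ≠ 0) (qs : List ℕ) (hnd : qs.Nodup)
    (hpr : ∀ q ∈ qs, q.Prime) (hqN : ∀ q ∈ qs, ¬ q ∣ N)
    (c N' : ℕ) (hc : c = qs.prod) (hN' : N' = N * c * c) [NeZero N'] (S : Set ℕ)
    (hS : ∀ q : ℕ, q.Prime → q ∣ N' → q ∈ S)
    (A : Type) [AddCommGroup A] (htors : ∀ x : A, ∃ k : ℕ, p ^ k • x = 0)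
    (hfin : Finite {x : A // p • x = 0})
    (ms : MonoSys p (N * c) c A)
    (TA : ℕ → Module.End ℤ A)
    (hTA : ∀ (ℓ : ℕ) (hℓ : ℓ.Prime) (hℓM : ¬ ℓ ∣ N * c) (k : ℕ) (x : A), p ^ k • x = 0 →
      ms.m k (TA ℓ x) = TDg (N * c) c (dvd_mul_left _ _) hℓ hℓM (ms.m k x))
    (diaA : (ZMod c)ˣ →* Module.End ℤ A)
    (hdiaA : ∀ (g : SL(2, ℤ)) (hg : ((N * c : ℕ) : ℤ) ∣ g 1 0) (d : (ZMod c)ˣ),
      (d : ZMod c) = ((g 0 0 : ℤ) : ZMod c) → ∀ (k : ℕ) (x : A), p ^ k • x = 0 →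
      ms.m k (diaA d x) = Dg (dvd_mul_left _ _) g hg (ms.m k x))
    (hcomm : ∀ (ℓ : ℕ), ℓ.Prime → ¬ ℓ ∣ N * c → ∀ d, Commute (TA ℓ) (diaA d))
    (j : ℕ) (hdn : ∀ d, diaA d ^ (2 * j + 1) = 1)
    {𝒪 : Type} [CommRing 𝒪] [IsLocalRing 𝒪] {𝕋 : Type} [CommRing 𝕋]
    (etaT : 𝕋 →+* Module.End ℤ A) (θ : 𝕋 →+* ResidueField 𝒪)
    (hWdiv : ∀ w : ↥(thetaPart etaT θ), ∃ w' : ↥(thetaPart etaT θ), (p : 𝒪) • w' = w)
    (z : ℕ → 𝕋)
    (hz : ∀ (ℓ : ℕ), ℓ.Prime → ¬ ℓ ∣ N' → ℓ ∉ S → etaT (z ℓ) = TA ℓ * diaA (unitOf c ℓ) ^ j)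
    (θ' : CuspForm.heckeAlgebra N' 2 S →+* ResidueField 𝒪)
    (hθ : ∀ (ℓ : ℕ) (hℓ : ℓ.Prime) (hℓN : ¬ ℓ ∣ N') (hℓS : ℓ ∉ S),
      θ' (CuspForm.heckeAlgebra.T hℓ hℓN hℓS) = θ (z ℓ)) :
    ∃ etaW : CuspForm.heckeAlgebra N' 2 S →+* Module.End 𝒪 ↥(thetaPart etaT θ),
      (∀ (ℓ : ℕ) (hℓ : ℓ.Prime) (hℓN : ¬ ℓ ∣ N') (hℓS : ℓ ∉ S),
        etaW (CuspForm.heckeAlgebra.T hℓ hℓN hℓS) = thetaEta etaT θ (z ℓ)) ∧
      (∀ x, ∃ t : 𝕋, etaW x = thetaEta etaT θ t ∧ θ' x = θ t) ∧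
      (∀ (x : CuspForm.heckeAlgebra N' 2 S) (a : 𝒪), residue 𝒪 a = θ' x →
        ∀ w : ↥(thetaPart etaT θ),
          ∃ m : ℕ, ((etaW x - a • (1 : Module.End 𝒪 ↥(thetaPart etaT θ))) ^ m) w = 0) := by
  obtain ⟨e, he⟩ := exists_pow_smul_stable p htors hfin
  obtain ⟨etaD, hetaD⟩ := stmt_EIG_A p N hN qs hnd hpr hqN c N' hc hN' S hS
    ↥(divSub p e A) (divSub_div he) (divSub_tors htors) (monoRestrict ms (divSub p e A))
    (fun ℓ => resEnd p e (TA ℓ))
    (fun ℓ hℓ hℓM k x hx => hTA ℓ hℓ hℓM k x (congrArg Subtype.val hx))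
    ((resEnd p e : Module.End ℤ A →+* _).toMonoidHom.comp diaA)
    (fun g hg d hd k x hx => hdiaA g hg d hd k x (congrArg Subtype.val hx))
    (fun ℓ hℓ hℓM d => (hcomm ℓ hℓ hℓM d).map (resEnd p e))
    j
    (fun d => by
      show resEnd p e (diaA d) ^ (2 * j + 1) = 1
      rw [← map_pow, hdn d, map_one])
  refine stmt_W_EIG etaT θ p e hWdiv (divSub p e A) (fun x => pow_smul_mem_divSub x) hS etaD z
    (fun ℓ hℓ hℓN hℓS x => ?_) θ' hθ
  rw [hetaD ℓ hℓ hℓN hℓS, hz ℓ hℓ hℓN hℓS]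
  show ((resEnd p e (TA ℓ) * resEnd p e (diaA (unitOf c ℓ)) ^ j) x : A) = _
  rw [← map_pow, ← map_mul, coe_resEnd]

end Main

end Fermat.Agent.NEB.Geom.H39

end
-- ==== END Fermat.Agent.NEB.Geom.H39_WEig2

-- ==== BEGIN Fermat.Agent.NEB.Geom.H46_WLG
section

/-!
# NEB-GEOM, leaf W-LG (helper46): `stmt_W_LG : Stmt_W_LG`

Instantiation of `wlg_core` (`H46_WLGCore.lean`, built on `TWH.absLG`):
`V = W[ϖ^m]` (`W` the `θ`-part of `𝒪 ⊗ A`), `R = (𝒪 ⊗ 𝕋) / Ann V`, a finite local ring.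
-/

set_option autoImplicit false
set_option linter.unusedSectionVars false

noncomputable section

open IsLocalRing TensorProduct Module

namespace Fermat.Agent.NEB.Geom.H46

open Fermat.Agent.S59.Lim Fermat.Agent.S59.Lim.H2 Fermat.Agent.S59.TWH Fermat.Agent.NEB.Geom

/-! ### The module `V = W[c]` over `R = (𝒪 ⊗ 𝕋) / Ann` -/

section Setup

variable {𝒪 : Type} [CommRing 𝒪] [IsLocalRing 𝒪] {𝕋 : Type} [CommRing 𝕋]
  {A : Type} [AddCommGroup A]
variable (η : 𝕋 →+* Module.End ℤ A) (θ : 𝕋 →+* ResidueField 𝒪) (c : 𝒪)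

/-- `V = W[c]`. -/
def VS : Submodule 𝒪 (𝒪 ⊗[ℤ] A) :=
  thetaPart η θ ⊓ Submodule.torsionBy 𝒪 (𝒪 ⊗[ℤ] A) c

variable {η θ c} in
theorem mem_VS {x : 𝒪 ⊗[ℤ] A} : x ∈ VS η θ c ↔ x ∈ thetaPart η θ ∧ c • x = 0 := by
  rw [VS, Submodule.mem_inf, Submodule.mem_torsionBy_iff]

theorem eta_eq_opHom (t : 𝕋) : (η t).baseChange 𝒪 = opHom 𝒪 η ((1 : 𝒪) ⊗ₜ[ℤ] t) := by
  rw [opHom_tmul, one_smul]

variable {η} in
theorem commute_opHom {f : Module.End 𝒪 (𝒪 ⊗[ℤ] A)}
    (hf : ∀ t, Commute ((η t).baseChange 𝒪) f) (r : opRing 𝒪 𝕋) :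
    Commute f (opHom 𝒪 η r) := by
  induction r using TensorProduct.induction_on with
  | zero =>
    rw [map_zero]
    exact Commute.zero_right f
  | tmul a t =>
    rw [opHom_tmul]
    exact ((hf t).symm).smul_right a
  | add x y hx hy =>
    rw [map_add]
    exact hx.add_right hy

theorem opHom_commute_eta (r : opRing 𝒪 𝕋) (t : 𝕋) :
    Commute ((η t).baseChange 𝒪) (opHom 𝒪 η r) := by
  rw [eta_eq_opHom]
  exact (Commute.all _ _).map (opHom 𝒪 η)

variable {η θ c} in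
theorem map_mem_VS {f : Module.End 𝒪 (𝒪 ⊗[ℤ] A)}
    (hf : ∀ t, Commute ((η t).baseChange 𝒪) f) {x : 𝒪 ⊗[ℤ] A} (hx : x ∈ VS η θ c) :
    f x ∈ VS η θ c := by
  rw [mem_VS] at hx ⊢
  exact ⟨thetaPart_stable hf hx.1, by rw [← map_smul, hx.2, map_zero]⟩

/-- Restriction to `V` of an endomorphism commuting with the Hecke operators. -/
def resV (f : Module.End 𝒪 (𝒪 ⊗[ℤ] A)) (hf : ∀ t, Commute ((η t).baseChange 𝒪) f) :
    Module.End 𝒪 ↥(VS η θ c) :=
  f.restrict (fun _ hx => map_mem_VS hf hx)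

/-- The action of `𝒪 ⊗ 𝕋` on `V`. -/
def rho : opRing 𝒪 𝕋 →+* Module.End 𝒪 ↥(VS η θ c) where
  toFun r := resV η θ c (opHom 𝒪 η r) (fun t => opHom_commute_eta η r t)
  map_one' := by
    ext v
    simp [resV]
  map_mul' r s := by
    ext v
    simp [resV]
  map_zero' := by
    ext v
    simp [resV]
  map_add' r s := by
    ext v
    simp [resV]

theorem rho_apply_coe (r : opRing 𝒪 𝕋) (v : ↥(VS η θ c)) :
    ((rho η θ c r v : ↥(VS η θ c)) : 𝒪 ⊗[ℤ] A) = opHom 𝒪 η r (v : 𝒪 ⊗[ℤ] A) := rfl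

/-- The ring `R = (𝒪 ⊗ 𝕋) / Ann V`. -/
abbrev RR : Type := opRing 𝒪 𝕋 ⧸ RingHom.ker (rho η θ c)

instance modRR : Module (RR η θ c) ↥(VS η θ c) :=
  Module.compHom _ (RingHom.kerLift (rho η θ c))

theorem mk_smul (r : opRing 𝒪 𝕋) (v : ↥(VS η θ c)) :
    (Ideal.Quotient.mk (RingHom.ker (rho η θ c)) r : RR η θ c) • v = rho η θ c r v := rfl

theorem mk_smul_coe (r : opRing 𝒪 𝕋) (v : ↥(VS η θ c)) :
    (((Ideal.Quotient.mk (RingHom.ker (rho η θ c)) r : RR η θ c) • v : ↥(VS η θ c)) :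
      𝒪 ⊗[ℤ] A) = opHom 𝒪 η r (v : 𝒪 ⊗[ℤ] A) := rfl

theorem mk_eq_zero_iff (r : opRing 𝒪 𝕋) :
    (Ideal.Quotient.mk (RingHom.ker (rho η θ c)) r : RR η θ c) = 0 ↔
      ∀ v : ↥(VS η θ c), opHom 𝒪 η r (v : 𝒪 ⊗[ℤ] A) = 0 := by
  rw [Ideal.Quotient.eq_zero_iff_mem, RingHom.mem_ker]
  constructor
  · intro h v
    rw [← rho_apply_coe, h]
    rfl
  · intro h
    ext v
    rw [rho_apply_coe, h]
    rfl

/-- An `R`-linear endomorphism of `V` from an endomorphism commuting with the Hecke operators. -/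
def linV (f : Module.End 𝒪 (𝒪 ⊗[ℤ] A)) (hf : ∀ t, Commute ((η t).baseChange 𝒪) f) :
    ↥(VS η θ c) →ₗ[RR η θ c] ↥(VS η θ c) where
  toFun v := resV η θ c f hf v
  map_add' := map_add _
  map_smul' := by
    intro r v
    obtain ⟨r, rfl⟩ := Ideal.Quotient.mk_surjective r
    apply Subtype.ext
    show f (opHom 𝒪 η r v) = opHom 𝒪 η r (f v)
    exact congrArg (fun g : Module.End 𝒪 (𝒪 ⊗[ℤ] A) => g (v : 𝒪 ⊗[ℤ] A)) (commute_opHom hf r).eq

theorem linV_coe (f : Module.End 𝒪 (𝒪 ⊗[ℤ] A)) (hf : ∀ t, Commute ((η t).baseChange 𝒪) f)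
    (v : ↥(VS η θ c)) : ((linV η θ c f hf v : ↥(VS η θ c)) : 𝒪 ⊗[ℤ] A) = f v := rfl

theorem linV_pow_coe (f : Module.End 𝒪 (𝒪 ⊗[ℤ] A))
    (hf : ∀ t, Commute ((η t).baseChange 𝒪) f) (N : ℕ) (v : ↥(VS η θ c)) :
    ((((linV η θ c f hf) ^ N) v : ↥(VS η θ c)) : 𝒪 ⊗[ℤ] A) = (f ^ N) v := by
  induction N generalizing v with
  | zero => rfl
  | succ N ih =>
    rw [pow_succ, Module.End.mul_apply, ih, linV_coe, pow_succ, Module.End.mul_apply]

theorem rho_pow_coe (r : opRing 𝒪 𝕋) (N : ℕ) (v : ↥(VS η θ c)) :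
    ((((rho η θ c r) ^ N) v : ↥(VS η θ c)) : 𝒪 ⊗[ℤ] A) = ((opHom 𝒪 η r) ^ N) v := by
  rw [← map_pow, rho_apply_coe, map_pow]

/-- The action of a monoid commuting with the Hecke operators, on `V`. -/
def homV {M : Type*} [Monoid M] (ρ₀ : M →* Module.End ℤ A) (h : ∀ g t, Commute (η t) (ρ₀ g)) :
    M →* Module.End (RR η θ c) ↥(VS η θ c) where
  toFun g := linV η θ c ((ρ₀ g).baseChange 𝒪) (fun t => baseChange_commute 𝒪 (h g t))
  map_one' := by
    apply LinearMap.ext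
    intro v
    apply Subtype.ext
    rw [linV_coe, map_one, baseChange_one_eq]
    rfl
  map_mul' g g' := by
    apply LinearMap.ext
    intro v
    apply Subtype.ext
    rw [linV_coe, map_mul, baseChange_mul_eq]
    rfl

theorem homV_coe {M : Type*} [Monoid M] (ρ₀ : M →* Module.End ℤ A)
    (h : ∀ g t, Commute (η t) (ρ₀ g)) (g : M) (v : ↥(VS η θ c)) :
    ((homV η θ c ρ₀ h g v : ↥(VS η θ c)) : 𝒪 ⊗[ℤ] A) = (ρ₀ g).baseChange 𝒪 v := rfl

/-! ### `𝒪 ⊗ K` -/

theorem KO_stable (K : AddSubgroup A) (f : Module.End ℤ A) (hf : ∀ x ∈ K, f x ∈ K)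
    {x : 𝒪 ⊗[ℤ] A} (hx : x ∈ KO 𝒪 K) : f.baseChange 𝒪 x ∈ KO 𝒪 K := by
  obtain ⟨y, rfl⟩ := hx
  have hf' : ∀ x ∈ AddSubgroup.toIntSubmodule K, f x ∈ AddSubgroup.toIntSubmodule K := hf
  refine ⟨(f.restrict hf').baseChange 𝒪 y, ?_⟩
  rw [← LinearMap.comp_apply, ← LinearMap.baseChange_comp, ← LinearMap.comp_apply,
    ← LinearMap.baseChange_comp]
  rfl

theorem KO_of_forall_mem (K : AddSubgroup A) (f : Module.End ℤ A) (hf : ∀ x, f x ∈ K)
    (x : 𝒪 ⊗[ℤ] A) : f.baseChange 𝒪 x ∈ KO 𝒪 K := by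
  have hf' : ∀ x, f x ∈ AddSubgroup.toIntSubmodule K := hf
  refine ⟨(f.codRestrict _ hf').baseChange 𝒪 x, ?_⟩
  rw [← LinearMap.comp_apply, ← LinearMap.baseChange_comp]
  rfl

theorem opHom_mem_KO (K : AddSubgroup A) (hK : ∀ (t : 𝕋) (x : A), x ∈ K → η t x ∈ K)
    (r : opRing 𝒪 𝕋) {x : 𝒪 ⊗[ℤ] A} (hx : x ∈ KO 𝒪 K) : opHom 𝒪 η r x ∈ KO 𝒪 K := by
  induction r using TensorProduct.induction_on with
  | zero =>
    rw [map_zero]
    exact (KO 𝒪 K).zero_mem
  | tmul a t =>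
    rw [opHom_tmul, LinearMap.smul_apply]
    exact (KO 𝒪 K).smul_mem a (KO_stable K (η t) (hK t) hx)
  | add y z hy hz =>
    rw [map_add, LinearMap.add_apply]
    exact (KO 𝒪 K).add_mem hy hz

/-- `K_V = (𝒪 ⊗ K) ∩ V`. -/
def KV (K : AddSubgroup A) (hK : ∀ (t : 𝕋) (x : A), x ∈ K → η t x ∈ K) :
    Submodule (RR η θ c) ↥(VS η θ c) where
  carrier := {v | (v : 𝒪 ⊗[ℤ] A) ∈ KO 𝒪 K}
  add_mem' := fun ha hb => (KO 𝒪 K).add_mem ha hb
  zero_mem' := (KO 𝒪 K).zero_mem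
  smul_mem' := by
    intro r v hv
    obtain ⟨r, rfl⟩ := Ideal.Quotient.mk_surjective r
    exact opHom_mem_KO η K hK r hv

theorem mem_KV (K : AddSubgroup A) (hK : ∀ (t : 𝕋) (x : A), x ∈ K → η t x ∈ K)
    (v : ↥(VS η θ c)) : v ∈ KV η θ c K hK ↔ (v : 𝒪 ⊗[ℤ] A) ∈ KO 𝒪 K := Iff.rfl

/-! ### Nilpotent elements and units of `R` -/

theorem isNilpotent_mk_of_loc [Finite ↥(VS η θ c)] (r : opRing 𝒪 𝕋)
    (h : ∀ v : ↥(VS η θ c), ∃ N : ℕ, ((opHom 𝒪 η r) ^ N) (v : 𝒪 ⊗[ℤ] A) = 0) :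
    IsNilpotent (Ideal.Quotient.mk (RingHom.ker (rho η θ c)) r : RR η θ c) := by
  haveI : Module.Finite 𝒪 ↥(VS η θ c) := Module.Finite.of_finite
  have h1 : IsNilpotent (rho η θ c r) := by
    rw [Module.End.isNilpotent_iff_of_finite]
    intro v
    obtain ⟨N, hN⟩ := h v
    refine ⟨N, Subtype.ext ?_⟩
    rw [rho_pow_coe, hN]
    rfl
  obtain ⟨N, hN⟩ := h1
  refine ⟨N, ?_⟩
  rw [← map_pow, Ideal.Quotient.eq_zero_iff_mem, RingHom.mem_ker, map_pow, hN]

theorem finite_RR [Finite ↥(VS η θ c)] : Finite (RR η θ c) := by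
  have h1 : Function.Injective
      (fun (r : RR η θ c) (v : ↥(VS η θ c)) => RingHom.kerLift (rho η θ c) r v) := by
    intro r r' h
    apply RingHom.kerLift_injective (rho η θ c)
    apply LinearMap.ext
    intro v
    exact congrFun h v
  exact Finite.of_injective _ h1

/-- The ring homomorphism `𝒪 → R`. -/
def iota : 𝒪 →+* RR η θ c :=
  (Ideal.Quotient.mk (RingHom.ker (rho η θ c))).comp
    (Algebra.TensorProduct.includeLeftRingHom : 𝒪 →+* opRing 𝒪 𝕋)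

theorem iota_smul_coe (b : 𝒪) (v : ↥(VS η θ c)) :
    ((iota η θ c b • v : ↥(VS η θ c)) : 𝒪 ⊗[ℤ] A) = b • (v : 𝒪 ⊗[ℤ] A) := by
  show opHom 𝒪 η (b ⊗ₜ[ℤ] (1 : 𝕋)) (v : 𝒪 ⊗[ℤ] A) = _
  rw [opHom_pi]

/-- The image of `t ∈ 𝕋` in `R`. -/
def tee : 𝕋 →+* RR η θ c :=
  (Ideal.Quotient.mk (RingHom.ker (rho η θ c))).comp
    (Algebra.TensorProduct.includeRight.toRingHom : 𝕋 →+* opRing 𝒪 𝕋)

theorem tee_smul_coe (t : 𝕋) (v : ↥(VS η θ c)) :
    ((tee η θ c t • v : ↥(VS η θ c)) : 𝒪 ⊗[ℤ] A) = (η t).baseChange 𝒪 (v : 𝒪 ⊗[ℤ] A) := by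
  show opHom 𝒪 η ((1 : 𝒪) ⊗ₜ[ℤ] t) (v : 𝒪 ⊗[ℤ] A) = _
  rw [← eta_eq_opHom]

theorem isNilpotent_iota [Finite ↥(VS η θ c)] (b : 𝒪) (N : ℕ)
    (h : ∀ v : ↥(VS η θ c), b ^ N • (v : 𝒪 ⊗[ℤ] A) = 0) : IsNilpotent (iota η θ c b) := by
  refine ⟨N, ?_⟩
  rw [← map_pow]
  show (Ideal.Quotient.mk (RingHom.ker (rho η θ c))) ((b ^ N) ⊗ₜ[ℤ] (1 : 𝕋)) = 0
  rw [mk_eq_zero_iff]
  intro v
  rw [opHom_pi, h]

theorem isNilpotent_tee_sub [Finite ↥(VS η θ c)] (t : 𝕋) (a : 𝒪) (ha : residue 𝒪 a = θ t) :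
    IsNilpotent (tee η θ c t - iota η θ c a) := by
  have e : tee η θ c t - iota η θ c a
      = Ideal.Quotient.mk (RingHom.ker (rho η θ c)) ((1 : 𝒪) ⊗ₜ[ℤ] t - a ⊗ₜ[ℤ] (1 : 𝕋)) := by
    rw [map_sub]
    rfl
  rw [e]
  apply isNilpotent_mk_of_loc
  intro v
  have hv := (mem_VS.mp v.2).1
  rw [mem_thetaPart] at hv
  obtain ⟨N, hN⟩ := hv t a ha
  exact ⟨N, by rw [opHom_gen, hN]⟩

theorem tee_eq_one (t : 𝕋) (h : η t = 1) : tee η θ c t = 1 := by
  rw [← sub_eq_zero]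
  have e : tee η θ c t - 1
      = Ideal.Quotient.mk (RingHom.ker (rho η θ c))
          ((1 : 𝒪) ⊗ₜ[ℤ] t - (1 : 𝒪) ⊗ₜ[ℤ] (1 : 𝕋)) := by
    rw [map_sub]
    rfl
  rw [e, mk_eq_zero_iff]
  intro v
  rw [opHom_gen, h, baseChange_one_eq, one_smul, LinearMap.sub_apply]
  exact sub_self _

end Setup

/-! ### Transfer from `A[P]` to `(𝒪 ⊗ A)[P]` -/

section Transfer

variable {𝒪 : Type} [CommRing 𝒪] [Module.Flat ℤ 𝒪] {A : Type} [AddCommGroup A]

theorem baseChange_eq_self_of_tors (f : Module.End ℤ A) (P : ℕ)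
    (hf : ∀ x : A, P • x = 0 → f x = x) (x : 𝒪 ⊗[ℤ] A) (hx : P • x = 0) :
    f.baseChange 𝒪 x = x := by
  obtain ⟨g, hg⟩ : ∃ g : A →ₗ[ℤ] A, g = (P : ℤ) • LinearMap.id := ⟨_, rfl⟩
  have key : ∀ w : A, g w = P • w := by
    intro w
    rw [hg, LinearMap.smul_apply, LinearMap.id_apply, natCast_zsmul]
  have hgx : g.baseChange 𝒪 x = 0 := by
    rw [hg, LinearMap.baseChange_smul, LinearMap.baseChange_id, LinearMap.smul_apply,
      LinearMap.id_apply, natCast_zsmul]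
    exact hx
  obtain ⟨y, rfl⟩ := exists_of_baseChange_eq_zero g hgx
  have e : f ∘ₗ (LinearMap.ker g).subtype = (LinearMap.ker g).subtype := by
    apply LinearMap.ext
    intro z
    rw [LinearMap.comp_apply, Submodule.subtype_apply]
    apply hf
    rw [← key]
    exact z.2
  rw [← LinearMap.comp_apply, ← LinearMap.baseChange_comp, e]

end Transfer

/-! ### The statement -/

/-- **W-LG**: local–global compatibility at a Taylor–Wiles prime on the `θ`-part. -/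
theorem stmt_W_LG : Stmt_W_LG := by
  intro 𝒪 _ _ _ _ ϖ hϖ p _ hpm hp0 A _ htors hfinA 𝕋 _ η θ G _ _ dia n hdia hdiaη K hKη Γ _ gal
    hgalη hgalK I frob hnorm hinert u₀ U q a ha hq hU hkey htriv htame σ hσ x hxW hxN
  obtain ⟨N, hxN⟩ := hxN
  have hp : p.Prime := Fact.out
  haveI : CharZero 𝒪 := charZero_of_mem hp hpm hp0
  haveI : Module.Flat ℤ 𝒪 := flat_int
  obtain ⟨m, hm⟩ := tens_tors hϖ hpm hp0 htors x
  have hfinX := tens_fin hϖ hp hpm hp0 hfinA
  haveI : Finite ↥(VS η θ (ϖ ^ m)) := by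
    haveI := finite_torsionBy_pow ϖ hfinX m
    exact Finite.of_injective
      (Submodule.inclusion (inf_le_right : VS η θ (ϖ ^ m) ≤ Submodule.torsionBy 𝒪 _ (ϖ ^ m)))
      (Submodule.inclusion_injective _)
  haveI : Finite (RR η θ (ϖ ^ m)) := finite_RR η θ (ϖ ^ m)
  -- elements of the maximal ideal are nilpotent on `V`
  have hmax : ∀ b ∈ maximalIdeal 𝒪, ∀ v : ↥(VS η θ (ϖ ^ m)),
      b ^ m • (v : 𝒪 ⊗[ℤ] A) = 0 := by
    intro b hb v
    rw [hϖ.maximalIdeal_eq, Ideal.mem_span_singleton] at hb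
    obtain ⟨c', rfl⟩ := hb
    rw [mul_pow, mul_comm, mul_smul, (mem_VS.mp v.2).2, smul_zero]
  have hVpX : ∀ v : ↥(VS η θ (ϖ ^ m)), (p ^ m) • (v : 𝒪 ⊗[ℤ] A) = 0 := by
    intro v
    have := hmax (p : 𝒪) hpm v
    rw [← Nat.cast_pow, Nat.cast_smul_eq_nsmul] at this
    exact this
  have hVp : ∀ v : ↥(VS η θ (ϖ ^ m)), p ^ m • v = 0 := by
    intro v
    apply Subtype.ext
    rw [Submodule.coe_smul_of_tower]
    exact hVpX v
  -- `dia` commutes with `η`
  have hdiacomm : ∀ g t, Commute (η t) (dia g) := by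
    intro g t
    obtain ⟨z, hz⟩ := hdiaη g
    rw [← hz]
    exact (Commute.all t z).map η
  have hqp : Nat.Coprime q p := by
    rw [Nat.coprime_comm, Nat.Prime.coprime_iff_not_dvd hp]
    intro hdvd
    obtain ⟨c', rfl⟩ := hdvd
    have hpk : (p : ResidueField 𝒪) = 0 := by
      have : residue 𝒪 (p : 𝒪) = 0 := (residue_eq_zero_iff _).mpr hpm
      rwa [map_natCast] at this
    rw [Nat.cast_mul, hpk, zero_mul] at hq
    exact zero_ne_one hq
  obtain ⟨τ₀, hτ₀, ht1, ht2⟩ := htame m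
  have hxV : x ∈ VS η θ (ϖ ^ m) := mem_VS.mpr ⟨hxW, hm⟩
  have transfer : ∀ (h : Γ) (Q : ℕ), (∀ y : A, p ^ m • y = 0 → gal (h ^ Q) y = y) →
      ∀ v : ↥(VS η θ (ϖ ^ m)), homV η θ (ϖ ^ m) gal hgalη (h ^ Q) v = v := by
    intro h Q hh v
    apply Subtype.ext
    rw [homV_coe]
    exact baseChange_eq_self_of_tors (gal (h ^ Q)) (p ^ m) hh _ (hVpX v)
  -- the hypotheses of the core
  have hdp : ∀ g, homV η θ (ϖ ^ m) dia hdiacomm g ^ (p ^ n) = 1 := by
    intro g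
    rw [← map_pow]
    apply LinearMap.ext
    intro v
    apply Subtype.ext
    rw [homV_coe, map_pow, hdia g, baseChange_one_eq]
    rfl
  have hd : ∀ g, ∃ z : RR η θ (ϖ ^ m), ∀ v, homV η θ (ϖ ^ m) dia hdiacomm g v = z • v := by
    intro g
    obtain ⟨z, hz⟩ := hdiaη g
    refine ⟨tee η θ (ϖ ^ m) z, fun v => Subtype.ext ?_⟩
    rw [homV_coe, tee_smul_coe, hz]
  have hKgal : ∀ g, ∀ y ∈ KV η θ (ϖ ^ m) K hKη,
      homV η θ (ϖ ^ m) gal hgalη g y ∈ KV η θ (ϖ ^ m) K hKη := by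
    intro g y hy
    exact KO_stable K (gal g) (hgalK g) hy
  have hinert' : ∀ τ ∈ I, ∀ v, homV η θ (ϖ ^ m) gal hgalη τ v - v ∈ KV η θ (ϖ ^ m) K hKη := by
    intro τ hτ v
    have h1 := KO_of_forall_mem (𝒪 := 𝒪) K (gal τ - 1)
      (fun y => by
        rw [LinearMap.sub_apply, Module.End.one_apply]
        exact hinert τ hτ y) (v : 𝒪 ⊗[ℤ] A)
    rw [LinearMap.baseChange_sub, baseChange_one_eq, LinearMap.sub_apply,
      Module.End.one_apply] at h1
    exact h1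
  -- nilpotents and units
  have nil1 : IsNilpotent (tee η θ (ϖ ^ m) U - iota η θ (ϖ ^ m) a) :=
    isNilpotent_tee_sub η θ (ϖ ^ m) U a ha
  have hq1 : (q : 𝒪) - 1 ∈ maximalIdeal 𝒪 := by
    rw [← residue_eq_zero_iff, map_sub, map_natCast, map_one, hq, sub_self]
  have nil2 : IsNilpotent ((q : RR η θ (ϖ ^ m)) - 1) := by
    have e : (q : RR η θ (ϖ ^ m)) - 1 = iota η θ (ϖ ^ m) ((q : 𝒪) - 1) := by
      rw [map_sub, map_natCast, map_one]
    rw [e]
    exact isNilpotent_iota η θ (ϖ ^ m) _ m (hmax _ hq1)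
  have nilp : IsNilpotent ((p : RR η θ (ϖ ^ m))) := by
    have e : (p : RR η θ (ϖ ^ m)) = iota η θ (ϖ ^ m) (p : 𝒪) := by
      rw [map_natCast]
    rw [e]
    exact isNilpotent_iota η θ (ϖ ^ m) _ m (hmax _ hpm)
  have nilϖ : IsNilpotent (iota η θ (ϖ ^ m) ϖ) :=
    isNilpotent_iota η θ (ϖ ^ m) _ m (fun v => (mem_VS.mp v.2).2)
  have hunit : IsUnit (iota η θ (ϖ ^ m) (a ^ 2 - 1)) := by
    apply IsUnit.map
    rw [← IsLocalRing.notMem_maximalIdeal, ← residue_eq_zero_iff, map_sub, map_pow, map_one, ha,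
      sub_eq_zero]
    exact hU
  have h5 : IsUnit (tee η θ (ϖ ^ m) U ^ 2 - (q : RR η θ (ϖ ^ m))) := by
    have e : tee η θ (ϖ ^ m) U ^ 2 - (q : RR η θ (ϖ ^ m))
        = iota η θ (ϖ ^ m) (a ^ 2 - 1)
          + ((tee η θ (ϖ ^ m) U - iota η θ (ϖ ^ m) a)
              * (tee η θ (ϖ ^ m) U + iota η θ (ϖ ^ m) a) - ((q : RR η θ (ϖ ^ m)) - 1)) := by
      rw [map_sub, map_pow, map_one]
      ring
    rw [e]
    exact isUnit_add_mul_sub (R := RR η θ (ϖ ^ m)) hunit nil1 nil2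
  have hkey' : ∀ y ∈ KV η θ (ϖ ^ m) K hKη,
      (∀ g, homV η θ (ϖ ^ m) dia hdiacomm g y = y) →
      tee η θ (ϖ ^ m) U • homV η θ (ϖ ^ m) gal hgalη frob y = (q : RR η θ (ϖ ^ m)) • y := by
    intro y hy hfix
    apply Subtype.ext
    have e : (q : RR η θ (ϖ ^ m)) = iota η θ (ϖ ^ m) (q : 𝒪) := by
      rw [map_natCast]
    rw [tee_smul_coe, homV_coe, e, iota_smul_coe]
    exact hkey (y : 𝒪 ⊗[ℤ] A) (mem_VS.mp y.2).1 hy
      (fun g => congrArg Subtype.val (hfix g))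
  have htriv' : ∀ τ ∈ I, ∀ v : ↥(VS η θ (ϖ ^ m)),
      (∀ r : RR η θ (ϖ ^ m), IsNilpotent r → r • v = 0) →
      homV η θ (ϖ ^ m) gal hgalη τ v = v := by
    intro τ hτ v hv
    apply Subtype.ext
    rw [homV_coe]
    apply htriv τ hτ (v : 𝒪 ⊗[ℤ] A) (mem_VS.mp v.2).1
    · have h1 := congrArg Subtype.val (hv _ nilϖ)
      rw [iota_smul_coe] at h1
      exact h1
    · intro g
      obtain ⟨z, hz⟩ := hdiaη g
      have hz1 : tee η θ (ϖ ^ m) z ^ (p ^ n) = 1 := by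
        rw [← map_pow]
        apply tee_eq_one
        rw [map_pow, hz, hdia g]
      have h1 := isNilpotent_sub_one_of_pow hp n (tee η θ (ϖ ^ m) z) nilp hz1
      have h2 := congrArg Subtype.val (hv _ h1)
      rw [sub_smul, one_smul] at h2
      have h3 : ((tee η θ (ϖ ^ m) z • v - v : ↥(VS η θ (ϖ ^ m))) : 𝒪 ⊗[ℤ] A)
          = (dia g).baseChange 𝒪 (v : 𝒪 ⊗[ℤ] A) - (v : 𝒪 ⊗[ℤ] A) := by
        rw [Submodule.coe_sub, tee_smul_coe, hz]
      rw [h3] at h2
      exact sub_eq_zero.mp h2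
  have htame1 : ∀ τ ∈ I, ∃ j Q : ℕ, Nat.Coprime Q p ∧
      ∀ v, homV η θ (ϖ ^ m) gal hgalη (((τ₀ ^ j)⁻¹ * τ) ^ Q) v = v := by
    intro τ hτ
    obtain ⟨j, e, h⟩ := ht1 τ hτ
    exact ⟨j, q ^ e, Nat.Coprime.pow_left e hqp, transfer _ _ h⟩
  have htame2 : ∃ Q : ℕ, Nat.Coprime Q p ∧
      ∀ v, homV η θ (ϖ ^ m) gal hgalη (((τ₀ ^ q)⁻¹ * (frob * τ₀ * frob⁻¹)) ^ Q) v = v := by
    obtain ⟨e, h⟩ := ht2
    exact ⟨q ^ e, Nat.Coprime.pow_left e hqp, transfer _ _ h⟩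
  -- the generalised eigenvector
  obtain ⟨M, hM⟩ := nil1
  have hcommφ : ∀ t, Commute ((η t).baseChange 𝒪)
      ((gal frob * dia u₀).baseChange 𝒪 - a • (1 : Module.End 𝒪 (𝒪 ⊗[ℤ] A))) := by
    intro t
    have h1 : Commute ((η t).baseChange 𝒪) ((gal frob * dia u₀).baseChange 𝒪) :=
      baseChange_commute 𝒪 ((hgalη frob t).mul_right (hdiacomm u₀ t))
    have h2 : Commute ((η t).baseChange 𝒪) (a • (1 : Module.End 𝒪 (𝒪 ⊗[ℤ] A))) :=
      (Commute.one_right _).smul_right a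
    exact Commute.sub_right (R := Module.End 𝒪 (𝒪 ⊗[ℤ] A)) h1 h2
  have hEeq : (homV η θ (ϖ ^ m) gal hgalη frob * homV η θ (ϖ ^ m) dia hdiacomm u₀
      - iota η θ (ϖ ^ m) a • (1 : Module.End (RR η θ (ϖ ^ m)) ↥(VS η θ (ϖ ^ m))))
      = linV η θ (ϖ ^ m) _ hcommφ := by
    apply LinearMap.ext
    intro v
    apply Subtype.ext
    rw [linV_coe, LinearMap.sub_apply, LinearMap.sub_apply, Submodule.coe_sub,
      LinearMap.smul_apply, Module.End.one_apply, iota_smul_coe, Module.End.mul_apply, homV_coe,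
      homV_coe, baseChange_mul_eq, Module.End.mul_apply, LinearMap.smul_apply,
      Module.End.one_apply]
  have hE : ((homV η θ (ϖ ^ m) gal hgalη frob * homV η θ (ϖ ^ m) dia hdiacomm u₀
      - iota η θ (ϖ ^ m) a • (1 : Module.End (RR η θ (ϖ ^ m)) ↥(VS η θ (ϖ ^ m)))) ^ N)
      (⟨x, hxV⟩ : ↥(VS η θ (ϖ ^ m))) = 0 := by
    rw [hEeq]
    apply Subtype.ext
    rw [linV_pow_coe]
    exact hxN
  have hv := gen_eigen_shift (R := RR η θ (ϖ ^ m)) (V := ↥(VS η θ (ϖ ^ m)))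
    (homV η θ (ϖ ^ m) gal hgalη frob * homV η θ (ϖ ^ m) dia hdiacomm u₀)
    (iota η θ (ϖ ^ m) a) (tee η θ (ϖ ^ m) U) hM hE
  have main := wlg_core (R := RR η θ (ϖ ^ m)) (V := ↥(VS η θ (ϖ ^ m))) (p := p) (m := m) hVp
    (homV η θ (ϖ ^ m) gal hgalη) (homV η θ (ϖ ^ m) dia hdiacomm) n hdp hd
    (KV η θ (ϖ ^ m) K hKη) hKgal I frob hnorm hinert' u₀ (tee η θ (ϖ ^ m) U) q h5 nil2 hkey'
    htriv' τ₀ hτ₀ htame1 htame2 σ hσ ⟨x, hxV⟩ (N + M) hv
  exact congrArg Subtype.val main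

end Fermat.Agent.NEB.Geom.H46

end
end
-- ==== END Fermat.Agent.NEB.Geom.H46_WLG

-- ==== BEGIN Fermat.Agent.NEB.Geom.H6_WFrobNil
section

/-!
# NEB-GEOM leaf W-FROBNIL (helper6): socle filtration

`stmt_W_FROBNIL : Stmt_W_FROBNIL`: an operator `Q` commuting with commuting operators `d j` of
`p`-power order, which is nilpotent on every `Δ`-fixed element of `W[ϖ]`, is nilpotent on every
element of `W[ϖ]`.

The abstract core `frobNil_core` needs neither the finiteness of `W[ϖ]` nor the commutativity of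
the `d j` among themselves: only that `d j - 1` is nilpotent on the elements killed by `p`
(`sub_one_pow_apply_eq_zero`).
-/

set_option autoImplicit false

noncomputable section

open IsLocalRing Module

namespace Fermat.Agent.NEB.Geom.H6

/-- In any ring, if `d ^ (p ^ n) = 1` then `(d - 1) ^ (p ^ n) ∈ p R`. -/
theorem sub_one_pow_prime_pow {R : Type*} [Ring R] {p : ℕ} (hp : p.Prime) (d : R) (n : ℕ)
    (hd : d ^ (p ^ n) = 1) : ∃ r : R, (d - 1) ^ (p ^ n) = (p : R) * r := by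
  obtain ⟨r, hr⟩ := (Commute.one_right (d - 1)).exists_add_pow_prime_pow_eq hp n
  rw [sub_add_cancel, hd, one_pow] at hr
  refine ⟨-((d - 1) * 1 * r), ?_⟩
  have h1 : (d - 1) ^ (p ^ n) = -((p : R) * (d - 1) * 1 * r) := by
    have h2 : (d - 1) ^ (p ^ n) + (p : R) * (d - 1) * 1 * r = 0 := by
      have h3 : (1 : R) = 1 + ((d - 1) ^ (p ^ n) + (p : R) * (d - 1) * 1 * r) := by
        rw [← add_assoc, add_comm (1 : R)]
        exact hr
      exact (left_eq_add.mp h3)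
    exact eq_neg_of_add_eq_zero_left h2
  rw [h1]
  noncomm_ring

/-- An operator of `p`-power order is unipotent on the elements killed by `p`. -/
theorem sub_one_pow_apply_eq_zero {𝒪 : Type*} [CommRing 𝒪] {W : Type*} [AddCommGroup W]
    [Module 𝒪 W] {p : ℕ} (hp : p.Prime) (d : Module.End 𝒪 W) (n : ℕ) (hd : d ^ (p ^ n) = 1)
    (x : W) (hx : (p : 𝒪) • x = 0) : ((d - 1) ^ (p ^ n)) x = 0 := by
  obtain ⟨r, hr⟩ := sub_one_pow_prime_pow hp d n hd
  rw [hr]
  have h1 : ((p : Module.End 𝒪 W) * r) x = (p : 𝒪) • r x := by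
    rw [Module.End.mul_apply]
    have : ((p : Module.End 𝒪 W)) (r x) = (p : 𝒪) • r x := by
      rw [Module.End.natCast_apply, Nat.cast_smul_eq_nsmul]
    exact this
  rw [h1, ← map_smul, hx, map_zero]

/-- **Abstract socle filtration.**  `S` a set of elements stable under `Q` and the `d j`; every
`d j - 1` is nilpotent on `S`; `Q` commutes with the `d j`.  If `Q` is nilpotent on the elements
of `S` fixed by all `d j`, then `Q` is nilpotent on `S`. -/
theorem frobNil_core {𝒪 : Type*} [CommRing 𝒪] {W : Type*} [AddCommGroup W] [Module 𝒪 W]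
    (S : Submodule 𝒪 W) (Q : Module.End 𝒪 W) (hQS : ∀ x ∈ S, Q x ∈ S) :
    ∀ (r : ℕ) (d : Fin r → Module.End 𝒪 W), (∀ j, ∀ x ∈ S, d j x ∈ S) →
      (∀ j, ∀ x ∈ S, ∃ k : ℕ, ((d j - 1) ^ k) x = 0) →
      (∀ i j, Commute (d i) (d j)) → (∀ j, Commute (d j) Q) →
      (∀ x ∈ S, (∀ j, d j x = x) → ∃ m : ℕ, (Q ^ m) x = 0) →
      ∀ x ∈ S, ∃ m : ℕ, (Q ^ m) x = 0 := by
  intro r
  induction r with
  | zero =>
    intro d _ _ _ _ hfix x hx
    exact hfix x hx (fun j => j.elim0)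
  | succ r ih =>
    intro d hdS hnil hcomm hdQ hfix x hx
    -- the last operator
    set e : Module.End 𝒪 W := d (Fin.last r) with he
    have hQpowS : ∀ (m : ℕ), ∀ y ∈ S, (Q ^ m) y ∈ S := by
      intro m
      induction m with
      | zero => intro y hy; simpa using hy
      | succ m ihm =>
        intro y hy
        rw [pow_succ, Module.End.mul_apply]
        exact ihm _ (hQS y hy)
    have hNS : ∀ y ∈ S, (e - 1) y ∈ S := by
      intro y hy
      rw [LinearMap.sub_apply, Module.End.one_apply]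
      exact S.sub_mem (hdS _ y hy) hy
    -- the hypothesis for the first `r` operators
    have hfix' : ∀ y ∈ S, (∀ j : Fin r, d (Fin.castSucc j) y = y) →
        ∃ m : ℕ, (Q ^ m) y = 0 := by
      -- induction on the nilpotency index of `e - 1` at `y`
      have key : ∀ (k : ℕ), ∀ y ∈ S, (∀ j : Fin r, d (Fin.castSucc j) y = y) →
          ((e - 1) ^ k) y = 0 → ∃ m : ℕ, (Q ^ m) y = 0 := by
        intro k
        induction k with
        | zero =>
          intro y _ _ hy0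
          refine ⟨0, ?_⟩
          simpa using hy0
        | succ k ihk =>
          intro y hy hyfix hy0
          have h1 : ((e - 1) ^ k) ((e - 1) y) = 0 := by
            rw [← Module.End.mul_apply, ← pow_succ]
            exact hy0
          have hfixN : ∀ j : Fin r, d (Fin.castSucc j) ((e - 1) y) = (e - 1) y := by
            intro j
            have hc : Commute (d (Fin.castSucc j)) (e - 1) :=
              (hcomm _ _).sub_right (Commute.one_right _)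
            have := congrArg (fun f : Module.End 𝒪 W => f y) hc.eq
            simp only [Module.End.mul_apply] at this
            rw [this, hyfix j]
          obtain ⟨m1, hm1⟩ := ihk ((e - 1) y) (hNS y hy) hfixN h1
          -- `Q ^ m1 y` is fixed by everything
          have hcQ : Commute (e - 1) (Q ^ m1) :=
            ((hdQ _).sub_left (Commute.one_left _)).pow_right m1
          have h2 : (e - 1) ((Q ^ m1) y) = 0 := by
            have := congrArg (fun f : Module.End 𝒪 W => f y) hcQ.eq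
            simp only [Module.End.mul_apply] at this
            rw [this, hm1]
          have h3 : ∀ j : Fin (r + 1), d j ((Q ^ m1) y) = (Q ^ m1) y := by
            intro j
            refine Fin.lastCases ?_ (fun i => ?_) j
            · have h4 := h2
              rw [LinearMap.sub_apply, Module.End.one_apply, sub_eq_zero] at h4
              exact h4
            · have hc : Commute (d (Fin.castSucc i)) (Q ^ m1) := (hdQ _).pow_right m1
              have := congrArg (fun f : Module.End 𝒪 W => f y) hc.eq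
              simp only [Module.End.mul_apply] at this
              rw [this, hyfix i]
          obtain ⟨m2, hm2⟩ := hfix ((Q ^ m1) y) (hQpowS m1 y hy) h3
          refine ⟨m2 + m1, ?_⟩
          rw [pow_add, Module.End.mul_apply]
          exact hm2
      intro y hy hyfix
      obtain ⟨k, hk⟩ := hnil (Fin.last r) y hy
      exact key k y hy hyfix hk
    exact ih (fun j => d (Fin.castSucc j)) (fun j => hdS _) (fun j => hnil _)
      (fun i j => hcomm _ _) (fun j => hdQ _) hfix' x hx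

/-- **Leaf W-FROBNIL.** -/
theorem stmt_W_FROBNIL : Stmt_W_FROBNIL := by
  intro 𝒪 _ _ ϖ p hp hpϖ W _ _ _ r n d hd hcomm Q hdQ hfix x hx
  obtain ⟨a, ha⟩ := Ideal.mem_span_singleton'.mp hpϖ
  -- `S = W[ϖ]`
  let S : Submodule 𝒪 W := Submodule.torsionBy 𝒪 W ϖ
  have hS : ∀ y : W, y ∈ S ↔ ϖ • y = 0 := fun y => Submodule.mem_torsionBy_iff _ _
  have hpS : ∀ y ∈ S, (p : 𝒪) • y = 0 := by
    intro y hy
    rw [← ha, mul_smul, (hS y).1 hy, smul_zero]
  have hstab : ∀ (f : Module.End 𝒪 W), ∀ y ∈ S, f y ∈ S := by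
    intro f y hy
    rw [hS] at hy ⊢
    rw [← map_smul, hy, map_zero]
  exact frobNil_core S Q (hstab Q) r d (fun j => hstab (d j))
    (fun j y hy => ⟨p ^ n, sub_one_pow_apply_eq_zero hp.out (d j) n (hd j) y (hpS y hy)⟩)
    hcomm hdQ (fun y hy hyfix => hfix y ((hS y).1 hy) hyfix) x ((hS x).2 hx)

end Fermat.Agent.NEB.Geom.H6

end
end
-- ==== END Fermat.Agent.NEB.Geom.H6_WFrobNil

-- ==== BEGIN Fermat.Agent.NEB.Geom.H94_W
section

/-!
# Item 72 (LG-NEB), package NEB-GEOM: the leaves W-UNIT, W-DIV, W-HSTEP, W-INV (helper94)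

Proofs of `Stmt_W_unit`, `Stmt_W_DIV`, `Stmt_W_HSTEP`, `Stmt_W_INV` of `NEB/Geom/DefsW.lean`,
from the abstract lemmas of `S59/Lim/H94_ThetaTw.lean`.
-/

set_option autoImplicit false
set_option linter.unusedSectionVars false
set_option linter.unusedVariables false
set_option linter.style.haveILetI false

open IsLocalRing TensorProduct

noncomputable section

namespace Fermat.Agent.NEB.Geom.H94

open Fermat.Agent.S59.Lim Fermat.Agent.S59.Lim.H2 Fermat.Agent.S59.Lim.H94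
open Fermat.Agent.NEB.Geom

/-- **W-UNIT** -/
theorem stmt_W_unit : Stmt_W_unit := by
  intro 𝒪 _ _ A _ 𝕋 _ η θ t₀ ht₀
  exact thetaEta_bijective η θ t₀ ht₀

/-- **W-DIV** -/
theorem stmt_W_DIV : Stmt_W_DIV := by
  intro 𝒪 _ _ _ _ ϖ hϖ p hp hpm hp0 A _ htors hfin 𝕋 _ η θ t₀ ht₀ hN
  exact isDiv_thetaPart_of_pow η θ hϖ hp.out hpm hp0 htors hfin t₀ ht₀ hN

/-- **W-HSTEP** -/
theorem stmt_W_HSTEP : Stmt_W_HSTEP := by
  intro 𝒪 _ _ _ _ ϖ hϖ p hp hpm hp0 A _ htors hfin 𝕋 _ η θ t₀ ht₀ r n d hd hyp j v hv hϖv hdv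
  classical
  choose z hz using hd
  -- the data
  let g : Module.End ℤ A := ∑ e ∈ Finset.range (p ^ n), d j ^ e
  let f : Fin r → Module.End ℤ A := fun i => if i ≤ j then d i - 1 else 0
  let h : Fin r → Module.End ℤ A := fun i => if i < j then d i - 1 else 0
  have hgη : g = η (∑ e ∈ Finset.range (p ^ n), z j ^ e) := by
    rw [map_sum]
    exact Finset.sum_congr rfl fun e _ => by rw [map_pow, hz]
  have hg : ∀ t, g ∘ₗ η t = η t ∘ₗ g := by
    intro t
    rw [hgη]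
    exact ((Commute.all _ t).map η).eq
  have hh : ∀ i t, Commute (η t) (h i) := by
    intro i t
    show Commute (η t) (if i < j then d i - 1 else 0)
    split_ifs with hij
    · rw [← hz i, ← map_one η, ← map_sub]
      exact (Commute.all _ _).map η
    · exact Commute.zero_right _
  have hyp' : ∀ k : A, p • k = 0 → (∀ i, f i k = 0) →
      ∃ (y : A) (m : ℕ), p • y = 0 ∧ (∀ i, h i y = 0) ∧ g y = (η t₀ ^ m) k := by
    intro k hk hfk
    have hk' : ∀ i, i ≤ j → d i k = k := by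
      intro i hij
      have := hfk i
      simp only [f, if_pos hij, LinearMap.sub_apply, Module.End.one_apply] at this
      exact sub_eq_zero.mp this
    obtain ⟨w, m, h1, h2, h3⟩ := hyp j k hk hk'
    refine ⟨w, m, h1, ?_, ?_⟩
    · intro i
      show (if i < j then d i - 1 else 0 : Module.End ℤ A) w = 0
      split_ifs with hij
      · rw [LinearMap.sub_apply, Module.End.one_apply, h2 i hij, sub_self]
      · rfl
    · rw [← h3]
      exact LinearMap.sum_apply _ _ _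
  have hfv : ∀ i, (f i).baseChange 𝒪 v = 0 := by
    intro i
    show (if i ≤ j then d i - 1 else 0 : Module.End ℤ A).baseChange 𝒪 v = 0
    split_ifs with hij
    · rw [sub_one_baseChange, hdv i hij, sub_self]
    · rw [LinearMap.baseChange_zero]
      rfl
  obtain ⟨y, hy, hy1, hy2, hy3⟩ := theta_lift η η θ hϖ hp.out hpm hp0 htors hfin htors hfin t₀
    ht₀ g hg f h hh hyp' hv hϖv hfv
  refine ⟨y, hy, hy1, ?_, ?_⟩
  · intro i hij
    have := hy2 i
    simp only [h, if_pos hij] at this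
    rw [sub_one_baseChange] at this
    exact sub_eq_zero.mp this
  · rw [← sum_pow_baseChange]
    exact hy3

/-- **W-INV** -/
theorem stmt_W_INV : Stmt_W_INV := by
  intro 𝒪 _ _ _ _ ϖ hϖ p hp hpm hp0 A _ htorsA hfinA B _ htorsB hfinB 𝕋 _ η ηB θ t₀ ht₀ up hup
    G _ _ dia hdia hyp v hv hϖv hdv
  have hyp' : ∀ k : A, p • k = 0 → (∀ u : G, (dia u - 1) k = 0) →
      ∃ (y : B) (m : ℕ), p • y = 0 ∧ (∀ i : Empty, (Empty.elim i : Module.End ℤ B) y = 0) ∧
        up y = (η t₀ ^ m) k := by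
    intro k hk hfk
    obtain ⟨y₀, m, h1, h2⟩ := hyp k hk (fun u => by
      have := hfk u
      rw [LinearMap.sub_apply, Module.End.one_apply] at this
      exact sub_eq_zero.mp this)
    exact ⟨y₀, m, h1, fun i => i.elim, h2⟩
  obtain ⟨y, hy, hy1, -, hy3⟩ := theta_lift η ηB θ hϖ hp.out hpm hp0 htorsA hfinA htorsB hfinB t₀
    ht₀ up hup (fun u : G => dia u - 1) (fun i : Empty => (Empty.elim i : Module.End ℤ B))
    (fun i => i.elim) hyp' hv hϖv (fun u => by rw [sub_one_baseChange, hdv u, sub_self])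
  exact ⟨y, hy, hy1, hy3⟩

end Fermat.Agent.NEB.Geom.H94

end
end
-- ==== END Fermat.Agent.NEB.Geom.H94_W

-- ==== BEGIN Fermat.Agent.S59.Asm.Plumb2
section

/-!
# S59, package ASM (helper53): plumbing on Galois representations

Characteristic polynomials and triviality under equivalences, base change and reduction;
transport of `DiagOn` and of the characters `chi` along `Stmt_TRANSPORT`.
-/

set_option autoImplicit false
set_option linter.unusedSectionVars false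

open Polynomial CuspForm IsLocalRing

namespace Fermat.Agent.S59.Asm

open Fermat.Agent.S59 Fermat.Agent.S59.TWGal

section Rep

variable {A : Type} [CommRing A] [IsLocalRing A]

/-- equivalent representations have the same characteristic polynomials -/
theorem charpoly_of_isEquiv {ρ₁ ρ₂ : GaloisRepAdic A} (h : ρ₁.IsEquiv ρ₂) (σ : GalQ) :
    LinearMap.charpoly (ρ₁.ρ σ) = LinearMap.charpoly (ρ₂.ρ σ) := by
  obtain ⟨e⟩ := h
  have h1 : ρ₂.ρ σ = e.toLinearEquiv.conj (ρ₁.ρ σ) := by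
    refine LinearMap.ext fun x => ?_
    rw [LinearEquiv.conj_apply_apply, e.map_apply, LinearEquiv.apply_symm_apply]
  rw [h1, LinearEquiv.charpoly_conj]

/-- triviality passes through equivalences -/
theorem eq_one_of_isEquiv {ρ₁ ρ₂ : GaloisRepAdic A} (h : ρ₁.IsEquiv ρ₂) (σ : GalQ)
    (h2 : ρ₂.ρ σ = 1) : ρ₁.ρ σ = 1 := by
  obtain ⟨e⟩ := h
  refine LinearMap.ext fun x => e.toLinearEquiv.injective ?_
  rw [e.map_apply, h2]
  rfl

/-- the characteristic polynomial of a base change -/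
theorem charpoly_bcAlong {B : Type} [CommRing B] [IsLocalRing B] (f : A →+* B)
    (hf : IsLocalHom f) (ρ : GaloisRepAdic A) (σ : GalQ) :
    LinearMap.charpoly ((ρ.baseChangeAlong f hf).ρ σ) = (LinearMap.charpoly (ρ.ρ σ)).map f := by
  let _ : Algebra A B := f.toAlgebra
  exact LinearMap.charpoly_baseChange (ρ.ρ σ) B

/-- the characteristic polynomial of the reduction -/
theorem charpoly_resid (ρ : GaloisRepAdic A) (σ : GalQ) :
    LinearMap.charpoly (ρ.residual.ρ σ) = (LinearMap.charpoly (ρ.ρ σ)).map (residue A) :=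
  LinearMap.charpoly_baseChange (ρ.ρ σ) (ResidueField A)

end Rep

section Resid

variable {k : Type} [Field k]

theorem charpoly_of_isEquiv_resid {ρ₁ ρ₂ : ResidualGaloisRep k} (h : ρ₁.IsEquiv ρ₂)
    (σ : GalQ) : LinearMap.charpoly (ρ₁.ρ σ) = LinearMap.charpoly (ρ₂.ρ σ) := by
  obtain ⟨e⟩ := h
  have : Module.Finite k ρ₁.V := inferInstance
  have : Module.Free k ρ₁.V := inferInstance
  have h1 : ρ₂.ρ σ = e.toLinearEquiv.conj (ρ₁.ρ σ) := by
    refine LinearMap.ext fun x => ?_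
    rw [LinearEquiv.conj_apply_apply, e.map_apply, LinearEquiv.apply_symm_apply]
  rw [h1, LinearEquiv.charpoly_conj]

theorem eq_one_of_isEquiv_resid {ρ₁ ρ₂ : ResidualGaloisRep k} (h : ρ₁.IsEquiv ρ₂) (σ : GalQ)
    (h2 : ρ₂.ρ σ = 1) : ρ₁.ρ σ = 1 := by
  obtain ⟨e⟩ := h
  refine LinearMap.ext fun x => e.toLinearEquiv.injective ?_
  rw [e.map_apply, h2]
  rfl

theorem charpoly_bcAlong_resid {k' : Type} [Field k'] (j : k →+* k')
    (ρ : ResidualGaloisRep k) (σ : GalQ) :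
    LinearMap.charpoly ((ρ.baseChangeAlong j).ρ σ) = (LinearMap.charpoly (ρ.ρ σ)).map j := by
  let _ : Algebra k k' := j.toAlgebra
  exact LinearMap.charpoly_baseChange (ρ.ρ σ) k'

theorem bcAlong_resid_eq_one {k' : Type} [Field k'] (j : k →+* k')
    (ρ : ResidualGaloisRep k) (σ : GalQ) (h : ρ.ρ σ = 1) : (ρ.baseChangeAlong j).ρ σ = 1 := by
  let _ : Algebra k k' := j.toAlgebra
  have h1 : (ρ.baseChangeAlong j).ρ σ = (ρ.ρ σ).baseChange k' := rfl
  rw [h1, h, LinearMap.baseChange_one]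
  rfl

end Resid

section Transport

variable {A B : Type} [CommRing A] [IsLocalRing A] [CommRing B] [IsLocalRing B]

/-- `chi` along a transported basis -/
theorem chi_transport (f : A →+* B) (ρ : GaloisRepAdic A) (ρ' : GaloisRepAdic B)
    (b : Module.Basis (Fin 2) A ρ.V) (b' : Module.Basis (Fin 2) B ρ'.V)
    (hb : ∀ (g : GalQ) (i j : Fin 2), b'.repr (ρ'.ρ g (b' i)) j = f (b.repr (ρ.ρ g (b i)) j))
    (i : Fin 2) (g : GalQ) : chi ρ' b' i g = f (chi ρ b i g) :=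
  hb g i i

/-- `DiagOn` along a transported basis -/
theorem diagOn_transport (f : A →+* B) (ρ : GaloisRepAdic A) (ρ' : GaloisRepAdic B)
    (b : Module.Basis (Fin 2) A ρ.V) (b' : Module.Basis (Fin 2) B ρ'.V)
    (hb : ∀ (g : GalQ) (i j : Fin 2), b'.repr (ρ'.ρ g (b' i)) j = f (b.repr (ρ.ρ g (b i)) j))
    (P : ValuationSubring Qb) (h : DiagOn ρ P b) : DiagOn ρ' P b' := by
  intro g hg
  obtain ⟨x, y, hx, hy⟩ := h g hg
  refine ⟨f x, f y, ?_, ?_⟩
  · refine b'.ext_elem fun j => ?_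
    rw [hb, hx, map_smul, map_smul, Module.Basis.repr_self, Module.Basis.repr_self,
      Finsupp.smul_apply, Finsupp.smul_apply, smul_eq_mul, smul_eq_mul, map_mul]
    congr 1
    simp only [Finsupp.single_apply]
    split_ifs
    · exact map_one f
    · exact map_zero f
  · refine b'.ext_elem fun j => ?_
    rw [hb, hy, map_smul, map_smul, Module.Basis.repr_self, Module.Basis.repr_self,
      Finsupp.smul_apply, Finsupp.smul_apply, smul_eq_mul, smul_eq_mul, map_mul]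
    congr 1
    simp only [Finsupp.single_apply]
    split_ifs
    · exact map_one f
    · exact map_zero f

end Transport

end Fermat.Agent.S59.Asm

end
-- ==== END Fermat.Agent.S59.Asm.Plumb2

-- ==== BEGIN Fermat.Agent.S59.Lim.H94_LimA
section

/-!
# S59, package LIM (helper94): **LIM-A**, unconditional

`stmt_LIM_A : Stmt_LIM_A` — the assembly `TWDiv ⟹ TWGeom` (Layer A), with the leaf KERNM
(helper2) plugged in.  The minimal-level module is `MD.toHMod hϖ`, i.e. `M.V = H2.tate ϖ MD.W`.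
-/

set_option autoImplicit false

namespace Fermat.Agent.S59.Lim

/-- **LIM-A**. -/
theorem stmt_LIM_A : Stmt_LIM_A := stmt_LIM_A_of H2.stmt_KERNM

end Fermat.Agent.S59.Lim

end
-- ==== END Fermat.Agent.S59.Lim.H94_LimA
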