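-- GENERATED (merged mirror, NOTES/tools/trim/merge3_helper67.py): 5 modules of the originals, bodies verbatim.
import Mathlib
import Fermat.Agent.Zm.S48_L16_000
import Fermat.Agent.Zm.S43_L01_001
import Fermat.Agent.Zm.S43_L10_000
import Fermat.Agent.Zm.S43_L06_002
import Fermat.Agent.Zm.S33_L02_003
import Fermat.Agent.Zm.S43_L03_002
import Fermat.Agent.Zm.S36_L03_000
import Fermat.Agent.Zm.S56_L03_005
import Fermat.Agent.Zm.S43_L10_001
import Fermat.Agent.Zm.S43_L05_002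
import Fermat.Agent.Zm.S43_L04_002
import Fermat.Agent.Zm.S43_L02_003
import Fermat.Agent.Lib.EllFinite.Main

-- ==== BEGIN Fermat.Agent.NEB.EIG.H98_Asm
section

/-!
# NEB / EIG, leaf EIG-ASM (helper98): the hypotheses of `H39.stmt_EIG_A` for `J_H[p^∞]`

`A := AH M c H p = J_H[p^∞]` with the operators `Tz` (`T_ℓ^H`) and `diaZ` (diamonds) of
`NEB/Geom/DefsC.lean`.

* `monoSys ι : H39.MonoSys p M c (AH M c H p)` : the system of characters of EIG-MONO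
  (`stmt_MonoH`), with `(monoSys ι).h = Nat.card H`;
* `monoSys_Tz` : `m k (Tz ℓ x) = TDg (m k x)`;
* `monoSys_diaZ` : `m k (diaZ d x) = Dg g (m k x)` for `g ∈ Γ₀(M)` with `a_g ≡ d`;
* `commute_Tz_diaZ` : `Tz ℓ` commutes with `diaZ d`;  `commute_Uz_diaZ`;
* `diaZ_eq_one`, `diaZ_pow_eq_one` : `diaZ d ^ m = 1` if `d ^ m ∈ ±H`;
* `monoSys_restrict` : restriction of a `MonoSys` to a subgroup;
* `stmt_EIG_ASM` : for `D ≤ J_H[p^∞]` a `p`-divisible subgroup stable under `Tz`, `diaZ`,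
  the ring homomorphism `eta : heckeAlgebra (N c²) 2 S → End_ℤ D` with
  `eta (T_ℓ) = (T_ℓ^H ⟨ℓ⟩^j)|_D`.
-/

set_option autoImplicit false
set_option linter.unusedSectionVars false
set_option linter.style.haveILetI false

noncomputable section

namespace Fermat.Agent.NEB.EIG.H98

open AlgebraicCurve ModularCurve CongruenceSubgroup Matrix.SpecialLinearGroup
open Fermat.Agent.NEB Fermat.Agent.NEB.JH Fermat.Agent.NEB.EIG.H39 Fermat.Agent.GTor
  Fermat.Agent.NEB.Geom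
open Fermat.Agent.Betti
open scoped MatrixGroups

section Sys

variable (M c : ℕ) [NeZero M] (H : Subgroup (ZMod c)ˣ) (h2 : 2 ≤ c) (hc : c ∣ M)
  (p : ℕ) [Fact p.Prime] (ι : Kbar →+* ℂ)

/-- The chosen monodromy maps of `stmt_MonoH`. -/
def monoK (k : ℕ) : Pic0.torsion Kbar ↥(FHbar M c H) (p ^ k) →+
    (Additive (Gam1 M c) →+ ZMod (p ^ k)) :=
  Classical.choose (stmt_MonoH (M := M) (c := c) (H := H) ι h2 hc (NeZero.ne M)
    (p := p) (Fact.out : p.Prime).ne_zero) k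

theorem monoK_spec :
    (∀ (k : ℕ) (x : Pic0.torsion Kbar ↥(FHbar M c H) (p ^ k)),
      monoK M c H h2 hc p ι k x = 0 → Nat.card H • (x : JH M c H) = 0) ∧
    (∀ (k : ℕ) (x : Pic0.torsion Kbar ↥(FHbar M c H) (p ^ k)),
      monoK M c H h2 hc p ι k x ∈ homPE (Gam1 M c) (ZMod (p ^ k))) ∧
    (∀ (hc : c ∣ M) (ℓ : ℕ) (hℓ : ℓ.Prime) (hℓM : ¬ ℓ ∣ M),
      haveI : NeZero ℓ := ⟨hℓ.ne_zero⟩
      ∀ (hβ : BetaOK M c ℓ H) (k : ℕ) (x y : Pic0.torsion Kbar ↥(FHbar M c H) (p ^ k)),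
        (y : JH M c H) = TH hβ (x : JH M c H) →
          monoK M c H h2 hc p ι k y = TDadd M c hc hℓ hℓM (monoK M c H h2 hc p ι k x)) ∧
    (∀ (hc : c ∣ M) (dd : DiamondData M c H) (d : (ZMod c)ˣ) (g : SL(2, ℤ))
      (hg : (M : ℤ) ∣ g 1 0), ((g 0 0 : ℤ) : ZMod c) = (d : ZMod c) →
      ∀ (k : ℕ) (x y : Pic0.torsion Kbar ↥(FHbar M c H) (p ^ k)),
        (y : JH M c H) = diamond dd d (x : JH M c H) →
          monoK M c H h2 hc p ι k y = Dadd hc g hg (monoK M c H h2 hc p ι k x)) ∧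
    (∀ (k : ℕ) (x : Pic0.torsion Kbar ↥(FHbar M c H) (p ^ (k + 1)))
      (y : Pic0.torsion Kbar ↥(FHbar M c H) (p ^ k)),
        (y : JH M c H) = p • (x : JH M c H) →
          monoK M c H h2 hc p ι k y = redChar p k (monoK M c H h2 hc p ι (k + 1) x)) :=
  (Classical.choose_spec (stmt_MonoH (M := M) (c := c) (H := H) ι h2 hc (NeZero.ne M)
    (p := p) (Fact.out : p.Prime).ne_zero)).2

variable {M c H p}

theorem coe_smul_eq_zero {k : ℕ} {x : AH M c H p} (h : p ^ k • x = 0) :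
    p ^ k • (x : JH M c H) = 0 := by
  have := congrArg (fun z : AH M c H p => (z : JH M c H)) h
  simpa using this

theorem smul_eq_zero_of_coe {k : ℕ} {x : AH M c H p} (h : p ^ k • (x : JH M c H) = 0) :
    p ^ k • x = 0 := by
  apply Subtype.ext
  simpa using h

/-- A `p^k`-torsion element of `J_H[p^∞]` as an element of `J_H[p^k]`. -/
def torOf (k : ℕ) (x : AH M c H p) (h : p ^ k • x = 0) :
    Pic0.torsion Kbar ↥(FHbar M c H) (p ^ k) :=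
  ⟨(x : JH M c H), Pic0.mem_torsion.mpr (by
    rw [natCast_zsmul]
    exact coe_smul_eq_zero h)⟩

@[simp] theorem coe_torOf (k : ℕ) (x : AH M c H p) (h : p ^ k • x = 0) :
    ((torOf k x h : Pic0.torsion Kbar ↥(FHbar M c H) (p ^ k)) : JH M c H) = (x : JH M c H) := rfl

variable (M c H p)

open Classical in
/-- The character of a `p^k`-torsion element (`0` on the others). -/
def mAsm (k : ℕ) (x : AH M c H p) : Additive (Gam1 M c) →+ ZMod (p ^ k) :=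
  if h : p ^ k • x = 0 then monoK M c H h2 hc p ι k (torOf k x h) else 0

variable {M c H p}

theorem mAsm_eq {k : ℕ} {x : AH M c H p} (h : p ^ k • x = 0) :
    mAsm M c H h2 hc p ι k x = monoK M c H h2 hc p ι k (torOf k x h) := by
  rw [mAsm, dif_pos h]

theorem mAsm_eq_of {k : ℕ} {x : AH M c H p} (h : p ^ k • x = 0)
    (y : Pic0.torsion Kbar ↥(FHbar M c H) (p ^ k)) (hy : (y : JH M c H) = (x : JH M c H)) :
    mAsm M c H h2 hc p ι k x = monoK M c H h2 hc p ι k y := by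
  rw [mAsm_eq h2 hc ι h]
  congr 1
  exact Subtype.ext hy.symm

theorem finite_H' {c : ℕ} (H : Subgroup (ZMod c)ˣ) (hc2 : 2 ≤ c) : Finite H :=
  haveI : NeZero c := ⟨Nat.pos_iff_ne_zero.mp (lt_of_lt_of_le Nat.zero_lt_two hc2)⟩
  inferInstance

variable (M c H p)

/-- **EIG-ASM (1)**: the system of characters of `J_H[p^∞]`. -/
def monoSys : MonoSys p M c (AH M c H p) where
  m := mAsm M c H h2 hc p ι
  m_add := fun k x y hx hy => by
    have hxy : p ^ k • (x + y) = 0 := by rw [smul_add, hx, hy, add_zero]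
    rw [mAsm_eq h2 hc ι hx, mAsm_eq h2 hc ι hy, ← map_add]
    exact mAsm_eq_of h2 hc ι hxy _ rfl
  h := Nat.card H
  h_ne := by
    haveI := finite_H' H h2
    exact Nat.card_pos.ne'
  m_ker := fun k x hx h0 => by
    rw [mAsm_eq h2 hc ι hx] at h0
    have := (monoK_spec M c H h2 hc p ι).1 k _ h0
    apply Subtype.ext
    simpa using this
  m_par := fun k x hx => by
    rw [mAsm_eq h2 hc ι hx]
    exact ((monoK_spec M c H h2 hc p ι).2.1 k _).1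
  m_red := fun k x hx γ => by
    have hpx : p ^ k • (p • x) = 0 := by
      rw [← mul_smul, ← pow_succ]
      exact hx
    rw [mAsm_eq h2 hc ι hx, mAsm_eq h2 hc ι hpx,
      (monoK_spec M c H h2 hc p ι).2.2.2.2 k (torOf (k + 1) x hx) (torOf k (p • x) hpx) (by simp)]
    rfl

@[simp] theorem monoSys_h : (monoSys M c H h2 hc p ι).h = Nat.card H := rfl

@[simp] theorem monoSys_m (k : ℕ) (x : AH M c H p) :
    (monoSys M c H h2 hc p ι).m k x = mAsm M c H h2 hc p ι k x := rfl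

/-- **EIG-ASM (2)**: `m k (T_ℓ^H x) = T_ℓ^D (m k x)`. -/
theorem monoSys_Tz (ℓ : ℕ) (hℓ : ℓ.Prime) (hℓM : ¬ ℓ ∣ M) (k : ℕ) (x : AH M c H p)
    (hx : p ^ k • x = 0) :
    (monoSys M c H h2 hc p ι).m k (Tz M c H h2 hc p ℓ x)
      = TDg M c hc hℓ hℓM ((monoSys M c H h2 hc p ι).m k x) := by
  haveI : NeZero ℓ := ⟨hℓ.ne_zero⟩
  have hTx : p ^ k • (Tz M c H h2 hc p ℓ x) = 0 := by rw [← map_nsmul, hx, map_zero]
  rw [monoSys_m, monoSys_m, mAsm_eq h2 hc ι hx, mAsm_eq h2 hc ι hTx]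
  exact (monoK_spec M c H h2 hc p ι).2.2.1 hc ℓ hℓ hℓM (heckeData M c ℓ H h2 hc).hβ k
    (torOf k x hx) (torOf k _ hTx) (by
      rw [coe_torOf, coe_torOf]
      exact Tz_apply M c H h2 hc p ℓ x)

/-- **EIG-ASM (3)**: `m k (⟨d⟩ x) = (m k x) ∘ conj_g` for `g ∈ Γ₀(M)` with `a_g ≡ d`. -/
theorem monoSys_diaZ (g : SL(2, ℤ)) (hg : ((M : ℕ) : ℤ) ∣ g 1 0) (d : (ZMod c)ˣ)
    (hd : (d : ZMod c) = ((g 0 0 : ℤ) : ZMod c)) (k : ℕ) (x : AH M c H p)
    (hx : p ^ k • x = 0) :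
    (monoSys M c H h2 hc p ι).m k (diaZ M c H h2 hc p d x)
      = Dg hc g hg ((monoSys M c H h2 hc p ι).m k x) := by
  have hdx : p ^ k • (diaZ M c H h2 hc p d x) = 0 := by rw [← map_nsmul, hx, map_zero]
  rw [monoSys_m, monoSys_m, mAsm_eq h2 hc ι hx, mAsm_eq h2 hc ι hdx]
  exact (monoK_spec M c H h2 hc p ι).2.2.2.1 hc (diamondData M c H h2 hc) d g hg hd.symm k
    (torOf k x hx) (torOf k _ hdx) rfl

end Sys

/-! ## Commutation and the order of the diamond operators -/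

section Comm

variable (M c : ℕ) [NeZero M] (H : Subgroup (ZMod c)ˣ) (h2 : 2 ≤ c) (hc : c ∣ M) (p : ℕ)

/-- **EIG-ASM (4)**: `T_ℓ^H` commutes with the diamond operators. -/
theorem commute_Tz_diaZ (ℓ : ℕ) (d : (ZMod c)ˣ) :
    Commute (Tz M c H h2 hc p ℓ) (diaZ M c H h2 hc p d) := by
  by_cases h0 : ℓ = 0
  · subst h0
    have : Tz M c H h2 hc p 0 = 0 := by simp [Tz]
    rw [this]
    exact Commute.zero_left _
  haveI : NeZero ℓ := ⟨h0⟩
  refine LinearMap.ext fun x => Subtype.ext ?_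
  show ((Tz M c H h2 hc p ℓ (diaZ M c H h2 hc p d x) : AH M c H p) : JH M c H)
    = ((diaZ M c H h2 hc p d (Tz M c H h2 hc p ℓ x) : AH M c H p) : JH M c H)
  rw [Tz_apply, diaZ_apply, diaZ_apply, Tz_apply]
  exact TH_diamond (heckeData M c ℓ H h2 hc) d (x : JH M c H)

/-- `U_q^H` commutes with the diamond operators. -/
theorem commute_Uz_diaZ (q : ℕ) (d : (ZMod c)ˣ) :
    Commute (Uz M c H h2 hc p q) (diaZ M c H h2 hc p d) := by
  by_cases h0 : q = 0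
  · subst h0
    have : Uz M c H h2 hc p 0 = 0 := by simp [Uz]
    rw [this]
    exact Commute.zero_left _
  haveI : NeZero q := ⟨h0⟩
  refine LinearMap.ext fun x => Subtype.ext ?_
  show ((Uz M c H h2 hc p q (diaZ M c H h2 hc p d x) : AH M c H p) : JH M c H)
    = ((diaZ M c H h2 hc p d (Uz M c H h2 hc p q x) : AH M c H p) : JH M c H)
  rw [Uz_apply, diaZ_apply, diaZ_apply, Uz_apply]
  exact UH_diamond (heckeData M c q H h2 hc) d (x : JH M c H)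

/-- the diamond operators commute with each other -/
theorem commute_diaZ (d d' : (ZMod c)ˣ) :
    Commute (diaZ M c H h2 hc p d) (diaZ M c H h2 hc p d') :=
  (Commute.all d d').map (diaZ M c H h2 hc p)

/-- `⟨d⟩ = 1` for `d ∈ ±H`. -/
theorem diaZ_eq_one {d : (ZMod c)ˣ} (hd : d ∈ H ∨ -d ∈ H) : diaZ M c H h2 hc p d = 1 := by
  refine LinearMap.ext fun x => Subtype.ext ?_
  show ((diaZ M c H h2 hc p d x : AH M c H p) : JH M c H) = (x : JH M c H)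
  rw [diaZ_apply, ((diamondData M c H h2 hc).ker d).mpr hd, one_smul]

/-- **EIG-ASM (5)**: `⟨d⟩^m = 1` if `d^m ∈ ±H`. -/
theorem diaZ_pow_eq_one {m : ℕ} (hm : ∀ d : (ZMod c)ˣ, d ^ m ∈ H ∨ -(d ^ m) ∈ H)
    (d : (ZMod c)ˣ) : diaZ M c H h2 hc p d ^ m = 1 := by
  rw [← map_pow]
  exact diaZ_eq_one M c H h2 hc p (hm d)

end Comm

/-! ## The bundle, and the ring homomorphism in the divisible case -/

section Bundle

/-- **EIG-ASM**: the hypotheses of `H39.stmt_EIG_A` hold for `A = J_H[p^∞]`, `TA = Tz`,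
`diaA = diaZ`, at the level `M = N c`. -/
theorem stmt_EIG_ASM (p : ℕ) [Fact p.Prime] (N c : ℕ) [NeZero (N * c)]
    (H : Subgroup (ZMod c)ˣ) (h2 : 2 ≤ c) (ι : Kbar →+* ℂ) (j : ℕ)
    (hj : ∀ d : (ZMod c)ˣ, d ^ (2 * j + 1) ∈ H ∨ -(d ^ (2 * j + 1)) ∈ H) :
    ∃ ms : MonoSys p (N * c) c (AH (N * c) c H p), ms.h = Nat.card H ∧
      (∀ (ℓ : ℕ) (hℓ : ℓ.Prime) (hℓM : ¬ ℓ ∣ N * c) (k : ℕ) (x : AH (N * c) c H p),
        p ^ k • x = 0 →
        ms.m k (Tz (N * c) c H h2 (dvd_mul_left _ _) p ℓ x)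
          = TDg (N * c) c (dvd_mul_left _ _) hℓ hℓM (ms.m k x)) ∧
      (∀ (g : SL(2, ℤ)) (hg : ((N * c : ℕ) : ℤ) ∣ g 1 0) (d : (ZMod c)ˣ),
        (d : ZMod c) = ((g 0 0 : ℤ) : ZMod c) → ∀ (k : ℕ) (x : AH (N * c) c H p),
        p ^ k • x = 0 →
        ms.m k (diaZ (N * c) c H h2 (dvd_mul_left _ _) p d x)
          = Dg (dvd_mul_left _ _) g hg (ms.m k x)) ∧
      (∀ (ℓ : ℕ), ℓ.Prime → ¬ ℓ ∣ N * c → ∀ d,
        Commute (Tz (N * c) c H h2 (dvd_mul_left _ _) p ℓ)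
          (diaZ (N * c) c H h2 (dvd_mul_left _ _) p d)) ∧
      (∀ d, diaZ (N * c) c H h2 (dvd_mul_left _ _) p d ^ (2 * j + 1) = 1) :=
  ⟨monoSys (N * c) c H h2 (dvd_mul_left _ _) p ι, rfl,
    fun ℓ hℓ hℓM k x hx => monoSys_Tz (N * c) c H h2 (dvd_mul_left _ _) p ι ℓ hℓ hℓM k x hx,
    fun g hg d hd k x hx =>
      monoSys_diaZ (N * c) c H h2 (dvd_mul_left _ _) p ι g hg d hd k x hx,
    fun ℓ _ _ d => commute_Tz_diaZ (N * c) c H h2 (dvd_mul_left _ _) p ℓ d,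
    fun d => diaZ_pow_eq_one (N * c) c H h2 (dvd_mul_left _ _) p hj d⟩

/-- **EIG-A for `J_H[p^∞]`**, if `J_H[p^∞]` is `p`-divisible: the Hecke algebra of level `N c²`
acts through the twisted operators `TzTw j ℓ = T_ℓ^H ⟨ℓ⟩^j`. -/
theorem exists_eta_of_div (p : ℕ) [Fact p.Prime] (N : ℕ) (hN : N ≠ 0) (qs : List ℕ)
    (hnd : qs.Nodup) (hpr : ∀ q ∈ qs, q.Prime) (hqN : ∀ q ∈ qs, ¬ q ∣ N)
    (c N' : ℕ) (hc : c = qs.prod) (hN' : N' = N * c * c) [NeZero N'] [NeZero (N * c)]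
    (S : Set ℕ) (hS : ∀ q : ℕ, q.Prime → q ∣ N' → q ∈ S)
    (H : Subgroup (ZMod c)ˣ) (h2 : 2 ≤ c) (j : ℕ)
    (hj : ∀ d : (ZMod c)ˣ, d ^ (2 * j + 1) ∈ H ∨ -(d ^ (2 * j + 1)) ∈ H)
    (hdiv : ∀ x : AH (N * c) c H p, ∃ y : AH (N * c) c H p, p • y = x) :
    ∃ eta : CuspForm.heckeAlgebra N' 2 S →+* Module.End ℤ (AH (N * c) c H p),
      ∀ (ℓ : ℕ) (hℓ : ℓ.Prime) (hℓN : ¬ ℓ ∣ N') (hℓS : ℓ ∉ S),
        eta (CuspForm.heckeAlgebra.T hℓ hℓN hℓS)
          = TzTw (N * c) c H h2 (dvd_mul_left _ _) p j ℓ := by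
  obtain ⟨ms, -, h1, h2', h3, h4⟩ := stmt_EIG_ASM p N c H h2 Fermat.Agent.NEB.H70.iotaC j hj
  exact stmt_EIG_A p N hN qs hnd hpr hqN c N' hc hN' S hS (AH (N * c) c H p) hdiv
    (fun x => isPTors_coe x) ms (Tz (N * c) c H h2 (dvd_mul_left _ _) p) h1
    (diaZ (N * c) c H h2 (dvd_mul_left _ _) p) h2' h3 j h4

/-- In the Taylor–Wiles setting (`H` = the `p^n`-th powers, `p` odd, `j = (p^n - 1)/2`) the
exponent condition holds. -/
theorem twH_pow_mem (p n : ℕ) (hp : Odd p) {r : ℕ} (qv : Fin r → ℕ)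
    (d : (ZMod (twC qv))ˣ) :
    d ^ (2 * jTw p n + 1) ∈ twH p n qv ∨ -(d ^ (2 * jTw p n + 1)) ∈ twH p n qv := by
  left
  have hodd : Odd (p ^ n) := hp.pow
  have h1 : 2 * jTw p n + 1 = p ^ n := by
    obtain ⟨m, hm⟩ := hodd
    unfold jTw
    rw [hm]
    omega
  rw [h1]
  exact ⟨d, rfl⟩

end Bundle

end Fermat.Agent.NEB.EIG.H98

end
end
-- ==== END Fermat.Agent.NEB.EIG.H98_Asm

-- ==== BEGIN Fermat.Agent.NEB.Geom.DefsL
section

/-!
# Item 72 (LG-NEB), package NEB-GEOM (helper84): the concrete leaves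

Plan: `NOTES/plan/NEB_GEOM.md`.  Objects: `NEB/Geom/DefsC.lean`.  Statements only; no `sorry`.

* `Stmt_FIX'`       : FIX in the form used by the assembly (hypothesis `InK1 (t x)`).
* `Stmt_Z_COMMtw`   : the operators `opsTw` commute pairwise and with `galZ` (from `H29_ZComm`).
* `Stmt_TOWER_INST` : `stmt_DIV_tower`, `stmt_HSTEP_tower`, `stmt_INV_JH'`, `piUp_piDown` for
  `H = twH p n qv` and generators `δ_j` of `Δ`, on `AH = J_H[p^∞]`.
* `Stmt_W_NONEIS`   : a good prime `ℓ₀` with `θ(T_ℓ₀) ≠ ℓ₀ + 1` (Chebotarev + irreducibility).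
* `Stmt_W_MD`       : level `N`: the Hecke ring homomorphism on `J₀(N)[p^∞]`, Eichler–Shimura,
  unramifiedness, and nontriviality of the `θ`-part.
-/

set_option autoImplicit false
set_option linter.unusedSectionVars false

noncomputable section

open ModularCurve AlgebraicCurve IsLocalRing TensorProduct Polynomial

namespace Fermat.Agent.NEB.Geom

open Fermat.Agent.NEB Fermat.Agent.NEB.JH Fermat.Agent.S59.Asm Fermat.Agent.S59.Lim
  Fermat.Agent.S59.Lim.H2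

/-- **FIX'** (from INV', CL-RES, CL-TI): at a place over a prime `r ∤ M p`, for a `Δ`-fixed
`p`-power torsion class `x`: if `t x` lies in the kernel of reduction then `t x = 0`,
`t = T_ℓ^H - (ℓ + 1)`. -/
def Stmt_FIX' (M c : ℕ) (H : Subgroup (ZMod c)ˣ) (p : ℕ) : Prop :=
  2 ≤ c → c ∣ M → M ≠ 0 →
  ∀ (n : ℕ), (∀ d : (ZMod c)ˣ, d ^ (p ^ n) ∈ H ∨ -(d ^ (p ^ n)) ∈ H) →
  (∀ w : Place Kbar ↥(FHbar M c H),
      ∃ x : ↥(modularFunctionFieldBar M), w.ord (inclBar M c H x) = 1) →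
  ∀ (ℓ : ℕ) [NeZero M] [NeZero ℓ], ℓ.Prime → ¬ ℓ ∣ M → ∀ hd : HeckeData M c ℓ H,
  ∀ (P : ValuationSubring Kbar) (r : ℕ), r.Prime → ¬ r ∣ M → r ≠ p → P.LiesOverPrime r →
  ∀ x : JH M c H, IsPTors p x → (∀ d, hd.dd.ρ d • x = x) →
    InK1 P p (FHbar M c H) (TH hd.hβ x - (ℓ + 1) • x) → TH hd.hβ x - (ℓ + 1) • x = 0

section TW

variable (N : ℕ) (S : Finset ℕ) (p n : ℕ) {r : ℕ} (qv : Fin r → ℕ)

/-- The standing hypotheses on a Taylor–Wiles family (without the Galois part). -/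
structure TwHyp : Prop where
  hp : p.Prime
  hp2 : p ≠ 2
  hN : N ≠ 0
  hr : 0 < r
  inj : Function.Injective qv
  prime : ∀ j, (qv j).Prime
  cong : ∀ j, p ^ (n + 1) ∣ qv j - 1
  notS : ∀ j, qv j ∉ S
  hNS : ∀ q : ℕ, q.Prime → q ∣ N → q ∈ S
  hpS : p ∈ S

variable [NeZero (N * twC qv)] (h2 : 2 ≤ twC qv)

/-- **Z-COMMtw**: the operators `T'_ℓ`, `U_{q_j}`, `⟨u⟩` on `J_H[p^∞]` commute pairwise and with the
Galois action; the same at level `Γ₀(N c)`. -/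
def Stmt_Z_COMMtw : Prop :=
  TwHyp N S p n qv →
  (∀ i j, Commute (opsTw N S p n qv h2 i) (opsTw N S p n qv h2 j)) ∧
  (∀ i σ, Commute (opsTw N S p n qv h2 i) (galZ (N * twC qv) (twC qv) (twH p n qv) p σ)) ∧
  (∀ i j, Commute (opsTw0 N S p qv i) (opsTw0 N S p qv j)) ∧
  (∀ i σ, Commute (opsTw0 N S p qv i) (galZ0 (N * twC qv) p σ)) ∧
  (∀ i, upZ (N * twC qv) (twC qv) (twH p n qv) p ∘ₗ opsTw0 N S p qv i
      = opsTw N S p n qv h2 i ∘ₗ upZ (N * twC qv) (twC qv) (twH p n qv) p) ∧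
  (∀ i, downZ (N * twC qv) (twC qv) (twH p n qv) p ∘ₗ opsTw N S p n qv h2 i
      = opsTw0 N S p qv i ∘ₗ downZ (N * twC qv) (twC qv) (twH p n qv) p) ∧
  (∀ σ, upZ (N * twC qv) (twC qv) (twH p n qv) p ∘ₗ galZ0 (N * twC qv) p σ
      = galZ (N * twC qv) (twC qv) (twH p n qv) p σ ∘ₗ upZ (N * twC qv) (twC qv) (twH p n qv) p)

/-- The Eisenstein operator `T_ℓ₀^H - (ℓ₀ + 1)` on `J_H[p^∞]`. -/
def tEis (ℓ₀ : ℕ) : Module.End ℤ (AH (N * twC qv) (twC qv) (twH p n qv) p) :=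
  Tz (N * twC qv) (twC qv) (twH p n qv) h2 (dvd_mul_left _ _) p ℓ₀
    - ((ℓ₀ + 1 : ℕ) : ℤ) • (1 : Module.End ℤ (AH (N * twC qv) (twC qv) (twH p n qv) p))

/-- Generators of `Δ = (ℤ/c)ˣ / H`: `δ_j ≡ 1 mod q_i` (`i ≠ j`) and `δ_j` has order exactly `p^n`
modulo `H`. -/
def IsDeltaGen (δ : Fin r → (ZMod (twC qv))ˣ) : Prop :=
  (∀ i j, i ≠ j → ∀ h : qv i ∣ twC qv, ZMod.unitsMap h (δ j) = 1) ∧
  (∀ j e, δ j ^ e ∈ twH p n qv → p ^ n ∣ e)

/-- **TOWER-INST**: the tower theorems of helper29 for `H = twH p n qv` on `J_H[p^∞]`: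
DIV (`t^N A ⊆ p A`), HSTEP, INV, and `π^* π_* = ∏_j ∑_e ⟨δ_j⟩^e`. -/
def Stmt_TOWER_INST : Prop :=
  TwHyp N S p n qv → ∀ δ : Fin r → (ZMod (twC qv))ˣ, IsDeltaGen p n qv δ →
  ∀ ℓ₀ : ℕ, ℓ₀.Prime → ¬ ℓ₀ ∣ N * twC qv →
  (∃ Nn : ℕ, ∀ x : AH (N * twC qv) (twC qv) (twH p n qv) p,
    ∃ y : AH (N * twC qv) (twC qv) (twH p n qv) p, (tEis N p n qv h2 ℓ₀ ^ Nn) x = p • y) ∧
  (∀ (j : Fin r) (v : AH (N * twC qv) (twC qv) (twH p n qv) p), p • v = 0 →
    (∀ i, i ≤ j → diaZ (N * twC qv) (twC qv) (twH p n qv) h2 (dvd_mul_left _ _) p (δ i) v = v) →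
    ∃ (w : AH (N * twC qv) (twC qv) (twH p n qv) p) (m : ℕ), p • w = 0 ∧
      (∀ i, i < j →
        diaZ (N * twC qv) (twC qv) (twH p n qv) h2 (dvd_mul_left _ _) p (δ i) w = w) ∧
      ∑ e ∈ Finset.range (p ^ n),
        (diaZ (N * twC qv) (twC qv) (twH p n qv) h2 (dvd_mul_left _ _) p (δ j) ^ e) w
          = (tEis N p n qv h2 ℓ₀ ^ m) v) ∧
  (∀ y : AH (N * twC qv) (twC qv) (twH p n qv) p, p • y = 0 →
    (∀ u, diaZ (N * twC qv) (twC qv) (twH p n qv) h2 (dvd_mul_left _ _) p u y = y) →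
    ∃ (y₀ : A0 (N * twC qv) p) (m : ℕ), p • y₀ = 0 ∧
      upZ (N * twC qv) (twC qv) (twH p n qv) p y₀ = (tEis N p n qv h2 ℓ₀ ^ m) y) ∧
  (upZ (N * twC qv) (twC qv) (twH p n qv) p ∘ₗ downZ (N * twC qv) (twC qv) (twH p n qv) p
    = Fermat.Agent.S59.TWH.H90.nmTot (p ^ n)
        (fun j => diaZ (N * twC qv) (twC qv) (twH p n qv) h2 (dvd_mul_left _ _) p (δ j))) ∧
  (∀ u, diaZ (N * twC qv) (twC qv) (twH p n qv) h2 (dvd_mul_left _ _) p u ^ (p ^ n) = 1) ∧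
  (∀ y₀ : A0 (N * twC qv) p, upZ (N * twC qv) (twC qv) (twH p n qv) p y₀ = 0 →
    Tz0 (N * twC qv) p ℓ₀ y₀ - ((ℓ₀ + 1 : ℕ) : ℤ) • y₀ = 0)

end TW

/-- **W-NONEIS**: for an absolutely irreducible `ρbar` with Frobenius characteristic polynomials
`X² - θ(T_ℓ) X + ℓ`, and any finite set `T` of primes, there is a prime `ℓ₀ ∉ T`, `ℓ₀ ∤ N`,
`ℓ₀ ∉ S` with `θ(T_ℓ₀) ≠ ℓ₀ + 1`.  (Chebotarev `S48.Cheb.H78.stmt_Cheb` + Brauer–Nesbitt in
dimension 2: otherwise `tr ρbar = 1 + χ_p`, `det ρbar = χ_p`, so `ρbar` is reducible.) -/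
def Stmt_W_NONEIS : Prop :=
  ∀ (k : Type) [Field k] [Finite k] (p : ℕ) [Fact p.Prime], p ≠ 2 → (p : k) = 0 →
    ∀ (ρbar : ResidualGaloisRep k), ρbar.IsAbsolutelyIrreducible →
    ∀ (N : ℕ) [NeZero N] (S : Finset ℕ), p ∈ S →
    ∀ (θ : CuspForm.heckeAlgebra N 2 (↑S : Set ℕ) →+* k),
    Fermat.Agent.S59.Datum.FrobHyp ρbar N S θ →
    ∀ T : Finset ℕ, ∃ (ℓ₀ : ℕ) (hℓ : ℓ₀.Prime) (hℓN : ¬ ℓ₀ ∣ N) (hℓS : ℓ₀ ∉ (↑S : Set ℕ)),
      ℓ₀ ∉ T ∧ θ (CuspForm.heckeAlgebra.T hℓ hℓN hℓS) ≠ ((ℓ₀ : k) + 1)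

/-- **W-MD** (level `N`): the Hecke ring acts on `J₀(N)[p^∞]` (a `p`-divisible group with finite
`p`-torsion), commuting with Galois; Eichler–Shimura holds exactly; inertia at `q ∤ N p` acts
trivially; every point is fixed by an open subgroup; and the `θ`-part of `𝒪 ⊗ J₀(N)[p^∞]` is
nontrivial for every `θ`. -/
def Stmt_W_MD : Prop :=
  ∀ (p : ℕ) [Fact p.Prime] (N : ℕ) [NeZero N] (S : Finset ℕ),
    (∀ q : ℕ, q.Prime → q ∣ N → q ∈ S) →
    ∃ ηC : CuspForm.heckeAlgebra N 2 (↑S : Set ℕ) →+* Module.End ℤ (A0 N p),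
      (∀ (ℓ : ℕ) (hℓ : ℓ.Prime) (hℓN : ¬ ℓ ∣ N) (hℓS : ℓ ∉ (↑S : Set ℕ)),
        ηC (CuspForm.heckeAlgebra.T hℓ hℓN hℓS) = Tz0 N p ℓ) ∧
      (∀ t σ, Commute (ηC t) (galZ0 N p σ)) ∧
      (∀ x : A0 N p, ∃ y : A0 N p, p • y = x) ∧
      Finite {x : A0 N p // p • x = 0} ∧
      (∀ (ℓ : ℕ), ℓ.Prime → ¬ ℓ ∣ N → ℓ ≠ p →
        ∀ P : ValuationSubring Kbar, P.LiesOverPrime ℓ → ∀ σ : _root_.Fermat.Agent.NEB.Geom.GalQ, P.IsFrobeniusAt σ ℓ →
          galZ0 N p σ * galZ0 N p σ - Tz0 N p ℓ * galZ0 N p σ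
            + (ℓ : ℤ) • (1 : Module.End ℤ (A0 N p)) = 0) ∧
      (∀ (q : ℕ), q.Prime → ¬ q ∣ N → q ≠ p →
        ∀ P : ValuationSubring Kbar, P.LiesOverPrime q → ∀ σ ∈ P.inertiaSubgroupIn ℚ,
          galZ0 N p σ = 1) ∧
      (∀ x : A0 N p, ∃ L : IntermediateField ℚ Kbar, FiniteDimensional ℚ L ∧
        ∀ σ : _root_.Fermat.Agent.NEB.Geom.GalQ, (∀ y ∈ L, σ y = y) → galZ0 N p σ x = x) ∧
      (∀ (𝒪 : Type) [CommRing 𝒪] [IsDomain 𝒪] [IsDiscreteValuationRing 𝒪]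
        [Finite (ResidueField 𝒪)] [CharZero 𝒪], (p : 𝒪) ∈ maximalIdeal 𝒪 →
        ∀ θ : CuspForm.heckeAlgebra N 2 (↑S : Set ℕ) →+* ResidueField 𝒪,
          Nontrivial ↥(thetaPart ηC θ))

end Fermat.Agent.NEB.Geom

end
end
-- ==== END Fermat.Agent.NEB.Geom.DefsL

-- ==== BEGIN Fermat.Agent.NEB.Geom.H9_GenK
section

set_option autoImplicit false
set_option linter.unusedSectionVars false
set_option linter.style.haveILetI false
set_option linter.unusedVariables false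
set_option synthInstance.maxHeartbeats 400000
set_option maxHeartbeats 1000000

noncomputable section

open ModularCurve AlgebraicCurve

namespace Fermat.Agent.NEB.Geom.H9

open Fermat.Agent.NEB Fermat.Agent.NEB.JH Fermat.Agent.NEB.Geom

section Gen

variable (P : ValuationSubring Kbar) (M c : ℕ) [NeZero M] (H : Subgroup (ZMod c)ˣ)
  (h2 : 2 ≤ c) (hc : c ∣ M) (p : ℕ)

/-- The kernel of reduction at `P` inside `J_H[p^∞]`. -/
def KUp : AddSubgroup (AH M c H p) :=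
  (Fermat.Agent.NEB.Geom.H70.KU P p (diamondData M c H h2 hc)).comap
    (ptors p (JH M c H)).subtype

variable {P M c H h2 hc p}

theorem mem_KUp {x : AH M c H p} :
    x ∈ KUp P M c H h2 hc p ↔
      Fermat.Agent.NEB.Geom.H70.InKU P p (diamondData M c H h2 hc) (x : JH M c H) := Iff.rfl

theorem KUp_dia {x : AH M c H p} (hx : x ∈ KUp P M c H h2 hc p) (u : (ZMod c)ˣ) :
    diaZ M c H h2 hc p u x ∈ KUp P M c H h2 hc p := by
  rw [mem_KUp] at hx ⊢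
  exact hx.diamond u

theorem KUp_Tz {ℓ : ℕ} (hℓ : ℓ.Prime) (hℓM : ¬ ℓ ∣ M) {x : AH M c H p}
    (hx : x ∈ KUp P M c H h2 hc p) : Tz M c H h2 hc p ℓ x ∈ KUp P M c H h2 hc p := by
  haveI : NeZero ℓ := ⟨hℓ.ne_zero⟩
  rw [mem_KUp] at hx ⊢
  rw [Tz_apply]
  exact Fermat.Agent.NEB.Geom.H70.InKU.TH (heckeData M c ℓ H h2 hc) h2 hc hℓ hℓM hx

theorem KUp_Uz {q : ℕ} (hq : q.Prime) (hqM : q ∣ M) {x : AH M c H p}
    (hx : x ∈ KUp P M c H h2 hc p) : Uz M c H h2 hc p q x ∈ KUp P M c H h2 hc p := by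
  haveI : NeZero q := ⟨hq.ne_zero⟩
  rw [mem_KUp] at hx ⊢
  rw [Uz_apply]
  exact Fermat.Agent.NEB.Geom.H70.InKU.UH (heckeData M c q H h2 hc) hq hqM hx

theorem KUp_TzTw {ℓ : ℕ} (hℓ : ℓ.Prime) (hℓM : ¬ ℓ ∣ M) (k : ℕ) {x : AH M c H p}
    (hx : x ∈ KUp P M c H h2 hc p) : TzTw M c H h2 hc p k ℓ x ∈ KUp P M c H h2 hc p := by
  rw [TzTw, Module.End.mul_apply, ← map_pow]
  exact KUp_Tz hℓ hℓM (KUp_dia hx _)

theorem KUp_gal {σ : GalQ} (hσ : σ ∈ P.decompositionSubgroup ℚ) {x : AH M c H p}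
    (hx : x ∈ KUp P M c H h2 hc p) : galZ M c H p σ x ∈ KUp P M c H h2 hc p := by
  rw [mem_KUp] at hx ⊢
  exact Fermat.Agent.NEB.Geom.H70.InKU.galois hx hσ

theorem KUp_inertia {σ : GalQ} (hσ : σ ∈ P.inertiaSubgroupIn ℚ) (x : AH M c H p) :
    galZ M c H p σ x - x ∈ KUp P M c H h2 hc p := by
  rw [mem_KUp]
  exact Fermat.Agent.NEB.Geom.H70.inKU_inertia _ hσ x.2

/-- `⟨u⟩ ^ k = 1` when `u ^ k ∈ H`. -/
theorem diaZ_pow_eq_one {u : (ZMod c)ˣ} {k : ℕ} (hu : u ^ k ∈ H) :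
    diaZ M c H h2 hc p u ^ k = 1 := by
  rw [← map_pow]
  refine LinearMap.ext fun x => Subtype.ext ?_
  rw [diaZ_apply, ((diamondData M c H h2 hc).ker (u ^ k)).2 (Or.inl hu), one_smul]
  rfl

end Gen

section Fin

variable (M c : ℕ) [NeZero M] [NeZero c] (H : Subgroup (ZMod c)ˣ) (h2 : 2 ≤ c) (hc : c ∣ M)
  (p : ℕ) [Fact p.Prime]

include h2 hc

/-- `J_H[p]` is finite. -/
theorem finite_AH_tors : Finite {x : AH M c H p // p • x = 0} := by
  have hfin := Fermat.Agent.NEB.Geom.H29.stmt_ZFIN_final H h2 hc p 1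
  haveI : Finite ↥{y : JH M c H | ((p ^ 1 : ℕ) : ℤ) • y = 0} := hfin.to_subtype
  have hmem : ∀ x : {x : AH M c H p // p • x = 0},
      ((x.1 : AH M c H p) : JH M c H) ∈ {y : JH M c H | ((p ^ 1 : ℕ) : ℤ) • y = 0} := by
    intro x
    have h1 : ((p • x.1 : AH M c H p) : JH M c H) = 0 := by rw [x.2]; rfl
    show ((p ^ 1 : ℕ) : ℤ) • ((x.1 : AH M c H p) : JH M c H) = 0
    rw [pow_one, natCast_zsmul]
    exact h1
  refine Finite.of_injective (fun x : {x : AH M c H p // p • x = 0} =>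
    (⟨((x.1 : AH M c H p) : JH M c H), hmem x⟩ :
      ↥{y : JH M c H | ((p ^ 1 : ℕ) : ℤ) • y = 0})) ?_
  intro x y hxy
  exact Subtype.ext (Subtype.ext (Subtype.mk.inj hxy))

/-- Elements of `Gal(ℚ̄/L)` act trivially on `J_H[p^m]`, `L` the field of `stmt_ZGALCONT_tors`;
the tame relations of `S59.TWGal.H59.stmt_TAME` on `J_H[p^m]`. -/
theorem tame_gen (q : ℕ) (hq : q.Prime) (P : ValuationSubring Kbar) (hP : P.LiesOverPrime q)
    (φ : GalQ) (hφ : P.IsFrobeniusAt φ q) (m : ℕ) :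
    ∃ τ₀ ∈ P.inertiaSubgroup ℚ,
      (∀ σ ∈ P.inertiaSubgroup ℚ, ∃ i e : ℕ,
        ∀ y : AH M c H p, p ^ m • y = 0 →
          galZ M c H p
            ((((τ₀ ^ i)⁻¹ * σ) ^ (q ^ e) : ↥(P.decompositionSubgroup ℚ)) : GalQ) y = y) ∧
      (∃ e : ℕ, ∀ y : AH M c H p, p ^ m • y = 0 →
        galZ M c H p
          ((((τ₀ ^ q)⁻¹ * ((⟨φ, hφ.mem_decompositionSubgroup⟩ :
            ↥(P.decompositionSubgroup ℚ)) * τ₀ *
            (⟨φ, hφ.mem_decompositionSubgroup⟩ : ↥(P.decompositionSubgroup ℚ))⁻¹)) ^ (q ^ e) :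
            ↥(P.decompositionSubgroup ℚ)) : GalQ) y = y) := by
  obtain ⟨L, hL, hfix⟩ := Fermat.Agent.NEB.Geom.H29.stmt_ZGALCONT_tors H h2 hc p m
  obtain ⟨τ₀, hτ₀, ht1, ht2, -⟩ := Fermat.Agent.S59.TWGal.H59.stmt_TAME q hq P hP φ hφ L hL
  rw [ValuationSubring.inertiaSubgroupIn, Subgroup.mem_map] at hτ₀
  obtain ⟨τ, hτ, rfl⟩ := hτ₀
  have htriv : ∀ g : GalQ, g ∈ L.fixingSubgroup →
      ∀ y : AH M c H p, p ^ m • y = 0 → galZ M c H p g y = y := by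
    intro g hg y hy
    apply Subtype.ext
    rw [galZ_apply]
    refine hfix g (fun z hz => (IntermediateField.mem_fixingSubgroup_iff L g).1 hg z hz)
      (y : JH M c H) ?_
    have h1 : ((p ^ m • y : AH M c H p) : JH M c H) = 0 := by
      rw [hy]; rfl
    rw [natCast_zsmul]
    exact h1
  refine ⟨τ, hτ, fun σ hσ => ?_, ?_⟩
  · obtain ⟨i, e, hie⟩ := ht1 (σ : GalQ) (Subgroup.mem_map_of_mem _ hσ)
    exact ⟨i, e, fun y hy => htriv _ hie y hy⟩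
  · obtain ⟨e, he⟩ := ht2
    exact ⟨e, fun y hy => htriv _ he y hy⟩

end Fin

/-- The inertia subgroup is normal in the decomposition group. -/
theorem normal_inertiaSubgroup (P : ValuationSubring Kbar) : (P.inertiaSubgroup ℚ).Normal :=
  MonoidHom.normal_ker _

end Fermat.Agent.NEB.Geom.H9

end
end
-- ==== END Fermat.Agent.NEB.Geom.H9_GenK

-- ==== BEGIN Fermat.Agent.S59.Asm.Main
section

/-!
# S59, package ASM (helper53): the Taylor–Wiles assembly, statement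

`Stmt_ASM`: the geometric data `TWGeom` at a Taylor–Wiles family (item 72, LG-NEB + LIM)
together with the Hecke–Galois data at the two levels (DATUM, TYPE, S54) give the Taylor–Wiles
level `TWLevel` consumed by the patching argument (`patchingDatum_of_twLevels`).

Proof (all leaves are landed: `H85.stmt_LOCMOD`, `H85.stmt_RESLOC`, `H57.stmt_CHV`,
`H77.stmt_TRANSPORT`, `H77.stmt_BRIDGE`, `H99.stmt_TAU`, `H57.stmt_COMPAT`, `TWGal.twgal_main`,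
`twLevel_of_core`, plumbing in `Plumb.lean`, `Plumb2.lean`):

1. `ηW : T_Q → End W.V` from LOCMOD (`T_Q := heckeLocal (twLevel N qv) (twSet S qv) 𝒪 (θ ∘ rest)`),
   `res : T_Q → T` from RESLOC with `rest := G.rest`, `τ : DQ.R ↠ D.R` from TAU.
2. Extend from the generators `HQ.π t = heckeLocal.π t` (`hHQπ`) and `algebraMap 𝒪 T_Q a` to all of
   `T_Q` (`adjoin_top_induction` with `HQ.adjoin_range_π`): `ηW x` commutes with `G.gal g` and
   `G.d j`, preserves `G.Vα j`, and `G.π (ηW x v) = ηM (res x) (G.π v)`.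
3. Cayley–Hamilton on `W.V` for `HQ.ρ`: CHV with the finite set `twSet S qv ∪ primeFactors`,
   `G.es`, `HQ.charpoly_frob` and `S58.H99.trace_det_of_charpoly_two`
   (`ηW (HQ.π T_ℓ) = W.η T_ℓ`, `ηW ℓ = ℓ • 1`).
4. For every `j`: `q := qv j ∉ Smin`, `q ≠ p`, so `ρbar` is unramified at `q` (`hyp.hmin`);
   `residual_isEquiv` + `eq_one_of_isEquiv_resid`, `bcAlong_resid_eq_one` give `hur` and
   `charpoly_of_isEquiv_resid`, `charpoly_bcAlong_resid`, `G.charpoly_frob` give `hchar` for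
   `twgal_main` applied to `DQ.ρ`, `P := G.P j`, `φ := G.frob j`,
   `α := residue (algebraMap 𝒪 DQ.R (G.a j))`, `β` likewise; `(q : DQ.R) - 1 ∈ 𝔪` by
   `natCast_sub_one_mem`.  Put `δ j := chi DQ.ρ b 0 (G.σ j)`.
   * `δ j - 1 ∈ 𝔪`: clause 7 of `twgal_main`.
   * `τ (δ j) = 1`: `D.ρ` is unramified at `q` (`cond_unram D.isOfType`), so is the base change of
     `DQ.ρ` along `τ` (`eq_one_of_isEquiv`), so `τ (chi b i σ₀) = 1` (last clause), and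
     `chi b 0 (G.σ j) = chi b 0 σ₀ ^ k` (clause 5).
   * TRANSPORT along `φQ` gives `b'` with `chi HQ.ρ b' i g = φQ (chi DQ.ρ b i g)` and
     `DiagOn HQ.ρ P b'` (`chi_transport`, `diagOn_transport`).
   * BRIDGE (`T := T_Q`, `ρ := HQ.ρ`, `d := G.d j`, unipotent by `unip_of_pow`, `2 ∉ 𝔪` by
     `two_notMem_maximalIdeal`, Frobenius and inertia elements lie in the decomposition group:
     `hφ.1`/`TWGal.mem_decomp_of_mem_inertia`) gives `ηW (φQ (δ j)) = G.d j`.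
5. `res ∘ φQ = φ ∘ τ`: COMPAT at `A := T`, `ρA := H.ρ` (of type `cond … Q` by `cond_mono`),
   `f₁ := res ∘ φQ`, `f₂ := φ ∘ τ`, local by `isLocalHom_of_finite`/composition; Frobenius
   charpolys of the base change along `f₁`: `charpoly_bcAlong`, `charpoly_of_isEquiv hφQe`,
   `HQ.charpoly_frob`, `hHQπ`, `res (π t) = π (rest t)`, `G.rest_T`, `hHπ`, `H.charpoly_frob`;
   equivalence for `f₂`: `H57.isEquiv_of_frobenius` with `charpoly_bcAlong` twice, TAU, `hφe`.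
6. `twLevel_of_core` with `fM := ηM ∘ φ`, `fV := ηW ∘ φQ`.
-/

set_option autoImplicit false
set_option linter.unusedSectionVars false

open Polynomial CuspForm IsLocalRing

namespace Fermat.Agent.S59.Asm

open Fermat.Agent.S59 Fermat.Agent.S59.TWGal

/-- `cond` is monotone in the auxiliary set. -/
theorem cond_mono {𝒪 : Type} [CommRing 𝒪] {p : ℕ} {fl : Bool} {Smin T T' : Finset ℕ}
    (hT : T ⊆ T') {A : Type} [CommRing A] [IsLocalRing A] [Algebra 𝒪 A] {ρ : GaloisRepAdic A}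
    (h : cond 𝒪 p fl Smin T ρ) : cond 𝒪 p fl Smin T' ρ := by
  cases fl
  · exact ⟨⟨h.1.1, h.1.2.1, fun q hq hqS => h.1.2.2 q hq fun hq' => hqS
      (Finset.union_subset_union_right hT hq')⟩, h.2⟩
  · exact ⟨⟨h.1.1, h.1.2.1, fun q hq hqS => h.1.2.2 q hq fun hq' => hqS
      (Finset.union_subset_union_right hT hq')⟩, h.2⟩

/-- `cond` implies unramified outside `Smin ∪ T`. -/
theorem cond_unram {𝒪 : Type} [CommRing 𝒪] {p : ℕ} {fl : Bool} {Smin T : Finset ℕ}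
    {A : Type} [CommRing A] [IsLocalRing A] [Algebra 𝒪 A] {ρ : GaloisRepAdic A}
    (h : cond 𝒪 p fl Smin T ρ) (q : ℕ) (hq : q.Prime) (hqS : q ∉ Smin ∪ T) :
    ρ.IsUnramifiedAt q := by
  cases fl
  · exact h.1.2.2 q hq hqS
  · exact h.1.2.2 q hq hqS

/-- **ASM**: the Taylor–Wiles assembly. -/
def Stmt_ASM : Prop :=
  ∀ (𝒪 : Type) [CommRing 𝒪] [IsDomain 𝒪] [IsDiscreteValuationRing 𝒪]
    [IsAdicComplete (maximalIdeal 𝒪) 𝒪] [Finite (ResidueField 𝒪)]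
    (p : ℕ) [Fact p.Prime], p ≠ 2 → (p : 𝒪) ∈ maximalIdeal 𝒪 →
    ∀ (fl : Bool) (ρbar : ResidualGaloisRep (ResidueField 𝒪)) (Smin : Finset ℕ),
    ResHyp p ρbar Smin →
    ∀ (N : ℕ) [NeZero N] [Fact (CuspForm.HasIntegralStructure N 2)] (S : Finset ℕ)
      (θ : CuspForm.heckeAlgebra N 2 (↑S : Set ℕ) →+* ResidueField 𝒪)
      (D : GaloisRep.DeformationRingData 𝒪 ρbar (cond 𝒪 p fl Smin ∅))
      (H : CuspForm.HeckeGaloisRepDatum N (↑S : Set ℕ) 𝒪 θ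
        (CuspForm.heckeLocal N (↑S : Set ℕ) 𝒪 θ)),
    H.π = CuspForm.heckeLocal.π N (↑S : Set ℕ) 𝒪 θ →
    cond 𝒪 p fl Smin ∅ H.ρ →
    H.ρ.residual.IsEquiv (ρbar.baseChangeAlong
      (ResidueField.map (algebraMap 𝒪 (CuspForm.heckeLocal N (↑S : Set ℕ) 𝒪 θ)))) →
    ∀ (φ : D.R →ₐ[𝒪] CuspForm.heckeLocal N (↑S : Set ℕ) 𝒪 θ)
      (hφ : IsLocalHom (φ : D.R →+* CuspForm.heckeLocal N (↑S : Set ℕ) 𝒪 θ)),
    (D.ρ.baseChangeAlong (φ : D.R →+* CuspForm.heckeLocal N (↑S : Set ℕ) 𝒪 θ) hφ).IsEquiv H.ρ →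
    ∀ (M : HMod 𝒪 N (↑S : Set ℕ) θ)
      (ηM : CuspForm.heckeLocal N (↑S : Set ℕ) 𝒪 θ →ₐ[𝒪] Module.End 𝒪 M.V),
    (∀ t : CuspForm.heckeAlgebra N 2 (↑S : Set ℕ),
      ηM (CuspForm.heckeLocal.π N (↑S : Set ℕ) 𝒪 θ t) = M.η t) →
    ∀ (r n : ℕ) (qv : Fin r → ℕ), Fermat.Agent.S56.IsTWFamily ρbar p n Smin qv →
    ∀ [NeZero (twLevel N qv)] [Fact (CuspForm.HasIntegralStructure (twLevel N qv) 2)]
      (DQ : GaloisRep.DeformationRingData 𝒪 ρbar (cond 𝒪 p fl Smin (Finset.univ.image qv)))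
      (γ : MvPowerSeries (Fin r) 𝒪 →ₐ[𝒪] DQ.R), Function.Surjective γ →
    ∀ (G : TWGeom 𝒪 p ρbar N S θ M n qv)
      (HQ : CuspForm.HeckeGaloisRepDatum (twLevel N qv) (↑(twSet S qv) : Set ℕ) 𝒪
        (θ.comp G.rest)
        (CuspForm.heckeLocal (twLevel N qv) (↑(twSet S qv) : Set ℕ) 𝒪 (θ.comp G.rest))),
    HQ.π = CuspForm.heckeLocal.π (twLevel N qv) (↑(twSet S qv) : Set ℕ) 𝒪 (θ.comp G.rest) →
    ∀ (φQ : DQ.R →ₐ[𝒪] CuspForm.heckeLocal (twLevel N qv) (↑(twSet S qv) : Set ℕ) 𝒪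
        (θ.comp G.rest))
      (hφQ : IsLocalHom (φQ : DQ.R →+* CuspForm.heckeLocal (twLevel N qv)
        (↑(twSet S qv) : Set ℕ) 𝒪 (θ.comp G.rest))),
    (DQ.ρ.baseChangeAlong (φQ : DQ.R →+* CuspForm.heckeLocal (twLevel N qv)
      (↑(twSet S qv) : Set ℕ) 𝒪 (θ.comp G.rest)) hφQ).IsEquiv HQ.ρ →
    Nonempty (@TWLevel 𝒪 _ _ p r D.R _ _ M.V _
      (Module.compHom M.V ((ηM.comp φ : D.R →ₐ[𝒪] Module.End 𝒪 M.V) :
        D.R →+* Module.End 𝒪 M.V)) n)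

end Fermat.Agent.S59.Asm

end
-- ==== END Fermat.Agent.S59.Asm.Main

-- ==== BEGIN Fermat.Agent.S59.LL.H77_BridgeRes
section

/-!
# S59, package LL, leaf BRIDGE-RES (helper77)

The residual representation of a `p`-adic representation `ρ` with the Frobenius characteristic
polynomials of a curve `W` (e.g. its Tate module, `Stmt_Tate`) is the `p`-torsion representation
`residualGaloisRepOf W p` (base changed to the residue field), and so has the same ramification.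

* `charpoly_residualGaloisRepOf` : Frobenius characteristic polynomials of `E[p]` (item 62).
* `bridgeRes` : `(E[p] ⊗ k).IsEquiv ρ.residual` (Frobenius density + Carayol over a field,
  `Datum.H57.stmt_ResEq`).
* `unramified_iff_of_bridgeRes` : `ρ.residual` is unramified at `q` iff `E[p]` is.
-/

set_option autoImplicit false
set_option linter.unusedSectionVars false
set_option linter.unusedVariables false

open Polynomial IsLocalRing WeierstrassCurve WeierstrassCurve.Affine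
open scoped TensorProduct

namespace Fermat.Agent.S59.LL.H77

open Fermat.Agent.S59 Fermat.Agent.S59.Asm

/-- the `p`-torsion representation of an integral Weierstrass curve -/
noncomputable abbrev torsRep (W : WeierstrassCurve ℤ) (p : ℕ) [Fact p.Prime]
    (hcard₁ : Nat.card (Submodule.torsionBy ℤ
      ((W.map (Int.castRingHom ℚ))⁄(AlgebraicClosure ℚ)).Point p) = p ^ 2)
    (hker : GaloisFactorsThroughFiniteLevel
      (WeierstrassCurve.Affine.Point.galoisRepModuleEnd (K := AlgebraicClosure ℚ) ℚ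
        (W.map (Int.castRingHom ℚ)) p)) : ResidualGaloisRep (ZMod p) :=
  (W.map (Int.castRingHom ℚ)).residualGaloisRepOf p hcard₁ hker

/-- Frobenius characteristic polynomials of `E[p]` at the good primes `ℓ ≠ p` (item 62). -/
theorem charpoly_residualGaloisRepOf (W : WeierstrassCurve ℤ) (p : ℕ) [Fact p.Prime]
    (hcard₁ : Nat.card (Submodule.torsionBy ℤ
      ((W.map (Int.castRingHom ℚ))⁄(AlgebraicClosure ℚ)).Point p) = p ^ 2)
    (hker : GaloisFactorsThroughFiniteLevel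
      (WeierstrassCurve.Affine.Point.galoisRepModuleEnd (K := AlgebraicClosure ℚ) ℚ
        (W.map (Int.castRingHom ℚ)) p))
    (ℓ : ℕ) (hℓ : ℓ.Prime) (hpℓ : p ≠ ℓ) (hgood : W.IsGoodPrimeFor ℓ)
    (A : ValuationSubring (AlgebraicClosure ℚ)) (hA : A.LiesOverPrime ℓ)
    (σ : AlgebraicClosure ℚ ≃ₐ[ℚ] AlgebraicClosure ℚ) (hσ : A.IsFrobeniusAt σ ℓ) :
    LinearMap.charpoly ((torsRep W p hcard₁ hker).ρ σ) =
      X ^ 2 - C (((W.apOfModel ℓ : ℤ) : ZMod p)) * X + C ((ℓ : ZMod p)) := by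
  obtain ⟨-, htr, hdet⟩ :=
    Fermat.Agent.Lib.EllFinite.stmt_main W p ℓ hℓ hpℓ hgood A hA σ hσ
  rw [Fermat.Agent.R.H91.charpoly_eq_of_finrank_two (torsRep W p hcard₁ hker).finrank_eq]
  have h1 : LinearMap.trace (ZMod p) _ ((torsRep W p hcard₁ hker).ρ σ) =
      ((W.apOfModel ℓ : ℤ) : ZMod p) := htr
  have h2 : LinearMap.det ((torsRep W p hcard₁ hker).ρ σ) = (ℓ : ZMod p) := hdet
  rw [h1, h2]

/-- **BRIDGE-RES.** -/
theorem bridgeRes (W : WeierstrassCurve ℤ) (hΔ : W.Δ ≠ 0) (p : ℕ) [Fact p.Prime]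
    (hcard₁ : Nat.card (Submodule.torsionBy ℤ
      ((W.map (Int.castRingHom ℚ))⁄(AlgebraicClosure ℚ)).Point p) = p ^ 2)
    (hker : GaloisFactorsThroughFiniteLevel
      (WeierstrassCurve.Affine.Point.galoisRepModuleEnd (K := AlgebraicClosure ℚ) ℚ
        (W.map (Int.castRingHom ℚ)) p))
    {𝒪 : Type} [CommRing 𝒪] [IsLocalRing 𝒪] (j : ZMod p →+* ResidueField 𝒪)
    (ρ : GaloisRepAdic 𝒪) (S : Finset ℕ)
    (hfrob : ∀ ℓ : ℕ, ℓ.Prime → ℓ ≠ p → ℓ ∉ S → W.IsGoodPrimeFor ℓ →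
      ∀ A : ValuationSubring (AlgebraicClosure ℚ), A.LiesOverPrime ℓ →
        ∀ σ : AlgebraicClosure ℚ ≃ₐ[ℚ] AlgebraicClosure ℚ, A.IsFrobeniusAt σ ℓ →
          LinearMap.charpoly (ρ.ρ σ) =
            X ^ 2 - C (((W.apOfModel ℓ : ℤ) : 𝒪)) * X + C ((ℓ : 𝒪)))
    (hirr : ρ.residual.IsAbsolutelyIrreducible) :
    ((torsRep W p hcard₁ hker).baseChangeAlong j).IsEquiv ρ.residual := by
  classical
  refine Fermat.Agent.S59.Datum.H57.stmt_ResEq (ResidueField 𝒪) _ _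
    (S ∪ {p} ∪ W.Δ.natAbs.primeFactors) hirr ?_
  intro ℓ hℓ hℓS B hB σ hσ
  have hℓS' : ℓ ∉ S := fun h => hℓS (Finset.mem_union_left _ (Finset.mem_union_left _ h))
  have hℓp : ℓ ≠ p := fun h => hℓS (Finset.mem_union_left _ (Finset.mem_union_right _
    (Finset.mem_singleton.2 h)))
  have hgood : W.IsGoodPrimeFor ℓ := by
    intro hdvd
    refine hℓS (Finset.mem_union_right _ (Nat.mem_primeFactors.2 ⟨hℓ, ?_, ?_⟩))
    · exact Int.natCast_dvd.1 hdvd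
    · exact Int.natAbs_ne_zero.2 hΔ
  rw [charpoly_bcAlong_resid, charpoly_residualGaloisRepOf W p hcard₁ hker ℓ hℓ hℓp.symm hgood
    B hB σ hσ, charpoly_resid, hfrob ℓ hℓ hℓp hℓS' hgood B hB σ hσ]
  simp only [Polynomial.map_add, Polynomial.map_sub, Polynomial.map_mul, Polynomial.map_pow,
    Polynomial.map_X, map_intCast, map_natCast, Polynomial.map_intCast, Polynomial.map_natCast]

/-- triviality descends along a base change of residual representations -/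
theorem eq_one_of_bcAlong_resid_eq_one {k k' : Type} [Field k] [Field k'] (j : k →+* k')
    (ρ : ResidualGaloisRep k) (σ : AlgebraicClosure ℚ ≃ₐ[ℚ] AlgebraicClosure ℚ)
    (h : (ρ.baseChangeAlong j).ρ σ = 1) : ρ.ρ σ = 1 := by
  let _ : Algebra k k' := j.toAlgebra
  have h1 : (ρ.ρ σ).baseChange k' = 1 := h
  refine LinearMap.ext fun v => ?_
  have h2 := congrArg (fun F : Module.End k' (k' ⊗[k] ρ.V) => F ((1 : k') ⊗ₜ[k] v)) h1
  simp only [LinearMap.baseChange_tmul, Module.End.one_apply] at h2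
  have hinj : Function.Injective (TensorProduct.mk k k' ρ.V 1) :=
    Module.Flat.tensorProduct_mk_injective (R := k) (S := k') (M := ρ.V)
  exact hinj h2

/-- **BRIDGE-RES**, ramification: `ρ.residual` is unramified at `q` iff `E[p]` is. -/
theorem unramified_iff_of_isEquiv {k k' : Type} [Field k] [Field k'] (j : k →+* k')
    (ρ₀ : ResidualGaloisRep k) (ρ₁ : ResidualGaloisRep k')
    (h : (ρ₀.baseChangeAlong j).IsEquiv ρ₁) (q : ℕ) :
    ρ₁.IsUnramifiedAt q ↔ ρ₀.IsUnramifiedAt q := by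
  constructor
  · intro hu A hA σ hσ
    exact eq_one_of_bcAlong_resid_eq_one j ρ₀ σ (eq_one_of_isEquiv_resid h σ (hu A hA σ hσ))
  · intro hu A hA σ hσ
    obtain ⟨e⟩ := h
    exact eq_one_of_isEquiv_resid ⟨e.symm⟩ σ (bcAlong_resid_eq_one j ρ₀ σ (hu A hA σ hσ))

end Fermat.Agent.S59.LL.H77

end
-- ==== END Fermat.Agent.S59.LL.H77_BridgeRes
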