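-- GENERATED (merged mirror, NOTES/tools/trim/merge3_helper67.py): 4 modules of the originals, bodies verbatim.
import Fermat.Agent.Zm.S43_L03_000
import Fermat.Agent.Zm.S43_L10_001
import Fermat.Agent.Zm.S43_L10_000
import Fermat.Agent.Zm.S48_L07_000
import Fermat.Agent.Zm.S44_L14_000
import Fermat.Agent.Zm.S43_L07_000
import Fermat.Agent.Zm.S43_L02_000
import Fermat.Agent.Zm.S43_L05_001

-- ==== BEGIN Fermat.Agent.L.Pivot.Geom.H4_EigPartW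
section

/-!
# PIVOT / PV-GEOM, leaf P-EIGPART (helper4), part 4: the level-`M` form and the `𝒪`-level form

* `stmt_EigPart_M` : `stmt_EigPart` with the level written as a variable `M`, `hM : M = N * c`
  (the level of `AHpv` is `N1 * twC qv`, which is `M₀ * pvC` only propositionally).
* `eigPart_W` : the `𝒪`-level statement in the abstract setting of `NEB.Geom.H39.stmt_EIG_W`
  (`A` a `p`-power torsion group with `A[p]` finite, NO divisibility; `W = thetaPart etaT θ`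
  `p`-divisible): if `etaW : 𝕋(N') → End W` is ANY ring homomorphism with
  `etaW (T_ℓ) = thetaEta etaT θ (z ℓ)` and `ν : 𝕋` is an operator with values in the invariants of
  the pivot diamonds (`diaA d * etaT ν = etaT ν` for `d ≡ 1 mod cQ`), then
  `rest t = 0 → etaW t * thetaEta etaT θ ν = 0`.

Complete proofs, standard axioms only.
-/

set_option autoImplicit false

namespace Fermat.Agent.L.Pivot.Geom.H4

open CongruenceSubgroup Matrix.SpecialLinearGroup ModularForm Finset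
open scoped MatrixGroups
open IsLocalRing TensorProduct
open Fermat.Agent.NEB.EIG.H39 Fermat.Agent.Betti ModularCurve.Period
open Fermat.Agent.S59.Lim Fermat.Agent.S59.Lim.H2
open Fermat.Agent.NEB.Geom.H39

/-- **P-EIGPART** (`ℤ`-level), with the level as a variable `M = N c`. -/
theorem stmt_EigPart_M (p : ℕ) [Fact p.Prime] (N : ℕ) (hN : N ≠ 0) (qsP qsQ : List ℕ)
    (hnd : (qsP ++ qsQ).Nodup)
    (hpr : ∀ q ∈ qsP ++ qsQ, q.Prime) (hqN : ∀ q ∈ qsP ++ qsQ, ¬ q ∣ N)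
    (c cP cQ N' N'' M : ℕ) (hcP : cP = qsP.prod) (hcQ : cQ = qsQ.prod) (hc : c = cP * cQ)
    (hM : M = N * c) (hcM : c ∣ M)
    (hN' : N' = N * c * c) (hN'' : N'' = N * cP * cQ * cQ) [NeZero N'] [NeZero N'']
    (S : Set ℕ) (hS : ∀ q : ℕ, q.Prime → q ∣ N' → q ∈ S)
    (A : Type) [AddCommGroup A] (hdiv : ∀ x : A, ∃ y : A, p • y = x)
    (htors : ∀ x : A, ∃ k : ℕ, p ^ k • x = 0)
    (ms : MonoSys p M c A)
    (TA : ℕ → Module.End ℤ A)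
    (hTA : ∀ (ℓ : ℕ) (hℓ : ℓ.Prime) (hℓM : ¬ ℓ ∣ M) (k : ℕ) (x : A), p ^ k • x = 0 →
      ms.m k (TA ℓ x) = TDg M c hcM hℓ hℓM (ms.m k x))
    (diaA : (ZMod c)ˣ →* Module.End ℤ A)
    (hdiaA : ∀ (g : SL(2, ℤ)) (hg : ((M : ℕ) : ℤ) ∣ g 1 0) (d : (ZMod c)ˣ),
      (d : ZMod c) = ((g 0 0 : ℤ) : ZMod c) → ∀ (k : ℕ) (x : A), p ^ k • x = 0 →
      ms.m k (diaA d x) = Dg hcM g hg (ms.m k x))
    (hcomm : ∀ (ℓ : ℕ), ℓ.Prime → ¬ ℓ ∣ M → ∀ d, Commute (TA ℓ) (diaA d))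
    (j : ℕ) (hdn : ∀ d, diaA d ^ (2 * j + 1) = 1)
    (eta : CuspForm.heckeAlgebra N' 2 S →+* Module.End ℤ A)
    (heta : ∀ (ℓ : ℕ) (hℓ : ℓ.Prime) (hℓN : ¬ ℓ ∣ N') (hℓS : ℓ ∉ S),
        eta (CuspForm.heckeAlgebra.T hℓ hℓN hℓS) = TA ℓ * diaA (unitOf c ℓ) ^ j)
    (rest : CuspForm.heckeAlgebra N' 2 S →+* CuspForm.heckeAlgebra N'' 2 S)
    (hrest : ∀ (ℓ : ℕ) (hℓ : ℓ.Prime) (hℓN' : ¬ ℓ ∣ N') (hℓS : ℓ ∉ S) (hℓN'' : ¬ ℓ ∣ N''),
      rest (CuspForm.heckeAlgebra.T hℓ hℓN' hℓS) = CuspForm.heckeAlgebra.T hℓ hℓN'' hℓS)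
    (hcQc : cQ ∣ c) (t : CuspForm.heckeAlgebra N' 2 S) (ht : rest t = 0)
    (e : Module.End ℤ A)
    (he : ∀ d : (ZMod c)ˣ, ZMod.unitsMap hcQc d = 1 → diaA d * e = e) :
    eta t * e = 0 := by
  subst hM
  exact stmt_EigPart p N hN qsP qsQ hnd hpr hqN c cP cQ N' N'' hcP hcQ hc hN' hN'' S hS A hdiv
    htors ms TA hTA diaA hdiaA hcomm j hdn eta heta rest hrest hcQc t ht e he

/-- `NEB.EIG.H39.stmt_EIG_A` with the level as a variable `M = N c`. -/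
theorem stmt_EIG_A_M (p : ℕ) [Fact p.Prime] (N : ℕ) (hN : N ≠ 0) (qs : List ℕ) (hnd : qs.Nodup)
    (hpr : ∀ q ∈ qs, q.Prime) (hqN : ∀ q ∈ qs, ¬ q ∣ N)
    (c N' M : ℕ) (hc : c = qs.prod) (hM : M = N * c) (hcM : c ∣ M) (hN' : N' = N * c * c)
    [NeZero N'] (S : Set ℕ)
    (hS : ∀ q : ℕ, q.Prime → q ∣ N' → q ∈ S)
    (A : Type) [AddCommGroup A] (hdiv : ∀ x : A, ∃ y : A, p • y = x)
    (htors : ∀ x : A, ∃ k : ℕ, p ^ k • x = 0)
    (ms : MonoSys p M c A)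
    (TA : ℕ → Module.End ℤ A)
    (hTA : ∀ (ℓ : ℕ) (hℓ : ℓ.Prime) (hℓM : ¬ ℓ ∣ M) (k : ℕ) (x : A), p ^ k • x = 0 →
      ms.m k (TA ℓ x) = TDg M c hcM hℓ hℓM (ms.m k x))
    (diaA : (ZMod c)ˣ →* Module.End ℤ A)
    (hdiaA : ∀ (g : SL(2, ℤ)) (hg : ((M : ℕ) : ℤ) ∣ g 1 0) (d : (ZMod c)ˣ),
      (d : ZMod c) = ((g 0 0 : ℤ) : ZMod c) → ∀ (k : ℕ) (x : A), p ^ k • x = 0 →
      ms.m k (diaA d x) = Dg hcM g hg (ms.m k x))
    (hcomm : ∀ (ℓ : ℕ), ℓ.Prime → ¬ ℓ ∣ M → ∀ d, Commute (TA ℓ) (diaA d))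
    (j : ℕ) (hdn : ∀ d, diaA d ^ (2 * j + 1) = 1) :
    ∃ eta : CuspForm.heckeAlgebra N' 2 S →+* Module.End ℤ A,
      ∀ (ℓ : ℕ) (hℓ : ℓ.Prime) (hℓN : ¬ ℓ ∣ N') (hℓS : ℓ ∉ S),
        eta (CuspForm.heckeAlgebra.T hℓ hℓN hℓS) = TA ℓ * diaA (unitOf c ℓ) ^ j := by
  subst hM
  exact stmt_EIG_A p N hN qs hnd hpr hqN c N' hc hN' S hS A hdiv htors ms TA hTA diaA hdiaA
    hcomm j hdn

/-- `NEB.Geom.H39.stmt_EIG_W` with the level as a variable `M = N c`. -/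
theorem stmt_EIG_W_M (p : ℕ) [Fact p.Prime] (N : ℕ) (hN : N ≠ 0) (qs : List ℕ) (hnd : qs.Nodup)
    (hpr : ∀ q ∈ qs, q.Prime) (hqN : ∀ q ∈ qs, ¬ q ∣ N)
    (c N' M : ℕ) (hc : c = qs.prod) (hM : M = N * c) (hcM : c ∣ M) (hN' : N' = N * c * c)
    [NeZero N'] (S : Set ℕ)
    (hS : ∀ q : ℕ, q.Prime → q ∣ N' → q ∈ S)
    (A : Type) [AddCommGroup A] (htors : ∀ x : A, ∃ k : ℕ, p ^ k • x = 0)
    (hfin : Finite {x : A // p • x = 0})
    (ms : MonoSys p M c A)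
    (TA : ℕ → Module.End ℤ A)
    (hTA : ∀ (ℓ : ℕ) (hℓ : ℓ.Prime) (hℓM : ¬ ℓ ∣ M) (k : ℕ) (x : A), p ^ k • x = 0 →
      ms.m k (TA ℓ x) = TDg M c hcM hℓ hℓM (ms.m k x))
    (diaA : (ZMod c)ˣ →* Module.End ℤ A)
    (hdiaA : ∀ (g : SL(2, ℤ)) (hg : ((M : ℕ) : ℤ) ∣ g 1 0) (d : (ZMod c)ˣ),
      (d : ZMod c) = ((g 0 0 : ℤ) : ZMod c) → ∀ (k : ℕ) (x : A), p ^ k • x = 0 →
      ms.m k (diaA d x) = Dg hcM g hg (ms.m k x))
    (hcomm : ∀ (ℓ : ℕ), ℓ.Prime → ¬ ℓ ∣ M → ∀ d, Commute (TA ℓ) (diaA d))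
    (j : ℕ) (hdn : ∀ d, diaA d ^ (2 * j + 1) = 1)
    {𝒪 : Type} [CommRing 𝒪] [IsLocalRing 𝒪] {𝕋 : Type} [CommRing 𝕋]
    (etaT : 𝕋 →+* Module.End ℤ A) (θ : 𝕋 →+* ResidueField 𝒪)
    (hWdiv : ∀ w : ↥(thetaPart etaT θ), ∃ w' : ↥(thetaPart etaT θ), (p : 𝒪) • w' = w)
    (z : ℕ → 𝕋)
    (hz : ∀ (ℓ : ℕ), ℓ.Prime → ¬ ℓ ∣ N' → ℓ ∉ S → etaT (z ℓ) = TA ℓ * diaA (unitOf c ℓ) ^ j)
    (θ' : CuspForm.heckeAlgebra N' 2 S →+* ResidueField 𝒪)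
    (hθ : ∀ (ℓ : ℕ) (hℓ : ℓ.Prime) (hℓN : ¬ ℓ ∣ N') (hℓS : ℓ ∉ S),
      θ' (CuspForm.heckeAlgebra.T hℓ hℓN hℓS) = θ (z ℓ)) :
    ∃ etaW : CuspForm.heckeAlgebra N' 2 S →+* Module.End 𝒪 ↥(thetaPart etaT θ),
      (∀ (ℓ : ℕ) (hℓ : ℓ.Prime) (hℓN : ¬ ℓ ∣ N') (hℓS : ℓ ∉ S),
        etaW (CuspForm.heckeAlgebra.T hℓ hℓN hℓS) = thetaEta etaT θ (z ℓ)) ∧
      (∀ x, ∃ t : 𝕋, etaW x = thetaEta etaT θ t ∧ θ' x = θ t) ∧
      (∀ (x : CuspForm.heckeAlgebra N' 2 S) (a : 𝒪), residue 𝒪 a = θ' x →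
        ∀ w : ↥(thetaPart etaT θ),
          ∃ m : ℕ, ((etaW x - a • (1 : Module.End 𝒪 ↥(thetaPart etaT θ))) ^ m) w = 0) := by
  subst hM
  exact stmt_EIG_W p N hN qs hnd hpr hqN c N' hc hN' S hS A htors hfin ms TA hTA diaA hdiaA
    hcomm j hdn etaT θ hWdiv z hz θ' hθ

/-- **P-EIGPART**, `𝒪`-level, abstract form.  In the setting of `stmt_EIG_W` (level `M = N c`,
`qs = qsP ++ qsQ`), for ANY ring homomorphism `etaW` with `etaW (T_ℓ) = thetaEta etaT θ (z ℓ)` and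
any `ν : 𝕋` such that `etaT ν` has values in the invariants of the diamonds `d ≡ 1 mod cQ`:
the kernel of `rest` kills the range of `thetaEta etaT θ ν`. -/
theorem eigPart_W (p : ℕ) [Fact p.Prime] (N : ℕ) (hN : N ≠ 0) (qsP qsQ : List ℕ)
    (hnd : (qsP ++ qsQ).Nodup)
    (hpr : ∀ q ∈ qsP ++ qsQ, q.Prime) (hqN : ∀ q ∈ qsP ++ qsQ, ¬ q ∣ N)
    (c cP cQ N' N'' M : ℕ) (hcP : cP = qsP.prod) (hcQ : cQ = qsQ.prod) (hc : c = cP * cQ)
    (hM : M = N * c) (hcM : c ∣ M)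
    (hN' : N' = N * c * c) (hN'' : N'' = N * cP * cQ * cQ) [NeZero N'] [NeZero N'']
    (S : Set ℕ) (hS : ∀ q : ℕ, q.Prime → q ∣ N' → q ∈ S)
    (A : Type) [AddCommGroup A] (htors : ∀ x : A, ∃ k : ℕ, p ^ k • x = 0)
    (hfin : Finite {x : A // p • x = 0})
    (ms : MonoSys p M c A)
    (TA : ℕ → Module.End ℤ A)
    (hTA : ∀ (ℓ : ℕ) (hℓ : ℓ.Prime) (hℓM : ¬ ℓ ∣ M) (k : ℕ) (x : A), p ^ k • x = 0 →
      ms.m k (TA ℓ x) = TDg M c hcM hℓ hℓM (ms.m k x))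
    (diaA : (ZMod c)ˣ →* Module.End ℤ A)
    (hdiaA : ∀ (g : SL(2, ℤ)) (hg : ((M : ℕ) : ℤ) ∣ g 1 0) (d : (ZMod c)ˣ),
      (d : ZMod c) = ((g 0 0 : ℤ) : ZMod c) → ∀ (k : ℕ) (x : A), p ^ k • x = 0 →
      ms.m k (diaA d x) = Dg hcM g hg (ms.m k x))
    (hcomm : ∀ (ℓ : ℕ), ℓ.Prime → ¬ ℓ ∣ M → ∀ d, Commute (TA ℓ) (diaA d))
    (j : ℕ) (hdn : ∀ d, diaA d ^ (2 * j + 1) = 1)
    {𝒪 : Type} [CommRing 𝒪] [IsLocalRing 𝒪] {𝕋 : Type} [CommRing 𝕋]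
    (etaT : 𝕋 →+* Module.End ℤ A) (θ : 𝕋 →+* ResidueField 𝒪)
    (hWdiv : ∀ w : ↥(thetaPart etaT θ), ∃ w' : ↥(thetaPart etaT θ), (p : 𝒪) • w' = w)
    (z : ℕ → 𝕋)
    (hz : ∀ (ℓ : ℕ), ℓ.Prime → ¬ ℓ ∣ N' → ℓ ∉ S → etaT (z ℓ) = TA ℓ * diaA (unitOf c ℓ) ^ j)
    (etaW : CuspForm.heckeAlgebra N' 2 S →+* Module.End 𝒪 ↥(thetaPart etaT θ))
    (hetaW : ∀ (ℓ : ℕ) (hℓ : ℓ.Prime) (hℓN : ¬ ℓ ∣ N') (hℓS : ℓ ∉ S),
      etaW (CuspForm.heckeAlgebra.T hℓ hℓN hℓS) = thetaEta etaT θ (z ℓ))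
    (rest : CuspForm.heckeAlgebra N' 2 S →+* CuspForm.heckeAlgebra N'' 2 S)
    (hrest : ∀ (ℓ : ℕ) (hℓ : ℓ.Prime) (hℓN' : ¬ ℓ ∣ N') (hℓS : ℓ ∉ S) (hℓN'' : ¬ ℓ ∣ N''),
      rest (CuspForm.heckeAlgebra.T hℓ hℓN' hℓS) = CuspForm.heckeAlgebra.T hℓ hℓN'' hℓS)
    (hcQc : cQ ∣ c) (ν : 𝕋)
    (hν : ∀ d : (ZMod c)ˣ, ZMod.unitsMap hcQc d = 1 → diaA d * etaT ν = etaT ν)
    (t : CuspForm.heckeAlgebra N' 2 S) (ht : rest t = 0) :
    etaW t * thetaEta etaT θ ν = 0 := by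
  have hcqs : c = (qsP ++ qsQ).prod := by
    rw [List.prod_append, ← hcP, ← hcQ, hc]
  obtain ⟨e, he⟩ := exists_pow_smul_stable p htors hfin
  -- the operators on the divisible part
  have hTAD : ∀ (ℓ : ℕ) (hℓ : ℓ.Prime) (hℓM : ¬ ℓ ∣ M) (k : ℕ) (x : ↥(divSub p e A)),
      p ^ k • x = 0 → (monoRestrict ms (divSub p e A)).m k (resEnd p e (TA ℓ) x)
        = TDg M c hcM hℓ hℓM ((monoRestrict ms (divSub p e A)).m k x) :=
    fun ℓ hℓ hℓM k x hx => hTA ℓ hℓ hℓM k x (congrArg Subtype.val hx)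
  have hdiaD : ∀ (g : SL(2, ℤ)) (hg : ((M : ℕ) : ℤ) ∣ g 1 0) (d : (ZMod c)ˣ),
      (d : ZMod c) = ((g 0 0 : ℤ) : ZMod c) → ∀ (k : ℕ) (x : ↥(divSub p e A)), p ^ k • x = 0 →
      (monoRestrict ms (divSub p e A)).m k
          (((resEnd p e : Module.End ℤ A →+* _).toMonoidHom.comp diaA) d x)
        = Dg hcM g hg ((monoRestrict ms (divSub p e A)).m k x) :=
    fun g hg d hd k x hx => hdiaA g hg d hd k x (congrArg Subtype.val hx)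
  have hcommD : ∀ (ℓ : ℕ), ℓ.Prime → ¬ ℓ ∣ M → ∀ d, Commute (resEnd p e (TA ℓ))
      (((resEnd p e : Module.End ℤ A →+* _).toMonoidHom.comp diaA) d) :=
    fun ℓ hℓ hℓM d => (hcomm ℓ hℓ hℓM d).map (resEnd p e)
  have hdnD : ∀ d, ((resEnd p e : Module.End ℤ A →+* _).toMonoidHom.comp diaA) d ^ (2 * j + 1)
      = 1 := by
    intro d
    show resEnd p e (diaA d) ^ (2 * j + 1) = 1
    rw [← map_pow, hdn d, map_one]
  obtain ⟨etaD, hetaD⟩ := stmt_EIG_A_M p N hN (qsP ++ qsQ) hnd hpr hqN c N' M hcqs hM hcM hN' S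
    hS ↥(divSub p e A) (divSub_div he) (divSub_tors htors) (monoRestrict ms (divSub p e A))
    (fun ℓ => resEnd p e (TA ℓ)) hTAD
    ((resEnd p e : Module.End ℤ A →+* _).toMonoidHom.comp diaA) hdiaD hcommD j hdnD
  -- the correspondence `etaD x ↔ etaT τ ↔ etaW x`
  have hall : ∀ x : CuspForm.heckeAlgebra N' 2 S, ∃ τ : 𝕋,
      (∀ y : ↥(divSub p e A), ((etaD x y : ↥(divSub p e A)) : A) = etaT τ (y : A)) ∧
        etaW x = thetaEta etaT θ τ := by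
    refine hecke_induction hS (fun ℓ hℓ hℓN hℓS => ⟨z ℓ, fun y => ?_, hetaW ℓ hℓ hℓN hℓS⟩)
      (fun n => ⟨(n : 𝕋), fun y => ?_, ?_⟩) (fun x x' hx hx' => ?_) (fun x x' hx hx' => ?_)
    · rw [hetaD ℓ hℓ hℓN hℓS, hz ℓ hℓ hℓN hℓS]
      show ((resEnd p e (TA ℓ) * resEnd p e (diaA (unitOf c ℓ)) ^ j) y : A) = _
      rw [← map_pow, ← map_mul, coe_resEnd]
    · rw [map_intCast, map_intCast, Module.End.intCast_apply, Module.End.intCast_apply]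
      rfl
    · rw [map_intCast, map_intCast]
    · obtain ⟨τ, hτ, hτ'⟩ := hx
      obtain ⟨u, hu, hu'⟩ := hx'
      refine ⟨τ + u, fun y => ?_, by rw [map_add, map_add, hτ', hu']⟩
      rw [map_add, map_add, LinearMap.add_apply, LinearMap.add_apply, AddSubgroup.coe_add,
        hτ y, hu y]
    · obtain ⟨τ, hτ, hτ'⟩ := hx
      obtain ⟨u, hu, hu'⟩ := hx'
      refine ⟨τ * u, fun y => ?_, by rw [map_mul, map_mul, hτ', hu']⟩
      rw [map_mul, map_mul, Module.End.mul_apply, Module.End.mul_apply, hτ, hu]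
  obtain ⟨τ, hτ, hτW⟩ := hall t
  -- `etaD t` kills the range of `etaT ν` on the divisible part
  have hkill : etaD t * resEnd p e (etaT ν) = 0 :=
    stmt_EigPart_M p N hN qsP qsQ hnd hpr hqN c cP cQ N' N'' M hcP hcQ hc hM hcM hN' hN'' S hS
      ↥(divSub p e A) (divSub_div he) (divSub_tors htors) (monoRestrict ms (divSub p e A))
      (fun ℓ => resEnd p e (TA ℓ)) hTAD
      ((resEnd p e : Module.End ℤ A →+* _).toMonoidHom.comp diaA) hdiaD hcommD j hdnD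
      etaD hetaD rest hrest hcQc t ht (resEnd p e (etaT ν))
      (fun d hd => by
        show resEnd p e (diaA d) * resEnd p e (etaT ν) = resEnd p e (etaT ν)
        rw [← map_mul, hν d hd])
  rw [hτW, ← map_mul]
  apply thetaEta_eq_zero_of etaT θ p e hWdiv
  intro a
  rw [map_mul, Module.End.mul_apply]
  have h1 := hτ (resEnd p e (etaT ν) ⟨p ^ e • a, pow_smul_mem_divSub a⟩)
  rw [coe_resEnd] at h1
  rw [← h1, ← Module.End.mul_apply, hkill]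
  rfl

end Fermat.Agent.L.Pivot.Geom.H4

end
-- ==== END Fermat.Agent.L.Pivot.Geom.H4_EigPartW

-- ==== BEGIN Fermat.Agent.L.Pivot.Geom.H70_TowerZ
section

/-!
# PIVOT, package PV-GEOM, leaf P-HSTEP: the tower on `J_H[p^∞]` with mixed exponents (helper70)

Generic form of `NEB/Geom/H29_TowerInst.lean` (helper29): level `M`, conductor `c ∣ M` squarefree,
primes `q j ∣ c` (`j : Fin R`) with `p ^ e j ∣ q j - 1`, `p ≥ 5`,
`H = {u | ∀ j, u mod q j is a p ^ e j-th power}` (hypothesis `hH`), generators `δ j` of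
`Δ = (ℤ/c)ˣ / H` (`IsGenFamM`).  On `AH M c H p = J_H[p^∞]`, `t = T_ℓ₀^H - (ℓ₀ + 1)`:

* `mix_unr`       : `F_H / F₀` is unramified;
* `mix_div`       : DIV, `t ^ N A ⊆ p A`;
* `mix_hstep`     : HSTEP on `A[p]` (exponent `p ^ e j` at the step `j`);
* `mix_inv`       : INV on `A[p]`;
* `mix_diaZ_pow`  : `⟨δ j⟩ ^ (p ^ e j) = 1`;
* `mix_sigma`     : SIGMA on `J₀[p^∞]`.
-/

set_option autoImplicit false
set_option linter.unusedSectionVars false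
set_option linter.unusedVariables false
set_option linter.style.haveILetI false

noncomputable section

namespace Fermat.Agent.L.Pivot.Geom.H70

open AlgebraicCurve ModularCurve
open Fermat.Agent.NEB Fermat.Agent.NEB.H14 Fermat.Agent.NEB.JH Fermat.Agent.RED
open Fermat.Agent.NEB.H29 Fermat.Agent.NEB.Geom Fermat.Agent.NEB.Geom.H29

/-! ## 1. Generalities -/

section gen

variable (M c : ℕ) [NeZero M] (H : Subgroup (ZMod c)ˣ) (h2 : 2 ≤ c) (hc : c ∣ M) (p : ℕ)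

/-- The Eisenstein operator `T_ℓ₀^H - (ℓ₀ + 1)` on `J_H[p^∞]`. -/
def tEisZ (ℓ₀ : ℕ) : Module.End ℤ (AH M c H p) :=
  Tz M c H h2 hc p ℓ₀ - ((ℓ₀ + 1 : ℕ) : ℤ) • (1 : Module.End ℤ (AH M c H p))

theorem coe_diaZ_pow_mix (u : (ZMod c)ˣ) (a : ℕ) (x : AH M c H p) :
    (((diaZ M c H h2 hc p u ^ a) x : AH M c H p) : JH M c H)
      = ((diamondData M c H h2 hc).ρ u) ^ a • (x : JH M c H) := by
  rw [← map_pow, diaZ_apply, map_pow]

theorem coe_sum_ptors_mix {X : Type*} [AddCommGroup X] {ι : Type*} (s : Finset ι)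
    (f : ι → ↥(ptors p X)) : ((∑ i ∈ s, f i : ↥(ptors p X)) : X) = ∑ i ∈ s, (f i : X) :=
  AddSubgroup.val_finsetSum _ _ _

theorem coe_nsmul_ptors_mix {X : Type*} [AddCommGroup X] (k : ℕ) (x : ↥(ptors p X)) :
    ((k • x : ↥(ptors p X)) : X) = k • (x : X) :=
  AddSubgroup.coe_nsmul _ _ _

theorem coe_zsmul_ptors_mix {X : Type*} [AddCommGroup X] (k : ℤ) (x : ↥(ptors p X)) :
    ((k • x : ↥(ptors p X)) : X) = k • (x : X) :=
  AddSubgroup.coe_zsmul _ _ _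

/-- The Eisenstein operator, on the underlying classes. -/
theorem coe_tEisZ (ℓ₀ : ℕ) [NeZero ℓ₀] (x : AH M c H p) :
    ((tEisZ M c H h2 hc p ℓ₀ x : AH M c H p) : JH M c H)
      = tEnd (TH (heckeData M c ℓ₀ H h2 hc).hβ) ((ℓ₀ + 1 : ℕ) : ℤ) (x : JH M c H) := by
  rw [tEnd_apply, ← Tz_apply M c H h2 hc p ℓ₀ x]
  rfl

theorem coe_tEisZ_pow (ℓ₀ : ℕ) [NeZero ℓ₀] (m : ℕ) (x : AH M c H p) :
    (((tEisZ M c H h2 hc p ℓ₀ ^ m) x : AH M c H p) : JH M c H)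
      = (tEnd (TH (heckeData M c ℓ₀ H h2 hc).hβ) ((ℓ₀ + 1 : ℕ) : ℤ) ^ m) (x : JH M c H) := by
  induction m with
  | zero => rfl
  | succ m ih =>
    rw [pow_succ', pow_succ', Module.End.mul_apply, coe_tEisZ, ih]
    rfl

end gen

/-! ## 2. The mixed setting -/

section Mix

variable (M c : ℕ) (p : ℕ) {R : ℕ} (q : Fin R → ℕ) (hqc : ∀ j, q j ∣ c) (e : Fin R → ℕ)

/-- The standing hypotheses of the mixed tower. -/
structure MixHyp : Prop where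
  hp : p.Prime
  hp2 : p ≠ 2
  /-- `5 ≤ p`, or an auxiliary prime `r ≡ 2 mod 3` in the level -/
  hU : 5 ≤ p ∨ ∃ r : ℕ, r.Prime ∧ r ∣ M ∧ r % 3 = 2
  hM : M ≠ 0
  hcM : c ∣ M
  hsq : Squarefree c
  prime : ∀ j, (q j).Prime
  cong : ∀ j, p ^ e j ∣ q j - 1

/-- The components `(ℤ/c)ˣ → (ℤ/q_j)ˣ`. -/
def compHom (j : Fin R) : (ZMod c)ˣ →* (ZMod (q j))ˣ := ZMod.unitsMap (hqc j)

/-- The subgroup `H = {u | ∀ j, u mod q_j is a p^(e j)-th power}`. -/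
def mixH : Subgroup (ZMod c)ˣ := mixSub (compHom c q hqc) (fun j => p ^ e j)

variable {M c p q hqc e}

theorem mixHyp_dvd_card (hyp : MixHyp M c p q e) (j : Fin R) :
    p ^ e j ∣ Nat.card (ZMod (q j))ˣ := by
  rw [card_units_of_prime (hyp.prime j)]
  exact hyp.cong j

theorem mixHyp_odd (hyp : MixHyp M c p q e) (a : ℕ) : Odd (p ^ a) :=
  (hyp.hp.odd_of_ne_two hyp.hp2).pow

theorem mixHyp_neg_one_mem (hyp : MixHyp M c p q e) :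
    (-1 : (ZMod c)ˣ) ∈ mixH c p q hqc e := by
  rw [mixH, mem_mixSub]
  intro j
  refine ⟨-1, ?_⟩
  rw [powMonoidHom_apply, (mixHyp_odd hyp (e j)).neg_one_pow]
  apply Units.ext
  show (-1 : ZMod (q j)) = ZMod.castHom (hqc j) (ZMod (q j)) ((-1 : (ZMod c)ˣ) : ZMod c)
  rw [Units.val_neg, Units.val_one, map_neg, map_one]

/-- every `p ^ E`-th power lies in `H`, `E = ∑ e j`. -/
theorem pow_mem_mixH (u : (ZMod c)ˣ) : u ^ (p ^ (∑ j, e j)) ∈ mixH c p q hqc e := by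
  rw [mixH, mem_mixSub]
  intro j
  have hle : e j ≤ ∑ j, e j := Finset.single_le_sum (f := e) (fun _ _ => Nat.zero_le _)
    (Finset.mem_univ j)
  obtain ⟨d, hd⟩ := Nat.exists_eq_add_of_le hle
  refine ⟨compHom c q hqc j u ^ (p ^ d), ?_⟩
  rw [powMonoidHom_apply, map_pow, ← pow_mul, ← pow_add, add_comm d, ← hd]

theorem mix_unrCond (hyp : MixHyp M c p q e) :
    Fermat.Agent.NEB.UnrCond M c (mixH c p q hqc e) :=
  Fermat.Agent.L.Pivot3.H9.unrCond_of_hU p (∑ j, e j) hyp.hp hyp.hp2 c M M hyp.hsq hyp.hcM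
    dvd_rfl hyp.hU _ pow_mem_mixH

variable [NeZero M] (h2 : 2 ≤ c) (hyp : MixHyp M c p q e)
  {H : Subgroup (ZMod c)ˣ} (hH : H = mixH c p q hqc e)
  {δ : Fin R → (ZMod c)ˣ} (hδ : IsGenFamM (compHom c q hqc) (fun j => p ^ e j) δ)

include hyp hH

include h2 in
/-- **FH-UNR** for the mixed subgroup: `F_H / F₀` is unramified (`p ≥ 5`). -/
theorem mix_unr (w : Place Kbar ↥(FHbar M c H)) :
    ∃ x : ↥(modularFunctionFieldBar M), w.ord (inclBar M c H x) = 1 := by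
  subst hH
  exact Fermat.Agent.NEB.H34.fh_unr c M _ h2 hyp.hcM hyp.hM (mix_unrCond hyp) w

/-- The kernel of `ρ` for `H`. -/
theorem mix_ker (d : (ZMod c)ˣ) :
    (diamondData M c H h2 hyp.hcM).ρ d = 1 ↔ d ∈ H := by
  subst hH
  rw [DiamondData.ker]
  constructor
  · rintro (h | h)
    · exact h
    · have h1 := Subgroup.mul_mem _ (mixHyp_neg_one_mem (hqc := hqc) hyp) h
      rwa [neg_mul_neg, one_mul] at h1
  · exact Or.inl

include hδ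

/-- The kernel of `ρ` at the `j`-th step of the chain. -/
theorem mix_ker_chain {ℓ₀ : ℕ} [NeZero ℓ₀] (j : ℕ) (d : (ZMod c)ˣ) :
    (heckeData M c ℓ₀ (chain H δ j) h2 hyp.hcM).dd.ρ d = 1 ↔ d ∈ chain H δ j := by
  subst hH
  rw [DiamondData.ker]
  constructor
  · rintro (h | h)
    · exact h
    · have h1 := Subgroup.mul_mem _
        (le_chain (mixH c p q hqc e) δ j (mixHyp_neg_one_mem (hqc := hqc) hyp)) h
      rwa [neg_mul_neg, one_mul] at h1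
  · exact Or.inl

theorem mix_hord {ℓ₀ : ℕ} [NeZero ℓ₀] (j : ℕ) (hj : j < R) :
    orderOf ((heckeData M c ℓ₀ (chain H δ j) h2 hyp.hcM).dd.ρ (deltaExt δ j))
      = p ^ e ⟨j, hj⟩ := by
  have hk := mix_ker_chain h2 hyp hH hδ (ℓ₀ := ℓ₀) j
  subst hH
  exact hδ.orderOf_chain _ j hj hk

theorem mix_htop (d : (ZMod c)ˣ) : d ∈ chain H δ R ∨ -d ∈ chain H δ R := by
  subst hH
  haveI : ∀ j, Finite (ZMod (q j))ˣ := fun j => finite_units_of_prime (hyp.prime j)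
  haveI : ∀ j, IsCyclic (ZMod (q j))ˣ := fun j => isCyclic_units_of_prime (hyp.prime j)
  exact Or.inl (hδ.chain_top (mixHyp_dvd_card hyp) d)

/-- the exponents, extended to `ℕ` -/
def expExt (e : Fin R → ℕ) (j : ℕ) : ℕ := if h : j < R then e ⟨j, h⟩ else 0

omit hyp hH hδ in
theorem expExt_of_lt (e : Fin R → ℕ) {j : ℕ} (h : j < R) : expExt e j = e ⟨j, h⟩ := by
  rw [expExt, dif_pos h]

omit hyp hH hδ in
theorem expExt_val (e : Fin R → ℕ) (j : Fin R) : expExt e (j : ℕ) = e j :=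
  expExt_of_lt e j.2

theorem mix_hord' {ℓ₀ : ℕ} [NeZero ℓ₀] (j : ℕ) (hj : j < R) :
    orderOf ((heckeData M c ℓ₀ (chain H δ j) h2 hyp.hcM).dd.ρ (deltaExt δ j))
      = p ^ expExt e j := by
  rw [expExt_of_lt e hj]
  exact mix_hord h2 hyp hH hδ j hj

/-- **DIV**: `t^N J_H[p^∞] ⊆ p J_H[p^∞]`. -/
theorem mix_div (ℓ₀ : ℕ) (hℓ₀ : ℓ₀.Prime) (hℓ₀M : ¬ ℓ₀ ∣ M) :
    ∃ Nn : ℕ, ∀ x : AH M c H p, ∃ y : AH M c H p,
      (tEisZ M c H h2 hyp.hcM p ℓ₀ ^ Nn) x = p • y := by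
  haveI : Fact p.Prime := ⟨hyp.hp⟩
  haveI : NeZero ℓ₀ := ⟨hℓ₀.ne_zero⟩
  haveI : NeZero c := ⟨by omega⟩
  refine ⟨divExpM p (expExt e) R R, fun x => ?_⟩
  obtain ⟨y, hy⟩ := stmt_DIV_tower_mix
    (heckeData M c ℓ₀ H h2 hyp.hcM) (chain H δ) rfl
    (fun j => heckeData M c ℓ₀ (chain H δ j) h2 hyp.hcM)
    hℓ₀ hℓ₀M R (deltaExt δ) (fun j _ => rfl) p (expExt e)
    (fun j hj => mix_hord' h2 hyp hH hδ j hj)
    (mix_htop hyp hH hδ)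
    (fun x => Fermat.Agent.S43.Old.H75.divisible_all M p hyp.hp.ne_zero x)
    (x : JH M c H)
  rw [← coe_tEisZ_pow M c H h2 hyp.hcM p ℓ₀] at hy
  have hy' : IsPTors p y := by
    obtain ⟨k, hk⟩ := ((tEisZ M c H h2 hyp.hcM p ℓ₀ ^ divExpM p (expExt e) R R) x).2
    refine ⟨k + 1, ?_⟩
    rw [pow_succ, mul_smul, ← hy]
    exact hk
  exact ⟨⟨y, hy'⟩, Subtype.ext (by rw [coe_nsmul_ptors_mix]; exact hy)⟩

/-- **HSTEP** on `J_H[p]`, with the exponent `p ^ e j` at the step `j`. -/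
theorem mix_hstep (ℓ₀ : ℕ) (hℓ₀ : ℓ₀.Prime) (hℓ₀M : ¬ ℓ₀ ∣ M) (j : Fin R)
    (v : AH M c H p) (hv : p • v = 0)
    (hfix : ∀ i, i ≤ j → diaZ M c H h2 hyp.hcM p (δ i) v = v) :
    ∃ (w : AH M c H p) (m : ℕ), p • w = 0 ∧
      (∀ i, i < j → diaZ M c H h2 hyp.hcM p (δ i) w = w) ∧
      ∑ a ∈ Finset.range (p ^ e j), (diaZ M c H h2 hyp.hcM p (δ j) ^ a) w
          = (tEisZ M c H h2 hyp.hcM p ℓ₀ ^ m) v := by
  haveI : Fact p.Prime := ⟨hyp.hp⟩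
  haveI : NeZero ℓ₀ := ⟨hℓ₀.ne_zero⟩
  haveI : NeZero c := ⟨by omega⟩
  have hv' : p ^ 1 • (v : JH M c H) = 0 := by
    rw [pow_one, ← coe_nsmul_ptors_mix, hv]
    rfl
  have hvG : ∀ i ≤ (j : ℕ),
      (heckeData M c ℓ₀ H h2 hyp.hcM).dd.ρ (deltaExt δ i) • (v : JH M c H)
        = (v : JH M c H) := by
    intro i hi
    have hir : i < R := lt_of_le_of_lt hi j.2
    rw [deltaExt_of_lt δ hir]
    exact congrArg Subtype.val (hfix ⟨i, hir⟩ hi)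
  obtain ⟨w, hw, hwfix, hsum⟩ := stmt_HSTEP_tower_mix
    (heckeData M c ℓ₀ H h2 hyp.hcM) (chain H δ) rfl
    (fun j => heckeData M c ℓ₀ (chain H δ j) h2 hyp.hcM)
    hℓ₀ hℓ₀M (mix_unr h2 hyp hH) R (deltaExt δ) (fun j _ => rfl) p (expExt e)
    (fun j hj => mix_hord' h2 hyp hH hδ j hj) (mix_htop hyp hH hδ)
    (fun x => Fermat.Agent.S43.Old.H75.divisible_all M p hyp.hp.ne_zero x)
    (j : ℕ) j.2 1 (v : JH M c H) hv' hvG
  rw [expExt_val] at hsum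
  refine ⟨⟨w, ⟨1, hw⟩⟩,
    (divExpM p (expExt e) R (R - ((j : ℕ) + 1)) + 1) * p ^ e j * 1 + 1 + 1, ?_, ?_, ?_⟩
  · apply Subtype.ext
    rw [coe_nsmul_ptors_mix]
    rw [pow_one] at hw
    exact hw
  · intro i hi
    apply Subtype.ext
    have h1 := hwfix (i : ℕ) hi
    rw [deltaExt_val] at h1
    exact h1
  · apply Subtype.ext
    rw [coe_sum_ptors_mix, coe_tEisZ_pow]
    rw [deltaExt_val] at hsum
    rw [← hsum]
    refine Finset.sum_congr rfl fun a _ => ?_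
    exact coe_diaZ_pow_mix _ _ _ h2 _ p (δ j) a _

omit hδ in
/-- **INV** on `J_H[p]`. -/
theorem mix_inv (ℓ₀ : ℕ) (hℓ₀ : ℓ₀.Prime) (hℓ₀M : ¬ ℓ₀ ∣ M)
    (y : AH M c H p) (hy : p • y = 0)
    (hfix : ∀ u, diaZ M c H h2 hyp.hcM p u y = y) :
    ∃ (y₀ : A0 M p) (m : ℕ), p • y₀ = 0 ∧
      upZ M c H p y₀ = (tEisZ M c H h2 hyp.hcM p ℓ₀ ^ m) y := by
  haveI : NeZero ℓ₀ := ⟨hℓ₀.ne_zero⟩
  have hy' : ((p : ℕ) : ℤ) • (y : JH M c H) = 0 := by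
    rw [natCast_zsmul, ← coe_nsmul_ptors_mix, hy]
    rfl
  obtain ⟨y₀, hy₀, hup⟩ := stmt_INV_JH'
    (heckeData M c ℓ₀ H h2 hyp.hcM)
    hℓ₀ hℓ₀M (mix_unr h2 hyp hH) p hyp.hp.ne_zero
    (y : JH M c H) hy'
    (fun d => congrArg Subtype.val (hfix d))
  rw [natCast_zsmul] at hy₀
  have hmem : IsPTors p y₀ := ⟨1, by rw [pow_one]; exact hy₀⟩
  refine ⟨⟨y₀, hmem⟩, 1, Subtype.ext ?_, Subtype.ext ?_⟩
  · rw [coe_nsmul_ptors_mix]
    exact hy₀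
  · show piUp M c H y₀ = _
    rw [coe_tEisZ_pow, pow_one, tEnd_apply, natCast_zsmul]
    exact hup

/-- The diamond operators at the generators have order dividing `p ^ e j`. -/
theorem mix_diaZ_pow (j : Fin R) :
    diaZ M c H h2 hyp.hcM p (δ j) ^ (p ^ e j) = 1 := by
  rw [← map_pow]
  refine LinearMap.ext fun x => Subtype.ext ?_
  have hmem : δ j ^ (p ^ e j) ∈ H := by
    rw [hH]
    exact hδ.pow_mem_mixSub j
  rw [diaZ_apply, (mix_ker h2 hyp hH (δ j ^ (p ^ e j))).2 hmem, one_smul]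
  rfl

omit hδ hH in
include h2 in
/-- **SIGMA** on `J₀[p^∞]`. -/
theorem mix_sigma (H : Subgroup (ZMod c)ˣ) (ℓ₀ : ℕ) (hℓ₀ : ℓ₀.Prime) (hℓ₀M : ¬ ℓ₀ ∣ M)
    (y₀ : A0 M p) (hker : upZ M c H p y₀ = 0) :
    Tz0 M p ℓ₀ y₀ - ((ℓ₀ + 1 : ℕ) : ℤ) • y₀ = 0 := by
  haveI : NeZero ℓ₀ := ⟨hℓ₀.ne_zero⟩
  obtain ⟨k, hk⟩ := y₀.2
  have hk' : ((p ^ k : ℕ) : ℤ) • (y₀ : JZero M) = 0 := by
    rw [natCast_zsmul]
    exact hk
  have h := stmt_SIGMA_JH'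
    (heckeData M c ℓ₀ H h2 hyp.hcM)
    hℓ₀ hℓ₀M (p ^ k) (pow_ne_zero k hyp.hp.ne_zero) (y₀ : JZero M) hk'
    (congrArg Subtype.val hker)
  apply Subtype.ext
  rw [AddSubgroup.coe_sub, coe_zsmul_ptors_mix, Tz0_apply, natCast_zsmul]
  exact h

end Mix

end Fermat.Agent.L.Pivot.Geom.H70

end
end
-- ==== END Fermat.Agent.L.Pivot.Geom.H70_TowerZ

-- ==== BEGIN Fermat.Agent.L.Pivot.Geom.H81_NewAsmV
section

/-!
# PIVOT, PV-GEOM, leaf PVG-NEW-ASM (helper81), part 5: the assembly on an abstract span `V`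

* `new_V` : the statement of the field `new` of `PVBase` for an abstract module `W` and an
  abstract span `V ↪ Hom_par(Γ₀(N c) ∩ Γ₁(c), L)` containing a lattice `T₀` on which the
  polynomial Hecke ring `𝕋⁺` acts compatibly.
-/

set_option autoImplicit false

open IsLocalRing TensorProduct

namespace Fermat.Agent.L.Pivot.Geom.H81

open CongruenceSubgroup Matrix.SpecialLinearGroup ModularForm Finset
open scoped MatrixGroups
open Fermat.Agent.NEB.EIG.H39 Fermat.Agent.Betti ModularCurve.Period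
open Fermat.Agent.S59.Lim Fermat.Agent.L.Pivot

set_option maxHeartbeats 1000000 in
/-- **PVG-NEW-ASM on an abstract span.** -/
theorem new_V (p : ℕ) [Fact p.Prime] (N : ℕ) (hN : N ≠ 0) (qs : List ℕ) (hnd : qs.Nodup)
    (hpr : ∀ q ∈ qs, q.Prime) (hqN : ∀ q ∈ qs, ¬ q ∣ N)
    (c N' M : ℕ) (hc : c = qs.prod) (hM : M = N * c) (hcM : c ∣ M) (hN' : N' = N * c * c)
    [NeZero N'] (S : Finset ℕ)
    (hS : ∀ q : ℕ, q.Prime → q ∣ N' → q ∈ (↑S : Set ℕ))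
    {𝒪 : Type} [CommRing 𝒪] [IsDomain 𝒪] [IsDiscreteValuationRing 𝒪]
    [IsAdicComplete (maximalIdeal 𝒪) 𝒪] [CharZero 𝒪]
    (ϖ : 𝒪) (hϖ : Irreducible ϖ) (hp𝒪 : (p : 𝒪) ∈ maximalIdeal 𝒪)
    {L : Type} [Field L] [CharZero L] [IsAlgClosed L] [Algebra 𝒪 L]
    (hL : Function.Injective (algebraMap 𝒪 L))
    {V : Type} [AddCommGroup V] [Module L V] [FiniteDimensional L V]
    (μ : V →ₗ[L] (Additive (Gam1 M c) →+ L)) (hμ : Function.Injective μ)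
    (hμpar : ∀ v, IsParabolicHom (Gam1 M c) (μ v))
    (TV : ℕ → Module.End L V)
    (hTV : ∀ (ℓ : ℕ) (hℓ : ℓ.Prime) (hℓM : ¬ ℓ ∣ M) (v : V),
      μ (TV ℓ v) = TD M c hcM hℓ hℓM (μ v))
    (dia : (ZMod c)ˣ →* Module.End L V)
    (hdia : ∀ (g : SL(2, ℤ)) (hg : ((M : ℕ) : ℤ) ∣ g 1 0) (d : (ZMod c)ˣ),
      (d : ZMod c) = ((g 0 0 : ℤ) : ZMod c) →
      ∀ v, μ (dia d v) = Dop hcM g hg (μ v))
    (hcommV : ∀ ℓ d, Commute (TV ℓ) (dia d))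
    (j : ℕ) (hdn : ∀ d, dia d ^ (2 * j + 1) = 1)
    {T₀ : Type} [AddCommGroup T₀] (gn : T₀ →ₗ[ℤ] V) (hgn : Function.Injective gn)
    {𝕋 : Type} [CommRing 𝕋] (ρT : 𝕋 →+* Module.End ℤ T₀)
    {W : Type} [AddCommGroup W] [Module 𝒪 W] (hW : IsDiv ϖ W)
    (ρW : 𝕋 →+* Module.End 𝒪 W) (hker : ∀ s, ρT s = 0 → ρW s = 0)
    (z : ℕ → 𝕋)
    (hzV : ∀ (ℓ : ℕ), ℓ.Prime → ¬ ℓ ∣ N' → ℓ ∉ (↑S : Set ℕ) → ∀ ξ : T₀,
      tOp TV dia j ℓ (gn ξ) = gn (ρT (z ℓ) ξ))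
    (etaW : CuspForm.heckeAlgebra N' 2 (↑S : Set ℕ) →+* Module.End 𝒪 W)
    (hetaW : ∀ (ℓ : ℕ) (hℓ : ℓ.Prime) (hℓN : ¬ ℓ ∣ N') (hℓS : ℓ ∉ (↑S : Set ℕ)),
      etaW (CuspForm.heckeAlgebra.T hℓ hℓN hℓS) = ρW (z ℓ))
    {k : ℕ} (qP : Fin k → ℕ) (hqP : ∀ i, qP i ∈ qs) (hqPp : ∀ i, qP i ≠ p)
    (δ : Fin k → (ZMod c)ˣ)
    (hδ : ∀ i, ∀ q' ∈ qs, q' ≠ qP i → ∀ hd : q' ∣ c, ZMod.unitsMap hd (δ i) = 1)
    (zc : Fin k → 𝕋) (hzcV : ∀ i (ξ : T₀), dia (δ i) (gn ξ) = gn (ρT (zc i) ξ))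
    (cW : Fin k → Module.End 𝒪 W) (hcW : ∀ i, cW i = ρW (zc i))
    (eP : Fin k → ℕ) (hcWpow : ∀ i, cW i ^ (p ^ eP i) = 1)
    (hN2 : ∀ (i : Fin k) [NeZero (N' / qP i)] [NeZero (qP i)],
      H50.Stmt_NewJ0 (N' / qP i) (qP i) p) :
    ∀ (ψ : Fin k → 𝒪), (∀ i, ψ i ^ (p ^ eP i) = 1 ∧ ψ i ≠ 1) →
    ∀ (E : Type) [CommRing E] [IsDomain E] [CharZero E]
      (χ : CuspForm.heckeAlgebra N' 2 (↑S : Set ℕ) →+* E),
      (∀ t, (∀ v : H2.tate ϖ W, H2.mapEnd ϖ W (etaW t) v ∈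
          typeSub (fun i => H2.mapEnd ϖ W (cW i)) ψ) → χ t = 0) →
      ∀ (i : Fin k) [NeZero (N' / qP i)]
        (χ' : CuspForm.heckeAlgebra (N' / qP i) 2 (↑S : Set ℕ) →+* E),
        ¬ ∀ (ℓ : ℕ) (hℓ : ℓ.Prime) (hℓN' : ¬ ℓ ∣ N') (hℓS : ℓ ∉ (↑S : Set ℕ))
          (hℓN : ¬ ℓ ∣ N' / qP i),
          χ' (CuspForm.heckeAlgebra.T hℓ hℓN hℓS) = χ (CuspForm.heckeAlgebra.T hℓ hℓN' hℓS) := by
  classical
  intro ψ hψ E _ _ _ χ hχ i₀ _ χ' hχ'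
  subst hM
  subst hc
  subst hN'
  have hp : p.Prime := Fact.out
  have hp0 : (p : 𝒪) ≠ 0 := Nat.cast_ne_zero.mpr hp.ne_zero
  haveI : NeZero qs.prod := ⟨prod_primes_ne_zero hpr⟩
  haveI := hasEnough_of_algClosed L qs.prod
  obtain ⟨etaV, hetaV⟩ := stmt_OP (L := L) (V := V) N hN qs hnd hpr hqN qs.prod
    (N * qs.prod * qs.prod) rfl rfl (↑S : Set ℕ) hS μ hμ hμpar TV hTV dia hdia hcommV j hdn
  have hdd : ∀ d d', Commute (dia d) (dia d') := fun d d' => (Commute.all d d').map dia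
  have hcVeta : ∀ i t, Commute (etaV t) (dia (δ i)) := by
    intro i
    refine hecke_induction hS (fun ℓ hℓ hℓN hℓS => ?_) (fun n => ?_) (fun x y hx hy => ?_)
      (fun x y hx hy => ?_)
    · rw [hetaV ℓ hℓ hℓN hℓS]
      exact (hcommV ℓ (δ i)).mul_left ((hdd _ (δ i)).pow_left j)
    · rw [map_intCast]
      exact Int.cast_commute n _
    · rw [map_add]
      exact hx.add_left hy
    · rw [map_mul]
      exact hx.mul_left hy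
  obtain ⟨χ'', w, hker', hw0, hwδ, hwT⟩ := exists_eigen_new ϖ hϖ p hp.pos hL
    (N * qs.prod * qs.prod) S hS gn hgn ρT hW ρW hker z zc etaV
    (fun ℓ hℓ hℓN hℓS ξ => by
      rw [hetaV ℓ hℓ hℓN hℓS]
      exact hzV ℓ hℓ hℓN hℓS ξ)
    (fun i => dia (δ i)) hzcV hcVeta etaW hetaW cW hcW eP hcWpow ψ hψ E χ hχ i₀
  obtain ⟨hlev, hqM, hq2M⟩ := level_div_facts N qs hnd hpr hqN (hqP i₀)
  obtain ⟨χlow, hχlow⟩ := H25.exists_chiLow (N' := N * qs.prod * qs.prod)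
    (N'' := N * qs.prod * qs.prod / qP i₀) ⟨qP i₀, hlev.symm⟩ (↑S : Set ℕ) hS χ χ' hχ' χ'' hker'
  haveI : NeZero (qP i₀) := ⟨(hpr _ (hqP i₀)).ne_zero⟩
  exact false_of_eigen_new p hp hp𝒪 hp0 hL N hN qs hnd hpr hqN S μ hμ hμpar TV hTV dia hdia
    hcommV j hdn (qP i₀) (hqP i₀) (hqPp i₀) (hN2 i₀) (δ i₀) (hδ i₀)
    (fun ℓ => if h : ℓ.Prime ∧ ¬ ℓ ∣ N * qs.prod * qs.prod ∧ ℓ ∉ (↑S : Set ℕ) then
      χ'' (CuspForm.heckeAlgebra.T h.1 h.2.1 h.2.2) else 0)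
    w hw0 hwδ
    (fun ℓ h1 h2 h3 => by
      rw [dif_pos ⟨h1, h2, h3⟩, ← hwT, hetaV]
      rfl)
    χlow
    (fun ℓ hℓ hℓN hℓS hℓN' => by
      rw [dif_pos ⟨hℓ, hℓN', hℓS⟩]
      exact hχlow ℓ hℓ hℓN hℓS hℓN')

end Fermat.Agent.L.Pivot.Geom.H81

end
-- ==== END Fermat.Agent.L.Pivot.Geom.H81_NewAsmV

-- ==== BEGIN Fermat.Agent.L.Pivot.H76_Wire2Res
section

set_option autoImplicit false
set_option linter.unusedSectionVars false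
set_option linter.style.haveILetI false

open Polynomial IsLocalRing
open scoped TensorProduct

namespace Fermat.Agent.L.Pivot.H76

open Fermat.Agent.S59.Asm

section Adic

variable {A : Type} [CommRing A] [IsLocalRing A]

/-- The determinant of the residual representation is the cyclotomic character. -/
theorem detIsCyclotomic_residual (ρ : GaloisRepAdic A) (p : ℕ) (h : ρ.DetIsCyclotomic p) :
    (GaloisRepAdic.ofResidualGaloisRep ρ.residual).DetIsCyclotomic p := by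
  refine ⟨?_, fun n σ a ha => ?_⟩
  · have h1 : ((p : ℕ) : ResidueField A) = 0 := by
      rw [← map_natCast (residue A)]
      exact (residue_eq_zero_iff _).mpr h.1
    rw [h1]
    exact zero_mem _
  · obtain ⟨c, hc⟩ := Ideal.mem_span_singleton'.mp (h.2 n σ a ha)
    have hdet : LinearMap.det ((GaloisRepAdic.ofResidualGaloisRep ρ.residual).ρ σ)
        = residue A (LinearMap.det (ρ.ρ σ)) := by
      show LinearMap.det ((ρ.ρ σ).baseChange (ResidueField A)) = _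
      rw [LinearMap.det_baseChange]
      rfl
    rw [hdet]
    refine Ideal.mem_span_singleton'.mpr ⟨residue A c, ?_⟩
    rw [← map_natCast (residue A), ← map_mul, hc, map_sub, map_natCast]

/-- Unipotent inertia passes to the residual representation. -/
theorem isUnipotentOnInertiaAt_residual (ρ : GaloisRepAdic A) (q : ℕ)
    (h : ρ.IsUnipotentOnInertiaAt q) :
    (GaloisRepAdic.ofResidualGaloisRep ρ.residual).IsUnipotentOnInertiaAt q := by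
  intro P hP σ hσ
  have h1 : LinearMap.charpoly ((GaloisRepAdic.ofResidualGaloisRep ρ.residual).ρ σ)
      = (LinearMap.charpoly (ρ.ρ σ)).map (residue A) := charpoly_resid ρ σ
  rw [h1, h P hP σ hσ]
  simp only [Polynomial.map_pow, Polynomial.map_sub, Polynomial.map_X, Polynomial.map_one]

/-- Frobenius characteristic polynomials of the residual representation. -/
theorem charpoly_frob_residual (ρ : GaloisRepAdic A) (σ : AlgebraicClosure ℚ ≃ₐ[ℚ] AlgebraicClosure ℚ)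
    (a : ℤ) (ℓ : ℕ)
    (h : LinearMap.charpoly (ρ.ρ σ) = X ^ 2 - C ((a : ℤ) : A) * X + C ((ℓ : A))) :
    LinearMap.charpoly (ρ.residual.ρ σ)
      = X ^ 2 - C ((a : ℤ) : ResidueField A) * X + C ((ℓ : ResidueField A)) := by
  rw [charpoly_resid ρ σ, h]
  simp only [Polynomial.map_add, Polynomial.map_sub, Polynomial.map_mul, Polynomial.map_pow,
    Polynomial.map_X, map_intCast, map_natCast, Polynomial.map_intCast,
    Polynomial.map_natCast]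

end Adic

section Resid

variable {k : Type} [Field k]

/-- A scalar passes through an equivalence. -/
theorem scalar_of_isEquiv_resid {ρ₁ ρ₂ : ResidualGaloisRep k} (h : ρ₁.IsEquiv ρ₂)
    (σ : AlgebraicClosure ℚ ≃ₐ[ℚ] AlgebraicClosure ℚ) (c : k)
    (h1 : ρ₁.ρ σ = c • (1 : Module.End k ρ₁.V)) :
    ρ₂.ρ σ = c • (1 : Module.End k ρ₂.V) := by
  obtain ⟨e⟩ := h
  refine LinearMap.ext fun y => ?_
  obtain ⟨x, rfl⟩ := e.toLinearEquiv.surjective y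
  rw [← e.map_apply, h1, LinearMap.smul_apply, Module.End.one_apply, map_smul,
    LinearMap.smul_apply, Module.End.one_apply]

/-- A scalar passes through base change. -/
theorem scalar_bcAlong_resid {k' : Type} [Field k'] (j : k →+* k') (ρ : ResidualGaloisRep k)
    (σ : AlgebraicClosure ℚ ≃ₐ[ℚ] AlgebraicClosure ℚ) (c : k)
    (h1 : ρ.ρ σ = c • (1 : Module.End k ρ.V)) :
    (ρ.baseChangeAlong j).ρ σ = j c • (1 : Module.End k' (ρ.baseChangeAlong j).V) := by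
  letI : Algebra k k' := j.toAlgebra
  show (ρ.ρ σ).baseChange k' = j c • (1 : Module.End k' (k' ⊗[k] ρ.V))
  rw [h1]
  refine LinearMap.ext fun x => ?_
  induction x using TensorProduct.induction_on with
  | zero => simp only [map_zero]
  | tmul b v =>
    rw [LinearMap.baseChange_tmul, LinearMap.smul_apply, Module.End.one_apply,
      LinearMap.smul_apply, Module.End.one_apply, TensorProduct.tmul_smul,
      TensorProduct.smul_tmul', TensorProduct.smul_tmul', Algebra.smul_def, smul_eq_mul]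
    rfl
  | add x y hx hy => simp only [map_add, hx, hy]

end Resid

/-- A primitive `p^E`-th root of unity gives primitive `p^e`-th roots of unity, `e ≤ E`. -/
theorem exists_primitiveRoot_of_le {R : Type*} [CommRing R] {p E : ℕ} (hp : p.Prime)
    {ζ : R} (hζ : IsPrimitiveRoot ζ (p ^ E)) {e : ℕ} (he : e ≤ E) :
    ∃ ζ' : R, IsPrimitiveRoot ζ' (p ^ e) := by
  refine ⟨ζ ^ (p ^ (E - e)), ?_⟩
  refine hζ.pow (pow_pos hp.pos E) ?_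
  rw [← pow_add]
  congr 1
  omega

/-- `p ^ e ∣ m`, `0 < m < N` gives `e ≤ N`. -/
theorem le_of_pow_dvd {p e m N : ℕ} (hp : p.Prime) (h : p ^ e ∣ m) (hm : 0 < m) (hmN : m ≤ N) :
    e ≤ N := by
  have h1 : p ^ e ≤ m := Nat.le_of_dvd hm h
  have h2 : e < p ^ e := Nat.lt_pow_self hp.one_lt
  omega

end Fermat.Agent.L.Pivot.H76

end
-- ==== END Fermat.Agent.L.Pivot.H76_Wire2Res
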