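-- GENERATED (merged mirror, NOTES/tools/trim/merge3_helper67.py): 4 modules of the originals, bodies verbatim.
import Fermat.Agent.Zm.S43_L06_000
import Fermat.Agent.Zm.S43_L11_001
import Fermat.Agent.Zm.S43_L07_001
import Fermat.Agent.Zm.S56_L02_000
import Fermat.Agent.Zm.S35_L02_002
import Fermat.Agent.Zm.S43_L11_000
import Fermat.Agent.Zm.S43_L10_001
import Fermat.Agent.Zm.S35_L03_002
import Fermat.Agent.Zm.S48_L15_000
import Fermat.Agent.Zm.S35_L20_000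
import Fermat.Agent.Zm.S35_L10_001
import Fermat.Agent.Zm.S35_L21_000
import Fermat.Agent.Zm.S43_L01_001
import Fermat.Agent.Zm.S48_L06_000

-- ==== BEGIN Fermat.Agent.L.Pivot.Asm
section

set_option autoImplicit false

noncomputable section

namespace Fermat.Agent.L.Pivot

open Polynomial IsLocalRing CuspForm Fermat.Agent.S56 Fermat.Agent.S59 Fermat.Agent.S59.Asm

/-! ### PV-GAL for both conditions at `p` -/

/-- The condition `𝒟⁰` for `cond 𝒪 p fl`: `cond 𝒪 p fl Smin (Σ ∪ T)` and at the pivot primes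
`ρ (τ_j) = 1`, `ρ (frob_j)` scalar. -/
def condPvB (𝒪 : Type) [CommRing 𝒪] (p : ℕ) (fl : Bool) (Smin : Finset ℕ) {k : ℕ}
    (Pv : PivotPrimes k) (T : Finset ℕ) : Cond 𝒪 :=
  fun A _ _ _ ρ => cond 𝒪 p fl Smin (Pv.set ∪ T) ρ ∧
    ∀ j, ρ.ρ (Pv.τ j) = 1 ∧ ∃ c : A, ρ.ρ (Pv.frob j) = c • (1 : Module.End A ρ.V)

/-- **PV-GAL-N** for `cond 𝒪 p fl`. -/
def Stmt_PVGalNB : Prop :=
  ∀ (𝒪 : Type) [CommRing 𝒪] [IsDomain 𝒪] [IsDiscreteValuationRing 𝒪]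
    [IsAdicComplete (maximalIdeal 𝒪) 𝒪] [Finite (ResidueField 𝒪)]
    (p : ℕ) [Fact p.Prime] (fl : Bool) (ρbar : ResidualGaloisRep (ResidueField 𝒪))
    (S Smin : Finset ℕ),
    Hyp 𝒪 p ρbar S Smin →
    ∀ (k : ℕ) (Pv : PivotPrimes k), Pv.IsExceptional p ρbar → Pv.set ⊆ S →
    ∃ r g : ℕ, r = 3 * k + g ∧ ∀ n : ℕ, ∃ qv : Fin r → ℕ, IsTWFamily ρbar p n S qv ∧
      TangentLE 𝒪 ρbar (condPvB 𝒪 p fl Smin Pv (Finset.univ.image qv)) g

/-- **PV-GAL-A** for `cond 𝒪 p fl`. -/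
def Stmt_PVGalAB : Prop :=
  ∀ (𝒪 : Type) [CommRing 𝒪] [IsDomain 𝒪] [IsDiscreteValuationRing 𝒪]
    [IsAdicComplete (maximalIdeal 𝒪) 𝒪] [Finite (ResidueField 𝒪)]
    (p : ℕ) [Fact p.Prime] (fl : Bool) (ρbar : ResidualGaloisRep (ResidueField 𝒪))
    (S Smin : Finset ℕ),
    Hyp 𝒪 p ρbar S Smin →
    ∀ (k : ℕ) (Pv : PivotPrimes k), Pv.IsExceptional p ρbar → ∀ (T : Finset ℕ) (g : ℕ),
    TangentLE 𝒪 ρbar (condPvB 𝒪 p fl Smin Pv T) g →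
    ∀ DQ : GaloisRep.DeformationRingData 𝒪 ρbar (cond 𝒪 p fl Smin (Pv.set ∪ T)),
    ∀ b : Module.Basis (Fin 2) DQ.R DQ.ρ.V,
      ∃ γ : PRing 𝒪 k g →ₐ[𝒪] DQ.R, Function.Surjective γ ∧
        IsCoordHom γ (fun j => LinearMap.toMatrix b b (DQ.ρ.ρ (Pv.τ j)))
          (fun j => LinearMap.toMatrix b b (DQ.ρ.ρ (Pv.frob j)))

/-- **PV-GAL** for `cond 𝒪 p fl`. -/
def Stmt_PVGalB : Prop :=
  ∀ (𝒪 : Type) [CommRing 𝒪] [IsDomain 𝒪] [IsDiscreteValuationRing 𝒪]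
    [IsAdicComplete (maximalIdeal 𝒪) 𝒪] [Finite (ResidueField 𝒪)]
    (p : ℕ) [Fact p.Prime] (fl : Bool) (ρbar : ResidualGaloisRep (ResidueField 𝒪))
    (S Smin : Finset ℕ),
    Hyp 𝒪 p ρbar S Smin →
    ∀ (k : ℕ) (Pv : PivotPrimes k), Pv.IsExceptional p ρbar → Pv.set ⊆ S →
    ∃ r g : ℕ, r = 3 * k + g ∧ ∀ n : ℕ, ∃ qv : Fin r → ℕ, IsTWFamily ρbar p n S qv ∧
      ∀ DQ : GaloisRep.DeformationRingData 𝒪 ρbar
          (cond 𝒪 p fl Smin (Pv.set ∪ Finset.univ.image qv)),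
      ∀ b : Module.Basis (Fin 2) DQ.R DQ.ρ.V,
        ∃ γ : PRing 𝒪 k g →ₐ[𝒪] DQ.R, Function.Surjective γ ∧
          IsCoordHom γ (fun j => LinearMap.toMatrix b b (DQ.ρ.ρ (Pv.τ j)))
            (fun j => LinearMap.toMatrix b b (DQ.ρ.ρ (Pv.frob j)))

theorem stmt_PVGalB_of (hN : Stmt_PVGalNB) (hA : Stmt_PVGalAB) : Stmt_PVGalB := by
  intro 𝒪 _ _ _ _ _ p _ fl ρbar S Smin hyp k Pv hex hPS
  obtain ⟨r, g, hrg, h⟩ := hN 𝒪 p fl ρbar S Smin hyp k Pv hex hPS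
  refine ⟨r, g, hrg, fun n => ?_⟩
  obtain ⟨qv, hqv, hT⟩ := h n
  exact ⟨qv, hqv, fun DQ b => hA 𝒪 p fl ρbar S Smin hyp k Pv hex _ g hT DQ b⟩

/-! ### The geometric datum, second form -/

/-- **The geometric datum of PIVOT, with the local–global compatibility at the Taylor–Wiles primes
on `W`** (the same fields as in `TWGeom`, for the module `W` of level `M₀ ∏ q_j² ∏ qv_i²`; places,
Frobenius lifts, inertia elements and eigenvalues are those of `G1`). -/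
structure PVGeom2 (𝒪 : Type) [CommRing 𝒪] [IsLocalRing 𝒪] (p : ℕ)
    (ρbar : ResidualGaloisRep (ResidueField 𝒪))
    (N1 : ℕ) [NeZero N1] (S : Finset ℕ)
    (θ : CuspForm.heckeAlgebra N1 2 (↑S : Set ℕ) →+* ResidueField 𝒪)
    (M : HMod 𝒪 N1 (↑S : Set ℕ) θ) {k : ℕ} (qP : Fin k → ℕ) (eP : Fin k → ℕ)
    {r : ℕ} (n : ℕ) (qv : Fin r → ℕ)
    [NeZero (twLevel N1 qv)] [NeZero (pvLevel N1 qP qv)]
    extends PVGeom 𝒪 p ρbar N1 S θ M qP eP n qv where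
  Wα : Fin r → Submodule 𝒪 W.V
  Wβ : Fin r → Submodule 𝒪 W.V
  W_isCompl : ∀ i, IsCompl (Wα i) (Wβ i)
  Wα_η : ∀ (i : Fin r)
    (t : CuspForm.heckeAlgebra (pvLevel N1 qP qv) 2 (↑(twSet S qv) : Set ℕ)),
    ∀ v ∈ Wα i, W.η t v ∈ Wα i
  Wα_d : ∀ (i : Fin r), ∀ v ∈ Wα i, d i v ∈ Wα i
  Wα_frob : ∀ i, ∀ v ∈ Wα i, gal (G1.frob i) v ∈ Wα i
  Wβ_frob : ∀ i, ∀ v ∈ Wβ i, gal (G1.frob i) v ∈ Wβ i
  Wα_nil : ∀ i, ∃ m : ℕ, ∀ v ∈ Wα i,
    ((gal (G1.frob i) - G1.a i • (1 : Module.End 𝒪 W.V)) ^ m) v ∈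
      (maximalIdeal 𝒪 • ⊤ : Submodule 𝒪 W.V)
  Wβ_nil : ∀ i, ∃ m : ℕ, ∀ v ∈ Wβ i,
    ((gal (G1.frob i) - G1.a' i • (1 : Module.End 𝒪 W.V)) ^ m) v ∈
      (maximalIdeal 𝒪 • ⊤ : Submodule 𝒪 W.V)
  /-- the inertia element `σ_i` acts on `W^α` as the diamond operator `d_i` -/
  W_lg : ∀ i, ∀ v ∈ Wα i, gal (G1.σ i) v = d i v

/-- **PV-GEOM, second form** (item 72): the geometric datum exists for every Taylor–Wiles family.
`N1 = M₀ ∏ q_j` squarefree; the pivot primes divide `N1`; `5 ≤ p` or an auxiliary prime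
`r ≡ 2 mod 3` divides `N1` (`p ∣ N1` is allowed: ordinary case) and there is at least one pivot
prime (`0 < k`).
[`5 ≤ p`: for `p = 3` the covering `X_{H'} → X₀` is ramified at the elliptic points of order `3`
when `3 ^ e ∥ q_j - 1`, unless a prime `r ≡ 2 mod 3` divides the level (no elliptic points of
order `3` then); `S` is any set of primes containing the primes of `N1`.] -/
def Stmt_PVGeom2 : Prop :=
  ∀ (𝒪 : Type) [CommRing 𝒪] [IsDomain 𝒪] [IsDiscreteValuationRing 𝒪]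
    [IsAdicComplete (maximalIdeal 𝒪) 𝒪] [Finite (ResidueField 𝒪)] [CharZero 𝒪]
    (p : ℕ) [Fact p.Prime] (ρbar : ResidualGaloisRep (ResidueField 𝒪)) (S Smin : Finset ℕ),
    Hyp 𝒪 p ρbar S Smin →
    ∀ (N1 : ℕ) [NeZero N1] [Fact (CuspForm.HasIntegralStructure N1 2)],
    (∀ q : ℕ, q.Prime → q ∣ N1 → q ∈ S) → Squarefree N1 →
    (5 ≤ p ∨ ∃ r : ℕ, r.Prime ∧ r ∣ N1 ∧ r % 3 = 2) →
    ∀ (θ : CuspForm.heckeAlgebra N1 2 (↑S : Set ℕ) →+* ResidueField 𝒪),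
      Fermat.Agent.S59.Datum.FrobHyp ρbar N1 S θ →
    ∀ (k : ℕ) (Pv : PivotPrimes k), 0 < k → Pv.IsExceptional p ρbar → (∀ j, Pv.q j ∣ N1) →
    ∀ (eP : Fin k → ℕ), (∀ j, p ^ eP j ∣ Pv.q j - 1 ∧ ¬ p ^ (eP j + 1) ∣ Pv.q j - 1) →
    ∃ M : HMod 𝒪 N1 (↑S : Set ℕ) θ, Nontrivial M.V ∧
      ∀ (r n : ℕ) (qv : Fin r → ℕ), IsTWFamily ρbar p n S qv →
        ∀ [NeZero (twLevel N1 qv)] [NeZero (pvLevel N1 Pv.q qv)]
          [Fact (CuspForm.HasIntegralStructure (twLevel N1 qv) 2)]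
          [Fact (CuspForm.HasIntegralStructure (pvLevel N1 Pv.q qv) 2)],
          Nonempty (PVGeom2 𝒪 p ρbar N1 S θ M Pv.q eP n qv)

/-! ### The types -/

/-- The finite set of the ramified types: `δ_j = ζ_j ^ i_j - ζ_j ^ (p ^ e_j - i_j)`,
`0 < i_j < p ^ e_j`. -/
def pvTypes {𝒪 : Type} [CommRing 𝒪] (p : ℕ) {k : ℕ} (eP : Fin k → ℕ) (ζ : Fin k → 𝒪) :
    Finset (Fin k → 𝒪) := by
  classical
  exact ((Finset.univ : Finset (∀ j : Fin k, Fin (p ^ eP j))).filter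
    (fun i => ∀ j, (i j : ℕ) ≠ 0)).image
    (fun i j => ζ j ^ (i j : ℕ) - ζ j ^ (p ^ eP j - (i j : ℕ)))

theorem mem_pvTypes {𝒪 : Type} [CommRing 𝒪] {p : ℕ} {k : ℕ} {eP : Fin k → ℕ} {ζ : Fin k → 𝒪}
    {δ : Fin k → 𝒪} :
    δ ∈ pvTypes p eP ζ ↔ ∃ i : Fin k → ℕ, (∀ j, i j < p ^ eP j) ∧ (∀ j, i j ≠ 0) ∧
      δ = fun j => ζ j ^ i j - ζ j ^ (p ^ eP j - i j) := by
  classical
  unfold pvTypes
  simp only [Finset.mem_image, Finset.mem_filter, Finset.mem_univ, true_and]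
  constructor
  · rintro ⟨i, hi, rfl⟩
    exact ⟨fun j => (i j : ℕ), fun j => (i j).2, hi, rfl⟩
  · rintro ⟨i, hi1, hi2, rfl⟩
    exact ⟨fun j => ⟨i j, hi1 j⟩, hi2, rfl⟩

/-! ### C-pt: points which are new at `q²` are not unipotent at `q` -/

/-- **PV-NU-POINT.**  A characteristic-`0` point `χ` of the Hecke algebra of level `N = M q²`
(`q ∤ M`, `q ≠ p`) with its representation `ρ` (residually absolutely irreducible): if `χ` does
not occur at level `M q` then `ρ` is not unipotent on inertia at `q`.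
[The newform of `χ` has level `Mg ∣ N` (`H50.exists_newform_iota`), `q² ∣ Mg` by
`H50.occursAtLevel_of_newform`; Carayol's theorem `S58.Stmt_S36`; the attached representation
is equivalent to `ρ` (`H50.isEquiv_of_frob`).] -/
def Stmt_PVNUPoint : Prop :=
  ∀ (p N M q : ℕ) [NeZero N] [NeZero (M * q)] (S : Finset ℕ)
    (𝒪 : Type) [CommRing 𝒪] [IsDomain 𝒪] [IsDiscreteValuationRing 𝒪]
    [IsAdicComplete (maximalIdeal 𝒪) 𝒪] [Finite (ResidueField 𝒪)] [CharZero 𝒪],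
    p.Prime → p ≠ 2 → (p : 𝒪) ∈ maximalIdeal 𝒪 → q.Prime → q ≠ p → N = M * q ^ 2 → ¬ q ∣ M →
    p ∈ S → (∀ q' : ℕ, q'.Prime → q' ∣ N → q' ∈ S) →
    ∀ (χ : CuspForm.heckeAlgebra N 2 (↑S : Set ℕ) →+* 𝒪) (ρ : GaloisRepAdic 𝒪),
      Fermat.Agent.R.HasFrobCharpoly χ ρ → ρ.residual.IsAbsolutelyIrreducible →
      ¬ Fermat.Agent.R.OccursAtLevel χ (M * q) → ¬ ρ.IsUnipotentOnInertiaAt q

/-! ### The context of the assembly -/

/-- The data at a Taylor–Wiles family: geometric datum, universal ring with its coordinates, Hecke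
ring of the level `M₀ ∏ q_j² ∏ qv_i²` with its representation and the map from the universal ring,
and the action of the Hecke ring on `W`. -/
structure PVCtx (𝒪 : Type) [CommRing 𝒪] [IsDomain 𝒪] [IsDiscreteValuationRing 𝒪]
    [IsAdicComplete (maximalIdeal 𝒪) 𝒪] (p : ℕ) (fl : Bool)
    (ρbar : ResidualGaloisRep (ResidueField 𝒪))
    (N1 : ℕ) [NeZero N1] (S Smin : Finset ℕ)
    (θ : CuspForm.heckeAlgebra N1 2 (↑S : Set ℕ) →+* ResidueField 𝒪)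
    (M : HMod 𝒪 N1 (↑S : Set ℕ) θ) {k : ℕ} (Pv : PivotPrimes k) (eP : Fin k → ℕ) (g : ℕ)
    {r : ℕ} (n : ℕ) (qv : Fin r → ℕ)
    [NeZero (twLevel N1 qv)] [NeZero (pvLevel N1 Pv.q qv)]
    [Fact (CuspForm.HasIntegralStructure (pvLevel N1 Pv.q qv) 2)] : Type 1 where
  /-- the geometric datum -/
  G : PVGeom2 𝒪 p ρbar N1 S θ M Pv.q eP n qv
  /-- the universal ring of `cond 𝒪 p fl Smin (Σ ∪ Q)` -/
  DQ : GaloisRep.DeformationRingData 𝒪 ρbar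
    (cond 𝒪 p fl Smin (Pv.set ∪ Finset.univ.image qv))
  /-- a basis of the universal deformation -/
  bQ : Module.Basis (Fin 2) DQ.R DQ.ρ.V
  /-- the coordinates -/
  γ : PRing 𝒪 k g →ₐ[𝒪] DQ.R
  γ_surjective : Function.Surjective γ
  γ_coord : IsCoordHom γ (fun j => LinearMap.toMatrix bQ bQ (DQ.ρ.ρ (Pv.τ j)))
    (fun j => LinearMap.toMatrix bQ bQ (DQ.ρ.ρ (Pv.frob j)))
  /-- the Hecke–Galois datum of the level `M₀ ∏ q_j² ∏ qv_i²` -/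
  HQ : CuspForm.HeckeGaloisRepDatum (pvLevel N1 Pv.q qv) (↑(twSet S qv) : Set ℕ) 𝒪
    ((θ.comp G.G1.rest).comp G.rest)
    (CuspForm.heckeLocal (pvLevel N1 Pv.q qv) (↑(twSet S qv) : Set ℕ) 𝒪
      ((θ.comp G.G1.rest).comp G.rest))
  HQ_π : HQ.π = CuspForm.heckeLocal.π (pvLevel N1 Pv.q qv) (↑(twSet S qv) : Set ℕ) 𝒪
    ((θ.comp G.G1.rest).comp G.rest)
  HQ_det : HQ.ρ.DetIsCyclotomic p
  /-- the map from the universal ring -/
  φQ : DQ.R →ₐ[𝒪] CuspForm.heckeLocal (pvLevel N1 Pv.q qv) (↑(twSet S qv) : Set ℕ) 𝒪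
    ((θ.comp G.G1.rest).comp G.rest)
  φQ_local : IsLocalHom (φQ : DQ.R →+* CuspForm.heckeLocal (pvLevel N1 Pv.q qv)
    (↑(twSet S qv) : Set ℕ) 𝒪 ((θ.comp G.G1.rest).comp G.rest))
  φQ_equiv : (DQ.ρ.baseChangeAlong (φQ : DQ.R →+* CuspForm.heckeLocal (pvLevel N1 Pv.q qv)
    (↑(twSet S qv) : Set ℕ) 𝒪 ((θ.comp G.G1.rest).comp G.rest)) φQ_local).IsEquiv HQ.ρ
  /-- the action of the Hecke ring on `W` -/
  ηW : CuspForm.heckeLocal (pvLevel N1 Pv.q qv) (↑(twSet S qv) : Set ℕ) 𝒪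
    ((θ.comp G.G1.rest).comp G.rest) →ₐ[𝒪] Module.End 𝒪 G.W.V
  ηW_π : ∀ t : CuspForm.heckeAlgebra (pvLevel N1 Pv.q qv) 2 (↑(twSet S qv) : Set ℕ),
    ηW (CuspForm.heckeLocal.π (pvLevel N1 Pv.q qv) (↑(twSet S qv) : Set ℕ) 𝒪
      ((θ.comp G.G1.rest).comp G.rest) t) = G.W.η t

/-- The standing hypotheses of the assembly on the level and the pivot primes. -/
structure PVHyp {𝒪 : Type} [CommRing 𝒪] [IsLocalRing 𝒪] (p : ℕ)
    (ρbar : ResidualGaloisRep (ResidueField 𝒪)) (N1 : ℕ) (S Smin : Finset ℕ) {k : ℕ}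
    (Pv : PivotPrimes k) (eP : Fin k → ℕ) : Prop where
  hyp : Hyp 𝒪 p ρbar S Smin
  /-- `5 ≤ p` (needed by PV-GEOM: no elliptic ramification in the pivot tower) -/
  h5 : 5 ≤ p
  /-- there is at least one pivot prime -/
  hk : 0 < k
  hsq : Squarefree N1
  hNS : ∀ q : ℕ, q.Prime → q ∣ N1 → q ∈ S
  hex : Pv.IsExceptional p ρbar
  hPvN : ∀ j, Pv.q j ∣ N1
  hS : S = Smin ∪ Pv.set
  hSminN : ∀ q ∈ Smin, q ≠ p → q ∣ N1
  heP : ∀ j, p ^ eP j ∣ Pv.q j - 1 ∧ ¬ p ^ (eP j + 1) ∣ Pv.q j - 1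

/-! ### Leaf B: the unipotent relations -/

/-- **PV-UNIP** (B).  `idealUnip` kills `W / ∑ (c_j - 1) W = G1.W`.
[`κ` intertwines `ηW` with the action of `TQ1` through the restriction `T'Q → TQ1` (RESLOC,
`intertwine_of_gen`); `TQ1` is reduced; at a minimal prime of `TQ1` the representation is
unipotent at `q_j` (`hunip`, from the frozen S34), so `H59.types_of_point` with `i_j = 0`
applies.] -/
def Stmt_PVUnip : Prop :=
  ∀ (𝒪 : Type) [CommRing 𝒪] [IsDomain 𝒪] [IsDiscreteValuationRing 𝒪]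
    [IsAdicComplete (maximalIdeal 𝒪) 𝒪] [Finite (ResidueField 𝒪)] [CharZero 𝒪]
    (p : ℕ) [Fact p.Prime] (fl : Bool) (ρbar : ResidualGaloisRep (ResidueField 𝒪))
    (N1 : ℕ) [NeZero N1] (S Smin : Finset ℕ)
    (θ : CuspForm.heckeAlgebra N1 2 (↑S : Set ℕ) →+* ResidueField 𝒪)
    (M : HMod 𝒪 N1 (↑S : Set ℕ) θ) (k : ℕ) (Pv : PivotPrimes k) (eP : Fin k → ℕ),
    PVHyp p ρbar N1 S Smin Pv eP →
    ∀ (g r n : ℕ) (qv : Fin r → ℕ), IsTWFamily ρbar p n S qv →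
    ∀ [NeZero (twLevel N1 qv)] [NeZero (pvLevel N1 Pv.q qv)]
      [Fact (CuspForm.HasIntegralStructure (twLevel N1 qv) 2)]
      [Fact (CuspForm.HasIntegralStructure (pvLevel N1 Pv.q qv) 2)]
      (X : PVCtx 𝒪 p fl ρbar N1 S Smin θ M Pv eP g n qv)
      (HQ1 : CuspForm.HeckeGaloisRepDatum (twLevel N1 qv) (↑(twSet S qv) : Set ℕ) 𝒪
        (θ.comp X.G.G1.rest)
        (CuspForm.heckeLocal (twLevel N1 qv) (↑(twSet S qv) : Set ℕ) 𝒪 (θ.comp X.G.G1.rest))),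
    HQ1.π = CuspForm.heckeLocal.π (twLevel N1 qv) (↑(twSet S qv) : Set ℕ) 𝒪
      (θ.comp X.G.G1.rest) →
    HQ1.ρ.DetIsCyclotomic p →
    (∀ j, HQ1.ρ.IsUnipotentOnInertiaAt (Pv.q j)) →
    ∀ f ∈ idealUnip g (fun j => ((Pv.q j : ℕ) : 𝒪)), ∀ v : X.G.W.V,
      X.ηW (X.φQ (X.γ f)) v ∈ typeSub X.G.c (fun _ => (1 : 𝒪))

/-! ### Leaf C: the ramified types -/

/-- **PV-NU** (C).  The intersection of the type ideals kills `W / ∑ (c_j - ψ_j) W` when all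
`ψ_j ≠ 1`.
[`W / typeSub c ψ` is `𝒪`-free and `T'Q` is reduced, so it suffices to test at the points `x` of
`T'Q` which kill the annihilator of `W / typeSub c ψ`; by the field `new` of the geometric datum
`x ∘ π` does not occur at the level `pvLevel / q_j`, by `Stmt_PVNUPoint` the representation at
`x` is not unipotent at `q_j`, so `i_j ≠ 0` in `H59.types_of_point`: `x ∘ φQ ∘ γ` is a point of
type `δ ∈ pvTypes`, killed by `𝔞 δ`.] -/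
def Stmt_PVNU : Prop :=
  ∀ (𝒪 : Type) [CommRing 𝒪] [IsDomain 𝒪] [IsDiscreteValuationRing 𝒪]
    [IsAdicComplete (maximalIdeal 𝒪) 𝒪] [Finite (ResidueField 𝒪)] [CharZero 𝒪]
    (p : ℕ) [Fact p.Prime] (fl : Bool) (ρbar : ResidualGaloisRep (ResidueField 𝒪))
    (N1 : ℕ) [NeZero N1] (S Smin : Finset ℕ)
    (θ : CuspForm.heckeAlgebra N1 2 (↑S : Set ℕ) →+* ResidueField 𝒪)
    (M : HMod 𝒪 N1 (↑S : Set ℕ) θ) (k : ℕ) (Pv : PivotPrimes k) (eP : Fin k → ℕ),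
    PVHyp p ρbar N1 S Smin Pv eP →
    ∀ (g r n : ℕ) (qv : Fin r → ℕ), IsTWFamily ρbar p n S qv →
    ∀ [NeZero (twLevel N1 qv)] [NeZero (pvLevel N1 Pv.q qv)]
      [Fact (CuspForm.HasIntegralStructure (pvLevel N1 Pv.q qv) 2)]
      (X : PVCtx 𝒪 p fl ρbar N1 S Smin θ M Pv eP g n qv)
      (ζ : Fin k → 𝒪), (∀ j, IsPrimitiveRoot (ζ j) (p ^ eP j)) →
    ∀ (ψ : Fin k → 𝒪), (∀ j, ψ j ^ (p ^ eP j) = 1 ∧ ψ j ≠ 1) →
    ∀ (𝔞 : (Fin k → 𝒪) → Ideal (PRing 𝒪 k g)),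
      (∀ δ ∈ pvTypes p eP ζ, KilledByType g δ (𝔞 δ)) →
    ∀ f ∈ (pvTypes p eP ζ).inf 𝔞, ∀ v : X.G.W.V,
      X.ηW (X.φQ (X.γ f)) v ∈ typeSub X.G.c ψ

/-! ### Leaf A: the assembly -/

/-- **PV-ASM** (A): the level of the patching datum at a Taylor–Wiles family.
[As `Fermat.Agent.S59.Asm.H77.stmt_ASM`, with `H76.pvCore` instead of `twLevel_of_core`:
`V := W`, `fV := ηW ∘ φQ`, `π := G1.π ∘ κ`; `δ_i` from `exists_delta` on `W` (fields `Wα, …` of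
`PVGeom2`); `res1 ∘ res' ∘ φQ = τ` by COMPAT; `Ξ ≤ (τ γ)(𝔵) T`: the ideal of the entries of
`H.ρ (τ_j) - 1` does not depend on the basis, and `a - 1 ∈ (a - d, b, c)` when `a d - b c = 1`,
`a ≡ 1` and `2` is a unit.] -/
def Stmt_PVAsm : Prop :=
  ∀ (𝒪 : Type) [CommRing 𝒪] [IsDomain 𝒪] [IsDiscreteValuationRing 𝒪]
    [IsAdicComplete (maximalIdeal 𝒪) 𝒪] [Finite (ResidueField 𝒪)] [CharZero 𝒪]
    (p : ℕ) [Fact p.Prime] (fl : Bool) (ρbar : ResidualGaloisRep (ResidueField 𝒪))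
    (N1 : ℕ) [NeZero N1] [Fact (CuspForm.HasIntegralStructure N1 2)] (S Smin : Finset ℕ)
    (θ : CuspForm.heckeAlgebra N1 2 (↑S : Set ℕ) →+* ResidueField 𝒪)
    (M : HMod 𝒪 N1 (↑S : Set ℕ) θ) (k : ℕ) (Pv : PivotPrimes k) (eP : Fin k → ℕ),
    PVHyp p ρbar N1 S Smin Pv eP →
    ∀ (H : CuspForm.HeckeGaloisRepDatum N1 (↑S : Set ℕ) 𝒪 θ
        (CuspForm.heckeLocal N1 (↑S : Set ℕ) 𝒪 θ)),
    H.π = CuspForm.heckeLocal.π N1 (↑S : Set ℕ) 𝒪 θ →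
    cond 𝒪 p fl Smin Pv.set H.ρ →
    ∀ (ηM : CuspForm.heckeLocal N1 (↑S : Set ℕ) 𝒪 θ →ₐ[𝒪] Module.End 𝒪 M.V),
    (∀ t : CuspForm.heckeAlgebra N1 2 (↑S : Set ℕ),
      ηM (CuspForm.heckeLocal.π N1 (↑S : Set ℕ) 𝒪 θ t) = M.η t) →
    ∀ (g r n : ℕ) (qv : Fin r → ℕ), IsTWFamily ρbar p n S qv →
    ∀ [NeZero (twLevel N1 qv)] [NeZero (pvLevel N1 Pv.q qv)]
      [Fact (CuspForm.HasIntegralStructure (twLevel N1 qv) 2)]
      [Fact (CuspForm.HasIntegralStructure (pvLevel N1 Pv.q qv) 2)]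
      (X : PVCtx 𝒪 p fl ρbar N1 S Smin θ M Pv eP g n qv)
      (τ : X.DQ.R →ₐ[𝒪] CuspForm.heckeLocal N1 (↑S : Set ℕ) 𝒪 θ),
    Function.Surjective τ →
    ∀ (hτl : IsLocalHom (τ : X.DQ.R →+* CuspForm.heckeLocal N1 (↑S : Set ℕ) 𝒪 θ)),
    (X.DQ.ρ.baseChangeAlong (τ : X.DQ.R →+* CuspForm.heckeLocal N1 (↑S : Set ℕ) 𝒪 θ)
      hτl).IsEquiv H.ρ →
    ∀ (ϖ : 𝒪), maximalIdeal 𝒪 = Ideal.span {ϖ} →
    ∀ (ψ : Fin k → 𝒪), (∀ j, ψ j ^ (p ^ eP j) = 1) → (∀ j, ψ j - 1 ∈ Ideal.span {ϖ}) →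
    ∀ (I1 Iχ : Ideal (PRing 𝒪 k g)),
      (∀ f ∈ I1, ∀ v : X.G.W.V, X.ηW (X.φQ (X.γ f)) v ∈ typeSub X.G.c (fun _ => (1 : 𝒪))) →
      (∀ f ∈ Iχ, ∀ v : X.G.W.V, X.ηW (X.φQ (X.γ f)) v ∈ typeSub X.G.c ψ) →
    ∀ (b : Module.Basis (Fin 2) (CuspForm.heckeLocal N1 (↑S : Set ℕ) 𝒪 θ) H.ρ.V),
      Nonempty (@PivotLevel 𝒪 _ r (6 * k + g) (CuspForm.heckeLocal N1 (↑S : Set ℕ) 𝒪 θ) _ _
        M.V _ (Module.compHom M.V
          ((ηM : CuspForm.heckeLocal N1 (↑S : Set ℕ) 𝒪 θ →ₐ[𝒪] Module.End 𝒪 M.V) :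
            CuspForm.heckeLocal N1 (↑S : Set ℕ) 𝒪 θ →+* Module.End 𝒪 M.V))
        ϖ I1 Iχ (idealX 𝒪 k g) (pvXi H.ρ b Pv) (twIdealP 𝒪 r p n) X.G.rk)

/-! ### The levels and the target, for both conditions at `p` -/

/-- **PV-ASM: the levels** (for `cond 𝒪 p fl`).  As `Stmt_PVLevels`; `fl = true`: `p ∤ N1`,
`fl = false`: `p ∣ N1` and `ρbar` is not flat at `p`. -/
def Stmt_PVLevelsB : Prop :=
  ∀ (𝒪 : Type) [CommRing 𝒪] [IsDomain 𝒪] [IsDiscreteValuationRing 𝒪]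
    [IsAdicComplete (maximalIdeal 𝒪) 𝒪] [Finite (ResidueField 𝒪)] [CharZero 𝒪]
    (p : ℕ) [Fact p.Prime] (fl : Bool) (ρbar : ResidualGaloisRep (ResidueField 𝒪))
    (S Smin : Finset ℕ),
    cond 𝒪 p fl Smin ∅ (GaloisRepAdic.ofResidualGaloisRep ρbar) →
    (fl = false → ¬ (GaloisRepAdic.ofResidualGaloisRep ρbar).IsFlatAt p) →
    ∀ (N1 : ℕ) [NeZero N1], (fl = true → ¬ p ∣ N1) → (fl = false → p ∣ N1) →
    ∀ (θ : CuspForm.heckeAlgebra N1 2 (↑S : Set ℕ) →+* ResidueField 𝒪),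
      Fermat.Agent.S59.Datum.FrobHyp ρbar N1 S θ →
    ∀ (k : ℕ) (Pv : PivotPrimes k) (eP : Fin k → ℕ), PVHyp p ρbar N1 S Smin Pv eP →
      (∀ j, ∃ ζ : 𝒪, IsPrimitiveRoot ζ (p ^ eP j)) →
    ∀ (ϖ : 𝒪), maximalIdeal 𝒪 = Ideal.span {ϖ} →
    ∃ (T : Type) (_ : CommRing T) (_ : IsLocalRing T) (_ : IsNoetherianRing T)
      (_ : IsAdicComplete (maximalIdeal T) T) (_ : Algebra 𝒪 T)
      (_ : IsLocalHom (algebraMap 𝒪 T)) (_ : Module.Finite 𝒪 T) (_ : Module.Free 𝒪 T)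
      (H : CuspForm.HeckeGaloisRepDatum N1 (↑S : Set ℕ) 𝒪 θ T)
      (b : Module.Basis (Fin 2) T H.ρ.V)
      (M : Type) (_ : AddCommGroup M) (_ : Module T M) (_ : Nontrivial M)
      (r g d : ℕ) (t : Finset (Fin k → 𝒪)),
      H.ρ.DetIsCyclotomic p ∧ (∀ j, H.ρ.residual.IsUnramifiedAt (Pv.q j)) ∧
      r + 1 = 1 + 3 * k + g ∧ (∀ δ ∈ t, ∀ j, δ j ≠ 0) ∧ (∀ δ ∈ t, ∀ j, δ j ∈ maximalIdeal 𝒪) ∧
      ∀ 𝔞 : (Fin k → 𝒪) → Ideal (PRing 𝒪 k g), (∀ δ ∈ t, KilledByType g δ (𝔞 δ)) →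
        ∀ n : ℕ, Nonempty (PivotLevel 𝒪 r (6 * k + g) T M ϖ
          (idealUnip g (fun j => ((Pv.q j : ℕ) : 𝒪))) (t.inf 𝔞)
          (idealX 𝒪 k g) (pvXi H.ρ b Pv) (twIdealP 𝒪 r p n) d)

/-- **PIVOT, Hecke–Galois form, for both conditions at `p`.** -/
def Stmt_PivotCoreB : Prop :=
  ∀ (𝒪 : Type) [CommRing 𝒪] [IsDomain 𝒪] [IsDiscreteValuationRing 𝒪]
    [IsAdicComplete (maximalIdeal 𝒪) 𝒪] [Finite (ResidueField 𝒪)] [CharZero 𝒪]
    (p : ℕ) [Fact p.Prime] (fl : Bool) (ρbar : ResidualGaloisRep (ResidueField 𝒪))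
    (S Smin : Finset ℕ),
    cond 𝒪 p fl Smin ∅ (GaloisRepAdic.ofResidualGaloisRep ρbar) →
    (fl = false → ¬ (GaloisRepAdic.ofResidualGaloisRep ρbar).IsFlatAt p) →
    ∀ (N1 : ℕ) [NeZero N1], (fl = true → ¬ p ∣ N1) → (fl = false → p ∣ N1) →
    ∀ (θ : CuspForm.heckeAlgebra N1 2 (↑S : Set ℕ) →+* ResidueField 𝒪),
      Fermat.Agent.S59.Datum.FrobHyp ρbar N1 S θ →
    ∀ (k : ℕ) (Pv : PivotPrimes k) (eP : Fin k → ℕ), PVHyp p ρbar N1 S Smin Pv eP →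
      (∀ j, ∃ ζ : 𝒪, IsPrimitiveRoot ζ (p ^ eP j)) →
    ∀ (j : Fin k) [NeZero (N1 / Pv.q j)],
      ∃ θ' : CuspForm.heckeAlgebra (N1 / Pv.q j) 2 (↑S : Set ℕ) →+* ResidueField 𝒪,
        ∀ (ℓ : ℕ) (hℓ : ℓ.Prime) (hℓN : ¬ ℓ ∣ N1) (hℓS : ℓ ∉ (↑S : Set ℕ))
          (hℓN' : ¬ ℓ ∣ N1 / Pv.q j),
          θ' (CuspForm.heckeAlgebra.T hℓ hℓN' hℓS) = θ (CuspForm.heckeAlgebra.T hℓ hℓN hℓS)

/-- **PIVOT (Hecke–Galois form, both conditions) from the packages.** -/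
theorem pivotCoreB_of (hType : Stmt_PVLoc_type) (hUnr : Stmt_PVLoc_unr)
    (hDim : Stmt_PVLoc_dimS) (hPatch : Stmt_PVPatch) (hLev : Stmt_PVLevelsB)
    (hTame : Stmt_PVTame1) (hOld : Stmt_PVOld) : Stmt_PivotCoreB := by
  intro 𝒪 _ _ _ _ _ _ p _ fl ρbar S Smin hcond hnfl N1 _ hpN hpN' θ hθ k Pv eP hPV hζ j _
  have hyp := hPV.hyp
  have hsq := hPV.hsq
  have hex := hPV.hex
  obtain ⟨ϖ, hϖirr⟩ := IsDiscreteValuationRing.exists_irreducible 𝒪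
  have hϖ' : maximalIdeal 𝒪 = Ideal.span {ϖ} :=
    (IsDiscreteValuationRing.irreducible_iff_uniformizer ϖ).mp hϖirr
  obtain ⟨T, _, _, _, _, _, _, _, _, H, b, M, _, _, _, r, g, d, t, hdet, hunr, hr, ht0, htm,
    hlev⟩ := hLev 𝒪 p fl ρbar S Smin hcond hnfl N1 hpN hpN' θ hθ k Pv eP hPV hζ ϖ hϖ'
  have hp𝒪 : (p : 𝒪) ∈ maximalIdeal 𝒪 := hyp.hp𝒪
  -- `2` is a unit
  have h2 : IsUnit (2 : 𝒪) := by
    by_contra h
    have h2m : (2 : 𝒪) ∈ maximalIdeal 𝒪 := (IsLocalRing.mem_maximalIdeal _).mpr h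
    have hodd : Odd p := (Fact.out : p.Prime).odd_of_ne_two hyp.hp2
    obtain ⟨m, hm⟩ := hodd
    have h1 : (1 : 𝒪) = (p : 𝒪) - 2 * (m : 𝒪) := by
      rw [hm]; push_cast; ring
    have : (1 : 𝒪) ∈ maximalIdeal 𝒪 := by
      rw [h1]
      exact Ideal.sub_mem _ hp𝒪 (Ideal.mul_mem_right _ _ h2m)
    exact (Ideal.ne_top_iff_one _).mp (IsLocalRing.maximalIdeal.isMaximal 𝒪).ne_top this
  -- `q ≡ 1`
  have hq₀ : ∀ i, ((Pv.q i : ℕ) : 𝒪) - 1 ∈ maximalIdeal 𝒪 := by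
    intro i
    obtain ⟨m, hm⟩ := (hex i).1
    have hq1 : 1 ≤ Pv.q i := (Pv.q_prime i).one_le
    have h1 : ((Pv.q i : ℕ) : 𝒪) - 1 = (p : 𝒪) * (m : 𝒪) := by
      have : Pv.q i = p * m + 1 := by omega
      rw [this]; push_cast; ring
    rw [h1]
    exact Ideal.mul_mem_right _ _ hp𝒪
  obtain ⟨𝔱, h𝔱, -, hϖ𝔱, hΞ⟩ := H3.pivot_of_levels hType hUnr hDim hPatch hp𝒪 hr
    H.residue_surjective hϖ' h2 (fun i => ((Pv.q i : ℕ) : 𝒪)) hq₀ t ht0 htm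
    (pvXi H.ρ b Pv) d hlev
  -- `p ∉ 𝔱`
  have hpT : (p : T) ∉ 𝔱 := by
    intro hp
    have hp0 : (p : 𝒪) ≠ 0 := by
      exact_mod_cast (Fact.out : p.Prime).ne_zero
    obtain ⟨e, u, hu⟩ := IsDiscreteValuationRing.eq_unit_mul_pow_irreducible hp0 hϖirr
    have h3 : (p : T) = algebraMap 𝒪 T (u : 𝒪) * (algebraMap 𝒪 T ϖ) ^ e := by
      rw [← map_pow, ← map_mul, ← hu, map_natCast]
    rw [h3] at hp
    rcases h𝔱.mem_or_mem hp with h | h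
    · have hu' : IsUnit (algebraMap 𝒪 T (u : 𝒪)) := (u.isUnit).map _
      exact h𝔱.ne_top (Ideal.eq_top_of_isUnit_mem _ h hu')
    · exact hϖ𝔱 (h𝔱.mem_of_pow_mem e h)
  -- unramified modulo `𝔱` at `q_j`
  have hτ : ∀ v : H.ρ.V, H.ρ.ρ (Pv.τ j) v - v ∈ (𝔱 • ⊤ : Submodule T H.ρ.V) := by
    intro v
    refine sub_mem_smul_top_of_entries b _ 𝔱 (fun a c => ?_) v
    exact hΞ (Ideal.subset_span ⟨j, a, c, rfl⟩)
  have hpTm : (p : T) ∈ maximalIdeal T := hdet.1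
  have hall := hTame T p hpTm H.ρ (Pv.q j) (Pv.q_prime j) (hex j).2.1 (hunr j) (Pv.P j)
    (Pv.P_over j) (Pv.τ j) (Pv.τ_gen j) 𝔱 hτ
  have hqN : ¬ (Pv.q j) ^ 2 ∣ N1 := by
    intro h
    have := Nat.squarefree_iff_prime_squarefree.mp hsq (Pv.q j) (Pv.q_prime j)
    exact this (by rwa [← pow_two])
  have hpS : p ∈ S := hyp.hSmin hyp.hpSmin
  exact hOld 𝒪 p hyp.hp2 hp𝒪 N1 S hpS hPV.hNS θ T H hdet (Pv.q j) (Pv.q_prime j) (hex j).2.1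
    (hPV.hPvN j) hqN 𝔱 h𝔱 hpT hall

/-- The wiring **D = PV-WIRE1** to be proved: the levels from the leaves and the landed results
(`S59.Datum.Stmt_DATUM`, `S59.Asm.Stmt_COND`, `S59.H99.stmt_DEF`, `S54.result`, `S34.result`,
`S59.Asm.H85.stmt_LOCMOD`, `H76.finrank_eq_rk`). -/
def Stmt_PVWire1 : Prop :=
  Stmt_PVGalB → Stmt_PVGeom2 → Fermat.Agent.S59.Datum.Stmt_DATUM → Stmt_COND →
    Stmt_PVAsm → Stmt_PVUnip → Stmt_PVNU → Stmt_PVLevelsB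

end Fermat.Agent.L.Pivot

end

end
-- ==== END Fermat.Agent.L.Pivot.Asm

-- ==== BEGIN Fermat.Agent.L.Pivot.Geom.H81_NewAsm
section

/-!
# PIVOT, PV-GEOM, leaf PVG-NEW-ASM (helper81), part 6: the field `new` of `PVBase`

`new_W` : in the abstract setting of helper4's `H4.eigPart_W` (= helper39's `stmt_EIG_W`, level
`M = N c` as a variable), with pivot primes `qP i ∈ qs`, `qP i ≠ p`, units `δ i` of `ℤ/c` which
are `≡ 1` modulo the primes of `c` other than `qP i`, `zc i : 𝕋` with `etaT (zc i) = ⟨δ i⟩`,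
operators `cW i` on `W = thetaPart etaT θ` induced by `⟨δ i⟩`, and `Stmt_NewJ0 (N'/qP i) (qP i) p`:
the statement of the field `new` of `PVBase` (`Stmt_P_new`), verbatim.
-/

set_option autoImplicit false

open IsLocalRing TensorProduct

namespace Fermat.Agent.L.Pivot.Geom.H81

open CongruenceSubgroup Matrix.SpecialLinearGroup ModularForm Finset
open scoped MatrixGroups
open Fermat.Agent.NEB.EIG.H39 Fermat.Agent.Betti ModularCurve.Period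
open Fermat.Agent.S59.Lim Fermat.Agent.S59.Lim.H2 Fermat.Agent.L.Pivot
open Fermat.Agent.NEB.Geom.H39

/-- A `ϖ`-divisible module over a discrete valuation ring is `p`-divisible (`p ≠ 0`). -/
theorem pdiv_of_isDiv_h81 {𝒪 : Type} [CommRing 𝒪] [IsDomain 𝒪] [IsDiscreteValuationRing 𝒪]
    {ϖ : 𝒪} (hϖ : Irreducible ϖ) {p : ℕ} (hp0 : (p : 𝒪) ≠ 0)
    {W : Type*} [AddCommGroup W] [Module 𝒪 W] (h : IsDiv ϖ W) :
    ∀ w : W, ∃ w' : W, (p : 𝒪) • w' = w := by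
  obtain ⟨e, u, hu⟩ := IsDiscreteValuationRing.eq_unit_mul_pow_irreducible hp0 hϖ
  have hpow : ∀ (e : ℕ) (w : W), ∃ w' : W, ϖ ^ e • w' = w := by
    intro e
    induction e with
    | zero => exact fun w => ⟨w, by rw [pow_zero, one_smul]⟩
    | succ e ih =>
      intro w
      obtain ⟨w₁, hw₁⟩ := h.div w
      obtain ⟨w₂, hw₂⟩ := ih w₁
      exact ⟨w₂, by rw [pow_succ, mul_comm, mul_smul, hw₂, hw₁]⟩
  intro w
  obtain ⟨w₁, hw₁⟩ := hpow e w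
  refine ⟨((u⁻¹ : 𝒪ˣ) : 𝒪) • w₁, ?_⟩
  rw [hu, smul_smul, mul_comm (↑u : 𝒪) (ϖ ^ e), mul_assoc, Units.mul_inv, mul_one, hw₁]

/-- An element of `𝕋⁺` which kills the Tate module of `p ^ e A` kills the (`p`-divisible)
`θ`-part of `𝒪 ⊗ A`. -/
theorem thetaEta_eq_zero_of_mapEnd {𝒪 : Type} [CommRing 𝒪] [IsLocalRing 𝒪] {𝕋 : Type}
    [CommRing 𝕋] {A : Type} [AddCommGroup A] (etaT : 𝕋 →+* Module.End ℤ A)
    (θ : 𝕋 →+* ResidueField 𝒪) (p e : ℕ)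
    (hWdiv : ∀ w : ↥(thetaPart etaT θ), ∃ w' : ↥(thetaPart etaT θ), (p : 𝒪) • w' = w)
    (hdiv : ∀ w : ↥(divSub p e A), ∃ v : ↥(divSub p e A), (p : ℤ) • v = w)
    (htors : ∀ w : ↥(divSub p e A), ∃ k : ℕ, (p : ℤ) ^ k • w = 0)
    (s : 𝕋) (hs : H2.mapEnd (p : ℤ) ↥(divSub p e A) (resEnd p e (etaT s)) = 0) :
    thetaEta etaT θ s = 0 := by
  have h1 : resEnd p e (etaT s) = 0 := by
    apply H2.mapEnd_injective hdiv htors
    rw [hs, map_zero]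
  apply Fermat.Agent.NEB.Geom.H39.thetaEta_eq_zero_of etaT θ p e hWdiv
  intro x
  have h2 : ((resEnd p e (etaT s) ⟨p ^ e • x, pow_smul_mem_divSub x⟩ : ↥(divSub p e A)) : A)
      = 0 := by
    rw [h1]
    rfl
  exact h2

set_option maxHeartbeats 1000000 in
/-- **PVG-NEW-ASM**: the field `new` of `PVBase` in the abstract setting of `H4.eigPart_W`. -/
theorem new_W (p : ℕ) [Fact p.Prime] (N : ℕ) (hN : N ≠ 0) (qs : List ℕ) (hnd : qs.Nodup)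
    (hpr : ∀ q ∈ qs, q.Prime) (hqN : ∀ q ∈ qs, ¬ q ∣ N)
    (c N' M : ℕ) (hc : c = qs.prod) (hM : M = N * c) (hcM : c ∣ M) (hN' : N' = N * c * c)
    [NeZero N'] (S : Finset ℕ)
    (hS : ∀ q : ℕ, q.Prime → q ∣ N' → q ∈ (↑S : Set ℕ))
    (A : Type) [AddCommGroup A] (htors : ∀ x : A, ∃ k : ℕ, p ^ k • x = 0)
    (hfin : Finite {x : A // p • x = 0})
    (ms : MonoSys p M c A)
    (TA : ℕ → Module.End ℤ A)
    (hTA : ∀ (ℓ : ℕ) (hℓ : ℓ.Prime) (hℓM : ¬ ℓ ∣ M) (k : ℕ) (x : A), p ^ k • x = 0 →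
      ms.m k (TA ℓ x) = TDg M c hcM hℓ hℓM (ms.m k x))
    (diaA : (ZMod c)ˣ →* Module.End ℤ A)
    (hdiaA : ∀ (g : SL(2, ℤ)) (hg : ((M : ℕ) : ℤ) ∣ g 1 0) (d : (ZMod c)ˣ),
      (d : ZMod c) = ((g 0 0 : ℤ) : ZMod c) → ∀ (k : ℕ) (x : A), p ^ k • x = 0 →
      ms.m k (diaA d x) = Dg hcM g hg (ms.m k x))
    (hcomm : ∀ (ℓ : ℕ), ℓ.Prime → ¬ ℓ ∣ M → ∀ d, Commute (TA ℓ) (diaA d))
    (j : ℕ) (hdn : ∀ d, diaA d ^ (2 * j + 1) = 1)
    {𝒪 : Type} [CommRing 𝒪] [IsDomain 𝒪] [IsDiscreteValuationRing 𝒪]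
    [IsAdicComplete (maximalIdeal 𝒪) 𝒪] [CharZero 𝒪]
    (ϖ : 𝒪) (hϖ : Irreducible ϖ) (hp𝒪 : (p : 𝒪) ∈ maximalIdeal 𝒪)
    {𝕋 : Type} [CommRing 𝕋]
    (etaT : 𝕋 →+* Module.End ℤ A) (θ : 𝕋 →+* ResidueField 𝒪)
    (hW : IsDiv ϖ ↥(thetaPart etaT θ))
    (z : ℕ → 𝕋)
    (hz : ∀ (ℓ : ℕ), ℓ.Prime → ¬ ℓ ∣ N' → ℓ ∉ (↑S : Set ℕ) →
      etaT (z ℓ) = TA ℓ * diaA (unitOf c ℓ) ^ j)
    (etaW : CuspForm.heckeAlgebra N' 2 (↑S : Set ℕ) →+* Module.End 𝒪 ↥(thetaPart etaT θ))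
    (hetaW : ∀ (ℓ : ℕ) (hℓ : ℓ.Prime) (hℓN : ¬ ℓ ∣ N') (hℓS : ℓ ∉ (↑S : Set ℕ)),
      etaW (CuspForm.heckeAlgebra.T hℓ hℓN hℓS) = thetaEta etaT θ (z ℓ))
    {k : ℕ} (qP : Fin k → ℕ) (hqP : ∀ i, qP i ∈ qs) (hqPp : ∀ i, qP i ≠ p)
    (δ : Fin k → (ZMod c)ˣ)
    (hδ : ∀ i, ∀ q' ∈ qs, q' ≠ qP i → ∀ hd : q' ∣ c, ZMod.unitsMap hd (δ i) = 1)
    (zc : Fin k → 𝕋) (hzc : ∀ i, etaT (zc i) = diaA (δ i))
    (cW : Fin k → Module.End 𝒪 ↥(thetaPart etaT θ))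
    (hcW : ∀ i (x : ↥(thetaPart etaT θ)),
      ((cW i x : ↥(thetaPart etaT θ)) : 𝒪 ⊗[ℤ] A) = (diaA (δ i)).baseChange 𝒪 (x : 𝒪 ⊗[ℤ] A))
    (eP : Fin k → ℕ) (hcWpow : ∀ i, cW i ^ (p ^ eP i) = 1)
    (hN2 : ∀ (i : Fin k) [NeZero (N' / qP i)] [NeZero (qP i)],
      H50.Stmt_NewJ0 (N' / qP i) (qP i) p) :
    ∀ (ψ : Fin k → 𝒪), (∀ i, ψ i ^ (p ^ eP i) = 1 ∧ ψ i ≠ 1) →
    ∀ (E : Type) [CommRing E] [IsDomain E] [CharZero E]
      (χ : CuspForm.heckeAlgebra N' 2 (↑S : Set ℕ) →+* E),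
      (∀ t, (∀ v : H2.tate ϖ ↥(thetaPart etaT θ),
        H2.mapEnd ϖ ↥(thetaPart etaT θ) (etaW t) v ∈
          typeSub (fun i => H2.mapEnd ϖ ↥(thetaPart etaT θ) (cW i)) ψ) → χ t = 0) →
      ∀ (i : Fin k) [NeZero (N' / qP i)]
        (χ' : CuspForm.heckeAlgebra (N' / qP i) 2 (↑S : Set ℕ) →+* E),
        ¬ ∀ (ℓ : ℕ) (hℓ : ℓ.Prime) (hℓN' : ¬ ℓ ∣ N') (hℓS : ℓ ∉ (↑S : Set ℕ))
          (hℓN : ¬ ℓ ∣ N' / qP i),
          χ' (CuspForm.heckeAlgebra.T hℓ hℓN hℓS) = χ (CuspForm.heckeAlgebra.T hℓ hℓN' hℓS) := by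
  classical
  have hp : p.Prime := Fact.out
  have hp0 : (p : 𝒪) ≠ 0 := Nat.cast_ne_zero.mpr hp.ne_zero
  have hWdiv := pdiv_of_isDiv_h81 hϖ hp0 hW
  obtain ⟨e, he⟩ := exists_pow_smul_stable p htors hfin
  have hc0 : c ≠ 0 := by
    rw [hc]
    exact prod_primes_ne_zero hpr
  have hM0 : M ≠ 0 := by
    rw [hM]
    exact mul_ne_zero hN hc0
  -- the field
  have hL : Function.Injective (algebraMap 𝒪 (AlgebraicClosure (FractionRing 𝒪))) := by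
    rw [IsScalarTower.algebraMap_eq 𝒪 (FractionRing 𝒪) (AlgebraicClosure (FractionRing 𝒪))]
    exact (algebraMap (FractionRing 𝒪) (AlgebraicClosure (FractionRing 𝒪))).injective.comp
      (IsFractionRing.injective 𝒪 (FractionRing 𝒪))
  let ι : ℤ_[p] →+* AlgebraicClosure (FractionRing 𝒪) :=
    (algebraMap 𝒪 (AlgebraicClosure (FractionRing 𝒪))).comp
      (Fermat.Agent.R.H89.h89PadicHom p 𝒪 hp𝒪)
  have hι : Function.Injective ι := hL.comp (padic_hom_injective _)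
  -- the divisible part
  have hdivD : ∀ w : ↥(divSub p e A), ∃ v : ↥(divSub p e A), (p : ℤ) • v = w := fun w => by
    obtain ⟨v, hv⟩ := divSub_div he w
    exact ⟨v, by rw [natCast_zsmul, hv]⟩
  have htorsD : ∀ w : ↥(divSub p e A), ∃ k : ℕ, (p : ℤ) ^ k • w = 0 := fun w => by
    obtain ⟨k, hk⟩ := divSub_tors htors w
    exact ⟨k, by rw [← Nat.cast_pow, natCast_zsmul, hk]⟩
  have hTAD : ∀ (ℓ : ℕ) (hℓ : ℓ.Prime) (hℓM : ¬ ℓ ∣ M) (k : ℕ) (x : ↥(divSub p e A)),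
      p ^ k • x = 0 → (monoRestrict ms (divSub p e A)).m k (resEnd p e (TA ℓ) x)
        = TDg M c hcM hℓ hℓM ((monoRestrict ms (divSub p e A)).m k x) :=
    fun ℓ hℓ hℓM k x hx => hTA ℓ hℓ hℓM k x (congrArg Subtype.val hx)
  have hdiaD : ∀ (g : SL(2, ℤ)) (hg : ((M : ℕ) : ℤ) ∣ g 1 0) (d : (ZMod c)ˣ),
      (d : ZMod c) = ((g 0 0 : ℤ) : ZMod c) → ∀ (k : ℕ) (x : ↥(divSub p e A)), p ^ k • x = 0 →
      (monoRestrict ms (divSub p e A)).m k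
          (((resEnd p e : Module.End ℤ A →+* _).toMonoidHom.comp diaA) d x)
        = Dg hcM g hg ((monoRestrict ms (divSub p e A)).m k x) :=
    fun g hg d hd k x hx => hdiaA g hg d hd k x (congrArg Subtype.val hx)
  haveI := finiteDimensional_Vsp ι (monoRestrict ms (divSub p e A)) hM0 hc0
  refine new_V p N hN qs hnd hpr hqN c N' M hc hM hcM hN' S hS ϖ hϖ hp𝒪 hL
    (V := ↥(Vsp ι (monoRestrict ms (divSub p e A))))
    (Vsp ι (monoRestrict ms (divSub p e A))).subtype (Submodule.injective_subtype _)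
    (Vsp_par ι (monoRestrict ms (divSub p e A)))
    (TVop ι (monoRestrict ms (divSub p e A)) hcM (fun ℓ => resEnd p e (TA ℓ)) hTAD)
    (fun ℓ hℓ hℓM v => coe_TVop ι (monoRestrict ms (divSub p e A)) hcM _ hTAD hℓ hℓM v)
    (diaV ι (monoRestrict ms (divSub p e A)) hcM hM0
      ((resEnd p e : Module.End ℤ A →+* _).toMonoidHom.comp diaA) hdiaD)
    (fun g hg d hd v => coe_diaV ι (monoRestrict ms (divSub p e A)) hcM hM0 _ hdiaD g hg d hd v)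
    ?_ j ?_
    (gen ι (monoRestrict ms (divSub p e A)))
    (gen_injective ι (monoRestrict ms (divSub p e A)) hι)
    (((H2.mapEnd (p : ℤ) ↥(divSub p e A)).toRingHom).comp ((resEnd p e).comp etaT))
    hW (thetaEta etaT θ)
    (fun s hs => thetaEta_eq_zero_of_mapEnd etaT θ p e hWdiv hdivD htorsD s hs)
    z ?_ etaW hetaW qP hqP hqPp δ hδ zc ?_ cW ?_ eP hcWpow hN2
  · -- commutation on the span
    intro ℓ d
    by_cases h : ℓ.Prime ∧ ¬ ℓ ∣ M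
    · apply Vsp_ext ι (monoRestrict ms (divSub p e A))
      intro ξ
      have e1 : resEnd p e (TA ℓ) * ((resEnd p e : Module.End ℤ A →+* _).toMonoidHom.comp diaA) d
          = ((resEnd p e : Module.End ℤ A →+* _).toMonoidHom.comp diaA) d * resEnd p e (TA ℓ) := by
        show resEnd p e (TA ℓ) * resEnd p e (diaA d) = resEnd p e (diaA d) * resEnd p e (TA ℓ)
        rw [← map_mul, ← map_mul, (hcomm ℓ h.1 h.2 d).eq]
      rw [Module.End.mul_apply, Module.End.mul_apply, diaV_gen,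
        TVop_gen ι _ hcM _ hTAD h.1 h.2, TVop_gen ι _ hcM _ hTAD h.1 h.2, diaV_gen,
        ← Module.End.mul_apply, ← Module.End.mul_apply, ← map_mul, ← map_mul, e1]
    · rw [TVop, dif_neg h]
      exact Commute.zero_left _
  · -- the order of the diamond operators
    intro d
    apply Vsp_ext ι (monoRestrict ms (divSub p e A))
    intro ξ
    rw [diaV_pow_gen]
    have e1 : ((resEnd p e : Module.End ℤ A →+* _).toMonoidHom.comp diaA) d ^ (2 * j + 1)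
        = 1 := by
      show resEnd p e (diaA d) ^ (2 * j + 1) = 1
      rw [← map_pow, hdn d, map_one]
    rw [e1, map_one, Module.End.one_apply, Module.End.one_apply]
  · -- the Hecke operators on the lattice
    intro ℓ hℓ hℓN hℓS ξ
    have hℓM : ¬ ℓ ∣ M := fun h => hℓN (by
      rw [hN', ← hM]
      exact Dvd.dvd.mul_right h c)
    unfold tOp
    rw [Module.End.mul_apply, diaV_pow_gen, TVop_gen ι _ hcM _ hTAD hℓ hℓM]
    congr 1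
    show _ = H2.mapEnd (p : ℤ) ↥(divSub p e A) (resEnd p e (etaT (z ℓ))) ξ
    rw [hz ℓ hℓ hℓN hℓS, map_mul, map_mul, Module.End.mul_apply, map_pow (resEnd p e)]
    rfl
  · -- the pivot diamond operators on the lattice
    intro i ξ
    rw [diaV_gen]
    congr 1
    show _ = H2.mapEnd (p : ℤ) ↥(divSub p e A) (resEnd p e (etaT (zc i))) ξ
    rw [hzc i]
    rfl
  · -- the pivot diamond operators on `W`
    intro i
    refine LinearMap.ext fun x => Subtype.ext ?_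
    rw [hcW i x, H2.thetaEta_apply, hzc i]

end Fermat.Agent.L.Pivot.Geom.H81

end
-- ==== END Fermat.Agent.L.Pivot.Geom.H81_NewAsm

-- ==== BEGIN Fermat.Agent.NEB.Geom.DefsWD
section

/-!
# Item 72 (LG-NEB), package NEB-GEOM (helper84): the modules `Wtw`, `Ytw` and the last leaves

* `etaTw`, `Wtw`   : `η⁺ : 𝕋⁺ → End_ℤ J_H[p^∞]` and the `θ⁺`-part `W ⊆ 𝒪 ⊗ J_H[p^∞]` (`= WD.W`);
* `etaTw0`, `Ytw`  : the same at level `Γ₀(N c)`;
* `KZ P`           : the kernel of reduction `K_A ∩ J_H[p^∞]` (helper70's uniform `KU`);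
* `Stmt_W_EIG`     : the Hecke ring at level `N ∏ q_j²` acts on `Wtw` through `T'_ℓ`;
* `Stmt_PI_WIRE`   : `π`, `πup` between `Wtw` and the `θ`-part at level `N`;
* `Stmt_W_KEYq`    : `U_j φ x = q_j x` on `K^𝒪 ∩ W^Δ` at a place over `q_j`.

Statements only; no `sorry`.
-/

set_option autoImplicit false
set_option linter.unusedSectionVars false

noncomputable section

open ModularCurve AlgebraicCurve IsLocalRing TensorProduct Polynomial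

namespace Fermat.Agent.NEB.Geom

open Fermat.Agent.NEB Fermat.Agent.NEB.JH Fermat.Agent.S59.Asm Fermat.Agent.S59.Lim
  Fermat.Agent.S59.Lim.H2

section TW

variable (𝒪 : Type) [CommRing 𝒪] [IsLocalRing 𝒪]
variable (N : ℕ) [NeZero N] (S : Finset ℕ) (p n : ℕ) {r : ℕ} (qv : Fin r → ℕ)
variable [NeZero (N * twC qv)] (h2 : 2 ≤ twC qv)

/-- `η⁺ : 𝕋⁺ → End_ℤ J_H[p^∞]`. -/
abbrev etaTw (hcomm : ∀ i j, Commute (opsTw N S p n qv h2 i) (opsTw N S p n qv h2 j)) :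
    PolyTw r (twC qv) →+* Module.End ℤ (AH (N * twC qv) (twC qv) (twH p n qv) p) :=
  polyHom (opsTw N S p n qv h2) hcomm

/-- `η⁺₀ : 𝕋⁺ → End_ℤ J₀(N c)[p^∞]`. -/
abbrev etaTw0 (hcomm0 : ∀ i j, Commute (opsTw0 N S p qv i) (opsTw0 N S p qv j)) :
    PolyTw r (twC qv) →+* Module.End ℤ (A0 (N * twC qv) p) :=
  polyHom (opsTw0 N S p qv) hcomm0

/-- `W`: the `θ⁺`-part of `𝒪 ⊗ J_H[p^∞]`. -/
abbrev Wtw (hcomm : ∀ i j, Commute (opsTw N S p n qv h2 i) (opsTw N S p n qv h2 j))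
    (θ : CuspForm.heckeAlgebra N 2 (↑S : Set ℕ) →+* ResidueField 𝒪)
    (α : Fin r → ResidueField 𝒪) :
    Submodule 𝒪 (𝒪 ⊗[ℤ] AH (N * twC qv) (twC qv) (twH p n qv) p) :=
  thetaPart (etaTw N S p n qv h2 hcomm) (thetaTw N S qv θ α)

/-- `Y`: the `θ⁺`-part of `𝒪 ⊗ J₀(N c)[p^∞]`. -/
abbrev Ytw (hcomm0 : ∀ i j, Commute (opsTw0 N S p qv i) (opsTw0 N S p qv j))
    (θ : CuspForm.heckeAlgebra N 2 (↑S : Set ℕ) →+* ResidueField 𝒪)
    (α : Fin r → ResidueField 𝒪) :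
    Submodule 𝒪 (𝒪 ⊗[ℤ] A0 (N * twC qv) p) :=
  thetaPart (etaTw0 N S p qv hcomm0) (thetaTw N S qv θ α)

/-- The kernel of reduction `K_A ∩ J_H[p^∞]` at the place `P` (helper70's uniform kernel). -/
def KZ (P : ValuationSubring Kbar) :
    AddSubgroup (AH (N * twC qv) (twC qv) (twH p n qv) p) :=
  (Fermat.Agent.NEB.Geom.H70.KU P p
    (diamondData (N * twC qv) (twC qv) (twH p n qv) h2 (dvd_mul_left _ _))).comap
    (ptors p (JH (N * twC qv) (twC qv) (twH p n qv))).subtype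

/-- The data on the residual side at the Taylor–Wiles primes: `α_j ≠ β_j` the eigenvalues of
`ρbar(Frob_{q_j})`, `α_j β_j = q_j = 1`, `α_j + β_j = θ(T_{q_j})`. -/
structure TwEig (θ : CuspForm.heckeAlgebra N 2 (↑S : Set ℕ) →+* ResidueField 𝒪)
    (α β : Fin r → ResidueField 𝒪) : Prop where
  ne : ∀ j, α j ≠ β j
  mul : ∀ j, α j * β j = 1
  q_one : ∀ j, ((qv j : ℕ) : ResidueField 𝒪) = 1
  add : ∀ (j : Fin r) (hq : (qv j).Prime) (hqN : ¬ qv j ∣ N) (hqS : qv j ∉ (↑S : Set ℕ)),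
    θ (CuspForm.heckeAlgebra.T hq hqN hqS) = α j + β j

/-- **W-EIG**: the Hecke ring of level `N ∏ q_j²` (away from `S ∪ {q_j}`) acts on `W` through the
twisted operators `T'_ℓ`.  (`H39.stmt_EIG_A` + EIG-ASM; `W` is divisible.) -/
def Stmt_W_EIG : Prop :=
  ∀ (𝒪 : Type) [CommRing 𝒪] [IsDomain 𝒪] [IsDiscreteValuationRing 𝒪] [Finite (ResidueField 𝒪)]
    [CharZero 𝒪] (ϖ : 𝒪), Irreducible ϖ → ∀ (p : ℕ) [Fact p.Prime], (p : 𝒪) ∈ maximalIdeal 𝒪 →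
    ∀ (N : ℕ) [NeZero N] (S : Finset ℕ) (n r : ℕ) (qv : Fin r → ℕ), TwHyp N S p n qv →
    ∀ [NeZero (N * twC qv)] [NeZero (twLevel N qv)] (h2 : 2 ≤ twC qv)
      (hcomm : ∀ i j, Commute (opsTw N S p n qv h2 i) (opsTw N S p n qv h2 j))
      (θ : CuspForm.heckeAlgebra N 2 (↑S : Set ℕ) →+* ResidueField 𝒪)
      (α : Fin r → ResidueField 𝒪),
    IsDiv ϖ ↥(Wtw 𝒪 N S p n qv h2 hcomm θ α) →
    ∃ η : CuspForm.heckeAlgebra (twLevel N qv) 2 (↑(twSet S qv) : Set ℕ) →+*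
        Module.End 𝒪 ↥(Wtw 𝒪 N S p n qv h2 hcomm θ α),
      ∀ (ℓ : ℕ) (hℓ : ℓ.Prime) (hℓN : ¬ ℓ ∣ twLevel N qv)
        (hℓS : ℓ ∉ (↑(twSet S qv) : Set ℕ)),
        η (CuspForm.heckeAlgebra.T hℓ hℓN hℓS) =
          thetaEta (etaTw N S p n qv h2 hcomm) (thetaTw N S qv θ α)
            (MvPolynomial.X (Sum.inl ℓ))

/-- **PI-WIRE**: the maps `π = ω ∘ π_*` and `πup = π^* ∘ ω⁻¹` between `W` and the `θ`-part at
level `N` (`ω` = helper14's `NEB.OLD.wOld`), with all the properties needed by `TWDiv`. -/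
def Stmt_PI_WIRE : Prop :=
  ∀ (𝒪 : Type) [CommRing 𝒪] [IsDomain 𝒪] [IsDiscreteValuationRing 𝒪] [Finite (ResidueField 𝒪)]
    [CharZero 𝒪] (ϖ : 𝒪), Irreducible ϖ → ∀ (p : ℕ) [Fact p.Prime], (p : 𝒪) ∈ maximalIdeal 𝒪 →
    ∀ (N : ℕ) [NeZero N] (S : Finset ℕ) (n r : ℕ) (qv : Fin r → ℕ), TwHyp N S p n qv →
    ∀ [NeZero (N * twC qv)] (h2 : 2 ≤ twC qv)
      (hcomm : ∀ i j, Commute (opsTw N S p n qv h2 i) (opsTw N S p n qv h2 j))
      (θ : CuspForm.heckeAlgebra N 2 (↑S : Set ℕ) →+* ResidueField 𝒪)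
      (α β : Fin r → ResidueField 𝒪), TwEig 𝒪 N S qv θ α β →
    -- the level `N` Hecke action (W-MD)
    ∀ (ηC : CuspForm.heckeAlgebra N 2 (↑S : Set ℕ) →+* Module.End ℤ (A0 N p)),
      (∀ (ℓ : ℕ) (hℓ : ℓ.Prime) (hℓN : ¬ ℓ ∣ N) (hℓS : ℓ ∉ (↑S : Set ℕ)),
        ηC (CuspForm.heckeAlgebra.T hℓ hℓN hℓS) = Tz0 N p ℓ) →
    ∀ (hgalC : ∀ σ t, Commute (ηC t) (galZ0 N p σ)),
    -- generators of `Δ` and a non-Eisenstein prime
    ∀ δ : Fin r → (ZMod (twC qv))ˣ, IsDeltaGen p n qv δ →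
    ∀ (ℓ₀ : ℕ) (hℓ₀ : GoodTw N S qv ℓ₀),
      θ (CuspForm.heckeAlgebra.T hℓ₀.1 hℓ₀.not_dvd hℓ₀.not_mem) ≠ ((ℓ₀ : ResidueField 𝒪) + 1) →
    ∃ (π : ↥(Wtw 𝒪 N S p n qv h2 hcomm θ α) →ₗ[𝒪] ↥(thetaPart ηC θ))
      (πup : ↥(thetaPart ηC θ) →ₗ[𝒪] ↥(Wtw 𝒪 N S p n qv h2 hcomm θ α)),
      Function.Injective πup ∧
      (∀ x : ↥(Wtw 𝒪 N S p n qv h2 hcomm θ α),
        ((πup (π x) : ↥(Wtw 𝒪 N S p n qv h2 hcomm θ α)) :
            𝒪 ⊗[ℤ] AH (N * twC qv) (twC qv) (twH p n qv) p)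
          = Fermat.Agent.S59.TWH.H90.nmTot (p ^ n)
              (fun j => (diaZ (N * twC qv) (twC qv) (twH p n qv) h2 (dvd_mul_left _ _) p
                (δ j)).baseChange 𝒪) (x : 𝒪 ⊗[ℤ] AH (N * twC qv) (twC qv) (twH p n qv) p)) ∧
      (∀ (u : (ZMod (twC qv))ˣ) (y : ↥(thetaPart ηC θ)),
        (diaZ (N * twC qv) (twC qv) (twH p n qv) h2 (dvd_mul_left _ _) p u).baseChange 𝒪
          ((πup y : ↥(Wtw 𝒪 N S p n qv h2 hcomm θ α)) :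
            𝒪 ⊗[ℤ] AH (N * twC qv) (twC qv) (twH p n qv) p) = (πup y : _)) ∧
      (∀ v : ↥(Wtw 𝒪 N S p n qv h2 hcomm θ α), ϖ • v = 0 →
        (∀ u : (ZMod (twC qv))ˣ,
          (diaZ (N * twC qv) (twC qv) (twH p n qv) h2 (dvd_mul_left _ _) p u).baseChange 𝒪
            (v : 𝒪 ⊗[ℤ] AH (N * twC qv) (twC qv) (twH p n qv) p) = (v : _)) →
        ∃ y : ↥(thetaPart ηC θ), πup y = v) ∧
      (∀ (ℓ : ℕ) (hℓ : GoodTw N S qv ℓ) (v : ↥(Wtw 𝒪 N S p n qv h2 hcomm θ α)),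
        π (thetaEta (etaTw N S p n qv h2 hcomm) (thetaTw N S qv θ α)
            (MvPolynomial.X (Sum.inl ℓ)) v)
          = thetaEta ηC θ (CuspForm.heckeAlgebra.T hℓ.1 hℓ.not_dvd hℓ.not_mem) (π v)) ∧
      (∀ (σ : _root_.Fermat.Agent.NEB.Geom.GalQ) (y : ↥(thetaPart ηC θ)),
        ((πup (thetaZ θ (galZ0 N p σ) (hgalC σ) y) : ↥(Wtw 𝒪 N S p n qv h2 hcomm θ α)) :
            𝒪 ⊗[ℤ] AH (N * twC qv) (twC qv) (twH p n qv) p)
          = (galZ (N * twC qv) (twC qv) (twH p n qv) p σ).baseChange 𝒪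
              ((πup y : ↥(Wtw 𝒪 N S p n qv h2 hcomm θ α)) :
                𝒪 ⊗[ℤ] AH (N * twC qv) (twC qv) (twH p n qv) p))

/-- **W-KEYq**: at a place `P` over `q_j`, with Frobenius `φ`: `U_j φ x = q_j x` for every
`Δ`-fixed `x ∈ K^𝒪(P) ∩ W`. -/
def Stmt_W_KEYq : Prop :=
  ∀ (𝒪 : Type) [CommRing 𝒪] [IsDomain 𝒪] [IsDiscreteValuationRing 𝒪] [Finite (ResidueField 𝒪)]
    [CharZero 𝒪] (ϖ : 𝒪), Irreducible ϖ → ∀ (p : ℕ) [Fact p.Prime], (p : 𝒪) ∈ maximalIdeal 𝒪 →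
    ∀ (N : ℕ) [NeZero N] (S : Finset ℕ) (n r : ℕ) (qv : Fin r → ℕ), TwHyp N S p n qv →
    Squarefree N →
    ∀ [NeZero (N * twC qv)] (h2 : 2 ≤ twC qv)
      (hcomm : ∀ i j, Commute (opsTw N S p n qv h2 i) (opsTw N S p n qv h2 j))
      (θ : CuspForm.heckeAlgebra N 2 (↑S : Set ℕ) →+* ResidueField 𝒪)
      (α β : Fin r → ResidueField 𝒪), TwEig 𝒪 N S qv θ α β →
    ∀ (ℓ₀ : ℕ) (hℓ₀ : GoodTw N S qv ℓ₀),
      θ (CuspForm.heckeAlgebra.T hℓ₀.1 hℓ₀.not_dvd hℓ₀.not_mem) ≠ ((ℓ₀ : ResidueField 𝒪) + 1) →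
    ∀ (j : Fin r) (P : ValuationSubring Kbar), P.LiesOverPrime (qv j) →
    ∀ φ : _root_.Fermat.Agent.NEB.Geom.GalQ, P.IsFrobeniusAt φ (qv j) →
    ∀ x ∈ Wtw 𝒪 N S p n qv h2 hcomm θ α, x ∈ KO 𝒪 (KZ N p n qv h2 P) →
      (∀ u : (ZMod (twC qv))ˣ,
        (diaZ (N * twC qv) (twC qv) (twH p n qv) h2 (dvd_mul_left _ _) p u).baseChange 𝒪 x = x) →
      (Uz (N * twC qv) (twC qv) (twH p n qv) h2 (dvd_mul_left _ _) p (qv j)).baseChange 𝒪
        ((galZ (N * twC qv) (twC qv) (twH p n qv) p φ).baseChange 𝒪 x) = ((qv j : ℕ) : 𝒪) • x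

end TW

end Fermat.Agent.NEB.Geom

end
end
-- ==== END Fermat.Agent.NEB.Geom.DefsWD

-- ==== BEGIN Fermat.Agent.NEB.Geom.H26_WMD1
section

/-!
# Item 72 (LG-NEB), package NEB-GEOM, leaf W-MD, part 1 (helper26): the `ℤ`-level

`A0 N p = J₀(N)[p^∞]`.

* `exists_tateCoords_compat` : the coordinatised Tate system of G-TOR (helper81) together with
  the compatibility of the coordinates in the level;
* `resK k : End_ℤ (A0 N p) →+* End (J₀(N)[p^k])`, `resK_injective`;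
* `exists_etaC` : the ring homomorphism `ηC : 𝕋 → End_ℤ (A0 N p)` with `ηC (T_ℓ) = Tz0 N p ℓ` and
  matrices `M t` in the coordinates;
* `a0_div`, `a0_fin`, `a0_es`, `a0_unr`, `a0_cont` : divisibility, finiteness of the `p`-torsion,
  Eichler–Shimura, unramifiedness, continuity.
-/

set_option autoImplicit false
set_option linter.unusedSectionVars false
set_option linter.style.haveILetI false
set_option maxHeartbeats 1000000

noncomputable section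

open ModularCurve AlgebraicCurve

namespace Fermat.Agent.NEB.Geom.H26

open Fermat.Agent.NEB Fermat.Agent.NEB.JH Fermat.Agent.GTor Fermat.Agent.GTor.H81
  Fermat.Agent.Betti Fermat.Agent.GTor.H58T1

/-! ## Coordinates with compatibility in the level -/

section Coords

variable (N p : ℕ) [NeZero N] (S : Set ℕ)

/-- **The coordinatised Tate system of `J₀(N)`** with the compatibility of the coordinates:
`θ_k (p y) = θ_{k+1} (y) mod p^k`. -/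
theorem exists_tateCoords_compat (hp : p.Prime) (hNS : ∀ q : ℕ, q.Prime → q ∣ N → q ∈ S) :
    ∃ C : TateCoords N p S, ∀ (k : ℕ) (x : Jtor N (p ^ (k + 1))),
      C.θ k (mulTor (pow_dvd_pow p (Nat.le_succ k)) x)
        = fun i => ZMod.castHom (pow_dvd_pow p (Nat.le_succ k)) (ZMod (p ^ k))
            (C.θ (k + 1) x i) := by
  have hTOR : ∀ k : ℕ, Stmt_TORc N (p ^ k) :=
    fun k => stmt_TORc_uncond N (p ^ k) (pow_ne_zero k hp.ne_zero)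
  have hHK : ∀ k : ℕ, Stmt_HK N (p ^ k) := fun k => H44.stmt_HK N (p ^ k)
  have hLift : Stmt_torsLift N := H77.stmt_torsLift N
  have hGH : Stmt_GalHecke N := H2.stmt_GalHecke N
  have hGAL : Stmt_GAL N := stmt_GAL N
  obtain ⟨r, b, hb⟩ := Betti.stmt_basis N
  obtain ⟨M, hMinj, hMT, -⟩ := Betti.H76.stmt_matrixRep N S r b hb
  have halg : Algebra.IsAlgebraic ℚ (AlgebraicClosure ℚ) := AlgebraicClosure.isAlgebraic ℚ
  obtain ⟨ι⟩ : Nonempty (AlgebraicClosure ℚ →+* ℂ) :=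
    ⟨((IsAlgClosed.lift : AlgebraicClosure ℚ →ₐ[ℚ] ℂ) : AlgebraicClosure ℚ →+* ℂ)⟩
  have hE : ∀ k : ℕ, Nonempty (TorIso N (p ^ k) ι) := fun k => nonempty_torIso (hTOR k) ι
  have hn : ∀ k : ℕ, p ^ k ≠ 0 := fun k => pow_ne_zero k hp.ne_zero
  let E : ∀ k : ℕ, TorIso N (p ^ k) ι := fun k => Classical.choice (hE k)
  refine ⟨{ r := r
            ρ := fun k => rhoMat hb hLift (hn k) (E k)
            M := M
            θ := fun k => theta hb hLift (hn k) (E k)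
            tate := ⟨?_, ?_, ?_, hMinj⟩
            gal := ?_
            hecke := ?_ }, ?_⟩
  · intro k σ i j
    have h := rhoMat_compat hb hLift (hn (k + 1)) (hn k) (pow_dvd_pow p (Nat.le_succ k))
      (E (k + 1)) (E k) σ
    have h2 := congrFun (congrFun h i) j
    rw [Matrix.map_apply] at h2
    exact h2
  · intro k
    exact rhoMat_cont hb hLift (hn k) (E k) hGAL
  · intro k σ t
    refine comm_of_generators S M _ hNS (fun ℓ hℓ hℓN hℓS => ?_) t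
    exact rhoMat_comm_T hb hLift (hn k) (E k) hℓ hℓN (hHK k) hGH _ (hMT ℓ hℓ hℓN hℓS) σ
  · intro k σ x
    exact (rhoMat_mulVec hb hLift (hn k) (E k) σ x).symm
  · intro k ℓ hℓ hℓN hℓS x
    exact theta_heckeTor hb hLift (hn k) (E k) hℓ hℓN (hHK k) _ (hMT ℓ hℓ hℓN hℓS) x
  · intro k x
    exact theta_mulTor hb hLift (hn (k + 1)) (hn k) (pow_dvd_pow p (Nat.le_succ k))
      (E (k + 1)) (E k) x

end Coords

/-! ## Restriction to `J₀(N)[p^k]` -/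

section Res

variable (N p : ℕ) [NeZero N]

/-- `J₀(N)[p^k] → J₀(N)[p^∞]`. -/
def incK (k : ℕ) : Jtor N (p ^ k) →+ A0 N p where
  toFun x := ⟨(x : JZero N), ⟨k, pow_nsmul_coe x⟩⟩
  map_zero' := rfl
  map_add' _ _ := rfl

@[simp] theorem coe_incK (k : ℕ) (x : Jtor N (p ^ k)) :
    ((incK N p k x : A0 N p) : JZero N) = (x : JZero N) := rfl

theorem incK_injective (k : ℕ) : Function.Injective (incK N p k) := fun x y h =>
  Subtype.ext (congrArg (fun z : A0 N p => (z : JZero N)) h)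

theorem mem_Jtor_of_pow_smul {k : ℕ} {y : JZero N} (h : p ^ k • y = 0) :
    y ∈ Jtor N (p ^ k) := by
  rw [Pic0.mem_torsion, ← h, ← natCast_zsmul]

theorem exists_incK (x : A0 N p) : ∃ (k : ℕ) (y : Jtor N (p ^ k)), incK N p k y = x := by
  obtain ⟨k, hk⟩ := x.2
  exact ⟨k, ⟨(x : JZero N), mem_Jtor_of_pow_smul N p hk⟩, Subtype.ext rfl⟩

theorem pow_smul_incK (k : ℕ) (x : Jtor N (p ^ k)) : p ^ k • incK N p k x = 0 :=
  Subtype.ext (pow_nsmul_coe x)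

/-- Restriction of an endomorphism of `J₀(N)[p^∞]` to `J₀(N)[p^k]`, as a function. -/
def resKfun (k : ℕ) (f : Module.End ℤ (A0 N p)) : AddMonoid.End (Jtor N (p ^ k)) :=
  (((ptors p (JZero N)).subtype.comp (f.toAddMonoidHom.comp (incK N p k))).codRestrict
    (Jtor N (p ^ k)) (fun x => mem_Jtor_of_pow_smul N p (by
      have h : p ^ k • f (incK N p k x) = 0 := by
        rw [← map_nsmul, pow_smul_incK, map_zero]
      exact congrArg (fun z : A0 N p => (z : JZero N)) h)) : Jtor N (p ^ k) →+ Jtor N (p ^ k))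

theorem coe_resKfun (k : ℕ) (f : Module.End ℤ (A0 N p)) (x : Jtor N (p ^ k)) :
    ((resKfun N p k f x : Jtor N (p ^ k)) : JZero N) = ((f (incK N p k x) : A0 N p) : JZero N) :=
  rfl

theorem incK_resKfun (k : ℕ) (f : Module.End ℤ (A0 N p)) (x : Jtor N (p ^ k)) :
    incK N p k (resKfun N p k f x) = f (incK N p k x) :=
  Subtype.ext (coe_resKfun N p k f x)

theorem addEnd_zero_apply {X : Type*} [AddCommGroup X] (x : X) :
    (0 : AddMonoid.End X) x = 0 := rfl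

theorem addEnd_add_apply {X : Type*} [AddCommGroup X] (f g : AddMonoid.End X) (x : X) :
    (f + g) x = f x + g x := rfl

/-- Restriction of an endomorphism of `J₀(N)[p^∞]` to `J₀(N)[p^k]`. -/
def resK (k : ℕ) : Module.End ℤ (A0 N p) →+* AddMonoid.End (Jtor N (p ^ k)) where
  toFun f := resKfun N p k f
  map_one' := by
    refine DFunLike.ext _ _ fun x => incK_injective N p k ?_
    rw [incK_resKfun, Module.End.one_apply, AddMonoid.End.coe_one, id]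
  map_mul' f g := by
    refine DFunLike.ext _ _ fun x => incK_injective N p k ?_
    rw [incK_resKfun, Module.End.mul_apply, AddMonoid.End.coe_mul, Function.comp_apply,
      incK_resKfun, incK_resKfun]
  map_zero' := by
    refine DFunLike.ext _ _ fun x => incK_injective N p k ?_
    rw [incK_resKfun, LinearMap.zero_apply, addEnd_zero_apply, map_zero]
  map_add' f g := by
    refine DFunLike.ext _ _ fun x => incK_injective N p k ?_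
    rw [incK_resKfun, LinearMap.add_apply, addEnd_add_apply, map_add, incK_resKfun,
      incK_resKfun]

theorem incK_resK (k : ℕ) (f : Module.End ℤ (A0 N p)) (x : Jtor N (p ^ k)) :
    incK N p k (resK N p k f x) = f (incK N p k x) := incK_resKfun N p k f x

theorem coe_resK (k : ℕ) (f : Module.End ℤ (A0 N p)) (x : Jtor N (p ^ k)) :
    ((resK N p k f x : Jtor N (p ^ k)) : JZero N) = ((f (incK N p k x) : A0 N p) : JZero N) :=
  coe_resKfun N p k f x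

/-- An endomorphism of `J₀(N)[p^∞]` is determined by its restrictions. -/
theorem resK_ext {f g : Module.End ℤ (A0 N p)} (h : ∀ k, resK N p k f = resK N p k g) :
    f = g := by
  ext x
  obtain ⟨k, y, rfl⟩ := exists_incK N p x
  rw [← incK_resK, ← incK_resK, h k]

end Res

/-! ## The operators in coordinates -/

section Mat

variable {N p : ℕ} [NeZero N] {S : Set ℕ} (C : TateCoords N p S)

/-- The matrix of the restriction to `J₀(N)[p^k]` of an endomorphism of `J₀(N)[p^∞]`. -/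
def matK (k : ℕ) : Module.End ℤ (A0 N p) →+* Matrix (Fin C.r) (Fin C.r) (ZMod (p ^ k)) :=
  (C.mat k).comp (resK N p k)

theorem matK_mulVec (k : ℕ) (f : Module.End ℤ (A0 N p)) (x : Jtor N (p ^ k)) :
    (matK C k f).mulVec (C.θ k x) = C.θ k (resK N p k f x) :=
  C.mat_mulVec k (resK N p k f) x

/-- All matrices. -/
def matAll : Module.End ℤ (A0 N p) →+* (∀ k : ℕ, Matrix (Fin C.r) (Fin C.r) (ZMod (p ^ k))) :=
  Pi.ringHom (matK C)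

theorem matAll_apply (f : Module.End ℤ (A0 N p)) (k : ℕ) : matAll C f k = matK C k f := rfl

theorem matAll_injective : Function.Injective (matAll C) := by
  intro f g h
  apply resK_ext
  intro k
  refine DFunLike.ext _ _ fun x => (C.θ k).injective ?_
  rw [← matK_mulVec, ← matK_mulVec, ← matAll_apply, ← matAll_apply, h]

/-- The integral Hecke matrices modulo all `p ^ k`. -/
def McAll : CuspForm.heckeAlgebra N 2 S →+*
    (∀ k : ℕ, Matrix (Fin C.r) (Fin C.r) (ZMod (p ^ k))) :=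
  Pi.ringHom (fun k => (Int.castRingHom (ZMod (p ^ k))).mapMatrix.comp C.M)

theorem McAll_apply (t : CuspForm.heckeAlgebra N 2 S) (k : ℕ) :
    McAll C t k = Mc (ZMod (p ^ k)) C.M t := rfl

/-- `Tz0` restricts to the Hecke operator of `J₀(N)[p^k]`. -/
theorem resK_Tz0 (k : ℕ) {ℓ : ℕ} (hℓ : ℓ.Prime) :
    resK N p k (Tz0 N p ℓ) = TateCoords.heckeEnd k (⟨ℓ, hℓ⟩ : Nat.Primes) := by
  haveI : NeZero ℓ := ⟨hℓ.ne_zero⟩
  refine DFunLike.ext _ _ fun x => Subtype.ext ?_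
  rw [coe_resK, Tz0_apply, coe_incK, ← T0_eq]
  exact (heckeOperatorBar_apply N (⟨ℓ, hℓ⟩ : Nat.Primes) (x : JZero N)).symm

/-- `galZ0` restricts to the Galois action of `J₀(N)[p^k]`. -/
theorem resK_galZ0 (k : ℕ) (σ : GalQ) :
    resK N p k (galZ0 N p σ) = TateCoords.galEnd k σ := by
  refine DFunLike.ext _ _ fun x => Subtype.ext ?_
  rw [coe_resK, TateCoords.coe_galEnd]
  rfl

theorem matK_Tz0 (k : ℕ) {ℓ : ℕ} (hℓ : ℓ.Prime) (hℓN : ¬ ℓ ∣ N) (hℓS : ℓ ∉ S) :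
    matK C k (Tz0 N p ℓ) = Mc (ZMod (p ^ k)) C.M (CuspForm.heckeAlgebra.T hℓ hℓN hℓS) := by
  rw [matK, RingHom.comp_apply, resK_Tz0 k hℓ, C.mat_hecke k hℓ hℓN hℓS]

theorem matK_galZ0 (k : ℕ) (σ : GalQ) : matK C k (galZ0 N p σ) = C.ρ k σ := by
  rw [matK, RingHom.comp_apply, resK_galZ0, C.mat_gal]

end Mat

/-! ## The Hecke ring homomorphism -/

section Eta

variable (N p : ℕ) [NeZero N] (S : Set ℕ)

/-- **The Hecke algebra acts on `J₀(N)[p^∞]`**, with matrices `M t` in the coordinates. -/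
theorem exists_etaC (hp : p.Prime) (hNS : ∀ q : ℕ, q.Prime → q ∣ N → q ∈ S) :
    ∃ (C : TateCoords N p S) (ηC : CuspForm.heckeAlgebra N 2 S →+* Module.End ℤ (A0 N p)),
      (∀ (k : ℕ) (x : Jtor N (p ^ (k + 1))),
        C.θ k (mulTor (pow_dvd_pow p (Nat.le_succ k)) x)
          = fun i => ZMod.castHom (pow_dvd_pow p (Nat.le_succ k)) (ZMod (p ^ k))
              (C.θ (k + 1) x i)) ∧
      (∀ t k, matK C k (ηC t) = Mc (ZMod (p ^ k)) C.M t) ∧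
      (∀ (ℓ : ℕ) (hℓ : ℓ.Prime) (hℓN : ¬ ℓ ∣ N) (hℓS : ℓ ∉ S),
        ηC (CuspForm.heckeAlgebra.T hℓ hℓN hℓS) = Tz0 N p ℓ) := by
  obtain ⟨C, hC⟩ := exists_tateCoords_compat N p S hp hNS
  have hrange : ∀ t, ∃ b, matAll C b = McAll C t := by
    refine Fermat.Agent.NEB.EIG.H39.hecke_induction hNS
      (fun ℓ hℓ hℓN hℓS => ⟨Tz0 N p ℓ, ?_⟩) (fun n => ⟨(n : Module.End ℤ (A0 N p)), ?_⟩)
      (fun x y hx hy => ?_) (fun x y hx hy => ?_)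
    · funext k
      rw [matAll_apply, McAll_apply, matK_Tz0 C k hℓ hℓN hℓS]
    · rw [map_intCast, map_intCast]
    · obtain ⟨b, hb⟩ := hx
      obtain ⟨b', hb'⟩ := hy
      exact ⟨b + b', by rw [map_add, hb, hb', map_add]⟩
    · obtain ⟨b, hb⟩ := hx
      obtain ⟨b', hb'⟩ := hy
      exact ⟨b * b', by rw [map_mul, hb, hb', map_mul]⟩
  obtain ⟨ηC, hηC⟩ := Fermat.Agent.NEB.EIG.H39.exists_ringHom_of_injective (McAll C) (matAll C)
    (matAll_injective C) hrange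
  refine ⟨C, ηC, hC, fun t k => ?_, fun ℓ hℓ hℓN hℓS => ?_⟩
  · rw [← matAll_apply, hηC, McAll_apply]
  · apply matAll_injective C
    rw [hηC]
    funext k
    rw [matAll_apply, McAll_apply, matK_Tz0 C k hℓ hℓN hℓS]

end Eta

/-! ## The clauses of `Stmt_W_MD` at the `ℤ`-level -/

section Clauses

variable {N p : ℕ} [NeZero N] {S : Set ℕ} (C : TateCoords N p S)

/-- The Hecke operators commute with the Galois action. -/
theorem etaC_comm_gal (ηC : CuspForm.heckeAlgebra N 2 S →+* Module.End ℤ (A0 N p))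
    (hη : ∀ t k, matK C k (ηC t) = Mc (ZMod (p ^ k)) C.M t)
    (t : CuspForm.heckeAlgebra N 2 S) (σ : GalQ) : Commute (ηC t) (galZ0 N p σ) := by
  apply matAll_injective C
  funext k
  rw [matAll_apply, matAll_apply, map_mul, map_mul, hη, matK_galZ0]
  exact (C.tate.comm k σ t).symm

/-- `J₀(N)[p^∞]` is `p`-divisible. -/
theorem a0_div (hp : p.Prime)
    (hC : ∀ (k : ℕ) (x : Jtor N (p ^ (k + 1))),
      C.θ k (mulTor (pow_dvd_pow p (Nat.le_succ k)) x)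
        = fun i => ZMod.castHom (pow_dvd_pow p (Nat.le_succ k)) (ZMod (p ^ k))
            (C.θ (k + 1) x i)) (x : A0 N p) : ∃ y : A0 N p, p • y = x := by
  obtain ⟨k, y, rfl⟩ := exists_incK N p x
  have hsurj : Function.Surjective
      (ZMod.castHom (pow_dvd_pow p (Nat.le_succ k)) (ZMod (p ^ k))) :=
    ZMod.castHom_surjective _
  choose w hw using fun i => hsurj (C.θ k y i)
  set z : Jtor N (p ^ (k + 1)) := (C.θ (k + 1)).symm w with hz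
  have h1 : mulTor (pow_dvd_pow p (Nat.le_succ k)) z = y := by
    apply (C.θ k).injective
    rw [hC k z, hz, AddEquiv.apply_symm_apply]
    funext i
    exact hw i
  refine ⟨incK N p (k + 1) z, Subtype.ext ?_⟩
  have h2 := congrArg (fun u : Jtor N (p ^ k) => (u : JZero N)) h1
  simp only [coe_mulTor] at h2
  have h3 : p ^ (k + 1) / p ^ k = p := by
    rw [pow_succ, Nat.mul_div_cancel_left _ (pow_pos hp.pos k)]
  rw [h3] at h2
  exact h2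

include C in
/-- `J₀(N)[p]` is finite. -/
theorem a0_fin (hp : p.Prime) : Finite {x : A0 N p // p • x = 0} := by
  haveI : NeZero (p ^ 1) := ⟨pow_ne_zero 1 hp.ne_zero⟩
  haveI : Finite (Jtor N (p ^ 1)) := Finite.of_equiv _ (C.θ 1).symm.toEquiv
  let j : {x : A0 N p // p • x = 0} → Jtor N (p ^ 1) := fun x =>
    ⟨((x : A0 N p) : JZero N), mem_Jtor_of_pow_smul N p (by
      rw [pow_one]
      exact congrArg (fun u : A0 N p => (u : JZero N)) x.2)⟩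
  refine Finite.of_injective j ?_
  intro x y h
  have h1 : ((x : A0 N p) : JZero N) = ((y : A0 N p) : JZero N) :=
    congrArg (fun u : Jtor N (p ^ 1) => (u : JZero N)) h
  exact Subtype.ext (Subtype.ext h1)

end Clauses

section Clauses2

variable (N p : ℕ) [NeZero N]

/-- Eichler–Shimura on `J₀(N)[p^∞]`. -/
theorem a0_es (hp : p.Prime) (ℓ : ℕ) (hℓ : ℓ.Prime) (hℓN : ¬ ℓ ∣ N) (hℓp : ℓ ≠ p)
    (P : ValuationSubring Kbar) (hP : P.LiesOverPrime ℓ) (σ : GalQ)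
    (hσ : P.IsFrobeniusAt σ ℓ) :
    galZ0 N p σ * galZ0 N p σ - Tz0 N p ℓ * galZ0 N p σ
      + (ℓ : ℤ) • (1 : Module.End ℤ (A0 N p)) = 0 := by
  haveI : NeZero ℓ := ⟨hℓ.ne_zero⟩
  have hES : Stmt_TorsES N p := torsES_of_red hp (Fermat.Agent.R.H33.allRed N p)
  ext x
  have h := hES ℓ hℓ hℓN hℓp P hP σ hσ (x : JZero N) x.2
  have hT : heckeOperatorBar N (⟨ℓ, hℓ⟩ : Nat.Primes) (σ • (x : JZero N))
      = T0 N ℓ (σ • (x : JZero N)) := by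
    rw [← T0_eq]
    exact heckeOperatorBar_apply N (⟨ℓ, hℓ⟩ : Nat.Primes) _
  have h' : σ • σ • (x : JZero N) - T0 N ℓ (σ • (x : JZero N)) + ℓ • (x : JZero N) = 0 :=
    hT ▸ h
  simp only [LinearMap.add_apply, LinearMap.sub_apply, Module.End.mul_apply,
    LinearMap.smul_apply, Module.End.one_apply, LinearMap.zero_apply]
  rw [AddSubgroup.coe_add, AddSubgroup.coe_sub, Tz0_apply, AddSubgroup.coe_zsmul,
    natCast_zsmul]
  exact h'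

/-- Inertia at `q ∤ N p` acts trivially on `J₀(N)[p^∞]`. -/
theorem a0_unr (hp : p.Prime) (q : ℕ) (hq : q.Prime) (hqN : ¬ q ∣ N) (hqp : q ≠ p)
    (P : ValuationSubring Kbar) (hP : P.LiesOverPrime q) (σ : GalQ)
    (hσ : σ ∈ P.inertiaSubgroupIn ℚ) : galZ0 N p σ = 1 := by
  have hU : Stmt_TorsUnram N p := torsUnram_of_red hp (Fermat.Agent.R.H33.allRed N p)
  ext x
  exact hU q hq hqN hqp P hP σ hσ (x : JZero N) x.2

/-- Every point of `J₀(N)[p^∞]` is fixed by an open subgroup. -/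
theorem a0_cont (x : A0 N p) : ∃ L : IntermediateField ℚ Kbar, FiniteDimensional ℚ L ∧
    ∀ σ : GalQ, (∀ y ∈ L, σ y = y) → galZ0 N p σ x = x := by
  obtain ⟨L, hL, h⟩ := stmt_GAL N (x : JZero N)
  exact ⟨L, hL, fun σ hσ => Subtype.ext (h σ hσ)⟩

end Clauses2

end Fermat.Agent.NEB.Geom.H26

end
end
-- ==== END Fermat.Agent.NEB.Geom.H26_WMD1
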