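-- GENERATED (merged mirror, NOTES/tools/trim/merge3_helper67.py): 5 modules of the originals, bodies verbatim.
import Mathlib
import Fermat.Agent.Zm.S43_L11_001
import Fermat.Agent.Zm.S43_L01_001
import Fermat.Agent.Zm.S36_L03_000
import Fermat.Agent.Zm.S35_L04_002
import Fermat.Agent.Zm.S43_L08_001
import Fermat.Agent.Zm.S43_L09_001
import Fermat.Agent.Zm.S35_L08_004

-- ==== BEGIN Fermat.Agent.NEB.Geom.H29_ZCommTw
section

/-!
# NEB-GEOM, leaf Z-COMMtw (helper29)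

`stmt_Z_COMMtw : Stmt_Z_COMMtw N S p n qv h2`: the operators `T'_ℓ`, `U_{q_j}`, `⟨u⟩` on
`J_H[p^∞]` commute pairwise and with the Galois action; the same at level `Γ₀(N c)`; and they are
intertwined by `π^*`, `π_*`.

Level `Γ₀`: the commutation is deduced from the one on `J_H` for `H = ⊤` (where `π_* π^* = 1`).
-/

set_option autoImplicit false
set_option linter.unusedSectionVars false
set_option linter.style.haveILetI false

noncomputable section

namespace Fermat.Agent.NEB.Geom.H29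

open AlgebraicCurve ModularCurve
open Fermat.Agent.NEB Fermat.Agent.NEB.H14 Fermat.Agent.NEB.JH Fermat.Agent.RED
open Fermat.Agent.S59.Asm

/-- Commutation of endomorphisms of `ptors`, checked on the underlying elements. -/
theorem commute_ptors {X : Type*} [AddCommGroup X] {p : ℕ} (a b : Module.End ℤ ↥(ptors p X))
    (h : ∀ x : ↥(ptors p X), ((a (b x) : ↥(ptors p X)) : X) = ((b (a x) : ↥(ptors p X)) : X)) :
    Commute a b := by
  show a * b = b * a
  exact LinearMap.ext fun x => Subtype.ext (h x)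

/-! ## 1. The operators on `J_H[p^∞]` -/

section gen

variable (M c : ℕ) [NeZero M] (H : Subgroup (ZMod c)ˣ) (h2 : 2 ≤ c) (hc : c ∣ M) (p : ℕ)

theorem Tz_zero : Tz M c H h2 hc p 0 = 0 := by
  simp only [Tz, dif_pos]

theorem Uz_zero : Uz M c H h2 hc p 0 = 0 := by
  simp only [Uz, dif_pos]

theorem commute_diaZ_diaZ (u v : (ZMod c)ˣ) :
    Commute (diaZ M c H h2 hc p u) (diaZ M c H h2 hc p v) := by
  show _ * _ = _ * _
  rw [← map_mul, ← map_mul, mul_comm]

theorem commute_Tz_diaZ (ℓ : ℕ) (u : (ZMod c)ˣ) :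
    Commute (Tz M c H h2 hc p ℓ) (diaZ M c H h2 hc p u) := by
  by_cases h : ℓ = 0
  · subst h
    rw [Tz_zero]
    exact Commute.zero_left _
  · haveI : NeZero ℓ := ⟨h⟩
    refine commute_ptors _ _ fun x => ?_
    rw [Tz_apply, diaZ_apply, diaZ_apply, Tz_apply]
    exact TH_diamond (heckeData M c ℓ H h2 hc) u (x : JH M c H)

theorem commute_Uz_diaZ (q : ℕ) (u : (ZMod c)ˣ) :
    Commute (Uz M c H h2 hc p q) (diaZ M c H h2 hc p u) := by
  by_cases h : q = 0
  · subst h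
    rw [Uz_zero]
    exact Commute.zero_left _
  · haveI : NeZero q := ⟨h⟩
    refine commute_ptors _ _ fun x => ?_
    rw [Uz_apply, diaZ_apply, diaZ_apply, Uz_apply]
    exact UH_diamond (heckeData M c q H h2 hc) u (x : JH M c H)

theorem commute_Tz_galZ (ℓ : ℕ) (σ : _root_.Fermat.Agent.NEB.Geom.GalQ) :
    Commute (Tz M c H h2 hc p ℓ) (galZ M c H p σ) := by
  by_cases h : ℓ = 0
  · subst h
    rw [Tz_zero]
    exact Commute.zero_left _
  · haveI : NeZero ℓ := ⟨h⟩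
    refine commute_ptors _ _ fun x => ?_
    rw [Tz_apply, galZ_apply, galZ_apply, Tz_apply]
    exact TH_galois (heckeData M c ℓ H h2 hc).isFF (heckeData M c ℓ H h2 hc).isFF'
      (heckeData M c ℓ H h2 hc).hβ σ (x : JH M c H)

theorem commute_Uz_galZ (q : ℕ) (σ : _root_.Fermat.Agent.NEB.Geom.GalQ) :
    Commute (Uz M c H h2 hc p q) (galZ M c H p σ) := by
  by_cases h : q = 0
  · subst h
    rw [Uz_zero]
    exact Commute.zero_left _
  · haveI : NeZero q := ⟨h⟩
    refine commute_ptors _ _ fun x => ?_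
    rw [Uz_apply, galZ_apply, galZ_apply, Uz_apply]
    exact UH_galois (heckeData M c q H h2 hc).isFF (heckeData M c q H h2 hc).isFF'
      (heckeData M c q H h2 hc).hβ σ (x : JH M c H)

theorem commute_diaZ_galZ (u : (ZMod c)ˣ) (σ : _root_.Fermat.Agent.NEB.Geom.GalQ) :
    Commute (diaZ M c H h2 hc p u) (galZ M c H p σ) := by
  refine commute_ptors _ _ fun x => ?_
  rw [diaZ_apply, galZ_apply, galZ_apply, diaZ_apply]
  exact diamond_galois (isFF_JH M c H h2 hc) (diamondData M c H h2 hc) u σ (x : JH M c H)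

theorem commute_Tz_Tz {ℓ ℓ' : ℕ} (hℓ : ℓ.Prime) (hℓM : ¬ ℓ ∣ M) (hℓ' : ℓ'.Prime)
    (hℓ'M : ¬ ℓ' ∣ M) : Commute (Tz M c H h2 hc p ℓ) (Tz M c H h2 hc p ℓ') := by
  by_cases hne : ℓ = ℓ'
  · subst hne
    exact Commute.refl _
  · haveI : NeZero ℓ := ⟨hℓ.ne_zero⟩
    haveI : NeZero ℓ' := ⟨hℓ'.ne_zero⟩
    refine commute_ptors _ _ fun x => ?_
    rw [Tz_apply, Tz_apply, Tz_apply, Tz_apply]
    exact TH_comm (heckeData M c ℓ H h2 hc) (heckeData M c ℓ' H h2 hc) h2 hc hℓ hℓM hℓ' hℓ'M hne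
      (x : JH M c H)

theorem commute_Tz_Uz {ℓ q : ℕ} (hℓ : ℓ.Prime) (hℓM : ¬ ℓ ∣ M) (hq : q.Prime) (hqM : q ∣ M) :
    Commute (Tz M c H h2 hc p ℓ) (Uz M c H h2 hc p q) := by
  have hne : ℓ ≠ q := fun h => hℓM (h ▸ hqM)
  haveI : NeZero ℓ := ⟨hℓ.ne_zero⟩
  haveI : NeZero q := ⟨hq.ne_zero⟩
  refine commute_ptors _ _ fun x => ?_
  rw [Tz_apply, Uz_apply, Uz_apply, Tz_apply]
  exact TH_UH_comm (heckeData M c ℓ H h2 hc) (heckeData M c q H h2 hc) h2 hc hℓ hℓM hq
    (Fermat.Agent.NEB.Geom.H70.finrankAlong_betaH_of_dvd (heckeData M c q H h2 hc) hq hqM) hne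
    (x : JH M c H)

theorem commute_Uz_Uz {q q' : ℕ} (hq : q.Prime) (hqM : q ∣ M) (hq' : q'.Prime) (hq'M : q' ∣ M) :
    Commute (Uz M c H h2 hc p q) (Uz M c H h2 hc p q') := by
  by_cases hne : q = q'
  · subst hne
    exact Commute.refl _
  · haveI : NeZero q := ⟨hq.ne_zero⟩
    haveI : NeZero q' := ⟨hq'.ne_zero⟩
    refine commute_ptors _ _ fun x => ?_
    rw [Uz_apply, Uz_apply, Uz_apply, Uz_apply]
    exact UH_comm (heckeData M c q H h2 hc) (heckeData M c q' H h2 hc) hq hq'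
      (Fermat.Agent.NEB.Geom.H70.finrankAlong_betaH_of_dvd (heckeData M c q H h2 hc) hq hqM)
      (Fermat.Agent.NEB.Geom.H70.finrankAlong_betaH_of_dvd (heckeData M c q' H h2 hc) hq' hq'M)
      hne (x : JH M c H)

/-- A twisted operator commutes with whatever commutes with `T_ℓ` and the diamonds. -/
theorem commute_TzTw_of {X : Module.End ℤ (AH M c H p)} (j ℓ : ℕ)
    (h1 : Commute (Tz M c H h2 hc p ℓ) X)
    (h2' : ∀ u, Commute (diaZ M c H h2 hc p u) X) :
    Commute (TzTw M c H h2 hc p j ℓ) X :=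
  Commute.mul_left h1 ((h2' _).pow_left j)

/-- `π^*` on `J₀[p^∞]` followed by a diamond. -/
theorem diaZ_upZ (u : (ZMod c)ˣ) (x : A0 M p) :
    diaZ M c H h2 hc p u (upZ M c H p x) = upZ M c H p x := by
  apply Subtype.ext
  rw [diaZ_apply]
  exact diamond_piUp (isFF_JH M c H h2 hc) (diamondData M c H h2 hc) u (x : JZero M)

theorem diaZ_pow_upZ (u : (ZMod c)ˣ) (j : ℕ) (x : A0 M p) :
    (diaZ M c H h2 hc p u ^ j) (upZ M c H p x) = upZ M c H p x := by
  induction j with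
  | zero => rfl
  | succ j ih => rw [pow_succ, Module.End.mul_apply, diaZ_upZ, ih]

theorem downZ_diaZ (u : (ZMod c)ˣ) (x : AH M c H p) :
    downZ M c H p (diaZ M c H h2 hc p u x) = downZ M c H p x := by
  apply Subtype.ext
  show piDown M c H ((diamondData M c H h2 hc).ρ u • (x : JH M c H)) = piDown M c H (x : JH M c H)
  exact piDown_diamond (isFF_JH M c H h2 hc) (diamondData M c H h2 hc) u (x : JH M c H)

theorem downZ_diaZ_pow (u : (ZMod c)ˣ) (j : ℕ) (x : AH M c H p) :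
    downZ M c H p ((diaZ M c H h2 hc p u ^ j) x) = downZ M c H p x := by
  induction j generalizing x with
  | zero => rfl
  | succ j ih => rw [pow_succ, Module.End.mul_apply, ih, downZ_diaZ]

theorem upZ_Tz0 (ℓ : ℕ) (x : A0 M p) :
    upZ M c H p (Tz0 M p ℓ x) = Tz M c H h2 hc p ℓ (upZ M c H p x) := by
  by_cases h : ℓ = 0
  · subst h
    have h0 : Tz0 M p 0 = 0 := by simp only [Tz0, dif_pos]
    rw [Tz_zero, h0]
    simp
  · haveI : NeZero ℓ := ⟨h⟩
    apply Subtype.ext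
    rw [Tz_apply]
    show piUp M c H ((Tz0 M p ℓ x : A0 M p) : JZero M) = _
    rw [Tz0_apply]
    exact piUp_T0 (heckeData M c ℓ H h2 hc) (x : JZero M)

theorem upZ_Uz0 (q : ℕ) (x : A0 M p) :
    upZ M c H p (Uz0 M p q x) = Uz M c H h2 hc p q (upZ M c H p x) := by
  by_cases h : q = 0
  · subst h
    have h0 : Uz0 M p 0 = 0 := by simp only [Uz0, dif_pos]
    rw [Uz_zero, h0]
    simp
  · haveI : NeZero q := ⟨h⟩
    apply Subtype.ext
    rw [Uz_apply]
    show piUp M c H ((Uz0 M p q x : A0 M p) : JZero M) = _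
    rw [Uz0_apply]
    exact piUp_U0 (heckeData M c q H h2 hc) (x : JZero M)

theorem downZ_Tz (ℓ : ℕ) (x : AH M c H p) :
    downZ M c H p (Tz M c H h2 hc p ℓ x) = Tz0 M p ℓ (downZ M c H p x) := by
  by_cases h : ℓ = 0
  · subst h
    have h0 : Tz0 M p 0 = 0 := by simp only [Tz0, dif_pos]
    rw [Tz_zero, h0]
    simp
  · haveI : NeZero ℓ := ⟨h⟩
    apply Subtype.ext
    rw [Tz0_apply]
    show piDown M c H ((Tz M c H h2 hc p ℓ x : AH M c H p) : JH M c H) = _
    rw [Tz_apply]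
    exact piDown_TH (heckeData M c ℓ H h2 hc) (x : JH M c H)

theorem downZ_Uz (q : ℕ) (x : AH M c H p) :
    downZ M c H p (Uz M c H h2 hc p q x) = Uz0 M p q (downZ M c H p x) := by
  by_cases h : q = 0
  · subst h
    have h0 : Uz0 M p 0 = 0 := by simp only [Uz0, dif_pos]
    rw [Uz_zero, h0]
    simp
  · haveI : NeZero q := ⟨h⟩
    apply Subtype.ext
    rw [Uz0_apply]
    show piDown M c H ((Uz M c H h2 hc p q x : AH M c H p) : JH M c H) = _
    rw [Uz_apply]
    exact piDown_UH (heckeData M c q H h2 hc) (x : JH M c H)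

include h2 hc in
theorem upZ_galZ0 (σ : _root_.Fermat.Agent.NEB.Geom.GalQ) (x : A0 M p) :
    upZ M c H p (galZ0 M p σ x) = galZ M c H p σ (upZ M c H p x) := by
  apply Subtype.ext
  show piUp M c H (σ • (x : JZero M)) = σ • piUp M c H (x : JZero M)
  exact piUp_galois (isFF_JH M c H h2 hc) σ (x : JZero M)

include h2 hc in
theorem downZ_galZ (σ : _root_.Fermat.Agent.NEB.Geom.GalQ) (x : AH M c H p) :
    downZ M c H p (galZ M c H p σ x) = galZ0 M p σ (downZ M c H p x) := by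
  apply Subtype.ext
  show piDown M c H (σ • (x : JH M c H)) = σ • piDown M c H (x : JH M c H)
  exact piDown_galois (isFF_JH M c H h2 hc) σ (x : JH M c H)

end gen

/-! ## 2. Level `Γ₀`: commutation through `H = ⊤` -/

section top

variable (M c : ℕ) [NeZero M] (h2 : 2 ≤ c) (hc : c ∣ M) (p : ℕ)

include h2 hc

theorem finrankAlong_inclBar_top :
    finrankAlong Kbar (inclBar M c (⊤ : Subgroup (ZMod c)ˣ)) = 1 := by
  rw [Fermat.Agent.NEB.H94.finrankAlong_inclBar M c ⊤ h2 hc (NeZero.ne M)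
    (Fermat.Agent.NEB.H84.stmt_FH_gal M c ⊤)]
  have h : Fermat.Agent.NEB.H94.pmSubgroup c ⊤ = ⊤ := by
    rw [Subgroup.eq_top_iff']
    intro d
    exact Or.inl (Subgroup.mem_top d)
  rw [h, Subgroup.index_top]

theorem piDown_piUp_top (x : JZero M) :
    piDown M c (⊤ : Subgroup (ZMod c)ˣ) (piUp M c ⊤ x) = x := by
  rw [piDown_piUp (isFF_JH M c ⊤ h2 hc), finrankAlong_inclBar_top M c h2 hc, one_smul]

theorem downZ_upZ_top (x : A0 M p) :
    downZ M c (⊤ : Subgroup (ZMod c)ˣ) p (upZ M c ⊤ p x) = x :=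
  Subtype.ext (piDown_piUp_top M c h2 hc (x : JZero M))

/-- Operators on `J₀[p^∞]` which are pushed down from commuting operators on `J_⊤[p^∞]`
commute. -/
theorem commute0_of_top {a b : Module.End ℤ (AH M c (⊤ : Subgroup (ZMod c)ˣ) p)}
    {a₀ b₀ : Module.End ℤ (A0 M p)}
    (ha : ∀ y, downZ M c ⊤ p (a y) = a₀ (downZ M c ⊤ p y))
    (hb : ∀ y, downZ M c ⊤ p (b y) = b₀ (downZ M c ⊤ p y))
    (hab : Commute a b) : Commute a₀ b₀ := by
  show a₀ * b₀ = b₀ * a₀
  refine LinearMap.ext fun x => ?_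
  have hx := downZ_upZ_top M c h2 hc p x
  have h1 : a₀ (b₀ x) = downZ M c ⊤ p (a (b (upZ M c ⊤ p x))) := by
    rw [ha, hb, hx]
  have h2' : b₀ (a₀ x) = downZ M c ⊤ p (b (a (upZ M c ⊤ p x))) := by
    rw [hb, ha, hx]
  have h3 : a (b (upZ M c ⊤ p x)) = b (a (upZ M c ⊤ p x)) :=
    LinearMap.congr_fun hab.eq (upZ M c ⊤ p x)
  show a₀ (b₀ x) = b₀ (a₀ x)
  rw [h1, h2', h3]

theorem commute_Tz0_Tz0 {ℓ ℓ' : ℕ} (hℓ : ℓ.Prime) (hℓM : ¬ ℓ ∣ M) (hℓ' : ℓ'.Prime)
    (hℓ'M : ¬ ℓ' ∣ M) : Commute (Tz0 M p ℓ) (Tz0 M p ℓ') :=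
  commute0_of_top M c h2 hc p (downZ_Tz M c ⊤ h2 hc p ℓ) (downZ_Tz M c ⊤ h2 hc p ℓ')
    (commute_Tz_Tz M c ⊤ h2 hc p hℓ hℓM hℓ' hℓ'M)

theorem commute_Tz0_Uz0 {ℓ q : ℕ} (hℓ : ℓ.Prime) (hℓM : ¬ ℓ ∣ M) (hq : q.Prime) (hqM : q ∣ M) :
    Commute (Tz0 M p ℓ) (Uz0 M p q) :=
  commute0_of_top M c h2 hc p (downZ_Tz M c ⊤ h2 hc p ℓ) (downZ_Uz M c ⊤ h2 hc p q)
    (commute_Tz_Uz M c ⊤ h2 hc p hℓ hℓM hq hqM)

theorem commute_Uz0_Uz0 {q q' : ℕ} (hq : q.Prime) (hqM : q ∣ M) (hq' : q'.Prime)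
    (hq'M : q' ∣ M) : Commute (Uz0 M p q) (Uz0 M p q') :=
  commute0_of_top M c h2 hc p (downZ_Uz M c ⊤ h2 hc p q) (downZ_Uz M c ⊤ h2 hc p q')
    (commute_Uz_Uz M c ⊤ h2 hc p hq hqM hq' hq'M)

theorem commute_Tz0_galZ0 (ℓ : ℕ) (σ : _root_.Fermat.Agent.NEB.Geom.GalQ) : Commute (Tz0 M p ℓ) (galZ0 M p σ) :=
  commute0_of_top M c h2 hc p (downZ_Tz M c ⊤ h2 hc p ℓ) (downZ_galZ M c ⊤ h2 hc p σ)
    (commute_Tz_galZ M c ⊤ h2 hc p ℓ σ)

theorem commute_Uz0_galZ0 (q : ℕ) (σ : _root_.Fermat.Agent.NEB.Geom.GalQ) : Commute (Uz0 M p q) (galZ0 M p σ) :=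
  commute0_of_top M c h2 hc p (downZ_Uz M c ⊤ h2 hc p q) (downZ_galZ M c ⊤ h2 hc p σ)
    (commute_Uz_galZ M c ⊤ h2 hc p q σ)

end top

/-! ## 3. The Taylor–Wiles setting -/

section TW

variable (N : ℕ) (S : Finset ℕ) (p n : ℕ) {r : ℕ} (qv : Fin r → ℕ)

theorem twC_dvd_level : twC qv ∣ N * twC qv := dvd_mul_left _ _

theorem qv_dvd_level (j : Fin r) : qv j ∣ N * twC qv :=
  Dvd.dvd.mul_left (Finset.dvd_prod_of_mem qv (Finset.mem_univ j)) N

theorem not_dvd_level_of_good {N : ℕ} {S : Finset ℕ} {r : ℕ} {qv : Fin r → ℕ} {ℓ : ℕ}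
    (h : GoodTw N S qv ℓ) : ¬ ℓ ∣ N * twC qv := by
  intro hd
  apply h.2.1
  unfold twLevel
  exact hd.trans (mul_dvd_mul_left N
    (Finset.prod_dvd_prod_of_dvd _ _ fun j _ => dvd_pow_self _ two_ne_zero))

variable [NeZero (N * twC qv)] (h2 : 2 ≤ twC qv)

theorem opsTw_inl_good {ℓ : ℕ} (hg : GoodTw N S qv ℓ) :
    opsTw N S p n qv h2 (Sum.inl ℓ)
      = TzTw (N * twC qv) (twC qv) (twH p n qv) h2 (dvd_mul_left _ _) p (jTw p n) ℓ := by
  simp only [opsTw, if_pos hg]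

theorem opsTw_inl_bad {ℓ : ℕ} (hg : ¬ GoodTw N S qv ℓ) :
    opsTw N S p n qv h2 (Sum.inl ℓ) = 0 := by
  simp only [opsTw, if_neg hg]

theorem opsTw0_inl_good {ℓ : ℕ} (hg : GoodTw N S qv ℓ) :
    opsTw0 N S p qv (Sum.inl ℓ) = Tz0 (N * twC qv) p ℓ := by
  simp only [opsTw0, if_pos hg]

theorem opsTw0_inl_bad {ℓ : ℕ} (hg : ¬ GoodTw N S qv ℓ) :
    opsTw0 N S p qv (Sum.inl ℓ) = 0 := by
  simp only [opsTw0, if_neg hg]

/-- The operators commute pairwise. -/
theorem commute_opsTw (hq : ∀ j, (qv j).Prime) (i j : IdxTw r (twC qv)) :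
    Commute (opsTw N S p n qv h2 i) (opsTw N S p n qv h2 j) := by
  have hc : twC qv ∣ N * twC qv := dvd_mul_left _ _
  -- the basic commutations
  have hTd : ∀ ℓ u, Commute
      (opsTw N S p n qv h2 (Sum.inl ℓ))
      (diaZ (N * twC qv) (twC qv) (twH p n qv) h2 hc p u) := by
    intro ℓ u
    by_cases hg : GoodTw N S qv ℓ
    · rw [opsTw_inl_good N S p n qv h2 hg]
      exact commute_TzTw_of _ _ _ h2 hc p _ _ (commute_Tz_diaZ _ _ _ h2 hc p ℓ u)
        (fun v => commute_diaZ_diaZ _ _ _ h2 hc p v u)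
    · rw [opsTw_inl_bad N S p n qv h2 hg]
      exact Commute.zero_left _
  have hTU : ∀ ℓ k, Commute
      (opsTw N S p n qv h2 (Sum.inl ℓ))
      (Uz (N * twC qv) (twC qv) (twH p n qv) h2 hc p (qv k)) := by
    intro ℓ k
    by_cases hg : GoodTw N S qv ℓ
    · rw [opsTw_inl_good N S p n qv h2 hg]
      exact commute_TzTw_of _ _ _ h2 hc p _ _
        (commute_Tz_Uz _ _ _ h2 hc p hg.1 (not_dvd_level_of_good hg) (hq k) (qv_dvd_level N qv k))
        (fun v => (commute_Uz_diaZ _ _ _ h2 hc p (qv k) v).symm)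
    · rw [opsTw_inl_bad N S p n qv h2 hg]
      exact Commute.zero_left _
  have hTT : ∀ ℓ ℓ', Commute
      (opsTw N S p n qv h2 (Sum.inl ℓ)) (opsTw N S p n qv h2 (Sum.inl ℓ')) := by
    intro ℓ ℓ'
    by_cases hg : GoodTw N S qv ℓ
    · by_cases hg' : GoodTw N S qv ℓ'
      · rw [opsTw_inl_good N S p n qv h2 hg]
        refine commute_TzTw_of _ _ _ h2 hc p _ _ ?_ (fun v => (hTd ℓ' v).symm)
        rw [opsTw_inl_good N S p n qv h2 hg']
        exact (commute_TzTw_of _ _ _ h2 hc p _ _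
          (commute_Tz_Tz _ _ _ h2 hc p hg'.1 (not_dvd_level_of_good hg') hg.1 (not_dvd_level_of_good hg))
          (fun v => (commute_Tz_diaZ _ _ _ h2 hc p ℓ v).symm)).symm
      · rw [opsTw_inl_bad N S p n qv h2 hg']
        exact Commute.zero_right _
    · rw [opsTw_inl_bad N S p n qv h2 hg]
      exact Commute.zero_left _
  rcases i with ℓ | k | u <;> rcases j with ℓ' | k' | u'
  · exact hTT ℓ ℓ'
  · exact hTU ℓ k'
  · exact hTd ℓ u'
  · exact (hTU ℓ' k).symm
  · exact commute_Uz_Uz _ _ _ h2 hc p (hq k) (qv_dvd_level N qv k) (hq k')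
      (qv_dvd_level N qv k')
  · exact commute_Uz_diaZ _ _ _ h2 hc p (qv k) u'
  · exact (hTd ℓ' u).symm
  · exact (commute_Uz_diaZ _ _ _ h2 hc p (qv k') u).symm
  · exact commute_diaZ_diaZ _ _ _ h2 hc p u u'

/-- The operators commute with the Galois action. -/
theorem commute_opsTw_galZ (i : IdxTw r (twC qv)) (σ : _root_.Fermat.Agent.NEB.Geom.GalQ) :
    Commute (opsTw N S p n qv h2 i) (galZ (N * twC qv) (twC qv) (twH p n qv) p σ) := by
  have hc : twC qv ∣ N * twC qv := dvd_mul_left _ _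
  rcases i with ℓ | k | u
  · by_cases hg : GoodTw N S qv ℓ
    · rw [opsTw_inl_good N S p n qv h2 hg]
      exact commute_TzTw_of _ _ _ h2 hc p _ _ (commute_Tz_galZ _ _ _ h2 hc p ℓ σ)
        (fun v => commute_diaZ_galZ _ _ _ h2 hc p v σ)
    · rw [opsTw_inl_bad N S p n qv h2 hg]
      exact Commute.zero_left _
  · exact commute_Uz_galZ _ _ _ h2 hc p (qv k) σ
  · exact commute_diaZ_galZ _ _ _ h2 hc p u σ

include h2 in
/-- The operators at level `Γ₀` commute pairwise. -/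
theorem commute_opsTw0 (hq : ∀ j, (qv j).Prime) (i j : IdxTw r (twC qv)) :
    Commute (opsTw0 N S p qv i) (opsTw0 N S p qv j) := by
  have hc : twC qv ∣ N * twC qv := dvd_mul_left _ _
  have hTU : ∀ ℓ k, Commute (opsTw0 N S p qv (Sum.inl ℓ)) (Uz0 (N * twC qv) p (qv k)) := by
    intro ℓ k
    by_cases hg : GoodTw N S qv ℓ
    · rw [opsTw0_inl_good N S p qv hg]
      exact commute_Tz0_Uz0 _ _ h2 hc p hg.1 (not_dvd_level_of_good hg) (hq k) (qv_dvd_level N qv k)
    · rw [opsTw0_inl_bad N S p qv hg]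
      exact Commute.zero_left _
  have hTT : ∀ ℓ ℓ', Commute (opsTw0 N S p qv (Sum.inl ℓ)) (opsTw0 N S p qv (Sum.inl ℓ')) := by
    intro ℓ ℓ'
    by_cases hg : GoodTw N S qv ℓ
    · by_cases hg' : GoodTw N S qv ℓ'
      · rw [opsTw0_inl_good N S p qv hg, opsTw0_inl_good N S p qv hg']
        exact commute_Tz0_Tz0 _ _ h2 hc p hg.1 (not_dvd_level_of_good hg) hg'.1 (not_dvd_level_of_good hg')
      · rw [opsTw0_inl_bad N S p qv hg']
        exact Commute.zero_right _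
    · rw [opsTw0_inl_bad N S p qv hg]
      exact Commute.zero_left _
  rcases i with ℓ | k | u <;> rcases j with ℓ' | k' | u'
  · exact hTT ℓ ℓ'
  · exact hTU ℓ k'
  · exact Commute.one_right _
  · exact (hTU ℓ' k).symm
  · exact commute_Uz0_Uz0 _ _ h2 hc p (hq k) (qv_dvd_level N qv k) (hq k')
      (qv_dvd_level N qv k')
  · exact Commute.one_right _
  · exact Commute.one_left _
  · exact Commute.one_left _
  · exact Commute.one_left _

include h2 in
/-- The operators at level `Γ₀` commute with the Galois action. -/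
theorem commute_opsTw0_galZ0 (i : IdxTw r (twC qv)) (σ : _root_.Fermat.Agent.NEB.Geom.GalQ) :
    Commute (opsTw0 N S p qv i) (galZ0 (N * twC qv) p σ) := by
  have hc : twC qv ∣ N * twC qv := dvd_mul_left _ _
  rcases i with ℓ | k | u
  · by_cases hg : GoodTw N S qv ℓ
    · rw [opsTw0_inl_good N S p qv hg]
      exact commute_Tz0_galZ0 _ _ h2 hc p ℓ σ
    · rw [opsTw0_inl_bad N S p qv hg]
      exact Commute.zero_left _
  · exact commute_Uz0_galZ0 _ _ h2 hc p (qv k) σ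
  · exact Commute.one_left _

/-- `π^*` intertwines the operators. -/
theorem upZ_opsTw0 (i : IdxTw r (twC qv)) :
    upZ (N * twC qv) (twC qv) (twH p n qv) p ∘ₗ opsTw0 N S p qv i
      = opsTw N S p n qv h2 i ∘ₗ upZ (N * twC qv) (twC qv) (twH p n qv) p := by
  have hc : twC qv ∣ N * twC qv := dvd_mul_left _ _
  refine LinearMap.ext fun x => ?_
  simp only [LinearMap.comp_apply]
  rcases i with ℓ | k | u
  · by_cases hg : GoodTw N S qv ℓ
    · rw [opsTw0_inl_good N S p qv hg, opsTw_inl_good N S p n qv h2 hg, TzTw,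
        Module.End.mul_apply, diaZ_pow_upZ]
      exact upZ_Tz0 _ _ _ h2 hc p ℓ x
    · rw [opsTw0_inl_bad N S p qv hg, opsTw_inl_bad N S p n qv h2 hg]
      simp
  · exact upZ_Uz0 _ _ _ h2 hc p (qv k) x
  · exact (diaZ_upZ _ _ _ h2 hc p u x).symm

/-- `π_*` intertwines the operators. -/
theorem downZ_opsTw (i : IdxTw r (twC qv)) :
    downZ (N * twC qv) (twC qv) (twH p n qv) p ∘ₗ opsTw N S p n qv h2 i
      = opsTw0 N S p qv i ∘ₗ downZ (N * twC qv) (twC qv) (twH p n qv) p := by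
  have hc : twC qv ∣ N * twC qv := dvd_mul_left _ _
  refine LinearMap.ext fun x => ?_
  simp only [LinearMap.comp_apply]
  rcases i with ℓ | k | u
  · by_cases hg : GoodTw N S qv ℓ
    · rw [opsTw0_inl_good N S p qv hg, opsTw_inl_good N S p n qv h2 hg, TzTw,
        Module.End.mul_apply, downZ_Tz, downZ_diaZ_pow]
    · rw [opsTw0_inl_bad N S p qv hg, opsTw_inl_bad N S p n qv h2 hg]
      simp
  · exact downZ_Uz _ _ _ h2 hc p (qv k) x
  · exact downZ_diaZ _ _ _ h2 hc p u x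

/-- **Z-COMMtw**. -/
theorem stmt_Z_COMMtw : Stmt_Z_COMMtw N S p n qv h2 := by
  intro hyp
  refine ⟨commute_opsTw N S p n qv h2 hyp.prime, commute_opsTw_galZ N S p n qv h2,
    commute_opsTw0 N S p qv h2 hyp.prime, commute_opsTw0_galZ0 N S p qv h2,
    upZ_opsTw0 N S p n qv h2, downZ_opsTw N S p n qv h2, fun σ => ?_⟩
  refine LinearMap.ext fun x => ?_
  exact upZ_galZ0 _ _ _ h2 (dvd_mul_left _ _) p σ x

end TW

end Fermat.Agent.NEB.Geom.H29

end
end
-- ==== END Fermat.Agent.NEB.Geom.H29_ZCommTw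

-- ==== BEGIN Fermat.Agent.NEB.Geom.H6_WNonEis
section

/-!
# NEB-GEOM leaf W-NONEIS (helper6)

`stmt_W_NONEIS : Stmt_W_NONEIS`: for an absolutely irreducible `ρbar` with Frobenius
characteristic polynomials `X² - θ(T_ℓ) X + ℓ` and any finite set `T` of primes there is a good
prime `ℓ₀ ∉ T` with `θ(T_ℓ₀) ≠ ℓ₀ + 1`.

Proof: otherwise every Frobenius outside a finite set has the eigenvalue `1`; by the Frobenius
density theorem (`Lib.FrobDensity.stmt_FD`, division form) every `ρbar(g)` is a power of such a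
Frobenius, hence has a nonzero fixed vector.  A group of `2 × 2` matrices all of whose elements
have the eigenvalue `1` stabilises a line (`exists_stable_vec`): if some `h ≠ 1` has determinant
`1`, then `n = h - 1` satisfies `tr (n g) = 0` for all `g`, and the image of `n` is stable;
otherwise the group is abelian and the fixed line of any `g₀ ≠ 1` is stable.
(Neither `p ≠ 2` nor the finiteness of `k` is used.)
-/

set_option autoImplicit false
set_option linter.unusedSectionVars false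
set_option linter.unusedVariables false

noncomputable section

open ModularCurve AlgebraicCurve IsLocalRing TensorProduct Polynomial

namespace Fermat.Agent.NEB.Geom.H6

open Matrix

open Matrix

section Mat2

variable {k : Type*} [Field k]

/-- Two vectors of `k²` with vanishing determinant, the first one nonzero: the second is a
multiple of the first. -/
theorem exists_smul_of_det_eq_zero (w u : Fin 2 → k) (hw : w ≠ 0)
    (h : w 0 * u 1 - w 1 * u 0 = 0) : ∃ c : k, u = c • w := by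
  by_cases h0 : w 0 = 0
  · have h1 : w 1 ≠ 0 := by
      intro h1
      apply hw
      funext i
      fin_cases i
      · exact h0
      · exact h1
    refine ⟨u 1 / w 1, ?_⟩
    funext i
    fin_cases i
    · simp only [Fin.zero_eta, Pi.smul_apply, smul_eq_mul, h0, mul_zero]
      rw [h0, zero_mul, zero_sub, neg_eq_zero] at h
      rcases mul_eq_zero.1 h with h | h
      · exact absurd h h1
      · exact h
    · simp only [Fin.mk_one, Pi.smul_apply, smul_eq_mul]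
      field_simp
  · refine ⟨u 0 / w 0, ?_⟩
    funext i
    fin_cases i
    · simp only [Fin.zero_eta, Pi.smul_apply, smul_eq_mul]
      field_simp
    · simp only [Fin.mk_one, Pi.smul_apply, smul_eq_mul]
      field_simp
      linear_combination h

/-- `det (A - 1) = det A - tr A + 1` for `2 × 2` matrices. -/
theorem det_sub_one_fin_two (A : Matrix (Fin 2) (Fin 2) k) :
    (A - 1).det = A.det - A.trace + 1 := by
  rw [Matrix.det_fin_two, Matrix.det_fin_two, Matrix.trace_fin_two]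
  simp only [Matrix.sub_apply, Matrix.one_apply_eq, Matrix.one_apply_ne, ne_eq, Fin.isValue,
    zero_ne_one, one_ne_zero, not_false_eq_true, sub_zero]
  ring

/-- A nonzero `2 × 2` matrix `n` with `tr n = 0 = det n`: there is `w ≠ 0` (a column of `n`)
such that every `X` with `tr (n X) = 0` maps `w` into `k w`. -/
theorem exists_vec_of_trace_mul_eq_zero (n : Matrix (Fin 2) (Fin 2) k) (hn : n ≠ 0)
    (htr : n.trace = 0) (hdet : n.det = 0) :
    ∃ w : Fin 2 → k, w ≠ 0 ∧ ∀ X : Matrix (Fin 2) (Fin 2) k, (n * X).trace = 0 →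
      ∃ c : k, X.mulVec w = c • w := by
  rw [Matrix.trace_fin_two] at htr
  rw [Matrix.det_fin_two] at hdet
  have key : ∀ X : Matrix (Fin 2) (Fin 2) k, (n * X).trace =
      n 0 0 * X 0 0 + n 0 1 * X 1 0 + n 1 0 * X 0 1 + n 1 1 * X 1 1 := by
    intro X
    rw [Matrix.trace_fin_two, Matrix.mul_apply, Matrix.mul_apply, Fin.sum_univ_two,
      Fin.sum_univ_two]
    ring
  by_cases hcol : n 0 0 = 0 ∧ n 1 0 = 0
  · -- first column zero: `w` = second column `(b, 0)`
    obtain ⟨ha, hc⟩ := hcol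
    have hd : n 1 1 = 0 := by rw [ha, zero_add] at htr; exact htr
    have hb : n 0 1 ≠ 0 := by
      intro hb
      apply hn
      ext i j
      fin_cases i <;> fin_cases j
      · exact ha
      · exact hb
      · exact hc
      · exact hd
    refine ⟨![n 0 1, 0], ?_, ?_⟩
    · intro h
      apply hb
      have := congrFun h 0
      simpa using this
    · intro X hX
      rw [key, ha, hc, hd] at hX
      have hz : X 1 0 = 0 := by
        have : n 0 1 * X 1 0 = 0 := by linear_combination hX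
        rcases mul_eq_zero.1 this with h | h
        · exact absurd h hb
        · exact h
      refine ⟨X 0 0, ?_⟩
      funext i
      fin_cases i
      · simp [Matrix.mulVec, dotProduct, Fin.sum_univ_two, mul_comm]
      · simp [Matrix.mulVec, dotProduct, Fin.sum_univ_two, hz]
  · -- `w` = first column `(a, c)`
    have hw : (![n 0 0, n 1 0] : Fin 2 → k) ≠ 0 := by
      intro h
      apply hcol
      constructor
      · have := congrFun h 0
        simpa using this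
      · have := congrFun h 1
        simpa using this
    refine ⟨![n 0 0, n 1 0], hw, ?_⟩
    intro X hX
    rw [key] at hX
    apply exists_smul_of_det_eq_zero _ _ hw
    simp only [Matrix.mulVec, dotProduct, Fin.sum_univ_two, Matrix.cons_val_zero,
      Matrix.cons_val_one]
    have hd : n 1 1 = -n 0 0 := by linear_combination htr
    rw [hd] at hX hdet
    linear_combination (-(n 1 0)) * hX - X 1 0 * hdet

/-- A nonzero singular `2 × 2` matrix has a one-dimensional kernel. -/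
theorem exists_ker_vec (n : Matrix (Fin 2) (Fin 2) k) (hn : n ≠ 0) (hdet : n.det = 0) :
    ∃ u : Fin 2 → k, u ≠ 0 ∧ n.mulVec u = 0 ∧
      ∀ y : Fin 2 → k, n.mulVec y = 0 → ∃ c : k, y = c • u := by
  rw [Matrix.det_fin_two] at hdet
  by_cases hrow : n 0 0 = 0 ∧ n 0 1 = 0
  · obtain ⟨ha, hb⟩ := hrow
    have hrow2 : ¬ (n 1 0 = 0 ∧ n 1 1 = 0) := by
      rintro ⟨hc, hd⟩
      apply hn
      ext i j
      fin_cases i <;> fin_cases j
      · exact ha
      · exact hb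
      · exact hc
      · exact hd
    have hu : (![n 1 1, -n 1 0] : Fin 2 → k) ≠ 0 := by
      intro h
      apply hrow2
      constructor
      · have := congrFun h 1
        simpa using this
      · have := congrFun h 0
        simpa using this
    refine ⟨![n 1 1, -n 1 0], hu, ?_, ?_⟩
    · funext i
      fin_cases i
      · simp [Matrix.mulVec, dotProduct, Fin.sum_univ_two, ha, hb]
      · simp only [Matrix.mulVec, dotProduct, Fin.sum_univ_two, Fin.mk_one, Matrix.cons_val_zero,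
          Matrix.cons_val_one, Pi.zero_apply]
        ring
    · intro y hy
      apply exists_smul_of_det_eq_zero _ _ hu
      have h1 := congrFun hy 1
      simp only [Matrix.mulVec, dotProduct, Fin.sum_univ_two, Pi.zero_apply] at h1
      simp only [Matrix.cons_val_zero, Matrix.cons_val_one]
      linear_combination h1
  · have hu : (![n 0 1, -n 0 0] : Fin 2 → k) ≠ 0 := by
      intro h
      apply hrow
      constructor
      · have := congrFun h 1
        simpa using this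
      · have := congrFun h 0
        simpa using this
    refine ⟨![n 0 1, -n 0 0], hu, ?_, ?_⟩
    · funext i
      fin_cases i
      · simp only [Matrix.mulVec, dotProduct, Fin.sum_univ_two, Fin.zero_eta, Matrix.cons_val_zero,
          Matrix.cons_val_one, Pi.zero_apply]
        ring
      · simp only [Matrix.mulVec, dotProduct, Fin.sum_univ_two, Fin.mk_one, Matrix.cons_val_zero,
          Matrix.cons_val_one, Pi.zero_apply]
        linear_combination -hdet
    · intro y hy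
      apply exists_smul_of_det_eq_zero _ _ hu
      have h0 := congrFun hy 0
      simp only [Matrix.mulVec, dotProduct, Fin.sum_univ_two, Pi.zero_apply] at h0
      simp only [Matrix.cons_val_zero, Matrix.cons_val_one]
      linear_combination h0

end Mat2


section Group2

variable {k : Type*} [Field k]

/-- A group of `2 × 2` matrices all of whose elements have the eigenvalue `1` stabilises a
line. -/
theorem exists_stable_vec {Γ : Type*} [Group Γ] (M : Γ →* Matrix (Fin 2) (Fin 2) k)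
    (h : ∀ g, (M g - 1).det = 0) :
    ∃ w : Fin 2 → k, w ≠ 0 ∧ ∀ g, ∃ c : k, (M g).mulVec w = c • w := by
  have htr : ∀ g, (M g).trace = 1 + (M g).det := by
    intro g
    have := h g
    rw [det_sub_one_fin_two] at this
    linear_combination -this
  have hdd : ∀ g, (M g).det * (M g⁻¹).det = 1 := by
    intro g
    rw [← Matrix.det_mul, ← map_mul, mul_inv_cancel, map_one, Matrix.det_one]
  by_cases hA : ∃ h₀, (M h₀).det = 1 ∧ M h₀ ≠ 1
  · obtain ⟨h₀, hd, hne⟩ := hA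
    have hn : M h₀ - 1 ≠ 0 := sub_ne_zero.2 hne
    have hntr : (M h₀ - 1).trace = 0 := by
      rw [Matrix.trace_sub, htr, hd, Matrix.trace_one]
      simp
      norm_num
    obtain ⟨w, hw, hW⟩ := exists_vec_of_trace_mul_eq_zero (M h₀ - 1) hn hntr (h h₀)
    refine ⟨w, hw, fun g => hW (M g) ?_⟩
    rw [sub_mul, one_mul, Matrix.trace_sub, ← map_mul, htr, htr, map_mul, Matrix.det_mul, hd]
    ring
  · push Not at hA
    by_cases hB : ∀ g, M g = 1
    · refine ⟨![1, 0], ?_, fun g => ⟨1, by rw [hB g, Matrix.one_mulVec, one_smul]⟩⟩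
      intro h0
      have := congrFun h0 0
      simp at this
    · push Not at hB
      obtain ⟨g₀, hg₀⟩ := hB
      obtain ⟨u, hu, hnu, hker⟩ := exists_ker_vec (M g₀ - 1) (sub_ne_zero.2 hg₀) (h g₀)
      refine ⟨u, hu, fun g => ?_⟩
      have hcomm : M g₀ * M g = M g * M g₀ := by
        have h1 : M (g₀ * g * g₀⁻¹ * g⁻¹) = 1 := by
          apply hA
          rw [map_mul, map_mul, map_mul, Matrix.det_mul, Matrix.det_mul, Matrix.det_mul]
          have e1 := hdd g₀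
          have e2 := hdd g
          linear_combination (M g).det * (M g⁻¹).det * e1 + e2
        have h2 : g₀ * g = (g₀ * g * g₀⁻¹ * g⁻¹) * (g * g₀) := by group
        calc M g₀ * M g = M (g₀ * g) := (map_mul M _ _).symm
          _ = M ((g₀ * g * g₀⁻¹ * g⁻¹) * (g * g₀)) := by rw [← h2]
          _ = M g * M g₀ := by rw [map_mul, h1, one_mul, map_mul]
      have hz : (M g₀ - 1).mulVec ((M g).mulVec u) = 0 := by
        rw [Matrix.mulVec_mulVec, sub_mul, one_mul, hcomm]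
        have : M g * M g₀ - M g = M g * (M g₀ - 1) := by rw [mul_sub, mul_one]
        rw [this, ← Matrix.mulVec_mulVec, hnu, Matrix.mulVec_zero]
      obtain ⟨c, hc⟩ := hker _ hz
      exact ⟨c, hc⟩

end Group2

/-- If every `ρbar(g)` has a nonzero fixed vector then `ρbar` has a stable line. -/
theorem exists_stable_line {k : Type} [Field k] (ρbar : ResidualGaloisRep k)
    (hfix : ∀ g : GalQ, ∃ v : ρbar.V, v ≠ 0 ∧ ρbar.ρ g v = v) :
    ∃ v : ρbar.V, v ≠ 0 ∧ ∀ g : GalQ, ∃ c : k, ρbar.ρ g v = c • v := by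
  classical
  let b : Module.Basis (Fin 2) k ρbar.V := Module.finBasisOfFinrankEq k ρbar.V ρbar.finrank_eq
  let M : GalQ →* Matrix (Fin 2) (Fin 2) k :=
    ((LinearMap.toMatrixAlgEquiv b : Module.End k ρbar.V ≃ₐ[k] Matrix (Fin 2) (Fin 2) k) :
      Module.End k ρbar.V →* Matrix (Fin 2) (Fin 2) k).comp ρbar.ρ
  have hM : ∀ (g : GalQ) (x : ρbar.V), (M g).mulVec (b.repr x) = b.repr (ρbar.ρ g x) := by
    intro g x
    exact LinearMap.toMatrix_mulVec_repr b b (ρbar.ρ g) x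
  have hdet : ∀ g, (M g - 1).det = 0 := by
    intro g
    obtain ⟨v, hv, hgv⟩ := hfix g
    apply Matrix.exists_mulVec_eq_zero_iff.1
    refine ⟨b.repr v, ?_, ?_⟩
    · intro h0
      apply hv
      apply b.repr.injective
      rw [map_zero]
      exact DFunLike.coe_injective h0
    · rw [Matrix.sub_mulVec, Matrix.one_mulVec, hM, hgv, sub_self]
  obtain ⟨w, hw, hW⟩ := exists_stable_vec M hdet
  refine ⟨b.equivFun.symm w, ?_, fun g => ?_⟩
  · intro h0
    apply hw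
    have := congrArg b.equivFun h0
    rwa [LinearEquiv.apply_symm_apply, map_zero] at this
  · obtain ⟨c, hc⟩ := hW g
    refine ⟨c, ?_⟩
    apply b.equivFun.injective
    have h1 : ⇑(b.repr (b.equivFun.symm w)) = w := by
      have := b.equivFun.apply_symm_apply w
      exact this
    have h2 := hM g (b.equivFun.symm w)
    rw [h1, hc] at h2
    rw [map_smul, LinearEquiv.apply_symm_apply]
    exact h2.symm

/-- A residual representation with a stable line is not absolutely irreducible. -/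
theorem not_absIrr_of_stable_line {k : Type} [Field k] (ρbar : ResidualGaloisRep k)
    (v : ρbar.V) (hv : v ≠ 0) (hstab : ∀ g : GalQ, ∃ c : k, ρbar.ρ g v = c • v) :
    ¬ ρbar.IsAbsolutelyIrreducible := by
  classical
  intro habs
  set K := AlgebraicClosure k
  let b : Module.Basis (Fin 2) k ρbar.V := Module.finBasisOfFinrankEq k ρbar.V ρbar.finrank_eq
  let bK : Module.Basis (Fin 2) K (K ⊗[k] ρbar.V) := Algebra.TensorProduct.basis K b
  let W : Submodule K (K ⊗[k] ρbar.V) := Submodule.span K {(1 : K) ⊗ₜ[k] v}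
  have hWstab : ∀ σ : GalQ, ∀ x ∈ W, (ρbar.baseChange K).ρ σ x ∈ W := by
    intro σ x hx
    obtain ⟨a, rfl⟩ := Submodule.mem_span_singleton.1 hx
    obtain ⟨c, hc⟩ := hstab σ
    have h1 : (ρbar.baseChange K).ρ σ ((1 : K) ⊗ₜ[k] v) = (algebraMap k K c) • ((1 : K) ⊗ₜ[k] v) := by
      change (ρbar.ρ σ).baseChange K ((1 : K) ⊗ₜ[k] v) = _
      rw [LinearMap.baseChange_tmul, hc, TensorProduct.tmul_smul, algebraMap_smul]
    rw [map_smul, h1]
    exact W.smul_mem _ (W.smul_mem _ (Submodule.mem_span_singleton_self _))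
  have hne : (1 : K) ⊗ₜ[k] v ≠ 0 := by
    intro h0
    apply hv
    apply b.repr.injective
    rw [map_zero]
    have h1 := congrArg bK.repr h0
    rw [map_zero, Algebra.TensorProduct.basis_repr_tmul, one_smul] at h1
    ext i
    have h2 := DFunLike.congr_fun h1 i
    rw [Finsupp.mapRange_apply, Finsupp.zero_apply] at h2
    rw [Finsupp.zero_apply]
    exact (map_eq_zero_iff _ (algebraMap k K).injective).1 h2
  rcases habs W hWstab with hbot | htop
  · apply hne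
    have : (1 : K) ⊗ₜ[k] v ∈ W := Submodule.mem_span_singleton_self _
    rw [hbot] at this
    exact (Submodule.mem_bot K).1 this
  · have h1 : Module.finrank K W ≤ 1 := by
      have := finrank_span_le_card (R := K) ({(1 : K) ⊗ₜ[k] v} : Set (K ⊗[k] ρbar.V))
      simpa using this
    have h2 : Module.finrank K W = 2 := by
      rw [htop, finrank_top, Module.finrank_baseChange, ρbar.finrank_eq]
    omega

/-- **Leaf W-NONEIS.** -/
theorem stmt_W_NONEIS : Stmt_W_NONEIS := by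
  classical
  intro k _ _ p _ _ _ ρbar habs N _ S _ θ hFrob T
  by_contra hcon
  have hall : ∀ (ℓ₀ : ℕ) (hℓ : ℓ₀.Prime) (hℓN : ¬ ℓ₀ ∣ N) (hℓS : ℓ₀ ∉ (↑S : Set ℕ)), ℓ₀ ∉ T →
      θ (CuspForm.heckeAlgebra.T hℓ hℓN hℓS) = (ℓ₀ : k) + 1 := by
    intro ℓ₀ hℓ hℓN hℓS hT
    by_contra hne
    exact hcon ⟨ℓ₀, hℓ, hℓN, hℓS, hT, hne⟩
  obtain ⟨L, hLfin, hL⟩ := ρbar.factorsThroughFiniteLevel
  have hfix : ∀ g : GalQ, ∃ v : ρbar.V, v ≠ 0 ∧ ρbar.ρ g v = v := by
    intro g
    obtain ⟨ℓ, A, σ, j, hℓ, hℓS', hA, hσ, hag⟩ :=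
      Fermat.Agent.Lib.FrobDensity.stmt_FD (S ∪ T ∪ N.primeFactors) L hLfin g
    have hℓS : ℓ ∉ (↑S : Set ℕ) := fun hmem =>
      hℓS' (Finset.mem_union_left _ (Finset.mem_union_left _ (Finset.mem_coe.1 hmem)))
    have hℓT : ℓ ∉ T := fun hmem =>
      hℓS' (Finset.mem_union_left _ (Finset.mem_union_right _ hmem))
    have hℓN : ¬ ℓ ∣ N := fun hd =>
      hℓS' (Finset.mem_union_right _ (Nat.mem_primeFactors.2 ⟨hℓ, hd, NeZero.ne N⟩))
    have hcp := hFrob ℓ hℓ hℓN hℓS A hA σ hσ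
    rw [hall ℓ hℓ hℓN hℓS hℓT] at hcp
    have hroot : (LinearMap.charpoly (ρbar.ρ σ)).IsRoot 1 := by
      rw [hcp, Polynomial.IsRoot.def]
      simp
    obtain ⟨v, hv⟩ :=
      ((Module.End.hasEigenvalue_iff_isRoot_charpoly (ρbar.ρ σ) 1).2 hroot).exists_hasEigenvector
    have hσv : ρbar.ρ σ v = v := by
      have := hv.apply_eq_smul
      rwa [one_smul] at this
    have hpow : ∀ m : ℕ, ((ρbar.ρ σ) ^ m) v = v := by
      intro m
      induction m with
      | zero => simp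
      | succ m ih => rw [pow_succ, Module.End.mul_apply, hσv, ih]
    have h1 : ρbar.ρ ((σ ^ j)⁻¹ * g) = 1 := by
      apply hL
      intro x hx
      rw [AlgEquiv.mul_apply, ← hag x hx]
      exact (σ ^ j).symm_apply_apply x
    have hg : ρbar.ρ g = ρbar.ρ σ ^ j := by
      have h2 : g = σ ^ j * ((σ ^ j)⁻¹ * g) := by group
      calc ρbar.ρ g = ρbar.ρ (σ ^ j * ((σ ^ j)⁻¹ * g)) := by rw [← h2]
        _ = ρbar.ρ σ ^ j := by rw [map_mul, h1, mul_one, map_pow]
    exact ⟨v, hv.2, by rw [hg, hpow]⟩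
  obtain ⟨v, hv, hstab⟩ := exists_stable_line ρbar hfix
  exact not_absIrr_of_stable_line ρbar v hv hstab habs

end Fermat.Agent.NEB.Geom.H6

end
end
-- ==== END Fermat.Agent.NEB.Geom.H6_WNonEis

-- ==== BEGIN Fermat.Agent.S59.Asm.H77_MainAux
section

/-!
# S59, package ASM (helper77): the Taylor–Wiles assembly, abstract steps

The steps of the assembly `Stmt_ASM` in abstract form (the Hecke rings are arbitrary local
`𝒪`-algebras):

* `commute_of_gen`, `mem_of_gen`, `intertwine_of_gen` : extension from generators (step 2);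
* `ch_of_es` : Cayley–Hamilton from the Eichler–Shimura relation (step 3);
* `exists_delta` : the element `δ_j` (step 4);
* `compat_of_frob` : `res ∘ φQ = φ ∘ τ` (step 5).
-/

set_option autoImplicit false
set_option linter.unusedSectionVars false
set_option linter.unusedVariables false

open Polynomial CuspForm IsLocalRing

namespace Fermat.Agent.S59.Asm.H77

open Fermat.Agent.S59 Fermat.Agent.S59.TWGal Fermat.Agent.S59.Asm

/-! ## Step 2: extension from generators -/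

section Ext

variable {𝒪 TQ : Type} [CommRing 𝒪] [CommRing TQ] [Algebra 𝒪 TQ]
  {V : Type} [AddCommGroup V] [Module 𝒪 V]
  {ι : Type} {πQ : ι → TQ} (hadj : Algebra.adjoin 𝒪 (Set.range πQ) = ⊤)
  (ηW : TQ →ₐ[𝒪] Module.End 𝒪 V)

include hadj

theorem commute_of_gen (A : Module.End 𝒪 V) (h : ∀ t, Commute A (ηW (πQ t))) (x : TQ) :
    Commute A (ηW x) := by
  refine adjoin_top_induction (𝒪 := 𝒪) (P := fun x => Commute A (ηW x)) hadj ?_ ?_ ?_ ?_ x
  · rintro _ ⟨t, rfl⟩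
    exact h t
  · intro a
    rw [AlgHom.commutes, Algebra.algebraMap_eq_smul_one]
    exact (Commute.one_right _).smul_right a
  · intro x y hx hy
    rw [map_add]
    exact hx.add_right hy
  · intro x y hx hy
    rw [map_mul]
    exact hx.mul_right hy

theorem mem_of_gen (U : Submodule 𝒪 V) (h : ∀ t, ∀ v ∈ U, ηW (πQ t) v ∈ U) (x : TQ) :
    ∀ v ∈ U, ηW x v ∈ U := by
  refine adjoin_top_induction (𝒪 := 𝒪) (P := fun x => ∀ v ∈ U, ηW x v ∈ U) hadj ?_ ?_ ?_ ?_ x
  · rintro _ ⟨t, rfl⟩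
    exact h t
  · intro a v hv
    rw [AlgHom.commutes, Module.algebraMap_end_apply]
    exact U.smul_mem a hv
  · intro x y hx hy v hv
    rw [map_add, LinearMap.add_apply]
    exact U.add_mem (hx v hv) (hy v hv)
  · intro x y hx hy v hv
    rw [map_mul, Module.End.mul_apply]
    exact hx _ (hy v hv)

theorem intertwine_of_gen {T M : Type} [CommRing T] [Algebra 𝒪 T] [AddCommGroup M]
    [Module 𝒪 M] (ηM : T →ₐ[𝒪] Module.End 𝒪 M) (res : TQ →ₐ[𝒪] T) (π : V →ₗ[𝒪] M)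
    (h : ∀ t v, π (ηW (πQ t) v) = ηM (res (πQ t)) (π v)) (x : TQ) :
    ∀ v, π (ηW x v) = ηM (res x) (π v) := by
  refine adjoin_top_induction (𝒪 := 𝒪) (P := fun x => ∀ v, π (ηW x v) = ηM (res x) (π v))
    hadj ?_ ?_ ?_ ?_ x
  · rintro _ ⟨t, rfl⟩
    exact h t
  · intro a v
    rw [AlgHom.commutes, AlgHom.commutes, AlgHom.commutes, Module.algebraMap_end_apply,
      Module.algebraMap_end_apply, map_smul]
  · intro x y hx hy v
    rw [map_add, LinearMap.add_apply, map_add, hx, hy, map_add, map_add, LinearMap.add_apply]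
  · intro x y hx hy v
    rw [map_mul, Module.End.mul_apply, hx, hy, map_mul, map_mul, Module.End.mul_apply]

end Ext

/-! ## Step 3: Cayley–Hamilton from Eichler–Shimura -/

theorem ch_of_es {𝒪 : Type} [CommRing 𝒪] [IsDomain 𝒪] [IsDiscreteValuationRing 𝒪]
    [IsAdicComplete (maximalIdeal 𝒪) 𝒪]
    {TQ : Type} [CommRing TQ] [IsLocalRing TQ] [Algebra 𝒪 TQ] [Module.Finite 𝒪 TQ]
    [IsLocalHom (algebraMap 𝒪 TQ)] (ρ : GaloisRepAdic TQ)
    {V : Type} [AddCommGroup V] [Module 𝒪 V] [Module.Finite 𝒪 V] [Module.Free 𝒪 V]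
    (ηW : TQ →ₐ[𝒪] Module.End 𝒪 V) (gal : GalQ →* Module.End 𝒪 V)
    (hcont : GaloisActionIsAdicContinuous 𝒪 gal)
    (hcomm : ∀ (g : GalQ) (t : TQ), Commute (gal g) (ηW t)) (S' : Finset ℕ)
    (h : ∀ ℓ : ℕ, ℓ.Prime → ℓ ∉ S' → ∀ A : ValuationSubring (AlgebraicClosure ℚ),
      A.LiesOverPrime ℓ → ∀ σ : GalQ, A.IsFrobeniusAt σ ℓ → ∃ t : TQ,
        LinearMap.charpoly (ρ.ρ σ) = X ^ 2 - C t * X + C ((ℓ : TQ)) ∧
        gal σ * gal σ - ηW t * gal σ + (ℓ : 𝒪) • (1 : Module.End 𝒪 V) = 0) :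
    ∀ g : GalQ, gal g * gal g - ηW (ρ.trace g) * gal g + ηW (LinearMap.det (ρ.ρ g)) = 0 := by
  refine H57.stmt_CHV 𝒪 TQ ρ V ηW gal hcont hcomm S' ?_
  intro ℓ hℓ hℓS A hA σ hσ
  obtain ⟨t, h1, h2⟩ := h ℓ hℓ hℓS A hA σ hσ
  obtain ⟨htr, hdet⟩ := Fermat.Agent.S58.H99.trace_det_of_charpoly_two ρ.finrank_eq _ h1
  have htr' : ρ.trace σ = t := htr
  have hcast : ηW ((ℓ : TQ)) = (ℓ : 𝒪) • (1 : Module.End 𝒪 V) := by
    rw [map_natCast, Nat.cast_smul_eq_nsmul, nsmul_eq_mul, mul_one]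
  rw [htr', hdet, hcast]
  exact h2

end Fermat.Agent.S59.Asm.H77

end
-- ==== END Fermat.Agent.S59.Asm.H77_MainAux

-- ==== BEGIN Fermat.Agent.S59.Asm.H77_MainCompat
section

/-!
# S59, package ASM (helper77): the Taylor–Wiles assembly, step 5 in abstract form

`compat_of_frob`: `res ∘ φQ = φ ∘ τ`, from `H57.stmt_COMPAT`.
-/

set_option autoImplicit false
set_option linter.unusedSectionVars false
set_option linter.unusedVariables false

open Polynomial CuspForm IsLocalRing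

namespace Fermat.Agent.S59.Asm.H77

open Fermat.Agent.S59 Fermat.Agent.S59.TWGal Fermat.Agent.S59.Asm

/-- a composition of local algebra homomorphisms is local -/
theorem isLocalHom_comp_algHom {𝒪 A B C : Type} [CommRing 𝒪] [CommRing A] [CommRing B]
    [CommRing C] [Algebra 𝒪 A] [Algebra 𝒪 B] [Algebra 𝒪 C] (g : B →ₐ[𝒪] C) (f : A →ₐ[𝒪] B)
    (hg : IsLocalHom (g : B →+* C)) (hf : IsLocalHom (f : A →+* B)) :
    IsLocalHom ((g.comp f : A →ₐ[𝒪] C) : A →+* C) :=
  ⟨fun x hx => hf.map_nonunit x (hg.map_nonunit ((f : A →+* B) x) hx)⟩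

/-- **Step 5 of ASM**, abstract form. -/
theorem compat_of_frob {𝒪 : Type} [CommRing 𝒪] [IsDomain 𝒪] [IsDiscreteValuationRing 𝒪]
    [IsAdicComplete (maximalIdeal 𝒪) 𝒪]
    (ρbar : ResidualGaloisRep (ResidueField 𝒪))
    (𝒟 𝒟Q : ∀ ⦃A : Type⦄ [CommRing A] [IsLocalRing A] [Algebra 𝒪 A], GaloisRepAdic A → Prop)
    (D : GaloisRep.DeformationRingData 𝒪 ρbar 𝒟)
    (DQ : GaloisRep.DeformationRingData 𝒪 ρbar 𝒟Q)
    {T : Type} [CommRing T] [IsLocalRing T] [IsNoetherianRing T]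
    [IsAdicComplete (maximalIdeal T) T] [Algebra 𝒪 T] [IsLocalHom (algebraMap 𝒪 T)]
    {TQ : Type} [CommRing TQ] [IsLocalRing TQ] [Algebra 𝒪 TQ] [Module.Finite 𝒪 TQ]
    [IsLocalHom (algebraMap 𝒪 TQ)]
    (hsurj : Function.Surjective (residue T ∘ algebraMap 𝒪 T))
    (ρT : GaloisRepAdic T) (hρT : 𝒟Q ρT)
    (hres : ρT.residual.IsEquiv (ρbar.baseChangeAlong (ResidueField.map (algebraMap 𝒪 T))))
    (ρTQ : GaloisRepAdic TQ)
    (τ : DQ.R →ₐ[𝒪] D.R) (hτl : IsLocalHom (τ : DQ.R →+* D.R))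
    (hτe : (DQ.ρ.baseChangeAlong (τ : DQ.R →+* D.R) hτl).IsEquiv D.ρ)
    (φ : D.R →ₐ[𝒪] T) (hφ : IsLocalHom (φ : D.R →+* T))
    (hφe : (D.ρ.baseChangeAlong (φ : D.R →+* T) hφ).IsEquiv ρT)
    (φQ : DQ.R →ₐ[𝒪] TQ) (hφQ : IsLocalHom (φQ : DQ.R →+* TQ))
    (hφQe : (DQ.ρ.baseChangeAlong (φQ : DQ.R →+* TQ) hφQ).IsEquiv ρTQ)
    (res : TQ →ₐ[𝒪] T) (S' : Finset ℕ)
    (hfrob : ∀ ℓ : ℕ, ℓ.Prime → ℓ ∉ S' → ∀ B : ValuationSubring (AlgebraicClosure ℚ),
      B.LiesOverPrime ℓ → ∀ σ : GalQ, B.IsFrobeniusAt σ ℓ →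
        (LinearMap.charpoly (ρTQ.ρ σ)).map (res : TQ →+* T) = LinearMap.charpoly (ρT.ρ σ)) :
    res.comp φQ = φ.comp τ := by
  have hresl : IsLocalHom (res : TQ →+* T) := isLocalHom_of_finite (𝒪 := 𝒪) res
  have h₁ : IsLocalHom ((res.comp φQ : DQ.R →ₐ[𝒪] T) : DQ.R →+* T) :=
    isLocalHom_comp_algHom res φQ hresl hφQ
  have h₂ : IsLocalHom ((φ.comp τ : DQ.R →ₐ[𝒪] T) : DQ.R →+* T) :=
    isLocalHom_comp_algHom φ τ hφ hτl
  have hD : DQ.ρ.residual.IsAbsolutelyIrreducible :=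
    Fermat.Agent.S59.Datum.H57.absIrr_of_isEquiv DQ.residual_isEquiv
      (Fermat.Agent.S59.Datum.H57.absIrr_baseChangeAlong _ ρbar DQ.absIrr)
  have hirr₂ : (DQ.ρ.baseChangeAlong ((φ.comp τ : DQ.R →ₐ[𝒪] T) : DQ.R →+* T)
      h₂).residual.IsAbsolutelyIrreducible :=
    Fermat.Agent.R.H86.residual_absIrr_baseChangeAlong _ h₂ DQ.ρ hD
  have he₂ : (DQ.ρ.baseChangeAlong ((φ.comp τ : DQ.R →ₐ[𝒪] T) : DQ.R →+* T) h₂).IsEquiv ρT := by
    refine H57.isEquiv_of_frobenius _ ρT hirr₂ ∅ fun ℓ _ _ B _ σ _ => ?_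
    rw [charpoly_bcAlong, ← charpoly_of_isEquiv hφe σ, charpoly_bcAlong,
      ← charpoly_of_isEquiv hτe σ, charpoly_bcAlong, Polynomial.map_map]
    rfl
  refine H57.stmt_COMPAT 𝒪 ρbar 𝒟Q DQ T hsurj ρT hρT hres (res.comp φQ) (φ.comp τ) h₁ h₂ S' ?_ he₂
  intro ℓ hℓ hℓS B hB σ hσ
  rw [charpoly_bcAlong, ← hfrob ℓ hℓ hℓS B hB σ hσ, ← charpoly_of_isEquiv hφQe σ,
    charpoly_bcAlong, Polynomial.map_map]
  rfl

end Fermat.Agent.S59.Asm.H77

end
-- ==== END Fermat.Agent.S59.Asm.H77_MainCompat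

-- ==== BEGIN Fermat.Agent.S59.Asm.H77_MainDelta
section

/-!
# S59, package ASM (helper77): the Taylor–Wiles assembly, step 4 in abstract form

`exists_delta`: the element `δ := χ₀(σ)` of the deformation ring `RQ` at a Taylor–Wiles prime
`q`: `δ ≡ 1`, `τ δ = 1` for every local homomorphism `τ` such that the base change along `τ` is
unramified at `q`, and `ηW (φQ δ) = d` (local–global compatibility, `stmt_BRIDGE`).
-/

set_option autoImplicit false
set_option linter.unusedSectionVars false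
set_option linter.unusedVariables false

open Polynomial CuspForm IsLocalRing

namespace Fermat.Agent.S59.Asm.H77

open Fermat.Agent.S59 Fermat.Agent.S59.TWGal Fermat.Agent.S59.Asm

/-- the residue of the image of `a ∈ 𝒪` in a local `𝒪`-algebra -/
theorem residue_algebraMap_ne {𝒪 : Type} [CommRing 𝒪] [IsLocalRing 𝒪]
    {A : Type} [CommRing A] [IsLocalRing A] [Algebra 𝒪 A] [IsLocalHom (algebraMap 𝒪 A)]
    {a a' : 𝒪} (h : residue 𝒪 a ≠ residue 𝒪 a') :
    residue A (algebraMap 𝒪 A a) ≠ residue A (algebraMap 𝒪 A a') := by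
  intro h1
  have h2 : ResidueField.map (algebraMap 𝒪 A) (residue 𝒪 a) =
      ResidueField.map (algebraMap 𝒪 A) (residue 𝒪 a') := by
    rw [ResidueField.map_residue, ResidueField.map_residue]
    exact h1
  exact h ((ResidueField.map (algebraMap 𝒪 A)).injective h2)

/-- a local homomorphism maps the maximal ideal into the maximal ideal -/
theorem map_mem_maximalIdeal {A B : Type} [CommRing A] [IsLocalRing A] [CommRing B]
    [IsLocalRing B] (f : A →+* B) (hf : IsLocalHom f) {x : A} (hx : x ∈ maximalIdeal A) :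
    f x ∈ maximalIdeal B :=
  map_nonunit f x hx

/-- **Step 4 of ASM**, abstract form. -/
theorem exists_delta {𝒪 : Type} [CommRing 𝒪] [IsDomain 𝒪] [IsDiscreteValuationRing 𝒪]
    [IsAdicComplete (maximalIdeal 𝒪) 𝒪]
    {p : ℕ} (hp : p.Prime) (hp2 : p ≠ 2) (hp𝒪 : (p : 𝒪) ∈ maximalIdeal 𝒪)
    {RQ : Type} [CommRing RQ] [IsLocalRing RQ] [IsNoetherianRing RQ]
    [IsAdicComplete (maximalIdeal RQ) RQ] [Algebra 𝒪 RQ] [IsLocalHom (algebraMap 𝒪 RQ)]
    {R : Type} [CommRing R] [IsLocalRing R] [Algebra 𝒪 R]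
    {TQ : Type} [CommRing TQ] [IsLocalRing TQ] [Algebra 𝒪 TQ] [Module.Finite 𝒪 TQ]
    [IsLocalHom (algebraMap 𝒪 TQ)]
    (hsurj : Function.Surjective (residue TQ ∘ algebraMap 𝒪 TQ))
    (ρQ : GaloisRepAdic RQ) (ρR : GaloisRepAdic R) (ρT : GaloisRepAdic TQ)
    (hirr : ρT.residual.IsAbsolutelyIrreducible)
    (τ : RQ →ₐ[𝒪] R) (hτl : IsLocalHom (τ : RQ →+* R))
    (hτe : (ρQ.baseChangeAlong (τ : RQ →+* R) hτl).IsEquiv ρR)
    (φQ : RQ →ₐ[𝒪] TQ) (hφQ : IsLocalHom (φQ : RQ →+* TQ))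
    (hφQe : (ρQ.baseChangeAlong (φQ : RQ →+* TQ) hφQ).IsEquiv ρT)
    (q n : ℕ) (hq : q.Prime) (hqp : p ^ (n + 1) ∣ q - 1)
    (P : ValuationSubring Qb) (hP : P.LiesOverPrime q)
    (hurR : ∀ σ ∈ P.inertiaSubgroupIn ℚ, ρR.ρ σ = 1)
    (hur : ∀ σ ∈ P.inertiaSubgroupIn ℚ, ρQ.residual.ρ σ = 1)
    (frob : GQ) (hfrob : P.IsFrobeniusAt frob q)
    (a a' : 𝒪) (haa' : residue 𝒪 a ≠ residue 𝒪 a')
    (hchar : LinearMap.charpoly (ρQ.residual.ρ frob) =
      (X - C (residue RQ (algebraMap 𝒪 RQ a))) * (X - C (residue RQ (algebraMap 𝒪 RQ a'))))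
    (σ : GQ) (hσ : σ ∈ P.inertiaSubgroupIn ℚ)
    {V : Type} [AddCommGroup V] [Module 𝒪 V] [Module.Finite 𝒪 V] [Module.Free 𝒪 V]
    (ηW : TQ →ₐ[𝒪] Module.End 𝒪 V) (gal : GalQ →* Module.End 𝒪 V)
    (hgη : ∀ (g : GalQ) (t : TQ), Commute (gal g) (ηW t))
    (hCH : ∀ g : GalQ,
      gal g * gal g - ηW (ρT.trace g) * gal g + ηW (LinearMap.det (ρT.ρ g)) = 0)
    (d : Module.End 𝒪 V) (hdpow : d ^ (p ^ n) = 1)
    (hdη : ∀ t : TQ, Commute d (ηW t)) (hdgal : ∀ g : GalQ, Commute d (gal g))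
    (Vα Vβ : Submodule 𝒪 V) (hcompl : IsCompl Vα Vβ)
    (hVαη : ∀ (t : TQ), ∀ v ∈ Vα, ηW t v ∈ Vα) (hVαd : ∀ v ∈ Vα, d v ∈ Vα)
    (hVαφ : ∀ v ∈ Vα, gal frob v ∈ Vα) (hVβφ : ∀ v ∈ Vβ, gal frob v ∈ Vβ)
    (hαnil : ∃ m : ℕ, ∀ v ∈ Vα, ((gal frob - a • (1 : Module.End 𝒪 V)) ^ m) v ∈
      (maximalIdeal 𝒪 • ⊤ : Submodule 𝒪 V))
    (hβnil : ∃ m : ℕ, ∀ v ∈ Vβ, ((gal frob - a' • (1 : Module.End 𝒪 V)) ^ m) v ∈
      (maximalIdeal 𝒪 • ⊤ : Submodule 𝒪 V))
    (hlg : ∀ v ∈ Vα, gal σ v = d v) :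
    ∃ δ : RQ, δ - 1 ∈ maximalIdeal RQ ∧ τ δ = 1 ∧ ηW (φQ δ) = d := by
  have hpA : (p : RQ) ∈ maximalIdeal RQ := natCast_mem_of_algebra (𝒪 := 𝒪) hp𝒪
  have hqA : (q : RQ) - 1 ∈ maximalIdeal RQ := natCast_sub_one_mem hpA hq.one_le hqp
  obtain ⟨b, σ₀, hσ₀, hD, hb0, hb1, hgen, -, hm, -, hG3⟩ :=
    twgal_main RQ p hp hpA ρQ q hq hqA P hP hur frob hfrob _ _ (residue_algebraMap_ne haa') hchar
  refine ⟨chi ρQ b 0 σ, hm σ hσ 0, ?_, ?_⟩
  · -- `τ δ = 1`
    obtain ⟨k, hk⟩ := hgen σ hσ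
    have h1 := (hG3 R (τ : RQ →+* R) hτl).1
      (fun σ' hσ' => eq_one_of_isEquiv hτe σ' (hurR σ' hσ'))
    have h2 : τ (chi ρQ b 0 σ₀) = 1 := h1.1
    rw [hk 0, map_pow, h2, one_pow]
  · -- `ηW (φQ δ) = d`
    obtain ⟨b', hb'⟩ := stmt_TRANSPORT RQ TQ (φQ : RQ →+* TQ) hφQ ρQ ρT hφQe b
    have hchi : ∀ (i : Fin 2) (g : GalQ), chi ρT b' i g = φQ (chi ρQ b i g) :=
      fun i g => chi_transport (φQ : RQ →+* TQ) ρQ ρT b b' hb' i g
    have hD' : DiagOn ρT P b' := diagOn_transport (φQ : RQ →+* TQ) ρQ ρT b b' hb' P hD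
    have hmem : ∀ (x : RQ) (c : 𝒪), residue RQ x = residue RQ (algebraMap 𝒪 RQ c) →
        φQ x - algebraMap 𝒪 TQ c ∈ maximalIdeal TQ := by
      intro x c hx
      have h1 : x - algebraMap 𝒪 RQ c ∈ maximalIdeal RQ := by
        rw [← residue_eq_zero_iff, map_sub, hx, sub_self]
      have h2 := map_mem_maximalIdeal (φQ : RQ →+* TQ) hφQ h1
      have h3 : (φQ : RQ →+* TQ) (x - algebraMap 𝒪 RQ c) = φQ x - algebraMap 𝒪 TQ c := by
        rw [map_sub]
        congr 1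
        exact φQ.commutes c
      rwa [h3] at h2
    have hχ0 : chi ρT b' 0 frob - algebraMap 𝒪 TQ a ∈ maximalIdeal TQ := by
      rw [hchi]
      exact hmem _ _ hb0
    have hχ1 : chi ρT b' 1 frob - algebraMap 𝒪 TQ a' ∈ maximalIdeal TQ := by
      rw [hchi]
      exact hmem _ _ hb1
    have hχσ : ∀ i : Fin 2, chi ρT b' i σ - 1 ∈ maximalIdeal TQ := by
      intro i
      rw [hchi]
      have h2 := map_mem_maximalIdeal (φQ : RQ →+* TQ) hφQ (hm σ hσ i)
      have h3 : (φQ : RQ →+* TQ) (chi ρQ b i σ - 1) = φQ (chi ρQ b i σ) - 1 := by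
        rw [map_sub, map_one]
        rfl
      rwa [h3] at h2
    have key := stmt_BRIDGE 𝒪 TQ hsurj (two_notMem_maximalIdeal hp hp2 hp𝒪) ρT hirr V ηW gal hgη
      hCH P b' hD' frob σ hfrob.mem_decompositionSubgroup (H4.mem_decomp_of_mem_inertia hσ)
      a a' haa' hχ0 hχ1 hχσ d (unip_of_pow hp hp2 hp𝒪 d hdpow) hdη hdgal Vα Vβ hcompl hVαη hVαd
      hVαφ hVβφ hαnil hβnil hlg
    refine LinearMap.ext fun v => ?_
    rw [← hchi]
    exact key v

/-- the residual representation of a deformation is unramified where `ρbar` is -/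
theorem resid_eq_one_of_isEquiv {𝒪 : Type} [CommRing 𝒪] [IsLocalRing 𝒪]
    {A : Type} [CommRing A] [IsLocalRing A] [Algebra 𝒪 A] [IsLocalHom (algebraMap 𝒪 A)]
    (ρbar : ResidualGaloisRep (ResidueField 𝒪)) (ρ : GaloisRepAdic A)
    (h : ρ.residual.IsEquiv (ρbar.baseChangeAlong (ResidueField.map (algebraMap 𝒪 A))))
    (σ : GalQ) (hσ : ρbar.ρ σ = 1) : ρ.residual.ρ σ = 1 :=
  eq_one_of_isEquiv_resid h σ (bcAlong_resid_eq_one _ ρbar σ hσ)

/-- the residual characteristic polynomial of a deformation -/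
theorem resid_charpoly_of_isEquiv {𝒪 : Type} [CommRing 𝒪] [IsLocalRing 𝒪]
    {A : Type} [CommRing A] [IsLocalRing A] [Algebra 𝒪 A] [IsLocalHom (algebraMap 𝒪 A)]
    (ρbar : ResidualGaloisRep (ResidueField 𝒪)) (ρ : GaloisRepAdic A)
    (h : ρ.residual.IsEquiv (ρbar.baseChangeAlong (ResidueField.map (algebraMap 𝒪 A))))
    (σ : GalQ) (a a' : 𝒪)
    (hσ : LinearMap.charpoly (ρbar.ρ σ) = (X - C (residue 𝒪 a)) * (X - C (residue 𝒪 a'))) :
    LinearMap.charpoly (ρ.residual.ρ σ) =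
      (X - C (residue A (algebraMap 𝒪 A a))) * (X - C (residue A (algebraMap 𝒪 A a'))) := by
  rw [charpoly_of_isEquiv_resid h σ, charpoly_bcAlong_resid, hσ, Polynomial.map_mul,
    Polynomial.map_sub, Polynomial.map_sub, Polynomial.map_X, Polynomial.map_C,
    Polynomial.map_C, ResidueField.map_residue, ResidueField.map_residue]

/-- image of a Frobenius characteristic polynomial -/
theorem map_charpoly_frob {A B : Type} [CommRing A] [CommRing B] (f : A →+* B) (t : A) (t' : B)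
    (ℓ : ℕ) (h : f t = t') (P : A[X]) (hP : P = X ^ 2 - C t * X + C ((ℓ : A))) :
    P.map f = X ^ 2 - C t' * X + C ((ℓ : B)) := by
  rw [hP, Polynomial.map_add, Polynomial.map_sub, Polynomial.map_mul, Polynomial.map_pow,
    Polynomial.map_X, Polynomial.map_C, Polynomial.map_C, h, map_natCast]

end Fermat.Agent.S59.Asm.H77

end
-- ==== END Fermat.Agent.S59.Asm.H77_MainDelta
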