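-- GENERATED (merged mirror, NOTES/tools/trim/merge3_helper67.py): 7 modules of the originals, bodies verbatim.
import Fermat.Agent.Zm.S43_L12_000
import Fermat.Agent.Zm.S43_L05_002
import Fermat.Agent.Zm.S43_L04_000
import Fermat.Agent.Zm.S43_L08_000
import Fermat.Agent.Zm.S43_L06_000
import Fermat.Agent.Zm.S35_L01_005
import Fermat.Agent.Zm.S58_L01_000
import Fermat.Agent.Zm.S43_L03_003
import Fermat.Agent.Zm.S43_L10_001
import Fermat.Agent.Zm.S35_L04_002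
import Fermat.Agent.Zm.S43_L01_001
import Fermat.Agent.Zm.S43_L09_000
import Fermat.Agent.Zm.S56_L07_005
import Fermat.Agent.Zm.S43_L03_004
import Fermat.Agent.Zm.S43_L07_000
import Fermat.Agent.Zm.S43_L10_000
import Fermat.Agent.Zm.S43_L08_001
import Fermat.Agent.Zm.S43_L08_002
import Fermat.Agent.Zm.S43_L12_001
import Fermat.Agent.Zm.S35_L07_001
import Fermat.Agent.Zm.S35_L06_001
import Fermat.Agent.Zm.S35_L06_003
import Fermat.Agent.Zm.S43_L11_001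
import Fermat.Agent.Zm.S43_L09_001
import Fermat.Agent.Zm.S43_L02_003

-- ==== BEGIN Fermat.Agent.L.Pivot.Geom.Defs
section

/-!
# PIVOT, package PV-GEOM (item 66/72; owner-planner helper59): the divisible level

Plan: `NOTES/plan/PV_GEOM.md`.  Target of the package: `L.Pivot.Stmt_PVGeom2` (`L/Pivot/Asm.lean`).

* `PVDiv`      : the MIRROR of `PVGeom2` at the divisible level (as `S59.Lim.TWDiv` is the mirror of
  `S59.Asm.TWGeom`).  It CONTAINS the Taylor–Wiles datum `G1D : TWDiv` of unipotent type (level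
  `Γ₀` at the pivot primes), the divisible module `WD` of level `Γ_H'` (diamond operators `c j` at
  the pivot primes, `d i` at the Taylor–Wiles primes), the relative norm `κ : WD.W → G1D.WD.W` and
  the relative pull-back `κup`.
* `Stmt_PVDIV` : the divisible data exist (geometry: NEB-GEOM for `Δ = Δ_Σ × Δ_Q`).
* Layer A' (`H59_LayerA.lean`, pure algebra): `Stmt_PVDIV → Stmt_PVGeom2`.

Definitions only; no `sorry`.
-/

set_option autoImplicit false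

noncomputable section

namespace Fermat.Agent.L.Pivot.Geom

open Polynomial IsLocalRing CuspForm Fermat.Agent.S56 Fermat.Agent.S59 Fermat.Agent.S59.Asm
  Fermat.Agent.S59.Lim Fermat.Agent.L.Pivot

set_option maxHeartbeats 2000000 in
/-- **The divisible data of PIVOT** at the pivot primes `qP` (`p ^ eP j ∥ qP j - 1`) and a
Taylor–Wiles family `qv` of level `n` (mirror of `PVGeom2`).  `gal` is the TWISTED Galois
action. -/
structure PVDiv (𝒪 : Type) [CommRing 𝒪] [IsLocalRing 𝒪] (ϖ : 𝒪) (p : ℕ)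
    (ρbar : ResidualGaloisRep (ResidueField 𝒪))
    (N1 : ℕ) [NeZero N1] (S : Finset ℕ)
    (θ : CuspForm.heckeAlgebra N1 2 (↑S : Set ℕ) →+* ResidueField 𝒪)
    (MD : HDiv 𝒪 ϖ N1 (↑S : Set ℕ) θ) {k : ℕ} (qP : Fin k → ℕ) (eP : Fin k → ℕ)
    {r : ℕ} (n : ℕ) (qv : Fin r → ℕ)
    [NeZero (twLevel N1 qv)] [NeZero (pvLevel N1 qP qv)] : Type 1 where
  /-- the Taylor–Wiles datum of unipotent type, divisible level -/
  G1D : TWDiv 𝒪 ϖ p ρbar N1 S θ MD n qv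
  /-- restriction of Hecke operators to the level `N1 ∏ qv_i²` (PVG-REST: `H4.restPV`) -/
  rest : CuspForm.heckeAlgebra (pvLevel N1 qP qv) 2 (↑(twSet S qv) : Set ℕ) →+*
    CuspForm.heckeAlgebra (twLevel N1 qv) 2 (↑(twSet S qv) : Set ℕ)
  rest_T : ∀ (ℓ : ℕ) (hℓ : ℓ.Prime) (hℓN' : ¬ ℓ ∣ pvLevel N1 qP qv)
    (hℓS : ℓ ∉ (↑(twSet S qv) : Set ℕ)) (hℓN : ¬ ℓ ∣ twLevel N1 qv),
    rest (CuspForm.heckeAlgebra.T hℓ hℓN' hℓS) = CuspForm.heckeAlgebra.T hℓ hℓN hℓS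
  /-- the divisible Hecke module at the level `M₀ ∏ q_j² ∏ qv_i²` -/
  WD : HDiv 𝒪 ϖ (pvLevel N1 qP qv) (↑(twSet S qv) : Set ℕ) ((θ.comp G1D.rest).comp rest)
  /-- the twisted Galois action -/
  gal : GalQ →* Module.End 𝒪 WD.W
  /-- every element is fixed by an open subgroup -/
  gal_cont : ∀ x : WD.W, ∃ L : IntermediateField ℚ (AlgebraicClosure ℚ),
    FiniteDimensional ℚ L ∧ ∀ σ : GalQ, (∀ y ∈ L, σ y = y) → gal σ x = x
  gal_η : ∀ (g : GalQ)
    (t : CuspForm.heckeAlgebra (pvLevel N1 qP qv) 2 (↑(twSet S qv) : Set ℕ)),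
    Commute (gal g) (WD.η t)
  /-- Eichler–Shimura -/
  es : ∀ (ℓ : ℕ) (hℓ : ℓ.Prime) (hℓN : ¬ ℓ ∣ pvLevel N1 qP qv)
    (hℓS : ℓ ∉ (↑(twSet S qv) : Set ℕ)),
    ∀ A : ValuationSubring (AlgebraicClosure ℚ), A.LiesOverPrime ℓ →
      ∀ σ : GalQ, A.IsFrobeniusAt σ ℓ →
        gal σ * gal σ - WD.η (CuspForm.heckeAlgebra.T hℓ hℓN hℓS) * gal σ
          + (ℓ : 𝒪) • (1 : Module.End 𝒪 WD.W) = 0
  /-- the diamond operators at the pivot primes -/
  c : Fin k → Module.End 𝒪 WD.W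
  c_pow : ∀ j, c j ^ (p ^ eP j) = 1
  /-- the diamond operators at the Taylor–Wiles primes -/
  d : Fin r → Module.End 𝒪 WD.W
  d_pow : ∀ i, d i ^ (p ^ n) = 1
  c_comm : ∀ i j, Commute (c i) (c j)
  d_comm : ∀ i j, Commute (d i) (d j)
  c_d : ∀ j i, Commute (c j) (d i)
  c_η : ∀ (j : Fin k)
    (t : CuspForm.heckeAlgebra (pvLevel N1 qP qv) 2 (↑(twSet S qv) : Set ℕ)),
    Commute (c j) (WD.η t)
  d_η : ∀ (i : Fin r)
    (t : CuspForm.heckeAlgebra (pvLevel N1 qP qv) 2 (↑(twSet S qv) : Set ℕ)),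
    Commute (d i) (WD.η t)
  c_gal : ∀ (j : Fin k) (g : GalQ), Commute (c j) (gal g)
  d_gal : ∀ (i : Fin r) (g : GalQ), Commute (d i) (gal g)
  /-- norm surjectivity along the tower of the pivot primes, on `W[ϖ]` -/
  hstep : ∀ (j : Fin k) (v : WD.W), ϖ • v = 0 → (∀ i, i ≤ j → c i v = v) →
    ∃ w : WD.W, ϖ • w = 0 ∧ (∀ i, i < j → c i w = w) ∧
      Fermat.Agent.S59.TWH.H90.nm (p ^ eP j) (c j) w = v
  /-- the relative norm to the unipotent type (level `Γ₀` at the pivot primes) -/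
  κ : WD.W →ₗ[𝒪] G1D.WD.W
  /-- the relative pull-back -/
  κup : G1D.WD.W →ₗ[𝒪] WD.W
  κup_injective : Function.Injective κup
  /-- `κ^* κ_* = ∑_{δ ∈ Δ_Σ} δ` -/
  κup_κ : ∀ x : WD.W, κup (κ x) = H59.nmTotE (fun j => p ^ eP j) c x
  c_κup : ∀ (j : Fin k) (y : G1D.WD.W), c j (κup y) = κup y
  /-- (INV) on `W[ϖ]`: the `Δ_Σ`-invariants are pull-backs -/
  inv : ∀ v : WD.W, ϖ • v = 0 → (∀ j, c j v = v) → ∃ y : G1D.WD.W, κup y = v
  κ_η : ∀ (t : CuspForm.heckeAlgebra (pvLevel N1 qP qv) 2 (↑(twSet S qv) : Set ℕ)) (v : WD.W),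
    κ (WD.η t v) = G1D.WD.η (rest t) (κ v)
  κ_d : ∀ (i : Fin r) (v : WD.W), κ (d i v) = G1D.d i (κ v)
  κ_gal : ∀ (g : GalQ) (v : WD.W), κ (gal g v) = G1D.gal g (κ v)
  /-- `(F - a)(F - a')` is nilpotent on `W[ϖ]` at the Taylor–Wiles primes -/
  frob_nil : ∀ (i : Fin r) (x : WD.W), ϖ • x = 0 → ∃ m : ℕ,
    (((gal (G1D.frob i) - G1D.a i • (1 : Module.End 𝒪 WD.W)) *
      (gal (G1D.frob i) - G1D.a' i • (1 : Module.End 𝒪 WD.W))) ^ m) x = 0
  /-- local–global compatibility at the Taylor–Wiles primes on `W` -/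
  lg : ∀ (i : Fin r) (x : WD.W),
    x ∈ gk (gal (G1D.frob i) - G1D.a i • (1 : Module.End 𝒪 WD.W)) →
    gal (G1D.σ i) x = d i x
  /-- **the ramified types are new at the pivot primes**, on the Tate module of `WD.W`
  (the field `PVGeom.new`, verbatim). -/
  new : ∀ (ψ : Fin k → 𝒪), (∀ j, ψ j ^ (p ^ eP j) = 1 ∧ ψ j ≠ 1) →
    ∀ (D : Type) [CommRing D] [IsDomain D] [CharZero D]
      (χ : CuspForm.heckeAlgebra (pvLevel N1 qP qv) 2 (↑(twSet S qv) : Set ℕ) →+* D),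
      (∀ t, (∀ v : H2.tate ϖ WD.W, H2.mapEnd ϖ WD.W (WD.η t) v ∈
        typeSub (fun j => H2.mapEnd ϖ WD.W (c j)) ψ) → χ t = 0) →
      ∀ (j : Fin k) [NeZero (pvLevel N1 qP qv / qP j)]
        (χ' : CuspForm.heckeAlgebra (pvLevel N1 qP qv / qP j) 2 (↑(twSet S qv) : Set ℕ) →+* D),
        ¬ ∀ (ℓ : ℕ) (hℓ : ℓ.Prime) (hℓN' : ¬ ℓ ∣ pvLevel N1 qP qv)
          (hℓS : ℓ ∉ (↑(twSet S qv) : Set ℕ)) (hℓN : ¬ ℓ ∣ pvLevel N1 qP qv / qP j),
          χ' (CuspForm.heckeAlgebra.T hℓ hℓN hℓS) = χ (CuspForm.heckeAlgebra.T hℓ hℓN' hℓS)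

/-- **PV-DIV**: the divisible data of PIVOT exist for every Taylor–Wiles family (the geometric
content of PV-GEOM; hypotheses = those of `Stmt_PVGeom2`, in particular `5 ≤ p` and `0 < k`). -/
def Stmt_PVDIV : Prop :=
  ∀ (𝒪 : Type) [CommRing 𝒪] [IsDomain 𝒪] [IsDiscreteValuationRing 𝒪]
    [IsAdicComplete (maximalIdeal 𝒪) 𝒪] [Finite (ResidueField 𝒪)] [CharZero 𝒪]
    (ϖ : 𝒪), Irreducible ϖ →
    ∀ (p : ℕ) [Fact p.Prime] (ρbar : ResidualGaloisRep (ResidueField 𝒪)) (S Smin : Finset ℕ),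
    Hyp 𝒪 p ρbar S Smin →
    ∀ (N1 : ℕ) [NeZero N1] [Fact (CuspForm.HasIntegralStructure N1 2)],
    (∀ q : ℕ, q.Prime → q ∣ N1 → q ∈ S) → Squarefree N1 →
    (5 ≤ p ∨ ∃ r : ℕ, r.Prime ∧ r ∣ N1 ∧ r % 3 = 2) →
    ∀ (θ : CuspForm.heckeAlgebra N1 2 (↑S : Set ℕ) →+* ResidueField 𝒪),
      Fermat.Agent.S59.Datum.FrobHyp ρbar N1 S θ →
    ∀ (k : ℕ) (Pv : PivotPrimes k), 0 < k → Pv.IsExceptional p ρbar → (∀ j, Pv.q j ∣ N1) →
    ∀ (eP : Fin k → ℕ), (∀ j, p ^ eP j ∣ Pv.q j - 1 ∧ ¬ p ^ (eP j + 1) ∣ Pv.q j - 1) →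
    ∃ MD : HDiv 𝒪 ϖ N1 (↑S : Set ℕ) θ, Nontrivial MD.W ∧
      ∀ (r n : ℕ) (qv : Fin r → ℕ), IsTWFamily ρbar p n S qv →
        ∀ [NeZero (twLevel N1 qv)] [NeZero (pvLevel N1 Pv.q qv)]
          [Fact (CuspForm.HasIntegralStructure (twLevel N1 qv) 2)]
          [Fact (CuspForm.HasIntegralStructure (pvLevel N1 Pv.q qv) 2)],
          Nonempty (PVDiv 𝒪 ϖ p ρbar N1 S θ MD Pv.q eP n qv)

end Fermat.Agent.L.Pivot.Geom

end

end
-- ==== END Fermat.Agent.L.Pivot.Geom.Defs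

-- ==== BEGIN Fermat.Agent.L.Pivot.H4_GalNBFinal
section

set_option autoImplicit false
set_option linter.unusedSectionVars false
set_option linter.unusedVariables false

noncomputable section

namespace Fermat.Agent.L.Pivot.H4

open Polynomial IsLocalRing Fermat.Agent.S56

theorem condPvOf_cond (𝒪 : Type) [CommRing 𝒪] (p : ℕ) (fl : Bool) (Smin : Finset ℕ) {k : ℕ}
    (Pv : PivotPrimes k) (T : Finset ℕ) :
    condPvOf 𝒪 (Fermat.Agent.S59.cond 𝒪 p fl Smin) Pv T = condPvB 𝒪 p fl Smin Pv T := rfl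

/-- **PV-GAL-N for `cond 𝒪 p fl` from the Greenberg–Wiles package.** -/
theorem stmt_PVGalNB_of_GW (hGW : Stmt_GW) : Stmt_PVGalNB := by
  intro 𝒪 _ _ _ _ _ p _ fl ρbar S Smin hyp k Pv hex hPS
  exact pvGalN_bool hGW p ρbar S Smin hyp fl k Pv hex hPS

/-- **PV-GAL-N for `cond 𝒪 p fl` from the open leaves of S56.** -/
theorem stmt_PVGalNB_of_open (hQ : S55.Top.Stmt_TopQ0) (h2 : S55.Top.Stmt_I2)
    (h3 : S55.Top.Stmt_I3) (h4 : S55.Top.Stmt_I4) (hEC : Stmt_EC) : Stmt_PVGalNB :=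
  stmt_PVGalNB_of_GW
    (gw_of_core H92.stmt_fin_glob H9.stmt_fin_loc
      (gw_core_of_leaves5
        (GWC.H64.stmt_INV_of_inputs hQ S55.CFT.LOC.H5.stmt_I1 h2 h3 h4
          (S55.Top.stmt_G1K_of h2 h4))
        (GWC.H64.stmt_PT2_of_inputs hQ S55.CFT.LOC.H5.stmt_I1 h2 h3 h4
          (S55.Top.stmt_G1K_of h2 h4))
        hEC))

end Fermat.Agent.L.Pivot.H4

end

end
-- ==== END Fermat.Agent.L.Pivot.H4_GalNBFinal

-- ==== BEGIN Fermat.Agent.L.Pivot.H4_NUPoint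
section

set_option autoImplicit false
set_option linter.unusedSectionVars false
set_option linter.unusedVariables false
set_option linter.style.haveILetI false

noncomputable section

namespace Fermat.Agent.L.Pivot.H4

open Polynomial IsLocalRing CuspForm

local notation "GalQb" => AlgebraicClosure ℚ ≃ₐ[ℚ] AlgebraicClosure ℚ

/-! ### Arithmetic of the levels -/

/-- `Mg ∣ M q²`, `q² ∤ Mg`, `q ∤ M` ⟹ `Mg ∣ M q`. -/
theorem dvd_mul_of_not_sq_dvd {M q Mg : ℕ} (hq : q.Prime) (hqM : ¬ q ∣ M)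
    (h : Mg ∣ M * q ^ 2) (hsq : ¬ q ^ 2 ∣ Mg) : Mg ∣ M * q := by
  by_cases hqMg : q ∣ Mg
  · obtain ⟨m, rfl⟩ := hqMg
    have hqm : ¬ q ∣ m := by
      intro hm
      apply hsq
      rw [pow_two]
      exact Nat.mul_dvd_mul_left q hm
    have h1 : q * m ∣ q * (M * q) := by
      have e : M * q ^ 2 = q * (M * q) := by ring
      rw [← e]
      exact h
    have h2 : m ∣ M * q := (Nat.mul_dvd_mul_iff_left hq.pos).1 h1
    have hcop : Nat.Coprime m q := Nat.Coprime.symm ((Nat.Prime.coprime_iff_not_dvd hq).2 hqm)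
    have h3 : m ∣ M := hcop.dvd_of_dvd_mul_right h2
    rw [mul_comm M q]
    exact Nat.mul_dvd_mul_left q h3
  · have hcop : Nat.Coprime Mg (q ^ 2) :=
      Nat.Coprime.pow_right 2 (Nat.Coprime.symm ((Nat.Prime.coprime_iff_not_dvd hq).2 hqMg))
    exact (hcop.dvd_of_dvd_mul_right h).mul_right q

/-- `Mg ∣ M q²`, `q² ∣ Mg`, `q ∤ M` ⟹ `v_q(Mg) = 2`. -/
theorem factorization_eq_two {M q Mg : ℕ} (hq : q.Prime) (hqM : ¬ q ∣ M) (hMg0 : Mg ≠ 0)
    (h : Mg ∣ M * q ^ 2) (hsq : q ^ 2 ∣ Mg) : Mg.factorization q = 2 := by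
  have hge2 : 2 ≤ Mg.factorization q := (hq.pow_dvd_iff_le_factorization hMg0).mp hsq
  have hle2 : Mg.factorization q ≤ 2 := by
    by_contra hcon
    push Not at hcon
    have h3 : q ^ 3 ∣ Mg := (hq.pow_dvd_iff_le_factorization hMg0).mpr hcon
    have h4 : q ^ 2 * q ∣ q ^ 2 * M := by
      have e1 : q ^ 2 * q = q ^ 3 := by ring
      have e2 : q ^ 2 * M = M * q ^ 2 := by ring
      rw [e1, e2]
      exact h3.trans h
    exact hqM ((Nat.mul_dvd_mul_iff_left (pow_pos hq.pos 2)).1 h4)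
  omega

/-! ### Oddness from the determinants of Frobenius elements -/

/-- A residual representation in characteristic `p` (odd) whose Frobenius elements outside a
finite set of primes have determinant `ℓ` is odd. -/
theorem isOdd_of_frob_det {k : Type} [Field k] (p : ℕ) (hp : p.Prime) (hp2 : p ≠ 2)
    [CharP k p] (ρbar : ResidualGaloisRep k) (S : Finset ℕ)
    (hdet : ∀ ℓ : ℕ, ℓ.Prime → ℓ ∉ S → ∀ B : ValuationSubring (AlgebraicClosure ℚ),
      B.LiesOverPrime ℓ → ∀ σ : GalQb, B.IsFrobeniusAt σ ℓ →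
        LinearMap.det (ρbar.ρ σ) = (ℓ : k)) :
    ρbar.IsOdd := by
  classical
  haveI : Fact p.Prime := ⟨hp⟩
  intro c hc hc1
  obtain ⟨ζ, hζ, hζ1⟩ := Fermat.Agent.S58.H99.exists_root_ne_one hp
  obtain ⟨L₁, hL₁, h1⟩ := ρbar.factorsThroughFiniteLevel
  have hζint : IsIntegral ℚ ζ := IsIntegral.of_pow hp.pos (by rw [hζ]; exact isIntegral_one)
  have hL₂ : FiniteDimensional ℚ ↥(IntermediateField.adjoin ℚ {ζ}) :=
    IntermediateField.adjoin.finiteDimensional hζint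
  have := hL₁
  have hL : FiniteDimensional ℚ ↥(L₁ ⊔ IntermediateField.adjoin ℚ {ζ}) :=
    IntermediateField.finiteDimensional_sup L₁ _
  obtain ⟨ℓ, P, φ, j, hℓ, hℓS, hP, hφ, hj⟩ :=
    Fermat.Agent.Lib.FrobDensity.stmt_FD (insert p S) (L₁ ⊔ IntermediateField.adjoin ℚ {ζ}) hL c
  have hℓp : p ≠ ℓ := fun h => hℓS (h ▸ Finset.mem_insert_self p S)
  have hℓS' : ℓ ∉ S := fun h => hℓS (Finset.mem_insert_of_mem h)
  -- `c` and `φ ^ j` act in the same way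
  have hτ : ρbar.ρ (c⁻¹ * φ ^ j) = 1 := by
    apply h1
    intro x hx
    rw [AlgEquiv.mul_apply, hj x ((le_sup_left : L₁ ≤ _) hx)]
    exact c.symm_apply_apply x
  have hcφ : ρbar.ρ c = ρbar.ρ (φ ^ j) := by
    have : φ ^ j = c * (c⁻¹ * φ ^ j) := by rw [mul_inv_cancel_left]
    rw [this, map_mul, hτ, mul_one]
  rw [hcφ, map_pow, map_pow, hdet ℓ hℓ hℓS' P hP φ hφ]
  -- the action on `ζ`
  have hζL : ζ ∈ L₁ ⊔ IntermediateField.adjoin ℚ {ζ} :=
    (le_sup_right : IntermediateField.adjoin ℚ {ζ} ≤ _)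
      (IntermediateField.mem_adjoin_simple_self ℚ ζ)
  have e1 : (φ ^ j) ζ = ζ ^ (ℓ ^ j) :=
    Fermat.Agent.S58.H99.frobenius_pow_root P φ hℓ hp hℓp hP hφ ζ hζ j
  have e2 : ζ * c ζ = 1 :=
    Fermat.Agent.S58.H99.involution_mul_root c hc hc1 (hp.odd_of_ne_two hp2) ζ hζ
  rw [← hj ζ hζL, e1, ← pow_succ'] at e2
  have hord : orderOf ζ = p := orderOf_eq_prime hζ hζ1
  have hdvd : p ∣ ℓ ^ j + 1 := by
    rw [← hord]
    exact orderOf_dvd_of_pow_eq_one e2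
  have h0 : ((ℓ ^ j + 1 : ℕ) : k) = 0 := (CharP.cast_eq_zero_iff k p _).2 hdvd
  push_cast at h0
  exact eq_neg_of_add_eq_zero_left h0

/-- The determinant of an endomorphism of a free module of rank `2` with characteristic
polynomial `X² - a X + d` is `d`. -/
theorem det_eq_of_charpoly {R V : Type*} [CommRing R] [Nontrivial R] [AddCommGroup V]
    [Module R V] [Module.Free R V] [Module.Finite R V] (hV : Module.finrank R V = 2)
    (f : Module.End R V) (a d : R) (h : LinearMap.charpoly f = X ^ 2 - C a * X + C d) :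
    LinearMap.det f = d := by
  rw [LinearMap.det_eq_sign_charpoly_coeff, hV, h]
  simp

/-! ### The hypothesis `hres` of S36 -/

section hres

variable {𝒪 : Type} [CommRing 𝒪] [IsLocalRing 𝒪]

/-- A representation over `O''` whose Frobenius characteristic polynomials outside `S` are the
images of those of `ρ` (residually absolutely irreducible, Frobenius determinants `ℓ`) is
residually absolutely irreducible and odd. -/
theorem residual_absIrr_odd_of_frob (p : ℕ) (hp : p.Prime) (hp2 : p ≠ 2)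
    (hp𝒪 : (p : 𝒪) ∈ maximalIdeal 𝒪) (ρ : GaloisRepAdic 𝒪)
    (habs : ρ.residual.IsAbsolutelyIrreducible) (S : Finset ℕ) (a : ℕ → 𝒪)
    (hρ : ∀ ℓ : ℕ, ℓ.Prime → ℓ ∉ S → ∀ B : ValuationSubring (AlgebraicClosure ℚ),
      B.LiesOverPrime ℓ → ∀ σ : GalQb, B.IsFrobeniusAt σ ℓ →
        LinearMap.charpoly (ρ.ρ σ) = X ^ 2 - C (a ℓ) * X + C ((ℓ : 𝒪)))
    (O'' : Type) [CommRing O''] [IsLocalRing O''] (f : 𝒪 →+* O'') [IsLocalHom f]
    (ρ₁ : GaloisRepAdic O'')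
    (hρ₁ : ∀ ℓ : ℕ, ℓ.Prime → ℓ ∉ S → ∀ B : ValuationSubring (AlgebraicClosure ℚ),
      B.LiesOverPrime ℓ → ∀ σ : GalQb, B.IsFrobeniusAt σ ℓ →
        LinearMap.charpoly (ρ₁.ρ σ) = X ^ 2 - C (f (a ℓ)) * X + C ((ℓ : O''))) :
    ρ₁.residual.IsAbsolutelyIrreducible ∧ ρ₁.residual.IsOdd := by
  have hpO'' : (p : O'') ∈ maximalIdeal O'' := by
    rw [mem_maximalIdeal, mem_nonunits_iff] at hp𝒪 ⊢
    intro hu
    apply hp𝒪
    have hu' : IsUnit (f (p : 𝒪)) := by rwa [map_natCast]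
    exact (isUnit_map_iff f _).1 hu'
  haveI : CharP (ResidueField O'') p := by
    refine (CharP.charP_iff_prime_eq_zero hp).mpr ?_
    have : residue O'' (p : O'') = 0 := (residue_eq_zero_iff _).mpr hpO''
    rwa [map_natCast] at this
  constructor
  · refine (Fermat.Agent.S59.Datum.H57.stmt_ResIrr (ResidueField 𝒪) (ResidueField O'')
      (ResidueField.map f) ρ.residual ρ₁.residual S habs ?_).1
    intro ℓ hℓ hℓS B hB σ hσ
    rw [Fermat.Agent.S59.Asm.charpoly_resid, Fermat.Agent.S59.Asm.charpoly_resid,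
      hρ₁ ℓ hℓ hℓS B hB σ hσ, hρ ℓ hℓ hℓS B hB σ hσ, Polynomial.map_map]
    simp only [Polynomial.map_add, Polynomial.map_sub, Polynomial.map_mul, Polynomial.map_pow,
      Polynomial.map_X, Polynomial.map_C, map_natCast, RingHom.comp_apply,
      ResidueField.map_residue, Polynomial.map_natCast]
  · refine isOdd_of_frob_det p hp hp2 ρ₁.residual S fun ℓ hℓ hℓS B hB σ hσ => ?_
    refine det_eq_of_charpoly ρ₁.residual.finrank_eq _ (residue O'' (f (a ℓ))) _ ?_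
    rw [Fermat.Agent.S59.Asm.charpoly_resid, hρ₁ ℓ hℓ hℓS B hB σ hσ]
    simp only [Polynomial.map_add, Polynomial.map_sub, Polynomial.map_mul, Polynomial.map_pow,
      Polynomial.map_X, Polynomial.map_C, map_natCast, Polynomial.map_natCast]

end hres

/-! ### The leaf -/

/-- **C-pt = PV-NU-POINT** from Carayol's theorem S36. -/
theorem stmt_PVNUPoint_of (hS36 : Fermat.Agent.S58.Stmt_S36) : Stmt_PVNUPoint := by
  intro p N M q _ _ S 𝒪 _ _ _ _ _ _ hp hp2 hp𝒪 hq hqp hNM hqM hpS hNS χ ρ hρ habs hno hunip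
  classical
  haveI : Fact p.Prime := ⟨hp⟩
  obtain ⟨Mg, iMg, hMgN, g, hg, iota, hiota⟩ := H50.exists_newform_iota S hNS χ
  haveI := iMg
  have hMg0 : Mg ≠ 0 := NeZero.ne Mg
  have hMgN' : Mg ∣ M * q ^ 2 := hNM ▸ hMgN
  -- the newform is new at `q²`
  have hq2Mg : q ^ 2 ∣ Mg := by
    by_contra hcon
    have hMgM : Mg ∣ M * q := dvd_mul_of_not_sq_dvd hq hqM hMgN' hcon
    have hMN : M * q ∣ N := ⟨q, by rw [hNM]; ring⟩
    exact hno (H50.occursAtLevel_of_newform S hNS hMN hMgM χ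
      (iota.comp (Fermat.Agent.R.H99.eigenCharC (↑S : Set ℕ) hg.1).rangeRestrict) hiota)
  have hfac : Mg.factorization q = 2 := factorization_eq_two hq hqM hMg0 hMgN' hq2Mg
  have hMgS : ∀ q' : ℕ, q'.Prime → q' ∣ Mg → q' ∈ S :=
    fun q' hq' h => hNS q' hq' (h.trans hMgN)
  -- the eigenvalues
  let a : ℕ → 𝒪 := fun ℓ =>
    if h : ℓ.Prime ∧ ¬ ℓ ∣ N ∧ ℓ ∉ (↑S : Set ℕ) then χ (heckeAlgebra.T h.1 h.2.1 h.2.2) else 0
  have ha : ∀ (ℓ : ℕ) (hℓ : ℓ.Prime) (hℓN : ¬ ℓ ∣ N) (hℓS : ℓ ∉ (↑S : Set ℕ)),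
      a ℓ = χ (heckeAlgebra.T hℓ hℓN hℓS) := fun ℓ hℓ hℓN hℓS => dif_pos ⟨hℓ, hℓN, hℓS⟩
  have hρa : ∀ ℓ : ℕ, ℓ.Prime → ℓ ∉ S → ∀ B : ValuationSubring (AlgebraicClosure ℚ),
      B.LiesOverPrime ℓ → ∀ σ : GalQb, B.IsFrobeniusAt σ ℓ →
        LinearMap.charpoly (ρ.ρ σ) = X ^ 2 - C (a ℓ) * X + C ((ℓ : 𝒪)) := by
    intro ℓ hℓ hℓS B hB σ hσ
    have hℓN : ¬ ℓ ∣ N := fun h => hℓS (hNS ℓ hℓ h)
    have hℓS' : ℓ ∉ (↑S : Set ℕ) := fun h => hℓS (Finset.mem_coe.1 h)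
    rw [hρ ℓ hℓ hℓN hℓS' B hB σ hσ, ha ℓ hℓ hℓN hℓS']
  have hcoef : ∀ (ℓ : ℕ) (hℓ : ℓ.Prime) (hℓS : ℓ ∉ S) (hℓMg : ¬ ℓ ∣ Mg)
      (hℓS' : ℓ ∉ (↑S : Set ℕ)),
      (iota.comp (Fermat.Agent.R.H99.eigenCharC (↑S : Set ℕ) hg.1).rangeRestrict)
        (heckeAlgebra.T hℓ hℓMg hℓS') = a ℓ := by
    intro ℓ hℓ hℓS hℓMg hℓS'
    have hℓN : ¬ ℓ ∣ N := fun h => hℓS (hNS ℓ hℓ h)
    rw [hiota ℓ hℓ hℓMg hℓS' hℓN, ha ℓ hℓ hℓN hℓS']
  -- the hypothesis `hres` of S36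
  have hres : ∀ (O'' : Type) [CommRing O''] [IsDomain O''] [IsDiscreteValuationRing O'']
      [IsAdicComplete (IsLocalRing.maximalIdeal O'') O''] [Finite (IsLocalRing.ResidueField O'')]
      [CharZero O''] [Algebra 𝒪 O''] [Module.Finite 𝒪 O''] [IsLocalHom (algebraMap 𝒪 O'')],
      Function.Injective (algebraMap 𝒪 O'') → ∀ (ρ₁ : GaloisRepAdic O''),
      (∀ (ℓ : ℕ) (hℓ : ℓ.Prime) (_hℓlam : ℓ ≠ p) (hℓM : ¬ ℓ ∣ Mg) (hℓS : ℓ ∉ (↑S : Set ℕ)),
        ∀ A : ValuationSubring (AlgebraicClosure ℚ), A.LiesOverPrime ℓ →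
          ∀ σ : AlgebraicClosure ℚ ≃ₐ[ℚ] AlgebraicClosure ℚ, A.IsFrobeniusAt σ ℓ →
            LinearMap.charpoly (ρ₁.ρ σ) =
              X ^ 2 - C (algebraMap 𝒪 O''
                ((iota.comp (Fermat.Agent.R.H99.eigenCharC (↑S : Set ℕ) hg.1).rangeRestrict)
                  (CuspForm.heckeAlgebra.T hℓ hℓM hℓS))) * X
                + C ((ℓ : O'')))
      → ρ₁.residual.IsAbsolutelyIrreducible ∧ ρ₁.residual.IsOdd := by
    intro O'' _ _ _ _ _ _ _ _ _ _ ρ₁ hρ₁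
    refine residual_absIrr_odd_of_frob p hp hp2 hp𝒪 ρ habs S a hρa O'' (algebraMap 𝒪 O'') ρ₁ ?_
    intro ℓ hℓ hℓS B hB σ hσ
    have hℓp : ℓ ≠ p := fun h => hℓS (h ▸ hpS)
    have hℓMg : ¬ ℓ ∣ Mg := fun h => hℓS (hMgS ℓ hℓ h)
    have hℓS' : ℓ ∉ (↑S : Set ℕ) := fun h => hℓS (Finset.mem_coe.1 h)
    rw [hρ₁ ℓ hℓ hℓp hℓMg hℓS' B hB σ hσ, hcoef ℓ hℓ hℓS hℓMg hℓS']
  obtain ⟨O'', j1, j2, j3, j4, j5, j6, j7, j8, j9, hinj, ρ', hfrob', hnu⟩ :=
    hS36 hg p S 𝒪 hp𝒪 hp2 (Fermat.Agent.R.H99.eigenCharC (↑S : Set ℕ) hg.1)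
      (fun ℓ hℓ hℓM hℓS => Fermat.Agent.R.H99.eigenCharC_T (↑S : Set ℕ) hg.1 hℓ hℓM hℓS)
      iota hpS hMgS hres
  refine hnu q hq hqp hfac ?_
  -- `ρ'` is equivalent to the base change of `ρ`
  have habsB : (ρ.baseChangeAlong (algebraMap 𝒪 O'') j9).residual.IsAbsolutelyIrreducible :=
    Fermat.Agent.R.H86.residual_absIrr_baseChangeAlong _ j9 ρ habs
  have he : (ρ.baseChangeAlong (algebraMap 𝒪 O'') j9).IsEquiv ρ' := by
    refine H50.isEquiv_of_frob _ ρ' habsB S fun ℓ hℓ hℓS B hB σ hσ => ?_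
    have hℓMg : ¬ ℓ ∣ Mg := fun h => hℓS (hMgS ℓ hℓ h)
    have hℓS' : ℓ ∉ (↑S : Set ℕ) := fun h => hℓS (Finset.mem_coe.1 h)
    rw [Fermat.Agent.S59.Asm.charpoly_bcAlong, hρa ℓ hℓ hℓS B hB σ hσ,
      hfrob' ℓ hℓ hℓMg hℓS' B hB σ hσ, hcoef ℓ hℓ hℓS hℓMg hℓS']
    simp only [Polynomial.map_add, Polynomial.map_sub, Polynomial.map_mul, Polynomial.map_pow,
      Polynomial.map_X, Polynomial.map_C, map_natCast, Polynomial.map_natCast]
  refine Fermat.Agent.S59.H99.isUnipotentOnInertiaAt_of_isEquiv he q ?_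
  intro P hP σ hσ
  rw [Fermat.Agent.S59.Asm.charpoly_bcAlong, hunip P hP σ hσ]
  simp only [Polynomial.map_pow, Polynomial.map_sub, Polynomial.map_X, Polynomial.map_one]

end Fermat.Agent.L.Pivot.H4

end

end
-- ==== END Fermat.Agent.L.Pivot.H4_NUPoint

-- ==== BEGIN Fermat.Agent.L.Pivot.H72_NUAbs
section

set_option autoImplicit false
set_option linter.style.haveILetI false
set_option linter.unusedSectionVars false

namespace Fermat.Agent.L.Pivot.H72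

open IsLocalRing Polynomial Fermat.Agent.S59.Asm
open scoped TensorProduct

section Res

variable {A : Type} [CommRing A] [IsLocalRing A] {B : Type} [CommRing B] [IsLocalRing B]

/-- `f ≡ 1 mod I` implies `f ⊗ B ≡ 1 mod J` when `I B ⊆ J`. -/
theorem baseChange_sub_mem [Algebra A B] {V : Type} [AddCommGroup V] [Module A V]
    (I : Ideal A) (J : Ideal B) (hIJ : ∀ a ∈ I, algebraMap A B a ∈ J) (f : Module.End A V)
    (h : ∀ v : V, f v - v ∈ I • (⊤ : Submodule A V)) (w : B ⊗[A] V) :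
    f.baseChange B w - w ∈ J • (⊤ : Submodule B (B ⊗[A] V)) := by
  have hpure : ∀ (b : B) (v : V),
      f.baseChange B (b ⊗ₜ[A] v) - b ⊗ₜ[A] v ∈ J • (⊤ : Submodule B (B ⊗[A] V)) := by
    intro b v
    rw [LinearMap.baseChange_tmul, ← TensorProduct.tmul_sub]
    refine Submodule.smul_induction_on (p := fun x => b ⊗ₜ[A] x ∈
      J • (⊤ : Submodule B (B ⊗[A] V))) (h v) ?_ ?_
    · intro a ha w _
      rw [TensorProduct.tmul_smul, TensorProduct.smul_tmul', Algebra.smul_def, ← smul_eq_mul,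
        ← TensorProduct.smul_tmul']
      exact Submodule.smul_mem_smul (hIJ a ha) Submodule.mem_top
    · intro x y hx hy
      rw [TensorProduct.tmul_add]
      exact Submodule.add_mem _ hx hy
  induction w using TensorProduct.induction_on with
  | zero => rw [map_zero, sub_zero]; exact Submodule.zero_mem _
  | tmul b v => exact hpure b v
  | add x y hx hy =>
    rw [map_add, add_sub_add_comm]
    exact Submodule.add_mem _ hx hy

/-- `f ≡ 1 mod 𝔪` implies that the reduction of `f` is the identity. -/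
theorem baseChange_residue_eq_one {V : Type} [AddCommGroup V] [Module A V]
    (f : Module.End A V) (h : ∀ v : V, f v - v ∈ maximalIdeal A • (⊤ : Submodule A V)) :
    f.baseChange (ResidueField A) = 1 := by
  have hkill : ∀ x ∈ maximalIdeal A • (⊤ : Submodule A V),
      ∀ c : ResidueField A, c ⊗ₜ[A] x = 0 := by
    intro x hx c
    refine Submodule.smul_induction_on
      (p := fun x => c ⊗ₜ[A] x = (0 : ResidueField A ⊗[A] V)) hx ?_ ?_
    · intro a ha w _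
      rw [TensorProduct.tmul_smul, TensorProduct.smul_tmul', Algebra.smul_def,
        ResidueField.algebraMap_eq, (residue_eq_zero_iff a).mpr ha,
        zero_mul, TensorProduct.zero_tmul]
    · intro x y hx hy
      rw [TensorProduct.tmul_add, hx, hy, add_zero]
  refine LinearMap.ext fun w => ?_
  induction w using TensorProduct.induction_on with
  | zero => rw [map_zero, map_zero]
  | tmul c v =>
    rw [LinearMap.baseChange_tmul, Module.End.one_apply, ← sub_eq_zero,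
      ← TensorProduct.tmul_sub]
    exact hkill _ (h v) c
  | add x y hx hy => rw [map_add, map_add, hx, hy]

/-- trivial modulo `𝔪` on inertia ⟹ residually unramified. -/
theorem residual_unramified_of_sub_mem (ρ : GaloisRepAdic A) (q : ℕ)
    (h : ∀ P : ValuationSubring (AlgebraicClosure ℚ), P.LiesOverPrime q →
      ∀ σ ∈ P.inertiaSubgroupIn ℚ, ∀ v : ρ.V,
        ρ.ρ σ v - v ∈ maximalIdeal A • (⊤ : Submodule A ρ.V)) :
    ρ.residual.IsUnramifiedAt q := by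
  intro P hP σ hσ
  exact baseChange_residue_eq_one (ρ.ρ σ) (h P hP σ hσ)

/-- Residual unramifiedness is preserved by base change along a local homomorphism. -/
theorem residual_unramified_baseChangeAlong (ψ : A →+* B) (hψ : IsLocalHom ψ)
    (ρ : GaloisRepAdic A) (q : ℕ) (h : ρ.residual.IsUnramifiedAt q) :
    (ρ.baseChangeAlong ψ hψ).residual.IsUnramifiedAt q := by
  letI : Algebra A B := ψ.toAlgebra
  refine residual_unramified_of_sub_mem _ q fun P hP σ hσ w => ?_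
  refine baseChange_sub_mem (maximalIdeal A) (maximalIdeal B) (fun a ha => ?_) (ρ.ρ σ)
    (fun v => H76.sub_mem_of_residual_unramified ρ q h P hP σ hσ v) w
  haveI := hψ
  exact map_nonunit ψ a ha

/-- Residual unramifiedness is invariant under equivalence. -/
theorem residual_unramified_of_isEquiv {ρ ρ' : GaloisRepAdic A} (he : ρ.IsEquiv ρ') (q : ℕ)
    (h : ρ.residual.IsUnramifiedAt q) : ρ'.residual.IsUnramifiedAt q := by
  obtain ⟨e⟩ := he
  intro P hP σ hσ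
  have h1 := h P hP σ hσ
  refine LinearMap.ext fun y => ?_
  obtain ⟨x, rfl⟩ := e.residual.toLinearEquiv.surjective y
  rw [← e.residual.map_apply, h1]
  rfl

end Res

section Gamma

variable {𝒪 : Type} [CommRing 𝒪] [IsLocalRing 𝒪]
  {R : Type} [CommRing R] [IsLocalRing R] [Algebra 𝒪 R] {n : ℕ}

/-- An `𝒪`-algebra homomorphism from a power series ring to a local ring with residue field
`k_𝒪` sends the variables into the maximal ideal. -/
theorem gamma_X_mem (hsurj : Function.Surjective (residue R ∘ algebraMap 𝒪 R))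
    (γ : MvPowerSeries (Fin n) 𝒪 →ₐ[𝒪] R) (i : Fin n) :
    γ (MvPowerSeries.X i) ∈ maximalIdeal R := by
  rw [mem_maximalIdeal, mem_nonunits_iff]
  intro hu
  obtain ⟨d, hd⟩ := hu.exists_right_inv
  obtain ⟨c, hc⟩ := hsurj (residue R d)
  have h1 : IsUnit (1 - MvPowerSeries.C c * MvPowerSeries.X i : MvPowerSeries (Fin n) 𝒪) := by
    rw [MvPowerSeries.isUnit_iff_constantCoeff]
    simp
  have h2 : IsUnit (γ (1 - MvPowerSeries.C c * MvPowerSeries.X i)) := h1.map γ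
  have h3 : γ (MvPowerSeries.C c) = algebraMap 𝒪 R c := by
    have : (MvPowerSeries.C c : MvPowerSeries (Fin n) 𝒪) = algebraMap 𝒪 _ c := rfl
    rw [this, AlgHom.commutes]
  rw [map_sub, map_one, map_mul, h3] at h2
  have h4 : residue R (1 - algebraMap 𝒪 R c * γ (MvPowerSeries.X i)) = 0 := by
    have hc' : residue R (algebraMap 𝒪 R c) = residue R d := hc
    rw [map_sub, map_one, map_mul, hc', ← map_mul, mul_comm, hd, map_one, sub_self]
  exact ((mem_maximalIdeal _).1 ((residue_eq_zero_iff _).1 h4)) h2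

end Gamma

section Main

/-- `𝒪 → O` is injective for a domain `O` of characteristic zero. -/
theorem algebraMap_injective_of_charZero {𝒪 : Type} [CommRing 𝒪] [IsDomain 𝒪]
    [IsDiscreteValuationRing 𝒪] {p : ℕ} (hp : p.Prime) (hp𝒪 : (p : 𝒪) ∈ maximalIdeal 𝒪)
    (O : Type) [CommRing O] [IsDomain O] [CharZero O] [Algebra 𝒪 O] :
    Function.Injective (algebraMap 𝒪 O) := by
  rw [injective_iff_map_eq_zero]
  intro a ha
  by_contra ha0
  obtain ⟨ϖ, hϖ⟩ := IsDiscreteValuationRing.exists_irreducible 𝒪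
  obtain ⟨e, u, hu⟩ := IsDiscreteValuationRing.eq_unit_mul_pow_irreducible ha0 hϖ
  have h1 : algebraMap 𝒪 O ϖ = 0 := by
    rw [hu, map_mul, map_pow] at ha
    rcases mul_eq_zero.1 ha with h | h
    · exact absurd h ((u.isUnit.map (algebraMap 𝒪 O)).ne_zero)
    · by_cases he : e = 0
      · rw [he, pow_zero] at h
        exact absurd h one_ne_zero
      · exact (pow_eq_zero_iff he).1 h
  have h2 : (p : 𝒪) ∈ Ideal.span {ϖ} := by
    rw [← (IsDiscreteValuationRing.irreducible_iff_uniformizer ϖ).mp hϖ]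
    exact hp𝒪
  obtain ⟨c, hc⟩ := Ideal.mem_span_singleton'.1 h2
  have h3 : ((p : ℕ) : O) = 0 := by
    rw [← map_natCast (algebraMap 𝒪 O), ← hc, map_mul, h1, mul_zero]
  exact hp.ne_zero (Nat.cast_eq_zero.1 h3)

/-- **PV-NU, module form (relχ).** -/
theorem pvNU_mod {𝒪 : Type} [CommRing 𝒪] [IsDomain 𝒪] [IsDiscreteValuationRing 𝒪]
    [IsAdicComplete (maximalIdeal 𝒪) 𝒪] [Finite (ResidueField 𝒪)] [CharZero 𝒪]
    (p : ℕ) (hp : p.Prime) (hp2 : p ≠ 2) (hp𝒪 : (p : 𝒪) ∈ maximalIdeal 𝒪)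
    {k : ℕ} (g : ℕ) (Pv : PivotPrimes k) (hpq : ∀ j, p ∣ Pv.q j - 1)
    (eP : Fin k → ℕ) (heP : ∀ j, p ^ eP j ∣ Pv.q j - 1 ∧ ¬ p ^ (eP j + 1) ∣ Pv.q j - 1)
    (ζ : Fin k → 𝒪) (hζ : ∀ j, IsPrimitiveRoot (ζ j) (p ^ eP j))
    (RQ : Type) [CommRing RQ] [IsLocalRing RQ] [IsNoetherianRing RQ] [Algebra 𝒪 RQ]
    (hsurj : Function.Surjective (residue RQ ∘ algebraMap 𝒪 RQ))
    (ρQ : GaloisRepAdic RQ) (hdetQ : ρQ.DetIsCyclotomic p)
    (hresQ : ∀ j, ρQ.residual.IsUnramifiedAt (Pv.q j))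
    (bQ : Module.Basis (Fin 2) RQ ρQ.V) (γ : PRing 𝒪 k g →ₐ[𝒪] RQ)
    (hγ : IsCoordHom γ (fun j => LinearMap.toMatrix bQ bQ (ρQ.ρ (Pv.τ j)))
      (fun j => LinearMap.toMatrix bQ bQ (ρQ.ρ (Pv.frob j))))
    (T' : Type) [CommRing T'] [Algebra 𝒪 T'] [Module.Finite 𝒪 T'] [Module.Free 𝒪 T']
    [IsLocalRing T'] [IsReduced T']
    (ρ' : GaloisRepAdic T')
    (φQ : RQ →ₐ[𝒪] T') (hφ : IsLocalHom (φQ : RQ →+* T'))
    (he : (ρQ.baseChangeAlong (φQ : RQ →+* T') hφ).IsEquiv ρ')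
    (W : Type) [AddCommGroup W] [Module 𝒪 W] (ηW : T' →ₐ[𝒪] Module.End 𝒪 W)
    (U : Submodule 𝒪 W) (hsat : ∀ c : 𝒪, c ≠ 0 → ∀ v : W, c • v ∈ U → v ∈ U)
    (hnew : ∀ (O : Type) [CommRing O] [IsDomain O] [IsDiscreteValuationRing O]
      [IsAdicComplete (maximalIdeal O) O] [Finite (ResidueField O)] [CharZero O]
      [Algebra 𝒪 O] [Module.Finite 𝒪 O] (x : T' →ₐ[𝒪] O) (hx : IsLocalHom (x : T' →+* O)),
      (∀ t : T', (∀ v : W, ηW t v ∈ U) → x t = 0) →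
      ∀ j, ¬ (ρ'.baseChangeAlong (x : T' →+* O) hx).IsUnipotentOnInertiaAt (Pv.q j))
    (𝔞 : (Fin k → 𝒪) → Ideal (PRing 𝒪 k g))
    (h𝔞 : ∀ δ ∈ pvTypes p eP ζ, KilledByType g δ (𝔞 δ)) :
    ∀ f ∈ (pvTypes p eP ζ).inf 𝔞, ∀ v : W, ηW (φQ (γ f)) v ∈ U := by
  intro f hf v
  refine H76.supp_points 𝒪 T' ηW U hsat (φQ (γ f)) ?_ v
  intro O _ _ _ _ _ _ _ _ x hx hkill
  -- arithmetic
  have hq1 : ∀ j, 1 ≤ Pv.q j := fun j => (Pv.q_prime j).one_le
  have hn0 : ∀ j, eP j ≠ 0 := by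
    intro j h0
    have := (heP j).2
    rw [h0, zero_add, pow_one] at this
    exact this (hpq j)
  choose m' hm' using fun j => (heP j).1
  have hq : ∀ j, Pv.q j = 1 + p ^ eP j * m' j := by
    intro j
    have := hm' j
    have := hq1 j
    omega
  have hm'p : ∀ j, ¬ p ∣ m' j := by
    intro j hdiv
    obtain ⟨c, hc⟩ := hdiv
    apply (heP j).2
    rw [hm' j, hc, pow_succ]
    exact ⟨c, by ring⟩
  have hqp : ∀ j, Pv.q j ≠ p := by
    intro j h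
    have h1 := hpq j
    rw [h] at h1
    have h2 : p ≤ p - 1 := Nat.le_of_dvd (Nat.sub_pos_of_lt hp.one_lt) h1
    have := hp.one_lt
    omega
  -- the point
  have hinj := algebraMap_injective_of_charZero hp hp𝒪 O
  obtain ⟨x', hx'e⟩ : ∃ x' : RQ →ₐ[𝒪] O, ∀ a, x' a = x (φQ a) := ⟨x.comp φQ, fun _ => rfl⟩
  have hx' : ∀ a ∈ maximalIdeal RQ, x' a ∈ maximalIdeal O := by
    intro a ha
    rw [hx'e]
    haveI := hx
    haveI := hφ
    exact map_nonunit (x : T' →+* O) _ (map_nonunit (φQ : RQ →+* T') a ha)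
  have hI : ∀ j, ∀ σ ∈ (Pv.P j).inertiaSubgroupIn ℚ, ∀ v : ρQ.V,
      ρQ.ρ σ v - v ∈ maximalIdeal RQ • (⊤ : Submodule RQ ρQ.V) := fun j σ hσ v =>
    H76.sub_mem_of_residual_unramified ρQ (Pv.q j) (hresQ j) (Pv.P j) (Pv.P_over j) σ hσ v
  obtain ⟨i, hi, htr, htype, -⟩ := H59.types_of_point p hp hp2 g Pv eP m' hn0 hq hm'p ζ hζ RQ ρQ
    hdetQ hI bQ γ hγ O hinj x' hx'
  -- all `i_j ≠ 0`
  have hi0 : ∀ j, i j ≠ 0 := by
    intro j hij
    apply hnew O x hx hkill j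
    have hdet' : ρ'.DetIsCyclotomic p :=
      Fermat.Agent.S59.H99.detIsCyclotomic_of_isEquiv he p
        (Fermat.Agent.S56.H92.detIsCyclotomic_baseChangeAlong (φQ : RQ →+* T') hφ ρQ p hdetQ)
    have hdetx := Fermat.Agent.S56.H92.detIsCyclotomic_baseChangeAlong (x : T' →+* O) hx ρ' p
      hdet'
    have hres' : ρ'.residual.IsUnramifiedAt (Pv.q j) :=
      residual_unramified_of_isEquiv he _
        (residual_unramified_baseChangeAlong (φQ : RQ →+* T') hφ ρQ _ (hresQ j))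
    have hresx := residual_unramified_baseChangeAlong (x : T' →+* O) hx ρ' _ hres'
    refine H59.isUnipotentOnInertiaAt_of_trace p hp _ hdetx (Pv.q j) (Pv.q_prime j) (hqp j)
      hresx (Pv.P j) (Pv.P_over j) (Pv.τ j) (Pv.τ_gen j) ?_
    rw [Fermat.Agent.S59.H99.trace_baseChangeAlong]
    obtain ⟨b', hb'⟩ := H77.stmt_TRANSPORT RQ T' (φQ : RQ →+* T') hφ ρQ ρ' he bQ
    have hent : ∀ a c, LinearMap.toMatrix b' b' (ρ'.ρ (Pv.τ j)) a c =
        φQ (LinearMap.toMatrix bQ bQ (ρQ.ρ (Pv.τ j)) a c) := by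
      intro a c
      rw [LinearMap.toMatrix_apply, LinearMap.toMatrix_apply]
      exact hb' _ c a
    rw [LinearMap.trace_eq_matrix_trace T' b', Matrix.trace_fin_two, hent, hent]
    have h2 := htr j
    rw [hij, pow_zero, Nat.sub_zero, (hζ j).pow_eq_one, Matrix.trace_fin_two] at h2
    simp only [RingHom.mapMatrix_apply, Matrix.map_apply, RingHom.coe_coe, hx'e] at h2
    have h3 : algebraMap 𝒪 O (1 + 1) = 2 := by
      rw [map_add, map_one]
      norm_num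
    rw [h3] at h2
    have h4 : (x : T' →+* O) (φQ (LinearMap.toMatrix bQ bQ (ρQ.ρ (Pv.τ j)) 0 0) +
        φQ (LinearMap.toMatrix bQ bQ (ρQ.ρ (Pv.τ j)) 1 1)) =
        x (φQ (LinearMap.toMatrix bQ bQ (ρQ.ρ (Pv.τ j)) 0 0)) +
        x (φQ (LinearMap.toMatrix bQ bQ (ρQ.ρ (Pv.τ j)) 1 1)) := map_add _ _ _
    rw [h4]
    exact h2
  -- the point is of a ramified type
  have hδ : (fun j => ζ j ^ i j - ζ j ^ (p ^ eP j - i j)) ∈ pvTypes p eP ζ :=
    mem_pvTypes.2 ⟨i, hi, hi0, rfl⟩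
  have hX : ∀ a, (x'.comp γ) (MvPowerSeries.X a) ∈ maximalIdeal O := fun a =>
    hx' _ (gamma_X_mem hsurj γ a)
  have hk := h𝔞 _ hδ O (x'.comp γ) hinj hX (htype hi0)
  have hf' : f ∈ 𝔞 (fun j => ζ j ^ i j - ζ j ^ (p ^ eP j - i j)) :=
    (Finset.inf_le hδ : (pvTypes p eP ζ).inf 𝔞 ≤ _) hf
  have h5 := hk hf'
  rw [RingHom.mem_ker] at h5
  rw [← hx'e]
  exact h5

end Main

end Fermat.Agent.L.Pivot.H72

end
-- ==== END Fermat.Agent.L.Pivot.H72_NUAbs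

-- ==== BEGIN Fermat.Agent.L.Pivot.H72_PVGalAB
section

set_option autoImplicit false

namespace Fermat.Agent.L.Pivot.H72

open IsLocalRing Fermat.Agent.S56

/-- **PV-GAL-A** for `cond 𝒪 p fl`. -/
theorem stmt_PVGalAB : Stmt_PVGalAB := by
  intro 𝒪 _ _ _ _ _ p _ fl ρbar S Smin hyp k Pv hex T g htan DQ b
  exact pvGalA_cond fl Smin T hyp.hp2 hyp.hp𝒪 hex g htan DQ b

end Fermat.Agent.L.Pivot.H72

end
-- ==== END Fermat.Agent.L.Pivot.H72_PVGalAB

-- ==== BEGIN Fermat.Agent.L.Pivot.H76_PVUnip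
section

set_option autoImplicit false
set_option linter.style.haveILetI false
set_option linter.unusedSectionVars false
set_option linter.unusedVariables false

namespace Fermat.Agent.L.Pivot.H76

open Polynomial IsLocalRing CuspForm Fermat.Agent.S56 Fermat.Agent.S59 Fermat.Agent.S59.Asm
  Fermat.Agent.S59.TWGal Fermat.Agent.R

set_option maxHeartbeats 1000000 in
set_option synthInstance.maxHeartbeats 400000 in
/-- **PV-UNIP** (B). -/
theorem stmt_PVUnip : Stmt_PVUnip := by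
  intro 𝒪 _ _ _ _ _ _ p _ fl ρbar N1 _ S Smin θ M k Pv eP hPV g r n qv hTW _ _ _ _ X HQ1 hHQ1π
    hdet1 hU f hf v
  have hp : p.Prime := Fact.out
  have hqp : ∀ j, Pv.q j ≠ p := fun j => (hPV.hex j).2.1
  -- Step 1: the action on `G1.W` and the restriction
  obtain ⟨ηW1, hηW1⟩ := H85.stmt_LOCMOD 𝒪 (twLevel N1 qv) (↑(twSet S qv) : Set ℕ)
    (θ.comp X.G.G1.rest) X.G.G1.W
  obtain ⟨res, hres⟩ := H85.stmt_RESLOC 𝒪 (twLevel N1 qv) (pvLevel N1 Pv.q qv)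
    (↑(twSet S qv) : Set ℕ) (↑(twSet S qv) : Set ℕ) (θ.comp X.G.G1.rest) X.G.rest
  -- Step 2: `κ` intertwines
  have hκ : ∀ (t : CuspForm.heckeLocal (pvLevel N1 Pv.q qv) (↑(twSet S qv) : Set ℕ) 𝒪
      ((θ.comp X.G.G1.rest).comp X.G.rest)) (v : X.G.W.V),
      X.G.κ (X.ηW t v) = ηW1 (res t) (X.G.κ v) :=
    H77.intertwine_of_gen X.HQ.adjoin_range_π X.ηW ηW1 res X.G.κ fun t v => by
      rw [X.HQ_π, X.ηW_π, X.G.κ_η, hres, hηW1]
  -- Step 3: the composite `res ∘ φQ` is local and carries `DQ.ρ` to `HQ1.ρ`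
  have hresl : IsLocalHom (res : CuspForm.heckeLocal (pvLevel N1 Pv.q qv)
      (↑(twSet S qv) : Set ℕ) 𝒪 ((θ.comp X.G.G1.rest).comp X.G.rest) →+*
      CuspForm.heckeLocal (twLevel N1 qv) (↑(twSet S qv) : Set ℕ) 𝒪 (θ.comp X.G.G1.rest)) :=
    isLocalHom_of_finite (𝒪 := 𝒪) res
  have hf1 := H77.isLocalHom_comp_algHom res X.φQ hresl X.φQ_local
  have hD : X.DQ.ρ.residual.IsAbsolutelyIrreducible :=
    Fermat.Agent.S59.Datum.H57.absIrr_of_isEquiv X.DQ.residual_isEquiv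
      (Fermat.Agent.S59.Datum.H57.absIrr_baseChangeAlong _ ρbar X.DQ.absIrr)
  have hirr := Fermat.Agent.R.H86.residual_absIrr_baseChangeAlong _ hf1 X.DQ.ρ hD
  have hdvd : twLevel N1 qv ∣ pvLevel N1 Pv.q qv := Dvd.intro _ rfl
  have he : (X.DQ.ρ.baseChangeAlong ((res.comp X.φQ : X.DQ.R →ₐ[𝒪] _) : X.DQ.R →+* _)
      hf1).IsEquiv HQ1.ρ := by
    refine H57.isEquiv_of_frobenius _ HQ1.ρ hirr
      (twSet S qv ∪ (pvLevel N1 Pv.q qv).primeFactors) ?_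
    intro ℓ hℓ hℓS B hB σ hσ
    have h1 : ¬ ℓ ∣ pvLevel N1 Pv.q qv := fun h => hℓS (Finset.mem_union_right _
      (Nat.mem_primeFactors.2 ⟨hℓ, h, NeZero.ne _⟩))
    have h2 : ℓ ∉ (↑(twSet S qv) : Set ℕ) := fun h => hℓS (Finset.mem_union_left _
      (Finset.mem_coe.1 h))
    have h3 : ¬ ℓ ∣ twLevel N1 qv := fun h => h1 (h.trans hdvd)
    rw [charpoly_bcAlong, HQ1.charpoly_frob ℓ hℓ h3 h2 B hB σ hσ]
    have h4 : (LinearMap.charpoly (X.DQ.ρ.ρ σ)).map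
        ((res.comp X.φQ : X.DQ.R →ₐ[𝒪] _) : X.DQ.R →+* _) =
        ((LinearMap.charpoly (X.DQ.ρ.ρ σ)).map (X.φQ : X.DQ.R →+*
          CuspForm.heckeLocal (pvLevel N1 Pv.q qv) (↑(twSet S qv) : Set ℕ) 𝒪
            ((θ.comp X.G.G1.rest).comp X.G.rest))).map
          (res : CuspForm.heckeLocal (pvLevel N1 Pv.q qv) (↑(twSet S qv) : Set ℕ) 𝒪
            ((θ.comp X.G.G1.rest).comp X.G.rest) →+*
            CuspForm.heckeLocal (twLevel N1 qv) (↑(twSet S qv) : Set ℕ) 𝒪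
              (θ.comp X.G.G1.rest)) := by
      rw [Polynomial.map_map]
      rfl
    have h5 : LinearMap.charpoly ((X.DQ.ρ.baseChangeAlong (X.φQ : X.DQ.R →+*
        CuspForm.heckeLocal (pvLevel N1 Pv.q qv) (↑(twSet S qv) : Set ℕ) 𝒪
          ((θ.comp X.G.G1.rest).comp X.G.rest)) X.φQ_local).ρ σ) =
        (LinearMap.charpoly (X.DQ.ρ.ρ σ)).map (X.φQ : X.DQ.R →+*
          CuspForm.heckeLocal (pvLevel N1 Pv.q qv) (↑(twSet S qv) : Set ℕ) 𝒪
            ((θ.comp X.G.G1.rest).comp X.G.rest)) :=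
      charpoly_bcAlong _ X.φQ_local X.DQ.ρ σ
    rw [h4, ← h5, charpoly_of_isEquiv X.φQ_equiv σ]
    refine H77.map_charpoly_frob _ (X.HQ.π (CuspForm.heckeAlgebra.T hℓ h1 h2)) _ ℓ ?_ _
      (X.HQ.charpoly_frob ℓ hℓ h1 h2 B hB σ hσ)
    have e1 := RingHom.congr_fun X.HQ_π (CuspForm.heckeAlgebra.T hℓ h1 h2)
    have e2 := RingHom.congr_fun hHQ1π (CuspForm.heckeAlgebra.T hℓ h3 h2)
    have e3 := hres (CuspForm.heckeAlgebra.T hℓ h1 h2)
    have e4 := X.G.rest_T ℓ hℓ h1 h2 h3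
    exact (congrArg res e1).trans (e3.trans ((congrArg _ e4).trans e2.symm))
  -- Step 4: `TQ1` is reduced
  have hNS1 : ∀ q : ℕ, q.Prime → q ∣ twLevel N1 qv → q ∈ (↑(twSet S qv) : Set ℕ) := by
    intro q hq hqN
    by_cases hqN1 : q ∣ N1
    · exact H41.subset_twSet S qv (Finset.mem_coe.2 (hPV.hNS q hq hqN1))
    · exact H41.new_prime_mem_twSet N1 S qv (fun j => (hTW.2.1 j).1) q hq hqN hqN1
  haveI : Module.Finite ℤ (CuspForm.heckeAlgebra (twLevel N1 qv) 2 (↑(twSet S qv) : Set ℕ)) :=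
    Fermat.Agent.S22.result (twLevel N1 qv) 2 (↑(twSet S qv) : Set ℕ)
  haveI : IsReduced (CuspForm.heckeAlgebra (twLevel N1 qv) 2 (↑(twSet S qv) : Set ℕ)) :=
    H58.stmt_HeckeReduced (twLevel N1 qv) (↑(twSet S qv) : Set ℕ) hNS1
  have hadj : Algebra.adjoin 𝒪 (Set.range (CuspForm.heckeLocal.π (twLevel N1 qv)
      (↑(twSet S qv) : Set ℕ) 𝒪 (θ.comp X.G.G1.rest))) = ⊤ := by
    rw [← hHQ1π]
    exact HQ1.adjoin_range_π
  haveI : IsReduced (CuspForm.heckeLocal (twLevel N1 qv) (↑(twSet S qv) : Set ℕ) 𝒪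
      (θ.comp X.G.G1.rest)) :=
    H2.isReduced_of_flat_of_adjoin_eq_top
      (CuspForm.heckeAlgebra (twLevel N1 qv) 2 (↑(twSet S qv) : Set ℕ)) 𝒪
      (CuspForm.heckeLocal (twLevel N1 qv) (↑(twSet S qv) : Set ℕ) 𝒪 (θ.comp X.G.G1.rest))
      (CuspForm.heckeLocal.π (twLevel N1 qv) (↑(twSet S qv) : Set ℕ) 𝒪 (θ.comp X.G.G1.rest))
      hadj
  -- Step 5: the universal deformation is residually unramified at the pivot primes
  have hresQ : ∀ j, ∀ σ ∈ (Pv.P j).inertiaSubgroupIn ℚ, X.DQ.ρ.residual.ρ σ = 1 :=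
    fun j σ hσ => H77.resid_eq_one_of_isEquiv ρbar X.DQ.ρ X.DQ.residual_isEquiv σ
      ((hPV.hex j).2.2.1 (Pv.P j) (Pv.P_over j) σ hσ)
  exact pvUnip_modQ p hp g Pv hqp X.DQ.R X.DQ.ρ hresQ X.bQ X.γ X.γ_coord
    (CuspForm.heckeLocal (twLevel N1 qv) (↑(twSet S qv) : Set ℕ) 𝒪 (θ.comp X.G.G1.rest))
    HQ1.ρ hdet1 hU _ X.φQ res hf1 he X.G.W.V X.G.G1.W.V X.G.c X.G.κ X.G.ker_κ X.ηW ηW1 hκ
    f hf v

end Fermat.Agent.L.Pivot.H76

end
-- ==== END Fermat.Agent.L.Pivot.H76_PVUnip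

-- ==== BEGIN Fermat.Agent.L.Pivot.H77_AsmAbs
section

/-!
# PIVOT (item 66), package PV-ASM-CORE (helper77): the abstract steps

* `resid_isEquiv_of_tau` : the residual representation of `ρT` is `ρbar`, when `ρT` is the base
  change of a deformation `ρR` of `ρbar` along a local homomorphism `τ : R → T`;
* `compat_tau` : `res ∘ φQ = τ` (universal property of the deformation ring, `H57.stmt_COMPAT`);
* `sub_mem_of_resid_unram` : `ρT (σ) ≡ 1` modulo the maximal ideal when `ρbar (σ) = 1`.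
-/

set_option autoImplicit false
set_option linter.unusedSectionVars false
set_option linter.unusedVariables false

open Polynomial CuspForm IsLocalRing

namespace Fermat.Agent.L.Pivot.H77

open Fermat.Agent.S59 Fermat.Agent.S59.Asm Fermat.Agent.S59.Asm.H77

/-- the residue field map of a composition with the structure map -/
theorem residueField_map_comp_algebraMap {𝒪 : Type} [CommRing 𝒪] [IsLocalRing 𝒪]
    {R : Type} [CommRing R] [IsLocalRing R] [Algebra 𝒪 R] [IsLocalHom (algebraMap 𝒪 R)]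
    {T : Type} [CommRing T] [IsLocalRing T] [Algebra 𝒪 T] [IsLocalHom (algebraMap 𝒪 T)]
    (τ : R →ₐ[𝒪] T) [IsLocalHom (τ : R →+* T)] :
    (ResidueField.map (τ : R →+* T)).comp (ResidueField.map (algebraMap 𝒪 R)) =
      ResidueField.map (algebraMap 𝒪 T) := by
  refine RingHom.ext fun x => ?_
  obtain ⟨a, rfl⟩ := residue_surjective x
  rw [RingHom.comp_apply, ResidueField.map_residue, ResidueField.map_residue,
    ResidueField.map_residue]
  congr 1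
  exact τ.commutes a

/-- **the residual representation of a base change of a deformation of `ρbar`.** -/
theorem resid_isEquiv_of_tau {𝒪 : Type} [CommRing 𝒪] [IsLocalRing 𝒪]
    (ρbar : ResidualGaloisRep (ResidueField 𝒪)) (habs : ρbar.IsAbsolutelyIrreducible)
    {R : Type} [CommRing R] [IsLocalRing R] [Algebra 𝒪 R] [IsLocalHom (algebraMap 𝒪 R)]
    {T : Type} [CommRing T] [IsLocalRing T] [Algebra 𝒪 T] [IsLocalHom (algebraMap 𝒪 T)]
    (ρR : GaloisRepAdic R) (ρT : GaloisRepAdic T)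
    (hR : ρR.residual.IsEquiv (ρbar.baseChangeAlong (ResidueField.map (algebraMap 𝒪 R))))
    (τ : R →ₐ[𝒪] T) (hτl : IsLocalHom (τ : R →+* T))
    (hτe : (ρR.baseChangeAlong (τ : R →+* T) hτl).IsEquiv ρT) :
    ρT.residual.IsEquiv (ρbar.baseChangeAlong (ResidueField.map (algebraMap 𝒪 T))) := by
  have := hτl
  refine Fermat.Agent.S59.Datum.H57.isEquiv_of_charpoly_eq _ _
    (Fermat.Agent.S59.Datum.H57.absIrr_baseChangeAlong _ ρbar habs) fun σ => ?_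
  have h2 := charpoly_of_isEquiv_resid hR σ
  rw [charpoly_resid, charpoly_bcAlong_resid] at h2
  have h1 : (residue T).comp (τ : R →+* T) = (ResidueField.map (τ : R →+* T)).comp (residue R) :=
    (ResidueField.map_comp_residue _).symm
  rw [charpoly_resid, ← charpoly_of_isEquiv hτe σ, charpoly_bcAlong, Polynomial.map_map,
    charpoly_bcAlong_resid, h1, ← Polynomial.map_map, h2, Polynomial.map_map,
    residueField_map_comp_algebraMap τ]

/-- **Step 5 of PV-ASM**, abstract form: `res ∘ φQ = τ`. -/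
theorem compat_tau {𝒪 : Type} [CommRing 𝒪] [IsDomain 𝒪] [IsDiscreteValuationRing 𝒪]
    [IsAdicComplete (maximalIdeal 𝒪) 𝒪]
    (ρbar : ResidualGaloisRep (ResidueField 𝒪))
    (𝒟Q : ∀ ⦃A : Type⦄ [CommRing A] [IsLocalRing A] [Algebra 𝒪 A], GaloisRepAdic A → Prop)
    (DQ : GaloisRep.DeformationRingData 𝒪 ρbar 𝒟Q)
    {T : Type} [CommRing T] [IsLocalRing T] [IsNoetherianRing T]
    [IsAdicComplete (maximalIdeal T) T] [Algebra 𝒪 T] [IsLocalHom (algebraMap 𝒪 T)]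
    {TQ : Type} [CommRing TQ] [IsLocalRing TQ] [Algebra 𝒪 TQ] [Module.Finite 𝒪 TQ]
    [IsLocalHom (algebraMap 𝒪 TQ)]
    (hsurj : Function.Surjective (residue T ∘ algebraMap 𝒪 T))
    (ρT : GaloisRepAdic T) (hρT : 𝒟Q ρT)
    (ρTQ : GaloisRepAdic TQ)
    (τ : DQ.R →ₐ[𝒪] T) (hτl : IsLocalHom (τ : DQ.R →+* T))
    (hτe : (DQ.ρ.baseChangeAlong (τ : DQ.R →+* T) hτl).IsEquiv ρT)
    (φQ : DQ.R →ₐ[𝒪] TQ) (hφQ : IsLocalHom (φQ : DQ.R →+* TQ))
    (hφQe : (DQ.ρ.baseChangeAlong (φQ : DQ.R →+* TQ) hφQ).IsEquiv ρTQ)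
    (res : TQ →ₐ[𝒪] T) (S' : Finset ℕ)
    (hfrob : ∀ ℓ : ℕ, ℓ.Prime → ℓ ∉ S' → ∀ B : ValuationSubring (AlgebraicClosure ℚ),
      B.LiesOverPrime ℓ → ∀ σ : GalQ, B.IsFrobeniusAt σ ℓ →
        (LinearMap.charpoly (ρTQ.ρ σ)).map (res : TQ →+* T) = LinearMap.charpoly (ρT.ρ σ)) :
    res.comp φQ = τ := by
  have hresl : IsLocalHom (res : TQ →+* T) := isLocalHom_of_finite (𝒪 := 𝒪) res
  have h₁ : IsLocalHom ((res.comp φQ : DQ.R →ₐ[𝒪] T) : DQ.R →+* T) :=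
    isLocalHom_comp_algHom res φQ hresl hφQ
  have hres : ρT.residual.IsEquiv (ρbar.baseChangeAlong (ResidueField.map (algebraMap 𝒪 T))) :=
    resid_isEquiv_of_tau ρbar DQ.absIrr DQ.ρ ρT DQ.residual_isEquiv τ hτl hτe
  refine H57.stmt_COMPAT 𝒪 ρbar 𝒟Q DQ T hsurj ρT hρT hres (res.comp φQ) τ h₁ hτl S' ?_ hτe
  intro ℓ hℓ hℓS B hB σ hσ
  rw [charpoly_bcAlong, ← hfrob ℓ hℓ hℓS B hB σ hσ, ← charpoly_of_isEquiv hφQe σ,
    charpoly_bcAlong, Polynomial.map_map]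
  rfl

/-- `cond` contains the determinant condition -/
theorem cond_det {𝒪 : Type} [CommRing 𝒪] {p : ℕ} {fl : Bool} {Smin T : Finset ℕ}
    {A : Type} [CommRing A] [IsLocalRing A] [Algebra 𝒪 A] {ρ : GaloisRepAdic A}
    (h : cond 𝒪 p fl Smin T ρ) : ρ.DetIsCyclotomic p := by
  cases fl
  · exact h.1.1
  · exact h.1.1

/-- `ρT (σ) ≡ 1` modulo the maximal ideal when `ρbar (σ) = 1`. -/
theorem sub_mem_of_resid_unram {𝒪 : Type} [CommRing 𝒪] [IsLocalRing 𝒪]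
    {T : Type} [CommRing T] [IsLocalRing T] [Algebra 𝒪 T] [IsLocalHom (algebraMap 𝒪 T)]
    (ρbar : ResidualGaloisRep (ResidueField 𝒪)) (ρT : GaloisRepAdic T)
    (h : ρT.residual.IsEquiv (ρbar.baseChangeAlong (ResidueField.map (algebraMap 𝒪 T))))
    (b : Module.Basis (Fin 2) T ρT.V)
    (σ : GalQ) (hσ : ρbar.ρ σ = 1) (v : ρT.V) :
    ρT.ρ σ v - v ∈ (maximalIdeal T • ⊤ : Submodule T ρT.V) :=
  Fermat.Agent.L.Pivot.H59.sub_mem_of_baseChange_eq_one b (ρT.ρ σ)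
    (resid_eq_one_of_isEquiv ρbar ρT h σ hσ) v

end Fermat.Agent.L.Pivot.H77

end
-- ==== END Fermat.Agent.L.Pivot.H77_AsmAbs
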