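-- GENERATED (merged mirror, NOTES/tools/trim/merge3_helper67.py): 4 modules of the originals, bodies verbatim.
import Mathlib
import Fermat.Agent.Zm.S43_L12_000
import Fermat.Agent.Zm.S43_L05_002
import Fermat.Agent.Zm.S43_L01_002
import Fermat.Agent.Zm.S43_L08_002
import Fermat.Agent.Zm.S43_L11_001
import Fermat.Agent.Zm.S43_L01_001
import Fermat.Agent.Zm.S43_L12_001
import Fermat.Agent.Zm.S48_L07_000
import Fermat.Agent.Zm.S43_L02_003
import Fermat.Agent.Zm.S43_L03_005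
import Fermat.Agent.Zm.S44_L14_000
import Fermat.Agent.Zm.S43_L04_001
import Fermat.Agent.Zm.S43_L10_001

-- ==== BEGIN Fermat.Agent.NEB.Geom.AsmDefs
section

/-!
# Item 72 (LG-NEB), package NEB-GEOM (helper84): the assembly — setups and field statements

* `MinSetup`  : the level-`N` data (output of `Stmt_W_MD`); `MinSetup.MD : HDiv`.
* `TwSetup`   : all choices at a Taylor–Wiles family (`ℓ₀`, `P_j`, `frob_j`, `σ_j`, `α_j`, lifts,
  commutation, divisibility of `W`, the Hecke action on `W`).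
* `TwSetup.WD`, `TwSetup.galHom`, `TwSetup.gal`, `TwSetup.d` : the objects of `TWDiv`.
* `Stmt_A_*`  : the fields of `TWDiv` for these objects, as `Prop`s (leaves of the assembly).

Definitions and statements only; no `sorry`.
-/

set_option autoImplicit false
set_option linter.unusedSectionVars false

noncomputable section

open ModularCurve AlgebraicCurve IsLocalRing TensorProduct Polynomial

namespace Fermat.Agent.NEB.Geom

open Fermat.Agent.NEB Fermat.Agent.NEB.JH Fermat.Agent.S59.Asm Fermat.Agent.S59.Lim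
  Fermat.Agent.S59.Lim.H2

variable (𝒪 : Type) [CommRing 𝒪] [IsDomain 𝒪] [IsDiscreteValuationRing 𝒪]
  (ϖ : 𝒪) (p : ℕ) (N : ℕ) [NeZero N] (S : Finset ℕ)
  (θ : CuspForm.heckeAlgebra N 2 (↑S : Set ℕ) →+* ResidueField 𝒪)

/-- The level-`N` data: the Hecke action on `J₀(N)[p^∞]` and its properties. -/
structure MinSetup where
  ηC : CuspForm.heckeAlgebra N 2 (↑S : Set ℕ) →+* Module.End ℤ (A0 N p)
  ηC_T : ∀ (ℓ : ℕ) (hℓ : ℓ.Prime) (hℓN : ¬ ℓ ∣ N) (hℓS : ℓ ∉ (↑S : Set ℕ)),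
    ηC (CuspForm.heckeAlgebra.T hℓ hℓN hℓS) = Tz0 N p ℓ
  gal_comm : ∀ (σ : _root_.Fermat.Agent.NEB.Geom.GalQ) (t : CuspForm.heckeAlgebra N 2 (↑S : Set ℕ)),
    Commute (ηC t) (galZ0 N p σ)
  hW : IsDiv ϖ (𝒪 ⊗[ℤ] A0 N p)
  es : ∀ (ℓ : ℕ), ℓ.Prime → ¬ ℓ ∣ N → ℓ ≠ p →
    ∀ P : ValuationSubring Kbar, P.LiesOverPrime ℓ → ∀ σ : _root_.Fermat.Agent.NEB.Geom.GalQ, P.IsFrobeniusAt σ ℓ →
      galZ0 N p σ * galZ0 N p σ - Tz0 N p ℓ * galZ0 N p σ
        + (ℓ : ℤ) • (1 : Module.End ℤ (A0 N p)) = 0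
  unr : ∀ (q : ℕ), q.Prime → ¬ q ∣ N → q ≠ p →
    ∀ P : ValuationSubring Kbar, P.LiesOverPrime q → ∀ σ ∈ P.inertiaSubgroupIn ℚ,
      galZ0 N p σ = 1
  cont : ∀ x : A0 N p, ∃ L : IntermediateField ℚ Kbar, FiniteDimensional ℚ L ∧
    ∀ σ : _root_.Fermat.Agent.NEB.Geom.GalQ, (∀ y ∈ L, σ y = y) → galZ0 N p σ x = x
  nontriv : Nontrivial ↥(thetaPart ηC θ)

variable {𝒪 ϖ p N S θ}

/-- The minimal-level divisible Hecke module. -/
def MinSetup.MD (D : MinSetup 𝒪 ϖ p N S θ) : Fermat.Agent.S59.Lim.HDiv 𝒪 ϖ N (↑S : Set ℕ) θ :=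
  hdivOf θ D.ηC D.hW

/-- The Galois action on `MD.W`. -/
def MinSetup.gal (D : MinSetup 𝒪 ϖ p N S θ) : _root_.Fermat.Agent.NEB.Geom.GalQ →* Module.End 𝒪 D.MD.W :=
  thetaGal θ (galZ0 N p) D.gal_comm

variable (𝒪 ϖ p N S θ)

/-- All choices at a Taylor–Wiles family. -/
structure TwSetup (ρbar : ResidualGaloisRep (ResidueField 𝒪)) (n : ℕ) {r : ℕ} (qv : Fin r → ℕ)
    [NeZero (N * twC qv)] [NeZero (twC qv)] [NeZero (twLevel N qv)] where
  hTW : TwHyp N S p n qv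
  h2 : 2 ≤ twC qv
  hcomm : ∀ i j, Commute (opsTw N S p n qv h2 i) (opsTw N S p n qv h2 j)
  hcommG : ∀ i σ, Commute (opsTw N S p n qv h2 i)
    (galZ (N * twC qv) (twC qv) (twH p n qv) p σ)
  /-- the chosen eigenvalue of `ρbar(frob_j)` and the other one -/
  α : Fin r → ResidueField 𝒪
  β : Fin r → ResidueField 𝒪
  eig : TwEig 𝒪 N S qv θ α β
  a : Fin r → 𝒪
  a' : Fin r → 𝒪
  ha : ∀ j, residue 𝒪 (a j) = α j
  ha' : ∀ j, residue 𝒪 (a' j) = β j
  /-- a non-Eisenstein good prime -/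
  ℓ₀ : ℕ
  hℓ₀ : GoodTw N S qv ℓ₀
  hne : θ (CuspForm.heckeAlgebra.T hℓ₀.1 hℓ₀.not_dvd hℓ₀.not_mem) ≠ ((ℓ₀ : ResidueField 𝒪) + 1)
  P : Fin r → ValuationSubring Kbar
  P_over : ∀ j, (P j).LiesOverPrime (qv j)
  frob : Fin r → _root_.Fermat.Agent.NEB.Geom.GalQ
  frob_spec : ∀ j, (P j).IsFrobeniusAt (frob j) (qv j)
  σ : Fin r → _root_.Fermat.Agent.NEB.Geom.GalQ
  σ_mem : ∀ j, σ j ∈ (P j).inertiaSubgroupIn ℚ
  hδ : IsDeltaGen p n qv
    (fun j => Fermat.Agent.NEB.Geom.H6.chiC (twC qv) (σ j) ^ (jTw p n + 1))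
  charpoly_frob : ∀ j, LinearMap.charpoly (ρbar.ρ (frob j)) =
    (X - C (residue 𝒪 (a j))) * (X - C (residue 𝒪 (a' j)))
  isDiv : IsDiv ϖ ↥(Wtw 𝒪 N S p n qv h2 hcomm θ α)
  η : CuspForm.heckeAlgebra (twLevel N qv) 2 (↑(twSet S qv) : Set ℕ) →+*
    Module.End 𝒪 ↥(Wtw 𝒪 N S p n qv h2 hcomm θ α)
  η_T : ∀ (ℓ : ℕ) (hℓ : ℓ.Prime) (hℓN : ¬ ℓ ∣ twLevel N qv)
    (hℓS : ℓ ∉ (↑(twSet S qv) : Set ℕ)),
    η (CuspForm.heckeAlgebra.T hℓ hℓN hℓS) =
      thetaEta (etaTw N S p n qv h2 hcomm) (thetaTw N S qv θ α) (MvPolynomial.X (Sum.inl ℓ))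
  η_local : ∀ (t : CuspForm.heckeAlgebra (twLevel N qv) 2 (↑(twSet S qv) : Set ℕ)) (a₀ : 𝒪),
    residue 𝒪 a₀ = (θ.comp (Fermat.Agent.S59.Asm.H41.restTW N S qv hTW.prime)) t →
    ∀ x : ↥(Wtw 𝒪 N S p n qv h2 hcomm θ α), ϖ • x = 0 →
      ∃ m : ℕ, ((η t - a₀ • (1 : Module.End 𝒪 ↥(Wtw 𝒪 N S p n qv h2 hcomm θ α))) ^ m) x = 0

variable {𝒪 ϖ p N S θ}

/-- The twist of a monoid homomorphism `f` by a commuting character: `σ ↦ f σ * g (χ σ) ^ k`. -/
def twistHom {G G' E : Type*} [Monoid G] [CommMonoid G'] [Monoid E] (f : G →* E) (g : G' →* E)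
    (χ : G →* G') (k : ℕ) (hc : ∀ u τ, Commute (g u) (f τ)) : G →* E where
  toFun σ := f σ * g (χ σ) ^ k
  map_one' := by
    rw [map_one, map_one, map_one, one_pow, mul_one]
  map_mul' σ τ := by
    have hxy : Commute (g (χ σ)) (g (χ τ)) := (Commute.all _ _).map g
    have h1 : Commute (g (χ σ) ^ k) (f τ) := (hc _ τ).pow_left k
    rw [map_mul, map_mul, map_mul, hxy.mul_pow, mul_assoc, mul_assoc,
      ← mul_assoc (f τ), ← h1.eq, mul_assoc]

theorem twistHom_apply {G G' E : Type*} [Monoid G] [CommMonoid G'] [Monoid E] (f : G →* E)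
    (g : G' →* E) (χ : G →* G') (k : ℕ) (hc : ∀ u τ, Commute (g u) (f τ)) (σ : G) :
    twistHom f g χ k hc σ = f σ * g (χ σ) ^ k := rfl

section Objects

variable {ρbar : ResidualGaloisRep (ResidueField 𝒪)} {n : ℕ} {r : ℕ} {qv : Fin r → ℕ}
  [NeZero (N * twC qv)] [NeZero (twC qv)] [NeZero (twLevel N qv)]
  (D : TwSetup 𝒪 ϖ p N S θ ρbar n qv)

/-- The generators of `Δ`: `δ_j = χ_c(σ_j)^{j₀+1}`. -/
def TwSetup.δ (j : Fin r) : (ZMod (twC qv))ˣ :=
  Fermat.Agent.NEB.Geom.H6.chiC (twC qv) (D.σ j) ^ (jTw p n + 1)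

/-- The divisible Hecke module at the Taylor–Wiles level. -/
def TwSetup.WD : Fermat.Agent.S59.Lim.HDiv 𝒪 ϖ (twLevel N qv) (↑(twSet S qv) : Set ℕ)
    (θ.comp (Fermat.Agent.S59.Asm.H41.restTW N S qv D.hTW.prime)) where
  W := ↥(Wtw 𝒪 N S p n qv D.h2 D.hcomm θ D.α)
  isDiv := D.isDiv
  η := D.η
  η_local := D.η_local

/-- The diamond operators commute with `η⁺`. -/
theorem TwSetup.comm_dia (u : (ZMod (twC qv))ˣ) (t : PolyTw r (twC qv)) :
    Commute (etaTw N S p n qv D.h2 D.hcomm t)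
      (diaZ (N * twC qv) (twC qv) (twH p n qv) D.h2 (dvd_mul_left _ _) p u) := by
  have h : etaTw N S p n qv D.h2 D.hcomm (MvPolynomial.X (Sum.inr (Sum.inr u)))
      = diaZ (N * twC qv) (twC qv) (twH p n qv) D.h2 (dvd_mul_left _ _) p u :=
    polyHom_X _ _ _
  rw [← h]
  exact (Commute.all t _).map (etaTw N S p n qv D.h2 D.hcomm)

/-- The Galois action commutes with `η⁺`. -/
theorem TwSetup.comm_gal (σ : _root_.Fermat.Agent.NEB.Geom.GalQ) (t : PolyTw r (twC qv)) :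
    Commute (etaTw N S p n qv D.h2 D.hcomm t)
      (galZ (N * twC qv) (twC qv) (twH p n qv) p σ) := by
  induction t using MvPolynomial.induction_on with
  | C a =>
    have : etaTw N S p n qv D.h2 D.hcomm (MvPolynomial.C a)
        = (a : Module.End ℤ (AH (N * twC qv) (twC qv) (twH p n qv) p)) := by
      rw [show (MvPolynomial.C a : PolyTw r (twC qv)) = ((a : ℤ) : PolyTw r (twC qv)) from
        (eq_intCast (MvPolynomial.C : ℤ →+* PolyTw r (twC qv)) a), map_intCast]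
    rw [this]
    exact Int.cast_commute a _
  | add f g hf hg =>
    rw [map_add]
    exact hf.add_left hg
  | mul_X f i hf =>
    rw [map_mul]
    refine hf.mul_left ?_
    have h : etaTw N S p n qv D.h2 D.hcomm (MvPolynomial.X i) = opsTw N S p n qv D.h2 i :=
      polyHom_X _ _ _
    rw [h]
    exact D.hcommG i σ

/-- The twisted Galois action `σ ↦ σ ⟨χ_c σ⟩^{j₀+1}` on `J_H[p^∞]`. -/
def TwSetup.galHom : _root_.Fermat.Agent.NEB.Geom.GalQ →* Module.End ℤ (AH (N * twC qv) (twC qv) (twH p n qv) p) :=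
  twistHom (galZ (N * twC qv) (twC qv) (twH p n qv) p)
    (diaZ (N * twC qv) (twC qv) (twH p n qv) D.h2 (dvd_mul_left _ _) p)
    (Fermat.Agent.NEB.Geom.H6.chiC (twC qv)) (jTw p n + 1)
    (fun u τ => D.hcommG (Sum.inr (Sum.inr u)) τ)

theorem TwSetup.galHom_apply (σ : _root_.Fermat.Agent.NEB.Geom.GalQ) :
    D.galHom σ = galZ (N * twC qv) (twC qv) (twH p n qv) p σ *
      diaZ (N * twC qv) (twC qv) (twH p n qv) D.h2 (dvd_mul_left _ _) p
        (Fermat.Agent.NEB.Geom.H6.chiC (twC qv) σ) ^ (jTw p n + 1) := rfl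

theorem TwSetup.comm_galHom (σ : _root_.Fermat.Agent.NEB.Geom.GalQ) (t : PolyTw r (twC qv)) :
    Commute (etaTw N S p n qv D.h2 D.hcomm t) (D.galHom σ) := by
  rw [D.galHom_apply]
  exact (D.comm_gal σ t).mul_right ((D.comm_dia _ t).pow_right _)

/-- The underlying element of `𝒪 ⊗ J_H[p^∞]`. -/
def TwSetup.val (x : D.WD.W) : 𝒪 ⊗[ℤ] AH (N * twC qv) (twC qv) (twH p n qv) p :=
  Subtype.val (p := fun y => y ∈ Wtw 𝒪 N S p n qv D.h2 D.hcomm θ D.α) x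

/-- The twisted Galois action on `W`. -/
def TwSetup.gal : _root_.Fermat.Agent.NEB.Geom.GalQ →* Module.End 𝒪 D.WD.W :=
  thetaGal (thetaTw N S qv θ D.α) D.galHom D.comm_galHom

/-- The diamond operators `d_j = ⟨δ_j⟩` on `W`. -/
def TwSetup.d (j : Fin r) : Module.End 𝒪 D.WD.W :=
  thetaZ (thetaTw N S qv θ D.α)
    (diaZ (N * twC qv) (twC qv) (twH p n qv) D.h2 (dvd_mul_left _ _) p (D.δ j))
    (fun t => D.comm_dia (D.δ j) t)

end Objects

/-! ## The fields of `TWDiv` as leaves -/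

section Fields

variable {ρbar : ResidualGaloisRep (ResidueField 𝒪)} {n : ℕ} {r : ℕ} {qv : Fin r → ℕ}
  [NeZero (N * twC qv)] [NeZero (twC qv)] [NeZero (twLevel N qv)]
  (Dm : MinSetup 𝒪 ϖ p N S θ) (D : TwSetup 𝒪 ϖ p N S θ ρbar n qv)

/-- **A-GAL**: continuity and commutation of the twisted Galois action; the diamond operators. -/
def Stmt_A_gal : Prop :=
  (∀ x : D.WD.W, ∃ L : IntermediateField ℚ Kbar, FiniteDimensional ℚ L ∧
    ∀ σ : _root_.Fermat.Agent.NEB.Geom.GalQ, (∀ y ∈ L, σ y = y) → D.gal σ x = x) ∧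
  (∀ (g : _root_.Fermat.Agent.NEB.Geom.GalQ) (t : CuspForm.heckeAlgebra (twLevel N qv) 2 (↑(twSet S qv) : Set ℕ)),
    Commute (D.gal g) (D.WD.η t)) ∧
  (∀ j, D.d j ^ (p ^ n) = 1) ∧
  (∀ i j, Commute (D.d i) (D.d j)) ∧
  (∀ (j : Fin r) (t : CuspForm.heckeAlgebra (twLevel N qv) 2 (↑(twSet S qv) : Set ℕ)),
    Commute (D.d j) (D.WD.η t)) ∧
  (∀ (j : Fin r) (g : _root_.Fermat.Agent.NEB.Geom.GalQ), Commute (D.d j) (D.gal g))

/-- **A-ES**: Eichler–Shimura on `W`. -/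
def Stmt_A_es : Prop :=
  ∀ (ℓ : ℕ) (hℓ : ℓ.Prime) (hℓN : ¬ ℓ ∣ twLevel N qv)
    (hℓS : ℓ ∉ (↑(twSet S qv) : Set ℕ)),
    ∀ A : ValuationSubring Kbar, A.LiesOverPrime ℓ →
      ∀ σ : _root_.Fermat.Agent.NEB.Geom.GalQ, A.IsFrobeniusAt σ ℓ →
        D.gal σ * D.gal σ - D.WD.η (CuspForm.heckeAlgebra.T hℓ hℓN hℓS) * D.gal σ
          + (ℓ : 𝒪) • (1 : Module.End 𝒪 D.WD.W) = 0

/-- **A-HSTEP**: norm surjectivity along the tower on `W[ϖ]`. -/
def Stmt_A_hstep : Prop :=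
  ∀ (j : Fin r) (v : D.WD.W), ϖ • v = 0 → (∀ i, i ≤ j → D.d i v = v) →
    ∃ w : D.WD.W, ϖ • w = 0 ∧ (∀ i, i < j → D.d i w = w) ∧
      Fermat.Agent.S59.TWH.H90.nm (p ^ n) (D.d j) w = v

/-- **A-PI**: the maps `π`, `πup` with the properties required by `TWDiv`, and the Galois
equivariance of `πup` for the untwisted action (used by A-FROBNIL and A-LG). -/
def Stmt_A_pi : Prop :=
  ∃ (π : D.WD.W →ₗ[𝒪] Dm.MD.W) (πup : Dm.MD.W →ₗ[𝒪] D.WD.W),
    Function.Injective πup ∧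
    (∀ x : D.WD.W, πup (π x) = Fermat.Agent.S59.TWH.H90.nmTot (p ^ n) D.d x) ∧
    (∀ (j : Fin r) (y : Dm.MD.W), D.d j (πup y) = πup y) ∧
    (∀ v : D.WD.W, ϖ • v = 0 → (∀ j, D.d j v = v) → ∃ y : Dm.MD.W, πup y = v) ∧
    (∀ (t : CuspForm.heckeAlgebra (twLevel N qv) 2 (↑(twSet S qv) : Set ℕ)) (v : D.WD.W),
      π (D.WD.η t v) = Dm.MD.η (Fermat.Agent.S59.Asm.H41.restTW N S qv D.hTW.prime t) (π v)) ∧
    (∀ (σ : _root_.Fermat.Agent.NEB.Geom.GalQ) (y : Dm.MD.W),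
      D.val (πup (Dm.gal σ y))
        = (galZ (N * twC qv) (twC qv) (twH p n qv) p σ).baseChange 𝒪 (D.val (πup y)))

/-- **A-FROBNIL**: `(F - a)(F - a')` is nilpotent on `W[ϖ]`, `F = gal (frob j)`. -/
def Stmt_A_frob_nil : Prop :=
  ∀ (j : Fin r) (x : D.WD.W), ϖ • x = 0 → ∃ m : ℕ,
    (((D.gal (D.frob j) - D.a j • (1 : Module.End 𝒪 D.WD.W)) *
      (D.gal (D.frob j) - D.a' j • (1 : Module.End 𝒪 D.WD.W))) ^ m) x = 0

/-- **A-LG**: the inertia element `σ_j` acts on the generalised `a_j`-eigenspace of `frob_j`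
as `d_j`. -/
def Stmt_A_lg : Prop :=
  ∀ (j : Fin r) (x : D.WD.W),
    x ∈ gk (D.gal (D.frob j) - D.a j • (1 : Module.End 𝒪 D.WD.W)) →
    D.gal (D.σ j) x = D.d j x

end Fields

end Fermat.Agent.NEB.Geom

end
end
-- ==== END Fermat.Agent.NEB.Geom.AsmDefs

-- ==== BEGIN Fermat.Agent.NEB.Geom.H26_WMD2
section

/-!
# Item 72 (LG-NEB), package NEB-GEOM, leaf W-MD, part 2 (helper26): the `θ`-part is nontrivial

`B = J₀(N)[p]` with the Hecke action `etaB` (restriction of `ηC`) and the coordinates `θ₁` of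
helper81.  A left eigenvector `c` of the Hecke matrices modulo `p` (helper6, N1) gives a
Hecke-eigen functional `μ : B → k`; by N2 (helper6, `Stmt_N2`) the `θ`-part of `𝒪 ⊗ B` is
nontrivial, and it embeds into the `θ`-part of `𝒪 ⊗ J₀(N)[p^∞]` (flatness, helper2).

* `Stmt_N2` : the abstract step (finite `B` killed by `p` with an eigen-functional);
* `nontrivial_thetaPart_a0 : Stmt_N2 → … → Nontrivial (thetaPart ηC θ)`.
-/

set_option autoImplicit false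
set_option linter.unusedSectionVars false
set_option linter.style.haveILetI false
set_option maxHeartbeats 1000000

noncomputable section

open ModularCurve AlgebraicCurve IsLocalRing TensorProduct

namespace Fermat.Agent.NEB.Geom.H26

open Fermat.Agent.NEB Fermat.Agent.NEB.JH Fermat.Agent.GTor Fermat.Agent.GTor.H81
  Fermat.Agent.Betti Fermat.Agent.GTor.H58T1 Fermat.Agent.S59.Lim Fermat.Agent.S59.Lim.H2

/-- **N2** (abstract): the `θ`-part of `𝒪 ⊗ B` is nontrivial if the finite group `B`, killed by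
`p`, carries a Hecke-eigen functional. -/
def Stmt_N2 : Prop :=
  ∀ (𝒪 : Type) [CommRing 𝒪] [IsDomain 𝒪] [IsDiscreteValuationRing 𝒪] [Finite (ResidueField 𝒪)]
    (p : ℕ), (p : 𝒪) ∈ maximalIdeal 𝒪 → (p : 𝒪) ≠ 0 →
    ∀ (𝕋 : Type) [CommRing 𝕋] (B : Type) [AddCommGroup B] [Finite B], (∀ b : B, p • b = 0) →
    ∀ (η : 𝕋 →+* Module.End ℤ B) (θ : 𝕋 →+* ResidueField 𝒪) (μ : B →+ ResidueField 𝒪),
      (∀ t x, μ (η t x) = θ t * μ x) → ∀ x₀ : B, μ x₀ ≠ 0 → Nontrivial ↥(thetaPart η θ)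

section B

variable (N p : ℕ) [NeZero N] {S : Set ℕ}

/-- The Hecke action on `J₀(N)[p]`. -/
def etaB (ηC : CuspForm.heckeAlgebra N 2 S →+* Module.End ℤ (A0 N p)) :
    CuspForm.heckeAlgebra N 2 S →+* Module.End ℤ (Jtor N (p ^ 1)) :=
  ((addMonoidEndRingEquivInt (Jtor N (p ^ 1)) : AddMonoid.End (Jtor N (p ^ 1)) ≃+* _) :
    AddMonoid.End (Jtor N (p ^ 1)) →+* Module.End ℤ (Jtor N (p ^ 1))).comp
    ((resK N p 1).comp ηC)

theorem etaB_apply (ηC : CuspForm.heckeAlgebra N 2 S →+* Module.End ℤ (A0 N p))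
    (t : CuspForm.heckeAlgebra N 2 S) (x : Jtor N (p ^ 1)) :
    etaB N p ηC t x = resK N p 1 (ηC t) x := rfl

/-- `J₀(N)[p] → J₀(N)[p^∞]` as a linear map. -/
def incB : Jtor N (p ^ 1) →ₗ[ℤ] A0 N p := (incK N p 1).toIntLinearMap

theorem incB_apply (x : Jtor N (p ^ 1)) : incB N p x = incK N p 1 x := rfl

theorem incB_injective : Function.Injective (incB N p) := incK_injective N p 1

theorem incB_etaB (ηC : CuspForm.heckeAlgebra N 2 S →+* Module.End ℤ (A0 N p))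
    (t : CuspForm.heckeAlgebra N 2 S) : incB N p ∘ₗ etaB N p ηC t = ηC t ∘ₗ incB N p := by
  refine LinearMap.ext fun x => ?_
  rw [LinearMap.comp_apply, LinearMap.comp_apply, incB_apply, incB_apply, etaB_apply,
    incK_resK]

theorem smul_Jtor_one (x : Jtor N (p ^ 1)) : p • x = 0 := by
  have h : (p ^ 1) • incK N p 1 x = 0 := pow_smul_incK N p 1 x
  have h' : p • incK N p 1 x = 0 := by
    have e : (p ^ 1 : ℕ) = p := pow_one p
    exact (congrArg (fun m : ℕ => m • incK N p 1 x) e).symm.trans h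
  apply incK_injective N p 1
  rw [map_nsmul, h', map_zero]

end B

/-! ## The eigen-functional -/

section Mu

variable {N p : ℕ} [NeZero N] {S : Set ℕ} (C : TateCoords N p S)
  {k : Type} [Field k] [CharP k p]

/-- The coefficient map `ℤ/p → k`. -/
def castK (p : ℕ) (k : Type) [Field k] [CharP k p] : ZMod (p ^ 1) →+* k :=
  ZMod.castHom (dvd_pow_self p one_ne_zero) k

/-- The functional `w ↦ ∑ i, (w i) c i` on `(ℤ/p)^r`. -/
def phiBar (c : Fin C.r → k) : (Fin C.r → ZMod (p ^ 1)) →+ k where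
  toFun w := ∑ i, castK p k (w i) * c i
  map_zero' := by
    refine Finset.sum_eq_zero fun i _ => ?_
    rw [Pi.zero_apply, map_zero, zero_mul]
  map_add' := fun w w' => by
    rw [← Finset.sum_add_distrib]
    refine Finset.sum_congr rfl fun i _ => ?_
    rw [Pi.add_apply, map_add, add_mul]

theorem phiBar_apply (c : Fin C.r → k) (w : Fin C.r → ZMod (p ^ 1)) :
    phiBar C c w = ∑ i, castK p k (w i) * c i := rfl

/-- The functional on `J₀(N)[p]`. -/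
def muB (c : Fin C.r → k) : Jtor N (p ^ 1) →+ k :=
  (phiBar C c).comp (C.θ 1).toAddMonoidHom

theorem muB_apply (c : Fin C.r → k) (x : Jtor N (p ^ 1)) :
    muB C c x = phiBar C c (C.θ 1 x) := rfl

theorem phiBar_mulVec (c : Fin C.r → k) (A : Matrix (Fin C.r) (Fin C.r) ℤ) (a : k)
    (hc : Matrix.vecMul c (A.map (Int.cast : ℤ → k)) = a • c)
    (v : Fin C.r → ZMod (p ^ 1)) :
    phiBar C c ((A.map (Int.cast : ℤ → ZMod (p ^ 1))).mulVec v) = a * phiBar C c v := by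
  rw [phiBar_apply, phiBar_apply, Finset.mul_sum]
  have h1 : ∀ i, castK p k ((A.map (Int.cast : ℤ → ZMod (p ^ 1))).mulVec v i) * c i
      = ∑ j, castK p k (v j) * (c i * ((A i j : ℤ) : k)) := by
    intro i
    rw [Matrix.mulVec, dotProduct, map_sum, Finset.sum_mul]
    refine Finset.sum_congr rfl fun j _ => ?_
    rw [map_mul, Matrix.map_apply, map_intCast]
    ring
  rw [Finset.sum_congr rfl (fun i _ => h1 i), Finset.sum_comm]
  refine Finset.sum_congr rfl fun j _ => ?_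
  rw [← Finset.mul_sum]
  have h2 := congrFun hc j
  rw [Matrix.vecMul, dotProduct, Pi.smul_apply, smul_eq_mul] at h2
  have h3 : ∑ i, c i * ((A i j : ℤ) : k) = a * c j := by
    rw [← h2]
    refine Finset.sum_congr rfl fun i _ => ?_
    rw [Matrix.map_apply]
  rw [h3]
  ring

end Mu

/-! ## The `θ`-part -/

section Main

variable {N p : ℕ} [NeZero N] {S : Set ℕ}

/-- **The `θ`-part of `𝒪 ⊗ J₀(N)[p^∞]` is nontrivial** (given the abstract step N2). -/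
theorem nontrivial_thetaPart_a0 (hN2 : Stmt_N2) (hp : p.Prime) (C : TateCoords N p S)
    (ηC : CuspForm.heckeAlgebra N 2 S →+* Module.End ℤ (A0 N p))
    (hη : ∀ t k, matK C k (ηC t) = Mc (ZMod (p ^ k)) C.M t)
    (𝒪 : Type) [CommRing 𝒪] [IsDomain 𝒪] [IsDiscreteValuationRing 𝒪]
    [Finite (ResidueField 𝒪)] [CharZero 𝒪] (hpm : (p : 𝒪) ∈ maximalIdeal 𝒪)
    (θ : CuspForm.heckeAlgebra N 2 S →+* ResidueField 𝒪) :
    Nontrivial ↥(thetaPart ηC θ) := by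
  classical
  have hpk : ((p : ℕ) : ResidueField 𝒪) = 0 := by
    have h1 : residue 𝒪 (p : 𝒪) = 0 := (residue_eq_zero_iff _).mpr hpm
    rw [map_natCast] at h1
    exact h1
  haveI : CharP (ResidueField 𝒪) p := (CharP.charP_iff_prime_eq_zero hp).mpr hpk
  have hp0 : (p : 𝒪) ≠ 0 := Nat.cast_ne_zero.mpr hp.ne_zero
  obtain ⟨c, hc0, hc⟩ := Fermat.Agent.NEB.Geom.H6.exists_left_eigenvector C.M C.tate.inj θ
  haveI : NeZero (p ^ 1) := ⟨pow_ne_zero 1 hp.ne_zero⟩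
  haveI : Finite (Jtor N (p ^ 1)) := Finite.of_equiv _ (C.θ 1).symm.toEquiv
  -- the eigen-functional
  have hμ : ∀ (t : CuspForm.heckeAlgebra N 2 S) (x : Jtor N (p ^ 1)),
      muB C c (etaB N p ηC t x) = θ t * muB C c x := by
    intro t x
    rw [muB_apply, muB_apply, etaB_apply, ← matK_mulVec, hη]
    exact phiBar_mulVec C c (C.M t) (θ t) (hc t) (C.θ 1 x)
  obtain ⟨i, hi⟩ : ∃ i, c i ≠ 0 := by
    by_contra hcon
    exact hc0 (funext fun i => not_not.mp fun h => hcon ⟨i, h⟩)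
  have hx₀ : muB C c ((C.θ 1).symm (Pi.single i 1)) ≠ 0 := by
    rw [muB_apply, AddEquiv.apply_symm_apply, phiBar_apply, Finset.sum_eq_single i]
    · rw [Pi.single_eq_same, map_one, one_mul]
      exact hi
    · intro j _ hj
      rw [Pi.single_eq_of_ne hj, map_zero, zero_mul]
    · intro h
      exact absurd (Finset.mem_univ i) h
  haveI := hN2 𝒪 p hpm hp0 (CuspForm.heckeAlgebra N 2 S) (Jtor N (p ^ 1)) (smul_Jtor_one N p)
    (etaB N p ηC) θ (muB C c) hμ _ hx₀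
  haveI : Module.Flat ℤ 𝒪 := flat_int
  exact (thetaMap_injective (θ := θ) (incB N p) (incB_etaB N p ηC)
    (incB_injective N p)).nontrivial

end Main

end Fermat.Agent.NEB.Geom.H26

end
end
-- ==== END Fermat.Agent.NEB.Geom.H26_WMD2

-- ==== BEGIN Fermat.Agent.NEB.Geom.H29_TowerInst
section

/-!
# NEB-GEOM, leaf TOWER-INST (helper29)

`stmt_TOWER_INST : Stmt_TOWER_INST N S p n qv h2`: the tower theorems (`stmt_DIV_tower`,
`stmt_HSTEP_tower`), INV, SIGMA and `π^* π_* = ∏_j ∑_e ⟨δ_j⟩^e` for `H = twH p n qv`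
(the `p^n`-th powers of `(ℤ/c)ˣ`, `c = ∏ q_j`) on `J_H[p^∞]`.
-/

set_option autoImplicit false
set_option linter.unusedSectionVars false
set_option linter.unusedVariables false
set_option linter.style.haveILetI false

noncomputable section

namespace Fermat.Agent.NEB.Geom.H29

open AlgebraicCurve ModularCurve
open Fermat.Agent.NEB Fermat.Agent.NEB.H14 Fermat.Agent.NEB.JH Fermat.Agent.RED
open Fermat.Agent.NEB.H29 Fermat.Agent.S59.Asm Fermat.Agent.S59.TWH.H90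

/-! ## 1. Generalities on `ptors` -/

section gen

variable (M c : ℕ) [NeZero M] (H : Subgroup (ZMod c)ˣ) (h2 : 2 ≤ c) (hc : c ∣ M) (p : ℕ)

theorem coe_diaZ_pow (u : (ZMod c)ˣ) (e : ℕ) (x : AH M c H p) :
    (((diaZ M c H h2 hc p u ^ e) x : AH M c H p) : JH M c H)
      = ((diamondData M c H h2 hc).ρ u) ^ e • (x : JH M c H) := by
  rw [← map_pow, diaZ_apply, map_pow]

theorem coe_sum_ptors {X : Type*} [AddCommGroup X] {ι : Type*} (s : Finset ι)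
    (f : ι → ↥(ptors p X)) : ((∑ i ∈ s, f i : ↥(ptors p X)) : X) = ∑ i ∈ s, (f i : X) :=
  AddSubgroup.val_finsetSum _ _ _

theorem coe_nsmul_ptors {X : Type*} [AddCommGroup X] (k : ℕ) (x : ↥(ptors p X)) :
    ((k • x : ↥(ptors p X)) : X) = k • (x : X) :=
  AddSubgroup.coe_nsmul _ _ _

theorem coe_zsmul_ptors {X : Type*} [AddCommGroup X] (k : ℤ) (x : ↥(ptors p X)) :
    ((k • x : ↥(ptors p X)) : X) = k • (x : X) :=
  AddSubgroup.coe_zsmul _ _ _

/-- The monomials in the diamond operators. -/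
theorem mon_diaZ {r : ℕ} (δ : Fin r → (ZMod c)ˣ) (e : Fin r → ℕ) :
    mon (fun j => diaZ M c H h2 hc p (δ j)) e = diaZ M c H h2 hc p (∏ j, δ j ^ e j) := by
  rw [mon, ← List.prod_ofFn, map_list_prod, List.map_ofFn]
  congr 1
  congr 1
  funext j
  exact (map_pow _ _ _).symm

end gen

/-! ## 2. The Taylor–Wiles setting -/

section TW

variable (N : ℕ) (S : Finset ℕ) (p n : ℕ) {r : ℕ} (qv : Fin r → ℕ)

/-- CRT for `(ℤ/c)ˣ`, `c = twC qv`. -/
def crtTw (hcop : Pairwise (Function.onFun Nat.Coprime qv)) :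
    (ZMod (twC qv))ˣ ≃* (Π j, (ZMod (qv j))ˣ) :=
  crtUnits qv hcop

theorem crtTw_apply (hcop : Pairwise (Function.onFun Nat.Coprime qv))
    (x : (ZMod (twC qv))ˣ) (j : Fin r) :
    crtTw qv hcop x j = ZMod.unitsMap (Finset.dvd_prod_of_mem qv (Finset.mem_univ j)) x :=
  crtUnits_apply qv hcop x j

variable {N S p n qv}

theorem twHyp_coprime (hyp : TwHyp N S p n qv) : Pairwise (Function.onFun Nat.Coprime qv) :=
  pairwise_coprime_of_primes qv hyp.inj hyp.prime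

theorem twHyp_dvd_card (hyp : TwHyp N S p n qv) (j : Fin r) :
    p ^ n ∣ Nat.card (ZMod (qv j))ˣ := by
  rw [card_units_of_prime (hyp.prime j)]
  exact (pow_dvd_pow p (Nat.le_succ n)).trans (hyp.cong j)

theorem twHyp_odd_pow (hyp : TwHyp N S p n qv) : Odd (p ^ n) :=
  (hyp.hp.odd_of_ne_two hyp.hp2).pow

theorem twHyp_neg_one_mem (hyp : TwHyp N S p n qv) : (-1 : (ZMod (twC qv))ˣ) ∈ twH p n qv :=
  neg_one_mem_pow_range (twHyp_odd_pow hyp)

theorem twHyp_isGenFam (hyp : TwHyp N S p n qv) {δ : Fin r → (ZMod (twC qv))ˣ}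
    (hδ : IsDeltaGen p n qv δ) : IsGenFam (crtTw qv (twHyp_coprime hyp)) (p ^ n) δ where
  triv i j hij := by
    rw [crtTw_apply]
    exact hδ.1 i j hij _
  ord j e he := hδ.2 j e he

theorem twHyp_unr (hyp : TwHyp N S p n qv) [NeZero (N * twC qv)] (h2 : 2 ≤ twC qv)
    (w : Place Kbar ↥(FHbar (N * twC qv) (twC qv) (twH p n qv))) :
    ∃ x : ↥(modularFunctionFieldBar (N * twC qv)),
      w.ord (inclBar (N * twC qv) (twC qv) (twH p n qv) x) = 1 :=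
  Fermat.Agent.NEB.H34.fh_unr (twC qv) (N * twC qv) (twH p n qv) h2 (dvd_mul_left _ _)
    (NeZero.ne _)
    (Fermat.Agent.S59.Asm.H57.stmt_UNRCOND p n hyp.hp hyp.hp2 r qv hyp.inj
      (fun j => ⟨hyp.prime j, hyp.cong j⟩) (N * twC qv) (dvd_mul_left _ _) (twH p n qv)
      (fun x => ⟨x, rfl⟩)) w

variable (N p n qv) in
/-- The Eisenstein operator, on the underlying classes. -/
theorem coe_tEis [NeZero (N * twC qv)] (h2 : 2 ≤ twC qv) (ℓ₀ : ℕ) [NeZero ℓ₀]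
    (x : AH (N * twC qv) (twC qv) (twH p n qv) p) :
    ((tEis N p n qv h2 ℓ₀ x : AH (N * twC qv) (twC qv) (twH p n qv) p) :
        JH (N * twC qv) (twC qv) (twH p n qv))
      = tEnd (TH (heckeData (N * twC qv) (twC qv) ℓ₀ (twH p n qv) h2 (dvd_mul_left _ _)).hβ)
          ((ℓ₀ + 1 : ℕ) : ℤ) (x : JH (N * twC qv) (twC qv) (twH p n qv)) := by
  rw [tEnd_apply, ← Tz_apply (N * twC qv) (twC qv) (twH p n qv) h2 (dvd_mul_left _ _) p ℓ₀ x]
  rfl

variable (N p n qv) in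
theorem coe_tEis_pow [NeZero (N * twC qv)] (h2 : 2 ≤ twC qv) (ℓ₀ : ℕ) [NeZero ℓ₀] (m : ℕ)
    (x : AH (N * twC qv) (twC qv) (twH p n qv) p) :
    (((tEis N p n qv h2 ℓ₀ ^ m) x : AH (N * twC qv) (twC qv) (twH p n qv) p) :
        JH (N * twC qv) (twC qv) (twH p n qv))
      = (tEnd (TH (heckeData (N * twC qv) (twC qv) ℓ₀ (twH p n qv) h2 (dvd_mul_left _ _)).hβ)
          ((ℓ₀ + 1 : ℕ) : ℤ) ^ m) (x : JH (N * twC qv) (twC qv) (twH p n qv)) := by
  induction m with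
  | zero => rfl
  | succ m ih =>
    rw [pow_succ', pow_succ', Module.End.mul_apply, coe_tEis, ih]
    rfl

/-! ## 3. The tower data -/

section data

variable [NeZero (N * twC qv)] (h2 : 2 ≤ twC qv) (hyp : TwHyp N S p n qv)
  {δ : Fin r → (ZMod (twC qv))ˣ} (hδ : IsDeltaGen p n qv δ)

include hyp hδ

/-- The kernel of `ρ` at the `j`-th step of the chain. -/
theorem tw_ker_chain {ℓ₀ : ℕ} [NeZero ℓ₀] (j : ℕ) (d : (ZMod (twC qv))ˣ) :
    (heckeData (N * twC qv) (twC qv) ℓ₀ (chain (twH p n qv) δ j) h2 (dvd_mul_left _ _)).dd.ρ d = 1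
      ↔ d ∈ chain (twH p n qv) δ j := by
  rw [DiamondData.ker]
  constructor
  · rintro (h | h)
    · exact h
    · have h1 := Subgroup.mul_mem _ (le_chain (twH p n qv) δ j (twHyp_neg_one_mem hyp)) h
      rwa [neg_mul_neg, one_mul] at h1
  · exact Or.inl

theorem tw_hord {ℓ₀ : ℕ} [NeZero ℓ₀] (j : ℕ) (hj : j < r) :
    orderOf ((heckeData (N * twC qv) (twC qv) ℓ₀ (chain (twH p n qv) δ j) h2
      (dvd_mul_left _ _)).dd.ρ (deltaExt δ j)) = p ^ n :=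
  (twHyp_isGenFam hyp hδ).orderOf_chain _ j hj (tw_ker_chain h2 hyp hδ j)

theorem tw_htop (d : (ZMod (twC qv))ˣ) :
    d ∈ chain (twH p n qv) δ r ∨ -d ∈ chain (twH p n qv) δ r := by
  haveI : ∀ j, Finite (ZMod (qv j))ˣ := fun j => finite_units_of_prime (hyp.prime j)
  haveI : ∀ j, IsCyclic (ZMod (qv j))ˣ := fun j => isCyclic_units_of_prime (hyp.prime j)
  exact Or.inl ((twHyp_isGenFam hyp hδ).chain_top (twHyp_dvd_card hyp) d)

/-- **DIV**: `t^N J_H[p^∞] ⊆ p J_H[p^∞]`. -/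
theorem tw_div (ℓ₀ : ℕ) (hℓ₀ : ℓ₀.Prime) (hℓ₀M : ¬ ℓ₀ ∣ N * twC qv) :
    ∃ Nn : ℕ, ∀ x : AH (N * twC qv) (twC qv) (twH p n qv) p,
      ∃ y : AH (N * twC qv) (twC qv) (twH p n qv) p,
        (tEis N p n qv h2 ℓ₀ ^ Nn) x = p • y := by
  haveI : Fact p.Prime := ⟨hyp.hp⟩
  haveI : NeZero ℓ₀ := ⟨hℓ₀.ne_zero⟩
  haveI : NeZero (twC qv) := ⟨by omega⟩
  refine ⟨divExp (p ^ n) r, fun x => ?_⟩
  obtain ⟨y, hy⟩ := stmt_DIV_tower
    (heckeData (N * twC qv) (twC qv) ℓ₀ (twH p n qv) h2 (dvd_mul_left _ _))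
    (chain (twH p n qv) δ) rfl
    (fun j => heckeData (N * twC qv) (twC qv) ℓ₀ (chain (twH p n qv) δ j) h2 (dvd_mul_left _ _))
    hℓ₀ hℓ₀M r (deltaExt δ) (fun j _ => rfl) p n (fun j hj => tw_hord h2 hyp hδ j hj)
    (tw_htop hyp hδ)
    (fun x => Fermat.Agent.S43.Old.H75.divisible_all (N * twC qv) p hyp.hp.ne_zero x)
    (x : JH (N * twC qv) (twC qv) (twH p n qv))
  rw [← coe_tEis_pow N p n qv h2 ℓ₀] at hy
  have hy' : IsPTors p y := by
    obtain ⟨k, hk⟩ := ((tEis N p n qv h2 ℓ₀ ^ divExp (p ^ n) r) x).2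
    refine ⟨k + 1, ?_⟩
    rw [pow_succ, mul_smul, ← hy]
    exact hk
  exact ⟨⟨y, hy'⟩, Subtype.ext (by rw [coe_nsmul_ptors]; exact hy)⟩

/-- **HSTEP** on `J_H[p]`. -/
theorem tw_hstep (ℓ₀ : ℕ) (hℓ₀ : ℓ₀.Prime) (hℓ₀M : ¬ ℓ₀ ∣ N * twC qv) (j : Fin r)
    (v : AH (N * twC qv) (twC qv) (twH p n qv) p) (hv : p • v = 0)
    (hfix : ∀ i, i ≤ j →
      diaZ (N * twC qv) (twC qv) (twH p n qv) h2 (dvd_mul_left _ _) p (δ i) v = v) :
    ∃ (w : AH (N * twC qv) (twC qv) (twH p n qv) p) (m : ℕ), p • w = 0 ∧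
      (∀ i, i < j →
        diaZ (N * twC qv) (twC qv) (twH p n qv) h2 (dvd_mul_left _ _) p (δ i) w = w) ∧
      ∑ e ∈ Finset.range (p ^ n),
        (diaZ (N * twC qv) (twC qv) (twH p n qv) h2 (dvd_mul_left _ _) p (δ j) ^ e) w
          = (tEis N p n qv h2 ℓ₀ ^ m) v := by
  haveI : Fact p.Prime := ⟨hyp.hp⟩
  haveI : NeZero ℓ₀ := ⟨hℓ₀.ne_zero⟩
  haveI : NeZero (twC qv) := ⟨by omega⟩
  have hv' : p ^ 1 • (v : JH (N * twC qv) (twC qv) (twH p n qv)) = 0 := by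
    rw [pow_one, ← coe_nsmul_ptors, hv]
    rfl
  have hvG : ∀ i ≤ (j : ℕ),
      (heckeData (N * twC qv) (twC qv) ℓ₀ (twH p n qv) h2 (dvd_mul_left _ _)).dd.ρ
        (deltaExt δ i) • (v : JH (N * twC qv) (twC qv) (twH p n qv))
        = (v : JH (N * twC qv) (twC qv) (twH p n qv)) := by
    intro i hi
    have hir : i < r := lt_of_le_of_lt hi j.2
    rw [deltaExt_of_lt δ hir]
    exact congrArg Subtype.val (hfix ⟨i, hir⟩ hi)
  obtain ⟨w, hw, hwfix, hsum⟩ := stmt_HSTEP_tower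
    (heckeData (N * twC qv) (twC qv) ℓ₀ (twH p n qv) h2 (dvd_mul_left _ _))
    (chain (twH p n qv) δ) rfl
    (fun j => heckeData (N * twC qv) (twC qv) ℓ₀ (chain (twH p n qv) δ j) h2 (dvd_mul_left _ _))
    hℓ₀ hℓ₀M (twHyp_unr hyp h2) r (deltaExt δ) (fun j _ => rfl) p n
    (fun j hj => tw_hord h2 hyp hδ j hj) (tw_htop hyp hδ)
    (fun x => Fermat.Agent.S43.Old.H75.divisible_all (N * twC qv) p hyp.hp.ne_zero x)
    (j : ℕ) j.2 1 (v : JH (N * twC qv) (twC qv) (twH p n qv)) hv' hvG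
  refine ⟨⟨w, ⟨1, hw⟩⟩, (divExp (p ^ n) (r - ((j : ℕ) + 1)) + 1) * p ^ n * 1 + 1 + 1,
    ?_, ?_, ?_⟩
  · apply Subtype.ext
    rw [coe_nsmul_ptors]
    rw [pow_one] at hw
    exact hw
  · intro i hi
    apply Subtype.ext
    have h1 := hwfix (i : ℕ) hi
    rw [deltaExt_val] at h1
    exact h1
  · apply Subtype.ext
    rw [coe_sum_ptors, coe_tEis_pow]
    rw [deltaExt_val] at hsum
    rw [← hsum]
    refine Finset.sum_congr rfl fun e _ => ?_
    exact coe_diaZ_pow _ _ _ h2 _ p (δ j) e _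

/-- **INV** on `J_H[p]`. -/
theorem tw_inv (ℓ₀ : ℕ) (hℓ₀ : ℓ₀.Prime) (hℓ₀M : ¬ ℓ₀ ∣ N * twC qv)
    (y : AH (N * twC qv) (twC qv) (twH p n qv) p) (hy : p • y = 0)
    (hfix : ∀ u, diaZ (N * twC qv) (twC qv) (twH p n qv) h2 (dvd_mul_left _ _) p u y = y) :
    ∃ (y₀ : A0 (N * twC qv) p) (m : ℕ), p • y₀ = 0 ∧
      upZ (N * twC qv) (twC qv) (twH p n qv) p y₀ = (tEis N p n qv h2 ℓ₀ ^ m) y := by
  haveI : NeZero ℓ₀ := ⟨hℓ₀.ne_zero⟩
  have hy' : ((p : ℕ) : ℤ) • (y : JH (N * twC qv) (twC qv) (twH p n qv)) = 0 := by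
    rw [natCast_zsmul, ← coe_nsmul_ptors, hy]
    rfl
  obtain ⟨y₀, hy₀, hup⟩ := stmt_INV_JH'
    (heckeData (N * twC qv) (twC qv) ℓ₀ (twH p n qv) h2 (dvd_mul_left _ _))
    hℓ₀ hℓ₀M (twHyp_unr hyp h2) p hyp.hp.ne_zero
    (y : JH (N * twC qv) (twC qv) (twH p n qv)) hy'
    (fun d => congrArg Subtype.val (hfix d))
  rw [natCast_zsmul] at hy₀
  have hmem : IsPTors p y₀ := ⟨1, by rw [pow_one]; exact hy₀⟩
  refine ⟨⟨y₀, hmem⟩, 1, Subtype.ext ?_, Subtype.ext ?_⟩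
  · rw [coe_nsmul_ptors]
    exact hy₀
  · show piUp (N * twC qv) (twC qv) (twH p n qv) y₀ = _
    rw [coe_tEis_pow, pow_one, tEnd_apply, natCast_zsmul]
    exact hup

/-- The kernel of `ρ` for `H = twH`. -/
theorem tw_ker (d : (ZMod (twC qv))ˣ) :
    (diamondData (N * twC qv) (twC qv) (twH p n qv) h2 (dvd_mul_left _ _)).ρ d = 1
      ↔ d ∈ twH p n qv := by
  rw [DiamondData.ker]
  constructor
  · rintro (h | h)
    · exact h
    · have h1 := Subgroup.mul_mem _ (twHyp_neg_one_mem hyp) h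
      rwa [neg_mul_neg, one_mul] at h1
  · exact Or.inl

/-- **NORM**: `π^* π_* = ∏_j ∑_e ⟨δ_j⟩^e` on `J_H[p^∞]`. -/
theorem tw_norm :
    upZ (N * twC qv) (twC qv) (twH p n qv) p ∘ₗ downZ (N * twC qv) (twC qv) (twH p n qv) p
      = nmTot (p ^ n)
          (fun j => diaZ (N * twC qv) (twC qv) (twH p n qv) h2 (dvd_mul_left _ _) p (δ j)) := by
  haveI : ∀ j, Finite (ZMod (qv j))ˣ := fun j => finite_units_of_prime (hyp.prime j)
  haveI : ∀ j, IsCyclic (ZMod (qv j))ˣ := fun j => isCyclic_units_of_prime (hyp.prime j)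
  refine LinearMap.ext fun x => Subtype.ext ?_
  rw [nmTot_apply_eq_sum, coe_sum_ptors]
  simp only [mon_diaZ, diaZ_apply]
  show piUp (N * twC qv) (twC qv) (twH p n qv)
    (piDown (N * twC qv) (twC qv) (twH p n qv)
      (x : JH (N * twC qv) (twC qv) (twH p n qv))) = _
  haveI : Finite (diamondData (N * twC qv) (twC qv) (twH p n qv) h2 (dvd_mul_left _ _)).ρ.range :=
    finite_range_rho _
  letI : Fintype
      (diamondData (N * twC qv) (twC qv) (twH p n qv) h2 (dvd_mul_left _ _)).ρ.range :=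
    Fintype.ofFinite _
  rw [piUp_piDown (isFF_JH (N * twC qv) (twC qv) (twH p n qv) h2 (dvd_mul_left _ _))
    (diamondData (N * twC qv) (twC qv) (twH p n qv) h2 (dvd_mul_left _ _)) _ rfl]
  symm
  refine Fintype.sum_bijective
    (fun e : Fin r → Fin (p ^ n) =>
      (⟨(diamondData (N * twC qv) (twC qv) (twH p n qv) h2 (dvd_mul_left _ _)).ρ
          (∏ j, δ j ^ (e j : ℕ)), ⟨_, rfl⟩⟩ :
        (diamondData (N * twC qv) (twC qv) (twH p n qv) h2 (dvd_mul_left _ _)).ρ.range))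
    ⟨?_, ?_⟩ _ _ (fun e => rfl)
  · intro e e' h
    exact (twHyp_isGenFam hyp hδ).monomial_injective _
      (fun d hd => (tw_ker h2 hyp hδ d).1 hd) (congrArg Subtype.val h)
  · rintro ⟨g, d, rfl⟩
    obtain ⟨e, he⟩ := (twHyp_isGenFam hyp hδ).monomial_surjective
      (pow_ne_zero n hyp.hp.ne_zero) (twHyp_dvd_card hyp)
      (diamondData (N * twC qv) (twC qv) (twH p n qv) h2 (dvd_mul_left _ _)).ρ
      (fun d hd => (tw_ker h2 hyp hδ d).2 hd) d
    exact ⟨e, Subtype.ext he⟩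

/-- The diamond operators have order dividing `p^n`. -/
theorem tw_diaZ_pow (u : (ZMod (twC qv))ˣ) :
    diaZ (N * twC qv) (twC qv) (twH p n qv) h2 (dvd_mul_left _ _) p u ^ (p ^ n) = 1 := by
  rw [← map_pow]
  refine LinearMap.ext fun x => Subtype.ext ?_
  rw [diaZ_apply, (tw_ker h2 hyp hδ (u ^ (p ^ n))).2 ⟨u, rfl⟩, one_smul]
  rfl

omit hδ in
include h2 in
/-- **SIGMA** on `J₀[p^∞]`. -/
theorem tw_sigma (ℓ₀ : ℕ) (hℓ₀ : ℓ₀.Prime) (hℓ₀M : ¬ ℓ₀ ∣ N * twC qv)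
    (y₀ : A0 (N * twC qv) p)
    (hker : upZ (N * twC qv) (twC qv) (twH p n qv) p y₀ = 0) :
    Tz0 (N * twC qv) p ℓ₀ y₀ - ((ℓ₀ + 1 : ℕ) : ℤ) • y₀ = 0 := by
  haveI : NeZero ℓ₀ := ⟨hℓ₀.ne_zero⟩
  obtain ⟨k, hk⟩ := y₀.2
  have hk' : ((p ^ k : ℕ) : ℤ) • (y₀ : JZero (N * twC qv)) = 0 := by
    rw [natCast_zsmul]
    exact hk
  have h := stmt_SIGMA_JH'
    (heckeData (N * twC qv) (twC qv) ℓ₀ (twH p n qv) h2 (dvd_mul_left _ _))
    hℓ₀ hℓ₀M (p ^ k) (pow_ne_zero k hyp.hp.ne_zero) (y₀ : JZero (N * twC qv)) hk'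
    (congrArg Subtype.val hker)
  apply Subtype.ext
  rw [AddSubgroup.coe_sub, coe_zsmul_ptors, Tz0_apply, natCast_zsmul]
  exact h

end data

variable (N S p n qv) in
/-- **TOWER-INST**. -/
theorem stmt_TOWER_INST [NeZero (N * twC qv)] (h2 : 2 ≤ twC qv) :
    Stmt_TOWER_INST N S p n qv h2 := by
  intro hyp δ hδ ℓ₀ hℓ₀ hℓ₀M
  exact ⟨tw_div h2 hyp hδ ℓ₀ hℓ₀ hℓ₀M, tw_hstep h2 hyp hδ ℓ₀ hℓ₀ hℓ₀M,
    tw_inv h2 hyp hδ ℓ₀ hℓ₀ hℓ₀M, tw_norm h2 hyp hδ, tw_diaZ_pow h2 hyp hδ,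
    tw_sigma h2 hyp ℓ₀ hℓ₀ hℓ₀M⟩

end TW

end Fermat.Agent.NEB.Geom.H29

end
end
-- ==== END Fermat.Agent.NEB.Geom.H29_TowerInst

-- ==== BEGIN Fermat.Agent.NEB.Geom.H70_WKeyq
section

/-!
# Item 72 (LG-NEB), package NEB-GEOM, leaf W-KEYq (helper70)

`stmt_W_KEYq : Stmt_W_KEYq` (`NEB/Geom/DefsWD.lean`): at a place `P` over a Taylor–Wiles prime
`q_j` with Frobenius `φ`, `U_j φ x = q_j x` for every `Δ`-fixed `x ∈ K^𝒪(P) ∩ W`.

* `wkey_abs`  : the algebra: if `η(s) E` kills the `Δ`-fixed part of `K`, `θ(s) ≠ 0` and `E`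
  commutes with the Hecke operators, then `E_𝒪` kills the `Δ`-fixed part of `K^𝒪 ∩ W`
  (flatness of `𝒪` over `ℤ`, as in helper12's W-ES);
* `keyq_AH`   : `keyq_JH` on `J_H[p^∞]` in terms of `Uz`, `Tz`, `galZ`;
* `stmt_W_KEYq` with `s = (U_j² - 1)(T'_ℓ₀ - (ℓ₀ + 1))`, `E = U_j φ - q_j`.
-/

set_option autoImplicit false
set_option linter.style.haveILetI false
set_option linter.unusedSectionVars false
set_option linter.unusedVariables false

noncomputable section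

open ModularCurve AlgebraicCurve IsLocalRing TensorProduct

namespace Fermat.Agent.NEB.Geom.H70

open Fermat.Agent.NEB Fermat.Agent.NEB.JH Fermat.Agent.S59.Asm Fermat.Agent.S59.Lim
  Fermat.Agent.S59.Lim.H2 Fermat.Agent.NEB.Geom

/-! ## 1. The algebra -/

section Abs

variable {𝒪 : Type} [CommRing 𝒪] [IsLocalRing 𝒪] [Module.Flat ℤ 𝒪] {A : Type}
  [AddCommGroup A] {𝕋 : Type} [CommRing 𝕋]

/-- If `η(s) E` kills the `Δ`-fixed part of `K`, with `θ(s) ≠ 0` and `E` commuting with the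
Hecke operators, then `E_𝒪` kills the `Δ`-fixed part of `K^𝒪 ∩ W`. -/
theorem wkey_abs (η : 𝕋 →+* Module.End ℤ A) (θ : 𝕋 →+* ResidueField 𝒪) {G : Type} [Finite G]
    (dia : G → Module.End ℤ A) (K : AddSubgroup A) (E : Module.End ℤ A)
    (hE : ∀ t, Commute (η t) E) (s : 𝕋) (hs : θ s ≠ 0)
    (hkey : ∀ x ∈ K, (∀ u, dia u x = x) → η s (E x) = 0)
    (x : 𝒪 ⊗[ℤ] A) (hx : x ∈ thetaPart η θ) (hxK : x ∈ KO 𝒪 K)
    (hfix : ∀ u, (dia u).baseChange 𝒪 x = x) : E.baseChange 𝒪 x = 0 := by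
  let KZ : Submodule ℤ A := AddSubgroup.toIntSubmodule K
  obtain ⟨k₀, hk₀⟩ := hxK
  have hk₀' : KZ.subtype.baseChange 𝒪 k₀ = x := hk₀
  let F : KZ →ₗ[ℤ] (G → A) := LinearMap.pi fun u => (dia u - 1) ∘ₗ KZ.subtype
  have hFk₀ : F.baseChange 𝒪 k₀ = 0 := by
    apply H12.baseChange_pi_eq_zero
    intro u
    rw [LinearMap.baseChange_comp, LinearMap.comp_apply, hk₀', LinearMap.baseChange_sub,
      LinearMap.sub_apply, sub_eq_zero]
    have h1 : (1 : Module.End ℤ A).baseChange 𝒪 x = x := by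
      rw [baseChange_one_eq, Module.End.one_apply]
    rw [h1]
    exact hfix u
  obtain ⟨k₁, hk₁⟩ := exists_of_baseChange_eq_zero (𝒪 := 𝒪) F hFk₀
  have hzero : (η s * E) ∘ₗ KZ.subtype ∘ₗ (LinearMap.ker F).subtype = 0 := by
    ext ⟨⟨a, ha⟩, hak⟩
    show η s (E a) = 0
    apply hkey a ha
    intro u
    have h1 : F ⟨a, ha⟩ = 0 := hak
    have h2 := congrFun h1 u
    have h3 : dia u a - a = 0 := h2
    exact sub_eq_zero.mp h3
  have h4 := congrArg (fun f => f k₁) (congrArg (fun f => f.baseChange 𝒪) hzero)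
  simp only [LinearMap.baseChange_comp, LinearMap.comp_apply, LinearMap.baseChange_zero,
    LinearMap.zero_apply] at h4
  rw [hk₁, hk₀', baseChange_mul_eq, Module.End.mul_apply] at h4
  have hEx : E.baseChange 𝒪 x ∈ thetaPart η θ :=
    thetaPart_stable (fun t => baseChange_commute 𝒪 (hE t)) hx
  exact H12.eq_zero_of_eta_eq_zero η θ s hs hEx h4

end Abs

/-! ## 2. The identity on `J_H[p^∞]` -/

section Coe

variable {p : ℕ} {X : Type*} [AddCommGroup X]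

theorem coe_natCast_apply (m : ℕ) (x : ↥(ptors p X)) :
    (((m : Module.End ℤ ↥(ptors p X)) x : ↥(ptors p X)) : X) = m • (x : X) := by
  rw [Module.End.natCast_apply, AddSubgroup.coe_nsmul]

theorem coe_sub_apply (f g : Module.End ℤ ↥(ptors p X)) (x : ↥(ptors p X)) :
    (((f - g) x : ↥(ptors p X)) : X)
      = ((f x : ↥(ptors p X)) : X) - ((g x : ↥(ptors p X)) : X) := by
  rw [LinearMap.sub_apply, AddSubgroup.coe_sub]

theorem coe_mul_apply (f g : Module.End ℤ ↥(ptors p X)) (x : ↥(ptors p X)) :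
    (((f * g) x : ↥(ptors p X)) : X) = ((f (g x) : ↥(ptors p X)) : X) := rfl

end Coe

section AHlevel

variable (N : ℕ) (S : Finset ℕ) (p n : ℕ) {r : ℕ} (qv : Fin r → ℕ)

/-- `F_H / F₀` is unramified at a Taylor–Wiles family (UNRCOND, helper57 + FH-UNR, helper34). -/
theorem hunr_tw [NeZero (N * twC qv)] (h2 : 2 ≤ twC qv) (hTW : TwHyp N S p n qv) :
    ∀ w : Place Kbar ↥(FHbar (N * twC qv) (twC qv) (twH p n qv)),
      ∃ x : ↥(modularFunctionFieldBar (N * twC qv)),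
        w.ord (inclBar (N * twC qv) (twC qv) (twH p n qv) x) = 1 :=
  Fermat.Agent.NEB.H34.fh_unr (twC qv) (N * twC qv) (twH p n qv) h2 (dvd_mul_left _ _)
    (NeZero.ne _)
    (Fermat.Agent.S59.Asm.H57.stmt_UNRCOND p n hTW.hp hTW.hp2 r qv hTW.inj
      (fun j => ⟨hTW.prime j, hTW.cong j⟩) (N * twC qv) (dvd_mul_left _ _) (twH p n qv)
      (fun x => ⟨x, rfl⟩))

/-- The level `N c` is `M q_j` with `q_j ∤ M`. -/
theorem level_split (hTW : TwHyp N S p n qv) (j : Fin r) :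
    ∃ M : ℕ, N * twC qv = M * qv j ∧ ¬ qv j ∣ M := by
  classical
  refine ⟨N * ∏ i ∈ Finset.univ.erase j, qv i, ?_, ?_⟩
  · unfold twC
    rw [← Finset.mul_prod_erase Finset.univ qv (Finset.mem_univ j)]
    ring
  · intro hd
    rcases (Nat.Prime.dvd_mul (hTW.prime j)).1 hd with h | h
    · exact hTW.notS j (hTW.hNS _ (hTW.prime j) h)
    · obtain ⟨i, hi, hdi⟩ := (Prime.dvd_finsetProd_iff (Nat.Prime.prime (hTW.prime j)) _).1 h
      have : qv j = qv i := (Nat.prime_dvd_prime_iff_eq (hTW.prime j) (hTW.prime i)).1 hdi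
      exact (Finset.ne_of_mem_erase hi) (hTW.inj this).symm

variable [NeZero (N * twC qv)] (h2 : 2 ≤ twC qv)

set_option maxHeartbeats 1000000 in
/-- **KEYq on `J_H[p^∞]`**: `(U_j φ - q_j)(U_j² - 1)(T_ℓ₀ - (ℓ₀ + 1))` kills the `Δ`-fixed part of
the kernel of reduction at `P ∣ q_j`. -/
theorem keyq_AH (hTW : TwHyp N S p n qv) (ℓ₀ : ℕ) (hℓ₀ : GoodTw N S qv ℓ₀) (j : Fin r)
    (P : ValuationSubring Kbar) (hP : P.LiesOverPrime (qv j)) (φ : _root_.Fermat.Agent.NEB.Geom.GalQ)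
    (hφ : P.IsFrobeniusAt φ (qv j))
    (x : AH (N * twC qv) (twC qv) (twH p n qv) p) (hxK : x ∈ KZ N p n qv h2 P)
    (hfix : ∀ u, diaZ (N * twC qv) (twC qv) (twH p n qv) h2 (dvd_mul_left _ _) p u x = x) :
    (Uz (N * twC qv) (twC qv) (twH p n qv) h2 (dvd_mul_left _ _) p (qv j)
        * galZ (N * twC qv) (twC qv) (twH p n qv) p φ
        - ((qv j : ℕ) : Module.End ℤ (AH (N * twC qv) (twC qv) (twH p n qv) p)))
      ((Uz (N * twC qv) (twC qv) (twH p n qv) h2 (dvd_mul_left _ _) p (qv j)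
          * Uz (N * twC qv) (twC qv) (twH p n qv) h2 (dvd_mul_left _ _) p (qv j) - 1)
        ((Tz (N * twC qv) (twC qv) (twH p n qv) h2 (dvd_mul_left _ _) p ℓ₀
          - ((ℓ₀ + 1 : ℕ) : Module.End ℤ (AH (N * twC qv) (twC qv) (twH p n qv) p))) x)) = 0 := by
  haveI : NeZero ℓ₀ := ⟨hℓ₀.1.ne_zero⟩
  haveI : NeZero (qv j) := ⟨(hTW.prime j).ne_zero⟩
  obtain ⟨M, hL, hqM⟩ := level_split N S p n qv hTW j
  haveI : NeZero M := ⟨fun h0 => NeZero.ne (N * twC qv) (by rw [hL, h0, zero_mul])⟩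
  have hqp : qv j ≠ p := fun h => hTW.notS j (h ▸ hTW.hpS)
  have hc : twC qv ∣ N * twC qv := dvd_mul_left _ _
  have hx : IsPTors p (x : JH (N * twC qv) (twC qv) (twH p n qv)) := x.2
  have hfix' : ∀ d, (diamondData (N * twC qv) (twC qv) (twH p n qv) h2 hc).ρ d
      • (x : JH (N * twC qv) (twC qv) (twH p n qv)) = x := fun d =>
    congrArg Subtype.val (hfix d)
  have hK : InKU P p (diamondData (N * twC qv) (twC qv) (twH p n qv) h2 hc)
      (x : JH (N * twC qv) (twC qv) (twH p n qv)) := hxK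
  have key := keyq_JH M (qv j) (twC qv) (twH p n qv) p (N * twC qv) hL hTW.hp h2 hc
    (hTW.prime j) hqM hqp n (fun d => Or.inl ⟨d, rfl⟩) (hunr_tw N S p n qv h2 hTW) ℓ₀ hℓ₀.1
    (Fermat.Agent.NEB.Geom.H29.not_dvd_level_of_good hℓ₀) P hP φ hφ
    (heckeData (N * twC qv) (twC qv) ℓ₀ (twH p n qv) h2 hc).hβ
    (heckeData (N * twC qv) (twC qv) (qv j) (twH p n qv) h2 hc).hβ
    (x : JH (N * twC qv) (twC qv) (twH p n qv)) hx hfix' hK
  apply Subtype.ext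
  rw [coe_sub_apply, coe_mul_apply, coe_natCast_apply, Uz_apply, galZ_apply,
    coe_sub_apply, coe_mul_apply, Uz_apply, Uz_apply, Module.End.one_apply,
    coe_sub_apply, Tz_apply, coe_natCast_apply]
  exact key

/-- A fixed vector is fixed by every power. -/
theorem pow_apply_of_fixed {R X : Type*} [CommRing R] [AddCommGroup X] [Module R X]
    (f : Module.End R X) {x : X} (hx : f x = x) (k : ℕ) : (f ^ k) x = x := by
  induction k with
  | zero => rw [pow_zero, Module.End.one_apply]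
  | succ k ih => rw [pow_succ, Module.End.mul_apply, hx, ih]

/-- The Galois action commutes with `η⁺`. -/
theorem comm_gal_tw (hcomm : ∀ i j, Commute (opsTw N S p n qv h2 i) (opsTw N S p n qv h2 j))
    (σ : _root_.Fermat.Agent.NEB.Geom.GalQ) (t : PolyTw r (twC qv)) :
    Commute (etaTw N S p n qv h2 hcomm t)
      (galZ (N * twC qv) (twC qv) (twH p n qv) p σ) := by
  induction t using MvPolynomial.induction_on with
  | C a =>
    have : etaTw N S p n qv h2 hcomm (MvPolynomial.C a)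
        = (a : Module.End ℤ (AH (N * twC qv) (twC qv) (twH p n qv) p)) := by
      rw [show (MvPolynomial.C a : PolyTw r (twC qv)) = ((a : ℤ) : PolyTw r (twC qv)) from
        (eq_intCast (MvPolynomial.C : ℤ →+* PolyTw r (twC qv)) a), map_intCast]
    rw [this]
    exact Int.cast_commute a _
  | add f g hf hg =>
    rw [map_add]
    exact hf.add_left hg
  | mul_X f i hf =>
    rw [map_mul]
    refine hf.mul_left ?_
    have h : etaTw N S p n qv h2 hcomm (MvPolynomial.X i) = opsTw N S p n qv h2 i :=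
      polyHom_X _ _ _
    rw [h]
    exact Fermat.Agent.NEB.Geom.H29.commute_opsTw_galZ N S p n qv h2 i σ

end AHlevel

/-! ## 3. W-KEYq -/

theorem map_keyq_elt {R E : Type*} [CommRing R] [Ring E] (f : R →+* E) (a b : R) (m : ℕ) :
    f ((a * a - 1) * (b - (m : R))) = (f a * f a - 1) * (f b - (m : E)) := by
  rw [map_mul, map_sub, map_sub, map_mul, map_one, map_natCast]

theorem baseChange_mul_sub_natCast (𝒪 : Type) [CommRing 𝒪] {A : Type} [AddCommGroup A]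
    (f g : Module.End ℤ A) (m : ℕ) (x : 𝒪 ⊗[ℤ] A) :
    (f * g - (m : Module.End ℤ A)).baseChange 𝒪 x
      = f.baseChange 𝒪 (g.baseChange 𝒪 x) - (m : 𝒪) • x := by
  have hq : ((m : ℕ) : Module.End ℤ A).baseChange 𝒪 = ((m : ℕ) : Module.End 𝒪 (𝒪 ⊗[ℤ] A)) :=
    map_natCast (Module.End.baseChangeHom ℤ 𝒪 A) m
  rw [LinearMap.baseChange_sub, LinearMap.sub_apply, baseChange_mul_eq, Module.End.mul_apply,
    hq, Module.End.natCast_apply, Nat.cast_smul_eq_nsmul]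

/-- The element `s = (U_j² - 1)(T'_ℓ₀ - (ℓ₀ + 1))` of `𝕋⁺`. -/
def keyqElt (r c : ℕ) (j : Fin r) (ℓ₀ : ℕ) : PolyTw r c :=
  (MvPolynomial.X (Sum.inr (Sum.inl j)) * MvPolynomial.X (Sum.inr (Sum.inl j)) - 1)
    * (MvPolynomial.X (Sum.inl ℓ₀) - ((ℓ₀ + 1 : ℕ) : PolyTw r c))

section Elt

variable (N : ℕ) (S : Finset ℕ) (p n : ℕ) {r : ℕ} (qv : Fin r → ℕ)

section Theta

variable {k : Type} [Field k] [NeZero N]

theorem thetaTw_keyqElt (θ : CuspForm.heckeAlgebra N 2 (↑S : Set ℕ) →+* k) (α : Fin r → k)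
    (j : Fin r) (ℓ₀ : ℕ) (hℓ₀ : GoodTw N S qv ℓ₀) :
    thetaTw N S qv θ α (keyqElt r (twC qv) j ℓ₀)
      = (α j * α j - 1) * (θ (CuspForm.heckeAlgebra.T hℓ₀.1 hℓ₀.not_dvd hℓ₀.not_mem)
          - ((ℓ₀ + 1 : ℕ) : k)) := by
  have hθXj : thetaTw N S qv θ α (MvPolynomial.X (Sum.inr (Sum.inl j))) = α j := by
    show MvPolynomial.eval₂Hom _ _ (MvPolynomial.X _) = _
    rw [MvPolynomial.eval₂Hom_X']
    rfl
  have hθXℓ : thetaTw N S qv θ α (MvPolynomial.X (Sum.inl ℓ₀))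
      = θ (CuspForm.heckeAlgebra.T hℓ₀.1 hℓ₀.not_dvd hℓ₀.not_mem) := by
    show MvPolynomial.eval₂Hom _ _ (MvPolynomial.X _) = _
    rw [MvPolynomial.eval₂Hom_X']
    show thetaVal N S qv θ α (Sum.inl ℓ₀) = _
    simp only [thetaVal, dif_pos hℓ₀]
  unfold keyqElt
  rw [map_keyq_elt, hθXj, hθXℓ]

theorem thetaTw_keyqElt_ne (θ : CuspForm.heckeAlgebra N 2 (↑S : Set ℕ) →+* k) (α β : Fin r → k)
    (hne : ∀ j, α j ≠ β j) (hmul : ∀ j, α j * β j = 1)
    (j : Fin r) (ℓ₀ : ℕ) (hℓ₀ : GoodTw N S qv ℓ₀)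
    (hℓne : θ (CuspForm.heckeAlgebra.T hℓ₀.1 hℓ₀.not_dvd hℓ₀.not_mem) ≠ ((ℓ₀ : k) + 1)) :
    thetaTw N S qv θ α (keyqElt r (twC qv) j ℓ₀) ≠ 0 := by
  rw [thetaTw_keyqElt N S qv θ α j ℓ₀ hℓ₀]
  refine mul_ne_zero ?_ ?_
  · intro h0
    have h1 : α j * α j = α j * β j := by
      rw [hmul j]
      exact sub_eq_zero.mp h0
    have hα0 : α j ≠ 0 := fun h => by
      have := hmul j
      rw [h, zero_mul] at this
      exact zero_ne_one this
    exact hne j (mul_left_cancel₀ hα0 h1)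
  · rw [sub_ne_zero]
    intro h0
    apply hℓne
    rw [h0]
    push_cast
    rfl

end Theta

variable [NeZero (N * twC qv)] (h2 : 2 ≤ twC qv)

theorem etaTw_keyqElt
    (hcomm : ∀ i j, Commute (opsTw N S p n qv h2 i) (opsTw N S p n qv h2 j))
    (j : Fin r) (ℓ₀ : ℕ) (hℓ₀ : GoodTw N S qv ℓ₀) :
    etaTw N S p n qv h2 hcomm (keyqElt r (twC qv) j ℓ₀)
      = (Uz (N * twC qv) (twC qv) (twH p n qv) h2 (dvd_mul_left _ _) p (qv j)
          * Uz (N * twC qv) (twC qv) (twH p n qv) h2 (dvd_mul_left _ _) p (qv j) - 1)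
        * (TzTw (N * twC qv) (twC qv) (twH p n qv) h2 (dvd_mul_left _ _) p (jTw p n) ℓ₀
          - ((ℓ₀ + 1 : ℕ) : Module.End ℤ (AH (N * twC qv) (twC qv) (twH p n qv) p))) := by
  have hηXj : etaTw N S p n qv h2 hcomm (MvPolynomial.X (Sum.inr (Sum.inl j)))
      = Uz (N * twC qv) (twC qv) (twH p n qv) h2 (dvd_mul_left _ _) p (qv j) :=
    polyHom_X _ _ _
  have hηXℓ : etaTw N S p n qv h2 hcomm (MvPolynomial.X (Sum.inl ℓ₀))
      = TzTw (N * twC qv) (twC qv) (twH p n qv) h2 (dvd_mul_left _ _) p (jTw p n) ℓ₀ :=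
    (polyHom_X _ _ _).trans (Fermat.Agent.NEB.Geom.H29.opsTw_inl_good N S p n qv h2 hℓ₀)
  unfold keyqElt
  rw [map_keyq_elt, hηXj, hηXℓ]

/-- `E = U_j φ - q_j`. -/
def keyqE (j : Fin r) (φ : _root_.Fermat.Agent.NEB.Geom.GalQ) : Module.End ℤ (AH (N * twC qv) (twC qv) (twH p n qv) p) :=
  Uz (N * twC qv) (twC qv) (twH p n qv) h2 (dvd_mul_left _ _) p (qv j)
      * galZ (N * twC qv) (twC qv) (twH p n qv) p φ
    - ((qv j : ℕ) : Module.End ℤ (AH (N * twC qv) (twC qv) (twH p n qv) p))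

theorem commute_eta_keyqE
    (hcomm : ∀ i j, Commute (opsTw N S p n qv h2 i) (opsTw N S p n qv h2 j))
    (j : Fin r) (φ : _root_.Fermat.Agent.NEB.Geom.GalQ) (t : PolyTw r (twC qv)) :
    Commute (etaTw N S p n qv h2 hcomm t) (keyqE N p n qv h2 j φ) := by
  have hηXj : etaTw N S p n qv h2 hcomm (MvPolynomial.X (Sum.inr (Sum.inl j)))
      = Uz (N * twC qv) (twC qv) (twH p n qv) h2 (dvd_mul_left _ _) p (qv j) :=
    polyHom_X _ _ _
  have hU : Commute (etaTw N S p n qv h2 hcomm t)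
      (Uz (N * twC qv) (twC qv) (twH p n qv) h2 (dvd_mul_left _ _) p (qv j)) := by
    rw [← hηXj]
    exact (Commute.all t _).map (etaTw N S p n qv h2 hcomm)
  exact (hU.mul_right (comm_gal_tw N S p n qv h2 hcomm φ t)).sub_right (Nat.commute_cast _ _)

theorem keyqE_baseChange (𝒪 : Type) [CommRing 𝒪] (j : Fin r) (φ : _root_.Fermat.Agent.NEB.Geom.GalQ)
    (x : 𝒪 ⊗[ℤ] AH (N * twC qv) (twC qv) (twH p n qv) p) :
    (keyqE N p n qv h2 j φ).baseChange 𝒪 x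
      = (Uz (N * twC qv) (twC qv) (twH p n qv) h2 (dvd_mul_left _ _) p (qv j)).baseChange 𝒪
          ((galZ (N * twC qv) (twC qv) (twH p n qv) p φ).baseChange 𝒪 x)
        - ((qv j : ℕ) : 𝒪) • x :=
  baseChange_mul_sub_natCast 𝒪 _ _ _ x

/-- The key identity: `η(s) E` kills the `Δ`-fixed part of the kernel of reduction. -/
theorem keyq_eta (hTW : TwHyp N S p n qv)
    (hcomm : ∀ i j, Commute (opsTw N S p n qv h2 i) (opsTw N S p n qv h2 j))
    (ℓ₀ : ℕ) (hℓ₀ : GoodTw N S qv ℓ₀) (j : Fin r)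
    (P : ValuationSubring Kbar) (hP : P.LiesOverPrime (qv j)) (φ : _root_.Fermat.Agent.NEB.Geom.GalQ)
    (hφ : P.IsFrobeniusAt φ (qv j))
    (y : AH (N * twC qv) (twC qv) (twH p n qv) p) (hy : y ∈ KZ N p n qv h2 P)
    (hfy : ∀ u, diaZ (N * twC qv) (twC qv) (twH p n qv) h2 (dvd_mul_left _ _) p u y = y) :
    etaTw N S p n qv h2 hcomm (keyqElt r (twC qv) j ℓ₀) (keyqE N p n qv h2 j φ y) = 0 := by
  have h1 : etaTw N S p n qv h2 hcomm (keyqElt r (twC qv) j ℓ₀) (keyqE N p n qv h2 j φ y)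
      = keyqE N p n qv h2 j φ (etaTw N S p n qv h2 hcomm (keyqElt r (twC qv) j ℓ₀) y) := by
    have := congrArg (fun f : Module.End ℤ (AH (N * twC qv) (twC qv) (twH p n qv) p) => f y)
      (commute_eta_keyqE N S p n qv h2 hcomm j φ (keyqElt r (twC qv) j ℓ₀)).eq
    exact this
  have h2' : (TzTw (N * twC qv) (twC qv) (twH p n qv) h2 (dvd_mul_left _ _) p (jTw p n) ℓ₀
        - ((ℓ₀ + 1 : ℕ) : Module.End ℤ (AH (N * twC qv) (twC qv) (twH p n qv) p))) y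
      = (Tz (N * twC qv) (twC qv) (twH p n qv) h2 (dvd_mul_left _ _) p ℓ₀
        - ((ℓ₀ + 1 : ℕ) : Module.End ℤ (AH (N * twC qv) (twC qv) (twH p n qv) p))) y := by
    rw [LinearMap.sub_apply, LinearMap.sub_apply]
    congr 1
    show (Tz (N * twC qv) (twC qv) (twH p n qv) h2 (dvd_mul_left _ _) p ℓ₀
      * diaZ (N * twC qv) (twC qv) (twH p n qv) h2 (dvd_mul_left _ _) p
        (Fermat.Agent.NEB.EIG.H39.unitOf (twC qv) ℓ₀) ^ (jTw p n)) y = _
    rw [Module.End.mul_apply, pow_apply_of_fixed _ (hfy _)]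
  rw [h1, etaTw_keyqElt N S p n qv h2 hcomm j ℓ₀ hℓ₀, Module.End.mul_apply, h2']
  exact keyq_AH N S p n qv h2 hTW ℓ₀ hℓ₀ j P hP φ hφ y hy hfy

end Elt

/-- **W-KEYq.** -/
theorem stmt_W_KEYq : Stmt_W_KEYq := by
  intro 𝒪 _ _ _ _ _ ϖ hϖ p hpF hpm N _ S n r qv hTW hsq _ h2 hcomm θ α β hEig ℓ₀ hℓ₀ hne j P hP
    φ hφ x hxW hxK hfix
  haveI : Module.Flat ℤ 𝒪 := flat_int (𝒪 := 𝒪)
  haveI : Finite (ZMod (twC qv))ˣ := finite_units_zmod (twC qv)
  have hfin := wkey_abs (etaTw N S p n qv h2 hcomm) (thetaTw N S qv θ α)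
    (fun u => diaZ (N * twC qv) (twC qv) (twH p n qv) h2 (dvd_mul_left _ _) p u)
    (KZ N p n qv h2 P) (keyqE N p n qv h2 j φ)
    (commute_eta_keyqE N S p n qv h2 hcomm j φ) (keyqElt r (twC qv) j ℓ₀)
    (thetaTw_keyqElt_ne N S qv θ α β hEig.ne hEig.mul j ℓ₀ hℓ₀ hne)
    (fun y hy hfy => keyq_eta N S p n qv h2 hTW hcomm ℓ₀ hℓ₀ j P hP φ hφ y hy hfy)
    x hxW hxK hfix
  rw [keyqE_baseChange] at hfin
  exact sub_eq_zero.mp hfin

end Fermat.Agent.NEB.Geom.H70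

end
end
-- ==== END Fermat.Agent.NEB.Geom.H70_WKeyq
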