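-- GENERATED (merged mirror, NOTES/tools/trim/merge3_helper67.py): 3 modules of the originals, bodies verbatim.
import Mathlib
import Fermat.Agent.Zm.S43_L12_002
import Fermat.Agent.Zm.S43_L08_001
import Fermat.Agent.Zm.S43_L07_002
import Fermat.Agent.Zm.S43_L05_002
import Fermat.Agent.Zm.S43_L04_002
import Fermat.Agent.Zm.S35_L08_004
import Fermat.Agent.Zm.S43_L02_003
import Fermat.Agent.Zm.S33_L01_005
import Fermat.Agent.Zm.S43_L01_004

-- ==== BEGIN Fermat.Agent.S59.Asm.H2_Min2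
section

/-!
# S59 (helper2): the wiring of the minimal case, `Asm.Stmt_MIN2WIRE`

`stmt_MIN2WIRE : Stmt_TWGEOM → Stmt_COND → Datum.Stmt_DATUM → Stmt_TWprimes → Stmt_ASM →
  Stmt_MLTmin2`.

* arithmetic of the levels: `prime_dvd_minLevel`, `squarefree_minLevel`, `minLevel_exact`,
  `not_dvd_minLevel_of_fl`, `dvd_minLevel_of_not_fl`, and the same at the level `twLevel N qv`;
* `frobHyp_comp_rest`;
* the wiring.
-/

set_option autoImplicit false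
set_option linter.style.haveILetI false
set_option linter.unusedSectionVars false
set_option linter.unusedVariables false
set_option maxHeartbeats 1000000

open Polynomial CuspForm CongruenceSubgroup ModularFormClass IsLocalRing

namespace Fermat.Agent.S59.Asm.H2

open Fermat.Agent.S59 Fermat.Agent.S59.Asm

/-! ### Arithmetic of the minimal level -/

section Level

variable {p : ℕ} {Smin : Finset ℕ}

/-- a prime dividing a product of primes is one of them -/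
theorem prime_mem_of_dvd_prod {s : Finset ℕ} (hs : ∀ q ∈ s, q.Prime) {q : ℕ} (hq : q.Prime)
    (h : q ∣ ∏ q' ∈ s, q') : q ∈ s := by
  obtain ⟨q', hq', hqq'⟩ := (Prime.dvd_finsetProd_iff hq.prime _).mp h
  have : q = q' := (Nat.prime_dvd_prime_iff_eq hq (hs q' hq')).mp hqq'
  rw [this]
  exact hq'

theorem squarefree_prod_primes {s : Finset ℕ} (hs : ∀ q ∈ s, q.Prime) :
    Squarefree (∏ q' ∈ s, q') := by
  refine Finset.squarefree_prod_of_pairwise_isCoprime (f := fun q : ℕ => q)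
    (fun a ha b hb hab => ?_) (fun a ha => (hs a ha).squarefree)
  show IsRelPrime a b
  rw [← Nat.coprime_iff_isRelPrime]
  exact (Nat.coprime_primes (hs a ha) (hs b hb)).mpr hab

/-- the primes dividing the minimal level are in `Smin` -/
theorem prime_dvd_minLevel (hp : p.Prime) (fl : Bool) (hS : ∀ q ∈ Smin, q.Prime)
    (hpS : p ∈ Smin) {q : ℕ} (hq : q.Prime) (h : q ∣ minLevel p fl Smin) : q ∈ Smin := by
  unfold minLevel at h
  rcases (Nat.Prime.dvd_mul hq).mp h with h1 | h1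
  · exact Finset.mem_of_mem_erase
      (prime_mem_of_dvd_prod (fun q' hq' => hS q' (Finset.mem_of_mem_erase hq')) hq h1)
  · split at h1
    · exact absurd (Nat.dvd_one.mp h1) hq.one_lt.ne'
    · rw [(Nat.prime_dvd_prime_iff_eq hq hp).mp h1]
      exact hpS

/-- `p` does not divide the product of the other primes -/
theorem not_dvd_prod_erase (hp : p.Prime) (hS : ∀ q ∈ Smin, q.Prime) :
    ¬ p ∣ ∏ q' ∈ Smin.erase p, q' := by
  intro h
  have := prime_mem_of_dvd_prod (fun q' hq' => hS q' (Finset.mem_of_mem_erase hq')) hp h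
  exact (Finset.notMem_erase p Smin) this

theorem squarefree_minLevel (hp : p.Prime) (fl : Bool) (hS : ∀ q ∈ Smin, q.Prime) :
    Squarefree (minLevel p fl Smin) := by
  unfold minLevel
  have h1 : Squarefree (∏ q' ∈ Smin.erase p, q') :=
    squarefree_prod_primes (fun q' hq' => hS q' (Finset.mem_of_mem_erase hq'))
  split
  · rw [mul_one]
    exact h1
  · rw [Nat.squarefree_mul_iff]
    refine ⟨?_, h1, hp.squarefree⟩
    rw [Nat.coprime_comm]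
    exact (Nat.Prime.coprime_iff_not_dvd hp).mpr (not_dvd_prod_erase hp hS)

theorem dvd_minLevel_of_mem (fl : Bool) {q : ℕ} (hq : q ∈ Smin) (hqp : q ≠ p) :
    q ∣ minLevel p fl Smin := by
  unfold minLevel
  exact Dvd.dvd.mul_right (Finset.dvd_prod_of_mem _ (Finset.mem_erase.mpr ⟨hqp, hq⟩)) _

theorem not_sq_dvd_of_squarefree {N q : ℕ} (hN : Squarefree N) (hq : q.Prime) :
    ¬ q ^ 2 ∣ N := by
  intro h
  rw [pow_two] at h
  exact hq.one_lt.ne' (Nat.isUnit_iff.mp (hN q h))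

theorem not_dvd_minLevel_of_fl (hp : p.Prime) (hS : ∀ q ∈ Smin, q.Prime) :
    ¬ p ∣ minLevel p true Smin := by
  unfold minLevel
  simp only [if_true, mul_one]
  exact not_dvd_prod_erase hp hS

theorem dvd_minLevel_of_not_fl : p ∣ minLevel p false Smin := by
  unfold minLevel
  simp only [Bool.false_eq_true, if_false]
  exact Dvd.intro_left _ rfl

/-! ### The level at a Taylor–Wiles family -/

variable {r : ℕ} {qv : Fin r → ℕ}

theorem twLevel_ne_zero {N : ℕ} (hN : N ≠ 0) (hqv : ∀ i, (qv i).Prime) : twLevel N qv ≠ 0 := by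
  unfold twLevel
  refine mul_ne_zero hN (Finset.prod_ne_zero_iff.mpr fun j _ => ?_)
  exact pow_ne_zero 2 (hqv j).ne_zero

/-- a prime dividing `∏ q_j²` is one of the `q_j` -/
theorem prime_dvd_prod_sq (hqv : ∀ i, (qv i).Prime) {q : ℕ} (hq : q.Prime)
    (h : q ∣ ∏ j, qv j ^ 2) : ∃ j, q = qv j := by
  obtain ⟨j, -, hj⟩ := (Prime.dvd_finsetProd_iff hq.prime _).mp h
  have := hq.dvd_of_dvd_pow hj
  exact ⟨j, (Nat.prime_dvd_prime_iff_eq hq (hqv j)).mp this⟩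

theorem prime_dvd_twLevel {N : ℕ} {S : Finset ℕ} (hNS : ∀ q : ℕ, q.Prime → q ∣ N → q ∈ S)
    (hqv : ∀ i, (qv i).Prime) {q : ℕ} (hq : q.Prime) (h : q ∣ twLevel N qv) :
    q ∈ twSet S qv := by
  unfold twLevel at h
  unfold twSet
  rcases (Nat.Prime.dvd_mul hq).mp h with h1 | h1
  · exact Finset.mem_union_left _ (hNS q hq h1)
  · obtain ⟨j, rfl⟩ := prime_dvd_prod_sq hqv hq h1
    exact Finset.mem_union_right _ (Finset.mem_image_of_mem _ (Finset.mem_univ j))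

/-- a prime of `S` divides `twLevel N qv` exactly as it divides `N` -/
theorem coprime_prod_sq {S : Finset ℕ} (hqv : ∀ i, (qv i).Prime) (hqS : ∀ i, qv i ∉ S)
    {q : ℕ} (hq : q.Prime) (hqS' : q ∈ S) (k : ℕ) : Nat.Coprime (q ^ k) (∏ j, qv j ^ 2) := by
  refine Nat.Coprime.pow_left k ?_
  rw [Nat.Prime.coprime_iff_not_dvd hq]
  intro h
  obtain ⟨j, rfl⟩ := prime_dvd_prod_sq hqv hq h
  exact hqS j hqS'

theorem pow_dvd_twLevel_iff {N : ℕ} {S : Finset ℕ} (hqv : ∀ i, (qv i).Prime)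
    (hqS : ∀ i, qv i ∉ S) {q : ℕ} (hq : q.Prime) (hqS' : q ∈ S) (k : ℕ) :
    q ^ k ∣ twLevel N qv ↔ q ^ k ∣ N := by
  unfold twLevel
  constructor
  · intro h
    exact (coprime_prod_sq hqv hqS hq hqS' k).dvd_of_dvd_mul_right h
  · intro h
    exact Dvd.dvd.mul_right h _

end Level

/-! ### The Frobenius hypothesis at the Taylor–Wiles level -/

theorem frobHyp_comp_rest {k : Type} [Field k] {ρbar : ResidualGaloisRep k} {N : ℕ} [NeZero N]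
    {Smin : Finset ℕ} {θ : CuspForm.heckeAlgebra N 2 (↑Smin : Set ℕ) →+* k}
    (hθ : Fermat.Agent.S59.Datum.FrobHyp ρbar N Smin θ) {r : ℕ} {qv : Fin r → ℕ}
    [NeZero (twLevel N qv)]
    (rest : CuspForm.heckeAlgebra (twLevel N qv) 2 (↑(twSet Smin qv) : Set ℕ) →+*
      CuspForm.heckeAlgebra N 2 (↑Smin : Set ℕ))
    (rest_T : ∀ (ℓ : ℕ) (hℓ : ℓ.Prime) (hℓN' : ¬ ℓ ∣ twLevel N qv)
      (hℓS' : ℓ ∉ (↑(twSet Smin qv) : Set ℕ)) (hℓN : ¬ ℓ ∣ N) (hℓS : ℓ ∉ (↑Smin : Set ℕ)),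
      rest (CuspForm.heckeAlgebra.T hℓ hℓN' hℓS') = CuspForm.heckeAlgebra.T hℓ hℓN hℓS) :
    Fermat.Agent.S59.Datum.FrobHyp ρbar (twLevel N qv) (twSet Smin qv) (θ.comp rest) := by
  intro ℓ hℓ hℓN' hℓS' A hA σ hσ
  have hℓN : ¬ ℓ ∣ N := fun h => hℓN' (Dvd.dvd.mul_right h _)
  have hℓS : ℓ ∉ (↑Smin : Set ℕ) := fun h => hℓS' (by
    rw [Finset.mem_coe] at h ⊢
    exact Finset.mem_union_left _ h)
  rw [RingHom.comp_apply, rest_T ℓ hℓ hℓN' hℓS' hℓN hℓS]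
  exact hθ ℓ hℓ hℓN hℓS A hA σ hσ

/-! ### The wiring -/

section Wire

variable (𝒪 : Type) [CommRing 𝒪] [IsDomain 𝒪] [IsDiscreteValuationRing 𝒪]
  [IsAdicComplete (maximalIdeal 𝒪) 𝒪] [Finite (ResidueField 𝒪)] [CharZero 𝒪]
  (p : ℕ) [Fact p.Prime]

/-- **The Hecke–Galois data at the minimal level** (DATUM + COND + S54 + LOCMOD): for a given
deformation ring `D` and Hecke module `M`. -/
theorem exists_minimal_data (hCOND : Stmt_COND) (hDATUM : Fermat.Agent.S59.Datum.Stmt_DATUM)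
    (hp2 : p ≠ 2) (hp𝒪 : (p : 𝒪) ∈ maximalIdeal 𝒪)
    (fl : Bool) (ρbar : ResidualGaloisRep (ResidueField 𝒪)) (Smin : Finset ℕ)
    (hyp : ResHyp p ρbar Smin)
    (hbar : cond 𝒪 p fl Smin ∅ (GaloisRepAdic.ofResidualGaloisRep ρbar))
    (hnf : fl = false → ¬ (GaloisRepAdic.ofResidualGaloisRep ρbar).IsFlatAt p)
    (N : ℕ) [NeZero N] [Fact (CuspForm.HasIntegralStructure N 2)]
    (hN : N = minLevel p fl Smin)
    (θ : CuspForm.heckeAlgebra N 2 (↑Smin : Set ℕ) →+* ResidueField 𝒪)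
    (hθ : Fermat.Agent.S59.Datum.FrobHyp ρbar N Smin θ)
    (D : GaloisRep.DeformationRingData 𝒪 ρbar (cond 𝒪 p fl Smin ∅))
    (M : HMod 𝒪 N (↑Smin : Set ℕ) θ) :
    ∃ (H : CuspForm.HeckeGaloisRepDatum N (↑Smin : Set ℕ) 𝒪 θ
        (CuspForm.heckeLocal N (↑Smin : Set ℕ) 𝒪 θ))
      (φ : D.R →ₐ[𝒪] CuspForm.heckeLocal N (↑Smin : Set ℕ) 𝒪 θ)
      (hφ : IsLocalHom (φ : D.R →+* CuspForm.heckeLocal N (↑Smin : Set ℕ) 𝒪 θ))
      (ηM : CuspForm.heckeLocal N (↑Smin : Set ℕ) 𝒪 θ →ₐ[𝒪] Module.End 𝒪 M.V),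
      H.π = CuspForm.heckeLocal.π N (↑Smin : Set ℕ) 𝒪 θ ∧
      cond 𝒪 p fl Smin ∅ H.ρ ∧
      H.ρ.residual.IsEquiv (ρbar.baseChangeAlong
        (ResidueField.map (algebraMap 𝒪 (CuspForm.heckeLocal N (↑Smin : Set ℕ) 𝒪 θ)))) ∧
      Function.Surjective φ ∧
      (D.ρ.baseChangeAlong (φ : D.R →+* CuspForm.heckeLocal N (↑Smin : Set ℕ) 𝒪 θ) hφ).IsEquiv
        H.ρ ∧
      (∀ t : CuspForm.heckeAlgebra N 2 (↑Smin : Set ℕ),
        ηM (CuspForm.heckeLocal.π N (↑Smin : Set ℕ) 𝒪 θ t) = M.η t) := by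
  have hpP : p.Prime := Fact.out
  have hNS : ∀ q : ℕ, q.Prime → q ∣ N → q ∈ Smin := by
    intro q hq hqN
    rw [hN] at hqN
    exact prime_dvd_minLevel hpP fl hyp.hS hyp.hpSmin hq hqN
  have hsqf : Squarefree N := by
    rw [hN]
    exact squarefree_minLevel hpP fl hyp.hS
  obtain ⟨H, hHπ, hHdet, hHres⟩ :=
    hDATUM 𝒪 p hp2 hp𝒪 N Smin hyp.hpSmin hNS ρbar hyp.habs θ hθ
  have hHcond : cond 𝒪 p fl Smin ∅ H.ρ := by
    refine hCOND 𝒪 p hp2 hp𝒪 fl ρbar Smin hyp hbar hnf ∅ N Smin (Finset.union_empty _).symm hNS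
      ?_ ?_ ?_ θ hθ H hHπ hHdet hHres
    · intro q hq hqp
      refine ⟨?_, not_sq_dvd_of_squarefree hsqf (hyp.hS q hq)⟩
      rw [hN]
      exact dvd_minLevel_of_mem fl hq hqp
    · intro hfl
      rw [hN, hfl]
      exact not_dvd_minLevel_of_fl hpP hyp.hS
    · intro hfl
      refine ⟨?_, not_sq_dvd_of_squarefree hsqf hpP⟩
      rw [hN, hfl]
      exact dvd_minLevel_of_not_fl
  obtain ⟨φ, hφs, hφl, hφe⟩ := Fermat.Agent.S54.result D H
    (fun q hq hqN => Finset.mem_coe.mpr (hNS q hq hqN)) hHcond hHres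
  obtain ⟨ηM, hηM⟩ := Fermat.Agent.S59.Asm.H85.stmt_LOCMOD 𝒪 N (↑Smin : Set ℕ) θ M
  exact ⟨H, φ, hφl, ηM, hHπ, hHcond, hHres, hφs, hφe, hηM⟩

/-- **The Taylor–Wiles levels** (TWprimes + DEF + DATUM + COND + S54 + ASM at every level). -/
theorem exists_twLevels (hCOND : Stmt_COND) (hDATUM : Fermat.Agent.S59.Datum.Stmt_DATUM)
    (hTWP : Stmt_TWprimes) (hASM : Stmt_ASM)
    (hp2 : p ≠ 2) (hp𝒪 : (p : 𝒪) ∈ maximalIdeal 𝒪)
    (fl : Bool) (ρbar : ResidualGaloisRep (ResidueField 𝒪)) (Smin : Finset ℕ)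
    (hyp : ResHyp p ρbar Smin)
    (hbar : cond 𝒪 p fl Smin ∅ (GaloisRepAdic.ofResidualGaloisRep ρbar))
    (hnf : fl = false → ¬ (GaloisRepAdic.ofResidualGaloisRep ρbar).IsFlatAt p)
    (N : ℕ) [NeZero N] [Fact (CuspForm.HasIntegralStructure N 2)]
    (hN : N = minLevel p fl Smin)
    (θ : CuspForm.heckeAlgebra N 2 (↑Smin : Set ℕ) →+* ResidueField 𝒪)
    (hθ : Fermat.Agent.S59.Datum.FrobHyp ρbar N Smin θ)
    (D : GaloisRep.DeformationRingData 𝒪 ρbar (cond 𝒪 p fl Smin ∅))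
    (M : HMod 𝒪 N (↑Smin : Set ℕ) θ)
    (hG : ∀ (r n : ℕ) (qv : Fin r → ℕ), Fermat.Agent.S56.IsTWFamily ρbar p n Smin qv →
      ∀ [NeZero (twLevel N qv)] [Fact (CuspForm.HasIntegralStructure (twLevel N qv) 2)],
        Nonempty (TWGeom 𝒪 p ρbar N Smin θ M n qv))
    (H : CuspForm.HeckeGaloisRepDatum N (↑Smin : Set ℕ) 𝒪 θ
      (CuspForm.heckeLocal N (↑Smin : Set ℕ) 𝒪 θ))
    (hHπ : H.π = CuspForm.heckeLocal.π N (↑Smin : Set ℕ) 𝒪 θ)
    (hHcond : cond 𝒪 p fl Smin ∅ H.ρ)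
    (hHres : H.ρ.residual.IsEquiv (ρbar.baseChangeAlong
      (ResidueField.map (algebraMap 𝒪 (CuspForm.heckeLocal N (↑Smin : Set ℕ) 𝒪 θ)))))
    (φ : D.R →ₐ[𝒪] CuspForm.heckeLocal N (↑Smin : Set ℕ) 𝒪 θ)
    (hφ : IsLocalHom (φ : D.R →+* CuspForm.heckeLocal N (↑Smin : Set ℕ) 𝒪 θ))
    (hφe : (D.ρ.baseChangeAlong (φ : D.R →+* CuspForm.heckeLocal N (↑Smin : Set ℕ) 𝒪 θ)
      hφ).IsEquiv H.ρ)
    (ηM : CuspForm.heckeLocal N (↑Smin : Set ℕ) 𝒪 θ →ₐ[𝒪] Module.End 𝒪 M.V)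
    (hηM : ∀ t : CuspForm.heckeAlgebra N 2 (↑Smin : Set ℕ),
      ηM (CuspForm.heckeLocal.π N (↑Smin : Set ℕ) 𝒪 θ t) = M.η t) :
    ∃ r : ℕ, ∀ n : ℕ, Nonempty (@TWLevel 𝒪 _ _ p r D.R _ _ M.V _
      (Module.compHom M.V ((ηM.comp φ : D.R →ₐ[𝒪] Module.End 𝒪 M.V) :
        D.R →+* Module.End 𝒪 M.V)) n) := by
  have hpP : p.Prime := Fact.out
  have hNS : ∀ q : ℕ, q.Prime → q ∣ N → q ∈ Smin := by
    intro q hq hqN
    rw [hN] at hqN
    exact prime_dvd_minLevel hpP fl hyp.hS hyp.hpSmin hq hqN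
  have hsqf : Squarefree N := by
    rw [hN]
    exact squarefree_minLevel hpP fl hyp.hS
  obtain ⟨r, hr⟩ := hTWP 𝒪 p hp2 hp𝒪 fl ρbar Smin hyp
  refine ⟨r, fun n => ?_⟩
  obtain ⟨qv, hqv, hγ⟩ := hr n
  have hqvP : ∀ i, (qv i).Prime := fun i => (hqv.2.1 i).1
  have hqvS : ∀ i, qv i ∉ Smin := fun i => (hqv.2.1 i).2.1
  have hbarQ : cond 𝒪 p fl Smin (Finset.univ.image qv)
      (GaloisRepAdic.ofResidualGaloisRep ρbar) :=
    cond_mono (Finset.empty_subset _) hbar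
  obtain ⟨DQ⟩ := Fermat.Agent.S59.H99.stmt_DEF 𝒪 p hp2 hp𝒪 fl ρbar hyp.habs Smin
    (Finset.univ.image qv) hyp.hpSmin
    (fun q hq => by
      rcases Finset.mem_union.mp hq with h | h
      · exact hyp.hS q h
      · obtain ⟨i, -, rfl⟩ := Finset.mem_image.mp h
        exact hqvP i) hbarQ
  obtain ⟨γ, hγs⟩ := hγ DQ
  haveI : NeZero (twLevel N qv) := ⟨twLevel_ne_zero (NeZero.ne N) hqvP⟩
  haveI : Fact (CuspForm.HasIntegralStructure (twLevel N qv) 2) :=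
    ⟨Fermat.Agent.S23.result (twLevel N qv)⟩
  obtain ⟨G⟩ := hG r n qv hqv
  have hN'S : ∀ q : ℕ, q.Prime → q ∣ twLevel N qv → q ∈ twSet Smin qv :=
    fun q hq h => prime_dvd_twLevel hNS hqvP hq h
  have hθQ : Fermat.Agent.S59.Datum.FrobHyp ρbar (twLevel N qv) (twSet Smin qv)
      (θ.comp G.rest) := frobHyp_comp_rest hθ G.rest G.rest_T
  obtain ⟨HQ, hHQπ, hHQdet, hHQres⟩ :=
    hDATUM 𝒪 p hp2 hp𝒪 (twLevel N qv) (twSet Smin qv)
      (Finset.mem_union_left _ hyp.hpSmin) hN'S ρbar hyp.habs (θ.comp G.rest) hθQ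
  have hHQcond : cond 𝒪 p fl Smin (Finset.univ.image qv) HQ.ρ := by
    refine hCOND 𝒪 p hp2 hp𝒪 fl ρbar Smin hyp hbar hnf (Finset.univ.image qv) (twLevel N qv)
      (twSet Smin qv) rfl hN'S ?_ ?_ ?_ (θ.comp G.rest) hθQ HQ hHQπ hHQdet hHQres
    · intro q hq hqp
      have h1 := pow_dvd_twLevel_iff (N := N) hqvP hqvS (hyp.hS q hq) hq 1
      have h2 := pow_dvd_twLevel_iff (N := N) hqvP hqvS (hyp.hS q hq) hq 2
      rw [pow_one] at h1
      refine ⟨h1.mpr ?_, fun h => not_sq_dvd_of_squarefree hsqf (hyp.hS q hq) (h2.mp h)⟩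
      rw [hN]
      exact dvd_minLevel_of_mem fl hq hqp
    · intro hfl h
      have h1 := pow_dvd_twLevel_iff (N := N) hqvP hqvS hpP hyp.hpSmin 1
      rw [pow_one] at h1
      have h3 := h1.mp h
      rw [hN, hfl] at h3
      exact not_dvd_minLevel_of_fl hpP hyp.hS h3
    · intro hfl
      have h1 := pow_dvd_twLevel_iff (N := N) hqvP hqvS hpP hyp.hpSmin 1
      have h2 := pow_dvd_twLevel_iff (N := N) hqvP hqvS hpP hyp.hpSmin 2
      rw [pow_one] at h1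
      refine ⟨h1.mpr ?_, fun h => not_sq_dvd_of_squarefree hsqf hpP (h2.mp h)⟩
      rw [hN, hfl]
      exact dvd_minLevel_of_not_fl
  obtain ⟨φQ, -, hφQl, hφQe⟩ := Fermat.Agent.S54.result DQ HQ
    (fun q hq hqN => Finset.mem_coe.mpr (hN'S q hq hqN)) hHQcond hHQres
  exact hASM 𝒪 p hp2 hp𝒪 fl ρbar Smin hyp N Smin θ D H hHπ hHcond hHres φ hφ hφe M ηM hηM
    r n qv hqv DQ γ hγs G HQ hHQπ φQ hφQl hφQe

/-- **The patching datum at the minimal level**, for a given deformation ring `D` and a given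
Hecke module `M` with its Taylor–Wiles geometry. -/
theorem exists_patchingDatum (hCOND : Stmt_COND)
    (hDATUM : Fermat.Agent.S59.Datum.Stmt_DATUM) (hTWP : Stmt_TWprimes) (hASM : Stmt_ASM)
    (hp2 : p ≠ 2) (hp𝒪 : (p : 𝒪) ∈ maximalIdeal 𝒪)
    (fl : Bool) (ρbar : ResidualGaloisRep (ResidueField 𝒪)) (Smin : Finset ℕ)
    (hyp : ResHyp p ρbar Smin)
    (hbar : cond 𝒪 p fl Smin ∅ (GaloisRepAdic.ofResidualGaloisRep ρbar))
    (hnf : fl = false → ¬ (GaloisRepAdic.ofResidualGaloisRep ρbar).IsFlatAt p)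
    (N : ℕ) [NeZero N] [Fact (CuspForm.HasIntegralStructure N 2)]
    (hN : N = minLevel p fl Smin)
    (θ : CuspForm.heckeAlgebra N 2 (↑Smin : Set ℕ) →+* ResidueField 𝒪)
    (hθ : Fermat.Agent.S59.Datum.FrobHyp ρbar N Smin θ)
    (D : GaloisRep.DeformationRingData 𝒪 ρbar (cond 𝒪 p fl Smin ∅))
    (M : HMod 𝒪 N (↑Smin : Set ℕ) θ)
    (hG : ∀ (r n : ℕ) (qv : Fin r → ℕ), Fermat.Agent.S56.IsTWFamily ρbar p n Smin qv →
      ∀ [NeZero (twLevel N qv)] [Fact (CuspForm.HasIntegralStructure (twLevel N qv) 2)],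
        Nonempty (TWGeom 𝒪 p ρbar N Smin θ M n qv)) :
    ∃ (H : CuspForm.HeckeGaloisRepDatum N (↑Smin : Set ℕ) 𝒪 θ
        (CuspForm.heckeLocal N (↑Smin : Set ℕ) 𝒪 θ))
      (φ : D.R →ₐ[𝒪] CuspForm.heckeLocal N (↑Smin : Set ℕ) 𝒪 θ)
      (hφ : IsLocalHom (φ : D.R →+* CuspForm.heckeLocal N (↑Smin : Set ℕ) 𝒪 θ))
      (ηM : CuspForm.heckeLocal N (↑Smin : Set ℕ) 𝒪 θ →ₐ[𝒪] Module.End 𝒪 M.V) (r : ℕ),
      H.π = CuspForm.heckeLocal.π N (↑Smin : Set ℕ) 𝒪 θ ∧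
      cond 𝒪 p fl Smin ∅ H.ρ ∧
      H.ρ.residual.IsEquiv (ρbar.baseChangeAlong
        (ResidueField.map (algebraMap 𝒪 (CuspForm.heckeLocal N (↑Smin : Set ℕ) 𝒪 θ)))) ∧
      Function.Surjective φ ∧
      (D.ρ.baseChangeAlong (φ : D.R →+* CuspForm.heckeLocal N (↑Smin : Set ℕ) 𝒪 θ) hφ).IsEquiv
        H.ρ ∧
      (∀ t : CuspForm.heckeAlgebra N 2 (↑Smin : Set ℕ),
        ηM (CuspForm.heckeLocal.π N (↑Smin : Set ℕ) 𝒪 θ t) = M.η t) ∧
      Nonempty (@Algebra.PatchingDatum 𝒪 _ p r D.R _ _ M.V _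
        (Module.compHom M.V ((ηM.comp φ : D.R →ₐ[𝒪] Module.End 𝒪 M.V) :
          D.R →+* Module.End 𝒪 M.V))) := by
  have hpP : p.Prime := Fact.out
  obtain ⟨H, φ, hφ, ηM, hHπ, hHcond, hHres, hφs, hφe, hηM⟩ :=
    exists_minimal_data 𝒪 p hCOND hDATUM hp2 hp𝒪 fl ρbar Smin hyp hbar hnf N hN θ hθ D M
  obtain ⟨r, hL⟩ := exists_twLevels 𝒪 p hCOND hDATUM hTWP hASM hp2 hp𝒪 fl ρbar Smin hyp hbar hnf
    N hN θ hθ D M hG H hHπ hHcond hHres φ hφ hφe ηM hηM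
  refine ⟨H, φ, hφ, ηM, r, hHπ, hHcond, hHres, hφs, hφe, hηM, ?_⟩
  letI : Module D.R M.V := Module.compHom M.V ((ηM.comp φ : D.R →ₐ[𝒪] Module.End 𝒪 M.V) :
    D.R →+* Module.End 𝒪 M.V)
  exact patchingDatum_of_twLevels
    (fun n => Fermat.Agent.S59.TWH.H14.stmt_DIV 𝒪 r n hpP hp𝒪) hL

end Wire

/-- **MIN2WIRE**: the minimal case of modularity lifting from TWGEOM, COND, DATUM, TWprimes and
ASM. -/
theorem stmt_MIN2WIRE : Stmt_MIN2WIRE := by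
  intro hTWGEOM hCOND hDATUM hTWP hASM
  intro 𝒪 _ _ _ _ _ _ p _ hp2 hp𝒪 fl ρbar Smin hyp hbar hnf N _ hN θ hθ ρ hρ hres a hfrob
  have hpP : p.Prime := Fact.out
  haveI : Fact (CuspForm.HasIntegralStructure N 2) := ⟨Fermat.Agent.S23.result N⟩
  have hNS : ∀ q : ℕ, q.Prime → q ∣ N → q ∈ Smin := by
    intro q hq hqN
    rw [hN] at hqN
    exact prime_dvd_minLevel hpP fl hyp.hS hyp.hpSmin hq hqN
  have hsqf : Squarefree N := by
    rw [hN]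
    exact squarefree_minLevel hpP fl hyp.hS
  obtain ⟨D⟩ := Fermat.Agent.S59.H99.stmt_DEF 𝒪 p hp2 hp𝒪 fl ρbar hyp.habs Smin ∅ hyp.hpSmin
    (fun q hq => hyp.hS q (by simpa using hq)) hbar
  obtain ⟨M, hMnt, hG⟩ := hTWGEOM 𝒪 p hp2 hp𝒪 ρbar Smin hyp N hNS hsqf θ hθ
  obtain ⟨H, φ, hφ, ηM, r, hHπ, hHcond, hHres, hφs, hφe, hηM, ⟨P⟩⟩ :=
    exists_patchingDatum 𝒪 p hCOND hDATUM hTWP hASM hp2 hp𝒪 fl ρbar Smin hyp hbar hnf
      N hN θ hθ D M hG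
  letI : Module D.R M.V := Module.compHom M.V ((ηM.comp φ : D.R →ₐ[𝒪] Module.End 𝒪 M.V) :
    D.R →+* Module.End 𝒪 M.V)
  have hker : ∀ a ∈ RingHom.ker (φ : D.R →+* CuspForm.heckeLocal N (↑Smin : Set ℕ) 𝒪 θ),
      ∀ x : M.V, a • x = 0 := by
    intro a ha x
    show (ηM.comp φ) a x = 0
    have h0 : φ a = 0 := ha
    rw [AlgHom.comp_apply, h0, map_zero]
    rfl
  exact eigenform_of_patchingDatum hp𝒪 D H φ hφs hφ hφe hker P ρ hρ hres a hfrob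

end Fermat.Agent.S59.Asm.H2

end
-- ==== END Fermat.Agent.S59.Asm.H2_Min2

-- ==== BEGIN Fermat.Agent.S59.Asm.Red
section

/-!
# S59 (helper53): from the minimal case to the frozen statement — final interfaces

Chain (every arrow is a `Prop`-level wiring; `Stmt_Tate`, `Stmt_Stab` are landed theorems):

```
Stmt_MLTmin2 (TW, minimal case) ──► Stmt_MLTgen (RT-NONMIN, helper85)
Stmt_MLTgen + Stmt_THETAMIN + Stmt_EXACTb ──► Stmt_MLTredS            (`Stmt_REDWIRE`)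
Stmt_MLTredS ──► Stmt_MLTred                                          (`Stmt_REDSPLIT`)
Stmt_MLTred + LL.Stmt_LLec + Stmt_BRIDGERES + Stmt_TRES + Stmt_CARDKER ──► Stmt_Lift
                                                                      (`Stmt_LIFTWIRE`)
Stmt_Lift + Stmt_S58 ──► frozen S59                                   (`S59_of_lift`, landed)
```

* `Stmt_MLTgen`  : modularity lifting in Galois form over the MINIMAL level: `θ` lives at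
  `N = minLevel p fl Smin`, `ρ` may ramify (unipotently) at a finite set `Sig` of further primes
  and may be strictly ordinary at `p` although `ρbar` is flat (case C).
* `Stmt_MLTred`  : `Stmt_MLT` of `Wiring.lean` with the three extra hypotheses that LL provides:
  `M₀` squarefree, `ρbar` ramified at every prime `q ≠ p` of `M₀`, `p ∣ M₀ → ρbar` not flat.
* `Stmt_MLTredS` : `Stmt_MLTred` with split residual characteristic polynomials.
* `Stmt_THETAMIN`: the residual eigencharacter away from ANY `S ⊇ primes(M₀) ∪ {p}` with values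
  in the field of `ρbar`, and `ρbar` is unramified outside `M₀ p`  (S29 + Brauer–Nesbitt).
* `Stmt_EXACTb`  : `p ∤ N`, `θ` of level `N` with `FrobHyp` ⟹ `ρbar` is flat at `p`
  (DATUM + S32 + FLATDESC).
* `Stmt_BRIDGERES`, `Stmt_TRES`, `Stmt_CARDKER` : the bridge between the elliptic-curve form of LL
  (`residualGaloisRepOf`, `IsPeuRamifieeAt`) and the residual representation of the `p`-adic
  representation given by `Stmt_Tate`.
-/

set_option autoImplicit false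

open Polynomial CuspForm CongruenceSubgroup ModularFormClass IsLocalRing WeierstrassCurve
  WeierstrassCurve.Affine WeierstrassCurve.Affine.Point

namespace Fermat.Agent.S59.Asm

open Fermat.Agent.S59

/-- **Modularity lifting over the minimal level** (target of RT-NONMIN). -/
def Stmt_MLTgen : Prop :=
  ∀ (𝒪 : Type) [CommRing 𝒪] [IsDomain 𝒪] [IsDiscreteValuationRing 𝒪]
    [IsAdicComplete (maximalIdeal 𝒪) 𝒪] [Finite (ResidueField 𝒪)] [CharZero 𝒪]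
    (p : ℕ) [Fact p.Prime], p ≠ 2 → (p : 𝒪) ∈ maximalIdeal 𝒪 →
    ∀ (fl : Bool) (ρbar : ResidualGaloisRep (ResidueField 𝒪)) (Smin : Finset ℕ),
    ResHyp p ρbar Smin →
    cond 𝒪 p fl Smin ∅ (GaloisRepAdic.ofResidualGaloisRep ρbar) →
    (fl = false → ¬ (GaloisRepAdic.ofResidualGaloisRep ρbar).IsFlatAt p) →
    ∀ (N : ℕ) [NeZero N], N = minLevel p fl Smin →
    ∀ (θ : CuspForm.heckeAlgebra N 2 (↑Smin : Set ℕ) →+* ResidueField 𝒪),
    Fermat.Agent.S59.Datum.FrobHyp ρbar N Smin θ →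
    ∀ (Sig : Finset ℕ), (∀ q ∈ Sig, q.Prime ∧ q ∉ Smin) →
    ∀ (ρ : GaloisRepAdic 𝒪), ρ.DetIsCyclotomic p →
    (∀ q : ℕ, q.Prime → q ∉ Smin → q ∉ Sig → ρ.IsUnramifiedAt q) →
    (∀ q ∈ Smin, q ≠ p → ρ.IsUnipotentOnInertiaAt q) →
    (∀ q ∈ Sig, ρ.IsUnipotentOnInertiaAt q) →
    (ρ.IsFlatAt p ∨ ρ.IsStrictOrdinaryAt p) →
    ρ.residual.IsEquiv (ρbar.baseChangeAlong (ResidueField.map (algebraMap 𝒪 𝒪))) →
    ∀ (a : ℕ → ℤ),
    (∀ ℓ : ℕ, ℓ.Prime → ℓ ∉ Smin → ℓ ∉ Sig →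
      ∀ A : ValuationSubring (AlgebraicClosure ℚ), A.LiesOverPrime ℓ →
        ∀ σ : AlgebraicClosure ℚ ≃ₐ[ℚ] AlgebraicClosure ℚ, A.IsFrobeniusAt σ ℓ →
          LinearMap.charpoly (ρ.ρ σ) = X ^ 2 - C (((a ℓ : ℤ) : 𝒪)) * X + C ((ℓ : 𝒪))) →
    ∃ N' : ℕ, ¬ p ^ 2 ∣ N' ∧ (∀ q : ℕ, q.Prime → ¬ q ^ 3 ∣ N') ∧
      ∃ g : CuspForm (Gamma0 N') 2, g.IsNormalizedEigenform ∧
        ∀ ℓ : ℕ, ℓ.Prime → ℓ ∉ Smin → ℓ ∉ Sig → ¬ ℓ ∣ N' → qCoeff ⇑g ℓ = (a ℓ : ℂ)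

/-- The hypotheses and the conclusion of `Stmt_MLT`, with the three extra hypotheses provided by
LL and (if `split`) split residual characteristic polynomials. -/
def MLTredShape (split : Prop) : Prop :=
  ∀ (p : ℕ) [Fact p.Prime], p ≠ 2 →
  ∀ (𝒪 : Type) [CommRing 𝒪] [IsDomain 𝒪] [IsDiscreteValuationRing 𝒪]
    [IsAdicComplete (IsLocalRing.maximalIdeal 𝒪) 𝒪] [Finite (IsLocalRing.ResidueField 𝒪)]
    [CharZero 𝒪] (ρ : GaloisRepAdic 𝒪) (a : ℕ → ℤ) (Sig : Finset ℕ),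
    (∀ q ∈ Sig, q.Prime ∧ q ≠ p) →
    ρ.DetIsCyclotomic p →
    (∀ q : ℕ, q.Prime → q ≠ p → q ∉ Sig → ρ.IsUnramifiedAt q) →
    (∀ q ∈ Sig, ρ.IsUnipotentOnInertiaAt q) →
    (ρ.IsFlatAt p ∨ ρ.IsStrictOrdinaryAt p) →
    (∀ ℓ : ℕ, ℓ.Prime → ℓ ≠ p → ℓ ∉ Sig →
      ∀ A : ValuationSubring (AlgebraicClosure ℚ), A.LiesOverPrime ℓ →
        ∀ σ : AlgebraicClosure ℚ ≃ₐ[ℚ] AlgebraicClosure ℚ, A.IsFrobeniusAt σ ℓ →
          LinearMap.charpoly (ρ.ρ σ) = X ^ 2 - C (((a ℓ : ℤ) : 𝒪)) * X + C ((ℓ : 𝒪))) →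
    ρ.residual.IsAbsolutelyIrreducible → TWCond ρ.residual →
    (split → ∀ σ : AlgebraicClosure ℚ ≃ₐ[ℚ] AlgebraicClosure ℚ,
      ∃ α β : IsLocalRing.ResidueField 𝒪,
        LinearMap.charpoly (ρ.residual.ρ σ) = (X - C α) * (X - C β)) →
    ∀ (M₀ : ℕ), M₀ ≠ 0 → Squarefree M₀ →
    (∀ q : ℕ, q.Prime → q ≠ p → q ∣ M₀ → ¬ ρ.residual.IsUnramifiedAt q) →
    (p ∣ M₀ → ¬ (GaloisRepAdic.ofResidualGaloisRep ρ.residual).IsFlatAt p) →
    ∀ (f₀ : CuspForm (CongruenceSubgroup.Gamma0 M₀) 2) (𝔪 : Ideal (integralClosure ℤ ℂ)),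
      f₀.IsNormalizedEigenform → 𝔪.IsMaximal → (p : integralClosure ℤ ℂ) ∈ 𝔪 →
      (∀ ℓ : ℕ, ℓ.Prime → ℓ ∉ Sig → ¬ ℓ ∣ M₀ → ℓ ≠ p →
        ∃ b : integralClosure ℤ ℂ, (b : ℂ) = ModularFormClass.qCoeff f₀ ℓ ∧
          b - ((a ℓ : ℤ) : integralClosure ℤ ℂ) ∈ 𝔪) →
    ∃ N : ℕ, ¬ p ^ 2 ∣ N ∧ (∀ q : ℕ, q.Prime → ¬ q ^ 3 ∣ N) ∧
      ∃ f : CuspForm (CongruenceSubgroup.Gamma0 N) 2, f.IsNormalizedEigenform ∧
        ∀ ℓ : ℕ, ℓ.Prime → ℓ ≠ p → ℓ ∉ Sig → ¬ ℓ ∣ N →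
          ModularFormClass.qCoeff f ℓ = (a ℓ : ℂ)

/-- **Modularity lifting, reduced form** (no hypothesis on the residual characteristic
polynomials: the hypothesis `False → …` is void). -/
def Stmt_MLTred : Prop := MLTredShape False

/-- **Modularity lifting, reduced form, split residual characteristic polynomials.** -/
def Stmt_MLTredS : Prop := MLTredShape True

/-- **THETA-MIN**: the residual eigencharacter of `f₀` away from any finite `S ⊇ primes(M₀) ∪ {p}`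
takes values in the field of `ρbar` and satisfies `FrobHyp`; and `ρbar` is unramified outside
`M₀ p`.
[`Ω := AlgebraicClosure k`, `r : ℤ̄ → Ω` with kernel `𝔪`; `S29.result hf₀ hp r` gives `ρ_f` over
`Ω`, attached to `f₀`, unramified outside `M₀ p`; `ρbar ⊗ Ω` and `ρ_f` have the same Frobenius
characteristic polynomials outside `Sig ∪ primes(M₀ p)`, so they are equivalent
(`H57.isEquiv_of_frobenius` over the field `Ω`); unramifiedness descends from `Ω ⊗ V` to `V`;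
`θ_Ω := r ∘ eigenChar` maps the generators `T_ℓ` to `tr ρbar(Frob_ℓ) ∈ k`, so it factors through
`k` (`Asm.adjoin_top_induction`).] -/
def Stmt_THETAMIN : Prop :=
  ∀ (p : ℕ) [Fact p.Prime], p ≠ 2 →
  ∀ (k : Type) [Field k] [Finite k] [CharP k p] (ρbar : ResidualGaloisRep k),
    ρbar.IsAbsolutelyIrreducible →
  ∀ (M₀ : ℕ) [NeZero M₀] (f₀ : CuspForm (Gamma0 M₀) 2) (𝔪 : Ideal (integralClosure ℤ ℂ)),
    f₀.IsNormalizedEigenform → 𝔪.IsMaximal → (p : integralClosure ℤ ℂ) ∈ 𝔪 →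
  ∀ (a : ℕ → ℤ) (Sig : Finset ℕ),
    (∀ ℓ : ℕ, ℓ.Prime → ℓ ∉ Sig → ¬ ℓ ∣ M₀ → ℓ ≠ p →
      ∃ b : integralClosure ℤ ℂ, (b : ℂ) = qCoeff f₀ ℓ ∧
        b - ((a ℓ : ℤ) : integralClosure ℤ ℂ) ∈ 𝔪) →
    (∀ ℓ : ℕ, ℓ.Prime → ℓ ∉ Sig → ℓ ≠ p →
      ∀ A : ValuationSubring (AlgebraicClosure ℚ), A.LiesOverPrime ℓ →
        ∀ σ : AlgebraicClosure ℚ ≃ₐ[ℚ] AlgebraicClosure ℚ, A.IsFrobeniusAt σ ℓ →
          LinearMap.charpoly (ρbar.ρ σ) = X ^ 2 - C (((a ℓ : ℤ) : k)) * X + C ((ℓ : k))) →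
    (∀ q : ℕ, q.Prime → ¬ q ∣ M₀ → q ≠ p → ρbar.IsUnramifiedAt q) ∧
    ∀ (S : Finset ℕ), p ∈ S → (∀ q : ℕ, q.Prime → q ∣ M₀ → q ∈ S) →
      ∃ θ : CuspForm.heckeAlgebra M₀ 2 (↑S : Set ℕ) →+* k,
        Fermat.Agent.S59.Datum.FrobHyp ρbar M₀ S θ

/-- **EXACT-b**: a residual representation which is modular of a level prime to `p` is flat at
`p`.  [`S23.result` (integral structure), `Datum.stmt_DATUM` (the datum `H` over `heckeLocal`,
residual representation `ρbar ⊗ k_T`), `S32.result` (`H.ρ` is flat at `p`),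
`Datum.H78.stmt_FlatDesc`.] -/
def Stmt_EXACTb : Prop :=
  ∀ (𝒪 : Type) [CommRing 𝒪] [IsDomain 𝒪] [IsDiscreteValuationRing 𝒪]
    [IsAdicComplete (maximalIdeal 𝒪) 𝒪] [Finite (ResidueField 𝒪)] [CharZero 𝒪]
    (p : ℕ) [Fact p.Prime], p ≠ 2 → (p : 𝒪) ∈ maximalIdeal 𝒪 →
    ∀ (ρbar : ResidualGaloisRep (ResidueField 𝒪)), ρbar.IsAbsolutelyIrreducible →
    ∀ (N : ℕ) [NeZero N] (S : Finset ℕ), p ∈ S → (∀ q : ℕ, q.Prime → q ∣ N → q ∈ S) →
    ¬ p ∣ N →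
    ∀ (θ : CuspForm.heckeAlgebra N 2 (↑S : Set ℕ) →+* ResidueField 𝒪),
    Fermat.Agent.S59.Datum.FrobHyp ρbar N S θ →
    (GaloisRepAdic.ofResidualGaloisRep ρbar).IsFlatAt p

/-- Wiring (W-b): the reduced form with split characteristic polynomials from RT-NONMIN.
[`ρbar := ρ.residual`, `Smin := {p} ∪ {q ∈ Sig : ρbar ramified at q}`,
`fl := (ρbar is flat at p)`, `N := minLevel p fl Smin = M₀` (by the three extra hypotheses,
`Stmt_THETAMIN` (first part) and `Stmt_EXACTb`), `θ` from `Stmt_THETAMIN` with `S := Smin`,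
`Stmt_MLTgen` with `Sig ∖ Smin`.] -/
def Stmt_REDWIRE : Prop :=
  Stmt_THETAMIN → Stmt_EXACTb → Stmt_MLTgen → Stmt_MLTredS

/-- Wiring (W-a): enlarge the coefficient ring (`H99.exists_split_ext`); the two negative
hypotheses descend (`unramified` and `flat` descend along a residue field extension:
`Datum.H78.stmt_FlatDesc`). -/
def Stmt_REDSPLIT : Prop :=
  Stmt_MLTredS → Stmt_MLTred

/-! ## The bridge to the elliptic-curve form of LL -/

/-- **CARD-KER**: the two standing hypotheses of `residualGaloisRepOf` hold for every integral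
Weierstrass curve with `Δ ≠ 0` and every prime `p`. -/
def Stmt_CARDKER : Prop :=
  ∀ (p : ℕ) [Fact p.Prime] (W : WeierstrassCurve ℤ), W.Δ ≠ 0 →
    Nat.card (Submodule.torsionBy ℤ
      ((W.map (Int.castRingHom ℚ))⁄(AlgebraicClosure ℚ)).Point p) = p ^ 2 ∧
    GaloisFactorsThroughFiniteLevel
      (WeierstrassCurve.Affine.Point.galoisRepModuleEnd (K := AlgebraicClosure ℚ) ℚ
        (W.map (Int.castRingHom ℚ)) p)

/-- **BRIDGE-RES**: a `p`-adic representation with the Frobenius characteristic polynomials of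
`W` and absolutely irreducible residual representation is residually `E[p]`: if `E[p]` is
ramified at `q`, so is `ρ.residual`.
[item 62 (`Lib/EllFinite`): Frobenius characteristic polynomials of `E[p]`;
`H57.isEquiv_of_frobenius`; unramifiedness passes through equivalences and descends along field
extensions.] -/
def Stmt_BRIDGERES : Prop :=
  ∀ (p : ℕ) [Fact p.Prime], p ≠ 2 → ∀ (W : WeierstrassCurve ℤ), W.Δ ≠ 0 →
    ∀ (hcard₁ : Nat.card (Submodule.torsionBy ℤ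
      ((W.map (Int.castRingHom ℚ))⁄(AlgebraicClosure ℚ)).Point p) = p ^ 2)
    (hker : GaloisFactorsThroughFiniteLevel
      (WeierstrassCurve.Affine.Point.galoisRepModuleEnd (K := AlgebraicClosure ℚ) ℚ
        (W.map (Int.castRingHom ℚ)) p)),
    ∀ (𝒪 : Type) [CommRing 𝒪] [IsDomain 𝒪] [IsDiscreteValuationRing 𝒪]
      [IsAdicComplete (maximalIdeal 𝒪) 𝒪] [Finite (ResidueField 𝒪)] [CharZero 𝒪]
      (ρ : GaloisRepAdic 𝒪), ρ.DetIsCyclotomic p → ρ.residual.IsAbsolutelyIrreducible →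
      (∀ ℓ : ℕ, ℓ.Prime → ℓ ≠ p → W.IsGoodPrimeFor ℓ →
        ∀ A : ValuationSubring (AlgebraicClosure ℚ), A.LiesOverPrime ℓ →
          ∀ σ : AlgebraicClosure ℚ ≃ₐ[ℚ] AlgebraicClosure ℚ, A.IsFrobeniusAt σ ℓ →
            LinearMap.charpoly (ρ.ρ σ) =
              X ^ 2 - C (((W.apOfModel ℓ : ℤ) : 𝒪)) * X + C ((ℓ : 𝒪))) →
      ∀ q : ℕ, q.Prime →
        ¬ ((W.map (Int.castRingHom ℚ)).residualGaloisRepOf p hcard₁ hker).IsUnramifiedAt q →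
        ¬ ρ.residual.IsUnramifiedAt q

/-- **TRES**: for a semistable curve with `p ∤ v_p(Δ)` (so `p ∣ Δ`), the residual representation
of a `p`-adic representation with the Frobenius characteristic polynomials of `W` is NOT flat at
`p`. -/
def Stmt_TRES : Prop :=
  ∀ (p : ℕ) [Fact p.Prime], p ≠ 2 → ∀ (W : WeierstrassCurve ℤ), W.Δ ≠ 0 →
    W.IsSemistableModel → W.ModRepIsIrreducible p →
    ¬ (W.map (Int.castRingHom ℚ)).IsPeuRamifieeAt p p →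
    ∀ (𝒪 : Type) [CommRing 𝒪] [IsDomain 𝒪] [IsDiscreteValuationRing 𝒪]
      [IsAdicComplete (maximalIdeal 𝒪) 𝒪] [Finite (ResidueField 𝒪)] [CharZero 𝒪]
      (ρ : GaloisRepAdic 𝒪), ρ.DetIsCyclotomic p → ρ.residual.IsAbsolutelyIrreducible →
      (∀ ℓ : ℕ, ℓ.Prime → ℓ ≠ p → W.IsGoodPrimeFor ℓ →
        ∀ A : ValuationSubring (AlgebraicClosure ℚ), A.LiesOverPrime ℓ →
          ∀ σ : AlgebraicClosure ℚ ≃ₐ[ℚ] AlgebraicClosure ℚ, A.IsFrobeniusAt σ ℓ →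
            LinearMap.charpoly (ρ.ρ σ) =
              X ^ 2 - C (((W.apOfModel ℓ : ℤ) : 𝒪)) * X + C ((ℓ : 𝒪))) →
      ¬ (GaloisRepAdic.ofResidualGaloisRep ρ.residual).IsFlatAt p

/-- Wiring (W-c): `lift_of` of `Wiring.lean` with LL in front of modularity lifting.
[As `lift_of`; before applying modularity lifting replace `(M₀, f₀, 𝔪)` by the output
`(N, f, 𝔪')` of `LL.Stmt_LLec`, and translate its two conclusions with `Stmt_BRIDGERES` and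
`Stmt_TRES`.] -/
def Stmt_LIFTWIRE : Prop :=
  Stmt_Tate → Fermat.Agent.S59.LL.Stmt_LLec → Stmt_CARDKER → Stmt_BRIDGERES → Stmt_TRES →
    Stmt_MLTred → Stmt_Stab → Stmt_Lift

end Fermat.Agent.S59.Asm

end
-- ==== END Fermat.Agent.S59.Asm.Red

-- ==== BEGIN Fermat.Agent.S59.NonMin.Defs
section

/-!
# S59, package RT-NONMIN (planner helper85): interface

Wiles' induction on the set `Sig` of auxiliary primes (Wiles Ch. 2, in Diamond's form), see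
`NOTES/plan/S59_NONMIN.md`.

* `NMState 𝒪`   : a state of the induction: a level `N`, a finite set `S` of primes, a character
                  `θ` of the Hecke algebra of level `N` away from `S` and a Hecke module `M`
                  (finite free over `𝒪`, local at `θ`).
* `NMState.eigen` : the eigenspace `M[x]` of a character `x` lifting `θ`.
* `cq`          : the element `(q - 1) (T_q² - (q + 1)²)` of the Hecke algebra (`q ∤ N`, `q ∉ S`).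
* `NMStep`      : the geometric data of one step `Sig ↦ Sig ∪ {q}`: the module at level `N q²`,
                  the level raising map `α` (Ihara: saturated), its adjoint `α'` (onto),
                  `α' ∘ α = unit · cq`, and multiplicity one (`rank`).
* `omegaCard`   : the cardinality of Diamond's congruence module `M / (M[𝔭] + M[Ann 𝔭])`.
* `RTProp`      : the statement carried by the induction: `R = T` at the state, and
                  `(#Φ_R)^d = #Ω(M)`.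
* `Stmt_STEP`, `Stmt_BASE`, `Stmt_NMGEOM`, `Stmt_CQNE`, `Stmt_ETANE`, `Stmt_PRES`, `Stmt_TAU2`,
  `Stmt_MLTnm` : the leaves and the target.

No `sorry`; definitions only.
-/

set_option autoImplicit false

open Polynomial CuspForm CongruenceSubgroup ModularFormClass IsLocalRing

namespace Fermat.Agent.S59.NonMin

open Fermat.Agent.S59 Fermat.Agent.S59.Asm

/-! ## 1. States and steps -/

/-- A state of the induction on the set of auxiliary primes. -/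
structure NMState (𝒪 : Type) [CommRing 𝒪] [IsLocalRing 𝒪] : Type 1 where
  /-- the level -/
  N : ℕ
  [neZero : NeZero N]
  /-- the set of primes away from which the Hecke algebra is taken -/
  S : Finset ℕ
  /-- the residual character -/
  θ : CuspForm.heckeAlgebra N 2 (↑S : Set ℕ) →+* ResidueField 𝒪
  /-- the Hecke module -/
  M : HMod 𝒪 N (↑S : Set ℕ) θ

attribute [instance] NMState.neZero

section

variable {𝒪 : Type} [CommRing 𝒪] [IsLocalRing 𝒪]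

/-- The eigenspace `M[x]` of a character `x` of the Hecke algebra. -/
def NMState.eigen (s : NMState 𝒪) (x : CuspForm.heckeAlgebra s.N 2 (↑s.S : Set ℕ) →+* 𝒪) :
    Submodule 𝒪 s.M.V :=
  ⨅ t : CuspForm.heckeAlgebra s.N 2 (↑s.S : Set ℕ),
    LinearMap.ker (s.M.η t - x t • (1 : Module.End 𝒪 s.M.V))

theorem NMState.mem_eigen (s : NMState 𝒪)
    (x : CuspForm.heckeAlgebra s.N 2 (↑s.S : Set ℕ) →+* 𝒪) (v : s.M.V) :
    v ∈ s.eigen x ↔ ∀ t : CuspForm.heckeAlgebra s.N 2 (↑s.S : Set ℕ), s.M.η t v = x t • v := by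
  simp only [NMState.eigen, Submodule.mem_iInf, LinearMap.mem_ker, LinearMap.sub_apply,
    LinearMap.smul_apply, Module.End.one_apply, sub_eq_zero]

end

/-- The element `c_q = (q - 1) (T_q² - (q + 1)²)` of the Hecke algebra of level `N` away from `S`
(`q ∤ N`, `q ∉ S`). -/
noncomputable def cq (N : ℕ) [NeZero N] (S : Set ℕ) {q : ℕ} (hq : q.Prime) (hqN : ¬ q ∣ N)
    (hqS : q ∉ S) : CuspForm.heckeAlgebra N 2 S :=
  ((q : CuspForm.heckeAlgebra N 2 S) - 1) *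
    (CuspForm.heckeAlgebra.T hq hqN hqS ^ 2 - ((q : CuspForm.heckeAlgebra N 2 S) + 1) ^ 2)

/-- The geometric data of one step of the induction: from the state `s` to a state at the level
`N q²`, the Hecke algebra being taken away from `S ∪ {q}`. -/
structure NMStep {𝒪 : Type} [CommRing 𝒪] [IsLocalRing 𝒪] (s : NMState 𝒪) {q : ℕ}
    (hq : q.Prime) (hqN : ¬ q ∣ s.N) (hqS : q ∉ (↑s.S : Set ℕ)) [NeZero (s.N * q ^ 2)] :
    Type 1 where
  /-- restriction of Hecke operators (package REST) -/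
  rest : CuspForm.heckeAlgebra (s.N * q ^ 2) 2 (↑(insert q s.S) : Set ℕ) →+*
    CuspForm.heckeAlgebra s.N 2 (↑s.S : Set ℕ)
  rest_T : ∀ (ℓ : ℕ) (hℓ : ℓ.Prime) (hℓN' : ¬ ℓ ∣ s.N * q ^ 2)
    (hℓS' : ℓ ∉ (↑(insert q s.S) : Set ℕ)) (hℓN : ¬ ℓ ∣ s.N) (hℓS : ℓ ∉ (↑s.S : Set ℕ)),
    rest (CuspForm.heckeAlgebra.T hℓ hℓN' hℓS') = CuspForm.heckeAlgebra.T hℓ hℓN hℓS
  /-- the Hecke module at the level `N q²` (cut by `U_q = 0`) -/
  M' : HMod 𝒪 (s.N * q ^ 2) (↑(insert q s.S) : Set ℕ) (s.θ.comp rest)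
  /-- the level raising map `x ↦ q i₁^* x - i₂^* T_q x + i₃^* x` -/
  α : s.M.V →ₗ[𝒪] M'.V
  /-- its adjoint -/
  α' : M'.V →ₗ[𝒪] s.M.V
  α_η : ∀ (t : CuspForm.heckeAlgebra (s.N * q ^ 2) 2 (↑(insert q s.S) : Set ℕ)) (v : s.M.V),
    α (s.M.η (rest t) v) = M'.η t (α v)
  α'_η : ∀ (t : CuspForm.heckeAlgebra (s.N * q ^ 2) 2 (↑(insert q s.S) : Set ℕ)) (w : M'.V),
    α' (M'.η t w) = s.M.η (rest t) (α' w)
  /-- Ihara's lemma: `α` is injective with saturated image -/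
  α_inj : Function.Injective α
  α_sat : ∀ (a : 𝒪) (w : M'.V), a ≠ 0 → a • w ∈ LinearMap.range α → w ∈ LinearMap.range α
  /-- dual Ihara -/
  α'_surj : Function.Surjective α'
  /-- a unit -/
  u : 𝒪ˣ
  /-- `α' ∘ α = u · (q - 1) (T_q² - (q + 1)²)` -/
  comp : ∀ v : s.M.V, α' (α v) = (u : 𝒪) • s.M.η (cq s.N (↑s.S : Set ℕ) hq hqN hqS) v
  /-- multiplicity one: the eigenspaces do not grow -/
  rank : ∀ (x : CuspForm.heckeAlgebra s.N 2 (↑s.S : Set ℕ) →+* 𝒪),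
    (∀ t, residue 𝒪 (x t) = s.θ t) →
    Module.finrank 𝒪 (NMState.eigen ⟨s.N * q ^ 2, insert q s.S, s.θ.comp rest, M'⟩
      (x.comp rest)) ≤ Module.finrank 𝒪 (s.eigen x)

/-- The next state. -/
noncomputable def NMStep.next {𝒪 : Type} [CommRing 𝒪] [IsLocalRing 𝒪] {s : NMState 𝒪} {q : ℕ}
    {hq : q.Prime} {hqN : ¬ q ∣ s.N} {hqS : q ∉ (↑s.S : Set ℕ)} [NeZero (s.N * q ^ 2)]
    (st : NMStep s hq hqN hqS) : NMState 𝒪 :=
  ⟨s.N * q ^ 2, insert q s.S, s.θ.comp st.rest, st.M'⟩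

/-! ## 2. The property carried by the induction -/

/-- The cardinality of Diamond's congruence module `Ω = V / (V[𝔭] + V[Ann 𝔭])`, `𝔭 = ker π`,
of a module `V` over `T` (the structure being given by `ηhat`). -/
noncomputable def omegaCard {𝒪 T V : Type} [CommRing 𝒪] [CommRing T] [Algebra 𝒪 T]
    [AddCommGroup V] [Module 𝒪 V] (ηhat : T →ₐ[𝒪] Module.End 𝒪 V) (π : T →ₐ[𝒪] 𝒪) : ℕ :=
  letI : Module T V := Module.compHom V (ηhat : T →+* Module.End 𝒪 V)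
  Nat.card (V ⧸ Fermat.Agent.S59.NumCrit.H90.omegaSub π V)

section RT

variable (𝒪 : Type) [CommRing 𝒪] [IsDomain 𝒪] [IsDiscreteValuationRing 𝒪]
  [IsAdicComplete (maximalIdeal 𝒪) 𝒪]

/-- The hypotheses on the level of a state, for the set `Sig` of auxiliary primes. -/
structure LevelHyp (p : ℕ) (fl : Bool) (Smin Sig : Finset ℕ) (s : NMState 𝒪) : Prop where
  hS : s.S = Smin ∪ Sig
  hSig : ∀ q ∈ Sig, q.Prime ∧ q ∉ Smin
  dvd_mem : ∀ q : ℕ, q.Prime → q ∣ s.N → q ∈ s.S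
  hmin : ∀ q ∈ Smin, q ≠ p → q ∣ s.N ∧ ¬ q ^ 2 ∣ s.N
  hcube : ∀ q : ℕ, q.Prime → ¬ q ^ 3 ∣ s.N
  hfl : fl = true → ¬ p ∣ s.N
  hso : fl = false → p ∣ s.N ∧ ¬ p ^ 2 ∣ s.N

/-- **`R = T` at a state**, with the numerical equality which drives the induction:
the eigenspace of `x` has rank `d`, and there are a universal deformation ring `D` of type
`cond … Sig`, a Hecke–Galois datum `H` over the full local Hecke ring `T` and a compatible
surjection `φ : D.R → T` such that `φ` is injective, the cotangent space `Φ` of `D.R` at the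
point `x` is finite and `(#Φ)^d = #Ω_x(M)`. -/
def RTProp (p : ℕ) (fl : Bool) (ρbar : ResidualGaloisRep (ResidueField 𝒪)) (Smin Sig : Finset ℕ)
    (s : NMState 𝒪) [Fact (CuspForm.HasIntegralStructure s.N 2)]
    (x : CuspForm.heckeAlgebra s.N 2 (↑s.S : Set ℕ) →+* 𝒪) (d : ℕ) : Prop :=
  Module.finrank 𝒪 (s.eigen x) = d ∧
  ∃ (D : GaloisRep.DeformationRingData 𝒪 ρbar (cond 𝒪 p fl Smin Sig))
    (H : CuspForm.HeckeGaloisRepDatum s.N (↑s.S : Set ℕ) 𝒪 s.θ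
      (CuspForm.heckeLocal s.N (↑s.S : Set ℕ) 𝒪 s.θ))
    (φ : D.R →ₐ[𝒪] CuspForm.heckeLocal s.N (↑s.S : Set ℕ) 𝒪 s.θ)
    (hφ : IsLocalHom (φ : D.R →+* CuspForm.heckeLocal s.N (↑s.S : Set ℕ) 𝒪 s.θ))
    (ηhat : CuspForm.heckeLocal s.N (↑s.S : Set ℕ) 𝒪 s.θ →ₐ[𝒪] Module.End 𝒪 s.M.V)
    (πx : CuspForm.heckeLocal s.N (↑s.S : Set ℕ) 𝒪 s.θ →ₐ[𝒪] 𝒪),
    H.π = CuspForm.heckeLocal.π s.N (↑s.S : Set ℕ) 𝒪 s.θ ∧
    Function.Bijective φ ∧
    (D.ρ.baseChangeAlong (φ : D.R →+* CuspForm.heckeLocal s.N (↑s.S : Set ℕ) 𝒪 s.θ) hφ).IsEquiv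
      H.ρ ∧
    (∀ t, ηhat (CuspForm.heckeLocal.π s.N (↑s.S : Set ℕ) 𝒪 s.θ t) = s.M.η t) ∧
    (∀ t, πx (CuspForm.heckeLocal.π s.N (↑s.S : Set ℕ) 𝒪 s.θ t) = x t) ∧
    Finite (RingHom.ker ((πx.comp φ : D.R →ₐ[𝒪] 𝒪) : D.R →+* 𝒪)).Cotangent ∧
    Nat.card (RingHom.ker ((πx.comp φ : D.R →ₐ[𝒪] 𝒪) : D.R →+* 𝒪)).Cotangent ^ d =
      omegaCard ηhat πx

end RT

/-! ## 3. The leaves -/

/-- **STEP** (pure algebra + deformation theory; all inputs landed or leaves of this package):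
`RTProp` passes from a state to the next one along an `NMStep`.
Proof: see `NOTES/plan/S59_NONMIN.md` §3. -/
def Stmt_STEP : Prop :=
  ∀ (𝒪 : Type) [CommRing 𝒪] [IsDomain 𝒪] [IsDiscreteValuationRing 𝒪]
    [IsAdicComplete (maximalIdeal 𝒪) 𝒪] [Finite (ResidueField 𝒪)] [CharZero 𝒪]
    (p : ℕ) [Fact p.Prime], p ≠ 2 → (p : 𝒪) ∈ maximalIdeal 𝒪 →
    ∀ (fl : Bool) (ρbar : ResidualGaloisRep (ResidueField 𝒪)) (Smin : Finset ℕ),
    ResHyp p ρbar Smin →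
    cond 𝒪 p fl Smin ∅ (GaloisRepAdic.ofResidualGaloisRep ρbar) →
    (fl = false → ¬ (GaloisRepAdic.ofResidualGaloisRep ρbar).IsFlatAt p) →
    ∀ (Sig : Finset ℕ) (s : NMState 𝒪) [Fact (CuspForm.HasIntegralStructure s.N 2)],
    LevelHyp 𝒪 p fl Smin Sig s →
    Fermat.Agent.S59.Datum.FrobHyp ρbar s.N s.S s.θ →
    ∀ (x : CuspForm.heckeAlgebra s.N 2 (↑s.S : Set ℕ) →+* 𝒪),
    (∀ t, residue 𝒪 (x t) = s.θ t) →
    ∀ (d : ℕ), 0 < d → RTProp 𝒪 p fl ρbar Smin Sig s x d →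
    ∀ (q : ℕ) (hq : q.Prime) (_hqp : q ≠ p) (hqN : ¬ q ∣ s.N) (hqS : q ∉ (↑s.S : Set ℕ))
      [NeZero (s.N * q ^ 2)] (st : NMStep s hq hqN hqS)
      [Fact (CuspForm.HasIntegralStructure (s.N * q ^ 2) 2)],
      RTProp 𝒪 p fl ρbar Smin (insert q Sig)
        (⟨s.N * q ^ 2, insert q s.S, s.θ.comp st.rest, st.M'⟩ : NMState 𝒪) (x.comp st.rest) d

/-- **BASE**: at the minimal level `RTProp` holds (with `d` = the rank of `M` over `T`) as soon as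
`M` is free over the deformation ring and the deformation ring is a complete intersection: the
output of the Taylor–Wiles patching (`S57`, `eigenform_of_patchingDatum`), `NumCrit.H90.nc2` and
`NumCrit.H90.card_omega_of_free`. -/
def Stmt_BASE : Prop :=
  ∀ (𝒪 : Type) [CommRing 𝒪] [IsDomain 𝒪] [IsDiscreteValuationRing 𝒪]
    [IsAdicComplete (maximalIdeal 𝒪) 𝒪] [Finite (ResidueField 𝒪)] [CharZero 𝒪]
    (p : ℕ) [Fact p.Prime], p ≠ 2 → (p : 𝒪) ∈ maximalIdeal 𝒪 →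
    ∀ (fl : Bool) (ρbar : ResidualGaloisRep (ResidueField 𝒪)) (Smin : Finset ℕ),
    ResHyp p ρbar Smin →
    ∀ (s : NMState 𝒪) [Fact (CuspForm.HasIntegralStructure s.N 2)],
    LevelHyp 𝒪 p fl Smin ∅ s →
    ∀ (x : CuspForm.heckeAlgebra s.N 2 (↑s.S : Set ℕ) →+* 𝒪),
    (∀ t, residue 𝒪 (x t) = s.θ t) →
    ∀ (D : GaloisRep.DeformationRingData 𝒪 ρbar (cond 𝒪 p fl Smin ∅))
      (H : CuspForm.HeckeGaloisRepDatum s.N (↑s.S : Set ℕ) 𝒪 s.θ
        (CuspForm.heckeLocal s.N (↑s.S : Set ℕ) 𝒪 s.θ)),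
    H.π = CuspForm.heckeLocal.π s.N (↑s.S : Set ℕ) 𝒪 s.θ →
    ∀ (φ : D.R →ₐ[𝒪] CuspForm.heckeLocal s.N (↑s.S : Set ℕ) 𝒪 s.θ)
      (hφ : IsLocalHom (φ : D.R →+* CuspForm.heckeLocal s.N (↑s.S : Set ℕ) 𝒪 s.θ)),
    Function.Surjective φ →
    (D.ρ.baseChangeAlong
      (φ : D.R →+* CuspForm.heckeLocal s.N (↑s.S : Set ℕ) 𝒪 s.θ) hφ).IsEquiv H.ρ →
    ∀ (ηhat : CuspForm.heckeLocal s.N (↑s.S : Set ℕ) 𝒪 s.θ →ₐ[𝒪] Module.End 𝒪 s.M.V),
    (∀ t, ηhat (CuspForm.heckeLocal.π s.N (↑s.S : Set ℕ) 𝒪 s.θ t) = s.M.η t) →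
    -- the output of the patching argument (S57): `D.R` is a complete intersection and the
    -- module is free over it
    ∀ (r : ℕ) (γ : MvPowerSeries (Fin r) 𝒪 →ₐ[𝒪] D.R) (g : Fin r → MvPowerSeries (Fin r) 𝒪),
    Function.Surjective γ →
    RingHom.ker (γ : MvPowerSeries (Fin r) 𝒪 →+* D.R) = Ideal.span (Set.range g) →
    @Module.Free D.R s.M.V _ _ (Module.compHom s.M.V
        ((ηhat.comp φ : D.R →ₐ[𝒪] Module.End 𝒪 s.M.V) : D.R →+* Module.End 𝒪 s.M.V)) →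
    Nontrivial s.M.V →
    ∃ d : ℕ, 0 < d ∧ RTProp 𝒪 p fl ρbar Smin ∅ s x d

/-- **CQ-NE**: `T_q² ≠ (q + 1)²` at every characteristic zero point of the Hecke algebra
(`q ∤ N`).  [`|a_q(f)| < q + 1` for every normalised eigenform `f` of weight `2`: the maximum of
`|f(z)| Im z`, see the plan §5; no Weil bound.] -/
def Stmt_CQNE : Prop :=
  ∀ (N : ℕ) [NeZero N] (S : Set ℕ) (q : ℕ) (hq : q.Prime) (hqN : ¬ q ∣ N) (hqS : q ∉ S)
    (K : Type) [Field K] [CharZero K] (x : CuspForm.heckeAlgebra N 2 S →+* K),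
    x (CuspForm.heckeAlgebra.T hq hqN hqS) ^ 2 ≠ ((q : K) + 1) ^ 2

/-- **ETA-NE**: the congruence ideal of the full local Hecke ring at a point is nonzero
(the Hecke algebra is reduced: `R.Pet.H98.stmt_HeckeReduced`). -/
def Stmt_ETANE : Prop :=
  ∀ (𝒪 : Type) [CommRing 𝒪] [IsDomain 𝒪] [IsDiscreteValuationRing 𝒪]
    [IsAdicComplete (maximalIdeal 𝒪) 𝒪] [CharZero 𝒪]
    (N : ℕ) [NeZero N] [Fact (CuspForm.HasIntegralStructure N 2)] (S : Finset ℕ),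
    (∀ q : ℕ, q.Prime → q ∣ N → q ∈ S) →
    ∀ (θ : CuspForm.heckeAlgebra N 2 (↑S : Set ℕ) →+* ResidueField 𝒪)
      (π : CuspForm.heckeLocal N (↑S : Set ℕ) 𝒪 θ →ₐ[𝒪] 𝒪),
      Fermat.Agent.S59.NumCrit.eta π ≠ ⊥

/-- **PRES**: a universal deformation ring is a quotient of a power series ring. -/
def Stmt_PRES : Prop :=
  ∀ (𝒪 : Type) [CommRing 𝒪] [IsDomain 𝒪] [IsDiscreteValuationRing 𝒪]
    [IsAdicComplete (maximalIdeal 𝒪) 𝒪]
    (ρbar : ResidualGaloisRep (ResidueField 𝒪))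
    (𝒟 : ∀ ⦃A : Type⦄ [CommRing A] [IsLocalRing A] [Algebra 𝒪 A], GaloisRepAdic A → Prop)
    (D : GaloisRep.DeformationRingData 𝒪 ρbar 𝒟),
    ∃ (n : ℕ) (γ : MvPowerSeries (Fin n) 𝒪 →ₐ[𝒪] D.R), Function.Surjective γ

/-- **TAU2**: the surjection between the deformation rings for `Sig ⊆ Sig'`
(as `Asm.H99.stmt_TAU`, with `Asm.cond_mono`). -/
def Stmt_TAU2 : Prop :=
  ∀ (𝒪 : Type) [CommRing 𝒪] [IsDomain 𝒪] [IsDiscreteValuationRing 𝒪]
    [IsAdicComplete (maximalIdeal 𝒪) 𝒪] [Finite (ResidueField 𝒪)]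
    (p : ℕ) [Fact p.Prime], p ≠ 2 → (p : 𝒪) ∈ maximalIdeal 𝒪 →
    ∀ (fl : Bool) (ρbar : ResidualGaloisRep (ResidueField 𝒪)) (Smin Sig Sig' : Finset ℕ),
    Sig ⊆ Sig' → p ∈ Smin → (∀ q ∈ Smin ∪ Sig', q.Prime) →
    ∀ (D : GaloisRep.DeformationRingData 𝒪 ρbar (cond 𝒪 p fl Smin Sig))
      (D' : GaloisRep.DeformationRingData 𝒪 ρbar (cond 𝒪 p fl Smin Sig')),
    ∃ τ : D'.R →ₐ[𝒪] D.R, Function.Surjective τ ∧
      ∃ h : IsLocalHom (τ : D'.R →+* D.R),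
        (D'.ρ.baseChangeAlong (τ : D'.R →+* D.R) h).IsEquiv D.ρ

/-- **NMGEOM** (geometry: Betti/Tate module of `X₀(N q²)`, Ihara's lemma for three degeneracy maps,
Poincaré duality, multiplicity one): the Hecke module of the minimal case (`Asm.Stmt_TWGEOM`)
can be chosen inside a class `G` of states which is closed under the steps of the induction. -/
def Stmt_NMGEOM : Prop :=
  ∀ (𝒪 : Type) [CommRing 𝒪] [IsDomain 𝒪] [IsDiscreteValuationRing 𝒪]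
    [IsAdicComplete (maximalIdeal 𝒪) 𝒪] [Finite (ResidueField 𝒪)] [CharZero 𝒪]
    (p : ℕ) [Fact p.Prime], p ≠ 2 → (p : 𝒪) ∈ maximalIdeal 𝒪 →
    ∀ (ρbar : ResidualGaloisRep (ResidueField 𝒪)) (Smin : Finset ℕ), ResHyp p ρbar Smin →
    ∀ (N : ℕ) [NeZero N] [Fact (CuspForm.HasIntegralStructure N 2)],
    (∀ q : ℕ, q.Prime → q ∣ N → q ∈ Smin) → Squarefree N →
    ∀ (θ : CuspForm.heckeAlgebra N 2 (↑Smin : Set ℕ) →+* ResidueField 𝒪),
    Fermat.Agent.S59.Datum.FrobHyp ρbar N Smin θ →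
    ∃ (M : HMod 𝒪 N (↑Smin : Set ℕ) θ) (G : NMState 𝒪 → Prop), Nontrivial M.V ∧
      (∀ (r n : ℕ) (qv : Fin r → ℕ), Fermat.Agent.S56.IsTWFamily ρbar p n Smin qv →
        ∀ [NeZero (twLevel N qv)] [Fact (CuspForm.HasIntegralStructure (twLevel N qv) 2)],
          Nonempty (TWGeom 𝒪 p ρbar N Smin θ M n qv)) ∧
      G ⟨N, Smin, θ, M⟩ ∧
      ∀ s : NMState 𝒪, G s → ∀ (q : ℕ) (hq : q.Prime), q ≠ p → ∀ (hqN : ¬ q ∣ s.N)
        (hqS : q ∉ (↑s.S : Set ℕ)) [NeZero (s.N * q ^ 2)],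
        ∃ st : NMStep s hq hqN hqS, G st.next

/-- **Modularity lifting, non-minimal case**: the target of the package.  `x₀` is a
characteristic zero point of the Hecke algebra at the minimal level lifting `θ` (leaf AUG: it
exists after a finite extension of `𝒪`). -/
def Stmt_MLTnm : Prop :=
  ∀ (𝒪 : Type) [CommRing 𝒪] [IsDomain 𝒪] [IsDiscreteValuationRing 𝒪]
    [IsAdicComplete (maximalIdeal 𝒪) 𝒪] [Finite (ResidueField 𝒪)] [CharZero 𝒪]
    (p : ℕ) [Fact p.Prime], p ≠ 2 → (p : 𝒪) ∈ maximalIdeal 𝒪 →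
    ∀ (fl : Bool) (ρbar : ResidualGaloisRep (ResidueField 𝒪)) (Smin : Finset ℕ),
    ResHyp p ρbar Smin →
    cond 𝒪 p fl Smin ∅ (GaloisRepAdic.ofResidualGaloisRep ρbar) →
    (fl = false → ¬ (GaloisRepAdic.ofResidualGaloisRep ρbar).IsFlatAt p) →
    ∀ (N : ℕ) [NeZero N], N = minLevel p fl Smin →
    ∀ (θ : CuspForm.heckeAlgebra N 2 (↑Smin : Set ℕ) →+* ResidueField 𝒪),
    Fermat.Agent.S59.Datum.FrobHyp ρbar N Smin θ →
    ∀ (x₀ : CuspForm.heckeAlgebra N 2 (↑Smin : Set ℕ) →+* 𝒪),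
    (∀ t, residue 𝒪 (x₀ t) = θ t) →
    ∀ (Sig : Finset ℕ), (∀ q ∈ Sig, q.Prime ∧ q ∉ Smin) →
    ∀ (ρ : GaloisRepAdic 𝒪), cond 𝒪 p fl Smin Sig ρ →
    ρ.residual.IsEquiv (ρbar.baseChangeAlong (ResidueField.map (algebraMap 𝒪 𝒪))) →
    ∀ (a : ℕ → ℤ),
    (∀ ℓ : ℕ, ℓ.Prime → ℓ ∉ Smin ∪ Sig →
      ∀ A : ValuationSubring (AlgebraicClosure ℚ), A.LiesOverPrime ℓ →
        ∀ σ : AlgebraicClosure ℚ ≃ₐ[ℚ] AlgebraicClosure ℚ, A.IsFrobeniusAt σ ℓ →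
          LinearMap.charpoly (ρ.ρ σ) = X ^ 2 - C (((a ℓ : ℤ) : 𝒪)) * X + C ((ℓ : 𝒪))) →
    ∃ N' : ℕ, ¬ p ^ 2 ∣ N' ∧ (∀ q : ℕ, q.Prime → ¬ q ^ 3 ∣ N') ∧
      ∃ g : CuspForm (Gamma0 N') 2, g.IsNormalizedEigenform ∧
        ∀ ℓ : ℕ, ℓ.Prime → ¬ ℓ ∣ N' → ℓ ∉ Smin ∪ Sig → qCoeff ⇑g ℓ = (a ℓ : ℂ)

end Fermat.Agent.S59.NonMin

end
-- ==== END Fermat.Agent.S59.NonMin.Defs
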