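-- GENERATED (merged mirror, NOTES/tools/trim/merge3_helper67.py): 4 modules of the originals, bodies verbatim.
import Fermat.Agent.Zm.S43_L13_000
import Fermat.Agent.Zm.S43_L13_001
import Fermat.Agent.Zm.S43_L06_000
import Fermat.Agent.Zm.S43_L10_000
import Fermat.Agent.Zm.S43_L06_002
import Fermat.Agent.Zm.S43_L12_000
import Fermat.Agent.Zm.S43_L08_000
import Fermat.Agent.Zm.S43_L13_002
import Fermat.Agent.Zm.S43_L12_001
import Fermat.Agent.Zm.S43_L02_003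

-- ==== BEGIN Fermat.Agent.L.Pivot.Geom.Base
section

/-!
# PIVOT, package PV-GEOM (owner-planner helper59): the base datum `PVBase` (design (C))

Plan: `NOTES/plan/PV_GEOM.md` (v2).  The ONLY geometric object of PV-GEOM is the divisible module
`W' ⊆ 𝒪 ⊗ J_{H'}[p^∞]` (`H' ⊂ (ℤ/c')ˣ`, `c' = c_Σ c_Q`, mixed exponents; localised at `U_q` only at
the Taylor–Wiles primes).  The Taylor–Wiles datum `G1D` of unipotent type is NOT a second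
geometric object: its module is the range of the total norm of the pivot diamonds,

  `G1D.WD.W := range (Nm_{Δ_Σ} : W' → W')`,

so that `κ = Nm_{Δ_Σ}` and `κup` = inclusion, and all the `κ`-fields of `PVDiv` are formal
(`H59_LayerB*.lean`: `pvDiv_of_base`).

* `PVBase`      : the data on `W'` (fields = leaves P-SETUP, P-GAL, P-ES, P-HSTEP, P-PI, P-EIGPART,
  P-FROBNIL, P-LG, and `new`).
* `Stmt_PVBASE` : the base data exist (hypotheses of `Stmt_PVDIV`).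

Definitions only; no `sorry`.
-/

set_option autoImplicit false

noncomputable section

namespace Fermat.Agent.L.Pivot.Geom

open Polynomial IsLocalRing CuspForm Fermat.Agent.S56 Fermat.Agent.S59 Fermat.Agent.S59.Asm
  Fermat.Agent.S59.Lim Fermat.Agent.L.Pivot

set_option maxHeartbeats 2000000 in
/-- **The base datum of PV-GEOM**: the divisible module `W'` of level `Γ_{H'}` with its diamond
operators `c j` (pivot primes), `d i` (Taylor–Wiles primes), the twisted Galois action, the maps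
`π`, `πup` to the minimal level `N1` (through `Γ₀(N1 ∏ qv_i)`), and the local data at the
Taylor–Wiles primes. -/
structure PVBase (𝒪 : Type) [CommRing 𝒪] [IsLocalRing 𝒪] (ϖ : 𝒪) (p : ℕ)
    (ρbar : ResidualGaloisRep (ResidueField 𝒪))
    (N1 : ℕ) [NeZero N1] (S : Finset ℕ)
    (θ : CuspForm.heckeAlgebra N1 2 (↑S : Set ℕ) →+* ResidueField 𝒪)
    (MD : HDiv 𝒪 ϖ N1 (↑S : Set ℕ) θ) {k : ℕ} (qP : Fin k → ℕ) (eP : Fin k → ℕ)
    {r : ℕ} (n : ℕ) (qv : Fin r → ℕ)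
    [NeZero (twLevel N1 qv)] [NeZero (pvLevel N1 qP qv)] : Type 1 where
  /-- restriction of Hecke operators `twLevel → N1` (package REST) -/
  rest1 : CuspForm.heckeAlgebra (twLevel N1 qv) 2 (↑(twSet S qv) : Set ℕ) →+*
    CuspForm.heckeAlgebra N1 2 (↑S : Set ℕ)
  rest1_T : ∀ (ℓ : ℕ) (hℓ : ℓ.Prime) (hℓN' : ¬ ℓ ∣ twLevel N1 qv)
    (hℓS' : ℓ ∉ (↑(twSet S qv) : Set ℕ)) (hℓN : ¬ ℓ ∣ N1) (hℓS : ℓ ∉ (↑S : Set ℕ)),
    rest1 (CuspForm.heckeAlgebra.T hℓ hℓN' hℓS') = CuspForm.heckeAlgebra.T hℓ hℓN hℓS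
  /-- restriction of Hecke operators `pvLevel → twLevel` (PVG-REST: `H4.restPV`) -/
  rest : CuspForm.heckeAlgebra (pvLevel N1 qP qv) 2 (↑(twSet S qv) : Set ℕ) →+*
    CuspForm.heckeAlgebra (twLevel N1 qv) 2 (↑(twSet S qv) : Set ℕ)
  rest_T : ∀ (ℓ : ℕ) (hℓ : ℓ.Prime) (hℓN' : ¬ ℓ ∣ pvLevel N1 qP qv)
    (hℓS : ℓ ∉ (↑(twSet S qv) : Set ℕ)) (hℓN : ¬ ℓ ∣ twLevel N1 qv),
    rest (CuspForm.heckeAlgebra.T hℓ hℓN' hℓS) = CuspForm.heckeAlgebra.T hℓ hℓN hℓS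
  /-- the two Hecke algebras have the same generators -/
  rest_surj : Function.Surjective rest
  /-- the divisible Hecke module at the level `M₀ ∏ q_j² ∏ qv_i²` -/
  WD : HDiv 𝒪 ϖ (pvLevel N1 qP qv) (↑(twSet S qv) : Set ℕ) ((θ.comp rest1).comp rest)
  /-- the twisted Galois action -/
  gal : GalQ →* Module.End 𝒪 WD.W
  gal_cont : ∀ x : WD.W, ∃ L : IntermediateField ℚ (AlgebraicClosure ℚ),
    FiniteDimensional ℚ L ∧ ∀ σ : GalQ, (∀ y ∈ L, σ y = y) → gal σ x = x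
  gal_η : ∀ (g : GalQ)
    (t : CuspForm.heckeAlgebra (pvLevel N1 qP qv) 2 (↑(twSet S qv) : Set ℕ)),
    Commute (gal g) (WD.η t)
  /-- Eichler–Shimura -/
  es : ∀ (ℓ : ℕ) (hℓ : ℓ.Prime) (hℓN : ¬ ℓ ∣ pvLevel N1 qP qv)
    (hℓS : ℓ ∉ (↑(twSet S qv) : Set ℕ)),
    ∀ A : ValuationSubring (AlgebraicClosure ℚ), A.LiesOverPrime ℓ →
      ∀ σ : GalQ, A.IsFrobeniusAt σ ℓ →
        gal σ * gal σ - WD.η (CuspForm.heckeAlgebra.T hℓ hℓN hℓS) * gal σ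
          + (ℓ : 𝒪) • (1 : Module.End 𝒪 WD.W) = 0
  /-- the diamond operators at the pivot primes -/
  c : Fin k → Module.End 𝒪 WD.W
  c_pow : ∀ j, c j ^ (p ^ eP j) = 1
  /-- the diamond operators at the Taylor–Wiles primes -/
  d : Fin r → Module.End 𝒪 WD.W
  d_pow : ∀ i, d i ^ (p ^ n) = 1
  c_comm : ∀ i j, Commute (c i) (c j)
  d_comm : ∀ i j, Commute (d i) (d j)
  c_d : ∀ j i, Commute (c j) (d i)
  c_η : ∀ (j : Fin k)
    (t : CuspForm.heckeAlgebra (pvLevel N1 qP qv) 2 (↑(twSet S qv) : Set ℕ)),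
    Commute (c j) (WD.η t)
  d_η : ∀ (i : Fin r)
    (t : CuspForm.heckeAlgebra (pvLevel N1 qP qv) 2 (↑(twSet S qv) : Set ℕ)),
    Commute (d i) (WD.η t)
  c_gal : ∀ (j : Fin k) (g : GalQ), Commute (c j) (gal g)
  d_gal : ∀ (i : Fin r) (g : GalQ), Commute (d i) (gal g)
  /-- (P-HSTEP, pivot part) norm surjectivity along the tower of the pivot primes, on `W'[ϖ]` -/
  hstepC : ∀ (j : Fin k) (v : WD.W), ϖ • v = 0 → (∀ i, i ≤ j → c i v = v) →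
    ∃ w : WD.W, ϖ • w = 0 ∧ (∀ i, i < j → c i w = w) ∧
      Fermat.Agent.S59.TWH.H90.nm (p ^ eP j) (c j) w = v
  /-- (P-HSTEP, Taylor–Wiles part) norm surjectivity along the tower of the Taylor–Wiles primes,
  on the `Δ_Σ`-invariants of `W'[ϖ]` -/
  hstepD : ∀ (i : Fin r) (v : WD.W), ϖ • v = 0 → (∀ j, c j v = v) →
    (∀ i', i' ≤ i → d i' v = v) →
    ∃ w : WD.W, ϖ • w = 0 ∧ (∀ j, c j w = w) ∧ (∀ i', i' < i → d i' w = w) ∧
      Fermat.Agent.S59.TWH.H90.nm (p ^ n) (d i) w = v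
  /-- (P-PI) the projection to the minimal level -/
  π : WD.W →ₗ[𝒪] MD.W
  /-- (P-PI) the pull-back from the minimal level -/
  πup : MD.W →ₗ[𝒪] WD.W
  πup_injective : Function.Injective πup
  /-- `π^* π_* = ∑_{δ ∈ Δ_Σ × Δ_Q} δ` -/
  πup_π : ∀ x : WD.W, πup (π x) =
    Fermat.Agent.S59.TWH.H90.nmTot (p ^ n) d (H59.nmTotE (fun j => p ^ eP j) c x)
  c_πup : ∀ (j : Fin k) (y : MD.W), c j (πup y) = πup y
  d_πup : ∀ (i : Fin r) (y : MD.W), d i (πup y) = πup y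
  /-- (INV) on `W'[ϖ]`: the invariants under all diamond operators are pull-backs -/
  invAll : ∀ v : WD.W, ϖ • v = 0 → (∀ j, c j v = v) → (∀ i, d i v = v) →
    ∃ y : MD.W, πup y = v
  π_η : ∀ (t : CuspForm.heckeAlgebra (pvLevel N1 qP qv) 2 (↑(twSet S qv) : Set ℕ)) (v : WD.W),
    π (WD.η t v) = MD.η (rest1 (rest t)) (π v)
  /-- (P-EIGPART) the Hecke algebra of level `twLevel` acts on the `Δ_Σ`-norms -/
  eigpart : ∀ t : CuspForm.heckeAlgebra (pvLevel N1 qP qv) 2 (↑(twSet S qv) : Set ℕ),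
    rest t = 0 → ∀ x : WD.W, WD.η t (H59.nmTotE (fun j => p ^ eP j) c x) = 0
  /-- the local data at the Taylor–Wiles primes -/
  P : Fin r → ValuationSubring (AlgebraicClosure ℚ)
  P_over : ∀ i, (P i).LiesOverPrime (qv i)
  frob : Fin r → GalQ
  frob_spec : ∀ i, (P i).IsFrobeniusAt (frob i) (qv i)
  σ : Fin r → GalQ
  σ_mem : ∀ i, σ i ∈ (P i).inertiaSubgroupIn ℚ
  a : Fin r → 𝒪
  a' : Fin r → 𝒪
  a_ne : ∀ i, residue 𝒪 (a i) ≠ residue 𝒪 (a' i)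
  charpoly_frob : ∀ i, LinearMap.charpoly (ρbar.ρ (frob i)) =
    (X - C (residue 𝒪 (a i))) * (X - C (residue 𝒪 (a' i)))
  /-- (P-FROBNIL) `(F - a)(F - a')` is nilpotent on `W'[ϖ]` -/
  frob_nil : ∀ (i : Fin r) (x : WD.W), ϖ • x = 0 → ∃ m : ℕ,
    (((gal (frob i) - a i • (1 : Module.End 𝒪 WD.W)) *
      (gal (frob i) - a' i • (1 : Module.End 𝒪 WD.W))) ^ m) x = 0
  /-- (P-LG) local–global compatibility at the Taylor–Wiles primes on `W'` -/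
  lg : ∀ (i : Fin r) (x : WD.W),
    x ∈ gk (gal (frob i) - a i • (1 : Module.End 𝒪 WD.W)) →
    gal (σ i) x = d i x
  /-- **the ramified types are new at the pivot primes** (the field `PVGeom.new`, verbatim). -/
  new : ∀ (ψ : Fin k → 𝒪), (∀ j, ψ j ^ (p ^ eP j) = 1 ∧ ψ j ≠ 1) →
    ∀ (D : Type) [CommRing D] [IsDomain D] [CharZero D]
      (χ : CuspForm.heckeAlgebra (pvLevel N1 qP qv) 2 (↑(twSet S qv) : Set ℕ) →+* D),
      (∀ t, (∀ v : H2.tate ϖ WD.W, H2.mapEnd ϖ WD.W (WD.η t) v ∈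
        typeSub (fun j => H2.mapEnd ϖ WD.W (c j)) ψ) → χ t = 0) →
      ∀ (j : Fin k) [NeZero (pvLevel N1 qP qv / qP j)]
        (χ' : CuspForm.heckeAlgebra (pvLevel N1 qP qv / qP j) 2 (↑(twSet S qv) : Set ℕ) →+* D),
        ¬ ∀ (ℓ : ℕ) (hℓ : ℓ.Prime) (hℓN' : ¬ ℓ ∣ pvLevel N1 qP qv)
          (hℓS : ℓ ∉ (↑(twSet S qv) : Set ℕ)) (hℓN : ¬ ℓ ∣ pvLevel N1 qP qv / qP j),
          χ' (CuspForm.heckeAlgebra.T hℓ hℓN hℓS) = χ (CuspForm.heckeAlgebra.T hℓ hℓN' hℓS)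

/-- **PV-BASE**: the base data of PIVOT exist for every Taylor–Wiles family (the geometric
content of PV-GEOM in design (C); hypotheses = those of `Stmt_PVDIV`, in particular `5 ≤ p`
[no elliptic ramification in the pivot tower] and `0 < k` [the conductor `c'` is `≥ 2`]). -/
def Stmt_PVBASE : Prop :=
  ∀ (𝒪 : Type) [CommRing 𝒪] [IsDomain 𝒪] [IsDiscreteValuationRing 𝒪]
    [IsAdicComplete (maximalIdeal 𝒪) 𝒪] [Finite (ResidueField 𝒪)] [CharZero 𝒪]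
    (ϖ : 𝒪), Irreducible ϖ →
    ∀ (p : ℕ) [Fact p.Prime] (ρbar : ResidualGaloisRep (ResidueField 𝒪)) (S Smin : Finset ℕ),
    Hyp 𝒪 p ρbar S Smin →
    ∀ (N1 : ℕ) [NeZero N1] [Fact (CuspForm.HasIntegralStructure N1 2)],
    (∀ q : ℕ, q.Prime → q ∣ N1 → q ∈ S) → Squarefree N1 →
    (5 ≤ p ∨ ∃ r : ℕ, r.Prime ∧ r ∣ N1 ∧ r % 3 = 2) →
    ∀ (θ : CuspForm.heckeAlgebra N1 2 (↑S : Set ℕ) →+* ResidueField 𝒪),
      Fermat.Agent.S59.Datum.FrobHyp ρbar N1 S θ →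
    ∀ (k : ℕ) (Pv : PivotPrimes k), 0 < k → Pv.IsExceptional p ρbar → (∀ j, Pv.q j ∣ N1) →
    ∀ (eP : Fin k → ℕ), (∀ j, p ^ eP j ∣ Pv.q j - 1 ∧ ¬ p ^ (eP j + 1) ∣ Pv.q j - 1) →
    ∃ MD : HDiv 𝒪 ϖ N1 (↑S : Set ℕ) θ, Nontrivial MD.W ∧
      ∀ (r n : ℕ) (qv : Fin r → ℕ), IsTWFamily ρbar p n S qv →
        ∀ [NeZero (twLevel N1 qv)] [NeZero (pvLevel N1 Pv.q qv)]
          [Fact (CuspForm.HasIntegralStructure (twLevel N1 qv) 2)]
          [Fact (CuspForm.HasIntegralStructure (pvLevel N1 Pv.q qv) 2)],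
          Nonempty (PVBase 𝒪 ϖ p ρbar N1 S θ MD Pv.q eP n qv)

end Fermat.Agent.L.Pivot.Geom

end

end
-- ==== END Fermat.Agent.L.Pivot.Geom.Base

-- ==== BEGIN Fermat.Agent.L.Pivot.Geom.DefsPV
section

/-!
# PIVOT, package PV-GEOM, Part I (design (C) of helper59): the concrete objects (helper19)

Mirror of `NEB/Geom/DefsC.lean`, `DefsL.lean`, `DefsWD.lean`, `AsmDefs.lean` for the module `W'`:

* `N1 = M₀ · c_Σ` squarefree (base level, the pivot primes `qP j` divide `N1`), `qv` a Taylor–Wiles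
  family; `M1 := N1 * twC qv`;
* `pvC qP qv = c_Σ · c_Q` (`= twC qP * twC qv`), the conductor of the nebentypus;
* `pvH p eP n qP qv ≤ (ℤ/c')ˣ` : the units which are `p ^ eP j`-th powers at `qP j` and
  `p ^ n`-th powers at `qv i` (MIXED exponents);
* `jPv p eP n = (p ^ (n + ∑ eP j) - 1) / 2` : the twisting exponent;
* `opsPv` : the operators `T'_ℓ = T_ℓ^H ⟨ℓ⟩^jPv` (good `ℓ`), `U_{qv i}` (ONLY at the Taylor–Wiles
  primes: no operator at the pivot primes), `⟨u⟩` on `AH M1 c' H' p = J_H'[p^∞]`;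
* `thetaPv` : `T'_ℓ ↦ θ (T_ℓ)`, `U_{qv i} ↦ α i`, `⟨u⟩ ↦ 1`;
* `Wpv` : the `θ⁺`-part of `𝒪 ⊗ J_H'[p^∞]`  (the ONLY geometric object of Part I);
* `PvHyp`, `IsDeltaGenPv`, `PvSetup` : hypotheses, generators of `Δ' = Δ_Σ × Δ_Q`, all choices;
* `PvSetup.WD`, `PvSetup.gal`, `PvSetup.c`, `PvSetup.d` : the objects of `PVDiv` on `W'`.

The index type of the polynomial Hecke ring is `IdxTw r (pvC qP qv)` (helper84's `IdxTw`), the good
primes are helper84's `GoodTw N1 S qv` (equivalent to `ℓ ∤ pvLevel`, `ℓ ∉ twSet S qv`: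
`goodTw_of_pv`, `goodTw_not_dvd_pvLevel`).

Definitions and elementary lemmas only; no `sorry`.
-/

set_option autoImplicit false
set_option linter.unusedSectionVars false
set_option linter.style.haveILetI false

noncomputable section

open ModularCurve AlgebraicCurve IsLocalRing TensorProduct Polynomial

namespace Fermat.Agent.L.Pivot.Geom

open Fermat.Agent.NEB Fermat.Agent.NEB.JH Fermat.Agent.NEB.Geom Fermat.Agent.S59.Lim
  Fermat.Agent.S59.Lim.H2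

/-- `Gal(ℚ̄/ℚ)` (the one of `NEB.Geom`). -/
abbrev GalK : Type := Fermat.Agent.NEB.Geom.GalQ

/-! ## The conductor `c' = c_Σ c_Q` and the subgroup `H'` -/

section Cond

variable {k r : ℕ} (qP : Fin k → ℕ) (qv : Fin r → ℕ)

/-- `c' = c_Σ · c_Q = ∏ qP j · ∏ qv i`. -/
def pvC : ℕ := twC qP * twC qv

theorem pvC_eq : pvC qP qv = (∏ j, qP j) * ∏ i, qv i := rfl

theorem dvd_twC_self {m : ℕ} (q : Fin m → ℕ) (j : Fin m) : q j ∣ twC q :=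
  Finset.dvd_prod_of_mem q (Finset.mem_univ j)

theorem dvd_pvC_P (j : Fin k) : qP j ∣ pvC qP qv :=
  dvd_trans (dvd_twC_self qP j) (dvd_mul_right _ _)

theorem dvd_pvC_Q (i : Fin r) : qv i ∣ pvC qP qv :=
  dvd_trans (dvd_twC_self qv i) (dvd_mul_left _ _)

theorem twC_P_dvd_pvC : twC qP ∣ pvC qP qv := dvd_mul_right _ _

theorem twC_Q_dvd_pvC : twC qv ∣ pvC qP qv := dvd_mul_left _ _

theorem twC_ne_zero_of_prime {m : ℕ} (q : Fin m → ℕ) (hq : ∀ j, (q j).Prime) : twC q ≠ 0 :=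
  Finset.prod_ne_zero_iff.mpr fun j _ => (hq j).ne_zero

theorem pvC_ne_zero (hP : ∀ j, (qP j).Prime) (hQ : ∀ i, (qv i).Prime) : pvC qP qv ≠ 0 :=
  mul_ne_zero (twC_ne_zero_of_prime qP hP) (twC_ne_zero_of_prime qv hQ)

/-- `c' ≥ 2` as soon as there is a pivot prime. -/
theorem two_le_pvC (hk : 0 < k) (hP : ∀ j, (qP j).Prime) (hQ : ∀ i, (qv i).Prime) :
    2 ≤ pvC qP qv :=
  le_trans (hP ⟨0, hk⟩).two_le
    (Nat.le_of_dvd (Nat.pos_of_ne_zero (pvC_ne_zero qP qv hP hQ)) (dvd_pvC_P qP qv ⟨0, hk⟩))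

/-- Distinct primes dividing `N` : their product divides `N`. -/
theorem twC_dvd_of_prime {m : ℕ} (q : Fin m → ℕ) (hinj : Function.Injective q)
    (hq : ∀ j, (q j).Prime) (N : ℕ) (hd : ∀ j, q j ∣ N) : twC q ∣ N := by
  unfold twC
  refine Finset.prod_dvd_of_isRelPrime ?_ (fun j _ => hd j)
  intro i _ j _ hij
  show IsRelPrime (q i) (q j)
  rw [← Nat.coprime_iff_isRelPrime]
  exact (Nat.coprime_primes (hq i) (hq j)).mpr (fun h => hij (hinj h))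

/-- `c' ∣ M1 = N1 · c_Q`. -/
theorem pvC_dvd (hinj : Function.Injective qP) (hP : ∀ j, (qP j).Prime) (N1 : ℕ)
    (hd : ∀ j, qP j ∣ N1) : pvC qP qv ∣ N1 * twC qv :=
  mul_dvd_mul (twC_dvd_of_prime qP hinj hP N1 hd) (dvd_refl _)

variable (p : ℕ) (eP : Fin k → ℕ) (n : ℕ)

/-- `H'` : the units of `ℤ/c'` which are `p ^ eP j`-th powers modulo `qP j` and `p ^ n`-th powers
modulo `qv i`. -/
def pvH : Subgroup (ZMod (pvC qP qv))ˣ :=
  (⨅ j, ((powMonoidHom (p ^ eP j) : (ZMod (qP j))ˣ →* (ZMod (qP j))ˣ).range).comap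
      (ZMod.unitsMap (dvd_pvC_P qP qv j))) ⊓
  (⨅ i, ((powMonoidHom (p ^ n) : (ZMod (qv i))ˣ →* (ZMod (qv i))ˣ).range).comap
      (ZMod.unitsMap (dvd_pvC_Q qP qv i)))

theorem mem_pvH {u : (ZMod (pvC qP qv))ˣ} :
    u ∈ pvH qP qv p eP n ↔
      (∀ j, ∃ y : (ZMod (qP j))ˣ, y ^ (p ^ eP j) = ZMod.unitsMap (dvd_pvC_P qP qv j) u) ∧
      (∀ i, ∃ y : (ZMod (qv i))ˣ, y ^ (p ^ n) = ZMod.unitsMap (dvd_pvC_Q qP qv i) u) := by
  simp only [pvH, Subgroup.mem_inf, Subgroup.mem_iInf, Subgroup.mem_comap, MonoidHom.mem_range,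
    powMonoidHom_apply]

/-- The twisting exponent `j' = (p ^ (n + ∑ eP j) - 1) / 2`: `2 j' + 1 = p ^ E` kills `Δ'`. -/
def jPv : ℕ := (p ^ (n + ∑ j, eP j) - 1) / 2

theorem two_jPv (hp : p.Prime) (hp2 : p ≠ 2) : 2 * jPv p eP n + 1 = p ^ (n + ∑ j, eP j) := by
  have hodd : Odd (p ^ (n + ∑ j, eP j)) := (hp.odd_of_ne_two hp2).pow
  obtain ⟨m, hm⟩ := hodd
  unfold jPv
  rw [hm]
  omega

/-- `p ^ E` is a multiple of every exponent of `Δ'`. -/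
theorem pow_n_dvd_pow_E : p ^ n ∣ p ^ (n + ∑ j, eP j) :=
  pow_dvd_pow p (Nat.le_add_right _ _)

theorem pow_eP_dvd_pow_E (j : Fin k) : p ^ eP j ∣ p ^ (n + ∑ j, eP j) :=
  pow_dvd_pow p (le_trans (Finset.single_le_sum (fun i _ => Nat.zero_le (eP i))
    (Finset.mem_univ j)) (Nat.le_add_left _ _))

/-- Every unit of `ℤ/c'` has its `p ^ E`-th power in `H'`. -/
theorem pow_mem_pvH (u : (ZMod (pvC qP qv))ˣ) : u ^ (p ^ (n + ∑ j, eP j)) ∈ pvH qP qv p eP n := by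
  rw [mem_pvH]
  constructor
  · intro j
    obtain ⟨m, hm⟩ := pow_eP_dvd_pow_E p eP n j
    exact ⟨ZMod.unitsMap (dvd_pvC_P qP qv j) u ^ m, by rw [map_pow, hm, pow_mul, pow_right_comm]⟩
  · intro i
    obtain ⟨m, hm⟩ := pow_n_dvd_pow_E p eP n
    exact ⟨ZMod.unitsMap (dvd_pvC_Q qP qv i) u ^ m, by rw [map_pow, hm, pow_mul, pow_right_comm]⟩

end Cond

/-! ## The operators on `J_H'[p^∞]` and the modules `Wpv`, `Ypv` -/

section PV

open Fermat.Agent.S59.Asm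

variable (N1 : ℕ) (S : Finset ℕ) (p : ℕ) {k : ℕ} (eP : Fin k → ℕ) (n : ℕ) (qP : Fin k → ℕ)
  {r : ℕ} (qv : Fin r → ℕ)

/-- A prime which is good at the level `pvLevel` is good at the level `twLevel`. -/
theorem goodTw_of_pv {ℓ : ℕ} (hℓ : ℓ.Prime) (hℓN : ¬ ℓ ∣ pvLevel N1 qP qv)
    (hℓS : ℓ ∉ (↑(twSet S qv) : Set ℕ)) : GoodTw N1 S qv ℓ :=
  ⟨hℓ, fun h => hℓN (dvd_trans h (H4.twLevel_dvd_pvLevel N1 qP qv)), hℓS⟩

/-- A good prime at the level `twLevel` does not divide `pvLevel` (the pivot primes divide `N1`). -/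
theorem goodTw_not_dvd_pvLevel {N1 : ℕ} {S : Finset ℕ} {k : ℕ} {qP : Fin k → ℕ} {r : ℕ}
    {qv : Fin r → ℕ} {ℓ : ℕ} (h : GoodTw N1 S qv ℓ) (hdvd : ∀ j, qP j ∣ N1) :
    ¬ ℓ ∣ pvLevel N1 qP qv :=
  fun hd => h.2.1 (H4.prime_dvd_twLevel_of_dvd_pvLevel N1 qP qv hdvd ℓ h.1 hd)

variable [NeZero (N1 * twC qv)] (h2 : 2 ≤ pvC qP qv) (hc : pvC qP qv ∣ N1 * twC qv)

/-- `J_H'[p^∞]`, `H' = pvH`, at the level `Γ_H'(M1)`, `M1 = N1 · c_Q`. -/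
abbrev AHpv : Type := AH (N1 * twC qv) (pvC qP qv) (pvH qP qv p eP n) p

open Classical in
/-- The operators on `J_H'[p^∞]`: `T'_ℓ = T_ℓ^H ⟨ℓ⟩^jPv` (good `ℓ`), `U_{qv i}`, `⟨u⟩`.
No operator at the pivot primes. -/
def opsPv : IdxTw r (pvC qP qv) → Module.End ℤ (AHpv N1 p eP n qP qv)
  | Sum.inl ℓ => if GoodTw N1 S qv ℓ then
      TzTw (N1 * twC qv) (pvC qP qv) (pvH qP qv p eP n) h2 hc p (jPv p eP n) ℓ else 0
  | Sum.inr (Sum.inl i) => Uz (N1 * twC qv) (pvC qP qv) (pvH qP qv p eP n) h2 hc p (qv i)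
  | Sum.inr (Sum.inr u) => diaZ (N1 * twC qv) (pvC qP qv) (pvH qP qv p eP n) h2 hc p u

open Classical in
/-- The operators on `J₀(M1)[p^∞]`: `T_ℓ` (good `ℓ`), `U_{qv i}`, `1` (index type at `c'`). -/
def opsPv0 : IdxTw r (pvC qP qv) → Module.End ℤ (A0 (N1 * twC qv) p)
  | Sum.inl ℓ => if GoodTw N1 S qv ℓ then Tz0 (N1 * twC qv) p ℓ else 0
  | Sum.inr (Sum.inl i) => Uz0 (N1 * twC qv) p (qv i)
  | Sum.inr (Sum.inr _) => 1

section Theta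

variable {κ : Type} [Field κ] [NeZero N1]

open Classical in
/-- The values of `θ⁺` on the generators. -/
def thetaPvVal (θ : CuspForm.heckeAlgebra N1 2 (↑S : Set ℕ) →+* κ) (α : Fin r → κ) :
    IdxTw r (pvC qP qv) → κ
  | Sum.inl ℓ => if h : GoodTw N1 S qv ℓ then
      θ (CuspForm.heckeAlgebra.T h.1 h.not_dvd h.not_mem) else 0
  | Sum.inr (Sum.inl i) => α i
  | Sum.inr (Sum.inr _) => 1

/-- `θ⁺ : 𝕋⁺ = ℤ[x_ℓ, y_i, z_u] → κ`. -/
def thetaPv (θ : CuspForm.heckeAlgebra N1 2 (↑S : Set ℕ) →+* κ) (α : Fin r → κ) :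
    PolyTw r (pvC qP qv) →+* κ :=
  MvPolynomial.eval₂Hom (Int.castRingHom κ) (thetaPvVal N1 S qP qv θ α)

theorem thetaPv_X (θ : CuspForm.heckeAlgebra N1 2 (↑S : Set ℕ) →+* κ) (α : Fin r → κ)
    (i : IdxTw r (pvC qP qv)) :
    thetaPv N1 S qP qv θ α (MvPolynomial.X i) = thetaPvVal N1 S qP qv θ α i := by
  simp [thetaPv]

theorem thetaPv_T (θ : CuspForm.heckeAlgebra N1 2 (↑S : Set ℕ) →+* κ) (α : Fin r → κ)
    {ℓ : ℕ} (h : GoodTw N1 S qv ℓ) :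
    thetaPv N1 S qP qv θ α (MvPolynomial.X (Sum.inl ℓ))
      = θ (CuspForm.heckeAlgebra.T h.1 h.not_dvd h.not_mem) := by
  rw [thetaPv_X]
  simp only [thetaPvVal, dif_pos h]

theorem thetaPv_U (θ : CuspForm.heckeAlgebra N1 2 (↑S : Set ℕ) →+* κ) (α : Fin r → κ)
    (i : Fin r) :
    thetaPv N1 S qP qv θ α (MvPolynomial.X (Sum.inr (Sum.inl i))) = α i := by
  rw [thetaPv_X]
  rfl

theorem thetaPv_dia (θ : CuspForm.heckeAlgebra N1 2 (↑S : Set ℕ) →+* κ) (α : Fin r → κ)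
    (u : (ZMod (pvC qP qv))ˣ) :
    thetaPv N1 S qP qv θ α (MvPolynomial.X (Sum.inr (Sum.inr u))) = 1 := by
  rw [thetaPv_X]
  rfl

end Theta

section Modules

variable (𝒪 : Type) [CommRing 𝒪] [IsLocalRing 𝒪] [NeZero N1]

/-- `η⁺ : 𝕋⁺ → End_ℤ J_H'[p^∞]`. -/
abbrev etaPv (hcomm : ∀ i j, Commute (opsPv N1 S p eP n qP qv h2 hc i)
    (opsPv N1 S p eP n qP qv h2 hc j)) :
    PolyTw r (pvC qP qv) →+* Module.End ℤ (AHpv N1 p eP n qP qv) :=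
  polyHom (opsPv N1 S p eP n qP qv h2 hc) hcomm

/-- `η⁺₀ : 𝕋⁺ → End_ℤ J₀(M1)[p^∞]`. -/
abbrev etaPv0 (hcomm0 : ∀ i j, Commute (opsPv0 N1 S p qP qv i) (opsPv0 N1 S p qP qv j)) :
    PolyTw r (pvC qP qv) →+* Module.End ℤ (A0 (N1 * twC qv) p) :=
  polyHom (opsPv0 N1 S p qP qv) hcomm0

/-- **`W'`**: the `θ⁺`-part of `𝒪 ⊗ J_H'[p^∞]`. -/
abbrev Wpv (hcomm : ∀ i j, Commute (opsPv N1 S p eP n qP qv h2 hc i)
    (opsPv N1 S p eP n qP qv h2 hc j))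
    (θ : CuspForm.heckeAlgebra N1 2 (↑S : Set ℕ) →+* ResidueField 𝒪)
    (α : Fin r → ResidueField 𝒪) :
    Submodule 𝒪 (𝒪 ⊗[ℤ] AHpv N1 p eP n qP qv) :=
  thetaPart (etaPv N1 S p eP n qP qv h2 hc hcomm) (thetaPv N1 S qP qv θ α)

/-- `Y'`: the `θ⁺`-part of `𝒪 ⊗ J₀(M1)[p^∞]`. -/
abbrev Ypv (hcomm0 : ∀ i j, Commute (opsPv0 N1 S p qP qv i) (opsPv0 N1 S p qP qv j))
    (θ : CuspForm.heckeAlgebra N1 2 (↑S : Set ℕ) →+* ResidueField 𝒪)
    (α : Fin r → ResidueField 𝒪) :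
    Submodule 𝒪 (𝒪 ⊗[ℤ] A0 (N1 * twC qv) p) :=
  thetaPart (etaPv0 N1 S p qP qv hcomm0) (thetaPv N1 S qP qv θ α)

end Modules

/-- The kernel of reduction `K_A ∩ J_H'[p^∞]` at the place `P` (helper70's uniform kernel). -/
def KZpv (P : ValuationSubring Kbar) : AddSubgroup (AHpv N1 p eP n qP qv) :=
  (Fermat.Agent.NEB.Geom.H70.KU P p
    (diamondData (N1 * twC qv) (pvC qP qv) (pvH qP qv p eP n) h2 hc)).comap
    (ptors p (JH (N1 * twC qv) (pvC qP qv) (pvH qP qv p eP n))).subtype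

/-- The Eisenstein operator `T_ℓ₀^H - (ℓ₀ + 1)` on `J_H'[p^∞]`. -/
def tEisPv (ℓ₀ : ℕ) : Module.End ℤ (AHpv N1 p eP n qP qv) :=
  Tz (N1 * twC qv) (pvC qP qv) (pvH qP qv p eP n) h2 hc p ℓ₀
    - ((ℓ₀ + 1 : ℕ) : ℤ) • (1 : Module.End ℤ (AHpv N1 p eP n qP qv))

end PV

/-! ## Hypotheses and generators of `Δ' = Δ_Σ × Δ_Q` -/

section Hyp

variable (N1 : ℕ) (S : Finset ℕ) (p : ℕ) {k : ℕ} (eP : Fin k → ℕ) (n : ℕ) (qP : Fin k → ℕ)
  {r : ℕ} (qv : Fin r → ℕ)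

/-- The standing hypotheses on the pivot primes and a Taylor–Wiles family (without the Galois
part).  `0 < k` (at least one pivot prime; for `k = 0` the datum is a Taylor–Wiles datum);
`r = 0` is allowed. -/
structure PvHyp : Prop where
  hp : p.Prime
  hp2 : p ≠ 2
  /-- needed for `UnrCond` at the pivot primes (helper70: for `p = 3` the covering
  `X_H' → X₀(M1)` can ramify at elliptic points of order `3`, unless a prime `r ≡ 2 mod 3`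
  divides the level) -/
  hU : 5 ≤ p ∨ ∃ r : ℕ, r.Prime ∧ r ∣ N1 ∧ r % 3 = 2
  hN : N1 ≠ 0
  hsq : Squarefree N1
  hk : 0 < k
  injP : Function.Injective qP
  primeP : ∀ j, (qP j).Prime
  dvdP : ∀ j, qP j ∣ N1
  neP : ∀ j, qP j ≠ p
  congP : ∀ j, p ^ eP j ∣ qP j - 1 ∧ ¬ p ^ (eP j + 1) ∣ qP j - 1
  posP : ∀ j, 0 < eP j
  memP : ∀ j, qP j ∈ S
  inj : Function.Injective qv
  prime : ∀ i, (qv i).Prime
  cong : ∀ i, p ^ (n + 1) ∣ qv i - 1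
  notS : ∀ i, qv i ∉ S
  hNS : ∀ q : ℕ, q.Prime → q ∣ N1 → q ∈ S
  hpS : p ∈ S

variable {N1 S p eP n qP qv}

theorem PvHyp.two_le (h : PvHyp N1 S p eP n qP qv) : 2 ≤ pvC qP qv :=
  two_le_pvC qP qv h.hk h.primeP h.prime

theorem PvHyp.dvd (h : PvHyp N1 S p eP n qP qv) : pvC qP qv ∣ N1 * twC qv :=
  pvC_dvd qP qv h.injP h.primeP N1 h.dvdP

theorem PvHyp.pvC_ne_zero (h : PvHyp N1 S p eP n qP qv) : pvC qP qv ≠ 0 :=
  Geom.pvC_ne_zero qP qv h.primeP h.prime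

theorem PvHyp.twC_ne_zero (h : PvHyp N1 S p eP n qP qv) : twC qv ≠ 0 :=
  twC_ne_zero_of_prime qv h.prime

theorem PvHyp.level_ne_zero (h : PvHyp N1 S p eP n qP qv) : N1 * twC qv ≠ 0 :=
  mul_ne_zero h.hN h.twC_ne_zero

/-- A pivot prime is not a Taylor–Wiles prime. -/
theorem PvHyp.qP_ne_qv (h : PvHyp N1 S p eP n qP qv) (j : Fin k) (i : Fin r) : qP j ≠ qv i :=
  fun e => h.notS i (e ▸ h.memP j)

/-- The Taylor–Wiles part of the hypotheses, for `0 < r`. -/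
theorem PvHyp.twHyp (h : PvHyp N1 S p eP n qP qv) (hr : 0 < r) : TwHyp N1 S p n qv where
  hp := h.hp
  hp2 := h.hp2
  hN := h.hN
  hr := hr
  inj := h.inj
  prime := h.prime
  cong := h.cong
  notS := h.notS
  hNS := h.hNS
  hpS := h.hpS

variable (p eP n qP qv)

/-- Generators of `Δ' = (ℤ/c')ˣ / H'`: `δP j` (pivot primes) is `≡ 1` modulo all the other
primes of `c'` and has order exactly `p ^ eP j` modulo `H'`; `δQ i` (Taylor–Wiles primes) is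
`≡ 1` modulo all the other primes of `c'` and has order exactly `p ^ n` modulo `H'`. -/
structure IsDeltaGenPv (δP : Fin k → (ZMod (pvC qP qv))ˣ) (δQ : Fin r → (ZMod (pvC qP qv))ˣ) :
    Prop where
  P_P : ∀ j j', j' ≠ j → ZMod.unitsMap (dvd_pvC_P qP qv j') (δP j) = 1
  P_Q : ∀ j i, ZMod.unitsMap (dvd_pvC_Q qP qv i) (δP j) = 1
  P_ord : ∀ j e, δP j ^ e ∈ pvH qP qv p eP n → p ^ eP j ∣ e
  Q_Q : ∀ i i', i' ≠ i → ZMod.unitsMap (dvd_pvC_Q qP qv i') (δQ i) = 1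
  Q_P : ∀ i j, ZMod.unitsMap (dvd_pvC_P qP qv j) (δQ i) = 1
  Q_ord : ∀ i e, δQ i ^ e ∈ pvH qP qv p eP n → p ^ n ∣ e

end Hyp

/-! ## The setup at the pivot primes and a Taylor–Wiles family -/

section Setup

open Fermat.Agent.S59.Asm

variable (𝒪 : Type) [CommRing 𝒪] [IsDomain 𝒪] [IsDiscreteValuationRing 𝒪]
  (ϖ : 𝒪) (p : ℕ) (N1 : ℕ) [NeZero N1] (S : Finset ℕ)
  (θ : CuspForm.heckeAlgebra N1 2 (↑S : Set ℕ) →+* ResidueField 𝒪)

/-- The character `θ' = θ ∘ restTW ∘ restPV` of the Hecke ring of level `pvLevel`. -/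
def thetaLvl {k : ℕ} (qP : Fin k → ℕ) {r : ℕ} (qv : Fin r → ℕ)
    [NeZero (twLevel N1 qv)] [NeZero (pvLevel N1 qP qv)]
    (hprime : ∀ i, (qv i).Prime) (hdvd : ∀ j, qP j ∣ N1) :
    CuspForm.heckeAlgebra (pvLevel N1 qP qv) 2 (↑(twSet S qv) : Set ℕ) →+* ResidueField 𝒪 :=
  (θ.comp (Fermat.Agent.S59.Asm.H41.restTW N1 S qv hprime)).comp (H4.restPV N1 S qP qv hdvd)

/-- All choices at the pivot primes and a Taylor–Wiles family (mirror of helper84's `TwSetup`). -/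
structure PvSetup (ρbar : ResidualGaloisRep (ResidueField 𝒪)) {k : ℕ} (eP : Fin k → ℕ)
    (n : ℕ) (qP : Fin k → ℕ) {r : ℕ} (qv : Fin r → ℕ)
    [NeZero (N1 * twC qv)] [NeZero (pvC qP qv)] [NeZero (twLevel N1 qv)]
    [NeZero (pvLevel N1 qP qv)] where
  hPV : PvHyp N1 S p eP n qP qv
  h2 : 2 ≤ pvC qP qv
  hc : pvC qP qv ∣ N1 * twC qv
  hcomm : ∀ i j, Commute (opsPv N1 S p eP n qP qv h2 hc i) (opsPv N1 S p eP n qP qv h2 hc j)
  hcommG : ∀ i σ, Commute (opsPv N1 S p eP n qP qv h2 hc i)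
    (galZ (N1 * twC qv) (pvC qP qv) (pvH qP qv p eP n) p σ)
  /-- the chosen eigenvalue of `ρbar(frob_i)` and the other one -/
  α : Fin r → ResidueField 𝒪
  β : Fin r → ResidueField 𝒪
  eig : TwEig 𝒪 N1 S qv θ α β
  a : Fin r → 𝒪
  a' : Fin r → 𝒪
  ha : ∀ i, residue 𝒪 (a i) = α i
  ha' : ∀ i, residue 𝒪 (a' i) = β i
  /-- a non-Eisenstein good prime -/
  ℓ₀ : ℕ
  hℓ₀ : GoodTw N1 S qv ℓ₀
  hne : θ (CuspForm.heckeAlgebra.T hℓ₀.1 hℓ₀.not_dvd hℓ₀.not_mem) ≠ ((ℓ₀ : ResidueField 𝒪) + 1)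
  /-- places, Frobenius elements and inertia elements at the Taylor–Wiles primes -/
  P : Fin r → ValuationSubring Kbar
  P_over : ∀ i, (P i).LiesOverPrime (qv i)
  frob : Fin r → GalK
  frob_spec : ∀ i, (P i).IsFrobeniusAt (frob i) (qv i)
  σ : Fin r → GalK
  σ_mem : ∀ i, σ i ∈ (P i).inertiaSubgroupIn ℚ
  /-- generators of `Δ_Σ` -/
  δP : Fin k → (ZMod (pvC qP qv))ˣ
  hδ : IsDeltaGenPv p eP n qP qv δP
    (fun i => Fermat.Agent.NEB.Geom.H6.chiC (pvC qP qv) (σ i) ^ (jPv p eP n + 1))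
  charpoly_frob : ∀ i, LinearMap.charpoly (ρbar.ρ (frob i)) =
    (X - C (residue 𝒪 (a i))) * (X - C (residue 𝒪 (a' i)))
  isDiv : IsDiv ϖ ↥(Wpv N1 S p eP n qP qv h2 hc 𝒪 hcomm θ α)
  η : CuspForm.heckeAlgebra (pvLevel N1 qP qv) 2 (↑(twSet S qv) : Set ℕ) →+*
    Module.End 𝒪 ↥(Wpv N1 S p eP n qP qv h2 hc 𝒪 hcomm θ α)
  η_T : ∀ (ℓ : ℕ) (hℓ : ℓ.Prime) (hℓN : ¬ ℓ ∣ pvLevel N1 qP qv)
    (hℓS : ℓ ∉ (↑(twSet S qv) : Set ℕ)),
    η (CuspForm.heckeAlgebra.T hℓ hℓN hℓS) =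
      thetaEta (etaPv N1 S p eP n qP qv h2 hc hcomm) (thetaPv N1 S qP qv θ α)
        (MvPolynomial.X (Sum.inl ℓ))
  η_local : ∀ (t : CuspForm.heckeAlgebra (pvLevel N1 qP qv) 2 (↑(twSet S qv) : Set ℕ))
    (a₀ : 𝒪), residue 𝒪 a₀ = thetaLvl 𝒪 N1 S θ qP qv hPV.prime hPV.dvdP t →
    ∀ x : ↥(Wpv N1 S p eP n qP qv h2 hc 𝒪 hcomm θ α), ϖ • x = 0 →
      ∃ m : ℕ, ((η t - a₀ • (1 : Module.End 𝒪
        ↥(Wpv N1 S p eP n qP qv h2 hc 𝒪 hcomm θ α))) ^ m) x = 0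

variable {𝒪 ϖ p N1 S θ}

section Objects

variable {ρbar : ResidualGaloisRep (ResidueField 𝒪)} {k : ℕ} {eP : Fin k → ℕ} {n : ℕ}
  {qP : Fin k → ℕ} {r : ℕ} {qv : Fin r → ℕ}
  [NeZero (N1 * twC qv)] [NeZero (pvC qP qv)] [NeZero (twLevel N1 qv)]
  [NeZero (pvLevel N1 qP qv)]
  (D : PvSetup 𝒪 ϖ p N1 S θ ρbar eP n qP qv)

/-- The generators of `Δ_Q`: `δQ i = χ_c'(σ_i)^{j'+1}`. -/
def PvSetup.δQ (i : Fin r) : (ZMod (pvC qP qv))ˣ :=
  Fermat.Agent.NEB.Geom.H6.chiC (pvC qP qv) (D.σ i) ^ (jPv p eP n + 1)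

/-- The underlying module `W'`. -/
abbrev PvSetup.Wsub : Submodule 𝒪 (𝒪 ⊗[ℤ] AHpv N1 p eP n qP qv) :=
  Wpv N1 S p eP n qP qv D.h2 D.hc 𝒪 D.hcomm θ D.α

/-- The divisible Hecke module `W'` at the level `pvLevel`. -/
def PvSetup.WD : Fermat.Agent.S59.Lim.HDiv 𝒪 ϖ (pvLevel N1 qP qv) (↑(twSet S qv) : Set ℕ)
    (thetaLvl 𝒪 N1 S θ qP qv D.hPV.prime D.hPV.dvdP) where
  W := ↥(Wpv N1 S p eP n qP qv D.h2 D.hc 𝒪 D.hcomm θ D.α)
  isDiv := D.isDiv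
  η := D.η
  η_local := D.η_local

/-- The diamond operators commute with `η⁺`. -/
theorem PvSetup.comm_dia (u : (ZMod (pvC qP qv))ˣ) (t : PolyTw r (pvC qP qv)) :
    Commute (etaPv N1 S p eP n qP qv D.h2 D.hc D.hcomm t)
      (diaZ (N1 * twC qv) (pvC qP qv) (pvH qP qv p eP n) D.h2 D.hc p u) := by
  have h : etaPv N1 S p eP n qP qv D.h2 D.hc D.hcomm (MvPolynomial.X (Sum.inr (Sum.inr u)))
      = diaZ (N1 * twC qv) (pvC qP qv) (pvH qP qv p eP n) D.h2 D.hc p u :=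
    polyHom_X _ _ _
  rw [← h]
  exact (Commute.all t _).map (etaPv N1 S p eP n qP qv D.h2 D.hc D.hcomm)

/-- The Galois action commutes with `η⁺`. -/
theorem PvSetup.comm_gal (σ : GalK) (t : PolyTw r (pvC qP qv)) :
    Commute (etaPv N1 S p eP n qP qv D.h2 D.hc D.hcomm t)
      (galZ (N1 * twC qv) (pvC qP qv) (pvH qP qv p eP n) p σ) := by
  induction t using MvPolynomial.induction_on with
  | C a =>
    have : etaPv N1 S p eP n qP qv D.h2 D.hc D.hcomm (MvPolynomial.C a)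
        = (a : Module.End ℤ (AHpv N1 p eP n qP qv)) := by
      rw [show (MvPolynomial.C a : PolyTw r (pvC qP qv)) = ((a : ℤ) : PolyTw r (pvC qP qv)) from
        (eq_intCast (MvPolynomial.C : ℤ →+* PolyTw r (pvC qP qv)) a), map_intCast]
    rw [this]
    exact Int.cast_commute a _
  | add f g hf hg =>
    rw [map_add]
    exact hf.add_left hg
  | mul_X f i hf =>
    rw [map_mul]
    refine hf.mul_left ?_
    have h : etaPv N1 S p eP n qP qv D.h2 D.hc D.hcomm (MvPolynomial.X i)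
        = opsPv N1 S p eP n qP qv D.h2 D.hc i :=
      polyHom_X _ _ _
    rw [h]
    exact D.hcommG i σ

/-- The twisted Galois action `σ ↦ σ ⟨χ_c' σ⟩^{j'+1}` on `J_H'[p^∞]`. -/
def PvSetup.galHom : GalK →* Module.End ℤ (AHpv N1 p eP n qP qv) :=
  twistHom (galZ (N1 * twC qv) (pvC qP qv) (pvH qP qv p eP n) p)
    (diaZ (N1 * twC qv) (pvC qP qv) (pvH qP qv p eP n) D.h2 D.hc p)
    (Fermat.Agent.NEB.Geom.H6.chiC (pvC qP qv)) (jPv p eP n + 1)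
    (fun u τ => D.hcommG (Sum.inr (Sum.inr u)) τ)

theorem PvSetup.galHom_apply (σ : GalK) :
    D.galHom σ = galZ (N1 * twC qv) (pvC qP qv) (pvH qP qv p eP n) p σ *
      diaZ (N1 * twC qv) (pvC qP qv) (pvH qP qv p eP n) D.h2 D.hc p
        (Fermat.Agent.NEB.Geom.H6.chiC (pvC qP qv) σ) ^ (jPv p eP n + 1) := rfl

theorem PvSetup.comm_galHom (σ : GalK) (t : PolyTw r (pvC qP qv)) :
    Commute (etaPv N1 S p eP n qP qv D.h2 D.hc D.hcomm t) (D.galHom σ) := by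
  rw [D.galHom_apply]
  exact (D.comm_gal σ t).mul_right ((D.comm_dia _ t).pow_right _)

/-- The underlying element of `𝒪 ⊗ J_H'[p^∞]`. -/
def PvSetup.val (x : D.WD.W) : 𝒪 ⊗[ℤ] AHpv N1 p eP n qP qv :=
  Subtype.val (p := fun y => y ∈ Wpv N1 S p eP n qP qv D.h2 D.hc 𝒪 D.hcomm θ D.α) x

/-- The twisted Galois action on `W'`. -/
def PvSetup.gal : GalK →* Module.End 𝒪 D.WD.W :=
  thetaGal (thetaPv N1 S qP qv θ D.α) D.galHom D.comm_galHom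

/-- The restriction to `W'` of a diamond operator. -/
def PvSetup.dia (u : (ZMod (pvC qP qv))ˣ) : Module.End 𝒪 D.WD.W :=
  thetaZ (thetaPv N1 S qP qv θ D.α)
    (diaZ (N1 * twC qv) (pvC qP qv) (pvH qP qv p eP n) D.h2 D.hc p u)
    (fun t => D.comm_dia u t)

/-- The diamond operators `c_j = ⟨δP j⟩` at the pivot primes, on `W'`. -/
def PvSetup.c (j : Fin k) : Module.End 𝒪 D.WD.W := D.dia (D.δP j)

/-- The diamond operators `d_i = ⟨δQ i⟩` at the Taylor–Wiles primes, on `W'`. -/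
def PvSetup.d (i : Fin r) : Module.End 𝒪 D.WD.W := D.dia (D.δQ i)

/-- The untwisted Galois action on `W'` (used by P-FROBNIL and P-LG). -/
def PvSetup.galU : GalK →* Module.End 𝒪 D.WD.W :=
  thetaGal (thetaPv N1 S qP qv θ D.α)
    (galZ (N1 * twC qv) (pvC qP qv) (pvH qP qv p eP n) p) D.comm_gal

end Objects

end Setup

end Fermat.Agent.L.Pivot.Geom

end

end
-- ==== END Fermat.Agent.L.Pivot.Geom.DefsPV

-- ==== BEGIN Fermat.Agent.L.Pivot.Geom.H59_LayerA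
section

/-!
# PIVOT, package PV-GEOM, leaf PVG-A' (helper59): Layer A', `PVDiv ⟹ PVGeom2`

* `tate_dec'`          : the decomposition at a Taylor–Wiles prime, from the hypotheses of `TWDiv`;
* `twGeomOf`           : helper94's Layer A (`Lim.twGeom_of_twDiv`) as a DEFINITION, so that the
  fields of the resulting `TWGeom` are visible (`(twGeomOf …).W = D.WD.toHMod hϖ` etc.);
* `pvGeom2_of_pvDiv`   : `PVDiv … MD … ⟹ Nonempty (PVGeom2 … (MD.toHMod hϖ) …)`;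
* `stmt_PVGeom2_of_pvDiv` : `Stmt_PVDIV → Stmt_PVGeom2`.

Pure algebra; no `sorry`.
-/

set_option autoImplicit false
set_option linter.style.haveILetI false
set_option linter.unusedSectionVars false

noncomputable section

open IsLocalRing Polynomial CuspForm

namespace Fermat.Agent.L.Pivot.Geom.H59

open Fermat.Agent.S59.TWH Fermat.Agent.S59.Lim Fermat.Agent.S59.Asm Fermat.Agent.S59
  Fermat.Agent.S56 Fermat.Agent.L.Pivot Fermat.Agent.L.Pivot.Geom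

section Dec

variable {𝒪 : Type} [CommRing 𝒪] [IsDomain 𝒪] [IsDiscreteValuationRing 𝒪]
  [IsAdicComplete (maximalIdeal 𝒪) 𝒪] {ϖ : 𝒪} {W : Type} [AddCommGroup W] [Module 𝒪 W]

omit [IsAdicComplete (maximalIdeal 𝒪) 𝒪] in
/-- The decomposition of the Tate module at a Taylor–Wiles prime (all clauses of `TWGeom`). -/
theorem tate_dec' (hϖ : Irreducible ϖ) (hW : IsDiv ϖ W) (F : Module.End 𝒪 W) (a a' : 𝒪)
    (hne : residue 𝒪 a ≠ residue 𝒪 a')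
    (hnil : ∀ x : W, ϖ • x = 0 → ∃ m : ℕ,
      (((F - a • (1 : Module.End 𝒪 W)) * (F - a' • (1 : Module.End 𝒪 W))) ^ m) x = 0) :
    IsCompl (H2.tateSub ϖ (F.maxGenEigenspace a)) (H2.tateSub ϖ (F.maxGenEigenspace a')) ∧
    (∀ G : Module.End 𝒪 W, Commute F G → ∀ v ∈ H2.tateSub ϖ (F.maxGenEigenspace a),
      H2.mapEnd ϖ W G v ∈ H2.tateSub ϖ (F.maxGenEigenspace a)) ∧
    (∀ G : Module.End 𝒪 W, Commute F G → ∀ v ∈ H2.tateSub ϖ (F.maxGenEigenspace a'),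
      H2.mapEnd ϖ W G v ∈ H2.tateSub ϖ (F.maxGenEigenspace a')) ∧
    (∃ N : ℕ, ∀ v ∈ H2.tateSub ϖ (F.maxGenEigenspace a),
      ((H2.mapEnd ϖ W F - a • (1 : Module.End 𝒪 (H2.tate ϖ W))) ^ N) v ∈
        (maximalIdeal 𝒪 • ⊤ : Submodule 𝒪 (H2.tate ϖ W))) ∧
    (∃ N : ℕ, ∀ v ∈ H2.tateSub ϖ (F.maxGenEigenspace a'),
      ((H2.mapEnd ϖ W F - a' • (1 : Module.End 𝒪 (H2.tate ϖ W))) ^ N) v ∈
        (maximalIdeal 𝒪 • ⊤ : Submodule 𝒪 (H2.tate ϖ W))) := by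
  obtain ⟨N, hN⟩ := IsDiv.exists_pow_kill_torsion (W := W) hW _ hnil
  have h := H2.tate_dec (W := W) (mem_maximalIdeal_of_irreducible hϖ) hW.tors F a a'
    (H2.isUnit_sub_of_residue_ne hne) N hN
  exact ⟨h.1, h.2.1, h.2.2.1, ⟨N, h.2.2.2.1⟩, ⟨N, h.2.2.2.2⟩⟩

end Dec

section TWG

variable {𝒪 : Type} [CommRing 𝒪] [IsDomain 𝒪] [IsDiscreteValuationRing 𝒪]
  [IsAdicComplete (maximalIdeal 𝒪) 𝒪] {ϖ : 𝒪}

/-- the basis of the Tate module of a `TWDiv` exists -/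
theorem twDiv_basis (hϖ : Irreducible ϖ) (p : ℕ) [Fact p.Prime]
    (hp : (p : 𝒪) ∈ maximalIdeal 𝒪)
    (ρbar : ResidualGaloisRep (ResidueField 𝒪)) (N : ℕ) [NeZero N] (S : Finset ℕ)
    (θ : CuspForm.heckeAlgebra N 2 (↑S : Set ℕ) →+* ResidueField 𝒪)
    (MD : HDiv 𝒪 ϖ N (↑S : Set ℕ) θ) {r : ℕ} (n : ℕ) (qv : Fin r → ℕ)
    [NeZero (twLevel N qv)] (D : TWDiv 𝒪 ϖ p ρbar N S θ MD n qv) :
    ∃ (rk : ℕ) (b : Fin rk → H2.tate ϖ D.WD.W),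
      Function.Bijective (fun f : Fin rk × (Fin r → Fin (p ^ n)) → 𝒪 =>
        ∑ x : Fin rk × (Fin r → Fin (p ^ n)),
          f x • H90.mon (fun j => H2.mapEnd ϖ D.WD.W (D.d j)) (fun j => (x.2 j : ℕ)) (b x.1)) :=
  exists_basis_tate (W := D.WD.W) (WM := MD.W) hϖ hp n r D.WD.isDiv MD.isDiv
    D.d D.d_pow D.d_comm D.hstep D.πup D.πup_injective D.d_πup D.inv

/-- **Layer A of helper94 as a definition**: the Tate module of the divisible data is a `TWGeom`,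
with visible fields. -/
def twGeomOf (hϖ : Irreducible ϖ) (p : ℕ) [Fact p.Prime] (hp : (p : 𝒪) ∈ maximalIdeal 𝒪)
    (ρbar : ResidualGaloisRep (ResidueField 𝒪)) (N : ℕ) [NeZero N] (S : Finset ℕ)
    (θ : CuspForm.heckeAlgebra N 2 (↑S : Set ℕ) →+* ResidueField 𝒪)
    (MD : HDiv 𝒪 ϖ N (↑S : Set ℕ) θ) {r : ℕ} (n : ℕ) (qv : Fin r → ℕ)
    [NeZero (twLevel N qv)] (D : TWDiv 𝒪 ϖ p ρbar N S θ MD n qv) :
    TWGeom 𝒪 p ρbar N S θ (MD.toHMod hϖ) n qv where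
  rest := D.rest
  rest_T := D.rest_T
  W := D.WD.toHMod hϖ
  gal := H2.tateGal ϖ D.gal
  gal_cont := H2.adicContinuous_tateGal (W := D.WD.W) hϖ D.gal
    (fun k => exists_uniform_field (W := D.WD.W) D.WD.isDiv D.gal D.gal_cont k)
  gal_η := fun g t => mapEnd_commute (W := D.WD.W) (D.gal_η g t)
  es := fun ℓ hℓ hℓN hℓS A hA σ hσ => mapEnd_es (W := D.WD.W) (D.es ℓ hℓ hℓN hℓS A hA σ hσ)
  d := fun j => H2.mapEnd ϖ D.WD.W (D.d j)
  d_pow := fun j => mapEnd_pow_eq_one (W := D.WD.W) (D.d_pow j)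
  d_comm := fun i j => mapEnd_commute (W := D.WD.W) (D.d_comm i j)
  d_η := fun j t => mapEnd_commute (W := D.WD.W) (D.d_η j t)
  d_gal := fun j g => mapEnd_commute (W := D.WD.W) (D.d_gal j g)
  rk := (twDiv_basis hϖ p hp ρbar N S θ MD n qv D).choose
  b := (twDiv_basis hϖ p hp ρbar N S θ MD n qv D).choose_spec.choose
  b_basis := (twDiv_basis hϖ p hp ρbar N S θ MD n qv D).choose_spec.choose_spec
  π := H2.map ϖ D.π
  π_surjective := map_π_surjective (W := D.WD.W) (WM := MD.W) hϖ n r D.WD.isDiv MD.isDiv D.d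
    D.d_comm D.hstep D.π D.πup D.πup_injective D.πup_π D.d_πup
  ker_π := (ker_map_π_eq_ker_nmTot (W := D.WD.W) (WM := MD.W) n r D.d D.π D.πup
      D.πup_injective D.πup_π).trans
    (H2.stmt_KERNM 𝒪 (H2.tate ϖ D.WD.W) (p ^ n) r (pow_pos (Fact.out : p.Prime).pos n)
      (fun j => H2.mapEnd ϖ D.WD.W (D.d j))
      (fun i j => mapEnd_commute (W := D.WD.W) (D.d_comm i j))
      (fun j => mapEnd_pow_eq_one (W := D.WD.W) (D.d_pow j))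
      (twDiv_basis hϖ p hp ρbar N S θ MD n qv D).choose
      (twDiv_basis hϖ p hp ρbar N S θ MD n qv D).choose_spec.choose
      (twDiv_basis hϖ p hp ρbar N S θ MD n qv D).choose_spec.choose_spec).1
  π_η := fun t v => map_equivariant (W := D.WD.W) (WM := MD.W) D.π (D.WD.η t)
    (MD.η (D.rest t)) (D.π_η t) v
  P := D.P
  P_over := D.P_over
  frob := D.frob
  frob_spec := D.frob_spec
  σ := D.σ
  σ_mem := D.σ_mem
  a := D.a
  a' := D.a'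
  a_ne := D.a_ne
  charpoly_frob := D.charpoly_frob
  Vα := fun j => H2.tateSub ϖ ((D.gal (D.frob j)).maxGenEigenspace (D.a j))
  Vβ := fun j => H2.tateSub ϖ ((D.gal (D.frob j)).maxGenEigenspace (D.a' j))
  isCompl := fun j => (tate_dec' hϖ D.WD.isDiv (D.gal (D.frob j)) (D.a j) (D.a' j) (D.a_ne j)
    (D.frob_nil j)).1
  Vα_η := fun j t v hv => (tate_dec' hϖ D.WD.isDiv (D.gal (D.frob j)) (D.a j) (D.a' j)
    (D.a_ne j) (D.frob_nil j)).2.1 (D.WD.η t) (D.gal_η (D.frob j) t) v hv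
  Vα_d := fun j i v hv => (tate_dec' hϖ D.WD.isDiv (D.gal (D.frob j)) (D.a j) (D.a' j)
    (D.a_ne j) (D.frob_nil j)).2.1 (D.d i) (D.d_gal i (D.frob j)).symm v hv
  Vα_frob := fun j v hv => (tate_dec' hϖ D.WD.isDiv (D.gal (D.frob j)) (D.a j) (D.a' j)
    (D.a_ne j) (D.frob_nil j)).2.1 (D.gal (D.frob j)) (Commute.refl _) v hv
  Vβ_frob := fun j v hv => (tate_dec' hϖ D.WD.isDiv (D.gal (D.frob j)) (D.a j) (D.a' j)
    (D.a_ne j) (D.frob_nil j)).2.2.1 (D.gal (D.frob j)) (Commute.refl _) v hv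
  Vα_nil := fun j => (tate_dec' hϖ D.WD.isDiv (D.gal (D.frob j)) (D.a j) (D.a' j)
    (D.a_ne j) (D.frob_nil j)).2.2.2.1
  Vβ_nil := fun j => (tate_dec' hϖ D.WD.isDiv (D.gal (D.frob j)) (D.a j) (D.a' j)
    (D.a_ne j) (D.frob_nil j)).2.2.2.2
  lg := fun j v hv => map_lg (W := D.WD.W) (D.gal (D.frob j)) (D.gal (D.σ j)) (D.d j) (D.a j)
    (D.lg j) v hv

end TWG

section PV

variable {𝒪 : Type} [CommRing 𝒪] [IsDomain 𝒪] [IsDiscreteValuationRing 𝒪]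
  [IsAdicComplete (maximalIdeal 𝒪) 𝒪] {ϖ : 𝒪}

set_option maxHeartbeats 4000000 in
/-- **Layer A'**: the Tate module of the divisible data of PIVOT is a `PVGeom2`. -/
theorem pvGeom2_of_pvDiv (hϖ : Irreducible ϖ) (p : ℕ) [Fact p.Prime]
    (hp : (p : 𝒪) ∈ maximalIdeal 𝒪)
    (ρbar : ResidualGaloisRep (ResidueField 𝒪)) (N1 : ℕ) [NeZero N1] (S : Finset ℕ)
    (θ : CuspForm.heckeAlgebra N1 2 (↑S : Set ℕ) →+* ResidueField 𝒪)
    (MD : HDiv 𝒪 ϖ N1 (↑S : Set ℕ) θ) {k : ℕ} (qP : Fin k → ℕ) (eP : Fin k → ℕ)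
    {r : ℕ} (n : ℕ) (qv : Fin r → ℕ)
    [NeZero (twLevel N1 qv)] [NeZero (pvLevel N1 qP qv)]
    (D : PVDiv 𝒪 ϖ p ρbar N1 S θ MD qP eP n qv) :
    Nonempty (PVGeom2 𝒪 p ρbar N1 S θ (MD.toHMod hϖ) qP eP n qv) := by
  classical
  have hϖm : ϖ ∈ maximalIdeal 𝒪 := mem_maximalIdeal_of_irreducible hϖ
  -- freeness
  obtain ⟨rk, b, hb⟩ := exists_basis_tate_pv (W := D.WD.W) (W1 := D.G1D.WD.W) (WM := MD.W)
    hϖ hp n r k eP D.WD.isDiv D.G1D.WD.isDiv MD.isDiv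
    D.G1D.d D.G1D.d_pow D.G1D.d_comm D.G1D.hstep D.G1D.πup D.G1D.πup_injective D.G1D.d_πup
    D.G1D.inv D.c D.c_pow D.c_comm D.d D.c_d D.hstep D.κ D.κup D.κup_injective D.κup_κ
    D.c_κup D.inv D.κ_d
  -- the operators on the Tate module
  have hcpow : ∀ j, H2.mapEnd ϖ D.WD.W (D.c j) ^ (p ^ eP j) = 1 := fun j =>
    mapEnd_pow_eq_one (W := D.WD.W) (D.c_pow j)
  have hccomm : ∀ i j, Commute (H2.mapEnd ϖ D.WD.W (D.c i)) (H2.mapEnd ϖ D.WD.W (D.c j)) :=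
    fun i j => mapEnd_commute (W := D.WD.W) (D.c_comm i j)
  -- the kernel of `κ`
  let ε : (Fin rk × (Fin r → Fin (p ^ n))) × (∀ j : Fin k, Fin (p ^ eP j)) ≃
      Fin rk × (∀ j : Fin k, Fin (p ^ eP j)) × (Fin r → Fin (p ^ n)) :=
    { toFun := fun y => (y.1.1, y.2, y.1.2)
      invFun := fun x => ((x.1, x.2.2), x.2.1)
      left_inv := fun _ => rfl
      right_inv := fun _ => rfl }
  have hb' := bijective_sum_equiv ε
    (fun x : Fin rk × (∀ j : Fin k, Fin (p ^ eP j)) × (Fin r → Fin (p ^ n)) =>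
      H90.mon (fun j => H2.mapEnd ϖ D.WD.W (D.c j)) (fun j => (x.2.1 j : ℕ))
        (H90.mon (fun i => H2.mapEnd ϖ D.WD.W (D.d i)) (fun i => (x.2.2 i : ℕ)) (b x.1))) hb
  have hker0 := ker_nmTotE_eq (𝒪 := 𝒪) (V := H2.tate ϖ D.WD.W) (fun j => p ^ eP j)
    (fun j => pow_pos (Fact.out : p.Prime).pos (eP j))
    (fun j => H2.mapEnd ϖ D.WD.W (D.c j)) hccomm hcpow
    (fun y : Fin rk × (Fin r → Fin (p ^ n)) =>
      H90.mon (fun i => H2.mapEnd ϖ D.WD.W (D.d i)) (fun i => (y.2 i : ℕ)) (b y.1)) hb'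
  have hkerκ : LinearMap.ker (H2.map ϖ D.κ) =
      typeSub (fun j => H2.mapEnd ϖ D.WD.W (D.c j)) (fun _ => (1 : 𝒪)) := by
    have h1 := ker_map_κ_eq_ker_nmTotE (ϖ := ϖ) (W := D.WD.W) (W1 := D.G1D.WD.W)
      (fun j => p ^ eP j) D.c D.κ D.κup D.κup_injective D.κup_κ
    have h2 : (⨆ j, LinearMap.range (H2.mapEnd ϖ D.WD.W (D.c j) - 1)) =
        typeSub (fun j => H2.mapEnd ϖ D.WD.W (D.c j)) (fun _ => (1 : 𝒪)) := by
      unfold typeSub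
      simp only [one_smul]
    exact h1.trans (hker0.trans h2)
  have hsurj := map_κ_surjective (W := D.WD.W) (W1 := D.G1D.WD.W) hϖ (fun j => p ^ eP j)
    D.WD.isDiv D.G1D.WD.isDiv D.c D.c_comm D.hstep D.κ D.κup D.κup_injective D.κup_κ D.c_κup
  have hdec := fun i => tate_dec' hϖ D.WD.isDiv (D.gal (D.G1D.frob i)) (D.G1D.a i)
    (D.G1D.a' i) (D.G1D.a_ne i) (D.frob_nil i)
  exact ⟨{
    G1 := twGeomOf hϖ p hp ρbar N1 S θ MD n qv D.G1D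
    rest := D.rest
    rest_T := D.rest_T
    W := D.WD.toHMod hϖ
    gal := H2.tateGal ϖ D.gal
    gal_cont := H2.adicContinuous_tateGal (W := D.WD.W) hϖ D.gal
      (fun k => exists_uniform_field (W := D.WD.W) D.WD.isDiv D.gal D.gal_cont k)
    gal_η := fun g t => mapEnd_commute (W := D.WD.W) (D.gal_η g t)
    es := fun ℓ hℓ hℓN hℓS A hA σ hσ =>
      mapEnd_es (W := D.WD.W) (D.es ℓ hℓ hℓN hℓS A hA σ hσ)
    c := fun j => H2.mapEnd ϖ D.WD.W (D.c j)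
    c_pow := hcpow
    d := fun i => H2.mapEnd ϖ D.WD.W (D.d i)
    d_pow := fun i => mapEnd_pow_eq_one (W := D.WD.W) (D.d_pow i)
    c_comm := hccomm
    d_comm := fun i j => mapEnd_commute (W := D.WD.W) (D.d_comm i j)
    c_d := fun j i => mapEnd_commute (W := D.WD.W) (D.c_d j i)
    c_η := fun j t => mapEnd_commute (W := D.WD.W) (D.c_η j t)
    d_η := fun i t => mapEnd_commute (W := D.WD.W) (D.d_η i t)
    c_gal := fun j g => mapEnd_commute (W := D.WD.W) (D.c_gal j g)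
    d_gal := fun i g => mapEnd_commute (W := D.WD.W) (D.d_gal i g)
    rk := rk
    b := b
    b_basis := hb
    κ := H2.map ϖ D.κ
    κ_surjective := hsurj
    ker_κ := hkerκ
    κ_η := fun t v => map_equivariant (W := D.WD.W) (WM := D.G1D.WD.W) D.κ (D.WD.η t)
      (D.G1D.WD.η (D.rest t)) (D.κ_η t) v
    κ_d := fun i v => map_equivariant (W := D.WD.W) (WM := D.G1D.WD.W) D.κ (D.d i)
      (D.G1D.d i) (D.κ_d i) v
    κ_gal := fun g v => map_equivariant (W := D.WD.W) (WM := D.G1D.WD.W) D.κ (D.gal g)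
      (D.G1D.gal g) (D.κ_gal g) v
    new := fun ψ hψ E _ _ _ χ hχ j _ χ' => D.new ψ hψ E χ hχ j χ'
    Wα := fun i => H2.tateSub ϖ ((D.gal (D.G1D.frob i)).maxGenEigenspace (D.G1D.a i))
    Wβ := fun i => H2.tateSub ϖ ((D.gal (D.G1D.frob i)).maxGenEigenspace (D.G1D.a' i))
    W_isCompl := fun i => (hdec i).1
    Wα_η := fun i t v hv => (hdec i).2.1 (D.WD.η t) (D.gal_η (D.G1D.frob i) t) v hv
    Wα_d := fun i v hv => (hdec i).2.1 (D.d i) (D.d_gal i (D.G1D.frob i)).symm v hv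
    Wα_frob := fun i v hv => (hdec i).2.1 (D.gal (D.G1D.frob i)) (Commute.refl _) v hv
    Wβ_frob := fun i v hv => (hdec i).2.2.1 (D.gal (D.G1D.frob i)) (Commute.refl _) v hv
    Wα_nil := fun i => (hdec i).2.2.2.1
    Wβ_nil := fun i => (hdec i).2.2.2.2
    W_lg := fun i v hv => map_lg (W := D.WD.W) (D.gal (D.G1D.frob i)) (D.gal (D.G1D.σ i))
      (D.d i) (D.G1D.a i) (D.lg i) v hv }⟩

/-- **PV-GEOM from the divisible data**: `Stmt_PVDIV → Stmt_PVGeom2`. -/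
theorem stmt_PVGeom2_of_pvDiv (h : Stmt_PVDIV) : Stmt_PVGeom2 := by
  intro 𝒪 _ _ _ _ _ _ p _ ρbar S Smin hyp N1 _ _ hN1S hsq hU θ hθ k Pv hk hex hdvd eP heP
  obtain ⟨ϖ, hϖ⟩ := IsDiscreteValuationRing.exists_irreducible 𝒪
  obtain ⟨MD, hnt, hD⟩ :=
    h 𝒪 ϖ hϖ p ρbar S Smin hyp N1 hN1S hsq hU θ hθ k Pv hk hex hdvd eP heP
  refine ⟨MD.toHMod hϖ, ?_, ?_⟩
  · exact MD.isDiv.nontrivial_tate
  · intro r n qv hqv _ _ _ _
    obtain ⟨D⟩ := hD r n qv hqv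
    exact pvGeom2_of_pvDiv hϖ p hyp.hp𝒪 ρbar N1 S θ MD Pv.q eP n qv D

end PV

end Fermat.Agent.L.Pivot.Geom.H59

end
end
-- ==== END Fermat.Agent.L.Pivot.Geom.H59_LayerA

-- ==== BEGIN Fermat.Agent.L.Pivot.H19_Wire1
section

set_option autoImplicit false
set_option linter.style.haveILetI false
set_option linter.unusedSectionVars false
set_option linter.unusedVariables false
set_option maxHeartbeats 1000000

open Polynomial CuspForm IsLocalRing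

namespace Fermat.Agent.L.Pivot.H19

open Fermat.Agent.S56 Fermat.Agent.S59 Fermat.Agent.S59.Asm

/-! ### Arithmetic of the level -/

section Level

variable {N1 k r : ℕ} {qP : Fin k → ℕ} {qv : Fin r → ℕ}

theorem pvLevel_ne_zero (hN : N1 ≠ 0) (hqv : ∀ i, (qv i).Prime) (hqP : ∀ j, (qP j).Prime) :
    pvLevel N1 qP qv ≠ 0 := by
  unfold pvLevel
  exact mul_ne_zero (H2.twLevel_ne_zero hN hqv)
    (Finset.prod_ne_zero_iff.mpr fun j _ => (hqP j).ne_zero)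

/-- a prime dividing `∏ q_j` is one of the `q_j` -/
theorem prime_dvd_prod_pv (hqP : ∀ j, (qP j).Prime) {q : ℕ} (hq : q.Prime)
    (h : q ∣ ∏ j, qP j) : ∃ j, q = qP j := by
  obtain ⟨j, -, hj⟩ := (Prime.dvd_finsetProd_iff hq.prime _).mp h
  exact ⟨j, (Nat.prime_dvd_prime_iff_eq hq (hqP j)).mp hj⟩

theorem prime_dvd_pvLevel {S : Finset ℕ} (hNS : ∀ q : ℕ, q.Prime → q ∣ N1 → q ∈ S)
    (hqv : ∀ i, (qv i).Prime) (hqP : ∀ j, (qP j).Prime) (hPS : ∀ j, qP j ∈ S)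
    {q : ℕ} (hq : q.Prime) (h : q ∣ pvLevel N1 qP qv) : q ∈ twSet S qv := by
  unfold pvLevel at h
  rcases (Nat.Prime.dvd_mul hq).mp h with h1 | h1
  · exact H2.prime_dvd_twLevel hNS hqv hq h1
  · obtain ⟨j, rfl⟩ := prime_dvd_prod_pv hqP hq h1
    unfold twSet
    exact Finset.mem_union_left _ (hPS j)

/-- a prime different from the Taylor–Wiles primes and from the pivot primes divides
`pvLevel N1 qP qv` exactly as it divides `N1` -/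
theorem pow_dvd_pvLevel_iff (hqv : ∀ i, (qv i).Prime) (hqP : ∀ j, (qP j).Prime) {q : ℕ}
    (hq : q.Prime) (h1 : ∀ i, q ≠ qv i) (h2 : ∀ j, q ≠ qP j) (m : ℕ) :
    q ^ m ∣ pvLevel N1 qP qv ↔ q ^ m ∣ N1 := by
  unfold pvLevel twLevel
  have hc1 : Nat.Coprime (q ^ m) (∏ j, qv j ^ 2) := by
    refine Nat.Coprime.pow_left m ?_
    rw [Nat.Prime.coprime_iff_not_dvd hq]
    intro h
    obtain ⟨j, hj⟩ := H2.prime_dvd_prod_sq hqv hq h
    exact h1 j hj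
  have hc2 : Nat.Coprime (q ^ m) (∏ j, qP j) := by
    refine Nat.Coprime.pow_left m ?_
    rw [Nat.Prime.coprime_iff_not_dvd hq]
    intro h
    obtain ⟨j, hj⟩ := prime_dvd_prod_pv hqP hq h
    exact h2 j hj
  constructor
  · intro h
    exact hc1.dvd_of_dvd_mul_right (hc2.dvd_of_dvd_mul_right h)
  · intro h
    exact Dvd.dvd.mul_right (Dvd.dvd.mul_right h _) _

end Level

/-! ### The Frobenius hypothesis at the level `pvLevel` -/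

theorem frobHyp_pv {κ : Type} [Field κ] {ρbar : ResidualGaloisRep κ} {N1 : ℕ} [NeZero N1]
    {S : Finset ℕ} {θ : CuspForm.heckeAlgebra N1 2 (↑S : Set ℕ) →+* κ}
    (hθ : Fermat.Agent.S59.Datum.FrobHyp ρbar N1 S θ) {k r : ℕ} {qP : Fin k → ℕ}
    {qv : Fin r → ℕ} [NeZero (twLevel N1 qv)] [NeZero (pvLevel N1 qP qv)]
    (rest1 : CuspForm.heckeAlgebra (twLevel N1 qv) 2 (↑(twSet S qv) : Set ℕ) →+*
      CuspForm.heckeAlgebra N1 2 (↑S : Set ℕ))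
    (rest1_T : ∀ (ℓ : ℕ) (hℓ : ℓ.Prime) (hℓN' : ¬ ℓ ∣ twLevel N1 qv)
      (hℓS' : ℓ ∉ (↑(twSet S qv) : Set ℕ)) (hℓN : ¬ ℓ ∣ N1) (hℓS : ℓ ∉ (↑S : Set ℕ)),
      rest1 (CuspForm.heckeAlgebra.T hℓ hℓN' hℓS') = CuspForm.heckeAlgebra.T hℓ hℓN hℓS)
    (rest : CuspForm.heckeAlgebra (pvLevel N1 qP qv) 2 (↑(twSet S qv) : Set ℕ) →+*
      CuspForm.heckeAlgebra (twLevel N1 qv) 2 (↑(twSet S qv) : Set ℕ))
    (rest_T : ∀ (ℓ : ℕ) (hℓ : ℓ.Prime) (hℓN' : ¬ ℓ ∣ pvLevel N1 qP qv)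
      (hℓS : ℓ ∉ (↑(twSet S qv) : Set ℕ)) (hℓN : ¬ ℓ ∣ twLevel N1 qv),
      rest (CuspForm.heckeAlgebra.T hℓ hℓN' hℓS) = CuspForm.heckeAlgebra.T hℓ hℓN hℓS) :
    Fermat.Agent.S59.Datum.FrobHyp ρbar (pvLevel N1 qP qv) (twSet S qv)
      ((θ.comp rest1).comp rest) := by
  intro ℓ hℓ hℓN' hℓS' A hA σ hσ
  have hℓN : ¬ ℓ ∣ twLevel N1 qv := fun h =>
    hℓN' (show ℓ ∣ pvLevel N1 qP qv from Dvd.dvd.mul_right h _)
  have h1 := H2.frobHyp_comp_rest hθ rest1 rest1_T ℓ hℓ hℓN hℓS' A hA σ hσ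
  rw [RingHom.comp_apply, rest_T ℓ hℓ hℓN' hℓS' hℓN]
  exact h1

/-! ### Roots of unity of `p`-power order -/

section Roots

/-- `x ^ (p ^ e) = 1` implies `x ≡ 1` in a local ring of residue characteristic `p`. -/
theorem sub_one_mem_of_pow_eq_one {A : Type*} [CommRing A] [IsLocalRing A] {p : ℕ}
    (hp : p.Prime) (hpA : (p : A) ∈ maximalIdeal A) {e : ℕ} {x : A} (hx : x ^ (p ^ e) = 1) :
    x - 1 ∈ maximalIdeal A := by
  have h0 : ((p : ℕ) : ResidueField A) = 0 := by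
    have := (residue_eq_zero_iff (p : A)).mpr hpA
    rwa [map_natCast] at this
  have hchar : ringChar (ResidueField A) = p := CharP.ringChar_of_prime_eq_zero hp h0
  have hCP : CharP (ResidueField A) p := hchar ▸ ringChar.charP (ResidueField A)
  have hF : Fact p.Prime := ⟨hp⟩
  rw [← residue_eq_zero_iff, map_sub, map_one]
  have h1 : (residue A x - 1) ^ (p ^ e) = 0 := by
    rw [sub_pow_char_pow, one_pow, ← map_pow, hx, map_one, sub_self]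
  exact pow_eq_zero_iff (pow_ne_zero e hp.ne_zero) |>.mp h1

theorem pow_sub_one_mem {A : Type*} [CommRing A] (I : Ideal A) {x : A} (hx : x - 1 ∈ I)
    (n : ℕ) : x ^ n - 1 ∈ I := by
  have h := sub_dvd_pow_sub_pow x 1 n
  rw [one_pow] at h
  exact Ideal.mem_of_dvd I h hx

/-- the types `ζ ^ i - ζ ^ (p ^ e - i)`, `0 < i < p ^ e`, are not zero (`p` odd) -/
theorem type_ne_zero {A : Type*} [CommRing A] [IsDomain A] {p e : ℕ} (hp : p.Prime)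
    (hp2 : p ≠ 2) {ζ : A} (hζ : IsPrimitiveRoot ζ (p ^ e)) {i : ℕ} (hi : i < p ^ e)
    (hi0 : i ≠ 0) : ζ ^ i - ζ ^ (p ^ e - i) ≠ 0 := by
  intro h
  rw [sub_eq_zero] at h
  have h1 : ζ ^ (2 * i) = 1 := by
    rw [two_mul, pow_add]
    nth_rewrite 2 [h]
    rw [← pow_add, Nat.add_sub_cancel' hi.le, hζ.pow_eq_one]
  have h2 : p ^ e ∣ 2 * i := hζ.dvd_of_pow_eq_one _ h1
  have hcop : Nat.Coprime (p ^ e) 2 := by
    refine Nat.Coprime.pow_left e ?_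
    rw [Nat.coprime_primes hp Nat.prime_two]
    exact hp2
  have h3 : p ^ e ∣ i := hcop.dvd_of_dvd_mul_left h2
  have := Nat.le_of_dvd (Nat.pos_of_ne_zero hi0) h3
  omega

/-- the types lie in the maximal ideal -/
theorem type_mem {A : Type*} [CommRing A] [IsLocalRing A] {p e : ℕ} (hp : p.Prime)
    (hpA : (p : A) ∈ maximalIdeal A) {ζ : A} (hζ : ζ ^ (p ^ e) = 1) (i j : ℕ) :
    ζ ^ i - ζ ^ j ∈ maximalIdeal A := by
  have h := sub_one_mem_of_pow_eq_one hp hpA hζ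
  have h1 := pow_sub_one_mem _ h i
  have h2 := pow_sub_one_mem _ h j
  have : ζ ^ i - ζ ^ j = (ζ ^ i - 1) - (ζ ^ j - 1) := by ring
  rw [this]
  exact Ideal.sub_mem _ h1 h2

end Roots

/-! ### The kernel of `G1.π ∘ κ` -/

theorem ker_comp_κ {𝒪 : Type} [CommRing 𝒪] [IsLocalRing 𝒪] {p : ℕ}
    {ρbar : ResidualGaloisRep (ResidueField 𝒪)} {N1 : ℕ} [NeZero N1] {S : Finset ℕ}
    {θ : CuspForm.heckeAlgebra N1 2 (↑S : Set ℕ) →+* ResidueField 𝒪}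
    {M : HMod 𝒪 N1 (↑S : Set ℕ) θ} {k : ℕ} {qP : Fin k → ℕ} {eP : Fin k → ℕ}
    {r : ℕ} {n : ℕ} {qv : Fin r → ℕ}
    [NeZero (twLevel N1 qv)] [NeZero (pvLevel N1 qP qv)]
    (G : PVGeom 𝒪 p ρbar N1 S θ M qP eP n qv) :
    LinearMap.ker (G.G1.π ∘ₗ G.κ) =
      typeSub G.c (fun _ => (1 : 𝒪)) ⊔ ⨆ i, LinearMap.range (G.d i - 1) := by
  rw [LinearMap.ker_comp, G.G1.ker_π, ← G.ker_κ]
  have h1 : ∀ i, LinearMap.range (G.G1.d i - 1) =
      Submodule.map G.κ (LinearMap.range (G.d i - 1)) := by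
    intro i
    rw [← LinearMap.range_comp]
    have h2 : G.κ ∘ₗ (G.d i - 1) = (G.G1.d i - 1) ∘ₗ G.κ := by
      ext v
      simp only [LinearMap.comp_apply, LinearMap.sub_apply, Module.End.one_apply, map_sub,
        G.κ_d]
    rw [h2, LinearMap.range_comp_of_range_eq_top _ (LinearMap.range_eq_top.mpr G.κ_surjective)]
  simp only [h1]
  rw [← Submodule.map_iSup, Submodule.comap_map_eq, sup_comm]

/-! ### The wiring -/

section Wire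

variable (𝒪 : Type) [CommRing 𝒪] [IsDomain 𝒪] [IsDiscreteValuationRing 𝒪]
  [IsAdicComplete (maximalIdeal 𝒪) 𝒪] [Finite (ResidueField 𝒪)] [CharZero 𝒪]
  (p : ℕ) [Fact p.Prime]

/-- the standing hypotheses on the residual representation, from those of S56 -/
theorem resHyp_of_hyp {ρbar : ResidualGaloisRep (ResidueField 𝒪)} {S Smin : Finset ℕ}
    (hyp : Hyp 𝒪 p ρbar S Smin) : ResHyp p ρbar Smin :=
  ⟨hyp.habs, hyp.hdet, hyp.hsplit, hyp.hTW, hyp.hpSmin, fun q hq => hyp.hS q (hyp.hSmin hq),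
    hyp.hmin⟩

/-- the pivot primes lie in `S` -/
theorem pv_mem_S {ρbar : ResidualGaloisRep (ResidueField 𝒪)} {N1 : ℕ} {S Smin : Finset ℕ}
    {k : ℕ} {Pv : PivotPrimes k} {eP : Fin k → ℕ} (hPV : PVHyp p ρbar N1 S Smin Pv eP)
    (j : Fin k) : Pv.q j ∈ S := by
  have h : Pv.q j ∈ Smin ∪ Pv.set :=
    Finset.mem_union_right _ (Finset.mem_image_of_mem _ (Finset.mem_univ j))
  exact hPV.hS ▸ h

/-- the pivot primes do not lie in `Smin` -/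
theorem pv_notMem_Smin {ρbar : ResidualGaloisRep (ResidueField 𝒪)} {N1 : ℕ} {S Smin : Finset ℕ}
    {k : ℕ} {Pv : PivotPrimes k} {eP : Fin k → ℕ} (hPV : PVHyp p ρbar N1 S Smin Pv eP)
    (j : Fin k) : Pv.q j ∉ Smin := fun h =>
  (hPV.hyp.hmin (Pv.q j) (Pv.q_prime j) (hPV.hex j).2.1).mp h (hPV.hex j).2.2.1

/-- **The context of a Taylor–Wiles family** (DEF + PV-GAL + DATUM + COND + S54 + LOCMOD). -/
theorem exists_ctx (hDatum : Fermat.Agent.S59.Datum.Stmt_DATUM) (hCond : Stmt_COND)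
    (fl : Bool) (ρbar : ResidualGaloisRep (ResidueField 𝒪)) (S Smin : Finset ℕ)
    (hbar : cond 𝒪 p fl Smin ∅ (GaloisRepAdic.ofResidualGaloisRep ρbar))
    (hnfl : fl = false → ¬ (GaloisRepAdic.ofResidualGaloisRep ρbar).IsFlatAt p)
    (N1 : ℕ) [NeZero N1] (hpN : fl = true → ¬ p ∣ N1) (hpN' : fl = false → p ∣ N1)
    (θ : CuspForm.heckeAlgebra N1 2 (↑S : Set ℕ) →+* ResidueField 𝒪)
    (hθ : Fermat.Agent.S59.Datum.FrobHyp ρbar N1 S θ)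
    (k : ℕ) (Pv : PivotPrimes k) (eP : Fin k → ℕ) (hPV : PVHyp p ρbar N1 S Smin Pv eP)
    (M : HMod 𝒪 N1 (↑S : Set ℕ) θ) (g r n : ℕ) (qv : Fin r → ℕ)
    (hqv : IsTWFamily ρbar p n S qv)
    (hγ : ∀ DQ : GaloisRep.DeformationRingData 𝒪 ρbar
        (cond 𝒪 p fl Smin (Pv.set ∪ Finset.univ.image qv)),
      ∀ b : Module.Basis (Fin 2) DQ.R DQ.ρ.V,
        ∃ γ : PRing 𝒪 k g →ₐ[𝒪] DQ.R, Function.Surjective γ ∧
          IsCoordHom γ (fun j => LinearMap.toMatrix b b (DQ.ρ.ρ (Pv.τ j)))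
            (fun j => LinearMap.toMatrix b b (DQ.ρ.ρ (Pv.frob j))))
    [NeZero (twLevel N1 qv)] [NeZero (pvLevel N1 Pv.q qv)]
    [Fact (CuspForm.HasIntegralStructure (pvLevel N1 Pv.q qv) 2)]
    (G : PVGeom2 𝒪 p ρbar N1 S θ M Pv.q eP n qv) :
    Nonempty (PVCtx 𝒪 p fl ρbar N1 S Smin θ M Pv eP g n qv) := by
  have hpP : p.Prime := Fact.out
  have hyp := hPV.hyp
  have hp2 := hyp.hp2
  have hp𝒪 := hyp.hp𝒪
  have hres : ResHyp p ρbar Smin := resHyp_of_hyp 𝒪 p hyp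
  have hpS : p ∈ S := hyp.hSmin hyp.hpSmin
  have hqvP : ∀ i, (qv i).Prime := fun i => (hqv.2.1 i).1
  have hqvS : ∀ i, qv i ∉ S := fun i => (hqv.2.1 i).2.1
  have hPvS : ∀ j, Pv.q j ∈ S := pv_mem_S 𝒪 p hPV
  have hPvSmin : ∀ j, Pv.q j ∉ Smin := pv_notMem_Smin 𝒪 p hPV
  -- the universal ring
  have hbarQ : cond 𝒪 p fl Smin (Pv.set ∪ Finset.univ.image qv)
      (GaloisRepAdic.ofResidualGaloisRep ρbar) :=
    Fermat.Agent.S59.Asm.cond_mono (Finset.empty_subset _) hbar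
  obtain ⟨DQ⟩ := Fermat.Agent.S59.H99.stmt_DEF 𝒪 p hp2 hp𝒪 fl ρbar hyp.habs Smin
    (Pv.set ∪ Finset.univ.image qv) hyp.hpSmin
    (fun q hq => by
      rcases Finset.mem_union.mp hq with h | h
      · exact hres.hS q h
      · rcases Finset.mem_union.mp h with h | h
        · obtain ⟨j, -, rfl⟩ := Finset.mem_image.mp h
          exact Pv.q_prime j
        · obtain ⟨i, -, rfl⟩ := Finset.mem_image.mp h
          exact hqvP i) hbarQ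
  let bQ : Module.Basis (Fin 2) DQ.R DQ.ρ.V :=
    Module.finBasisOfFinrankEq DQ.R DQ.ρ.V DQ.ρ.finrank_eq
  obtain ⟨γ, hγs, hγc⟩ := hγ DQ bQ
  -- the Hecke–Galois datum of the level `pvLevel`
  have hN''S : ∀ q : ℕ, q.Prime → q ∣ pvLevel N1 Pv.q qv → q ∈ twSet S qv :=
    fun q hq h => prime_dvd_pvLevel hPV.hNS hqvP Pv.q_prime hPvS hq h
  have hθQ : Fermat.Agent.S59.Datum.FrobHyp ρbar (pvLevel N1 Pv.q qv) (twSet S qv)
      ((θ.comp G.G1.rest).comp G.rest) :=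
    frobHyp_pv hθ G.G1.rest G.G1.rest_T G.rest G.rest_T
  obtain ⟨HQ, hHQπ, hHQdet, hHQres⟩ :=
    hDatum 𝒪 p hp2 hp𝒪 (pvLevel N1 Pv.q qv) (twSet S qv)
      (Finset.mem_union_left _ hpS) hN''S ρbar hyp.habs ((θ.comp G.G1.rest).comp G.rest) hθQ
  have hS' : twSet S qv = Smin ∪ (Pv.set ∪ Finset.univ.image qv) := by
    unfold twSet
    rw [← Finset.union_assoc, ← hPV.hS]
  have hne1 : ∀ q ∈ Smin, ∀ i, q ≠ qv i := fun q hq i h => hqvS i (h ▸ hyp.hSmin hq)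
  have hne2 : ∀ q ∈ Smin, ∀ j, q ≠ Pv.q j := fun q hq j h => hPvSmin j (h ▸ hq)
  have hHQcond : cond 𝒪 p fl Smin (Pv.set ∪ Finset.univ.image qv) HQ.ρ := by
    refine hCond 𝒪 p hp2 hp𝒪 fl ρbar Smin hres hbar hnfl (Pv.set ∪ Finset.univ.image qv)
      (pvLevel N1 Pv.q qv) (twSet S qv) hS' hN''S ?_ ?_ ?_ ((θ.comp G.G1.rest).comp G.rest)
      hθQ HQ hHQπ hHQdet hHQres
    · intro q hq hqp
      have h1 := pow_dvd_pvLevel_iff (N1 := N1) hqvP Pv.q_prime (hres.hS q hq) (hne1 q hq)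
        (hne2 q hq) 1
      have h2 := pow_dvd_pvLevel_iff (N1 := N1) hqvP Pv.q_prime (hres.hS q hq) (hne1 q hq)
        (hne2 q hq) 2
      rw [pow_one] at h1
      exact ⟨h1.mpr (hPV.hSminN q hq hqp),
        fun h => H2.not_sq_dvd_of_squarefree hPV.hsq (hres.hS q hq) (h2.mp h)⟩
    · intro hfl h
      have h1 := pow_dvd_pvLevel_iff (N1 := N1) hqvP Pv.q_prime hpP (hne1 p hyp.hpSmin)
        (hne2 p hyp.hpSmin) 1
      rw [pow_one] at h1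
      exact hpN hfl (h1.mp h)
    · intro hfl
      have h1 := pow_dvd_pvLevel_iff (N1 := N1) hqvP Pv.q_prime hpP (hne1 p hyp.hpSmin)
        (hne2 p hyp.hpSmin) 1
      have h2 := pow_dvd_pvLevel_iff (N1 := N1) hqvP Pv.q_prime hpP (hne1 p hyp.hpSmin)
        (hne2 p hyp.hpSmin) 2
      rw [pow_one] at h1
      exact ⟨h1.mpr (hpN' hfl), fun h => H2.not_sq_dvd_of_squarefree hPV.hsq hpP (h2.mp h)⟩
  obtain ⟨φQ, -, hφQl, hφQe⟩ := Fermat.Agent.S54.result DQ HQ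
    (fun q hq hqN => Finset.mem_coe.mpr (hN''S q hq hqN)) hHQcond hHQres
  obtain ⟨ηW, hηW⟩ := Fermat.Agent.S59.Asm.H85.stmt_LOCMOD 𝒪 (pvLevel N1 Pv.q qv)
    (↑(twSet S qv) : Set ℕ) ((θ.comp G.G1.rest).comp G.rest) G.W
  exact ⟨⟨G, DQ, bQ, γ, hγs, hγc, HQ, hHQπ, hHQdet, φQ, hφQl, hφQe, ηW, hηW⟩⟩

/-- **The level from a context** (DATUM, S34, S54 and the leaves A, B, C; RANK). -/
theorem level_of_ctx (hDatum : Fermat.Agent.S59.Datum.Stmt_DATUM)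
    (hAsm : Stmt_PVAsm) (hUnip : Stmt_PVUnip) (hNU : Stmt_PVNU)
    (fl : Bool) (ρbar : ResidualGaloisRep (ResidueField 𝒪)) (S Smin : Finset ℕ)
    (N1 : ℕ) [NeZero N1] [Fact (CuspForm.HasIntegralStructure N1 2)]
    (θ : CuspForm.heckeAlgebra N1 2 (↑S : Set ℕ) →+* ResidueField 𝒪)
    (hθ : Fermat.Agent.S59.Datum.FrobHyp ρbar N1 S θ)
    (k : ℕ) (Pv : PivotPrimes k) (eP : Fin k → ℕ) (hPV : PVHyp p ρbar N1 S Smin Pv eP)
    (ζ : Fin k → 𝒪) (hζ : ∀ j, IsPrimitiveRoot (ζ j) (p ^ eP j))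
    (hζ1 : ∀ j, ζ j ≠ 1)
    (ϖ : 𝒪) (hϖ : maximalIdeal 𝒪 = Ideal.span {ϖ})
    (M : HMod 𝒪 N1 (↑S : Set ℕ) θ)
    (H : CuspForm.HeckeGaloisRepDatum N1 (↑S : Set ℕ) 𝒪 θ
      (CuspForm.heckeLocal N1 (↑S : Set ℕ) 𝒪 θ))
    (hHπ : H.π = CuspForm.heckeLocal.π N1 (↑S : Set ℕ) 𝒪 θ)
    (hHres : H.ρ.residual.IsEquiv (ρbar.baseChangeAlong
      (ResidueField.map (algebraMap 𝒪 (CuspForm.heckeLocal N1 (↑S : Set ℕ) 𝒪 θ)))))
    (hHcond : cond 𝒪 p fl Smin Pv.set H.ρ)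
    (ηM : CuspForm.heckeLocal N1 (↑S : Set ℕ) 𝒪 θ →ₐ[𝒪] Module.End 𝒪 M.V)
    (hηM : ∀ t : CuspForm.heckeAlgebra N1 2 (↑S : Set ℕ),
      ηM (CuspForm.heckeLocal.π N1 (↑S : Set ℕ) 𝒪 θ t) = M.η t)
    (b : Module.Basis (Fin 2) (CuspForm.heckeLocal N1 (↑S : Set ℕ) 𝒪 θ) H.ρ.V)
    (g r n : ℕ) (qv : Fin r → ℕ) (hqv : IsTWFamily ρbar p n S qv)
    [NeZero (twLevel N1 qv)] [NeZero (pvLevel N1 Pv.q qv)]
    [Fact (CuspForm.HasIntegralStructure (twLevel N1 qv) 2)]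
    [Fact (CuspForm.HasIntegralStructure (pvLevel N1 Pv.q qv) 2)]
    (X : PVCtx 𝒪 p fl ρbar N1 S Smin θ M Pv eP g n qv)
    (𝔞 : (Fin k → 𝒪) → Ideal (PRing 𝒪 k g))
    (h𝔞 : ∀ δ ∈ pvTypes p eP ζ, KilledByType g δ (𝔞 δ)) :
    Nonempty (@PivotLevel 𝒪 _ r (6 * k + g) (CuspForm.heckeLocal N1 (↑S : Set ℕ) 𝒪 θ) _ _
      M.V _ (Module.compHom M.V
        ((ηM : CuspForm.heckeLocal N1 (↑S : Set ℕ) 𝒪 θ →ₐ[𝒪] Module.End 𝒪 M.V) :
          CuspForm.heckeLocal N1 (↑S : Set ℕ) 𝒪 θ →+* Module.End 𝒪 M.V))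
      ϖ (idealUnip g (fun j => ((Pv.q j : ℕ) : 𝒪))) ((pvTypes p eP ζ).inf 𝔞)
      (idealX 𝒪 k g) (pvXi H.ρ b Pv) (twIdealP 𝒪 r p n) (Module.finrank 𝒪 M.V)) := by
  have hpP : p.Prime := Fact.out
  have hyp := hPV.hyp
  have hp2 := hyp.hp2
  have hp𝒪 := hyp.hp𝒪
  have hpS : p ∈ S := hyp.hSmin hyp.hpSmin
  have hqvP : ∀ i, (qv i).Prime := fun i => (hqv.2.1 i).1
  have hqvS : ∀ i, qv i ∉ S := fun i => (hqv.2.1 i).2.1
  have hPvS : ∀ j, Pv.q j ∈ S := pv_mem_S 𝒪 p hPV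
  -- the Hecke–Galois datum of the level `twLevel`
  have hN'S : ∀ q : ℕ, q.Prime → q ∣ twLevel N1 qv → q ∈ twSet S qv :=
    fun q hq h => H2.prime_dvd_twLevel hPV.hNS hqvP hq h
  have hθQ1 : Fermat.Agent.S59.Datum.FrobHyp ρbar (twLevel N1 qv) (twSet S qv)
      (θ.comp X.G.G1.rest) := H2.frobHyp_comp_rest hθ X.G.G1.rest X.G.G1.rest_T
  obtain ⟨HQ1, hHQ1π, hHQ1det, -⟩ :=
    hDatum 𝒪 p hp2 hp𝒪 (twLevel N1 qv) (twSet S qv)
      (Finset.mem_union_left _ hpS) hN'S ρbar hyp.habs (θ.comp X.G.G1.rest) hθQ1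
  have hunip : ∀ j, HQ1.ρ.IsUnipotentOnInertiaAt (Pv.q j) := by
    intro j
    have h1 := H2.pow_dvd_twLevel_iff (N := N1) hqvP hqvS (Pv.q_prime j) (hPvS j) 1
    have h2 := H2.pow_dvd_twLevel_iff (N := N1) hqvP hqvS (Pv.q_prime j) (hPvS j) 2
    rw [pow_one] at h1
    exact Fermat.Agent.S34.result (S := twSet S qv) hpP hp𝒪 (Finset.mem_union_left _ hpS) hN'S
      HQ1 (Pv.q j)
      (Pv.q_prime j) (hPV.hex j).2.1 (h1.mpr (hPV.hPvN j))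
      (fun h => H2.not_sq_dvd_of_squarefree hPV.hsq (Pv.q_prime j) (h2.mp h))
  -- the map from the universal ring to the Hecke ring of level `N1`
  have hHcondQ : cond 𝒪 p fl Smin (Pv.set ∪ Finset.univ.image qv) H.ρ :=
    Fermat.Agent.S59.Asm.cond_mono Finset.subset_union_left hHcond
  obtain ⟨τ, hτs, hτl, hτe⟩ := Fermat.Agent.S54.result X.DQ H
    (fun q hq hqN => Finset.mem_coe.mpr (hPV.hNS q hq hqN)) hHcondQ hHres
  -- the relations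
  have hrel1 := hUnip 𝒪 p fl ρbar N1 S Smin θ M k Pv eP hPV g r n qv hqv X HQ1 hHQ1π hHQ1det
    hunip
  have hrelχ := hNU 𝒪 p fl ρbar N1 S Smin θ M k Pv eP hPV g r n qv hqv X ζ hζ ζ
    (fun j => ⟨(hζ j).pow_eq_one, hζ1 j⟩) 𝔞 h𝔞
  have hψ1 : ∀ j, ζ j - 1 ∈ Ideal.span {ϖ} := fun j =>
    hϖ ▸ sub_one_mem_of_pow_eq_one hpP hp𝒪 (hζ j).pow_eq_one
  -- the rank
  have hrk : Module.finrank 𝒪 M.V = X.G.rk :=
    Fermat.Agent.L.Pivot.H76.finrank_eq_rk hpP.pos X.G.d_pow X.G.d_comm X.G.c_pow X.G.c_comm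
      X.G.c_d X.G.b_basis (X.G.G1.π ∘ₗ X.G.κ)
      (X.G.G1.π_surjective.comp X.G.κ_surjective) (ker_comp_κ X.G.toPVGeom)
  rw [hrk]
  exact hAsm 𝒪 p fl ρbar N1 S Smin θ M k Pv eP hPV H hHπ hHcond ηM hηM g r n qv hqv X τ hτs
    hτl hτe ϖ hϖ ζ (fun j => (hζ j).pow_eq_one) hψ1 _ _ hrel1 hrelχ b

end Wire

/-- **PV-WIRE1**: the levels of the patching datum of PIVOT from the leaves and the landed
results. -/
theorem pvLevelsB_of (hIS : ∀ (N : ℕ) [NeZero N], CuspForm.HasIntegralStructure N 2)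
    (hGal : Stmt_PVGalB) (hGeom : Stmt_PVGeom2)
    (hDatum : Fermat.Agent.S59.Datum.Stmt_DATUM) (hCond : Stmt_COND)
    (hAsm : Stmt_PVAsm) (hUnip : Stmt_PVUnip) (hNU : Stmt_PVNU) : Stmt_PVLevelsB := by
  intro 𝒪 _ _ _ _ _ _ p _ fl ρbar S Smin hbar hnfl N1 _ hpN hpN' θ hθ k Pv eP hPV hζex ϖ hϖ
  have hpP : p.Prime := Fact.out
  haveI : Fact (CuspForm.HasIntegralStructure N1 2) := ⟨hIS N1⟩
  have hyp := hPV.hyp
  have hp2 := hyp.hp2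
  have hp𝒪 := hyp.hp𝒪
  have hres : ResHyp p ρbar Smin := resHyp_of_hyp 𝒪 p hyp
  have hpS : p ∈ S := hyp.hSmin hyp.hpSmin
  have hPvS : ∀ j, Pv.q j ∈ S := pv_mem_S 𝒪 p hPV
  have hPvset : Pv.set ⊆ S := by
    intro q hq
    obtain ⟨j, -, rfl⟩ := Finset.mem_image.mp hq
    exact hPvS j
  -- the Hecke–Galois datum of the level `N1`
  obtain ⟨H, hHπ, hHdet, hHres⟩ :=
    hDatum 𝒪 p hp2 hp𝒪 N1 S hpS hPV.hNS ρbar hyp.habs θ hθ
  have hHcond : cond 𝒪 p fl Smin Pv.set H.ρ :=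
    hCond 𝒪 p hp2 hp𝒪 fl ρbar Smin hres hbar hnfl Pv.set N1 S hPV.hS hPV.hNS
      (fun q hq hqp => ⟨hPV.hSminN q hq hqp,
        H2.not_sq_dvd_of_squarefree hPV.hsq (hres.hS q hq)⟩)
      hpN (fun h => ⟨hpN' h, H2.not_sq_dvd_of_squarefree hPV.hsq hpP⟩)
      θ hθ H hHπ hHdet hHres
  -- the module, the Taylor–Wiles families
  obtain ⟨M, hMnt, hG⟩ := hGeom 𝒪 p ρbar S Smin hyp N1 hPV.hNS hPV.hsq (Or.inl hPV.h5) θ hθ k Pv
    hPV.hk hPV.hex hPV.hPvN eP hPV.heP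
  obtain ⟨ηM, hηM⟩ := Fermat.Agent.S59.Asm.H85.stmt_LOCMOD 𝒪 N1 (↑S : Set ℕ) θ M
  obtain ⟨r, g, hrg, hfam⟩ := hGal 𝒪 p fl ρbar S Smin hyp k Pv hPV.hex hPvset
  -- the types
  choose ζ hζ using hζex
  have heP0 : ∀ j, eP j ≠ 0 := by
    intro j h0
    have h1 := (hPV.heP j).2
    rw [h0, zero_add, pow_one] at h1
    exact h1 (hPV.hex j).1
  have hζ1 : ∀ j, ζ j ≠ 1 := fun j =>
    (hζ j).ne_one (Nat.one_lt_pow (heP0 j) hpP.one_lt)
  have ht0 : ∀ δ ∈ pvTypes p eP ζ, ∀ j, δ j ≠ 0 := by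
    intro δ hδ j
    obtain ⟨i, hi1, hi2, rfl⟩ := mem_pvTypes.mp hδ
    exact type_ne_zero hpP hp2 (hζ j) (hi1 j) (hi2 j)
  have htm : ∀ δ ∈ pvTypes p eP ζ, ∀ j, δ j ∈ maximalIdeal 𝒪 := by
    intro δ hδ j
    obtain ⟨i, hi1, hi2, rfl⟩ := mem_pvTypes.mp hδ
    exact type_mem hpP hp𝒪 (hζ j).pow_eq_one _ _
  have hunr : ∀ j, H.ρ.residual.IsUnramifiedAt (Pv.q j) := fun j A hA σ hσ =>
    Fermat.Agent.S59.Asm.H77.resid_eq_one_of_isEquiv ρbar H.ρ hHres σ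
      ((hPV.hex j).2.2.1 A hA σ hσ)
  let b : Module.Basis (Fin 2) (CuspForm.heckeLocal N1 (↑S : Set ℕ) 𝒪 θ) H.ρ.V :=
    Module.finBasisOfFinrankEq _ _ H.ρ.finrank_eq
  refine ⟨CuspForm.heckeLocal N1 (↑S : Set ℕ) 𝒪 θ, inferInstance, inferInstance, inferInstance,
    inferInstance, inferInstance, inferInstance, inferInstance, inferInstance, H, b, M.V,
    inferInstance, Module.compHom M.V
      ((ηM : CuspForm.heckeLocal N1 (↑S : Set ℕ) 𝒪 θ →ₐ[𝒪] Module.End 𝒪 M.V) :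
        CuspForm.heckeLocal N1 (↑S : Set ℕ) 𝒪 θ →+* Module.End 𝒪 M.V), hMnt, r, g,
    Module.finrank 𝒪 M.V, pvTypes p eP ζ, hHdet, hunr, by omega, ht0, htm, ?_⟩
  intro 𝔞 h𝔞 n
  obtain ⟨qv, hqv, hγ⟩ := hfam n
  have hqvP : ∀ i, (qv i).Prime := fun i => (hqv.2.1 i).1
  haveI : NeZero (twLevel N1 qv) := ⟨H2.twLevel_ne_zero (NeZero.ne N1) hqvP⟩
  haveI : NeZero (pvLevel N1 Pv.q qv) := ⟨pvLevel_ne_zero (NeZero.ne N1) hqvP Pv.q_prime⟩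
  haveI : Fact (CuspForm.HasIntegralStructure (twLevel N1 qv) 2) := ⟨hIS _⟩
  haveI : Fact (CuspForm.HasIntegralStructure (pvLevel N1 Pv.q qv) 2) := ⟨hIS _⟩
  obtain ⟨G⟩ := hG r n qv hqv
  obtain ⟨X⟩ := exists_ctx 𝒪 p hDatum hCond fl ρbar S Smin hbar hnfl N1 hpN hpN' θ hθ k Pv eP
    hPV M g r n qv hqv hγ G
  exact level_of_ctx 𝒪 p hDatum hAsm hUnip hNU fl ρbar S Smin N1 θ hθ k Pv eP hPV ζ hζ hζ1 ϖ
    hϖ M H hHπ hHres hHcond ηM hηM b g r n qv hqv X 𝔞 h𝔞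

/-- **PV-WIRE1.** -/
theorem stmt_PVWire1 : Stmt_PVWire1 := fun hGal hGeom hDatum hCond hAsm hUnip hNU =>
  pvLevelsB_of (fun N _ => Fermat.Agent.S23.result N) hGal hGeom hDatum hCond hAsm hUnip hNU

end Fermat.Agent.L.Pivot.H19

end
-- ==== END Fermat.Agent.L.Pivot.H19_Wire1
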