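-- GENERATED (merged mirror, NOTES/tools/trim/merge3_helper67.py): 7 modules of the originals, bodies verbatim.
import Fermat.Agent.Zm.S43_L13_000
import Fermat.Agent.Zm.S43_L06_001
import Fermat.Agent.Zm.S43_L07_000
import Fermat.Agent.Zm.S43_L08_000
import Fermat.Agent.Zm.S43_L08_001
import Fermat.Agent.Zm.S33_L01_002
import Fermat.Agent.Zm.S43_L12_000
import Fermat.Agent.Zm.S43_L13_002
import Fermat.Agent.Zm.S43_L01_001
import Fermat.Agent.Zm.S43_L07_001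
import Fermat.Agent.Zm.S43_L08_002
import Fermat.Agent.Zm.S43_L05_002
import Fermat.Agent.Zm.S43_L12_001
import Fermat.Agent.Zm.S43_L13_001
import Fermat.Agent.Zm.S43_L10_001

-- ==== BEGIN Fermat.Agent.L.Pivot.H72_PVNU
section

set_option autoImplicit false
set_option linter.style.haveILetI false
set_option linter.unusedSectionVars false

namespace Fermat.Agent.L.Pivot.H72

open IsLocalRing Polynomial CuspForm Fermat.Agent.S56 Fermat.Agent.S59 Fermat.Agent.S59.Asm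
open scoped TensorProduct

section ResEquiv

/-- A residual representation equivalent to a base change of an unramified one is
unramified. -/
theorem resid_unramified_of_isEquiv_baseChange {k k' : Type} [Field k] [Field k']
    (φ : k →+* k') (ρ₀ : ResidualGaloisRep k) (ρ₁ : ResidualGaloisRep k')
    (h : ρ₁.IsEquiv (ρ₀.baseChangeAlong φ)) (q : ℕ) (h0 : ρ₀.IsUnramifiedAt q) :
    ρ₁.IsUnramifiedAt q := by
  obtain ⟨e⟩ := h
  intro P hP σ hσ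
  letI : Algebra k k' := φ.toAlgebra
  have h1 : (ρ₀.baseChangeAlong φ).ρ σ = 1 := by
    show (ρ₀.ρ σ).baseChange k' = 1
    rw [h0 P hP σ hσ]
    exact LinearMap.baseChange_one (R := k) (A := k') (M := ρ₀.V)
  refine LinearMap.ext fun y => ?_
  apply e.toLinearEquiv.injective
  rw [e.map_apply, h1]
  rfl

/-- `OccursAtLevel` only depends on the level. -/
theorem occursAtLevel_congr {N : ℕ} [NeZero N] {S : Finset ℕ} {D : Type} [CommRing D]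
    (χ : heckeAlgebra N 2 (↑S : Set ℕ) →+* D) {M₁ M₂ : ℕ} [NeZero M₁] [NeZero M₂]
    (h : M₁ = M₂) (ho : Fermat.Agent.R.OccursAtLevel χ M₁) :
    Fermat.Agent.R.OccursAtLevel χ M₂ := by
  subst h
  exact ho

end ResEquiv

/-- A point which is new at `q` (`q² ∥ N`) is not unipotent on inertia at `q`. -/
theorem not_unipotent_of_new (hpt : Stmt_PVNUPoint) (p : ℕ) (hp : p.Prime) (hp2 : p ≠ 2)
    (N : ℕ) [NeZero N] (S' : Finset ℕ) (q : ℕ) (hq : q.Prime) (hqp : q ≠ p)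
    (hN : N = N / q ^ 2 * q ^ 2) (hqM : ¬ q ∣ N / q ^ 2) (hMq : N / q ^ 2 * q = N / q)
    [NeZero (N / q)] (hpS : p ∈ S') (hNS : ∀ q' : ℕ, q'.Prime → q' ∣ N → q' ∈ S')
    (T' : Type) [CommRing T'] [IsLocalRing T'] (π : heckeAlgebra N 2 (↑S' : Set ℕ) →+* T')
    (ρ' : GaloisRepAdic T') (hfrob : Fermat.Agent.R.HasFrobCharpoly π ρ')
    (habs : ρ'.residual.IsAbsolutelyIrreducible) (hpT : (p : T') ∈ maximalIdeal T')
    (O : Type) [CommRing O] [IsDomain O] [IsDiscreteValuationRing O]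
    [IsAdicComplete (maximalIdeal O) O] [Finite (ResidueField O)] [CharZero O]
    (x : T' →+* O) (hx : IsLocalHom x)
    (hnew : ∀ χ' : heckeAlgebra (N / q) 2 (↑S' : Set ℕ) →+* O,
      ¬ ∀ (ℓ : ℕ) (hℓ : ℓ.Prime) (hℓN' : ¬ ℓ ∣ N) (hℓS : ℓ ∉ (↑S' : Set ℕ))
        (hℓN : ¬ ℓ ∣ N / q),
        χ' (heckeAlgebra.T hℓ hℓN hℓS) = x (π (heckeAlgebra.T hℓ hℓN' hℓS))) :
    ¬ (ρ'.baseChangeAlong x hx).IsUnipotentOnInertiaAt q := by
  have hN0 : N ≠ 0 := NeZero.ne N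
  haveI hMq0 : NeZero (N / q ^ 2 * q) := by
    refine ⟨mul_ne_zero (fun hM => hN0 ?_) hq.ne_zero⟩
    rw [hN, hM, zero_mul]
  have hpO : (p : O) ∈ maximalIdeal O := by
    haveI := hx
    have h2 := map_nonunit x _ hpT
    rwa [map_natCast] at h2
  have hfrob' : Fermat.Agent.R.HasFrobCharpoly (x.comp π) (ρ'.baseChangeAlong x hx) :=
    Fermat.Agent.R.H86.hasFrobCharpoly_baseChangeAlong x hx π ρ' hfrob
  have habs' := Fermat.Agent.R.H86.residual_absIrr_baseChangeAlong x hx ρ' habs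
  refine hpt p N (N / q ^ 2) q S' O hp hp2 hpO hq hqp hN hqM hpS hNS (x.comp π)
    (ρ'.baseChangeAlong x hx) hfrob' habs' ?_
  intro hocc
  obtain ⟨χ', hχ'⟩ := occursAtLevel_congr (x.comp π) hMq hocc
  exact hnew χ' fun ℓ hℓ hℓN' hℓS hℓN => hχ' ℓ hℓ hℓN' hℓN hℓS

/-- **PV-NU** (C) from **PV-NU-POINT** (C-pt). -/
theorem stmt_PVNU_of (hpt : Stmt_PVNUPoint) : Stmt_PVNU := by
  intro 𝒪 _ _ _ _ _ _ p _ fl ρbar N1 _ S Smin θ M k Pv eP hPV g r n qv hqv _ _ _ X ζ hζ ψ hψ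
    𝔞 h𝔞
  have hp : p.Prime := Fact.out
  have hyp := hPV.hyp
  have hpS : p ∈ S := hyp.hSmin hyp.hpSmin
  -- the primes of the level
  have hPvS : ∀ j, Pv.q j ∈ S := fun j => hPV.hNS _ (Pv.q_prime j) (hPV.hPvN j)
  have hne : ∀ j i, qv i ≠ Pv.q j := fun j i h => (hqv.2.1 i).2.1 (h ▸ hPvS j)
  have hNS' : ∀ q' : ℕ, q'.Prime → q' ∣ pvLevel N1 Pv.q qv → q' ∈ twSet S qv := by
    intro q' hq' hdiv
    unfold twSet
    rcases prime_dvd_pvLevel N1 Pv.q qv Pv.q_prime (fun i => (hqv.2.1 i).1) hq' hdiv with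
      h | ⟨i, rfl⟩ | ⟨j, rfl⟩
    · exact Finset.mem_union_left _ (hPV.hNS q' hq' h)
    · exact Finset.mem_union_right _ (Finset.mem_image_of_mem _ (Finset.mem_univ i))
    · exact Finset.mem_union_left _ (hPvS j)
  have hNS'' : ∀ q' : ℕ, q'.Prime → q' ∣ pvLevel N1 Pv.q qv →
      q' ∈ (↑(twSet S qv) : Set ℕ) := fun q' hq' hdiv => Finset.mem_coe.2 (hNS' q' hq' hdiv)
  -- the Hecke ring is reduced
  haveI : Module.Finite ℤ (heckeAlgebra (pvLevel N1 Pv.q qv) 2 (↑(twSet S qv) : Set ℕ)) :=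
    Fermat.Agent.S22.result (pvLevel N1 Pv.q qv) 2 (↑(twSet S qv) : Set ℕ)
  haveI : IsReduced (heckeAlgebra (pvLevel N1 Pv.q qv) 2 (↑(twSet S qv) : Set ℕ)) :=
    Fermat.Agent.R.H58.stmt_HeckeReduced (pvLevel N1 Pv.q qv) (↑(twSet S qv) : Set ℕ) hNS''
  haveI : IsReduced (heckeLocal (pvLevel N1 Pv.q qv) (↑(twSet S qv) : Set ℕ) 𝒪
      ((θ.comp X.G.G1.rest).comp X.G.rest)) :=
    Fermat.Agent.R.H2.isReduced_of_flat_of_adjoin_eq_top
      (heckeAlgebra (pvLevel N1 Pv.q qv) 2 (↑(twSet S qv) : Set ℕ)) 𝒪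
      (heckeLocal (pvLevel N1 Pv.q qv) (↑(twSet S qv) : Set ℕ) 𝒪
        ((θ.comp X.G.G1.rest).comp X.G.rest)) X.HQ.π X.HQ.adjoin_range_π
  -- the universal deformation
  have hdetQ : X.DQ.ρ.DetIsCyclotomic p := detIsCyclotomic_of_cond fl Smin _ _ X.DQ.isOfType
  have hresQ : ∀ j, X.DQ.ρ.residual.IsUnramifiedAt (Pv.q j) := fun j =>
    resid_unramified_of_isEquiv_baseChange _ ρbar _ X.DQ.residual_isEquiv _ (hPV.hex j).2.2.1
  -- saturation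
  have hsat : ∀ c : 𝒪, c ≠ 0 → ∀ v : X.G.W.V, c • v ∈ typeSub X.G.c ψ → v ∈ typeSub X.G.c ψ :=
    fun c hc v hv => H76.typeSub_saturated hp.pos X.G.c_comm X.G.c_pow X.G.b_basis ψ
      (fun j => (hψ j).1) c hc v hv
  refine pvNU_mod p hp hyp.hp2 hyp.hp𝒪 g Pv (fun j => (hPV.hex j).1) eP hPV.heP ζ hζ X.DQ.R
    X.DQ.residue_surjective X.DQ.ρ hdetQ hresQ X.bQ X.γ X.γ_coord
    (heckeLocal (pvLevel N1 Pv.q qv) (↑(twSet S qv) : Set ℕ) 𝒪
      ((θ.comp X.G.G1.rest).comp X.G.rest)) X.HQ.ρ X.φQ X.φQ_local X.φQ_equiv X.G.W.V X.ηW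
    (typeSub X.G.c ψ) hsat ?_ 𝔞 h𝔞
  -- the points occurring in `W / typeSub c ψ` are not unipotent at the pivot primes
  intro O _ _ _ _ _ _ _ _ x hx hkill j
  obtain ⟨hN, hqM, hMq⟩ := pvLevel_split N1 Pv.q qv (NeZero.ne N1) hPV.hsq Pv.q_prime Pv.q_inj
    (fun i => (hqv.2.1 i).1) j (hPV.hPvN j) (hne j)
  haveI hNq0 : NeZero (pvLevel N1 Pv.q qv / Pv.q j) := by
    refine ⟨fun h0 => ?_⟩
    rw [h0] at hMq
    rcases mul_eq_zero.1 hMq with h | h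
    · rw [h, zero_mul] at hN
      exact (NeZero.ne (pvLevel N1 Pv.q qv)) hN
    · exact (Pv.q_prime j).ne_zero h
  refine not_unipotent_of_new hpt p hp hyp.hp2 (pvLevel N1 Pv.q qv) (twSet S qv) (Pv.q j)
    (Pv.q_prime j) (hPV.hex j).2.1 hN hqM hMq (Finset.mem_union_left _ hpS) hNS' _ X.HQ.π
    X.HQ.ρ X.HQ.charpoly_frob X.HQ.residual_absIrr X.HQ_det.1 O _ hx ?_
  intro χ' hχ'
  refine X.G.new ψ hψ O ((x : _ →+* O).comp X.HQ.π) (fun t ht => ?_) j χ' hχ'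
  refine hkill (X.HQ.π t) fun v => ?_
  rw [X.HQ_π, X.ηW_π]
  exact ht v

end Fermat.Agent.L.Pivot.H72

end
-- ==== END Fermat.Agent.L.Pivot.H72_PVNU

-- ==== BEGIN Fermat.Agent.L.Pivot.H76_Wire2G
section

set_option autoImplicit false
set_option linter.style.haveILetI false
set_option linter.unusedVariables false

open Polynomial IsLocalRing CuspForm CongruenceSubgroup ModularFormClass

namespace Fermat.Agent.L.Pivot.H76

open Fermat.Agent.L.Pivot Fermat.Agent.S56 Fermat.Agent.S59 Fermat.Agent.S59.Asm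

/-- **PIVOT, Galois form with an eigenform.** -/
def Stmt_PivotGal : Prop :=
  ∀ (𝒪 : Type) [CommRing 𝒪] [IsDomain 𝒪] [IsDiscreteValuationRing 𝒪]
    [IsAdicComplete (maximalIdeal 𝒪) 𝒪] [Finite (ResidueField 𝒪)] [CharZero 𝒪]
    (p : ℕ) [Fact p.Prime], p ≠ 2 → 5 ≤ p → (p : 𝒪) ∈ maximalIdeal 𝒪 →
    ∀ (fl : Bool) (ρbar : ResidualGaloisRep (ResidueField 𝒪)),
    ρbar.IsAbsolutelyIrreducible →
    (GaloisRepAdic.ofResidualGaloisRep ρbar).DetIsCyclotomic p →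
    (∀ σ : AlgebraicClosure ℚ ≃ₐ[ℚ] AlgebraicClosure ℚ,
      ∃ α β : ResidueField 𝒪, LinearMap.charpoly (ρbar.ρ σ) = (X - C α) * (X - C β)) →
    TWCond ρbar →
    ∀ (N : ℕ), Squarefree N →
    (fl = true → ¬ p ∣ N) →
    (fl = false → p ∣ N ∧ (GaloisRepAdic.ofResidualGaloisRep ρbar).IsStrictOrdinaryAt p ∧
      ¬ (GaloisRepAdic.ofResidualGaloisRep ρbar).IsFlatAt p) →
    (∀ q' : ℕ, q'.Prime → q' ∣ N → q' ≠ p →
      (GaloisRepAdic.ofResidualGaloisRep ρbar).IsUnipotentOnInertiaAt q') →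
    (∀ q' : ℕ, q'.Prime → q' ∣ N → q' ≠ p → ρbar.IsUnramifiedAt q' → p ∣ q' - 1 ∧
      ∃ A : ValuationSubring (AlgebraicClosure ℚ), A.LiesOverPrime q' ∧
        ∀ σ : AlgebraicClosure ℚ ≃ₐ[ℚ] AlgebraicClosure ℚ, A.IsFrobeniusAt σ q' →
          ∃ c : ResidueField 𝒪, ρbar.ρ σ = c • (1 : Module.End (ResidueField 𝒪) ρbar.V)) →
    (∀ q' : ℕ, q'.Prime → q' ∣ N → ∀ e : ℕ, p ^ e ∣ q' - 1 →
      ∃ ζ : 𝒪, IsPrimitiveRoot ζ (p ^ e)) →
    ∀ (f : CuspForm (Gamma0 N) 2) (𝔪 : Ideal (integralClosure ℤ ℂ)) (a : ℕ → ℤ)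
      (Sig : Finset ℕ),
    f.IsNormalizedEigenform → 𝔪.IsMaximal → (p : integralClosure ℤ ℂ) ∈ 𝔪 →
    (∀ ℓ : ℕ, ℓ.Prime → ℓ ∉ Sig → ¬ ℓ ∣ N → ℓ ≠ p →
      ∃ b : integralClosure ℤ ℂ, (b : ℂ) = qCoeff f ℓ ∧
        b - ((a ℓ : ℤ) : integralClosure ℤ ℂ) ∈ 𝔪) →
    (∀ ℓ : ℕ, ℓ.Prime → ℓ ∉ Sig → ℓ ≠ p →
      ∀ A : ValuationSubring (AlgebraicClosure ℚ), A.LiesOverPrime ℓ →
        ∀ σ : AlgebraicClosure ℚ ≃ₐ[ℚ] AlgebraicClosure ℚ, A.IsFrobeniusAt σ ℓ →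
          LinearMap.charpoly (ρbar.ρ σ)
            = X ^ 2 - C (((a ℓ : ℤ) : ResidueField 𝒪)) * X + C ((ℓ : ResidueField 𝒪))) →
    ∀ q : ℕ, q.Prime → q ∣ N → q ≠ p → ρbar.IsUnramifiedAt q →
    ∃ (g : CuspForm (Gamma0 (N / q)) 2) (𝔪' : Ideal (integralClosure ℤ ℂ)) (S : Finset ℕ),
      g.IsNormalizedEigenform ∧ 𝔪'.IsMaximal ∧ (p : integralClosure ℤ ℂ) ∈ 𝔪' ∧
      ∀ ℓ : ℕ, ℓ.Prime → ℓ ∉ S → ¬ ℓ ∣ N → ℓ ≠ p →
        ∃ b : integralClosure ℤ ℂ, (b : ℂ) = qCoeff g ℓ ∧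
          b - ((a ℓ : ℤ) : integralClosure ℤ ℂ) ∈ 𝔪'

/-- The coefficient of `X` decides `X² - c X + d`. -/
theorem eq_of_quadratic_eq {R : Type*} [CommRing R] {c c' d d' : R}
    (h : (X ^ 2 - C c * X + C d : R[X]) = X ^ 2 - C c' * X + C d') : c = c' := by
  have h1 := congrArg (fun P : R[X] => P.coeff 1) h
  simp only [coeff_add, coeff_sub, coeff_X_pow, coeff_C_mul, coeff_X_one, coeff_C] at h1
  simpa using h1

set_option maxHeartbeats 1000000 in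
set_option synthInstance.maxHeartbeats 400000 in
/-- **Layer G of PV-WIRE2.** -/
theorem pivotGal_of (hTM : Stmt_THETAMIN) (hEX : Stmt_EXACTb) (hPC : Stmt_PivotCoreB) :
    Stmt_PivotGal := by
  classical
  intro 𝒪 _ _ _ _ _ _ p _ hp2 h5 hp𝒪 fl ρbar habs hdet hsplit hTW N hsq hflT hflF hunip hexc hζ
    f 𝔪 a Sig hf h𝔪 hp𝔪 hcong hfrob q hq hqN hqp hunrq
  have hpp : p.Prime := Fact.out
  have hN0 : N ≠ 0 := hsq.ne_zero
  haveI : NeZero N := ⟨hN0⟩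
  -- the residue field has characteristic `p`
  haveI hchar : CharP (ResidueField 𝒪) p := by
    refine (CharP.charP_iff_prime_eq_zero hpp).mpr ?_
    have : residue 𝒪 (p : 𝒪) = 0 := (residue_eq_zero_iff _).mpr hp𝒪
    rwa [map_natCast] at this
  -- THETA-MIN
  obtain ⟨hunrout, hθex⟩ := hTM p hp2 (ResidueField 𝒪) ρbar habs N f 𝔪 hf h𝔪 hp𝔪 a Sig hcong
    hfrob
  -- the sets
  set Smin : Finset ℕ := insert p (N.primeFactors.filter (fun q' => ¬ ρbar.IsUnramifiedAt q'))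
    with hSmin
  set Sg : Finset ℕ := N.primeFactors.filter (fun q' => q' ≠ p ∧ ρbar.IsUnramifiedAt q')
    with hSg
  have hSgmem : ∀ q', q' ∈ Sg ↔ q'.Prime ∧ q' ∣ N ∧ q' ≠ p ∧ ρbar.IsUnramifiedAt q' := by
    intro q'
    rw [hSg, Finset.mem_filter, Nat.mem_primeFactors]
    constructor
    · rintro ⟨⟨h1, h2, -⟩, h3, h4⟩
      exact ⟨h1, h2, h3, h4⟩
    · rintro ⟨h1, h2, h3, h4⟩
      exact ⟨⟨h1, h2, hN0⟩, h3, h4⟩
  have hSminmem : ∀ q', q' ∈ Smin ↔ q' = p ∨ (q'.Prime ∧ q' ∣ N ∧ ¬ ρbar.IsUnramifiedAt q') := by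
    intro q'
    rw [hSmin, Finset.mem_insert, Finset.mem_filter, Nat.mem_primeFactors]
    constructor
    · rintro (h | ⟨⟨h1, h2, -⟩, h3⟩)
      · exact Or.inl h
      · exact Or.inr ⟨h1, h2, h3⟩
    · rintro (h | ⟨h1, h2, h3⟩)
      · exact Or.inl h
      · exact Or.inr ⟨⟨h1, h2, hN0⟩, h3⟩
  -- the pivot primes
  obtain ⟨Pv, hPvset, hPvmem, hPvsurj, hPvC⟩ := exists_pivotPrimes_finset Sg
    (fun q' hq' => ((hSgmem q').mp hq').1)
    (fun q' A σ => ∃ c : ResidueField 𝒪,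
      ρbar.ρ σ = c • (1 : Module.End (ResidueField 𝒪) ρbar.V))
    (fun q' hq' => by
      obtain ⟨h1, h2, h3, h4⟩ := (hSgmem q').mp hq'
      exact (hexc q' h1 h2 h3 h4).2)
  set S : Finset ℕ := Smin ∪ Pv.set with hS
  have hpSmin : p ∈ Smin := (hSminmem p).mpr (Or.inl rfl)
  have hpS : p ∈ S := Finset.mem_union_left _ hpSmin
  have hNS : ∀ q' : ℕ, q'.Prime → q' ∣ N → q' ∈ S := by
    intro q' hq' hq'N
    by_cases hq'p : q' = p
    · rw [hq'p]; exact hpS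
    by_cases hu : ρbar.IsUnramifiedAt q'
    · refine Finset.mem_union_right _ ?_
      rw [hPvset]
      exact (hSgmem q').mpr ⟨hq', hq'N, hq'p, hu⟩
    · exact Finset.mem_union_left _ ((hSminmem q').mpr (Or.inr ⟨hq', hq'N, hu⟩))
  have hSprime : ∀ q' ∈ S, q'.Prime := by
    intro q' hq'
    rcases Finset.mem_union.mp hq' with h | h
    · rcases (hSminmem q').mp h with h1 | h1
      · rw [h1]; exact hpp
      · exact h1.1
    · rw [hPvset] at h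
      exact ((hSgmem q').mp h).1
  -- `θ`
  obtain ⟨θ, hθ⟩ := hθex S hpS hNS
  -- the exponents
  set eP : Fin Sg.card → ℕ := fun j => padicValNat p (Pv.q j - 1) with heP
  have hq1 : ∀ j, Pv.q j - 1 ≠ 0 := by
    intro j
    have := (Pv.q_prime j).two_le
    omega
  have hePspec : ∀ j, p ^ eP j ∣ Pv.q j - 1 ∧ ¬ p ^ (eP j + 1) ∣ Pv.q j - 1 := by
    intro j
    exact ⟨pow_padicValNat_dvd, pow_succ_padicValNat_not_dvd (hq1 j)⟩
  -- the standing hypotheses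
  have hmin : ∀ q' : ℕ, q'.Prime → q' ≠ p → (q' ∈ Smin ↔ ¬ ρbar.IsUnramifiedAt q') := by
    intro q' hq' hq'p
    rw [hSminmem]
    constructor
    · rintro (h | h)
      · exact absurd h hq'p
      · exact h.2.2
    · intro hram
      refine Or.inr ⟨hq', ?_, hram⟩
      by_contra hq'N
      exact hram (hunrout q' hq' hq'N hq'p)
  have hyp : Hyp 𝒪 p ρbar S Smin :=
    { hp2 := hp2
      hp𝒪 := hp𝒪
      habs := habs
      hdet := hdet
      hsplit := hsplit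
      hTW := hTW
      hpSmin := hpSmin
      hSmin := Finset.subset_union_left
      hS := hSprime
      hmin := hmin }
  have hPV : PVHyp p ρbar N S Smin Pv eP :=
    { hyp := hyp
      h5 := h5
      hk := Finset.card_pos.mpr ⟨q, (hSgmem q).mpr ⟨hq, hqN, hqp, hunrq⟩⟩
      hsq := hsq
      hNS := hNS
      hex := fun j => by
        obtain ⟨h1, h2, h3, h4⟩ := (hSgmem (Pv.q j)).mp (hPvmem j)
        exact ⟨(hexc (Pv.q j) h1 h2 h3 h4).1, h3, h4, hPvC j⟩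
      hPvN := fun j => ((hSgmem (Pv.q j)).mp (hPvmem j)).2.1
      hS := rfl
      hSminN := fun q' hq' hq'p => by
        rcases (hSminmem q').mp hq' with h | h
        · exact absurd h hq'p
        · exact h.2.1
      heP := hePspec }
  -- unramified outside `Smin`
  have hunrS : ∀ q' : ℕ, q'.Prime → q' ∉ Smin ∪ ∅ →
      (GaloisRepAdic.ofResidualGaloisRep ρbar).IsUnramifiedAt q' := by
    intro q' hq' hq'S
    have hq'S' : q' ∉ Smin := fun h => hq'S (Finset.mem_union_left _ h)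
    have hq'p : q' ≠ p := fun h => hq'S' (h ▸ hpSmin)
    by_contra hram
    exact hq'S' ((hmin q' hq' hq'p).mpr hram)
  have hunipS : ∀ q' ∈ Smin, q'.Prime → q' ≠ p →
      (GaloisRepAdic.ofResidualGaloisRep ρbar).IsUnipotentOnInertiaAt q' := by
    intro q' hq' hq'pr hq'p
    rcases (hSminmem q').mp hq' with h | h
    · exact absurd h hq'p
    · exact hunip q' hq'pr h.2.1 hq'p
  -- the condition at `p`
  have hcond : cond 𝒪 p fl Smin ∅ (GaloisRepAdic.ofResidualGaloisRep ρbar) := by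
    cases fl with
    | true =>
      have hflat := hEX 𝒪 p hp2 hp𝒪 ρbar habs N S hpS hNS (hflT rfl) θ hθ
      exact ⟨⟨hdet, hflat, hunrS⟩, hunipS⟩
    | false =>
      exact ⟨⟨hdet, (hflF rfl).2.1, hunrS⟩, hunipS⟩
  have hnfl : fl = false → ¬ (GaloisRepAdic.ofResidualGaloisRep ρbar).IsFlatAt p :=
    fun h => (hflF h).2.2
  have hζ' : ∀ j, ∃ ζ : 𝒪, IsPrimitiveRoot ζ (p ^ eP j) := fun j =>
    hζ (Pv.q j) (Pv.q_prime j) ((hSgmem (Pv.q j)).mp (hPvmem j)).2.1 (eP j) (hePspec j).1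
  -- the index of `q`
  obtain ⟨j, hj⟩ := hPvsurj q ((hSgmem q).mpr ⟨hq, hqN, hqp, hunrq⟩)
  subst hj
  have hNq0 : N / Pv.q j ≠ 0 := by
    intro h0
    have h1 : N / Pv.q j * Pv.q j = N := Nat.div_mul_cancel hqN
    rw [h0, zero_mul] at h1
    exact hN0 h1.symm
  haveI : NeZero (N / Pv.q j) := ⟨hNq0⟩
  obtain ⟨θ', hθ'⟩ := hPC 𝒪 p fl ρbar S Smin hcond hnfl N hflT (fun h => (hflF h).1) θ hθ
    Sg.card Pv eP hPV hζ' j
  -- `θ (T_ℓ) = a ℓ`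
  have hθa : ∀ (ℓ : ℕ) (hℓ : ℓ.Prime) (hℓN : ¬ ℓ ∣ N) (hℓS : ℓ ∉ (↑S : Set ℕ)), ℓ ∉ Sig →
      θ (heckeAlgebra.T hℓ hℓN hℓS) = ((a ℓ : ℤ) : ResidueField 𝒪) := by
    intro ℓ hℓ hℓN hℓS hℓSig
    have hℓp : ℓ ≠ p := fun h => hℓS (Finset.mem_coe.mpr (h ▸ hpS))
    obtain ⟨A, σ, hA, hσ⟩ := Fermat.Agent.Lib.FrobExists.exists_place_and_frobenius ℓ hℓ
    have h1 := hθ ℓ hℓ hℓN hℓS A hA σ hσ
    have h2 := hfrob ℓ hℓ hℓSig hℓp A hA σ hσ
    exact eq_of_quadratic_eq (h1.symm.trans h2)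
  -- lifting
  have hdiv : N / Pv.q j ∣ N := Nat.div_dvd_of_dvd hqN
  obtain ⟨g, 𝔪', hg, h𝔪', hp𝔪', hgc⟩ := exists_eigenform_of_residual_point (N / Pv.q j) hpp
    (↑S : Set ℕ) θ' a (↑Sig : Set ℕ) (fun ℓ hℓ hℓM hℓS hℓSig => by
      have hℓN : ¬ ℓ ∣ N := fun h => hℓS (Finset.mem_coe.mpr (hNS ℓ hℓ h))
      rw [hθ' ℓ hℓ hℓN hℓS hℓM]
      exact hθa ℓ hℓ hℓN hℓS (fun h => hℓSig (Finset.mem_coe.mpr h)))
  refine ⟨g, 𝔪', S ∪ Sig, hg, h𝔪', hp𝔪', fun ℓ hℓ hℓS hℓN hℓp => ?_⟩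
  have h1 : ℓ ∉ (↑S : Set ℕ) := fun h => hℓS (Finset.mem_union_left _ (Finset.mem_coe.mp h))
  have h2 : ℓ ∉ (↑Sig : Set ℕ) := fun h => hℓS (Finset.mem_union_right _ (Finset.mem_coe.mp h))
  exact hgc ℓ hℓ (fun h => hℓN (h.trans hdiv)) h1 h2

end Fermat.Agent.L.Pivot.H76

end
-- ==== END Fermat.Agent.L.Pivot.H76_Wire2G

-- ==== BEGIN Fermat.Agent.L.Pivot.H77_Asm
section

/-!
# PIVOT (item 66), package PV-ASM-CORE (helper77): the assembly (leaf A)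

`stmt_PVAsm : Stmt_PVAsm`, following `Fermat.Agent.S59.Asm.H77.stmt_ASM` with `H76.pvCore`
instead of `twLevel_of_core`.  The abstract steps are in `H77_AsmAux.lean` (kernel of `π₁ ∘ κ`),
`H77_AsmAbs.lean` (residual equivalence, `res ∘ φQ = τ`), `S59/Asm/H77_Main*.lean` (extension
from generators, Cayley–Hamilton, the elements `δ_i`) and `H76_Xi.lean` (the ideal `Ξ`).
-/

set_option autoImplicit false
set_option linter.unusedSectionVars false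
set_option linter.unusedVariables false

open Polynomial CuspForm IsLocalRing

namespace Fermat.Agent.L.Pivot.H77

open Fermat.Agent.S56 Fermat.Agent.S59 Fermat.Agent.S59.TWGal Fermat.Agent.S59.Asm
  Fermat.Agent.S59.Asm.H77

set_option maxHeartbeats 1000000 in
set_option synthInstance.maxHeartbeats 400000 in
/-- **PV-ASM** (A): the level of the patching datum at a Taylor–Wiles family. -/
theorem stmt_PVAsm : Stmt_PVAsm := by
  intro 𝒪 _ _ _ _ _ _ p _ fl ρbar N1 _ _ S Smin θ M k Pv eP hPV H hHπ hHcond ηM hηM g r n qv hTW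
    _ _ _ _ X τ hτs hτl hτe ϖ hϖ ψ hψ hψϖ I1 Iχ h1 hχ b
  have hp : p.Prime := Fact.out
  have hyp := hPV.hyp
  have hp2 : p ≠ 2 := hyp.hp2
  have hp𝒪 : (p : 𝒪) ∈ maximalIdeal 𝒪 := hyp.hp𝒪
  -- Step 1: the restriction maps
  obtain ⟨res', hres'⟩ := H85.stmt_RESLOC 𝒪 (twLevel N1 qv) (pvLevel N1 Pv.q qv)
    (↑(twSet S qv) : Set ℕ) (↑(twSet S qv) : Set ℕ) (θ.comp X.G.G1.rest) X.G.rest
  obtain ⟨res1, hres1⟩ := H85.stmt_RESLOC 𝒪 N1 (twLevel N1 qv) (↑S : Set ℕ)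
    (↑(twSet S qv) : Set ℕ) θ X.G.G1.rest
  obtain ⟨res, hres⟩ : ∃ res : CuspForm.heckeLocal (pvLevel N1 Pv.q qv) (↑(twSet S qv) : Set ℕ) 𝒪
      ((θ.comp X.G.G1.rest).comp X.G.rest) →ₐ[𝒪] CuspForm.heckeLocal N1 (↑S : Set ℕ) 𝒪 θ,
      ∀ t, res (CuspForm.heckeLocal.π (pvLevel N1 Pv.q qv) (↑(twSet S qv) : Set ℕ) 𝒪
        ((θ.comp X.G.G1.rest).comp X.G.rest) t) =
        CuspForm.heckeLocal.π N1 (↑S : Set ℕ) 𝒪 θ (X.G.G1.rest (X.G.rest t)) :=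
    ⟨res1.comp res', fun t => by rw [AlgHom.comp_apply, hres', hres1]⟩
  -- Step 2: extension from generators
  have hgen : ∀ t, X.ηW (X.HQ.π t) = X.G.W.η t := fun t =>
    (congrArg (fun f => X.ηW (f t)) X.HQ_π).trans (X.ηW_π t)
  have hgη : ∀ (σ : GalQ) (x : CuspForm.heckeLocal (pvLevel N1 Pv.q qv) (↑(twSet S qv) : Set ℕ) 𝒪
      ((θ.comp X.G.G1.rest).comp X.G.rest)), Commute (X.G.gal σ) (X.ηW x) := fun σ =>
    commute_of_gen X.HQ.adjoin_range_π X.ηW (X.G.gal σ) fun t =>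
      (congrArg (Commute (X.G.gal σ)) (hgen t)).mpr (X.G.gal_η σ t)
  have hdη : ∀ (i : Fin r) (x : CuspForm.heckeLocal (pvLevel N1 Pv.q qv) (↑(twSet S qv) : Set ℕ) 𝒪
      ((θ.comp X.G.G1.rest).comp X.G.rest)), Commute (X.G.d i) (X.ηW x) := fun i =>
    commute_of_gen X.HQ.adjoin_range_π X.ηW (X.G.d i) fun t =>
      (congrArg (Commute (X.G.d i)) (hgen t)).mpr (X.G.d_η i t)
  have hcη : ∀ (j : Fin k) (x : CuspForm.heckeLocal (pvLevel N1 Pv.q qv) (↑(twSet S qv) : Set ℕ) 𝒪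
      ((θ.comp X.G.G1.rest).comp X.G.rest)), Commute (X.G.c j) (X.ηW x) := fun j =>
    commute_of_gen X.HQ.adjoin_range_π X.ηW (X.G.c j) fun t =>
      (congrArg (Commute (X.G.c j)) (hgen t)).mpr (X.G.c_η j t)
  have hWαη : ∀ (i : Fin r) (x : CuspForm.heckeLocal (pvLevel N1 Pv.q qv) (↑(twSet S qv) : Set ℕ) 𝒪
      ((θ.comp X.G.G1.rest).comp X.G.rest)), ∀ v ∈ X.G.Wα i, X.ηW x v ∈ X.G.Wα i := fun i =>
    mem_of_gen X.HQ.adjoin_range_π X.ηW (X.G.Wα i) fun t v hv =>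
      (congrArg (fun z : Module.End 𝒪 X.G.W.V => z v ∈ X.G.Wα i) (hgen t)).mpr
        (X.G.Wα_η i t v hv)
  have hπη : ∀ (x : CuspForm.heckeLocal (pvLevel N1 Pv.q qv) (↑(twSet S qv) : Set ℕ) 𝒪
      ((θ.comp X.G.G1.rest).comp X.G.rest)) (v : X.G.W.V),
      (X.G.G1.π.comp X.G.κ) (X.ηW x v) = ηM (res x) ((X.G.G1.π.comp X.G.κ) v) :=
    intertwine_of_gen X.HQ.adjoin_range_π X.ηW ηM res (X.G.G1.π.comp X.G.κ) fun t v =>
      (congrArg (fun z : Module.End 𝒪 X.G.W.V => X.G.G1.π (X.G.κ (z v))) (hgen t)).trans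
        ((congrArg X.G.G1.π (X.G.κ_η t v)).trans ((X.G.G1.π_η (X.G.rest t) (X.G.κ v)).trans
          (congrArg (fun z : Module.End 𝒪 M.V => z (X.G.G1.π (X.G.κ v)))
            ((congrArg (fun f => ηM (res (f t))) X.HQ_π).trans
              ((congrArg ηM (hres t)).trans (hηM _))).symm)))
  -- the bad set
  have hbad : ∀ ℓ : ℕ, ℓ.Prime → ℓ ∉ twSet S qv ∪ (pvLevel N1 Pv.q qv).primeFactors →
      (¬ ℓ ∣ pvLevel N1 Pv.q qv) ∧ ℓ ∉ (↑(twSet S qv) : Set ℕ) ∧ (¬ ℓ ∣ twLevel N1 qv) ∧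
        (¬ ℓ ∣ N1) ∧ ℓ ∉ (↑S : Set ℕ) := by
    intro ℓ hℓ hℓS
    have h1 : ¬ ℓ ∣ pvLevel N1 Pv.q qv := fun h => hℓS (Finset.mem_union_right _
      (Nat.mem_primeFactors.2 ⟨hℓ, h, NeZero.ne _⟩))
    have h2 : ℓ ∉ (↑(twSet S qv) : Set ℕ) := fun h => hℓS (Finset.mem_union_left _
      (Finset.mem_coe.1 h))
    have h3 : ¬ ℓ ∣ twLevel N1 qv := fun h => h1 (h.trans (Dvd.intro _ rfl))
    exact ⟨h1, h2, h3, fun h => h3 (h.trans (H41.dvd_twLevel N1 qv)),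
      fun h => h2 (H41.subset_twSet S qv h)⟩
  -- Step 3: Cayley–Hamilton
  have hCH : ∀ σ : GalQ, X.G.gal σ * X.G.gal σ - X.ηW (X.HQ.ρ.trace σ) * X.G.gal σ
      + X.ηW (LinearMap.det (X.HQ.ρ.ρ σ)) = 0 := by
    refine ch_of_es X.HQ.ρ X.ηW X.G.gal X.G.gal_cont hgη
      (twSet S qv ∪ (pvLevel N1 Pv.q qv).primeFactors) ?_
    intro ℓ hℓ hℓS A hA σ hσ
    have hb := hbad ℓ hℓ hℓS
    obtain ⟨h1, h2, -, -, -⟩ := hb
    refine ⟨X.HQ.π (CuspForm.heckeAlgebra.T hℓ h1 h2),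
      X.HQ.charpoly_frob ℓ hℓ h1 h2 A hA σ hσ, ?_⟩
    exact (congrArg (fun z : Module.End 𝒪 X.G.W.V => X.G.gal σ * X.G.gal σ - z * X.G.gal σ
      + (ℓ : 𝒪) • (1 : Module.End 𝒪 X.G.W.V)) (hgen _)).trans (X.G.es ℓ hℓ h1 h2 A hA σ hσ)
  -- Step 5: `res ∘ φQ = τ`
  have hfrob : ∀ ℓ : ℕ, ℓ.Prime → ℓ ∉ twSet S qv ∪ (pvLevel N1 Pv.q qv).primeFactors →
      ∀ B : ValuationSubring (AlgebraicClosure ℚ), B.LiesOverPrime ℓ → ∀ σ : GalQ,
      B.IsFrobeniusAt σ ℓ →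
        (LinearMap.charpoly (X.HQ.ρ.ρ σ)).map (res : CuspForm.heckeLocal (pvLevel N1 Pv.q qv)
          (↑(twSet S qv) : Set ℕ) 𝒪 ((θ.comp X.G.G1.rest).comp X.G.rest) →+*
            CuspForm.heckeLocal N1 (↑S : Set ℕ) 𝒪 θ) = LinearMap.charpoly (H.ρ.ρ σ) := by
    intro ℓ hℓ hℓS B hB σ hσ
    have hb := hbad ℓ hℓ hℓS
    obtain ⟨h1, h2, h3, h4, h5⟩ := hb
    refine (map_charpoly_frob (res : CuspForm.heckeLocal (pvLevel N1 Pv.q qv)
      (↑(twSet S qv) : Set ℕ) 𝒪 ((θ.comp X.G.G1.rest).comp X.G.rest) →+*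
        CuspForm.heckeLocal N1 (↑S : Set ℕ) 𝒪 θ)
      (X.HQ.π (CuspForm.heckeAlgebra.T hℓ h1 h2)) (H.π (CuspForm.heckeAlgebra.T hℓ h4 h5)) ℓ ?_ _
      (X.HQ.charpoly_frob ℓ hℓ h1 h2 B hB σ hσ)).trans
      (H.charpoly_frob ℓ hℓ h4 h5 B hB σ hσ).symm
    exact (congrArg (fun f => res (f (CuspForm.heckeAlgebra.T hℓ h1 h2))) X.HQ_π).trans
      ((hres _).trans ((congrArg (CuspForm.heckeLocal.π N1 (↑S : Set ℕ) 𝒪 θ)
        ((congrArg X.G.G1.rest (X.G.rest_T ℓ hℓ h1 h2 h3)).trans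
          (X.G.G1.rest_T ℓ hℓ h3 h2 h4 h5))).trans
        (congrArg (fun f => f (CuspForm.heckeAlgebra.T hℓ h4 h5)) hHπ).symm))
  have hHcond' : cond 𝒪 p fl Smin (Pv.set ∪ Finset.univ.image qv) H.ρ :=
    cond_mono Finset.subset_union_left hHcond
  have hcompat : res.comp X.φQ = τ :=
    compat_tau (T := CuspForm.heckeLocal N1 (↑S : Set ℕ) 𝒪 θ)
      (TQ := CuspForm.heckeLocal (pvLevel N1 Pv.q qv) (↑(twSet S qv) : Set ℕ) 𝒪
        ((θ.comp X.G.G1.rest).comp X.G.rest))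
      ρbar (cond 𝒪 p fl Smin (Pv.set ∪ Finset.univ.image qv)) X.DQ
      H.residue_surjective H.ρ hHcond' X.HQ.ρ
      τ hτl hτe X.φQ X.φQ_local X.φQ_equiv res
      (twSet S qv ∪ (pvLevel N1 Pv.q qv).primeFactors) hfrob
  -- Step 4: the elements `δ_i`
  have hδ : ∀ i : Fin r, ∃ δ : X.DQ.R, δ - 1 ∈ maximalIdeal X.DQ.R ∧ τ δ = 1 ∧
      X.ηW (X.φQ δ) = X.G.d i := by
    intro i
    have hTWi := hTW.2.1 i
    obtain ⟨hq, hqS, hqp⟩ := hTWi
    have hqne : qv i ≠ p := fun h => hqS (h ▸ hyp.hSmin hyp.hpSmin)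
    have hunr : ρbar.IsUnramifiedAt (qv i) := by
      by_contra h
      exact hqS (hyp.hSmin ((hyp.hmin (qv i) hq hqne).2 h))
    have hunrH : H.ρ.IsUnramifiedAt (qv i) :=
      cond_unram hHcond (qv i) hq (by rw [← hPV.hS]; exact hqS)
    exact exists_delta hp hp2 hp𝒪 X.HQ.residue_surjective X.DQ.ρ H.ρ X.HQ.ρ
      X.HQ.residual_absIrr τ hτl hτe X.φQ X.φQ_local X.φQ_equiv (qv i) n hq hqp
      (X.G.G1.P i) (X.G.G1.P_over i)
      (hunrH (X.G.G1.P i) (X.G.G1.P_over i))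
      (fun σ hσ => resid_eq_one_of_isEquiv ρbar X.DQ.ρ X.DQ.residual_isEquiv σ
        (hunr (X.G.G1.P i) (X.G.G1.P_over i) σ hσ))
      (X.G.G1.frob i) (X.G.G1.frob_spec i) (X.G.G1.a i) (X.G.G1.a' i) (X.G.G1.a_ne i)
      (resid_charpoly_of_isEquiv ρbar X.DQ.ρ X.DQ.residual_isEquiv (X.G.G1.frob i)
        (X.G.G1.a i) (X.G.G1.a' i) (X.G.G1.charpoly_frob i))
      (X.G.G1.σ i) (X.G.G1.σ_mem i) X.ηW X.G.gal hgη hCH (X.G.d i) (X.G.d_pow i) (hdη i)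
      (X.G.d_gal i) (X.G.Wα i) (X.G.Wβ i) (X.G.W_isCompl i) (hWαη i) (X.G.Wα_d i)
      (X.G.Wα_frob i) (X.G.Wβ_frob i) (X.G.Wα_nil i) (X.G.Wβ_nil i) (X.G.W_lg i)
  choose δ hδm hτδ hδd using hδ
  -- Step 7: the ideal `Ξ`
  have hresT : H.ρ.residual.IsEquiv (ρbar.baseChangeAlong (ResidueField.map
      (algebraMap 𝒪 (CuspForm.heckeLocal N1 (↑S : Set ℕ) 𝒪 θ)))) :=
    resid_isEquiv_of_tau ρbar hyp.habs X.DQ.ρ H.ρ X.DQ.residual_isEquiv τ hτl hτe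
  obtain ⟨b', hb'⟩ := stmt_TRANSPORT X.DQ.R (CuspForm.heckeLocal N1 (↑S : Set ℕ) 𝒪 θ)
    (τ : X.DQ.R →+* CuspForm.heckeLocal N1 (↑S : Set ℕ) 𝒪 θ) hτl X.DQ.ρ H.ρ hτe X.bQ
  have hdetcyc : H.ρ.DetIsCyclotomic p := cond_det hHcond
  have h2 : IsUnit (2 : CuspForm.heckeLocal N1 (↑S : Set ℕ) 𝒪 θ) := by
    by_contra h
    exact two_notMem_maximalIdeal hp hp2 (natCast_mem_of_algebra (𝒪 := 𝒪) hp𝒪)
      ((mem_maximalIdeal _).2 h)
  have hΞ : pvXi H.ρ b Pv ≤ Ideal.map ((τ.comp X.γ : PRing 𝒪 k g →ₐ[𝒪]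
      CuspForm.heckeLocal N1 (↑S : Set ℕ) 𝒪 θ) :
        PRing 𝒪 k g →+* CuspForm.heckeLocal N1 (↑S : Set ℕ) 𝒪 θ) (idealX 𝒪 k g) :=
    H76.pvXi_le_map H.ρ X.DQ.ρ Pv X.γ τ b X.bQ b' (fun j i i' => hb' (Pv.τ j) i i') _
      X.γ_coord h2
      (fun j => H59.det_eq_one_of_mem_inertia p hp H.ρ hdetcyc (Pv.q j) (Pv.q_prime j)
        (hPV.hex j).2.1 (Pv.P j) (Pv.P_over j) (Pv.τ j) (Pv.τ_gen j).1)
      (fun j v => sub_mem_of_resid_unram ρbar H.ρ hresT b' (Pv.τ j)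
        ((hPV.hex j).2.2.1 (Pv.P j) (Pv.P_over j) (Pv.τ j) (Pv.τ_gen j).1) v)
  -- Step 8: the kernel
  have hker : LinearMap.ker (X.G.G1.π.comp X.G.κ) =
      typeSub X.G.c (fun _ => (1 : 𝒪)) ⊔ ⨆ i, LinearMap.range (X.G.d i - 1) :=
    (ker_comp_eq_sup X.G.κ X.G.κ_surjective X.G.G1.π X.G.d X.G.G1.d X.G.κ_d
      X.G.G1.ker_π).trans (congrArg (fun z : Submodule 𝒪 X.G.W.V =>
        z ⊔ ⨆ i, LinearMap.range (X.G.d i - 1)) X.G.ker_κ)
  -- Step 9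
  let _ : Module (CuspForm.heckeLocal N1 (↑S : Set ℕ) 𝒪 θ) M.V := Module.compHom M.V
    ((ηM : CuspForm.heckeLocal N1 (↑S : Set ℕ) 𝒪 θ →ₐ[𝒪] Module.End 𝒪 M.V) :
      CuspForm.heckeLocal N1 (↑S : Set ℕ) 𝒪 θ →+* Module.End 𝒪 M.V)
  refine H76.pvCore 𝒪 ϖ p r n k (6 * k + g) hp hp𝒪 (CuspForm.heckeLocal N1 (↑S : Set ℕ) 𝒪 θ) M.V
    I1 Iχ (idealX 𝒪 k g) (pvXi H.ρ b Pv) X.DQ.R X.γ X.γ_surjective τ hτs hΞ X.G.W.V
    (X.ηW.comp X.φQ) δ hδm hτδ X.G.d hδd X.G.d_pow eP X.G.c X.G.c_pow X.G.c_comm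
    (fun j a => hcη j (X.φQ a)) ψ hψ hψϖ X.G.rk X.G.b X.G.b_basis (X.G.G1.π.comp X.G.κ)
    (X.G.G1.π_surjective.comp X.G.κ_surjective) hker ?_ h1 hχ
  intro x v
  have h3 : res (X.φQ x) = τ x := congrArg (fun f : X.DQ.R →ₐ[𝒪] _ => f x) hcompat
  exact (hπη (X.φQ x) v).trans
    (congrArg (fun z => ηM z ((X.G.G1.π.comp X.G.κ) v)) h3)

end Fermat.Agent.L.Pivot.H77

end
-- ==== END Fermat.Agent.L.Pivot.H77_Asm

-- ==== BEGIN Fermat.Agent.NEB.Geom.H26_WMD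
section

/-!
# Item 72 (LG-NEB), package NEB-GEOM, leaf W-MD (helper26): `Stmt_W_MD`

* `stmt_W_MD_of : Stmt_N2 → Stmt_W_MD` : the level-`N` data: the Hecke ring homomorphism on
  `J₀(N)[p^∞]`, commutation with Galois, divisibility, finiteness of the `p`-torsion,
  Eichler–Shimura, unramifiedness, continuity and nontriviality of every `θ`-part.
-/

set_option autoImplicit false
set_option linter.unusedSectionVars false
set_option linter.style.haveILetI false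
set_option maxHeartbeats 1000000

noncomputable section

open ModularCurve AlgebraicCurve IsLocalRing TensorProduct

namespace Fermat.Agent.NEB.Geom.H26

open Fermat.Agent.NEB Fermat.Agent.NEB.JH Fermat.Agent.GTor Fermat.Agent.GTor.H81
  Fermat.Agent.S59.Lim Fermat.Agent.S59.Lim.H2

/-- **W-MD** from the abstract step N2. -/
theorem stmt_W_MD_of (hN2 : Stmt_N2) : Stmt_W_MD := by
  intro p _ N _ S hNS
  have hp : p.Prime := Fact.out
  obtain ⟨C, ηC, hC, hη, hT⟩ := exists_etaC N p (↑S : Set ℕ) hp hNS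
  refine ⟨ηC, hT, fun t σ => etaC_comm_gal C ηC hη t σ, a0_div C hp hC, a0_fin C hp,
    fun ℓ hℓ hℓN hℓp P hP σ hσ => a0_es N p hp ℓ hℓ hℓN hℓp P hP σ hσ,
    fun q hq hqN hqp P hP σ hσ => a0_unr N p hp q hq hqN hqp P hP σ hσ,
    fun x => a0_cont N p x, ?_⟩
  intro 𝒪 _ _ _ _ _ hpm θ
  exact nontrivial_thetaPart_a0 hN2 hp C ηC hη 𝒪 hpm θ

end Fermat.Agent.NEB.Geom.H26

end
end
-- ==== END Fermat.Agent.NEB.Geom.H26_WMD

-- ==== BEGIN Fermat.Agent.NEB.Geom.H6_AFrobNil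
section

/-!
# NEB-GEOM assembly leaf A-FROBNIL (helper6)

`a_frob_nil : Stmt_A_pi Dm D → Stmt_A_frob_nil D`: for `F = gal (frob_j)` (the twisted Galois
action at a Frobenius element of the Taylor–Wiles prime `q_j`), the operator `(F - a_j)(F - a'_j)`
is nilpotent at every element of `W[ϖ]`.

Proof.  Socle filtration (`frobNil_core`) for the `r + 1` commuting operators
`⟨χ_c(frob_j)⟩, ⟨δ_1⟩, …, ⟨δ_r⟩` of `p`-power order: it suffices to treat the elements `x` of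
`W[ϖ]` fixed by all of them.  Such an `x` is `πup y` (A-PI, `inv`), the twist disappears on it
(`quad_pow_untwist`), `πup` is equivariant for the untwisted Galois action (A-PI, last clause;
`quad_pow_map`), and at level `N` Eichler–Shimura `F² - T_q F + q = 0`, `T_q ≡ a + a'` and
`q ≡ a a'` modulo `ϖ` give the nilpotency (`nil_of_es`).
-/

set_option autoImplicit false
set_option linter.unusedSectionVars false

noncomputable section

open ModularCurve AlgebraicCurve IsLocalRing TensorProduct Polynomial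

namespace Fermat.Agent.NEB.Geom.H6

open Fermat.Agent.NEB Fermat.Agent.NEB.JH Fermat.Agent.S59.Asm Fermat.Agent.S59.Lim
  Fermat.Agent.S59.Lim.H2 Fermat.Agent.NEB.Geom

/-! ## Abstract lemmas -/

section AbsFN

variable {𝒪 : Type*} [CommRing 𝒪] {W₀ : Type*} [AddCommGroup W₀] [Module 𝒪 W₀]

/-- **Level `N`**: if `F² - T F + q = 0`, `T - (a + a')` is nilpotent at `y`, `ϖ ∣ a a' - q` and
`ϖ y = 0`, then `(F - a)(F - a')` is nilpotent at `y`. -/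
theorem nil_of_es (F T : Module.End 𝒪 W₀) (hFT : Commute F T) (q a a' ϖ c₁ : 𝒪)
    (hes : F * F - T * F + q • (1 : Module.End 𝒪 W₀) = 0) (hq : a * a' - q = ϖ * c₁)
    (y : W₀) (hy : ϖ • y = 0)
    (hnil : ∃ m : ℕ, ((T - (a + a') • (1 : Module.End 𝒪 W₀)) ^ m) y = 0) :
    ∃ m : ℕ, (((F - a • (1 : Module.End 𝒪 W₀)) * (F - a' • (1 : Module.End 𝒪 W₀))) ^ m) y = 0 := by
  obtain ⟨m, hm⟩ := hnil
  set N₁ : Module.End 𝒪 W₀ := T - (a + a') • (1 : Module.End 𝒪 W₀) with hN₁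
  set Q : Module.End 𝒪 W₀ := (F - a • (1 : Module.End 𝒪 W₀)) * (F - a' • (1 : Module.End 𝒪 W₀))
    with hQ
  have hcomm : Commute N₁ F := by
    rw [hN₁]
    exact (hFT.symm).sub_left ((Commute.one_left F).smul_left _)
  have hFF : F * F = T * F - q • (1 : Module.End 𝒪 W₀) := by
    have := hes
    rw [sub_add_eq_add_sub, sub_eq_zero] at this
    rw [← this]
    abel
  have hQe : Q = N₁ * F + (a * a' - q) • (1 : Module.End 𝒪 W₀) := by
    rw [hQ, hN₁, sub_mul, mul_sub, mul_sub, hFF]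
    simp only [smul_mul_assoc, mul_smul_comm, one_mul, mul_one, add_smul, sub_smul, smul_smul,
      sub_mul, add_mul]
    rw [mul_comm a' a]
    abel
  have hQz : ∀ z : W₀, ϖ • z = 0 → Q z = (N₁ * F) z := by
    intro z hz
    rw [hQe, LinearMap.add_apply, LinearMap.smul_apply, Module.End.one_apply, hq, mul_comm,
      mul_smul, hz, smul_zero, add_zero]
  have hpow : ∀ (i : ℕ) (z : W₀), ϖ • z = 0 → (Q ^ i) z = ((N₁ * F) ^ i) z := by
    intro i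
    induction i with
    | zero => intro z _; rfl
    | succ i ih =>
      intro z hz
      rw [pow_succ, Module.End.mul_apply, hQz z hz, pow_succ, Module.End.mul_apply]
      apply ih
      rw [← map_smul, ← map_smul, hz, map_zero, map_zero]
  refine ⟨m, ?_⟩
  rw [hpow m y hy, hcomm.mul_pow, (hcomm.pow_pow m m).eq, Module.End.mul_apply, hm, map_zero]

variable {W : Type*} [AddCommGroup W] [Module 𝒪 W]

/-- **Transport** along an equivariant map. -/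
theorem quad_pow_map (up : W₀ →ₗ[𝒪] W) (F₀ : Module.End 𝒪 W₀) (Fu : Module.End 𝒪 W)
    (h : ∀ y, Fu (up y) = up (F₀ y)) (a a' : 𝒪) (m : ℕ) (y : W₀) :
    (((Fu - a • (1 : Module.End 𝒪 W)) * (Fu - a' • (1 : Module.End 𝒪 W))) ^ m) (up y)
      = up ((((F₀ - a • (1 : Module.End 𝒪 W₀)) * (F₀ - a' • (1 : Module.End 𝒪 W₀))) ^ m) y) := by
  have h1 : ∀ (b : 𝒪) (z : W₀), (Fu - b • (1 : Module.End 𝒪 W)) (up z)
      = up ((F₀ - b • (1 : Module.End 𝒪 W₀)) z) := by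
    intro b z
    rw [LinearMap.sub_apply, LinearMap.sub_apply, LinearMap.smul_apply, LinearMap.smul_apply,
      Module.End.one_apply, Module.End.one_apply, h, map_sub, map_smul]
  induction m generalizing y with
  | zero => rfl
  | succ m ih =>
    rw [pow_succ, Module.End.mul_apply, Module.End.mul_apply, h1, h1, ih, pow_succ,
      Module.End.mul_apply, Module.End.mul_apply]

/-- **Untwisting**: if `F = Fu * E ^ k` with `E` commuting with `Fu`, then on the elements fixed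
by `E` the powers of `(F - a)(F - a')` and of `(Fu - a)(Fu - a')` agree. -/
theorem quad_pow_untwist (Fu E : Module.End 𝒪 W) (hc : Commute Fu E) (k : ℕ) (a a' : 𝒪)
    (m : ℕ) (x : W) (hx : E x = x) :
    ((((Fu * E ^ k) - a • (1 : Module.End 𝒪 W)) * ((Fu * E ^ k) - a' • (1 : Module.End 𝒪 W))) ^ m) x
      = (((Fu - a • (1 : Module.End 𝒪 W)) * (Fu - a' • (1 : Module.End 𝒪 W))) ^ m) x := by
  have hEk : ∀ z : W, E z = z → (E ^ k) z = z := by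
    intro z hz
    induction k with
    | zero => rfl
    | succ k ih => rw [pow_succ, Module.End.mul_apply, hz, ih]
  have h1 : ∀ (b : 𝒪) (z : W), E z = z →
      ((Fu * E ^ k) - b • (1 : Module.End 𝒪 W)) z = (Fu - b • (1 : Module.End 𝒪 W)) z ∧
      E ((Fu - b • (1 : Module.End 𝒪 W)) z) = (Fu - b • (1 : Module.End 𝒪 W)) z := by
    intro b z hz
    constructor
    · rw [LinearMap.sub_apply, LinearMap.sub_apply, Module.End.mul_apply, hEk z hz]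
    · have hcb : Commute E (Fu - b • (1 : Module.End 𝒪 W)) :=
        hc.symm.sub_right ((Commute.one_right E).smul_right _)
      have := congrArg (fun f : Module.End 𝒪 W => f z) hcb.eq
      simp only [Module.End.mul_apply] at this
      rw [this, hz]
  induction m generalizing x with
  | zero => rfl
  | succ m ih =>
    rw [pow_succ, Module.End.mul_apply, Module.End.mul_apply, pow_succ, Module.End.mul_apply,
      Module.End.mul_apply, (h1 a' x hx).1, (h1 a _ (h1 a' x hx).2).1]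
    exact ih _ (h1 a _ (h1 a' x hx).2).2

/-- **The abstract form of A-FROBNIL.** -/
theorem frobNil_abs (ϖ : 𝒪) (p : ℕ) (hp : p.Prime) (hpϖ : (p : 𝒪) ∈ Ideal.span {ϖ}) (n k : ℕ)
    (E : Module.End 𝒪 W) (r : ℕ) (d : Fin r → Module.End 𝒪 W)
    (hE : E ^ (p ^ n) = 1) (hd : ∀ j, d j ^ (p ^ n) = 1)
    (hEd : ∀ j, Commute E (d j)) (hdd : ∀ i j, Commute (d i) (d j))
    (Fu F : Module.End 𝒪 W) (hF : F = Fu * E ^ k) (hEFu : Commute E Fu)
    (hdFu : ∀ j, Commute (d j) Fu)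
    (up : W₀ →ₗ[𝒪] W) (hinj : Function.Injective up)
    (hinv : ∀ v : W, ϖ • v = 0 → (∀ j, d j v = v) → ∃ y : W₀, up y = v)
    (F₀ : Module.End 𝒪 W₀) (hgal : ∀ y, Fu (up y) = up (F₀ y)) (a a' : 𝒪)
    (h₀ : ∀ y : W₀, ϖ • y = 0 → ∃ m : ℕ,
      (((F₀ - a • (1 : Module.End 𝒪 W₀)) * (F₀ - a' • (1 : Module.End 𝒪 W₀))) ^ m) y = 0)
    (x : W) (hx : ϖ • x = 0) :
    ∃ m : ℕ, (((F - a • (1 : Module.End 𝒪 W)) * (F - a' • (1 : Module.End 𝒪 W))) ^ m) x = 0 := by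
  subst hF
  obtain ⟨c, hc⟩ := Ideal.mem_span_singleton'.mp hpϖ
  -- `S = W[ϖ]`
  let S : Submodule 𝒪 W := Submodule.torsionBy 𝒪 W ϖ
  have hS : ∀ y : W, y ∈ S ↔ ϖ • y = 0 := fun y => Submodule.mem_torsionBy_iff _ _
  have hpS : ∀ y ∈ S, (p : 𝒪) • y = 0 := by
    intro y hy
    rw [← hc, mul_smul, (hS y).1 hy, smul_zero]
  have hstab : ∀ (f : Module.End 𝒪 W), ∀ y ∈ S, f y ∈ S := by
    intro f y hy
    rw [hS] at hy ⊢
    rw [← map_smul, hy, map_zero]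
  set Q : Module.End 𝒪 W := ((Fu * E ^ k) - a • (1 : Module.End 𝒪 W)) *
    ((Fu * E ^ k) - a' • (1 : Module.End 𝒪 W)) with hQ
  -- the family `E, d_1, …, d_r`
  let d' : Fin (r + 1) → Module.End 𝒪 W := Fin.cons E d
  have hd'0 : d' 0 = E := rfl
  have hd's : ∀ i : Fin r, d' i.succ = d i := fun i => rfl
  have hd'pow : ∀ i, d' i ^ (p ^ n) = 1 := by
    intro i
    refine Fin.cases ?_ (fun i => ?_) i
    · exact hE
    · exact hd i
  have hd'comm : ∀ i j, Commute (d' i) (d' j) := by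
    intro i j
    refine Fin.cases ?_ (fun i => ?_) i <;> refine Fin.cases ?_ (fun j => ?_) j
    · exact Commute.refl _
    · exact hEd j
    · exact (hEd i).symm
    · exact hdd i j
  have hd'Fu : ∀ i, Commute (d' i) Fu := by
    intro i
    refine Fin.cases ?_ (fun i => ?_) i
    · exact hEFu
    · exact hdFu i
  have hd'F : ∀ i, Commute (d' i) (Fu * E ^ k) := fun i =>
    (hd'Fu i).mul_right ((hd'comm i 0).pow_right k)
  have hd'Q : ∀ i, Commute (d' i) Q := fun i =>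
    ((hd'F i).sub_right ((Commute.one_right _).smul_right _)).mul_right
      ((hd'F i).sub_right ((Commute.one_right _).smul_right _))
  refine frobNil_core S Q (hstab Q) (r + 1) d' (fun i => hstab (d' i))
    (fun i y hy => ⟨p ^ n, sub_one_pow_apply_eq_zero hp (d' i) n (hd'pow i) y (hpS y hy)⟩)
    hd'comm hd'Q ?_ x ((hS x).2 hx)
  intro v hv hvfix
  have hEv : E v = v := hvfix 0
  obtain ⟨y, rfl⟩ := hinv v ((hS v).1 hv) (fun i => hvfix i.succ)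
  have hy : ϖ • y = 0 := by
    apply hinj
    rw [map_smul, (hS _).1 hv, map_zero]
  obtain ⟨m, hm⟩ := h₀ y hy
  refine ⟨m, ?_⟩
  rw [hQ, quad_pow_untwist Fu E hEFu.symm k a a' m (up y) hEv,
    quad_pow_map up F₀ Fu hgal a a' m y, hm, map_zero]

end AbsFN

/-! ## The diamond operators for `H = twH` have `p`-power order -/

/-- `⟨u⟩ ^ (p ^ n) = 1` on `J_H[p^∞]`, `H` = the `p^n`-th powers. -/
theorem diaZ_twH_pow (M : ℕ) [NeZero M] (p n : ℕ) {r : ℕ} (qv : Fin r → ℕ) (h2 : 2 ≤ twC qv)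
    (hc : twC qv ∣ M) (u : (ZMod (twC qv))ˣ) :
    diaZ M (twC qv) (twH p n qv) h2 hc p u ^ (p ^ n) = 1 := by
  have hmem : u ^ (p ^ n) ∈ twH p n qv := ⟨u, rfl⟩
  rw [← map_pow]
  refine LinearMap.ext fun x => Subtype.ext ?_
  show ((diaZ M (twC qv) (twH p n qv) h2 hc p (u ^ (p ^ n)) x : AH M (twC qv) (twH p n qv) p) :
    JH M (twC qv) (twH p n qv)) = x
  rw [diaZ_apply, ((diamondData M (twC qv) (twH p n qv) h2 hc).ker _).mpr (Or.inl hmem),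
    one_smul]

/-! ## The operators on `W` -/

section Ops

variable {𝒪 : Type} [CommRing 𝒪] [IsDomain 𝒪] [IsDiscreteValuationRing 𝒪]
  {ϖ : 𝒪} {p : ℕ} {N : ℕ} [NeZero N] {S : Finset ℕ}
  {θ : CuspForm.heckeAlgebra N 2 (↑S : Set ℕ) →+* ResidueField 𝒪}
  {ρbar : ResidualGaloisRep (ResidueField 𝒪)} {n : ℕ} {r : ℕ} {qv : Fin r → ℕ}
  [NeZero (N * twC qv)] [NeZero (twC qv)] [NeZero (twLevel N qv)]
  (D : TwSetup 𝒪 ϖ p N S θ ρbar n qv)

/-- The untwisted Galois action on `W`. -/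
def galU (σ : _root_.Fermat.Agent.NEB.Geom.GalQ) : Module.End 𝒪 ↥(Wtw 𝒪 N S p n qv D.h2 D.hcomm θ D.α) :=
  thetaZ (thetaTw N S qv θ D.α) (galZ (N * twC qv) (twC qv) (twH p n qv) p σ)
    (fun t => D.comm_gal σ t)

/-- The diamond operators on `W`. -/
def diaW (u : (ZMod (twC qv))ˣ) : Module.End 𝒪 ↥(Wtw 𝒪 N S p n qv D.h2 D.hcomm θ D.α) :=
  thetaZ (thetaTw N S qv θ D.α)
    (diaZ (N * twC qv) (twC qv) (twH p n qv) D.h2 (dvd_mul_left _ _) p u)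
    (fun t => D.comm_dia u t)

/-- The twisted Galois action on `W`, in the explicit type. -/
def galT (σ : _root_.Fermat.Agent.NEB.Geom.GalQ) : Module.End 𝒪 ↥(Wtw 𝒪 N S p n qv D.h2 D.hcomm θ D.α) :=
  thetaZ (thetaTw N S qv θ D.α) (D.galHom σ) (D.comm_galHom σ)

theorem galT_eq (σ : _root_.Fermat.Agent.NEB.Geom.GalQ) :
    galT D σ = galU D σ * diaW D (chiC (twC qv) σ) ^ (jTw p n + 1) := by
  have h1 : ∀ t, Commute (etaTw N S p n qv D.h2 D.hcomm t)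
      (diaZ (N * twC qv) (twC qv) (twH p n qv) D.h2 (dvd_mul_left _ _) p (chiC (twC qv) σ)
        ^ (jTw p n + 1)) := fun t => (D.comm_dia _ t).pow_right _
  have e1 := thetaZ_pow (θ := thetaTw N S qv θ D.α)
    (fun t => D.comm_dia (chiC (twC qv) σ) t) (jTw p n + 1) h1
  have e2 := thetaZ_mul (θ := thetaTw N S qv θ D.α) (fun t => D.comm_gal σ t) h1
    (fun t => (D.comm_gal σ t).mul_right (h1 t))
  have e3 := thetaZ_congr (θ := thetaTw N S qv θ D.α) (D.comm_galHom σ)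
    (fun t => (D.comm_gal σ t).mul_right (h1 t)) (D.galHom_apply σ)
  exact e3.trans (e2.trans (congrArg (fun z => galU D σ * z) e1))

theorem diaW_pow (u : (ZMod (twC qv))ˣ) : diaW D u ^ (p ^ n) = 1 := by
  have h1 : ∀ t, Commute (etaTw N S p n qv D.h2 D.hcomm t)
      (diaZ (N * twC qv) (twC qv) (twH p n qv) D.h2 (dvd_mul_left _ _) p u ^ (p ^ n)) :=
    fun t => (D.comm_dia _ t).pow_right _
  have e1 := thetaZ_pow (θ := thetaTw N S qv θ D.α) (fun t => D.comm_dia u t) (p ^ n) h1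
  have e2 := thetaZ_congr (θ := thetaTw N S qv θ D.α) h1 (fun t => Commute.one_right _)
    (diaZ_twH_pow (N * twC qv) p n qv D.h2 (dvd_mul_left _ _) u)
  exact e1.symm.trans (e2.trans (thetaZ_one _))

theorem diaW_comm (u v : (ZMod (twC qv))ˣ) : Commute (diaW D u) (diaW D v) :=
  thetaZ_commute _ _ ((Commute.all u v).map _)

theorem diaW_galU (u : (ZMod (twC qv))ˣ) (σ : _root_.Fermat.Agent.NEB.Geom.GalQ) : Commute (diaW D u) (galU D σ) :=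
  thetaZ_commute _ _ (D.hcommG (Sum.inr (Sum.inr u)) σ)

theorem diaW_galT (u : (ZMod (twC qv))ˣ) (σ : _root_.Fermat.Agent.NEB.Geom.GalQ) : Commute (diaW D u) (galT D σ) := by
  rw [galT_eq]
  exact (diaW_galU D u σ).mul_right ((diaW_comm D u _).pow_right _)

end Ops

/-! ## Level `N` -/

theorem commute_congr_left {M : Type*} [Mul M] {a a' b : M} (h : a = a') (hc : Commute a b) :
    Commute a' b := h ▸ hc

theorem commute_congr_right {M : Type*} [Mul M] {a b b' : M} (h : b = b') (hc : Commute a b) :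
    Commute a b' := h ▸ hc

/-- `a a' ≡ q` modulo the maximal ideal `(ϖ)`. -/
theorem exists_mul_of_residue {𝒪 : Type} [CommRing 𝒪] [IsDomain 𝒪] [IsDiscreteValuationRing 𝒪]
    {ϖ : 𝒪} (hϖ : Irreducible ϖ) (a a' : 𝒪) (q : ℕ)
    (hprod : residue 𝒪 (a * a') = ((q : ℕ) : ResidueField 𝒪)) :
    ∃ c₁ : 𝒪, a * a' - (q : 𝒪) = ϖ * c₁ := by
  have h0 : residue 𝒪 (a * a' - (q : 𝒪)) = 0 := by
    rw [map_sub, hprod, map_natCast, sub_self]
  have h1 : a * a' - (q : 𝒪) ∈ maximalIdeal 𝒪 := (residue_eq_zero_iff _).mp h0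
  rw [hϖ.maximalIdeal_eq] at h1
  obtain ⟨c₁, hc₁⟩ := Ideal.mem_span_singleton'.mp h1
  exact ⟨c₁, by rw [← hc₁, mul_comm]⟩

section LevelN

variable {𝒪 : Type} [CommRing 𝒪] [IsDomain 𝒪] [IsDiscreteValuationRing 𝒪]
  {ϖ : 𝒪} {p : ℕ} {N : ℕ} [NeZero N] {S : Finset ℕ}
  {θ : CuspForm.heckeAlgebra N 2 (↑S : Set ℕ) →+* ResidueField 𝒪}

/-- The Galois action on the `θ`-part at level `N`, in the explicit type. -/
def galM (Dm : MinSetup 𝒪 ϖ p N S θ) (σ : _root_.Fermat.Agent.NEB.Geom.GalQ) : Module.End 𝒪 ↥(thetaPart Dm.ηC θ) :=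
  thetaZ θ (galZ0 N p σ) (Dm.gal_comm σ)

/-- At level `N`: `(F - a)(F - a')` is nilpotent on `W₀[ϖ]`, for `F` a Frobenius at a good prime
`q` with `a + a' ≡ θ(T_q)` and `a a' ≡ q`. -/
theorem min_frob_nil (hϖ : Irreducible ϖ) (Dm : MinSetup 𝒪 ϖ p N S θ) (q : ℕ) (hq : q.Prime)
    (hqN : ¬ q ∣ N) (hqS : q ∉ (↑S : Set ℕ)) (hqp : q ≠ p)
    (P : ValuationSubring Kbar) (hP : P.LiesOverPrime q) (σ : _root_.Fermat.Agent.NEB.Geom.GalQ) (hσ : P.IsFrobeniusAt σ q)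
    (a a' : 𝒪) (hsum : residue 𝒪 (a + a') = θ (CuspForm.heckeAlgebra.T hq hqN hqS))
    (hprod : residue 𝒪 (a * a') = ((q : ℕ) : ResidueField 𝒪))
    (y : ↥(thetaPart Dm.ηC θ)) (hy : ϖ • y = 0) :
    ∃ m : ℕ, (((galM Dm σ - a • (1 : Module.End 𝒪 ↥(thetaPart Dm.ηC θ))) *
      (galM Dm σ - a' • (1 : Module.End 𝒪 ↥(thetaPart Dm.ηC θ)))) ^ m) y = 0 := by
  have hηT : Dm.ηC (CuspForm.heckeAlgebra.T hq hqN hqS) = Tz0 N p q := Dm.ηC_T q hq hqN hqS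
  have hT : ∀ t, Commute (Dm.ηC t) (Tz0 N p q) := fun t =>
    commute_congr_right hηT ((Commute.all t _).map Dm.ηC)
  have hTg : Commute (Tz0 N p q) (galZ0 N p σ) :=
    commute_congr_left hηT (Dm.gal_comm σ (CuspForm.heckeAlgebra.T hq hqN hqS))
  have hes0 : galZ0 N p σ * galZ0 N p σ - Tz0 N p q * galZ0 N p σ
      + q • (1 : Module.End ℤ (A0 N p)) = 0 := by
    have h := Dm.es q hq hqN hqp P hP σ hσ
    have e : ((q : ℤ) • (1 : Module.End ℤ (A0 N p))) = q • (1 : Module.End ℤ (A0 N p)) :=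
      natCast_zsmul _ _
    exact Eq.mp (congrArg (fun X : Module.End ℤ (A0 N p) =>
      galZ0 N p σ * galZ0 N p σ - Tz0 N p q * galZ0 N p σ + X = 0) e) h
  have hes := thetaZ_es (θ := θ) (Dm.gal_comm σ) hT q hes0
  have hFT : Commute (thetaZ θ (galZ0 N p σ) (Dm.gal_comm σ)) (thetaZ θ (Tz0 N p q) hT) :=
    thetaZ_commute _ _ hTg.symm
  have hnil : ∃ m : ℕ, ((thetaZ θ (Tz0 N p q) hT
      - (a + a') • (1 : Module.End 𝒪 ↥(thetaPart Dm.ηC θ))) ^ m) y = 0 := by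
    have h1 := thetaEta_local (η := Dm.ηC) (θ := θ) (CuspForm.heckeAlgebra.T hq hqN hqS)
      (a + a') hsum y
    have h2 : thetaEta Dm.ηC θ (CuspForm.heckeAlgebra.T hq hqN hqS) = thetaZ θ (Tz0 N p q) hT :=
      (thetaEta_eq _).trans (thetaZ_congr _ _ (Dm.ηC_T q hq hqN hqS))
    exact Eq.mp (congrArg (fun X : Module.End 𝒪 ↥(thetaPart Dm.ηC θ) =>
      ∃ m : ℕ, ((X - (a + a') • (1 : Module.End 𝒪 ↥(thetaPart Dm.ηC θ))) ^ m) y = 0) h2) h1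
  exact Exists.elim (exists_mul_of_residue hϖ a a' q hprod) (fun c₁ hc₂ =>
    nil_of_es (thetaZ θ (galZ0 N p σ) (Dm.gal_comm σ)) (thetaZ θ (Tz0 N p q) hT) hFT
      (q : 𝒪) a a' ϖ c₁ hes hc₂ y hy hnil)

end LevelN

/-! ## The leaf -/

section Main

variable {𝒪 : Type} [CommRing 𝒪] [IsDomain 𝒪] [IsDiscreteValuationRing 𝒪]
  {ϖ : 𝒪} {p : ℕ} {N : ℕ} [NeZero N] {S : Finset ℕ}
  {θ : CuspForm.heckeAlgebra N 2 (↑S : Set ℕ) →+* ResidueField 𝒪}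
  {ρbar : ResidualGaloisRep (ResidueField 𝒪)} {n : ℕ} {r : ℕ} {qv : Fin r → ℕ}
  [NeZero (N * twC qv)] [NeZero (twC qv)] [NeZero (twLevel N qv)]

/-- A-FROBNIL in the explicit types. -/
theorem frob_nil_expl (hϖ : Irreducible ϖ) (hpm : (p : 𝒪) ∈ maximalIdeal 𝒪)
    (Dm : MinSetup 𝒪 ϖ p N S θ) (D : TwSetup 𝒪 ϖ p N S θ ρbar n qv)
    (up : ↥(thetaPart Dm.ηC θ) →ₗ[𝒪] ↥(Wtw 𝒪 N S p n qv D.h2 D.hcomm θ D.α))
    (hinj : Function.Injective up)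
    (hinv : ∀ v : ↥(Wtw 𝒪 N S p n qv D.h2 D.hcomm θ D.α), ϖ • v = 0 →
      (∀ j, diaW D (D.δ j) v = v) → ∃ y, up y = v)
    (hgal : ∀ (σ : _root_.Fermat.Agent.NEB.Geom.GalQ) (y : ↥(thetaPart Dm.ηC θ)), galU D σ (up y) = up (galM Dm σ y))
    (j : Fin r) (x : ↥(Wtw 𝒪 N S p n qv D.h2 D.hcomm θ D.α)) (hx : ϖ • x = 0) :
    ∃ m : ℕ, (((galT D (D.frob j)
        - D.a j • (1 : Module.End 𝒪 ↥(Wtw 𝒪 N S p n qv D.h2 D.hcomm θ D.α))) *
      (galT D (D.frob j)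
        - D.a' j • (1 : Module.End 𝒪 ↥(Wtw 𝒪 N S p n qv D.h2 D.hcomm θ D.α)))) ^ m) x = 0 := by
  have hp : p.Prime := D.hTW.hp
  have hpϖ : (p : 𝒪) ∈ Ideal.span {ϖ} := hϖ.maximalIdeal_eq ▸ hpm
  have hq : (qv j).Prime := D.hTW.prime j
  have hqS' : qv j ∉ S := D.hTW.notS j
  have hqS : qv j ∉ (↑S : Set ℕ) := fun h => hqS' (Finset.mem_coe.mp h)
  have hqN : ¬ qv j ∣ N := fun h => hqS' (D.hTW.hNS (qv j) hq h)
  have hqp : qv j ≠ p := fun h => hqS' (h ▸ D.hTW.hpS)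
  have hsum : residue 𝒪 (D.a j + D.a' j) = θ (CuspForm.heckeAlgebra.T hq hqN hqS) := by
    rw [map_add, D.ha, D.ha', D.eig.add j hq hqN hqS]
  have hprod : residue 𝒪 (D.a j * D.a' j) = ((qv j : ℕ) : ResidueField 𝒪) := by
    rw [map_mul, D.ha, D.ha', D.eig.mul, D.eig.q_one]
  exact frobNil_abs ϖ p hp hpϖ n (jTw p n + 1) (diaW D (chiC (twC qv) (D.frob j))) r
    (fun i => diaW D (D.δ i)) (diaW_pow D _) (fun i => diaW_pow D _)
    (fun i => diaW_comm D _ _) (fun i i' => diaW_comm D _ _)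
    (galU D (D.frob j)) (galT D (D.frob j)) (galT_eq D (D.frob j)) (diaW_galU D _ _)
    (fun i => diaW_galU D _ _) up hinj hinv (galM Dm (D.frob j)) (hgal (D.frob j))
    (D.a j) (D.a' j)
    (fun y hy => min_frob_nil hϖ Dm (qv j) hq hqN hqS hqp (D.P j) (D.P_over j) (D.frob j)
      (D.frob_spec j) (D.a j) (D.a' j) hsum hprod y hy)
    x hx

/-- **Leaf A-FROBNIL**: `(F - a_j)(F - a'_j)` is nilpotent on `W[ϖ]`, `F = gal (frob_j)`. -/
theorem a_frob_nil (hϖ : Irreducible ϖ) (hpm : (p : 𝒪) ∈ maximalIdeal 𝒪)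
    (Dm : MinSetup 𝒪 ϖ p N S θ) (D : TwSetup 𝒪 ϖ p N S θ ρbar n qv)
    (hpi : Stmt_A_pi Dm D) : Stmt_A_frob_nil D := by
  obtain ⟨π, πup, hinj, -, -, hinv, -, hgalπ⟩ := hpi
  intro j x hx
  exact frob_nil_expl hϖ hpm Dm D πup hinj hinv
    (fun σ y => Subtype.ext (hgalπ σ y).symm) j x hx

end Main

end Fermat.Agent.NEB.Geom.H6

end
end
-- ==== END Fermat.Agent.NEB.Geom.H6_AFrobNil

-- ==== BEGIN Fermat.Agent.NEB.Geom.H70_WKeyqGen
section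

/-!
# Item 72 / 66, leaf W-KEYq in GENERAL form (helper70): any `(L, c, H)`, any Hecke ring

`wkeyq_gen`: the statement of `Stmt_W_KEYq` for an arbitrary level `L = M q` (`q ∤ M` prime),
an arbitrary `2 ≤ c ∣ L`, `H ≤ (ℤ/c)ˣ` with `(ℤ/c)ˣ/±H` of exponent `p^n` and `F_H / F₀`
unramified, and an ARBITRARY commutative ring `𝕋` acting on `J_H[p^∞]` through `η`, commuting with
the Frobenius `φ`, containing `U_q` (`η tU = U_q^H`) and an operator `tT` acting as `T_ℓ₀^H` on the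
`Δ`-fixed classes (e.g. any twist `T_ℓ₀^H ⟨ℓ₀⟩^j`), with `θ(tU)² ≠ 1`, `θ(tT) ≠ ℓ₀ + 1`:

  `U_q φ x = q x` for every `Δ`-fixed `x ∈ K^𝒪(P) ∩ W`,  `W` the `θ`-part of `𝒪 ⊗ J_H[p^∞]`.

No condition at the other primes of `c` (PIVOT: `c = c_Σ c_Q`, `q` a Taylor–Wiles prime).
-/

set_option autoImplicit false
set_option linter.style.haveILetI false
set_option linter.unusedSectionVars false
set_option linter.unusedVariables false

noncomputable section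

open ModularCurve AlgebraicCurve IsLocalRing TensorProduct

namespace Fermat.Agent.NEB.Geom.H70

open Fermat.Agent.NEB Fermat.Agent.NEB.JH Fermat.Agent.S59.Asm Fermat.Agent.S59.Lim
  Fermat.Agent.S59.Lim.H2 Fermat.Agent.NEB.Geom

section Gen

variable (L c : ℕ) [NeZero L] (H : Subgroup (ZMod c)ˣ) (h2 : 2 ≤ c) (hc : c ∣ L) (p : ℕ)

/-- The kernel of reduction `K_A ∩ J_H[p^∞]` at `P` (general level). -/
def KZgen (P : ValuationSubring Kbar) : AddSubgroup (AH L c H p) :=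
  (KU P p (diamondData L c H h2 hc)).comap (ptors p (JH L c H)).subtype

theorem mem_KZgen {P : ValuationSubring Kbar} {x : AH L c H p} :
    x ∈ KZgen L c H h2 hc p P ↔ InKU P p (diamondData L c H h2 hc) (x : JH L c H) := Iff.rfl

set_option maxHeartbeats 1000000 in
/-- **KEYq on `J_H[p^∞]`**, general level `L = M q`. -/
theorem keyq_AH_gen (hp : p.Prime) (n : ℕ)
    (hexp : ∀ d : (ZMod c)ˣ, d ^ (p ^ n) ∈ H ∨ -(d ^ (p ^ n)) ∈ H)
    (hunr : ∀ w : Place Kbar ↥(FHbar L c H),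
      ∃ x : ↥(modularFunctionFieldBar L), w.ord (inclBar L c H x) = 1)
    (q M : ℕ) (hq : q.Prime) (hL : L = M * q) (hqM : ¬ q ∣ M) (hqp : q ≠ p)
    (ℓ₀ : ℕ) (hℓ₀ : ℓ₀.Prime) (hℓ₀L : ¬ ℓ₀ ∣ L)
    (P : ValuationSubring Kbar) (hP : P.LiesOverPrime q) (φ : _root_.Fermat.Agent.NEB.Geom.GalQ)
    (hφ : P.IsFrobeniusAt φ q)
    (x : AH L c H p) (hxK : x ∈ KZgen L c H h2 hc p P)
    (hfix : ∀ u, diaZ L c H h2 hc p u x = x) :
    (Uz L c H h2 hc p q * galZ L c H p φ - ((q : ℕ) : Module.End ℤ (AH L c H p)))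
      ((Uz L c H h2 hc p q * Uz L c H h2 hc p q - 1)
        ((Tz L c H h2 hc p ℓ₀ - ((ℓ₀ + 1 : ℕ) : Module.End ℤ (AH L c H p))) x)) = 0 := by
  haveI : NeZero ℓ₀ := ⟨hℓ₀.ne_zero⟩
  haveI : NeZero q := ⟨hq.ne_zero⟩
  haveI : NeZero M := ⟨fun h0 => NeZero.ne L (by rw [hL, h0, zero_mul])⟩
  have hx : IsPTors p (x : JH L c H) := x.2
  have hfix' : ∀ d, (diamondData L c H h2 hc).ρ d • (x : JH L c H) = x := fun d =>
    congrArg Subtype.val (hfix d)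
  have hK : InKU P p (diamondData L c H h2 hc) (x : JH L c H) := hxK
  have key := keyq_JH M q c H p L hL hp h2 hc hq hqM hqp n hexp hunr ℓ₀ hℓ₀ hℓ₀L P hP φ hφ
    (heckeData L c ℓ₀ H h2 hc).hβ (heckeData L c q H h2 hc).hβ (x : JH L c H) hx hfix' hK
  apply Subtype.ext
  rw [coe_sub_apply, coe_mul_apply, coe_natCast_apply, Uz_apply, galZ_apply,
    coe_sub_apply, coe_mul_apply, Uz_apply, Uz_apply, Module.End.one_apply,
    coe_sub_apply, Tz_apply, coe_natCast_apply]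
  exact key

/-- **W-KEYq, general form.** -/
theorem wkeyq_gen (𝒪 : Type) [CommRing 𝒪] [IsLocalRing 𝒪] [Module.Flat ℤ 𝒪]
    (hp : p.Prime) (n : ℕ)
    (hexp : ∀ d : (ZMod c)ˣ, d ^ (p ^ n) ∈ H ∨ -(d ^ (p ^ n)) ∈ H)
    (hunr : ∀ w : Place Kbar ↥(FHbar L c H),
      ∃ x : ↥(modularFunctionFieldBar L), w.ord (inclBar L c H x) = 1)
    (q M : ℕ) (hq : q.Prime) (hL : L = M * q) (hqM : ¬ q ∣ M) (hqp : q ≠ p)
    (ℓ₀ : ℕ) (hℓ₀ : ℓ₀.Prime) (hℓ₀L : ¬ ℓ₀ ∣ L)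
    (P : ValuationSubring Kbar) (hP : P.LiesOverPrime q) (φ : _root_.Fermat.Agent.NEB.Geom.GalQ)
    (hφ : P.IsFrobeniusAt φ q)
    {𝕋 : Type} [CommRing 𝕋] (η : 𝕋 →+* Module.End ℤ (AH L c H p))
    (θ : 𝕋 →+* ResidueField 𝒪)
    (hηG : ∀ t, Commute (η t) (galZ L c H p φ))
    (tU tT : 𝕋) (hU : η tU = Uz L c H h2 hc p q)
    (hT : ∀ y : AH L c H p, (∀ u, diaZ L c H h2 hc p u y = y) →
      η tT y = Tz L c H h2 hc p ℓ₀ y)
    (hθU : θ tU * θ tU ≠ 1) (hθT : θ tT ≠ ((ℓ₀ : ResidueField 𝒪) + 1))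
    (x : 𝒪 ⊗[ℤ] AH L c H p) (hx : x ∈ thetaPart η θ)
    (hxK : x ∈ KO 𝒪 (KZgen L c H h2 hc p P))
    (hfix : ∀ u, (diaZ L c H h2 hc p u).baseChange 𝒪 x = x) :
    (Uz L c H h2 hc p q).baseChange 𝒪 ((galZ L c H p φ).baseChange 𝒪 x)
      = ((q : ℕ) : 𝒪) • x := by
  haveI : Finite (ZMod c)ˣ := finite_units_zmod c
  -- `E` and `s`
  have hcommU : ∀ t, Commute (η t) (Uz L c H h2 hc p q) := fun t => by
    rw [← hU]
    exact (Commute.all t tU).map η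
  have hE : ∀ t, Commute (η t)
      (Uz L c H h2 hc p q * galZ L c H p φ - ((q : ℕ) : Module.End ℤ (AH L c H p))) :=
    fun t => ((hcommU t).mul_right (hηG t)).sub_right (Nat.commute_cast _ _)
  have hηs := map_keyq_elt η tU tT (ℓ₀ + 1)
  rw [hU] at hηs
  have hθs := map_keyq_elt θ tU tT (ℓ₀ + 1)
  have hs : θ ((tU * tU - 1) * (tT - ((ℓ₀ + 1 : ℕ) : 𝕋))) ≠ 0 := by
    rw [hθs]
    refine mul_ne_zero (sub_ne_zero.mpr hθU) ?_
    rw [sub_ne_zero]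
    intro h0
    apply hθT
    rw [h0]
    push_cast
    rfl
  have hkey : ∀ y ∈ KZgen L c H h2 hc p P, (∀ u, diaZ L c H h2 hc p u y = y) →
      η ((tU * tU - 1) * (tT - ((ℓ₀ + 1 : ℕ) : 𝕋)))
        ((Uz L c H h2 hc p q * galZ L c H p φ - ((q : ℕ) : Module.End ℤ (AH L c H p))) y)
        = 0 := by
    intro y hy hfy
    have h1 := congrArg (fun f : Module.End ℤ (AH L c H p) => f y)
      (hE ((tU * tU - 1) * (tT - ((ℓ₀ + 1 : ℕ) : 𝕋)))).eq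
    have h1' : η ((tU * tU - 1) * (tT - ((ℓ₀ + 1 : ℕ) : 𝕋)))
        ((Uz L c H h2 hc p q * galZ L c H p φ - ((q : ℕ) : Module.End ℤ (AH L c H p))) y)
        = (Uz L c H h2 hc p q * galZ L c H p φ - ((q : ℕ) : Module.End ℤ (AH L c H p)))
          (η ((tU * tU - 1) * (tT - ((ℓ₀ + 1 : ℕ) : 𝕋))) y) := h1
    have h2' : (η tT - ((ℓ₀ + 1 : ℕ) : Module.End ℤ (AH L c H p))) y
        = (Tz L c H h2 hc p ℓ₀ - ((ℓ₀ + 1 : ℕ) : Module.End ℤ (AH L c H p))) y := by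
      rw [LinearMap.sub_apply, LinearMap.sub_apply, hT y hfy]
    rw [h1', hηs, Module.End.mul_apply, h2']
    exact keyq_AH_gen L c H h2 hc p hp n hexp hunr q M hq hL hqM hqp ℓ₀ hℓ₀ hℓ₀L P hP φ hφ
      y hy hfy
  have hfin := wkey_abs η θ (fun u => diaZ L c H h2 hc p u) (KZgen L c H h2 hc p P)
    (Uz L c H h2 hc p q * galZ L c H p φ - ((q : ℕ) : Module.End ℤ (AH L c H p)))
    hE _ hs hkey x hx hxK hfix
  rw [baseChange_mul_sub_natCast] at hfin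
  exact sub_eq_zero.mp hfin

end Gen

end Fermat.Agent.NEB.Geom.H70

end
end
-- ==== END Fermat.Agent.NEB.Geom.H70_WKeyqGen

-- ==== BEGIN Fermat.Agent.NEB.Geom.H84_AsmFinal
section

/-!
# Item 72 (LG-NEB), package NEB-GEOM (helper84): `TWDiv` from the field statements

`nonempty_twDiv : Stmt_A_gal D → Stmt_A_es D → Stmt_A_hstep D → Stmt_A_pi Dm D →
  Stmt_A_frob_nil D → Stmt_A_lg D → Nonempty (TWDiv 𝒪 ϖ p ρbar N S θ Dm.MD n qv)`.
-/

set_option autoImplicit false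
set_option linter.unusedSectionVars false

noncomputable section

open ModularCurve AlgebraicCurve IsLocalRing TensorProduct Polynomial

namespace Fermat.Agent.NEB.Geom.H84

open Fermat.Agent.NEB Fermat.Agent.NEB.JH Fermat.Agent.S59.Asm Fermat.Agent.S59.Lim
  Fermat.Agent.S59.Lim.H2 Fermat.Agent.NEB.Geom

variable {𝒪 : Type} [CommRing 𝒪] [IsDomain 𝒪] [IsDiscreteValuationRing 𝒪]
  {ϖ : 𝒪} {p : ℕ} {N : ℕ} [NeZero N] {S : Finset ℕ}
  {θ : CuspForm.heckeAlgebra N 2 (↑S : Set ℕ) →+* ResidueField 𝒪}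
  {ρbar : ResidualGaloisRep (ResidueField 𝒪)} {n : ℕ} {r : ℕ} {qv : Fin r → ℕ}
  [NeZero (N * twC qv)] [NeZero (twC qv)] [NeZero (twLevel N qv)]

/-- **The final plumbing**: `TWDiv` from the field statements. -/
theorem nonempty_twDiv (Dm : MinSetup 𝒪 ϖ p N S θ) (D : TwSetup 𝒪 ϖ p N S θ ρbar n qv)
    (hgal : Stmt_A_gal D) (hes : Stmt_A_es D) (hstep : Stmt_A_hstep D)
    (hpi : Stmt_A_pi Dm D) (hfn : Stmt_A_frob_nil D) (hlg : Stmt_A_lg D) :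
    Nonempty (TWDiv 𝒪 ϖ p ρbar N S θ Dm.MD n qv) := by
  obtain ⟨π, πup, h1, h2, h3, h4, h5, _⟩ := hpi
  obtain ⟨g1, g2, g3, g4, g5, g6⟩ := hgal
  exact ⟨{
    rest := Fermat.Agent.S59.Asm.H41.restTW N S qv D.hTW.prime
    rest_T := fun ℓ hℓ hℓN' hℓS' hℓN hℓS =>
      Fermat.Agent.S59.Asm.H41.restTW_T N S qv D.hTW.prime ℓ hℓ hℓN' hℓS' hℓN hℓS
    WD := D.WD
    gal := D.gal
    gal_cont := g1
    gal_η := g2
    es := hes
    d := D.d
    d_pow := g3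
    d_comm := g4
    d_η := g5
    d_gal := g6
    hstep := hstep
    π := π
    πup := πup
    πup_injective := h1
    πup_π := h2
    d_πup := h3
    inv := h4
    π_η := h5
    P := D.P
    P_over := D.P_over
    frob := D.frob
    frob_spec := D.frob_spec
    σ := D.σ
    σ_mem := D.σ_mem
    a := D.a
    a' := D.a'
    a_ne := fun j => by
      rw [D.ha j, D.ha' j]
      exact D.eig.ne j
    charpoly_frob := D.charpoly_frob
    frob_nil := hfn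
    lg := hlg }⟩

end Fermat.Agent.NEB.Geom.H84

end
end
-- ==== END Fermat.Agent.NEB.Geom.H84_AsmFinal
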