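-- GENERATED (merged mirror, NOTES/tools/trim/merge3_helper67.py): 6 modules of the originals, bodies verbatim.
import Mathlib
import Fermat.Agent.Zm.S43_L13_001
import Fermat.Agent.Zm.S35_L02_001
import Fermat.Agent.Zm.S56_L01_003
import Fermat.Agent.Zm.S43_L10_001
import Fermat.Agent.Zm.S43_L03_002
import Fermat.Agent.Zm.S48_L15_000
import Fermat.Agent.Zm.S43_L13_002
import Fermat.Agent.Zm.S43_L05_002
import Fermat.Agent.Zm.S43_L03_003
import Fermat.Agent.Zm.S35_L08_004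
import Fermat.Agent.Zm.S43_L01_003
import Fermat.Agent.Zm.S43_L02_003
import Fermat.Agent.Zm.S58_L01_000
import Fermat.Agent.Zm.S35_L07_001
import Fermat.Agent.Zm.S43_L01_004

-- ==== BEGIN Fermat.Agent.NEB.Geom.H84_Choice
section

/-!
# Item 72 (LG-NEB), package NEB-GEOM, leaf A-CHOICE (helper84)

The choices at a Taylor–Wiles family: places `P_j ∣ q_j`, Frobenius elements, inertia elements
`σ_j` whose cyclotomic characters generate `Δ`, the eigenvalues `α_j ≠ β_j` and their lifts.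

* `pow_dvd_of_gen`      : the group theory (cyclic group, `g^(e t)` a `p^n`-th power ⟹ `p^n ∣ t`);
* `exists_sigma`        : `σ_j ∈ I_{P_j}` with `IsDeltaGen (χ_c(σ_j)^(j₀+1))`;
* `exists_eig`          : `α β a a'` with `TwEig` and `charpoly_frob`.
-/

set_option autoImplicit false
set_option linter.unusedSectionVars false
set_option linter.style.haveILetI false

noncomputable section

open ModularCurve AlgebraicCurve IsLocalRing TensorProduct Polynomial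

namespace Fermat.Agent.NEB.Geom.H84

open Fermat.Agent.NEB Fermat.Agent.NEB.JH Fermat.Agent.S59.Asm Fermat.Agent.NEB.Geom

/-- In a finite cyclic group with generator `g` whose order is divisible by `p^n`: if
`g^(e t)` is a `p^n`-th power and `e` is prime to `p`, then `p^n ∣ t`. -/
theorem pow_dvd_of_gen {G : Type*} [CommGroup G] [Finite G] (g : G)
    (hg : ∀ x : G, x ∈ Subgroup.zpowers g) {p n : ℕ} (hp : p.Prime) (hpn : p ^ n ∣ Nat.card G)
    {e : ℕ} (he : Nat.Coprime e p) (t : ℕ) (y : G) (h : g ^ (e * t) = y ^ (p ^ n)) :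
    p ^ n ∣ t := by
  have hord : orderOf g = Nat.card G := orderOf_eq_card_of_forall_mem_zpowers hg
  obtain ⟨s, hs⟩ : ∃ s : ℕ, g ^ s = y := by
    have := hg y
    rw [← mem_powers_iff_mem_zpowers] at this
    exact this
  rw [← hs, ← pow_mul, pow_eq_pow_iff_modEq, hord] at h
  have h2 : e * t ≡ s * p ^ n [MOD p ^ n] := h.of_dvd hpn
  have h3 : p ^ n ∣ e * t := by
    have : s * p ^ n ≡ 0 [MOD p ^ n] := (Nat.modEq_zero_iff_dvd).mpr (dvd_mul_left _ _)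
    exact (Nat.modEq_zero_iff_dvd).mp (h2.trans this)
  exact (Nat.Coprime.pow_right n he).symm.dvd_of_dvd_mul_left h3

/-- `j₀ + 1 = (p^n + 1)/2` is prime to `p` (`p` odd). -/
theorem coprime_jTw {p : ℕ} (hp : p.Prime) (hp2 : p ≠ 2) (n : ℕ) :
    Nat.Coprime (jTw p n + 1) p := by
  by_cases hn : n = 0
  · subst hn
    simp [jTw]
  have hodd : Odd (p ^ n) := (hp.odd_of_ne_two hp2).pow
  obtain ⟨m, hm⟩ := hodd
  have hj : jTw p n = m := by
    unfold jTw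
    rw [hm]
    omega
  rw [hj]
  have hpd : p ∣ 2 * m + 1 := by
    rw [← hm]
    exact dvd_pow_self p hn
  rw [Nat.coprime_comm, Nat.Prime.coprime_iff_not_dvd hp]
  intro hd
  -- `p ∣ m + 1` and `p ∣ 2 m + 1` ⟹ `p ∣ 1`
  have h1 : p ∣ 2 * (m + 1) := Dvd.dvd.mul_left hd 2
  have h2 : p ∣ 2 * (m + 1) - (2 * m + 1) := Nat.dvd_sub h1 hpd
  have h3 : 2 * (m + 1) - (2 * m + 1) = 1 := by omega
  rw [h3] at h2
  exact hp.one_lt.ne' (Nat.dvd_one.mp h2)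

/-- `2 j₀ + 1 = p^n` (`p` odd). -/
theorem two_jTw {p : ℕ} (hp : p.Prime) (hp2 : p ≠ 2) (n : ℕ) : 2 * jTw p n + 1 = p ^ n := by
  have hodd : Odd (p ^ n) := (hp.odd_of_ne_two hp2).pow
  obtain ⟨m, hm⟩ := hodd
  unfold jTw
  rw [hm]
  omega

section Sigma

variable {N : ℕ} {S : Finset ℕ} {p n : ℕ} {r : ℕ} {qv : Fin r → ℕ}

theorem twC_ne_zero (hTW : TwHyp N S p n qv) : twC qv ≠ 0 :=
  Finset.prod_ne_zero_iff.mpr fun j _ => (hTW.prime j).ne_zero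

theorem dvd_twC (j : Fin r) : qv j ∣ twC qv :=
  Finset.dvd_prod_of_mem qv (Finset.mem_univ j)

theorem two_le_twC (hTW : TwHyp N S p n qv) : 2 ≤ twC qv := by
  obtain ⟨j⟩ : Nonempty (Fin r) := ⟨⟨0, hTW.hr⟩⟩
  have h1 : qv j ∣ twC qv := dvd_twC j
  have h2 : 2 ≤ qv j := (hTW.prime j).two_le
  exact le_trans h2 (Nat.le_of_dvd (Nat.pos_of_ne_zero (twC_ne_zero hTW)) h1)

/-- **The inertia elements**: `σ_j ∈ I_{P_j}` such that `δ_j = χ_c(σ_j)^(j₀+1)` generate `Δ`. -/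
theorem exists_sigma (hTW : TwHyp N S p n qv) [NeZero (twC qv)]
    (P : Fin r → ValuationSubring Kbar) (hP : ∀ j, (P j).LiesOverPrime (qv j)) :
    ∃ σ : Fin r → _root_.Fermat.Agent.NEB.Geom.GalQ, (∀ j, σ j ∈ (P j).inertiaSubgroupIn ℚ) ∧
      IsDeltaGen p n qv
        (fun j => Fermat.Agent.NEB.Geom.H6.chiC (twC qv) (σ j) ^ (jTw p n + 1)) := by
  classical
  -- choose `σ_j` with `χ_{q_j}(σ_j)` a generator
  have hex : ∀ j : Fin r, ∃ σ : _root_.Fermat.Agent.NEB.Geom.GalQ, σ ∈ (P j).inertiaSubgroupIn ℚ ∧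
      ∀ x : (ZMod (qv j))ˣ, x ∈ Subgroup.zpowers
        (haveI : NeZero (qv j) := ⟨(hTW.prime j).ne_zero⟩
         Fermat.Agent.NEB.Geom.H6.chiC (qv j) σ) := by
    intro j
    haveI : NeZero (qv j) := ⟨(hTW.prime j).ne_zero⟩
    haveI : Fact (qv j).Prime := ⟨hTW.prime j⟩
    obtain ⟨g, hg⟩ := (inferInstance : IsCyclic (ZMod (qv j))ˣ).exists_generator
    obtain ⟨σ, hσ, hσg⟩ :=
      Fermat.Agent.NEB.Geom.H6.chiC_inertia_surjective_prime (qv j) (hTW.prime j) (P j) (hP j) g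
    exact ⟨σ, hσ, fun x => hσg ▸ hg x⟩
  choose σ hσ hgen using hex
  refine ⟨σ, hσ, ?_, ?_⟩
  · intro i j hij h
    haveI : NeZero (qv i) := ⟨(hTW.prime i).ne_zero⟩
    show ZMod.unitsMap h (Fermat.Agent.NEB.Geom.H6.chiC (twC qv) (σ j) ^ (jTw p n + 1)) = 1
    rw [map_pow, Fermat.Agent.NEB.Geom.H6.chiC_unitsMap h (σ j)]
    have hco : (qv i).Coprime (qv j) :=
      (Nat.coprime_primes (hTW.prime i) (hTW.prime j)).mpr (fun e => hij (hTW.inj e))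
    rw [Fermat.Agent.NEB.Geom.H6.chiC_inertia (qv i) (qv j) hco (P j) (hP j) (σ j) (hσ j),
      one_pow]
  · intro j t ht
    haveI : NeZero (qv j) := ⟨(hTW.prime j).ne_zero⟩
    haveI : Fact (qv j).Prime := ⟨hTW.prime j⟩
    obtain ⟨y, hy⟩ := ht
    have hy' : y ^ (p ^ n)
        = (Fermat.Agent.NEB.Geom.H6.chiC (twC qv) (σ j) ^ (jTw p n + 1)) ^ t := hy
    have h1 := congrArg (ZMod.unitsMap (dvd_twC (qv := qv) j)) hy'
    rw [map_pow, map_pow, map_pow,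
      Fermat.Agent.NEB.Geom.H6.chiC_unitsMap (dvd_twC (qv := qv) j) (σ j), ← pow_mul] at h1
    have hcard : Nat.card (ZMod (qv j))ˣ = qv j - 1 := by
      rw [Nat.card_eq_fintype_card, ZMod.card_units_eq_totient, Nat.totient_prime (hTW.prime j)]
    have hpn : p ^ n ∣ Nat.card (ZMod (qv j))ˣ := by
      rw [hcard]
      exact Dvd.dvd.trans (pow_dvd_pow p (Nat.le_succ n)) (hTW.cong j)
    exact pow_dvd_of_gen _ (hgen j) hTW.hp hpn (coprime_jTw hTW.hp hTW.hp2 n) t _ h1.symm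

end Sigma

section Eig

variable {𝒪 : Type} [CommRing 𝒪] [IsLocalRing 𝒪]
  {N : ℕ} [NeZero N] {S : Finset ℕ} {p n : ℕ} {r : ℕ} {qv : Fin r → ℕ}

/-- Comparison of the coefficients of two monic quadratic polynomials. -/
theorem quad_coeff {k : Type*} [Field k] {α β t q : k}
    (h : (X - C α) * (X - C β) = X ^ 2 - C t * X + C q) : t = α + β ∧ α * β = q := by
  have h0 := congrArg (fun f => Polynomial.coeff f 0) h
  have h1 := congrArg (fun f => Polynomial.coeff f 1) h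
  simp only [Polynomial.mul_coeff_zero, Polynomial.coeff_sub, Polynomial.coeff_X_zero,
    Polynomial.coeff_C_zero, Polynomial.coeff_add, Polynomial.coeff_X_pow,
    Polynomial.coeff_C_mul, zero_sub] at h0
  have e : (X - C α) * (X - C β) = X ^ 2 - C (α + β) * X + C (α * β) := by
    rw [map_add, map_mul]
    ring
  rw [e] at h1
  simp only [Polynomial.coeff_sub, Polynomial.coeff_add, Polynomial.coeff_X_pow,
    Polynomial.coeff_C_mul, Polynomial.coeff_X_one, Polynomial.coeff_C] at h1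
  norm_num at h0 h1
  refine ⟨?_, h0⟩
  have h2 := congrArg Neg.neg h1
  simp only [neg_neg, neg_add_rev] at h2
  rw [h2]

/-- A prime `q ≡ 1 mod p` is `1` in the residue field. -/
theorem cast_eq_one_of_cong (hpm : (p : 𝒪) ∈ maximalIdeal 𝒪) {q : ℕ} (hq : 0 < q)
    (h : p ^ (n + 1) ∣ q - 1) : ((q : ℕ) : ResidueField 𝒪) = 1 := by
  have hp0 : ((p : ℕ) : ResidueField 𝒪) = 0 := by
    have : residue 𝒪 (p : 𝒪) = 0 := (residue_eq_zero_iff _).mpr hpm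
    rwa [map_natCast] at this
  obtain ⟨m, hm⟩ := h
  have hq' : q = p ^ (n + 1) * m + 1 := by omega
  rw [hq']
  push_cast
  rw [hp0, zero_pow (Nat.succ_ne_zero n), zero_mul, zero_add]

/-- **The eigenvalues**: `α_j ≠ β_j`, their lifts, `TwEig` and the characteristic polynomials. -/
theorem exists_eig (ρbar : ResidualGaloisRep (ResidueField 𝒪))
    (θ : CuspForm.heckeAlgebra N 2 (↑S : Set ℕ) →+* ResidueField 𝒪)
    (hpm : (p : 𝒪) ∈ maximalIdeal 𝒪)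
    (hTW : TwHyp N S p n qv) (hfam : Fermat.Agent.S56.IsTWFamily ρbar p n S qv)
    (hfrob : Fermat.Agent.S59.Datum.FrobHyp ρbar N S θ)
    (P : Fin r → ValuationSubring Kbar) (hP : ∀ j, (P j).LiesOverPrime (qv j))
    (frob : Fin r → _root_.Fermat.Agent.NEB.Geom.GalQ) (hfr : ∀ j, (P j).IsFrobeniusAt (frob j) (qv j)) :
    ∃ (α β : Fin r → ResidueField 𝒪) (a a' : Fin r → 𝒪),
      TwEig 𝒪 N S qv θ α β ∧ (∀ j, residue 𝒪 (a j) = α j) ∧ (∀ j, residue 𝒪 (a' j) = β j) ∧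
      ∀ j, LinearMap.charpoly (ρbar.ρ (frob j)) =
        (X - C (residue 𝒪 (a j))) * (X - C (residue 𝒪 (a' j))) := by
  classical
  have hex : ∀ j : Fin r, ∃ α β : ResidueField 𝒪, α ≠ β ∧
      LinearMap.charpoly (ρbar.ρ (frob j)) = (X - C α) * (X - C β) :=
    fun j => hfam.2.2 j (P j) (hP j) (frob j) (hfr j)
  choose α β hne hcp using hex
  have hqN : ∀ j, ¬ qv j ∣ N := fun j hd => hTW.notS j (hTW.hNS _ (hTW.prime j) hd)
  have hqS : ∀ j, qv j ∉ (↑S : Set ℕ) := fun j h => hTW.notS j (by exact_mod_cast h)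
  have hcmp : ∀ j, θ (CuspForm.heckeAlgebra.T (hTW.prime j) (hqN j) (hqS j)) = α j + β j ∧
      α j * β j = ((qv j : ℕ) : ResidueField 𝒪) := by
    intro j
    have h1 := hfrob (qv j) (hTW.prime j) (hqN j) (hqS j) (P j) (hP j) (frob j) (hfr j)
    rw [hcp j] at h1
    exact quad_coeff h1
  have hq1 : ∀ j, ((qv j : ℕ) : ResidueField 𝒪) = 1 :=
    fun j => cast_eq_one_of_cong hpm (hTW.prime j).pos (hTW.cong j)
  have hsurj := residue_surjective (R := 𝒪)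
  choose a ha using fun j => hsurj (α j)
  choose a' ha' using fun j => hsurj (β j)
  refine ⟨α, β, a, a', ⟨hne, ?_, hq1, ?_⟩, ha, ha', ?_⟩
  · intro j
    rw [(hcmp j).2, hq1 j]
  · intro j hq hqN' hqS'
    exact (hcmp j).1
  · intro j
    rw [ha j, ha' j]
    exact hcp j

end Eig

end Fermat.Agent.NEB.Geom.H84

end
end
-- ==== END Fermat.Agent.NEB.Geom.H84_Choice

-- ==== BEGIN Fermat.Agent.NEB.Geom.H94_AHstep
section

/-!
# Item 72 (LG-NEB), package NEB-GEOM: the assembly leaf A-HSTEP (helper94)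

* `tEisPoly`      : the Eisenstein element `X_ℓ₀ Z_{ℓ₀⁻¹}^{j₀} - (ℓ₀ + 1)` of `𝕋⁺`;
* `etaTw_tEisPoly`: `η⁺(tEisPoly) = tEis = T_ℓ₀^H - (ℓ₀ + 1)`;
* `thetaTw_tEisPoly` : `θ⁺(tEisPoly) = θ(T_ℓ₀) - (ℓ₀ + 1)`;
* `a_hstep`       : `Stmt_TOWER_INST → Stmt_A_hstep D` (with `A[p]` finite: Z-FIN);
* `isDiv_Wtw`     : `Stmt_TOWER_INST → IsDiv ϖ Wtw` (field `isDiv` of `TwSetup`, for A-ETA).
-/

set_option autoImplicit false
set_option linter.unusedSectionVars false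
set_option linter.unusedVariables false
set_option linter.style.haveILetI false

noncomputable section

open ModularCurve AlgebraicCurve IsLocalRing TensorProduct Polynomial

namespace Fermat.Agent.NEB.Geom.H94

open Fermat.Agent.NEB Fermat.Agent.NEB.JH Fermat.Agent.S59.Asm Fermat.Agent.S59.Lim
  Fermat.Agent.S59.Lim.H2 Fermat.Agent.NEB.Geom

section Gen

/-- `f u ^ j * f u⁻¹ ^ j = 1` for a monoid homomorphism on a group. -/
theorem map_pow_mul_map_inv_pow {G E : Type*} [Group G] [Monoid E] (f : G →* E) (u : G)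
    (j : ℕ) : f u ^ j * f u⁻¹ ^ j = 1 := by
  have h : Commute u u⁻¹ := (Commute.refl u).inv_right
  rw [← map_pow, ← map_pow, ← map_mul, ← h.mul_pow, mul_inv_cancel, one_pow, map_one]

/-- the value of a ring homomorphism at an "Eisenstein" polynomial -/
theorem map_eis_eq {ι : Type} {E : Type} [Ring E] (η : MvPolynomial ι ℤ →+* E) (i₁ i₂ : ι)
    (j m : ℕ) (T d d' : E) (h1 : η (MvPolynomial.X i₁) = T * d ^ j)
    (h2 : η (MvPolynomial.X i₂) = d') (hdd : d ^ j * d' ^ j = 1) :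
    η (MvPolynomial.X i₁ * MvPolynomial.X i₂ ^ j - ((m : ℕ) : MvPolynomial ι ℤ))
      = T - ((m : ℕ) : ℤ) • (1 : E) := by
  rw [map_sub, map_mul, map_pow, h1, h2, map_natCast, mul_assoc, hdd, mul_one,
    zsmul_one, Int.cast_natCast]

/-- the value of an evaluation at an "Eisenstein" polynomial -/
theorem eval_eis_eq {ι : Type} {k : Type} [Field k] (v : ι → k) (i₁ i₂ : ι)
    (j m : ℕ) (h2 : v i₂ = 1) :
    MvPolynomial.eval₂Hom (Int.castRingHom k) v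
      (MvPolynomial.X i₁ * MvPolynomial.X i₂ ^ j - ((m : ℕ) : MvPolynomial ι ℤ))
      = v i₁ - (m : k) := by
  rw [map_sub, map_mul, map_pow, MvPolynomial.eval₂Hom_X', MvPolynomial.eval₂Hom_X',
    map_natCast, h2, one_pow, mul_one]

end Gen

section GenTheta

variable {𝒪 : Type} [CommRing 𝒪] [IsLocalRing 𝒪] {𝕋 : Type} [CommRing 𝕋]
  {A : Type} [AddCommGroup A]

theorem coe_pow_thetaZ (η : 𝕋 →+* Module.End ℤ A) (θ : 𝕋 →+* ResidueField 𝒪)
    (g : Module.End ℤ A) (hg : ∀ t, Commute (η t) g) (e : ℕ) (x : ↥(thetaPart η θ)) :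
    ((((thetaZ θ g hg) ^ e) x : ↥(thetaPart η θ)) : 𝒪 ⊗[ℤ] A)
      = ((g.baseChange 𝒪) ^ e) x.1 := by
  induction e generalizing x with
  | zero => rfl
  | succ e ih =>
    rw [pow_succ, Module.End.mul_apply, ih, pow_succ, Module.End.mul_apply]
    rfl

theorem coe_nm_thetaZ (η : 𝕋 →+* Module.End ℤ A) (θ : 𝕋 →+* ResidueField 𝒪)
    (g : Module.End ℤ A) (hg : ∀ t, Commute (η t) g) (m : ℕ) (x : ↥(thetaPart η θ)) :
    ((Fermat.Agent.S59.TWH.H90.nm m (thetaZ θ g hg) x : ↥(thetaPart η θ)) : 𝒪 ⊗[ℤ] A)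
      = ∑ e ∈ Finset.range m, ((g.baseChange 𝒪) ^ e) x.1 := by
  rw [Fermat.Agent.S59.TWH.H90.nm_apply]
  rw [← Finset.sum_congr rfl (fun e _ => coe_pow_thetaZ η θ g hg e x)]
  exact map_sum (Submodule.subtype (thetaPart η θ)) _ _

/-- from the statement on elements of `𝒪 ⊗ A` to the statement on the subtype -/
theorem hstep_subtype (η : 𝕋 →+* Module.End ℤ A) (θ : 𝕋 →+* ResidueField 𝒪) {r : ℕ}
    (d : Fin r → Module.End ℤ A) (hd : ∀ j t, Commute (η t) (d j)) (ϖ : 𝒪) (m : ℕ)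
    (h : ∀ (j : Fin r) (v : 𝒪 ⊗[ℤ] A), v ∈ thetaPart η θ → ϖ • v = 0 →
      (∀ i, i ≤ j → (d i).baseChange 𝒪 v = v) →
      ∃ w ∈ thetaPart η θ, ϖ • w = 0 ∧ (∀ i, i < j → (d i).baseChange 𝒪 w = w) ∧
        ∑ e ∈ Finset.range m, (((d j).baseChange 𝒪) ^ e) w = v)
    (j : Fin r) (v : ↥(thetaPart η θ)) (hv : ϖ • v = 0)
    (hdv : ∀ i, i ≤ j → thetaZ θ (d i) (hd i) v = v) :
    ∃ w : ↥(thetaPart η θ), ϖ • w = 0 ∧ (∀ i, i < j → thetaZ θ (d i) (hd i) w = w) ∧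
      Fermat.Agent.S59.TWH.H90.nm m (thetaZ θ (d j) (hd j)) w = v := by
  obtain ⟨w, hw, hw1, hw2, hw3⟩ := h j v.1 v.2 (congrArg Subtype.val hv)
    (fun i hij => congrArg Subtype.val (hdv i hij))
  refine ⟨⟨w, hw⟩, Subtype.ext hw1, fun i hij => Subtype.ext (hw2 i hij), Subtype.ext ?_⟩
  exact (coe_nm_thetaZ η θ (d j) (hd j) m ⟨w, hw⟩).trans hw3

end GenTheta

section Eis

variable (N : ℕ) (S : Finset ℕ) (p n : ℕ) {r : ℕ} (qv : Fin r → ℕ)

/-- The Eisenstein element `X_ℓ₀ Z_{ℓ₀⁻¹}^{j₀} - (ℓ₀ + 1)` of `𝕋⁺`. -/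
def tEisPoly (ℓ₀ : ℕ) : PolyTw r (twC qv) :=
  MvPolynomial.X (Sum.inl ℓ₀) *
      MvPolynomial.X (Sum.inr (Sum.inr (Fermat.Agent.NEB.EIG.H39.unitOf (twC qv) ℓ₀)⁻¹))
        ^ jTw p n
    - ((ℓ₀ + 1 : ℕ) : PolyTw r (twC qv))

variable [NeZero (N * twC qv)] (h2 : 2 ≤ twC qv)

theorem etaTw_tEisPoly
    (hcomm : ∀ i j, Commute (opsTw N S p n qv h2 i) (opsTw N S p n qv h2 j))
    (ℓ₀ : ℕ) (hℓ₀ : GoodTw N S qv ℓ₀) :
    etaTw N S p n qv h2 hcomm (tEisPoly p n qv ℓ₀) = tEis N p n qv h2 ℓ₀ := by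
  classical
  have hX : etaTw N S p n qv h2 hcomm (MvPolynomial.X (Sum.inl ℓ₀))
      = Tz (N * twC qv) (twC qv) (twH p n qv) h2 (dvd_mul_left _ _) p ℓ₀ *
        diaZ (N * twC qv) (twC qv) (twH p n qv) h2 (dvd_mul_left _ _) p
          (Fermat.Agent.NEB.EIG.H39.unitOf (twC qv) ℓ₀) ^ jTw p n := by
    refine (polyHom_X _ _ _).trans ?_
    show (if GoodTw N S qv ℓ₀ then _ else _) = _
    rw [if_pos hℓ₀]
    rfl
  have hZ : etaTw N S p n qv h2 hcomm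
      (MvPolynomial.X (Sum.inr (Sum.inr (Fermat.Agent.NEB.EIG.H39.unitOf (twC qv) ℓ₀)⁻¹)))
      = diaZ (N * twC qv) (twC qv) (twH p n qv) h2 (dvd_mul_left _ _) p
          (Fermat.Agent.NEB.EIG.H39.unitOf (twC qv) ℓ₀)⁻¹ :=
    polyHom_X _ _ _
  exact map_eis_eq (etaTw N S p n qv h2 hcomm) _ _ (jTw p n) (ℓ₀ + 1) _ _ _ hX hZ
    (map_pow_mul_map_inv_pow
      (diaZ (N * twC qv) (twC qv) (twH p n qv) h2 (dvd_mul_left _ _) p) _ _)

theorem thetaTw_tEisPoly {k : Type} [Field k] [NeZero N]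
    (θ : CuspForm.heckeAlgebra N 2 (↑S : Set ℕ) →+* k) (α : Fin r → k)
    (ℓ₀ : ℕ) (hℓ₀ : GoodTw N S qv ℓ₀) :
    thetaTw N S qv θ α (tEisPoly p n qv ℓ₀) =
      θ (CuspForm.heckeAlgebra.T hℓ₀.1 hℓ₀.not_dvd hℓ₀.not_mem) - ((ℓ₀ : k) + 1) := by
  classical
  have h1 := eval_eis_eq (thetaVal N S qv θ α) (Sum.inl ℓ₀)
    (Sum.inr (Sum.inr (Fermat.Agent.NEB.EIG.H39.unitOf (twC qv) ℓ₀)⁻¹)) (jTw p n) (ℓ₀ + 1) rfl
  have h2 : thetaVal N S qv θ α (Sum.inl ℓ₀)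
      = θ (CuspForm.heckeAlgebra.T hℓ₀.1 hℓ₀.not_dvd hℓ₀.not_mem) := by
    show (if h : GoodTw N S qv ℓ₀ then _ else _) = _
    rw [dif_pos hℓ₀]
  refine h1.trans ?_
  rw [h2, Nat.cast_add, Nat.cast_one]

end Eis

section Main

variable {𝒪 : Type} [CommRing 𝒪] [IsDomain 𝒪] [IsDiscreteValuationRing 𝒪]
  {ϖ : 𝒪} {p : ℕ} {N : ℕ} [NeZero N] {S : Finset ℕ}
  {θ : CuspForm.heckeAlgebra N 2 (↑S : Set ℕ) →+* ResidueField 𝒪}
  {ρbar : ResidualGaloisRep (ResidueField 𝒪)} {n : ℕ} {r : ℕ} {qv : Fin r → ℕ}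
  [NeZero (N * twC qv)] [NeZero (twC qv)] [NeZero (twLevel N qv)]

/-- `θ⁺` does not vanish at the Eisenstein element. -/
theorem thetaTw_tEisPoly_ne (D : TwSetup 𝒪 ϖ p N S θ ρbar n qv) :
    thetaTw N S qv θ D.α (tEisPoly p n qv D.ℓ₀) ≠ 0 := by
  rw [thetaTw_tEisPoly N S p n qv θ D.α D.ℓ₀ D.hℓ₀]
  exact sub_ne_zero.mpr D.hne

theorem not_dvd_of_goodTw {ℓ : ℕ} (h : GoodTw N S qv ℓ) : ¬ ℓ ∣ N * twC qv := by
  intro hd
  apply h.2.1
  have h1 : N * twC qv ∣ twLevel N qv := by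
    unfold twLevel twC
    refine mul_dvd_mul_left N ?_
    rw [Finset.prod_pow]
    exact Dvd.intro _ (sq _).symm
  exact hd.trans h1

/-- **A-HSTEP**: norm surjectivity along the tower on `W[ϖ]`, from TOWER-INST and W-HSTEP. -/
theorem a_hstep [Finite (ResidueField 𝒪)] [Fact p.Prime] (hϖ : Irreducible ϖ)
    (hpm : (p : 𝒪) ∈ maximalIdeal 𝒪) (hp0 : (p : 𝒪) ≠ 0)
    (D : TwSetup 𝒪 ϖ p N S θ ρbar n qv)
    (hfin : Finite {x : AH (N * twC qv) (twC qv) (twH p n qv) p // p • x = 0})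
    (hT : Stmt_TOWER_INST N S p n qv D.h2) : Stmt_A_hstep D := by
  obtain ⟨-, hstep, -⟩ := hT D.hTW D.δ D.hδ D.ℓ₀ D.hℓ₀.1 (not_dvd_of_goodTw D.hℓ₀)
  have hE := etaTw_tEisPoly N S p n qv D.h2 D.hcomm D.ℓ₀ D.hℓ₀
  have key := stmt_W_HSTEP 𝒪 ϖ hϖ p hpm hp0 (AH (N * twC qv) (twC qv) (twH p n qv) p)
    (fun x => isPTors_coe x) hfin (PolyTw r (twC qv)) (etaTw N S p n qv D.h2 D.hcomm)
    (thetaTw N S qv θ D.α) (tEisPoly p n qv D.ℓ₀) (thetaTw_tEisPoly_ne D) r n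
    (fun j => diaZ (N * twC qv) (twC qv) (twH p n qv) D.h2 (dvd_mul_left _ _) p (D.δ j))
    (fun j => ⟨MvPolynomial.X (Sum.inr (Sum.inr (D.δ j))), polyHom_X _ _ _⟩)
    (fun j v hv hdv => by
      obtain ⟨w, m, h1, h2, h3⟩ := hstep j v hv hdv
      exact ⟨w, m, h1, h2, by rw [hE]; exact h3⟩)
  exact hstep_subtype (etaTw N S p n qv D.h2 D.hcomm) (thetaTw N S qv θ D.α)
    (fun j => diaZ (N * twC qv) (twC qv) (twH p n qv) D.h2 (dvd_mul_left _ _) p (D.δ j))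
    (fun j t => D.comm_dia (D.δ j) t) ϖ (p ^ n) key

/-- **A-ETA, field `isDiv`**: `W` is `IsDiv`, from TOWER-INST (DIV) and W-DIV. -/
theorem isDiv_Wtw [Finite (ResidueField 𝒪)] [Fact p.Prime] (hϖ : Irreducible ϖ)
    (hpm : (p : 𝒪) ∈ maximalIdeal 𝒪) (hp0 : (p : 𝒪) ≠ 0) (h2 : 2 ≤ twC qv)
    (hcomm : ∀ i j, Commute (opsTw N S p n qv h2 i) (opsTw N S p n qv h2 j))
    (α : Fin r → ResidueField 𝒪) (hTW : TwHyp N S p n qv)
    (δ : Fin r → (ZMod (twC qv))ˣ) (hδ : IsDeltaGen p n qv δ)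
    (ℓ₀ : ℕ) (hℓ₀ : GoodTw N S qv ℓ₀)
    (hne : θ (CuspForm.heckeAlgebra.T hℓ₀.1 hℓ₀.not_dvd hℓ₀.not_mem)
      ≠ ((ℓ₀ : ResidueField 𝒪) + 1))
    (hfin : Finite {x : AH (N * twC qv) (twC qv) (twH p n qv) p // p • x = 0})
    (hT : Stmt_TOWER_INST N S p n qv h2) :
    IsDiv ϖ ↥(Wtw 𝒪 N S p n qv h2 hcomm θ α) := by
  obtain ⟨hdiv, -⟩ := hT hTW δ hδ ℓ₀ hℓ₀.1 (not_dvd_of_goodTw hℓ₀)
  have hE := etaTw_tEisPoly N S p n qv h2 hcomm ℓ₀ hℓ₀
  have hθ : thetaTw N S qv θ α (tEisPoly p n qv ℓ₀) ≠ 0 := by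
    rw [thetaTw_tEisPoly N S p n qv θ α ℓ₀ hℓ₀]
    exact sub_ne_zero.mpr hne
  exact stmt_W_DIV 𝒪 ϖ hϖ p hpm hp0 (AH (N * twC qv) (twC qv) (twH p n qv) p)
    (fun x => isPTors_coe x) hfin (PolyTw r (twC qv)) (etaTw N S p n qv h2 hcomm)
    (thetaTw N S qv θ α) (tEisPoly p n qv ℓ₀) hθ
    (by
      obtain ⟨Nn, hNn⟩ := hdiv
      exact ⟨Nn, fun x => by rw [hE]; exact hNn x⟩)

end Main

end Fermat.Agent.NEB.Geom.H94

end
end
-- ==== END Fermat.Agent.NEB.Geom.H94_AHstep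

-- ==== BEGIN Fermat.Agent.NEB.Geom.H9_AGal
section

set_option autoImplicit false
set_option linter.unusedSectionVars false
set_option linter.style.haveILetI false
set_option synthInstance.maxHeartbeats 400000
set_option maxHeartbeats 1000000

noncomputable section

open ModularCurve AlgebraicCurve IsLocalRing TensorProduct Polynomial

namespace Fermat.Agent.NEB.Geom.H9

open Fermat.Agent.NEB Fermat.Agent.NEB.JH Fermat.Agent.NEB.Geom Fermat.Agent.S59.Asm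
  Fermat.Agent.S59.Lim Fermat.Agent.S59.Lim.H2

/-! ## The diamond operators of `H` are trivial -/

section Dia

variable (M c : ℕ) [NeZero M] (H : Subgroup (ZMod c)ˣ) (h2 : 2 ≤ c) (hc : c ∣ M) (p : ℕ)

theorem diaZ_eq_one_of_mem {u : (ZMod c)ˣ} (hu : u ∈ H) : diaZ M c H h2 hc p u = 1 := by
  refine LinearMap.ext fun x => Subtype.ext ?_
  rw [diaZ_apply, ((diamondData M c H h2 hc).ker u).2 (Or.inl hu), one_smul]
  rfl

theorem diaZ_commute (u v : (ZMod c)ˣ) :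
    Commute (diaZ M c H h2 hc p u) (diaZ M c H h2 hc p v) :=
  (Commute.all u v).map (diaZ M c H h2 hc p)

end Dia

/-! ## The field generated by the `c`-th roots of unity -/

/-- The cyclotomic field `ℚ(ζ_c)` inside `ℚ̄`. -/
def cycF (c : ℕ) : IntermediateField ℚ Kbar :=
  IntermediateField.adjoin ℚ {t : Kbar | t ^ c = 1}

theorem finite_rootsOne (c : ℕ) [NeZero c] : {t : Kbar | t ^ c = 1}.Finite := by
  have h : {t : Kbar | t ^ c = 1} = ↑(nthRootsFinset c (1 : Kbar)) := by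
    ext t
    rw [Set.mem_ofPred_eq, Finset.mem_coe,
      mem_nthRootsFinset (Nat.pos_of_ne_zero (NeZero.ne c))]
  rw [h]
  exact Finset.finite_toSet _

theorem finiteDimensional_cycF (c : ℕ) [NeZero c] : FiniteDimensional ℚ (cycF c) := by
  haveI : Algebra.IsAlgebraic ℚ Kbar := AlgebraicClosure.isAlgebraic ℚ
  haveI : Finite {t : Kbar | t ^ c = 1} := (finite_rootsOne c).to_subtype
  exact IntermediateField.finiteDimensional_adjoin
    (fun x _ => Algebra.IsIntegral.isIntegral x)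

theorem chiC_eq_one_of_fix_cycF (c : ℕ) [NeZero c] (σ : _root_.Fermat.Agent.NEB.Geom.GalQ)
    (h : ∀ y ∈ cycF c, σ y = y) : Fermat.Agent.NEB.Geom.H6.chiC c σ = 1 :=
  Fermat.Agent.NEB.Geom.H6.chiC_eq_one_of_fix c σ fun t ht =>
    h t (IntermediateField.subset_adjoin ℚ _ ht)

/-! ## Continuity on `𝒪 ⊗ J_H[p^∞]` -/

section Cont

variable (𝒪 : Type) [CommRing 𝒪]
variable (M c : ℕ) [NeZero M] [NeZero c] (H : Subgroup (ZMod c)ˣ) (h2 : 2 ≤ c) (hc : c ∣ M)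
  (p k : ℕ)

/-- Every element of `𝒪 ⊗ J_H[p^∞]` is fixed by the twisted action of an open subgroup. -/
theorem cont_tensor (y : 𝒪 ⊗[ℤ] AH M c H p) :
    ∃ L : IntermediateField ℚ Kbar, FiniteDimensional ℚ L ∧
      ∀ σ : _root_.Fermat.Agent.NEB.Geom.GalQ, (∀ z ∈ L, σ z = z) →
        ((galZ M c H p σ *
          diaZ M c H h2 hc p (Fermat.Agent.NEB.Geom.H6.chiC c σ) ^ k).baseChange 𝒪) y = y := by
  induction y using TensorProduct.induction_on with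
  | zero => exact ⟨⊥, inferInstance, fun σ _ => map_zero _⟩
  | tmul a x =>
    obtain ⟨L₁, h₁, hL₁⟩ := Fermat.Agent.NEB.Geom.H29.stmt_ZGALCONT M c H h2 hc (x : JH M c H)
    haveI := h₁
    haveI := finiteDimensional_cycF c
    refine ⟨L₁ ⊔ cycF c, IntermediateField.finiteDimensional_sup L₁ (cycF c), fun σ hσ => ?_⟩
    have hχ : Fermat.Agent.NEB.Geom.H6.chiC c σ = 1 :=
      chiC_eq_one_of_fix_cycF c σ fun z hz =>
        hσ z ((le_sup_right : cycF c ≤ L₁ ⊔ cycF c) hz)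
    have hx : σ • (x : JH M c H) = (x : JH M c H) :=
      hL₁ σ fun z hz => hσ z ((le_sup_left : L₁ ≤ L₁ ⊔ cycF c) hz)
    rw [LinearMap.baseChange_tmul, hχ, map_one, one_pow, mul_one]
    congr 1
    exact Subtype.ext hx
  | add y₁ y₂ ih₁ ih₂ =>
    obtain ⟨L₁, h₁, hL₁⟩ := ih₁
    obtain ⟨L₂, h₂, hL₂⟩ := ih₂
    haveI := h₁
    haveI := h₂
    refine ⟨L₁ ⊔ L₂, IntermediateField.finiteDimensional_sup L₁ L₂, fun σ hσ => ?_⟩
    rw [map_add, hL₁ σ fun z hz => hσ z ((le_sup_left : L₁ ≤ L₁ ⊔ L₂) hz),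
      hL₂ σ fun z hz => hσ z ((le_sup_right : L₂ ≤ L₁ ⊔ L₂) hz)]

end Cont

/-! ## A-GAL -/

section Main

variable {𝒪 : Type} [CommRing 𝒪] [IsDomain 𝒪] [IsDiscreteValuationRing 𝒪]
  {ϖ : 𝒪} {p : ℕ} {N : ℕ} [NeZero N] {S : Finset ℕ}
  {θ : CuspForm.heckeAlgebra N 2 (↑S : Set ℕ) →+* ResidueField 𝒪}
  {ρbar : ResidualGaloisRep (ResidueField 𝒪)} {n : ℕ} {r : ℕ} {qv : Fin r → ℕ}
  [NeZero (N * twC qv)] [NeZero (twC qv)] [NeZero (twLevel N qv)]
  (D : TwSetup 𝒪 ϖ p N S θ ρbar n qv)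

/-- The primes dividing the Taylor–Wiles level lie in the Taylor–Wiles set. -/
theorem mem_twSet_of_dvd (hTW : TwHyp N S p n qv) (q : ℕ) (hq : q.Prime)
    (hd : q ∣ twLevel N qv) : q ∈ (↑(twSet S qv) : Set ℕ) := by
  rw [Finset.mem_coe, twSet, Finset.mem_union]
  rw [twLevel] at hd
  rcases (Nat.Prime.dvd_mul hq).1 hd with h | h
  · exact Or.inl (hTW.hNS q hq h)
  · right
    obtain ⟨j, -, hj⟩ := (Prime.dvd_finsetProd_iff (Nat.Prime.prime hq) _).1 h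
    have h1 : q ∣ qv j := hq.dvd_of_dvd_pow hj
    have h2 : q = qv j := (Nat.prime_dvd_prime_iff_eq hq (hTW.prime j)).1 h1
    rw [h2]
    exact Finset.mem_image_of_mem qv (Finset.mem_univ j)

/-- An operator `thetaZ g` commutes with the Hecke action `η` on `W`. -/
theorem commute_thetaZ_eta
    (g : Module.End ℤ (AH (N * twC qv) (twC qv) (twH p n qv) p))
    (hg : ∀ t, Commute (etaTw N S p n qv D.h2 D.hcomm t) g)
    (t : CuspForm.heckeAlgebra (twLevel N qv) 2 (↑(twSet S qv) : Set ℕ)) :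
    Commute (thetaZ (thetaTw N S qv θ D.α) g hg) (D.WD.η t) := by
  refine Fermat.Agent.NEB.EIG.H39.commute_of_gen
    (R := Module.End 𝒪 ↥(Wtw 𝒪 N S p n qv D.h2 D.hcomm θ D.α)) (mem_twSet_of_dvd D.hTW) D.η _
    (fun ℓ hℓ hℓN hℓS => ?_) t
  rw [D.η_T ℓ hℓ hℓN hℓS]
  exact thetaZ_commute_eta hg _

/-- The diamond operator commutes with the twisted Galois action. -/
theorem commute_dia_galHom (u : (ZMod (twC qv))ˣ) (g : _root_.Fermat.Agent.NEB.Geom.GalQ) :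
    Commute (diaZ (N * twC qv) (twC qv) (twH p n qv) D.h2 (dvd_mul_left _ _) p u)
      (D.galHom g) := by
  rw [D.galHom_apply]
  exact (D.hcommG (Sum.inr (Sum.inr u)) g).mul_right ((diaZ_commute _ _ _ _ _ _ u _).pow_right _)

/-- **A-GAL**. -/
theorem a_gal : Stmt_A_gal D := by
  refine ⟨fun x => ?_, fun g t => ?_, fun j => ?_, fun i j => ?_, fun j t => ?_, fun j g => ?_⟩
  · obtain ⟨L, hL, hfix⟩ := cont_tensor 𝒪 (N * twC qv) (twC qv) (twH p n qv) D.h2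
      (dvd_mul_left _ _) p (jTw p n + 1) (D.val x)
    refine ⟨L, hL, fun σ hσ => Subtype.ext ?_⟩
    exact hfix σ hσ
  · exact commute_thetaZ_eta D (D.galHom g) (fun t => D.comm_galHom g t) t
  · have hmem : D.δ j ^ (p ^ n) ∈ twH p n qv := ⟨D.δ j, rfl⟩
    have h1 : diaZ (N * twC qv) (twC qv) (twH p n qv) D.h2 (dvd_mul_left _ _) p (D.δ j) ^ (p ^ n)
        = 1 := by
      rw [← map_pow]
      exact diaZ_eq_one_of_mem _ _ _ _ _ _ hmem
    have hc1 : ∀ t, Commute (etaTw N S p n qv D.h2 D.hcomm t)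
        (diaZ (N * twC qv) (twC qv) (twH p n qv) D.h2 (dvd_mul_left _ _) p (D.δ j) ^ (p ^ n)) :=
      fun t => (D.comm_dia (D.δ j) t).pow_right _
    show thetaZ (thetaTw N S qv θ D.α) _ _ ^ (p ^ n) = 1
    rw [← thetaZ_pow (fun t => D.comm_dia (D.δ j) t) (p ^ n) hc1,
      thetaZ_congr hc1 (fun t => Commute.one_right _) h1]
    exact thetaZ_one _
  · exact thetaZ_commute (fun t => D.comm_dia (D.δ i) t) (fun t => D.comm_dia (D.δ j) t)
      (diaZ_commute _ _ _ _ _ _ _ _)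
  · exact commute_thetaZ_eta D _ (fun t => D.comm_dia (D.δ j) t) t
  · exact thetaZ_commute (fun t => D.comm_dia (D.δ j) t) (fun t => D.comm_galHom g t)
      (commute_dia_galHom D (D.δ j) g)

end Main

end Fermat.Agent.NEB.Geom.H9

end
end
-- ==== END Fermat.Agent.NEB.Geom.H9_AGal

-- ==== BEGIN Fermat.Agent.S59.Asm.H80_ExactB
section

set_option autoImplicit false
set_option linter.style.haveILetI false

open IsLocalRing

namespace Fermat.Agent.S59.Asm.H80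

/-- **EXACT-b**. -/
theorem stmt_EXACTb : Fermat.Agent.S59.Asm.Stmt_EXACTb := by
  intro 𝒪 _ _ _ _ _ _ p _ hp2 hp𝒪 ρbar habs N _ S hpS hNS hpN θ hθ
  have hp : p.Prime := Fact.out
  haveI : Fact (CuspForm.HasIntegralStructure N 2) := ⟨Fermat.Agent.S23.result N⟩
  obtain ⟨H, -, -, hres⟩ :=
    Fermat.Agent.S59.Datum.stmt_DATUM 𝒪 p hp2 hp𝒪 N S hpS hNS ρbar habs θ hθ
  have hflat : H.ρ.IsFlatAt p := Fermat.Agent.S32.result hp hp2 hp𝒪 hpN hpS hNS H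
  haveI : Finite (ResidueField (CuspForm.heckeLocal N (↑S : Set ℕ) 𝒪 θ)) :=
    Fermat.Agent.S53.H50.finite_residueField_of_surjective 𝒪 _ H.residue_surjective
  exact Fermat.Agent.S59.Datum.H78.stmt_FlatDesc p hp (ResidueField 𝒪) ρbar
    (CuspForm.heckeLocal N (↑S : Set ℕ) 𝒪 θ)
    (ResidueField.map (algebraMap 𝒪 (CuspForm.heckeLocal N (↑S : Set ℕ) 𝒪 θ))) H.ρ hres hflat

end Fermat.Agent.S59.Asm.H80

end
-- ==== END Fermat.Agent.S59.Asm.H80_ExactB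

-- ==== BEGIN Fermat.Agent.S59.Asm.H92_ThetaMinCore
section

/-!
# S59, leaf THETA-MIN (helper92): core (from the statement of S29)

`stmt_THETAMIN_of : S29.H33.Stmt_S29 → Stmt_THETAMIN`: let `ρbar` be an absolutely irreducible residual representation
over a finite field `k` of characteristic `p` whose Frobenius characteristic polynomials outside
`Sig ∪ {p}` are `X² - a_ℓ X + ℓ`, and `f₀` a normalised eigenform of level `M₀` with
`a_ℓ(f₀) ≡ a_ℓ mod 𝔪` outside `Sig ∪ primes(M₀ p)`.  Then `ρbar` is unramified outside `M₀ p` and,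
for every finite `S ⊇ primes(M₀) ∪ {p}`, the residual eigencharacter of `f₀` away from `S` has
values in `k` and gives the Frobenius characteristic polynomials of `ρbar` outside `S`.

Proof.  `Ω := AlgebraicClosure k`, `r : ℤ̄ → Ω` killing `𝔪` (`exists_res_map`); S29 gives `ρ_f`
over `Ω` attached to `f₀` along `r`, unramified outside `M₀ p`.  `ρ_f` and `ρbar ⊗ Ω` have the
same Frobenius characteristic polynomials outside `Sig ∪ primes(M₀ p)`, hence everywhere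
(`Datum.H57.charpoly_eq_of_frob`), and they are equivalent (`Datum.H57.isEquiv_of_charpoly_eq`;
`ρbar ⊗ Ω` is absolutely irreducible by the Gram criterion).  Unramifiedness descends from
`Ω ⊗ V` to `V`; `r ∘ eigenChar` maps the generators `T_ℓ` to `tr ρbar(Frob_ℓ) ∈ k`.
-/

set_option autoImplicit false
set_option linter.unusedSectionVars false
set_option linter.style.haveILetI false
set_option linter.unusedVariables false

open Polynomial CuspForm CongruenceSubgroup ModularFormClass IsLocalRing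
open scoped TensorProduct

namespace Fermat.Agent.S59.Asm.H92

open Fermat.Agent.S59 Fermat.Agent.S59.Datum

section BaseChange

variable {k : Type} [Field k] (Ω : Type) [Field Ω] [Algebra k Ω]

/-- The characteristic polynomials of a base change. -/
theorem charpoly_baseChange_ρ (ρbar : ResidualGaloisRep k) (σ : _root_.Fermat.Agent.S59.Asm.GalQ) :
    LinearMap.charpoly ((ρbar.baseChange Ω).ρ σ) =
      (LinearMap.charpoly (ρbar.ρ σ)).map (algebraMap k Ω) :=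
  LinearMap.charpoly_baseChange (ρbar.ρ σ) Ω

/-- A base change of an absolutely irreducible residual representation is absolutely
irreducible (Gram criterion). -/
theorem isAbsolutelyIrreducible_baseChange (ρbar : ResidualGaloisRep k)
    (habs : ρbar.IsAbsolutelyIrreducible) : (ρbar.baseChange Ω).IsAbsolutelyIrreducible := by
  classical
  let b : Module.Basis (Fin 2) k ρbar.V := Module.finBasisOfFinrankEq k ρbar.V ρbar.finrank_eq
  obtain ⟨g, hg⟩ := Fermat.Agent.S53.Schur.exists_det_ne_zero ρbar habs b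
  have hgram : (Matrix.of fun p q => LinearMap.trace k ρbar.V (ρbar.ρ (g p * g q))).det ≠ 0 := by
    rw [Fermat.Agent.S58.H99.gram_trace_eq ρbar.ρ b g]
    exact Fermat.Agent.S58.H99.det_gramMat_ne_zero _ hg
  apply Fermat.Agent.S58.H99.isAbsolutelyIrreducible_of_gram (ρbar.baseChange Ω) g
  have hmap : (Matrix.of fun p q => LinearMap.trace Ω (ρbar.baseChange Ω).V
        ((ρbar.baseChange Ω).ρ (g p * g q))) =
      (Matrix.of fun p q => LinearMap.trace k ρbar.V (ρbar.ρ (g p * g q))).map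
        (algebraMap k Ω) := by
    ext p q
    simp only [Matrix.of_apply, Matrix.map_apply]
    exact LinearMap.trace_baseChange (ρbar.ρ (g p * g q)) Ω
  rw [hmap, ← RingHom.mapMatrix_apply, ← RingHom.map_det]
  exact fun h => hgram ((map_eq_zero (algebraMap k Ω)).mp h)

/-- Unramifiedness descends along a base change. -/
theorem isUnramifiedAt_of_baseChange (ρbar : ResidualGaloisRep k) (q : ℕ)
    (h : (ρbar.baseChange Ω).IsUnramifiedAt q) : ρbar.IsUnramifiedAt q := by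
  intro A hA σ hσ
  have h1 : (ρbar.ρ σ).baseChange Ω = (1 : Module.End k ρbar.V).baseChange Ω := by
    rw [LinearMap.baseChange_one]
    exact h A hA σ hσ
  exact LinearMap.baseChangeHom_injective (R := k) (S := Ω) (M := ρbar.V) (N := ρbar.V) h1

/-- Unramifiedness is invariant under equivalence. -/
theorem isUnramifiedAt_of_equiv {ρ₁ ρ₂ : ResidualGaloisRep Ω} (e : ResidualGaloisRep.Equiv ρ₁ ρ₂)
    (q : ℕ) (h : ρ₁.IsUnramifiedAt q) : ρ₂.IsUnramifiedAt q := by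
  intro A hA σ hσ
  apply LinearMap.ext
  intro y
  have h1 := e.map_apply σ (e.toLinearEquiv.symm y)
  rw [h A hA σ hσ, Module.End.one_apply, LinearEquiv.apply_symm_apply] at h1
  rw [Module.End.one_apply]
  exact h1.symm

end BaseChange

/-- A ring homomorphism `ℤ̄ → Ω` killing `𝔪` (`Ω` algebraically closed of characteristic `p`). -/
theorem exists_res_map (p : ℕ) [hpF : Fact p.Prime] (Ω : Type) [Field Ω] [IsAlgClosed Ω]
    [CharP Ω p] (𝔪 : Ideal (integralClosure ℤ ℂ)) (h𝔪 : 𝔪.IsMaximal)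
    (hp : (p : integralClosure ℤ ℂ) ∈ 𝔪) :
    ∃ r : integralClosure ℤ ℂ →+* Ω, ∀ x ∈ 𝔪, r x = 0 := by
  haveI := h𝔪
  letI : Field (integralClosure ℤ ℂ ⧸ 𝔪) := Ideal.Quotient.field 𝔪
  haveI hchar : CharP (integralClosure ℤ ℂ ⧸ 𝔪) p :=
    Fermat.Agent.S59.H99.charP_quotient p 𝔪 h𝔪.ne_top hp
  letI : Algebra (ZMod p) (integralClosure ℤ ℂ ⧸ 𝔪) := ZMod.algebra _ p
  letI : Algebra (ZMod p) Ω := ZMod.algebra _ p
  haveI : Algebra.IsAlgebraic (ZMod p) (integralClosure ℤ ℂ ⧸ 𝔪) := by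
    haveI : Algebra.IsIntegral ℤ (integralClosure ℤ ℂ ⧸ 𝔪) := by
      constructor
      intro x
      obtain ⟨y, rfl⟩ := Ideal.Quotient.mk_surjective x
      exact (Algebra.IsIntegral.isIntegral (R := ℤ) y).map (Ideal.Quotient.mkₐ ℤ 𝔪)
    constructor
    intro x
    exact ((Algebra.IsIntegral.isIntegral (R := ℤ) x).tower_top (A := ZMod p)).isAlgebraic
  haveI ht1 : Module.IsTorsionFree (ZMod p) (integralClosure ℤ ℂ ⧸ 𝔪) :=
    DivisionSemiring.to_moduleIsTorsionFree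
  haveI ht2 : Module.IsTorsionFree (ZMod p) Ω := DivisionSemiring.to_moduleIsTorsionFree
  let j : (integralClosure ℤ ℂ ⧸ 𝔪) →ₐ[ZMod p] Ω := IsAlgClosed.lift
  refine ⟨j.toRingHom.comp (Ideal.Quotient.mk 𝔪), fun x hx => ?_⟩
  rw [RingHom.comp_apply, Ideal.Quotient.eq_zero_iff_mem.mpr hx, map_zero]

section Poly

variable {k : Type} [Field k] {Ω : Type} [Field Ω] [Algebra k Ω]

/-- The shape of the image of a Frobenius polynomial. -/
theorem map_frobPoly (t : k) (ℓ : ℕ) :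
    (X ^ 2 - C t * X + C ((ℓ : k)) : k[X]).map (algebraMap k Ω) =
      X ^ 2 - C (algebraMap k Ω t) * X + C ((ℓ : Ω)) := by
  rw [Polynomial.map_add, Polynomial.map_sub, Polynomial.map_mul, Polynomial.map_pow,
    Polynomial.map_X, Polynomial.map_C, Polynomial.map_C, map_natCast]

/-- The linear coefficient of a Frobenius polynomial. -/
theorem coeff_one_frobPoly {R : Type} [CommRing R] (t d : R) :
    (X ^ 2 - C t * X + C d : R[X]).coeff 1 = - t := by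
  simp [Polynomial.coeff_X_pow, Polynomial.coeff_C]

end Poly

/-- **THETA-MIN**, from the statement of S29. -/
theorem stmt_THETAMIN_of (hS29 : Fermat.Agent.S29.H33.Stmt_S29) : Stmt_THETAMIN := by
  intro p hpF hp2 k _ _ _ ρbar habs M₀ _ f₀ 𝔪 hf₀ h𝔪 hp𝔪 a Sig hcong hfrob
  classical
  have hp : p.Prime := hpF.out
  haveI hcharΩ : CharP (AlgebraicClosure k) p :=
    charP_of_injective_algebraMap (algebraMap k (AlgebraicClosure k)).injective p
  obtain ⟨r, hr⟩ := exists_res_map p (AlgebraicClosure k) 𝔪 h𝔪 hp𝔪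
  obtain ⟨ρf, hatt, hunr⟩ := hS29 hf₀ hp r
  have hℓΩ : ∀ ℓ : ℕ, ℓ.Prime → ℓ ≠ p → ((ℓ : ℕ) : AlgebraicClosure k) ≠ 0 := by
    intro ℓ hℓ hℓp h0
    have hdvd : p ∣ ℓ := (CharP.cast_eq_zero_iff (AlgebraicClosure k) p ℓ).mp h0
    exact hℓp ((Nat.prime_dvd_prime_iff_eq hp hℓ).mp hdvd).symm
  have hM₀ : M₀ ≠ 0 := NeZero.ne M₀
  -- the Frobenius characteristic polynomials outside `Sig ∪ primes(M₀ p)`
  have hcp₀ : ∀ ℓ : ℕ, ℓ.Prime → ℓ ∉ Sig ∪ M₀.primeFactors ∪ {p} →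
      ∀ B : ValuationSubring (AlgebraicClosure ℚ), B.LiesOverPrime ℓ →
      ∀ σ : _root_.Fermat.Agent.S59.Asm.GalQ, B.IsFrobeniusAt σ ℓ →
        LinearMap.charpoly (ρf.ρ σ) =
          LinearMap.charpoly ((ρbar.baseChange (AlgebraicClosure k)).ρ σ) := by
    intro ℓ hℓ hℓS B hB σ hσ
    rw [Finset.mem_union, Finset.mem_union, Finset.mem_singleton, not_or, not_or] at hℓS
    obtain ⟨⟨hℓSig, hℓM'⟩, hℓp⟩ := hℓS
    have hℓM : ¬ ℓ ∣ M₀ := fun hdvd => hℓM' (Nat.mem_primeFactors.mpr ⟨hℓ, hdvd, hM₀⟩)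
    obtain ⟨a', ha', hcp⟩ := hatt ℓ hℓ hℓM (hℓΩ ℓ hℓ hℓp) B hB σ hσ
    obtain ⟨b, hb, hba⟩ := hcong ℓ hℓ hℓSig hℓM hℓp
    have hab : a' = b := Subtype.ext (ha'.trans hb.symm)
    have hrb : r a' = algebraMap k (AlgebraicClosure k) ((a ℓ : ℤ) : k) := by
      rw [hab, map_intCast]
      have h1 := hr _ hba
      rw [map_sub, sub_eq_zero, map_intCast] at h1
      exact h1
    rw [hcp, charpoly_baseChange_ρ, hfrob ℓ hℓ hℓSig hℓp B hB σ hσ, map_frobPoly, hrb]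
  have hcp : ∀ g : _root_.Fermat.Agent.S59.Asm.GalQ, LinearMap.charpoly (ρf.ρ g) =
      LinearMap.charpoly ((ρbar.baseChange (AlgebraicClosure k)).ρ g) :=
    Fermat.Agent.S59.Datum.H57.charpoly_eq_of_frob ρf (ρbar.baseChange (AlgebraicClosure k))
      (Sig ∪ M₀.primeFactors ∪ {p}) hcp₀
  have hirrΩ := isAbsolutelyIrreducible_baseChange (AlgebraicClosure k) ρbar habs
  obtain ⟨e⟩ := Fermat.Agent.S59.Datum.H57.isEquiv_of_charpoly_eq ρf
    (ρbar.baseChange (AlgebraicClosure k)) hirrΩ hcp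
  refine ⟨?_, ?_⟩
  · -- `ρbar` is unramified outside `M₀ p`
    intro q hq hqM hqp
    apply isUnramifiedAt_of_baseChange (AlgebraicClosure k) ρbar q
    apply isUnramifiedAt_of_equiv (AlgebraicClosure k) e q
    apply hunr q hq
    intro hdvd
    rcases (Nat.Prime.dvd_mul hq).mp hdvd with h | h
    · exact hqM h
    · exact hqp ((Nat.prime_dvd_prime_iff_eq hq hp).mp h)
  · -- the eigencharacter
    intro S hpS hS
    let ι : k →+* AlgebraicClosure k := algebraMap k (AlgebraicClosure k)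
    have hιinj : Function.Injective ι := ι.injective
    let ψ : heckeAlgebra M₀ 2 (↑S : Set ℕ) →+* AlgebraicClosure k :=
      r.comp (Fermat.Agent.R.H99.eigenChar (↑S : Set ℕ) hf₀)
    -- the value of `ψ` at `T_ℓ` in terms of any Frobenius at `ℓ`
    have hψT : ∀ (ℓ : ℕ) (hℓ : ℓ.Prime) (hℓN : ¬ ℓ ∣ M₀) (hℓS : ℓ ∉ (↑S : Set ℕ)),
        ∀ B : ValuationSubring (AlgebraicClosure ℚ), B.LiesOverPrime ℓ →
        ∀ σ : _root_.Fermat.Agent.S59.Asm.GalQ, B.IsFrobeniusAt σ ℓ →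
          (LinearMap.charpoly (ρbar.ρ σ)).map ι =
            X ^ 2 - C (ψ (heckeAlgebra.T hℓ hℓN hℓS)) * X + C ((ℓ : AlgebraicClosure k)) := by
      intro ℓ hℓ hℓN hℓS B hB σ hσ
      have hℓp : ℓ ≠ p := fun h => hℓS (h ▸ Finset.mem_coe.mpr hpS)
      obtain ⟨a', ha', hcp'⟩ := hatt ℓ hℓ hℓN (hℓΩ ℓ hℓ hℓp) B hB σ hσ
      have hT : Fermat.Agent.R.H99.eigenChar (↑S : Set ℕ) hf₀ (heckeAlgebra.T hℓ hℓN hℓS) = a' := by
        apply Subtype.ext
        rw [Fermat.Agent.R.H99.coe_eigenChar, Fermat.Agent.R.H99.eigenCharC_T, ha']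
      have h1 : ψ (heckeAlgebra.T hℓ hℓN hℓS) = r a' := by
        show r (Fermat.Agent.R.H99.eigenChar (↑S : Set ℕ) hf₀ (heckeAlgebra.T hℓ hℓN hℓS)) = r a'
        rw [hT]
      rw [h1, ← hcp', hcp σ, charpoly_baseChange_ρ]
    -- the values of `ψ` lie in `k`
    have hrange : ∀ T : heckeAlgebra M₀ 2 (↑S : Set ℕ), ψ T ∈ ι.range := by
      rintro ⟨T, hT⟩
      induction hT using Algebra.adjoin_induction with
      | mem x hx =>
        rcases hx with ⟨ℓ, hℓ, hℓN, hℓS, rfl⟩ | ⟨q, hqN, hq, hqS, rfl⟩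
        · obtain ⟨B, σ, hB, hσ⟩ := Fermat.Agent.Lib.FrobExists.exists_place_and_frobenius ℓ hℓ
          have h1 := hψT ℓ hℓ hℓN hℓS B hB σ hσ
          have h2 := congrArg (fun P => P.coeff 1) h1
          simp only [Polynomial.coeff_map] at h2
          rw [coeff_one_frobPoly] at h2
          refine ⟨- (LinearMap.charpoly (ρbar.ρ σ)).coeff 1, ?_⟩
          rw [map_neg, h2, neg_neg]
          rfl
        · exact absurd (Finset.mem_coe.mpr (hS q hq hqN)) hqS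
      | algebraMap c =>
        refine ⟨(c : k), ?_⟩
        rw [map_intCast]
        have : (⟨algebraMap ℤ _ c, Subalgebra.algebraMap_mem _ c⟩ :
            heckeAlgebra M₀ 2 (↑S : Set ℕ)) = ((c : ℤ) : heckeAlgebra M₀ 2 (↑S : Set ℕ)) := by
          apply Subtype.ext
          simp
        rw [this, map_intCast]
      | add x y hx hy ihx ihy =>
        have : (⟨x + y, Subalgebra.add_mem _ hx hy⟩ : heckeAlgebra M₀ 2 (↑S : Set ℕ)) =
            (⟨x, hx⟩ : heckeAlgebra M₀ 2 (↑S : Set ℕ)) + ⟨y, hy⟩ := rfl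
        rw [this, map_add]
        exact ι.range.add_mem ihx ihy
      | mul x y hx hy ihx ihy =>
        have : (⟨x * y, Subalgebra.mul_mem _ hx hy⟩ : heckeAlgebra M₀ 2 (↑S : Set ℕ)) =
            (⟨x, hx⟩ : heckeAlgebra M₀ 2 (↑S : Set ℕ)) * ⟨y, hy⟩ := rfl
        rw [this, map_mul]
        exact ι.range.mul_mem ihx ihy
    let e' : k ≃+* ι.range := RingEquiv.ofBijective ι.rangeRestrict
      ⟨fun x y hxy => hιinj (congrArg Subtype.val hxy), ι.rangeRestrict_surjective⟩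
    let θ : heckeAlgebra M₀ 2 (↑S : Set ℕ) →+* k :=
      (e'.symm : ι.range →+* k).comp (ψ.codRestrict ι.range hrange)
    have hθ : ∀ T, ι (θ T) = ψ T := by
      intro T
      have h1 : e' (θ T) = ψ.codRestrict ι.range hrange T := by
        simp only [θ, RingHom.comp_apply, RingHom.coe_coe, RingEquiv.apply_symm_apply]
      exact congrArg Subtype.val h1
    refine ⟨θ, ?_⟩
    intro ℓ hℓ hℓN hℓS B hB σ hσ
    apply Polynomial.map_injective ι hιinj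
    rw [hψT ℓ hℓ hℓN hℓS B hB σ hσ, ← hθ]
    exact (map_frobPoly (Ω := AlgebraicClosure k) _ ℓ).symm

end Fermat.Agent.S59.Asm.H92

end
-- ==== END Fermat.Agent.S59.Asm.H92_ThetaMinCore

-- ==== BEGIN Fermat.Agent.S59.CaseC.Defs
section

/-!
# S59, package CASE-C (planner helper53): the step at `p` (flat ⟹ ordinary)

Plan: `NOTES/plan/S59_CASEC.md`.  Case C of `NOTES/plan/S59.md`: `ρbar` is flat at `p`, the
representation `ρ` to be proved modular is strictly ordinary and NOT flat at `p` (a semistable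
curve with multiplicative reduction at `p` and `p ∣ v_p(Δ)`: the Frey case).

Method (Wiles, Ch. 2, in Diamond's form): after the induction on `Sig` of RT-NONMIN (flat
condition, level `N_Sig` prime to `p`) ONE more step of the numerical criterion, from the flat
deformation ring at level `N_Sig` to the ORDINARY deformation ring (prelude
`GaloisRep.ordinaryCondition`, Wiles' Selmer condition) at level `N_Sig · p`.

* `condOrd`       : the ordinary deformation condition with auxiliary set `T`.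
* `Stmt_DEFord`   : its universal deformation ring exists.
* `Stmt_ORDT`     : the Hecke–Galois datum at a level prime to `p` is ordinary at `p` when `ρbar`
                    is (points: `S32` + `R.stmt_FlatOrd`; then glue over the reduced ring `T`).
* `Stmt_TAUP`     : the surjection `τ : R^ord → R^fl`.
* `Stmt_KUMP`, `Stmt_FLATEXT`, `Stmt_SELMERp` : the Selmer bound at `p`.
* `NMStepP`, `Stmt_NMGEOM2` : the geometry of the step at `p` (Ihara at `p`, `U_p`, Eichler–Shimura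
                    at `p`), bundled with `NonMin.Stmt_NMGEOM`.
* `Stmt_CPNE`     : the constant `z² - 1` does not vanish at a point.
* `Stmt_STEPP`    : the step.
* `Stmt_MLTc`     : modularity lifting in case C;  `Stmt_GENWIRE` : the final wiring to
                    `Asm.Stmt_MLTgen`.

No `sorry`; definitions only.
-/

set_option autoImplicit false

open Polynomial CuspForm CongruenceSubgroup ModularFormClass IsLocalRing

namespace Fermat.Agent.S59.CaseC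

open Fermat.Agent.S59 Fermat.Agent.S59.Asm Fermat.Agent.S59.NonMin

/-- The Galois group of `ℚ`. -/
local notation "Γℚ" => AlgebraicClosure ℚ ≃ₐ[ℚ] AlgebraicClosure ℚ

/-- The ordinary deformation condition with auxiliary set `T` (compare `S56.condFl`,
`S56.condSO`): determinant cyclotomic, ordinary at `p`, unramified outside `Smin ∪ T`, unipotent
on inertia at the primes of `Smin` different from `p`. -/
def condOrd (𝒪 : Type) [CommRing 𝒪] (p : ℕ) (Smin T : Finset ℕ) :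
    ∀ ⦃A : Type⦄ [CommRing A] [IsLocalRing A] [Algebra 𝒪 A], GaloisRepAdic A → Prop :=
  fun _A _ _ _ ρ => GaloisRep.ordinaryCondition 𝒪 p (Smin ∪ T) ρ ∧
    ∀ q ∈ Smin, q.Prime → q ≠ p → ρ.IsUnipotentOnInertiaAt q

/-- A strictly ordinary representation of type `cond … false` is of type `condOrd`. -/
theorem condOrd_of_condSO {𝒪 : Type} [CommRing 𝒪] {p : ℕ} {Smin T : Finset ℕ}
    {A : Type} [CommRing A] [IsLocalRing A] [Algebra 𝒪 A] {ρ : GaloisRepAdic A}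
    (h : cond 𝒪 p false Smin T ρ) : _root_.Fermat.Agent.S59.CaseC.condOrd 𝒪 p Smin T ρ :=
  ⟨GaloisRep.ordinaryCondition_of_strictOrdinaryCondition h.1, h.2⟩

/-- The data of an ordinary line of `ρ` at the place `P` over `p`, with the unramified character
`z` of the decomposition group on the quotient. -/
structure OrdLine {A : Type} [CommRing A] [IsLocalRing A] (ρ : GaloisRepAdic A)
    (P : ValuationSubring (AlgebraicClosure ℚ)) where
  /-- the line -/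
  L : Submodule A ρ.V
  isLine : ∃ b : Module.Basis (Fin 2) A ρ.V, L = A ∙ b 0
  stable : ∀ σ ∈ P.decompositionSubgroup ℚ, ∀ v ∈ L, ρ.ρ σ v ∈ L
  inertia : ∀ σ ∈ P.inertiaSubgroupIn ℚ, ∀ v : ρ.V, ρ.ρ σ v - v ∈ L

/-- `z` is the eigenvalue of `ρ(g)` on the quotient by the ordinary line. -/
def OrdLine.IsQuotEigen {A : Type} [CommRing A] [IsLocalRing A] {ρ : GaloisRepAdic A}
    {P : ValuationSubring (AlgebraicClosure ℚ)} (ℒ : OrdLine ρ P) (g : Γℚ) (z : A) : Prop :=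
  ∀ v : ρ.V, ρ.ρ g v - z • v ∈ ℒ.L

/-! ## 1. Deformation theory -/

/-- **DEF-ord**: the universal deformation ring of `condOrd` exists (as `H99.stmt_DEF`; the
ordinary line is unique because inertia acts on it by the cyclotomic character `≠ 1`). -/
def Stmt_DEFord : Prop :=
  ∀ (𝒪 : Type) [CommRing 𝒪] [IsDomain 𝒪] [IsDiscreteValuationRing 𝒪]
    [IsAdicComplete (maximalIdeal 𝒪) 𝒪] [Finite (ResidueField 𝒪)]
    (p : ℕ) [Fact p.Prime], p ≠ 2 → (p : 𝒪) ∈ maximalIdeal 𝒪 →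
    ∀ (ρbar : ResidualGaloisRep (ResidueField 𝒪)),
    ρbar.IsAbsolutelyIrreducible →
    ∀ (Smin T : Finset ℕ), p ∈ Smin → (∀ q ∈ Smin ∪ T, q.Prime) →
    _root_.Fermat.Agent.S59.CaseC.condOrd 𝒪 p Smin T (GaloisRepAdic.ofResidualGaloisRep ρbar) →
    Nonempty (GaloisRep.DeformationRingData 𝒪 ρbar (_root_.Fermat.Agent.S59.CaseC.condOrd 𝒪 p Smin T))

/-- **ORD-T**: a Hecke–Galois datum over the full local Hecke ring of a level PRIME TO `p` is
ordinary at `p` if the residual representation is.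
[`S32.result`: `H.ρ` is flat at `p`; every point `T → 𝒪'` (`𝒪'` a complete discrete valuation
ring finite over `𝒪`) is flat (`H99.isFlatAt_baseChangeAlong_of_finite_free`-type closure) hence
ordinary (`S33.stmt_FlatOrd`); `T` is reduced and `𝒪`-free (`R.Pet.H98.stmt_HeckeReduced`), so it
embeds into the product of its points; choose `σ₀` in inertia with `ε(σ₀) ≢ 1`: `V = V₁ ⊕ V_ε`
(Hensel), and `L := V_ε = V ∩ ∏ L_i` is the ordinary line.  Compare `Asm.H7.strictOrd_of`.] -/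
def Stmt_ORDT : Prop :=
  ∀ (𝒪 : Type) [CommRing 𝒪] [IsDomain 𝒪] [IsDiscreteValuationRing 𝒪]
    [IsAdicComplete (maximalIdeal 𝒪) 𝒪] [Finite (ResidueField 𝒪)] [CharZero 𝒪]
    (p : ℕ) [Fact p.Prime], p ≠ 2 → (p : 𝒪) ∈ maximalIdeal 𝒪 →
    ∀ (ρbar : ResidualGaloisRep (ResidueField 𝒪)), ρbar.IsAbsolutelyIrreducible →
    (GaloisRepAdic.ofResidualGaloisRep ρbar).DetIsCyclotomic p →
    (GaloisRepAdic.ofResidualGaloisRep ρbar).IsOrdinaryAt p →
    ∀ (N : ℕ) [NeZero N] [Fact (CuspForm.HasIntegralStructure N 2)] (S : Finset ℕ), p ∈ S →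
    (∀ q : ℕ, q.Prime → q ∣ N → q ∈ S) → ¬ p ∣ N →
    ∀ (θ : CuspForm.heckeAlgebra N 2 (↑S : Set ℕ) →+* ResidueField 𝒪),
    ∀ (H : CuspForm.HeckeGaloisRepDatum N (↑S : Set ℕ) 𝒪 θ
        (CuspForm.heckeLocal N (↑S : Set ℕ) 𝒪 θ)),
    H.π = CuspForm.heckeLocal.π N (↑S : Set ℕ) 𝒪 θ →
    H.ρ.DetIsCyclotomic p →
    H.ρ.residual.IsEquiv (ρbar.baseChangeAlong
      (ResidueField.map (algebraMap 𝒪 (CuspForm.heckeLocal N (↑S : Set ℕ) 𝒪 θ)))) →
    H.ρ.IsOrdinaryAt p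

/-- **TAU-p**: if the universal flat deformation is ordinary, the ordinary deformation ring maps
onto the flat one.  [Universal property of `D'`; surjectivity as in `Asm.H99.stmt_TAU`
(`H99.surjective_of_isEquiv`).] -/
def Stmt_TAUP : Prop :=
  ∀ (𝒪 : Type) [CommRing 𝒪] [IsDomain 𝒪] [IsDiscreteValuationRing 𝒪]
    [IsAdicComplete (maximalIdeal 𝒪) 𝒪] [Finite (ResidueField 𝒪)]
    (p : ℕ) [Fact p.Prime], p ≠ 2 → (p : 𝒪) ∈ maximalIdeal 𝒪 →
    ∀ (ρbar : ResidualGaloisRep (ResidueField 𝒪)) (Smin Sig : Finset ℕ),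
    p ∈ Smin → (∀ q ∈ Smin ∪ Sig, q.Prime) →
    ∀ (D : GaloisRep.DeformationRingData 𝒪 ρbar (cond 𝒪 p true Smin Sig))
      (D' : GaloisRep.DeformationRingData 𝒪 ρbar (_root_.Fermat.Agent.S59.CaseC.condOrd 𝒪 p Smin Sig)),
    D.ρ.IsOrdinaryAt p →
    ∃ τ : D'.R →ₐ[𝒪] D.R, Function.Surjective τ ∧
      ∃ h : IsLocalHom (τ : D'.R →+* D.R),
        (D'.ρ.baseChangeAlong (τ : D'.R →+* D.R) h).IsEquiv D.ρ

/-! ## 2. The Selmer bound at `p` -/

/-- The subgroup `H₀` of the inertia group of `P`: the elements fixing every `w` some `p`-power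
of which is a unit of `P` fixed by inertia (`ℚ̄^{H₀} = E(μ_{p^∞}, U_E^{1/p^∞})`, `E` the inertia
field: the maximal "peu ramifiée" `p`-Kummer extension of `E`). -/
def peuSubgroup (p : ℕ) (P : ValuationSubring (AlgebraicClosure ℚ)) : Subgroup Γℚ where
  carrier := {σ | σ ∈ P.inertiaSubgroupIn ℚ ∧
    ∀ (w : AlgebraicClosure ℚ) (n : ℕ), w ^ p ^ n ∈ P → (w ^ p ^ n)⁻¹ ∈ P →
      (∀ τ ∈ P.inertiaSubgroupIn ℚ, τ (w ^ p ^ n) = w ^ p ^ n) → σ w = w}
  mul_mem' := by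
    rintro a b ⟨ha, ha'⟩ ⟨hb, hb'⟩
    refine ⟨mul_mem ha hb, fun w n h1 h2 h3 => ?_⟩
    rw [AlgEquiv.mul_apply, hb' w n h1 h2 h3, ha' w n h1 h2 h3]
  one_mem' := ⟨one_mem _, fun _ _ _ _ _ => rfl⟩
  inv_mem' := by
    rintro a ⟨ha, ha'⟩
    refine ⟨inv_mem ha, fun w n h1 h2 h3 => ?_⟩
    have := ha' w n h1 h2 h3
    calc a⁻¹ w = a⁻¹ (a w) := by rw [this]
      _ = w := by
        change (a⁻¹ * a) w = w
        rw [inv_mul_cancel]; rfl

/-- **KUM-p** (Kummer theory over the inertia field, `p` odd): let `A` be an abelian group killed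
by `p ^ n` and `b : I_P → A` a cocycle for the cyclotomic action (`b (σ τ) = b σ + a_σ • b τ` when
`σ` acts on `μ_{p^n}` by `ζ ↦ ζ ^ a_σ`), CONTINUOUS (zero on the Galois group of a number
field).  Then on `H₀ = peuSubgroup` the cocycle is a homomorphism
which factors through the Kummer character of `p`: if `h, h₀ ∈ H₀`, `π₀ ^ (p ^ n) = p` and
`h₀ π₀ = ζ π₀` with `ζ` a primitive `p ^ n`-th root of unity, `h π₀ = ζ ^ m π₀`, then
`b h = m • b h₀`.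
[`E_n := E(μ_{p^n})`; `b` restricted to `G_{E_n}` is a homomorphism with
`b (g σ g⁻¹) = a_g • b σ`; Kummer theory over `E_n`: it is given by a subgroup
`W ⊂ E_n^× / (E_n^×)^{p^n}` on which `Gal(E_n / E)` acts trivially; `H^i(Gal(E_n/E), μ_{p^n}) = 0`
(`p` odd: `μ_{p-1} ⊂ Gal` acts without fixed points), so `W` comes from `E^× = p^ℤ × U_E`.] -/
def Stmt_KUMP : Prop :=
  ∀ (p : ℕ) [Fact p.Prime], p ≠ 2 →
  ∀ (P : ValuationSubring (AlgebraicClosure ℚ)), P.LiesOverPrime p →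
  ∀ (A : Type) [AddCommGroup A] (n : ℕ), (∀ x : A, (p ^ n) • x = 0) →
  ∀ (b : Γℚ → A),
    (∃ F : IntermediateField ℚ (AlgebraicClosure ℚ), FiniteDimensional ℚ F ∧
      ∀ σ : Γℚ, (∀ x ∈ F, σ x = x) → b σ = 0) →
    (∀ σ ∈ P.inertiaSubgroupIn ℚ, ∀ τ ∈ P.inertiaSubgroupIn ℚ, ∀ a : ℕ,
      (∀ μ : AlgebraicClosure ℚ, μ ^ p ^ n = 1 → σ μ = μ ^ a) → b (σ * τ) = b σ + a • b τ) →
  ∀ (π₀ ζ : AlgebraicClosure ℚ), π₀ ^ p ^ n = (p : AlgebraicClosure ℚ) →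
    IsPrimitiveRoot ζ (p ^ n) →
  ∀ h₀ ∈ peuSubgroup p P, h₀ π₀ = ζ * π₀ →
  ∀ h ∈ peuSubgroup p P, ∀ m : ℕ, h π₀ = ζ ^ m * π₀ → b h = m • b h₀

/-- **FLAT-EXT**: an ordinary, peu ramifiée Galois module is flat.  Let `ρ` over an artinian local
ring `A` with finite residue field (so `A` is finite) have an ordinary line at EVERY place over
`p`, and let `peuSubgroup p P` act trivially for every `P`.  Then `ρ` is flat at `p`.
[Hopf order by `Lib/HopfOrderLoc` (`Stmt_LocalGen`): coordinates `e_v` (indicator of the class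
`v ∈ V/L`) and `t_ξ (s(v) + l) = ξ(l) · w_{ξ,v}` (`ξ` a character of `L`, `w_{ξ,v}` a `p^n`-th
root of a UNIT of the inertia field: the Kummer class of `σ ↦ ξ(σ s(v) - s(v))` is a unit class
because `H₀` acts trivially); `t_ξ(x + y) = γ_{v,v'} t_ξ(x) t_ξ(y)` with units `γ`.] -/
def Stmt_FLATEXT : Prop :=
  ∀ (p : ℕ) [Fact p.Prime], p ≠ 2 →
  ∀ (A : Type) [CommRing A] [IsLocalRing A] [Finite A] (ρ : GaloisRepAdic A),
    ρ.DetIsCyclotomic p →
    ρ.IsOrdinaryAt p →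
    (∀ P : ValuationSubring (AlgebraicClosure ℚ), P.LiesOverPrime p →
      ∀ h ∈ peuSubgroup p P, ρ.ρ h = 1) →
    ρ.IsFlatAt p

/-- **SELMER-p**: passing from the flat to the ordinary deformation ring lets the cotangent
space at a point `x` grow at most by `#(𝒪 / (x(z)² - 1))`, `z` the eigenvalue of an element `g`
of the decomposition group on the unramified quotient of the universal flat deformation.
[`J₀ ⊂ D'.R` := ideal generated by the coefficients `b(h)`, `h ∈ H₀`, of `D'.ρ(h) = 1 + b(h) E₁₂`.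
(1) `D'.ρ mod J₀` is flat (`Stmt_FLATEXT` at every finite level), so `ker τ ⊂ J₀` (universal
properties).  (2) `Stmt_KUMP`: the image of `J₀` in `Φ' / λⁿ` is cyclic, generated by `b(h₀)`;
Krull: the image `B` of `J₀` in `Φ'` is `𝒪 · b(h₀)`.  (3) conjugation by `g`:
`b(g h₀ g⁻¹) = ε(g) z'(g)⁻² b(h₀)` (matrices) `= ε(g) b(h₀)` (Kummer pairing with `p ∈ ℚ`), so
`(z'(g)² - 1) b(h₀) = 0`; in `Φ'`: `(x(z)² - 1) B = 0`.  (4) `Φ' / (image of ker τ) = Φ`.] -/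
def Stmt_SELMERp : Prop :=
  ∀ (𝒪 : Type) [CommRing 𝒪] [IsDomain 𝒪] [IsDiscreteValuationRing 𝒪]
    [IsAdicComplete (maximalIdeal 𝒪) 𝒪] [Finite (ResidueField 𝒪)]
    (p : ℕ) [Fact p.Prime], p ≠ 2 → (p : 𝒪) ∈ maximalIdeal 𝒪 →
    ∀ (ρbar : ResidualGaloisRep (ResidueField 𝒪)) (Smin Sig : Finset ℕ),
    ρbar.IsAbsolutelyIrreducible → p ∈ Smin → (∀ q' ∈ Smin ∪ Sig, q'.Prime) →
    ∀ (D : GaloisRep.DeformationRingData 𝒪 ρbar (cond 𝒪 p true Smin Sig))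
      (D' : GaloisRep.DeformationRingData 𝒪 ρbar (_root_.Fermat.Agent.S59.CaseC.condOrd 𝒪 p Smin Sig))
      (τ : D'.R →ₐ[𝒪] D.R) (hτ : IsLocalHom (τ : D'.R →+* D.R)),
    (D'.ρ.baseChangeAlong (τ : D'.R →+* D.R) hτ).IsEquiv D.ρ →
    ∀ (x : D.R →ₐ[𝒪] 𝒪) (P : ValuationSubring (AlgebraicClosure ℚ)), P.LiesOverPrime p →
    ∀ (ℒ : OrdLine D.ρ P) (g : Γℚ), g ∈ P.decompositionSubgroup ℚ →
    ∀ z : D.R, ℒ.IsQuotEigen g z → x z ^ 2 - 1 ≠ 0 →
    Finite (RingHom.ker (x : D.R →+* 𝒪)).Cotangent →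
    Finite (RingHom.ker ((x.comp τ : D'.R →ₐ[𝒪] 𝒪) : D'.R →+* 𝒪)).Cotangent ∧
      Nat.card (RingHom.ker ((x.comp τ : D'.R →ₐ[𝒪] 𝒪) : D'.R →+* 𝒪)).Cotangent ≤
        Nat.card (RingHom.ker (x : D.R →+* 𝒪)).Cotangent *
          Nat.card (𝒪 ⧸ Ideal.span {x z ^ 2 - 1})

/-! ## 3. The geometry of the step at `p` -/

/-- The geometric data of the step at `p`: from the state `s` (level `N` prime to `p`) to the
level `N p`; the Hecke algebras are taken away from the SAME set `S ∋ p`.  `c` is the operator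
by which `α' ∘ α` acts (to be `unit · (z² - 1)`). -/
structure NMStepP {𝒪 : Type} [CommRing 𝒪] [IsLocalRing 𝒪] (s : NMState 𝒪) (p : ℕ)
    [NeZero (s.N * p)] (c : Module.End 𝒪 s.M.V) : Type 1 where
  /-- restriction of Hecke operators -/
  rest : CuspForm.heckeAlgebra (s.N * p) 2 (↑s.S : Set ℕ) →+*
    CuspForm.heckeAlgebra s.N 2 (↑s.S : Set ℕ)
  rest_T : ∀ (ℓ : ℕ) (hℓ : ℓ.Prime) (hℓN' : ¬ ℓ ∣ s.N * p)
    (hℓS : ℓ ∉ (↑s.S : Set ℕ)) (hℓN : ¬ ℓ ∣ s.N),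
    rest (CuspForm.heckeAlgebra.T hℓ hℓN' hℓS) = CuspForm.heckeAlgebra.T hℓ hℓN hℓS
  /-- the Hecke module at the level `N p`: the part of the localisation on which `U_p` is
  congruent to the unit root -/
  M' : HMod 𝒪 (s.N * p) (↑s.S : Set ℕ) (s.θ.comp rest)
  /-- the level raising map `x ↦ i₁^* x - i₂^* U⁻¹ x` (`U` = the unit root operator) -/
  α : s.M.V →ₗ[𝒪] M'.V
  /-- its adjoint -/
  α' : M'.V →ₗ[𝒪] s.M.V
  α_η : ∀ (t : CuspForm.heckeAlgebra (s.N * p) 2 (↑s.S : Set ℕ)) (v : s.M.V),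
    α (s.M.η (rest t) v) = M'.η t (α v)
  α'_η : ∀ (t : CuspForm.heckeAlgebra (s.N * p) 2 (↑s.S : Set ℕ)) (w : M'.V),
    α' (M'.η t w) = s.M.η (rest t) (α' w)
  /-- Ihara's lemma at `p`: `α` is injective with saturated image -/
  α_inj : Function.Injective α
  α_sat : ∀ (a : 𝒪) (w : M'.V), a ≠ 0 → a • w ∈ LinearMap.range α → w ∈ LinearMap.range α
  /-- dual Ihara -/
  α'_surj : Function.Surjective α'
  /-- `α' ∘ α = c` -/
  comp : ∀ v : s.M.V, α' (α v) = c v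
  /-- multiplicity one: the eigenspaces do not grow -/
  rank : ∀ (x : CuspForm.heckeAlgebra s.N 2 (↑s.S : Set ℕ) →+* 𝒪),
    (∀ t, residue 𝒪 (x t) = s.θ t) →
    Module.finrank 𝒪 (NMState.eigen ⟨s.N * p, s.S, s.θ.comp rest, M'⟩
      (x.comp rest)) ≤ Module.finrank 𝒪 (s.eigen x)

/-- **NMGEOM2** = `NonMin.Stmt_NMGEOM` with one more clause: at every state `s` of the class `G`
whose level is prime to `p`, for every Hecke–Galois datum `H` over the full local Hecke ring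
acting on `s.M` through `ηhat`, every ordinary line `ℒ` of `H.ρ` at a place `P` over `p`, every
Frobenius element `g` at `P` and its eigenvalue `z` on the unramified quotient, there is an
`NMStepP` with `c = ηhat (t (z² - 1))`, `t` a unit of the Hecke ring.
[Betti: `i₁, i₂ : Γ₀(N p) → Γ₀(N)`; `T_p = i₂_* i₁^*`, `i_j_* i_j^* = p + 1`; LINK (Eichler–Shimura
at `p` on the unramified quotient of the Tate module + `S33.stmt_FlatInf`): `T_p = U + p U⁻¹` on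
`s.M`, `U := ηhat z`; `U_p i₁^* = i₁^* T_p - i₂^*`, `U_p i₂^* = p i₁^*`; `α := i₁^* - i₂^* U⁻¹`
satisfies `U_p α = α U`; `M'` := the part of the localisation at level `N p` where `U_p ≡ z`;
pairing `(x, w_{Np} y)` (all `T_ℓ`, `U_p` self-adjoint), `α' := i₂_* - U⁻¹ i₁_*`,
`α' α = U⁻¹ (U² - 1)(1 - p U⁻²)`; Ihara's lemma for `q = p`.] -/
def Stmt_NMGEOM2 : Prop :=
  ∀ (𝒪 : Type) [CommRing 𝒪] [IsDomain 𝒪] [IsDiscreteValuationRing 𝒪]
    [IsAdicComplete (maximalIdeal 𝒪) 𝒪] [Finite (ResidueField 𝒪)] [CharZero 𝒪]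
    (p : ℕ) [Fact p.Prime], p ≠ 2 → (p : 𝒪) ∈ maximalIdeal 𝒪 →
    ∀ (ρbar : ResidualGaloisRep (ResidueField 𝒪)) (Smin : Finset ℕ), ResHyp p ρbar Smin →
    ∀ (N : ℕ) [NeZero N] [Fact (CuspForm.HasIntegralStructure N 2)],
    (∀ q : ℕ, q.Prime → q ∣ N → q ∈ Smin) → Squarefree N →
    ∀ (θ : CuspForm.heckeAlgebra N 2 (↑Smin : Set ℕ) →+* ResidueField 𝒪),
    Fermat.Agent.S59.Datum.FrobHyp ρbar N Smin θ →
    ∃ (M : HMod 𝒪 N (↑Smin : Set ℕ) θ) (G : NMState 𝒪 → Prop), Nontrivial M.V ∧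
      (∀ (r n : ℕ) (qv : Fin r → ℕ), Fermat.Agent.S56.IsTWFamily ρbar p n Smin qv →
        ∀ [NeZero (twLevel N qv)] [Fact (CuspForm.HasIntegralStructure (twLevel N qv) 2)],
          Nonempty (TWGeom 𝒪 p ρbar N Smin θ M n qv)) ∧
      G ⟨N, Smin, θ, M⟩ ∧
      (∀ s : NMState 𝒪, G s → ∀ (q : ℕ) (hq : q.Prime), q ≠ p → ∀ (hqN : ¬ q ∣ s.N)
        (hqS : q ∉ (↑s.S : Set ℕ)) [NeZero (s.N * q ^ 2)],
        ∃ st : NMStep s hq hqN hqS, G st.next) ∧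
      (∀ s : NMState 𝒪, G s → ¬ p ∣ s.N → p ∈ s.S →
        ∀ [NeZero (s.N * p)] [Fact (CuspForm.HasIntegralStructure s.N 2)]
          (H : CuspForm.HeckeGaloisRepDatum s.N (↑s.S : Set ℕ) 𝒪 s.θ
            (CuspForm.heckeLocal s.N (↑s.S : Set ℕ) 𝒪 s.θ))
          (ηhat : CuspForm.heckeLocal s.N (↑s.S : Set ℕ) 𝒪 s.θ →ₐ[𝒪] Module.End 𝒪 s.M.V),
          H.π = CuspForm.heckeLocal.π s.N (↑s.S : Set ℕ) 𝒪 s.θ →
          (∀ t, ηhat (CuspForm.heckeLocal.π s.N (↑s.S : Set ℕ) 𝒪 s.θ t) = s.M.η t) →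
          H.ρ.DetIsCyclotomic p →
          H.ρ.residual.IsEquiv (ρbar.baseChangeAlong
            (ResidueField.map (algebraMap 𝒪 (CuspForm.heckeLocal s.N (↑s.S : Set ℕ) 𝒪 s.θ)))) →
          ∀ (P : ValuationSubring (AlgebraicClosure ℚ)), P.LiesOverPrime p →
          ∀ (ℒ : OrdLine H.ρ P) (g : Γℚ), P.IsFrobeniusAt g p →
          ∀ z : CuspForm.heckeLocal s.N (↑s.S : Set ℕ) 𝒪 s.θ, ℒ.IsQuotEigen g z →
          ∃ t : CuspForm.heckeLocal s.N (↑s.S : Set ℕ) 𝒪 s.θ, IsUnit t ∧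
            Nonempty (NMStepP s p (ηhat (t * (z ^ 2 - 1)))))

/-- `NMGEOM2` contains `NMGEOM`. -/
theorem nmgeom_of_nmgeom2 (h : Stmt_NMGEOM2) : Stmt_NMGEOM := by
  intro 𝒪 _ _ _ _ _ _ p _ hp2 hp𝒪 ρbar Smin hyp N _ _ hN hsq θ hθ
  obtain ⟨M, G, h1, h2, h3, h4, -⟩ := h 𝒪 p hp2 hp𝒪 ρbar Smin hyp N hN hsq θ hθ
  exact ⟨M, G, h1, h2, h3, h4⟩

/-- **CP-NE**: the constant of the step at `p` does not vanish at a characteristic zero point:
the eigenvalue of a Frobenius element at `p` on the unramified quotient is not `± 1`.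
[LINK at the point: `a_p(f) = u + p / u`; `u = ± 1` would give `a_p(f) = ± (p + 1)`, against
`|a_p(f)| < p + 1` (`NonMin.Stmt_CQNE` for the Hecke algebra away from `S ∖ {p}`).] -/
def Stmt_CPNE : Prop :=
  ∀ (𝒪 : Type) [CommRing 𝒪] [IsDomain 𝒪] [IsDiscreteValuationRing 𝒪]
    [IsAdicComplete (maximalIdeal 𝒪) 𝒪] [Finite (ResidueField 𝒪)] [CharZero 𝒪]
    (p : ℕ) [Fact p.Prime], p ≠ 2 → (p : 𝒪) ∈ maximalIdeal 𝒪 →
    ∀ (N : ℕ) [NeZero N] [Fact (CuspForm.HasIntegralStructure N 2)] (S : Finset ℕ), p ∈ S →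
    (∀ q : ℕ, q.Prime → q ∣ N → q ∈ S) → ¬ p ∣ N →
    ∀ (θ : CuspForm.heckeAlgebra N 2 (↑S : Set ℕ) →+* ResidueField 𝒪)
      (H : CuspForm.HeckeGaloisRepDatum N (↑S : Set ℕ) 𝒪 θ
        (CuspForm.heckeLocal N (↑S : Set ℕ) 𝒪 θ)),
    H.π = CuspForm.heckeLocal.π N (↑S : Set ℕ) 𝒪 θ →
    H.ρ.DetIsCyclotomic p → H.ρ.residual.IsAbsolutelyIrreducible →
    ∀ (P : ValuationSubring (AlgebraicClosure ℚ)), P.LiesOverPrime p →
    ∀ (ℒ : OrdLine H.ρ P) (g : Γℚ), P.IsFrobeniusAt g p →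
    ∀ z : CuspForm.heckeLocal N (↑S : Set ℕ) 𝒪 θ, ℒ.IsQuotEigen g z →
    ∀ πx : CuspForm.heckeLocal N (↑S : Set ℕ) 𝒪 θ →ₐ[𝒪] 𝒪, πx z ^ 2 - 1 ≠ 0

/-! ## 4. The step and the target -/

/-- The frozen type of S33 (row 32), as a hypothesis for the wiring. -/
def Stmt_S33 : Prop :=
  ∀ {p : ℕ} {N : ℕ} [NeZero N] {S : Finset ℕ}
    {𝒪 : Type} [CommRing 𝒪] [IsDomain 𝒪] [IsDiscreteValuationRing 𝒪]
    [IsAdicComplete (IsLocalRing.maximalIdeal 𝒪) 𝒪]
    {θ : CuspForm.heckeAlgebra N 2 (↑S : Set ℕ) →+* IsLocalRing.ResidueField 𝒪}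
    {T : Type} [CommRing T] [IsLocalRing T] [IsNoetherianRing T]
    [IsAdicComplete (IsLocalRing.maximalIdeal T) T] [Algebra 𝒪 T] [IsLocalHom (algebraMap 𝒪 T)]
    [Module.Finite 𝒪 T] [Module.Free 𝒪 T]
    [Finite (IsLocalRing.ResidueField 𝒪)] [CharZero 𝒪]
    (_hp : p.Prime) (_hp2 : p ≠ 2) (_hp𝒪 : (p : 𝒪) ∈ IsLocalRing.maximalIdeal 𝒪)
    (_hN : p ∣ N ∧ ¬ p ^ 2 ∣ N)
    (_hNS : ∀ q : ℕ, q.Prime → q ∣ N → q ∈ S)
    (H : CuspForm.HeckeGaloisRepDatum N (↑S : Set ℕ) 𝒪 θ T)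
    (_hres : (GaloisRepAdic.ofResidualGaloisRep H.ρ.residual).IsOrdinaryAt p),
    H.ρ.IsOrdinaryAt p


/-- **STEP-p**: from `R = T` at a state of level prime to `p` (flat condition) to modularity of
every ORDINARY lift.
[As `NonMin.Stmt_STEP` (plan §3 of `S59_NONMIN.md`) with `D'` from `Stmt_DEFord`, the datum `H'`
at level `N p` (`Datum.stmt_DATUM`), `condOrd … H'.ρ` from `S31.result`, `S34.result`,
`S33.result`; `φ'` from `S54.result`; `τ` from `Stmt_ORDT` + `Stmt_TAUP` (`D.ρ` is ordinary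
because `φ` is bijective and `H.ρ` is ordinary); `z ∈ T`, `z_D := φ⁻¹ z`; the Selmer bound
`Stmt_SELMERp`; the growth `NumCrit.H90.card_omega_growth` with `c := t (z² - 1)`;
`NumCrit.nc1_diamond`; finally `eigenform_of_RT`.] -/
def Stmt_STEPP : Prop :=
  ∀ (𝒪 : Type) [CommRing 𝒪] [IsDomain 𝒪] [IsDiscreteValuationRing 𝒪]
    [IsAdicComplete (maximalIdeal 𝒪) 𝒪] [Finite (ResidueField 𝒪)] [CharZero 𝒪]
    (p : ℕ) [Fact p.Prime], p ≠ 2 → (p : 𝒪) ∈ maximalIdeal 𝒪 →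
    ∀ (ρbar : ResidualGaloisRep (ResidueField 𝒪)) (Smin : Finset ℕ),
    ResHyp p ρbar Smin →
    cond 𝒪 p true Smin ∅ (GaloisRepAdic.ofResidualGaloisRep ρbar) →
    (GaloisRepAdic.ofResidualGaloisRep ρbar).IsOrdinaryAt p →
    ∀ (Sig : Finset ℕ) (s : NMState 𝒪) [Fact (CuspForm.HasIntegralStructure s.N 2)],
    LevelHyp 𝒪 p true Smin Sig s →
    Fermat.Agent.S59.Datum.FrobHyp ρbar s.N s.S s.θ →
    ∀ (x : CuspForm.heckeAlgebra s.N 2 (↑s.S : Set ℕ) →+* 𝒪),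
    (∀ t, residue 𝒪 (x t) = s.θ t) →
    ∀ (d : ℕ), 0 < d → RTProp 𝒪 p true ρbar Smin Sig s x d →
    ∀ [NeZero (s.N * p)] [Fact (CuspForm.HasIntegralStructure (s.N * p) 2)],
    (∀ (H : CuspForm.HeckeGaloisRepDatum s.N (↑s.S : Set ℕ) 𝒪 s.θ
          (CuspForm.heckeLocal s.N (↑s.S : Set ℕ) 𝒪 s.θ))
        (ηhat : CuspForm.heckeLocal s.N (↑s.S : Set ℕ) 𝒪 s.θ →ₐ[𝒪] Module.End 𝒪 s.M.V),
        H.π = CuspForm.heckeLocal.π s.N (↑s.S : Set ℕ) 𝒪 s.θ →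
        (∀ t, ηhat (CuspForm.heckeLocal.π s.N (↑s.S : Set ℕ) 𝒪 s.θ t) = s.M.η t) →
        H.ρ.DetIsCyclotomic p →
        H.ρ.residual.IsEquiv (ρbar.baseChangeAlong
          (ResidueField.map (algebraMap 𝒪 (CuspForm.heckeLocal s.N (↑s.S : Set ℕ) 𝒪 s.θ)))) →
        ∀ (P : ValuationSubring (AlgebraicClosure ℚ)), P.LiesOverPrime p →
        ∀ (ℒ : OrdLine H.ρ P) (g : Γℚ), P.IsFrobeniusAt g p →
        ∀ z : CuspForm.heckeLocal s.N (↑s.S : Set ℕ) 𝒪 s.θ, ℒ.IsQuotEigen g z →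
        ∃ t : CuspForm.heckeLocal s.N (↑s.S : Set ℕ) 𝒪 s.θ, IsUnit t ∧
          Nonempty (NMStepP s p (ηhat (t * (z ^ 2 - 1))))) →
    ∀ (ρ : GaloisRepAdic 𝒪), _root_.Fermat.Agent.S59.CaseC.condOrd 𝒪 p Smin Sig ρ →
    ρ.residual.IsEquiv (ρbar.baseChangeAlong (ResidueField.map (algebraMap 𝒪 𝒪))) →
    ∀ (a : ℕ → ℤ),
    (∀ ℓ : ℕ, ℓ.Prime → ℓ ∉ Smin ∪ Sig →
      ∀ A : ValuationSubring (AlgebraicClosure ℚ), A.LiesOverPrime ℓ →
        ∀ σ : Γℚ, A.IsFrobeniusAt σ ℓ →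
          LinearMap.charpoly (ρ.ρ σ) = X ^ 2 - C (((a ℓ : ℤ) : 𝒪)) * X + C ((ℓ : 𝒪))) →
    ∃ g : CuspForm (Gamma0 (s.N * p)) 2, g.IsNormalizedEigenform ∧
      ∀ ℓ : ℕ, ℓ.Prime → ¬ ℓ ∣ s.N * p → ℓ ∉ Smin ∪ Sig → qCoeff ⇑g ℓ = (a ℓ : ℂ)

/-- The wiring of the step at `p` from its leaves (`Datum.stmt_DATUM`, `S31.result`,
`S34.result`, `S54.result`, `Asm.H85.stmt_LOCMOD`, `Asm.H85.stmt_RESLOC`, `Asm.H57.stmt_COMPAT`,
`NonMin.H92.stmt_ETANE`, `NonMin.H92.stmt_PRES`, `NumCrit.nc1_diamond`,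
`NumCrit.H90.card_omega_growth` are landed theorems). -/
def Stmt_STEPPWIRE : Prop :=
  Stmt_S33 → _root_.Fermat.Agent.S59.CaseC.Stmt_DEFord → Stmt_ORDT → Stmt_TAUP → _root_.Fermat.Agent.S59.CaseC.Stmt_SELMERp → Stmt_CPNE → Stmt_STEPP

/-- **RT-ALL**: the output of the induction of RT-NONMIN, as a statement about states: for every
`Sig` there is a state of the class `G` with `LevelHyp` and `RTProp` (the proof of
`NonMin.Stmt_MLTnm` passes through it). -/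
def Stmt_RTALL : Prop :=
  ∀ (𝒪 : Type) [CommRing 𝒪] [IsDomain 𝒪] [IsDiscreteValuationRing 𝒪]
    [IsAdicComplete (maximalIdeal 𝒪) 𝒪] [Finite (ResidueField 𝒪)] [CharZero 𝒪]
    (p : ℕ) [Fact p.Prime], p ≠ 2 → (p : 𝒪) ∈ maximalIdeal 𝒪 →
    ∀ (fl : Bool) (ρbar : ResidualGaloisRep (ResidueField 𝒪)) (Smin : Finset ℕ),
    ResHyp p ρbar Smin →
    cond 𝒪 p fl Smin ∅ (GaloisRepAdic.ofResidualGaloisRep ρbar) →
    (fl = false → ¬ (GaloisRepAdic.ofResidualGaloisRep ρbar).IsFlatAt p) →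
    ∀ (N : ℕ) [NeZero N], N = minLevel p fl Smin →
    ∀ (θ : CuspForm.heckeAlgebra N 2 (↑Smin : Set ℕ) →+* ResidueField 𝒪),
    Fermat.Agent.S59.Datum.FrobHyp ρbar N Smin θ →
    ∀ (x₀ : CuspForm.heckeAlgebra N 2 (↑Smin : Set ℕ) →+* 𝒪),
    (∀ t, residue 𝒪 (x₀ t) = θ t) →
    ∀ (G : NMState 𝒪 → Prop) (M : HMod 𝒪 N (↑Smin : Set ℕ) θ), Nontrivial M.V →
      (∀ (r n : ℕ) (qv : Fin r → ℕ), Fermat.Agent.S56.IsTWFamily ρbar p n Smin qv →
        ∀ [NeZero (twLevel N qv)] [Fact (CuspForm.HasIntegralStructure (twLevel N qv) 2)],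
          Nonempty (TWGeom 𝒪 p ρbar N Smin θ M n qv)) →
      G ⟨N, Smin, θ, M⟩ →
      (∀ s : NMState 𝒪, G s → ∀ (q : ℕ) (hq : q.Prime), q ≠ p → ∀ (hqN : ¬ q ∣ s.N)
        (hqS : q ∉ (↑s.S : Set ℕ)) [NeZero (s.N * q ^ 2)],
        ∃ st : NMStep s hq hqN hqS, G st.next) →
    ∀ (Sig : Finset ℕ), (∀ q ∈ Sig, q.Prime ∧ q ∉ Smin) →
    ∃ (s : NMState 𝒪) (_ : Fact (CuspForm.HasIntegralStructure s.N 2))
      (x : CuspForm.heckeAlgebra s.N 2 (↑s.S : Set ℕ) →+* 𝒪) (d : ℕ),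
      G s ∧ LevelHyp 𝒪 p fl Smin Sig s ∧
      Fermat.Agent.S59.Datum.FrobHyp ρbar s.N s.S s.θ ∧
      (∀ t, residue 𝒪 (x t) = s.θ t) ∧ 0 < d ∧ RTProp 𝒪 p fl ρbar Smin Sig s x d

/-- **Modularity lifting, case C** (with a point `x₀` of the minimal Hecke ring, as in
`NonMin.Stmt_MLTnm`): `ρbar` flat and ordinary, `ρ` ordinary. -/
def Stmt_MLTc : Prop :=
  ∀ (𝒪 : Type) [CommRing 𝒪] [IsDomain 𝒪] [IsDiscreteValuationRing 𝒪]
    [IsAdicComplete (maximalIdeal 𝒪) 𝒪] [Finite (ResidueField 𝒪)] [CharZero 𝒪]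
    (p : ℕ) [Fact p.Prime], p ≠ 2 → (p : 𝒪) ∈ maximalIdeal 𝒪 →
    ∀ (ρbar : ResidualGaloisRep (ResidueField 𝒪)) (Smin : Finset ℕ),
    ResHyp p ρbar Smin →
    cond 𝒪 p true Smin ∅ (GaloisRepAdic.ofResidualGaloisRep ρbar) →
    (GaloisRepAdic.ofResidualGaloisRep ρbar).IsOrdinaryAt p →
    ∀ (N : ℕ) [NeZero N], N = minLevel p true Smin →
    ∀ (θ : CuspForm.heckeAlgebra N 2 (↑Smin : Set ℕ) →+* ResidueField 𝒪),
    Fermat.Agent.S59.Datum.FrobHyp ρbar N Smin θ →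
    ∀ (x₀ : CuspForm.heckeAlgebra N 2 (↑Smin : Set ℕ) →+* 𝒪),
    (∀ t, residue 𝒪 (x₀ t) = θ t) →
    ∀ (Sig : Finset ℕ), (∀ q ∈ Sig, q.Prime ∧ q ∉ Smin) →
    ∀ (ρ : GaloisRepAdic 𝒪), _root_.Fermat.Agent.S59.CaseC.condOrd 𝒪 p Smin Sig ρ →
    ρ.residual.IsEquiv (ρbar.baseChangeAlong (ResidueField.map (algebraMap 𝒪 𝒪))) →
    ∀ (a : ℕ → ℤ),
    (∀ ℓ : ℕ, ℓ.Prime → ℓ ∉ Smin ∪ Sig →
      ∀ A : ValuationSubring (AlgebraicClosure ℚ), A.LiesOverPrime ℓ →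
        ∀ σ : Γℚ, A.IsFrobeniusAt σ ℓ →
          LinearMap.charpoly (ρ.ρ σ) = X ^ 2 - C (((a ℓ : ℤ) : 𝒪)) * X + C ((ℓ : 𝒪))) →
    ∃ N' : ℕ, ¬ p ^ 2 ∣ N' ∧ (∀ q : ℕ, q.Prime → ¬ q ^ 3 ∣ N') ∧
      ∃ g : CuspForm (Gamma0 N') 2, g.IsNormalizedEigenform ∧
        ∀ ℓ : ℕ, ℓ.Prime → ¬ ℓ ∣ N' → ℓ ∉ Smin ∪ Sig → qCoeff ⇑g ℓ = (a ℓ : ℂ)

/-- Wiring of case C: geometry + the induction of RT-NONMIN + the step at `p`. -/
def Stmt_CWIRE : Prop :=
  Stmt_NMGEOM2 → Stmt_RTALL → Stmt_STEPP → Stmt_MLTc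

/-- **AUG**: a characteristic zero point of the minimal Hecke ring exists after a finite
extension of the coefficient ring, and all hypotheses of `Asm.Stmt_MLTgen` survive the extension
(`NOTES/plan/S59_NONMIN.md` §9; as `S59/H99_Split.lean`).  Stated as the reduction of
`Asm.Stmt_MLTgen` to its version with a point `x₀`. -/
def Stmt_MLTgenPt : Prop :=
  ∀ (𝒪 : Type) [CommRing 𝒪] [IsDomain 𝒪] [IsDiscreteValuationRing 𝒪]
    [IsAdicComplete (maximalIdeal 𝒪) 𝒪] [Finite (ResidueField 𝒪)] [CharZero 𝒪]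
    (p : ℕ) [Fact p.Prime], p ≠ 2 → (p : 𝒪) ∈ maximalIdeal 𝒪 →
    ∀ (fl : Bool) (ρbar : ResidualGaloisRep (ResidueField 𝒪)) (Smin : Finset ℕ),
    ResHyp p ρbar Smin →
    cond 𝒪 p fl Smin ∅ (GaloisRepAdic.ofResidualGaloisRep ρbar) →
    (fl = false → ¬ (GaloisRepAdic.ofResidualGaloisRep ρbar).IsFlatAt p) →
    ∀ (N : ℕ) [NeZero N], N = minLevel p fl Smin →
    ∀ (θ : CuspForm.heckeAlgebra N 2 (↑Smin : Set ℕ) →+* ResidueField 𝒪),
    Fermat.Agent.S59.Datum.FrobHyp ρbar N Smin θ →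
    ∀ (x₀ : CuspForm.heckeAlgebra N 2 (↑Smin : Set ℕ) →+* 𝒪),
    (∀ t, residue 𝒪 (x₀ t) = θ t) →
    ∀ (Sig : Finset ℕ), (∀ q ∈ Sig, q.Prime ∧ q ∉ Smin) →
    ∀ (ρ : GaloisRepAdic 𝒪), ρ.DetIsCyclotomic p →
    (∀ q : ℕ, q.Prime → q ∉ Smin → q ∉ Sig → ρ.IsUnramifiedAt q) →
    (∀ q ∈ Smin, q ≠ p → ρ.IsUnipotentOnInertiaAt q) →
    (∀ q ∈ Sig, ρ.IsUnipotentOnInertiaAt q) →
    (ρ.IsFlatAt p ∨ ρ.IsStrictOrdinaryAt p) →
    ρ.residual.IsEquiv (ρbar.baseChangeAlong (ResidueField.map (algebraMap 𝒪 𝒪))) →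
    ∀ (a : ℕ → ℤ),
    (∀ ℓ : ℕ, ℓ.Prime → ℓ ∉ Smin → ℓ ∉ Sig →
      ∀ A : ValuationSubring (AlgebraicClosure ℚ), A.LiesOverPrime ℓ →
        ∀ σ : Γℚ, A.IsFrobeniusAt σ ℓ →
          LinearMap.charpoly (ρ.ρ σ) = X ^ 2 - C (((a ℓ : ℤ) : 𝒪)) * X + C ((ℓ : 𝒪))) →
    ∃ N' : ℕ, ¬ p ^ 2 ∣ N' ∧ (∀ q : ℕ, q.Prime → ¬ q ^ 3 ∣ N') ∧
      ∃ g : CuspForm (Gamma0 N') 2, g.IsNormalizedEigenform ∧
        ∀ ℓ : ℕ, ℓ.Prime → ℓ ∉ Smin → ℓ ∉ Sig → ¬ ℓ ∣ N' → qCoeff ⇑g ℓ = (a ℓ : ℂ)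

/-- Wiring: the three cases.  [`ρ` flat: then `fl = true` (else `ρbar` would be flat:
`Datum.H78.stmt_FlatDesc`) and `NonMin.Stmt_MLTnm`; `ρ` strictly ordinary and `fl = false`:
`NonMin.Stmt_MLTnm`; `ρ` strictly ordinary and `fl = true`: `ρbar` is ordinary (reduction) and
`Stmt_MLTc` with `condOrd_of_condSO`.] -/
def Stmt_GENPTWIRE : Prop :=
  Fermat.Agent.S59.NonMin.Stmt_MLTnm → Stmt_MLTc → Stmt_MLTgenPt

/-- Wiring: AUG. -/
def Stmt_AUGWIRE : Prop :=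
  Stmt_MLTgenPt → Fermat.Agent.S59.Asm.Stmt_MLTgen

end Fermat.Agent.S59.CaseC

end
-- ==== END Fermat.Agent.S59.CaseC.Defs
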