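-- GENERATED (merged mirror, NOTES/tools/trim/merge3_helper67.py): 5 modules of the originals, bodies verbatim.
import Fermat.Agent.Zm.S43_L14_000
import Fermat.Agent.Zm.S43_L14_002
import Fermat.Agent.Zm.S43_L12_001
import Fermat.Agent.Zm.S43_L10_000
import Fermat.Agent.Zm.S43_L11_000

-- ==== BEGIN Fermat.Agent.L.Pivot.Geom.AsmPV
section

/-!
# PIVOT, package PV-GEOM, Part I (design (C)): the field statements on `W'` (helper19)

Mirror of the second half of `NEB/Geom/AsmDefs.lean` and of the leaves of `NEB/Geom/AsmTop.lean`.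

For `Dm : MinSetup 𝒪 ϖ p N1 S θ` (helper84's level-`N1` setup) and
`D : PvSetup 𝒪 ϖ p N1 S θ ρbar eP n qP qv` (`DefsPV.lean`):

* `Stmt_P_gal D`      : continuity / commutation of the twisted Galois action, the diamonds;
* `Stmt_P_es D`       : Eichler–Shimura on `W'` (level `pvLevel`);
* `Stmt_P_hstepC D`   : norm surjectivity along the PIVOT tower on `W'[ϖ]`;
* `Stmt_P_hstepD D`   : norm surjectivity along the Taylor–Wiles tower on `(W'[ϖ])^{Δ_Σ}`;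
* `Stmt_P_pi Dm D`    : `π : W' → MD.W`, `πup : MD.W → W'`, `πup ∘ π = Nm_{Δ_Q} ∘ Nm_{Δ_Σ}`, INV for `Δ'`;
* `Stmt_P_frob_nil D` : `(F - a)(F - a')` nilpotent on `W'[ϖ]` at the Taylor–Wiles primes;
* `Stmt_P_lg D`       : local–global compatibility at the Taylor–Wiles primes on `W'`;
* `PvStd`             : the standing hypotheses of `Stmt_PVDIV` (with `5 ≤ p` or an aux prime);
* `Stmt_P_GAL`, `Stmt_P_ES`, `Stmt_P_HSTEPC`, `Stmt_P_HSTEPD`, `Stmt_P_PI`, `Stmt_P_FROBNIL`,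
  `Stmt_P_LG` : the leaves, universally quantified.

Statements only; no `sorry`.
-/

set_option autoImplicit false
set_option linter.unusedSectionVars false
set_option linter.style.haveILetI false
set_option linter.unusedVariables false

noncomputable section

open ModularCurve AlgebraicCurve IsLocalRing TensorProduct Polynomial

namespace Fermat.Agent.L.Pivot.Geom

open Fermat.Agent.NEB Fermat.Agent.NEB.JH Fermat.Agent.NEB.Geom Fermat.Agent.S59.Lim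
  Fermat.Agent.S59.Lim.H2 Fermat.Agent.S59.Asm

/-! ## The fields on `W'` as leaves -/

section Fields

variable {𝒪 : Type} [CommRing 𝒪] [IsDomain 𝒪] [IsDiscreteValuationRing 𝒪]
  {ϖ : 𝒪} {p : ℕ} {N1 : ℕ} [NeZero N1] {S : Finset ℕ}
  {θ : CuspForm.heckeAlgebra N1 2 (↑S : Set ℕ) →+* ResidueField 𝒪}
  {ρbar : ResidualGaloisRep (ResidueField 𝒪)} {k : ℕ} {eP : Fin k → ℕ} {n : ℕ}
  {qP : Fin k → ℕ} {r : ℕ} {qv : Fin r → ℕ}
  [NeZero (N1 * twC qv)] [NeZero (pvC qP qv)] [NeZero (twLevel N1 qv)]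
  [NeZero (pvLevel N1 qP qv)]
  (Dm : MinSetup 𝒪 ϖ p N1 S θ) (D : PvSetup 𝒪 ϖ p N1 S θ ρbar eP n qP qv)

/-- **P-GAL**: continuity and commutation of the twisted Galois action on `W'`; the diamond
operators (all of them: `D.dia u`, in particular `D.c j` and `D.d i`). -/
def Stmt_P_gal : Prop :=
  (∀ x : D.WD.W, ∃ L : IntermediateField ℚ Kbar, FiniteDimensional ℚ L ∧
    ∀ σ : GalK, (∀ y ∈ L, σ y = y) → D.gal σ x = x) ∧
  (∀ (g : GalK) (t : CuspForm.heckeAlgebra (pvLevel N1 qP qv) 2 (↑(twSet S qv) : Set ℕ)),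
    Commute (D.gal g) (D.WD.η t)) ∧
  (∀ j, D.c j ^ (p ^ eP j) = 1) ∧
  (∀ i, D.d i ^ (p ^ n) = 1) ∧
  (∀ u v : (ZMod (pvC qP qv))ˣ, Commute (D.dia u) (D.dia v)) ∧
  (∀ (u : (ZMod (pvC qP qv))ˣ)
    (t : CuspForm.heckeAlgebra (pvLevel N1 qP qv) 2 (↑(twSet S qv) : Set ℕ)),
    Commute (D.dia u) (D.WD.η t)) ∧
  (∀ (u : (ZMod (pvC qP qv))ˣ) (g : GalK), Commute (D.dia u) (D.gal g))

/-- **P-ES**: Eichler–Shimura on `W'`. -/
def Stmt_P_es : Prop :=
  ∀ (ℓ : ℕ) (hℓ : ℓ.Prime) (hℓN : ¬ ℓ ∣ pvLevel N1 qP qv)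
    (hℓS : ℓ ∉ (↑(twSet S qv) : Set ℕ)),
    ∀ A : ValuationSubring Kbar, A.LiesOverPrime ℓ →
      ∀ σ : GalK, A.IsFrobeniusAt σ ℓ →
        D.gal σ * D.gal σ - D.WD.η (CuspForm.heckeAlgebra.T hℓ hℓN hℓS) * D.gal σ
          + (ℓ : 𝒪) • (1 : Module.End 𝒪 D.WD.W) = 0

/-- **P-HSTEP (C)**: norm surjectivity along the tower of the pivot primes, on `W'[ϖ]`
(the field `hstep` of `PVDiv`). -/
def Stmt_P_hstepC : Prop :=
  ∀ (j : Fin k) (v : D.WD.W), ϖ • v = 0 → (∀ i, i ≤ j → D.c i v = v) →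
    ∃ w : D.WD.W, ϖ • w = 0 ∧ (∀ i, i < j → D.c i w = w) ∧
      Fermat.Agent.S59.TWH.H90.nm (p ^ eP j) (D.c j) w = v

/-- **P-HSTEP (D)**: norm surjectivity along the tower of the Taylor–Wiles primes, on the
`Δ_Σ`-invariants of `W'[ϖ]` (the tower continues: pivots first, then Taylor–Wiles primes). -/
def Stmt_P_hstepD : Prop :=
  ∀ (i : Fin r) (v : D.WD.W), ϖ • v = 0 → (∀ j, D.c j v = v) → (∀ i', i' ≤ i → D.d i' v = v) →
    ∃ w : D.WD.W, ϖ • w = 0 ∧ (∀ j, D.c j w = w) ∧ (∀ i', i' < i → D.d i' w = w) ∧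
      Fermat.Agent.S59.TWH.H90.nm (p ^ n) (D.d i) w = v

/-- **P-PI**: the maps `π : W' → MD.W`, `πup : MD.W → W'` (through `Y'`, level `Γ₀(M1)`, and
helper14's `ω`), with `πup ∘ π = Nm_{Δ_Q} ∘ Nm_{Δ_Σ}`, (INV) for the whole of `Δ'` on `W'[ϖ]`,
Hecke-equivariance of `π`, and Galois equivariance of `πup` for the untwisted action. -/
def Stmt_P_pi : Prop :=
  ∃ (π : D.WD.W →ₗ[𝒪] Dm.MD.W) (πup : Dm.MD.W →ₗ[𝒪] D.WD.W),
    Function.Injective πup ∧
    (∀ x : D.WD.W, πup (π x) = Fermat.Agent.S59.TWH.H90.nmTot (p ^ n) D.d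
      (H59.nmTotE (fun j => p ^ eP j) D.c x)) ∧
    (∀ (u : (ZMod (pvC qP qv))ˣ) (y : Dm.MD.W), D.dia u (πup y) = πup y) ∧
    (∀ v : D.WD.W, ϖ • v = 0 → (∀ j, D.c j v = v) → (∀ i, D.d i v = v) →
      ∃ y : Dm.MD.W, πup y = v) ∧
    (∀ (t : CuspForm.heckeAlgebra (pvLevel N1 qP qv) 2 (↑(twSet S qv) : Set ℕ)) (v : D.WD.W),
      π (D.WD.η t v) = Dm.MD.η (Fermat.Agent.S59.Asm.H41.restTW N1 S qv D.hPV.prime
        (H4.restPV N1 S qP qv D.hPV.dvdP t)) (π v)) ∧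
    (∀ (σ : GalK) (y : Dm.MD.W),
      D.val (πup (Dm.gal σ y))
        = (galZ (N1 * twC qv) (pvC qP qv) (pvH qP qv p eP n) p σ).baseChange 𝒪
            (D.val (πup y)))

/-- **P-FROBNIL**: `(F - a)(F - a')` is nilpotent on `W'[ϖ]`, `F = gal (frob i)`. -/
def Stmt_P_frob_nil : Prop :=
  ∀ (i : Fin r) (x : D.WD.W), ϖ • x = 0 → ∃ m : ℕ,
    (((D.gal (D.frob i) - D.a i • (1 : Module.End 𝒪 D.WD.W)) *
      (D.gal (D.frob i) - D.a' i • (1 : Module.End 𝒪 D.WD.W))) ^ m) x = 0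

/-- **P-LG**: the inertia element `σ_i` acts on the generalised `a_i`-eigenspace of `frob_i`
as `d_i`, on `W'`. -/
def Stmt_P_lg : Prop :=
  ∀ (i : Fin r) (x : D.WD.W),
    x ∈ gk (D.gal (D.frob i) - D.a i • (1 : Module.End 𝒪 D.WD.W)) →
    D.gal (D.σ i) x = D.d i x

end Fields

/-! ## The standing hypotheses and the universally quantified leaves -/

/-- The standing hypotheses of `Stmt_PVDIV` (with a chosen uniformiser and `5 ≤ p` or an
auxiliary prime `r ≡ 2 mod 3` dividing `N1`). -/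
structure PvStd (𝒪 : Type) [CommRing 𝒪] [IsLocalRing 𝒪] (ϖ : 𝒪) (p : ℕ) (N1 : ℕ) [NeZero N1]
    (S Smin : Finset ℕ) (θ : CuspForm.heckeAlgebra N1 2 (↑S : Set ℕ) →+* ResidueField 𝒪)
    (ρbar : ResidualGaloisRep (ResidueField 𝒪)) {k : ℕ} (Pv : PivotPrimes k) (eP : Fin k → ℕ) :
    Prop where
  hϖ : Irreducible ϖ
  /-- `5 ≤ p`, or an auxiliary prime `r ≡ 2 mod 3` in the level (`UnrCond` at the pivot primes) -/
  hU : 5 ≤ p ∨ ∃ r : ℕ, r.Prime ∧ r ∣ N1 ∧ r % 3 = 2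
  hyp : Fermat.Agent.S56.Hyp 𝒪 p ρbar S Smin
  hNS : ∀ q : ℕ, q.Prime → q ∣ N1 → q ∈ S
  hsq : Squarefree N1
  hfrob : Fermat.Agent.S59.Datum.FrobHyp ρbar N1 S θ
  hint : CuspForm.HasIntegralStructure N1 2
  hex : Pv.IsExceptional p ρbar
  hdvd : ∀ j, Pv.q j ∣ N1
  heP : ∀ j, p ^ eP j ∣ Pv.q j - 1 ∧ ¬ p ^ (eP j + 1) ∣ Pv.q j - 1

/-- **P-GAL** (universally quantified). -/
def Stmt_P_GAL : Prop :=
  ∀ (𝒪 : Type) [CommRing 𝒪] [IsDomain 𝒪] [IsDiscreteValuationRing 𝒪]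
    [IsAdicComplete (maximalIdeal 𝒪) 𝒪] [Finite (ResidueField 𝒪)] [CharZero 𝒪]
    (ϖ : 𝒪) (p : ℕ) [Fact p.Prime] (N1 : ℕ) [NeZero N1] (S Smin : Finset ℕ)
    (θ : CuspForm.heckeAlgebra N1 2 (↑S : Set ℕ) →+* ResidueField 𝒪)
    (ρbar : ResidualGaloisRep (ResidueField 𝒪)) (k : ℕ) (Pv : PivotPrimes k)
    (eP : Fin k → ℕ), PvStd 𝒪 ϖ p N1 S Smin θ ρbar Pv eP →
    ∀ (Dm : MinSetup 𝒪 ϖ p N1 S θ) (n r : ℕ) (qv : Fin r → ℕ)
      [NeZero (N1 * twC qv)] [NeZero (pvC Pv.q qv)] [NeZero (twLevel N1 qv)]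
      [NeZero (pvLevel N1 Pv.q qv)]
      (D : PvSetup 𝒪 ϖ p N1 S θ ρbar eP n Pv.q qv),
      Stmt_P_gal D

/-- **P-ES** (universally quantified). -/
def Stmt_P_ES : Prop :=
  ∀ (𝒪 : Type) [CommRing 𝒪] [IsDomain 𝒪] [IsDiscreteValuationRing 𝒪]
    [IsAdicComplete (maximalIdeal 𝒪) 𝒪] [Finite (ResidueField 𝒪)] [CharZero 𝒪]
    (ϖ : 𝒪) (p : ℕ) [Fact p.Prime] (N1 : ℕ) [NeZero N1] (S Smin : Finset ℕ)
    (θ : CuspForm.heckeAlgebra N1 2 (↑S : Set ℕ) →+* ResidueField 𝒪)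
    (ρbar : ResidualGaloisRep (ResidueField 𝒪)) (k : ℕ) (Pv : PivotPrimes k)
    (eP : Fin k → ℕ), PvStd 𝒪 ϖ p N1 S Smin θ ρbar Pv eP →
    ∀ (Dm : MinSetup 𝒪 ϖ p N1 S θ) (n r : ℕ) (qv : Fin r → ℕ)
      [NeZero (N1 * twC qv)] [NeZero (pvC Pv.q qv)] [NeZero (twLevel N1 qv)]
      [NeZero (pvLevel N1 Pv.q qv)]
      (D : PvSetup 𝒪 ϖ p N1 S θ ρbar eP n Pv.q qv),
      Stmt_P_es D

/-- **P-HSTEP (C)** (universally quantified). -/
def Stmt_P_HSTEPC : Prop :=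
  ∀ (𝒪 : Type) [CommRing 𝒪] [IsDomain 𝒪] [IsDiscreteValuationRing 𝒪]
    [IsAdicComplete (maximalIdeal 𝒪) 𝒪] [Finite (ResidueField 𝒪)] [CharZero 𝒪]
    (ϖ : 𝒪) (p : ℕ) [Fact p.Prime] (N1 : ℕ) [NeZero N1] (S Smin : Finset ℕ)
    (θ : CuspForm.heckeAlgebra N1 2 (↑S : Set ℕ) →+* ResidueField 𝒪)
    (ρbar : ResidualGaloisRep (ResidueField 𝒪)) (k : ℕ) (Pv : PivotPrimes k)
    (eP : Fin k → ℕ), PvStd 𝒪 ϖ p N1 S Smin θ ρbar Pv eP →
    ∀ (Dm : MinSetup 𝒪 ϖ p N1 S θ) (n r : ℕ) (qv : Fin r → ℕ)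
      [NeZero (N1 * twC qv)] [NeZero (pvC Pv.q qv)] [NeZero (twLevel N1 qv)]
      [NeZero (pvLevel N1 Pv.q qv)]
      (D : PvSetup 𝒪 ϖ p N1 S θ ρbar eP n Pv.q qv),
      Stmt_P_hstepC D

/-- **P-HSTEP (D)** (universally quantified). -/
def Stmt_P_HSTEPD : Prop :=
  ∀ (𝒪 : Type) [CommRing 𝒪] [IsDomain 𝒪] [IsDiscreteValuationRing 𝒪]
    [IsAdicComplete (maximalIdeal 𝒪) 𝒪] [Finite (ResidueField 𝒪)] [CharZero 𝒪]
    (ϖ : 𝒪) (p : ℕ) [Fact p.Prime] (N1 : ℕ) [NeZero N1] (S Smin : Finset ℕ)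
    (θ : CuspForm.heckeAlgebra N1 2 (↑S : Set ℕ) →+* ResidueField 𝒪)
    (ρbar : ResidualGaloisRep (ResidueField 𝒪)) (k : ℕ) (Pv : PivotPrimes k)
    (eP : Fin k → ℕ), PvStd 𝒪 ϖ p N1 S Smin θ ρbar Pv eP →
    ∀ (Dm : MinSetup 𝒪 ϖ p N1 S θ) (n r : ℕ) (qv : Fin r → ℕ)
      [NeZero (N1 * twC qv)] [NeZero (pvC Pv.q qv)] [NeZero (twLevel N1 qv)]
      [NeZero (pvLevel N1 Pv.q qv)]
      (D : PvSetup 𝒪 ϖ p N1 S θ ρbar eP n Pv.q qv),
      Stmt_P_hstepD D

/-- **P-PI** (universally quantified). -/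
def Stmt_P_PI : Prop :=
  ∀ (𝒪 : Type) [CommRing 𝒪] [IsDomain 𝒪] [IsDiscreteValuationRing 𝒪]
    [IsAdicComplete (maximalIdeal 𝒪) 𝒪] [Finite (ResidueField 𝒪)] [CharZero 𝒪]
    (ϖ : 𝒪) (p : ℕ) [Fact p.Prime] (N1 : ℕ) [NeZero N1] (S Smin : Finset ℕ)
    (θ : CuspForm.heckeAlgebra N1 2 (↑S : Set ℕ) →+* ResidueField 𝒪)
    (ρbar : ResidualGaloisRep (ResidueField 𝒪)) (k : ℕ) (Pv : PivotPrimes k)
    (eP : Fin k → ℕ), PvStd 𝒪 ϖ p N1 S Smin θ ρbar Pv eP →
    ∀ (Dm : MinSetup 𝒪 ϖ p N1 S θ) (n r : ℕ) (qv : Fin r → ℕ)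
      [NeZero (N1 * twC qv)] [NeZero (pvC Pv.q qv)] [NeZero (twLevel N1 qv)]
      [NeZero (pvLevel N1 Pv.q qv)]
      (D : PvSetup 𝒪 ϖ p N1 S θ ρbar eP n Pv.q qv),
      Stmt_P_pi Dm D

/-- **P-FROBNIL** (universally quantified). -/
def Stmt_P_FROBNIL : Prop :=
  ∀ (𝒪 : Type) [CommRing 𝒪] [IsDomain 𝒪] [IsDiscreteValuationRing 𝒪]
    [IsAdicComplete (maximalIdeal 𝒪) 𝒪] [Finite (ResidueField 𝒪)] [CharZero 𝒪]
    (ϖ : 𝒪) (p : ℕ) [Fact p.Prime] (N1 : ℕ) [NeZero N1] (S Smin : Finset ℕ)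
    (θ : CuspForm.heckeAlgebra N1 2 (↑S : Set ℕ) →+* ResidueField 𝒪)
    (ρbar : ResidualGaloisRep (ResidueField 𝒪)) (k : ℕ) (Pv : PivotPrimes k)
    (eP : Fin k → ℕ), PvStd 𝒪 ϖ p N1 S Smin θ ρbar Pv eP →
    ∀ (Dm : MinSetup 𝒪 ϖ p N1 S θ) (n r : ℕ) (qv : Fin r → ℕ)
      [NeZero (N1 * twC qv)] [NeZero (pvC Pv.q qv)] [NeZero (twLevel N1 qv)]
      [NeZero (pvLevel N1 Pv.q qv)]
      (D : PvSetup 𝒪 ϖ p N1 S θ ρbar eP n Pv.q qv),
      Stmt_P_frob_nil D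

/-- **P-LG** (universally quantified). -/
def Stmt_P_LG : Prop :=
  ∀ (𝒪 : Type) [CommRing 𝒪] [IsDomain 𝒪] [IsDiscreteValuationRing 𝒪]
    [IsAdicComplete (maximalIdeal 𝒪) 𝒪] [Finite (ResidueField 𝒪)] [CharZero 𝒪]
    (ϖ : 𝒪) (p : ℕ) [Fact p.Prime] (N1 : ℕ) [NeZero N1] (S Smin : Finset ℕ)
    (θ : CuspForm.heckeAlgebra N1 2 (↑S : Set ℕ) →+* ResidueField 𝒪)
    (ρbar : ResidualGaloisRep (ResidueField 𝒪)) (k : ℕ) (Pv : PivotPrimes k)
    (eP : Fin k → ℕ), PvStd 𝒪 ϖ p N1 S Smin θ ρbar Pv eP →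
    ∀ (Dm : MinSetup 𝒪 ϖ p N1 S θ) (n r : ℕ) (qv : Fin r → ℕ)
      [NeZero (N1 * twC qv)] [NeZero (pvC Pv.q qv)] [NeZero (twLevel N1 qv)]
      [NeZero (pvLevel N1 Pv.q qv)]
      (D : PvSetup 𝒪 ϖ p N1 S θ ρbar eP n Pv.q qv),
      Stmt_P_lg D

end Fermat.Agent.L.Pivot.Geom

end

end
-- ==== END Fermat.Agent.L.Pivot.Geom.AsmPV

-- ==== BEGIN Fermat.Agent.L.Pivot.Geom.H19_Choice
section

/-!
# PIVOT, package PV-GEOM, Part I, leaf P-CHOICE (helper19)

The choices at the pivot primes and a Taylor–Wiles family (clone of helper84's A-CHOICE):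

* `coprime_jPv`     : `j' + 1` is prime to `p`;
* `exists_sigma_pv` : inertia elements `σ_i ∈ I_{P_i}` (`P_i ∣ qv i`) and generators `δP j` of
  `Δ_Σ` with `IsDeltaGenPv δP (χ_c'(σ_i)^(j'+1))`;
* `exists_eig_pv`   : the eigenvalues `α_i ≠ β_i`, their lifts, `TwEig`, `charpoly_frob`
  (also for `r = 0`).

Complete proofs, standard axioms only.
-/

set_option autoImplicit false
set_option linter.unusedSectionVars false
set_option linter.style.haveILetI false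

noncomputable section

open ModularCurve AlgebraicCurve IsLocalRing TensorProduct Polynomial

namespace Fermat.Agent.L.Pivot.Geom.H19

open Fermat.Agent.NEB Fermat.Agent.NEB.JH Fermat.Agent.NEB.Geom Fermat.Agent.L.Pivot.Geom

/-- `j' + 1 = (p ^ E + 1) / 2` is prime to `p` (`p` odd). -/
theorem coprime_jPv {p : ℕ} (hp : p.Prime) (hp2 : p ≠ 2) {k : ℕ} (eP : Fin k → ℕ) (n : ℕ) :
    Nat.Coprime (jPv p eP n + 1) p := by
  have h2 := two_jPv p eP n hp hp2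
  by_cases hE : n + ∑ j, eP j = 0
  · rw [hE, pow_zero] at h2
    have : jPv p eP n = 0 := by omega
    rw [this]
    simp
  rw [Nat.coprime_comm, Nat.Prime.coprime_iff_not_dvd hp]
  intro hd
  have hpd : p ∣ p ^ (n + ∑ j, eP j) := dvd_pow_self p hE
  have h3 : p ∣ 2 * (jPv p eP n + 1) := Dvd.dvd.mul_left hd 2
  have h4 : 2 * (jPv p eP n + 1) = p ^ (n + ∑ j, eP j) + 1 := by omega
  rw [h4] at h3
  have h5 : p ∣ 1 := (Nat.dvd_add_right hpd).mp h3
  exact hp.one_lt.ne' (Nat.dvd_one.mp h5)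

section Sigma

variable {N1 : ℕ} {S : Finset ℕ} {p : ℕ} {k : ℕ} {eP : Fin k → ℕ} {n : ℕ} {qP : Fin k → ℕ}
  {r : ℕ} {qv : Fin r → ℕ}

theorem card_units_prime {q : ℕ} (hq : q.Prime) : Nat.card (ZMod q)ˣ = q - 1 := by
  haveI : Fact q.Prime := ⟨hq⟩
  haveI : NeZero q := ⟨hq.ne_zero⟩
  rw [Nat.card_eq_fintype_card, ZMod.card_units_eq_totient, Nat.totient_prime hq]

/-- An inertia element at a place over a prime `q` whose cyclotomic character modulo `q`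
generates `(ℤ/q)ˣ`. -/
theorem exists_inertia_gen {q : ℕ} (hq : q.Prime) (A : ValuationSubring Kbar)
    (hA : A.LiesOverPrime q) :
    ∃ σ : GalK, σ ∈ A.inertiaSubgroupIn ℚ ∧
      ∀ x : (ZMod q)ˣ, x ∈ Subgroup.zpowers
        (haveI : NeZero q := ⟨hq.ne_zero⟩
         Fermat.Agent.NEB.Geom.H6.chiC q σ) := by
  haveI : NeZero q := ⟨hq.ne_zero⟩
  haveI : Fact q.Prime := ⟨hq⟩
  obtain ⟨g, hg⟩ := (inferInstance : IsCyclic (ZMod q)ˣ).exists_generator
  obtain ⟨σ, hσ, hσg⟩ :=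
    Fermat.Agent.NEB.Geom.H6.chiC_inertia_surjective_prime q hq A hA g
  exact ⟨σ, hσ, fun x => hσg ▸ hg x⟩

/-- **The inertia elements and the generators**: `σ_i ∈ I_{P_i}` and `δP j` such that
`δP j`, `δQ i = χ_c'(σ_i)^(j'+1)` generate `Δ' = Δ_Σ × Δ_Q`. -/
theorem exists_sigma_pv (hPV : PvHyp N1 S p eP n qP qv) [NeZero (pvC qP qv)]
    (P : Fin r → ValuationSubring Kbar) (hP : ∀ i, (P i).LiesOverPrime (qv i)) :
    ∃ (σ : Fin r → GalK) (δP : Fin k → (ZMod (pvC qP qv))ˣ),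
      (∀ i, σ i ∈ (P i).inertiaSubgroupIn ℚ) ∧
      IsDeltaGenPv p eP n qP qv δP
        (fun i => Fermat.Agent.NEB.Geom.H6.chiC (pvC qP qv) (σ i) ^ (jPv p eP n + 1)) := by
  classical
  -- places over the pivot primes
  have hexP : ∀ j : Fin k, ∃ (A : ValuationSubring Kbar) (φ : GalK),
      A.LiesOverPrime (qP j) ∧ A.IsFrobeniusAt φ (qP j) :=
    fun j => Fermat.Agent.Lib.FrobExists.exists_place_and_frobenius (qP j) (hPV.primeP j)
  choose PP _φ hPP _hφ using hexP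
  choose τ hτ hgenP using fun j => exists_inertia_gen (hPV.primeP j) (PP j) (hPP j)
  choose σ hσ hgen using fun i => exists_inertia_gen (hPV.prime i) (P i) (hP i)
  refine ⟨σ, fun j => Fermat.Agent.NEB.Geom.H6.chiC (pvC qP qv) (τ j), hσ, ?_⟩
  refine ⟨?_, ?_, ?_, ?_, ?_, ?_⟩
  · -- P_P
    intro j j' hjj'
    haveI : NeZero (qP j') := ⟨(hPV.primeP j').ne_zero⟩
    rw [Fermat.Agent.NEB.Geom.H6.chiC_unitsMap (dvd_pvC_P qP qv j') (τ j)]
    have hco : (qP j').Coprime (qP j) :=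
      (Nat.coprime_primes (hPV.primeP j') (hPV.primeP j)).mpr (fun e => hjj' (hPV.injP e))
    exact Fermat.Agent.NEB.Geom.H6.chiC_inertia (qP j') (qP j) hco (PP j) (hPP j) (τ j) (hτ j)
  · -- P_Q
    intro j i
    haveI : NeZero (qv i) := ⟨(hPV.prime i).ne_zero⟩
    rw [Fermat.Agent.NEB.Geom.H6.chiC_unitsMap (dvd_pvC_Q qP qv i) (τ j)]
    have hco : (qv i).Coprime (qP j) :=
      (Nat.coprime_primes (hPV.prime i) (hPV.primeP j)).mpr (fun e => hPV.qP_ne_qv j i e.symm)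
    exact Fermat.Agent.NEB.Geom.H6.chiC_inertia (qv i) (qP j) hco (PP j) (hPP j) (τ j) (hτ j)
  · -- P_ord
    intro j t ht
    haveI : NeZero (qP j) := ⟨(hPV.primeP j).ne_zero⟩
    haveI : Fact (qP j).Prime := ⟨hPV.primeP j⟩
    obtain ⟨y, hy⟩ := ((mem_pvH qP qv p eP n).mp ht).1 j
    rw [map_pow, Fermat.Agent.NEB.Geom.H6.chiC_unitsMap (dvd_pvC_P qP qv j) (τ j)] at hy
    have hpn : p ^ eP j ∣ Nat.card (ZMod (qP j))ˣ := by
      rw [card_units_prime (hPV.primeP j)]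
      exact (hPV.congP j).1
    have h1 : Fermat.Agent.NEB.Geom.H6.chiC (qP j) (τ j) ^ (1 * t) = y ^ (p ^ eP j) := by
      rw [one_mul]
      exact hy.symm
    exact Fermat.Agent.NEB.Geom.H84.pow_dvd_of_gen _ (hgenP j) hPV.hp hpn
      (Nat.coprime_one_left p) t y h1
  · -- Q_Q
    intro i i' hii'
    haveI : NeZero (qv i') := ⟨(hPV.prime i').ne_zero⟩
    show ZMod.unitsMap (dvd_pvC_Q qP qv i')
      (Fermat.Agent.NEB.Geom.H6.chiC (pvC qP qv) (σ i) ^ (jPv p eP n + 1)) = 1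
    rw [map_pow, Fermat.Agent.NEB.Geom.H6.chiC_unitsMap (dvd_pvC_Q qP qv i') (σ i)]
    have hco : (qv i').Coprime (qv i) :=
      (Nat.coprime_primes (hPV.prime i') (hPV.prime i)).mpr (fun e => hii' (hPV.inj e))
    rw [Fermat.Agent.NEB.Geom.H6.chiC_inertia (qv i') (qv i) hco (P i) (hP i) (σ i) (hσ i),
      one_pow]
  · -- Q_P
    intro i j
    haveI : NeZero (qP j) := ⟨(hPV.primeP j).ne_zero⟩
    show ZMod.unitsMap (dvd_pvC_P qP qv j)
      (Fermat.Agent.NEB.Geom.H6.chiC (pvC qP qv) (σ i) ^ (jPv p eP n + 1)) = 1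
    rw [map_pow, Fermat.Agent.NEB.Geom.H6.chiC_unitsMap (dvd_pvC_P qP qv j) (σ i)]
    have hco : (qP j).Coprime (qv i) :=
      (Nat.coprime_primes (hPV.primeP j) (hPV.prime i)).mpr (fun e => hPV.qP_ne_qv j i e)
    rw [Fermat.Agent.NEB.Geom.H6.chiC_inertia (qP j) (qv i) hco (P i) (hP i) (σ i) (hσ i),
      one_pow]
  · -- Q_ord
    intro i t ht
    haveI : NeZero (qv i) := ⟨(hPV.prime i).ne_zero⟩
    haveI : Fact (qv i).Prime := ⟨hPV.prime i⟩
    obtain ⟨y, hy⟩ := ((mem_pvH qP qv p eP n).mp ht).2 i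
    rw [map_pow, map_pow, Fermat.Agent.NEB.Geom.H6.chiC_unitsMap (dvd_pvC_Q qP qv i) (σ i),
      ← pow_mul] at hy
    have hpn : p ^ n ∣ Nat.card (ZMod (qv i))ˣ := by
      rw [card_units_prime (hPV.prime i)]
      exact Dvd.dvd.trans (pow_dvd_pow p (Nat.le_succ n)) (hPV.cong i)
    exact Fermat.Agent.NEB.Geom.H84.pow_dvd_of_gen _ (hgen i) hPV.hp hpn
      (coprime_jPv hPV.hp hPV.hp2 eP n) t y hy.symm

end Sigma

section Eig

variable {𝒪 : Type} [CommRing 𝒪] [IsLocalRing 𝒪]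
  {N1 : ℕ} [NeZero N1] {S : Finset ℕ} {p : ℕ} {k : ℕ} {eP : Fin k → ℕ} {n : ℕ}
  {qP : Fin k → ℕ} {r : ℕ} {qv : Fin r → ℕ}

/-- **The eigenvalues** at the Taylor–Wiles primes (`r = 0` allowed). -/
theorem exists_eig_pv (ρbar : ResidualGaloisRep (ResidueField 𝒪))
    (θ : CuspForm.heckeAlgebra N1 2 (↑S : Set ℕ) →+* ResidueField 𝒪)
    (hpm : (p : 𝒪) ∈ maximalIdeal 𝒪)
    (hPV : PvHyp N1 S p eP n qP qv) (hfam : Fermat.Agent.S56.IsTWFamily ρbar p n S qv)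
    (hfrob : Fermat.Agent.S59.Datum.FrobHyp ρbar N1 S θ)
    (P : Fin r → ValuationSubring Kbar) (hP : ∀ i, (P i).LiesOverPrime (qv i))
    (frob : Fin r → GalK) (hfr : ∀ i, (P i).IsFrobeniusAt (frob i) (qv i)) :
    ∃ (α β : Fin r → ResidueField 𝒪) (a a' : Fin r → 𝒪),
      TwEig 𝒪 N1 S qv θ α β ∧ (∀ i, residue 𝒪 (a i) = α i) ∧ (∀ i, residue 𝒪 (a' i) = β i) ∧
      ∀ i, LinearMap.charpoly (ρbar.ρ (frob i)) =
        (X - C (residue 𝒪 (a i))) * (X - C (residue 𝒪 (a' i))) := by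
  rcases Nat.eq_zero_or_pos r with hr | hr
  · subst hr
    exact ⟨fun i => i.elim0, fun i => i.elim0, fun i => i.elim0, fun i => i.elim0,
      ⟨fun i => i.elim0, fun i => i.elim0, fun i => i.elim0, fun i => i.elim0⟩,
      fun i => i.elim0, fun i => i.elim0, fun i => i.elim0⟩
  · exact Fermat.Agent.NEB.Geom.H84.exists_eig ρbar θ hpm (hPV.twHyp hr) hfam hfrob P hP frob hfr

end Eig

end Fermat.Agent.L.Pivot.Geom.H19

end

end
-- ==== END Fermat.Agent.L.Pivot.Geom.H19_Choice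

-- ==== BEGIN Fermat.Agent.L.Pivot.Geom.H19_PComm
section

/-!
# PIVOT, package PV-GEOM, Part I, leaf P-COMM (helper19)

Clone of helper29's `NEB/Geom/H29_ZCommTw.lean` (section TW) for the operators `opsPv` on
`J_H'[p^∞]` (`H' = pvH`, conductor `c' = pvC`):

* `Stmt_Z_COMMpv` : the operators `T'_ℓ`, `U_{qv i}`, `⟨u⟩` commute pairwise and with the Galois
  action; the same at level `Γ₀(M1)`; they are intertwined by `π^*`, `π_*`;
* `stmt_Z_COMMpv` : its proof (from the general lemmas of `H29_ZCommTw`, section `gen`/`top`).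

Complete proofs, standard axioms only.
-/

set_option autoImplicit false
set_option linter.unusedSectionVars false
set_option linter.style.haveILetI false
set_option linter.unusedVariables false

noncomputable section

namespace Fermat.Agent.L.Pivot.Geom

open AlgebraicCurve ModularCurve
open Fermat.Agent.NEB Fermat.Agent.NEB.H14 Fermat.Agent.NEB.JH Fermat.Agent.NEB.Geom
open Fermat.Agent.S59.Asm

section Stmt

variable (N1 : ℕ) (S : Finset ℕ) (p : ℕ) {k : ℕ} (eP : Fin k → ℕ) (n : ℕ) (qP : Fin k → ℕ)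
  {r : ℕ} (qv : Fin r → ℕ)
variable [NeZero (N1 * twC qv)] (h2 : 2 ≤ pvC qP qv) (hc : pvC qP qv ∣ N1 * twC qv)

/-- **Z-COMMpv**: the operators `T'_ℓ`, `U_{qv i}`, `⟨u⟩` on `J_H'[p^∞]` commute pairwise and with
the Galois action; the same at level `Γ₀(M1)`; `π^*` and `π_*` intertwine them. -/
def Stmt_Z_COMMpv : Prop :=
  (∀ i, (qv i).Prime) →
  (∀ i j, Commute (opsPv N1 S p eP n qP qv h2 hc i) (opsPv N1 S p eP n qP qv h2 hc j)) ∧
  (∀ i σ, Commute (opsPv N1 S p eP n qP qv h2 hc i)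
    (galZ (N1 * twC qv) (pvC qP qv) (pvH qP qv p eP n) p σ)) ∧
  (∀ i j, Commute (opsPv0 N1 S p qP qv i) (opsPv0 N1 S p qP qv j)) ∧
  (∀ i σ, Commute (opsPv0 N1 S p qP qv i) (galZ0 (N1 * twC qv) p σ)) ∧
  (∀ i, upZ (N1 * twC qv) (pvC qP qv) (pvH qP qv p eP n) p ∘ₗ opsPv0 N1 S p qP qv i
      = opsPv N1 S p eP n qP qv h2 hc i ∘ₗ upZ (N1 * twC qv) (pvC qP qv) (pvH qP qv p eP n) p) ∧
  (∀ i, downZ (N1 * twC qv) (pvC qP qv) (pvH qP qv p eP n) p ∘ₗ opsPv N1 S p eP n qP qv h2 hc i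
      = opsPv0 N1 S p qP qv i ∘ₗ
        downZ (N1 * twC qv) (pvC qP qv) (pvH qP qv p eP n) p) ∧
  (∀ σ, upZ (N1 * twC qv) (pvC qP qv) (pvH qP qv p eP n) p ∘ₗ galZ0 (N1 * twC qv) p σ
      = galZ (N1 * twC qv) (pvC qP qv) (pvH qP qv p eP n) p σ ∘ₗ
        upZ (N1 * twC qv) (pvC qP qv) (pvH qP qv p eP n) p)

end Stmt

namespace H19

open Fermat.Agent.NEB.Geom.H29

section PV

variable (N1 : ℕ) (S : Finset ℕ) (p : ℕ) {k : ℕ} (eP : Fin k → ℕ) (n : ℕ) (qP : Fin k → ℕ)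
  {r : ℕ} (qv : Fin r → ℕ)

variable [NeZero (N1 * twC qv)] (h2 : 2 ≤ pvC qP qv) (hc : pvC qP qv ∣ N1 * twC qv)

theorem opsPv_inl_good {ℓ : ℕ} (hg : GoodTw N1 S qv ℓ) :
    opsPv N1 S p eP n qP qv h2 hc (Sum.inl ℓ)
      = TzTw (N1 * twC qv) (pvC qP qv) (pvH qP qv p eP n) h2 hc p (jPv p eP n) ℓ := by
  simp only [opsPv, if_pos hg]

theorem opsPv_inl_bad {ℓ : ℕ} (hg : ¬ GoodTw N1 S qv ℓ) :
    opsPv N1 S p eP n qP qv h2 hc (Sum.inl ℓ) = 0 := by
  simp only [opsPv, if_neg hg]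

theorem opsPv0_inl_good {ℓ : ℕ} (hg : GoodTw N1 S qv ℓ) :
    opsPv0 N1 S p qP qv (Sum.inl ℓ) = Tz0 (N1 * twC qv) p ℓ := by
  simp only [opsPv0, if_pos hg]

theorem opsPv0_inl_bad {ℓ : ℕ} (hg : ¬ GoodTw N1 S qv ℓ) :
    opsPv0 N1 S p qP qv (Sum.inl ℓ) = 0 := by
  simp only [opsPv0, if_neg hg]

/-- The operators commute pairwise. -/
theorem commute_opsPv (hq : ∀ j, (qv j).Prime) (i j : IdxTw r (pvC qP qv)) :
    Commute (opsPv N1 S p eP n qP qv h2 hc i) (opsPv N1 S p eP n qP qv h2 hc j) := by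
  -- the basic commutations
  have hTd : ∀ ℓ u, Commute
      (opsPv N1 S p eP n qP qv h2 hc (Sum.inl ℓ))
      (diaZ (N1 * twC qv) (pvC qP qv) (pvH qP qv p eP n) h2 hc p u) := by
    intro ℓ u
    by_cases hg : GoodTw N1 S qv ℓ
    · rw [opsPv_inl_good N1 S p eP n qP qv h2 hc hg]
      exact commute_TzTw_of _ _ _ h2 hc p _ _ (commute_Tz_diaZ _ _ _ h2 hc p ℓ u)
        (fun v => commute_diaZ_diaZ _ _ _ h2 hc p v u)
    · rw [opsPv_inl_bad N1 S p eP n qP qv h2 hc hg]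
      exact Commute.zero_left _
  have hTU : ∀ ℓ k, Commute
      (opsPv N1 S p eP n qP qv h2 hc (Sum.inl ℓ))
      (Uz (N1 * twC qv) (pvC qP qv) (pvH qP qv p eP n) h2 hc p (qv k)) := by
    intro ℓ k
    by_cases hg : GoodTw N1 S qv ℓ
    · rw [opsPv_inl_good N1 S p eP n qP qv h2 hc hg]
      exact commute_TzTw_of _ _ _ h2 hc p _ _
        (commute_Tz_Uz _ _ _ h2 hc p hg.1 (H29.not_dvd_level_of_good hg) (hq k) (H29.qv_dvd_level N1 qv k))
        (fun v => (commute_Uz_diaZ _ _ _ h2 hc p (qv k) v).symm)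
    · rw [opsPv_inl_bad N1 S p eP n qP qv h2 hc hg]
      exact Commute.zero_left _
  have hTT : ∀ ℓ ℓ', Commute
      (opsPv N1 S p eP n qP qv h2 hc (Sum.inl ℓ)) (opsPv N1 S p eP n qP qv h2 hc (Sum.inl ℓ')) := by
    intro ℓ ℓ'
    by_cases hg : GoodTw N1 S qv ℓ
    · by_cases hg' : GoodTw N1 S qv ℓ'
      · rw [opsPv_inl_good N1 S p eP n qP qv h2 hc hg]
        refine commute_TzTw_of _ _ _ h2 hc p _ _ ?_ (fun v => (hTd ℓ' v).symm)
        rw [opsPv_inl_good N1 S p eP n qP qv h2 hc hg']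
        exact (commute_TzTw_of _ _ _ h2 hc p _ _
          (commute_Tz_Tz _ _ _ h2 hc p hg'.1 (H29.not_dvd_level_of_good hg') hg.1 (H29.not_dvd_level_of_good hg))
          (fun v => (commute_Tz_diaZ _ _ _ h2 hc p ℓ v).symm)).symm
      · rw [opsPv_inl_bad N1 S p eP n qP qv h2 hc hg']
        exact Commute.zero_right _
    · rw [opsPv_inl_bad N1 S p eP n qP qv h2 hc hg]
      exact Commute.zero_left _
  rcases i with ℓ | k | u <;> rcases j with ℓ' | k' | u'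
  · exact hTT ℓ ℓ'
  · exact hTU ℓ k'
  · exact hTd ℓ u'
  · exact (hTU ℓ' k).symm
  · exact commute_Uz_Uz _ _ _ h2 hc p (hq k) (H29.qv_dvd_level N1 qv k) (hq k')
      (H29.qv_dvd_level N1 qv k')
  · exact commute_Uz_diaZ _ _ _ h2 hc p (qv k) u'
  · exact (hTd ℓ' u).symm
  · exact (commute_Uz_diaZ _ _ _ h2 hc p (qv k') u).symm
  · exact commute_diaZ_diaZ _ _ _ h2 hc p u u'

/-- The operators commute with the Galois action. -/
theorem commute_opsPv_galZ (i : IdxTw r (pvC qP qv)) (σ : GalK) :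
    Commute (opsPv N1 S p eP n qP qv h2 hc i) (galZ (N1 * twC qv) (pvC qP qv) (pvH qP qv p eP n) p σ) := by
  rcases i with ℓ | k | u
  · by_cases hg : GoodTw N1 S qv ℓ
    · rw [opsPv_inl_good N1 S p eP n qP qv h2 hc hg]
      exact commute_TzTw_of _ _ _ h2 hc p _ _ (commute_Tz_galZ _ _ _ h2 hc p ℓ σ)
        (fun v => commute_diaZ_galZ _ _ _ h2 hc p v σ)
    · rw [opsPv_inl_bad N1 S p eP n qP qv h2 hc hg]
      exact Commute.zero_left _
  · exact commute_Uz_galZ _ _ _ h2 hc p (qv k) σ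
  · exact commute_diaZ_galZ _ _ _ h2 hc p u σ

include h2 hc in
/-- The operators at level `Γ₀` commute pairwise. -/
theorem commute_opsPv0 (hq : ∀ j, (qv j).Prime) (i j : IdxTw r (pvC qP qv)) :
    Commute (opsPv0 N1 S p qP qv i) (opsPv0 N1 S p qP qv j) := by
  have hTU : ∀ ℓ k, Commute (opsPv0 N1 S p qP qv (Sum.inl ℓ)) (Uz0 (N1 * twC qv) p (qv k)) := by
    intro ℓ k
    by_cases hg : GoodTw N1 S qv ℓ
    · rw [opsPv0_inl_good N1 S p qP qv hg]
      exact commute_Tz0_Uz0 _ _ h2 hc p hg.1 (H29.not_dvd_level_of_good hg) (hq k) (H29.qv_dvd_level N1 qv k)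
    · rw [opsPv0_inl_bad N1 S p qP qv hg]
      exact Commute.zero_left _
  have hTT : ∀ ℓ ℓ', Commute (opsPv0 N1 S p qP qv (Sum.inl ℓ)) (opsPv0 N1 S p qP qv (Sum.inl ℓ')) := by
    intro ℓ ℓ'
    by_cases hg : GoodTw N1 S qv ℓ
    · by_cases hg' : GoodTw N1 S qv ℓ'
      · rw [opsPv0_inl_good N1 S p qP qv hg, opsPv0_inl_good N1 S p qP qv hg']
        exact commute_Tz0_Tz0 _ _ h2 hc p hg.1 (H29.not_dvd_level_of_good hg) hg'.1 (H29.not_dvd_level_of_good hg')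
      · rw [opsPv0_inl_bad N1 S p qP qv hg']
        exact Commute.zero_right _
    · rw [opsPv0_inl_bad N1 S p qP qv hg]
      exact Commute.zero_left _
  rcases i with ℓ | k | u <;> rcases j with ℓ' | k' | u'
  · exact hTT ℓ ℓ'
  · exact hTU ℓ k'
  · exact Commute.one_right _
  · exact (hTU ℓ' k).symm
  · exact commute_Uz0_Uz0 _ _ h2 hc p (hq k) (H29.qv_dvd_level N1 qv k) (hq k')
      (H29.qv_dvd_level N1 qv k')
  · exact Commute.one_right _
  · exact Commute.one_left _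
  · exact Commute.one_left _
  · exact Commute.one_left _

include h2 hc in
/-- The operators at level `Γ₀` commute with the Galois action. -/
theorem commute_opsPv0_galZ0 (i : IdxTw r (pvC qP qv)) (σ : GalK) :
    Commute (opsPv0 N1 S p qP qv i) (galZ0 (N1 * twC qv) p σ) := by
  rcases i with ℓ | k | u
  · by_cases hg : GoodTw N1 S qv ℓ
    · rw [opsPv0_inl_good N1 S p qP qv hg]
      exact commute_Tz0_galZ0 _ _ h2 hc p ℓ σ
    · rw [opsPv0_inl_bad N1 S p qP qv hg]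
      exact Commute.zero_left _
  · exact commute_Uz0_galZ0 _ _ h2 hc p (qv k) σ
  · exact Commute.one_left _

/-- `π^*` intertwines the operators. -/
theorem upZ_opsPv0 (i : IdxTw r (pvC qP qv)) :
    upZ (N1 * twC qv) (pvC qP qv) (pvH qP qv p eP n) p ∘ₗ opsPv0 N1 S p qP qv i
      = opsPv N1 S p eP n qP qv h2 hc i ∘ₗ upZ (N1 * twC qv) (pvC qP qv) (pvH qP qv p eP n) p := by
  refine LinearMap.ext fun x => ?_
  simp only [LinearMap.comp_apply]
  rcases i with ℓ | k | u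
  · by_cases hg : GoodTw N1 S qv ℓ
    · rw [opsPv0_inl_good N1 S p qP qv hg, opsPv_inl_good N1 S p eP n qP qv h2 hc hg, TzTw,
        Module.End.mul_apply, diaZ_pow_upZ]
      exact upZ_Tz0 _ _ _ h2 hc p ℓ x
    · rw [opsPv0_inl_bad N1 S p qP qv hg, opsPv_inl_bad N1 S p eP n qP qv h2 hc hg]
      simp
  · exact upZ_Uz0 _ _ _ h2 hc p (qv k) x
  · exact (diaZ_upZ _ _ _ h2 hc p u x).symm

/-- `π_*` intertwines the operators. -/
theorem downZ_opsPv (i : IdxTw r (pvC qP qv)) :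
    downZ (N1 * twC qv) (pvC qP qv) (pvH qP qv p eP n) p ∘ₗ opsPv N1 S p eP n qP qv h2 hc i
      = opsPv0 N1 S p qP qv i ∘ₗ downZ (N1 * twC qv) (pvC qP qv) (pvH qP qv p eP n) p := by
  refine LinearMap.ext fun x => ?_
  simp only [LinearMap.comp_apply]
  rcases i with ℓ | k | u
  · by_cases hg : GoodTw N1 S qv ℓ
    · rw [opsPv0_inl_good N1 S p qP qv hg, opsPv_inl_good N1 S p eP n qP qv h2 hc hg, TzTw,
        Module.End.mul_apply, downZ_Tz, downZ_diaZ_pow]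
    · rw [opsPv0_inl_bad N1 S p qP qv hg, opsPv_inl_bad N1 S p eP n qP qv h2 hc hg]
      simp
  · exact downZ_Uz _ _ _ h2 hc p (qv k) x
  · exact downZ_diaZ _ _ _ h2 hc p u x

/-- **Z-COMMpv**. -/
theorem stmt_Z_COMMpv : Stmt_Z_COMMpv N1 S p eP n qP qv h2 hc := by
  intro hprime
  refine ⟨commute_opsPv N1 S p eP n qP qv h2 hc hprime,
    commute_opsPv_galZ N1 S p eP n qP qv h2 hc,
    commute_opsPv0 N1 S p qP qv h2 hc hprime, commute_opsPv0_galZ0 N1 S p qP qv h2 hc,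
    upZ_opsPv0 N1 S p eP n qP qv h2 hc, downZ_opsPv N1 S p eP n qP qv h2 hc, fun σ => ?_⟩
  refine LinearMap.ext fun x => ?_
  exact upZ_galZ0 _ _ _ h2 hc p σ x

end PV

end H19

end Fermat.Agent.L.Pivot.Geom

end

end
-- ==== END Fermat.Agent.L.Pivot.Geom.H19_PComm

-- ==== BEGIN Fermat.Agent.L.Pivot.Geom.H59_LayerB
section

/-!
# PIVOT, package PV-GEOM, Layer B' (helper59): `PVBase → PVDiv`  (design (C), pure algebra)

`B : PVBase …` the base datum on `W'`.  `B.Nm := nmTotE (p ^ eP j) c` the total norm of the pivot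
diamonds.  The Taylor–Wiles datum of unipotent type is

  `B.G1D : TWDiv … MD n qv`,   `B.G1D.WD.W = range B.Nm`,

and `pvDivOf B : PVDiv …` has `κ = B.Nm` (range-restricted), `κup` = inclusion.

* `stmt_PVDIV_of_base : Stmt_PVBASE → Stmt_PVDIV`.
-/

set_option autoImplicit false
set_option linter.style.haveILetI false
set_option linter.unusedSectionVars false

noncomputable section

open IsLocalRing

namespace Fermat.Agent.L.Pivot.Geom

open Polynomial CuspForm Fermat.Agent.S56 Fermat.Agent.S59 Fermat.Agent.S59.Asm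
  Fermat.Agent.S59.Lim Fermat.Agent.L.Pivot Fermat.Agent.S59.TWH

namespace H59

section Coe

variable {𝒪 : Type} [CommRing 𝒪] {W : Type} [AddCommGroup W] [Module 𝒪 W]

/-- powers of an operator on `range N` which is the restriction of an operator on `W`. -/
theorem coe_pow_of_coe (N : Module.End 𝒪 W) (F : Module.End 𝒪 ↥(LinearMap.range N))
    (f : Module.End 𝒪 W) (h : ∀ x : ↥(LinearMap.range N), ((F x : ↥(LinearMap.range N)) : W) = f x)
    (m : ℕ) (x : ↥(LinearMap.range N)) :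
    (((F ^ m) x : ↥(LinearMap.range N)) : W) = (f ^ m) x := by
  induction m generalizing x with
  | zero => rfl
  | succ m ih =>
    rw [pow_succ, pow_succ, Module.End.mul_apply, Module.End.mul_apply, ih, h]

theorem coe_nm_resRange (N f : Module.End 𝒪 W) (hf : Commute f N) (m : ℕ)
    (x : ↥(LinearMap.range N)) :
    ((H90.nm m (resRange N f hf) x : ↥(LinearMap.range N)) : W) = H90.nm m f x := by
  rw [H90.nm_apply, H90.nm_apply, Submodule.coe_sum]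
  refine Finset.sum_congr rfl fun e _ => ?_
  exact coe_pow_of_coe N _ f (fun _ => rfl) e x

theorem coe_nmTotE_resRange (N : Module.End 𝒪 W) :
    ∀ {r : ℕ} (m : Fin r → ℕ) (d : Fin r → Module.End 𝒪 W) (hd : ∀ j, Commute (d j) N)
      (x : ↥(LinearMap.range N)),
      ((nmTotE m (fun j => resRange N (d j) (hd j)) x : ↥(LinearMap.range N)) : W)
        = nmTotE m d x := by
  intro r
  induction r with
  | zero =>
    intro m d hd x
    rw [nmTotE_zero, nmTotE_zero]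
    rfl
  | succ r ih =>
    intro m d hd x
    rw [nmTotE_succ, nmTotE_succ, Module.End.mul_apply, Module.End.mul_apply, coe_nm_resRange,
      ih (fun j => m j.succ) (fun j => d j.succ) (fun j => hd j.succ)]

theorem coe_nmTot_resRange (N : Module.End 𝒪 W) {r : ℕ} (m : ℕ) (d : Fin r → Module.End 𝒪 W)
    (hd : ∀ j, Commute (d j) N) (x : ↥(LinearMap.range N)) :
    ((H90.nmTot m (fun j => resRange N (d j) (hd j)) x : ↥(LinearMap.range N)) : W)
      = H90.nmTot m d x :=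
  coe_nmTotE_resRange N (fun _ => m) d hd x

/-- `(F - a)^m` on `range N`, for `F` the restriction of `f`. -/
theorem sub_smul_pow_of_coe (N : Module.End 𝒪 W) (F : Module.End 𝒪 ↥(LinearMap.range N))
    (f : Module.End 𝒪 W) (h : ∀ x : ↥(LinearMap.range N), ((F x : ↥(LinearMap.range N)) : W) = f x)
    (a : 𝒪) (m : ℕ) (x : ↥(LinearMap.range N))
    (hm : ((f - a • (1 : Module.End 𝒪 W)) ^ m) (x : W) = 0) :
    ((F - a • (1 : Module.End 𝒪 ↥(LinearMap.range N))) ^ m) x = 0 := by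
  apply Subtype.ext
  rw [coe_pow_of_coe N _ (f - a • (1 : Module.End 𝒪 W)) (fun y => by
    rw [LinearMap.sub_apply, LinearMap.sub_apply, Submodule.coe_sub, h]
    rfl) m x]
  exact hm

theorem coe_sub_smul_of_coe (N : Module.End 𝒪 W) (F : Module.End 𝒪 ↥(LinearMap.range N))
    (f : Module.End 𝒪 W) (h : ∀ x : ↥(LinearMap.range N), ((F x : ↥(LinearMap.range N)) : W) = f x)
    (a : 𝒪) (y : ↥(LinearMap.range N)) :
    (((F - a • (1 : Module.End 𝒪 ↥(LinearMap.range N))) y : ↥(LinearMap.range N)) : W)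
      = (f - a • (1 : Module.End 𝒪 W)) y := by
  rw [LinearMap.sub_apply, LinearMap.sub_apply, Submodule.coe_sub, h]
  rfl

theorem coe_mul_of_coe (N : Module.End 𝒪 W) (F G : Module.End 𝒪 ↥(LinearMap.range N))
    (f g : Module.End 𝒪 W) (hF : ∀ x : ↥(LinearMap.range N), ((F x : ↥(LinearMap.range N)) : W) = f x)
    (hG : ∀ x : ↥(LinearMap.range N), ((G x : ↥(LinearMap.range N)) : W) = g x)
    (y : ↥(LinearMap.range N)) :
    (((F * G) y : ↥(LinearMap.range N)) : W) = (f * g) y := by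
  rw [Module.End.mul_apply, Module.End.mul_apply, hF, hG]

/-- `((F - a)(F - a'))^m` on `range N`, for `F` the restriction of `f`. -/
theorem mul_pow_of_coe (N : Module.End 𝒪 W) (F : Module.End 𝒪 ↥(LinearMap.range N))
    (f : Module.End 𝒪 W) (h : ∀ x : ↥(LinearMap.range N), ((F x : ↥(LinearMap.range N)) : W) = f x)
    (a a' : 𝒪) (m : ℕ) (x : ↥(LinearMap.range N))
    (hm : (((f - a • (1 : Module.End 𝒪 W)) * (f - a' • (1 : Module.End 𝒪 W))) ^ m) (x : W) = 0) :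
    (((F - a • (1 : Module.End 𝒪 ↥(LinearMap.range N))) *
      (F - a' • (1 : Module.End 𝒪 ↥(LinearMap.range N)))) ^ m) x = 0 := by
  apply Subtype.ext
  rw [coe_pow_of_coe N _ ((f - a • (1 : Module.End 𝒪 W)) * (f - a' • (1 : Module.End 𝒪 W)))
    (fun y => coe_mul_of_coe N _ _ _ _ (coe_sub_smul_of_coe N F f h a)
      (coe_sub_smul_of_coe N F f h a') y) m x]
  exact hm

/-- the lift of the restricted action along a surjection whose kernel kills `range N`. -/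
def liftRange {T T1 : Type*} [CommRing T] [CommRing T1] (rest : T →+* T1)
    (hs : Function.Surjective rest) (N : Module.End 𝒪 W) (η : T →+* Module.End 𝒪 W)
    (h : ∀ t, Commute (η t) N) (hk : ∀ t, rest t = 0 → ∀ x : W, η t (N x) = 0) :
    T1 →+* Module.End 𝒪 ↥(LinearMap.range N) :=
  RingHom.liftOfSurjective rest hs ⟨resRangeHom N η h, by
    intro t ht
    rw [RingHom.mem_ker] at ht ⊢
    apply LinearMap.ext
    intro x
    apply Subtype.ext
    obtain ⟨y, hy⟩ := x.2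
    show η t (x : W) = 0
    rw [← hy]
    exact hk t ht y⟩

theorem liftRange_rest {T T1 : Type*} [CommRing T] [CommRing T1] (rest : T →+* T1)
    (hs : Function.Surjective rest) (N : Module.End 𝒪 W) (η : T →+* Module.End 𝒪 W)
    (h : ∀ t, Commute (η t) N) (hk : ∀ t, rest t = 0 → ∀ x : W, η t (N x) = 0) (t : T) :
    liftRange rest hs N η h hk (rest t) = resRangeHom N η h t :=
  RingHom.liftOfSurjective_comp_apply rest hs ⟨resRangeHom N η h, _⟩ t

theorem coe_liftRange_rest {T T1 : Type*} [CommRing T] [CommRing T1] (rest : T →+* T1)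
    (hs : Function.Surjective rest) (N : Module.End 𝒪 W) (η : T →+* Module.End 𝒪 W)
    (h : ∀ t, Commute (η t) N) (hk : ∀ t, rest t = 0 → ∀ x : W, η t (N x) = 0) (t : T)
    (x : ↥(LinearMap.range N)) :
    ((liftRange rest hs N η h hk (rest t) x : ↥(LinearMap.range N)) : W) = η t x := by
  rw [liftRange_rest]
  rfl

/-- the descent of `π` to `range N`. -/
def descRange {WM : Type} [AddCommGroup WM] [Module 𝒪 WM] (N : Module.End 𝒪 W)
    (π : W →ₗ[𝒪] WM) (h : LinearMap.ker N ≤ LinearMap.ker π) :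
    ↥(LinearMap.range N) →ₗ[𝒪] WM :=
  ((LinearMap.ker N).liftQ π h).comp
    (N.quotKerEquivRange.symm : ↥(LinearMap.range N) →ₗ[𝒪] _)

theorem descRange_apply {WM : Type} [AddCommGroup WM] [Module 𝒪 WM] (N : Module.End 𝒪 W)
    (π : W →ₗ[𝒪] WM) (h : LinearMap.ker N ≤ LinearMap.ker π) (y : W)
    (hy : N y ∈ LinearMap.range N) : descRange N π h ⟨N y, hy⟩ = π y := by
  rw [descRange, LinearMap.comp_apply]
  have h1 : (N.quotKerEquivRange.symm : ↥(LinearMap.range N) →ₗ[𝒪] _) ⟨N y, hy⟩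
      = (LinearMap.ker N).mkQ y :=
    LinearMap.quotKerEquivRange_symm_apply_image N y hy
  rw [h1]
  rfl

end Coe

end H59

section Main

variable {𝒪 : Type} [CommRing 𝒪] [IsLocalRing 𝒪] {ϖ : 𝒪} {p : ℕ}
  {ρbar : ResidualGaloisRep (ResidueField 𝒪)} {N1 : ℕ} [NeZero N1] {S : Finset ℕ}
  {θ : CuspForm.heckeAlgebra N1 2 (↑S : Set ℕ) →+* ResidueField 𝒪}
  {MD : HDiv 𝒪 ϖ N1 (↑S : Set ℕ) θ} {k : ℕ} {qP : Fin k → ℕ} {eP : Fin k → ℕ}
  {r : ℕ} {n : ℕ} {qv : Fin r → ℕ}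
  [NeZero (twLevel N1 qv)] [NeZero (pvLevel N1 qP qv)]
  (B : PVBase 𝒪 ϖ p ρbar N1 S θ MD qP eP n qv)

namespace PVBase

/-- the total norm of the pivot diamonds. -/
def Nm : Module.End 𝒪 B.WD.W := H59.nmTotE (fun j => p ^ eP j) B.c

theorem comm_Nm {f : Module.End 𝒪 B.WD.W} (h : ∀ j, Commute f (B.c j)) : Commute f B.Nm :=
  H59.commute_nmTotE _ _ h

theorem fix_Nm (j : Fin k) (x : B.WD.W) : B.c j (B.Nm x) = B.Nm x :=
  H59.fix_nmTotE (fun j => p ^ eP j) B.c B.c_comm B.c_pow j x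

/-- invariants of `W'[ϖ]` are norms. -/
theorem mem_range_of_fix_torsion (v : B.WD.W) (hv : ϖ • v = 0) (hfix : ∀ j, B.c j v = v) :
    v ∈ LinearMap.range B.Nm := by
  obtain ⟨w, -, hw⟩ := H59.inv_torsion_mem_range (fun j => p ^ eP j) B.c B.c_comm B.hstepC
    v hv hfix
  exact ⟨w, hw⟩

/-- invariants of `W'` are norms. -/
theorem mem_range_of_fix (v : B.WD.W) (hfix : ∀ j, B.c j v = v) :
    v ∈ LinearMap.range B.Nm := by
  obtain ⟨w, hw⟩ := H59.inv_mem_range (fun j => p ^ eP j) B.c B.c_comm B.c_pow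
    B.WD.isDiv.tors B.WD.isDiv.div B.hstepC v hfix
  exact ⟨w, hw⟩

theorem eigpart' (t : CuspForm.heckeAlgebra (pvLevel N1 qP qv) 2 (↑(twSet S qv) : Set ℕ))
    (ht : B.rest t = 0) (x : B.WD.W) : B.WD.η t (B.Nm x) = 0 := B.eigpart t ht x

set_option maxHeartbeats 1000000 in
/-- the Hecke action of level `twLevel` on the norms (P-EIGPART). -/
def η1 : CuspForm.heckeAlgebra (twLevel N1 qv) 2 (↑(twSet S qv) : Set ℕ) →+*
    Module.End 𝒪 ↥(LinearMap.range B.Nm) :=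
  H59.liftRange B.rest B.rest_surj B.Nm B.WD.η
    (fun t => B.comm_Nm (fun j => (B.c_η j t).symm)) B.eigpart'

set_option maxHeartbeats 1000000 in
theorem coe_η1_rest (t : CuspForm.heckeAlgebra (pvLevel N1 qP qv) 2 (↑(twSet S qv) : Set ℕ))
    (x : ↥(LinearMap.range B.Nm)) :
    ((B.η1 (B.rest t) x : ↥(LinearMap.range B.Nm)) : B.WD.W) = B.WD.η t x :=
  H59.coe_liftRange_rest B.rest B.rest_surj B.Nm B.WD.η _ B.eigpart' t x

set_option maxHeartbeats 4000000 in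
theorem η1_local (t : CuspForm.heckeAlgebra (twLevel N1 qv) 2 (↑(twSet S qv) : Set ℕ)) (a : 𝒪)
    (ha : residue 𝒪 a = θ (B.rest1 t)) (x : ↥(LinearMap.range B.Nm)) (hx : ϖ • x = 0) :
    ∃ m : ℕ, ((B.η1 t - a • (1 : Module.End 𝒪 ↥(LinearMap.range B.Nm))) ^ m) x = 0 := by
  obtain ⟨t', ht'⟩ := B.rest_surj t
  have hx' : ϖ • (x : B.WD.W) = 0 := congrArg Subtype.val hx
  have ha' : residue 𝒪 a = ((θ.comp B.rest1).comp B.rest) t' := by
    rw [RingHom.comp_apply, RingHom.comp_apply, ht']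
    exact ha
  obtain ⟨m, hm⟩ := B.WD.η_local t' a ha' (x : B.WD.W) hx'
  have hc : ∀ y : ↥(LinearMap.range B.Nm),
      ((B.η1 t y : ↥(LinearMap.range B.Nm)) : B.WD.W) = B.WD.η t' y := by
    intro y
    rw [← ht']
    exact B.coe_η1_rest t' y
  exact ⟨m, H59.sub_smul_pow_of_coe B.Nm (B.η1 t) (B.WD.η t') hc a m x hm⟩

set_option maxHeartbeats 1000000 in
/-- the divisible Hecke module of the unipotent type: the norms. -/
def WD1 : HDiv 𝒪 ϖ (twLevel N1 qv) (↑(twSet S qv) : Set ℕ) (θ.comp B.rest1) where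
  W := ↥(LinearMap.range B.Nm)
  isDiv := H59.isDiv_range B.WD.isDiv B.Nm
  η := B.η1
  η_local := fun t a ha x hx => B.η1_local t a ha x hx

/-- the Galois action on the norms. -/
def gal1 : GalQ →* Module.End 𝒪 ↥(LinearMap.range B.Nm) :=
  H59.resRangeMonoidHom B.Nm B.gal (fun g => B.comm_Nm (fun j => (B.c_gal j g).symm))

theorem coe_gal1 (g : GalQ) (x : ↥(LinearMap.range B.Nm)) :
    ((B.gal1 g x : ↥(LinearMap.range B.Nm)) : B.WD.W) = B.gal g x := rfl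

/-- the Taylor–Wiles diamonds on the norms. -/
def d1 (i : Fin r) : Module.End 𝒪 ↥(LinearMap.range B.Nm) :=
  H59.resRange B.Nm (B.d i) (B.comm_Nm (fun j => (B.c_d j i).symm))

theorem coe_d1 (i : Fin r) (x : ↥(LinearMap.range B.Nm)) :
    ((B.d1 i x : ↥(LinearMap.range B.Nm)) : B.WD.W) = B.d i x := rfl

theorem ker_Nm_le_ker_π : LinearMap.ker B.Nm ≤ LinearMap.ker B.π := by
  intro y hy
  rw [LinearMap.mem_ker] at hy ⊢
  apply B.πup_injective
  rw [B.πup_π, map_zero]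
  show (H90.nmTot (p ^ n) B.d) (B.Nm y) = 0
  rw [hy, map_zero]

/-- the projection from the norms to the minimal level: `π₁ (Nm y) = π y`. -/
def π1 : ↥(LinearMap.range B.Nm) →ₗ[𝒪] MD.W :=
  H59.descRange B.Nm B.π B.ker_Nm_le_ker_π

theorem π1_Nm (y : B.WD.W) (h : B.Nm y ∈ LinearMap.range B.Nm) :
    B.π1 ⟨B.Nm y, h⟩ = B.π y :=
  H59.descRange_apply B.Nm B.π B.ker_Nm_le_ker_π y h

/-- the pull-back from the minimal level lands in the norms. -/
def πup1 : MD.W →ₗ[𝒪] ↥(LinearMap.range B.Nm) :=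
  B.πup.codRestrict (LinearMap.range B.Nm)
    (fun y => B.mem_range_of_fix (B.πup y) (fun j => B.c_πup j y))

theorem coe_πup1 (y : MD.W) : ((B.πup1 y : ↥(LinearMap.range B.Nm)) : B.WD.W) = B.πup y := rfl

end PVBase

end Main

end Fermat.Agent.L.Pivot.Geom

end

end
-- ==== END Fermat.Agent.L.Pivot.Geom.H59_LayerB

-- ==== BEGIN Fermat.Agent.L.Pivot.Geom.H70_PvMix
section

/-!
# PIVOT, package PV-GEOM, leaf P-HSTEP: the PV objects as an instance of the mixed tower (helper70)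

The family of the primes of `c' = pvC qP qv` is `pvQ qP qv = Fin.append qP qv : Fin (k + r) → ℕ`
(pivot primes FIRST), with exponents `pvE eP n = Fin.append eP (fun _ => n)` and generators
`pvDelta δP δQ = Fin.append δP δQ`.

* `pvQ_dvd`        : `pvQ qP qv j ∣ pvC qP qv`;
* `pvH_eq_mixH`    : `pvH qP qv p eP n = mixH (pvC qP qv) p (pvQ qP qv) pvQ_dvd (pvE eP n)`;
* `pv_mixHyp`      : `PvHyp … → MixHyp (N1 * twC qv) (pvC qP qv) p (pvQ qP qv) (pvE eP n)`;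
* `pv_isGenFamM`   : `IsDeltaGenPv … δP δQ → IsGenFamM … (pvDelta δP δQ)`.
-/

set_option autoImplicit false
set_option linter.unusedSectionVars false
set_option linter.unusedVariables false
set_option linter.style.haveILetI false

noncomputable section

namespace Fermat.Agent.L.Pivot.Geom.H70

open Fermat.Agent.NEB Fermat.Agent.NEB.Geom Fermat.Agent.L.Pivot.Geom

/-! ## Transport along equalities of the moduli -/

theorem unitsMap_mem_range_congr {c q q' : ℕ} (h : q = q') (hq : q ∣ c) (hq' : q' ∣ c)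
    {a a' : ℕ} (ha : a = a') (u : (ZMod c)ˣ) :
    ZMod.unitsMap hq u ∈ (powMonoidHom a : (ZMod q)ˣ →* (ZMod q)ˣ).range ↔
      ZMod.unitsMap hq' u ∈ (powMonoidHom a' : (ZMod q')ˣ →* (ZMod q')ˣ).range := by
  subst h
  subst ha
  rfl

theorem unitsMap_eq_one_congr {c q q' : ℕ} (h : q = q') (hq : q ∣ c) (hq' : q' ∣ c)
    (u : (ZMod c)ˣ) :
    ZMod.unitsMap hq u = 1 ↔ ZMod.unitsMap hq' u = 1 := by
  subst h
  rfl

theorem unitsMap_pow_mem_range_congr {c q q' : ℕ} (h : q = q') (hq : q ∣ c) (hq' : q' ∣ c)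
    {a a' : ℕ} (ha : a = a') (u : (ZMod c)ˣ) (m : ℕ) :
    ZMod.unitsMap hq u ^ m ∈ (powMonoidHom a : (ZMod q)ˣ →* (ZMod q)ˣ).range ↔
      ZMod.unitsMap hq' u ^ m ∈ (powMonoidHom a' : (ZMod q')ˣ →* (ZMod q')ˣ).range := by
  subst h
  subst ha
  rfl

section PV

variable {k r : ℕ} (qP : Fin k → ℕ) (qv : Fin r → ℕ) (p : ℕ) (eP : Fin k → ℕ) (n : ℕ)

/-- The primes of `c'`: pivot primes first, then the Taylor–Wiles primes. -/
def pvQ : Fin (k + r) → ℕ := Fin.append qP qv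

/-- The exponents. -/
def pvE : Fin (k + r) → ℕ := Fin.append eP (fun _ : Fin r => n)

/-- The generators. -/
def pvDelta (δP : Fin k → (ZMod (pvC qP qv))ˣ) (δQ : Fin r → (ZMod (pvC qP qv))ˣ) :
    Fin (k + r) → (ZMod (pvC qP qv))ˣ := Fin.append δP δQ

@[simp] theorem pvQ_left (j : Fin k) : pvQ qP qv (Fin.castAdd r j) = qP j :=
  Fin.append_left _ _ _

@[simp] theorem pvQ_right (i : Fin r) : pvQ qP qv (Fin.natAdd k i) = qv i :=
  Fin.append_right _ _ _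

@[simp] theorem pvE_left (j : Fin k) : pvE (r := r) eP n (Fin.castAdd r j) = eP j :=
  Fin.append_left _ _ _

@[simp] theorem pvE_right (i : Fin r) : pvE eP n (Fin.natAdd k i) = n :=
  Fin.append_right _ _ _

@[simp] theorem pvDelta_left (δP : Fin k → (ZMod (pvC qP qv))ˣ)
    (δQ : Fin r → (ZMod (pvC qP qv))ˣ) (j : Fin k) :
    pvDelta qP qv δP δQ (Fin.castAdd r j) = δP j :=
  Fin.append_left _ _ _

@[simp] theorem pvDelta_right (δP : Fin k → (ZMod (pvC qP qv))ˣ)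
    (δQ : Fin r → (ZMod (pvC qP qv))ˣ) (i : Fin r) :
    pvDelta qP qv δP δQ (Fin.natAdd k i) = δQ i :=
  Fin.append_right _ _ _

theorem pvQ_dvd (j : Fin (k + r)) : pvQ qP qv j ∣ pvC qP qv := by
  refine Fin.addCases (fun j => ?_) (fun i => ?_) j
  · rw [pvQ_left]
    exact dvd_pvC_P qP qv j
  · rw [pvQ_right]
    exact dvd_pvC_Q qP qv i

/-- membership in `mixH`, split into the two families -/
theorem mem_mixH_pv (u : (ZMod (pvC qP qv))ˣ) :
    u ∈ mixH (pvC qP qv) p (pvQ qP qv) (pvQ_dvd qP qv) (pvE eP n) ↔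
      (∀ j, ZMod.unitsMap (dvd_pvC_P qP qv j) u ∈
        (powMonoidHom (p ^ eP j) : (ZMod (qP j))ˣ →* (ZMod (qP j))ˣ).range) ∧
      (∀ i, ZMod.unitsMap (dvd_pvC_Q qP qv i) u ∈
        (powMonoidHom (p ^ n) : (ZMod (qv i))ˣ →* (ZMod (qv i))ˣ).range) := by
  rw [mixH, mem_mixSub, Fin.forall_fin_add]
  refine and_congr (forall_congr' fun j => ?_) (forall_congr' fun i => ?_)
  · exact unitsMap_mem_range_congr (pvQ_left qP qv j) _ _
      (by rw [pvE_left]) u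
  · exact unitsMap_mem_range_congr (pvQ_right qP qv i) _ _
      (by rw [pvE_right]) u

/-- **`H' = pvH` is the mixed subgroup.** -/
theorem pvH_eq_mixH :
    pvH qP qv p eP n = mixH (pvC qP qv) p (pvQ qP qv) (pvQ_dvd qP qv) (pvE eP n) := by
  ext u
  rw [mem_mixH_pv]
  simp only [pvH, Subgroup.mem_inf, Subgroup.mem_iInf, Subgroup.mem_comap]

variable {qP qv p eP n}

/-- `c'` is squarefree. -/
theorem squarefree_pvC {N1 : ℕ} {S : Finset ℕ} (h : PvHyp N1 S p eP n qP qv) :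
    Squarefree (pvC qP qv) := by
  have h1 : Squarefree (twC qv) := by
    unfold twC
    refine Finset.squarefree_prod_of_pairwise_isCoprime ?_ ?_
    · intro a _ b _ hab
      exact Nat.coprime_iff_isRelPrime.mp
        ((Nat.coprime_primes (h.prime a) (h.prime b)).2 (fun e => hab (h.inj e)))
    · intro a _
      exact (h.prime a).squarefree
  have hcop : Nat.Coprime N1 (twC qv) := by
    unfold twC
    refine Nat.Coprime.prod_right fun i _ => ?_
    rw [Nat.coprime_comm, Nat.Prime.coprime_iff_not_dvd (h.prime i)]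
    exact fun hd => h.notS i (h.hNS _ (h.prime i) hd)
  have h2 : Squarefree (N1 * twC qv) := (Nat.squarefree_mul hcop).mpr ⟨h.hsq, h1⟩
  exact h2.squarefree_of_dvd h.dvd

/-- The hypotheses of the mixed tower hold in the PV setting. -/
theorem pv_mixHyp {N1 : ℕ} {S : Finset ℕ} (h : PvHyp N1 S p eP n qP qv) :
    MixHyp (N1 * twC qv) (pvC qP qv) p (pvQ qP qv) (pvE eP n) where
  hp := h.hp
  hp2 := h.hp2
  hU := h.hU.imp id (fun ⟨r, hr, hrN, hr3⟩ => ⟨r, hr, Dvd.dvd.mul_right hrN _, hr3⟩)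
  hM := h.level_ne_zero
  hcM := h.dvd
  hsq := squarefree_pvC h
  prime := by
    intro j
    refine Fin.addCases (fun j => ?_) (fun i => ?_) j
    · rw [pvQ_left]
      exact h.primeP j
    · rw [pvQ_right]
      exact h.prime i
  cong := by
    intro j
    refine Fin.addCases (fun j => ?_) (fun i => ?_) j
    · rw [pvQ_left, pvE_left]
      exact (h.congP j).1
    · rw [pvQ_right, pvE_right]
      exact (pow_dvd_pow p (Nat.le_succ n)).trans (h.cong i)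

/-- The generators of `Δ'` form a generating family of the mixed subgroup. -/
theorem pv_isGenFamM {δP : Fin k → (ZMod (pvC qP qv))ˣ} {δQ : Fin r → (ZMod (pvC qP qv))ˣ}
    (hδ : IsDeltaGenPv p eP n qP qv δP δQ) :
    IsGenFamM (compHom (pvC qP qv) (pvQ qP qv) (pvQ_dvd qP qv)) (fun j => p ^ pvE eP n j)
      (pvDelta qP qv δP δQ) := by
  -- the components of the generators
  have hPP : ∀ j j' : Fin k, j' ≠ j →
      compHom (pvC qP qv) (pvQ qP qv) (pvQ_dvd qP qv) (Fin.castAdd r j') (δP j) = 1 :=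
    fun j j' hj => (unitsMap_eq_one_congr (pvQ_left qP qv j') _ _ _).mpr (hδ.P_P j j' hj)
  have hPQ : ∀ (j : Fin k) (i : Fin r),
      compHom (pvC qP qv) (pvQ qP qv) (pvQ_dvd qP qv) (Fin.natAdd k i) (δP j) = 1 :=
    fun j i => (unitsMap_eq_one_congr (pvQ_right qP qv i) _ _ _).mpr (hδ.P_Q j i)
  have hQQ : ∀ i i' : Fin r, i' ≠ i →
      compHom (pvC qP qv) (pvQ qP qv) (pvQ_dvd qP qv) (Fin.natAdd k i') (δQ i) = 1 :=
    fun i i' hi => (unitsMap_eq_one_congr (pvQ_right qP qv i') _ _ _).mpr (hδ.Q_Q i i' hi)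
  have hQP : ∀ (i : Fin r) (j : Fin k),
      compHom (pvC qP qv) (pvQ qP qv) (pvQ_dvd qP qv) (Fin.castAdd r j) (δQ i) = 1 :=
    fun i j => (unitsMap_eq_one_congr (pvQ_left qP qv j) _ _ _).mpr (hδ.Q_P i j)
  have htriv : ∀ i j : Fin (k + r), i ≠ j →
      compHom (pvC qP qv) (pvQ qP qv) (pvQ_dvd qP qv) i (pvDelta qP qv δP δQ j) = 1 := by
    intro i j
    refine Fin.addCases (fun j => ?_) (fun j => ?_) j <;>
      refine Fin.addCases (fun i => ?_) (fun i => ?_) i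
    · intro hij
      rw [pvDelta_left]
      exact hPP j i (fun e => hij (by rw [e]))
    · intro _
      rw [pvDelta_left]
      exact hPQ j i
    · intro _
      rw [pvDelta_right]
      exact hQP j i
    · intro hij
      rw [pvDelta_right]
      exact hQQ j i (fun e => hij (by rw [e]))
  refine ⟨htriv, ?_⟩
  -- the orders
  intro j a ha
  have hmem : pvDelta qP qv δP δQ j ^ a ∈
      mixH (pvC qP qv) p (pvQ qP qv) (pvQ_dvd qP qv) (pvE eP n) := by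
    rw [mixH, mem_mixSub]
    intro i
    by_cases hij : i = j
    · subst hij
      rw [map_pow]
      exact ha
    · rw [map_pow, htriv i j hij, one_pow]
      exact one_mem _
  rw [← pvH_eq_mixH] at hmem
  revert hmem
  refine Fin.addCases (fun j => ?_) (fun i => ?_) j
  · intro hmem
    rw [pvDelta_left] at hmem
    rw [pvE_left]
    exact hδ.P_ord j a hmem
  · intro hmem
    rw [pvDelta_right] at hmem
    rw [pvE_right]
    exact hδ.Q_ord i a hmem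

end PV

end Fermat.Agent.L.Pivot.Geom.H70

end
end
-- ==== END Fermat.Agent.L.Pivot.Geom.H70_PvMix
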