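-- GENERATED (merged mirror, NOTES/tools/trim/merge3_helper67.py): 1 modules of the originals, bodies verbatim.
import Fermat.Agent.Zm.S58_L01_000
import Fermat.Agent.Zm.S43_L01_005
import Fermat.Agent.Zm.S58_L02_000
import Fermat.Agent.Zm.S43_L03_005
import Fermat.Agent.Zm.S43_L04_003

-- ==== BEGIN Fermat.Agent.Tate.Main
section

set_option autoImplicit false

namespace Fermat.Agent.Tate

/-- **T6**: ordinary at a bad prime `p`. -/
theorem stmt_T6 : Stmt_T6 := T6.stmt_T6_of_T2 H4.stmt_T2

/-- **Stmt_Tate**: the `p`-adic Tate module of a semistable curve has all the properties the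
S59 wiring needs. -/
theorem stmt_Tate : Fermat.Agent.S59.Stmt_Tate :=
  T5.H4.stmt_Tate_of_odd H46.stmt_T1 H4.stmt_T2 H4.stmt_T3u H7.stmt_T3c H5.stmt_T4
    T5.H4.stmt_T5odd stmt_T6 T7.stmt_T7

end Fermat.Agent.Tate

end
-- ==== END Fermat.Agent.Tate.Main
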