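-- GENERATED (merged mirror, NOTES/tools/trim/merge3_helper67.py): 2 modules of the originals, bodies verbatim.
import Mathlib
import Fermat.Agent.Zm.S43_L13_002
import Fermat.Agent.Zm.S35_L02_002
import Fermat.Agent.Zm.S48_L01_002
import Fermat.Agent.Zm.S35_L02_000

-- ==== BEGIN Fermat.Agent.S59.NonMin.Defs2
section

/-!
# S59, package RT-NONMIN (planner helper85): interface of CASE C (package PSTEP) and AUG

Case C: `ρbar` is flat at `p` (so the minimal problem is the flat one, `fl = true`), but the lift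
`ρ` is strictly ordinary and not flat at `p` (multiplicative reduction at `p`, `p ∣ v_p(Δ)`).
Wiles' passage from the flat to the Selmer (= ordinary) condition: ONE more step of the induction,
at the prime `p`, from the level `N'` (prime to `p`) to the level `N' p`.
Plan: `NOTES/plan/S59_NONMIN.md` §8.

* `condOrd`     : the ordinary deformation condition (prelude `GaloisRep.ordinaryCondition`).
* `peuUnits P`, `Ipeu p P` : the units of the inertia field at `P`, and the "peu ramifié inertia":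
                  the elements of the inertia group at `P` which fix all `p`-power roots of these
                  units.  An ordinary representation is "peu ramifié" iff it is trivial on `Ipeu`.
* `FixesPRoots p g` : `g` fixes the `p`-power roots of unity.
* `PStep`       : the geometric data of the step at `p`.
* `RTPropC`     : `RTProp` for the ordinary condition.
* `Stmt_AUG`, `Stmt_KUMp`, `Stmt_PEUFLAT`, `Stmt_SELMERp`, `Stmt_DEFord`, `Stmt_TAUord`,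
  `Stmt_CONDord`, `Stmt_PSTEP`, `Stmt_NMGEOMC`, `Stmt_MLTnmC`, `Stmt_MLTall` : leaves and targets.

No `sorry`; definitions only.
-/

set_option autoImplicit false

open Polynomial CuspForm CongruenceSubgroup ModularFormClass IsLocalRing

namespace Fermat.Agent.S59.NonMin

open Fermat.Agent.S59 Fermat.Agent.S59.Asm

/-! ## 0. AUG -/

/-- **AUG**: after a finite extension of `𝒪` the local Hecke ring has a point: there is a
character of the Hecke algebra with values in `𝒪'` lifting `θ`.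
[`R.H2.nonempty_algTPoint` for `T := heckeLocal N S 𝒪 θ`.] -/
def Stmt_AUG : Prop :=
  ∀ (𝒪 : Type) [CommRing 𝒪] [IsDomain 𝒪] [IsDiscreteValuationRing 𝒪]
    [IsAdicComplete (maximalIdeal 𝒪) 𝒪] [Finite (ResidueField 𝒪)] [CharZero 𝒪]
    (N : ℕ) [NeZero N] [Fact (CuspForm.HasIntegralStructure N 2)] (S : Finset ℕ)
    (θ : CuspForm.heckeAlgebra N 2 (↑S : Set ℕ) →+* ResidueField 𝒪),
    ∃ (𝒪' : Type) (_ : CommRing 𝒪') (_ : IsDomain 𝒪') (_ : IsDiscreteValuationRing 𝒪')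
      (_ : IsAdicComplete (maximalIdeal 𝒪') 𝒪') (_ : Finite (ResidueField 𝒪'))
      (_ : CharZero 𝒪') (_ : Algebra 𝒪 𝒪') (_ : Module.Finite 𝒪 𝒪') (_ : Module.Free 𝒪 𝒪')
      (_ : IsLocalHom (algebraMap 𝒪 𝒪'))
      (x₀ : CuspForm.heckeAlgebra N 2 (↑S : Set ℕ) →+* 𝒪'),
      ∀ t, residue 𝒪' (x₀ t) = ResidueField.map (algebraMap 𝒪 𝒪') (θ t)

/-! ## 1. The ordinary condition and the peu ramifié inertia -/

/-- The ordinary deformation condition with auxiliary set `T` (as `S56.condFl`, `S56.condSO`). -/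
def condOrd (𝒪 : Type) [CommRing 𝒪] (p : ℕ) (Smin T : Finset ℕ) :
    ∀ ⦃A : Type⦄ [CommRing A] [IsLocalRing A] [Algebra 𝒪 A], GaloisRepAdic A → Prop :=
  fun _A _ _ _ ρ => GaloisRep.ordinaryCondition 𝒪 p (Smin ∪ T) ρ ∧
    ∀ q ∈ Smin, q.Prime → q ≠ p → ρ.IsUnipotentOnInertiaAt q

/-- The units of the valuation ring `P` which are fixed by the inertia group of `P`
(the units of the inertia field). -/
def peuUnits (P : ValuationSubring (AlgebraicClosure ℚ)) : Set (AlgebraicClosure ℚ) :=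
  {u | u ∈ P ∧ u⁻¹ ∈ P ∧ u ≠ 0 ∧ ∀ s ∈ P.inertiaSubgroupIn ℚ, s u = u}

/-- The peu ramifié inertia: the elements of the inertia group at `P` which fix every `y` some
`p`-power of which is a unit of the inertia field. -/
def Ipeu (p : ℕ) (P : ValuationSubring (AlgebraicClosure ℚ)) :
    Set (AlgebraicClosure ℚ ≃ₐ[ℚ] AlgebraicClosure ℚ) :=
  {σ | σ ∈ P.inertiaSubgroupIn ℚ ∧
    ∀ (y : AlgebraicClosure ℚ) (n : ℕ), y ^ p ^ n ∈ peuUnits P → σ y = y}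

/-- `g` fixes the `p`-power roots of unity. -/
def FixesPRoots (p : ℕ) (g : AlgebraicClosure ℚ ≃ₐ[ℚ] AlgebraicClosure ℚ) : Prop :=
  ∀ (n : ℕ) (μ : AlgebraicClosure ℚ), μ ^ p ^ n = 1 → g μ = μ

/-- A representation is peu ramifié at `p` if it is trivial on the peu ramifié inertia. -/
def IsPeuAt {A : Type} [CommRing A] [IsLocalRing A] (ρ : GaloisRepAdic A) (p : ℕ) : Prop :=
  ∀ P : ValuationSubring (AlgebraicClosure ℚ), P.LiesOverPrime p → ∀ σ ∈ Ipeu p P, ρ.ρ σ = 1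

/-! ## 2. The Galois side -/

/-- **KUM-p** (Kummer theory of the inertia field at `p`; the analogue of PV-TAME T0/T1):
there is ONE element `τ₀` of the peu ramifié inertia such that, for every ordinary representation
with cyclotomic determinant over a noetherian local ring of residue characteristic `p`,
1. `ρ(τ₀)` commutes with `ρ(g)` for every `g` in the decomposition group fixing `μ_{p^∞}`;
2. for every ideal `J`: `ρ(τ₀) ≡ 1 mod J` implies `ρ(σ) ≡ 1 mod J` for all `σ ∈ Ipeu`.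
[On `N := I ∩ ker ε` an ordinary `ρ` is `1 + X_σ`, `X_σ V ⊂ L`, `X_σ L = 0`, additive in `σ`, and
`X_{gσg⁻¹} = ε(g) X_σ` for `g ∈ I`; so modulo `𝔪ⁿ` it factors through a Kummer extension
`L_m(a₁^{1/p^m}, …)` with `a_i` in the inertia field, `a_i = p^{k_i} u_i` (`UnramVal`); on `Ipeu`
only the `k_i` matter: the image of `Ipeu` is procyclic, generated by any `τ₀ ∈ Ipeu` with
`τ₀ (p^{1/p^m}) = ζ_{p^m} p^{1/p^m}` for all `m` (compactness, as `exists_uniform_tame_generator`),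
and `g τ₀ g⁻¹ ≡ τ₀` when `ε(g) = 1`.] -/
def Stmt_KUMp : Prop :=
  ∀ (p : ℕ), p.Prime → p ≠ 2 →
  ∀ (P : ValuationSubring (AlgebraicClosure ℚ)), P.LiesOverPrime p →
  ∃ τ₀ ∈ Ipeu p P,
    ∀ (A : Type) [CommRing A] [IsLocalRing A] [IsNoetherianRing A],
      (p : A) ∈ maximalIdeal A →
      ∀ ρ : GaloisRepAdic A, ρ.DetIsCyclotomic p → ρ.IsOrdinaryAt p →
        (∀ g ∈ P.decompositionSubgroup ℚ, FixesPRoots p g →
          ρ.ρ g * ρ.ρ τ₀ = ρ.ρ τ₀ * ρ.ρ g) ∧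
        ∀ J : Ideal A, (∀ v : ρ.V, ρ.ρ τ₀ v - v ∈ J • (⊤ : Submodule A ρ.V)) →
          ∀ σ ∈ Ipeu p P, ∀ v : ρ.V, ρ.ρ σ v - v ∈ J • (⊤ : Submodule A ρ.V)

/-- **PEUFLAT**: an ordinary representation with cyclotomic determinant which is trivial on the
peu ramifié inertia is flat at `p`.
[`Lib.HopfOrderLoc.stmt_LocalGen` for `W = V / I V` with the generators `e_v` (indicator of the
class `v ∈ W / W⁰`, `W⁰` = image of the ordinary line) and `t_λ` (`λ : W⁰ → μ_{p^n}` a character):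
`t_λ (x) :=` a `P`-unit `y` with `σ y / y = λ (σ x - x)` for `σ` in inertia (Hilbert 90; `y` can be
chosen a unit because `ρ` is trivial on `Ipeu`), `t_λ (x + w) = λ (w) t_λ (x)`; see the plan.] -/
def Stmt_PEUFLAT : Prop :=
  ∀ (p : ℕ), p.Prime → p ≠ 2 →
  ∀ (A : Type) [CommRing A] [IsLocalRing A] [IsNoetherianRing A],
    Finite (ResidueField A) → (p : A) ∈ maximalIdeal A →
    ∀ ρ : GaloisRepAdic A, ρ.DetIsCyclotomic p → ρ.IsOrdinaryAt p → IsPeuAt ρ p →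
      ρ.IsFlatAt p

/-- **DEF-ord**: the universal deformation ring of `condOrd` exists (as `Stmt_DEF`). -/
def Stmt_DEFord : Prop :=
  ∀ (𝒪 : Type) [CommRing 𝒪] [IsDomain 𝒪] [IsDiscreteValuationRing 𝒪]
    [IsAdicComplete (maximalIdeal 𝒪) 𝒪] [Finite (ResidueField 𝒪)]
    (p : ℕ) [Fact p.Prime], p ≠ 2 → (p : 𝒪) ∈ maximalIdeal 𝒪 →
    ∀ (ρbar : ResidualGaloisRep (ResidueField 𝒪)),
    ρbar.IsAbsolutelyIrreducible →
    ∀ (Smin T : Finset ℕ), p ∈ Smin → (∀ q ∈ Smin ∪ T, q.Prime) →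
    condOrd 𝒪 p Smin T (GaloisRepAdic.ofResidualGaloisRep ρbar) →
    Nonempty (GaloisRep.DeformationRingData 𝒪 ρbar (condOrd 𝒪 p Smin T))

/-- **TAU-ord**: the surjection from the ordinary to the flat deformation ring, as soon as the
universal flat deformation is ordinary (which follows from `R = T` at the flat level and
`Stmt_CONDord` at the level prime to `p`). -/
def Stmt_TAUord : Prop :=
  ∀ (𝒪 : Type) [CommRing 𝒪] [IsDomain 𝒪] [IsDiscreteValuationRing 𝒪]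
    [IsAdicComplete (maximalIdeal 𝒪) 𝒪] [Finite (ResidueField 𝒪)]
    (p : ℕ) [Fact p.Prime], p ≠ 2 → (p : 𝒪) ∈ maximalIdeal 𝒪 →
    ∀ (ρbar : ResidualGaloisRep (ResidueField 𝒪)) (Smin Sig : Finset ℕ),
    p ∈ Smin → (∀ q ∈ Smin ∪ Sig, q.Prime) →
    ∀ (D : GaloisRep.DeformationRingData 𝒪 ρbar (cond 𝒪 p true Smin Sig))
      (D' : GaloisRep.DeformationRingData 𝒪 ρbar (condOrd 𝒪 p Smin Sig)),
    D.ρ.IsOrdinaryAt p →
    ∃ τ : D'.R →ₐ[𝒪] D.R, Function.Surjective τ ∧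
      ∃ h : IsLocalHom (τ : D'.R →+* D.R),
        (D'.ρ.baseChangeAlong (τ : D'.R →+* D.R) h).IsEquiv D.ρ

/-- **SELMER-p**: passing from the flat to the ordinary condition lets the cotangent space at a
point `x` of the flat deformation ring grow at most by `#(𝒪 / c)`, `c² = tr ρ_x(g)² - 4`, for any
`g` in the decomposition group at `p` which fixes `μ_{p^∞}` (`c = ±(a - a⁻¹)`, `a` the eigenvalue
of `g` on the unramified quotient).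
[`ker τ ⊆` the ideal of the entries of `D'.ρ(σ) - 1`, `σ ∈ Ipeu` (`Stmt_PEUFLAT` + universal
properties) `=` the ideal of the entries of `D'.ρ(τ₀) - 1` (`Stmt_KUMp` (2)); in an ordinary basis
`D'.ρ(τ₀) = [[1, w], [0, 1]]`, and `(χ₁(g) - χ₂(g)) w = 0` by `Stmt_KUMp` (1); `χ₁ χ₂ (g) = 1`.] -/
def Stmt_SELMERp : Prop :=
  ∀ (𝒪 : Type) [CommRing 𝒪] [IsDomain 𝒪] [IsDiscreteValuationRing 𝒪]
    [IsAdicComplete (maximalIdeal 𝒪) 𝒪] [Finite (ResidueField 𝒪)]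
    (p : ℕ) [Fact p.Prime], p ≠ 2 → (p : 𝒪) ∈ maximalIdeal 𝒪 →
    ∀ (ρbar : ResidualGaloisRep (ResidueField 𝒪)) (Smin Sig : Finset ℕ),
    p ∈ Smin → (∀ q' ∈ Smin ∪ Sig, q'.Prime) →
    ∀ (D : GaloisRep.DeformationRingData 𝒪 ρbar (cond 𝒪 p true Smin Sig))
      (D' : GaloisRep.DeformationRingData 𝒪 ρbar (condOrd 𝒪 p Smin Sig))
      (τ : D'.R →ₐ[𝒪] D.R) (hτ : IsLocalHom (τ : D'.R →+* D.R)),
    (D'.ρ.baseChangeAlong (τ : D'.R →+* D.R) hτ).IsEquiv D.ρ →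
    ∀ (x : D.R →ₐ[𝒪] 𝒪) (P : ValuationSubring (AlgebraicClosure ℚ)), P.LiesOverPrime p →
    ∀ g ∈ P.decompositionSubgroup ℚ, FixesPRoots p g →
    ∀ c : 𝒪, c ^ 2 = x (D.ρ.trace g) ^ 2 - 4 → c ≠ 0 →
    Finite (RingHom.ker (x : D.R →+* 𝒪)).Cotangent →
    Finite (RingHom.ker ((x.comp τ : D'.R →ₐ[𝒪] 𝒪) : D'.R →+* 𝒪)).Cotangent ∧
      Nat.card (RingHom.ker ((x.comp τ : D'.R →ₐ[𝒪] 𝒪) : D'.R →+* 𝒪)).Cotangent ≤
        Nat.card (RingHom.ker (x : D.R →+* 𝒪)).Cotangent * Nat.card (𝒪 ⧸ Ideal.span {c})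

/-- **COND-ord**: the Hecke–Galois datum of a level `N'` with `p² ∤ N'` is of ordinary type,
if `ρbar` is.
[unramified outside `S'`: `S31`; unipotent at `Smin ∖ {p}`: `S34`; ordinary at `p`: the frozen
`S33` if `p ∣ N'`, and `S32` + `S33.H86.stmt_FlatOrd` at the points + gluing (`S33.of_ordPoint`) if
`p ∤ N'`.] -/
def Stmt_CONDord : Prop :=
  ∀ (𝒪 : Type) [CommRing 𝒪] [IsDomain 𝒪] [IsDiscreteValuationRing 𝒪]
    [IsAdicComplete (maximalIdeal 𝒪) 𝒪] [Finite (ResidueField 𝒪)] [CharZero 𝒪]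
    (p : ℕ) [Fact p.Prime], p ≠ 2 → (p : 𝒪) ∈ maximalIdeal 𝒪 →
    ∀ (ρbar : ResidualGaloisRep (ResidueField 𝒪)) (Smin : Finset ℕ),
    ResHyp p ρbar Smin →
    condOrd 𝒪 p Smin ∅ (GaloisRepAdic.ofResidualGaloisRep ρbar) →
    ∀ (Q : Finset ℕ) (N' : ℕ) [NeZero N'] [Fact (CuspForm.HasIntegralStructure N' 2)]
      (S' : Finset ℕ),
    S' = Smin ∪ Q →
    (∀ q : ℕ, q.Prime → q ∣ N' → q ∈ S') →
    (∀ q ∈ Smin, q ≠ p → q ∣ N' ∧ ¬ q ^ 2 ∣ N') →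
    ¬ p ^ 2 ∣ N' →
    ∀ (θ : CuspForm.heckeAlgebra N' 2 (↑S' : Set ℕ) →+* ResidueField 𝒪),
    Fermat.Agent.S59.Datum.FrobHyp ρbar N' S' θ →
    ∀ (H : CuspForm.HeckeGaloisRepDatum N' (↑S' : Set ℕ) 𝒪 θ
        (CuspForm.heckeLocal N' (↑S' : Set ℕ) 𝒪 θ)),
    H.π = CuspForm.heckeLocal.π N' (↑S' : Set ℕ) 𝒪 θ →
    H.ρ.DetIsCyclotomic p →
    H.ρ.residual.IsEquiv (ρbar.baseChangeAlong
      (ResidueField.map (algebraMap 𝒪 (CuspForm.heckeLocal N' (↑S' : Set ℕ) 𝒪 θ)))) →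
    condOrd 𝒪 p Smin Q H.ρ

/-! ## 3. The Hecke side -/

/-- The geometric data of the step at `p`: from the state `s` (level prime to `p`) to a state at
the level `N p`, the Hecke algebra being taken away from the same set `S ∋ p`. -/
structure PStep {𝒪 : Type} [CommRing 𝒪] [IsLocalRing 𝒪] (p : ℕ) (s : NMState 𝒪)
    [NeZero (s.N * p)] : Type 1 where
  /-- restriction of Hecke operators -/
  rest : CuspForm.heckeAlgebra (s.N * p) 2 (↑s.S : Set ℕ) →+*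
    CuspForm.heckeAlgebra s.N 2 (↑s.S : Set ℕ)
  rest_T : ∀ (ℓ : ℕ) (hℓ : ℓ.Prime) (hℓN' : ¬ ℓ ∣ s.N * p) (hℓS : ℓ ∉ (↑s.S : Set ℕ))
    (hℓN : ¬ ℓ ∣ s.N),
    rest (CuspForm.heckeAlgebra.T hℓ hℓN' hℓS) = CuspForm.heckeAlgebra.T hℓ hℓN hℓS
  /-- the Hecke module at the level `N p` (the `U_p`-ordinary part) -/
  M' : HMod 𝒪 (s.N * p) (↑s.S : Set ℕ) (s.θ.comp rest)
  /-- the unit root of `X² - T_p X + p` on the module of level `N` -/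
  A : Module.End 𝒪 s.M.V
  A_comm : ∀ (t : CuspForm.heckeAlgebra s.N 2 (↑s.S : Set ℕ)), A * s.M.η t = s.M.η t * A
  /-- the level raising map `x ↦ i₁^* A x - i₂^* x` -/
  α : s.M.V →ₗ[𝒪] M'.V
  /-- its adjoint -/
  α' : M'.V →ₗ[𝒪] s.M.V
  α_η : ∀ (t : CuspForm.heckeAlgebra (s.N * p) 2 (↑s.S : Set ℕ)) (v : s.M.V),
    α (s.M.η (rest t) v) = M'.η t (α v)
  α'_η : ∀ (t : CuspForm.heckeAlgebra (s.N * p) 2 (↑s.S : Set ℕ)) (w : M'.V),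
    α' (M'.η t w) = s.M.η (rest t) (α' w)
  /-- Ihara's lemma at `p`: `α` is injective with saturated image -/
  α_inj : Function.Injective α
  α_sat : ∀ (a : 𝒪) (w : M'.V), a ≠ 0 → a • w ∈ LinearMap.range α → w ∈ LinearMap.range α
  /-- dual Ihara -/
  α'_surj : Function.Surjective α'
  /-- a unit -/
  u : 𝒪ˣ
  /-- `α' ∘ α = u · (A² - 1)` -/
  comp : ∀ v : s.M.V, α' (α v) = (u : 𝒪) • (A (A v) - v)
  /-- multiplicity one: the eigenspaces do not grow -/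
  rank : ∀ (x : CuspForm.heckeAlgebra s.N 2 (↑s.S : Set ℕ) →+* 𝒪),
    (∀ t, residue 𝒪 (x t) = s.θ t) →
    Module.finrank 𝒪 (NMState.eigen ⟨s.N * p, s.S, s.θ.comp rest, M'⟩ (x.comp rest)) ≤
      Module.finrank 𝒪 (s.eigen x)
  /-- local-global compatibility at `p` (Eichler–Shimura at `p` on the étale quotient): on the
  eigenspace of `x` the operator `A` is a scalar `a`, `a² ≠ 1`, and `tr ρ_x(g) = a + a⁻¹` for every
  Frobenius element `g` at `p` fixing `μ_{p^∞}` -/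
  lgc : ∀ (x : CuspForm.heckeAlgebra s.N 2 (↑s.S : Set ℕ) →+* 𝒪),
    (∀ t, residue 𝒪 (x t) = s.θ t) →
    ∃ a : 𝒪ˣ, (a : 𝒪) ^ 2 ≠ 1 ∧ (∀ v ∈ s.eigen x, A v = (a : 𝒪) • v) ∧
      ∀ ρ : GaloisRepAdic 𝒪, Fermat.Agent.R.HasFrobCharpoly x ρ →
        ρ.residual.IsAbsolutelyIrreducible → ρ.DetIsCyclotomic p →
        ∀ (P : ValuationSubring (AlgebraicClosure ℚ)), P.LiesOverPrime p →
        ∀ g : AlgebraicClosure ℚ ≃ₐ[ℚ] AlgebraicClosure ℚ, P.IsFrobeniusAt g p →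
          FixesPRoots p g → ρ.trace g = (a : 𝒪) + ((a⁻¹ : 𝒪ˣ) : 𝒪)

/-- The state after the step at `p`. -/
noncomputable def PStep.next {𝒪 : Type} [CommRing 𝒪] [IsLocalRing 𝒪] {p : ℕ} {s : NMState 𝒪}
    [NeZero (s.N * p)] (st : PStep p s) : NMState 𝒪 :=
  ⟨s.N * p, s.S, s.θ.comp st.rest, st.M'⟩

section RTC

variable (𝒪 : Type) [CommRing 𝒪] [IsDomain 𝒪] [IsDiscreteValuationRing 𝒪]
  [IsAdicComplete (maximalIdeal 𝒪) 𝒪]

/-- `RTProp` for the ordinary condition. -/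
def RTPropC (p : ℕ) (ρbar : ResidualGaloisRep (ResidueField 𝒪)) (Smin Sig : Finset ℕ)
    (s : NMState 𝒪) [Fact (CuspForm.HasIntegralStructure s.N 2)]
    (x : CuspForm.heckeAlgebra s.N 2 (↑s.S : Set ℕ) →+* 𝒪) (d : ℕ) : Prop :=
  Module.finrank 𝒪 (s.eigen x) = d ∧
  ∃ (D : GaloisRep.DeformationRingData 𝒪 ρbar (condOrd 𝒪 p Smin Sig))
    (H : CuspForm.HeckeGaloisRepDatum s.N (↑s.S : Set ℕ) 𝒪 s.θ
      (CuspForm.heckeLocal s.N (↑s.S : Set ℕ) 𝒪 s.θ))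
    (φ : D.R →ₐ[𝒪] CuspForm.heckeLocal s.N (↑s.S : Set ℕ) 𝒪 s.θ)
    (hφ : IsLocalHom (φ : D.R →+* CuspForm.heckeLocal s.N (↑s.S : Set ℕ) 𝒪 s.θ))
    (ηhat : CuspForm.heckeLocal s.N (↑s.S : Set ℕ) 𝒪 s.θ →ₐ[𝒪] Module.End 𝒪 s.M.V)
    (πx : CuspForm.heckeLocal s.N (↑s.S : Set ℕ) 𝒪 s.θ →ₐ[𝒪] 𝒪),
    H.π = CuspForm.heckeLocal.π s.N (↑s.S : Set ℕ) 𝒪 s.θ ∧
    Function.Bijective φ ∧
    (D.ρ.baseChangeAlong (φ : D.R →+* CuspForm.heckeLocal s.N (↑s.S : Set ℕ) 𝒪 s.θ) hφ).IsEquiv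
      H.ρ ∧
    (∀ t, ηhat (CuspForm.heckeLocal.π s.N (↑s.S : Set ℕ) 𝒪 s.θ t) = s.M.η t) ∧
    (∀ t, πx (CuspForm.heckeLocal.π s.N (↑s.S : Set ℕ) 𝒪 s.θ t) = x t) ∧
    Finite (RingHom.ker ((πx.comp φ : D.R →ₐ[𝒪] 𝒪) : D.R →+* 𝒪)).Cotangent ∧
    Nat.card (RingHom.ker ((πx.comp φ : D.R →ₐ[𝒪] 𝒪) : D.R →+* 𝒪)).Cotangent ^ d =
      omegaCard ηhat πx

end RTC

/-! ## 4. The step at `p`, the geometry, the targets -/

/-- **PSTEP** (pure algebra + deformation theory, as `Stmt_STEP`): `RTProp` for the flat condition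
at a state of level prime to `p` gives `RTPropC` at the state after the step at `p`.
[As STEP (plan §3) with `Stmt_SELMERp` (constant `c = a - a⁻¹`, `lgc`), `Stmt_TAUord`,
`Stmt_DEFord`, `Stmt_CONDord`, `NumCrit.H90.card_omega_growth` with the constant `u (a² - 1)`.] -/
def Stmt_PSTEP : Prop :=
  ∀ (𝒪 : Type) [CommRing 𝒪] [IsDomain 𝒪] [IsDiscreteValuationRing 𝒪]
    [IsAdicComplete (maximalIdeal 𝒪) 𝒪] [Finite (ResidueField 𝒪)] [CharZero 𝒪]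
    (p : ℕ) [Fact p.Prime], p ≠ 2 → (p : 𝒪) ∈ maximalIdeal 𝒪 →
    ∀ (ρbar : ResidualGaloisRep (ResidueField 𝒪)) (Smin : Finset ℕ),
    ResHyp p ρbar Smin →
    cond 𝒪 p true Smin ∅ (GaloisRepAdic.ofResidualGaloisRep ρbar) →
    (GaloisRepAdic.ofResidualGaloisRep ρbar).IsOrdinaryAt p →
    ∀ (Sig : Finset ℕ) (s : NMState 𝒪) [Fact (CuspForm.HasIntegralStructure s.N 2)],
    LevelHyp 𝒪 p true Smin Sig s →
    Fermat.Agent.S59.Datum.FrobHyp ρbar s.N s.S s.θ →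
    ∀ (x : CuspForm.heckeAlgebra s.N 2 (↑s.S : Set ℕ) →+* 𝒪),
    (∀ t, residue 𝒪 (x t) = s.θ t) →
    ∀ (d : ℕ), 0 < d → RTProp 𝒪 p true ρbar Smin Sig s x d →
    ∀ [NeZero (s.N * p)] (st : PStep p s)
      [Fact (CuspForm.HasIntegralStructure (s.N * p) 2)],
      RTPropC 𝒪 p ρbar Smin Sig
        (⟨s.N * p, s.S, s.θ.comp st.rest, st.M'⟩ : NMState 𝒪) (x.comp st.rest) d

/-- **NMGEOM-C**: `Stmt_NMGEOM` (for the flat minimal problem) with a class `G` of states which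
moreover admits the step at `p`. -/
def Stmt_NMGEOMC : Prop :=
  ∀ (𝒪 : Type) [CommRing 𝒪] [IsDomain 𝒪] [IsDiscreteValuationRing 𝒪]
    [IsAdicComplete (maximalIdeal 𝒪) 𝒪] [Finite (ResidueField 𝒪)] [CharZero 𝒪]
    (p : ℕ) [Fact p.Prime], p ≠ 2 → (p : 𝒪) ∈ maximalIdeal 𝒪 →
    ∀ (ρbar : ResidualGaloisRep (ResidueField 𝒪)) (Smin : Finset ℕ), ResHyp p ρbar Smin →
    (GaloisRepAdic.ofResidualGaloisRep ρbar).IsOrdinaryAt p →
    ∀ (N : ℕ) [NeZero N] [Fact (CuspForm.HasIntegralStructure N 2)],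
    (∀ q : ℕ, q.Prime → q ∣ N → q ∈ Smin) → Squarefree N → ¬ p ∣ N →
    ∀ (θ : CuspForm.heckeAlgebra N 2 (↑Smin : Set ℕ) →+* ResidueField 𝒪),
    Fermat.Agent.S59.Datum.FrobHyp ρbar N Smin θ →
    ∃ (M : HMod 𝒪 N (↑Smin : Set ℕ) θ) (G : NMState 𝒪 → Prop), Nontrivial M.V ∧
      (∀ (r n : ℕ) (qv : Fin r → ℕ), Fermat.Agent.S56.IsTWFamily ρbar p n Smin qv →
        ∀ [NeZero (twLevel N qv)] [Fact (CuspForm.HasIntegralStructure (twLevel N qv) 2)],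
          Nonempty (TWGeom 𝒪 p ρbar N Smin θ M n qv)) ∧
      G ⟨N, Smin, θ, M⟩ ∧
      (∀ s : NMState 𝒪, G s → ∀ (q : ℕ) (hq : q.Prime), q ≠ p → ∀ (hqN : ¬ q ∣ s.N)
        (hqS : q ∉ (↑s.S : Set ℕ)) [NeZero (s.N * q ^ 2)],
        ∃ st : NMStep s hq hqN hqS, G st.next) ∧
      ∀ s : NMState 𝒪, G s → ¬ p ∣ s.N → ∀ [NeZero (s.N * p)], Nonempty (PStep p s)

/-- **Modularity lifting, case C**: `ρbar` flat and ordinary, `ρ` ordinary. -/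
def Stmt_MLTnmC : Prop :=
  ∀ (𝒪 : Type) [CommRing 𝒪] [IsDomain 𝒪] [IsDiscreteValuationRing 𝒪]
    [IsAdicComplete (maximalIdeal 𝒪) 𝒪] [Finite (ResidueField 𝒪)] [CharZero 𝒪]
    (p : ℕ) [Fact p.Prime], p ≠ 2 → (p : 𝒪) ∈ maximalIdeal 𝒪 →
    ∀ (ρbar : ResidualGaloisRep (ResidueField 𝒪)) (Smin : Finset ℕ),
    ResHyp p ρbar Smin →
    cond 𝒪 p true Smin ∅ (GaloisRepAdic.ofResidualGaloisRep ρbar) →
    ∀ (N : ℕ) [NeZero N], N = minLevel p true Smin →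
    ∀ (θ : CuspForm.heckeAlgebra N 2 (↑Smin : Set ℕ) →+* ResidueField 𝒪),
    Fermat.Agent.S59.Datum.FrobHyp ρbar N Smin θ →
    ∀ (x₀ : CuspForm.heckeAlgebra N 2 (↑Smin : Set ℕ) →+* 𝒪),
    (∀ t, residue 𝒪 (x₀ t) = θ t) →
    ∀ (Sig : Finset ℕ), (∀ q ∈ Sig, q.Prime ∧ q ∉ Smin) →
    ∀ (ρ : GaloisRepAdic 𝒪), condOrd 𝒪 p Smin Sig ρ →
    ρ.residual.IsEquiv (ρbar.baseChangeAlong (ResidueField.map (algebraMap 𝒪 𝒪))) →
    ∀ (a : ℕ → ℤ),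
    (∀ ℓ : ℕ, ℓ.Prime → ℓ ∉ Smin ∪ Sig →
      ∀ A : ValuationSubring (AlgebraicClosure ℚ), A.LiesOverPrime ℓ →
        ∀ σ : AlgebraicClosure ℚ ≃ₐ[ℚ] AlgebraicClosure ℚ, A.IsFrobeniusAt σ ℓ →
          LinearMap.charpoly (ρ.ρ σ) = X ^ 2 - C (((a ℓ : ℤ) : 𝒪)) * X + C ((ℓ : 𝒪))) →
    ∃ N' : ℕ, ¬ p ^ 2 ∣ N' ∧ (∀ q : ℕ, q.Prime → ¬ q ^ 3 ∣ N') ∧
      ∃ g : CuspForm (Gamma0 N') 2, g.IsNormalizedEigenform ∧
        ∀ ℓ : ℕ, ℓ.Prime → ¬ ℓ ∣ N' → ℓ ∉ Smin ∪ Sig → qCoeff ⇑g ℓ = (a ℓ : ℂ)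

/-- **Modularity lifting over the minimal level, all cases** (= `Asm.Stmt_MLTgen` with a base
point `x₀`): the target of RT-NONMIN. -/
def Stmt_MLTall : Prop :=
  ∀ (𝒪 : Type) [CommRing 𝒪] [IsDomain 𝒪] [IsDiscreteValuationRing 𝒪]
    [IsAdicComplete (maximalIdeal 𝒪) 𝒪] [Finite (ResidueField 𝒪)] [CharZero 𝒪]
    (p : ℕ) [Fact p.Prime], p ≠ 2 → (p : 𝒪) ∈ maximalIdeal 𝒪 →
    ∀ (fl : Bool) (ρbar : ResidualGaloisRep (ResidueField 𝒪)) (Smin : Finset ℕ),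
    ResHyp p ρbar Smin →
    cond 𝒪 p fl Smin ∅ (GaloisRepAdic.ofResidualGaloisRep ρbar) →
    (fl = false → ¬ (GaloisRepAdic.ofResidualGaloisRep ρbar).IsFlatAt p) →
    ∀ (N : ℕ) [NeZero N], N = minLevel p fl Smin →
    ∀ (θ : CuspForm.heckeAlgebra N 2 (↑Smin : Set ℕ) →+* ResidueField 𝒪),
    Fermat.Agent.S59.Datum.FrobHyp ρbar N Smin θ →
    ∀ (x₀ : CuspForm.heckeAlgebra N 2 (↑Smin : Set ℕ) →+* 𝒪),
    (∀ t, residue 𝒪 (x₀ t) = θ t) →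
    ∀ (Sig : Finset ℕ), (∀ q ∈ Sig, q.Prime ∧ q ∉ Smin) →
    ∀ (ρ : GaloisRepAdic 𝒪), ρ.DetIsCyclotomic p →
    (∀ q : ℕ, q.Prime → q ∉ Smin → q ∉ Sig → ρ.IsUnramifiedAt q) →
    (∀ q ∈ Smin, q ≠ p → ρ.IsUnipotentOnInertiaAt q) →
    (∀ q ∈ Sig, ρ.IsUnipotentOnInertiaAt q) →
    (ρ.IsFlatAt p ∨ ρ.IsStrictOrdinaryAt p) →
    ρ.residual.IsEquiv (ρbar.baseChangeAlong (ResidueField.map (algebraMap 𝒪 𝒪))) →
    ∀ (a : ℕ → ℤ),
    (∀ ℓ : ℕ, ℓ.Prime → ℓ ∉ Smin → ℓ ∉ Sig →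
      ∀ A : ValuationSubring (AlgebraicClosure ℚ), A.LiesOverPrime ℓ →
        ∀ σ : AlgebraicClosure ℚ ≃ₐ[ℚ] AlgebraicClosure ℚ, A.IsFrobeniusAt σ ℓ →
          LinearMap.charpoly (ρ.ρ σ) = X ^ 2 - C (((a ℓ : ℤ) : 𝒪)) * X + C ((ℓ : 𝒪))) →
    ∃ N' : ℕ, ¬ p ^ 2 ∣ N' ∧ (∀ q : ℕ, q.Prime → ¬ q ^ 3 ∣ N') ∧
      ∃ g : CuspForm (Gamma0 N') 2, g.IsNormalizedEigenform ∧
        ∀ ℓ : ℕ, ℓ.Prime → ℓ ∉ Smin → ℓ ∉ Sig → ¬ ℓ ∣ N' → qCoeff ⇑g ℓ = (a ℓ : ℂ)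

/-- **RESFLAT**: the reduction of a flat representation is flat (used in the case `fl = false`:
`ρ` flat would make `ρbar` flat). -/
def Stmt_RESFLAT : Prop :=
  ∀ (𝒪 : Type) [CommRing 𝒪] [IsDomain 𝒪] [IsDiscreteValuationRing 𝒪]
    [IsAdicComplete (maximalIdeal 𝒪) 𝒪] [Finite (ResidueField 𝒪)]
    (p : ℕ) [Fact p.Prime] (ρbar : ResidualGaloisRep (ResidueField 𝒪)) (ρ : GaloisRepAdic 𝒪),
    ρ.residual.IsEquiv (ρbar.baseChangeAlong (ResidueField.map (algebraMap 𝒪 𝒪))) →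
    ρ.IsFlatAt p → (GaloisRepAdic.ofResidualGaloisRep ρbar).IsFlatAt p

/-- The wirings to be proved. -/
def Stmt_WIREC : Prop :=
  Stmt_NMGEOMC → Stmt_STEP → Stmt_BASE → Stmt_PSTEP → Asm.Stmt_COND →
    Fermat.Agent.S59.Datum.Stmt_DATUM → Stmt_TWprimes → Asm.Stmt_ASM → Stmt_MLTnmC

def Stmt_WIREall : Prop :=
  Stmt_MLTnm → Stmt_MLTnmC → Stmt_RESFLAT → Stmt_MLTall

end Fermat.Agent.S59.NonMin

end
-- ==== END Fermat.Agent.S59.NonMin.Defs2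

-- ==== BEGIN Fermat.Agent.S59.NonMin.Geom.Defs
section

/-!
# S59, package RT-NONMIN, sub-package NMGEOM (planner helper61): interface

Plan: `NOTES/plan/S59_NMGEOM.md`.  Betti realisation of the step `N ↦ N q²` of Wiles' induction.

* `j1, j2, j3 : Γ₀(N q²) →* Γ₀(N)` : inclusion, conjugation by `diag(q,1)`, by `diag(q²,1)`;
  `resA1..3`, `corC1..3` : restriction and transfer along them (any coefficient group);
* `alphaB = q·A₁ - A₂ T_q + A₃`, `alphaB' = C₁ - T_q C₂ + q·C₃`, `alphaD = A₁ - A₂ T_q + q·A₃`;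
* `InBetti 𝒪 N S θ Sig φ` : `φ : Γ₀(N) → 𝒪` is parabolic, killed by `U_r` (`r ∈ Sig`) and
  `θ`-local; `IsBetti s Sig` : the module of the state `s` is this lattice;
* `Deg3` : the abstract three-degeneracy-maps package (pure algebra);
* the leaves `Stmt_*`.

No `sorry`; definitions only.
-/

set_option autoImplicit false

open Polynomial CuspForm CongruenceSubgroup IsLocalRing
open scoped MatrixGroups

namespace Fermat.Agent.S59.NonMin.Geom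

open Fermat.Agent.S41 Fermat.Agent.Betti Fermat.Agent.S59 Fermat.Agent.S59.Asm
open ModularCurve.Period

/-! ## 1. The three degeneracy maps `Γ₀(N q²) → Γ₀(N)` -/

section Maps

variable (N q : ℕ)

/-- `Γ₀(N q²) = Γ₀((N q) q)`. -/
def castG : Gamma0 (N * q ^ 2) →* Gamma0 (N * q * q) :=
  Subgroup.inclusion (le_of_eq (congrArg (fun M => Gamma0 M) (by ring)))

/-- the inclusion `Γ₀(N q²) → Γ₀(N)` -/
def j1 : Gamma0 (N * q ^ 2) →* Gamma0 N :=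
  (inclG N q).comp ((inclG (N * q) q).comp (castG N q))

/-- conjugation by `diag(q, 1)`: `[[a,b],[c,d]] ↦ [[a, q b],[c/q, d]]` -/
def j2 : Gamma0 (N * q ^ 2) →* Gamma0 N :=
  (conjG N q).comp ((inclG (N * q) q).comp (castG N q))

/-- conjugation by `diag(q², 1)`: `[[a,b],[c,d]] ↦ [[a, q² b],[c/q², d]]` -/
def j3 : Gamma0 (N * q ^ 2) →* Gamma0 N :=
  (conjG N q).comp ((conjG (N * q) q).comp (castG N q))

variable (A : Type*) [AddCommGroup A]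

/-- `A₁ = i₁^*` -/
def resA1 (φ : Additive (Gamma0 N) →+ A) : Additive (Gamma0 (N * q ^ 2)) →+ A :=
  resAlong A (j1 N q) φ
/-- `A₂ = i₂^*` -/
def resA2 (φ : Additive (Gamma0 N) →+ A) : Additive (Gamma0 (N * q ^ 2)) →+ A :=
  resAlong A (j2 N q) φ
/-- `A₃ = i₃^*` -/
def resA3 (φ : Additive (Gamma0 N) →+ A) : Additive (Gamma0 (N * q ^ 2)) →+ A :=
  resAlong A (j3 N q) φ
/-- `C₁ = i₁_*` -/
noncomputable def corC1 (ψ : Additive (Gamma0 (N * q ^ 2)) →+ A) : Additive (Gamma0 N) →+ A :=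
  corAlong A (j1 N q) ψ
/-- `C₂ = i₂_*` -/
noncomputable def corC2 (ψ : Additive (Gamma0 (N * q ^ 2)) →+ A) : Additive (Gamma0 N) →+ A :=
  corAlong A (j2 N q) ψ
/-- `C₃ = i₃_*` -/
noncomputable def corC3 (ψ : Additive (Gamma0 (N * q ^ 2)) →+ A) : Additive (Gamma0 N) →+ A :=
  corAlong A (j3 N q) ψ

variable {q}

/-- the level raising map `α = q A₁ - A₂ T_q + A₃` (Betti form of `q ·` the `q`-depletion
`f(z) - a_q f(qz) + q f(q²z)`); `U_q α = 0`. -/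
noncomputable def alphaB (hq : q.Prime) (hqN : ¬ q ∣ N) (φ : Additive (Gamma0 N) →+ A) :
    Additive (Gamma0 (N * q ^ 2)) →+ A :=
  q • resA1 N q A φ - resA2 N q A (TB N A hq hqN φ) + resA3 N q A φ

/-- the dual depletion `α† = A₁ - A₂ T_q + q A₃` (`U_q† α† = 0`), the adjoint of `alphaB'` -/
noncomputable def alphaD (hq : q.Prime) (hqN : ¬ q ∣ N) (φ : Additive (Gamma0 N) →+ A) :
    Additive (Gamma0 (N * q ^ 2)) →+ A :=
  resA1 N q A φ - resA2 N q A (TB N A hq hqN φ) + q • resA3 N q A φ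

/-- `α' = C₁ - T_q C₂ + q C₃`; `α' U_q = 0`, `α' α = (q - 1)((q + 1)² - T_q²)`. -/
noncomputable def alphaB' (hq : q.Prime) (hqN : ¬ q ∣ N)
    (ψ : Additive (Gamma0 (N * q ^ 2)) →+ A) : Additive (Gamma0 N) →+ A :=
  corC1 N q A ψ - TB N A hq hqN (corC2 N q A ψ) + q • corC3 N q A ψ

end Maps

/-! ## 2. The Betti lattice of a state -/

section Lattice

variable (𝒪 : Type) [CommRing 𝒪] [IsLocalRing 𝒪]

/-- `φ : Γ₀(N) → 𝒪` is parabolic, killed by `U_r` for `r ∈ Sig`, and `θ`-local: for every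
`T_ℓ` in the Hecke algebra and every lift `a` of `θ(T_ℓ)`, `(T_ℓ - a)^n φ → 0`. -/
def InBetti (N : ℕ) [NeZero N] (S : Set ℕ) (θ : CuspForm.heckeAlgebra N 2 S →+* ResidueField 𝒪)
    (Sig : Finset ℕ) (φ : Additive (Gamma0 N) →+ 𝒪) : Prop :=
  IsParabolicHom (Gamma0 N) φ ∧
  (∀ r ∈ Sig, ∀ hr : r ∣ N, UB N 𝒪 hr φ = 0) ∧
  ∀ (ℓ : ℕ) (hℓ : ℓ.Prime) (hℓN : ¬ ℓ ∣ N) (hℓS : ℓ ∉ S) (a : 𝒪),
    residue 𝒪 a = θ (CuspForm.heckeAlgebra.T hℓ hℓN hℓS) →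
    ∀ m : ℕ, ∃ n : ℕ, ∀ γ : Additive (Gamma0 N),
      ((fun χ : Additive (Gamma0 N) →+ 𝒪 => TB N 𝒪 hℓ hℓN χ - a • χ)^[n] φ) γ ∈
        maximalIdeal 𝒪 ^ m

variable {𝒪}

/-- The module of the state `s` is the Betti lattice
`{φ ∈ Hom_par(Γ₀(N), 𝒪) : θ-local, U_r φ = 0 (r ∈ Sig)}` with its Hecke action. -/
def IsBetti (s : NMState 𝒪) (Sig : Finset ℕ) : Prop :=
  ∃ ι : s.M.V →ₗ[𝒪] (Additive (Gamma0 s.N) →+ 𝒪), Function.Injective ι ∧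
    (∀ φ, φ ∈ Set.range ι ↔ InBetti 𝒪 s.N (↑s.S : Set ℕ) s.θ Sig φ) ∧
    ∀ (ℓ : ℕ) (hℓ : ℓ.Prime) (hℓN : ¬ ℓ ∣ s.N) (hℓS : ℓ ∉ (↑s.S : Set ℕ)) (v : s.M.V),
      ι (s.M.η (CuspForm.heckeAlgebra.T hℓ hℓN hℓS) v) = TB s.N 𝒪 hℓ hℓN (ι v)

end Lattice

/-! ## 3. The abstract package (pure algebra) -/

/-- The abstract data of three degeneracy maps between two Hecke modules `L` (level `N`) and
`L'` (level `N q²`, before cutting by `U_q = 0`), with the relations of Betti cohomology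
(`Stmt_REL1..3`), the splitting `L' = ker U + im U`, Ihara's lemma and its dual. -/
structure Deg3 (𝒪 : Type) [CommRing 𝒪] [IsLocalRing 𝒪] {H H' : Type} [CommRing H] [CommRing H']
    (rest : H' →+* H) (θ : H →+* ResidueField 𝒪) : Type 1 where
  /-- the module at the level `N` -/
  L : Type
  /-- the module at the level `N q²` -/
  L' : Type
  [iL1 : AddCommGroup L]
  [iL2 : Module 𝒪 L]
  [iL3 : Module.Finite 𝒪 L]
  [iL4 : Module.Free 𝒪 L]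
  [iL'1 : AddCommGroup L']
  [iL'2 : Module 𝒪 L']
  [iL'3 : Module.Finite 𝒪 L']
  [iL'4 : Module.Free 𝒪 L']
  η : H →+* Module.End 𝒪 L
  η' : H' →+* Module.End 𝒪 L'
  η_local : ∀ (t : H) (a : 𝒪), residue 𝒪 a = θ t →
    ∃ m : ℕ, ∀ v : L, ((η t - a • (1 : Module.End 𝒪 L)) ^ m) v ∈
      (maximalIdeal 𝒪 • ⊤ : Submodule 𝒪 L)
  η'_local : ∀ (t : H') (a : 𝒪), residue 𝒪 a = θ (rest t) →
    ∃ m : ℕ, ∀ w : L', ((η' t - a • (1 : Module.End 𝒪 L')) ^ m) w ∈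
      (maximalIdeal 𝒪 • ⊤ : Submodule 𝒪 L')
  /-- the prime `q` -/
  q : ℕ
  q_unit : IsUnit (q : 𝒪)
  /-- `T_q ∈ H` -/
  Tq : H
  /-- `U_q` on `L'` -/
  U : Module.End 𝒪 L'
  U_η' : ∀ t : H', Commute U (η' t)
  A₁ : L →ₗ[𝒪] L'
  A₂ : L →ₗ[𝒪] L'
  A₃ : L →ₗ[𝒪] L'
  C₁ : L' →ₗ[𝒪] L
  C₂ : L' →ₗ[𝒪] L
  C₃ : L' →ₗ[𝒪] L
  A₁_η : ∀ (t : H') (v : L), A₁ (η (rest t) v) = η' t (A₁ v)
  A₂_η : ∀ (t : H') (v : L), A₂ (η (rest t) v) = η' t (A₂ v)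
  A₃_η : ∀ (t : H') (v : L), A₃ (η (rest t) v) = η' t (A₃ v)
  C₁_η : ∀ (t : H') (w : L'), C₁ (η' t w) = η (rest t) (C₁ w)
  C₂_η : ∀ (t : H') (w : L'), C₂ (η' t w) = η (rest t) (C₂ w)
  C₃_η : ∀ (t : H') (w : L'), C₃ (η' t w) = η (rest t) (C₃ w)
  /-- `T_q` commutes with the Hecke operators coming from `H'` -/
  Tq_η : ∀ t : H, Commute (η Tq) (η t)
  R1a : ∀ v : L, U (A₁ v) = A₁ (η Tq v) - A₂ v
  R1b : ∀ v : L, U (A₂ v) = q • A₁ v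
  R1c : ∀ v : L, U (A₃ v) = q • A₂ v
  R2a : ∀ w : L', C₁ (U w) = q • C₂ w
  R2b : ∀ w : L', C₂ (U w) = q • C₃ w
  R2c : ∀ w : L', C₃ (U w) = η Tq (C₃ w) - C₂ w
  R3a : ∀ v : L, C₁ (A₁ v) = (q * (q + 1)) • v
  R3b : ∀ v : L, C₁ (A₂ v) = q • η Tq v
  R3c : ∀ v : L, C₁ (A₃ v) = η Tq (η Tq v) - (q + 1) • v
  /-- `L' = ker U + im U` -/
  split : ∀ w : L', ∃ w₀ w₁ : L', w = w₀ + U w₁ ∧ U w₀ = 0
  /-- Ihara's lemma: `α = q A₁ - A₂ T_q + A₃` is injective modulo the maximal ideal -/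
  ihara : ∀ v : L, q • A₁ v - A₂ (η Tq v) + A₃ v ∈ (maximalIdeal 𝒪 • ⊤ : Submodule 𝒪 L') →
    v ∈ (maximalIdeal 𝒪 • ⊤ : Submodule 𝒪 L)
  /-- dual Ihara: `C₁ - T_q C₂ + q C₃` is surjective modulo the maximal ideal -/
  dual : ∀ v : L, ∃ w : L', C₁ w - η Tq (C₂ w) + q • C₃ w - v ∈
    (maximalIdeal 𝒪 • ⊤ : Submodule 𝒪 L)

attribute [instance] Deg3.iL1 Deg3.iL2 Deg3.iL3 Deg3.iL4 Deg3.iL'1 Deg3.iL'2 Deg3.iL'3 Deg3.iL'4

/-- The output of the algebra: the module `V = ker U ⊆ L'` with its Hecke action, the maps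
`α : L → V`, `α' : V → L` and their properties (all the fields of `NMStep` except `rank`). -/
structure Deg3Out {𝒪 : Type} [CommRing 𝒪] [IsLocalRing 𝒪] {H H' : Type} [CommRing H]
    [CommRing H'] {rest : H' →+* H} {θ : H →+* ResidueField 𝒪} (D : Deg3 𝒪 rest θ) :
    Type 1 where
  V : Type
  [iV1 : AddCommGroup V]
  [iV2 : Module 𝒪 V]
  [iV3 : Module.Finite 𝒪 V]
  [iV4 : Module.Free 𝒪 V]
  ι : V →ₗ[𝒪] D.L'
  ι_inj : Function.Injective ι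
  range_ι : ∀ w : D.L', w ∈ Set.range ι ↔ D.U w = 0
  η'' : H' →+* Module.End 𝒪 V
  ι_η : ∀ (t : H') (v : V), ι (η'' t v) = D.η' t (ι v)
  η''_local : ∀ (t : H') (a : 𝒪), residue 𝒪 a = θ (rest t) →
    ∃ m : ℕ, ∀ v : V, ((η'' t - a • (1 : Module.End 𝒪 V)) ^ m) v ∈
      (maximalIdeal 𝒪 • ⊤ : Submodule 𝒪 V)
  α : D.L →ₗ[𝒪] V
  α' : V →ₗ[𝒪] D.L
  ι_α : ∀ v : D.L, ι (α v) = D.q • D.A₁ v - D.A₂ (D.η D.Tq v) + D.A₃ v
  α'_eq : ∀ w : V, α' w = D.C₁ (ι w) - D.η D.Tq (D.C₂ (ι w)) + D.q • D.C₃ (ι w)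
  α_η : ∀ (t : H') (v : D.L), α (D.η (rest t) v) = η'' t (α v)
  α'_η : ∀ (t : H') (w : V), α' (η'' t w) = D.η (rest t) (α' w)
  α_inj : Function.Injective α
  α_sat : ∀ (a : 𝒪) (w : V), a ≠ 0 → a • w ∈ LinearMap.range α → w ∈ LinearMap.range α
  α'_surj : Function.Surjective α'
  comp : ∀ v : D.L, α' (α v) =
    -(D.η (((D.q : H) - 1) * (D.Tq ^ 2 - ((D.q : H) + 1) ^ 2)) v)

/-- **NM-ALG** (pure algebra, Mathlib only).
Proof: `V := ker U` (saturated, hence a direct summand, finite free); `U α = 0` by `R1`;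
`α'_full := C₁ - T_q C₂ + q C₃` kills `im U` by `R2`, so by `split` and `dual` (+ Nakayama)
`α' = α'_full|V` is onto; `q C₂ α = C₁ U α = 0`, `q C₃ α = C₂ U α = 0`, hence
`α' α = C₁ α = q²(q+1) - q T² + T² - (q+1) = -(q-1)(T² - (q+1)²)` by `R3`; `α` is injective with
saturated image by `ihara` (`a w = α v`, `a = unit · ϖ^n`: induction on `n`). -/
def Stmt_ALG : Prop :=
  ∀ (𝒪 : Type) [CommRing 𝒪] [IsDomain 𝒪] [IsDiscreteValuationRing 𝒪]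
    {H H' : Type} [CommRing H] [CommRing H'] (rest : H' →+* H) (θ : H →+* ResidueField 𝒪)
    (D : Deg3 𝒪 rest θ), Nonempty (Deg3Out D)

/-! ## 4. The relations in Betti cohomology (any coefficient group) -/

/-- **REL1**: `U_q A₁ = A₁ T_q - A₂`, `U_q A₂ = q A₁`, `U_q A₃ = q A₂`
(`U_q` of level `N q²`, `T_q` of level `N`). -/
def Stmt_REL1 : Prop :=
  ∀ (N q : ℕ) [NeZero N] [NeZero (N * q ^ 2)] (hq : q.Prime) (hqN : ¬ q ∣ N)
    (hd : q ∣ N * q ^ 2) (A : Type) [AddCommGroup A] (φ : Additive (Gamma0 N) →+ A),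
    UB (N * q ^ 2) A hd (resA1 N q A φ) = resA1 N q A (TB N A hq hqN φ) - resA2 N q A φ ∧
    UB (N * q ^ 2) A hd (resA2 N q A φ) = q • resA1 N q A φ ∧
    UB (N * q ^ 2) A hd (resA3 N q A φ) = q • resA2 N q A φ

/-- **REL2**: `C₁ U_q = q C₂`, `C₂ U_q = q C₃`, `C₃ U_q = T_q C₃ - C₂`. -/
def Stmt_REL2 : Prop :=
  ∀ (N q : ℕ) [NeZero N] [NeZero (N * q ^ 2)] (hq : q.Prime) (hqN : ¬ q ∣ N)
    (hd : q ∣ N * q ^ 2) (A : Type) [AddCommGroup A]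
    (ψ : Additive (Gamma0 (N * q ^ 2)) →+ A),
    corC1 N q A (UB (N * q ^ 2) A hd ψ) = q • corC2 N q A ψ ∧
    corC2 N q A (UB (N * q ^ 2) A hd ψ) = q • corC3 N q A ψ ∧
    corC3 N q A (UB (N * q ^ 2) A hd ψ) = TB N A hq hqN (corC3 N q A ψ) - corC2 N q A ψ

/-- **REL3**: `C₁ A₁ = q (q + 1)`, `C₁ A₂ = q T_q`, `C₁ A₃ = T_q² - (q + 1)`. -/
def Stmt_REL3 : Prop :=
  ∀ (N q : ℕ) [NeZero N] (hq : q.Prime) (hqN : ¬ q ∣ N)
    (A : Type) [AddCommGroup A] (φ : Additive (Gamma0 N) →+ A),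
    corC1 N q A (resA1 N q A φ) = (q * (q + 1)) • φ ∧
    corC1 N q A (resA2 N q A φ) = q • TB N A hq hqN φ ∧
    corC1 N q A (resA3 N q A φ) = TB N A hq hqN (TB N A hq hqN φ) - (q + 1) • φ

/-- **REL-T**: the `A_a`, `C_a` commute with `T_ℓ`, `ℓ ∤ N q`. -/
def Stmt_RELT : Prop :=
  ∀ (N q : ℕ) [NeZero N], q.Prime → ¬ q ∣ N →
    ∀ (ℓ : ℕ) (hℓ : ℓ.Prime) (hℓN : ¬ ℓ ∣ N) (hℓN' : ¬ ℓ ∣ N * q ^ 2)
    (A : Type) [AddCommGroup A],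
    (∀ φ : Additive (Gamma0 N) →+ A,
      TB (N * q ^ 2) A hℓ hℓN' (resA1 N q A φ) = resA1 N q A (TB N A hℓ hℓN φ) ∧
      TB (N * q ^ 2) A hℓ hℓN' (resA2 N q A φ) = resA2 N q A (TB N A hℓ hℓN φ) ∧
      TB (N * q ^ 2) A hℓ hℓN' (resA3 N q A φ) = resA3 N q A (TB N A hℓ hℓN φ)) ∧
    (∀ ψ : Additive (Gamma0 (N * q ^ 2)) →+ A,
      corC1 N q A (TB (N * q ^ 2) A hℓ hℓN' ψ) = TB N A hℓ hℓN (corC1 N q A ψ) ∧
      corC2 N q A (TB (N * q ^ 2) A hℓ hℓN' ψ) = TB N A hℓ hℓN (corC2 N q A ψ) ∧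
      corC3 N q A (TB (N * q ^ 2) A hℓ hℓN' ψ) = TB N A hℓ hℓN (corC3 N q A ψ))

/-- **REL-U**: the `A_a`, `C_a` commute with `U_r`, `r ∣ N`, `r ≠ q`. -/
def Stmt_RELU : Prop :=
  ∀ (N q : ℕ) [NeZero N] [NeZero (N * q ^ 2)], q.Prime → ¬ q ∣ N →
    ∀ (r : ℕ), r.Prime → ∀ (hrN : r ∣ N) (hrN' : r ∣ N * q ^ 2)
    (A : Type) [AddCommGroup A],
    (∀ φ : Additive (Gamma0 N) →+ A,
      UB (N * q ^ 2) A hrN' (resA1 N q A φ) = resA1 N q A (UB N A hrN φ) ∧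
      UB (N * q ^ 2) A hrN' (resA2 N q A φ) = resA2 N q A (UB N A hrN φ) ∧
      UB (N * q ^ 2) A hrN' (resA3 N q A φ) = resA3 N q A (UB N A hrN φ)) ∧
    (∀ ψ : Additive (Gamma0 (N * q ^ 2)) →+ A,
      corC1 N q A (UB (N * q ^ 2) A hrN' ψ) = UB N A hrN (corC1 N q A ψ) ∧
      corC2 N q A (UB (N * q ^ 2) A hrN' ψ) = UB N A hrN (corC2 N q A ψ) ∧
      corC3 N q A (UB (N * q ^ 2) A hrN' ψ) = UB N A hrN (corC3 N q A ψ))

/-- **REL-PAR**: the `A_a`, `C_a` preserve parabolic homomorphisms (and, with values in a field,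
cuspidal homomorphisms in the sense of `S41.IsCuspidalHom`). -/
def Stmt_RELPAR : Prop :=
  ∀ (N q : ℕ) [NeZero N], q.Prime → ¬ q ∣ N → ∀ (A : Type) [AddCommGroup A],
    (∀ φ : Additive (Gamma0 N) →+ A, IsParabolicHom (Gamma0 N) φ →
      IsParabolicHom (Gamma0 (N * q ^ 2)) (resA1 N q A φ) ∧
      IsParabolicHom (Gamma0 (N * q ^ 2)) (resA2 N q A φ) ∧
      IsParabolicHom (Gamma0 (N * q ^ 2)) (resA3 N q A φ)) ∧
    (∀ ψ : Additive (Gamma0 (N * q ^ 2)) →+ A, IsParabolicHom (Gamma0 (N * q ^ 2)) ψ →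
      IsParabolicHom (Gamma0 N) (corC1 N q A ψ) ∧
      IsParabolicHom (Gamma0 N) (corC2 N q A ψ) ∧
      IsParabolicHom (Gamma0 N) (corC3 N q A ψ)) ∧
    (∀ φ : Additive (Gamma0 N) →+ A, IsCuspidalHom (Gamma0 N) φ →
      IsCuspidalHom (Gamma0 (N * q ^ 2)) (resA1 N q A φ) ∧
      IsCuspidalHom (Gamma0 (N * q ^ 2)) (resA2 N q A φ) ∧
      IsCuspidalHom (Gamma0 (N * q ^ 2)) (resA3 N q A φ)) ∧
    (∀ ψ : Additive (Gamma0 (N * q ^ 2)) →+ A, IsCuspidalHom (Gamma0 (N * q ^ 2)) ψ →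
      IsCuspidalHom (Gamma0 N) (corC1 N q A ψ) ∧
      IsCuspidalHom (Gamma0 N) (corC2 N q A ψ) ∧
      IsCuspidalHom (Gamma0 N) (corC3 N q A ψ))

/-- **REL-SPLIT**: at a level `M = N q²` (`q ∤ N`, `q` invertible in `R`) the module
`Hom(Γ₀(M), R)` is `ker U_q ⊕ im U_q`, by operators `e, g` which are limits of polynomials in
the degeneracy maps: `U e = 0`, `1 = e + U g`, and `e, g` commute with all `T_ℓ` (`ℓ ∤ M`) and
`U_r` (`r ∣ N`) and preserve parabolic homomorphisms.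
[`U_q = res1 ∘ cor2` through the level `N q`; `U' = cor2 ∘ res1` (= `U_q` of level `N q`) is
injective on `Hom(Γ₀(N q), A)` for every `A` without `q`-torsion: `U' g = 0` gives
`q cor2' g = cor1' U' g = 0` and `cor1' g = T cor2' g - cor2' U' g = 0`, so `g = U'² g = 0` by
`S41.H39.al_main`; hence `U'` is bijective on `Hom(Γ₀(N q), R)` (finite free, injective mod the
maximal ideal); `e = 1 - res1 U'⁻¹ cor2`, `g = res1 U'⁻² cor2`.] -/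
def Stmt_RELSPLIT : Prop :=
  ∀ (R : Type) [CommRing R] [IsDomain R] [IsDiscreteValuationRing R]
    (N q : ℕ) [NeZero N] [NeZero (N * q ^ 2)], q.Prime → ¬ q ∣ N → IsUnit (q : R) →
    ∀ (hd : q ∣ N * q ^ 2),
    ∃ e g : (Additive (Gamma0 (N * q ^ 2)) →+ R) →+ (Additive (Gamma0 (N * q ^ 2)) →+ R),
      (∀ (c : R) ψ, e (c • ψ) = c • e ψ ∧ g (c • ψ) = c • g ψ) ∧
      (∀ ψ, UB (N * q ^ 2) R hd (e ψ) = 0) ∧
      (∀ ψ, ψ = e ψ + UB (N * q ^ 2) R hd (g ψ)) ∧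
      (∀ ψ, IsParabolicHom (Gamma0 (N * q ^ 2)) ψ →
        IsParabolicHom (Gamma0 (N * q ^ 2)) (e ψ) ∧ IsParabolicHom (Gamma0 (N * q ^ 2)) (g ψ)) ∧
      (∀ (ℓ : ℕ) (hℓ : ℓ.Prime) (hℓN' : ¬ ℓ ∣ N * q ^ 2) ψ,
        e (TB (N * q ^ 2) R hℓ hℓN' ψ) = TB (N * q ^ 2) R hℓ hℓN' (e ψ) ∧
        g (TB (N * q ^ 2) R hℓ hℓN' ψ) = TB (N * q ^ 2) R hℓ hℓN' (g ψ)) ∧
      (∀ (r : ℕ) (hrN' : r ∣ N * q ^ 2), r.Prime → r ≠ q → ∀ ψ,
        e (UB (N * q ^ 2) R hrN' ψ) = UB (N * q ^ 2) R hrN' (e ψ) ∧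
        g (UB (N * q ^ 2) R hrN' ψ) = UB (N * q ^ 2) R hrN' (g ψ))

/-- **FIT** (Fitting decomposition over a complete discrete valuation ring with finite residue
field; pure algebra, Mathlib only): for an endomorphism `f` of a finite free module `X` there is
an idempotent `π`, commuting with everything that commutes with `f`, whose fixed points are the
vectors `x` with `f^n x → 0`.
[`π = 1 - lim f^(k!)`: `End (X / ϖ^m X)` is a finite monoid, so `f^(k!)` is eventually constant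
modulo `ϖ^m` (the idempotent of the cyclic semigroup of `f`).]
Use (ASM-G, gap 1): `X` := the Betti lattice of `(N, insert q S, θ, Sig)` (`Stmt_BM`),
`f := T_q - a`; the fixed points of `π` are the Betti lattice of `(N, S, θ, Sig)`, and the maps
`C_a` of `Deg3` are `π ∘ corC_a` (the relations `R2`, `R3`, `C_a_η` and `dual` survive: `π`
commutes with the `T_ℓ` and `T_q`, fixes `L`, and `π (𝔪 X) ⊆ 𝔪 L`). -/
def Stmt_FIT : Prop :=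
  ∀ (𝒪 : Type) [CommRing 𝒪] [IsDomain 𝒪] [IsDiscreteValuationRing 𝒪]
    [IsAdicComplete (maximalIdeal 𝒪) 𝒪] [Finite (ResidueField 𝒪)]
    (X : Type) [AddCommGroup X] [Module 𝒪 X] [Module.Finite 𝒪 X] [Module.Free 𝒪 X]
    (f : Module.End 𝒪 X),
    ∃ π : Module.End 𝒪 X, π * π = π ∧ (∀ g : Module.End 𝒪 X, Commute g f → Commute g π) ∧
      ∀ x : X, π x = x ↔
        ∀ m : ℕ, ∃ n : ℕ, (f ^ n) x ∈ (maximalIdeal 𝒪 ^ m • ⊤ : Submodule 𝒪 X)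

/-! ## 5. Ihara's lemma for three degeneracy maps, over a field of characteristic `p` -/

/-- **IHARA3** (TOO WEAK for `Deg3.ihara` and `Stmt_DUAL`: use the three-vector form
`Geom.H78.Stmt_IHARA3v` of `H78_Ihara3vDefs.lean`, of which this is a corollary)
(the heart; port of `S41.Ihara` from `ZMod p` to a field `k` of characteristic
`p`, then the reduction of the three-map case to the two-map case by period functions):
a cuspidal eigen-homomorphism `x : Γ₀(N) → k` for a non-Eisenstein system `a` of eigenvalues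
with `c₁ A₁ x + c₂ A₂ x + c₃ A₃ x = 0`, `(c₁, c₂, c₃) ≠ 0`, is zero. -/
def Stmt_IHARA3 : Prop :=
  ∀ (k : Type) [Field k] (p : ℕ) [Fact p.Prime] [CharP k p], p ≠ 2 →
    ∀ (N q : ℕ), 0 < N → q.Prime → ¬ q ∣ N → q ≠ p →
    ∀ (P : ℕ → Prop) (a : ℕ → k), (∀ ℓ, P ℓ → ℓ.Prime ∧ ¬ ℓ ∣ N * q ∧ ℓ ≠ p) →
    (∀ M : ℕ, 0 < M → p ∣ M →
      ∃ ℓ, P ℓ ∧ ℓ % M = 1 % M ∧ (q : ZMod ℓ) ^ ((ℓ - 1) / p) ≠ 1 ∧ a ℓ ≠ 2) →
    ∀ x : Additive (Gamma0 N) →+ k, IsCuspidalHom (Gamma0 N) x →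
    (∀ (ℓ : ℕ) (hℓ : ℓ.Prime) (hℓN : ¬ ℓ ∣ N), P ℓ → TB N k hℓ hℓN x = a ℓ • x) →
    ∀ c₁ c₂ c₃ : k, (c₁ ≠ 0 ∨ c₂ ≠ 0 ∨ c₃ ≠ 0) →
    c₁ • resA1 N q k x + c₂ • resA2 N q k x + c₃ • resA3 N q k x = 0 → x = 0

/-- **CHEB-k** (port of `S41.H61` Chebotarev from `E[p]` to `ρbar`): the auxiliary primes.
[`ρbar` absolutely irreducible: if `tr ρbar(σ) = 2` for all `σ` fixing `ζ_M` and acting
non-trivially on `q^(1/p)`, then `ρbar` is unipotent on a normal subgroup with abelian-by-cyclic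
quotient …, see the plan.] -/
def Stmt_CHEBk : Prop :=
  ∀ (𝒪 : Type) [CommRing 𝒪] [IsDomain 𝒪] [IsDiscreteValuationRing 𝒪]
    [Finite (ResidueField 𝒪)] (p : ℕ) [Fact p.Prime], p ≠ 2 → (p : 𝒪) ∈ maximalIdeal 𝒪 →
    ∀ (ρbar : ResidualGaloisRep (ResidueField 𝒪)) (Smin : Finset ℕ), ResHyp p ρbar Smin →
    ∀ (N : ℕ) [NeZero N] (S : Finset ℕ)
      (θ : CuspForm.heckeAlgebra N 2 (↑S : Set ℕ) →+* ResidueField 𝒪),
    Fermat.Agent.S59.Datum.FrobHyp ρbar N S θ →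
    ∀ (q : ℕ), q.Prime → q ≠ p →
    ∀ (M : ℕ), 0 < M → p ∣ M → ∀ S' : Finset ℕ,
    ∃ (ℓ : ℕ) (hℓ : ℓ.Prime) (hℓN : ¬ ℓ ∣ N) (hℓS : ℓ ∉ (↑S : Set ℕ)), ℓ ∉ S' ∧
      ℓ % M = 1 % M ∧ (q : ZMod ℓ) ^ ((ℓ - 1) / p) ≠ 1 ∧
      θ (CuspForm.heckeAlgebra.T hℓ hℓN hℓS) ≠ 2

/-! ## 6. The hypotheses on a state, the Hecke module, duality, multiplicity one -/

/-- The hypotheses on the level of a state of the class `G`: `Sig` is the set of auxiliary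
primes, `N₀` the minimal level. -/
structure GeomHyp (p : ℕ) (Smin : Finset ℕ) (N₀ : ℕ) (Sig : Finset ℕ) (N : ℕ) (S : Finset ℕ) :
    Prop where
  hN : N = N₀ * ∏ r ∈ Sig, r ^ 2
  hS : S = Smin ∪ Sig
  hSig : ∀ r ∈ Sig, r.Prime ∧ r ≠ p ∧ r ∉ Smin
  hN₀ : Squarefree N₀
  hN₀S : ∀ r : ℕ, r.Prime → r ∣ N₀ → r ∈ Smin

/-- **BM**: the Betti lattice of `(N, S, θ, Sig)` is the module of a `HMod`.
[`InBetti` defines a saturated `𝒪`-submodule of the finite free module `Hom(Γ₀(N), 𝒪)`, stable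
under the `T_ℓ`; the Hecke algebra acts through `Betti.H76.heckeRho` (base change of
`Hom_par(Γ₀(N), ℤ)`); `η_local`: a uniform exponent on the finite dimensional reduction.
The elements of `Sig` are primes (so that `U_r` lies in the Hecke algebra away from `∅`).] -/
def Stmt_BM : Prop :=
  ∀ (𝒪 : Type) [CommRing 𝒪] [IsDomain 𝒪] [IsDiscreteValuationRing 𝒪]
    [IsAdicComplete (maximalIdeal 𝒪) 𝒪] [Finite (ResidueField 𝒪)] [CharZero 𝒪]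
    (N : ℕ) [NeZero N] (S : Finset ℕ), (∀ r : ℕ, r.Prime → r ∣ N → r ∈ S) →
    ∀ (θ : CuspForm.heckeAlgebra N 2 (↑S : Set ℕ) →+* ResidueField 𝒪) (Sig : Finset ℕ),
    (∀ r ∈ Sig, r.Prime) →
    ∃ M : HMod 𝒪 N (↑S : Set ℕ) θ, IsBetti (⟨N, S, θ, M⟩ : NMState 𝒪) Sig

/-- **DUAL** (dual Ihara): `α' = C₁ - T_q C₂ + q C₃` maps the Betti lattice of level `N q²`
(no condition at `q`) onto the Betti lattice of level `N`, modulo the maximal ideal.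
[Mod `ϖ`: cuspidal homs with values in `k` (`Betti.H77.stmt_torsLift`), the perfect pairing
`S41.H94.BL` with `A_a ↔ C_a`, `T_ℓ` self-adjoint; the adjoint of `α'` is `alphaD`, injective on
the `θ`-part by `Stmt_IHARA3`; the projectors `e_r` of `Stmt_RELSPLIT` for `r ∈ Sig`.  The owner proves
`dual_of : Stmt_IHARA3 → Stmt_CHEBk → Stmt_RELSPLIT → … → Stmt_DUAL`.] -/
def Stmt_DUAL : Prop :=
  ∀ (𝒪 : Type) [CommRing 𝒪] [IsDomain 𝒪] [IsDiscreteValuationRing 𝒪]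
    [IsAdicComplete (maximalIdeal 𝒪) 𝒪] [Finite (ResidueField 𝒪)] [CharZero 𝒪]
    (p : ℕ) [Fact p.Prime], p ≠ 2 → (p : 𝒪) ∈ maximalIdeal 𝒪 →
    ∀ (ρbar : ResidualGaloisRep (ResidueField 𝒪)) (Smin : Finset ℕ), ResHyp p ρbar Smin →
    ∀ (N₀ : ℕ) (Sig : Finset ℕ) (N : ℕ) [NeZero N] (S : Finset ℕ), GeomHyp p Smin N₀ Sig N S →
    ∀ (θ : CuspForm.heckeAlgebra N 2 (↑S : Set ℕ) →+* ResidueField 𝒪),
    Fermat.Agent.S59.Datum.FrobHyp ρbar N S θ →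
    ∀ (q : ℕ) (hq : q.Prime), q ≠ p → ∀ (hqN : ¬ q ∣ N), q ∉ (↑S : Set ℕ) →
    ∀ [NeZero (N * q ^ 2)]
      (rest : CuspForm.heckeAlgebra (N * q ^ 2) 2 (↑(insert q S) : Set ℕ) →+*
        CuspForm.heckeAlgebra N 2 (↑S : Set ℕ)),
    (∀ (ℓ : ℕ) (hℓ : ℓ.Prime) (hℓN' : ¬ ℓ ∣ N * q ^ 2)
      (hℓS' : ℓ ∉ (↑(insert q S) : Set ℕ)) (hℓN : ¬ ℓ ∣ N) (hℓS : ℓ ∉ (↑S : Set ℕ)),
      rest (CuspForm.heckeAlgebra.T hℓ hℓN' hℓS') = CuspForm.heckeAlgebra.T hℓ hℓN hℓS) →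
    ∀ φ : Additive (Gamma0 N) →+ 𝒪, InBetti 𝒪 N (↑S : Set ℕ) θ Sig φ →
      ∃ ψ : Additive (Gamma0 (N * q ^ 2)) →+ 𝒪,
        InBetti 𝒪 (N * q ^ 2) (↑(insert q S) : Set ℕ) (θ.comp rest) Sig ψ ∧
        ∀ γ, (alphaB' N 𝒪 hq hqN ψ - φ) γ ∈ maximalIdeal 𝒪

/-- **RANK** (multiplicity one; cusp forms + Eichler–Shimura): the eigenspaces do not grow.
Route (plan §8): (1) `rank M[x] = 2 dim E_x`, `E_x ⊆ S₂(Γ₀(N))` the space of forms with the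
eigenvalues `x(T_ℓ)` (`ℓ ∉ S`) killed by `U_r` (`r ∈ Sig`) (`S21`, `Betti.Stmt_period_TB/UB`);
(2) `dim E_x ≤ 1` at every state: `a₁` is injective on `E_x` — the operators `T_ℓ` (`ℓ ∈ S`,
`ℓ ∤ N`) are scalars by `R.H99.smo`, the `U_r` (`r ∣ N₀`) are `± 1` on `E_x` (no form of level
prime to `r` has the system `x`: `S31`/`S32` + `ResHyp.hmin`/non-flatness; `S41.H39.al_main`)
with a sign determined by `x` (single-prime main lemma of Atkin–Lehner + depletion);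
(3) `E_x ≠ 0` at every state. -/
def Stmt_RANK : Prop :=
  ∀ (𝒪 : Type) [CommRing 𝒪] [IsDomain 𝒪] [IsDiscreteValuationRing 𝒪]
    [IsAdicComplete (maximalIdeal 𝒪) 𝒪] [Finite (ResidueField 𝒪)] [CharZero 𝒪]
    (p : ℕ) [Fact p.Prime], p ≠ 2 → (p : 𝒪) ∈ maximalIdeal 𝒪 →
    ∀ (ρbar : ResidualGaloisRep (ResidueField 𝒪)) (Smin : Finset ℕ), ResHyp p ρbar Smin →
    ∀ (N₀ : ℕ), (p ∣ N₀ → ¬ (GaloisRepAdic.ofResidualGaloisRep ρbar).IsFlatAt p) →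
    ∀ (Sig : Finset ℕ) (s : NMState 𝒪), GeomHyp p Smin N₀ Sig s.N s.S →
    Fermat.Agent.S59.Datum.FrobHyp ρbar s.N s.S s.θ → IsBetti s Sig →
    ∀ (q : ℕ), q.Prime → q ≠ p → ¬ q ∣ s.N → q ∉ (↑s.S : Set ℕ) →
    ∀ [NeZero (s.N * q ^ 2)]
      (rest : CuspForm.heckeAlgebra (s.N * q ^ 2) 2 (↑(insert q s.S) : Set ℕ) →+*
        CuspForm.heckeAlgebra s.N 2 (↑s.S : Set ℕ)),
    (∀ (ℓ : ℕ) (hℓ : ℓ.Prime) (hℓN' : ¬ ℓ ∣ s.N * q ^ 2)
      (hℓS' : ℓ ∉ (↑(insert q s.S) : Set ℕ)) (hℓN : ¬ ℓ ∣ s.N) (hℓS : ℓ ∉ (↑s.S : Set ℕ)),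
      rest (CuspForm.heckeAlgebra.T hℓ hℓN' hℓS') = CuspForm.heckeAlgebra.T hℓ hℓN hℓS) →
    ∀ (M' : HMod 𝒪 (s.N * q ^ 2) (↑(insert q s.S) : Set ℕ) (s.θ.comp rest)),
    IsBetti (⟨s.N * q ^ 2, insert q s.S, s.θ.comp rest, M'⟩ : NMState 𝒪) (insert q Sig) →
    ∀ (x : CuspForm.heckeAlgebra s.N 2 (↑s.S : Set ℕ) →+* 𝒪),
    (∀ t, residue 𝒪 (x t) = s.θ t) →
    Module.finrank 𝒪 ↥(NMState.eigen (⟨s.N * q ^ 2, insert q s.S, s.θ.comp rest, M'⟩ : NMState 𝒪)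
      (x.comp rest)) ≤ Module.finrank 𝒪 ↥(s.eigen x)

/-! ## 7. The base of the induction, the target, the assembly -/

/-- **B0** (= `Asm.Stmt_TWGEOM` with the Hecke module identified with the Betti lattice;
owner: NEB-GEOM).  [`Ta_p J₀(N)_𝔪 ⊗ 𝒪 ≅ (Hom_par(Γ₀(N), ℤ) ⊗ 𝒪)_θ` by `GTor.H81` (`tateCoords`);
`TWGeom` depends on `M` only through `π`, so it is transported along a Hecke isomorphism.] -/
def Stmt_TWGEOMB : Prop :=
  ∀ (𝒪 : Type) [CommRing 𝒪] [IsDomain 𝒪] [IsDiscreteValuationRing 𝒪]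
    [IsAdicComplete (maximalIdeal 𝒪) 𝒪] [Finite (ResidueField 𝒪)] [CharZero 𝒪]
    (p : ℕ) [Fact p.Prime], p ≠ 2 → (p : 𝒪) ∈ maximalIdeal 𝒪 →
    ∀ (ρbar : ResidualGaloisRep (ResidueField 𝒪)) (Smin : Finset ℕ), ResHyp p ρbar Smin →
    ∀ (N : ℕ) [NeZero N] [Fact (CuspForm.HasIntegralStructure N 2)],
    (∀ q : ℕ, q.Prime → q ∣ N → q ∈ Smin) → Squarefree N →
    ∀ (θ : CuspForm.heckeAlgebra N 2 (↑Smin : Set ℕ) →+* ResidueField 𝒪),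
    Fermat.Agent.S59.Datum.FrobHyp ρbar N Smin θ →
    ∃ M : HMod 𝒪 N (↑Smin : Set ℕ) θ, Nontrivial M.V ∧
      IsBetti (⟨N, Smin, θ, M⟩ : NMState 𝒪) ∅ ∧
      ∀ (r n : ℕ) (qv : Fin r → ℕ), Fermat.Agent.S56.IsTWFamily ρbar p n Smin qv →
        ∀ [NeZero (twLevel N qv)] [Fact (CuspForm.HasIntegralStructure (twLevel N qv) 2)],
          Nonempty (TWGeom 𝒪 p ρbar N Smin θ M n qv)

/-- **NMGEOM2** = `Stmt_NMGEOM` with the hypothesis `p ∣ N → ρbar is not flat at p`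
(available where `Stmt_NMGEOM` is used: `N = minLevel p fl Smin`, `fl = false → ¬ flat`;
needed by `Stmt_RANK`). -/
def Stmt_NMGEOM2 : Prop :=
  ∀ (𝒪 : Type) [CommRing 𝒪] [IsDomain 𝒪] [IsDiscreteValuationRing 𝒪]
    [IsAdicComplete (maximalIdeal 𝒪) 𝒪] [Finite (ResidueField 𝒪)] [CharZero 𝒪]
    (p : ℕ) [Fact p.Prime], p ≠ 2 → (p : 𝒪) ∈ maximalIdeal 𝒪 →
    ∀ (ρbar : ResidualGaloisRep (ResidueField 𝒪)) (Smin : Finset ℕ), ResHyp p ρbar Smin →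
    ∀ (N : ℕ) [NeZero N] [Fact (CuspForm.HasIntegralStructure N 2)],
    (∀ q : ℕ, q.Prime → q ∣ N → q ∈ Smin) → Squarefree N →
    (p ∣ N → ¬ (GaloisRepAdic.ofResidualGaloisRep ρbar).IsFlatAt p) →
    ∀ (θ : CuspForm.heckeAlgebra N 2 (↑Smin : Set ℕ) →+* ResidueField 𝒪),
    Fermat.Agent.S59.Datum.FrobHyp ρbar N Smin θ →
    ∃ (M : HMod 𝒪 N (↑Smin : Set ℕ) θ) (G : NMState 𝒪 → Prop), Nontrivial M.V ∧
      (∀ (r n : ℕ) (qv : Fin r → ℕ), Fermat.Agent.S56.IsTWFamily ρbar p n Smin qv →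
        ∀ [NeZero (twLevel N qv)] [Fact (CuspForm.HasIntegralStructure (twLevel N qv) 2)],
          Nonempty (TWGeom 𝒪 p ρbar N Smin θ M n qv)) ∧
      G ⟨N, Smin, θ, M⟩ ∧
      ∀ s : NMState 𝒪, G s → ∀ (q : ℕ) (hq : q.Prime), q ≠ p → ∀ (hqN : ¬ q ∣ s.N)
        (hqS : q ∉ (↑s.S : Set ℕ)) [NeZero (s.N * q ^ 2)],
        ∃ st : NMStep s hq hqN hqS, G st.next

/-- **ASM-G**: the assembly (SUPERSEDED: the owner states `Stmt_ASMGv` with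
`Geom.H78.Stmt_IHARA3v`, the three-vector form of Ihara's lemma, in place of `Stmt_IHARA3`,
with `Stmt_FIT`, and with the conclusion `CaseC.Geom.Stmt_NMGEOMB`).
`G s := ∃ Sig, GeomHyp p Smin N Sig s.N s.S ∧
FrobHyp ρbar s.N s.S s.θ ∧ IsBetti s Sig`.  Step: `rest` (`Asm.H41.rest`), `L := s.M`,
`L'` := the `HMod` of `Stmt_BM` at `(N q², insert q S, θ ∘ rest, Sig)`, the operators of
`Stmt_REL*` restricted to the lattices, `ihara` from `Stmt_IHARA3` + `Stmt_CHEBk` (a common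
eigenvector in the kernel of `α` mod `ϖ`), `dual` from `Stmt_DUAL`, then `Stmt_ALG`, and
`rank` from `Stmt_RANK`. -/
def Stmt_ASMG : Prop :=
  Stmt_TWGEOMB → Stmt_BM → Stmt_ALG → Stmt_REL1 → Stmt_REL2 → Stmt_REL3 → Stmt_RELT →
    Stmt_RELU → Stmt_RELPAR → Stmt_RELSPLIT → Stmt_IHARA3 → Stmt_CHEBk → Stmt_DUAL →
    Stmt_RANK → Stmt_NMGEOM2

end Fermat.Agent.S59.NonMin.Geom

end
-- ==== END Fermat.Agent.S59.NonMin.Geom.Defs
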