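-- GENERATED (merged mirror, NOTES/tools/trim/merge3_helper67.py): 7 modules of the originals, bodies verbatim.
import Fermat.Agent.Zm.S43_L14_001
import Fermat.Agent.Zm.S43_L01_001
import Fermat.Agent.Zm.S43_L11_000
import Fermat.Agent.Zm.S43_L05_003
import Fermat.Agent.Zm.S43_L11_001
import Fermat.Agent.Zm.S43_L05_002
import Fermat.Agent.Zm.S58_L01_000
import Fermat.Agent.Zm.S43_L14_002
import Fermat.Agent.Zm.S43_L12_002
import Fermat.Agent.Zm.S43_L10_001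
import Fermat.Agent.Zm.S43_L07_001
import Fermat.Agent.Zm.S43_L09_001
import Fermat.Agent.Zm.S43_L12_001
import Fermat.Agent.Zm.S43_L03_002
import Fermat.Agent.Zm.S33_L01_003
import Fermat.Agent.Zm.S48_L15_000
import Fermat.Agent.Zm.S35_L21_000
import Fermat.Agent.Zm.S43_L14_003
import Fermat.Agent.Zm.S43_L08_001
import Fermat.Agent.Zm.S33_L03_002

-- ==== BEGIN Fermat.Agent.L.Pivot.H76_Wire2W
section

set_option autoImplicit false
set_option linter.style.haveILetI false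
set_option linter.unusedVariables false

open Polynomial IsLocalRing CuspForm CongruenceSubgroup ModularFormClass
open WeierstrassCurve WeierstrassCurve.Affine WeierstrassCurve.Affine.Point
open scoped WeierstrassCurve.Affine

namespace Fermat.Agent.L.Pivot.H76

open Fermat.Agent.L.Pivot Fermat.Agent.S59 Fermat.Agent.S59.Asm Fermat.Agent.S44
  Fermat.Agent.S43

set_option maxHeartbeats 1000000 in
set_option synthInstance.maxHeartbeats 400000 in
/-- The coefficient ring and the `p`-adic representation of a semistable curve. -/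
theorem exists_coeff_rep (hCYC : Stmt_CYC) (p : ℕ) [Fact p.Prime] (hp2 : p ≠ 2)
    (W : WeierstrassCurve ℤ) (hΔ : W.Δ ≠ 0) (hss : W.IsSemistableModel)
    (hirr : W.ModRepIsIrreducible p) (E : ℕ) :
    ∃ (𝒪 : Type) (_ : CommRing 𝒪) (_ : IsDomain 𝒪) (_ : IsDiscreteValuationRing 𝒪)
      (_ : IsAdicComplete (maximalIdeal 𝒪) 𝒪) (_ : Finite (ResidueField 𝒪)) (_ : CharZero 𝒪)
      (ρ : GaloisRepAdic 𝒪),
      ρ.DetIsCyclotomic p ∧
      (∀ q : ℕ, q.Prime → q ≠ p → ρ.IsUnipotentOnInertiaAt q) ∧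
      (¬ W.IsGoodPrimeFor p → ρ.IsStrictOrdinaryAt p) ∧
      (∀ ℓ : ℕ, ℓ.Prime → ℓ ≠ p → W.IsGoodPrimeFor ℓ →
        ∀ A : ValuationSubring (AlgebraicClosure ℚ), A.LiesOverPrime ℓ →
          ∀ σ : AlgebraicClosure ℚ ≃ₐ[ℚ] AlgebraicClosure ℚ, A.IsFrobeniusAt σ ℓ →
            LinearMap.charpoly (ρ.ρ σ) =
              X ^ 2 - C (((W.apOfModel ℓ : ℤ) : 𝒪)) * X + C ((ℓ : 𝒪))) ∧
      ρ.residual.IsAbsolutelyIrreducible ∧ TWCond ρ.residual ∧
      (∀ σ : AlgebraicClosure ℚ ≃ₐ[ℚ] AlgebraicClosure ℚ,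
        ∃ α β : ResidueField 𝒪,
          LinearMap.charpoly (ρ.residual.ρ σ) = (X - C α) * (X - C β)) ∧
      ∃ ζ : 𝒪, IsPrimitiveRoot ζ (p ^ E) := by
  have hpp : p.Prime := Fact.out
  obtain ⟨𝒪₀, i1, i2, i3, i4, i5, i6, ρ₀, hdet₀, hunr₀, hunip₀, hflat₀, hord₀, hfrob₀, hres₀⟩ :=
    Fermat.Agent.Tate.stmt_Tate p hp2 W hΔ hss
  obtain ⟨habs₀, hTW₀⟩ := hres₀ hirr
  obtain ⟨𝒪, j1, j2, j3, j4, j5, j6, j7, j8, j9, j10, hquad, ζ, hζ⟩ := hCYC 𝒪₀ p E hpp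
  refine ⟨𝒪, j1, j2, j3, j4, j5, j6, ρ₀.baseChangeAlong (algebraMap 𝒪₀ 𝒪) j10,
    ?_, ?_, ?_, ?_, ?_, ?_, ?_, ζ, hζ⟩
  · exact Fermat.Agent.S56.H92.detIsCyclotomic_baseChangeAlong _ j10 ρ₀ p hdet₀
  · exact fun q hq hqp =>
      Fermat.Agent.S56.H92.isUnipotentOnInertiaAt_baseChangeAlong _ j10 ρ₀ q (hunip₀ q hq hqp)
  · exact fun hbad =>
      Fermat.Agent.S56.H92.isStrictOrdinaryAt_baseChangeAlong _ j10 ρ₀ p (hord₀ hbad)
  · intro ℓ hℓ hℓp hgood A hA σ hσ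
    rw [Fermat.Agent.R.H86.baseChangeAlong_charpoly, hfrob₀ ℓ hℓ hℓp hgood A hA σ hσ]
    simp only [Polynomial.map_add, Polynomial.map_sub, Polynomial.map_mul, Polynomial.map_pow,
      Polynomial.map_X, map_intCast, map_natCast, Polynomial.map_intCast,
      Polynomial.map_natCast, Polynomial.map_C]
  · exact Fermat.Agent.R.H86.residual_absIrr_baseChangeAlong _ j10 ρ₀ habs₀
  · exact Fermat.Agent.S59.H99.twCond_baseChangeAlong _ j10 ρ₀ hTW₀
  · intro σ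
    have hm : (LinearMap.charpoly (ρ₀.residual.ρ σ)).Monic := LinearMap.charpoly_monic _
    have hd : (LinearMap.charpoly (ρ₀.residual.ρ σ)).natDegree = 2 := by
      rw [LinearMap.charpoly_natDegree, ρ₀.residual.finrank_eq]
    obtain ⟨α, β, hαβ⟩ := hquad _ hm hd
    refine ⟨α, β, ?_⟩
    rw [← hαβ, Fermat.Agent.S59.H99.charpoly_residual, Fermat.Agent.S59.H99.charpoly_residual,
      Fermat.Agent.R.H86.baseChangeAlong_charpoly, Polynomial.map_map, Polynomial.map_map]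
    congr 1

/-- `E[p]` of the model as a residual representation. -/
noncomputable abbrev torsRes (W : WeierstrassCurve ℤ) (hΔ : W.Δ ≠ 0) (p : ℕ) [Fact p.Prime] :
    ResidualGaloisRep (ZMod p) :=
  Fermat.Agent.S59.LL.H77.torsRep W p
    (by
      have hfr := Fermat.Agent.S58.H99.finrank_torsW W hΔ p
      have : Module.Finite (ZMod p) (Fermat.Agent.S58.H99.TorsW W p) :=
        Module.finite_of_finrank_eq_succ hfr
      have h := Module.natCard_eq_pow_finrank (K := ZMod p)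
        (V := Fermat.Agent.S58.H99.TorsW W p)
      rw [hfr, Nat.card_zmod] at h
      exact h)
    (Fermat.Agent.S58.H99.torsW_finiteLevel W hΔ p)

/-- `UnrW` is unramifiedness of `torsRes`. -/
theorem torsRes_isUnramifiedAt_iff (W : WeierstrassCurve ℤ) (hΔ : W.Δ ≠ 0) (p : ℕ)
    [Fact p.Prime] (q : ℕ) : (torsRes W hΔ p).IsUnramifiedAt q ↔ UnrW W p q := by
  constructor
  · intro h A hA σ hσ v
    have h1 := h A hA σ hσ
    have h2 := congrArg (fun F : Module.End (ZMod p) (torsRes W hΔ p).V => F v) h1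
    exact h2
  · intro h A hA σ hσ
    exact LinearMap.ext fun v => h A hA σ hσ v

set_option maxHeartbeats 1000000 in
set_option synthInstance.maxHeartbeats 400000 in
/-- **Layer W of PV-WIRE2** (level prime to `p`). -/
theorem pivotWCore_of (hCYC : Stmt_CYC) (hG : Stmt_PivotGal) : Stmt_PivotWCore5 := by
  classical
  intro p hp h5 W hΔ hss hirr N q hsq hpN hq hqN hunrq hexc f 𝔪 S hf h𝔪 hp𝔪 hcong
  have hp2 : p ≠ 2 := by omega
  haveI : Fact p.Prime := ⟨hp⟩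
  have hN0 : 0 < N := Nat.pos_of_ne_zero hsq.ne_zero
  obtain ⟨𝒪, _, _, _, _, _, _, ρ, hdet, hunip, -, hfrob, habs, hTW, hsplit, ζ, hζ⟩ :=
    exists_coeff_rep hCYC p hp2 W hΔ hss hirr N
  have hp𝒪 : (p : 𝒪) ∈ maximalIdeal 𝒪 := hdet.1
  haveI hchar : CharP (ResidueField 𝒪) p := by
    refine (CharP.charP_iff_prime_eq_zero hp).mpr ?_
    have : residue 𝒪 (p : 𝒪) = 0 := (residue_eq_zero_iff _).mpr hp𝒪
    rwa [map_natCast] at this
  let j : ZMod p →+* ResidueField 𝒪 := ZMod.castHom (dvd_refl p) (ResidueField 𝒪)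
  have hbr : ((torsRes W hΔ p).baseChangeAlong j).IsEquiv ρ.residual :=
    Fermat.Agent.S59.LL.H77.bridgeRes W hΔ p _ _ j ρ ∅
      (fun ℓ hℓ hℓp _ hg A hA σ hσ => hfrob ℓ hℓ hℓp hg A hA σ hσ) habs
  have hunr_iff : ∀ q' : ℕ, ρ.residual.IsUnramifiedAt q' ↔ UnrW W p q' := fun q' =>
    (Fermat.Agent.S59.LL.H77.unramified_iff_of_isEquiv j _ _ hbr q').trans
      (torsRes_isUnramifiedAt_iff W hΔ p q')
  have hqp : q ≠ p := fun h => hpN (h ▸ hqN)
  have hgoodS : ∀ ℓ : ℕ, ℓ.Prime → ℓ ∉ S ∪ W.Δ.natAbs.primeFactors → W.IsGoodPrimeFor ℓ := by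
    intro ℓ hℓ hℓS hdvd
    refine hℓS (Finset.mem_union_right _ (Nat.mem_primeFactors.2 ⟨hℓ, ?_, ?_⟩))
    · exact Int.natCast_dvd.1 hdvd
    · exact Int.natAbs_ne_zero.2 hΔ
  obtain ⟨g, 𝔪', S', hg, h𝔪', hp𝔪', hgc⟩ := hG 𝒪 p hp2 h5 hp𝒪 true ρ.residual habs
    (detIsCyclotomic_residual ρ p hdet) hsplit hTW N hsq (fun _ => hpN)
    (fun h => by cases h)
    (fun q' hq' _ hq'p => isUnipotentOnInertiaAt_residual ρ q' (hunip q' hq' hq'p))
    (fun q' hq' hq'N hq'p hu => by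
      obtain ⟨hdvd, A, hA, c, hc⟩ := hexc q' hq' hq'N ((hunr_iff q').mp hu)
      refine ⟨hdvd, A, hA, fun σ hσ => ⟨j c, ?_⟩⟩
      have h1 : (torsRes W hΔ p).ρ σ = c • (1 : Module.End (ZMod p) (torsRes W hΔ p).V) :=
        LinearMap.ext fun v => hc σ hσ v
      exact scalar_of_isEquiv_resid hbr σ (j c) (scalar_bcAlong_resid j _ σ c h1))
    (fun q' hq' hq'N e he => by
      have h1 : 0 < q' - 1 := by have := hq'.two_le; omega
      have h2 : q' - 1 ≤ N := by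
        have := Nat.le_of_dvd hN0 hq'N
        omega
      exact exists_primitiveRoot_of_le hp hζ (le_of_pow_dvd hp he h1 h2))
    f 𝔪 (fun ℓ => W.apOfModel ℓ) (S ∪ W.Δ.natAbs.primeFactors) hf h𝔪 hp𝔪
    (fun ℓ hℓ hℓS hℓN hℓp =>
      hcong ℓ hℓ (fun h => hℓS (Finset.mem_union_left _ h)) (hgoodS ℓ hℓ hℓS) hℓN hℓp)
    (fun ℓ hℓ hℓS hℓp A hA σ hσ =>
      charpoly_frob_residual ρ σ _ ℓ (hfrob ℓ hℓ hℓp (hgoodS ℓ hℓ hℓS) A hA σ hσ))
    q hq hqN hqp ((hunr_iff q).mpr hunrq)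
  exact ⟨g, 𝔪', S', hg, h𝔪', hp𝔪', fun ℓ hℓ hℓS hℓN hℓp _ => hgc ℓ hℓ hℓS hℓN hℓp⟩

end Fermat.Agent.L.Pivot.H76

end
-- ==== END Fermat.Agent.L.Pivot.H76_Wire2W

-- ==== BEGIN Fermat.Agent.NEB.Geom.AsmTop
section

/-!
# Item 72 (LG-NEB), package NEB-GEOM (helper84): the top of the assembly

* `StdHyp`      : the standing hypotheses of `Asm.Stmt_TWGEOM`;
* `Stmt_A_MIN`, `Stmt_A_SETUP`, `Stmt_A_GAL`, `Stmt_A_ES`, `Stmt_A_HSTEP`, `Stmt_A_PI`,
  `Stmt_A_FROBNIL`, `Stmt_A_LG`, `Stmt_A_R0` : the leaves, universally quantified;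
* `stmt_TWGEOM_of` : **all leaves ⟹ `Asm.Stmt_TWGEOM`**.
-/

set_option autoImplicit false
set_option linter.unusedSectionVars false
set_option linter.style.haveILetI false
set_option linter.unusedVariables false

noncomputable section

open ModularCurve AlgebraicCurve IsLocalRing TensorProduct Polynomial

namespace Fermat.Agent.NEB.Geom

open Fermat.Agent.NEB Fermat.Agent.NEB.JH Fermat.Agent.S59 Fermat.Agent.S59.Asm
  Fermat.Agent.S59.Lim Fermat.Agent.S59.Lim.H2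

/-- The standing hypotheses of `Asm.Stmt_TWGEOM` (with a chosen uniformiser). -/
structure StdHyp (𝒪 : Type) [CommRing 𝒪] [IsLocalRing 𝒪] (ϖ : 𝒪) (p : ℕ) (N : ℕ) [NeZero N]
    (S : Finset ℕ) (θ : CuspForm.heckeAlgebra N 2 (↑S : Set ℕ) →+* ResidueField 𝒪)
    (ρbar : ResidualGaloisRep (ResidueField 𝒪)) : Prop where
  hϖ : Irreducible ϖ
  hp2 : p ≠ 2
  hpm : (p : 𝒪) ∈ maximalIdeal 𝒪
  hres : ResHyp p ρbar S
  hNS : ∀ q : ℕ, q.Prime → q ∣ N → q ∈ S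
  hsq : Squarefree N
  hfrob : Fermat.Agent.S59.Datum.FrobHyp ρbar N S θ
  hint : CuspForm.HasIntegralStructure N 2

/-- **A-MIN**: the level-`N` setup exists. -/
def Stmt_A_MIN : Prop :=
  ∀ (𝒪 : Type) [CommRing 𝒪] [IsDomain 𝒪] [IsDiscreteValuationRing 𝒪]
    [IsAdicComplete (maximalIdeal 𝒪) 𝒪] [Finite (ResidueField 𝒪)] [CharZero 𝒪]
    (ϖ : 𝒪) (p : ℕ) [Fact p.Prime] (N : ℕ) [NeZero N] (S : Finset ℕ)
    (θ : CuspForm.heckeAlgebra N 2 (↑S : Set ℕ) →+* ResidueField 𝒪)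
    (ρbar : ResidualGaloisRep (ResidueField 𝒪)), StdHyp 𝒪 ϖ p N S θ ρbar →
    Nonempty (MinSetup 𝒪 ϖ p N S θ)

/-- **A-SETUP**: the Taylor–Wiles setup exists for every Taylor–Wiles family with `r ≥ 1`. -/
def Stmt_A_SETUP : Prop :=
  ∀ (𝒪 : Type) [CommRing 𝒪] [IsDomain 𝒪] [IsDiscreteValuationRing 𝒪]
    [IsAdicComplete (maximalIdeal 𝒪) 𝒪] [Finite (ResidueField 𝒪)] [CharZero 𝒪]
    (ϖ : 𝒪) (p : ℕ) [Fact p.Prime] (N : ℕ) [NeZero N] (S : Finset ℕ)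
    (θ : CuspForm.heckeAlgebra N 2 (↑S : Set ℕ) →+* ResidueField 𝒪)
    (ρbar : ResidualGaloisRep (ResidueField 𝒪)), StdHyp 𝒪 ϖ p N S θ ρbar →
    ∀ (n r : ℕ) (qv : Fin r → ℕ), 0 < r → Fermat.Agent.S56.IsTWFamily ρbar p n S qv →
    ∀ [NeZero (N * twC qv)] [NeZero (twC qv)] [NeZero (twLevel N qv)],
      CuspForm.HasIntegralStructure (twLevel N qv) 2 →
      Nonempty (TwSetup 𝒪 ϖ p N S θ ρbar n qv)

/-- **A-R0**: the case `r = 0`. -/
def Stmt_A_R0 : Prop :=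
  ∀ (𝒪 : Type) [CommRing 𝒪] [IsDomain 𝒪] [IsDiscreteValuationRing 𝒪]
    [IsAdicComplete (maximalIdeal 𝒪) 𝒪] [Finite (ResidueField 𝒪)] [CharZero 𝒪]
    (ϖ : 𝒪) (p : ℕ) [Fact p.Prime] (N : ℕ) [NeZero N] (S : Finset ℕ)
    (θ : CuspForm.heckeAlgebra N 2 (↑S : Set ℕ) →+* ResidueField 𝒪)
    (ρbar : ResidualGaloisRep (ResidueField 𝒪)), StdHyp 𝒪 ϖ p N S θ ρbar →
    ∀ (Dm : MinSetup 𝒪 ϖ p N S θ) (n : ℕ) (qv : Fin 0 → ℕ) [NeZero (twLevel N qv)],
      Nonempty (TWDiv 𝒪 ϖ p ρbar N S θ Dm.MD n qv)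

/-- **A-GAL** (universally quantified): continuity and commutation of the twisted Galois action, the diamond operators. -/
def Stmt_A_GAL : Prop :=
  ∀ (𝒪 : Type) [CommRing 𝒪] [IsDomain 𝒪] [IsDiscreteValuationRing 𝒪]
    [IsAdicComplete (maximalIdeal 𝒪) 𝒪] [Finite (ResidueField 𝒪)] [CharZero 𝒪]
    (ϖ : 𝒪) (p : ℕ) [Fact p.Prime] (N : ℕ) [NeZero N] (S : Finset ℕ)
    (θ : CuspForm.heckeAlgebra N 2 (↑S : Set ℕ) →+* ResidueField 𝒪)
    (ρbar : ResidualGaloisRep (ResidueField 𝒪)), StdHyp 𝒪 ϖ p N S θ ρbar →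
    ∀ (Dm : MinSetup 𝒪 ϖ p N S θ) (n r : ℕ) (qv : Fin r → ℕ)
      [NeZero (N * twC qv)] [NeZero (twC qv)] [NeZero (twLevel N qv)]
      (D : TwSetup 𝒪 ϖ p N S θ ρbar n qv),
      Stmt_A_gal D

/-- **A-ES** (universally quantified): Eichler–Shimura on `W`. -/
def Stmt_A_ES : Prop :=
  ∀ (𝒪 : Type) [CommRing 𝒪] [IsDomain 𝒪] [IsDiscreteValuationRing 𝒪]
    [IsAdicComplete (maximalIdeal 𝒪) 𝒪] [Finite (ResidueField 𝒪)] [CharZero 𝒪]
    (ϖ : 𝒪) (p : ℕ) [Fact p.Prime] (N : ℕ) [NeZero N] (S : Finset ℕ)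
    (θ : CuspForm.heckeAlgebra N 2 (↑S : Set ℕ) →+* ResidueField 𝒪)
    (ρbar : ResidualGaloisRep (ResidueField 𝒪)), StdHyp 𝒪 ϖ p N S θ ρbar →
    ∀ (Dm : MinSetup 𝒪 ϖ p N S θ) (n r : ℕ) (qv : Fin r → ℕ)
      [NeZero (N * twC qv)] [NeZero (twC qv)] [NeZero (twLevel N qv)]
      (D : TwSetup 𝒪 ϖ p N S θ ρbar n qv),
      Stmt_A_es D

/-- **A-HSTEP** (universally quantified): norm surjectivity along the tower. -/
def Stmt_A_HSTEP : Prop :=
  ∀ (𝒪 : Type) [CommRing 𝒪] [IsDomain 𝒪] [IsDiscreteValuationRing 𝒪]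
    [IsAdicComplete (maximalIdeal 𝒪) 𝒪] [Finite (ResidueField 𝒪)] [CharZero 𝒪]
    (ϖ : 𝒪) (p : ℕ) [Fact p.Prime] (N : ℕ) [NeZero N] (S : Finset ℕ)
    (θ : CuspForm.heckeAlgebra N 2 (↑S : Set ℕ) →+* ResidueField 𝒪)
    (ρbar : ResidualGaloisRep (ResidueField 𝒪)), StdHyp 𝒪 ϖ p N S θ ρbar →
    ∀ (Dm : MinSetup 𝒪 ϖ p N S θ) (n r : ℕ) (qv : Fin r → ℕ)
      [NeZero (N * twC qv)] [NeZero (twC qv)] [NeZero (twLevel N qv)]
      (D : TwSetup 𝒪 ϖ p N S θ ρbar n qv),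
      Stmt_A_hstep D

/-- **A-PI** (universally quantified): the maps `π`, `πup`. -/
def Stmt_A_PI : Prop :=
  ∀ (𝒪 : Type) [CommRing 𝒪] [IsDomain 𝒪] [IsDiscreteValuationRing 𝒪]
    [IsAdicComplete (maximalIdeal 𝒪) 𝒪] [Finite (ResidueField 𝒪)] [CharZero 𝒪]
    (ϖ : 𝒪) (p : ℕ) [Fact p.Prime] (N : ℕ) [NeZero N] (S : Finset ℕ)
    (θ : CuspForm.heckeAlgebra N 2 (↑S : Set ℕ) →+* ResidueField 𝒪)
    (ρbar : ResidualGaloisRep (ResidueField 𝒪)), StdHyp 𝒪 ϖ p N S θ ρbar →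
    ∀ (Dm : MinSetup 𝒪 ϖ p N S θ) (n r : ℕ) (qv : Fin r → ℕ)
      [NeZero (N * twC qv)] [NeZero (twC qv)] [NeZero (twLevel N qv)]
      (D : TwSetup 𝒪 ϖ p N S θ ρbar n qv),
      Stmt_A_pi Dm D

/-- **A-FROBNIL** (universally quantified): `(F - a)(F - a')` is nilpotent on `W[ϖ]`. -/
def Stmt_A_FROBNIL : Prop :=
  ∀ (𝒪 : Type) [CommRing 𝒪] [IsDomain 𝒪] [IsDiscreteValuationRing 𝒪]
    [IsAdicComplete (maximalIdeal 𝒪) 𝒪] [Finite (ResidueField 𝒪)] [CharZero 𝒪]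
    (ϖ : 𝒪) (p : ℕ) [Fact p.Prime] (N : ℕ) [NeZero N] (S : Finset ℕ)
    (θ : CuspForm.heckeAlgebra N 2 (↑S : Set ℕ) →+* ResidueField 𝒪)
    (ρbar : ResidualGaloisRep (ResidueField 𝒪)), StdHyp 𝒪 ϖ p N S θ ρbar →
    ∀ (Dm : MinSetup 𝒪 ϖ p N S θ) (n r : ℕ) (qv : Fin r → ℕ)
      [NeZero (N * twC qv)] [NeZero (twC qv)] [NeZero (twLevel N qv)]
      (D : TwSetup 𝒪 ϖ p N S θ ρbar n qv),
      Stmt_A_frob_nil D

/-- **A-LG** (universally quantified): local–global compatibility at `q_j`. -/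
def Stmt_A_LG : Prop :=
  ∀ (𝒪 : Type) [CommRing 𝒪] [IsDomain 𝒪] [IsDiscreteValuationRing 𝒪]
    [IsAdicComplete (maximalIdeal 𝒪) 𝒪] [Finite (ResidueField 𝒪)] [CharZero 𝒪]
    (ϖ : 𝒪) (p : ℕ) [Fact p.Prime] (N : ℕ) [NeZero N] (S : Finset ℕ)
    (θ : CuspForm.heckeAlgebra N 2 (↑S : Set ℕ) →+* ResidueField 𝒪)
    (ρbar : ResidualGaloisRep (ResidueField 𝒪)), StdHyp 𝒪 ϖ p N S θ ρbar →
    ∀ (Dm : MinSetup 𝒪 ϖ p N S θ) (n r : ℕ) (qv : Fin r → ℕ)
      [NeZero (N * twC qv)] [NeZero (twC qv)] [NeZero (twLevel N qv)]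
      (D : TwSetup 𝒪 ϖ p N S θ ρbar n qv),
      Stmt_A_lg D

/-- **NEB-GEOM, top**: all leaves imply `Asm.Stmt_TWGEOM`. -/
theorem stmt_TWGEOM_of (hMIN : Stmt_A_MIN) (hSETUP : Stmt_A_SETUP) (hR0 : Stmt_A_R0)
    (hGAL : Stmt_A_GAL) (hES : Stmt_A_ES) (hHSTEP : Stmt_A_HSTEP) (hPI : Stmt_A_PI)
    (hFN : Stmt_A_FROBNIL) (hLG : Stmt_A_LG) : Asm.Stmt_TWGEOM := by
  intro 𝒪 _ _ _ _ _ _ p _ hp2 hpm ρbar Smin hres N _ hint hNS hsq θ hfrob
  obtain ⟨ϖ, hϖ⟩ := IsDiscreteValuationRing.exists_irreducible 𝒪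
  have hstd : StdHyp 𝒪 ϖ p N Smin θ ρbar := ⟨hϖ, hp2, hpm, hres, hNS, hsq, hfrob, hint.out⟩
  obtain ⟨Dm⟩ := hMIN 𝒪 ϖ p N Smin θ ρbar hstd
  obtain ⟨M, hM1, hM2⟩ := Fermat.Agent.S59.Lim.stmt_LIM_A 𝒪 ϖ hϖ p hpm ρbar N Smin θ Dm.MD
  refine ⟨M, hM1 Dm.nontriv, ?_⟩
  intro r n qv hfam _ hint'
  have key : Nonempty (TWDiv 𝒪 ϖ p ρbar N Smin θ Dm.MD n qv) := by
    rcases Nat.eq_zero_or_pos r with hr | hr
    · subst hr
      exact hR0 𝒪 ϖ p N Smin θ ρbar hstd Dm n qv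
    · have hprime : ∀ j, (qv j).Prime := fun j => (hfam.2.1 j).1
      have hc0 : twC qv ≠ 0 := Finset.prod_ne_zero_iff.mpr fun j _ => (hprime j).ne_zero
      haveI : NeZero (twC qv) := ⟨hc0⟩
      haveI : NeZero (N * twC qv) := ⟨mul_ne_zero (NeZero.ne N) hc0⟩
      obtain ⟨D⟩ := hSETUP 𝒪 ϖ p N Smin θ ρbar hstd n r qv hr hfam hint'.out
      exact H84.nonempty_twDiv Dm D
        (hGAL 𝒪 ϖ p N Smin θ ρbar hstd Dm n r qv D)
        (hES 𝒪 ϖ p N Smin θ ρbar hstd Dm n r qv D)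
        (hHSTEP 𝒪 ϖ p N Smin θ ρbar hstd Dm n r qv D)
        (hPI 𝒪 ϖ p N Smin θ ρbar hstd Dm n r qv D)
        (hFN 𝒪 ϖ p N Smin θ ρbar hstd Dm n r qv D)
        (hLG 𝒪 ϖ p N Smin θ ρbar hstd Dm n r qv D)
  obtain ⟨T⟩ := key
  exact hM2 r n qv T

end Fermat.Agent.NEB.Geom

end
end
-- ==== END Fermat.Agent.NEB.Geom.AsmTop

-- ==== BEGIN Fermat.Agent.NEB.Geom.H14_PiPrelim
section

/-!
# Item 72 (LG-NEB), package NEB-GEOM, leaf PI-WIRE (helper14): preliminaries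

* `closure_range_X`, `closure_heckeT` : generators of `𝕋⁺` and of the Hecke ring;
* `dvr_nil` : in a DVR with `p ≠ 0`, every `e ∈ 𝔪` has a power divisible by `p`;
* `tors_ptors` : elements of `𝒪 ⊗ A[p^∞]` are killed by powers of every `e ∈ 𝔪`;
* `polyHom_commute`, `polyHom_intertwine` : from the generators to all of `𝕋⁺`;
* `liftR`, `cFun`, `aFun` : chosen lifts of `θ(T_ℓ)`, `α_j`;
* `finite_A0`, `finite_AH` : finiteness of the `p`-torsion;
* `nmTot_baseChange`.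
-/

set_option autoImplicit false
set_option linter.unusedSectionVars false
set_option linter.unusedVariables false
set_option linter.style.haveILetI false

noncomputable section

open ModularCurve AlgebraicCurve IsLocalRing TensorProduct Polynomial

namespace Fermat.Agent.NEB.Geom.H14

open Fermat.Agent.NEB Fermat.Agent.NEB.JH Fermat.Agent.S59.Asm Fermat.Agent.S59.Lim
  Fermat.Agent.S59.Lim.H2 Fermat.Agent.NEB.Geom Fermat.Agent.NEB.OLD

/-! ## Generators -/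

theorem closure_range_X (ι : Type) :
    Subring.closure (Set.range (MvPolynomial.X : ι → MvPolynomial ι ℤ)) = ⊤ := by
  rw [eq_top_iff]
  intro x _
  induction x using MvPolynomial.induction_on with
  | C a =>
    rw [show (MvPolynomial.C a : MvPolynomial ι ℤ) = ((a : ℤ) : MvPolynomial ι ℤ) from
      (eq_intCast (MvPolynomial.C : ℤ →+* MvPolynomial ι ℤ) a)]
    exact intCast_mem _ a
  | add s t hs ht => exact add_mem (hs trivial) (ht trivial)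
  | mul_X s i hs => exact mul_mem (hs trivial) (Subring.subset_closure ⟨i, rfl⟩)

/-- The generators `T_ℓ` of the Hecke ring. -/
def heckeTSet (N : ℕ) [NeZero N] (S : Set ℕ) : Set (CuspForm.heckeAlgebra N 2 S) :=
  {t | ∃ (ℓ : ℕ) (hℓ : ℓ.Prime) (hℓN : ¬ ℓ ∣ N) (hℓS : ℓ ∉ S),
    t = CuspForm.heckeAlgebra.T hℓ hℓN hℓS}

theorem closure_heckeT {N : ℕ} [NeZero N] {S : Set ℕ}
    (hS : ∀ q : ℕ, q.Prime → q ∣ N → q ∈ S) :
    Subring.closure (heckeTSet N S) = ⊤ := by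
  rw [eq_top_iff]
  intro x _
  exact Fermat.Agent.NEB.EIG.H39.hecke_induction hS
    (P := fun x => x ∈ Subring.closure (heckeTSet N S))
    (fun ℓ hℓ hℓN hℓS => Subring.subset_closure ⟨ℓ, hℓ, hℓN, hℓS, rfl⟩)
    (fun n => intCast_mem _ n) (fun x y hx hy => add_mem hx hy)
    (fun x y hx hy => mul_mem hx hy) x

/-! ## Torsion -/

theorem dvr_nil {𝒪 : Type} [CommRing 𝒪] [IsDomain 𝒪] [IsDiscreteValuationRing 𝒪] {p : ℕ}
    (hp0 : (p : 𝒪) ≠ 0) :
    ∀ e ∈ maximalIdeal 𝒪, ∃ (m : ℕ) (b : 𝒪), e ^ m = (p : 𝒪) * b := by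
  intro e he
  obtain ⟨ϖ, hϖ⟩ := IsDiscreteValuationRing.exists_irreducible 𝒪
  obtain ⟨m, u, hu⟩ := IsDiscreteValuationRing.eq_unit_mul_pow_irreducible hp0 hϖ
  rw [hϖ.maximalIdeal_eq, Ideal.mem_span_singleton] at he
  obtain ⟨y, rfl⟩ := he
  refine ⟨m, ↑u⁻¹ * y ^ m, ?_⟩
  rw [hu, mul_pow]
  have : (u : 𝒪) * ϖ ^ m * (↑u⁻¹ * y ^ m) = ((u : 𝒪) * ↑u⁻¹) * (ϖ ^ m * y ^ m) := by ring
  rw [this, Units.mul_inv, one_mul]

theorem tors_ptors {𝒪 : Type} [CommRing 𝒪] [IsDomain 𝒪] [IsDiscreteValuationRing 𝒪] {p : ℕ}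
    (hp0 : (p : 𝒪) ≠ 0) {X : Type} [AddCommGroup X] (x : 𝒪 ⊗[ℤ] ↥(ptors p X)) :
    ∀ e ∈ maximalIdeal 𝒪, ∃ n : ℕ, e ^ n • x = 0 := by
  intro e he
  obtain ⟨m, b, hmb⟩ := dvr_nil hp0 e he
  exact tensor_ptSub_tors 𝒪 p e m b hmb (A := X) x

/-! ## `polyHom` -/

section Poly

variable {ι : Type} {E : Type} [Ring E]

theorem polyHom_C (f : ι → E) (hf : ∀ i j, Commute (f i) (f j)) (a : ℤ) :
    polyHom f hf (MvPolynomial.C a) = (a : E) := by
  rw [show (MvPolynomial.C a : MvPolynomial ι ℤ) = ((a : ℤ) : MvPolynomial ι ℤ) from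
    (eq_intCast (MvPolynomial.C : ℤ →+* MvPolynomial ι ℤ) a), map_intCast]

theorem polyHom_commute (f : ι → E) (hf : ∀ i j, Commute (f i) (f j)) (g : E)
    (h : ∀ i, Commute (f i) g) (t : MvPolynomial ι ℤ) : Commute (polyHom f hf t) g := by
  induction t using MvPolynomial.induction_on with
  | C a =>
    rw [polyHom_C]
    exact Int.cast_commute a _
  | add s t hs ht =>
    rw [map_add]
    exact hs.add_left ht
  | mul_X s i hs =>
    rw [map_mul, polyHom_X]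
    exact hs.mul_left (h i)

end Poly

theorem polyHom_intertwine {ι : Type} {A A' : Type} [AddCommGroup A] [AddCommGroup A']
    (f : ι → Module.End ℤ A) (hf : ∀ i j, Commute (f i) (f j))
    (f' : ι → Module.End ℤ A') (hf' : ∀ i j, Commute (f' i) (f' j))
    (u : A →ₗ[ℤ] A') (h : ∀ i, u ∘ₗ f i = f' i ∘ₗ u) (t : MvPolynomial ι ℤ) :
    u ∘ₗ polyHom f hf t = polyHom f' hf' t ∘ₗ u := by
  induction t using MvPolynomial.induction_on with
  | C a =>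
    rw [polyHom_C, polyHom_C]
    refine LinearMap.ext fun x => ?_
    simp only [LinearMap.comp_apply, Module.End.intCast_apply, map_zsmul]
  | add s t hs ht =>
    rw [map_add, map_add, LinearMap.comp_add, LinearMap.add_comp, hs, ht]
  | mul_X s i hs =>
    rw [map_mul, map_mul, polyHom_X, polyHom_X]
    show u ∘ₗ (polyHom f hf s ∘ₗ f i) = (polyHom f' hf' s ∘ₗ f' i) ∘ₗ u
    rw [← LinearMap.comp_assoc, hs, LinearMap.comp_assoc, h i, LinearMap.comp_assoc]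

/-! ## Lifts -/

section Lifts

variable (𝒪 : Type) [CommRing 𝒪] [IsLocalRing 𝒪]

/-- A chosen lift to `𝒪`. -/
def liftR (x : ResidueField 𝒪) : 𝒪 := Classical.choose (residue_surjective x)

theorem residue_liftR (x : ResidueField 𝒪) : residue 𝒪 (liftR 𝒪 x) = x :=
  Classical.choose_spec (residue_surjective x)

variable {𝒪}

open Classical in
/-- Lifts of the `θ(T_ℓ)`. -/
def cFun {N : ℕ} [NeZero N] {S : Set ℕ} (θ : CuspForm.heckeAlgebra N 2 S →+* ResidueField 𝒪) :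
    ℕ → 𝒪 := fun ℓ =>
  if h : ℓ.Prime ∧ ¬ ℓ ∣ N ∧ ℓ ∉ S then
    liftR 𝒪 (θ (CuspForm.heckeAlgebra.T h.1 h.2.1 h.2.2)) else 0

theorem residue_cFun {N : ℕ} [NeZero N] {S : Set ℕ}
    (θ : CuspForm.heckeAlgebra N 2 S →+* ResidueField 𝒪) {ℓ : ℕ} (hℓ : ℓ.Prime)
    (hℓN : ¬ ℓ ∣ N) (hℓS : ℓ ∉ S) :
    residue 𝒪 (cFun θ ℓ) = θ (CuspForm.heckeAlgebra.T hℓ hℓN hℓS) := by
  classical
  unfold cFun
  rw [dif_pos ⟨hℓ, hℓN, hℓS⟩]
  exact residue_liftR 𝒪 _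

open Classical in
/-- Lifts of the `α_j`, as a function of `q_j`. -/
def aFun {r : ℕ} (qv : Fin r → ℕ) (α : Fin r → ResidueField 𝒪) : ℕ → 𝒪 := fun q =>
  if h : ∃ j, qv j = q then liftR 𝒪 (α (Classical.choose h)) else 0

theorem residue_aFun {r : ℕ} {qv : Fin r → ℕ} (hinj : Function.Injective qv)
    (α : Fin r → ResidueField 𝒪) (j : Fin r) : residue 𝒪 (aFun qv α (qv j)) = α j := by
  classical
  unfold aFun
  have h : ∃ i, qv i = qv j := ⟨j, rfl⟩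
  rw [dif_pos h, residue_liftR]
  exact congrArg α (hinj (Classical.choose_spec h))

end Lifts

/-! ## Finiteness -/

theorem finite_A0 (M : ℕ) [NeZero M] (p : ℕ) (hp : p ≠ 0) :
    Finite {x : A0 M p // p • x = 0} := by
  have h := Fermat.Agent.S17.H8.stmt_torsion_finite M p hp
  have h' : {t : JZero M | p • t = 0}.Finite := h
  haveI := h'.to_subtype
  refine Finite.of_injective
    (fun x : {x : A0 M p // p • x = 0} =>
      (⟨(x.1 : JZero M), by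
        have := congrArg Subtype.val x.2
        exact this⟩ : {t : JZero M | p • t = 0})) ?_
  intro x y hxy
  have := congrArg Subtype.val hxy
  exact Subtype.ext (Subtype.ext this)

theorem finite_AH (M c : ℕ) [NeZero M] [NeZero c] (H : Subgroup (ZMod c)ˣ) (h2 : 2 ≤ c)
    (hc : c ∣ M) (p : ℕ) [Fact p.Prime] :
    Finite {x : AH M c H p // p • x = 0} := by
  have h := Fermat.Agent.NEB.Geom.H29.stmt_ZFIN_final H h2 hc p 1
  haveI := h.to_subtype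
  refine Finite.of_injective
    (fun x : {x : AH M c H p // p • x = 0} =>
      (⟨(x.1 : JH M c H), by
        have h1 := congrArg Subtype.val x.2
        show ((p ^ 1 : ℕ) : ℤ) • (x.1 : JH M c H) = 0
        rw [pow_one, natCast_zsmul]
        exact h1⟩ : {y : JH M c H | ((p ^ 1 : ℕ) : ℤ) • y = 0})) ?_
  intro x y hxy
  have := congrArg Subtype.val hxy
  exact Subtype.ext (Subtype.ext this)

/-! ## `nmTot` and base change -/

theorem nmTot_baseChange (𝒪 : Type) [CommRing 𝒪] {A : Type} [AddCommGroup A] (m : ℕ) {r : ℕ}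
    (d : Fin r → Module.End ℤ A) :
    (Fermat.Agent.S59.TWH.H90.nmTot m d).baseChange 𝒪
      = Fermat.Agent.S59.TWH.H90.nmTot m (fun j => (d j).baseChange 𝒪) := by
  have key : ∀ f : Module.End ℤ A, f.baseChange 𝒪 = Module.End.baseChangeHom ℤ 𝒪 A f :=
    fun f => rfl
  rw [key]
  unfold Fermat.Agent.S59.TWH.H90.nmTot
  rw [map_list_prod, List.map_ofFn]
  refine congrArg List.prod (congrArg List.ofFn (funext fun j => ?_))
  simp only [Function.comp_apply]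
  unfold Fermat.Agent.S59.TWH.H90.nm
  rw [map_sum]
  refine Finset.sum_congr rfl fun e _ => ?_
  rw [map_pow]
  rfl

end Fermat.Agent.NEB.Geom.H14

end
end
-- ==== END Fermat.Agent.NEB.Geom.H14_PiPrelim

-- ==== BEGIN Fermat.Agent.NEB.Geom.H6_ALGParts
section

/-!
# NEB-GEOM assembly leaf A-LG, two parts (helper6)

* `lg_socle` (E): the hypothesis "inertia is trivial on `W[ϖ]^Δ`" of `Stmt_W_LG`, from A-PI
  (`inv` + Galois equivariance of `πup`) and `Dm.unr` (level `N` is unramified at `q_j`);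
* `a_lg_of_wlg` (G): `Stmt_A_lg D` from the conclusion of `Stmt_W_LG` at every `j`
  (`gal'(σ_j) x = σ_j (d_j x)`, and `d_j x` is again in the generalised eigenspace).
-/

set_option autoImplicit false
set_option linter.unusedSectionVars false

noncomputable section

open ModularCurve AlgebraicCurve IsLocalRing TensorProduct Polynomial

namespace Fermat.Agent.NEB.Geom.H6

open Fermat.Agent.NEB Fermat.Agent.NEB.JH Fermat.Agent.S59.Asm Fermat.Agent.S59.Lim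
  Fermat.Agent.S59.Lim.H2 Fermat.Agent.NEB.Geom

/-! ## Abstract lemmas on the `θ`-part -/

section AbsTheta

variable {𝒪 : Type} [CommRing 𝒪] [IsLocalRing 𝒪] {𝕋 : Type} [CommRing 𝕋]
  {A : Type} [AddCommGroup A] {η : 𝕋 →+* Module.End ℤ A} {θ : 𝕋 →+* ResidueField 𝒪}

/-- Powers of `g - a` on the `θ`-part and on the ambient module. -/
theorem thetaZ_sub_smul_pow_coe (g : Module.End ℤ A) (hg : ∀ t, Commute (η t) g) (a : 𝒪)
    (k : ℕ) (y : ↥(thetaPart η θ)) :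
    ((((thetaZ θ g hg - a • (1 : Module.End 𝒪 ↥(thetaPart η θ))) ^ k) y :
      ↥(thetaPart η θ)) : 𝒪 ⊗[ℤ] A) =
    ((g.baseChange 𝒪 - a • (1 : Module.End 𝒪 (𝒪 ⊗[ℤ] A))) ^ k) y.1 := by
  induction k generalizing y with
  | zero => rfl
  | succ k ih =>
    rw [pow_succ, Module.End.mul_apply, ih, pow_succ, Module.End.mul_apply]
    rfl

/-- If `d` commutes with `F`, then `d` preserves the generalised eigenspaces of `F`. -/
theorem pow_sub_smul_apply_comm {W : Type*} [AddCommGroup W] [Module 𝒪 W]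
    (F d : Module.End 𝒪 W) (hc : Commute d F) (a : 𝒪) (k : ℕ) (x : W)
    (hx : ((F - a • (1 : Module.End 𝒪 W)) ^ k) x = 0) :
    ((F - a • (1 : Module.End 𝒪 W)) ^ k) (d x) = 0 := by
  have h1 : Commute d ((F - a • (1 : Module.End 𝒪 W)) ^ k) :=
    (hc.sub_right ((Commute.one_right d).smul_right a)).pow_right k
  have h2 := congrArg (fun f : Module.End 𝒪 W => f x) h1.eq
  simp only [Module.End.mul_apply] at h2
  rw [← h2, hx, map_zero]

end AbsTheta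

/-! ## The two parts -/

section Parts

variable {𝒪 : Type} [CommRing 𝒪] [IsDomain 𝒪] [IsDiscreteValuationRing 𝒪]
  {ϖ : 𝒪} {p : ℕ} {N : ℕ} [NeZero N] {S : Finset ℕ}
  {θ : CuspForm.heckeAlgebra N 2 (↑S : Set ℕ) →+* ResidueField 𝒪}
  {ρbar : ResidualGaloisRep (ResidueField 𝒪)} {n : ℕ} {r : ℕ} {qv : Fin r → ℕ}
  [NeZero (N * twC qv)] [NeZero (twC qv)] [NeZero (twLevel N qv)]

theorem diaW_pow_eq (D : TwSetup 𝒪 ϖ p N S θ ρbar n qv) (u : (ZMod (twC qv))ˣ) (k : ℕ) :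
    diaW D (u ^ k) = diaW D u ^ k := by
  have h1 : ∀ t, Commute (etaTw N S p n qv D.h2 D.hcomm t)
      (diaZ (N * twC qv) (twC qv) (twH p n qv) D.h2 (dvd_mul_left _ _) p u ^ k) :=
    fun t => (D.comm_dia u t).pow_right k
  have e1 := thetaZ_pow (θ := thetaTw N S qv θ D.α) (fun t => D.comm_dia u t) k h1
  have e2 := thetaZ_congr (θ := thetaTw N S qv θ D.α) (fun t => D.comm_dia (u ^ k) t) h1
    (map_pow (diaZ (N * twC qv) (twC qv) (twH p n qv) D.h2 (dvd_mul_left _ _) p) u k)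
  exact e2.trans e1

/-- The twisted Galois operator, with the power inside the diamond operator. -/
theorem galHom_eq_mul_dia_pow (D : TwSetup 𝒪 ϖ p N S θ ρbar n qv) (σ : _root_.Fermat.Agent.NEB.Geom.GalQ) :
    D.galHom σ = galZ (N * twC qv) (twC qv) (twH p n qv) p σ *
      diaZ (N * twC qv) (twC qv) (twH p n qv) D.h2 (dvd_mul_left _ _) p
        (chiC (twC qv) σ ^ (jTw p n + 1)) := by
  rw [D.galHom_apply, map_pow]

/-- Powers of `gal'(σ) - a` on `W` and on the ambient module. -/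
theorem galT_sub_smul_pow_coe (D : TwSetup 𝒪 ϖ p N S θ ρbar n qv) (σ : _root_.Fermat.Agent.NEB.Geom.GalQ) (a : 𝒪) (k : ℕ)
    (y : ↥(Wtw 𝒪 N S p n qv D.h2 D.hcomm θ D.α)) :
    ((((galT D σ - a • (1 : Module.End 𝒪 ↥(Wtw 𝒪 N S p n qv D.h2 D.hcomm θ D.α))) ^ k) y :
      ↥(Wtw 𝒪 N S p n qv D.h2 D.hcomm θ D.α)) :
        𝒪 ⊗[ℤ] AH (N * twC qv) (twC qv) (twH p n qv) p) =
    (((galZ (N * twC qv) (twC qv) (twH p n qv) p σ *
      diaZ (N * twC qv) (twC qv) (twH p n qv) D.h2 (dvd_mul_left _ _) p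
        (chiC (twC qv) σ ^ (jTw p n + 1))).baseChange 𝒪
      - a • (1 : Module.End 𝒪 (𝒪 ⊗[ℤ] AH (N * twC qv) (twC qv) (twH p n qv) p))) ^ k) y.1 := by
  have h1 := thetaZ_sub_smul_pow_coe (θ := thetaTw N S qv θ D.α) (D.galHom σ)
    (D.comm_galHom σ) a k y
  have h2 := congrArg (fun g : Module.End ℤ (AH (N * twC qv) (twC qv) (twH p n qv) p) =>
    ((g.baseChange 𝒪
      - a • (1 : Module.End 𝒪 (𝒪 ⊗[ℤ] AH (N * twC qv) (twC qv) (twH p n qv) p))) ^ k) y.1)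
    (galHom_eq_mul_dia_pow D σ)
  exact h1.trans h2

/-- **(G)**: `Stmt_A_lg D` from the conclusion of `Stmt_W_LG` at every `j`. -/
theorem a_lg_of_wlg (D : TwSetup 𝒪 ϖ p N S θ ρbar n qv)
    (hW : ∀ j, ∀ σ ∈ (D.P j).inertiaSubgroupIn ℚ,
      ∀ x ∈ Wtw 𝒪 N S p n qv D.h2 D.hcomm θ D.α,
      (∃ k : ℕ, ((((galZ (N * twC qv) (twC qv) (twH p n qv) p (D.frob j) *
          diaZ (N * twC qv) (twC qv) (twH p n qv) D.h2 (dvd_mul_left _ _) p
            (chiC (twC qv) (D.frob j) ^ (jTw p n + 1))).baseChange 𝒪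
          - D.a j • (1 : Module.End 𝒪 (𝒪 ⊗[ℤ] AH (N * twC qv) (twC qv) (twH p n qv) p))) ^ k)
            x = 0)) →
      (galZ (N * twC qv) (twC qv) (twH p n qv) p σ).baseChange 𝒪 x = x) :
    Stmt_A_lg D := by
  intro j x hx
  have hx' : ∃ k : ℕ, ((galT D (D.frob j)
      - D.a j • (1 : Module.End 𝒪 ↥(Wtw 𝒪 N S p n qv D.h2 D.hcomm θ D.α))) ^ k) x = 0 := hx
  exact Exists.elim hx' (fun k hk => by
    have hy : ((galT D (D.frob j)
        - D.a j • (1 : Module.End 𝒪 ↥(Wtw 𝒪 N S p n qv D.h2 D.hcomm θ D.α))) ^ k)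
          (diaW D (D.δ j) x) = 0 :=
      pow_sub_smul_apply_comm _ _ (diaW_galT D (D.δ j) (D.frob j)) (D.a j) k x hk
    have hy' := (galT_sub_smul_pow_coe D (D.frob j) (D.a j) k (diaW D (D.δ j) x)).symm.trans
      (congrArg Subtype.val hy)
    have hfix := hW j (D.σ j) (D.σ_mem j) (diaW D (D.δ j) x).1 (diaW D (D.δ j) x).2 ⟨k, hy'⟩
    have e : galT D (D.σ j) x = galU D (D.σ j) (diaW D (D.δ j) x) :=
      congrArg (fun f : Module.End 𝒪 ↥(Wtw 𝒪 N S p n qv D.h2 D.hcomm θ D.α) => f x)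
        ((galT_eq D (D.σ j)).trans
          (congrArg (fun z => galU D (D.σ j) * z) (diaW_pow_eq D _ _).symm))
    exact e.trans (Subtype.ext hfix))

/-- **(E)**: inertia at `q_j` is trivial on `W[ϖ]^Δ` (the socle hypothesis of `Stmt_W_LG`). -/
theorem lg_socle (Dm : MinSetup 𝒪 ϖ p N S θ) (D : TwSetup 𝒪 ϖ p N S θ ρbar n qv)
    (hpi : Stmt_A_pi Dm D) (j : Fin r) (σ : _root_.Fermat.Agent.NEB.Geom.GalQ) (hσ : σ ∈ (D.P j).inertiaSubgroupIn ℚ)
    (x : 𝒪 ⊗[ℤ] AH (N * twC qv) (twC qv) (twH p n qv) p)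
    (hx : x ∈ Wtw 𝒪 N S p n qv D.h2 D.hcomm θ D.α) (hϖx : ϖ • x = 0)
    (hfix : ∀ u, (diaZ (N * twC qv) (twC qv) (twH p n qv) D.h2 (dvd_mul_left _ _) p
      u).baseChange 𝒪 x = x) :
    (galZ (N * twC qv) (twC qv) (twH p n qv) p σ).baseChange 𝒪 x = x := by
  have hq : (qv j).Prime := D.hTW.prime j
  have hqS' : qv j ∉ S := D.hTW.notS j
  have hqN : ¬ qv j ∣ N := fun h => hqS' (D.hTW.hNS (qv j) hq h)
  have hqp : qv j ≠ p := fun h => hqS' (h ▸ D.hTW.hpS)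
  have hunr : galZ0 N p σ = 1 := Dm.unr (qv j) hq hqN hqp (D.P j) (D.P_over j) σ hσ
  have hgalM : ∀ y : ↥(thetaPart Dm.ηC θ), galM Dm σ y = y := by
    intro y
    have e1 := thetaZ_congr (θ := θ) (Dm.gal_comm σ) (fun t => Commute.one_right _) hunr
    have e2 := e1.trans (thetaZ_one _)
    exact congrArg (fun f : Module.End 𝒪 ↥(thetaPart Dm.ηC θ) => f y) e2
  exact Exists.elim hpi (fun π h1 => Exists.elim h1 (fun πup h2 => by
    have hinv := h2.2.2.2.1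
    have hgalπ := h2.2.2.2.2.2
    have hv : ϖ • (⟨x, hx⟩ : ↥(Wtw 𝒪 N S p n qv D.h2 D.hcomm θ D.α)) = 0 := Subtype.ext hϖx
    have hdv : ∀ i, D.d i (⟨x, hx⟩ : ↥(Wtw 𝒪 N S p n qv D.h2 D.hcomm θ D.α)) = ⟨x, hx⟩ :=
      fun i => Subtype.ext (hfix (D.δ i))
    exact Exists.elim (hinv ⟨x, hx⟩ hv hdv) (fun y hy => by
      have h3 : D.val (πup (galM Dm σ y))
          = (galZ (N * twC qv) (twC qv) (twH p n qv) p σ).baseChange 𝒪 (D.val (πup y)) :=
        hgalπ σ y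
      have h4 : D.val (πup (galM Dm σ y)) = x :=
        congrArg D.val ((congrArg πup (hgalM y)).trans hy)
      have h5 : D.val (πup y) = x := congrArg D.val hy
      exact (h4.symm.trans (h3.trans (congrArg _ h5))).symm)))

end Parts

end Fermat.Agent.NEB.Geom.H6

end
end
-- ==== END Fermat.Agent.NEB.Geom.H6_ALGParts

-- ==== BEGIN Fermat.Agent.S59.Asm.H92_ThetaMin
section

/-!
# S59, leaf THETA-MIN (helper92)

`stmt_THETAMIN : Stmt_THETAMIN` = `stmt_THETAMIN_of` (core) applied to S29 (`R.H33.stmt_S29`).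
-/

set_option autoImplicit false

namespace Fermat.Agent.S59.Asm.H92

/-- **THETA-MIN**. -/
theorem stmt_THETAMIN : Stmt_THETAMIN :=
  stmt_THETAMIN_of Fermat.Agent.R.H33.stmt_S29

end Fermat.Agent.S59.Asm.H92

end
-- ==== END Fermat.Agent.S59.Asm.H92_ThetaMin

-- ==== BEGIN Fermat.Agent.S59.NonMin.Geom.H94_RelPar
section

/-!
# S59, RT-NONMIN, NMGEOM: the leaf RELPAR (helper94)

The degeneracy maps `A_a = resAlong j_a`, `C_a = corAlong j_a` (`a = 1, 2, 3`) preserve parabolic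
homomorphisms and cuspidal homomorphisms, for EVERY coefficient group.

* `trace_pow_invariant` : for a `2 × 2` integer matrix `M` of determinant `1`, with
  `s n = tr (M ^ n)`: `s n ² - tr M · s n · s (n+1) + s (n+1) ² = 4 - (tr M)²`;
* `trace_pow_sq_eq`, `trace_pow_sq_le` : `tr(M)² = 4 ⟹ tr(M^n)² = 4`, `tr(M)² ≤ 4 ⟹ tr(M^n)² ≤ 4`;
* `corAlong_kills` : the transfer of a homomorphism killing a class of elements closed under
  conjugation and powers kills this class;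
* `stmt_RELPAR : Stmt_RELPAR`.
-/

set_option autoImplicit false
set_option linter.unusedSectionVars false
set_option linter.unusedVariables false
set_option linter.style.haveILetI false

open CongruenceSubgroup
open scoped MatrixGroups

namespace Fermat.Agent.S59.NonMin.Geom.H94

open Fermat.Agent.S41 Fermat.Agent.S59.NonMin.Geom ModularCurve.Period

/-! ## Traces of powers -/

section Trace

theorem mul_self_eq (M : Matrix (Fin 2) (Fin 2) ℤ) (hd : M.det = 1) :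
    M * M = M.trace • M - (1 : Matrix (Fin 2) (Fin 2) ℤ) := by
  rw [Matrix.det_fin_two] at hd
  ext i j
  fin_cases i <;> fin_cases j <;>
    simp [-zsmul_eq_mul, Matrix.mul_apply, Fin.sum_univ_two, Matrix.trace_fin_two,
      Matrix.smul_apply, Matrix.sub_apply] <;>
    first | ring1 | linear_combination (-1 : ℤ) * hd

theorem trace_pow_succ_succ (M : Matrix (Fin 2) (Fin 2) ℤ) (hd : M.det = 1) (n : ℕ) :
    (M ^ (n + 2)).trace = M.trace * (M ^ (n + 1)).trace - (M ^ n).trace := by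
  have h1 : M ^ (n + 2) = M.trace • M ^ (n + 1) - M ^ n := by
    rw [pow_add, pow_two, mul_self_eq M hd, mul_sub, mul_one, Matrix.mul_smul, ← pow_succ]
  rw [h1, Matrix.trace_sub, Matrix.trace_smul, smul_eq_mul]

theorem trace_pow_invariant (M : Matrix (Fin 2) (Fin 2) ℤ) (hd : M.det = 1) (n : ℕ) :
    (M ^ n).trace ^ 2 - M.trace * (M ^ n).trace * (M ^ (n + 1)).trace
      + (M ^ (n + 1)).trace ^ 2 = 4 - M.trace ^ 2 := by
  induction n with
  | zero =>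
    have h0 : (M ^ 0).trace = 2 := by
      rw [pow_zero, Matrix.trace_one]
      rfl
    rw [h0, zero_add, pow_one]
    ring
  | succ n ih =>
    rw [trace_pow_succ_succ M hd n]
    linear_combination ih

theorem trace_pow_sq_eq (M : Matrix (Fin 2) (Fin 2) ℤ) (hd : M.det = 1)
    (ht : M.trace ^ 2 = 4) (n : ℕ) : (M ^ n).trace ^ 2 = 4 := by
  induction n with
  | zero =>
    have h0 : (M ^ 0).trace = 2 := by
      rw [pow_zero, Matrix.trace_one]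
      rfl
    rw [h0]
    norm_num
  | succ n ih =>
    have hinv := trace_pow_invariant M hd n
    -- `(2 y - t x)² = 0`
    have h2 : (2 * (M ^ (n + 1)).trace - M.trace * (M ^ n).trace) ^ 2 = 0 := by
      linear_combination 4 * hinv + ((M ^ n).trace ^ 2 - 4) * ht
    have h3 : 2 * (M ^ (n + 1)).trace = M.trace * (M ^ n).trace := by
      have := pow_eq_zero_iff (two_ne_zero) |>.mp h2
      linarith
    have h4 : (2 * (M ^ (n + 1)).trace) ^ 2 = 16 := by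
      rw [h3, mul_pow, ht, ih]
      norm_num
    nlinarith

theorem trace_pow_sq_le (M : Matrix (Fin 2) (Fin 2) ℤ) (hd : M.det = 1)
    (ht : M.trace ^ 2 ≤ 4) (n : ℕ) : (M ^ n).trace ^ 2 ≤ 4 := by
  rcases eq_or_lt_of_le ht with h | h
  · exact (trace_pow_sq_eq M hd h n).le
  · rcases n with _ | n
    · have h0 : (M ^ 0).trace = 2 := by
        rw [pow_zero, Matrix.trace_one]
        rfl
      rw [h0]
      norm_num
    · have hinv := trace_pow_invariant M hd n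
      -- `(2 x - t y)² + (4 - t²) y² = 4 (4 - t²)`
      have h2 : (2 * (M ^ n).trace - M.trace * (M ^ (n + 1)).trace) ^ 2
          + (4 - M.trace ^ 2) * (M ^ (n + 1)).trace ^ 2 = 4 * (4 - M.trace ^ 2) := by
        linear_combination 4 * hinv
      have h3 : 0 < 4 - M.trace ^ 2 := by linarith
      have h4 : (4 - M.trace ^ 2) * (M ^ (n + 1)).trace ^ 2 ≤ (4 - M.trace ^ 2) * 4 := by
        nlinarith [sq_nonneg (2 * (M ^ n).trace - M.trace * (M ^ (n + 1)).trace)]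
      exact le_of_mul_le_mul_left h4 h3

end Trace

/-! ## The transfer and classes closed under conjugation and powers -/

section Transfer

variable {H G : Type*} [Group H] [Group G] {A : Type*} [AddCommGroup A]

/-- The transfer of a homomorphism killing a class `P` of elements, closed under conjugation and
powers, kills `P`. -/
theorem corAlong_kills (ι : H →* G) (P : G → Prop)
    (hconj : ∀ g r, P g → P (r⁻¹ * g * r)) (hpow : ∀ g (n : ℕ), P g → P (g ^ n))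
    (φ : Additive H →+ A) (hφ : ∀ h, P (ι h) → φ (Additive.ofMul h) = 0) (g : G) (hg : P g) :
    corAlong A ι φ (Additive.ofMul g) = 0 := by
  classical
  unfold corAlong
  split_ifs with h
  · haveI := h.2
    show Multiplicative.toAdd (MonoidHom.transfer _ g) = 0
    haveI : Fintype (Quotient (MulAction.orbitRel (Subgroup.zpowers g) (G ⧸ ι.range))) :=
      Fintype.ofFinite _
    rw [MonoidHom.transfer_eq_prod_quotient_orbitRel_zpowers_quot, Finset.prod_eq_one]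
    · rfl
    · intro q _
      rw [MonoidHom.comp_apply]
      set x : ι.range := ⟨q.out.out⁻¹ * g ^ Function.minimalPeriod (g • ·) q.out * q.out.out,
        QuotientGroup.out_conj_pow_minimalPeriod_mem ι.range g q.out⟩ with hx
      have h1 : ι ((MonoidHom.ofInjective h.1).symm x) = (x : G) :=
        MonoidHom.apply_ofInjective_symm h.1 x
      have h2 : P (ι ((MonoidHom.ofInjective h.1).symm x)) := by
        rw [h1]
        exact hconj _ _ (hpow _ _ hg)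
      have h3 := hφ _ h2
      show Multiplicative.ofAdd (φ (Additive.ofMul ((MonoidHom.ofInjective h.1).symm x))) = 1
      rw [h3]
      rfl
  · rfl

theorem resAlong_kills (ι : H →* G) (P : G → Prop) (P' : H → Prop)
    (hP : ∀ h, P' h → P (ι h))
    (φ : Additive G →+ A) (hφ : ∀ g, P g → φ (Additive.ofMul g) = 0) (h : H) (hh : P' h) :
    resAlong A ι φ (Additive.ofMul h) = 0 :=
  hφ _ (hP h hh)

end Transfer

/-! ## Traces in `Γ₀(N)` -/

section Gamma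

/-- the trace of an element of a subgroup of `SL(2, ℤ)` -/
def trG {Γ : Subgroup SL(2, ℤ)} (g : Γ) : ℤ :=
  ((g : SL(2, ℤ)) : Matrix (Fin 2) (Fin 2) ℤ).trace

theorem trSL_conj (γ δ : SL(2, ℤ)) :
    ((δ⁻¹ * γ * δ : SL(2, ℤ)) : Matrix (Fin 2) (Fin 2) ℤ).trace
      = (γ : Matrix (Fin 2) (Fin 2) ℤ).trace := by
  rw [Matrix.SpecialLinearGroup.coe_mul, Matrix.SpecialLinearGroup.coe_mul,
    Matrix.trace_mul_cycle, ← Matrix.SpecialLinearGroup.coe_mul, mul_inv_cancel,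
    Matrix.SpecialLinearGroup.coe_one, one_mul]

theorem trG_conj {Γ : Subgroup SL(2, ℤ)} (g r : Γ) : trG (r⁻¹ * g * r) = trG g :=
  trSL_conj (g : SL(2, ℤ)) (r : SL(2, ℤ))

theorem trG_pow {Γ : Subgroup SL(2, ℤ)} (g : Γ) (n : ℕ) :
    trG (g ^ n) = (((g : SL(2, ℤ)) : Matrix (Fin 2) (Fin 2) ℤ) ^ n).trace := by
  unfold trG
  rw [Subgroup.coe_pow, Matrix.SpecialLinearGroup.coe_pow]

theorem trG_pow_sq_eq {Γ : Subgroup SL(2, ℤ)} (g : Γ) (n : ℕ) (h : trG g ^ 2 = 4) :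
    trG (g ^ n) ^ 2 = 4 := by
  rw [trG_pow]
  exact trace_pow_sq_eq _ (Matrix.SpecialLinearGroup.det_coe _) h n

theorem trG_pow_sq_le {Γ : Subgroup SL(2, ℤ)} (g : Γ) (n : ℕ) (h : trG g ^ 2 ≤ 4) :
    trG (g ^ n) ^ 2 ≤ 4 := by
  rw [trG_pow]
  exact trace_pow_sq_le _ (Matrix.SpecialLinearGroup.det_coe _) h n

theorem trace_conjMat' (q : ℕ) (M : Matrix (Fin 2) (Fin 2) ℤ) :
    (conjMat q M).trace = M.trace := by
  simp [conjMat, Matrix.trace_fin_two]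

theorem trG_j1 (N q : ℕ) (h : Gamma0 (N * q ^ 2)) : trG (j1 N q h) = trG h := rfl

theorem trG_j2 (N q : ℕ) (h : Gamma0 (N * q ^ 2)) : trG (j2 N q h) = trG h :=
  trace_conjMat' q _

theorem trG_j3 (N q : ℕ) (h : Gamma0 (N * q ^ 2)) : trG (j3 N q h) = trG h :=
  (trace_conjMat' q _).trans (trace_conjMat' q _)

variable {A : Type*} [AddCommGroup A]

/-- restriction along a trace preserving homomorphism preserves parabolic homs -/
theorem resAlong_par {Γ Γ' : Subgroup SL(2, ℤ)} (ι : Γ' →* Γ) (hι : ∀ h, trG (ι h) = trG h)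
    {φ : Additive Γ →+ A} (hφ : IsParabolicHom Γ φ) : IsParabolicHom Γ' (resAlong A ι φ) :=
  fun h hh => hφ (ι h) ((congrArg (· ^ 2) (hι h)).trans hh)

/-- restriction along a trace preserving homomorphism preserves cuspidal homs -/
theorem resAlong_cusp {Γ Γ' : Subgroup SL(2, ℤ)} (ι : Γ' →* Γ) (hι : ∀ h, trG (ι h) = trG h)
    {φ : Additive Γ →+ A} (hφ : IsCuspidalHom Γ φ) : IsCuspidalHom Γ' (resAlong A ι φ) :=
  fun h hh => hφ (ι h) (le_of_eq_of_le (congrArg (· ^ 2) (hι h)) hh)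

/-- the transfer along a trace preserving homomorphism preserves parabolic homs -/
theorem corAlong_par {Γ Γ' : Subgroup SL(2, ℤ)} (ι : Γ' →* Γ) (hι : ∀ h, trG (ι h) = trG h)
    {ψ : Additive Γ' →+ A} (hψ : IsParabolicHom Γ' ψ) : IsParabolicHom Γ (corAlong A ι ψ) :=
  fun g hg => corAlong_kills ι (fun g => trG g ^ 2 = 4)
    (fun g r h => (congrArg (· ^ 2) (trG_conj g r)).trans h)
    (fun g n h => trG_pow_sq_eq g n h) ψ
    (fun h hh => hψ h ((congrArg (· ^ 2) (hι h)).symm.trans hh)) g hg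

/-- the transfer along a trace preserving homomorphism preserves cuspidal homs -/
theorem corAlong_cusp {Γ Γ' : Subgroup SL(2, ℤ)} (ι : Γ' →* Γ) (hι : ∀ h, trG (ι h) = trG h)
    {ψ : Additive Γ' →+ A} (hψ : IsCuspidalHom Γ' ψ) : IsCuspidalHom Γ (corAlong A ι ψ) :=
  fun g hg => corAlong_kills ι (fun g => trG g ^ 2 ≤ 4)
    (fun g r h => le_of_eq_of_le (congrArg (· ^ 2) (trG_conj g r)) h)
    (fun g n h => trG_pow_sq_le g n h) ψ
    (fun h hh => hψ h (le_of_eq_of_le (congrArg (· ^ 2) (hι h)).symm hh)) g hg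

end Gamma

/-- **RELPAR**: the degeneracy maps preserve parabolic and cuspidal homomorphisms. -/
theorem stmt_RELPAR : Stmt_RELPAR := by
  intro N q _ hq hqN A _
  refine ⟨fun φ hφ => ⟨?_, ?_, ?_⟩, fun ψ hψ => ⟨?_, ?_, ?_⟩, fun φ hφ => ⟨?_, ?_, ?_⟩,
    fun ψ hψ => ⟨?_, ?_, ?_⟩⟩
  · exact resAlong_par (j1 N q) (trG_j1 N q) hφ
  · exact resAlong_par (j2 N q) (trG_j2 N q) hφ
  · exact resAlong_par (j3 N q) (trG_j3 N q) hφ
  · exact corAlong_par (j1 N q) (trG_j1 N q) hψ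
  · exact corAlong_par (j2 N q) (trG_j2 N q) hψ
  · exact corAlong_par (j3 N q) (trG_j3 N q) hψ
  · exact resAlong_cusp (j1 N q) (trG_j1 N q) hφ
  · exact resAlong_cusp (j2 N q) (trG_j2 N q) hφ
  · exact resAlong_cusp (j3 N q) (trG_j3 N q) hφ
  · exact corAlong_cusp (j1 N q) (trG_j1 N q) hψ
  · exact corAlong_cusp (j2 N q) (trG_j2 N q) hψ
  · exact corAlong_cusp (j3 N q) (trG_j3 N q) hψ

end Fermat.Agent.S59.NonMin.Geom.H94

end
-- ==== END Fermat.Agent.S59.NonMin.Geom.H94_RelPar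

-- ==== BEGIN Fermat.Agent.S59.NonMin.H7_CondOrd
section

set_option autoImplicit false
set_option linter.style.haveILetI false

open Polynomial IsLocalRing CuspForm
open scoped TensorProduct

namespace Fermat.Agent.S59.NonMin.H7

open Fermat.Agent.R Fermat.Agent.R.H86 Fermat.Agent.S59 Fermat.Agent.S59.Datum

/-! ## Ordinarity of residual representations -/

section Res

variable {k : Type} [Field k]

/-- The ordinary line is transported by an equivariant linear equivalence. -/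
theorem ordLine_equiv {V₁ V₂ : Type} [AddCommGroup V₁] [Module k V₁]
    [AddCommGroup V₂] [Module k V₂]
    (r₁ : (AlgebraicClosure ℚ ≃ₐ[ℚ] AlgebraicClosure ℚ) → Module.End k V₁)
    (r₂ : (AlgebraicClosure ℚ ≃ₐ[ℚ] AlgebraicClosure ℚ) → Module.End k V₂)
    (e : V₁ ≃ₗ[k] V₂) (he : ∀ σ x, e (r₁ σ x) = r₂ σ (e x))
    (P : ValuationSubring (AlgebraicClosure ℚ))
    (h : ∃ L : Submodule k V₁, (∃ b : Module.Basis (Fin 2) k V₁, L = k ∙ b 0) ∧
      (∀ σ ∈ P.decompositionSubgroup ℚ, ∀ v ∈ L, r₁ σ v ∈ L) ∧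
      (∀ σ ∈ P.inertiaSubgroupIn ℚ, ∀ v : V₁, r₁ σ v - v ∈ L)) :
    ∃ L : Submodule k V₂, (∃ b : Module.Basis (Fin 2) k V₂, L = k ∙ b 0) ∧
      (∀ σ ∈ P.decompositionSubgroup ℚ, ∀ v ∈ L, r₂ σ v ∈ L) ∧
      (∀ σ ∈ P.inertiaSubgroupIn ℚ, ∀ v : V₂, r₂ σ v - v ∈ L) := by
  obtain ⟨L, ⟨b, hb⟩, hD, hI⟩ := h
  refine ⟨L.map (e : V₁ →ₗ[k] V₂), ⟨b.map e, ?_⟩, ?_, ?_⟩
  · rw [hb, Submodule.map_span, Set.image_singleton]
    rfl
  · intro σ hσ v hv
    obtain ⟨w, hw, rfl⟩ := hv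
    exact ⟨r₁ σ w, hD σ hσ w hw, he σ w⟩
  · intro σ hσ v
    obtain ⟨w, rfl⟩ := e.surjective v
    refine ⟨r₁ σ w - w, hI σ hσ w, ?_⟩
    change e (r₁ σ w - w) = _
    rw [map_sub, he]

/-- Ordinarity is invariant under equivalence of residual representations. -/
theorem resOrd_of_isEquiv {ρ₁ ρ₂ : ResidualGaloisRep k} (he : ρ₁.IsEquiv ρ₂) (p : ℕ)
    (h : (GaloisRepAdic.ofResidualGaloisRep ρ₁).IsOrdinaryAt p) :
    (GaloisRepAdic.ofResidualGaloisRep ρ₂).IsOrdinaryAt p := by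
  obtain ⟨e⟩ := he
  intro P hP
  exact ordLine_equiv (fun σ => ρ₁.ρ σ) (fun σ => ρ₂.ρ σ) e.toLinearEquiv e.map_apply P (h P hP)

/-- The ordinary line extends to `k' ⊗ V`. -/
theorem ordLine_baseChange {k' : Type} [Field k'] [Algebra k k']
    {V : Type} [AddCommGroup V] [Module k V]
    (r : (AlgebraicClosure ℚ ≃ₐ[ℚ] AlgebraicClosure ℚ) → Module.End k V)
    (P : ValuationSubring (AlgebraicClosure ℚ))
    (h : ∃ L : Submodule k V, (∃ b : Module.Basis (Fin 2) k V, L = k ∙ b 0) ∧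
      (∀ σ ∈ P.decompositionSubgroup ℚ, ∀ v ∈ L, r σ v ∈ L) ∧
      (∀ σ ∈ P.inertiaSubgroupIn ℚ, ∀ v : V, r σ v - v ∈ L)) :
    ∃ L : Submodule k' (k' ⊗[k] V),
      (∃ b : Module.Basis (Fin 2) k' (k' ⊗[k] V), L = k' ∙ b 0) ∧
      (∀ σ ∈ P.decompositionSubgroup ℚ, ∀ v ∈ L, (r σ).baseChange k' v ∈ L) ∧
      (∀ σ ∈ P.inertiaSubgroupIn ℚ, ∀ v : k' ⊗[k] V, (r σ).baseChange k' v - v ∈ L) := by
  classical
  obtain ⟨L, ⟨b, hb⟩, hD, hI⟩ := h
  let b' : Module.Basis (Fin 2) k' (k' ⊗[k] V) := Algebra.TensorProduct.basis k' b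
  have hb' : ∀ i, b' i = (1 : k') ⊗ₜ[k] b i := fun i => Algebra.TensorProduct.basis_apply _ _
  have hrepr : ∀ (c : k') (v : V) (i : Fin 2),
      b'.repr (c ⊗ₜ[k] v) i = c * algebraMap k k' (b.repr v i) := by
    intro c v i
    rw [Algebra.TensorProduct.basis_repr_tmul, Finsupp.smul_apply, Finsupp.mapRange_apply,
      smul_eq_mul]
  have hL : ∀ v : V, v ∈ L ↔ b.repr v 1 = 0 := fun v => by
    rw [hb]
    exact mem_span_basis_zero_iff b v
  refine ⟨Submodule.span k' {b' 0}, ⟨b', rfl⟩, ?_, ?_⟩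
  · intro σ hσ v hv
    obtain ⟨c, rfl⟩ := Submodule.mem_span_singleton.1 hv
    rw [map_smul]
    refine Submodule.smul_mem _ _ ?_
    rw [mem_span_basis_zero_iff, hb', LinearMap.baseChange_tmul, hrepr]
    have h0 : b.repr (r σ (b 0)) 1 = 0 :=
      (hL _).1 (hD σ hσ (b 0) (by rw [hb]; exact Submodule.mem_span_singleton_self _))
    rw [h0, map_zero, mul_zero]
  · intro σ hσ v
    rw [mem_span_basis_zero_iff]
    induction v using TensorProduct.induction_on with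
    | zero => simp
    | tmul c v =>
      rw [LinearMap.baseChange_tmul, ← TensorProduct.tmul_sub, hrepr]
      have h0 : b.repr (r σ v - v) 1 = 0 := (hL _).1 (hI σ hσ v)
      rw [h0, map_zero, mul_zero]
    | add x y hx hy =>
      rw [map_add, add_sub_add_comm, map_add, Finsupp.add_apply, hx, hy, add_zero]

/-- Ordinarity is preserved by extension of the coefficient field. -/
theorem resOrd_baseChangeAlong {k' : Type} [Field k'] (φ : k →+* k')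
    (ρ : ResidualGaloisRep k) (p : ℕ)
    (h : (GaloisRepAdic.ofResidualGaloisRep ρ).IsOrdinaryAt p) :
    (GaloisRepAdic.ofResidualGaloisRep (ρ.baseChangeAlong φ)).IsOrdinaryAt p := by
  letI : Algebra k k' := φ.toAlgebra
  intro P hP
  exact ordLine_baseChange (fun σ => ρ.ρ σ) P (h P hP)

end Res

/-! ## Gluing -/

section Glue

variable {p : ℕ} {N : ℕ} [NeZero N] {S : Finset ℕ}
  {𝒪 : Type} [CommRing 𝒪] [IsDomain 𝒪] [IsDiscreteValuationRing 𝒪]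
  [IsAdicComplete (IsLocalRing.maximalIdeal 𝒪) 𝒪]
  {θ : CuspForm.heckeAlgebra N 2 (↑S : Set ℕ) →+* IsLocalRing.ResidueField 𝒪}
  {T : Type} [CommRing T] [IsLocalRing T] [IsNoetherianRing T]
  [IsAdicComplete (IsLocalRing.maximalIdeal T) T] [Algebra 𝒪 T] [IsLocalHom (algebraMap 𝒪 T)]
  [Module.Finite 𝒪 T] [Module.Free 𝒪 T]

/-- **Gluing**: a residually ordinary datum all of whose points are ordinary at `p` is ordinary
at `p`.  (The proof of `S33.wiring`, the input at the points being a hypothesis.) -/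
theorem ordinary_of_points (hSepT : Stmt_SepT) (hFD : Stmt_FD)
    (hCyc : Stmt_CycInertia) (hFrob : Stmt_FrobCyc)
    [Finite (IsLocalRing.ResidueField 𝒪)] [CharZero 𝒪]
    (hp : p.Prime) (hp2 : p ≠ 2) (hp𝒪 : (p : 𝒪) ∈ IsLocalRing.maximalIdeal 𝒪) (hpS : p ∈ S)
    (hNS : ∀ q : ℕ, q.Prime → q ∣ N → q ∈ S)
    (H : CuspForm.HeckeGaloisRepDatum N (↑S : Set ℕ) 𝒪 θ T)
    (hres : (GaloisRepAdic.ofResidualGaloisRep H.ρ.residual).IsOrdinaryAt p)
    (hpt : ∀ (𝒪' : Type) [CommRing 𝒪'] [IsDomain 𝒪'] [IsDiscreteValuationRing 𝒪']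
      [IsAdicComplete (maximalIdeal 𝒪') 𝒪'] [Finite (ResidueField 𝒪')] [CharZero 𝒪']
      (ψ : T →+* 𝒪') (hψ : IsLocalHom ψ), (p : 𝒪') ∈ maximalIdeal 𝒪' →
      (H.ρ.baseChangeAlong ψ hψ).IsOrdinaryAt p) :
    H.ρ.IsOrdinaryAt p := by
  classical
  intro P hP
  have hpT : (p : T) ∈ maximalIdeal T := Fermat.Agent.R.natCast_mem_maximalIdeal_of_algebra hp𝒪
  obtain ⟨σ₀, hσ₀, v₀, hw₀⟩ := exists_inertia_notMem hFD hCyc hFrob hp hp2 hpS hNS hpT
    H.π H.ρ (hasFrobCharpoly_datum H) P hP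
  obtain ⟨b, hb⟩ := exists_resOrdAt (fun σ => H.ρ.ρ σ) P
    ((residual_isOrdinaryAt_iff _ _).1 hres P hP)
  -- coordinates of `w₀`
  have hβ₀ : b.repr (H.ρ.ρ σ₀ v₀ - v₀) 1 ∈ maximalIdeal T := hb.2 σ₀ hσ₀ v₀
  have hα₀ : IsUnit (b.repr (H.ρ.ρ σ₀ v₀ - v₀) 0) := by
    by_contra hnu
    apply hw₀
    rw [← b.sum_repr (H.ρ.ρ σ₀ v₀ - v₀), Fin.sum_univ_two]
    exact add_mem (Submodule.smul_mem_smul ((mem_maximalIdeal _).2 hnu) trivial)
      (Submodule.smul_mem_smul hβ₀ trivial)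
  obtain ⟨b₂, hb₂0, -⟩ := Fermat.Agent.S33.exists_basis_replace b _ hα₀
  -- main claim
  have hmain : ∀ σ ∈ P.inertiaSubgroupIn ℚ, ∀ v : H.ρ.V,
      b₂.repr (H.ρ.ρ σ v - v) 1 = 0 := by
    intro σ hσ v
    by_contra hne
    obtain ⟨𝒪', i1, i2, i3, i4, i5, i6, ψ, hψ, hψne⟩ := hSepT N S 𝒪 θ T hNS H _ hne
    have hp𝒪' : (p : 𝒪') ∈ maximalIdeal 𝒪' := by
      have h1 : (p : 𝒪') = ψ (p : T) := by rw [map_natCast]
      rw [h1]
      exact (mem_maximalIdeal _).2 (map_nonunit ψ _ ((mem_maximalIdeal _).1 hpT))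
    have hord' := hpt 𝒪' ψ hψ hp𝒪'
    obtain ⟨L', ⟨b'', hL'⟩, -, hI'⟩ := hord' P hP
    letI : Algebra T 𝒪' := ψ.toAlgebra
    exact hψne (Fermat.Agent.S33.coord_eq_zero_of_point (B := 𝒪') (fun s => H.ρ.ρ s) b₂ P hσ₀ v₀
      hb₂0 L' b'' hL' hI' hσ v)
  refine ⟨Submodule.span T {b₂ 0}, ⟨b₂, rfl⟩, ?_, ?_⟩
  · intro τ hτ v hv
    obtain ⟨c, rfl⟩ := Submodule.mem_span_singleton.1 hv
    rw [map_smul]
    refine Submodule.smul_mem _ _ ?_
    have hconj := Fermat.Agent.S33.conj_mem_inertiaSubgroupIn P hτ hσ₀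
    have e : H.ρ.ρ τ (b₂ 0)
        = H.ρ.ρ (τ * σ₀ * τ⁻¹) (H.ρ.ρ τ v₀) - H.ρ.ρ τ v₀ := by
      rw [hb₂0, map_sub, ← Module.End.mul_apply, ← Module.End.mul_apply, ← map_mul, ← map_mul,
        inv_mul_cancel_right]
    rw [e, mem_span_basis_zero_iff]
    exact hmain _ hconj _
  · intro σ hσ v
    rw [mem_span_basis_zero_iff]
    exact hmain σ hσ v

/-- **The case `p ∤ N`**: a residually ordinary datum of level prime to `p` is ordinary at `p`:
its points are flat, hence ordinary. -/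
theorem ordinary_of_flat (hFP : Stmt_FlatPoint) (hFO : Stmt_FlatOrd) (hSepT : Stmt_SepT)
    (hFD : Stmt_FD) (hCyc : Stmt_CycInertia) (hFrob : Stmt_FrobCyc)
    [Finite (IsLocalRing.ResidueField 𝒪)] [CharZero 𝒪]
    (hp : p.Prime) (hp2 : p ≠ 2) (hp𝒪 : (p : 𝒪) ∈ IsLocalRing.maximalIdeal 𝒪) (hpS : p ∈ S)
    (hpN : ¬ p ∣ N)
    (hNS : ∀ q : ℕ, q.Prime → q ∣ N → q ∈ S)
    (H : CuspForm.HeckeGaloisRepDatum N (↑S : Set ℕ) 𝒪 θ T)
    (hres : (GaloisRepAdic.ofResidualGaloisRep H.ρ.residual).IsOrdinaryAt p) :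
    H.ρ.IsOrdinaryAt p := by
  refine ordinary_of_points hSepT hFD hCyc hFrob hp hp2 hp𝒪 hpS hNS H hres ?_
  intro 𝒪' _ _ _ _ _ _ ψ hψ hp𝒪'
  have hfrob : HasFrobCharpoly (ψ.comp H.π) (H.ρ.baseChangeAlong ψ hψ) :=
    hasFrobCharpoly_baseChangeAlong ψ hψ H.π H.ρ (hasFrobCharpoly_datum H)
  have habs : (H.ρ.baseChangeAlong ψ hψ).residual.IsAbsolutelyIrreducible :=
    residual_absIrr_baseChangeAlong ψ hψ H.ρ H.residual_absIrr
  have hflat : (H.ρ.baseChangeAlong ψ hψ).IsFlatAt p :=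
    hFP p N S 𝒪' hp hp2 hp𝒪' hpN hpS hNS (ψ.comp H.π) _ hfrob habs
  refine hFO p hp hp2 𝒪' hp𝒪' _ hflat ?_
    (residual_isOrdinaryAt_baseChangeAlong ψ hψ H.ρ p hres)
  intro P hP
  exact exists_inertia_notMem hFD hCyc hFrob hp hp2 hpS hNS hp𝒪' (ψ.comp H.π) _ hfrob P hP

end Glue

/-! ## COND-ord -/

/-- The type of the frozen S33 for the full local Hecke ring. -/
def Stmt_OrdDatum : Prop :=
  ∀ (𝒪 : Type) [CommRing 𝒪] [IsDomain 𝒪] [IsDiscreteValuationRing 𝒪]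
    [IsAdicComplete (maximalIdeal 𝒪) 𝒪] [Finite (ResidueField 𝒪)] [CharZero 𝒪]
    (p : ℕ), p.Prime → p ≠ 2 → (p : 𝒪) ∈ maximalIdeal 𝒪 →
    ∀ (N : ℕ) [NeZero N] [Fact (CuspForm.HasIntegralStructure N 2)] (S : Finset ℕ),
    (p ∣ N ∧ ¬ p ^ 2 ∣ N) → (∀ q : ℕ, q.Prime → q ∣ N → q ∈ S) →
    ∀ (θ : CuspForm.heckeAlgebra N 2 (↑S : Set ℕ) →+* ResidueField 𝒪)
      (H : CuspForm.HeckeGaloisRepDatum N (↑S : Set ℕ) 𝒪 θ
        (CuspForm.heckeLocal N (↑S : Set ℕ) 𝒪 θ)),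
    (GaloisRepAdic.ofResidualGaloisRep H.ρ.residual).IsOrdinaryAt p → H.ρ.IsOrdinaryAt p

/-- `Stmt_OrdDatum` from S33 at the points. -/
theorem stmt_OrdDatum_of_ordPoint (hOrd : Stmt_OrdPoint) : Stmt_OrdDatum :=
  fun _ _ _ _ _ _ _ _ hp hp2 hp𝒪 _ _ _ _ hN hNS _ H hres =>
    Fermat.Agent.S33.of_ordPoint hOrd hp hp2 hp𝒪 hN hNS H hres

/-- **COND-ord**, core. -/
theorem stmt_CONDord_core (hUnr : Asm.H7.Stmt_UnrDatum) (hUnip : Asm.H7.Stmt_UnipDatum)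
    (hOrdD : Stmt_OrdDatum) (hFP : Stmt_FlatPoint) (hFO : Stmt_FlatOrd) (hSepT : Stmt_SepT)
    (hFD : Stmt_FD) (hCyc : Stmt_CycInertia) (hFrob : Stmt_FrobCyc) : Stmt_CONDord := by
  intro 𝒪 _ _ _ _ _ _ p _ hp2 hp𝒪 ρbar Smin hyp hρbar Q N' _ _ S' hS' hNS hSmin hp2N θ _ H _
    hcyc hequiv
  have hp : p.Prime := Fact.out
  have hpS : p ∈ S' := by rw [hS']; exact Finset.mem_union_left _ hyp.hpSmin
  have hunr : ∀ q : ℕ, q.Prime → q ∉ Smin ∪ Q → H.ρ.IsUnramifiedAt q := fun q hq hqS =>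
    hUnr 𝒪 p hp hp𝒪 N' S' hpS hNS θ H q hq (by rw [hS']; exact hqS)
  have hunip : ∀ q ∈ Smin, q.Prime → q ≠ p → H.ρ.IsUnipotentOnInertiaAt q := fun q hqS hq hqp =>
    hUnip 𝒪 p hp hp𝒪 N' S' hpS hNS θ H q hq hqp (hSmin q hqS hqp).1 (hSmin q hqS hqp).2
  -- the residual representation of the datum is ordinary
  have hres : (GaloisRepAdic.ofResidualGaloisRep H.ρ.residual).IsOrdinaryAt p := by
    obtain ⟨e⟩ := hequiv
    exact resOrd_of_isEquiv ⟨e.symm⟩ p (resOrd_baseChangeAlong _ ρbar p hρbar.1.2.1)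
  have hord : H.ρ.IsOrdinaryAt p := by
    by_cases hpN : p ∣ N'
    · exact hOrdD 𝒪 p hp hp2 hp𝒪 N' S' ⟨hpN, hp2N⟩ hNS θ H hres
    · exact ordinary_of_flat hFP hFO hSepT hFD hCyc hFrob hp hp2 hp𝒪 hpS hpN hNS H hres
  exact ⟨⟨hcyc, hord, hunr⟩, hunip⟩

end Fermat.Agent.S59.NonMin.H7

end
-- ==== END Fermat.Agent.S59.NonMin.H7_CondOrd
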