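-- GENERATED (merged mirror, NOTES/tools/trim/merge3_helper67.py): 4 modules of the originals, bodies verbatim.
import Fermat.Agent.Zm.S43_L11_000
import Fermat.Agent.Zm.S43_L15_000
import Fermat.Agent.Zm.S43_L07_000
import Fermat.Agent.Zm.S43_L13_001
import Fermat.Agent.Zm.S43_L10_000
import Fermat.Agent.Zm.S43_L14_002
import Fermat.Agent.Zm.S43_L03_002
import Fermat.Agent.Zm.S43_L14_001
import Fermat.Agent.Zm.S43_L01_000
import Fermat.Agent.Zm.S35_L13_002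
import Fermat.Agent.Zm.S48_L02_001
import Fermat.Agent.Zm.S43_L01_003
import Fermat.Agent.Zm.S43_L15_001

-- ==== BEGIN Fermat.Agent.L.Pivot.Geom.H18_MixNorm
section

/-!
# PIVOT, package PV-GEOM, leaf P-PI (helper18): the norm formula with mixed exponents

Generic complement of helper70's `H70_TowerZ.lean` (clone of helper29's `tw_norm`):

* `mix_norm`      : `π^* π_* = ∏_j ∑_{a < p^(e j)} ⟨δ_j⟩^a` on `J_H[p^∞]`, `H = mixH`;
* `mix_diaZ_mem`  : `⟨h⟩ = 1` for `h ∈ H`;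
* `nmTotE_append` : the total norm of an appended family is the product of the total norms;
* `pv_normZ`      : the norm formula for the PV objects, `π^* π_* = Nm_{Δ_Q} ∘ Nm_{Δ_Σ}`.
-/

set_option autoImplicit false
set_option linter.unusedSectionVars false
set_option linter.unusedVariables false
set_option linter.style.haveILetI false

noncomputable section

namespace Fermat.Agent.L.Pivot.Geom.H18

open AlgebraicCurve ModularCurve
open Fermat.Agent.NEB Fermat.Agent.NEB.H14 Fermat.Agent.NEB.JH Fermat.Agent.RED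
open Fermat.Agent.NEB.H29 Fermat.Agent.NEB.Geom Fermat.Agent.NEB.Geom.H29
open Fermat.Agent.S59.TWH.H90 Fermat.Agent.L.Pivot.Geom.H70 Fermat.Agent.L.Pivot.Geom.H59

/-! ## 1. Pure algebra: appended families -/

section Append

variable {A : Type*} [CommRing A] {V : Type*} [AddCommGroup V] [Module A V]

theorem nmTotE_append : ∀ {k : ℕ} {r : ℕ} (m : Fin k → ℕ) (m' : Fin r → ℕ)
    (c : Fin k → Module.End A V) (d : Fin r → Module.End A V),
    nmTotE (Fin.append m m') (Fin.append c d) = nmTotE m c * nmTotE m' d := by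
  intro k r m m' c d
  unfold nmTotE
  have h : (fun j : Fin (k + r) => nm (Fin.append m m' j) (Fin.append c d j))
      = Fin.append (fun j => nm (m j) (c j)) (fun i => nm (m' i) (d i)) := by
    funext j
    refine Fin.addCases (fun j' => ?_) (fun i' => ?_) j
    · simp only [Fin.append_left]
    · simp only [Fin.append_right]
  rw [h, List.ofFn_fin_append, List.prod_append]

end Append

/-! ## 2. The norm formula -/

section Mix

variable {M c : ℕ} {p : ℕ} {R : ℕ} {q : Fin R → ℕ} {hqc : ∀ j, q j ∣ c} {e : Fin R → ℕ}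
variable [NeZero M] (h2 : 2 ≤ c) (hyp : MixHyp M c p q e)
  {H : Subgroup (ZMod c)ˣ} (hH : H = mixH c p q hqc e)
  {δ : Fin R → (ZMod c)ˣ} (hδ : IsGenFamM (compHom c q hqc) (fun j => p ^ e j) δ)

include hyp hH

/-- `⟨h⟩ = 1` for `h ∈ H`. -/
theorem mix_diaZ_mem {h : (ZMod c)ˣ} (hh : h ∈ H) : diaZ M c H h2 hyp.hcM p h = 1 := by
  refine LinearMap.ext fun x => Subtype.ext ?_
  rw [diaZ_apply, (mix_ker h2 hyp hH h).2 hh, one_smul]
  rfl

include hδ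

/-- **NORM** with mixed exponents: `π^* π_* = ∏_j ∑_{a < p^(e j)} ⟨δ_j⟩^a` on `J_H[p^∞]`. -/
theorem mix_norm :
    upZ M c H p ∘ₗ downZ M c H p
      = nmTotE (fun j => p ^ e j) (fun j => diaZ M c H h2 hyp.hcM p (δ j)) := by
  haveI : ∀ j, Finite (ZMod (q j))ˣ := fun j => finite_units_of_prime (hyp.prime j)
  haveI : ∀ j, IsCyclic (ZMod (q j))ˣ := fun j => isCyclic_units_of_prime (hyp.prime j)
  refine LinearMap.ext fun x => Subtype.ext ?_
  rw [nmTotE_apply_eq_sum, coe_sum_ptors]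
  simp only [mon_diaZ, diaZ_apply]
  show piUp M c H (piDown M c H (x : JH M c H)) = _
  haveI : Finite (diamondData M c H h2 hyp.hcM).ρ.range := finite_range_rho _
  letI : Fintype (diamondData M c H h2 hyp.hcM).ρ.range := Fintype.ofFinite _
  rw [piUp_piDown (isFF_JH M c H h2 hyp.hcM) (diamondData M c H h2 hyp.hcM) _ rfl]
  symm
  refine Fintype.sum_bijective
    (fun a : (∀ j : Fin R, Fin (p ^ e j)) =>
      (⟨(diamondData M c H h2 hyp.hcM).ρ (∏ j, δ j ^ (a j : ℕ)), ⟨_, rfl⟩⟩ :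
        (diamondData M c H h2 hyp.hcM).ρ.range))
    ⟨?_, ?_⟩ _ _ (fun a => rfl)
  · intro a a' h
    refine hδ.monomial_injective _ (fun d hd => ?_) (congrArg Subtype.val h)
    have := (mix_ker h2 hyp hH d).1 hd
    rw [hH] at this
    exact this
  · rintro ⟨g, d, rfl⟩
    obtain ⟨a, ha⟩ := hδ.monomial_surjective
      (fun j => pow_ne_zero (e j) hyp.hp.ne_zero) (mixHyp_dvd_card hyp)
      (diamondData M c H h2 hyp.hcM).ρ
      (fun d hd => (mix_ker h2 hyp hH d).2 (by rw [hH]; exact hd)) d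
    exact ⟨a, Subtype.ext ha⟩

end Mix

/-! ## 3. The PV objects -/

section PV

open Fermat.Agent.L.Pivot.Geom

variable {N1 : ℕ} {S : Finset ℕ} {p : ℕ} {k : ℕ} {eP : Fin k → ℕ} {n : ℕ} {qP : Fin k → ℕ}
  {r : ℕ} {qv : Fin r → ℕ} [NeZero (N1 * twC qv)]

/-- **NORM** for the PV objects: `π^* π_* = Nm_{Δ_Q} ∘ Nm_{Δ_Σ}` on `J_{H'}[p^∞]`. -/
theorem pv_normZ (h : PvHyp N1 S p eP n qP qv) (h2 : 2 ≤ pvC qP qv)
    (hc : pvC qP qv ∣ N1 * twC qv)
    {δP : Fin k → (ZMod (pvC qP qv))ˣ} {δQ : Fin r → (ZMod (pvC qP qv))ˣ}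
    (hδ : IsDeltaGenPv p eP n qP qv δP δQ) :
    upZ (N1 * twC qv) (pvC qP qv) (pvH qP qv p eP n) p ∘ₗ
        downZ (N1 * twC qv) (pvC qP qv) (pvH qP qv p eP n) p
      = nmTot (p ^ n)
          (fun i => diaZ (N1 * twC qv) (pvC qP qv) (pvH qP qv p eP n) h2 hc p (δQ i)) *
        nmTotE (fun j => p ^ eP j)
          (fun j => diaZ (N1 * twC qv) (pvC qP qv) (pvH qP qv p eP n) h2 hc p (δP j)) := by
  have hn := mix_norm h2 (pv_mixHyp h) (pvH_eq_mixH qP qv p eP n) (pv_isGenFamM hδ)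
  have e1 : (fun j => p ^ pvE eP n j)
      = Fin.append (fun j => p ^ eP j) (fun _ : Fin r => p ^ n) := by
    funext j
    refine Fin.addCases (fun j => ?_) (fun i => ?_) j
    · rw [pvE_left, Fin.append_left]
    · rw [pvE_right, Fin.append_right]
  have e2 : (fun j => diaZ (N1 * twC qv) (pvC qP qv) (pvH qP qv p eP n) h2 hc p
        (pvDelta qP qv δP δQ j))
      = Fin.append
          (fun j => diaZ (N1 * twC qv) (pvC qP qv) (pvH qP qv p eP n) h2 hc p (δP j))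
          (fun i => diaZ (N1 * twC qv) (pvC qP qv) (pvH qP qv p eP n) h2 hc p (δQ i)) := by
    funext j
    refine Fin.addCases (fun j => ?_) (fun i => ?_) j
    · rw [pvDelta_left, Fin.append_left]
    · rw [pvDelta_right, Fin.append_right]
  have hcomm : ∀ u v : (ZMod (pvC qP qv))ˣ,
      Commute (diaZ (N1 * twC qv) (pvC qP qv) (pvH qP qv p eP n) h2 hc p u)
        (diaZ (N1 * twC qv) (pvC qP qv) (pvH qP qv p eP n) h2 hc p v) :=
    fun u v => (Commute.all u v).map _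
  have h1 : ∀ i, Commute
      (nmTotE (fun j => p ^ eP j)
        (fun j => diaZ (N1 * twC qv) (pvC qP qv) (pvH qP qv p eP n) h2 hc p (δP j)))
      (diaZ (N1 * twC qv) (pvC qP qv) (pvH qP qv p eP n) h2 hc p (δQ i)) :=
    fun i => (commute_nmTotE _ _ (fun j => hcomm _ _)).symm
  have h3 : Commute
      (nmTotE (fun j => p ^ eP j)
        (fun j => diaZ (N1 * twC qv) (pvC qP qv) (pvH qP qv p eP n) h2 hc p (δP j)))
      (nmTotE (fun _ : Fin r => p ^ n)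
        (fun i => diaZ (N1 * twC qv) (pvC qP qv) (pvH qP qv p eP n) h2 hc p (δQ i))) :=
    commute_nmTotE _ _ h1
  refine hn.trans ?_
  show nmTotE (fun j => p ^ pvE eP n j)
      (fun j => diaZ (N1 * twC qv) (pvC qP qv) (pvH qP qv p eP n) h2 hc p
        (pvDelta qP qv δP δQ j)) = _
  rw [e1, e2, nmTotE_append]
  exact h3.eq

end PV

end Fermat.Agent.L.Pivot.Geom.H18

end
end
-- ==== END Fermat.Agent.L.Pivot.Geom.H18_MixNorm

-- ==== BEGIN Fermat.Agent.L.Pivot.Geom.H70_PHstep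
section

/-!
# PIVOT, package PV-GEOM, leaf P-HSTEP (helper70)

* `tEisPolyPv`         : the Eisenstein element `X_ℓ₀ Z_{ℓ₀⁻¹}^{j'} - (ℓ₀ + 1)` of `𝕋⁺`;
* `etaPv_tEisPolyPv`   : `η⁺(tEisPolyPv) = tEisPv = T_ℓ₀^H - (ℓ₀ + 1)`;
* `thetaPv_tEisPolyPv` : `θ⁺(tEisPolyPv) = θ(T_ℓ₀) - (ℓ₀ + 1)`;
* `pv_hstepZ_C`, `pv_hstepZ_D` : the `ℤ`-level norm steps on `J_H'[p]` (pivot tower, then the
  Taylor–Wiles tower on the invariants of the pivot diamonds), up to a power of `tEisPv`;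
* `pv_divZ`            : DIV on `J_H'[p^∞]`;
* `p_hstepC`, `p_hstepD` : `Stmt_P_hstepC D`, `Stmt_P_hstepD D`;
* `isDiv_Wpv`          : `IsDiv ϖ Wpv` (for P-ETA);
* **`stmt_P_HSTEPC : Stmt_P_HSTEPC`**, **`stmt_P_HSTEPD : Stmt_P_HSTEPD`**.
-/

set_option autoImplicit false
set_option linter.unusedSectionVars false
set_option linter.unusedVariables false
set_option linter.style.haveILetI false

noncomputable section

open ModularCurve AlgebraicCurve IsLocalRing TensorProduct Polynomial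

namespace Fermat.Agent.L.Pivot.Geom.H70

open Fermat.Agent.NEB Fermat.Agent.NEB.JH Fermat.Agent.NEB.Geom Fermat.Agent.S59.Lim
  Fermat.Agent.S59.Lim.H2 Fermat.Agent.S59.Asm Fermat.Agent.L.Pivot.Geom

/-! ## 1. The Eisenstein element -/

section Eis

variable (N1 : ℕ) (S : Finset ℕ) (p : ℕ) {k : ℕ} (eP : Fin k → ℕ) (n : ℕ) (qP : Fin k → ℕ)
  {r : ℕ} (qv : Fin r → ℕ)

/-- The Eisenstein element `X_ℓ₀ Z_{ℓ₀⁻¹}^{j'} - (ℓ₀ + 1)` of `𝕋⁺`. -/
def tEisPolyPv (ℓ₀ : ℕ) : PolyTw r (pvC qP qv) :=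
  MvPolynomial.X (Sum.inl ℓ₀) *
      MvPolynomial.X (Sum.inr (Sum.inr (Fermat.Agent.NEB.EIG.H39.unitOf (pvC qP qv) ℓ₀)⁻¹))
        ^ jPv p eP n
    - ((ℓ₀ + 1 : ℕ) : PolyTw r (pvC qP qv))

variable [NeZero (N1 * twC qv)] (h2 : 2 ≤ pvC qP qv) (hc : pvC qP qv ∣ N1 * twC qv)

theorem etaPv_tEisPolyPv
    (hcomm : ∀ i j, Commute (opsPv N1 S p eP n qP qv h2 hc i) (opsPv N1 S p eP n qP qv h2 hc j))
    (ℓ₀ : ℕ) (hℓ₀ : GoodTw N1 S qv ℓ₀) :
    etaPv N1 S p eP n qP qv h2 hc hcomm (tEisPolyPv p eP n qP qv ℓ₀)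
      = tEisPv N1 p eP n qP qv h2 hc ℓ₀ := by
  classical
  have hX : etaPv N1 S p eP n qP qv h2 hc hcomm (MvPolynomial.X (Sum.inl ℓ₀))
      = Tz (N1 * twC qv) (pvC qP qv) (pvH qP qv p eP n) h2 hc p ℓ₀ *
        diaZ (N1 * twC qv) (pvC qP qv) (pvH qP qv p eP n) h2 hc p
          (Fermat.Agent.NEB.EIG.H39.unitOf (pvC qP qv) ℓ₀) ^ jPv p eP n := by
    refine (polyHom_X _ _ _).trans ?_
    show (if GoodTw N1 S qv ℓ₀ then _ else _) = _
    rw [if_pos hℓ₀]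
    rfl
  have hZ : etaPv N1 S p eP n qP qv h2 hc hcomm
      (MvPolynomial.X (Sum.inr (Sum.inr (Fermat.Agent.NEB.EIG.H39.unitOf (pvC qP qv) ℓ₀)⁻¹)))
      = diaZ (N1 * twC qv) (pvC qP qv) (pvH qP qv p eP n) h2 hc p
          (Fermat.Agent.NEB.EIG.H39.unitOf (pvC qP qv) ℓ₀)⁻¹ :=
    polyHom_X _ _ _
  exact Fermat.Agent.NEB.Geom.H94.map_eis_eq (etaPv N1 S p eP n qP qv h2 hc hcomm) _ _
    (jPv p eP n) (ℓ₀ + 1) _ _ _ hX hZ
    (Fermat.Agent.NEB.Geom.H94.map_pow_mul_map_inv_pow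
      (diaZ (N1 * twC qv) (pvC qP qv) (pvH qP qv p eP n) h2 hc p) _ _)

omit [NeZero (N1 * twC qv)] in
theorem thetaPv_tEisPolyPv {κ : Type} [Field κ] [NeZero N1]
    (θ : CuspForm.heckeAlgebra N1 2 (↑S : Set ℕ) →+* κ) (α : Fin r → κ)
    (ℓ₀ : ℕ) (hℓ₀ : GoodTw N1 S qv ℓ₀) :
    thetaPv N1 S qP qv θ α (tEisPolyPv p eP n qP qv ℓ₀) =
      θ (CuspForm.heckeAlgebra.T hℓ₀.1 hℓ₀.not_dvd hℓ₀.not_mem) - ((ℓ₀ : κ) + 1) := by
  classical
  have h1 := Fermat.Agent.NEB.Geom.H94.eval_eis_eq (thetaPvVal N1 S qP qv θ α) (Sum.inl ℓ₀)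
    (Sum.inr (Sum.inr (Fermat.Agent.NEB.EIG.H39.unitOf (pvC qP qv) ℓ₀)⁻¹)) (jPv p eP n)
    (ℓ₀ + 1) rfl
  have h2' : thetaPvVal N1 S qP qv θ α (Sum.inl ℓ₀)
      = θ (CuspForm.heckeAlgebra.T hℓ₀.1 hℓ₀.not_dvd hℓ₀.not_mem) := by
    show (if h : GoodTw N1 S qv ℓ₀ then _ else _) = _
    rw [dif_pos hℓ₀]
  refine h1.trans ?_
  rw [h2', Nat.cast_add, Nat.cast_one]

end Eis

/-! ## 2. The `ℤ`-level steps -/

section ZLevel

variable {N1 : ℕ} {S : Finset ℕ} {p : ℕ} {k : ℕ} {eP : Fin k → ℕ} {n : ℕ} {qP : Fin k → ℕ}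
  {r : ℕ} {qv : Fin r → ℕ} [NeZero (N1 * twC qv)]
  (h2 : 2 ≤ pvC qP qv) (hc : pvC qP qv ∣ N1 * twC qv) (hPV : PvHyp N1 S p eP n qP qv)
  {δP : Fin k → (ZMod (pvC qP qv))ˣ} {δQ : Fin r → (ZMod (pvC qP qv))ˣ}
  (hδ : IsDeltaGenPv p eP n qP qv δP δQ)

include hPV hδ

/-- **DIV** on `J_H'[p^∞]`. -/
theorem pv_divZ (ℓ₀ : ℕ) (hℓ₀ : ℓ₀.Prime) (hℓ₀M : ¬ ℓ₀ ∣ N1 * twC qv) :
    ∃ Nn : ℕ, ∀ x : AHpv N1 p eP n qP qv, ∃ y : AHpv N1 p eP n qP qv,
      (tEisPv N1 p eP n qP qv h2 hc ℓ₀ ^ Nn) x = p • y :=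
  mix_div h2 (pv_mixHyp hPV) (pvH_eq_mixH qP qv p eP n) (pv_isGenFamM hδ) ℓ₀ hℓ₀ hℓ₀M

/-- **HSTEP (C)** on `J_H'[p]`: the tower of the pivot primes. -/
theorem pv_hstepZ_C (ℓ₀ : ℕ) (hℓ₀ : ℓ₀.Prime) (hℓ₀M : ¬ ℓ₀ ∣ N1 * twC qv) (j : Fin k)
    (v : AHpv N1 p eP n qP qv) (hv : p • v = 0)
    (hfix : ∀ i, i ≤ j →
      diaZ (N1 * twC qv) (pvC qP qv) (pvH qP qv p eP n) h2 hc p (δP i) v = v) :
    ∃ (w : AHpv N1 p eP n qP qv) (m : ℕ), p • w = 0 ∧
      (∀ i, i < j →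
        diaZ (N1 * twC qv) (pvC qP qv) (pvH qP qv p eP n) h2 hc p (δP i) w = w) ∧
      ∑ a ∈ Finset.range (p ^ eP j),
        (diaZ (N1 * twC qv) (pvC qP qv) (pvH qP qv p eP n) h2 hc p (δP j) ^ a) w
          = (tEisPv N1 p eP n qP qv h2 hc ℓ₀ ^ m) v := by
  have hfix' : ∀ i : Fin (k + r), i ≤ Fin.castAdd r j →
      diaZ (N1 * twC qv) (pvC qP qv) (pvH qP qv p eP n) h2 hc p
        (pvDelta qP qv δP δQ i) v = v := by
    intro i
    refine Fin.addCases (fun i' => ?_) (fun i' => ?_) i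
    · intro hi
      rw [pvDelta_left]
      exact hfix i' (by
        have : (i' : ℕ) ≤ (j : ℕ) := hi
        exact this)
    · intro hi
      exfalso
      have h1 : k + (i' : ℕ) ≤ (j : ℕ) := hi
      have h2' := j.2
      omega
  obtain ⟨w, m, hw, hwfix, hsum⟩ := mix_hstep h2 (pv_mixHyp hPV) (pvH_eq_mixH qP qv p eP n)
    (pv_isGenFamM hδ) ℓ₀ hℓ₀ hℓ₀M (Fin.castAdd r j) v hv hfix'
  refine ⟨w, m, hw, fun i hi => ?_, ?_⟩
  · have := hwfix (Fin.castAdd r i) (by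
      show (i : ℕ) < (j : ℕ)
      exact hi)
    rwa [pvDelta_left] at this
  · rw [pvE_left, pvDelta_left] at hsum
    exact hsum

/-- **HSTEP (D)** on `J_H'[p]`: the tower of the Taylor–Wiles primes, on the invariants of the
pivot diamonds. -/
theorem pv_hstepZ_D (ℓ₀ : ℕ) (hℓ₀ : ℓ₀.Prime) (hℓ₀M : ¬ ℓ₀ ∣ N1 * twC qv) (i : Fin r)
    (v : AHpv N1 p eP n qP qv) (hv : p • v = 0)
    (hfixC : ∀ j, diaZ (N1 * twC qv) (pvC qP qv) (pvH qP qv p eP n) h2 hc p (δP j) v = v)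
    (hfixD : ∀ i', i' ≤ i →
      diaZ (N1 * twC qv) (pvC qP qv) (pvH qP qv p eP n) h2 hc p (δQ i') v = v) :
    ∃ (w : AHpv N1 p eP n qP qv) (m : ℕ), p • w = 0 ∧
      (∀ j, diaZ (N1 * twC qv) (pvC qP qv) (pvH qP qv p eP n) h2 hc p (δP j) w = w) ∧
      (∀ i', i' < i →
        diaZ (N1 * twC qv) (pvC qP qv) (pvH qP qv p eP n) h2 hc p (δQ i') w = w) ∧
      ∑ a ∈ Finset.range (p ^ n),
        (diaZ (N1 * twC qv) (pvC qP qv) (pvH qP qv p eP n) h2 hc p (δQ i) ^ a) w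
          = (tEisPv N1 p eP n qP qv h2 hc ℓ₀ ^ m) v := by
  have hfix' : ∀ m : Fin (k + r), m ≤ Fin.natAdd k i →
      diaZ (N1 * twC qv) (pvC qP qv) (pvH qP qv p eP n) h2 hc p
        (pvDelta qP qv δP δQ m) v = v := by
    intro m
    refine Fin.addCases (fun j' => ?_) (fun i' => ?_) m
    · intro _
      rw [pvDelta_left]
      exact hfixC j'
    · intro hi
      rw [pvDelta_right]
      exact hfixD i' (by
        have h1 : k + (i' : ℕ) ≤ k + (i : ℕ) := hi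
        show (i' : ℕ) ≤ (i : ℕ)
        omega)
  obtain ⟨w, m, hw, hwfix, hsum⟩ := mix_hstep h2 (pv_mixHyp hPV) (pvH_eq_mixH qP qv p eP n)
    (pv_isGenFamM hδ) ℓ₀ hℓ₀ hℓ₀M (Fin.natAdd k i) v hv hfix'
  refine ⟨w, m, hw, fun j => ?_, fun i' hi' => ?_, ?_⟩
  · have := hwfix (Fin.castAdd r j) (by
      show (j : ℕ) < k + (i : ℕ)
      have := j.2
      omega)
    rwa [pvDelta_left] at this
  · have := hwfix (Fin.natAdd k i') (by
      show k + (i' : ℕ) < k + (i : ℕ)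
      have : (i' : ℕ) < (i : ℕ) := hi'
      omega)
    rwa [pvDelta_right] at this
  · rw [pvE_right, pvDelta_right] at hsum
    exact hsum

end ZLevel

/-! ## 3. The leaves on `W'` -/

section Main

variable {𝒪 : Type} [CommRing 𝒪] [IsDomain 𝒪] [IsDiscreteValuationRing 𝒪]
  {ϖ : 𝒪} {p : ℕ} {N1 : ℕ} [NeZero N1] {S : Finset ℕ}
  {θ : CuspForm.heckeAlgebra N1 2 (↑S : Set ℕ) →+* ResidueField 𝒪}
  {ρbar : ResidualGaloisRep (ResidueField 𝒪)} {k : ℕ} {eP : Fin k → ℕ} {n : ℕ}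
  {qP : Fin k → ℕ} {r : ℕ} {qv : Fin r → ℕ}
  [NeZero (N1 * twC qv)] [NeZero (pvC qP qv)] [NeZero (twLevel N1 qv)]
  [NeZero (pvLevel N1 qP qv)]

/-- `θ⁺` does not vanish at the Eisenstein element. -/
theorem thetaPv_tEisPolyPv_ne (D : PvSetup 𝒪 ϖ p N1 S θ ρbar eP n qP qv) :
    thetaPv N1 S qP qv θ D.α (tEisPolyPv p eP n qP qv D.ℓ₀) ≠ 0 := by
  rw [thetaPv_tEisPolyPv N1 S p eP n qP qv θ D.α D.ℓ₀ D.hℓ₀]
  exact sub_ne_zero.mpr D.hne

/-- a good prime does not divide the level `M1 = N1 · c_Q` -/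
theorem not_dvd_level_of_goodTw {ℓ : ℕ} (h : GoodTw N1 S qv ℓ) : ¬ ℓ ∣ N1 * twC qv := by
  intro hd
  apply h.2.1
  have h1 : N1 * twC qv ∣ twLevel N1 qv := by
    unfold twLevel twC
    refine mul_dvd_mul_left N1 ?_
    rw [Finset.prod_pow]
    exact Dvd.intro _ (sq _).symm
  exact hd.trans h1

/-- `J_H'[p^∞][p]` is finite (Z-FIN). -/
theorem finite_AHpv [Fact p.Prime] (h2 : 2 ≤ pvC qP qv) (hc : pvC qP qv ∣ N1 * twC qv) :
    Finite {x : AHpv N1 p eP n qP qv // p • x = 0} := by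
  have hfin := Fermat.Agent.NEB.Geom.H29.stmt_ZFIN_final (pvH qP qv p eP n) h2 hc p 1
  haveI : Finite ↥{y : JH (N1 * twC qv) (pvC qP qv) (pvH qP qv p eP n) |
      ((p ^ 1 : ℕ) : ℤ) • y = 0} := hfin.to_subtype
  refine Finite.of_injective
    (fun x : {x : AHpv N1 p eP n qP qv // p • x = 0} =>
      (⟨((x.1 : AHpv N1 p eP n qP qv) : JH (N1 * twC qv) (pvC qP qv) (pvH qP qv p eP n)), ?_⟩ :
        ↥{y : JH (N1 * twC qv) (pvC qP qv) (pvH qP qv p eP n) | ((p ^ 1 : ℕ) : ℤ) • y = 0}))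
    ?_
  · have h := x.2
    have h' : ((p • (x.1 : AHpv N1 p eP n qP qv) : AHpv N1 p eP n qP qv) :
        JH (N1 * twC qv) (pvC qP qv) (pvH qP qv p eP n)) = 0 := by rw [h]; rfl
    show ((p ^ 1 : ℕ) : ℤ) •
      ((x.1 : AHpv N1 p eP n qP qv) : JH (N1 * twC qv) (pvC qP qv) (pvH qP qv p eP n)) = 0
    rw [pow_one, natCast_zsmul, ← coe_nsmul_ptors_mix]
    exact h'
  · intro x y hxy
    have h1 : ((x.1 : AHpv N1 p eP n qP qv) : JH (N1 * twC qv) (pvC qP qv) (pvH qP qv p eP n))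
        = ((y.1 : AHpv N1 p eP n qP qv) : JH (N1 * twC qv) (pvC qP qv) (pvH qP qv p eP n)) :=
      Subtype.mk.inj hxy
    exact Subtype.ext (Subtype.ext h1)

variable [Finite (ResidueField 𝒪)] [Fact p.Prime]

/-- **P-HSTEP (C)**: norm surjectivity along the tower of the pivot primes on `W'[ϖ]`. -/
theorem p_hstepC (hϖ : Irreducible ϖ) (hpm : (p : 𝒪) ∈ maximalIdeal 𝒪) (hp0 : (p : 𝒪) ≠ 0)
    (D : PvSetup 𝒪 ϖ p N1 S θ ρbar eP n qP qv) : Stmt_P_hstepC D := by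
  have hE := etaPv_tEisPolyPv N1 S p eP n qP qv D.h2 D.hc D.hcomm D.ℓ₀ D.hℓ₀
  exact hstepC_thetaZ hϖ (Fact.out : p.Prime) hpm hp0 (fun x => isPTors_coe x)
    (finite_AHpv D.h2 D.hc) (etaPv N1 S p eP n qP qv D.h2 D.hc D.hcomm)
    (thetaPv N1 S qP qv θ D.α) (tEisPolyPv p eP n qP qv D.ℓ₀) (thetaPv_tEisPolyPv_ne D) eP
    (fun j => diaZ (N1 * twC qv) (pvC qP qv) (pvH qP qv p eP n) D.h2 D.hc p (D.δP j))
    (fun j t => D.comm_dia (D.δP j) t)
    (fun j v hv hfix => by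
      obtain ⟨w, m, h1, h2, h3⟩ := pv_hstepZ_C D.h2 D.hc D.hPV D.hδ D.ℓ₀ D.hℓ₀.1
        (not_dvd_level_of_goodTw D.hℓ₀) j v hv hfix
      exact ⟨w, m, h1, h2, by rw [hE]; exact h3⟩)

/-- **P-HSTEP (D)**: norm surjectivity along the tower of the Taylor–Wiles primes on the
`Δ_Σ`-invariants of `W'[ϖ]`. -/
theorem p_hstepD (hϖ : Irreducible ϖ) (hpm : (p : 𝒪) ∈ maximalIdeal 𝒪) (hp0 : (p : 𝒪) ≠ 0)
    (D : PvSetup 𝒪 ϖ p N1 S θ ρbar eP n qP qv) : Stmt_P_hstepD D := by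
  have hE := etaPv_tEisPolyPv N1 S p eP n qP qv D.h2 D.hc D.hcomm D.ℓ₀ D.hℓ₀
  exact hstepD_thetaZ hϖ (Fact.out : p.Prime) hpm hp0 (fun x => isPTors_coe x)
    (finite_AHpv D.h2 D.hc) (etaPv N1 S p eP n qP qv D.h2 D.hc D.hcomm)
    (thetaPv N1 S qP qv θ D.α) (tEisPolyPv p eP n qP qv D.ℓ₀) (thetaPv_tEisPolyPv_ne D) n
    (fun j => diaZ (N1 * twC qv) (pvC qP qv) (pvH qP qv p eP n) D.h2 D.hc p (D.δP j))
    (fun i => diaZ (N1 * twC qv) (pvC qP qv) (pvH qP qv p eP n) D.h2 D.hc p (D.δQ i))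
    (fun j t => D.comm_dia (D.δP j) t) (fun i t => D.comm_dia (D.δQ i) t)
    (fun i v hv hfixC hfixD => by
      obtain ⟨w, m, h1, h2, h3, h4⟩ := pv_hstepZ_D D.h2 D.hc D.hPV D.hδ D.ℓ₀ D.hℓ₀.1
        (not_dvd_level_of_goodTw D.hℓ₀) i v hv hfixC hfixD
      exact ⟨w, m, h1, h2, h3, by rw [hE]; exact h4⟩)

/-- **P-ETA, field `isDiv`**: `W'` is `IsDiv`, from DIV and W-DIV. -/
theorem isDiv_Wpv (hϖ : Irreducible ϖ) (hpm : (p : 𝒪) ∈ maximalIdeal 𝒪) (hp0 : (p : 𝒪) ≠ 0)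
    (h2 : 2 ≤ pvC qP qv) (hc : pvC qP qv ∣ N1 * twC qv)
    (hcomm : ∀ i j, Commute (opsPv N1 S p eP n qP qv h2 hc i)
      (opsPv N1 S p eP n qP qv h2 hc j))
    (α : Fin r → ResidueField 𝒪) (hPV : PvHyp N1 S p eP n qP qv)
    {δP : Fin k → (ZMod (pvC qP qv))ˣ} {δQ : Fin r → (ZMod (pvC qP qv))ˣ}
    (hδ : IsDeltaGenPv p eP n qP qv δP δQ)
    (ℓ₀ : ℕ) (hℓ₀ : GoodTw N1 S qv ℓ₀)
    (hne : θ (CuspForm.heckeAlgebra.T hℓ₀.1 hℓ₀.not_dvd hℓ₀.not_mem)
      ≠ ((ℓ₀ : ResidueField 𝒪) + 1)) :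
    IsDiv ϖ ↥(Wpv N1 S p eP n qP qv h2 hc 𝒪 hcomm θ α) := by
  obtain ⟨Nn, hNn⟩ := pv_divZ h2 hc hPV hδ ℓ₀ hℓ₀.1 (not_dvd_level_of_goodTw hℓ₀)
  have hE := etaPv_tEisPolyPv N1 S p eP n qP qv h2 hc hcomm ℓ₀ hℓ₀
  have hθ : thetaPv N1 S qP qv θ α (tEisPolyPv p eP n qP qv ℓ₀) ≠ 0 := by
    rw [thetaPv_tEisPolyPv N1 S p eP n qP qv θ α ℓ₀ hℓ₀]
    exact sub_ne_zero.mpr hne
  exact Fermat.Agent.NEB.Geom.H94.stmt_W_DIV 𝒪 ϖ hϖ p hpm hp0 (AHpv N1 p eP n qP qv)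
    (fun x => isPTors_coe x) (finite_AHpv h2 hc) (PolyTw r (pvC qP qv))
    (etaPv N1 S p eP n qP qv h2 hc hcomm) (thetaPv N1 S qP qv θ α)
    (tEisPolyPv p eP n qP qv ℓ₀) hθ ⟨Nn, fun x => by rw [hE]; exact hNn x⟩

end Main

/-! ## 4. The universally quantified leaves -/

/-- **P-HSTEP (C)**. -/
theorem stmt_P_HSTEPC : Stmt_P_HSTEPC := by
  intro 𝒪 _ _ _ _ _ _ ϖ p _ N1 _ S Smin θ ρbar k Pv eP hstd Dm n r qv _ _ _ _ D
  exact p_hstepC hstd.hϖ hstd.hyp.hp𝒪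
    (Nat.cast_ne_zero.mpr (Fact.out : p.Prime).ne_zero) D

/-- **P-HSTEP (D)**. -/
theorem stmt_P_HSTEPD : Stmt_P_HSTEPD := by
  intro 𝒪 _ _ _ _ _ _ ϖ p _ N1 _ S Smin θ ρbar k Pv eP hstd Dm n r qv _ _ _ _ D
  exact p_hstepD hstd.hϖ hstd.hyp.hp𝒪
    (Nat.cast_ne_zero.mpr (Fact.out : p.Prime).ne_zero) D

end Fermat.Agent.L.Pivot.Geom.H70

end
end
-- ==== END Fermat.Agent.L.Pivot.Geom.H70_PHstep

-- ==== BEGIN Fermat.Agent.L.Pivot.Geom.H76_PFrobNil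
section

/-!
# PIVOT, PV-GEOM Part I, leaf P-FROBNIL (helper76)

`p_frob_nil : Stmt_P_pi Dm D → Stmt_P_frob_nil D` and
`stmt_P_FROBNIL_of : Stmt_P_PI → Stmt_P_FROBNIL`:
for `F = gal (frob_i)` (the twisted Galois action on `W'` at a Frobenius element of the
Taylor–Wiles prime `qv i`), the operator `(F - a_i)(F - a'_i)` is nilpotent at every element of
`W'[ϖ]`.

Clone of helper6's A-FROBNIL (`NEB/Geom/H6_AFrobNil.lean`).  Socle filtration
(`H6.frobNil_core`) for the commuting operators `⟨χ_c'(frob_i)⟩`, `c_j = ⟨δP j⟩`, `d_i = ⟨δQ i⟩`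
(all of order dividing `p ^ (n + ∑ eP j)`): it suffices to treat the elements of `W'[ϖ]` fixed
by all of them.  Such an element is `πup y` (P-PI, `inv`), the twist disappears on it, `πup` is
equivariant for the untwisted Galois action (P-PI, last clause), and at the level `N1`
Eichler–Shimura gives the nilpotency (`H6.min_frob_nil`).
-/

set_option autoImplicit false
set_option linter.unusedSectionVars false
set_option linter.unusedVariables false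
set_option linter.style.haveILetI false

noncomputable section

open ModularCurve AlgebraicCurve IsLocalRing TensorProduct Polynomial

namespace Fermat.Agent.L.Pivot.Geom.H76

open Fermat.Agent.NEB Fermat.Agent.NEB.JH Fermat.Agent.NEB.Geom Fermat.Agent.S59.Asm
  Fermat.Agent.S59.Lim Fermat.Agent.S59.Lim.H2 Fermat.Agent.L.Pivot.Geom

/-! ## Abstract lemmas -/

section AbsPv

variable {𝒪 : Type*} [CommRing 𝒪] {W₀ : Type*} [AddCommGroup W₀] [Module 𝒪 W₀]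
  {W : Type*} [AddCommGroup W] [Module 𝒪 W]

/-- The socle filtration `H6.frobNil_core` for a family indexed by a finite type. -/
theorem frobNil_core_fintype (S : Submodule 𝒪 W) (Q : Module.End 𝒪 W)
    (hQS : ∀ x ∈ S, Q x ∈ S) {ι : Type*} [Finite ι] (d : ι → Module.End 𝒪 W)
    (hdS : ∀ j, ∀ x ∈ S, d j x ∈ S)
    (hnil : ∀ j, ∀ x ∈ S, ∃ k : ℕ, ((d j - 1) ^ k) x = 0)
    (hcomm : ∀ i j, Commute (d i) (d j)) (hdQ : ∀ j, Commute (d j) Q)
    (hfix : ∀ x ∈ S, (∀ j, d j x = x) → ∃ m : ℕ, (Q ^ m) x = 0)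
    (x : W) (hx : x ∈ S) : ∃ m : ℕ, (Q ^ m) x = 0 := by
  classical
  haveI : Fintype ι := Fintype.ofFinite ι
  let e : ι ≃ Fin (Fintype.card ι) := Fintype.equivFin ι
  refine Fermat.Agent.NEB.Geom.H6.frobNil_core S Q hQS (Fintype.card ι) (fun i => d (e.symm i))
    (fun i => hdS _) (fun i => hnil _) (fun i j => hcomm _ _) (fun i => hdQ _) ?_ x hx
  intro y hy hyfix
  refine hfix y hy (fun j => ?_)
  have := hyfix (e j)
  rwa [Equiv.symm_apply_apply] at this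

/-- **The abstract form of P-FROBNIL**: as `H6.frobNil_abs`, with a family of operators of
`p`-power order indexed by a finite type, of order dividing `p ^ n`. -/
theorem frobNil_absPv (ϖ : 𝒪) (p : ℕ) (hp : p.Prime) (hpϖ : (p : 𝒪) ∈ Ideal.span {ϖ}) (n k : ℕ)
    (E : Module.End 𝒪 W) {ι : Type*} [Finite ι] (d : ι → Module.End 𝒪 W)
    (hE : E ^ (p ^ n) = 1) (hd : ∀ j, d j ^ (p ^ n) = 1)
    (hEd : ∀ j, Commute E (d j)) (hdd : ∀ i j, Commute (d i) (d j))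
    (Fu F : Module.End 𝒪 W) (hF : F = Fu * E ^ k) (hEFu : Commute E Fu)
    (hdFu : ∀ j, Commute (d j) Fu)
    (up : W₀ →ₗ[𝒪] W) (hinj : Function.Injective up)
    (hinv : ∀ v : W, ϖ • v = 0 → (∀ j, d j v = v) → ∃ y : W₀, up y = v)
    (F₀ : Module.End 𝒪 W₀) (hgal : ∀ y, Fu (up y) = up (F₀ y)) (a a' : 𝒪)
    (h₀ : ∀ y : W₀, ϖ • y = 0 → ∃ m : ℕ,
      (((F₀ - a • (1 : Module.End 𝒪 W₀)) * (F₀ - a' • (1 : Module.End 𝒪 W₀))) ^ m) y = 0)
    (x : W) (hx : ϖ • x = 0) :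
    ∃ m : ℕ, (((F - a • (1 : Module.End 𝒪 W)) * (F - a' • (1 : Module.End 𝒪 W))) ^ m) x = 0 := by
  subst hF
  obtain ⟨c, hc⟩ := Ideal.mem_span_singleton'.mp hpϖ
  let S : Submodule 𝒪 W := Submodule.torsionBy 𝒪 W ϖ
  have hS : ∀ y : W, y ∈ S ↔ ϖ • y = 0 := fun y => Submodule.mem_torsionBy_iff _ _
  have hpS : ∀ y ∈ S, (p : 𝒪) • y = 0 := by
    intro y hy
    rw [← hc, mul_smul, (hS y).1 hy, smul_zero]
  have hstab : ∀ (f : Module.End 𝒪 W), ∀ y ∈ S, f y ∈ S := by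
    intro f y hy
    rw [hS] at hy ⊢
    rw [← map_smul, hy, map_zero]
  set Q : Module.End 𝒪 W := ((Fu * E ^ k) - a • (1 : Module.End 𝒪 W)) *
    ((Fu * E ^ k) - a' • (1 : Module.End 𝒪 W)) with hQ
  -- the family `E, d`
  let d' : Option ι → Module.End 𝒪 W := fun o => Option.elim o E d
  have hd'pow : ∀ i, d' i ^ (p ^ n) = 1 := by
    intro i
    cases i with
    | none => exact hE
    | some i => exact hd i
  have hd'comm : ∀ i j, Commute (d' i) (d' j) := by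
    intro i j
    cases i with
    | none =>
      cases j with
      | none => exact Commute.refl _
      | some j => exact hEd j
    | some i =>
      cases j with
      | none => exact (hEd i).symm
      | some j => exact hdd i j
  have hd'Fu : ∀ i, Commute (d' i) Fu := by
    intro i
    cases i with
    | none => exact hEFu
    | some i => exact hdFu i
  have hd'F : ∀ i, Commute (d' i) (Fu * E ^ k) := fun i =>
    (hd'Fu i).mul_right ((hd'comm i none).pow_right k)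
  have hd'Q : ∀ i, Commute (d' i) Q := fun i =>
    ((hd'F i).sub_right ((Commute.one_right _).smul_right _)).mul_right
      ((hd'F i).sub_right ((Commute.one_right _).smul_right _))
  refine frobNil_core_fintype S Q (hstab Q) d' (fun i => hstab (d' i))
    (fun i y hy => ⟨p ^ n, Fermat.Agent.NEB.Geom.H6.sub_one_pow_apply_eq_zero hp (d' i) n
      (hd'pow i) y (hpS y hy)⟩)
    hd'comm hd'Q ?_ x ((hS x).2 hx)
  intro v hv hvfix
  have hEv : E v = v := hvfix none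
  obtain ⟨y, rfl⟩ := hinv v ((hS v).1 hv) (fun i => hvfix (some i))
  have hy : ϖ • y = 0 := by
    apply hinj
    rw [map_smul, (hS _).1 hv, map_zero]
  obtain ⟨m, hm⟩ := h₀ y hy
  refine ⟨m, ?_⟩
  rw [hQ, Fermat.Agent.NEB.Geom.H6.quad_pow_untwist Fu E hEFu.symm k a a' m (up y) hEv,
    Fermat.Agent.NEB.Geom.H6.quad_pow_map up F₀ Fu hgal a a' m y, hm, map_zero]

end AbsPv

/-! ## The diamond operators for `H' = pvH` have `p`-power order -/

/-- `⟨u⟩ ^ (p ^ E) = 1` on `J_H'[p^∞]`, `E = n + ∑ eP j`. -/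
theorem diaZ_pvH_pow (M : ℕ) [NeZero M] (p : ℕ) {k : ℕ} (eP : Fin k → ℕ) (n : ℕ)
    (qP : Fin k → ℕ) {r : ℕ} (qv : Fin r → ℕ) (h2 : 2 ≤ pvC qP qv) (hc : pvC qP qv ∣ M)
    (u : (ZMod (pvC qP qv))ˣ) :
    diaZ M (pvC qP qv) (pvH qP qv p eP n) h2 hc p u ^ (p ^ (n + ∑ j, eP j)) = 1 := by
  have hmem : u ^ (p ^ (n + ∑ j, eP j)) ∈ pvH qP qv p eP n := pow_mem_pvH qP qv p eP n u
  rw [← map_pow]
  refine LinearMap.ext fun x => Subtype.ext ?_
  show ((diaZ M (pvC qP qv) (pvH qP qv p eP n) h2 hc p (u ^ (p ^ (n + ∑ j, eP j))) x :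
    AH M (pvC qP qv) (pvH qP qv p eP n) p) : JH M (pvC qP qv) (pvH qP qv p eP n)) = x
  rw [diaZ_apply, ((diamondData M (pvC qP qv) (pvH qP qv p eP n) h2 hc).ker _).mpr
    (Or.inl hmem), one_smul]

/-! ## The operators on `W'` -/

section Ops

variable {𝒪 : Type} [CommRing 𝒪] [IsDomain 𝒪] [IsDiscreteValuationRing 𝒪]
  {ϖ : 𝒪} {p : ℕ} {N1 : ℕ} [NeZero N1] {S : Finset ℕ}
  {θ : CuspForm.heckeAlgebra N1 2 (↑S : Set ℕ) →+* ResidueField 𝒪}
  {ρbar : ResidualGaloisRep (ResidueField 𝒪)} {k : ℕ} {eP : Fin k → ℕ} {n : ℕ}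
  {qP : Fin k → ℕ} {r : ℕ} {qv : Fin r → ℕ}
  [NeZero (N1 * twC qv)] [NeZero (pvC qP qv)] [NeZero (twLevel N1 qv)]
  [NeZero (pvLevel N1 qP qv)]
  (D : PvSetup 𝒪 ϖ p N1 S θ ρbar eP n qP qv)

/-- The untwisted Galois action on `W'`. -/
def galUpv (σ : GalK) : Module.End 𝒪 ↥(Wpv N1 S p eP n qP qv D.h2 D.hc 𝒪 D.hcomm θ D.α) :=
  thetaZ (thetaPv N1 S qP qv θ D.α) (galZ (N1 * twC qv) (pvC qP qv) (pvH qP qv p eP n) p σ)
    (fun t => D.comm_gal σ t)

/-- The diamond operators on `W'`, in the explicit type. -/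
def diaWpv (u : (ZMod (pvC qP qv))ˣ) :
    Module.End 𝒪 ↥(Wpv N1 S p eP n qP qv D.h2 D.hc 𝒪 D.hcomm θ D.α) :=
  thetaZ (thetaPv N1 S qP qv θ D.α)
    (diaZ (N1 * twC qv) (pvC qP qv) (pvH qP qv p eP n) D.h2 D.hc p u)
    (fun t => D.comm_dia u t)

/-- The twisted Galois action on `W'`, in the explicit type. -/
def galTpv (σ : GalK) : Module.End 𝒪 ↥(Wpv N1 S p eP n qP qv D.h2 D.hc 𝒪 D.hcomm θ D.α) :=
  thetaZ (thetaPv N1 S qP qv θ D.α) (D.galHom σ) (D.comm_galHom σ)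

theorem galTpv_eq (σ : GalK) :
    galTpv D σ = galUpv D σ *
      diaWpv D (Fermat.Agent.NEB.Geom.H6.chiC (pvC qP qv) σ) ^ (jPv p eP n + 1) := by
  have h1 : ∀ t, Commute (etaPv N1 S p eP n qP qv D.h2 D.hc D.hcomm t)
      (diaZ (N1 * twC qv) (pvC qP qv) (pvH qP qv p eP n) D.h2 D.hc p
        (Fermat.Agent.NEB.Geom.H6.chiC (pvC qP qv) σ) ^ (jPv p eP n + 1)) :=
    fun t => (D.comm_dia _ t).pow_right _
  have e1 := thetaZ_pow (θ := thetaPv N1 S qP qv θ D.α)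
    (fun t => D.comm_dia (Fermat.Agent.NEB.Geom.H6.chiC (pvC qP qv) σ) t) (jPv p eP n + 1) h1
  have e2 := thetaZ_mul (θ := thetaPv N1 S qP qv θ D.α) (fun t => D.comm_gal σ t) h1
    (fun t => (D.comm_gal σ t).mul_right (h1 t))
  have e3 := thetaZ_congr (θ := thetaPv N1 S qP qv θ D.α) (D.comm_galHom σ)
    (fun t => (D.comm_gal σ t).mul_right (h1 t)) (D.galHom_apply σ)
  exact e3.trans (e2.trans (congrArg (fun z => galUpv D σ * z) e1))

theorem diaWpv_pow (u : (ZMod (pvC qP qv))ˣ) : diaWpv D u ^ (p ^ (n + ∑ j, eP j)) = 1 := by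
  have h1 : ∀ t, Commute (etaPv N1 S p eP n qP qv D.h2 D.hc D.hcomm t)
      (diaZ (N1 * twC qv) (pvC qP qv) (pvH qP qv p eP n) D.h2 D.hc p u
        ^ (p ^ (n + ∑ j, eP j))) :=
    fun t => (D.comm_dia _ t).pow_right _
  have e1 := thetaZ_pow (θ := thetaPv N1 S qP qv θ D.α) (fun t => D.comm_dia u t)
    (p ^ (n + ∑ j, eP j)) h1
  have e2 := thetaZ_congr (θ := thetaPv N1 S qP qv θ D.α) h1 (fun t => Commute.one_right _)
    (diaZ_pvH_pow (N1 * twC qv) p eP n qP qv D.h2 D.hc u)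
  exact e1.symm.trans (e2.trans (thetaZ_one _))

theorem diaWpv_comm (u v : (ZMod (pvC qP qv))ˣ) : Commute (diaWpv D u) (diaWpv D v) :=
  thetaZ_commute _ _ ((Commute.all u v).map _)

theorem diaWpv_galUpv (u : (ZMod (pvC qP qv))ˣ) (σ : GalK) :
    Commute (diaWpv D u) (galUpv D σ) :=
  thetaZ_commute _ _ (D.hcommG (Sum.inr (Sum.inr u)) σ)

theorem diaWpv_galTpv (u : (ZMod (pvC qP qv))ˣ) (σ : GalK) :
    Commute (diaWpv D u) (galTpv D σ) := by
  rw [galTpv_eq]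
  exact (diaWpv_galUpv D u σ).mul_right ((diaWpv_comm D u _).pow_right _)

end Ops

/-! ## The leaf -/

section Main

variable {𝒪 : Type} [CommRing 𝒪] [IsDomain 𝒪] [IsDiscreteValuationRing 𝒪]
  {ϖ : 𝒪} {p : ℕ} {N1 : ℕ} [NeZero N1] {S : Finset ℕ}
  {θ : CuspForm.heckeAlgebra N1 2 (↑S : Set ℕ) →+* ResidueField 𝒪}
  {ρbar : ResidualGaloisRep (ResidueField 𝒪)} {k : ℕ} {eP : Fin k → ℕ} {n : ℕ}
  {qP : Fin k → ℕ} {r : ℕ} {qv : Fin r → ℕ}
  [NeZero (N1 * twC qv)] [NeZero (pvC qP qv)] [NeZero (twLevel N1 qv)]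
  [NeZero (pvLevel N1 qP qv)]

/-- P-FROBNIL in the explicit types. -/
theorem frob_nil_explPv (hϖ : Irreducible ϖ) (hpm : (p : 𝒪) ∈ maximalIdeal 𝒪)
    (Dm : MinSetup 𝒪 ϖ p N1 S θ) (D : PvSetup 𝒪 ϖ p N1 S θ ρbar eP n qP qv)
    (up : ↥(thetaPart Dm.ηC θ) →ₗ[𝒪] ↥(Wpv N1 S p eP n qP qv D.h2 D.hc 𝒪 D.hcomm θ D.α))
    (hinj : Function.Injective up)
    (hinv : ∀ v : ↥(Wpv N1 S p eP n qP qv D.h2 D.hc 𝒪 D.hcomm θ D.α), ϖ • v = 0 →
      (∀ j, diaWpv D (D.δP j) v = v) → (∀ i, diaWpv D (D.δQ i) v = v) → ∃ y, up y = v)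
    (hgal : ∀ (σ : GalK) (y : ↥(thetaPart Dm.ηC θ)),
      galUpv D σ (up y) = up (Fermat.Agent.NEB.Geom.H6.galM Dm σ y))
    (i : Fin r) (x : ↥(Wpv N1 S p eP n qP qv D.h2 D.hc 𝒪 D.hcomm θ D.α)) (hx : ϖ • x = 0) :
    ∃ m : ℕ, (((galTpv D (D.frob i)
        - D.a i • (1 : Module.End 𝒪 ↥(Wpv N1 S p eP n qP qv D.h2 D.hc 𝒪 D.hcomm θ D.α))) *
      (galTpv D (D.frob i)
        - D.a' i • (1 : Module.End 𝒪 ↥(Wpv N1 S p eP n qP qv D.h2 D.hc 𝒪 D.hcomm θ D.α))))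
          ^ m) x = 0 := by
  have hp : p.Prime := D.hPV.hp
  have hpϖ : (p : 𝒪) ∈ Ideal.span {ϖ} := hϖ.maximalIdeal_eq ▸ hpm
  have hq : (qv i).Prime := D.hPV.prime i
  have hqS' : qv i ∉ S := D.hPV.notS i
  have hqS : qv i ∉ (↑S : Set ℕ) := fun h => hqS' (Finset.mem_coe.mp h)
  have hqN : ¬ qv i ∣ N1 := fun h => hqS' (D.hPV.hNS (qv i) hq h)
  have hqp : qv i ≠ p := fun h => hqS' (h ▸ D.hPV.hpS)
  have hsum : residue 𝒪 (D.a i + D.a' i) = θ (CuspForm.heckeAlgebra.T hq hqN hqS) := by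
    rw [map_add, D.ha, D.ha', D.eig.add i hq hqN hqS]
  have hprod : residue 𝒪 (D.a i * D.a' i) = ((qv i : ℕ) : ResidueField 𝒪) := by
    rw [map_mul, D.ha, D.ha', D.eig.mul, D.eig.q_one]
  exact frobNil_absPv ϖ p hp hpϖ (n + ∑ j, eP j) (jPv p eP n + 1)
    (diaWpv D (Fermat.Agent.NEB.Geom.H6.chiC (pvC qP qv) (D.frob i)))
    (fun o : Fin k ⊕ Fin r => Sum.elim (fun j => diaWpv D (D.δP j))
      (fun i' => diaWpv D (D.δQ i')) o)
    (diaWpv_pow D _)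
    (fun o => by cases o <;> exact diaWpv_pow D _)
    (fun o => by cases o <;> exact diaWpv_comm D _ _)
    (fun o o' => by cases o <;> cases o' <;> exact diaWpv_comm D _ _)
    (galUpv D (D.frob i)) (galTpv D (D.frob i)) (galTpv_eq D (D.frob i))
    (diaWpv_galUpv D _ _)
    (fun o => by cases o <;> exact diaWpv_galUpv D _ _) up hinj
    (fun v hv hfix => hinv v hv (fun j => hfix (Sum.inl j)) (fun i' => hfix (Sum.inr i')))
    (Fermat.Agent.NEB.Geom.H6.galM Dm (D.frob i)) (hgal (D.frob i))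
    (D.a i) (D.a' i)
    (fun y hy => Fermat.Agent.NEB.Geom.H6.min_frob_nil hϖ Dm (qv i) hq hqN hqS hqp (D.P i)
      (D.P_over i) (D.frob i) (D.frob_spec i) (D.a i) (D.a' i) hsum hprod y hy)
    x hx

/-- **Leaf P-FROBNIL**: `(F - a_i)(F - a'_i)` is nilpotent on `W'[ϖ]`, `F = gal (frob_i)`. -/
theorem p_frob_nil (hϖ : Irreducible ϖ) (hpm : (p : 𝒪) ∈ maximalIdeal 𝒪)
    (Dm : MinSetup 𝒪 ϖ p N1 S θ) (D : PvSetup 𝒪 ϖ p N1 S θ ρbar eP n qP qv)
    (hpi : Stmt_P_pi Dm D) : Stmt_P_frob_nil D := by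
  obtain ⟨π, πup, hinj, -, -, hinv, -, hgalπ⟩ := hpi
  intro i x hx
  exact frob_nil_explPv hϖ hpm Dm D πup hinj hinv
    (fun σ y => Subtype.ext (hgalπ σ y).symm) i x hx

end Main

/-- **Leaf P-FROBNIL** (universally quantified), from P-PI. -/
theorem stmt_P_FROBNIL_of (hPI : Stmt_P_PI) : Stmt_P_FROBNIL := by
  intro 𝒪 _ _ _ _ _ _ ϖ p _ N1 _ S Smin θ ρbar k Pv eP hstd Dm n r qv _ _ _ _ D
  exact p_frob_nil hstd.hϖ hstd.hyp.hp𝒪 Dm D
    (hPI 𝒪 ϖ p N1 S Smin θ ρbar k Pv eP hstd Dm n r qv D)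

end Fermat.Agent.L.Pivot.Geom.H76

end
end
-- ==== END Fermat.Agent.L.Pivot.Geom.H76_PFrobNil

-- ==== BEGIN Fermat.Agent.L.Pivot.Geom.H81_PushSpec
section

/-!
# PIVOT, PV-GEOM part II: the coordinates of the degeneracy push-forwards  (helper81)

Input (leaf PVG-B2, helper24), as hypotheses:

* `Stmt_B2Alpha M q` : if `φ` is the Betti character of `x ∈ J₀(M q)[n]` then `cor1 φ` (transfer
  along the inclusion `Γ₀(M q) ≤ Γ₀(M)`) is the Betti character of `α_* x`;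
* `Stmt_B2Beta M q` : the same for `β_*` and `cor2` (transfer along conjugation by `diag(q, 1)`).

Output:

* `exists_pushMatrices` : integer matrices `Aα`, `Aβ` of `cor1`, `cor2` in parabolic bases
  `b` (level `M q`), `b'` (level `M`);
* `cor1_coordFun`, `cor2_coordFun` : `cor (coordFun b n v) = coordFun b' n (A v)`;
* `theta_alphaPush`, `theta_betaPush` : for coordinates `θ`, `θ'` characterised by `TorChar`:
  `θ' (α_* x) = Aα (θ x)`;
* `exists_pushSpec` : the package for the consumer (helper50, `PushCoords`): coordinatised Tate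
  systems `C` (level `M q`), `C'` (level `M`) with the SAME embedding `ι`, bases, matrices and all
  compatibilities, without casts.
-/

set_option autoImplicit false
set_option linter.unusedSectionVars false
set_option maxHeartbeats 1000000

noncomputable section

namespace Fermat.Agent.L.Pivot.Geom.H81

open AlgebraicCurve ModularCurve CongruenceSubgroup Fermat.Agent.GTor Fermat.Agent.Betti
open Fermat.Agent.GTor.H81 Fermat.Agent.S41 Fermat.Agent.S41.H19 Fermat.Agent.S36.H44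
open ModularCurve.Period
open scoped MatrixGroups

/-! ## The hypotheses (PVG-B2) -/

/-- **(B-2) for `α`.** -/
def Stmt_B2Alpha (M q : ℕ) [NeZero M] [NeZero q] : Prop :=
  ∀ (n : ℕ), n ≠ 0 → ∀ (ι : AlgebraicClosure ℚ →+* ℂ) (x : JZero (M * q))
    (φ : Additive (Gamma0 (M * q)) →+ ZMod n),
    TorChar (M * q) n ι x φ → TorChar M n ι (alphaPush M q x) (cor1 M q (ZMod n) φ)

/-- **(B-2) for `β`.** -/
def Stmt_B2Beta (M q : ℕ) [NeZero M] [NeZero q] : Prop :=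
  ∀ (n : ℕ), n ≠ 0 → ∀ (ι : AlgebraicClosure ℚ →+* ℂ) (x : JZero (M * q))
    (φ : Additive (Gamma0 (M * q)) →+ ZMod n),
    TorChar (M * q) n ι x φ → TorChar M n ι (betaPush M q x) (cor2 M q (ZMod n) φ)

/-! ## Transfers of parabolic homomorphisms -/

section Cor

variable {H G : Type*} [Group H] [Group G] {A : Type*} [AddCommGroup A]

theorem corAlong_zero_h81 (f : H →* G) : corAlong A f (0 : Additive H →+ A) = 0 := by
  have := corAlong_add (A := A) f 0 0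
  rw [add_zero] at this
  exact left_eq_add.mp this

theorem corAlong_sum_h81 (f : H →* G) {I : Type*} (s : Finset I) (φ : I → Additive H →+ A) :
    corAlong A f (∑ i ∈ s, φ i) = ∑ i ∈ s, corAlong A f (φ i) := by
  classical
  induction s using Finset.induction_on with
  | empty => simp [corAlong_zero_h81]
  | insert a s ha ih => rw [Finset.sum_insert ha, Finset.sum_insert ha, corAlong_add, ih]

end Cor

section Par

variable (M q : ℕ)

theorem isParabolicHom_cor1 {A : Type*} [AddCommGroup A]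
    {ψ : Additive (Gamma0 (M * q)) →+ A} (hψ : IsParabolicHom (Gamma0 (M * q)) ψ) :
    IsParabolicHom (Gamma0 M) (cor1 M q A ψ) :=
  Fermat.Agent.S59.NonMin.Geom.H94.corAlong_par (inclG M q) (fun _ => rfl) hψ

theorem isParabolicHom_cor2 {A : Type*} [AddCommGroup A]
    {ψ : Additive (Gamma0 (M * q)) →+ A} (hψ : IsParabolicHom (Gamma0 (M * q)) ψ) :
    IsParabolicHom (Gamma0 M) (cor2 M q A ψ) :=
  Fermat.Agent.S59.NonMin.Geom.H94.corAlong_par (conjG M q)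
    (fun _ => Fermat.Agent.S59.NonMin.Geom.H94.trace_conjMat' q _) hψ

end Par

/-! ## The matrices -/

section Mat

variable {N N' : ℕ} {r r' : ℕ} {b : Fin r → (Additive (Gamma0 N) →+ ℤ)}
  {b' : Fin r' → (Additive (Gamma0 N') →+ ℤ)}

/-- `coordFun` as a sum. -/
theorem coordFun_eq_sum (n : ℕ) (v : Fin r → ZMod n) :
    coordFun b n v = ∑ i, v i • (Int.castAddHom (ZMod n)).comp (b i) := by
  refine AddMonoidHom.ext fun γ => ?_
  rw [coordFun_apply, AddMonoidHom.finsetSum_apply]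
  rfl

/-- The matrix of an additive operator between the lattices of parabolic homomorphisms. -/
theorem exists_matrix_of_par (hb' : IsParBasis N' b')
    (T : (Additive (Gamma0 N) →+ ℤ) → (Additive (Gamma0 N') →+ ℤ))
    (hT : ∀ j, IsParabolicHom (Gamma0 N') (T (b j))) :
    ∃ X : Matrix (Fin r') (Fin r) ℤ, ∀ j, T (b j) = ∑ i, X i j • b' i := by
  choose a ha _ using fun j => hb'.2 ℤ (T (b j)) (hT j)
  refine ⟨Matrix.of fun i j => a j i, fun j => ?_⟩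
  refine AddMonoidHom.ext fun γ => ?_
  rw [ha j γ, AddMonoidHom.finsetSum_apply]
  refine Finset.sum_congr rfl fun i _ => ?_
  rw [AddMonoidHom.smul_apply, Matrix.of_apply, smul_eq_mul, smul_eq_mul, mul_comm]

/-- An operator which is additive, commutes with the scalars and with the change of
coefficients acts on coordinates by its integer matrix. -/
theorem op_coordFun {G G' : Type*} [Group G] [Group G'] (f : G →* G')
    {c : Fin r → (Additive G →+ ℤ)} {c' : Fin r' → (Additive G' →+ ℤ)}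
    (X : Matrix (Fin r') (Fin r) ℤ)
    (hX : ∀ j, corAlong ℤ f (c j) = ∑ i, X i j • c' i) (n : ℕ) (v : Fin r → ZMod n) :
    corAlong (ZMod n) f (∑ i, v i • (Int.castAddHom (ZMod n)).comp (c i))
      = ∑ k, ((X.map (Int.cast : ℤ → ZMod n)).mulVec v) k •
          (Int.castAddHom (ZMod n)).comp (c' k) := by
  rw [corAlong_sum_h81]
  have h1 : ∀ i, corAlong (ZMod n) f (v i • (Int.castAddHom (ZMod n)).comp (c i))
      = v i • ∑ k, (X k i : ZMod n) • (Int.castAddHom (ZMod n)).comp (c' k) := by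
    intro i
    rw [corAlong_smul, Fermat.Agent.S41.H77.corAlong_map, hX i]
    congr 1
    refine AddMonoidHom.ext fun γ => ?_
    simp only [AddMonoidHom.comp_apply, AddMonoidHom.finsetSum_apply, AddMonoidHom.smul_apply,
      map_sum, smul_eq_mul, Int.coe_castAddHom, Int.cast_mul]
  rw [Finset.sum_congr rfl fun i _ => h1 i]
  simp only [Finset.smul_sum, smul_smul]
  rw [Finset.sum_comm]
  refine Finset.sum_congr rfl fun k _ => ?_
  rw [← Finset.sum_smul]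
  congr 1
  rw [Matrix.mulVec, dotProduct]
  refine Finset.sum_congr rfl fun i _ => ?_
  rw [Matrix.map_apply, mul_comm]

end Mat

section Push

variable (M q : ℕ) [NeZero M] [NeZero q] {r r' : ℕ}
  {b : Fin r → (Additive (Gamma0 (M * q)) →+ ℤ)} {b' : Fin r' → (Additive (Gamma0 M) →+ ℤ)}

/-- **The integer matrices of the two transfers** in parabolic bases. -/
theorem exists_pushMatrices (hb : IsParBasis (M * q) b) (hb' : IsParBasis M b') :
    ∃ Aα Aβ : Matrix (Fin r') (Fin r) ℤ,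
      (∀ j, cor1 M q ℤ (b j) = ∑ i, Aα i j • b' i) ∧
      (∀ j, cor2 M q ℤ (b j) = ∑ i, Aβ i j • b' i) := by
  obtain ⟨Aα, hα⟩ := exists_matrix_of_par hb' (cor1 M q ℤ)
    (fun j => isParabolicHom_cor1 M q (hb.1 j))
  obtain ⟨Aβ, hβ⟩ := exists_matrix_of_par hb' (cor2 M q ℤ)
    (fun j => isParabolicHom_cor2 M q (hb.1 j))
  exact ⟨Aα, Aβ, hα, hβ⟩

theorem cor1_coordFun {Aα : Matrix (Fin r') (Fin r) ℤ}
    (hα : ∀ j, cor1 M q ℤ (b j) = ∑ i, Aα i j • b' i) (n : ℕ) (v : Fin r → ZMod n) :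
    cor1 M q (ZMod n) (coordFun b n v)
      = coordFun b' n ((Aα.map (Int.cast : ℤ → ZMod n)).mulVec v) := by
  rw [coordFun_eq_sum, coordFun_eq_sum]
  exact op_coordFun (inclG M q) Aα hα n v

theorem cor2_coordFun {Aβ : Matrix (Fin r') (Fin r) ℤ}
    (hβ : ∀ j, cor2 M q ℤ (b j) = ∑ i, Aβ i j • b' i) (n : ℕ) (v : Fin r → ZMod n) :
    cor2 M q (ZMod n) (coordFun b n v)
      = coordFun b' n ((Aβ.map (Int.cast : ℤ → ZMod n)).mulVec v) := by
  rw [coordFun_eq_sum, coordFun_eq_sum]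
  exact op_coordFun (conjG M q) Aβ hβ n v

variable {M q}

/-- **`α_*` in coordinates.** -/
theorem theta_alphaPush (hB : Stmt_B2Alpha M q) (hb' : IsParBasis M b')
    {Aα : Matrix (Fin r') (Fin r) ℤ} (hα : ∀ j, cor1 M q ℤ (b j) = ∑ i, Aα i j • b' i)
    {n : ℕ} (hn : n ≠ 0) (ι : AlgebraicClosure ℚ →+* ℂ)
    {x : JZero (M * q)} {v : Fin r → ZMod n} (hx : TorChar (M * q) n ι x (coordFun b n v))
    {y : JZero M} {w : Fin r' → ZMod n} (hy : TorChar M n ι y (coordFun b' n w))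
    (hxy : y = alphaPush M q x) :
    w = (Aα.map (Int.cast : ℤ → ZMod n)).mulVec v := by
  have h1 := hB n hn ι x _ hx
  rw [cor1_coordFun M q hα, ← hxy] at h1
  have h2 := torChar_unique hn hy h1
  have h3 : coordFun b' n (w - (Aα.map (Int.cast : ℤ → ZMod n)).mulVec v) = 0 := by
    have e : w = (w - (Aα.map (Int.cast : ℤ → ZMod n)).mulVec v)
        + (Aα.map (Int.cast : ℤ → ZMod n)).mulVec v := by abel
    have h4 := h2
    rw [e, coordFun_add] at h4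
    exact add_eq_right.mp h4
  have h5 := coordFun_injective n hb' hn _ h3
  exact sub_eq_zero.mp h5

/-- **`β_*` in coordinates.** -/
theorem theta_betaPush (hB : Stmt_B2Beta M q) (hb' : IsParBasis M b')
    {Aβ : Matrix (Fin r') (Fin r) ℤ} (hβ : ∀ j, cor2 M q ℤ (b j) = ∑ i, Aβ i j • b' i)
    {n : ℕ} (hn : n ≠ 0) (ι : AlgebraicClosure ℚ →+* ℂ)
    {x : JZero (M * q)} {v : Fin r → ZMod n} (hx : TorChar (M * q) n ι x (coordFun b n v))
    {y : JZero M} {w : Fin r' → ZMod n} (hy : TorChar M n ι y (coordFun b' n w))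
    (hxy : y = betaPush M q x) :
    w = (Aβ.map (Int.cast : ℤ → ZMod n)).mulVec v := by
  have h1 := hB n hn ι x _ hx
  rw [cor2_coordFun M q hβ, ← hxy] at h1
  have h2 := torChar_unique hn hy h1
  have h3 : coordFun b' n (w - (Aβ.map (Int.cast : ℤ → ZMod n)).mulVec v) = 0 := by
    have e : w = (w - (Aβ.map (Int.cast : ℤ → ZMod n)).mulVec v)
        + (Aβ.map (Int.cast : ℤ → ZMod n)).mulVec v := by abel
    have h4 := h2
    rw [e, coordFun_add] at h4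
    exact add_eq_right.mp h4
  have h5 := coordFun_injective n hb' hn _ h3
  exact sub_eq_zero.mp h5

/-- **`α_* x = 0` from the coordinates.** -/
theorem alphaPush_eq_zero_of_coords (hB : Stmt_B2Alpha M q)
    {Aα : Matrix (Fin r') (Fin r) ℤ} (hα : ∀ j, cor1 M q ℤ (b j) = ∑ i, Aα i j • b' i)
    {n : ℕ} (hn : n ≠ 0) (ι : AlgebraicClosure ℚ →+* ℂ)
    {x : JZero (M * q)} {v : Fin r → ZMod n} (hx : TorChar (M * q) n ι x (coordFun b n v))
    (hv : (Aα.map (Int.cast : ℤ → ZMod n)).mulVec v = 0) : alphaPush M q x = 0 := by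
  have h1 := hB n hn ι x _ hx
  rw [cor1_coordFun M q hα, hv, coordFun_zero] at h1
  exact eq_zero_of_torChar_zero hn h1

/-- **`β_* x = 0` from the coordinates.** -/
theorem betaPush_eq_zero_of_coords (hB : Stmt_B2Beta M q)
    {Aβ : Matrix (Fin r') (Fin r) ℤ} (hβ : ∀ j, cor2 M q ℤ (b j) = ∑ i, Aβ i j • b' i)
    {n : ℕ} (hn : n ≠ 0) (ι : AlgebraicClosure ℚ →+* ℂ)
    {x : JZero (M * q)} {v : Fin r → ZMod n} (hx : TorChar (M * q) n ι x (coordFun b n v))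
    (hv : (Aβ.map (Int.cast : ℤ → ZMod n)).mulVec v = 0) : betaPush M q x = 0 := by
  have h1 := hB n hn ι x _ hx
  rw [cor2_coordFun M q hβ, hv, coordFun_zero] at h1
  exact eq_zero_of_torChar_zero hn h1

end Push

/-! ## The package -/

/-- **The coordinates of the degeneracy push-forwards**: coordinatised Tate systems at the
levels `M q` and `M` (same embedding `ι`), parabolic bases, the integer matrices of the Hecke
operators and of the two transfers, and all compatibilities. -/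
theorem exists_pushSpec (M q p : ℕ) [NeZero M] [NeZero q] (S : Set ℕ) (hp : p.Prime)
    (hNS : ∀ ℓ : ℕ, ℓ.Prime → ℓ ∣ M * q → ℓ ∈ S) (ι : AlgebraicClosure ℚ →+* ℂ)
    (hBα : Stmt_B2Alpha M q) (hBβ : Stmt_B2Beta M q) :
    ∃ (C : TateCoords (M * q) p S) (C' : TateCoords M p S)
      (b : Fin C.r → (Additive (Gamma0 (M * q)) →+ ℤ))
      (b' : Fin C'.r → (Additive (Gamma0 M) →+ ℤ))
      (Aα Aβ : Matrix (Fin C'.r) (Fin C.r) ℤ),
      IsParBasis (M * q) b ∧ IsParBasis M b' ∧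
      (∀ (k : ℕ) (x : Jtor (M * q) (p ^ k)),
        TorChar (M * q) (p ^ k) ι (x : JZero (M * q)) (coordFun b (p ^ k) (C.θ k x))) ∧
      (∀ (k : ℕ) (y : Jtor M (p ^ k)),
        TorChar M (p ^ k) ι (y : JZero M) (coordFun b' (p ^ k) (C'.θ k y))) ∧
      (∀ (ℓ : ℕ) (hℓ : ℓ.Prime) (hℓN : ¬ ℓ ∣ M * q) (hℓS : ℓ ∉ S) (j : Fin C.r),
        TB (M * q) ℤ hℓ hℓN (b j) = ∑ i, C.M (CuspForm.heckeAlgebra.T hℓ hℓN hℓS) i j • b i) ∧
      (∀ (ℓ : ℕ) (hℓ : ℓ.Prime) (hℓN : ¬ ℓ ∣ M) (hℓS : ℓ ∉ S) (j : Fin C'.r),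
        TB M ℤ hℓ hℓN (b' j) = ∑ i, C'.M (CuspForm.heckeAlgebra.T hℓ hℓN hℓS) i j • b' i) ∧
      (∀ j, cor1 M q ℤ (b j) = ∑ i, Aα i j • b' i) ∧
      (∀ j, cor2 M q ℤ (b j) = ∑ i, Aβ i j • b' i) ∧
      (∀ (k : ℕ) (x : Jtor (M * q) (p ^ k)) (y : Jtor M (p ^ k)),
        (y : JZero M) = alphaPush M q (x : JZero (M * q)) →
          C'.θ k y = (Aα.map (Int.cast : ℤ → ZMod (p ^ k))).mulVec (C.θ k x)) ∧
      (∀ (k : ℕ) (x : Jtor (M * q) (p ^ k)) (y : Jtor M (p ^ k)),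
        (y : JZero M) = betaPush M q (x : JZero (M * q)) →
          C'.θ k y = (Aβ.map (Int.cast : ℤ → ZMod (p ^ k))).mulVec (C.θ k x)) ∧
      (∀ (k : ℕ) (x : Jtor (M * q) (p ^ k)),
        (Aα.map (Int.cast : ℤ → ZMod (p ^ k))).mulVec (C.θ k x) = 0 →
          alphaPush M q (x : JZero (M * q)) = 0) ∧
      (∀ (k : ℕ) (x : Jtor (M * q) (p ^ k)),
        (Aβ.map (Int.cast : ℤ → ZMod (p ^ k))).mulVec (C.θ k x) = 0 →
          betaPush M q (x : JZero (M * q)) = 0) := by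
  have hNS' : ∀ ℓ : ℕ, ℓ.Prime → ℓ ∣ M → ℓ ∈ S :=
    fun ℓ hℓ h => hNS ℓ hℓ (Dvd.dvd.mul_right h q)
  obtain ⟨r, b, hb⟩ := Betti.stmt_basis (M * q)
  obtain ⟨r', b', hb'⟩ := Betti.stmt_basis M
  obtain ⟨C, hr, hθ, hT, -⟩ := exists_tateCoords_spec (M * q) p S hp hNS ι hb
  obtain ⟨C', hr', hθ', hT', -⟩ := exists_tateCoords_spec M p S hp hNS' ι hb'
  subst hr
  subst hr'
  simp only [Fin.cast_eq_self] at hθ hθ' hT hT'
  obtain ⟨Aα, Aβ, hα, hβ⟩ := exists_pushMatrices M q hb hb'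
  have hn : ∀ k : ℕ, p ^ k ≠ 0 := fun k => pow_ne_zero k hp.ne_zero
  exact ⟨C, C', b, b', Aα, Aβ, hb, hb', hθ, hθ', hT, hT', hα, hβ,
    fun k x y hxy => theta_alphaPush hBα hb' hα (hn k) ι (hθ k x) (hθ' k y) hxy,
    fun k x y hxy => theta_betaPush hBβ hb' hβ (hn k) ι (hθ k x) (hθ' k y) hxy,
    fun k x hv => alphaPush_eq_zero_of_coords hBα hα (hn k) ι (hθ k x) hv,
    fun k x hv => betaPush_eq_zero_of_coords hBβ hβ (hn k) ι (hθ k x) hv⟩

end Fermat.Agent.L.Pivot.Geom.H81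

end
end
-- ==== END Fermat.Agent.L.Pivot.Geom.H81_PushSpec
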