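-- GENERATED (merged mirror, NOTES/tools/trim/merge3_helper67.py): 7 modules of the originals, bodies verbatim.
import Mathlib
import Fermat.Agent.Zm.S43_L15_000
import Fermat.Agent.Zm.S43_L06_000
import Fermat.Agent.Zm.S43_L14_002
import Fermat.Agent.Zm.S43_L15_001
import Fermat.Agent.Zm.S43_L03_002
import Fermat.Agent.Zm.S43_L10_001
import Fermat.Agent.Zm.S43_L13_001
import Fermat.Agent.Zm.S43_L07_002

-- ==== BEGIN Fermat.Agent.L.Pivot.Geom.H9_LayerB2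
section

set_option autoImplicit false
set_option linter.style.haveILetI false
set_option linter.unusedSectionVars false
set_option linter.unusedVariables false
set_option maxHeartbeats 8000000
set_option synthInstance.maxHeartbeats 400000

noncomputable section

open IsLocalRing

namespace Fermat.Agent.L.Pivot.Geom

open Polynomial CuspForm Fermat.Agent.S56 Fermat.Agent.S59 Fermat.Agent.S59.Asm
  Fermat.Agent.S59.Lim Fermat.Agent.L.Pivot Fermat.Agent.S59.TWH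

section Main

variable {𝒪 : Type} [CommRing 𝒪] [IsLocalRing 𝒪] {ϖ : 𝒪} {p : ℕ}
  {ρbar : ResidualGaloisRep (ResidueField 𝒪)} {N1 : ℕ} [NeZero N1] {S : Finset ℕ}
  {θ : CuspForm.heckeAlgebra N1 2 (↑S : Set ℕ) →+* ResidueField 𝒪}
  {MD : HDiv 𝒪 ϖ N1 (↑S : Set ℕ) θ} {k : ℕ} {qP : Fin k → ℕ} {eP : Fin k → ℕ}
  {r : ℕ} {n : ℕ} {qv : Fin r → ℕ}
  [NeZero (twLevel N1 qv)] [NeZero (pvLevel N1 qP qv)]
  (B : PVBase 𝒪 ϖ p ρbar N1 S θ MD qP eP n qv)

namespace PVBase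

/-! ### Commutation with the norm -/

theorem Nm_η (t : CuspForm.heckeAlgebra (pvLevel N1 qP qv) 2 (↑(twSet S qv) : Set ℕ))
    (x : B.WD.W) : B.Nm (B.WD.η t x) = B.WD.η t (B.Nm x) := by
  have h := (B.comm_Nm (f := B.WD.η t) (fun j => (B.c_η j t).symm)).eq
  exact (congrArg (fun f : Module.End 𝒪 B.WD.W => f x) h).symm

theorem Nm_gal (g : GalQ) (x : B.WD.W) : B.Nm (B.gal g x) = B.gal g (B.Nm x) := by
  have h := (B.comm_Nm (f := B.gal g) (fun j => (B.c_gal j g).symm)).eq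
  exact (congrArg (fun f : Module.End 𝒪 B.WD.W => f x) h).symm

theorem Nm_d (i : Fin r) (x : B.WD.W) : B.Nm (B.d i x) = B.d i (B.Nm x) := by
  have h := (B.comm_Nm (f := B.d i) (fun j => (B.c_d j i).symm)).eq
  exact (congrArg (fun f : Module.End 𝒪 B.WD.W => f x) h).symm

/-- elements of the range are fixed by the pivot diamonds. -/
theorem fix_range (j : Fin k) (x : ↥(LinearMap.range B.Nm)) :
    B.c j (x : B.WD.W) = (x : B.WD.W) := by
  obtain ⟨y, hy⟩ := x.2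
  rw [← hy]
  exact B.fix_Nm j y

/-! ### The fields of `G1D` -/

theorem g1_gal_cont (x : ↥(LinearMap.range B.Nm)) :
    ∃ L : IntermediateField ℚ (AlgebraicClosure ℚ),
      FiniteDimensional ℚ L ∧ ∀ σ : GalQ, (∀ y ∈ L, σ y = y) → B.gal1 σ x = x := by
  obtain ⟨L, hL, h⟩ := B.gal_cont (x : B.WD.W)
  exact ⟨L, hL, fun σ hσ => Subtype.ext (h σ hσ)⟩

theorem g1_gal_η (g : GalQ)
    (t : CuspForm.heckeAlgebra (twLevel N1 qv) 2 (↑(twSet S qv) : Set ℕ)) :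
    Commute (B.gal1 g) (B.η1 t) := by
  obtain ⟨t', ht'⟩ := B.rest_surj t
  rw [← ht']
  apply LinearMap.ext
  intro x
  apply Subtype.ext
  show B.gal g ((B.η1 (B.rest t') x : ↥(LinearMap.range B.Nm)) : B.WD.W)
    = ((B.η1 (B.rest t') (B.gal1 g x) : ↥(LinearMap.range B.Nm)) : B.WD.W)
  rw [B.coe_η1_rest, B.coe_η1_rest]
  exact congrArg (fun f : Module.End 𝒪 B.WD.W => f (x : B.WD.W)) (B.gal_η g t').eq

theorem g1_es
    (hgood : ∀ ℓ : ℕ, ℓ.Prime → ¬ ℓ ∣ twLevel N1 qv → ℓ ∉ (↑(twSet S qv) : Set ℕ) →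
      ¬ ℓ ∣ pvLevel N1 qP qv)
    (ℓ : ℕ) (hℓ : ℓ.Prime) (hℓN : ¬ ℓ ∣ twLevel N1 qv)
    (hℓS : ℓ ∉ (↑(twSet S qv) : Set ℕ))
    (A : ValuationSubring (AlgebraicClosure ℚ)) (hA : A.LiesOverPrime ℓ)
    (σ : GalQ) (hσ : A.IsFrobeniusAt σ ℓ) :
    B.gal1 σ * B.gal1 σ - B.η1 (CuspForm.heckeAlgebra.T hℓ hℓN hℓS) * B.gal1 σ
      + (ℓ : 𝒪) • (1 : Module.End 𝒪 ↥(LinearMap.range B.Nm)) = 0 := by
  have hℓN' : ¬ ℓ ∣ pvLevel N1 qP qv := hgood ℓ hℓ hℓN hℓS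
  have hes := B.es ℓ hℓ hℓN' hℓS A hA σ hσ
  rw [← B.rest_T ℓ hℓ hℓN' hℓS hℓN]
  apply LinearMap.ext
  intro x
  apply Subtype.ext
  have h1 := congrArg (fun f : Module.End 𝒪 B.WD.W => f (x : B.WD.W)) hes
  simp only [LinearMap.add_apply, LinearMap.sub_apply, Module.End.mul_apply,
    LinearMap.smul_apply, Module.End.one_apply, LinearMap.zero_apply] at h1
  simp only [LinearMap.add_apply, LinearMap.sub_apply, Module.End.mul_apply,
    LinearMap.smul_apply, Module.End.one_apply, LinearMap.zero_apply, Submodule.coe_add,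
    Submodule.coe_sub, Submodule.coe_smul, Submodule.coe_zero, B.coe_η1_rest, B.coe_gal1]
  exact h1

theorem g1_d_pow (i : Fin r) : B.d1 i ^ (p ^ n) = 1 := by
  apply LinearMap.ext
  intro x
  apply Subtype.ext
  have h := H59.coe_resRange_pow B.Nm (B.d i) (B.comm_Nm (fun j => (B.c_d j i).symm))
    (p ^ n) x
  rw [B.d_pow i] at h
  exact h

theorem g1_d_comm (i j : Fin r) : Commute (B.d1 i) (B.d1 j) :=
  H59.resRange_commute B.Nm (B.d i) (B.d j) _ _ (B.d_comm i j)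

theorem g1_d_η (i : Fin r)
    (t : CuspForm.heckeAlgebra (twLevel N1 qv) 2 (↑(twSet S qv) : Set ℕ)) :
    Commute (B.d1 i) (B.η1 t) := by
  obtain ⟨t', ht'⟩ := B.rest_surj t
  rw [← ht']
  apply LinearMap.ext
  intro x
  apply Subtype.ext
  show B.d i ((B.η1 (B.rest t') x : ↥(LinearMap.range B.Nm)) : B.WD.W)
    = ((B.η1 (B.rest t') (B.d1 i x) : ↥(LinearMap.range B.Nm)) : B.WD.W)
  rw [B.coe_η1_rest, B.coe_η1_rest]
  exact congrArg (fun f : Module.End 𝒪 B.WD.W => f (x : B.WD.W)) (B.d_η i t').eq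

theorem g1_d_gal (i : Fin r) (g : GalQ) : Commute (B.d1 i) (B.gal1 g) := by
  apply LinearMap.ext
  intro x
  apply Subtype.ext
  exact congrArg (fun f : Module.End 𝒪 B.WD.W => f (x : B.WD.W)) (B.d_gal i g).eq

theorem g1_hstep (i : Fin r) (v : ↥(LinearMap.range B.Nm)) (hv : ϖ • v = 0)
    (hfix : ∀ i', i' ≤ i → B.d1 i' v = v) :
    ∃ w : ↥(LinearMap.range B.Nm), ϖ • w = 0 ∧ (∀ i', i' < i → B.d1 i' w = w) ∧
      H90.nm (p ^ n) (B.d1 i) w = v := by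
  have hv' : ϖ • (v : B.WD.W) = 0 := congrArg Subtype.val hv
  obtain ⟨w, hw0, hwc, hwd, hw⟩ := B.hstepD i (v : B.WD.W) hv' (fun j => B.fix_range j v)
    (fun i' hi' => congrArg Subtype.val (hfix i' hi'))
  refine ⟨⟨w, B.mem_range_of_fix_torsion w hw0 hwc⟩, Subtype.ext hw0,
    fun i' hi' => Subtype.ext (hwd i' hi'), Subtype.ext ?_⟩
  exact (H59.coe_nm_resRange B.Nm (B.d i) (B.comm_Nm (fun j => (B.c_d j i).symm)) (p ^ n)
    ⟨w, B.mem_range_of_fix_torsion w hw0 hwc⟩).trans hw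

theorem g1_πup_injective : Function.Injective B.πup1 := by
  intro y y' h
  exact B.πup_injective (congrArg Subtype.val h)

theorem g1_πup_π (x : ↥(LinearMap.range B.Nm)) :
    B.πup1 (B.π1 x) = H90.nmTot (p ^ n) B.d1 x := by
  apply Subtype.ext
  have h2 : ((H90.nmTot (p ^ n) B.d1 x : ↥(LinearMap.range B.Nm)) : B.WD.W)
      = H90.nmTot (p ^ n) B.d (x : B.WD.W) :=
    H59.coe_nmTot_resRange B.Nm (p ^ n) B.d (fun i => B.comm_Nm (fun j => (B.c_d j i).symm)) x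
  refine ((B.coe_πup1 (B.π1 x)).trans ?_).trans h2.symm
  obtain ⟨y, hy⟩ := x.2
  have hx : x = ⟨B.Nm y, ⟨y, rfl⟩⟩ := Subtype.ext hy.symm
  subst hx
  exact (congrArg B.πup (B.π1_Nm y ⟨y, rfl⟩)).trans (B.πup_π y)

theorem g1_d_πup (i : Fin r) (y : MD.W) : B.d1 i (B.πup1 y) = B.πup1 y :=
  Subtype.ext (B.d_πup i y)

theorem g1_inv (v : ↥(LinearMap.range B.Nm)) (hv : ϖ • v = 0)
    (hfix : ∀ i, B.d1 i v = v) : ∃ y : MD.W, B.πup1 y = v := by
  obtain ⟨y, hy⟩ := B.invAll (v : B.WD.W) (congrArg Subtype.val hv)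
    (fun j => B.fix_range j v) (fun i => congrArg Subtype.val (hfix i))
  exact ⟨y, Subtype.ext hy⟩

theorem g1_π_η (t : CuspForm.heckeAlgebra (twLevel N1 qv) 2 (↑(twSet S qv) : Set ℕ))
    (v : ↥(LinearMap.range B.Nm)) :
    B.π1 (B.η1 t v) = MD.η (B.rest1 t) (B.π1 v) := by
  obtain ⟨t', ht'⟩ := B.rest_surj t
  rw [← ht']
  obtain ⟨y, hy⟩ := v.2
  have hv : v = ⟨B.Nm y, ⟨y, rfl⟩⟩ := Subtype.ext hy.symm
  subst hv
  have h1 : B.η1 (B.rest t') ⟨B.Nm y, ⟨y, rfl⟩⟩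
      = ⟨B.Nm (B.WD.η t' y), ⟨B.WD.η t' y, rfl⟩⟩ :=
    Subtype.ext ((B.coe_η1_rest t' ⟨B.Nm y, ⟨y, rfl⟩⟩).trans (B.Nm_η t' y).symm)
  exact (congrArg B.π1 h1).trans ((B.π1_Nm (B.WD.η t' y) ⟨B.WD.η t' y, rfl⟩).trans
    ((B.π_η t' y).trans
      (congrArg (MD.η (B.rest1 (B.rest t'))) (B.π1_Nm y ⟨y, rfl⟩).symm)))

theorem g1_frob_nil (i : Fin r) (x : ↥(LinearMap.range B.Nm)) (hx : ϖ • x = 0) :
    ∃ m : ℕ, (((B.gal1 (B.frob i) - B.a i • (1 : Module.End 𝒪 ↥(LinearMap.range B.Nm))) *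
      (B.gal1 (B.frob i) - B.a' i • (1 : Module.End 𝒪 ↥(LinearMap.range B.Nm)))) ^ m) x
        = 0 := by
  obtain ⟨m, hm⟩ := B.frob_nil i (x : B.WD.W) (congrArg Subtype.val hx)
  exact ⟨m, H59.mul_pow_of_coe B.Nm (B.gal1 (B.frob i)) (B.gal (B.frob i)) (fun _ => rfl)
    (B.a i) (B.a' i) m x hm⟩

theorem g1_lg (i : Fin r) (x : ↥(LinearMap.range B.Nm))
    (hx : x ∈ gk (B.gal1 (B.frob i) - B.a i • (1 : Module.End 𝒪 ↥(LinearMap.range B.Nm)))) :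
    B.gal1 (B.σ i) x = B.d1 i x := by
  obtain ⟨m, hm⟩ := hx
  have h1 := H59.coe_pow_of_coe B.Nm
    (B.gal1 (B.frob i) - B.a i • (1 : Module.End 𝒪 ↥(LinearMap.range B.Nm)))
    (B.gal (B.frob i) - B.a i • (1 : Module.End 𝒪 B.WD.W))
    (H59.coe_sub_smul_of_coe B.Nm (B.gal1 (B.frob i)) (B.gal (B.frob i)) (fun _ => rfl)
      (B.a i)) m x
  rw [hm] at h1
  exact Subtype.ext (B.lg i (x : B.WD.W) ⟨m, h1.symm⟩)

/-! ### The Taylor–Wiles datum of unipotent type -/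

/-- **The Taylor–Wiles datum of unipotent type**: the module is the range of the total norm of
the pivot diamonds. -/
def G1D
    (hgood : ∀ ℓ : ℕ, ℓ.Prime → ¬ ℓ ∣ twLevel N1 qv → ℓ ∉ (↑(twSet S qv) : Set ℕ) →
      ¬ ℓ ∣ pvLevel N1 qP qv) :
    TWDiv 𝒪 ϖ p ρbar N1 S θ MD n qv where
  rest := B.rest1
  rest_T := B.rest1_T
  WD := B.WD1
  gal := B.gal1
  gal_cont := B.g1_gal_cont
  gal_η := B.g1_gal_η
  es := B.g1_es hgood
  d := B.d1
  d_pow := B.g1_d_pow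
  d_comm := B.g1_d_comm
  d_η := B.g1_d_η
  d_gal := B.g1_d_gal
  hstep := B.g1_hstep
  π := B.π1
  πup := B.πup1
  πup_injective := B.g1_πup_injective
  πup_π := B.g1_πup_π
  d_πup := B.g1_d_πup
  inv := B.g1_inv
  π_η := B.g1_π_η
  P := B.P
  P_over := B.P_over
  frob := B.frob
  frob_spec := B.frob_spec
  σ := B.σ
  σ_mem := B.σ_mem
  a := B.a
  a' := B.a'
  a_ne := B.a_ne
  charpoly_frob := B.charpoly_frob
  frob_nil := B.g1_frob_nil
  lg := B.g1_lg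

/-! ### The fields of `PVDiv` -/

theorem pv_c_κup (j : Fin k) (y : ↥(LinearMap.range B.Nm)) :
    B.c j ((LinearMap.range B.Nm).subtype y) = (LinearMap.range B.Nm).subtype y :=
  B.fix_range j y

theorem pv_inv (v : B.WD.W) (hv : ϖ • v = 0) (hfix : ∀ j, B.c j v = v) :
    ∃ y : ↥(LinearMap.range B.Nm), (LinearMap.range B.Nm).subtype y = v :=
  ⟨⟨v, B.mem_range_of_fix_torsion v hv hfix⟩, rfl⟩

theorem pv_κ_η (t : CuspForm.heckeAlgebra (pvLevel N1 qP qv) 2 (↑(twSet S qv) : Set ℕ))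
    (v : B.WD.W) :
    B.Nm.rangeRestrict (B.WD.η t v) = B.η1 (B.rest t) (B.Nm.rangeRestrict v) :=
  Subtype.ext ((B.Nm_η t v).trans (B.coe_η1_rest t (B.Nm.rangeRestrict v)).symm)

theorem pv_κ_d (i : Fin r) (v : B.WD.W) :
    B.Nm.rangeRestrict (B.d i v) = B.d1 i (B.Nm.rangeRestrict v) :=
  Subtype.ext (B.Nm_d i v)

theorem pv_κ_gal (g : GalQ) (v : B.WD.W) :
    B.Nm.rangeRestrict (B.gal g v) = B.gal1 g (B.Nm.rangeRestrict v) :=
  Subtype.ext (B.Nm_gal g v)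

/-- **`PVBase → PVDiv`**: `κ` is the total norm of the pivot diamonds (range-restricted),
`κup` the inclusion of its range. -/
def pvDivOf
    (hgood : ∀ ℓ : ℕ, ℓ.Prime → ¬ ℓ ∣ twLevel N1 qv → ℓ ∉ (↑(twSet S qv) : Set ℕ) →
      ¬ ℓ ∣ pvLevel N1 qP qv) :
    PVDiv 𝒪 ϖ p ρbar N1 S θ MD qP eP n qv where
  G1D := B.G1D hgood
  rest := B.rest
  rest_T := B.rest_T
  WD := B.WD
  gal := B.gal
  gal_cont := B.gal_cont
  gal_η := B.gal_η
  es := B.es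
  c := B.c
  c_pow := B.c_pow
  d := B.d
  d_pow := B.d_pow
  c_comm := B.c_comm
  d_comm := B.d_comm
  c_d := B.c_d
  c_η := B.c_η
  d_η := B.d_η
  c_gal := B.c_gal
  d_gal := B.d_gal
  hstep := B.hstepC
  κ := B.Nm.rangeRestrict
  κup := (LinearMap.range B.Nm).subtype
  κup_injective := Subtype.val_injective
  κup_κ := fun _ => rfl
  c_κup := B.pv_c_κup
  inv := B.pv_inv
  κ_η := B.pv_κ_η
  κ_d := B.pv_κ_d
  κ_gal := B.pv_κ_gal
  frob_nil := B.frob_nil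
  lg := B.lg
  new := B.new

end PVBase

end Main

end Fermat.Agent.L.Pivot.Geom

end

end
-- ==== END Fermat.Agent.L.Pivot.Geom.H9_LayerB2

-- ==== BEGIN Fermat.Agent.L.Pivot.Geom.H9_PGal
section

set_option autoImplicit false
set_option linter.unusedSectionVars false
set_option linter.style.haveILetI false
set_option synthInstance.maxHeartbeats 400000
set_option maxHeartbeats 1000000

noncomputable section

open ModularCurve AlgebraicCurve IsLocalRing TensorProduct Polynomial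

namespace Fermat.Agent.L.Pivot.Geom.H9

open Fermat.Agent.NEB Fermat.Agent.NEB.JH Fermat.Agent.NEB.Geom Fermat.Agent.S59.Asm
  Fermat.Agent.S59.Lim Fermat.Agent.S59.Lim.H2 Fermat.Agent.L.Pivot.Geom

/-! ## Membership in `H'` -/

section Cond

variable {k r : ℕ} (qP : Fin k → ℕ) (qv : Fin r → ℕ) (p : ℕ) (eP : Fin k → ℕ) (n : ℕ)

/-- A unit which is `≡ 1` at all primes of `c'` other than `qP j` has its `p ^ eP j`-th power
in `H'`. -/
theorem pow_mem_pvH_P (u : (ZMod (pvC qP qv))ˣ) (j : Fin k)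
    (hP : ∀ j', j' ≠ j → ZMod.unitsMap (dvd_pvC_P qP qv j') u = 1)
    (hQ : ∀ i, ZMod.unitsMap (dvd_pvC_Q qP qv i) u = 1) :
    u ^ (p ^ eP j) ∈ pvH qP qv p eP n := by
  rw [mem_pvH]
  constructor
  · intro j'
    by_cases h : j' = j
    · subst h
      exact ⟨ZMod.unitsMap (dvd_pvC_P qP qv j') u, by rw [map_pow]⟩
    · exact ⟨1, by rw [map_pow, hP j' h, one_pow, one_pow]⟩
  · intro i
    exact ⟨1, by rw [map_pow, hQ i, one_pow, one_pow]⟩

/-- A unit which is `≡ 1` at all primes of `c'` other than `qv i` has its `p ^ n`-th power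
in `H'`. -/
theorem pow_mem_pvH_Q (u : (ZMod (pvC qP qv))ˣ) (i : Fin r)
    (hQ : ∀ i', i' ≠ i → ZMod.unitsMap (dvd_pvC_Q qP qv i') u = 1)
    (hP : ∀ j, ZMod.unitsMap (dvd_pvC_P qP qv j) u = 1) :
    u ^ (p ^ n) ∈ pvH qP qv p eP n := by
  rw [mem_pvH]
  constructor
  · intro j
    exact ⟨1, by rw [map_pow, hP j, one_pow, one_pow]⟩
  · intro i'
    by_cases h : i' = i
    · subst h
      exact ⟨ZMod.unitsMap (dvd_pvC_Q qP qv i') u, by rw [map_pow]⟩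
    · exact ⟨1, by rw [map_pow, hQ i' h]⟩

end Cond

/-! ## P-GAL -/

section Main

variable {𝒪 : Type} [CommRing 𝒪] [IsDomain 𝒪] [IsDiscreteValuationRing 𝒪]
  {ϖ : 𝒪} {p : ℕ} {N1 : ℕ} [NeZero N1] {S : Finset ℕ}
  {θ : CuspForm.heckeAlgebra N1 2 (↑S : Set ℕ) →+* ResidueField 𝒪}
  {ρbar : ResidualGaloisRep (ResidueField 𝒪)} {k : ℕ} {eP : Fin k → ℕ} {n : ℕ}
  {qP : Fin k → ℕ} {r : ℕ} {qv : Fin r → ℕ}
  [NeZero (N1 * twC qv)] [NeZero (pvC qP qv)] [NeZero (twLevel N1 qv)]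
  [NeZero (pvLevel N1 qP qv)]
  (D : PvSetup 𝒪 ϖ p N1 S θ ρbar eP n qP qv)

/-- The primes dividing the level `pvLevel` lie in the Taylor–Wiles set. -/
theorem mem_twSet_of_dvd_pv (hPV : PvHyp N1 S p eP n qP qv) (q : ℕ) (hq : q.Prime)
    (hd : q ∣ pvLevel N1 qP qv) : q ∈ (↑(twSet S qv) : Set ℕ) := by
  have hd' : q ∣ twLevel N1 qv :=
    H4.prime_dvd_twLevel_of_dvd_pvLevel N1 qP qv hPV.dvdP q hq hd
  rw [Finset.mem_coe, twSet, Finset.mem_union]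
  rw [twLevel] at hd'
  rcases (Nat.Prime.dvd_mul hq).1 hd' with h | h
  · exact Or.inl (hPV.hNS q hq h)
  · right
    obtain ⟨j, -, hj⟩ := (Prime.dvd_finsetProd_iff (Nat.Prime.prime hq) _).1 h
    have h1 : q ∣ qv j := hq.dvd_of_dvd_pow hj
    have h2 : q = qv j := (Nat.prime_dvd_prime_iff_eq hq (hPV.prime j)).1 h1
    rw [h2]
    exact Finset.mem_image_of_mem qv (Finset.mem_univ j)

/-- An operator `thetaZ g` commutes with the Hecke action `η` on `W'`. -/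
theorem commute_thetaZ_etaPv
    (g : Module.End ℤ (AHpv N1 p eP n qP qv))
    (hg : ∀ t, Commute (etaPv N1 S p eP n qP qv D.h2 D.hc D.hcomm t) g)
    (t : CuspForm.heckeAlgebra (pvLevel N1 qP qv) 2 (↑(twSet S qv) : Set ℕ)) :
    Commute (thetaZ (thetaPv N1 S qP qv θ D.α) g hg) (D.WD.η t) := by
  refine Fermat.Agent.NEB.EIG.H39.commute_of_gen
    (R := Module.End 𝒪 ↥(Wpv N1 S p eP n qP qv D.h2 D.hc 𝒪 D.hcomm θ D.α))
    (mem_twSet_of_dvd_pv D.hPV) D.η _ (fun ℓ hℓ hℓN hℓS => ?_) t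
  rw [D.η_T ℓ hℓ hℓN hℓS]
  exact thetaZ_commute_eta hg _

/-- The diamond operator commutes with the twisted Galois action. -/
theorem commute_dia_galHomPv (u : (ZMod (pvC qP qv))ˣ) (g : GalK) :
    Commute (diaZ (N1 * twC qv) (pvC qP qv) (pvH qP qv p eP n) D.h2 D.hc p u)
      (D.galHom g) := by
  rw [D.galHom_apply]
  exact (D.hcommG (Sum.inr (Sum.inr u)) g).mul_right
    ((Fermat.Agent.NEB.Geom.H9.diaZ_commute _ _ _ _ _ _ u _).pow_right _)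

/-- **P-GAL (i)**: every element of `W'` is fixed by an open subgroup. -/
theorem p_gal_cont (x : D.WD.W) :
    ∃ L : IntermediateField ℚ Kbar, FiniteDimensional ℚ L ∧
      ∀ σ : GalK, (∀ y ∈ L, σ y = y) → D.gal σ x = x := by
  obtain ⟨L, hL, hfix⟩ := Fermat.Agent.NEB.Geom.H9.cont_tensor 𝒪 (N1 * twC qv) (pvC qP qv)
    (pvH qP qv p eP n) D.h2 D.hc p (jPv p eP n + 1) (D.val x)
  refine ⟨L, hL, fun σ hσ => Subtype.ext ?_⟩
  exact hfix σ hσ

/-- **P-GAL (ii)**: the Galois action commutes with the Hecke action. -/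
theorem p_gal_eta (g : GalK)
    (t : CuspForm.heckeAlgebra (pvLevel N1 qP qv) 2 (↑(twSet S qv) : Set ℕ)) :
    Commute (D.gal g) (D.WD.η t) :=
  commute_thetaZ_etaPv D (D.galHom g) (fun t => D.comm_galHom g t) t

/-- The diamond operator of a unit whose `e`-th power lies in `H'` has order dividing `e`. -/
theorem p_dia_pow_of_mem (u : (ZMod (pvC qP qv))ˣ) (e : ℕ)
    (hmem : u ^ e ∈ pvH qP qv p eP n) : D.dia u ^ e = 1 := by
  have h1 : diaZ (N1 * twC qv) (pvC qP qv) (pvH qP qv p eP n) D.h2 D.hc p u ^ e = 1 := by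
    rw [← map_pow]
    exact Fermat.Agent.NEB.Geom.H9.diaZ_eq_one_of_mem _ _ _ _ _ _ hmem
  have hc1 : ∀ t, Commute (etaPv N1 S p eP n qP qv D.h2 D.hc D.hcomm t)
      (diaZ (N1 * twC qv) (pvC qP qv) (pvH qP qv p eP n) D.h2 D.hc p u ^ e) :=
    fun t => (D.comm_dia u t).pow_right _
  show thetaZ (thetaPv N1 S qP qv θ D.α) _ _ ^ e = 1
  rw [← thetaZ_pow (fun t => D.comm_dia u t) e hc1,
    thetaZ_congr hc1 (fun t => Commute.one_right _) h1]
  exact thetaZ_one _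

/-- **P-GAL (iii)**: `⟨u⟩ ^ (p ^ E) = 1`, `E = n + ∑ eP j`. -/
theorem p_dia_pow (u : (ZMod (pvC qP qv))ˣ) : D.dia u ^ (p ^ (n + ∑ j, eP j)) = 1 :=
  p_dia_pow_of_mem D u _ (pow_mem_pvH qP qv p eP n u)

/-- **P-GAL (iii-P)**: `c_j ^ (p ^ eP j) = 1`. -/
theorem p_c_pow (j : Fin k) : D.c j ^ (p ^ eP j) = 1 :=
  p_dia_pow_of_mem D (D.δP j) _
    (pow_mem_pvH_P qP qv p eP n (D.δP j) j (D.hδ.P_P j) (D.hδ.P_Q j))

/-- **P-GAL (iii-Q)**: `d_i ^ (p ^ n) = 1`. -/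
theorem p_d_pow (i : Fin r) : D.d i ^ (p ^ n) = 1 :=
  p_dia_pow_of_mem D (D.δQ i) _
    (pow_mem_pvH_Q qP qv p eP n (D.δQ i) i (D.hδ.Q_Q i) (D.hδ.Q_P i))

/-- **P-GAL (iv)**: the diamond operators commute. -/
theorem p_dia_comm (u v : (ZMod (pvC qP qv))ˣ) : Commute (D.dia u) (D.dia v) :=
  thetaZ_commute (fun t => D.comm_dia u t) (fun t => D.comm_dia v t)
    (Fermat.Agent.NEB.Geom.H9.diaZ_commute _ _ _ _ _ _ _ _)

/-- The diamond operators are multiplicative. -/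
theorem p_dia_mul (u v : (ZMod (pvC qP qv))ˣ) : D.dia (u * v) = D.dia u * D.dia v := by
  have h1 : diaZ (N1 * twC qv) (pvC qP qv) (pvH qP qv p eP n) D.h2 D.hc p (u * v)
      = diaZ (N1 * twC qv) (pvC qP qv) (pvH qP qv p eP n) D.h2 D.hc p u
        * diaZ (N1 * twC qv) (pvC qP qv) (pvH qP qv p eP n) D.h2 D.hc p v := map_mul _ _ _
  have hc1 : ∀ t, Commute (etaPv N1 S p eP n qP qv D.h2 D.hc D.hcomm t)
      (diaZ (N1 * twC qv) (pvC qP qv) (pvH qP qv p eP n) D.h2 D.hc p u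
        * diaZ (N1 * twC qv) (pvC qP qv) (pvH qP qv p eP n) D.h2 D.hc p v) :=
    fun t => (D.comm_dia u t).mul_right (D.comm_dia v t)
  exact (thetaZ_congr (θ := thetaPv N1 S qP qv θ D.α) (fun t => D.comm_dia (u * v) t) hc1 h1).trans
    (thetaZ_mul (fun t => D.comm_dia u t) (fun t => D.comm_dia v t) hc1)

/-- `⟨1⟩ = 1` on `W'`. -/
theorem p_dia_one : D.dia (1 : (ZMod (pvC qP qv))ˣ) = 1 := by
  have h := p_dia_pow_of_mem D (1 : (ZMod (pvC qP qv))ˣ) 1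
    (by rw [pow_one]; exact Subgroup.one_mem _)
  rwa [pow_one] at h

/-- **P-GAL (v)**: the diamond operators commute with the Hecke action. -/
theorem p_dia_eta (u : (ZMod (pvC qP qv))ˣ)
    (t : CuspForm.heckeAlgebra (pvLevel N1 qP qv) 2 (↑(twSet S qv) : Set ℕ)) :
    Commute (D.dia u) (D.WD.η t) :=
  commute_thetaZ_etaPv D _ (fun t => D.comm_dia u t) t

/-- **P-GAL (vi)**: the diamond operators commute with the Galois action. -/
theorem p_dia_gal (u : (ZMod (pvC qP qv))ˣ) (g : GalK) : Commute (D.dia u) (D.gal g) :=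
  thetaZ_commute (fun t => D.comm_dia u t) (fun t => D.comm_galHom g t)
    (commute_dia_galHomPv D u g)

/-- The diamond operators commute with the untwisted Galois action. -/
theorem p_dia_galU (u : (ZMod (pvC qP qv))ˣ) (g : GalK) : Commute (D.dia u) (D.galU g) :=
  thetaZ_commute (fun t => D.comm_dia u t) (fun t => D.comm_gal g t)
    (D.hcommG (Sum.inr (Sum.inr u)) g)

/-- The twisted action is the untwisted one times a diamond operator. -/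
theorem p_gal_eq (g : GalK) :
    D.gal g = D.galU g * D.dia (Fermat.Agent.NEB.Geom.H6.chiC (pvC qP qv) g) ^ (jPv p eP n + 1) := by
  have hc1 : ∀ t, Commute (etaPv N1 S p eP n qP qv D.h2 D.hc D.hcomm t)
      (diaZ (N1 * twC qv) (pvC qP qv) (pvH qP qv p eP n) D.h2 D.hc p
        (Fermat.Agent.NEB.Geom.H6.chiC (pvC qP qv) g) ^ (jPv p eP n + 1)) :=
    fun t => (D.comm_dia _ t).pow_right _
  have hc2 : ∀ t, Commute (etaPv N1 S p eP n qP qv D.h2 D.hc D.hcomm t)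
      (galZ (N1 * twC qv) (pvC qP qv) (pvH qP qv p eP n) p g *
        diaZ (N1 * twC qv) (pvC qP qv) (pvH qP qv p eP n) D.h2 D.hc p
          (Fermat.Agent.NEB.Geom.H6.chiC (pvC qP qv) g) ^ (jPv p eP n + 1)) :=
    fun t => (D.comm_gal g t).mul_right (hc1 t)
  have e1 := thetaZ_mul (θ := thetaPv N1 S qP qv θ D.α) (fun t => D.comm_gal g t) hc1 hc2
  have e2 := thetaZ_pow (θ := thetaPv N1 S qP qv θ D.α)
    (fun t => D.comm_dia (Fermat.Agent.NEB.Geom.H6.chiC (pvC qP qv) g) t) (jPv p eP n + 1) hc1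
  rw [e2] at e1
  exact e1

/-- The diamond operators `c_j`, `d_i` of `PVDiv` commute with everything. -/
theorem p_c_comm (j j' : Fin k) : Commute (D.c j) (D.c j') := p_dia_comm D _ _

theorem p_d_comm (i i' : Fin r) : Commute (D.d i) (D.d i') := p_dia_comm D _ _

theorem p_c_d_comm (j : Fin k) (i : Fin r) : Commute (D.c j) (D.d i) := p_dia_comm D _ _

theorem p_c_eta (j : Fin k)
    (t : CuspForm.heckeAlgebra (pvLevel N1 qP qv) 2 (↑(twSet S qv) : Set ℕ)) :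
    Commute (D.c j) (D.WD.η t) := p_dia_eta D _ t

theorem p_d_eta (i : Fin r)
    (t : CuspForm.heckeAlgebra (pvLevel N1 qP qv) 2 (↑(twSet S qv) : Set ℕ)) :
    Commute (D.d i) (D.WD.η t) := p_dia_eta D _ t

theorem p_c_gal (j : Fin k) (g : GalK) : Commute (D.c j) (D.gal g) := p_dia_gal D _ g

theorem p_d_gal (i : Fin r) (g : GalK) : Commute (D.d i) (D.gal g) := p_dia_gal D _ g

/-- **P-GAL**. -/
theorem p_gal : Stmt_P_gal D :=
  ⟨fun x => p_gal_cont D x, fun g t => p_gal_eta D g t, fun j => p_c_pow D j,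
    fun i => p_d_pow D i, fun u v => p_dia_comm D u v, fun u t => p_dia_eta D u t,
    fun u g => p_dia_gal D u g⟩

end Main

/-- **P-GAL** (universally quantified). -/
theorem stmt_P_GAL : Stmt_P_GAL := by
  intro 𝒪 _ _ _ _ _ _ ϖ p _ N1 _ S Smin θ ρbar k Pv eP hstd Dm n r qv _ _ _ _ D
  exact p_gal D

end Fermat.Agent.L.Pivot.Geom.H9

end
end
-- ==== END Fermat.Agent.L.Pivot.Geom.H9_PGal

-- ==== BEGIN Fermat.Agent.L.Pivot.H76_Wire2
section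

set_option autoImplicit false

namespace Fermat.Agent.L.Pivot.H76

open Fermat.Agent.L.Pivot Fermat.Agent.S59.Asm

/-- **PV-WIRE2, curve form.** -/
theorem pivotWCore_of_core (hCYC : Stmt_CYC) (hTM : Stmt_THETAMIN) (hEX : Stmt_EXACTb)
    (hPC : Stmt_PivotCoreB) : Stmt_PivotWCore5 :=
  pivotWCore_of hCYC (pivotGal_of hTM hEX hPC)

/-- **PV-WIRE2, Frey form.** -/
theorem pivotFrey2_of_core (hCYC : Stmt_CYC) (hTM : Stmt_THETAMIN) (hEX : Stmt_EXACTb)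
    (hPC : Stmt_PivotCoreB) : Stmt_PivotFrey2 :=
  pivotFrey2_of (pivotWCore_of_core hCYC hTM hEX hPC)

end Fermat.Agent.L.Pivot.H76

end
-- ==== END Fermat.Agent.L.Pivot.H76_Wire2

-- ==== BEGIN Fermat.Agent.NEB.Geom.H14_PiDefs
section

/-!
# Item 72 (LG-NEB), package NEB-GEOM, leaf PI-WIRE (helper14): the sub-leaves

`π = ω ∘ π_*`, `πup = π^* ∘ ω⁻¹` with `ω : Ytw ≃ thetaPart ηC θ` (from `NEB.OLD.wOld`).

* `Stmt_PI_UPINJ` : `π^* : Ytw → Wtw` is injective (the kernel of `π^*` is Eisenstein: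
  last clause of `Stmt_TOWER_INST`; `H94.stmt_W_unit` for `t₀ = X_ℓ₀ - (ℓ₀ + 1)`;
  `H2.ker_baseChange_eq`).
* `Stmt_PI_UPINV` : every `Δ`-fixed `v ∈ Wtw[ϖ]` is `π^* y`, `y ∈ Ytw`
  (`H94.stmt_W_INV` + third clause of `Stmt_TOWER_INST` + `H94.etaTw_tEisPoly`,
  `H14.finite_AH`, `H14.finite_A0`, `H14.polyHom_intertwine`, `H29.stmt_Z_COMMtw`).
* `Stmt_A_PI_of`  : `Stmt_PI_WIRE → Stmt_A_PI` (the wiring into the assembly).

Statements only; no `sorry`.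
-/

set_option autoImplicit false
set_option linter.unusedSectionVars false

noncomputable section

open ModularCurve AlgebraicCurve IsLocalRing TensorProduct Polynomial

namespace Fermat.Agent.NEB.Geom.H14

open Fermat.Agent.NEB Fermat.Agent.NEB.JH Fermat.Agent.S59.Asm Fermat.Agent.S59.Lim
  Fermat.Agent.S59.Lim.H2 Fermat.Agent.NEB.Geom

/-- **PI-UPINJ**: `π^*` is injective on the `θ⁺`-part of `𝒪 ⊗ J₀(N c)[p^∞]`. -/
def Stmt_PI_UPINJ : Prop :=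
  ∀ (𝒪 : Type) [CommRing 𝒪] [IsDomain 𝒪] [IsDiscreteValuationRing 𝒪] [Finite (ResidueField 𝒪)]
    [CharZero 𝒪] (ϖ : 𝒪), Irreducible ϖ → ∀ (p : ℕ) [Fact p.Prime], (p : 𝒪) ∈ maximalIdeal 𝒪 →
    ∀ (N : ℕ) [NeZero N] (S : Finset ℕ) (n r : ℕ) (qv : Fin r → ℕ), TwHyp N S p n qv →
    ∀ [NeZero (N * twC qv)] (h2 : 2 ≤ twC qv), Stmt_TOWER_INST N S p n qv h2 →
    ∀ (hcomm0 : ∀ i j, Commute (opsTw0 N S p qv i) (opsTw0 N S p qv j))
      (θ : CuspForm.heckeAlgebra N 2 (↑S : Set ℕ) →+* ResidueField 𝒪)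
      (α : Fin r → ResidueField 𝒪),
    ∀ δ : Fin r → (ZMod (twC qv))ˣ, IsDeltaGen p n qv δ →
    ∀ (ℓ₀ : ℕ) (hℓ₀ : GoodTw N S qv ℓ₀),
      θ (CuspForm.heckeAlgebra.T hℓ₀.1 hℓ₀.not_dvd hℓ₀.not_mem) ≠ ((ℓ₀ : ResidueField 𝒪) + 1) →
    ∀ y ∈ Ytw 𝒪 N S p qv hcomm0 θ α,
      (upZ (N * twC qv) (twC qv) (twH p n qv) p).baseChange 𝒪 y = 0 → y = 0

/-- **PI-UPINV**: every `Δ`-fixed element of `Wtw[ϖ]` is `π^* y` with `y ∈ Ytw`. -/
def Stmt_PI_UPINV : Prop :=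
  ∀ (𝒪 : Type) [CommRing 𝒪] [IsDomain 𝒪] [IsDiscreteValuationRing 𝒪] [Finite (ResidueField 𝒪)]
    [CharZero 𝒪] (ϖ : 𝒪), Irreducible ϖ → ∀ (p : ℕ) [Fact p.Prime], (p : 𝒪) ∈ maximalIdeal 𝒪 →
    ∀ (N : ℕ) [NeZero N] (S : Finset ℕ) (n r : ℕ) (qv : Fin r → ℕ), TwHyp N S p n qv →
    ∀ [NeZero (N * twC qv)] (h2 : 2 ≤ twC qv), Stmt_TOWER_INST N S p n qv h2 →
    ∀ (hcomm : ∀ i j, Commute (opsTw N S p n qv h2 i) (opsTw N S p n qv h2 j))
      (hcomm0 : ∀ i j, Commute (opsTw0 N S p qv i) (opsTw0 N S p qv j))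
      (θ : CuspForm.heckeAlgebra N 2 (↑S : Set ℕ) →+* ResidueField 𝒪)
      (α : Fin r → ResidueField 𝒪),
    ∀ δ : Fin r → (ZMod (twC qv))ˣ, IsDeltaGen p n qv δ →
    ∀ (ℓ₀ : ℕ) (hℓ₀ : GoodTw N S qv ℓ₀),
      θ (CuspForm.heckeAlgebra.T hℓ₀.1 hℓ₀.not_dvd hℓ₀.not_mem) ≠ ((ℓ₀ : ResidueField 𝒪) + 1) →
    ∀ v ∈ Wtw 𝒪 N S p n qv h2 hcomm θ α, ϖ • v = 0 →
      (∀ u : (ZMod (twC qv))ˣ,
        (diaZ (N * twC qv) (twC qv) (twH p n qv) h2 (dvd_mul_left _ _) p u).baseChange 𝒪 v = v) →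
      ∃ y ∈ Ytw 𝒪 N S p qv hcomm0 θ α,
        (upZ (N * twC qv) (twC qv) (twH p n qv) p).baseChange 𝒪 y = v

/-- **A-PI from PI-WIRE**: the wiring of `Stmt_PI_WIRE` into the assembly statement. -/
def Stmt_A_PI_of : Prop := Stmt_PI_WIRE → Stmt_A_PI

end Fermat.Agent.NEB.Geom.H14

end
end
-- ==== END Fermat.Agent.NEB.Geom.H14_PiDefs

-- ==== BEGIN Fermat.Agent.NEB.Geom.H29_AES
section

/-!
# NEB-GEOM, assembly leaf A-ES (helper29): Eichler–Shimura on `W`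

`stmt_A_ES : Stmt_A_ES`: for a good prime `ℓ` and a Frobenius `σ` at a place over `ℓ`,
`gal'(σ)² - T'_ℓ gal'(σ) + ℓ = 0` on `W = Wtw`.

Route (helper84): the `ℤ`-level operator `gal'(σ)² - T'_ℓ gal'(σ) + ℓ` equals
`E = ⟨ℓ⟩σ² - T_ℓ σ + ℓ` (because `χ_c(σ) = ℓ` and `⟨ℓ⟩^(2j₀+1) = 1`), `E` has values in the kernel
of reduction (`H70.inKU_ES`), and the fixed-point lemma `H12.stmt_W_ES` applies with FIX'
(`H70.fix'`).
-/

set_option autoImplicit false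
set_option linter.unusedSectionVars false
set_option linter.unusedVariables false
set_option linter.style.haveILetI false

noncomputable section

open ModularCurve AlgebraicCurve IsLocalRing TensorProduct Polynomial

namespace Fermat.Agent.NEB.Geom.H29

open Fermat.Agent.NEB Fermat.Agent.NEB.JH Fermat.Agent.S59 Fermat.Agent.S59.Asm
  Fermat.Agent.S59.Lim Fermat.Agent.S59.Lim.H2 Fermat.Agent.NEB.Geom

/-! ## 1. Ring identities -/

section ring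

variable {E : Type*} [Ring E]

/-- `(g d^(j+1))² - (T d^j)(g d^(j+1)) + m = d g g - T g + m` if `d^(2j+1) = 1` and `d` commutes
with `g`. -/
theorem es_ring_identity (g d T m : E) (j : ℕ) (hdg : Commute d g) (hd : d ^ (2 * j + 1) = 1) :
    g * d ^ (j + 1) * (g * d ^ (j + 1)) - T * d ^ j * (g * d ^ (j + 1)) + m
      = d * g * g - T * g + m := by
  have h1 : g * d ^ (j + 1) * (g * d ^ (j + 1)) = d * g * g := by
    have ha : Commute (d ^ (j + 1)) g := hdg.pow_left _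
    calc g * d ^ (j + 1) * (g * d ^ (j + 1))
        = g * (d ^ (j + 1) * g) * d ^ (j + 1) := by simp only [mul_assoc]
      _ = g * (g * d ^ (j + 1)) * d ^ (j + 1) := by rw [ha.eq]
      _ = g * g * (d ^ (j + 1) * d ^ (j + 1)) := by simp only [mul_assoc]
      _ = g * g * (d ^ (2 * j + 1) * d) := by
          rw [← pow_add, ← pow_succ]
          congr 2
          omega
      _ = g * g * d := by rw [hd, one_mul]
      _ = d * g * g := by
          rw [mul_assoc d g g]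
          exact ((hdg.mul_right hdg).eq).symm
  have h2 : T * d ^ j * (g * d ^ (j + 1)) = T * g := by
    have hb : Commute (d ^ j) g := hdg.pow_left _
    calc T * d ^ j * (g * d ^ (j + 1))
        = T * (d ^ j * g) * d ^ (j + 1) := by simp only [mul_assoc]
      _ = T * (g * d ^ j) * d ^ (j + 1) := by rw [hb.eq]
      _ = T * g * (d ^ j * d ^ (j + 1)) := by simp only [mul_assoc]
      _ = T * g * d ^ (2 * j + 1) := by
          rw [← pow_add]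
          congr 2
          omega
      _ = T * g := by rw [hd, mul_one]
  rw [h1, h2]

end ring

section thetaES

variable {𝒪 : Type} [CommRing 𝒪] [IsLocalRing 𝒪] {𝕋 : Type} [CommRing 𝕋]
  {A : Type} [AddCommGroup A] {η : 𝕋 →+* Module.End ℤ A} {θ : 𝕋 →+* ResidueField 𝒪}

/-- Transfer of the Eichler–Shimura relation to the `θ`-part, if the relation holds on the
`θ`-part only. -/
theorem thetaZ_es_of {g T : Module.End ℤ A} (hg : ∀ t, Commute (η t) g)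
    (hT : ∀ t, Commute (η t) T) (ℓ : ℕ)
    (h : ∀ x ∈ thetaPart η θ,
      (g * g - T * g + ℓ • (1 : Module.End ℤ A)).baseChange 𝒪 x = 0) :
    thetaZ θ g hg * thetaZ θ g hg - thetaZ θ T hT * thetaZ θ g hg
      + (ℓ : 𝒪) • (1 : Module.End 𝒪 ↥(thetaPart η θ)) = 0 := by
  have hℓ : ∀ t, Commute (η t) (ℓ • (1 : Module.End ℤ A)) :=
    fun t => (Commute.one_right _).smul_right ℓ
  have hgg : ∀ t, Commute (η t) (g * g) := fun t => (hg t).mul_right (hg t)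
  have hTg : ∀ t, Commute (η t) (T * g) := fun t => (hT t).mul_right (hg t)
  have hsub : ∀ t, Commute (η t) (g * g - T * g) := fun t => (hgg t).sub_right (hTg t)
  have hall : ∀ t, Commute (η t) (g * g - T * g + ℓ • (1 : Module.End ℤ A)) :=
    fun t => (hsub t).add_right (hℓ t)
  have h0 : thetaZ θ (g * g - T * g + ℓ • (1 : Module.End ℤ A)) hall = 0 :=
    LinearMap.ext fun x => Subtype.ext (h x.1 x.2)
  rw [thetaZ_add hsub hℓ, thetaZ_sub hgg hTg, thetaZ_mul hg hg, thetaZ_mul hT hg,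
    thetaZ_natCast_smul_one] at h0
  exact h0

end thetaES

/-! ## 2. The Eichler–Shimura operator on `J_H[p^∞]` -/

section gen

variable (M c : ℕ) [NeZero M] (H : Subgroup (ZMod c)ˣ) (h2 : 2 ≤ c) (hc : c ∣ M) (p : ℕ)

/-- `E = ⟨u⟩ σ² - T_ℓ σ + ℓ`. -/
def esOp (ℓ : ℕ) (u : (ZMod c)ˣ) (σ : _root_.Fermat.Agent.NEB.Geom.GalQ) : Module.End ℤ (AH M c H p) :=
  diaZ M c H h2 hc p u * galZ M c H p σ * galZ M c H p σ
    - Tz M c H h2 hc p ℓ * galZ M c H p σ + ((ℓ : ℕ) : ℤ) • (1 : Module.End ℤ (AH M c H p))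

theorem coe_esOp (ℓ : ℕ) [NeZero ℓ] (u : (ZMod c)ˣ) (σ : _root_.Fermat.Agent.NEB.Geom.GalQ) (x : AH M c H p) :
    ((esOp M c H h2 hc p ℓ u σ x : AH M c H p) : JH M c H)
      = (heckeData M c ℓ H h2 hc).dd.ρ u • (σ • σ • (x : JH M c H))
        - TH (heckeData M c ℓ H h2 hc).hβ (σ • (x : JH M c H)) + ℓ • (x : JH M c H) := by
  have h1 : ((Tz M c H h2 hc p ℓ (galZ M c H p σ x) : AH M c H p) : JH M c H)
      = TH (heckeData M c ℓ H h2 hc).hβ (σ • (x : JH M c H)) := by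
    rw [Tz_apply]
    rfl
  rw [← h1, ← natCast_zsmul (x : JH M c H) ℓ]
  rfl

/-- `E` has values in the uniform kernel of reduction. -/
theorem esOp_inKU (ℓ : ℕ) (hℓ : ℓ.Prime) (hℓM : ¬ ℓ ∣ M) (u : (ZMod c)ˣ)
    (hu : (u : ZMod c) = (ℓ : ZMod c)) (P : ValuationSubring Kbar) (hP : P.LiesOverPrime ℓ)
    (σ : _root_.Fermat.Agent.NEB.Geom.GalQ) (hσ : P.IsFrobeniusAt σ ℓ) (x : AH M c H p) :
    Fermat.Agent.NEB.Geom.H70.InKU P p (diamondData M c H h2 hc)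
      ((esOp M c H h2 hc p ℓ u σ x : AH M c H p) : JH M c H) := by
  haveI : NeZero ℓ := ⟨hℓ.ne_zero⟩
  rw [coe_esOp]
  exact Fermat.Agent.NEB.Geom.H70.inKU_ES (heckeData M c ℓ H h2 hc) h2 hc hℓ hℓM u hu hP hσ x.2

include h2 hc in
/-- `J_H[p]` is finite, in the form used by the `W`-leaves. -/
theorem finite_AH_p [NeZero c] [Fact p.Prime] :
    Finite {x : AH M c H p // p • x = 0} := by
  have hfin := stmt_ZFIN_final (M := M) H h2 hc p 1
  haveI : Finite ↥{y : JH M c H | ((p ^ 1 : ℕ) : ℤ) • y = 0} := hfin.to_subtype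
  have hmem : ∀ x : {x : AH M c H p // p • x = 0},
      ((x.1 : AH M c H p) : JH M c H) ∈ {y : JH M c H | ((p ^ 1 : ℕ) : ℤ) • y = 0} := by
    intro x
    show ((p ^ 1 : ℕ) : ℤ) • ((x.1 : AH M c H p) : JH M c H) = 0
    have h1 : ((p ^ 1 : ℕ) : ℤ) = ((p : ℕ) : ℤ) := by rw [pow_one]
    rw [h1, natCast_zsmul]
    exact congrArg Subtype.val x.2
  refine Finite.of_injective
    (fun x : {x : AH M c H p // p • x = 0} =>
      (⟨((x.1 : AH M c H p) : JH M c H), hmem x⟩ :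
        ↥{y : JH M c H | ((p ^ 1 : ℕ) : ℤ) • y = 0}))
    (fun x y h => by
      have h' := congrArg Subtype.val h
      exact Subtype.ext (Subtype.ext h'))

end gen

/-! ## 3. The assembly leaf -/

section Main

variable {𝒪 : Type} [CommRing 𝒪] [IsDomain 𝒪] [IsDiscreteValuationRing 𝒪]
  {ϖ : 𝒪} {p : ℕ} {N : ℕ} [NeZero N] {S : Finset ℕ}
  {θ : CuspForm.heckeAlgebra N 2 (↑S : Set ℕ) →+* ResidueField 𝒪}
  {ρbar : ResidualGaloisRep (ResidueField 𝒪)} {n : ℕ} {r : ℕ} {qv : Fin r → ℕ}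
  [NeZero (N * twC qv)] [NeZero (twC qv)] [NeZero (twLevel N qv)]

/-- The image of `X_ℓ` under `η⁺`, for a good prime. -/
theorem etaTw_X_inl (D : TwSetup 𝒪 ϖ p N S θ ρbar n qv) {ℓ : ℕ} (hg : GoodTw N S qv ℓ) :
    etaTw N S p n qv D.h2 D.hcomm (MvPolynomial.X (Sum.inl ℓ))
      = TzTw (N * twC qv) (twC qv) (twH p n qv) D.h2 (dvd_mul_left _ _) p (jTw p n) ℓ :=
  (polyHom_X _ _ _).trans (opsTw_inl_good N S p n qv D.h2 hg)

/-- FIX for the kernel of reduction at a place over a good prime `ℓ`. -/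
theorem fix_KZ [Fact p.Prime] (D : TwSetup 𝒪 ϖ p N S θ ρbar n qv) {ℓ : ℕ}
    (hg : GoodTw N S qv ℓ) (P : ValuationSubring Kbar) (hP : P.LiesOverPrime ℓ)
    (x : AH (N * twC qv) (twC qv) (twH p n qv) p) (hx : x ∈ KZ N p n qv D.h2 P)
    (hfix : ∀ u, diaZ (N * twC qv) (twC qv) (twH p n qv) D.h2 (dvd_mul_left _ _) p u x = x) :
    etaTw N S p n qv D.h2 D.hcomm (Fermat.Agent.NEB.Geom.H94.tEisPoly p n qv D.ℓ₀) x = 0 := by
  haveI : NeZero D.ℓ₀ := ⟨D.hℓ₀.1.ne_zero⟩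
  have hp : p.Prime := Fact.out
  have hℓ₀M : ¬ D.ℓ₀ ∣ N * twC qv := not_dvd_level_of_good D.hℓ₀
  have hℓM : ¬ ℓ ∣ N * twC qv := not_dvd_level_of_good hg
  have hℓp : ℓ ≠ p := by
    rintro rfl
    apply hg.2.2
    simp only [twSet, Finset.coe_union, Set.mem_union]
    exact Or.inl D.hTW.hpS
  rw [Fermat.Agent.NEB.Geom.H94.etaTw_tEisPoly N S p n qv D.h2 D.hcomm D.ℓ₀ D.hℓ₀]
  apply Subtype.ext
  rw [coe_tEis, Fermat.Agent.NEB.H29.tEnd_apply, natCast_zsmul]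
  have hxK : Fermat.Agent.NEB.Geom.H70.InKU P p
      (heckeData (N * twC qv) (twC qv) D.ℓ₀ (twH p n qv) D.h2 (dvd_mul_left _ _)).dd
      (x : JH (N * twC qv) (twC qv) (twH p n qv)) := hx
  have hK := ((hxK.TH (heckeData (N * twC qv) (twC qv) D.ℓ₀ (twH p n qv) D.h2
    (dvd_mul_left _ _)) D.h2 (dvd_mul_left _ _) D.hℓ₀.1 hℓ₀M).sub
      (hxK.nsmul (D.ℓ₀ + 1))).inK1
  exact Fermat.Agent.NEB.Geom.H70.fix' (N * twC qv) (twC qv) (twH p n qv) p hp D.h2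
    (dvd_mul_left _ _) (NeZero.ne _) n (fun d => Or.inl ⟨d, rfl⟩) (twHyp_unr D.hTW D.h2)
    D.ℓ₀ D.hℓ₀.1 hℓ₀M
    (heckeData (N * twC qv) (twC qv) D.ℓ₀ (twH p n qv) D.h2 (dvd_mul_left _ _))
    P ℓ hg.1 hℓM hℓp hP (x : JH (N * twC qv) (twC qv) (twH p n qv)) x.2
    (fun d => congrArg Subtype.val (hfix d)) hK

set_option maxHeartbeats 1000000 in
/-- **A-ES** for a Taylor–Wiles setup. -/
theorem a_es [Finite (ResidueField 𝒪)] [Fact p.Prime] (hϖ : Irreducible ϖ)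
    (hpm : (p : 𝒪) ∈ maximalIdeal 𝒪) (hp0 : (p : 𝒪) ≠ 0)
    (D : TwSetup 𝒪 ϖ p N S θ ρbar n qv) : Stmt_A_es D := by
  intro ℓ hℓ hℓN hℓS P hP σ hσ
  have hp : p.Prime := Fact.out
  have hg : GoodTw N S qv ℓ := ⟨hℓ, hℓN, hℓS⟩
  have hℓM : ¬ ℓ ∣ N * twC qv := not_dvd_level_of_good hg
  have hc : twC qv ∣ N * twC qv := dvd_mul_left _ _
  have hcop : (twC qv).Coprime ℓ :=
    Nat.Coprime.symm ((Nat.Prime.coprime_iff_not_dvd hℓ).2 fun h => hℓM (h.trans hc))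
  have hχ : Fermat.Agent.NEB.Geom.H6.chiC (twC qv) σ
      = Fermat.Agent.NEB.EIG.H39.unitOf (twC qv) ℓ := by
    rw [Fermat.Agent.NEB.Geom.H6.chiC_frob_unit (twC qv) ℓ hℓ hcop P hP σ hσ]
    unfold Fermat.Agent.NEB.EIG.H39.unitOf
    rw [dif_pos hcop.symm]
  have hucoe : ((Fermat.Agent.NEB.EIG.H39.unitOf (twC qv) ℓ : (ZMod (twC qv))ˣ) : ZMod (twC qv))
      = (ℓ : ZMod (twC qv)) := Fermat.Agent.NEB.EIG.H39.unitOf_coe hcop.symm
  have hd1 : diaZ (N * twC qv) (twC qv) (twH p n qv) D.h2 hc p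
      (Fermat.Agent.NEB.EIG.H39.unitOf (twC qv) ℓ) ^ (2 * jTw p n + 1) = 1 := by
    rw [Fermat.Agent.NEB.Geom.H84.two_jTw hp D.hTW.hp2 n]
    exact tw_diaZ_pow D.h2 D.hTW D.hδ _
  have hdg : Commute
      (diaZ (N * twC qv) (twC qv) (twH p n qv) D.h2 hc p
        (Fermat.Agent.NEB.EIG.H39.unitOf (twC qv) ℓ))
      (galZ (N * twC qv) (twC qv) (twH p n qv) p σ) :=
    commute_diaZ_galZ _ _ _ D.h2 hc p _ σ
  -- the `ℤ`-level identity
  have hEq : D.galHom σ * D.galHom σ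
      - TzTw (N * twC qv) (twC qv) (twH p n qv) D.h2 hc p (jTw p n) ℓ * D.galHom σ
      + ((ℓ : ℕ) : ℤ) • (1 : Module.End ℤ (AH (N * twC qv) (twC qv) (twH p n qv) p))
      = esOp (N * twC qv) (twC qv) (twH p n qv) D.h2 hc p ℓ
          (Fermat.Agent.NEB.EIG.H39.unitOf (twC qv) ℓ) σ := by
    rw [D.galHom_apply, hχ]
    exact es_ring_identity _ _ _ _ (jTw p n) hdg hd1
  -- commutation with `η⁺`
  have hcommE : ∀ t, Commute (etaTw N S p n qv D.h2 D.hcomm t)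
      (esOp (N * twC qv) (twC qv) (twH p n qv) D.h2 hc p ℓ
        (Fermat.Agent.NEB.EIG.H39.unitOf (twC qv) ℓ) σ) := by
    intro t
    rw [← hEq]
    have hT : Commute (etaTw N S p n qv D.h2 D.hcomm t)
        (TzTw (N * twC qv) (twC qv) (twH p n qv) D.h2 hc p (jTw p n) ℓ) := by
      rw [← etaTw_X_inl D hg]
      exact (Commute.all t _).map (etaTw N S p n qv D.h2 D.hcomm)
    have hG := D.comm_galHom σ t
    refine Commute.add_right (Commute.sub_right (hG.mul_right hG) (hT.mul_right hG)) ?_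
    exact (Commute.one_right _).smul_right _
  -- the fixed-point lemma
  have hE0 := Fermat.Agent.NEB.Geom.H12.stmt_W_ES 𝒪 ϖ hϖ p hpm hp0
    (AH (N * twC qv) (twC qv) (twH p n qv) p) (fun x => isPTors_coe x)
    (finite_AH_p (N * twC qv) (twC qv) (twH p n qv) D.h2 hc p)
    (PolyTw r (twC qv)) (etaTw N S p n qv D.h2 D.hcomm) (thetaTw N S qv θ D.α)
    (ZMod (twC qv))ˣ (diaZ (N * twC qv) (twC qv) (twH p n qv) D.h2 hc p) n
    (fun u => tw_diaZ_pow D.h2 D.hTW D.hδ u)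
    (fun u => ⟨MvPolynomial.X (Sum.inr (Sum.inr u)), polyHom_X _ _ _⟩)
    (KZ N p n qv D.h2 P) (Fermat.Agent.NEB.Geom.H94.tEisPoly p n qv D.ℓ₀)
    (Fermat.Agent.NEB.Geom.H94.thetaTw_tEisPoly_ne D)
    (fun x hx hfix => fix_KZ D hg P hP x hx hfix)
    (esOp (N * twC qv) (twC qv) (twH p n qv) D.h2 hc p ℓ
      (Fermat.Agent.NEB.EIG.H39.unitOf (twC qv) ℓ) σ)
    hcommE
    (fun x => esOp_inKU (N * twC qv) (twC qv) (twH p n qv) D.h2 hc p ℓ hℓ hℓM _ hucoe P hP σ hσ x)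
  -- conclusion
  have hT : ∀ t, Commute (etaTw N S p n qv D.h2 D.hcomm t)
      (etaTw N S p n qv D.h2 D.hcomm (MvPolynomial.X (Sum.inl ℓ))) :=
    fun t => (Commute.all t _).map (etaTw N S p n qv D.h2 D.hcomm)
  have hη : D.WD.η (CuspForm.heckeAlgebra.T hℓ hℓN hℓS)
      = thetaZ (thetaTw N S qv θ D.α)
          (etaTw N S p n qv D.h2 D.hcomm (MvPolynomial.X (Sum.inl ℓ))) hT :=
    D.η_T ℓ hℓ hℓN hℓS
  have hgal : D.gal σ = thetaZ (thetaTw N S qv θ D.α) (D.galHom σ) (D.comm_galHom σ) := rfl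
  rw [hη, hgal]
  refine thetaZ_es_of (D.comm_galHom σ) hT ℓ ?_
  have hEq' : D.galHom σ * D.galHom σ
      - etaTw N S p n qv D.h2 D.hcomm (MvPolynomial.X (Sum.inl ℓ)) * D.galHom σ
      + ℓ • (1 : Module.End ℤ (AH (N * twC qv) (twC qv) (twH p n qv) p))
      = esOp (N * twC qv) (twC qv) (twH p n qv) D.h2 hc p ℓ
          (Fermat.Agent.NEB.EIG.H39.unitOf (twC qv) ℓ) σ := by
    rw [etaTw_X_inl D hg, ← hEq, natCast_zsmul]
  rw [hEq']
  exact hE0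

end Main

/-- **A-ES**. -/
theorem stmt_A_ES : Stmt_A_ES := by
  intro 𝒪 _ _ _ _ _ _ ϖ p _ N _ S θ ρbar hstd Dm n r qv _ _ _ D
  exact a_es hstd.hϖ hstd.hpm (Nat.cast_ne_zero.2 (Fact.out : p.Prime).ne_zero) D

end Fermat.Agent.NEB.Geom.H29

end
end
-- ==== END Fermat.Agent.NEB.Geom.H29_AES

-- ==== BEGIN Fermat.Agent.NEB.Geom.H6_AMin
section

/-!
# NEB-GEOM assembly leaf A-MIN, wiring (helper6)

`stmt_A_MIN_of : Stmt_W_MD → Stmt_A_MIN`: the level-`N` setup `MinSetup` from the leaf W-MD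
(Hecke action on `J₀(N)[p^∞]`) and LIM-TENS (`𝒪 ⊗ A` is `IsDiv`).
-/

set_option autoImplicit false
set_option linter.unusedSectionVars false
set_option linter.unusedVariables false

noncomputable section

open ModularCurve AlgebraicCurve IsLocalRing TensorProduct Polynomial

namespace Fermat.Agent.NEB.Geom.H6

open Fermat.Agent.NEB Fermat.Agent.NEB.JH Fermat.Agent.S59 Fermat.Agent.S59.Asm
  Fermat.Agent.S59.Lim Fermat.Agent.S59.Lim.H2 Fermat.Agent.NEB.Geom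

/-- **Leaf A-MIN** from W-MD. -/
theorem stmt_A_MIN_of (hMD : Stmt_W_MD) : Stmt_A_MIN := by
  intro 𝒪 _ _ _ _ _ _ ϖ p _ N _ S θ ρbar hstd
  obtain ⟨ηC, hT, hcomm, hdiv, hfin, hes, hunr, hcont, hnt⟩ := hMD p N S hstd.hNS
  have hp0 : (p : 𝒪) ≠ 0 := Nat.cast_ne_zero.mpr (Fact.out : p.Prime).ne_zero
  have htors : ∀ x : A0 N p, ∃ k : ℕ, p ^ k • x = 0 := fun x => isPTors_coe x
  exact ⟨{
    ηC := ηC
    ηC_T := hT
    gal_comm := fun σ t => hcomm t σ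
    hW := stmt_TENS 𝒪 ϖ hstd.hϖ p hstd.hpm hp0 (A0 N p) htors hdiv hfin
    es := hes
    unr := hunr
    cont := hcont
    nontriv := hnt 𝒪 hstd.hpm θ }⟩

end Fermat.Agent.NEB.Geom.H6

end
end
-- ==== END Fermat.Agent.NEB.Geom.H6_AMin

-- ==== BEGIN Fermat.Agent.NEB.Geom.H84_Setup
section

/-!
# Item 72 (LG-NEB), package NEB-GEOM, leaf A-SETUP (helper84)

* `Stmt_A_ETA`   : divisibility of `W` and the Hecke action on `W` (leaf; helper39 / helper98);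
* `Stmt_A_COMM`  : `Stmt_Z_COMMtw`, universally quantified (leaf; helper29);
* `stmt_A_SETUP_of : Stmt_A_COMM → Stmt_W_NONEIS → Stmt_A_ETA → Stmt_A_SETUP`.
-/

set_option autoImplicit false
set_option linter.unusedSectionVars false
set_option linter.style.haveILetI false
set_option linter.unusedVariables false

noncomputable section

open ModularCurve AlgebraicCurve IsLocalRing TensorProduct Polynomial

namespace Fermat.Agent.NEB.Geom

open Fermat.Agent.NEB Fermat.Agent.NEB.JH Fermat.Agent.S59 Fermat.Agent.S59.Asm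
  Fermat.Agent.S59.Lim Fermat.Agent.S59.Lim.H2

/-- **A-COMM**: `Stmt_Z_COMMtw` for all Taylor–Wiles data. -/
def Stmt_A_COMM : Prop :=
  ∀ (N : ℕ) (S : Finset ℕ) (p n r : ℕ) (qv : Fin r → ℕ) [NeZero (N * twC qv)]
    (h2 : 2 ≤ twC qv), Stmt_Z_COMMtw N S p n qv h2

/-- **A-ETA**: `W` is `IsDiv`, and the Hecke ring of level `N ∏ q_j²` acts on it through the
twisted operators, locally at `θ ∘ rest`. -/
def Stmt_A_ETA : Prop :=
  ∀ (𝒪 : Type) [CommRing 𝒪] [IsDomain 𝒪] [IsDiscreteValuationRing 𝒪]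
    [IsAdicComplete (maximalIdeal 𝒪) 𝒪] [Finite (ResidueField 𝒪)] [CharZero 𝒪]
    (ϖ : 𝒪) (p : ℕ) [Fact p.Prime] (N : ℕ) [NeZero N] (S : Finset ℕ)
    (θ : CuspForm.heckeAlgebra N 2 (↑S : Set ℕ) →+* ResidueField 𝒪)
    (ρbar : ResidualGaloisRep (ResidueField 𝒪)), StdHyp 𝒪 ϖ p N S θ ρbar →
    ∀ (n r : ℕ) (qv : Fin r → ℕ)
      [NeZero (N * twC qv)] [NeZero (twC qv)] [NeZero (twLevel N qv)]
      (hTW : TwHyp N S p n qv) (h2 : 2 ≤ twC qv)
      (hcomm : ∀ i j, Commute (opsTw N S p n qv h2 i) (opsTw N S p n qv h2 j))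
      (α : Fin r → ResidueField 𝒪) (ℓ₀ : ℕ) (hℓ₀ : GoodTw N S qv ℓ₀),
      θ (CuspForm.heckeAlgebra.T hℓ₀.1 hℓ₀.not_dvd hℓ₀.not_mem) ≠ ((ℓ₀ : ResidueField 𝒪) + 1) →
    IsDiv ϖ ↥(Wtw 𝒪 N S p n qv h2 hcomm θ α) ∧
    ∃ η : CuspForm.heckeAlgebra (twLevel N qv) 2 (↑(twSet S qv) : Set ℕ) →+*
        Module.End 𝒪 ↥(Wtw 𝒪 N S p n qv h2 hcomm θ α),
      (∀ (ℓ : ℕ) (hℓ : ℓ.Prime) (hℓN : ¬ ℓ ∣ twLevel N qv)
        (hℓS : ℓ ∉ (↑(twSet S qv) : Set ℕ)),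
        η (CuspForm.heckeAlgebra.T hℓ hℓN hℓS) =
          thetaEta (etaTw N S p n qv h2 hcomm) (thetaTw N S qv θ α)
            (MvPolynomial.X (Sum.inl ℓ))) ∧
      (∀ (t : CuspForm.heckeAlgebra (twLevel N qv) 2 (↑(twSet S qv) : Set ℕ)) (a₀ : 𝒪),
        residue 𝒪 a₀ = (θ.comp (Fermat.Agent.S59.Asm.H41.restTW N S qv hTW.prime)) t →
        ∀ x : ↥(Wtw 𝒪 N S p n qv h2 hcomm θ α), ϖ • x = 0 →
          ∃ m : ℕ, ((η t - a₀ • (1 : Module.End 𝒪 ↥(Wtw 𝒪 N S p n qv h2 hcomm θ α))) ^ m) x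
            = 0)

/-- `TwHyp` from the hypotheses of `Stmt_TWGEOM`. -/
theorem twHyp_of {𝒪 : Type} [CommRing 𝒪] [IsLocalRing 𝒪] {ϖ : 𝒪} {p : ℕ} [Fact p.Prime]
    {N : ℕ} [NeZero N] {S : Finset ℕ}
    {θ : CuspForm.heckeAlgebra N 2 (↑S : Set ℕ) →+* ResidueField 𝒪}
    {ρbar : ResidualGaloisRep (ResidueField 𝒪)} (hstd : StdHyp 𝒪 ϖ p N S θ ρbar)
    {n r : ℕ} {qv : Fin r → ℕ} (hr : 0 < r)
    (hfam : Fermat.Agent.S56.IsTWFamily ρbar p n S qv) : TwHyp N S p n qv where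
  hp := Fact.out
  hp2 := hstd.hp2
  hN := NeZero.ne N
  hr := hr
  inj := hfam.1
  prime := fun j => (hfam.2.1 j).1
  cong := fun j => (hfam.2.1 j).2.2
  notS := fun j => (hfam.2.1 j).2.1
  hNS := hstd.hNS
  hpS := hstd.hres.hpSmin

/-- A prime outside `S ∪ {q_j}` not dividing `N` is good at the Taylor–Wiles level. -/
theorem goodTw_of {N : ℕ} {S : Finset ℕ} {p n r : ℕ} {qv : Fin r → ℕ}
    (hTW : TwHyp N S p n qv) {ℓ : ℕ} (hℓ : ℓ.Prime) (hℓN : ¬ ℓ ∣ N)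
    (hℓS : ℓ ∉ (↑S : Set ℕ)) (hℓT : ℓ ∉ Finset.univ.image qv) : GoodTw N S qv ℓ := by
  refine ⟨hℓ, ?_, ?_⟩
  · intro hd
    rw [twLevel] at hd
    rcases (Nat.Prime.dvd_mul hℓ).mp hd with h | h
    · exact hℓN h
    · obtain ⟨j, -, hj⟩ := (Prime.dvd_finset_prod_iff hℓ.prime _).mp h
      have h1 : ℓ ∣ qv j := hℓ.dvd_of_dvd_pow hj
      have h2 : ℓ = qv j := (Nat.prime_dvd_prime_iff_eq hℓ (hTW.prime j)).mp h1
      exact hℓT (Finset.mem_image.mpr ⟨j, Finset.mem_univ j, h2.symm⟩)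
  · intro h
    simp only [twSet, Finset.coe_union, Set.mem_union] at h
    rcases h with h | h
    · exact hℓS h
    · exact hℓT (by exact_mod_cast h)

/-- **A-SETUP** from A-COMM, W-NONEIS and A-ETA (and A-CHOICE). -/
theorem stmt_A_SETUP_of (hCOMM : Stmt_A_COMM) (hNE : Stmt_W_NONEIS) (hETA : Stmt_A_ETA) :
    Stmt_A_SETUP := by
  intro 𝒪 _ _ _ _ _ _ ϖ p _ N _ S θ ρbar hstd n r qv hr hfam _ _ _ hint
  have hTW : TwHyp N S p n qv := twHyp_of hstd hr hfam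
  have h2 : 2 ≤ twC qv := H84.two_le_twC hTW
  obtain ⟨hc1, hc2, -⟩ := hCOMM N S p n r qv h2 hTW
  -- places and Frobenius elements
  have hex : ∀ j : Fin r, ∃ (A : ValuationSubring Kbar) (σ : _root_.Fermat.Agent.NEB.Geom.GalQ),
      A.LiesOverPrime (qv j) ∧ A.IsFrobeniusAt σ (qv j) :=
    fun j => Fermat.Agent.Lib.FrobExists.exists_place_and_frobenius (qv j) (hTW.prime j)
  choose P frob hP hfr using hex
  obtain ⟨σ, hσ, hδ⟩ := H84.exists_sigma hTW P hP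
  obtain ⟨α, β, a, a', heig, ha, ha', hcp⟩ :=
    H84.exists_eig ρbar θ hstd.hpm hTW hfam hstd.hfrob P hP frob hfr
  -- a non-Eisenstein prime
  have hpk : ((p : ℕ) : ResidueField 𝒪) = 0 := by
    have : residue 𝒪 (p : 𝒪) = 0 := (residue_eq_zero_iff _).mpr hstd.hpm
    rwa [map_natCast] at this
  obtain ⟨ℓ₀, hℓ, hℓN, hℓS, hℓT, hne⟩ :=
    hNE (ResidueField 𝒪) p hstd.hp2 hpk ρbar hstd.hres.habs N S hstd.hres.hpSmin θ hstd.hfrob
      (Finset.univ.image qv)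
  have hgood : GoodTw N S qv ℓ₀ := goodTw_of hTW hℓ hℓN hℓS hℓT
  obtain ⟨hdiv, η, hηT, hηloc⟩ :=
    hETA 𝒪 ϖ p N S θ ρbar hstd n r qv hTW h2 hc1 α ℓ₀ hgood hne
  exact ⟨{
    hTW := hTW
    h2 := h2
    hcomm := hc1
    hcommG := hc2
    α := α
    β := β
    eig := heig
    a := a
    a' := a'
    ha := ha
    ha' := ha'
    ℓ₀ := ℓ₀
    hℓ₀ := hgood
    hne := hne
    P := P
    P_over := hP
    frob := frob
    frob_spec := hfr
    σ := σ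
    σ_mem := hσ
    hδ := hδ
    charpoly_frob := hcp
    isDiv := hdiv
    η := η
    η_T := hηT
    η_local := hηloc }⟩

end Fermat.Agent.NEB.Geom

end
end
-- ==== END Fermat.Agent.NEB.Geom.H84_Setup
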