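-- GENERATED (merged mirror, NOTES/tools/trim/merge3_helper67.py): 5 modules of the originals, bodies verbatim.
import Fermat.Agent.Zm.S43_L15_000
import Fermat.Agent.Zm.S43_L16_001
import Fermat.Agent.Zm.S43_L16_000
import Fermat.Agent.Zm.S43_L04_000
import Fermat.Agent.Zm.S43_L03_000
import Fermat.Agent.Zm.S43_L05_001
import Fermat.Agent.Zm.S43_L11_001
import Fermat.Agent.Zm.S43_L15_001
import Fermat.Agent.Zm.S43_L10_001
import Fermat.Agent.Zm.S43_L14_001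
import Fermat.Agent.Zm.S48_L07_000
import Fermat.Agent.Zm.S43_L14_002

-- ==== BEGIN Fermat.Agent.L.Pivot.Geom.H19_Setup
section

/-!
# PIVOT, package PV-GEOM, Part I, leaf P-SETUP (helper19)

Mirror of helper84's `NEB/Geom/H84_Setup.lean`:

* `pvHyp_of`        : `PvHyp` from the standing hypotheses `PvStd`, a Taylor–Wiles family and
  `0 < k`;
* `Stmt_P_ETA`      : divisibility of `W'` and the Hecke action of level `pvLevel` on `W'` (leaf);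
* `Stmt_P_SETUP`    : the setup `PvSetup` exists for every Taylor–Wiles family (`0 < k`);
* `stmt_P_SETUP_of : Stmt_W_NONEIS → Stmt_P_ETA → Stmt_P_SETUP`
  (P-COMM = `H19.stmt_Z_COMMpv` and P-CHOICE = `H19.exists_sigma_pv`, `H19.exists_eig_pv` are
  proved).

Complete proofs, standard axioms only.
-/

set_option autoImplicit false
set_option linter.unusedSectionVars false
set_option linter.style.haveILetI false
set_option linter.unusedVariables false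

noncomputable section

open ModularCurve AlgebraicCurve IsLocalRing TensorProduct Polynomial

namespace Fermat.Agent.L.Pivot.Geom

open Fermat.Agent.NEB Fermat.Agent.NEB.JH Fermat.Agent.NEB.Geom Fermat.Agent.S59.Lim
  Fermat.Agent.S59.Lim.H2 Fermat.Agent.S59.Asm

/-- `PvHyp` from the standing hypotheses, a Taylor–Wiles family and `0 < k`. -/
theorem pvHyp_of {𝒪 : Type} [CommRing 𝒪] [IsLocalRing 𝒪] {ϖ : 𝒪} {p : ℕ} [Fact p.Prime]
    {N1 : ℕ} [NeZero N1] {S Smin : Finset ℕ}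
    {θ : CuspForm.heckeAlgebra N1 2 (↑S : Set ℕ) →+* ResidueField 𝒪}
    {ρbar : ResidualGaloisRep (ResidueField 𝒪)} {k : ℕ} {Pv : PivotPrimes k} {eP : Fin k → ℕ}
    (hstd : PvStd 𝒪 ϖ p N1 S Smin θ ρbar Pv eP) (hk : 0 < k)
    {n r : ℕ} {qv : Fin r → ℕ} (hfam : Fermat.Agent.S56.IsTWFamily ρbar p n S qv) :
    PvHyp N1 S p eP n Pv.q qv where
  hp := Fact.out
  hp2 := hstd.hyp.hp2
  hU := hstd.hU
  hN := NeZero.ne N1
  hsq := hstd.hsq
  hk := hk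
  injP := Pv.q_inj
  primeP := Pv.q_prime
  dvdP := hstd.hdvd
  neP := fun j => (hstd.hex j).2.1
  congP := hstd.heP
  posP := fun j => by
    rcases Nat.eq_zero_or_pos (eP j) with h0 | h0
    · exfalso
      have h1 := (hstd.heP j).2
      rw [h0, zero_add, pow_one] at h1
      exact h1 (hstd.hex j).1
    · exact h0
  memP := fun j => hstd.hNS _ (Pv.q_prime j) (hstd.hdvd j)
  inj := hfam.1
  prime := fun i => (hfam.2.1 i).1
  cong := fun i => (hfam.2.1 i).2.2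
  notS := fun i => (hfam.2.1 i).2.1
  hNS := hstd.hNS
  hpS := hstd.hyp.hSmin hstd.hyp.hpSmin

/-- **P-ETA**: `W'` is `IsDiv`, and the Hecke ring of level `pvLevel` acts on it through the
twisted operators `T'_ℓ`, locally at `θ ∘ restTW ∘ restPV`.  (Clone of `Stmt_A_ETA`:
W-DIV + the mixed tower for the divisibility, EIG at `(M₀, pivots ++ Taylor–Wiles primes)` for
the Hecke action.) -/
def Stmt_P_ETA : Prop :=
  ∀ (𝒪 : Type) [CommRing 𝒪] [IsDomain 𝒪] [IsDiscreteValuationRing 𝒪]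
    [IsAdicComplete (maximalIdeal 𝒪) 𝒪] [Finite (ResidueField 𝒪)] [CharZero 𝒪]
    (ϖ : 𝒪) (p : ℕ) [Fact p.Prime] (N1 : ℕ) [NeZero N1] (S Smin : Finset ℕ)
    (θ : CuspForm.heckeAlgebra N1 2 (↑S : Set ℕ) →+* ResidueField 𝒪)
    (ρbar : ResidualGaloisRep (ResidueField 𝒪)) (k : ℕ) (Pv : PivotPrimes k)
    (eP : Fin k → ℕ), PvStd 𝒪 ϖ p N1 S Smin θ ρbar Pv eP →
    ∀ (n r : ℕ) (qv : Fin r → ℕ)
      [NeZero (N1 * twC qv)] [NeZero (pvC Pv.q qv)] [NeZero (twLevel N1 qv)]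
      [NeZero (pvLevel N1 Pv.q qv)]
      (hPV : PvHyp N1 S p eP n Pv.q qv) (h2 : 2 ≤ pvC Pv.q qv)
      (hc : pvC Pv.q qv ∣ N1 * twC qv)
      (hcomm : ∀ i j, Commute (opsPv N1 S p eP n Pv.q qv h2 hc i)
        (opsPv N1 S p eP n Pv.q qv h2 hc j))
      (α : Fin r → ResidueField 𝒪) (ℓ₀ : ℕ) (hℓ₀ : GoodTw N1 S qv ℓ₀),
      θ (CuspForm.heckeAlgebra.T hℓ₀.1 hℓ₀.not_dvd hℓ₀.not_mem) ≠ ((ℓ₀ : ResidueField 𝒪) + 1) →
    IsDiv ϖ ↥(Wpv N1 S p eP n Pv.q qv h2 hc 𝒪 hcomm θ α) ∧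
    ∃ η : CuspForm.heckeAlgebra (pvLevel N1 Pv.q qv) 2 (↑(twSet S qv) : Set ℕ) →+*
        Module.End 𝒪 ↥(Wpv N1 S p eP n Pv.q qv h2 hc 𝒪 hcomm θ α),
      (∀ (ℓ : ℕ) (hℓ : ℓ.Prime) (hℓN : ¬ ℓ ∣ pvLevel N1 Pv.q qv)
        (hℓS : ℓ ∉ (↑(twSet S qv) : Set ℕ)),
        η (CuspForm.heckeAlgebra.T hℓ hℓN hℓS) =
          thetaEta (etaPv N1 S p eP n Pv.q qv h2 hc hcomm) (thetaPv N1 S Pv.q qv θ α)
            (MvPolynomial.X (Sum.inl ℓ))) ∧
      (∀ (t : CuspForm.heckeAlgebra (pvLevel N1 Pv.q qv) 2 (↑(twSet S qv) : Set ℕ)) (a₀ : 𝒪),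
        residue 𝒪 a₀ = thetaLvl 𝒪 N1 S θ Pv.q qv hPV.prime hPV.dvdP t →
        ∀ x : ↥(Wpv N1 S p eP n Pv.q qv h2 hc 𝒪 hcomm θ α), ϖ • x = 0 →
          ∃ m : ℕ, ((η t - a₀ • (1 : Module.End 𝒪
            ↥(Wpv N1 S p eP n Pv.q qv h2 hc 𝒪 hcomm θ α))) ^ m) x = 0)

/-- **P-SETUP**: the setup exists for every Taylor–Wiles family, when there is at least one
pivot prime. -/
def Stmt_P_SETUP : Prop :=
  ∀ (𝒪 : Type) [CommRing 𝒪] [IsDomain 𝒪] [IsDiscreteValuationRing 𝒪]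
    [IsAdicComplete (maximalIdeal 𝒪) 𝒪] [Finite (ResidueField 𝒪)] [CharZero 𝒪]
    (ϖ : 𝒪) (p : ℕ) [Fact p.Prime] (N1 : ℕ) [NeZero N1] (S Smin : Finset ℕ)
    (θ : CuspForm.heckeAlgebra N1 2 (↑S : Set ℕ) →+* ResidueField 𝒪)
    (ρbar : ResidualGaloisRep (ResidueField 𝒪)) (k : ℕ) (Pv : PivotPrimes k)
    (eP : Fin k → ℕ), PvStd 𝒪 ϖ p N1 S Smin θ ρbar Pv eP → 0 < k →
    ∀ (n r : ℕ) (qv : Fin r → ℕ), Fermat.Agent.S56.IsTWFamily ρbar p n S qv →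
    ∀ [NeZero (N1 * twC qv)] [NeZero (pvC Pv.q qv)] [NeZero (twLevel N1 qv)]
      [NeZero (pvLevel N1 Pv.q qv)],
      Nonempty (PvSetup 𝒪 ϖ p N1 S θ ρbar eP n Pv.q qv)

/-- **P-SETUP** from W-NONEIS and P-ETA (P-COMM and P-CHOICE are proved). -/
theorem stmt_P_SETUP_of (hNE : Stmt_W_NONEIS) (hETA : Stmt_P_ETA) : Stmt_P_SETUP := by
  intro 𝒪 _ _ _ _ _ _ ϖ p _ N1 _ S Smin θ ρbar k Pv eP hstd hk n r qv hfam _ _ _ _
  have hPV : PvHyp N1 S p eP n Pv.q qv := pvHyp_of hstd hk hfam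
  have h2 : 2 ≤ pvC Pv.q qv := hPV.two_le
  have hc : pvC Pv.q qv ∣ N1 * twC qv := hPV.dvd
  obtain ⟨hc1, hc2, -⟩ := H19.stmt_Z_COMMpv N1 S p eP n Pv.q qv h2 hc hPV.prime
  -- places and Frobenius elements at the Taylor–Wiles primes
  have hex : ∀ i : Fin r, ∃ (A : ValuationSubring Kbar) (σ : GalK),
      A.LiesOverPrime (qv i) ∧ A.IsFrobeniusAt σ (qv i) :=
    fun i => Fermat.Agent.Lib.FrobExists.exists_place_and_frobenius (qv i) (hPV.prime i)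
  choose P frob hP hfr using hex
  obtain ⟨σ, δP, hσ, hδ⟩ := H19.exists_sigma_pv hPV P hP
  obtain ⟨α, β, a, a', heig, ha, ha', hcp⟩ :=
    H19.exists_eig_pv ρbar θ hstd.hyp.hp𝒪 hPV hfam hstd.hfrob P hP frob hfr
  -- a non-Eisenstein prime
  have hpk : ((p : ℕ) : ResidueField 𝒪) = 0 := by
    have : residue 𝒪 (p : 𝒪) = 0 := (residue_eq_zero_iff _).mpr hstd.hyp.hp𝒪
    rwa [map_natCast] at this
  obtain ⟨ℓ₀, hℓ, hℓN, hℓS, hℓT, hne⟩ :=
    hNE (ResidueField 𝒪) p hstd.hyp.hp2 hpk ρbar hstd.hyp.habs N1 S hPV.hpS θ hstd.hfrob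
      (Finset.univ.image qv)
  have hgood : GoodTw N1 S qv ℓ₀ := by
    refine ⟨hℓ, ?_, ?_⟩
    · intro hd
      rw [twLevel] at hd
      rcases (Nat.Prime.dvd_mul hℓ).mp hd with h | h
      · exact hℓN h
      · obtain ⟨j, -, hj⟩ := (Prime.dvd_finsetProd_iff hℓ.prime _).mp h
        have h1 : ℓ₀ ∣ qv j := hℓ.dvd_of_dvd_pow hj
        have h2' : ℓ₀ = qv j := (Nat.prime_dvd_prime_iff_eq hℓ (hPV.prime j)).mp h1
        exact hℓT (Finset.mem_image.mpr ⟨j, Finset.mem_univ j, h2'.symm⟩)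
    · intro h
      simp only [twSet, Finset.coe_union, Set.mem_union] at h
      rcases h with h | h
      · exact hℓS h
      · exact hℓT (by exact_mod_cast h)
  obtain ⟨hdiv, η, hηT, hηloc⟩ :=
    hETA 𝒪 ϖ p N1 S Smin θ ρbar k Pv eP hstd n r qv hPV h2 hc hc1 α ℓ₀ hgood hne
  exact ⟨{
    hPV := hPV
    h2 := h2
    hc := hc
    hcomm := hc1
    hcommG := hc2
    α := α
    β := β
    eig := heig
    a := a
    a' := a'
    ha := ha
    ha' := ha'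
    ℓ₀ := ℓ₀
    hℓ₀ := hgood
    hne := hne
    P := P
    P_over := hP
    frob := frob
    frob_spec := hfr
    σ := σ
    σ_mem := hσ
    δP := δP
    hδ := hδ
    charpoly_frob := hcp
    isDiv := hdiv
    η := η
    η_T := hηT
    η_local := hηloc }⟩

end Fermat.Agent.L.Pivot.Geom

end

end
-- ==== END Fermat.Agent.L.Pivot.Geom.H19_Setup

-- ==== BEGIN Fermat.Agent.L.Pivot.Geom.H81_PushSpecA
section

/-!
# PIVOT, PV-GEOM part II: the coordinates of the push-forwards, `α` half plugged in  (helper81)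

* `stmt_B2Alpha : Stmt_B2Alpha M q` (helper24's `torChar_alphaPush`);
* `exists_pushSpec_of_beta` : `exists_pushSpec` with `Stmt_B2Beta M q` as the only hypothesis.
-/

set_option autoImplicit false

noncomputable section

namespace Fermat.Agent.L.Pivot.Geom.H81

open AlgebraicCurve ModularCurve CongruenceSubgroup Fermat.Agent.GTor Fermat.Agent.Betti
open Fermat.Agent.GTor.H81 Fermat.Agent.S41 Fermat.Agent.S36.H44
open scoped MatrixGroups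

/-- **(B-2) for `α`** (helper24). -/
theorem stmt_B2Alpha (M q : ℕ) [NeZero M] [NeZero q] : Stmt_B2Alpha M q :=
  fun n _ ι x φ h => Fermat.Agent.L.Pivot.Geom.H24.torChar_alphaPush M q n ι x φ h

/-- **The coordinates of the degeneracy push-forwards**, from (B-2) for `β` alone. -/
theorem exists_pushSpec_of_beta (M q p : ℕ) [NeZero M] [NeZero q] (S : Set ℕ) (hp : p.Prime)
    (hNS : ∀ ℓ : ℕ, ℓ.Prime → ℓ ∣ M * q → ℓ ∈ S) (ι : AlgebraicClosure ℚ →+* ℂ)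
    (hBβ : Stmt_B2Beta M q) :
    ∃ (C : TateCoords (M * q) p S) (C' : TateCoords M p S)
      (b : Fin C.r → (Additive (Gamma0 (M * q)) →+ ℤ))
      (b' : Fin C'.r → (Additive (Gamma0 M) →+ ℤ))
      (Aα Aβ : Matrix (Fin C'.r) (Fin C.r) ℤ),
      IsParBasis (M * q) b ∧ IsParBasis M b' ∧
      (∀ (k : ℕ) (x : Jtor (M * q) (p ^ k)),
        TorChar (M * q) (p ^ k) ι (x : JZero (M * q)) (coordFun b (p ^ k) (C.θ k x))) ∧
      (∀ (k : ℕ) (y : Jtor M (p ^ k)),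
        TorChar M (p ^ k) ι (y : JZero M) (coordFun b' (p ^ k) (C'.θ k y))) ∧
      (∀ (ℓ : ℕ) (hℓ : ℓ.Prime) (hℓN : ¬ ℓ ∣ M * q) (hℓS : ℓ ∉ S) (j : Fin C.r),
        TB (M * q) ℤ hℓ hℓN (b j) = ∑ i, C.M (CuspForm.heckeAlgebra.T hℓ hℓN hℓS) i j • b i) ∧
      (∀ (ℓ : ℕ) (hℓ : ℓ.Prime) (hℓN : ¬ ℓ ∣ M) (hℓS : ℓ ∉ S) (j : Fin C'.r),
        TB M ℤ hℓ hℓN (b' j) = ∑ i, C'.M (CuspForm.heckeAlgebra.T hℓ hℓN hℓS) i j • b' i) ∧
      (∀ j, cor1 M q ℤ (b j) = ∑ i, Aα i j • b' i) ∧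
      (∀ j, cor2 M q ℤ (b j) = ∑ i, Aβ i j • b' i) ∧
      (∀ (k : ℕ) (x : Jtor (M * q) (p ^ k)) (y : Jtor M (p ^ k)),
        (y : JZero M) = alphaPush M q (x : JZero (M * q)) →
          C'.θ k y = (Aα.map (Int.cast : ℤ → ZMod (p ^ k))).mulVec (C.θ k x)) ∧
      (∀ (k : ℕ) (x : Jtor (M * q) (p ^ k)) (y : Jtor M (p ^ k)),
        (y : JZero M) = betaPush M q (x : JZero (M * q)) →
          C'.θ k y = (Aβ.map (Int.cast : ℤ → ZMod (p ^ k))).mulVec (C.θ k x)) ∧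
      (∀ (k : ℕ) (x : Jtor (M * q) (p ^ k)),
        (Aα.map (Int.cast : ℤ → ZMod (p ^ k))).mulVec (C.θ k x) = 0 →
          alphaPush M q (x : JZero (M * q)) = 0) ∧
      (∀ (k : ℕ) (x : Jtor (M * q) (p ^ k)),
        (Aβ.map (Int.cast : ℤ → ZMod (p ^ k))).mulVec (C.θ k x) = 0 →
          betaPush M q (x : JZero (M * q)) = 0) :=
  exists_pushSpec M q p S hp hNS ι (stmt_B2Alpha M q) hBβ

end Fermat.Agent.L.Pivot.Geom.H81

end
end
-- ==== END Fermat.Agent.L.Pivot.Geom.H81_PushSpecA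

-- ==== BEGIN Fermat.Agent.L.Pivot.Geom.H9_LayerB2Top
section

set_option autoImplicit false
set_option linter.style.haveILetI false
set_option linter.unusedSectionVars false
set_option linter.unusedVariables false
set_option maxHeartbeats 8000000
set_option synthInstance.maxHeartbeats 400000

noncomputable section

open IsLocalRing

namespace Fermat.Agent.L.Pivot.Geom

open Polynomial CuspForm Fermat.Agent.S56 Fermat.Agent.S59 Fermat.Agent.S59.Asm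
  Fermat.Agent.S59.Lim Fermat.Agent.L.Pivot Fermat.Agent.S59.TWH

/-- The conclusion of `Stmt_PVBASE` gives the conclusion of `Stmt_PVDIV` (all data fixed). -/
theorem pvDiv_of_pvBase_concl (𝒪 : Type) [CommRing 𝒪] [IsDomain 𝒪] [IsDiscreteValuationRing 𝒪]
    [IsAdicComplete (maximalIdeal 𝒪) 𝒪] [Finite (ResidueField 𝒪)] [CharZero 𝒪]
    (ϖ : 𝒪) (p : ℕ) (ρbar : ResidualGaloisRep (ResidueField 𝒪)) (S : Finset ℕ)
    (N1 : ℕ) [NeZero N1] [Fact (CuspForm.HasIntegralStructure N1 2)]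
    (θ : CuspForm.heckeAlgebra N1 2 (↑S : Set ℕ) →+* ResidueField 𝒪)
    (k : ℕ) (Pv : PivotPrimes k) (eP : Fin k → ℕ) (hdvd : ∀ j, Pv.q j ∣ N1)
    (hb : ∃ MD : HDiv 𝒪 ϖ N1 (↑S : Set ℕ) θ, Nontrivial MD.W ∧
      ∀ (r n : ℕ) (qv : Fin r → ℕ), IsTWFamily ρbar p n S qv →
        ∀ [NeZero (twLevel N1 qv)] [NeZero (pvLevel N1 Pv.q qv)]
          [Fact (CuspForm.HasIntegralStructure (twLevel N1 qv) 2)]
          [Fact (CuspForm.HasIntegralStructure (pvLevel N1 Pv.q qv) 2)],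
          Nonempty (PVBase 𝒪 ϖ p ρbar N1 S θ MD Pv.q eP n qv)) :
    ∃ MD : HDiv 𝒪 ϖ N1 (↑S : Set ℕ) θ, Nontrivial MD.W ∧
      ∀ (r n : ℕ) (qv : Fin r → ℕ), IsTWFamily ρbar p n S qv →
        ∀ [NeZero (twLevel N1 qv)] [NeZero (pvLevel N1 Pv.q qv)]
          [Fact (CuspForm.HasIntegralStructure (twLevel N1 qv) 2)]
          [Fact (CuspForm.HasIntegralStructure (pvLevel N1 Pv.q qv) 2)],
          Nonempty (PVDiv 𝒪 ϖ p ρbar N1 S θ MD Pv.q eP n qv) := by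
  obtain ⟨MD, hnt, hB⟩ := hb
  refine ⟨MD, hnt, fun r n qv hTW => ?_⟩
  intro _ _ _ _
  obtain ⟨B⟩ := hB r n qv hTW
  exact ⟨B.pvDivOf (fun ℓ hℓ hℓN hℓS hd =>
    hℓN (H4.prime_dvd_twLevel_of_dvd_pvLevel N1 Pv.q qv hdvd ℓ hℓ hd))⟩

/-- **`Stmt_PVBASE → Stmt_PVDIV`** (design (C): the only geometric object is `W'`). -/
theorem stmt_PVDIV_of_base (h : Stmt_PVBASE) : Stmt_PVDIV := by
  unfold Stmt_PVDIV
  intros
  apply pvDiv_of_pvBase_concl
  · assumption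
  · apply h <;> assumption

end Fermat.Agent.L.Pivot.Geom

end

end
-- ==== END Fermat.Agent.L.Pivot.Geom.H9_LayerB2Top

-- ==== BEGIN Fermat.Agent.L.Pivot.Geom.H9_PLG
section

set_option autoImplicit false
set_option linter.unusedSectionVars false
set_option linter.style.haveILetI false
set_option linter.unusedVariables false
set_option synthInstance.maxHeartbeats 400000
set_option maxHeartbeats 1000000

noncomputable section

open ModularCurve AlgebraicCurve IsLocalRing TensorProduct Polynomial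

namespace Fermat.Agent.L.Pivot.Geom.H9

open Fermat.Agent.NEB Fermat.Agent.NEB.JH Fermat.Agent.NEB.Geom Fermat.Agent.S59.Asm
  Fermat.Agent.S59.Lim Fermat.Agent.S59.Lim.H2 Fermat.Agent.L.Pivot.Geom

/-! ## Arithmetic of the level -/

section Arith

variable {N1 : ℕ} {S : Finset ℕ} {p : ℕ} {k : ℕ} {eP : Fin k → ℕ} {n : ℕ} {qP : Fin k → ℕ}
  {r : ℕ} {qv : Fin r → ℕ}

/-- The level `M1 = N1 c_Q` is squarefree. -/
theorem squarefree_pvM1 (hPV : PvHyp N1 S p eP n qP qv) : Squarefree (N1 * twC qv) := by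
  rw [Nat.squarefree_mul_iff]
  refine ⟨?_, hPV.hsq, ?_⟩
  · unfold twC
    refine Nat.Coprime.prod_right fun i _ => ?_
    exact ((Nat.Prime.coprime_iff_not_dvd (hPV.prime i)).2
      (fun h => hPV.notS i (hPV.hNS _ (hPV.prime i) h))).symm
  · unfold twC
    refine Finset.squarefree_prod_of_pairwise_isCoprime (fun a _ b _ hab => ?_)
      (fun a _ => (Nat.Prime.prime (hPV.prime a)).squarefree)
    show IsRelPrime (qv a) (qv b)
    rw [← Nat.coprime_iff_isRelPrime]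
    exact (Nat.coprime_primes (hPV.prime a) (hPV.prime b)).mpr (fun h => hab (hPV.inj h))

/-- The conductor `c'` is squarefree. -/
theorem squarefree_pvC (hPV : PvHyp N1 S p eP n qP qv) : Squarefree (pvC qP qv) :=
  Squarefree.squarefree_of_dvd hPV.dvd (squarefree_pvM1 hPV)

/-- `F_H' / F₀` is unramified (`5 ≤ p`: helper70's `unrCond_of_five_le`, helper34's FH-UNR). -/
theorem hunr_pv [NeZero (N1 * twC qv)] (hPV : PvHyp N1 S p eP n qP qv) :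
    ∀ w : Place Kbar ↥(FHbar (N1 * twC qv) (pvC qP qv) (pvH qP qv p eP n)),
      ∃ x : ↥(modularFunctionFieldBar (N1 * twC qv)),
        w.ord (inclBar (N1 * twC qv) (pvC qP qv) (pvH qP qv p eP n) x) = 1 :=
  Fermat.Agent.NEB.H34.fh_unr (pvC qP qv) (N1 * twC qv) (pvH qP qv p eP n) hPV.two_le hPV.dvd
    (NeZero.ne _)
    (Fermat.Agent.L.Pivot3.H9.unrCond_of_hU p (n + ∑ j, eP j) hPV.hp hPV.hp2
      (pvC qP qv) (N1 * twC qv) N1 (squarefree_pvC hPV) hPV.dvd (Dvd.intro _ rfl) hPV.hU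
      (pvH qP qv p eP n)
      (fun x => pow_mem_pvH qP qv p eP n x))

end Arith

/-! ## The kernel of reduction is stable under the operators -/

section KPv

variable (N1 : ℕ) (S : Finset ℕ) (p : ℕ) {k : ℕ} (eP : Fin k → ℕ) (n : ℕ) (qP : Fin k → ℕ)
  {r : ℕ} (qv : Fin r → ℕ) [NeZero (N1 * twC qv)] (h2 : 2 ≤ pvC qP qv)
  (hc : pvC qP qv ∣ N1 * twC qv) (P : ValuationSubring Kbar)

theorem opsPv_inl_good {ℓ : ℕ} (hg : GoodTw N1 S qv ℓ) :
    opsPv N1 S p eP n qP qv h2 hc (Sum.inl ℓ)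
      = TzTw (N1 * twC qv) (pvC qP qv) (pvH qP qv p eP n) h2 hc p (jPv p eP n) ℓ := by
  simp only [opsPv, if_pos hg]

theorem opsPv_inl_bad {ℓ : ℕ} (hg : ¬ GoodTw N1 S qv ℓ) :
    opsPv N1 S p eP n qP qv h2 hc (Sum.inl ℓ) = 0 := by
  simp only [opsPv, if_neg hg]

theorem opsPv_U (i : Fin r) :
    opsPv N1 S p eP n qP qv h2 hc (Sum.inr (Sum.inl i))
      = Uz (N1 * twC qv) (pvC qP qv) (pvH qP qv p eP n) h2 hc p (qv i) := rfl

theorem opsPv_dia (u : (ZMod (pvC qP qv))ˣ) :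
    opsPv N1 S p eP n qP qv h2 hc (Sum.inr (Sum.inr u))
      = diaZ (N1 * twC qv) (pvC qP qv) (pvH qP qv p eP n) h2 hc p u := rfl

theorem KUp_opsPv (hprime : ∀ i, (qv i).Prime) (i : IdxTw r (pvC qP qv))
    {x : AHpv N1 p eP n qP qv}
    (hx : x ∈ Fermat.Agent.NEB.Geom.H9.KUp P (N1 * twC qv) (pvC qP qv) (pvH qP qv p eP n)
      h2 hc p) :
    opsPv N1 S p eP n qP qv h2 hc i x
      ∈ Fermat.Agent.NEB.Geom.H9.KUp P (N1 * twC qv) (pvC qP qv) (pvH qP qv p eP n)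
        h2 hc p := by
  rcases i with ℓ | i | u
  · by_cases hg : GoodTw N1 S qv ℓ
    · rw [opsPv_inl_good N1 S p eP n qP qv h2 hc hg]
      exact Fermat.Agent.NEB.Geom.H9.KUp_TzTw hg.1
        (Fermat.Agent.NEB.Geom.H29.not_dvd_level_of_good hg) _ hx
    · rw [opsPv_inl_bad N1 S p eP n qP qv h2 hc hg, LinearMap.zero_apply]
      exact zero_mem _
  · rw [opsPv_U]
    exact Fermat.Agent.NEB.Geom.H9.KUp_Uz (hprime i)
      (show qv i ∣ N1 * twC qv from Dvd.dvd.mul_left (dvd_twC_self qv i) N1) hx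
  · rw [opsPv_dia]
    exact Fermat.Agent.NEB.Geom.H9.KUp_dia hx u

theorem KUp_etaPv (hprime : ∀ i, (qv i).Prime)
    (hcomm : ∀ i j, Commute (opsPv N1 S p eP n qP qv h2 hc i)
      (opsPv N1 S p eP n qP qv h2 hc j))
    (t : PolyTw r (pvC qP qv)) :
    ∀ x : AHpv N1 p eP n qP qv,
      x ∈ Fermat.Agent.NEB.Geom.H9.KUp P (N1 * twC qv) (pvC qP qv) (pvH qP qv p eP n)
        h2 hc p →
      etaPv N1 S p eP n qP qv h2 hc hcomm t x
        ∈ Fermat.Agent.NEB.Geom.H9.KUp P (N1 * twC qv) (pvC qP qv) (pvH qP qv p eP n)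
          h2 hc p := by
  induction t using MvPolynomial.induction_on with
  | C a =>
    intro x hx
    have : etaPv N1 S p eP n qP qv h2 hc hcomm (MvPolynomial.C a)
        = (a : Module.End ℤ (AHpv N1 p eP n qP qv)) := by
      rw [show (MvPolynomial.C a : PolyTw r (pvC qP qv)) = ((a : ℤ) : PolyTw r (pvC qP qv)) from
        (eq_intCast (MvPolynomial.C : ℤ →+* PolyTw r (pvC qP qv)) a), map_intCast]
    rw [this]
    have h1 : (a : Module.End ℤ (AHpv N1 p eP n qP qv)) x = a • x := by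
      rw [← zsmul_one, LinearMap.smul_apply, Module.End.one_apply]
    rw [h1]
    exact zsmul_mem hx a
  | add f g hf hg =>
    intro x hx
    rw [map_add, LinearMap.add_apply]
    exact add_mem (hf x hx) (hg x hx)
  | mul_X f i hf =>
    intro x hx
    rw [map_mul, Module.End.mul_apply]
    have h : etaPv N1 S p eP n qP qv h2 hc hcomm (MvPolynomial.X i)
        = opsPv N1 S p eP n qP qv h2 hc i :=
      polyHom_X _ _ _
    rw [h]
    exact hf _ (KUp_opsPv N1 S p eP n qP qv h2 hc P hprime i hx)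

end KPv

/-! ## P-LG -/

section Main

variable {𝒪 : Type} [CommRing 𝒪] [IsDomain 𝒪] [IsDiscreteValuationRing 𝒪]
  {ϖ : 𝒪} {p : ℕ} {N1 : ℕ} [NeZero N1] {S : Finset ℕ}
  {θ : CuspForm.heckeAlgebra N1 2 (↑S : Set ℕ) →+* ResidueField 𝒪}
  {ρbar : ResidualGaloisRep (ResidueField 𝒪)} {k : ℕ} {eP : Fin k → ℕ} {n : ℕ}
  {qP : Fin k → ℕ} {r : ℕ} {qv : Fin r → ℕ}
  [NeZero (N1 * twC qv)] [NeZero (pvC qP qv)] [NeZero (twLevel N1 qv)]
  [NeZero (pvLevel N1 qP qv)]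

theorem alphaPv_sq_ne_one (D : PvSetup 𝒪 ϖ p N1 S θ ρbar eP n qP qv) (i : Fin r) :
    D.α i ^ 2 ≠ 1 := by
  intro h
  have h1 : D.α i * (D.α i - D.β i) = 0 := by
    rw [mul_sub, D.eig.mul i, ← sq, h, sub_self]
  have hα : D.α i ≠ 0 := fun h0 => by
    have := D.eig.mul i
    rw [h0, zero_mul] at this
    exact zero_ne_one this
  rcases mul_eq_zero.mp h1 with h2 | h2
  · exact hα h2
  · exact D.eig.ne i (sub_eq_zero.mp h2)

/-- `T'_ℓ₀ = T_ℓ₀^H` on the `Δ'`-fixed classes. -/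
theorem etaPv_T_fixed (D : PvSetup 𝒪 ϖ p N1 S θ ρbar eP n qP qv)
    (y : AHpv N1 p eP n qP qv)
    (hy : ∀ u, diaZ (N1 * twC qv) (pvC qP qv) (pvH qP qv p eP n) D.h2 D.hc p u y = y) :
    etaPv N1 S p eP n qP qv D.h2 D.hc D.hcomm (MvPolynomial.X (Sum.inl D.ℓ₀)) y
      = Tz (N1 * twC qv) (pvC qP qv) (pvH qP qv p eP n) D.h2 D.hc p D.ℓ₀ y := by
  have h : etaPv N1 S p eP n qP qv D.h2 D.hc D.hcomm (MvPolynomial.X (Sum.inl D.ℓ₀))
      = TzTw (N1 * twC qv) (pvC qP qv) (pvH qP qv p eP n) D.h2 D.hc p (jPv p eP n) D.ℓ₀ :=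
    (polyHom_X _ _ _).trans (opsPv_inl_good N1 S p eP n qP qv D.h2 D.hc D.hℓ₀)
  rw [h]
  show (Tz (N1 * twC qv) (pvC qP qv) (pvH qP qv p eP n) D.h2 D.hc p D.ℓ₀
    * diaZ (N1 * twC qv) (pvC qP qv) (pvH qP qv p eP n) D.h2 D.hc p
      (Fermat.Agent.NEB.EIG.H39.unitOf (pvC qP qv) D.ℓ₀) ^ (jPv p eP n)) y = _
  rw [Module.End.mul_apply, Fermat.Agent.NEB.Geom.H70.pow_apply_of_fixed _ (hy _)]

/-- The instance of W-LG at the Taylor–Wiles prime `qv i`, on `W'`. -/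
theorem pwlg_inst [Finite (ResidueField 𝒪)] [CharZero 𝒪] [Fact p.Prime] (hϖ : Irreducible ϖ)
    (hpm : (p : 𝒪) ∈ maximalIdeal 𝒪)
    (D : PvSetup 𝒪 ϖ p N1 S θ ρbar eP n qP qv)
    (hsoc : ∀ (i : Fin r) (σ : GalK), σ ∈ (D.P i).inertiaSubgroupIn ℚ →
      ∀ x ∈ Wpv N1 S p eP n qP qv D.h2 D.hc 𝒪 D.hcomm θ D.α, ϖ • x = 0 →
        (∀ u, (diaZ (N1 * twC qv) (pvC qP qv) (pvH qP qv p eP n) D.h2 D.hc p
          u).baseChange 𝒪 x = x) →
        (galZ (N1 * twC qv) (pvC qP qv) (pvH qP qv p eP n) p σ).baseChange 𝒪 x = x)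
    (i : Fin r) (σ : GalK) (hσ : σ ∈ (D.P i).inertiaSubgroupIn ℚ)
    (x : 𝒪 ⊗[ℤ] AHpv N1 p eP n qP qv)
    (hx : x ∈ Wpv N1 S p eP n qP qv D.h2 D.hc 𝒪 D.hcomm θ D.α)
    (hgk : ∃ m : ℕ, ((((galZ (N1 * twC qv) (pvC qP qv) (pvH qP qv p eP n) p (D.frob i) *
        diaZ (N1 * twC qv) (pvC qP qv) (pvH qP qv p eP n) D.h2 D.hc p
          (Fermat.Agent.NEB.Geom.H6.chiC (pvC qP qv) (D.frob i)
            ^ (jPv p eP n + 1))).baseChange 𝒪
        - D.a i • (1 : Module.End 𝒪 (𝒪 ⊗[ℤ] AHpv N1 p eP n qP qv))) ^ m) x = 0)) :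
    (galZ (N1 * twC qv) (pvC qP qv) (pvH qP qv p eP n) p σ).baseChange 𝒪 x = x := by
  have hp0 : (p : 𝒪) ≠ 0 := Nat.cast_ne_zero.mpr (Fact.out : p.Prime).ne_zero
  have hPV := D.hPV
  rw [ValuationSubring.inertiaSubgroupIn, Subgroup.mem_map] at hσ
  obtain ⟨σ', hσ', rfl⟩ := hσ
  refine Fermat.Agent.NEB.Geom.H46.stmt_W_LG 𝒪 ϖ hϖ p hpm hp0
    (AHpv N1 p eP n qP qv) (fun y => isPTors_coe y)
    (Fermat.Agent.NEB.Geom.H9.finite_AH_tors (N1 * twC qv) (pvC qP qv) (pvH qP qv p eP n)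
      D.h2 D.hc p)
    (PolyTw r (pvC qP qv)) (etaPv N1 S p eP n qP qv D.h2 D.hc D.hcomm)
    (thetaPv N1 S qP qv θ D.α)
    (ZMod (pvC qP qv))ˣ (diaZ (N1 * twC qv) (pvC qP qv) (pvH qP qv p eP n) D.h2 D.hc p)
    (n + ∑ j, eP j)
    ?_ ?_ (Fermat.Agent.NEB.Geom.H9.KUp (D.P i) (N1 * twC qv) (pvC qP qv)
      (pvH qP qv p eP n) D.h2 D.hc p) ?_
    ↥((D.P i).decompositionSubgroup ℚ)
    ((galZ (N1 * twC qv) (pvC qP qv) (pvH qP qv p eP n) p).comp (Subgroup.subtype _))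
    ?_ ?_ ((D.P i).inertiaSubgroup ℚ)
    ⟨D.frob i, (D.frob_spec i).mem_decompositionSubgroup⟩
    ?_ ?_ (Fermat.Agent.NEB.Geom.H6.chiC (pvC qP qv) (D.frob i) ^ (jPv p eP n + 1))
    (MvPolynomial.X (Sum.inr (Sum.inl i))) (qv i) (D.a i) ?_ ?_ ?_ ?_ ?_ ?_ σ' hσ' x hx hgk
  · exact fun u => Fermat.Agent.NEB.Geom.H9.diaZ_pow_eq_one (pow_mem_pvH qP qv p eP n u)
  · exact fun u => ⟨MvPolynomial.X (Sum.inr (Sum.inr u)), polyHom_X _ _ _⟩
  · exact fun t y hy => KUp_etaPv N1 S p eP n qP qv D.h2 D.hc (D.P i) hPV.prime D.hcomm t y hy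
  · exact fun g t => D.comm_gal (g : GalK) t
  · exact fun g y hy => Fermat.Agent.NEB.Geom.H9.KUp_gal g.2 hy
  · exact fun τ hτ =>
      (Fermat.Agent.NEB.Geom.H9.normal_inertiaSubgroup (D.P i)).conj_mem τ hτ _
  · exact fun τ hτ y =>
      Fermat.Agent.NEB.Geom.H9.KUp_inertia (Subgroup.mem_map_of_mem _ hτ) y
  · rw [D.ha i, thetaPv_U]
  · exact D.eig.q_one i
  · rw [thetaPv_U]
    exact alphaPv_sq_ne_one D i
  · intro y hyW hyK hyfix
    have e : etaPv N1 S p eP n qP qv D.h2 D.hc D.hcomm (MvPolynomial.X (Sum.inr (Sum.inl i)))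
        = Uz (N1 * twC qv) (pvC qP qv) (pvH qP qv p eP n) D.h2 D.hc p (qv i) :=
      polyHom_X _ _ _
    rw [e]
    haveI : Module.Flat ℤ 𝒪 := flat_int (𝒪 := 𝒪)
    obtain ⟨M, hL, hqM⟩ := Fermat.Agent.NEB.Geom.H70.level_split N1 S p n qv
      (hPV.twHyp (Fin.pos i)) i
    have hqp : qv i ≠ p := fun h => hPV.notS i (h ▸ hPV.hpS)
    have hθU : thetaPv N1 S qP qv θ D.α (MvPolynomial.X (Sum.inr (Sum.inl i)))
        * thetaPv N1 S qP qv θ D.α (MvPolynomial.X (Sum.inr (Sum.inl i))) ≠ 1 := by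
      rw [thetaPv_U, ← sq]
      exact alphaPv_sq_ne_one D i
    have hθT : thetaPv N1 S qP qv θ D.α (MvPolynomial.X (Sum.inl D.ℓ₀))
        ≠ ((D.ℓ₀ : ResidueField 𝒪) + 1) := by
      rw [thetaPv_T N1 S qP qv θ D.α D.hℓ₀]
      exact D.hne
    exact Fermat.Agent.NEB.Geom.H70.wkeyq_gen (N1 * twC qv) (pvC qP qv) (pvH qP qv p eP n)
      D.h2 D.hc p 𝒪 hPV.hp (n + ∑ j, eP j)
      (fun d => Or.inl (pow_mem_pvH qP qv p eP n d)) (hunr_pv hPV) (qv i) M (hPV.prime i) hL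
      hqM hqp D.ℓ₀ D.hℓ₀.1 (Fermat.Agent.NEB.Geom.H29.not_dvd_level_of_good D.hℓ₀) (D.P i)
      (D.P_over i) (D.frob i) (D.frob_spec i)
      (etaPv N1 S p eP n qP qv D.h2 D.hc D.hcomm) (thetaPv N1 S qP qv θ D.α)
      (fun t => D.comm_gal (D.frob i) t)
      (MvPolynomial.X (Sum.inr (Sum.inl i))) (MvPolynomial.X (Sum.inl D.ℓ₀)) e
      (fun y hy => etaPv_T_fixed D y hy) hθU hθT y hyW hyK hyfix
  · intro τ hτ y hyW hy0 hyfix
    exact hsoc i (τ : GalK) (Subgroup.mem_map_of_mem _ hτ) y hyW hy0 hyfix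
  · exact fun m => Fermat.Agent.NEB.Geom.H9.tame_gen (N1 * twC qv) (pvC qP qv)
      (pvH qP qv p eP n) D.h2 D.hc p (qv i) (hPV.prime i) (D.P i) (D.P_over i) (D.frob i)
      (D.frob_spec i) m

/-! ### The untwisting step -/

theorem p_dia_pow_eq (D : PvSetup 𝒪 ϖ p N1 S θ ρbar eP n qP qv) (u : (ZMod (pvC qP qv))ˣ)
    (m : ℕ) : D.dia (u ^ m) = D.dia u ^ m := by
  have h1 : ∀ t, Commute (etaPv N1 S p eP n qP qv D.h2 D.hc D.hcomm t)
      (diaZ (N1 * twC qv) (pvC qP qv) (pvH qP qv p eP n) D.h2 D.hc p u ^ m) :=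
    fun t => (D.comm_dia u t).pow_right m
  have e1 := thetaZ_pow (θ := thetaPv N1 S qP qv θ D.α) (fun t => D.comm_dia u t) m h1
  have e2 := thetaZ_congr (θ := thetaPv N1 S qP qv θ D.α) (fun t => D.comm_dia (u ^ m) t) h1
    (map_pow (diaZ (N1 * twC qv) (pvC qP qv) (pvH qP qv p eP n) D.h2 D.hc p) u m)
  exact e2.trans e1

/-- The twisted Galois operator, with the power inside the diamond operator. -/
theorem galHomPv_eq_mul_dia_pow (D : PvSetup 𝒪 ϖ p N1 S θ ρbar eP n qP qv) (σ : GalK) :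
    D.galHom σ = galZ (N1 * twC qv) (pvC qP qv) (pvH qP qv p eP n) p σ *
      diaZ (N1 * twC qv) (pvC qP qv) (pvH qP qv p eP n) D.h2 D.hc p
        (Fermat.Agent.NEB.Geom.H6.chiC (pvC qP qv) σ ^ (jPv p eP n + 1)) := by
  rw [D.galHom_apply, map_pow]

/-- Powers of `gal'(σ) - a` on `W'` and on the ambient module. -/
theorem galPv_sub_smul_pow_coe (D : PvSetup 𝒪 ϖ p N1 S θ ρbar eP n qP qv) (σ : GalK) (a : 𝒪)
    (m : ℕ) (y : D.WD.W) :
    D.val (((D.gal σ - a • (1 : Module.End 𝒪 D.WD.W)) ^ m) y) =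
    (((galZ (N1 * twC qv) (pvC qP qv) (pvH qP qv p eP n) p σ *
      diaZ (N1 * twC qv) (pvC qP qv) (pvH qP qv p eP n) D.h2 D.hc p
        (Fermat.Agent.NEB.Geom.H6.chiC (pvC qP qv) σ ^ (jPv p eP n + 1))).baseChange 𝒪
      - a • (1 : Module.End 𝒪 (𝒪 ⊗[ℤ] AHpv N1 p eP n qP qv))) ^ m) (D.val y) := by
  have h1 := Fermat.Agent.NEB.Geom.H6.thetaZ_sub_smul_pow_coe
    (θ := thetaPv N1 S qP qv θ D.α) (D.galHom σ) (D.comm_galHom σ) a m y
  have h2 := congrArg (fun g : Module.End ℤ (AHpv N1 p eP n qP qv) =>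
    ((g.baseChange 𝒪
      - a • (1 : Module.End 𝒪 (𝒪 ⊗[ℤ] AHpv N1 p eP n qP qv))) ^ m) (D.val y))
    (galHomPv_eq_mul_dia_pow D σ)
  exact h1.trans h2

/-- **(G)**: `Stmt_P_lg D` from the conclusion of `Stmt_W_LG` at every `i`. -/
theorem p_lg_of_wlg (D : PvSetup 𝒪 ϖ p N1 S θ ρbar eP n qP qv)
    (hW : ∀ i, ∀ σ ∈ (D.P i).inertiaSubgroupIn ℚ,
      ∀ x ∈ Wpv N1 S p eP n qP qv D.h2 D.hc 𝒪 D.hcomm θ D.α,
      (∃ m : ℕ, ((((galZ (N1 * twC qv) (pvC qP qv) (pvH qP qv p eP n) p (D.frob i) *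
          diaZ (N1 * twC qv) (pvC qP qv) (pvH qP qv p eP n) D.h2 D.hc p
            (Fermat.Agent.NEB.Geom.H6.chiC (pvC qP qv) (D.frob i)
              ^ (jPv p eP n + 1))).baseChange 𝒪
          - D.a i • (1 : Module.End 𝒪 (𝒪 ⊗[ℤ] AHpv N1 p eP n qP qv))) ^ m) x = 0)) →
      (galZ (N1 * twC qv) (pvC qP qv) (pvH qP qv p eP n) p σ).baseChange 𝒪 x = x) :
    Stmt_P_lg D := by
  intro i x hx
  have hx' : ∃ m : ℕ, ((D.gal (D.frob i) - D.a i • (1 : Module.End 𝒪 D.WD.W)) ^ m) x = 0 := hx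
  exact Exists.elim hx' (fun m hm => by
    have hy : ((D.gal (D.frob i) - D.a i • (1 : Module.End 𝒪 D.WD.W)) ^ m) (D.d i x) = 0 :=
      Fermat.Agent.NEB.Geom.H6.pow_sub_smul_apply_comm _ _ (p_d_gal D i (D.frob i)) (D.a i) m
        x hm
    have hy' := (galPv_sub_smul_pow_coe D (D.frob i) (D.a i) m (D.d i x)).symm.trans
      (congrArg D.val hy)
    have hfix := hW i (D.σ i) (D.σ_mem i) (D.val (D.d i x)) (D.d i x).2 ⟨m, hy'⟩
    have e : D.gal (D.σ i) x = D.galU (D.σ i) (D.d i x) :=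
      congrArg (fun f : Module.End 𝒪 D.WD.W => f x)
        ((p_gal_eq D (D.σ i)).trans
          (congrArg (fun z => D.galU (D.σ i) * z) (p_dia_pow_eq D _ _).symm))
    exact e.trans (Subtype.ext hfix))

/-- **(E)**: inertia at `qv i` is trivial on `W'[ϖ]^Δ'` (the socle hypothesis of `Stmt_W_LG`),
from P-PI. -/
theorem plg_socle (Dm : MinSetup 𝒪 ϖ p N1 S θ) (D : PvSetup 𝒪 ϖ p N1 S θ ρbar eP n qP qv)
    (hpi : Stmt_P_pi Dm D) (i : Fin r) (σ : GalK) (hσ : σ ∈ (D.P i).inertiaSubgroupIn ℚ)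
    (x : 𝒪 ⊗[ℤ] AHpv N1 p eP n qP qv)
    (hx : x ∈ Wpv N1 S p eP n qP qv D.h2 D.hc 𝒪 D.hcomm θ D.α) (hϖx : ϖ • x = 0)
    (hfix : ∀ u, (diaZ (N1 * twC qv) (pvC qP qv) (pvH qP qv p eP n) D.h2 D.hc p
      u).baseChange 𝒪 x = x) :
    (galZ (N1 * twC qv) (pvC qP qv) (pvH qP qv p eP n) p σ).baseChange 𝒪 x = x := by
  have hq : (qv i).Prime := D.hPV.prime i
  have hqS' : qv i ∉ S := D.hPV.notS i
  have hqN : ¬ qv i ∣ N1 := fun h => hqS' (D.hPV.hNS (qv i) hq h)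
  have hqp : qv i ≠ p := fun h => hqS' (h ▸ D.hPV.hpS)
  have hunr : galZ0 N1 p σ = 1 := Dm.unr (qv i) hq hqN hqp (D.P i) (D.P_over i) σ hσ
  have hgalM : ∀ y : Dm.MD.W, Dm.gal σ y = y := by
    intro y
    have e1 := thetaZ_congr (θ := θ) (Dm.gal_comm σ) (fun t => Commute.one_right _) hunr
    have e2 := e1.trans (thetaZ_one _)
    exact congrArg (fun f : Module.End 𝒪 ↥(thetaPart Dm.ηC θ) => f y) e2
  exact Exists.elim hpi (fun π h1 => Exists.elim h1 (fun πup h2 => by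
    have hinv := h2.2.2.2.1
    have hgalπ := h2.2.2.2.2.2
    have hv : ϖ • (⟨x, hx⟩ : D.WD.W) = 0 := Subtype.ext hϖx
    have hcv : ∀ j, D.c j (⟨x, hx⟩ : D.WD.W) = ⟨x, hx⟩ :=
      fun j => Subtype.ext (hfix (D.δP j))
    have hdv : ∀ i', D.d i' (⟨x, hx⟩ : D.WD.W) = ⟨x, hx⟩ :=
      fun i' => Subtype.ext (hfix (D.δQ i'))
    exact Exists.elim (hinv ⟨x, hx⟩ hv hcv hdv) (fun y hy => by
      have h3 : D.val (πup (Dm.gal σ y))
          = (galZ (N1 * twC qv) (pvC qP qv) (pvH qP qv p eP n) p σ).baseChange 𝒪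
              (D.val (πup y)) :=
        hgalπ σ y
      have h4 : D.val (πup (Dm.gal σ y)) = x :=
        congrArg D.val ((congrArg πup (hgalM y)).trans hy)
      have h5 : D.val (πup y) = x := congrArg D.val hy
      exact (h4.symm.trans (h3.trans (congrArg _ h5))).symm)))

/-- **P-LG**, from P-PI. -/
theorem p_lg [Finite (ResidueField 𝒪)] [CharZero 𝒪] [Fact p.Prime] (hϖ : Irreducible ϖ)
    (hpm : (p : 𝒪) ∈ maximalIdeal 𝒪)
    (Dm : MinSetup 𝒪 ϖ p N1 S θ) (D : PvSetup 𝒪 ϖ p N1 S θ ρbar eP n qP qv)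
    (hPI : Stmt_P_pi Dm D) : Stmt_P_lg D :=
  p_lg_of_wlg D fun i σ hσ x hx hgk =>
    pwlg_inst hϖ hpm D (fun i' τ hτ y hyW hy0 hyfix =>
      plg_socle Dm D hPI i' τ hτ y hyW hy0 hyfix) i σ hσ x hx hgk

end Main

/-- **P-LG** (universally quantified), from P-PI. -/
theorem stmt_P_LG_of (hPI : Stmt_P_PI) : Stmt_P_LG := by
  intro 𝒪 _ _ _ _ _ _ ϖ p _ N1 _ S Smin θ ρbar k Pv eP hstd Dm n r qv _ _ _ _ D
  exact p_lg hstd.hϖ hstd.hyp.hp𝒪 Dm D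
    (hPI 𝒪 ϖ p N1 S Smin θ ρbar k Pv eP hstd Dm n r qv D)

end Fermat.Agent.L.Pivot.Geom.H9

end
end
-- ==== END Fermat.Agent.L.Pivot.Geom.H9_PLG

-- ==== BEGIN Fermat.Agent.L.Pivot.H76_Wire2Final
section

set_option autoImplicit false

open WeierstrassCurve WeierstrassCurve.Affine WeierstrassCurve.Affine.Point
open scoped WeierstrassCurve.Affine

namespace Fermat.Agent.L.Pivot.H76

open Fermat.Agent.L.Pivot Fermat.Agent.S59.Asm

/-- **PV-WIRE2, curve form.** -/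
theorem pivotWCore_of_pivotCoreB (hPC : Stmt_PivotCoreB) : Stmt_PivotWCore5 :=
  pivotWCore_of_core Fermat.Agent.L.Pivot.H3.stmt_CYC Fermat.Agent.S59.Asm.H92.stmt_THETAMIN
    Fermat.Agent.S59.Asm.H80.stmt_EXACTb hPC

/-- **PV-WIRE2, Frey form.** -/
theorem pivotFrey2_of_pivotCoreB (hPC : Stmt_PivotCoreB) : Stmt_PivotFrey2 :=
  pivotFrey2_of (pivotWCore_of_pivotCoreB hPC)

/-- **S43 from S44, Mazur's principle and the PIVOT core.** -/
theorem s43_of_pivotCoreB (h44 : Stmt_S44T) (hNE : Stmt_NonExcFrey2) (hPC : Stmt_PivotCoreB)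
    (P : FreyPackage) {N q : ℕ} (hcond : P.IsConductorLevel N) (hq : q.Prime) (hq2 : q ≠ 2)
    (hqp : q ≠ P.p) (hqN : q ∣ N)
    (hirr : GaloisRepIsIrreducible (K := AlgebraicClosure ℚ) ℚ P.freyCurve P.p)
    (hmod : P.ModularRepOfLevel N) (hunr : P.GaloisRepUnramifiedAt q) :
    ∃ M : ℕ, M ∣ N ∧ ¬ q ∣ M ∧ P.ModularRepOfLevel M :=
  s43_of2 h44 hNE (pivotFrey2_of_pivotCoreB hPC) P hcond hq hq2 hqp hqN hirr hmod hunr

end Fermat.Agent.L.Pivot.H76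

end
-- ==== END Fermat.Agent.L.Pivot.H76_Wire2Final
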