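-- GENERATED (merged mirror, NOTES/tools/trim/merge3_helper67.py): 5 modules of the originals, bodies verbatim.
import Mathlib
import Fermat.Agent.Zm.S43_L16_001
import Fermat.Agent.Zm.S43_L13_001
import Fermat.Agent.Zm.S43_L14_002
import Fermat.Agent.Zm.S43_L14_001
import Fermat.Agent.Zm.S43_L09_001

-- ==== BEGIN Fermat.Agent.NEB.Geom.H14_PiOmega
section

/-!
# Item 72 (LG-NEB), package NEB-GEOM, leaf PI-WIRE (helper14): the isomorphism `ω`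

* `Tz0_eq_resP`, `Uz0_eq_resP` : the operators as restrictions of `U0`;
* `mem_Ytw_iff`     : `Ytw` is cut out by the conditions `InE` of `NEB.OLD` at level `N c`;
* `mem_thetaN_iff`  : the `θ`-part at level `N` is cut out by `InE` at level `N`;
* `exists_omega`    : `NEB.OLD.wOld` in the present setting: an additive map
  `Φ : J₀(N c) → J₀(N)`, Hecke- and Galois-equivariant, inducing a bijection
  `Ytw → thetaPart ηC θ`.
-/

set_option autoImplicit false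
set_option linter.unusedSectionVars false
set_option linter.unusedVariables false
set_option linter.style.haveILetI false

noncomputable section

open ModularCurve AlgebraicCurve IsLocalRing TensorProduct Polynomial

namespace Fermat.Agent.NEB.Geom.H14

open Fermat.Agent.NEB Fermat.Agent.NEB.JH Fermat.Agent.S59.Asm Fermat.Agent.S59.Lim
  Fermat.Agent.S59.Lim.H2 Fermat.Agent.NEB.Geom Fermat.Agent.NEB.OLD

/-! ## The operators as restrictions of `U0` -/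

section Ops

variable (p : ℕ)

theorem Tz0_eq_resP (M ℓ : ℕ) [NeZero M] [NeZero ℓ] (hℓ : ℓ.Prime) (hℓM : ¬ ℓ ∣ M) :
    Tz0 M p ℓ = resP p (U0 M ℓ) := by
  refine LinearMap.ext fun x => Subtype.ext ?_
  rw [Tz0_apply, coe_resP]
  exact (U0_eq_T0_of_not_dvd M ℓ hℓ hℓM _).symm

theorem Uz0_eq_resP (M q : ℕ) [NeZero M] [NeZero q] : Uz0 M p q = resP p (U0 M q) := by
  refine LinearMap.ext fun x => Subtype.ext ?_
  rw [Uz0_apply, coe_resP]

/-- `IsGk` for the realization `realT`, in terms of `resP`. -/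
theorem isGk_Uop_iff (𝒪 : Type) [CommRing 𝒪] (M ℓ : ℕ) [NeZero M] [NeZero ℓ] (hℓ : ℓ.Prime)
    (a : 𝒪) (x : 𝒪 ⊗[ℤ] A0 M p) :
    IsGk (Uop (realT 𝒪 p) M ℓ hℓ) a x ↔
      ∃ n : ℕ, (((resP p (U0 M ℓ)).baseChange 𝒪
        - a • (1 : Module.End 𝒪 (𝒪 ⊗[ℤ] A0 M p))) ^ n) x = 0 := Iff.rfl

end Ops

/-! ## Arithmetic of the Taylor–Wiles primes -/

section Arith

variable {N : ℕ} {S : Finset ℕ} {p n : ℕ} {r : ℕ} {qv : Fin r → ℕ}

theorem qv_not_dvd (h : TwHyp N S p n qv) (j : Fin r) : ¬ qv j ∣ N :=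
  fun hd => h.notS j (h.hNS (qv j) (h.prime j) hd)

theorem qv_not_mem (h : TwHyp N S p n qv) (j : Fin r) : qv j ∉ (↑S : Set ℕ) :=
  fun hS => h.notS j (Finset.mem_coe.mp hS)

theorem goodTw_iff (h : TwHyp N S p n qv) (ℓ : ℕ) :
    GoodTw N S qv ℓ ↔ ℓ.Prime ∧ ¬ ℓ ∣ N ∧ ℓ ∉ (↑S : Set ℕ) ∧ ∀ j, qv j ≠ ℓ := by
  constructor
  · intro hg
    refine ⟨hg.1, hg.not_dvd, hg.not_mem, fun j hj => hg.2.2 ?_⟩
    simp only [twSet, Finset.coe_union, Set.mem_union, Finset.coe_image, Finset.coe_univ,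
      Set.image_univ, Set.mem_range]
    exact Or.inr ⟨j, hj⟩
  · rintro ⟨hℓ, hℓN, hℓS, hne⟩
    refine ⟨hℓ, ?_, ?_⟩
    · intro hd
      unfold twLevel at hd
      rcases (Nat.Prime.dvd_mul hℓ).mp hd with h1 | h1
      · exact hℓN h1
      · obtain ⟨j, -, hj⟩ := (Prime.dvd_finsetProd_iff hℓ.prime _).mp h1
        have h2 : ℓ ∣ qv j := hℓ.dvd_of_dvd_pow hj
        exact hne j ((Nat.prime_dvd_prime_iff_eq hℓ (h.prime j)).mp h2).symm
    · simp only [twSet, Finset.coe_union, Set.mem_union, Finset.coe_image, Finset.coe_univ,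
        Set.image_univ, Set.mem_range, not_or, not_exists]
      exact ⟨hℓS, hne⟩

end Arith

/-! ## The two `θ`-parts as `InE`-sets -/

section Ident

variable {𝒪 : Type} [CommRing 𝒪] [IsDomain 𝒪] [IsDiscreteValuationRing 𝒪]
  {p : ℕ} {N : ℕ} [NeZero N] {S : Finset ℕ} {n : ℕ} {r : ℕ} {qv : Fin r → ℕ}
  [NeZero (N * twC qv)]

set_option maxHeartbeats 1000000 in
/-- `Ytw` in terms of `InE`. -/
theorem mem_Ytw_iff (hp0 : (p : 𝒪) ≠ 0) (hTW : TwHyp N S p n qv)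
    (hcomm0 : ∀ i j, Commute (opsTw0 N S p qv i) (opsTw0 N S p qv j))
    (θ : CuspForm.heckeAlgebra N 2 (↑S : Set ℕ) →+* ResidueField 𝒪)
    (α : Fin r → ResidueField 𝒪) (x : 𝒪 ⊗[ℤ] A0 (N * twC qv) p) :
    x ∈ Ytw 𝒪 N S p qv hcomm0 θ α ↔
      InE (realT 𝒪 p) (N * twC qv) {ℓ | GoodTw N S qv ℓ} (cFun θ) x ∧
        InE (realT 𝒪 p) (N * twC qv) {q | q ∈ List.ofFn qv} (aFun qv α) x := by
  classical
  have hX : ∀ i, etaTw0 N S p qv hcomm0 (MvPolynomial.X i) = opsTw0 N S p qv i :=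
    fun i => polyHom_X _ _ _
  have hθ : ∀ i, thetaTw N S qv θ α (MvPolynomial.X i) = thetaVal N S qv θ α i :=
    fun i => MvPolynomial.eval₂Hom_X' _ _ _
  constructor
  · intro hx
    rw [Ytw, mem_thetaPart] at hx
    constructor
    · intro ℓ hℓ hg
      haveI : NeZero ℓ := ⟨hℓ.ne_zero⟩
      have hg' : GoodTw N S qv ℓ := hg
      have hres : residue 𝒪 (cFun θ ℓ) = thetaTw N S qv θ α (MvPolynomial.X (Sum.inl ℓ)) := by
        rw [hθ]
        show _ = (if h : GoodTw N S qv ℓ then _ else _)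
        rw [dif_pos hg']
        exact residue_cFun θ hg'.1 hg'.not_dvd hg'.not_mem
      obtain ⟨m, hm⟩ := hx (MvPolynomial.X (Sum.inl ℓ)) (cFun θ ℓ) hres
      have e : etaTw0 N S p qv hcomm0 (MvPolynomial.X (Sum.inl ℓ))
          = resP p (U0 (N * twC qv) ℓ) :=
        ((hX _).trans (H29.opsTw0_inl_good N S p qv hg')).trans
          (Tz0_eq_resP p (N * twC qv) ℓ hℓ (H29.not_dvd_level_of_good hg'))
      rw [e] at hm
      have key := (isGk_Uop_iff p 𝒪 (N * twC qv) ℓ hℓ (cFun θ ℓ) x).mpr ⟨m, hm⟩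
      exact key
    · intro q hq hmem
      haveI : NeZero q := ⟨hq.ne_zero⟩
      obtain ⟨j, rfl⟩ := (List.mem_ofFn' qv q).mp hmem
      have hres : residue 𝒪 (aFun qv α (qv j))
          = thetaTw N S qv θ α (MvPolynomial.X (Sum.inr (Sum.inl j))) := by
        rw [hθ]
        exact residue_aFun hTW.inj α j
      obtain ⟨m, hm⟩ := hx (MvPolynomial.X (Sum.inr (Sum.inl j))) (aFun qv α (qv j)) hres
      have e : etaTw0 N S p qv hcomm0 (MvPolynomial.X (Sum.inr (Sum.inl j)))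
          = resP p (U0 (N * twC qv) (qv j)) :=
        (hX _).trans (Uz0_eq_resP p (N * twC qv) (qv j))
      rw [e] at hm
      have key := (isGk_Uop_iff p 𝒪 (N * twC qv) (qv j) hq (aFun qv α (qv j)) x).mpr ⟨m, hm⟩
      exact key
  · rintro ⟨h1, h2⟩
    rw [Ytw]
    refine (mem_thetaPart_iff_gens _ _ (Set.range MvPolynomial.X) (closure_range_X _) x
      (tors_ptors hp0 x)).mpr ?_
    rintro _ ⟨i, rfl⟩
    rcases i with ℓ | j | u
    · by_cases hg : GoodTw N S qv ℓ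
      · haveI : NeZero ℓ := ⟨hg.1.ne_zero⟩
        refine ⟨cFun θ ℓ, ?_, ?_⟩
        · rw [hθ]
          show _ = (if h : GoodTw N S qv ℓ then _ else _)
          rw [dif_pos hg]
          exact residue_cFun θ hg.1 hg.not_dvd hg.not_mem
        · have key := h1 ℓ hg.1 hg
          obtain ⟨m, hm⟩ := (isGk_Uop_iff p 𝒪 (N * twC qv) ℓ hg.1 (cFun θ ℓ) x).mp key
          refine ⟨m, ?_⟩
          have e : etaTw0 N S p qv hcomm0 (MvPolynomial.X (Sum.inl ℓ))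
              = resP p (U0 (N * twC qv) ℓ) :=
            ((hX _).trans (H29.opsTw0_inl_good N S p qv hg)).trans
              (Tz0_eq_resP p (N * twC qv) ℓ hg.1 (H29.not_dvd_level_of_good hg))
          rw [e]
          exact hm
      · refine ⟨0, ?_, 1, ?_⟩
        · rw [hθ, map_zero]
          show _ = (if h : GoodTw N S qv ℓ then _ else _)
          rw [dif_neg hg]
        · have e : etaTw0 N S p qv hcomm0 (MvPolynomial.X (Sum.inl ℓ)) = 0 :=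
            (hX _).trans (H29.opsTw0_inl_bad N S p qv hg)
          rw [e, LinearMap.baseChange_zero, zero_smul, pow_one]
          simp only [LinearMap.sub_apply, LinearMap.zero_apply, sub_self]
    · have hq : (qv j).Prime := hTW.prime j
      haveI : NeZero (qv j) := ⟨hq.ne_zero⟩
      refine ⟨aFun qv α (qv j), ?_, ?_⟩
      · rw [hθ]
        exact residue_aFun hTW.inj α j
      · have key := h2 (qv j) hq ((List.mem_ofFn' qv _).mpr ⟨j, rfl⟩)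
        obtain ⟨m, hm⟩ := (isGk_Uop_iff p 𝒪 (N * twC qv) (qv j) hq (aFun qv α (qv j)) x).mp key
        refine ⟨m, ?_⟩
        have e : etaTw0 N S p qv hcomm0 (MvPolynomial.X (Sum.inr (Sum.inl j)))
            = resP p (U0 (N * twC qv) (qv j)) :=
          (hX _).trans (Uz0_eq_resP p (N * twC qv) (qv j))
        rw [e]
        exact hm
    · refine ⟨1, ?_, 1, ?_⟩
      · rw [hθ, map_one]
        rfl
      · have e : etaTw0 N S p qv hcomm0 (MvPolynomial.X (Sum.inr (Sum.inr u))) = 1 := hX _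
        rw [e, baseChange_one_eq, one_smul, pow_one]
        simp only [LinearMap.sub_apply, sub_self]

set_option maxHeartbeats 1000000 in
/-- The `θ`-part at level `N` in terms of `InE`. -/
theorem mem_thetaN_iff (hp0 : (p : 𝒪) ≠ 0) (hTW : TwHyp N S p n qv)
    (θ : CuspForm.heckeAlgebra N 2 (↑S : Set ℕ) →+* ResidueField 𝒪)
    (ηC : CuspForm.heckeAlgebra N 2 (↑S : Set ℕ) →+* Module.End ℤ (A0 N p))
    (hηC : ∀ (ℓ : ℕ) (hℓ : ℓ.Prime) (hℓN : ¬ ℓ ∣ N) (hℓS : ℓ ∉ (↑S : Set ℕ)),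
      ηC (CuspForm.heckeAlgebra.T hℓ hℓN hℓS) = Tz0 N p ℓ)
    (x : 𝒪 ⊗[ℤ] A0 N p) :
    x ∈ thetaPart ηC θ ↔
      InE (realT 𝒪 p) N ({ℓ | GoodTw N S qv ℓ} ∪ {q | q ∈ List.ofFn qv}) (cFun θ) x := by
  classical
  constructor
  · intro hx ℓ hℓ hmem
    haveI : NeZero ℓ := ⟨hℓ.ne_zero⟩
    have hN : ¬ ℓ ∣ N ∧ ℓ ∉ (↑S : Set ℕ) := by
      rcases hmem with hg | hq
      · exact ⟨GoodTw.not_dvd hg, GoodTw.not_mem hg⟩
      · obtain ⟨j, rfl⟩ := (List.mem_ofFn' qv ℓ).mp hq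
        exact ⟨qv_not_dvd hTW j, qv_not_mem hTW j⟩
    obtain ⟨m, hm⟩ := mem_thetaPart.mp hx (CuspForm.heckeAlgebra.T hℓ hN.1 hN.2) (cFun θ ℓ)
      (residue_cFun θ hℓ hN.1 hN.2)
    rw [hηC, Tz0_eq_resP p N ℓ hℓ hN.1] at hm
    have key := (isGk_Uop_iff p 𝒪 N ℓ hℓ (cFun θ ℓ) x).mpr ⟨m, hm⟩
    exact key
  · intro hx
    refine (mem_thetaPart_iff_gens _ _ (heckeTSet N (↑S : Set ℕ))
      (closure_heckeT (fun q hq hqN => Finset.mem_coe.mpr (hTW.hNS q hq hqN))) x (tors_ptors hp0 x)).mpr ?_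
    rintro _ ⟨ℓ, hℓ, hℓN, hℓS, rfl⟩
    haveI : NeZero ℓ := ⟨hℓ.ne_zero⟩
    have hmem : ℓ ∈ ({ℓ | GoodTw N S qv ℓ} ∪ {q | q ∈ List.ofFn qv} : Set ℕ) := by
      by_cases hq : ∃ j, qv j = ℓ
      · exact Or.inr ((List.mem_ofFn' qv ℓ).mpr hq)
      · exact Or.inl ((goodTw_iff hTW ℓ).mpr ⟨hℓ, hℓN, hℓS, fun j hj => hq ⟨j, hj⟩⟩)
    have key := hx ℓ hℓ hmem
    obtain ⟨m, hm⟩ := (isGk_Uop_iff p 𝒪 N ℓ hℓ (cFun θ ℓ) x).mp key
    refine ⟨cFun θ ℓ, residue_cFun θ hℓ hℓN hℓS, m, ?_⟩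
    rw [hηC, Tz0_eq_resP p N ℓ hℓ hℓN]
    exact hm

set_option maxHeartbeats 1000000 in
/-- **The isomorphism `ω`** (`NEB.OLD.wOld` in the present setting). -/
theorem exists_omega (hp0 : (p : 𝒪) ≠ 0) (hTW : TwHyp N S p n qv)
    (hcomm0 : ∀ i j, Commute (opsTw0 N S p qv i) (opsTw0 N S p qv j))
    (θ : CuspForm.heckeAlgebra N 2 (↑S : Set ℕ) →+* ResidueField 𝒪)
    (α β : Fin r → ResidueField 𝒪) (hE : TwEig 𝒪 N S qv θ α β)
    (ηC : CuspForm.heckeAlgebra N 2 (↑S : Set ℕ) →+* Module.End ℤ (A0 N p))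
    (hηC : ∀ (ℓ : ℕ) (hℓ : ℓ.Prime) (hℓN : ¬ ℓ ∣ N) (hℓS : ℓ ∉ (↑S : Set ℕ)),
      ηC (CuspForm.heckeAlgebra.T hℓ hℓN hℓS) = Tz0 N p ℓ) :
    ∃ Φ : JZero (N * twC qv) →+ JZero N,
      (∀ (ℓ : ℕ) [NeZero ℓ], GoodTw N S qv ℓ →
        ∀ y, Φ (U0 (N * twC qv) ℓ y) = U0 N ℓ (Φ y)) ∧
      (∀ (σ : _root_.Fermat.Agent.NEB.Geom.GalQ) (y : JZero (N * twC qv)), Φ (σ • y) = σ • Φ y) ∧
      (∀ v ∈ Ytw 𝒪 N S p qv hcomm0 θ α, (resP p Φ).baseChange 𝒪 v ∈ thetaPart ηC θ) ∧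
      (∀ x ∈ thetaPart ηC θ, ∃ v ∈ Ytw 𝒪 N S p qv hcomm0 θ α,
        (resP p Φ).baseChange 𝒪 v = x) ∧
      (∀ v ∈ Ytw 𝒪 N S p qv hcomm0 θ α, (resP p Φ).baseChange 𝒪 v = 0 → v = 0) := by
  classical
  have hnd : (List.ofFn qv).Nodup := List.nodup_ofFn.mpr hTW.inj
  have hqs : ∀ q ∈ List.ofFn qv, q.Prime ∧ ¬ q ∣ N := by
    intro q hq
    obtain ⟨j, rfl⟩ := (List.mem_ofFn' qv q).mp hq
    exact ⟨hTW.prime j, qv_not_dvd hTW j⟩
  have hS : ∀ ℓ ∈ ({ℓ | GoodTw N S qv ℓ} : Set ℕ),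
      ℓ.Prime ∧ ℓ ∉ List.ofFn qv ∧ ¬ ℓ ^ 2 ∣ N := by
    intro ℓ hℓ
    have hg : GoodTw N S qv ℓ := hℓ
    refine ⟨hg.1, fun hmem => ?_, fun hd => hg.not_dvd (dvd_trans (dvd_pow_self ℓ two_ne_zero) hd)⟩
    obtain ⟨j, hj⟩ := (List.mem_ofFn' qv ℓ).mp hmem
    exact ((goodTw_iff hTW ℓ).mp hg).2.2.2 j hj
  have ha : ∀ q ∈ List.ofFn qv,
      residue 𝒪 (aFun qv α q) ≠ residue 𝒪 (aFun qv β q) ∧
      residue 𝒪 (aFun qv α q) * residue 𝒪 (aFun qv β q) = 1 ∧ residue 𝒪 (q : 𝒪) = 1 ∧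
      residue 𝒪 (cFun θ q) = residue 𝒪 (aFun qv α q) + residue 𝒪 (aFun qv β q) := by
    intro q hq
    obtain ⟨j, rfl⟩ := (List.mem_ofFn' qv q).mp hq
    rw [residue_aFun hTW.inj α j, residue_aFun hTW.inj β j,
      residue_cFun θ (hTW.prime j) (qv_not_dvd hTW j) (qv_not_mem hTW j), map_natCast]
    exact ⟨hE.ne j, hE.mul j, hE.q_one j,
      hE.add j (hTW.prime j) (qv_not_dvd hTW j) (qv_not_mem hTW j)⟩
  have hQ : N * twC qv = N * (List.ofFn qv).prod := by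
    rw [List.prod_ofFn]
    rfl
  obtain ⟨Φ, h1, h2, h3, h4, h5⟩ := wOld (𝒪 := 𝒪) p (dvr_nil hp0) N (List.ofFn qv) hnd hqs
    {ℓ | GoodTw N S qv ℓ} hS (cFun θ) (aFun qv α) (aFun qv β) ha (N * twC qv) hQ
  refine ⟨Φ, ?_, h2, ?_, ?_, ?_⟩
  · intro ℓ _ hg y
    exact h1 ℓ hg.1 (hS ℓ hg).2.1 (hS ℓ hg).2.2 y
  · intro v hv
    obtain ⟨hv1, hv2⟩ := (mem_Ytw_iff hp0 hTW hcomm0 θ α v).mp hv
    have key := h3 v hv1 hv2
    exact (mem_thetaN_iff hp0 hTW θ ηC hηC _).mpr key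
  · intro x hx
    have key := (mem_thetaN_iff (qv := qv) hp0 hTW θ ηC hηC x).mp hx
    obtain ⟨v, hv1, hv2, hvx⟩ := h4 x key
    exact ⟨v, (mem_Ytw_iff hp0 hTW hcomm0 θ α v).mpr ⟨hv1, hv2⟩, hvx⟩
  · intro v hv hv0
    obtain ⟨hv1, hv2⟩ := (mem_Ytw_iff hp0 hTW hcomm0 θ α v).mp hv
    exact h5 v hv1 hv2 hv0

end Ident

end Fermat.Agent.NEB.Geom.H14

end
end
-- ==== END Fermat.Agent.NEB.Geom.H14_PiOmega

-- ==== BEGIN Fermat.Agent.NEB.Geom.H15_APIof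
section

/-!
# Item 72 (LG-NEB), package NEB-GEOM, leaf A-PI-of (helper15): `Stmt_PI_WIRE → Stmt_A_PI`

The wiring of helper14's `Stmt_PI_WIRE` (`DefsWD.lean`) into the assembly statement `Stmt_A_PI`
(`AsmTop.lean`).

* `coe_nmTot_thetaZ` : the total norm of the restrictions `thetaZ θ (d j)` is the restriction of
  the total norm of the base changes;
* `dia_fix_all` : an element of `𝒪 ⊗ J_H[p^∞]` fixed by the `⟨δ_j⟩` is fixed by all the diamond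
  operators (`(ℤ/c)ˣ = H · ⟨δ_j⟩`, `⟨h⟩ = 1` for `h ∈ H`);
* `mem_twSet_of_dvd` : the primes dividing the Taylor–Wiles level are in the Taylor–Wiles set;
* `stmt_A_PI_of : H14.Stmt_A_PI_of`.
-/

set_option autoImplicit false
set_option linter.unusedSectionVars false
set_option linter.unusedVariables false
set_option linter.style.haveILetI false
set_option synthInstance.maxHeartbeats 400000
set_option maxHeartbeats 1000000

noncomputable section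

open ModularCurve AlgebraicCurve IsLocalRing TensorProduct Polynomial

namespace Fermat.Agent.NEB.Geom.H15

open Fermat.Agent.NEB Fermat.Agent.NEB.JH Fermat.Agent.S59.Asm Fermat.Agent.S59.Lim
  Fermat.Agent.S59.Lim.H2 Fermat.Agent.NEB.Geom

/-! ## The total norm on the `θ`-part -/

section GenTheta

variable {𝒪 : Type} [CommRing 𝒪] [IsLocalRing 𝒪] {𝕋 : Type} [CommRing 𝕋]
  {A : Type} [AddCommGroup A]

theorem coe_nmTot_thetaZ (η : 𝕋 →+* Module.End ℤ A) (θ : 𝕋 →+* ResidueField 𝒪) (m : ℕ) :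
    ∀ {r : ℕ} (d : Fin r → Module.End ℤ A) (hd : ∀ j t, Commute (η t) (d j))
      (x : ↥(thetaPart η θ)),
      ((Fermat.Agent.S59.TWH.H90.nmTot m (fun j => thetaZ θ (d j) (hd j)) x :
          ↥(thetaPart η θ)) : 𝒪 ⊗[ℤ] A)
        = Fermat.Agent.S59.TWH.H90.nmTot m (fun j => (d j).baseChange 𝒪) x.1 := by
  intro r
  induction r with
  | zero =>
    intro d hd x
    rw [Fermat.Agent.S59.TWH.H90.nmTot_zero, Fermat.Agent.S59.TWH.H90.nmTot_zero]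
    rfl
  | succ r ih =>
    intro d hd x
    rw [Fermat.Agent.S59.TWH.H90.nmTot_succ, Fermat.Agent.S59.TWH.H90.nmTot_succ,
      Module.End.mul_apply, Module.End.mul_apply,
      Fermat.Agent.NEB.Geom.H94.coe_nm_thetaZ,
      ih (fun j => d j.succ) (fun j => hd j.succ) x,
      Fermat.Agent.S59.TWH.H90.nm_apply]

end GenTheta

/-! ## Elements fixed by the `⟨δ_j⟩` are fixed by all the diamond operators -/

section Dia

variable (𝒪 : Type) [CommRing 𝒪]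
variable {N : ℕ} {S : Finset ℕ} {p n : ℕ} {r : ℕ} {qv : Fin r → ℕ}

theorem dia_fix_all (hyp : TwHyp N S p n qv) [NeZero (N * twC qv)] (h2 : 2 ≤ twC qv)
    {δ : Fin r → (ZMod (twC qv))ˣ} (hδ : IsDeltaGen p n qv δ)
    (v : 𝒪 ⊗[ℤ] AH (N * twC qv) (twC qv) (twH p n qv) p)
    (hv : ∀ j, (diaZ (N * twC qv) (twC qv) (twH p n qv) h2 (dvd_mul_left _ _) p
      (δ j)).baseChange 𝒪 v = v)
    (u : (ZMod (twC qv))ˣ) :
    (diaZ (N * twC qv) (twC qv) (twH p n qv) h2 (dvd_mul_left _ _) p u).baseChange 𝒪 v = v := by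
  haveI : ∀ j, Finite (ZMod (qv j))ˣ := fun j =>
    Fermat.Agent.NEB.Geom.H29.finite_units_of_prime (hyp.prime j)
  haveI : ∀ j, IsCyclic (ZMod (qv j))ˣ := fun j =>
    Fermat.Agent.NEB.Geom.H29.isCyclic_units_of_prime (hyp.prime j)
  obtain ⟨s, y, hu⟩ := (Fermat.Agent.NEB.Geom.H29.twHyp_isGenFam hyp hδ).exists_decomp
    (Fermat.Agent.NEB.Geom.H29.twHyp_dvd_card hyp) u
  -- the stabiliser of `v`
  let F : Submonoid (ZMod (twC qv))ˣ :=
    { carrier := {w | (diaZ (N * twC qv) (twC qv) (twH p n qv) h2 (dvd_mul_left _ _) p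
        w).baseChange 𝒪 v = v}
      one_mem' := by
        show (diaZ (N * twC qv) (twC qv) (twH p n qv) h2 (dvd_mul_left _ _) p
          1).baseChange 𝒪 v = v
        rw [map_one, baseChange_one_eq]
        rfl
      mul_mem' := by
        intro a b ha hb
        show (diaZ (N * twC qv) (twC qv) (twH p n qv) h2 (dvd_mul_left _ _) p
          (a * b)).baseChange 𝒪 v = v
        rw [map_mul, baseChange_mul_eq, Module.End.mul_apply]
        rw [show (diaZ (N * twC qv) (twC qv) (twH p n qv) h2 (dvd_mul_left _ _) p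
          b).baseChange 𝒪 v = v from hb]
        exact ha }
  have hF : u ∈ F := by
    rw [hu]
    refine F.mul_mem ?_ (F.prod_mem fun j _ => F.pow_mem (hv j) _)
    show (diaZ (N * twC qv) (twC qv) (twH p n qv) h2 (dvd_mul_left _ _) p
      (y ^ p ^ n)).baseChange 𝒪 v = v
    rw [Fermat.Agent.NEB.Geom.H9.diaZ_eq_one_of_mem (N * twC qv) (twC qv) (twH p n qv) h2
      (dvd_mul_left _ _) p (u := y ^ p ^ n) ⟨y, rfl⟩, baseChange_one_eq]
    rfl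
  exact hF

end Dia

/-! ## The primes of the Taylor–Wiles level -/

theorem mem_twSet_of_dvd {N : ℕ} {S : Finset ℕ} {r : ℕ} {qv : Fin r → ℕ}
    (hNS : ∀ q : ℕ, q.Prime → q ∣ N → q ∈ S) (hqv : ∀ j, (qv j).Prime)
    (q : ℕ) (hq : q.Prime) (hqN : q ∣ twLevel N qv) : q ∈ (↑(twSet S qv) : Set ℕ) := by
  by_cases h : q ∣ N
  · exact Fermat.Agent.S59.Asm.H41.subset_twSet S qv (Finset.mem_coe.mpr (hNS q hq h))
  · exact Fermat.Agent.S59.Asm.H41.new_prime_mem_twSet N S qv hqv q hq hqN h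

/-! ## Intertwining is a subring condition -/

section Inter

variable {𝒪 T T' W W' : Type*} [CommRing 𝒪] [Ring T] [Ring T'] [AddCommGroup W] [Module 𝒪 W]
  [AddCommGroup W'] [Module 𝒪 W']

/-- The `t` such that `π ∘ η t = η' (rest t) ∘ π`. -/
def interSub (π : W →ₗ[𝒪] W') (η : T →+* Module.End 𝒪 W) (η' : T' →+* Module.End 𝒪 W')
    (rest : T →+* T') : Subring T where
  carrier := {t | ∀ v, π (η t v) = η' (rest t) (π v)}
  one_mem' := fun v => by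
    rw [map_one, map_one, map_one]
    rfl
  mul_mem' := fun {x y} hx hy v => by
    rw [map_mul, map_mul, map_mul, Module.End.mul_apply, Module.End.mul_apply, hx, hy]
  zero_mem' := fun v => by
    rw [map_zero, map_zero, map_zero, LinearMap.zero_apply, LinearMap.zero_apply, map_zero]
  add_mem' := fun {x y} hx hy v => by
    rw [map_add, map_add, map_add, LinearMap.add_apply, LinearMap.add_apply, map_add, hx v,
      hy v]
  neg_mem' := fun {x} hx v => by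
    rw [map_neg, map_neg, map_neg, LinearMap.neg_apply, LinearMap.neg_apply, map_neg, hx v]

theorem mem_interSub {π : W →ₗ[𝒪] W'} {η : T →+* Module.End 𝒪 W}
    {η' : T' →+* Module.End 𝒪 W'} {rest : T →+* T'} {t : T} :
    t ∈ interSub π η η' rest ↔ ∀ v, π (η t v) = η' (rest t) (π v) := Iff.rfl

end Inter

/-! ## The wiring -/

/-- **A-PI-of**: `Stmt_PI_WIRE → Stmt_A_PI`. -/
theorem stmt_A_PI_of : Fermat.Agent.NEB.Geom.H14.Stmt_A_PI_of := by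
  intro hW 𝒪 _ _ _ _ _ _ ϖ p _ N _ S θ ρbar hstd Dm n r qv _ _ _ D
  obtain ⟨π, πup, h1, h2, h3, h4, h5, h6⟩ :=
    hW 𝒪 ϖ hstd.hϖ p hstd.hpm N S n r qv D.hTW D.h2 D.hcomm θ D.α D.β D.eig Dm.ηC Dm.ηC_T
      Dm.gal_comm D.δ D.hδ D.ℓ₀ D.hℓ₀ D.hne
  unfold Stmt_A_pi
  refine ⟨π, πup, h1, fun x => Subtype.ext ?_, fun j y => Subtype.ext ?_, fun v hv hd => ?_,
    ?_, fun σ y => h6 σ y⟩
  · -- `πup ∘ π` is the total norm
    refine (h2 x).trans ?_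
    exact (coe_nmTot_thetaZ (etaTw N S p n qv D.h2 D.hcomm) (thetaTw N S qv θ D.α) (p ^ n)
      (fun j => diaZ (N * twC qv) (twC qv) (twH p n qv) D.h2 (dvd_mul_left _ _) p (D.δ j))
      (fun j t => D.comm_dia (D.δ j) t) x).symm
  · -- `πup y` is fixed by the `d_j`
    exact h3 (D.δ j) y
  · -- INV
    refine h4 v hv fun u => ?_
    exact dia_fix_all 𝒪 D.hTW D.h2 D.hδ _ (fun j => congrArg Subtype.val (hd j)) u
  · -- Hecke equivariance of `π`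
    have hS : ∀ q : ℕ, q.Prime → q ∣ twLevel N qv → q ∈ (↑(twSet S qv) : Set ℕ) :=
      mem_twSet_of_dvd D.hTW.hNS D.hTW.prime
    have key : ∀ t, t ∈ interSub (W := ↥(Wtw 𝒪 N S p n qv D.h2 D.hcomm θ D.α))
        (W' := ↥(thetaPart Dm.ηC θ)) π D.η (thetaEta Dm.ηC θ)
        (Fermat.Agent.S59.Asm.H41.restTW N S qv D.hTW.prime) := by
      refine Fermat.Agent.NEB.EIG.H39.hecke_induction hS ?_ (fun k => intCast_mem _ k)
        (fun x y hx hy => add_mem hx hy) (fun x y hx hy => mul_mem hx hy)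
      intro ℓ hℓ hℓN hℓS
      rw [mem_interSub]
      intro v
      have hg : GoodTw N S qv ℓ := ⟨hℓ, hℓN, hℓS⟩
      rw [Fermat.Agent.S59.Asm.H41.restTW_T N S qv D.hTW.prime ℓ hℓ hℓN hℓS hg.not_dvd
        hg.not_mem, D.η_T ℓ hℓ hℓN hℓS]
      exact h5 ℓ hg v
    exact fun t v => key t v

end Fermat.Agent.NEB.Geom.H15

end
end
-- ==== END Fermat.Agent.NEB.Geom.H15_APIof

-- ==== BEGIN Fermat.Agent.NEB.Geom.H29_ESGen
section

/-!
# NEB-GEOM / PV-GEOM: the Eichler–Shimura relation on a `θ`-part, general form (helper29)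

`es_gen`: for `(M, c, H)` with `(ℤ/c)ˣ / H` of exponent `p ^ E` (`2 j + 1 = p ^ E`) and
`F_H(M) / F₀(M)` unramified, a commutative ring `𝕋` acting on `J_H[p^∞]` through `η` (containing
the diamond operators, the twisted operator `T'_ℓ = T_ℓ ⟨ℓ⟩^j` and an Eisenstein element
`t₀ ↦ T_ℓ₀ - (ℓ₀ + 1)` with `θ t₀ ≠ 0`, commuting with Galois): the twisted Frobenius
`g = σ ⟨χ_c σ⟩^(j+1)` satisfies `g² - T'_ℓ g + ℓ = 0` on the `θ`-part of `𝒪 ⊗ J_H[p^∞]`.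

This is the proof of `a_es` (`H29_AES.lean`) with the Taylor–Wiles data abstracted; it is used
for the pivot module `W'` (P-ES).
-/

set_option autoImplicit false
set_option linter.unusedSectionVars false
set_option linter.unusedVariables false
set_option linter.style.haveILetI false

noncomputable section

open ModularCurve AlgebraicCurve IsLocalRing TensorProduct Polynomial

namespace Fermat.Agent.NEB.Geom.H29

open Fermat.Agent.NEB Fermat.Agent.NEB.JH Fermat.Agent.S59.Asm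
  Fermat.Agent.S59.Lim Fermat.Agent.S59.Lim.H2 Fermat.Agent.NEB.Geom

section ESGen

variable (M c : ℕ) [NeZero M] [NeZero c] (H : Subgroup (ZMod c)ˣ) (h2 : 2 ≤ c) (hc : c ∣ M)
  (p : ℕ)

/-- The kernel of reduction `K_P ∩ J_H[p^∞]` at the place `P`. -/
def KZgen (P : ValuationSubring Kbar) : AddSubgroup (AH M c H p) :=
  (Fermat.Agent.NEB.Geom.H70.KU P p (diamondData M c H h2 hc)).comap
    (ptors p (JH M c H)).subtype

/-- The diamond operators are killed by `p ^ E` if `(ℤ/c)ˣ / H` is. -/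
theorem diaZ_pow_of_exp (E : ℕ) (hexp : ∀ d : (ZMod c)ˣ, d ^ (p ^ E) ∈ H) (u : (ZMod c)ˣ) :
    diaZ M c H h2 hc p u ^ (p ^ E) = 1 := by
  rw [← map_pow]
  refine LinearMap.ext fun x => Subtype.ext ?_
  rw [diaZ_apply, ((diamondData M c H h2 hc).ker (u ^ (p ^ E))).2 (Or.inl (hexp u)), one_smul]
  rfl

/-- The Eisenstein operator `T_ℓ₀ - (ℓ₀ + 1)` on the underlying classes. -/
theorem coe_eis_gen (ℓ₀ : ℕ) [NeZero ℓ₀] (x : AH M c H p) :
    (((Tz M c H h2 hc p ℓ₀ - ((ℓ₀ + 1 : ℕ) : ℤ) • (1 : Module.End ℤ (AH M c H p))) x :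
        AH M c H p) : JH M c H)
      = TH (heckeData M c ℓ₀ H h2 hc).hβ (x : JH M c H) - (ℓ₀ + 1) • (x : JH M c H) := by
  rw [← Tz_apply M c H h2 hc p ℓ₀ x, ← natCast_zsmul (x : JH M c H) (ℓ₀ + 1)]
  rfl

/-- FIX for the kernel of reduction at a place over a prime `ℓ ∤ M p`. -/
theorem fix_KZgen [Fact p.Prime] (E : ℕ) (hexp : ∀ d : (ZMod c)ˣ, d ^ (p ^ E) ∈ H)
    (hunr : ∀ w : Place Kbar ↥(FHbar M c H),
      ∃ x : ↥(modularFunctionFieldBar M), w.ord (inclBar M c H x) = 1)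
    (ℓ₀ : ℕ) (hℓ₀ : ℓ₀.Prime) (hℓ₀M : ¬ ℓ₀ ∣ M)
    (ℓ : ℕ) (hℓ : ℓ.Prime) (hℓM : ¬ ℓ ∣ M) (hℓp : ℓ ≠ p)
    (P : ValuationSubring Kbar) (hP : P.LiesOverPrime ℓ)
    (x : AH M c H p) (hx : x ∈ KZgen M c H h2 hc p P)
    (hfix : ∀ u, diaZ M c H h2 hc p u x = x) :
    (Tz M c H h2 hc p ℓ₀ - ((ℓ₀ + 1 : ℕ) : ℤ) • (1 : Module.End ℤ (AH M c H p))) x = 0 := by
  haveI : NeZero ℓ₀ := ⟨hℓ₀.ne_zero⟩
  have hp : p.Prime := Fact.out
  apply Subtype.ext
  rw [coe_eis_gen]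
  have hxK : Fermat.Agent.NEB.Geom.H70.InKU P p (heckeData M c ℓ₀ H h2 hc).dd
      (x : JH M c H) := hx
  have hK := ((hxK.TH (heckeData M c ℓ₀ H h2 hc) h2 hc hℓ₀ hℓ₀M).sub
      (hxK.nsmul (ℓ₀ + 1))).inK1
  exact Fermat.Agent.NEB.Geom.H70.fix' M c H p hp h2 hc (NeZero.ne _) E
    (fun d => Or.inl (hexp d)) hunr ℓ₀ hℓ₀ hℓ₀M (heckeData M c ℓ₀ H h2 hc)
    P ℓ hℓ hℓM hℓp hP (x : JH M c H) x.2
    (fun d => congrArg Subtype.val (hfix d)) hK

variable {𝒪 : Type} [CommRing 𝒪] [IsDomain 𝒪] [IsDiscreteValuationRing 𝒪]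
  {𝕋 : Type} [CommRing 𝕋]

set_option maxHeartbeats 1000000 in
/-- **Eichler–Shimura on the `θ`-part**, `ℤ`-level form. -/
theorem es_gen [Finite (ResidueField 𝒪)] [Fact p.Prime] (ϖ : 𝒪) (hϖ : Irreducible ϖ)
    (hpm : (p : 𝒪) ∈ maximalIdeal 𝒪) (hp0 : (p : 𝒪) ≠ 0)
    (η : 𝕋 →+* Module.End ℤ (AH M c H p)) (θ : 𝕋 →+* ResidueField 𝒪)
    (E j : ℕ) (hj : 2 * j + 1 = p ^ E) (hexp : ∀ d : (ZMod c)ˣ, d ^ (p ^ E) ∈ H)
    (hunr : ∀ w : Place Kbar ↥(FHbar M c H),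
      ∃ x : ↥(modularFunctionFieldBar M), w.ord (inclBar M c H x) = 1)
    (hdia : ∀ u, ∃ z : 𝕋, η z = diaZ M c H h2 hc p u)
    (hgal : ∀ t σ, Commute (η t) (galZ M c H p σ))
    (ℓ₀ : ℕ) (hℓ₀ : ℓ₀.Prime) (hℓ₀M : ¬ ℓ₀ ∣ M) (t₀ : 𝕋)
    (ht₀ : η t₀ = Tz M c H h2 hc p ℓ₀ - ((ℓ₀ + 1 : ℕ) : ℤ) • (1 : Module.End ℤ (AH M c H p)))
    (hθ₀ : θ t₀ ≠ 0)
    (ℓ : ℕ) (hℓ : ℓ.Prime) (hℓM : ¬ ℓ ∣ M) (hℓp : ℓ ≠ p)
    (tℓ : 𝕋) (htℓ : η tℓ = TzTw M c H h2 hc p j ℓ)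
    (P : ValuationSubring Kbar) (hP : P.LiesOverPrime ℓ) (σ : _root_.Fermat.Agent.NEB.Geom.GalQ)
    (hσ : P.IsFrobeniusAt σ ℓ) :
    ∀ x ∈ thetaPart η θ,
      ((galTw M c H h2 hc p j σ * galTw M c H h2 hc p j σ - η tℓ * galTw M c H h2 hc p j σ
        + ℓ • (1 : Module.End ℤ (AH M c H p))).baseChange 𝒪) x = 0 := by
  have hp : p.Prime := Fact.out
  have hcop : c.Coprime ℓ :=
    Nat.Coprime.symm ((Nat.Prime.coprime_iff_not_dvd hℓ).2 fun h => hℓM (h.trans hc))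
  have hχ : Fermat.Agent.NEB.Geom.H6.chiC c σ = Fermat.Agent.NEB.EIG.H39.unitOf c ℓ := by
    rw [Fermat.Agent.NEB.Geom.H6.chiC_frob_unit c ℓ hℓ hcop P hP σ hσ]
    unfold Fermat.Agent.NEB.EIG.H39.unitOf
    rw [dif_pos hcop.symm]
  have hucoe : ((Fermat.Agent.NEB.EIG.H39.unitOf c ℓ : (ZMod c)ˣ) : ZMod c) = (ℓ : ZMod c) :=
    Fermat.Agent.NEB.EIG.H39.unitOf_coe hcop.symm
  have hd1 : diaZ M c H h2 hc p (Fermat.Agent.NEB.EIG.H39.unitOf c ℓ) ^ (2 * j + 1) = 1 := by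
    rw [hj]
    exact diaZ_pow_of_exp M c H h2 hc p E hexp _
  have hdg : Commute (diaZ M c H h2 hc p (Fermat.Agent.NEB.EIG.H39.unitOf c ℓ))
      (galZ M c H p σ) :=
    commute_diaZ_galZ _ _ _ h2 hc p _ σ
  -- the `ℤ`-level identity
  have hEq : galTw M c H h2 hc p j σ * galTw M c H h2 hc p j σ
      - η tℓ * galTw M c H h2 hc p j σ
      + ℓ • (1 : Module.End ℤ (AH M c H p))
      = esOp M c H h2 hc p ℓ (Fermat.Agent.NEB.EIG.H39.unitOf c ℓ) σ := by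
    rw [htℓ, ← natCast_zsmul]
    unfold galTw
    rw [hχ]
    exact es_ring_identity _ _ _ _ j hdg hd1
  -- commutation with `η`
  have hcd : ∀ t u, Commute (η t) (diaZ M c H h2 hc p u) := by
    intro t u
    obtain ⟨z, hz⟩ := hdia u
    rw [← hz]
    exact (Commute.all t z).map η
  have hG : ∀ t, Commute (η t) (galTw M c H h2 hc p j σ) := by
    intro t
    unfold galTw
    exact (hgal t σ).mul_right ((hcd t _).pow_right _)
  have hcommE : ∀ t, Commute (η t) (esOp M c H h2 hc p ℓ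
      (Fermat.Agent.NEB.EIG.H39.unitOf c ℓ) σ) := by
    intro t
    rw [← hEq]
    have hT : Commute (η t) (η tℓ) := (Commute.all t _).map η
    refine Commute.add_right (Commute.sub_right ((hG t).mul_right (hG t))
      (hT.mul_right (hG t))) ?_
    exact (Commute.one_right _).smul_right _
  -- the fixed-point lemma
  have hE0 := Fermat.Agent.NEB.Geom.H12.stmt_W_ES 𝒪 ϖ hϖ p hpm hp0
    (AH M c H p) (fun x => isPTors_coe x)
    (finite_AH_p M c H h2 hc p)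
    𝕋 η θ
    (ZMod c)ˣ (diaZ M c H h2 hc p) E
    (fun u => diaZ_pow_of_exp M c H h2 hc p E hexp u)
    hdia
    (KZgen M c H h2 hc p P) t₀ hθ₀
    (fun x hx hfix => by
      rw [ht₀]
      exact fix_KZgen M c H h2 hc p E hexp hunr ℓ₀ hℓ₀ hℓ₀M ℓ hℓ hℓM hℓp P hP x hx hfix)
    (esOp M c H h2 hc p ℓ (Fermat.Agent.NEB.EIG.H39.unitOf c ℓ) σ)
    hcommE
    (fun x => esOp_inKU M c H h2 hc p ℓ hℓ hℓM _ hucoe P hP σ hσ x)
  rw [hEq]
  exact hE0

end ESGen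

end Fermat.Agent.NEB.Geom.H29

end
end
-- ==== END Fermat.Agent.NEB.Geom.H29_ESGen

-- ==== BEGIN Fermat.Agent.NEB.Geom.H67_PiUpInj
section

/-!
# Item 72 (LG-NEB), package NEB-GEOM, leaf PI-UPINJ (helper67)

`stmt_PI_UPINJ : H14.Stmt_PI_UPINJ`: `π^* : Ytw → Wtw` is injective.
The kernel of `π^*` is Eisenstein (last clause of `Stmt_TOWER_INST`); kernels commute with the
flat base change (`H2.exists_of_baseChange_eq_zero`); the Eisenstein operator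
`t₀ = X_ℓ₀ - (ℓ₀ + 1)` is bijective on the `θ⁺`-part (`H94.stmt_W_unit`).
-/

set_option autoImplicit false
set_option linter.unusedSectionVars false
set_option linter.unusedVariables false
set_option linter.style.haveILetI false

noncomputable section

open ModularCurve AlgebraicCurve IsLocalRing TensorProduct Polynomial

namespace Fermat.Agent.NEB.Geom.H67

open Fermat.Agent.NEB Fermat.Agent.NEB.JH Fermat.Agent.S59.Asm Fermat.Agent.S59.Lim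
  Fermat.Agent.S59.Lim.H2 Fermat.Agent.NEB.Geom

/-- a good prime at the Taylor–Wiles level does not divide `N c` -/
theorem goodTw_not_dvd {N : ℕ} {S : Finset ℕ} {r : ℕ} {qv : Fin r → ℕ} {ℓ : ℕ}
    (h : GoodTw N S qv ℓ) : ¬ ℓ ∣ N * twC qv := by
  intro hd
  apply h.2.1
  have h1 : N * twC qv ∣ twLevel N qv := by
    unfold twLevel twC
    refine mul_dvd_mul_left N ?_
    rw [Finset.prod_pow]
    exact Dvd.intro _ (sq _).symm
  exact hd.trans h1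

section Gen

variable {𝒪 : Type} [CommRing 𝒪] [Module.Flat ℤ 𝒪] {A : Type} [AddCommGroup A]
  {A' : Type} [AddCommGroup A']

/-- an operator killing `ker f` has a base change killing `ker f_𝒪` (`𝒪` flat over `ℤ`) -/
theorem baseChange_eq_zero_of_ker (f : A →ₗ[ℤ] A') (g : Module.End ℤ A)
    (h : ∀ x, f x = 0 → g x = 0) (y : 𝒪 ⊗[ℤ] A) (hy : f.baseChange 𝒪 y = 0) :
    g.baseChange 𝒪 y = 0 := by
  obtain ⟨z, rfl⟩ := exists_of_baseChange_eq_zero f hy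
  have hz : g ∘ₗ (LinearMap.ker f).subtype = 0 :=
    LinearMap.ext fun x => h x.1 x.2
  have h2 : (g ∘ₗ (LinearMap.ker f).subtype).baseChange 𝒪 = 0 := by
    rw [hz]
    exact LinearMap.baseChange_zero
  rw [LinearMap.baseChange_comp] at h2
  exact congrArg (fun F => F z) h2

end Gen

section Eis0

variable (N : ℕ) (S : Finset ℕ) (p : ℕ) {r : ℕ} (qv : Fin r → ℕ)

/-- The Eisenstein element `X_ℓ₀ - (ℓ₀ + 1)` of `𝕋⁺` (level `Γ₀(N c)`). -/
def tEisPoly0 (ℓ₀ : ℕ) : PolyTw r (twC qv) :=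
  MvPolynomial.X (Sum.inl ℓ₀) - ((ℓ₀ + 1 : ℕ) : PolyTw r (twC qv))

variable [NeZero (N * twC qv)]

theorem etaTw0_tEisPoly0
    (hcomm0 : ∀ i j, Commute (opsTw0 N S p qv i) (opsTw0 N S p qv j))
    (ℓ₀ : ℕ) (hℓ₀ : GoodTw N S qv ℓ₀) :
    etaTw0 N S p qv hcomm0 (tEisPoly0 qv ℓ₀)
      = Tz0 (N * twC qv) p ℓ₀
        - ((ℓ₀ + 1 : ℕ) : ℤ) • (1 : Module.End ℤ (A0 (N * twC qv) p)) := by
  classical
  have hX : etaTw0 N S p qv hcomm0 (MvPolynomial.X (Sum.inl ℓ₀))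
      = Tz0 (N * twC qv) p ℓ₀ := by
    refine (polyHom_X _ _ _).trans ?_
    show (if GoodTw N S qv ℓ₀ then _ else _) = _
    rw [if_pos hℓ₀]
  unfold tEisPoly0
  rw [map_sub, hX, map_natCast, zsmul_one, Int.cast_natCast]

theorem thetaTw_tEisPoly0 {k : Type} [Field k] [NeZero N]
    (θ : CuspForm.heckeAlgebra N 2 (↑S : Set ℕ) →+* k) (α : Fin r → k)
    (ℓ₀ : ℕ) (hℓ₀ : GoodTw N S qv ℓ₀) :
    thetaTw N S qv θ α (tEisPoly0 qv ℓ₀) =
      θ (CuspForm.heckeAlgebra.T hℓ₀.1 hℓ₀.not_dvd hℓ₀.not_mem) - ((ℓ₀ : k) + 1) := by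
  classical
  have h2 : thetaVal N S qv θ α (Sum.inl ℓ₀)
      = θ (CuspForm.heckeAlgebra.T hℓ₀.1 hℓ₀.not_dvd hℓ₀.not_mem) := by
    show (if h : GoodTw N S qv ℓ₀ then _ else _) = _
    rw [dif_pos hℓ₀]
  unfold tEisPoly0 thetaTw
  rw [map_sub, MvPolynomial.eval₂Hom_X', map_natCast, h2, Nat.cast_add, Nat.cast_one]

end Eis0

/-- **PI-UPINJ**. -/
theorem stmt_PI_UPINJ : H14.Stmt_PI_UPINJ := by
  intro 𝒪 _ _ _ _ _ ϖ hϖ p _ hpm N _ S n r qv hTW _ h2 hT hcomm0 θ α δ hδ ℓ₀ hℓ₀ hne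
    y hy hy0
  obtain ⟨-, -, -, -, -, hker⟩ := hT hTW δ hδ ℓ₀ hℓ₀.1 (goodTw_not_dvd hℓ₀)
  haveI : Module.Flat ℤ 𝒪 := flat_int
  have hη := etaTw0_tEisPoly0 N S p qv hcomm0 ℓ₀ hℓ₀
  have hθ : thetaTw N S qv θ α (tEisPoly0 qv ℓ₀) ≠ 0 := by
    rw [thetaTw_tEisPoly0 N S qv θ α ℓ₀ hℓ₀]
    exact sub_ne_zero.mpr hne
  have h0 : (etaTw0 N S p qv hcomm0 (tEisPoly0 qv ℓ₀)).baseChange 𝒪 y = 0 := by
    refine baseChange_eq_zero_of_ker (upZ (N * twC qv) (twC qv) (twH p n qv) p)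
      (etaTw0 N S p qv hcomm0 (tEisPoly0 qv ℓ₀)) (fun x hx => ?_) y hy0
    rw [hη]
    exact hker x hx
  have hbij := H94.stmt_W_unit 𝒪 (A0 (N * twC qv) p) (PolyTw r (twC qv))
    (etaTw0 N S p qv hcomm0) (thetaTw N S qv θ α) (tEisPoly0 qv ℓ₀) hθ
  have h1 : thetaEta (etaTw0 N S p qv hcomm0) (thetaTw N S qv θ α) (tEisPoly0 qv ℓ₀)
      ⟨y, hy⟩ = 0 := Subtype.ext h0
  have h2 := hbij.1 (h1.trans (map_zero _).symm)
  exact congrArg Subtype.val h2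

end Fermat.Agent.NEB.Geom.H67

end
end
-- ==== END Fermat.Agent.NEB.Geom.H67_PiUpInj

-- ==== BEGIN Fermat.Agent.NEB.Geom.H6_AMinFinal
section

/-!
# NEB-GEOM: W-MD and A-MIN, unconditional (helper6, with helper26's `H26.stmt_W_MD_of`)

* `stmt_N2 : H26.Stmt_N2` (from `nontrivial_thetaPart_of_functional`);
* `stmt_W_MD : Stmt_W_MD`;
* `stmt_A_MIN : Stmt_A_MIN`.
-/

set_option autoImplicit false

noncomputable section

open IsLocalRing TensorProduct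

namespace Fermat.Agent.NEB.Geom.H6

open Fermat.Agent.S59.Lim Fermat.Agent.S59.Lim.H2 Fermat.Agent.NEB.Geom

/-- **N2**, in helper26's form. -/
theorem stmt_N2 : Fermat.Agent.NEB.Geom.H26.Stmt_N2 :=
  fun _ _ _ _ _ _ hpm hp0 _ _ _ _ _ hB η θ μ hμ x₀ hx₀ =>
    nontrivial_thetaPart_of_functional hpm hp0 hB η θ μ hμ x₀ hx₀

/-- **Leaf W-MD**, unconditional. -/
theorem stmt_W_MD : Stmt_W_MD := Fermat.Agent.NEB.Geom.H26.stmt_W_MD_of stmt_N2

/-- **Leaf A-MIN**, unconditional. -/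
theorem stmt_A_MIN : Stmt_A_MIN := stmt_A_MIN_of stmt_W_MD

end Fermat.Agent.NEB.Geom.H6

end
end
-- ==== END Fermat.Agent.NEB.Geom.H6_AMinFinal
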