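-- GENERATED (merged mirror, NOTES/tools/trim/merge3_helper67.py): 1 modules of the originals, bodies verbatim.
import Fermat.Agent.Zm.S43_L15_001
import Fermat.Agent.Zm.S43_L14_002
import Fermat.Agent.Zm.S43_L09_001
import Fermat.Agent.Zm.S33_L05_001
import Fermat.Agent.Zm.S33_L04_001
import Fermat.Agent.Zm.S33_L12_000
import Fermat.Agent.S33

-- ==== BEGIN Fermat.Agent.S59.NonMin.H7_CondOrdFinal
section

set_option autoImplicit false

open Polynomial IsLocalRing CuspForm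

namespace Fermat.Agent.S59.NonMin.H7

open Fermat.Agent.R Fermat.Agent.S59 Fermat.Agent.S59.Datum

/-- S32 at the points, from the frozen S19. -/
theorem stmt_FlatPoint : Stmt_FlatPoint :=
  Fermat.Agent.S32.H86.stmt_FlatPoint_of_S19
    (fun N _ ℓ _ hℓN k => Fermat.Agent.S19.result N ℓ hℓN k)

/-- **ORD-T**: a Hecke–Galois datum over the full local Hecke ring of a level prime to `p` is
ordinary at `p` if the residual representation is. -/
theorem stmt_ORDT : Fermat.Agent.S59.CaseC.Stmt_ORDT := by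
  intro 𝒪 _ _ _ _ _ _ p _ hp2 hp𝒪 ρbar _ _ hord N _ _ S hpS hNS hpN θ H _ _ hequiv
  have hp : p.Prime := Fact.out
  have hres : (GaloisRepAdic.ofResidualGaloisRep H.ρ.residual).IsOrdinaryAt p := by
    obtain ⟨e⟩ := hequiv
    exact resOrd_of_isEquiv ⟨e.symm⟩ p (resOrd_baseChangeAlong _ ρbar p hord)
  exact ordinary_of_flat stmt_FlatPoint Fermat.Agent.S33.H86.stmt_FlatOrd H2.stmt_SepT_final
    Fermat.Agent.Lib.FrobDensity.stmt_FD H2.stmt_CycInertia H2.stmt_FrobCyc hp hp2 hp𝒪 hpS hpN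
    hNS H hres

/-- **COND-ord** from the frozen S33 for the full local Hecke ring. -/
theorem stmt_CONDord_of (hOrdD : Stmt_OrdDatum) : Stmt_CONDord :=
  stmt_CONDord_core Asm.H7.stmt_UnrDatum Asm.H7.stmt_UnipDatum hOrdD stmt_FlatPoint
    Fermat.Agent.S33.H86.stmt_FlatOrd H2.stmt_SepT_final Fermat.Agent.Lib.FrobDensity.stmt_FD
    H2.stmt_CycInertia H2.stmt_FrobCyc

/-- **COND-ord** from the frozen type of S33. -/
theorem stmt_CONDord_of_S33 (h : Fermat.Agent.S59.CaseC.Stmt_S33) : Stmt_CONDord :=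
  stmt_CONDord_of fun _ _ _ _ _ _ _ _ hp hp2 hp𝒪 _ _ _ _ hN hNS _ H hres =>
    h hp hp2 hp𝒪 hN hNS H hres

/-- **COND-ord** from S33 at the points. -/
theorem stmt_CONDord_of_ordPoint (hOrd : Stmt_OrdPoint) : Stmt_CONDord :=
  stmt_CONDord_of (stmt_OrdDatum_of_ordPoint hOrd)

/-- **COND-ord** from the `p`-new case of S33 at the points. -/
theorem stmt_CONDord_of_ordNew (hNew : Fermat.Agent.R.Stmt_OrdNew) : Stmt_CONDord :=
  stmt_CONDord_of_ordPoint
    (Fermat.Agent.S33.H86.ordPoint_of_flatPoint_ordNew stmt_FlatPoint hNew)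

/-- The frozen S33 for the full local Hecke ring. -/
theorem stmt_OrdDatum : Stmt_OrdDatum :=
  fun _ _ _ _ _ _ _ _ hp hp2 hp𝒪 _ _ _ _ hN hNS _ H hres =>
    Fermat.Agent.S33.result hp hp2 hp𝒪 hN hNS H hres

/-- **COND-ord**, unconditional. -/
theorem stmt_CONDord : Stmt_CONDord := stmt_CONDord_of stmt_OrdDatum

end Fermat.Agent.S59.NonMin.H7

end
-- ==== END Fermat.Agent.S59.NonMin.H7_CondOrdFinal
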