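-- GENERATED (merged mirror, NOTES/tools/trim/merge3_helper67.py): 5 modules of the originals, bodies verbatim.
import Fermat.Agent.Zm.S43_L01_000
import Fermat.Agent.Zm.S43_L04_002
import Fermat.Agent.Zm.S43_L02_000
import Fermat.Agent.Zm.S43_L17_000
import Fermat.Agent.Zm.S43_L17_001
import Fermat.Agent.Zm.S43_L09_000
import Fermat.Agent.Zm.S43_L17_002
import Fermat.Agent.Zm.S43_L10_001
import Fermat.Agent.Zm.S43_L11_001
import Fermat.Agent.Zm.S43_L07_001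
import Fermat.Agent.Zm.S43_L14_000
import Fermat.Agent.Zm.S43_L07_000
import Fermat.Agent.Zm.S43_L02_001
import Fermat.Agent.Zm.S43_L06_002
import Fermat.Agent.Zm.S43_L10_000
import Fermat.Agent.Zm.S43_L13_000
import Fermat.Agent.Zm.S43_L14_001
import Fermat.Agent.Zm.S43_L05_002
import Fermat.Agent.Zm.S56_L21_000

-- ==== BEGIN Fermat.Agent.L.Pivot.Geom.H50_NewJ0
section

/-!
# PIVOT, PV-GEOM part II, leaf PVG-N2 (helper50): `Stmt_NewJ0`

* `newJ0_of : S35.H89.Stmt_TorsNU M q p → BAD.Stmt_TorsUnip M p → Geom.H81.Stmt_B2Beta M q →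
  Stmt_NewJ0 M q p`.

Proof.  Coordinatised Tate systems `C`, `C'` of `J₀(M q)`, `J₀(M)` in parabolic bases `b`, `b'`,
with the integer matrices `Aα`, `Aβ` of `cor1`, `cor2` (helper81's `exists_pushSpec_of_beta`).
The coordinates `v` of `Φ` lie in the new eigenspace `E_new = newSub C Aα Aβ a ≠ 0`, the
coordinates `w ≠ 0` of `Φ'` are an eigenvector at the level `M`; `newJ0_core` concludes.
-/

set_option autoImplicit false
set_option linter.unusedSectionVars false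
set_option linter.unusedVariables false
set_option linter.style.haveILetI false

open IsLocalRing

noncomputable section

namespace Fermat.Agent.L.Pivot.Geom.H50

open AlgebraicCurve ModularCurve CongruenceSubgroup Fermat.Agent.GTor Fermat.Agent.GTor.H81
  Fermat.Agent.Betti Fermat.Agent.S41 Fermat.Agent.S36.H44 Fermat.Agent.S35.H89

local notation "Kb" => AlgebraicClosure ℚ

/-- a local domain with `0 ≠ p ∈ 𝔪` has characteristic zero. -/
theorem charZero_of_mem_maximalIdeal {𝒪 : Type*} [CommRing 𝒪] [IsDomain 𝒪] [IsLocalRing 𝒪]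
    {p : ℕ} (hp : p.Prime) (hpm : (p : 𝒪) ∈ maximalIdeal 𝒪) (hp0 : (p : 𝒪) ≠ 0) :
    CharZero 𝒪 := by
  obtain ⟨c, hc⟩ := CharP.exists 𝒪
  rcases CharP.char_is_prime_or_zero 𝒪 c with hcp | hc0
  · exfalso
    by_cases hcpe : c = p
    · subst hcpe
      exact hp0 (CharP.cast_eq_zero 𝒪 c)
    · have hco : Nat.Coprime p c := (Nat.coprime_primes hp hcp).2 (Ne.symm hcpe)
      have hI : IsCoprime (p : ℤ) (c : ℤ) := Nat.isCoprime_iff_coprime.2 hco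
      obtain ⟨u, v, huv⟩ := hI
      have h1 := congrArg (Int.cast : ℤ → 𝒪) huv
      push_cast at h1
      rw [CharP.cast_eq_zero 𝒪 c, mul_zero, add_zero] at h1
      have hu : IsUnit (p : 𝒪) := IsUnit.of_mul_eq_one _ (by rw [mul_comm]; exact h1)
      exact (mem_maximalIdeal _).1 hpm hu
  · subst hc0
    exact CharP.charP_to_charZero 𝒪

/-- **PVG-N2**: `Stmt_NewJ0` from (NU), (UNIP) at the level `M` and (B-2) for `β`. -/
theorem newJ0_of {M q p : ℕ} [NeZero M] [NeZero q] (hNU : Stmt_TorsNU M q p)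
    (hU : Fermat.Agent.BAD.Stmt_TorsUnip M p)
    (hBβ : Fermat.Agent.L.Pivot.Geom.H81.Stmt_B2Beta M q) : Stmt_NewJ0 M q p := by
  intro hq hqM hq2 hp hqp S 𝒪 _ _ _ _ hp𝒪 hp0 L _ _ hinj a Φ hΦ0 hΦpar hΦeig hΦ1 hΦ2
    Φ' hΦ'0 hΦ'par hΦ'eig
  haveI : Fact p.Prime := ⟨hp⟩
  haveI : CharZero 𝒪 := charZero_of_mem_maximalIdeal hp hp𝒪 hp0
  haveI : CharZero L := charZero_of_injective_algebraMap hinj
  -- the set of primes
  let S₂ : Finset ℕ := insert p (S ∪ (M * q).primeFactors)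
  have hMq0 : M * q ≠ 0 := Nat.mul_ne_zero (NeZero.ne M) (NeZero.ne q)
  have hNS : ∀ l : ℕ, l.Prime → l ∣ M * q → l ∈ S₂ := fun l hl hd =>
    Finset.mem_insert_of_mem (Finset.mem_union_right _ (Nat.mem_primeFactors.2 ⟨hl, hd, hMq0⟩))
  have hS₂S : ∀ l : ℕ, l ∉ (↑S₂ : Set ℕ) → l ∉ S := fun l hl h =>
    hl (Finset.mem_coe.2 (Finset.mem_insert_of_mem (Finset.mem_union_left _ h)))
  have hS₂p : ∀ l : ℕ, l ∉ (↑S₂ : Set ℕ) → l ≠ p := fun l hl h =>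
    hl (Finset.mem_coe.2 (by rw [h]; exact Finset.mem_insert_self p _))
  have halg : Algebra.IsAlgebraic ℚ Kb := AlgebraicClosure.isAlgebraic ℚ
  obtain ⟨ι⟩ : Nonempty (Kb →+* ℂ) := ⟨((IsAlgClosed.lift : Kb →ₐ[ℚ] ℂ) : Kb →+* ℂ)⟩
  obtain ⟨C, C', b, b', Aα, Aβ, hb, hb', -, -, hT, hT', hα, hβ, hpα, hpβ, hkα, hkβ⟩ :=
    Fermat.Agent.L.Pivot.Geom.H81.exists_pushSpec_of_beta M q p (↑S₂ : Set ℕ) hp
      (fun l hl h => Finset.mem_coe.2 (hNS l hl h)) ι hBβ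
  -- the coordinates
  obtain ⟨v, hv⟩ := exists_coordR hb Φ hΦpar
  obtain ⟨w, hw⟩ := exists_coordR hb' Φ' hΦ'par
  have hv0 : v ≠ 0 := by
    rintro rfl
    exact hΦ0 (by rw [hv, coordR_zero])
  have hw0 : w ≠ 0 := by
    rintro rfl
    exact hΦ'0 (by rw [hw, coordR_zero])
  have hveig : ∀ (ℓ : ℕ) (hℓ : ℓ.Prime) (hℓN : ¬ ℓ ∣ M * q) (hℓS : ℓ ∉ (↑S₂ : Set ℕ)),
      ((C.M (CuspForm.heckeAlgebra.T hℓ hℓN hℓS)).map (Int.cast : ℤ → L)).mulVec v = a ℓ • v := by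
    intro ℓ hℓ hℓN hℓS
    have h1 := hΦeig ℓ hℓ hℓN (hS₂S ℓ hℓS) (hS₂p ℓ hℓS)
    rw [hv, TB_coordR L hℓ hℓN _ (hT ℓ hℓ hℓN hℓS), ← coordR_smul] at h1
    exact coordR_injective hb h1
  have hweig : ∀ (ℓ : ℕ) (hℓ : ℓ.Prime) (hℓN : ¬ ℓ ∣ M) (hℓNq : ¬ ℓ ∣ M * q)
      (hℓS : ℓ ∉ (↑S₂ : Set ℕ)),
      ((C'.M (CuspForm.heckeAlgebra.T hℓ hℓN hℓS)).map (Int.cast : ℤ → L)).mulVec w = a ℓ • w := by
    intro ℓ hℓ hℓN hℓNq hℓS
    have h1 := hΦ'eig ℓ hℓ hℓN hℓNq (hS₂S ℓ hℓS) (hS₂p ℓ hℓS)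
    rw [hw, TB_coordR L hℓ hℓN _ (hT' ℓ hℓ hℓN hℓS), ← coordR_smul] at h1
    exact coordR_injective hb' h1
  have hvα : (Aα.map (Int.cast : ℤ → L)).mulVec v = 0 := by
    have h1 : corAlong L (inclG M q) (coordR b L v) = 0 := by rw [← hv]; exact hΦ1
    rw [corAlong_coordR L (inclG M q) Aα hα] at h1
    exact coordR_eq_zero hb' h1
  have hvβ : (Aβ.map (Int.cast : ℤ → L)).mulVec v = 0 := by
    have h1 : corAlong L (conjG M q) (coordR b L v) = 0 := by rw [← hv]; exact hΦ2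
    rw [corAlong_coordR L (conjG M q) Aβ hβ] at h1
    exact coordR_eq_zero hb' h1
  refine newJ0_core hNS hq hqM hq2 hqp hNU hU Aα Aβ hpα hpβ hkα hkβ hp𝒪 hp0 hinj a ?_ w hw0 hweig
  intro h
  have hmem : v ∈ newSub C Aα Aβ a := ⟨hveig, hvα, hvβ⟩
  rw [h, Submodule.mem_bot] at hmem
  exact hv0 hmem

end Fermat.Agent.L.Pivot.Geom.H50

end
end
-- ==== END Fermat.Agent.L.Pivot.Geom.H50_NewJ0

-- ==== BEGIN Fermat.Agent.NEB.Geom.H14_OmegaGen
section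

/-!
# Item 72 / 66 (helper14): the isomorphism `ω`, generic form

The same as `H14.exists_omega`, for an arbitrary commuting family `ops : ι → End_ℤ J₀(N c)[p^∞]`
with values `vals : ι → k`, such that every index is of one of the four kinds
`(T_ℓ, θ(T_ℓ))` (`ℓ` good), `(U_{q_j}, α_j)`, `(0, 0)`, `(1, 1)`, and all `T_ℓ`, `U_{q_j}` occur;
the hypotheses on the Taylor–Wiles primes are the four fields `inj`, `prime`, `notS`, `hNS` of
`TwHyp` (no `0 < r`, no congruence condition).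

* `IsOmegaFam`, `mem_thetaPoly_iff`, `mem_thetaN_iff'`, `exists_omega_gen`.
-/

set_option autoImplicit false
set_option linter.unusedSectionVars false
set_option linter.unusedVariables false
set_option linter.style.haveILetI false

noncomputable section

open ModularCurve AlgebraicCurve IsLocalRing TensorProduct Polynomial

namespace Fermat.Agent.NEB.Geom.H14

open Fermat.Agent.NEB Fermat.Agent.NEB.JH Fermat.Agent.S59.Asm Fermat.Agent.S59.Lim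
  Fermat.Agent.S59.Lim.H2 Fermat.Agent.NEB.Geom Fermat.Agent.NEB.OLD

section Arith

variable {N : ℕ} {S : Finset ℕ} {r : ℕ} {qv : Fin r → ℕ}

theorem goodTw_iff' (hprime : ∀ j, (qv j).Prime) (ℓ : ℕ) :
    GoodTw N S qv ℓ ↔ ℓ.Prime ∧ ¬ ℓ ∣ N ∧ ℓ ∉ (↑S : Set ℕ) ∧ ∀ j, qv j ≠ ℓ := by
  constructor
  · intro hg
    refine ⟨hg.1, hg.not_dvd, hg.not_mem, fun j hj => hg.2.2 ?_⟩
    simp only [twSet, Finset.coe_union, Set.mem_union, Finset.coe_image, Finset.coe_univ,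
      Set.image_univ, Set.mem_range]
    exact Or.inr ⟨j, hj⟩
  · rintro ⟨hℓ, hℓN, hℓS, hne⟩
    refine ⟨hℓ, ?_, ?_⟩
    · intro hd
      unfold twLevel at hd
      rcases (Nat.Prime.dvd_mul hℓ).mp hd with h1 | h1
      · exact hℓN h1
      · obtain ⟨j, -, hj⟩ := (Prime.dvd_finsetProd_iff hℓ.prime _).mp h1
        have h2 : ℓ ∣ qv j := hℓ.dvd_of_dvd_pow hj
        exact hne j ((Nat.prime_dvd_prime_iff_eq hℓ (hprime j)).mp h2).symm
    · simp only [twSet, Finset.coe_union, Set.mem_union, Finset.coe_image, Finset.coe_univ,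
        Set.image_univ, Set.mem_range, not_or, not_exists]
      exact ⟨hℓS, hne⟩

end Arith

section Ident

variable {𝒪 : Type} [CommRing 𝒪] [IsDomain 𝒪] [IsDiscreteValuationRing 𝒪]
  {p : ℕ} {N : ℕ} [NeZero N] {S : Finset ℕ} {r : ℕ} {qv : Fin r → ℕ}
  [NeZero (N * twC qv)]

/-- A family of operators on `J₀(N c)[p^∞]` with values in `k`, all of whose members are
`(T_ℓ, θ(T_ℓ))` for a good `ℓ`, `(U_{q_j}, α_j)`, `(0, 0)` or `(1, 1)`, and containing all the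
`T_ℓ` and `U_{q_j}`. -/
structure IsOmegaFam (θ : CuspForm.heckeAlgebra N 2 (↑S : Set ℕ) →+* ResidueField 𝒪)
    (α : Fin r → ResidueField 𝒪) {ι : Type}
    (ops : ι → Module.End ℤ (A0 (N * twC qv) p)) (vals : ι → ResidueField 𝒪) : Prop where
  kind : ∀ i, (∃ (ℓ : ℕ) (hg : GoodTw N S qv ℓ), ops i = Tz0 (N * twC qv) p ℓ ∧
        vals i = θ (CuspForm.heckeAlgebra.T hg.1 hg.not_dvd hg.not_mem)) ∨
      (∃ j, ops i = Uz0 (N * twC qv) p (qv j) ∧ vals i = α j) ∨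
      (ops i = 0 ∧ vals i = 0) ∨ (ops i = 1 ∧ vals i = 1)
  hasT : ∀ (ℓ : ℕ) (hg : GoodTw N S qv ℓ), ∃ i, ops i = Tz0 (N * twC qv) p ℓ ∧
      vals i = θ (CuspForm.heckeAlgebra.T hg.1 hg.not_dvd hg.not_mem)
  hasU : ∀ j, ∃ i, ops i = Uz0 (N * twC qv) p (qv j) ∧ vals i = α j

set_option maxHeartbeats 1000000 in
/-- The `θ⁺`-part for a family `IsOmegaFam`, in terms of `InE`. -/
theorem mem_thetaPoly_iff (hp0 : (p : 𝒪) ≠ 0) (hinj : Function.Injective qv)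
    (hprime : ∀ j, (qv j).Prime)
    (θ : CuspForm.heckeAlgebra N 2 (↑S : Set ℕ) →+* ResidueField 𝒪)
    (α : Fin r → ResidueField 𝒪) {ι : Type}
    (ops : ι → Module.End ℤ (A0 (N * twC qv) p)) (vals : ι → ResidueField 𝒪)
    (hfam : IsOmegaFam θ α ops vals)
    (hcomm0 : ∀ i j, Commute (ops i) (ops j)) (x : 𝒪 ⊗[ℤ] A0 (N * twC qv) p) :
    x ∈ thetaPart (polyHom ops hcomm0)
        (MvPolynomial.eval₂Hom (Int.castRingHom (ResidueField 𝒪)) vals) ↔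
      InE (realT 𝒪 p) (N * twC qv) {ℓ | GoodTw N S qv ℓ} (cFun θ) x ∧
        InE (realT 𝒪 p) (N * twC qv) {q | q ∈ List.ofFn qv} (aFun qv α) x := by
  classical
  have hX : ∀ i, polyHom ops hcomm0 (MvPolynomial.X i) = ops i := fun i => polyHom_X _ _ _
  have hθ : ∀ i, MvPolynomial.eval₂Hom (Int.castRingHom (ResidueField 𝒪)) vals
      (MvPolynomial.X i) = vals i := fun i => MvPolynomial.eval₂Hom_X' _ _ _
  constructor
  · intro hx
    rw [mem_thetaPart] at hx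
    constructor
    · intro ℓ hℓ hg
      haveI : NeZero ℓ := ⟨hℓ.ne_zero⟩
      have hg' : GoodTw N S qv ℓ := hg
      obtain ⟨i, hi1, hi2⟩ := hfam.hasT ℓ hg'
      have hres : residue 𝒪 (cFun θ ℓ)
          = MvPolynomial.eval₂Hom (Int.castRingHom (ResidueField 𝒪)) vals
            (MvPolynomial.X i) := by
        rw [hθ, hi2]
        exact residue_cFun θ hg'.1 hg'.not_dvd hg'.not_mem
      obtain ⟨m, hm⟩ := hx (MvPolynomial.X i) (cFun θ ℓ) hres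
      have e : polyHom ops hcomm0 (MvPolynomial.X i) = resP p (U0 (N * twC qv) ℓ) :=
        ((hX _).trans hi1).trans
          (Tz0_eq_resP p (N * twC qv) ℓ hℓ (H29.not_dvd_level_of_good hg'))
      rw [e] at hm
      have key := (isGk_Uop_iff p 𝒪 (N * twC qv) ℓ hℓ (cFun θ ℓ) x).mpr ⟨m, hm⟩
      exact key
    · intro q hq hmem
      haveI : NeZero q := ⟨hq.ne_zero⟩
      obtain ⟨j, rfl⟩ := (List.mem_ofFn' qv q).mp hmem
      obtain ⟨i, hi1, hi2⟩ := hfam.hasU j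
      have hres : residue 𝒪 (aFun qv α (qv j))
          = MvPolynomial.eval₂Hom (Int.castRingHom (ResidueField 𝒪)) vals
            (MvPolynomial.X i) := by
        rw [hθ, hi2]
        exact residue_aFun hinj α j
      obtain ⟨m, hm⟩ := hx (MvPolynomial.X i) (aFun qv α (qv j)) hres
      have e : polyHom ops hcomm0 (MvPolynomial.X i) = resP p (U0 (N * twC qv) (qv j)) :=
        ((hX _).trans hi1).trans (Uz0_eq_resP p (N * twC qv) (qv j))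
      rw [e] at hm
      have key := (isGk_Uop_iff p 𝒪 (N * twC qv) (qv j) hq (aFun qv α (qv j)) x).mpr ⟨m, hm⟩
      exact key
  · rintro ⟨h1, h2⟩
    refine (mem_thetaPart_iff_gens _ _ (Set.range MvPolynomial.X) (closure_range_X _) x
      (tors_ptors hp0 x)).mpr ?_
    rintro _ ⟨i, rfl⟩
    rcases hfam.kind i with ⟨ℓ, hg, hi1, hi2⟩ | ⟨j, hi1, hi2⟩ | ⟨hi1, hi2⟩ | ⟨hi1, hi2⟩
    · haveI : NeZero ℓ := ⟨hg.1.ne_zero⟩
      refine ⟨cFun θ ℓ, ?_, ?_⟩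
      · rw [hθ, hi2]
        exact residue_cFun θ hg.1 hg.not_dvd hg.not_mem
      · have key := h1 ℓ hg.1 hg
        obtain ⟨m, hm⟩ := (isGk_Uop_iff p 𝒪 (N * twC qv) ℓ hg.1 (cFun θ ℓ) x).mp key
        refine ⟨m, ?_⟩
        have e : polyHom ops hcomm0 (MvPolynomial.X i) = resP p (U0 (N * twC qv) ℓ) :=
          ((hX _).trans hi1).trans
            (Tz0_eq_resP p (N * twC qv) ℓ hg.1 (H29.not_dvd_level_of_good hg))
        rw [e]
        exact hm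
    · have hq : (qv j).Prime := hprime j
      haveI : NeZero (qv j) := ⟨hq.ne_zero⟩
      refine ⟨aFun qv α (qv j), ?_, ?_⟩
      · rw [hθ, hi2]
        exact residue_aFun hinj α j
      · have key := h2 (qv j) hq ((List.mem_ofFn' qv _).mpr ⟨j, rfl⟩)
        obtain ⟨m, hm⟩ := (isGk_Uop_iff p 𝒪 (N * twC qv) (qv j) hq (aFun qv α (qv j)) x).mp key
        refine ⟨m, ?_⟩
        have e : polyHom ops hcomm0 (MvPolynomial.X i) = resP p (U0 (N * twC qv) (qv j)) :=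
          ((hX _).trans hi1).trans (Uz0_eq_resP p (N * twC qv) (qv j))
        rw [e]
        exact hm
    · refine ⟨0, ?_, 1, ?_⟩
      · rw [hθ, hi2, map_zero]
      · have e : polyHom ops hcomm0 (MvPolynomial.X i) = 0 := (hX _).trans hi1
        rw [e, LinearMap.baseChange_zero, zero_smul, pow_one]
        simp only [LinearMap.sub_apply, LinearMap.zero_apply, sub_self]
    · refine ⟨1, ?_, 1, ?_⟩
      · rw [hθ, hi2, map_one]
      · have e : polyHom ops hcomm0 (MvPolynomial.X i) = 1 := (hX _).trans hi1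
        rw [e, baseChange_one_eq, one_smul, pow_one]
        simp only [LinearMap.sub_apply, sub_self]

set_option maxHeartbeats 1000000 in
/-- The `θ`-part at level `N` in terms of `InE` (hypotheses: fields of `TwHyp`). -/
theorem mem_thetaN_iff' (hp0 : (p : 𝒪) ≠ 0) (hprime : ∀ j, (qv j).Prime)
    (hnotS : ∀ j, qv j ∉ S) (hNS : ∀ q : ℕ, q.Prime → q ∣ N → q ∈ S)
    (θ : CuspForm.heckeAlgebra N 2 (↑S : Set ℕ) →+* ResidueField 𝒪)
    (ηC : CuspForm.heckeAlgebra N 2 (↑S : Set ℕ) →+* Module.End ℤ (A0 N p))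
    (hηC : ∀ (ℓ : ℕ) (hℓ : ℓ.Prime) (hℓN : ¬ ℓ ∣ N) (hℓS : ℓ ∉ (↑S : Set ℕ)),
      ηC (CuspForm.heckeAlgebra.T hℓ hℓN hℓS) = Tz0 N p ℓ)
    (x : 𝒪 ⊗[ℤ] A0 N p) :
    x ∈ thetaPart ηC θ ↔
      InE (realT 𝒪 p) N ({ℓ | GoodTw N S qv ℓ} ∪ {q | q ∈ List.ofFn qv}) (cFun θ) x := by
  classical
  constructor
  · intro hx ℓ hℓ hmem
    haveI : NeZero ℓ := ⟨hℓ.ne_zero⟩
    have hN : ¬ ℓ ∣ N ∧ ℓ ∉ (↑S : Set ℕ) := by
      rcases hmem with hg | hq
      · exact ⟨GoodTw.not_dvd hg, GoodTw.not_mem hg⟩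
      · obtain ⟨j, rfl⟩ := (List.mem_ofFn' qv ℓ).mp hq
        exact ⟨fun hd => hnotS j (hNS _ (hprime j) hd), fun hS => hnotS j (Finset.mem_coe.mp hS)⟩
    obtain ⟨m, hm⟩ := mem_thetaPart.mp hx (CuspForm.heckeAlgebra.T hℓ hN.1 hN.2) (cFun θ ℓ)
      (residue_cFun θ hℓ hN.1 hN.2)
    rw [hηC, Tz0_eq_resP p N ℓ hℓ hN.1] at hm
    have key := (isGk_Uop_iff p 𝒪 N ℓ hℓ (cFun θ ℓ) x).mpr ⟨m, hm⟩
    exact key
  · intro hx
    refine (mem_thetaPart_iff_gens _ _ (heckeTSet N (↑S : Set ℕ))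
      (closure_heckeT (fun q hq hqN => Finset.mem_coe.mpr (hNS q hq hqN))) x
      (tors_ptors hp0 x)).mpr ?_
    rintro _ ⟨ℓ, hℓ, hℓN, hℓS, rfl⟩
    haveI : NeZero ℓ := ⟨hℓ.ne_zero⟩
    have hmem : ℓ ∈ ({ℓ | GoodTw N S qv ℓ} ∪ {q | q ∈ List.ofFn qv} : Set ℕ) := by
      by_cases hq : ∃ j, qv j = ℓ
      · exact Or.inr ((List.mem_ofFn' qv ℓ).mpr hq)
      · exact Or.inl ((goodTw_iff' hprime ℓ).mpr ⟨hℓ, hℓN, hℓS, fun j hj => hq ⟨j, hj⟩⟩)
    have key := hx ℓ hℓ hmem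
    obtain ⟨m, hm⟩ := (isGk_Uop_iff p 𝒪 N ℓ hℓ (cFun θ ℓ) x).mp key
    refine ⟨cFun θ ℓ, residue_cFun θ hℓ hℓN hℓS, m, ?_⟩
    rw [hηC, Tz0_eq_resP p N ℓ hℓ hℓN]
    exact hm

set_option maxHeartbeats 1000000 in
/-- **The isomorphism `ω`, generic form.** -/
theorem exists_omega_gen (hp0 : (p : 𝒪) ≠ 0) (hinj : Function.Injective qv)
    (hprime : ∀ j, (qv j).Prime) (hnotS : ∀ j, qv j ∉ S)
    (hNS : ∀ q : ℕ, q.Prime → q ∣ N → q ∈ S)
    (θ : CuspForm.heckeAlgebra N 2 (↑S : Set ℕ) →+* ResidueField 𝒪)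
    (α β : Fin r → ResidueField 𝒪) (hE : TwEig 𝒪 N S qv θ α β) {ι : Type}
    (ops : ι → Module.End ℤ (A0 (N * twC qv) p)) (vals : ι → ResidueField 𝒪)
    (hfam : IsOmegaFam θ α ops vals) (hcomm0 : ∀ i j, Commute (ops i) (ops j))
    (ηC : CuspForm.heckeAlgebra N 2 (↑S : Set ℕ) →+* Module.End ℤ (A0 N p))
    (hηC : ∀ (ℓ : ℕ) (hℓ : ℓ.Prime) (hℓN : ¬ ℓ ∣ N) (hℓS : ℓ ∉ (↑S : Set ℕ)),
      ηC (CuspForm.heckeAlgebra.T hℓ hℓN hℓS) = Tz0 N p ℓ) :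
    ∃ Φ : JZero (N * twC qv) →+ JZero N,
      (∀ (ℓ : ℕ) [NeZero ℓ], GoodTw N S qv ℓ →
        ∀ y, Φ (U0 (N * twC qv) ℓ y) = U0 N ℓ (Φ y)) ∧
      (∀ (σ : _root_.Fermat.Agent.NEB.Geom.GalQ) (y : JZero (N * twC qv)), Φ (σ • y) = σ • Φ y) ∧
      (∀ v ∈ thetaPart (polyHom ops hcomm0)
          (MvPolynomial.eval₂Hom (Int.castRingHom (ResidueField 𝒪)) vals),
        (resP p Φ).baseChange 𝒪 v ∈ thetaPart ηC θ) ∧
      (∀ x ∈ thetaPart ηC θ, ∃ v ∈ thetaPart (polyHom ops hcomm0)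
          (MvPolynomial.eval₂Hom (Int.castRingHom (ResidueField 𝒪)) vals),
        (resP p Φ).baseChange 𝒪 v = x) ∧
      (∀ v ∈ thetaPart (polyHom ops hcomm0)
          (MvPolynomial.eval₂Hom (Int.castRingHom (ResidueField 𝒪)) vals),
        (resP p Φ).baseChange 𝒪 v = 0 → v = 0) := by
  classical
  have hqN : ∀ j, ¬ qv j ∣ N := fun j hd => hnotS j (hNS _ (hprime j) hd)
  have hqS : ∀ j, qv j ∉ (↑S : Set ℕ) := fun j hS => hnotS j (Finset.mem_coe.mp hS)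
  have hnd : (List.ofFn qv).Nodup := List.nodup_ofFn.mpr hinj
  have hqs : ∀ q ∈ List.ofFn qv, q.Prime ∧ ¬ q ∣ N := by
    intro q hq
    obtain ⟨j, rfl⟩ := (List.mem_ofFn' qv q).mp hq
    exact ⟨hprime j, hqN j⟩
  have hS : ∀ ℓ ∈ ({ℓ | GoodTw N S qv ℓ} : Set ℕ),
      ℓ.Prime ∧ ℓ ∉ List.ofFn qv ∧ ¬ ℓ ^ 2 ∣ N := by
    intro ℓ hℓ
    have hg : GoodTw N S qv ℓ := hℓ
    refine ⟨hg.1, fun hmem => ?_, fun hd => hg.not_dvd (dvd_trans (dvd_pow_self ℓ two_ne_zero) hd)⟩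
    obtain ⟨j, hj⟩ := (List.mem_ofFn' qv ℓ).mp hmem
    exact ((goodTw_iff' hprime ℓ).mp hg).2.2.2 j hj
  have ha : ∀ q ∈ List.ofFn qv,
      residue 𝒪 (aFun qv α q) ≠ residue 𝒪 (aFun qv β q) ∧
      residue 𝒪 (aFun qv α q) * residue 𝒪 (aFun qv β q) = 1 ∧ residue 𝒪 (q : 𝒪) = 1 ∧
      residue 𝒪 (cFun θ q) = residue 𝒪 (aFun qv α q) + residue 𝒪 (aFun qv β q) := by
    intro q hq
    obtain ⟨j, rfl⟩ := (List.mem_ofFn' qv q).mp hq
    rw [residue_aFun hinj α j, residue_aFun hinj β j,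
      residue_cFun θ (hprime j) (hqN j) (hqS j), map_natCast]
    exact ⟨hE.ne j, hE.mul j, hE.q_one j, hE.add j (hprime j) (hqN j) (hqS j)⟩
  have hQ : N * twC qv = N * (List.ofFn qv).prod := by
    rw [List.prod_ofFn]
    rfl
  have hw := wOld (𝒪 := 𝒪) p (dvr_nil hp0) N (List.ofFn qv) hnd hqs
    {ℓ | GoodTw N S qv ℓ} hS (cFun θ) (aFun qv α) (aFun qv β) ha (N * twC qv) hQ
  obtain ⟨Φ, hw⟩ := hw
  have h1 := hw.1
  have h2 := hw.2.1
  have h3 := hw.2.2.1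
  have h4 := hw.2.2.2.1
  have h5 := hw.2.2.2.2
  refine ⟨Φ, ?_, h2, ?_, ?_, ?_⟩
  · intro ℓ _ hg y
    exact h1 ℓ hg.1 (hS ℓ hg).2.1 (hS ℓ hg).2.2 y
  · intro v hv
    have hv' := (mem_thetaPoly_iff hp0 hinj hprime θ α ops vals hfam hcomm0 v).mp hv
    have key := h3 v hv'.1 hv'.2
    exact (mem_thetaN_iff' hp0 hprime hnotS hNS θ ηC hηC _).mpr key
  · intro x hx
    have key := (mem_thetaN_iff' (qv := qv) hp0 hprime hnotS hNS θ ηC hηC x).mp hx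
    obtain ⟨v, hv1, hv2, hvx⟩ := h4 x key
    exact ⟨v, (mem_thetaPoly_iff hp0 hinj hprime θ α ops vals hfam hcomm0 v).mpr ⟨hv1, hv2⟩,
      hvx⟩
  · intro v hv hv0
    have hv' := (mem_thetaPoly_iff hp0 hinj hprime θ α ops vals hfam hcomm0 v).mp hv
    exact h5 v hv'.1 hv'.2 hv0

end Ident

end Fermat.Agent.NEB.Geom.H14

end
end
-- ==== END Fermat.Agent.NEB.Geom.H14_OmegaGen

-- ==== BEGIN Fermat.Agent.NEB.Geom.H14_PiWire
section

/-!
# Item 72 (LG-NEB), package NEB-GEOM, leaf PI-WIRE (helper14): the assembly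

`stmt_PI_WIRE_of : (∀ …, Stmt_TOWER_INST …) → Stmt_PI_UPINJ → Stmt_PI_UPINV → Stmt_PI_WIRE`.

`π = ω ∘ π_*`, `πup = π^* ∘ ω⁻¹`, `ω` from `exists_omega` (`NEB.OLD.wOld`).
-/

set_option autoImplicit false
set_option linter.unusedSectionVars false
set_option linter.unusedVariables false
set_option linter.style.haveILetI false

noncomputable section

open ModularCurve AlgebraicCurve IsLocalRing TensorProduct Polynomial

namespace Fermat.Agent.NEB.Geom.H14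

open Fermat.Agent.NEB Fermat.Agent.NEB.JH Fermat.Agent.S59.Asm Fermat.Agent.S59.Lim
  Fermat.Agent.S59.Lim.H2 Fermat.Agent.NEB.Geom Fermat.Agent.NEB.OLD

/-- `Stmt_TOWER_INST` for all Taylor–Wiles data. -/
def Stmt_A_TOWER : Prop :=
  ∀ (N : ℕ) (S : Finset ℕ) (p n r : ℕ) (qv : Fin r → ℕ) [NeZero (N * twC qv)]
    (h2 : 2 ≤ twC qv), Stmt_TOWER_INST N S p n qv h2

section Aux

variable {𝒪 : Type} [CommRing 𝒪] {A B : Type} [AddCommGroup A] [AddCommGroup B]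

/-- transport of an intertwining relation to the base change, applied to an element -/
theorem bc_apply_of_comp {f : Module.End ℤ A} {f' : Module.End ℤ B} {g : A →ₗ[ℤ] B}
    (h : g ∘ₗ f = f' ∘ₗ g) (x : 𝒪 ⊗[ℤ] A) :
    g.baseChange 𝒪 (f.baseChange 𝒪 x) = f'.baseChange 𝒪 (g.baseChange 𝒪 x) :=
  congrArg (fun F => F x) (baseChange_comp_eq 𝒪 h)

end Aux

set_option maxHeartbeats 1600000 in
/-- **PI-WIRE**, from TOWER-INST and the two sub-leaves on `π^*`. -/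
theorem stmt_PI_WIRE_of (hT : Stmt_A_TOWER) (hINJ : Stmt_PI_UPINJ) (hINV : Stmt_PI_UPINV) :
    Stmt_PI_WIRE := by
  intro 𝒪 _ _ _ _ _ ϖ hϖ p _ hpm N _ S n r qv hTW _ h2 hcomm θ α β hE ηC hηC hgalC δ hδ ℓ₀
    hℓ₀ hne
  have hp0 : (p : 𝒪) ≠ 0 := Nat.cast_ne_zero.mpr (Fact.out : p.Prime).ne_zero
  have hZ := H29.stmt_Z_COMMtw N S p n qv h2 hTW
  have hc0 := hZ.2.2.1
  have hc0G := hZ.2.2.2.1
  have hup := hZ.2.2.2.2.1
  have hdown := hZ.2.2.2.2.2.1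
  have hupG := hZ.2.2.2.2.2.2
  have hTi := hT N S p n r qv h2
  have hnm := (hTi hTW δ hδ ℓ₀ hℓ₀.1 (H29.not_dvd_level_of_good hℓ₀)).2.2.2.1
  have hom := exists_omega hp0 hTW hc0 θ α β hE ηC hηC
  obtain ⟨Φ, hΦ⟩ := hom
  have hΦ1 := hΦ.1
  have hΦ2 := hΦ.2.1
  have hΦ3 := hΦ.2.2.1
  have hΦ4 := hΦ.2.2.2.1
  have hΦ5 := hΦ.2.2.2.2
  have hgUp : ∀ t, upZ (N * twC qv) (twC qv) (twH p n qv) p ∘ₗ etaTw0 N S p qv hc0 t
      = etaTw N S p n qv h2 hcomm t ∘ₗ upZ (N * twC qv) (twC qv) (twH p n qv) p :=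
    polyHom_intertwine (opsTw0 N S p qv) hc0 (opsTw N S p n qv h2) hcomm _ hup
  have hgDown : ∀ t, downZ (N * twC qv) (twC qv) (twH p n qv) p ∘ₗ etaTw N S p n qv h2 hcomm t
      = etaTw0 N S p qv hc0 t ∘ₗ downZ (N * twC qv) (twC qv) (twH p n qv) p :=
    polyHom_intertwine (opsTw N S p n qv h2) hcomm (opsTw0 N S p qv) hc0 _ hdown
  have hinj : ∀ y ∈ thetaPart (etaTw0 N S p qv hc0) (thetaTw N S qv θ α),
      (upZ (N * twC qv) (twC qv) (twH p n qv) p).baseChange 𝒪 y = 0 → y = 0 :=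
    hINJ 𝒪 ϖ hϖ p hpm N S n r qv hTW h2 hTi hc0 θ α δ hδ ℓ₀ hℓ₀ hne
  have habs := pi_wire_abs (𝒪 := 𝒪) (etaTw N S p n qv h2 hcomm)
    (etaTw0 N S p qv hc0) ηC (thetaTw N S qv θ α) θ
    (upZ (N * twC qv) (twC qv) (twH p n qv) p) hgUp
    (downZ (N * twC qv) (twC qv) (twH p n qv) p) hgDown (resP p Φ) hΦ3 hΦ4 hΦ5 hinj
  obtain ⟨π, habs⟩ := habs
  obtain ⟨πup, habs⟩ := habs
  have k1 := habs.1
  have k2 := habs.2.1
  have k3 := habs.2.2.1
  have k4 := habs.2.2.2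
  -- description of `πup y`
  have hdesc : ∀ y : ↥(thetaPart ηC θ), ∃ v ∈ thetaPart (etaTw0 N S p qv hc0)
      (thetaTw N S qv θ α), (resP p Φ).baseChange 𝒪 v = y.1 ∧
      ((πup y : ↥(thetaPart (etaTw N S p n qv h2 hcomm) (thetaTw N S qv θ α))) :
        𝒪 ⊗[ℤ] AH (N * twC qv) (twC qv) (twH p n qv) p)
        = (upZ (N * twC qv) (twC qv) (twH p n qv) p).baseChange 𝒪 v := by
    intro y
    obtain ⟨v, hv, hvy⟩ := hΦ4 y.1 y.2
    refine ⟨v, hv, hvy, ?_⟩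
    have hy : y = ⟨(resP p Φ).baseChange 𝒪 v, hΦ3 v hv⟩ := Subtype.ext hvy.symm
    rw [hy]
    exact k3 v hv
  refine ⟨π, πup, k1, ?_, ?_, ?_, ?_, ?_⟩
  · -- `πup ∘ π = nmTot`
    intro x
    rw [k2 x, hnm, nmTot_baseChange]
  · -- the diamonds fix `πup y`
    intro u y
    obtain ⟨v, hv, -, hvy⟩ := hdesc y
    rw [hvy]
    have h1 : diaZ (N * twC qv) (twC qv) (twH p n qv) h2 (dvd_mul_left _ _) p u
        ∘ₗ upZ (N * twC qv) (twC qv) (twH p n qv) p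
        = upZ (N * twC qv) (twC qv) (twH p n qv) p := by
      have := hup (Sum.inr (Sum.inr u))
      exact this.symm
    have h3 := congrArg (fun F => F v) (congrArg (LinearMap.baseChange 𝒪) h1)
    simp only [LinearMap.baseChange_comp, LinearMap.comp_apply] at h3
    exact h3
  · -- INV
    intro v hϖv hfix
    obtain ⟨y, hy, hyv⟩ := hINV 𝒪 ϖ hϖ p hpm N S n r qv hTW h2 hTi hcomm hc0 θ α δ hδ ℓ₀ hℓ₀
      hne v.1 v.2 (congrArg Subtype.val hϖv) hfix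
    exact ⟨⟨(resP p Φ).baseChange 𝒪 y, hΦ3 y hy⟩, Subtype.ext ((k3 y hy).trans hyv)⟩
  · -- Hecke equivariance of `π`
    intro ℓ hℓ v
    haveI : NeZero ℓ := ⟨hℓ.1.ne_zero⟩
    refine Subtype.ext ?_
    rw [k4, thetaEta_apply, thetaEta_apply, k4]
    rw [bc_apply_of_comp (hgDown (MvPolynomial.X (Sum.inl ℓ)))]
    have e1 : etaTw0 N S p qv hc0 (MvPolynomial.X (Sum.inl ℓ))
        = resP p (U0 (N * twC qv) ℓ) :=
      ((polyHom_X _ _ _).trans (H29.opsTw0_inl_good N S p qv hℓ)).trans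
        (Tz0_eq_resP p (N * twC qv) ℓ hℓ.1 (H29.not_dvd_level_of_good hℓ))
    have e2 : ηC (CuspForm.heckeAlgebra.T hℓ.1 hℓ.not_dvd hℓ.not_mem) = resP p (U0 N ℓ) :=
      (hηC ℓ hℓ.1 hℓ.not_dvd hℓ.not_mem).trans (Tz0_eq_resP p N ℓ hℓ.1 hℓ.not_dvd)
    have e3 : resP p Φ ∘ₗ etaTw0 N S p qv hc0 (MvPolynomial.X (Sum.inl ℓ))
        = ηC (CuspForm.heckeAlgebra.T hℓ.1 hℓ.not_dvd hℓ.not_mem) ∘ₗ resP p Φ := by
      rw [e1, e2]
      refine LinearMap.ext fun x => Subtype.ext ?_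
      exact hΦ1 ℓ hℓ x.1
    exact bc_apply_of_comp e3 _
  · -- Galois equivariance of `πup`
    intro σ y
    obtain ⟨v, hv, hvy, hπy⟩ := hdesc y
    have hcG : ∀ t, Commute (etaTw0 N S p qv hc0 t) (galZ0 (N * twC qv) p σ) :=
      polyHom_commute _ _ _ (fun i => hc0G i σ)
    have hv' : (galZ0 (N * twC qv) p σ).baseChange 𝒪 v
        ∈ thetaPart (etaTw0 N S p qv hc0) (thetaTw N S qv θ α) :=
      (thetaZ (thetaTw N S qv θ α) (galZ0 (N * twC qv) p σ) hcG ⟨v, hv⟩).2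
    have e3 : resP p Φ ∘ₗ galZ0 (N * twC qv) p σ = galZ0 N p σ ∘ₗ resP p Φ := by
      refine LinearMap.ext fun x => Subtype.ext ?_
      exact hΦ2 σ x.1
    have hy' : thetaZ θ (galZ0 N p σ) (hgalC σ) y
        = ⟨(resP p Φ).baseChange 𝒪 ((galZ0 (N * twC qv) p σ).baseChange 𝒪 v),
            hΦ3 _ hv'⟩ := by
      refine Subtype.ext ?_
      rw [thetaZ_apply, ← hvy]
      exact (bc_apply_of_comp e3 v).symm
    rw [hy', k3 _ hv', hπy]
    exact bc_apply_of_comp (hupG σ) v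

end Fermat.Agent.NEB.Geom.H14

end
end
-- ==== END Fermat.Agent.NEB.Geom.H14_PiWire

-- ==== BEGIN Fermat.Agent.NEB.Geom.H39_WEigTw
section

/-!
# Item 72 (LG-NEB), package NEB-GEOM, leaf **W-EIG with locality** (helper39)

`stmt_W_EIGL : Stmt_W_EIGL` : the Hecke ring of level `N ∏ q_j²` acts on the divisible module
`W = (𝒪 ⊗ J_H[p^∞])_{θ⁺}` through the twisted operators `T'_ℓ`, locally at `θ ∘ rest`.

Inputs: `H39.stmt_EIG_W` (EIG-A + W-EIG abstract), `H98.stmt_EIG_ASM` (EIG-ASM),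
`H84.finite_AH_p` (Z-FIN).  Consequently `stmt_A_ETA : Stmt_A_ETA` (via `stmt_A_ETA_of`).
-/

set_option autoImplicit false

namespace Fermat.Agent.NEB.Geom.H39

open ModularCurve AlgebraicCurve IsLocalRing TensorProduct
open Fermat.Agent.NEB Fermat.Agent.NEB.JH Fermat.Agent.S59 Fermat.Agent.S59.Asm
  Fermat.Agent.S59.Lim Fermat.Agent.S59.Lim.H2
open Fermat.Agent.NEB.EIG.H39

section Div

/-- A `ϖ`-divisible module over a discrete valuation ring is `p`-divisible (`p ≠ 0`). -/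
theorem pdiv_of_div {𝒪 : Type*} [CommRing 𝒪] [IsDomain 𝒪] [IsDiscreteValuationRing 𝒪] {ϖ : 𝒪}
    (hϖ : Irreducible ϖ) {p : ℕ} (hp0 : (p : 𝒪) ≠ 0) {W : Type*} [AddCommGroup W] [Module 𝒪 W]
    (hdiv : ∀ x : W, ∃ y : W, ϖ • y = x) (w : W) : ∃ w' : W, (p : 𝒪) • w' = w := by
  obtain ⟨n, u, hu⟩ := IsDiscreteValuationRing.eq_unit_mul_pow_irreducible hp0 hϖ
  have hpow : ∀ (n : ℕ) (w : W), ∃ w' : W, ϖ ^ n • w' = w := by
    intro n
    induction n with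
    | zero =>
      intro w
      exact ⟨w, by rw [pow_zero, one_smul]⟩
    | succ n ih =>
      intro w
      obtain ⟨w₁, hw₁⟩ := hdiv w
      obtain ⟨w₂, hw₂⟩ := ih w₁
      exact ⟨w₂, by rw [pow_succ, mul_comm, mul_smul, hw₂, hw₁]⟩
  obtain ⟨w', hw'⟩ := hpow n w
  refine ⟨((u⁻¹ : 𝒪ˣ) : 𝒪) • w', ?_⟩
  rw [hu, smul_smul, mul_comm (↑u * ϖ ^ n), ← mul_assoc, Units.inv_mul, one_mul, hw']

end Div

section Level

theorem twLevel_eq_mul (N : ℕ) {r : ℕ} (qv : Fin r → ℕ) :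
    twLevel N qv = N * twC qv * twC qv := by
  unfold twLevel twC
  rw [Finset.prod_pow, pow_two, mul_assoc]

theorem twC_eq_list_prod {r : ℕ} (qv : Fin r → ℕ) : twC qv = (List.ofFn qv).prod := by
  unfold twC
  rw [List.prod_ofFn]

end Level

section Main

/-- **W-EIG with locality**. -/
theorem stmt_W_EIGL : Stmt_W_EIGL := by
  intro 𝒪 _ _ _ _ _ ϖ hϖ p _ hpm N _ S n r qv hTW _ _ h2 hcomm θ α hdiv
  classical
  have hp0 : (p : 𝒪) ≠ 0 := Nat.cast_ne_zero.mpr hTW.hp.ne_zero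
  haveI : NeZero (twC qv) := ⟨by omega⟩
  have hfin := H84.finite_AH_p (twH p n qv) h2 (dvd_mul_left (twC qv) N) p
  have hodd : Odd p := hTW.hp.odd_of_ne_two hTW.hp2
  obtain ⟨ms, -, h1, h2', h3, h4⟩ := Fermat.Agent.NEB.EIG.H98.stmt_EIG_ASM p N (twC qv)
    (twH p n qv) h2 Fermat.Agent.NEB.H70.iotaC (jTw p n)
    (Fermat.Agent.NEB.EIG.H98.twH_pow_mem p n hodd qv)
  have hqN : ∀ j, ¬ qv j ∣ N := fun j hd => hTW.notS j (hTW.hNS (qv j) (hTW.prime j) hd)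
  have hS : ∀ q : ℕ, q.Prime → q ∣ twLevel N qv → q ∈ (↑(twSet S qv) : Set ℕ) := by
    intro q hq hqd
    by_cases hqN' : q ∣ N
    · exact H41.subset_twSet S qv (hTW.hNS q hq hqN')
    · exact H41.new_prime_mem_twSet N S qv hTW.prime q hq hqd hqN'
  obtain ⟨etaW, e1, -, e3⟩ := stmt_EIG_W p N hTW.hN (List.ofFn qv)
    (List.nodup_ofFn.mpr hTW.inj)
    (fun q hq => by
      obtain ⟨j, rfl⟩ := (List.mem_ofFn' qv q).mp hq
      exact hTW.prime j)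
    (fun q hq => by
      obtain ⟨j, rfl⟩ := (List.mem_ofFn' qv q).mp hq
      exact hqN j)
    (twC qv) (twLevel N qv) (twC_eq_list_prod qv) (twLevel_eq_mul N qv)
    (↑(twSet S qv) : Set ℕ) hS
    (AH (N * twC qv) (twC qv) (twH p n qv) p) (fun x => isPTors_coe x) hfin ms
    (Tz (N * twC qv) (twC qv) (twH p n qv) h2 (dvd_mul_left _ _) p) h1
    (diaZ (N * twC qv) (twC qv) (twH p n qv) h2 (dvd_mul_left _ _) p) h2' h3 (jTw p n) h4
    (etaTw N S p n qv h2 hcomm) (thetaTw N S qv θ α)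
    (fun w => pdiv_of_div hϖ hp0 hdiv.div w)
    (fun ℓ => MvPolynomial.X (Sum.inl ℓ))
    (fun ℓ hℓ hℓN hℓS => by
      show polyHom (opsTw N S p n qv h2) hcomm (MvPolynomial.X (Sum.inl ℓ)) = _
      rw [polyHom_X]
      show (if GoodTw N S qv ℓ then _ else 0) = _
      rw [if_pos ⟨hℓ, hℓN, hℓS⟩]
      rfl)
    (θ.comp (H41.restTW N S qv hTW.prime))
    (fun ℓ hℓ hℓN hℓS => by
      have hg : GoodTw N S qv ℓ := ⟨hℓ, hℓN, hℓS⟩
      rw [RingHom.comp_apply, H41.restTW_T N S qv hTW.prime ℓ hℓ hℓN hℓS hg.not_dvd hg.not_mem]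
      show _ = MvPolynomial.eval₂Hom (Int.castRingHom _) (thetaVal N S qv θ α)
        (MvPolynomial.X (Sum.inl ℓ))
      rw [MvPolynomial.eval₂Hom_X']
      show _ = dite (GoodTw N S qv ℓ) _ _
      rw [dif_pos hg])
  exact ⟨etaW, e1, fun t a₀ ha x _ => e3 t a₀ ha x⟩

/-- **A-ETA** (unconditional). -/
theorem stmt_A_ETA : Stmt_A_ETA := stmt_A_ETA_of stmt_W_EIGL

end Main

end Fermat.Agent.NEB.Geom.H39

end
-- ==== END Fermat.Agent.NEB.Geom.H39_WEigTw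

-- ==== BEGIN Fermat.Agent.S43.Final5
section

set_option autoImplicit false

open WeierstrassCurve WeierstrassCurve.Affine WeierstrassCurve.Affine.Point
open scoped WeierstrassCurve.Affine

namespace Fermat.Agent.S43.BadQ

open Fermat.Agent.L.Pivot

/-- PV-GAL-N for `cond 𝒪 p fl`: DONE (the Greenberg–Wiles package of S55/S56). -/
theorem stmt_PVGalNB_done : Stmt_PVGalNB :=
  H4.stmt_PVGalNB_of_open
    (Fermat.Agent.S55.H48.stmt_TopQ0_of_I4 Fermat.Agent.S55.CFT.GS.H24.stmt_I4)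
    Fermat.Agent.S55.CFT.GS.H24.stmt_I2 Fermat.Agent.S55.CFT.GS.H24.stmt_I3
    Fermat.Agent.S55.CFT.GS.H24.stmt_I4
    (Fermat.Agent.S56.EC.H47T.stmt_EC_top Fermat.Agent.S55.CFT.GS.H24.stmt_I2
      Fermat.Agent.S55.CFT.GS.H24.stmt_I3 Fermat.Agent.S55.CFT.GS.H24.stmt_I4)

/-- PV-GAL for `cond 𝒪 p fl`: DONE. -/
theorem stmt_PVGalB_done : Stmt_PVGalB :=
  stmt_PVGalB_of stmt_PVGalNB_done H72.stmt_PVGalAB

/-- The levels of PIVOT from S36 and PV-GEOM. -/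
theorem pvLevelsB_of_s36_geom (h36 : Fermat.Agent.S58.Stmt_S36) (hG : Stmt_PVGeom2) :
    Stmt_PVLevelsB :=
  H19.stmt_PVWire1 stmt_PVGalB_done hG Fermat.Agent.S59.Datum.stmt_DATUM
    Fermat.Agent.S59.Asm.H7.stmt_COND H77.stmt_PVAsm H76.stmt_PVUnip
    (H72.stmt_PVNU_of (H4.stmt_PVNUPoint_of h36))

/-- The PIVOT core from S36 and PV-GEOM. -/
theorem pivotCoreB_of_s36_geom (h36 : Fermat.Agent.S58.Stmt_S36) (hG : Stmt_PVGeom2) :
    Stmt_PivotCoreB :=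
  pivotCoreB_of H52.stmt_PVLoc_type H52.stmt_PVLoc_unr H52.stmt_PVLoc_dimS H76.stmt_PVPatch
    (pvLevelsB_of_s36_geom h36 hG) H59.stmt_PVTame1 H50.stmt_PVOld

/-- **S43 from S36 and PV-GEOM.**  The conclusion is the frozen statement S43. -/
theorem result_of_s36_geom (h36 : Fermat.Agent.S58.Stmt_S36) (hG : Stmt_PVGeom2)
    (P : FreyPackage) {N q : ℕ} (hcond : P.IsConductorLevel N) (hq : q.Prime) (hq2 : q ≠ 2)
    (hqp : q ≠ P.p) (hqN : q ∣ N)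
    (hirr : GaloisRepIsIrreducible (K := AlgebraicClosure ℚ) ℚ P.freyCurve P.p)
    (hmod : P.ModularRepOfLevel N) (hunr : P.GaloisRepUnramifiedAt q) :
    ∃ M : ℕ, M ∣ N ∧ ¬ q ∣ M ∧ P.ModularRepOfLevel M :=
  result_of_pivotFrey2 (H76.pivotFrey2_of_pivotCoreB (pivotCoreB_of_s36_geom h36 hG))
    P hcond hq hq2 hqp hqN hirr hmod hunr

/-- **S43 from S36 and PV-DIV.**  The conclusion is the frozen statement S43. -/
theorem result_of_s36_pvdiv (h36 : Fermat.Agent.S58.Stmt_S36) (hD : Geom.Stmt_PVDIV)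
    (P : FreyPackage) {N q : ℕ} (hcond : P.IsConductorLevel N) (hq : q.Prime) (hq2 : q ≠ 2)
    (hqp : q ≠ P.p) (hqN : q ∣ N)
    (hirr : GaloisRepIsIrreducible (K := AlgebraicClosure ℚ) ℚ P.freyCurve P.p)
    (hmod : P.ModularRepOfLevel N) (hunr : P.GaloisRepUnramifiedAt q) :
    ∃ M : ℕ, M ∣ N ∧ ¬ q ∣ M ∧ P.ModularRepOfLevel M :=
  result_of_s36_geom h36 (Geom.H59.stmt_PVGeom2_of_pvDiv hD) P hcond hq hq2 hqp hqN hirr hmod hunr

end Fermat.Agent.S43.BadQ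

end
-- ==== END Fermat.Agent.S43.Final5
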