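-- GENERATED (merged mirror, NOTES/tools/trim/merge3_helper67.py): 3 modules of the originals, bodies verbatim.
import Mathlib
import Fermat.Agent.Zm.S43_L17_000
import Fermat.Agent.Zm.S43_L11_000
import Fermat.Agent.Zm.S43_L16_000
import Fermat.Agent.Zm.S43_L11_001
import Fermat.Agent.Zm.S43_L17_002
import Fermat.Agent.Zm.S43_L12_001
import Fermat.Agent.Zm.S43_L07_000
import Fermat.Agent.Zm.S43_L14_000
import Fermat.Agent.Zm.S43_L07_002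
import Fermat.Agent.Zm.S43_L15_000
import Fermat.Agent.Zm.S43_L03_000
import Fermat.Agent.Zm.S43_L05_001
import Fermat.Agent.Zm.S43_L17_001

-- ==== BEGIN Fermat.Agent.L.Pivot.Geom.H11_PEta
section

/-!
# PIVOT, package PV-GEOM, Part I, leaf P-ETA, the `η` half (helper11)

The Hecke ring of level `pvLevel N1 qP qv = N1 ∏ qP_j ∏ qv_i²` acts on the module `W'`
(`Wpv`, the `θ⁺`-part of `𝒪 ⊗ J_H'[p^∞]`) through the twisted operators `T'_ℓ`, locally at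
`θ ∘ restTW ∘ restPV`, as soon as `W'` is divisible.

* `exists_etaW_JH` : W-EIG (helper39's `stmt_EIG_W`) for `A = J_H[p^∞]` at a level `M` which is
  only PROPOSITIONALLY equal to `N c` (EIG-ASM of helper98 transported along `M = N c`);
* `pvLevel_eq`, `pvM_eq`, `pvList_*`, `not_dvd_base`, `prime_mem_twSet` : the arithmetic of
  `N := N1 / ∏ qP_j`, `c' = ∏ qP_j ∏ qv_i`, `M1 = N1 ∏ qv_i = N c'`, `pvLevel = N c'²`;
* `pdiv_of_isDiv` : a `ϖ`-divisible module is `p`-divisible;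
* `peta_eta` : the `η` half of `Stmt_P_ETA` from `IsDiv ϖ W'`;
* `Stmt_P_ISDIV` (the other half) and `stmt_P_ETA_of : Stmt_P_ISDIV → Stmt_P_ETA`;
* `stmt_P_ETA : Stmt_P_ETA`, unconditional (divisibility = helper70's `H70.isDiv_Wpv`);
* `stmt_P_SETUP_of_noneis : Stmt_W_NONEIS → Stmt_P_SETUP`, `stmt_P_SETUP : Stmt_P_SETUP`.
-/

set_option autoImplicit false
set_option linter.unusedSectionVars false
set_option linter.style.haveILetI false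
set_option linter.unusedVariables false

noncomputable section

open ModularCurve AlgebraicCurve IsLocalRing TensorProduct Polynomial

namespace Fermat.Agent.L.Pivot.Geom.H11

open Fermat.Agent.NEB Fermat.Agent.NEB.JH Fermat.Agent.NEB.Geom Fermat.Agent.S59.Lim
  Fermat.Agent.S59.Lim.H2 Fermat.Agent.S59.Asm Fermat.Agent.L.Pivot.Geom

/-! ## 1. W-EIG for `J_H[p^∞]` at a level `M = N c` -/

/-- **W-EIG for `J_H[p^∞]`**: helper39's `stmt_EIG_W` (in helper4's form `H4.stmt_EIG_W_M`, level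
`M` with `M = N c` propositionally) with helper98's EIG-ASM (`monoSys`, `monoSys_Tz`,
`monoSys_diaZ`, `commute_Tz_diaZ`, `diaZ_pow_eq_one`). -/
theorem exists_etaW_JH (p : ℕ) [Fact p.Prime] (N : ℕ) (hN : N ≠ 0) (qs : List ℕ)
    (hnd : qs.Nodup) (hpr : ∀ q ∈ qs, q.Prime) (hqN : ∀ q ∈ qs, ¬ q ∣ N)
    (c N' M : ℕ) (hc : c = qs.prod) (hN' : N' = N * c * c) (hM : M = N * c)
    [NeZero N'] [NeZero M] [NeZero c]
    (S : Set ℕ) (hS : ∀ q : ℕ, q.Prime → q ∣ N' → q ∈ S)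
    (H : Subgroup (ZMod c)ˣ) (h2 : 2 ≤ c) (hcM : c ∣ M) (j : ℕ)
    (hj : ∀ d : (ZMod c)ˣ, d ^ (2 * j + 1) ∈ H ∨ -(d ^ (2 * j + 1)) ∈ H)
    {𝒪 : Type} [CommRing 𝒪] [IsLocalRing 𝒪] {𝕋 : Type} [CommRing 𝕋]
    (etaT : 𝕋 →+* Module.End ℤ (AH M c H p)) (θ : 𝕋 →+* ResidueField 𝒪)
    (hWdiv : ∀ w : ↥(thetaPart etaT θ), ∃ w' : ↥(thetaPart etaT θ), (p : 𝒪) • w' = w)
    (z : ℕ → 𝕋)
    (hz : ∀ (ℓ : ℕ), ℓ.Prime → ¬ ℓ ∣ N' → ℓ ∉ S →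
      etaT (z ℓ) = Tz M c H h2 hcM p ℓ *
        diaZ M c H h2 hcM p (Fermat.Agent.NEB.EIG.H39.unitOf c ℓ) ^ j)
    (θ' : CuspForm.heckeAlgebra N' 2 S →+* ResidueField 𝒪)
    (hθ : ∀ (ℓ : ℕ) (hℓ : ℓ.Prime) (hℓN : ¬ ℓ ∣ N') (hℓS : ℓ ∉ S),
      θ' (CuspForm.heckeAlgebra.T hℓ hℓN hℓS) = θ (z ℓ)) :
    ∃ etaW : CuspForm.heckeAlgebra N' 2 S →+* Module.End 𝒪 ↥(thetaPart etaT θ),
      (∀ (ℓ : ℕ) (hℓ : ℓ.Prime) (hℓN : ¬ ℓ ∣ N') (hℓS : ℓ ∉ S),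
        etaW (CuspForm.heckeAlgebra.T hℓ hℓN hℓS) = thetaEta etaT θ (z ℓ)) ∧
      (∀ x, ∃ t : 𝕋, etaW x = thetaEta etaT θ t ∧ θ' x = θ t) ∧
      (∀ (x : CuspForm.heckeAlgebra N' 2 S) (a : 𝒪), residue 𝒪 a = θ' x →
        ∀ w : ↥(thetaPart etaT θ),
          ∃ m : ℕ, ((etaW x - a • (1 : Module.End 𝒪 ↥(thetaPart etaT θ))) ^ m) w = 0) :=
  Fermat.Agent.L.Pivot.Geom.H4.stmt_EIG_W_M p N hN qs hnd hpr hqN c N' M hc hM hcM hN' S hS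
    (AH M c H p) (fun x => isPTors_coe x)
    (Fermat.Agent.NEB.Geom.H84.finite_AH_p H h2 hcM p)
    (Fermat.Agent.NEB.EIG.H98.monoSys M c H h2 hcM p Fermat.Agent.NEB.H70.iotaC)
    (Tz M c H h2 hcM p)
    (fun ℓ hℓ hℓM k x hx =>
      Fermat.Agent.NEB.EIG.H98.monoSys_Tz M c H h2 hcM p Fermat.Agent.NEB.H70.iotaC
        ℓ hℓ hℓM k x hx)
    (diaZ M c H h2 hcM p)
    (fun g hg d hd k x hx =>
      Fermat.Agent.NEB.EIG.H98.monoSys_diaZ M c H h2 hcM p Fermat.Agent.NEB.H70.iotaC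
        g hg d hd k x hx)
    (fun ℓ _ _ d => Fermat.Agent.NEB.EIG.H98.commute_Tz_diaZ M c H h2 hcM p ℓ d)
    j (fun d => Fermat.Agent.NEB.EIG.H98.diaZ_pow_eq_one M c H h2 hcM p hj d)
    etaT θ hWdiv z hz θ' hθ

/-! ## 2. Arithmetic of the levels -/

section Arith

variable {k r : ℕ} (qP : Fin k → ℕ) (qv : Fin r → ℕ)

/-- `pvLevel = N c'²` with `N = N1 / ∏ qP_j`. -/
theorem pvLevel_eq (N1 : ℕ) (hd : twC qP ∣ N1) (h0 : twC qP ≠ 0) :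
    pvLevel N1 qP qv = N1 / twC qP * pvC qP qv * pvC qP qv := by
  obtain ⟨m, rfl⟩ := hd
  rw [Nat.mul_div_cancel_left m (Nat.pos_of_ne_zero h0)]
  unfold pvLevel twLevel pvC
  have h1 : ∏ j, qv j ^ 2 = twC qv ^ 2 := Finset.prod_pow _ _ _
  have h2 : ∏ j, qP j = twC qP := rfl
  rw [h1, h2]
  ring

/-- `M1 = N c'` with `N = N1 / ∏ qP_j`. -/
theorem pvM_eq (N1 : ℕ) (hd : twC qP ∣ N1) (h0 : twC qP ≠ 0) :
    N1 * twC qv = N1 / twC qP * pvC qP qv := by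
  obtain ⟨m, rfl⟩ := hd
  rw [Nat.mul_div_cancel_left m (Nat.pos_of_ne_zero h0)]
  unfold pvC
  ring

/-- The list of the primes of `c'`. -/
def pvList : List ℕ := List.ofFn qP ++ List.ofFn qv

theorem pvList_prod : (pvList qP qv).prod = pvC qP qv := by
  unfold pvList pvC twC
  rw [List.prod_append, List.prod_ofFn, List.prod_ofFn]

theorem mem_pvList {q : ℕ} :
    q ∈ pvList qP qv ↔ (∃ j, qP j = q) ∨ ∃ i, qv i = q := by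
  unfold pvList
  rw [List.mem_append, List.mem_ofFn, List.mem_ofFn]

variable {qP qv}

theorem pvList_nodup {N1 : ℕ} {S : Finset ℕ} {p : ℕ} {eP : Fin k → ℕ} {n : ℕ}
    (h : PvHyp N1 S p eP n qP qv) : (pvList qP qv).Nodup := by
  unfold pvList
  rw [List.nodup_append]
  refine ⟨List.nodup_ofFn.mpr h.injP, List.nodup_ofFn.mpr h.inj, ?_⟩
  intro a ha b hb hab
  obtain ⟨j, rfl⟩ := List.mem_ofFn.mp ha
  obtain ⟨i, hi⟩ := List.mem_ofFn.mp hb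
  exact h.qP_ne_qv j i (hab.trans hi.symm)

theorem pvList_prime {N1 : ℕ} {S : Finset ℕ} {p : ℕ} {eP : Fin k → ℕ} {n : ℕ}
    (h : PvHyp N1 S p eP n qP qv) : ∀ q ∈ pvList qP qv, q.Prime := by
  intro q hq
  rcases (mem_pvList qP qv).mp hq with ⟨j, rfl⟩ | ⟨i, rfl⟩
  · exact h.primeP j
  · exact h.prime i

theorem twC_P_dvd {N1 : ℕ} {S : Finset ℕ} {p : ℕ} {eP : Fin k → ℕ} {n : ℕ}
    (h : PvHyp N1 S p eP n qP qv) : twC qP ∣ N1 :=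
  twC_dvd_of_prime qP h.injP h.primeP N1 h.dvdP

theorem twC_P_ne_zero {N1 : ℕ} {S : Finset ℕ} {p : ℕ} {eP : Fin k → ℕ} {n : ℕ}
    (h : PvHyp N1 S p eP n qP qv) : twC qP ≠ 0 :=
  twC_ne_zero_of_prime qP h.primeP

/-- The primes of `c'` do not divide `N = N1 / ∏ qP_j` (`N1` is squarefree). -/
theorem not_dvd_base {N1 : ℕ} {S : Finset ℕ} {p : ℕ} {eP : Fin k → ℕ} {n : ℕ}
    (h : PvHyp N1 S p eP n qP qv) : ∀ q ∈ pvList qP qv, ¬ q ∣ N1 / twC qP := by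
  intro q hq hd
  have hdP := twC_P_dvd h
  have hN1 : N1 / twC qP * twC qP = N1 := Nat.div_mul_cancel hdP
  rcases (mem_pvList qP qv).mp hq with ⟨j, rfl⟩ | ⟨i, rfl⟩
  · have h1 : qP j * qP j ∣ N1 := by
      rw [← hN1]
      exact mul_dvd_mul hd (dvd_twC_self qP j)
    have h2 : IsUnit (qP j) := h.hsq (qP j) h1
    exact (h.primeP j).one_lt.ne' (Nat.isUnit_iff.mp h2)
  · have h1 : qv i ∣ N1 := dvd_trans hd (Nat.div_dvd_of_dvd hdP)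
    exact h.notS i (h.hNS _ (h.prime i) h1)

/-- `N = N1 / ∏ qP_j ≠ 0`. -/
theorem base_ne_zero {N1 : ℕ} {S : Finset ℕ} {p : ℕ} {eP : Fin k → ℕ} {n : ℕ}
    (h : PvHyp N1 S p eP n qP qv) : N1 / twC qP ≠ 0 := by
  intro h0
  have hN1 : N1 / twC qP * twC qP = N1 := Nat.div_mul_cancel (twC_P_dvd h)
  rw [h0, zero_mul] at hN1
  exact h.hN hN1.symm

/-- The primes of `pvLevel` lie in `twSet S qv`. -/
theorem prime_mem_twSet {N1 : ℕ} {S : Finset ℕ} {p : ℕ} {eP : Fin k → ℕ} {n : ℕ}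
    (h : PvHyp N1 S p eP n qP qv) (q : ℕ) (hq : q.Prime) (hd : q ∣ pvLevel N1 qP qv) :
    q ∈ (↑(twSet S qv) : Set ℕ) := by
  have h1 : q ∣ twLevel N1 qv := H4.prime_dvd_twLevel_of_dvd_pvLevel N1 qP qv h.dvdP q hq hd
  by_cases h2 : q ∣ N1
  · exact H41.subset_twSet S qv (h.hNS q hq h2)
  · exact H41.new_prime_mem_twSet N1 S qv h.prime q hq h1 h2

/-- The exponent `2 jPv + 1 = p ^ E` kills `Δ'`. -/
theorem pow_jPv_mem {N1 : ℕ} {S : Finset ℕ} {p : ℕ} {eP : Fin k → ℕ} {n : ℕ}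
    (h : PvHyp N1 S p eP n qP qv) (d : (ZMod (pvC qP qv))ˣ) :
    d ^ (2 * jPv p eP n + 1) ∈ pvH qP qv p eP n ∨
      -(d ^ (2 * jPv p eP n + 1)) ∈ pvH qP qv p eP n := by
  left
  rw [two_jPv p eP n h.hp h.hp2]
  exact pow_mem_pvH qP qv p eP n d

end Arith

/-! ## 3. Divisibility -/

/-- A `ϖ`-divisible module over a discrete valuation ring is `p`-divisible (`p ≠ 0`). -/
theorem pdiv_of_isDiv {𝒪 : Type} [CommRing 𝒪] [IsDomain 𝒪] [IsDiscreteValuationRing 𝒪]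
    {ϖ : 𝒪} (hϖ : Irreducible ϖ) {p : ℕ} (hp0 : (p : 𝒪) ≠ 0)
    {W : Type*} [AddCommGroup W] [Module 𝒪 W] (h : IsDiv ϖ W) :
    ∀ w : W, ∃ w' : W, (p : 𝒪) • w' = w := by
  obtain ⟨e, u, hu⟩ := IsDiscreteValuationRing.eq_unit_mul_pow_irreducible hp0 hϖ
  have hpow : ∀ (e : ℕ) (w : W), ∃ w' : W, ϖ ^ e • w' = w := by
    intro e
    induction e with
    | zero => exact fun w => ⟨w, by rw [pow_zero, one_smul]⟩
    | succ e ih =>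
      intro w
      obtain ⟨w₁, hw₁⟩ := h.div w
      obtain ⟨w₂, hw₂⟩ := ih w₁
      exact ⟨w₂, by rw [pow_succ, mul_comm, mul_smul, hw₂, hw₁]⟩
  intro w
  obtain ⟨w₁, hw₁⟩ := hpow e w
  refine ⟨((u⁻¹ : 𝒪ˣ) : 𝒪) • w₁, ?_⟩
  rw [hu, smul_smul, mul_comm (↑u : 𝒪) (ϖ ^ e), mul_assoc, Units.mul_inv, mul_one, hw₁]

/-! ## 4. The `η` half of P-ETA -/

section Eta

variable (𝒪 : Type) [CommRing 𝒪] [IsDomain 𝒪] [IsDiscreteValuationRing 𝒪] (p : ℕ)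
  (N1 : ℕ) [NeZero N1]
  (S : Finset ℕ) (θ : CuspForm.heckeAlgebra N1 2 (↑S : Set ℕ) →+* ResidueField 𝒪)
  {k : ℕ} (qP : Fin k → ℕ) (eP : Fin k → ℕ) (n : ℕ) {r : ℕ} (qv : Fin r → ℕ)
  [NeZero (N1 * twC qv)] [NeZero (pvC qP qv)] [NeZero (twLevel N1 qv)]
  [NeZero (pvLevel N1 qP qv)]

/-- `η⁺ (x_ℓ) = T_ℓ^H ⟨ℓ⟩^jPv` at the good primes of the level `pvLevel`. -/
theorem etaPv_X_good (h2 : 2 ≤ pvC qP qv) (hc : pvC qP qv ∣ N1 * twC qv)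
    (hcomm : ∀ i j, Commute (opsPv N1 S p eP n qP qv h2 hc i)
      (opsPv N1 S p eP n qP qv h2 hc j))
    (ℓ : ℕ) (hℓ : ℓ.Prime) (hℓN : ¬ ℓ ∣ pvLevel N1 qP qv)
    (hℓS : ℓ ∉ (↑(twSet S qv) : Set ℕ)) :
    etaPv N1 S p eP n qP qv h2 hc hcomm (MvPolynomial.X (Sum.inl ℓ))
      = Tz (N1 * twC qv) (pvC qP qv) (pvH qP qv p eP n) h2 hc p ℓ *
        diaZ (N1 * twC qv) (pvC qP qv) (pvH qP qv p eP n) h2 hc p
          (Fermat.Agent.NEB.EIG.H39.unitOf (pvC qP qv) ℓ) ^ (jPv p eP n) := by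
  have hg : GoodTw N1 S qv ℓ := goodTw_of_pv N1 S qP qv hℓ hℓN hℓS
  rw [polyHom_X]
  exact if_pos hg

/-- `θ ∘ restTW ∘ restPV` and `θ⁺` agree on `T_ℓ`. -/
theorem thetaLvl_T (hprime : ∀ i, (qv i).Prime) (hdvd : ∀ j, qP j ∣ N1)
    (α : Fin r → ResidueField 𝒪)
    (ℓ : ℕ) (hℓ : ℓ.Prime) (hℓN : ¬ ℓ ∣ pvLevel N1 qP qv)
    (hℓS : ℓ ∉ (↑(twSet S qv) : Set ℕ)) :
    thetaLvl 𝒪 N1 S θ qP qv hprime hdvd (CuspForm.heckeAlgebra.T hℓ hℓN hℓS)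
      = thetaPv N1 S qP qv θ α (MvPolynomial.X (Sum.inl ℓ)) := by
  have hg : GoodTw N1 S qv ℓ := goodTw_of_pv N1 S qP qv hℓ hℓN hℓS
  rw [thetaPv_T N1 S qP qv θ α hg]
  have e1 := H4.restPV_T N1 S qP qv hdvd ℓ hℓ hℓN hℓS hg.2.1
  have e2 := H41.restTW_T N1 S qv hprime ℓ hℓ hg.2.1 hℓS hg.not_dvd hg.not_mem
  unfold thetaLvl
  rw [RingHom.comp_apply, RingHom.comp_apply, e1, e2]

end Eta

/-- **P-ETA, `η` half**: if `W'` is divisible then the Hecke ring of level `pvLevel` acts on it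
through the twisted operators, locally at `θ ∘ restTW ∘ restPV`. -/
theorem peta_eta (𝒪 : Type) [CommRing 𝒪] [IsDomain 𝒪] [IsDiscreteValuationRing 𝒪]
    [CharZero 𝒪] (ϖ : 𝒪) (hϖ : Irreducible ϖ) (p : ℕ) [Fact p.Prime] (N1 : ℕ) [NeZero N1]
    (S : Finset ℕ) (θ : CuspForm.heckeAlgebra N1 2 (↑S : Set ℕ) →+* ResidueField 𝒪)
    {k : ℕ} (qP : Fin k → ℕ) (eP : Fin k → ℕ) (n r : ℕ) (qv : Fin r → ℕ)
    [NeZero (N1 * twC qv)] [NeZero (pvC qP qv)] [NeZero (twLevel N1 qv)]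
    [NeZero (pvLevel N1 qP qv)]
    (hPV : PvHyp N1 S p eP n qP qv) (h2 : 2 ≤ pvC qP qv)
    (hc : pvC qP qv ∣ N1 * twC qv)
    (hcomm : ∀ i j, Commute (opsPv N1 S p eP n qP qv h2 hc i)
      (opsPv N1 S p eP n qP qv h2 hc j))
    (α : Fin r → ResidueField 𝒪)
    (hdiv : IsDiv ϖ ↥(Wpv N1 S p eP n qP qv h2 hc 𝒪 hcomm θ α)) :
    ∃ η : CuspForm.heckeAlgebra (pvLevel N1 qP qv) 2 (↑(twSet S qv) : Set ℕ) →+*
        Module.End 𝒪 ↥(Wpv N1 S p eP n qP qv h2 hc 𝒪 hcomm θ α),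
      (∀ (ℓ : ℕ) (hℓ : ℓ.Prime) (hℓN : ¬ ℓ ∣ pvLevel N1 qP qv)
        (hℓS : ℓ ∉ (↑(twSet S qv) : Set ℕ)),
        η (CuspForm.heckeAlgebra.T hℓ hℓN hℓS) =
          thetaEta (etaPv N1 S p eP n qP qv h2 hc hcomm) (thetaPv N1 S qP qv θ α)
            (MvPolynomial.X (Sum.inl ℓ))) ∧
      (∀ (t : CuspForm.heckeAlgebra (pvLevel N1 qP qv) 2 (↑(twSet S qv) : Set ℕ)) (a₀ : 𝒪),
        residue 𝒪 a₀ = thetaLvl 𝒪 N1 S θ qP qv hPV.prime hPV.dvdP t →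
        ∀ x : ↥(Wpv N1 S p eP n qP qv h2 hc 𝒪 hcomm θ α), ϖ • x = 0 →
          ∃ m : ℕ, ((η t - a₀ • (1 : Module.End 𝒪
            ↥(Wpv N1 S p eP n qP qv h2 hc 𝒪 hcomm θ α))) ^ m) x = 0) := by
  have hp0 : (p : 𝒪) ≠ 0 := Nat.cast_ne_zero.mpr (Fact.out : p.Prime).ne_zero
  have hWdiv := pdiv_of_isDiv hϖ hp0 hdiv
  have key := exists_etaW_JH p (N1 / twC qP) (base_ne_zero hPV)
    (pvList qP qv) (pvList_nodup hPV) (pvList_prime hPV) (not_dvd_base hPV)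
    (pvC qP qv) (pvLevel N1 qP qv) (N1 * twC qv) (pvList_prod qP qv).symm
    (pvLevel_eq qP qv N1 (twC_P_dvd hPV) (twC_P_ne_zero hPV))
    (pvM_eq qP qv N1 (twC_P_dvd hPV) (twC_P_ne_zero hPV))
    (↑(twSet S qv) : Set ℕ) (prime_mem_twSet hPV)
    (pvH qP qv p eP n) h2 hc (jPv p eP n) (pow_jPv_mem hPV)
    (𝒪 := 𝒪) (𝕋 := PolyTw r (pvC qP qv))
    (etaPv N1 S p eP n qP qv h2 hc hcomm) (thetaPv N1 S qP qv θ α)
    hWdiv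
    (fun ℓ => MvPolynomial.X (Sum.inl ℓ))
    (etaPv_X_good p N1 S qP eP n qv h2 hc hcomm)
    (thetaLvl 𝒪 N1 S θ qP qv hPV.prime hPV.dvdP)
    (thetaLvl_T 𝒪 N1 S θ qP qv hPV.prime hPV.dvdP α)
  obtain ⟨etaW, h1, -, h3⟩ := key
  exact ⟨etaW, h1, fun t a₀ ha x _ => h3 t a₀ ha x⟩

/-! ## 5. P-ETA from the divisibility of `W'` -/

/-- **P-ISDIV**: the first half of `Stmt_P_ETA` (leaf of helper80: W-DIV + the mixed tower). -/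
def Stmt_P_ISDIV : Prop :=
  ∀ (𝒪 : Type) [CommRing 𝒪] [IsDomain 𝒪] [IsDiscreteValuationRing 𝒪]
    [IsAdicComplete (maximalIdeal 𝒪) 𝒪] [Finite (ResidueField 𝒪)] [CharZero 𝒪]
    (ϖ : 𝒪) (p : ℕ) [Fact p.Prime] (N1 : ℕ) [NeZero N1] (S Smin : Finset ℕ)
    (θ : CuspForm.heckeAlgebra N1 2 (↑S : Set ℕ) →+* ResidueField 𝒪)
    (ρbar : ResidualGaloisRep (ResidueField 𝒪)) (k : ℕ) (Pv : PivotPrimes k)
    (eP : Fin k → ℕ), PvStd 𝒪 ϖ p N1 S Smin θ ρbar Pv eP →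
    ∀ (n r : ℕ) (qv : Fin r → ℕ)
      [NeZero (N1 * twC qv)] [NeZero (pvC Pv.q qv)] [NeZero (twLevel N1 qv)]
      [NeZero (pvLevel N1 Pv.q qv)]
      (hPV : PvHyp N1 S p eP n Pv.q qv) (h2 : 2 ≤ pvC Pv.q qv)
      (hc : pvC Pv.q qv ∣ N1 * twC qv)
      (hcomm : ∀ i j, Commute (opsPv N1 S p eP n Pv.q qv h2 hc i)
        (opsPv N1 S p eP n Pv.q qv h2 hc j))
      (α : Fin r → ResidueField 𝒪) (ℓ₀ : ℕ) (hℓ₀ : GoodTw N1 S qv ℓ₀),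
      θ (CuspForm.heckeAlgebra.T hℓ₀.1 hℓ₀.not_dvd hℓ₀.not_mem) ≠ ((ℓ₀ : ResidueField 𝒪) + 1) →
    IsDiv ϖ ↥(Wpv N1 S p eP n Pv.q qv h2 hc 𝒪 hcomm θ α)

/-- **P-ETA** from the divisibility of `W'`. -/
theorem stmt_P_ETA_of (hD : Stmt_P_ISDIV) : Stmt_P_ETA := by
  intro 𝒪 _ _ _ _ _ _ ϖ p _ N1 _ S Smin θ ρbar k Pv eP hstd n r qv _ _ _ _ hPV h2 hc hcomm α
    ℓ₀ hℓ₀ hne
  have hdiv := hD 𝒪 ϖ p N1 S Smin θ ρbar k Pv eP hstd n r qv hPV h2 hc hcomm α ℓ₀ hℓ₀ hne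
  exact ⟨hdiv, peta_eta 𝒪 ϖ hstd.hϖ p N1 S θ Pv.q eP n r qv hPV h2 hc hcomm α hdiv⟩

/-- Generators of `Δ'` exist (`H19.exists_sigma_pv` at chosen places). -/
theorem exists_deltaGen {N1 : ℕ} {S : Finset ℕ} {p : ℕ} {k : ℕ} {eP : Fin k → ℕ} {n : ℕ}
    {qP : Fin k → ℕ} {r : ℕ} {qv : Fin r → ℕ} [NeZero (pvC qP qv)]
    (hPV : PvHyp N1 S p eP n qP qv) :
    ∃ (δP : Fin k → (ZMod (pvC qP qv))ˣ) (δQ : Fin r → (ZMod (pvC qP qv))ˣ),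
      IsDeltaGenPv p eP n qP qv δP δQ := by
  have hex : ∀ i : Fin r, ∃ (A : ValuationSubring Kbar) (σ : GalK),
      A.LiesOverPrime (qv i) ∧ A.IsFrobeniusAt σ (qv i) :=
    fun i => Fermat.Agent.Lib.FrobExists.exists_place_and_frobenius (qv i) (hPV.prime i)
  choose P frob hP hfr using hex
  obtain ⟨σ, δP, hσ, hδ⟩ := H19.exists_sigma_pv hPV P hP
  exact ⟨δP, _, hδ⟩

/-- **P-ISDIV**, unconditional (helper70's `H70.isDiv_Wpv`). -/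
theorem stmt_P_ISDIV : Stmt_P_ISDIV := by
  intro 𝒪 _ _ _ _ _ _ ϖ p _ N1 _ S Smin θ ρbar k Pv eP hstd n r qv _ _ _ _ hPV h2 hc hcomm α
    ℓ₀ hℓ₀ hne
  have hp0 : (p : 𝒪) ≠ 0 := Nat.cast_ne_zero.mpr (Fact.out : p.Prime).ne_zero
  obtain ⟨δP, δQ, hδ⟩ := exists_deltaGen hPV
  exact H70.isDiv_Wpv (𝒪 := 𝒪) (ϖ := ϖ) (p := p) (N1 := N1) (S := S) (θ := θ) (eP := eP)
    (n := n) (qP := Pv.q) (qv := qv) hstd.hϖ hstd.hyp.hp𝒪 hp0 h2 hc hcomm α hPV hδ ℓ₀ hℓ₀ hne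

/-- **P-ETA**, unconditional: the divisibility is helper70's `H70.isDiv_Wpv` (with the generators
of `Δ'` of `H19.exists_sigma_pv`), the Hecke action is `peta_eta`. -/
theorem stmt_P_ETA : Stmt_P_ETA :=
  stmt_P_ETA_of stmt_P_ISDIV

/-- **P-SETUP** from W-NONEIS alone. -/
theorem stmt_P_SETUP_of_noneis (hNE : Stmt_W_NONEIS) : Stmt_P_SETUP :=
  stmt_P_SETUP_of hNE stmt_P_ETA

/-- **P-SETUP**, unconditional (W-NONEIS is helper6's `H6.stmt_W_NONEIS`). -/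
theorem stmt_P_SETUP : Stmt_P_SETUP :=
  stmt_P_SETUP_of Fermat.Agent.NEB.Geom.H6.stmt_W_NONEIS stmt_P_ETA

end Fermat.Agent.L.Pivot.Geom.H11

end

end
-- ==== END Fermat.Agent.L.Pivot.Geom.H11_PEta

-- ==== BEGIN Fermat.Agent.L.Pivot.Geom.H19_AsmTop
section

/-!
# PIVOT, package PV-GEOM, Part I (design (C)): the top of the assembly (helper19)

* `Stmt_P_eigpart D`, `Stmt_P_new D` and `Stmt_P_EIGPART`, `Stmt_P_NEW` : the last two leaves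
  (fields `eigpart`, `new` of helper59's `PVBase`);
* `nonempty_pvBase` : `PVBase` from the field statements on `D : PvSetup`;
* `minSetup_of`     : the level-`N1` setup from `Stmt_W_MD` (no hypothesis on `ρbar`);
* `Stmt_PVBASE5`    : `Stmt_PVBASE` with the extra hypotheses `5 ≤ p`, `0 < k`;
* `stmt_PVBASE5_of` : **all leaves ⟹ `Stmt_PVBASE5`**.

Complete proofs, standard axioms only.
-/

set_option autoImplicit false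
set_option linter.unusedSectionVars false
set_option linter.style.haveILetI false
set_option linter.unusedVariables false

noncomputable section

open ModularCurve AlgebraicCurve IsLocalRing TensorProduct Polynomial

namespace Fermat.Agent.L.Pivot.Geom

open Fermat.Agent.NEB Fermat.Agent.NEB.JH Fermat.Agent.NEB.Geom Fermat.Agent.S59.Lim
  Fermat.Agent.S59.Lim.H2 Fermat.Agent.S59.Asm

section Fields

variable {𝒪 : Type} [CommRing 𝒪] [IsDomain 𝒪] [IsDiscreteValuationRing 𝒪]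
  {ϖ : 𝒪} {p : ℕ} {N1 : ℕ} [NeZero N1] {S : Finset ℕ}
  {θ : CuspForm.heckeAlgebra N1 2 (↑S : Set ℕ) →+* ResidueField 𝒪}
  {ρbar : ResidualGaloisRep (ResidueField 𝒪)} {k : ℕ} {eP : Fin k → ℕ} {n : ℕ}
  {qP : Fin k → ℕ} {r : ℕ} {qv : Fin r → ℕ}
  [NeZero (N1 * twC qv)] [NeZero (pvC qP qv)] [NeZero (twLevel N1 qv)]
  [NeZero (pvLevel N1 qP qv)]
  (Dm : MinSetup 𝒪 ϖ p N1 S θ) (D : PvSetup 𝒪 ϖ p N1 S θ ρbar eP n qP qv)

/-- **P-EIGPART**: a Hecke operator of level `pvLevel` whose restriction to the level `twLevel`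
vanishes kills the `Δ_Σ`-norms of `W'`. -/
def Stmt_P_eigpart : Prop :=
  ∀ t : CuspForm.heckeAlgebra (pvLevel N1 qP qv) 2 (↑(twSet S qv) : Set ℕ),
    H4.restPV N1 S qP qv D.hPV.dvdP t = 0 →
    ∀ x : D.WD.W, D.WD.η t (H59.nmTotE (fun j => p ^ eP j) D.c x) = 0

/-- **P-NEW**: the ramified types are new at the pivot primes (the field `new` of `PVBase`,
`PVDiv`, `PVGeom`; Part II of `NOTES/plan/PV_GEOM.md`). -/
def Stmt_P_new : Prop :=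
  ∀ (ψ : Fin k → 𝒪), (∀ j, ψ j ^ (p ^ eP j) = 1 ∧ ψ j ≠ 1) →
    ∀ (E : Type) [CommRing E] [IsDomain E] [CharZero E]
      (χ : CuspForm.heckeAlgebra (pvLevel N1 qP qv) 2 (↑(twSet S qv) : Set ℕ) →+* E),
      (∀ t, (∀ v : H2.tate ϖ D.WD.W, H2.mapEnd ϖ D.WD.W (D.WD.η t) v ∈
        typeSub (fun j => H2.mapEnd ϖ D.WD.W (D.c j)) ψ) → χ t = 0) →
      ∀ (j : Fin k) [NeZero (pvLevel N1 qP qv / qP j)]
        (χ' : CuspForm.heckeAlgebra (pvLevel N1 qP qv / qP j) 2 (↑(twSet S qv) : Set ℕ) →+* E),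
        ¬ ∀ (ℓ : ℕ) (hℓ : ℓ.Prime) (hℓN' : ¬ ℓ ∣ pvLevel N1 qP qv)
          (hℓS : ℓ ∉ (↑(twSet S qv) : Set ℕ)) (hℓN : ¬ ℓ ∣ pvLevel N1 qP qv / qP j),
          χ' (CuspForm.heckeAlgebra.T hℓ hℓN hℓS) = χ (CuspForm.heckeAlgebra.T hℓ hℓN' hℓS)

/-- **The final plumbing**: `PVBase` from the field statements. -/
theorem nonempty_pvBase (hgal : Stmt_P_gal D) (hes : Stmt_P_es D) (hC : Stmt_P_hstepC D)
    (hD : Stmt_P_hstepD D) (hpi : Stmt_P_pi Dm D) (heig : Stmt_P_eigpart D)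
    (hfn : Stmt_P_frob_nil D) (hlg : Stmt_P_lg D) (hnew : Stmt_P_new D) :
    Nonempty (PVBase 𝒪 ϖ p ρbar N1 S θ Dm.MD qP eP n qv) := by
  obtain ⟨π, πup, h1, h2, h3, h4, h5, _⟩ := hpi
  obtain ⟨g1, g2, g3, g4, g5, g6, g7⟩ := hgal
  exact ⟨{
    rest1 := Fermat.Agent.S59.Asm.H41.restTW N1 S qv D.hPV.prime
    rest1_T := fun ℓ hℓ hℓN' hℓS' hℓN hℓS =>
      Fermat.Agent.S59.Asm.H41.restTW_T N1 S qv D.hPV.prime ℓ hℓ hℓN' hℓS' hℓN hℓS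
    rest := H4.restPV N1 S qP qv D.hPV.dvdP
    rest_T := H4.restPV_T N1 S qP qv D.hPV.dvdP
    rest_surj := H19.restPV_surjective N1 S qP qv D.hPV.dvdP
    WD := D.WD
    gal := D.gal
    gal_cont := g1
    gal_η := g2
    es := hes
    c := D.c
    c_pow := g3
    d := D.d
    d_pow := g4
    c_comm := fun i j => g5 _ _
    d_comm := fun i j => g5 _ _
    c_d := fun j i => g5 _ _
    c_η := fun j t => g6 _ t
    d_η := fun i t => g6 _ t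
    c_gal := fun j g => g7 _ g
    d_gal := fun i g => g7 _ g
    hstepC := hC
    hstepD := hD
    π := π
    πup := πup
    πup_injective := h1
    πup_π := h2
    c_πup := fun j y => h3 _ y
    d_πup := fun i y => h3 _ y
    invAll := h4
    π_η := h5
    eigpart := heig
    P := D.P
    P_over := D.P_over
    frob := D.frob
    frob_spec := D.frob_spec
    σ := D.σ
    σ_mem := D.σ_mem
    a := D.a
    a' := D.a'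
    a_ne := fun i => by
      rw [D.ha i, D.ha' i]
      exact D.eig.ne i
    charpoly_frob := D.charpoly_frob
    frob_nil := hfn
    lg := hlg
    new := hnew }⟩

end Fields

/-! ## The universally quantified leaves P-EIGPART, P-NEW -/

/-- **P-EIGPART** (universally quantified). -/
def Stmt_P_EIGPART : Prop :=
  ∀ (𝒪 : Type) [CommRing 𝒪] [IsDomain 𝒪] [IsDiscreteValuationRing 𝒪]
    [IsAdicComplete (maximalIdeal 𝒪) 𝒪] [Finite (ResidueField 𝒪)] [CharZero 𝒪]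
    (ϖ : 𝒪) (p : ℕ) [Fact p.Prime] (N1 : ℕ) [NeZero N1] (S Smin : Finset ℕ)
    (θ : CuspForm.heckeAlgebra N1 2 (↑S : Set ℕ) →+* ResidueField 𝒪)
    (ρbar : ResidualGaloisRep (ResidueField 𝒪)) (k : ℕ) (Pv : PivotPrimes k)
    (eP : Fin k → ℕ), PvStd 𝒪 ϖ p N1 S Smin θ ρbar Pv eP →
    ∀ (Dm : MinSetup 𝒪 ϖ p N1 S θ) (n r : ℕ) (qv : Fin r → ℕ)
      [NeZero (N1 * twC qv)] [NeZero (pvC Pv.q qv)] [NeZero (twLevel N1 qv)]
      [NeZero (pvLevel N1 Pv.q qv)]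
      (D : PvSetup 𝒪 ϖ p N1 S θ ρbar eP n Pv.q qv),
      Stmt_P_eigpart D

/-- **P-NEW** (universally quantified). -/
def Stmt_P_NEW : Prop :=
  ∀ (𝒪 : Type) [CommRing 𝒪] [IsDomain 𝒪] [IsDiscreteValuationRing 𝒪]
    [IsAdicComplete (maximalIdeal 𝒪) 𝒪] [Finite (ResidueField 𝒪)] [CharZero 𝒪]
    (ϖ : 𝒪) (p : ℕ) [Fact p.Prime] (N1 : ℕ) [NeZero N1] (S Smin : Finset ℕ)
    (θ : CuspForm.heckeAlgebra N1 2 (↑S : Set ℕ) →+* ResidueField 𝒪)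
    (ρbar : ResidualGaloisRep (ResidueField 𝒪)) (k : ℕ) (Pv : PivotPrimes k)
    (eP : Fin k → ℕ), PvStd 𝒪 ϖ p N1 S Smin θ ρbar Pv eP →
    ∀ (Dm : MinSetup 𝒪 ϖ p N1 S θ) (n r : ℕ) (qv : Fin r → ℕ)
      [NeZero (N1 * twC qv)] [NeZero (pvC Pv.q qv)] [NeZero (twLevel N1 qv)]
      [NeZero (pvLevel N1 Pv.q qv)]
      (D : PvSetup 𝒪 ϖ p N1 S θ ρbar eP n Pv.q qv),
      Stmt_P_new D

/-! ## The level-`N1` setup -/

/-- The level-`N1` setup from W-MD (helper6's `stmt_A_MIN_of` without `StdHyp`). -/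
theorem minSetup_of (hMD : Stmt_W_MD)
    (𝒪 : Type) [CommRing 𝒪] [IsDomain 𝒪] [IsDiscreteValuationRing 𝒪]
    [IsAdicComplete (maximalIdeal 𝒪) 𝒪] [Finite (ResidueField 𝒪)] [CharZero 𝒪]
    (ϖ : 𝒪) (hϖ : Irreducible ϖ) (p : ℕ) [Fact p.Prime] (hpm : (p : 𝒪) ∈ maximalIdeal 𝒪)
    (N1 : ℕ) [NeZero N1] (S : Finset ℕ) (hNS : ∀ q : ℕ, q.Prime → q ∣ N1 → q ∈ S)
    (θ : CuspForm.heckeAlgebra N1 2 (↑S : Set ℕ) →+* ResidueField 𝒪) :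
    Nonempty (MinSetup 𝒪 ϖ p N1 S θ) := by
  obtain ⟨ηC, hT, hcomm, hdiv, hfin, hes, hunr, hcont, hnt⟩ := hMD p N1 S hNS
  have hp0 : (p : 𝒪) ≠ 0 := Nat.cast_ne_zero.mpr (Fact.out : p.Prime).ne_zero
  have htors : ∀ x : A0 N1 p, ∃ k : ℕ, p ^ k • x = 0 := fun x => isPTors_coe x
  exact ⟨{
    ηC := ηC
    ηC_T := hT
    gal_comm := fun σ t => hcomm t σ
    hW := stmt_TENS 𝒪 ϖ hϖ p hpm hp0 (A0 N1 p) htors hdiv hfin
    es := hes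
    unr := hunr
    cont := hcont
    nontriv := hnt 𝒪 hpm θ }⟩

/-! ## The top -/

/-- **PV-BASE with `5 ≤ p` and `0 < k`**: `Stmt_PVBASE` (helper59, `Base.lean`) with the two extra
hypotheses `5 ≤ p` (helper70: `UnrCond` at the pivot primes fails for `p = 3`) and `0 < k`
(for `k = 0` the datum is a Taylor–Wiles datum: NEB-GEOM). -/
def Stmt_PVBASE5 : Prop :=
  ∀ (𝒪 : Type) [CommRing 𝒪] [IsDomain 𝒪] [IsDiscreteValuationRing 𝒪]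
    [IsAdicComplete (maximalIdeal 𝒪) 𝒪] [Finite (ResidueField 𝒪)] [CharZero 𝒪]
    (ϖ : 𝒪), Irreducible ϖ →
    ∀ (p : ℕ) [Fact p.Prime] (ρbar : ResidualGaloisRep (ResidueField 𝒪)) (S Smin : Finset ℕ),
    Fermat.Agent.S56.Hyp 𝒪 p ρbar S Smin →
    ∀ (N1 : ℕ) [NeZero N1] [Fact (CuspForm.HasIntegralStructure N1 2)],
    (∀ q : ℕ, q.Prime → q ∣ N1 → q ∈ S) → Squarefree N1 →
    (5 ≤ p ∨ ∃ r : ℕ, r.Prime ∧ r ∣ N1 ∧ r % 3 = 2) →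
    ∀ (θ : CuspForm.heckeAlgebra N1 2 (↑S : Set ℕ) →+* ResidueField 𝒪),
      Fermat.Agent.S59.Datum.FrobHyp ρbar N1 S θ →
    ∀ (k : ℕ) (Pv : PivotPrimes k), 0 < k → Pv.IsExceptional p ρbar → (∀ j, Pv.q j ∣ N1) →
    ∀ (eP : Fin k → ℕ), (∀ j, p ^ eP j ∣ Pv.q j - 1 ∧ ¬ p ^ (eP j + 1) ∣ Pv.q j - 1) →
    ∃ MD : HDiv 𝒪 ϖ N1 (↑S : Set ℕ) θ, Nontrivial MD.W ∧
      ∀ (r n : ℕ) (qv : Fin r → ℕ), Fermat.Agent.S56.IsTWFamily ρbar p n S qv →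
        ∀ [NeZero (twLevel N1 qv)] [NeZero (pvLevel N1 Pv.q qv)]
          [Fact (CuspForm.HasIntegralStructure (twLevel N1 qv) 2)]
          [Fact (CuspForm.HasIntegralStructure (pvLevel N1 Pv.q qv) 2)],
          Nonempty (PVBase 𝒪 ϖ p ρbar N1 S θ MD Pv.q eP n qv)

/-- **PV-GEOM Part I, top**: all leaves imply `Stmt_PVBASE5`. -/
theorem stmt_PVBASE5_of (hMD : Stmt_W_MD) (hSETUP : Stmt_P_SETUP) (hGAL : Stmt_P_GAL)
    (hES : Stmt_P_ES) (hHC : Stmt_P_HSTEPC) (hHD : Stmt_P_HSTEPD) (hPI : Stmt_P_PI)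
    (hEIG : Stmt_P_EIGPART) (hFN : Stmt_P_FROBNIL) (hLG : Stmt_P_LG) (hNEW : Stmt_P_NEW) :
    Stmt_PVBASE5 := by
  intro 𝒪 _ _ _ _ _ _ ϖ hϖ p _ ρbar S Smin hyp N1 _ hint hNS hsq hU θ hfrob k Pv hk hex hdvd
    eP heP
  have hstd : PvStd 𝒪 ϖ p N1 S Smin θ ρbar Pv eP :=
    ⟨hϖ, hU, hyp, hNS, hsq, hfrob, hint.out, hex, hdvd, heP⟩
  obtain ⟨Dm⟩ := minSetup_of hMD 𝒪 ϖ hϖ p hyp.hp𝒪 N1 S hNS θ
  refine ⟨Dm.MD, Dm.nontriv, ?_⟩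
  intro r n qv hfam _ _ _ _
  have hPV : PvHyp N1 S p eP n Pv.q qv := pvHyp_of hstd hk hfam
  haveI : NeZero (pvC Pv.q qv) := ⟨hPV.pvC_ne_zero⟩
  haveI : NeZero (N1 * twC qv) := ⟨hPV.level_ne_zero⟩
  obtain ⟨D⟩ := hSETUP 𝒪 ϖ p N1 S Smin θ ρbar k Pv eP hstd hk n r qv hfam
  exact nonempty_pvBase Dm D
    (hGAL 𝒪 ϖ p N1 S Smin θ ρbar k Pv eP hstd Dm n r qv D)
    (hES 𝒪 ϖ p N1 S Smin θ ρbar k Pv eP hstd Dm n r qv D)
    (hHC 𝒪 ϖ p N1 S Smin θ ρbar k Pv eP hstd Dm n r qv D)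
    (hHD 𝒪 ϖ p N1 S Smin θ ρbar k Pv eP hstd Dm n r qv D)
    (hPI 𝒪 ϖ p N1 S Smin θ ρbar k Pv eP hstd Dm n r qv D)
    (hEIG 𝒪 ϖ p N1 S Smin θ ρbar k Pv eP hstd Dm n r qv D)
    (hFN 𝒪 ϖ p N1 S Smin θ ρbar k Pv eP hstd Dm n r qv D)
    (hLG 𝒪 ϖ p N1 S Smin θ ρbar k Pv eP hstd Dm n r qv D)
    (hNEW 𝒪 ϖ p N1 S Smin θ ρbar k Pv eP hstd Dm n r qv D)

end Fermat.Agent.L.Pivot.Geom

end

end
-- ==== END Fermat.Agent.L.Pivot.Geom.H19_AsmTop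

-- ==== BEGIN Fermat.Agent.L.Pivot.Geom.H29_PES
section

/-!
# PIVOT, package PV-GEOM, Part I, leaf P-ES (helper29): Eichler–Shimura on `W'`

For `D : PvSetup …`, a good prime `ℓ` (`ℓ ∤ pvLevel`, `ℓ ∉ twSet S qv`) and a Frobenius `σ` at a
place over `ℓ`:  `gal'(σ)² - T'_ℓ gal'(σ) + ℓ = 0` on `W' = Wpv`.

Instance of `NEB.Geom.H29.es_gen` (the proof of A-ES with the Taylor–Wiles data abstracted) for
`(M, c, H) = (N1 · c_Q, c', H')`, `E = n + ∑ eP j`, `j = jPv`.  The unramifiedness of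
`F_H'(M1) / F₀(M1)` (`pv_unr`) comes from helper70's `unrCond_of_five_le` (`5 ≤ p`).

* `tEisPolyPv`        : the Eisenstein element `X_ℓ₀ Z_{ℓ₀⁻¹}^{j'} - (ℓ₀ + 1)` of `𝕋⁺`;
* `etaPv_tEisPolyPv`  : `η⁺(tEisPolyPv) = tEisPv = T_ℓ₀^H - (ℓ₀ + 1)`;
* `thetaPv_tEisPolyPv`: `θ⁺(tEisPolyPv) = θ(T_ℓ₀) - (ℓ₀ + 1)`;
* `pv_diaZ_pow`       : `⟨u⟩ ^ (p ^ (n + ∑ eP j)) = 1` on `J_H'[p^∞]`;
* `squarefree_pvC`, `pv_unr` : `c'` is squarefree; `F_H'(M1) / F₀(M1)` is unramified;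
* `p_es`              : the Eichler–Shimura relation on `W'` (with `hunr` as a hypothesis);
* `stmt_P_ES`         : `Stmt_P_ES`.
-/

set_option autoImplicit false
set_option linter.unusedSectionVars false
set_option linter.unusedVariables false
set_option linter.style.haveILetI false

noncomputable section

open ModularCurve AlgebraicCurve IsLocalRing TensorProduct Polynomial

namespace Fermat.Agent.L.Pivot.Geom.H29

open Fermat.Agent.NEB Fermat.Agent.NEB.JH Fermat.Agent.NEB.Geom Fermat.Agent.S59.Lim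
  Fermat.Agent.S59.Lim.H2 Fermat.Agent.S59.Asm Fermat.Agent.L.Pivot.Geom

section Eis

variable (N1 : ℕ) (S : Finset ℕ) (p : ℕ) {k : ℕ} (eP : Fin k → ℕ) (n : ℕ) (qP : Fin k → ℕ)
  {r : ℕ} (qv : Fin r → ℕ)

/-- The Eisenstein element `X_ℓ₀ Z_{ℓ₀⁻¹}^{j'} - (ℓ₀ + 1)` of `𝕋⁺`. -/
def tEisPolyPv (ℓ₀ : ℕ) : PolyTw r (pvC qP qv) :=
  MvPolynomial.X (Sum.inl ℓ₀) *
      MvPolynomial.X (Sum.inr (Sum.inr (Fermat.Agent.NEB.EIG.H39.unitOf (pvC qP qv) ℓ₀)⁻¹))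
        ^ jPv p eP n
    - ((ℓ₀ + 1 : ℕ) : PolyTw r (pvC qP qv))

variable [NeZero (N1 * twC qv)] (h2 : 2 ≤ pvC qP qv) (hc : pvC qP qv ∣ N1 * twC qv)

theorem opsPv_inl_good {ℓ : ℕ} (hg : GoodTw N1 S qv ℓ) :
    opsPv N1 S p eP n qP qv h2 hc (Sum.inl ℓ)
      = TzTw (N1 * twC qv) (pvC qP qv) (pvH qP qv p eP n) h2 hc p (jPv p eP n) ℓ := by
  classical
  show (if GoodTw N1 S qv ℓ then _ else _) = _
  rw [if_pos hg]

theorem etaPv_X_inl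
    (hcomm : ∀ i j, Commute (opsPv N1 S p eP n qP qv h2 hc i) (opsPv N1 S p eP n qP qv h2 hc j))
    {ℓ : ℕ} (hg : GoodTw N1 S qv ℓ) :
    etaPv N1 S p eP n qP qv h2 hc hcomm (MvPolynomial.X (Sum.inl ℓ))
      = TzTw (N1 * twC qv) (pvC qP qv) (pvH qP qv p eP n) h2 hc p (jPv p eP n) ℓ :=
  (polyHom_X _ _ _).trans (opsPv_inl_good N1 S p eP n qP qv h2 hc hg)

theorem etaPv_X_dia
    (hcomm : ∀ i j, Commute (opsPv N1 S p eP n qP qv h2 hc i) (opsPv N1 S p eP n qP qv h2 hc j))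
    (u : (ZMod (pvC qP qv))ˣ) :
    etaPv N1 S p eP n qP qv h2 hc hcomm (MvPolynomial.X (Sum.inr (Sum.inr u)))
      = diaZ (N1 * twC qv) (pvC qP qv) (pvH qP qv p eP n) h2 hc p u :=
  polyHom_X _ _ _

theorem etaPv_tEisPolyPv
    (hcomm : ∀ i j, Commute (opsPv N1 S p eP n qP qv h2 hc i) (opsPv N1 S p eP n qP qv h2 hc j))
    (ℓ₀ : ℕ) (hℓ₀ : GoodTw N1 S qv ℓ₀) :
    etaPv N1 S p eP n qP qv h2 hc hcomm (tEisPolyPv p eP n qP qv ℓ₀)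
      = tEisPv N1 p eP n qP qv h2 hc ℓ₀ :=
  Fermat.Agent.NEB.Geom.H94.map_eis_eq (etaPv N1 S p eP n qP qv h2 hc hcomm) _ _ (jPv p eP n)
    (ℓ₀ + 1) _ _ _ (etaPv_X_inl N1 S p eP n qP qv h2 hc hcomm hℓ₀)
    (etaPv_X_dia N1 S p eP n qP qv h2 hc hcomm _)
    (Fermat.Agent.NEB.Geom.H94.map_pow_mul_map_inv_pow
      (diaZ (N1 * twC qv) (pvC qP qv) (pvH qP qv p eP n) h2 hc p) _ _)

theorem thetaPv_tEisPolyPv {κ : Type} [Field κ] [NeZero N1]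
    (θ : CuspForm.heckeAlgebra N1 2 (↑S : Set ℕ) →+* κ) (α : Fin r → κ)
    (ℓ₀ : ℕ) (hℓ₀ : GoodTw N1 S qv ℓ₀) :
    thetaPv N1 S qP qv θ α (tEisPolyPv p eP n qP qv ℓ₀) =
      θ (CuspForm.heckeAlgebra.T hℓ₀.1 hℓ₀.not_dvd hℓ₀.not_mem) - ((ℓ₀ : κ) + 1) := by
  classical
  have h1 := Fermat.Agent.NEB.Geom.H94.eval_eis_eq (thetaPvVal N1 S qP qv θ α) (Sum.inl ℓ₀)
    (Sum.inr (Sum.inr (Fermat.Agent.NEB.EIG.H39.unitOf (pvC qP qv) ℓ₀)⁻¹)) (jPv p eP n)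
    (ℓ₀ + 1) rfl
  have h2' : thetaPvVal N1 S qP qv θ α (Sum.inl ℓ₀)
      = θ (CuspForm.heckeAlgebra.T hℓ₀.1 hℓ₀.not_dvd hℓ₀.not_mem) := by
    show (if h : GoodTw N1 S qv ℓ₀ then _ else _) = _
    rw [dif_pos hℓ₀]
  refine h1.trans ?_
  rw [h2', Nat.cast_add, Nat.cast_one]

/-- The diamond operators on `J_H'[p^∞]` are killed by `p ^ (n + ∑ eP j)`. -/
theorem pv_diaZ_pow [NeZero (pvC qP qv)] (u : (ZMod (pvC qP qv))ˣ) :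
    diaZ (N1 * twC qv) (pvC qP qv) (pvH qP qv p eP n) h2 hc p u ^ (p ^ (n + ∑ j, eP j)) = 1 :=
  Fermat.Agent.NEB.Geom.H29.diaZ_pow_of_exp (N1 * twC qv) (pvC qP qv) (pvH qP qv p eP n) h2 hc p
    (n + ∑ j, eP j) (fun d => pow_mem_pvH qP qv p eP n d) u

end Eis

section Unr

variable {N1 : ℕ} {S : Finset ℕ} {p : ℕ} {k : ℕ} {eP : Fin k → ℕ} {n : ℕ} {qP : Fin k → ℕ}
  {r : ℕ} {qv : Fin r → ℕ}

/-- A product of distinct primes is squarefree. -/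
theorem squarefree_twC_of {m : ℕ} (q : Fin m → ℕ) (hinj : Function.Injective q)
    (hq : ∀ j, (q j).Prime) : Squarefree (twC q) := by
  unfold twC
  refine Finset.squarefree_prod_of_pairwise_isCoprime ?_ (fun j _ => (hq j).squarefree)
  intro i _ j _ hij
  show IsRelPrime (q i) (q j)
  rw [← Nat.coprime_iff_isRelPrime]
  exact (Nat.coprime_primes (hq i) (hq j)).mpr (fun h => hij (hinj h))

/-- `c' = c_Σ c_Q` is squarefree. -/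
theorem squarefree_pvC (h : PvHyp N1 S p eP n qP qv) : Squarefree (pvC qP qv) := by
  unfold pvC
  rw [Nat.squarefree_mul_iff]
  refine ⟨?_, squarefree_twC_of qP h.injP h.primeP, squarefree_twC_of qv h.inj h.prime⟩
  unfold twC
  exact Nat.Coprime.prod_left fun j _ => Nat.Coprime.prod_right fun i _ =>
    (Nat.coprime_primes (h.primeP j) (h.prime i)).mpr (h.qP_ne_qv j i)

/-- `F_H'(M1) / F₀(M1)` is unramified (`5 ≤ p`). -/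
theorem pv_unr (h : PvHyp N1 S p eP n qP qv) [NeZero (N1 * twC qv)] (h2 : 2 ≤ pvC qP qv)
    (hc : pvC qP qv ∣ N1 * twC qv)
    (w : Place Kbar ↥(FHbar (N1 * twC qv) (pvC qP qv) (pvH qP qv p eP n))) :
    ∃ x : ↥(modularFunctionFieldBar (N1 * twC qv)),
      w.ord (inclBar (N1 * twC qv) (pvC qP qv) (pvH qP qv p eP n) x) = 1 :=
  Fermat.Agent.NEB.H34.fh_unr (pvC qP qv) (N1 * twC qv) (pvH qP qv p eP n) h2 hc
    (NeZero.ne _)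
    (Fermat.Agent.L.Pivot3.H9.unrCond_of_hU p (n + ∑ j, eP j) h.hp h.hp2 (pvC qP qv)
      (N1 * twC qv) N1 (squarefree_pvC h) hc (Dvd.intro _ rfl) h.hU (pvH qP qv p eP n)
      (fun d => pow_mem_pvH qP qv p eP n d)) w

end Unr

section Main

variable {𝒪 : Type} [CommRing 𝒪] [IsDomain 𝒪] [IsDiscreteValuationRing 𝒪]
  {ϖ : 𝒪} {p : ℕ} {N1 : ℕ} [NeZero N1] {S : Finset ℕ}
  {θ : CuspForm.heckeAlgebra N1 2 (↑S : Set ℕ) →+* ResidueField 𝒪}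
  {ρbar : ResidualGaloisRep (ResidueField 𝒪)} {k : ℕ} {eP : Fin k → ℕ} {n : ℕ}
  {qP : Fin k → ℕ} {r : ℕ} {qv : Fin r → ℕ}
  [NeZero (N1 * twC qv)] [NeZero (pvC qP qv)] [NeZero (twLevel N1 qv)]
  [NeZero (pvLevel N1 qP qv)]

/-- `θ⁺` does not vanish at the Eisenstein element. -/
theorem thetaPv_tEisPolyPv_ne (D : PvSetup 𝒪 ϖ p N1 S θ ρbar eP n qP qv) :
    thetaPv N1 S qP qv θ D.α (tEisPolyPv p eP n qP qv D.ℓ₀) ≠ 0 := by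
  rw [thetaPv_tEisPolyPv N1 S p eP n qP qv θ D.α D.ℓ₀ D.hℓ₀]
  exact sub_ne_zero.mpr D.hne

/-- The twisted Galois action of `PvSetup` is `galTw`. -/
theorem pv_galHom_eq (D : PvSetup 𝒪 ϖ p N1 S θ ρbar eP n qP qv) (σ : GalK) :
    D.galHom σ = galTw (N1 * twC qv) (pvC qP qv) (pvH qP qv p eP n) D.h2 D.hc p
      (jPv p eP n) σ := rfl

/-- **P-ES**, on elements of `𝒪 ⊗ J_H'[p^∞]`. -/
theorem p_es_elt [Finite (ResidueField 𝒪)] [Fact p.Prime] (hϖ : Irreducible ϖ)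
    (hpm : (p : 𝒪) ∈ maximalIdeal 𝒪) (hp0 : (p : 𝒪) ≠ 0)
    (D : PvSetup 𝒪 ϖ p N1 S θ ρbar eP n qP qv)
    (hunr : ∀ w : Place Kbar ↥(FHbar (N1 * twC qv) (pvC qP qv) (pvH qP qv p eP n)),
      ∃ x : ↥(modularFunctionFieldBar (N1 * twC qv)),
        w.ord (inclBar (N1 * twC qv) (pvC qP qv) (pvH qP qv p eP n) x) = 1)
    (ℓ : ℕ) (hg : GoodTw N1 S qv ℓ)
    (P : ValuationSubring Kbar) (hP : P.LiesOverPrime ℓ) (σ : GalK)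
    (hσ : P.IsFrobeniusAt σ ℓ) :
    ∀ x ∈ Wpv N1 S p eP n qP qv D.h2 D.hc 𝒪 D.hcomm θ D.α,
      ((D.galHom σ * D.galHom σ
        - etaPv N1 S p eP n qP qv D.h2 D.hc D.hcomm (MvPolynomial.X (Sum.inl ℓ)) * D.galHom σ
        + ℓ • (1 : Module.End ℤ (AHpv N1 p eP n qP qv))).baseChange 𝒪) x = 0 := by
  have hℓp : ℓ ≠ p := by
    rintro rfl
    apply hg.2.2
    simp only [twSet, Finset.coe_union, Set.mem_union]
    exact Or.inl D.hPV.hpS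
  exact Fermat.Agent.NEB.Geom.H29.es_gen (N1 * twC qv) (pvC qP qv) (pvH qP qv p eP n) D.h2 D.hc p
    ϖ hϖ hpm hp0 (etaPv N1 S p eP n qP qv D.h2 D.hc D.hcomm) (thetaPv N1 S qP qv θ D.α)
    (n + ∑ j, eP j) (jPv p eP n) (two_jPv p eP n D.hPV.hp D.hPV.hp2)
    (fun d => pow_mem_pvH qP qv p eP n d) hunr
    (fun u => ⟨MvPolynomial.X (Sum.inr (Sum.inr u)), polyHom_X _ _ _⟩)
    (fun t σ => D.comm_gal σ t)
    D.ℓ₀ D.hℓ₀.1 (Fermat.Agent.NEB.Geom.H29.not_dvd_level_of_good D.hℓ₀)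
    (tEisPolyPv p eP n qP qv D.ℓ₀)
    (etaPv_tEisPolyPv N1 S p eP n qP qv D.h2 D.hc D.hcomm D.ℓ₀ D.hℓ₀)
    (thetaPv_tEisPolyPv_ne D)
    ℓ hg.1 (Fermat.Agent.NEB.Geom.H29.not_dvd_level_of_good hg) hℓp
    (MvPolynomial.X (Sum.inl ℓ)) (etaPv_X_inl N1 S p eP n qP qv D.h2 D.hc D.hcomm hg)
    P hP σ hσ

/-- **P-ES**: Eichler–Shimura on `W'`. -/
theorem p_es [Finite (ResidueField 𝒪)] [Fact p.Prime] (hϖ : Irreducible ϖ)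
    (hpm : (p : 𝒪) ∈ maximalIdeal 𝒪) (hp0 : (p : 𝒪) ≠ 0)
    (D : PvSetup 𝒪 ϖ p N1 S θ ρbar eP n qP qv)
    (hunr : ∀ w : Place Kbar ↥(FHbar (N1 * twC qv) (pvC qP qv) (pvH qP qv p eP n)),
      ∃ x : ↥(modularFunctionFieldBar (N1 * twC qv)),
        w.ord (inclBar (N1 * twC qv) (pvC qP qv) (pvH qP qv p eP n) x) = 1)
    (ℓ : ℕ) (hℓ : ℓ.Prime) (hℓN : ¬ ℓ ∣ pvLevel N1 qP qv)
    (hℓS : ℓ ∉ (↑(twSet S qv) : Set ℕ))
    (P : ValuationSubring Kbar) (hP : P.LiesOverPrime ℓ) (σ : GalK)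
    (hσ : P.IsFrobeniusAt σ ℓ) :
    D.gal σ * D.gal σ - D.WD.η (CuspForm.heckeAlgebra.T hℓ hℓN hℓS) * D.gal σ
      + (ℓ : 𝒪) • (1 : Module.End 𝒪 D.WD.W) = 0 := by
  have hg : GoodTw N1 S qv ℓ := goodTw_of_pv N1 S qP qv hℓ hℓN hℓS
  have hT : ∀ t, Commute (etaPv N1 S p eP n qP qv D.h2 D.hc D.hcomm t)
      (etaPv N1 S p eP n qP qv D.h2 D.hc D.hcomm (MvPolynomial.X (Sum.inl ℓ))) :=
    fun t => (Commute.all t _).map (etaPv N1 S p eP n qP qv D.h2 D.hc D.hcomm)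
  have hη : D.WD.η (CuspForm.heckeAlgebra.T hℓ hℓN hℓS)
      = thetaZ (thetaPv N1 S qP qv θ D.α)
          (etaPv N1 S p eP n qP qv D.h2 D.hc D.hcomm (MvPolynomial.X (Sum.inl ℓ))) hT :=
    D.η_T ℓ hℓ hℓN hℓS
  have hgal : D.gal σ = thetaZ (thetaPv N1 S qP qv θ D.α) (D.galHom σ) (D.comm_galHom σ) := rfl
  rw [hη, hgal]
  exact Fermat.Agent.NEB.Geom.H29.thetaZ_es_of (D.comm_galHom σ) hT ℓ
    (p_es_elt hϖ hpm hp0 D hunr ℓ hg P hP σ hσ)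

/-- **P-ES** for a pivot setup. -/
theorem p_es_D [Finite (ResidueField 𝒪)] [Fact p.Prime] (hϖ : Irreducible ϖ)
    (hpm : (p : 𝒪) ∈ maximalIdeal 𝒪) (hp0 : (p : 𝒪) ≠ 0)
    (D : PvSetup 𝒪 ϖ p N1 S θ ρbar eP n qP qv) : Stmt_P_es D :=
  fun ℓ hℓ hℓN hℓS A hA σ hσ =>
    p_es hϖ hpm hp0 D (pv_unr D.hPV D.h2 D.hc) ℓ hℓ hℓN hℓS A hA σ hσ

end Main

/-- **P-ES**. -/
theorem stmt_P_ES : Stmt_P_ES := by
  intro 𝒪 _ _ _ _ _ _ ϖ p _ N1 _ S Smin θ ρbar k Pv eP hstd Dm n r qv _ _ _ _ D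
  exact p_es_D hstd.hϖ hstd.hyp.hp𝒪 (Nat.cast_ne_zero.2 (Fact.out : p.Prime).ne_zero) D

end Fermat.Agent.L.Pivot.Geom.H29

end
end
-- ==== END Fermat.Agent.L.Pivot.Geom.H29_PES
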