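-- GENERATED (merged mirror, NOTES/tools/trim/merge3_helper67.py): 11 modules of the originals, bodies verbatim.
import Mathlib
import Fermat.Agent.Zm.S43_L18_001
import Fermat.Agent.Zm.S43_L09_000
import Fermat.Agent.Zm.S43_L14_000
import Fermat.Agent.Zm.S43_L18_000
import Fermat.Agent.Zm.S43_L16_001
import Fermat.Agent.Zm.S43_L12_000
import Fermat.Agent.Zm.S43_L15_000
import Fermat.Agent.Zm.S43_L17_001
import Fermat.Agent.Zm.S43_L15_001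
import Fermat.Agent.Zm.S43_L10_001
import Fermat.Agent.Zm.S43_L11_000
import Fermat.Agent.Zm.S43_L07_000
import Fermat.Agent.Zm.S43_L11_001
import Fermat.Agent.Zm.S43_L05_000
import Fermat.Agent.Zm.S43_L05_001
import Fermat.Agent.Zm.S35_L21_000
import Fermat.Agent.Zm.S43_L16_000
import Fermat.Agent.Zm.S43_L01_003
import Fermat.Agent.Zm.S43_L17_000

-- ==== BEGIN Fermat.Agent.L.Pivot.Geom.H14_OmegaPv
section

/-!
# PIVOT, package PV-GEOM (helper14): the isomorphism `ω` for `Ypv`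

`exists_omega_pv` : an additive map `Φ : J₀(N1 c_Q) → J₀(N1)`, Hecke-equivariant at the good
primes and Galois-equivariant, such that `(resP p Φ)_𝒪` maps `Ypv` bijectively onto the `θ`-part
of `𝒪 ⊗ J₀(N1)[p^∞]`.  (`r = 0` allowed.)  Use with `NEB.Geom.H14.pi_wire_abs`.
-/

set_option autoImplicit false
set_option linter.unusedSectionVars false
set_option linter.unusedVariables false
set_option linter.style.haveILetI false

noncomputable section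

open ModularCurve AlgebraicCurve IsLocalRing TensorProduct Polynomial

namespace Fermat.Agent.L.Pivot.Geom.H14

open Fermat.Agent.NEB Fermat.Agent.NEB.JH Fermat.Agent.S59.Asm Fermat.Agent.S59.Lim
  Fermat.Agent.S59.Lim.H2 Fermat.Agent.NEB.Geom Fermat.Agent.NEB.OLD
  Fermat.Agent.L.Pivot.Geom

variable {𝒪 : Type} [CommRing 𝒪] [IsDomain 𝒪] [IsDiscreteValuationRing 𝒪]
  {p : ℕ} {N1 : ℕ} [NeZero N1] {S : Finset ℕ} {k : ℕ} {qP : Fin k → ℕ} {r : ℕ}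
  {qv : Fin r → ℕ} [NeZero (N1 * twC qv)]

theorem isOmegaFam_pv (θ : CuspForm.heckeAlgebra N1 2 (↑S : Set ℕ) →+* ResidueField 𝒪)
    (α : Fin r → ResidueField 𝒪) :
    Fermat.Agent.NEB.Geom.H14.IsOmegaFam (p := p) θ α (opsPv0 N1 S p qP qv)
      (thetaPvVal N1 S qP qv θ α) := by
  classical
  refine ⟨?_, ?_, ?_⟩
  · intro i
    rcases i with ℓ | j | u
    · by_cases hg : GoodTw N1 S qv ℓ
      · refine Or.inl ⟨ℓ, hg, ?_, ?_⟩
        · simp only [opsPv0, if_pos hg]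
        · simp only [thetaPvVal, dif_pos hg]
      · refine Or.inr (Or.inr (Or.inl ⟨?_, ?_⟩))
        · simp only [opsPv0, if_neg hg]
        · simp only [thetaPvVal, dif_neg hg]
    · exact Or.inr (Or.inl ⟨j, rfl, rfl⟩)
    · exact Or.inr (Or.inr (Or.inr ⟨rfl, rfl⟩))
  · intro ℓ hg
    refine ⟨Sum.inl ℓ, ?_, ?_⟩
    · simp only [opsPv0, if_pos hg]
    · simp only [thetaPvVal, dif_pos hg]
  · intro j
    exact ⟨Sum.inr (Sum.inl j), rfl, rfl⟩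

/-- **The isomorphism `ω` for `Ypv`.** -/
theorem exists_omega_pv (hp0 : (p : 𝒪) ≠ 0) (hinj : Function.Injective qv)
    (hprime : ∀ j, (qv j).Prime) (hnotS : ∀ j, qv j ∉ S)
    (hNS : ∀ q : ℕ, q.Prime → q ∣ N1 → q ∈ S)
    (hcomm0 : ∀ i j, Commute (opsPv0 N1 S p qP qv i) (opsPv0 N1 S p qP qv j))
    (θ : CuspForm.heckeAlgebra N1 2 (↑S : Set ℕ) →+* ResidueField 𝒪)
    (α β : Fin r → ResidueField 𝒪) (hE : TwEig 𝒪 N1 S qv θ α β)
    (ηC : CuspForm.heckeAlgebra N1 2 (↑S : Set ℕ) →+* Module.End ℤ (A0 N1 p))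
    (hηC : ∀ (ℓ : ℕ) (hℓ : ℓ.Prime) (hℓN : ¬ ℓ ∣ N1) (hℓS : ℓ ∉ (↑S : Set ℕ)),
      ηC (CuspForm.heckeAlgebra.T hℓ hℓN hℓS) = Tz0 N1 p ℓ) :
    ∃ Φ : JZero (N1 * twC qv) →+ JZero N1,
      (∀ (ℓ : ℕ) [NeZero ℓ], GoodTw N1 S qv ℓ →
        ∀ y, Φ (U0 (N1 * twC qv) ℓ y) = U0 N1 ℓ (Φ y)) ∧
      (∀ (σ : Fermat.Agent.NEB.Geom.GalQ) (y : JZero (N1 * twC qv)), Φ (σ • y) = σ • Φ y) ∧
      (∀ v ∈ Ypv N1 S p qP qv 𝒪 hcomm0 θ α, (resP p Φ).baseChange 𝒪 v ∈ thetaPart ηC θ) ∧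
      (∀ x ∈ thetaPart ηC θ, ∃ v ∈ Ypv N1 S p qP qv 𝒪 hcomm0 θ α,
        (resP p Φ).baseChange 𝒪 v = x) ∧
      (∀ v ∈ Ypv N1 S p qP qv 𝒪 hcomm0 θ α, (resP p Φ).baseChange 𝒪 v = 0 → v = 0) :=
  Fermat.Agent.NEB.Geom.H14.exists_omega_gen hp0 hinj hprime hnotS hNS θ α β hE
    (opsPv0 N1 S p qP qv) (thetaPvVal N1 S qP qv θ α) (isOmegaFam_pv θ α) hcomm0 ηC hηC

end Fermat.Agent.L.Pivot.Geom.H14

end
end
-- ==== END Fermat.Agent.L.Pivot.Geom.H14_OmegaPv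

-- ==== BEGIN Fermat.Agent.L.Pivot.Geom.H19_PNewInst
section

/-!
# PIVOT, package PV-GEOM, Part II, leaf P-NEW-INST (helper19)

The field `new` of `PVBase` on a setup `D : PvSetup`: instantiation of helper81's abstract
`H81.new_W` (PVG-NEW-ASM) at `A = J_H'[p^∞]`, `𝕋⁺ = ℤ[x_ℓ, u_i, ⟨d⟩]`, `η⁺ = etaPv`,
`θ⁺ = thetaPv`, `W = W'`, `c_j = ⟨δP j⟩`.

* `p_new_of`            : `Stmt_P_new D` from `c_j ^ (p ^ eP j) = 1` and `Stmt_NewJ0`;
* `stmt_P_NEW_of_newJ0` : `(∀ M q p, H50.Stmt_NewJ0 M q p) → Stmt_P_NEW`.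

The arithmetic of the levels and the EIG-ASM data are those of helper11's `H11_PEta.lean`.
Complete proofs, standard axioms only.
-/

set_option autoImplicit false
set_option linter.unusedSectionVars false
set_option linter.style.haveILetI false
set_option linter.unusedVariables false

noncomputable section

open ModularCurve AlgebraicCurve IsLocalRing TensorProduct Polynomial

namespace Fermat.Agent.L.Pivot.Geom.H19

open Fermat.Agent.NEB Fermat.Agent.NEB.JH Fermat.Agent.NEB.Geom Fermat.Agent.S59.Lim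
  Fermat.Agent.S59.Lim.H2 Fermat.Agent.S59.Asm Fermat.Agent.L.Pivot.Geom

section Inst

variable {𝒪 : Type} [CommRing 𝒪] [IsDomain 𝒪] [IsDiscreteValuationRing 𝒪]
  [IsAdicComplete (maximalIdeal 𝒪) 𝒪] [CharZero 𝒪]
  {ϖ : 𝒪} {p : ℕ} [Fact p.Prime] {N1 : ℕ} [NeZero N1] {S : Finset ℕ}
  {θ : CuspForm.heckeAlgebra N1 2 (↑S : Set ℕ) →+* ResidueField 𝒪}
  {ρbar : ResidualGaloisRep (ResidueField 𝒪)} {k : ℕ} {eP : Fin k → ℕ} {n : ℕ}
  {qP : Fin k → ℕ} {r : ℕ} {qv : Fin r → ℕ}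
  [NeZero (N1 * twC qv)] [NeZero (pvC qP qv)] [NeZero (twLevel N1 qv)]
  [NeZero (pvLevel N1 qP qv)]

/-- The pivot primes are primes of `c'`. -/
theorem qP_mem_pvList (j : Fin k) : qP j ∈ H11.pvList qP qv :=
  (H11.mem_pvList qP qv).mpr (Or.inl ⟨j, rfl⟩)

/-- `δP j` is `≡ 1` modulo the primes of `c'` other than `qP j`. -/
theorem deltaP_unitsMap {δP : Fin k → (ZMod (pvC qP qv))ˣ} {δQ : Fin r → (ZMod (pvC qP qv))ˣ}
    (hδ : IsDeltaGenPv p eP n qP qv δP δQ) (j : Fin k) :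
    ∀ q' ∈ H11.pvList qP qv, q' ≠ qP j → ∀ hd : q' ∣ pvC qP qv,
      ZMod.unitsMap hd (δP j) = 1 := by
  intro q' hq' hne hd
  rcases (H11.mem_pvList qP qv).mp hq' with ⟨j', rfl⟩ | ⟨i, rfl⟩
  · exact hδ.P_P j j' (fun e => hne (by rw [e]))
  · exact hδ.P_Q j i

/-- **P-NEW on a setup**: helper81's `new_W` at `A = J_H'[p^∞]`. -/
theorem p_new_of (hϖ : Irreducible ϖ) (hpm : (p : 𝒪) ∈ maximalIdeal 𝒪)
    (D : PvSetup 𝒪 ϖ p N1 S θ ρbar eP n qP qv)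
    (hcpow : ∀ j, D.c j ^ (p ^ eP j) = 1)
    (hN2 : ∀ (i : Fin k) [NeZero (pvLevel N1 qP qv / qP i)] [NeZero (qP i)],
      H50.Stmt_NewJ0 (pvLevel N1 qP qv / qP i) (qP i) p) :
    Stmt_P_new D := by
  have hPV := D.hPV
  exact H81.new_W p (N1 / twC qP) (H11.base_ne_zero hPV)
    (H11.pvList qP qv) (H11.pvList_nodup hPV) (H11.pvList_prime hPV) (H11.not_dvd_base hPV)
    (pvC qP qv) (pvLevel N1 qP qv) (N1 * twC qv) (H11.pvList_prod qP qv).symm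
    (H11.pvM_eq qP qv N1 (H11.twC_P_dvd hPV) (H11.twC_P_ne_zero hPV))
    D.hc
    (H11.pvLevel_eq qP qv N1 (H11.twC_P_dvd hPV) (H11.twC_P_ne_zero hPV))
    (twSet S qv) (H11.prime_mem_twSet hPV)
    (AH (N1 * twC qv) (pvC qP qv) (pvH qP qv p eP n) p) (fun x => isPTors_coe x)
    (Fermat.Agent.NEB.Geom.H84.finite_AH_p (pvH qP qv p eP n) D.h2 D.hc p)
    (Fermat.Agent.NEB.EIG.H98.monoSys (N1 * twC qv) (pvC qP qv) (pvH qP qv p eP n) D.h2 D.hc p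
      Fermat.Agent.NEB.H70.iotaC)
    (Tz (N1 * twC qv) (pvC qP qv) (pvH qP qv p eP n) D.h2 D.hc p)
    (fun ℓ hℓ hℓM k x hx =>
      Fermat.Agent.NEB.EIG.H98.monoSys_Tz (N1 * twC qv) (pvC qP qv) (pvH qP qv p eP n)
        D.h2 D.hc p Fermat.Agent.NEB.H70.iotaC ℓ hℓ hℓM k x hx)
    (diaZ (N1 * twC qv) (pvC qP qv) (pvH qP qv p eP n) D.h2 D.hc p)
    (fun g hg d hd k x hx =>
      Fermat.Agent.NEB.EIG.H98.monoSys_diaZ (N1 * twC qv) (pvC qP qv) (pvH qP qv p eP n)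
        D.h2 D.hc p Fermat.Agent.NEB.H70.iotaC g hg d hd k x hx)
    (fun ℓ _ _ d =>
      Fermat.Agent.NEB.EIG.H98.commute_Tz_diaZ (N1 * twC qv) (pvC qP qv) (pvH qP qv p eP n)
        D.h2 D.hc p ℓ d)
    (jPv p eP n)
    (fun d => Fermat.Agent.NEB.EIG.H98.diaZ_pow_eq_one (N1 * twC qv) (pvC qP qv)
      (pvH qP qv p eP n) D.h2 D.hc p (H11.pow_jPv_mem hPV) d)
    ϖ hϖ hpm
    (etaPv N1 S p eP n qP qv D.h2 D.hc D.hcomm) (thetaPv N1 S qP qv θ D.α)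
    D.isDiv
    (fun ℓ => MvPolynomial.X (Sum.inl ℓ))
    (H11.etaPv_X_good p N1 S qP eP n qv D.h2 D.hc D.hcomm)
    D.η D.η_T
    qP (fun j => qP_mem_pvList j) hPV.neP
    D.δP (fun j => deltaP_unitsMap D.hδ j)
    (fun i => MvPolynomial.X (Sum.inr (Sum.inr (D.δP i))))
    (fun i => polyHom_X _ _ _)
    D.c (fun i x => rfl)
    eP hcpow hN2

end Inst

/-- **P-NEW** from `Stmt_NewJ0` (helper50: `H50.newJ0_of_torsNU`, i.e. from the core of S36). -/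
theorem stmt_P_NEW_of_newJ0
    (hN2 : ∀ (M q p : ℕ) [NeZero M] [NeZero q], H50.Stmt_NewJ0 M q p) : Stmt_P_NEW := by
  intro 𝒪 _ _ _ _ _ _ ϖ p _ N1 _ S Smin θ ρbar k Pv eP hstd Dm n r qv _ _ _ _ D
  have hgal := H9.stmt_P_GAL 𝒪 ϖ p N1 S Smin θ ρbar k Pv eP hstd Dm n r qv D
  exact p_new_of hstd.hϖ hstd.hyp.hp𝒪 D hgal.2.2.1 (fun i _ _ => hN2 _ _ _)

end Fermat.Agent.L.Pivot.Geom.H19

end

end
-- ==== END Fermat.Agent.L.Pivot.Geom.H19_PNewInst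

-- ==== BEGIN Fermat.Agent.L.Pivot.Geom.H29_PUpInj
section

/-!
# PIVOT, package PV-GEOM, Part I, sub-leaves P-UPINJ and P-UPINV of P-PI (helper29)

PV clones of helper67's `PI-UPINJ`, `PI-UPINV` (`NEB/Geom/H67_PiUpInj.lean`, `H67_PiUpInv.lean`)
for `(M, c, H) = (N1 · c_Q, c', H')`:

* `p_upinj` : `π^* : Y' → W'` is injective  (`Y'` = the `θ⁺`-part of `𝒪 ⊗ J₀(M1)[p^∞]`);
* `p_upinv` : every `Δ'`-fixed element of `W'[ϖ]` is `π^* y` with `y ∈ Y'`.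

The `ℤ`-level inputs are `NEB.H29.stmt_SIGMA_JH'` (the kernel of `π^*` is Eisenstein) and
`NEB.H29.stmt_INV_JH'` (with `pv_unr`: `F_H'(M1) / F₀(M1)` is unramified, `5 ≤ p`), in the
generic forms `gen_sigma`, `gen_inv`.
-/

set_option autoImplicit false
set_option linter.unusedSectionVars false
set_option linter.unusedVariables false
set_option linter.style.haveILetI false

noncomputable section

open ModularCurve AlgebraicCurve IsLocalRing TensorProduct Polynomial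

namespace Fermat.Agent.L.Pivot.Geom.H29

open Fermat.Agent.NEB Fermat.Agent.NEB.JH Fermat.Agent.NEB.Geom Fermat.Agent.S59.Lim
  Fermat.Agent.S59.Lim.H2 Fermat.Agent.S59.Asm Fermat.Agent.L.Pivot.Geom

/-! ## 1. The `ℤ`-level statements, generic in `(M, c, H)` -/

section gen

variable (M c : ℕ) [NeZero M] (H : Subgroup (ZMod c)ˣ) (h2 : 2 ≤ c) (hc : c ∣ M) (p : ℕ)

include h2 hc in
/-- **SIGMA** on `J₀(M)[p^∞]`: the kernel of `π^*` is Eisenstein. -/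
theorem gen_sigma (hp : p.Prime) (ℓ₀ : ℕ) (hℓ₀ : ℓ₀.Prime) (hℓ₀M : ¬ ℓ₀ ∣ M)
    (y₀ : A0 M p) (hker : upZ M c H p y₀ = 0) :
    Tz0 M p ℓ₀ y₀ - ((ℓ₀ + 1 : ℕ) : ℤ) • y₀ = 0 := by
  haveI : NeZero ℓ₀ := ⟨hℓ₀.ne_zero⟩
  obtain ⟨k, hk⟩ := y₀.2
  have hk' : ((p ^ k : ℕ) : ℤ) • (y₀ : JZero M) = 0 := by
    rw [natCast_zsmul]
    exact hk
  have h := Fermat.Agent.NEB.H29.stmt_SIGMA_JH'
    (heckeData M c ℓ₀ H h2 hc)
    hℓ₀ hℓ₀M (p ^ k) (pow_ne_zero k hp.ne_zero) (y₀ : JZero M) hk'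
    (congrArg Subtype.val hker)
  apply Subtype.ext
  rw [AddSubgroup.coe_sub, Fermat.Agent.NEB.Geom.H29.coe_zsmul_ptors, Tz0_apply,
    natCast_zsmul]
  exact h

/-- **INV** on `J_H[p]`: a `Δ`-fixed class killed by `p` is, up to the Eisenstein operator, a
pull-back from `J₀(M)[p]`. -/
theorem gen_inv (hp : p.Prime)
    (hunr : ∀ w : Place Kbar ↥(FHbar M c H),
      ∃ x : ↥(modularFunctionFieldBar M), w.ord (inclBar M c H x) = 1)
    (ℓ₀ : ℕ) (hℓ₀ : ℓ₀.Prime) (hℓ₀M : ¬ ℓ₀ ∣ M)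
    (y : AH M c H p) (hy : p • y = 0)
    (hfix : ∀ u, diaZ M c H h2 hc p u y = y) :
    ∃ (y₀ : A0 M p) (m : ℕ), p • y₀ = 0 ∧
      upZ M c H p y₀
        = ((Tz M c H h2 hc p ℓ₀
            - ((ℓ₀ + 1 : ℕ) : ℤ) • (1 : Module.End ℤ (AH M c H p))) ^ m) y := by
  haveI : NeZero ℓ₀ := ⟨hℓ₀.ne_zero⟩
  haveI : NeZero c := ⟨by omega⟩
  have hy' : ((p : ℕ) : ℤ) • (y : JH M c H) = 0 := by
    rw [natCast_zsmul, ← Fermat.Agent.NEB.Geom.H29.coe_nsmul_ptors, hy]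
    rfl
  obtain ⟨y₀, hy₀, hup⟩ := Fermat.Agent.NEB.H29.stmt_INV_JH'
    (heckeData M c ℓ₀ H h2 hc)
    hℓ₀ hℓ₀M hunr p hp.ne_zero
    (y : JH M c H) hy'
    (fun d => congrArg Subtype.val (hfix d))
  rw [natCast_zsmul] at hy₀
  have hmem : IsPTors p y₀ := ⟨1, by rw [pow_one]; exact hy₀⟩
  refine ⟨⟨y₀, hmem⟩, 1, Subtype.ext ?_, Subtype.ext ?_⟩
  · rw [Fermat.Agent.NEB.Geom.H29.coe_nsmul_ptors]
    exact hy₀
  · show piUp M c H y₀ = _
    rw [pow_one, Fermat.Agent.NEB.Geom.H29.coe_eis_gen]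
    exact hup

end gen

/-! ## 2. The Eisenstein element at the level `Γ₀(M1)` -/

section Eis0

variable (N1 : ℕ) (S : Finset ℕ) (p : ℕ) {k : ℕ} (qP : Fin k → ℕ) {r : ℕ} (qv : Fin r → ℕ)

/-- The Eisenstein element `X_ℓ₀ - (ℓ₀ + 1)` of `𝕋⁺` (level `Γ₀(M1)`). -/
def tEisPolyPv0 (ℓ₀ : ℕ) : PolyTw r (pvC qP qv) :=
  MvPolynomial.X (Sum.inl ℓ₀) - ((ℓ₀ + 1 : ℕ) : PolyTw r (pvC qP qv))

variable [NeZero (N1 * twC qv)]

theorem etaPv0_tEisPolyPv0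
    (hcomm0 : ∀ i j, Commute (opsPv0 N1 S p qP qv i) (opsPv0 N1 S p qP qv j))
    (ℓ₀ : ℕ) (hℓ₀ : GoodTw N1 S qv ℓ₀) :
    etaPv0 N1 S p qP qv hcomm0 (tEisPolyPv0 qP qv ℓ₀)
      = Tz0 (N1 * twC qv) p ℓ₀
        - ((ℓ₀ + 1 : ℕ) : ℤ) • (1 : Module.End ℤ (A0 (N1 * twC qv) p)) := by
  classical
  have hX : etaPv0 N1 S p qP qv hcomm0 (MvPolynomial.X (Sum.inl ℓ₀))
      = Tz0 (N1 * twC qv) p ℓ₀ := by
    refine (polyHom_X _ _ _).trans ?_
    show (if GoodTw N1 S qv ℓ₀ then _ else _) = _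
    rw [if_pos hℓ₀]
  unfold tEisPolyPv0
  rw [map_sub, hX, map_natCast, zsmul_one, Int.cast_natCast]

theorem thetaPv_tEisPolyPv0 {κ : Type} [Field κ] [NeZero N1]
    (θ : CuspForm.heckeAlgebra N1 2 (↑S : Set ℕ) →+* κ) (α : Fin r → κ)
    (ℓ₀ : ℕ) (hℓ₀ : GoodTw N1 S qv ℓ₀) :
    thetaPv N1 S qP qv θ α (tEisPolyPv0 qP qv ℓ₀) =
      θ (CuspForm.heckeAlgebra.T hℓ₀.1 hℓ₀.not_dvd hℓ₀.not_mem) - ((ℓ₀ : κ) + 1) := by
  classical
  have h2 : thetaPvVal N1 S qP qv θ α (Sum.inl ℓ₀)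
      = θ (CuspForm.heckeAlgebra.T hℓ₀.1 hℓ₀.not_dvd hℓ₀.not_mem) := by
    show (if h : GoodTw N1 S qv ℓ₀ then _ else _) = _
    rw [dif_pos hℓ₀]
  unfold tEisPolyPv0 thetaPv
  rw [map_sub, MvPolynomial.eval₂Hom_X', map_natCast, h2, Nat.cast_add, Nat.cast_one]

end Eis0

/-! ## 3. P-UPINJ and P-UPINV -/

section Main

variable {𝒪 : Type} [CommRing 𝒪] [IsDomain 𝒪] [IsDiscreteValuationRing 𝒪]
  [Finite (ResidueField 𝒪)] [CharZero 𝒪]

/-- **P-UPINJ**: `π^*` is injective on the `θ⁺`-part of `𝒪 ⊗ J₀(M1)[p^∞]`. -/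
theorem p_upinj (ϖ : 𝒪) (hϖ : Irreducible ϖ) (p : ℕ) [Fact p.Prime]
    (hpm : (p : 𝒪) ∈ maximalIdeal 𝒪) (N1 : ℕ) [NeZero N1] (S : Finset ℕ) {k : ℕ}
    (eP : Fin k → ℕ) (n : ℕ) (qP : Fin k → ℕ) {r : ℕ} (qv : Fin r → ℕ)
    (hPV : PvHyp N1 S p eP n qP qv) [NeZero (N1 * twC qv)] (h2 : 2 ≤ pvC qP qv)
    (hc : pvC qP qv ∣ N1 * twC qv)
    (hcomm0 : ∀ i j, Commute (opsPv0 N1 S p qP qv i) (opsPv0 N1 S p qP qv j))
    (θ : CuspForm.heckeAlgebra N1 2 (↑S : Set ℕ) →+* ResidueField 𝒪)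
    (α : Fin r → ResidueField 𝒪) (ℓ₀ : ℕ) (hℓ₀ : GoodTw N1 S qv ℓ₀)
    (hne : θ (CuspForm.heckeAlgebra.T hℓ₀.1 hℓ₀.not_dvd hℓ₀.not_mem)
      ≠ ((ℓ₀ : ResidueField 𝒪) + 1))
    (y : 𝒪 ⊗[ℤ] A0 (N1 * twC qv) p) (hy : y ∈ Ypv N1 S p qP qv 𝒪 hcomm0 θ α)
    (hy0 : (upZ (N1 * twC qv) (pvC qP qv) (pvH qP qv p eP n) p).baseChange 𝒪 y = 0) :
    y = 0 := by
  haveI : Module.Flat ℤ 𝒪 := flat_int
  have hη := etaPv0_tEisPolyPv0 N1 S p qP qv hcomm0 ℓ₀ hℓ₀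
  have hθ : thetaPv N1 S qP qv θ α (tEisPolyPv0 qP qv ℓ₀) ≠ 0 := by
    rw [thetaPv_tEisPolyPv0 N1 S qP qv θ α ℓ₀ hℓ₀]
    exact sub_ne_zero.mpr hne
  have h0 : (etaPv0 N1 S p qP qv hcomm0 (tEisPolyPv0 qP qv ℓ₀)).baseChange 𝒪 y = 0 := by
    refine Fermat.Agent.NEB.Geom.H67.baseChange_eq_zero_of_ker
      (upZ (N1 * twC qv) (pvC qP qv) (pvH qP qv p eP n) p)
      (etaPv0 N1 S p qP qv hcomm0 (tEisPolyPv0 qP qv ℓ₀)) (fun x hx => ?_) y hy0
    rw [hη]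
    exact gen_sigma (N1 * twC qv) (pvC qP qv) (pvH qP qv p eP n) h2 hc p hPV.hp ℓ₀ hℓ₀.1
      (Fermat.Agent.NEB.Geom.H29.not_dvd_level_of_good hℓ₀) x hx
  have hbij := Fermat.Agent.NEB.Geom.H94.stmt_W_unit 𝒪 (A0 (N1 * twC qv) p)
    (PolyTw r (pvC qP qv)) (etaPv0 N1 S p qP qv hcomm0) (thetaPv N1 S qP qv θ α)
    (tEisPolyPv0 qP qv ℓ₀) hθ
  have h1 : thetaEta (etaPv0 N1 S p qP qv hcomm0) (thetaPv N1 S qP qv θ α)
      (tEisPolyPv0 qP qv ℓ₀) ⟨y, hy⟩ = 0 := Subtype.ext h0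
  have h3 := hbij.1 (h1.trans (map_zero _).symm)
  exact congrArg Subtype.val h3

/-- **P-UPINV**: every `Δ'`-fixed element of `W'[ϖ]` is `π^* y` with `y ∈ Y'`. -/
theorem p_upinv (ϖ : 𝒪) (hϖ : Irreducible ϖ) (p : ℕ) [Fact p.Prime]
    (hpm : (p : 𝒪) ∈ maximalIdeal 𝒪) (N1 : ℕ) [NeZero N1] (S : Finset ℕ) {k : ℕ}
    (eP : Fin k → ℕ) (n : ℕ) (qP : Fin k → ℕ) {r : ℕ} (qv : Fin r → ℕ)
    (hPV : PvHyp N1 S p eP n qP qv) [NeZero (N1 * twC qv)] (h2 : 2 ≤ pvC qP qv)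
    (hc : pvC qP qv ∣ N1 * twC qv)
    (hcomm : ∀ i j, Commute (opsPv N1 S p eP n qP qv h2 hc i)
      (opsPv N1 S p eP n qP qv h2 hc j))
    (hcomm0 : ∀ i j, Commute (opsPv0 N1 S p qP qv i) (opsPv0 N1 S p qP qv j))
    (θ : CuspForm.heckeAlgebra N1 2 (↑S : Set ℕ) →+* ResidueField 𝒪)
    (α : Fin r → ResidueField 𝒪) (ℓ₀ : ℕ) (hℓ₀ : GoodTw N1 S qv ℓ₀)
    (hne : θ (CuspForm.heckeAlgebra.T hℓ₀.1 hℓ₀.not_dvd hℓ₀.not_mem)
      ≠ ((ℓ₀ : ResidueField 𝒪) + 1))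
    (v : 𝒪 ⊗[ℤ] AHpv N1 p eP n qP qv)
    (hv : v ∈ Wpv N1 S p eP n qP qv h2 hc 𝒪 hcomm θ α) (hϖv : ϖ • v = 0)
    (hdv : ∀ u : (ZMod (pvC qP qv))ˣ,
      (diaZ (N1 * twC qv) (pvC qP qv) (pvH qP qv p eP n) h2 hc p u).baseChange 𝒪 v = v) :
    ∃ y ∈ Ypv N1 S p qP qv 𝒪 hcomm0 θ α,
      (upZ (N1 * twC qv) (pvC qP qv) (pvH qP qv p eP n) p).baseChange 𝒪 y = v := by
  have hp0 : (p : 𝒪) ≠ 0 := Nat.cast_ne_zero.mpr hPV.hp.ne_zero
  haveI : NeZero (pvC qP qv) := ⟨hPV.pvC_ne_zero⟩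
  have hE := etaPv_tEisPolyPv N1 S p eP n qP qv h2 hc hcomm ℓ₀ hℓ₀
  have hθ : thetaPv N1 S qP qv θ α (tEisPolyPv p eP n qP qv ℓ₀) ≠ 0 := by
    rw [thetaPv_tEisPolyPv N1 S p eP n qP qv θ α ℓ₀ hℓ₀]
    exact sub_ne_zero.mpr hne
  obtain ⟨-, -, -, -, hup, -, -⟩ := H19.stmt_Z_COMMpv N1 S p eP n qP qv h2 hc hPV.prime
  obtain ⟨y, hy, -, hy2⟩ := Fermat.Agent.NEB.Geom.H94.stmt_W_INV 𝒪 ϖ hϖ p hpm hp0
    (AHpv N1 p eP n qP qv) (fun x => isPTors_coe x)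
    (Fermat.Agent.NEB.Geom.H14.finite_AH (N1 * twC qv) (pvC qP qv) (pvH qP qv p eP n) h2 hc p)
    (A0 (N1 * twC qv) p) (fun x => isPTors_coe x)
    (Fermat.Agent.NEB.Geom.H14.finite_A0 (N1 * twC qv) p hPV.hp.ne_zero)
    (PolyTw r (pvC qP qv)) (etaPv N1 S p eP n qP qv h2 hc hcomm)
    (etaPv0 N1 S p qP qv hcomm0)
    (thetaPv N1 S qP qv θ α) (tEisPolyPv p eP n qP qv ℓ₀) hθ
    (upZ (N1 * twC qv) (pvC qP qv) (pvH qP qv p eP n) p)
    (fun t => Fermat.Agent.NEB.Geom.H14.polyHom_intertwine (opsPv0 N1 S p qP qv) hcomm0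
      (opsPv N1 S p eP n qP qv h2 hc) hcomm
      (upZ (N1 * twC qv) (pvC qP qv) (pvH qP qv p eP n) p) hup t)
    (ZMod (pvC qP qv))ˣ
    (diaZ (N1 * twC qv) (pvC qP qv) (pvH qP qv p eP n) h2 hc p)
    (fun u => ⟨MvPolynomial.X (Sum.inr (Sum.inr u)), polyHom_X _ _ _⟩)
    (fun y hy hdy => by
      obtain ⟨y₀, m, h1, h3⟩ := gen_inv (N1 * twC qv) (pvC qP qv) (pvH qP qv p eP n) h2 hc p
        hPV.hp (pv_unr hPV h2 hc) ℓ₀ hℓ₀.1
        (Fermat.Agent.NEB.Geom.H29.not_dvd_level_of_good hℓ₀) y hy hdy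
      exact ⟨y₀, m, h1, by rw [hE]; exact h3⟩)
    v hv hϖv hdv
  exact ⟨y, hy, hy2⟩

end Main

end Fermat.Agent.L.Pivot.Geom.H29

end
end
-- ==== END Fermat.Agent.L.Pivot.Geom.H29_PUpInj

-- ==== BEGIN Fermat.Agent.L.Pivot.Geom.H4_EigPartInst
section

/-!
# PIVOT / PV-GEOM, leaf P-EIGPART (helper4), part 5: the instance on `PvSetup`

`stmt_P_EIGPART : Stmt_P_EIGPART` : on the module `W'` of a `PvSetup`, a Hecke operator of level
`pvLevel` whose restriction to the level `twLevel` vanishes kills the `Δ_Σ`-norms.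

It is the instance of `H4.eigPart_W` at
`N = M₀ = N1 / c_Σ`, `qsP = pivots`, `qsQ = Taylor–Wiles primes`, `c = c' = c_Σ c_Q`,
`M = N1 c_Q`, `N' = pvLevel`, `N'' = twLevel`, `A = J_H'[p^∞]`, `𝕋 = PolyTw`, `etaW = D.η`, and
`ν = ∏_j ∑_{i < p^{e_j}} ⟨δP j⟩^i`.

* `unitsMap_Q_eq_one`, `exists_decomp_P` : a unit `d ≡ 1 mod c_Q` is `y ∏ δP_j^{s_j}`, `y ∈ H'`;
* `diaZ_mul_nmTotE` : `⟨y ∏ δ_j^{s_j}⟩ Nm = Nm`;
* `p_eigpart D : Stmt_P_eigpart D`, `stmt_P_EIGPART`.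

Complete proofs, standard axioms only.
-/

set_option autoImplicit false
set_option linter.unusedSectionVars false
set_option linter.style.haveILetI false
set_option linter.unusedVariables false
set_option synthInstance.maxHeartbeats 400000
set_option maxHeartbeats 1000000

noncomputable section

open ModularCurve AlgebraicCurve IsLocalRing TensorProduct Polynomial

namespace Fermat.Agent.L.Pivot.Geom.H4

open Fermat.Agent.NEB Fermat.Agent.NEB.JH Fermat.Agent.NEB.Geom Fermat.Agent.S59.Asm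
  Fermat.Agent.S59.Lim Fermat.Agent.S59.Lim.H2 Fermat.Agent.L.Pivot.Geom

/-! ## Group theory: the units `≡ 1 mod c_Q` -/

section Group

variable {k r : ℕ} (qP : Fin k → ℕ) (qv : Fin r → ℕ) (p : ℕ) (eP : Fin k → ℕ) (n : ℕ)

/-- A unit `≡ 1 mod c_Q` is `≡ 1` at every Taylor–Wiles prime. -/
theorem unitsMap_Q_eq_one {d : (ZMod (pvC qP qv))ˣ}
    (hd : ZMod.unitsMap (twC_Q_dvd_pvC qP qv) d = 1) (i : Fin r) :
    ZMod.unitsMap (dvd_pvC_Q qP qv i) d = 1 := by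
  have h2 : ZMod.unitsMap (dvd_pvC_Q qP qv i) d
      = ZMod.unitsMap (dvd_twC_self qv i) (ZMod.unitsMap (twC_Q_dvd_pvC qP qv) d) := by
    rw [← MonoidHom.comp_apply, ZMod.unitsMap_comp]
  rw [h2, hd, map_one]

/-- **Decomposition**: a unit `d ≡ 1 mod c_Q` is an element of `H'` times a monomial in the
generators `δP j` of `Δ_Σ`. -/
theorem exists_decomp_P (hprimeP : ∀ j, (qP j).Prime) (hcong : ∀ j, p ^ eP j ∣ qP j - 1)
    (δP : Fin k → (ZMod (pvC qP qv))ˣ)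
    (hPP : ∀ j j', j' ≠ j → ZMod.unitsMap (dvd_pvC_P qP qv j') (δP j) = 1)
    (hPQ : ∀ j i, ZMod.unitsMap (dvd_pvC_Q qP qv i) (δP j) = 1)
    (hord : ∀ j e, δP j ^ e ∈ pvH qP qv p eP n → p ^ eP j ∣ e)
    (d : (ZMod (pvC qP qv))ˣ) (hd : ZMod.unitsMap (twC_Q_dvd_pvC qP qv) d = 1) :
    ∃ (s : Fin k → ℕ) (y : (ZMod (pvC qP qv))ˣ),
      y ∈ pvH qP qv p eP n ∧ d = y * ∏ j, δP j ^ s j := by
  have key : ∀ j, ∃ (s : ℕ) (y : (ZMod (qP j))ˣ),
      ZMod.unitsMap (dvd_pvC_P qP qv j) d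
        = ZMod.unitsMap (dvd_pvC_P qP qv j) (δP j) ^ s * y ^ (p ^ eP j) := by
    intro j
    haveI := Fermat.Agent.NEB.Geom.H29.finite_units_of_prime (hprimeP j)
    haveI := Fermat.Agent.NEB.Geom.H29.isCyclic_units_of_prime (hprimeP j)
    refine Fermat.Agent.NEB.Geom.H29.cyc_gen (p ^ eP j)
      (by rw [Fermat.Agent.NEB.Geom.H29.card_units_of_prime (hprimeP j)]; exact hcong j) _
      (fun e he => ?_) _
    apply hord j e
    rw [mem_pvH]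
    refine ⟨fun j' => ?_, fun i => ?_⟩
    · by_cases h : j' = j
      · subst h
        obtain ⟨y, hy⟩ := he
        exact ⟨y, by rw [map_pow]; exact hy⟩
      · exact ⟨1, by rw [map_pow, hPP j j' h, one_pow, one_pow]⟩
    · exact ⟨1, by rw [map_pow, hPQ j i, one_pow, one_pow]⟩
  choose s y hy using key
  have hmon : ∀ j, ZMod.unitsMap (dvd_pvC_P qP qv j) (∏ i, δP i ^ s i)
      = ZMod.unitsMap (dvd_pvC_P qP qv j) (δP j) ^ s j := by
    intro j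
    rw [map_prod, Finset.prod_eq_single j]
    · rw [map_pow]
    · intro i _ hij
      rw [map_pow, hPP i j (fun e => hij e.symm), one_pow]
    · intro hj
      exact absurd (Finset.mem_univ j) hj
  have hmonQ : ∀ i, ZMod.unitsMap (dvd_pvC_Q qP qv i) (∏ j, δP j ^ s j) = 1 := by
    intro i
    rw [map_prod]
    refine Finset.prod_eq_one fun j _ => ?_
    rw [map_pow, hPQ j i, one_pow]
  refine ⟨s, d * (∏ j, δP j ^ s j)⁻¹, ?_, by rw [inv_mul_cancel_right]⟩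
  rw [mem_pvH]
  refine ⟨fun j => ⟨y j, ?_⟩, fun i => ⟨1, ?_⟩⟩
  · rw [map_mul, map_inv, hmon j, hy j, mul_comm (_ ^ s j), mul_assoc, mul_inv_cancel, mul_one]
  · rw [one_pow, map_mul, map_inv, hmonQ i, unitsMap_Q_eq_one qP qv hd i, inv_one, mul_one]

end Group

/-! ## The diamond operators and the total norm on `J_H[p^∞]` -/

section Op

variable (M c : ℕ) [NeZero M] (H : Subgroup (ZMod c)ˣ) (h2 : 2 ≤ c) (hc : c ∣ M) (p : ℕ)

/-- `⟨y ∏ δ_j^{s_j}⟩ Nm = Nm` for `y ∈ H`, `Nm = ∏_j ∑_{i < m_j} ⟨δ_j⟩^i`, `δ_j^{m_j} ∈ H`. -/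
theorem diaZ_mul_nmTotE {k : ℕ} (m : Fin k → ℕ) (δ : Fin k → (ZMod c)ˣ)
    (hpow : ∀ j, δ j ^ m j ∈ H) (s : Fin k → ℕ) (y : (ZMod c)ˣ) (hy : y ∈ H) :
    diaZ M c H h2 hc p (y * ∏ j, δ j ^ s j) *
        H59.nmTotE m (fun j => diaZ M c H h2 hc p (δ j))
      = H59.nmTotE m (fun j => diaZ M c H h2 hc p (δ j)) := by
  have hcomm : ∀ i j, Commute (diaZ M c H h2 hc p (δ i)) (diaZ M c H h2 hc p (δ j)) :=
    fun i j => Fermat.Agent.NEB.Geom.H9.diaZ_commute M c H h2 hc p _ _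
  have hp1 : ∀ j, diaZ M c H h2 hc p (δ j) ^ m j = 1 := fun j => by
    rw [← map_pow]
    exact Fermat.Agent.NEB.Geom.H9.diaZ_eq_one_of_mem M c H h2 hc p (hpow j)
  have h1 : ∀ j, diaZ M c H h2 hc p (δ j) *
      H59.nmTotE m (fun j => diaZ M c H h2 hc p (δ j))
        = H59.nmTotE m (fun j => diaZ M c H h2 hc p (δ j)) :=
    H59.mul_nmTotE m _ hcomm hp1
  let Sf : Submonoid (ZMod c)ˣ :=
    { carrier := {u | diaZ M c H h2 hc p u *
          H59.nmTotE m (fun j => diaZ M c H h2 hc p (δ j))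
        = H59.nmTotE m (fun j => diaZ M c H h2 hc p (δ j))}
      one_mem' := by
        show diaZ M c H h2 hc p 1 * _ = _
        rw [map_one, one_mul]
      mul_mem' := by
        intro a b ha hb
        show diaZ M c H h2 hc p (a * b) * _ = _
        rw [map_mul, mul_assoc]
        exact (congrArg (fun t => diaZ M c H h2 hc p a * t) hb).trans ha }
  have hmem : y * ∏ j, δ j ^ s j ∈ Sf := by
    refine Sf.mul_mem ?_ (Sf.prod_mem fun j _ => Sf.pow_mem (h1 j) _)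
    show diaZ M c H h2 hc p y * _ = _
    rw [Fermat.Agent.NEB.Geom.H9.diaZ_eq_one_of_mem M c H h2 hc p hy, one_mul]
  exact hmem

end Op

/-! ## The instance on `PvSetup` -/

section Main

variable {𝒪 : Type} [CommRing 𝒪] [IsDomain 𝒪] [IsDiscreteValuationRing 𝒪] [CharZero 𝒪]
  {ϖ : 𝒪} {p : ℕ} [Fact p.Prime] {N1 : ℕ} [NeZero N1] {S : Finset ℕ}
  {θ : CuspForm.heckeAlgebra N1 2 (↑S : Set ℕ) →+* ResidueField 𝒪}
  {ρbar : ResidualGaloisRep (ResidueField 𝒪)} {k : ℕ} {eP : Fin k → ℕ} {n : ℕ}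
  {qP : Fin k → ℕ} {r : ℕ} {qv : Fin r → ℕ}
  [NeZero (N1 * twC qv)] [NeZero (pvC qP qv)] [NeZero (twLevel N1 qv)]
  [NeZero (pvLevel N1 qP qv)]
  (D : PvSetup 𝒪 ϖ p N1 S θ ρbar eP n qP qv)

/-- The polynomial `ν = ∏_j ∑_{i < p^{e_j}} z_{δP j}^i` (the total norm of `Δ_Σ`). -/
def nuPv : PolyTw r (pvC qP qv) :=
  (List.ofFn fun j : Fin k => ∑ i ∈ Finset.range (p ^ eP j),
    (MvPolynomial.X (Sum.inr (Sum.inr (D.δP j))) : PolyTw r (pvC qP qv)) ^ i).prod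

/-- `η⁺ ν` is the total norm of `Δ_Σ` on `J_H'[p^∞]`. -/
theorem etaPv_nuPv :
    etaPv N1 S p eP n qP qv D.h2 D.hc D.hcomm (nuPv D)
      = H59.nmTotE (fun j => p ^ eP j)
          (fun j => diaZ (N1 * twC qv) (pvC qP qv) (pvH qP qv p eP n) D.h2 D.hc p (D.δP j)) := by
  unfold nuPv H59.nmTotE
  rw [map_list_prod, List.map_ofFn]
  congr 1
  congr 1
  funext j
  show etaPv N1 S p eP n qP qv D.h2 D.hc D.hcomm (∑ i ∈ Finset.range (p ^ eP j),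
    (MvPolynomial.X (Sum.inr (Sum.inr (D.δP j))) : PolyTw r (pvC qP qv)) ^ i) = _
  rw [map_sum, Fermat.Agent.S59.TWH.H90.nm]
  refine Finset.sum_congr rfl fun i _ => ?_
  rw [map_pow, polyHom_X]
  rfl

/-- The restriction to `W'` of `η⁺ z_u` is the diamond operator. -/
theorem thetaEta_dia (u : (ZMod (pvC qP qv))ˣ) :
    thetaEta (etaPv N1 S p eP n qP qv D.h2 D.hc D.hcomm) (thetaPv N1 S qP qv θ D.α)
      (MvPolynomial.X (Sum.inr (Sum.inr u))) = D.dia u := by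
  rw [thetaEta_eq]
  exact thetaZ_congr _ _ (polyHom_X _ _ _)

/-- The restriction to `W'` of `η⁺ ν` is the total norm of `Δ_Σ`. -/
theorem thetaEta_nuPv :
    thetaEta (etaPv N1 S p eP n qP qv D.h2 D.hc D.hcomm) (thetaPv N1 S qP qv θ D.α) (nuPv D)
      = H59.nmTotE (fun j => p ^ eP j) D.c := by
  unfold nuPv H59.nmTotE
  rw [map_list_prod, List.map_ofFn]
  congr 1
  congr 1
  funext j
  show thetaEta (etaPv N1 S p eP n qP qv D.h2 D.hc D.hcomm) (thetaPv N1 S qP qv θ D.α)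
    (∑ i ∈ Finset.range (p ^ eP j),
      (MvPolynomial.X (Sum.inr (Sum.inr (D.δP j))) : PolyTw r (pvC qP qv)) ^ i) = _
  rw [map_sum, Fermat.Agent.S59.TWH.H90.nm]
  refine Finset.sum_congr rfl fun i _ => ?_
  rw [map_pow, thetaEta_dia]
  rfl

/-- **P-EIGPART** on a `PvSetup`. -/
theorem p_eigpart (hϖ : Irreducible ϖ) : Stmt_P_eigpart D := by
  classical
  intro t ht x
  have hPV := D.hPV
  have hp0 : (p : 𝒪) ≠ 0 := Nat.cast_ne_zero.mpr hPV.hp.ne_zero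
  -- the level `M₀ = N1 / c_Σ`
  obtain ⟨M₀, hM₀⟩ : ∃ M₀ : ℕ, N1 = M₀ * twC qP :=
    ⟨N1 / twC qP,
      (Nat.div_mul_cancel (twC_dvd_of_prime qP hPV.injP hPV.primeP N1 hPV.dvdP)).symm⟩
  have hM₀0 : M₀ ≠ 0 := by
    rintro rfl
    rw [zero_mul] at hM₀
    exact hPV.hN hM₀
  have hM : N1 * twC qv = M₀ * pvC qP qv := by
    rw [pvC, ← mul_assoc, ← hM₀]
  have hN' : pvLevel N1 qP qv = M₀ * pvC qP qv * pvC qP qv := by
    rw [pvLevel, Fermat.Agent.NEB.Geom.H39.twLevel_eq_mul, pvC]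
    show N1 * twC qv * twC qv * twC qP = _
    rw [hM₀]
    ring
  have hN'' : twLevel N1 qv = M₀ * twC qP * twC qv * twC qv := by
    rw [Fermat.Agent.NEB.Geom.H39.twLevel_eq_mul, ← hM₀]
  -- the primes
  have hnd : (List.ofFn qP ++ List.ofFn qv).Nodup := by
    rw [List.nodup_append]
    refine ⟨List.nodup_ofFn.mpr hPV.injP, List.nodup_ofFn.mpr hPV.inj, ?_⟩
    intro a ha b hb
    obtain ⟨j, rfl⟩ := (List.mem_ofFn' qP a).mp ha
    obtain ⟨i, rfl⟩ := (List.mem_ofFn' qv b).mp hb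
    exact hPV.qP_ne_qv j i
  have hpr : ∀ q ∈ List.ofFn qP ++ List.ofFn qv, q.Prime := by
    intro q hq
    rcases List.mem_append.mp hq with h | h
    · obtain ⟨j, rfl⟩ := (List.mem_ofFn' qP q).mp h
      exact hPV.primeP j
    · obtain ⟨i, rfl⟩ := (List.mem_ofFn' qv q).mp h
      exact hPV.prime i
  have hqN : ∀ q ∈ List.ofFn qP ++ List.ofFn qv, ¬ q ∣ M₀ := by
    intro q hq hd
    rcases List.mem_append.mp hq with h | h
    · obtain ⟨j, rfl⟩ := (List.mem_ofFn' qP q).mp h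
      have h1 : qP j * qP j ∣ N1 := by
        rw [hM₀]
        exact mul_dvd_mul hd (dvd_twC_self qP j)
      exact (hPV.primeP j).not_isUnit (hPV.hsq (qP j) h1)
    · obtain ⟨i, rfl⟩ := (List.mem_ofFn' qv q).mp h
      refine hPV.notS i (hPV.hNS _ (hPV.prime i) ?_)
      rw [hM₀]
      exact dvd_mul_of_dvd_left hd _
  -- the diamonds have odd order
  have hdn : ∀ d, diaZ (N1 * twC qv) (pvC qP qv) (pvH qP qv p eP n) D.h2 D.hc p d
      ^ (2 * jPv p eP n + 1) = 1 := by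
    intro d
    refine Fermat.Agent.NEB.EIG.H98.diaZ_pow_eq_one _ _ _ _ _ _ (fun d' => Or.inl ?_) d
    rw [two_jPv p eP n hPV.hp hPV.hp2]
    exact pow_mem_pvH qP qv p eP n d'
  -- the norm has values in the invariants of the pivot diamonds
  have hν : ∀ d : (ZMod (pvC qP qv))ˣ, ZMod.unitsMap (twC_Q_dvd_pvC qP qv) d = 1 →
      diaZ (N1 * twC qv) (pvC qP qv) (pvH qP qv p eP n) D.h2 D.hc p d *
        etaPv N1 S p eP n qP qv D.h2 D.hc D.hcomm (nuPv D)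
      = etaPv N1 S p eP n qP qv D.h2 D.hc D.hcomm (nuPv D) := by
    intro d hd
    rw [etaPv_nuPv]
    obtain ⟨s, y, hy, rfl⟩ := exists_decomp_P qP qv p eP n hPV.primeP
      (fun j => (hPV.congP j).1) D.δP D.hδ.P_P D.hδ.P_Q D.hδ.P_ord d hd
    exact diaZ_mul_nmTotE _ _ _ _ _ _ _ _
      (fun j => Fermat.Agent.L.Pivot.Geom.H9.pow_mem_pvH_P qP qv p eP n (D.δP j) j
        (D.hδ.P_P j) (D.hδ.P_Q j)) s y hy
  have key := eigPart_W p M₀ hM₀0 (List.ofFn qP) (List.ofFn qv) hnd hpr hqN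
    (pvC qP qv) (twC qP) (twC qv) (pvLevel N1 qP qv) (twLevel N1 qv) (N1 * twC qv)
    (Fermat.Agent.NEB.Geom.H39.twC_eq_list_prod qP)
    (Fermat.Agent.NEB.Geom.H39.twC_eq_list_prod qv) rfl hM D.hc hN' hN''
    (↑(twSet S qv) : Set ℕ) (Fermat.Agent.L.Pivot.Geom.H9.mem_twSet_of_dvd_pv hPV)
    (AHpv N1 p eP n qP qv) (fun x => isPTors_coe x)
    (Fermat.Agent.NEB.Geom.H84.finite_AH_p (pvH qP qv p eP n) D.h2 D.hc p)
    (Fermat.Agent.NEB.EIG.H98.monoSys (N1 * twC qv) (pvC qP qv) (pvH qP qv p eP n) D.h2 D.hc p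
      Fermat.Agent.NEB.H70.iotaC)
    (Tz (N1 * twC qv) (pvC qP qv) (pvH qP qv p eP n) D.h2 D.hc p)
    (fun ℓ hℓ hℓM k x hx => Fermat.Agent.NEB.EIG.H98.monoSys_Tz (N1 * twC qv) (pvC qP qv)
      (pvH qP qv p eP n) D.h2 D.hc p Fermat.Agent.NEB.H70.iotaC ℓ hℓ hℓM k x hx)
    (diaZ (N1 * twC qv) (pvC qP qv) (pvH qP qv p eP n) D.h2 D.hc p)
    (fun g hg d hd k x hx => Fermat.Agent.NEB.EIG.H98.monoSys_diaZ (N1 * twC qv) (pvC qP qv)
      (pvH qP qv p eP n) D.h2 D.hc p Fermat.Agent.NEB.H70.iotaC g hg d hd k x hx)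
    (fun ℓ _ _ d => Fermat.Agent.NEB.EIG.H98.commute_Tz_diaZ (N1 * twC qv) (pvC qP qv)
      (pvH qP qv p eP n) D.h2 D.hc p ℓ d)
    (jPv p eP n) hdn
    (etaPv N1 S p eP n qP qv D.h2 D.hc D.hcomm) (thetaPv N1 S qP qv θ D.α)
    (fun w => Fermat.Agent.NEB.Geom.H39.pdiv_of_div hϖ hp0 D.isDiv.div w)
    (fun ℓ => MvPolynomial.X (Sum.inl ℓ))
    (fun ℓ hℓ hℓN hℓS => by
      show polyHom (opsPv N1 S p eP n qP qv D.h2 D.hc) D.hcomm (MvPolynomial.X (Sum.inl ℓ)) = _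
      rw [polyHom_X]
      show (if GoodTw N1 S qv ℓ then _ else 0) = _
      rw [if_pos (goodTw_of_pv N1 S qP qv hℓ hℓN hℓS)]
      rfl)
    D.η D.η_T
    (restPV N1 S qP qv hPV.dvdP) (restPV_T N1 S qP qv hPV.dvdP)
    (twC_Q_dvd_pvC qP qv) (nuPv D) hν t ht
  have h2 := LinearMap.congr_fun key x
  rw [thetaEta_nuPv D] at h2
  exact h2

end Main

/-- **P-EIGPART** (universally quantified). -/
theorem stmt_P_EIGPART : Stmt_P_EIGPART := by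
  intro 𝒪 _ _ _ _ _ _ ϖ p _ N1 _ S Smin θ ρbar k Pv eP hstd Dm n r qv _ _ _ _ D
  exact p_eigpart D hstd.hϖ

end Fermat.Agent.L.Pivot.Geom.H4

end

end
-- ==== END Fermat.Agent.L.Pivot.Geom.H4_EigPartInst

-- ==== BEGIN Fermat.Agent.L.Pivot.Geom.H50_NewJ0Final
section

/-!
# PIVOT, PV-GEOM part II, leaf PVG-N2 (helper50): `Stmt_NewJ0` with (B-2) and (UNIP) plugged in

* `stmt_B2Beta : q.Prime → q ∣ M → Geom.H81.Stmt_B2Beta M q` (helper24's `torChar_betaPush`);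
* `stmt_TorsUnip_h50 : p.Prime → BAD.Stmt_TorsUnip N p` (the chain of S34, helper91/helper23/
  helper82);
* `newJ0_of_tors : S35.H89.Stmt_TorsNU M q p → BAD.Stmt_TorsUnip M p → Stmt_NewJ0 M q p`;
* `newJ0_of_torsNU : S35.H89.Stmt_TorsNU M q p → Stmt_NewJ0 M q p`  — the ONLY remaining input is
  (NU) on the `q`-new torsion of `J₀(M q)` (item S36).
-/

set_option autoImplicit false

noncomputable section

namespace Fermat.Agent.L.Pivot.Geom.H50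

/-- **(B-2) for `β`** (helper24). -/
theorem stmt_B2Beta (M q : ℕ) [NeZero M] [NeZero q] (hq : q.Prime) (hqM : q ∣ M) :
    Fermat.Agent.L.Pivot.Geom.H81.Stmt_B2Beta M q :=
  fun n _ ι x φ h => Fermat.Agent.L.Pivot.Geom.H24.torChar_betaPush M q n hq hqM ι x φ h

/-- **PVG-N2**: `Stmt_NewJ0` from (NU) at the level `M q` and (UNIP) at the level `M`. -/
theorem newJ0_of_tors {M q p : ℕ} [NeZero M] [NeZero q]
    (hNU : Fermat.Agent.S35.H89.Stmt_TorsNU M q p)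
    (hU : Fermat.Agent.BAD.Stmt_TorsUnip M p) : Stmt_NewJ0 M q p :=
  fun hq hqM => newJ0_of hNU hU (stmt_B2Beta M q hq hqM) hq hqM

/-- the law of total conservation for the modular datum (as in `Fermat/Agent/S34.lean`). -/
theorem stmt_TotMod_h50 : Fermat.Agent.BAD.H91.Stmt_TotMod :=
  fun A q M a b hab hq _ _ hA hqM ht =>
    Fermat.Agent.BAD.H23.tot_mod A q M a b hab hq hA hqM ht
      (Fermat.Agent.BAD.H82.redField_eq_fullC q M a b hab hq A hA)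

/-- **(UNIP)**, unconditional (the chain of S34). -/
theorem stmt_TorsUnip_h50 (N : ℕ) [NeZero N] (p : ℕ) (hp : p.Prime) :
    Fermat.Agent.BAD.Stmt_TorsUnip N p :=
  Fermat.Agent.BAD.H91.torsUnip_of_tame
    (fun M q _ hq hqM hq2 ht =>
      Fermat.Agent.BAD.H91.modSSD_tame_of stmt_TotMod_h50 M q hq hqM hq2 ht) N p hp

/-- **PVG-N2**: `Stmt_NewJ0` from (NU) at the level `M q` alone. -/
theorem newJ0_of_torsNU {M q p : ℕ} [NeZero M] [NeZero q]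
    (hNU : Fermat.Agent.S35.H89.Stmt_TorsNU M q p) : Stmt_NewJ0 M q p :=
  fun hq hqM hq2 hp =>
    newJ0_of_tors hNU (stmt_TorsUnip_h50 M p hp) hq hqM hq2 hp

end Fermat.Agent.L.Pivot.Geom.H50

end
end
-- ==== END Fermat.Agent.L.Pivot.Geom.H50_NewJ0Final

-- ==== BEGIN Fermat.Agent.L.Pivot.Geom.H18_PPi
section

/-!
# PIVOT, package PV-GEOM, Part I, leaf P-PI (helper18): the wiring

`π = ω ∘ π_*`, `πup = π^* ∘ ω⁻¹` between `W' = Wpv` and the `θ`-part at level `N1`, through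
`Y' = Ypv` (level `Γ₀(M1)`) and helper14's `ω` (`H14.exists_omega_pv`):

* `p_pi_of` : `Stmt_P_pi Dm D` from
  - helper29's `H29.p_upinj`, `H29.p_upinv`,
  - the norm formula `H18.pv_normZ` (`π^* π_* = Nm_{Δ_Q} ∘ Nm_{Δ_Σ}` on `J_{H'}[p^∞]`),
  - helper19's `H19.stmt_Z_COMMpv`, helper14's `pi_wire_abs`, `exists_omega_pv`,
  - the two auxiliary statements `hfix` (invariance under the generators) and `hcoe` (the total
    norms on the `θ`-part).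

PV clone of helper14's `stmt_PI_WIRE_of` and helper15's `stmt_A_PI_of`.
-/

set_option autoImplicit false
set_option linter.unusedSectionVars false
set_option linter.unusedVariables false
set_option linter.style.haveILetI false
set_option synthInstance.maxHeartbeats 400000
set_option maxHeartbeats 1600000

noncomputable section

open ModularCurve AlgebraicCurve IsLocalRing TensorProduct Polynomial

namespace Fermat.Agent.L.Pivot.Geom.H18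

open Fermat.Agent.NEB Fermat.Agent.NEB.JH Fermat.Agent.NEB.Geom Fermat.Agent.S59.Lim
  Fermat.Agent.S59.Lim.H2 Fermat.Agent.S59.Asm Fermat.Agent.L.Pivot.Geom
  Fermat.Agent.NEB.OLD

section Main

variable {𝒪 : Type} [CommRing 𝒪] [IsDomain 𝒪] [IsDiscreteValuationRing 𝒪]
  [Finite (ResidueField 𝒪)] [CharZero 𝒪]
  {ϖ : 𝒪} {p : ℕ} [Fact p.Prime] {N1 : ℕ} [NeZero N1] {S : Finset ℕ}
  {θ : CuspForm.heckeAlgebra N1 2 (↑S : Set ℕ) →+* ResidueField 𝒪}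
  {ρbar : ResidualGaloisRep (ResidueField 𝒪)} {k : ℕ} {eP : Fin k → ℕ} {n : ℕ}
  {qP : Fin k → ℕ} {r : ℕ} {qv : Fin r → ℕ}
  [NeZero (N1 * twC qv)] [NeZero (pvC qP qv)] [NeZero (twLevel N1 qv)]
  [NeZero (pvLevel N1 qP qv)]

/-- The primes dividing `pvLevel` are in the Taylor–Wiles set. -/
theorem mem_twSet_of_dvd_pvLevel (h : PvHyp N1 S p eP n qP qv)
    (q : ℕ) (hq : q.Prime) (hqN : q ∣ pvLevel N1 qP qv) : q ∈ (↑(twSet S qv) : Set ℕ) :=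
  Fermat.Agent.NEB.Geom.H15.mem_twSet_of_dvd h.hNS h.prime q hq
    (H4.prime_dvd_twLevel_of_dvd_pvLevel N1 qP qv h.dvdP q hq hqN)

/-- **P-PI**, for one setup, from the sub-leaves. -/
theorem p_pi_of (hϖ : Irreducible ϖ) (hpm : (p : 𝒪) ∈ maximalIdeal 𝒪)
    (Dm : MinSetup 𝒪 ϖ p N1 S θ) (D : PvSetup 𝒪 ϖ p N1 S θ ρbar eP n qP qv)
    (hfix : ∀ v : 𝒪 ⊗[ℤ] AHpv N1 p eP n qP qv,
      (∀ j, (diaZ (N1 * twC qv) (pvC qP qv) (pvH qP qv p eP n) D.h2 D.hc p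
        (D.δP j)).baseChange 𝒪 v = v) →
      (∀ i, (diaZ (N1 * twC qv) (pvC qP qv) (pvH qP qv p eP n) D.h2 D.hc p
        (D.δQ i)).baseChange 𝒪 v = v) →
      ∀ u, (diaZ (N1 * twC qv) (pvC qP qv) (pvH qP qv p eP n) D.h2 D.hc p
        u).baseChange 𝒪 v = v)
    (hcoe : ∀ x : D.WD.W,
      D.val (Fermat.Agent.S59.TWH.H90.nmTot (p ^ n) D.d
        (H59.nmTotE (fun j => p ^ eP j) D.c x))
      = (Fermat.Agent.S59.TWH.H90.nmTot (p ^ n)
          (fun i => diaZ (N1 * twC qv) (pvC qP qv) (pvH qP qv p eP n) D.h2 D.hc p (D.δQ i)) *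
        H59.nmTotE (fun j => p ^ eP j)
          (fun j => diaZ (N1 * twC qv) (pvC qP qv) (pvH qP qv p eP n) D.h2 D.hc p
            (D.δP j))).baseChange 𝒪 (D.val x)) :
    Stmt_P_pi Dm D := by
  classical
  have hp0 : (p : 𝒪) ≠ 0 := Nat.cast_ne_zero.mpr (Fact.out : p.Prime).ne_zero
  have hPV := D.hPV
  obtain ⟨-, -, hc0, hc0G, hup, hdown, hupG⟩ :=
    H19.stmt_Z_COMMpv N1 S p eP n qP qv D.h2 D.hc hPV.prime
  have hnm := pv_normZ hPV D.h2 D.hc D.hδ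
  obtain ⟨Φ, hΦ1, hΦ2, hΦ3, hΦ4, hΦ5⟩ :=
    Fermat.Agent.L.Pivot.Geom.H14.exists_omega_pv (𝒪 := 𝒪) (p := p) (qP := qP) hp0 hPV.inj
      hPV.prime hPV.notS hPV.hNS hc0 θ D.α D.β D.eig Dm.ηC Dm.ηC_T
  have hgUp : ∀ t, upZ (N1 * twC qv) (pvC qP qv) (pvH qP qv p eP n) p ∘ₗ
        etaPv0 N1 S p qP qv hc0 t
      = etaPv N1 S p eP n qP qv D.h2 D.hc D.hcomm t ∘ₗ
        upZ (N1 * twC qv) (pvC qP qv) (pvH qP qv p eP n) p :=
    Fermat.Agent.NEB.Geom.H14.polyHom_intertwine (opsPv0 N1 S p qP qv) hc0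
      (opsPv N1 S p eP n qP qv D.h2 D.hc) D.hcomm _ hup
  have hgDown : ∀ t, downZ (N1 * twC qv) (pvC qP qv) (pvH qP qv p eP n) p ∘ₗ
        etaPv N1 S p eP n qP qv D.h2 D.hc D.hcomm t
      = etaPv0 N1 S p qP qv hc0 t ∘ₗ
        downZ (N1 * twC qv) (pvC qP qv) (pvH qP qv p eP n) p :=
    Fermat.Agent.NEB.Geom.H14.polyHom_intertwine (opsPv N1 S p eP n qP qv D.h2 D.hc) D.hcomm
      (opsPv0 N1 S p qP qv) hc0 _ hdown
  have hinj : ∀ y ∈ thetaPart (etaPv0 N1 S p qP qv hc0) (thetaPv N1 S qP qv θ D.α),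
      (upZ (N1 * twC qv) (pvC qP qv) (pvH qP qv p eP n) p).baseChange 𝒪 y = 0 → y = 0 :=
    fun y hy hy0 => H29.p_upinj ϖ hϖ p hpm N1 S eP n qP qv hPV D.h2 D.hc hc0 θ D.α D.ℓ₀ D.hℓ₀
      D.hne y hy hy0
  obtain ⟨π, πup, k1, k2, k3, k4⟩ :=
    Fermat.Agent.NEB.Geom.H14.pi_wire_abs (𝒪 := 𝒪)
      (etaPv N1 S p eP n qP qv D.h2 D.hc D.hcomm) (etaPv0 N1 S p qP qv hc0) Dm.ηC
      (thetaPv N1 S qP qv θ D.α) θ
      (upZ (N1 * twC qv) (pvC qP qv) (pvH qP qv p eP n) p) hgUp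
      (downZ (N1 * twC qv) (pvC qP qv) (pvH qP qv p eP n) p) hgDown (resP p Φ) hΦ3 hΦ4 hΦ5
      hinj
  -- description of `πup y`
  have hdesc : ∀ y : ↥(thetaPart Dm.ηC θ), ∃ v ∈ thetaPart (etaPv0 N1 S p qP qv hc0)
      (thetaPv N1 S qP qv θ D.α), (resP p Φ).baseChange 𝒪 v = y.1 ∧
      ((πup y : ↥(thetaPart (etaPv N1 S p eP n qP qv D.h2 D.hc D.hcomm)
          (thetaPv N1 S qP qv θ D.α))) : 𝒪 ⊗[ℤ] AHpv N1 p eP n qP qv)
        = (upZ (N1 * twC qv) (pvC qP qv) (pvH qP qv p eP n) p).baseChange 𝒪 v := by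
    intro y
    obtain ⟨v, hv, hvy⟩ := hΦ4 y.1 y.2
    refine ⟨v, hv, hvy, ?_⟩
    have hy : y = ⟨(resP p Φ).baseChange 𝒪 v, hΦ3 v hv⟩ := Subtype.ext hvy.symm
    rw [hy]
    exact k3 v hv
  -- the diamonds fix `πup y`
  have hdia : ∀ (u : (ZMod (pvC qP qv))ˣ) (y : ↥(thetaPart Dm.ηC θ)),
      (diaZ (N1 * twC qv) (pvC qP qv) (pvH qP qv p eP n) D.h2 D.hc p u).baseChange 𝒪
        ((πup y : ↥(thetaPart (etaPv N1 S p eP n qP qv D.h2 D.hc D.hcomm)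
          (thetaPv N1 S qP qv θ D.α))) : 𝒪 ⊗[ℤ] AHpv N1 p eP n qP qv) = (πup y : _) := by
    intro u y
    obtain ⟨v, hv, -, hvy⟩ := hdesc y
    rw [hvy]
    have h1 : diaZ (N1 * twC qv) (pvC qP qv) (pvH qP qv p eP n) D.h2 D.hc p u
        ∘ₗ upZ (N1 * twC qv) (pvC qP qv) (pvH qP qv p eP n) p
        = upZ (N1 * twC qv) (pvC qP qv) (pvH qP qv p eP n) p := by
      have := hup (Sum.inr (Sum.inr u))
      exact this.symm
    have h3 := congrArg (fun F => F v) (congrArg (LinearMap.baseChange 𝒪) h1)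
    simp only [LinearMap.baseChange_comp, LinearMap.comp_apply] at h3
    exact h3
  unfold Stmt_P_pi
  refine ⟨π, πup, k1, fun x => Subtype.ext ?_, fun u y => Subtype.ext ?_,
    fun v hv hcv hdv => ?_, ?_, fun σ y => ?_⟩
  · -- `πup ∘ π = Nm_{Δ_Q} ∘ Nm_{Δ_Σ}`
    refine (k2 x).trans ?_
    rw [hnm]
    exact (hcoe x).symm
  · -- the diamonds fix `πup y`
    exact hdia u y
  · -- INV
    have hall := hfix v.1 (fun j => congrArg Subtype.val (hcv j))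
      (fun i => congrArg Subtype.val (hdv i))
    obtain ⟨y, hy, hyv⟩ := H29.p_upinv ϖ hϖ p hpm N1 S eP n qP qv hPV D.h2 D.hc D.hcomm hc0 θ
      D.α D.ℓ₀ D.hℓ₀ D.hne v.1 v.2 (congrArg Subtype.val hv) hall
    exact ⟨⟨(resP p Φ).baseChange 𝒪 y, hΦ3 y hy⟩, Subtype.ext ((k3 y hy).trans hyv)⟩
  · -- Hecke equivariance of `π`
    have hS : ∀ q : ℕ, q.Prime → q ∣ pvLevel N1 qP qv → q ∈ (↑(twSet S qv) : Set ℕ) :=
      mem_twSet_of_dvd_pvLevel hPV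
    have key : ∀ t, t ∈ Fermat.Agent.NEB.Geom.H15.interSub
        (W := ↥(Wpv N1 S p eP n qP qv D.h2 D.hc 𝒪 D.hcomm θ D.α))
        (W' := ↥(thetaPart Dm.ηC θ)) π D.η (thetaEta Dm.ηC θ)
        ((Fermat.Agent.S59.Asm.H41.restTW N1 S qv hPV.prime).comp
          (H4.restPV N1 S qP qv hPV.dvdP)) := by
      refine Fermat.Agent.NEB.EIG.H39.hecke_induction hS ?_ (fun m => intCast_mem _ m)
        (fun x y hx hy => add_mem hx hy) (fun x y hx hy => mul_mem hx hy)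
      intro ℓ hℓ hℓN hℓS
      rw [Fermat.Agent.NEB.Geom.H15.mem_interSub]
      intro v
      have hg : GoodTw N1 S qv ℓ := goodTw_of_pv N1 S qP qv hℓ hℓN hℓS
      haveI : NeZero ℓ := ⟨hℓ.ne_zero⟩
      have hrest : ((Fermat.Agent.S59.Asm.H41.restTW N1 S qv hPV.prime).comp
          (H4.restPV N1 S qP qv hPV.dvdP)) (CuspForm.heckeAlgebra.T hℓ hℓN hℓS)
          = CuspForm.heckeAlgebra.T hℓ hg.not_dvd hg.not_mem :=
        (congrArg (Fermat.Agent.S59.Asm.H41.restTW N1 S qv hPV.prime)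
          (H4.restPV_T N1 S qP qv hPV.dvdP ℓ hℓ hℓN hℓS hg.2.1)).trans
          (Fermat.Agent.S59.Asm.H41.restTW_T N1 S qv hPV.prime ℓ hℓ hg.2.1 hℓS hg.not_dvd
            hg.not_mem)
      have hη := D.η_T ℓ hℓ hℓN hℓS
      have hL : D.η (CuspForm.heckeAlgebra.T hℓ hℓN hℓS) v
          = thetaEta (etaPv N1 S p eP n qP qv D.h2 D.hc D.hcomm) (thetaPv N1 S qP qv θ D.α)
              (MvPolynomial.X (Sum.inl ℓ)) v := congrArg (fun F => F v) hη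
      have hR : thetaEta Dm.ηC θ (((Fermat.Agent.S59.Asm.H41.restTW N1 S qv hPV.prime).comp
          (H4.restPV N1 S qP qv hPV.dvdP)) (CuspForm.heckeAlgebra.T hℓ hℓN hℓS)) (π v)
          = thetaEta Dm.ηC θ (CuspForm.heckeAlgebra.T hℓ hg.not_dvd hg.not_mem) (π v) :=
        congrArg (fun t => thetaEta Dm.ηC θ t (π v)) hrest
      refine (congrArg π hL).trans (Eq.trans ?_ hR.symm)
      refine Subtype.ext ?_
      rw [k4, thetaEta_apply, thetaEta_apply, k4]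
      rw [Fermat.Agent.NEB.Geom.H14.bc_apply_of_comp (hgDown (MvPolynomial.X (Sum.inl ℓ)))]
      have e1 : etaPv0 N1 S p qP qv hc0 (MvPolynomial.X (Sum.inl ℓ))
          = resP p (U0 (N1 * twC qv) ℓ) :=
        ((polyHom_X _ _ _).trans (H19.opsPv0_inl_good N1 S p qP qv hg)).trans
          (Fermat.Agent.NEB.Geom.H14.Tz0_eq_resP p (N1 * twC qv) ℓ hℓ
            (Fermat.Agent.NEB.Geom.H29.not_dvd_level_of_good hg))
      have e2 : Dm.ηC (CuspForm.heckeAlgebra.T hℓ hg.not_dvd hg.not_mem) = resP p (U0 N1 ℓ) :=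
        (Dm.ηC_T ℓ hℓ hg.not_dvd hg.not_mem).trans
          (Fermat.Agent.NEB.Geom.H14.Tz0_eq_resP p N1 ℓ hℓ hg.not_dvd)
      have e3 : resP p Φ ∘ₗ etaPv0 N1 S p qP qv hc0 (MvPolynomial.X (Sum.inl ℓ))
          = Dm.ηC (CuspForm.heckeAlgebra.T hℓ hg.not_dvd hg.not_mem) ∘ₗ resP p Φ := by
        rw [e1, e2]
        refine LinearMap.ext fun x => Subtype.ext ?_
        exact hΦ1 ℓ hg x.1
      exact Fermat.Agent.NEB.Geom.H14.bc_apply_of_comp e3 _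
    exact fun t v => key t v
  · -- Galois equivariance of `πup`
    obtain ⟨v, hv, hvy, hπy⟩ := hdesc y
    have hcG : ∀ t, Commute (etaPv0 N1 S p qP qv hc0 t) (galZ0 (N1 * twC qv) p σ) :=
      Fermat.Agent.NEB.Geom.H14.polyHom_commute _ _ _ (fun i => hc0G i σ)
    have hv' : (galZ0 (N1 * twC qv) p σ).baseChange 𝒪 v
        ∈ thetaPart (etaPv0 N1 S p qP qv hc0) (thetaPv N1 S qP qv θ D.α) :=
      (thetaZ (thetaPv N1 S qP qv θ D.α) (galZ0 (N1 * twC qv) p σ) hcG ⟨v, hv⟩).2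
    have e3 : resP p Φ ∘ₗ galZ0 (N1 * twC qv) p σ = galZ0 N1 p σ ∘ₗ resP p Φ := by
      refine LinearMap.ext fun x => Subtype.ext ?_
      exact hΦ2 σ x.1
    have hy' : Dm.gal σ y
        = ⟨(resP p Φ).baseChange 𝒪 ((galZ0 (N1 * twC qv) p σ).baseChange 𝒪 v),
            hΦ3 _ hv'⟩ := by
      refine Subtype.ext ?_
      show (galZ0 N1 p σ).baseChange 𝒪 y.1 = _
      rw [← hvy]
      exact (Fermat.Agent.NEB.Geom.H14.bc_apply_of_comp e3 v).symm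
    show ((πup (Dm.gal σ y) : ↥(thetaPart (etaPv N1 S p eP n qP qv D.h2 D.hc D.hcomm)
          (thetaPv N1 S qP qv θ D.α))) : 𝒪 ⊗[ℤ] AHpv N1 p eP n qP qv) = _
    rw [hy', k3 _ hv']
    show _ = (galZ (N1 * twC qv) (pvC qP qv) (pvH qP qv p eP n) p σ).baseChange 𝒪
      ((πup y : ↥(thetaPart (etaPv N1 S p eP n qP qv D.h2 D.hc D.hcomm)
          (thetaPv N1 S qP qv θ D.α))) : 𝒪 ⊗[ℤ] AHpv N1 p eP n qP qv)
    rw [hπy]
    exact Fermat.Agent.NEB.Geom.H14.bc_apply_of_comp (hupG σ) v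

end Main

end Fermat.Agent.L.Pivot.Geom.H18

end
end
-- ==== END Fermat.Agent.L.Pivot.Geom.H18_PPi

-- ==== BEGIN Fermat.Agent.L.Pivot.Geom.H50_NewJ0Uncond
section

/-!
# PIVOT, PV-GEOM part II, leaf PVG-N2 (helper50): `Stmt_NewJ0` UNCONDITIONALLY

`stmt_NewJ0 M q p : Stmt_NewJ0 M q p` from `newJ0_of_torsNU` and the output of S36 / NU-B
(`S36.NU.H10.torsNU`, helper10).
-/

set_option autoImplicit false

namespace Fermat.Agent.L.Pivot.Geom.H50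

/-- **PVG-N2, unconditional**: a system of eigenvalues which occurs in the `q`-new part of the
level `M q` (`q ∥ M`) does not occur at the level `M`. -/
theorem stmt_NewJ0 (M q p : ℕ) [NeZero M] [NeZero q] : Stmt_NewJ0 M q p :=
  newJ0_of_torsNU (Fermat.Agent.S36.NU.H10.torsNU M q p)

end Fermat.Agent.L.Pivot.Geom.H50

end
-- ==== END Fermat.Agent.L.Pivot.Geom.H50_NewJ0Uncond

-- ==== BEGIN Fermat.Agent.L.Pivot.Geom.H18_PPiTop
section

/-!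
# PIVOT, package PV-GEOM, Part I, leaf P-PI (helper18): the final statement

* `nmTotE_baseChange`, `coe_nmTotE_thetaZ` : the total norm with mixed exponents, base change
  and restriction to the `θ`-part;
* `pv_coe_norm`     : `Nm_{Δ_Q} ∘ Nm_{Δ_Σ}` on `W'` is the restriction of the base change;
* `pv_dia_fix_all`  : an element of `𝒪 ⊗ J_{H'}[p^∞]` fixed by the `⟨δP j⟩` and the `⟨δQ i⟩` is
  fixed by all the diamond operators;
* `p_pi`            : `Stmt_P_pi Dm D`;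
* `stmt_P_PI : Stmt_P_PI`.
-/

set_option autoImplicit false
set_option linter.unusedSectionVars false
set_option linter.unusedVariables false
set_option linter.style.haveILetI false
set_option synthInstance.maxHeartbeats 400000
set_option maxHeartbeats 1600000

noncomputable section

open ModularCurve AlgebraicCurve IsLocalRing TensorProduct Polynomial

namespace Fermat.Agent.L.Pivot.Geom.H18

open Fermat.Agent.NEB Fermat.Agent.NEB.JH Fermat.Agent.NEB.Geom Fermat.Agent.S59.Lim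
  Fermat.Agent.S59.Lim.H2 Fermat.Agent.S59.Asm Fermat.Agent.L.Pivot.Geom
  Fermat.Agent.S59.TWH.H90 Fermat.Agent.L.Pivot.Geom.H59 Fermat.Agent.L.Pivot.Geom.H70

/-! ## The total norm with mixed exponents on the `θ`-part -/

section GenTheta

variable {𝒪 : Type} [CommRing 𝒪] [IsLocalRing 𝒪] {𝕋 : Type} [CommRing 𝕋]
  {A : Type} [AddCommGroup A]

theorem nmTotE_baseChange (𝒪 : Type) [CommRing 𝒪] {A : Type} [AddCommGroup A] {r : ℕ}
    (m : Fin r → ℕ) (d : Fin r → Module.End ℤ A) :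
    (nmTotE m d).baseChange 𝒪 = nmTotE m (fun j => (d j).baseChange 𝒪) := by
  have key : ∀ f : Module.End ℤ A, f.baseChange 𝒪 = Module.End.baseChangeHom ℤ 𝒪 A f :=
    fun f => rfl
  rw [key]
  unfold nmTotE
  rw [map_list_prod, List.map_ofFn]
  refine congrArg List.prod (congrArg List.ofFn (funext fun j => ?_))
  simp only [Function.comp_apply]
  unfold nm
  rw [map_sum]
  refine Finset.sum_congr rfl fun e _ => ?_
  rw [map_pow]
  rfl

theorem coe_nmTotE_thetaZ (η : 𝕋 →+* Module.End ℤ A) (θ : 𝕋 →+* ResidueField 𝒪) :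
    ∀ {r : ℕ} (m : Fin r → ℕ) (d : Fin r → Module.End ℤ A) (hd : ∀ j t, Commute (η t) (d j))
      (x : ↥(thetaPart η θ)),
      ((nmTotE m (fun j => thetaZ θ (d j) (hd j)) x : ↥(thetaPart η θ)) : 𝒪 ⊗[ℤ] A)
        = nmTotE m (fun j => (d j).baseChange 𝒪) x.1 := by
  intro r
  induction r with
  | zero =>
    intro m d hd x
    rw [nmTotE_zero, nmTotE_zero]
    rfl
  | succ r ih =>
    intro m d hd x
    rw [nmTotE_succ, nmTotE_succ, Module.End.mul_apply, Module.End.mul_apply,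
      Fermat.Agent.NEB.Geom.H94.coe_nm_thetaZ,
      ih (fun j => m j.succ) (fun j => d j.succ) (fun j => hd j.succ) x, nm_apply]

end GenTheta

section Main

variable {𝒪 : Type} [CommRing 𝒪] [IsDomain 𝒪] [IsDiscreteValuationRing 𝒪]
  {ϖ : 𝒪} {p : ℕ} {N1 : ℕ} [NeZero N1] {S : Finset ℕ}
  {θ : CuspForm.heckeAlgebra N1 2 (↑S : Set ℕ) →+* ResidueField 𝒪}
  {ρbar : ResidualGaloisRep (ResidueField 𝒪)} {k : ℕ} {eP : Fin k → ℕ} {n : ℕ}
  {qP : Fin k → ℕ} {r : ℕ} {qv : Fin r → ℕ}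
  [NeZero (N1 * twC qv)] [NeZero (pvC qP qv)] [NeZero (twLevel N1 qv)]
  [NeZero (pvLevel N1 qP qv)]

/-- `Nm_{Δ_Q} ∘ Nm_{Δ_Σ}` on `W'` is the restriction of the base change. -/
theorem pv_coe_norm (D : PvSetup 𝒪 ϖ p N1 S θ ρbar eP n qP qv) (x : D.WD.W) :
    D.val (nmTot (p ^ n) D.d (nmTotE (fun j => p ^ eP j) D.c x))
      = (nmTot (p ^ n)
          (fun i => diaZ (N1 * twC qv) (pvC qP qv) (pvH qP qv p eP n) D.h2 D.hc p (D.δQ i)) *
        nmTotE (fun j => p ^ eP j)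
          (fun j => diaZ (N1 * twC qv) (pvC qP qv) (pvH qP qv p eP n) D.h2 D.hc p
            (D.δP j))).baseChange 𝒪 (D.val x) := by
  have h1 := Fermat.Agent.NEB.Geom.H15.coe_nmTot_thetaZ
    (etaPv N1 S p eP n qP qv D.h2 D.hc D.hcomm) (thetaPv N1 S qP qv θ D.α) (p ^ n)
    (fun i => diaZ (N1 * twC qv) (pvC qP qv) (pvH qP qv p eP n) D.h2 D.hc p (D.δQ i))
    (fun i t => D.comm_dia (D.δQ i) t)
    (nmTotE (fun j => p ^ eP j) D.c x)
  have h2 := coe_nmTotE_thetaZ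
    (etaPv N1 S p eP n qP qv D.h2 D.hc D.hcomm) (thetaPv N1 S qP qv θ D.α)
    (fun j => p ^ eP j)
    (fun j => diaZ (N1 * twC qv) (pvC qP qv) (pvH qP qv p eP n) D.h2 D.hc p (D.δP j))
    (fun j t => D.comm_dia (D.δP j) t) x
  rw [baseChange_mul_eq, Module.End.mul_apply,
    Fermat.Agent.NEB.Geom.H14.nmTot_baseChange, nmTotE_baseChange]
  refine h1.trans ?_
  exact congrArg _ h2

/-- An element fixed by the `⟨δP j⟩` and the `⟨δQ i⟩` is fixed by all the diamond operators. -/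
theorem pv_dia_fix_all (h : PvHyp N1 S p eP n qP qv) (h2 : 2 ≤ pvC qP qv)
    (hc : pvC qP qv ∣ N1 * twC qv)
    {δP : Fin k → (ZMod (pvC qP qv))ˣ} {δQ : Fin r → (ZMod (pvC qP qv))ˣ}
    (hδ : IsDeltaGenPv p eP n qP qv δP δQ)
    (v : 𝒪 ⊗[ℤ] AHpv N1 p eP n qP qv)
    (hP : ∀ j, (diaZ (N1 * twC qv) (pvC qP qv) (pvH qP qv p eP n) h2 hc p
      (δP j)).baseChange 𝒪 v = v)
    (hQ : ∀ i, (diaZ (N1 * twC qv) (pvC qP qv) (pvH qP qv p eP n) h2 hc p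
      (δQ i)).baseChange 𝒪 v = v)
    (u : (ZMod (pvC qP qv))ˣ) :
    (diaZ (N1 * twC qv) (pvC qP qv) (pvH qP qv p eP n) h2 hc p u).baseChange 𝒪 v = v := by
  have hyp := pv_mixHyp h
  haveI : ∀ j, Finite (ZMod (pvQ qP qv j))ˣ := fun j =>
    Fermat.Agent.NEB.Geom.H29.finite_units_of_prime (hyp.prime j)
  haveI : ∀ j, IsCyclic (ZMod (pvQ qP qv j))ˣ := fun j =>
    Fermat.Agent.NEB.Geom.H29.isCyclic_units_of_prime (hyp.prime j)
  obtain ⟨s, y, hy, hu⟩ := (pv_isGenFamM hδ).exists_decomp (mixHyp_dvd_card hyp) u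
  -- the stabiliser of `v`
  let F : Submonoid (ZMod (pvC qP qv))ˣ :=
    { carrier := {w | (diaZ (N1 * twC qv) (pvC qP qv) (pvH qP qv p eP n) h2 hc p
        w).baseChange 𝒪 v = v}
      one_mem' := by
        show (diaZ (N1 * twC qv) (pvC qP qv) (pvH qP qv p eP n) h2 hc p
          1).baseChange 𝒪 v = v
        rw [map_one, baseChange_one_eq]
        rfl
      mul_mem' := by
        intro a b ha hb
        show (diaZ (N1 * twC qv) (pvC qP qv) (pvH qP qv p eP n) h2 hc p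
          (a * b)).baseChange 𝒪 v = v
        rw [map_mul, baseChange_mul_eq, Module.End.mul_apply]
        rw [show (diaZ (N1 * twC qv) (pvC qP qv) (pvH qP qv p eP n) h2 hc p
          b).baseChange 𝒪 v = v from hb]
        exact ha }
  have hgen : ∀ j, pvDelta qP qv δP δQ j ∈ F := by
    intro j
    refine Fin.addCases (fun j => ?_) (fun i => ?_) j
    · rw [pvDelta_left]
      exact hP j
    · rw [pvDelta_right]
      exact hQ i
  have hF : u ∈ F := by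
    rw [hu]
    refine F.mul_mem ?_ (F.prod_mem fun j _ => F.pow_mem (hgen j) _)
    show (diaZ (N1 * twC qv) (pvC qP qv) (pvH qP qv p eP n) h2 hc p y).baseChange 𝒪 v = v
    have hy' : y ∈ pvH qP qv p eP n := by
      rw [pvH_eq_mixH]
      exact hy
    rw [mix_diaZ_mem h2 hyp (pvH_eq_mixH qP qv p eP n) hy', baseChange_one_eq]
    rfl
  exact hF

variable [Finite (ResidueField 𝒪)] [CharZero 𝒪] [Fact p.Prime]

/-- **P-PI**, for one setup. -/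
theorem p_pi (hϖ : Irreducible ϖ) (hpm : (p : 𝒪) ∈ maximalIdeal 𝒪)
    (Dm : MinSetup 𝒪 ϖ p N1 S θ) (D : PvSetup 𝒪 ϖ p N1 S θ ρbar eP n qP qv) :
    Stmt_P_pi Dm D :=
  p_pi_of hϖ hpm Dm D
    (fun v hP hQ u => pv_dia_fix_all D.hPV D.h2 D.hc D.hδ v hP hQ u)
    (fun x => pv_coe_norm D x)

end Main

/-- **P-PI** (universally quantified). -/
theorem stmt_P_PI : Stmt_P_PI := by
  intro 𝒪 _ _ _ _ _ _ ϖ p _ N1 _ S Smin θ ρbar k Pv eP hstd Dm n r qv _ _ _ _ D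
  exact p_pi hstd.hϖ hstd.hyp.hp𝒪 Dm D

end Fermat.Agent.L.Pivot.Geom.H18

end
end
-- ==== END Fermat.Agent.L.Pivot.Geom.H18_PPiTop

-- ==== BEGIN Fermat.Agent.L.Pivot.Geom.H19_Final
section

/-!
# PIVOT, package PV-GEOM, Part I (design (C)): the closed top (helper19)

All landed leaves plugged into `stmt_PVBASE5_of`:

* W-MD (`NEB.Geom.H6.stmt_W_MD`), P-SETUP (`H11.stmt_P_SETUP`: helper6's W-NONEIS, helper11's η,
  helper70's `isDiv_Wpv`), P-GAL / P-LG (helper9), P-ES (helper29), P-HSTEPC / P-HSTEPD (helper70),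
  P-FROBNIL (helper76), P-PI (`H18.stmt_P_PI`: helper18, helper76, helper29, helper14).

The only remaining hypotheses are the two leaves that are still open:

* `Stmt_P_EIGPART` (`H19_AsmTop.lean`): `ker rest` kills the `Δ_Σ`-norms;
* `Stmt_P_NEW`     (`H19_AsmTop.lean`): Part II.

`stmt_PVBASE5_of_open` : these two ⟹ `Stmt_PVBASE5` (= helper59's `Stmt_PVBASE` of `Base.lean`
once the hypotheses `5 ≤ p`, `0 < k` are threaded there).

Complete proofs, standard axioms only.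
-/

set_option autoImplicit false

namespace Fermat.Agent.L.Pivot.Geom

open Fermat.Agent.NEB.Geom

/-- **PV-GEOM Part I, closed top**: the two open leaves imply `Stmt_PVBASE5`. -/
theorem stmt_PVBASE5_of_open (hEIG : Stmt_P_EIGPART) (hNEW : Stmt_P_NEW) : Stmt_PVBASE5 :=
  stmt_PVBASE5_of Fermat.Agent.NEB.Geom.H6.stmt_W_MD H11.stmt_P_SETUP
    H9.stmt_P_GAL H29.stmt_P_ES H70.stmt_P_HSTEPC H70.stmt_P_HSTEPD H18.stmt_P_PI hEIG
    (H76.stmt_P_FROBNIL_of H18.stmt_P_PI) (H9.stmt_P_LG_of H18.stmt_P_PI) hNEW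

end Fermat.Agent.L.Pivot.Geom

end
-- ==== END Fermat.Agent.L.Pivot.Geom.H19_Final

-- ==== BEGIN Fermat.Agent.L.Pivot.Geom.H19_PNewFinal
section

/-!
# PIVOT, package PV-GEOM: `Stmt_P_NEW` and `Stmt_PVBASE5`, unconditional (helper19)

* `H19.stmt_P_NEW : Stmt_P_NEW` : helper81's `H81.new_W` (PVG-NEW-ASM) instantiated on a setup
  (`H19_PNewInst.lean`) with helper50's `H50.stmt_NewJ0` (from the core of S36);
* `stmt_PVBASE5_final : Stmt_PVBASE5` : all the leaves of PV-GEOM Part I and Part II plugged into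
  `stmt_PVBASE5_of` (P-EIGPART = helper4's `H4.stmt_P_EIGPART`).

Complete proofs, standard axioms only.
-/

set_option autoImplicit false

namespace Fermat.Agent.L.Pivot.Geom

/-- **P-NEW**, unconditional. -/
theorem H19.stmt_P_NEW : Stmt_P_NEW :=
  H19.stmt_P_NEW_of_newJ0 (fun M q p _ _ => H50.stmt_NewJ0 M q p)

/-- **PV-BASE**, unconditional (with `5 ≤ p`, `0 < k`). -/
theorem stmt_PVBASE5_final : Stmt_PVBASE5 :=
  stmt_PVBASE5_of_open H4.stmt_P_EIGPART H19.stmt_P_NEW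

end Fermat.Agent.L.Pivot.Geom

end
-- ==== END Fermat.Agent.L.Pivot.Geom.H19_PNewFinal

-- ==== BEGIN Fermat.Agent.L.Pivot.Geom.H19_Top
section

/-!
# PIVOT, package PV-GEOM: `Stmt_PVGeom2`, unconditional (helper19)

The chain `P-leaves ⟹ Stmt_PVBASE5 = Stmt_PVBASE ⟹ Stmt_PVDIV ⟹ Stmt_PVGeom2`:

* `stmt_PVBASE5_final` (`H19_PNewFinal.lean`): all leaves of Part I and Part II;
* `stmt_PVDIV_of_base` (helper9, `H9_LayerB2Top.lean`);
* `H59.stmt_PVGeom2_of_pvDiv` (helper59, `H59_LayerA.lean`).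

Complete proofs, standard axioms only.
-/

set_option autoImplicit false

namespace Fermat.Agent.L.Pivot.Geom

/-- **PV-BASE**, unconditional. -/
theorem stmt_PVBASE_final : Stmt_PVBASE := stmt_PVBASE5_final

/-- **PV-DIV**, unconditional. -/
theorem stmt_PVDIV_final : Stmt_PVDIV := stmt_PVDIV_of_base stmt_PVBASE_final

/-- **PV-GEOM**, unconditional. -/
theorem stmt_PVGeom2_final : Fermat.Agent.L.Pivot.Stmt_PVGeom2 :=
  H59.stmt_PVGeom2_of_pvDiv stmt_PVDIV_final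

end Fermat.Agent.L.Pivot.Geom

end
-- ==== END Fermat.Agent.L.Pivot.Geom.H19_Top
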