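-- GENERATED (merged mirror, NOTES/tools/trim/merge3_helper67.py): 8 modules of the originals, bodies verbatim.
import Mathlib
import Fermat.Prelude.Def_FLTPrelim_FreyPackage
import Fermat.Prelude.Def_FLTPrelim_GaloisRep
import Fermat.Prelude.Def_FLTPrelim_Modularity
import Fermat.Prelude.Def_FLTPrelim_ModularRep
import Fermat.Prelude.Def_FLTPrelim_Ramification
import Fermat.Prelude.Def_FreyPackage_IsConductorLevel
import Fermat.Agent.Zm.S35_L01_001
import Fermat.Agent.Zm.S36_L17_000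
import Fermat.Agent.Zm.S36_L09_001
import Fermat.Agent.Zm.S44_L01_001
import Fermat.Agent.Lib.EllFinite.Main
import Fermat.Agent.Zm.S35_L02_001
import Fermat.Agent.Zm.S35_L01_003
import Fermat.Agent.Zm.S36_L01_004
import Fermat.Agent.Zm.S36_L16_001
import Fermat.Agent.Zm.S36_L13_001
import Fermat.Agent.Zm.S36_L16_000

-- ==== BEGIN Fermat.Agent.S07.Index
section

set_option autoImplicit false

open UpperHalfPlane ModularFormClass
open scoped MatrixGroups

namespace Fermat.Agent.S07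

/-- `Γ₀(1)` is everything. -/
theorem index_Gamma0_one : (CongruenceSubgroup.Gamma0 1).index = 1 := by
  rw [Subgroup.index_eq_one]
  ext A
  simp only [Subgroup.mem_top, iff_true]
  rw [CongruenceSubgroup.Gamma0_mem]
  exact Subsingleton.elim _ _

/-- The first column mod 2 of a matrix in `SL(2, ℤ)`. -/
def firstColMod2 (A : SL(2, ℤ)) : ZMod 2 × ZMod 2 :=
  ((A 0 0 : ZMod 2), (A 1 0 : ZMod 2))

theorem firstColMod2_eq_imp (A B : SL(2, ℤ)) (h : firstColMod2 A = firstColMod2 B) :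
    A⁻¹ * B ∈ CongruenceSubgroup.Gamma0 2 := by
  rw [CongruenceSubgroup.Gamma0_mem]
  simp only [firstColMod2, Prod.mk.injEq] at h
  obtain ⟨h0, h1⟩ := h
  rw [Matrix.SpecialLinearGroup.coe_mul, Matrix.mul_apply, Fin.sum_univ_two,
    Matrix.SpecialLinearGroup.SL2_inv_expl]
  simp only [Matrix.cons_val', Matrix.cons_val_zero, Matrix.cons_val_one,
    Matrix.cons_val_fin_one]
  push_cast
  rw [← h0, ← h1]
  ring

theorem index_Gamma0_two_le : (CongruenceSubgroup.Gamma0 2).index ≤ 4 := by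
  classical
  rw [Subgroup.index]
  let φ : SL(2, ℤ) ⧸ CongruenceSubgroup.Gamma0 2 → ZMod 2 × ZMod 2 :=
    fun q => firstColMod2 (Quotient.out q)
  have hφ : Function.Injective φ := by
    intro q₁ q₂ h
    have := firstColMod2_eq_imp _ _ h
    rw [← QuotientGroup.eq] at this
    simpa using this
  calc Nat.card (SL(2, ℤ) ⧸ CongruenceSubgroup.Gamma0 2)
      ≤ Nat.card (ZMod 2 × ZMod 2) := Nat.card_le_card_of_injective φ hφ
    _ = 4 := by simp

end Fermat.Agent.S07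

end
-- ==== END Fermat.Agent.S07.Index

-- ==== BEGIN Fermat.Agent.S36.NU.H17_BranchInf
section

/-!
# S36 / NU-B, (L2-iv) modular wiring (helper17): the branches of the chart of `1 / j`

Level `N = M q²`, `q ∤ M` tame; `chartInf` = the chart of `u = 1 / j` (helper88).

* components `20`, `11` : global, by `H24.branch_of_normal` (lift `incl f`, `f` from
  `H17.normalImg_good_inv`);
* component `02` : at the closed points with `u ∈ 𝔪` (the cusps), by
  `H17.branch_of_normal_local`: the lift of `y` is `G(u)^m · f(q²τ)`, where `G ∈ R[X]`,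
  `G(0) = 1` comes from the integrality of `j` over `R[j'']` (`j0_isIntegral_jdd`, from
  `crit0` for `j''` and the Atkin–Lehner involution `W_{q²}`);
* `branch_chartInf` : **the hypothesis `hbr` of `H88.pointDataAt_chartInf`**.
-/

set_option autoImplicit false
set_option synthInstance.maxHeartbeats 400000
set_option maxHeartbeats 1000000
set_option linter.style.haveILetI false
set_option linter.unusedSectionVars false

noncomputable section

open ModularCurve AlgebraicCurve Polynomial IntermediateField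
open Fermat.Agent.S24 Fermat.Agent.BAD.H88 Fermat.Agent.S28 Fermat.Agent.S28.H73
open Fermat.Agent.RED.H73 Fermat.Agent.RED.H17 Fermat.Agent.S36.NU.H88
open Fermat.Agent.S36.NU.H23 Fermat.Agent.S36.NU.H41
open Fermat.Agent.S36.NU.H16 Fermat.Agent.S36.NU.H65 Fermat.Agent.BAD

namespace Fermat.Agent.S36.NU.H17

section Ubar

variable (A : ValuationSubring Kbar) (M : ℕ) [NeZero M]

theorem jFM_ne_zero : Fermat.Agent.RED.H73.jF (L := Kbar) M ≠ 0 := by
  rw [← Fermat.Agent.RED.H76.jF_eq]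
  intro h
  exact Fermat.Agent.S24.jF_transcendental M (h ▸ isAlgebraic_zero)

/-- The reduction of `1 / j` at the level `M`. -/
def ubar : FM A M :=
  redM A M ⟨(Fermat.Agent.RED.H73.jF (L := Kbar) M)⁻¹, Fermat.Agent.RED.H73.jF_inv_mem A M⟩

theorem ubar_eq : ubar A M = (jbar A M)⁻¹ :=
  H28.red_inv_eq (VM A M) (redM A M) (jF_mem A M) (Fermat.Agent.RED.H73.jF_inv_mem A M)
    (jFM_ne_zero M)

variable {q : ℕ} (hq : q.Prime) (hqM : ¬ q ∣ M) (hA : A.LiesOverPrime q)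

include hq hqM hA in
theorem finiteDimensional_ubar : FiniteDimensional ↥(kV A)⟮ubar A M⟯ (FM A M) := by
  haveI := finiteDimensional_jbar A M hq hqM hA
  rw [ubar_eq]
  exact H88.finiteDimensional_adjoin_inv (kV A) (jbar A M)

include hq hqM hA in
theorem isSeparable_ubar : Algebra.IsSeparable ↥(kV A)⟮ubar A M⟯ (FM A M) := by
  haveI := isSeparable_jbar A M hq hqM hA
  rw [ubar_eq]
  exact H88.isSeparable_adjoin_inv (kV A) (jbar A M)

end Ubar

section Transfer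

variable (A : ValuationSubring Kbar) (q M : ℕ) (B k : ℤ) (hB : B * M + k * q = 1) (hq : q.Prime)
  [NeZero M] [NeZero q] [NeZero (M * q * q)] (hqM : ¬ q ∣ M) (hA : A.LiesOverPrime q)
  (ht : H91.TameAt M q)

attribute [local instance] algkM

theorem coe_inv_L0 (x : ↥(L0 A (M * q * q))) :
    ((x⁻¹ : ↥(L0 A (M * q * q))) : FN (M * q * q)) = (x : FN (M * q * q))⁻¹ := rfl

/-- `incl f` is integral over `K^ur[1/j]`. -/
theorem isIntegral_incl_inv (f : FN M) (hf : f ∈ L0 A M)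
    (hint : ((aeval (Fermat.Agent.RED.H73.jF (L := Kbar) M)⁻¹ :
        Kbar[X] →ₐ[Kbar] FN M).toRingHom.comp (mapRingHom (iotaUr A))).IsIntegralElem f) :
    IsIntegral ↥(Algebra.adjoin ↥(Kur A) {(j0 A (M * q * q))⁻¹})
      (inclL0 A (hleMN q M) ⟨f, hf⟩) := by
  refine isIntegral_adjoin_of_isIntegralElem A (M * q * q) (j0 A (M * q * q))⁻¹
    (inclL0 A (hleMN q M) ⟨f, hf⟩) ?_
  have h := H22.isIntegralElem_map_algHom A M (incAA q M) _ f hint
  have hj : incAA q M (Fermat.Agent.RED.H73.jF (L := Kbar) M)⁻¹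
      = (((j0 A (M * q * q))⁻¹ : ↥(L0 A (M * q * q))) : FN (M * q * q)) := by
    rw [map_inv₀, ← Fermat.Agent.RED.H76.jF_eq, ← jdF_one_eq_jF M, incAA_jdF_one, coe_inv_L0,
      coe_j0']
  rw [hj] at h
  rw [coe_inclL0_eq_incAA]
  exact h

/-- `f(q²τ)` is integral over `K^ur[1/j'']`. -/
theorem isIntegral_incBB_inv (f : FN M) (hf : f ∈ L0 A M)
    (hint : ((aeval (Fermat.Agent.RED.H73.jF (L := Kbar) M)⁻¹ :
        Kbar[X] →ₐ[Kbar] FN M).toRingHom.comp (mapRingHom (iotaUr A))).IsIntegralElem f) :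
    IsIntegral ↥(Algebra.adjoin ↥(Kur A) {(jdd A q M)⁻¹})
      (⟨incBB q M f, incBB_mem_L0 A q M f hf⟩ : ↥(L0 A (M * q * q))) := by
  refine isIntegral_adjoin_of_isIntegralElem A (M * q * q) (jdd A q M)⁻¹
    ⟨incBB q M f, incBB_mem_L0 A q M f hf⟩ ?_
  have h := H22.isIntegralElem_map_algHom A M (incBB q M) _ f hint
  haveI : NeZero (q * q) := ⟨mul_ne_zero (NeZero.ne q) (NeZero.ne q)⟩
  have hj : incBB q M (Fermat.Agent.RED.H73.jF (L := Kbar) M)⁻¹
      = (((jdd A q M)⁻¹ : ↥(L0 A (M * q * q))) : FN (M * q * q)) := by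
    rw [map_inv₀, ← Fermat.Agent.RED.H76.jF_eq, ← jdF_one_eq_jF M,
      incBB_jdF_one q M (sq_dvd_lvl q M), coe_inv_L0, coe_jdd]
  rw [hj] at h
  exact h

/-! ### The Atkin–Lehner involution and the integrality of `j` over `R[j'']` -/

/-- `W_{q²}` on the inertia-fixed functions. -/
def wS0 : ↥(L0 A (M * q * q)) →+* ↥(L0 A (M * q * q)) :=
  (((wS q M B k hB : FN (M * q * q) ≃ₐ[Kbar] FN (M * q * q)) :
      FN (M * q * q) →+* FN (M * q * q)).comp (L0 A (M * q * q)).subtype).codRestrict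
    (L0 A (M * q * q))
    (fun x => Fermat.Agent.S36.NU.H82.wSq_mem_L0 A (M * q * q) q M B k (lvl q M) hB
      (x : FN (M * q * q)) x.2)

theorem coe_wS0 (x : ↥(L0 A (M * q * q))) :
    ((wS0 A q M B k hB x : ↥(L0 A (M * q * q))) : FN (M * q * q))
      = wS q M B k hB (x : FN (M * q * q)) := rfl

include hq in
theorem wS0_j0 : wS0 A q M B k hB (j0 A (M * q * q)) = jdd A q M := by
  apply Subtype.ext
  apply Subtype.ext
  rw [coe_wS0, wS_j0 A q M B k hB hq, coe_jdd_series]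

include hq in
theorem wS0_jdd : wS0 A q M B k hB (jdd A q M) = j0 A (M * q * q) := by
  apply Subtype.ext
  apply Subtype.ext
  rw [coe_wS0, wS_jdd A q M B k hB hq, _root_.Fermat.Agent.S36.NU.H88.coe_j0_series]

theorem wS0_const (r : ↥(Rur A)) :
    wS0 A q M B k hB (algebraMap ↥(Rur A) ↥(L0 A (M * q * q)) r)
      = algebraMap ↥(Rur A) ↥(L0 A (M * q * q)) r := by
  apply Subtype.ext
  rw [coe_wS0, coe_algebraMap_Rur]
  exact (wS q M B k hB).commutes _

include hB hq in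
theorem jdd_ne_zero : jdd A q M ≠ 0 := by
  rw [← wS0_j0 A q M B k hB hq]
  exact (map_ne_zero (wS0 A q M B k hB)).2 (j0_ne_zero A (M * q * q))

include hB hq hqM hA ht in
/-- **`j` is integral over `R^ur[j'']`.** -/
theorem j0_isIntegral_jdd :
    IsIntegral ↥(Algebra.adjoin ↥(Rur A) {jdd A q M}) (j0 A (M * q * q)) := by
  have hjdd : IsIntegral ↥(Algebra.adjoin ↥(Rur A) {j0 A (M * q * q)}) (jdd A q M) :=
    H28.crit0 A q M B k hB hq hqM hA ht (isIntegral_jdd A q M)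
      (jdd_mem_totM A q M B k hB hq hqM hA ht)
  have hmap : ∀ x ∈ Algebra.adjoin ↥(Rur A) {j0 A (M * q * q)},
      wS0 A q M B k hB x ∈ Algebra.adjoin ↥(Rur A) {jdd A q M} := by
    intro x hx
    induction hx using Algebra.adjoin_induction with
    | mem y hy =>
      rw [Set.mem_singleton_iff] at hy
      subst hy
      rw [wS0_j0 A q M B k hB hq]
      exact Algebra.subset_adjoin rfl
    | algebraMap r =>
      rw [wS0_const]
      exact Subalgebra.algebraMap_mem _ r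
    | add _ _ _ _ h1 h2 =>
      rw [map_add]
      exact add_mem h1 h2
    | mul _ _ _ _ h1 h2 =>
      rw [map_mul]
      exact mul_mem h1 h2
  let φ : ↥(Algebra.adjoin ↥(Rur A) {j0 A (M * q * q)})
      →+* ↥(Algebra.adjoin ↥(Rur A) {jdd A q M}) :=
    ((wS0 A q M B k hB).comp
      (Algebra.adjoin ↥(Rur A) {j0 A (M * q * q)}).val.toRingHom).codRestrict
      (Algebra.adjoin ↥(Rur A) {jdd A q M}).toSubring (fun x => hmap x.1 x.2)
  have h1 : IsIntegral ↥(Algebra.adjoin ↥(Rur A) {jdd A q M})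
      (wS0 A q M B k hB (jdd A q M)) :=
    IsIntegral.map_of_comp_eq φ (wS0 A q M B k hB) (by ext x; rfl) hjdd
  rwa [wS0_jdd A q M B k hB hq] at h1

end Transfer

section BranchInf

variable (A : ValuationSubring Kbar) (q M : ℕ) (B k : ℤ) (hB : B * M + k * q = 1) (hq : q.Prime)
  [NeZero M] [NeZero q] [NeZero (M * q * q)] (hqM : ¬ q ∣ M) (hA : A.LiesOverPrime q)
  (ht : H91.TameAt M q)

attribute [local instance] algkM

theorem u0_mem_chartInf : (j0 A (M * q * q))⁻¹ ∈ (chartInf A q M B k hB hq hqM hA ht).B :=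
  self_mem_intSub _ _

/-- The lift `incl f` of a function of the good level lies in `B∞`. -/
theorem incl_mem_chartInf (f : FN M) (hf : f ∈ L0 A M) (hV : f ∈ VM A M)
    (hint : ((aeval (Fermat.Agent.RED.H73.jF (L := Kbar) M)⁻¹ :
        Kbar[X] →ₐ[Kbar] FN M).toRingHom.comp (mapRingHom (iotaUr A))).IsIntegralElem f) :
    inclL0 A (hleMN q M) ⟨f, hf⟩ ∈ (chartInf A q M B k hB hq hqM hA ht).B := by
  refine H28.critInf A q M B k hB hq hqM hA ht (isIntegral_incl_inv A q M f hf hint) ?_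
  intro i
  fin_cases i
  · exact hVE20 A q M ⟨f, hf⟩ hV
  · exact hVE11 A q M B k hB hq ⟨f, hf⟩ hV
  · exact hVE02 A q M B k hB hq ⟨f, hf⟩ hV

/-- The reduction of `1 / j` on the components `20`, `11`, `02`. -/
theorem r20_u0_eq (h : (j0 A (M * q * q))⁻¹ ∈ V20o A q M) :
    r20 A q M hq hqM hA ⟨_, h⟩ = ubar A M := by
  rw [H28.red_inv_eq (V20o A q M) (r20 A q M hq hqM hA) (_root_.Fermat.Agent.S36.NU.H88.j0_mem20 A q M) h
    (j0_ne_zero A (M * q * q)), r20_j0_eq, ubar_eq]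

theorem r11_u0_eq (h : (j0 A (M * q * q))⁻¹ ∈ V11o A q M B k hB hq) :
    r11 A q M B k hB hq hqM hA ⟨_, h⟩ = ubar A M := by
  rw [H28.red_inv_eq (V11o A q M B k hB hq) (r11 A q M B k hB hq hqM hA)
    (_root_.Fermat.Agent.S36.NU.H88.j0_mem11 A q M B k hB hq) h (j0_ne_zero A (M * q * q)), r11_j0_eq, ubar_eq]

theorem r02_u0_eq (h : (j0 A (M * q * q))⁻¹ ∈ V02o A q M B k hB) :
    r02 A q M B k hB hq hqM hA ⟨_, h⟩ = ubar A M ^ q ^ 2 := by
  rw [H28.red_inv_eq (V02o A q M B k hB) (r02 A q M B k hB hq hqM hA)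
    (_root_.Fermat.Agent.S36.NU.H88.j0_mem02 A q M B k hB hq) h (j0_ne_zero A (M * q * q)), r02_j0_eq, ubar_eq, inv_pow]

/-- **Branches of the chart of `1 / j` on the component `20`.** -/
theorem branch_chartInf_zero (𝔪 : Ideal (chartInf A q M B k hB hq hqM hA ht).B)
    (hmax : 𝔪.IsMaximal) (h𝔪 : (chartInf A q M B k hB hq hqM hA ht).Icomp 0 ≤ 𝔪) :
    Nonempty (Branch (chartInf A q M B k hB hq hqM hA ht) 𝔪 0) := by
  haveI : IsAlgClosed (kV A) := isAlgClosed_kV A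
  refine @H24.branch_of_normal _ _ _ _ _ _ _ _ _ _ _ _ (chartInf A q M B k hB hq hqM hA ht) 0
    (j0 A (M * q * q))⁻¹ (u0_mem_chartInf A q M B k hB hq hqM hA ht) (fun β => β.2) (ubar A M)
    (finiteDimensional_ubar A M hq hqM hA) (isSeparable_ubar A M hq hqM hA) ?_ ?_ 𝔪 hmax h𝔪
  · have e : (chartInf A q M B k hB hq hqM hA ht).rdB 0
        ⟨(j0 A (M * q * q))⁻¹, u0_mem_chartInf A q M B k hB hq hqM hA ht⟩ = ubar A M :=
      r20_u0_eq A q M hq hqM hA _
    rw [e]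
    exact isIntegral_self_adjoin _
  · intro y hy
    obtain ⟨f, hf, -, hint, -, hV, hred⟩ :=
      normalImg_good_inv A M hq hA hqM _ rfl (Fermat.Agent.RED.H73.jF_inv_mem A M) y hy
    refine ⟨⟨_, incl_mem_chartInf A q M B k hB hq hqM hA ht f hf hV hint⟩, ?_⟩
    have e : (chartInf A q M B k hB hq hqM hA ht).rdB 0
        ⟨_, incl_mem_chartInf A q M B k hB hq hqM hA ht f hf hV hint⟩ = redM A M ⟨f, hV⟩ :=
      r20_incl A q M hq hqM hA ⟨⟨f, hf⟩, hV⟩ _
    rw [e, hred]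

/-- **Branches of the chart of `1 / j` on the component `11`.** -/
theorem branch_chartInf_one (𝔪 : Ideal (chartInf A q M B k hB hq hqM hA ht).B)
    (hmax : 𝔪.IsMaximal) (h𝔪 : (chartInf A q M B k hB hq hqM hA ht).Icomp 1 ≤ 𝔪) :
    Nonempty (Branch (chartInf A q M B k hB hq hqM hA ht) 𝔪 1) := by
  haveI : IsAlgClosed (kV A) := isAlgClosed_kV A
  refine @H24.branch_of_normal _ _ _ _ _ _ _ _ _ _ _ _ (chartInf A q M B k hB hq hqM hA ht) 1
    (j0 A (M * q * q))⁻¹ (u0_mem_chartInf A q M B k hB hq hqM hA ht) (fun β => β.2) (ubar A M)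
    (finiteDimensional_ubar A M hq hqM hA) (isSeparable_ubar A M hq hqM hA) ?_ ?_ 𝔪 hmax h𝔪
  · have e : (chartInf A q M B k hB hq hqM hA ht).rdB 1
        ⟨(j0 A (M * q * q))⁻¹, u0_mem_chartInf A q M B k hB hq hqM hA ht⟩ = ubar A M :=
      r11_u0_eq A q M B k hB hq hqM hA _
    rw [e]
    exact isIntegral_self_adjoin _
  · intro y hy
    obtain ⟨f, hf, -, hint, -, hV, hred⟩ :=
      normalImg_good_inv A M hq hA hqM _ rfl (Fermat.Agent.RED.H73.jF_inv_mem A M) y hy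
    refine ⟨⟨_, incl_mem_chartInf A q M B k hB hq hqM hA ht f hf hV hint⟩, ?_⟩
    have e : (chartInf A q M B k hB hq hqM hA ht).rdB 1
        ⟨_, incl_mem_chartInf A q M B k hB hq hqM hA ht f hf hV hint⟩ = redM A M ⟨f, hV⟩ :=
      r11_incl A q M B k hB hq hqM hA ⟨⟨f, hf⟩, hV⟩ _
    rw [e, hred]

/-- **The local lifts on the component `02` at a cusp.** -/
theorem exists_lift_two (𝔪 : Ideal (chartInf A q M B k hB hq hqM hA ht).B)
    (hmax : 𝔪.IsMaximal)
    (hu : ∀ β : (chartInf A q M B k hB hq hqM hA ht).B,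
      (β : ↥(L0 A (M * q * q))) = (j0 A (M * q * q))⁻¹ → β ∈ 𝔪)
    (y : kap3 (FM A M) (FM A M) 2)
    (hy : IsIntegral ↥(Algebra.adjoin (kV A)
      ({(ubar A M : kap3 (FM A M) (FM A M) 2)} : Set (kap3 (FM A M) (FM A M) 2))) y) :
    ∃ g b : (chartInf A q M B k hB hq hqM hA ht).B, g ∉ 𝔪 ∧
      (chartInf A q M B k hB hq hqM hA ht).rdB 2 b
        = (chartInf A q M B k hB hq hqM hA ht).rdB 2 g * y := by
  obtain ⟨f, hf, -, hint, -, hV, hred⟩ :=
    normalImg_good_inv A M hq hA hqM _ rfl (Fermat.Agent.RED.H73.jF_inv_mem A M) y hy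
  set F' : ↥(L0 A (M * q * q)) := ⟨incBB q M f, incBB_mem_L0 A q M f hf⟩ with hF'
  have hF'int : IsIntegral ↥(Algebra.adjoin ↥(Kur A) {(jdd A q M)⁻¹}) F' :=
    isIntegral_incBB_inv A q M f hf hint
  have hF'V : ∀ i, F' ∈ (totM A q M B k hB hq hqM hA ht).V i := by
    intro i
    fin_cases i
    · exact (incBB_mem_V20_iff A q M f).mpr hV
    · exact (incBB_mem_V11_iff A q M B k hB hq f).mpr hV
    · exact (incBB_mem_V02_iff A q M B k hB hq f).mpr hV
  obtain ⟨G, hG0, -, hG⟩ := exists_unit_pow_mul_isIntegral (R := ↥(Rur A)) (K := ↥(Kur A))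
    (j0_ne_zero A (M * q * q)) (jdd_ne_zero A q M B k hB hq)
    (j0_isIntegral_jdd A q M B k hB hq hqM hA ht)
  obtain ⟨m, hm⟩ := hG F' hF'int
  -- the unit `g = G(u)^m`
  set u : (chartInf A q M B k hB hq hqM hA ht).B :=
    ⟨(j0 A (M * q * q))⁻¹, u0_mem_chartInf A q M B k hB hq hqM hA ht⟩ with hu'
  set g : (chartInf A q M B k hB hq hqM hA ht).B := aeval u G ^ m with hg
  have hgc : ((g : (chartInf A q M B k hB hq hqM hA ht).B) : ↥(L0 A (M * q * q)))
      = aeval (j0 A (M * q * q))⁻¹ G ^ m := by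
    rw [hg, SubmonoidClass.coe_pow, aeval_subalgebra_coe]
  have hgV : ∀ i, ((g : (chartInf A q M B k hB hq hqM hA ht).B) : ↥(L0 A (M * q * q)))
      ∈ (totM A q M B k hB hq hqM hA ht).V i := fun i =>
    (chartInf A q M B k hB hq hqM hA ht).B_le i _ g.2
  have hb : ((g : (chartInf A q M B k hB hq hqM hA ht).B) : ↥(L0 A (M * q * q))) * F'
      ∈ (chartInf A q M B k hB hq hqM hA ht).B := by
    refine H28.critInf A q M B k hB hq hqM hA ht ?_ (fun i => mul_mem (hgV i) (hF'V i))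
    rw [hgc]
    exact hm m le_rfl
  refine ⟨g, ⟨_, hb⟩, ?_, ?_⟩
  · intro h
    have h1 : aeval u G ∈ 𝔪 := hmax.isPrime.mem_of_pow_mem m h
    exact aeval_not_mem_of_coeff_zero 𝔪 hmax.ne_top (hu u rfl) G hG0 h1
  · have e1 : (chartInf A q M B k hB hq hqM hA ht).rdB 2 ⟨_, hb⟩
        = r02 A q M B k hB hq hqM hA (⟨_, hgV 2⟩ * ⟨F', hF'V 2⟩) := rfl
    have e2 : (chartInf A q M B k hB hq hqM hA ht).rdB 2 g
        = r02 A q M B k hB hq hqM hA ⟨_, hgV 2⟩ := rfl
    have e3 : r02 A q M B k hB hq hqM hA ⟨F', hF'V 2⟩ = redM A M ⟨f, hV⟩ :=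
      r02_incBB A q M B k hB hq hqM hA ⟨⟨f, hf⟩, hV⟩
    rw [e1, e2, map_mul, e3, hred]
    rfl

/-- **Branches of the chart of `1 / j` on the component `02`, at the cusps.** -/
theorem branch_chartInf_two (𝔪 : Ideal (chartInf A q M B k hB hq hqM hA ht).B)
    (hmax : 𝔪.IsMaximal)
    (hu : ∀ β : (chartInf A q M B k hB hq hqM hA ht).B,
      (β : ↥(L0 A (M * q * q))) = (j0 A (M * q * q))⁻¹ → β ∈ 𝔪)
    (h𝔪 : (chartInf A q M B k hB hq hqM hA ht).Icomp 2 ≤ 𝔪) :
    Nonempty (Branch (chartInf A q M B k hB hq hqM hA ht) 𝔪 2) := by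
  haveI : IsAlgClosed (kV A) := isAlgClosed_kV A
  refine @branch_of_normal_local _ _ _ _ _ _ _ _ _ _ _ _ (chartInf A q M B k hB hq hqM hA ht) 2
    (j0 A (M * q * q))⁻¹ (u0_mem_chartInf A q M B k hB hq hqM hA ht) (fun β => β.2) (ubar A M)
    (finiteDimensional_ubar A M hq hqM hA) (isSeparable_ubar A M hq hqM hA) ?_ 𝔪 hmax h𝔪
    (exists_lift_two A q M B k hB hq hqM hA ht 𝔪 hmax hu)
  have e : (chartInf A q M B k hB hq hqM hA ht).rdB 2
      ⟨(j0 A (M * q * q))⁻¹, u0_mem_chartInf A q M B k hB hq hqM hA ht⟩ = ubar A M ^ q ^ 2 :=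
    r02_u0_eq A q M B k hB hq hqM hA _
  rw [e]
  exact (isIntegral_self_adjoin _).pow _

/-- **(L2-iv) `hbr` for the chart of `1 / j`** (the hypothesis `hbr` of
`H88.pointDataAt_chartInf`): every closed point of the special fibre where `1 / j` vanishes has a
branch on every component through it. -/
theorem branch_chartInf :
    ∀ 𝔪 : Ideal (chartInf A q M B k hB hq hqM hA ht).B, 𝔪.IsMaximal →
      (∀ β : (chartInf A q M B k hB hq hqM hA ht).B,
        (β : ↥(L0 A (M * q * q))) = (j0 A (M * q * q))⁻¹ → β ∈ 𝔪) →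
      ∀ i, (chartInf A q M B k hB hq hqM hA ht).Icomp i ≤ 𝔪 →
        Nonempty (Branch (chartInf A q M B k hB hq hqM hA ht) 𝔪 i) := by
  intro 𝔪 hmax hu i hi
  fin_cases i
  · exact branch_chartInf_zero A q M B k hB hq hqM hA ht 𝔪 hmax hi
  · exact branch_chartInf_one A q M B k hB hq hqM hA ht 𝔪 hmax hi
  · exact branch_chartInf_two A q M B k hB hq hqM hA ht 𝔪 hmax hu hi

end BranchInf

end Fermat.Agent.S36.NU.H17

end
end
-- ==== END Fermat.Agent.S36.NU.H17_BranchInf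

-- ==== BEGIN Fermat.Agent.S45.Glue
section

set_option autoImplicit false
open WeierstrassCurve WeierstrassCurve.Affine WeierstrassCurve.Affine.Point
open CuspForm ModularFormClass UpperHalfPlane

namespace Fermat.Agent.S45

/-- A squarefree positive natural number all of whose prime factors equal `2` divides `2`. -/
theorem dvd_two_of_squarefree_of_forall_prime_eq_two {N : ℕ} (hsq : Squarefree N)
    (h : ∀ q : ℕ, q.Prime → q ∣ N → q = 2) : N ∣ 2 := by
  have hN0 : N ≠ 0 := hsq.ne_zero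
  rw [← Nat.factorization_le_iff_dvd hN0 (by norm_num)]
  intro q
  by_cases hq : q.Prime
  · by_cases hqN : q ∣ N
    · have hq2 : q = 2 := h q hq hqN
      subst hq2
      have h1 : N.factorization 2 ≤ 1 := hsq.natFactorization_le_one 2
      have h2 : (2 : ℕ).factorization 2 = 1 := by
        simpa using Nat.Prime.factorization_self Nat.prime_two
      omega
    · have : N.factorization q = 0 := Nat.factorization_eq_zero_of_not_dvd hqN
      omega
  · have : N.factorization q = 0 := Nat.factorization_eq_zero_of_not_prime N hq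
    omega

/-- Iterated level lowering: from any conductor level down to a level dividing `2`. -/
theorem exists_modularRepOfLevel_dvd_two (P : FreyPackage)
    (h05 : ∀ q : ℕ, q.Prime → q ≠ 2 → q ≠ P.p → P.GaloisRepUnramifiedAt q)
    (h43 : ∀ N q : ℕ, P.IsConductorLevel N → q.Prime → q ≠ 2 → q ≠ P.p → q ∣ N →
      P.ModularRepOfLevel N → P.GaloisRepUnramifiedAt q →
      ∃ M : ℕ, M ∣ N ∧ ¬ q ∣ M ∧ P.ModularRepOfLevel M)
    (h44 : ∀ N : ℕ, P.IsConductorLevel N → P.p ∣ N → P.ModularRepOfLevel N →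
      ∃ M : ℕ, M ∣ N ∧ ¬ P.p ∣ M ∧ P.ModularRepOfLevel M) :
    ∀ N : ℕ, P.IsConductorLevel N → P.ModularRepOfLevel N →
      ∃ M : ℕ, M ∣ 2 ∧ P.ModularRepOfLevel M := by
  intro N
  induction N using Nat.strong_induction_on with
  | _ N ih =>
    intro hcond hmod
    by_cases hall : ∀ q : ℕ, q.Prime → q ∣ N → q = 2
    · exact ⟨N, dvd_two_of_squarefree_of_forall_prime_eq_two hcond.squarefree hall, hmod⟩
    · simp only [not_forall] at hall
      obtain ⟨q, hq, hqN, hq2⟩ := hall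
      have key : ∃ M : ℕ, M ∣ N ∧ ¬ q ∣ M ∧ P.ModularRepOfLevel M := by
        by_cases hqp : q = P.p
        · subst hqp
          exact h44 N hcond hqN hmod
        · exact h43 N q hcond hq hq2 hqp hqN hmod (h05 q hq hq2 hqp)
      obtain ⟨M, hMN, hqM, hMmod⟩ := key
      have hMpos : 0 < M := Nat.pos_of_dvd_of_pos hMN hcond.pos
      have hMle : M ≤ N := Nat.le_of_dvd hcond.pos hMN
      have hMne : M ≠ N := fun h => hqM (h ▸ hqN)
      exact ih M (lt_of_le_of_ne hMle hMne) (hcond.of_dvd hMN hMpos) hMmod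

/-- The glue for S45: a nonzero weight-2 cusp form of level `Gamma0(2)` from the level-lowering
inputs. -/
theorem exists_cuspForm_Gamma0_two_ne_zero (P : FreyPackage)
    (h06 : ∃ N : ℕ, P.IsConductorLevel N ∧ P.ModularRepOfLevel N)
    (h05 : ∀ q : ℕ, q.Prime → q ≠ 2 → q ≠ P.p → P.GaloisRepUnramifiedAt q)
    (h43 : ∀ N q : ℕ, P.IsConductorLevel N → q.Prime → q ≠ 2 → q ≠ P.p → q ∣ N →
      P.ModularRepOfLevel N → P.GaloisRepUnramifiedAt q →
      ∃ M : ℕ, M ∣ N ∧ ¬ q ∣ M ∧ P.ModularRepOfLevel M)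
    (h44 : ∀ N : ℕ, P.IsConductorLevel N → P.p ∣ N → P.ModularRepOfLevel N →
      ∃ M : ℕ, M ∣ N ∧ ¬ P.p ∣ M ∧ P.ModularRepOfLevel M)
    (h08 : ∀ f : CuspForm (CongruenceSubgroup.Gamma0 1) 2, f = 0) :
    ∃ f : CuspForm (CongruenceSubgroup.Gamma0 2) 2, f ≠ 0 := by
  obtain ⟨N, hcond, hmod⟩ := h06
  obtain ⟨M, hM2, hMmod⟩ := exists_modularRepOfLevel_dvd_two P h05 h43 h44 N hcond hmod
  have hM : M = 1 ∨ M = 2 := (Nat.dvd_prime Nat.prime_two).mp hM2
  rcases hM with rfl | rfl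
  · obtain ⟨f, -, -, hf, -⟩ := hMmod
    exact absurd (h08 f) hf.ne_zero
  · obtain ⟨f, -, -, hf, -⟩ := hMmod
    exact ⟨f, hf.ne_zero⟩

end Fermat.Agent.S45

end
-- ==== END Fermat.Agent.S45.Glue

-- ==== BEGIN Fermat.Agent.S45.H43_Models
section

/-!
# S45 (helper43): two integral models of the same curve have the same `a_ℓ`

* `apOfModel_eq_of_models` : if `W`, `W'` are integral models of the same curve `E / ℚ` and `ℓ` is
  a good prime for both, then `W.apOfModel ℓ = W'.apOfModel ℓ`.  Proof: for every prime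
  `p ≠ ℓ` both are the trace of a Frobenius at `ℓ` on `E[p]` (item 62, `Lib/EllFinite`), and the
  torsion of the two models is Galois-isomorphic (helper19, `L/H19_TorsLevel`).
* `delta_ne_zero_of_model` : an integral model of a curve with `Δ ≠ 0` has `Δ ≠ 0`.
* Frey curve: `freyInt_bad_dvd_abc` : a prime dividing the discriminant of `P.freyCurveInt`
  divides `a b c`.
-/

set_option autoImplicit false

open WeierstrassCurve

namespace Fermat.Agent.S45.H43

/-- An integer divisible by every prime `p ≠ ℓ` is zero. -/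
theorem int_eq_zero_of_forall_prime_dvd (z : ℤ) (ℓ : ℕ)
    (h : ∀ p : ℕ, p.Prime → p ≠ ℓ → (p : ℤ) ∣ z) : z = 0 := by
  by_contra hz
  obtain ⟨p, hp1, hp2⟩ := Nat.exists_infinite_primes (z.natAbs + ℓ + 1)
  have hpl : p ≠ ℓ := by omega
  have hd := h p hp2 hpl
  have hd' : p ∣ z.natAbs := Int.natCast_dvd.mp hd
  have hpos : 0 < z.natAbs := Int.natAbs_pos.mpr hz
  have := Nat.le_of_dvd hpos hd'
  omega

/-- Two integral models of the same curve over `ℚ` have the same `a_ℓ` at every prime `ℓ` which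
is good for both. -/
theorem apOfModel_eq_of_models {E : WeierstrassCurve ℚ} {W W' : WeierstrassCurve ℤ}
    (hW : W.IsIntegralModelOf E) (hW' : W'.IsIntegralModelOf E) {ℓ : ℕ} (hℓ : ℓ.Prime)
    (hg : W.IsGoodPrimeFor ℓ) (hg' : W'.IsGoodPrimeFor ℓ) :
    W.apOfModel ℓ = W'.apOfModel ℓ := by
  classical
  obtain ⟨C, hC⟩ := hW
  obtain ⟨C', hC'⟩ := hW'
  obtain ⟨A, σ, hA, hσ⟩ := Fermat.Agent.Lib.FrobExists.exists_place_and_frobenius ℓ hℓ
  have key : ∀ p : ℕ, p.Prime → p ≠ ℓ → (p : ℤ) ∣ (W.apOfModel ℓ - W'.apOfModel ℓ) := by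
    intro p hp hpl
    have : Fact p.Prime := ⟨hp⟩
    obtain ⟨-, h1, -⟩ := Fermat.Agent.Lib.EllFinite.stmt_main W p ℓ hℓ hpl hg A hA σ hσ
    obtain ⟨-, h2, -⟩ := Fermat.Agent.Lib.EllFinite.stmt_main W' p ℓ hℓ hpl hg' A hA σ hσ
    have e1 := Fermat.Agent.L.H19.galoisTrace_eq (K := AlgebraicClosure ℚ) hC p σ
    have e2 := Fermat.Agent.L.H19.galoisTrace_eq (K := AlgebraicClosure ℚ) hC' p σ
    have e : ((W.apOfModel ℓ : ℤ) : ZMod p) = ((W'.apOfModel ℓ : ℤ) : ZMod p) := by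
      rw [← h1, ← h2, ← e1, ← e2]
    rw [← ZMod.intCast_zmod_eq_zero_iff_dvd]
    push_cast
    rw [e, sub_self]
  exact sub_eq_zero.mp (int_eq_zero_of_forall_prime_dvd _ ℓ key)

/-- An integral model of a curve with nonzero discriminant has nonzero discriminant. -/
theorem delta_ne_zero_of_model {E : WeierstrassCurve ℚ} {W : WeierstrassCurve ℤ}
    (hW : W.IsIntegralModelOf E) (hE : E.Δ ≠ 0) : W.Δ ≠ 0 := by
  obtain ⟨C, hC⟩ := hW
  intro h0
  have h1 : (W.map (Int.castRingHom ℚ)).Δ = 0 := by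
    rw [WeierstrassCurve.map_Δ, h0, map_zero]
  rw [← hC, WeierstrassCurve.variableChange_Δ] at h1
  rcases mul_eq_zero.mp h1 with h | h
  · exact (pow_ne_zero 12 (Units.ne_zero _)) h
  · exact hE h

/-- The rational Frey curve has nonzero discriminant. -/
theorem freyCurve_Δ_ne_zero (P : FreyPackage) : P.freyCurve.Δ ≠ 0 := by
  rw [← Fermat.Agent.S04.H59.freyCurveInt_map, WeierstrassCurve.map_Δ]
  intro h
  rw [eq_intCast] at h
  exact Fermat.Agent.S04.H59.freyCurveInt_Δ_ne_zero P (by exact_mod_cast h)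

/-- A prime dividing the discriminant of the integral Frey curve divides `a b c`. -/
theorem freyInt_bad_dvd_abc (P : FreyPackage) {q : ℕ} (hq : q.Prime)
    (h : (q : ℤ) ∣ P.freyCurveInt.Δ) : (q : ℤ) ∣ P.a * P.b * P.c := by
  have hqZ : Prime (q : ℤ) := Nat.prime_iff_prime_int.mp hq
  have h1 : (q : ℤ) ∣ (P.a ^ P.p * P.b ^ P.p * P.c ^ P.p) ^ 2 := by
    rw [← Fermat.Agent.S04.H59.freyCurveInt_Δ_mul]
    exact Dvd.dvd.mul_left h _
  have h2 := hqZ.dvd_of_dvd_pow h1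
  rcases hqZ.dvd_or_dvd h2 with h3 | h3
  · rcases hqZ.dvd_or_dvd h3 with h4 | h4
    · exact Dvd.dvd.mul_right (Dvd.dvd.mul_right (hqZ.dvd_of_dvd_pow h4) _) _
    · exact Dvd.dvd.mul_right (Dvd.dvd.mul_left (hqZ.dvd_of_dvd_pow h4) _) _
  · exact Dvd.dvd.mul_left (hqZ.dvd_of_dvd_pow h3) _

end Fermat.Agent.S45.H43

end
-- ==== END Fermat.Agent.S45.H43_Models

-- ==== BEGIN Fermat.Agent.S45.NUE.Defs
section
attribute [local instance 10000] SubalgebraClass.toAlgebra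
attribute [local instance 10000] HahnSeries.powerSeriesAlgebra

/-!
# S45 / NU_e (helper68, owner of the geometric side): interfaces for "Carayol at `q^e`, `e ≥ 3`"

Level `M * q` with `q ^ 2 ∣ M` (so `q ^ 3 ∣ M q`); `α, β : X₀(M q) → X₀(M)` the two degeneracy maps
(`heckeAlphaBar ℚ̄ M q`, `heckeBetaBar ℚ̄ M q`).  The test prime `p` is FREE in S45, so we only ask
for the primes `p > q + 1` (then `p ≥ 5` and `p ∤ 6 q (q - 1) (q + 1)`).

* `GoodExp q n` : `n` is prime to `6 q (q - 1) (q + 1)`;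
* `Stmt_NUCoreE M q p` : the Kummer form of (NU) at `(M, q, p)`, `q ^ 2 ∣ M`, `q + 1 < p`
  (`= S36.NU.H81.Stmt_NUCore` with `q ^ 2 ∣ M` instead of `q ∥ M`);
* `Stmt_NUCoreEK M q` : the same with a fixed exponent `K ≠ 0` and every `n` with `GoodExp q n`;
* `Stmt_NUCoreETame` : `Stmt_NUCoreEK M q` at the tame levels (`4 ∣ M` for `q` odd, `9 ∣ M` for
  `q = 2`): THE TARGET of the geometric side;
* `Stmt_TorsNUE M q p` : the torsion form (input of the chain of helper43).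

Theorems: `nuCoreE_of_K`, `torsNUE_of_nuCoreE`, `nuCoreE_descend_gen`, `nuCoreE_all`,
`torsNUE_final : Stmt_NUCoreETame → ∀ M q p, Stmt_TorsNUE M q p`.
-/

set_option autoImplicit false
set_option linter.style.haveILetI false
set_option linter.unusedSectionVars false
set_option maxHeartbeats 1000000

noncomputable section

namespace Fermat.Agent.S45.NUE

open AlgebraicCurve ModularCurve Fermat.Agent.S24 Fermat.Agent.Lib.HeckeComm
  Fermat.Agent.S36.H44 Fermat.Agent.BAD Fermat.Agent.S35.H89 Fermat.Agent.S35.H44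
  Fermat.Agent.S36.NU.H81

local notation "Kb" => AlgebraicClosure ℚ

/-- `n` is prime to `6 q (q - 1) (q + 1)`. -/
def GoodExp (q n : ℕ) : Prop := Nat.Coprime n (6 * q * (q - 1) * (q + 1))

/-- **Kummer form of (NU) at `q ^ e`, `e ≥ 3`**, at `(M, q, p)`. -/
def Stmt_NUCoreE (M q p : ℕ) [NeZero M] [NeZero q] : Prop :=
  q.Prime → q ^ 2 ∣ M → p.Prime → q + 1 < p →
  ∃ A : ValuationSubring Kb, A.LiesOverPrime q ∧ ∃ c : ℕ,
    ∀ (m : ℕ) (f : ↥(FNbar (M * q))), f ≠ 0 →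
      (∀ P : Place Kb ↥(FNbar (M * q)), ((p ^ m : ℕ) : ℤ) ∣ P.ord f) →
      (∀ σ ∈ A.inertiaSubgroupIn ℚ, galF (M * q) σ • f = f) →
      (f : LaurentSeries Kb).leadingCoeff = 1 →
    ∀ (hα : HeckeAlphaBarIntegral Kb M q) (hβ : HeckeBetaBarIntegral Kb M q)
      (D : Divisor Kb ↥(FNbar (M * q))), (∀ P, D P = P.ord f) →
      (∃ g : ↥(FNbar M), g ≠ 0 ∧ ∀ Q : Place Kb ↥(FNbar M),
        Divisor.pushforwardAlong (heckeAlphaBar Kb M q) hα D Q = (p ^ m : ℕ) * Q.ord g) →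
      (∃ g : ↥(FNbar M), g ≠ 0 ∧ ∀ Q : Place Kb ↥(FNbar M),
        Divisor.pushforwardAlong (heckeBetaBar Kb M q) hβ D Q = (p ^ m : ℕ) * Q.ord g) →
      ∃ t : ↥(FNbar (M * q)), t ^ (p ^ m) = f ^ (p ^ c)

/-- **Kummer form of (NU) at `q ^ e`, `e ≥ 3`, with a fixed exponent** `K ≠ 0`, for every `n`
prime to `6 q (q - 1) (q + 1)`. -/
def Stmt_NUCoreEK (M q : ℕ) [NeZero M] [NeZero q] : Prop :=
  q.Prime → q ^ 2 ∣ M →
  ∃ A : ValuationSubring Kb, A.LiesOverPrime q ∧ ∃ K : ℕ, K ≠ 0 ∧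
    ∀ (n : ℕ), GoodExp q n → ∀ (f : ↥(FNbar (M * q))), f ≠ 0 →
      (∀ P : Place Kb ↥(FNbar (M * q)), (n : ℤ) ∣ P.ord f) →
      (∀ σ ∈ A.inertiaSubgroupIn ℚ, galF (M * q) σ • f = f) →
      (f : LaurentSeries Kb).leadingCoeff = 1 →
    ∀ (hα : HeckeAlphaBarIntegral Kb M q) (hβ : HeckeBetaBarIntegral Kb M q)
      (D : Divisor Kb ↥(FNbar (M * q))), (∀ P, D P = P.ord f) →
      (∃ g : ↥(FNbar M), g ≠ 0 ∧ ∀ Q : Place Kb ↥(FNbar M),
        Divisor.pushforwardAlong (heckeAlphaBar Kb M q) hα D Q = n * Q.ord g) →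
      (∃ g : ↥(FNbar M), g ≠ 0 ∧ ∀ Q : Place Kb ↥(FNbar M),
        Divisor.pushforwardAlong (heckeBetaBar Kb M q) hβ D Q = n * Q.ord g) →
      ∃ t : ↥(FNbar (M * q)), t ^ n = f ^ K

/-- **THE TARGET of the geometric side of S45**: the Kummer form with a fixed exponent at all
tame levels. -/
def Stmt_NUCoreETame : Prop :=
  ∀ (M q : ℕ) [NeZero M] [NeZero q], TameNU M q → Stmt_NUCoreEK M q

/-- **(NU) at `q ^ e`, `e ≥ 3`**: up to a bounded power of `p`, no `q`-new `p`-power torsion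
point of `J₀(M q)` is fixed by inertia at `q` (`q ^ 2 ∣ M`, `p > q + 1`). -/
def Stmt_TorsNUE (M q p : ℕ) [NeZero M] [NeZero q] : Prop :=
  q.Prime → q ^ 2 ∣ M → p.Prime → q + 1 < p →
    ∃ A : ValuationSubring (AlgebraicClosure ℚ), A.LiesOverPrime q ∧
      ∃ c : ℕ, ∀ x : JZero (M * q), (∃ n : ℕ, p ^ n • x = 0) → IsQNew M q x →
        (∀ σ ∈ A.inertiaSubgroupIn ℚ, σ • x = x) → p ^ c • x = 0

/-- A prime `p > q + 1` is prime to `6 q (q - 1) (q + 1)`. -/
theorem goodExp_pow {q p : ℕ} (hq : q.Prime) (hp : p.Prime) (hqp : q + 1 < p) (m : ℕ) :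
    GoodExp q (p ^ m) := by
  unfold GoodExp
  apply Nat.Coprime.pow_left
  rw [Nat.Prime.coprime_iff_not_dvd hp]
  have hq2 := hq.two_le
  intro hd
  rcases (Nat.Prime.dvd_mul hp).mp hd with h | h
  · rcases (Nat.Prime.dvd_mul hp).mp h with h | h
    · rcases (Nat.Prime.dvd_mul hp).mp h with h | h
      · have h6 : p ∣ 2 * 3 := h
        rcases (Nat.Prime.dvd_mul hp).mp h6 with h' | h'
        · have := Nat.le_of_dvd (by norm_num) h'
          omega
        · have := Nat.le_of_dvd (by norm_num) h'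
          omega
      · have := Nat.le_of_dvd hq.pos h
        omega
    · have := Nat.le_of_dvd (by omega) h
      omega
  · have := Nat.le_of_dvd (by omega) h
    omega

/-- **The Kummer form with a fixed exponent implies the `p`-primary Kummer form.** -/
theorem nuCoreE_of_K (M q p : ℕ) [NeZero M] [NeZero q] (h : Stmt_NUCoreEK M q) :
    Stmt_NUCoreE M q p := by
  intro hq hqM hp hqp
  obtain ⟨A, hA, K, hK0, hK⟩ := h hq hqM
  obtain ⟨c, K', hK', hKeq⟩ := Nat.exists_eq_pow_mul_and_not_dvd hK0 p hp.ne_one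
  refine ⟨A, hA, c, ?_⟩
  intro m f hf0 hdiv hI hlc hα hβ D hD hDα hDβ
  obtain ⟨t, ht⟩ := hK (p ^ m) (goodExp_pow hq hp hqp m) f hf0 hdiv hI hlc hα hβ D hD hDα hDβ
  rw [hKeq] at ht
  refine exists_pow_eq_of_coprime f t hf0 (p ^ m) (p ^ c) K' ?_ ht
  exact Nat.Coprime.pow_right m ((Nat.Prime.coprime_iff_not_dvd hp).mpr hK').symm

end Fermat.Agent.S45.NUE

namespace Fermat.Agent.S45.NUE

open AlgebraicCurve ModularCurve Fermat.Agent.S24 Fermat.Agent.Lib.HeckeComm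
  Fermat.Agent.S36.H44 Fermat.Agent.BAD Fermat.Agent.S35.H89 Fermat.Agent.S35.H44
  Fermat.Agent.S36.NU.H81

local notation "Kb" => AlgebraicClosure ℚ

/-- **`Stmt_TorsNUE` from the Kummer form** (Hilbert 90 descent B0 of helper61). -/
theorem torsNUE_of_nuCoreE (M q p : ℕ) [NeZero M] [NeZero q] (hS : Stmt_NUCoreE M q p) :
    Stmt_TorsNUE M q p := by
  intro hq hqM hp hqp
  obtain ⟨A, hA, c, hc⟩ := hS hq hqM hp hqp
  refine ⟨A, hA, c, ?_⟩
  intro x hx hnew hI
  obtain ⟨m, hm⟩ := hx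
  obtain ⟨D, h, hh0, rfl, hDh, -, hhI, hlc, -⟩ :=
    Fermat.Agent.S36.H61.stmt_NUB0 (M * q) (A.inertiaSubgroupIn ℚ) (p ^ m) x hm hI
  obtain ⟨hpa, hpb⟩ := (isQNew_iff M q _).mp hnew
  have hDα := (pic0Push_mk_eq_zero_iff _ _ _ _ D).mp hpa
  have hDβ := (pic0Push_mk_eq_zero_iff _ _ _ _ D).mp hpb
  set n : ℕ := p ^ m with hn
  have hn0 : n ≠ 0 := pow_ne_zero _ hp.ne_zero
  have hnZ : (n : ℤ) ≠ 0 := by exact_mod_cast hn0
  set Df : Divisor Kb ↥(FNbar (M * q)) := (n : ℤ) • (D : Divisor Kb ↥(FNbar (M * q))) with hDf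
  have hDf' : ∀ P, Df P = P.ord h := by
    intro P
    rw [← hDh P, hDf]
    simp
  have hdiv : ∀ P : Place Kb ↥(FNbar (M * q)), (n : ℤ) ∣ P.ord h :=
    fun P => ⟨_, (hDh P).symm⟩
  have hpush : ∀ (φ : ↥(FNbar M) →ₐ[Kb] ↥(FNbar (M * q))) (hφ : φ.toRingHom.IsIntegral),
      (Divisor.pushforwardAlong φ hφ (D : Divisor Kb ↥(FNbar (M * q)))).IsPrincipal →
      ∃ g : ↥(FNbar M), g ≠ 0 ∧ ∀ Q : Place Kb ↥(FNbar M),
        Divisor.pushforwardAlong φ hφ Df Q = n * Q.ord g := by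
    rintro φ hφ ⟨g, hg0, hg⟩
    refine ⟨g, hg0, fun Q => ?_⟩
    rw [hDf, map_zsmul, Finsupp.smul_apply, smul_eq_mul, hg Q]
  obtain ⟨t, ht⟩ := hc m h hh0 hdiv hhI hlc (alpha_integral M q) (beta_integral M q) Df hDf'
    (hpush _ _ hDα) (hpush _ _ hDβ)
  have ht0 : t ≠ 0 := by
    rintro rfl
    rw [zero_pow hn0] at ht
    exact pow_ne_zero _ hh0 ht.symm
  rw [← pic0_mk_nsmul, Fermat.Agent.S36.H44.pic0_mk_eq_zero_iff]
  refine ⟨t, ht0, fun P => ?_⟩
  have h1 : (n : ℤ) * P.ord t = (p ^ c : ℕ) * P.ord h := by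
    rw [← Fermat.Agent.RED.H17.ord_pow, ← Fermat.Agent.RED.H17.ord_pow, ht]
  rw [← hDh P] at h1
  apply mul_left_cancel₀ hnZ
  rw [h1]
  simp only [AddSubgroup.coe_nsmul, Finsupp.smul_apply, nsmul_eq_mul]
  push_cast
  ring

/-- **KD-NUE**: the Kummer form descends from level `r M q` to level `M q`
(`r ∣ 36`, `q ∤ r`). -/
theorem nuCoreE_descend_gen (hBC : Stmt_NormUpNU) (M q p r : ℕ) [NeZero M] [NeZero q] [NeZero r]
    (hr36 : r ∣ 36) (hqr : ¬ q ∣ r) (h : Stmt_NUCoreE (r * M) q p) : Stmt_NUCoreE M q p := by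
  intro hq hqM hp hqp
  have hq1M : q ∣ M := Dvd.dvd.trans (dvd_pow_self q (by norm_num)) hqM
  have hqrM : q ^ 2 ∣ r * M := Dvd.dvd.mul_left hqM r
  obtain ⟨A, hA, c, hc⟩ := h hq hqrM hp hqp
  obtain ⟨hbα, hbβ⟩ := hBC M q r hq hq1M hqr
  refine ⟨A, hA, c, ?_⟩
  intro m f hf0 hdiv hI hlc hαI hβI D hD hDα hDβ
  obtain ⟨g, hg0, hg⟩ := hDα
  obtain ⟨g', hg'0, hg'⟩ := hDβ
  set n : ℕ := p ^ m with hn
  have hn0 : 0 < n := pow_pos hp.pos m
  have hf'0 : inclUp M q r f ≠ 0 := fun h0 =>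
    hf0 ((inclUp M q r).toRingHom.injective (by simpa using h0))
  set f' : FN (r * M * q) := inclUp M q r f with hf'
  have hdiv' : ∀ P' : Place Kb (FN (r * M * q)), (n : ℤ) ∣ P'.ord f' := by
    intro P'
    rw [hf', Place.ord_restrictAlong (inclUp M q r) (inclUp_integral M q r)]
    exact Dvd.dvd.mul_left (hdiv _) _
  have hI' : ∀ σ ∈ A.inertiaSubgroupIn ℚ, galF (r * M * q) σ • f' = f' := by
    intro σ hσ
    rw [hf', ← inclUp_galF, hI σ hσ]
  have hlc' : (f' : LaurentSeries Kb).leadingCoeff = 1 := by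
    rw [hf', coe_inclUp]
    exact hlc
  haveI := hasPrincipalDivisors_FN (r * M * q)
  obtain ⟨D', hD', -⟩ := HasPrincipalDivisors.exists_divisor (K := Kb) f' hf'0
  have hinj : ∀ x : FN M, x ≠ 0 → inclLo M r x ≠ 0 := fun x hx h0 =>
    hx ((inclLo M r).toRingHom.injective (by simpa using h0))
  obtain ⟨t', ht'⟩ := hc m f' hf'0 hdiv' hI' hlc' (alpha_integral (r * M) q)
    (beta_integral (r * M) q) D' hD'
    ⟨inclLo M r g, hinj g hg0, fun Q' =>
      push_up M q r (heckeAlphaBar Kb M q) (heckeAlphaBar Kb (r * M) q) hαI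
        (alpha_integral (r * M) q) hbα n f hf0 D hD g hg D' hD' Q'⟩
    ⟨inclLo M r g', hinj g' hg'0, fun Q' =>
      push_up M q r (heckeBetaBar Kb M q) (heckeBetaBar Kb (r * M) q) hβI
        (beta_integral (r * M) q) hbβ n f hf0 D hD g' hg' D' hD' Q'⟩
  have hdivR : ∀ P : Place Kb (FN (M * q)), (n : ℤ) ∣ P.ord (f ^ (p ^ c)) := by
    intro P
    rw [Fermat.Agent.RED.H17.ord_pow]
    exact Dvd.dvd.mul_left (hdiv P) _
  have hM36 : r * M * q ∣ 36 * (M * q) := by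
    obtain ⟨c, hc⟩ := hr36
    exact ⟨c, by rw [hc]; ring⟩
  refine Fermat.Agent.RED.KD.H22.stmt_KD (M * q) (r * M * q) n (dvd_up M q r) hM36 hn0
    (f ^ (p ^ c)) hdivR ⟨(t' : LaurentSeries Kb), t'.2, ?_⟩
  have h3 := congrArg (Subtype.val : FN (r * M * q) → LaurentSeries Kb) ht'
  have h4 : ((t' : FN (r * M * q)) : LaurentSeries Kb) ^ n
      = ((f' ^ (p ^ c) : FN (r * M * q)) : LaurentSeries Kb) := h3
  rw [h4, hf', ← map_pow, coe_inclUp]

/-- **The Kummer form at every `(M, q, p)` from the tame levels.** -/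
theorem nuCoreE_all (hBC : Stmt_NormUpNU) (h : Stmt_NUCoreETame) (p : ℕ)
    (M q : ℕ) [NeZero M] [NeZero q] : Stmt_NUCoreE M q p := by
  intro hq hqM hp hqp
  by_cases h2 : q = 2
  · haveI : NeZero 9 := ⟨by norm_num⟩
    refine nuCoreE_descend_gen hBC M q p 9 (by norm_num) ?_
      (nuCoreE_of_K (9 * M) q p (h (9 * M) q (Or.inr ⟨h2, dvd_mul_right 9 M⟩))) hq hqM hp hqp
    subst h2
    norm_num
  · haveI : NeZero 4 := ⟨by norm_num⟩
    refine nuCoreE_descend_gen hBC M q p 4 (by norm_num) ?_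
      (nuCoreE_of_K (4 * M) q p (h (4 * M) q (Or.inl ⟨h2, dvd_mul_right 4 M⟩))) hq hqM hp hqp
    intro hd
    have h22 : q ∣ 2 ^ 2 := by simpa using hd
    exact h2 ((Nat.prime_dvd_prime_iff_eq hq Nat.prime_two).mp (hq.dvd_of_dvd_pow h22))

end Fermat.Agent.S45.NUE

end
end
-- ==== END Fermat.Agent.S45.NUE.Defs

-- ==== BEGIN Fermat.Agent.S45.NUE.H12_Pole23
section
attribute [local instance 10000] SubalgebraClass.toAlgebra
attribute [local instance 10000] HahnSeries.powerSeriesAlgebra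

/-!
# S45 / NU_e, package E-FIN, leaf E-PT-SS, SS-ASM: COORD + POLE at level `M`, `q = 2, 3` (helper12)

The pole data at the supersingular points of the tame level `M`, in the shape used by helper16's
`H16.hssE_mod` (`κ i₀ = FM A M`, `emb = Subtype.val`): a constant `c ∈ 𝔽_{q²}`, the reductions
`u`, `δ` of the coordinate and of `kdel q u₀`, `ord_z (u - c) = 1`, `ord_z δ = -1`.

* `pole_ssM_three` : `q = 3`, `4 ∣ M`, `u₀ = q23hZ4` (coordinate `q23uF3`);
* `pole_ssM_two` : `q = 2`, `9 ∣ M`, `u₀ = q23hZ9` (coordinate `q23uF2`);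
* `ord_pow_of_pole` : `ord_z (δ ^ m) = - m`.
-/

set_option autoImplicit false
set_option linter.style.haveILetI false
set_option linter.unusedSectionVars false
set_option synthInstance.maxHeartbeats 400000
set_option maxHeartbeats 1000000

noncomputable section

open Polynomial AlgebraicCurve IntermediateField ModularCurve

namespace Fermat.Agent.S45.NUE.H12

open Fermat.Agent.S24 Fermat.Agent.BAD.H88 Fermat.Agent.BAD.H30 Fermat.Agent.BAD.H21
open Fermat.Agent.S28 Fermat.Agent.S28.H73 Fermat.Agent.RED.H73 Fermat.Agent.RED.H17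
open Fermat.Agent.S36.NU.H88 Fermat.Agent.S36.NU.H23 Fermat.Agent.S36.NU.H16
open Fermat.Agent.S36.NU.H41 Fermat.Agent.S36.NU.H73 Fermat.Agent.S36.NU.H65
open Fermat.Agent.S36.NU.H5 Fermat.Agent.S36.NU.H74 Fermat.Agent.S36.NU.H24
open Fermat.Agent.RED Fermat.Agent.BAD Fermat.Agent.S36.NU

section Abs

variable {k κ : Type*} [Field k] [Field κ] [Algebra k κ]

/-- A simple pole: `ord_z (δ ^ m) = - m`. -/
theorem ord_pow_of_pole (z : Place k κ) (δ : κ) (h : z.ord δ = -1) (m : ℕ) :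
    z.ord (δ ^ m) = -((m : ℕ) : ℤ) := by
  rw [Fermat.Agent.RED.H17.ord_pow, h]
  ring

end Abs

section Three

variable (A : ValuationSubring Kbar) (M : ℕ) [NeZero M] [NeZero (M * 3)]
  (hqM : ¬ 3 ∣ M) (hA : A.LiesOverPrime 3) (h4 : 4 ∣ M)

attribute [local instance] algkM

include hqM hA h4 in
/-- **COORD + POLE at the supersingular points, `q = 3`, `4 ∣ M`.** -/
theorem pole_ssM_three (z : Place (kV A) (FM A M)) (hz : z ∈ ssM A 3 M) :
    ∃ (c : kV A) (u δ : FM A M),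
      (u : LaurentSeries (kV A)) = coeffMap (Int.castRingHom (kV A)) q23hZ4 ∧
      (δ : LaurentSeries (kV A)) = coeffMap (Int.castRingHom (kV A)) (kdel 3 q23hZ4) ∧
      z.ord (u - algebraMap (kV A) (FM A M) c) = 1 ∧ c ^ 3 ^ 2 = c ∧ z.ord δ = -1 := by
  haveI : Fact (Nat.Prime 3) := ⟨Nat.prime_three⟩
  haveI : CharP (kV A) 3 := BAD.H82.charP_kV A Nat.prime_three hA
  have hE := stmt_GA M 3 Nat.prime_three hqM A hA
  have hum : coeffMap (Int.castRingHom (kV A)) q23hZ4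
      ∈ redField A (modularFunctionFieldBar M) (hScM A M) := by
    rw [hE]
    exact H44.ubar_mem_gen A 3 M hA hqM (q23uF3 M h4) q23hZ4 (q23uF3_coe M h4)
  have hdm : coeffMap (Int.castRingHom (kV A)) (kdel 3 q23hZ4)
      ∈ redField A (modularFunctionFieldBar M) (hScM A M) := by
    rw [hE]
    exact H44.dbar_mem_three A M hA h4 hqM
  have hpos := H91.ord_jRed_pos_of_ssM A 3 M Nat.prime_three hA (Or.inr rfl) z hz
  set u : FM A M := ⟨_, hum⟩ with hu
  set δ : FM A M := ⟨_, hdm⟩ with hδ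
  obtain ⟨h1, h2, h3, -⟩ := H44.pole_full_three A M hA h4 hqM
    (redField A (modularFunctionFieldBar M) (hScM A M)) hE z
    (Fermat.Agent.BAD.H91.jRed A M) u δ (-δ ^ 3) (red_jF A M)
    (coeffMap_q23hZ4 (kV A)) rfl rfl hpos
  exact ⟨1, u, δ, rfl, rfl, h1, h2, h3⟩

end Three

section Two

variable (A : ValuationSubring Kbar) (M : ℕ) [NeZero M] [NeZero (M * 2)]
  (hqM : ¬ 2 ∣ M) (hA : A.LiesOverPrime 2) (h9 : 9 ∣ M)

attribute [local instance] algkM

include hqM hA h9 in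
/-- **COORD + POLE at the supersingular points, `q = 2`, `9 ∣ M`.** -/
theorem pole_ssM_two (z : Place (kV A) (FM A M)) (hz : z ∈ ssM A 2 M) :
    ∃ (c : kV A) (u δ : FM A M),
      (u : LaurentSeries (kV A)) = coeffMap (Int.castRingHom (kV A)) q23hZ9 ∧
      (δ : LaurentSeries (kV A)) = coeffMap (Int.castRingHom (kV A)) (kdel 2 q23hZ9) ∧
      z.ord (u - algebraMap (kV A) (FM A M) c) = 1 ∧ c ^ 2 ^ 2 = c ∧ z.ord δ = -1 := by
  haveI : Fact (Nat.Prime 2) := ⟨Nat.prime_two⟩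
  haveI : CharP (kV A) 2 := BAD.H82.charP_kV A Nat.prime_two hA
  have hE := stmt_GA M 2 Nat.prime_two hqM A hA
  have hum : coeffMap (Int.castRingHom (kV A)) q23hZ9
      ∈ redField A (modularFunctionFieldBar M) (hScM A M) := by
    rw [hE]
    exact H44.ubar_mem_gen A 2 M hA hqM (q23uF2 M h9) q23hZ9 (q23uF2_coe M h9)
  have hdm : coeffMap (Int.castRingHom (kV A)) (kdel 2 q23hZ9)
      ∈ redField A (modularFunctionFieldBar M) (hScM A M) := by
    rw [hE]
    exact H44.dbar_mem_two A M hA h9 hqM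
  have hpos := H91.ord_jRed_pos_of_ssM A 2 M Nat.prime_two hA (Or.inl rfl) z hz
  set u : FM A M := ⟨_, hum⟩ with hu
  set δ : FM A M := ⟨_, hdm⟩ with hδ
  obtain ⟨h1, h2, h3, -⟩ := H44.pole_full_two A M hA h9 hqM
    (redField A (modularFunctionFieldBar M) (hScM A M)) hE z
    (Fermat.Agent.BAD.H91.jRed A M) u δ (-δ ^ 2) (red_jF A M)
    (coeffMap_q23hZ9 (kV A)) rfl rfl hpos
  exact ⟨1, u, δ, rfl, rfl, h1, h2, h3⟩

end Two

end Fermat.Agent.S45.NUE.H12

end
end
-- ==== END Fermat.Agent.S45.NUE.H12_Pole23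

-- ==== BEGIN Fermat.Agent.S45.NUE.H12_SSInt
section

/-!
# S45 / NU_e, package E-FIN, leaf E-PT-SS, sub-leaf SS-INT (helper12)

Horizontal integrality of the two coordinates at a level `N` (in the application
`N = M * q ^ e`):  `f ∈ F_M` a root of a modular unit `Δ(t)/Δ(t^d)`, `d ∣ M`, with integral
expansion `u₀`; `x, y ∈ L0 A N` with expansions `u₀(t)` and `u₀(t^c)` (`c = q ^ e`).

* `isUnitOff_x_of_pow`, `isUnitOff_y_of_pow` : `x`, `y` have neither zero nor pole off the cusps;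
* `isIntegral_x_of_pow`, `isIntegral_y_of_pow` : `x`, `y` are integral over `K^ur[j]`
  (any level `N`, any `c` with `d * c ∣ N`);
* `ss_int` : both statements at the level `N = M * q ^ e`, `c = q ^ e`.
-/

set_option autoImplicit false
set_option synthInstance.maxHeartbeats 400000
set_option maxHeartbeats 1000000
set_option linter.style.haveILetI false
set_option linter.unusedSectionVars false

noncomputable section

open ModularCurve AlgebraicCurve IntermediateField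

namespace Fermat.Agent.S45.NUE.H12

open Fermat.Agent.S24 Fermat.Agent.BAD.H88 Fermat.Agent.BAD.H30 Fermat.Agent.BAD.H21
open Fermat.Agent.S28 Fermat.Agent.S28.H73 Fermat.Agent.RED.H73 Fermat.Agent.RED.H17
open Fermat.Agent.S36.NU.H88 Fermat.Agent.S36.NU.H23 Fermat.Agent.S36.NU.H16
open Fermat.Agent.S36.NU.H41 Fermat.Agent.RED Fermat.Agent.S36.NU.H99
open Fermat.Agent.S36.NU

section UnitOff

variable {N M : ℕ} [NeZero N] [NeZero M] (d : ℕ) [NeZero d] (hd : d ∣ M)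

/-- `x = f(τ)` at level `N` is a unit off the cusps if `f` is a root of `Δ(t)/Δ(t^d)`. -/
theorem isUnitOff_x_of_pow (hdN : d ∣ N) (f : FN M) (n : ℕ) (hn : n ≠ 0)
    (hfn : f ^ n = unitF M d hd) (x : FN N)
    (hx : (x : LaurentSeries Kbar) = (f : LaurentSeries Kbar)) :
    IsUnitOff N x := by
  refine H74.isUnitOff_of_pow hn ?_
  have e : x ^ n = unitF N d hdN := by
    apply Subtype.ext
    have h1 : ((f ^ n : FN M) : LaurentSeries Kbar)
        = ((unitF M d hd : FN M) : LaurentSeries Kbar) := by rw [hfn]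
    show ((x ^ n : FN N) : LaurentSeries Kbar) = ((unitF N d hdN : FN N) : LaurentSeries Kbar)
    rw [unitF_coe] at h1 ⊢
    rw [← h1]
    show (x : LaurentSeries Kbar) ^ n = (f : LaurentSeries Kbar) ^ n
    rw [hx]
  rw [e]
  exact isUnitOff_unitF d hdN

/-- `y = f(c τ)` at level `N` is a unit off the cusps if `f` is a root of `Δ(t)/Δ(t^d)`. -/
theorem isUnitOff_y_of_pow (c : ℕ) [NeZero c] (hcN : d * c ∣ N) (f : FN M) (n : ℕ) (hn : n ≠ 0)
    (hfn : f ^ n = unitF M d hd) (y : FN N)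
    (hy : (y : LaurentSeries Kbar) = qExpand Kbar c (f : LaurentSeries Kbar)) :
    IsUnitOff N y := by
  haveI : NeZero (d * c) := ⟨Nat.mul_ne_zero (NeZero.ne d) (NeZero.ne c)⟩
  have hc : c ∣ N := Dvd.dvd.trans (Dvd.intro_left d rfl) hcN
  refine H74.isUnitOff_of_pow hn ?_
  have h0 : unitF N c hc ≠ 0 := unitF_ne_zero _ _ _
  have e0 : y ^ n * unitF N c hc = unitF N (d * c) hcN := by
    apply Subtype.ext
    have h1 : ((f ^ n : FN M) : LaurentSeries Kbar)
        = ((unitF M d hd : FN M) : LaurentSeries Kbar) := by rw [hfn]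
    have h2 : (f : LaurentSeries Kbar) ^ n = coeffEmb Kbar (modularUnitSeries d) := by
      rw [← unitF_coe M d hd, ← h1]
      rfl
    show (y : LaurentSeries Kbar) ^ n * ((unitF N c hc : FN N) : LaurentSeries Kbar)
      = ((unitF N (d * c) hcN : FN N) : LaurentSeries Kbar)
    rw [hy, ← map_pow, h2, unitF_coe, unitF_coe, coeffEmb_modularUnitSeries,
      coeffEmb_modularUnitSeries, coeffEmb_modularUnitSeries, map_mul, map_inv₀,
      qExpand_qExpand, qExpand_congr (mul_comm c d)]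
    have h3 : qExpand Kbar c (deltaR Kbar) ≠ 0 := qExpand_deltaR_ne_zero (R := Kbar) c
    have h4 : qExpand Kbar (d * c) (deltaR Kbar) ≠ 0 :=
      qExpand_deltaR_ne_zero (R := Kbar) (d * c)
    field_simp
  have e : y ^ n = unitF N (d * c) hcN * (unitF N c hc)⁻¹ :=
    (eq_mul_inv_iff_mul_eq₀ h0).2 e0
  rw [e]
  exact (isUnitOff_unitF (d * c) _).mul (isUnitOff_unitF c _).inv

end UnitOff

section Int

variable (A : ValuationSubring Kbar)
variable {N M : ℕ} [NeZero N] [NeZero M] (d : ℕ) [NeZero d] (hd : d ∣ M)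

/-- **SS-INT, `x`** (any level `N` with `d ∣ N`). -/
theorem isIntegral_x_of_pow (hdN : d ∣ N) (f : FN M) (u₀ : LaurentSeries ℤ)
    (hf : (f : LaurentSeries Kbar) = H65.intSer Kbar u₀)
    (n : ℕ) (hn : n ≠ 0) (hfn : f ^ n = unitF M d hd)
    (x : ↥(L0 A N)) (hx : ((x : FN N) : LaurentSeries Kbar) = H65.intSer Kbar u₀) :
    IsIntegral ↥(Algebra.adjoin ↥(Kur A) ({j0 A N} : Set ↥(L0 A N))) x :=
  isIntegral_Kur_of_bar A _ _
    (isIntegral_bar_of_unitOff (isUnitOff_x_of_pow d hd hdN f n hn hfn (x : FN N)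
      (hx.trans hf.symm)))

/-- **SS-INT, `y`** (any level `N`, any `c` with `d * c ∣ N`). -/
theorem isIntegral_y_of_pow (c : ℕ) [NeZero c] (hcN : d * c ∣ N) (f : FN M)
    (u₀ : LaurentSeries ℤ) (hf : (f : LaurentSeries Kbar) = H65.intSer Kbar u₀)
    (n : ℕ) (hn : n ≠ 0) (hfn : f ^ n = unitF M d hd)
    (y : ↥(L0 A N))
    (hy : ((y : FN N) : LaurentSeries Kbar) = H65.intSer Kbar (qExpand ℤ c u₀)) :
    IsIntegral ↥(Algebra.adjoin ↥(Kur A) ({j0 A N} : Set ↥(L0 A N))) y :=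
  isIntegral_Kur_of_bar A _ _
    (isIntegral_bar_of_unitOff (isUnitOff_y_of_pow d hd c hcN f n hn hfn (y : FN N)
      (by rw [hy, H65.intSer_qExpand, hf])))

end Int

section Level

variable (A : ValuationSubring Kbar)
variable (N q M e : ℕ) (hN : N = M * q ^ e) [NeZero N] [NeZero M] [NeZero q]
variable (d : ℕ) [NeZero d] (hd : d ∣ M)

include hN in
/-- **SS-INT** at the level `N = M * q ^ e`: `x = f(τ)` and `y = f(q^e τ)` are integral over
`K^ur[j]` when `f` is a root of the modular unit `Δ(t)/Δ(t^d)`, `d ∣ M`. -/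
theorem ss_int (f : FN M) (u₀ : LaurentSeries ℤ)
    (hf : (f : LaurentSeries Kbar) = H65.intSer Kbar u₀)
    (n : ℕ) (hn : n ≠ 0) (hfn : f ^ n = unitF M d hd)
    (x y : ↥(L0 A N))
    (hx : ((x : FN N) : LaurentSeries Kbar) = H65.intSer Kbar u₀)
    (hy : ((y : FN N) : LaurentSeries Kbar) = H65.intSer Kbar (qExpand ℤ (q ^ e) u₀)) :
    IsIntegral ↥(Algebra.adjoin ↥(Kur A) ({j0 A N} : Set ↥(L0 A N))) x
      ∧ IsIntegral ↥(Algebra.adjoin ↥(Kur A) ({j0 A N} : Set ↥(L0 A N))) y := by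
  have hdN : d ∣ N := hN ▸ Dvd.dvd.mul_right hd (q ^ e)
  have hcN : d * q ^ e ∣ N := hN ▸ Nat.mul_dvd_mul hd (dvd_refl _)
  exact ⟨isIntegral_x_of_pow A d hd hdN f u₀ hf n hn hfn x hx,
    isIntegral_y_of_pow A d hd (q ^ e) hcN f u₀ hf n hn hfn y hy⟩

/-- **SS-INT** for `f = Δ(t)/Δ(t^d)` itself. -/
theorem ss_int_unitF (hN : N = M * q ^ e) (u₀ : LaurentSeries ℤ)
    (hf : ((unitF M d hd : FN M) : LaurentSeries Kbar) = H65.intSer Kbar u₀)
    (x y : ↥(L0 A N))
    (hx : ((x : FN N) : LaurentSeries Kbar) = H65.intSer Kbar u₀)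
    (hy : ((y : FN N) : LaurentSeries Kbar) = H65.intSer Kbar (qExpand ℤ (q ^ e) u₀)) :
    IsIntegral ↥(Algebra.adjoin ↥(Kur A) ({j0 A N} : Set ↥(L0 A N))) x
      ∧ IsIntegral ↥(Algebra.adjoin ↥(Kur A) ({j0 A N} : Set ↥(L0 A N))) y :=
  ss_int A N q M e hN d hd (unitF M d hd) u₀ hf 1 one_ne_zero (pow_one _) x y hx hy

end Level

end Fermat.Agent.S45.NUE.H12

end
end
-- ==== END Fermat.Agent.S45.NUE.H12_SSInt

-- ==== BEGIN Fermat.Agent.S45.NUE.H16_CoordFive
section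

/-!
# S45 / NU_e, leaf E-PT-SS, SS-ASM (helper16): COORD + POLE at level `M`, `q ≥ 5`

`coord_pole_five` : at every supersingular point `z` of the reduced curve of level `M` (`4 ∣ M`,
`q ≥ 5`, `q ∤ M`), for the coordinate `f = Δ(t)/Δ(t⁴)` (`u₀ = uZ4`): the reduction `ū` of `f` is
a local coordinate at `z` (`ord_z (ū - c) = 1`, `c ∈ 𝔽_{q²}`) and the reduction `δ̄` of
`(u₀^q - u₀(t^q)) / q` has a SIMPLE pole at `z`.  (S36 `H74.pole_ssM_five`, restated for `δ̄`
instead of `y₂ = - δ̄^q`: the input `hu hδ hord hc hδord` of `H16.hssE_mod`.)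
-/

set_option autoImplicit false
set_option synthInstance.maxHeartbeats 400000
set_option maxHeartbeats 1000000
set_option linter.unusedSectionVars false
set_option linter.style.haveILetI false

noncomputable section

namespace Fermat.Agent.S45.NUE.H16

open Fermat.Agent.S24 Fermat.Agent.BAD.H88 ModularCurve AlgebraicCurve
open Fermat.Agent.S28 Fermat.Agent.S28.H73 Fermat.Agent.RED.H73 Fermat.Agent.RED.H17
open Fermat.Agent.S36.NU.H88 Fermat.Agent.S36.NU.H23 Fermat.Agent.S36.NU.H73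
open Fermat.Agent.S36.NU.H41 Fermat.Agent.S36.NU.H65 Fermat.Agent.BAD
open Fermat.Agent.S36.NU.H74 Fermat.Agent.S36.NU

section Five

variable (A : ValuationSubring Kbar) (q M : ℕ) (hq : q.Prime)
  [NeZero M] [NeZero q] [NeZero (M * q)] (hqM : ¬ q ∣ M) (hA : A.LiesOverPrime q)

/-- A function `δ` with `ord_z (- δ ^ q) = - q` has a simple pole at `z`. -/
theorem ord_eq_neg_one_of_pow {k E : Type*} [Field k] [Field E] [Algebra k E] (z : Place k E)
    (q : ℕ) (hq : 0 < q) (δ : E) (h : z.ord (-δ ^ q) = -(q : ℤ)) : z.ord δ = -1 := by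
  rw [Fermat.Agent.RED.H51.ord_neg, Fermat.Agent.RED.H17.ord_pow] at h
  have hq' : (0 : ℤ) < (q : ℤ) := by exact_mod_cast hq
  nlinarith

include hq hqM hA in
/-- **COORD + POLE at the supersingular points of level `M`**, `q ≥ 5`, `4 ∣ M`, for `δ̄`. -/
theorem coord_pole_five (h5 : 5 ≤ q) (h4 : 4 ∣ M) {z : Place (kV A) (FM A M)}
    (hz : z ∈ ssM A q M) :
    ∃ (c : kV A) (u δ : FM A M),
      (u : LaurentSeries (kV A)) = coeffMap (Int.castRingHom (kV A)) uZ4 ∧
      (δ : LaurentSeries (kV A)) = coeffMap (Int.castRingHom (kV A)) (H65.kdel q uZ4) ∧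
      z.ord (u - algebraMap (kV A) (FM A M) c) = 1 ∧ c ^ q ^ 2 = c ∧ z.ord δ = -1 := by
  haveI : Fact q.Prime := ⟨hq⟩
  obtain ⟨c, u, y₂, hu, hy₂, hord, hc, hd⟩ := pole_ssM_five A q M hq hqM hA h5 h4 hz
  set δ : FM A M := ⟨coeffMap (Int.castRingHom (kV A)) (H65.kdel q uZ4),
    H44.dbar_mem_FM A q M hA hqM h4⟩ with hδ
  have e : y₂ = -δ ^ q := Subtype.ext hy₂
  refine ⟨c, u, δ, hu, rfl, hord, hc, ?_⟩
  rw [e] at hd
  exact ord_eq_neg_one_of_pow z q hq.pos δ hd

end Five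

end Fermat.Agent.S45.NUE.H16

end
end
-- ==== END Fermat.Agent.S45.NUE.H16_CoordFive
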