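-- GENERATED (merged mirror, NOTES/tools/trim/merge3_helper67.py): 7 modules of the originals, bodies verbatim.
import Fermat.Agent.Zm.S36_L05_000
import Fermat.Agent.Zm.S36_L16_000
import Fermat.Agent.Zm.S36_L03_000
import Fermat.Agent.Zm.S36_L09_000
import Fermat.Agent.Zm.S36_L01_002
import Fermat.Agent.Zm.S36_L10_000
import Fermat.Agent.Zm.S36_L13_000

-- ==== BEGIN Fermat.Agent.S45.NUE.H17_BranchModel
section

/-!
# S45 / NU_e, leaf E-PT-BR, abstract part (helper17): branches from a model of the component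

`C` a chart, `i` a component, `emb : κ i → E` an isomorphism of the residue field of the
component onto a field `E` (for `NU_e`: the function field of the good level in characteristic
`q`), `t ∈ E` with `E / k(t)` finite separable.  If the reduction of the chart function `j` is
integral over `k[t]` and every `y ∈ E` integral over `k[t]` is, locally at the closed point `𝔪`,
the reduction of an element of `B`, then the component `i` has a branch through `𝔪`.

* `emb_rdB_isIntegral` : the reductions of the elements of `B` are integral over `k[t]`;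
* `branch_of_model_local` : local form (lifts `rdB b = rdB g * y`, `g ∉ 𝔪`);
* `branch_of_model` : global form (lifts `rdB b = y`).
-/

set_option autoImplicit false
set_option linter.style.haveILetI false
set_option linter.unusedSectionVars false

noncomputable section

namespace Fermat.Agent.S45.NUE.H17

open Fermat.Agent.S36.NU.H16 Fermat.Agent.S36.NU.H61 Fermat.Agent.S36.NU.H24 IsDedekindDomain
  IntermediateField Polynomial

section Model

variable {R F k ι : Type*} {κ : ι → Type*} [CommRing R] [Field F] [Algebra R F]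
  [Field k] [∀ i, Field (κ i)] [∀ i, Algebra k (κ i)]

/-- The reductions of the elements of `B` are integral over `k[t]`, seen in a model `E` of the
residue field. -/
theorem emb_rdB_isIntegral (C : Chart R F k ι κ) (i : ι) (j : F)
    (hjB : j ∈ C.B) (hB : ∀ β : C.B, IsIntegral ↥(Algebra.adjoin R {j}) (β : F))
    {E : Type*} [Field E] [Algebra k E] (emb : κ i →ₐ[k] E) (hemb : Function.Surjective emb)
    (t : E) (hj : IsIntegral ↥(Algebra.adjoin k ({t} : Set E)) (emb (C.rdB i ⟨j, hjB⟩)))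
    (β : C.B) : IsIntegral ↥(Algebra.adjoin k ({t} : Set E)) (emb (C.rdB i β)) := by
  set ψ : κ i ≃ₐ[k] E := AlgEquiv.ofBijective emb ⟨emb.toRingHom.injective, hemb⟩ with hψ
  have hψe : ∀ x, ψ x = emb x := fun x => rfl
  have h1 : IsIntegral ↥(Algebra.adjoin k ({ψ.symm t} : Set (κ i))) (C.rdB i ⟨j, hjB⟩) := by
    have h := Fermat.Agent.S36.NU.H82.isIntegral_adjoin_map (ψ.symm : E →ₐ[k] κ i) t _ hj
    have e2 : (ψ.symm : E →ₐ[k] κ i) (emb (C.rdB i ⟨j, hjB⟩)) = C.rdB i ⟨j, hjB⟩ :=
      ψ.symm_apply_apply _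
    rw [e2] at h
    exact h
  have h2 : C.rdB i β ∈ integralClosure ↥(Algebra.adjoin k ({ψ.symm t} : Set (κ i))) (κ i) :=
    rdB_mem_intClosure C i j hjB hB (ψ.symm t) h1 β
  have h3 := Fermat.Agent.S36.NU.H82.isIntegral_adjoin_map emb (ψ.symm t) _ h2
  rw [← hψe (ψ.symm t), AlgEquiv.apply_symm_apply] at h3
  exact h3

/-- **Branches from local lifts in a model of the residue field.** -/
theorem branch_of_model_local [IsAlgClosed k] (C : Chart R F k ι κ) (i : ι) (j : F)
    (hjB : j ∈ C.B) (hB : ∀ β : C.B, IsIntegral ↥(Algebra.adjoin R {j}) (β : F))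
    {E : Type*} [Field E] [Algebra k E] (emb : κ i →ₐ[k] E) (hemb : Function.Surjective emb)
    (t : E) [FiniteDimensional ↥k⟮t⟯ E] [Algebra.IsSeparable ↥k⟮t⟯ E]
    (hj : IsIntegral ↥(Algebra.adjoin k ({t} : Set E)) (emb (C.rdB i ⟨j, hjB⟩)))
    (𝔪 : Ideal C.B) (hmax : 𝔪.IsMaximal) (h𝔪 : C.Icomp i ≤ 𝔪)
    (hlift : ∀ y : E, IsIntegral ↥(Algebra.adjoin k ({t} : Set E)) y →
      ∃ g b : C.B, g ∉ 𝔪 ∧ emb (C.rdB i b) = emb (C.rdB i g) * y) :
    Nonempty (Branch C 𝔪 i) := by
  haveI := isDedekindDomain_intClosure k t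
  haveI := isFractionRing_intClosure k t
  haveI := finiteType_intClosure k t
  set ψ : κ i ≃ₐ[k] E := AlgEquiv.ofBijective emb ⟨emb.toRingHom.injective, hemb⟩ with hψ
  have hψe : ∀ x, ψ x = emb x := fun x => rfl
  letI algA : Algebra ↥(integralClosure ↥(Algebra.adjoin k ({t} : Set E)) E) (κ i) :=
    ((ψ.symm : E →+* κ i).comp
      (algebraMap ↥(integralClosure ↥(Algebra.adjoin k ({t} : Set E)) E) E)).toAlgebra
  have halg : ∀ a : ↥(integralClosure ↥(Algebra.adjoin k ({t} : Set E)) E),
      algebraMap ↥(integralClosure ↥(Algebra.adjoin k ({t} : Set E)) E) (κ i) a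
        = ψ.symm (a : E) := fun a => rfl
  haveI : IsScalarTower k ↥(integralClosure ↥(Algebra.adjoin k ({t} : Set E)) E) (κ i) :=
    IsScalarTower.of_algebraMap_eq (fun c => by
      rw [halg]
      exact (ψ.symm.commutes c).symm)
  haveI : IsFractionRing ↥(integralClosure ↥(Algebra.adjoin k ({t} : Set E)) E) (κ i) :=
    IsLocalization.isLocalization_of_algEquiv
      (nonZeroDivisors ↥(integralClosure ↥(Algebra.adjoin k ({t} : Set E)) E))
      (AlgEquiv.ofRingEquiv (f := ψ.symm.toRingEquiv) (fun _ => rfl) :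
        E ≃ₐ[↥(integralClosure ↥(Algebra.adjoin k ({t} : Set E)) E)] κ i)
  let φ : C.B →+* ↥(integralClosure ↥(Algebra.adjoin k ({t} : Set E)) E) :=
    ((emb : κ i →+* E).comp (C.rdB i)).codRestrict
      (integralClosure ↥(Algebra.adjoin k ({t} : Set E)) E).toSubring
      (fun β => emb_rdB_isIntegral C i j hjB hB emb hemb t hj β)
  have hφ : ∀ β, ((φ β : ↥(integralClosure ↥(Algebra.adjoin k ({t} : Set E)) E)) : E)
      = emb (C.rdB i β) := fun β => rfl
  refine Fermat.Agent.S36.NU.H17.branch_of_dedekind_local C i φ (fun β => ?_) 𝔪 hmax h𝔪 ?_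
  · rw [halg, hφ, ← hψe, AlgEquiv.symm_apply_apply]
  · rintro ⟨y, hy⟩
    obtain ⟨g, b, hg, e⟩ := hlift y hy
    exact ⟨g, b, hg, Subtype.ext e⟩

/-- **Branches from global lifts in a model of the residue field.** -/
theorem branch_of_model [IsAlgClosed k] (C : Chart R F k ι κ) (i : ι) (j : F)
    (hjB : j ∈ C.B) (hB : ∀ β : C.B, IsIntegral ↥(Algebra.adjoin R {j}) (β : F))
    {E : Type*} [Field E] [Algebra k E] (emb : κ i →ₐ[k] E) (hemb : Function.Surjective emb)
    (t : E) [FiniteDimensional ↥k⟮t⟯ E] [Algebra.IsSeparable ↥k⟮t⟯ E]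
    (hj : IsIntegral ↥(Algebra.adjoin k ({t} : Set E)) (emb (C.rdB i ⟨j, hjB⟩)))
    (hlift : ∀ y : E, IsIntegral ↥(Algebra.adjoin k ({t} : Set E)) y →
      ∃ b : C.B, emb (C.rdB i b) = y)
    (𝔪 : Ideal C.B) (hmax : 𝔪.IsMaximal) (h𝔪 : C.Icomp i ≤ 𝔪) :
    Nonempty (Branch C 𝔪 i) := by
  refine branch_of_model_local C i j hjB hB emb hemb t hj 𝔪 hmax h𝔪 (fun y hy => ?_)
  obtain ⟨b, hb⟩ := hlift y hy
  refine ⟨1, b, fun h => hmax.ne_top ((Ideal.eq_top_iff_one 𝔪).2 h), ?_⟩
  rw [hb, map_one, map_one, one_mul]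

end Model

end Fermat.Agent.S45.NUE.H17

end
end
-- ==== END Fermat.Agent.S45.NUE.H17_BranchModel

-- ==== BEGIN Fermat.Agent.S45.NUE.H23_ResCount
section

/-!
# S45 / NU_e, package E-TOT, T2 (helper23): the residue fields from the degree count

Setting of `H42.NRData` (`E ⊆ L` finite, finitely many valuation rings `V i` of `L` over the
discrete valuation ring `VE` of `E`, residue fields `κ i` over `Et`).  Given subfields
`C i → κ i` (`ψ i`), with structure maps `φ i : Et → C i`, `ψ i ∘ φ i = algebraMap`, of degrees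
`f i = [C i : Et]` with `∑ e i f i = [L : E]`: every `ψ i` is surjective (`κ i = C i`).

(Modular: `V a`, `a = 0..e`, the valuations of the inertia-fixed functions of level `M' q^e`,
`C a = k(X₀(M'))` with `φ a = Fr^max(e - 2a, 0)`, `e a = φ(q^min(a, e - a))`.)
-/

set_option autoImplicit false
set_option linter.style.haveILetI false
set_option linter.unusedSectionVars false

noncomputable section

namespace Fermat.Agent.S45.NUE.H23

open Fermat.Agent.BAD

section ResCount

variable {E L Et : Type} [Field E] [Field L] [Field Et] [Algebra E L] [Module.Finite E L]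
  {ι : Type} [Fintype ι] [DecidableEq ι] {κ : ι → Type} [∀ i, Field (κ i)]
  [∀ i, Algebra Et (κ i)] (D : H42.NRData E L Et ι κ)
  {C : ι → Type} [∀ i, Field (C i)] (φ : ∀ i, Et →+* C i) (ψ : ∀ i, C i →+* κ i)
  (hψφ : ∀ i x, ψ i (φ i x) = algebraMap Et (κ i) x)

include D hψφ

/-- The degree of `κ i` over `Et` is the product of the degrees. -/
theorem finrank_res_eq (i : ι) :
    Module.finrank Et (κ i)
      = @Module.finrank Et (C i) _ _ (φ i).toAlgebra.toModule
        * @Module.finrank (C i) (κ i) _ _ (ψ i).toAlgebra.toModule := by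
  letI : Algebra Et (C i) := (φ i).toAlgebra
  letI : Algebra (C i) (κ i) := (ψ i).toAlgebra
  haveI : IsScalarTower Et (C i) (κ i) :=
    IsScalarTower.of_algebraMap_eq (fun x => (hψφ i x).symm)
  exact (Module.finrank_mul_finrank Et (C i) (κ i)).symm

/-- `κ i` is finite over `C i`. -/
theorem finite_res_over (i : ι) : @Module.Finite (C i) (κ i) _ _ (ψ i).toAlgebra.toModule := by
  letI : Algebra Et (C i) := (φ i).toAlgebra
  letI : Algebra (C i) (κ i) := (ψ i).toAlgebra
  haveI : IsScalarTower Et (C i) (κ i) :=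
    IsScalarTower.of_algebraMap_eq (fun x => (hψφ i x).symm)
  haveI : Module.Finite Et (κ i) := D.finite_res i
  exact Module.Finite.of_restrictScalars_finite Et (C i) (κ i)

theorem finrank_res_over_pos (i : ι) :
    0 < @Module.finrank (C i) (κ i) _ _ (ψ i).toAlgebra.toModule := by
  letI : Algebra (C i) (κ i) := (ψ i).toAlgebra
  haveI : Module.Finite (C i) (κ i) := finite_res_over D φ ψ hψφ i
  exact Module.finrank_pos

/-- **RES-COUNT**: if the degrees add up, `[κ i : C i] = 1`. -/
theorem finrank_eq_one_of_count (f : ι → ℕ)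
    (hf : ∀ i, @Module.finrank Et (C i) _ _ (φ i).toAlgebra.toModule = f i)
    (hf0 : ∀ i, 0 < f i) (hsum : ∑ i, D.e i * f i = Module.finrank E L) (i : ι) :
    @Module.finrank (C i) (κ i) _ _ (ψ i).toAlgebra.toModule = 1 := by
  have h := D.sum_le_finrank
  rw [← hsum] at h
  have hterm : ∀ j, D.e j * f j
      ≤ D.e j * Module.finrank Et (κ j) := by
    intro j
    rw [finrank_res_eq D φ ψ hψφ j, hf j]
    exact Nat.mul_le_mul_left _ (Nat.le_mul_of_pos_right _ (finrank_res_over_pos D φ ψ hψφ j))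
  by_contra hne
  have hi : 2 ≤ @Module.finrank (C i) (κ i) _ _ (ψ i).toAlgebra.toModule := by
    have := finrank_res_over_pos D φ ψ hψφ i
    omega
  have hlt : D.e i * f i < D.e i * Module.finrank Et (κ i) := by
    rw [finrank_res_eq D φ ψ hψφ i, hf i]
    have h1 : 0 < D.e i * f i := Nat.mul_pos (D.he i) (hf0 i)
    calc D.e i * f i < D.e i * f i * 2 := by omega
      _ ≤ D.e i * f i * @Module.finrank (C i) (κ i) _ _ (ψ i).toAlgebra.toModule :=
          Nat.mul_le_mul_left _ hi
      _ = D.e i * (f i * @Module.finrank (C i) (κ i) _ _ (ψ i).toAlgebra.toModule) :=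
          mul_assoc _ _ _
  have hs : ∑ j, D.e j * f j < ∑ j, D.e j * Module.finrank Et (κ j) :=
    Finset.sum_lt_sum (fun j _ => hterm j) ⟨i, Finset.mem_univ i, hlt⟩
  exact absurd h (not_le.mpr hs)

/-- **RES-COUNT**: if the degrees add up, the maps `C i → κ i` are surjective. -/
theorem surjective_of_count (f : ι → ℕ)
    (hf : ∀ i, @Module.finrank Et (C i) _ _ (φ i).toAlgebra.toModule = f i)
    (hf0 : ∀ i, 0 < f i) (hsum : ∑ i, D.e i * f i = Module.finrank E L) (i : ι) :
    Function.Surjective (ψ i) := by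
  letI : Algebra (C i) (κ i) := (ψ i).toAlgebra
  have h1 : Module.finrank (C i) (κ i) = 1 :=
    finrank_eq_one_of_count D φ ψ hψφ f hf hf0 hsum i
  haveI : Module.Finite (C i) (κ i) := finite_res_over D φ ψ hψφ i
  intro y
  have hb : (⊥ : Subalgebra (C i) (κ i)) = ⊤ := Subalgebra.bot_eq_top_of_finrank_eq_one h1
  have hy : y ∈ (⊥ : Subalgebra (C i) (κ i)) := by rw [hb]; trivial
  exact Algebra.mem_bot.mp hy

end ResCount

end Fermat.Agent.S45.NUE.H23

end
end
-- ==== END Fermat.Agent.S45.NUE.H23_ResCount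

-- ==== BEGIN Fermat.Agent.S45.NUE.H23_Val
section
attribute [local instance 10000] SubalgebraClass.toAlgebra
attribute [local instance 10000] HahnSeries.powerSeriesAlgebra

/-!
# S45 / NU_e, package E-VAL (helper23; spec helper62): Gauss valuations at a cusp with a
normalised expansion

`N` a level, `γ ∈ SL₂(ℤ)`, `n ≥ 1`.  `IsCuspExp N γ n`: the `u`-expansion (`u = t^(1/N)`) at the
cusp `γ⁻¹ ∞` of every generator `j (t^D)`, `D ∣ N`, is `(twist z j)(u^(n m))` for a root of unity
`z` (modular: `γ = gE a`, the cusp `1 / (q^a M')` of `X₀(M' q^e)`, `n = M' q^min(e, 2a)`).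

* `cG h : F_N →ₐ[ℚ̄] ℚ̄((s))`, the normalised expansion (`s = u^n`), `qExpand_cG`, `cG_eq_of`;
* `hasScale_cG` : its image has the scaling property;
* `VG A h : ValuationSubring (F_N)`, the Gauss valuation of the normalised expansion, its residue
  map `redG A h` (kernel, surjectivity, scaling, constants);
* `VGo A h : ValuationSubring (L0 A N)`, its restriction to the inertia-fixed functions, and
  `sG A h : VGo → k((s))` (`sG_mk`, kernel, constants).
-/

set_option autoImplicit false
set_option synthInstance.maxHeartbeats 400000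
set_option maxHeartbeats 1000000
set_option linter.style.haveILetI false
set_option linter.unusedSectionVars false

noncomputable section

open ModularCurve AlgebraicCurve
open Fermat.Agent.S24 Fermat.Agent.BAD.H88 Fermat.Agent.S28 Fermat.Agent.S28.H73
open Fermat.Agent.RED.H73 Fermat.Agent.RED.H17 Fermat.Agent.S36.NU.H88
open Fermat.Agent.S36.NU.H23
open scoped MatrixGroups

namespace Fermat.Agent.S45.NUE.H23

/-! ## Generalities on twists -/

/-- A root of unity of `ℚ̄` has an `m`-th root which is a root of unity. -/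
theorem exists_root_of_unity (m : ℕ) (hm : 0 < m) (z : Kbar) (r : ℕ)
    (hz : z ^ r = 1) : ∃ w : Kbar, w ^ m = z ∧ w ^ (m * r) = 1 := by
  obtain ⟨w, hw⟩ := IsAlgClosed.exists_pow_nat_eq z hm
  exact ⟨w, hw, by rw [pow_mul, hw, hz]⟩

/-- `(twist z j)(s^m)` lies in `IntSpan` for a root of unity `z`. -/
theorem qExpand_twist_jBar_mem_intSpan (m : ℕ) [NeZero m] (z : Kbar) (r : ℕ) (hr : 0 < r)
    (hz : z ^ r = 1) : qExpand Kbar m (twist z jBar) ∈ IntSpan Kbar := by
  have hm : 0 < m := Nat.pos_of_ne_zero (NeZero.ne m)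
  obtain ⟨w, hw, hw1⟩ := exists_root_of_unity m hm z r hz
  have e : qExpand Kbar m (twist z jBar) = twist w (qExpand Kbar m jBar) := by
    rw [twist_qExpand, zpow_natCast, hw]
  rw [e]
  exact twist_mem_intSpan (Nat.mul_pos hm hr) hw1 (qExpand_jBar_mem_intSeries m)

/-! ## Cusps with a normalised expansion -/

/-- The `u`-expansions at the cusp `γ⁻¹ ∞` of the generators of `F_N` are twists of `j` by roots
of unity, in the variable `u ^ (n m)`. -/
def IsCuspExp (N : ℕ) [NeZero N] (γ : SL(2, ℤ)) (n : ℕ) [NeZero n] : Prop :=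
  ∀ (D : ℕ) (_ : NeZero D) (hD : D ∣ N), ∃ (m : ℕ) (_ : NeZero m) (r : ℕ) (z : Kbar),
    0 < r ∧ z ^ r = 1 ∧
    cuspU N γ (jdF N D hD) = qExpand Kbar n (qExpand Kbar m (twist z jBar))

section Generic

variable {N : ℕ} [NeZero N] {γ : SL(2, ℤ)} {n : ℕ} [NeZero n] (h : IsCuspExp N γ n)

include h

/-- The `u`-expansions at the cusp are series in `u ^ n`. -/
theorem cuspU_mem_range (x : FN N) : cuspU N γ x ∈ (qExpandAlgHomC Kbar n).range := by
  have hx : x ∈ IntermediateField.adjoin Kbar
      {x : FN N | ∃ (d : ℕ) (_ : NeZero d) (hd : d ∣ N), x = jdF N d hd} := by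
    rw [adjoin_jdF]; exact IntermediateField.mem_top
  induction hx using IntermediateField.adjoin_induction with
  | mem y hy =>
    obtain ⟨D, hD0, hD, rfl⟩ := hy
    obtain ⟨m, hm, r, z, -, -, e⟩ := h D hD0 hD
    exact ⟨_, e.symm⟩
  | algebraMap c =>
    rw [AlgHom.commutes]
    exact Subalgebra.algebraMap_mem _ c
  | add y z _ _ hy hz =>
    rw [map_add]; exact add_mem hy hz
  | inv y _ hy =>
    rw [map_inv₀]
    obtain ⟨t, ht⟩ := hy
    exact ⟨t⁻¹, by rw [map_inv₀]; exact congrArg _ ht⟩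
  | mul y z _ _ hy hz =>
    rw [map_mul]; exact mul_mem hy hz

/-- **The normalised expansion at the cusp `γ⁻¹ ∞`.** -/
def cG : FN N →ₐ[Kbar] LaurentSeries Kbar :=
  ((AlgEquiv.ofInjective (qExpandAlgHomC Kbar n) (qExpandAlgHomC_injective n)).symm.toAlgHom).comp
    ((cuspU N γ).codRestrict (qExpandAlgHomC Kbar n).range (cuspU_mem_range h))

theorem qExpand_cG (x : FN N) : qExpand Kbar n (cG h x) = cuspU N γ x := by
  have h' := (AlgEquiv.ofInjective (qExpandAlgHomC Kbar n)
    (qExpandAlgHomC_injective n)).apply_symm_apply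
    (((cuspU N γ).codRestrict (qExpandAlgHomC Kbar n).range (cuspU_mem_range h)) x)
  exact congrArg Subtype.val h'

theorem cG_injective : Function.Injective (cG h) := (cG h).toRingHom.injective

/-- The normalised expansion from the `u`-expansion. -/
theorem cG_eq_of (x : FN N) (y : LaurentSeries Kbar) (hxy : cuspU N γ x = qExpand Kbar n y) :
    cG h x = y := by
  apply qExpand_injective n
  rw [qExpand_cG, hxy]

/-- The values of `cG` lie in the field generated by `IntSpan`. -/
theorem cG_mem_adjoin_intSpan (x : FN N) :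
    cG h x ∈ IntermediateField.adjoin Kbar (IntSpan Kbar : Set (LaurentSeries Kbar)) := by
  have hx : x ∈ IntermediateField.adjoin Kbar
      {x : FN N | ∃ (d : ℕ) (_ : NeZero d) (hd : d ∣ N), x = jdF N d hd} := by
    rw [adjoin_jdF]; exact IntermediateField.mem_top
  induction hx using IntermediateField.adjoin_induction with
  | mem y hy =>
    obtain ⟨D, hD0, hD, rfl⟩ := hy
    apply IntermediateField.subset_adjoin
    obtain ⟨m, hm, r, z, hr, hz, e⟩ := h D hD0 hD
    rw [cG_eq_of h _ _ e]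
    exact qExpand_twist_jBar_mem_intSpan m z r hr hz
  | algebraMap c =>
    rw [AlgHom.commutes]
    exact IntermediateField.algebraMap_mem _ c
  | add y z _ _ hy hz =>
    rw [map_add]; exact add_mem hy hz
  | inv y _ hy =>
    rw [map_inv₀]; exact inv_mem hy
  | mul y z _ _ hy hz =>
    rw [map_mul]; exact mul_mem hy hz

/-- The image of `cG` has the scaling property. -/
theorem hasScale_cG (A : ValuationSubring Kbar) : HasScale A (cG h).fieldRange := by
  refine HasScale.mono A (hasScale_adjoin A (le_refl _)) ?_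
  rintro y ⟨x, rfl⟩
  exact cG_mem_adjoin_intSpan h x

/-! ## The Gauss valuation at the cusp -/

variable (A : ValuationSubring Kbar)

/-- The image of the normalised expansion. -/
abbrev FG : IntermediateField Kbar (LaurentSeries Kbar) := (cG h).fieldRange

/-- `F_N ≃ cG F_N`. -/
abbrev eG : FN N ≃ₐ[Kbar] ↥(FG h) := (cG h).equivFieldRange

theorem coe_eG (x : FN N) : ((eG h x : ↥(FG h)) : LaurentSeries Kbar) = cG h x := rfl

/-- **The Gauss valuation of the normalised expansion at the cusp `γ⁻¹ ∞`.** -/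
def VG : ValuationSubring (FN N) :=
  comapVE (gaussValSub A (FG h) (hasScale_cG h A)) (eG h)

theorem mem_VG_iff (x : FN N) : x ∈ VG h A ↔ cG h x ∈ gaussRingV A := Iff.rfl

/-- The residue field of `VG`, inside `k((s))`. -/
abbrev RG : Type := ↥(redField A (FG h) (hasScale_cG h A))

/-- The residue map of `VG`. -/
def redG : ↥(VG h A) →+* RG h A :=
  comapRedE _ (gaussResF' A (hasScale_cG h A)) (eG h)

theorem coe_redG (x : FN N) (hx : x ∈ VG h A) :
    ((redG h A ⟨x, hx⟩ : RG h A) : LaurentSeries (kV A)) = gaussRedV A ⟨cG h x, hx⟩ := rfl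

theorem redG_eq_zero_iff (u : ↥(VG h A)) :
    redG h A u = 0 ↔ u ∈ IsLocalRing.maximalIdeal ↥(VG h A) :=
  comapRedE_eq_zero_iff _ _ _ (gaussResF'_eq_zero_iff A (hasScale_cG h A)) u

theorem redG_surjective : Function.Surjective (redG h A) :=
  comapRedE_surjective _ _ _ (gaussResF'_surjective A (hasScale_cG h A))

theorem exists_scaleG (f : FN N) (hf : f ≠ 0) :
    ∃ c : Kbar, c ≠ 0 ∧ ∃ hm : algebraMap Kbar (FN N) c * f ∈ VG h A,
      redG h A ⟨_, hm⟩ ≠ 0 :=
  comapE_exists_scale _ _ _ (gauss_exists_scale A (hasScale_cG h A)) f hf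

theorem const_memG (c : Kbar) : algebraMap Kbar (FN N) c ∈ VG h A ↔ c ∈ A :=
  (comapE_const_mem _ _ c).trans (algebraMap_mem_gaussValSub_iff A (hasScale_cG h A) c)

theorem redG_const (c : ↥A) (hc : algebraMap Kbar (FN N) (c : Kbar) ∈ VG h A) :
    redG h A ⟨_, hc⟩ = algebraMap (kV A) (RG h A) (resV A c) := by
  have h₁ : algebraMap Kbar ↥(FG h) (c : Kbar) ∈ gaussValSub A (FG h) (hasScale_cG h A) :=
    (algebraMap_mem_gaussValSub_iff A _ _).mpr c.2
  exact (comapE_const_red _ (gaussResF' A (hasScale_cG h A)) (eG h) (c : Kbar) h₁ hc).trans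
    (gaussResF'_algebraMap A (hasScale_cG h A) c h₁)

/-! ## Restriction to the inertia-fixed functions -/

/-- `VG` on `L0 A N`. -/
def VGo : ValuationSubring ↥(L0 A N) := resV0 (L0 A N) (VG h A)

theorem mem_VGo_iff (x : ↥(L0 A N)) : x ∈ VGo h A ↔ cG h (x : FN N) ∈ gaussRingV A := Iff.rfl

/-- The residue map of `VGo`, with values in `k((s))`. -/
def sG : ↥(VGo h A) →+* LaurentSeries (kV A) :=
  (IntermediateField.val _).toRingHom.comp (resRed (L0 A N) (VG h A) (redG h A))

theorem sG_mk (x : ↥(L0 A N)) (hx : x ∈ VGo h A) :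
    sG h A ⟨x, hx⟩ = gaussRedV A ⟨cG h (x : FN N), hx⟩ := rfl

theorem sG_eq_zero_of_not_isUnit (x : ↥(VGo h A)) (hx : ¬ IsUnit x) : sG h A x = 0 := by
  have h' := resRed_eq_zero_of_not_isUnit (L0 A N) (VG h A) (redG h A)
    (redG_eq_zero_iff h A) x hx
  show ((resRed (L0 A N) (VG h A) (redG h A) x : RG h A) : LaurentSeries (kV A)) = 0
  rw [h']; rfl

end Generic

end Fermat.Agent.S45.NUE.H23

end
end
-- ==== END Fermat.Agent.S45.NUE.H23_Val

-- ==== BEGIN Fermat.Agent.S45.NUE.H33_UniqPI
section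

/-!
# S45 / NU_e, package E-NORM (helper33): NORM-RED for a unique extension with purely inseparable
residue extension (UNIQ-PI)

`L / E` finite, `V` a valuation ring of `E`, `W` the ONLY valuation ring `≠ L` of `L` above `V`
(`V = W ∩ E`).  No uniformiser, no discreteness, no ramification index, no residue degree:

* `minpoly_map_residue` : if `h ∈ W` is congruent to `c ∈ V` modulo the maximal ideal of `W`,
  then the minimal polynomial of `h` over `V` reduces to `(X - c̄) ^ m` (lying over for the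
  integral extension `V[X] → W`, `W` local);
* `norm_eq_coeff_pow` : `N_{L/E} h = ((-1) ^ m · μ_h (0)) ^ [L : E(h)]`;
* `norm_near` : `h ≡ c` modulo the maximal ideal of `W` ⟹ `N h ≡ c ^ [L : E]` modulo the maximal
  ideal of `V`;
* `red_norm_of_unique_pi` (**UNIQ-PI**) : for a residue map `r : W → Ω` (`Ω` a field of
  characteristic `p`) such that every `r x ^ p` is the residue of an element of `V` (the residue
  extension is trivial or purely inseparable of exponent one): `r (N h) = r (h) ^ [L : E]`.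

Modular use (levels `M' q ^ e ⊂ M' q ^ (e + 1)`): all the single components along `α` and `β`,
of both shapes (wild: `e = q`, `f = 1`; inseparable: `e = 1`, `f = q`).
-/

set_option autoImplicit false
set_option linter.style.haveILetI false
set_option linter.unusedSectionVars false

noncomputable section

namespace Fermat.Agent.S45.NUE.H33

open Polynomial IntermediateField

section Abs

variable {E L : Type} [Field E] [Field L] [Algebra E L]
  (V : ValuationSubring E) (W : ValuationSubring L)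

/-- The inclusion `V → W`. -/
def incVW (hVW : ∀ a : E, a ∈ V → algebraMap E L a ∈ W) : ↥V →+* ↥W where
  toFun a := ⟨algebraMap E L (a : E), hVW a a.2⟩
  map_one' := Subtype.ext (map_one _)
  map_mul' _ _ := Subtype.ext (map_mul _ _ _)
  map_zero' := Subtype.ext (map_zero _)
  map_add' _ _ := Subtype.ext (map_add _ _ _)

theorem coe_incVW (hVW : ∀ a : E, a ∈ V → algebraMap E L a ∈ W) (a : ↥V) :
    ((incVW V W hVW a : ↥W) : L) = algebraMap E L (a : E) := rfl

theorem subtype_comp_incVW (hVW : ∀ a : E, a ∈ V → algebraMap E L a ∈ W) :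
    W.subtype.comp (incVW V W hVW) = algebraMap ↥V L := by
  ext a
  rfl

/-- `W` is integral over `V`, for a unique extension. -/
theorem incVW_isIntegral (hVW : ∀ a : E, a ∈ V → algebraMap E L a ∈ W)
    (huniq : ∀ W' : ValuationSubring L, (∀ a : E, a ∈ V → algebraMap E L a ∈ W') → W' ≠ ⊤ →
      W' = W) : (incVW V W hVW).IsIntegral := by
  intro w
  obtain ⟨p, hp, hpw⟩ := Fermat.Agent.S36.NU.H51.isIntegral_of_unique V W huniq (w : L) w.2
  refine ⟨p, hp, ?_⟩
  apply Subtype.ext
  have h1 := Polynomial.hom_eval₂ p (incVW V W hVW) W.subtype w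
  rw [subtype_comp_incVW] at h1
  exact h1.trans hpw

/-- **The minimal polynomial of an element congruent to `c ∈ V`** reduces to a power of
`X - c̄`, for a unique extension. -/
theorem minpoly_map_residue (hVW : ∀ a : E, a ∈ V → algebraMap E L a ∈ W)
    (huniq : ∀ W' : ValuationSubring L, (∀ a : E, a ∈ V → algebraMap E L a ∈ W') → W' ≠ ⊤ →
      W' = W) (h : L) (hh : h ∈ W) (c : ↥V)
    (hc : W.valuation (h - algebraMap E L (c : E)) < 1) :
    (minpoly ↥V h).map (IsLocalRing.residue ↥V)
      = (X - C (IsLocalRing.residue ↥V c)) ^ (minpoly ↥V h).natDegree := by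
  classical
  have hint : IsIntegral ↥V h := Fermat.Agent.S36.NU.H51.isIntegral_of_unique V W huniq h hh
  have hιint := incVW_isIntegral V W hVW huniq
  set ι : ↥V →+* ↥W := incVW V W hVW with hι
  set ev : (↥V)[X] →+* ↥W := Polynomial.eval₂RingHom ι ⟨h, hh⟩ with hev
  have hevC : ∀ a : ↥V, ev (C a) = ι a := fun a => by
    rw [hev, Polynomial.coe_eval₂RingHom, Polynomial.eval₂_C]
  have hevX : ev X = ⟨h, hh⟩ := by
    rw [hev, Polynomial.coe_eval₂RingHom, Polynomial.eval₂_X]
  have hevcomp : ev.comp C = ι := RingHom.ext hevC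
  have hevint : ev.IsIntegral :=
    RingHom.IsIntegral.tower_top C ev (by rw [hevcomp]; exact hιint)
  set 𝔪 : Ideal ↥V := IsLocalRing.maximalIdeal ↥V with h𝔪
  set 𝔞 : Ideal (↥V)[X] := Ideal.map C 𝔪 ⊔ RingHom.ker ev with h𝔞
  have hrad : X - C c ∈ 𝔞.radical := by
    rw [Ideal.radical_eq_sInf, Ideal.mem_sInf]
    rintro 𝔭 ⟨hle, h𝔭⟩
    letI : Algebra (↥V)[X] ↥W := ev.toAlgebra
    haveI : Algebra.IsIntegral (↥V)[X] ↥W := ⟨hevint⟩
    haveI := h𝔭
    obtain ⟨𝔔, h𝔔, hcomap⟩ := Ideal.exists_ideal_over_prime_of_isIntegral_of_isDomain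
      (S := ↥W) 𝔭 (le_sup_right.trans hle)
    have hcomap' : Ideal.comap ev 𝔔 = 𝔭 := hcomap
    have hcomapV : Ideal.comap ι 𝔔 = 𝔪 := by
      have h1 : 𝔪 ≤ Ideal.comap ι 𝔔 := by
        intro a ha
        have h2 : C a ∈ 𝔭 := hle (Ideal.mem_sup_left (Ideal.mem_map_of_mem C ha))
        rw [← hcomap', Ideal.mem_comap, hevC] at h2
        exact h2
      have h2 : Ideal.comap ι 𝔔 ≠ ⊤ := Ideal.comap_ne_top ι h𝔔.ne_top
      exact ((IsLocalRing.maximalIdeal.isMaximal ↥V).eq_of_le h2 h1).symm
    have hmax : 𝔔.IsMaximal :=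
      Ideal.isMaximal_of_isIntegral_of_isMaximal_comap' ι hιint 𝔔
        (by rw [hcomapV]; exact IsLocalRing.maximalIdeal.isMaximal ↥V)
    have h𝔔eq : 𝔔 = IsLocalRing.maximalIdeal ↥W := IsLocalRing.eq_maximalIdeal hmax
    have ht : ((⟨h, hh⟩ : ↥W) - ι c) ∈ 𝔔 := by
      rw [h𝔔eq, ValuationSubring.valuation_lt_one_iff]
      exact hc
    rw [← hcomap', Ideal.mem_comap, map_sub, hevX, hevC]
    exact ht
  obtain ⟨n, hn⟩ := hrad
  obtain ⟨Q, hQ, G, hG, hsum⟩ := Submodule.mem_sup.1 hn
  have hG0 : Polynomial.aeval h G = 0 := by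
    have h1 : ev G = 0 := hG
    have h2 := Polynomial.hom_eval₂ G ι W.subtype ⟨h, hh⟩
    rw [subtype_comp_incVW] at h2
    rw [Polynomial.aeval_def]
    refine Eq.trans h2.symm ?_
    have h3 : Polynomial.eval₂ ι ⟨h, hh⟩ G = ev G := rfl
    rw [h3, h1, map_zero]
  have hdvd : minpoly ↥V h ∣ G := minpoly.isIntegrallyClosed_dvd hint hG0
  have hQ0 : Q.map (IsLocalRing.residue ↥V) = 0 := by
    ext i
    rw [coeff_map, coeff_zero, IsLocalRing.residue_eq_zero_iff]
    exact Ideal.mem_map_C_iff.1 hQ i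
  have hpow : ((X - C c) ^ n).map (IsLocalRing.residue ↥V)
      = G.map (IsLocalRing.residue ↥V) := by
    rw [← hsum, Polynomial.map_add, hQ0, zero_add]
  have hdvd' : (minpoly ↥V h).map (IsLocalRing.residue ↥V)
      ∣ (X - C (IsLocalRing.residue ↥V c)) ^ n := by
    have h1 := Polynomial.map_dvd (IsLocalRing.residue ↥V) hdvd
    rw [← hpow, Polynomial.map_pow, Polynomial.map_sub, Polynomial.map_X, Polynomial.map_C]
      at h1
    exact h1
  obtain ⟨i, -, hi⟩ := (dvd_prime_pow (Polynomial.prime_X_sub_C _) n).1 hdvd'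
  have hmon : ((minpoly ↥V h).map (IsLocalRing.residue ↥V)).Monic := (minpoly.monic hint).map _
  have heq := Polynomial.eq_of_monic_of_associated hmon ((monic_X_sub_C _).pow i) hi
  have hdeg : i = (minpoly ↥V h).natDegree := by
    have h1 := congrArg natDegree heq
    rw [(minpoly.monic hint).natDegree_map, natDegree_pow, natDegree_X_sub_C, mul_one] at h1
    exact h1.symm
  rw [heq, hdeg]

end Abs

section Norm

variable {E L : Type} [Field E] [Field L] [Algebra E L] [Module.Finite E L]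
  (V : ValuationSubring E) (W : ValuationSubring L)

/-- The norm from the constant coefficient of the minimal polynomial over `V`. -/
theorem norm_eq_coeff_pow (h : L) (hint : IsIntegral ↥V h) :
    Algebra.norm E h
      = (((-1) ^ (minpoly ↥V h).natDegree * (minpoly ↥V h).coeff 0 : ↥V) : E)
        ^ Module.finrank E⟮h⟯ L := by
  have hintE : IsIntegral E h := IsIntegral.of_finite E h
  have hmin : minpoly E h = (minpoly ↥V h).map (algebraMap ↥V E) :=
    minpoly.isIntegrallyClosed_eq_field_fractions' E hint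
  rw [Algebra.norm_eq_norm_adjoin E h]
  congr 1
  have h1 := Algebra.PowerBasis.norm_gen_eq_coeff_zero_minpoly (adjoin.powerBasis hintE)
  rw [adjoin.powerBasis_gen, adjoin.powerBasis_dim, minpoly_gen, hmin, coeff_map,
    (minpoly.monic hint).natDegree_map] at h1
  rw [h1]
  push_cast
  rfl

/-- `[E(h) : E] [L : E(h)] = [L : E]`, with the degree of the minimal polynomial over `V`. -/
theorem natDegree_mul_finrank (h : L) (hint : IsIntegral ↥V h) :
    (minpoly ↥V h).natDegree * Module.finrank E⟮h⟯ L = Module.finrank E L := by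
  have hintE : IsIntegral E h := IsIntegral.of_finite E h
  have hmin : minpoly E h = (minpoly ↥V h).map (algebraMap ↥V E) :=
    minpoly.isIntegrallyClosed_eq_field_fractions' E hint
  rw [← Module.finrank_mul_finrank E E⟮h⟯ L, adjoin.finrank hintE, hmin,
    (minpoly.monic hint).natDegree_map]

/-- **NORM-RED for a unique extension, near an element of `V`**: if `h ≡ c` modulo the maximal
ideal of `W`, `c ∈ V`, then `N h ≡ c ^ [L : E]` modulo the maximal ideal of `V`. -/
theorem norm_near (hVW : ∀ a : E, a ∈ V → algebraMap E L a ∈ W)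
    (huniq : ∀ W' : ValuationSubring L, (∀ a : E, a ∈ V → algebraMap E L a ∈ W') → W' ≠ ⊤ →
      W' = W) (h : L) (hh : h ∈ W) (c : ↥V)
    (hc : W.valuation (h - algebraMap E L (c : E)) < 1) :
    ∃ y : ↥V, Algebra.norm E h = (y : E) ∧
      IsLocalRing.residue ↥V y = IsLocalRing.residue ↥V c ^ Module.finrank E L := by
  have hint : IsIntegral ↥V h := Fermat.Agent.S36.NU.H51.isIntegral_of_unique V W huniq h hh
  refine ⟨((-1) ^ (minpoly ↥V h).natDegree * (minpoly ↥V h).coeff 0) ^ Module.finrank E⟮h⟯ L,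
    ?_, ?_⟩
  · rw [norm_eq_coeff_pow V h hint]
    rfl
  · have h1 := minpoly_map_residue V W hVW huniq h hh c hc
    have h2 : IsLocalRing.residue ↥V ((minpoly ↥V h).coeff 0)
        = (-(IsLocalRing.residue ↥V c)) ^ (minpoly ↥V h).natDegree := by
      rw [← coeff_map, h1, coeff_zero_eq_eval_zero, eval_pow, eval_sub, eval_X, eval_C,
        zero_sub]
    rw [map_pow, map_mul, map_pow, map_neg, map_one, h2, ← mul_pow, neg_one_mul, neg_neg,
      ← pow_mul, natDegree_mul_finrank V h hint]

/-- **UNIQ-PI: NORM-RED for a unique extension with trivial or purely inseparable residue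
extension.**  `W` the only valuation ring `≠ L` of `L` above `V = W ∩ E`, `r : W → Ω` a ring
homomorphism into a field of characteristic exponent `p` which vanishes on the non-units, such
that `r x ^ p` is the image of an element of `V` for every `x ∈ W`.  Then
`r (N h) = r (h) ^ [L : E]` for all `h ∈ W`. -/
theorem red_norm_of_unique_pi (hV : ∀ a : E, a ∈ V ↔ algebraMap E L a ∈ W)
    (huniq : ∀ W' : ValuationSubring L, (∀ a : E, a ∈ V → algebraMap E L a ∈ W') → W' ≠ ⊤ →
      W' = W) {Ω : Type*} [Field Ω] (p : ℕ) [ExpChar Ω p] (r : ↥W →+* Ω)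
    (hker : ∀ x : ↥W, ¬ IsUnit x → r x = 0)
    (hpi : ∀ x : ↥W, ∃ y : ↥V, r x ^ p = r (incVW V W (fun a ha => (hV a).1 ha) y))
    (h : L) (hh : h ∈ W) :
    ∃ hN : algebraMap E L (Algebra.norm E h) ∈ W,
      r ⟨_, hN⟩ = r ⟨h, hh⟩ ^ Module.finrank E L := by
  have hVW : ∀ a : E, a ∈ V → algebraMap E L a ∈ W := fun a ha => (hV a).1 ha
  set ι : ↥V →+* ↥W := incVW V W hVW with hι
  have hN0 : Algebra.norm E h ∈ V :=
    Fermat.Agent.S36.NU.H51.norm_mem_of_unique V W huniq h hh
  -- `r ∘ ι` kills the maximal ideal of `V`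
  have hnu : ∀ a : ↥V, a ∈ IsLocalRing.maximalIdeal ↥V → r (ι a) = 0 := by
    intro a ha
    apply hker
    intro hu
    rw [ValuationSubring.valuation_eq_one_iff] at hu
    have hu' : W.valuation (algebraMap E L (a : E)) = 1 := hu
    by_cases ha0 : (a : E) = 0
    · rw [ha0, map_zero, map_zero] at hu'
      exact zero_ne_one hu'
    · have h1 : (algebraMap E L (a : E))⁻¹ ∈ W := by
        rw [← ValuationSubring.valuation_le_one_iff, map_inv₀, hu', inv_one]
      rw [← map_inv₀, ← hV] at h1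
      have h2 : IsUnit a := by
        refine IsUnit.of_mul_eq_one (⟨(a : E)⁻¹, h1⟩ : ↥V) ?_
        apply Subtype.ext
        show (a : E) * (a : E)⁻¹ = 1
        exact mul_inv_cancel₀ ha0
      exact ha h2
  have hres : ∀ a b : ↥V, IsLocalRing.residue ↥V a = IsLocalRing.residue ↥V b →
      r (ι a) = r (ι b) := by
    intro a b hab
    have h1 : a - b ∈ IsLocalRing.maximalIdeal ↥V := by
      rw [← IsLocalRing.residue_eq_zero_iff, map_sub, hab, sub_self]
    have h2 := hnu _ h1
    rw [map_sub, map_sub, sub_eq_zero] at h2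
    exact h2
  obtain ⟨y, hy⟩ := hpi ⟨h, hh⟩
  -- `h ^ p ≡ y`
  have hc : W.valuation (h ^ p - algebraMap E L (y : E)) < 1 := by
    have h1 : r ((⟨h, hh⟩ : ↥W) ^ p - ι y) = 0 := by
      rw [map_sub, map_pow, hy, sub_self]
    have h2 : ¬ IsUnit ((⟨h, hh⟩ : ↥W) ^ p - ι y) := fun hu => (hu.map r).ne_zero h1
    have h3 : ((⟨h, hh⟩ : ↥W) ^ p - ι y) ∈ IsLocalRing.maximalIdeal ↥W := h2
    rw [ValuationSubring.valuation_lt_one_iff] at h3
    exact h3
  obtain ⟨y', hy'1, hy'2⟩ := norm_near V W hVW huniq (h ^ p) (pow_mem hh p) y hc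
  set z : ↥V := ⟨Algebra.norm E h, hN0⟩ with hz
  have hzp : z ^ p = y' := by
    apply Subtype.ext
    show (Algebra.norm E h) ^ p = (y' : E)
    rw [← map_pow, hy'1]
  refine ⟨hVW _ hN0, ?_⟩
  have h1 : r (ι z) ^ p = (r ⟨h, hh⟩ ^ Module.finrank E L) ^ p := by
    rw [← map_pow, ← map_pow, hzp, hres y' (y ^ Module.finrank E L) (by rw [hy'2, map_pow]),
      map_pow, map_pow, ← hy, ← pow_mul, ← pow_mul, mul_comm]
  exact frobenius_inj Ω p h1

end Norm

section Cover

variable {E L : Type} [Field E] [Field L] [Algebra E L]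
  (V : ValuationSubring E) {ι : Type*} (Ws : ι → ValuationSubring L)

/-- The elements of `⋂ Ws i` are integral over `V`, if the `Ws i` are the only valuation rings
`≠ L` containing `V`. -/
theorem isIntegral_of_cover
    (hcov : ∀ W' : ValuationSubring L, (∀ a : E, a ∈ V → algebraMap E L a ∈ W') → W' ≠ ⊤ →
      ∃ i, W' = Ws i) (u : L) (hu : ∀ i, u ∈ Ws i) : IsIntegral ↥V u := by
  set s : Set L := Set.range (fun a : ↥V => algebraMap E L (a : E)) with hs
  have h1 : u ∈ (⨅ V' : {V' : ValuationSubring L // s ⊆ V'.toSubring}, V'.1.toSubring) := by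
    rw [Subring.mem_iInf]
    rintro ⟨W', hW'⟩
    by_cases htop : W' = ⊤
    · show u ∈ W'
      rw [htop]; trivial
    · obtain ⟨i, e⟩ := hcov W' (fun a ha => hW' ⟨⟨a, ha⟩, rfl⟩) htop
      show u ∈ W'
      rw [e]; exact hu i
  rw [iInf_valuationSubring_superset] at h1
  have h2 : IsIntegral ↥(Subring.closure s) u := h1
  obtain ⟨p, hp, hpu⟩ := h2
  let f : ↥V →+* L := (algebraMap E L).comp V.subtype
  have hcl : Subring.closure s = f.range := by
    apply le_antisymm
    · rw [Subring.closure_le]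
      rintro _ ⟨a, rfl⟩
      exact ⟨a, rfl⟩
    · rintro _ ⟨a, rfl⟩
      exact Subring.subset_closure ⟨a, rfl⟩
  have hlift : p.map (Subring.closure s).subtype ∈ Polynomial.lifts f := by
    rw [Polynomial.lifts_iff_coeff_lifts]
    intro n
    rw [Polynomial.coeff_map]
    have : ((p.coeff n : ↥(Subring.closure s)) : L) ∈ f.range := by
      rw [← hcl]; exact (p.coeff n).2
    exact this
  have hmon : (p.map (Subring.closure s).subtype).Monic := hp.map _
  obtain ⟨r, hr, -, hrm⟩ := Polynomial.lifts_and_degree_eq_and_monic hlift hmon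
  refine ⟨r, hrm, ?_⟩
  have h3 : Polynomial.eval₂ f u r = Polynomial.eval₂ (Subring.closure s).subtype u p := by
    rw [← Polynomial.eval_map, hr, Polynomial.eval_map]
  have h4 : Polynomial.eval₂ (algebraMap ↥V L) u r = Polynomial.eval₂ f u r := rfl
  rw [h4, h3]
  exact hpu

variable [Module.Finite E L]

/-- The norm maps `⋂ Ws i` into `V`. -/
theorem norm_mem_of_cover
    (hcov : ∀ W' : ValuationSubring L, (∀ a : E, a ∈ V → algebraMap E L a ∈ W') → W' ≠ ⊤ →
      ∃ i, W' = Ws i) (u : L) (hu : ∀ i, u ∈ Ws i) : Algebra.norm E u ∈ V := by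
  have h1 : IsIntegral ↥V u := isIntegral_of_cover V Ws hcov u hu
  have h2 : IsIntegral ↥V (Algebra.norm E u) := Algebra.isIntegral_norm E h1
  obtain ⟨y, hy⟩ := (IsIntegrallyClosed.isIntegral_iff (R := ↥V) (K := E)).1 h2
  rw [← hy]
  exact y.2

/-- **UNIT**: the norm of a unit for all the valuation rings above `V` is a unit of `V`. -/
theorem norm_unit_of_cover
    (hcov : ∀ W' : ValuationSubring L, (∀ a : E, a ∈ V → algebraMap E L a ∈ W') → W' ≠ ⊤ →
      ∃ i, W' = Ws i) (u : L) (hu : ∀ i, u ∈ Ws i) (hu' : ∀ i, u⁻¹ ∈ Ws i) :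
    Algebra.norm E u ∈ V ∧ (Algebra.norm E u)⁻¹ ∈ V := by
  refine ⟨norm_mem_of_cover V Ws hcov u hu, ?_⟩
  by_cases hu0 : u = 0
  · rw [hu0, Algebra.norm_zero, inv_zero]
    exact zero_mem V
  · have h1 : Algebra.norm E u * Algebra.norm E u⁻¹ = 1 := by
      rw [← map_mul, mul_inv_cancel₀ hu0, map_one]
    rw [← eq_inv_of_mul_eq_one_right h1]
    exact norm_mem_of_cover V Ws hcov u⁻¹ hu'

end Cover

end Fermat.Agent.S45.NUE.H33

end
end
-- ==== END Fermat.Agent.S45.NUE.H33_UniqPI

-- ==== BEGIN Fermat.Agent.S45.NUE.H41_DegE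
section

/-!
# S45 / NU_e, E-TOT leaf T3 (DEG_e) (helper41): the degree of `L0 (M' q^e)` over `L0 M'`

For a prime `q ∤ M'`, `e ≥ 1` and `N = M' q ^ e`:
* `finite_FN_of_le` : `F_N / F_M` is finite for any `M ∣ N`;
* `finrank_FN_pow` : `[F_N : F_M'] = q ^ e + q ^ (e - 1)`;
* `finite_L0_of_le` : `L0 N / L0 M` is finite;
* `finrank_L0_pow` : **`[L0 A N : L0 A M'] = q ^ e + q ^ (e - 1)`**;
* `finrank_L0_step` : `[L0 A (M q) : L0 A M] = q` when `q ∣ M`.
-/

set_option autoImplicit false
set_option synthInstance.maxHeartbeats 400000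
set_option maxHeartbeats 1000000
set_option linter.unusedSectionVars false
set_option linter.style.haveILetI false

noncomputable section

open ModularCurve AlgebraicCurve
open Fermat.Agent.S24 Fermat.Agent.BAD.H88 Fermat.Agent.S36.NU.H23 Fermat.Agent.RED

namespace Fermat.Agent.S45.NUE.H41

section Deg

variable (A : ValuationSubring Kbar) (q e M N : ℕ) [NeZero M] [NeZero N]

/-- `F_N / F_M` is finite. -/
theorem finite_FN_of_le (hle : modularFunctionFieldBar M ≤ modularFunctionFieldBar N) :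
    @Module.Finite (FN M) (FN N) _ _ (algF hle).toModule :=
  (Fermat.Agent.RED.H51.stmt_FFB_finite _ _ _ (Fermat.Agent.RED.H95.stmt_HKA_isFF M)
    (Fermat.Agent.RED.H95.stmt_HKA_isFF N) (IntermediateField.inclusion hle)).2

/-- `L0 N / L0 M` is finite. -/
theorem finite_L0_of_le (hle : modularFunctionFieldBar M ≤ modularFunctionFieldBar N) :
    @Module.Finite ↥(L0 A M) ↥(L0 A N) _ _ (algL0 A hle).toModule :=
  finite_L0 A hle (finite_FN_of_le M N hle)

/-- `[L0 N : L0 M] = [F_N : F_M]` as a relative degree. -/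
theorem finrank_L0_eq_relfinrank (hMN : M ∣ N)
    (hle : modularFunctionFieldBar M ≤ modularFunctionFieldBar N) :
    @Module.finrank ↥(L0 A M) ↥(L0 A N) _ _ (algL0 A hle).toModule
      = (modularFunctionFieldBar M).relfinrank (modularFunctionFieldBar N) :=
  (finrank_L0 A hle (finite_FN_of_le M N hle)).trans
    (Fermat.Agent.Lib.HeckeComm.relfinrank_FN M N hMN).symm

/-- `[F_N : F_M'] = q ^ e + q ^ (e - 1)` for `N = M' q ^ e`, `q ∤ M'`, `e ≥ 1`. -/
theorem finrank_FN_pow (hq : q.Prime) (hqM : ¬ q ∣ M) (he : 0 < e) (hN : N = M * q ^ e)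
    (hle : modularFunctionFieldBar M ≤ modularFunctionFieldBar N) :
    @Module.finrank (FN M) (FN N) _ _ (algF hle).toModule = q ^ e + q ^ (e - 1) :=
  (Fermat.Agent.Lib.HeckeComm.relfinrank_FN M N ⟨q ^ e, hN⟩).symm.trans
    (Fermat.Agent.S36.NU.H82.relfinrank_level_pow q e M N hq hqM he hN)

/-- **DEG_e**: `[L0 A N : L0 A M'] = q ^ e + q ^ (e - 1)` for `N = M' q ^ e`, `q ∤ M'`,
`e ≥ 1`. -/
theorem finrank_L0_pow (hq : q.Prime) (hqM : ¬ q ∣ M) (he : 0 < e) (hN : N = M * q ^ e)
    (hle : modularFunctionFieldBar M ≤ modularFunctionFieldBar N) :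
    @Module.finrank ↥(L0 A M) ↥(L0 A N) _ _ (algL0 A hle).toModule = q ^ e + q ^ (e - 1) :=
  (finrank_L0 A hle (finite_FN_of_le M N hle)).trans (finrank_FN_pow q e M N hq hqM he hN hle)

end Deg

section Step

variable (A : ValuationSubring Kbar) (q M : ℕ) [NeZero M] [NeZero (M * q)]

/-- `[F_{M q} : F_M] = q` when `q ∣ M`. -/
theorem finrank_FN_step (hq : q.Prime) (hqM : q ∣ M)
    (hle : modularFunctionFieldBar M ≤ modularFunctionFieldBar (M * q)) :
    @Module.finrank (FN M) (FN (M * q)) _ _ (algF hle).toModule = q :=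
  (Fermat.Agent.Lib.HeckeComm.relfinrank_FN M (M * q) ⟨q, rfl⟩).symm.trans
    (Fermat.Agent.S36.NU.H82.relfinrank_FM_FN_of_dvd q M hq hqM)

/-- `[L0 A (M q) : L0 A M] = q` when `q ∣ M`: the degree of the steps of the tower. -/
theorem finrank_L0_step (hq : q.Prime) (hqM : q ∣ M)
    (hle : modularFunctionFieldBar M ≤ modularFunctionFieldBar (M * q)) :
    @Module.finrank ↥(L0 A M) ↥(L0 A (M * q)) _ _ (algL0 A hle).toModule = q :=
  (finrank_L0 A hle (finite_FN_of_le M (M * q) hle)).trans (finrank_FN_step q M hq hqM hle)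

/-- `[F_{M q} : F_M] = q + 1` when `q ∤ M`. -/
theorem finrank_FN_first (hq : q.Prime) (hqM : ¬ q ∣ M)
    (hle : modularFunctionFieldBar M ≤ modularFunctionFieldBar (M * q)) :
    @Module.finrank (FN M) (FN (M * q)) _ _ (algF hle).toModule = q + 1 := by
  have h := finrank_FN_pow q 1 M (M * q) hq hqM one_pos (by rw [pow_one]) hle
  simpa using h

/-- `[L0 A (M q) : L0 A M] = q + 1` when `q ∤ M`. -/
theorem finrank_L0_first (hq : q.Prime) (hqM : ¬ q ∣ M)
    (hle : modularFunctionFieldBar M ≤ modularFunctionFieldBar (M * q)) :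
    @Module.finrank ↥(L0 A M) ↥(L0 A (M * q)) _ _ (algL0 A hle).toModule = q + 1 :=
  (finrank_L0 A hle (finite_FN_of_le M (M * q) hle)).trans (finrank_FN_first q M hq hqM hle)

end Step

end Fermat.Agent.S45.NUE.H41

end
end
-- ==== END Fermat.Agent.S45.NUE.H41_DegE

-- ==== BEGIN Fermat.Agent.S45.NUE.H41_PtHypsE
section

/-!
# S45 / NU_e, package E-FIN, leaf E-PT-HYPS (helper41): the point hypotheses, abstract form

The hypotheses `hnc`, `hsurj`, `hSSchar` of `pointData_of_dichotomy` for a chart `C` over a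
conservation datum `T` with ANY number of components, from the following data of the special
fibre (to be supplied by E-VAL / E-TOT / E-PT-ORD):

* `C0` : the residue field of the lower level (a function field over `k`), `Z = Place k C0`;
* `φ i : C0 →+* κ i` : the embeddings of `C0` into the residue fields of the components
  (identity or a power of Frobenius), compatible with the constants;
* `(T.pt i z).ord (φ i y) = e i * z.ord y` with `e i > 0`;
* `rd i j = φ i j~`, `j~` not constant;
* a power of `rd i (wit i)` is `φ i (hU ^ n)`, `n > 0` (`hU ≠ 0` the Hasse function);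
* the supersingular points are the `z` with `j~` regular and `hU` vanishing at `z`.

Main statements: `hnc_abs`, `hSSchar_abs`, `ptHyps_abs`.
-/

set_option autoImplicit false
set_option linter.style.haveILetI false
set_option linter.unusedSectionVars false

noncomputable section

open AlgebraicCurve

namespace Fermat.Agent.S45.NUE.H41P

open Fermat.Agent.RED.H17 Fermat.Agent.RED Fermat.Agent.S36.NU.H16 Fermat.Agent.S36.NU.H79

section Abs

variable {R F k ι K L C0 : Type*} {κ : ι → Type*} [CommRing R] [Field F] [Algebra R F]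
  [Field k] [∀ i, Field (κ i)] [∀ i, Algebra k (κ i)] [Fintype ι]
  [Field K] [Field L] [Algebra K L] [Algebra F L] [Field C0] [Algebra k C0]

variable (C : Chart R F k ι κ) (T : TotN K F L k ι (Place k C0) κ)
  (φ : ∀ i, C0 →+* κ i) (e : ι → ℕ)

/-- **(hnc)**: the reduction of `j` is not constant on any component. -/
theorem hnc_abs (hφk : ∀ i (c : k), φ i (algebraMap k C0 c) = algebraMap k (κ i) c)
    (jB : C.B) (jbar : C0) (hj : ∀ i, C.rdB i jB = φ i jbar)
    (hjnc : ∀ c : k, jbar ≠ algebraMap k C0 c) :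
    ∀ i, ∃ β : C.B, ∀ c : k, C.rdB i β ≠ algebraMap k (κ i) c := by
  intro i
  refine ⟨jB, fun c hc => hjnc c ?_⟩
  rw [hj i, ← hφk i c] at hc
  exact (φ i).injective hc

/-- Regularity of `rd i j` at `pt i z` gives regularity of `j~` at `z`. -/
theorem ord_nonneg_of_regAt (he : ∀ i, 0 < e i)
    (hord : ∀ i (z : Place k C0) (y : C0), (T.pt i z).ord (φ i y) = (e i : ℤ) * z.ord y)
    {i : ι} {z : Place k C0} {y : C0} (h : RegAt (T.pt i z) (φ i y)) : 0 ≤ z.ord y := by
  have h1 := h.ord_nonneg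
  rw [hord] at h1
  have h2 : (0 : ℤ) < (e i : ℤ) := by exact_mod_cast he i
  exact nonneg_of_mul_nonneg_right h1 h2

/-- Vanishing at `pt i z` of an element with a power `φ i (u ^ n)` gives vanishing of `u` at
`z`. -/
theorem ord_pos_of_vanAt (he : ∀ i, 0 < e i)
    (hord : ∀ i (z : Place k C0) (y : C0), (T.pt i z).ord (φ i y) = (e i : ℤ) * z.ord y)
    {i : ι} {z : Place k C0} {u : C0} (hu : u ≠ 0) {x : κ i} {m n : ℕ} (hm : 0 < m)
    (hx : x ^ m = φ i (u ^ n)) (h : VanAt (T.pt i z) x) : 0 < z.ord u := by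
  have hx0 : x ≠ 0 := by
    rintro rfl
    rw [zero_pow hm.ne'] at hx
    exact (map_ne_zero (φ i)).2 (pow_ne_zero n hu) hx.symm
  have h1 : 0 < (T.pt i z).ord x := h.ord_pos hx0
  have h2 : (T.pt i z).ord (x ^ m) = (m : ℤ) * (T.pt i z).ord x := ord_pow _ _ _
  rw [hx, hord, ord_pow] at h2
  have hm' : (0 : ℤ) < (m : ℤ) := by exact_mod_cast hm
  have he' : (0 : ℤ) < (e i : ℤ) := by exact_mod_cast he i
  have h3 : (0 : ℤ) < (e i : ℤ) * ((n : ℤ) * z.ord u) := by
    rw [h2]
    exact mul_pos hm' h1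
  have h4 : (0 : ℤ) < (n : ℤ) * z.ord u := pos_of_mul_pos_right h3 he'.le
  exact pos_of_mul_pos_right h4 (Int.natCast_nonneg n)

/-- **(hSSchar)**: a point of a component at which all functions of the chart are regular and the
witness of the component vanishes is supersingular. -/
theorem hSSchar_abs (he : ∀ i, 0 < e i)
    (hord : ∀ i (z : Place k C0) (y : C0), (T.pt i z).ord (φ i y) = (e i : ℤ) * z.ord y)
    (jB : C.B) (jbar : C0) (hj : ∀ i, C.rdB i jB = φ i jbar)
    (hU : C0) (hU0 : hU ≠ 0) (wit : ι → C.B)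
    (hwit : ∀ i, ∃ m n : ℕ, 0 < m ∧ C.rdB i (wit i) ^ m = φ i (hU ^ n))
    (SS : Set (Place k C0)) (hSS : ∀ z : Place k C0, 0 ≤ z.ord jbar → 0 < z.ord hU → z ∈ SS) :
    ∀ (i : ι) (z : Place k C0), (∀ β : C.B, RegAt (T.pt i z) (C.rdB i β)) →
      VanAt (T.pt i z) (C.rdB i (wit i)) → z ∈ SS := by
  intro i z hreg hvan
  obtain ⟨m, n, hm, hx⟩ := hwit i
  refine hSS z ?_ ?_
  · have h := hreg jB
    rw [hj i] at h
    exact ord_nonneg_of_regAt T φ e he hord h
  · exact ord_pos_of_vanAt T φ e he hord hU0 hm hx hvan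

/-- **The three point hypotheses**, abstract form. -/
theorem ptHyps_abs (hφk : ∀ i (c : k), φ i (algebraMap k C0 c) = algebraMap k (κ i) c)
    (he : ∀ i, 0 < e i)
    (hord : ∀ i (z : Place k C0) (y : C0), (T.pt i z).ord (φ i y) = (e i : ℤ) * z.ord y)
    (hpt : ∀ i, Function.Surjective (T.pt i))
    (jB : C.B) (jbar : C0) (hj : ∀ i, C.rdB i jB = φ i jbar)
    (hjnc : ∀ c : k, jbar ≠ algebraMap k C0 c)
    (hU : C0) (hU0 : hU ≠ 0) (wit : ι → C.B)
    (hwit : ∀ i, ∃ m n : ℕ, 0 < m ∧ C.rdB i (wit i) ^ m = φ i (hU ^ n))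
    (SS : Set (Place k C0)) (hSS : ∀ z : Place k C0, 0 ≤ z.ord jbar → 0 < z.ord hU → z ∈ SS) :
    (∀ i, ∃ β : C.B, ∀ c : k, C.rdB i β ≠ algebraMap k (κ i) c) ∧
    (∀ (i : ι) (v : Place k (κ i)), (∀ β : C.B, RegAt v (C.rdB i β)) → ∃ z, T.pt i z = v) ∧
    (∀ (i : ι) (z : Place k C0), (∀ β : C.B, RegAt (T.pt i z) (C.rdB i β)) →
      VanAt (T.pt i z) (C.rdB i (wit i)) → z ∈ SS) :=
  ⟨hnc_abs C φ hφk jB jbar hj hjnc, fun i v _ => hpt i v,
    hSSchar_abs C T φ e he hord jB jbar hj hU hU0 wit hwit SS hSS⟩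

end Abs

end Fermat.Agent.S45.NUE.H41P

end
end
-- ==== END Fermat.Agent.S45.NUE.H41_PtHypsE

-- ==== BEGIN Fermat.Agent.S45.NUE.H42_FrW
section

/-!
# S45 / NU_e, package E-TOT, leaf T1 FRW (helper42): the `Fr^w`-twisted structure

`E ⊂ k((t))` a `φ`-stable field over the perfect field `k` of characteristic `q`, `E''` a field
with an isomorphism `e : E'' ≃+* E`, and `E` an `E''`-algebra through `Fr^w ∘ e`
(`Fr : t ↦ t ^ q`), for ANY `w : ℕ` (helper23's `H23_Fr2` is `w = 2`, helper73's `H73_NormFr` is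
`w = 1`).  (Modular: the residue field of the valuation `v_(a,b)` of level `q^e M'` over the
residue field of level `M'`.)

* `iterate_FrE_frobE : Fr^w (φ^w x) = x ^ (q ^ w)`;
* `pow_qw_eq_algebraMap : x ^ (q ^ w) = algebraMap (e⁻¹ (φ^w x))`;
* `isPurelyInseparable_of_FrW`;
* `finrank_of_FrW : [E : E''] = q ^ w`;
* `norm_of_FrW : N_{E/E''} g = e⁻¹ (φ^w g)`;
* `iterate_beta_ord : ord_{β^w z} g = ord_z (φ^w g)`;
* `ord_norm_of_FrW : ord_z (e (N g)) = ord_{β^w z} g`.

This file has no open goals.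
-/

set_option autoImplicit false
set_option synthInstance.maxHeartbeats 400000
set_option maxHeartbeats 1000000
set_option linter.style.haveILetI false
set_option linter.unusedSectionVars false

noncomputable section

open ModularCurve AlgebraicCurve Polynomial IntermediateField

namespace Fermat.Agent.S45.NUE.H42

open Fermat.Agent.BAD.H73 Fermat.Agent.S36.NU.H23

section TwistW

variable {k : Type*} [Field k] {q : ℕ} [Fact q.Prime] [CharP k q] [PerfectRing k q]
variable {E : IntermediateField k (LaurentSeries k)} (h : FrobStable q E)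

/-- `Fr^w`, as a ring endomorphism of `E`. -/
def FrW (w : ℕ) : ↥E →+* ↥E := ((FrE h : ↥E →ₐ[k] ↥E) : ↥E →+* ↥E) ^ w

theorem FrW_apply (w : ℕ) (x : ↥E) : FrW h w x = (FrE h)^[w] x := by
  unfold FrW
  rw [RingHom.coe_pow]
  rfl

theorem FrW_zero (x : ↥E) : FrW h 0 x = x := by
  rw [FrW_apply]
  rfl

theorem FrW_succ (w : ℕ) (x : ↥E) : FrW h (w + 1) x = FrE h (FrW h w x) := by
  rw [FrW_apply, FrW_apply, Function.iterate_succ_apply']

theorem FrW_succ' (w : ℕ) (x : ↥E) : FrW h (w + 1) x = FrW h w (FrE h x) := by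
  rw [FrW_apply, FrW_apply, Function.iterate_succ_apply]

/-- `Fr^w (φ^w x) = x ^ (q ^ w)`. -/
theorem FrW_iterate_frobE (w : ℕ) (x : ↥E) : FrW h w ((frobE h)^[w] x) = x ^ (q ^ w) := by
  induction w generalizing x with
  | zero => rw [FrW_zero, Function.iterate_zero_apply, pow_zero, pow_one]
  | succ w ih =>
    rw [FrW_succ', Function.iterate_succ_apply', FrE_frobE, map_pow, ih, ← pow_mul, pow_succ]

/-- `ord_{β^w z} g = ord_z (φ^w g)`. -/
theorem iterate_beta_ord (w : ℕ) (z : Place k ↥E) (g : ↥E) :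
    ((beta h)^[w] z).ord g = z.ord ((frobE h)^[w] g) := by
  induction w generalizing g with
  | zero => rfl
  | succ w ih =>
    rw [Function.iterate_succ_apply', beta_ord, ih, ← Function.iterate_succ_apply]

variable {E'' : Type*} [Field E''] (e : E'' ≃+* ↥E)

section Alg

variable [Algebra E'' ↥E] (w : ℕ)
variable (he : ∀ a : E'', algebraMap E'' ↥E a = FrW h w (e a))

include he in
/-- `x ^ (q ^ w)` is in the image of `E''`. -/
theorem pow_qw_eq_algebraMap (x : ↥E) :
    x ^ (q ^ w) = algebraMap E'' ↥E (e.symm ((frobE h)^[w] x)) := by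
  rw [he, e.apply_symm_apply, FrW_iterate_frobE]

include e he in
/-- `E` is purely inseparable over `E''` (structure map `Fr^w ∘ e`). -/
theorem isPurelyInseparable_of_FrW : IsPurelyInseparable E'' ↥E := by
  have : CharP E'' q := charP_of_equiv e
  rw [isPurelyInseparable_iff_pow_mem E'' q]
  intro x
  exact ⟨w, e.symm ((frobE h)^[w] x), (pow_qw_eq_algebraMap h e w he x).symm⟩

end Alg

/-- The middle copy over `E''`, through `Fr^w ∘ e`. -/
@[reducible] def algBotMidW (w : ℕ) : Algebra E'' (MidE h) :=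
  ((midEquiv h).symm.toRingHom.comp ((FrW h w).comp e.toRingHom)).toAlgebra

/-- **`[E : E''] = q ^ w`** for the structure map `Fr^w ∘ e` (any algebra structure with this
structure map). -/
theorem finrank_of_FrW_aux (x : ↥E) {n : ℤ} (hn : ¬ (q : ℤ) ∣ n)
    (hx : (x : LaurentSeries k).coeff n ≠ 0)
    (hsep : ∀ y ∈ E, IsSeparable ↥(IntermediateField.adjoin k {(x : LaurentSeries k)}) y) :
    ∀ (w : ℕ) (inst : Algebra E'' ↥E)
      (_ : ∀ a : E'', @algebraMap E'' ↥E _ _ inst a = FrW h w (e a)),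
      @Module.finrank E'' ↥E _ _ inst.toModule = q ^ w := by
  intro w
  induction w with
  | zero =>
    intro inst he
    letI := inst
    -- `e` is `E''`-linear
    let L : E'' ≃ₗ[E''] ↥E :=
      { e.toAddEquiv with
        map_smul' := fun a b => by
          show e (a * b) = a • e b
          rw [map_mul, Algebra.smul_def, he, FrW_zero] }
    rw [← L.finrank_eq, Module.finrank_self, pow_zero]
  | succ w ih =>
    intro inst he
    letI := inst
    letI := algBotMidW h e w
    letI := algMidTop h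
    haveI : IsScalarTower E'' (MidE h) ↥E := by
      refine IsScalarTower.of_algebraMap_eq fun a => ?_
      rw [he, FrW_succ]
      rfl
    have h2 : Module.finrank (MidE h) ↥E = q :=
      finrank_of_Fr h (midEquiv h) (fun _ => rfl) x hn hx hsep
    have h1 : Module.finrank E'' (MidE h) = q ^ w := by
      have h3 := ih ((FrW h w).comp e.toRingHom).toAlgebra (fun _ => rfl)
      exact h3
    haveI : Module.Free (MidE h) ↥E := Module.Free.of_divisionRing _ _
    haveI : Module.Free E'' (MidE h) := Module.Free.of_divisionRing _ _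
    rw [← Module.finrank_mul_finrank E'' (MidE h) ↥E, h1, h2, pow_succ]

variable [Algebra E'' ↥E] (w : ℕ)
variable (he : ∀ a : E'', algebraMap E'' ↥E a = FrW h w (e a))

include e he in
/-- **`[E : E''] = q ^ w`** for the structure map `Fr^w ∘ e`. -/
theorem finrank_of_FrW (x : ↥E) {n : ℤ} (hn : ¬ (q : ℤ) ∣ n)
    (hx : (x : LaurentSeries k).coeff n ≠ 0)
    (hsep : ∀ y ∈ E, IsSeparable ↥(IntermediateField.adjoin k {(x : LaurentSeries k)}) y) :
    Module.finrank E'' ↥E = q ^ w :=
  finrank_of_FrW_aux h e x hn hx hsep w _ he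

include e he in
/-- **`N_{E/E''} g = e⁻¹ (φ^w g)`** for the structure map `Fr^w ∘ e`. -/
theorem norm_of_FrW (x : ↥E) {n : ℤ} (hn : ¬ (q : ℤ) ∣ n)
    (hx : (x : LaurentSeries k).coeff n ≠ 0)
    (hsep : ∀ y ∈ E, IsSeparable ↥(IntermediateField.adjoin k {(x : LaurentSeries k)}) y)
    (g : ↥E) : Algebra.norm E'' g = e.symm ((frobE h)^[w] g) := by
  have : CharP E'' q := charP_of_equiv e
  have : IsPurelyInseparable E'' ↥E := isPurelyInseparable_of_FrW h e w he
  apply (algebraMap E'' ↥E).injective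
  rw [algebraMap_norm_of_isPurelyInseparable q g, finrank_of_FrW h e w he x hn hx hsep,
    pow_qw_eq_algebraMap h e w he]

include e he in
/-- **`ord_z (e (N_{E/E''} g)) = ord_{β^w z} g`**. -/
theorem ord_norm_of_FrW (x : ↥E) {n : ℤ} (hn : ¬ (q : ℤ) ∣ n)
    (hx : (x : LaurentSeries k).coeff n ≠ 0)
    (hsep : ∀ y ∈ E, IsSeparable ↥(IntermediateField.adjoin k {(x : LaurentSeries k)}) y)
    (z : Place k ↥E) (g : ↥E) :
    z.ord (e (Algebra.norm E'' g)) = ((beta h)^[w] z).ord g := by
  rw [norm_of_FrW h e w he x hn hx hsep, e.apply_symm_apply, iterate_beta_ord]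

/-- The hypothesis `he` in iterate form. -/
theorem he_of_iterate (he' : ∀ a : E'', algebraMap E'' ↥E a = (FrE h)^[w] (e a)) :
    ∀ a : E'', algebraMap E'' ↥E a = FrW h w (e a) := fun a => by
  rw [he', FrW_apply]

end TwistW

end Fermat.Agent.S45.NUE.H42

end
end
-- ==== END Fermat.Agent.S45.NUE.H42_FrW
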