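-- GENERATED (merged mirror, NOTES/tools/trim/merge3_helper67.py): 7 modules of the originals, bodies verbatim.
import Mathlib
import Fermat.Agent.Zm.S36_L01_002
import Fermat.Agent.Zm.S36_L04_002
import Fermat.Agent.Zm.S36_L01_000
import Fermat.Agent.Zm.S35_L01_001
import Fermat.Agent.Zm.S36_L09_001
import Fermat.Agent.Zm.S35_L03_000
import Fermat.Agent.Zm.S36_L13_000
import Fermat.Agent.Zm.S36_L08_000
import Fermat.Agent.Zm.S35_L05_002

-- ==== BEGIN Fermat.Agent.S45.NUE.H51_ValVecEAbs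
section

/-!
# S45 / NU_e, package E-VV (helper51): VALVEC_e, the abstract part

`L` a field with finitely many pairwise incomparable valuation rings `V i` of rank one,
`α, β : E → L` two finite embeddings of the same degree `d`.  Every `V i` is the ONLY valuation
ring of `L` above its restriction along `α`, or along `β` (`UniqAlong`; for the `e + 1`
valuations of level `M' q ^ e`, `e ≥ 3`: `α` for the indices `≤ e - 2`, `β` for the indices
`≥ 2`).  No uniformiser, no residue degree, no value group is needed: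

* `val_norm_eq_pow_of_unique` : `w (N y) = w (y) ^ [L : E]` for a unique extension `w`;
* `exists_val_eq` : weak approximation, `w` with `v_i (w) = v_i (y i)` for all `i`;
* `valvecE_abs` : if `N_α f = c_α g_α ^ n`, `N_β f = c_β g_β ^ n` with `v_i (c_α) = v_i (ϖ) ^ m_α`,
  `v_i (c_β) = v_i (ϖ) ^ m_β`, `n ∣ m_α - m_β`, then `f ^ d ϖ ^ (-b) w ^ n` is a unit for all
  `V i`, for some `b`, `w ≠ 0`;
* `link_norm`, `link_val` : the congruence `n ∣ m_α - m_β` from the commuting norms two levels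
  below (`N_β' N_α = N_α' N_β`) and a valuation of the lowest level with value group `v (ϖ) ^ ℤ`.
-/

set_option autoImplicit false
set_option linter.style.haveILetI false
set_option linter.unusedSectionVars false

noncomputable section

namespace Fermat.Agent.S45.NUE.H51

open Fermat.Agent.BAD Fermat.Agent.BAD.H42 Fermat.Agent.Lib.HeckeComm

/-! ### The value of the norm for a unique extension -/

section Norm

variable {E L : Type} [Field E] [Field L] [Algebra E L] [Module.Finite E L]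
  (W : ValuationSubring L)

/-- **The value of the norm for a unique extension**: if `W` is the only valuation ring `≠ L`
of `L` above `W ∩ E`, then `w (N y) = w (y) ^ [L : E]`. -/
theorem val_norm_eq_pow_of_unique
    (huniq : ∀ W' : ValuationSubring L,
      (∀ a : E, algebraMap E L a ∈ W → algebraMap E L a ∈ W') → W' ≠ ⊤ → W' = W)
    (y : L) (hy : y ≠ 0) :
    W.valuation (algebraMap E L (Algebra.norm E y)) = W.valuation y ^ Module.finrank E L := by
  haveI : Algebra.IsAlgebraic E L := Algebra.IsAlgebraic.of_finite E L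
  set V : ValuationSubring E := W.comap (algebraMap E L) with hV
  have huniq' : ∀ W' : ValuationSubring L,
      (∀ a : E, a ∈ V → algebraMap E L a ∈ W') → W' ≠ ⊤ → W' = W :=
    fun W' h hne => huniq W' (fun a ha => h a (ValuationSubring.mem_comap.2 ha)) hne
  obtain ⟨m, a, hm, ha, hma⟩ := Fermat.Agent.S36.NU.H79.nv_exists_pow_val_eq (E := E) W y hy
  have haL : algebraMap E L a ≠ 0 := (map_ne_zero _).2 ha
  have hav : W.valuation (algebraMap E L a) ≠ 0 := (Valuation.ne_zero_iff _).2 haL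
  set u : L := y ^ m * (algebraMap E L a)⁻¹ with hu
  have hu0 : u ≠ 0 := mul_ne_zero (pow_ne_zero _ hy) (inv_ne_zero haL)
  have hval : W.valuation u = 1 := by
    rw [hu, map_mul, map_pow, map_inv₀, hma]
    exact mul_inv_cancel₀ hav
  have hu1 : u ∈ W := (ValuationSubring.valuation_le_one_iff _ _).1 hval.le
  have hu2 : u⁻¹ ∈ W := by
    rw [← ValuationSubring.valuation_le_one_iff, map_inv₀, hval, inv_one]
  have hN1 : W.valuation (algebraMap E L (Algebra.norm E u)) ≤ 1 :=
    (ValuationSubring.valuation_le_one_iff _ _).2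
      (ValuationSubring.mem_comap.1
        (Fermat.Agent.S36.NU.H51.norm_mem_of_unique V W huniq' u hu1))
  have hN2 : W.valuation (algebraMap E L (Algebra.norm E u⁻¹)) ≤ 1 :=
    (ValuationSubring.valuation_le_one_iff _ _).2
      (ValuationSubring.mem_comap.1
        (Fermat.Agent.S36.NU.H51.norm_mem_of_unique V W huniq' u⁻¹ hu2))
  have hmul : algebraMap E L (Algebra.norm E u) * algebraMap E L (Algebra.norm E u⁻¹) = 1 := by
    rw [← map_mul, ← map_mul, mul_inv_cancel₀ hu0, map_one, map_one]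
  have hNval : W.valuation (algebraMap E L (Algebra.norm E u)) = 1 := by
    apply le_antisymm hN1
    have h3 : W.valuation (algebraMap E L (Algebra.norm E u))
        * W.valuation (algebraMap E L (Algebra.norm E u⁻¹)) = 1 := by
      rw [← map_mul, hmul, map_one]
    calc (1 : _) = W.valuation (algebraMap E L (Algebra.norm E u))
          * W.valuation (algebraMap E L (Algebra.norm E u⁻¹)) := h3.symm
      _ ≤ W.valuation (algebraMap E L (Algebra.norm E u)) * 1 := by gcongr
      _ = W.valuation (algebraMap E L (Algebra.norm E u)) := mul_one _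
  have hy' : y ^ m = u * algebraMap E L a := by
    rw [hu, mul_assoc, inv_mul_cancel₀ haL, mul_one]
  have hNy : Algebra.norm E y ^ m = Algebra.norm E u * a ^ Module.finrank E L := by
    rw [← map_pow, hy', map_mul, Algebra.norm_algebraMap]
  have h4 : W.valuation (algebraMap E L (Algebra.norm E y)) ^ m
      = (W.valuation y ^ Module.finrank E L) ^ m := by
    rw [← map_pow, ← map_pow, hNy, map_mul, map_mul, hNval, one_mul, map_pow, map_pow, ← hma,
      ← pow_mul, ← pow_mul, mul_comm]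
  exact (pow_left_inj₀ zero_le zero_le hm.ne').1 h4

end Norm

/-! ### Weak approximation -/

section Approx

variable {L : Type} [Field L] {ι : Type} [DecidableEq ι] [Fintype ι]

/-- **Weak approximation of the values**: for finitely many pairwise incomparable valuation
rings of rank one there is `w` with `v_i (w) = v_i (y i)` for all `i`. -/
theorem exists_val_eq (V : ι → ValuationSubring L) (hA : ∀ i, IsArch (V i))
    (hinc : ∀ i j, i ≠ j → ¬ V i ≤ V j) (hnt : ∀ i, V i ≠ ⊤) (y : ι → L) (hy : ∀ i, y i ≠ 0) :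
    ∃ w : L, w ≠ 0 ∧ ∀ i, (V i).valuation w = (V i).valuation (y i) := by
  classical
  have hE : ∀ j : ι, ∃ E : L, (V j).valuation (E - 1) < 1 ∧
      ∀ l ∈ Finset.univ.erase j, (V l).valuation E < (V l).valuation (y l / y j) := fun j =>
    exists_one_small V hA hinc hnt j (Finset.univ.erase j) (Finset.notMem_erase j _)
      (fun l => y l / y j) (fun l _ => div_ne_zero (hy l) (hy j))
  choose E hE1 hE2 using hE
  have hEj : ∀ j, (V j).valuation (E j) = 1 := by
    intro j
    have : E j = 1 + (E j - 1) := by ring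
    rw [this]
    exact Valuation.map_one_add_of_lt _ (hE1 j)
  have key : ∀ l, (V l).valuation (∑ j, y j * E j) = (V l).valuation (y l) := by
    intro l
    rw [← Finset.add_sum_erase _ _ (Finset.mem_univ l)]
    have hl : (V l).valuation (y l * E l) = (V l).valuation (y l) := by
      rw [map_mul, hEj, mul_one]
    have hyl : (V l).valuation (y l) ≠ 0 := (Valuation.ne_zero_iff _).2 (hy l)
    have hs : (V l).valuation (∑ j ∈ Finset.univ.erase l, y j * E j)
        < (V l).valuation (y l * E l) := by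
      rw [hl]
      apply Valuation.map_sum_lt _ hyl
      intro j hj
      have hjl : j ≠ l := Finset.ne_of_mem_erase hj
      have h1 := hE2 j l (Finset.mem_erase.2 ⟨fun h => hjl h.symm, Finset.mem_univ _⟩)
      rw [map_mul]
      have hyj : (V l).valuation (y j) ≠ 0 := (Valuation.ne_zero_iff _).2 (hy j)
      calc (V l).valuation (y j) * (V l).valuation (E j)
          < (V l).valuation (y j) * (V l).valuation (y l / y j) :=
            mul_lt_mul_of_pos_left h1 (zero_lt_iff.2 hyj)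
        _ = (V l).valuation (y l) := by rw [map_div₀, mul_div_cancel₀ _ hyj]
    rw [Valuation.map_add_eq_of_lt_left _ hs, hl]
  by_cases hne : Nonempty ι
  · obtain ⟨i₀⟩ := hne
    refine ⟨∑ j, y j * E j, ?_, key⟩
    intro h0
    have := key i₀
    rw [h0, map_zero] at this
    exact (Valuation.ne_zero_iff _).2 (hy i₀) this.symm
  · exact ⟨1, one_ne_zero, fun i => absurd ⟨i⟩ hne⟩

end Approx

/-! ### VALVEC_e -/

section Main

variable {E L : Type} [Field E] [Field L]

/-- `W` is the only valuation ring `≠ L` of `L` above its restriction along `φ`. -/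
def UniqAlong (φ : E →+* L) (W : ValuationSubring L) : Prop :=
  ∀ W' : ValuationSubring L, (∀ a : E, φ a ∈ W → φ a ∈ W') → W' ≠ ⊤ → W' = W

/-- The degree of `L` over `E` along `φ`. -/
def degAlong (φ : E →+* L) : ℕ :=
  letI := φ.toAlgebra
  Module.finrank E L

/-- `L` is finite over `E` along `φ`. -/
def FinAlong (φ : E →+* L) : Prop :=
  letI := φ.toAlgebra
  Module.Finite E L

/-- The value of the norm along `φ` for a unique extension. -/
theorem val_normAlong_of_uniq (φ : E →+* L) (hfin : FinAlong φ) (W : ValuationSubring L)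
    (h : UniqAlong φ W) (y : L) (hy : y ≠ 0) :
    W.valuation (φ (normAlongHom φ y)) = W.valuation y ^ degAlong φ := by
  letI := φ.toAlgebra
  haveI : Module.Finite E L := hfin
  exact val_norm_eq_pow_of_unique W h y hy

theorem normAlongHom_ne_zero (φ : E →+* L) (hfin : FinAlong φ) (y : L) (hy : y ≠ 0) :
    normAlongHom φ y ≠ 0 := by
  letI := φ.toAlgebra
  haveI : Module.Finite E L := hfin
  exact fun h => hy (Algebra.norm_eq_zero_iff.1 h)

variable {ι : Type} [DecidableEq ι] [Fintype ι]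

/-- **VALVEC_e, abstract form.** -/
theorem valvecE_abs (α β : E →+* L) (hfα : FinAlong α) (hfβ : FinAlong β)
    (d : ℕ) (hdα : degAlong α = d) (hdβ : degAlong β = d)
    (V : ι → ValuationSubring L) (hA : ∀ i, IsArch (V i))
    (hinc : ∀ i j, i ≠ j → ¬ V i ≤ V j) (hnt : ∀ i, V i ≠ ⊤)
    (hcov : ∀ i, UniqAlong α (V i) ∨ UniqAlong β (V i))
    (ϖ : L) (hϖ : ϖ ≠ 0) (n : ℕ) (hn : 0 < n) (f : L) (hf : f ≠ 0)
    (cα gα cβ gβ : E) (hNα : normAlongHom α f = cα * gα ^ n)
    (hNβ : normAlongHom β f = cβ * gβ ^ n)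
    (mα mβ : ℤ) (hcα : ∀ i, (V i).valuation (α cα) = (V i).valuation ϖ ^ mα)
    (hcβ : ∀ i, (V i).valuation (β cβ) = (V i).valuation ϖ ^ mβ)
    (hlink : (n : ℤ) ∣ mα - mβ) :
    ∃ (b : ℤ) (w : L), w ≠ 0 ∧ ∀ i, (V i).valuation (f ^ d * ϖ ^ (-b) * w ^ n) = 1 := by
  classical
  obtain ⟨t, ht⟩ := hlink
  have hgα : gα ≠ 0 := by
    rintro rfl
    rw [zero_pow hn.ne', mul_zero] at hNα
    exact normAlongHom_ne_zero α hfα f hf hNα
  have hgβ : gβ ≠ 0 := by
    rintro rfl
    rw [zero_pow hn.ne', mul_zero] at hNβ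
    exact normAlongHom_ne_zero β hfβ f hf hNβ
  have hαg : α gα ≠ 0 := (map_ne_zero α).2 hgα
  have hβg : β gβ ≠ 0 := (map_ne_zero β).2 hgβ
  set y : ι → L := fun i => if UniqAlong α (V i) then (α gα)⁻¹ else ϖ ^ t * (β gβ)⁻¹ with hy
  have hy0 : ∀ i, y i ≠ 0 := by
    intro i
    rw [hy]
    by_cases h : UniqAlong α (V i)
    · simp only [h, if_true]
      exact inv_ne_zero hαg
    · simp only [h, if_false]
      exact mul_ne_zero (zpow_ne_zero _ hϖ) (inv_ne_zero hβg)
  obtain ⟨w, hw0, hw⟩ := exists_val_eq V hA hinc hnt y hy0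
  refine ⟨mα, w, hw0, fun i => ?_⟩
  have hϖv : (V i).valuation ϖ ≠ 0 := (Valuation.ne_zero_iff _).2 hϖ
  rw [map_mul, map_mul, map_pow, map_pow, map_zpow₀, hw i]
  by_cases h : UniqAlong α (V i)
  · have h1 := val_normAlong_of_uniq α hfα (V i) h f hf
    rw [hdα, hNα, map_mul, map_pow, map_mul, map_pow, hcα i] at h1
    have hy1 : y i = (α gα)⁻¹ := by rw [hy]; simp only [h, if_true]
    have hgv : (V i).valuation (α gα) ≠ 0 := (Valuation.ne_zero_iff _).2 hαg
    rw [← h1, hy1, map_inv₀, inv_pow, zpow_neg]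
    field_simp
  · have h' : UniqAlong β (V i) := (hcov i).resolve_left h
    have h1 := val_normAlong_of_uniq β hfβ (V i) h' f hf
    rw [hdβ, hNβ, map_mul, map_pow, map_mul, map_pow, hcβ i] at h1
    have hy1 : y i = ϖ ^ t * (β gβ)⁻¹ := by rw [hy]; simp only [h, if_false]
    have hgv : (V i).valuation (β gβ) ≠ 0 := (Valuation.ne_zero_iff _).2 hβg
    have hm : mβ = mα - n * t := by omega
    rw [← h1, hy1, map_mul, map_zpow₀, map_inv₀, mul_pow, inv_pow, hm, zpow_neg, ← zpow_natCast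
      ((V i).valuation ϖ ^ t) n, ← zpow_mul, zpow_sub₀ hϖv, mul_comm t (n : ℤ)]
    have hz : (V i).valuation ϖ ^ ((n : ℤ) * t) ≠ 0 := zpow_ne_zero _ hϖv
    have hz' : (V i).valuation ϖ ^ mα ≠ 0 := zpow_ne_zero _ hϖv
    have hg' : (V i).valuation (β gβ) ^ n ≠ 0 := pow_ne_zero _ hgv
    field_simp

end Main

/-! ### The congruence of the exponents of the constants -/

section Link

variable {E₂ E L : Type} [Field E₂] [Field E] [Field L]

/-- **Commuting norms**: if `α ∘ β' = β ∘ α'`, `N_α f = β' (c_α) g_α ^ n` and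
`N_β f = α' (c_β) g_β ^ n`, then `c_α ^ d (N_β' g_α) ^ n = c_β ^ d (N_α' g_β) ^ n`. -/
theorem link_norm (α' β' : E₂ →+* E) (α β : E →+* L) (hcomm : α.comp β' = β.comp α')
    (d : ℕ) (hdα' : degAlong α' = d) (hdβ' : degAlong β' = d)
    (n : ℕ) (f : L) (cα cβ : E₂) (gα gβ : E)
    (hNα : normAlongHom α f = β' cα * gα ^ n) (hNβ : normAlongHom β f = α' cβ * gβ ^ n) :
    cα ^ d * normAlongHom β' gα ^ n = cβ ^ d * normAlongHom α' gβ ^ n := by
  have h1 : normAlongHom β' (normAlongHom α f) = normAlongHom α' (normAlongHom β f) := by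
    rw [normAlongHom_comp, normAlongHom_comp, hcomm]
  rw [hNα, hNβ] at h1
  have e1 : normAlongHom β' (β' cα * gα ^ n) = cα ^ d * normAlongHom β' gα ^ n := by
    letI := β'.toAlgebra
    show Algebra.norm E₂ (algebraMap E₂ E cα * gα ^ n) = _
    rw [map_mul, map_pow, Algebra.norm_algebraMap]
    congr 2
  have e2 : normAlongHom α' (α' cβ * gβ ^ n) = cβ ^ d * normAlongHom α' gβ ^ n := by
    letI := α'.toAlgebra
    show Algebra.norm E₂ (algebraMap E₂ E cβ * gβ ^ n) = _
    rw [map_mul, map_pow, Algebra.norm_algebraMap]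
    congr 2
  rw [e1, e2] at h1
  exact h1

/-- The arithmetic of the exponents. -/
theorem link_val {Γ : Type*} [LinearOrderedCommGroupWithZero Γ] (γ : Γ) (hγ0 : γ ≠ 0)
    (hγ1 : γ ≠ 1) (d n : ℕ) (hcop : Nat.Coprime n d) (mα mβ k₁ k₂ : ℤ)
    (h : (γ ^ mα) ^ d * (γ ^ k₁) ^ n = (γ ^ mβ) ^ d * (γ ^ k₂) ^ n) : (n : ℤ) ∣ mα - mβ := by
  have h1 : γ ^ (mα * d + k₁ * n) = γ ^ (mβ * d + k₂ * n) := by
    rw [zpow_add₀ hγ0, zpow_add₀ hγ0, zpow_mul, zpow_mul, zpow_mul, zpow_mul, zpow_natCast,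
      zpow_natCast, zpow_natCast, zpow_natCast]
    exact h
  have h2 : mα * d + k₁ * n = mβ * d + k₂ * n :=
    zpow_right_injective₀ (zero_lt_iff.2 hγ0) hγ1 h1
  have h3 : (n : ℤ) ∣ (mα - mβ) * d := ⟨k₂ - k₁, by linarith⟩
  have hc : IsCoprime (n : ℤ) (d : ℤ) := Nat.isCoprime_iff_coprime.2 hcop
  exact hc.dvd_of_dvd_mul_right h3

end Link

end Fermat.Agent.S45.NUE.H51

end
end
-- ==== END Fermat.Agent.S45.NUE.H51_ValVecEAbs

-- ==== BEGIN Fermat.Agent.S45.NUE.H54_SepAbs
section

/-!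
# S45 / NU_e, package E-CHART (helper54): separating elements, abstract form

`T : TotN K F L k ι Z κ` a conservation datum whose components are indexed by `idx : ι → ℕ`
(injective; modular: `idx (a, b) = a`, the number of `F`-steps of the component `F^a V^(e-a)`),
`j0`, `jE ∈ F` (modular: `j (τ)` and `j (q^e τ)`) with the reductions of the pattern `F^a V^(e-a)`:

* `2 a ≥ e` : `rd_a jE = (rd_a j0) ^ (q ^ (2 a - e))`,
* `2 a ≤ e` : `rd_a j0 = (rd_a jE) ^ (q ^ (e - 2 a))`,

and the "primitive" one of the two reductions is not fixed by any power of Frobenius.  Then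

* `tauSep e q j0 jE a' = j0 ^ (q ^ (2 a' - e)) - jE` (`2 a' ≥ e`), `j0 - jE ^ (q ^ (e - 2 a'))`
  (`2 a' < e`) reduces to `0` on the component `a'` and to a non-zero function on every other
  component (`rdN_tauSep_self`, `rdN_tauSep_ne`);
* `hinc_of_frob` : the hypothesis `hinc` of `S36.NU.H88.chartHyp_chartOf`;
* `chartHyp_of_frob` : `ChartHyp` for the chart `chartOf T j res h`.

(S36, `e = 2`: `tauB = jdd - j0 ^ q ^ 2`, `tauA = jdd - j0`, `tauC = j0 - jdd ^ q ^ 2`.)
-/

set_option autoImplicit false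
set_option linter.unusedSectionVars false
set_option linter.style.haveILetI false
set_option linter.unusedVariables false

noncomputable section

namespace Fermat.Agent.S45.NUE.H54

open Fermat.Agent.S36.NU.H16 Fermat.Agent.S36.NU.H17 Fermat.Agent.S36.NU.H24
  Fermat.Agent.S36.NU.H65 Fermat.Agent.S36.NU.H79 Fermat.Agent.S36.NU.H88

section Frob

variable {E : Type*} [Field E] {q : ℕ}

/-- In characteristic `q`: `x ^ q ^ m ≠ x ^ q ^ m'` for `m ≠ m'` if no power of Frobenius fixes
`x`. -/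
theorem pow_frob_ne [CharP E q] (hq : q.Prime) {x : E}
    (hx : ∀ m : ℕ, 0 < m → x ^ q ^ m ≠ x) {m m' : ℕ} (hm : m ≠ m') :
    x ^ q ^ m - x ^ q ^ m' ≠ 0 := by
  haveI : Fact q.Prime := ⟨hq⟩
  rcases Nat.lt_or_gt_of_ne hm with h | h
  · -- `m < m'`
    obtain ⟨d, rfl⟩ : ∃ d, m' = m + d := ⟨m' - m, by omega⟩
    have hd : 0 < d := by omega
    have e1 : x ^ q ^ m - x ^ q ^ (m + d) = (x - x ^ q ^ d) ^ q ^ m := by
      rw [sub_pow_char_pow, ← pow_mul, ← pow_add, add_comm d m]
    rw [e1]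
    exact pow_ne_zero _ (sub_ne_zero.2 (hx d hd).symm)
  · obtain ⟨d, rfl⟩ : ∃ d, m = m' + d := ⟨m - m', by omega⟩
    have hd : 0 < d := by omega
    have e1 : x ^ q ^ (m' + d) - x ^ q ^ m' = (x ^ q ^ d - x) ^ q ^ m' := by
      rw [sub_pow_char_pow, ← pow_mul, ← pow_add, add_comm d m']
    rw [e1]
    exact pow_ne_zero _ (sub_ne_zero.2 (hx d hd))

end Frob

section Sep

variable {R K F L k ι Z : Type*} {κ : ι → Type*} [CommRing R] [Field K] [Field F] [Field L]
  [Algebra K L] [Algebra F L] [Algebra R F] [Field k] [Fintype ι] [∀ i, Field (κ i)]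
  [∀ i, Algebra k (κ i)]

/-- The separating element of the component `a'`. -/
def tauSep (e q : ℕ) (j0 jE : F) (a' : ℕ) : F :=
  if e ≤ 2 * a' then j0 ^ q ^ (2 * a' - e) - jE else j0 - jE ^ q ^ (e - 2 * a')

theorem tauSep_mem (e q : ℕ) {j0 jE : F} (S : Subalgebra R F) (h0 : j0 ∈ S) (hE : jE ∈ S)
    (a' : ℕ) : tauSep e q j0 jE a' ∈ S := by
  unfold tauSep
  split_ifs
  · exact S.sub_mem (S.pow_mem h0 _) hE
  · exact S.sub_mem h0 (S.pow_mem hE _)

theorem tauSep_mem_V (e q : ℕ) {j0 jE : F} (V : ValuationSubring F) (h0 : j0 ∈ V)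
    (hE : jE ∈ V) (a' : ℕ) : tauSep e q j0 jE a' ∈ V := by
  unfold tauSep
  split_ifs
  · exact V.sub_mem (V.pow_mem h0 _) hE
  · exact V.sub_mem h0 (V.pow_mem hE _)

variable (T : TotN K F L k ι Z κ) (e q : ℕ) (idx : ι → ℕ) (j0 jE : F)

/-- The hypotheses on the reductions of `j0` and `jE`: the pattern `F^a V^(e-a)`. -/
structure FrobPattern : Prop where
  q_prime : q.Prime
  charq : ∀ i, CharP (κ i) q
  idx_inj : Function.Injective idx
  mem0 : ∀ i, j0 ∈ T.V i
  memE : ∀ i, jE ∈ T.V i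
  ge : ∀ i, e ≤ 2 * idx i → T.rdN i jE = T.rdN i j0 ^ q ^ (2 * idx i - e)
  le : ∀ i, 2 * idx i ≤ e → T.rdN i j0 = T.rdN i jE ^ q ^ (e - 2 * idx i)
  nc0 : ∀ i, e ≤ 2 * idx i → ∀ m : ℕ, 0 < m → T.rdN i j0 ^ q ^ m ≠ T.rdN i j0
  ncE : ∀ i, 2 * idx i ≤ e → ∀ m : ℕ, 0 < m → T.rdN i jE ^ q ^ m ≠ T.rdN i jE

variable {T e q idx j0 jE}

theorem rdN_tauSep (P : FrobPattern T e q idx j0 jE) (i : ι) (a' : ℕ) :
    T.rdN i (tauSep e q j0 jE a') =
      if e ≤ 2 * a' then T.rdN i j0 ^ q ^ (2 * a' - e) - T.rdN i jE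
      else T.rdN i j0 - T.rdN i jE ^ q ^ (e - 2 * a') := by
  unfold tauSep
  split_ifs
  · rw [T.rdN_sub ((T.V i).pow_mem (P.mem0 i) _) (P.memE i), T.rdN_pow (P.mem0 i)]
  · rw [T.rdN_sub (P.mem0 i) ((T.V i).pow_mem (P.memE i) _), T.rdN_pow (P.memE i)]

/-- `τ_{a'}` vanishes on the component `a'`. -/
theorem rdN_tauSep_self (P : FrobPattern T e q idx j0 jE) (i' : ι) :
    T.rdN i' (tauSep e q j0 jE (idx i')) = 0 := by
  rw [rdN_tauSep P]
  split_ifs with h
  · rw [P.ge i' h, sub_self]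
  · rw [P.le i' (by omega), sub_self]

/-- `τ_{a'}` does not vanish on the other components. -/
theorem rdN_tauSep_ne (P : FrobPattern T e q idx j0 jE) {i i' : ι} (hii : i ≠ i') :
    T.rdN i (tauSep e q j0 jE (idx i')) ≠ 0 := by
  haveI := P.charq i
  have hq := P.q_prime
  have hne : idx i ≠ idx i' := fun h => hii (P.idx_inj h)
  rw [rdN_tauSep P]
  split_ifs with h'
  · -- `e ≤ 2 a'`
    by_cases h : e ≤ 2 * idx i
    · rw [P.ge i h]
      exact pow_frob_ne hq (P.nc0 i h) (by omega)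
    · have hl : 2 * idx i ≤ e := by omega
      rw [P.le i hl, ← pow_mul, ← pow_add]
      exact sub_ne_zero.2 (P.ncE i hl _ (by omega))
  · -- `2 a' < e`
    by_cases h : e ≤ 2 * idx i
    · rw [P.ge i h, ← pow_mul, ← pow_add]
      exact sub_ne_zero.2 (P.nc0 i h _ (by omega)).symm
    · have hl : 2 * idx i ≤ e := by omega
      rw [P.le i hl]
      exact pow_frob_ne hq (P.ncE i hl) (by omega)

/-- **The separating elements** (hypothesis `hinc` of `H88.chartHyp_chartOf`). -/
theorem hinc_of_frob (P : FrobPattern T e q idx j0 jE) (j : F)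
    (hint0 : j0 ∈ intSub R j) (hintE : jE ∈ intSub R j) :
    ∀ i i' : ι, i ≠ i' → ∃ τ : F, τ ∈ intSub R j ∧ T.rdN i' τ = 0 ∧ T.rdN i τ ≠ 0 :=
  fun i i' hii => ⟨tauSep e q j0 jE (idx i'), tauSep_mem e q _ hint0 hintE _,
    rdN_tauSep_self P i', rdN_tauSep_ne P hii⟩

/-- **`ChartHyp`** for the chart of `j` from the pattern `F^a V^(e-a)`. -/
theorem chartHyp_of_frob (P : FrobPattern T e q idx j0 jE) (j : F) (res : R →+* k)
    (h : ChartInput T j res) (hint0 : j0 ∈ intSub R j) (hintE : jE ∈ intSub R j)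
    (n : ℕ) (hn : 0 < n) (hcop : Nat.Coprime n q) :
    ChartHyp (chartOf T j res h) q n :=
  chartHyp_chartOf T j res h q n P.q_prime P.charq hn hcop (hinc_of_frob P j hint0 hintE)

end Sep

end Fermat.Agent.S45.NUE.H54

end
end
-- ==== END Fermat.Agent.S45.NUE.H54_SepAbs

-- ==== BEGIN Fermat.Agent.S45.NUE.H60_PoleSer
section

set_option autoImplicit false
set_option linter.unusedSectionVars false

noncomputable section

open ModularCurve HahnSeries

namespace Fermat.Agent.S45.NUE.H60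

open Fermat.Agent.S36.NU

section Kron

variable (q : ℕ) [NeZero q] [Fact q.Prime]

/-- The step: from `q ∣ u ^ (q ^ E) - u (t ^ (q ^ E))` to the congruence modulo `q²` at
`E + 1`. -/
theorem powE_step (u : LaurentSeries ℤ) (E : ℕ)
    (hdiv : ((q : ℕ) : LaurentSeries ℤ) ∣ u ^ (q ^ E) - qExpand ℤ (q ^ E) u) :
    ∃ h : LaurentSeries ℤ, u ^ (q ^ (E + 1)) - qExpand ℤ (q ^ (E + 1)) u
      = ((q : ℕ) : LaurentSeries ℤ) *
          (qExpand ℤ (q ^ E) (H65.kdel q u) + ((q : ℕ) : LaurentSeries ℤ) * h) := by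
  obtain ⟨h, hh⟩ := dvd_sub_pow_of_dvd_sub hdiv 1
  refine ⟨h, ?_⟩
  rw [pow_one] at hh
  -- `(φ^E u)^q = φ^(E+1) u + q φ^E δ`
  have h3 : qExpand ℤ (q ^ E) u ^ q = qExpand ℤ (q ^ (E + 1)) u
      + ((q : ℕ) : LaurentSeries ℤ) * qExpand ℤ (q ^ E) (H65.kdel q u) := by
    rw [← map_pow, H65.pow_eq q u, map_add, map_mul, map_natCast, qExpand_qExpand]
    rfl
  have h4 : u ^ (q ^ (E + 1)) = (u ^ (q ^ E)) ^ q := by rw [← pow_mul, pow_succ]
  rw [h4]
  linear_combination hh + h3

/-- `q ∣ u ^ (q ^ E) - u (t ^ (q ^ E))`. -/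
theorem dvd_powE_sub (u : LaurentSeries ℤ) (E : ℕ) :
    ((q : ℕ) : LaurentSeries ℤ) ∣ u ^ (q ^ E) - qExpand ℤ (q ^ E) u := by
  induction E with
  | zero =>
    have e1 : u ^ (q ^ 0) = u := by rw [pow_zero, pow_one]
    have e2 : qExpand ℤ (q ^ 0) u = u :=
      (qExpand_congr (pow_zero q) u).trans (qExpand_one_apply u)
    rw [e1, e2, sub_self]
    exact dvd_zero _
  | succ E ih =>
    obtain ⟨h, hh⟩ := powE_step q u E ih
    exact ⟨_, hh⟩

/-- **SS-POLE-SER**: `u ^ (q ^ E) - u (t ^ (q ^ E)) = q (δ (t ^ (q ^ (E - 1))) + q h)`. -/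
theorem powE_sub_eq (u : LaurentSeries ℤ) (E : ℕ) (hE : 1 ≤ E) :
    ∃ h : LaurentSeries ℤ, u ^ (q ^ E) - qExpand ℤ (q ^ E) u
      = ((q : ℕ) : LaurentSeries ℤ) *
          (qExpand ℤ (q ^ (E - 1)) (H65.kdel q u) + ((q : ℕ) : LaurentSeries ℤ) * h) := by
  obtain ⟨E', rfl⟩ : ∃ E', E = E' + 1 := ⟨E - 1, by omega⟩
  exact powE_step q u E' (dvd_powE_sub q u E')

end Kron

section Red

variable {k : Type*} [CommRing k] (q : ℕ) [NeZero q] [Fact q.Prime] [CharP k q]

/-- In characteristic `q`: the reduction of `x (t ^ (q ^ n))` is the `q ^ n`-th power of the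
reduction of `x`. -/
theorem coeffMap_qExpand_pow (x : LaurentSeries ℤ) (n : ℕ) :
    coeffMap (Int.castRingHom k) (qExpand ℤ (q ^ n) x)
      = coeffMap (Int.castRingHom k) x ^ (q ^ n) := by
  induction n with
  | zero =>
    have e2 : qExpand ℤ (q ^ 0) x = x :=
      (qExpand_congr (pow_zero q) x).trans (qExpand_one_apply x)
    rw [e2, pow_zero, pow_one]
  | succ n ih =>
    have h1 : qExpand ℤ (q ^ (n + 1)) x = qExpand ℤ q (qExpand ℤ (q ^ n) x) := by
      rw [qExpand_qExpand]
      exact qExpand_congr (by rw [pow_succ, mul_comm]) x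
    rw [h1, coeffMap_qExpand, ih, map_pow, ← H65.intRed_pow q x, ← pow_mul, pow_succ, mul_comm]

end Red

end Fermat.Agent.S45.NUE.H60

end
end
-- ==== END Fermat.Agent.S45.NUE.H60_PoleSer

-- ==== BEGIN Fermat.Agent.S45.NUE.H60_SumE
section

set_option autoImplicit false

namespace Fermat.Agent.S45.NUE.H60

open Finset

/-- `∑_{b ≤ B} φ (q ^ b) = q ^ B`. -/
theorem sum_totient_pow (q : ℕ) (hq : q.Prime) (B : ℕ) :
    ∑ b ∈ range (B + 1), Nat.totient (q ^ b) = q ^ B := by
  induction B with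
  | zero => simp
  | succ B ih =>
    rw [sum_range_succ, ih, Nat.totient_prime_pow_succ hq, pow_succ]
    have h1 : 1 ≤ q := hq.one_le
    obtain ⟨k, rfl⟩ : ∃ k, q = k + 1 := ⟨q - 1, by omega⟩
    simp only [Nat.add_sub_cancel]
    ring

/-- The part `2 a ≤ e`: `∑_{a ≤ A} φ (q ^ a) q ^ (e - 2 a) + q ^ (e - A - 1) = q ^ e + q ^ (e - 1)`
for `2 A ≤ e`, `1 ≤ e`. -/
theorem sum_low (q : ℕ) (hq : q.Prime) (e : ℕ) (he : 0 < e) (A : ℕ) (hA : 2 * A ≤ e) :
    ∑ a ∈ range (A + 1), Nat.totient (q ^ a) * q ^ (e - 2 * a) + q ^ (e - A - 1) =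
      q ^ e + q ^ (e - 1) := by
  induction A with
  | zero => simp
  | succ A ih =>
    have ih' := ih (by omega)
    rw [sum_range_succ, Nat.totient_prime_pow_succ hq]
    have h1 : 1 ≤ q := hq.one_le
    -- exponents
    obtain ⟨m, hm⟩ : ∃ m, e = 2 * A + 2 + m := ⟨e - (2 * A + 2), by omega⟩
    have e1 : e - 2 * (A + 1) = m := by omega
    have e2 : e - (A + 1) - 1 = A + m := by omega
    have e3 : e - A - 1 = A + m + 1 := by omega
    rw [e1, e2]
    rw [e3] at ih'
    rw [← ih']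
    obtain ⟨k, rfl⟩ : ∃ k, q = k + 1 := ⟨q - 1, by omega⟩
    simp only [Nat.add_sub_cancel]
    ring

/-- **T7 ARITH**: the degree check for the `e + 1` valuations. -/
theorem sum_mE (q e : ℕ) (hq : q.Prime) (he : 0 < e) :
    ∑ a : Fin (e + 1), Nat.totient (q ^ min (a : ℕ) (e - a)) * q ^ (e - 2 * a) =
      q ^ e + q ^ (e - 1) := by
  rw [Fin.sum_univ_eq_sum_range
    (fun a : ℕ => Nat.totient (q ^ min a (e - a)) * q ^ (e - 2 * a)) (e + 1)]
  rw [← sum_filter_add_sum_filter_not (range (e + 1)) (fun a => 2 * a ≤ e)]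
  -- the first part
  have hf1 : (range (e + 1)).filter (fun a => 2 * a ≤ e) = range (e / 2 + 1) := by
    ext a
    simp only [mem_filter, mem_range]
    omega
  have hs1 : ∑ a ∈ (range (e + 1)).filter (fun a => 2 * a ≤ e),
      Nat.totient (q ^ min a (e - a)) * q ^ (e - 2 * a) =
      ∑ a ∈ range (e / 2 + 1), Nat.totient (q ^ a) * q ^ (e - 2 * a) := by
    rw [hf1]
    refine sum_congr rfl fun a ha => ?_
    have h : min a (e - a) = a := by
      rw [mem_range] at ha
      omega
    rw [h]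
  -- the second part
  have hs2 : ∑ a ∈ (range (e + 1)).filter (fun a => ¬ 2 * a ≤ e),
      Nat.totient (q ^ min a (e - a)) * q ^ (e - 2 * a) =
      ∑ b ∈ range (e - e / 2 - 1 + 1), Nat.totient (q ^ b) := by
    refine sum_nbij' (fun a => e - a) (fun b => e - b) ?_ ?_ ?_ ?_ ?_
    · intro a ha
      simp only [mem_filter, mem_range] at ha
      simp only [mem_range]
      omega
    · intro b hb
      simp only [mem_range] at hb
      simp only [mem_filter, mem_range]
      omega
    · intro a ha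
      simp only [mem_filter, mem_range] at ha
      omega
    · intro b hb
      simp only [mem_range] at hb
      omega
    · intro a ha
      simp only [mem_filter, mem_range] at ha
      have h : min a (e - a) = e - a := by omega
      have h' : e - 2 * a = 0 := by omega
      rw [h, h', pow_zero, mul_one]
  rw [hs1, hs2, sum_totient_pow q hq]
  exact sum_low q hq e he (e / 2) (by omega)

/-- `φ (q ^ m) q ^ (n - m) = φ (q ^ n)` for `1 ≤ m ≤ n`. -/
theorem totient_pow_mul_pow (q : ℕ) (hq : q.Prime) {m n : ℕ} (hm : 1 ≤ m) (hmn : m ≤ n) :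
    Nat.totient (q ^ m) * q ^ (n - m) = Nat.totient (q ^ n) := by
  rw [Nat.totient_prime_pow hq (by omega : 0 < m), Nat.totient_prime_pow hq (by omega : 0 < n)]
  have h : n - 1 = (m - 1) + (n - m) := by omega
  rw [h, pow_add]
  ring

/-- **E-PT-SS, arithmetic**: `∑_{n < E} φ (q ^ min n (E - n)) q ^ (n - min n (E - n)) = q ^ (E - 1)`
(the term of `n ≥ 1` is `q ^ n - q ^ (n - 1)`). -/
theorem sum_ordE (q E : ℕ) (hq : q.Prime) (hE : 1 ≤ E) :
    ∑ n ∈ Finset.range E, Nat.totient (q ^ min n (E - n)) * q ^ (n - min n (E - n)) =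
      q ^ (E - 1) := by
  have hterm : ∀ n ∈ Finset.range E,
      Nat.totient (q ^ min n (E - n)) * q ^ (n - min n (E - n)) = Nat.totient (q ^ n) := by
    intro n hn
    rw [Finset.mem_range] at hn
    rcases Nat.eq_zero_or_pos n with rfl | hpos
    · simp
    · exact totient_pow_mul_pow q hq (by omega) (min_le_left _ _)
  rw [Finset.sum_congr rfl hterm]
  obtain ⟨B, rfl⟩ : ∃ B, E = B + 1 := ⟨E - 1, by omega⟩
  rw [sum_totient_pow q hq B, Nat.add_sub_cancel]

end Fermat.Agent.S45.NUE.H60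

end
-- ==== END Fermat.Agent.S45.NUE.H60_SumE

-- ==== BEGIN Fermat.Agent.S45.NUE.H62_FrW
section

/-!
# S45 / NU_e, package E-TOT, leaf T1 FRW (helper62): the `Fr^w`-twisted structure

`E ⊂ k((t))` a `φ`-stable field over the perfect field `k` of characteristic `q`, `E''` a field
with an isomorphism `e : E'' ≃+* E`, and `E` an `E''`-algebra through `Fr^w ∘ e`
(`Fr : t ↦ t ^ q`).  This generalises `BAD.H73` (`w = 1`) and `S36.NU.H23` (`w = 2`).
(Modular: the residue field of `V_a` at level `q^e M'` over the residue field of level `M'`,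
`w = max (e - 2 a) 0`.)

* `coe_iterate_FrE : ((Fr^w x : E) : k((t))) = qExpand (q ^ w) x`;
* `iterate_FrE_iterate_frobE : Fr^w (φ^w x) = x ^ (q ^ w)`;
* `isPurelyInseparable_of_FrW`;
* `finrank_of_FrW : [E : E''] = q ^ w`;
* `norm_of_FrW : N_{E/E''} g = e⁻¹ (φ^w g)`;
* `ord_norm_of_FrW : ord_z (e (N g)) = ord_{β^w z} g`.
-/

set_option autoImplicit false
set_option synthInstance.maxHeartbeats 400000
set_option maxHeartbeats 1000000
set_option linter.style.haveILetI false
set_option linter.unusedSectionVars false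

noncomputable section

open ModularCurve AlgebraicCurve Polynomial IntermediateField

namespace Fermat.Agent.S45.NUE.H62

open Fermat.Agent.BAD.H73

universe u v

section TwistW

variable {k : Type v} [Field k] {q : ℕ} [Fact q.Prime] [CharP k q] [PerfectRing k q]
variable {E : IntermediateField k (LaurentSeries k)} (h : FrobStable q E)

/-! ## Iterates of `Fr`, `φ`, `β` -/

/-- `Fr^w` as a ring endomorphism of `E`. -/
def FrWHom : ℕ → (↥E →+* ↥E)
  | 0 => RingHom.id _
  | (w + 1) => (FrE h).toRingHom.comp (FrWHom w)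

theorem FrWHom_apply (w : ℕ) (x : ↥E) : FrWHom h w x = (FrE h)^[w] x := by
  induction w with
  | zero => rfl
  | succ w ih =>
    have e1 : (FrE h)^[w + 1] x = FrE h ((FrE h)^[w] x) := Function.iterate_succ_apply' _ _ _
    rw [e1, ← ih]
    rfl

/-- `Fr^w x = x (t ^ (q ^ w))`. -/
theorem coe_iterate_FrE (w : ℕ) (x : ↥E) :
    ((((FrE h)^[w] x : ↥E)) : LaurentSeries k) = qExpand k (q ^ w) (x : LaurentSeries k) := by
  induction w with
  | zero =>
    rw [Function.iterate_zero_apply]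
    exact (qExpand_one_apply (x : LaurentSeries k)).symm.trans
      (_root_.ModularCurve.qExpand_congr (pow_zero q).symm _)
  | succ w ih =>
    have e1 : (FrE h)^[w + 1] x = FrE h ((FrE h)^[w] x) := Function.iterate_succ_apply' _ _ _
    rw [e1, coe_FrE, ih, qExpand_qExpand]
    exact _root_.ModularCurve.qExpand_congr (pow_succ' q w).symm _

/-- `Fr^w (y ^ m) = (Fr^w y) ^ m`. -/
theorem iterate_FrE_pow (w : ℕ) (y : ↥E) (m : ℕ) :
    (FrE h)^[w] (y ^ m) = ((FrE h)^[w] y) ^ m := by
  rw [← FrWHom_apply, ← FrWHom_apply, map_pow]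

/-- `Fr^w (φ^w x) = x ^ (q ^ w)`. -/
theorem iterate_FrE_iterate_frobE (w : ℕ) (x : ↥E) :
    (FrE h)^[w] ((frobE h)^[w] x) = x ^ (q ^ w) := by
  induction w with
  | zero => rw [Function.iterate_zero_apply, Function.iterate_zero_apply, pow_zero, pow_one]
  | succ w ih =>
    have e1 : (frobE h)^[w + 1] x = frobE h ((frobE h)^[w] x) :=
      Function.iterate_succ_apply' _ _ _
    have e2 : (FrE h)^[w + 1] (frobE h ((frobE h)^[w] x))
        = (FrE h)^[w] (FrE h (frobE h ((frobE h)^[w] x))) :=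
      Function.iterate_succ_apply _ _ _
    rw [e1, e2, FrE_frobE, iterate_FrE_pow, ih, ← pow_mul, pow_succ]

/-- `ord_{β^w z} y = ord_z (φ^w y)`. -/
theorem iterate_beta_ord (w : ℕ) (z : Place k ↥E) (y : ↥E) :
    ((beta h)^[w] z).ord y = z.ord ((frobE h)^[w] y) := by
  induction w generalizing y with
  | zero => rfl
  | succ w ih =>
    have e1 : (beta h)^[w + 1] z = beta h ((beta h)^[w] z) :=
      Function.iterate_succ_apply' _ _ _
    have e2 : (frobE h)^[w + 1] y = (frobE h)^[w] (frobE h y) :=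
      Function.iterate_succ_apply _ _ _
    rw [e1, beta_ord, ih, e2]

/-! ## The twisted structure -/

/-- A copy of `E`, the middle of the tower `E'' → E → E`. -/
def MidW (_h : FrobStable q E) : Type v := ↥E

instance : Field (MidW h) := inferInstanceAs (Field ↥E)

/-- the identification -/
def midWEquiv : MidW h ≃+* ↥E := RingEquiv.refl ↥E

/-- `E` over the middle copy, through `Fr`. -/
@[reducible] def algMidWTop : Algebra (MidW h) ↥E :=
  ((FrE h).toRingHom.comp (midWEquiv h).toRingHom).toAlgebra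

variable {E'' : Type u} [Field E''] (e : E'' ≃+* ↥E)

/-- The structure map `Fr^w ∘ e`. -/
@[reducible] def algW (w : ℕ) : Algebra E'' ↥E := ((FrWHom h w).comp e.toRingHom).toAlgebra

theorem algW_algebraMap (w : ℕ) (a : E'') :
    @algebraMap E'' ↥E _ _ (algW h e w) a = (FrE h)^[w] (e a) := by
  rw [← FrWHom_apply]
  rfl

/-- The middle copy over `E''`, through `Fr^w ∘ e`. -/
@[reducible] def algBotMidW (w : ℕ) : Algebra E'' (MidW h) :=
  ((midWEquiv h).symm.toRingHom.comp ((FrWHom h w).comp e.toRingHom)).toAlgebra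

/-- A bijective structure map has degree one. -/
theorem finrank_eq_one_of_bijective {K L : Type*} [Field K] [Field L] [Algebra K L]
    (hb : Function.Bijective (algebraMap K L)) : Module.finrank K L = 1 := by
  have e1 : K ≃ₗ[K] L := LinearEquiv.ofBijective (Algebra.linearMap K L) hb
  rw [← e1.finrank_eq, Module.finrank_self]

/-- **`[E : E''] = q ^ w`**, for every algebra structure with structure map `Fr^w ∘ e`. -/
theorem finrank_of_FrW_aux (x : ↥E) {n : ℤ} (hn : ¬ (q : ℤ) ∣ n)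
    (hx : (x : LaurentSeries k).coeff n ≠ 0)
    (hsep : ∀ y ∈ E, IsSeparable ↥(IntermediateField.adjoin k {(x : LaurentSeries k)}) y)
    (w : ℕ) : ∀ (alg : Algebra E'' ↥E),
      (∀ a : E'', @algebraMap E'' ↥E _ _ alg a = (FrE h)^[w] (e a)) →
      @Module.finrank E'' ↥E _ _ alg.toModule = q ^ w := by
  induction w with
  | zero =>
    intro alg he
    letI := alg
    rw [pow_zero]
    apply finrank_eq_one_of_bijective
    have hfun : ⇑(algebraMap E'' ↥E) = ⇑e := funext fun a => he a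
    rw [hfun]
    exact e.bijective
  | succ w ih =>
    intro alg he
    letI := alg
    letI := algBotMidW h e w
    letI := algMidWTop h
    haveI : IsScalarTower E'' (MidW h) ↥E := by
      refine IsScalarTower.of_algebraMap_eq fun a => ?_
      have e1 : (FrE h)^[w + 1] (e a) = FrE h ((FrE h)^[w] (e a)) :=
        Function.iterate_succ_apply' _ _ _
      refine (he a).trans ?_
      rw [e1, ← FrWHom_apply]
      rfl
    -- the upper step
    have h2 : Module.finrank (MidW h) ↥E = q :=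
      finrank_of_Fr h (midWEquiv h) (fun _ => rfl) x hn hx hsep
    -- the lower step
    have h1 : Module.finrank E'' (MidW h) = q ^ w := by
      have h3 : @Module.finrank E'' ↥E _ _ (algW h e w).toModule = q ^ w :=
        ih (algW h e w) (algW_algebraMap h e w)
      exact h3
    haveI : Module.Free (MidW h) ↥E := Module.Free.of_divisionRing _ _
    haveI : Module.Free E'' (MidW h) := Module.Free.of_divisionRing _ _
    rw [← Module.finrank_mul_finrank E'' (MidW h) ↥E, h1, h2, pow_succ]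

variable [Algebra E'' ↥E] (w : ℕ)
variable (he : ∀ a : E'', algebraMap E'' ↥E a = (FrE h)^[w] (e a))

include he in
/-- `x ^ (q ^ w)` is in the image of `E''`. -/
theorem pow_qw_eq_algebraMap (x : ↥E) :
    x ^ (q ^ w) = algebraMap E'' ↥E (e.symm ((frobE h)^[w] x)) := by
  rw [he, e.apply_symm_apply, iterate_FrE_iterate_frobE]

include e he in
/-- `E` is purely inseparable over `E''` (structure map `Fr^w ∘ e`). -/
theorem isPurelyInseparable_of_FrW : IsPurelyInseparable E'' ↥E := by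
  have : CharP E'' q := charP_of_equiv e
  rw [isPurelyInseparable_iff_pow_mem E'' q]
  intro x
  exact ⟨w, e.symm ((frobE h)^[w] x), (pow_qw_eq_algebraMap h e w he x).symm⟩

include e he in
/-- **`[E : E''] = q ^ w`** for the structure map `Fr^w ∘ e`, if `E` is separable over `k(x)`
for one `x ∈ E` which is not a series in `t ^ q`. -/
theorem finrank_of_FrW (x : ↥E) {n : ℤ} (hn : ¬ (q : ℤ) ∣ n)
    (hx : (x : LaurentSeries k).coeff n ≠ 0)
    (hsep : ∀ y ∈ E, IsSeparable ↥(IntermediateField.adjoin k {(x : LaurentSeries k)}) y) :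
    Module.finrank E'' ↥E = q ^ w :=
  finrank_of_FrW_aux h e x hn hx hsep w _ he

include e he in
/-- **`N_{E/E''} g = e⁻¹ (φ^w g)`** for the structure map `Fr^w ∘ e`. -/
theorem norm_of_FrW (x : ↥E) {n : ℤ} (hn : ¬ (q : ℤ) ∣ n)
    (hx : (x : LaurentSeries k).coeff n ≠ 0)
    (hsep : ∀ y ∈ E, IsSeparable ↥(IntermediateField.adjoin k {(x : LaurentSeries k)}) y)
    (g : ↥E) : Algebra.norm E'' g = e.symm ((frobE h)^[w] g) := by
  have : CharP E'' q := charP_of_equiv e
  have : IsPurelyInseparable E'' ↥E := isPurelyInseparable_of_FrW h e w he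
  apply (algebraMap E'' ↥E).injective
  rw [algebraMap_norm_of_isPurelyInseparable q g, finrank_of_FrW h e w he x hn hx hsep,
    pow_qw_eq_algebraMap h e w he]

include e he in
/-- **`ord_z (e (N_{E/E''} g)) = ord_{β^w z} g`**. -/
theorem ord_norm_of_FrW (x : ↥E) {n : ℤ} (hn : ¬ (q : ℤ) ∣ n)
    (hx : (x : LaurentSeries k).coeff n ≠ 0)
    (hsep : ∀ y ∈ E, IsSeparable ↥(IntermediateField.adjoin k {(x : LaurentSeries k)}) y)
    (z : Place k ↥E) (g : ↥E) :
    z.ord (e (Algebra.norm E'' g)) = ((beta h)^[w] z).ord g := by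
  rw [norm_of_FrW h e w he x hn hx hsep, e.apply_symm_apply, iterate_beta_ord]

include he in
/-- The structure map in terms of series: `a ↦ (e a)(t ^ (q ^ w))`. -/
theorem coe_algebraMap_of_FrW (a : E'') :
    ((algebraMap E'' ↥E a : ↥E) : LaurentSeries k)
      = qExpand k (q ^ w) ((e a : ↥E) : LaurentSeries k) := by
  rw [he, coe_iterate_FrE]

end TwistW

end Fermat.Agent.S45.NUE.H62

end
end
-- ==== END Fermat.Agent.S45.NUE.H62_FrW

-- ==== BEGIN Fermat.Agent.S45.NUE.H65_ValE
section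

/-!
# S45 / NU_e, package E-FIN, leaf VALE_e (helper65): the ramification indices, from `NRData`

ABSTRACT and index-generic: for ANY norm-reduction datum `D : H42.NRData E L Et ι κ` with the
degree formula `hdeg : ∑ i, D.e i * [κ i : Et] = [L : E]` (E-TOT), and ANY chart `C` on `L` with
`C.V i = D.V (idx i)` and `algebraMap qR = ϖ`:

* `valE_of_nrData : H99.ValE C qR (fun i => D.e (idx i))`, i.e. `f ∈ 𝔪_{V i} ⟹ f ^ e i ∈ q V i`
  (input `hE` of `H16.locEq_ss_*`, `H99.locEq_ord_crit_*`, `H88.ChartOoE`);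
* `q_mem_nonunits_of_nrData` : `q` is a nonunit of all `C.V i` (input `hqV`);
* `exact_of_nrData`, `val_ϖ_lt_one_of_nrData` : the two ingredients.

Modular use: `D` = the `NRData` of `L0 A N` over `L0 A M'` of E-TOT (`ϖ = piE`, image `q`),
`D.e a = φ(q ^ min a (e - a))`.
-/

set_option autoImplicit false
set_option linter.unusedSectionVars false
set_option linter.style.haveILetI false

noncomputable section

namespace Fermat.Agent.S45.NUE.H65

open Fermat.Agent.BAD Fermat.Agent.S36.NU Fermat.Agent.S36.NU.H16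

section Abs

variable {E L Et : Type} [Field E] [Field L] [Field Et] [Algebra E L]
  {ι : Type} {κ : ι → Type} [∀ i, Field (κ i)] [∀ i, Algebra Et (κ i)]
  [Fintype ι] [DecidableEq ι] [Module.Finite E L]

/-- **EXACT** (restated): the value group of `D.V i` is generated by the value of `D.π i`. -/
theorem exact_of_nrData (D : H42.NRData E L Et ι κ)
    (hdeg : ∑ i, D.e i * Module.finrank Et (κ i) = Module.finrank E L) (i : ι) (x : L)
    (hx : x ≠ 0) : ∃ m : ℤ, (D.V i).valuation x = (D.V i).valuation (D.π i) ^ m :=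
  H79.nv_exists_val_eq_zpow D hdeg i x hx

/-- **VALe on one valuation ring of an `NRData`.** -/
theorem pow_eq_mul_of_nrData (D : H42.NRData E L Et ι κ)
    (hdeg : ∑ i, D.e i * Module.finrank Et (κ i) = Module.finrank E L) (i : ι) (f : L)
    (hf : f ∈ (D.V i).nonunits) : ∃ f' ∈ D.V i, f ^ D.e i = algebraMap E L D.ϖ * f' :=
  H22.pow_eq_mul_of_exact (D.V i) (algebraMap E L D.ϖ) (D.π i) (D.e i) (D.he i)
    (D.val_ϖ_lt_one i) D.ϖL_ne_zero (D.hram i) (exact_of_nrData D hdeg i) f hf

variable {R k' ι' : Type*} {κ' : ι' → Type*} [CommRing R] [Algebra R L] [Field k']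
  [∀ i, Field (κ' i)] [∀ i, Algebra k' (κ' i)]

/-- **VALE_e**: `H99.ValE` for any chart whose valuation rings are those of an `NRData` with the
degree formula. -/
theorem valE_of_nrData (D : H42.NRData E L Et ι κ)
    (hdeg : ∑ i, D.e i * Module.finrank Et (κ i) = Module.finrank E L)
    (C : Chart R L k' ι' κ') (idx : ι' → ι) (hV : ∀ i, C.V i = D.V (idx i)) (qR : R)
    (hqR : algebraMap R L qR = algebraMap E L D.ϖ) :
    H99.ValE C qR (fun i => D.e (idx i)) := by
  intro i f hf
  rw [hqR]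
  rw [hV i] at hf ⊢
  exact pow_eq_mul_of_nrData D hdeg (idx i) f hf

/-- `ValE` with a prescribed family of exponents. -/
theorem valE_of_nrData' (D : H42.NRData E L Et ι κ)
    (hdeg : ∑ i, D.e i * Module.finrank Et (κ i) = Module.finrank E L)
    (C : Chart R L k' ι' κ') (idx : ι' → ι) (hV : ∀ i, C.V i = D.V (idx i)) (qR : R)
    (hqR : algebraMap R L qR = algebraMap E L D.ϖ) (e : ι' → ℕ)
    (he : ∀ i, e i = D.e (idx i)) : H99.ValE C qR e := by
  have h : e = fun i => D.e (idx i) := funext he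
  rw [h]
  exact valE_of_nrData D hdeg C idx hV qR hqR

omit [Fintype ι] [DecidableEq ι] [Module.Finite E L] in
/-- `q` is a nonunit of all the valuation rings of the chart (input `hqV`). -/
theorem q_mem_nonunits_of_nrData (D : H42.NRData E L Et ι κ)
    (C : Chart R L k' ι' κ') (idx : ι' → ι) (hV : ∀ i, C.V i = D.V (idx i)) (qR : R)
    (hqR : algebraMap R L qR = algebraMap E L D.ϖ) (i : ι') :
    algebraMap R L qR ∈ (C.V i).nonunits := by
  rw [hqR, hV i, ValuationSubring.mem_nonunits_iff]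
  exact D.val_ϖ_lt_one (idx i)

omit [Fintype ι] [DecidableEq ι] [Module.Finite E L] in
/-- `q ≠ 0` in `L` (input `hq0`). -/
theorem q_ne_zero_of_nrData (D : H42.NRData E L Et ι κ) (qR : R)
    (hqR : algebraMap R L qR = algebraMap E L D.ϖ) : algebraMap R L qR ≠ 0 := by
  rw [hqR]
  exact D.ϖL_ne_zero

end Abs

end Fermat.Agent.S45.NUE.H65

end
end
-- ==== END Fermat.Agent.S45.NUE.H65_ValE

-- ==== BEGIN Fermat.Agent.S45.NUE.H68_LocEqSSE
section

/-!
# S45 / NU_e, package E-FIN, leaf E-PT-SS, abstract part (helper68)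

The local equation at a supersingular point of a chart with ANY finite set `ι` of components
(level `M' q^E`: `ι = Fin (E + 1)`, multiplicities `e a = φ(q^min(a, E - a))`).

* `locEq_ss_ordE` : `t : ι → B` with `t i ^ e i ∈ q V i`, a distinguished component `i₀` of
  multiplicity one with `t i₀ = q d`, `d ∈ V i₀`, a place `z` of the residue field of `i₀` with
  `ord_z (rd (t i)) > 0` for `i ≠ i₀` and
  `ord_z (rd d) + ∑_{i ≠ i₀} e i * ord_z (rd (t i)) = 0`
  ⟹ all components pass through the point `𝔪_z` of the chart and there is a local equation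
  datum `q W = ∏ t i ^ e i`, `W ∉ 𝔪_z`.  (S36 `H16.locEq_ss_coord` is the case of three
  components.)
-/

set_option autoImplicit false

noncomputable section

namespace Fermat.Agent.S45.NUE.H68

open Fermat.Agent.S36.NU Fermat.Agent.S36.NU.H16 AlgebraicCurve Fermat.Agent.RED.H17

/-- **The local equations at a supersingular point of level `M' q^E`**, in terms of
`x = f(τ)` and `y = f(q^E τ)` only: on the component `n` (`n` = number of `F`-steps,
pattern `F^n V^(E-n)`) `t_n = x ^ q^(2n-E) - y` if `E ≤ 2n` and `t_n = x - y ^ q^(E-2n)`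
otherwise.  (`E = 2`: `t₂ = x^{q²} - y`, `t₁ = x - y`, `t₀ = x - y^{q²}`.) -/
def tE {S : Type*} [CommRing S] (q E n : ℕ) (x y : S) : S :=
  if E ≤ 2 * n then x ^ q ^ (2 * n - E) - y else x - y ^ q ^ (E - 2 * n)

theorem tE_of_le {S : Type*} [CommRing S] (q E n : ℕ) (x y : S) (h : E ≤ 2 * n) :
    tE q E n x y = x ^ q ^ (2 * n - E) - y := if_pos h

theorem tE_of_lt {S : Type*} [CommRing S] (q E n : ℕ) (x y : S) (h : 2 * n < E) :
    tE q E n x y = x - y ^ q ^ (E - 2 * n) := if_neg (by omega)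

theorem tE_top {S : Type*} [CommRing S] (q E : ℕ) (x y : S) :
    tE q E E x y = x ^ q ^ E - y := by
  rw [tE_of_le q E E x y (by omega)]
  congr 3
  omega

theorem map_tE {S S' : Type*} [CommRing S] [CommRing S'] (φ : S →+* S') (q E n : ℕ) (x y : S) :
    φ (tE q E n x y) = tE q E n (φ x) (φ y) := by
  unfold tE
  split_ifs <;> simp

variable {R F k ι : Type*} {κ : ι → Type*} [CommRing R] [Field F] [Algebra R F]
  [Field k] [∀ i, Field (κ i)] [∀ i, Algebra k (κ i)]

/-- **LOCEQ-SS, abstract, any number of components.** -/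
theorem locEq_ss_ordE [Fintype ι] [DecidableEq ι] (C : Chart R F k ι κ) (qR : R)
    (hq0 : algebraMap R F qR ≠ 0)
    (hqV : ∀ i, algebraMap R F qR ∈ (C.V i).nonunits)
    (H : Subring F) (hBH : ∀ x ∈ C.B, x ∈ H) (hqH : (algebraMap R F qR)⁻¹ ∈ H)
    (crit : ∀ f ∈ H, (∀ i, f ∈ C.V i) → f ∈ C.B)
    (e : ι → ℕ) (hE : H99.ValE C qR e) (he : ∀ i, 0 < e i)
    (i₀ : ι) (he₀ : e i₀ = 1) (t : ι → C.B)
    (d : F) (hdV : d ∈ C.V i₀) (hd : (t i₀ : F) = algebraMap R F qR * d)
    (hpow : ∀ i, i ≠ i₀ → ∃ f' ∈ C.V i, ((t i : F)) ^ e i = algebraMap R F qR * f')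
    (z : Place k (κ i₀))
    (hpos : ∀ i, i ≠ i₀ → 0 < z.ord (C.rdB i₀ (t i)))
    (hd0 : C.rd i₀ d ≠ 0)
    (hsum : z.ord (C.rd i₀ d)
      + ∑ i ∈ Finset.univ.erase i₀, (e i : ℤ) * z.ord (C.rdB i₀ (t i)) = 0)
    (𝔪 : Ideal C.B) [h𝔪p : 𝔪.IsPrime] (h𝔪 : ∀ β : C.B, β ∈ 𝔪 ↔ VanAt z (C.rdB i₀ β)) :
    (∀ i, C.Icomp i ≤ 𝔪) ∧ Nonempty (LocEq C qR 𝔪) := by
  classical
  have hpow' : ∀ i, ∃ f' ∈ C.V i, ((t i : F)) ^ e i = algebraMap R F qR * f' := by
    intro i
    by_cases hi : i = i₀
    · subst hi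
      exact ⟨d, hdV, by rw [he₀, pow_one, hd]⟩
    · exact hpow i hi
  obtain ⟨W, hWeq⟩ := exists_W_of_crit C qR hq0 H hBH hqH crit t e hpow'
  -- the residue of `t i₀` on the component `i₀`
  have hrdT₀ : C.rdB i₀ (t i₀) = 0 := by
    rw [← C.mem_Icomp, H99.mem_Icomp_iff_nonunits, hd]
    exact H99.mem_nonunits_of_mul (C.V i₀) (hqV i₀) hdV
  have hne : ∀ i, i ≠ i₀ → C.rdB i₀ (t i) ≠ 0 := by
    intro i hi h0
    have := hpos i hi
    rw [h0, Place.ord_zero] at this
    exact lt_irrefl _ this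
  -- the `t i` vanish at the point
  have htm : ∀ i, t i ∈ 𝔪 := by
    intro i
    rw [h𝔪]
    by_cases hi : i = i₀
    · subst hi
      rw [hrdT₀]
      exact vanAt_zero z
    · exact vanAt_of_ord_pos (hpos i hi)
  -- `W = d ∏_{i ≠ i₀} t i ^ e i`
  set P : C.B := ∏ i ∈ Finset.univ.erase i₀, t i ^ e i with hP
  have hprod : ∏ i, t i ^ e i = t i₀ * P := by
    rw [← Finset.mul_prod_erase Finset.univ _ (Finset.mem_univ i₀), he₀, pow_one]
  have hWF : (W : F) = d * (P : F) := by
    apply mul_left_cancel₀ hq0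
    have h1 : ((algebraMap R C.B qR * W : C.B) : F) = ((t i₀ * P : C.B) : F) := by
      rw [hWeq, hprod]
    have h2 : ((algebraMap R C.B qR * W : C.B) : F) = algebraMap R F qR * (W : F) := rfl
    have h3 : ((t i₀ * P : C.B) : F) = (t i₀ : F) * (P : F) := rfl
    rw [← h2, h1, h3, hd]
    ring
  have hrdP : C.rdB i₀ P = ∏ i ∈ Finset.univ.erase i₀, C.rdB i₀ (t i) ^ e i := by
    rw [hP, map_prod]
    exact Finset.prod_congr rfl fun i _ => map_pow _ _ _
  have hrdW : C.rdB i₀ W = C.rd i₀ d * ∏ i ∈ Finset.univ.erase i₀, C.rdB i₀ (t i) ^ e i := by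
    rw [← C.rd_coe, hWF, C.rd_mul i₀ hdV (C.B_le _ _ P.2), C.rd_coe, hrdP]
  have hP0 : ∏ i ∈ Finset.univ.erase i₀, C.rdB i₀ (t i) ^ e i ≠ 0 :=
    Finset.prod_ne_zero_iff.mpr fun i hi => pow_ne_zero _ (hne i (Finset.ne_of_mem_erase hi))
  have hordW : z.ord (C.rdB i₀ W) = 0 := by
    rw [hrdW, Place.ord_mul z hd0 hP0,
      ord_prod z _ _ (fun i hi => pow_ne_zero _ (hne i (Finset.ne_of_mem_erase hi)))]
    rw [← hsum]
    congr 1
    exact Finset.sum_congr rfl fun i _ => ord_pow z _ _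
  have hWm : W ∉ 𝔪 := by
    rw [h𝔪, vanAt_iff_ord]
    rintro (h | h)
    · rw [hrdW] at h
      exact mul_ne_zero hd0 hP0 h
    · rw [hordW] at h
      exact lt_irrefl _ h
  exact H99.locEq_ss C qR e hE hq0 hqV (valq_of_crit C qR hq0 H hBH hqH crit) 𝔪 he t W hWm htm
    hWeq hpow'

end Fermat.Agent.S45.NUE.H68

end
end
-- ==== END Fermat.Agent.S45.NUE.H68_LocEqSSE
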