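-- GENERATED (merged mirror, NOTES/tools/trim/merge3_helper67.py): 6 modules of the originals, bodies verbatim.
import Fermat.Agent.Zm.S36_L02_004
import Fermat.Agent.Zm.S36_L12_001
import Fermat.Agent.Zm.S36_L13_001
import Fermat.Agent.Zm.S36_L10_001
import Fermat.Agent.Zm.S36_L13_000
import Fermat.Agent.Zm.S36_L07_000
import Fermat.Agent.Zm.S36_L09_000

-- ==== BEGIN Fermat.Agent.S45.NUE.H73_CuspExp
section

/-!
# S45 / NU_e, package E-CUSP (helper73): expansions of the generators at the cusps `1/(q^b M)`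

Level `N = M q^e`, `q ∤ M`, `B M + k q^e = 1`.  `gE q M b` is the matrix `γ_b` with
`γ_b⁻¹ = !![1, 0; q^b M, 1]` (the cusp `γ_b⁻¹ ∞ = 1/(q^b M)`; `gE q M 1 = gMid q M`).
The generators of `F_N` are the `j (q^D)`, `D = d q^i`, `d ∣ M`, `i ≤ e` (`dvdE_cases`).

* `matE_le`, `matE_gt` : the Hermite forms of `diag(d q^i, 1) γ_b⁻¹`;
* `cuspU_gE_le` : for `i ≤ b`, `cuspU N γ_b (j (q^(d q^i))) = j (q^(d q^i))` (`q = u^N`);
* `cuspU_gE_gt` : for `b < i ≤ e`,
  `cuspU N γ_b (j (q^(d q^i))) = (twist (ζ_{q^(i-b)}^(B d)) j)(u^(M d q^(e - i + 2 b)))`;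
* `cuspU_gE_gt'` : for `b < i ≤ 2 b`, `i ≤ e`: `= j ((z q)^(d q^(2 b - i)))`, `z = ζ_{q^b}^B`,
  `q = u^N`.
-/

set_option autoImplicit false
set_option synthInstance.maxHeartbeats 400000
set_option maxHeartbeats 1000000
set_option linter.unusedSectionVars false
set_option linter.unusedVariables false
set_option linter.style.haveILetI false

noncomputable section

namespace Fermat.Agent.S45.NUE.H73

open Fermat.Agent.S24 Fermat.Agent.BAD.H88 ModularCurve UpperHalfPlane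
open Fermat.Agent.S36.NU.H88
open scoped MatrixGroups Manifold

/-! ## The matrices -/

/-- `γ_b` with `γ_b⁻¹ = !![1, 0; q^b M, 1]`: the cusp `γ_b⁻¹ ∞ = 1 / (q^b M)`. -/
def gE (q M b : ℕ) : SL(2, ℤ) :=
  ⟨!![1, 0; -((q : ℤ) ^ b * M), 1], by rw [Matrix.det_fin_two_of]; ring⟩

theorem gE_inv (q M b : ℕ) :
    ((gE q M b)⁻¹ : SL(2, ℤ)).1 = !![1, 0; (q : ℤ) ^ b * M, 1] := by
  rw [Matrix.SpecialLinearGroup.coe_inv, gE]
  simp [Matrix.adjugate_fin_two_of]

theorem gE_one (q M : ℕ) : gE q M 1 = gMid q M := by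
  apply Subtype.ext
  show (!![1, 0; -((q : ℤ) ^ 1 * M), 1] : Matrix (Fin 2) (Fin 2) ℤ) = !![1, 0; -((q : ℤ) * M), 1]
  rw [pow_one]

/-- `i ≤ b`: `diag(d q^i, 1) γ_b⁻¹ = δ diag(d q^i, 1)`. -/
theorem matE_le (q M d d' i b : ℕ) (hM : M = d * d') (hib : i ≤ b) :
    ∃ δ : SL(2, ℤ), (!![((d * q ^ i : ℕ) : ℤ), 0; 0, 1] : Matrix (Fin 2) (Fin 2) ℤ) *
        ((gE q M b)⁻¹ : SL(2, ℤ)).1
      = δ.1 * !![((d * q ^ i : ℕ) : ℤ), 0; 0, ((1 : ℕ) : ℤ)] := by
  obtain ⟨c, rfl⟩ := Nat.exists_eq_add_of_le hib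
  refine ⟨⟨!![1, 0; (q : ℤ) ^ c * d', 1], by rw [Matrix.det_fin_two_of]; ring⟩, ?_⟩
  rw [gE_inv]
  subst hM
  ext r s
  fin_cases r <;> fin_cases s
  all_goals simp [Matrix.mul_apply, Fin.sum_univ_two]
  all_goals try ring1

/-- `b < i ≤ e`: `diag(d q^i, 1) γ_b⁻¹ = δ !![d q^b, B d; 0, q^(i - b)]`. -/
theorem matE_gt (q M d d' e i b : ℕ) (B k : ℤ) (hB : B * M + k * (q : ℤ) ^ e = 1)
    (hM : M = d * d') (hbi : b < i) (hie : i ≤ e) :
    ∃ δ : SL(2, ℤ), (!![((d * q ^ i : ℕ) : ℤ), 0; 0, 1] : Matrix (Fin 2) (Fin 2) ℤ) *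
        ((gE q M b)⁻¹ : SL(2, ℤ)).1
      = δ.1 * !![((d * q ^ b : ℕ) : ℤ), B * d; 0, ((q ^ (i - b) : ℕ) : ℤ)] := by
  obtain ⟨c, rfl⟩ := Nat.exists_eq_add_of_le hbi.le
  obtain ⟨f, rfl⟩ := Nat.exists_eq_add_of_le hie
  have hc : b + c - b = c := by omega
  rw [hc]
  have hB' : B * ((d : ℤ) * d') + k * ((q : ℤ) ^ c * (q : ℤ) ^ f) * (q : ℤ) ^ b = 1 := by
    subst hM
    push_cast at hB
    rw [← hB]
    ring
  refine ⟨⟨!![(q : ℤ) ^ c, -(B * d); (d' : ℤ), k * (q : ℤ) ^ (b + f)], ?_⟩, ?_⟩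
  · rw [Matrix.det_fin_two_of]
    linear_combination hB'
  · rw [gE_inv]
    subst hM
    ext r s
    fin_cases r <;> fin_cases s
    all_goals simp [Matrix.mul_apply, Fin.sum_univ_two]
    all_goals first | ring1 | linear_combination (-1 : ℤ) * hB'

/-! ## Roots of unity -/

/-- `ζ_{a b}^a = ζ_b`. -/
theorem zetaK_mul_pow (a b : ℕ) [NeZero a] [NeZero b] [NeZero (a * b)] :
    zetaK (a * b) ^ a = zetaK b := by
  apply iotaC.injective
  rw [map_pow, iotaC_zetaK, iotaC_zetaK, ← Complex.exp_nat_mul]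
  congr 1
  have ha : (a : ℂ) ≠ 0 := Nat.cast_ne_zero.mpr (NeZero.ne a)
  have hb : (b : ℂ) ≠ 0 := Nat.cast_ne_zero.mpr (NeZero.ne b)
  push_cast
  field_simp

/-! ## Arithmetic of the level -/

section Level

variable (N q M e : ℕ) (B k : ℤ) (hN : N = M * q ^ e) (hB : B * M + k * (q : ℤ) ^ e = 1)
  (hq : q.Prime) [NeZero N] [NeZero q]

include hN hB hq

theorem coprimeE : Nat.Coprime M (q ^ e) := by
  have h : IsCoprime (M : ℤ) ((q ^ e : ℕ) : ℤ) := ⟨B, k, by push_cast; exact hB⟩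
  exact Nat.isCoprime_iff_coprime.mp h

theorem posE : 0 < M := by
  rcases Nat.eq_zero_or_pos M with h | h
  · exfalso; apply NeZero.ne N; rw [hN, h, zero_mul]
  · exact h

/-- The divisors of `M q^e`. -/
theorem dvdE_cases (D : ℕ) (hD : D ∣ N) :
    ∃ d d' i, M = d * d' ∧ i ≤ e ∧ D = d * q ^ i := by
  have hcop := coprimeE N q M e B k hN hB hq
  rw [hN] at hD
  have h1 : D = Nat.gcd D M * Nat.gcd D (q ^ e) := by
    have h2 : Nat.gcd D (M * q ^ e) = D := Nat.gcd_eq_left hD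
    rw [← Nat.Coprime.gcd_mul D hcop, h2]
  obtain ⟨d', hd'⟩ := Nat.gcd_dvd_right D M
  obtain ⟨i, hi, hgi⟩ := (Nat.dvd_prime_pow hq).mp (Nat.gcd_dvd_right D (q ^ e))
  exact ⟨Nat.gcd D M, d', i, hd', hi, by rw [← hgi]; exact h1⟩

theorem dvdE (d d' i : ℕ) (hM : M = d * d') (hi : i ≤ e) : d * q ^ i ∣ N := by
  obtain ⟨f, rfl⟩ := Nat.exists_eq_add_of_le hi
  rw [hN, hM]
  exact ⟨d' * q ^ f, by rw [pow_add]; ring⟩

/-! ## The expansions -/

/-- `i ≤ b`: the expansion of `j (q^(d q^i))` at the cusp `1/(q^b M)` is `j (q^(d q^i))`. -/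
theorem cuspU_gE_le (d d' i b : ℕ) (hM : M = d * d') (hib : i ≤ b) [NeZero (d * q ^ i)]
    (hD : d * q ^ i ∣ N) :
    cuspU N (gE q M b) (jdF N (d * q ^ i) hD)
      = qExpand Kbar N (qExpand Kbar (d * q ^ i) jBar) := by
  obtain ⟨δ, hδ⟩ := matE_le q M d d' i b hM hib
  have hd0 : 0 < d * q ^ i := Nat.pos_of_ne_zero (NeZero.ne (d * q ^ i))
  have hN0 : 0 < N := Nat.pos_of_ne_zero (NeZero.ne N)
  haveI : NeZero (N / 1 * (d * q ^ i)) :=
    ⟨by rw [Nat.div_one]; exact (Nat.mul_pos hN0 hd0).ne'⟩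
  rw [cuspU_upper N (gE q M b) δ (d * q ^ i) hD (d * q ^ i) 1 0 hd0 one_pos (one_dvd N)
    (by exact_mod_cast hδ), zpow_zero, twist_one', qExpand_qExpand]
  exact qExpand_congr (by rw [Nat.div_one]) _

/-- `b < i ≤ e`: the expansion of `j (q^(d q^i))` at the cusp `1/(q^b M)` is
`(twist (ζ_{q^(i-b)}^(B d)) j)(u^(M d q^(e - i + 2 b)))`. -/
theorem cuspU_gE_gt (d d' i b : ℕ) (hM : M = d * d') (hbi : b < i) (hie : i ≤ e)
    [NeZero (d * q ^ i)] [NeZero (q ^ (i - b))] [NeZero (M * d * q ^ (e - i + 2 * b))]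
    (hD : d * q ^ i ∣ N) :
    cuspU N (gE q M b) (jdF N (d * q ^ i) hD)
      = qExpand Kbar (M * d * q ^ (e - i + 2 * b))
          (twist (zetaK (q ^ (i - b)) ^ (B * d)) jBar) := by
  obtain ⟨δ, hδ⟩ := matE_gt q M d d' e i b B k hB hM hbi hie
  have hq0 : 0 < q := hq.pos
  have hM0 := posE N q M e B k hN hB hq
  have hd0 : 0 < d := by
    rcases Nat.eq_zero_or_pos d with h | h
    · rw [h, zero_mul] at hM; omega
    · exact h
  have hN0 : 0 < N := Nat.pos_of_ne_zero (NeZero.ne N)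
  have hqN : q ^ (i - b) ∣ N := by
    rw [hN]
    exact dvd_mul_of_dvd_right (pow_dvd_pow q (by omega)) M
  have hdiv : N / q ^ (i - b) = M * q ^ (e - (i - b)) := by
    rw [hN]
    have : q ^ e = q ^ (e - (i - b)) * q ^ (i - b) := by
      rw [← pow_add]; congr 1; omega
    rw [this, ← mul_assoc, Nat.mul_div_cancel _ (pow_pos hq0 _)]
  have hidx : N / q ^ (i - b) * (d * q ^ b) = M * d * q ^ (e - i + 2 * b) := by
    rw [hdiv]
    have : e - i + 2 * b = (e - (i - b)) + b := by omega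
    rw [this, pow_add]
    ring
  haveI : NeZero (N / q ^ (i - b) * (d * q ^ b)) := ⟨by
    rw [hidx]; exact NeZero.ne _⟩
  rw [cuspU_upper N (gE q M b) δ (d * q ^ i) hD (d * q ^ b) (q ^ (i - b)) (B * d)
    (Nat.mul_pos hd0 (pow_pos hq0 _)) (pow_pos hq0 _) hqN (by exact_mod_cast hδ)]
  exact qExpand_congr hidx _

omit hN hB hq [NeZero N] [NeZero q] in
theorem zetaK_congr {m n : ℕ} [NeZero m] [NeZero n] (h : m = n) : zetaK m = zetaK n := by
  subst h
  rfl

/-- `b < i ≤ 2 b`, `i ≤ e`: the expansion of `j (q^(d q^i))` at the cusp `1/(q^b M)` is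
`j ((z q)^(d q^(2 b - i)))` with `z = ζ_{q^b}^B` (and `q = u^N`). -/
theorem cuspU_gE_gt' (d d' i b : ℕ) (hM : M = d * d') (hbi : b < i) (hi2 : i ≤ 2 * b)
    (hie : i ≤ e) [NeZero (d * q ^ i)] [NeZero (q ^ b)] [NeZero (d * q ^ (2 * b - i))]
    (hD : d * q ^ i ∣ N) :
    cuspU N (gE q M b) (jdF N (d * q ^ i) hD)
      = qExpand Kbar N (twist (zetaK (q ^ b) ^ B) (qExpand Kbar (d * q ^ (2 * b - i)) jBar)) := by
  have hq0 : 0 < q := hq.pos
  have hM0 := posE N q M e B k hN hB hq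
  have hd0 : 0 < d := by
    rcases Nat.eq_zero_or_pos d with h | h
    · rw [h, zero_mul] at hM; omega
    · exact h
  have hN0 : 0 < N := Nat.pos_of_ne_zero (NeZero.ne N)
  haveI : NeZero (q ^ (i - b)) := ⟨(pow_pos hq0 _).ne'⟩
  haveI : NeZero (q ^ (2 * b - i)) := ⟨(pow_pos hq0 _).ne'⟩
  haveI : NeZero (q ^ (2 * b - i) * q ^ (i - b)) :=
    ⟨(Nat.mul_pos (pow_pos hq0 _) (pow_pos hq0 _)).ne'⟩
  haveI : NeZero (M * d * q ^ (e - i + 2 * b)) :=
    ⟨(Nat.mul_pos (Nat.mul_pos hM0 hd0) (pow_pos hq0 _)).ne'⟩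
  have hidx : N * (d * q ^ (2 * b - i)) = M * d * q ^ (e - i + 2 * b) := by
    rw [hN]
    have : e - i + 2 * b = e + (2 * b - i) := by omega
    rw [this, pow_add]
    ring
  have hz : zetaK (q ^ b) ^ (q ^ (2 * b - i)) = zetaK (q ^ (i - b)) := by
    have h1 : q ^ b = q ^ (2 * b - i) * q ^ (i - b) := by
      rw [← pow_add]; congr 1; omega
    rw [zetaK_congr h1]
    exact zetaK_mul_pow _ _
  have hzz : (zetaK (q ^ b) ^ B) ^ ((d * q ^ (2 * b - i) : ℕ) : ℤ)
      = zetaK (q ^ (i - b)) ^ (B * d) := by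
    rw [← hz, ← zpow_natCast (zetaK (q ^ b)) (q ^ (2 * b - i)), ← zpow_mul, ← zpow_mul]
    congr 1
    push_cast
    ring
  rw [cuspU_gE_gt N q M e B k hN hB hq d d' i b hM hbi hie hD, twist_qExpand, qExpand_qExpand,
    hzz]
  exact qExpand_congr hidx.symm _

end Level

end Fermat.Agent.S45.NUE.H73

end
end
-- ==== END Fermat.Agent.S45.NUE.H73_CuspExp

-- ==== BEGIN Fermat.Agent.S45.NUE.H73_CuspIntE
section

/-!
# S45 / NU_e, leaf E-CUSP, slice CUSP-INT_e (helper73), part 1: families of conjugates, generic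

Level `N` arbitrary.

* `GoodFam N k u o` : a family `u : Q N → ℍ → ℂ` of holomorphic functions, equivariant of
  weight `k`, bounded/periodic, whose `t`-expansions have coefficients in `ℤ[ζ_N, 1/N]`, unit
  leading coefficient and order `o γ` at the coset of `γ`
  (`GoodFam.delta`, `GoodFam.e12`, `GoodFam.mul`, `GoodFam.pow`);
* `isIntegral_of_goodFam` : if `x ∈ F_N · ℚ̄` has expansion `c₁ · (uN / uD) (q1)` with
  `ord (uN / uD) ≥ - K₀ N` at all cosets, then `x · j⁻ᴷ⁰` is integral over `ℚ̄[1/j]`;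
* `ordAt_pow` : for `N = M q^e`, the orders of `Δ(q^i τ)` at a cusp:
  `ordAt N (q^i) c = q^(2 min b i) · M q^(e - i)` for one `b ≤ e` (the type of the cusp).
-/

set_option autoImplicit false
set_option linter.unusedSectionVars false
set_option linter.unusedVariables false
set_option synthInstance.maxHeartbeats 400000
set_option maxHeartbeats 1000000
set_option linter.style.haveILetI false

open UpperHalfPlane ModularForm ModularCurve Function
open scoped MatrixGroups ModularForm Manifold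

noncomputable section

namespace Fermat.Agent.S45.NUE.H73

open Fermat.Agent.S23.H22 (G0 Q toSL piPerm q1 E12)
open Fermat.Agent.S28 Fermat.Agent.S28.H30
open Fermat.Agent.S28.H76 (Xfam Xfam_q1 pexp_fam_q1 sym_of_families)
open Fermat.Agent.S24 (Kbar FN jF iotaC)
open Fermat.Agent.S15.H30 (psi psi_apply psi_injective psi_jF)

/-! ### Good families -/

section Good

variable (N : ℕ) [NeZero N]

/-- A family of holomorphic functions with unit-leading expansions of known orders. -/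
structure GoodFam (k : ℤ) (u : Q N → ℍ → ℂ) (o : SL(2, ℤ) → ℤ) : Prop where
  equi : Equi N k u
  bph : ∀ c, BPH N (u c)
  uls : ∀ γ : SL(2, ℤ), ULS (coeffRing N) (pexp N (u (⟦toSL γ⟧ : Q N))) (o γ)

variable {N}

theorem GoodFam.delta {d : ℕ} (hd : d ∣ N) :
    GoodFam N 12 (fam N d DeltaMF)
      (fun γ => ((ordAt N d ((γ⁻¹ : SL(2, ℤ)) 1 0) : ℕ) : ℤ)) where
  equi := fam_equi d DeltaMF
  bph := fam_BPH N hd DeltaMF
  uls := fun γ => uls_fam_Delta N hd γ

theorem GoodFam.e12 {d : ℕ} (hd : d ∣ N) :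
    GoodFam N 12 (fam N d E12) (fun _ => 0) where
  equi := fam_equi d E12
  bph := fam_BPH N hd E12
  uls := fun γ => uls_fam_of_intQ N hd E12 intQ_E12 qExpansion_E12_coeff_zero _

theorem GoodFam.mul {k l : ℤ} {u v : Q N → ℍ → ℂ} {o p : SL(2, ℤ) → ℤ}
    (hu : GoodFam N k u o) (hv : GoodFam N l v p) :
    GoodFam N (k + l) (fun c => u c * v c) (fun γ => o γ + p γ) where
  equi := hu.equi.mul hv.equi
  bph := fun c => (hu.bph c).mul (hv.bph c)
  uls := fun γ => by
    rw [pexp_mul (hu.bph _) (hv.bph _)]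
    exact (hu.uls γ).mul (hv.uls γ)

theorem GoodFam.pow {k : ℤ} {u : Q N → ℍ → ℂ} {o : SL(2, ℤ) → ℤ}
    (hu : GoodFam N k u o) (n : ℕ) :
    GoodFam N (n * k) (fun c => u c ^ n) (fun γ => n * o γ) where
  equi := hu.equi.pow n
  bph := fun c => (hu.bph c).pow n
  uls := fun γ => by
    rw [pexp_pow (hu.bph _)]
    exact (hu.uls γ).pow n

theorem GoodFam.congr_wt {k l : ℤ} {u : Q N → ℍ → ℂ} {o : SL(2, ℤ) → ℤ}
    (hu : GoodFam N k u o) (h : k = l) : GoodFam N l u o := h ▸ hu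

/-- **Integrality over `ℚ̄[1/j]` from a quotient of two good families.** -/
theorem isIntegral_of_goodFam {k : ℤ} {uN uD : Q N → ℍ → ℂ} {oN oD : SL(2, ℤ) → ℤ}
    (hn : GoodFam N k uN oN) (hd : GoodFam N k uD oD) (hd0 : ∀ c z, uD c z ≠ 0)
    (K₀ : ℕ) (hord : ∀ γ, -((K₀ : ℤ) * (N : ℤ)) ≤ oN γ - oD γ)
    (x : FN N) (c₁ : Kbar)
    (hx : coeffMap iotaC (psi N x)
      = HahnSeries.C (iotaC c₁) * (pexp N (uN (q1 : Q N)) / pexp N (uD (q1 : Q N)))) :
    IsIntegral ↥(Algebra.adjoin Kbar ({(jF N)⁻¹} : Set (FN N))) (x * (jF N)⁻¹ ^ K₀) := by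
  refine Fermat.Agent.S36.NU.H82.isIntegral_of_family
    (fun c => pexp N (uN c) / pexp N (uD c)) ?_ ?_ K₀ ?_ x c₁ hx
  · intro c₀
    have h := sym_of_families N k uN uD hn.equi hd.equi hn.bph hd.bph hd0 1 (one_dvd _) c₀ 0
    convert h using 1
    refine Finset.prod_congr rfl fun c _ => ?_
    rw [map_zero, zero_mul, sub_zero]
  · intro c n
    obtain ⟨γ, rfl⟩ := exists_rep N c
    exact ((hn.uls γ).div (hd.uls γ)).coeffs n
  · intro c n hlt
    obtain ⟨γ, rfl⟩ := exists_rep N c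
    exact Fermat.Agent.S36.NU.H82.coeff_zero_of_uls ((hn.uls γ).div (hd.uls γ)) (hord γ) hlt

end Good

/-! ### The orders of `Δ(q^i τ)` at the cusps of `Γ₀(M q^e)` -/

section Ord

variable (q M e : ℕ)

/-- **The orders of `Δ(q^i τ)`**, `i ≤ e`, at a cusp of `Γ₀(M q^e)` of type `b`. -/
theorem ordAt_pow (hq : q.Prime) (c : ℤ) :
    ∃ b, b ≤ e ∧ ∀ i, i ≤ e →
      ordAt (M * q ^ e) (q ^ i) c = q ^ (2 * min b i) * (M * q ^ (e - i)) := by
  have hq0 : 0 < q := hq.pos
  have hg : Int.gcd c ((q ^ e : ℕ) : ℤ) ∣ q ^ e := by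
    rw [Int.gcd, Int.natAbs_natCast]
    exact Nat.gcd_dvd_right _ _
  obtain ⟨b, hb, hgb⟩ := (Nat.dvd_prime_pow hq).1 hg
  refine ⟨b, hb, fun i hi => ?_⟩
  have hdiv : M * q ^ e / q ^ i = M * q ^ (e - i) := by
    have : M * q ^ e = M * q ^ (e - i) * q ^ i := by
      rw [mul_assoc, ← pow_add, Nat.sub_add_cancel hi]
    rw [this]
    exact Nat.mul_div_cancel _ (pow_pos hq0 i)
  have hgi : Int.gcd c ((q ^ i : ℕ) : ℤ) = q ^ min b i := by
    rw [Int.gcd, Int.natAbs_natCast] at hgb ⊢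
    have h1 : Nat.gcd c.natAbs (q ^ i) = Nat.gcd (Nat.gcd c.natAbs (q ^ e)) (q ^ i) := by
      rw [Nat.gcd_assoc, Nat.gcd_eq_right (pow_dvd_pow q hi)]
    rw [h1, hgb]
    rcases le_total b i with h | h
    · rw [min_eq_left h]
      exact Nat.gcd_eq_left (pow_dvd_pow q h)
    · rw [min_eq_right h]
      exact Nat.gcd_eq_right (pow_dvd_pow q h)
  rw [ordAt, hdiv]
  have hgi' : Int.gcd c ((q : ℤ) ^ i) = q ^ min b i := by
    have := hgi
    push_cast at this
    exact this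
  push_cast at hgi ⊢
  rw [hgi', ← pow_mul, mul_comm (min b i) 2]

end Ord

end Fermat.Agent.S45.NUE.H73

end
end
-- ==== END Fermat.Agent.S45.NUE.H73_CuspIntE

-- ==== BEGIN Fermat.Agent.S45.NUE.H74_ChartDefs
section

/-!
# S45 / NU_e, package E-CHART (helper74): the two charts over ANY conservation datum

Setting: `N` ANY level, `A` a valuation ring of `ℚ̄`, `R = Rur A`, `F = L0 A N` (the
inertia-fixed functions), `k = kV A`, `j = j0 A N`, and `T : TotN ℚ̄ (L0 A N) (F_N) k ι Z κ` ANY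
conservation datum on `L0 A N` (modular: the `e + 2` valuations `VE a` of level `M' q^(e+1)`,
E-TOT of helper23).  Everything below is generic in `T`, so that E-PT, E-RADQ, branches can be
written against `chart0E` / `chartInfE` before the modular `T` exists.

* `ChartInE A N T` : THE INPUT (a `Prop`): `resRur` surjective, constants of `R` lie in every
  `T.V i` with reduction `resRur`, and `j` is a unit for every valuation (`T.rdN i j ≠ 0`);
* `chart0E A N T h`, `chartInfE A N T h` : the charts `B = intSub R j`, `B = intSub R j⁻¹`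
  (`chart0E_B`, `chartInfE_B`, `chart0E_V`, `chart0E_rd`, ... all by `rfl` / `chartOf_rd`);
* `compat_chart0E`, `compat_chartInfE` : `H24.Compat` with `T`;
* `isNoetherianRing_chart0E`, `isFractionRing_chart0E`, `..._chartInfE`;
* `SepPattern T q x y m` : the reductions of `x`, `y` on the component `i` are
  `(g, g ^ q ^ m i)` (`0 ≤ m i`) resp. `(g ^ q ^ (-m i), g)` (`m i < 0`), `m` injective, and `g` is
  not fixed by a positive power of Frobenius (modular: `x = j(τ)`, `y = j(q^(e+1) τ)`,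
  `m a = 2 a - (e + 1)`);
* `hinc_of_sepPattern` : the separating elements of the chart of `j`;
* `chartHyp_chart0E`, `chartHyp_chartInfE` : `H24.ChartHyp` from separating elements;
  `chartHyp_chart0E_of_sep`, `chartHyp_chartInfE_of_sep` : from a `SepPattern`;
* `inChart0E_of_regAt` : `H24.InChart` at a point over which `j` is regular;
* `IsUnitT`, `rdN_ne_zero_of_isUnitT` : the bridge `hunit`.
-/

set_option autoImplicit false
set_option synthInstance.maxHeartbeats 400000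
set_option maxHeartbeats 1000000
set_option linter.style.haveILetI false
set_option linter.unusedSectionVars false

noncomputable section

open ModularCurve AlgebraicCurve IntermediateField

namespace Fermat.Agent.S45.NUE.H74

open Fermat.Agent.S24 Fermat.Agent.BAD.H88 Fermat.Agent.S28 Fermat.Agent.S28.H73
  Fermat.Agent.S36.NU.H88 Fermat.Agent.S36.NU.H23
  Fermat.Agent.S36.NU.H16 Fermat.Agent.S36.NU.H24 Fermat.Agent.S36.NU.H65
  Fermat.Agent.S36.NU.H41 Fermat.Agent.S36.NU.H17 Fermat.Agent.S36.NU.H79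
  Fermat.Agent.RED.H73 Fermat.Agent.RED.H17

/-! ## Separating elements from a Frobenius pattern (abstract) -/

section Sep

variable {R K F L k ι Z : Type*} {κ : ι → Type*} [CommRing R] [Field K] [Field F] [Field L]
  [Algebra K L] [Algebra F L] [Algebra R F] [Field k] [Fintype ι] [∀ i, Field (κ i)]
  [∀ i, Algebra k (κ i)]

/-- **Frobenius pattern** of two functions `x`, `y` on the components of a conservation datum:
on the component `i` the reductions are `(g, g ^ q ^ m i)` if `0 ≤ m i` and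
`(g ^ q ^ (-m i), g)` if `m i < 0`, with `g` not fixed by any positive power of Frobenius. -/
structure SepPattern (T : TotN K F L k ι Z κ) (q : ℕ) (x y : F) (m : ι → ℤ) : Prop where
  inj : Function.Injective m
  x_mem : ∀ i, x ∈ T.V i
  y_mem : ∀ i, y ∈ T.V i
  pos : ∀ i, 0 ≤ m i → T.rdN i y = T.rdN i x ^ q ^ (m i).toNat
  neg : ∀ i, m i < 0 → T.rdN i x = T.rdN i y ^ q ^ (-m i).toNat
  gen_pos : ∀ i, 0 ≤ m i → ∀ s : ℕ, 0 < s → T.rdN i x ^ q ^ s ≠ T.rdN i x
  gen_neg : ∀ i, m i < 0 → ∀ s : ℕ, 0 < s → T.rdN i y ^ q ^ s ≠ T.rdN i y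

/-- In characteristic `q`: `g ^ q ^ s ≠ g ^ q ^ t` for `s ≠ t` if `g` is not fixed by a positive
power of Frobenius. -/
theorem pow_ne_pow_of_gen {E : Type*} [Field E] (q : ℕ) [hq : Fact q.Prime] [CharP E q] (g : E)
    (hg : ∀ s : ℕ, 0 < s → g ^ q ^ s ≠ g) {s t : ℕ} (hst : s ≠ t) :
    g ^ q ^ s ≠ g ^ q ^ t := by
  have key : ∀ a b : ℕ, 0 < b → g ^ q ^ a ≠ g ^ q ^ (a + b) := by
    intro a b hb h
    apply hg b hb
    have h1 : (g ^ q ^ b) ^ q ^ a = g ^ q ^ a := by
      rw [← pow_mul, ← pow_add, add_comm b a]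
      exact h.symm
    have h2 : (iterateFrobenius E q a) (g ^ q ^ b) = (iterateFrobenius E q a) g := by
      rw [iterateFrobenius_def, iterateFrobenius_def]
      exact h1
    exact (iterateFrobenius E q a).injective h2
  rcases Nat.lt_or_gt_of_ne hst with h | h
  · obtain ⟨b, rfl⟩ := Nat.exists_eq_add_of_lt h
    exact key s (b + 1) (Nat.succ_pos b)
  · obtain ⟨b, rfl⟩ := Nat.exists_eq_add_of_lt h
    exact (key t (b + 1) (Nat.succ_pos b)).symm

/-- **The separating elements** of the chart of `j` from a Frobenius pattern of two functions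
integral over `R[j]`. -/
theorem hinc_of_sepPattern (T : TotN K F L k ι Z κ) (q : ℕ) (hq : q.Prime)
    (hchar : ∀ i, CharP (κ i) q) (j x y : F) (m : ι → ℤ) (hS : SepPattern T q x y m)
    (hx : x ∈ intSub R j) (hy : y ∈ intSub R j) :
    ∀ i i' : ι, i ≠ i' → ∃ τ : F, τ ∈ intSub R j ∧ T.rdN i' τ = 0 ∧ T.rdN i τ ≠ 0 := by
  haveI : Fact q.Prime := ⟨hq⟩
  intro i i' hii
  haveI := hchar i
  have hm : m i ≠ m i' := fun h => hii (hS.inj h)
  have hsub1 : ∀ (i₁ : ι) (e : ℕ), T.rdN i₁ (y - x ^ q ^ e) = T.rdN i₁ y - T.rdN i₁ x ^ q ^ e := by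
    intro i₁ e
    rw [T.rdN_sub (hS.y_mem i₁) ((T.V i₁).pow_mem (hS.x_mem i₁) _), T.rdN_pow (hS.x_mem i₁)]
  have hsub2 : ∀ (i₁ : ι) (e : ℕ), T.rdN i₁ (x - y ^ q ^ e) = T.rdN i₁ x - T.rdN i₁ y ^ q ^ e := by
    intro i₁ e
    rw [T.rdN_sub (hS.x_mem i₁) ((T.V i₁).pow_mem (hS.y_mem i₁) _), T.rdN_pow (hS.y_mem i₁)]
  rcases le_or_gt 0 (m i') with h' | h'
  · -- `τ = y - x ^ q ^ m i'`
    refine ⟨y - x ^ q ^ (m i').toNat, sub_mem hy (pow_mem hx _), ?_, ?_⟩
    · rw [hsub1, hS.pos i' h', sub_self]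
    · rw [hsub1]
      rcases le_or_gt 0 (m i) with h | h
      · rw [hS.pos i h]
        refine sub_ne_zero.2 (pow_ne_pow_of_gen q _ (hS.gen_pos i h) ?_)
        intro e
        apply hm
        rw [← Int.toNat_of_nonneg h, ← Int.toNat_of_nonneg h', e]
      · rw [hS.neg i h, ← pow_mul, ← pow_add]
        refine sub_ne_zero.2 (Ne.symm (hS.gen_neg i h _ ?_))
        have : 0 < (-m i).toNat := by
          rw [Int.lt_toNat]
          simpa using h
        omega
  · -- `τ = x - y ^ q ^ (-m i')`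
    refine ⟨x - y ^ q ^ (-m i').toNat, sub_mem hx (pow_mem hy _), ?_, ?_⟩
    · rw [hsub2, ← hS.neg i' h', sub_self]
    · rw [hsub2]
      have hpos' : 0 < (-m i').toNat := by
        rw [Int.lt_toNat]
        simpa using h'
      rcases le_or_gt 0 (m i) with h | h
      · rw [hS.pos i h, ← pow_mul, ← pow_add]
        refine sub_ne_zero.2 (Ne.symm (hS.gen_pos i h _ ?_))
        omega
      · rw [hS.neg i h]
        refine sub_ne_zero.2 (pow_ne_pow_of_gen q _ (hS.gen_neg i h) ?_)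
        intro e
        apply hm
        have h1 : ((-m i).toNat : ℤ) = -m i := Int.toNat_of_nonneg (by omega)
        have h2 : ((-m i').toNat : ℤ) = -m i' := Int.toNat_of_nonneg (by omega)
        have h3 : ((-m i).toNat : ℤ) = ((-m i').toNat : ℤ) := by rw [e]
        omega

end Sep

/-! ## The two charts over a conservation datum on `L0 A N` -/

section Charts

variable (A : ValuationSubring Kbar) (N : ℕ) [NeZero N]
  {ι Z : Type*} {κ : ι → Type*} [Fintype ι] [∀ i, Field (κ i)] [∀ i, Algebra (kV A) (κ i)]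
  (T : TotN Kbar ↥(L0 A N) (FN N) (kV A) ι Z κ)

/-- **The input of the two charts**: constants of `Rur A` are integral for all valuations of `T`
with reduction `resRur`, and `j` is a unit for all valuations. -/
structure ChartInE : Prop where
  res_surj : Function.Surjective (resRur A)
  const_mem : ∀ (i : ι) (r : ↥(Rur A)), algebraMap ↥(Rur A) ↥(L0 A N) r ∈ T.V i
  red_const : ∀ (i : ι) (r : ↥(Rur A)) (hr : algebraMap ↥(Rur A) ↥(L0 A N) r ∈ T.V i),
    T.red i ⟨algebraMap ↥(Rur A) ↥(L0 A N) r, hr⟩ = algebraMap (kV A) (κ i) (resRur A r)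
  j_unit : ∀ i : ι, T.rdN i (j0 A N) ≠ 0

variable {A N T}

theorem ChartInE.j_mem (h : ChartInE A N T) (i : ι) : j0 A N ∈ T.V i :=
  T.mem_of_rdN_ne_zero (h.j_unit i)

theorem ChartInE.inv_mem (h : ChartInE A N T) (i : ι) : (j0 A N)⁻¹ ∈ T.V i :=
  T.inv_mem_of_rdN_ne_zero (h.j_unit i)

/-- The input of `chartOf` for `j`. -/
theorem ChartInE.input0 (h : ChartInE A N T) : ChartInput T (j0 A N) (resRur A) where
  res_surj := h.res_surj
  const_mem := h.const_mem
  j_mem := h.j_mem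
  red_const := h.red_const

/-- The input of `chartOf` for `j⁻¹`. -/
theorem ChartInE.inputInf (h : ChartInE A N T) : ChartInput T (j0 A N)⁻¹ (resRur A) :=
  ChartInput.inv T (j0 A N) (resRur A) h.input0 h.j_unit

variable (A N T)

/-- **The chart of `j`**: `B = ` the integral closure of `R[j]` in `L0 A N`. -/
def chart0E (h : ChartInE A N T) : Chart ↥(Rur A) ↥(L0 A N) (kV A) ι κ :=
  chartOf T (j0 A N) (resRur A) h.input0

/-- **The chart of `j⁻¹`**: `B = ` the integral closure of `R[j⁻¹]` in `L0 A N`. -/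
def chartInfE (h : ChartInE A N T) : Chart ↥(Rur A) ↥(L0 A N) (kV A) ι κ :=
  chartOf T (j0 A N)⁻¹ (resRur A) h.inputInf

variable (h : ChartInE A N T)

theorem chart0E_B : (chart0E A N T h).B = intSub ↥(Rur A) (j0 A N) := rfl

theorem chartInfE_B : (chartInfE A N T h).B = intSub ↥(Rur A) (j0 A N)⁻¹ := rfl

theorem chart0E_V (i : ι) : (chart0E A N T h).V i = T.V i := rfl

theorem chartInfE_V (i : ι) : (chartInfE A N T h).V i = T.V i := rfl

theorem chart0E_red (i : ι) : (chart0E A N T h).red i = T.red i := rfl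

theorem chartInfE_red (i : ι) : (chartInfE A N T h).red i = T.red i := rfl

theorem chart0E_res : (chart0E A N T h).res = resRur A := rfl

theorem chartInfE_res : (chartInfE A N T h).res = resRur A := rfl

theorem chart0E_rd (i : ι) (x : ↥(L0 A N)) : (chart0E A N T h).rd i x = T.rdN i x :=
  chartOf_rd T (j0 A N) (resRur A) h.input0 i x

theorem chartInfE_rd (i : ι) (x : ↥(L0 A N)) : (chartInfE A N T h).rd i x = T.rdN i x :=
  chartOf_rd T (j0 A N)⁻¹ (resRur A) h.inputInf i x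

/-- The two charts have the same components. -/
theorem chart0E_V_eq (i : ι) : (chart0E A N T h).V i = (chartInfE A N T h).V i := rfl

theorem chart0E_rd_eq (i : ι) (x : ↥(L0 A N)) :
    (chart0E A N T h).rd i x = (chartInfE A N T h).rd i x := by
  rw [chart0E_rd, chartInfE_rd]

theorem j0_mem_chart0E : j0 A N ∈ (chart0E A N T h).B := self_mem_intSub _ _

theorem inv_j0_mem_chartInfE : (j0 A N)⁻¹ ∈ (chartInfE A N T h).B := self_mem_intSub _ _

/-- **`Compat`** of the chart of `j` with `T`. -/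
theorem compat_chart0E : Compat (chart0E A N T h) T :=
  compat_chartOf T (j0 A N) (resRur A) h.input0

/-- **`Compat`** of the chart of `j⁻¹` with `T`. -/
theorem compat_chartInfE : Compat (chartInfE A N T h) T :=
  compat_chartOf T (j0 A N)⁻¹ (resRur A) h.inputInf

/-! ### Noetherianity and fraction fields -/

theorem isNoetherianRing_chart0E (q : ℕ) (hq : q.Prime) (hA : A.LiesOverPrime q) :
    IsNoetherianRing ↥(chart0E A N T h).B :=
  Fermat.Agent.S36.NU.H74.isNoetherianRing_B0 A q hq hA N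

theorem isFractionRing_chart0E : IsFractionRing ↥(chart0E A N T h).B ↥(L0 A N) :=
  Fermat.Agent.S36.NU.H74.isFractionRing_B0 A N

theorem isNoetherianRing_chartInfE (q : ℕ) (hq : q.Prime) (hA : A.LiesOverPrime q) :
    IsNoetherianRing ↥(chartInfE A N T h).B :=
  Fermat.Agent.S36.NU.H74.isNoetherianRing_Boo A q hq hA N

theorem isFractionRing_chartInfE : IsFractionRing ↥(chartInfE A N T h).B ↥(L0 A N) :=
  Fermat.Agent.S36.NU.H74.isFractionRing_Boo A N

/-! ### `ChartHyp` -/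

/-- **`ChartHyp` for the chart of `j`** from separating elements. -/
theorem chartHyp_chart0E (q n : ℕ) (hq : q.Prime) (hchar : ∀ i, CharP (κ i) q) (hn : 0 < n)
    (hcop : Nat.Coprime n q)
    (hinc : ∀ i i' : ι, i ≠ i' → ∃ τ : ↥(L0 A N), τ ∈ intSub ↥(Rur A) (j0 A N) ∧
      T.rdN i' τ = 0 ∧ T.rdN i τ ≠ 0) :
    ChartHyp (chart0E A N T h) q n :=
  chartHyp_chartOf T (j0 A N) (resRur A) h.input0 q n hq hchar hn hcop hinc

/-- **`ChartHyp` for the chart of `j⁻¹`** from separating elements of the chart of `j`. -/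
theorem chartHyp_chartInfE (q n : ℕ) (hq : q.Prime) (hchar : ∀ i, CharP (κ i) q) (hn : 0 < n)
    (hcop : Nat.Coprime n q)
    (hinc : ∀ i i' : ι, i ≠ i' → ∃ τ : ↥(L0 A N), τ ∈ intSub ↥(Rur A) (j0 A N) ∧
      T.rdN i' τ = 0 ∧ T.rdN i τ ≠ 0) :
    ChartHyp (chartInfE A N T h) q n :=
  chartHyp_chartOf T (j0 A N)⁻¹ (resRur A) h.inputInf q n hq hchar hn hcop
    (hinc_inv T (j0 A N) (resRur A) h.input0 h.j_unit hinc)

/-- **`ChartHyp` for the chart of `j`** from a Frobenius pattern of `j` and `y` (modular: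
`y = j(q^(e+1) τ)`), `y` integral over `R[j]`. -/
theorem chartHyp_chart0E_of_sep (q n : ℕ) (hq : q.Prime) (hchar : ∀ i, CharP (κ i) q)
    (hn : 0 < n) (hcop : Nat.Coprime n q) (y : ↥(L0 A N)) (m : ι → ℤ)
    (hS : SepPattern T q (j0 A N) y m) (hy : y ∈ intSub ↥(Rur A) (j0 A N)) :
    ChartHyp (chart0E A N T h) q n :=
  chartHyp_chart0E A N T h q n hq hchar hn hcop
    (hinc_of_sepPattern T q hq hchar (j0 A N) (j0 A N) y m hS (self_mem_intSub _ _) hy)

/-- **`ChartHyp` for the chart of `j⁻¹`** from a Frobenius pattern of `j` and `y`. -/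
theorem chartHyp_chartInfE_of_sep (q n : ℕ) (hq : q.Prime) (hchar : ∀ i, CharP (κ i) q)
    (hn : 0 < n) (hcop : Nat.Coprime n q) (y : ↥(L0 A N)) (m : ι → ℤ)
    (hS : SepPattern T q (j0 A N) y m) (hy : y ∈ intSub ↥(Rur A) (j0 A N)) :
    ChartHyp (chartInfE A N T h) q n :=
  chartHyp_chartInfE A N T h q n hq hchar hn hcop
    (hinc_of_sepPattern T q hq hchar (j0 A N) (j0 A N) y m hS (self_mem_intSub _ _) hy)

/-! ### Points of the chart of `j` -/

/-- **`InChart`**: a point `z` over which `j` is regular is a point of the chart of `j`. -/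
theorem inChart0E_of_regAt (z : Z)
    (hj : ∀ P : Place Kbar (FN N), T.ρ P = z →
      RegAt P (algebraMap ↥(L0 A N) (FN N) (j0 A N))) :
    InChart (chart0E A N T h) T z := by
  refine Fermat.Agent.S36.NU.H74.inChart_of_regAt (chart0E A N T h) T (j0 A N)
    (chart0E_B A N T h) z ?_ hj
  intro r P _
  rw [regAt_iff_mem]
  exact P.algebraMap_mem' _

/-! ### Units -/

/-- `f` is a unit for all valuations of `T`. -/
def IsUnitT (f : ↥(L0 A N)) : Prop := ∀ i, f ∈ T.V i ∧ f⁻¹ ∈ T.V i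

/-- **The bridge `hunit`**: a unit for all valuations has non-zero reductions. -/
theorem rdN_ne_zero_of_isUnitT (f : ↥(L0 A N)) (hf0 : f ≠ 0) (hf : IsUnitT A N T f) (i : ι) :
    T.rdN i f ≠ 0 :=
  Fermat.Agent.S36.NU.H15.rdN_ne_zero_of_mem T hf0 (hf i).1 (hf i).2

theorem isUnitT_of_rdN_ne_zero (f : ↥(L0 A N)) (hf : ∀ i, T.rdN i f ≠ 0) : IsUnitT A N T f :=
  fun i => ⟨T.mem_of_rdN_ne_zero (hf i), T.inv_mem_of_rdN_ne_zero (hf i)⟩

end Charts

end Fermat.Agent.S45.NUE.H74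

end
end
-- ==== END Fermat.Agent.S45.NUE.H74_ChartDefs

-- ==== BEGIN Fermat.Agent.S45.NUE.H79_Defs
section

/-!
# S45 / NU_e, package E-ABS (helper79): the abstract datum of the two levels, general form

Modular picture: upper level `N = M' q ^ e` (`e ≥ 3`, `q ∤ M'`), lower level `N / q`; the
valuations `v_(a,b)`, `a + b = e`, of the inertia-fixed functions `L₀` of level `N`
(`ι = Fin (e + 1)`), the valuations `v'_(a',b')`, `a' + b' = e - 1` of the inertia-fixed functions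
`L₀'` of level `N / q` (`ι' = Fin e`); the norms `Nα`, `Nβ : L₀ → L₀'` along the two degeneracy
maps.

* `IsGenT`, `TrivRedT` : `NUData.IsGen`, `NUData.TrivRed` of S36 (helper79, `H79_B3`) for a bare
  `TotN` and a set `SS` of multiple points;
* `TotN.IsConst` : constants of `L₀`;
* `LowRoot T' n` : the lower level has `n`-th roots of units of the form `constant · gⁿ`
  (`lowRoot_of_scale` : from "constants which are units have constant reductions" + "scaling");
* `SingleRel` : a component `i` of the upper level which is the ONLY component above the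
  component `i'` of the lower level along the norm map `Nm`:
  `rd' i' (Nm h) = R.N (rd i h) ^ e` for units `h`, `R : ResNorm`, `R.f * e = d` (`d = q`);
* `DoubleRel` : two components `i₁`, `i₂` above `i'`:
  `rd' i' (Nm h) = R₁.N (rd i₁ h) ^ e₁ * R₂.N (rd i₂ h) ^ e₂`, `R₁.f * e₁ + R₂.f * e₂ = d`;
* `SideE` : one degeneracy map: norm `Nm`, the map `zm` on the multiple points, the set `S` of
  single components with their `SingleRel`, norms of units are units (`unit`), norms of functions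
  regular on the fibre of `z ∈ SS` are regular on the fibre of `zm z` (`reg`), and the lower level
  is GLUED at `zm z` (`glue'`: `H24.Glued`, known by induction on `e`);
* `NUDataE` : the two sides `sα`, `sβ`, every component is single for `α` or for `β`, and one
  `DoubleRel` along `α` at `(i₁, i₂)` with `i₁`, `i₂` single for `β`; `jα` single for `α`.

Modular instance (`e ≥ 3`): `sα.S (a,b) ↔ 2 ≤ b`, `sβ.S (a,b) ↔ 2 ≤ a`, `i₁ = (e,0)`,
`i₂ = (e-1,1)` (`e₁ = 1`, `e₂ = q - 1`, `f = 1`), `jα = (0,e)`, `d = q`.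
-/

set_option autoImplicit false
set_option linter.style.haveILetI false

noncomputable section

open AlgebraicCurve

attribute [local instance] Classical.propDecidable

namespace Fermat.Agent.S45.NUE.H79

open Fermat.Agent.RED.H17 Fermat.Agent.RED Fermat.Agent.BAD.H79 Fermat.Agent.BAD
open Fermat.Agent.S36.NU.H79 Fermat.Agent.S36.NU.H24

section Upper

variable {K L₀ L k ι Z : Type*} {E : ι → Type*} [Field K] [Field L₀] [Field L]
  [Algebra K L] [Algebra L₀ L] [Field k] [Fintype ι] [∀ i, Field (E i)]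
  [∀ i, Algebra k (E i)]

/-- `c` is a constant of `L₀`. -/
def IsConstT (_T : TotN K L₀ L k ι Z E) (c : L₀) : Prop :=
  ∃ c' : K, algebraMap L₀ L c = algebraMap K L c'

/-- `s` is a **local generator** of `h` at `z` (for the exponent `n`): a unit for all
valuations such that `h s ^ n` has no zero or pole on the fibre of `z`. -/
def IsGenT (T : TotN K L₀ L k ι Z E) (n : ℕ) (z : Z) (h s : L₀) : Prop :=
  (∀ i, T.rdN i s ≠ 0) ∧ ∀ P, T.ρ P = z → P.ord (algebraMap L₀ L (h * s ^ n)) = 0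

/-- **Trivial reduction data** (for a bare `TotN` and a set `SS` of multiple points): the
reductions of `H` are `c G i ^ n` with a common constant `c`, and at every `z ∈ SS` the functions
`G i · red i s`, for a local generator `s` of `H` at `z`, take the same non-zero value. -/
def TrivRedT (T : TotN K L₀ L k ι Z E) (SS : Set Z) (n : ℕ) (H : L₀) : Prop :=
  ∃ (c : k) (G : ∀ i, E i), c ≠ 0 ∧ (∀ i, T.rdN i H = algebraMap k (E i) c * G i ^ n) ∧
    ∀ z ∈ SS, ∀ s : L₀, IsGenT T n z H s →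
      ∃ a : k, a ≠ 0 ∧ ∀ i, HasValue (T.pt i z) (G i * T.rdN i s) a

/-- **Roots at the lower level**: a unit for all valuations of the form `c gⁿ` with a constant
`c` is `C g'ⁿ` with `g'` a unit for all valuations and `C` a constant whose reductions are the
same constant `a` of the residue fields. -/
def LowRoot (T : TotN K L₀ L k ι Z E) (n : ℕ) : Prop :=
  ∀ f c g : L₀, IsConstT T c → f = c * g ^ n → (∀ i, T.rdN i f ≠ 0) →
    ∃ (g' C : L₀) (a : k), IsConstT T C ∧ C ≠ 0 ∧ a ≠ 0 ∧ (∀ i, T.rdN i g' ≠ 0) ∧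
      f = C * g' ^ n ∧ ∀ i, T.rdN i f = algebraMap k (E i) a * T.rdN i g' ^ n

end Upper

section Rel

variable {K L₀ L k ι Z : Type*} {E : ι → Type*} [Field K] [Field L₀] [Field L]
  [Algebra K L] [Algebra L₀ L] [Field k] [Fintype ι] [∀ i, Field (E i)]
  [∀ i, Algebra k (E i)]
  {K' L₀' L' ι' Z' : Type*} {E' : ι' → Type*} [Field K'] [Field L₀'] [Field L']
  [Algebra K' L'] [Algebra L₀' L'] [Fintype ι'] [∀ i, Field (E' i)]
  [∀ i, Algebra k (E' i)]

/-- **A single component**: `i` is the only component of the upper level above the component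
`i'` of the lower level along `Nm`; `e` is the ramification index, `R` the norm of the residue
fields (`R.f` the residue degree), `d = R.f * e` the local degree. -/
structure SingleRel (T : TotN K L₀ L k ι Z E) (T' : TotN K' L₀' L' k ι' Z' E')
    (Nm : L₀ →* L₀') (SS : Set Z) (zm : Z → Z') (d : ℕ) (i : ι) where
  /-- the component of the lower level -/
  i' : ι'
  /-- the norm of the residue fields -/
  R : ResNorm k (E i) (E' i')
  /-- the ramification index -/
  e : ℕ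
  deg : R.f * e = d
  /-- NORM-RED with ramification, for units -/
  norm : ∀ h : L₀, (∀ j, T.rdN j h ≠ 0) → T'.rdN i' (Nm h) = R.N (T.rdN i h) ^ e
  /-- the point of the component `i` over `z` lies over the point of `i'` over `zm z` -/
  pt : ∀ z ∈ SS, ∀ (y : E' i') (c : k),
    HasValue (T.pt i z) (R.j y) c → HasValue (T'.pt i' (zm z)) y c

/-- **A double component**: `i₁`, `i₂` are the two components of the upper level above the
component `i'` of the lower level along `Nm`. -/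
structure DoubleRel (T : TotN K L₀ L k ι Z E) (T' : TotN K' L₀' L' k ι' Z' E')
    (Nm : L₀ →* L₀') (SS : Set Z) (zm : Z → Z') (d : ℕ) (i₁ i₂ : ι) where
  /-- the component of the lower level -/
  i' : ι'
  /-- the norms of the residue fields -/
  R₁ : ResNorm k (E i₁) (E' i')
  R₂ : ResNorm k (E i₂) (E' i')
  /-- the ramification indices -/
  e₁ : ℕ
  e₂ : ℕ
  deg : R₁.f * e₁ + R₂.f * e₂ = d
  pos₁ : 0 < R₁.f * e₁
  pos₂ : 0 < R₂.f * e₂
  /-- NORM-RED with ramification, for units -/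
  norm : ∀ h : L₀, (∀ j, T.rdN j h ≠ 0) →
    T'.rdN i' (Nm h) = R₁.N (T.rdN i₁ h) ^ e₁ * R₂.N (T.rdN i₂ h) ^ e₂
  pt₁ : ∀ z ∈ SS, ∀ (y : E' i') (c : k),
    HasValue (T.pt i₁ z) (R₁.j y) c → HasValue (T'.pt i' (zm z)) y c
  pt₂ : ∀ z ∈ SS, ∀ (y : E' i') (c : k),
    HasValue (T.pt i₂ z) (R₂.j y) c → HasValue (T'.pt i' (zm z)) y c

/-- **One degeneracy map** between the two levels. -/
structure SideE (T : TotN K L₀ L k ι Z E) (T' : TotN K' L₀' L' k ι' Z' E')
    (SS : Set Z) (d : ℕ) where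
  /-- the norm along the degeneracy map -/
  Nm : L₀ →* L₀'
  /-- the image of a multiple point -/
  zm : Z → Z'
  /-- the single components -/
  S : ι → Prop
  single : ∀ i, S i → SingleRel T T' Nm SS zm d i
  /-- the norm of a unit for all valuations is a unit for all valuations -/
  unit : ∀ h : L₀, (∀ i, T.rdN i h ≠ 0) → ∀ i', T'.rdN i' (Nm h) ≠ 0
  /-- norms of functions regular on the fibre of `z` are regular on the fibre of `zm z` -/
  reg : ∀ z ∈ SS, ∀ h : L₀, (∀ P, T.ρ P = z → RegAt P (algebraMap L₀ L h)) →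
    ∀ Q, T'.ρ Q = zm z → RegAt Q (algebraMap L₀' L' (Nm h))
  /-- the lower level is glued at the images of the multiple points -/
  glue' : ∀ z ∈ SS, Glued T' (zm z)

end Rel

/-- **The datum of the two levels**, general form (`e ≥ 3`). -/
structure NUDataE (K L₀ L k ι Z : Type*) (E : ι → Type*) (K' L₀' L' ι' Z' : Type*)
    (E' : ι' → Type*) [Field K] [Field L₀] [Field L] [Algebra K L] [Algebra L₀ L] [Field k]
    [Fintype ι] [∀ i, Field (E i)] [∀ i, Algebra k (E i)] [Field K'] [Field L₀'] [Field L']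
    [Algebra K' L'] [Algebra L₀' L'] [Fintype ι'] [∀ i, Field (E' i)]
    [∀ i, Algebra k (E' i)] where
  /-- the conservation datum of the higher level -/
  T : TotN K L₀ L k ι Z E
  /-- the conservation datum of the lower level -/
  T' : TotN K' L₀' L' k ι' Z' E'
  /-- the multiple points (modular: the supersingular points) -/
  SS : Set Z
  /-- the local degree (modular: the residue characteristic `q`) -/
  d : ℕ
  d_pos : 0 < d
  /-- the degeneracy map `α` -/
  sα : SideE T T' SS d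
  /-- the degeneracy map `β` -/
  sβ : SideE T T' SS d
  /-- every component is single for `α` or for `β` -/
  cover : ∀ i, sα.S i ∨ sβ.S i
  /-- a component single for `α` -/
  jα : ι
  hjα : sα.S jα
  /-- the two components of the double relation along `α` -/
  i₁ : ι
  i₂ : ι
  hi₁ : sβ.S i₁
  hi₂ : sβ.S i₂
  double : DoubleRel T T' sα.Nm SS sα.zm d i₁ i₂
  deg_one : ∀ z ∈ SS, ∀ i, (T.pt i z).deg = 1

end Fermat.Agent.S45.NUE.H79

end
end
-- ==== END Fermat.Agent.S45.NUE.H79_Defs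

-- ==== BEGIN Fermat.Agent.S45.NUE.H82_EpsDefs
section

/-!
# S45 / NU_e, package E-CUSP / E-EPS (helper82): the modular units `eps_i` of level `N`

`UQ q = Δ(t)/Δ(t^q)` (a series with rational coefficients), and for `q^(i+1) ∣ N`

  `epsN N q i = Δ(q^i τ)/Δ(q^(i+1) τ) ∈ F_N`      (`= eps_(i+1)` of helper62's E-VAL spec §6),

with `q`-expansion `UQ(t^(q^i))`.

* `coe_epsN`, `epsN_ne_zero`, `epsN_mem_L0`;
* `alpha_epsN : α (epsN N q i) = epsN (N q) q i`, `beta_epsN : β (epsN N q i) = epsN (N q) q (i+1)`;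
* `epsN_zero : epsN (M q) q 0 = U3 q M` (helper99's unit of level `M q`).
-/

set_option autoImplicit false
set_option synthInstance.maxHeartbeats 400000
set_option maxHeartbeats 1000000
set_option linter.unusedSectionVars false
set_option linter.style.haveILetI false

noncomputable section

open ModularCurve
open Fermat.Agent.S24 Fermat.Agent.BAD.H88 Fermat.Agent.BAD.H30 Fermat.Agent.BAD.H21
open Fermat.Agent.S28 Fermat.Agent.S28.H73 Fermat.Agent.RED.H73 Fermat.Agent.RED.H17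
open Fermat.Agent.S36.NU.H88 Fermat.Agent.S36.NU.H23 Fermat.Agent.S36.NU.H82

namespace Fermat.Agent.S45.NUE.H82

/-- The series `Δ(t)/Δ(t^q)`. -/
def UQ (q : ℕ) [NeZero q] : LaurentSeries Kbar := coeffEmb Kbar (modularUnitSeries q)

theorem coeffEmb_unit_ne_zero (d : ℕ) [NeZero d] :
    coeffEmb Kbar (modularUnitSeries d) ≠ 0 := fun h =>
  unitF_ne_zero d d (dvd_refl d) (Subtype.ext h)

theorem UQ_ne_zero (q : ℕ) [NeZero q] : UQ q ≠ 0 := coeffEmb_unit_ne_zero q

theorem pow_dvd_of_succ {N q i : ℕ} (h : q ^ (i + 1) ∣ N) : q ^ i ∣ N :=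
  (pow_dvd_pow q (Nat.le_succ i)).trans h

section Eps

variable (N q : ℕ) [NeZero N] [NeZero q]

/-- `eps_(i+1) = Δ(q^i τ)/Δ(q^(i+1) τ)`, of level `N`, `q^(i+1) ∣ N`. -/
def epsN (i : ℕ) (h : q ^ (i + 1) ∣ N) : FN N :=
  unitF N (q ^ (i + 1)) h * (unitF N (q ^ i) (pow_dvd_of_succ h))⁻¹

theorem coeffEmb_unit_pow_succ (i : ℕ) :
    coeffEmb Kbar (modularUnitSeries (q ^ (i + 1)))
      = coeffEmb Kbar (modularUnitSeries (q ^ i)) * qExpand Kbar (q ^ i) (UQ q) := by
  haveI : NeZero (q ^ i * q) := ⟨mul_ne_zero (NeZero.ne _) (NeZero.ne q)⟩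
  have h1 : modularUnitSeries (q ^ (i + 1)) = modularUnitSeries (q ^ i * q) := by
    congr 1
  rw [h1, modularUnitSeries_mul, map_mul, UQ, coeffEmb, coeffMap_qExpand]

theorem coe_epsN (i : ℕ) (h : q ^ (i + 1) ∣ N) :
    ((epsN N q i h : FN N) : LaurentSeries Kbar) = qExpand Kbar (q ^ i) (UQ q) := by
  have h0 : coeffEmb Kbar (modularUnitSeries (q ^ i)) ≠ 0 := coeffEmb_unit_ne_zero (q ^ i)
  show ((unitF N (q ^ (i + 1)) h : FN N) : LaurentSeries Kbar)
      * ((unitF N (q ^ i) (pow_dvd_of_succ h) : FN N) : LaurentSeries Kbar)⁻¹ = _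
  rw [unitF_coe, unitF_coe, coeffEmb_unit_pow_succ, mul_comm, ← mul_assoc,
    inv_mul_cancel₀ h0, one_mul]

theorem epsN_ne_zero (i : ℕ) (h : q ^ (i + 1) ∣ N) : epsN N q i h ≠ 0 :=
  mul_ne_zero (unitF_ne_zero N _ _) (inv_ne_zero (unitF_ne_zero N _ _))

theorem epsN_mem_L0 (A : ValuationSubring Kbar) (i : ℕ) (h : q ^ (i + 1) ∣ N) :
    epsN N q i h ∈ L0 A N := by
  have hU : ∀ (d : ℕ) [NeZero d] (hd : d ∣ N), unitF N d hd ∈ L0 A N := by
    intro d _ hd
    rw [mem_L0_iff_coeffMap]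
    intro σ _
    rw [unitF_coe]
    exact coeffMap_coeffEmb σ _
  exact mul_mem (hU _ _) (inv_mem (hU _ _))

/-- `α (eps_i) = eps_i`. -/
theorem alpha_epsN (i : ℕ) (h : q ^ (i + 1) ∣ N) :
    heckeAlphaBar Kbar N q (epsN N q i h) = epsN (N * q) q i (Dvd.dvd.mul_right h q) := by
  apply Subtype.ext
  rw [coe_heckeAlphaBar, coe_epsN, coe_epsN]

/-- `β (eps_i) = eps_(i+1)`. -/
theorem beta_epsN (i : ℕ) (h : q ^ (i + 1) ∣ N) :
    heckeBetaBar Kbar N q (epsN N q i h)
      = epsN (N * q) q (i + 1) (by rw [pow_succ]; exact Nat.mul_dvd_mul_right h q) := by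
  apply Subtype.ext
  rw [coe_heckeBetaBar, coe_epsN, coe_epsN, qExpand_qExpand]
  exact Fermat.Agent.BAD.H73.qExpand_congr (by rw [pow_succ, mul_comm]) _

end Eps

/-- `eps_1` of level `M q` is helper99's unit `U3`. -/
theorem epsN_zero (q M : ℕ) [NeZero M] [NeZero q] [NeZero (M * q)]
    (h : q ^ (0 + 1) ∣ M * q) : epsN (M * q) q 0 h = Fermat.Agent.S36.NU.H99.U3 q M := by
  apply Subtype.ext
  rw [coe_epsN]
  show qExpand Kbar (q ^ 0) (UQ q) = coeffEmb Kbar (modularUnitSeries q)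
  rw [Fermat.Agent.BAD.H73.qExpand_congr (pow_zero q), qExpand_one_apply]
  rfl

end Fermat.Agent.S45.NUE.H82

end
end
-- ==== END Fermat.Agent.S45.NUE.H82_EpsDefs

-- ==== BEGIN Fermat.Agent.S45.NUE.H96_TI3Core
section

/-!
# S45 / NU_e, package E-FIN: the abstract core of TI3 for ANY number of components (helper96)

The second half of helper24's `H24.fin_local` / helper65's `H65.fin_local'` (S36 / NU-B) uses the
datum `H79.NUData` (three components `i₂₀`, `i₁₁`, `i₀₂`, norms along `α`, `β`) only through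

* the conservation datum `T : H79.TotN K F L k ι Z κ`,
* the set `SS` of multiple points,
* GLUE at the points of `SS` (`H24.Glued`) and `deg = 1` of the points of the components.

Here this part is isolated as `GlueCore` (ANY `Fintype ι`: for the level `M' q ^ e` take
`ι = Fin (e + 1)`) and the whole local side of TI3 is proved for it:

* `GlueCore`, `GlueCore.IsGen`, `GlueCore.TrivRed`, `GlueCore.ofNUData` (the core of a `NUData`;
  `IsGen`, `TrivRed` agree by `Iff.rfl`);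
* `exists_g_of_trivRed` : the residues `g i` and (EQV) from `TrivRed`;
* `PointData`, `PointDataAt`, `eqv_of_bridge`, `chart_of_bridge`, `point_of_bridge`;
* `exists_isGen` : REG (local generators at the points of `SS`);
* `ti3_of_trivRed` (local data of both charts at all closed points) and `ti3_of_trivRed'`
  (chart at infinity only at the closed points where `1 / j` vanishes):
  `TrivRed n H` + (HOR) in both charts ⟹ `∃ s ≠ 0, H * s ^ n` integral over `R`.
-/

set_option autoImplicit false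
set_option linter.style.haveILetI false

noncomputable section

open AlgebraicCurve

attribute [local instance] Classical.propDecidable

namespace Fermat.Agent.S45.NUE.H96

open Fermat.Agent.RED.H17 Fermat.Agent.RED Fermat.Agent.S36.NU.H16 Fermat.Agent.S36.NU.H79
  Fermat.Agent.S36.NU.H24 Fermat.Agent.S36.NU.H17 Fermat.Agent.S36.NU.H65

/-- **The gluing core** of a datum of type NU: a conservation datum with `ι` components, a set
`SS` of multiple points, GLUE and `deg = 1` at the points of `SS`. -/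
structure GlueCore (K F L k ι Z : Type*) (κ : ι → Type*) [Field K] [Field F] [Field L]
    [Algebra K L] [Algebra F L] [Field k] [Fintype ι] [∀ i, Field (κ i)]
    [∀ i, Algebra k (κ i)] where
  /-- the conservation datum -/
  T : TotN K F L k ι Z κ
  /-- the multiple points -/
  SS : Set Z
  /-- GLUE at the multiple points -/
  glue : ∀ z ∈ SS, ∀ f : F, T.InR z f → ∀ (i j : ι) (c : k),
    HasValue (T.pt i z) (T.rdN i f) c ↔ HasValue (T.pt j z) (T.rdN j f) c
  deg_one : ∀ z ∈ SS, ∀ i, (T.pt i z).deg = 1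

section Core

variable {R F k ι Z K L : Type*} {κ : ι → Type*} [CommRing R] [Field F] [Algebra R F]
  [Field k] [∀ i, Field (κ i)] [∀ i, Algebra k (κ i)] [Fintype ι]
  [Field K] [Field L] [Algebra K L] [Algebra F L]

namespace GlueCore

variable (G : GlueCore K F L k ι Z κ)

/-- `s` is a **local generator** of `h` at `z` (for the exponent `n`). -/
def IsGen (n : ℕ) (z : Z) (h s : F) : Prop :=
  (∀ i, G.T.rdN i s ≠ 0) ∧ ∀ P, G.T.ρ P = z → P.ord (algebraMap F L (h * s ^ n)) = 0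

/-- **Trivial reduction data**: the reductions of `H` are `c Gf i ^ n` with a common constant
`c`, and at every multiple point `z` the functions `Gf i · red i s`, for a local generator `s` of
`H` at `z`, take the same non-zero value. -/
def TrivRed (n : ℕ) (H : F) : Prop :=
  ∃ (c : k) (Gf : ∀ i, κ i), c ≠ 0 ∧ (∀ i, G.T.rdN i H = algebraMap k (κ i) c * Gf i ^ n) ∧
    ∀ z ∈ G.SS, ∀ s : F, G.IsGen n z H s →
      ∃ a : k, a ≠ 0 ∧ ∀ i, HasValue (G.T.pt i z) (Gf i * G.T.rdN i s) a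

theorem glued {z : Z} (hz : z ∈ G.SS) : Glued G.T z := G.glue z hz

section OfNU

variable {K' L' L₁ L₂ : Type*} [Field K'] [Field L'] [Algebra K' L'] [Field L₁] [Algebra k L₁]
  [Field L₂] [Algebra k L₂]

/-- The gluing core of a `NUData` (three components). -/
def ofNUData (D : NUData K F L k ι Z κ K' L' L₁ L₂) : GlueCore K F L k ι Z κ where
  T := D.T
  SS := D.SS
  glue := D.glue
  deg_one := D.deg_one

theorem isGen_ofNUData (D : NUData K F L k ι Z κ K' L' L₁ L₂) (n : ℕ) (z : Z) (h s : F) :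
    (ofNUData D).IsGen n z h s ↔ D.IsGen n z h s := Iff.rfl

theorem trivRed_ofNUData (D : NUData K F L k ι Z κ K' L' L₁ L₂) (n : ℕ) (H : F) :
    (ofNUData D).TrivRed n H ↔ D.TrivRed n H := Iff.rfl

end OfNU

end GlueCore

variable (G : GlueCore K F L k ι Z κ)

/-! ## From `TrivRed` to the residues `g i` and (EQV) -/

/-- `g i ^ n * rd i H = 1` when `rd i H = γⁿ Gf i ^ n ≠ 0`. -/
theorem root_g_of_red {n : ℕ} {H : F} {γ : k} {Gf : ∀ i, κ i} (i : ι)
    (hu : G.T.rdN i H ≠ 0)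
    (hred : G.T.rdN i H = algebraMap k (κ i) (γ ^ n) * Gf i ^ n) :
    gOf γ Gf i ^ n * G.T.rdN i H = 1 := by
  have h1 : algebraMap k (κ i) (γ ^ n) * Gf i ^ n = (algebraMap k (κ i) γ * Gf i) ^ n := by
    rw [map_pow, mul_pow]
  rw [h1] at hred
  have h2 : (algebraMap k (κ i) γ * Gf i) ^ n ≠ 0 := by
    rw [← hred]
    exact hu
  unfold gOf
  rw [hred, inv_pow, inv_mul_cancel₀ h2]

/-- (EQV) at a multiple point, in the language of values. -/
theorem eqv_of_val {z : Z} (hdeg : ∀ i, (G.T.pt i z).deg = 1) {γ : k} (hγ : γ ≠ 0)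
    {Gf : ∀ i, κ i} {s : F} {a : k} (ha : a ≠ 0)
    (hval : ∀ i, HasValue (G.T.pt i z) (Gf i * G.T.rdN i s) a) (i : ι) :
    HasValue (G.T.pt i z) (gOf γ Gf i * (G.T.rdN i s)⁻¹) (γ * a)⁻¹ := by
  have h1 : HasValue (G.T.pt i z) (algebraMap k (κ i) γ * (Gf i * G.T.rdN i s)) (γ * a) :=
    (hval i).const_mul γ
  have h2 := h1.inv (hdeg i) (mul_ne_zero hγ ha)
  have h3 : gOf γ Gf i * (G.T.rdN i s)⁻¹
      = (algebraMap k (κ i) γ * (Gf i * G.T.rdN i s))⁻¹ := by
    unfold gOf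
    rw [← mul_inv, mul_assoc]
  rw [h3]
  exact h2

/-- From the trivial reduction data of `H` to the residues `g` with `g i ^ n * rd i H = 1` and
(EQV) at all multiple points. -/
theorem exists_g_of_trivRed {n : ℕ} (hn : n ≠ 0) (hroot : ∀ c : k, ∃ γ : k, γ ^ n = c) {H : F}
    (hu : ∀ i, G.T.rdN i H ≠ 0) (ht : G.TrivRed n H) :
    ∃ g : ∀ i, κ i, (∀ i, g i ^ n * G.T.rdN i H = 1) ∧
      ∀ z ∈ G.SS, ∀ s : F, G.IsGen n z H s →
        ∃ c : k, ∀ i, HasValue (G.T.pt i z) (g i * (G.T.rdN i s)⁻¹) c := by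
  obtain ⟨c, Gf, hc0, hred, hval⟩ := ht
  obtain ⟨γ, hγ⟩ := hroot c
  have hγ0 : γ ≠ 0 := by
    rintro rfl
    rw [zero_pow hn] at hγ
    exact hc0 hγ.symm
  subst hγ
  refine ⟨gOf γ Gf, fun i => _root_.Fermat.Agent.S45.NUE.H96.root_g_of_red G i (hu i) (hred i), fun z hz s hs => ?_⟩
  obtain ⟨a, ha, hv⟩ := hval z hz s hs
  exact ⟨(γ * a)⁻¹, fun i => _root_.Fermat.Agent.S45.NUE.H96.eqv_of_val G (G.deg_one z hz) hγ0 ha hv i⟩

/-! ## The local data and the charts -/

/-- The local data at ONE closed point of the special fibre of the chart. -/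
def PointDataAt (C : Chart R F k ι κ) (G : GlueCore K F L k ι Z κ) (q : R)
    (𝔪 : Ideal C.B) : Prop :=
  (∀ i, C.Icomp i ≤ 𝔪 → Nonempty (Branch C 𝔪 i)) ∧ Nonempty (LocEq C q 𝔪) ∧
    ((∃ i₀, ∀ i, C.Icomp i ≤ 𝔪 → i = i₀) ∨
      ∃ z ∈ G.SS, InChart C G.T z ∧
        ∃ i₀, ∀ β : C.B, β ∈ 𝔪 ↔ VanAt (G.T.pt i₀ z) (C.rdB i₀ β))

/-- **The local data at the closed points of the special fibre of the chart**: branches,
a local equation datum, and: a closed point with several branches is a multiple point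
`z ∈ SS` of the chart. -/
def PointData (C : Chart R F k ι κ) (G : GlueCore K F L k ι Z κ) (q : R) : Prop :=
  ∀ 𝔪 : Ideal C.B, 𝔪.IsMaximal → (∃ i, C.Icomp i ≤ 𝔪) → _root_.Fermat.Agent.S45.NUE.H96.PointDataAt C G q 𝔪

variable {C : Chart R F k ι κ}

/-- **(EQV) at a multiple point**, from the values of `g i / rd i s`. -/
theorem eqv_of_bridge [Infinite k] (hc : Compat C G.T) (hP : HasPrincipalDivisors K L) {z : Z}
    (hzSS : z ∈ G.SS) (hz : InChart C G.T z) {𝔪 : Ideal C.B} (i₀ : ι)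
    (h𝔪 : ∀ β : C.B, β ∈ 𝔪 ↔ VanAt (G.T.pt i₀ z) (C.rdB i₀ β)) {n : ℕ} (hn : 0 < n) {H : F}
    (hu : ∀ i, G.T.rdN i H ≠ 0) (g : ∀ i, κ i)
    (heqv : ∀ s : F, G.IsGen n z H s →
      ∃ c : k, ∀ i, HasValue (G.T.pt i z) (g i * (G.T.rdN i s)⁻¹) c)
    (s : F) (hs : H * s ^ n ∈ C.B) (hsm : (⟨H * s ^ n, hs⟩ : C.B) ∉ 𝔪)
    (br : ∀ i, C.Icomp i ≤ 𝔪 → Branch C 𝔪 i) :
    ∃ c : k, ∀ (i : ι) (hi : C.Icomp i ≤ 𝔪),
      g i * (C.rd i s)⁻¹ - algebraMap k (κ i) c ∈ (br i hi).O.nonunits := by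
  have hglue : Glued G.T z := G.glue z hzSS
  have hgen : G.IsGen n z H s :=
    isGen_of_reg hc hP hz hglue hn hu hs i₀ (fun hv => hsm ((h𝔪 _).2 hv))
  obtain ⟨c, hc'⟩ := heqv s hgen
  refine ⟨c, fun i hi => ?_⟩
  rw [hc.hrd]
  exact branch_nonunits_of_hasValue (br i hi) (G.T.pt i z)
    (branch_O_eq_pt hc hP hz hglue i₀ h𝔪 i (br i hi)) (hc' i)

/-- **One closed point of one chart**. -/
theorem point_of_bridge [Infinite k] [IsNoetherianRing C.B] [IsFractionRing C.B F]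
    (hc : Compat C G.T) (hP : HasPrincipalDivisors K L) (qn : ℕ) (q : R) (n : ℕ) (H : F)
    (g : ∀ i, κ i) (S : Setup C qn n H g) (H0 : H ≠ 0) (hHOR : HOR C q n H)
    (𝔪 : Ideal C.B) (hmax : 𝔪.IsMaximal) (hex : ∃ i, C.Icomp i ≤ 𝔪)
    (hpt : _root_.Fermat.Agent.S45.NUE.H96.PointDataAt C G q 𝔪) (hu : ∀ i, G.T.rdN i H ≠ 0)
    (heqv : ∀ z ∈ G.SS, ∀ s : F, G.IsGen n z H s →
      ∃ c : k, ∀ i, HasValue (G.T.pt i z) (g i * (G.T.rdN i s)⁻¹) c) :
    ∃ β : C.B, β ∉ 𝔪 ∧ C.Good H n g β := by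
  refine point_main C qn q n H g S H0 hHOR 𝔪 hmax hex ?_
  obtain ⟨hbr, hL, hcase⟩ := hpt
  refine ⟨hbr, hL, ?_⟩
  rcases hcase with h1 | ⟨z, hzSS, hz, i₀, h𝔪⟩
  · exact Or.inl h1
  · exact Or.inr fun s hs hsm br =>
      _root_.Fermat.Agent.S45.NUE.H96.eqv_of_bridge G hc hP hzSS hz i₀ h𝔪 S.n_pos hu g (heqv z hzSS) s hs hsm br

/-- **One chart**: the section `a` with `H aⁿ ∈ B` and residues `g i`. -/
theorem chart_of_bridge [Infinite k] [IsNoetherianRing C.B] [IsFractionRing C.B F]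
    (hc : Compat C G.T) (hP : HasPrincipalDivisors K L) (qn : ℕ) (q : R) (n : ℕ) (H : F)
    (g : ∀ i, κ i) (S : Setup C qn n H g) (H0 : H ≠ 0) (hHOR : HOR C q n H)
    (hpt : _root_.Fermat.Agent.S45.NUE.H96.PointData C G q) (hu : ∀ i, G.T.rdN i H ≠ 0)
    (heqv : ∀ z ∈ G.SS, ∀ s : F, G.IsGen n z H s →
      ∃ c : k, ∀ i, HasValue (G.T.pt i z) (g i * (G.T.rdN i s)⁻¹) c) :
    ∃ a : F, H * a ^ n ∈ C.B ∧ ∀ i, C.rd i a = g i :=
  patch C qn n H g S (fun 𝔪 hmax hex =>
    _root_.Fermat.Agent.S45.NUE.H96.point_of_bridge G hc hP qn q n H g S H0 hHOR 𝔪 hmax hex (hpt 𝔪 hmax hex) hu heqv)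

/-- **REG at the multiple points**: local generators of `h` at every `z ∈ SS`, from CA1
(`reg_abs`) in the chart `C`.  (`i₀` : any component.) -/
theorem exists_isGen [Infinite k] [IsNoetherianRing C.B] [IsFractionRing C.B F]
    (hc : Compat C G.T) (hP : HasPrincipalDivisors K L) (q : R) {n : ℕ} (hn : 0 < n) {h : F}
    (hHOR : HOR C q n h) (hpt : _root_.Fermat.Agent.S45.NUE.H96.PointData C G q) (hu : ∀ i, G.T.rdN i h ≠ 0) (i₀ : ι)
    {z : Z} (hzSS : z ∈ G.SS) (hz : InChart C G.T z) : ∃ s, G.IsGen n z h s := by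
  have hglue : Glued G.T z := G.glue z hzSS
  have hmax := ptMax_isMaximal hc hP hz i₀ (G.deg_one z hzSS i₀)
  have hle : C.Icomp i₀ ≤ ptMax hc hP hz i₀ := Icomp_le_ptMax hc hP hz hglue _ _
  obtain ⟨hbr, ⟨Lq⟩, -⟩ := hpt _ hmax ⟨i₀, hle⟩
  obtain ⟨b⟩ := hbr i₀ hle
  have hh : ∀ i, h ∈ C.V i ∧ h⁻¹ ∈ C.V i := fun i => by
    rw [hc.hV]
    exact ⟨G.T.mem_of_rdN_ne_zero (hu i), G.T.inv_mem_of_rdN_ne_zero (hu i)⟩
  have h0 : h ≠ 0 := by
    rintro rfl
    apply hu i₀
    rw [G.T.rdN_of_mem (G.T.V _).zero_mem]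
    exact map_zero _
  obtain ⟨s, hs, hsm⟩ := reg_abs C q n hn h hh h0 _ hmax i₀ b Lq hHOR
  exact ⟨s, isGen_of_reg hc hP hz hglue hn hu hs i₀
    (fun hv => hsm ((mem_ptMax hc hP hz i₀ _).2 hv))⟩

/-! ## TI3 -/

/-- **TI3 for a gluing core, cusp-only form**: a unit `H` for all the valuations with (HOR)
in both charts and trivial reduction data is an integral constant times an `n`-th power.
The local data of the chart at infinity are asked only at the closed points where `1 / j`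
vanishes. -/
theorem ti3_of_trivRed' [IsAlgClosed k] [IsNoetherianRing R] [IsDomain R]
    [IsIntegrallyClosed R]
    (Kf : Type*) [Field Kf] [Algebra R Kf] [IsFractionRing R Kf] [Algebra Kf F]
    [IsScalarTower R Kf F]
    (C0 Coo : Chart R F k ι κ) [IsNoetherianRing C0.B] [IsFractionRing C0.B F]
    [IsNoetherianRing Coo.B] [IsFractionRing Coo.B F]
    (hc0 : Compat C0 G.T) (hcoo : Compat Coo G.T) (hP : HasPrincipalDivisors K L)
    (qn n : ℕ) (hC0 : ChartHyp C0 qn n) (hCoo : ChartHyp Coo qn n)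
    (j : F) (hjt : Transcendental Kf j) (hB0 : C0.B = intSub R j) (hBoo : Coo.B = intSub R j⁻¹)
    (q : R) (hq0 : q ≠ 0) (hqu : ¬ IsUnit q) (n' : R) (hnn : (n : R) * n' = 1)
    (hpt0 : _root_.Fermat.Agent.S45.NUE.H96.PointData C0 G q)
    (hptoo : ∀ 𝔪 : Ideal Coo.B, 𝔪.IsMaximal → (∃ i, Coo.Icomp i ≤ 𝔪) →
      (∀ β : Coo.B, (β : F) = j⁻¹ → β ∈ 𝔪) → _root_.Fermat.Agent.S45.NUE.H96.PointDataAt Coo G q 𝔪)
    (hrad0 : ∀ β ∈ C0.B, (∀ i, C0.rd i β = 0) → IsRadQ C0.B q β)
    (hradoo : ∀ β ∈ Coo.B, (∀ i, Coo.rd i β = 0) → IsRadQ Coo.B q β)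
    (H : F) (H0 : H ≠ 0) (huH : ∀ i, G.T.rdN i H ≠ 0)
    (hHOR0 : HOR C0 q n H) (hHORoo : HOR Coo q n H)
    (hfg : (MInt R j⁻¹ H n hC0.n_pos).FG)
    (htriv : G.TrivRed n H) :
    ∃ s : F, s ≠ 0 ∧ IsIntegral R (H * s ^ n) := by
  have hn : 0 < n := hC0.n_pos
  haveI : Infinite k := IsAlgClosed.instInfinite
  -- the residues `g`
  obtain ⟨g, hg, heqv⟩ := _root_.Fermat.Agent.S45.NUE.H96.exists_g_of_trivRed G hn.ne'
    (fun c => IsAlgClosed.exists_pow_nat_eq c hn) huH htriv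
  have S0 : Setup C0 qn n H g := hC0.setup (fun i => by rw [hc0.hrd]; exact hg i)
  have Soo : Setup Coo qn n H g := hCoo.setup (fun i => by rw [hcoo.hrd]; exact hg i)
  have hVV : ∀ i, C0.V i = Coo.V i := fun i => by rw [hc0.hV, hcoo.hV]
  have hrr : ∀ i x, C0.rd i x = Coo.rd i x := fun i x => by rw [hc0.hrd, hcoo.hrd]
  have hj : j ≠ 0 := by
    rintro rfl
    exact hjt ⟨Polynomial.X, Polynomial.X_ne_zero, by simp⟩
  have Gl : Glue C0 Coo j := glue_of_intSub C0 Coo j hj hB0 hBoo hVV hrr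
  have hint : ∀ y ∈ Coo.B, IsIntegral (Algebra.adjoin R {j⁻¹}) y := by
    intro y hy
    rw [hBoo] at hy
    exact hy
  -- the chart `C0`
  obtain ⟨a, ha, hra⟩ := _root_.Fermat.Agent.S45.NUE.H96.chart_of_bridge G hc0 hP qn q n H g S0 H0 hHOR0 hpt0 huH heqv
  -- the chart at infinity
  obtain ⟨b, hb, hrb⟩ := patch Coo qn n H g Soo (fun 𝔪 hmax hex => by
    by_cases hcusp : (⟨j⁻¹, Gl.inv_mem⟩ : Coo.B) ∈ 𝔪
    · refine _root_.Fermat.Agent.S45.NUE.H96.point_of_bridge G hcoo hP qn q n H g Soo H0 hHORoo 𝔪 hmax hex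
        (hptoo 𝔪 hmax hex (fun β hβ => ?_)) huH heqv
      have : β = ⟨j⁻¹, Gl.inv_mem⟩ := Subtype.ext hβ
      rw [this]
      exact hcusp
    · haveI := hmax.isPrime
      haveI := hmax
      have Lk : Linked C0 Coo j (pull Gl 𝔪) 𝔪 := linked_pull Gl 𝔪 hcusp
      obtain ⟨i₀, hi₀⟩ := hex
      have hmax0 : (pull Gl 𝔪).IsMaximal := Lk.isMaximal Gl hint i₀ hi₀
      have hex0 : ∃ i, C0.Icomp i ≤ pull Gl 𝔪 :=
        ⟨i₀, (Lk.symm Gl.u_ne).icomp_le Gl.symm hi₀⟩
      exact good_transfer Gl Lk qn n H g S0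
        (_root_.Fermat.Agent.S45.NUE.H96.point_of_bridge G hc0 hP qn q n H g S0 H0 hHOR0 _ hmax0 hex0
          (hpt0 _ hmax0 hex0) huH heqv))
  -- TI3
  exact ti3_const Kf C0 Coo qn n H g S0 Soo j hjt hB0 hBoo hVV hrr q hq0 hqu n' hnn
    hfg hrad0 hradoo a b ha hra hb hrb

/-- **TI3 for a gluing core** (local data of both charts at all closed points). -/
theorem ti3_of_trivRed [IsAlgClosed k] [IsNoetherianRing R] [IsDomain R]
    [IsIntegrallyClosed R]
    (Kf : Type*) [Field Kf] [Algebra R Kf] [IsFractionRing R Kf] [Algebra Kf F]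
    [IsScalarTower R Kf F]
    (C0 Coo : Chart R F k ι κ) [IsNoetherianRing C0.B] [IsFractionRing C0.B F]
    [IsNoetherianRing Coo.B] [IsFractionRing Coo.B F]
    (hc0 : Compat C0 G.T) (hcoo : Compat Coo G.T) (hP : HasPrincipalDivisors K L)
    (qn n : ℕ) (hC0 : ChartHyp C0 qn n) (hCoo : ChartHyp Coo qn n)
    (j : F) (hjt : Transcendental Kf j) (hB0 : C0.B = intSub R j) (hBoo : Coo.B = intSub R j⁻¹)
    (q : R) (hq0 : q ≠ 0) (hqu : ¬ IsUnit q) (n' : R) (hnn : (n : R) * n' = 1)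
    (hpt0 : _root_.Fermat.Agent.S45.NUE.H96.PointData C0 G q) (hptoo : _root_.Fermat.Agent.S45.NUE.H96.PointData Coo G q)
    (hrad0 : ∀ β ∈ C0.B, (∀ i, C0.rd i β = 0) → IsRadQ C0.B q β)
    (hradoo : ∀ β ∈ Coo.B, (∀ i, Coo.rd i β = 0) → IsRadQ Coo.B q β)
    (H : F) (H0 : H ≠ 0) (huH : ∀ i, G.T.rdN i H ≠ 0)
    (hHOR0 : HOR C0 q n H) (hHORoo : HOR Coo q n H)
    (hfg : (MInt R j⁻¹ H n hC0.n_pos).FG)
    (htriv : G.TrivRed n H) :
    ∃ s : F, s ≠ 0 ∧ IsIntegral R (H * s ^ n) :=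
  ti3_of_trivRed' G Kf C0 Coo hc0 hcoo hP qn n hC0 hCoo j hjt hB0 hBoo q hq0 hqu n' hnn hpt0
    (fun 𝔪 hmax hex _ => hptoo 𝔪 hmax hex) hrad0 hradoo H H0 huH hHOR0 hHORoo hfg htriv

end Core

end Fermat.Agent.S45.NUE.H96

end
end
-- ==== END Fermat.Agent.S45.NUE.H96_TI3Core
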