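-- GENERATED (merged mirror, NOTES/tools/trim/merge3_helper67.py): 9 modules of the originals, bodies verbatim.
import Fermat.Statements.S08
import Fermat.Prelude.Def_FreyPackage_IsConductorLevel
import Fermat.Agent.Zm.S45_L01_000
import Fermat.Agent.Zm.S58_L02_000
import Fermat.Agent.S35
import Fermat.Agent.Zm.S36_L03_001
import Fermat.Agent.Zm.S45_L01_002
import Fermat.Agent.Zm.S36_L13_000
import Fermat.Agent.Zm.S36_L04_001
import Fermat.Agent.Zm.S43_L01_000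
import Fermat.Agent.Zm.S36_L16_000
import Fermat.Agent.Zm.S45_L01_001
import Fermat.Agent.Zm.S45_L01_003
import Fermat.Agent.Zm.S36_L06_001
import Fermat.Agent.Zm.S36_L14_000

-- ==== BEGIN Fermat.Agent.S08
section

set_option autoImplicit false
open WeierstrassCurve WeierstrassCurve.Affine WeierstrassCurve.Affine.Point
open CuspForm ModularFormClass UpperHalfPlane
open ModularForm

namespace Fermat.Agent.S08

theorem result (f : CuspForm (CongruenceSubgroup.Gamma0 1) 2) : f = 0 := by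
  refine Fermat.Agent.Lib.CuspFormGamma0.cuspForm_eq_zero_of_index_lt 1 ?_ f
  rw [Fermat.Agent.S07.index_Gamma0_one]
  norm_num

end Fermat.Agent.S08

end
-- ==== END Fermat.Agent.S08

-- ==== BEGIN Fermat.Agent.S45.H43_Top
section

/-!
# S45 (helper43): the top wiring — from `IsModular` (ARBITRARY level) to a conductor level

The frozen S45 gives `hmod : P.freyCurve.IsModular`: an eigenform of an arbitrary level `N` with
the eigenvalues of SOME integral model of the Frey curve.  The glue of S45 (`S45/Glue.lean`)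
needs a level which is squarefree and supported on the primes of `a b c`.

* `Stmt_S36e` : **Carayol for all exponents** (the target of the geometric side, owner helper68):
  the frozen statement S36 with `q ^ 2 ∣ M` instead of `M.factorization q = 2`, without the
  hypotheses `lam ≠ 2`, `hres`, and only for the test primes `lam > q + 1`.
* `s36e_consequence` : a newform with the eigenvalues of a semistable curve has squarefree level.
* `exists_conductorLevel : Stmt_S36e → ∀ P, P.freyCurve.IsModular →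
    ∃ N, P.IsConductorLevel N ∧ P.ModularRepOfLevel N`   (the input `h06` of the glue).

Everything else is landed: S35 (`Fermat.Agent.S35.result`), the Tate module of a semistable curve
(`S58.stmt_TateUnip`), P1/P3 of helper99, newforms (`R.H99.exists_isNewform`).
-/

set_option autoImplicit false

open Polynomial IsLocalRing CuspForm ModularFormClass

namespace Fermat.Agent.S45.H43

open Fermat.Agent.S58 Fermat.Agent.S58.H99 Fermat.Agent.R.H99

/-- **Carayol for all exponents** (`q ^ 2 ∣ M`, test prime `lam > q + 1`). -/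
def Stmt_S36e : Prop :=
  ∀ {M : ℕ} [NeZero M] {g : CuspForm (CongruenceSubgroup.Gamma0 M) 2} (_hg : g.IsNewform)
    (lam : ℕ) [Fact lam.Prime]
    (S : Finset ℕ)
    (O' : Type) [CommRing O'] [IsDomain O'] [IsDiscreteValuationRing O']
    [IsAdicComplete (IsLocalRing.maximalIdeal O') O'] [Finite (IsLocalRing.ResidueField O')]
    [CharZero O'] (_hlamO' : (lam : O') ∈ IsLocalRing.maximalIdeal O')
    (chig : CuspForm.heckeAlgebra M 2 (↑S : Set ℕ) →+* ℂ)
    (_hchig : ∀ (ℓ : ℕ) (hℓ : ℓ.Prime) (hℓM : ¬ ℓ ∣ M) (hℓS : ℓ ∉ (↑S : Set ℕ)),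
      chig (CuspForm.heckeAlgebra.T hℓ hℓM hℓS) = ModularFormClass.qCoeff g ℓ)
    (iota : chig.range →+* O')
    (_hlamS : lam ∈ S) (_hMS : ∀ q : ℕ, q.Prime → q ∣ M → q ∈ S),
    ∃ (O'' : Type) (_ : CommRing O'') (_ : IsDomain O'') (_ : IsDiscreteValuationRing O'')
      (_ : IsAdicComplete (IsLocalRing.maximalIdeal O'') O'')
      (_ : Finite (IsLocalRing.ResidueField O''))
      (_ : CharZero O'') (_ : Algebra O' O'') (_ : Module.Finite O' O'')
      (_ : IsLocalHom (algebraMap O' O'')),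
      Function.Injective (algebraMap O' O'') ∧
      ∃ ρ : GaloisRepAdic O'',
        (∀ (ℓ : ℕ) (hℓ : ℓ.Prime) (hℓM : ¬ ℓ ∣ M) (hℓS : ℓ ∉ (↑S : Set ℕ)),
          ∀ A : ValuationSubring (AlgebraicClosure ℚ), A.LiesOverPrime ℓ →
            ∀ σ : AlgebraicClosure ℚ ≃ₐ[ℚ] AlgebraicClosure ℚ, A.IsFrobeniusAt σ ℓ →
              LinearMap.charpoly (ρ.ρ σ) =
                X ^ 2 - C (algebraMap O' O'' ((iota.comp chig.rangeRestrict)
                  (CuspForm.heckeAlgebra.T hℓ hℓM hℓS))) * X + C ((ℓ : O''))) ∧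
        (∀ q : ℕ, q.Prime → q + 1 < lam → q ^ 2 ∣ M → ¬ ρ.IsUnipotentOnInertiaAt q)

/-- The frozen statement S35, in the form used by the wiring of S58. -/
theorem stmt_S35 : Fermat.Agent.S58.Stmt_S35 :=
  fun hg lam _ S O' _ _ _ _ _ _ hlamO' chig hchig iota hlamS hMS =>
    Fermat.Agent.S35.result hg lam S O' hlamO' chig hchig iota hlamS hMS

/-- P1 of helper99, unconditional. -/
theorem stmt_AdicUnip : Fermat.Agent.S58.Stmt_AdicUnip :=
  H99.stmt_AdicUnip_of_tate Fermat.Agent.S58.stmt_TateUnip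

section Apply

variable {N₀ : ℕ} [NeZero N₀] {f₀ : CuspForm (CongruenceSubgroup.Gamma0 N₀) 2}

/-- Consequence of `Stmt_S36e` for a newform with the eigenvalues of a semistable curve `W`
outside a finite set: its level is squarefree. -/
theorem s36e_consequence (h36 : Stmt_S36e) (hf₀ : f₀.IsNewform)
    (W : WeierstrassCurve ℤ) (hΔ : W.Δ ≠ 0) (hss : W.IsSemistableModel) (T : Finset ℕ)
    (hfW : ∀ ℓ : ℕ, ℓ.Prime → ℓ ∉ T → ¬ ℓ ∣ N₀ → qCoeff f₀ ℓ = (W.apOfModel ℓ : ℂ)) :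
    ∀ q : ℕ, q.Prime → ¬ q ^ 2 ∣ N₀ := by
  classical
  intro q hq hq2
  obtain ⟨p, hp1, hp⟩ := Nat.exists_infinite_primes (q + 2)
  have hpF : Fact p.Prime := ⟨hp⟩
  have hqp : q ≠ p := by omega
  set S : Finset ℕ := insert p (N₀.primeFactors ∪ T) with hS
  have hpS : p ∈ S := Finset.mem_insert_self _ _
  have hMS : ∀ q : ℕ, q.Prime → q ∣ N₀ → q ∈ S := fun q hq hqN =>
    Finset.mem_insert_of_mem (Finset.mem_union_left _
      (Nat.mem_primeFactors.mpr ⟨hq, hqN, NeZero.ne N₀⟩))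
  have hST : ∀ ℓ : ℕ, ℓ ∉ (↑S : Set ℕ) → ℓ ∉ T := fun ℓ hℓS hℓT =>
    hℓS (Finset.mem_coe.mpr (Finset.mem_insert_of_mem (Finset.mem_union_right _ hℓT)))
  set chig : heckeAlgebra N₀ 2 (↑S : Set ℕ) →+* ℂ := eigenCharC (↑S : Set ℕ) hf₀.1 with hchig_def
  have hchig : ∀ (ℓ : ℕ) (hℓ : ℓ.Prime) (hℓM : ¬ ℓ ∣ N₀) (hℓS : ℓ ∉ (↑S : Set ℕ)),
      chig (heckeAlgebra.T hℓ hℓM hℓS) = qCoeff f₀ ℓ :=
    fun ℓ hℓ hℓM hℓS => eigenCharC_T _ hf₀.1 hℓ hℓM hℓS
  obtain ⟨P, O', i1, i2, i3, i4, i5, i6, iota, -, -, -, -, hpO'⟩ :=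
    exists_padic_embedding chig hp
  have hcoef : ∀ (ℓ : ℕ) (hℓ : ℓ.Prime) (hℓM : ¬ ℓ ∣ N₀) (hℓS : ℓ ∉ (↑S : Set ℕ)),
      (iota.comp chig.rangeRestrict) (heckeAlgebra.T hℓ hℓM hℓS) =
        ((W.apOfModel ℓ : ℤ) : O') := by
    intro ℓ hℓ hℓM hℓS
    rw [RingHom.comp_apply, rangeRestrict_eq_intCast chig _ (W.apOfModel ℓ)
      (by rw [hchig, hfW ℓ hℓ (hST ℓ hℓS) hℓM]), map_intCast]
  obtain ⟨O'', j1, j2, j3, j4, j5, j6, j7, j8, j9, -, ρ, hfrob, hnu⟩ :=
    h36 hf₀ p S O' hpO' chig hchig iota hpS hMS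
  have hpO'' : (p : O'') ∈ maximalIdeal O'' := by
    have := map_mem_maximalIdeal (algebraMap O' O'') hpO'
    rwa [map_natCast] at this
  have hHas : HasFrobOf W ρ S := by
    intro ℓ hℓ hℓS Q hQ σ hσ
    have hℓN₀ : ¬ ℓ ∣ N₀ := fun h => hℓS (hMS ℓ hℓ h)
    have hℓS' : ℓ ∉ (↑S : Set ℕ) := by simpa using hℓS
    rw [hfrob ℓ hℓ hℓN₀ hℓS' Q hQ σ hσ, hcoef ℓ hℓ hℓN₀ hℓS', map_intCast]
  exact hnu q hq (by omega) hq2 (stmt_AdicUnip p W hΔ hss O'' hpO'' ρ S hHas q hq hqp)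

end Apply

/-- **The level of the newform behind a modular semistable curve.**  If an eigenform of level
`N ≠ 0` has the eigenvalues of the semistable model `W` outside a finite set `T₀`, then there is
a newform `f₀` of squarefree level `N₀ ∣ N`, all of whose prime divisors are bad for `W`, with
`a_ℓ(f₀) = a_ℓ(W)` at EVERY good prime `ℓ` of `W`. -/
theorem exists_newform_squarefree (h36 : Stmt_S36e)
    (W : WeierstrassCurve ℤ) (hΔ : W.Δ ≠ 0) (hss : W.IsSemistableModel)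
    {N : ℕ} (hN0 : N ≠ 0) {f : CuspForm (CongruenceSubgroup.Gamma0 N) 2}
    (hf : f.IsNormalizedEigenform) (T₀ : Finset ℕ)
    (hfW : ∀ ℓ : ℕ, ℓ.Prime → ℓ ∉ T₀ → ¬ ℓ ∣ N → qCoeff f ℓ = (W.apOfModel ℓ : ℂ)) :
    ∃ (N₀ : ℕ) (f₀ : CuspForm (CongruenceSubgroup.Gamma0 N₀) 2), N₀ ≠ 0 ∧ N₀ ∣ N ∧
      f₀.IsNormalizedEigenform ∧ Squarefree N₀ ∧
      (∀ q : ℕ, q.Prime → q ∣ N₀ → (q : ℤ) ∣ W.Δ) ∧
      ∀ ℓ : ℕ, ℓ.Prime → W.IsGoodPrimeFor ℓ → qCoeff f₀ ℓ = (W.apOfModel ℓ : ℂ) := by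
  classical
  have : NeZero N := ⟨hN0⟩
  obtain ⟨N₀, hN₀N, f₀, hf₀, hf₀f⟩ := exists_isNewform hf
  have hN₀0 : N₀ ≠ 0 := fun h => hN0 (by rw [h] at hN₀N; exact Nat.eq_zero_of_zero_dvd hN₀N)
  have : NeZero N₀ := ⟨hN₀0⟩
  set T : Finset ℕ := N.primeFactors ∪ T₀ with hT
  have hf₀W : ∀ ℓ : ℕ, ℓ.Prime → ℓ ∉ T → ¬ ℓ ∣ N₀ → qCoeff f₀ ℓ = (W.apOfModel ℓ : ℂ) := by
    intro ℓ hℓ hℓT _
    have hℓN : ¬ ℓ ∣ N := fun hdvd =>
      hℓT (Finset.mem_union_left _ (Nat.mem_primeFactors.mpr ⟨hℓ, hdvd, hN0⟩))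
    have hℓT₀ : ℓ ∉ T₀ := fun h => hℓT (Finset.mem_union_right _ h)
    rw [hf₀f ℓ hℓ hℓN]
    exact hfW ℓ hℓ hℓT₀ hℓN
  -- (A2) the level `N₀` is squarefree
  have hsq : ∀ q : ℕ, q.Prime → ¬ q ^ 2 ∣ N₀ :=
    s36e_consequence h36 hf₀ W hΔ hss T hf₀W
  -- (A1) every prime divisor of `N₀` is bad
  have hbadN₀ : ∀ q : ℕ, q.Prime → q ∣ N₀ → (q : ℤ) ∣ W.Δ := by
    intro q hq hqN₀
    by_contra hgood
    obtain ⟨lam, hlam1, hlam2⟩ := Nat.exists_infinite_primes (2 * q + 3)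
    have : Fact lam.Prime := ⟨hlam2⟩
    have : Fact q.Prime := ⟨hq⟩
    have hqlam : q ≠ lam := by omega
    obtain ⟨hlo, hhi⟩ := apOfModel_bounds W q
    rcases (s35_consequences stmt_S35 hf₀ W hΔ T hf₀W lam).2 q hq hqlam hqN₀ (hsq q hq) hgood
      with h | h
    · have h1 : (0 : ℤ) < (q : ℤ) + 1 - W.apOfModel q := by omega
      have h2 := Int.le_of_dvd h1 h
      omega
    · have h' : (lam : ℤ) ∣ ((q : ℤ) + 1 + W.apOfModel q) := by
        have := (dvd_neg (α := ℤ)).mpr h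
        have e : -(-((q : ℤ) + 1) - W.apOfModel q) = (q : ℤ) + 1 + W.apOfModel q := by ring
        rwa [e] at this
      have h1 : (0 : ℤ) < (q : ℤ) + 1 + W.apOfModel q := by omega
      have h2 := Int.le_of_dvd h1 h'
      omega
  -- the eigenvalues at ALL good primes
  have hall : ∀ ℓ : ℕ, ℓ.Prime → W.IsGoodPrimeFor ℓ → qCoeff f₀ ℓ = (W.apOfModel ℓ : ℂ) := by
    intro ℓ hℓ hgood
    have hℓN₀ : ¬ ℓ ∣ N₀ := fun h => hgood (hbadN₀ ℓ hℓ h)
    have hint : IsIntegral ℤ (qCoeff f₀ ℓ - (W.apOfModel ℓ : ℂ)) := by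
      have h1 : IsIntegral ℤ (qCoeff f₀ ℓ) := by
        have hℓS : ℓ ∉ (∅ : Set ℕ) := Set.notMem_empty ℓ
        have := isIntegral_apply (eigenCharC (∅ : Set ℕ) hf₀.1) (heckeAlgebra.T hℓ hℓN₀ hℓS)
        rwa [eigenCharC_T] at this
      have h2 : IsIntegral ℤ ((W.apOfModel ℓ : ℤ) : ℂ) := isIntegral_algebraMap
      exact h1.sub h2
    have h0 := eq_zero_of_forall_prime_mem _ hint ℓ (fun lam hlam hB => by
      have : Fact lam.Prime := ⟨hlam⟩
      exact (s35_consequences stmt_S35 hf₀ W hΔ T hf₀W lam).1 ℓ hℓ hℓN₀ (by omega) hgood)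
    exact sub_eq_zero.mp h0
  refine ⟨N₀, f₀, hN₀0, hN₀N, hf₀.1, ?_, hbadN₀, hall⟩
  rw [Nat.squarefree_iff_prime_squarefree]
  intro q hq hqq
  exact hsq q hq (by rwa [pow_two])

/-- **The input `h06` of the S45 glue**: from modularity of the Frey curve (at an arbitrary
level) to modularity of the Frey representation at a conductor level. -/
theorem exists_conductorLevel (h36 : Stmt_S36e) (P : FreyPackage)
    (hmod : P.freyCurve.IsModular) :
    ∃ N : ℕ, P.IsConductorLevel N ∧ P.ModularRepOfLevel N := by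
  classical
  obtain ⟨W, hW, N, hNpos, f, hf, hfW⟩ := hmod
  set W₀ : WeierstrassCurve ℤ := P.freyCurveInt with hW₀
  have hW₀m : W₀.IsIntegralModelOf P.freyCurve :=
    Fermat.Agent.S04.H59.freyCurveInt_isIntegralModelOf P
  have hΔ₀ : W₀.Δ ≠ 0 := Fermat.Agent.S04.H59.freyCurveInt_Δ_ne_zero P
  have hss₀ : W₀.IsSemistableModel := Fermat.Agent.S04.H59.freyCurveInt_isSemistableModel P
  have hΔ : W.Δ ≠ 0 := delta_ne_zero_of_model hW (freyCurve_Δ_ne_zero P)
  -- the exceptional set: the bad primes of the two models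
  set T₀ : Finset ℕ := W.Δ.natAbs.primeFactors ∪ W₀.Δ.natAbs.primeFactors with hT₀
  have hgoodW : ∀ ℓ : ℕ, ℓ.Prime → ℓ ∉ T₀ → W.IsGoodPrimeFor ℓ := by
    intro ℓ hℓ hℓT hdvd
    exact hℓT (Finset.mem_union_left _ (Nat.mem_primeFactors.mpr
      ⟨hℓ, Int.natCast_dvd.mp hdvd, Int.natAbs_ne_zero.mpr hΔ⟩))
  have hgoodW₀ : ∀ ℓ : ℕ, ℓ.Prime → ℓ ∉ T₀ → W₀.IsGoodPrimeFor ℓ := by
    intro ℓ hℓ hℓT hdvd
    exact hℓT (Finset.mem_union_right _ (Nat.mem_primeFactors.mpr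
      ⟨hℓ, Int.natCast_dvd.mp hdvd, Int.natAbs_ne_zero.mpr hΔ₀⟩))
  have hfW₀ : ∀ ℓ : ℕ, ℓ.Prime → ℓ ∉ T₀ → ¬ ℓ ∣ N → qCoeff f ℓ = (W₀.apOfModel ℓ : ℂ) := by
    intro ℓ hℓ hℓT hℓN
    rw [hfW ℓ hℓ (hgoodW ℓ hℓ hℓT) hℓN,
      apOfModel_eq_of_models hW hW₀m hℓ (hgoodW ℓ hℓ hℓT) (hgoodW₀ ℓ hℓ hℓT)]
  obtain ⟨N₀, f₀, hN₀0, -, hf₀, hsq, hbad, hall⟩ :=
    exists_newform_squarefree h36 W₀ hΔ₀ hss₀ hNpos.ne' hf T₀ hfW₀
  refine ⟨N₀, ⟨Nat.pos_of_ne_zero hN₀0, hsq, fun q hq hqN₀ =>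
    freyInt_bad_dvd_abc P hq (hbad q hq hqN₀)⟩, ?_⟩
  obtain ⟨𝔪, h𝔪, hp𝔪⟩ := FLTPrelim.exists_maximalIdeal_natCast_prime_mem P.pp
  refine ⟨f₀, W₀, 𝔪, hf₀, hW₀m, h𝔪, hp𝔪, fun ℓ hℓ hgood _ _ => ?_⟩
  refine ⟨((W₀.apOfModel ℓ : ℤ) : integralClosure ℤ ℂ), ?_, ?_⟩
  · rw [hall ℓ hℓ hgood]
    simp
  · rw [sub_self]
    exact 𝔪.zero_mem

end Fermat.Agent.S45.H43

end
-- ==== END Fermat.Agent.S45.H43_Top

-- ==== BEGIN Fermat.Agent.S45.NUE.Final
section

/-!
# S45 / NU_e (helper68): the torsion form at every level from the target of the geometric side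

`torsNUE_final : Stmt_NUCoreETame → ∀ M q p, Stmt_TorsNUE M q p`
(tame descent with helper44's base change of the norms + Hilbert 90 descent of helper61).
-/

set_option autoImplicit false

namespace Fermat.Agent.S45.NUE

/-- **(NU) at `q ^ e`, `e ≥ 3`, at every level**, from the Kummer form at the tame levels. -/
theorem torsNUE_final (h : Stmt_NUCoreETame) (M q p : ℕ) [NeZero M] [NeZero q] :
    Stmt_TorsNUE M q p :=
  torsNUE_of_nuCoreE M q p (nuCoreE_all Fermat.Agent.S36.NU.H44.stmt_NormUpNU h p M q)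

end Fermat.Agent.S45.NUE

end
-- ==== END Fermat.Agent.S45.NUE.Final

-- ==== BEGIN Fermat.Agent.S45.NUE.H26_LinkE
section
attribute [local instance 10000] SubalgebraClass.toAlgebra
attribute [local instance 10000] HahnSeries.powerSeriesAlgebra

/-!
# S45 / NU_e, package E-VV, leaf LINK-MOD (helper26)

Three levels `M₁`, `M₁ q`, `M₁ q q` (any `M₁`), `α, β : F_{M₁ q} → F_{M₁ q q}` and
`α', β' : F_{M₁} → F_{M₁ q}` the degeneracy maps.  If `N_α f = c_α g_α ^ n` and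
`N_β f = c_β g_β ^ n` with inertia-fixed constants `c_α`, `c_β` of values `v(q) ^ m_α`,
`v(q) ^ m_β` and inertia-fixed `g_α`, `g_β`, and `n` is prime to `6 q (q - 1) (q + 1)`, then
`n ∣ m_α - m_β`.

Proof: `N_β' N_α = N_α' N_β` (commuting square) gives
`c_α ^ d (N_β' g_α) ^ n = c_β ^ d (N_α' g_β) ^ n` in `F_{M₁}`, `d = [F_{M₁ q} : F_{M₁}] ∈ {q, q + 1}`;
the Gauss valuation `V20 A M₁` takes its values in `v(q) ^ ℤ` on the inertia-fixed functions.

* `link_abs` : the abstract form (three fields, a valuation of the lowest one);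
* `finrankAlong_alpha_cases`, `goodExp_coprime_deg`, `heckeComm_sq`;
* `link_mod` : the statement for the modular tower.
-/

set_option autoImplicit false
set_option linter.style.haveILetI false
set_option linter.unusedSectionVars false
set_option linter.unusedVariables false
set_option synthInstance.maxHeartbeats 400000
set_option maxHeartbeats 1000000

noncomputable section

namespace Fermat.Agent.S45.NUE.H26

open AlgebraicCurve ModularCurve Fermat.Agent.S24 Fermat.Agent.Lib.HeckeComm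
  Fermat.Agent.S36.H44 Fermat.Agent.BAD Fermat.Agent.S36.NU.H23 Fermat.Agent.BAD.H88
  Fermat.Agent.S36.NU.H88 Fermat.Agent.S36.NU.H51 Fermat.Agent.S36.NU.H26
  Fermat.Agent.S45.NUE.H51 Fermat.Agent.S45.NUE

/-! ### The abstract form -/

section Abs

variable {E₂ E L : Type} [Field E₂] [Field E] [Field L]

/-- **LINK, abstract form**: the congruence of the exponents of the constants from the
commuting norms and a valuation `W` of the lowest field whose values on a set `S` containing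
the two norms are powers of `γ`. -/
theorem link_abs (α' β' : E₂ →+* E) (α β : E →+* L) (hcomm : α.comp β' = β.comp α')
    (hfα : FinAlong α) (hfβ : FinAlong β) (hfα' : FinAlong α') (hfβ' : FinAlong β')
    (d : ℕ) (hdα' : degAlong α' = d) (hdβ' : degAlong β' = d)
    (n : ℕ) (hn : 0 < n) (hcop : Nat.Coprime n d) (f : L) (hf : f ≠ 0)
    (cα cβ : E₂) (gα gβ : E)
    (hNα : normAlongHom α f = β' cα * gα ^ n) (hNβ : normAlongHom β f = α' cβ * gβ ^ n)
    (W : ValuationSubring E₂) (γ : W.ValueGroup) (hγ0 : γ ≠ 0) (hγ1 : γ ≠ 1)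
    (S : Set E₂) (hS : ∀ x ∈ S, x ≠ 0 → ∃ m : ℤ, W.valuation x = γ ^ m)
    (hSα : normAlongHom β' gα ∈ S) (hSβ : normAlongHom α' gβ ∈ S)
    (mα mβ : ℤ) (hvα : W.valuation cα = γ ^ mα) (hvβ : W.valuation cβ = γ ^ mβ) :
    (n : ℤ) ∣ mα - mβ := by
  have hlink := link_norm α' β' α β hcomm d hdα' hdβ' n f cα cβ gα gβ hNα hNβ
  have hgα0 : gα ≠ 0 := by
    rintro rfl
    rw [zero_pow hn.ne', mul_zero] at hNα
    exact _root_.Fermat.Agent.S45.NUE.H51.normAlongHom_ne_zero α hfα f hf hNα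
  have hgβ0 : gβ ≠ 0 := by
    rintro rfl
    rw [zero_pow hn.ne', mul_zero] at hNβ
    exact _root_.Fermat.Agent.S45.NUE.H51.normAlongHom_ne_zero β hfβ f hf hNβ
  have hNgα0 : normAlongHom β' gα ≠ 0 := _root_.Fermat.Agent.S45.NUE.H51.normAlongHom_ne_zero β' hfβ' gα hgα0
  have hNgβ0 : normAlongHom α' gβ ≠ 0 := _root_.Fermat.Agent.S45.NUE.H51.normAlongHom_ne_zero α' hfα' gβ hgβ0
  obtain ⟨k₁, hk₁⟩ := hS _ hSα hNgα0
  obtain ⟨k₂, hk₂⟩ := hS _ hSβ hNgβ0
  have hval := congrArg W.valuation hlink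
  rw [map_mul, map_mul, map_pow, map_pow, map_pow, map_pow, hvα, hvβ, hk₁, hk₂] at hval
  exact link_val γ hγ0 hγ1 d n hcop mα mβ k₁ k₂ hval

end Abs

/-! ### The modular tower -/

/-- The degree of `α : F_M → F_{M q}` is `q` or `q + 1`. -/
theorem finrankAlong_alpha_cases (M q : ℕ) [NeZero M] [NeZero q] (hq : q.Prime) :
    finrankAlong Kbar (heckeAlphaBar Kbar M q) = q ∨
      finrankAlong Kbar (heckeAlphaBar Kbar M q) = q + 1 := by
  by_cases h : q ∣ M
  · exact Or.inl (Fermat.Agent.NEB.OLD.H6.finrankAlong_alpha_of_dvd M q hq h)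
  · exact Or.inr (Fermat.Agent.RED.H95.finrankAlong_alpha hq h)

/-- `n` prime to `6 q (q - 1) (q + 1)` is prime to the degree of `α`. -/
theorem goodExp_coprime_deg (M q n : ℕ) [NeZero M] [NeZero q] (hq : q.Prime)
    (hgood : GoodExp q n) :
    Nat.Coprime n (finrankAlong Kbar (heckeAlphaBar Kbar M q)) := by
  have hg : Nat.Coprime n (6 * q * (q - 1) * (q + 1)) := hgood
  rcases finrankAlong_alpha_cases M q hq with h | h
  · rw [h]
    exact Nat.Coprime.coprime_dvd_right ⟨6 * (q - 1) * (q + 1), by ring⟩ hg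
  · rw [h]
    exact Nat.Coprime.coprime_dvd_right ⟨6 * q * (q - 1), by ring⟩ hg

/-- The commuting square `α ∘ β' = β ∘ α'`. -/
theorem heckeComm_sq (q M₁ : ℕ) [NeZero M₁] [NeZero q] [NeZero (M₁ * q)] :
    (heckeAlphaBar Kbar (M₁ * q) q).toRingHom.comp (heckeBetaBar Kbar M₁ q).toRingHom
      = (heckeBetaBar Kbar (M₁ * q) q).toRingHom.comp (heckeAlphaBar Kbar M₁ q).toRingHom := by
  ext x
  simp only [RingHom.comp_apply, AlgHom.toRingHom_eq_coe, RingHom.coe_coe,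
    coe_heckeBetaBar, coe_heckeAlphaBar]

/-- The value of a constant of absolute value `v(q) ^ m` at a valuation of
`F_N` inducing `A` on the constants. -/
theorem val_const_of_isLowVal (A : ValuationSubring Kbar) (N : ℕ) [NeZero N] (q : ℕ)
    (W : ValuationSubring (FN N)) (hW : IsLowVal A N q W) (c : Kbar) (m : ℤ)
    (hm : A.valuation c = A.valuation (q : Kbar) ^ m) :
    W.valuation (algebraMap Kbar (FN N) c) = W.valuation ((q : ℕ) : FN N) ^ m := by
  have h1 : A.valuation c = A.valuation ((q : Kbar) ^ m) := by rw [map_zpow₀]; exact hm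
  have h2 := val_algebraMap_congr A W hW.const h1
  rw [h2, map_zpow₀, map_natCast, map_zpow₀]

/-- **LINK-MOD.** -/
theorem link_mod (A : ValuationSubring Kbar) (q M₁ : ℕ) [NeZero M₁] [NeZero q]
    [NeZero (M₁ * q)] [NeZero (M₁ * q * q)]
    (hq : q.Prime) (hA : A.LiesOverPrime q) (n : ℕ) (hn : 0 < n) (hgood : GoodExp q n)
    (f : FN (M₁ * q * q)) (hf : f ≠ 0) (cα cβ : Kbar) (gα gβ : FN (M₁ * q))
    (hcα : ∀ σ ∈ A.inertiaSubgroupIn ℚ, σ cα = cα) (hcβ : ∀ σ ∈ A.inertiaSubgroupIn ℚ, σ cβ = cβ)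
    (hgα : gα ∈ L0 A (M₁ * q)) (hgβ : gβ ∈ L0 A (M₁ * q))
    (hNα : normAlongHom (heckeAlphaBar Kbar (M₁ * q) q).toRingHom f
      = algebraMap Kbar _ cα * gα ^ n)
    (hNβ : normAlongHom (heckeBetaBar Kbar (M₁ * q) q).toRingHom f
      = algebraMap Kbar _ cβ * gβ ^ n)
    (mα mβ : ℤ) (hmα : A.valuation cα = A.valuation (q : Kbar) ^ mα)
    (hmβ : A.valuation cβ = A.valuation (q : Kbar) ^ mβ) : (n : ℤ) ∣ mα - mβ := by
  have hW : IsLowVal A M₁ q (V20 A M₁) := isLowVal_V20 A M₁ q hq hA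
  have hq0 : ((q : ℕ) : FN M₁) ≠ 0 := Nat.cast_ne_zero.2 hq.ne_zero
  have e1 : algebraMap Kbar (FN (M₁ * q)) cα
      = (heckeBetaBar Kbar M₁ q).toRingHom (algebraMap Kbar (FN M₁) cα) :=
    ((heckeBetaBar Kbar M₁ q).commutes cα).symm
  have e2 : algebraMap Kbar (FN (M₁ * q)) cβ
      = (heckeAlphaBar Kbar M₁ q).toRingHom (algebraMap Kbar (FN M₁) cβ) :=
    ((heckeAlphaBar Kbar M₁ q).commutes cβ).symm
  exact link_abs (heckeAlphaBar Kbar M₁ q).toRingHom (heckeBetaBar Kbar M₁ q).toRingHom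
    (heckeAlphaBar Kbar (M₁ * q) q).toRingHom (heckeBetaBar Kbar (M₁ * q) q).toRingHom
    (heckeComm_sq q M₁)
    (alpha_finite (M₁ * q) q) (beta_finite (M₁ * q) q) (alpha_finite M₁ q) (beta_finite M₁ q)
    (finrankAlong Kbar (heckeAlphaBar Kbar M₁ q)) rfl
    (Fermat.Agent.L.Pivot.Geom.H24.finrank_beta_eq_alpha_h24 q hq M₁)
    n hn (goodExp_coprime_deg M₁ q n hq hgood) f hf
    (algebraMap Kbar (FN M₁) cα) (algebraMap Kbar (FN M₁) cβ) gα gβ
    (e1 ▸ hNα) (e2 ▸ hNβ)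
    (V20 A M₁) ((V20 A M₁).valuation ((q : ℕ) : FN M₁))
    ((Valuation.ne_zero_iff _).2 hq0) (hW.val_q_lt_one hA).ne
    (L0 A M₁ : Set (FN M₁)) (fun x hx hx0 => hW.exact x hx hx0)
    (norm_mem_L0 A (heckeBetaBar Kbar M₁ q) (arithEquivariant_beta M₁ q) (beta_finite M₁ q)
      gα hgα)
    (norm_mem_L0 A (heckeAlphaBar Kbar M₁ q) (arithEquivariant_alpha M₁ q) (alpha_finite M₁ q)
      gβ hgβ)
    mα mβ (val_const_of_isLowVal A M₁ q _ hW cα mα hmα)
    (val_const_of_isLowVal A M₁ q _ hW cβ mβ hmβ)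

end Fermat.Agent.S45.NUE.H26

end
end
-- ==== END Fermat.Agent.S45.NUE.H26_LinkE

-- ==== BEGIN Fermat.Agent.S45.NUE.H28_RadQE
section

/-!
# S45 / NU_e, package E-FIN, leaf E-RADQ (helper28): (INT), (G), (THREE), TI3-VAL and (RADQ)
for the charts of an arbitrary level

Level `N`, `M' ∣ N`, `q ∤ M'`, `A` a valuation ring of `ℚ̄` over `q`, `F = L0 A N`, `K = Kur A`,
`R = Rur A`, `j = j0 A N`.  `D` an `NRData` of `L0 A N` over `L0 A M'` with `D.VE = VE0 A M'`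
and the degree equality `∑ e i [κ i : FM A M'] = [L0 A N : L0 A M']` (the E-TOT datum), `C` a
chart over `R` with the valuation rings of `D`.

* `const_of_mem_chart` : the constants of `K^ur` which are integral for a valuation of a chart
  lie in `R^ur`;
* `int_modE` : **(INT)** every element of `⋂ D.V i` is a root of a monic polynomial whose
  coefficients are (images of) inertia-fixed Gauss-integral functions of level `1`;
* `incl_mem_adjoin_j0E` : **DESC-ONE** these coefficients lie in `K^ur(j)`;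
* `hG_chartE`, `hG_chartE_inv` : **(G)** for `j` and `1 / j`;
* `hthreeE`, `hthreeE_inv` : **(THREE)** in the shape of helper17's TI3-VAL;
* `critE`, `critE_inv` : **TI3-VAL**;
* `isRadQ_chartE`, `isRadQ_chartE_inv` : **(RADQ)** for the two charts;
* `transcendental_qExpand_Jred` : `j~(s^m)` is transcendental (for the hypothesis `htr`).
-/

set_option autoImplicit false
set_option synthInstance.maxHeartbeats 400000
set_option maxHeartbeats 1000000
set_option linter.style.haveILetI false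
set_option linter.unusedSectionVars false
set_option linter.unusedVariables false

noncomputable section

open ModularCurve AlgebraicCurve Polynomial IntermediateField
open Fermat.Agent.S24 Fermat.Agent.BAD.H88 Fermat.Agent.S28 Fermat.Agent.S28.H73
open Fermat.Agent.RED.H73 Fermat.Agent.RED.H17 Fermat.Agent.S36.NU.H88
open Fermat.Agent.S36.NU.H23 Fermat.Agent.S36.NU.H41 Fermat.Agent.S36.NU.H17
open Fermat.Agent.S36.NU.H16 Fermat.Agent.S36.NU.H65 Fermat.Agent.BAD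

namespace Fermat.Agent.S45.NUE.H28

/-! ### Constants of a chart -/

section Const

variable (A : ValuationSubring Kbar) (N : ℕ) [NeZero N]
  {kk : Type*} {ι : Type*} {κ : ι → Type*} [Field kk] [∀ i, Field (κ i)] [∀ i, Algebra kk (κ i)]
  (C : Chart ↥(Rur A) ↥(L0 A N) kk ι κ)

/-- The residue map of a chart kills the non-units of `R^ur`. -/
theorem res_eq_zero_of_not_isUnit (r : ↥(Rur A)) (hr : ¬ IsUnit r) : C.res r = 0 := by
  have h1 : (RingHom.ker C.res).IsMaximal := RingHom.ker_isMaximal_of_surjective C.res C.res_surj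
  have h2 := IsLocalRing.eq_maximalIdeal h1
  have h3 : r ∈ IsLocalRing.maximalIdeal ↥(Rur A) := (IsLocalRing.mem_maximalIdeal r).2 hr
  rw [← h2] at h3
  exact h3

theorem const_mem_chart (i : ι) (r : ↥(Rur A)) : algebraMap ↥(Rur A) ↥(L0 A N) r ∈ C.V i :=
  C.B_le i _ (Subalgebra.algebraMap_mem C.B r)

/-- The constants of `K^ur` which are integral for a valuation of a chart lie in `R^ur`. -/
theorem const_of_mem_chart (i : ι) (c : ↥(Kur A))
    (h : algebraMap ↥(Kur A) ↥(L0 A N) c ∈ C.V i) :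
    c ∈ (algebraMap ↥(Rur A) ↥(Kur A)).range := by
  by_contra hc
  have hcR : c ∉ Rur A := fun hmem => hc ⟨⟨c, hmem⟩, rfl⟩
  have hc0 : c ≠ 0 := fun h0 => hcR (h0 ▸ zero_mem _)
  have hinv : c⁻¹ ∈ Rur A := ((Rur A).mem_or_inv_mem c).resolve_left hcR
  have hnu : ¬ IsUnit (⟨c⁻¹, hinv⟩ : ↥(Rur A)) := by
    intro hu
    obtain ⟨u, hu'⟩ := hu
    have h1 : (u : ↥(Rur A)) * ((u⁻¹ : (↥(Rur A))ˣ) : ↥(Rur A)) = 1 := u.mul_inv
    rw [hu'] at h1
    have h2 : c⁻¹ * ((((u⁻¹ : (↥(Rur A))ˣ) : ↥(Rur A))) : ↥(Kur A)) = 1 :=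
      congrArg (fun z : ↥(Rur A) => (z : ↥(Kur A))) h1
    have h3 : ((((u⁻¹ : (↥(Rur A))ˣ) : ↥(Rur A))) : ↥(Kur A)) = c := by
      have := eq_inv_of_mul_eq_one_right h2
      rw [inv_inv] at this
      exact this
    exact hcR (h3 ▸ ((u⁻¹ : (↥(Rur A))ˣ) : ↥(Rur A)).2)
  have hres := res_eq_zero_of_not_isUnit A N C _ hnu
  have hmem := const_mem_chart A N C i ⟨c⁻¹, hinv⟩
  have hred : C.red i ⟨_, hmem⟩ = 0 := by rw [C.red_const, hres, map_zero]
  have hmax := (C.red_eq_zero_iff i _).1 hred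
  have hnu' : ¬ IsUnit (⟨_, hmem⟩ : ↥(C.V i)) := (IsLocalRing.mem_maximalIdeal _).1 hmax
  apply hnu'
  have e : algebraMap ↥(Rur A) ↥(L0 A N) ⟨c⁻¹, hinv⟩ * algebraMap ↥(Kur A) ↥(L0 A N) c = 1 := by
    rw [IsScalarTower.algebraMap_apply ↥(Rur A) ↥(Kur A) ↥(L0 A N), ← map_mul]
    have : algebraMap ↥(Rur A) ↥(Kur A) ⟨c⁻¹, hinv⟩ * c = 1 := inv_mul_cancel₀ hc0
    rw [this, map_one]
  exact IsUnit.of_mul_eq_one (⟨_, h⟩ : ↥(C.V i)) (Subtype.ext e)

/-- **(G)** for a chart and an element `x ∈ V i₀` with transcendental reduction. -/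
theorem hG_chartE (i₀ : ι) (x : ↥(L0 A N)) (hx : x ∈ C.V i₀)
    (htr : Transcendental kk (C.red i₀ ⟨x, hx⟩))
    (p : (↥(Kur A))[X]) (hp : aeval x p ∈ C.V i₀) (i : ℕ) :
    p.coeff i ∈ (algebraMap ↥(Rur A) ↥(Kur A)).range :=
  gauss_of_transcendental_red (C.V i₀) (C.red i₀)
    (fun u hu => (C.red_eq_zero_iff i₀ u).2 hu) C.res
    (const_mem_chart A N C i₀) (fun r => C.red_const i₀ r _)
    (const_of_mem_chart A N C i₀) x hx htr p hp i

/-- The inverse of an element with transcendental reduction is integral, with transcendental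
reduction. -/
theorem inv_mem_chartE (i₀ : ι) (x : ↥(L0 A N)) (hx : x ∈ C.V i₀)
    (htr : Transcendental kk (C.red i₀ ⟨x, hx⟩)) : x⁻¹ ∈ C.V i₀ :=
  Fermat.Agent.S36.NU.H28.inv_mem_of_red_ne_zero (C.V i₀) (C.red i₀)
    (fun u hu => (C.red_eq_zero_iff i₀ u).2 ((IsLocalRing.mem_maximalIdeal u).2 hu)) hx
    (fun h0 => htr (h0 ▸ isAlgebraic_zero))

theorem transcendental_red_inv (i₀ : ι) (x : ↥(L0 A N)) (hx : x ∈ C.V i₀)
    (htr : Transcendental kk (C.red i₀ ⟨x, hx⟩)) (hxi : x⁻¹ ∈ C.V i₀) :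
    Transcendental kk (C.red i₀ ⟨x⁻¹, hxi⟩) := by
  have hx0 : x ≠ 0 := by
    rintro rfl
    apply htr
    have : (⟨0, hx⟩ : ↥(C.V i₀)) = 0 := rfl
    rw [this, map_zero]
    exact isAlgebraic_zero
  rw [Fermat.Agent.S36.NU.H28.red_inv_eq (C.V i₀) (C.red i₀) hx hxi hx0]
  intro halg
  apply htr
  have := halg.inv
  rwa [inv_inv] at this

/-- **(G)** for the inverse. -/
theorem hG_chartE_inv (i₀ : ι) (x : ↥(L0 A N)) (hx : x ∈ C.V i₀)
    (htr : Transcendental kk (C.red i₀ ⟨x, hx⟩))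
    (p : (↥(Kur A))[X]) (hp : aeval x⁻¹ p ∈ C.V i₀) (i : ℕ) :
    p.coeff i ∈ (algebraMap ↥(Rur A) ↥(Kur A)).range :=
  hG_chartE A N C i₀ x⁻¹ (inv_mem_chartE A N C i₀ x hx htr)
    (transcendental_red_inv A N C i₀ x hx htr _) p hp i

end Const

/-! ### Transcendence of the reductions of `j` -/

section Trans

variable (A : ValuationSubring Kbar)

/-- `j~(s^m)` is transcendental over `k` (the reduction of `j` at any of the valuations is of
this form). -/
theorem transcendental_qExpand_Jred (m : ℕ) [NeZero m] :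
    Transcendental (kV A) (qExpand (kV A) m (_root_.Fermat.Agent.S36.NU.H88.Jred A)) := by
  apply transcendental_of_order_neg
  have h1 : (qExpand (kV A) m (_root_.Fermat.Agent.S36.NU.H88.Jred A)).coeff ((m : ℤ) * (-1)) ≠ 0 := by
    rw [qExpand_coeff_mul, show _root_.Fermat.Agent.S36.NU.H88.Jred A = coeffMap (Int.castRingHom (kV A)) jInt from rfl,
      coeffMap_coeff, jInt_coeff_neg_one, map_one]
    exact one_ne_zero
  have h2 : (qExpand (kV A) m (_root_.Fermat.Agent.S36.NU.H88.Jred A)).order ≤ (m : ℤ) * (-1) :=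
    HahnSeries.order_le_of_coeff_ne_zero h1
  have hm : (0 : ℤ) < (m : ℤ) := by exact_mod_cast Nat.pos_of_ne_zero (NeZero.ne m)
  omega

/-- Transcendence is detected after an embedding of the residue field. -/
theorem transcendental_of_algHom {k κ E : Type*} [Field k] [Field κ] [Field E] [Algebra k κ]
    [Algebra k E] (φ : κ →ₐ[k] E) (x : κ) (h : Transcendental k (φ x)) : Transcendental k x :=
  fun halg => h (halg.algHom φ)

end Trans

/-! ### (INT) and DESC-ONE -/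

section Int

variable (A : ValuationSubring Kbar) (q M' N : ℕ) [NeZero M'] [NeZero N] [NeZero q]
  (hq : q.Prime) (hqM : ¬ q ∣ M') (hA : A.LiesOverPrime q)
  (hle : modularFunctionFieldBar M' ≤ modularFunctionFieldBar N)

/-- The inclusion `L0 A 1 → L0 A N` through the level `M'`. -/
def incl1E : ↥(L0 A 1) →+* ↥(L0 A N) :=
  (inclL0 A hle).comp (inclL0 A (Fermat.Agent.S36.NU.H42.hle1 M'))

theorem coe_incl1E (a : ↥(L0 A 1)) :
    (((incl1E A M' N hle a : ↥(L0 A N)) : FN N) : LaurentSeries Kbar)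
      = ((a : FN 1) : LaurentSeries Kbar) := by
  show (((inclL0 A hle (inclL0 A (Fermat.Agent.S36.NU.H42.hle1 M') a) : ↥(L0 A N)) : FN N) :
    LaurentSeries Kbar) = _
  rw [coe_inclL0, IntermediateField.coe_inclusion, Fermat.Agent.S36.NU.H42.coe_inclL0_one]

/-- **DESC-ONE**: the inertia-fixed functions of level `1` are rational functions of `j` over
`K^ur`. -/
theorem incl_mem_adjoin_j0E (a : ↥(L0 A 1)) :
    incl1E A M' N hle a ∈ (↥(Kur A))⟮j0 A N⟯ := by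
  apply fixed_mem_adjoin_j0
  apply Fermat.Agent.S36.NU.H28.mem_adjoin_jF_of_series
  rw [coe_incl1E, ← Fermat.Agent.S36.NU.H42.bar_one_eq]
  exact (a : FN 1).2

variable {ι : Type} [Fintype ι] [DecidableEq ι] {κ : ι → Type} [∀ i, Field (κ i)]
  (alg : ∀ i, Algebra (FM A M') (κ i))
  (D : @H42.NRData ↥(L0 A M') ↥(L0 A N) (FM A M') _ _ _ (algL0 A hle) ι κ _ alg)

include hq hqM hA in
/-- **(INT)**: an inertia-fixed function of level `N` which lies in all the valuation rings of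
`D` is a root of a monic polynomial whose coefficients are (images of) inertia-fixed
Gauss-integral functions of level `1`. -/
theorem int_modE
    (hVE : @H42.NRData.VE ↥(L0 A M') ↥(L0 A N) (FM A M') _ _ _ (algL0 A hle) ι κ _ alg D
      = VE0 A M')
    (hdeg : ∑ i, @H42.NRData.e ↥(L0 A M') ↥(L0 A N) (FM A M') _ _ _ (algL0 A hle) ι κ _ alg D i
          * @Module.finrank (FM A M') (κ i) _ _ (alg i).toModule
        = @Module.finrank ↥(L0 A M') ↥(L0 A N) _ _ (algL0 A hle).toModule)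
    (g : ↥(L0 A N))
    (hg : ∀ i, g ∈ @H42.NRData.V ↥(L0 A M') ↥(L0 A N) (FM A M') _ _ _ (algL0 A hle) ι κ _
      alg D i) :
    ∃ P : Polynomial ↥(L0 A N), P.Monic ∧
      (∀ n, ∃ a : ↥(L0 A 1), a ∈ VE0 A 1 ∧ P.coeff n = incl1E A M' N hle a) ∧
      (∀ n i, P.coeff n ∈ @H42.NRData.V ↥(L0 A M') ↥(L0 A N) (FM A M') _ _ _ (algL0 A hle)
        ι κ _ alg D i) ∧ P.eval g = 0 := by
  have hfin1 : @Module.Finite ↥(L0 A M') ↥(L0 A N) _ _ (algL0 A hle).toModule :=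
    Fermat.Agent.S45.NUE.H41.finite_L0_of_le A M' N hle
  have hfinK : ∀ i, @Module.Finite (FM A M') (κ i) _ _ (alg i).toModule := fun i =>
    @H42.NRData.finite_res ↥(L0 A M') ↥(L0 A N) (FM A M') _ _ _
      (algL0 A hle) ι κ _ alg D _ _ hfin1 i
  obtain ⟨P, hP, hc, hV, hroot⟩ :=
    @H42.exists_monic_tower ↥(L0 A 1) ↥(L0 A M') ↥(L0 A N) (FM A 1) (FM A M')
      _ _ _ _ _ (algL0 A (Fermat.Agent.S36.NU.H42.hle1 M')) (algL0 A hle)
      Unit (fun _ => FM A M') _ (fun _ => Fermat.Agent.S36.NU.H42.fmAlg A M')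
      (fun _ => Fermat.Agent.S36.NU.H42.finite_FM A M' q hq hqM hA)
      ι κ _ alg hfinK
      (Fermat.Agent.S36.NU.H42.oneData A M' q hq hqM hA) D
      _ _ (Fermat.Agent.S36.NU.H42.finite_L0_one A M') _ _ hfin1
      (Fermat.Agent.S36.NU.H42.oneData_hdeg A M' q hq hqM hA) hdeg
      (fun a ha _ => by rw [hVE] at ha; exact ha)
      (fun a ha => by rw [hVE]; exact Fermat.Agent.S36.NU.H42.hV_one A M' a ha) g hg
  refine ⟨P, hP, fun n => ?_, hV, hroot⟩
  obtain ⟨a, ha, e⟩ := hc n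
  exact ⟨a, ha, e⟩

end Int

/-! ### (THREE), TI3-VAL and (RADQ) for a chart -/

section ChartE

variable (A : ValuationSubring Kbar) (q M' N : ℕ) [NeZero M'] [NeZero N] [NeZero q]
  (hq : q.Prime) (hqM : ¬ q ∣ M') (hA : A.LiesOverPrime q)
  (hle : modularFunctionFieldBar M' ≤ modularFunctionFieldBar N)
  {ι : Type} [Fintype ι] [DecidableEq ι] {κ : ι → Type} [∀ i, Field (κ i)]
  (alg : ∀ i, Algebra (FM A M') (κ i))
  (D : @H42.NRData ↥(L0 A M') ↥(L0 A N) (FM A M') _ _ _ (algL0 A hle) ι κ _ alg)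
  (hVE : @H42.NRData.VE ↥(L0 A M') ↥(L0 A N) (FM A M') _ _ _ (algL0 A hle) ι κ _ alg D
    = VE0 A M')
  (hdeg : ∑ i, @H42.NRData.e ↥(L0 A M') ↥(L0 A N) (FM A M') _ _ _ (algL0 A hle) ι κ _ alg D i
        * @Module.finrank (FM A M') (κ i) _ _ (alg i).toModule
      = @Module.finrank ↥(L0 A M') ↥(L0 A N) _ _ (algL0 A hle).toModule)
  {kk : Type*} {κC : ι → Type*} [Field kk] [∀ i, Field (κC i)] [∀ i, Algebra kk (κC i)]
  (C : Chart ↥(Rur A) ↥(L0 A N) kk ι κC)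
  (hV : ∀ i, C.V i = @H42.NRData.V ↥(L0 A M') ↥(L0 A N) (FM A M') _ _ _ (algL0 A hle) ι κ _
    alg D i)
  (i₀ : ι)

include hq hqM hA hVE hdeg hV in
/-- **(THREE)** for `j`, in the shape of helper17's TI3-VAL. -/
theorem hthreeE (f : ↥(L0 A N)) (hf : ∀ i, f ∈ C.V i) :
    ∃ P : (↥(L0 A N))[X], P.Monic ∧
      (∀ m, P.coeff m ∈ C.V i₀ ∧ P.coeff m ∈ (↥(Kur A))⟮j0 A N⟯) ∧ P.eval f = 0 := by
  obtain ⟨P, hP, hc, hPV, hroot⟩ := int_modE A q M' N hq hqM hA hle alg D hVE hdeg f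
    (fun i => hV i ▸ hf i)
  refine ⟨P, hP, fun m => ⟨(hV i₀).symm ▸ hPV m i₀, ?_⟩, hroot⟩
  obtain ⟨a, -, e⟩ := hc m
  rw [e]
  exact incl_mem_adjoin_j0E A M' N hle a

include hq hqM hA hVE hdeg hV in
/-- **(THREE)** for `1 / j`. -/
theorem hthreeE_inv (f : ↥(L0 A N)) (hf : ∀ i, f ∈ C.V i) :
    ∃ P : (↥(L0 A N))[X], P.Monic ∧
      (∀ m, P.coeff m ∈ C.V i₀ ∧ P.coeff m ∈ (↥(Kur A))⟮(j0 A N)⁻¹⟯) ∧ P.eval f = 0 := by
  rw [Fermat.Agent.S36.NU.H88.adjoin_inv_eq ↥(Kur A) (j0 A N)]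
  exact hthreeE A q M' N hq hqM hA hle alg D hVE hdeg C hV i₀ f hf

include hV in
/-- The valuations of the chart are of rank one. -/
theorem harchE (i : ι) (x y : ↥(L0 A N)) (hx : (C.V i).valuation x < 1) (hy : y ≠ 0) :
    ∃ n : ℕ, (C.V i).valuation (x ^ n) < (C.V i).valuation y := by
  rw [hV i] at hx ⊢
  exact @H42.NRData.hA ↥(L0 A M') ↥(L0 A N) (FM A M') _ _ _ (algL0 A hle) ι κ _ alg D i x y hx hy

variable (hj : j0 A N ∈ C.V i₀) (htr : Transcendental kk (C.red i₀ ⟨j0 A N, hj⟩))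

include hq hqM hA hVE hdeg hV htr in
/-- **TI3-VAL** for the chart of `j`. -/
theorem critE {f : ↥(L0 A N)}
    (hf₁ : IsIntegral ↥(Algebra.adjoin ↥(Kur A) {j0 A N}) f) (hf₂ : ∀ i, f ∈ C.V i) :
    f ∈ intSub ↥(Rur A) (j0 A N) :=
  isIntegral_adjoin_of_forall_mem ↥(Rur A) ↥(Kur A) (j0 A N)
    (transcendental_j0 A N) C.V i₀
    (hG_chartE A N C i₀ (j0 A N) hj htr)
    (hthreeE A q M' N hq hqM hA hle alg D hVE hdeg C hV i₀) hf₁ hf₂

include hq hqM hA hVE hdeg hV htr in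
/-- **TI3-VAL** for the chart of `1 / j`. -/
theorem critE_inv {f : ↥(L0 A N)}
    (hf₁ : IsIntegral ↥(Algebra.adjoin ↥(Kur A) {(j0 A N)⁻¹}) f) (hf₂ : ∀ i, f ∈ C.V i) :
    f ∈ intSub ↥(Rur A) (j0 A N)⁻¹ :=
  isIntegral_adjoin_of_forall_mem ↥(Rur A) ↥(Kur A) (j0 A N)⁻¹
    (transcendental_inv ↥(Kur A) _ (transcendental_j0 A N)) C.V i₀
    (hG_chartE_inv A N C i₀ (j0 A N) hj htr)
    (hthreeE_inv A q M' N hq hqM hA hle alg D hVE hdeg C hV i₀) hf₁ hf₂

theorem algebraMap_Rur_ne_zeroE (ϖ : ↥(Rur A)) (hϖ : ϖ ≠ 0) :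
    algebraMap ↥(Rur A) ↥(L0 A N) ϖ ≠ 0 := by
  rw [IsScalarTower.algebraMap_apply ↥(Rur A) ↥(Kur A) ↥(L0 A N)]
  intro h
  apply hϖ
  have h1 := (algebraMap ↥(Kur A) ↥(L0 A N)).injective (h.trans (map_zero _).symm)
  exact Subtype.ext h1

include hq hqM hA hVE hdeg hV htr in
/-- **(RADQ)** for a chart of `j` with the valuation rings of `D`. -/
theorem isRadQ_chartE (hB0 : C.B = intSub ↥(Rur A) (j0 A N)) (ϖ : ↥(Rur A)) (hϖ : ϖ ≠ 0) :
    ∀ β ∈ C.B, (∀ i, C.rd i β = 0) → IsRadQ C.B ϖ β := fun _ hβ hrd =>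
  isRadQ_of_rd_eq_zero_adjoin ↥(Rur A) ↥(Kur A) C (j0 A N) (transcendental_j0 A N)
    (fun _ => by rw [hB0]; exact Iff.rfl) i₀
    (hG_chartE A N C i₀ (j0 A N) hj htr)
    (hthreeE A q M' N hq hqM hA hle alg D hVE hdeg C hV i₀)
    (harchE A M' N hle alg D C hV)
    ϖ (algebraMap_Rur_ne_zeroE A N ϖ hϖ) hβ hrd

include hq hqM hA hVE hdeg hV htr in
/-- **(RADQ)** for a chart of `1 / j` with the valuation rings of `D`. -/
theorem isRadQ_chartE_inv (hBoo : C.B = intSub ↥(Rur A) (j0 A N)⁻¹) (ϖ : ↥(Rur A))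
    (hϖ : ϖ ≠ 0) :
    ∀ β ∈ C.B, (∀ i, C.rd i β = 0) → IsRadQ C.B ϖ β := fun _ hβ hrd =>
  isRadQ_of_rd_eq_zero_adjoin ↥(Rur A) ↥(Kur A) C (j0 A N)⁻¹
    (transcendental_inv ↥(Kur A) _ (transcendental_j0 A N))
    (fun _ => by rw [hBoo]; exact Iff.rfl) i₀
    (hG_chartE_inv A N C i₀ (j0 A N) hj htr)
    (hthreeE_inv A q M' N hq hqM hA hle alg D hVE hdeg C hV i₀)
    (harchE A M' N hle alg D C hV)
    ϖ (algebraMap_Rur_ne_zeroE A N ϖ hϖ) hβ hrd

end ChartE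

end Fermat.Agent.S45.NUE.H28

end
end
-- ==== END Fermat.Agent.S45.NUE.H28_RadQE

-- ==== BEGIN Fermat.Agent.S45.NUE.H31_AlphaBeta
section

/-!
# S45 / NU_e, package E-VAL §7 (helper31): the cusp expansions along `α` and `β`

Levels `N` (lower) and `N * q` (upper), `α, β = heckeAlphaBar / heckeBetaBar Kbar N q`
(`α x = x`, `β x = x (q τ)`), `γ ∈ SL₂(ℤ)`, `cuspU N γ` the `u`-expansion at the cusp `γ⁻¹ ∞`.

General part (any level, any cusp):
* `cuspU_alpha`   : `cuspU (N q) γ (α x) = (cuspU N γ x)(u^q)`;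
* `cuspU_beta_q1` : if `diag(q,1) γ⁻¹ = γ'⁻¹ diag(q,1)` then
  `cuspU (N q) γ (β x) = (cuspU N γ' x)(u^(q²))`;
* `cuspU_beta_1q` : if `diag(q,1) γ⁻¹ = γ'⁻¹ !![1, b; 0, q]` then
  `cuspU (N q) γ (β x) = twist (ζ_{N q}^b) (cuspU N γ' x)`.
-/

set_option autoImplicit false
set_option synthInstance.maxHeartbeats 400000
set_option maxHeartbeats 1000000
set_option linter.unusedSectionVars false
set_option linter.unusedVariables false
set_option linter.style.haveILetI false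

noncomputable section

namespace Fermat.Agent.S45.NUE.H31

open Fermat.Agent.S24 Fermat.Agent.BAD.H88 ModularCurve UpperHalfPlane
open Fermat.Agent.S36.NU.H88 Fermat.Agent.RED.H95
open Fermat.Agent.S45.NUE.H73 (zetaK_mul_pow zetaK_congr)
open scoped MatrixGroups Manifold

/-! ## Matrices -/

/-- `det (diag(D, 1) γ⁻¹) = D`. -/
theorem det_diag_mul (D : ℕ) (γ : SL(2, ℤ)) :
    ((!![(D : ℤ), 0; 0, 1] : Matrix (Fin 2) (Fin 2) ℤ) * (γ⁻¹ : SL(2, ℤ)).1).det = D := by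
  rw [Matrix.det_mul, (γ⁻¹ : SL(2, ℤ)).2, mul_one, Matrix.det_fin_two_of]
  ring

/-- The Hermite form of `diag(D, 1) γ⁻¹`, with `d ∣ D`. -/
theorem exists_hermite_diag (D : ℕ) (hD0 : 0 < D) (γ : SL(2, ℤ)) :
    ∃ (δ : SL(2, ℤ)) (a d : ℕ) (b : ℤ), 0 < a ∧ 0 < d ∧ a * d = D ∧
      (!![(D : ℤ), 0; 0, 1] : Matrix (Fin 2) (Fin 2) ℤ) * (γ⁻¹ : SL(2, ℤ)).1
        = δ.1 * !![(a : ℤ), b; 0, (d : ℤ)] := by
  have hdet := det_diag_mul D γ
  obtain ⟨δ, a, d, b, ha, hd, had, hA⟩ := hermite_general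
    ((!![(D : ℤ), 0; 0, 1] : Matrix (Fin 2) (Fin 2) ℤ) * (γ⁻¹ : SL(2, ℤ)).1)
    (by rw [hdet]; exact_mod_cast hD0)
  refine ⟨δ, a, d, b, ha, hd, ?_, hA⟩
  rw [hdet] at had
  exact_mod_cast had

section General

variable (N q : ℕ) [NeZero N] [NeZero q]

/-- **(A)** the expansion of `α x` at the cusp `γ⁻¹ ∞` of level `N q`. -/
theorem cuspU_comp_alpha (γ : SL(2, ℤ)) :
    (cuspU (N * q) γ).comp (heckeAlphaBar Kbar N q)
      = (qExpandAlgHomC Kbar q).comp (cuspU N γ) := by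
  apply algHom_ext_of_adjoin _ (adjoin_jdF N)
  rintro x ⟨D, hD0, hD, rfl⟩
  have hDpos : 0 < D := Nat.pos_of_ne_zero (NeZero.ne D)
  have hNpos : 0 < N := Nat.pos_of_ne_zero (NeZero.ne N)
  have hqpos : 0 < q := Nat.pos_of_ne_zero (NeZero.ne q)
  rw [AlgHom.comp_apply, AlgHom.comp_apply, _root_.Fermat.Agent.BAD.H88.alpha_jdF, qExpandAlgHomC_apply]
  obtain ⟨δ, a, d, b, ha, hd, had, hA⟩ := exists_hermite_diag D hDpos γ
  have hdD : d ∣ D := ⟨a, by rw [← had]; ring⟩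
  have hdN : d ∣ N := hdD.trans hD
  haveI : NeZero d := ⟨hd.ne'⟩
  have h1 : 0 < N / d := Nat.div_pos (Nat.le_of_dvd hNpos hdN) hd
  haveI : NeZero (N / d * a) := ⟨(Nat.mul_pos h1 ha).ne'⟩
  have h2 : N * q / d = N / d * q := (Nat.div_mul_right_comm hdN q).symm
  haveI : NeZero (N * q / d * a) := ⟨by
    rw [h2]; exact (Nat.mul_pos (Nat.mul_pos h1 hqpos) ha).ne'⟩
  rw [cuspU_upper (N * q) γ δ D (Dvd.dvd.mul_right hD q) a d b ha hd (Dvd.dvd.mul_right hdN q) hA,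
    cuspU_upper N γ δ D hD a d b ha hd hdN hA, qExpand_qExpand]
  exact qExpand_congr (by rw [h2]; ring) _

theorem cuspU_alpha (γ : SL(2, ℤ)) (x : FN N) :
    cuspU (N * q) γ (heckeAlphaBar Kbar N q x) = qExpand Kbar q (cuspU N γ x) :=
  congrArg (fun f : FN N →ₐ[Kbar] LaurentSeries Kbar => f x) (cuspU_comp_alpha N q γ)

/-- **(B1)** the expansion of `β x` at the cusp `γ⁻¹ ∞` of level `N q`, when
`diag(q, 1) γ⁻¹ = γ'⁻¹ diag(q, 1)`. -/
theorem cuspU_comp_beta_q1 (γ γ' : SL(2, ℤ))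
    (h : (!![(q : ℤ), 0; 0, 1] : Matrix (Fin 2) (Fin 2) ℤ) * (γ⁻¹ : SL(2, ℤ)).1
      = (γ'⁻¹ : SL(2, ℤ)).1 * !![(q : ℤ), 0; 0, 1]) :
    (cuspU (N * q) γ).comp (heckeBetaBar Kbar N q)
      = (qExpandAlgHomC Kbar (q * q)).comp (cuspU N γ') := by
  apply algHom_ext_of_adjoin _ (adjoin_jdF N)
  rintro x ⟨D, hD0, hD, rfl⟩
  have hDpos : 0 < D := Nat.pos_of_ne_zero (NeZero.ne D)
  have hNpos : 0 < N := Nat.pos_of_ne_zero (NeZero.ne N)
  have hqpos : 0 < q := Nat.pos_of_ne_zero (NeZero.ne q)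
  haveI : NeZero (D * q) := ⟨(Nat.mul_pos hDpos hqpos).ne'⟩
  rw [AlgHom.comp_apply, AlgHom.comp_apply, _root_.Fermat.Agent.BAD.H88.beta_jdF, qExpandAlgHomC_apply]
  obtain ⟨δ, a, d, b, ha, hd, had, hA⟩ := exists_hermite_diag D hDpos γ'
  have hdD : d ∣ D := ⟨a, by rw [← had]; ring⟩
  have hdN : d ∣ N := hdD.trans hD
  haveI : NeZero d := ⟨hd.ne'⟩
  have h1 : 0 < N / d := Nat.div_pos (Nat.le_of_dvd hNpos hdN) hd
  haveI : NeZero (N / d * a) := ⟨(Nat.mul_pos h1 ha).ne'⟩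
  have h2 : N * q / d = N / d * q := (Nat.div_mul_right_comm hdN q).symm
  haveI : NeZero (N * q / d * (a * q)) := ⟨by
    rw [h2]; exact (Nat.mul_pos (Nat.mul_pos h1 hqpos) (Nat.mul_pos ha hqpos)).ne'⟩
  have hA' : (!![((D * q : ℕ) : ℤ), 0; 0, 1] : Matrix (Fin 2) (Fin 2) ℤ) * (γ⁻¹ : SL(2, ℤ)).1
      = δ.1 * !![((a * q : ℕ) : ℤ), b; 0, (d : ℤ)] := by
    have e1 : (!![((D * q : ℕ) : ℤ), 0; 0, 1] : Matrix (Fin 2) (Fin 2) ℤ)
        = !![(D : ℤ), 0; 0, 1] * !![(q : ℤ), 0; 0, 1] := by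
      ext r s
      fin_cases r <;> fin_cases s <;> simp [Matrix.mul_apply, Fin.sum_univ_two]
    have e2 : (!![((a * q : ℕ) : ℤ), b; 0, (d : ℤ)] : Matrix (Fin 2) (Fin 2) ℤ)
        = !![(a : ℤ), b; 0, (d : ℤ)] * !![(q : ℤ), 0; 0, 1] := by
      ext r s
      fin_cases r <;> fin_cases s <;> simp [Matrix.mul_apply, Fin.sum_univ_two]
    rw [e1, e2, Matrix.mul_assoc, h, ← Matrix.mul_assoc, hA, Matrix.mul_assoc]
  rw [cuspU_upper (N * q) γ δ (D * q) (Nat.mul_dvd_mul_right hD q) (a * q) d b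
    (Nat.mul_pos ha hqpos) hd (Dvd.dvd.mul_right hdN q) hA',
    cuspU_upper N γ' δ D hD a d b ha hd hdN hA, qExpand_qExpand]
  exact qExpand_congr (by rw [h2]; ring) _

theorem cuspU_beta_q1 (γ γ' : SL(2, ℤ))
    (h : (!![(q : ℤ), 0; 0, 1] : Matrix (Fin 2) (Fin 2) ℤ) * (γ⁻¹ : SL(2, ℤ)).1
      = (γ'⁻¹ : SL(2, ℤ)).1 * !![(q : ℤ), 0; 0, 1]) (x : FN N) :
    cuspU (N * q) γ (heckeBetaBar Kbar N q x) = qExpand Kbar (q * q) (cuspU N γ' x) :=
  congrArg (fun f : FN N →ₐ[Kbar] LaurentSeries Kbar => f x) (cuspU_comp_beta_q1 N q γ γ' h)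

/-- **(B2)** the expansion of `β x` at the cusp `γ⁻¹ ∞` of level `N q`, when
`diag(q, 1) γ⁻¹ = γ'⁻¹ !![1, b₀; 0, q]`. -/
theorem cuspU_comp_beta_1q [NeZero (N * q)] (γ γ' : SL(2, ℤ)) (b₀ : ℤ)
    (h : (!![(q : ℤ), 0; 0, 1] : Matrix (Fin 2) (Fin 2) ℤ) * (γ⁻¹ : SL(2, ℤ)).1
      = (γ'⁻¹ : SL(2, ℤ)).1 * !![1, b₀; 0, (q : ℤ)]) :
    (cuspU (N * q) γ).comp (heckeBetaBar Kbar N q)
      = (twistAlg (zetaK (N * q) ^ b₀) (zpow_ne_zero _ (zetaK_ne_zero (N * q)))).comp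
          (cuspU N γ') := by
  apply algHom_ext_of_adjoin _ (adjoin_jdF N)
  rintro x ⟨D, hD0, hD, rfl⟩
  have hDpos : 0 < D := Nat.pos_of_ne_zero (NeZero.ne D)
  have hNpos : 0 < N := Nat.pos_of_ne_zero (NeZero.ne N)
  have hqpos : 0 < q := Nat.pos_of_ne_zero (NeZero.ne q)
  haveI : NeZero (D * q) := ⟨(Nat.mul_pos hDpos hqpos).ne'⟩
  rw [AlgHom.comp_apply, AlgHom.comp_apply, _root_.Fermat.Agent.BAD.H88.beta_jdF, twistAlg_apply]
  obtain ⟨δ, a, d, b, ha, hd, had, hA⟩ := exists_hermite_diag D hDpos γ'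
  have hdD : d ∣ D := ⟨a, by rw [← had]; ring⟩
  have hdN : d ∣ N := hdD.trans hD
  haveI : NeZero d := ⟨hd.ne'⟩
  haveI : NeZero (d * q) := ⟨(Nat.mul_pos hd hqpos).ne'⟩
  have h1 : 0 < N / d := Nat.div_pos (Nat.le_of_dvd hNpos hdN) hd
  haveI : NeZero (N / d) := ⟨h1.ne'⟩
  haveI : NeZero (N / d * a) := ⟨(Nat.mul_pos h1 ha).ne'⟩
  have h2 : N * q / (d * q) = N / d := Nat.mul_div_mul_right N d hqpos
  haveI : NeZero (N * q / (d * q) * a) := ⟨by rw [h2]; exact (Nat.mul_pos h1 ha).ne'⟩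
  have hA' : (!![((D * q : ℕ) : ℤ), 0; 0, 1] : Matrix (Fin 2) (Fin 2) ℤ) * (γ⁻¹ : SL(2, ℤ)).1
      = δ.1 * !![(a : ℤ), (a : ℤ) * b₀ + b * q; 0, ((d * q : ℕ) : ℤ)] := by
    have e1 : (!![((D * q : ℕ) : ℤ), 0; 0, 1] : Matrix (Fin 2) (Fin 2) ℤ)
        = !![(D : ℤ), 0; 0, 1] * !![(q : ℤ), 0; 0, 1] := by
      ext r s
      fin_cases r <;> fin_cases s <;> simp [Matrix.mul_apply, Fin.sum_univ_two]
    have e2 : (!![(a : ℤ), (a : ℤ) * b₀ + b * q; 0, ((d * q : ℕ) : ℤ)] :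
        Matrix (Fin 2) (Fin 2) ℤ)
        = !![(a : ℤ), b; 0, (d : ℤ)] * !![1, b₀; 0, (q : ℤ)] := by
      ext r s
      fin_cases r <;> fin_cases s <;> simp [Matrix.mul_apply, Fin.sum_univ_two]
    rw [e1, e2, Matrix.mul_assoc, h, ← Matrix.mul_assoc, hA, Matrix.mul_assoc]
  rw [cuspU_upper (N * q) γ δ (D * q) (Nat.mul_dvd_mul_right hD q) a (d * q)
    ((a : ℤ) * b₀ + b * q) ha (Nat.mul_pos hd hqpos) (Nat.mul_dvd_mul_right hdN q) hA',
    cuspU_upper N γ' δ D hD a d b ha hd hdN hA, twist_qExpand, twist_twist]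
  -- the roots of unity
  have hNq : N * q = N / d * (d * q) := by
    rw [← mul_assoc, Nat.div_mul_cancel hdN]
  have hz1 : zetaK (N * q) ^ (N / d) = zetaK (d * q) := by
    haveI : NeZero (N / d * (d * q)) := ⟨by rw [← hNq]; exact NeZero.ne _⟩
    rw [zetaK_congr hNq]
    exact zetaK_mul_pow _ _
  have hz2 : zetaK (d * q) ^ q = zetaK d := by
    haveI : NeZero (q * d) := ⟨(Nat.mul_pos hqpos hd).ne'⟩
    rw [zetaK_congr (mul_comm d q)]
    exact zetaK_mul_pow _ _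
  have hz : (zetaK (N * q) ^ b₀) ^ ((N / d * a : ℕ) : ℤ) * zetaK d ^ b
      = zetaK (d * q) ^ ((a : ℤ) * b₀ + b * q) := by
    rw [← hz2, ← hz1, ← zpow_natCast (zetaK (N * q)) (N / d), ← zpow_natCast _ q, ← zpow_mul,
      ← zpow_mul, ← zpow_mul, ← zpow_mul,
      ← zpow_add₀ (zetaK_ne_zero (N * q))]
    congr 1
    push_cast
    ring
  rw [hz]
  exact qExpand_congr (by rw [h2]) _

theorem cuspU_beta_1q [NeZero (N * q)] (γ γ' : SL(2, ℤ)) (b₀ : ℤ)
    (h : (!![(q : ℤ), 0; 0, 1] : Matrix (Fin 2) (Fin 2) ℤ) * (γ⁻¹ : SL(2, ℤ)).1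
      = (γ'⁻¹ : SL(2, ℤ)).1 * !![1, b₀; 0, (q : ℤ)]) (x : FN N) :
    cuspU (N * q) γ (heckeBetaBar Kbar N q x)
      = twist (zetaK (N * q) ^ b₀) (cuspU N γ' x) := by
  have := congrArg (fun f : FN N →ₐ[Kbar] LaurentSeries Kbar => f x)
    (cuspU_comp_beta_1q N q γ γ' b₀ h)
  simpa only [AlgHom.comp_apply, twistAlg_apply] using this

end General

end Fermat.Agent.S45.NUE.H31

end
end
-- ==== END Fermat.Agent.S45.NUE.H31_AlphaBeta

-- ==== BEGIN Fermat.Agent.S45.NUE.H33_NormSingle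
section
attribute [local instance 10000] SubalgebraClass.toAlgebra
attribute [local instance 10000] HahnSeries.powerSeriesAlgebra

/-!
# S45 / NU_e, package E-NORM (helper33): NORM-RED for a single component, semi-abstract form

`φ : F_M → F_N` commuting with the arithmetic Galois action and finite (`α`, `β`), `W` a valuation
ring of `L0 A N` which is the ONLY one above `V = W ∩ L0 A M` (along `φ`), `s : W → Ω`,
`s' : V → Ω` residue maps into a field of characteristic `p` with `s (φ x) = T (s' x)`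
(`T = id` or `T = (t ↦ t ^ q)`), and `s x ^ p ∈ T (s' V)` for all `x ∈ W`.  Then

  `T (s' (N_φ h)) = s (h) ^ [F_N : F_M]`   for all `h ∈ W`.

* `norm_single` : the statement above;
* `unit_of_cover` : the norm of a unit for all the valuation rings of a cover of the fibre above
  `V` is a unit of `V`.
-/

set_option autoImplicit false
set_option linter.style.haveILetI false
set_option linter.unusedSectionVars false
set_option synthInstance.maxHeartbeats 400000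
set_option maxHeartbeats 1000000

noncomputable section

namespace Fermat.Agent.S45.NUE.H33

open AlgebraicCurve ModularCurve Fermat.Agent.S24 Fermat.Agent.Lib.HeckeComm
  Fermat.Agent.S36.H44 Fermat.Agent.BAD Fermat.Agent.S36.NU.H23 Fermat.Agent.BAD.H88
  Fermat.Agent.S36.NU.H26 Fermat.Agent.S45.NUE.H51

section Single

variable (A : ValuationSubring Kbar) {M N : ℕ} [NeZero M] [NeZero N]
  (φ : FN M →ₐ[Kbar] FN N) (hint : ArithEquivariant φ) (hfin : FiniteAlong Kbar φ)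

/-- The norm along `φ` of an inertia-fixed function, as an inertia-fixed function. -/
def nmE (h : ↥(L0 A N)) : ↥(L0 A M) :=
  ⟨normAlongHom φ.toRingHom (h : FN N), norm_mem_L0 A φ hint hfin _ h.2⟩

theorem coe_nmE (h : ↥(L0 A N)) :
    ((nmE A φ hint hfin h : ↥(L0 A M)) : FN M) = normAlongHom φ.toRingHom (h : FN N) := rfl

theorem nmE_eq_norm (h : ↥(L0 A N)) :
    nmE A φ hint hfin h = (letI := algL0Along A φ hint; Algebra.norm ↥(L0 A M) h) :=
  Subtype.ext (norm_L0_along A φ hint hfin h)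

/-- **NORM-RED for a single component** (UNIQ-PI along `φ`). -/
theorem norm_single (V : ValuationSubring ↥(L0 A M)) (W : ValuationSubring ↥(L0 A N))
    (hV : ∀ x : ↥(L0 A M), x ∈ V ↔ mapL0 A φ hint x ∈ W)
    (huniq : UniqAlong (mapL0 A φ hint) W)
    {Ω : Type*} [Field Ω] (p : ℕ) [ExpChar Ω p]
    (s : ↥W →+* Ω) (s' : ↥V →+* Ω) (T : Ω →+* Ω)
    (hker : ∀ x : ↥W, ¬ IsUnit x → s x = 0)
    (hcompat : ∀ (x : ↥V) (hx : mapL0 A φ hint (x : ↥(L0 A M)) ∈ W), s ⟨_, hx⟩ = T (s' x))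
    (hpi : ∀ x : ↥W, ∃ y : ↥V, s x ^ p = T (s' y))
    (h : ↥(L0 A N)) (hh : h ∈ W) :
    ∃ hm : nmE A φ hint hfin h ∈ V,
      T (s' ⟨_, hm⟩) = s ⟨h, hh⟩ ^ finrankAlong Kbar φ := by
  letI := algL0Along A φ hint
  haveI : Module.Finite ↥(L0 A M) ↥(L0 A N) := finite_L0_along A φ hint hfin
  have hV' : ∀ a : ↥(L0 A M), a ∈ V ↔ algebraMap ↥(L0 A M) ↥(L0 A N) a ∈ W := hV
  have huniq' : ∀ W' : ValuationSubring ↥(L0 A N),
      (∀ a : ↥(L0 A M), a ∈ V → algebraMap ↥(L0 A M) ↥(L0 A N) a ∈ W') → W' ≠ ⊤ → W' = W :=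
    fun W' hW' hne => huniq W' (fun a ha => hW' a ((hV a).2 ha)) hne
  have hpi' : ∀ x : ↥W, ∃ y : ↥V,
      s x ^ p = s (incVW V W (fun a ha => (hV' a).1 ha) y) := by
    intro x
    obtain ⟨y, hy⟩ := hpi x
    refine ⟨y, ?_⟩
    rw [hy]
    exact (hcompat y ((hV' _).1 y.2)).symm
  obtain ⟨hN, e⟩ := red_norm_of_unique_pi V W hV' huniq' p s hker hpi' h hh
  have hN' : mapL0 A φ hint (nmE A φ hint hfin h) ∈ W := by
    rw [nmE_eq_norm]
    exact hN
  have hm : nmE A φ hint hfin h ∈ V := (hV _).2 hN'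
  refine ⟨hm, ?_⟩
  rw [← hcompat ⟨_, hm⟩ hN']
  have e1 : (⟨mapL0 A φ hint (nmE A φ hint hfin h), hN'⟩ : ↥W)
      = ⟨algebraMap ↥(L0 A M) ↥(L0 A N) (Algebra.norm ↥(L0 A M) h), hN⟩ := by
    apply Subtype.ext
    show mapL0 A φ hint (nmE A φ hint hfin h) = _
    rw [nmE_eq_norm]
    rfl
  rw [e1, e]
  congr 1
  exact finrank_L0_along A φ hint hfin

/-- **UNIT**: the norm of a unit for all the valuation rings above `V` is a unit of `V`. -/
theorem unit_of_cover (V : ValuationSubring ↥(L0 A M)) {ι : Type*}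
    (Ws : ι → ValuationSubring ↥(L0 A N))
    (hcov : ∀ W' : ValuationSubring ↥(L0 A N),
      (∀ a : ↥(L0 A M), a ∈ V → mapL0 A φ hint a ∈ W') → W' ≠ ⊤ → ∃ i, W' = Ws i)
    (h : ↥(L0 A N)) (hu : ∀ i, h ∈ Ws i) (hu' : ∀ i, h⁻¹ ∈ Ws i) :
    nmE A φ hint hfin h ∈ V ∧ (nmE A φ hint hfin h)⁻¹ ∈ V := by
  letI := algL0Along A φ hint
  haveI : Module.Finite ↥(L0 A M) ↥(L0 A N) := finite_L0_along A φ hint hfin
  rw [nmE_eq_norm]
  exact norm_unit_of_cover V Ws hcov h hu hu'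

end Single

end Fermat.Agent.S45.NUE.H33

end
end
-- ==== END Fermat.Agent.S45.NUE.H33_NormSingle

-- ==== BEGIN Fermat.Agent.S45.NUE.H41_PtHypsE2
section
attribute [local instance 10000] SubalgebraClass.toAlgebra
attribute [local instance 10000] HahnSeries.powerSeriesAlgebra

/-!
# S45 / NU_e, package E-FIN, leaf E-PT-HYPS (helper41): Frobenius twists on the residue field
of the tame level

`C0 = FM A M` (`q ∤ M`), `Fr = FrM` (`t ↦ t ^ q`), `β = betaM`, `hU = Δ~(t) / Δ~(t ^ q)`,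
`j~ = H91.jRed A M`.

* `iterate_betaM_ord_FrM : ord_{β^w z} (Fr^w y) = q ^ w * ord_z y`  (the hypothesis `hord` of
  `H41P.ptHyps_abs` for a component with structure map `Fr^w`, `e i = q ^ w`);
* `iterate_betaM_surjective`;
* `iterate_FrM_hU : Fr^w (hU ^ n) = (hU ^ n) ^ (q ^ w)`  (so a witness with reduction `hU ^ n`
  satisfies `hwit` with `m = q ^ w`);
* `iterate_FrM_ne_const : Fr^w (j~)` is not constant;
* `mem_ssM_of_ord'` : the set `SS = H74.ssM A q M` satisfies `hSS`.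
-/

set_option autoImplicit false
set_option synthInstance.maxHeartbeats 400000
set_option maxHeartbeats 1000000
set_option linter.style.haveILetI false
set_option linter.unusedSectionVars false

noncomputable section

open ModularCurve AlgebraicCurve

namespace Fermat.Agent.S45.NUE.H41P

open Fermat.Agent.S24 Fermat.Agent.BAD.H88 Fermat.Agent.S28 Fermat.Agent.S28.H73
  Fermat.Agent.RED.H73 Fermat.Agent.RED.H17 Fermat.Agent.S36.NU.H88 Fermat.Agent.S36.NU.H23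
  Fermat.Agent.S36.NU.H74 Fermat.Agent.BAD Fermat.Agent.RED

section Twist

variable (A : ValuationSubring Kbar) (q M : ℕ) (hq : q.Prime)
  [NeZero M] [NeZero q] [NeZero (M * q)] [NeZero (M * q * q)] (hqM : ¬ q ∣ M)
  (hA : A.LiesOverPrime q)

/-- `ord_{β z} (Fr y) = q * ord_z y`. -/
theorem betaM_ord_FrM (z : Place (kV A) (FM A M)) (y : FM A M) :
    (betaM A q M hq hqM hA z).ord (FrM A q M hq hqM hA y) = (q : ℤ) * z.ord y :=
  @Fermat.Agent.BAD.H73.beta_ord_Fr (kV A) _ q ⟨hq⟩ (Fermat.Agent.BAD.H82.charP_kV A hq hA)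
    (@Fermat.Agent.BAD.H73.perfectRing_kV _ _ _ A q ⟨hq⟩
      (Fermat.Agent.BAD.H82.charP_kV A hq hA)) _ (frobStable_FM A q M hq hqM hA) z y

/-- `ord_{β^w z} (Fr^w y) = q ^ w * ord_z y`. -/
theorem iterate_betaM_ord_FrM (w : ℕ) (z : Place (kV A) (FM A M)) (y : FM A M) :
    ((betaM A q M hq hqM hA)^[w] z).ord ((FrM A q M hq hqM hA)^[w] y)
      = ((q ^ w : ℕ) : ℤ) * z.ord y := by
  induction w generalizing z y with
  | zero => simp
  | succ w ih =>
    rw [Function.iterate_succ_apply', Function.iterate_succ_apply', betaM_ord_FrM, ih]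
    push_cast
    ring

theorem iterate_betaM_surjective (w : ℕ) :
    Function.Surjective ((betaM A q M hq hqM hA)^[w]) :=
  ((betaM A q M hq hqM hA).bijective.iterate w).surjective

theorem iterate_FrM_injective (w : ℕ) :
    Function.Injective ((FrM A q M hq hqM hA)^[w]) :=
  Function.Injective.iterate (FrM A q M hq hqM hA).toRingHom.injective w

/-- `Fr^w` as a ring homomorphism. -/
def FrMW (w : ℕ) : FM A M →+* FM A M :=
  ((FrM A q M hq hqM hA : FM A M →ₐ[kV A] FM A M) : FM A M →+* FM A M) ^ w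

theorem FrMW_apply (w : ℕ) (y : FM A M) :
    FrMW A q M hq hqM hA w y = (FrM A q M hq hqM hA)^[w] y := by
  unfold FrMW
  rw [RingHom.coe_pow]
  rfl

theorem FrMW_algebraMap (w : ℕ) (c : kV A) :
    FrMW A q M hq hqM hA w (algebraMap (kV A) (FM A M) c) = algebraMap (kV A) (FM A M) c := by
  rw [FrMW_apply]
  induction w with
  | zero => rfl
  | succ w ih => rw [Function.iterate_succ_apply', ih, AlgHom.commutes]

theorem ord_FrMW (w : ℕ) (z : Place (kV A) (FM A M)) (y : FM A M) :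
    ((betaM A q M hq hqM hA)^[w] z).ord (FrMW A q M hq hqM hA w y)
      = ((q ^ w : ℕ) : ℤ) * z.ord y := by
  rw [FrMW_apply, iterate_betaM_ord_FrM]

/-- `Fr^w (hU ^ n) = (hU ^ n) ^ (q ^ w)`. -/
theorem FrMW_hU_pow (w n : ℕ) :
    FrMW A q M hq hqM hA w (Fermat.Agent.S36.NU.H41.hU A q M hq hqM hA ^ n)
      = (Fermat.Agent.S36.NU.H41.hU A q M hq hqM hA ^ n) ^ (q ^ w) := by
  induction w with
  | zero => rw [FrMW_apply, Function.iterate_zero_apply, pow_zero, pow_one]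
  | succ w ih =>
    rw [FrMW_apply, Function.iterate_succ_apply', ← FrMW_apply, ih, map_pow, map_pow,
      Fermat.Agent.S36.NU.H41.FrM_hU A q M hq hqM hA, pow_succ q w]
    ring

/-- `Fr^w (j~)` is not constant. -/
theorem FrMW_jRed_ne_const (w : ℕ) (c : kV A) :
    FrMW A q M hq hqM hA w (H91.jRed A M) ≠ algebraMap (kV A) (FM A M) c := by
  intro h
  rw [← FrMW_algebraMap A q M hq hqM hA w c] at h
  exact Fermat.Agent.S36.NU.H41.jRed_ne_const A M c
    ((FrMW A q M hq hqM hA w).injective h)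

/-- The supersingular points: `j~` regular and `hU` vanishing. -/
theorem mem_ssM_of_ord' (z : Place (kV A) (FM A M)) (hj : 0 ≤ z.ord (H91.jRed A M))
    (hu : 0 < z.ord (Fermat.Agent.S36.NU.H41.hU A q M hq hqM hA)) : z ∈ ssM A q M :=
  Fermat.Agent.S36.NU.H41.mem_ssM_of_ord A q M hq hqM hA hj hu

end Twist

end Fermat.Agent.S45.NUE.H41P

end
end
-- ==== END Fermat.Agent.S45.NUE.H41_PtHypsE2

-- ==== BEGIN Fermat.Agent.S45.NUE.H41_SS0E
section
attribute [local instance 10000] SubalgebraClass.toAlgebra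
attribute [local instance 10000] HahnSeries.powerSeriesAlgebra

/-!
# S45 / NU_e, package E-FIN, leaf E-PT-HYPS (helper41): `hSS0` for any level

`M` a level prime to `q` (tame), `N` any level with `F_M ⊆ F_N` (modular: `N = M q ^ e`).

* `rhoLvl` : the reduction map `Place ℚ̄ F_N → Place k (F_M mod q)`, `P ↦ r_M (P|F_M)`
  (for `N = M q q` this is helper23's `rhoM`, by `rfl`);
* `regAt_jF_of_rhoLvl` : `j` is regular at `P` when `j~` is regular at `rhoLvl P`;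
* `inChart_of_rhoLvl` : **`hSS0`**: for a chart with coordinate ring `B = intSub (Rur A) j` over a
  conservation datum `T` with `T.ρ = rhoLvl`, every `z` at which `j~` is regular is a point of the
  chart.
-/

set_option autoImplicit false
set_option synthInstance.maxHeartbeats 400000
set_option maxHeartbeats 1000000
set_option linter.unusedSectionVars false
set_option linter.style.haveILetI false

noncomputable section

open ModularCurve AlgebraicCurve
open Fermat.Agent.S24 Fermat.Agent.BAD Fermat.Agent.BAD.H88 Fermat.Agent.S28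
  Fermat.Agent.S28.H73 Fermat.Agent.RED.H73 Fermat.Agent.RED.H17 Fermat.Agent.RED
  Fermat.Agent.S36.NU.H88 Fermat.Agent.S36.NU.H23 Fermat.Agent.S36.NU.H41
  Fermat.Agent.S36.NU.H16 Fermat.Agent.S36.NU.H24 Fermat.Agent.S36.NU.H79
  Fermat.Agent.S36.NU.H65 Fermat.Agent.S36.NU.H74

namespace Fermat.Agent.S45.NUE.H41P

section SS0

variable (A : ValuationSubring Kbar) (q M N : ℕ) (hq : q.Prime) [NeZero M] [NeZero N]
  (hqM : ¬ q ∣ M) (hA : A.LiesOverPrime q) (ht : H91.TameAt M q)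
  (hle : modularFunctionFieldBar M ≤ modularFunctionFieldBar N)

theorem tower_FN_of_le :
    letI := algF hle
    IsScalarTower Kbar (FN M) (FN N) :=
  isScalarTower_along (IntermediateField.inclusion hle)

theorem finite_FN_of_le' :
    letI := algF hle
    Module.Finite (FN M) (FN N) := Fermat.Agent.S45.NUE.H41.finite_FN_of_le M N hle

/-- The reduction map of `F_N` to the curve of level `M` mod `q`. -/
def rhoLvl (P : Place Kbar (FN N)) : Place (kV A) (FM A M) :=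
  letI := algF hle
  haveI := tower_FN_of_le M N hle
  haveI := finite_FN_of_le' M N hle
  (H91.seM hq hqM ht hA).r (P.restrict (FN M))

/-- The two versions of `j` in `F_N` agree. -/
theorem algebraMap_jF_lvl :
    letI := algF hle
    algebraMap (FN M) (FN N) (RED.H73.jF (L := Kbar) M) = Fermat.Agent.S24.jF N := by
  apply Subtype.ext
  show jqModC Kbar = coeffEmb Kbar jq
  have h := RED.H73.coeffEmb_qExpand_jq (L := Kbar) 1
  rw [qExpand_one_apply, qExpand_one_apply] at h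
  exact h.symm

/-- `j` is regular at the places over a point at which `j~` is regular. -/
theorem regAt_jF_of_rhoLvl {z : Place (kV A) (FM A M)}
    (hz : 0 ≤ z.ord (Fermat.Agent.BAD.H91.jRed A M))
    (P : Place Kbar (FN N)) (hP : rhoLvl A q M N hq hqM hA ht hle P = z) :
    RegAt P (Fermat.Agent.S24.jF N) := by
  letI := algF hle
  haveI := tower_FN_of_le M N hle
  haveI := finite_FN_of_le' M N hle
  have h0 : 0 ≤ ((H91.seM hq hqM ht hA).r (P.restrict (FN M))).ord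
      (Fermat.Agent.BAD.H91.jRed A M) := by
    have e : (H91.seM hq hqM ht hA).r (P.restrict (FN M)) = z := hP
    rw [e]
    exact hz
  have h1 : 0 ≤ (P.restrict (FN M)).ord (RED.H73.jF (L := Kbar) M) :=
    H91.ord_jF_nonneg_of_rM hq hqM ht hA _ h0
  have h2 : 0 ≤ P.ord (algebraMap (FN M) (FN N) (RED.H73.jF (L := Kbar) M)) := by
    rw [P.ord_restrict]
    exact mul_nonneg (Int.natCast_nonneg _) h1
  rw [algebraMap_jF_lvl] at h2
  exact regAt_of_ord_nonneg h2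

variable {ι : Type*} {κ : ι → Type*} [Fintype ι] [∀ i, Field (κ i)]
  [∀ i, Algebra (kV A) (κ i)]

/-- **`hSS0`** for any level: the points at which `j~` is regular are points of every chart with
coordinate ring `B = intSub (Rur A) j` over a conservation datum with `ρ = rhoLvl`. -/
theorem inChart_of_rhoLvl
    (C : Chart ↥(Rur A) ↥(L0 A N) (kV A) ι κ)
    (T : TotN Kbar ↥(L0 A N) (FN N) (kV A) ι (Place (kV A) (FM A M)) κ)
    (hC : C.B = intSub ↥(Rur A) (j0 A N))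
    (hρ : ∀ P, T.ρ P = rhoLvl A q M N hq hqM hA ht hle P)
    (z : Place (kV A) (FM A M)) (hz : 0 ≤ z.ord (Fermat.Agent.BAD.H91.jRed A M)) :
    InChart C T z := by
  refine inChart_of_regAt C T (j0 A N) hC z ?_ ?_
  · intro r P _
    rw [regAt_iff_mem]
    exact P.algebraMap_mem' _
  · intro P hP
    rw [hρ] at hP
    exact regAt_jF_of_rhoLvl A q M N hq hqM hA ht hle hz P hP

/-- The supersingular points of level `M` are points of the chart. -/
theorem inChart_ssM_lvl [NeZero q] [NeZero (M * q)]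
    (C : Chart ↥(Rur A) ↥(L0 A N) (kV A) ι κ)
    (T : TotN Kbar ↥(L0 A N) (FN N) (kV A) ι (Place (kV A) (FM A M)) κ)
    (hC : C.B = intSub ↥(Rur A) (j0 A N))
    (hρ : ∀ P, T.ρ P = rhoLvl A q M N hq hqM hA ht hle P) :
    ∀ z ∈ ssM A q M, InChart C T z :=
  fun z hz => inChart_of_rhoLvl A q M N hq hqM hA ht hle C T hC hρ z hz.1

end SS0

end Fermat.Agent.S45.NUE.H41P

end
end
-- ==== END Fermat.Agent.S45.NUE.H41_SS0E
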