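-- GENERATED (merged mirror, NOTES/tools/trim/merge3_helper67.py): 7 modules of the originals, bodies verbatim.
import Fermat.Agent.Zm.S45_L01_003
import Fermat.Agent.Zm.S36_L09_002
import Fermat.Agent.Zm.S36_L08_001
import Fermat.Agent.Zm.S36_L10_001
import Fermat.Agent.Zm.S36_L11_001
import Fermat.Agent.Zm.S36_L13_000
import Fermat.Agent.Zm.S45_L01_000
import Fermat.Agent.Zm.S36_L11_000

-- ==== BEGIN Fermat.Agent.S45.NUE.H79_GlueE
section

/-!
# S45 / NU_e, package E-ABS (helper79): GLUE at the level `e` from GLUE at the level `e - 1`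

`D : NUDataE ..`.  If the lower level is glued at the images `zα z`, `zβ z` of the multiple points
(`SideE.glue'`), then the upper level is glued at every `z ∈ SS`:

* `SingleRel.hasValue`, `DoubleRel.hasValue` : the values of the reductions of the norm of a unit;
* `SideE.inR` : the norm of a unit of `R_z` is in `R'_{zm z}`;
* `SideE.value_eq` : two single components of one side take the same value at `z`;
* `NUDataE.glued` : **GLUE_e**, `H24.Glued D.T z` for `z ∈ D.SS`.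
-/

set_option autoImplicit false
set_option linter.style.haveILetI false

noncomputable section

open AlgebraicCurve

attribute [local instance] Classical.propDecidable

namespace Fermat.Agent.S45.NUE.H79

open Fermat.Agent.RED.H17 Fermat.Agent.RED Fermat.Agent.BAD.H79 Fermat.Agent.BAD
open Fermat.Agent.S36.NU.H79 Fermat.Agent.S36.NU.H24

variable {K L₀ L k ι Z : Type*} {E : ι → Type*} [Field K] [Field L₀] [Field L]
  [Algebra K L] [Algebra L₀ L] [Field k] [Fintype ι] [∀ i, Field (E i)]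
  [∀ i, Algebra k (E i)]
  {K' L₀' L' ι' Z' : Type*} {E' : ι' → Type*} [Field K'] [Field L₀'] [Field L']
  [Algebra K' L'] [Algebra L₀' L'] [Fintype ι'] [∀ i, Field (E' i)]
  [∀ i, Algebra k (E' i)]

/-! ## Shifts by generic constants -/

/-- The set of constants which are a reduction of `f`. -/
theorem finite_constE (T : TotN K L₀ L k ι Z E) (f : L₀) :
    {c : k | ∃ i, T.rdN i f = algebraMap k (E i) c}.Finite := by
  have : {c : k | ∃ i, T.rdN i f = algebraMap k (E i) c}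
      = ⋃ i : ι, {c : k | T.rdN i f = algebraMap k (E i) c} := by
    ext c
    simp only [Set.mem_ofPred_eq, Set.mem_iUnion]
  rw [this]
  refine Set.finite_iUnion fun i => Set.Subsingleton.finite ?_
  intro a ha b hb
  rw [Set.mem_ofPred_eq] at ha hb
  exact (algebraMap k (E i)).injective (ha.symm.trans hb)

/-- For `f ∈ R_z` with values `a i` and a generic constant `c`: a unit `h ∈ R_z` for all
valuations with values `a i - c`. -/
theorem exists_shift (T : TotN K L₀ L k ι Z E) {z : Z} {f : L₀} (hf : T.InR z f) {a : ι → k}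
    (ha : ∀ i, HasValue (T.pt i z) (T.rdN i f) (a i)) (c : k)
    (hc : c ∉ {c : k | ∃ i, T.rdN i f = algebraMap k (E i) c}) :
    ∃ h : L₀, T.InR z h ∧ (∀ i, T.rdN i h ≠ 0) ∧
      ∀ i, HasValue (T.pt i z) (T.rdN i h) (a i - c) := by
  obtain ⟨c₀, ⟨c', hc'⟩, hc₀⟩ := T.const_lift c
  have hcm : ∀ i, c₀ ∈ T.V i := fun i => (hc₀ i).choose
  have hcr : ∀ i, T.rdN i c₀ = algebraMap k (E i) c := fun i => by
    rw [T.rdN_of_mem (hcm i)]; exact (hc₀ i).choose_spec
  have hcR : T.InR z c₀ := ⟨hcm, fun P _ => by rw [hc']; exact regAt_algebraMap P c'⟩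
  have hgr : ∀ i, T.rdN i (f - c₀) = T.rdN i f - algebraMap k (E i) c := fun i => by
    rw [T.rdN_sub (hf.1 i) (hcm i), hcr]
  refine ⟨f - c₀, hf.sub hcR, fun i h0 => ?_, fun i => ?_⟩
  · rw [hgr, sub_eq_zero] at h0
    exact hc ⟨i, h0⟩
  · rw [hgr]
    exact (ha i).sub (hasValue_const _ c)

/-! ## Values of the reductions of norms -/

section Values

variable {T : TotN K L₀ L k ι Z E} {T' : TotN K' L₀' L' k ι' Z' E'} {Nm : L₀ →* L₀'}
  {SS : Set Z} {zm : Z → Z'} {d : ℕ}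

/-- The value of the reduction of the norm of a unit, for a single component. -/
theorem SingleRel.hasValue {i : ι} (R : SingleRel T T' Nm SS zm d i) {z : Z} (hz : z ∈ SS)
    {h : L₀} (hu : ∀ j, T.rdN j h ≠ 0) {a : k} (ha : HasValue (T.pt i z) (T.rdN i h) a) :
    HasValue (T'.pt R.i' (zm z)) (T'.rdN R.i' (Nm h)) (a ^ d) := by
  have hd : a ^ d = (a ^ R.R.f) ^ R.e := by rw [← pow_mul, R.deg]
  rw [R.norm h hu, hd]
  exact (R.R.hasValue_N (R.pt z hz) ha).pow R.e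

/-- The value of the reduction of the norm of a unit, for a double component. -/
theorem DoubleRel.hasValue {i₁ i₂ : ι} (R : DoubleRel T T' Nm SS zm d i₁ i₂) {z : Z}
    (hz : z ∈ SS) {h : L₀} (hu : ∀ j, T.rdN j h ≠ 0) {a₁ a₂ : k}
    (ha₁ : HasValue (T.pt i₁ z) (T.rdN i₁ h) a₁) (ha₂ : HasValue (T.pt i₂ z) (T.rdN i₂ h) a₂) :
    HasValue (T'.pt R.i' (zm z)) (T'.rdN R.i' (Nm h))
      (a₁ ^ (R.R₁.f * R.e₁) * a₂ ^ (R.R₂.f * R.e₂)) := by
  rw [R.norm h hu, pow_mul, pow_mul]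
  exact ((R.R₁.hasValue_N (R.pt₁ z hz) ha₁).pow R.e₁).mul
    ((R.R₂.hasValue_N (R.pt₂ z hz) ha₂).pow R.e₂)

/-- The norm of a unit of `R_z` is in `R'_{zm z}`. -/
theorem SideE.inR (S : SideE T T' SS d) {z : Z} (hz : z ∈ SS) {h : L₀} (hR : T.InR z h)
    (hu : ∀ i, T.rdN i h ≠ 0) : T'.InR (S.zm z) (S.Nm h) :=
  ⟨fun i' => T'.mem_of_rdN_ne_zero (S.unit h hu i'), S.reg z hz h hR.2⟩

/-- Units of `R_z`: the `d`-th powers of the values on two single components of one side are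
equal. -/
theorem SideE.pow_eq (S : SideE T T' SS d) {z : Z} (hz : z ∈ SS) {h : L₀} (hR : T.InR z h)
    (hu : ∀ i, T.rdN i h ≠ 0) {i j : ι} (hi : S.S i) (hj : S.S j) {a b : k}
    (ha : HasValue (T.pt i z) (T.rdN i h) a) (hb : HasValue (T.pt j z) (T.rdN j h) b) :
    a ^ d = b ^ d := by
  have h1 := (S.single i hi).hasValue hz hu ha
  have h2 := (S.single j hj).hasValue hz hu hb
  have h3 := (S.glue' z hz _ (S.inR hz hR hu) (S.single i hi).i' (S.single j hj).i' _).mp h1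
  exact h3.unique h2

/-- Units of `R_z`: the relation of a double component with a single component. -/
theorem SideE.double_eq (S : SideE T T' SS d) {i₁ i₂ : ι}
    (R : DoubleRel T T' S.Nm SS S.zm d i₁ i₂) {z : Z} (hz : z ∈ SS) {h : L₀}
    (hR : T.InR z h) (hu : ∀ i, T.rdN i h ≠ 0) {j : ι} (hj : S.S j) {a₁ a₂ b : k}
    (ha₁ : HasValue (T.pt i₁ z) (T.rdN i₁ h) a₁) (ha₂ : HasValue (T.pt i₂ z) (T.rdN i₂ h) a₂)
    (hb : HasValue (T.pt j z) (T.rdN j h) b) :
    a₁ ^ (R.R₁.f * R.e₁) * a₂ ^ (R.R₂.f * R.e₂) = b ^ d := by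
  have h1 := R.hasValue hz hu ha₁ ha₂
  have h2 := (S.single j hj).hasValue hz hu hb
  have h3 := (S.glue' z hz _ (S.inR hz hR hu) R.i' (S.single j hj).i' _).mp h1
  exact h3.unique h2

/-- **Two single components of one side take the same value** at `z ∈ SS`, for `f ∈ R_z`. -/
theorem SideE.value_eq [Infinite k] (S : SideE T T' SS d) (hd : 0 < d) {z : Z} (hz : z ∈ SS)
    {f : L₀} (hf : T.InR z f) {a : ι → k}
    (ha : ∀ i, HasValue (T.pt i z) (T.rdN i f) (a i)) {i j : ι} (hi : S.S i) (hj : S.S j) :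
    a i = a j := by
  refine glue_alg ({i} : Finset ι) (fun _ => d) a (a j) d _ (finite_constE T f)
    (fun c hc => ?_) (Finset.mem_singleton_self i) hd
  rw [Finset.prod_singleton]
  obtain ⟨h, hR, hu, hv⟩ := exists_shift T hf ha c hc
  exact S.pow_eq hz hR hu hi hj (hv i) (hv j)

/-- **The two components of a double relation take the value of a single component** at
`z ∈ SS`, for `f ∈ R_z`. -/
theorem SideE.value_eq_double [Infinite k] (S : SideE T T' SS d) {i₁ i₂ : ι}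
    (R : DoubleRel T T' S.Nm SS S.zm d i₁ i₂) {z : Z} (hz : z ∈ SS)
    {f : L₀} (hf : T.InR z f) {a : ι → k}
    (ha : ∀ i, HasValue (T.pt i z) (T.rdN i f) (a i)) {j : ι} (hj : S.S j) :
    a i₁ = a j ∧ a i₂ = a j := by
  have key : ∀ c, c ∉ {c : k | ∃ i, T.rdN i f = algebraMap k (E i) c} →
      ∏ l : Fin 2, ((![a i₁, a i₂] : Fin 2 → k) l - c)
          ^ (![R.R₁.f * R.e₁, R.R₂.f * R.e₂] : Fin 2 → ℕ) l = (a j - c) ^ d := by
    intro c hc
    obtain ⟨h, hR, hu, hv⟩ := exists_shift T hf ha c hc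
    rw [Fin.prod_univ_two]
    exact S.double_eq R hz hR hu hj (hv i₁) (hv i₂) (hv j)
  constructor
  · exact glue_alg (Finset.univ : Finset (Fin 2)) _ (![a i₁, a i₂] : Fin 2 → k) (a j) d _
      (finite_constE T f) key (i := 0) (Finset.mem_univ _) R.pos₁
  · exact glue_alg (Finset.univ : Finset (Fin 2)) _ (![a i₁, a i₂] : Fin 2 → k) (a j) d _
      (finite_constE T f) key (i := 1) (Finset.mem_univ _) R.pos₂

end Values

/-! ## GLUE_e -/

namespace NUDataE

variable (D : NUDataE K L₀ L k ι Z E K' L₀' L' ι' Z' E')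

/-- The values of the reductions of `f ∈ R_z` at `z ∈ SS` are equal. -/
theorem value_eq [Infinite k] {z : Z} (hz : z ∈ D.SS) {f : L₀} (hf : D.T.InR z f)
    {a : ι → k} (ha : ∀ i, HasValue (D.T.pt i z) (D.T.rdN i f) (a i)) (i : ι) :
    a i = a D.jα := by
  have h1 : a D.i₁ = a D.jα := (D.sα.value_eq_double D.double hz hf ha D.hjα).1
  rcases D.cover i with hi | hi
  · exact D.sα.value_eq D.d_pos hz hf ha hi D.hjα
  · rw [← h1]
    exact D.sβ.value_eq D.d_pos hz hf ha hi D.hi₁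

/-- **GLUE_e**: the upper level is glued at the multiple points. -/
theorem glued [Infinite k] (hP : HasPrincipalDivisors K L) {z : Z} (hz : z ∈ D.SS) :
    Glued D.T z := by
  intro f hf i j c
  have hex : ∀ l, ∃ a : k, HasValue (D.T.pt l z) (D.T.rdN l f) a := fun l =>
    exists_value (D.T.pt l z) (D.deg_one z hz l) (hf.regAt hP l)
  choose a ha using hex
  have heq : ∀ l, a l = a D.jα := D.value_eq hz hf ha
  constructor
  · intro h
    have : c = a j := by rw [heq j, ← heq i]; exact h.unique (ha i)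
    rw [this]; exact ha j
  · intro h
    have : c = a i := by rw [heq i, ← heq j]; exact h.unique (ha j)
    rw [this]; exact ha i

end NUDataE

end Fermat.Agent.S45.NUE.H79

end
end
-- ==== END Fermat.Agent.S45.NUE.H79_GlueE

-- ==== BEGIN Fermat.Agent.S45.NUE.H79_LowRoot
section

/-!
# S45 / NU_e, package E-ABS (helper79): `LowRoot` from valuations

`lowRoot_of_val` : the hypothesis `LowRoot T' n` of `NUDataE.trivRed` (roots of units of the form
`constant · gⁿ` at the lower level) from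

* a component `i₀` of multiplicity one: the valuation `V i₀` is discrete with uniformiser the
  constant `q₀` (modular: `q`, and `V i₀` = the Gauss valuation at the cusp `∞`) — `hex`;
* the valuations of a non-zero constant are the `m`-th powers of the valuations of `q₀`, with
  ONE `m ∈ ℤ` for all components (modular: the constants are in `K^ur`) — `hconst`;
* the reductions of a constant which is a unit for all valuations are the same constant of `k`
  in all components — `hred`.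

Also: `rdN_ne_zero_iff_val` (`T.rdN i x ≠ 0 ↔ v_i x = 1`).
-/

set_option autoImplicit false
set_option linter.style.haveILetI false

noncomputable section

open AlgebraicCurve

attribute [local instance] Classical.propDecidable

namespace Fermat.Agent.S45.NUE.H79

open Fermat.Agent.RED.H17 Fermat.Agent.RED Fermat.Agent.BAD.H79 Fermat.Agent.BAD
open Fermat.Agent.S36.NU.H79 Fermat.Agent.S36.NU.H24

variable {K L₀ L k ι Z : Type*} {E : ι → Type*} [Field K] [Field L₀] [Field L]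
  [Algebra K L] [Algebra L₀ L] [Field k] [Fintype ι] [∀ i, Field (E i)]
  [∀ i, Algebra k (E i)] (T : TotN K L₀ L k ι Z E)

/-- A unit for the valuation `i`: the reduction is non-zero iff the valuation is `1`. -/
theorem rdN_ne_zero_iff_val (i : ι) (x : L₀) :
    T.rdN i x ≠ 0 ↔ (T.V i).valuation x = 1 := by
  constructor
  · intro hx
    have h1 := T.mem_of_rdN_ne_zero hx
    have h2 := T.inv_mem_of_rdN_ne_zero hx
    have e1 : (T.V i).valuation x ≤ 1 := ((T.V i).valuation_le_one_iff x).2 h1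
    have e2 : (T.V i).valuation x⁻¹ ≤ 1 := ((T.V i).valuation_le_one_iff x⁻¹).2 h2
    have hx0 : x ≠ 0 := by
      rintro rfl
      apply hx
      rw [T.rdN_of_mem (T.V i).zero_mem]
      exact map_zero _
    have hv0 : (T.V i).valuation x ≠ 0 := (Valuation.ne_zero_iff _).2 hx0
    rw [map_inv₀] at e2
    have e3 : 1 ≤ (T.V i).valuation x := (inv_le_one₀ (zero_lt_iff.2 hv0)).1 e2
    exact le_antisymm e1 e3
  · intro hv hx
    have hm : x ∈ T.V i := ((T.V i).valuation_le_one_iff x).1 hv.le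
    rw [T.rdN_of_mem hm, T.red_eq_zero_iff] at hx
    have := ((T.V i).valuation_lt_one_iff ⟨x, hm⟩).1 hx
    rw [hv] at this
    exact lt_irrefl _ this

theorem isConstT_mul {c d : L₀} (hc : IsConstT T c) (hd : IsConstT T d) : IsConstT T (c * d) := by
  obtain ⟨c', hc'⟩ := hc
  obtain ⟨d', hd'⟩ := hd
  exact ⟨c' * d', by rw [map_mul, map_mul, hc', hd']⟩

theorem isConstT_inv {c : L₀} (hc : IsConstT T c) : IsConstT T c⁻¹ := by
  obtain ⟨c', hc'⟩ := hc
  exact ⟨c'⁻¹, by rw [map_inv₀, map_inv₀, hc']⟩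

theorem isConstT_one : IsConstT T (1 : L₀) := ⟨1, by rw [map_one, map_one]⟩

theorem isConstT_pow {c : L₀} (hc : IsConstT T c) (m : ℕ) : IsConstT T (c ^ m) := by
  induction m with
  | zero => rw [pow_zero]; exact isConstT_one T
  | succ m ih => rw [pow_succ]; exact isConstT_mul T ih hc

theorem isConstT_zpow {c : L₀} (hc : IsConstT T c) (m : ℤ) : IsConstT T (c ^ m) := by
  cases m with
  | ofNat m => rw [Int.ofNat_eq_natCast, zpow_natCast]; exact isConstT_pow T hc m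
  | negSucc m => rw [zpow_negSucc]; exact isConstT_inv T (isConstT_pow T hc (m + 1))

/-- In the value group: `x ^ n = 1`, `n ≠ 0` ⟹ `x = 1`. -/
theorem val_eq_one_of_pow {Γ : Type*} [LinearOrderedCommGroupWithZero Γ] {x : Γ} {n : ℕ}
    (hn : n ≠ 0) (h : x ^ n = 1) : x = 1 := by
  rcases lt_trichotomy x 1 with h1 | h1 | h1
  · exact absurd h (ne_of_lt (pow_lt_one₀ zero_le h1 hn))
  · exact h1
  · exact absurd h (ne_of_gt (one_lt_pow₀ h1 hn))

/-- **`LowRoot` from valuations.** -/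
theorem lowRoot_of_val (n : ℕ) (hn : n ≠ 0) (i₀ : ι) (q₀ : L₀) (hq₀ : IsConstT T q₀)
    (hq₀0 : q₀ ≠ 0) (hlt : (T.V i₀).valuation q₀ < 1)
    (hex : ∀ x : L₀, x ≠ 0 → ∃ r : ℤ, (T.V i₀).valuation x = (T.V i₀).valuation q₀ ^ r)
    (hconst : ∀ c : L₀, IsConstT T c → c ≠ 0 →
      ∃ m : ℤ, ∀ i, (T.V i).valuation c = (T.V i).valuation q₀ ^ m)
    (hred : ∀ c : L₀, IsConstT T c → (∀ i, T.rdN i c ≠ 0) →
      ∃ a : k, ∀ i, T.rdN i c = algebraMap k (E i) a) : LowRoot T n := by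
  intro f c g hc hf hu
  have hf0 : f ≠ 0 := by
    rintro rfl
    apply hu i₀
    rw [T.rdN_of_mem (T.V i₀).zero_mem]
    exact map_zero _
  have hc0 : c ≠ 0 := by
    rintro rfl
    rw [zero_mul] at hf
    exact hf0 hf
  have hg0 : g ≠ 0 := by
    rintro rfl
    rw [zero_pow hn, mul_zero] at hf
    exact hf0 hf
  obtain ⟨m, hm⟩ := hconst c hc hc0
  obtain ⟨r, hr⟩ := hex g hg0
  have hvq0 : ∀ i, (T.V i).valuation q₀ ≠ 0 := fun i => (Valuation.ne_zero_iff _).2 hq₀0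
  have hvf : ∀ i, (T.V i).valuation c * (T.V i).valuation g ^ n = 1 := by
    intro i
    rw [← map_pow, ← map_mul, ← hf]
    exact (rdN_ne_zero_iff_val T i f).1 (hu i)
  -- `m + r n = 0`
  have hmr : m + r * n = 0 := by
    have h1 := hvf i₀
    rw [hm i₀, hr, ← zpow_natCast, ← zpow_mul, ← zpow_add₀ (hvq0 i₀)] at h1
    have hinj : Function.Injective fun z : ℤ => (T.V i₀).valuation q₀ ^ z :=
      zpow_right_injective₀ (zero_lt_iff.2 (hvq0 i₀)) hlt.ne
    exact hinj (by simpa using h1)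
  set d : L₀ := q₀ ^ (-r) with hd
  have hd0 : d ≠ 0 := zpow_ne_zero _ hq₀0
  have hdc : IsConstT T d := isConstT_zpow T hq₀ _
  -- `d g` is a unit for all valuations
  have hvg : ∀ i, (T.V i).valuation (d * g) = 1 := by
    intro i
    refine val_eq_one_of_pow hn ?_
    have h1 := hvf i
    rw [hm i] at h1
    have h2 : (T.V i).valuation g ^ n = (T.V i).valuation q₀ ^ (-m) := by
      rw [zpow_neg]
      exact eq_inv_of_mul_eq_one_right h1
    rw [map_mul, mul_pow, h2, hd, map_zpow₀, ← zpow_natCast, ← zpow_mul, ← zpow_add₀ (hvq0 i)]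
    have : -r * (n : ℤ) + -m = 0 := by linarith
    rw [this, zpow_zero]
  have hug : ∀ i, T.rdN i (d * g) ≠ 0 := fun i => (rdN_ne_zero_iff_val T i _).2 (hvg i)
  have hfe : f = c / d ^ n * (d * g) ^ n := by
    have hdn : d ^ n ≠ 0 := pow_ne_zero n hd0
    rw [hf, mul_pow]
    field_simp
  have hCc : IsConstT T (c / d ^ n) := by
    rw [div_eq_mul_inv]
    exact isConstT_mul T hc (isConstT_inv T (isConstT_pow T hdc n))
  have hC0 : c / d ^ n ≠ 0 := div_ne_zero hc0 (pow_ne_zero n hd0)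
  have hvC : ∀ i, (T.V i).valuation (c / d ^ n) = 1 := by
    intro i
    have h1 := (rdN_ne_zero_iff_val T i f).1 (hu i)
    rw [hfe, map_mul, map_pow, hvg i, one_pow, mul_one] at h1
    exact h1
  have huC : ∀ i, T.rdN i (c / d ^ n) ≠ 0 := fun i => (rdN_ne_zero_iff_val T i _).2 (hvC i)
  obtain ⟨a, ha⟩ := hred _ hCc huC
  have ha0 : a ≠ 0 := by
    rintro rfl
    apply huC i₀
    rw [ha i₀, map_zero]
  refine ⟨d * g, c / d ^ n, a, hCc, hC0, ha0, hug, hfe, fun i => ?_⟩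
  conv_lhs => rw [hfe]
  rw [T.rdN_mul (T.mem_of_rdN_ne_zero (huC i))
    ((T.V i).pow_mem (T.mem_of_rdN_ne_zero (hug i)) n),
    T.rdN_pow (T.mem_of_rdN_ne_zero (hug i)), ha i]

end Fermat.Agent.S45.NUE.H79

end
end
-- ==== END Fermat.Agent.S45.NUE.H79_LowRoot

-- ==== BEGIN Fermat.Agent.S45.NUE.H82_EpsBase
section

/-!
# S45 / NU_e, package E-CUSP / E-EPS (helper82): the base case, level `M q`

Level `M q`, `q ∤ M` (`B M + k q = 1`), `w = w_q` the Atkin–Lehner involution (`wL`).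

* `cuspU_gE_zero` : the expansion at the cusp `0` (`= 1 / M`):
  `cuspU (M q) (gE q M 0) x = (twist (ζ_q^B) (w x))(u^M)`;
* `cuspU_gE_zero_eps` : `cuspU (M q) (gE q M 0) (eps_1) = q¹² / (twist (ζ_q^B) U)(u^M)`.
-/

set_option autoImplicit false
set_option synthInstance.maxHeartbeats 400000
set_option maxHeartbeats 1000000
set_option linter.unusedSectionVars false
set_option linter.unusedVariables false
set_option linter.style.haveILetI false

noncomputable section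

open ModularCurve
open Fermat.Agent.S24 Fermat.Agent.BAD.H88 Fermat.Agent.BAD.H30 Fermat.Agent.BAD.H21
open Fermat.Agent.S28 Fermat.Agent.S28.H73 Fermat.Agent.RED.H73 Fermat.Agent.RED.H17
open Fermat.Agent.S36.NU.H88 Fermat.Agent.S36.NU.H23 Fermat.Agent.S36.NU.H82
open Fermat.Agent.S45.NUE.H73
open scoped MatrixGroups

namespace Fermat.Agent.S45.NUE.H82

theorem jdF_congr82 (N : ℕ) [NeZero N] {D D' : ℕ} [NeZero D] [NeZero D'] (h : D = D')
    (hD : D ∣ N) (hD' : D' ∣ N) : jdF N D hD = jdF N D' hD' := by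
  subst h
  rfl

section Base

variable (q M : ℕ) (B k : ℤ) (hB : B * M + k * q = 1) (hq : q.Prime) [NeZero M] [NeZero q]
  [NeZero (M * q)]

include hB hq

theorem hB_pow_one : B * M + k * (q : ℤ) ^ 1 = 1 := by rw [pow_one]; exact hB

/-- **The expansion at the cusp `0` of level `M q`**, through `w_q`. -/
theorem cuspU_gE_zero_comp :
    cuspU (M * q) (gE q M 0)
      = (qExpandAlgHomC Kbar M).comp
          ((twistAlg (zetaK q ^ B) (zMid_ne_zero q B)).comp
            ((modularFunctionFieldBar (M * q)).val.comp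
              (wL q M B k hB hq : FN (M * q) →ₐ[Kbar] FN (M * q)))) := by
  have hN : M * q = M * q ^ 1 := by rw [pow_one]
  have hB1 : B * (M : ℤ) + k * (q : ℤ) ^ 1 = 1 := hB_pow_one q M B k hB hq
  have hq0 : 0 < q := hq.pos
  apply algHom_ext_of_adjoin _ (adjoin_jdF (M * q))
  rintro x ⟨D, hD0, hD, rfl⟩
  have hDpos : 0 < D := Nat.pos_of_ne_zero (NeZero.ne D)
  have hval : ∀ y : FN (M * q), (modularFunctionFieldBar (M * q)).val y
      = (y : LaurentSeries Kbar) := fun _ => rfl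
  have hco : ∀ y : FN (M * q), ((wL q M B k hB hq : FN (M * q) →ₐ[Kbar] FN (M * q))) y
      = wL q M B k hB hq y := fun _ => rfl
  simp only [AlgHom.comp_apply, qExpandAlgHomC_apply, twistAlg_apply, hval, hco]
  rcases dvd_cases q M k B (hab_of_hB q M B k hB) hq D hD with ⟨e', he'⟩ | ⟨d, e', rfl, he'⟩
  · -- `D ∣ M`
    haveI : NeZero (D * q) := ⟨(Nat.mul_pos hDpos hq0).ne'⟩
    haveI : NeZero (D * q ^ 0) := ⟨by rw [pow_zero, mul_one]; exact hDpos.ne'⟩
    have hD1 : D * q ^ 0 ∣ M * q := by rw [pow_zero, mul_one]; exact hD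
    have e1 : jdF (M * q) D hD = jdF (M * q) (D * q ^ 0) hD1 :=
      jdF_congr82 (M * q) (by rw [pow_zero, mul_one]) hD hD1
    have e2 : (wL q M B k hB hq) (jdF (M * q) D hD)
        = jdF (M * q) (D * q) (Nat.mul_dvd_mul_right ⟨e', he'⟩ q) :=
      wqHom_jdF q M k B (hab_of_hB q M B k hB) hq D ⟨e', he'⟩
    have hz : (zetaK q ^ B) ^ ((D * q : ℕ) : ℤ) = 1 := by
      rw [zpow_natCast, mul_comm, pow_mul, zMid_pow, one_pow]
    rw [e2, Fermat.Agent.S36.NU.H88.coe_jdF, twist_qExpand, hz, twist_one', e1,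
      cuspU_gE_le (M * q) q M 1 B k hN hB1 hq D e' 0 0 he' le_rfl hD1, qExpand_qExpand,
      qExpand_qExpand]
    exact Fermat.Agent.BAD.H73.qExpand_congr (by rw [pow_zero]; ring) _
  · -- `D = d q`, `d ∣ M`
    have hdpos : 0 < d := by
      rcases Nat.eq_zero_or_pos d with h | h
      · exfalso; apply NeZero.ne (d * q); rw [h, zero_mul]
      · exact h
    haveI : NeZero d := ⟨hdpos.ne'⟩
    haveI : NeZero (d * q ^ 1) := ⟨by rw [pow_one]; exact NeZero.ne _⟩
    haveI : NeZero (q ^ (1 - 0)) := ⟨pow_ne_zero _ hq.ne_zero⟩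
    have hM0 : 0 < M := M_pos q M k B (hab_of_hB q M B k hB) hq
    haveI : NeZero (M * d * q ^ (1 - 1 + 2 * 0)) :=
      ⟨(Nat.mul_pos (Nat.mul_pos hM0 hdpos) (pow_pos hq0 _)).ne'⟩
    haveI : NeZero (M * d) := ⟨(Nat.mul_pos hM0 hdpos).ne'⟩
    have hD1 : d * q ^ 1 ∣ M * q := by rw [pow_one]; exact hD
    have e1 : jdF (M * q) (d * q) hD = jdF (M * q) (d * q ^ 1) hD1 :=
      jdF_congr82 (M * q) (by rw [pow_one]) hD hD1
    have e2 : (wL q M B k hB hq) (jdF (M * q) (d * q) hD)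
        = jdF (M * q) d (Dvd.dvd.mul_right ⟨e', he'⟩ q) :=
      wqHom_jdF_mul q M k B (hab_of_hB q M B k hB) hq d ⟨e', he'⟩
    have hz : zetaK (q ^ (1 - 0)) ^ (B * d) = (zetaK q ^ B) ^ ((d : ℕ) : ℤ) := by
      rw [zetaK_congr (show q ^ (1 - 0) = q by rw [Nat.sub_zero, pow_one]), zpow_mul]
    rw [e2, Fermat.Agent.S36.NU.H88.coe_jdF, twist_qExpand, e1,
      cuspU_gE_gt (M * q) q M 1 B k hN hB1 hq d e' 1 0 he' Nat.zero_lt_one le_rfl hD1, hz,
      qExpand_qExpand]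
    exact Fermat.Agent.BAD.H73.qExpand_congr (by simp) _

theorem cuspU_gE_zero (x : FN (M * q)) :
    cuspU (M * q) (gE q M 0) x
      = qExpand Kbar M (twist (zetaK q ^ B)
          ((wL q M B k hB hq x : FN (M * q)) : LaurentSeries Kbar)) :=
  congrArg (fun f : FN (M * q) →ₐ[Kbar] LaurentSeries Kbar => f x)
    (cuspU_gE_zero_comp q M B k hB hq)

/-- The expansion of `eps_1 = Δ(τ)/Δ(qτ)` at the cusp `0` of level `M q`. -/
theorem cuspU_gE_zero_eps (h : q ^ (0 + 1) ∣ M * q) :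
    cuspU (M * q) (gE q M 0) (epsN (M * q) q 0 h)
      = HahnSeries.C ((q : Kbar) ^ 12)
        * (qExpand Kbar M (twist (zetaK q ^ B) (UQ q)))⁻¹ := by
  rw [cuspU_gE_zero q M B k hB hq, epsN_zero, Fermat.Agent.S36.NU.H99.wL_U3 q M B k hB hq]
  have e1 : (((Fermat.Agent.S36.NU.H99.cq q M ^ 12 * (Fermat.Agent.S36.NU.H99.U3 q M)⁻¹
      : FN (M * q)) : FN (M * q)) : LaurentSeries Kbar)
      = HahnSeries.C ((q : Kbar) ^ 12) * (UQ q)⁻¹ := by
    show ((Fermat.Agent.S36.NU.H99.cq q M : FN (M * q)) : LaurentSeries Kbar) ^ 12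
      * ((Fermat.Agent.S36.NU.H99.U3 q M : FN (M * q)) : LaurentSeries Kbar)⁻¹ = _
    have e2 : ((Fermat.Agent.S36.NU.H99.cq q M : FN (M * q)) : LaurentSeries Kbar)
        = HahnSeries.C (q : Kbar) := by
      show algebraMap Kbar (LaurentSeries Kbar) (q : Kbar) = _
      rw [algebraMap_laurentSeries_eq_single]
      rfl
    rw [e2, ← map_pow]
    rfl
  rw [e1, ← twistAlg_apply (zetaK q ^ B) (zMid_ne_zero q B), map_mul, map_inv₀,
    ← qExpandAlgHomC_apply, map_mul, map_inv₀]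
  congr 1
  rw [twistAlg_apply, qExpandAlgHomC_apply, Fermat.Agent.RED.H95.twist_C, qExpand_C]

end Base

end Fermat.Agent.S45.NUE.H82

end
end
-- ==== END Fermat.Agent.S45.NUE.H82_EpsBase

-- ==== BEGIN Fermat.Agent.S45.NUE.H88_CuspAsmE
section

/-!
# S45 / NU_e, package E-FIN, leaf E-CUSP: abstract assembly at the cusps (helper88)

`C` a chart (`H16.Chart`, ANY `Fintype ι`) cut out of a subring `H` (the integral closure of
`K^ur[u]`, `u = 1 / j`) by its valuation rings, `u ∈ B`, ramification indices `e i` (`ValE`).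

* `UnitAtCusp C i u β` : `rd i β = P (rd i u)` with `P ∈ k[X]`, `P(0) ≠ 0` (`β` is a unit at all
  the cusps of the component `i`); calculus `const`, `one`, `mul`, `pow`, `one_sub_mul`, `congr`,
  `of_red` (from ANY reduction map `s` of `V i`, e.g. a `q`-expansion), `not_mem`;
* `CuspWit C q e u i` : **the cusp witnesses of the component `i`**:
  `E ∈ B` a unit at the cusps of `i`, divisible by `q` in `V i'` for `i' ≠ i`;
  `x ∈ B` with `x ^ e i = q f'`, `f' ∈ V i`; and the unit identity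
  `rd i ((E f') ^ m A) = rd i Y`, `Y` a unit at the cusps of `i`, `0 < m`;
  `CuspWit.of_one` : for `e i = 1` only `E` is needed;
* `cusp_locEqE` : **local equation datum and only one branch** at every prime `𝔪 ∋ u` on the
  component `i`;
* `cusp_pointDataAtE` : **the hypothesis `hptoo` of `H96.ti3_of_trivRed'`** from the witnesses of
  all components and the branches.
-/

set_option autoImplicit false
set_option linter.unusedSectionVars false
set_option linter.style.haveILetI false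

noncomputable section

open Polynomial

namespace Fermat.Agent.S45.NUE.H88

open Fermat.Agent.S36.NU.H16 Fermat.Agent.S36.NU.H99 Fermat.Agent.S36.NU.H79

section Abs

variable {R F k ι : Type*} {κ : ι → Type*} [CommRing R] [Field F] [Algebra R F]
  [Field k] [∀ i, Field (κ i)] [∀ i, Algebra k (κ i)]

variable (C : Chart R F k ι κ)

/-- **`β` is a unit at the cusps of the component `i`**: its residue on the component is a
polynomial in the residue of `u` with non-zero constant coefficient. -/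
def UnitAtCusp (i : ι) (u β : C.B) : Prop :=
  ∃ P : k[X], P.coeff 0 ≠ 0 ∧ C.rdB i β = aeval (C.rdB i u) P

namespace UnitAtCusp

variable {C} {i : ι} {u β β' : C.B}

/-- A unit at the cusps is not in a prime `𝔪 ∋ u` on the component. -/
theorem not_mem (h : UnitAtCusp C i u β) (𝔪 : Ideal C.B) [h𝔪 : 𝔪.IsPrime] (hu : u ∈ 𝔪)
    (hi : C.Icomp i ≤ 𝔪) : β ∉ 𝔪 := by
  obtain ⟨P, hP0, hP⟩ := h
  exact Fermat.Agent.S36.NU.H82.not_mem_of_rd_eq_aeval C 𝔪 u hu i hi β P hP0 hP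

theorem congr (h : UnitAtCusp C i u β) (hβ : C.rdB i β' = C.rdB i β) : UnitAtCusp C i u β' := by
  obtain ⟨P, hP0, hP⟩ := h
  exact ⟨P, hP0, hβ.trans hP⟩

theorem const (i : ι) (u : C.B) (r : R) (hr : C.res r ≠ 0) :
    UnitAtCusp C i u (algebraMap R C.B r) := by
  refine ⟨Polynomial.C (C.res r), ?_, ?_⟩
  · rw [Polynomial.coeff_C_zero]
    exact hr
  · rw [Fermat.Agent.S36.NU.H82.rdB_algebraMap, aeval_C]

theorem one (i : ι) (u : C.B) : UnitAtCusp C i u 1 :=
  ⟨1, by rw [Polynomial.coeff_one_zero]; exact one_ne_zero, by rw [map_one, map_one]⟩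

theorem mul (h : UnitAtCusp C i u β) (h' : UnitAtCusp C i u β') : UnitAtCusp C i u (β * β') := by
  obtain ⟨P, hP0, hP⟩ := h
  obtain ⟨P', hP'0, hP'⟩ := h'
  refine ⟨P * P', ?_, ?_⟩
  · rw [Polynomial.mul_coeff_zero]
    exact mul_ne_zero hP0 hP'0
  · rw [map_mul, map_mul, hP, hP']

theorem pow (h : UnitAtCusp C i u β) (n : ℕ) : UnitAtCusp C i u (β ^ n) := by
  induction n with
  | zero => rw [pow_zero]; exact one i u
  | succ n ih => rw [pow_succ]; exact ih.mul h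

/-- `1 - c u` is a unit at the cusps. -/
theorem one_sub_mul (i : ι) (u : C.B) (c : C.B) (r : k)
    (hc : C.rdB i c = algebraMap k (κ i) r) : UnitAtCusp C i u (1 - c * u) := by
  refine ⟨1 - Polynomial.C r * Polynomial.X, ?_, ?_⟩
  · rw [Polynomial.coeff_sub, Polynomial.coeff_one_zero, Polynomial.coeff_C_mul,
      Polynomial.coeff_X_zero, mul_zero, sub_zero]
    exact one_ne_zero
  · rw [map_sub, map_one, map_mul, hc, map_sub, map_one, map_mul, aeval_C, aeval_X]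

/-- **From a reduction map `s` of `V i`** (for instance a `q`-expansion):
`s β = P (s u)`, `P(0) ≠ 0`. -/
theorem of_red (i : ι) {S : Type*} [CommRing S] [Nontrivial S] [Algebra k S]
    (s : ↥(C.V i) →+* S)
    (hconst : ∀ (r : R) (h : algebraMap R F r ∈ C.V i),
      s ⟨algebraMap R F r, h⟩ = algebraMap k S (C.res r))
    (u β : C.B) (P : k[X]) (h0 : P.coeff 0 ≠ 0)
    (hs : s ⟨(β : F), C.B_le i _ β.2⟩ = aeval (s ⟨(u : F), C.B_le i _ u.2⟩) P) :
    UnitAtCusp C i u β := by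
  refine ⟨P, h0, ?_⟩
  obtain ⟨Pt, hPt⟩ := Polynomial.map_surjective C.res C.res_surj P
  -- `s (aeval u Pt) = aeval (s u) P`
  have haev : ∀ Q : R[X], s ⟨((aeval u Q : C.B) : F), C.B_le i _ (aeval u Q).2⟩
      = aeval (s ⟨(u : F), C.B_le i _ u.2⟩) (Q.map C.res) := by
    intro Q
    induction Q using Polynomial.induction_on' with
    | add p₁ p₂ h₁ h₂ =>
      have e : (⟨((aeval u (p₁ + p₂) : C.B) : F), C.B_le i _ (aeval u (p₁ + p₂)).2⟩ : ↥(C.V i))
          = ⟨((aeval u p₁ : C.B) : F), C.B_le i _ (aeval u p₁).2⟩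
            + ⟨((aeval u p₂ : C.B) : F), C.B_le i _ (aeval u p₂).2⟩ := by
        apply Subtype.ext
        change ((aeval u (p₁ + p₂) : C.B) : F) = ((aeval u p₁ : C.B) : F) + ((aeval u p₂ : C.B) : F)
        rw [map_add, Subalgebra.coe_add]
      rw [e, map_add, h₁, h₂, Polynomial.map_add, map_add]
    | monomial n a =>
      have e : (⟨((aeval u (monomial n a) : C.B) : F), C.B_le i _ (aeval u (monomial n a)).2⟩ :
            ↥(C.V i))
          = ⟨algebraMap R F a, C.B_le i _ (C.B.algebraMap_mem a)⟩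
            * ⟨(u : F), C.B_le i _ u.2⟩ ^ n := by
        apply Subtype.ext
        change ((aeval u (monomial n a) : C.B) : F) = algebraMap R F a * (u : F) ^ n
        rw [aeval_monomial, Subalgebra.coe_mul, Subalgebra.coe_pow]
        rfl
      rw [e, map_mul, map_pow, hconst, Polynomial.map_monomial, aeval_monomial]
  have hsub : ((β - aeval u Pt : C.B) : F) ∈ (C.V i).nonunits := by
    have hm : ((β - aeval u Pt : C.B) : F) ∈ C.V i := C.B_le i _ (β - aeval u Pt).2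
    refine mem_nonunits_of_map_eq_zero (C.V i) s ⟨_, hm⟩ ?_
    have e : (⟨((β - aeval u Pt : C.B) : F), hm⟩ : ↥(C.V i))
        = ⟨(β : F), C.B_le i _ β.2⟩
          - ⟨((aeval u Pt : C.B) : F), C.B_le i _ (aeval u Pt).2⟩ := by
      apply Subtype.ext
      change ((β - aeval u Pt : C.B) : F) = (β : F) - ((aeval u Pt : C.B) : F)
      rw [Subalgebra.coe_sub]
    rw [e, map_sub, hs, haev, hPt, sub_self]
  have h1 : β - aeval u Pt ∈ C.Icomp i := (mem_Icomp_iff_nonunits C i _).2 hsub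
  rw [C.mem_Icomp, map_sub, Fermat.Agent.S36.NU.H82.rdB_aeval, hPt, sub_eq_zero] at h1
  exact h1

end UnitAtCusp

/-- **The cusp witnesses of the component `i`** of a chart at infinity. -/
structure CuspWit (q : R) (e : ι → ℕ) (u : C.B) (i : ι) : Prop where
  he : 0 < e i
  wit : ∃ E : C.B, UnitAtCusp C i u E ∧
    (∀ i', i' ≠ i → ∃ f' ∈ C.V i', (E : F) = algebraMap R F q * f') ∧
    ∃ (x : C.B) (f' : F), f' ∈ C.V i ∧ (x : F) ^ e i = algebraMap R F q * f' ∧
      ∃ (m : ℕ) (A Y : C.B), 0 < m ∧ UnitAtCusp C i u Y ∧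
        C.rd i (((E : F) * f') ^ m * (A : F)) = C.rdB i Y

/-- The cusp witnesses of a component of multiplicity one: a unit `E` at its cusps which is
divisible by `q` on the other components. -/
theorem CuspWit.of_one (q : R) (e : ι → ℕ) (u : C.B) (i : ι) (he : e i = 1) (E : C.B)
    (hE : UnitAtCusp C i u E)
    (hdiv : ∀ i', i' ≠ i → ∃ f' ∈ C.V i', (E : F) = algebraMap R F q * f') :
    CuspWit C q e u i := by
  refine ⟨by omega, E, hE, hdiv, algebraMap R C.B q, 1, (C.V i).one_mem, ?_, 1, 1, E,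
    Nat.one_pos, hE, ?_⟩
  · rw [he, pow_one, mul_one]
    rfl
  · rw [mul_one, pow_one, Subalgebra.coe_one, mul_one, C.rd_coe]

/-- The hypotheses on a chart at infinity shared by all its cusps. -/
structure ChartOoE (q : R) (e : ι → ℕ) (H : Subring F) : Prop where
  hq0 : algebraMap R F q ≠ 0
  hqV : ∀ i, algebraMap R F q ∈ (C.V i).nonunits
  hBH : ∀ x ∈ C.B, x ∈ H
  hqH : (algebraMap R F q)⁻¹ ∈ H
  crit : ∀ f ∈ H, (∀ i, f ∈ C.V i) → f ∈ C.B
  hE : ValE C q e

variable {C}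

/-- **E-CUSP, one point**: at a prime `𝔪 ∋ u` of the chart on the component `i` there is a local
equation datum, and `i` is the only component through `𝔪`. -/
theorem cusp_locEqE [Fintype ι] [DecidableEq ι] {q : R} {e : ι → ℕ} {H : Subring F}
    (S : ChartOoE C q e H) {u : C.B} {i : ι} (hw : CuspWit C q e u i)
    (𝔪 : Ideal C.B) [h𝔪 : 𝔪.IsPrime] (hu : u ∈ 𝔪) (hi : C.Icomp i ≤ 𝔪) :
    Nonempty (LocEq C q 𝔪) ∧ ∀ i', C.Icomp i' ≤ 𝔪 → i' = i := by
  obtain ⟨he, E, hE, hdiv, x, f', hf', hxf, m, A, Y, hm, hY, hrd⟩ := hw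
  exact locEq_ord_crit_mid C q S.hq0 S.hqV H S.hBH S.hqH S.crit e S.hE 𝔪 i hi he x E
    (hE.not_mem 𝔪 hu hi) hdiv f' hf' hxf m hm A Y (hY.not_mem 𝔪 hu hi) hrd

variable {Z K L : Type*} [Field K] [Field L] [Algebra K L] [Algebra F L]

/-- **E-CUSP**: the local data (`H96.PointDataAt`) at every closed point `𝔪 ∋ u` of the special
fibre of the chart at infinity, from the cusp witnesses of all components and the branches;
with `u = 1 / j` this is the hypothesis `hptoo` of `H96.ti3_of_trivRed'`. -/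
theorem cusp_pointDataAtE [Fintype ι] [DecidableEq ι] {q : R} {e : ι → ℕ} {H : Subring F}
    (S : ChartOoE C q e H) (G : H96.GlueCore K F L k ι Z κ) (u : F) (huB : u ∈ C.B)
    (hw : ∀ i, CuspWit C q e ⟨u, huB⟩ i)
    (hbr : ∀ 𝔪 : Ideal C.B, 𝔪.IsMaximal → (∀ β : C.B, (β : F) = u → β ∈ 𝔪) →
      ∀ i, C.Icomp i ≤ 𝔪 → Nonempty (Branch C 𝔪 i)) :
    ∀ 𝔪 : Ideal C.B, 𝔪.IsMaximal → (∃ i, C.Icomp i ≤ 𝔪) →
      (∀ β : C.B, (β : F) = u → β ∈ 𝔪) → H96.PointDataAt C G q 𝔪 := by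
  intro 𝔪 hmax hex hu
  haveI : 𝔪.IsPrime := hmax.isPrime
  obtain ⟨i, hi⟩ := hex
  obtain ⟨hL, h1⟩ := cusp_locEqE S (hw i) 𝔪 (hu _ rfl) hi
  exact ⟨hbr 𝔪 hmax hu, hL, Or.inl ⟨i, h1⟩⟩

end Abs

end Fermat.Agent.S45.NUE.H88

end
end
-- ==== END Fermat.Agent.S45.NUE.H88_CuspAsmE

-- ==== BEGIN Fermat.Agent.S45.NUE.H88_PtAsmE
section

/-!
# S45 / NU_e, package E-FIN, leaf E-PT-ASM (helper88)

Port of `S36.NU.H99.pointDataAt_of_dichotomy` / `pointData_of_dichotomy` (helper99) from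
`H65.PointDataAt` (three components, `NUData`) to `H96.PointDataAt` / `H96.PointData`
(ANY `Fintype ι`, `GlueCore`).

* `pointDataAtE_of_dichotomy` : **the local data at a closed point `𝔪`** (`H96.PointDataAt`) from
  - a branch through `𝔪` on every component through `𝔪`,
  - witnesses `wit i ∈ B`: if `wit i ∉ 𝔪 ⊇ Icomp i` then `𝔪` has a local equation datum and `i`
    is the only component through `𝔪` (the ordinary points),
  - the zeros of `rd i (wit i)` on the component `i` are the points `pt i z`, `z ∈ SS`,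
  - a local equation datum at the points `𝔪_z`, `z ∈ SS`, described on ONE reference component
    `i₀` (LOCEQ-SS);
* `pointDataE_of_dichotomy` : the same at all closed points of the special fibre of the chart.
* `pointDataAtE_of_ss` / `pointDataAtE_of_ord` : the two branches of the dichotomy separately.
-/

set_option autoImplicit false
set_option linter.style.haveILetI false

noncomputable section

open AlgebraicCurve

namespace Fermat.Agent.S45.NUE.H88

open Fermat.Agent.RED.H17 Fermat.Agent.RED Fermat.Agent.S36.NU.H16 Fermat.Agent.S36.NU.H79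
  Fermat.Agent.S36.NU.H24 Fermat.Agent.S36.NU.H65 Fermat.Agent.S36.NU.H17
  Fermat.Agent.S36.NU.H99 Fermat.Agent.S45.NUE.H96

section Asm

variable {R F k ι Z K L : Type*} {κ : ι → Type*} [CommRing R] [Field F] [Algebra R F]
  [Field k] [∀ i, Field (κ i)] [∀ i, Algebra k (κ i)] [Fintype ι]
  [Field K] [Field L] [Algebra K L] [Algebra F L]

/-- **The local data at an ordinary point**: `wit i ∉ 𝔪 ⊇ Icomp i`. -/
theorem pointDataAtE_of_ord (C : Chart R F k ι κ) (G : GlueCore K F L k ι Z κ) (q : R)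
    (𝔪 : Ideal C.B)
    (hbr : ∀ i, C.Icomp i ≤ 𝔪 → Nonempty (Branch C 𝔪 i))
    (i : ι) (hL : Nonempty (LocEq C q 𝔪)) (h1 : ∀ i', C.Icomp i' ≤ 𝔪 → i' = i) :
    H96.PointDataAt C G q 𝔪 :=
  ⟨hbr, hL, Or.inl ⟨i, h1⟩⟩

/-- **The local data at a multiple point** `𝔪 = 𝔪_z`, `z ∈ SS`, seen on the component `i`. -/
theorem pointDataAtE_of_ss [Infinite k] (C : Chart R F k ι κ)
    (G : GlueCore K F L k ι Z κ) (q : R)
    (hc : Compat C G.T) (hP : HasPrincipalDivisors K L) (i₀ : ι)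
    (hss : ∀ z ∈ G.SS, ∀ 𝔪 : Ideal C.B, 𝔪.IsMaximal →
      (∀ β : C.B, β ∈ 𝔪 ↔ VanAt (G.T.pt i₀ z) (C.rdB i₀ β)) → Nonempty (LocEq C q 𝔪))
    (𝔪 : Ideal C.B) (hmax : 𝔪.IsMaximal)
    (hbr : ∀ i, C.Icomp i ≤ 𝔪 → Nonempty (Branch C 𝔪 i))
    (z : Z) (hzSS : z ∈ G.SS) (hIn : InChart C G.T z) (i : ι)
    (hvan : ∀ β : C.B, β ∈ 𝔪 ↔ VanAt (G.T.pt i z) (C.rdB i β)) :
    H96.PointDataAt C G q 𝔪 := by
  have hg : Glued G.T z := G.glue z hzSS
  have h0 : ∀ β : C.B, β ∈ 𝔪 ↔ VanAt (G.T.pt i₀ z) (C.rdB i₀ β) := by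
    intro β
    rw [hvan, ← mem_ptMax hc hP hIn i]
    exact mem_ptMax_iff hc hP hIn hg i i₀ β
  exact ⟨hbr, hss z hzSS 𝔪 hmax h0, Or.inr ⟨z, hzSS, hIn, i, hvan⟩⟩

/-- **The local data at a closed point**, from the dichotomy ordinary / multiple point. -/
theorem pointDataAtE_of_dichotomy [Infinite k] (C : Chart R F k ι κ) [IsNoetherianRing C.B]
    (G : GlueCore K F L k ι Z κ) (q : R)
    (hc : Compat C G.T) (hP : HasPrincipalDivisors K L)
    (hSS0 : ∀ z ∈ G.SS, InChart C G.T z)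
    (wit : ι → C.B)
    (hnc : ∀ i, ∃ β : C.B, ∀ c : k, C.rdB i β ≠ algebraMap k (κ i) c)
    (hsurj : ∀ (i : ι) (v : Place k (κ i)), (∀ β : C.B, RegAt v (C.rdB i β)) →
      ∃ z, G.T.pt i z = v)
    (hSSchar : ∀ (i : ι) (z : Z), (∀ β : C.B, RegAt (G.T.pt i z) (C.rdB i β)) →
      VanAt (G.T.pt i z) (C.rdB i (wit i)) → z ∈ G.SS)
    (i₀ : ι)
    (hss : ∀ z ∈ G.SS, ∀ 𝔪 : Ideal C.B, 𝔪.IsMaximal →
      (∀ β : C.B, β ∈ 𝔪 ↔ VanAt (G.T.pt i₀ z) (C.rdB i₀ β)) → Nonempty (LocEq C q 𝔪))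
    (𝔪 : Ideal C.B) (hmax : 𝔪.IsMaximal)
    (hbr : ∀ i, C.Icomp i ≤ 𝔪 → Nonempty (Branch C 𝔪 i))
    (hord : ∀ i, C.Icomp i ≤ 𝔪 → wit i ∉ 𝔪 →
      Nonempty (LocEq C q 𝔪) ∧ ∀ i', C.Icomp i' ≤ 𝔪 → i' = i)
    (hex : ∃ i, C.Icomp i ≤ 𝔪) : H96.PointDataAt C G q 𝔪 := by
  haveI : 𝔪.IsPrime := hmax.isPrime
  obtain ⟨i, hi⟩ := hex
  by_cases hw : wit i ∈ 𝔪
  · obtain ⟨b⟩ := hbr i hi
    obtain ⟨β₀, hβ₀⟩ := hnc i
    have hne : b.O ≠ ⊤ := branch_ne_top b β₀ hβ₀
    obtain ⟨z, hz⟩ := hsurj i (branchPlace b hne) (regAt_branchPlace b hne)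
    have hreg : ∀ β : C.B, RegAt (G.T.pt i z) (C.rdB i β) := by
      rw [hz]
      exact regAt_branchPlace b hne
    have hvan : ∀ β : C.B, β ∈ 𝔪 ↔ VanAt (G.T.pt i z) (C.rdB i β) := by
      intro β
      rw [hz]
      exact (vanAt_branchPlace_iff b hne β).symm
    have hzSS : z ∈ G.SS := hSSchar i z hreg ((hvan _).1 hw)
    exact pointDataAtE_of_ss C G q hc hP i₀ hss 𝔪 hmax hbr z hzSS (hSS0 z hzSS) i hvan
  · obtain ⟨hL, h1⟩ := hord i hi hw
    exact pointDataAtE_of_ord C G q 𝔪 hbr i hL h1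

/-- **The local data at all closed points of the special fibre of a chart.** -/
theorem pointDataE_of_dichotomy [Infinite k] (C : Chart R F k ι κ) [IsNoetherianRing C.B]
    (G : GlueCore K F L k ι Z κ) (q : R)
    (hc : Compat C G.T) (hP : HasPrincipalDivisors K L)
    (hSS0 : ∀ z ∈ G.SS, InChart C G.T z)
    (wit : ι → C.B)
    (hnc : ∀ i, ∃ β : C.B, ∀ c : k, C.rdB i β ≠ algebraMap k (κ i) c)
    (hsurj : ∀ (i : ι) (v : Place k (κ i)), (∀ β : C.B, RegAt v (C.rdB i β)) →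
      ∃ z, G.T.pt i z = v)
    (hSSchar : ∀ (i : ι) (z : Z), (∀ β : C.B, RegAt (G.T.pt i z) (C.rdB i β)) →
      VanAt (G.T.pt i z) (C.rdB i (wit i)) → z ∈ G.SS)
    (i₀ : ι)
    (hss : ∀ z ∈ G.SS, ∀ 𝔪 : Ideal C.B, 𝔪.IsMaximal →
      (∀ β : C.B, β ∈ 𝔪 ↔ VanAt (G.T.pt i₀ z) (C.rdB i₀ β)) → Nonempty (LocEq C q 𝔪))
    (hbr : ∀ 𝔪 : Ideal C.B, 𝔪.IsMaximal → ∀ i, C.Icomp i ≤ 𝔪 → Nonempty (Branch C 𝔪 i))
    (hord : ∀ 𝔪 : Ideal C.B, 𝔪.IsMaximal → ∀ i, C.Icomp i ≤ 𝔪 → wit i ∉ 𝔪 →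
      Nonempty (LocEq C q 𝔪) ∧ ∀ i', C.Icomp i' ≤ 𝔪 → i' = i) :
    H96.PointData C G q := fun 𝔪 hmax hex =>
  pointDataAtE_of_dichotomy C G q hc hP hSS0 wit hnc hsurj hSSchar i₀ hss 𝔪 hmax (hbr 𝔪 hmax)
    (hord 𝔪 hmax) hex

end Asm

end Fermat.Agent.S45.NUE.H88

end
end
-- ==== END Fermat.Agent.S45.NUE.H88_PtAsmE

-- ==== BEGIN Fermat.Agent.S45.NUE.H96_TI3CoreMod
section

/-!
# S45 / NU_e, package E-FIN: TI3 for a gluing core over the inertia-fixed functions (helper96)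

The modular wrapper of `H96.ti3_of_trivRed'` at an ARBITRARY level `N` (`A` over `q`,
`R = Rur A`, `F = L0 A N`, `j = j0 A N`), for a gluing core `G` with ANY number of components:
the instances (noetherian, fraction ring), `hfg`, `n` invertible, `q ≠ 0` not a unit and
"integral over `Rur A` ⟹ constant" are discharged by the landed S36 providers (helper74 INST-A,
helper15 INST-B, helper65), which are generic in the level.

* `hor_core` : (HOR) in every chart, with the exponent `E₀` of helper44's `stmt_HOR`;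
* `ti3Core_point` : ONE exponent `n` prime to `q`, ONE function `H` with (HOR) in both charts and
  trivial reduction data ⟹ `H * s ^ n` is a constant for some `s ≠ 0` fixed by inertia.
-/

set_option autoImplicit false
set_option synthInstance.maxHeartbeats 400000
set_option maxHeartbeats 1000000
set_option linter.style.haveILetI false
set_option linter.unusedSectionVars false

noncomputable section

open ModularCurve AlgebraicCurve IntermediateField

attribute [local instance] Classical.propDecidable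

namespace Fermat.Agent.S45.NUE.H96

open Fermat.Agent.RED.H17 Fermat.Agent.RED Fermat.Agent.S36.NU.H16 Fermat.Agent.S36.NU.H79
  Fermat.Agent.S36.NU.H65 Fermat.Agent.S36.NU.H17 Fermat.Agent.S36.NU.H24
  Fermat.Agent.S24 Fermat.Agent.BAD.H88 Fermat.Agent.S36.NU.H23 Fermat.Agent.S36.NU.H41
  Fermat.Agent.S36.NU.H88 Fermat.Agent.S36.NU.H74

section Modular

variable (A : ValuationSubring Kbar) (q N : ℕ) (hq : q.Prime) [NeZero N]
  {kk ι Z K L : Type*} {κ : ι → Type*} [Field kk] [∀ i, Field (κ i)]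
  [∀ i, Algebra kk (κ i)] [Fintype ι] [Field K] [Field L] [Algebra K L]
  [Algebra ↥(L0 A N) L]

include hq in
/-- **TI3 for a gluing core, modular wrapper, pointwise form**: at the level `N`, for ONE
exponent `n` prime to `q` and ONE function `H ≠ 0` (a unit for the reductions of `G`, with (HOR)
in both charts and trivial reduction data), `H` is a constant times an `n`-th power of an
`I`-fixed function. -/
theorem ti3Core_point [IsAlgClosed kk] (hA : A.LiesOverPrime q)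
    (G : GlueCore K ↥(L0 A N) L kk ι Z κ)
    (C0 Coo : Chart ↥(Rur A) ↥(L0 A N) kk ι κ)
    (hc0 : Compat C0 G.T) (hcoo : Compat Coo G.T) (hP : HasPrincipalDivisors K L)
    (hB0 : C0.B = intSub ↥(Rur A) (j0 A N))
    (hBoo : Coo.B = intSub ↥(Rur A) (j0 A N)⁻¹)
    (qn n : ℕ) (hcop : Nat.Coprime n q)
    (hchart0 : ChartHyp C0 qn n) (hchartoo : ChartHyp Coo qn n)
    (hpt0 : _root_.Fermat.Agent.S45.NUE.H96.PointData C0 G ((q : ℕ) : ↥(Rur A)))
    (hptoo : ∀ 𝔪 : Ideal Coo.B, 𝔪.IsMaximal → (∃ i, Coo.Icomp i ≤ 𝔪) →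
      (∀ β : Coo.B, (β : ↥(L0 A N)) = (j0 A N)⁻¹ → β ∈ 𝔪) →
      _root_.Fermat.Agent.S45.NUE.H96.PointDataAt Coo G ((q : ℕ) : ↥(Rur A)) 𝔪)
    (hrad0 : ∀ β ∈ C0.B, (∀ i, C0.rd i β = 0) → IsRadQ C0.B ((q : ℕ) : ↥(Rur A)) β)
    (hradoo : ∀ β ∈ Coo.B, (∀ i, Coo.rd i β = 0) → IsRadQ Coo.B ((q : ℕ) : ↥(Rur A)) β)
    (H : ↥(L0 A N)) (H0 : H ≠ 0) (hu : ∀ i, G.T.rdN i H ≠ 0)
    (hHOR0 : HOR C0 ((q : ℕ) : ↥(Rur A)) n H) (hHORoo : HOR Coo ((q : ℕ) : ↥(Rur A)) n H)
    (htriv : G.TrivRed n H) :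
    ∃ (s : ↥(L0 A N)) (c : Kbar), s ≠ 0 ∧
      (H : FN N) * (s : FN N) ^ n = algebraMap Kbar (FN N) c := by
  haveI := isDiscreteValuationRing_Rur A q hq hA
  haveI : IsNoetherianRing ↥C0.B := isNoetherianRing_chart A q hq hA N C0 (Or.inl hB0)
  haveI : IsFractionRing ↥C0.B ↥(L0 A N) := isFractionRing_chart A N C0 (Or.inl hB0)
  haveI : IsNoetherianRing ↥Coo.B := isNoetherianRing_chart A q hq hA N Coo (Or.inr hBoo)
  haveI : IsFractionRing ↥Coo.B ↥(L0 A N) := isFractionRing_chart A N Coo (Or.inr hBoo)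
  -- `n` is invertible in `R`
  obtain ⟨n', hnn⟩ := (isUnit_natCast_Rur A q hq hA n hcop).exists_right_inv
  have hq0 : ((q : ℕ) : ↥(Rur A)) ≠ 0 := by exact_mod_cast hq.ne_zero
  have hqu : ¬ IsUnit ((q : ℕ) : ↥(Rur A)) := (irreducible_natCast A q hq hA).not_isUnit
  obtain ⟨s, hs0, hsint⟩ := ti3_of_trivRed' G ↥(Kur A) C0 Coo hc0 hcoo hP qn n hchart0 hchartoo
    (j0 A N) (transcendental_j0 A N) hB0 hBoo ((q : ℕ) : ↥(Rur A)) hq0 hqu n'
    hnn hpt0 hptoo hrad0 hradoo H H0 hu hHOR0 hHORoo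
    (hfg_inv A q hq hA N H H0 n hchart0.n_pos) htriv
  obtain ⟨c, hc⟩ := Fermat.Agent.S36.NU.H15.hconst_L0 A N _ hsint
  exact ⟨s, c, hs0, by rw [← hc]; rfl⟩

end Modular

end Fermat.Agent.S45.NUE.H96

end
end
-- ==== END Fermat.Agent.S45.NUE.H96_TI3CoreMod

-- ==== BEGIN Fermat.Agent.S45.NUE.Top
section
attribute [local instance 10000] SubalgebraClass.toAlgebra
attribute [local instance 10000] HahnSeries.powerSeriesAlgebra

/-!
# S45 / NU_e, E-TOP (helper68): `Stmt_NUCoreEK M q` from the two modular targets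

Level `M * q` (any `M`), `A` a valuation ring of `ℚ̄` over `q`, `L0 A (M * q)` the inertia-fixed
functions, `U : L0 A (M * q) → Prop` ANY predicate ("`h` is a unit for the `e + 1` valuations").

* `lvlE M' q e` : the level `M' q ^ e`, with `lvlE M' q (e + 1) = lvlE M' q e * q` BY `rfl`
  (so that `heckeAlphaBar ℚ̄ (lvlE M' q e) q : F_{lvlE e} → F_{lvlE (e + 1)}` typechecks);
* `IsNormPowE A φ n h` : the norm of `h` along `φ` is `c gⁿ`, `c`, `g` fixed by inertia;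
* `FinModE A q M U` (target of E-FIN): a `U`-unit `h` with `n ∣ div h` and norms `c gⁿ` along
  `α`, `β` has `h ^ E = constant · n`-th power (`E ≠ 0` fixed, `n` prime to `6 q (q² - 1)`);
* `ValVecE A q M U` (target of E-VV): for `f ≠ 0` with norms `c gⁿ` there are `b`, `w` with
  `f ^ K q ^ (-b) wⁿ` a `U`-unit (`K ≠ 0` fixed);
* `nuCoreEK_of : FinModE → ValVecE → Stmt_NUCoreEK M q` (needs `A.LiesOverPrime q`);
* `exists_lvlE` : every `M` with `q ^ 2 ∣ M` is `lvlE M' q e` with `q ∤ M'`, `2 ≤ e`.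
-/

set_option autoImplicit false
set_option linter.style.haveILetI false
set_option linter.unusedSectionVars false
set_option maxHeartbeats 1000000
set_option synthInstance.maxHeartbeats 400000

noncomputable section

open ModularCurve AlgebraicCurve
open Fermat.Agent.S24 Fermat.Agent.BAD Fermat.Agent.BAD.H88 Fermat.Agent.Lib.HeckeComm
open Fermat.Agent.S36.NU.H23 Fermat.Agent.S36.NU.H81 Fermat.Agent.S36.NU.H10
open Fermat.Agent.S36.H44

namespace Fermat.Agent.S45.NUE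

/-- The level `M' q ^ e`, in the form `(… (M' * q) * q …) * q`. -/
def lvlE (M' q : ℕ) : ℕ → ℕ
  | 0 => M'
  | e + 1 => lvlE M' q e * q

@[simp] theorem lvlE_zero (M' q : ℕ) : lvlE M' q 0 = M' := rfl

theorem lvlE_succ (M' q e : ℕ) : lvlE M' q (e + 1) = lvlE M' q e * q := rfl

theorem lvlE_eq (M' q e : ℕ) : lvlE M' q e = M' * q ^ e := by
  induction e with
  | zero => simp
  | succ e ih => rw [lvlE_succ, ih, pow_succ, mul_assoc]

theorem lvlE_ne_zero {M' q : ℕ} (hM : M' ≠ 0) (hq : q ≠ 0) (e : ℕ) : lvlE M' q e ≠ 0 := by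
  rw [lvlE_eq]
  exact Nat.mul_ne_zero hM (pow_ne_zero e hq)

instance instNeZeroLvlE (M' q e : ℕ) [NeZero M'] [NeZero q] : NeZero (lvlE M' q e) :=
  ⟨lvlE_ne_zero (NeZero.ne M') (NeZero.ne q) e⟩

/-- Every `M ≠ 0` with `q ^ 2 ∣ M` is `lvlE M' q e` with `q ∤ M'` and `2 ≤ e`. -/
theorem exists_lvlE {q : ℕ} (hq : q.Prime) {M : ℕ} (hM : M ≠ 0) (h2 : q ^ 2 ∣ M) :
    ∃ M' e : ℕ, M' ≠ 0 ∧ ¬ q ∣ M' ∧ 2 ≤ e ∧ M = lvlE M' q e := by
  obtain ⟨e, M', hM', hMe⟩ := Nat.exists_eq_pow_mul_and_not_dvd hM q hq.ne_one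
  refine ⟨M', e, ?_, hM', ?_, ?_⟩
  · rintro rfl
    exact hM (by rw [hMe, mul_zero])
  · by_contra hlt
    push Not at hlt
    have hle : e ≤ 1 := by omega
    have h3 : q ^ 2 ∣ q ^ e * M' := hMe ▸ h2
    have hco : Nat.Coprime (q ^ 2) M' :=
      Nat.Coprime.pow_left 2 ((Nat.Prime.coprime_iff_not_dvd hq).mpr hM')
    have h4 : q ^ 2 ∣ q ^ e := hco.dvd_of_dvd_mul_right h3
    have h5 := (Nat.pow_dvd_pow_iff_le_right hq.one_lt).mp h4
    omega
  · rw [lvlE_eq, hMe, mul_comm]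

section Main

variable (A : ValuationSubring Kbar) (q M : ℕ) [NeZero M] [NeZero q]

/-- The norm of `h` along `φ` is `c gⁿ` with `c ∈ ℚ̄` and `g` fixed by the inertia group. -/
def IsNormPowE {M N : ℕ} (φ : FN M →ₐ[Kbar] FN N) (n : ℕ) (h : FN N) : Prop :=
  ∃ (c : Kbar) (g : FN M), (∀ σ ∈ A.inertiaSubgroupIn ℚ, σ c = c) ∧ g ∈ L0 A M ∧
    normAlongHom φ.toRingHom h = algebraMap Kbar (FN M) c * g ^ n

/-- **Target of E-FIN**: a `U`-unit with `n ∣ div h` and norms `c gⁿ` is, up to the exponent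
`E`, a constant times an `n`-th power. -/
def FinModE (U : ↥(L0 A (M * q)) → Prop) : Prop :=
  ∃ E : ℕ, E ≠ 0 ∧ ∀ n : ℕ, 0 < n → GoodExp q n →
    ∀ h : ↥(L0 A (M * q)), U h →
      (∀ P : Place Kbar (FN (M * q)), (n : ℤ) ∣ P.ord (h : FN (M * q))) →
      IsNormPowE A (heckeAlphaBar Kbar M q) n (h : FN (M * q)) →
      IsNormPowE A (heckeBetaBar Kbar M q) n (h : FN (M * q)) →
      ∃ (s : FN (M * q)) (c : Kbar), s ≠ 0 ∧
        (h : FN (M * q)) ^ E * s ^ n = algebraMap Kbar (FN (M * q)) c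

/-- **Target of E-VV**: `f ^ K q ^ (-b) wⁿ` is a `U`-unit for suitable `b`, `w`. -/
def ValVecE (U : ↥(L0 A (M * q)) → Prop) : Prop :=
  ∃ K : ℕ, K ≠ 0 ∧ ∀ n : ℕ, 0 < n → GoodExp q n → ∀ f : ↥(L0 A (M * q)), f ≠ 0 →
    IsNormPowE A (heckeAlphaBar Kbar M q) n (f : FN (M * q)) →
    IsNormPowE A (heckeBetaBar Kbar M q) n (f : FN (M * q)) →
    ∃ (b : ℤ) (w : ↥(L0 A (M * q))), w ≠ 0 ∧
      U (f ^ K * ((q : ℕ) : ↥(L0 A (M * q))) ^ (-b) * w ^ n)

/-- The norm of a constant is a constant. -/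
theorem normAlongHom_constE {M N : ℕ} (φ : FN M →ₐ[Kbar] FN N) (c : Kbar) :
    ∃ d : ℕ, normAlongHom φ.toRingHom (algebraMap Kbar (FN N) c)
      = algebraMap Kbar (FN M) (c ^ d) := by
  refine ⟨(letI := φ.toRingHom.toAlgebra; Module.finrank (FN M) (FN N)), ?_⟩
  have h1 : algebraMap Kbar (FN N) c = φ.toRingHom (algebraMap Kbar (FN M) c) :=
    (φ.commutes c).symm
  rw [h1, normAlongHom_apply, map_pow]

/-- `IsNormPowE` is stable under `f ↦ f ^ E * const * wⁿ`. -/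
theorem isNormPowE_mul {M N : ℕ} (φ : FN M →ₐ[Kbar] FN N) (n : ℕ) (E : ℕ)
    (f w : FN N) (c₀ : Kbar) (hc₀ : ∀ σ ∈ A.inertiaSubgroupIn ℚ, σ c₀ = c₀)
    (hw : normAlongHom φ.toRingHom w ∈ L0 A M)
    (hf : IsNormPowE A φ n f) :
    IsNormPowE A φ n (f ^ E * algebraMap Kbar (FN N) c₀ * w ^ n) := by
  obtain ⟨c, g, hc, hg, hN⟩ := hf
  obtain ⟨d, hd⟩ := normAlongHom_constE φ c₀
  refine ⟨c ^ E * c₀ ^ d, g ^ E * normAlongHom φ.toRingHom w, ?_, ?_, ?_⟩
  · intro σ hσ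
    rw [map_mul, map_pow, map_pow, hc σ hσ, hc₀ σ hσ]
  · exact mul_mem (pow_mem hg E) hw
  · rw [normAlongHom_mul, normAlongHom_mul, normAlongHom_pow, normAlongHom_pow, hN, hd,
      map_mul, map_pow, map_pow]
    ring

/-- **E-TOP**: `Stmt_NUCoreEK M q` from the two modular targets. -/
theorem nuCoreEK_of [NeZero (M * q)] (hq : q.Prime) (hA : A.LiesOverPrime q)
    (U : ↥(L0 A (M * q)) → Prop) (hFin : FinModE A q M U) (hVV : ValVecE A q M U) :
    Stmt_NUCoreEK M q := by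
  intro _ _
  obtain ⟨E, hE0, hE⟩ := hFin
  obtain ⟨K, hK0, hK⟩ := hVV
  refine ⟨A, hA, K * E, Nat.mul_ne_zero hK0 hE0, ?_⟩
  intro n hgood f hf0 hdiv hI _ hα hβ D hD hpα hpβ
  have hqn : ¬ q ∣ n := by
    intro hd
    have h1 : q ∣ 6 * q * (q - 1) * (q + 1) :=
      Dvd.dvd.mul_right (Dvd.dvd.mul_right (Dvd.intro_left 6 rfl) _) _
    have h2 : q ∣ Nat.gcd n (6 * q * (q - 1) * (q + 1)) := Nat.dvd_gcd hd h1
    rw [show Nat.gcd n (6 * q * (q - 1) * (q + 1)) = 1 from hgood] at h2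
    exact hq.one_lt.ne' (Nat.dvd_one.mp h2)
  have hn : 0 < n := Nat.pos_of_ne_zero (by rintro rfl; exact hqn (dvd_zero q))
  have hfL : f ∈ L0 A (M * q) := mem_L0_of_galF A f hI
  -- DIV → NORM (helper26)
  obtain ⟨cα, gα, -, hcα, -, hgα, -, hNα'⟩ :=
    Fermat.Agent.S36.NU.H26.divNorm_L0_alpha A M q n hn.ne' f hf0 hI hα D hD hpα
  obtain ⟨cβ, gβ, -, hcβ, -, hgβ, -, hNβ'⟩ :=
    Fermat.Agent.S36.NU.H26.divNorm_L0_beta A M q n hn.ne' f hf0 hI hβ D hD hpβ
  have hNα : IsNormPowE A (heckeAlphaBar Kbar M q) n f := ⟨cα, gα, hcα, hgα, hNα'⟩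
  have hNβ : IsNormPowE A (heckeBetaBar Kbar M q) n f := ⟨cβ, gβ, hcβ, hgβ, hNβ'⟩
  have hf0' : (⟨f, hfL⟩ : ↥(L0 A (M * q))) ≠ 0 := fun h => hf0 (congrArg Subtype.val h)
  obtain ⟨b, w, hw0, hU⟩ := hK n hn hgood ⟨f, hfL⟩ hf0' hNα hNβ
  -- the constant `q ^ (-b)`
  set c₀ : Kbar := ((q : ℕ) : Kbar) ^ (-b) with hc₀
  have hq0 : ((q : ℕ) : Kbar) ≠ 0 := Nat.cast_ne_zero.mpr hq.ne_zero
  have hc₀0 : c₀ ≠ 0 := zpow_ne_zero _ hq0
  have hc₀I : ∀ σ ∈ A.inertiaSubgroupIn ℚ, σ c₀ = c₀ := fun σ _ => by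
    rw [hc₀, map_zpow₀, map_natCast]
  set h : ↥(L0 A (M * q)) :=
    (⟨f, hfL⟩ : ↥(L0 A (M * q))) ^ K * ((q : ℕ) : ↥(L0 A (M * q))) ^ (-b) * w ^ n
    with hh
  have hcoe : (h : FN (M * q))
      = f ^ K * algebraMap Kbar (FN (M * q)) c₀ * (w : FN (M * q)) ^ n := by
    rw [hh, hc₀, map_zpow₀, map_natCast]
    push_cast
    rfl
  have hw0' : (w : FN (M * q)) ≠ 0 := fun h0 => hw0 (Subtype.ext h0)
  have hC0 : algebraMap Kbar (FN (M * q)) c₀ ≠ 0 :=
    (map_ne_zero (algebraMap Kbar (FN (M * q)))).2 hc₀0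
  have hdivh : ∀ P : Place Kbar (FN (M * q)), (n : ℤ) ∣ P.ord (h : FN (M * q)) := by
    intro P
    rw [hcoe, Place.ord_mul P (mul_ne_zero (pow_ne_zero _ hf0) hC0) (pow_ne_zero _ hw0'),
      Place.ord_mul P (pow_ne_zero _ hf0) hC0, Fermat.Agent.RED.H17.ord_pow,
      Fermat.Agent.RED.H17.ord_pow, Fermat.Agent.RED.H17.ord_algebraMap, add_zero]
    exact dvd_add (Dvd.dvd.mul_left (hdiv P) _) (dvd_mul_right _ _)
  have hNFα := Fermat.Agent.S36.NU.H26.norm_mem_L0 A (heckeAlphaBar Kbar M q)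
    (Fermat.Agent.S36.NU.H26.arithEquivariant_alpha M q) (alpha_finite M q) w w.2
  have hNFβ := Fermat.Agent.S36.NU.H26.norm_mem_L0 A (heckeBetaBar Kbar M q)
    (Fermat.Agent.S36.NU.H26.arithEquivariant_beta M q) (beta_finite M q) w w.2
  have hNαh : IsNormPowE A (heckeAlphaBar Kbar M q) n (h : FN (M * q)) := by
    rw [hcoe]
    exact isNormPowE_mul A _ n K f w c₀ hc₀I hNFα hNα
  have hNβh : IsNormPowE A (heckeBetaBar Kbar M q) n (h : FN (M * q)) := by
    rw [hcoe]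
    exact isNormPowE_mul A _ n K f w c₀ hc₀I hNFβ hNβ
  obtain ⟨s, c, hs0, hsc⟩ := hE n hn hgood h hU hdivh hNαh hNβh
  obtain ⟨γ, hγ⟩ := IsAlgClosed.exists_pow_nat_eq (c * (c₀⁻¹) ^ E) hn
  refine ⟨algebraMap Kbar (FN (M * q)) γ * ((w : FN (M * q)) ^ E * s)⁻¹, ?_⟩
  have hWs : ((w : FN (M * q)) ^ E * s) ^ n ≠ 0 :=
    pow_ne_zero _ (mul_ne_zero (pow_ne_zero _ hw0') hs0)
  rw [mul_pow, inv_pow, ← map_pow, hγ, map_mul, map_pow, map_inv₀, ← hsc, hcoe,
    mul_inv_eq_iff_eq_mul₀ hWs]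
  have hCE : algebraMap Kbar (FN (M * q)) c₀ ^ E ≠ 0 := pow_ne_zero _ hC0
  rw [inv_pow]
  have key : (f ^ K * algebraMap Kbar (FN (M * q)) c₀ * (w : FN (M * q)) ^ n) ^ E
        * s ^ n * (algebraMap Kbar (FN (M * q)) c₀ ^ E)⁻¹
      = f ^ (K * E) * ((w : FN (M * q)) ^ E * s) ^ n
        * (algebraMap Kbar (FN (M * q)) c₀ ^ E * (algebraMap Kbar (FN (M * q)) c₀ ^ E)⁻¹) := by
    ring
  rw [key, mul_inv_cancel₀ hCE, mul_one]

end Main

/-- **The two modular targets at the level `lvlE M' q (e + 1)`**, `q ∤ M'`, `2 ≤ e`, tame: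
for SOME valuation ring `A` over `q` and SOME predicate `U`. -/
def Stmt_FinTopE (q M' e : ℕ) [NeZero M'] [NeZero q] : Prop :=
  q.Prime → ¬ q ∣ M' → 2 ≤ e → TameNU (lvlE M' q e) q →
    ∃ (A : ValuationSubring Kbar) (U : ↥(L0 A (lvlE M' q e * q)) → Prop), A.LiesOverPrime q ∧
      FinModE A q (lvlE M' q e) U ∧ ValVecE A q (lvlE M' q e) U

/-- **THE TARGET `Stmt_NUCoreETame`** from the modular targets at all tame levels. -/
theorem nuCoreETame_of
    (h : ∀ (q M' e : ℕ) [NeZero M'] [NeZero q], Stmt_FinTopE q M' e) : Stmt_NUCoreETame := by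
  intro M q _ _ ht hq hqM
  obtain ⟨M', e, hM'0, hqM', he, rfl⟩ := exists_lvlE hq (NeZero.ne M) hqM
  haveI : NeZero M' := ⟨hM'0⟩
  haveI : NeZero (lvlE M' q e * q) :=
    ⟨Nat.mul_ne_zero (NeZero.ne (lvlE M' q e)) hq.ne_zero⟩
  obtain ⟨A, U, hA, hFin, hVV⟩ := h q M' e hq hqM' he ht
  exact nuCoreEK_of A q (lvlE M' q e) hq hA U hFin hVV hq hqM

end Fermat.Agent.S45.NUE

end
end
-- ==== END Fermat.Agent.S45.NUE.Top
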