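-- GENERATED (merged mirror, NOTES/tools/trim/merge3_helper67.py): 5 modules of the originals, bodies verbatim.
import Fermat.Agent.Zm.S35_L24_000
import Fermat.Agent.Zm.S35_L05_005
import Fermat.Agent.Zm.S35_L04_002
import Fermat.Agent.Zm.S45_L02_000
import Fermat.Agent.Zm.S36_L04_002
import Fermat.Agent.Zm.S45_L02_002
import Fermat.Agent.Zm.S45_L01_002
import Fermat.Agent.Zm.S36_L13_000
import Fermat.Agent.Zm.S36_L02_002
import Fermat.Agent.Zm.S43_L01_000
import Fermat.Agent.Zm.S45_L02_001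
import Fermat.Agent.Zm.S45_L01_001

-- ==== BEGIN Fermat.Agent.S45.H43_Chain
section

/-!
# S45 (helper43): the chain from the torsion-level statements (NU) to `Stmt_S36e`

* `S45.NUE.Stmt_TorsNUE M q p` (helper68) : the torsion-level statement (NU) at level `M * q`
  with `q ^ 2 ∣ M` (exponent `e ≥ 3`), test prime `p > q + 1`.
* `Stmt_TatePieceNUall` : a Tate piece of a newform of level `M` without inertia invariants at
  EVERY prime `q` with `q ^ 2 ∣ M`, `q + 1 < lam`.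
* `tatePieceNUall_of` : from `S35.H89.Stmt_TorsNU` (exponent 2, S36) and `S45.NUE.Stmt_TorsNUE`
  (exponent `≥ 3`) at all levels.
* `s36e_of : Stmt_AssembleS → Stmt_TatePieceNUall → Stmt_S36e`.
* `s36e_final : (∀ M q p, Stmt_TorsNU M q p) → (∀ M q p, NUE.Stmt_TorsNUE M q p) → Stmt_S36e`;
* `s36e_of_cores : S36.NU.H81.Stmt_NUCoreTame → NUE.Stmt_NUCoreETame → Stmt_S36e`.

Copies of `GTor/H81_TX.lean` (`nu_clause`, `tatePieceNU_of`) and `S35/H89_Final.lean` (`s36_of`),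
which never use `¬ q ^ 2 ∣ M`.
-/

set_option autoImplicit false
set_option linter.unusedSectionVars false

noncomputable section

open Polynomial
open CuspForm CuspForm.IsNewform

namespace Fermat.Agent.S45.H43

open AlgebraicCurve ModularCurve Fermat.Agent.GTor Fermat.Agent.GTor.H58T1
open Fermat.Agent.Betti.H76 Fermat.Agent.S35.H89 Fermat.Agent.GTor.H81
open Fermat.Agent.S30 Fermat.Agent.S35

/-- **Interface: a Tate piece without inertia invariants at all primes `q` with `q² ∣ M`.** -/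
def Stmt_TatePieceNUall : Prop :=
  ∀ {M : ℕ} [NeZero M] {g : CuspForm (CongruenceSubgroup.Gamma0 M) 2} (_hg : g.IsNewform)
    (lam : ℕ) [Fact lam.Prime]
    (S : Finset ℕ)
    (O' : Type) [CommRing O'] [IsDomain O'] [IsDiscreteValuationRing O']
    [IsAdicComplete (IsLocalRing.maximalIdeal O') O'] [Finite (IsLocalRing.ResidueField O')]
    [CharZero O'] (_hlamO' : (lam : O') ∈ IsLocalRing.maximalIdeal O')
    (chig : CuspForm.heckeAlgebra M 2 (↑S : Set ℕ) →+* ℂ)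
    (_hchig : ∀ (ℓ : ℕ) (hℓ : ℓ.Prime) (hℓM : ¬ ℓ ∣ M) (hℓS : ℓ ∉ (↑S : Set ℕ)),
      chig (CuspForm.heckeAlgebra.T hℓ hℓM hℓS) = ModularFormClass.qCoeff g ℓ)
    (iota : chig.range →+* O')
    (_hlamS : lam ∈ S) (_hMS : ∀ q : ℕ, q.Prime → q ∣ M → q ∈ S),
    ∃ (r : ℕ) (ρ : Fermat.Agent.S30.GQ →* Matrix (Fin r) (Fin r) O'), 0 < r ∧ MatAdicCont ρ ∧
      (∀ (ℓ : ℕ) (hℓ : ℓ.Prime) (hℓM : ¬ ℓ ∣ M) (hℓS : ℓ ∉ (↑S : Set ℕ)),
        ∀ A : ValuationSubring (AlgebraicClosure ℚ), A.LiesOverPrime ℓ →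
          ∀ σ : Fermat.Agent.S30.GQ, A.IsFrobeniusAt σ ℓ →
            ρ σ * ρ σ - (iota.comp chig.rangeRestrict) (CuspForm.heckeAlgebra.T hℓ hℓM hℓS) • ρ σ
              + (ℓ : O') • (1 : Matrix _ _ O') = 0) ∧
      (∀ q : ℕ, q.Prime → q + 1 < lam → q ^ 2 ∣ M →
        ∃ P : ValuationSubring (AlgebraicClosure ℚ), P.LiesOverPrime q ∧
          ∀ v : Fin r → O', (∀ σ ∈ P.inertiaSubgroupIn ℚ, (ρ σ).mulVec v = v) → v = 0)

section Clauses

variable {M q p : ℕ} [NeZero M] [NeZero q] [Fact p.Prime]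

/-- **the Carayol clause at exponent `≥ 3`** at level `M * q`, `q ^ 2 ∣ M`. -/
theorem nu_clauseE (hNU : Fermat.Agent.S45.NUE.Stmt_TorsNUE M q p) (hY : Stmt_Y1 M q)
    (hS30 : Fermat.Agent.R.Stmt_S30)
    {g : CuspForm (CongruenceSubgroup.Gamma0 (M * q)) 2} (hg : g.IsNewform) (S : Finset ℕ)
    (hS : ∀ l : ℕ, l.Prime → l ∣ M * q → l ∈ S)
    (O' : Type) [CommRing O'] [IsDomain O'] [IsDiscreteValuationRing O']
    [IsAdicComplete (IsLocalRing.maximalIdeal O') O'] [CharZero O']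
    (hpO' : (p : O') ∈ IsLocalRing.maximalIdeal O')
    (chig : CuspForm.heckeAlgebra (M * q) 2 (↑S : Set ℕ) →+* ℂ)
    (hchig : ∀ (ℓ : ℕ) (hℓ : ℓ.Prime) (hℓM : ¬ ℓ ∣ M * q) (hℓS : ℓ ∉ (↑S : Set ℕ)),
      chig (CuspForm.heckeAlgebra.T hℓ hℓM hℓS) = ModularFormClass.qCoeff g ℓ)
    (iota : chig.range →+* O')
    {C : TateCoords (M * q) p (↑S : Set ℕ)} (L : TateLimit C O' hpO') (Pc : SubPiece L.ρL)
    (hPc : ∀ t, Mc O' C.M t * Pc.P = (iota.comp chig.rangeRestrict) t • Pc.P)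
    (hq : q.Prime) (hqp : q + 1 < p) (hq2 : q ^ 2 ∣ M) :
    ∃ P : ValuationSubring (AlgebraicClosure ℚ), P.LiesOverPrime q ∧
      ∀ v : Fin Pc.d → O', (∀ σ ∈ P.inertiaSubgroupIn ℚ, (Pc.rep σ).mulVec v = v) → v = 0 := by
  have hpp : p.Prime := Fact.out
  obtain ⟨A, hA, c, hc⟩ := hNU hq hq2 hpp hqp
  obtain ⟨w, hw0, hw1⟩ := exists_oldKiller hS30 hq.ne_one hg S chig hchig
  have hS' : ∀ l : ℕ, l.Prime → l ∣ M * q → l ∈ (↑S : Set ℕ) := fun l hl h =>
    Finset.mem_coe.2 (hS l hl h)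
  have ha0 := iota_comp_ne_zero chig iota _ hw1
  have hp0 : (p : O') ≠ 0 := Nat.cast_ne_zero.2 hpp.ne_zero
  exact ⟨A, hA, fun v hv => piece_NU L Pc hY hS' hc hw0 _ (hPc _) ha0 hp0 v hv⟩

end Clauses

/-- **T-NU for all exponents**: the Tate piece of a newform has no inertia invariants at any
prime `q` with `q² ∣ M` (`q + 1 < lam`). -/
theorem tatePieceNUall_of
    (hNU : ∀ (M q p : ℕ) [NeZero M] [NeZero q], Stmt_TorsNU M q p)
    (hNUE : ∀ (M q p : ℕ) [NeZero M] [NeZero q], Fermat.Agent.S45.NUE.Stmt_TorsNUE M q p)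
    (hY : ∀ (M q : ℕ) [NeZero M] [NeZero q], Stmt_Y1 M q)
    (hS30 : Fermat.Agent.R.Stmt_S30)
    (hRed : ∀ (N : ℕ) [NeZero N] (p : ℕ), p.Prime → AllRed N p) :
    Stmt_TatePieceNUall := by
  intro M _ g hg lam hlam S O' _ _ _ _ _ _ hlamO' chig hchig iota hlamS hMS
  have hpp : lam.Prime := hlam.out
  obtain ⟨C⟩ := tateCoords M lam (↑S : Set ℕ) hpp
    (fun q hq hqM => Finset.mem_coe.2 (hMS q hq hqM))
  obtain ⟨L⟩ := exists_tateLimit C O' hlamO'
  obtain ⟨Pc, hPc⟩ := exists_piece_eig L (iota.comp chig.rangeRestrict)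
  refine ⟨Pc.d, Pc.rep, Pc.pos, L.cont_piece Pc, ?_, ?_⟩
  · intro ℓ hℓ hℓN hℓS A hA σ hσ
    have hℓp : ℓ ≠ lam := by
      rintro rfl
      exact hℓS (Finset.mem_coe.2 hlamS)
    exact piece_ES L Pc (torsES_of_red hpp (hRed M lam hpp)) hℓ hℓN hℓp hℓS _ (hPc _) A hA σ hσ
  · intro q hq hqlam h2
    have hM0 : M ≠ 0 := NeZero.ne M
    have hqlam' : q ≠ lam := by omega
    obtain ⟨t, ht⟩ := h2
    have : NeZero q := ⟨hq.ne_zero⟩
    by_cases h3 : q ^ 3 ∣ M
    · -- exponent ≥ 3: `M = M₀ q` with `q² ∣ M₀`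
      obtain ⟨s, hs⟩ := h3
      obtain ⟨M₀, hM, hq2M₀⟩ : ∃ M₀, M = M₀ * q ∧ q ^ 2 ∣ M₀ :=
        ⟨q ^ 2 * s, by rw [hs]; ring, Dvd.intro s rfl⟩
      subst hM
      have : NeZero M₀ := ⟨fun h => NeZero.ne (M₀ * q) (by rw [h, zero_mul])⟩
      exact nu_clauseE (hNUE M₀ q lam) (hY M₀ q) hS30 hg S hMS O' hlamO' chig hchig iota L Pc
        hPc hq hqlam hq2M₀
    · -- exponent 2: `M = M₀ q` with `q ∥ M₀` (S36)
      obtain ⟨M₀, hM, hqM₀, hq2M₀⟩ : ∃ M₀, M = M₀ * q ∧ q ∣ M₀ ∧ ¬ q ^ 2 ∣ M₀ := by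
        refine ⟨q * t, by rw [ht]; ring, Dvd.intro t rfl, fun h => h3 ?_⟩
        have h4 : q ∣ t := by
          rw [pow_two] at h
          exact Nat.dvd_of_mul_dvd_mul_left hq.pos h
        obtain ⟨s, rfl⟩ := h4
        exact ⟨s, by rw [ht]; ring⟩
      subst hM
      have : NeZero M₀ := ⟨fun h => NeZero.ne (M₀ * q) (by rw [h, zero_mul])⟩
      exact nu_clause (hNU M₀ q lam) (hY M₀ q) hS30 hg S hMS O' hlamO' chig hchig iota L Pc
        hPc hq hqlam' hqM₀ hq2M₀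

/-- **`Stmt_S36e` from the structural assembly and the Tate piece without inertia invariants.** -/
theorem s36e_of (hS : Stmt_AssembleS) (hT : Stmt_TatePieceNUall) : Stmt_S36e := by
  intro M _ g hg lam _ S O' _ _ _ _ _ _ hlamO' chig hchig iota hlamS hMS
  obtain ⟨r, ρ, hr, hcont, hES, hNU⟩ := hT hg lam S O' hlamO' chig hchig iota hlamS hMS
  obtain ⟨ε, hε1, hε2, hES', -⟩ :=
    H89.core lam S O' hlamO' (iota.comp chig.rangeRestrict) hlamS hMS r ρ hES
  obtain ⟨O'', i1, i2, i3, i4, i5, i6, i7, i8, i9, hinj, ρ'', hF, -, -, -, hN⟩ :=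
    assembleX_of_assembleS hS O' S (H89.aOf S (iota.comp chig.rangeRestrict)) r hr ρ ε
      hcont hε1 hES' hε2
  refine ⟨O'', i1, i2, i3, i4, i5, i6, i7, i8, i9, hinj, ρ'', ?_, ?_⟩
  · intro ℓ hℓ hℓM hℓS A hA σ hσ
    have hℓS' : ℓ ∉ S := fun h => hℓS (Finset.mem_coe.2 h)
    rw [hF ℓ hℓ hℓS' A hA σ hσ, H89.aOf_eq S _ ℓ hℓ hℓM hℓS]
  · intro q hq hqlam hq2 hU
    obtain ⟨P, hP, hfix⟩ := hNU q hq hqlam hq2
    obtain ⟨σ, hσ, hne⟩ := hN (P.inertiaSubgroupIn ℚ) hfix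
    exact hne (hU P hP σ hσ)

/-- **`Stmt_S36e` from the torsion-level statements (NU) at all levels.** -/
theorem s36e_final
    (hNU : ∀ (M q p : ℕ) [NeZero M] [NeZero q], Stmt_TorsNU M q p)
    (hNUE : ∀ (M q p : ℕ) [NeZero M] [NeZero q], Fermat.Agent.S45.NUE.Stmt_TorsNUE M q p) : Stmt_S36e :=
  s36e_of (Fermat.Agent.S30.H29.assembleS_of_FD Fermat.Agent.Lib.FrobDensity.stmt_FD)
    (tatePieceNUall_of hNU hNUE (fun M q _ _ => Fermat.Agent.S36.H44.stmt_Y1 M q)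
      Fermat.Agent.R.H33.stmt_S30 (fun N _ p _ => Fermat.Agent.R.H33.allRed N p))

/-- **`Stmt_S36e` from the two Kummer cores** (S36: exponent 2; S45/NUE: exponent `≥ 3`). -/
theorem s36e_of_cores (h2 : Fermat.Agent.S36.NU.H81.Stmt_NUCoreTame)
    (hE : Fermat.Agent.S45.NUE.Stmt_NUCoreETame) : Stmt_S36e :=
  s36e_final (fun M q p _ _ => Fermat.Agent.S36.NU.H81.torsNU_final h2 M q p)
    (fun M q p _ _ => Fermat.Agent.S45.NUE.torsNUE_final hE M q p)

end Fermat.Agent.S45.H43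

end
end
-- ==== END Fermat.Agent.S45.H43_Chain

-- ==== BEGIN Fermat.Agent.S45.NUE.H51_ValVecEMod
section

/-!
# S45 / NU_e, package E-VV (helper51): VALVEC_e for a covered family of valuations

Levels `M₁`, `M₁ q`, `M₁ q q` (`q ∣ M₁`); `αo`, `βo : L0 A (M₁ q) → L0 A (M₁ q q)` the two
degeneracy maps on the inertia-fixed functions.  For ANY finite family `V i` of pairwise
incomparable valuation rings of rank one of `L0 A (M₁ q q)` which induce `A` on the constants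
and are covered (`UniqAlong αo (V i) ∨ UniqAlong βo (V i)`):

* `valVecE_of_cover : LinkHyp → ValVecE A q (M₁ q) (fun h => ∀ i, h ∈ V i ∧ h⁻¹ ∈ V i)`, `K = q`.

`LinkHyp` (the congruence of the exponents of the two constants) is helper26's `link_mod`.
-/

set_option autoImplicit false
set_option synthInstance.maxHeartbeats 400000
set_option maxHeartbeats 1000000
set_option linter.style.haveILetI false
set_option linter.unusedSectionVars false

noncomputable section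

open ModularCurve AlgebraicCurve
open Fermat.Agent.S24 Fermat.Agent.BAD Fermat.Agent.BAD.H88 Fermat.Agent.Lib.HeckeComm
open Fermat.Agent.S36.NU.H23 Fermat.Agent.S36.NU.H81 Fermat.Agent.S36.NU.H10
open Fermat.Agent.S36.H44 Fermat.Agent.BAD.H42

namespace Fermat.Agent.S45.NUE.H51

section Const

variable (A : ValuationSubring Kbar) {N : ℕ} [NeZero N] (q : ℕ)

/-- The constant `c` as an element of `L0 A N`. -/
def constL0 (c : Kbar) (hc : ∀ σ ∈ A.inertiaSubgroupIn ℚ, σ c = c) : ↥(L0 A N) :=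
  ⟨algebraMap Kbar (FN N) c, (const_mem_L0_iff A c).2 hc⟩

theorem coe_constL0 (c : Kbar) (hc : ∀ σ ∈ A.inertiaSubgroupIn ℚ, σ c = c) :
    ((constL0 A c hc : ↥(L0 A N)) : FN N) = algebraMap Kbar (FN N) c := rfl

/-- `W` induces `A` on the constants. -/
def IsConstA (W : ValuationSubring ↥(L0 A N)) : Prop :=
  ∀ (c : Kbar) (hc : ∀ σ ∈ A.inertiaSubgroupIn ℚ, σ c = c), constL0 A c hc ∈ W ↔ c ∈ A

variable {A q}

/-- The values of the constants. -/
theorem IsConstA.val_const {W : ValuationSubring ↥(L0 A N)} (hW : IsConstA A W)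
    (hq0 : (q : Kbar) ≠ 0) (c : Kbar) (hc : ∀ σ ∈ A.inertiaSubgroupIn ℚ, σ c = c) (m : ℤ)
    (hm : A.valuation c = A.valuation (q : Kbar) ^ m) :
    W.valuation (constL0 A c hc) = W.valuation ((q : ℕ) : ↥(L0 A N)) ^ m := by
  have hqv : A.valuation (q : Kbar) ≠ 0 := (Valuation.ne_zero_iff _).2 hq0
  have hc0 : c ≠ 0 := by
    intro h0
    rw [h0, map_zero] at hm
    exact zpow_ne_zero m hqv hm.symm
  set u : Kbar := c * ((q : Kbar) ^ m)⁻¹ with hu
  have hu0 : u ≠ 0 := mul_ne_zero hc0 (inv_ne_zero (zpow_ne_zero _ hq0))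
  have huI : ∀ σ ∈ A.inertiaSubgroupIn ℚ, σ u = u := fun σ hσ => by
    rw [hu, map_mul, map_inv₀, map_zpow₀, map_natCast, hc σ hσ]
  have huI' : ∀ σ ∈ A.inertiaSubgroupIn ℚ, σ u⁻¹ = u⁻¹ := fun σ hσ => by
    rw [map_inv₀, huI σ hσ]
  have huv : A.valuation u = 1 := by
    rw [hu, map_mul, map_inv₀, map_zpow₀, hm]
    exact mul_inv_cancel₀ (zpow_ne_zero _ hqv)
  have h1 : constL0 (N := N) A u huI ∈ W :=
    (hW u huI).2 ((ValuationSubring.valuation_le_one_iff _ _).1 huv.le)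
  have h2 : constL0 (N := N) A u⁻¹ huI' ∈ W := by
    refine (hW u⁻¹ huI').2 ((ValuationSubring.valuation_le_one_iff _ _).1 ?_)
    rw [map_inv₀, huv, inv_one]
  have hinv : constL0 (N := N) A u⁻¹ huI' = (constL0 (N := N) A u huI)⁻¹ := by
    apply Subtype.ext
    rw [coe_constL0]
    show _ = ((constL0 (N := N) A u huI : ↥(L0 A N)) : FN N)⁻¹
    rw [coe_constL0, map_inv₀]
  have hv1 : W.valuation (constL0 (N := N) A u huI) = 1 := by
    apply le_antisymm ((ValuationSubring.valuation_le_one_iff _ _).2 h1)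
    have h3 := (ValuationSubring.valuation_le_one_iff _ _).2 h2
    rw [hinv, map_inv₀] at h3
    have hne : W.valuation (constL0 (N := N) A u huI) ≠ 0 := by
      rw [Valuation.ne_zero_iff]
      intro h0
      have := congrArg Subtype.val h0
      rw [coe_constL0] at this
      exact hu0 ((map_eq_zero _).1 this)
    exact (inv_le_one₀ (zero_lt_iff.2 hne)).1 h3
  have hdec : constL0 (N := N) A c hc
      = constL0 (N := N) A u huI * ((q : ℕ) : ↥(L0 A N)) ^ m := by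
    apply Subtype.ext
    show algebraMap Kbar (FN N) c
      = ((constL0 (N := N) A u huI : ↥(L0 A N)) : FN N)
        * (((((q : ℕ) : ↥(L0 A N)) ^ m : ↥(L0 A N))) : FN N)
    rw [coe_constL0, Fermat.Agent.S36.NU.H51.coe_natCast_zpow_L0, ← map_natCast
      (algebraMap Kbar (FN N)) q, ← map_zpow₀, ← map_mul, hu, mul_assoc,
      inv_mul_cancel₀ (zpow_ne_zero _ hq0), mul_one]
  rw [hdec, map_mul, hv1, one_mul, map_zpow₀]

end Const

section Mod

variable (A : ValuationSubring Kbar) (q M₁ : ℕ) [NeZero M₁] [NeZero q] [NeZero (M₁ * q)]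
  [NeZero (M₁ * q * q)]

/-- `α` on the inertia-fixed functions. -/
def αo : ↥(L0 A (M₁ * q)) →+* ↥(L0 A (M₁ * q * q)) :=
  Fermat.Agent.S36.NU.H26.mapL0 A (heckeAlphaBar Kbar (M₁ * q) q)
    (Fermat.Agent.S36.NU.H26.arithEquivariant_alpha (M₁ * q) q)

/-- `β` on the inertia-fixed functions. -/
def βo : ↥(L0 A (M₁ * q)) →+* ↥(L0 A (M₁ * q * q)) :=
  Fermat.Agent.S36.NU.H26.mapL0 A (heckeBetaBar Kbar (M₁ * q) q)
    (Fermat.Agent.S36.NU.H26.arithEquivariant_beta (M₁ * q) q)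

theorem coe_αo (x : ↥(L0 A (M₁ * q))) :
    ((αo A q M₁ x : ↥(L0 A (M₁ * q * q))) : FN (M₁ * q * q))
      = heckeAlphaBar Kbar (M₁ * q) q (x : FN (M₁ * q)) := rfl

theorem coe_βo (x : ↥(L0 A (M₁ * q))) :
    ((βo A q M₁ x : ↥(L0 A (M₁ * q * q))) : FN (M₁ * q * q))
      = heckeBetaBar Kbar (M₁ * q) q (x : FN (M₁ * q)) := rfl

/-- **The congruence of the exponents of the two constants** (helper26's `link_mod`). -/
def LinkHyp : Prop :=
  ∀ (n : ℕ), 0 < n → GoodExp q n → ∀ (f : FN (M₁ * q * q)), f ≠ 0 →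
    ∀ (cα cβ : Kbar) (gα gβ : FN (M₁ * q)),
      (∀ σ ∈ A.inertiaSubgroupIn ℚ, σ cα = cα) → (∀ σ ∈ A.inertiaSubgroupIn ℚ, σ cβ = cβ) →
      gα ∈ L0 A (M₁ * q) → gβ ∈ L0 A (M₁ * q) →
      normAlongHom (heckeAlphaBar Kbar (M₁ * q) q).toRingHom f
        = algebraMap Kbar (FN (M₁ * q)) cα * gα ^ n →
      normAlongHom (heckeBetaBar Kbar (M₁ * q) q).toRingHom f
        = algebraMap Kbar (FN (M₁ * q)) cβ * gβ ^ n →
      ∀ (mα mβ : ℤ), A.valuation cα = A.valuation (q : Kbar) ^ mα →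
        A.valuation cβ = A.valuation (q : Kbar) ^ mβ → (n : ℤ) ∣ mα - mβ

theorem finAlong_αo : FinAlong (αo A q M₁) :=
  Fermat.Agent.S36.NU.H26.finite_L0_along A (heckeAlphaBar Kbar (M₁ * q) q)
    (Fermat.Agent.S36.NU.H26.arithEquivariant_alpha (M₁ * q) q) (alpha_finite (M₁ * q) q)

theorem finAlong_βo : FinAlong (βo A q M₁) :=
  Fermat.Agent.S36.NU.H26.finite_L0_along A (heckeBetaBar Kbar (M₁ * q) q)
    (Fermat.Agent.S36.NU.H26.arithEquivariant_beta (M₁ * q) q) (beta_finite (M₁ * q) q)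

theorem degAlong_αo (hq : q.Prime) : degAlong (αo A q M₁) = q := by
  have h := Fermat.Agent.S36.NU.H26.finrank_L0_along A (heckeAlphaBar Kbar (M₁ * q) q)
    (Fermat.Agent.S36.NU.H26.arithEquivariant_alpha (M₁ * q) q) (alpha_finite (M₁ * q) q)
  exact h.trans (Fermat.Agent.S36.NU.H44.finrank_alpha_dvd (M₁ * q) q hq (dvd_mul_left q M₁))

theorem degAlong_βo (hq : q.Prime) : degAlong (βo A q M₁) = q := by
  have h := Fermat.Agent.S36.NU.H26.finrank_L0_along A (heckeBetaBar Kbar (M₁ * q) q)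
    (Fermat.Agent.S36.NU.H26.arithEquivariant_beta (M₁ * q) q) (beta_finite (M₁ * q) q)
  exact h.trans (Fermat.Agent.L.Pivot.Geom.H24.finrank_beta_of_dvd (M₁ * q) q hq
    (dvd_mul_left q M₁))

theorem normAlong_αo (f : ↥(L0 A (M₁ * q * q))) :
    ((normAlongHom (αo A q M₁) f : ↥(L0 A (M₁ * q))) : FN (M₁ * q))
      = normAlongHom (heckeAlphaBar Kbar (M₁ * q) q).toRingHom (f : FN (M₁ * q * q)) :=
  (Fermat.Agent.S36.NU.H26.norm_L0_along A (heckeAlphaBar Kbar (M₁ * q) q)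
    (Fermat.Agent.S36.NU.H26.arithEquivariant_alpha (M₁ * q) q) (alpha_finite (M₁ * q) q) f).symm

theorem normAlong_βo (f : ↥(L0 A (M₁ * q * q))) :
    ((normAlongHom (βo A q M₁) f : ↥(L0 A (M₁ * q))) : FN (M₁ * q))
      = normAlongHom (heckeBetaBar Kbar (M₁ * q) q).toRingHom (f : FN (M₁ * q * q)) :=
  (Fermat.Agent.S36.NU.H26.norm_L0_along A (heckeBetaBar Kbar (M₁ * q) q)
    (Fermat.Agent.S36.NU.H26.arithEquivariant_beta (M₁ * q) q) (beta_finite (M₁ * q) q) f).symm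

variable {ι : Type} [DecidableEq ι] [Fintype ι]

/-- **VALVEC_e for a covered family of valuations**, `K = q`. -/
theorem valVecE_of_cover (hq : q.Prime) (hA : A.LiesOverPrime q) (hlink : LinkHyp A q M₁)
    (V : ι → ValuationSubring ↥(L0 A (M₁ * q * q))) (hArch : ∀ i, IsArch (V i))
    (hinc : ∀ i j, i ≠ j → ¬ V i ≤ V j) (hnt : ∀ i, V i ≠ ⊤)
    (hconst : ∀ i, IsConstA A (V i))
    (hcov : ∀ i, UniqAlong (αo A q M₁) (V i) ∨ UniqAlong (βo A q M₁) (V i)) :
    ValVecE A q (M₁ * q) (fun h => ∀ i, h ∈ V i ∧ h⁻¹ ∈ V i) := by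
  refine ⟨q, hq.ne_zero, ?_⟩
  intro n hn hgood f hf0 hNα hNβ
  obtain ⟨cα, gα, hcα, hgα, hNα⟩ := hNα
  obtain ⟨cβ, gβ, hcβ, hgβ, hNβ⟩ := hNβ
  have hq0 : (q : Kbar) ≠ 0 := Nat.cast_ne_zero.mpr hq.ne_zero
  have hfF : (f : FN (M₁ * q * q)) ≠ 0 := fun h => hf0 (Subtype.ext h)
  -- the constants are non-zero
  have hNα0 : normAlongHom (heckeAlphaBar Kbar (M₁ * q) q).toRingHom (f : FN (M₁ * q * q)) ≠ 0 :=
    _root_.Fermat.Agent.S45.NUE.H51.normAlongHom_ne_zero _ (alpha_finite (M₁ * q) q) _ hfF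
  have hNβ0 : normAlongHom (heckeBetaBar Kbar (M₁ * q) q).toRingHom (f : FN (M₁ * q * q)) ≠ 0 :=
    _root_.Fermat.Agent.S45.NUE.H51.normAlongHom_ne_zero _ (beta_finite (M₁ * q) q) _ hfF
  have hcα0 : cα ≠ 0 := by
    rintro rfl
    rw [map_zero, zero_mul] at hNα
    exact hNα0 hNα
  have hcβ0 : cβ ≠ 0 := by
    rintro rfl
    rw [map_zero, zero_mul] at hNβ
    exact hNβ0 hNβ
  obtain ⟨mα, hmα⟩ := Fermat.Agent.S36.NU.H82.valuation_Kur A hq hA cα hcα hcα0
  obtain ⟨mβ, hmβ⟩ := Fermat.Agent.S36.NU.H82.valuation_Kur A hq hA cβ hcβ hcβ0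
  have hl := hlink n hn hgood f hfF cα cβ gα gβ hcα hcβ hgα hgβ hNα hNβ mα mβ hmα hmβ
  -- the norms on the inertia-fixed functions
  have hNαo : normAlongHom (αo A q M₁) f
      = constL0 A cα hcα * (⟨gα, hgα⟩ : ↥(L0 A (M₁ * q))) ^ n := by
    apply Subtype.ext
    rw [normAlong_αo, hNα]
    rfl
  have hNβo : normAlongHom (βo A q M₁) f
      = constL0 A cβ hcβ * (⟨gβ, hgβ⟩ : ↥(L0 A (M₁ * q))) ^ n := by
    apply Subtype.ext
    rw [normAlong_βo, hNβ]
    rfl
  have hαc : αo A q M₁ (constL0 A cα hcα) = constL0 A cα hcα :=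
    Subtype.ext ((heckeAlphaBar Kbar (M₁ * q) q).commutes cα)
  have hβc : βo A q M₁ (constL0 A cβ hcβ) = constL0 A cβ hcβ :=
    Subtype.ext ((heckeBetaBar Kbar (M₁ * q) q).commutes cβ)
  have hqL : ((q : ℕ) : ↥(L0 A (M₁ * q * q))) ≠ 0 := Nat.cast_ne_zero.mpr hq.ne_zero
  obtain ⟨b, w, hw0, hw⟩ := valvecE_abs (αo A q M₁) (βo A q M₁) (finAlong_αo A q M₁)
    (finAlong_βo A q M₁) q (degAlong_αo A q M₁ hq) (degAlong_βo A q M₁ hq) V hArch hinc hnt hcov
    ((q : ℕ) : ↥(L0 A (M₁ * q * q))) hqL n hn f hf0 (constL0 A cα hcα) ⟨gα, hgα⟩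
    (constL0 A cβ hcβ) ⟨gβ, hgβ⟩ hNαo hNβo mα mβ
    (fun i => by rw [hαc]; exact (hconst i).val_const hq0 cα hcα mα hmα)
    (fun i => by rw [hβc]; exact (hconst i).val_const hq0 cβ hcβ mβ hmβ) hl
  refine ⟨b, w, hw0, fun i => ⟨?_, ?_⟩⟩
  · exact (ValuationSubring.valuation_le_one_iff _ _).1 (hw i).le
  · rw [← ValuationSubring.valuation_le_one_iff, map_inv₀, hw i, inv_one]

end Mod

end Fermat.Agent.S45.NUE.H51

end
end
-- ==== END Fermat.Agent.S45.NUE.H51_ValVecEMod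

-- ==== BEGIN Fermat.Agent.S45.NUE.H73_CuspExp3
section

/-!
# S45 / NU_e, package E-CUSP, part 3 (helper73): the cusps `1/(q^a M)` have normalised expansions

`N = M q^e`, `B M + k q^e = 1`, `n_a = M q^min(e, 2 a)`.

* `isCuspExp_gE : H23.IsCuspExp N (gE q M a) (M * q ^ min e (2 * a))`;
* `cG_jdF_le`, `cG_jdF_gt`, `cG_jdF_gt'` : the values of helper23's `cG` on the generators
  (`i ≤ a`: `j (s^(d q^(e - 2 a + i)))`;  `a < i ≤ e`: `j ((z_a s)^(d q^(max(e, 2 a) - i)))`,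
  `z_a = ζ_{q^max(a, e - a)}^B`);
* `cG_eq_cE`, `cG_top` : `cG = cE`, and `a = e` is the expansion at `∞`.
-/

set_option autoImplicit false
set_option synthInstance.maxHeartbeats 400000
set_option maxHeartbeats 1000000
set_option linter.unusedSectionVars false
set_option linter.unusedVariables false
set_option linter.style.haveILetI false

noncomputable section

namespace Fermat.Agent.S45.NUE.H73

open Fermat.Agent.S24 Fermat.Agent.BAD.H88 ModularCurve UpperHalfPlane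
open Fermat.Agent.S28 Fermat.Agent.S28.H73 Fermat.Agent.RED.H73
open Fermat.Agent.S36.NU.H88
open Fermat.Agent.S45.NUE.H23 (IsCuspExp cG cG_eq_of qExpand_cG)
open scoped MatrixGroups Manifold

section Level

variable (N q M e : ℕ) (B k : ℤ) (hN : N = M * q ^ e) (hB : B * M + k * (q : ℤ) ^ e = 1)
  (hq : q.Prime) [NeZero N] [NeZero q]

include hN hB hq

/-- **The cusp `1/(q^a M)` of `X₀(M q^e)` has a normalised expansion** in `u^(n_a)`,
`n_a = M q^min(e, 2 a)`. -/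
theorem isCuspExp_gE (a : ℕ) [NeZero (M * q ^ min e (2 * a))] :
    IsCuspExp N (gE q M a) (M * q ^ min e (2 * a)) := by
  have hq0 : 0 < q := hq.pos
  intro D hD0 hD
  obtain ⟨d, d', i, hM, hie, h⟩ := dvdE_cases N q M e B k hN hB hq D hD
  subst h
  have hM0 := posE N q M e B k hN hB hq
  have hd0 : 0 < d := by
    rcases Nat.eq_zero_or_pos d with h | h
    · rw [h, zero_mul] at hM; omega
    · exact h
  haveI : NeZero (nE q M e a) := ⟨(nE_pos N q M e B k hN hB hq a).ne'⟩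
  rcases Nat.lt_or_ge a i with hai | hia
  · haveI : NeZero (d * q ^ (max e (2 * a) - i)) := ⟨(Nat.mul_pos hd0 (pow_pos hq0 _)).ne'⟩
    refine ⟨d * q ^ (max e (2 * a) - i), inferInstance, q ^ max a (e - a),
      zE q e a B ^ ((d * q ^ (max e (2 * a) - i) : ℕ) : ℤ), pow_pos hq0 _, ?_, ?_⟩
    · rw [zpow_natCast, ← pow_mul, mul_comm, pow_mul, zE_pow, one_pow]
    · rw [cuspU_gE_eq_gt N q M e B k hN hB hq d d' i a hM hai hie hD, twist_qExpand]
      rfl
  · haveI : NeZero (d * q ^ (e - 2 * a + i)) := ⟨(Nat.mul_pos hd0 (pow_pos hq0 _)).ne'⟩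
    refine ⟨d * q ^ (e - 2 * a + i), inferInstance, 1, 1, one_pos, one_pow 1, ?_⟩
    rw [cuspU_gE_eq_le N q M e B k hN hB hq d d' i a hM hia hD, twist_one']
    rfl

/-- `i ≤ a`: `cG (j (q^(d q^i))) = j (s^(d q^(e - 2 a + i)))`. -/
theorem cG_jdF_le (d d' i a : ℕ) (hM : M = d * d') (hia : i ≤ a) [NeZero (d * q ^ i)]
    [NeZero (M * q ^ min e (2 * a))] [NeZero (d * q ^ (e - 2 * a + i))] (hD : d * q ^ i ∣ N) :
    cG (isCuspExp_gE N q M e B k hN hB hq a) (jdF N (d * q ^ i) hD)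
      = qExpand Kbar (d * q ^ (e - 2 * a + i)) jBar := by
  haveI : NeZero (nE q M e a) := ⟨(nE_pos N q M e B k hN hB hq a).ne'⟩
  refine cG_eq_of _ _ _ ?_
  rw [cuspU_gE_eq_le N q M e B k hN hB hq d d' i a hM hia hD]
  rfl

/-- `a < i ≤ e`: `cG (j (q^(d q^i))) = j ((z_a s)^(d q^(max(e, 2 a) - i)))`,
`z_a = ζ_{q^max(a, e - a)}^B`. -/
theorem cG_jdF_gt (d d' i a : ℕ) (hM : M = d * d') (hai : a < i) (hie : i ≤ e)
    [NeZero (d * q ^ i)] [NeZero (M * q ^ min e (2 * a))]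
    [NeZero (d * q ^ (max e (2 * a) - i))] (hD : d * q ^ i ∣ N) :
    cG (isCuspExp_gE N q M e B k hN hB hq a) (jdF N (d * q ^ i) hD)
      = twist (zE q e a B) (qExpand Kbar (d * q ^ (max e (2 * a) - i)) jBar) := by
  haveI : NeZero (nE q M e a) := ⟨(nE_pos N q M e B k hN hB hq a).ne'⟩
  refine cG_eq_of _ _ _ ?_
  rw [cuspU_gE_eq_gt N q M e B k hN hB hq d d' i a hM hai hie hD]
  rfl

/-- `a < i ≤ e`, second form:
`cG (j (q^(d q^i))) = (twist (z_a^(d q^ν)) j)(s^(d q^ν))`, `ν = max(e, 2 a) - i`. -/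
theorem cG_jdF_gt' (d d' i a : ℕ) (hM : M = d * d') (hai : a < i) (hie : i ≤ e)
    [NeZero (d * q ^ i)] [NeZero (M * q ^ min e (2 * a))]
    [NeZero (d * q ^ (max e (2 * a) - i))] (hD : d * q ^ i ∣ N) :
    cG (isCuspExp_gE N q M e B k hN hB hq a) (jdF N (d * q ^ i) hD)
      = qExpand Kbar (d * q ^ (max e (2 * a) - i))
          (twist (zE q e a B ^ ((d * q ^ (max e (2 * a) - i) : ℕ) : ℤ)) jBar) := by
  rw [cG_jdF_gt N q M e B k hN hB hq d d' i a hM hai hie hD, twist_qExpand]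

/-- helper23's `cG` at the cusp `1/(q^a M)` is `cE`. -/
theorem cG_eq_cE (a : ℕ) [NeZero (M * q ^ min e (2 * a))] [NeZero (nE q M e a)] (x : FN N) :
    cG (isCuspExp_gE N q M e B k hN hB hq a) x = _root_.Fermat.Agent.S45.NUE.H73.cE N q M e B k hN hB hq a x := by
  refine cG_eq_of _ _ _ ?_
  rw [← qExpand_cE N q M e B k hN hB hq a x]
  rfl

/-- **`a = e` is the cusp `∞`**: `cG x` is the `q`-expansion of `x`. -/
theorem cG_top [NeZero (M * q ^ min e (2 * e))] (x : FN N) :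
    cG (isCuspExp_gE N q M e B k hN hB hq e) x = (x : LaurentSeries Kbar) := by
  haveI : NeZero (nE q M e e) := ⟨(nE_pos N q M e B k hN hB hq e).ne'⟩
  rw [cG_eq_cE N q M e B k hN hB hq e x, _root_.Fermat.Agent.S45.NUE.H73.cE_top N q M e B k hN hB hq x]

end Level

end Fermat.Agent.S45.NUE.H73

end
end
-- ==== END Fermat.Agent.S45.NUE.H73_CuspExp3

-- ==== BEGIN Fermat.Agent.S45.NUE.H79_GlueTower
section

/-!
# S45 / NU_e, package E-ABS (helper79): the GLUE tower, from ONE degeneracy map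

`SideE.glued_of_double` : GLUE at the upper level from GLUE at the lower level, using only the
side `α` (`S : SideE ..`) and ONE double relation along `α`, if every component of the upper level
is single for `α` or one of the two components of the double relation.

Modular: upper level `M' q ^ e`, ANY `e ≥ 2`, components `(a,b)`, `a + b = e`:
`S.S (a,b) ↔ 2 ≤ b`, double relation at `i₁ = (e,0)`, `i₂ = (e-1,1)` over `v'_(e-1,0)`,
`j = (0,e)`.  So `Glued T_e z` for all `e ≥ 1` follows by induction on `e` from the nodes of the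
level `M' q` (`e = 1`: `glued_fin_two_of_node`-type bridges are modular) — the side `β` is not
needed for GLUE.

`NUDataE.ofGlue` is not needed: `NUDataE.glued` of `H79_GlueE` stays valid.
-/

set_option autoImplicit false
set_option linter.style.haveILetI false

noncomputable section

open AlgebraicCurve

attribute [local instance] Classical.propDecidable

namespace Fermat.Agent.S45.NUE.H79

open Fermat.Agent.RED.H17 Fermat.Agent.RED Fermat.Agent.BAD.H79 Fermat.Agent.BAD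
open Fermat.Agent.S36.NU.H79 Fermat.Agent.S36.NU.H24

variable {K L₀ L k ι Z : Type*} {E : ι → Type*} [Field K] [Field L₀] [Field L]
  [Algebra K L] [Algebra L₀ L] [Field k] [Fintype ι] [∀ i, Field (E i)]
  [∀ i, Algebra k (E i)]
  {K' L₀' L' ι' Z' : Type*} {E' : ι' → Type*} [Field K'] [Field L₀'] [Field L']
  [Algebra K' L'] [Algebra L₀' L'] [Fintype ι'] [∀ i, Field (E' i)]
  [∀ i, Algebra k (E' i)]
  {T : TotN K L₀ L k ι Z E} {T' : TotN K' L₀' L' k ι' Z' E'} {SS : Set Z} {d : ℕ}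

/-- The values of the reductions of `f ∈ R_z` at `z ∈ SS` are equal (one side + one double
relation). -/
theorem SideE.value_eq_of_double [Infinite k] (S : SideE T T' SS d) (hd : 0 < d) {i₁ i₂ : ι}
    (R : DoubleRel T T' S.Nm SS S.zm d i₁ i₂) {j : ι} (hj : S.S j)
    (hcov : ∀ i, S.S i ∨ i = i₁ ∨ i = i₂) {z : Z} (hz : z ∈ SS) {f : L₀} (hf : T.InR z f)
    {a : ι → k} (ha : ∀ i, HasValue (T.pt i z) (T.rdN i f) (a i)) (i : ι) : a i = a j := by
  have h12 := S.value_eq_double R hz hf ha hj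
  rcases hcov i with hi | rfl | rfl
  · exact S.value_eq hd hz hf ha hi hj
  · exact h12.1
  · exact h12.2

/-- **GLUE from one side**: the upper level is glued at the multiple points. -/
theorem SideE.glued_of_double [Infinite k] (S : SideE T T' SS d) (hd : 0 < d) {i₁ i₂ : ι}
    (R : DoubleRel T T' S.Nm SS S.zm d i₁ i₂) {j : ι} (hj : S.S j)
    (hcov : ∀ i, S.S i ∨ i = i₁ ∨ i = i₂) (hP : HasPrincipalDivisors K L) {z : Z}
    (hz : z ∈ SS) (hdeg : ∀ i, (T.pt i z).deg = 1) : Glued T z := by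
  intro f hf i l c
  have hex : ∀ l, ∃ a : k, HasValue (T.pt l z) (T.rdN l f) a := fun l =>
    exists_value (T.pt l z) (hdeg l) (hf.regAt hP l)
  choose a ha using hex
  have heq : ∀ l, a l = a j := S.value_eq_of_double hd R hj hcov hz hf ha
  constructor
  · intro h
    have : c = a l := by rw [heq l, ← heq i]; exact h.unique (ha i)
    rw [this]; exact ha l
  · intro h
    have : c = a i := by rw [heq i, ← heq l]; exact h.unique (ha l)
    rw [this]; exact ha i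

/-- A level with ONE component is glued everywhere. -/
theorem glued_of_subsingleton [Subsingleton ι] (z : Z) : Glued T z := by
  intro f _ i j c
  obtain rfl : i = j := Subsingleton.elim i j
  exact Iff.rfl

end Fermat.Agent.S45.NUE.H79

end
end
-- ==== END Fermat.Agent.S45.NUE.H79_GlueTower

-- ==== BEGIN Fermat.Agent.S45.NUE.H79_LowRootMod
section

/-!
# S45 / NU_e, package E-INST-B (helper79): the modular `LowRoot`

`lowRoot_mod` : `LowRoot T n` for EVERY conservation datum `T` on the inertia-fixed functions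
`L0 A N` of a level `N` (any `N`, any index type) such that

* every valuation ring `T.V i` is the restriction to `L0 A N` of a valuation ring `W i` of `F_N`
  which induces `A` on the constants (`hW`, `hconst`; modular: `W i = VG h A`, the Gauss valuation
  at a cusp, `H23.const_memG`);
* one of them (`i₀`) is the Gauss valuation at the cusp `∞` (`hi₀ : W i₀ = V20 A N`);
* the reductions of the integral constants are their residue classes (`hredc`; modular:
  `H23.redG_const`).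

So the lower level `T' = T_e` of helper23 (valuations `VE a`, `a = 0..e`, `VE e` = Gauss at `∞`)
satisfies `LowRoot T' n` for all `n ≠ 0`.
-/

set_option autoImplicit false
set_option synthInstance.maxHeartbeats 400000
set_option maxHeartbeats 1000000
set_option linter.style.haveILetI false
set_option linter.unusedSectionVars false

noncomputable section

open ModularCurve AlgebraicCurve
open Fermat.Agent.S24 Fermat.Agent.BAD.H88 Fermat.Agent.S28 Fermat.Agent.S28.H73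
open Fermat.Agent.RED.H73 Fermat.Agent.RED.H17 Fermat.Agent.S36.NU.H88
open Fermat.Agent.S36.NU.H23 Fermat.Agent.Lib.HeckeComm
open Fermat.Agent.S36.NU.H82 Fermat.Agent.S36.NU.H51

namespace Fermat.Agent.S45.NUE.H79

open Fermat.Agent.BAD Fermat.Agent.RED Fermat.Agent.BAD.H79 Fermat.Agent.S36.NU.H79

section LowRootMod

variable (A : ValuationSubring Kbar) (N : ℕ) [NeZero N] (q : ℕ) (hq : q.Prime)
  (hA : A.LiesOverPrime q)
  {ι Z : Type} [Fintype ι] {E : ι → Type} [∀ i, Field (E i)] [∀ i, Algebra (kV A) (E i)]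
  (T : TotN Kbar ↥(L0 A N) (FN N) (kV A) ι Z E)

include hq hA in
/-- **The modular `LowRoot`.** -/
theorem lowRoot_mod (W : ι → ValuationSubring (FN N))
    (hW : ∀ i, T.V i = resV0 (L0 A N) (W i))
    (hconst : ∀ (i : ι) (c : Kbar), algebraMap Kbar (FN N) c ∈ W i ↔ c ∈ A)
    (i₀ : ι) (hi₀ : W i₀ = V20 A N)
    (hredc : ∀ (i : ι) (c : Kbar) (hcA : c ∈ A) (hcL : algebraMap Kbar (FN N) c ∈ L0 A N)
      (hm : (⟨algebraMap Kbar (FN N) c, hcL⟩ : ↥(L0 A N)) ∈ T.V i),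
      T.red i ⟨⟨algebraMap Kbar (FN N) c, hcL⟩, hm⟩
        = algebraMap (kV A) (E i) (resV A ⟨c, hcA⟩))
    (n : ℕ) (hn : n ≠ 0) : LowRoot T n := by
  have hlow : IsLowVal A N q (V20 A N) := isLowVal_V20 A N q hq hA
  have hq0 : ((q : ℕ) : ↥(L0 A N)) ≠ 0 := Nat.cast_ne_zero.mpr hq.ne_zero
  refine lowRoot_of_val T n hn i₀ ((q : ℕ) : ↥(L0 A N)) ⟨(q : Kbar), ?_⟩ hq0 ?_ ?_ ?_ ?_
  · rw [map_natCast, map_natCast]
  · rw [hW i₀, hi₀]
    exact hlow.res_val_q_lt_one hA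
  · intro x hx
    rw [hW i₀, hi₀]
    exact hlow.res_exact x hx
  · rintro c ⟨c', hc'⟩ hc0
    have hcc : (c : FN N) = algebraMap Kbar (FN N) c' := hc'
    have hcL : algebraMap Kbar (FN N) c' ∈ L0 A N := by rw [← hcc]; exact c.2
    have hc'0 : c' ≠ 0 := by
      rintro rfl
      rw [map_zero] at hcc
      exact hc0 (Subtype.ext hcc)
    obtain ⟨m, hm⟩ := valuation_Kur A hq hA c' ((const_mem_L0_iff A c').1 hcL) hc'0
    refine ⟨m, fun i => ?_⟩
    rw [hW i, ← map_zpow₀, valuation_resV0_eq_iff, coe_natCast_zpow_L0, hcc]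
    have h1 : A.valuation c' = A.valuation ((q : Kbar) ^ m) := by rw [map_zpow₀]; exact hm
    have h2 := val_algebraMap_congr A (W i) (hconst i) h1
    rw [h2, map_zpow₀, map_natCast]
  · rintro c ⟨c', hc'⟩ hu
    have hcc : (c : FN N) = algebraMap Kbar (FN N) c' := hc'
    have hcL : algebraMap Kbar (FN N) c' ∈ L0 A N := by rw [← hcc]; exact c.2
    have hce : c = ⟨algebraMap Kbar (FN N) c', hcL⟩ := Subtype.ext hcc
    have hmem : ∀ i, c ∈ T.V i := fun i => T.mem_of_rdN_ne_zero (hu i)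
    have hcA : c' ∈ A := by
      have h1 := hmem i₀
      rw [hW i₀, mem_resV0_iff, hcc] at h1
      exact (hconst i₀ c').1 h1
    refine ⟨resV A ⟨c', hcA⟩, fun i => ?_⟩
    have hm' : (⟨algebraMap Kbar (FN N) c', hcL⟩ : ↥(L0 A N)) ∈ T.V i := by
      rw [← hce]; exact hmem i
    rw [T.rdN_of_mem (hmem i), ← hredc i c' hcA hcL hm']
    congr 1
    exact Subtype.ext hce

end LowRootMod

end Fermat.Agent.S45.NUE.H79

end
end
-- ==== END Fermat.Agent.S45.NUE.H79_LowRootMod
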