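-- GENERATED (merged mirror, NOTES/tools/trim/merge3_helper67.py): 3 modules of the originals, bodies verbatim.
import Fermat.Agent.Zm.S45_L02_002
import Fermat.Agent.Zm.S45_L02_000
import Fermat.Agent.Zm.S45_L01_002

-- ==== BEGIN Fermat.Agent.S45.NUE.H79_TrivE
section

/-!
# S45 / NU_e, package E-ABS (helper79): B2_e + B3_e, trivial reduction data at the level `e ≥ 3`

`D : NUDataE ..`, `n` prime to the local degree `D.d` (modular: `q`), `h` a unit for all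
valuations of the upper level whose norms along `α` and `β` are constants times `n`-th powers.

* `SideE.isCPow_red` (**B2_e**) : the reduction of `h` on a single component is a constant times
  an `n`-th power;
* `Lk` : two components are LINKED if the values at the multiple points of the roots of the
  reductions (times the reductions of a local generator) differ by a constant `n`-th root of
  unity; `SideE.lk_single`, `SideE.lk_double`;
* `NUDataE.trivRed` (**B3_e**) : `TrivRedT D.T D.SS n h` — for `h` ITSELF (no exponent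
  `(q + 1) (q - 1)` as for `e = 2`).
-/

set_option autoImplicit false
set_option linter.style.haveILetI false

noncomputable section

open AlgebraicCurve

attribute [local instance] Classical.propDecidable

namespace Fermat.Agent.S45.NUE.H79

open Fermat.Agent.RED.H17 Fermat.Agent.RED Fermat.Agent.BAD.H79 Fermat.Agent.BAD
open Fermat.Agent.S36.NU.H79 Fermat.Agent.S36.NU.H24

/-! ## Algebra -/

/-- If `a ^ d = A * b ^ d`, `a ^ n = b ^ n` and `d` is prime to `n`, then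
`a = A ^ x * b` with `x = gcdA d n`. -/
theorem ratio_eq {k : Type*} [Field k] {d n : ℕ} (hcop : Nat.Coprime d n) {a b A : k}
    (ha : a ≠ 0) (hb : b ≠ 0) (h1 : a ^ d = A * b ^ d) (h2 : a ^ n = b ^ n) :
    a = A ^ (Int.gcdA d n) * b := by
  have hg : (d : ℤ) * Int.gcdA d n + (n : ℤ) * Int.gcdB d n = 1 := by
    have := Int.gcd_eq_gcd_ab (d : ℤ) (n : ℤ)
    rw [Int.gcd_natCast_natCast, hcop.gcd_eq_one] at this
    exact_mod_cast this.symm
  set r : k := a / b with hr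
  have hr0 : r ≠ 0 := div_ne_zero ha hb
  have e1 : r ^ d = A := by
    rw [hr, div_pow, h1, mul_div_assoc, div_self (pow_ne_zero d hb), mul_one]
  have e2 : r ^ n = 1 := by
    rw [hr, div_pow, h2, div_self (pow_ne_zero n hb)]
  have e3 : r = A ^ (Int.gcdA d n) := by
    calc r = r ^ (1 : ℤ) := (zpow_one r).symm
      _ = r ^ ((d : ℤ) * Int.gcdA d n + (n : ℤ) * Int.gcdB d n) := by rw [hg]
      _ = (r ^ d) ^ (Int.gcdA d n) * (r ^ n) ^ (Int.gcdB d n) := by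
          rw [zpow_add₀ hr0, zpow_mul, zpow_mul, zpow_natCast, zpow_natCast]
      _ = A ^ (Int.gcdA d n) := by rw [e1, e2, one_zpow, mul_one]
  rw [← e3, hr, div_mul_cancel₀ a hb]

theorem zpow_pow_eq_one {k : Type*} [Field k] {A : k} {n : ℕ} (h : A ^ n = 1) (x : ℤ) :
    (A ^ x) ^ n = 1 := by
  rw [← zpow_natCast, ← zpow_mul, mul_comm, zpow_mul, zpow_natCast, h, one_zpow]

variable {K L₀ L k ι Z : Type*} {E : ι → Type*} [Field K] [Field L₀] [Field L]
  [Algebra K L] [Algebra L₀ L] [Field k] [Fintype ι] [∀ i, Field (E i)]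
  [∀ i, Algebra k (E i)]
  {K' L₀' L' ι' Z' : Type*} {E' : ι' → Type*} [Field K'] [Field L₀'] [Field L']
  [Algebra K' L'] [Algebra L₀' L'] [Fintype ι'] [∀ i, Field (E' i)]
  [∀ i, Algebra k (E' i)]

/-! ## Units and local generators of the upper level -/

section Gen

variable (T : TotN K L₀ L k ι Z E)

theorem rdN_ne_zero_mul {i : ι} {x y : L₀} (hx : T.rdN i x ≠ 0) (hy : T.rdN i y ≠ 0) :
    T.rdN i (x * y) ≠ 0 := by
  rw [T.rdN_mul (T.mem_of_rdN_ne_zero hx) (T.mem_of_rdN_ne_zero hy)]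
  exact mul_ne_zero hx hy

theorem rdN_ne_zero_pow {i : ι} {x : L₀} (hx : T.rdN i x ≠ 0) (n : ℕ) :
    T.rdN i (x ^ n) ≠ 0 := by
  rw [T.rdN_pow (T.mem_of_rdN_ne_zero hx)]
  exact pow_ne_zero n hx

theorem ne_zero_of_rdN_ne_zero {i : ι} {x : L₀} (hx : T.rdN i x ≠ 0) : x ≠ 0 := by
  rintro rfl
  apply hx
  rw [T.rdN_of_mem (T.V i).zero_mem]
  exact map_zero _

variable {T}

/-- The function `u = h sⁿ` of a local generator: a unit for all valuations. -/
theorem IsGenT.unit {n : ℕ} {z : Z} {h s : L₀} (hg : IsGenT T n z h s)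
    (hu : ∀ i, T.rdN i h ≠ 0) (i : ι) : T.rdN i (h * s ^ n) ≠ 0 :=
  rdN_ne_zero_mul T (hu i) (rdN_ne_zero_pow T (hg.1 i) n)

theorem IsGenT.inR {n : ℕ} {z : Z} {h s : L₀} (hg : IsGenT T n z h s)
    (hu : ∀ i, T.rdN i h ≠ 0) : T.InR z (h * s ^ n) :=
  ⟨fun i => T.mem_of_rdN_ne_zero (hg.unit hu i), fun P hP =>
    regAt_of_ord_nonneg (hg.2 P hP).ge⟩

/-- The reduction of `u = h sⁿ` is the `n`-th power of `G i · red i s`. -/
theorem IsGenT.rdN_eq {n : ℕ} {z : Z} {h s : L₀} (hg : IsGenT T n z h s)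
    (hu : ∀ i, T.rdN i h ≠ 0) {G : ∀ i, E i} (hG : ∀ i, T.rdN i h = G i ^ n) (i : ι) :
    T.rdN i (h * s ^ n) = (G i * T.rdN i s) ^ n := by
  rw [T.rdN_mul (T.mem_of_rdN_ne_zero (hu i))
    (T.mem_of_rdN_ne_zero (rdN_ne_zero_pow T (hg.1 i) n)),
    T.rdN_pow (T.mem_of_rdN_ne_zero (hg.1 i)), hG i, mul_pow]

/-- The values of `G i · red i s` exist and are non-zero. -/
theorem IsGenT.exists_value [Infinite k] (hP : HasPrincipalDivisors K L) {n : ℕ} (hn : n ≠ 0)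
    {z : Z} (hdeg : ∀ i, (T.pt i z).deg = 1) {h s : L₀} (hg : IsGenT T n z h s)
    (hu : ∀ i, T.rdN i h ≠ 0) {G : ∀ i, E i} (hG : ∀ i, T.rdN i h = G i ^ n) (i : ι) :
    ∃ a : k, a ≠ 0 ∧ HasValue (T.pt i z) (G i * T.rdN i s) a := by
  obtain ⟨b, hb, hv⟩ := T.exists_value_of_unit hP (hg.unit hu) hg.2 hdeg i
  rw [hg.rdN_eq hu hG i] at hv
  obtain ⟨γ, hγ, hγv, -⟩ := exists_value_of_pow (hdeg i) hn hb hv
  exact ⟨γ, hγ, hγv⟩

/-- The `n`-th powers of the values of `G i · red i s` are equal (GLUE of the upper level). -/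
theorem IsGenT.pow_eq {n : ℕ} {z : Z} (hglue : Glued T z) {h s : L₀}
    (hg : IsGenT T n z h s) (hu : ∀ i, T.rdN i h ≠ 0) {G : ∀ i, E i}
    (hG : ∀ i, T.rdN i h = G i ^ n) {i j : ι} {a b : k}
    (ha : HasValue (T.pt i z) (G i * T.rdN i s) a)
    (hb : HasValue (T.pt j z) (G j * T.rdN j s) b) : a ^ n = b ^ n := by
  have h1 : HasValue (T.pt i z) (T.rdN i (h * s ^ n)) (a ^ n) := by
    rw [hg.rdN_eq hu hG i]; exact ha.pow n
  have h2 : HasValue (T.pt j z) (T.rdN j (h * s ^ n)) (b ^ n) := by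
    rw [hg.rdN_eq hu hG j]; exact hb.pow n
  exact ((hglue _ (hg.inR hu) i j _).mp h1).unique h2

end Gen

/-! ## The link relation -/

section Link

variable (T : TotN K L₀ L k ι Z E) (SS : Set Z) (n : ℕ) (h : L₀) (G : ∀ i, E i)

/-- Two components are **linked**: the values of `G i · red i s` and `G j · red j s` at the
multiple points differ by a constant `n`-th root of unity (independent of the point and of the
local generator `s`). -/
def Lk (i j : ι) : Prop :=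
  ∃ ε : k, ε ^ n = 1 ∧ ∀ z ∈ SS, ∀ s : L₀, IsGenT T n z h s → ∀ a b : k,
    HasValue (T.pt i z) (G i * T.rdN i s) a → HasValue (T.pt j z) (G j * T.rdN j s) b →
    a = ε * b

variable {T SS n h G}

theorem Lk.refl (i : ι) : Lk T SS n h G i i :=
  ⟨1, one_pow n, fun _ _ _ _ _ _ ha hb => by rw [one_mul]; exact ha.unique hb⟩

theorem Lk.symm (hn : n ≠ 0) {i j : ι} (hl : Lk T SS n h G i j) : Lk T SS n h G j i := by
  obtain ⟨ε, hε, hl⟩ := hl
  have hε0 : ε ≠ 0 := by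
    rintro rfl
    rw [zero_pow hn] at hε
    exact zero_ne_one hε
  refine ⟨ε⁻¹, by rw [inv_pow, hε, inv_one], fun z hz s hs a b ha hb => ?_⟩
  rw [hl z hz s hs b a hb ha, ← mul_assoc, inv_mul_cancel₀ hε0, one_mul]

theorem Lk.trans [Infinite k] (hP : HasPrincipalDivisors K L) (hn : n ≠ 0)
    (hdeg : ∀ z ∈ SS, ∀ i, (T.pt i z).deg = 1) (hu : ∀ i, T.rdN i h ≠ 0)
    (hG : ∀ i, T.rdN i h = G i ^ n) {i j l : ι} (h1 : Lk T SS n h G i j)
    (h2 : Lk T SS n h G j l) : Lk T SS n h G i l := by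
  obtain ⟨ε₁, hε₁, hl₁⟩ := h1
  obtain ⟨ε₂, hε₂, hl₂⟩ := h2
  refine ⟨ε₁ * ε₂, by rw [mul_pow, hε₁, hε₂, one_mul], fun z hz s hs a b ha hb => ?_⟩
  obtain ⟨c, -, hc⟩ := hs.exists_value hP hn (hdeg z hz) hu hG j
  rw [hl₁ z hz s hs a c ha hc, hl₂ z hz s hs c b hc hb, mul_assoc]

end Link

/-! ## Roots of constants times `n`-th powers in the residue fields -/

theorem exists_mu_of {F : Type*} [Field F] [Algebra k F] {n : ℕ} (hk : RootClosed k F n)
    {x y : F} {a : k} (ha : a ≠ 0) (hy : y ≠ 0) (h : algebraMap k F a * x ^ n = y ^ n) :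
    ∃ μ : k, μ ^ n = a⁻¹ ∧ x = algebraMap k F μ * y := by
  have ha' : algebraMap k F a ≠ 0 := (map_ne_zero_iff _ (algebraMap k F).injective).mpr ha
  have h1 : x ^ n = algebraMap k F a⁻¹ * y ^ n := by
    rw [← h, map_inv₀, ← mul_assoc, inv_mul_cancel₀ ha', one_mul]
  obtain ⟨μ, hμ⟩ := exists_const_of_pow_eq hk hy h1
  refine ⟨μ, ?_, hμ⟩
  have h2 : algebraMap k F (μ ^ n) * y ^ n = algebraMap k F a⁻¹ * y ^ n := by
    rw [← h1, hμ, mul_pow, map_pow]
  exact (algebraMap k F).injective (mul_right_cancel₀ (pow_ne_zero n hy) h2)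

/-! ## One side -/

section Side

variable {T : TotN K L₀ L k ι Z E} {T' : TotN K' L₀' L' k ι' Z' E'} {SS : Set Z} {d : ℕ}

/-- **B2_e**: if the norm of the unit `h` is a constant times an `n`-th power, `n` prime to
the local degree, then the reduction of `h` on a single component is a constant times an
`n`-th power. -/
theorem SideE.isCPow_red (S : SideE T T' SS d) {n : ℕ} (hcop : Nat.Coprime d n)
    (hL : LowRoot T' n) {h : L₀} (hu : ∀ i, T.rdN i h ≠ 0) {c g : L₀'} (hc : IsConstT T' c)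
    (hN : S.Nm h = c * g ^ n) {i : ι} (hi : S.S i) : IsCPow k n (T.rdN i h) := by
  obtain ⟨g', C, a, -, -, -, -, -, hrd⟩ := hL _ c g hc hN (S.unit h hu)
  have h1 : IsCPow k n ((S.single i hi).R.N (T.rdN i h ^ (S.single i hi).e)) := by
    rw [map_pow, ← (S.single i hi).norm h hu, hrd (S.single i hi).i']
    exact ⟨a, _, rfl⟩
  have hf : Nat.Coprime (S.single i hi).R.f n :=
    Nat.Coprime.coprime_dvd_left ⟨(S.single i hi).e, (S.single i hi).deg.symm⟩ hcop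
  have he : Nat.Coprime (S.single i hi).e n :=
    Nat.Coprime.coprime_dvd_left ⟨(S.single i hi).R.f, by
      rw [mul_comm]; exact (S.single i hi).deg.symm⟩ hcop
  exact IsCPow.of_pow_coprime he ((S.single i hi).R.isCPow_of_N hf h1)

/-- **The root of the norm** of `h` along one side, scaled to a unit for all valuations of the
lower level. -/
structure SideRoot (S : SideE T T' SS d) (n : ℕ) (h : L₀) where
  /-- the root -/
  g' : L₀'
  /-- the constant -/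
  C : L₀'
  /-- the reduction of the constant -/
  a : k
  hC : IsConstT T' C
  hC0 : C ≠ 0
  ha : a ≠ 0
  hg' : ∀ i, T'.rdN i g' ≠ 0
  eq : S.Nm h = C * g' ^ n
  hrd : ∀ i, T'.rdN i (S.Nm h) = algebraMap k (E' i) a * T'.rdN i g' ^ n

theorem SideE.exists_sideRoot (S : SideE T T' SS d) {n : ℕ} (hL : LowRoot T' n) {h : L₀}
    (hu : ∀ i, T.rdN i h ≠ 0) {c g : L₀'} (hc : IsConstT T' c) (hN : S.Nm h = c * g ^ n) :
    Nonempty (SideRoot S n h) := by
  obtain ⟨g', C, a, hC, hC0, ha, hg', heq, hrd⟩ := hL _ c g hc hN (S.unit h hu)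
  exact ⟨⟨g', C, a, hC, hC0, ha, hg', heq, hrd⟩⟩

namespace SideRoot

variable {S : SideE T T' SS d} {n : ℕ} {h : L₀} (Rt : SideRoot S n h)

include Rt in
/-- The reduction of the root on the component below a single component. -/
theorem exists_mu (hn : n ≠ 0) (hk : ∀ i', RootClosed k (E' i') n)
    (hu : ∀ i, T.rdN i h ≠ 0) {G : ∀ i, E i} (hG : ∀ i, T.rdN i h = G i ^ n) {i : ι}
    (hi : S.S i) :
    ∃ μ : k, μ ^ n = Rt.a⁻¹ ∧ T'.rdN (S.single i hi).i' Rt.g'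
      = algebraMap k _ μ * (S.single i hi).R.N (G i) ^ (S.single i hi).e := by
  have hG0 : G i ≠ 0 := by
    intro h0
    apply hu i
    rw [hG i, h0, zero_pow hn]
  refine exists_mu_of (hk _) Rt.ha (pow_ne_zero _ ((S.single i hi).R.N_ne_zero hG0)) ?_
  rw [← Rt.hrd, (S.single i hi).norm h hu, hG i, map_pow, ← pow_mul, ← pow_mul, mul_comm]

include Rt in
/-- The reduction of the root on the component below a double component. -/
theorem exists_mu_double (hn : n ≠ 0) (hk : ∀ i', RootClosed k (E' i') n)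
    (hu : ∀ i, T.rdN i h ≠ 0) {G : ∀ i, E i} (hG : ∀ i, T.rdN i h = G i ^ n) {i₁ i₂ : ι}
    (R : DoubleRel T T' S.Nm SS S.zm d i₁ i₂) :
    ∃ μ : k, μ ^ n = Rt.a⁻¹ ∧ T'.rdN R.i' Rt.g'
      = algebraMap k _ μ * (R.R₁.N (G i₁) ^ R.e₁ * R.R₂.N (G i₂) ^ R.e₂) := by
  have hG0 : ∀ i, G i ≠ 0 := by
    intro i h0
    apply hu i
    rw [hG i, h0, zero_pow hn]
  refine exists_mu_of (hk _) Rt.ha (mul_ne_zero (pow_ne_zero _ (R.R₁.N_ne_zero (hG0 _)))
    (pow_ne_zero _ (R.R₂.N_ne_zero (hG0 _)))) ?_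
  rw [← Rt.hrd, R.norm h hu, hG i₁, hG i₂, map_pow, map_pow, mul_pow, ← pow_mul, ← pow_mul,
    ← pow_mul, ← pow_mul, mul_comm n R.e₁, mul_comm n R.e₂]

include Rt in
/-- The function `w = g' · Nm s` for a local generator `s`: a unit of `R'_{zm z}`. -/
theorem inR (hn : n ≠ 0) (i₀ : ι) {z : Z} (hz : z ∈ SS) (hu : ∀ i, T.rdN i h ≠ 0) {s : L₀}
    (hg : IsGenT T n z h s) : T'.InR (S.zm z) (Rt.g' * S.Nm s) := by
  refine ⟨fun i' => T'.mem_of_rdN_ne_zero
    (rdN_ne_zero_mul T' (Rt.hg' i') (S.unit s hg.1 i')), fun Q hQ => ?_⟩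
  set u : L₀ := h * s ^ n with hu_def
  have hu0 : u ≠ 0 := ne_zero_of_rdN_ne_zero T (hg.unit hu i₀)
  have hreg : ∀ P, T.ρ P = z → RegAt P (algebraMap L₀ L u) := fun P hP =>
    regAt_of_ord_nonneg (hg.2 P hP).ge
  have hreg' : ∀ P, T.ρ P = z → RegAt P (algebraMap L₀ L u⁻¹) := fun P hP =>
    regAt_of_ord_nonneg (by rw [map_inv₀, Place.ord_inv, hg.2 P hP, neg_zero])
  have h1 := S.reg z hz u hreg Q hQ
  have h2 := S.reg z hz u⁻¹ hreg' Q hQ
  have hNinv : S.Nm u⁻¹ = (S.Nm u)⁻¹ :=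
    eq_inv_of_mul_eq_one_right (by rw [← map_mul, mul_inv_cancel₀ hu0, map_one])
  have hNu : S.Nm u = Rt.C * (Rt.g' * S.Nm s) ^ n := by
    rw [hu_def, map_mul, map_pow, Rt.eq]; ring
  by_cases hw : Rt.g' * S.Nm s = 0
  · rw [hw, map_zero]; exact regAt_zero Q
  have o1 : 0 ≤ Q.ord (algebraMap L₀' L' (S.Nm u)) := h1.ord_nonneg
  have o2 : 0 ≤ Q.ord (algebraMap L₀' L' (S.Nm u⁻¹)) := h2.ord_nonneg
  rw [hNinv, map_inv₀, Place.ord_inv] at o2
  have o3 : Q.ord (algebraMap L₀' L' (S.Nm u)) = 0 := by omega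
  obtain ⟨C', hC'⟩ := Rt.hC
  have hCne : algebraMap L₀' L' Rt.C ≠ 0 := (map_ne_zero _).mpr Rt.hC0
  have hwne : algebraMap L₀' L' (Rt.g' * S.Nm s) ≠ 0 := (map_ne_zero _).mpr hw
  rw [hNu, map_mul, map_pow, Place.ord_mul Q hCne (pow_ne_zero n hwne), ord_pow, hC',
    ord_algebraMap, zero_add] at o3
  have o4 : Q.ord (algebraMap L₀' L' (Rt.g' * S.Nm s)) = 0 := by
    rcases mul_eq_zero.mp o3 with h | h
    · exact absurd (by exact_mod_cast h) hn
    · exact h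
  exact regAt_of_ord_nonneg o4.ge

include Rt in
/-- The value of `w = g' · Nm s` on the component below a single component. -/
theorem hasValue {G : ∀ i, E i} {i : ι} (hi : S.S i) {μ : k}
    (hμ : T'.rdN (S.single i hi).i' Rt.g'
      = algebraMap k _ μ * (S.single i hi).R.N (G i) ^ (S.single i hi).e)
    {z : Z} (hz : z ∈ SS) {s : L₀} (hs : ∀ j, T.rdN j s ≠ 0) {a : k}
    (ha : HasValue (T.pt i z) (G i * T.rdN i s) a) :
    HasValue (T'.pt (S.single i hi).i' (S.zm z))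
      (T'.rdN (S.single i hi).i' (Rt.g' * S.Nm s)) (μ * a ^ d) := by
  have e1 : T'.rdN (S.single i hi).i' (Rt.g' * S.Nm s)
      = algebraMap k _ μ * (S.single i hi).R.N (G i * T.rdN i s) ^ (S.single i hi).e := by
    rw [T'.rdN_mul (T'.mem_of_rdN_ne_zero (Rt.hg' _)) (T'.mem_of_rdN_ne_zero (S.unit s hs _)),
      hμ, (S.single i hi).norm s hs, map_mul, mul_pow, mul_assoc]
  have hd : a ^ d = (a ^ (S.single i hi).R.f) ^ (S.single i hi).e := by
    rw [← pow_mul, (S.single i hi).deg]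
  rw [e1, hd]
  exact (((S.single i hi).R.hasValue_N ((S.single i hi).pt z hz) ha).pow _).const_mul μ

include Rt in
/-- The value of `w = g' · Nm s` on the component below a double component. -/
theorem hasValue_double {G : ∀ i, E i} {i₁ i₂ : ι}
    (R : DoubleRel T T' S.Nm SS S.zm d i₁ i₂) {μ : k}
    (hμ : T'.rdN R.i' Rt.g'
      = algebraMap k _ μ * (R.R₁.N (G i₁) ^ R.e₁ * R.R₂.N (G i₂) ^ R.e₂))
    {z : Z} (hz : z ∈ SS) {s : L₀} (hs : ∀ j, T.rdN j s ≠ 0) {a₁ a₂ : k}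
    (ha₁ : HasValue (T.pt i₁ z) (G i₁ * T.rdN i₁ s) a₁)
    (ha₂ : HasValue (T.pt i₂ z) (G i₂ * T.rdN i₂ s) a₂) :
    HasValue (T'.pt R.i' (S.zm z)) (T'.rdN R.i' (Rt.g' * S.Nm s))
      (μ * (a₁ ^ (R.R₁.f * R.e₁) * a₂ ^ (R.R₂.f * R.e₂))) := by
  have e1 : T'.rdN R.i' (Rt.g' * S.Nm s)
      = algebraMap k _ μ * (R.R₁.N (G i₁ * T.rdN i₁ s) ^ R.e₁
        * R.R₂.N (G i₂ * T.rdN i₂ s) ^ R.e₂) := by
    rw [T'.rdN_mul (T'.mem_of_rdN_ne_zero (Rt.hg' _)) (T'.mem_of_rdN_ne_zero (S.unit s hs _)),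
      hμ, R.norm s hs, map_mul, map_mul, mul_pow, mul_pow]
    ring
  rw [e1, pow_mul, pow_mul]
  exact (((R.R₁.hasValue_N (R.pt₁ z hz) ha₁).pow _).mul
    ((R.R₂.hasValue_N (R.pt₂ z hz) ha₂).pow _)).const_mul μ

end SideRoot

/-- **Two single components of one side are linked.** -/
theorem SideE.lk_single [Infinite k] (S : SideE T T' SS d) {n : ℕ} {h : L₀}
    (Rt : SideRoot S n h) (hP : HasPrincipalDivisors K L) (hn : n ≠ 0)
    (hcop : Nat.Coprime d n) (hk : ∀ i', RootClosed k (E' i') n)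
    (hglue : ∀ z ∈ SS, Glued T z) (hdeg : ∀ z ∈ SS, ∀ i, (T.pt i z).deg = 1)
    (hu : ∀ i, T.rdN i h ≠ 0) {G : ∀ i, E i} (hG : ∀ i, T.rdN i h = G i ^ n) {i j : ι}
    (hi : S.S i) (hj : S.S j) : Lk T SS n h G i j := by
  obtain ⟨μi, hμi, hri⟩ := Rt.exists_mu hn hk hu hG hi
  obtain ⟨μj, hμj, hrj⟩ := Rt.exists_mu hn hk hu hG hj
  have ha0 : Rt.a⁻¹ ≠ 0 := inv_ne_zero Rt.ha
  have hμi0 : μi ≠ 0 := by
    rintro rfl
    rw [zero_pow hn] at hμi
    exact ha0 hμi.symm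
  have hA : (μj / μi) ^ n = 1 := by rw [div_pow, hμi, hμj, div_self ha0]
  refine ⟨(μj / μi) ^ (Int.gcdA d n), zpow_pow_eq_one hA _, fun z hz s hs a b ha hb => ?_⟩
  have v1 := Rt.hasValue hi hri hz hs.1 ha
  have v2 := Rt.hasValue hj hrj hz hs.1 hb
  have e1 : μi * a ^ d = μj * b ^ d :=
    ((S.glue' z hz _ (Rt.inR hn i hz hu hs) _ _ _).mp v1).unique v2
  obtain ⟨a', ha'0, ha'⟩ := hs.exists_value hP hn (hdeg z hz) hu hG i
  obtain ⟨b', hb'0, hb'⟩ := hs.exists_value hP hn (hdeg z hz) hu hG j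
  have haa : a = a' := ha.unique ha'
  have hbb : b = b' := hb.unique hb'
  refine ratio_eq hcop (by rw [haa]; exact ha'0) (by rw [hbb]; exact hb'0) ?_
    (hs.pow_eq (hglue z hz) hu hG ha hb)
  rw [div_mul_eq_mul_div, ← e1, eq_div_iff hμi0]
  ring

/-- **The link of a double relation**: if the two components `i₁`, `i₂` of a double relation
are linked, then `i₁` is linked with every single component of the side. -/
theorem SideE.lk_double [Infinite k] (S : SideE T T' SS d) {n : ℕ} {h : L₀}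
    (Rt : SideRoot S n h) (hP : HasPrincipalDivisors K L) (hn : n ≠ 0)
    (hcop : Nat.Coprime d n) (hk : ∀ i', RootClosed k (E' i') n)
    (hglue : ∀ z ∈ SS, Glued T z) (hdeg : ∀ z ∈ SS, ∀ i, (T.pt i z).deg = 1)
    (hu : ∀ i, T.rdN i h ≠ 0) {G : ∀ i, E i} (hG : ∀ i, T.rdN i h = G i ^ n) {i₁ i₂ : ι}
    (R : DoubleRel T T' S.Nm SS S.zm d i₁ i₂) (h21 : Lk T SS n h G i₂ i₁) {j : ι}
    (hj : S.S j) : Lk T SS n h G i₁ j := by
  obtain ⟨μD, hμD, hrD⟩ := Rt.exists_mu_double hn hk hu hG R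
  obtain ⟨μj, hμj, hrj⟩ := Rt.exists_mu hn hk hu hG hj
  obtain ⟨κ, hκ, hl⟩ := h21
  have ha0 : Rt.a⁻¹ ≠ 0 := inv_ne_zero Rt.ha
  have hμD0 : μD ≠ 0 := by
    rintro rfl
    rw [zero_pow hn] at hμD
    exact ha0 hμD.symm
  have hκ0 : κ ≠ 0 := by
    rintro rfl
    rw [zero_pow hn] at hκ
    exact zero_ne_one hκ
  set D₂ : ℕ := R.R₂.f * R.e₂ with hD₂
  set D₁ : ℕ := R.R₁.f * R.e₁ with hD₁
  have hA : (μj / (μD * κ ^ D₂)) ^ n = 1 := by
    rw [div_pow, mul_pow, hμD, hμj, ← pow_mul, mul_comm D₂ n, pow_mul, hκ, one_pow, mul_one,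
      div_self ha0]
  refine ⟨(μj / (μD * κ ^ D₂)) ^ (Int.gcdA d n), zpow_pow_eq_one hA _,
    fun z hz s hs a b ha hb => ?_⟩
  obtain ⟨a₂, -, ha₂⟩ := hs.exists_value hP hn (hdeg z hz) hu hG i₂
  have h2 : a₂ = κ * a := hl z hz s hs a₂ a ha₂ ha
  have v1 := Rt.hasValue_double R hrD hz hs.1 ha ha₂
  have v2 := Rt.hasValue hj hrj hz hs.1 hb
  have e1 : μD * (a ^ D₁ * a₂ ^ D₂) = μj * b ^ d :=
    ((S.glue' z hz _ (Rt.inR hn j hz hu hs) _ _ _).mp v1).unique v2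
  obtain ⟨a', ha'0, ha'⟩ := hs.exists_value hP hn (hdeg z hz) hu hG i₁
  obtain ⟨b', hb'0, hb'⟩ := hs.exists_value hP hn (hdeg z hz) hu hG j
  have haa : a = a' := ha.unique ha'
  have hbb : b = b' := hb.unique hb'
  refine ratio_eq hcop (by rw [haa]; exact ha'0) (by rw [hbb]; exact hb'0) ?_
    (hs.pow_eq (hglue z hz) hu hG ha hb)
  have hd : a ^ d = a ^ D₁ * a ^ D₂ := by rw [← pow_add, hD₁, hD₂, R.deg]
  have hden : μD * κ ^ D₂ ≠ 0 := mul_ne_zero hμD0 (pow_ne_zero _ hκ0)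
  rw [div_mul_eq_mul_div, ← e1, h2, mul_pow, hd, eq_div_iff hden]
  ring

end Side

/-! ## B3_e -/

namespace NUDataE

variable (D : NUDataE K L₀ L k ι Z E K' L₀' L' ι' Z' E')

/-- **B2_e**: the reductions of `h` are `n`-th powers (`k` algebraically closed). -/
theorem exists_root [IsAlgClosed k] {n : ℕ} (hn : n ≠ 0) (hcop : Nat.Coprime D.d n)
    (hL : LowRoot D.T' n) {h : L₀} (hu : ∀ i, D.T.rdN i h ≠ 0) {cα gα cβ gβ : L₀'}
    (hcα : IsConstT D.T' cα) (hcβ : IsConstT D.T' cβ)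
    (hα : D.sα.Nm h = cα * gα ^ n) (hβ : D.sβ.Nm h = cβ * gβ ^ n) (i : ι) :
    ∃ G : E i, D.T.rdN i h = G ^ n := by
  have h1 : IsCPow k n (D.T.rdN i h) := by
    rcases D.cover i with hi | hi
    · exact D.sα.isCPow_red hcop hL hu hcα hα hi
    · exact D.sβ.isCPow_red hcop hL hu hcβ hβ hi
  obtain ⟨c, y, hy⟩ := h1
  obtain ⟨γ, hγ⟩ := IsAlgClosed.exists_pow_nat_eq c (Nat.pos_of_ne_zero hn)
  exact ⟨algebraMap k (E i) γ * y, by rw [mul_pow, ← map_pow, hγ, hy]⟩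

/-- All components are linked with `jα`. -/
theorem lk_all [IsAlgClosed k] (hP : HasPrincipalDivisors K L) {n : ℕ} (hn : n ≠ 0)
    (hcop : Nat.Coprime D.d n) (hL : LowRoot D.T' n) (hk : ∀ i', RootClosed k (E' i') n)
    {h : L₀} (hu : ∀ i, D.T.rdN i h ≠ 0) {cα gα cβ gβ : L₀'}
    (hcα : IsConstT D.T' cα) (hcβ : IsConstT D.T' cβ)
    (hα : D.sα.Nm h = cα * gα ^ n) (hβ : D.sβ.Nm h = cβ * gβ ^ n)
    {G : ∀ i, E i} (hG : ∀ i, D.T.rdN i h = G i ^ n) (i : ι) :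
    Lk D.T D.SS n h G i D.jα := by
  haveI : Infinite k := IsAlgClosed.instInfinite
  obtain ⟨RtA⟩ := D.sα.exists_sideRoot hL hu hcα hα
  obtain ⟨RtB⟩ := D.sβ.exists_sideRoot hL hu hcβ hβ
  have hglue : ∀ z ∈ D.SS, Glued D.T z := fun z hz => D.glued hP hz
  have h21 : Lk D.T D.SS n h G D.i₂ D.i₁ :=
    D.sβ.lk_single RtB hP hn hcop hk hglue D.deg_one hu hG D.hi₂ D.hi₁
  have h1j : Lk D.T D.SS n h G D.i₁ D.jα :=
    D.sα.lk_double RtA hP hn hcop hk hglue D.deg_one hu hG D.double h21 D.hjα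
  rcases D.cover i with hi | hi
  · exact D.sα.lk_single RtA hP hn hcop hk hglue D.deg_one hu hG hi D.hjα
  · exact (D.sβ.lk_single RtB hP hn hcop hk hglue D.deg_one hu hG hi D.hi₁).trans hP hn
      D.deg_one hu hG h1j

/-- **B2_e + B3_e**: if `h` is a unit for all valuations of the upper level and the norms of
`h` along `α` and `β` are constants times `n`-th powers, `n` prime to the local degree, then `h`
has TRIVIAL REDUCTION DATA: `red i h = G i ^ n` and the functions `G i · red i s` take the same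
non-zero value at every multiple point `z` (for every local generator `s` of `h` at `z`). -/
theorem trivRed [IsAlgClosed k] (hP : HasPrincipalDivisors K L) {n : ℕ} (hn : n ≠ 0)
    (hcop : Nat.Coprime D.d n) (hL : LowRoot D.T' n) (hk : ∀ i', RootClosed k (E' i') n)
    {h : L₀} (hu : ∀ i, D.T.rdN i h ≠ 0) {cα gα cβ gβ : L₀'}
    (hcα : IsConstT D.T' cα) (hcβ : IsConstT D.T' cβ)
    (hα : D.sα.Nm h = cα * gα ^ n) (hβ : D.sβ.Nm h = cβ * gβ ^ n) :
    TrivRedT D.T D.SS n h := by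
  haveI : Infinite k := IsAlgClosed.instInfinite
  have hex := D.exists_root hn hcop hL hu hcα hcβ hα hβ
  choose G hG using hex
  have hlk := D.lk_all hP hn hcop hL hk hu hcα hcβ hα hβ hG
  choose ε hε hl using hlk
  have hε0 : ∀ i, ε i ≠ 0 := by
    intro i h0
    have := hε i
    rw [h0, zero_pow hn] at this
    exact zero_ne_one this
  refine ⟨1, fun i => algebraMap k (E i) (ε i)⁻¹ * G i, one_ne_zero, fun i => ?_,
    fun z hz s hs => ?_⟩
  · rw [map_one, one_mul, mul_pow, ← map_pow, inv_pow, hε i, inv_one, map_one, one_mul, hG i]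
  · -- the local generator for the new roots is a local generator for the old ones
    obtain ⟨a, ha0, ha⟩ := hs.exists_value hP hn (D.deg_one z hz) hu hG D.jα
    refine ⟨a, ha0, fun i => ?_⟩
    obtain ⟨b, -, hb⟩ := hs.exists_value hP hn (D.deg_one z hz) hu hG i
    have hba : b = ε i * a := hl i z hz s hs b a hb ha
    have h1 : HasValue (D.T.pt i z) (algebraMap k (E i) (ε i)⁻¹ * (G i * D.T.rdN i s))
        ((ε i)⁻¹ * b) := hb.const_mul _
    have hval : (ε i)⁻¹ * b = a := by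
      rw [hba, ← mul_assoc, inv_mul_cancel₀ (hε0 i), one_mul]
    rw [hval] at h1
    show HasValue (D.T.pt i z) (algebraMap k (E i) (ε i)⁻¹ * G i * D.T.rdN i s) a
    rw [mul_assoc]
    exact h1

end NUDataE

end Fermat.Agent.S45.NUE.H79

end
end
-- ==== END Fermat.Agent.S45.NUE.H79_TrivE

-- ==== BEGIN Fermat.Agent.S45.NUE.H88_ChartOoE
section

/-!
# S45 / NU_e, package E-FIN, leaf E-CUSP: `ChartOoE` for the chart of `1 / j` (helper88)

Level `N`, `M' ∣ N`, `q ∤ M'`, `A` over `q`, `D` an `NRData` of `L0 A N` over `L0 A M'` with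
`D.VE = VE0 A M'` and the degree formula (E-TOT), `C` a chart over `R^ur` with the valuation rings
of `D` and `C.B = intSub R^ur (1 / j)`, `1 / j` with transcendental reduction on a component `i₀`.

* `HintOoE A N` : the integral closure of `K^ur[1 / j]` in `L0 A N`;
* `chartOoE_of_nrData` : **`H88.ChartOoE C q D.e (HintOoE A N)`** (unconditional for such a
  chart): `hq0`, `hqV`, `hE` from helper65's VALE_e, `crit` from helper28's `critE_inv`;
* `uoo_mem_chart` : `1 / j ∈ C.B`;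
* `mem_chart_of_isIntegral` : membership in `C.B` = integral over `K^ur[1 / j]` + in all `V i`;
* `hptooE_of_wit` : **the hypothesis `hptoo` of `H65.finModE_of`** from the cusp witnesses
  (`H88.CuspWit`) of all components and the branches at the cusps.
-/

set_option autoImplicit false
set_option synthInstance.maxHeartbeats 400000
set_option maxHeartbeats 1000000
set_option linter.style.haveILetI false
set_option linter.unusedSectionVars false
set_option linter.unusedVariables false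

noncomputable section

open ModularCurve AlgebraicCurve Polynomial IntermediateField
open Fermat.Agent.S24 Fermat.Agent.BAD.H88 Fermat.Agent.S28 Fermat.Agent.S28.H73
open Fermat.Agent.RED.H73 Fermat.Agent.RED.H17 Fermat.Agent.S36.NU.H88
open Fermat.Agent.S36.NU.H23 Fermat.Agent.S36.NU.H41 Fermat.Agent.S36.NU.H17
open Fermat.Agent.S36.NU.H16 Fermat.Agent.S36.NU.H65 Fermat.Agent.BAD

namespace Fermat.Agent.S45.NUE.H88

section Hint

variable (A : ValuationSubring Kbar) (N : ℕ) [NeZero N]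

/-- The integral closure of `K^ur[1 / j]` in the inertia-fixed functions of level `N`. -/
def HintOoE : Subring ↥(L0 A N) :=
  (integralClosure ↥(Algebra.adjoin ↥(Kur A)
    ({(j0 A N)⁻¹} : Set ↥(L0 A N))) ↥(L0 A N)).toSubring

theorem mem_HintOoE {x : ↥(L0 A N)} : x ∈ HintOoE A N ↔
    IsIntegral ↥(Algebra.adjoin ↥(Kur A) ({(j0 A N)⁻¹} : Set ↥(L0 A N))) x := Iff.rfl

theorem isIntegral_uooE :
    IsIntegral ↥(Algebra.adjoin ↥(Kur A) ({(j0 A N)⁻¹} : Set ↥(L0 A N))) (j0 A N)⁻¹ := by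
  have e : (j0 A N)⁻¹
      = algebraMap ↥(Algebra.adjoin ↥(Kur A) ({(j0 A N)⁻¹} : Set ↥(L0 A N)))
          ↥(L0 A N) ⟨(j0 A N)⁻¹, Algebra.subset_adjoin (Set.mem_singleton _)⟩ := rfl
  rw [e]
  exact isIntegral_algebraMap

theorem isIntegral_const_ooE (c : ↥(Kur A)) :
    IsIntegral ↥(Algebra.adjoin ↥(Kur A) ({(j0 A N)⁻¹} : Set ↥(L0 A N)))
      (algebraMap ↥(Kur A) ↥(L0 A N) c) := by
  rw [IsScalarTower.algebraMap_apply ↥(Kur A)
    ↥(Algebra.adjoin ↥(Kur A) ({(j0 A N)⁻¹} : Set ↥(L0 A N))) ↥(L0 A N)]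
  exact isIntegral_algebraMap

theorem hqR_ooE (q : ℕ) : algebraMap ↥(Rur A) ↥(L0 A N) ((q : ℕ) : ↥(Rur A))
    = ((q : ℕ) : ↥(L0 A N)) := map_natCast _ q

theorem hqH_ooE (q : ℕ) :
    (algebraMap ↥(Rur A) ↥(L0 A N) ((q : ℕ) : ↥(Rur A)))⁻¹ ∈ HintOoE A N := by
  rw [hqR_ooE, mem_HintOoE]
  have e1 : (((q : ℕ) : ↥(L0 A N)))⁻¹
      = algebraMap ↥(Kur A) ↥(L0 A N) (((q : ℕ) : ↥(Kur A)))⁻¹ := by
    rw [map_inv₀, map_natCast]
  rw [e1]
  exact isIntegral_const_ooE A N _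

end Hint

section ChartE

variable (A : ValuationSubring Kbar) (q M' N : ℕ) [NeZero M'] [NeZero N] [NeZero q]
  (hq : q.Prime) (hqM : ¬ q ∣ M') (hA : A.LiesOverPrime q)
  (hle : modularFunctionFieldBar M' ≤ modularFunctionFieldBar N)
  {ι : Type} [Fintype ι] [DecidableEq ι] {κ : ι → Type} [∀ i, Field (κ i)]
  (alg : ∀ i, Algebra (FM A M') (κ i))
  (D : @H42.NRData ↥(L0 A M') ↥(L0 A N) (FM A M') _ _ _ (algL0 A hle) ι κ _ alg)
  (hVE : @H42.NRData.VE ↥(L0 A M') ↥(L0 A N) (FM A M') _ _ _ (algL0 A hle) ι κ _ alg D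
    = VE0 A M')
  (hdeg : ∑ i, @H42.NRData.e ↥(L0 A M') ↥(L0 A N) (FM A M') _ _ _ (algL0 A hle) ι κ _ alg D i
        * @Module.finrank (FM A M') (κ i) _ _ (alg i).toModule
      = @Module.finrank ↥(L0 A M') ↥(L0 A N) _ _ (algL0 A hle).toModule)
  {kk : Type*} {κC : ι → Type*} [Field kk] [∀ i, Field (κC i)] [∀ i, Algebra kk (κC i)]
  (C : Chart ↥(Rur A) ↥(L0 A N) kk ι κC)
  (hV : ∀ i, C.V i = @H42.NRData.V ↥(L0 A M') ↥(L0 A N) (FM A M') _ _ _ (algL0 A hle) ι κ _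
    alg D i)
  (i₀ : ι)
  (hj : j0 A N ∈ C.V i₀) (htr : Transcendental kk (C.red i₀ ⟨j0 A N, hj⟩))
  (hBoo : C.B = intSub ↥(Rur A) (j0 A N)⁻¹)
  (hϖ : algebraMap ↥(Rur A) ↥(L0 A N) ((q : ℕ) : ↥(Rur A))
    = @algebraMap ↥(L0 A M') ↥(L0 A N) _ _ (algL0 A hle)
        (@H42.NRData.ϖ ↥(L0 A M') ↥(L0 A N) (FM A M') _ _ _ (algL0 A hle) ι κ _ alg D))

include hq hqM hA hVE hdeg hV htr hBoo in
/-- Membership in the chart of `1 / j`: integral over `K^ur[1 / j]` and in all `V i`. -/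
theorem mem_chart_of_isIntegral {f : ↥(L0 A N)}
    (hf₁ : IsIntegral ↥(Algebra.adjoin ↥(Kur A) ({(j0 A N)⁻¹} : Set ↥(L0 A N))) f)
    (hf₂ : ∀ i, f ∈ C.V i) : f ∈ C.B := by
  rw [hBoo]
  exact Fermat.Agent.S45.NUE.H28.critE_inv A q M' N hq hqM hA hle alg D hVE hdeg C hV i₀ hj htr
    hf₁ hf₂

include hBoo in
/-- `1 / j` lies in the chart of `1 / j`. -/
theorem uoo_mem_chart : (j0 A N)⁻¹ ∈ C.B := by
  rw [hBoo, mem_intSub]
  have e : (j0 A N)⁻¹
      = algebraMap ↥(Algebra.adjoin ↥(Rur A) ({(j0 A N)⁻¹} : Set ↥(L0 A N)))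
          ↥(L0 A N) ⟨(j0 A N)⁻¹, Algebra.subset_adjoin (Set.mem_singleton _)⟩ := rfl
  rw [e]
  exact isIntegral_algebraMap

include hq hqM hA hVE hdeg hV htr hBoo hϖ in
/-- **`ChartOoE` for the chart of `1 / j`** with the valuation rings of an `NRData`. -/
theorem chartOoE_of_nrData :
    ChartOoE C ((q : ℕ) : ↥(Rur A))
      (fun i => @H42.NRData.e ↥(L0 A M') ↥(L0 A N) (FM A M') _ _ _ (algL0 A hle) ι κ _ alg D i)
      (HintOoE A N) := by
  letI := algL0 A hle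
  haveI : Module.Finite ↥(L0 A M') ↥(L0 A N) :=
    Fermat.Agent.S45.NUE.H41.finite_L0_of_le A M' N hle
  refine
    { hq0 := Fermat.Agent.S45.NUE.H65.q_ne_zero_of_nrData D _ hϖ
      hqV := fun i => Fermat.Agent.S45.NUE.H65.q_mem_nonunits_of_nrData D C id hV _ hϖ i
      hBH := ?_
      hqH := hqH_ooE A N q
      crit := ?_
      hE := Fermat.Agent.S45.NUE.H65.valE_of_nrData D hdeg C id hV _ hϖ }
  · intro x hx
    rw [hBoo] at hx
    exact isIntegral_adjoin_field ↥(Rur A) ↥(Kur A) (j0 A N)⁻¹ hx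
  · intro f hf hfV
    exact mem_chart_of_isIntegral A q M' N hq hqM hA hle alg D hVE hdeg C hV i₀ hj htr hBoo
      hf hfV

variable {Z K L : Type*} [Field K] [Field L] [Algebra K L] [Algebra ↥(L0 A N) L]

include hq hqM hA hVE hdeg hV htr hBoo hϖ in
/-- **E-CUSP: the hypothesis `hptoo` of `H65.finModE_of`** for a chart of `1 / j` with the
valuation rings of an `NRData`, from the cusp witnesses of all components and the branches at
the cusps. -/
theorem hptooE_of_wit (G : H96.GlueCore K ↥(L0 A N) L kk ι Z κC)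
    (hw : ∀ i, CuspWit C ((q : ℕ) : ↥(Rur A))
      (fun i => @H42.NRData.e ↥(L0 A M') ↥(L0 A N) (FM A M') _ _ _ (algL0 A hle) ι κ _ alg D i)
      ⟨(j0 A N)⁻¹, uoo_mem_chart A N C hBoo⟩ i)
    (hbr : ∀ 𝔪 : Ideal C.B, 𝔪.IsMaximal →
      (∀ β : C.B, (β : ↥(L0 A N)) = (j0 A N)⁻¹ → β ∈ 𝔪) →
      ∀ i, C.Icomp i ≤ 𝔪 → Nonempty (Branch C 𝔪 i)) :
    ∀ 𝔪 : Ideal C.B, 𝔪.IsMaximal → (∃ i, C.Icomp i ≤ 𝔪) →
      (∀ β : C.B, (β : ↥(L0 A N)) = (j0 A N)⁻¹ → β ∈ 𝔪) →
      H96.PointDataAt C G ((q : ℕ) : ↥(Rur A)) 𝔪 :=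
  cusp_pointDataAtE
    (chartOoE_of_nrData A q M' N hq hqM hA hle alg D hVE hdeg C hV i₀ hj htr hBoo hϖ) G
    (j0 A N)⁻¹ (uoo_mem_chart A N C hBoo) hw hbr

end ChartE

end Fermat.Agent.S45.NUE.H88

end
end
-- ==== END Fermat.Agent.S45.NUE.H88_ChartOoE

-- ==== BEGIN Fermat.Agent.S45.NUE.H88_CuspWitE
section

/-!
# S45 / NU_e, package E-FIN, leaf E-CUSP: the cusp witnesses from `q`-expansion identities
(helper88)

Bridge between the witness side (helper82: `EooE a`, CUSP-RED_e; helper73: `x_a∞`, CUSP-INT_e,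
CUSP-W_e) and `H88.CuspWit` (the input of `H88.cusp_pointDataAtE`).  Everything is stated for an
arbitrary reduction map `s : V i →+* S` of the valuation ring of the component `i` (`S` a
non-trivial `k`-algebra, e.g. `LaurentSeries (kV A)` and `s = sE a`).

* `rd_eq_of_redE` : `s x = s y` ⟹ `rd i x = rd i y`;
* `UnitAtCusp.one_sub_mul_pow` : `1 - c u ^ n` (`0 < n`) is a unit at the cusps;
* `UnitAtCusp.of_red'` : the form of `of_red` with explicit membership proofs;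
* `CuspWit.of_red_one` : a component of multiplicity one, from CUSP-RED + DIV;
* `algebraMap_eq_C_laurentE` : `algebraMap k (LaurentSeries k) c = HahnSeries.C c`;
* `CuspWit.of_series` : **a component of multiplicity `e i`**, from
  CUSP-RED (`s E = P (s u)`, `P(0) ≠ 0`), DIV (`E ∈ q V i'`, `i' ≠ i`),
  RAM (`x ^ e i = q f E ^ r`, `f ∈ V i`) and
  CUSP-W (`s f ^ m * s E ^ a = c (1 - c' (s u) ^ n₁) ^ n₂ * s E ^ b`, `c ≠ 0`, `0 < m`, `0 < n₁`).
-/

set_option autoImplicit false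
set_option linter.unusedSectionVars false
set_option linter.style.haveILetI false

noncomputable section

open Polynomial

namespace Fermat.Agent.S45.NUE.H88

open Fermat.Agent.S36.NU.H16 Fermat.Agent.S36.NU.H99

section Abs

variable {R F k ι : Type*} {κ : ι → Type*} [CommRing R] [Field F] [Algebra R F]
  [Field k] [∀ i, Field (κ i)] [∀ i, Algebra k (κ i)]

variable (C : Chart R F k ι κ)

/-- Equality of the residues at `V i` from a reduction map `s` of `V i`. -/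
theorem rd_eq_of_redE (i : ι) {S : Type*} [CommRing S] [Nontrivial S]
    (s : ↥(C.V i) →+* S) {x y : F} (hx : x ∈ C.V i) (hy : y ∈ C.V i)
    (h : s ⟨x, hx⟩ = s ⟨y, hy⟩) : C.rd i x = C.rd i y := by
  have hsub : x - y ∈ (C.V i).nonunits := by
    refine mem_nonunits_of_map_eq_zero (C.V i) s ⟨x - y, sub_mem hx hy⟩ ?_
    have e : (⟨x - y, sub_mem hx hy⟩ : ↥(C.V i)) = ⟨x, hx⟩ - ⟨y, hy⟩ := rfl
    rw [e, map_sub, h, sub_self]
  have h0 := (C.rd_eq_zero_iff i (sub_mem hx hy)).2 hsub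
  rw [C.rd_sub i hx hy] at h0
  exact sub_eq_zero.1 h0

variable {C}

/-- `1 - c u ^ n`, `0 < n`, is a unit at the cusps. -/
theorem UnitAtCusp.one_sub_mul_pow (i : ι) (u : C.B) (c : C.B) (r : k)
    (hc : C.rdB i c = algebraMap k (κ i) r) {n : ℕ} (hn : 0 < n) :
    UnitAtCusp C i u (1 - c * u ^ n) := by
  refine ⟨1 - Polynomial.C r * Polynomial.X ^ n, ?_, ?_⟩
  · rw [Polynomial.coeff_sub, Polynomial.coeff_one_zero, Polynomial.coeff_C_mul,
      Polynomial.coeff_X_pow, if_neg (by omega), mul_zero, sub_zero]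
    exact one_ne_zero
  · rw [map_sub, map_one, map_mul, map_pow, hc, map_sub, map_one, map_mul, aeval_C, map_pow,
      aeval_X]

/-- `UnitAtCusp.of_red` with explicit membership proofs. -/
theorem UnitAtCusp.of_red' (i : ι) {S : Type*} [CommRing S] [Nontrivial S] [Algebra k S]
    (s : ↥(C.V i) →+* S)
    (hconst : ∀ (r : R) (h : algebraMap R F r ∈ C.V i),
      s ⟨algebraMap R F r, h⟩ = algebraMap k S (C.res r))
    (u β : C.B) (huV : (u : F) ∈ C.V i) (hβV : (β : F) ∈ C.V i) (P : k[X])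
    (h0 : P.coeff 0 ≠ 0) (hs : s ⟨(β : F), hβV⟩ = aeval (s ⟨(u : F), huV⟩) P) :
    UnitAtCusp C i u β :=
  UnitAtCusp.of_red i s hconst u β P h0 hs

/-- **The cusp witnesses of a component of multiplicity one**, from CUSP-RED and DIV. -/
theorem CuspWit.of_red_one (q : R) (e : ι → ℕ) (u : C.B) (i : ι) (he : e i = 1)
    {S : Type*} [CommRing S] [Nontrivial S] [Algebra k S] (s : ↥(C.V i) →+* S)
    (hconst : ∀ (r : R) (h : algebraMap R F r ∈ C.V i),
      s ⟨algebraMap R F r, h⟩ = algebraMap k S (C.res r))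
    (E : C.B) (huV : (u : F) ∈ C.V i) (hEV : (E : F) ∈ C.V i) (P : k[X]) (h0 : P.coeff 0 ≠ 0)
    (hs : s ⟨(E : F), hEV⟩ = aeval (s ⟨(u : F), huV⟩) P)
    (hdiv : ∀ i', i' ≠ i → ∃ f' ∈ C.V i', (E : F) = algebraMap R F q * f') :
    CuspWit C q e u i :=
  CuspWit.of_one C q e u i he E (UnitAtCusp.of_red' i s hconst u E huV hEV P h0 hs) hdiv

/-- **The cusp witnesses of a component of multiplicity `e i`**, from CUSP-RED, DIV, RAM and
CUSP-W (all in terms of a reduction map `s` of `V i`). -/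
theorem CuspWit.of_series (q : R) (e : ι → ℕ) (u : C.B) (i : ι) (he : 0 < e i)
    {S : Type*} [CommRing S] [Nontrivial S] [Algebra k S] (s : ↥(C.V i) →+* S)
    (hconst : ∀ (r : R) (h : algebraMap R F r ∈ C.V i),
      s ⟨algebraMap R F r, h⟩ = algebraMap k S (C.res r))
    -- CUSP-RED
    (E : C.B) (huV : (u : F) ∈ C.V i) (hEV : (E : F) ∈ C.V i) (P : k[X]) (h0 : P.coeff 0 ≠ 0)
    (hs : s ⟨(E : F), hEV⟩ = aeval (s ⟨(u : F), huV⟩) P)
    -- DIV
    (hdiv : ∀ i', i' ≠ i → ∃ f' ∈ C.V i', (E : F) = algebraMap R F q * f')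
    -- RAM
    (x : C.B) (f : F) (hfV : f ∈ C.V i) (r : ℕ)
    (hxf : (x : F) ^ e i = algebraMap R F q * (f * (E : F) ^ r))
    -- CUSP-W
    (m a b n₁ n₂ : ℕ) (hm : 0 < m) (hn₁ : 0 < n₁) (c c' : k) (hc : c ≠ 0)
    (hW : s ⟨f, hfV⟩ ^ m * s ⟨(E : F), hEV⟩ ^ a
      = algebraMap k S c * (1 - algebraMap k S c' * s ⟨(u : F), huV⟩ ^ n₁) ^ n₂
        * s ⟨(E : F), hEV⟩ ^ b) :
    CuspWit C q e u i := by
  have hE : UnitAtCusp C i u E := UnitAtCusp.of_red' i s hconst u E huV hEV P h0 hs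
  obtain ⟨ct, hct⟩ := C.res_surj c
  obtain ⟨ct', hct'⟩ := C.res_surj c'
  have hctV : algebraMap R F ct ∈ C.V i := C.B_le i _ (C.B.algebraMap_mem ct)
  have hct'V : algebraMap R F ct' ∈ C.V i := C.B_le i _ (C.B.algebraMap_mem ct')
  -- the unit `Y`
  set Y : C.B := algebraMap R C.B ct * (1 - algebraMap R C.B ct' * u ^ n₁) ^ n₂
    * E ^ (b + (r + 1) * m) with hY
  have hYu : UnitAtCusp C i u Y := by
    refine ((UnitAtCusp.const i u ct (by rw [hct]; exact hc)).mul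
      ((UnitAtCusp.one_sub_mul_pow i u (algebraMap R C.B ct') c' ?_ hn₁).pow n₂)).mul
      (hE.pow _)
    rw [Fermat.Agent.S36.NU.H82.rdB_algebraMap, hct']
  -- the element `A`
  set A : C.B := E ^ a with hA
  refine ⟨he, E, hE, hdiv, x, f * (E : F) ^ r, mul_mem hfV (pow_mem hEV r), hxf, m, A, Y, hm,
    hYu, ?_⟩
  -- the congruence
  have hXV : ((E : F) * (f * (E : F) ^ r)) ^ m * (A : F) ∈ C.V i :=
    mul_mem (pow_mem (mul_mem hEV (mul_mem hfV (pow_mem hEV r))) m) (C.B_le i _ A.2)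
  have hYV : (Y : F) ∈ C.V i := C.B_le i _ Y.2
  rw [← C.rd_coe]
  refine rd_eq_of_redE C i s hXV hYV ?_
  have eX : (⟨((E : F) * (f * (E : F) ^ r)) ^ m * (A : F), hXV⟩ : ↥(C.V i))
      = (⟨(E : F), hEV⟩ * (⟨f, hfV⟩ * ⟨(E : F), hEV⟩ ^ r)) ^ m * ⟨(E : F), hEV⟩ ^ a := by
    apply Subtype.ext
    rfl
  have eY : (⟨(Y : F), hYV⟩ : ↥(C.V i))
      = ⟨algebraMap R F ct, hctV⟩
        * (1 - ⟨algebraMap R F ct', hct'V⟩ * ⟨(u : F), huV⟩ ^ n₁) ^ n₂
        * ⟨(E : F), hEV⟩ ^ (b + (r + 1) * m) := by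
    apply Subtype.ext
    rfl
  rw [eX, eY]
  simp only [map_mul, map_pow, map_sub, map_one]
  rw [hconst, hconst, hct, hct']
  have key : (s ⟨(E : F), hEV⟩ * (s ⟨f, hfV⟩ * s ⟨(E : F), hEV⟩ ^ r)) ^ m
        * s ⟨(E : F), hEV⟩ ^ a
      = s ⟨(E : F), hEV⟩ ^ ((r + 1) * m) * (s ⟨f, hfV⟩ ^ m * s ⟨(E : F), hEV⟩ ^ a) := by
    ring
  rw [key, hW]
  ring

end Abs

/-- The constants of the Laurent series: `algebraMap = HahnSeries.C`. -/
theorem algebraMap_eq_C_laurentE {k₀ : Type*} [Field k₀] (c : k₀) :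
    algebraMap k₀ (LaurentSeries k₀) c = HahnSeries.C c := by
  have h1 : algebraMap k₀ (PowerSeries k₀) c = PowerSeries.C c := by simp
  rw [HahnSeries.algebraMap_apply', h1, HahnSeries.ofPowerSeries_C]

end Fermat.Agent.S45.NUE.H88

end
end
-- ==== END Fermat.Agent.S45.NUE.H88_CuspWitE
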