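-- GENERATED (merged mirror, NOTES/tools/trim/merge3_helper67.py): 7 modules of the originals, bodies verbatim.
import Mathlib.RingTheory.Polynomial.Cyclotomic.Eval
import Mathlib.Algebra.CharP.Reduced
import Fermat.Agent.Zm.S45_L03_000
import Fermat.Agent.Zm.S45_L01_000
import Fermat.Agent.Zm.S12_L02_000
import Fermat.Agent.S44
import Fermat.Agent.Zm.S45_L02_000
import Fermat.Agent.Zm.S45_L02_002
import Fermat.Agent.Zm.S45_L03_001
import Fermat.Agent.Zm.S36_L08_001
import Fermat.Agent.Zm.S45_L03_002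
import Fermat.Agent.Zm.S36_L15_000
import Fermat.Agent.Zm.S36_L05_001

-- ==== BEGIN Fermat.Agent.S45.H43_Final
section

/-!
# S45 (helper43): the frozen statement from the two Kummer cores and S43

`s45_of : S36.NU.H81.Stmt_NUCoreTame → S45.NUE.Stmt_NUCoreETame → Stmt_S43 → <frozen S45>`

* `S36.NU.H81.Stmt_NUCoreTame` : the target of S36 / NU-B (exponent 2; owner helper10);
* `S45.NUE.Stmt_NUCoreETame` : the target of the geometric side of S45 (exponent `≥ 3`; owner
  helper68);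
* `Stmt_S43` : the frozen type of S43 (row 37; owner helper37).

Landed inputs: S05, S44, S08 (`Fermat.Agent.S05.result`, ...), S35, the glue `S45/Glue.lean`.
-/

set_option autoImplicit false

open WeierstrassCurve WeierstrassCurve.Affine WeierstrassCurve.Affine.Point
open CuspForm ModularFormClass UpperHalfPlane

namespace Fermat.Agent.S45.H43

/-- The frozen type of S43 (Ribet's level lowering for the Frey curve). -/
def Stmt_S43 : Prop :=
  ∀ (P : FreyPackage) {N q : ℕ} (_hcond : P.IsConductorLevel N) (_hq : q.Prime) (_hq2 : q ≠ 2)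
    (_hqp : q ≠ P.p) (_hqN : q ∣ N)
    (_hirr : GaloisRepIsIrreducible (K := AlgebraicClosure ℚ) ℚ P.freyCurve P.p)
    (_hmod : P.ModularRepOfLevel N) (_hunr : P.GaloisRepUnramifiedAt q),
    ∃ M : ℕ, M ∣ N ∧ ¬ q ∣ M ∧ P.ModularRepOfLevel M

/-- **S45 from `Stmt_S36e` and S43.** -/
theorem s45_of_s36e (h36 : Stmt_S36e) (h43 : Stmt_S43) (P : FreyPackage)
    (hmod : P.freyCurve.IsModular)
    (hirr : GaloisRepIsIrreducible (K := AlgebraicClosure ℚ) ℚ P.freyCurve P.p) :
    ∃ f : CuspForm (CongruenceSubgroup.Gamma0 2) 2, f ≠ 0 :=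
  Fermat.Agent.S45.exists_cuspForm_Gamma0_two_ne_zero P (exists_conductorLevel h36 P hmod)
    (fun _ hq hq2 hqp => Fermat.Agent.S05.result P hq hq2 hqp)
    (fun _ _ hcond hq hq2 hqp hqN hmodN hunr => h43 P hcond hq hq2 hqp hqN hirr hmodN hunr)
    (fun _ hcond hpN hmodN => Fermat.Agent.S44.result P hcond hpN hirr hmodN)
    Fermat.Agent.S08.result

/-- **S45 from the two Kummer cores and S43.** -/
theorem s45_of (h2 : Fermat.Agent.S36.NU.H81.Stmt_NUCoreTame)
    (hE : Fermat.Agent.S45.NUE.Stmt_NUCoreETame) (h43 : Stmt_S43) (P : FreyPackage)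
    (hmod : P.freyCurve.IsModular)
    (hirr : GaloisRepIsIrreducible (K := AlgebraicClosure ℚ) ℚ P.freyCurve P.p) :
    ∃ f : CuspForm (CongruenceSubgroup.Gamma0 2) 2, f ≠ 0 :=
  s45_of_s36e (s36e_of_cores h2 hE) h43 P hmod hirr

end Fermat.Agent.S45.H43

end
-- ==== END Fermat.Agent.S45.H43_Final

-- ==== BEGIN Fermat.Agent.S45.NUE.H23_ValE
section

/-!
# S45 / NU_e, package E-VAL (helper23): the `e + 1` Gauss valuations of level `N = M q^e`

`N = M q^e`, `q ∤ M` (`B M + k q^e = 1`), `A` a valuation ring of `ℚ̄`.  For `a = 0..e`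
(`a` = number of `F`-steps, component `F^a V^(e-a)`):

* `hE a : IsCuspExp N (gE q M a) (M q^min(e, 2a))` (helper73), `cE a = cG (hE a)` the normalised
  expansion at the cusp `1/(q^a M)`;
* `VF a : ValuationSubring (F_N)`, `redF a` (on `F_N · ℚ̄`);
* **`VE a : ValuationSubring (L0 A N)`**, **`sE a : VE a →+* k((s))`** (on the inertia-fixed
  functions), `mem_VE_iff`, `sE_mk`, kernel.

`a = e` is the Gauss valuation at `∞` (`mem_VE_top_iff`).
-/

set_option autoImplicit false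
set_option synthInstance.maxHeartbeats 400000
set_option maxHeartbeats 1000000
set_option linter.style.haveILetI false
set_option linter.unusedSectionVars false

noncomputable section

open ModularCurve AlgebraicCurve
open Fermat.Agent.S24 Fermat.Agent.BAD.H88 Fermat.Agent.S28 Fermat.Agent.S28.H73
open Fermat.Agent.RED.H73 Fermat.Agent.RED.H17 Fermat.Agent.S36.NU.H88
open Fermat.Agent.S36.NU.H23 Fermat.Agent.S45.NUE.H73
open scoped MatrixGroups

namespace Fermat.Agent.S45.NUE.H23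

section Level

variable (A : ValuationSubring Kbar)
variable (N q M e : ℕ) (B k : ℤ) (hN : N = M * q ^ e) (hB : B * M + k * (q : ℤ) ^ e = 1)
  (hq : q.Prime) [NeZero N] [NeZero q]

include hN hB hq in
theorem neZero_nE (a : ℕ) : NeZero (M * q ^ min e (2 * a)) :=
  ⟨(Nat.mul_pos (posE N q M e B k hN hB hq) (pow_pos hq.pos _)).ne'⟩

/-- The cusp `1/(q^a M)` has a normalised expansion. -/
theorem hE (a : ℕ) :
    haveI := neZero_nE N q M e B k hN hB hq a
    IsCuspExp N (gE q M a) (M * q ^ min e (2 * a)) :=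
  haveI := neZero_nE N q M e B k hN hB hq a
  isCuspExp_gE N q M e B k hN hB hq a

/-- **The normalised expansion at the cusp `1/(q^a M)`** of `X₀(M q^e)`. -/
def cE (a : ℕ) : FN N →ₐ[Kbar] LaurentSeries Kbar :=
  haveI := neZero_nE N q M e B k hN hB hq a
  cG (hE N q M e B k hN hB hq a)

/-- The Gauss valuation at the cusp `1/(q^a M)`, on `F_N · ℚ̄`. -/
def VF (a : ℕ) : ValuationSubring (FN N) :=
  haveI := neZero_nE N q M e B k hN hB hq a
  VG (hE N q M e B k hN hB hq a) A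

theorem mem_VF_iff (a : ℕ) (x : FN N) :
    x ∈ VF A N q M e B k hN hB hq a ↔ _root_.Fermat.Agent.S45.NUE.H23.cE N q M e B k hN hB hq a x ∈ gaussRingV A := Iff.rfl

/-- **The valuation `V_a`** of the inertia-fixed functions of level `M q^e`. -/
def VE (a : ℕ) : ValuationSubring ↥(L0 A N) :=
  haveI := neZero_nE N q M e B k hN hB hq a
  VGo (hE N q M e B k hN hB hq a) A

theorem mem_VE_iff (a : ℕ) (x : ↥(L0 A N)) :
    x ∈ VE A N q M e B k hN hB hq a
      ↔ _root_.Fermat.Agent.S45.NUE.H23.cE N q M e B k hN hB hq a (x : FN N) ∈ gaussRingV A := Iff.rfl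

theorem VE_eq_resV0 (a : ℕ) :
    VE A N q M e B k hN hB hq a = resV0 (L0 A N) (VF A N q M e B k hN hB hq a) := rfl

/-- **The residue map of `V_a`**, with values in `k((s))`. -/
def sE (a : ℕ) : ↥(VE A N q M e B k hN hB hq a) →+* LaurentSeries (kV A) :=
  haveI := neZero_nE N q M e B k hN hB hq a
  sG (hE N q M e B k hN hB hq a) A

theorem sE_mk (a : ℕ) (x : ↥(L0 A N)) (hx : x ∈ VE A N q M e B k hN hB hq a) :
    _root_.Fermat.Agent.S45.NUE.H23.sE A N q M e B k hN hB hq a ⟨x, hx⟩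
      = gaussRedV A ⟨_root_.Fermat.Agent.S45.NUE.H23.cE N q M e B k hN hB hq a (x : FN N), hx⟩ := rfl

theorem sE_eq_zero_of_not_isUnit (a : ℕ) (x : ↥(VE A N q M e B k hN hB hq a))
    (hx : ¬ IsUnit x) : _root_.Fermat.Agent.S45.NUE.H23.sE A N q M e B k hN hB hq a x = 0 :=
  haveI := neZero_nE N q M e B k hN hB hq a
  sG_eq_zero_of_not_isUnit (hE N q M e B k hN hB hq a) A x hx

theorem cE_injective (a : ℕ) : Function.Injective (_root_.Fermat.Agent.S45.NUE.H23.cE N q M e B k hN hB hq a) :=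
  (_root_.Fermat.Agent.S45.NUE.H23.cE N q M e B k hN hB hq a).toRingHom.injective

/-- `a = e` is the cusp `∞`. -/
theorem cE_top (x : FN N) : _root_.Fermat.Agent.S45.NUE.H23.cE N q M e B k hN hB hq e x = (x : LaurentSeries Kbar) :=
  haveI := neZero_nE N q M e B k hN hB hq e
  cG_top N q M e B k hN hB hq x

theorem mem_VE_top_iff (x : ↥(L0 A N)) :
    x ∈ VE A N q M e B k hN hB hq e ↔ ((x : FN N) : LaurentSeries Kbar) ∈ gaussRingV A := by
  rw [mem_VE_iff, _root_.Fermat.Agent.S45.NUE.H23.cE_top]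

/-- The values of `cE a` on the generators, `i ≤ a`. -/
theorem cE_jdF_le (d d' i a : ℕ) (hM : M = d * d') (hia : i ≤ a) [NeZero (d * q ^ i)]
    [NeZero (d * q ^ (e - 2 * a + i))] (hD : d * q ^ i ∣ N) :
    _root_.Fermat.Agent.S45.NUE.H23.cE N q M e B k hN hB hq a (jdF N (d * q ^ i) hD)
      = qExpand Kbar (d * q ^ (e - 2 * a + i)) jBar :=
  haveI := neZero_nE N q M e B k hN hB hq a
  cG_jdF_le N q M e B k hN hB hq d d' i a hM hia hD

/-- The values of `cE a` on the generators, `a < i ≤ e`. -/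
theorem cE_jdF_gt (d d' i a : ℕ) (hM : M = d * d') (hai : a < i) (hie : i ≤ e)
    [NeZero (d * q ^ i)] [NeZero (d * q ^ (max e (2 * a) - i))] (hD : d * q ^ i ∣ N) :
    _root_.Fermat.Agent.S45.NUE.H23.cE N q M e B k hN hB hq a (jdF N (d * q ^ i) hD)
      = twist (zE q e a B) (qExpand Kbar (d * q ^ (max e (2 * a) - i)) jBar) :=
  haveI := neZero_nE N q M e B k hN hB hq a
  cG_jdF_gt N q M e B k hN hB hq d d' i a hM hai hie hD

end Level

end Fermat.Agent.S45.NUE.H23

end
end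
-- ==== END Fermat.Agent.S45.NUE.H23_ValE

-- ==== BEGIN Fermat.Agent.S45.NUE.H65_FinE
section

/-!
# S45 / NU_e, package E-FIN (helper65): `FinModE` from the modular instances

Level `N = M * q` (`M = lvlE M' q e`), `A` over `q`, `R = Rur A`, `F = L0 A N`.

* `NUDataE.toGlueCore` : the gluing core (helper96) of helper79's datum of the two levels
  (GLUE at the upper level is `NUDataE.glued`);
* `trivRed_toGlueCore` : `TrivRedT D.T D.SS n H` is the `TrivRed` of the gluing core;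
* `IsConstT.pow'` : powers of constants;
* `finModE_of` : **the assembly**: `FinModE A q M U` for every predicate `U` implying "unit for
  all reductions of `D.T`", from `H96.ti3Core_point` (TI3 for a gluing core), helper79's
  `NUDataE.trivRed` (B2_e + B3_e) and helper74's `hor_inst`, with the modular leaves as
  hypotheses: the two charts with their local data (`PointData`, cusps), RADQ, `ChartHyp`,
  `LowRoot`, `RootClosed`, and the bridge `hNα`, `hNβ` from `IsNormPowE` to the norm maps of `D`.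
-/

set_option autoImplicit false
set_option synthInstance.maxHeartbeats 400000
set_option maxHeartbeats 1000000
set_option linter.style.haveILetI false
set_option linter.unusedSectionVars false

noncomputable section

open ModularCurve AlgebraicCurve IntermediateField

attribute [local instance] Classical.propDecidable

namespace Fermat.Agent.S45.NUE.H65

open Fermat.Agent.RED.H17 Fermat.Agent.RED Fermat.Agent.S36.NU.H16 Fermat.Agent.S36.NU.H79
  Fermat.Agent.S36.NU.H17 Fermat.Agent.S36.NU.H24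
  Fermat.Agent.S24 Fermat.Agent.BAD.H88 Fermat.Agent.S36.NU.H23 Fermat.Agent.S36.NU.H41
  Fermat.Agent.S36.NU.H88 Fermat.Agent.S36.NU.H74 Fermat.Agent.Lib.HeckeComm
  Fermat.Agent.S45.NUE.H79 Fermat.Agent.S45.NUE.H96 Fermat.Agent.S36.NU.H65

section Core

variable {K L₀ L k ι Z : Type*} {E : ι → Type*} [Field K] [Field L₀] [Field L]
  [Algebra K L] [Algebra L₀ L] [Field k] [Fintype ι] [∀ i, Field (E i)]
  [∀ i, Algebra k (E i)]
  {K' L₀' L' ι' Z' : Type*} {E' : ι' → Type*} [Field K'] [Field L₀'] [Field L']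
  [Algebra K' L'] [Algebra L₀' L'] [Fintype ι'] [∀ i, Field (E' i)]
  [∀ i, Algebra k (E' i)]

/-- The gluing core of the datum of the two levels. -/
def toGlueCore [Infinite k] (D : NUDataE K L₀ L k ι Z E K' L₀' L' ι' Z' E')
    (hP : HasPrincipalDivisors K L) : GlueCore K L₀ L k ι Z E where
  T := D.T
  SS := D.SS
  glue := fun _ hz => D.glued hP hz
  deg_one := D.deg_one

theorem toGlueCore_T [Infinite k] (D : NUDataE K L₀ L k ι Z E K' L₀' L' ι' Z' E')
    (hP : HasPrincipalDivisors K L) : (toGlueCore D hP).T = D.T := rfl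

theorem toGlueCore_SS [Infinite k] (D : NUDataE K L₀ L k ι Z E K' L₀' L' ι' Z' E')
    (hP : HasPrincipalDivisors K L) : (toGlueCore D hP).SS = D.SS := rfl

/-- `TrivRedT` is the `TrivRed` of the gluing core. -/
theorem trivRed_toGlueCore [Infinite k] (D : NUDataE K L₀ L k ι Z E K' L₀' L' ι' Z' E')
    (hP : HasPrincipalDivisors K L) (n : ℕ) (H : L₀) :
    (toGlueCore D hP).TrivRed n H ↔ TrivRedT D.T D.SS n H := Iff.rfl

/-- Powers of constants are constants. -/
theorem isConstT_pow (T : TotN K L₀ L k ι Z E) {c : L₀} (hc : IsConstT T c) (m : ℕ) :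
    IsConstT T (c ^ m) := by
  obtain ⟨c', hc'⟩ := hc
  exact ⟨c' ^ m, by rw [map_pow, hc', map_pow]⟩

end Core

section Assembly

variable (A : ValuationSubring Kbar) (q M : ℕ) [NeZero M] [NeZero q] [NeZero (M * q)]
  {kk ι Z K L : Type*} {κ : ι → Type*} [Field kk] [∀ i, Field (κ i)]
  [∀ i, Algebra kk (κ i)] [Fintype ι] [Field K] [Field L] [Algebra K L]
  [Algebra ↥(L0 A (M * q)) L]
  {K' L₀' L' ι' Z' : Type*} {κ' : ι' → Type*} [Field K'] [Field L₀'] [Field L']
  [Algebra K' L'] [Algebra L₀' L'] [Fintype ι'] [∀ i, Field (κ' i)]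
  [∀ i, Algebra kk (κ' i)]

/-- **E-FIN, the assembly**: `FinModE A q M U` from the modular leaves. -/
theorem finModE_of [IsAlgClosed kk] (hq : q.Prime) (hA : A.LiesOverPrime q)
    (D : NUDataE K ↥(L0 A (M * q)) L kk ι Z κ K' L₀' L' ι' Z' κ')
    (hP : HasPrincipalDivisors K L)
    (hDd : ∀ n : ℕ, Nat.Coprime n q → Nat.Coprime D.d n)
    (C0 Coo : Chart ↥(Rur A) ↥(L0 A (M * q)) kk ι κ)
    (hc0 : Compat C0 D.T) (hcoo : Compat Coo D.T)
    (hB0 : C0.B = intSub ↥(Rur A) (j0 A (M * q)))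
    (hBoo : Coo.B = intSub ↥(Rur A) (j0 A (M * q))⁻¹)
    (hchart0 : ∀ n : ℕ, 0 < n → Nat.Coprime n q → ChartHyp C0 q n)
    (hchartoo : ∀ n : ℕ, 0 < n → Nat.Coprime n q → ChartHyp Coo q n)
    -- the local data
    (hpt0 : haveI : Infinite kk := IsAlgClosed.instInfinite
      _root_.Fermat.Agent.S45.NUE.H96.PointData C0 (toGlueCore D hP) ((q : ℕ) : ↥(Rur A)))
    (hptoo : haveI : Infinite kk := IsAlgClosed.instInfinite
      ∀ 𝔪 : Ideal Coo.B, 𝔪.IsMaximal → (∃ i, Coo.Icomp i ≤ 𝔪) →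
      (∀ β : Coo.B, (β : ↥(L0 A (M * q))) = (j0 A (M * q))⁻¹ → β ∈ 𝔪) →
      _root_.Fermat.Agent.S45.NUE.H96.PointDataAt Coo (toGlueCore D hP) ((q : ℕ) : ↥(Rur A)) 𝔪)
    -- RADQ
    (hrad0 : ∀ β ∈ C0.B, (∀ i, C0.rd i β = 0) → IsRadQ C0.B ((q : ℕ) : ↥(Rur A)) β)
    (hradoo : ∀ β ∈ Coo.B, (∀ i, Coo.rd i β = 0) → IsRadQ Coo.B ((q : ℕ) : ↥(Rur A)) β)
    -- the lower level
    (hL : ∀ n : ℕ, 0 < n → Nat.Coprime n q → LowRoot D.T' n)
    (hk : ∀ n : ℕ, 0 < n → Nat.Coprime n q → ∀ i', RootClosed kk (κ' i') n)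
    -- the norms
    (hNα : ∀ (n : ℕ) (h : ↥(L0 A (M * q))),
      IsNormPowE A (heckeAlphaBar Kbar M q) n (h : FN (M * q)) →
      ∃ c g : L₀', IsConstT D.T' c ∧ D.sα.Nm h = c * g ^ n)
    (hNβ : ∀ (n : ℕ) (h : ↥(L0 A (M * q))),
      IsNormPowE A (heckeBetaBar Kbar M q) n (h : FN (M * q)) →
      ∃ c g : L₀', IsConstT D.T' c ∧ D.sβ.Nm h = c * g ^ n)
    -- the units
    (U : ↥(L0 A (M * q)) → Prop) (hU : ∀ h, U h → ∀ i, D.T.rdN i h ≠ 0) (i₀ : ι) :
    FinModE A q M U := by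
  haveI : Infinite kk := IsAlgClosed.instInfinite
  obtain ⟨E₀, hE₀, hHOR⟩ := hor_inst (M * q)
  refine ⟨E₀, hE₀, ?_⟩
  intro n hn hgood h hUh hdiv hα hβ
  have hcop : Nat.Coprime n q := by
    have h1 : q ∣ 6 * q * (q - 1) * (q + 1) :=
      Dvd.dvd.mul_right (Dvd.dvd.mul_right (Dvd.intro_left 6 rfl) _) _
    exact Nat.Coprime.coprime_dvd_right h1 hgood
  have hu : ∀ i, D.T.rdN i h ≠ 0 := hU h hUh
  have hm : ∀ i, h ∈ D.T.V i := fun i => D.T.mem_of_rdN_ne_zero (hu i)
  have h0 : h ≠ 0 := by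
    rintro rfl
    apply hu i₀
    rw [D.T.rdN_of_mem (D.T.V _).zero_mem]
    exact map_zero _
  have huH : ∀ i, D.T.rdN i (h ^ E₀) ≠ 0 := fun i => by
    rw [D.T.rdN_pow (hm i)]
    exact pow_ne_zero _ (hu i)
  -- the norms
  obtain ⟨cα, gα, hcα, hNα'⟩ := hNα n h hα
  obtain ⟨cβ, gβ, hcβ, hNβ'⟩ := hNβ n h hβ
  have hα' : D.sα.Nm (h ^ E₀) = cα ^ E₀ * (gα ^ E₀) ^ n := by
    rw [map_pow, hNα', mul_pow, ← pow_mul, ← pow_mul, mul_comm n E₀]
  have hβ' : D.sβ.Nm (h ^ E₀) = cβ ^ E₀ * (gβ ^ E₀) ^ n := by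
    rw [map_pow, hNβ', mul_pow, ← pow_mul, ← pow_mul, mul_comm n E₀]
  -- B2_e + B3_e
  have htriv : TrivRedT D.T D.SS n (h ^ E₀) :=
    D.trivRed hP hn.ne' (hDd n hcop) (hL n hn hcop) (hk n hn hcop) huH
      (_root_.Fermat.Agent.S45.NUE.H65.isConstT_pow D.T' hcα E₀) (_root_.Fermat.Agent.S45.NUE.H65.isConstT_pow D.T' hcβ E₀) hα' hβ'
  -- TI3
  obtain ⟨s, c, hs0, hsc⟩ := ti3Core_point A q (M * q) hq hA (toGlueCore D hP) C0 Coo hc0 hcoo
    hP hB0 hBoo q n hcop (hchart0 n hn hcop) (hchartoo n hn hcop) hpt0 hptoo hrad0 hradoo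
    (h ^ E₀) (pow_ne_zero _ h0) huH (hHOR A q hq hA n h h0 hdiv C0)
    (hHOR A q hq hA n h h0 hdiv Coo) ((trivRed_toGlueCore D hP n _).2 htriv)
  exact ⟨(s : FN (M * q)), c, fun h1 => hs0 (Subtype.ext h1), hsc⟩

end Assembly

end Fermat.Agent.S45.NUE.H65

end
end
-- ==== END Fermat.Agent.S45.NUE.H65_FinE

-- ==== BEGIN Fermat.Agent.S45.NUE.H73_Unif
section

/-!
# S45 / NU_e, package E-VAL §5 (helper73): the uniformiser at the cusp `1/(q^a M)`

Generic part:
* `val_sub_one_ppow` : `|ζ - 1|^φ(r^(m+1)) = |r|` for a primitive `r^(m+1)`-th root of unity;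
* `rootUnit`, `resV_rootUnit` : a root of unity of `q`-power order is a unit of `A` with residue
  `1` when `A` lies over `q`.
-/

set_option autoImplicit false
set_option synthInstance.maxHeartbeats 400000
set_option maxHeartbeats 1000000
set_option linter.unusedSectionVars false
set_option linter.unusedVariables false
set_option linter.style.haveILetI false

noncomputable section

namespace Fermat.Agent.S45.NUE.H73

open Fermat.Agent.S24 Fermat.Agent.BAD.H88 ModularCurve UpperHalfPlane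
open Fermat.Agent.S28 Fermat.Agent.S28.H73 Fermat.Agent.RED.H73
open Fermat.Agent.S36.NU.H88
open scoped MatrixGroups Manifold

/-! ## The valuation of `ζ - 1`, `ζ` of prime power order -/

section ValZeta

variable {C : Type} [Field C] (O : ValuationSubring C)

/-- All `1 - μ`, `μ` a primitive `n`-th root of unity, have the same absolute value. -/
theorem val_one_sub_primitive {n : ℕ} [NeZero n] {ζ μ : C} (hζ : IsPrimitiveRoot ζ n)
    (hμ : IsPrimitiveRoot μ n) : O.valuation (1 - μ) = O.valuation (1 - ζ) := by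
  have hn : n ≠ 0 := NeZero.ne n
  have hζ1 : O.valuation ζ ≤ 1 := (val_root_one O hn hζ.pow_eq_one).le
  have hμ1 : O.valuation μ ≤ 1 := (val_root_one O hn hμ.pow_eq_one).le
  obtain ⟨i, -, hi⟩ := hζ.eq_pow_of_pow_eq_one hμ.pow_eq_one
  obtain ⟨j, -, hj⟩ := hμ.eq_pow_of_pow_eq_one hζ.pow_eq_one
  apply le_antisymm
  · rw [← hi]
    exact val_one_sub_pow_le' O hζ1 i
  · rw [← hj]
    exact val_one_sub_pow_le' O hμ1 j

/-- `|ζ - 1|^φ(r^(m+1)) = |r|` for a primitive `r^(m+1)`-th root of unity, `r` prime. -/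
theorem val_sub_one_ppow {r : ℕ} (hr : r.Prime) (m : ℕ) {ζ : C}
    (hζ : IsPrimitiveRoot ζ (r ^ (m + 1))) :
    O.valuation (ζ - 1) ^ (Nat.totient (r ^ (m + 1))) = O.valuation (r : C) := by
  haveI : Fact r.Prime := ⟨hr⟩
  haveI : NeZero (r ^ (m + 1)) := ⟨pow_ne_zero _ hr.ne_zero⟩
  rw [Valuation.map_sub_swap]
  have h1 : Polynomial.eval 1 (Polynomial.cyclotomic (r ^ (m + 1)) C) = (r : C) :=
    Polynomial.eval_one_cyclotomic_prime_pow m
  rw [Polynomial.cyclotomic_eq_prod_X_sub_primitiveRoots hζ, Polynomial.eval_prod] at h1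
  simp only [Polynomial.eval_sub, Polynomial.eval_X, Polynomial.eval_C] at h1
  rw [← h1, map_prod, ← hζ.card_primitiveRoots]
  rw [Finset.prod_congr rfl fun μ hμ => val_one_sub_primitive O hζ
    ((mem_primitiveRoots (Nat.pos_of_ne_zero (NeZero.ne _))).mp hμ), Finset.prod_const]

end ValZeta

/-! ## Roots of unity of `q`-power order in `A` -/

section RootUnit

variable (A : ValuationSubring Kbar)

/-- A root of unity lies in `A`. -/
theorem mem_of_root {z : Kbar} {n : ℕ} (hn : n ≠ 0) (hz : z ^ n = 1) : z ∈ A :=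
  (ValuationSubring.valuation_le_one_iff A z).mp (val_root_one A hn hz).le

/-- A root of unity as a unit of `A`. -/
def rootUnit (z : Kbar) (n : ℕ) (hn : n ≠ 0) (hz : z ^ n = 1) : (↥A)ˣ where
  val := ⟨z, mem_of_root A hn hz⟩
  inv := ⟨z⁻¹, mem_of_root A hn (by rw [inv_pow, hz, inv_one])⟩
  val_inv := Subtype.ext (mul_inv_cancel₀ (by
    rintro rfl
    rw [zero_pow hn] at hz
    exact zero_ne_one hz))
  inv_val := Subtype.ext (inv_mul_cancel₀ (by
    rintro rfl
    rw [zero_pow hn] at hz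
    exact zero_ne_one hz))

theorem coe_rootUnit (z : Kbar) (n : ℕ) (hn : n ≠ 0) (hz : z ^ n = 1) :
    (((rootUnit A z n hn hz : (↥A)ˣ) : ↥A) : Kbar) = z := rfl

/-- Over `q` the residue of a root of unity of `q`-power order is `1`. -/
theorem resV_rootUnit {q : ℕ} (hq : q.Prime) (hA : (q : Kbar) ∈ A.nonunits) (z : Kbar) (m : ℕ)
    (hz : z ^ (q ^ m) = 1) :
    resV A ((rootUnit A z (q ^ m) (pow_ne_zero _ hq.ne_zero) hz : (↥A)ˣ) : ↥A) = 1 := by
  haveI : CharP (kV A) q := Fermat.Agent.BAD.H82.charP_kV A hq hA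
  haveI : Fact q.Prime := ⟨hq⟩
  have h1 : ((rootUnit A z (q ^ m) (pow_ne_zero _ hq.ne_zero) hz : (↥A)ˣ) : ↥A) ^ (q ^ m) = 1 :=
    Subtype.ext hz
  have h2 : (resV A ((rootUnit A z (q ^ m) (pow_ne_zero _ hq.ne_zero) hz : (↥A)ˣ) : ↥A) - 1)
      ^ (q ^ m) = 0 := by
    rw [sub_pow_char_pow, ← map_pow, h1, map_one, one_pow, sub_self]
  exact sub_eq_zero.mp (pow_eq_zero_iff (pow_ne_zero _ hq.ne_zero) |>.mp h2)

end RootUnit

/-! ## The expansions of `j (q^(q^i))` -/

open Fermat.Agent.S45.NUE.H23 (IsCuspExp cG cG_eq_of qExpand_cG VG redG coe_redG mem_VG_iff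
  redG_eq_zero_iff const_memG)

theorem jdF_congr (N : ℕ) [NeZero N] {D D' : ℕ} [NeZero D] [NeZero D'] (h : D = D')
    (hD : D ∣ N) (hD' : D' ∣ N) : jdF N D hD = jdF N D' hD' := by
  subst h
  rfl

theorem jBar_eq_intSer : jBar = Fermat.Agent.S36.NU.H65.intSer Kbar jInt := by
  rw [← coe_jdF_one 1, coe_jdF, qExpand_one_apply]

section Level

variable (N q M e : ℕ) (B k : ℤ) (hN : N = M * q ^ e) (hB : B * M + k * (q : ℤ) ^ e = 1)
  (hq : q.Prime) [NeZero N] [NeZero q]

include hN hB hq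

/-- `i ≤ a`: `cG (j (q^(q^i))) = j (s^(q^(e - 2 a + i)))`. -/
theorem cG_jq_le (i a : ℕ) (hia : i ≤ a) [NeZero (M * q ^ min e (2 * a))] (hD : q ^ i ∣ N) :
    cG (isCuspExp_gE N q M e B k hN hB hq a) (jdF N (q ^ i) hD)
      = qExpand Kbar (q ^ (e - 2 * a + i)) jBar := by
  have hD' : 1 * q ^ i ∣ N := by rw [one_mul]; exact hD
  rw [jdF_congr N (one_mul (q ^ i)).symm hD hD',
    cG_jdF_le N q M e B k hN hB hq 1 M i a (one_mul M).symm hia hD']
  exact qExpand_congr (one_mul _) _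

/-- `a < i ≤ e`: `cG (j (q^(q^i))) = j ((z_a s)^(q^(max(e, 2 a) - i)))`. -/
theorem cG_jq_gt (i a : ℕ) (hai : a < i) (hie : i ≤ e) [NeZero (M * q ^ min e (2 * a))]
    (hD : q ^ i ∣ N) :
    cG (isCuspExp_gE N q M e B k hN hB hq a) (jdF N (q ^ i) hD)
      = twist (zE q e a B) (qExpand Kbar (q ^ (max e (2 * a) - i)) jBar) := by
  have hD' : 1 * q ^ i ∣ N := by rw [one_mul]; exact hD
  rw [jdF_congr N (one_mul (q ^ i)).symm hD hD',
    cG_jdF_gt N q M e B k hN hB hq 1 M i a (one_mul M).symm hai hie hD']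
  congr 1
  exact qExpand_congr (one_mul _) _

end Level

/-! ## The uniformiser -/

/-- `δ_a = |e - 2 a|`. -/
def dE (e a : ℕ) : ℕ := max e (2 * a) - min e (2 * a)

/-- `ζ' = ζ_{q^m}^B`, `m = min(a, e - a)`. -/
def zU (q e a : ℕ) [NeZero q] (B : ℤ) : Kbar :=
  haveI : NeZero (q ^ min a (e - a)) := ⟨pow_ne_zero _ (NeZero.ne q)⟩
  zetaK (q ^ min a (e - a)) ^ B

theorem zU_pow (q e a : ℕ) [NeZero q] (B : ℤ) : zU q e a B ^ (q ^ min a (e - a)) = 1 := by
  haveI : NeZero (q ^ min a (e - a)) := ⟨pow_ne_zero _ (NeZero.ne q)⟩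
  show (zetaK (q ^ min a (e - a)) ^ B) ^ (q ^ min a (e - a)) = 1
  rw [← zpow_natCast, ← zpow_mul, mul_comm, zpow_mul, zpow_natCast,
    (isPrimitiveRoot_zetaK _).pow_eq_one, one_zpow]

/-- `z_a^(q^δ) = ζ'`. -/
theorem zE_pow_dE (q e a : ℕ) [NeZero q] (B : ℤ) (ha : a ≤ e) :
    zE q e a B ^ (q ^ dE e a) = zU q e a B := by
  have hq0 : 0 < q := Nat.pos_of_ne_zero (NeZero.ne q)
  haveI : NeZero (q ^ min a (e - a)) := ⟨(pow_pos hq0 _).ne'⟩
  haveI : NeZero (q ^ max a (e - a)) := ⟨(pow_pos hq0 _).ne'⟩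
  haveI : NeZero (q ^ dE e a) := ⟨(pow_pos hq0 _).ne'⟩
  haveI : NeZero (q ^ dE e a * q ^ min a (e - a)) :=
    ⟨(Nat.mul_pos (pow_pos hq0 _) (pow_pos hq0 _)).ne'⟩
  have h1 : q ^ max a (e - a) = q ^ dE e a * q ^ min a (e - a) := by
    rw [← pow_add, dE]; congr 1; omega
  show (zetaK (q ^ max a (e - a)) ^ B) ^ (q ^ dE e a) = zetaK (q ^ min a (e - a)) ^ B
  rw [← zpow_natCast, ← zpow_mul, mul_comm, zpow_mul, zpow_natCast, zetaK_congr h1,
    zetaK_mul_pow]

section Unif

variable (A : ValuationSubring Kbar)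
variable (N q M e : ℕ) (B k : ℤ) (hN : N = M * q ^ e) (hB : B * M + k * (q : ℤ) ^ e = 1)
  (hq : q.Prime) [NeZero N] [NeZero q]

include hB hq in
theorem isPrimitiveRoot_zU (a : ℕ) (hae : a < e) :
    IsPrimitiveRoot (zU q e a B) (q ^ min a (e - a)) := by
  haveI : NeZero (q ^ min a (e - a)) := ⟨pow_ne_zero _ (NeZero.ne q)⟩
  apply (isPrimitiveRoot_zetaK _).zpow_of_gcd_eq_one
  rw [← Int.isCoprime_iff_gcd_eq_one]
  have h1 : IsCoprime B ((q : ℤ) ^ e) := ⟨M, k, by rw [mul_comm (M : ℤ) B]; exact hB⟩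
  have h2 : IsCoprime B (q : ℤ) := (IsCoprime.pow_right_iff (by omega)).mp h1
  push_cast
  exact h2.pow_right

include hB hq in
theorem zU_ne_one (a : ℕ) (ha1 : 1 ≤ a) (hae : a < e) : zU q e a B ≠ 1 := by
  intro h
  have h1 := isPrimitiveRoot_zU q M e B k hB hq a hae
  rw [h] at h1
  have h2 : q ^ min a (e - a) = 1 := h1.unique IsPrimitiveRoot.one
  have h3 : 1 < q ^ min a (e - a) := Nat.one_lt_pow (by omega) hq.one_lt
  omega

/-- **The uniformiser** `π_a = j (q^(a + m) τ) - j (q^(a - m) τ)`, `m = min(a, e - a)`. -/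
def piE (a : ℕ) (h1 : q ^ (a + min a (e - a)) ∣ N) (h2 : q ^ (a - min a (e - a)) ∣ N) : FN N :=
  jdF N (q ^ (a + min a (e - a))) h1 - jdF N (q ^ (a - min a (e - a))) h2

/-- `θ_a = π_a / (ζ' - 1)`. -/
def thE (a : ℕ) (h1 : q ^ (a + min a (e - a)) ∣ N) (h2 : q ^ (a - min a (e - a)) ∣ N) : FN N :=
  algebraMap Kbar (FN N) (zU q e a B - 1)⁻¹ * piE N q e a h1 h2

include hB hq in
theorem piE_eq (a : ℕ) (ha1 : 1 ≤ a) (hae : a < e) (h1 : q ^ (a + min a (e - a)) ∣ N)
    (h2 : q ^ (a - min a (e - a)) ∣ N) :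
    piE N q e a h1 h2 = algebraMap Kbar (FN N) (zU q e a B - 1) * thE N q e B a h1 h2 := by
  rw [thE, ← mul_assoc, ← map_mul,
    mul_inv_cancel₀ (sub_ne_zero.mpr (zU_ne_one q M e B k hB hq a ha1 hae)), map_one, one_mul]

include hN hB hq

/-- The expansion of `π_a` at the cusp `1/(q^a M)`. -/
theorem cG_piE (a : ℕ) (ha1 : 1 ≤ a) (hae : a < e) [NeZero (M * q ^ min e (2 * a))]
    (h1 : q ^ (a + min a (e - a)) ∣ N) (h2 : q ^ (a - min a (e - a)) ∣ N) :
    cG (isCuspExp_gE N q M e B k hN hB hq a) (piE N q e a h1 h2)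
      = qExpand Kbar (q ^ dE e a) (twist (zU q e a B) jBar - jBar) := by
  have e1 : max e (2 * a) - (a + min a (e - a)) = dE e a := by rw [dE]; omega
  have e2 : e - 2 * a + (a - min a (e - a)) = dE e a := by rw [dE]; omega
  rw [piE, map_sub, cG_jq_gt N q M e B k hN hB hq _ a (by omega) (by omega) h1,
    cG_jq_le N q M e B k hN hB hq _ a (by omega) h2, map_sub,
    qExpand_congr (congrArg (q ^ ·) e1), qExpand_congr (congrArg (q ^ ·) e2), twist_qExpand,
    zpow_natCast, zE_pow_dE q e a B hae.le]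

omit hN hB hq [NeZero N] in
/-- `(u (ζ t) - u (t)) / (ζ - 1)` for `u = j` and a root of unity `ζ ∈ A`. -/
theorem twist_jBar_sub (z : Kbar) (n : ℕ) (hn : n ≠ 0) (hz : z ^ n = 1) :
    twist z jBar - jBar
      = algebraMap Kbar (LaurentSeries Kbar) (z - 1)
        * iotaV A (Fermat.Agent.S36.NU.H65.rotQuot (rootUnit A z n hn hz)
            (coeffMap (Int.castRingHom ↥A) jInt)) := by
  have h2 : twist z (iotaV A (coeffMap (Int.castRingHom ↥A) jInt))
      = iotaV A (Fermat.Agent.RED.H10.rot (rootUnit A z n hn hz)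
          (coeffMap (Int.castRingHom ↥A) jInt)) :=
    (iotaV_rot A (rootUnit A z n hn hz) _).symm
  have h3 : iotaV A (HahnSeries.C (((rootUnit A z n hn hz : (↥A)ˣ) : ↥A) - 1))
      = algebraMap Kbar (LaurentSeries Kbar) (z - 1) := by
    rw [algebraMap_laurentSeries_eq_single]
    exact coeffMap_single A.subtype 0 _
  rw [jBar_eq_intSer, Fermat.Agent.S36.NU.H65.intSer_eq_iotaV A, h2, ← map_sub,
    Fermat.Agent.S36.NU.H65.rot_sub_self, map_mul, h3]

omit hN hB hq [NeZero N] in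
/-- The reduction of `(j (ζ t) - j (t)) / (ζ - 1)` is `θ j̄` when `ζ ≡ 1`. -/
theorem redV_rotQuot_jInt (hq : q.Prime) (hA : (q : Kbar) ∈ A.nonunits) (z : Kbar) (m : ℕ)
    (hz : z ^ (q ^ m) = 1) :
    redV A (Fermat.Agent.S36.NU.H65.rotQuot (rootUnit A z (q ^ m) (pow_ne_zero _ hq.ne_zero) hz)
        (coeffMap (Int.castRingHom ↥A) jInt))
      = Fermat.Agent.S36.NU.H73.thetaL (coeffMap (Int.castRingHom (kV A)) jInt) := by
  ext n
  rw [redV, Fermat.Agent.S36.NU.H65.coeffMap_rotQuot (resV A) _ (resV_rootUnit A hq hA z m hz),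
    Fermat.Agent.S36.NU.H73.thetaL_coeff, coeffMap_coeff, coeffMap_coeff, coeffMap_coeff]
  congr 1

/-- The expansion of `θ_a` at the cusp `1/(q^a M)`. -/
theorem cG_thE (a : ℕ) (ha1 : 1 ≤ a) (hae : a < e) [NeZero (M * q ^ min e (2 * a))]
    (h1 : q ^ (a + min a (e - a)) ∣ N) (h2 : q ^ (a - min a (e - a)) ∣ N) :
    cG (isCuspExp_gE N q M e B k hN hB hq a) (thE N q e B a h1 h2)
      = iotaV A (qExpand ↥A (q ^ dE e a)
          (Fermat.Agent.S36.NU.H65.rotQuot
            (rootUnit A (zU q e a B) (q ^ min a (e - a)) (pow_ne_zero _ hq.ne_zero)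
              (zU_pow q e a B))
            (coeffMap (Int.castRingHom ↥A) jInt))) := by
  have hc : qExpand Kbar (q ^ dE e a) (algebraMap Kbar (LaurentSeries Kbar) (zU q e a B - 1))
      = algebraMap Kbar (LaurentSeries Kbar) (zU q e a B - 1) := by
    rw [algebraMap_laurentSeries_eq_single, qExpand_single, mul_zero]
  rw [thE, map_mul, AlgHom.commutes, cG_piE N q M e B k hN hB hq a ha1 hae h1 h2,
    twist_jBar_sub A (zU q e a B) (q ^ min a (e - a)) (pow_ne_zero _ hq.ne_zero) (zU_pow q e a B),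
    map_mul, hc, ← mul_assoc, ← map_mul,
    inv_mul_cancel₀ (sub_ne_zero.mpr (zU_ne_one q M e B k hB hq a ha1 hae)), map_one, one_mul]
  exact (ModularCurve.coeffMap_qExpand A.subtype (q ^ dE e a) _).symm

theorem thE_mem_VG (a : ℕ) (ha1 : 1 ≤ a) (hae : a < e) [NeZero (M * q ^ min e (2 * a))]
    (h1 : q ^ (a + min a (e - a)) ∣ N) (h2 : q ^ (a - min a (e - a)) ∣ N) :
    thE N q e B a h1 h2 ∈ VG (isCuspExp_gE N q M e B k hN hB hq a) A := by
  rw [mem_VG_iff, cG_thE A N q M e B k hN hB hq a ha1 hae h1 h2]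
  exact iotaV_mem_gaussRingV A _

/-- **The reduction of `θ_a = π_a / (ζ' - 1)` is `(θ j̄)(s^(q^δ))`.** -/
theorem redG_thE (hA : (q : Kbar) ∈ A.nonunits) (a : ℕ) (ha1 : 1 ≤ a) (hae : a < e)
    [NeZero (M * q ^ min e (2 * a))]
    (h1 : q ^ (a + min a (e - a)) ∣ N) (h2 : q ^ (a - min a (e - a)) ∣ N)
    (h : thE N q e B a h1 h2 ∈ VG (isCuspExp_gE N q M e B k hN hB hq a) A) :
    ((redG (isCuspExp_gE N q M e B k hN hB hq a) A ⟨_, h⟩ :
        Fermat.Agent.S45.NUE.H23.RG (isCuspExp_gE N q M e B k hN hB hq a) A) :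
          LaurentSeries (kV A))
      = qExpand (kV A) (q ^ dE e a)
          (Fermat.Agent.S36.NU.H73.thetaL (coeffMap (Int.castRingHom (kV A)) jInt)) := by
  rw [coe_redG]
  have e0 : (⟨cG (isCuspExp_gE N q M e B k hN hB hq a) (thE N q e B a h1 h2), h⟩ : gaussRingV A)
      = ⟨iotaV A (qExpand ↥A (q ^ dE e a)
          (Fermat.Agent.S36.NU.H65.rotQuot
            (rootUnit A (zU q e a B) (q ^ min a (e - a)) (pow_ne_zero _ hq.ne_zero)
              (zU_pow q e a B))
            (coeffMap (Int.castRingHom ↥A) jInt))), iotaV_mem_gaussRingV A _⟩ :=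
    Subtype.ext (cG_thE A N q M e B k hN hB hq a ha1 hae h1 h2)
  rw [e0, gaussRedV_iotaV, redV, ModularCurve.coeffMap_qExpand]
  congr 1
  exact redV_rotQuot_jInt A q hq hA (zU q e a B) (min a (e - a)) (zU_pow q e a B)

theorem redG_thE_ne_zero (hA : (q : Kbar) ∈ A.nonunits) (a : ℕ) (ha1 : 1 ≤ a) (hae : a < e)
    [NeZero (M * q ^ min e (2 * a))]
    (h1 : q ^ (a + min a (e - a)) ∣ N) (h2 : q ^ (a - min a (e - a)) ∣ N)
    (h : thE N q e B a h1 h2 ∈ VG (isCuspExp_gE N q M e B k hN hB hq a) A) :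
    redG (isCuspExp_gE N q M e B k hN hB hq a) A ⟨_, h⟩ ≠ 0 := by
  intro h0
  have h3 : ((redG (isCuspExp_gE N q M e B k hN hB hq a) A ⟨_, h⟩ :
        Fermat.Agent.S45.NUE.H23.RG (isCuspExp_gE N q M e B k hN hB hq a) A) :
          LaurentSeries (kV A)) = 0 := by
    rw [h0]; rfl
  rw [redG_thE A N q M e B k hN hB hq hA a ha1 hae h1 h2 h] at h3
  have h4 : Fermat.Agent.S36.NU.H73.thetaL (coeffMap (Int.castRingHom (kV A)) jInt) = 0 :=
    qExpand_injective (q ^ dE e a) (by rw [h3, map_zero])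
  have h5 := congrArg (fun s : LaurentSeries (kV A) => s.coeff (-1)) h4
  simp only [Fermat.Agent.S36.NU.H73.thetaL_coeff, HahnSeries.coeff_zero, coeffMap_coeff,
    jInt_coeff_neg_one, map_one, mul_one] at h5
  have h6 : ((-1 : ℤ) : kV A) = -1 := by push_cast; rfl
  rw [h6, neg_eq_zero] at h5
  exact one_ne_zero h5

/-- `v_a(θ_a) = 1`. -/
theorem val_thE (hA : (q : Kbar) ∈ A.nonunits) (a : ℕ) (ha1 : 1 ≤ a) (hae : a < e)
    [NeZero (M * q ^ min e (2 * a))]
    (h1 : q ^ (a + min a (e - a)) ∣ N) (h2 : q ^ (a - min a (e - a)) ∣ N) :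
    (VG (isCuspExp_gE N q M e B k hN hB hq a) A).valuation (thE N q e B a h1 h2) = 1 := by
  have h := thE_mem_VG A N q M e B k hN hB hq a ha1 hae h1 h2
  have hne := redG_thE_ne_zero A N q M e B k hN hB hq hA a ha1 hae h1 h2 h
  have hu : IsUnit (⟨thE N q e B a h1 h2, h⟩ :
      ↥(VG (isCuspExp_gE N q M e B k hN hB hq a) A)) := by
    by_contra hnu
    apply hne
    rw [redG_eq_zero_iff]
    exact (IsLocalRing.mem_maximalIdeal _).mpr hnu
  exact (ValuationSubring.valuation_eq_one_iff _ _).mp hu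

/-- **The ramification of `v_a` over `q`**: `v_a(π_a)^φ(q^m) = v_a(q)`, `m = min(a, e - a)`. -/
theorem ramE (hA : (q : Kbar) ∈ A.nonunits) (a : ℕ) (ha1 : 1 ≤ a) (hae : a < e)
    [NeZero (M * q ^ min e (2 * a))]
    (h1 : q ^ (a + min a (e - a)) ∣ N) (h2 : q ^ (a - min a (e - a)) ∣ N) :
    (VG (isCuspExp_gE N q M e B k hN hB hq a) A).valuation (piE N q e a h1 h2)
        ^ Nat.totient (q ^ min a (e - a))
      = (VG (isCuspExp_gE N q M e B k hN hB hq a) A).valuation
          (algebraMap Kbar (FN N) (q : Kbar)) := by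
  rw [piE_eq N q M e B k hB hq a ha1 hae h1 h2, map_mul,
    val_thE A N q M e B k hN hB hq hA a ha1 hae h1 h2, mul_one, ← map_pow, ← map_pow]
  apply val_algebraMap_congr A _ (const_memG (isCuspExp_gE N q M e B k hN hB hq a) A)
  rw [map_pow]
  obtain ⟨m', hm'⟩ : ∃ m', min a (e - a) = m' + 1 := ⟨min a (e - a) - 1, by omega⟩
  have hp := isPrimitiveRoot_zU q M e B k hB hq a hae
  rw [hm'] at hp ⊢
  exact val_sub_one_ppow A hq m' hp

omit hB hq in
/-- `π_a` is fixed by inertia. -/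
theorem piE_mem_L0 (a : ℕ) (h1 : q ^ (a + min a (e - a)) ∣ N)
    (h2 : q ^ (a - min a (e - a)) ∣ N) :
    piE N q e a h1 h2 ∈ Fermat.Agent.S36.NU.H23.L0 A N :=
  sub_mem (Fermat.Agent.S36.NU.H23.jdF_mem_L0 A N _ h1)
    (Fermat.Agent.S36.NU.H23.jdF_mem_L0 A N _ h2)

end Unif

end Fermat.Agent.S45.NUE.H73

end
end
-- ==== END Fermat.Agent.S45.NUE.H73_Unif

-- ==== BEGIN Fermat.Agent.S45.NUE.H79_Transfer
section

/-!
# S45 / NU_e, ND-BASE (helper79): transfer of GLUE between two presentations of a level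

The GLUE tower (`SideE.glued_of_double`) starts at the level `M q²`, where GLUE is known for the
conservation datum `totM` of S36 (`NUData.glue`).  helper23's conservation datum `totE` of the
level `M q^e` is a different presentation of the same valuations for `e = 2`.

* `glued_transfer` : GLUE passes from a conservation datum `T₂` to a conservation datum `T` on the
  same fields if the valuation rings of `T` are those of `T₂` (`σ : ι → ι₂` onto), the fibres of
  the reduction maps agree, and the values of the reductions agree;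
* `red_eq_of_pow` : **UNIQ-RED**: two residue maps `r`, `r'` of a valuation ring with values in a
  field of characteristic `p` agree at `f` if they agree at some `x` with
  `r' (f ^ p ^ n) = r' x` (modular: `x` a function of the lower level, the residue extension is
  purely inseparable);
* `hasValue_congr_of_red_eq` : values of equal reductions.
-/

set_option autoImplicit false
set_option linter.style.haveILetI false

noncomputable section

open AlgebraicCurve

attribute [local instance] Classical.propDecidable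

namespace Fermat.Agent.S45.NUE.H79

open Fermat.Agent.RED.H17 Fermat.Agent.RED Fermat.Agent.BAD.H79 Fermat.Agent.BAD
open Fermat.Agent.S36.NU.H79 Fermat.Agent.S36.NU.H24

section Transfer

variable {K L₀ L k Z : Type*} [Field K] [Field L₀] [Field L] [Algebra K L] [Algebra L₀ L]
  [Field k] {ι : Type*} {E : ι → Type*} [Fintype ι] [∀ i, Field (E i)] [∀ i, Algebra k (E i)]
  {ι₂ : Type*} {E₂ : ι₂ → Type*} [Fintype ι₂] [∀ i, Field (E₂ i)] [∀ i, Algebra k (E₂ i)]

/-- **Transfer of GLUE** between two conservation data on the same fields. -/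
theorem glued_transfer (T : TotN K L₀ L k ι Z E) (T₂ : TotN K L₀ L k ι₂ Z E₂) (σ : ι → ι₂)
    (hσ : Function.Surjective σ) (hV : ∀ i, T.V i = T₂.V (σ i)) (z : Z)
    (hρ : ∀ P, T₂.ρ P = z → T.ρ P = z)
    (hval : ∀ (i : ι) (f : L₀), f ∈ T.V i → ∀ c : k,
      (HasValue (T.pt i z) (T.rdN i f) c ↔ HasValue (T₂.pt (σ i) z) (T₂.rdN (σ i) f) c))
    (h : Glued T₂ z) : Glued T z := by
  intro f hf i j c
  have hf₂ : T₂.InR z f := by
    refine ⟨fun i₂ => ?_, fun P hP => hf.2 P (hρ P hP)⟩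
    obtain ⟨i, rfl⟩ := hσ i₂
    rw [← hV]
    exact hf.1 i
  rw [hval i f (hf.1 i) c, hval j f (hf.1 j) c]
  exact h f hf₂ (σ i) (σ j) c

end Transfer

section UniqRed

variable {L₀ C : Type*} [Field L₀] [Field C]

/-- **UNIQ-RED**: two residue maps of a valuation ring with values in a field of characteristic
`p` agree at `f` if `f ^ p ^ n` is congruent to some `x` at which they agree. -/
theorem red_eq_of_pow (p : ℕ) [ExpChar C p] (V : ValuationSubring L₀) (r r' : ↥V →+* C)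
    (hker : ∀ x : ↥V, r' x = 0 → r x = 0) (f : ↥V) (n : ℕ) (x : ↥V)
    (h1 : r' (f ^ p ^ n) = r' x) (h2 : r x = r' x) : r f = r' f := by
  have h3 : r (f ^ p ^ n - x) = 0 := hker _ (by rw [map_sub, h1, sub_self])
  rw [map_sub, sub_eq_zero] at h3
  apply iterateFrobenius_inj C p n
  rw [iterateFrobenius_def, iterateFrobenius_def, ← map_pow, h3, h2, ← h1, map_pow]

/-- Two residue maps with the same kernel which agree on a set `X` of representatives of the
residue field up to `p ^ n`-th powers agree. -/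
theorem red_eq_of_forall_pow (p : ℕ) [ExpChar C p] (V : ValuationSubring L₀) (r r' : ↥V →+* C)
    (hker : ∀ x : ↥V, r' x = 0 → r x = 0)
    (hX : ∀ f : ↥V, ∃ (n : ℕ) (x : ↥V), r' (f ^ p ^ n) = r' x ∧ r x = r' x) : r = r' := by
  ext f
  obtain ⟨n, x, h1, h2⟩ := hX f
  exact red_eq_of_pow p V r r' hker f n x h1 h2

/-- **WHICH-ONE**: two residue maps `r`, `r'` of the same valuation ring, with the same kernel,
cannot differ by a non-trivial power of Frobenius on a set of elements whose `r'`-values contain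
a `p ^ n`-th power `y ^ p ^ n` (`n > 0`) whose `r`-value `t` is not a `p`-th power. -/
theorem false_of_pow (p : ℕ) [ExpChar C p] (V : ValuationSubring L₀) (r r' : ↥V →+* C)
    (hker : ∀ x : ↥V, r' x = 0 → r x = 0) (f x : ↥V) (n : ℕ) (hn : 0 < n)
    (h1 : r' (f ^ p ^ n) = r' x) (t : C) (ht : r x = t) (hnot : ∀ u : C, u ^ p ≠ t) : False := by
  have h3 : r (f ^ p ^ n - x) = 0 := hker _ (by rw [map_sub, h1, sub_self])
  rw [map_sub, sub_eq_zero, map_pow, ht] at h3
  obtain ⟨m, rfl⟩ : ∃ m, n = m + 1 := ⟨n - 1, by omega⟩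
  refine hnot (r f ^ p ^ m) ?_
  rw [← pow_mul, ← pow_succ, h3]

end UniqRed

section Value

variable {k E : Type*} [Field k] [Field E] [Algebra k E]

/-- Values of equal functions at equal places. -/
theorem hasValue_congr {v v' : Place k E} {f f' : E} (hv : v = v') (hf : f = f') (c : k) :
    HasValue v f c ↔ HasValue v' f' c := by
  rw [hv, hf]

end Value

end Fermat.Agent.S45.NUE.H79

end
end
-- ==== END Fermat.Agent.S45.NUE.H79_Transfer

-- ==== BEGIN Fermat.Agent.S45.NUE.H96_FinLocalE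
section

/-!
# S45 / NU_e, package E-FIN: `fin_localE` (helper96)

helper79's E-ABS (`H79.NUDataE`, `NUDataE.glued`, `NUDataE.trivRed`: B2_e + B3_e, exponent `1`)
plugged into the abstract core of TI3 (`H96.GlueCore`, `H96.ti3_of_trivRed'`).

* `coreE hP D` : the gluing core of a datum `D : NUDataE ..` (GLUE_e = `NUDataE.glued`);
* `isGen_iff_T`, `trivRed_iff_T` : `GlueCore.IsGen`, `GlueCore.TrivRed` are helper79's `IsGenT`,
  `TrivRedT` (`Iff.rfl`);
* `PointDataAtT`, `PointDataT` : the local data of a chart for a bare `TotN` and `SS`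
  (`Iff.rfl` with `H96.PointDataAt`, `H96.PointData`);
* `fin_localE` : **FIN-LOCAL for `e + 1` components** (mirror of `H65.fin_local'`, exponent `1`):
  a unit `h` for all the valuations with (HOR) in both charts whose norms along `α` and `β` are
  constants times `n`-th powers is an integral constant times an `n`-th power;
* `finModE_point` : the modular wrapper (`R = Rur A`, `F = L0 A N`, any level `N`):
  `h * s ^ n` is a constant for some inertia-fixed `s ≠ 0`.
-/

set_option autoImplicit false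
set_option synthInstance.maxHeartbeats 400000
set_option maxHeartbeats 1000000
set_option linter.style.haveILetI false
set_option linter.unusedSectionVars false

noncomputable section

open ModularCurve AlgebraicCurve IntermediateField

attribute [local instance] Classical.propDecidable

namespace Fermat.Agent.S45.NUE.H96

open Fermat.Agent.RED.H17 Fermat.Agent.RED Fermat.Agent.S36.NU.H16 Fermat.Agent.S36.NU.H79
  Fermat.Agent.S36.NU.H65 Fermat.Agent.S36.NU.H17 Fermat.Agent.S36.NU.H24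
  Fermat.Agent.S45.NUE.H79

section Abstract

variable {R F k ι Z K L : Type*} {κ : ι → Type*} [CommRing R] [Field F] [Algebra R F]
  [Field k] [∀ i, Field (κ i)] [∀ i, Algebra k (κ i)] [Fintype ι]
  [Field K] [Field L] [Algebra K L] [Algebra F L]
  {K' F' L' ι' Z' : Type*} {κ' : ι' → Type*} [Field K'] [Field F'] [Field L']
  [Algebra K' L'] [Algebra F' L'] [Fintype ι'] [∀ i, Field (κ' i)]
  [∀ i, Algebra k (κ' i)]

theorem isGen_iff_T (G : GlueCore K F L k ι Z κ) (n : ℕ) (z : Z) (h s : F) :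
    G.IsGen n z h s ↔ IsGenT G.T n z h s := Iff.rfl

theorem trivRed_iff_T (G : GlueCore K F L k ι Z κ) (n : ℕ) (H : F) :
    G.TrivRed n H ↔ TrivRedT G.T G.SS n H := Iff.rfl

/-- The local data at ONE closed point of the special fibre of the chart, for a bare `TotN`
and a set `SS` of multiple points (`= H96.PointDataAt` for a gluing core, `= H65.PointDataAt`
for a `NUData`). -/
def PointDataAtT (C : Chart R F k ι κ) (T : TotN K F L k ι Z κ) (SS : Set Z) (q : R)
    (𝔪 : Ideal C.B) : Prop :=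
  (∀ i, C.Icomp i ≤ 𝔪 → Nonempty (Branch C 𝔪 i)) ∧ Nonempty (LocEq C q 𝔪) ∧
    ((∃ i₀, ∀ i, C.Icomp i ≤ 𝔪 → i = i₀) ∨
      ∃ z ∈ SS, InChart C T z ∧
        ∃ i₀, ∀ β : C.B, β ∈ 𝔪 ↔ VanAt (T.pt i₀ z) (C.rdB i₀ β))

/-- The local data at all the closed points of the special fibre of the chart. -/
def PointDataT (C : Chart R F k ι κ) (T : TotN K F L k ι Z κ) (SS : Set Z) (q : R) : Prop :=
  ∀ 𝔪 : Ideal C.B, 𝔪.IsMaximal → (∃ i, C.Icomp i ≤ 𝔪) → PointDataAtT C T SS q 𝔪

theorem pointDataAt_iff_T (C : Chart R F k ι κ) (G : GlueCore K F L k ι Z κ) (q : R)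
    (𝔪 : Ideal C.B) : _root_.Fermat.Agent.S45.NUE.H96.PointDataAt C G q 𝔪 ↔ PointDataAtT C G.T G.SS q 𝔪 := Iff.rfl

theorem pointData_iff_T (C : Chart R F k ι κ) (G : GlueCore K F L k ι Z κ) (q : R) :
    _root_.Fermat.Agent.S45.NUE.H96.PointData C G q ↔ PointDataT C G.T G.SS q := Iff.rfl

/-- **The gluing core of a datum of the two levels** (GLUE_e of helper79). -/
def coreE [Infinite k] (hP : HasPrincipalDivisors K L)
    (D : NUDataE K F L k ι Z κ K' F' L' ι' Z' κ') : GlueCore K F L k ι Z κ where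
  T := D.T
  SS := D.SS
  glue := fun _ hz => D.glued hP hz
  deg_one := D.deg_one

@[simp] theorem coreE_T [Infinite k] (hP : HasPrincipalDivisors K L)
    (D : NUDataE K F L k ι Z κ K' F' L' ι' Z' κ') : (coreE hP D).T = D.T := rfl

@[simp] theorem coreE_SS [Infinite k] (hP : HasPrincipalDivisors K L)
    (D : NUDataE K F L k ι Z κ K' F' L' ι' Z' κ') : (coreE hP D).SS = D.SS := rfl

/-- **FIN-LOCAL for `e + 1` components** (exponent `1`). -/
theorem fin_localE [IsAlgClosed k] [IsNoetherianRing R] [IsDomain R] [IsIntegrallyClosed R]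
    (D : NUDataE K F L k ι Z κ K' F' L' ι' Z' κ') (hP : HasPrincipalDivisors K L)
    (Kf : Type*) [Field Kf] [Algebra R Kf] [IsFractionRing R Kf] [Algebra Kf F]
    [IsScalarTower R Kf F]
    (C0 Coo : Chart R F k ι κ) [IsNoetherianRing C0.B] [IsFractionRing C0.B F]
    [IsNoetherianRing Coo.B] [IsFractionRing Coo.B F]
    (hc0 : Compat C0 D.T) (hcoo : Compat Coo D.T)
    (qn n : ℕ) (hC0 : ChartHyp C0 qn n) (hCoo : ChartHyp Coo qn n)
    (j : F) (hjt : Transcendental Kf j) (hB0 : C0.B = intSub R j) (hBoo : Coo.B = intSub R j⁻¹)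
    (q : R) (hq0 : q ≠ 0) (hqu : ¬ IsUnit q) (n' : R) (hnn : (n : R) * n' = 1)
    (hpt0 : PointDataT C0 D.T D.SS q)
    (hptoo : ∀ 𝔪 : Ideal Coo.B, 𝔪.IsMaximal → (∃ i, Coo.Icomp i ≤ 𝔪) →
      (∀ β : Coo.B, (β : F) = j⁻¹ → β ∈ 𝔪) → PointDataAtT Coo D.T D.SS q 𝔪)
    (hrad0 : ∀ β ∈ C0.B, (∀ i, C0.rd i β = 0) → IsRadQ C0.B q β)
    (hradoo : ∀ β ∈ Coo.B, (∀ i, Coo.rd i β = 0) → IsRadQ Coo.B q β)
    (hcop : Nat.Coprime D.d n) (hL : LowRoot D.T' n) (hk : ∀ i', RootClosed k (κ' i') n)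
    (h : F) (h0 : h ≠ 0) (hu : ∀ i, D.T.rdN i h ≠ 0)
    (hHOR0 : HOR C0 q n h) (hHORoo : HOR Coo q n h)
    (hfg : (MInt R j⁻¹ h n hC0.n_pos).FG)
    {cα gα cβ gβ : F'} (hcα : IsConstT D.T' cα) (hcβ : IsConstT D.T' cβ)
    (hα : D.sα.Nm h = cα * gα ^ n) (hβ : D.sβ.Nm h = cβ * gβ ^ n) :
    ∃ s : F, s ≠ 0 ∧ IsIntegral R (h * s ^ n) := by
  haveI : Infinite k := IsAlgClosed.instInfinite
  have htriv : (coreE hP D).TrivRed n h :=
    D.trivRed hP hC0.n_pos.ne' hcop hL hk hu hcα hcβ hα hβ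
  exact ti3_of_trivRed' (coreE hP D) Kf C0 Coo hc0 hcoo hP qn n hC0 hCoo j hjt hB0 hBoo q hq0
    hqu n' hnn hpt0 hptoo hrad0 hradoo h h0 hu hHOR0 hHORoo hfg htriv

end Abstract

section Modular

open Fermat.Agent.S24 Fermat.Agent.BAD.H88 Fermat.Agent.S36.NU.H23 Fermat.Agent.S36.NU.H41
  Fermat.Agent.S36.NU.H88 Fermat.Agent.S36.NU.H74

variable (A : ValuationSubring Kbar) (q N : ℕ) (hq : q.Prime) [NeZero N]
  {kk ι Z K L : Type*} {κ : ι → Type*} [Field kk] [∀ i, Field (κ i)]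
  [∀ i, Algebra kk (κ i)] [Fintype ι] [Field K] [Field L] [Algebra K L]
  [Algebra ↥(L0 A N) L]
  {K' F' L' ι' Z' : Type*} {κ' : ι' → Type*} [Field K'] [Field F'] [Field L']
  [Algebra K' L'] [Algebra F' L'] [Fintype ι'] [∀ i, Field (κ' i)]
  [∀ i, Algebra kk (κ' i)]

include hq in
/-- **FIN-LOCAL for `e + 1` components, modular wrapper**: at the level `N`, for ONE exponent
`n` prime to `q` and ONE function `h ≠ 0`, a unit for all the valuations of `D` with (HOR) in
both charts whose norms along `α` and `β` are constants times `n`-th powers: `h` is a constant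
times an `n`-th power of an `I`-fixed function. -/
theorem finModE_point [IsAlgClosed kk] (hA : A.LiesOverPrime q)
    (D : NUDataE K ↥(L0 A N) L kk ι Z κ K' F' L' ι' Z' κ') (hP : HasPrincipalDivisors K L)
    (C0 Coo : Chart ↥(Rur A) ↥(L0 A N) kk ι κ)
    (hc0 : Compat C0 D.T) (hcoo : Compat Coo D.T)
    (hB0 : C0.B = intSub ↥(Rur A) (j0 A N))
    (hBoo : Coo.B = intSub ↥(Rur A) (j0 A N)⁻¹)
    (qn n : ℕ) (hcopq : Nat.Coprime n q)
    (hchart0 : ChartHyp C0 qn n) (hchartoo : ChartHyp Coo qn n)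
    (hpt0 : PointDataT C0 D.T D.SS ((q : ℕ) : ↥(Rur A)))
    (hptoo : ∀ 𝔪 : Ideal Coo.B, 𝔪.IsMaximal → (∃ i, Coo.Icomp i ≤ 𝔪) →
      (∀ β : Coo.B, (β : ↥(L0 A N)) = (j0 A N)⁻¹ → β ∈ 𝔪) →
      PointDataAtT Coo D.T D.SS ((q : ℕ) : ↥(Rur A)) 𝔪)
    (hrad0 : ∀ β ∈ C0.B, (∀ i, C0.rd i β = 0) → IsRadQ C0.B ((q : ℕ) : ↥(Rur A)) β)
    (hradoo : ∀ β ∈ Coo.B, (∀ i, Coo.rd i β = 0) → IsRadQ Coo.B ((q : ℕ) : ↥(Rur A)) β)
    (hcop : Nat.Coprime D.d n) (hL : LowRoot D.T' n) (hk : ∀ i', RootClosed kk (κ' i') n)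
    (h : ↥(L0 A N)) (h0 : h ≠ 0) (hu : ∀ i, D.T.rdN i h ≠ 0)
    (hHOR0 : HOR C0 ((q : ℕ) : ↥(Rur A)) n h) (hHORoo : HOR Coo ((q : ℕ) : ↥(Rur A)) n h)
    {cα gα cβ gβ : F'} (hcα : IsConstT D.T' cα) (hcβ : IsConstT D.T' cβ)
    (hα : D.sα.Nm h = cα * gα ^ n) (hβ : D.sβ.Nm h = cβ * gβ ^ n) :
    ∃ (s : ↥(L0 A N)) (c : Kbar), s ≠ 0 ∧
      (h : FN N) * (s : FN N) ^ n = algebraMap Kbar (FN N) c := by
  haveI : Infinite kk := IsAlgClosed.instInfinite
  have htriv : (coreE hP D).TrivRed n h :=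
    D.trivRed hP hchart0.n_pos.ne' hcop hL hk hu hcα hcβ hα hβ
  exact ti3Core_point A q N hq hA (coreE hP D) C0 Coo hc0 hcoo hP hB0 hBoo qn n hcopq
    hchart0 hchartoo hpt0 hptoo hrad0 hradoo h h0 hu hHOR0 hHORoo htriv

end Modular

end Fermat.Agent.S45.NUE.H96

end
end
-- ==== END Fermat.Agent.S45.NUE.H96_FinLocalE

-- ==== BEGIN Fermat.Agent.S45.NUE.H96_RegE
section
attribute [local instance 10000] SubalgebraClass.toAlgebra
attribute [local instance 10000] HahnSeries.powerSeriesAlgebra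

/-!
# S45 / NU_e, package ND_e, leaf ND-REG (helper96): the reduction maps and the degeneracy maps

`M` a tame level prime to `q`, `N` any level with `F_M ⊆ F_N` (modular: `N = M q ^ e`), upper
level `N q`; `ρ_N = H41P.rhoLvl : Place ℚ̄ F_N → Place k (F_M mod q)`, `P ↦ r_M (P | F_M)`;
`α, β = heckeAlphaBar / heckeBetaBar ℚ̄ N q : F_N → F_{N q}`.

* `rhoLvl_alpha` : `ρ_N (P | α) = ρ_{N q} P`;
* `rhoM_of_beta` (level `M q`) : `r_M (Q | β_M) = β⁻¹ z → r_M (Q | F_M) = z` for the supersingular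
  points `z` (the core of `S36.NU.H23.rho_beta`);
* `rhoLvl_beta` : for `M ∣ N` and `z` supersingular: `ρ_N (P | β) = β⁻¹ z → ρ_{N q} P = z`;
* `regE_alpha`, `regE_beta` : the norm along `α` (`β`) of a function regular on the fibre of `z`
  is regular on the fibre of `z` (`β⁻¹ z`); `fibE_alpha`, `fibE_beta` : the same for "neither zero
  nor pole";
* `regE_alpha_T`, `regE_beta_T` : **the field `SideE.reg`** for `Nm = nmAlphaE A N q` /
  `nmBetaE A N q`, `zm = id` / `(betaM ..).symm`, for conservation data with `ρ = rhoLvl`.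
-/

set_option autoImplicit false
set_option synthInstance.maxHeartbeats 400000
set_option maxHeartbeats 400000
set_option linter.style.haveILetI false
set_option linter.unusedSectionVars false

noncomputable section

open ModularCurve AlgebraicCurve

namespace Fermat.Agent.S45.NUE.H96

open Fermat.Agent.S24 Fermat.Agent.BAD Fermat.Agent.BAD.H88 Fermat.Agent.Lib.HeckeComm
  Fermat.Agent.S28 Fermat.Agent.S28.H73 Fermat.Agent.RED.H73 Fermat.Agent.RED.H17
  Fermat.Agent.RED Fermat.Agent.S36.NU.H88 Fermat.Agent.S36.NU.H23 Fermat.Agent.S36.NU.H79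
  Fermat.Agent.S36.NU.H74 Fermat.Agent.S45.NUE.H41P Fermat.Agent.S45.NUE.H79

/-! ### Restrictions of places along composites (abstract) -/

section Abs

variable {K F F' F'' G : Type*} [Field K] [Field F] [Field F'] [Field F''] [Field G]
  [Algebra K F] [Algebra K F'] [Algebra K F''] [Algebra K G]

/-- `(P | ψ) | F = P | F` when `ψ` is compatible with the structure maps. -/
theorem restrict_restrictAlong_abs [Algebra F F'] [IsScalarTower K F F']
    [Algebra.IsIntegral F F'] [Algebra F F''] [IsScalarTower K F F'']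
    [Algebra.IsIntegral F F'']
    (ψ : F' →ₐ[K] F'') (hψ : ψ.toRingHom.IsIntegral)
    (h : ∀ x : F, ψ (algebraMap F F' x) = algebraMap F F'' x) (P : Place K F'') :
    (P.restrictAlong ψ hψ).restrict F = P.restrict F := by
  apply Place.ext
  ext x
  rw [Place.mem_restrict_iff, Fermat.Agent.BAD.H91.mem_restrictAlong_iff,
    Place.mem_restrict_iff, h]

/-- `(P | ψ) | F = (P | ψ₂) | φ₂` when the two composites agree. -/
theorem restrict_restrictAlong_congr_abs [Algebra F F'] [IsScalarTower K F F']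
    [Algebra.IsIntegral F F']
    (ψ : F' →ₐ[K] F'') (hψ : ψ.toRingHom.IsIntegral)
    (φ₂ : F →ₐ[K] G) (hφ₂ : φ₂.toRingHom.IsIntegral)
    (ψ₂ : G →ₐ[K] F'') (hψ₂ : ψ₂.toRingHom.IsIntegral)
    (h : ∀ x : F, ψ (algebraMap F F' x) = ψ₂ (φ₂ x)) (P : Place K F'') :
    (P.restrictAlong ψ hψ).restrict F = (P.restrictAlong ψ₂ hψ₂).restrictAlong φ₂ hφ₂ := by
  apply Place.ext
  ext x
  rw [Place.mem_restrict_iff, Fermat.Agent.BAD.H91.mem_restrictAlong_iff,
    Fermat.Agent.BAD.H91.mem_restrictAlong_iff, Fermat.Agent.BAD.H91.mem_restrictAlong_iff, h]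

/-- `P | F = (P | ψ₂) | φ₂` when the composite is the structure map. -/
theorem restrict_eq_restrictAlong_abs [Algebra F F''] [IsScalarTower K F F'']
    [Algebra.IsIntegral F F'']
    (φ₂ : F →ₐ[K] G) (hφ₂ : φ₂.toRingHom.IsIntegral)
    (ψ₂ : G →ₐ[K] F'') (hψ₂ : ψ₂.toRingHom.IsIntegral)
    (h : ∀ x : F, algebraMap F F'' x = ψ₂ (φ₂ x)) (P : Place K F'') :
    P.restrict F = (P.restrictAlong ψ₂ hψ₂).restrictAlong φ₂ hφ₂ := by
  apply Place.ext
  ext x
  rw [Place.mem_restrict_iff, Fermat.Agent.BAD.H91.mem_restrictAlong_iff,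
    Fermat.Agent.BAD.H91.mem_restrictAlong_iff, h]

end Abs

/-! ### `α` -/

section Alpha

variable (A : ValuationSubring Kbar) (q M N : ℕ) (hq : q.Prime) [NeZero M] [NeZero N] [NeZero q]
  [NeZero (N * q)] (hqM : ¬ q ∣ M) (hA : A.LiesOverPrime q) (ht : H91.TameAt M q)
  (hle : modularFunctionFieldBar M ≤ modularFunctionFieldBar N)
  (hle' : modularFunctionFieldBar M ≤ modularFunctionFieldBar (N * q))

omit [NeZero M] [NeZero N] in
/-- The structure map of `algF` is the inclusion. -/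
theorem algebraMap_algF_lvl (x : FN M) :
    @algebraMap (FN M) (FN N) _ _ (algF hle) x = IntermediateField.inclusion hle x := rfl

/-- `α` is the inclusion on `F_M`. -/
theorem alpha_inclusion_lvl (x : FN M) :
    heckeAlphaBar Kbar N q (IntermediateField.inclusion hle x)
      = IntermediateField.inclusion hle' x := by
  apply Subtype.ext
  rw [coe_heckeAlphaBar, IntermediateField.coe_inclusion, IntermediateField.coe_inclusion]

/-- The restriction to level `M` of `P | α` is the restriction of `P`. -/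
theorem restrict_alpha_lvl (P : Place Kbar (FN (N * q))) :
    (letI := algF hle
     haveI := tower_FN_of_le M N hle
     haveI := finite_FN_of_le' M N hle
     (P.restrictAlong (heckeAlphaBar Kbar N q)
        (Fermat.Agent.S36.H44.alpha_integral N q)).restrict (FN M))
      = (letI := algF hle'
         haveI := tower_FN_of_le M (N * q) hle'
         haveI := finite_FN_of_le' M (N * q) hle'
         P.restrict (FN M)) :=
  letI a1 := algF hle
  haveI t1 := tower_FN_of_le M N hle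
  haveI f1 := finite_FN_of_le' M N hle
  letI a2 := algF hle'
  haveI t2 := tower_FN_of_le M (N * q) hle'
  haveI f2 := finite_FN_of_le' M (N * q) hle'
  restrict_restrictAlong_abs (heckeAlphaBar Kbar N q)
    (Fermat.Agent.S36.H44.alpha_integral N q)
    (fun x => by
      rw [algebraMap_algF_lvl M N hle x, algebraMap_algF_lvl M (N * q) hle' x]
      exact alpha_inclusion_lvl q M N hle hle' x) P

/-- **`ρ_N (P | α) = ρ_{N q} P`.** -/
theorem rhoLvl_alpha (P : Place Kbar (FN (N * q))) :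
    rhoLvl A q M N hq hqM hA ht hle
        (P.restrictAlong (heckeAlphaBar Kbar N q) (Fermat.Agent.S36.H44.alpha_integral N q))
      = rhoLvl A q M (N * q) hq hqM hA ht hle' P := by
  unfold rhoLvl
  rw [restrict_alpha_lvl q M N hle hle' P]

end Alpha

/-! ### `β` at the level `M q` -/

section BetaOne

variable (A : ValuationSubring Kbar) (q M : ℕ) (hq : q.Prime) [NeZero M] [NeZero q]
  [NeZero (M * q)] (hqM : ¬ q ∣ M) (hA : A.LiesOverPrime q) (ht : H91.TameAt M q)

omit [NeZero M] [NeZero q] [NeZero (M * q)] in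
include hq hqM in
/-- A Bézout relation for `M` and `q`. -/
theorem exists_bezout_lvl : ∃ B k : ℤ, B * M + k * q = 1 := by
  have hc : Nat.Coprime M q :=
    (Nat.Coprime.symm ((Nat.Prime.coprime_iff_not_dvd hq).2 hqM))
  have h := Nat.isCoprime_iff_coprime.2 hc
  obtain ⟨a, b, hab⟩ := h
  exact ⟨a, b, hab⟩

/-- **Level `M q`**: `r_M (Q | β) = β⁻¹ z → r_M (Q | F_M) = z` for the supersingular points. -/
theorem rhoM_of_beta [NeZero (M * q * q)] (z : Place (kV A) (FM A M)) (hz : z ∈ ssM A q M)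
    (Q : Place Kbar (FN (M * q)))
    (h : Fermat.Agent.BAD.H91.rM hq hqM ht hA
        (Q.restrictAlong (heckeBetaBar Kbar M q) (Fermat.Agent.BAD.H91.beta_isIntegral M q))
      = (betaM A q M hq hqM hA).symm z) :
    Fermat.Agent.BAD.H91.rhoM hq hqM ht hA Q = z := by
  obtain ⟨B, k, hB⟩ := exists_bezout_lvl q M hq hqM
  have e1 : Fermat.Agent.BAD.H91.rhoF1 k B (hab_kB q M B k hB) hq hA hqM ht
      ((Fermat.Agent.BAD.H91.wSemi k B (hab_kB q M B k hB) hq)⁻¹ • Q)
      = zB A q M B k hB hq hqM hA z := by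
    unfold Fermat.Agent.BAD.H91.rhoF1 Fermat.Agent.BAD.H91.rhoM
    rw [Fermat.Agent.BAD.H91.restrictAlong_wSemi, h]
    exact (zB_def A q M B k hB hq hqM hA z).symm
  have hnode : (Fermat.Agent.BAD.H91.modT k B (hab_kB q M B k hB) hq hA hqM ht
      (Fermat.Agent.S35.H89.betaMod A q M k B (hab_kB q M B k hB) hq hA)
      (Fermat.Agent.BAD.H23.tot_mod A q M k B (hab_kB q M B k hB) hq hA hqM ht
        (Fermat.Agent.BAD.H82.redField_eq_fullC q M k B (hab_kB q M B k hB) hq A hA))).IsNode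
      (Fermat.Agent.BAD.H91.rhoF1 k B (hab_kB q M B k hB) hq hA hqM ht
        ((Fermat.Agent.BAD.H91.wSemi k B (hab_kB q M B k hB) hq)⁻¹ • Q)) := by
    rw [e1]
    exact nodeB A q M B k hB hq hqM hA ht z hz
  have h3 := Fermat.Agent.BAD.H91.rhoW_eq_beta_mod k B (hab_kB q M B k hB) hq hA hqM ht
    (Fermat.Agent.S35.H89.betaMod A q M k B (hab_kB q M B k hB) hq hA)
    (Fermat.Agent.BAD.H23.tot_mod A q M k B (hab_kB q M B k hB) hq hA hqM ht
      (Fermat.Agent.BAD.H82.redField_eq_fullC q M k B (hab_kB q M B k hB) hq A hA))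
    (betaL_ord_jRed A q M B k hB hq hA) hnode
  rw [e1] at h3
  rw [Fermat.Agent.BAD.H91.wSemi_inv, ← mul_smul, Fermat.Agent.BAD.H91.wSemi_mul_self,
    one_smul] at h3
  have h4 : Fermat.Agent.BAD.H91.rhoF1 k B (hab_kB q M B k hB) hq hA hqM ht Q
      = zA A q M B k hB hq hA z := h3.trans (betaL_zB A q M B k hB hq hqM hA z)
  unfold Fermat.Agent.BAD.H91.rhoF1 at h4
  rw [zA_def] at h4
  exact (kapM A q M B k hB hq hA).symm.injective h4

end BetaOne

/-! ### `β` at any level -/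

section Beta

variable (A : ValuationSubring Kbar) (q M N : ℕ) (hq : q.Prime) [NeZero M] [NeZero N] [NeZero q]
  [NeZero (N * q)] [NeZero (M * q)] (hqM : ¬ q ∣ M) (hA : A.LiesOverPrime q)
  (ht : H91.TameAt M q)
  (hle : modularFunctionFieldBar M ≤ modularFunctionFieldBar N)
  (hle' : modularFunctionFieldBar M ≤ modularFunctionFieldBar (N * q))

/-- The inclusion of function fields is integral. -/
theorem inclusion_isIntegral_lvl (X Y : ℕ) [NeZero X] [NeZero Y]
    (h : modularFunctionFieldBar X ≤ modularFunctionFieldBar Y) :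
    (IntermediateField.inclusion h : FN X →ₐ[Kbar] FN Y).toRingHom.IsIntegral :=
  (Fermat.Agent.RED.H51.stmt_FFB_finite Kbar _ _ (Fermat.Agent.RED.H95.stmt_HKA_isFF X)
    (Fermat.Agent.RED.H95.stmt_HKA_isFF Y) (IntermediateField.inclusion h)).1

/-- `β_N` on `F_M` is `β_M` followed by the inclusion. -/
theorem beta_inclusion_lvl
    (hle'' : modularFunctionFieldBar (M * q) ≤ modularFunctionFieldBar (N * q)) (x : FN M) :
    heckeBetaBar Kbar N q (IntermediateField.inclusion hle x)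
      = IntermediateField.inclusion hle'' (heckeBetaBar Kbar M q x) := by
  apply Subtype.ext
  rw [coe_heckeBetaBar, IntermediateField.coe_inclusion, IntermediateField.coe_inclusion,
    coe_heckeBetaBar]

/-- The inclusions `F_M ⊆ F_{M q} ⊆ F_{N q}`. -/
theorem incl_inclusion_lvl
    (hle'' : modularFunctionFieldBar (M * q) ≤ modularFunctionFieldBar (N * q)) (x : FN M) :
    IntermediateField.inclusion hle' x
      = IntermediateField.inclusion hle'' (Fermat.Agent.BAD.H91.incl M q x) := by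
  apply Subtype.ext
  rw [IntermediateField.coe_inclusion, IntermediateField.coe_inclusion,
    Fermat.Agent.BAD.H91.coe_incl]

/-- `(P | β_N) | F_M = (P | F_{M q}) | β_M`. -/
theorem restrict_beta_lvl
    (hle'' : modularFunctionFieldBar (M * q) ≤ modularFunctionFieldBar (N * q))
    (P : Place Kbar (FN (N * q))) :
    (letI := algF hle
     haveI := tower_FN_of_le M N hle
     haveI := finite_FN_of_le' M N hle
     (P.restrictAlong (heckeBetaBar Kbar N q)
        (Fermat.Agent.S36.H44.beta_integral N q)).restrict (FN M))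
      = (P.restrictAlong (IntermediateField.inclusion hle'')
            (inclusion_isIntegral_lvl (M * q) (N * q) hle'')).restrictAlong
          (heckeBetaBar Kbar M q) (Fermat.Agent.BAD.H91.beta_isIntegral M q) :=
  letI a1 := algF hle
  haveI t1 := tower_FN_of_le M N hle
  haveI f1 := finite_FN_of_le' M N hle
  restrict_restrictAlong_congr_abs (heckeBetaBar Kbar N q)
    (Fermat.Agent.S36.H44.beta_integral N q) (heckeBetaBar Kbar M q)
    (Fermat.Agent.BAD.H91.beta_isIntegral M q) (IntermediateField.inclusion hle'')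
    (inclusion_isIntegral_lvl (M * q) (N * q) hle'')
    (fun x => by
      rw [algebraMap_algF_lvl M N hle x]
      exact beta_inclusion_lvl q M N hle hle'' x) P

/-- `P | F_M = (P | F_{M q}) | F_M`. -/
theorem restrict_incl_lvl
    (hle'' : modularFunctionFieldBar (M * q) ≤ modularFunctionFieldBar (N * q))
    (P : Place Kbar (FN (N * q))) :
    (letI := algF hle'
     haveI := tower_FN_of_le M (N * q) hle'
     haveI := finite_FN_of_le' M (N * q) hle'
     P.restrict (FN M))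
      = (P.restrictAlong (IntermediateField.inclusion hle'')
            (inclusion_isIntegral_lvl (M * q) (N * q) hle'')).restrictAlong
          (Fermat.Agent.BAD.H91.incl M q) (Fermat.Agent.BAD.H91.incl_isIntegral M q) :=
  letI a2 := algF hle'
  haveI t2 := tower_FN_of_le M (N * q) hle'
  haveI f2 := finite_FN_of_le' M (N * q) hle'
  restrict_eq_restrictAlong_abs (Fermat.Agent.BAD.H91.incl M q)
    (Fermat.Agent.BAD.H91.incl_isIntegral M q) (IntermediateField.inclusion hle'')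
    (inclusion_isIntegral_lvl (M * q) (N * q) hle'')
    (fun x => by
      rw [algebraMap_algF_lvl M (N * q) hle' x]
      exact incl_inclusion_lvl q M N hle' hle'' x) P

/-- **`ρ_N (P | β) = β⁻¹ z → ρ_{N q} P = z`** for the supersingular points, with the inclusion
`F_{M q} ⊆ F_{N q}` as a hypothesis. -/
theorem rhoLvl_beta' [NeZero (M * q * q)]
    (hle'' : modularFunctionFieldBar (M * q) ≤ modularFunctionFieldBar (N * q))
    (z : Place (kV A) (FM A M)) (hz : z ∈ ssM A q M)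
    (P : Place Kbar (FN (N * q)))
    (h : rhoLvl A q M N hq hqM hA ht hle
        (P.restrictAlong (heckeBetaBar Kbar N q) (Fermat.Agent.S36.H44.beta_integral N q))
      = (betaM A q M hq hqM hA).symm z) :
    rhoLvl A q M (N * q) hq hqM hA ht hle' P = z := by
  unfold rhoLvl at h ⊢
  rw [restrict_beta_lvl q M N hle hle'' P] at h
  rw [restrict_incl_lvl q M N hle' hle'' P]
  exact rhoM_of_beta A q M hq hqM hA ht z hz _ h

/-- **`ρ_N (P | β) = β⁻¹ z → ρ_{N q} P = z`** for the supersingular points, `M ∣ N`. -/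
theorem rhoLvl_beta [NeZero (M * q * q)] (hMN : M ∣ N) (z : Place (kV A) (FM A M))
    (hz : z ∈ ssM A q M) (P : Place Kbar (FN (N * q)))
    (h : rhoLvl A q M N hq hqM hA ht hle
        (P.restrictAlong (heckeBetaBar Kbar N q) (Fermat.Agent.S36.H44.beta_integral N q))
      = (betaM A q M hq hqM hA).symm z) :
    rhoLvl A q M (N * q) hq hqM hA ht hle' P = z :=
  rhoLvl_beta' A q M N hq hqM hA ht hle hle'
    (Fermat.Agent.S36.NU.H82.FM_le_of_dvd (N * q) (M * q) (Nat.mul_dvd_mul_right hMN q))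
    z hz P h

end Beta

/-! ### Regularity of the norms -/

section Reg

variable (A : ValuationSubring Kbar) (q M N : ℕ) (hq : q.Prime) [NeZero M] [NeZero N] [NeZero q]
  [NeZero (N * q)] [NeZero (M * q)] (hqM : ¬ q ∣ M) (hA : A.LiesOverPrime q)
  (ht : H91.TameAt M q)
  (hle : modularFunctionFieldBar M ≤ modularFunctionFieldBar N)
  (hle' : modularFunctionFieldBar M ≤ modularFunctionFieldBar (N * q))

/-- **`regα`**: the norm along `α` of a function regular on the fibre of `z` is regular on the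
fibre of `z`. -/
theorem regE_alpha (z : Place (kV A) (FM A M)) (f : FN (N * q))
    (hf : ∀ P : Place Kbar (FN (N * q)),
      rhoLvl A q M (N * q) hq hqM hA ht hle' P = z → RegAt P f)
    (Q : Place Kbar (FN N)) (hQ : rhoLvl A q M N hq hqM hA ht hle Q = z) :
    RegAt Q (normAlongHom (heckeAlphaBar Kbar N q).toRingHom f) :=
  haveI : HasPrincipalDivisors Kbar (FN (N * q)) :=
    Fermat.Agent.S36.NU.H74.hasPrincipalDivisors_FN (N * q)
  Fermat.Agent.S36.NU.H42.reg_of_rho (heckeAlphaBar Kbar N q)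
    (Fermat.Agent.S36.H44.alpha_integral N q) (Fermat.Agent.S36.H44.alpha_finite N q)
    (Fermat.Agent.S36.H44.alpha_norm N q)
    (rhoLvl A q M (N * q) hq hqM hA ht hle') (rhoLvl A q M N hq hqM hA ht hle) z z
    (fun P hP => (rhoLvl_alpha A q M N hq hqM hA ht hle hle' P).symm.trans hP) f hf Q hQ

/-- **`fibα`**: the norm along `α` of a function without zero or pole on the fibre of `z` has
neither zero nor pole on the fibre of `z`. -/
theorem fibE_alpha (z : Place (kV A) (FM A M)) (f : FN (N * q))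
    (hf : ∀ P : Place Kbar (FN (N * q)),
      rhoLvl A q M (N * q) hq hqM hA ht hle' P = z → P.ord f = 0)
    (Q : Place Kbar (FN N)) (hQ : rhoLvl A q M N hq hqM hA ht hle Q = z) :
    Q.ord (normAlongHom (heckeAlphaBar Kbar N q).toRingHom f) = 0 :=
  haveI : HasPrincipalDivisors Kbar (FN (N * q)) :=
    Fermat.Agent.S36.NU.H74.hasPrincipalDivisors_FN (N * q)
  Fermat.Agent.S36.NU.H42.fib_of_rho (heckeAlphaBar Kbar N q)
    (Fermat.Agent.S36.H44.alpha_integral N q) (Fermat.Agent.S36.H44.alpha_finite N q)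
    (Fermat.Agent.S36.H44.alpha_norm N q)
    (rhoLvl A q M (N * q) hq hqM hA ht hle') (rhoLvl A q M N hq hqM hA ht hle) z z
    (fun P hP => (rhoLvl_alpha A q M N hq hqM hA ht hle hle' P).symm.trans hP) f hf Q hQ

/-- **`regβ`**: the norm along `β` of a function regular on the fibre of a supersingular point
`z` is regular on the fibre of `β⁻¹ z`. -/
theorem regE_beta [NeZero (M * q * q)] (hMN : M ∣ N) (z : Place (kV A) (FM A M))
    (hz : z ∈ ssM A q M) (f : FN (N * q))
    (hf : ∀ P : Place Kbar (FN (N * q)),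
      rhoLvl A q M (N * q) hq hqM hA ht hle' P = z → RegAt P f)
    (Q : Place Kbar (FN N))
    (hQ : rhoLvl A q M N hq hqM hA ht hle Q = (betaM A q M hq hqM hA).symm z) :
    RegAt Q (normAlongHom (heckeBetaBar Kbar N q).toRingHom f) :=
  haveI : HasPrincipalDivisors Kbar (FN (N * q)) :=
    Fermat.Agent.S36.NU.H74.hasPrincipalDivisors_FN (N * q)
  Fermat.Agent.S36.NU.H42.reg_of_rho (heckeBetaBar Kbar N q)
    (Fermat.Agent.S36.H44.beta_integral N q) (Fermat.Agent.S36.H44.beta_finite N q)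
    (Fermat.Agent.S36.H44.beta_norm N q)
    (rhoLvl A q M (N * q) hq hqM hA ht hle') (rhoLvl A q M N hq hqM hA ht hle) z
    ((betaM A q M hq hqM hA).symm z)
    (fun P hP => rhoLvl_beta A q M N hq hqM hA ht hle hle' hMN z hz P hP) f hf Q hQ

/-- **`fibβ`**: the same for "neither zero nor pole". -/
theorem fibE_beta [NeZero (M * q * q)] (hMN : M ∣ N) (z : Place (kV A) (FM A M))
    (hz : z ∈ ssM A q M) (f : FN (N * q))
    (hf : ∀ P : Place Kbar (FN (N * q)),
      rhoLvl A q M (N * q) hq hqM hA ht hle' P = z → P.ord f = 0)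
    (Q : Place Kbar (FN N))
    (hQ : rhoLvl A q M N hq hqM hA ht hle Q = (betaM A q M hq hqM hA).symm z) :
    Q.ord (normAlongHom (heckeBetaBar Kbar N q).toRingHom f) = 0 :=
  haveI : HasPrincipalDivisors Kbar (FN (N * q)) :=
    Fermat.Agent.S36.NU.H74.hasPrincipalDivisors_FN (N * q)
  Fermat.Agent.S36.NU.H42.fib_of_rho (heckeBetaBar Kbar N q)
    (Fermat.Agent.S36.H44.beta_integral N q) (Fermat.Agent.S36.H44.beta_finite N q)
    (Fermat.Agent.S36.H44.beta_norm N q)
    (rhoLvl A q M (N * q) hq hqM hA ht hle') (rhoLvl A q M N hq hqM hA ht hle) z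
    ((betaM A q M hq hqM hA).symm z)
    (fun P hP => rhoLvl_beta A q M N hq hqM hA ht hle hle' hMN z hz P hP) f hf Q hQ

/-! ### The field `SideE.reg` -/

variable {ι ι' : Type*} {κ : ι → Type*} {κ' : ι' → Type*} [Fintype ι] [Fintype ι']
  [∀ i, Field (κ i)] [∀ i, Algebra (kV A) (κ i)] [∀ i, Field (κ' i)]
  [∀ i, Algebra (kV A) (κ' i)]

/-- **`SideE.reg` for `α`**: `Nm = nmAlphaE A N q`, `zm = id`. -/
theorem regE_alpha_T
    (T : TotN Kbar ↥(L0 A (N * q)) (FN (N * q)) (kV A) ι (Place (kV A) (FM A M)) κ)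
    (T' : TotN Kbar ↥(L0 A N) (FN N) (kV A) ι' (Place (kV A) (FM A M)) κ')
    (hρ : ∀ P, T.ρ P = rhoLvl A q M (N * q) hq hqM hA ht hle' P)
    (hρ' : ∀ Q, T'.ρ Q = rhoLvl A q M N hq hqM hA ht hle Q)
    (SS : Set (Place (kV A) (FM A M))) :
    ∀ z ∈ SS, ∀ h : ↥(L0 A (N * q)),
      (∀ P, T.ρ P = z → RegAt P (algebraMap ↥(L0 A (N * q)) (FN (N * q)) h)) →
      ∀ Q, T'.ρ Q = id z → RegAt Q (algebraMap ↥(L0 A N) (FN N) (nmAlphaE A N q h)) := by
  intro z _ h hf Q hQ
  rw [hρ'] at hQ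
  exact regE_alpha A q M N hq hqM hA ht hle hle' z (h : FN (N * q))
    (fun P hP => hf P ((hρ P).trans hP)) Q hQ

/-- **`SideE.reg` for `β`**: `Nm = nmBetaE A N q`, `zm = (betaM ..).symm`, `SS` supersingular. -/
theorem regE_beta_T [NeZero (M * q * q)] (hMN : M ∣ N)
    (T : TotN Kbar ↥(L0 A (N * q)) (FN (N * q)) (kV A) ι (Place (kV A) (FM A M)) κ)
    (T' : TotN Kbar ↥(L0 A N) (FN N) (kV A) ι' (Place (kV A) (FM A M)) κ')
    (hρ : ∀ P, T.ρ P = rhoLvl A q M (N * q) hq hqM hA ht hle' P)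
    (hρ' : ∀ Q, T'.ρ Q = rhoLvl A q M N hq hqM hA ht hle Q)
    (SS : Set (Place (kV A) (FM A M))) (hSS : SS ⊆ ssM A q M) :
    ∀ z ∈ SS, ∀ h : ↥(L0 A (N * q)),
      (∀ P, T.ρ P = z → RegAt P (algebraMap ↥(L0 A (N * q)) (FN (N * q)) h)) →
      ∀ Q, T'.ρ Q = (betaM A q M hq hqM hA).symm z →
        RegAt Q (algebraMap ↥(L0 A N) (FN N) (nmBetaE A N q h)) := by
  intro z hz h hf Q hQ
  rw [hρ'] at hQ
  exact regE_beta A q M N hq hqM hA ht hle hle' hMN z (hSS hz) (h : FN (N * q))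
    (fun P hP => hf P ((hρ P).trans hP)) Q hQ

end Reg

end Fermat.Agent.S45.NUE.H96

end
end
-- ==== END Fermat.Agent.S45.NUE.H96_RegE
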