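-- GENERATED (merged mirror, NOTES/tools/trim/merge3_helper67.py): 5 modules of the originals, bodies verbatim.
import Fermat.Agent.Zm.S45_L01_002
import Fermat.Agent.Zm.S45_L01_001
import Fermat.Agent.Zm.S36_L08_001
import Fermat.Agent.Zm.S45_L01_003
import Fermat.Agent.Zm.S36_L03_002

-- ==== BEGIN Fermat.Agent.S45.NUE.H51_CoverAbs
section

/-!
# S45 / NU_e, package E-VV (helper51): the cover, abstract part

`UniqAlong φ (V i)` (`V i` is the only valuation ring of `L` above its restriction along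
`φ : E → L`) from

* THREE: every valuation ring `≠ ⊤` of `L` above `V₀` (along `ψ : E₀ → L`) is one of the `V j`;
* the restriction table: `φ y ∈ V j ↔ y ∈ V' (r j)`, the `V' a` pairwise incomparable, and the
  index `i` is alone in its fibre of `r`.

For `φ = α` the base field `E₀` lies in `α E` (`ψ = α ∘ ψ'`): `uniqAlong_of_three`.
For `φ = β` it does not, and one passes through the first level `E₁` (`ψ = ι₁ ∘ α₁`,
`β ∘ ψ' = ι₁ ∘ β₁`) where "above `V₀` along `β₁`" implies "above `V₀` along `α₁`"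
(`BaseSwap`, from the Atkin–Lehner involution of the first level: `baseSwap_of_invol`):
`uniqAlong_of_three_swap`.

* `cover_abs` : the cover `∀ i, UniqAlong α (V i) ∨ UniqAlong β (V i)`.
-/

set_option autoImplicit false
set_option linter.style.haveILetI false
set_option linter.unusedSectionVars false

noncomputable section

namespace Fermat.Agent.S45.NUE.H51

section Cover

variable {E₀ E₁ E L : Type} [Field E₀] [Field E₁] [Field E] [Field L]
  {ι ι' : Type}

/-- **THREE** along `ψ`: every valuation ring `≠ ⊤` of `L` above `V₀` is one of the `V j`. -/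
def ThreeAlong (ψ : E₀ →+* L) (V₀ : ValuationSubring E₀) (V : ι → ValuationSubring L) : Prop :=
  ∀ W' : ValuationSubring L, W' ≠ ⊤ → (∀ a ∈ V₀, ψ a ∈ W') → ∃ j, W' = V j

/-- Separating elements: for `j ≠ i` some `φ y` lies in `V i` and not in `V j`. -/
def SepAlong (φ : E →+* L) (V : ι → ValuationSubring L) (i : ι) : Prop :=
  ∀ j, j ≠ i → ∃ y : E, φ y ∈ V i ∧ φ y ∉ V j

/-- Separating elements from the restriction table. -/
theorem sepAlong_of_table (φ : E →+* L) (V : ι → ValuationSubring L)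
    (V' : ι' → ValuationSubring E) (r : ι → ι')
    (htab : ∀ (j : ι) (y : E), φ y ∈ V j ↔ y ∈ V' (r j))
    (hinc' : ∀ a b, a ≠ b → ¬ V' a ≤ V' b) (i : ι) (hinj : ∀ j, r j = r i → j = i) :
    SepAlong φ V i := by
  intro j hj
  have hne : r i ≠ r j := fun h => hj (hinj j h.symm)
  obtain ⟨y, hy1, hy2⟩ := SetLike.not_le_iff_exists.1 (hinc' (r i) (r j) hne)
  exact ⟨y, (htab i y).2 hy1, fun h => hy2 ((htab j y).1 h)⟩

/-- **Uniqueness along `φ` from THREE**, if the base field lies in `φ E`. -/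
theorem uniqAlong_of_three (φ : E →+* L) (ψ' : E₀ →+* E) (V₀ : ValuationSubring E₀)
    (V : ι → ValuationSubring L) (i : ι)
    (hthree : ThreeAlong (φ.comp ψ') V₀ V) (hbase : ∀ a ∈ V₀, φ (ψ' a) ∈ V i)
    (hsep : SepAlong φ V i) : UniqAlong φ (V i) := by
  intro W' hW' htop
  obtain ⟨j, hj⟩ := hthree W' htop (fun a ha => hW' _ (hbase a ha))
  by_cases hji : j = i
  · rw [hj, hji]
  · exfalso
    obtain ⟨y, hy1, hy2⟩ := hsep j hji
    exact hy2 (hj ▸ hW' y hy1)

/-- "Above `V₀` along `β₁`" implies "above `V₀` along `α₁`". -/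
def BaseSwap (α₁ β₁ : E₀ →+* E₁) (V₀ : ValuationSubring E₀) : Prop :=
  ∀ X : ValuationSubring E₁, (∀ a ∈ V₀, β₁ a ∈ X) → ∀ a ∈ V₀, α₁ a ∈ X

/-- `BaseSwap` from an involution `w` with `w ∘ α₁ = β₁`, THREE along `α₁` and the fact that
all the valuations lie above `V₀` along `β₁`. -/
theorem baseSwap_of_invol {ι₁ : Type} (α₁ β₁ : E₀ →+* E₁) (V₀ : ValuationSubring E₀)
    (w : E₁ →+* E₁) (hww : ∀ x, w (w x) = x) (hwα : ∀ a, w (α₁ a) = β₁ a)
    (V₁ : ι₁ → ValuationSubring E₁) (htwo : ThreeAlong α₁ V₀ V₁)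
    (hbaseβ : ∀ j, ∀ a ∈ V₀, β₁ a ∈ V₁ j) : BaseSwap α₁ β₁ V₀ := by
  intro X hX a ha
  by_cases htop : X = ⊤
  · rw [htop]; trivial
  set Y : ValuationSubring E₁ := X.comap w with hY
  have hmem : ∀ x, x ∈ Y ↔ w x ∈ X := fun x => Iff.rfl
  have hYtop : Y ≠ ⊤ := by
    intro h
    apply htop
    rw [eq_top_iff]
    intro x _
    have : w x ∈ Y := by rw [h]; trivial
    rw [hmem, hww] at this
    exact this
  obtain ⟨j, hj⟩ := htwo Y hYtop (fun b hb => by rw [hmem, hwα]; exact hX b hb)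
  have h1 : w (α₁ a) ∈ Y := by rw [hj, hwα]; exact hbaseβ j a ha
  rw [hmem, hww] at h1
  exact h1

/-- **Uniqueness along `β` from THREE along `α ^ (e+1)`**, through the first level. -/
theorem uniqAlong_of_three_swap (β : E →+* L) (ψ : E₀ →+* L) (ψ' : E₀ →+* E)
    (ι₁ : E₁ →+* L) (α₁ β₁ : E₀ →+* E₁) (hψ : ∀ a, ψ a = ι₁ (α₁ a))
    (hβ : ∀ a, β (ψ' a) = ι₁ (β₁ a)) (V₀ : ValuationSubring E₀)
    (hswap : BaseSwap α₁ β₁ V₀) (V : ι → ValuationSubring L) (i : ι)
    (hthree : ThreeAlong ψ V₀ V) (hbase : ∀ a ∈ V₀, β (ψ' a) ∈ V i)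
    (hsep : SepAlong β V i) : UniqAlong β (V i) := by
  intro W' hW' htop
  have h1 : ∀ a ∈ V₀, β₁ a ∈ W'.comap ι₁ := fun a ha => by
    rw [ValuationSubring.mem_comap, ← hβ]
    exact hW' _ (hbase a ha)
  have h2 := hswap (W'.comap ι₁) h1
  obtain ⟨j, hj⟩ := hthree W' htop (fun a ha => by
    rw [hψ]
    exact ValuationSubring.mem_comap.1 (h2 a ha))
  by_cases hji : j = i
  · rw [hj, hji]
  · exfalso
    obtain ⟨y, hy1, hy2⟩ := hsep j hji
    exact hy2 (hj ▸ hW' y hy1)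

/-- **The cover**: every `V i` is the only valuation ring above its restriction along `α`, or
along `β`. -/
theorem cover_abs (α β : E →+* L) (ψ' : E₀ →+* E) (ι₁ : E₁ →+* L) (α₁ β₁ : E₀ →+* E₁)
    (hψ : ∀ a, α (ψ' a) = ι₁ (α₁ a)) (hβ : ∀ a, β (ψ' a) = ι₁ (β₁ a))
    (V₀ : ValuationSubring E₀) (hswap : BaseSwap α₁ β₁ V₀)
    (V : ι → ValuationSubring L) (hthree : ThreeAlong (α.comp ψ') V₀ V)
    (V' : ι' → ValuationSubring E) (hinc' : ∀ a b, a ≠ b → ¬ V' a ≤ V' b)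
    (hbase' : ∀ a', ∀ a ∈ V₀, ψ' a ∈ V' a')
    (rα rβ : ι → ι') (htabα : ∀ (j : ι) (y : E), α y ∈ V j ↔ y ∈ V' (rα j))
    (htabβ : ∀ (j : ι) (y : E), β y ∈ V j ↔ y ∈ V' (rβ j))
    (hfib : ∀ i, (∀ j, rα j = rα i → j = i) ∨ (∀ j, rβ j = rβ i → j = i)) :
    ∀ i, UniqAlong α (V i) ∨ UniqAlong β (V i) := by
  intro i
  rcases hfib i with h | h
  · left
    exact uniqAlong_of_three α ψ' V₀ V i hthree
      (fun a ha => (htabα i _).2 (hbase' _ a ha))
      (sepAlong_of_table α V V' rα htabα hinc' i h)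
  · right
    exact uniqAlong_of_three_swap β (α.comp ψ') ψ' ι₁ α₁ β₁ hψ hβ V₀ hswap V i hthree
      (fun a ha => (htabβ i _).2 (hbase' _ a ha))
      (sepAlong_of_table β V V' rβ htabβ hinc' i h)

/-- The fibres of `a ↦ min a e` and `a ↦ max (a - 1) 0` on `{0, …, e + 1}`, `e ≥ 2`: every
index is alone in its fibre for one of the two maps. -/
theorem fib_min_pred (e : ℕ) (he : 2 ≤ e) (i : ℕ) (hi : i ≤ e + 1) :
    (∀ j, j ≤ e + 1 → min j e = min i e → j = i) ∨
      (∀ j, j ≤ e + 1 → j - 1 = i - 1 → j = i) := by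
  by_cases h : i ≤ e - 1
  · left
    intro j hj hji
    rcases Nat.lt_or_ge j e with h1 | h1
    · rw [min_eq_left h1.le, min_eq_left (by omega)] at hji
      exact hji
    · rw [min_eq_right h1, min_eq_left (by omega)] at hji
      omega
  · right
    intro j hj hji
    omega

end Cover

end Fermat.Agent.S45.NUE.H51

end
end
-- ==== END Fermat.Agent.S45.NUE.H51_CoverAbs

-- ==== BEGIN Fermat.Agent.S45.NUE.H57_RamG
section

/-!
# S45 / NU_e, package E-VAL-3 (helper57): RAM at a cusp with a normalised expansion, GENERIC form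

Generalises `S36/NU/H88_Ram11` (`ζ_q`, the middle cusp of level `M q²`) to a root of unity `z` of
order `q^m` and any cusp with a normalised expansion `cG h` (helper23's `IsCuspExp`).

* `val_sub_one_pow_totient` : `|ζ - 1|^φ(q^m) = |q|` for a primitive `q^m`-th root of unity;
* `rootUnit`, `resV_rootUnit` : roots of unity of `q`-power order are units of `A` with residue `1`;
* `twist_sub_self`, `qExpand_twist_sub_self`, `redV_rqA` : `J(z s^Q) - J(s^Q) = (z - 1) Y`,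
  `Y` integral with reduction `(θ J̄)(s^Q)`, for every `J = u₀ ∈ ℤ((s))`;
* for `x ∈ F_N` with `cG h x = J(z s^Q) - J(s^Q)`: `thG_mem`, `redG_thG`, `val_thG`,
  `val_eq_val_sub_one : v(x) = v(z - 1)`, **`ramG`** `: v(x)^φ(q^m) = v(q)` (if `θ J̄ ≠ 0`, `z`
  primitive of order `q^m`, `m ≥ 1`), **`ramGo`** (the same on the inertia-fixed functions);
* `ramG_j`, `ramGo_j`, `redG_thG_j` : the case `J = j`, `x - y` with `cG h x = j(z s^Q)`,
  `cG h y = j(s^Q)`.
-/

set_option autoImplicit false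
set_option synthInstance.maxHeartbeats 400000
set_option maxHeartbeats 1000000
set_option linter.unusedSectionVars false
set_option linter.style.haveILetI false

noncomputable section

namespace Fermat.Agent.S45.NUE.H57

open Fermat.Agent.S24 Fermat.Agent.BAD.H88 ModularCurve
open Fermat.Agent.S28 Fermat.Agent.S28.H73 Fermat.Agent.RED.H73 Fermat.Agent.RED.H17
open Fermat.Agent.RED.H95 Fermat.Agent.RED.H10
open Fermat.Agent.S36.NU Fermat.Agent.S36.NU.H88 Fermat.Agent.S36.NU.H23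
open Fermat.Agent.S45.NUE.H23

/-! ## The valuation of `ζ - 1`, `ζ` a primitive `q^m`-th root of unity -/

section ValZeta

variable {C : Type} [Field C] (O : ValuationSubring C)

/-- Two primitive roots of unity of the same order: `|1 - μ| = |1 - ζ|`. -/
theorem val_one_sub_primitive {n : ℕ} (hn : n ≠ 0) {ζ μ : C} (hζ : IsPrimitiveRoot ζ n)
    (hμ : IsPrimitiveRoot μ n) : O.valuation (1 - μ) = O.valuation (1 - ζ) := by
  haveI : NeZero n := ⟨hn⟩
  have hζ1 : O.valuation ζ ≤ 1 := (val_root_one O hn hζ.pow_eq_one).le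
  have hμ1 : O.valuation μ ≤ 1 := (val_root_one O hn hμ.pow_eq_one).le
  obtain ⟨i, -, hi⟩ := hζ.eq_pow_of_pow_eq_one hμ.pow_eq_one
  obtain ⟨j, -, hj⟩ := hμ.eq_pow_of_pow_eq_one hζ.pow_eq_one
  apply le_antisymm
  · rw [← hi]
    exact val_one_sub_pow_le' O hζ1 i
  · rw [← hj]
    exact val_one_sub_pow_le' O hμ1 j

/-- `|ζ - 1|^φ(q^m) = |q|` for a primitive `q^m`-th root of unity `ζ`, `q` prime, `m ≥ 1`. -/
theorem val_sub_one_pow_totient {q : ℕ} (hq : q.Prime) {m : ℕ} (hm : m ≠ 0) {ζ : C}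
    (hζ : IsPrimitiveRoot ζ (q ^ m)) :
    O.valuation (ζ - 1) ^ (Nat.totient (q ^ m)) = O.valuation (q : C) := by
  haveI : Fact q.Prime := ⟨hq⟩
  obtain ⟨k, rfl⟩ : ∃ k, m = k + 1 := ⟨m - 1, by omega⟩
  have hn : q ^ (k + 1) ≠ 0 := pow_ne_zero _ hq.ne_zero
  have h1 : Polynomial.eval 1 (Polynomial.cyclotomic (q ^ (k + 1)) C) = (q : C) :=
    Polynomial.eval_one_cyclotomic_prime_pow k
  rw [Polynomial.cyclotomic_eq_prod_X_sub_primitiveRoots hζ, Polynomial.eval_prod] at h1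
  rw [← h1, map_prod, Valuation.map_sub_swap]
  have h2 : ∀ μ ∈ primitiveRoots (q ^ (k + 1)) C,
      O.valuation (Polynomial.eval 1 (Polynomial.X - Polynomial.C μ)) = O.valuation (1 - ζ) := by
    intro μ hμ
    rw [Polynomial.eval_sub, Polynomial.eval_X, Polynomial.eval_C]
    exact val_one_sub_primitive O hn hζ ((mem_primitiveRoots (Nat.pos_of_ne_zero hn)).mp hμ)
  rw [Finset.prod_congr rfl h2, Finset.prod_const, hζ.card_primitiveRoots]

end ValZeta

/-! ## Roots of unity as units of a valuation ring -/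

section RootUnit

variable {C : Type} [Field C] (O : ValuationSubring C)

theorem root_mem {z : C} {r : ℕ} (hr : r ≠ 0) (hz : z ^ r = 1) : z ∈ O :=
  (ValuationSubring.valuation_le_one_iff O z).mp (val_root_one O hr hz).le

theorem root_ne_zero {z : C} {r : ℕ} (hr : r ≠ 0) (hz : z ^ r = 1) : z ≠ 0 := by
  rintro rfl
  rw [zero_pow hr] at hz
  exact zero_ne_one hz

/-- A root of unity as a unit of `O`. -/
def rootUnit (z : C) (r : ℕ) (hr : r ≠ 0) (hz : z ^ r = 1) : (↥O)ˣ where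
  val := ⟨z, root_mem O hr hz⟩
  inv := ⟨z⁻¹, root_mem O hr (by rw [inv_pow, hz, inv_one])⟩
  val_inv := Subtype.ext (mul_inv_cancel₀ (root_ne_zero hr hz))
  inv_val := Subtype.ext (inv_mul_cancel₀ (root_ne_zero hr hz))

theorem coe_rootUnit (z : C) (r : ℕ) (hr : r ≠ 0) (hz : z ^ r = 1) :
    (((rootUnit O z r hr hz : (↥O)ˣ) : ↥O) : C) = z := rfl

/-- In residue characteristic `q`, a root of unity of order a power of `q` reduces to `1`. -/
theorem resV_rootUnit (q : ℕ) (hq : q.Prime) [CharP (kV O) q] (m : ℕ) (z : C)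
    (hz : z ^ (q ^ m) = 1) :
    resV O ((rootUnit O z (q ^ m) (pow_ne_zero m hq.ne_zero) hz : (↥O)ˣ) : ↥O) = 1 := by
  haveI : Fact q.Prime := ⟨hq⟩
  have h1 : ((rootUnit O z (q ^ m) (pow_ne_zero m hq.ne_zero) hz : (↥O)ˣ) : ↥O) ^ (q ^ m) = 1 :=
    Subtype.ext hz
  have h2 : (resV O ((rootUnit O z (q ^ m) (pow_ne_zero m hq.ne_zero) hz : (↥O)ˣ) : ↥O) - 1)
      ^ (q ^ m) = 0 := by
    rw [sub_pow_char_pow, ← map_pow, h1, map_one, one_pow, sub_self]
  exact sub_eq_zero.mp ((pow_eq_zero_iff (pow_ne_zero m hq.ne_zero)).mp h2)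

end RootUnit

/-! ## Series: `x(z s) - x(s) = (z - 1) · Y`, `Y` integral with reduction `θ x̄` -/

section Series

variable (A : ValuationSubring Kbar)

/-- The series `(J(z s^Q) - J(s^Q)) / (z - 1)` over `A`, `J = u₀ ∈ ℤ((s))`. -/
def rqA (z : Kbar) (r : ℕ) (hr : r ≠ 0) (hz : z ^ r = 1) (Q : ℕ) [NeZero Q]
    (u₀ : LaurentSeries ℤ) : LaurentSeries ↥A :=
  qExpand ↥A Q (H65.rotQuot (rootUnit A z r hr hz) (coeffMap (Int.castRingHom ↥A) u₀))

/-- `J(z s) - J(s) = (z - 1) · rotQuot`, over `ℚ̄`. -/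
theorem twist_sub_self (z : Kbar) (r : ℕ) (hr : r ≠ 0) (hz : z ^ r = 1)
    (u₀ : LaurentSeries ℤ) :
    twist z (H65.intSer Kbar u₀) - H65.intSer Kbar u₀
      = algebraMap Kbar (LaurentSeries Kbar) (z - 1)
        * iotaV A (H65.rotQuot (rootUnit A z r hr hz) (coeffMap (Int.castRingHom ↥A) u₀)) := by
  have h2 : twist z (iotaV A (coeffMap (Int.castRingHom ↥A) u₀))
      = iotaV A (rot (rootUnit A z r hr hz) (coeffMap (Int.castRingHom ↥A) u₀)) :=
    (iotaV_rot A (rootUnit A z r hr hz) _).symm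
  have h3 : iotaV A (HahnSeries.C (((rootUnit A z r hr hz : (↥A)ˣ) : ↥A) - 1))
      = algebraMap Kbar (LaurentSeries Kbar) (z - 1) := by
    rw [algebraMap_laurentSeries_eq_single]
    exact coeffMap_single A.subtype 0 _
  rw [H65.intSer_eq_iotaV A, h2, ← map_sub, H65.rot_sub_self, map_mul, h3]

/-- The same after `s ↦ s^Q`. -/
theorem qExpand_twist_sub_self (z : Kbar) (r : ℕ) (hr : r ≠ 0) (hz : z ^ r = 1) (Q : ℕ)
    [NeZero Q] (u₀ : LaurentSeries ℤ) :
    qExpand Kbar Q (twist z (H65.intSer Kbar u₀) - H65.intSer Kbar u₀)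
      = algebraMap Kbar (LaurentSeries Kbar) (z - 1) * iotaV A (rqA A z r hr hz Q u₀) := by
  rw [twist_sub_self A z r hr hz u₀, map_mul, algebraMap_laurentSeries_eq_single]
  have h1 : qExpand Kbar Q (HahnSeries.single 0 (z - 1)) = HahnSeries.single 0 (z - 1) :=
    qExpand_C (R := Kbar) (N := Q) (z - 1)
  have h2 : qExpand Kbar Q (iotaV A
        (H65.rotQuot (rootUnit A z r hr hz) (coeffMap (Int.castRingHom ↥A) u₀)))
      = iotaV A (rqA A z r hr hz Q u₀) :=
    (coeffMap_qExpand A.subtype Q _).symm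
  rw [h1, h2]

/-- The reduction of `rqA` is `(θ ū₀)(s^Q)` if `z ≡ 1`. -/
theorem redV_rqA (q : ℕ) (hq : q.Prime) (hA : (q : Kbar) ∈ A.nonunits) (m : ℕ) (z : Kbar)
    (hz : z ^ (q ^ m) = 1) (Q : ℕ) [NeZero Q] (u₀ : LaurentSeries ℤ) :
    redV A (rqA A z (q ^ m) (pow_ne_zero m hq.ne_zero) hz Q u₀)
      = qExpand (kV A) Q (H73.thetaL (coeffMap (Int.castRingHom (kV A)) u₀)) := by
  haveI : CharP (kV A) q := Fermat.Agent.BAD.H82.charP_kV A hq hA
  rw [rqA, redV, coeffMap_qExpand]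
  congr 1
  ext n
  rw [H65.coeffMap_rotQuot (resV A) _ (resV_rootUnit A q hq m z hz),
    H73.thetaL_coeff, coeffMap_coeff, coeffMap_coeff, coeffMap_coeff]
  congr 1

/-- `(θ ū₀)(s^Q) ≠ 0` if `θ ū₀ ≠ 0`. -/
theorem qExpand_thetaL_ne_zero (q : ℕ) (hq : q.Prime) (hA : (q : Kbar) ∈ A.nonunits)
    (Q : ℕ) [NeZero Q] (u₀ : LaurentSeries ℤ)
    (hθ : H65.ThetaNZ q (coeffMap (Int.castRingHom (kV A)) u₀)) :
    qExpand (kV A) Q (H73.thetaL (coeffMap (Int.castRingHom (kV A)) u₀)) ≠ 0 := by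
  intro h0
  have h1 : H73.thetaL (coeffMap (Int.castRingHom (kV A)) u₀) = 0 := by
    apply qExpand_injective (R := kV A) Q
    rw [h0, map_zero]
  obtain ⟨n, hn, hc⟩ := hθ
  haveI : CharP (kV A) q := Fermat.Agent.BAD.H82.charP_kV A hq hA
  haveI : Fact q.Prime := ⟨hq⟩
  have h2 := congrArg (fun s : LaurentSeries (kV A) => s.coeff n) h1
  simp only [H73.thetaL_coeff, HahnSeries.coeff_zero] at h2
  rcases mul_eq_zero.mp h2 with h3 | h3
  · exact hn ((CharP.intCast_eq_zero_iff (kV A) q n).mp h3)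
  · exact hc h3

end Series

/-! ## RAM at a cusp with a normalised expansion -/

section RamG

variable {N : ℕ} [NeZero N] {γ : Matrix.SpecialLinearGroup (Fin 2) ℤ} {n : ℕ} [NeZero n]
  (h : IsCuspExp N γ n) (A : ValuationSubring Kbar)
variable (q : ℕ) (hq : q.Prime) (hA : (q : Kbar) ∈ A.nonunits)
variable (m : ℕ) (z : Kbar) (hz : z ^ (q ^ m) = 1) (hz1 : z ≠ 1)
variable (Q : ℕ) [NeZero Q] (u₀ : LaurentSeries ℤ)

/-- `θ = x / (z - 1)`. -/
def thG (z : Kbar) (x : FN N) : FN N := algebraMap Kbar (FN N) (z - 1)⁻¹ * x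

include hz1 in
theorem eq_mul_thG (x : FN N) : x = algebraMap Kbar (FN N) (z - 1) * thG z x := by
  rw [thG, ← mul_assoc, ← map_mul, mul_inv_cancel₀ (sub_ne_zero.mpr hz1), map_one, one_mul]

include hq hz hz1 in
/-- The normalised expansion of `x / (z - 1)`. -/
theorem cG_thG (x : FN N)
    (hx : cG h x = qExpand Kbar Q (twist z (H65.intSer Kbar u₀) - H65.intSer Kbar u₀)) :
    cG h (thG z x) = iotaV A (rqA A z (q ^ m) (pow_ne_zero m hq.ne_zero) hz Q u₀) := by
  rw [thG, map_mul, AlgHom.commutes, hx,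
    qExpand_twist_sub_self A z (q ^ m) (pow_ne_zero m hq.ne_zero) hz Q u₀, ← mul_assoc,
    ← map_mul, inv_mul_cancel₀ (sub_ne_zero.mpr hz1), map_one, one_mul]

include hq hz hz1 in
/-- `x / (z - 1)` is integral at the cusp. -/
theorem thG_mem (x : FN N)
    (hx : cG h x = qExpand Kbar Q (twist z (H65.intSer Kbar u₀) - H65.intSer Kbar u₀)) :
    thG z x ∈ VG h A := by
  rw [mem_VG_iff, cG_thG h A q hq m z hz hz1 Q u₀ x hx]
  exact iotaV_mem_gaussRingV A _

include hq hA hz hz1 in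
/-- **The reduction of `x / (z - 1)` is `(θ ū₀)(s^Q)`.** -/
theorem redG_thG (x : FN N)
    (hx : cG h x = qExpand Kbar Q (twist z (H65.intSer Kbar u₀) - H65.intSer Kbar u₀))
    (hm : thG z x ∈ VG h A) :
    ((redG h A ⟨thG z x, hm⟩ : RG h A) : LaurentSeries (kV A))
      = qExpand (kV A) Q (H73.thetaL (coeffMap (Int.castRingHom (kV A)) u₀)) := by
  rw [coe_redG]
  have e : (⟨cG h (thG z x), hm⟩ : gaussRingV A)
      = ⟨iotaV A (rqA A z (q ^ m) (pow_ne_zero m hq.ne_zero) hz Q u₀),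
          iotaV_mem_gaussRingV A _⟩ :=
    Subtype.ext (cG_thG h A q hq m z hz hz1 Q u₀ x hx)
  rw [e, gaussRedV_iotaV, redV_rqA A q hq hA m z hz Q u₀]

include hq hA hz hz1 in
theorem redG_thG_ne_zero (x : FN N)
    (hx : cG h x = qExpand Kbar Q (twist z (H65.intSer Kbar u₀) - H65.intSer Kbar u₀))
    (hθ : H65.ThetaNZ q (coeffMap (Int.castRingHom (kV A)) u₀))
    (hm : thG z x ∈ VG h A) : redG h A ⟨thG z x, hm⟩ ≠ 0 := by
  intro h0
  have h1 : ((redG h A ⟨thG z x, hm⟩ : RG h A) : LaurentSeries (kV A)) = 0 := by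
    rw [h0]; rfl
  rw [redG_thG h A q hq hA m z hz hz1 Q u₀ x hx hm] at h1
  exact qExpand_thetaL_ne_zero A q hq hA Q u₀ hθ h1

include hq hA hz hz1 in
/-- `x / (z - 1)` is a unit at the cusp. -/
theorem val_thG (x : FN N)
    (hx : cG h x = qExpand Kbar Q (twist z (H65.intSer Kbar u₀) - H65.intSer Kbar u₀))
    (hθ : H65.ThetaNZ q (coeffMap (Int.castRingHom (kV A)) u₀)) :
    (VG h A).valuation (thG z x) = 1 := by
  have hm := thG_mem h A q hq m z hz hz1 Q u₀ x hx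
  have hne := redG_thG_ne_zero h A q hq hA m z hz hz1 Q u₀ x hx hθ hm
  have hu : IsUnit (⟨thG z x, hm⟩ : ↥(VG h A)) := by
    by_contra hnu
    apply hne
    rw [redG_eq_zero_iff]
    exact (IsLocalRing.mem_maximalIdeal _).mpr hnu
  exact (ValuationSubring.valuation_eq_one_iff _ _).mp hu

include hq hA hz hz1 in
/-- `v(x) = v(z - 1)`. -/
theorem val_eq_val_sub_one (x : FN N)
    (hx : cG h x = qExpand Kbar Q (twist z (H65.intSer Kbar u₀) - H65.intSer Kbar u₀))
    (hθ : H65.ThetaNZ q (coeffMap (Int.castRingHom (kV A)) u₀)) :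
    (VG h A).valuation x = (VG h A).valuation (algebraMap Kbar (FN N) (z - 1)) := by
  conv_lhs => rw [eq_mul_thG z hz1 x]
  rw [map_mul, val_thG h A q hq hA m z hz hz1 Q u₀ x hx hθ, mul_one]

include hq hA in
/-- **RAM at the cusp**: `v(x)^φ(q^m) = v(q)` if the normalised expansion of `x` is
`J(z s^Q) - J(s^Q)`, `z` a primitive `q^m`-th root of unity, `θ J̄ ≠ 0`. -/
theorem ramG (hm0 : m ≠ 0) (hzp : IsPrimitiveRoot z (q ^ m)) (x : FN N)
    (hx : cG h x = qExpand Kbar Q (twist z (H65.intSer Kbar u₀) - H65.intSer Kbar u₀))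
    (hθ : H65.ThetaNZ q (coeffMap (Int.castRingHom (kV A)) u₀)) :
    (VG h A).valuation x ^ (Nat.totient (q ^ m))
      = (VG h A).valuation (algebraMap Kbar (FN N) (q : Kbar)) := by
  have hz1 : z ≠ 1 := by
    intro h1
    have h2 := hzp.unique (h1 ▸ IsPrimitiveRoot.one)
    have h3 : 1 < q ^ m := Nat.one_lt_pow hm0 hq.one_lt
    omega
  rw [val_eq_val_sub_one h A q hq hA m z hzp.pow_eq_one hz1 Q u₀ x hx hθ, ← map_pow, ← map_pow]
  apply val_algebraMap_congr A _ (const_memG h A)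
  rw [map_pow]
  exact val_sub_one_pow_totient A hq hm0 hzp

include hq hA in
/-- Form with `ℕ`-cast. -/
theorem ramG' (hm0 : m ≠ 0) (hzp : IsPrimitiveRoot z (q ^ m)) (x : FN N)
    (hx : cG h x = qExpand Kbar Q (twist z (H65.intSer Kbar u₀) - H65.intSer Kbar u₀))
    (hθ : H65.ThetaNZ q (coeffMap (Int.castRingHom (kV A)) u₀)) :
    (VG h A).valuation x ^ (Nat.totient (q ^ m))
      = (VG h A).valuation ((q : ℕ) : FN N) := by
  rw [ramG h A q hq hA m z Q u₀ hm0 hzp x hx hθ, map_natCast]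

include hq hA in
/-- **RAM on the inertia-fixed functions.** -/
theorem ramGo (hm0 : m ≠ 0) (hzp : IsPrimitiveRoot z (q ^ m)) (x : ↥(L0 A N))
    (hx : cG h (x : FN N)
      = qExpand Kbar Q (twist z (H65.intSer Kbar u₀) - H65.intSer Kbar u₀))
    (hθ : H65.ThetaNZ q (coeffMap (Int.castRingHom (kV A)) u₀)) :
    (VGo h A).valuation x ^ (Nat.totient (q ^ m))
      = (VGo h A).valuation ((q : ℕ) : ↥(L0 A N)) := by
  rw [← map_pow, VGo, valuation_resV0_eq_iff]
  have h1 := ramG' h A q hq hA m z Q u₀ hm0 hzp (x : FN N) hx hθ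
  rw [← map_pow] at h1
  have e1 : (((x ^ (Nat.totient (q ^ m)) : ↥(L0 A N)) : ↥(L0 A N)) : FN N)
      = (x : FN N) ^ (Nat.totient (q ^ m)) := rfl
  have e2 : ((((q : ℕ) : ↥(L0 A N)) : ↥(L0 A N)) : FN N) = ((q : ℕ) : FN N) :=
    map_natCast (L0 A N).subtype q
  rw [e1, e2]
  exact h1

end RamG

/-! ## The case `J = j` -/

section RamJ

theorem jBar_eq_intSer : jBar = H65.intSer Kbar jInt := by
  have h1 := coe_jdF_one 1
  rw [_root_.Fermat.Agent.S36.NU.H88.coe_jdF, qExpand_one_apply] at h1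
  exact h1

variable {N : ℕ} [NeZero N] {γ : Matrix.SpecialLinearGroup (Fin 2) ℤ} {n : ℕ} [NeZero n]
  (h : IsCuspExp N γ n) (A : ValuationSubring Kbar)
variable (q : ℕ) (hq : q.Prime) (hA : (q : Kbar) ∈ A.nonunits)
variable (m : ℕ) (z : Kbar) (Q : ℕ) [NeZero Q]

/-- The hypothesis of `ramG` for a difference `x - y` of two functions with normalised
expansions `j (z s^Q)` and `j (s^Q)`. -/
theorem cG_sub_j (x y : FN N) (hx : cG h x = qExpand Kbar Q (twist z jBar))
    (hy : cG h y = qExpand Kbar Q jBar) :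
    cG h (x - y)
      = qExpand Kbar Q (twist z (H65.intSer Kbar jInt) - H65.intSer Kbar jInt) := by
  rw [map_sub, hx, hy, ← jBar_eq_intSer, map_sub]

include hq hA in
/-- **RAM for `j`**: if `x`, `y` have normalised expansions `j (z s^Q)` and `j (s^Q)` with `z` a
primitive `q^m`-th root of unity, then `v(x - y)^φ(q^m) = v(q)`. -/
theorem ramG_j (hm0 : m ≠ 0) (hzp : IsPrimitiveRoot z (q ^ m)) (x y : FN N)
    (hx : cG h x = qExpand Kbar Q (twist z jBar)) (hy : cG h y = qExpand Kbar Q jBar) :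
    (VG h A).valuation (x - y) ^ (Nat.totient (q ^ m))
      = (VG h A).valuation ((q : ℕ) : FN N) := by
  haveI : NeZero q := ⟨hq.ne_zero⟩
  exact ramG' h A q hq hA m z Q jInt hm0 hzp (x - y) (cG_sub_j h z Q x y hx hy)
    (thetaNZ_jInt q (kV A) hq)

include hq hA in
/-- **RAM for `j`** on the inertia-fixed functions. -/
theorem ramGo_j (hm0 : m ≠ 0) (hzp : IsPrimitiveRoot z (q ^ m)) (x y : ↥(L0 A N))
    (hx : cG h (x : FN N) = qExpand Kbar Q (twist z jBar))
    (hy : cG h (y : FN N) = qExpand Kbar Q jBar) :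
    (VGo h A).valuation (x - y) ^ (Nat.totient (q ^ m))
      = (VGo h A).valuation ((q : ℕ) : ↥(L0 A N)) := by
  haveI : NeZero q := ⟨hq.ne_zero⟩
  exact ramGo h A q hq hA m z Q jInt hm0 hzp (x - y)
    (cG_sub_j h z Q (x : FN N) (y : FN N) hx hy) (thetaNZ_jInt q (kV A) hq)

include hq hA in
/-- The reduction of `(x - y) / (z - 1)` is `(θ j̄)(s^Q)`. -/
theorem redG_thG_j (hz : z ^ (q ^ m) = 1) (hz1 : z ≠ 1) (x y : FN N)
    (hx : cG h x = qExpand Kbar Q (twist z jBar)) (hy : cG h y = qExpand Kbar Q jBar)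
    (hm : thG z (x - y) ∈ VG h A) :
    ((redG h A ⟨thG z (x - y), hm⟩ : RG h A) : LaurentSeries (kV A))
      = qExpand (kV A) Q (H73.thetaL (coeffMap (Int.castRingHom (kV A)) jInt)) :=
  redG_thG h A q hq hA m z hz hz1 Q jInt (x - y) (cG_sub_j h z Q x y hx hy) hm

end RamJ

end Fermat.Agent.S45.NUE.H57

end
end
-- ==== END Fermat.Agent.S45.NUE.H57_RamG

-- ==== BEGIN Fermat.Agent.S45.NUE.H68_LocEqSSE2
section

/-!
# S45 / NU_e, package E-FIN, leaf E-PT-SS, abstract part 2 (helper68)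

`locEq_ss_coordE` : **LOCEQ-SS from a coordinate, at level `M' q^E`** (generalises S36
`H16.locEq_ss_coord`).  The components `i : ι` are indexed by `a i = 0..E` (the number of
`F`-steps), with multiplicities `e i = φ(q^min(a i, E - a i))`; `u = f(τ)`, `u'' = f(q^E τ)`
in `B`; the local equations are `t i = tE q E (a i) u u''`; on the component `i₀` of the cusp `∞`
(`a i₀ = E`): `u^(q^E) - u'' = q d`, `rd u - c` is a local coordinate at the place `z`,
`c ∈ 𝔽_{q²}`, and `ord_z (rd d) = - q^(E-1)` (POLE_E).  Then all components pass through the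
point `𝔪_z` of the chart and there is a local equation datum at `𝔪_z`.

The count: `ord_z rd(t_n) = q^(n - min(n, E-n))` for `n < E`, and
`∑_{n < E} φ(q^min(n, E-n)) q^(n - min(n, E-n)) = q^(E-1)` (`sum_ordE`).
-/

set_option autoImplicit false

noncomputable section

namespace Fermat.Agent.S45.NUE.H68

open Fermat.Agent.S36.NU Fermat.Agent.S36.NU.H16 AlgebraicCurve Fermat.Agent.RED.H17

/-! ## The count -/

/-- The contribution of the component `n`, `1 ≤ n < E`: `q^n - q^(n-1)`. -/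
theorem term_ordE (q E n : ℕ) (hq : q.Prime) (hn1 : 1 ≤ n) (hnE : n < E) :
    Nat.totient (q ^ min n (E - n)) * q ^ (n - min n (E - n)) + q ^ (n - 1) = q ^ n := by
  set m := min n (E - n) with hm
  have hm1 : 1 ≤ m := by rw [hm]; exact le_min hn1 (by omega)
  have hmn : m ≤ n := by rw [hm]; exact min_le_left _ _
  rw [Nat.totient_prime_pow hq (by omega)]
  have h1 : q ^ (m - 1) * (q - 1) * q ^ (n - m) = q ^ (n - 1) * (q - 1) := by
    have : q ^ (n - 1) = q ^ (m - 1) * q ^ (n - m) := by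
      rw [← pow_add]
      congr 1
      omega
    rw [this]
    ring
  rw [h1]
  have hq1 : 1 ≤ q := hq.pos
  have h2 : q ^ (n - 1) * (q - 1) + q ^ (n - 1) = q ^ (n - 1) * q := by
    obtain ⟨r, rfl⟩ : ∃ r, q = r + 1 := ⟨q - 1, by omega⟩
    rw [Nat.add_sub_cancel]
    ring
  rw [h2, ← pow_succ]
  congr 1
  omega

/-- The partial sums of the count. -/
theorem sum_ordE_aux (q E : ℕ) (hq : q.Prime) :
    ∀ K, K + 1 ≤ E →
      ∑ n ∈ Finset.range (K + 1), Nat.totient (q ^ min n (E - n)) * q ^ (n - min n (E - n))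
        = q ^ K := by
  intro K
  induction K with
  | zero =>
    intro _
    simp
  | succ K ih =>
    intro hK
    rw [Finset.sum_range_succ, ih (by omega)]
    have h := term_ordE q E (K + 1) hq (by omega) (by omega)
    have e : K + 1 - 1 = K := by omega
    rw [e] at h
    rw [add_comm]
    exact h

/-- **The count**: `∑_{n < E} φ(q^min(n, E-n)) q^(n - min(n, E-n)) = q^(E-1)`. -/
theorem sum_ordE (q E : ℕ) (hq : q.Prime) (hE : 1 ≤ E) :
    ∑ n ∈ Finset.range E, Nat.totient (q ^ min n (E - n)) * q ^ (n - min n (E - n))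
      = q ^ (E - 1) := by
  obtain ⟨K, rfl⟩ : ∃ K, E = K + 1 := ⟨E - 1, by omega⟩
  have := sum_ordE_aux q (K + 1) hq K le_rfl
  simpa using this

/-! ## Orders of the local equations on the component of `∞` -/

section Ord

variable {k κ : Type*} [Field k] [Field κ] [Algebra k κ]

theorem pow_fix_of_sq (q : ℕ) (c : k) (hc : c ^ q ^ 2 = c) (m : ℕ) : c ^ q ^ (2 * m) = c := by
  induction m with
  | zero => simp
  | succ m ih =>
    have : q ^ (2 * (m + 1)) = q ^ (2 * m) * q ^ 2 := by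
      rw [← pow_add, mul_add, mul_one]
    rw [this, pow_mul, ih, hc]

/-- `ord_z (tE q E n ū (ū^(q^E))) = q^(n - min(n, E - n))` for `n < E`. -/
theorem ord_tE (q : ℕ) [hqp : Fact q.Prime] [CharP κ q] (z : Place k κ) (ū : κ) (c : k)
    (hu : z.ord (ū - algebraMap k κ c) = 1) (hc : c ^ q ^ 2 = c) (E n : ℕ) (hn : n < E) :
    z.ord (tE q E n ū (ū ^ q ^ E)) = ((q ^ (n - min n (E - n)) : ℕ) : ℤ) := by
  have hfix : c ^ q ^ (2 * (E - n)) = c := pow_fix_of_sq q c hc (E - n)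
  have h1 : z.ord (ū ^ q ^ (2 * (E - n)) - ū) = 1 :=
    H10.ord_frob_sub q z ū c hu (by omega) hfix
  by_cases h : E ≤ 2 * n
  · rw [tE_of_le q E n _ _ h]
    have hmin : min n (E - n) = E - n := min_eq_right (by omega)
    have hexp : n - min n (E - n) = 2 * n - E := by rw [hmin]; omega
    have e1 : ū ^ q ^ (2 * n - E) - ū ^ q ^ E
        = -((ū ^ q ^ (2 * (E - n)) - ū) ^ q ^ (2 * n - E)) := by
      rw [sub_pow_char_pow, ← pow_mul, ← pow_add]
      have : 2 * (E - n) + (2 * n - E) = E := by omega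
      rw [this]
      ring
    rw [e1, Fermat.Agent.RED.H51.ord_neg, ord_pow, h1, mul_one, hexp]
  · have h' : 2 * n < E := by omega
    rw [tE_of_lt q E n _ _ h']
    have hmin : min n (E - n) = n := min_eq_left (by omega)
    have hexp : n - min n (E - n) = 0 := by rw [hmin]; omega
    have e1 : ū - (ū ^ q ^ E) ^ q ^ (E - 2 * n) = -(ū ^ q ^ (2 * (E - n)) - ū) := by
      rw [← pow_mul, ← pow_add]
      have : E + (E - 2 * n) = 2 * (E - n) := by omega
      rw [this]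
      ring
    rw [e1, Fermat.Agent.RED.H51.ord_neg, h1, hexp]
    simp

end Ord

/-! ## The local equation datum -/

variable {R F k ι : Type*} {κ : ι → Type*} [CommRing R] [Field F] [Algebra R F]
  [Field k] [∀ i, Field (κ i)] [∀ i, Algebra k (κ i)]

/-- **LOCEQ-SS from a coordinate, level `M' q^E`.** -/
theorem locEq_ss_coordE [Fintype ι] [DecidableEq ι] (C : Chart R F k ι κ) (qR : R) (q : ℕ)
    [hqp : Fact q.Prime] (hq0 : algebraMap R F qR ≠ 0)
    (hqV : ∀ i, algebraMap R F qR ∈ (C.V i).nonunits)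
    (H : Subring F) (hBH : ∀ x ∈ C.B, x ∈ H) (hqH : (algebraMap R F qR)⁻¹ ∈ H)
    (crit : ∀ f ∈ H, (∀ i, f ∈ C.V i) → f ∈ C.B)
    (E : ℕ) (hE1 : 1 ≤ E) (a : ι → ℕ) (ha : Function.Injective a) (haE : ∀ i, a i ≤ E)
    (hsur : ∀ n, n ≤ E → ∃ i, a i = n)
    (e : ι → ℕ) (he : ∀ i, e i = Nat.totient (q ^ min (a i) (E - a i)))
    (hVal : H99.ValE C qR e)
    (i₀ : ι) (hi₀ : a i₀ = E) [CharP (κ i₀) q] (u u'' : C.B)
    (d : F) (hdV : d ∈ C.V i₀)
    (hd : (u : F) ^ q ^ E - (u'' : F) = algebraMap R F qR * d)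
    (hpow : ∀ i, i ≠ i₀ → ∃ f' ∈ C.V i,
      ((tE q E (a i) u u'' : C.B) : F) ^ e i = algebraMap R F qR * f')
    (z : Place k (κ i₀)) (c : k)
    (hu : z.ord (C.rdB i₀ u - algebraMap k (κ i₀) c) = 1) (hc : c ^ q ^ 2 = c)
    (hdord : z.ord (C.rd i₀ d) = -((q ^ (E - 1) : ℕ) : ℤ))
    (𝔪 : Ideal C.B) [h𝔪p : 𝔪.IsPrime] (h𝔪 : ∀ β : C.B, β ∈ 𝔪 ↔ VanAt z (C.rdB i₀ β)) :
    (∀ i, C.Icomp i ≤ 𝔪) ∧ Nonempty (LocEq C qR 𝔪) := by
  classical
  set ū : κ i₀ := C.rdB i₀ u with hū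
  set t : ι → C.B := fun i => tE q E (a i) u u'' with ht
  have hepos : ∀ i, 0 < e i := by
    intro i
    rw [he i]
    exact Nat.totient_pos.2 (pow_pos hqp.out.pos _)
  have he₀ : e i₀ = 1 := by
    rw [he i₀, hi₀]
    simp
  have ht₀ : (t i₀ : F) = algebraMap R F qR * d := by
    rw [ht]
    change ((tE q E (a i₀) u u'' : C.B) : F) = _
    rw [hi₀, tE_top, ← hd]
    rfl
  -- the residue of `u''` on the component `i₀`
  have hrdT₀ : C.rdB i₀ (t i₀) = 0 := by
    rw [← C.mem_Icomp, H99.mem_Icomp_iff_nonunits, ht₀]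
    exact H99.mem_nonunits_of_mul (C.V i₀) (hqV i₀) hdV
  have hu'' : C.rdB i₀ u'' = ū ^ q ^ E := by
    have h := hrdT₀
    rw [ht] at h
    change C.rdB i₀ (tE q E (a i₀) u u'') = 0 at h
    rw [hi₀, tE_top, map_sub, map_pow, sub_eq_zero] at h
    exact h.symm
  have hrdt : ∀ i, C.rdB i₀ (t i) = tE q E (a i) ū (ū ^ q ^ E) := by
    intro i
    rw [ht]
    change C.rdB i₀ (tE q E (a i) u u'') = _
    rw [map_tE, hu'']
  have hlt : ∀ i, i ≠ i₀ → a i < E := by
    intro i hi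
    refine lt_of_le_of_ne (haE i) fun h => hi (ha (h.trans hi₀.symm))
  have hord : ∀ i, i ≠ i₀ →
      z.ord (C.rdB i₀ (t i)) = ((q ^ (a i - min (a i) (E - a i)) : ℕ) : ℤ) := by
    intro i hi
    rw [hrdt i]
    exact ord_tE q z ū c hu hc E (a i) (hlt i hi)
  have hpos : ∀ i, i ≠ i₀ → 0 < z.ord (C.rdB i₀ (t i)) := by
    intro i hi
    rw [hord i hi]
    exact_mod_cast pow_pos hqp.out.pos _
  have hd0 : C.rd i₀ d ≠ 0 := by
    intro h
    rw [h, Place.ord_zero] at hdord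
    have : (0 : ℤ) < ((q ^ (E - 1) : ℕ) : ℤ) := by exact_mod_cast pow_pos hqp.out.pos _
    omega
  -- the count
  have hsumN : ∑ i ∈ Finset.univ.erase i₀,
      Nat.totient (q ^ min (a i) (E - a i)) * q ^ (a i - min (a i) (E - a i))
        = q ^ (E - 1) := by
    rw [← sum_ordE q E hqp.out hE1]
    refine Finset.sum_bij (fun i _ => a i) ?_ ?_ ?_ ?_
    · intro i hi
      exact Finset.mem_range.2 (hlt i (Finset.ne_of_mem_erase hi))
    · intro i _ j _ hij
      exact ha hij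
    · intro n hn
      obtain ⟨i, hi⟩ := hsur n (Finset.mem_range.1 hn).le
      refine ⟨i, Finset.mem_erase.2 ⟨?_, Finset.mem_univ i⟩, hi⟩
      intro h
      rw [h, hi₀] at hi
      have := Finset.mem_range.1 hn
      omega
    · intro i _
      rfl
  have hsum : z.ord (C.rd i₀ d)
      + ∑ i ∈ Finset.univ.erase i₀, (e i : ℤ) * z.ord (C.rdB i₀ (t i)) = 0 := by
    have h1 : ∑ i ∈ Finset.univ.erase i₀, (e i : ℤ) * z.ord (C.rdB i₀ (t i))
        = ((∑ i ∈ Finset.univ.erase i₀,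
            Nat.totient (q ^ min (a i) (E - a i)) * q ^ (a i - min (a i) (E - a i)) : ℕ) : ℤ) := by
      rw [Nat.cast_sum]
      refine Finset.sum_congr rfl fun i hi => ?_
      rw [hord i (Finset.ne_of_mem_erase hi), he i]
      push_cast
      rfl
    rw [h1, hsumN, hdord]
    ring
  exact locEq_ss_ordE C qR hq0 hqV H hBH hqH crit e hVal hepos i₀ he₀ t d hdV ht₀
    (fun i hi => hpow i hi) z hpos hd0 hsum 𝔪 h𝔪

end Fermat.Agent.S45.NUE.H68

end
end
-- ==== END Fermat.Agent.S45.NUE.H68_LocEqSSE2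

-- ==== BEGIN Fermat.Agent.S45.NUE.H73_CuspExp2
section
attribute [local instance 10000] SubalgebraClass.toAlgebra
attribute [local instance 10000] HahnSeries.powerSeriesAlgebra

/-!
# S45 / NU_e, package E-CUSP, part 2 (helper73): the normalised expansion `cE a` at the cusp
`1/(q^a M)` of `X₀(M q^e)`

`N = M q^e`, `B M + k q^e = 1`.  The cusp `1/(q^a M)` has width `w_a = q^(e - 2 a)` (natural
subtraction), `n_a = N / w_a = M q^min(e, 2 a)` (`nE`), local parameter `s = q^(1/w_a)`.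
With `z_a = ζ_{q^max(a, e - a)}^B` (`zE`):

* `cuspU_gE_mem_range` : every `cuspU N γ_a x` is a series in `u^(n_a)`;
* `cE : F_N →ₐ[Q̄] Q̄((s))` with `(cE x)(u^(n_a)) = cuspU N γ_a x` (`qExpand_cE`);
* `cE_jdF_le` : `i ≤ a`:      `cE (j (q^(d q^i))) = j (s^(d q^(e - 2 a + i)))`;
* `cE_jdF_gt` : `a < i ≤ e`:  `cE (j (q^(d q^i))) = j ((z_a s)^(d q^(max(e, 2 a) - i)))`;
* `hasScale_fieldRange_cE` : the image of `cE` has the scaling property.
-/

set_option autoImplicit false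
set_option synthInstance.maxHeartbeats 400000
set_option maxHeartbeats 1000000
set_option linter.unusedSectionVars false
set_option linter.unusedVariables false
set_option linter.style.haveILetI false

noncomputable section

namespace Fermat.Agent.S45.NUE.H73

open Fermat.Agent.S24 Fermat.Agent.BAD.H88 ModularCurve UpperHalfPlane
open Fermat.Agent.S28 Fermat.Agent.S28.H73 Fermat.Agent.RED.H73
open Fermat.Agent.S36.NU.H88
open scoped MatrixGroups Manifold

/-- `n_a = M q^min(e, 2 a)`: the expansions at the cusp `1/(q^a M)` are series in `u^(n_a)`. -/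
def nE (q M e a : ℕ) : ℕ := M * q ^ (min e (2 * a))

/-- The root of unity `z_a = ζ_{q^max(a, e - a)}^B`. -/
def zE (q e a : ℕ) [NeZero q] (B : ℤ) : Kbar :=
  haveI : NeZero (q ^ max a (e - a)) := ⟨pow_ne_zero _ (NeZero.ne q)⟩
  zetaK (q ^ max a (e - a)) ^ B

theorem zE_pow (q e a : ℕ) [NeZero q] (B : ℤ) : zE q e a B ^ (q ^ max a (e - a)) = 1 := by
  haveI : NeZero (q ^ max a (e - a)) := ⟨pow_ne_zero _ (NeZero.ne q)⟩
  show (zetaK (q ^ max a (e - a)) ^ B) ^ (q ^ max a (e - a)) = 1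
  rw [← zpow_natCast, ← zpow_mul, mul_comm, zpow_mul, zpow_natCast,
    (isPrimitiveRoot_zetaK _).pow_eq_one, one_zpow]

section Level

variable (N q M e : ℕ) (B k : ℤ) (hN : N = M * q ^ e) (hB : B * M + k * (q : ℤ) ^ e = 1)
  (hq : q.Prime) [NeZero N] [NeZero q]

include hN hB hq

theorem nE_pos (a : ℕ) : 0 < nE q M e a :=
  Nat.mul_pos (posE N q M e B k hN hB hq) (pow_pos hq.pos _)

theorem nE_mul (a : ℕ) : nE q M e a * q ^ (e - 2 * a) = N := by
  rw [hN, nE, mul_assoc, ← pow_add]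
  congr 2
  omega

/-- `i ≤ a`: the expansion at the cusp `1/(q^a M)` as a series in `u^(n_a)`. -/
theorem cuspU_gE_eq_le (d d' i a : ℕ) (hM : M = d * d') (hia : i ≤ a) [NeZero (d * q ^ i)]
    [NeZero (nE q M e a)] [NeZero (d * q ^ (e - 2 * a + i))] (hD : d * q ^ i ∣ N) :
    cuspU N (gE q M a) (jdF N (d * q ^ i) hD)
      = qExpand Kbar (nE q M e a) (qExpand Kbar (d * q ^ (e - 2 * a + i)) jBar) := by
  rw [cuspU_gE_le N q M e B k hN hB hq d d' i a hM hia hD, qExpand_qExpand, qExpand_qExpand]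
  refine qExpand_congr ?_ _
  rw [← nE_mul N q M e B k hN hB hq a, pow_add]
  ring

/-- `a < i ≤ e`: the expansion at the cusp `1/(q^a M)` as a series in `u^(n_a)`. -/
theorem cuspU_gE_eq_gt (d d' i a : ℕ) (hM : M = d * d') (hai : a < i) (hie : i ≤ e)
    [NeZero (d * q ^ i)] [NeZero (nE q M e a)] [NeZero (d * q ^ (max e (2 * a) - i))]
    (hD : d * q ^ i ∣ N) :
    cuspU N (gE q M a) (jdF N (d * q ^ i) hD)
      = qExpand Kbar (nE q M e a)
          (twist (zE q e a B) (qExpand Kbar (d * q ^ (max e (2 * a) - i)) jBar)) := by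
  have hq0 : 0 < q := hq.pos
  have hM0 := posE N q M e B k hN hB hq
  have hd0 : 0 < d := by
    rcases Nat.eq_zero_or_pos d with h | h
    · rw [h, zero_mul] at hM; omega
    · exact h
  haveI : NeZero (q ^ (i - a)) := ⟨(pow_pos hq0 _).ne'⟩
  haveI : NeZero (q ^ max a (e - a)) := ⟨(pow_pos hq0 _).ne'⟩
  haveI : NeZero (q ^ (max e (2 * a) - i)) := ⟨(pow_pos hq0 _).ne'⟩
  haveI : NeZero (q ^ (max e (2 * a) - i) * q ^ (i - a)) :=
    ⟨(Nat.mul_pos (pow_pos hq0 _) (pow_pos hq0 _)).ne'⟩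
  haveI : NeZero (M * d * q ^ (e - i + 2 * a)) :=
    ⟨(Nat.mul_pos (Nat.mul_pos hM0 hd0) (pow_pos hq0 _)).ne'⟩
  have hidx : nE q M e a * (d * q ^ (max e (2 * a) - i)) = M * d * q ^ (e - i + 2 * a) := by
    rw [nE]
    have : e - i + 2 * a = min e (2 * a) + (max e (2 * a) - i) := by omega
    rw [this, pow_add]
    ring
  have hz : zetaK (q ^ max a (e - a)) ^ (q ^ (max e (2 * a) - i)) = zetaK (q ^ (i - a)) := by
    have h1 : q ^ max a (e - a) = q ^ (max e (2 * a) - i) * q ^ (i - a) := by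
      rw [← pow_add]; congr 1; omega
    rw [zetaK_congr h1]
    exact zetaK_mul_pow _ _
  have hzz : (zE q e a B) ^ ((d * q ^ (max e (2 * a) - i) : ℕ) : ℤ)
      = zetaK (q ^ (i - a)) ^ (B * d) := by
    show (zetaK (q ^ max a (e - a)) ^ B) ^ ((d * q ^ (max e (2 * a) - i) : ℕ) : ℤ) = _
    rw [← hz, ← zpow_natCast (zetaK (q ^ max a (e - a))) (q ^ (max e (2 * a) - i)), ← zpow_mul,
      ← zpow_mul]
    congr 1
    push_cast
    ring
  rw [cuspU_gE_gt N q M e B k hN hB hq d d' i a hM hai hie hD, twist_qExpand, qExpand_qExpand,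
    hzz]
  exact qExpand_congr hidx.symm _

/-- The `u`-expansions at the cusp `1/(q^a M)` are series in `u^(n_a)`. -/
theorem cuspU_gE_mem_range (a : ℕ) [NeZero (nE q M e a)] (x : FN N) :
    cuspU N (gE q M a) x ∈ (qExpandAlgHomC Kbar (nE q M e a)).range := by
  have hq0 : 0 < q := hq.pos
  have hx : x ∈ IntermediateField.adjoin Kbar
      {x : FN N | ∃ (d : ℕ) (_ : NeZero d) (hd : d ∣ N), x = jdF N d hd} := by
    rw [adjoin_jdF]; exact IntermediateField.mem_top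
  induction hx using IntermediateField.adjoin_induction with
  | mem y hy =>
    obtain ⟨D, hD0, hD, rfl⟩ := hy
    obtain ⟨d, d', i, hM, hie, h⟩ := dvdE_cases N q M e B k hN hB hq D hD
    subst h
    have hM0 := posE N q M e B k hN hB hq
    have hd0 : 0 < d := by
      rcases Nat.eq_zero_or_pos d with h | h
      · rw [h, zero_mul] at hM; omega
      · exact h
    rcases Nat.lt_or_ge a i with hai | hia
    · haveI : NeZero (d * q ^ (max e (2 * a) - i)) :=
        ⟨(Nat.mul_pos hd0 (pow_pos hq0 _)).ne'⟩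
      exact ⟨_, (cuspU_gE_eq_gt N q M e B k hN hB hq d d' i a hM hai hie hD).symm⟩
    · haveI : NeZero (d * q ^ (e - 2 * a + i)) := ⟨(Nat.mul_pos hd0 (pow_pos hq0 _)).ne'⟩
      exact ⟨_, (cuspU_gE_eq_le N q M e B k hN hB hq d d' i a hM hia hD).symm⟩
  | algebraMap c =>
    rw [AlgHom.commutes]
    exact Subalgebra.algebraMap_mem _ c
  | add y z _ _ hy hz =>
    rw [map_add]; exact add_mem hy hz
  | inv y _ hy =>
    rw [map_inv₀]
    obtain ⟨t, ht⟩ := hy
    exact ⟨t⁻¹, by rw [map_inv₀]; exact congrArg _ ht⟩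
  | mul y z _ _ hy hz =>
    rw [map_mul]; exact mul_mem hy hz

/-- **The normalised expansion at the cusp `1/(q^a M)`** (in the local parameter
`s = q^(1/w_a)`, `w_a = q^(e - 2 a)`). -/
def cE (a : ℕ) [NeZero (nE q M e a)] : FN N →ₐ[Kbar] LaurentSeries Kbar :=
  ((AlgEquiv.ofInjective (qExpandAlgHomC Kbar (nE q M e a))
      (qExpandAlgHomC_injective (nE q M e a))).symm.toAlgHom).comp
    ((cuspU N (gE q M a)).codRestrict (qExpandAlgHomC Kbar (nE q M e a)).range
      (cuspU_gE_mem_range N q M e B k hN hB hq a))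

theorem qExpand_cE (a : ℕ) [NeZero (nE q M e a)] (x : FN N) :
    qExpand Kbar (nE q M e a) (cE N q M e B k hN hB hq a x) = cuspU N (gE q M a) x := by
  have h := (AlgEquiv.ofInjective (qExpandAlgHomC Kbar (nE q M e a))
    (qExpandAlgHomC_injective (nE q M e a))).apply_symm_apply
    (((cuspU N (gE q M a)).codRestrict (qExpandAlgHomC Kbar (nE q M e a)).range
      (cuspU_gE_mem_range N q M e B k hN hB hq a)) x)
  exact congrArg Subtype.val h

theorem cE_injective (a : ℕ) [NeZero (nE q M e a)] :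
    Function.Injective (cE N q M e B k hN hB hq a) :=
  (cE N q M e B k hN hB hq a).toRingHom.injective

/-- `i ≤ a`: `cE (j (q^(d q^i))) = j (s^(d q^(e - 2 a + i)))`. -/
theorem cE_jdF_le (d d' i a : ℕ) (hM : M = d * d') (hia : i ≤ a) [NeZero (d * q ^ i)]
    [NeZero (nE q M e a)] [NeZero (d * q ^ (e - 2 * a + i))] (hD : d * q ^ i ∣ N) :
    cE N q M e B k hN hB hq a (jdF N (d * q ^ i) hD)
      = qExpand Kbar (d * q ^ (e - 2 * a + i)) jBar := by
  apply qExpand_injective (nE q M e a)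
  rw [qExpand_cE, cuspU_gE_eq_le N q M e B k hN hB hq d d' i a hM hia hD]

/-- `a < i ≤ e`: `cE (j (q^(d q^i))) = j ((z_a s)^(d q^(max(e, 2 a) - i)))`. -/
theorem cE_jdF_gt (d d' i a : ℕ) (hM : M = d * d') (hai : a < i) (hie : i ≤ e)
    [NeZero (d * q ^ i)] [NeZero (nE q M e a)] [NeZero (d * q ^ (max e (2 * a) - i))]
    (hD : d * q ^ i ∣ N) :
    cE N q M e B k hN hB hq a (jdF N (d * q ^ i) hD)
      = twist (zE q e a B) (qExpand Kbar (d * q ^ (max e (2 * a) - i)) jBar) := by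
  apply qExpand_injective (nE q M e a)
  rw [qExpand_cE, cuspU_gE_eq_gt N q M e B k hN hB hq d d' i a hM hai hie hD]

/-- Two `Q̄`-algebra homomorphisms on `F_N` which agree on the `j (q^D)`, `D ∣ N`, are equal. -/
theorem algHom_eq_of_jdF (φ ψ : FN N →ₐ[Kbar] LaurentSeries Kbar)
    (h : ∀ (D : ℕ) (_ : NeZero D) (hD : D ∣ N), φ (jdF N D hD) = ψ (jdF N D hD)) (x : FN N) :
    φ x = ψ x := by
  have hx : x ∈ IntermediateField.adjoin Kbar
      {x : FN N | ∃ (d : ℕ) (_ : NeZero d) (hd : d ∣ N), x = jdF N d hd} := by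
    rw [adjoin_jdF]; exact IntermediateField.mem_top
  induction hx using IntermediateField.adjoin_induction with
  | mem y hy =>
    obtain ⟨D, hD0, hD, rfl⟩ := hy
    exact h D hD0 hD
  | algebraMap c => rw [AlgHom.commutes, AlgHom.commutes]
  | add y z _ _ hy hz => rw [map_add, map_add, hy, hz]
  | inv y _ hy => rw [map_inv₀, map_inv₀, hy]
  | mul y z _ _ hy hz => rw [map_mul, map_mul, hy, hz]

/-- **`a = e` is the cusp `∞`**: `cE e x` is the `q`-expansion of `x`. -/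
theorem cE_top [NeZero (nE q M e e)] (x : FN N) :
    cE N q M e B k hN hB hq e x = (x : LaurentSeries Kbar) := by
  have hq0 : 0 < q := hq.pos
  refine algHom_eq_of_jdF N q M e B k hN hB hq (cE N q M e B k hN hB hq e)
    (modularFunctionFieldBar N).val ?_ x
  intro D hD0 hD
  obtain ⟨d, d', i, hM, hie, h⟩ := dvdE_cases N q M e B k hN hB hq D hD
  subst h
  have hM0 := posE N q M e B k hN hB hq
  have hd0 : 0 < d := by
    rcases Nat.eq_zero_or_pos d with h | h
    · rw [h, zero_mul] at hM; omega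
    · exact h
  haveI : NeZero (d * q ^ (e - 2 * e + i)) := ⟨(Nat.mul_pos hd0 (pow_pos hq0 _)).ne'⟩
  rw [cE_jdF_le N q M e B k hN hB hq d d' i e hM hie hD]
  have h0 : e - 2 * e + i = i := by omega
  rw [qExpand_congr (by rw [h0] : d * q ^ (e - 2 * e + i) = d * q ^ i)]
  exact qExpand_jBar (d * q ^ i)

/-- The values of `cE` lie in the field generated by `IntSpan`. -/
theorem cE_mem_adjoin_intSpan (a : ℕ) [NeZero (nE q M e a)] (x : FN N) :
    cE N q M e B k hN hB hq a x ∈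
      IntermediateField.adjoin Kbar (IntSpan Kbar : Set (LaurentSeries Kbar)) := by
  have hq0 : 0 < q := hq.pos
  have hx : x ∈ IntermediateField.adjoin Kbar
      {x : FN N | ∃ (d : ℕ) (_ : NeZero d) (hd : d ∣ N), x = jdF N d hd} := by
    rw [adjoin_jdF]; exact IntermediateField.mem_top
  induction hx using IntermediateField.adjoin_induction with
  | mem y hy =>
    obtain ⟨D, hD0, hD, rfl⟩ := hy
    apply IntermediateField.subset_adjoin
    obtain ⟨d, d', i, hM, hie, h⟩ := dvdE_cases N q M e B k hN hB hq D hD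
    subst h
    have hM0 := posE N q M e B k hN hB hq
    have hd0 : 0 < d := by
      rcases Nat.eq_zero_or_pos d with h | h
      · rw [h, zero_mul] at hM; omega
      · exact h
    rcases Nat.lt_or_ge a i with hai | hia
    · haveI : NeZero (d * q ^ (max e (2 * a) - i)) :=
        ⟨(Nat.mul_pos hd0 (pow_pos hq0 _)).ne'⟩
      rw [cE_jdF_gt N q M e B k hN hB hq d d' i a hM hai hie hD]
      exact twist_mem_intSpan (pow_pos hq0 (max a (e - a))) (zE_pow q e a B)
        (qExpand_jBar_mem_intSeries _)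
    · haveI : NeZero (d * q ^ (e - 2 * a + i)) := ⟨(Nat.mul_pos hd0 (pow_pos hq0 _)).ne'⟩
      rw [cE_jdF_le N q M e B k hN hB hq d d' i a hM hia hD]
      exact intSeries_le_intSpan (qExpand_jBar_mem_intSeries _)
  | algebraMap c =>
    rw [AlgHom.commutes]
    exact IntermediateField.algebraMap_mem _ c
  | add y z _ _ hy hz =>
    rw [map_add]; exact add_mem hy hz
  | inv y _ hy =>
    rw [map_inv₀]; exact inv_mem hy
  | mul y z _ _ hy hz =>
    rw [map_mul]; exact mul_mem hy hz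

/-- The image of `cE` has the scaling property. -/
theorem hasScale_fieldRange_cE (A : ValuationSubring Kbar) (a : ℕ) [NeZero (nE q M e a)] :
    HasScale A (cE N q M e B k hN hB hq a).fieldRange := by
  refine HasScale.mono A (hasScale_adjoin A (le_refl _)) ?_
  rintro y ⟨x, rfl⟩
  exact cE_mem_adjoin_intSpan N q M e B k hN hB hq a x

end Level

end Fermat.Agent.S45.NUE.H73

end
end
-- ==== END Fermat.Agent.S45.NUE.H73_CuspExp2

-- ==== BEGIN Fermat.Agent.S45.NUE.H73_CuspIntE2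
section

/-!
# S45 / NU_e, leaf E-CUSP, slice CUSP-INT_e (helper73), part 2: the arithmetic of the orders

`wE q M e b i = q^(2 min b i) · M q^(e - i)` is the order of `Δ(q^i τ)` at a cusp of type `b`
of `Γ₀(M q^e)` (in the uniformiser `t = q^(1/N)`).

* `ord_Fe`  : `w(e-1) - w(e) ≥ - q^(e-1)(q-1) · N`                    (`eps_e`);
* `ord_F0`  : `q (w(1) - w(0)) ≥ - (q-1) · N`                          (`eps_1⁻q`);
* `ord_Fa`  : `w(a-1) + w(a+1) - 2 w(a) ≥ - 2 q^(a-1)(q-1) · N`        (`eps_a / eps_(a+1)`);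
* `ord_Fx`  : `r (w(a-1) + w(a+1) - 2 w(a)) - w(i) ≥ - (q^(a-m) + r · 2 q^(a-1)(q-1)) · N`,
  `r = q^m`, `i = a ± m`, `m = min a (e - a)`               (`j(q^i τ) (eps_a / eps_(a+1))^r`).
-/

set_option autoImplicit false
set_option linter.unusedSectionVars false
set_option linter.unusedVariables false
set_option maxHeartbeats 1000000

noncomputable section

namespace Fermat.Agent.S45.NUE.H73

section Arith

variable (q M e : ℕ)

/-- The order of `Δ(q^i τ)` at a cusp of type `b`. -/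
def wE (b i : ℕ) : ℕ := q ^ (2 * min b i) * (M * q ^ (e - i))

theorem wE_eq (b i k : ℕ) (h : 2 * min b i + (e - i) = k) : wE q M e b i = M * q ^ k := by
  rw [wE, ← h, pow_add]
  ring

theorem wE_le (hq : 0 < q) (b i k : ℕ) (h : 2 * min b i + (e - i) ≤ k) :
    wE q M e b i ≤ M * q ^ k := by
  rw [wE_eq q M e b i _ rfl]
  exact Nat.mul_le_mul_left _ (Nat.pow_le_pow_right hq h)

variable (hq : q.Prime)

include hq

/-- `eps_e = Δ(q^(e-1) τ) / Δ(q^e τ)`. -/
theorem ord_Fe (he : 1 ≤ e) (b : ℕ) (hb : b ≤ e) :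
    -(((q ^ (e - 1) * (q - 1) : ℕ) : ℤ) * ((M * q ^ e : ℕ) : ℤ))
      ≤ ((wE q M e b (e - 1) : ℕ) : ℤ) - ((wE q M e b e : ℕ) : ℤ) := by
  have hq1 : 1 ≤ q := hq.one_le
  have hc : ((q - 1 : ℕ) : ℤ) = (q : ℤ) - 1 := by
    rw [Nat.cast_sub hq1, Nat.cast_one]
  have hqz : (1 : ℤ) ≤ q := by exact_mod_cast hq1
  rcases Nat.lt_or_ge b e with hlt | hge
  · -- `b ≤ e - 1`
    have h1 : wE q M e b (e - 1) = M * q ^ (2 * b) * q :=by
      rw [wE_eq q M e b (e - 1) (2 * b + 1) (by omega), pow_succ]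
      ring
    have h2 : wE q M e b e = M * q ^ (2 * b) := wE_eq q M e b e (2 * b) (by omega)
    rw [h1, h2]
    push_cast
    rw [hc]
    have hP : (0 : ℤ) ≤ (M : ℤ) * (q : ℤ) ^ (2 * b) := by positivity
    have hR : (0 : ℤ) ≤ (q : ℤ) ^ (e - 1) * ((q : ℤ) - 1) * ((M : ℤ) * (q : ℤ) ^ e) := by
      have : (0 : ℤ) ≤ (q : ℤ) - 1 := by linarith
      positivity
    nlinarith [mul_nonneg hP (sub_nonneg.2 hqz)]
  · have hbe : b = e := le_antisymm hb hge
    subst hbe
    have h1 : wE q M b b (b - 1) = M * q ^ (b - 1) * q ^ b := by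
      rw [wE_eq q M b b (b - 1) (b - 1 + b) (by omega), pow_add]
      ring
    have h2 : wE q M b b b = M * q ^ (b - 1) * q ^ b * q := by
      rw [wE_eq q M b b b (b - 1 + b + 1) (by omega), pow_succ, pow_add]
      ring
    rw [h1, h2]
    push_cast
    rw [hc]
    apply le_of_eq
    ring

/-- `eps_1⁻q = (Δ(q τ) / Δ(τ))^q`. -/
theorem ord_F0 (he : 1 ≤ e) (b : ℕ) (hb : b ≤ e) :
    -(((q - 1 : ℕ) : ℤ) * ((M * q ^ e : ℕ) : ℤ))
      ≤ (q : ℤ) * (((wE q M e b 1 : ℕ) : ℤ) - ((wE q M e b 0 : ℕ) : ℤ)) := by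
  have hq1 : 1 ≤ q := hq.one_le
  have hc : ((q - 1 : ℕ) : ℤ) = (q : ℤ) - 1 := by
    rw [Nat.cast_sub hq1, Nat.cast_one]
  have hqz : (1 : ℤ) ≤ q := by exact_mod_cast hq1
  have h0 : wE q M e b 0 = M * q ^ (e - 1) * q := by
    rw [wE_eq q M e b 0 (e - 1 + 1) (by omega), pow_succ]
    ring
  have hN : M * q ^ e = M * q ^ (e - 1) * q := by
    conv_lhs => rw [show e = e - 1 + 1 by omega, pow_succ]
    ring
  rcases Nat.eq_zero_or_pos b with hb0 | hb0
  · subst hb0
    have h1 : wE q M e 0 1 = M * q ^ (e - 1) := wE_eq q M e 0 1 (e - 1) (by omega)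
    rw [h0, h1, hN]
    push_cast
    rw [hc]
    apply le_of_eq
    ring
  · have h1 : wE q M e b 1 = M * q ^ (e - 1) * q * q := by
      rw [wE_eq q M e b 1 (e - 1 + 1 + 1) (by omega), pow_succ, pow_succ]
      ring
    rw [h0, h1, hN]
    push_cast
    rw [hc]
    have hP : (0 : ℤ) ≤ (M : ℤ) * (q : ℤ) ^ (e - 1) := by positivity
    nlinarith [mul_nonneg hP (sub_nonneg.2 hqz), mul_nonneg (mul_nonneg hP (sub_nonneg.2 hqz))
      (le_trans zero_le_one hqz), mul_nonneg (mul_nonneg (mul_nonneg hP (sub_nonneg.2 hqz))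
      (le_trans zero_le_one hqz)) (le_trans zero_le_one hqz)]

/-- The defect `Z = K_a N + w(a-1) + w(a+1) - 2 w(a)`, case `b ≥ a + 1`. -/
theorem ord_Fa_hi (a b : ℕ) (ha : 1 ≤ a) (hae : a + 1 ≤ e) (hab : a + 1 ≤ b) :
    ((wE q M e b (a - 1) : ℕ) : ℤ) + ((wE q M e b (a + 1) : ℕ) : ℤ)
        - 2 * ((wE q M e b a : ℕ) : ℤ)
      = (M : ℤ) * (q : ℤ) ^ (e + a - 1) * ((q : ℤ) - 1) ^ 2 := by
  have h1 : wE q M e b (a - 1) = M * q ^ (e + a - 1) :=
    wE_eq q M e b (a - 1) (e + a - 1) (by omega)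
  have h2 : wE q M e b (a + 1) = M * q ^ (e + a - 1) * q * q := by
    rw [wE_eq q M e b (a + 1) (e + a - 1 + 1 + 1) (by omega), pow_succ, pow_succ]
    ring
  have h3 : wE q M e b a = M * q ^ (e + a - 1) * q := by
    rw [wE_eq q M e b a (e + a - 1 + 1) (by omega), pow_succ]
    ring
  rw [h1, h2, h3]
  push_cast
  ring

/-- The constant `K_a N = 2 q^(a-1) (q-1) · M q^e`. -/
theorem KaN_eq (a : ℕ) (ha : 1 ≤ a) :
    (((2 * q ^ (a - 1) * (q - 1) : ℕ) : ℤ) * ((M * q ^ e : ℕ) : ℤ))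
      = 2 * ((M : ℤ) * (q : ℤ) ^ (e + a - 1) * ((q : ℤ) - 1)) := by
  have hq1 : 1 ≤ q := hq.one_le
  have hc : ((q - 1 : ℕ) : ℤ) = (q : ℤ) - 1 := by
    rw [Nat.cast_sub hq1, Nat.cast_one]
  have he : e + a - 1 = (a - 1) + e := by omega
  push_cast
  rw [hc, he, pow_add]
  ring

/-- `eps_a / eps_(a+1) = Δ(q^(a-1) τ) Δ(q^(a+1) τ) / Δ(q^a τ)²`. -/
theorem ord_Fa (a b : ℕ) (ha : 1 ≤ a) (hae : a + 1 ≤ e) (hb : b ≤ e) :
    -(((2 * q ^ (a - 1) * (q - 1) : ℕ) : ℤ) * ((M * q ^ e : ℕ) : ℤ))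
      ≤ ((wE q M e b (a - 1) : ℕ) : ℤ) + ((wE q M e b (a + 1) : ℕ) : ℤ)
        - 2 * ((wE q M e b a : ℕ) : ℤ) := by
  have hq1 : 1 ≤ q := hq.one_le
  have hqz : (1 : ℤ) ≤ q := by exact_mod_cast hq1
  have hq10 : (0 : ℤ) ≤ (q : ℤ) - 1 := sub_nonneg.2 hqz
  rw [KaN_eq q M e hq a ha]
  rcases lt_trichotomy b a with hlt | heq | hgt
  · -- `b ≤ a - 1`
    have h1 : wE q M e b (a - 1) = M * q ^ (2 * b + e - a - 1) * q * q := by
      rw [wE_eq q M e b (a - 1) (2 * b + e - a - 1 + 1 + 1) (by omega), pow_succ, pow_succ]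
      ring
    have h2 : wE q M e b (a + 1) = M * q ^ (2 * b + e - a - 1) :=
      wE_eq q M e b (a + 1) (2 * b + e - a - 1) (by omega)
    have h3 : wE q M e b a = M * q ^ (2 * b + e - a - 1) * q := by
      rw [wE_eq q M e b a (2 * b + e - a - 1 + 1) (by omega), pow_succ]
      ring
    rw [h1, h2, h3]
    push_cast
    have hP : (0 : ℤ) ≤ (M : ℤ) * (q : ℤ) ^ (2 * b + e - a - 1) := by positivity
    have hR : (0 : ℤ) ≤ (M : ℤ) * (q : ℤ) ^ (e + a - 1) * ((q : ℤ) - 1) := by positivity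
    nlinarith [mul_nonneg hP (mul_nonneg hq10 hq10)]
  · subst heq
    have h1 : wE q M e b (b - 1) = M * q ^ (e + b - 1) :=
      wE_eq q M e b (b - 1) (e + b - 1) (by omega)
    have h2 : wE q M e b (b + 1) = M * q ^ (e + b - 1) :=
      wE_eq q M e b (b + 1) (e + b - 1) (by omega)
    have h3 : wE q M e b b = M * q ^ (e + b - 1) * q := by
      rw [wE_eq q M e b b (e + b - 1 + 1) (by omega), pow_succ]
      ring
    rw [h1, h2, h3]
    push_cast
    apply le_of_eq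
    ring
  · rw [ord_Fa_hi q M e hq a b ha hae hgt]
    have hP : (0 : ℤ) ≤ (M : ℤ) * (q : ℤ) ^ (e + a - 1) := by positivity
    nlinarith [mul_nonneg hP (mul_nonneg hq10 hq10), mul_nonneg hP hq10]

/-- `j(q^i τ) (eps_a / eps_(a+1))^r`, `r = q^m`, `i = a - m` or `i = a + m`, `m ≤ a`,
`a + m ≤ e`: the pole orders are bounded by `q^(a-m) + r · 2 q^(a-1) (q-1)`. -/
theorem ord_Fx (a b m i : ℕ) (ha : 1 ≤ a) (hae : a + 1 ≤ e) (hb : b ≤ e) (hma : m ≤ a)
    (hme : a + m ≤ e) (hi : i = a - m ∨ i = a + m) :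
    -(((q ^ (a - m) + q ^ m * (2 * q ^ (a - 1) * (q - 1)) : ℕ) : ℤ) * ((M * q ^ e : ℕ) : ℤ))
      ≤ (0 + ((q ^ m : ℕ) : ℤ) * (((wE q M e b (a - 1) : ℕ) : ℤ)
            + ((wE q M e b (a + 1) : ℕ) : ℤ)))
        - (((wE q M e b i : ℕ) : ℤ) + ((q ^ m : ℕ) : ℤ) * (2 * ((wE q M e b a : ℕ) : ℤ))) := by
  have hq0 : 0 < q := hq.pos
  have hq1 : 1 ≤ q := hq.one_le
  have hq2 : 2 ≤ q := hq.two_le
  have hqz : (2 : ℤ) ≤ q := by exact_mod_cast hq2
  have hq10 : (0 : ℤ) ≤ (q : ℤ) - 1 := by linarith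
  have hFa := ord_Fa q M e hq a b ha hae hb
  have hK := KaN_eq q M e hq a ha
  have hr0 : (0 : ℤ) ≤ ((q ^ m : ℕ) : ℤ) := Nat.cast_nonneg _
  -- the shape of the left side
  have hL : (((q ^ (a - m) + q ^ m * (2 * q ^ (a - 1) * (q - 1)) : ℕ) : ℤ)
        * ((M * q ^ e : ℕ) : ℤ))
      = ((M * q ^ (e + a - m) : ℕ) : ℤ)
        + ((q ^ m : ℕ) : ℤ) * (((2 * q ^ (a - 1) * (q - 1) : ℕ) : ℤ)
            * ((M * q ^ e : ℕ) : ℤ)) := by
    have he : e + a - m = (a - m) + e := by omega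
    rw [he, pow_add]
    push_cast
    ring
  rw [hL]
  by_cases hba : b ≤ a
  · -- no pole beyond `κ`
    have hw : wE q M e b i ≤ M * q ^ (e + a - m) := by
      refine wE_le q M e hq0 b i _ ?_
      rcases hi with rfl | rfl <;> omega
    have hwz : ((wE q M e b i : ℕ) : ℤ) ≤ ((M * q ^ (e + a - m) : ℕ) : ℤ) := by
      exact_mod_cast hw
    nlinarith [mul_nonneg hr0 (sub_nonneg.2 hFa)]
  · have hab : a + 1 ≤ b := by omega
    have hw : wE q M e b i ≤ M * q ^ (e + a + m) := by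
      refine wE_le q M e hq0 b i _ ?_
      rcases hi with rfl | rfl <;> omega
    have hwz : ((wE q M e b i : ℕ) : ℤ) ≤ (M : ℤ) * (q : ℤ) ^ (e + a - 1) * q * (q : ℤ) ^ m := by
      have : M * q ^ (e + a + m) = M * q ^ (e + a - 1) * q * q ^ m := by
        rw [show e + a + m = (e + a - 1) + 1 + m by omega, pow_add, pow_succ]
        ring
      rw [this] at hw
      exact_mod_cast hw
    have hZ := ord_Fa_hi q M e hq a b ha hae hab
    have hP : (0 : ℤ) ≤ (M : ℤ) * (q : ℤ) ^ (e + a - 1) := by positivity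
    have hκ : (0 : ℤ) ≤ ((M * q ^ (e + a - m) : ℕ) : ℤ) := Nat.cast_nonneg _
    have hrq : ((q ^ m : ℕ) : ℤ) = (q : ℤ) ^ m := by push_cast; rfl
    rw [hK]
    rw [hrq] at hr0 ⊢
    have hkey : (q : ℤ) ^ m * ((M : ℤ) * (q : ℤ) ^ (e + a - 1) * q)
        ≤ (q : ℤ) ^ m * ((M : ℤ) * (q : ℤ) ^ (e + a - 1) * (((q : ℤ) - 1) ^ 2
            + 2 * ((q : ℤ) - 1))) := by
      refine mul_le_mul_of_nonneg_left ?_ hr0
      refine mul_le_mul_of_nonneg_left ?_ hP
      nlinarith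
    have hexp : ((wE q M e b (a - 1) : ℕ) : ℤ) + ((wE q M e b (a + 1) : ℕ) : ℤ)
        = (M : ℤ) * (q : ℤ) ^ (e + a - 1) * ((q : ℤ) - 1) ^ 2
          + 2 * ((wE q M e b a : ℕ) : ℤ) := by linarith
    rw [hexp]
    nlinarith

end Arith

end Fermat.Agent.S45.NUE.H73

end
end
-- ==== END Fermat.Agent.S45.NUE.H73_CuspIntE2
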