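-- GENERATED (merged mirror, NOTES/tools/trim/merge3_helper67.py): 4 modules of the originals, bodies verbatim.
import Fermat.Agent.Zm.S45_L02_001
import Fermat.Agent.Zm.S45_L04_000
import Fermat.Agent.Zm.S36_L02_002
import Fermat.Agent.Zm.S36_L02_003
import Fermat.Agent.Zm.S36_L03_002
import Fermat.Agent.Zm.S36_L10_000
import Fermat.Agent.Zm.S36_L11_001
import Fermat.Agent.Zm.S45_L03_000
import Fermat.Agent.Zm.S45_L02_000

-- ==== BEGIN Fermat.Agent.S45.NUE.H16_HssE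
section

/-!
# S45 / NU_e, package E-FIN, leaf E-PT-SS, SS-ASM (helper16): generic form

Level `N = M q^e`, `A` over `q`, `R = Rur A`, `F = L0 A N`, `C` a chart over `R` with
`B = ` the integral closure of `R[j]`, components indexed by `a : ι → ℕ` (bijective onto `0..e`),
`i₀` the component of the cusp `∞` (`a i₀ = e`).

* `HKE`, `inv_q_mem_HKE`, `B_le_HKE` : the ring of the functions integral over `K^ur[j]`;
* `hssE_gen` : **SS-ASM, generic in the chart and in the coordinate** (`x = f(τ)`, `y = f(q^e τ)`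
  integral over `K^ur[j]` and in all `V i`; `x^(q^e) - y = q d`, SS-RAM as `hpow`; COORD + POLE
  for the reductions on the component `i₀`): all components pass through `𝔪_z` and there is a
  local equation datum at `𝔪_z`.  (= helper68's `H68.locEq_ss_coordE` + `crit`.)
* `sE_top_of_intSer` : the reduction at `∞` of a function with integral expansion;
* `hssE_mod` : **SS-ASM for the valuations `VE`** of helper23: the same with the leaves
  SS-FUN (`hfun`), SS-RAM (`hram`), SS-POLE (`hpoleV`, `hpole`) in the shapes of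
  `NOTES/plan/S45_EPTSS.md`, the residue map of `i₀` given by `sE e` through an embedding
  `emb : κ i₀ →+* k((t))`, and COORD + POLE at level `M`
  (`ord_z (ū - c) = 1`, `c^(q²) = c`, `ord_z δ̄ = -1`).
-/

set_option autoImplicit false
set_option synthInstance.maxHeartbeats 400000
set_option maxHeartbeats 1000000
set_option linter.unusedSectionVars false
set_option linter.unusedVariables false
set_option linter.style.haveILetI false

noncomputable section

namespace Fermat.Agent.S45.NUE.H16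

open Fermat.Agent.S24 Fermat.Agent.BAD.H88 ModularCurve AlgebraicCurve Polynomial
open Fermat.Agent.S28 Fermat.Agent.S28.H73 Fermat.Agent.RED.H73 Fermat.Agent.RED.H17
open Fermat.Agent.S36.NU.H88 Fermat.Agent.S36.NU.H23 Fermat.Agent.S36.NU.H41
open Fermat.Agent.S36.NU.H65 Fermat.Agent.S36.NU.H16 Fermat.Agent.S36.NU
open Fermat.Agent.S45.NUE.H23 Fermat.Agent.S45.NUE.H68

section Gen

variable (A : ValuationSubring Kbar) (N : ℕ) [NeZero N]

/-- The functions of level `N` which are integral over `K^ur[j]`. -/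
def HKE : Subring ↥(L0 A N) :=
  (integralClosure ↥(Algebra.adjoin ↥(Kur A) {j0 A N}) ↥(L0 A N)).toSubring

theorem mem_HKE (x : ↥(L0 A N)) :
    x ∈ HKE A N ↔ IsIntegral ↥(Algebra.adjoin ↥(Kur A) {j0 A N}) x := Iff.rfl

/-- `1 / q` is integral over `K^ur[j]`. -/
theorem inv_q_mem_HKE (q : ℕ) :
    (algebraMap ↥(Rur A) ↥(L0 A N) ((q : ℕ) : ↥(Rur A)))⁻¹ ∈ HKE A N := by
  rw [mem_HKE, map_natCast]
  have e : (((q : ℕ) : ↥(L0 A N)))⁻¹
      = algebraMap ↥(Algebra.adjoin ↥(Kur A) {j0 A N}) ↥(L0 A N)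
          (algebraMap ↥(Kur A) _ (((q : ℕ) : ↥(Kur A)))⁻¹) := by
    rw [← IsScalarTower.algebraMap_apply, map_inv₀, map_natCast]
  rw [e]
  exact isIntegral_algebraMap

variable {ι : Type*} {κ : ι → Type*} [∀ i, Field (κ i)] [∀ i, Algebra (kV A) (κ i)]

/-- The elements of the chart of `j` are integral over `K^ur[j]`. -/
theorem B_le_HKE (C : Chart ↥(Rur A) ↥(L0 A N) (kV A) ι κ)
    (hB0 : C.B = intSub ↥(Rur A) (j0 A N)) : ∀ x ∈ C.B, x ∈ HKE A N := by
  intro x hx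
  rw [hB0] at hx
  exact H17.isIntegral_adjoin_field ↥(Rur A) ↥(Kur A) (j0 A N) hx

/-- **SS-ASM, generic in the chart and in the coordinate.** -/
theorem hssE_gen [Fintype ι] [DecidableEq ι] (C : Chart ↥(Rur A) ↥(L0 A N) (kV A) ι κ)
    (hB0 : C.B = intSub ↥(Rur A) (j0 A N)) (q : ℕ) [hqp : Fact q.Prime]
    (hqV : ∀ i, ((q : ℕ) : ↥(L0 A N)) ∈ (C.V i).nonunits)
    (crit : ∀ f : ↥(L0 A N), IsIntegral ↥(Algebra.adjoin ↥(Kur A) {j0 A N}) f →
      (∀ i, f ∈ C.V i) → f ∈ C.B)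
    (E : ℕ) (hE1 : 1 ≤ E) (a : ι → ℕ) (ha : Function.Injective a) (haE : ∀ i, a i ≤ E)
    (hsur : ∀ n, n ≤ E → ∃ i, a i = n)
    (e : ι → ℕ) (he : ∀ i, e i = Nat.totient (q ^ min (a i) (E - a i)))
    (hVal : H99.ValE C ((q : ℕ) : ↥(Rur A)) e)
    (i₀ : ι) (hi₀ : a i₀ = E) [CharP (κ i₀) q]
    (x y : ↥(L0 A N))
    (hxI : IsIntegral ↥(Algebra.adjoin ↥(Kur A) {j0 A N}) x)
    (hyI : IsIntegral ↥(Algebra.adjoin ↥(Kur A) {j0 A N}) y)
    (hxV : ∀ i, x ∈ C.V i) (hyV : ∀ i, y ∈ C.V i)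
    (d : ↥(L0 A N)) (hdV : d ∈ C.V i₀) (hd : x ^ q ^ E - y = ((q : ℕ) : ↥(L0 A N)) * d)
    (hpow : ∀ i, i ≠ i₀ → ∃ f' ∈ C.V i,
      (_root_.Fermat.Agent.S45.NUE.H68.tE q E (a i) x y) ^ e i = ((q : ℕ) : ↥(L0 A N)) * f')
    (z : Place (kV A) (κ i₀)) (c : kV A)
    (hu : z.ord (C.rd i₀ x - algebraMap (kV A) (κ i₀) c) = 1) (hc : c ^ q ^ 2 = c)
    (hdord : z.ord (C.rd i₀ d) = -((q ^ (E - 1) : ℕ) : ℤ))
    (𝔪 : Ideal C.B) [h𝔪p : 𝔪.IsPrime] (h𝔪 : ∀ β : C.B, β ∈ 𝔪 ↔ VanAt z (C.rdB i₀ β)) :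
    (∀ i, C.Icomp i ≤ 𝔪) ∧ Nonempty (LocEq C ((q : ℕ) : ↥(Rur A)) 𝔪) := by
  have hqR : algebraMap ↥(Rur A) ↥(L0 A N) ((q : ℕ) : ↥(Rur A)) = ((q : ℕ) : ↥(L0 A N)) :=
    map_natCast _ _
  have hq0 : algebraMap ↥(Rur A) ↥(L0 A N) ((q : ℕ) : ↥(Rur A)) ≠ 0 := by
    rw [hqR]
    exact Nat.cast_ne_zero.2 hqp.out.ne_zero
  have hxB : x ∈ C.B := crit x hxI hxV
  have hyB : y ∈ C.B := crit y hyI hyV
  have htE : ∀ n, ((_root_.Fermat.Agent.S45.NUE.H68.tE q E n (⟨x, hxB⟩ : C.B) (⟨y, hyB⟩ : C.B) : C.B) : ↥(L0 A N))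
      = _root_.Fermat.Agent.S45.NUE.H68.tE q E n x y := fun n => map_tE (C.B.val : C.B →+* ↥(L0 A N)) q E n _ _
  refine locEq_ss_coordE C ((q : ℕ) : ↥(Rur A)) q hq0 (fun i => by rw [hqR]; exact hqV i)
    (HKE A N) (B_le_HKE A N C hB0) (inv_q_mem_HKE A N q)
    (fun f hf hfV => crit f hf hfV) E hE1 a ha haE hsur e he hVal i₀ hi₀
    ⟨x, hxB⟩ ⟨y, hyB⟩ d hdV (by rw [hqR]; exact hd) ?_ z c ?_ hc hdord 𝔪 h𝔪
  · intro i hi
    obtain ⟨f', hf', h⟩ := hpow i hi
    exact ⟨f', hf', by rw [htE, hqR]; exact h⟩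
  · rw [← C.rd_coe]
    exact hu

end Gen

section Mod

variable (A : ValuationSubring Kbar)
variable (N q M e : ℕ) (B k : ℤ) (hN : N = M * q ^ e) (hB : B * M + k * (q : ℤ) ^ e = 1)
  (hq : q.Prime) [NeZero N] [NeZero q]

/-- The reduction at the cusp `∞` of a function with integral expansion. -/
theorem sE_top_of_intSer (x : ↥(L0 A N)) (u : LaurentSeries ℤ)
    (hx : ((x : FN N) : LaurentSeries Kbar) = intSer Kbar u) :
    ∃ h : x ∈ VE A N q M e B k hN hB hq e,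
      _root_.Fermat.Agent.S45.NUE.H23.sE A N q M e B k hN hB hq e ⟨x, h⟩ = coeffMap (Int.castRingHom (kV A)) u := by
  have h : x ∈ VE A N q M e B k hN hB hq e := by
    rw [mem_VE_top_iff, hx]
    exact intSer_mem A u
  refine ⟨h, ?_⟩
  rw [Fermat.Agent.S45.NUE.H23.sE_mk]
  have e' : (⟨cE N q M e B k hN hB hq e (x : FN N), h⟩ : gaussRingV A)
      = ⟨intSer Kbar u, intSer_mem A u⟩ := Subtype.ext ((cE_top N q M e B k hN hB hq _).trans hx)
  rw [e', gaussRedV_intSer]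

variable {ι : Type*} {κ : ι → Type*} [∀ i, Field (κ i)] [∀ i, Algebra (kV A) (κ i)]

/-- **SS-ASM for the valuations `VE`**, generic in the coordinate: the hypothesis `hss` of
`H88.pointDataE_of_dichotomy` at ONE point `z`, from the leaves SS-FUN, SS-RAM, SS-POLE, SS-INT,
`crit`, `ValE` and COORD + POLE at level `M`. -/
theorem hssE_mod [Fintype ι] [DecidableEq ι] (C : Chart ↥(Rur A) ↥(L0 A N) (kV A) ι κ)
    (hB0 : C.B = intSub ↥(Rur A) (j0 A N))
    (a : ι → ℕ) (ha : Function.Injective a) (haE : ∀ i, a i ≤ e)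
    (hsur : ∀ n, n ≤ e → ∃ i, a i = n)
    (hV : ∀ i, C.V i = VE A N q M e B k hN hB hq (a i)) (he1 : 1 ≤ e)
    (mult : ι → ℕ) (hmult : ∀ i, mult i = Nat.totient (q ^ min (a i) (e - a i)))
    (hVal : H99.ValE C ((q : ℕ) : ↥(Rur A)) mult)
    (hqV : ∀ i, ((q : ℕ) : ↥(L0 A N)) ∈ (C.V i).nonunits)
    (crit : ∀ f : ↥(L0 A N), IsIntegral ↥(Algebra.adjoin ↥(Kur A) {j0 A N}) f →
      (∀ i, f ∈ C.V i) → f ∈ C.B)
    (i₀ : ι) (hi₀ : a i₀ = e) [CharP (κ i₀) q]
    (emb : κ i₀ →+* LaurentSeries (kV A))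
    (hemb : ∀ (f : ↥(L0 A N)) (hf : f ∈ C.V i₀) (hf' : f ∈ VE A N q M e B k hN hB hq e),
      emb (C.red i₀ ⟨f, hf⟩) = _root_.Fermat.Agent.S45.NUE.H23.sE A N q M e B k hN hB hq e ⟨f, hf'⟩)
    (u₀ : LaurentSeries ℤ) (x y : ↥(L0 A N))
    (hx : ((x : FN N) : LaurentSeries Kbar) = intSer Kbar u₀)
    (hxI : IsIntegral ↥(Algebra.adjoin ↥(Kur A) {j0 A N}) x)
    (hyI : IsIntegral ↥(Algebra.adjoin ↥(Kur A) {j0 A N}) y)
    (hfun : ∀ n, n ≤ e → x ∈ VE A N q M e B k hN hB hq n ∧ y ∈ VE A N q M e B k hN hB hq n)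
    (hram : ∀ n, n < e → ∃ f' ∈ VE A N q M e B k hN hB hq n,
      (_root_.Fermat.Agent.S45.NUE.H68.tE q e n x y) ^ Nat.totient (q ^ min n (e - n)) = ((q : ℕ) : ↥(L0 A N)) * f')
    (hpoleV : (((q : ℕ) : ↥(L0 A N)))⁻¹ * (x ^ q ^ e - y) ∈ VE A N q M e B k hN hB hq e)
    (hpole : _root_.Fermat.Agent.S45.NUE.H23.sE A N q M e B k hN hB hq e ⟨_, hpoleV⟩
      = coeffMap (Int.castRingHom (kV A)) (kdel q u₀) ^ q ^ (e - 1))
    (z : Place (kV A) (κ i₀)) (c : kV A) (u δ : κ i₀)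
    (hu : emb u = coeffMap (Int.castRingHom (kV A)) u₀)
    (hδ : emb δ = coeffMap (Int.castRingHom (kV A)) (kdel q u₀))
    (hord : z.ord (u - algebraMap (kV A) (κ i₀) c) = 1) (hc : c ^ q ^ 2 = c)
    (hδord : z.ord δ = -1)
    (𝔪 : Ideal C.B) [h𝔪p : 𝔪.IsPrime] (h𝔪 : ∀ β : C.B, β ∈ 𝔪 ↔ VanAt z (C.rdB i₀ β)) :
    (∀ i, C.Icomp i ≤ 𝔪) ∧ Nonempty (LocEq C ((q : ℕ) : ↥(Rur A)) 𝔪) := by
  haveI : Fact q.Prime := ⟨hq⟩
  have hq0 : ((q : ℕ) : ↥(L0 A N)) ≠ 0 := Nat.cast_ne_zero.2 hq.ne_zero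
  have hVi₀ : C.V i₀ = VE A N q M e B k hN hB hq e := by rw [hV i₀, hi₀]
  have hxV : ∀ i, x ∈ C.V i := fun i => by rw [hV i]; exact (hfun (a i) (haE i)).1
  have hyV : ∀ i, y ∈ C.V i := fun i => by rw [hV i]; exact (hfun (a i) (haE i)).2
  set d : ↥(L0 A N) := (((q : ℕ) : ↥(L0 A N)))⁻¹ * (x ^ q ^ e - y) with hd
  have hdV : d ∈ C.V i₀ := by rw [hVi₀]; exact hpoleV
  have hd' : x ^ q ^ e - y = ((q : ℕ) : ↥(L0 A N)) * d := by
    rw [hd, ← mul_assoc, mul_inv_cancel₀ hq0, one_mul]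
  -- the reductions on the component `i₀`
  have hrx : C.rd i₀ x = u := by
    apply emb.injective
    obtain ⟨h', hs⟩ := sE_top_of_intSer A N q M e B k hN hB hq x u₀ hx
    rw [C.rd_of_mem i₀ (hxV i₀), hemb x (hxV i₀) h', hs, hu]
  have hrd : C.rd i₀ d = δ ^ q ^ (e - 1) := by
    apply emb.injective
    rw [C.rd_of_mem i₀ hdV, hemb d hdV hpoleV, hpole, map_pow, hδ]
  have hδ0 : δ ≠ 0 := by
    rintro rfl
    rw [Place.ord_zero] at hδord
    exact absurd hδord (by norm_num)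
  refine hssE_gen A N C hB0 q hqV crit e he1 a ha haE hsur mult hmult hVal i₀ hi₀ x y hxI hyI
    hxV hyV d hdV hd' ?_ z c (by rw [hrx]; exact hord) hc ?_ 𝔪 h𝔪
  · intro i hi
    have hlt : a i < e := by
      refine lt_of_le_of_ne (haE i) fun h => hi (ha (h.trans hi₀.symm))
    obtain ⟨f', hf', h⟩ := hram (a i) hlt
    exact ⟨f', by rw [hV i]; exact hf', by rw [hmult i]; exact h⟩
  · rw [hrd, Fermat.Agent.RED.H17.ord_pow, hδord]
    push_cast
    ring

end Mod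

end Fermat.Agent.S45.NUE.H16

end
end
-- ==== END Fermat.Agent.S45.NUE.H16_HssE

-- ==== BEGIN Fermat.Agent.S45.NUE.H17_RedGen
section
attribute [local instance 10000] SubalgebraClass.toAlgebra
attribute [local instance 10000] HahnSeries.powerSeriesAlgebra

/-!
# S45 / NU_e, leaf E-VAL-4 (helper17): reductions of the generators and of the lifts from the
good level, at the cusp `1/(q^a M)` of `X₀(M q^e)`

`N = M q^e`, `B M + k q^e = 1`, `VE a`, `sE a`, `cE a` the valuation, residue map and normalised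
expansion at the cusp `1/(q^a M)` (helper23 `H23_ValE`, helper73).

* `jdF_mem_VE_le/gt`, `sE_jdF_le/gt` : the reductions of the generators
  `sE a (j (q^(d q^i))) = j~ (s^(d q^(ν_a i)))`;
* `cE_inclusion` : `cE a x = x (s^(q^(e - 2 a)))` for `x` of level `M`;
* `betaE : F_M →ₐ F_N`, `x ↦ x (q^e τ)`, `betaL0` on the inertia-fixed functions,
  `cE_betaE_lt`, `cE_betaE_top` : `cE a (β x) = (twist z_a) (x (s^(q^(2 a - e))))`;
* `inclL0_mem_VE`, `sE_inclL0`     : `sE a (incl x) = (sE₀ x)(s^(q^(e - 2 a)))`;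
* `betaL0_mem_VE`, `sE_betaL0`     : `sE a (β x) = (sE₀ x)(s^(q^(2 a - e)))`;
* `exists_sE_eq` : every element of `fullC k M` is a value of `sE a` (`a ≤ e`, `q ∤ M`).
-/

set_option autoImplicit false
set_option synthInstance.maxHeartbeats 400000
set_option maxHeartbeats 1000000
set_option linter.unusedSectionVars false
set_option linter.unusedVariables false
set_option linter.style.haveILetI false

noncomputable section

namespace Fermat.Agent.S45.NUE.H17

open Fermat.Agent.S24 Fermat.Agent.BAD.H88 ModularCurve AlgebraicCurve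
open Fermat.Agent.S28 Fermat.Agent.S28.H73 Fermat.Agent.RED.H73 Fermat.Agent.RED.H17
open Fermat.Agent.S36.NU.H88
open Fermat.Agent.S45.NUE.H23
open Fermat.Agent.S45.NUE.H73 (zE zE_pow rootUnit coe_rootUnit resV_rootUnit jdF_congr posE
  dvdE_cases)
open scoped MatrixGroups

local notation "L0" => Fermat.Agent.S36.NU.H23.L0
local notation "VE0" => Fermat.Agent.S36.NU.H23.VE0
local notation "sE0" => Fermat.Agent.S36.NU.H23.sE
local notation "inclL0" => Fermat.Agent.S36.NU.H23.inclL0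

/-! ## Generalities -/

section Gen

variable (A : ValuationSubring Kbar)

theorem qExpand_jBar_mem (m : ℕ) [NeZero m] : qExpand Kbar m jBar ∈ gaussRingV A := by
  rw [Fermat.Agent.S36.NU.H86.jBar_eq_jqModC]
  exact qExpand_jqModC_mem_gaussRingV A m

theorem gaussRedV_qExpand_jBar (m : ℕ) [NeZero m] (h : qExpand Kbar m jBar ∈ gaussRingV A) :
    gaussRedV A ⟨qExpand Kbar m jBar, h⟩ = qExpand (kV A) m (jqModC (kV A)) := by
  have h' : qExpand Kbar m (jqModC Kbar) ∈ gaussRingV A := qExpand_jqModC_mem_gaussRingV A m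
  have e : (⟨qExpand Kbar m jBar, h⟩ : gaussRingV A) = ⟨qExpand Kbar m (jqModC Kbar), h'⟩ :=
    Subtype.ext (by
      show qExpand Kbar m jBar = qExpand Kbar m (jqModC Kbar)
      rw [Fermat.Agent.S36.NU.H86.jBar_eq_jqModC])
  rw [e, gaussRedV_qExpand_jqModC]

/-- The twist by a nonzero scalar as a `ℚ̄`-algebra homomorphism. -/
def twA (z : Kbar) (hz : z ≠ 0) : LaurentSeries Kbar →ₐ[Kbar] LaurentSeries Kbar :=
  { Fermat.Agent.RED.H95.twistHom z hz with
    commutes' := fun c => by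
      show twist z (algebraMap Kbar (LaurentSeries Kbar) c) = algebraMap Kbar (LaurentSeries Kbar) c
      rw [algebraMap_laurentSeries_eq_single, Fermat.Agent.RED.H95.twist_single, zpow_zero,
        one_mul] }

theorem twA_apply (z : Kbar) (hz : z ≠ 0) (x : LaurentSeries Kbar) :
    twA z hz x = twist z x := rfl

theorem zE_ne_zero (q e a : ℕ) [NeZero q] (B : ℤ) : zE q e a B ≠ 0 := by
  intro h
  have h1 := zE_pow q e a B
  rw [h, zero_pow (pow_ne_zero _ (NeZero.ne q))] at h1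
  exact zero_ne_one h1

/-- The twist by `z_a` preserves the Gauss ring. -/
theorem twist_zE_mem (q e a : ℕ) [NeZero q] (B : ℤ) {x : LaurentSeries Kbar}
    (hx : x ∈ gaussRingV A) : twist (zE q e a B) x ∈ gaussRingV A :=
  twist_mem_gaussRingV A
    (rootUnit A (zE q e a B) (q ^ max a (e - a)) (pow_ne_zero _ (NeZero.ne q)) (zE_pow q e a B)) hx

/-- Over `q` the twist by `z_a` does not change the reduction. -/
theorem gaussRedV_twist_zE (q e a : ℕ) [NeZero q] (B : ℤ) (hq : q.Prime)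
    (hA : (q : Kbar) ∈ A.nonunits) (x : gaussRingV A)
    (h' : twist (zE q e a B) (x : LaurentSeries Kbar) ∈ gaussRingV A) :
    gaussRedV A ⟨_, h'⟩ = gaussRedV A x :=
  gaussRedV_twist_of_res_eq_one A
    (rootUnit A (zE q e a B) (q ^ max a (e - a)) (pow_ne_zero _ hq.ne_zero) (zE_pow q e a B))
    (resV_rootUnit A hq hA (zE q e a B) (max a (e - a)) (zE_pow q e a B)) x h'

end Gen

section Level

variable (A : ValuationSubring Kbar)
variable (N q M e : ℕ) (B k : ℤ) (hN : N = M * q ^ e) (hB : B * M + k * (q : ℤ) ^ e = 1)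
  (hq : q.Prime) [NeZero N] [NeZero q] [NeZero M]

/-! ## Reductions of the generators -/

include hN hB hq in
theorem jdF_mem_VE_le (d d' i a : ℕ) (hM : M = d * d') (hia : i ≤ a) [NeZero (d * q ^ i)]
    [NeZero (d * q ^ (e - 2 * a + i))] (hD : d * q ^ i ∣ N) :
    (⟨jdF N (d * q ^ i) hD, Fermat.Agent.S36.NU.H23.jdF_mem_L0 A N _ hD⟩ : ↥(L0 A N))
      ∈ VE A N q M e B k hN hB hq a := by
  rw [mem_VE_iff]
  show _root_.Fermat.Agent.S45.NUE.H23.cE N q M e B k hN hB hq a (jdF N (d * q ^ i) hD) ∈ gaussRingV A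
  rw [_root_.Fermat.Agent.S45.NUE.H23.cE_jdF_le N q M e B k hN hB hq d d' i a hM hia hD]
  exact qExpand_jBar_mem A _

include hN hB hq in
theorem jdF_mem_VE_gt (d d' i a : ℕ) (hM : M = d * d') (hai : a < i) (hie : i ≤ e)
    [NeZero (d * q ^ i)] [NeZero (d * q ^ (max e (2 * a) - i))] (hD : d * q ^ i ∣ N) :
    (⟨jdF N (d * q ^ i) hD, Fermat.Agent.S36.NU.H23.jdF_mem_L0 A N _ hD⟩ : ↥(L0 A N))
      ∈ VE A N q M e B k hN hB hq a := by
  rw [mem_VE_iff]
  show _root_.Fermat.Agent.S45.NUE.H23.cE N q M e B k hN hB hq a (jdF N (d * q ^ i) hD) ∈ gaussRingV A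
  rw [_root_.Fermat.Agent.S45.NUE.H23.cE_jdF_gt N q M e B k hN hB hq d d' i a hM hai hie hD]
  exact twist_zE_mem A q e a B (qExpand_jBar_mem A _)

include hN hB hq in
/-- `i ≤ a`: `sE a (j (q^(d q^i))) = j~ (s^(d q^(e - 2 a + i)))`. -/
theorem sE_jdF_le (d d' i a : ℕ) (hM : M = d * d') (hia : i ≤ a) [NeZero (d * q ^ i)]
    [NeZero (d * q ^ (e - 2 * a + i))] (hD : d * q ^ i ∣ N)
    (hmem : (⟨jdF N (d * q ^ i) hD, Fermat.Agent.S36.NU.H23.jdF_mem_L0 A N _ hD⟩ : ↥(L0 A N))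
      ∈ VE A N q M e B k hN hB hq a) :
    sE A N q M e B k hN hB hq a ⟨_, hmem⟩
      = qExpand (kV A) (d * q ^ (e - 2 * a + i)) (jqModC (kV A)) := by
  rw [sE_mk]
  have e1 : _root_.Fermat.Agent.S45.NUE.H23.cE N q M e B k hN hB hq a (jdF N (d * q ^ i) hD)
      = qExpand Kbar (d * q ^ (e - 2 * a + i)) jBar :=
    _root_.Fermat.Agent.S45.NUE.H23.cE_jdF_le N q M e B k hN hB hq d d' i a hM hia hD
  have e2 : (⟨_root_.Fermat.Agent.S45.NUE.H23.cE N q M e B k hN hB hq a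
      (((⟨jdF N (d * q ^ i) hD, Fermat.Agent.S36.NU.H23.jdF_mem_L0 A N _ hD⟩ : ↥(L0 A N)) :
        FN N)), hmem⟩ : gaussRingV A)
      = ⟨qExpand Kbar (d * q ^ (e - 2 * a + i)) jBar, qExpand_jBar_mem A _⟩ := Subtype.ext e1
  rw [e2, gaussRedV_qExpand_jBar]

include hN hB hq in
/-- `a < i ≤ e`: `sE a (j (q^(d q^i))) = j~ (s^(d q^(max(e, 2 a) - i)))`. -/
theorem sE_jdF_gt (hA : (q : Kbar) ∈ A.nonunits) (d d' i a : ℕ) (hM : M = d * d') (hai : a < i)
    (hie : i ≤ e) [NeZero (d * q ^ i)] [NeZero (d * q ^ (max e (2 * a) - i))]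
    (hD : d * q ^ i ∣ N)
    (hmem : (⟨jdF N (d * q ^ i) hD, Fermat.Agent.S36.NU.H23.jdF_mem_L0 A N _ hD⟩ : ↥(L0 A N))
      ∈ VE A N q M e B k hN hB hq a) :
    sE A N q M e B k hN hB hq a ⟨_, hmem⟩
      = qExpand (kV A) (d * q ^ (max e (2 * a) - i)) (jqModC (kV A)) := by
  rw [sE_mk]
  have e1 : _root_.Fermat.Agent.S45.NUE.H23.cE N q M e B k hN hB hq a (jdF N (d * q ^ i) hD)
      = twist (zE q e a B) (qExpand Kbar (d * q ^ (max e (2 * a) - i)) jBar) :=
    _root_.Fermat.Agent.S45.NUE.H23.cE_jdF_gt N q M e B k hN hB hq d d' i a hM hai hie hD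
  have h0 : qExpand Kbar (d * q ^ (max e (2 * a) - i)) jBar ∈ gaussRingV A :=
    qExpand_jBar_mem A _
  have e2 : (⟨_root_.Fermat.Agent.S45.NUE.H23.cE N q M e B k hN hB hq a
      (((⟨jdF N (d * q ^ i) hD, Fermat.Agent.S36.NU.H23.jdF_mem_L0 A N _ hD⟩ : ↥(L0 A N)) :
        FN N)), hmem⟩ : gaussRingV A)
      = ⟨twist (zE q e a B) (qExpand Kbar (d * q ^ (max e (2 * a) - i)) jBar),
          twist_zE_mem A q e a B h0⟩ := Subtype.ext e1
  rw [e2, gaussRedV_twist_zE A q e a B hq hA ⟨_, h0⟩, gaussRedV_qExpand_jBar]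

/-! ## The inclusion of the good level -/

include hN hB hq in
/-- `cE a x = x (s^(q^(e - 2 a)))` for `x` of level `M`. -/
theorem cE_inclusion (hle : modularFunctionFieldBar M ≤ modularFunctionFieldBar N) (a : ℕ)
    (x : FN M) :
    _root_.Fermat.Agent.S45.NUE.H23.cE N q M e B k hN hB hq a (IntermediateField.inclusion hle x)
      = qExpand Kbar (q ^ (e - 2 * a)) (x : LaurentSeries Kbar) := by
  have hq0 : 0 < q := hq.pos
  haveI : NeZero (q ^ (e - 2 * a)) := ⟨(pow_pos hq0 _).ne'⟩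
  have key : (_root_.Fermat.Agent.S45.NUE.H23.cE N q M e B k hN hB hq a).comp (IntermediateField.inclusion hle)
      = (qExpandAlgHomC Kbar (q ^ (e - 2 * a))).comp (modularFunctionFieldBar M).val := by
    apply algHom_ext_of_adjoin _ (adjoin_jdF M)
    rintro y ⟨D, hD0, hD, rfl⟩
    obtain ⟨d', hM⟩ := hD
    have hD' : D ∣ M := ⟨d', hM⟩
    have hDN : D ∣ N := hD'.trans ⟨q ^ e, hN⟩
    have hD0' : 0 < D := Nat.pos_of_ne_zero (NeZero.ne D)
    haveI : NeZero (D * q ^ 0) := ⟨by rw [pow_zero, mul_one]; exact NeZero.ne D⟩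
    haveI : NeZero (D * q ^ (e - 2 * a + 0)) := ⟨(Nat.mul_pos hD0' (pow_pos hq0 _)).ne'⟩
    have hDN0 : D * q ^ 0 ∣ N := by rw [pow_zero, mul_one]; exact hDN
    have e1 : IntermediateField.inclusion hle (jdF M D hD') = jdF N (D * q ^ 0) hDN0 := by
      apply Subtype.ext
      rw [IntermediateField.coe_inclusion, coe_jdF, coe_jdF]
      exact qExpand_congr (by rw [pow_zero, mul_one]) _
    show _root_.Fermat.Agent.S45.NUE.H23.cE N q M e B k hN hB hq a (IntermediateField.inclusion hle (jdF M D hD'))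
      = qExpand Kbar (q ^ (e - 2 * a)) ((jdF M D hD' : FN M) : LaurentSeries Kbar)
    rw [e1, _root_.Fermat.Agent.S45.NUE.H23.cE_jdF_le N q M e B k hN hB hq D d' 0 a hM (Nat.zero_le a) hDN0, coe_jdF,
      qExpand_qExpand]
    exact qExpand_congr (by rw [add_zero, mul_comm]) _
  exact DFunLike.congr_fun key x

/-! ## The map `x ↦ x (q^e τ)` -/

/-- `β^e : F_M → F_N`, `x ↦ x (q^e τ)`. -/
def betaE : FN M →ₐ[Kbar] FN N where
  toFun x := ⟨qExpand Kbar (q ^ e) (x : LaurentSeries Kbar), by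
    haveI : NeZero (q ^ e) := ⟨pow_ne_zero _ (NeZero.ne q)⟩
    subst hN
    exact (heckeBetaBar Kbar M (q ^ e) x).2⟩
  map_one' := Subtype.ext (map_one (qExpand Kbar (q ^ e)))
  map_mul' _ _ := Subtype.ext (map_mul (qExpand Kbar (q ^ e)) _ _)
  map_zero' := Subtype.ext (map_zero (qExpand Kbar (q ^ e)))
  map_add' _ _ := Subtype.ext (map_add (qExpand Kbar (q ^ e)) _ _)
  commutes' c := Subtype.ext (by
    haveI : NeZero (q ^ e) := ⟨pow_ne_zero _ (NeZero.ne q)⟩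
    show qExpand Kbar (q ^ e) (algebraMap Kbar (LaurentSeries Kbar) c)
      = algebraMap Kbar (LaurentSeries Kbar) c
    rw [algebraMap_laurentSeries_eq_single, qExpand_single, mul_zero])

theorem coe_betaE (x : FN M) :
    ((betaE N q M e hN x : FN N) : LaurentSeries Kbar)
      = qExpand Kbar (q ^ e) (x : LaurentSeries Kbar) := rfl

theorem betaE_jdF (d : ℕ) [NeZero d] (hd : d ∣ M) [NeZero (d * q ^ e)] (hD : d * q ^ e ∣ N) :
    betaE N q M e hN (jdF M d hd) = jdF N (d * q ^ e) hD := by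
  haveI : NeZero (q ^ e) := ⟨pow_ne_zero _ (NeZero.ne q)⟩
  apply Subtype.ext
  rw [coe_betaE, coe_jdF, coe_jdF, qExpand_qExpand]
  exact qExpand_congr (mul_comm _ _) _

theorem betaE_mem_L0 (x : FN M) (hx : x ∈ L0 A M) : betaE N q M e hN x ∈ L0 A N := by
  haveI : NeZero (q ^ e) := ⟨pow_ne_zero _ (NeZero.ne q)⟩
  rw [Fermat.Agent.S36.NU.H23.mem_L0_iff_coeffMap] at hx ⊢
  intro σ hσ
  rw [coe_betaE, Fermat.Agent.S36.NU.H82.coeffMap_qExp82, hx σ hσ]

/-- `β^e` on the inertia-fixed functions. -/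
def betaL0 : ↥(L0 A M) →+* ↥(L0 A N) :=
  ((betaE N q M e hN).toRingHom.comp (L0 A M).subtype).codRestrict (L0 A N)
    (fun x => betaE_mem_L0 A N q M e hN x.1 x.2)

theorem coe_betaL0 (x : ↥(L0 A M)) :
    ((betaL0 A N q M e hN x : ↥(L0 A N)) : FN N) = betaE N q M e hN (x : FN M) := rfl

include hB hq in
/-- `a = e` (the cusp `∞`): `cE e (β x) = x (s^(q^e))`. -/
theorem cE_betaE_top (x : FN M) :
    _root_.Fermat.Agent.S45.NUE.H23.cE N q M e B k hN hB hq e (betaE N q M e hN x)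
      = qExpand Kbar (q ^ e) (x : LaurentSeries Kbar) := by
  rw [_root_.Fermat.Agent.S45.NUE.H23.cE_top, coe_betaE]

include hB hq in
/-- `a < e`: `cE a (β x) = (twist z_a) (x (s^(q^(max(e, 2 a) - e))))`. -/
theorem cE_betaE_lt (a : ℕ) (hae : a < e) (x : FN M) :
    _root_.Fermat.Agent.S45.NUE.H23.cE N q M e B k hN hB hq a (betaE N q M e hN x)
      = twist (zE q e a B) (qExpand Kbar (q ^ (max e (2 * a) - e)) (x : LaurentSeries Kbar)) := by
  have hq0 : 0 < q := hq.pos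
  haveI : NeZero (q ^ (max e (2 * a) - e)) := ⟨(pow_pos hq0 _).ne'⟩
  have key : (_root_.Fermat.Agent.S45.NUE.H23.cE N q M e B k hN hB hq a).comp (betaE N q M e hN)
      = ((twA (zE q e a B) (zE_ne_zero q e a B)).comp
          (qExpandAlgHomC Kbar (q ^ (max e (2 * a) - e)))).comp
          (modularFunctionFieldBar M).val := by
    apply algHom_ext_of_adjoin _ (adjoin_jdF M)
    rintro y ⟨D, hD0, hD, rfl⟩
    obtain ⟨d', hM⟩ := hD
    have hD' : D ∣ M := ⟨d', hM⟩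
    have hD0' : 0 < D := Nat.pos_of_ne_zero (NeZero.ne D)
    haveI : NeZero (D * q ^ e) := ⟨(Nat.mul_pos hD0' (pow_pos hq0 _)).ne'⟩
    haveI : NeZero (D * q ^ (max e (2 * a) - e)) := ⟨(Nat.mul_pos hD0' (pow_pos hq0 _)).ne'⟩
    have hDN : D * q ^ e ∣ N := by rw [hN]; exact Nat.mul_dvd_mul_right hD' _
    show _root_.Fermat.Agent.S45.NUE.H23.cE N q M e B k hN hB hq a (betaE N q M e hN (jdF M D hD'))
      = twist (zE q e a B)
          (qExpand Kbar (q ^ (max e (2 * a) - e)) ((jdF M D hD' : FN M) : LaurentSeries Kbar))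
    rw [betaE_jdF N q M e hN D hD' hDN,
      _root_.Fermat.Agent.S45.NUE.H23.cE_jdF_gt N q M e B k hN hB hq D d' e a hM hae le_rfl hDN, coe_jdF, qExpand_qExpand]
    congr 1
    exact qExpand_congr (mul_comm _ _) _
  exact DFunLike.congr_fun key x

/-! ## Reductions of the lifts -/

include hN hB hq in
theorem inclL0_mem_VE (hle : modularFunctionFieldBar M ≤ modularFunctionFieldBar N) (a : ℕ)
    (x : ↥(L0 A M)) (hx : x ∈ VE0 A M) :
    inclL0 A hle x ∈ VE A N q M e B k hN hB hq a := by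
  haveI : NeZero (q ^ (e - 2 * a)) := ⟨pow_ne_zero _ (NeZero.ne q)⟩
  rw [mem_VE_iff, Fermat.Agent.S36.NU.H23.coe_inclL0, cE_inclusion N q M e B k hN hB hq hle a]
  exact Fermat.Agent.BAD.H73.qExpand_mem_gaussRingV A _ hx

include hN hB hq in
/-- **`sE a (incl x) = (sE₀ x)(s^(q^(e - 2 a)))`.** -/
theorem sE_inclL0 (hle : modularFunctionFieldBar M ≤ modularFunctionFieldBar N) (a : ℕ)
    (x : ↥(VE0 A M)) (h : inclL0 A hle (x : ↥(L0 A M)) ∈ VE A N q M e B k hN hB hq a) :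
    haveI : NeZero (q ^ (e - 2 * a)) := ⟨pow_ne_zero _ (NeZero.ne q)⟩
    sE A N q M e B k hN hB hq a ⟨_, h⟩ = qExpand (kV A) (q ^ (e - 2 * a)) (sE0 A M x) := by
  haveI : NeZero (q ^ (e - 2 * a)) := ⟨pow_ne_zero _ (NeZero.ne q)⟩
  rw [sE_mk]
  have hx : (((x : ↥(L0 A M)) : FN M) : LaurentSeries Kbar) ∈ gaussRingV A := x.2
  have h1 : qExpand Kbar (q ^ (e - 2 * a)) (((x : ↥(L0 A M)) : FN M) : LaurentSeries Kbar)
      ∈ gaussRingV A := Fermat.Agent.BAD.H73.qExpand_mem_gaussRingV A _ hx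
  have e2 : (⟨_root_.Fermat.Agent.S45.NUE.H23.cE N q M e B k hN hB hq a
      ((inclL0 A hle (x : ↥(L0 A M)) : ↥(L0 A N)) : FN N), h⟩ : gaussRingV A)
      = ⟨qExpand Kbar (q ^ (e - 2 * a)) (((x : ↥(L0 A M)) : FN M) : LaurentSeries Kbar), h1⟩ :=
    Subtype.ext (by
      show _root_.Fermat.Agent.S45.NUE.H23.cE N q M e B k hN hB hq a ((inclL0 A hle (x : ↥(L0 A M)) : ↥(L0 A N)) : FN N)
        = qExpand Kbar (q ^ (e - 2 * a)) (((x : ↥(L0 A M)) : FN M) : LaurentSeries Kbar)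
      rw [Fermat.Agent.S36.NU.H23.coe_inclL0, cE_inclusion N q M e B k hN hB hq hle a])
  rw [e2, Fermat.Agent.BAD.H73.gaussRedV_qExpand A _ hx h1]
  rfl

include hB hq in
theorem betaL0_mem_VE (a : ℕ) (hae : a ≤ e) (x : ↥(L0 A M)) (hx : x ∈ VE0 A M) :
    betaL0 A N q M e hN x ∈ VE A N q M e B k hN hB hq a := by
  haveI : NeZero (q ^ e) := ⟨pow_ne_zero _ (NeZero.ne q)⟩
  haveI : NeZero (q ^ (max e (2 * a) - e)) := ⟨pow_ne_zero _ (NeZero.ne q)⟩
  rw [mem_VE_iff, coe_betaL0]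
  rcases Nat.lt_or_ge a e with h | h
  · rw [cE_betaE_lt N q M e B k hN hB hq a h]
    exact twist_zE_mem A q e a B (Fermat.Agent.BAD.H73.qExpand_mem_gaussRingV A _ hx)
  · obtain rfl : a = e := le_antisymm hae h
    rw [cE_betaE_top N q M a B k hN hB hq]
    exact Fermat.Agent.BAD.H73.qExpand_mem_gaussRingV A _ hx

include hB hq in
/-- **`sE a (β x) = (sE₀ x)(s^(q^(max(e, 2 a) - e)))`.** -/
theorem sE_betaL0 (hA : (q : Kbar) ∈ A.nonunits) (a : ℕ) (hae : a ≤ e) (x : ↥(VE0 A M))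
    (h : betaL0 A N q M e hN (x : ↥(L0 A M)) ∈ VE A N q M e B k hN hB hq a) :
    haveI : NeZero (q ^ (max e (2 * a) - e)) := ⟨pow_ne_zero _ (NeZero.ne q)⟩
    sE A N q M e B k hN hB hq a ⟨_, h⟩
      = qExpand (kV A) (q ^ (max e (2 * a) - e)) (sE0 A M x) := by
  haveI : NeZero (q ^ e) := ⟨pow_ne_zero _ (NeZero.ne q)⟩
  haveI : NeZero (q ^ (max e (2 * a) - e)) := ⟨pow_ne_zero _ (NeZero.ne q)⟩
  rw [sE_mk]
  have hx : (((x : ↥(L0 A M)) : FN M) : LaurentSeries Kbar) ∈ gaussRingV A := x.2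
  have h1 : qExpand Kbar (q ^ (max e (2 * a) - e))
      (((x : ↥(L0 A M)) : FN M) : LaurentSeries Kbar) ∈ gaussRingV A :=
    Fermat.Agent.BAD.H73.qExpand_mem_gaussRingV A _ hx
  rcases Nat.lt_or_ge a e with hlt | hge
  · have e2 : (⟨_root_.Fermat.Agent.S45.NUE.H23.cE N q M e B k hN hB hq a
        ((betaL0 A N q M e hN (x : ↥(L0 A M)) : ↥(L0 A N)) : FN N), h⟩ : gaussRingV A)
        = ⟨twist (zE q e a B) (qExpand Kbar (q ^ (max e (2 * a) - e))
            (((x : ↥(L0 A M)) : FN M) : LaurentSeries Kbar)), twist_zE_mem A q e a B h1⟩ :=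
      Subtype.ext (by
        show _root_.Fermat.Agent.S45.NUE.H23.cE N q M e B k hN hB hq a
            ((betaL0 A N q M e hN (x : ↥(L0 A M)) : ↥(L0 A N)) : FN N)
          = twist (zE q e a B) (qExpand Kbar (q ^ (max e (2 * a) - e))
            (((x : ↥(L0 A M)) : FN M) : LaurentSeries Kbar))
        rw [coe_betaL0, cE_betaE_lt N q M e B k hN hB hq a hlt])
    rw [e2, gaussRedV_twist_zE A q e a B hq hA ⟨_, h1⟩,
      Fermat.Agent.BAD.H73.gaussRedV_qExpand A _ hx h1]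
    rfl
  · obtain rfl : a = e := le_antisymm hae hge
    have hee : max a (2 * a) - a = a := by omega
    have h1' : qExpand Kbar (q ^ a) (((x : ↥(L0 A M)) : FN M) : LaurentSeries Kbar)
        ∈ gaussRingV A := Fermat.Agent.BAD.H73.qExpand_mem_gaussRingV A _ hx
    have e2 : (⟨_root_.Fermat.Agent.S45.NUE.H23.cE N q M a B k hN hB hq a
        ((betaL0 A N q M a hN (x : ↥(L0 A M)) : ↥(L0 A N)) : FN N), h⟩ : gaussRingV A)
        = ⟨qExpand Kbar (q ^ a) (((x : ↥(L0 A M)) : FN M) : LaurentSeries Kbar), h1'⟩ :=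
      Subtype.ext (by
        show _root_.Fermat.Agent.S45.NUE.H23.cE N q M a B k hN hB hq a
            ((betaL0 A N q M a hN (x : ↥(L0 A M)) : ↥(L0 A N)) : FN N)
          = qExpand Kbar (q ^ a) (((x : ↥(L0 A M)) : FN M) : LaurentSeries Kbar)
        rw [coe_betaL0, cE_betaE_top N q M a B k hN hB hq])
    rw [e2, Fermat.Agent.BAD.H73.gaussRedV_qExpand A _ hx h1']
    exact qExpand_congr (by rw [hee]) _

/-! ## Every element of `fullC k M` is a value of `sE a` -/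

include hN hB hq in
/-- **The residue field of `V_a` contains `fullC k M`** (`a ≤ e`, `q ∤ M`): every element of
the function field of the good level in characteristic `q` is the reduction of `incl x`
(if `e ≤ 2 a`) or of `β^e x` (if `2 a < e`), `x` of level `M`. -/
theorem exists_sE_eq (hqM : ¬ q ∣ M) (hA : A.LiesOverPrime q)
    (hle : modularFunctionFieldBar M ≤ modularFunctionFieldBar N) (a : ℕ) (hae : a ≤ e)
    (y : LaurentSeries (kV A)) (hy : y ∈ modularFunctionFieldFullC (kV A) M) :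
    ∃ x : ↥(VE A N q M e B k hN hB hq a), sE A N q M e B k hN hB hq a x = y := by
  haveI : NeZero (M * q * q) :=
    ⟨Nat.mul_ne_zero (Nat.mul_ne_zero (NeZero.ne M) (NeZero.ne q)) (NeZero.ne q)⟩
  have hy' : y ∈ redField A (modularFunctionFieldBar M) (hScM A M) := by
    rw [Fermat.Agent.S36.NU.H23.FM_eq A q M hq hqM hA]
    exact hy
  obtain ⟨x0, hx0⟩ := Fermat.Agent.S36.NU.H23.rE_surjective A q M hq hqM hA ⟨y, hy'⟩
  have hs : sE0 A M x0 = y := by
    rw [← Fermat.Agent.S36.NU.H23.coe_rE, hx0]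
  rcases Nat.lt_or_ge (2 * a) e with h | h
  · refine ⟨⟨_, betaL0_mem_VE A N q M e B k hN hB hq a hae x0 x0.2⟩, ?_⟩
    rw [sE_betaL0 A N q M e B k hN hB hq hA a hae x0, hs]
    have h0 : max e (2 * a) - e = 0 := by omega
    haveI : NeZero (q ^ (max e (2 * a) - e)) := ⟨pow_ne_zero _ (NeZero.ne q)⟩
    rw [qExpand_congr (show q ^ (max e (2 * a) - e) = 1 by rw [h0, pow_zero]),
      qExpand_one_apply]
  · refine ⟨⟨_, inclL0_mem_VE A N q M e B k hN hB hq hle a x0 x0.2⟩, ?_⟩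
    rw [sE_inclL0 A N q M e B k hN hB hq hle a x0, hs]
    have h0 : e - 2 * a = 0 := by omega
    haveI : NeZero (q ^ (e - 2 * a)) := ⟨pow_ne_zero _ (NeZero.ne q)⟩
    rw [qExpand_congr (show q ^ (e - 2 * a) = 1 by rw [h0, pow_zero]), qExpand_one_apply]

include hN in
/-- `F_M ⊆ F_N`. -/
theorem hleE : modularFunctionFieldBar M ≤ modularFunctionFieldBar N :=
  Fermat.Agent.S36.NU.H82.FM_le_of_dvd N M ⟨q ^ e, hN⟩

end Level

end Fermat.Agent.S45.NUE.H17

end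
end
-- ==== END Fermat.Agent.S45.NUE.H17_RedGen

-- ==== BEGIN Fermat.Agent.S45.NUE.H26_ConstE
section

/-!
# S45 / NU_e, package E-VV, leaf E-VV-SMALL (helper26)

Small inputs of the final assembly `valVecE_final` of helper51:

* `isConstA_VE` : the valuations `VE a` of level `N = M q^e` induce `A` on the constants;
* `VE_ne_top` : they are not trivial;
* `linkHyp` : `H51.LinkHyp A q M₁` (= `link_mod`);
* `valVecE_mono` : `ValVecE` is monotone in the predicate `U`.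
-/

set_option autoImplicit false
set_option linter.style.haveILetI false
set_option linter.unusedSectionVars false
set_option linter.unusedVariables false
set_option synthInstance.maxHeartbeats 400000
set_option maxHeartbeats 1000000

noncomputable section

namespace Fermat.Agent.S45.NUE.H26

open AlgebraicCurve ModularCurve Fermat.Agent.S24 Fermat.Agent.Lib.HeckeComm
  Fermat.Agent.S36.H44 Fermat.Agent.BAD Fermat.Agent.S36.NU.H23 Fermat.Agent.BAD.H88
  Fermat.Agent.S45.NUE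

section Level

variable (A : ValuationSubring Kbar)
variable (N q M e : ℕ) (B k : ℤ) (hN : N = M * q ^ e) (hB : B * M + k * (q : ℤ) ^ e = 1)
  (hq : q.Prime) [NeZero N] [NeZero q]

/-- The valuations `VE a` induce `A` on the constants. -/
theorem isConstA_VE (a : ℕ) :
    Fermat.Agent.S45.NUE.H51.IsConstA A
      (Fermat.Agent.S45.NUE.H23.VE A N q M e B k hN hB hq a) := by
  intro c hc
  haveI := Fermat.Agent.S45.NUE.H23.neZero_nE N q M e B k hN hB hq a
  exact Fermat.Agent.S45.NUE.H23.const_memG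
    (Fermat.Agent.S45.NUE.H23.hE N q M e B k hN hB hq a) A c

/-- A valuation ring of `L0 A N` which induces `A` on the constants is not trivial. -/
theorem ne_top_of_isConstA (hA : A.LiesOverPrime q) (W : ValuationSubring ↥(L0 A N))
    (hW : Fermat.Agent.S45.NUE.H51.IsConstA A W) : W ≠ ⊤ := by
  intro htop
  have hqI : ∀ σ ∈ A.inertiaSubgroupIn ℚ, σ ((q : Kbar)⁻¹) = (q : Kbar)⁻¹ := fun σ _ => by
    rw [map_inv₀, map_natCast]
  have h1 : Fermat.Agent.S45.NUE.H51.constL0 (N := N) A ((q : Kbar)⁻¹) hqI ∈ W := by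
    rw [htop]
    exact ValuationSubring.mem_top _
  have h2 : (q : Kbar)⁻¹ ∈ A := (hW _ hqI).1 h1
  have h3 : A.valuation (q : Kbar) < 1 := (A.mem_nonunits_iff).1 hA
  have h4 : A.valuation ((q : Kbar)⁻¹) ≤ 1 := (ValuationSubring.valuation_le_one_iff _ _).2 h2
  rw [map_inv₀] at h4
  have hq0 : (q : Kbar) ≠ 0 := Nat.cast_ne_zero.mpr (NeZero.ne q)
  have h5 := (inv_le_one₀ (zero_lt_iff.2 ((Valuation.ne_zero_iff _).2 hq0))).1 h4
  exact absurd h3 (not_lt.2 h5)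

/-- The valuations `VE a` are not trivial. -/
theorem VE_ne_top (hA : A.LiesOverPrime q) (a : ℕ) :
    Fermat.Agent.S45.NUE.H23.VE A N q M e B k hN hB hq a ≠ ⊤ :=
  ne_top_of_isConstA A N q hA _ (isConstA_VE A N q M e B k hN hB hq a)

end Level

/-- **The congruence of the exponents of the two constants** (`link_mod` in the form of
`H51.LinkHyp`). -/
theorem linkHyp (A : ValuationSubring Kbar) (q M₁ : ℕ) [NeZero M₁] [NeZero q]
    [NeZero (M₁ * q)] [NeZero (M₁ * q * q)] (hq : q.Prime) (hA : A.LiesOverPrime q) :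
    Fermat.Agent.S45.NUE.H51.LinkHyp A q M₁ := by
  intro n hn hgood f hf cα cβ gα gβ hcα hcβ hgα hgβ hNα hNβ mα mβ hmα hmβ
  exact link_mod A q M₁ hq hA n hn hgood f hf cα cβ gα gβ hcα hcβ hgα hgβ hNα hNβ mα mβ hmα hmβ

/-- `ValVecE` is monotone in the predicate. -/
theorem valVecE_mono (A : ValuationSubring Kbar) (q M : ℕ) [NeZero M] [NeZero q]
    [NeZero (M * q)] (U U' : ↥(L0 A (M * q)) → Prop) (h : ∀ x, U x → U' x) :
    ValVecE A q M U → ValVecE A q M U' := by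
  rintro ⟨K, hK, hV⟩
  refine ⟨K, hK, fun n hn hgood f hf hα hβ => ?_⟩
  obtain ⟨b, w, hw, hU⟩ := hV n hn hgood f hf hα hβ
  exact ⟨b, w, hw, h _ hU⟩

end Fermat.Agent.S45.NUE.H26

end
end
-- ==== END Fermat.Agent.S45.NUE.H26_ConstE

-- ==== BEGIN Fermat.Agent.S45.NUE.H31_AlphaBeta2
section

/-!
# S45 / NU_e, package E-VAL §7, part 2 (helper31): the table of `α`, `β` on the cusps `1/(q^a M)`

Lower level `N = M q^e` (`B M + k q^e = 1`), upper level `N q = M q^(e+1)`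
(`Bu M + ku q^(e+1) = 1`); `α = heckeAlphaBar Kbar N q`, `β = heckeBetaBar Kbar N q`.

`cuspU` form (for E-EPS, helper82):
* `cuspU_gE_alpha`  : `cuspU (N q) (gE a) (α x) = qExpand q (cuspU N (gE a) x)` (every `a`);
* `cuspU_gE_alpha_min` : the same with `gE (min a e)` on the right, `a ≤ e + 1`;
* `cuspU_gE_beta`   : `1 ≤ a`: `cuspU (N q) (gE a) (β x) = qExpand (q q) (cuspU N (gE (a-1)) x)`;
* `cuspU_gE_beta_zero` : `cuspU (N q) (gE 0) (β x) = twist z (cuspU N (gE 0) x)`, `z = wBeta ^ Bu`.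

Normalised form (`cE` of helper23, `H23_ValE`):
* `cE_alpha_le` (`2 a ≤ e`: `qExpand q`), `cE_alpha_gt` (`e < 2 a`: identity), `cE_alpha_top`
  (`a = e + 1 ↦ e`);
* `cE_beta_le` (`1 ≤ a`, `2 a ≤ e + 1`: identity), `cE_beta_gt` (`e + 2 ≤ 2 a`: `qExpand q`),
  `cE_beta_zero` (`a = 0`: twist by the `q`-power root of unity `wBeta`).
-/

set_option autoImplicit false
set_option synthInstance.maxHeartbeats 400000
set_option maxHeartbeats 1000000
set_option linter.unusedSectionVars false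
set_option linter.unusedVariables false
set_option linter.style.haveILetI false

noncomputable section

namespace Fermat.Agent.S45.NUE.H31

open Fermat.Agent.S24 Fermat.Agent.BAD.H88 ModularCurve UpperHalfPlane
open Fermat.Agent.S28 Fermat.Agent.S28.H73 Fermat.Agent.RED.H73 Fermat.Agent.RED.H17
open Fermat.Agent.S36.NU.H88 Fermat.Agent.RED.H95
open Fermat.Agent.S36.NU.H23
open Fermat.Agent.S45.NUE.H73 (gE gE_inv zE zE_pow nE algHom_eq_of_jdF dvdE_cases dvdE posE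
  coprimeE zetaK_mul_pow zetaK_congr)
open Fermat.Agent.S45.NUE.H23
open scoped MatrixGroups Manifold

/-- `diag(q, 1) γ_a⁻¹ = γ_(a-1)⁻¹ diag(q, 1)`. -/
theorem gE_beta_mat (q M a : ℕ) (ha : 1 ≤ a) :
    (!![(q : ℤ), 0; 0, 1] : Matrix (Fin 2) (Fin 2) ℤ) * ((gE q M a)⁻¹ : SL(2, ℤ)).1
      = ((gE q M (a - 1))⁻¹ : SL(2, ℤ)).1 * !![(q : ℤ), 0; 0, 1] := by
  rw [gE_inv, gE_inv]
  obtain ⟨b, rfl⟩ : ∃ b, a = b + 1 := ⟨a - 1, by omega⟩
  rw [Nat.add_sub_cancel]
  ext i j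
  fin_cases i <;> fin_cases j <;>
    simp [Matrix.mul_apply, Fin.sum_univ_two, pow_succ]
  ring

section CuspForm

variable (N q M : ℕ) [NeZero N] [NeZero q]

/-- **(Ta)** `α` at the cusp `1/(q^a M)`. -/
theorem cuspU_gE_alpha (a : ℕ) (x : FN N) :
    cuspU (N * q) (gE q M a) (heckeAlphaBar Kbar N q x)
      = qExpand Kbar q (cuspU N (gE q M a) x) :=
  cuspU_alpha N q (gE q M a) x

/-- **(Tb1)** `β` at the cusp `1/(q^a M)`, `1 ≤ a`. -/
theorem cuspU_gE_beta (a : ℕ) (ha : 1 ≤ a) (x : FN N) :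
    cuspU (N * q) (gE q M a) (heckeBetaBar Kbar N q x)
      = qExpand Kbar (q * q) (cuspU N (gE q M (a - 1)) x) :=
  cuspU_beta_q1 N q _ _ (gE_beta_mat q M a ha) x

end CuspForm

section Table

variable (N q M e : ℕ) (B k Bu ku : ℤ) (hN : N = M * q ^ e)
  (hB : B * M + k * (q : ℤ) ^ e = 1)
  (hNu : N * q = M * q ^ (e + 1)) (hBu : Bu * M + ku * (q : ℤ) ^ (e + 1) = 1)
  (hq : q.Prime) [NeZero N] [NeZero q]

/-- `cE` does not depend on the Bezout data. -/
theorem cE_congr (B' k' : ℤ) (hB' : B' * M + k' * (q : ℤ) ^ e = 1) (a : ℕ) :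
    _root_.Fermat.Agent.S45.NUE.H23.cE N q M e B k hN hB hq a = _root_.Fermat.Agent.S45.NUE.H23.cE N q M e B' k' hN hB' hq a := rfl

theorem qExpand_cE' (a : ℕ) (x : FN N) :
    haveI := neZero_nE N q M e B k hN hB hq a
    qExpand Kbar (M * q ^ min e (2 * a)) (_root_.Fermat.Agent.S45.NUE.H23.cE N q M e B k hN hB hq a x)
      = cuspU N (gE q M a) x :=
  haveI := neZero_nE N q M e B k hN hB hq a
  qExpand_cG (hE N q M e B k hN hB hq a) x

/-- `α`, `2 a ≤ e`: `cE_a (α x) = (cE'_a x)(s^q)`. -/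
theorem cE_alpha_le (a : ℕ) (ha : 2 * a ≤ e) (x : FN N) :
    _root_.Fermat.Agent.S45.NUE.H23.cE (N * q) q M (e + 1) Bu ku hNu hBu hq a (heckeAlphaBar Kbar N q x)
      = qExpand Kbar q (_root_.Fermat.Agent.S45.NUE.H23.cE N q M e B k hN hB hq a x) := by
  haveI := neZero_nE (N * q) q M (e + 1) Bu ku hNu hBu hq a
  haveI := neZero_nE N q M e B k hN hB hq a
  apply qExpand_injective (M * q ^ min (e + 1) (2 * a))
  rw [qExpand_cE' (N * q) q M (e + 1) Bu ku hNu hBu hq a, cuspU_gE_alpha,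
    ← qExpand_cE' N q M e B k hN hB hq a x, qExpand_qExpand, qExpand_qExpand]
  refine qExpand_congr ?_ _
  rw [show min e (2 * a) = 2 * a by omega, show min (e + 1) (2 * a) = 2 * a by omega]
  ring

/-- `α`, `e < 2 a`: `cE_a (α x) = cE'_a x`. -/
theorem cE_alpha_gt (a : ℕ) (ha : e < 2 * a) (x : FN N) :
    _root_.Fermat.Agent.S45.NUE.H23.cE (N * q) q M (e + 1) Bu ku hNu hBu hq a (heckeAlphaBar Kbar N q x)
      = _root_.Fermat.Agent.S45.NUE.H23.cE N q M e B k hN hB hq a x := by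
  haveI := neZero_nE (N * q) q M (e + 1) Bu ku hNu hBu hq a
  haveI := neZero_nE N q M e B k hN hB hq a
  apply qExpand_injective (M * q ^ min (e + 1) (2 * a))
  rw [qExpand_cE' (N * q) q M (e + 1) Bu ku hNu hBu hq a, cuspU_gE_alpha,
    ← qExpand_cE' N q M e B k hN hB hq a x, qExpand_qExpand]
  refine qExpand_congr ?_ _
  rw [show min e (2 * a) = e by omega, show min (e + 1) (2 * a) = e + 1 by omega, pow_succ]
  ring

/-- `α`, `a = e + 1`: the cusp `∞` of level `N q` lies over the cusp `∞` of level `N`. -/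
theorem cE_alpha_top (x : FN N) :
    _root_.Fermat.Agent.S45.NUE.H23.cE (N * q) q M (e + 1) Bu ku hNu hBu hq (e + 1) (heckeAlphaBar Kbar N q x)
      = _root_.Fermat.Agent.S45.NUE.H23.cE N q M e B k hN hB hq e x := by
  rw [_root_.Fermat.Agent.S45.NUE.H23.cE_top, _root_.Fermat.Agent.S45.NUE.H23.cE_top, coe_heckeAlphaBar]

/-- `β`, `1 ≤ a`, `2 a ≤ e + 1`: `cE_a (β x) = cE'_(a-1) x`. -/
theorem cE_beta_le (a : ℕ) (ha1 : 1 ≤ a) (ha : 2 * a ≤ e + 1) (x : FN N) :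
    _root_.Fermat.Agent.S45.NUE.H23.cE (N * q) q M (e + 1) Bu ku hNu hBu hq a (heckeBetaBar Kbar N q x)
      = _root_.Fermat.Agent.S45.NUE.H23.cE N q M e B k hN hB hq (a - 1) x := by
  haveI := neZero_nE (N * q) q M (e + 1) Bu ku hNu hBu hq a
  haveI := neZero_nE N q M e B k hN hB hq (a - 1)
  apply qExpand_injective (M * q ^ min (e + 1) (2 * a))
  rw [qExpand_cE' (N * q) q M (e + 1) Bu ku hNu hBu hq a, cuspU_gE_beta N q M a ha1,
    ← qExpand_cE' N q M e B k hN hB hq (a - 1) x, qExpand_qExpand]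
  refine qExpand_congr ?_ _
  obtain ⟨b, rfl⟩ : ∃ b, a = b + 1 := ⟨a - 1, by omega⟩
  rw [Nat.add_sub_cancel, show min e (2 * b) = 2 * b by omega,
    show min (e + 1) (2 * (b + 1)) = 2 * b + 2 by omega, pow_add]
  ring

/-- `β`, `e + 2 ≤ 2 a`: `cE_a (β x) = (cE'_(a-1) x)(s^q)`. -/
theorem cE_beta_gt (a : ℕ) (ha : e + 2 ≤ 2 * a) (x : FN N) :
    _root_.Fermat.Agent.S45.NUE.H23.cE (N * q) q M (e + 1) Bu ku hNu hBu hq a (heckeBetaBar Kbar N q x)
      = qExpand Kbar q (_root_.Fermat.Agent.S45.NUE.H23.cE N q M e B k hN hB hq (a - 1) x) := by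
  haveI := neZero_nE (N * q) q M (e + 1) Bu ku hNu hBu hq a
  haveI := neZero_nE N q M e B k hN hB hq (a - 1)
  apply qExpand_injective (M * q ^ min (e + 1) (2 * a))
  rw [qExpand_cE' (N * q) q M (e + 1) Bu ku hNu hBu hq a,
    cuspU_gE_beta N q M a (by omega),
    ← qExpand_cE' N q M e B k hN hB hq (a - 1) x, qExpand_qExpand, qExpand_qExpand]
  refine qExpand_congr ?_ _
  obtain ⟨b, rfl⟩ : ∃ b, a = b + 1 := ⟨a - 1, by omega⟩
  rw [Nat.add_sub_cancel, show min e (2 * b) = e by omega,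
    show min (e + 1) (2 * (b + 1)) = e + 1 by omega, pow_succ]
  ring

include hN hB hNu hBu hq in
/-- **(Ta)**, with the index of the lower level: `a ≤ e + 1`. -/
theorem cuspU_gE_alpha_min (a : ℕ) (ha : a ≤ e + 1) (x : FN N) :
    cuspU (N * q) (gE q M a) (heckeAlphaBar Kbar N q x)
      = qExpand Kbar q (cuspU N (gE q M (min a e)) x) := by
  rcases Nat.lt_or_ge e a with h | h
  · obtain rfl : a = e + 1 := by omega
    rw [show min (e + 1) e = e by omega]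
    haveI := neZero_nE (N * q) q M (e + 1) Bu ku hNu hBu hq (e + 1)
    haveI := neZero_nE N q M e B k hN hB hq e
    rw [← qExpand_cE' (N * q) q M (e + 1) Bu ku hNu hBu hq (e + 1),
      ← qExpand_cE' N q M e B k hN hB hq e x,
      cE_alpha_top N q M e B k Bu ku hN hB hNu hBu hq x, qExpand_qExpand]
    refine qExpand_congr ?_ _
    rw [show min e (2 * e) = e by omega, show min (e + 1) (2 * (e + 1)) = e + 1 by omega,
      pow_succ]
    ring
  · rw [show min a e = a by omega]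
    exact cuspU_gE_alpha N q M a x

end Table

/-! ### The cusp `0` (`a = 0`) along `β` -/

theorem jdF_congr (N : ℕ) [NeZero N] {D D' : ℕ} [NeZero D] [NeZero D'] (h : D = D')
    (hD : D ∣ N) (hD' : D' ∣ N) : jdF N D hD = jdF N D' hD' := by
  subst h; rfl

theorem twist_qExpand_eq (m n : ℕ) [NeZero m] [NeZero n] (hmn : m = n) (z w : Kbar)
    (hzw : z ^ n = w ^ n) (x : LaurentSeries Kbar) :
    twist z (qExpand Kbar m x) = twist w (qExpand Kbar n x) := by
  subst hmn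
  rw [twist_qExpand, twist_qExpand, zpow_natCast, zpow_natCast, hzw]

theorem zE_ne_zero (q e a : ℕ) [NeZero q] (B : ℤ) : zE q e a B ≠ 0 := by
  haveI : NeZero (q ^ max a (e - a)) := ⟨pow_ne_zero _ (NeZero.ne q)⟩
  exact zpow_ne_zero _ (zetaK_ne_zero _)

/-- The `q`-power root of unity of the twist of `β` at the cusp `0`:
`ζ_(q^(e+1))^Bu / ζ_(q^e)^B`. -/
def wBeta (q e : ℕ) [NeZero q] (B Bu : ℤ) : Kbar := zE q (e + 1) 0 Bu * (zE q e 0 B)⁻¹

theorem wBeta_ne_zero (q e : ℕ) [NeZero q] (B Bu : ℤ) : wBeta q e B Bu ≠ 0 :=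
  mul_ne_zero (zE_ne_zero q (e + 1) 0 Bu) (inv_ne_zero (zE_ne_zero q e 0 B))

theorem zE_zero_pow (q e : ℕ) [NeZero q] (B : ℤ) : zE q e 0 B ^ (q ^ e) = 1 := by
  have h := zE_pow q e 0 B
  rwa [show max 0 (e - 0) = e by omega] at h

theorem wBeta_pow (q e : ℕ) [NeZero q] (B Bu : ℤ) : wBeta q e B Bu ^ (q ^ (e + 1)) = 1 := by
  rw [wBeta, mul_pow, inv_pow, zE_zero_pow, pow_succ, pow_mul, zE_zero_pow, one_pow, inv_one,
    mul_one]

theorem wBeta_mul (q e : ℕ) [NeZero q] (B Bu : ℤ) :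
    wBeta q e B Bu * zE q e 0 B = zE q (e + 1) 0 Bu := by
  rw [wBeta, mul_assoc, inv_mul_cancel₀ (zE_ne_zero q e 0 B), mul_one]

section Zero

variable (N q M e : ℕ) (B k Bu ku : ℤ) (hN : N = M * q ^ e)
  (hB : B * M + k * (q : ℤ) ^ e = 1)
  (hNu : N * q = M * q ^ (e + 1)) (hBu : Bu * M + ku * (q : ℤ) ^ (e + 1) = 1)
  (hq : q.Prime) [NeZero N] [NeZero q]

/-- `β`, `a = 0`: `cE_0 (β x) = twist w (cE'_0 x)`, `w = wBeta` a `q^(e+1)`-th root of unity. -/
theorem cE_beta_zero (x : FN N) :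
    _root_.Fermat.Agent.S45.NUE.H23.cE (N * q) q M (e + 1) Bu ku hNu hBu hq 0 (heckeBetaBar Kbar N q x)
      = twist (wBeta q e B Bu) (_root_.Fermat.Agent.S45.NUE.H23.cE N q M e B k hN hB hq 0 x) := by
  refine algHom_eq_of_jdF N q M e B k hN hB hq
    ((_root_.Fermat.Agent.S45.NUE.H23.cE (N * q) q M (e + 1) Bu ku hNu hBu hq 0).comp (heckeBetaBar Kbar N q))
    ((twistAlg (wBeta q e B Bu) (wBeta_ne_zero q e B Bu)).comp (_root_.Fermat.Agent.S45.NUE.H23.cE N q M e B k hN hB hq 0)) ?_ x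
  intro D hD0 hD
  obtain ⟨d, d', i, hM, hie, h⟩ := dvdE_cases N q M e B k hN hB hq D hD
  subst h
  have hq0 : 0 < q := hq.pos
  have hM0 := posE N q M e B k hN hB hq
  have hd0 : 0 < d := by
    rcases Nat.eq_zero_or_pos d with h | h
    · rw [h, zero_mul] at hM; omega
    · exact h
  haveI : NeZero (d * q ^ (i + 1)) := ⟨(Nat.mul_pos hd0 (pow_pos hq0 _)).ne'⟩
  have hDu : d * q ^ (i + 1) ∣ N * q := by
    rw [pow_succ, ← mul_assoc]; exact Nat.mul_dvd_mul_right hD q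
  have hβ : heckeBetaBar Kbar N q (jdF N (d * q ^ i) hD)
      = jdF (N * q) (d * q ^ (i + 1)) hDu := by
    rw [Fermat.Agent.BAD.H88.beta_jdF q N (d * q ^ i) hD]
    exact _root_.Fermat.Agent.S45.NUE.H31.jdF_congr (N * q) (by rw [pow_succ]; ring) _ _
  show _root_.Fermat.Agent.S45.NUE.H23.cE (N * q) q M (e + 1) Bu ku hNu hBu hq 0 (heckeBetaBar Kbar N q (jdF N (d * q ^ i) hD))
      = twist (wBeta q e B Bu) (_root_.Fermat.Agent.S45.NUE.H23.cE N q M e B k hN hB hq 0 (jdF N (d * q ^ i) hD))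
  haveI : NeZero (d * q ^ (max (e + 1) (2 * 0) - (i + 1))) :=
    ⟨(Nat.mul_pos hd0 (pow_pos hq0 _)).ne'⟩
  rw [hβ, _root_.Fermat.Agent.S45.NUE.H23.cE_jdF_gt (N * q) q M (e + 1) Bu ku hNu hBu hq d d' (i + 1) 0 hM (by omega)
    (by omega) hDu]
  rcases Nat.eq_zero_or_pos i with hi | hi
  · subst hi
    haveI : NeZero (d * q ^ (e - 2 * 0 + 0)) := ⟨(Nat.mul_pos hd0 (pow_pos hq0 _)).ne'⟩
    rw [_root_.Fermat.Agent.S45.NUE.H23.cE_jdF_le N q M e B k hN hB hq d d' 0 0 hM le_rfl hD]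
    refine twist_qExpand_eq _ _ (by congr 2) _ _ ?_ _
    rw [show e - 2 * 0 + 0 = e by omega, ← wBeta_mul q e B Bu, mul_pow, mul_comm d, pow_mul,
      pow_mul (zE q e 0 B), zE_zero_pow, one_pow, mul_one]
  · haveI : NeZero (d * q ^ (max e (2 * 0) - i)) := ⟨(Nat.mul_pos hd0 (pow_pos hq0 _)).ne'⟩
    rw [_root_.Fermat.Agent.S45.NUE.H23.cE_jdF_gt N q M e B k hN hB hq d d' i 0 hM hi hie hD, twist_twist, wBeta_mul]
    refine twist_qExpand_eq _ _ ?_ _ _ rfl _
    congr 2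
    omega

include hN hB hNu hBu hq in
/-- **(Tb0)** `β` at the cusp `0`, in `cuspU` form: a twist by a `q^(e+1)`-th root of unity. -/
theorem cuspU_gE_beta_zero (x : FN N) :
    cuspU (N * q) (gE q M 0) (heckeBetaBar Kbar N q x)
      = twist (wBeta q e B Bu ^ Bu) (cuspU N (gE q M 0) x) := by
  haveI := neZero_nE (N * q) q M (e + 1) Bu ku hNu hBu hq 0
  haveI := neZero_nE N q M e B k hN hB hq 0
  rw [← qExpand_cE' (N * q) q M (e + 1) Bu ku hNu hBu hq 0,
    ← qExpand_cE' N q M e B k hN hB hq 0 x,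
    cE_beta_zero N q M e B k Bu ku hN hB hNu hBu hq x, twist_qExpand]
  have hw : (wBeta q e B Bu ^ Bu) ^ ((M * q ^ min e (2 * 0) : ℕ) : ℤ) = wBeta q e B Bu := by
    have h1 : (Bu : ℤ) * ((M * q ^ min e (2 * 0) : ℕ) : ℤ)
        = 1 + (-ku) * ((q ^ (e + 1) : ℕ) : ℤ) := by
      rw [show min e (2 * 0) = 0 by omega]
      push_cast
      linear_combination hBu
    rw [← zpow_mul, h1, zpow_add₀ (wBeta_ne_zero q e B Bu), zpow_one, mul_comm (-ku),
      zpow_mul, zpow_natCast, wBeta_pow, one_zpow, mul_one]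
  rw [hw]
  exact qExpand_congr (by rw [show min (e + 1) (2 * 0) = 0 by omega,
    show min e (2 * 0) = 0 by omega]) _

theorem wBeta_zpow_pow (q e : ℕ) [NeZero q] (B Bu : ℤ) :
    (wBeta q e B Bu ^ Bu) ^ (q ^ (e + 1)) = 1 := by
  rw [← zpow_natCast, ← zpow_mul, mul_comm, zpow_mul, zpow_natCast, wBeta_pow, one_zpow]

end Zero

end Fermat.Agent.S45.NUE.H31

end
end
-- ==== END Fermat.Agent.S45.NUE.H31_AlphaBeta2
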