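-- GENERATED (merged mirror, NOTES/tools/trim/merge3_helper67.py): 5 modules of the originals, bodies verbatim.
import Fermat.Agent.Zm.S45_L04_000
import Fermat.Agent.Zm.S36_L09_001
import Fermat.Agent.Zm.S36_L03_001
import Fermat.Agent.Zm.S36_L02_002
import Fermat.Agent.Zm.S36_L01_002
import Fermat.Agent.Zm.S45_L01_003
import Fermat.Agent.Zm.S36_L10_000

-- ==== BEGIN Fermat.Agent.S45.NUE.H60_ArchE
section

set_option autoImplicit false
set_option synthInstance.maxHeartbeats 400000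
set_option maxHeartbeats 1000000
set_option linter.style.haveILetI false
set_option linter.unusedSectionVars false

noncomputable section

open ModularCurve AlgebraicCurve
open Fermat.Agent.S24 Fermat.Agent.BAD.H88 Fermat.Agent.S28 Fermat.Agent.S28.H73
open Fermat.Agent.RED.H73 Fermat.Agent.RED.H17 Fermat.Agent.S36.NU.H88
open Fermat.Agent.S36.NU.H23 Fermat.Agent.S45.NUE.H73 Fermat.Agent.S45.NUE.H23
open scoped MatrixGroups

namespace Fermat.Agent.S45.NUE.H60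

section Level

variable (A : ValuationSubring Kbar)
variable (N q M e : ℕ) (B k : ℤ) (hN : N = M * q ^ e) (hB : B * M + k * (q : ℤ) ^ e = 1)
  (hq : q.Prime) [NeZero N] [NeZero q] (hA : A.LiesOverPrime q)

include hA in
/-- `VF a` is of rank one. -/
theorem isArch_VF (a : ℕ) : Fermat.Agent.BAD.H42.IsArch (VF A N q M e B k hN hB hq a) := by
  haveI := neZero_nE N q M e B k hN hB hq a
  refine Fermat.Agent.S36.NU.H82.isArch_of_const A hq hA (VF A N q M e B k hN hB hq a)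
    (const_memG (hE N q M e B k hN hB hq a) A) ?_
  intro f hf
  obtain ⟨c, hc0, h, hr⟩ := exists_scaleG (hE N q M e B k hN hB hq a) A f hf
  exact ⟨c, hc0, Fermat.Agent.S36.NU.H82.val_eq_one_of_red_ne_zero _
    (redG (hE N q M e B k hN hB hq a) A) (redG_eq_zero_iff (hE N q M e B k hN hB hq a) A)
    ⟨_, h⟩ hr⟩

include hA in
/-- **T9 ARCH**: `VE a` is of rank one. -/
theorem isArch_VE (a : ℕ) : Fermat.Agent.BAD.H42.IsArch (VE A N q M e B k hN hB hq a) := by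
  rw [VE_eq_resV0]
  exact isArch_resV0 (L0 A N) (VF A N q M e B k hN hB hq a)
    (isArch_VF A N q M e B k hN hB hq hA a)

include hA in
/-- **T9 HLIFT**: Teichmüller lifts of the constants of the residue field, at all valuations
`VE a`. -/
theorem hliftE (c : kV A) :
    ∃ x : ↥(L0 A N), (∃ c' : Kbar, (x : FN N) = algebraMap Kbar (FN N) c') ∧
      ∀ a, ∃ h : x ∈ VE A N q M e B k hN hB hq a,
        _root_.Fermat.Agent.S45.NUE.H23.sE A N q M e B k hN hB hq a ⟨x, h⟩ = algebraMap (kV A) (LaurentSeries (kV A)) c := by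
  obtain ⟨c', hc', hfix, hres⟩ := Fermat.Agent.S36.NU.H42.exists_fixed_lift A hq hA c
  refine ⟨⟨algebraMap Kbar (FN N) c', (const_mem_L0_iff A c').mpr hfix⟩, ⟨c', rfl⟩, fun a => ?_⟩
  haveI := neZero_nE N q M e B k hN hB hq a
  have h : algebraMap Kbar (FN N) c' ∈ VG (hE N q M e B k hN hB hq a) A :=
    (const_memG (hE N q M e B k hN hB hq a) A c').mpr hc'
  refine ⟨h, ?_⟩
  show ((redG (hE N q M e B k hN hB hq a) A ⟨_, h⟩ : RG (hE N q M e B k hN hB hq a) A) :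
    LaurentSeries (kV A)) = _
  rw [redG_const (hE N q M e B k hN hB hq a) A ⟨c', hc'⟩ h, hres]
  rfl

end Level

end Fermat.Agent.S45.NUE.H60

end
end
-- ==== END Fermat.Agent.S45.NUE.H60_ArchE

-- ==== BEGIN Fermat.Agent.S45.NUE.H65_FinEMod
section

/-!
# S45 / NU_e, package E-FIN (helper65): the call of `finModE_of` on the charts `chart0E`,
`chartInfE`

Level `N = M * q`, `A` over `q`.  Everything is generic in the datum of the two levels
`D : NUDataE` on `L0 A (M * q)` (modular: helper79's `nuDataE`, `D.T = totE`), with helper74's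
charts `chart0E A N D.T h`, `chartInfE A N D.T h`.

* `finModE_of_ne` : `FinModE` for `U` from `FinModE` for `h ≠ 0 ∧ U h` (`h = 0` is trivial);
* `finModE_charts` : **`FinModE A q M (IsUnitT A (M * q) D.T)`** from the leaves on the two charts:
  `SepPattern` (E-CHART), `PointData` of `chart0E` (E-PT), `PointDataAt` at the cusps of
  `chartInfE` (E-CUSP), RADQ, `LowRoot`, `RootClosed`, and the norms (E-INST-B);
* `finModE_charts_V` : the same for the units of a family `V i = D.T.V i` (the `U` of E-VV).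
-/

set_option autoImplicit false
set_option synthInstance.maxHeartbeats 400000
set_option maxHeartbeats 1000000
set_option linter.style.haveILetI false
set_option linter.unusedSectionVars false

noncomputable section

open ModularCurve AlgebraicCurve IntermediateField

attribute [local instance] Classical.propDecidable

namespace Fermat.Agent.S45.NUE.H65

open Fermat.Agent.RED.H17 Fermat.Agent.RED Fermat.Agent.S36.NU.H16 Fermat.Agent.S36.NU.H79
  Fermat.Agent.S36.NU.H17 Fermat.Agent.S36.NU.H24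
  Fermat.Agent.S24 Fermat.Agent.BAD.H88 Fermat.Agent.S36.NU.H23 Fermat.Agent.S36.NU.H41
  Fermat.Agent.S36.NU.H88 Fermat.Agent.S36.NU.H74 Fermat.Agent.Lib.HeckeComm
  Fermat.Agent.S45.NUE.H79 Fermat.Agent.S45.NUE.H96 Fermat.Agent.S36.NU.H65
  Fermat.Agent.S45.NUE.H74 Fermat.Agent.S28 Fermat.Agent.S28.H73 Fermat.Agent.RED.H73

section Units

variable (A : ValuationSubring Kbar) (q M : ℕ) [NeZero M] [NeZero q] [NeZero (M * q)]

/-- `FinModE` for `U` from `FinModE` for `h ≠ 0 ∧ U h` (the case `h = 0` is trivial). -/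
theorem finModE_of_ne (U : ↥(L0 A (M * q)) → Prop)
    (hFin : FinModE A q M (fun h => h ≠ 0 ∧ U h)) : FinModE A q M U := by
  obtain ⟨E, hE, h⟩ := hFin
  refine ⟨E, hE, fun n hn hg h' hU hdiv hα hβ => ?_⟩
  by_cases h0 : h' = 0
  · subst h0
    refine ⟨1, 0, one_ne_zero, ?_⟩
    rw [ZeroMemClass.coe_zero, zero_pow hE, zero_mul, map_zero]
  · exact h n hn hg h' ⟨h0, hU⟩ hdiv hα hβ

end Units

section Charts

variable (A : ValuationSubring Kbar) (q M : ℕ) [NeZero M] [NeZero q] [NeZero (M * q)]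
  {ι Z : Type*} {κ : ι → Type*} [∀ i, Field (κ i)] [∀ i, Algebra (kV A) (κ i)] [Fintype ι]
  {K' L₀' L' ι' Z' : Type*} {κ' : ι' → Type*} [Field K'] [Field L₀'] [Field L']
  [Algebra K' L'] [Algebra L₀' L'] [Fintype ι'] [∀ i, Field (κ' i)]
  [∀ i, Algebra (kV A) (κ' i)]

/-- **E-FIN on the two charts**: `FinModE` for the non-zero units of all valuations of `D.T`. -/
theorem finModE_charts_ne [IsAlgClosed (kV A)] (hq : q.Prime) (hA : A.LiesOverPrime q)
    (D : NUDataE Kbar ↥(L0 A (M * q)) (FN (M * q)) (kV A) ι Z κ K' L₀' L' ι' Z' κ')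
    (h : ChartInE A (M * q) D.T)
    (hP : HasPrincipalDivisors Kbar (FN (M * q)))
    (hDd : ∀ n : ℕ, Nat.Coprime n q → Nat.Coprime D.d n)
    -- E-CHART
    (hchar : ∀ i, CharP (κ i) q)
    (y : ↥(L0 A (M * q))) (m : ι → ℤ) (hS : SepPattern D.T q (j0 A (M * q)) y m)
    (hy : y ∈ intSub ↥(Rur A) (j0 A (M * q)))
    -- E-PT, E-CUSP
    (hpt0 : haveI : Infinite (kV A) := IsAlgClosed.instInfinite
      _root_.Fermat.Agent.S45.NUE.H96.PointData (chart0E A (M * q) D.T h) (toGlueCore D hP) ((q : ℕ) : ↥(Rur A)))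
    (hptoo : haveI : Infinite (kV A) := IsAlgClosed.instInfinite
      ∀ 𝔪 : Ideal (chartInfE A (M * q) D.T h).B, 𝔪.IsMaximal →
      (∃ i, (chartInfE A (M * q) D.T h).Icomp i ≤ 𝔪) →
      (∀ β : (chartInfE A (M * q) D.T h).B,
        (β : ↥(L0 A (M * q))) = (j0 A (M * q))⁻¹ → β ∈ 𝔪) →
      _root_.Fermat.Agent.S45.NUE.H96.PointDataAt (chartInfE A (M * q) D.T h) (toGlueCore D hP) ((q : ℕ) : ↥(Rur A)) 𝔪)
    -- RADQ
    (hrad0 : ∀ β ∈ (chart0E A (M * q) D.T h).B, (∀ i, (chart0E A (M * q) D.T h).rd i β = 0) →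
      IsRadQ (chart0E A (M * q) D.T h).B ((q : ℕ) : ↥(Rur A)) β)
    (hradoo : ∀ β ∈ (chartInfE A (M * q) D.T h).B,
      (∀ i, (chartInfE A (M * q) D.T h).rd i β = 0) →
      IsRadQ (chartInfE A (M * q) D.T h).B ((q : ℕ) : ↥(Rur A)) β)
    -- the lower level
    (hL : ∀ n : ℕ, 0 < n → Nat.Coprime n q → LowRoot D.T' n)
    (hk : ∀ n : ℕ, 0 < n → Nat.Coprime n q → ∀ i', RootClosed (kV A) (κ' i') n)
    -- the norms
    (hNα : ∀ (n : ℕ) (h : ↥(L0 A (M * q))),
      IsNormPowE A (heckeAlphaBar Kbar M q) n (h : FN (M * q)) →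
      ∃ c g : L₀', IsConstT D.T' c ∧ D.sα.Nm h = c * g ^ n)
    (hNβ : ∀ (n : ℕ) (h : ↥(L0 A (M * q))),
      IsNormPowE A (heckeBetaBar Kbar M q) n (h : FN (M * q)) →
      ∃ c g : L₀', IsConstT D.T' c ∧ D.sβ.Nm h = c * g ^ n)
    (i₀ : ι) :
    FinModE A q M (fun f => f ≠ 0 ∧ IsUnitT A (M * q) D.T f) :=
  finModE_of A q M hq hA D hP hDd (chart0E A (M * q) D.T h) (chartInfE A (M * q) D.T h)
    (compat_chart0E A (M * q) D.T h) (compat_chartInfE A (M * q) D.T h)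
    (chart0E_B A (M * q) D.T h) (chartInfE_B A (M * q) D.T h)
    (fun n hn hcop => chartHyp_chart0E_of_sep A (M * q) D.T h q n hq hchar hn hcop y m hS hy)
    (fun n hn hcop => chartHyp_chartInfE_of_sep A (M * q) D.T h q n hq hchar hn hcop y m hS hy)
    hpt0 hptoo hrad0 hradoo hL hk hNα hNβ _
    (fun f hf i => rdN_ne_zero_of_isUnitT A (M * q) D.T f hf.1 hf.2 i) i₀

/-- **E-FIN on the two charts**: `FinModE` for the units of all valuations of `D.T`. -/
theorem finModE_charts [IsAlgClosed (kV A)] (hq : q.Prime) (hA : A.LiesOverPrime q)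
    (D : NUDataE Kbar ↥(L0 A (M * q)) (FN (M * q)) (kV A) ι Z κ K' L₀' L' ι' Z' κ')
    (h : ChartInE A (M * q) D.T)
    (hP : HasPrincipalDivisors Kbar (FN (M * q)))
    (hDd : ∀ n : ℕ, Nat.Coprime n q → Nat.Coprime D.d n)
    (hchar : ∀ i, CharP (κ i) q)
    (y : ↥(L0 A (M * q))) (m : ι → ℤ) (hS : SepPattern D.T q (j0 A (M * q)) y m)
    (hy : y ∈ intSub ↥(Rur A) (j0 A (M * q)))
    (hpt0 : haveI : Infinite (kV A) := IsAlgClosed.instInfinite
      _root_.Fermat.Agent.S45.NUE.H96.PointData (chart0E A (M * q) D.T h) (toGlueCore D hP) ((q : ℕ) : ↥(Rur A)))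
    (hptoo : haveI : Infinite (kV A) := IsAlgClosed.instInfinite
      ∀ 𝔪 : Ideal (chartInfE A (M * q) D.T h).B, 𝔪.IsMaximal →
      (∃ i, (chartInfE A (M * q) D.T h).Icomp i ≤ 𝔪) →
      (∀ β : (chartInfE A (M * q) D.T h).B,
        (β : ↥(L0 A (M * q))) = (j0 A (M * q))⁻¹ → β ∈ 𝔪) →
      _root_.Fermat.Agent.S45.NUE.H96.PointDataAt (chartInfE A (M * q) D.T h) (toGlueCore D hP) ((q : ℕ) : ↥(Rur A)) 𝔪)
    (hrad0 : ∀ β ∈ (chart0E A (M * q) D.T h).B, (∀ i, (chart0E A (M * q) D.T h).rd i β = 0) →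
      IsRadQ (chart0E A (M * q) D.T h).B ((q : ℕ) : ↥(Rur A)) β)
    (hradoo : ∀ β ∈ (chartInfE A (M * q) D.T h).B,
      (∀ i, (chartInfE A (M * q) D.T h).rd i β = 0) →
      IsRadQ (chartInfE A (M * q) D.T h).B ((q : ℕ) : ↥(Rur A)) β)
    (hL : ∀ n : ℕ, 0 < n → Nat.Coprime n q → LowRoot D.T' n)
    (hk : ∀ n : ℕ, 0 < n → Nat.Coprime n q → ∀ i', RootClosed (kV A) (κ' i') n)
    (hNα : ∀ (n : ℕ) (h : ↥(L0 A (M * q))),
      IsNormPowE A (heckeAlphaBar Kbar M q) n (h : FN (M * q)) →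
      ∃ c g : L₀', IsConstT D.T' c ∧ D.sα.Nm h = c * g ^ n)
    (hNβ : ∀ (n : ℕ) (h : ↥(L0 A (M * q))),
      IsNormPowE A (heckeBetaBar Kbar M q) n (h : FN (M * q)) →
      ∃ c g : L₀', IsConstT D.T' c ∧ D.sβ.Nm h = c * g ^ n)
    (i₀ : ι) :
    FinModE A q M (IsUnitT A (M * q) D.T) :=
  finModE_of_ne A q M _
    (finModE_charts_ne A q M hq hA D h hP hDd hchar y m hS hy hpt0 hptoo hrad0 hradoo hL hk
      hNα hNβ i₀)

/-- **E-FIN on the two charts**, for the units of a family `V i = D.T.V i` (the predicate `U` of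
E-VV). -/
theorem finModE_charts_V [IsAlgClosed (kV A)] (hq : q.Prime) (hA : A.LiesOverPrime q)
    (D : NUDataE Kbar ↥(L0 A (M * q)) (FN (M * q)) (kV A) ι Z κ K' L₀' L' ι' Z' κ')
    (h : ChartInE A (M * q) D.T)
    (hP : HasPrincipalDivisors Kbar (FN (M * q)))
    (hDd : ∀ n : ℕ, Nat.Coprime n q → Nat.Coprime D.d n)
    (hchar : ∀ i, CharP (κ i) q)
    (y : ↥(L0 A (M * q))) (m : ι → ℤ) (hS : SepPattern D.T q (j0 A (M * q)) y m)
    (hy : y ∈ intSub ↥(Rur A) (j0 A (M * q)))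
    (hpt0 : haveI : Infinite (kV A) := IsAlgClosed.instInfinite
      _root_.Fermat.Agent.S45.NUE.H96.PointData (chart0E A (M * q) D.T h) (toGlueCore D hP) ((q : ℕ) : ↥(Rur A)))
    (hptoo : haveI : Infinite (kV A) := IsAlgClosed.instInfinite
      ∀ 𝔪 : Ideal (chartInfE A (M * q) D.T h).B, 𝔪.IsMaximal →
      (∃ i, (chartInfE A (M * q) D.T h).Icomp i ≤ 𝔪) →
      (∀ β : (chartInfE A (M * q) D.T h).B,
        (β : ↥(L0 A (M * q))) = (j0 A (M * q))⁻¹ → β ∈ 𝔪) →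
      _root_.Fermat.Agent.S45.NUE.H96.PointDataAt (chartInfE A (M * q) D.T h) (toGlueCore D hP) ((q : ℕ) : ↥(Rur A)) 𝔪)
    (hrad0 : ∀ β ∈ (chart0E A (M * q) D.T h).B, (∀ i, (chart0E A (M * q) D.T h).rd i β = 0) →
      IsRadQ (chart0E A (M * q) D.T h).B ((q : ℕ) : ↥(Rur A)) β)
    (hradoo : ∀ β ∈ (chartInfE A (M * q) D.T h).B,
      (∀ i, (chartInfE A (M * q) D.T h).rd i β = 0) →
      IsRadQ (chartInfE A (M * q) D.T h).B ((q : ℕ) : ↥(Rur A)) β)
    (hL : ∀ n : ℕ, 0 < n → Nat.Coprime n q → LowRoot D.T' n)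
    (hk : ∀ n : ℕ, 0 < n → Nat.Coprime n q → ∀ i', RootClosed (kV A) (κ' i') n)
    (hNα : ∀ (n : ℕ) (h : ↥(L0 A (M * q))),
      IsNormPowE A (heckeAlphaBar Kbar M q) n (h : FN (M * q)) →
      ∃ c g : L₀', IsConstT D.T' c ∧ D.sα.Nm h = c * g ^ n)
    (hNβ : ∀ (n : ℕ) (h : ↥(L0 A (M * q))),
      IsNormPowE A (heckeBetaBar Kbar M q) n (h : FN (M * q)) →
      ∃ c g : L₀', IsConstT D.T' c ∧ D.sβ.Nm h = c * g ^ n)
    (i₀ : ι)
    {ι₁ : Type*} (V : ι₁ → ValuationSubring ↥(L0 A (M * q)))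
    (hV : ∀ i, ∃ i₁, D.T.V i = V i₁) :
    FinModE A q M (fun f => ∀ i₁, f ∈ V i₁ ∧ f⁻¹ ∈ V i₁) := by
  obtain ⟨E, hE, hfin⟩ := finModE_charts A q M hq hA D h hP hDd hchar y m hS hy hpt0 hptoo
    hrad0 hradoo hL hk hNα hNβ i₀
  refine ⟨E, hE, fun n hn hg f hU hdiv hα hβ => hfin n hn hg f ?_ hdiv hα hβ⟩
  intro i
  obtain ⟨i₁, hi⟩ := hV i
  rw [hi]
  exact hU i₁

end Charts

end Fermat.Agent.S45.NUE.H65

end
end
-- ==== END Fermat.Agent.S45.NUE.H65_FinEMod

-- ==== BEGIN Fermat.Agent.S45.NUE.H66_SSPole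
section

/-!
# S45 / NU_e, package E-FIN, leaf E-PT-SS / SS-POLE (helper66)

Level `N = M q^e`, `e ≥ 1`.  `x, y ∈ L0 A N` with expansions at `∞`
`x = u₀`, `y = u₀ (t ^ (q ^ e))`, `u₀ ∈ ℤ((t))`.  Then

  `d = q⁻¹ (x ^ (q ^ e) - y) ∈ V_e` (the Gauss valuation at `∞`)  and
  `s_e (d) = δ̄ ^ (q ^ (e - 1))`,  `δ = (u₀ ^ q - u₀ (t ^ q)) / q` (helper65's `kdel`).

SERIES level (Kronecker at level `q ^ e`):

* `powE_sub_eq` : `u ^ (q ^ (e + 1)) - u (t ^ (q ^ (e + 1))) = q (δ (t ^ (q ^ e)) + q h)`;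
* `kdelE q e u = (u ^ (q ^ e) - u (t ^ (q ^ e))) / q`, `kdelE_spec`,
  `coeffMap_kdelE : kdelE ≡ δ̄ ^ (q ^ (e - 1))` modulo `q`.

FUNCTION level:

* `dE A N q e x y`, `coe_dE`, `dE_mem_VE`, `sE_dE`, `mul_dE`.
-/

set_option autoImplicit false
set_option synthInstance.maxHeartbeats 400000
set_option maxHeartbeats 1000000
set_option linter.unusedSectionVars false
set_option linter.style.haveILetI false

noncomputable section

namespace Fermat.Agent.S45.NUE.H66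

open ModularCurve HahnSeries
open Fermat.Agent.S24 Fermat.Agent.BAD.H88
open Fermat.Agent.S28 Fermat.Agent.S28.H73 Fermat.Agent.RED.H73 Fermat.Agent.RED.H17
open Fermat.Agent.S36.NU Fermat.Agent.S36.NU.H88 Fermat.Agent.S36.NU.H23
open Fermat.Agent.S45.NUE.H23

/-! ## Series level -/

section Series

variable (q : ℕ) [NeZero q] [Fact q.Prime]

/-- `u (t ^ q) (t ^ (q ^ (e + 1))) = u (t ^ (q ^ (e + 2)))`. -/
theorem qExpand_pow_succ {R : Type*} [CommRing R] (e : ℕ) (u : LaurentSeries R) :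
    qExpand R (q ^ (e + 1)) (qExpand R q u) = qExpand R (q ^ (e + 2)) u := by
  rw [qExpand_qExpand]
  exact qExpand_congr (by ring) u

/-- **Kronecker at level `q ^ (e + 1)`**:
`u ^ (q ^ (e + 1)) - u (t ^ (q ^ (e + 1))) = q (δ (t ^ (q ^ e)) + q h)`. -/
theorem powE_sub_eq (u : LaurentSeries ℤ) (e : ℕ) :
    ∃ h : LaurentSeries ℤ, u ^ (q ^ (e + 1)) - qExpand ℤ (q ^ (e + 1)) u
      = ((q : ℕ) : LaurentSeries ℤ) *
          (qExpand ℤ (q ^ e) (H65.kdel q u) + ((q : ℕ) : LaurentSeries ℤ) * h) := by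
  induction e with
  | zero =>
    refine ⟨0, ?_⟩
    have h1 : qExpand ℤ (q ^ (0 + 1)) u = qExpand ℤ q u := qExpand_congr (by ring) u
    have h2 : qExpand ℤ (q ^ 0) (H65.kdel q u) = H65.kdel q u := by
      rw [qExpand_congr (pow_zero q) (H65.kdel q u), qExpand_one_apply]
    rw [h1, h2, mul_zero, add_zero, zero_add, pow_one, H65.kdel_spec]
  | succ e ih =>
    obtain ⟨h, hh⟩ := ih
    have h1 : ((q : ℕ) : LaurentSeries ℤ) ∣ u ^ (q ^ (e + 1)) - qExpand ℤ (q ^ (e + 1)) u :=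
      ⟨_, hh⟩
    obtain ⟨h', hh'⟩ := dvd_sub_pow_of_dvd_sub h1 1
    have h3 : qExpand ℤ (q ^ (e + 1)) u ^ q = qExpand ℤ (q ^ (e + 2)) u
        + ((q : ℕ) : LaurentSeries ℤ) * qExpand ℤ (q ^ (e + 1)) (H65.kdel q u) := by
      rw [← map_pow, H65.pow_eq q u, map_add, map_mul, map_natCast, qExpand_pow_succ]
    have h4 : u ^ (q ^ (e + 1 + 1)) = (u ^ (q ^ (e + 1))) ^ q ^ 1 := by
      rw [pow_one, ← pow_mul, ← pow_succ]
    rw [pow_one] at hh'
    refine ⟨h', ?_⟩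
    rw [h4, pow_one]
    linear_combination hh' + h3

/-- `(u ^ (q ^ e) - u (t ^ (q ^ e))) / q`. -/
def kdelE (e : ℕ) (u : LaurentSeries ℤ) : LaurentSeries ℤ :=
  H65.divQ q (u ^ (q ^ e) - qExpand ℤ (q ^ e) u)

theorem kdelE_spec (e : ℕ) (u : LaurentSeries ℤ) :
    ((q : ℕ) : LaurentSeries ℤ) * kdelE q e u = u ^ (q ^ e) - qExpand ℤ (q ^ e) u := by
  cases e with
  | zero =>
    have h2 : qExpand ℤ (q ^ 0) u = u := by
      rw [qExpand_congr (pow_zero q) u, qExpand_one_apply]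
    have h0 : kdelE q 0 u = 0 := by
      ext n
      rw [kdelE, H65.divQ_coeff, h2, pow_zero, pow_one, sub_self, HahnSeries.coeff_zero,
        Int.zero_ediv]
    rw [h0, mul_zero, h2, pow_zero, pow_one, sub_self]
  | succ e =>
    obtain ⟨h, hh⟩ := powE_sub_eq q u e
    refine H65.natCast_mul_divQ q _ fun n => ?_
    rw [hh, H65.natCast_mul_coeff]
    exact dvd_mul_right _ _

/-- In characteristic `q`, for a series with coefficients in the prime field:
`x ^ (q ^ m) = x (t ^ (q ^ m))`. -/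
theorem pow_pow_eq_qExpand_zmod (m : ℕ) (x : LaurentSeries (ZMod q)) :
    x ^ (q ^ m) = qExpand (ZMod q) (q ^ m) x := by
  induction m with
  | zero =>
    rw [qExpand_congr (pow_zero q) x, qExpand_one_apply, pow_zero, pow_one]
  | succ m ih =>
    calc x ^ q ^ (m + 1) = (x ^ q ^ m) ^ q := by rw [← pow_mul, pow_succ]
      _ = qExpand (ZMod q) q (x ^ q ^ m) := H65.pow_eq_qExpand_zmod q _
      _ = qExpand (ZMod q) q (qExpand (ZMod q) (q ^ m) x) := by rw [ih]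
      _ = qExpand (ZMod q) (q * q ^ m) x := qExpand_qExpand _ _ _
      _ = qExpand (ZMod q) (q ^ (m + 1)) x := qExpand_congr (by ring) x

/-- `(u ^ (q ^ (e + 1)) - u (t ^ (q ^ (e + 1)))) / q ≡ δ ^ (q ^ e)` modulo `q`. -/
theorem coeffMap_kdelE_succ (e : ℕ) (u : LaurentSeries ℤ) :
    coeffMap (Int.castRingHom (ZMod q)) (kdelE q (e + 1) u)
      = coeffMap (Int.castRingHom (ZMod q)) (H65.kdel q u) ^ (q ^ e) := by
  obtain ⟨h, hh⟩ := powE_sub_eq q u e
  have e1 : kdelE q (e + 1) u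
      = qExpand ℤ (q ^ e) (H65.kdel q u) + ((q : ℕ) : LaurentSeries ℤ) * h :=
    H65.natCast_mul_left_cancel_int q (by rw [kdelE_spec, hh])
  rw [e1, map_add, H65.coeffMap_natCast_mul, coeffMap_qExpand]
  have : ((q : ℕ) : LaurentSeries (ZMod q)) = 0 := by
    rw [← map_natCast (HahnSeries.C : ZMod q →+* LaurentSeries (ZMod q)) q, ZMod.natCast_self,
      map_zero]
  rw [this, zero_mul, add_zero, pow_pow_eq_qExpand_zmod]

/-- `(u ^ (q ^ e) - u (t ^ (q ^ e))) / q ≡ δ ^ (q ^ (e - 1))` modulo `q`, `e ≥ 1`. -/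
theorem coeffMap_kdelE (e : ℕ) (he : 1 ≤ e) (u : LaurentSeries ℤ) :
    coeffMap (Int.castRingHom (ZMod q)) (kdelE q e u)
      = coeffMap (Int.castRingHom (ZMod q)) (H65.kdel q u) ^ (q ^ (e - 1)) := by
  obtain ⟨e', rfl⟩ : ∃ e', e = e' + 1 := ⟨e - 1, by omega⟩
  rw [coeffMap_kdelE_succ, Nat.add_sub_cancel]

/-- The same over any residue ring of characteristic `q`. -/
theorem coeffMap_kdelE_kV {C : Type} [Field C] (O : ValuationSubring C) [CharP (kV O) q]
    (e : ℕ) (he : 1 ≤ e) (u : LaurentSeries ℤ) :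
    coeffMap (Int.castRingHom (kV O)) (kdelE q e u)
      = coeffMap (Int.castRingHom (kV O)) (H65.kdel q u) ^ (q ^ (e - 1)) := by
  rw [H65.coeffMap_kV_eq O q (kdelE q e u), coeffMap_kdelE q e he, map_pow,
    ← H65.coeffMap_kV_eq O q]

/-- The image in `C((t))`: `q · kdelE = u ^ (q ^ e) - u (t ^ (q ^ e))`. -/
theorem intSer_kdelE (C : Type) [Field C] (e : ℕ) (u : LaurentSeries ℤ) :
    ((q : ℕ) : LaurentSeries C) * H65.intSer C (kdelE q e u)
      = H65.intSer C u ^ (q ^ e) - qExpand C (q ^ e) (H65.intSer C u) := by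
  have h := congrArg (coeffMap (Int.castRingHom C)) (kdelE_spec q e u)
  rw [H65.coeffMap_natCast_mul, map_sub, map_pow, coeffMap_qExpand] at h
  exact h

end Series

/-! ## Function level -/

section Fun

variable (A : ValuationSubring Kbar)
variable (N q M e : ℕ) (B k : ℤ) (hN : N = M * q ^ e) (hB : B * M + k * (q : ℤ) ^ e = 1)
  (hq : q.Prime) [NeZero N] [NeZero q]

/-- `d = q⁻¹ (x ^ (q ^ e) - y)`. -/
def dE (x y : ↥(L0 A N)) : ↥(L0 A N) :=
  (((q : ℕ) : ↥(L0 A N)))⁻¹ * (x ^ (q ^ e) - y)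

/-- The expansion at `∞`, as a ring homomorphism on `L0 A N`. -/
def expL0 : ↥(L0 A N) →+* LaurentSeries Kbar :=
  ((modularFunctionFieldBar N).val : FN N →+* LaurentSeries Kbar).comp (L0 A N).subtype

theorem expL0_apply (x : ↥(L0 A N)) :
    expL0 A N x = ((x : FN N) : LaurentSeries Kbar) := rfl

include hq in
theorem natCast_ne_zero_ser : ((q : ℕ) : LaurentSeries Kbar) ≠ 0 := by
  have h : ((q : ℕ) : LaurentSeries Kbar) = HahnSeries.C ((q : ℕ) : Kbar) :=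
    (map_natCast (HahnSeries.C : Kbar →+* LaurentSeries Kbar) q).symm
  rw [h]
  intro h0
  have h1 : ((q : ℕ) : Kbar) = 0 :=
    HahnSeries.C_injective (h0.trans (map_zero _).symm)
  exact hq.ne_zero (by exact_mod_cast h1)

include hq in
/-- `q d = x ^ (q ^ e) - y`. -/
theorem mul_dE (x y : ↥(L0 A N)) :
    ((q : ℕ) : ↥(L0 A N)) * dE A N q e x y = x ^ (q ^ e) - y := by
  have hq0 : ((q : ℕ) : ↥(L0 A N)) ≠ 0 := by
    intro h0
    apply natCast_ne_zero_ser q hq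
    have := congrArg (expL0 A N) h0
    rwa [map_natCast, map_zero] at this
  rw [dE, ← mul_assoc, mul_inv_cancel₀ hq0, one_mul]

include hq in
/-- The expansion of `d` at `∞` is `kdelE q e u₀`. -/
theorem coe_dE (u₀ : LaurentSeries ℤ) (x y : ↥(L0 A N))
    (hx : ((x : FN N) : LaurentSeries Kbar) = H65.intSer Kbar u₀)
    (hy : ((y : FN N) : LaurentSeries Kbar)
      = H65.intSer Kbar (qExpand ℤ (q ^ e) u₀)) :
    (((dE A N q e x y : ↥(L0 A N)) : FN N) : LaurentSeries Kbar)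
      = H65.intSer Kbar (kdelE q e u₀) := by
  haveI : Fact q.Prime := ⟨hq⟩
  have h1 := congrArg (expL0 A N) (mul_dE A N q e hq x y)
  rw [map_mul, map_natCast, map_sub, map_pow, expL0_apply, expL0_apply, expL0_apply, hx, hy,
    H65.intSer_qExpand, ← intSer_kdelE q Kbar e u₀] at h1
  exact mul_left_cancel₀ (natCast_ne_zero_ser q hq) h1

include hq in
/-- **SS-POLE, integrality**: `d ∈ V_e`. -/
theorem dE_mem_VE (u₀ : LaurentSeries ℤ) (x y : ↥(L0 A N))
    (hx : ((x : FN N) : LaurentSeries Kbar) = H65.intSer Kbar u₀)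
    (hy : ((y : FN N) : LaurentSeries Kbar)
      = H65.intSer Kbar (qExpand ℤ (q ^ e) u₀)) :
    dE A N q e x y ∈ VE A N q M e B k hN hB hq e := by
  rw [mem_VE_top_iff, coe_dE A N q e hq u₀ x y hx hy]
  exact H65.intSer_mem A _

include hq in
/-- **SS-POLE, the reduction**: `s_e (d) = δ̄ ^ (q ^ (e - 1))`. -/
theorem sE_dE (hA : (q : Kbar) ∈ A.nonunits) (he : 1 ≤ e) (u₀ : LaurentSeries ℤ)
    (x y : ↥(L0 A N))
    (hx : ((x : FN N) : LaurentSeries Kbar) = H65.intSer Kbar u₀)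
    (hy : ((y : FN N) : LaurentSeries Kbar)
      = H65.intSer Kbar (qExpand ℤ (q ^ e) u₀)) :
    _root_.Fermat.Agent.S45.NUE.H23.sE A N q M e B k hN hB hq e
        ⟨dE A N q e x y, dE_mem_VE A N q M e B k hN hB hq u₀ x y hx hy⟩
      = coeffMap (Int.castRingHom (kV A)) (H65.kdel q u₀) ^ (q ^ (e - 1)) := by
  haveI : Fact q.Prime := ⟨hq⟩
  haveI : CharP (kV A) q := Fermat.Agent.BAD.H82.charP_kV A hq hA
  rw [Fermat.Agent.S45.NUE.H23.sE_mk]
  have h1 : cE N q M e B k hN hB hq e ((dE A N q e x y : ↥(L0 A N)) : FN N)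
      = H65.intSer Kbar (kdelE q e u₀) := by
    rw [cE_top, coe_dE A N q e hq u₀ x y hx hy]
  have h2 : (⟨cE N q M e B k hN hB hq e ((dE A N q e x y : ↥(L0 A N)) : FN N),
        dE_mem_VE A N q M e B k hN hB hq u₀ x y hx hy⟩ : gaussRingV A)
      = ⟨H65.intSer Kbar (kdelE q e u₀), H65.intSer_mem A _⟩ := Subtype.ext h1
  rw [h2, H65.gaussRedV_intSer A _ (H65.intSer_mem A _), coeffMap_kdelE_kV q A e he]

end Fun

end Fermat.Agent.S45.NUE.H66

end
end
-- ==== END Fermat.Agent.S45.NUE.H66_SSPole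

-- ==== BEGIN Fermat.Agent.S45.NUE.H73_RamVE
section

/-!
# S45 / NU_e, package E-VAL §5 (helper73): RAM_a in helper23's names

`N = M q^e`, `0 < a < e`, `m = min(a, e - a)`, `π_a = j (q^(a+m) τ) - j (q^(a-m) τ) ∈ L0 A N`:

* `hramE` : `v_a(q) = v_a(π_a)^φ(q^m)` for `v_a = VE a` (ramification index `φ(q^m)`);
* `val_piEo_lt_one` : `v_a(π_a) < 1`;
* `thE_mem_VF`, `redF_thE_ne_zero`-type statements are `H73.thE_mem_VG`, `H73.redG_thE`.
-/

set_option autoImplicit false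
set_option synthInstance.maxHeartbeats 400000
set_option maxHeartbeats 1000000
set_option linter.unusedSectionVars false
set_option linter.unusedVariables false
set_option linter.style.haveILetI false

noncomputable section

namespace Fermat.Agent.S45.NUE.H73

open Fermat.Agent.S24 Fermat.Agent.BAD.H88 ModularCurve
open Fermat.Agent.S28 Fermat.Agent.S28.H73 Fermat.Agent.RED.H73
open Fermat.Agent.S36.NU.H88 Fermat.Agent.S36.NU.H23
open Fermat.Agent.S45.NUE.H23 (VF VE sE neZero_nE)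

section Ram

variable (A : ValuationSubring Kbar)
variable (N q M e : ℕ) (B k : ℤ) (hN : N = M * q ^ e) (hB : B * M + k * (q : ℤ) ^ e = 1)
  (hq : q.Prime) [NeZero N] [NeZero q]

/-- The uniformiser `π_a` as an inertia-fixed function. -/
def piEo (a : ℕ) (h1 : q ^ (a + min a (e - a)) ∣ N) (h2 : q ^ (a - min a (e - a)) ∣ N) :
    ↥(L0 A N) :=
  ⟨_root_.Fermat.Agent.S45.NUE.H73.piE N q e a h1 h2, sub_mem (jdF_mem_L0 A N _ h1) (jdF_mem_L0 A N _ h2)⟩

theorem coe_piEo (a : ℕ) (h1 : q ^ (a + min a (e - a)) ∣ N)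
    (h2 : q ^ (a - min a (e - a)) ∣ N) :
    ((piEo A N q e a h1 h2 : ↥(L0 A N)) : FN N) = _root_.Fermat.Agent.S45.NUE.H73.piE N q e a h1 h2 := rfl

include hN hB hq

/-- **RAM_a**: `v_a(π_a)^φ(q^m) = v_a(q)` on `F_N · ℚ̄`. -/
theorem ramF (hA : (q : Kbar) ∈ A.nonunits) (a : ℕ) (ha1 : 1 ≤ a) (hae : a < e)
    (h1 : q ^ (a + min a (e - a)) ∣ N) (h2 : q ^ (a - min a (e - a)) ∣ N) :
    (VF A N q M e B k hN hB hq a).valuation (_root_.Fermat.Agent.S45.NUE.H73.piE N q e a h1 h2)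
        ^ Nat.totient (q ^ min a (e - a))
      = (VF A N q M e B k hN hB hq a).valuation ((q : ℕ) : FN N) := by
  haveI := neZero_nE N q M e B k hN hB hq a
  have h := ramE A N q M e B k hN hB hq hA a ha1 hae h1 h2
  rw [map_natCast] at h
  exact h

/-- **RAM_a**: `v_a(q) = v_a(π_a)^φ(q^m)` on the inertia-fixed functions. -/
theorem hramE (hA : (q : Kbar) ∈ A.nonunits) (a : ℕ) (ha1 : 1 ≤ a) (hae : a < e)
    (h1 : q ^ (a + min a (e - a)) ∣ N) (h2 : q ^ (a - min a (e - a)) ∣ N) :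
    (VE A N q M e B k hN hB hq a).valuation ((q : ℕ) : ↥(L0 A N))
      = (VE A N q M e B k hN hB hq a).valuation (piEo A N q e a h1 h2)
          ^ Nat.totient (q ^ min a (e - a)) := by
  rw [← map_pow, Fermat.Agent.S45.NUE.H23.VE_eq_resV0, valuation_resV0_eq_iff]
  have h := ramF A N q M e B k hN hB hq hA a ha1 hae h1 h2
  rw [← map_pow] at h
  have e1 : (((q : ℕ) : ↥(L0 A N)) : FN N) = ((q : ℕ) : FN N) :=
    map_natCast (L0 A N).subtype q
  rw [e1]
  exact h.symm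

/-- `v_a(q) < 1`. -/
theorem valE_q_lt_one (hA : (q : Kbar) ∈ A.nonunits) (a : ℕ) :
    (VE A N q M e B k hN hB hq a).valuation ((q : ℕ) : ↥(L0 A N)) < 1 := by
  haveI := neZero_nE N q M e B k hN hB hq a
  rw [Fermat.Agent.S45.NUE.H23.VE_eq_resV0, valuation_resV0_lt_one_iff]
  have e1 : (((q : ℕ) : ↥(L0 A N)) : FN N) = algebraMap Kbar (FN N) (q : Kbar) := by
    rw [map_natCast]
    exact map_natCast (L0 A N).subtype q
  rw [e1]
  exact val_const_lt_one A _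
    (Fermat.Agent.S45.NUE.H23.const_memG (Fermat.Agent.S45.NUE.H23.hE N q M e B k hN hB hq a) A)
    _ hA

/-- `v_a(π_a) < 1`. -/
theorem val_piEo_lt_one (hA : (q : Kbar) ∈ A.nonunits) (a : ℕ) (ha1 : 1 ≤ a) (hae : a < e)
    (h1 : q ^ (a + min a (e - a)) ∣ N) (h2 : q ^ (a - min a (e - a)) ∣ N) :
    (VE A N q M e B k hN hB hq a).valuation (piEo A N q e a h1 h2) < 1 := by
  by_contra hge
  rw [not_lt] at hge
  have h3 : 1 ≤ (VE A N q M e B k hN hB hq a).valuation (piEo A N q e a h1 h2)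
      ^ Nat.totient (q ^ min a (e - a)) := one_le_pow₀ hge
  rw [← hramE A N q M e B k hN hB hq hA a ha1 hae h1 h2] at h3
  exact absurd (valE_q_lt_one A N q M e B k hN hB hq hA a) (not_lt.2 h3)

end Ram

end Fermat.Agent.S45.NUE.H73

end
end
-- ==== END Fermat.Agent.S45.NUE.H73_RamVE

-- ==== BEGIN Fermat.Agent.S45.NUE.H82_EwE
section

/-!
# S45 / NU_e, package E-CUSP / E-EPS (helper82): the witnesses `EwE a` and the targets

Level `N = M q^e`, `1 ≤ e`, components `a = 0..e`, `V_a = H23.VE .. a`, `s_a = H23.sE .. a`.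
With `eps_i = Δ(q^(i-1) τ)/Δ(q^i τ) = epsN N q (i - 1)`:

  `EwE e = eps_e`,   `EwE 0 = q¹² / eps_1`,   `EwE a = q¹² eps_a / eps_(a+1)`  (`0 < a < e`)

(for `e = 2`: helper99's `E20o`, `E02o`, `E11o`).  Targets (proved in `H82_EpsVal.lean`):

* `Stmt_EwE_mem` : `EwE a ∈ V_b` for all `a, b ≤ e`;
* `Stmt_EwE_inv` : `(EwE a)⁻¹ ∈ V_a`;
* `Stmt_EwE_div` : `a ≠ b → ∃ f' ∈ V_b, EwE a = q * f'`;
* `Stmt_EwE_red` : `s_a (EwE a) = (HU (s^(q^(max a (e - a) - 1)))) ^ c_a`, `HU = (Δ~^(q - 1))⁻¹`,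
  `c_a = 1` for `a = 0, e` and `c_a = 2` for `0 < a < e`.
-/

set_option autoImplicit false
set_option synthInstance.maxHeartbeats 400000
set_option maxHeartbeats 1000000
set_option linter.unusedSectionVars false
set_option linter.style.haveILetI false

noncomputable section

open ModularCurve
open Fermat.Agent.S24 Fermat.Agent.BAD.H88 Fermat.Agent.BAD.H30 Fermat.Agent.BAD.H21
open Fermat.Agent.S28 Fermat.Agent.S28.H73 Fermat.Agent.RED.H73 Fermat.Agent.RED.H17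
open Fermat.Agent.S36.NU.H88 Fermat.Agent.S36.NU.H23 Fermat.Agent.S36.NU.H82
open Fermat.Agent.S45.NUE.H73

namespace Fermat.Agent.S45.NUE.H82

section Defs

variable (A : ValuationSubring Kbar) (N q : ℕ) [NeZero N] [NeZero q]

open Classical in
/-- `eps_(i+1) = Δ(q^i τ)/Δ(q^(i+1) τ)` if `q^(i+1) ∣ N`, and `1` otherwise. -/
def epsT (i : ℕ) : FN N := if h : q ^ (i + 1) ∣ N then epsN N q i h else 1

theorem epsT_eq (i : ℕ) (h : q ^ (i + 1) ∣ N) : epsT N q i = epsN N q i h := by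
  rw [epsT, dif_pos h]

theorem epsT_ne_zero (i : ℕ) : epsT N q i ≠ 0 := by
  rw [epsT]
  split_ifs with h
  · exact epsN_ne_zero N q i h
  · exact one_ne_zero

theorem epsT_mem_L0 (i : ℕ) : epsT N q i ∈ L0 A N := by
  rw [epsT]
  split_ifs with h
  · exact epsN_mem_L0 N q A i h
  · exact one_mem _

/-- The constant `q` of level `N`. -/
abbrev cqN : FN N := algebraMap Kbar (FN N) (q : Kbar)

theorem cqN_ne_zero : cqN N q ≠ 0 := by
  rw [cqN, Ne, map_eq_zero]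
  exact_mod_cast (NeZero.ne q)

theorem cqN_mem_L0 : cqN N q ∈ L0 A N := by
  rw [const_mem_L0_iff]
  intro σ _
  exact map_natCast σ q

theorem cqN_eq_natCast : cqN N q = ((q : ℕ) : FN N) := by
  rw [cqN, map_natCast]

/-- **The witness of the component `a`** (level `N = M q^e`), as an element of `F_N`. -/
def EwF (e a : ℕ) : FN N :=
  if a = 0 then cqN N q ^ 12 * (epsT N q 0)⁻¹
  else if a = e then epsT N q (e - 1)
  else cqN N q ^ 12 * epsT N q (a - 1) * (epsT N q a)⁻¹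

theorem EwF_zero (e : ℕ) : EwF N q e 0 = cqN N q ^ 12 * (epsT N q 0)⁻¹ := by
  rw [EwF, if_pos rfl]

theorem EwF_top (e : ℕ) (he : e ≠ 0) : EwF N q e e = epsT N q (e - 1) := by
  rw [EwF, if_neg he, if_pos rfl]

theorem EwF_mid (e a : ℕ) (ha0 : a ≠ 0) (hae : a ≠ e) :
    EwF N q e a = cqN N q ^ 12 * epsT N q (a - 1) * (epsT N q a)⁻¹ := by
  rw [EwF, if_neg ha0, if_neg hae]

theorem EwF_ne_zero (e a : ℕ) : EwF N q e a ≠ 0 := by
  have h0 := cqN_ne_zero N q
  rw [EwF]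
  split_ifs
  · exact mul_ne_zero (pow_ne_zero _ h0) (inv_ne_zero (epsT_ne_zero N q 0))
  · exact epsT_ne_zero N q _
  · exact mul_ne_zero (mul_ne_zero (pow_ne_zero _ h0) (epsT_ne_zero N q _))
      (inv_ne_zero (epsT_ne_zero N q a))

theorem EwF_mem_L0 (e a : ℕ) : EwF N q e a ∈ L0 A N := by
  have h0 := cqN_mem_L0 A N q
  rw [EwF]
  split_ifs
  · exact mul_mem (pow_mem h0 12) (inv_mem (epsT_mem_L0 A N q 0))
  · exact epsT_mem_L0 A N q _
  · exact mul_mem (mul_mem (pow_mem h0 12) (epsT_mem_L0 A N q _))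
      (inv_mem (epsT_mem_L0 A N q a))

/-- **The witness of the component `a`**, as an inertia-fixed function. -/
def EwE (e a : ℕ) : ↥(L0 A N) := ⟨EwF N q e a, EwF_mem_L0 A N q e a⟩

theorem coe_EwE (e a : ℕ) : ((EwE A N q e a : ↥(L0 A N)) : FN N) = EwF N q e a := rfl

theorem EwE_ne_zero (e a : ℕ) : EwE A N q e a ≠ 0 := fun h =>
  EwF_ne_zero N q e a (congrArg Subtype.val h)

/-- The exponent `c_a`: `1` at the two ends, `2` in the middle. -/
def cEw (e a : ℕ) : ℕ := if a = 0 ∨ a = e then 1 else 2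

/-- `HU = (Δ~ ^ (q - 1))⁻¹`, the reduction of `Δ(t)/Δ(t^q)` over `q`. -/
def HUk : LaurentSeries (kV A) := (deltaR (kV A) ^ (q - 1))⁻¹

end Defs

section Targets

variable (A : ValuationSubring Kbar)
variable (N q M e : ℕ) (B k : ℤ) (hN : N = M * q ^ e) (hB : B * M + k * (q : ℤ) ^ e = 1)
  (hq : q.Prime) [NeZero N] [NeZero q]

open Fermat.Agent.S45.NUE.H23 (VE sE)

/-- **(E-EPS i)** the witnesses lie in all the valuation rings. -/
def Stmt_EwE_mem : Prop :=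
  ∀ a b : ℕ, a ≤ e → b ≤ e → EwE A N q e a ∈ VE A N q M e B k hN hB hq b

/-- **(E-EPS i')** the witness of `a` is a unit at `V_a`. -/
def Stmt_EwE_inv : Prop :=
  ∀ a : ℕ, a ≤ e → (EwE A N q e a)⁻¹ ∈ VE A N q M e B k hN hB hq a

/-- **(E-EPS ii)** the witness of `a` is divisible by `q` at the other components. -/
def Stmt_EwE_div : Prop :=
  ∀ a b : ℕ, a ≤ e → b ≤ e → a ≠ b →
    ∃ f' ∈ VE A N q M e B k hN hB hq b, EwE A N q e a = ((q : ℕ) : ↥(L0 A N)) * f'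

/-- **(E-EPS iii)** the reduction of the witness of `a` at `V_a`. -/
def Stmt_EwE_red : Prop :=
  ∀ (a : ℕ) (_ : a ≤ e) (h : EwE A N q e a ∈ VE A N q M e B k hN hB hq a),
    _root_.Fermat.Agent.S45.NUE.H23.sE A N q M e B k hN hB hq a ⟨EwE A N q e a, h⟩
      = (qExpand (kV A) (q ^ (max a (e - a) - 1)) (HUk A q)) ^ cEw e a

end Targets

end Fermat.Agent.S45.NUE.H82

end
end
-- ==== END Fermat.Agent.S45.NUE.H82_EwE
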