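-- GENERATED (merged mirror, NOTES/tools/trim/merge3_helper67.py): 4 modules of the originals, bodies verbatim.
import Fermat.Agent.Zm.S45_L05_000
import Fermat.Agent.Zm.S45_L01_000
import Fermat.Agent.Zm.S45_L05_001
import Fermat.Agent.Zm.S45_L02_000
import Fermat.Agent.Zm.S45_L01_001
import Fermat.Agent.Zm.S36_L11_001
import Fermat.Agent.Zm.S36_L04_001
import Fermat.Agent.Zm.S36_L03_002
import Fermat.Agent.Zm.S45_L02_001

-- ==== BEGIN Fermat.Agent.S45.NUE.H17_BranchE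
section

/-!
# S45 / NU_e, leaf E-PT-BR, part 1 (helper17): the lifts of the normal chart of the good level

`N = M q^e`, `q ∤ M` tame, `A` over `q`, `VE a`, `sE a` (`a ≤ e`) the valuations of `L0 A N`.

* `intRed_pow_pow`, `jqModC_pow` : `j~ ^ (q^m) = j~ (s^(q^m))`;
* `jE` : `j (q^e τ)` as an inertia-fixed function; `isIntegral_jE`;
* `isIntegral_inclE(_inv)`, `isIntegral_betaE`, `isIntegral_betaE_inv` : integrality of the
  lifts `incl f`, `f (q^e τ)` over `K^ur[j]`, `K^ur[1/j]`, `K^ur[1/j (q^e τ)]`;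
* `wE` : the Atkin–Lehner involution `W_{q^e}` on `L0 A N`, `wE_j0`, `wE_jE`;
  `j0_isIntegral_jE` : `j` is integral over `R^ur[j (q^e τ)]` if `j (q^e τ)` is over `R^ur[j]`;
* `sE_j0` : `sE a j = j~ (s^(q^(e - 2 a)))`;
* `exists_lift0` : every `y` of the residue field of the good level integral over `k[j~]` is
  `sE a x` with `x` integral over `K^ur[j]` and in all `VE a'`;
* `exists_liftInf` : the same for `1 / j` on the components with `e ≤ 2 a`.
-/

set_option autoImplicit false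
set_option synthInstance.maxHeartbeats 400000
set_option maxHeartbeats 1000000
set_option linter.unusedSectionVars false
set_option linter.unusedVariables false
set_option linter.style.haveILetI false

noncomputable section

namespace Fermat.Agent.S45.NUE.H17

open ModularCurve AlgebraicCurve Polynomial IntermediateField
open Fermat.Agent.S24 Fermat.Agent.BAD.H88 Fermat.Agent.S28 Fermat.Agent.S28.H73
open Fermat.Agent.RED.H73 Fermat.Agent.RED.H17 Fermat.Agent.S36.NU.H88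
open Fermat.Agent.S36.NU.H41 Fermat.Agent.BAD
open Fermat.Agent.S36.NU.H17 (iotaUr)
open Fermat.Agent.S45.NUE.H23
open Fermat.Agent.S45.NUE.H73 (zE zE_pow rootUnit coe_rootUnit resV_rootUnit jdF_congr posE
  dvdE_cases)

local notation "L0" => Fermat.Agent.S36.NU.H23.L0
local notation "VE0" => Fermat.Agent.S36.NU.H23.VE0
local notation "sE0" => Fermat.Agent.S36.NU.H23.sE
local notation "inclL0" => Fermat.Agent.S36.NU.H23.inclL0

/-! ## Frobenius on `j~` -/

section Frob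

variable {k : Type*} [Field k] (q : ℕ) [NeZero q] [Fact q.Prime] [CharP k q]

theorem intRed_pow_pow (u : LaurentSeries ℤ) (m : ℕ) :
    haveI : NeZero (q ^ m) := ⟨pow_ne_zero _ (NeZero.ne q)⟩
    coeffMap (Int.castRingHom k) u ^ (q ^ m)
      = qExpand k (q ^ m) (coeffMap (Int.castRingHom k) u) := by
  induction m with
  | zero =>
    haveI : NeZero (q ^ 0) := ⟨pow_ne_zero _ (NeZero.ne q)⟩
    have h1 : coeffMap (Int.castRingHom k) u ^ (q ^ 0) = coeffMap (Int.castRingHom k) u := by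
      rw [pow_zero, pow_one]
    rw [h1]
    exact ((qExpand_congr (pow_zero q) _).trans (qExpand_one_apply _)).symm
  | succ m ih =>
    haveI : NeZero (q ^ m) := ⟨pow_ne_zero _ (NeZero.ne q)⟩
    haveI : NeZero (q ^ (m + 1)) := ⟨pow_ne_zero _ (NeZero.ne q)⟩
    haveI : NeZero (q ^ m * q) := ⟨mul_ne_zero (pow_ne_zero _ (NeZero.ne q)) (NeZero.ne q)⟩
    have h1 : coeffMap (Int.castRingHom k) u ^ (q ^ (m + 1))
        = (coeffMap (Int.castRingHom k) u ^ (q ^ m)) ^ q := by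
      rw [pow_succ, pow_mul]
    rw [h1, ih, ← map_pow, Fermat.Agent.S36.NU.H65.intRed_pow, qExpand_qExpand]
    exact qExpand_congr (pow_succ q m).symm _

theorem jqModC_pow (m : ℕ) :
    haveI : NeZero (q ^ m) := ⟨pow_ne_zero _ (NeZero.ne q)⟩
    jqModC k ^ (q ^ m) = qExpand k (q ^ m) (jqModC k) := by
  haveI : NeZero (q ^ m) := ⟨pow_ne_zero _ (NeZero.ne q)⟩
  have h := intRed_pow_pow (k := k) q (jqModC ℤ) m
  rwa [coeffMap_jqModC] at h

end Frob

section Level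

variable (A : ValuationSubring Kbar)
variable (N q M e : ℕ) (B k : ℤ) (hN : N = M * q ^ e) (hB : B * M + k * (q : ℤ) ^ e = 1)
  (hq : q.Prime) [NeZero N] [NeZero q] [NeZero M]

/-! ## `j (q^e τ)` -/

include hN in
theorem qe_dvd : q ^ e ∣ N := ⟨M, by rw [hN, mul_comm]⟩

/-- `j (q^e τ)` as an inertia-fixed function of level `N`. -/
def jE : ↥(L0 A N) :=
  haveI : NeZero (q ^ e) := ⟨pow_ne_zero _ (NeZero.ne q)⟩
  ⟨jdF N (q ^ e) (qe_dvd N q M e hN), Fermat.Agent.S36.NU.H23.jdF_mem_L0 A N _ _⟩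

theorem coe_jE :
    haveI : NeZero (q ^ e) := ⟨pow_ne_zero _ (NeZero.ne q)⟩
    ((jE A N q M e hN : ↥(L0 A N)) : FN N) = jdF N (q ^ e) (qe_dvd N q M e hN) := rfl

/-- `j (q^e τ)` is integral over `K^ur[j]`. -/
theorem isIntegral_jE :
    IsIntegral ↥(Algebra.adjoin ↥(Kur A) {j0 A N}) (jE A N q M e hN) :=
  haveI : NeZero (q ^ e) := ⟨pow_ne_zero _ (NeZero.ne q)⟩
  isIntegral_jdF_L0 A N (q ^ e) (qe_dvd N q M e hN)

/-! ## Integrality of the lifts -/

theorem inclusion_jF (hle : modularFunctionFieldBar M ≤ modularFunctionFieldBar N) :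
    IntermediateField.inclusion hle (Fermat.Agent.RED.H73.jF (L := Kbar) M)
      = ((j0 A N : ↥(L0 A N)) : FN N) := by
  rw [← Fermat.Agent.RED.H76.jF_eq, ← jdF_one_eq_jF M, coe_j0']
  apply Subtype.ext
  rw [IntermediateField.coe_inclusion, coe_jdF, coe_jdF]

theorem betaE_jF :
    betaE N q M e hN (Fermat.Agent.RED.H73.jF (L := Kbar) M)
      = ((jE A N q M e hN : ↥(L0 A N)) : FN N) := by
  haveI : NeZero (q ^ e) := ⟨pow_ne_zero _ (NeZero.ne q)⟩
  haveI : NeZero (1 * q ^ e) := ⟨by rw [one_mul]; exact pow_ne_zero _ (NeZero.ne q)⟩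
  rw [← Fermat.Agent.RED.H76.jF_eq, ← jdF_one_eq_jF M, coe_jE,
    betaE_jdF N q M e hN 1 (one_dvd M) (by rw [one_mul]; exact qe_dvd N q M e hN)]
  exact jdF_congr N (one_mul _) _ _

/-- `incl f` is integral over `K^ur[j]`. -/
theorem isIntegral_inclE (hle : modularFunctionFieldBar M ≤ modularFunctionFieldBar N)
    (f : FN M) (hf : f ∈ L0 A M)
    (hint : ((aeval (Fermat.Agent.RED.H73.jF (L := Kbar) M) : Kbar[X] →ₐ[Kbar] FN M).toRingHom.comp
        (mapRingHom (iotaUr A))).IsIntegralElem f) :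
    IsIntegral ↥(Algebra.adjoin ↥(Kur A) {j0 A N}) (inclL0 A hle ⟨f, hf⟩) := by
  refine isIntegral_adjoin_of_isIntegralElem A N (j0 A N) (inclL0 A hle ⟨f, hf⟩) ?_
  have h := Fermat.Agent.S36.NU.H22.isIntegralElem_map_algHom A M
    (IntermediateField.inclusion hle) _ f hint
  rw [inclusion_jF A N M hle] at h
  exact h

/-- `incl f` is integral over `K^ur[1/j]`. -/
theorem isIntegral_inclE_inv (hle : modularFunctionFieldBar M ≤ modularFunctionFieldBar N)
    (f : FN M) (hf : f ∈ L0 A M)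
    (hint : ((aeval (Fermat.Agent.RED.H73.jF (L := Kbar) M)⁻¹ :
        Kbar[X] →ₐ[Kbar] FN M).toRingHom.comp (mapRingHom (iotaUr A))).IsIntegralElem f) :
    IsIntegral ↥(Algebra.adjoin ↥(Kur A) {(j0 A N)⁻¹}) (inclL0 A hle ⟨f, hf⟩) := by
  refine isIntegral_adjoin_of_isIntegralElem A N (j0 A N)⁻¹ (inclL0 A hle ⟨f, hf⟩) ?_
  have h := Fermat.Agent.S36.NU.H22.isIntegralElem_map_algHom A M
    (IntermediateField.inclusion hle) _ f hint
  rw [map_inv₀, inclusion_jF A N M hle] at h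
  exact h

/-- `f (q^e τ)` is integral over `K^ur[j (q^e τ)]`. -/
theorem isIntegral_betaE_jE (f : FN M) (hf : f ∈ L0 A M)
    (hint : ((aeval (Fermat.Agent.RED.H73.jF (L := Kbar) M) : Kbar[X] →ₐ[Kbar] FN M).toRingHom.comp
        (mapRingHom (iotaUr A))).IsIntegralElem f) :
    IsIntegral ↥(Algebra.adjoin ↥(Kur A) {jE A N q M e hN}) (betaL0 A N q M e hN ⟨f, hf⟩) := by
  refine isIntegral_adjoin_of_isIntegralElem A N (jE A N q M e hN)
    (betaL0 A N q M e hN ⟨f, hf⟩) ?_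
  have h := Fermat.Agent.S36.NU.H22.isIntegralElem_map_algHom A M (betaE N q M e hN) _ f hint
  rw [betaE_jF A N q M e hN] at h
  exact h

/-- `f (q^e τ)` is integral over `K^ur[j]`. -/
theorem isIntegral_betaE (f : FN M) (hf : f ∈ L0 A M)
    (hint : ((aeval (Fermat.Agent.RED.H73.jF (L := Kbar) M) : Kbar[X] →ₐ[Kbar] FN M).toRingHom.comp
        (mapRingHom (iotaUr A))).IsIntegralElem f) :
    IsIntegral ↥(Algebra.adjoin ↥(Kur A) {j0 A N}) (betaL0 A N q M e hN ⟨f, hf⟩) :=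
  Fermat.Agent.S36.NU.H17.isIntegral_adjoin_trans (E := ↥(Kur A)) (F := ↥(L0 A N))
    (jE A N q M e hN) (j0 A N) (isIntegral_jE A N q M e hN)
    (isIntegral_betaE_jE A N q M e hN f hf hint)

/-- `f (q^e τ)` is integral over `K^ur[1 / j (q^e τ)]`. -/
theorem isIntegral_betaE_inv (f : FN M) (hf : f ∈ L0 A M)
    (hint : ((aeval (Fermat.Agent.RED.H73.jF (L := Kbar) M)⁻¹ :
        Kbar[X] →ₐ[Kbar] FN M).toRingHom.comp (mapRingHom (iotaUr A))).IsIntegralElem f) :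
    IsIntegral ↥(Algebra.adjoin ↥(Kur A) {(jE A N q M e hN)⁻¹})
      (betaL0 A N q M e hN ⟨f, hf⟩) := by
  refine isIntegral_adjoin_of_isIntegralElem A N (jE A N q M e hN)⁻¹
    (betaL0 A N q M e hN ⟨f, hf⟩) ?_
  have h := Fermat.Agent.S36.NU.H22.isIntegralElem_map_algHom A M (betaE N q M e hN) _ f hint
  rw [map_inv₀, betaE_jF A N q M e hN] at h
  exact h

end Level

end Fermat.Agent.S45.NUE.H17

end
end
-- ==== END Fermat.Agent.S45.NUE.H17_BranchE

-- ==== BEGIN Fermat.Agent.S45.NUE.H5_NormDouble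
section

/-!
# S45 / NU_e, package E-NORM, leaf N3 DOUBLE (helper5): NORM-RED along `α` above the cusp `∞`

Lower level `N = M q^e` (`q ∤ M`, `e ≥ 1`), upper level `N q = M q^(e+1)`;
`E₀ = L0 A N ⊂ L₀ = L0 A (N q)` (the inclusion `α`), of degree `q`.  Above the Gauss valuation
of level `N` (`VE0 A N` = helper23's `VE e` of level `N`, uniformiser `q`, residue field
`FM A N = k(X₀(M))`) lie exactly two of the valuations of level `N q`:

* `a = e + 1` : the Gauss valuation at `∞` of level `N q` (`e = f = 1`),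
* `a = e`     : the valuation at the cusp `1/(q^e M)` (ramification index `q - 1`, uniformiser
  `π_e = j (q^(e+1) τ) - j (q^(e-1) τ)`, helper73's RAM), `f = 1`.

Results:
* `cEmid_alpha` : the normalised expansion at the cusp `1/(q^e M)` of level `N q` of `α x` is the
  `q`-expansion of `x` (restriction table N1 for `a = e`);
* `smid_mem` : the reductions at `a = e` of the inertia-fixed functions lie in the residue field of
  level `N` (fundamental inequality `1 + (q - 1) f ≤ q`);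
* `nrD : NRData (L0 N) (L0 (N q)) (FM A N) (Fin 2) _`, `nrD_hdeg`;
* **`normDouble`** : for `h ∈ V_(e+1) ∩ V_e` inertia-fixed of level `N q`:
  `N_α h ∈ VE0 A N` and `red (N_α h) = red_(e+1) h * red_e h ^ (q - 1)` in `k((s))`;
  `normDouble_F` for the norm of `F_{N q} / F_N`, `normDouble_N` for `normAlongHom α`,
  `normDouble_E` in helper23's names (`VE`, `sE` at both levels).
-/

set_option autoImplicit false
set_option synthInstance.maxHeartbeats 400000
set_option maxHeartbeats 1000000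
set_option linter.style.haveILetI false
set_option linter.unusedSectionVars false
set_option linter.unusedVariables false

noncomputable section

open ModularCurve AlgebraicCurve
open Fermat.Agent.S24 Fermat.Agent.BAD.H88 Fermat.Agent.S28 Fermat.Agent.S28.H73
open Fermat.Agent.RED.H73 Fermat.Agent.RED.H17 Fermat.Agent.S36.NU.H88
open Fermat.Agent.S36.NU.H23 Fermat.Agent.S36.NU.H87
open scoped MatrixGroups

namespace Fermat.Agent.S45.NUE.H5

open Fermat.Agent.S45.NUE.H23 (VE VF cE hE neZero_nE mem_VE_iff VE_eq_resV0 cE_top)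
open Fermat.Agent.S45.NUE.H73 (gE)

section Double

variable (A : ValuationSubring Kbar)
variable (N q M e : ℕ) (B k B' k' : ℤ) (hN : N = M * q ^ e)
  (hB : B * M + k * (q : ℤ) ^ e = 1)
  (hN' : N * q = M * q ^ (e + 1)) (hB' : B' * M + k' * (q : ℤ) ^ (e + 1) = 1)
  (hq : q.Prime) [NeZero N] [NeZero q] [NeZero (N * q)]

/-- `F_N ⊆ F_{N q}`. -/
theorem hleD : modularFunctionFieldBar N ≤ modularFunctionFieldBar (N * q) :=
  Fermat.Agent.S36.NU.H82.FM_le_of_dvd (N * q) N ⟨q, rfl⟩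

/-- The inclusion is the degeneracy map `α`. -/
theorem inclusion_eq_alphaD (x : FN N) :
    IntermediateField.inclusion (hleD N q) x = heckeAlphaBar Kbar N q x := by
  apply Subtype.ext
  rw [IntermediateField.coe_inclusion, coe_heckeAlphaBar]

theorem coe_inclL0_alphaD (a : ↥(L0 A N)) :
    ((inclL0 A (hleD N q) a : ↥(L0 A (N * q))) : FN (N * q))
      = heckeAlphaBar Kbar N q (a : FN N) := by
  rw [coe_inclL0, inclusion_eq_alphaD]

theorem coe_inclL0_seriesD (a : ↥(L0 A N)) :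
    (((inclL0 A (hleD N q) a : ↥(L0 A (N * q))) : FN (N * q)) : LaurentSeries Kbar)
      = ((a : FN N) : LaurentSeries Kbar) := by
  rw [coe_inclL0, IntermediateField.coe_inclusion]

/-! ### The two valuations of the upper level -/

/-- The valuation at the cusp `1/(q^e M)` of level `N q` (helper23's `VE e`). -/
abbrev Vmid : ValuationSubring ↥(L0 A (N * q)) :=
  VE A (N * q) q M (e + 1) B' k' hN' hB' hq e

/-- Its residue map, with values in `k((s))`. -/
abbrev smid : ↥(Vmid A N q M e B' k' hN' hB' hq) →+* LaurentSeries (kV A) :=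
  Fermat.Agent.S45.NUE.H23.sE A (N * q) q M (e + 1) B' k' hN' hB' hq e

/-- The normalised expansion at the cusp `1/(q^e M)` of level `N q`. -/
abbrev cEmid : FN (N * q) →ₐ[Kbar] LaurentSeries Kbar :=
  _root_.Fermat.Agent.S45.NUE.H23.cE (N * q) q M (e + 1) B' k' hN' hB' hq e

include hN hB in
/-- **N1 for `a = e`**: the normalised expansion at the cusp `1/(q^e M)` of level `N q` of
`α x` is the `q`-expansion of `x`. -/
theorem cEmid_alpha (he : 1 ≤ e) (x : FN N) :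
    cEmid N q M e B' k' hN' hB' hq (heckeAlphaBar Kbar N q x) = (x : LaurentSeries Kbar) := by
  haveI := neZero_nE (N * q) q M (e + 1) B' k' hN' hB' hq e
  haveI := neZero_nE N q M e B k hN hB hq e
  refine Fermat.Agent.S45.NUE.H23.cG_eq_of (hE (N * q) q M (e + 1) B' k' hN' hB' hq e) _ _ ?_
  rw [Fermat.Agent.S45.NUE.H31.cuspU_alpha N q (gE q M e) x,
    ← Fermat.Agent.S45.NUE.H23.qExpand_cG (hE N q M e B k hN hB hq e) x]
  have e1 : Fermat.Agent.S45.NUE.H23.cG (hE N q M e B k hN hB hq e) x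
      = (x : LaurentSeries Kbar) := _root_.Fermat.Agent.S45.NUE.H23.cE_top N q M e B k hN hB hq x
  rw [e1, qExpand_qExpand]
  refine qExpand_congr ?_ _
  have h1 : min e (2 * e) = e := by omega
  have h2 : min (e + 1) (2 * e) = e + 1 := by omega
  rw [h1, h2, pow_succ]
  ring

/-! ### The maps `VE0 A N → V..` -/

theorem hVEtop (a : ↥(L0 A N)) (ha : a ∈ VE0 A N) :
    inclL0 A (hleD N q) a ∈ VE0 A (N * q) := by
  rw [mem_VE0_iff, coe_inclL0_seriesD]
  exact ha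

include hN hB in
theorem hVEmid (he : 1 ≤ e) (a : ↥(L0 A N)) (ha : a ∈ VE0 A N) :
    inclL0 A (hleD N q) a ∈ Vmid A N q M e B' k' hN' hB' hq := by
  rw [mem_VE_iff, coe_inclL0_alphaD]
  show cEmid N q M e B' k' hN' hB' hq (heckeAlphaBar Kbar N q (a : FN N)) ∈ gaussRingV A
  rw [cEmid_alpha N q M e B k B' k' hN hB hN' hB' hq he]
  exact ha

/-! ### Compatibilities, in `k((s))` -/

theorem stop_incl (a : ↥(VE0 A N))
    (h : inclL0 A (hleD N q) (a : ↥(L0 A N)) ∈ VE0 A (N * q)) :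
    _root_.Fermat.Agent.S36.NU.H23.sE A (N * q) ⟨_, h⟩ = _root_.Fermat.Agent.S36.NU.H23.sE A N a := by
  rw [_root_.Fermat.Agent.S36.NU.H23.sE_mk]
  show _ = gaussRedV A ⟨(((a : ↥(L0 A N)) : FN N) : LaurentSeries Kbar), a.2⟩
  congr 1

include hN hB in
theorem smid_incl (he : 1 ≤ e) (a : ↥(VE0 A N))
    (h : inclL0 A (hleD N q) (a : ↥(L0 A N)) ∈ Vmid A N q M e B' k' hN' hB' hq) :
    smid A N q M e B' k' hN' hB' hq ⟨_, h⟩ = _root_.Fermat.Agent.S36.NU.H23.sE A N a := by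
  rw [Fermat.Agent.S45.NUE.H23.sE_mk]
  show _ = gaussRedV A ⟨(((a : ↥(L0 A N)) : FN N) : LaurentSeries Kbar), a.2⟩
  congr 1
  apply Subtype.ext
  show cEmid N q M e B' k' hN' hB' hq
    ((inclL0 A (hleD N q) (a : ↥(L0 A N)) : ↥(L0 A (N * q))) : FN (N * q)) = _
  rw [coe_inclL0_alphaD, cEmid_alpha N q M e B k B' k' hN hB hN' hB' hq he]

/-! ### The residue fields of the two levels -/

include hN hq in
/-- (D) at level `N = M q^e`. -/
theorem FMlow_eq (hqM : ¬ q ∣ M) (hA : A.LiesOverPrime q) :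
    redField A (modularFunctionFieldBar N) (hScM A N) = modularFunctionFieldFullC (kV A) M :=
  Fermat.Agent.S36.NU.H82.redField_level_pow q e M N hq hqM hN A hA

include hN' hq in
/-- (D) at level `N q = M q^(e+1)`. -/
theorem FMup_eq (hqM : ¬ q ∣ M) (hA : A.LiesOverPrime q) :
    redField A (modularFunctionFieldBar (N * q)) (hScM A (N * q))
      = modularFunctionFieldFullC (kV A) M :=
  Fermat.Agent.S36.NU.H82.redField_level_pow q (e + 1) M (N * q) hq hqM hN' A hA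

/-- helper23's residue map at `a = e` (the cusp `∞`) is the Gauss reduction of level `N`. -/
theorem sElow_eq (x : ↥(L0 A N)) (hx : x ∈ VE A N q M e B k hN hB hq e)
    (hx0 : x ∈ VE0 A N) :
    Fermat.Agent.S45.NUE.H23.sE A N q M e B k hN hB hq e ⟨x, hx⟩ = _root_.Fermat.Agent.S36.NU.H23.sE A N ⟨x, hx0⟩ := by
  rw [Fermat.Agent.S45.NUE.H23.sE_mk, _root_.Fermat.Agent.S36.NU.H23.sE_mk]
  congr 1
  exact Subtype.ext (_root_.Fermat.Agent.S45.NUE.H23.cE_top N q M e B k hN hB hq (x : FN N))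

/-- helper23's `VE e` of level `N` is the Gauss valuation ring of `L0 A N`. -/
theorem VElow_eq : VE A N q M e B k hN hB hq e = VE0 A N := by
  ext x
  rw [Fermat.Agent.S45.NUE.H23.mem_VE_top_iff, mem_VE0_iff]

include hN hB hq in
/-- The residue map of `VE0 A N` is onto the residue field of level `N`. -/
theorem rElow_surjective [NeZero M] (hqM : ¬ q ∣ M) (hA : A.LiesOverPrime q) :
    Function.Surjective (rE A N) := by
  intro y
  have hy : (y : LaurentSeries (kV A)) ∈ modularFunctionFieldFullC (kV A) M := by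
    rw [← FMlow_eq A N q M e hN hq hqM hA]; exact y.2
  have hle : modularFunctionFieldBar M ≤ modularFunctionFieldBar N :=
    Fermat.Agent.S36.NU.H82.FM_le_of_dvd N M ⟨q ^ e, hN⟩
  obtain ⟨x, hx⟩ := Fermat.Agent.S45.NUE.H17.exists_sE_eq A N q M e B k hN hB hq hqM hA hle e
    le_rfl (y : LaurentSeries (kV A)) hy
  have hx0 : (x : ↥(L0 A N)) ∈ VE0 A N := by
    rw [← VElow_eq A N q M e B k hN hB hq]; exact x.2
  refine ⟨⟨x, hx0⟩, Subtype.ext ?_⟩
  rw [coe_rE, ← hx]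
  exact (sElow_eq A N q M e B k hN hB hq (x : ↥(L0 A N)) x.2 hx0).symm

/-! ### The residue map of the Gauss valuation of level `N q`, into `FM A N` -/

include hN hN' hq in
theorem stop_mem (hqM : ¬ q ∣ M) (hA : A.LiesOverPrime q) (x : ↥(VE0 A (N * q))) :
    _root_.Fermat.Agent.S36.NU.H23.sE A (N * q) x ∈ redField A (modularFunctionFieldBar N) (hScM A N) := by
  rw [FMlow_eq A N q M e hN hq hqM hA, ← FMup_eq A N q M e hN' hq hqM hA]
  exact (rE A (N * q) x).2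

/-- The residue map of `VE0 A (N q)`, into the residue field of level `N`. -/
def rtop (hqM : ¬ q ∣ M) (hA : A.LiesOverPrime q) : ↥(VE0 A (N * q)) →+* FM A N where
  toFun x := ⟨_root_.Fermat.Agent.S36.NU.H23.sE A (N * q) x, stop_mem A N q M e hN hN' hq hqM hA x⟩
  map_one' := Subtype.ext (map_one (_root_.Fermat.Agent.S36.NU.H23.sE A (N * q)))
  map_mul' x y := Subtype.ext (map_mul (_root_.Fermat.Agent.S36.NU.H23.sE A (N * q)) x y)
  map_zero' := Subtype.ext (map_zero (_root_.Fermat.Agent.S36.NU.H23.sE A (N * q)))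
  map_add' x y := Subtype.ext (map_add (_root_.Fermat.Agent.S36.NU.H23.sE A (N * q)) x y)

theorem coe_rtop (hqM : ¬ q ∣ M) (hA : A.LiesOverPrime q) (x : ↥(VE0 A (N * q))) :
    ((rtop A N q M e hN hN' hq hqM hA x : FM A N) : LaurentSeries (kV A))
      = _root_.Fermat.Agent.S36.NU.H23.sE A (N * q) x := rfl

theorem rtop_eq_zero_of_not_isUnit (hqM : ¬ q ∣ M) (hA : A.LiesOverPrime q)
    (x : ↥(VE0 A (N * q))) (hx : ¬ IsUnit x) : rtop A N q M e hN hN' hq hqM hA x = 0 := by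
  apply Subtype.ext
  rw [coe_rtop, _root_.Fermat.Agent.S36.NU.H23.sE_eq_zero_of_not_isUnit A (N * q) x hx]
  rfl

theorem rtop_incl (hqM : ¬ q ∣ M) (hA : A.LiesOverPrime q) (a : ↥(VE0 A N))
    (h : inclL0 A (hleD N q) (a : ↥(L0 A N)) ∈ VE0 A (N * q)) :
    rtop A N q M e hN hN' hq hqM hA ⟨_, h⟩ = rE A N a := by
  apply Subtype.ext
  rw [coe_rtop, coe_rE]
  exact stop_incl A N q a h

include hB in
theorem rtop_surjective [NeZero M] (hqM : ¬ q ∣ M) (hA : A.LiesOverPrime q) :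
    Function.Surjective (rtop A N q M e hN hN' hq hqM hA) := by
  intro y
  obtain ⟨a, rfl⟩ := rElow_surjective A N q M e B k hN hB hq hqM hA y
  exact ⟨⟨_, hVEtop A N q a a.2⟩, rtop_incl A N q M e hN hN' hq hqM hA a _⟩

/-! ### The residue field of `Vmid`, as a subfield of `k((s))` -/

/-- The image of the residue map of `Vmid`: the residue field of `V_e ∩ L₀`. -/
def Kmid : Subfield (LaurentSeries (kV A)) where
  carrier := Set.range (smid A N q M e B' k' hN' hB' hq)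
  mul_mem' := by
    rintro _ _ ⟨x, rfl⟩ ⟨y, rfl⟩
    exact ⟨x * y, map_mul _ x y⟩
  one_mem' := ⟨1, map_one _⟩
  add_mem' := by
    rintro _ _ ⟨x, rfl⟩ ⟨y, rfl⟩
    exact ⟨x + y, map_add _ x y⟩
  zero_mem' := ⟨0, map_zero _⟩
  neg_mem' := by
    rintro _ ⟨x, rfl⟩
    exact ⟨-x, map_neg _ x⟩
  inv_mem' := by
    rintro _ ⟨x, rfl⟩
    by_cases hx : IsUnit x
    · obtain ⟨u, rfl⟩ := hx
      refine ⟨((u⁻¹ : (↥(Vmid A N q M e B' k' hN' hB' hq))ˣ) :
        ↥(Vmid A N q M e B' k' hN' hB' hq)), ?_⟩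
      have h1 : smid A N q M e B' k' hN' hB' hq (u : ↥(Vmid A N q M e B' k' hN' hB' hq))
          * smid A N q M e B' k' hN' hB' hq ((u⁻¹ : (↥(Vmid A N q M e B' k' hN' hB' hq))ˣ) :
            ↥(Vmid A N q M e B' k' hN' hB' hq)) = 1 := by
        rw [← map_mul, Units.mul_inv, map_one]
      exact (inv_eq_of_mul_eq_one_right h1).symm
    · refine ⟨0, ?_⟩
      rw [Fermat.Agent.S45.NUE.H23.sE_eq_zero_of_not_isUnit A (N * q) q M (e + 1) B' k' hN' hB'
        hq e x hx, map_zero, inv_zero]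

theorem mem_Kmid_iff (y : LaurentSeries (kV A)) :
    y ∈ Kmid A N q M e B' k' hN' hB' hq ↔ ∃ x, smid A N q M e B' k' hN' hB' hq x = y := Iff.rfl

/-- The residue map of `Vmid`, onto its residue field. -/
def rmidK : ↥(Vmid A N q M e B' k' hN' hB' hq) →+* ↥(Kmid A N q M e B' k' hN' hB' hq) :=
  (smid A N q M e B' k' hN' hB' hq).codRestrict (Kmid A N q M e B' k' hN' hB' hq)
    (fun x => ⟨x, rfl⟩)

theorem coe_rmidK (x : ↥(Vmid A N q M e B' k' hN' hB' hq)) :
    ((rmidK A N q M e B' k' hN' hB' hq x : ↥(Kmid A N q M e B' k' hN' hB' hq)) :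
      LaurentSeries (kV A)) = smid A N q M e B' k' hN' hB' hq x := rfl

theorem rmidK_surjective : Function.Surjective (rmidK A N q M e B' k' hN' hB' hq) := by
  rintro ⟨_, x, rfl⟩
  exact ⟨x, rfl⟩

theorem rmidK_eq_zero_of_not_isUnit (x : ↥(Vmid A N q M e B' k' hN' hB' hq))
    (hx : ¬ IsUnit x) : rmidK A N q M e B' k' hN' hB' hq x = 0 := by
  apply Subtype.ext
  rw [coe_rmidK, Fermat.Agent.S45.NUE.H23.sE_eq_zero_of_not_isUnit A (N * q) q M (e + 1) B' k'
    hN' hB' hq e x hx]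
  rfl

include hN hB in
/-- The residue field of level `N` is contained in the residue field of `Vmid`. -/
theorem FMlow_le_Kmid [NeZero M] (he : 1 ≤ e) (hqM : ¬ q ∣ M) (hA : A.LiesOverPrime q)
    (c : FM A N) : (c : LaurentSeries (kV A)) ∈ Kmid A N q M e B' k' hN' hB' hq := by
  obtain ⟨a, rfl⟩ := rElow_surjective A N q M e B k hN hB hq hqM hA c
  exact ⟨⟨_, hVEmid A N q M e B k B' k' hN hB hN' hB' hq he a a.2⟩,
    smid_incl A N q M e B k B' k' hN hB hN' hB' hq he a _⟩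

/-- The structure map `FM A N → K_mid`. -/
def incKmid [NeZero M] (he : 1 ≤ e) (hqM : ¬ q ∣ M) (hA : A.LiesOverPrime q) :
    FM A N →+* ↥(Kmid A N q M e B' k' hN' hB' hq) :=
  ((IntermediateField.val _).toRingHom).codRestrict (Kmid A N q M e B' k' hN' hB' hq)
    (fun c => FMlow_le_Kmid A N q M e B k B' k' hN hB hN' hB' hq he hqM hA c)

theorem coe_incKmid [NeZero M] (he : 1 ≤ e) (hqM : ¬ q ∣ M) (hA : A.LiesOverPrime q)
    (c : FM A N) :
    ((incKmid A N q M e B k B' k' hN hB hN' hB' hq he hqM hA c :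
      ↥(Kmid A N q M e B' k' hN' hB' hq)) : LaurentSeries (kV A))
      = (c : LaurentSeries (kV A)) := rfl

/-- `K_mid` as an algebra over the residue field of level `N`. -/
@[reducible] def algKmid [NeZero M] (he : 1 ≤ e) (hqM : ¬ q ∣ M) (hA : A.LiesOverPrime q) :
    Algebra (FM A N) ↥(Kmid A N q M e B' k' hN' hB' hq) :=
  (incKmid A N q M e B k B' k' hN hB hN' hB' hq he hqM hA).toAlgebra

theorem rmidK_incl [NeZero M] (he : 1 ≤ e) (hqM : ¬ q ∣ M) (hA : A.LiesOverPrime q)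
    (a : ↥(VE0 A N))
    (h : inclL0 A (hleD N q) (a : ↥(L0 A N)) ∈ Vmid A N q M e B' k' hN' hB' hq) :
    rmidK A N q M e B' k' hN' hB' hq ⟨_, h⟩
      = @algebraMap (FM A N) ↥(Kmid A N q M e B' k' hN' hB' hq) _ _
          (algKmid A N q M e B k B' k' hN hB hN' hB' hq he hqM hA) (rE A N a) := by
  apply Subtype.ext
  rw [coe_rmidK]
  exact smid_incl A N q M e B k B' k' hN hB hN' hB' hq he a h

/-! ### Rank one -/

include hq in
theorem isArch_top (hA : A.LiesOverPrime q) :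
    Fermat.Agent.BAD.H42.IsArch (VE0 A (N * q)) :=
  isArch_resV0 _ _ (Fermat.Agent.S36.NU.H82.isArch_V20 A hq hA (N * q))

theorem isArch_VFmid (hA : A.LiesOverPrime q) :
    Fermat.Agent.BAD.H42.IsArch (VF A (N * q) q M (e + 1) B' k' hN' hB' hq e) := by
  haveI := neZero_nE (N * q) q M (e + 1) B' k' hN' hB' hq e
  refine Fermat.Agent.S36.NU.H82.isArch_of_const A hq hA _
    (Fermat.Agent.S45.NUE.H23.const_memG (hE (N * q) q M (e + 1) B' k' hN' hB' hq e) A) ?_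
  intro f hf
  obtain ⟨c, hc0, h, hr⟩ := Fermat.Agent.S45.NUE.H23.exists_scaleG
    (hE (N * q) q M (e + 1) B' k' hN' hB' hq e) A f hf
  exact ⟨c, hc0, Fermat.Agent.S36.NU.H82.val_eq_one_of_red_ne_zero _
    (Fermat.Agent.S45.NUE.H23.redG (hE (N * q) q M (e + 1) B' k' hN' hB' hq e) A)
    (Fermat.Agent.S45.NUE.H23.redG_eq_zero_iff (hE (N * q) q M (e + 1) B' k' hN' hB' hq e) A)
    ⟨_, h⟩ hr⟩

theorem isArch_mid (hA : A.LiesOverPrime q) :
    Fermat.Agent.BAD.H42.IsArch (Vmid A N q M e B' k' hN' hB' hq) :=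
  isArch_resV0 _ _ (isArch_VFmid A N q M e B' k' hN' hB' hq hA)

/-! ### The uniformiser of `Vmid` (helper73's RAM, `a = e`, `m = 1`) -/

include hN' in
theorem hdvd1 (he : 1 ≤ e) : q ^ (e + min e (e + 1 - e)) ∣ N * q := by
  have h : e + min e (e + 1 - e) = e + 1 := by omega
  rw [h, hN']
  exact Dvd.intro_left M rfl

include hN' in
theorem hdvd2 : q ^ (e - min e (e + 1 - e)) ∣ N * q := by
  rw [hN']
  exact Dvd.dvd.mul_left (pow_dvd_pow q (by omega)) M

/-- The uniformiser `π_e = j (q^(e+1) τ) - j (q^(e-1) τ)` of `Vmid`. -/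
def piMid (he : 1 ≤ e) : ↥(L0 A (N * q)) :=
  Fermat.Agent.S45.NUE.H73.piEo A (N * q) q (e + 1) e (hdvd1 N q M e hN' he)
    (hdvd2 N q M e hN')

theorem val_piMid_lt_one (hA : A.LiesOverPrime q) (he : 1 ≤ e) :
    (Vmid A N q M e B' k' hN' hB' hq).valuation (piMid A N q M e hN' he) < 1 :=
  Fermat.Agent.S45.NUE.H73.val_piEo_lt_one A (N * q) q M (e + 1) B' k' hN' hB' hq hA e he
    (Nat.lt_succ_self e) _ _

/-- **Ramification of `Vmid`** over level `N`: `v_e(q) = v_e(π_e) ^ (q - 1)`. -/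
theorem hramMid (hA : A.LiesOverPrime q) (he : 1 ≤ e) :
    (Vmid A N q M e B' k' hN' hB' hq).valuation (inclL0 A (hleD N q) (_root_.Fermat.Agent.S36.NU.H23.piE A q N))
      = (Vmid A N q M e B' k' hN' hB' hq).valuation (piMid A N q M e hN' he) ^ (q - 1) := by
  have h := Fermat.Agent.S45.NUE.H73.hramE A (N * q) q M (e + 1) B' k' hN' hB' hq hA e he
    (Nat.lt_succ_self e) (hdvd1 N q M e hN' he) (hdvd2 N q M e hN')
  have e1 : inclL0 A (hleD N q) (_root_.Fermat.Agent.S36.NU.H23.piE A q N) = ((q : ℕ) : ↥(L0 A (N * q))) := by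
    show inclL0 A (hleD N q) ((q : ℕ) : ↥(L0 A N)) = _
    exact map_natCast (inclL0 A (hleD N q)) q
  have e2 : Nat.totient (q ^ min e (e + 1 - e)) = q - 1 := by
    have h1 : min e (e + 1 - e) = 1 := by omega
    rw [h1, pow_one, Nat.totient_prime hq]
  rw [e1, h, e2]
  rfl

/-! ### Degrees -/

include hN hq in
theorem q_dvd_N (he : 1 ≤ e) : q ∣ N := by
  rw [hN]
  exact Dvd.dvd.mul_left (dvd_pow_self q (by omega)) M

theorem finite_L0_D :
    @Module.Finite ↥(L0 A N) ↥(L0 A (N * q)) _ _ (algL0 A (hleD N q)).toModule :=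
  Fermat.Agent.S45.NUE.H41.finite_L0_of_le A N (N * q) (hleD N q)

include hN hq in
/-- **`[L0 (N q) : L0 N] = q`**. -/
theorem finrank_L0_D (he : 1 ≤ e) :
    @Module.finrank ↥(L0 A N) ↥(L0 A (N * q)) _ _ (algL0 A (hleD N q)).toModule = q :=
  Fermat.Agent.S45.NUE.H41.finrank_L0_step A q N hq (q_dvd_N N q M e hN hq he) (hleD N q)

/-! ### The two valuations are incomparable -/

/-- The `q`-expansion of `π_e`. -/
theorem coe_piMid (he : 1 ≤ e) :
    (((piMid A N q M e hN' he : ↥(L0 A (N * q))) : FN (N * q)) : LaurentSeries Kbar)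
      = qExpand Kbar (q ^ (e + min e (e + 1 - e))) jBar
        - qExpand Kbar (q ^ (e - min e (e + 1 - e))) jBar := by
  show ((Fermat.Agent.S45.NUE.H73.piE (N * q) q (e + 1) e (hdvd1 N q M e hN' he)
    (hdvd2 N q M e hN') : FN (N * q)) : LaurentSeries Kbar) = _
  rw [Fermat.Agent.S45.NUE.H73.piE, AddSubgroupClass.coe_sub, coe_jdF, coe_jdF]

theorem piMid_mem_top (he : 1 ≤ e) : piMid A N q M e hN' he ∈ VE0 A (N * q) := by
  rw [mem_VE0_iff, coe_piMid]
  exact sub_mem (Fermat.Agent.S45.NUE.H17.qExpand_jBar_mem A _)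
    (Fermat.Agent.S45.NUE.H17.qExpand_jBar_mem A _)

/-- The reduction of `π_e` at the cusp `∞`: `j~ (s^(q^(e+1))) - j~ (s^(q^(e-1)))`. -/
theorem stop_piMid (he : 1 ≤ e) :
    _root_.Fermat.Agent.S36.NU.H23.sE A (N * q) ⟨piMid A N q M e hN' he, piMid_mem_top A N q M e hN' he⟩
      = qExpand (kV A) (q ^ (e + min e (e + 1 - e))) (jqModC (kV A))
        - qExpand (kV A) (q ^ (e - min e (e + 1 - e))) (jqModC (kV A)) := by
  rw [_root_.Fermat.Agent.S36.NU.H23.sE_mk]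
  have h1 := Fermat.Agent.S45.NUE.H17.qExpand_jBar_mem A (q ^ (e + min e (e + 1 - e)))
  have h2 := Fermat.Agent.S45.NUE.H17.qExpand_jBar_mem A (q ^ (e - min e (e + 1 - e)))
  have e1 : (⟨(((piMid A N q M e hN' he : ↥(L0 A (N * q))) : FN (N * q)) :
      LaurentSeries Kbar), piMid_mem_top A N q M e hN' he⟩ : gaussRingV A)
      = ⟨_, h1⟩ - ⟨_, h2⟩ := Subtype.ext (coe_piMid A N q M e hN' he)
  rw [e1, map_sub, Fermat.Agent.S45.NUE.H17.gaussRedV_qExpand_jBar,
    Fermat.Agent.S45.NUE.H17.gaussRedV_qExpand_jBar]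

include hq in
theorem stop_piMid_ne_zero (he : 1 ≤ e) :
    _root_.Fermat.Agent.S36.NU.H23.sE A (N * q) ⟨piMid A N q M e hN' he, piMid_mem_top A N q M e hN' he⟩ ≠ 0 := by
  rw [stop_piMid]
  intro h0
  have h1 := congrArg HahnSeries.order (sub_eq_zero.mp h0)
  have o1 : (qExpand (kV A) (q ^ (e + min e (e + 1 - e))) (jqModC (kV A))).order
      = -((q ^ (e + min e (e + 1 - e)) : ℕ) : ℤ) :=
    Fermat.Agent.RED.H73.JL_order (kV A) (q ^ (e + min e (e + 1 - e)))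
  have o2 : (qExpand (kV A) (q ^ (e - min e (e + 1 - e))) (jqModC (kV A))).order
      = -((q ^ (e - min e (e + 1 - e)) : ℕ) : ℤ) :=
    Fermat.Agent.RED.H73.JL_order (kV A) (q ^ (e - min e (e + 1 - e)))
  rw [o1, o2] at h1
  have h2 : q ^ (e + min e (e + 1 - e)) = q ^ (e - min e (e + 1 - e)) := by
    exact_mod_cast neg_injective h1
  have h3 := Nat.pow_right_injective hq.two_le h2
  omega

include hq in
/-- `π_e` is a unit at the cusp `∞`. -/
theorem val_top_piMid (he : 1 ≤ e) :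
    (VE0 A (N * q)).valuation (piMid A N q M e hN' he) = 1 := by
  have hu : IsUnit (⟨piMid A N q M e hN' he, piMid_mem_top A N q M e hN' he⟩ :
      ↥(VE0 A (N * q))) := by
    by_contra hnu
    exact stop_piMid_ne_zero A N q M e hN' hq he (_root_.Fermat.Agent.S36.NU.H23.sE_eq_zero_of_not_isUnit A (N * q) _ hnu)
  exact (ValuationSubring.valuation_eq_one_iff (VE0 A (N * q)) _).1 hu

/-- `V_(e+1) ⊄ V_e` on the inertia-fixed functions of level `N q`. -/
theorem not_le_top_mid (hA : A.LiesOverPrime q) (he : 1 ≤ e) :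
    ¬ VE0 A (N * q) ≤ Vmid A N q M e B' k' hN' hB' hq := by
  intro hle
  have h1 : (piMid A N q M e hN' he)⁻¹ ∈ VE0 A (N * q) := by
    rw [← ValuationSubring.valuation_le_one_iff, map_inv₀, val_top_piMid A N q M e hN' hq he,
      inv_one]
  have h2 := hle h1
  rw [← ValuationSubring.valuation_le_one_iff, map_inv₀] at h2
  have h3 := val_piMid_lt_one A N q M e B' k' hN' hB' hq hA he
  have h0 : (Vmid A N q M e B' k' hN' hB' hq).valuation (piMid A N q M e hN' he) ≠ 0 := by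
    intro h0
    rw [h0, inv_zero] at h2
    have h4 := hramMid A N q M e B' k' hN' hB' hq hA he
    rw [h0, zero_pow (Nat.sub_pos_of_lt hq.one_lt).ne'] at h4
    have h5 : inclL0 A (hleD N q) (_root_.Fermat.Agent.S36.NU.H23.piE A q N) ≠ 0 := by
      rw [Ne, map_eq_zero]
      exact piE_ne_zero A q N hq
    exact (Valuation.ne_zero_iff _).2 h5 h4
  have h4 := (inv_le_one₀ (zero_lt_iff.2 h0)).1 h2
  exact absurd h3 (not_lt.2 h4)

/-- `V_e ⊄ V_(e+1)` on the inertia-fixed functions of level `N q`. -/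
theorem not_le_mid_top (hA : A.LiesOverPrime q) (he : 1 ≤ e) :
    ¬ Vmid A N q M e B' k' hN' hB' hq ≤ VE0 A (N * q) := by
  intro hle
  set π := piMid A N q M e hN' he with hπ
  set Q : ↥(L0 A (N * q)) := _root_.Fermat.Agent.S36.NU.H23.piE A q (N * q) with hQ
  have hQ0 : Q ≠ 0 := piE_ne_zero A q (N * q) hq
  have hram := hramMid A N q M e B' k' hN' hB' hq hA he
  have e1 : inclL0 A (hleD N q) (_root_.Fermat.Agent.S36.NU.H23.piE A q N) = Q := by
    show inclL0 A (hleD N q) ((q : ℕ) : ↥(L0 A N)) = ((q : ℕ) : ↥(L0 A (N * q)))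
    exact map_natCast (inclL0 A (hleD N q)) q
  rw [e1] at hram
  have hvQ0 : (Vmid A N q M e B' k' hN' hB' hq).valuation Q ≠ 0 :=
    (Valuation.ne_zero_iff _).2 hQ0
  -- `x = π ^ (q - 1) / Q` is a unit of `Vmid` and not in `VE0 A (N q)`
  have hx : π ^ (q - 1) * Q⁻¹ ∈ Vmid A N q M e B' k' hN' hB' hq := by
    rw [← ValuationSubring.valuation_le_one_iff, map_mul, map_pow, map_inv₀, ← hram,
      mul_inv_cancel₀ hvQ0]
  have h2 := hle hx
  rw [← ValuationSubring.valuation_le_one_iff, map_mul, map_pow, map_inv₀,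
    val_top_piMid A N q M e hN' hq he, one_pow, one_mul] at h2
  have h3 : (VE0 A (N * q)).valuation Q < 1 := val_piE_lt_one A q (N * q) hA
  have h0 : (VE0 A (N * q)).valuation Q ≠ 0 := (Valuation.ne_zero_iff _).2 hQ0
  have h4 := (inv_le_one₀ (zero_lt_iff.2 h0)).1 h2
  exact absurd h3 (not_lt.2 h4)

/-! ### The preliminary `NRData`, with the residue field `K_mid` of `Vmid` -/

/-- The `NRData` of `L0 (N q) / L0 N` above the Gauss valuation, with the residue field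
`K_mid`. -/
def nrDpre [NeZero M] (he : 1 ≤ e) (hqM : ¬ q ∣ M) (hA : A.LiesOverPrime q)
    (h01 : ¬ VE0 A (N * q) ≤ Vmid A N q M e B' k' hN' hB' hq)
    (h10 : ¬ Vmid A N q M e B' k' hN' hB' hq ≤ VE0 A (N * q)) :
    @Fermat.Agent.BAD.H42.NRData ↥(L0 A N) ↥(L0 A (N * q)) (FM A N) _ _ _
      (algL0 A (hleD N q)) (Fin 2) (kap2 (FM A N) ↥(Kmid A N q M e B' k' hN' hB' hq)) _
      (kap2Alg (FM A N) ↥(Kmid A N q M e B' k' hN' hB' hq)
        (algKmid A N q M e B k B' k' hN hB hN' hB' hq he hqM hA)) :=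
  letI := algL0 A (hleD N q)
  nr2 (algKmid A N q M e B k B' k' hN hB hN' hB' hq he hqM hA) (VE0 A N) (rE A N)
    (VE0 A (N * q)) (Vmid A N q M e B' k' hN' hB' hq) (rtop A N q M e hN hN' hq hqM hA)
    (rmidK A N q M e B' k' hN' hB' hq)
    (_root_.Fermat.Agent.S36.NU.H23.piE A q N) (piMid A N q M e hN' he) (q - 1)
    (piE_ne_zero A q N hq) (piE_mem A q N hA) (rE_piE A q N hA)
    (hE_mod A q N hq hA)
    (fun a ha => hVEtop A N q a ha)
    (fun a ha => hVEmid A N q M e B k B' k' hN hB hN' hB' hq he a ha)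
    (rE_eq_zero_of_not_isUnit A N)
    (rtop_surjective A N q M e B k hN hB hN' hq hqM hA)
    (rmidK_surjective A N q M e B' k' hN' hB' hq)
    (rtop_eq_zero_of_not_isUnit A N q M e hN hN' hq hqM hA)
    (rmidK_eq_zero_of_not_isUnit A N q M e B' k' hN' hB' hq)
    (fun a ha => rtop_incl A N q M e hN hN' hq hqM hA a ha)
    (fun a ha => rmidK_incl A N q M e B k B' k' hN hB hN' hB' hq he hqM hA a ha)
    h01 h10
    (isArch_top A N q hq hA) (isArch_mid A N q M e B' k' hN' hB' hq hA)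
    (val_piMid_lt_one A N q M e B' k' hN' hB' hq hA he) (q_sub_one_pos q hq)
    (hramMid A N q M e B' k' hN' hB' hq hA he)

include hN hB in
/-- **RES_e over level `N`**: the reductions at `V_e` of the inertia-fixed functions of level
`N q` lie in the residue field of level `N` (fundamental inequality: `1 + (q - 1) f ≤ q`). -/
theorem smid_mem [NeZero M] (he : 1 ≤ e) (hqM : ¬ q ∣ M) (hA : A.LiesOverPrime q)
    (h01 : ¬ VE0 A (N * q) ≤ Vmid A N q M e B' k' hN' hB' hq)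
    (h10 : ¬ Vmid A N q M e B' k' hN' hB' hq ≤ VE0 A (N * q))
    (x : ↥(Vmid A N q M e B' k' hN' hB' hq)) :
    smid A N q M e B' k' hN' hB' hq x
      ∈ redField A (modularFunctionFieldBar N) (hScM A N) := by
  letI := algL0 A (hleD N q)
  haveI : Module.Finite ↥(L0 A N) ↥(L0 A (N * q)) := finite_L0_D A N q
  have hs := surjective_K1_two (algKmid A N q M e B k B' k' hN hB hN' hB' hq he hqM hA)
    (nrDpre A N q M e B k B' k' hN hB hN' hB' hq he hqM hA h01 h10) q (q - 1)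
    (finrank_L0_D A N q M e hN hq he) ⟨rfl, rfl⟩
    (q_sub_one_pos q hq) (by have := hq.one_lt; omega)
  obtain ⟨c, hc⟩ := hs (rmidK A N q M e B' k' hN' hB' hq x)
  have h1 : (c : LaurentSeries (kV A)) = smid A N q M e B' k' hN' hB' hq x :=
    congrArg (fun z : ↥(Kmid A N q M e B' k' hN' hB' hq) => (z : LaurentSeries (kV A))) hc
  rw [← h1]
  exact c.2

/-- The residue map of `Vmid`, into the residue field of level `N`. -/
def rmid [NeZero M] (he : 1 ≤ e) (hqM : ¬ q ∣ M) (hA : A.LiesOverPrime q)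
    (h01 : ¬ VE0 A (N * q) ≤ Vmid A N q M e B' k' hN' hB' hq)
    (h10 : ¬ Vmid A N q M e B' k' hN' hB' hq ≤ VE0 A (N * q)) :
    ↥(Vmid A N q M e B' k' hN' hB' hq) →+* FM A N where
  toFun x := ⟨smid A N q M e B' k' hN' hB' hq x,
    smid_mem A N q M e B k B' k' hN hB hN' hB' hq he hqM hA h01 h10 x⟩
  map_one' := Subtype.ext (map_one (smid A N q M e B' k' hN' hB' hq))
  map_mul' x y := Subtype.ext (map_mul (smid A N q M e B' k' hN' hB' hq) x y)
  map_zero' := Subtype.ext (map_zero (smid A N q M e B' k' hN' hB' hq))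
  map_add' x y := Subtype.ext (map_add (smid A N q M e B' k' hN' hB' hq) x y)

theorem coe_rmid [NeZero M] (he : 1 ≤ e) (hqM : ¬ q ∣ M) (hA : A.LiesOverPrime q)
    (h01 : ¬ VE0 A (N * q) ≤ Vmid A N q M e B' k' hN' hB' hq)
    (h10 : ¬ Vmid A N q M e B' k' hN' hB' hq ≤ VE0 A (N * q))
    (x : ↥(Vmid A N q M e B' k' hN' hB' hq)) :
    ((rmid A N q M e B k B' k' hN hB hN' hB' hq he hqM hA h01 h10 x : FM A N) :
      LaurentSeries (kV A)) = smid A N q M e B' k' hN' hB' hq x := rfl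

theorem rmid_eq_zero_of_not_isUnit [NeZero M] (he : 1 ≤ e) (hqM : ¬ q ∣ M)
    (hA : A.LiesOverPrime q)
    (h01 : ¬ VE0 A (N * q) ≤ Vmid A N q M e B' k' hN' hB' hq)
    (h10 : ¬ Vmid A N q M e B' k' hN' hB' hq ≤ VE0 A (N * q))
    (x : ↥(Vmid A N q M e B' k' hN' hB' hq)) (hx : ¬ IsUnit x) :
    rmid A N q M e B k B' k' hN hB hN' hB' hq he hqM hA h01 h10 x = 0 := by
  apply Subtype.ext
  rw [coe_rmid, Fermat.Agent.S45.NUE.H23.sE_eq_zero_of_not_isUnit A (N * q) q M (e + 1) B' k'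
    hN' hB' hq e x hx]
  rfl

theorem rmid_incl [NeZero M] (he : 1 ≤ e) (hqM : ¬ q ∣ M) (hA : A.LiesOverPrime q)
    (h01 : ¬ VE0 A (N * q) ≤ Vmid A N q M e B' k' hN' hB' hq)
    (h10 : ¬ Vmid A N q M e B' k' hN' hB' hq ≤ VE0 A (N * q))
    (a : ↥(VE0 A N))
    (h : inclL0 A (hleD N q) (a : ↥(L0 A N)) ∈ Vmid A N q M e B' k' hN' hB' hq) :
    rmid A N q M e B k B' k' hN hB hN' hB' hq he hqM hA h01 h10 ⟨_, h⟩ = rE A N a := by
  apply Subtype.ext
  rw [coe_rmid, coe_rE]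
  exact smid_incl A N q M e B k B' k' hN hB hN' hB' hq he a h

theorem rmid_surjective [NeZero M] (he : 1 ≤ e) (hqM : ¬ q ∣ M) (hA : A.LiesOverPrime q)
    (h01 : ¬ VE0 A (N * q) ≤ Vmid A N q M e B' k' hN' hB' hq)
    (h10 : ¬ Vmid A N q M e B' k' hN' hB' hq ≤ VE0 A (N * q)) :
    Function.Surjective (rmid A N q M e B k B' k' hN hB hN' hB' hq he hqM hA h01 h10) := by
  intro y
  obtain ⟨a, rfl⟩ := rElow_surjective A N q M e B k hN hB hq hqM hA y
  exact ⟨⟨_, hVEmid A N q M e B k B' k' hN hB hN' hB' hq he a a.2⟩,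
    rmid_incl A N q M e B k B' k' hN hB hN' hB' hq he hqM hA h01 h10 a _⟩

/-! ### The `NRData` of `L0 (N q) / L0 N` above the Gauss valuation -/

/-- The structure maps of the residue fields: the identity, twice. -/
@[reducible] def algD : ∀ i, Algebra (FM A N) (kap2 (FM A N) (FM A N) i) :=
  kap2Alg (FM A N) (FM A N) (Algebra.id (FM A N))

/-- **N3**: the `NRData` of `L0 (N q) / L0 N` (along `α`) above the Gauss valuation of level
`N`: `VE = VE0 A N`, `ϖ = q`; `V = (VE0 A (N q), V_e)`, `red = (rtop, rmid)`, `e = (1, q - 1)`,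
`π = (q, π_e)`; all residue fields are `FM A N`. -/
def nrD [NeZero M] (he : 1 ≤ e) (hqM : ¬ q ∣ M) (hA : A.LiesOverPrime q)
    (h01 : ¬ VE0 A (N * q) ≤ Vmid A N q M e B' k' hN' hB' hq)
    (h10 : ¬ Vmid A N q M e B' k' hN' hB' hq ≤ VE0 A (N * q)) :
    @Fermat.Agent.BAD.H42.NRData ↥(L0 A N) ↥(L0 A (N * q)) (FM A N) _ _ _
      (algL0 A (hleD N q)) (Fin 2) (kap2 (FM A N) (FM A N)) _ (algD A N) :=
  letI := algL0 A (hleD N q)
  nr2 (Algebra.id (FM A N)) (VE0 A N) (rE A N)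
    (VE0 A (N * q)) (Vmid A N q M e B' k' hN' hB' hq) (rtop A N q M e hN hN' hq hqM hA)
    (rmid A N q M e B k B' k' hN hB hN' hB' hq he hqM hA h01 h10)
    (_root_.Fermat.Agent.S36.NU.H23.piE A q N) (piMid A N q M e hN' he) (q - 1)
    (piE_ne_zero A q N hq) (piE_mem A q N hA) (rE_piE A q N hA)
    (hE_mod A q N hq hA)
    (fun a ha => hVEtop A N q a ha)
    (fun a ha => hVEmid A N q M e B k B' k' hN hB hN' hB' hq he a ha)
    (rE_eq_zero_of_not_isUnit A N)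
    (rtop_surjective A N q M e B k hN hB hN' hq hqM hA)
    (rmid_surjective A N q M e B k B' k' hN hB hN' hB' hq he hqM hA h01 h10)
    (rtop_eq_zero_of_not_isUnit A N q M e hN hN' hq hqM hA)
    (rmid_eq_zero_of_not_isUnit A N q M e B k B' k' hN hB hN' hB' hq he hqM hA h01 h10)
    (fun a ha => rtop_incl A N q M e hN hN' hq hqM hA a ha)
    (fun a ha => rmid_incl A N q M e B k B' k' hN hB hN' hB' hq he hqM hA h01 h10 a ha)
    h01 h10
    (isArch_top A N q hq hA) (isArch_mid A N q M e B' k' hN' hB' hq hA)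
    (val_piMid_lt_one A N q M e B' k' hN' hB' hq hA he) (q_sub_one_pos q hq)
    (hramMid A N q M e B' k' hN' hB' hq hA he)

/-- **`∑ e f = [L0 (N q) : L0 N] = q`**. -/
theorem nrD_hdeg [NeZero M] (he : 1 ≤ e) (hqM : ¬ q ∣ M) (hA : A.LiesOverPrime q)
    (h01 : ¬ VE0 A (N * q) ≤ Vmid A N q M e B' k' hN' hB' hq)
    (h10 : ¬ Vmid A N q M e B' k' hN' hB' hq ≤ VE0 A (N * q)) :
    ∑ i, @Fermat.Agent.BAD.H42.NRData.e ↥(L0 A N) ↥(L0 A (N * q)) (FM A N) _ _ _
          (algL0 A (hleD N q)) (Fin 2) (kap2 (FM A N) (FM A N)) _ (algD A N)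
          (nrD A N q M e B k B' k' hN hB hN' hB' hq he hqM hA h01 h10) i
        * @Module.finrank (FM A N) (kap2 (FM A N) (FM A N) i) _ _ (algD A N i).toModule
      = @Module.finrank ↥(L0 A N) ↥(L0 A (N * q)) _ _ (algL0 A (hleD N q)).toModule := by
  letI := algL0 A (hleD N q)
  haveI : Module.Finite ↥(L0 A N) ↥(L0 A (N * q)) := finite_L0_D A N q
  exact hdeg_two (Algebra.id (FM A N))
    (nrD A N q M e B k B' k' hN hB hN' hB' hq he hqM hA h01 h10) q (q - 1)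
    (finrank_L0_D A N q M e hN hq he) ⟨rfl, rfl⟩ (q_sub_one_pos q hq)
    (by have := hq.one_lt; omega)

/-! ### NORM-RED along `α` above the cusp `∞` -/

include hN hB in
/-- **NORM-RED along `α` above the Gauss valuation of level `N`**, in `k((s))`: for an
inertia-fixed function `h` of level `N q` in `V_(e+1) ∩ V_e`, the norm `N h` to `L0 N` is
Gauss-integral and `red (N h) = red_(e+1) h * red_e h ^ (q - 1)`. -/
theorem normDouble [NeZero M] (he : 1 ≤ e) (hqM : ¬ q ∣ M) (hA : A.LiesOverPrime q)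
    (h01 : ¬ VE0 A (N * q) ≤ Vmid A N q M e B' k' hN' hB' hq)
    (h10 : ¬ Vmid A N q M e B' k' hN' hB' hq ≤ VE0 A (N * q))
    (h : ↥(L0 A (N * q))) (htop : h ∈ VE0 A (N * q))
    (hmid : h ∈ Vmid A N q M e B' k' hN' hB' hq) :
    ∃ δ : ↥(VE0 A N),
      @Algebra.norm ↥(L0 A N) ↥(L0 A (N * q)) _ _ (algL0 A (hleD N q)) h
        = (δ : ↥(L0 A N)) ∧
      _root_.Fermat.Agent.S36.NU.H23.sE A N δ = _root_.Fermat.Agent.S36.NU.H23.sE A (N * q) ⟨h, htop⟩
        * smid A N q M e B' k' hN' hB' hq ⟨h, hmid⟩ ^ (q - 1) := by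
  letI := algL0 A (hleD N q)
  letI := algD A N
  haveI : Module.Finite ↥(L0 A N) ↥(L0 A (N * q)) := finite_L0_D A N q
  haveI : ∀ i, Module.Finite (FM A N) (kap2 (FM A N) (FM A N) i) :=
    fun i => (nrD A N q M e B k B' k' hN hB hN' hB' hq he hqM hA h01 h10).finite_res i
  have hh : ∀ i, h ∈ (nrD A N q M e B k B' k' hN hB hN' hB' hq he hqM hA h01 h10).V i := by
    intro i
    fin_cases i
    · exact htop
    · exact hmid
  obtain ⟨δ, h1, h2⟩ := (nrD A N q M e B k B' k' hN hB hN' hB' hq he hqM hA h01 h10).normRed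
    (nrD_hdeg A N q M e B k B' k' hN hB hN' hB' hq he hqM hA h01 h10) h hh
  refine ⟨δ, h1, ?_⟩
  rw [Fin.prod_univ_two] at h2
  have e0 : Algebra.norm (FM A N)
      ((nrD A N q M e B k B' k' hN hB hN' hB' hq he hqM hA h01 h10).red 0 ⟨h, hh 0⟩)
        = rtop A N q M e hN hN' hq hqM hA ⟨h, htop⟩ :=
    congrArg (fun f : FM A N →* FM A N => f (rtop A N q M e hN hN' hq hqM hA ⟨h, htop⟩))
      (Algebra.norm_self (FM A N))
  have e1 : Algebra.norm (FM A N)
      ((nrD A N q M e B k B' k' hN hB hN' hB' hq he hqM hA h01 h10).red 1 ⟨h, hh 1⟩)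
        = rmid A N q M e B k B' k' hN hB hN' hB' hq he hqM hA h01 h10 ⟨h, hmid⟩ :=
    congrArg (fun f : FM A N →* FM A N =>
      f (rmid A N q M e B k B' k' hN hB hN' hB' hq he hqM hA h01 h10 ⟨h, hmid⟩))
      (Algebra.norm_self (FM A N))
  rw [e0, e1] at h2
  have h3 : rE A N δ
      = rtop A N q M e hN hN' hq hqM hA ⟨h, htop⟩ ^ 1
        * rmid A N q M e B k B' k' hN hB hN' hB' hq he hqM hA h01 h10 ⟨h, hmid⟩ ^ (q - 1) :=
    h2
  rw [pow_one] at h3
  have h4 := congrArg (fun z : FM A N => (z : LaurentSeries (kV A))) h3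
  exact h4

/-! ### Final forms -/

include hN hB in
/-- **NORM-RED along `α` above the cusp `∞`** (N3), unconditional. -/
theorem normDouble_main [NeZero M] (he : 1 ≤ e) (hqM : ¬ q ∣ M) (hA : A.LiesOverPrime q)
    (h : ↥(L0 A (N * q))) (htop : h ∈ VE0 A (N * q))
    (hmid : h ∈ Vmid A N q M e B' k' hN' hB' hq) :
    ∃ δ : ↥(VE0 A N),
      @Algebra.norm ↥(L0 A N) ↥(L0 A (N * q)) _ _ (algL0 A (hleD N q)) h
        = (δ : ↥(L0 A N)) ∧
      _root_.Fermat.Agent.S36.NU.H23.sE A N δ = _root_.Fermat.Agent.S36.NU.H23.sE A (N * q) ⟨h, htop⟩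
        * smid A N q M e B' k' hN' hB' hq ⟨h, hmid⟩ ^ (q - 1) :=
  normDouble A N q M e B k B' k' hN hB hN' hB' hq he hqM hA
    (not_le_top_mid A N q M e B' k' hN' hB' hq hA he)
    (not_le_mid_top A N q M e B' k' hN' hB' hq hA he) h htop hmid

include hN hB in
/-- **RES_e**: the reductions at the cusp `1/(q^e M)` of the inertia-fixed functions of level
`N q = M q^(e+1)` lie in `k(X₀(M))`. -/
theorem smid_mem_fullC [NeZero M] (he : 1 ≤ e) (hqM : ¬ q ∣ M) (hA : A.LiesOverPrime q)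
    (x : ↥(Vmid A N q M e B' k' hN' hB' hq)) :
    smid A N q M e B' k' hN' hB' hq x ∈ modularFunctionFieldFullC (kV A) M := by
  rw [← FMlow_eq A N q M e hN hq hqM hA]
  exact smid_mem A N q M e B k B' k' hN hB hN' hB' hq he hqM hA
    (not_le_top_mid A N q M e B' k' hN' hB' hq hA he)
    (not_le_mid_top A N q M e B' k' hN' hB' hq hA he) x

/-- The inclusion `L0 N → L0 (N q)` is `α` (helper26's map). -/
theorem inclL0_eq_mapL0D :
    inclL0 A (hleD N q) = Fermat.Agent.S36.NU.H26.mapL0 A (heckeAlphaBar Kbar N q)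
      (Fermat.Agent.S36.NU.H26.arithEquivariant_alpha N q) :=
  RingHom.ext fun a => Subtype.ext (coe_inclL0_alphaD A N q a)

/-- helper23's structure (inclusion) is helper26's structure along `α`. -/
theorem algL0_eq_alongD :
    algL0 A (hleD N q) = Fermat.Agent.S36.NU.H26.algL0Along A (heckeAlphaBar Kbar N q)
      (Fermat.Agent.S36.NU.H26.arithEquivariant_alpha N q) :=
  congrArg RingHom.toAlgebra (inclL0_eq_mapL0D A N q)

theorem norm_congr_algD (a b : Algebra ↥(L0 A N) ↥(L0 A (N * q))) (hab : a = b)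
    (h : ↥(L0 A (N * q))) :
    @Algebra.norm ↥(L0 A N) ↥(L0 A (N * q)) _ _ a h
      = @Algebra.norm ↥(L0 A N) ↥(L0 A (N * q)) _ _ b h := by
  subst hab; rfl

/-- The norm along `α` of an inertia-fixed function, for helper23's structure. -/
theorem norm_algL0_D (g : ↥(L0 A (N * q))) :
    Fermat.Agent.Lib.HeckeComm.normAlongHom (heckeAlphaBar Kbar N q).toRingHom
        (g : FN (N * q))
      = ((@Algebra.norm ↥(L0 A N) ↥(L0 A (N * q)) _ _ (algL0 A (hleD N q)) g :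
          ↥(L0 A N)) : FN N) := by
  rw [norm_congr_algD A N q _ _ (algL0_eq_alongD A N q) g]
  exact Fermat.Agent.S36.NU.H26.norm_L0_along A (heckeAlphaBar Kbar N q)
    (Fermat.Agent.S36.NU.H26.arithEquivariant_alpha N q)
    (Fermat.Agent.S36.H44.alpha_finite N q) g

include hN hB in
/-- **NORM-RED along `α` above the cusp `∞`** (N3), for `normAlongHom α`. -/
theorem normDouble_N [NeZero M] (he : 1 ≤ e) (hqM : ¬ q ∣ M) (hA : A.LiesOverPrime q)
    (h : ↥(L0 A (N * q))) (htop : h ∈ VE0 A (N * q))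
    (hmid : h ∈ Vmid A N q M e B' k' hN' hB' hq) :
    ∃ δ : ↥(VE0 A N),
      Fermat.Agent.Lib.HeckeComm.normAlongHom (heckeAlphaBar Kbar N q).toRingHom
        (h : FN (N * q)) = ((δ : ↥(L0 A N)) : FN N) ∧
      _root_.Fermat.Agent.S36.NU.H23.sE A N δ = _root_.Fermat.Agent.S36.NU.H23.sE A (N * q) ⟨h, htop⟩
        * smid A N q M e B' k' hN' hB' hq ⟨h, hmid⟩ ^ (q - 1) := by
  obtain ⟨δ, h1, h2⟩ := normDouble_main A N q M e B k B' k' hN hB hN' hB' hq he hqM hA h htop hmid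
  exact ⟨δ, by rw [norm_algL0_D A N q h, h1], h2⟩

include hN hB in
/-- **NORM-RED along `α` above the cusp `∞`** (N3), in helper23's names: for `h` inertia-fixed of
level `N q = M q^(e+1)`, integral for `VE (e+1)` and `VE e`, the norm `N_α h` is integral for
`VE e` of level `N` and `sE e (N_α h) = sE (e+1) h * sE e h ^ (q - 1)`. -/
theorem normDouble_E [NeZero M] (he : 1 ≤ e) (hqM : ¬ q ∣ M) (hA : A.LiesOverPrime q)
    (h : ↥(L0 A (N * q)))
    (htop : h ∈ VE A (N * q) q M (e + 1) B' k' hN' hB' hq (e + 1))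
    (hmid : h ∈ VE A (N * q) q M (e + 1) B' k' hN' hB' hq e) :
    ∃ δ : ↥(VE A N q M e B k hN hB hq e),
      Fermat.Agent.Lib.HeckeComm.normAlongHom (heckeAlphaBar Kbar N q).toRingHom
        (h : FN (N * q)) = ((δ : ↥(L0 A N)) : FN N) ∧
      Fermat.Agent.S45.NUE.H23.sE A N q M e B k hN hB hq e δ
        = Fermat.Agent.S45.NUE.H23.sE A (N * q) q M (e + 1) B' k' hN' hB' hq (e + 1) ⟨h, htop⟩
          * Fermat.Agent.S45.NUE.H23.sE A (N * q) q M (e + 1) B' k' hN' hB' hq e ⟨h, hmid⟩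
            ^ (q - 1) := by
  have htop0 : h ∈ VE0 A (N * q) := by
    rw [← VElow_eq A (N * q) q M (e + 1) B' k' hN' hB' hq]; exact htop
  obtain ⟨δ, h1, h2⟩ := normDouble_N A N q M e B k B' k' hN hB hN' hB' hq he hqM hA h htop0 hmid
  have hδ : (δ : ↥(L0 A N)) ∈ VE A N q M e B k hN hB hq e := by
    rw [VElow_eq A N q M e B k hN hB hq]; exact δ.2
  refine ⟨⟨δ, hδ⟩, h1, ?_⟩
  rw [sElow_eq A N q M e B k hN hB hq (δ : ↥(L0 A N)) hδ δ.2,
    sElow_eq A (N * q) q M (e + 1) B' k' hN' hB' hq h htop htop0]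
  exact h2

end Double

end Fermat.Agent.S45.NUE.H5

end
end
-- ==== END Fermat.Agent.S45.NUE.H5_NormDouble

-- ==== BEGIN Fermat.Agent.S45.NUE.H73_CuspDefsE
section

/-!
# S45 / NU_e, leaf E-CUSP (helper73): the elements of the chart at infinity

Level `N = M q^e`, `u = 1 / j`, `EwE a` helper82's witness of the component `a`,
`π_a = j (q^(a+m) τ) - j (q^(a-m) τ)`, `m = min a (e - a)`, `φ = φ(q^m)`.

* `uooE = 1 / j`;
* `KooE q e a` : `q - 1` (`a = 0`), `q^(e-1) (q-1)` (`a = e`), `2 q^(a-1) (q-1)` (`0 < a < e`);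
* `EooE a` : `(EwE 0)^q · u^(q-1)` (`a = 0`), `EwE a · u^(KooE a)` (`a ≠ 0`);
* `xooE a = π_a · u^(q^(a-m)) · (EooE a)^(q^m)`   (the local equation of the component `a`);
* `fooE a = (π_a · u^(q^(a-m)))^φ / q`;
* `xooE_pow : xooE a ^ φ = q · (fooE a · (EooE a)^(q^m φ))`.
-/

set_option autoImplicit false
set_option synthInstance.maxHeartbeats 400000
set_option maxHeartbeats 1000000
set_option linter.unusedSectionVars false
set_option linter.unusedVariables false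
set_option linter.style.haveILetI false

noncomputable section

namespace Fermat.Agent.S45.NUE.H73

open Fermat.Agent.S24 Fermat.Agent.BAD.H88 ModularCurve
open Fermat.Agent.S36.NU.H88 Fermat.Agent.S36.NU.H23
open Fermat.Agent.S45.NUE.H82 (EwE EwF coe_EwE)

section Defs

variable (A : ValuationSubring Kbar) (N q : ℕ) [NeZero N] [NeZero q]

/-- `u = 1 / j`, the coordinate of the chart at infinity. -/
def uooE : ↥(L0 A N) := (j0 A N)⁻¹

theorem coe_uooE : ((uooE A N : ↥(L0 A N)) : FN N) = (jF N)⁻¹ := rfl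

theorem uooE_ne_zero : uooE A N ≠ 0 := inv_ne_zero (j0_ne_zero A N)

/-- The exponent of `u` in `EooE a`. -/
def KooE (e a : ℕ) : ℕ :=
  if a = 0 then q - 1 else if a = e then q ^ (e - 1) * (q - 1) else 2 * q ^ (a - 1) * (q - 1)

theorem KooE_zero (e : ℕ) : KooE q e 0 = q - 1 := by
  rw [KooE, if_pos rfl]

theorem KooE_top (e : ℕ) (he : e ≠ 0) : KooE q e e = q ^ (e - 1) * (q - 1) := by
  rw [KooE, if_neg he, if_pos rfl]

theorem KooE_mid (e a : ℕ) (ha0 : a ≠ 0) (hae : a ≠ e) :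
    KooE q e a = 2 * q ^ (a - 1) * (q - 1) := by
  rw [KooE, if_neg ha0, if_neg hae]

/-- **The witness of the component `a` in the chart at infinity.** -/
def EooE (e a : ℕ) : ↥(L0 A N) :=
  if a = 0 then EwE A N q e 0 ^ q * uooE A N ^ (q - 1)
  else EwE A N q e a * uooE A N ^ KooE q e a

theorem EooE_zero (e : ℕ) : EooE A N q e 0 = EwE A N q e 0 ^ q * uooE A N ^ (q - 1) := by
  rw [EooE, if_pos rfl]

theorem EooE_of_ne (e a : ℕ) (ha0 : a ≠ 0) :
    EooE A N q e a = EwE A N q e a * uooE A N ^ KooE q e a := by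
  rw [EooE, if_neg ha0]

theorem EooE_top (e : ℕ) (he : e ≠ 0) :
    EooE A N q e e = EwE A N q e e * uooE A N ^ (q ^ (e - 1) * (q - 1)) := by
  rw [EooE_of_ne A N q e e he, KooE_top q e he]

theorem EooE_mid (e a : ℕ) (ha0 : a ≠ 0) (hae : a ≠ e) :
    EooE A N q e a = EwE A N q e a * uooE A N ^ (2 * q ^ (a - 1) * (q - 1)) := by
  rw [EooE_of_ne A N q e a ha0, KooE_mid q e a ha0 hae]

theorem EooE_ne_zero (e a : ℕ) : EooE A N q e a ≠ 0 := by
  have h1 := Fermat.Agent.S45.NUE.H82.EwE_ne_zero A N q e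
  have h2 := uooE_ne_zero A N
  rw [EooE]
  split_ifs
  · exact mul_ne_zero (pow_ne_zero _ (h1 0)) (pow_ne_zero _ h2)
  · exact mul_ne_zero (h1 a) (pow_ne_zero _ h2)

variable (e : ℕ)

/-- **The local equation of the component `a`** at its cusps:
`x_a = π_a · u^(q^(a-m)) · (EooE a)^(q^m)`. -/
def xooE (a : ℕ) (h1 : q ^ (a + min a (e - a)) ∣ N) (h2 : q ^ (a - min a (e - a)) ∣ N) :
    ↥(L0 A N) :=
  piEo A N q e a h1 h2 * uooE A N ^ (q ^ (a - min a (e - a)))
    * EooE A N q e a ^ (q ^ min a (e - a))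

/-- `f_a = (π_a · u^(q^(a-m)))^φ / q`. -/
def fooE (a : ℕ) (h1 : q ^ (a + min a (e - a)) ∣ N) (h2 : q ^ (a - min a (e - a)) ∣ N) :
    ↥(L0 A N) :=
  (piEo A N q e a h1 h2 * uooE A N ^ (q ^ (a - min a (e - a))))
      ^ Nat.totient (q ^ min a (e - a))
    * (((q : ℕ) : ↥(L0 A N)))⁻¹

/-- **RAM**: `x_a ^ φ = q · (f_a · (EooE a)^(q^m φ))`. -/
theorem xooE_pow (a : ℕ) (h1 : q ^ (a + min a (e - a)) ∣ N)
    (h2 : q ^ (a - min a (e - a)) ∣ N) :
    xooE A N q e a h1 h2 ^ Nat.totient (q ^ min a (e - a))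
      = ((q : ℕ) : ↥(L0 A N)) * (fooE A N q e a h1 h2
          * EooE A N q e a ^ (q ^ min a (e - a) * Nat.totient (q ^ min a (e - a)))) := by
  have hq0 : ((q : ℕ) : ↥(L0 A N)) ≠ 0 := by
    intro h
    have h3 := congrArg (fun x : ↥(L0 A N) => (x : FN N)) h
    simp only [ZeroMemClass.coe_zero] at h3
    have h4 : (((q : ℕ) : ↥(L0 A N)) : FN N) = ((q : ℕ) : FN N) :=
      map_natCast (L0 A N).subtype q
    rw [h4] at h3
    exact (NeZero.ne q) (by exact_mod_cast h3)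
  rw [xooE, fooE, mul_pow, pow_mul]
  field_simp

end Defs

end Fermat.Agent.S45.NUE.H73

end
end
-- ==== END Fermat.Agent.S45.NUE.H73_CuspDefsE

-- ==== BEGIN Fermat.Agent.S45.NUE.H73_CuspIntE3
section

/-!
# S45 / NU_e, leaf E-CUSP, slice CUSP-INT_e (helper73), part 3: the witnesses are integral

Level `N = M q^e`.  With helper82's `epsN N q i = Δ(q^i τ)/Δ(q^(i+1) τ)`:

* `DcE_q1`, `cm_psi_epsN`, `cm_psi_jdF` : the expansions at the identity coset;
* `isIntegral_eps_top`  : `eps_e · j^(-q^(e-1)(q-1))` is integral over `ℚ̄[1/j]`;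
* `isIntegral_eps_zero` : `(q¹² / eps_1)^q · j^(-(q-1))` is integral over `ℚ̄[1/j]`;
* `isIntegral_eps_mid`  : `q¹² eps_a / eps_(a+1) · j^(-2 q^(a-1)(q-1))` is integral;
* `isIntegral_X`        : `j(q^i τ) (q¹² eps_a / eps_(a+1))^r · j^(-(q^(a-m) + r · 2 q^(a-1)(q-1)))`
  is integral, `r = q^m`, `i = a ± m`.
-/

set_option autoImplicit false
set_option linter.unusedSectionVars false
set_option linter.unusedVariables false
set_option synthInstance.maxHeartbeats 400000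
set_option maxHeartbeats 1000000
set_option linter.style.haveILetI false

open UpperHalfPlane ModularForm ModularCurve Function
open scoped MatrixGroups ModularForm Manifold

noncomputable section

namespace Fermat.Agent.S45.NUE.H73

open Fermat.Agent.S23.H22 (G0 Q toSL piPerm q1 E12)
open Fermat.Agent.S28 Fermat.Agent.S28.H30
open Fermat.Agent.S28.H76 (Xfam Xfam_q1 pexp_fam_q1 sym_of_families pexp_E12_q1_eq)
open Fermat.Agent.S24 (Kbar FN jF iotaC jdF)
open Fermat.Agent.S15.H30 (psi psi_apply psi_injective psi_jF)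
open Fermat.Agent.S36.NU.H82 (DeltaC DeltaC_ne_zero qExpand_DeltaC_ne_zero qExpand_hahnC UC UC_eq
  DeltaC_eq coeffMap_iotaC_coeffEmb coeffMap_qExp82)
open Fermat.Agent.S45.NUE.H82 (epsN coe_epsN UQ epsT epsT_eq cqN EwF EwF_zero EwF_top EwF_mid)

/-! ### The expansions at the identity coset -/

section Q1

variable (N : ℕ) [NeZero N]

/-- **`D_d` at the identity coset.** -/
theorem DcE_q1 (d : ℕ) [NeZero d] (hd : d ∣ N) :
    pexp N (fam N d DeltaMF (q1 : Q N))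
      = HahnSeries.C ((d : ℂ) ^ 11) * qExpand ℂ N (qExpand ℂ d DeltaC) := by
  rw [pexp_fam_q1 N hd DeltaMF, DeltaC_eq, map_mul, qExpand_hahnC]
  have e : ((12 : ℤ) - 1) = ((11 : ℕ) : ℤ) := by norm_num
  rw [e, zpow_natCast]
  rfl

theorem qqDelta_ne_zero (d : ℕ) [NeZero d] : qExpand ℂ N (qExpand ℂ d DeltaC) ≠ 0 := by
  intro h
  exact qExpand_DeltaC_ne_zero d (qExpand_injective N (by rw [h, map_zero]))

theorem hahnC_pow_ne_zero (d n : ℕ) [NeZero d] :
    (HahnSeries.C ((d : ℂ) ^ n) : LaurentSeries ℂ) ≠ 0 := by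
  rw [Ne, map_eq_zero]
  exact pow_ne_zero _ (Nat.cast_ne_zero.mpr (NeZero.ne d))

theorem DcE_q1_ne_zero (d : ℕ) [NeZero d] (hd : d ∣ N) :
    pexp N (fam N d DeltaMF (q1 : Q N)) ≠ 0 := by
  rw [DcE_q1 N d hd]
  exact mul_ne_zero (hahnC_pow_ne_zero d 11) (qqDelta_ne_zero N d)

variable (q : ℕ) [NeZero q]

/-- **The expansion of `eps_(i+1) = Δ(q^i τ)/Δ(q^(i+1) τ)`.** -/
theorem cm_psi_epsN (i : ℕ) (h : q ^ (i + 1) ∣ N) :
    coeffMap iotaC (psi N (epsN N q i h))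
      = HahnSeries.C ((q : ℂ) ^ 11)
        * (pexp N (fam N (q ^ i) DeltaMF (q1 : Q N))
          / pexp N (fam N (q ^ (i + 1)) DeltaMF (q1 : Q N))) := by
  have hi : q ^ i ∣ N := (pow_dvd_pow q (Nat.le_succ i)).trans h
  rw [DcE_q1 N (q ^ i) hi, DcE_q1 N (q ^ (i + 1)) h, psi_apply, coe_epsN, coeffMap_qExp82,
    coeffMap_qExp82]
  have e1 : coeffMap iotaC (UQ q) = UC q := coeffMap_iotaC_coeffEmb _
  rw [e1, UC_eq, map_mul, map_mul, map_inv₀, map_inv₀]
  have e2 : qExpand ℂ (q ^ i) (qExpand ℂ q DeltaC) = qExpand ℂ (q ^ (i + 1)) DeltaC := by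
    rw [qExpand_qExpand]
    exact Fermat.Agent.BAD.H73.qExpand_congr (by rw [pow_succ, mul_comm]) _
  rw [e2]
  have ha := qqDelta_ne_zero N (q ^ i)
  have hb := qqDelta_ne_zero N (q ^ (i + 1))
  have hc := hahnC_pow_ne_zero q 11
  have hci := hahnC_pow_ne_zero (q ^ i) 11
  have e3 : (HahnSeries.C (((q ^ (i + 1) : ℕ) : ℂ) ^ 11) : LaurentSeries ℂ)
      = HahnSeries.C ((q : ℂ) ^ 11) * HahnSeries.C (((q ^ i : ℕ) : ℂ) ^ 11) := by
    rw [← map_mul]
    congr 1
    push_cast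
    ring
  rw [e3]
  generalize qExpand ℂ N (qExpand ℂ (q ^ i) DeltaC) = a at ha ⊢
  generalize qExpand ℂ N (qExpand ℂ (q ^ (i + 1)) DeltaC) = b at hb ⊢
  generalize (HahnSeries.C ((q : ℂ) ^ 11) : LaurentSeries ℂ) = κ at hc ⊢
  generalize (HahnSeries.C (((q ^ i : ℕ) : ℂ) ^ 11) : LaurentSeries ℂ) = κ' at hci ⊢
  field_simp

/-- **The expansion of `j(d τ)`.** -/
theorem cm_psi_jdF (d : ℕ) [NeZero d] (hd : d ∣ N) :
    coeffMap iotaC (psi N (jdF N d hd))
      = pexp N (fam N d E12 (q1 : Q N)) / pexp N (fam N d DeltaMF (q1 : Q N)) := by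
  rw [pexp_E12_q1_eq N hd, mul_div_assoc, div_self (DcE_q1_ne_zero N d hd), mul_one, psi_apply]
  show coeffMap iotaC (qExpand Kbar N (coeffEmb Kbar (qExpand ℚ d jq))) = _
  rw [coeffMap_qExp82, coeffMap_iotaC_coeffEmb]
  rfl

theorem cm_psi_cqN :
    coeffMap iotaC (psi N (cqN N q)) = HahnSeries.C ((q : ℂ)) := by
  rw [cqN, AlgHom.commutes, LaurentSeries.algebraMap_apply, Fermat.Agent.RED.H30.coeffMap_C,
    map_natCast]

end Q1

/-! ### Integrality -/

section Int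

variable (N q M e : ℕ) (hN : N = M * q ^ e) (hq : q.Prime) [NeZero N] [NeZero q]

include hN in
theorem pow_dvd_lvl (i : ℕ) (hi : i ≤ e) : q ^ i ∣ N := by
  rw [hN]
  exact Dvd.dvd.mul_left (pow_dvd_pow q hi) M

include hN hq in
/-- The orders of the conjugates of `Δ(q^i τ)` in terms of the type of the cusp. -/
theorem exists_type (γ : SL(2, ℤ)) :
    ∃ b, b ≤ e ∧ ∀ i, i ≤ e →
      ((ordAt N (q ^ i) ((γ⁻¹ : SL(2, ℤ)) 1 0) : ℕ) : ℤ) = ((wE q M e b i : ℕ) : ℤ) := by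
  subst hN
  obtain ⟨b, hb, h⟩ := ordAt_pow q M e hq ((γ⁻¹ : SL(2, ℤ)) 1 0)
  exact ⟨b, hb, fun i hi => by rw [h i hi, wE]⟩

include hN hq in
/-- **`eps_e j^(-q^(e-1)(q-1))` is integral over `ℚ̄[1/j]`.** -/
theorem isIntegral_eps_top (he : 1 ≤ e) (h : q ^ (e - 1 + 1) ∣ N) :
    IsIntegral ↥(Algebra.adjoin Kbar ({(jF N)⁻¹} : Set (FN N)))
      (epsN N q (e - 1) h * (jF N)⁻¹ ^ (q ^ (e - 1) * (q - 1))) := by
  have h1 : q ^ (e - 1) ∣ N := pow_dvd_lvl N q M e hN _ (by omega)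
  refine isIntegral_of_goodFam (GoodFam.delta h1) (GoodFam.delta h)
    (fun c z => _root_.Fermat.Agent.S28.H30.fam_Delta_ne_zero h c z) _ ?_ _ ((q : Kbar) ^ 11) ?_
  · intro γ
    obtain ⟨b, hb, hw⟩ := exists_type N q M e hN hq γ
    show _ ≤ ((ordAt N (q ^ (e - 1)) ((γ⁻¹ : SL(2, ℤ)) 1 0) : ℕ) : ℤ)
      - ((ordAt N (q ^ (e - 1 + 1)) ((γ⁻¹ : SL(2, ℤ)) 1 0) : ℕ) : ℤ)
    rw [hw (e - 1) (by omega), hw (e - 1 + 1) (by omega), show e - 1 + 1 = e by omega, hN]
    exact ord_Fe q M e hq he b hb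
  · have e1 : iotaC ((q : Kbar) ^ 11) = (q : ℂ) ^ 11 := by rw [map_pow, map_natCast]
    rw [e1, cm_psi_epsN]

include hN hq in
/-- **`(q¹² / eps_1)^q j^(-(q-1))` is integral over `ℚ̄[1/j]`.** -/
theorem isIntegral_eps_zero (he : 1 ≤ e) (h : q ^ (0 + 1) ∣ N) :
    IsIntegral ↥(Algebra.adjoin Kbar ({(jF N)⁻¹} : Set (FN N)))
      ((cqN N q ^ 12 * (epsN N q 0 h)⁻¹) ^ q * (jF N)⁻¹ ^ (q - 1)) := by
  have h0 : q ^ 0 ∣ N := pow_dvd_lvl N q M e hN _ (by omega)
  refine isIntegral_of_goodFam ((GoodFam.delta h).pow q) ((GoodFam.delta h0).pow q)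
    (fun c z => by
      show (fam N (q ^ 0) DeltaMF c ^ q) z ≠ 0
      rw [Pi.pow_apply]
      exact pow_ne_zero _ (_root_.Fermat.Agent.S28.H30.fam_Delta_ne_zero h0 c z)) _ ?_ _ ((q : Kbar) ^ q) ?_
  · intro γ
    obtain ⟨b, hb, hw⟩ := exists_type N q M e hN hq γ
    show _ ≤ (q : ℤ) * ((ordAt N (q ^ (0 + 1)) ((γ⁻¹ : SL(2, ℤ)) 1 0) : ℕ) : ℤ)
      - (q : ℤ) * ((ordAt N (q ^ 0) ((γ⁻¹ : SL(2, ℤ)) 1 0) : ℕ) : ℤ)
    rw [hw (0 + 1) (by omega), hw 0 (by omega), hN, ← mul_sub]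
    exact ord_F0 q M e hq he b hb
  · have e1 : iotaC ((q : Kbar) ^ q) = (q : ℂ) ^ q := by rw [map_pow, map_natCast]
    have hB1 := fam_BPH N h DeltaMF (q1 : Q N)
    have hB0 := fam_BPH N h0 DeltaMF (q1 : Q N)
    show _ = _ * (pexp N (fam N (q ^ (0 + 1)) DeltaMF (q1 : Q N) ^ q)
      / pexp N (fam N (q ^ 0) DeltaMF (q1 : Q N) ^ q))
    rw [e1, pexp_pow hB1, pexp_pow hB0, map_pow, map_pow, map_mul, map_mul, map_pow, map_pow,
      map_inv₀, map_inv₀, cm_psi_epsN, cm_psi_cqN, map_pow HahnSeries.C, map_pow HahnSeries.C]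
    have ha := DcE_q1_ne_zero N (q ^ 0) h0
    have hb := DcE_q1_ne_zero N (q ^ (0 + 1)) h
    have hc : (HahnSeries.C (q : ℂ) : LaurentSeries ℂ) ≠ 0 := by
      rw [Ne, map_eq_zero]
      exact Nat.cast_ne_zero.mpr (NeZero.ne q)
    generalize pexp N (fam N (q ^ 0) DeltaMF (q1 : Q N)) = a at ha ⊢
    generalize pexp N (fam N (q ^ (0 + 1)) DeltaMF (q1 : Q N)) = b at hb ⊢
    generalize (HahnSeries.C (q : ℂ) : LaurentSeries ℂ) = κ at hc ⊢
    have e2 : κ ^ 12 * (κ ^ 11 * (a / b))⁻¹ = κ * (b / a) := by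
      field_simp
    rw [e2, mul_pow, div_pow]

/-- The numerator family of `eps_a / eps_(a+1)`. -/
abbrev numE (a : ℕ) (c : Q N) : ℍ → ℂ :=
  fam N (q ^ (a - 1)) DeltaMF c * fam N (q ^ (a + 1)) DeltaMF c

/-- The denominator family of `eps_a / eps_(a+1)`. -/
abbrev denE (a : ℕ) (c : Q N) : ℍ → ℂ := fam N (q ^ a) DeltaMF c ^ 2

include hN in
theorem good_numE (a : ℕ) (ha : 1 ≤ a) (hae : a + 1 ≤ e) :
    GoodFam N (12 + 12) (numE N q a)
      (fun γ => ((ordAt N (q ^ (a - 1)) ((γ⁻¹ : SL(2, ℤ)) 1 0) : ℕ) : ℤ)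
        + ((ordAt N (q ^ (a + 1)) ((γ⁻¹ : SL(2, ℤ)) 1 0) : ℕ) : ℤ)) :=
  (GoodFam.delta (pow_dvd_lvl N q M e hN _ (by omega))).mul
    (GoodFam.delta (pow_dvd_lvl N q M e hN _ hae))

include hN in
theorem good_denE (a : ℕ) (hae : a + 1 ≤ e) :
    GoodFam N (12 + 12) (denE N q a)
      (fun γ => ((2 : ℕ) : ℤ) * ((ordAt N (q ^ a) ((γ⁻¹ : SL(2, ℤ)) 1 0) : ℕ) : ℤ)) :=
  ((GoodFam.delta (pow_dvd_lvl N q M e hN _ (by omega))).pow 2).congr_wt (by norm_num)

include hN in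
theorem denE_ne_zero (a : ℕ) (hae : a + 1 ≤ e) (c : Q N) (z : ℍ) : denE N q a c z ≠ 0 := by
  show (fam N (q ^ a) DeltaMF c ^ 2) z ≠ 0
  rw [Pi.pow_apply]
  exact pow_ne_zero _ (_root_.Fermat.Agent.S28.H30.fam_Delta_ne_zero (pow_dvd_lvl N q M e hN _ (by omega)) c z)

include hN in
/-- The expansion of `q¹² eps_a / eps_(a+1)`. -/
theorem cm_psi_mid (a : ℕ) (ha : 1 ≤ a) (hae : a + 1 ≤ e) (h1 : q ^ (a - 1 + 1) ∣ N)
    (h2 : q ^ (a + 1) ∣ N) :
    coeffMap iotaC (psi N (cqN N q ^ 12 * epsN N q (a - 1) h1 * (epsN N q a h2)⁻¹))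
      = HahnSeries.C ((q : ℂ) ^ 12)
        * (pexp N (numE N q a (q1 : Q N)) / pexp N (denE N q a (q1 : Q N))) := by
  have hd0 : q ^ (a - 1) ∣ N := pow_dvd_lvl N q M e hN _ (by omega)
  have hd1 : q ^ a ∣ N := pow_dvd_lvl N q M e hN _ (by omega)
  have hB0 := fam_BPH N hd0 DeltaMF (q1 : Q N)
  have hB1 := fam_BPH N hd1 DeltaMF (q1 : Q N)
  have hB2 := fam_BPH N h2 DeltaMF (q1 : Q N)
  rw [numE, denE, pexp_mul hB0 hB2, pexp_pow hB1, map_mul, map_mul, map_mul, map_mul, map_pow,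
    map_pow, map_inv₀, map_inv₀, cm_psi_epsN, cm_psi_epsN, cm_psi_cqN,
    map_pow HahnSeries.C (q : ℂ) 11, map_pow HahnSeries.C (q : ℂ) 12]
  have e1 : fam N (q ^ (a - 1 + 1)) DeltaMF (q1 : Q N) = fam N (q ^ a) DeltaMF (q1 : Q N) := by
    rw [show a - 1 + 1 = a by omega]
  rw [e1]
  have ha0 := DcE_q1_ne_zero N (q ^ (a - 1)) hd0
  have ha1 := DcE_q1_ne_zero N (q ^ a) hd1
  have ha2 := DcE_q1_ne_zero N (q ^ (a + 1)) h2
  have hc : (HahnSeries.C (q : ℂ) : LaurentSeries ℂ) ≠ 0 := by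
    rw [Ne, map_eq_zero]
    exact Nat.cast_ne_zero.mpr (NeZero.ne q)
  generalize pexp N (fam N (q ^ (a - 1)) DeltaMF (q1 : Q N)) = x at ha0 ⊢
  generalize pexp N (fam N (q ^ a) DeltaMF (q1 : Q N)) = y at ha1 ⊢
  generalize pexp N (fam N (q ^ (a + 1)) DeltaMF (q1 : Q N)) = z at ha2 ⊢
  generalize (HahnSeries.C (q : ℂ) : LaurentSeries ℂ) = κ at hc ⊢
  field_simp

include hN hq in
/-- **`q¹² eps_a / eps_(a+1) · j^(-2 q^(a-1)(q-1))` is integral over `ℚ̄[1/j]`.** -/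
theorem isIntegral_eps_mid (a : ℕ) (ha : 1 ≤ a) (hae : a + 1 ≤ e) (h1 : q ^ (a - 1 + 1) ∣ N)
    (h2 : q ^ (a + 1) ∣ N) :
    IsIntegral ↥(Algebra.adjoin Kbar ({(jF N)⁻¹} : Set (FN N)))
      (cqN N q ^ 12 * epsN N q (a - 1) h1 * (epsN N q a h2)⁻¹
        * (jF N)⁻¹ ^ (2 * q ^ (a - 1) * (q - 1))) := by
  refine isIntegral_of_goodFam (good_numE N q M e hN a ha hae) (good_denE N q M e hN a hae)
    (denE_ne_zero N q M e hN a hae) _ ?_ _ ((q : Kbar) ^ 12) ?_
  · intro γ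
    obtain ⟨b, hb, hw⟩ := exists_type N q M e hN hq γ
    show _ ≤ ((ordAt N (q ^ (a - 1)) ((γ⁻¹ : SL(2, ℤ)) 1 0) : ℕ) : ℤ)
        + ((ordAt N (q ^ (a + 1)) ((γ⁻¹ : SL(2, ℤ)) 1 0) : ℕ) : ℤ)
      - ((2 : ℕ) : ℤ) * ((ordAt N (q ^ a) ((γ⁻¹ : SL(2, ℤ)) 1 0) : ℕ) : ℤ)
    rw [hw (a - 1) (by omega), hw (a + 1) (by omega), hw a (by omega), hN]
    exact ord_Fa q M e hq a b ha hae hb
  · have e1 : iotaC ((q : Kbar) ^ 12) = (q : ℂ) ^ 12 := by rw [map_pow, map_natCast]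
    rw [e1, cm_psi_mid N q M e hN a ha hae h1 h2]

include hN hq in
/-- **`j(q^i τ) (q¹² eps_a / eps_(a+1))^r · j^(-(q^(a-m) + r · 2 q^(a-1)(q-1)))` is integral
over `ℚ̄[1/j]`**, `r = q^m`, `i = a - m` or `i = a + m`. -/
theorem isIntegral_X (a m i : ℕ) (ha : 1 ≤ a) (hae : a + 1 ≤ e) (hma : m ≤ a) (hme : a + m ≤ e)
    (hi : i = a - m ∨ i = a + m) (h1 : q ^ (a - 1 + 1) ∣ N) (h2 : q ^ (a + 1) ∣ N)
    (hd : q ^ i ∣ N) :
    IsIntegral ↥(Algebra.adjoin Kbar ({(jF N)⁻¹} : Set (FN N)))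
      (jdF N (q ^ i) hd * (cqN N q ^ 12 * epsN N q (a - 1) h1 * (epsN N q a h2)⁻¹) ^ (q ^ m)
        * (jF N)⁻¹ ^ (q ^ (a - m) + q ^ m * (2 * q ^ (a - 1) * (q - 1)))) := by
  have hie : i ≤ e := by rcases hi with rfl | rfl <;> omega
  have gN := (GoodFam.e12 hd).mul ((good_numE N q M e hN a ha hae).pow (q ^ m))
  have gD := (GoodFam.delta hd).mul ((good_denE N q M e hN a hae).pow (q ^ m))
  refine isIntegral_of_goodFam gN gD (fun c z => ?_) _ ?_ _ ((q : Kbar) ^ (12 * q ^ m)) ?_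
  · show (fam N (q ^ i) DeltaMF c * denE N q a c ^ (q ^ m)) z ≠ 0
    rw [Pi.mul_apply, Pi.pow_apply]
    exact mul_ne_zero (_root_.Fermat.Agent.S28.H30.fam_Delta_ne_zero hd c z) (pow_ne_zero _ (denE_ne_zero N q M e hN a hae c z))
  · intro γ
    obtain ⟨b, hb, hw⟩ := exists_type N q M e hN hq γ
    show _ ≤ (0 + ((q ^ m : ℕ) : ℤ)
          * (((ordAt N (q ^ (a - 1)) ((γ⁻¹ : SL(2, ℤ)) 1 0) : ℕ) : ℤ)
            + ((ordAt N (q ^ (a + 1)) ((γ⁻¹ : SL(2, ℤ)) 1 0) : ℕ) : ℤ)))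
      - (((ordAt N (q ^ i) ((γ⁻¹ : SL(2, ℤ)) 1 0) : ℕ) : ℤ) + ((q ^ m : ℕ) : ℤ)
          * (((2 : ℕ) : ℤ) * ((ordAt N (q ^ a) ((γ⁻¹ : SL(2, ℤ)) 1 0) : ℕ) : ℤ)))
    rw [hw (a - 1) (by omega), hw (a + 1) (by omega), hw a (by omega), hw i hie, hN]
    exact ord_Fx q M e hq a b m i ha hae hb hma hme hi
  · have e1 : iotaC ((q : Kbar) ^ (12 * q ^ m)) = ((q : ℂ) ^ 12) ^ (q ^ m) := by
      rw [map_pow, map_natCast, pow_mul]
    have hBn := (good_numE N q M e hN a ha hae).bph (q1 : Q N)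
    have hBd := (good_denE N q M e hN a hae).bph (q1 : Q N)
    have hBE := fam_BPH N hd E12 (q1 : Q N)
    have hBD := fam_BPH N hd DeltaMF (q1 : Q N)
    show _ = _ * (pexp N (fam N (q ^ i) E12 (q1 : Q N) * numE N q a (q1 : Q N) ^ (q ^ m))
      / pexp N (fam N (q ^ i) DeltaMF (q1 : Q N) * denE N q a (q1 : Q N) ^ (q ^ m)))
    rw [e1, pexp_mul hBE (hBn.pow _), pexp_mul hBD (hBd.pow _), pexp_pow hBn, pexp_pow hBd,
      map_mul, map_mul, map_pow, map_pow, cm_psi_mid N q M e hN a ha hae h1 h2, cm_psi_jdF,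
      map_pow HahnSeries.C ((q : ℂ) ^ 12) (q ^ m), map_pow HahnSeries.C (q : ℂ) 12]
    have hx := DcE_q1_ne_zero N (q ^ i) hd
    have hy : pexp N (denE N q a (q1 : Q N)) ≠ 0 := by
      rw [denE, pexp_pow (fam_BPH N (pow_dvd_lvl N q M e hN _ (by omega)) DeltaMF _)]
      exact pow_ne_zero _ (DcE_q1_ne_zero N (q ^ a) (pow_dvd_lvl N q M e hN _ (by omega)))
    generalize pexp N (fam N (q ^ i) DeltaMF (q1 : Q N)) = x at hx ⊢
    generalize pexp N (denE N q a (q1 : Q N)) = y at hy ⊢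
    generalize pexp N (numE N q a (q1 : Q N)) = z
    generalize pexp N (fam N (q ^ i) E12 (q1 : Q N)) = w
    generalize (HahnSeries.C (q : ℂ) : LaurentSeries ℂ) = κ
    rw [mul_pow, div_pow]
    field_simp

end Int

end Fermat.Agent.S45.NUE.H73

end
end
-- ==== END Fermat.Agent.S45.NUE.H73_CuspIntE3
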