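-- GENERATED (merged mirror, NOTES/tools/trim/merge3_helper67.py): 6 modules of the originals, bodies verbatim.
import Fermat.Agent.Zm.S45_L05_000
import Fermat.Agent.Zm.S36_L11_000
import Fermat.Agent.Zm.S45_L05_001
import Fermat.Agent.Zm.S45_L01_001
import Fermat.Agent.Zm.S36_L12_000
import Fermat.Agent.Zm.S45_L04_000
import Fermat.Agent.Zm.S36_L06_001
import Fermat.Agent.Zm.S36_L15_000
import Fermat.Agent.Zm.S45_L02_000
import Fermat.Agent.Zm.S35_L08_000
import Fermat.Agent.Zm.S36_L04_001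

-- ==== BEGIN Fermat.Agent.S45.NUE.H12_SSFun
section

/-!
# S45 / NU_e, package E-FIN, leaf E-PT-SS, sub-leaf SS-FUN (helper12)

Level `N = M q^e`, `f ∈ F_M` with integral expansion `u₀`.  The two coordinates
`x = f(τ)`, `y = f(q^e τ)` as inertia-fixed functions of level `N`:

* `fL0` : `f` as an element of `L0 A M`, `fL0_mem_VE0`;
* `xE`, `yE : ↥(L0 A N)`, `coe_xE`, `coe_yE` (the expansions `u₀`, `u₀(t^(q^e))`);
* `xE_mem_VE`, `yE_mem_VE` : they lie in all the valuation rings `VE a`, `a ≤ e`;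
* `sE_xE`, `sE_yE` : their reductions
  `sE a x = ū₀(s^(q^(e - 2a)))`, `sE a y = ū₀(s^(q^(max(e, 2a) - e)))`;
* `ss_fun` : **SS-FUN** in the shape of `NOTES/plan/S45_EPTSS.md`.
-/

set_option autoImplicit false
set_option synthInstance.maxHeartbeats 400000
set_option maxHeartbeats 1000000
set_option linter.unusedSectionVars false
set_option linter.unusedVariables false
set_option linter.style.haveILetI false

noncomputable section

namespace Fermat.Agent.S45.NUE.H12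

open Fermat.Agent.S24 Fermat.Agent.BAD.H88 ModularCurve AlgebraicCurve
open Fermat.Agent.S28 Fermat.Agent.S28.H73 Fermat.Agent.RED.H73 Fermat.Agent.RED.H17
open Fermat.Agent.S36.NU.H88 Fermat.Agent.S36.NU
open Fermat.Agent.S45.NUE.H23 Fermat.Agent.S45.NUE.H17

local notation "L0" => Fermat.Agent.S36.NU.H23.L0
local notation "VE0" => Fermat.Agent.S36.NU.H23.VE0
local notation "sE0" => Fermat.Agent.S36.NU.H23.sE
local notation "inclL0" => Fermat.Agent.S36.NU.H23.inclL0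

section Fun

variable (A : ValuationSubring Kbar)
variable (N q M e : ℕ) (B k : ℤ) (hN : N = M * q ^ e) (hB : B * M + k * (q : ℤ) ^ e = 1)
  (hq : q.Prime) [NeZero N] [NeZero q] [NeZero M]
variable (f : FN M) (u₀ : LaurentSeries ℤ) (hf : (f : LaurentSeries Kbar) = H65.intSer Kbar u₀)

/-- `f` as an inertia-fixed function of level `M`. -/
def fL0 : ↥(L0 A M) := ⟨f, Fermat.Agent.S36.NU.H16.mem_L0_of_int A f u₀ hf⟩

theorem coe_fL0 : ((fL0 A M f u₀ hf : ↥(L0 A M)) : FN M) = f := rfl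

theorem fL0_mem_VE0 : fL0 A M f u₀ hf ∈ VE0 A M := by
  rw [Fermat.Agent.S36.NU.H23.mem_VE0_iff, coe_fL0, hf]
  exact H65.intSer_mem A u₀

/-- **`x = f(τ)`** as an inertia-fixed function of level `N = M q^e`. -/
def xE : ↥(L0 A N) := inclL0 A (_root_.Fermat.Agent.S45.NUE.H17.hleE N q M e hN) (fL0 A M f u₀ hf)

/-- **`y = f(q^e τ)`** as an inertia-fixed function of level `N = M q^e`. -/
def yE : ↥(L0 A N) := betaL0 A N q M e hN (fL0 A M f u₀ hf)

theorem coe_xE :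
    (((xE A N q M e hN f u₀ hf : ↥(L0 A N)) : FN N) : LaurentSeries Kbar)
      = H65.intSer Kbar u₀ := by
  rw [xE, Fermat.Agent.S36.NU.H23.coe_inclL0, IntermediateField.coe_inclusion, coe_fL0, hf]

theorem coe_yE :
    haveI : NeZero (q ^ e) := ⟨pow_ne_zero _ (NeZero.ne q)⟩
    (((yE A N q M e hN f u₀ hf : ↥(L0 A N)) : FN N) : LaurentSeries Kbar)
      = H65.intSer Kbar (qExpand ℤ (q ^ e) u₀) := by
  haveI : NeZero (q ^ e) := ⟨pow_ne_zero _ (NeZero.ne q)⟩
  rw [yE, coe_betaL0, coe_betaE, coe_fL0, hf, H65.intSer_qExpand]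

include hB hq in
theorem xE_mem_VE (a : ℕ) :
    xE A N q M e hN f u₀ hf ∈ VE A N q M e B k hN hB hq a :=
  inclL0_mem_VE A N q M e B k hN hB hq (_root_.Fermat.Agent.S45.NUE.H17.hleE N q M e hN) a _ (fL0_mem_VE0 A M f u₀ hf)

include hB hq in
theorem yE_mem_VE (a : ℕ) (ha : a ≤ e) :
    yE A N q M e hN f u₀ hf ∈ VE A N q M e B k hN hB hq a :=
  betaL0_mem_VE A N q M e B k hN hB hq a ha _ (fL0_mem_VE0 A M f u₀ hf)

theorem sE0_fL0 :
    sE0 A M ⟨fL0 A M f u₀ hf, fL0_mem_VE0 A M f u₀ hf⟩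
      = coeffMap (Int.castRingHom (kV A)) u₀ := by
  have h : (((fL0 A M f u₀ hf : ↥(L0 A M)) : FN M) : LaurentSeries Kbar) ∈ gaussRingV A :=
    fL0_mem_VE0 A M f u₀ hf
  have e1 : sE0 A M ⟨fL0 A M f u₀ hf, fL0_mem_VE0 A M f u₀ hf⟩
      = gaussRedV A ⟨(((fL0 A M f u₀ hf : ↥(L0 A M)) : FN M) : LaurentSeries Kbar), h⟩ := rfl
  have e2 : (⟨(((fL0 A M f u₀ hf : ↥(L0 A M)) : FN M) : LaurentSeries Kbar), h⟩ :
      gaussRingV A) = ⟨H65.intSer Kbar u₀, H65.intSer_mem A u₀⟩ := Subtype.ext hf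
  rw [e1, e2, H65.gaussRedV_intSer]

include hB hq in
/-- **`sE a x = ū₀(s^(q^(e - 2a)))`.** -/
theorem sE_xE (a : ℕ) :
    haveI : NeZero (q ^ (e - 2 * a)) := ⟨pow_ne_zero _ (NeZero.ne q)⟩
    sE A N q M e B k hN hB hq a ⟨xE A N q M e hN f u₀ hf, xE_mem_VE A N q M e B k hN hB hq f u₀ hf a⟩
      = qExpand (kV A) (q ^ (e - 2 * a)) (coeffMap (Int.castRingHom (kV A)) u₀) := by
  haveI : NeZero (q ^ (e - 2 * a)) := ⟨pow_ne_zero _ (NeZero.ne q)⟩
  have h := sE_inclL0 A N q M e B k hN hB hq (_root_.Fermat.Agent.S45.NUE.H17.hleE N q M e hN) a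
    ⟨fL0 A M f u₀ hf, fL0_mem_VE0 A M f u₀ hf⟩ (xE_mem_VE A N q M e B k hN hB hq f u₀ hf a)
  rw [sE0_fL0] at h
  exact h

include hB hq in
/-- **`sE a y = ū₀(s^(q^(max(e, 2a) - e)))`.** -/
theorem sE_yE (hA : (q : Kbar) ∈ A.nonunits) (a : ℕ) (ha : a ≤ e) :
    haveI : NeZero (q ^ (max e (2 * a) - e)) := ⟨pow_ne_zero _ (NeZero.ne q)⟩
    sE A N q M e B k hN hB hq a
        ⟨yE A N q M e hN f u₀ hf, yE_mem_VE A N q M e B k hN hB hq f u₀ hf a ha⟩
      = qExpand (kV A) (q ^ (max e (2 * a) - e)) (coeffMap (Int.castRingHom (kV A)) u₀) := by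
  haveI : NeZero (q ^ (max e (2 * a) - e)) := ⟨pow_ne_zero _ (NeZero.ne q)⟩
  have h := sE_betaL0 A N q M e B k hN hB hq hA a ha
    ⟨fL0 A M f u₀ hf, fL0_mem_VE0 A M f u₀ hf⟩ (yE_mem_VE A N q M e B k hN hB hq f u₀ hf a ha)
  rw [sE0_fL0] at h
  exact h

include hB hq f hf in
/-- **SS-FUN**: the two coordinates `x = f(τ)`, `y = f(q^e τ)` exist in `L0 A N`, with the
expansions `u₀`, `u₀(t^(q^e))`, and lie in all `VE a`, `a ≤ e`. -/
theorem ss_fun :
    haveI : NeZero (q ^ e) := ⟨pow_ne_zero _ (NeZero.ne q)⟩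
    ∃ x y : ↥(L0 A N),
      ((x : FN N) : LaurentSeries Kbar) = H65.intSer Kbar u₀ ∧
      ((y : FN N) : LaurentSeries Kbar) = H65.intSer Kbar (qExpand ℤ (q ^ e) u₀) ∧
      ∀ a, a ≤ e → x ∈ VE A N q M e B k hN hB hq a ∧ y ∈ VE A N q M e B k hN hB hq a :=
  ⟨xE A N q M e hN f u₀ hf, yE A N q M e hN f u₀ hf, coe_xE A N q M e hN f u₀ hf,
    coe_yE A N q M e hN f u₀ hf, fun a ha =>
      ⟨xE_mem_VE A N q M e B k hN hB hq f u₀ hf a, yE_mem_VE A N q M e B k hN hB hq f u₀ hf a ha⟩⟩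

include hB hq in
/-- **SS-FUN for given `x`, `y`** (characterised by their expansions). -/
theorem ss_fun_of (x y : ↥(L0 A N))
    (hx : ((x : FN N) : LaurentSeries Kbar) = H65.intSer Kbar u₀)
    (hy : haveI : NeZero (q ^ e) := ⟨pow_ne_zero _ (NeZero.ne q)⟩
      ((y : FN N) : LaurentSeries Kbar) = H65.intSer Kbar (qExpand ℤ (q ^ e) u₀)) :
    x = xE A N q M e hN f u₀ hf ∧ y = yE A N q M e hN f u₀ hf ∧
      ∀ a, a ≤ e → x ∈ VE A N q M e B k hN hB hq a ∧ y ∈ VE A N q M e B k hN hB hq a := by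
  have ex : x = xE A N q M e hN f u₀ hf :=
    Subtype.ext (Subtype.ext (hx.trans (coe_xE A N q M e hN f u₀ hf).symm))
  have ey : y = yE A N q M e hN f u₀ hf :=
    Subtype.ext (Subtype.ext (hy.trans (coe_yE A N q M e hN f u₀ hf).symm))
  refine ⟨ex, ey, fun a ha => ?_⟩
  rw [ex, ey]
  exact ⟨xE_mem_VE A N q M e B k hN hB hq f u₀ hf a, yE_mem_VE A N q M e B k hN hB hq f u₀ hf a ha⟩

end Fun

end Fermat.Agent.S45.NUE.H12

end
end
-- ==== END Fermat.Agent.S45.NUE.H12_SSFun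

-- ==== BEGIN Fermat.Agent.S45.NUE.H23_TotE1
section
attribute [local instance 10000] SubalgebraClass.toAlgebra
attribute [local instance 10000] HahnSeries.powerSeriesAlgebra

/-!
# S45 / NU_e, package E-TOT (helper23), part 1: the abstract residue fields of the `V_a`

Level `N = M q^e`, `q ∤ M`, `a = 0..e`; `C = FM A M` the residue field of level `M`.

* `wE e a = e - 2a` (the structure map of the `a`-th residue field over `C` is `Fr^(wE e a)`),
  `mE q e a = φ(q^min(a, e - a))` (the ramification index), `FrWM w : C →+* C`;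
* `InE` : the modular inputs (reductions of the generators: helper17; incomparability);
* `KE a`, `resE a` : the abstract residue field of `VE a` and its residue map;
  `incE a : VE0 → VE a`, `aE a : C → KE a` (structure map), `psiE a : C → KE a` (from
  `C ⊆ range (sE a)`), `psiE_FrWM : psiE a ∘ Fr^w = aE a`.
-/

set_option autoImplicit false
set_option synthInstance.maxHeartbeats 400000
set_option maxHeartbeats 1000000
set_option linter.style.haveILetI false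
set_option linter.unusedSectionVars false

noncomputable section

open ModularCurve AlgebraicCurve
open Fermat.Agent.S24 Fermat.Agent.BAD.H88 Fermat.Agent.S28 Fermat.Agent.S28.H73
open Fermat.Agent.RED.H73 Fermat.Agent.RED.H17 Fermat.Agent.S36.NU.H88
open Fermat.Agent.S36.NU.H23 Fermat.Agent.BAD

namespace Fermat.Agent.S45.NUE.H23

/-- The exponent of the Frobenius in the structure map of the `a`-th residue field. -/
def wE (e a : ℕ) : ℕ := e - 2 * a

/-- The ramification index of the `a`-th valuation. -/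
def mE (q e a : ℕ) : ℕ := Nat.totient (q ^ min a (e - a))

theorem mE_pos (q e a : ℕ) (hq : q.Prime) : 0 < mE q e a :=
  Nat.totient_pos.mpr (pow_pos hq.pos _)

theorem mE_zero (q e : ℕ) : mE q e 0 = 1 := by
  unfold mE
  rw [Nat.zero_min, pow_zero, Nat.totient_one]

theorem mE_top (q e : ℕ) : mE q e e = 1 := by
  unfold mE
  rw [Nat.sub_self, Nat.min_zero, pow_zero, Nat.totient_one]

section TotE

variable (A : ValuationSubring Kbar)
variable (N q M e : ℕ) (B k : ℤ) (hN : N = M * q ^ e) (hB : B * M + k * (q : ℤ) ^ e = 1)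
  (hq : q.Prime) [NeZero N] [NeZero q] [NeZero M] (hqM : ¬ q ∣ M) (hA : A.LiesOverPrime q)

include hN in
/-- `F_M ⊆ F_N`. -/
theorem hleE : modularFunctionFieldBar M ≤ modularFunctionFieldBar N :=
  Fermat.Agent.S36.NU.H82.FM_le_of_dvd N M ⟨q ^ e, hN⟩

theorem neZero_Mqq : NeZero (M * q * q) :=
  ⟨(Nat.mul_pos (Nat.mul_pos (Nat.pos_of_ne_zero (NeZero.ne M))
    (Nat.pos_of_ne_zero (NeZero.ne q))) (Nat.pos_of_ne_zero (NeZero.ne q))).ne'⟩

include hqM in
/-- The residue field of level `M` is stable under the coefficientwise Frobenius. -/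
theorem frobStableE :
    @Fermat.Agent.BAD.H73.FrobStable (kV A) _ q ⟨hq⟩ (Fermat.Agent.BAD.H82.charP_kV A hq hA)
      (@Fermat.Agent.BAD.H73.perfectRing_kV _ _ _ A q ⟨hq⟩
        (Fermat.Agent.BAD.H82.charP_kV A hq hA))
      (redField A (modularFunctionFieldBar M) (hScM A M)) :=
  haveI := neZero_Mqq q M
  frobStable_FM A q M hq hqM hA

/-- `Fr^w : t ↦ t ^ (q ^ w)` on the residue field of level `M`. -/
def FrWM (w : ℕ) : FM A M →+* FM A M :=
  @Fermat.Agent.S45.NUE.H42.FrW (kV A) _ q ⟨hq⟩ (Fermat.Agent.BAD.H82.charP_kV A hq hA)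
    (@Fermat.Agent.BAD.H73.perfectRing_kV _ _ _ A q ⟨hq⟩
      (Fermat.Agent.BAD.H82.charP_kV A hq hA)) _ (frobStableE A q M hq hqM hA) w

/-- `β^w` on the places of the residue field of level `M`. -/
def betaWM (w : ℕ) : Place (kV A) (FM A M) → Place (kV A) (FM A M) :=
  (@Fermat.Agent.BAD.H73.beta (kV A) _ q ⟨hq⟩ (Fermat.Agent.BAD.H82.charP_kV A hq hA)
    (@Fermat.Agent.BAD.H73.perfectRing_kV _ _ _ A q ⟨hq⟩
      (Fermat.Agent.BAD.H82.charP_kV A hq hA)) _ (frobStableE A q M hq hqM hA))^[w]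

/-- **The modular inputs of E-TOT** (reductions of the generators at the `V_a`;
incomparability). -/
structure InE : Prop where
  /-- the Gauss valuation of level `M` lies under every `V_a` -/
  hVE : ∀ a, a ≤ e → ∀ x : ↥(L0 A M), x ∈ VE0 A M →
    inclL0 A (hleE N q M e hN) x ∈ VE A N q M e B k hN hB hq a
  /-- the reduction at `V_a` of a function of level `M` is `Fr^(e - 2a)` of its reduction -/
  hcomp : ∀ a, a ≤ e → ∀ (x : ↥(VE0 A M))
    (h : inclL0 A (hleE N q M e hN) (x : ↥(L0 A M)) ∈ VE A N q M e B k hN hB hq a),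
    _root_.Fermat.Agent.S45.NUE.H23.sE A N q M e B k hN hB hq a ⟨_, h⟩
      = ((FrWM A q M hq hqM hA (wE e a) (rE A M x) : FM A M) : LaurentSeries (kV A))
  /-- the residue field of level `M` lies in the image of the residue map of `V_a` -/
  hrange : ∀ a, a ≤ e → ∀ c : FM A M,
    ∃ x : ↥(VE A N q M e B k hN hB hq a),
      _root_.Fermat.Agent.S45.NUE.H23.sE A N q M e B k hN hB hq a x = (c : LaurentSeries (kV A))
  /-- the `V_a` are pairwise incomparable -/
  hincomp : ∀ a a', a ≤ e → a' ≤ e → a ≠ a' →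
    ¬ VE A N q M e B k hN hB hq a ≤ VE A N q M e B k hN hB hq a'
  /-- the `V_a` are of rank one -/
  harch : ∀ a, a ≤ e → Fermat.Agent.BAD.H42.IsArch (VE A N q M e B k hN hB hq a)
  /-- Teichmüller lifts of the constants -/
  hlift : ∀ c : kV A, ∃ x : ↥(L0 A N),
    (∃ c' : Kbar, (x : FN N) = algebraMap Kbar (FN N) c') ∧
    ∀ a, a ≤ e → ∃ h : x ∈ VE A N q M e B k hN hB hq a,
      _root_.Fermat.Agent.S45.NUE.H23.sE A N q M e B k hN hB hq a ⟨x, h⟩ = algebraMap (kV A) (LaurentSeries (kV A)) c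

/-! ### The abstract residue fields -/

/-- The residue field of `VE a`. -/
abbrev KE (a : ℕ) : Type := IsLocalRing.ResidueField ↥(VE A N q M e B k hN hB hq a)

/-- The canonical residue map of `VE a`. -/
def resE (a : ℕ) : ↥(VE A N q M e B k hN hB hq a) →+* KE A N q M e B k hN hB hq a :=
  IsLocalRing.residue _

theorem resE_surjective (a : ℕ) : Function.Surjective (resE A N q M e B k hN hB hq a) :=
  IsLocalRing.residue_surjective

theorem resE_eq_zero_of_not_isUnit (a : ℕ) (x : ↥(VE A N q M e B k hN hB hq a))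
    (hx : ¬ IsUnit x) : resE A N q M e B k hN hB hq a x = 0 :=
  (IsLocalRing.residue_eq_zero_iff x).2 ((IsLocalRing.mem_maximalIdeal x).2 hx)

theorem resE_eq_zero_iff_sE (a : ℕ) (x : ↥(VE A N q M e B k hN hB hq a)) :
    resE A N q M e B k hN hB hq a x = 0 ↔ _root_.Fermat.Agent.S45.NUE.H23.sE A N q M e B k hN hB hq a x = 0 := by
  constructor
  · intro h
    have h1 : x ∈ IsLocalRing.maximalIdeal ↥(VE A N q M e B k hN hB hq a) :=
      (IsLocalRing.residue_eq_zero_iff x).1 h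
    exact _root_.Fermat.Agent.S45.NUE.H23.sE_eq_zero_of_not_isUnit A N q M e B k hN hB hq a x
      ((IsLocalRing.mem_maximalIdeal x).1 h1)
  · intro h
    apply resE_eq_zero_of_not_isUnit
    intro hu
    exact (hu.map (_root_.Fermat.Agent.S45.NUE.H23.sE A N q M e B k hN hB hq a)).ne_zero h

theorem resE_eq_iff_sE (a : ℕ) (x y : ↥(VE A N q M e B k hN hB hq a)) :
    resE A N q M e B k hN hB hq a x = resE A N q M e B k hN hB hq a y
      ↔ _root_.Fermat.Agent.S45.NUE.H23.sE A N q M e B k hN hB hq a x = _root_.Fermat.Agent.S45.NUE.H23.sE A N q M e B k hN hB hq a y := by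
  rw [← sub_eq_zero, ← map_sub, resE_eq_zero_iff_sE, map_sub, sub_eq_zero]

variable (H : InE A N q M e B k hN hB hq hqM hA)

/-- `VE0 → VE a`. -/
def incE (a : ℕ) (ha : a ≤ e) : ↥(VE0 A M) →+* ↥(VE A N q M e B k hN hB hq a) where
  toFun x := ⟨inclL0 A (hleE N q M e hN) (x : ↥(L0 A M)), H.hVE a ha x x.2⟩
  map_one' := Subtype.ext (map_one (inclL0 A (hleE N q M e hN)))
  map_mul' x y := Subtype.ext
    (map_mul (inclL0 A (hleE N q M e hN)) (x : ↥(L0 A M)) (y : ↥(L0 A M)))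
  map_zero' := Subtype.ext (map_zero (inclL0 A (hleE N q M e hN)))
  map_add' x y := Subtype.ext
    (map_add (inclL0 A (hleE N q M e hN)) (x : ↥(L0 A M)) (y : ↥(L0 A M)))

theorem coe_incE (a : ℕ) (ha : a ≤ e) (x : ↥(VE0 A M)) :
    ((incE A N q M e B k hN hB hq hqM hA H a ha x : ↥(VE A N q M e B k hN hB hq a)) :
      ↥(L0 A N)) = inclL0 A (hleE N q M e hN) (x : ↥(L0 A M)) := rfl

theorem sE_incE (a : ℕ) (ha : a ≤ e) (x : ↥(VE0 A M)) :
    _root_.Fermat.Agent.S45.NUE.H23.sE A N q M e B k hN hB hq a (incE A N q M e B k hN hB hq hqM hA H a ha x)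
      = ((FrWM A q M hq hqM hA (wE e a) (rE A M x) : FM A M) : LaurentSeries (kV A)) :=
  H.hcomp a ha x (H.hVE a ha x x.2)

include hq hqM hA in
theorem rE_surjectiveE : Function.Surjective (rE A M) :=
  haveI := neZero_Mqq q M
  rE_surjective A q M hq hqM hA

theorem rE_ker_leE (a : ℕ) (ha : a ≤ e) :
    RingHom.ker (rE A M)
      ≤ RingHom.ker ((resE A N q M e B k hN hB hq a).comp
          (incE A N q M e B k hN hB hq hqM hA H a ha)) := by
  intro x hx
  rw [RingHom.mem_ker] at hx ⊢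
  rw [RingHom.comp_apply, resE_eq_zero_iff_sE, sE_incE, hx, map_zero]
  rfl

/-- The structure map of the residue field of `VE a` over the residue field of level `M`. -/
def aE (a : ℕ) (ha : a ≤ e) : FM A M →+* KE A N q M e B k hN hB hq a :=
  (rE A M).liftOfRightInverse (Function.surjInv (rE_surjectiveE A q M hq hqM hA))
    (Function.rightInverse_surjInv (rE_surjectiveE A q M hq hqM hA))
    ⟨(resE A N q M e B k hN hB hq a).comp (incE A N q M e B k hN hB hq hqM hA H a ha),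
      rE_ker_leE A N q M e B k hN hB hq hqM hA H a ha⟩

theorem aE_rE (a : ℕ) (ha : a ≤ e) (x : ↥(VE0 A M)) :
    aE A N q M e B k hN hB hq hqM hA H a ha (rE A M x)
      = resE A N q M e B k hN hB hq a (incE A N q M e B k hN hB hq hqM hA H a ha x) :=
  RingHom.liftOfRightInverse_comp_apply _ _ _ _ x

/-! ### The residue field of level `M` inside the residue field of `VE a` -/

/-- A lift to `VE a` of an element of the residue field of level `M`. -/
def liftE (a : ℕ) (ha : a ≤ e) (c : FM A M) : ↥(VE A N q M e B k hN hB hq a) :=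
  (H.hrange a ha c).choose

theorem sE_liftE (a : ℕ) (ha : a ≤ e) (c : FM A M) :
    _root_.Fermat.Agent.S45.NUE.H23.sE A N q M e B k hN hB hq a (liftE A N q M e B k hN hB hq hqM hA H a ha c)
      = (c : LaurentSeries (kV A)) :=
  (H.hrange a ha c).choose_spec

/-- `C → KE a`, from `C ⊆ range (sE a)`. -/
def psiE (a : ℕ) (ha : a ≤ e) : FM A M →+* KE A N q M e B k hN hB hq a where
  toFun c := resE A N q M e B k hN hB hq a (liftE A N q M e B k hN hB hq hqM hA H a ha c)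
  map_one' := by
    rw [← map_one (resE A N q M e B k hN hB hq a), resE_eq_iff_sE, sE_liftE, map_one]
    rfl
  map_mul' x y := by
    rw [← map_mul (resE A N q M e B k hN hB hq a), resE_eq_iff_sE, sE_liftE, map_mul,
      sE_liftE, sE_liftE]
    rfl
  map_zero' := by
    rw [← map_zero (resE A N q M e B k hN hB hq a), resE_eq_iff_sE, sE_liftE, map_zero]
    rfl
  map_add' x y := by
    rw [← map_add (resE A N q M e B k hN hB hq a), resE_eq_iff_sE, sE_liftE, map_add,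
      sE_liftE, sE_liftE]
    rfl

theorem psiE_apply (a : ℕ) (ha : a ≤ e) (c : FM A M) :
    psiE A N q M e B k hN hB hq hqM hA H a ha c
      = resE A N q M e B k hN hB hq a (liftE A N q M e B k hN hB hq hqM hA H a ha c) := rfl

/-- `psiE a c = resE a x` as soon as `sE a x = c`. -/
theorem psiE_eq_of (a : ℕ) (ha : a ≤ e) (c : FM A M) (x : ↥(VE A N q M e B k hN hB hq a))
    (hx : _root_.Fermat.Agent.S45.NUE.H23.sE A N q M e B k hN hB hq a x = (c : LaurentSeries (kV A))) :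
    psiE A N q M e B k hN hB hq hqM hA H a ha c = resE A N q M e B k hN hB hq a x := by
  rw [psiE_apply, resE_eq_iff_sE, sE_liftE, hx]

/-- `psiE a ∘ Fr^(e - 2a) = aE a`. -/
theorem psiE_FrWM (a : ℕ) (ha : a ≤ e) (c : FM A M) :
    psiE A N q M e B k hN hB hq hqM hA H a ha (FrWM A q M hq hqM hA (wE e a) c)
      = aE A N q M e B k hN hB hq hqM hA H a ha c := by
  obtain ⟨x, rfl⟩ := rE_surjectiveE A q M hq hqM hA c
  rw [aE_rE]
  exact psiE_eq_of A N q M e B k hN hB hq hqM hA H a ha _ _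
    (sE_incE A N q M e B k hN hB hq hqM hA H a ha x)

end TotE

end Fermat.Agent.S45.NUE.H23

end
end
-- ==== END Fermat.Agent.S45.NUE.H23_TotE1

-- ==== BEGIN Fermat.Agent.S45.NUE.H26_OrdSer
section

/-!
# S45 / NU_e, package E-FIN, leaf E-PT-ORD, cut ORD-SER (helper26)

The characteristic-`q` series algebra of the certificate of helper99, in `k((t))`, `k` a field of
characteristic `q` (for `k = kV A`: `serJ1` … `serJ4`).  `1 ≤ a < e`, `m = min a (e - a)`,
`δ = dE e a = |e - 2 a|`, `φ = φ(q^m)`, `D = Δ~`, `Dδ = D(t^(q^δ))`,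
`H1 = HU(t^(q^(max a (e - a) - 1)))`, `HU = (D^(q-1))⁻¹`, `T(u) = (θ u)(t^(q^δ))`.

* **(J1)** `qExpand (q ^ j) D = D ^ (q ^ j)`;
* **(J2)** `H1 * Dδ ^ φ = 1`;
* **(J3)** `(H1² (ε T(ū₄)^φ))¹² = ε¹² 3^(12 φ) (H1²)¹¹ ((v̄⁶ v̄₂¹⁶)(t^(q^δ)))^φ`;
* **(J4)** `q = 2, 3`: `(H1² (ε T(j̄)^φ))² = ε² (H1²)³`.
-/

set_option autoImplicit false
set_option linter.style.haveILetI false
set_option linter.unusedSectionVars false
set_option linter.unusedVariables false
set_option synthInstance.maxHeartbeats 400000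
set_option maxHeartbeats 1000000

noncomputable section

namespace Fermat.Agent.S45.NUE.H26

open ModularCurve Fermat.Agent.S24 Fermat.Agent.BAD Fermat.Agent.BAD.H88 Fermat.Agent.BAD.H30
  Fermat.Agent.S28 Fermat.Agent.S28.H73 Fermat.Agent.RED.H73
  Fermat.Agent.S36.NU.H73 Fermat.Agent.S45.NUE.H73 Fermat.Agent.S45.NUE.H82

/-! ### Arithmetic of the exponents -/

/-- `max a (e - a) - 1 = δ + (m - 1)`. -/
theorem max_sub_one_eq (e a : ℕ) (ha1 : 1 ≤ a) (hae : a < e) :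
    max a (e - a) - 1 = dE e a + (min a (e - a) - 1) := by
  unfold dE
  rcases le_total a (e - a) with h | h
  · rw [max_eq_right h, min_eq_left h]
    have h2 : 2 * a ≤ e := by omega
    rw [max_eq_left h2, min_eq_right h2]
    omega
  · rw [max_eq_left h, min_eq_right h]
    have h2 : e ≤ 2 * a := by omega
    rw [max_eq_right h2, min_eq_left h2]
    omega

/-- `φ(q^m) = q^(m-1) (q-1)`, `m = min a (e - a) ≥ 1`. -/
theorem totient_min_eq (q e a : ℕ) (hq : q.Prime) (ha1 : 1 ≤ a) (hae : a < e) :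
    Nat.totient (q ^ min a (e - a)) = q ^ (min a (e - a) - 1) * (q - 1) := by
  have hm : 0 < min a (e - a) := by
    rw [lt_min_iff]
    exact ⟨ha1, by omega⟩
  exact Nat.totient_prime_pow hq hm

/-! ### Series over a field of characteristic `q` -/

section Gen

variable (k : Type*) [Field k] (q : ℕ) [NeZero q] [Fact q.Prime] [CharP k q]

/-- **(J1), generic.**  Frobenius on `Δ~`. -/
theorem qExpand_deltaR_pow (j : ℕ) :
    qExpand k (q ^ j) (deltaR k) = deltaR k ^ (q ^ j) := by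
  induction j with
  | zero =>
    rw [qExpand_congr (pow_zero q) (deltaR k), qExpand_one_apply, pow_zero, pow_one]
  | succ j ih =>
    have h1 : q ^ (j + 1) = q * q ^ j := by rw [pow_succ, mul_comm]
    rw [qExpand_congr h1 (deltaR k), ← qExpand_qExpand, ih, map_pow, qExpand_deltaR_char k q,
      ← pow_mul, ← h1]

/-- **(J2), generic.** -/
theorem serJ2_gen (e a : ℕ) (ha1 : 1 ≤ a) (hae : a < e) :
    qExpand k (q ^ (max a (e - a) - 1)) ((deltaR k ^ (q - 1))⁻¹)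
      * qExpand k (q ^ dE e a) (deltaR k) ^ Nat.totient (q ^ min a (e - a)) = 1 := by
  have hq : q.Prime := Fact.out
  have hD : deltaR k ≠ 0 := deltaR_ne_zero k
  rw [map_inv₀, map_pow, qExpand_deltaR_pow, qExpand_deltaR_pow, totient_min_eq q e a hq ha1 hae,
    max_sub_one_eq e a ha1 hae, ← pow_mul, ← pow_mul, pow_add, mul_assoc]
  exact inv_mul_cancel₀ (pow_ne_zero _ hD)

/-- **(J3), generic.** -/
theorem serJ3_gen (e a : ℕ) (ha1 : 1 ≤ a) (hae : a < e) (ε : k) :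
    (qExpand k (q ^ (max a (e - a) - 1)) ((deltaR k ^ (q - 1))⁻¹) ^ 2
        * (algebraMap k (LaurentSeries k) ε
          * qExpand k (q ^ dE e a) (thetaL (ubar4 k)) ^ Nat.totient (q ^ min a (e - a)))) ^ 12
      = algebraMap k (LaurentSeries k) (ε ^ 12 * 3 ^ (12 * Nat.totient (q ^ min a (e - a))))
        * (qExpand k (q ^ (max a (e - a) - 1)) ((deltaR k ^ (q - 1))⁻¹) ^ 2) ^ 11
        * qExpand k (q ^ dE e a) (vbar k ^ 6 * vbar2 k ^ 16)
          ^ Nat.totient (q ^ min a (e - a)) := by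
  have h1 := serJ2_gen k q e a ha1 hae
  have h2 := congrArg (qExpand k (q ^ dE e a)) (thetaL_ubar_pow_D k)
  rw [map_pow, map_mul, map_mul, map_pow, map_pow, map_ofNat] at h2
  generalize qExpand k (q ^ (max a (e - a) - 1)) ((deltaR k ^ (q - 1))⁻¹) = H1 at h1 ⊢
  generalize qExpand k (q ^ dE e a) (deltaR k) = Dδ at h1 h2
  generalize qExpand k (q ^ dE e a) (thetaL (ubar4 k)) = T at h2 ⊢
  generalize qExpand k (q ^ dE e a) (vbar k ^ 6 * vbar2 k ^ 16) = W at h2 ⊢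
  generalize Nat.totient (q ^ min a (e - a)) = φ at h1 ⊢
  rw [map_mul, map_pow, map_pow, map_ofNat]
  generalize algebraMap k (LaurentSeries k) ε = E
  have e1 : (H1 ^ 2 * (E * T ^ φ)) ^ 12 = H1 ^ 24 * E ^ 12 * (T ^ 12) ^ φ := by
    rw [← pow_mul T 12 φ, mul_comm 12 φ, pow_mul T φ 12]
    ring
  rw [e1, h2]
  have e2 : H1 ^ 24 * E ^ 12 * (3 ^ 12 * W * Dδ ^ 2) ^ φ
      = H1 ^ 22 * (H1 * Dδ ^ φ) ^ 2 * (E ^ 12 * 3 ^ (12 * φ)) * W ^ φ := by
    rw [pow_mul (3 : LaurentSeries k) 12 φ]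
    ring
  rw [e2, h1]
  ring

/-- **(J4), generic**, `q = 2` or `q = 3`. -/
theorem serJ4_gen (h23 : q = 2 ∨ q = 3) (e a : ℕ) (ha1 : 1 ≤ a) (hae : a < e) (ε : k) :
    (qExpand k (q ^ (max a (e - a) - 1)) ((deltaR k ^ (q - 1))⁻¹) ^ 2
        * (algebraMap k (LaurentSeries k) ε
          * qExpand k (q ^ dE e a) (thetaL (jqModC k)) ^ Nat.totient (q ^ min a (e - a)))) ^ 2
      = algebraMap k (LaurentSeries k) (ε ^ 2)
        * (qExpand k (q ^ (max a (e - a) - 1)) ((deltaR k ^ (q - 1))⁻¹) ^ 2) ^ 3 := by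
  have hq : q.Prime := Fact.out
  have h1 := serJ2_gen k q e a ha1 hae
  have hD : deltaR k ≠ 0 := deltaR_ne_zero k
  have hj : jqModC k = (deltaR k)⁻¹ :=
    eq_inv_of_mul_eq_one_left (Fermat.Agent.S36.NU.H65.q23_j_mul_deltaR (K := k) (ℓ := q) h23)
  have hθ : thetaL (jqModC k) ^ (q - 1) = ((deltaR k)⁻¹) ^ (q - 1) := by
    rw [Fermat.Agent.S36.NU.H65.q23_thetaL_pow (K := k) (ℓ := q) h23, hj]
  -- `T ^ φ = H1`
  have hT : qExpand k (q ^ dE e a) (thetaL (jqModC k)) ^ Nat.totient (q ^ min a (e - a))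
      = qExpand k (q ^ (max a (e - a) - 1)) ((deltaR k ^ (q - 1))⁻¹) := by
    have h0 : qExpand k (q ^ dE e a) (thetaL (jqModC k)) ^ (q - 1)
        * qExpand k (q ^ dE e a) (deltaR k) ^ (q - 1) = 1 := by
      have hX : qExpand k (q ^ dE e a) (thetaL (jqModC k)) ^ (q - 1)
          = qExpand k (q ^ dE e a) (((deltaR k)⁻¹) ^ (q - 1)) := by
        rw [← hθ]
        exact (map_pow (qExpand k (q ^ dE e a)) _ _).symm
      have hY : qExpand k (q ^ dE e a) (deltaR k) ^ (q - 1)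
          = qExpand k (q ^ dE e a) (deltaR k ^ (q - 1)) :=
        (map_pow (qExpand k (q ^ dE e a)) _ _).symm
      rw [hX, hY, ← map_mul, ← mul_pow, inv_mul_cancel₀ hD, one_pow, map_one]
    have h3 : qExpand k (q ^ dE e a) (thetaL (jqModC k)) ^ Nat.totient (q ^ min a (e - a))
        * qExpand k (q ^ dE e a) (deltaR k) ^ Nat.totient (q ^ min a (e - a)) = 1 := by
      rw [totient_min_eq q e a hq ha1 hae, mul_comm (q ^ (min a (e - a) - 1)) (q - 1),
        pow_mul, pow_mul, ← mul_pow, h0, one_pow]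
    have hne : qExpand k (q ^ dE e a) (deltaR k) ^ Nat.totient (q ^ min a (e - a)) ≠ 0 :=
      pow_ne_zero _ (qExpand_deltaR_ne_zero k _)
    exact mul_right_cancel₀ hne (h3.trans h1.symm)
  rw [hT, map_pow]
  ring

end Gen

/-! ### The residue field of `A` -/

section KV

variable (A : ValuationSubring Kbar) (q : ℕ) [NeZero q] (hq : q.Prime)
  (hA : (q : Kbar) ∈ A.nonunits)

include hq hA

/-- **(J1)** Frobenius on `Δ~`. -/
theorem serJ1 (j : ℕ) :
    qExpand (kV A) (q ^ j) (deltaR (kV A)) = deltaR (kV A) ^ (q ^ j) := by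
  haveI : Fact q.Prime := ⟨hq⟩
  haveI : CharP (kV A) q := Fermat.Agent.BAD.H82.charP_kV A hq hA
  exact qExpand_deltaR_pow (kV A) q j

/-- **(J2)** `H1 * Dδ ^ φ = 1`. -/
theorem serJ2 (e a : ℕ) (ha1 : 1 ≤ a) (hae : a < e) :
    qExpand (kV A) (q ^ (max a (e - a) - 1)) (HUk A q)
      * qExpand (kV A) (q ^ dE e a) (deltaR (kV A)) ^ Nat.totient (q ^ min a (e - a)) = 1 := by
  haveI : Fact q.Prime := ⟨hq⟩
  haveI : CharP (kV A) q := Fermat.Agent.BAD.H82.charP_kV A hq hA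
  exact serJ2_gen (kV A) q e a ha1 hae

/-- **(J3)** the certificate of `u₄`. -/
theorem serJ3 (e a : ℕ) (ha1 : 1 ≤ a) (hae : a < e) (ε : kV A) :
    (qExpand (kV A) (q ^ (max a (e - a) - 1)) (HUk A q) ^ 2
        * (algebraMap (kV A) (LaurentSeries (kV A)) ε
          * qExpand (kV A) (q ^ dE e a) (thetaL (ubar4 (kV A)))
            ^ Nat.totient (q ^ min a (e - a)))) ^ 12
      = algebraMap (kV A) (LaurentSeries (kV A))
          (ε ^ 12 * 3 ^ (12 * Nat.totient (q ^ min a (e - a))))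
        * (qExpand (kV A) (q ^ (max a (e - a) - 1)) (HUk A q) ^ 2) ^ 11
        * qExpand (kV A) (q ^ dE e a) (vbar (kV A) ^ 6 * vbar2 (kV A) ^ 16)
          ^ Nat.totient (q ^ min a (e - a)) := by
  haveI : Fact q.Prime := ⟨hq⟩
  haveI : CharP (kV A) q := Fermat.Agent.BAD.H82.charP_kV A hq hA
  exact serJ3_gen (kV A) q e a ha1 hae ε

/-- **(J4)** the certificate of `j`, `q = 2` or `q = 3`. -/
theorem serJ4 (h23 : q = 2 ∨ q = 3) (e a : ℕ) (ha1 : 1 ≤ a) (hae : a < e) (ε : kV A) :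
    (qExpand (kV A) (q ^ (max a (e - a) - 1)) (HUk A q) ^ 2
        * (algebraMap (kV A) (LaurentSeries (kV A)) ε
          * qExpand (kV A) (q ^ dE e a) (thetaL (jqModC (kV A)))
            ^ Nat.totient (q ^ min a (e - a)))) ^ 2
      = algebraMap (kV A) (LaurentSeries (kV A)) (ε ^ 2)
        * (qExpand (kV A) (q ^ (max a (e - a) - 1)) (HUk A q) ^ 2) ^ 3 := by
  haveI : Fact q.Prime := ⟨hq⟩
  haveI : CharP (kV A) q := Fermat.Agent.BAD.H82.charP_kV A hq hA
  exact serJ4_gen (kV A) q h23 e a ha1 hae ε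

end KV

end Fermat.Agent.S45.NUE.H26

end
end
-- ==== END Fermat.Agent.S45.NUE.H26_OrdSer

-- ==== BEGIN Fermat.Agent.S45.NUE.H28_RadQEMod
section

/-!
# S45 / NU_e, package E-FIN, leaf E-RADQ (helper28): the reduction of `j` at the valuations
`VE a` of the level `N = M q^e`

* `jdF_eq_jF_of_eq_one` : `j (t^D) = j` for `D = 1`;
* `j0_mem_VE` : `j ∈ VE a`;
* `sE_j0` : `sE a j = j~ (s^(q^(e - 2 a)))`;
* `transcendental_sE_j0` : it is transcendental over `k` (the hypothesis `htr` of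
  `H28.isRadQ_chartE`, for every `a`).
-/

set_option autoImplicit false
set_option synthInstance.maxHeartbeats 400000
set_option maxHeartbeats 1000000
set_option linter.style.haveILetI false
set_option linter.unusedSectionVars false
set_option linter.unusedVariables false

noncomputable section

open ModularCurve AlgebraicCurve Polynomial IntermediateField
open Fermat.Agent.S24 Fermat.Agent.BAD.H88 Fermat.Agent.S28 Fermat.Agent.S28.H73
open Fermat.Agent.RED.H73 Fermat.Agent.RED.H17 Fermat.Agent.S36.NU.H88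
open Fermat.Agent.S36.NU.H23 Fermat.Agent.S36.NU.H41 Fermat.Agent.S36.NU.H17
open Fermat.Agent.S36.NU.H16 Fermat.Agent.S36.NU.H65 Fermat.Agent.BAD
open Fermat.Agent.S45.NUE.H23 Fermat.Agent.S45.NUE.H17

namespace Fermat.Agent.S45.NUE.H28

section Trans2

variable (A : ValuationSubring Kbar)

/-- `j~(s^m)` is transcendental over `k`. -/
theorem transcendental_qExpand_jqModC (m : ℕ) [NeZero m] :
    Transcendental (kV A) (qExpand (kV A) m (jqModC (kV A))) := by
  have e : Fermat.Agent.S36.NU.H88.Jred A = jqModC (kV A) := by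
    unfold Fermat.Agent.S36.NU.H88.Jred Fermat.Agent.S36.NU.H88.jInt
    rw [qExpand_one_apply, coeffMap_jqModC]
  rw [← e]
  exact transcendental_qExpand_Jred A m

end Trans2

section Level

variable (A : ValuationSubring Kbar)
variable (N q M e : ℕ) (B k : ℤ) (hN : N = M * q ^ e) (hB : B * M + k * (q : ℤ) ^ e = 1)
  (hq : q.Prime) [NeZero N] [NeZero q] [NeZero M]

theorem jdF_eq_jF_of_eq_one (D : ℕ) [NeZero D] (hD1 : D = 1) (hD : D ∣ N) :
    jdF N D hD = Fermat.Agent.S24.jF N := by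
  subst hD1
  exact jdF_one_eq_jF N

theorem neZero_one_mul_pow (c : ℕ) : NeZero (1 * q ^ c) :=
  ⟨by rw [one_mul]; exact pow_ne_zero c (NeZero.ne q)⟩

theorem j0_eq_jdF (hD : 1 * q ^ 0 ∣ N) :
    haveI := neZero_one_mul_pow q 0
    (⟨jdF N (1 * q ^ 0) hD, Fermat.Agent.S36.NU.H23.jdF_mem_L0 A N _ hD⟩ : ↥(L0 A N))
      = j0 A N := by
  haveI := neZero_one_mul_pow q 0
  apply Subtype.ext
  exact jdF_eq_jF_of_eq_one N (1 * q ^ 0) (by simp) hD

include hN hB hq in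
/-- `j ∈ VE a`. -/
theorem j0_mem_VE (a : ℕ) : j0 A N ∈ VE A N q M e B k hN hB hq a := by
  haveI := neZero_one_mul_pow q 0
  haveI := neZero_one_mul_pow q (e - 2 * a + 0)
  have hD : 1 * q ^ 0 ∣ N := by simp
  rw [← j0_eq_jdF A N q hD]
  exact jdF_mem_VE_le A N q M e B k hN hB hq 1 M 0 a (one_mul M).symm (Nat.zero_le a) hD

include hN hB hq in
/-- `sE a j = j~ (s^(q^(e - 2 a)))`. -/
theorem sE_j0 (a : ℕ) (hj : j0 A N ∈ VE A N q M e B k hN hB hq a) :
    haveI := neZero_one_mul_pow q (e - 2 * a + 0)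
    _root_.Fermat.Agent.S45.NUE.H23.sE A N q M e B k hN hB hq a ⟨j0 A N, hj⟩
      = qExpand (kV A) (1 * q ^ (e - 2 * a + 0)) (jqModC (kV A)) := by
  haveI := neZero_one_mul_pow q 0
  haveI := neZero_one_mul_pow q (e - 2 * a + 0)
  have hD : 1 * q ^ 0 ∣ N := by simp
  have hmem := jdF_mem_VE_le A N q M e B k hN hB hq 1 M 0 a (one_mul M).symm (Nat.zero_le a) hD
  have h1 := sE_jdF_le A N q M e B k hN hB hq 1 M 0 a (one_mul M).symm (Nat.zero_le a) hD hmem
  have h2 : (⟨j0 A N, hj⟩ : ↥(VE A N q M e B k hN hB hq a)) = ⟨_, hmem⟩ :=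
    Subtype.ext (j0_eq_jdF A N q hD).symm
  rw [h2, h1]

include hN hB hq in
/-- **The reduction of `j` at `VE a` is transcendental over `k`.** -/
theorem transcendental_sE_j0 (a : ℕ) (hj : j0 A N ∈ VE A N q M e B k hN hB hq a) :
    Transcendental (kV A) (_root_.Fermat.Agent.S45.NUE.H23.sE A N q M e B k hN hB hq a ⟨j0 A N, hj⟩) := by
  haveI := neZero_one_mul_pow q (e - 2 * a + 0)
  rw [_root_.Fermat.Agent.S45.NUE.H28.sE_j0 A N q M e B k hN hB hq a hj]
  exact transcendental_qExpand_jqModC A _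

end Level

end Fermat.Agent.S45.NUE.H28

end
end
-- ==== END Fermat.Agent.S45.NUE.H28_RadQEMod

-- ==== BEGIN Fermat.Agent.S45.NUE.H31_AlphaBeta3
section

/-!
# S45 / NU_e, package E-NORM, leaf N1 RESTR (helper31): `α`, `β` and the valuations `V_a`

Lower level `N = M q^e`, upper level `N q = M q^(e+1)`; `α = heckeAlphaBar Kbar N q`,
`β = heckeBetaBar Kbar N q`.  With `VF`, `VE`, `sE` of helper23 (`H23_ValE`):

* membership: `alpha_mem_VF_iff` (`α x ∈ V_a ↔ x ∈ V'_a`), `alpha_mem_VF_top_iff`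
  (`a = e + 1 ↦ e`), `alpha_mem_VF_min_iff`; `beta_mem_VF_iff` (`β x ∈ V_a ↔ x ∈ V'_(a-1)`,
  natural subtraction: `a = 0 ↦ 0`); the same on `L0` (`alphaL0_mem_VE_iff`, …);
* reductions (on the level of `gaussRedV`, hence for `redG` and `sE`):
  `red_alpha_le` (`2 a ≤ e`: `qExpand q`), `red_alpha_gt` (`e < 2 a`: identity), `red_alpha_top`,
  `red_beta_le` (`1 ≤ a`, `2 a ≤ e + 1`: identity), `red_beta_gt` (`e + 2 ≤ 2 a`: `qExpand q`),
  `red_beta_zero` (`a = 0`, `A` over `q`: identity); `sE_alpha_*`, `sE_beta_*` on `L0`.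
-/

set_option autoImplicit false
set_option synthInstance.maxHeartbeats 400000
set_option maxHeartbeats 1000000
set_option linter.unusedSectionVars false
set_option linter.unusedVariables false
set_option linter.style.haveILetI false

noncomputable section

namespace Fermat.Agent.S45.NUE.H31

open Fermat.Agent.S24 Fermat.Agent.BAD.H88 ModularCurve UpperHalfPlane
open Fermat.Agent.S28 Fermat.Agent.S28.H73 Fermat.Agent.RED.H73 Fermat.Agent.RED.H17
open Fermat.Agent.S36.NU.H88 Fermat.Agent.RED.H95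
open Fermat.Agent.S36.NU.H23
open Fermat.Agent.S45.NUE.H73 (gE gE_inv zE zE_pow nE algHom_eq_of_jdF dvdE_cases dvdE posE
  coprimeE zetaK_mul_pow zetaK_congr)
open Fermat.Agent.S45.NUE.H23
open scoped MatrixGroups Manifold

/-! ### Roots of unity of `q`-power order as units of `A` -/

section Root

variable (A : ValuationSubring Kbar)

omit A in
theorem root_ne_zero {w : Kbar} {n : ℕ} (hn : n ≠ 0) (hw : w ^ n = 1) : w ≠ 0 := fun h0 => by
  rw [h0, zero_pow hn] at hw; exact zero_ne_one hw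

/-- A root of unity as a unit of `A`. -/
def rootUnit (w : Kbar) (n : ℕ) (hn : n ≠ 0) (hw : w ^ n = 1) : (↥A)ˣ where
  val := ⟨w, Fermat.Agent.S28.H48.mem_of_pow_eq_one A hn hw⟩
  inv := ⟨w⁻¹, Fermat.Agent.S28.H48.mem_of_pow_eq_one A hn (by rw [inv_pow, hw, inv_one])⟩
  val_inv := Subtype.ext (mul_inv_cancel₀ (root_ne_zero hn hw))
  inv_val := Subtype.ext (inv_mul_cancel₀ (root_ne_zero hn hw))

theorem coe_rootUnit (w : Kbar) (n : ℕ) (hn : n ≠ 0) (hw : w ^ n = 1) :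
    (((_root_.Fermat.Agent.S45.NUE.H31.rootUnit A w n hn hw : (↥A)ˣ) : ↥A) : Kbar) = w := rfl

theorem coe_rootUnit_inv (w : Kbar) (n : ℕ) (hn : n ≠ 0) (hw : w ^ n = 1) :
    ((((_root_.Fermat.Agent.S45.NUE.H31.rootUnit A w n hn hw)⁻¹ : (↥A)ˣ) : ↥A) : Kbar) = w⁻¹ := rfl

/-- The twist by a root of unity preserves the Gauss ring, in both directions. -/
theorem twist_root_mem_iff (w : Kbar) (n : ℕ) (hn : n ≠ 0) (hw : w ^ n = 1)
    (x : LaurentSeries Kbar) : twist w x ∈ gaussRingV A ↔ x ∈ gaussRingV A := by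
  have hw0 : w ≠ 0 := root_ne_zero hn hw
  constructor
  · intro h
    have h1 := twist_mem_gaussRingV A (_root_.Fermat.Agent.S45.NUE.H31.rootUnit A w n hn hw)⁻¹ h
    rw [coe_rootUnit_inv, twist_twist, inv_mul_cancel₀ hw0, twist_one_left] at h1
    exact h1
  · intro h
    exact twist_mem_gaussRingV A (_root_.Fermat.Agent.S45.NUE.H31.rootUnit A w n hn hw) h

/-- Over `q` the residue of a root of unity of `q`-power order is `1`. -/
theorem resV_rootUnit (q : ℕ) (hq : q.Prime) (hA : (q : Kbar) ∈ A.nonunits) (w : Kbar) (m : ℕ)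
    (hw : w ^ (q ^ m) = 1) :
    resV A ((_root_.Fermat.Agent.S45.NUE.H31.rootUnit A w (q ^ m) (pow_ne_zero _ hq.ne_zero) hw : (↥A)ˣ) : ↥A) = 1 := by
  haveI : CharP (kV A) q := Fermat.Agent.BAD.H82.charP_kV A hq hA
  haveI : Fact q.Prime := ⟨hq⟩
  have h1 : ((_root_.Fermat.Agent.S45.NUE.H31.rootUnit A w (q ^ m) (pow_ne_zero _ hq.ne_zero) hw : (↥A)ˣ) : ↥A) ^ (q ^ m) = 1 := by
    apply Subtype.ext
    show w ^ (q ^ m) = 1
    exact hw
  have h2 : (resV A ((_root_.Fermat.Agent.S45.NUE.H31.rootUnit A w (q ^ m) (pow_ne_zero _ hq.ne_zero) hw : (↥A)ˣ) : ↥A) - 1)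
      ^ (q ^ m) = 0 := by
    rw [sub_pow_char_pow, ← map_pow, h1, map_one, one_pow, sub_self]
  have h3 := pow_eq_zero_iff (pow_ne_zero m hq.ne_zero) |>.mp h2
  exact sub_eq_zero.mp h3

/-- Over `q`, the twist by a root of unity of `q`-power order does not change the reduction. -/
theorem gaussRedV_twist_root (q : ℕ) (hq : q.Prime) (hA : (q : Kbar) ∈ A.nonunits) (w : Kbar)
    (m : ℕ) (hw : w ^ (q ^ m) = 1) (x : LaurentSeries Kbar) (hx : x ∈ gaussRingV A)
    (hx' : twist w x ∈ gaussRingV A) :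
    gaussRedV A ⟨twist w x, hx'⟩ = gaussRedV A ⟨x, hx⟩ :=
  gaussRedV_twist_of_res_eq_one A (_root_.Fermat.Agent.S45.NUE.H31.rootUnit A w (q ^ m) (pow_ne_zero _ hq.ne_zero) hw)
    (_root_.Fermat.Agent.S45.NUE.H31.resV_rootUnit A q hq hA w m hw) ⟨x, hx⟩ hx'

end Root

section Restr

variable (A : ValuationSubring Kbar)
variable (N q M e : ℕ) (B k Bu ku : ℤ) (hN : N = M * q ^ e)
  (hB : B * M + k * (q : ℤ) ^ e = 1)
  (hNu : N * q = M * q ^ (e + 1)) (hBu : Bu * M + ku * (q : ℤ) ^ (e + 1) = 1)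
  (hq : q.Prime) [NeZero N] [NeZero q]

/-- `t ↦ t^n` reflects the Gauss ring on the image of `cE a`. -/
theorem qExpand_cE_mem_iff (a n : ℕ) [NeZero n] (x : FN N) :
    qExpand Kbar n (_root_.Fermat.Agent.S45.NUE.H23.cE N q M e B k hN hB hq a x) ∈ gaussRingV A
      ↔ _root_.Fermat.Agent.S45.NUE.H23.cE N q M e B k hN hB hq a x ∈ gaussRingV A := by
  constructor
  · intro h
    by_cases hx : x = 0
    · rw [hx, map_zero]; exact zero_mem _
    haveI := neZero_nE N q M e B k hN hB hq a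
    have hmem : _root_.Fermat.Agent.S45.NUE.H23.cE N q M e B k hN hB hq a x
        ∈ (cG (hE N q M e B k hN hB hq a)).fieldRange := ⟨x, rfl⟩
    have hne : _root_.Fermat.Agent.S45.NUE.H23.cE N q M e B k hN hB hq a x ≠ 0 := fun h0 =>
      hx (_root_.Fermat.Agent.S45.NUE.H23.cE_injective N q M e B k hN hB hq a (by rw [h0, map_zero]))
    exact Fermat.Agent.BAD.H82.mem_gaussRingV_of_Fr_mem A n
      (hasScale_cG (hE N q M e B k hN hB hq a) A _ hmem hne) h
  · exact fun h => Fermat.Agent.BAD.H73.qExpand_mem_gaussRingV A n h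

/-! ### `α` -/

/-- `α x ∈ V_a ↔ x ∈ V'_a` (every `a`). -/
theorem alpha_mem_VF_iff (a : ℕ) (x : FN N) :
    heckeAlphaBar Kbar N q x ∈ VF A (N * q) q M (e + 1) Bu ku hNu hBu hq a
      ↔ x ∈ VF A N q M e B k hN hB hq a := by
  rw [mem_VF_iff, mem_VF_iff]
  rcases Nat.lt_or_ge e (2 * a) with h | h
  · rw [cE_alpha_gt N q M e B k Bu ku hN hB hNu hBu hq a h x]
  · rw [cE_alpha_le N q M e B k Bu ku hN hB hNu hBu hq a h x]
    exact qExpand_cE_mem_iff A N q M e B k hN hB hq a q x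

/-- `α x ∈ V_(e+1) ↔ x ∈ V'_e` (the cusps `∞`). -/
theorem alpha_mem_VF_top_iff (x : FN N) :
    heckeAlphaBar Kbar N q x ∈ VF A (N * q) q M (e + 1) Bu ku hNu hBu hq (e + 1)
      ↔ x ∈ VF A N q M e B k hN hB hq e := by
  rw [mem_VF_iff, mem_VF_iff, cE_alpha_top N q M e B k Bu ku hN hB hNu hBu hq x]

/-- `α x ∈ V_a ↔ x ∈ V'_(min a e)`, `a ≤ e + 1`. -/
theorem alpha_mem_VF_min_iff (a : ℕ) (ha : a ≤ e + 1) (x : FN N) :
    heckeAlphaBar Kbar N q x ∈ VF A (N * q) q M (e + 1) Bu ku hNu hBu hq a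
      ↔ x ∈ VF A N q M e B k hN hB hq (min a e) := by
  rcases Nat.lt_or_ge e a with h | h
  · obtain rfl : a = e + 1 := by omega
    rw [show min (e + 1) e = e by omega]
    exact alpha_mem_VF_top_iff A N q M e B k Bu ku hN hB hNu hBu hq x
  · rw [show min a e = a by omega]
    exact alpha_mem_VF_iff A N q M e B k Bu ku hN hB hNu hBu hq a x

/-- `2 a ≤ e`: `red_a (α x) = (red'_a x)(s^q)`. -/
theorem red_alpha_le (a : ℕ) (ha : 2 * a ≤ e) (x : FN N)
    (h : _root_.Fermat.Agent.S45.NUE.H23.cE N q M e B k hN hB hq a x ∈ gaussRingV A)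
    (h' : _root_.Fermat.Agent.S45.NUE.H23.cE (N * q) q M (e + 1) Bu ku hNu hBu hq a (heckeAlphaBar Kbar N q x) ∈ gaussRingV A) :
    gaussRedV A ⟨_, h'⟩ = qExpand (kV A) q (gaussRedV A ⟨_, h⟩) := by
  rw [← Fermat.Agent.BAD.H73.gaussRedV_qExpand A q h
    (Fermat.Agent.BAD.H73.qExpand_mem_gaussRingV A q h)]
  congr 1
  exact Subtype.ext (cE_alpha_le N q M e B k Bu ku hN hB hNu hBu hq a ha x)

/-- `e < 2 a`: `red_a (α x) = red'_a x`. -/
theorem red_alpha_gt (a : ℕ) (ha : e < 2 * a) (x : FN N)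
    (h : _root_.Fermat.Agent.S45.NUE.H23.cE N q M e B k hN hB hq a x ∈ gaussRingV A)
    (h' : _root_.Fermat.Agent.S45.NUE.H23.cE (N * q) q M (e + 1) Bu ku hNu hBu hq a (heckeAlphaBar Kbar N q x) ∈ gaussRingV A) :
    gaussRedV A ⟨_, h'⟩ = gaussRedV A ⟨_, h⟩ := by
  congr 1
  exact Subtype.ext (cE_alpha_gt N q M e B k Bu ku hN hB hNu hBu hq a ha x)

/-- `a = e + 1`: `red_(e+1) (α x) = red'_e x`. -/
theorem red_alpha_top (x : FN N)
    (h : _root_.Fermat.Agent.S45.NUE.H23.cE N q M e B k hN hB hq e x ∈ gaussRingV A)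
    (h' : _root_.Fermat.Agent.S45.NUE.H23.cE (N * q) q M (e + 1) Bu ku hNu hBu hq (e + 1) (heckeAlphaBar Kbar N q x)
      ∈ gaussRingV A) :
    gaussRedV A ⟨_, h'⟩ = gaussRedV A ⟨_, h⟩ := by
  congr 1
  exact Subtype.ext (cE_alpha_top N q M e B k Bu ku hN hB hNu hBu hq x)

/-! ### `β` -/

/-- `β x ∈ V_a ↔ x ∈ V'_(a-1)` (every `a`; `a = 0 ↦ 0`). -/
theorem beta_mem_VF_iff (a : ℕ) (x : FN N) :
    heckeBetaBar Kbar N q x ∈ VF A (N * q) q M (e + 1) Bu ku hNu hBu hq a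
      ↔ x ∈ VF A N q M e B k hN hB hq (a - 1) := by
  rw [mem_VF_iff, mem_VF_iff]
  rcases Nat.eq_zero_or_pos a with h0 | h0
  · subst h0
    rw [cE_beta_zero N q M e B k Bu ku hN hB hNu hBu hq x]
    exact twist_root_mem_iff A _ (q ^ (e + 1)) (pow_ne_zero _ hq.ne_zero) (wBeta_pow q e B Bu) _
  rcases Nat.lt_or_ge (e + 1) (2 * a) with h | h
  · rw [cE_beta_gt N q M e B k Bu ku hN hB hNu hBu hq a (by omega) x]
    exact qExpand_cE_mem_iff A N q M e B k hN hB hq (a - 1) q x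
  · rw [cE_beta_le N q M e B k Bu ku hN hB hNu hBu hq a h0 h x]

/-- `1 ≤ a`, `2 a ≤ e + 1`: `red_a (β x) = red'_(a-1) x`. -/
theorem red_beta_le (a : ℕ) (ha1 : 1 ≤ a) (ha : 2 * a ≤ e + 1) (x : FN N)
    (h : _root_.Fermat.Agent.S45.NUE.H23.cE N q M e B k hN hB hq (a - 1) x ∈ gaussRingV A)
    (h' : _root_.Fermat.Agent.S45.NUE.H23.cE (N * q) q M (e + 1) Bu ku hNu hBu hq a (heckeBetaBar Kbar N q x) ∈ gaussRingV A) :
    gaussRedV A ⟨_, h'⟩ = gaussRedV A ⟨_, h⟩ := by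
  congr 1
  exact Subtype.ext (cE_beta_le N q M e B k Bu ku hN hB hNu hBu hq a ha1 ha x)

/-- `e + 2 ≤ 2 a`: `red_a (β x) = (red'_(a-1) x)(s^q)`. -/
theorem red_beta_gt (a : ℕ) (ha : e + 2 ≤ 2 * a) (x : FN N)
    (h : _root_.Fermat.Agent.S45.NUE.H23.cE N q M e B k hN hB hq (a - 1) x ∈ gaussRingV A)
    (h' : _root_.Fermat.Agent.S45.NUE.H23.cE (N * q) q M (e + 1) Bu ku hNu hBu hq a (heckeBetaBar Kbar N q x) ∈ gaussRingV A) :
    gaussRedV A ⟨_, h'⟩ = qExpand (kV A) q (gaussRedV A ⟨_, h⟩) := by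
  rw [← Fermat.Agent.BAD.H73.gaussRedV_qExpand A q h
    (Fermat.Agent.BAD.H73.qExpand_mem_gaussRingV A q h)]
  congr 1
  exact Subtype.ext (cE_beta_gt N q M e B k Bu ku hN hB hNu hBu hq a ha x)

/-- `a = 0`, `A` over `q`: `red_0 (β x) = red'_0 x`. -/
theorem red_beta_zero (hA : (q : Kbar) ∈ A.nonunits) (x : FN N)
    (h : _root_.Fermat.Agent.S45.NUE.H23.cE N q M e B k hN hB hq 0 x ∈ gaussRingV A)
    (h' : _root_.Fermat.Agent.S45.NUE.H23.cE (N * q) q M (e + 1) Bu ku hNu hBu hq 0 (heckeBetaBar Kbar N q x) ∈ gaussRingV A) :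
    gaussRedV A ⟨_, h'⟩ = gaussRedV A ⟨_, h⟩ := by
  have hm : twist (wBeta q e B Bu) (_root_.Fermat.Agent.S45.NUE.H23.cE N q M e B k hN hB hq 0 x) ∈ gaussRingV A :=
    (twist_root_mem_iff A _ (q ^ (e + 1)) (pow_ne_zero _ hq.ne_zero) (wBeta_pow q e B Bu) _).2 h
  rw [← gaussRedV_twist_root A q hq hA (wBeta q e B Bu) (e + 1) (wBeta_pow q e B Bu) _ h hm]
  congr 1
  exact Subtype.ext (cE_beta_zero N q M e B k Bu ku hN hB hNu hBu hq x)

/-! ### On the inertia-fixed functions `L0` (the exact forms `hV`, `hcompat` of helper33's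
`norm_single_wild` / `norm_single_insep`) -/

open Fermat.Agent.S36.NU.H26 in
/-- `α` on the inertia-fixed functions. -/
def alphaL0 : ↥(L0 A N) →+* ↥(L0 A (N * q)) :=
  mapL0 A (heckeAlphaBar Kbar N q) (arithEquivariant_alpha N q)

open Fermat.Agent.S36.NU.H26 in
/-- `β` on the inertia-fixed functions. -/
def betaL0 : ↥(L0 A N) →+* ↥(L0 A (N * q)) :=
  mapL0 A (heckeBetaBar Kbar N q) (arithEquivariant_beta N q)

theorem coe_alphaL0 (x : ↥(L0 A N)) :
    ((alphaL0 A N q x : ↥(L0 A (N * q))) : FN (N * q)) = heckeAlphaBar Kbar N q (x : FN N) := rfl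

theorem coe_betaL0 (x : ↥(L0 A N)) :
    ((betaL0 A N q x : ↥(L0 A (N * q))) : FN (N * q)) = heckeBetaBar Kbar N q (x : FN N) := rfl

open Fermat.Agent.S36.NU.H26 in
theorem alphaL0_eq : alphaL0 A N q
    = mapL0 A (heckeAlphaBar Kbar N q) (arithEquivariant_alpha N q) := rfl

open Fermat.Agent.S36.NU.H26 in
theorem betaL0_eq : betaL0 A N q
    = mapL0 A (heckeBetaBar Kbar N q) (arithEquivariant_beta N q) := rfl

/-- **hV along `α`**: `x ∈ V'_a ↔ α x ∈ V_a` (every `a`). -/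
theorem hV_alpha (a : ℕ) (x : ↥(L0 A N)) :
    x ∈ VE A N q M e B k hN hB hq a
      ↔ alphaL0 A N q x ∈ VE A (N * q) q M (e + 1) Bu ku hNu hBu hq a :=
  (alpha_mem_VF_iff A N q M e B k Bu ku hN hB hNu hBu hq a (x : FN N)).symm

/-- **hV along `α`, top**: `x ∈ V'_e ↔ α x ∈ V_(e+1)`. -/
theorem hV_alpha_top (x : ↥(L0 A N)) :
    x ∈ VE A N q M e B k hN hB hq e
      ↔ alphaL0 A N q x ∈ VE A (N * q) q M (e + 1) Bu ku hNu hBu hq (e + 1) :=
  (alpha_mem_VF_top_iff A N q M e B k Bu ku hN hB hNu hBu hq (x : FN N)).symm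

/-- **hV along `α`**, with `min a e`, `a ≤ e + 1`. -/
theorem hV_alpha_min (a : ℕ) (ha : a ≤ e + 1) (x : ↥(L0 A N)) :
    x ∈ VE A N q M e B k hN hB hq (min a e)
      ↔ alphaL0 A N q x ∈ VE A (N * q) q M (e + 1) Bu ku hNu hBu hq a :=
  (alpha_mem_VF_min_iff A N q M e B k Bu ku hN hB hNu hBu hq a ha (x : FN N)).symm

/-- **hV along `β`**: `x ∈ V'_(a-1) ↔ β x ∈ V_a` (every `a`; `a = 0 ↦ 0`). -/
theorem hV_beta (a : ℕ) (x : ↥(L0 A N)) :
    x ∈ VE A N q M e B k hN hB hq (a - 1)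
      ↔ betaL0 A N q x ∈ VE A (N * q) q M (e + 1) Bu ku hNu hBu hq a :=
  (beta_mem_VF_iff A N q M e B k Bu ku hN hB hNu hBu hq a (x : FN N)).symm

/-- **hcompat along `α`, inseparable shape** (`2 a ≤ e`): `s_a (α x) = (s'_a x)(s^q)`. -/
theorem hcompat_alpha_le (a : ℕ) (ha : 2 * a ≤ e) (x : ↥(VE A N q M e B k hN hB hq a))
    (hx : alphaL0 A N q (x : ↥(L0 A N)) ∈ VE A (N * q) q M (e + 1) Bu ku hNu hBu hq a) :
    _root_.Fermat.Agent.S45.NUE.H23.sE A (N * q) q M (e + 1) Bu ku hNu hBu hq a ⟨_, hx⟩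
      = qExpand (kV A) q (_root_.Fermat.Agent.S45.NUE.H23.sE A N q M e B k hN hB hq a x) :=
  red_alpha_le A N q M e B k Bu ku hN hB hNu hBu hq a ha ((x : ↥(L0 A N)) : FN N) x.2 hx

/-- **hcompat along `α`, wild shape** (`e < 2 a`): `s_a (α x) = s'_a x`. -/
theorem hcompat_alpha_gt (a : ℕ) (ha : e < 2 * a) (x : ↥(VE A N q M e B k hN hB hq a))
    (hx : alphaL0 A N q (x : ↥(L0 A N)) ∈ VE A (N * q) q M (e + 1) Bu ku hNu hBu hq a) :
    _root_.Fermat.Agent.S45.NUE.H23.sE A (N * q) q M (e + 1) Bu ku hNu hBu hq a ⟨_, hx⟩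
      = _root_.Fermat.Agent.S45.NUE.H23.sE A N q M e B k hN hB hq a x :=
  red_alpha_gt A N q M e B k Bu ku hN hB hNu hBu hq a ha ((x : ↥(L0 A N)) : FN N) x.2 hx

/-- **hcompat along `α`, top** (`a = e + 1 ↦ e`): `s_(e+1) (α x) = s'_e x`. -/
theorem hcompat_alpha_top (x : ↥(VE A N q M e B k hN hB hq e))
    (hx : alphaL0 A N q (x : ↥(L0 A N)) ∈ VE A (N * q) q M (e + 1) Bu ku hNu hBu hq (e + 1)) :
    _root_.Fermat.Agent.S45.NUE.H23.sE A (N * q) q M (e + 1) Bu ku hNu hBu hq (e + 1) ⟨_, hx⟩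
      = _root_.Fermat.Agent.S45.NUE.H23.sE A N q M e B k hN hB hq e x :=
  red_alpha_top A N q M e B k Bu ku hN hB hNu hBu hq ((x : ↥(L0 A N)) : FN N) x.2 hx

/-- **hcompat along `β`, wild shape** (`1 ≤ a`, `2 a ≤ e + 1`): `s_a (β x) = s'_(a-1) x`. -/
theorem hcompat_beta_le (a : ℕ) (ha1 : 1 ≤ a) (ha : 2 * a ≤ e + 1)
    (x : ↥(VE A N q M e B k hN hB hq (a - 1)))
    (hx : betaL0 A N q (x : ↥(L0 A N)) ∈ VE A (N * q) q M (e + 1) Bu ku hNu hBu hq a) :
    _root_.Fermat.Agent.S45.NUE.H23.sE A (N * q) q M (e + 1) Bu ku hNu hBu hq a ⟨_, hx⟩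
      = _root_.Fermat.Agent.S45.NUE.H23.sE A N q M e B k hN hB hq (a - 1) x :=
  red_beta_le A N q M e B k Bu ku hN hB hNu hBu hq a ha1 ha ((x : ↥(L0 A N)) : FN N) x.2 hx

/-- **hcompat along `β`, inseparable shape** (`e + 2 ≤ 2 a`):
`s_a (β x) = (s'_(a-1) x)(s^q)`. -/
theorem hcompat_beta_gt (a : ℕ) (ha : e + 2 ≤ 2 * a)
    (x : ↥(VE A N q M e B k hN hB hq (a - 1)))
    (hx : betaL0 A N q (x : ↥(L0 A N)) ∈ VE A (N * q) q M (e + 1) Bu ku hNu hBu hq a) :
    _root_.Fermat.Agent.S45.NUE.H23.sE A (N * q) q M (e + 1) Bu ku hNu hBu hq a ⟨_, hx⟩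
      = qExpand (kV A) q (_root_.Fermat.Agent.S45.NUE.H23.sE A N q M e B k hN hB hq (a - 1) x) :=
  red_beta_gt A N q M e B k Bu ku hN hB hNu hBu hq a ha ((x : ↥(L0 A N)) : FN N) x.2 hx

/-- **hcompat along `β` at the cusp `0`** (`a = 0 ↦ 0`, `A` over `q`): `s_0 (β x) = s'_0 x`. -/
theorem hcompat_beta_zero (hA : (q : Kbar) ∈ A.nonunits)
    (x : ↥(VE A N q M e B k hN hB hq 0))
    (hx : betaL0 A N q (x : ↥(L0 A N)) ∈ VE A (N * q) q M (e + 1) Bu ku hNu hBu hq 0) :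
    _root_.Fermat.Agent.S45.NUE.H23.sE A (N * q) q M (e + 1) Bu ku hNu hBu hq 0 ⟨_, hx⟩
      = _root_.Fermat.Agent.S45.NUE.H23.sE A N q M e B k hN hB hq 0 x :=
  red_beta_zero A N q M e B k Bu ku hN hB hNu hBu hq hA ((x : ↥(L0 A N)) : FN N) x.2 hx

end Restr

end Fermat.Agent.S45.NUE.H31

end
end
-- ==== END Fermat.Agent.S45.NUE.H31_AlphaBeta3

-- ==== BEGIN Fermat.Agent.S45.NUE.H33_NormMod
section

/-!
# S45 / NU_e, package E-NORM (helper33): NORM-RED for the single components, modular form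

Lower level `Nl = M q ^ e`, upper level `Nu = M q ^ (e + 1)`, `q ∤ M`, `A` over `q`,
`φ : F_{Nl} → F_{Nu}` one of the two degeneracy maps (`α`, `β`; any `φ` commuting with the
arithmetic Galois action, finite of degree `q`).  `a` an index of the upper level, `a'` an index
of the lower level, such that `V_a` is the ONLY valuation ring of `L0 A Nu` above `V'_{a'}`
along `φ`.  With the restriction table (N1), the fibre (N4) and the residue field
(`sE a x ∈ fullC k M`, E-TOT) as hypotheses: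

* `norm_single_wild` (`sE a (φ x) = sE' a' x`: ramification index `q`, residue degree `1`):
  `sE' a' (N_φ h) = (sE a h) ^ q`;
* `norm_single_insep` (`sE a (φ x) = (sE' a' x)(s ^ q)`: ramification index `1`, residue degree
  `q`, purely inseparable): `(sE' a' (N_φ h))(s ^ q) = (sE a h) ^ q`.

No uniformiser, no discreteness: `H33.red_norm_of_unique_pi`.
-/

set_option autoImplicit false
set_option linter.style.haveILetI false
set_option linter.unusedSectionVars false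
set_option synthInstance.maxHeartbeats 400000
set_option maxHeartbeats 1000000

noncomputable section

namespace Fermat.Agent.S45.NUE.H33

open AlgebraicCurve ModularCurve Fermat.Agent.S24 Fermat.Agent.Lib.HeckeComm
  Fermat.Agent.S36.H44 Fermat.Agent.BAD Fermat.Agent.S36.NU.H23 Fermat.Agent.BAD.H88
  Fermat.Agent.S36.NU.H26 Fermat.Agent.S45.NUE.H51 Fermat.Agent.S45.NUE.H23
  Fermat.Agent.S28 Fermat.Agent.S28.H73 Fermat.Agent.RED.H73 Fermat.Agent.RED.H17

section Mod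

variable (A : ValuationSubring Kbar) (q M e Nl Nu : ℕ) (Bl kl Bu ku : ℤ)
  (hNl : Nl = M * q ^ e) (hBl : Bl * M + kl * (q : ℤ) ^ e = 1)
  (hNu : Nu = M * q ^ (e + 1)) (hBu : Bu * M + ku * (q : ℤ) ^ (e + 1) = 1)
  (hq : q.Prime) [NeZero M] [NeZero q] [NeZero Nl] [NeZero Nu]
  (φ : FN Nl →ₐ[Kbar] FN Nu) (hint : ArithEquivariant φ) (hfin : FiniteAlong Kbar φ)
  (hdeg : finrankAlong Kbar φ = q)

/-- The series field `k((s))` has characteristic exponent `q`. -/
theorem expChar_series (A : ValuationSubring Kbar) (q : ℕ) (hq : q.Prime)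
    (hA : A.LiesOverPrime q) : ExpChar (LaurentSeries (kV A)) q := by
  haveI : CharP (kV A) q := Fermat.Agent.BAD.H82.charP_kV A hq hA
  haveI : CharP (LaurentSeries (kV A)) q :=
    charP_of_injective_algebraMap (algebraMap (kV A) (LaurentSeries (kV A))).injective q
  exact ExpChar.prime hq

include hdeg in
/-- **NORM-RED for a single component, wild shape** (`e = q`, `f = 1`). -/
theorem norm_single_wild (hqM : ¬ q ∣ M) (hA : A.LiesOverPrime q) (a a' : ℕ) (ha' : a' ≤ e)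
    (hmem : ∀ x : ↥(VE A Nu q M (e + 1) Bu ku hNu hBu hq a),
      _root_.Fermat.Agent.S45.NUE.H23.sE A Nu q M (e + 1) Bu ku hNu hBu hq a x ∈ modularFunctionFieldFullC (kV A) M)
    (hV : ∀ x : ↥(L0 A Nl), x ∈ VE A Nl q M e Bl kl hNl hBl hq a'
      ↔ mapL0 A φ hint x ∈ VE A Nu q M (e + 1) Bu ku hNu hBu hq a)
    (hcompat : ∀ (x : ↥(VE A Nl q M e Bl kl hNl hBl hq a'))
      (hx : mapL0 A φ hint (x : ↥(L0 A Nl)) ∈ VE A Nu q M (e + 1) Bu ku hNu hBu hq a),
      _root_.Fermat.Agent.S45.NUE.H23.sE A Nu q M (e + 1) Bu ku hNu hBu hq a ⟨_, hx⟩ = _root_.Fermat.Agent.S45.NUE.H23.sE A Nl q M e Bl kl hNl hBl hq a' x)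
    (huniq : UniqAlong (mapL0 A φ hint) (VE A Nu q M (e + 1) Bu ku hNu hBu hq a))
    (h : ↥(L0 A Nu)) (hh : h ∈ VE A Nu q M (e + 1) Bu ku hNu hBu hq a) :
    ∃ hm : nmE A φ hint hfin h ∈ VE A Nl q M e Bl kl hNl hBl hq a',
      _root_.Fermat.Agent.S45.NUE.H23.sE A Nl q M e Bl kl hNl hBl hq a' ⟨_, hm⟩
        = _root_.Fermat.Agent.S45.NUE.H23.sE A Nu q M (e + 1) Bu ku hNu hBu hq a ⟨h, hh⟩ ^ q := by
  haveI := expChar_series A q hq hA
  have hle : modularFunctionFieldBar M ≤ modularFunctionFieldBar Nl :=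
    Fermat.Agent.S45.NUE.H17.hleE Nl q M e hNl
  have hpi : ∀ x : ↥(VE A Nu q M (e + 1) Bu ku hNu hBu hq a),
      ∃ y : ↥(VE A Nl q M e Bl kl hNl hBl hq a'),
        _root_.Fermat.Agent.S45.NUE.H23.sE A Nu q M (e + 1) Bu ku hNu hBu hq a x ^ q
          = RingHom.id (LaurentSeries (kV A)) (_root_.Fermat.Agent.S45.NUE.H23.sE A Nl q M e Bl kl hNl hBl hq a' y) := by
    intro x
    obtain ⟨y, hy⟩ := Fermat.Agent.S45.NUE.H17.exists_sE_eq A Nl q M e Bl kl hNl hBl hq hqM hA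
      hle a' ha' _ (pow_mem (hmem x) q)
    exact ⟨y, hy.symm⟩
  obtain ⟨hm, e1⟩ := norm_single A φ hint hfin _ _ hV huniq q
    (_root_.Fermat.Agent.S45.NUE.H23.sE A Nu q M (e + 1) Bu ku hNu hBu hq a) (_root_.Fermat.Agent.S45.NUE.H23.sE A Nl q M e Bl kl hNl hBl hq a')
    (RingHom.id _) (_root_.Fermat.Agent.S45.NUE.H23.sE_eq_zero_of_not_isUnit A Nu q M (e + 1) Bu ku hNu hBu hq a)
    hcompat hpi h hh
  refine ⟨hm, ?_⟩
  rw [hdeg] at e1
  exact e1

include hdeg in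
/-- **NORM-RED for a single component, inseparable shape** (`e = 1`, `f = q`). -/
theorem norm_single_insep (hqM : ¬ q ∣ M) (hA : A.LiesOverPrime q) (a a' : ℕ) (ha' : a' ≤ e)
    (hmem : ∀ x : ↥(VE A Nu q M (e + 1) Bu ku hNu hBu hq a),
      _root_.Fermat.Agent.S45.NUE.H23.sE A Nu q M (e + 1) Bu ku hNu hBu hq a x ∈ modularFunctionFieldFullC (kV A) M)
    (hV : ∀ x : ↥(L0 A Nl), x ∈ VE A Nl q M e Bl kl hNl hBl hq a'
      ↔ mapL0 A φ hint x ∈ VE A Nu q M (e + 1) Bu ku hNu hBu hq a)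
    (hcompat : ∀ (x : ↥(VE A Nl q M e Bl kl hNl hBl hq a'))
      (hx : mapL0 A φ hint (x : ↥(L0 A Nl)) ∈ VE A Nu q M (e + 1) Bu ku hNu hBu hq a),
      _root_.Fermat.Agent.S45.NUE.H23.sE A Nu q M (e + 1) Bu ku hNu hBu hq a ⟨_, hx⟩
        = qExpand (kV A) q (_root_.Fermat.Agent.S45.NUE.H23.sE A Nl q M e Bl kl hNl hBl hq a' x))
    (huniq : UniqAlong (mapL0 A φ hint) (VE A Nu q M (e + 1) Bu ku hNu hBu hq a))
    (h : ↥(L0 A Nu)) (hh : h ∈ VE A Nu q M (e + 1) Bu ku hNu hBu hq a) :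
    ∃ hm : nmE A φ hint hfin h ∈ VE A Nl q M e Bl kl hNl hBl hq a',
      qExpand (kV A) q (_root_.Fermat.Agent.S45.NUE.H23.sE A Nl q M e Bl kl hNl hBl hq a' ⟨_, hm⟩)
        = _root_.Fermat.Agent.S45.NUE.H23.sE A Nu q M (e + 1) Bu ku hNu hBu hq a ⟨h, hh⟩ ^ q := by
  haveI := expChar_series A q hq hA
  haveI : Fact q.Prime := ⟨hq⟩
  haveI : CharP (kV A) q := Fermat.Agent.BAD.H82.charP_kV A hq hA
  haveI : PerfectRing (kV A) q := Fermat.Agent.BAD.H73.perfectRing_kV A q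
  have hle : modularFunctionFieldBar M ≤ modularFunctionFieldBar Nl :=
    Fermat.Agent.S45.NUE.H17.hleE Nl q M e hNl
  have hpi : ∀ x : ↥(VE A Nu q M (e + 1) Bu ku hNu hBu hq a),
      ∃ y : ↥(VE A Nl q M e Bl kl hNl hBl hq a'),
        _root_.Fermat.Agent.S45.NUE.H23.sE A Nu q M (e + 1) Bu ku hNu hBu hq a x ^ q
          = qExpand (kV A) q (_root_.Fermat.Agent.S45.NUE.H23.sE A Nl q M e Bl kl hNl hBl hq a' y) := by
    intro x
    have h1 : Fermat.Agent.BAD.H73.frobL (kV A) q (_root_.Fermat.Agent.S45.NUE.H23.sE A Nu q M (e + 1) Bu ku hNu hBu hq a x)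
        ∈ modularFunctionFieldFullC (kV A) M :=
      (Fermat.Agent.BAD.H73.frobStable_fullC (k := kV A) q M).frobL_mem (hmem x)
    obtain ⟨y, hy⟩ := Fermat.Agent.S45.NUE.H17.exists_sE_eq A Nl q M e Bl kl hNl hBl hq hqM hA
      hle a' ha' _ h1
    refine ⟨y, ?_⟩
    rw [hy]
    exact Fermat.Agent.BAD.H73.pow_eq_qExpand_frobL (k := kV A) (q := q) _
  obtain ⟨hm, e1⟩ := norm_single A φ hint hfin _ _ hV huniq q
    (_root_.Fermat.Agent.S45.NUE.H23.sE A Nu q M (e + 1) Bu ku hNu hBu hq a) (_root_.Fermat.Agent.S45.NUE.H23.sE A Nl q M e Bl kl hNl hBl hq a')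
    (qExpand (kV A) q) (_root_.Fermat.Agent.S45.NUE.H23.sE_eq_zero_of_not_isUnit A Nu q M (e + 1) Bu ku hNu hBu hq a)
    hcompat hpi h hh
  refine ⟨hm, ?_⟩
  rw [hdeg] at e1
  exact e1

end Mod

end Fermat.Agent.S45.NUE.H33

end
end
-- ==== END Fermat.Agent.S45.NUE.H33_NormMod
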