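-- GENERATED (merged mirror, NOTES/tools/trim/merge3_helper67.py): 2 modules of the originals, bodies verbatim.
import Fermat.Agent.Zm.S45_L05_000
import Fermat.Agent.Zm.S45_L02_001
import Fermat.Agent.Zm.S44_L01_003
import Fermat.Agent.Zm.S45_L02_002

-- ==== BEGIN Fermat.Agent.S45.NUE.H51_ALE
section

/-!
# S45 / NU_e, package E-VV / N4 FIBRES (helper51): the Atkin–Lehner involution `W_{q^e}` and
THREE along `β^e`

`N = M q^e`, `B M + k q^e = 1`.

* `threeAlong_of_invol` (abstract): THREE along `ψ_β = w ∘ ψ_α` from THREE along `ψ_α`, if all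
  the valuations lie above `V₀` along `ψ_β`;
* `wE : F_N ≃ₐ F_N` the involution `W_{q^e}` (helper88's `wQ`), `wE_inclusion : wE x = x (q^e τ)`
  for `x` of level `M`; `wEo` on the inertia-fixed functions, `wEo_inclL0 = betaL0`;
* `threeAlong_beta` : THREE along `β^e` (`betaL0`) from THREE along the inclusion.
-/

set_option autoImplicit false
set_option synthInstance.maxHeartbeats 400000
set_option maxHeartbeats 1000000
set_option linter.unusedSectionVars false
set_option linter.unusedVariables false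
set_option linter.style.haveILetI false

noncomputable section

namespace Fermat.Agent.S45.NUE.H51

open Fermat.Agent.S24 Fermat.Agent.BAD.H88 ModularCurve AlgebraicCurve
open Fermat.Agent.S36.NU.H88 Fermat.Agent.S45.NUE.H23 Fermat.Agent.S45.NUE.H17

local notation "L0" => Fermat.Agent.S36.NU.H23.L0
local notation "VE0" => Fermat.Agent.S36.NU.H23.VE0
local notation "inclL0" => Fermat.Agent.S36.NU.H23.inclL0

/-! ## Abstract part -/

section Abs

variable {E₀ L : Type} [Field E₀] [Field L] {ι : Type}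

/-- **THREE along `ψ_β = w ∘ ψ_α`** from THREE along `ψ_α`. -/
theorem threeAlong_of_invol (ψα ψβ : E₀ →+* L) (V₀ : ValuationSubring E₀)
    (V : ι → ValuationSubring L) (w : L →+* L) (hww : ∀ x, w (w x) = x)
    (hw : ∀ a, w (ψα a) = ψβ a) (hthree : ThreeAlong ψα V₀ V)
    (hbaseβ : ∀ j, ∀ a ∈ V₀, ψβ a ∈ V j) : ThreeAlong ψβ V₀ V := by
  intro W' htop hW'
  set Y : ValuationSubring L := W'.comap w with hY
  have hmem : ∀ x, x ∈ Y ↔ w x ∈ W' := fun x => Iff.rfl
  have hYtop : Y ≠ ⊤ := by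
    intro h
    apply htop
    rw [eq_top_iff]
    intro x _
    have : w x ∈ Y := by rw [h]; trivial
    rw [hmem, hww] at this
    exact this
  obtain ⟨j, hj⟩ := hthree Y hYtop (fun a ha => by rw [hmem, hw]; exact hW' a ha)
  refine hthree W' htop (fun a ha => ?_)
  have h1 : w (ψα a) ∈ Y := by rw [hj, hw]; exact hbaseβ j a ha
  rw [hmem, hww] at h1
  exact h1

end Abs

/-! ## The involution `W_{q^e}` -/

section AL

variable (A : ValuationSubring Kbar)
variable (N q M e : ℕ) (B k : ℤ) (hN : N = M * q ^ e) (hB : B * M + k * (q : ℤ) ^ e = 1)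
  (hq : q.Prime) [NeZero N] [NeZero q] [NeZero M]

include hB in
theorem habE : k * ((q ^ e : ℕ) : ℤ) + B * (M : ℤ) = 1 := by
  push_cast
  linarith

/-- **The Atkin–Lehner involution `W_{q^e}`** of `F_N`, `N = M q^e`. -/
def wE : FN N ≃ₐ[Kbar] FN N := wQ N (q ^ e) M k B hN (habE q M e B k hB)

theorem wE_wE (x : FN N) : _root_.Fermat.Agent.S45.NUE.H51.wE N q M e B k hN hB (_root_.Fermat.Agent.S45.NUE.H51.wE N q M e B k hN hB x) = x :=
  wQ_wQ N (q ^ e) M k B hN (habE q M e B k hB) x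

theorem wE_arith (σ : Kbar ≃ₐ[ℚ] Kbar) (x : FN N) :
    _root_.Fermat.Agent.S45.NUE.H51.wE N q M e B k hN hB (arithmeticRingAut (modularFunctionFieldFull N) σ x)
      = arithmeticRingAut (modularFunctionFieldFull N) σ (_root_.Fermat.Agent.S45.NUE.H51.wE N q M e B k hN hB x) :=
  wQ_arith N (q ^ e) M k B hN (habE q M e B k hB) σ x

/-- **`W_{q^e} x = x (q^e τ)`** for `x` of level `M`. -/
theorem wE_inclusion (hle : modularFunctionFieldBar M ≤ modularFunctionFieldBar N) (x : FN M) :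
    _root_.Fermat.Agent.S45.NUE.H51.wE N q M e B k hN hB (IntermediateField.inclusion hle x) = betaE N q M e hN x := by
  have hq0 : 0 < q := Nat.pos_of_ne_zero (NeZero.ne q)
  have key : ((_root_.Fermat.Agent.S45.NUE.H51.wE N q M e B k hN hB : FN N ≃ₐ[Kbar] FN N) : FN N →ₐ[Kbar] FN N).comp
      (IntermediateField.inclusion hle) = betaE N q M e hN := by
    apply algHom_ext_of_adjoin _ (adjoin_jdF M)
    rintro y ⟨D, hD0, hD, rfl⟩
    obtain ⟨d', hM⟩ := hD
    have hD' : D ∣ M := ⟨d', hM⟩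
    have hDN : D ∣ N := hD'.trans ⟨q ^ e, hN⟩
    have hD0' : 0 < D := Nat.pos_of_ne_zero (NeZero.ne D)
    haveI : NeZero (D * q ^ e) := ⟨(Nat.mul_pos hD0' (pow_pos hq0 _)).ne'⟩
    have hDN' : D * q ^ e ∣ N := by rw [hN]; exact Nat.mul_dvd_mul_right hD' _
    have e1 : IntermediateField.inclusion hle (jdF M D hD') = jdF N D hDN := by
      apply Subtype.ext
      rw [IntermediateField.coe_inclusion, coe_jdF, coe_jdF]
    show _root_.Fermat.Agent.S45.NUE.H51.wE N q M e B k hN hB (IntermediateField.inclusion hle (jdF M D hD'))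
      = betaE N q M e hN (jdF M D hD')
    rw [e1, betaE_jdF N q M e hN D hD' hDN']
    exact wQ_jdF' N (q ^ e) M k B hN (habE q M e B k hB) D (D * q ^ e) D d' 1 (q ^ e)
      (mul_one D).symm rfl hM (one_mul _).symm hDN hDN'
  exact DFunLike.congr_fun key x

theorem wE_mem_L0 (x : FN N) (hx : x ∈ L0 A N) : _root_.Fermat.Agent.S45.NUE.H51.wE N q M e B k hN hB x ∈ L0 A N := by
  intro σ hσ
  rw [← wE_arith, hx σ hσ]

/-- `W_{q^e}` on the inertia-fixed functions. -/
def wEo : ↥(L0 A N) →+* ↥(L0 A N) :=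
  (((_root_.Fermat.Agent.S45.NUE.H51.wE N q M e B k hN hB : FN N ≃ₐ[Kbar] FN N) : FN N →+* FN N).comp
    (L0 A N).subtype).codRestrict (L0 A N)
    (fun x => wE_mem_L0 A N q M e B k hN hB (x : FN N) x.2)

theorem coe_wEo (x : ↥(L0 A N)) :
    ((wEo A N q M e B k hN hB x : ↥(L0 A N)) : FN N) = _root_.Fermat.Agent.S45.NUE.H51.wE N q M e B k hN hB (x : FN N) := rfl

theorem wEo_wEo (x : ↥(L0 A N)) : wEo A N q M e B k hN hB (wEo A N q M e B k hN hB x) = x :=
  Subtype.ext (wE_wE N q M e B k hN hB (x : FN N))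

theorem wEo_inclL0 (hle : modularFunctionFieldBar M ≤ modularFunctionFieldBar N)
    (x : ↥(L0 A M)) :
    wEo A N q M e B k hN hB (inclL0 A hle x) = betaL0 A N q M e hN x := by
  apply Subtype.ext
  rw [coe_wEo, Fermat.Agent.S36.NU.H23.coe_inclL0, wE_inclusion N q M e B k hN hB hle, coe_betaL0]

/-- **THREE along `β^e`** from THREE along the inclusion of the level `M`, for the valuations
`VE a`, `a ≤ e`. -/
theorem threeAlong_beta (hle : modularFunctionFieldBar M ≤ modularFunctionFieldBar N)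
    (hthree : ThreeAlong (inclL0 A hle) (VE0 A M)
      (fun a : Fin (e + 1) => VE A N q M e B k hN hB hq (a : ℕ))) :
    ThreeAlong (betaL0 A N q M e hN) (VE0 A M)
      (fun a : Fin (e + 1) => VE A N q M e B k hN hB hq (a : ℕ)) :=
  threeAlong_of_invol (inclL0 A hle) (betaL0 A N q M e hN) (VE0 A M) _
    (wEo A N q M e B k hN hB) (wEo_wEo A N q M e B k hN hB)
    (wEo_inclL0 A N q M e B k hN hB hle) hthree
    (fun a x hx => betaL0_mem_VE A N q M e B k hN hB hq (a : ℕ) (Nat.lt_succ_iff.1 a.2) x hx)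

end AL

end Fermat.Agent.S45.NUE.H51

end
end
-- ==== END Fermat.Agent.S45.NUE.H51_ALE

-- ==== BEGIN Fermat.Agent.S45.NUE.H82_EpsExp
section

/-!
# S45 / NU_e, package E-CUSP / E-EPS (helper82): the expansions of the units `eps_i` at the cusps

Level `N = M q^(e+1)`, `q ∤ M`; `eps_(i+1) = epsN N q i = Δ(q^i τ)/Δ(q^(i+1) τ)`, `U = UQ q`.
The `u`-expansions (`u = t^(1/N)`) at the cusp `1/(q^b M)`:

* `le_exp` : `i < b`:      `cuspU N (gE b) (eps_(i+1)) = U (u^(N q^i))`;
* `gt_exp` : `b ≤ i ≤ e`:  `cuspU N (gE b) (eps_(i+1)) = q¹² / (twist z U)(u^(M q^(e - i + 2 b)))`,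
  `z` a `q^(e+1)`-th root of unity

by induction on `e` along `α` and `β` (helper31's tables), starting from `w_q` at level `M q`.
`gt_exp` takes the table (Tb0) `Stmt_TabB0` (the cusp `0` along `β`) as a hypothesis.
-/

set_option autoImplicit false
set_option synthInstance.maxHeartbeats 400000
set_option maxHeartbeats 1000000
set_option linter.unusedSectionVars false
set_option linter.unusedVariables false
set_option linter.style.haveILetI false

noncomputable section

open ModularCurve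
open Fermat.Agent.S24 Fermat.Agent.BAD.H88 Fermat.Agent.BAD.H30 Fermat.Agent.BAD.H21
open Fermat.Agent.S28 Fermat.Agent.S28.H73 Fermat.Agent.RED.H73 Fermat.Agent.RED.H17
open Fermat.Agent.S36.NU.H88 Fermat.Agent.S36.NU.H23 Fermat.Agent.S36.NU.H82
open Fermat.Agent.S45.NUE.H73
open scoped MatrixGroups

namespace Fermat.Agent.S45.NUE.H82

/-! ## The cusps `1/(q^b M)`, `b ≥ e`, are the cusp `∞` -/

section Top

variable (N q M e : ℕ) (B k : ℤ) (hN : N = M * q ^ e) (hB : B * M + k * (q : ℤ) ^ e = 1)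
  (hq : q.Prime) [NeZero N] [NeZero q]

include hN hB hq

theorem cuspU_gE_ge (b : ℕ) (hb : e ≤ b) (x : FN N) :
    cuspU N (gE q M b) x = qExpand Kbar N (x : LaurentSeries Kbar) := by
  refine algHom_eq_of_jdF N q M e B k hN hB hq (cuspU N (gE q M b))
    ((qExpandAlgHomC Kbar N).comp (modularFunctionFieldBar N).val) ?_ x
  intro D hD0 hD
  obtain ⟨d, d', i, hM, hie, h⟩ := dvdE_cases N q M e B k hN hB hq D hD
  subst h
  rw [cuspU_gE_le N q M e B k hN hB hq d d' i b hM (hie.trans hb) hD]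
  show _ = qExpand Kbar N ((jdF N (d * q ^ i) hD : FN N) : LaurentSeries Kbar)
  rw [Fermat.Agent.S36.NU.H88.coe_jdF]

theorem cuspU_eps_top (i b : ℕ) (hb : e ≤ b) (h : q ^ (i + 1) ∣ N) :
    cuspU N (gE q M b) (epsN N q i h) = qExpand Kbar (N * q ^ i) (UQ q) := by
  rw [cuspU_gE_ge N q M e B k hN hB hq b hb, coe_epsN, qExpand_qExpand]

end Top

/-! ## The tables along `β` -/

/-- **(Tb1)**: the cusp `1/(q^(b+1) M)` along `β`. -/
theorem tabB1 (N q M : ℕ) [NeZero N] [NeZero q] (b : ℕ) (x : FN N) :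
    cuspU (N * q) (gE q M (b + 1)) (heckeBetaBar Kbar N q x)
      = qExpand Kbar (q * q) (cuspU N (gE q M b) x) := by
  refine Fermat.Agent.S45.NUE.H31.cuspU_beta_q1 N q (gE q M (b + 1)) (gE q M b) ?_ x
  rw [gE_inv, gE_inv]
  ext r s
  fin_cases r <;> fin_cases s
  all_goals simp [Matrix.mul_apply, Fin.sum_univ_two]
  all_goals try ring1

/-- **(Tb0)**: the cusp `0` (`= 1/M`) along `β`, level `M q^e → M q^(e+1)`. -/
def Stmt_TabB0 (q M : ℕ) [NeZero q] : Prop :=
  ∀ (e N : ℕ) [NeZero N] (B k : ℤ), N = M * q ^ e → B * M + k * (q : ℤ) ^ (e + 1) = 1 →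
    q.Prime → 1 ≤ e →
    ∃ z₀ : Kbar, z₀ ^ (N * q) = 1 ∧ ∀ x : FN N,
      cuspU (N * q) (gE q M 0) (heckeBetaBar Kbar N q x) = twist z₀ (cuspU N (gE q M 0) x)

/-! ## The expansions -/

section Exp

variable (q M : ℕ) [NeZero q] [NeZero M] (hq : q.Prime)

include hq

/-- **`i < b`**: the expansion of `eps_(i+1)` at the cusp `1/(q^b M)` is `U (u^(N q^i))`. -/
theorem le_exp : ∀ (e N : ℕ) [NeZero N] (B k : ℤ), N = M * q ^ (e + 1) →
    B * M + k * (q : ℤ) ^ (e + 1) = 1 → ∀ (i b : ℕ), i < b → ∀ h : q ^ (i + 1) ∣ N,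
      cuspU N (gE q M b) (epsN N q i h) = qExpand Kbar (N * q ^ i) (UQ q) := by
  intro e
  induction e with
  | zero =>
    intro N _ B k hN hB i b hib h
    exact cuspU_eps_top N q M (0 + 1) B k hN hB hq i b (by omega) h
  | succ e ih =>
    intro N _ B k hN hB i b hib h
    by_cases hb : e + 1 + 1 ≤ b
    · exact cuspU_eps_top N q M (e + 1 + 1) B k hN hB hq i b hb h
    · have hN' : N = M * q ^ (e + 1) * q := by rw [hN, pow_succ (n := e + 1), mul_assoc]
      subst hN'
      haveI : NeZero (M * q ^ (e + 1)) := ⟨fun h0 => NeZero.ne (M * q ^ (e + 1) * q) (by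
        rw [h0, zero_mul])⟩
      have hB' : B * M + (k * q) * (q : ℤ) ^ (e + 1) = 1 := by rw [← hB]; ring
      have h' : q ^ (i + 1) ∣ M * q ^ (e + 1) :=
        Dvd.dvd.mul_left (pow_dvd_pow q (by omega)) M
      have e1 : epsN (M * q ^ (e + 1) * q) q i h
          = heckeAlphaBar Kbar (M * q ^ (e + 1)) q (epsN (M * q ^ (e + 1)) q i h') :=
        (alpha_epsN _ q i h').symm
      rw [e1, Fermat.Agent.S45.NUE.H31.cuspU_alpha,
        ih (M * q ^ (e + 1)) B (k * q) rfl hB' i b hib h', qExpand_qExpand]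
      exact Fermat.Agent.BAD.H73.qExpand_congr (by ring) _

/-- **`b ≤ i ≤ e`**: the expansion of `eps_(i+1)` at the cusp `1/(q^b M)` is
`q¹² / (twist z U)(u^(M q^(e - i + 2 b)))`. -/
theorem gt_exp (hT0 : Stmt_TabB0 q M) : ∀ (e N : ℕ) [NeZero N] (B k : ℤ),
    N = M * q ^ (e + 1) → B * M + k * (q : ℤ) ^ (e + 1) = 1 → ∀ (i b : ℕ), b ≤ i → i ≤ e →
    ∀ h : q ^ (i + 1) ∣ N, ∃ z : Kbar, z ^ (q ^ (e + 1)) = 1 ∧
      cuspU N (gE q M b) (epsN N q i h)
        = HahnSeries.C ((q : Kbar) ^ 12)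
          * (qExpand Kbar (M * q ^ (e - i + 2 * b)) (twist z (UQ q)))⁻¹ := by
  have hq0 : 0 < q := hq.pos
  intro e
  induction e with
  | zero =>
    intro N _ B k hN hB i b hbi hie h
    obtain rfl : i = 0 := by omega
    obtain rfl : b = 0 := by omega
    have hN' : N = M * q := by rw [hN, zero_add, pow_one]
    subst hN'
    have hB' : B * M + k * q = 1 := by rw [← hB, zero_add, pow_one]
    refine ⟨zetaK q ^ B, by rw [zero_add, pow_one]; exact zMid_pow q B, ?_⟩
    rw [cuspU_gE_zero_eps q M B k hB' hq h,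
      Fermat.Agent.BAD.H73.qExpand_congr (show M * q ^ (0 - 0 + 2 * 0) = M by simp)]
  | succ e ih =>
    intro N _ B k hN hB i b hbi hie h
    have hN' : N = M * q ^ (e + 1) * q := by rw [hN, pow_succ (n := e + 1), mul_assoc]
    subst hN'
    haveI : NeZero (M * q ^ (e + 1)) := ⟨fun h0 => NeZero.ne (M * q ^ (e + 1) * q) (by
      rw [h0, zero_mul])⟩
    have hB' : B * M + (k * q) * (q : ℤ) ^ (e + 1) = 1 := by rw [← hB]; ring
    rcases Nat.lt_or_ge e i with hei | hie'
    · -- `i = e + 1`: along `β`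
      obtain rfl : i = e + 1 := by omega
      have h' : q ^ (e + 1) ∣ M * q ^ (e + 1) := dvd_mul_left _ _
      have e1 : epsN (M * q ^ (e + 1) * q) q (e + 1) h
          = heckeBetaBar Kbar (M * q ^ (e + 1)) q (epsN (M * q ^ (e + 1)) q e h') :=
        (beta_epsN _ q e h').symm
      rcases Nat.eq_zero_or_pos b with hb0 | hbpos
      · -- the cusp `0`
        subst hb0
        obtain ⟨z₀, hz₀, hT⟩ := hT0 (e + 1) (M * q ^ (e + 1)) B k rfl hB hq (by omega)
        obtain ⟨z, hz, hexp⟩ := ih (M * q ^ (e + 1)) B (k * q) rfl hB' e 0 (Nat.zero_le _)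
          le_rfl h'
        have hz₀0 : z₀ ≠ 0 := by
          rintro rfl
          rw [zero_pow (NeZero.ne _)] at hz₀
          exact zero_ne_one hz₀
        refine ⟨z₀ ^ ((M * q ^ (e - e + 2 * 0) : ℕ) : ℤ) * z, ?_, ?_⟩
        · rw [mul_pow, zpow_natCast, ← pow_mul, pow_succ (n := e + 1), pow_mul z, hz, one_pow,
            mul_one]
          have : M * q ^ (e - e + 2 * 0) * (q ^ (e + 1) * q) = M * q ^ (e + 1) * q := by
            rw [Nat.sub_self]; ring
          rw [this, hz₀]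
        · rw [e1, hT, hexp, ← twistAlg_apply z₀ hz₀0, map_mul, map_inv₀, twistAlg_apply,
            twistAlg_apply, Fermat.Agent.RED.H95.twist_C, twist_qExpand,
            Fermat.Agent.RED.H95.twist_twist,
            Fermat.Agent.BAD.H73.qExpand_congr
              (show M * q ^ (e + 1 - (e + 1) + 2 * 0) = M * q ^ (e - e + 2 * 0) by simp)]
      · -- the cusps `1/(q^b M)`, `b ≥ 1`
        obtain ⟨b', rfl⟩ : ∃ b', b = b' + 1 := ⟨b - 1, by omega⟩
        obtain ⟨z, hz, hexp⟩ := ih (M * q ^ (e + 1)) B (k * q) rfl hB' e b' (by omega)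
          le_rfl h'
        refine ⟨z, by rw [pow_succ (n := e + 1), pow_mul, hz, one_pow], ?_⟩
        have hidx : M * q ^ (e + 1 - (e + 1) + 2 * (b' + 1))
            = q * q * (M * q ^ (e - e + 2 * b')) := by
          rw [Nat.sub_self, Nat.sub_self, zero_add, zero_add,
            show 2 * (b' + 1) = 2 * b' + 2 by ring, pow_add]
          ring
        rw [e1, tabB1, hexp, ← qExpandAlgHomC_apply, map_mul, map_inv₀, qExpandAlgHomC_apply,
          qExpandAlgHomC_apply, qExpand_C, qExpand_qExpand,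
          Fermat.Agent.BAD.H73.qExpand_congr hidx]
    · -- `i ≤ e`: along `α`
      have h' : q ^ (i + 1) ∣ M * q ^ (e + 1) :=
        Dvd.dvd.mul_left (pow_dvd_pow q (by omega)) M
      have e1 : epsN (M * q ^ (e + 1) * q) q i h
          = heckeAlphaBar Kbar (M * q ^ (e + 1)) q (epsN (M * q ^ (e + 1)) q i h') :=
        (alpha_epsN _ q i h').symm
      obtain ⟨z, hz, hexp⟩ := ih (M * q ^ (e + 1)) B (k * q) rfl hB' i b hbi hie' h'
      refine ⟨z, by rw [pow_succ (n := e + 1), pow_mul, hz, one_pow], ?_⟩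
      have hidx : M * q ^ (e + 1 - i + 2 * b) = q * (M * q ^ (e - i + 2 * b)) := by
        rw [show e + 1 - i + 2 * b = (e - i + 2 * b) + 1 by omega, pow_succ]
        ring
      rw [e1, Fermat.Agent.S45.NUE.H31.cuspU_alpha, hexp, ← qExpandAlgHomC_apply, map_mul,
        map_inv₀, qExpandAlgHomC_apply, qExpandAlgHomC_apply, qExpand_C, qExpand_qExpand,
        Fermat.Agent.BAD.H73.qExpand_congr hidx]

/-- **(Tb0)** (helper31's `cuspU_gE_beta_zero`). -/
theorem stmt_TabB0 : Stmt_TabB0 q M := by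
  intro e N _ B k hN hB hq' he
  have hB' : B * M + (k * q) * (q : ℤ) ^ e = 1 := by rw [← hB]; ring
  have hNu : N * q = M * q ^ (e + 1) := by rw [hN, pow_succ, mul_assoc]
  refine ⟨Fermat.Agent.S45.NUE.H31.wBeta q e B B ^ B, ?_, fun x =>
    Fermat.Agent.S45.NUE.H31.cuspU_gE_beta_zero N q M e B (k * q) B k hN hB' hNu hB hq' x⟩
  rw [hNu, mul_comm, pow_mul, Fermat.Agent.S45.NUE.H31.wBeta_zpow_pow, one_pow]

/-- **`b ≤ i ≤ e`**, unconditional. -/
theorem gt_exp' (e N : ℕ) [NeZero N] (B k : ℤ) (hN : N = M * q ^ (e + 1))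
    (hB : B * M + k * (q : ℤ) ^ (e + 1) = 1) (i b : ℕ) (hbi : b ≤ i) (hie : i ≤ e)
    (h : q ^ (i + 1) ∣ N) : ∃ z : Kbar, z ^ (q ^ (e + 1)) = 1 ∧
      cuspU N (gE q M b) (epsN N q i h)
        = HahnSeries.C ((q : Kbar) ^ 12)
          * (qExpand Kbar (M * q ^ (e - i + 2 * b)) (twist z (UQ q)))⁻¹ :=
  gt_exp q M hq (stmt_TabB0 q M hq) e N B k hN hB i b hbi hie h

end Exp

end Fermat.Agent.S45.NUE.H82

end
end
-- ==== END Fermat.Agent.S45.NUE.H82_EpsExp
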