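-- GENERATED (merged mirror, NOTES/tools/trim/merge3_helper67.py): 3 modules of the originals, bodies verbatim.
import Fermat.Agent.Zm.S45_L06_001
import Fermat.Agent.Zm.S45_L06_000
import Fermat.Agent.Zm.S45_L06_002
import Fermat.Agent.Zm.S36_L16_000
import Fermat.Agent.Zm.S45_L01_001
import Fermat.Agent.Zm.S45_L05_001
import Fermat.Agent.Zm.S35_L08_000
import Fermat.Agent.Zm.S36_L01_004
import Fermat.Agent.Zm.S36_L11_001

-- ==== BEGIN Fermat.Agent.S45.NUE.H17_BranchE2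
section
attribute [local instance 10000] HahnSeries.powerSeriesAlgebra

/-!
# S45 / NU_e, leaf E-PT-BR, part 2 (helper17): the branches of the charts of `j` and `1 / j`

`N = M q^e`, `q ∤ M` tame, `A` over `q`; `VE a`, `sE a` (`a ≤ e`) the valuations of `L0 A N`.
`C` is ANY chart over `R^ur` on `L0 A N` whose valuation rings are `VE (idx i)` and whose
residue maps are `sE (idx i)` up to embeddings `emb i : κ i → FM A M` (for the charts
`chartOf T j res h` of the E-TOT datum: `emb i = id`).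

* `wEo_j0`, `wEo_jE`, `wEo_const`, `j0_isIntegral_jE` : Atkin–Lehner exchanges `j` and
  `j (q^e τ)`;
* `jE_mem_VE` : `j (q^e τ) ∈ VE a`, `a ≤ e`;
* `branch_chart0E` : **`hbr` for the chart of `j`** (hypothesis of
  `H88.pointDataE_of_dichotomy`);
* `branch_chartInfE` : **`hbr` for the chart of `1 / j`** at the cusps (hypothesis of
  `H88.cusp_pointDataAtE`).
-/

set_option autoImplicit false
set_option synthInstance.maxHeartbeats 400000
set_option maxHeartbeats 1000000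
set_option linter.unusedSectionVars false
set_option linter.unusedVariables false
set_option linter.style.haveILetI false

noncomputable section

namespace Fermat.Agent.S45.NUE.H17

open ModularCurve AlgebraicCurve Polynomial IntermediateField
open Fermat.Agent.S24 Fermat.Agent.BAD.H88 Fermat.Agent.S28 Fermat.Agent.S28.H73
open Fermat.Agent.RED.H73 Fermat.Agent.RED.H17 Fermat.Agent.S36.NU.H88
open Fermat.Agent.S36.NU.H41 Fermat.Agent.BAD
open Fermat.Agent.S36.NU.H16 Fermat.Agent.S36.NU.H65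
open Fermat.Agent.S36.NU.H17 (iotaUr jbar coe_jbar ubar ubar_eq finiteDimensional_jbar
  isSeparable_jbar finiteDimensional_ubar isSeparable_ubar isIntegral_self_adjoin jFM_ne_zero)
open Fermat.Agent.S45.NUE.H23
open Fermat.Agent.S45.NUE.H51 (wEo coe_wEo wEo_wEo wEo_inclL0 wE)

local notation "L0" => Fermat.Agent.S36.NU.H23.L0
local notation "VE0" => Fermat.Agent.S36.NU.H23.VE0
local notation "sE0" => Fermat.Agent.S36.NU.H23.sE
local notation "inclL0" => Fermat.Agent.S36.NU.H23.inclL0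

section Level

variable (A : ValuationSubring Kbar)
variable (N q M e : ℕ) (B k : ℤ) (hN : N = M * q ^ e) (hB : B * M + k * (q : ℤ) ^ e = 1)
  (hq : q.Prime) [NeZero N] [NeZero q] [NeZero M]

/-! ## Atkin–Lehner -/

/-- `j` of the level `M`, as an inertia-fixed function. -/
theorem jF_mem_L0' : Fermat.Agent.RED.H73.jF (L := Kbar) M ∈ L0 A M :=
  Fermat.Agent.S36.NU.H17.jF_mem_L0 A M

theorem inclL0_jF (hle : modularFunctionFieldBar M ≤ modularFunctionFieldBar N) :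
    inclL0 A hle ⟨Fermat.Agent.RED.H73.jF (L := Kbar) M, jF_mem_L0' A M⟩ = j0 A N := by
  apply Subtype.ext
  rw [Fermat.Agent.S36.NU.H23.coe_inclL0]
  exact inclusion_jF A N M hle

theorem betaL0_jF :
    betaL0 A N q M e hN ⟨Fermat.Agent.RED.H73.jF (L := Kbar) M, jF_mem_L0' A M⟩
      = jE A N q M e hN := by
  apply Subtype.ext
  rw [coe_betaL0]
  exact betaE_jF A N q M e hN

theorem wEo_j0 : wEo A N q M e B k hN hB (j0 A N) = jE A N q M e hN := by
  rw [← inclL0_jF A N M (_root_.Fermat.Agent.S45.NUE.H17.hleE N q M e hN), wEo_inclL0, betaL0_jF]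

theorem wEo_jE : wEo A N q M e B k hN hB (jE A N q M e hN) = j0 A N := by
  rw [← wEo_j0 A N q M e B k hN hB, wEo_wEo]

theorem coe_algebraMap_RurE (r : ↥(Rur A)) :
    ((algebraMap ↥(Rur A) ↥(L0 A N) r : ↥(L0 A N)) : FN N)
      = algebraMap Kbar (FN N) (((r : ↥(Kur A)) : Kbar)) := rfl

theorem wEo_const (r : ↥(Rur A)) :
    wEo A N q M e B k hN hB (algebraMap ↥(Rur A) ↥(L0 A N) r)
      = algebraMap ↥(Rur A) ↥(L0 A N) r := by
  apply Subtype.ext
  rw [coe_wEo, coe_algebraMap_RurE]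
  exact (_root_.Fermat.Agent.S45.NUE.H51.wE N q M e B k hN hB).commutes _

include hB in
theorem jE_ne_zero : jE A N q M e hN ≠ 0 := by
  rw [← wEo_j0 A N q M e B k hN hB]
  exact (map_ne_zero (wEo A N q M e B k hN hB)).2 (j0_ne_zero A N)

include hB in
/-- **`j` is integral over `R^ur[j (q^e τ)]`** if `j (q^e τ)` is integral over `R^ur[j]`. -/
theorem j0_isIntegral_jE
    (hjE : IsIntegral ↥(Algebra.adjoin ↥(Rur A) {j0 A N}) (jE A N q M e hN)) :
    IsIntegral ↥(Algebra.adjoin ↥(Rur A) {jE A N q M e hN}) (j0 A N) := by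
  have hmap : ∀ x ∈ Algebra.adjoin ↥(Rur A) {j0 A N},
      wEo A N q M e B k hN hB x ∈ Algebra.adjoin ↥(Rur A) {jE A N q M e hN} := by
    intro x hx
    induction hx using Algebra.adjoin_induction with
    | mem y hy =>
      rw [Set.mem_singleton_iff] at hy
      subst hy
      rw [wEo_j0 A N q M e B k hN hB]
      exact Algebra.subset_adjoin rfl
    | algebraMap r =>
      rw [wEo_const]
      exact Subalgebra.algebraMap_mem _ r
    | add _ _ _ _ h1 h2 =>
      rw [map_add]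
      exact add_mem h1 h2
    | mul _ _ _ _ h1 h2 =>
      rw [map_mul]
      exact mul_mem h1 h2
  let φ : ↥(Algebra.adjoin ↥(Rur A) {j0 A N})
      →+* ↥(Algebra.adjoin ↥(Rur A) {jE A N q M e hN}) :=
    ((wEo A N q M e B k hN hB).comp
      (Algebra.adjoin ↥(Rur A) {j0 A N}).val.toRingHom).codRestrict
      (Algebra.adjoin ↥(Rur A) {jE A N q M e hN}).toSubring (fun x => hmap x.1 x.2)
  have h1 : IsIntegral ↥(Algebra.adjoin ↥(Rur A) {jE A N q M e hN})
      (wEo A N q M e B k hN hB (jE A N q M e hN)) :=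
    IsIntegral.map_of_comp_eq φ (wEo A N q M e B k hN hB) (by ext x; rfl) hjE
  rwa [wEo_jE A N q M e B k hN hB] at h1

include hB hq in
/-- `j (q^e τ) ∈ VE a`, `a ≤ e`. -/
theorem jE_mem_VE (a : ℕ) (hae : a ≤ e) : jE A N q M e hN ∈ VE A N q M e B k hN hB hq a := by
  rw [← betaL0_jF A N q M e hN]
  exact betaL0_mem_VE A N q M e B k hN hB hq a hae _ (jF_mem A M)

end Level

/-! ## The lifts of the functions of the good level -/

section Lift

variable (A : ValuationSubring Kbar)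
variable (N q M e : ℕ) (B k : ℤ) (hN : N = M * q ^ e) (hB : B * M + k * (q : ℤ) ^ e = 1)
  (hq : q.Prime) [NeZero N] [NeZero q] [NeZero M]

/-- The lift of a function of the good level to the component `a`: `incl f` if `e ≤ 2 a`,
`f (q^e τ)` if `2 a < e`. -/
def liftE (a : ℕ) : ↥(L0 A M) →+* ↥(L0 A N) :=
  if e ≤ 2 * a then inclL0 A (_root_.Fermat.Agent.S45.NUE.H17.hleE N q M e hN) else betaL0 A N q M e hN

theorem liftE_of_le (a : ℕ) (h : e ≤ 2 * a) :
    _root_.Fermat.Agent.S45.NUE.H17.liftE A N q M e hN a = inclL0 A (_root_.Fermat.Agent.S45.NUE.H17.hleE N q M e hN) := if_pos h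

theorem liftE_of_lt (a : ℕ) (h : 2 * a < e) :
    _root_.Fermat.Agent.S45.NUE.H17.liftE A N q M e hN a = betaL0 A N q M e hN := if_neg (not_le.2 h)

include hB hq in
theorem liftE_mem_VE (a : ℕ) (x : ↥(L0 A M)) (hx : x ∈ VE0 A M) (a' : ℕ) (ha' : a' ≤ e) :
    _root_.Fermat.Agent.S45.NUE.H17.liftE A N q M e hN a x ∈ VE A N q M e B k hN hB hq a' := by
  rcases Nat.lt_or_ge (2 * a) e with h | h
  · rw [liftE_of_lt A N q M e hN a h]
    exact betaL0_mem_VE A N q M e B k hN hB hq a' ha' x hx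
  · rw [liftE_of_le A N q M e hN a h]
    exact inclL0_mem_VE A N q M e B k hN hB hq _ a' x hx

include hB hq in
/-- **The reduction of the lift on the component `a` is the reduction at the good level.** -/
theorem sE_liftE (hA : (q : Kbar) ∈ A.nonunits) (a : ℕ) (hae : a ≤ e) (x : ↥(VE0 A M))
    (h : _root_.Fermat.Agent.S45.NUE.H17.liftE A N q M e hN a (x : ↥(L0 A M)) ∈ VE A N q M e B k hN hB hq a) :
    sE A N q M e B k hN hB hq a ⟨_, h⟩ = sE0 A M x := by
  rcases Nat.lt_or_ge (2 * a) e with h2 | h2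
  · have hm : betaL0 A N q M e hN (x : ↥(L0 A M)) ∈ VE A N q M e B k hN hB hq a :=
      betaL0_mem_VE A N q M e B k hN hB hq a hae x x.2
    have e1 : (⟨_root_.Fermat.Agent.S45.NUE.H17.liftE A N q M e hN a (x : ↥(L0 A M)), h⟩ : ↥(VE A N q M e B k hN hB hq a))
        = ⟨_, hm⟩ := Subtype.ext (by
      show _root_.Fermat.Agent.S45.NUE.H17.liftE A N q M e hN a (x : ↥(L0 A M)) = betaL0 A N q M e hN (x : ↥(L0 A M))
      rw [liftE_of_lt A N q M e hN a h2])
    rw [e1, sE_betaL0 A N q M e B k hN hB hq hA a hae x hm]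
    have h0 : max e (2 * a) - e = 0 := by omega
    haveI : NeZero (q ^ (max e (2 * a) - e)) := ⟨pow_ne_zero _ (NeZero.ne q)⟩
    rw [qExpand_congr (show q ^ (max e (2 * a) - e) = 1 by rw [h0, pow_zero]),
      qExpand_one_apply]
  · have hm : inclL0 A (_root_.Fermat.Agent.S45.NUE.H17.hleE N q M e hN) (x : ↥(L0 A M)) ∈ VE A N q M e B k hN hB hq a :=
      inclL0_mem_VE A N q M e B k hN hB hq _ a x x.2
    have e1 : (⟨_root_.Fermat.Agent.S45.NUE.H17.liftE A N q M e hN a (x : ↥(L0 A M)), h⟩ : ↥(VE A N q M e B k hN hB hq a))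
        = ⟨_, hm⟩ := Subtype.ext (by
      show _root_.Fermat.Agent.S45.NUE.H17.liftE A N q M e hN a (x : ↥(L0 A M))
        = inclL0 A (_root_.Fermat.Agent.S45.NUE.H17.hleE N q M e hN) (x : ↥(L0 A M))
      rw [liftE_of_le A N q M e hN a h2])
    rw [e1, sE_inclL0 A N q M e B k hN hB hq _ a x hm]
    have h0 : e - 2 * a = 0 := by omega
    haveI : NeZero (q ^ (e - 2 * a)) := ⟨pow_ne_zero _ (NeZero.ne q)⟩
    rw [qExpand_congr (show q ^ (e - 2 * a) = 1 by rw [h0, pow_zero]), qExpand_one_apply]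

/-- The lift is integral over `K^ur[j]`. -/
theorem isIntegral_liftE (a : ℕ) (f : FN M) (hf : f ∈ L0 A M)
    (hint : ((aeval (Fermat.Agent.RED.H73.jF (L := Kbar) M) : Kbar[X] →ₐ[Kbar] FN M).toRingHom.comp
        (mapRingHom (iotaUr A))).IsIntegralElem f) :
    IsIntegral ↥(Algebra.adjoin ↥(Kur A) {j0 A N}) (_root_.Fermat.Agent.S45.NUE.H17.liftE A N q M e hN a ⟨f, hf⟩) := by
  rcases Nat.lt_or_ge (2 * a) e with h | h
  · rw [liftE_of_lt A N q M e hN a h]
    exact isIntegral_betaE A N q M e hN f hf hint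
  · rw [liftE_of_le A N q M e hN a h]
    exact isIntegral_inclE A N M _ f hf hint

end Lift

/-! ## The branches of a chart with the valuations `VE a` -/

section Chart

variable (A : ValuationSubring Kbar)
variable (N q M e : ℕ) (B k : ℤ) (hN : N = M * q ^ e) (hB : B * M + k * (q : ℤ) ^ e = 1)
  (hq : q.Prime) [NeZero N] [NeZero q] [NeZero M]
variable {ι : Type*} {κ : ι → Type*} [∀ i, Field (κ i)] [∀ i, Algebra (kV A) (κ i)]
  (C : Chart ↥(Rur A) ↥(L0 A N) (kV A) ι κ) (idx : ι → ℕ)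
  (emb : ∀ i, κ i →ₐ[kV A] FM A M)
  (hidx : ∀ i, idx i ≤ e)
  (hV : ∀ i, C.V i = VE A N q M e B k hN hB hq (idx i))
  (hred : ∀ i (x : ↥(L0 A N)) (hx : x ∈ C.V i) (hx' : x ∈ VE A N q M e B k hN hB hq (idx i)),
    ((emb i (C.red i ⟨x, hx⟩) : FM A M) : LaurentSeries (kV A))
      = sE A N q M e B k hN hB hq (idx i) ⟨x, hx'⟩)
  (hqM : ¬ q ∣ M) (hA : A.LiesOverPrime q)

include hidx hV hred hqM hA in
/-- The residue field of every component is the function field of the good level. -/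
theorem emb_surjective (i : ι) : Function.Surjective (emb i) := by
  intro y
  haveI : NeZero (M * q * q) :=
    ⟨Nat.mul_ne_zero (Nat.mul_ne_zero (NeZero.ne M) (NeZero.ne q)) (NeZero.ne q)⟩
  have hy : ((y : FM A M) : LaurentSeries (kV A)) ∈ modularFunctionFieldFullC (kV A) M := by
    rw [← Fermat.Agent.S36.NU.H23.FM_eq A q M hq hqM hA]
    exact y.2
  obtain ⟨x, hx⟩ := exists_sE_eq A N q M e B k hN hB hq hqM hA (_root_.Fermat.Agent.S45.NUE.H17.hleE N q M e hN) (idx i)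
    (hidx i) _ hy
  have hxV : (x : ↥(L0 A N)) ∈ C.V i := by
    rw [hV i]
    exact x.2
  refine ⟨C.red i ⟨x, hxV⟩, Subtype.ext ?_⟩
  rw [hred i x hxV x.2]
  exact hx

include hidx hV hred hA in
/-- The reduction of the lift. -/
theorem emb_red_liftE (i : ι) (f : FN M) (hf : f ∈ L0 A M) (hfV : f ∈ VM A M)
    (h : _root_.Fermat.Agent.S45.NUE.H17.liftE A N q M e hN (idx i) ⟨f, hf⟩ ∈ C.V i) :
    emb i (C.red i ⟨_, h⟩) = redM A M ⟨f, hfV⟩ := by
  apply Subtype.ext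
  have h' : _root_.Fermat.Agent.S45.NUE.H17.liftE A N q M e hN (idx i) ⟨f, hf⟩ ∈ VE A N q M e B k hN hB hq (idx i) := by
    rw [← hV i]
    exact h
  rw [hred i _ h h']
  exact _root_.Fermat.Agent.S45.NUE.H17.sE_liftE A N q M e B k hN hB hq hA (idx i) (hidx i) ⟨⟨f, hf⟩, hfV⟩ h'

include hV hred hA in
/-- The reduction of `j` on the component `i` is `j~ ^ (q ^ (e - 2 a))`. -/
theorem emb_red_j0 (i : ι) (h : j0 A N ∈ C.V i) :
    emb i (C.red i ⟨j0 A N, h⟩) = jbar A M ^ q ^ (e - 2 * idx i) := by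
  haveI : Fact q.Prime := ⟨hq⟩
  haveI : CharP (kV A) q := Fermat.Agent.BAD.H82.charP_kV A hq hA
  haveI := Fermat.Agent.S45.NUE.H28.neZero_one_mul_pow q (e - 2 * idx i + 0)
  haveI : NeZero (q ^ (e - 2 * idx i)) := ⟨pow_ne_zero _ (NeZero.ne q)⟩
  apply Subtype.ext
  have h' : j0 A N ∈ VE A N q M e B k hN hB hq (idx i) := by
    rw [← hV i]
    exact h
  rw [hred i _ h h', Fermat.Agent.S45.NUE.H28.sE_j0 A N q M e B k hN hB hq (idx i) h']
  have h1 : ((jbar A M ^ q ^ (e - 2 * idx i) : FM A M) : LaurentSeries (kV A))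
      = ((jbar A M : FM A M) : LaurentSeries (kV A)) ^ q ^ (e - 2 * idx i) := rfl
  rw [h1, coe_jbar, jqModC_pow q (e - 2 * idx i)]
  exact qExpand_congr (by rw [Nat.add_zero, one_mul]) _

include hB hq hV in
theorem j0_mem_chartV (i : ι) : j0 A N ∈ C.V i := by
  rw [hV i]
  exact Fermat.Agent.S45.NUE.H28.j0_mem_VE A N q M e B k hN hB hq (idx i)

include hidx hV hred hqM hA in
/-- **`hbr` for the chart of `j`**: every closed point of the special fibre of a chart of `j`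
with the valuation rings `VE a` has a branch on every component through it. -/
theorem branch_chart0E (ht : Fermat.Agent.BAD.H91.TameAt M q) (hj0 : j0 A N ∈ C.B)
    (hBint : ∀ β : C.B, IsIntegral ↥(Algebra.adjoin ↥(Rur A) {j0 A N}) (β : ↥(L0 A N)))
    (hcrit : ∀ f : ↥(L0 A N), IsIntegral ↥(Algebra.adjoin ↥(Kur A) {j0 A N}) f →
      (∀ i, f ∈ C.V i) → f ∈ C.B) :
    ∀ 𝔪 : Ideal C.B, 𝔪.IsMaximal → ∀ i, C.Icomp i ≤ 𝔪 → Nonempty (Branch C 𝔪 i) := by
  intro 𝔪 hmax i hi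
  haveI : IsAlgClosed (kV A) := isAlgClosed_kV A
  haveI := finiteDimensional_jbar A M hq hqM hA
  haveI := isSeparable_jbar A M hq hqM hA
  refine branch_of_model C i (j0 A N) hj0 hBint (emb i)
    (emb_surjective A N q M e B k hN hB hq C idx emb hidx hV hred hqM hA i) (jbar A M) ?_ ?_
    𝔪 hmax hi
  · have e1 : emb i (C.rdB i ⟨j0 A N, hj0⟩) = jbar A M ^ q ^ (e - 2 * idx i) :=
      emb_red_j0 A N q M e B k hN hB hq C idx emb hV hred hA i _
    rw [e1]
    exact (isIntegral_self_adjoin _).pow _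
  · intro y hy
    obtain ⟨f, hf, -, hint, hfV, hredf⟩ :=
      Fermat.Agent.S36.NU.H17.normalImg_tame A M hq hA hqM ht _ rfl (jF_mem A M) y hy
    have hmem : _root_.Fermat.Agent.S45.NUE.H17.liftE A N q M e hN (idx i) ⟨f, hf⟩ ∈ C.B := by
      refine hcrit _ (isIntegral_liftE A N q M e hN (idx i) f hf hint) (fun i' => ?_)
      rw [hV i']
      exact liftE_mem_VE A N q M e B k hN hB hq (idx i) ⟨f, hf⟩ hfV (idx i') (hidx i')
    refine ⟨⟨_, hmem⟩, ?_⟩
    have e1 : emb i (C.rdB i ⟨_, hmem⟩) = redM A M ⟨f, hfV⟩ :=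
      emb_red_liftE A N q M e B k hN hB hq C idx emb hidx hV hred hA i f hf hfV _
    rw [e1, hredf]

/-! ### The chart of `1 / j` -/

include hB hq hV hred hA in
/-- The reduction of `1 / j` on the component `i` is `u~ ^ (q ^ (e - 2 a))`. -/
theorem emb_red_u0 (i : ι) (h : (j0 A N)⁻¹ ∈ C.V i) :
    emb i (C.red i ⟨(j0 A N)⁻¹, h⟩) = ubar A M ^ q ^ (e - 2 * idx i) := by
  rw [Fermat.Agent.S36.NU.H28.red_inv_eq (C.V i) (C.red i)
    (j0_mem_chartV A N q M e B k hN hB hq C idx hV i) h (j0_ne_zero A N), map_inv₀,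
    emb_red_j0 A N q M e B k hN hB hq C idx emb hV hred hA i _, ubar_eq, inv_pow]

theorem emb_red_congr (i : ι) {x x' : ↥(L0 A N)} (hxx' : x = x') (hx : x ∈ C.V i)
    (hx' : x' ∈ C.V i) : emb i (C.red i ⟨x, hx⟩) = emb i (C.red i ⟨x', hx'⟩) := by
  subst hxx'
  rfl

include hidx hV hred hqM hA in
/-- **The local lifts at a cusp.** -/
theorem exists_liftInfE (hu0 : (j0 A N)⁻¹ ∈ C.B)
    (hcrit : ∀ f : ↥(L0 A N), IsIntegral ↥(Algebra.adjoin ↥(Kur A) {(j0 A N)⁻¹}) f →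
      (∀ i, f ∈ C.V i) → f ∈ C.B)
    (hjE : IsIntegral ↥(Algebra.adjoin ↥(Rur A) {j0 A N}) (jE A N q M e hN))
    (𝔪 : Ideal C.B) (hmax : 𝔪.IsMaximal)
    (hu : ∀ β : C.B, (β : ↥(L0 A N)) = (j0 A N)⁻¹ → β ∈ 𝔪) (i : ι)
    (y : FM A M) (hy : IsIntegral ↥(Algebra.adjoin (kV A) ({ubar A M} : Set (FM A M))) y) :
    ∃ g b : C.B, g ∉ 𝔪 ∧ emb i (C.rdB i b) = emb i (C.rdB i g) * y := by
  obtain ⟨f, hf, -, hint, -, hfV, hredf⟩ :=
    Fermat.Agent.S36.NU.H17.normalImg_good_inv A M hq hA hqM _ rfl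
      (Fermat.Agent.RED.H73.jF_inv_mem A M) y hy
  have hlV : ∀ i', _root_.Fermat.Agent.S45.NUE.H17.liftE A N q M e hN (idx i) ⟨f, hf⟩ ∈ C.V i' := by
    intro i'
    rw [hV i']
    exact liftE_mem_VE A N q M e B k hN hB hq (idx i) ⟨f, hf⟩ hfV (idx i') (hidx i')
  have hlred : emb i (C.red i ⟨_, hlV i⟩) = y := by
    rw [emb_red_liftE A N q M e B k hN hB hq C idx emb hidx hV hred hA i f hf hfV (hlV i), hredf]
  rcases Nat.lt_or_ge (2 * idx i) e with h2 | h2
  · -- the wild components: `G(u)^m · f (q^e τ)`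
    have hl : _root_.Fermat.Agent.S45.NUE.H17.liftE A N q M e hN (idx i) ⟨f, hf⟩ = betaL0 A N q M e hN ⟨f, hf⟩ := by
      rw [liftE_of_lt A N q M e hN (idx i) h2]
    have hF'int : IsIntegral ↥(Algebra.adjoin ↥(Kur A) {(jE A N q M e hN)⁻¹})
        (_root_.Fermat.Agent.S45.NUE.H17.liftE A N q M e hN (idx i) ⟨f, hf⟩) := by
      rw [hl]
      exact isIntegral_betaE_inv A N q M e hN f hf hint
    obtain ⟨G, hG0, -, hG⟩ := Fermat.Agent.S36.NU.H17.exists_unit_pow_mul_isIntegral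
      (R := ↥(Rur A)) (K := ↥(Kur A)) (j0_ne_zero A N) (jE_ne_zero A N q M e B k hN hB)
      (j0_isIntegral_jE A N q M e B k hN hB hjE)
    obtain ⟨m, hm⟩ := hG _ hF'int
    set u : C.B := ⟨(j0 A N)⁻¹, hu0⟩ with hu'
    set g : C.B := aeval u G ^ m with hg
    have hgc : ((g : C.B) : ↥(L0 A N)) = aeval (j0 A N)⁻¹ G ^ m := by
      rw [hg, SubmonoidClass.coe_pow, aeval_subalgebra_coe]
    have hgV : ∀ i', ((g : C.B) : ↥(L0 A N)) ∈ C.V i' := fun i' => C.B_le i' _ g.2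
    have hb : ((g : C.B) : ↥(L0 A N)) * _root_.Fermat.Agent.S45.NUE.H17.liftE A N q M e hN (idx i) ⟨f, hf⟩ ∈ C.B := by
      refine hcrit _ ?_ (fun i' => mul_mem (hgV i') (hlV i'))
      rw [hgc]
      exact hm m le_rfl
    refine ⟨g, ⟨_, hb⟩, ?_, ?_⟩
    · intro h
      have h1 : aeval u G ∈ 𝔪 := hmax.isPrime.mem_of_pow_mem m h
      exact Fermat.Agent.S36.NU.H17.aeval_not_mem_of_coeff_zero 𝔪 hmax.ne_top (hu u rfl) G hG0 h1
    · have e1 : C.rdB i ⟨_, hb⟩ = C.red i (⟨_, hgV i⟩ * ⟨_, hlV i⟩) := rfl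
      have e2 : C.rdB i g = C.red i ⟨_, hgV i⟩ := rfl
      rw [e1, e2, map_mul, map_mul, hlred]
  · -- the other components: `incl f`
    have hl : _root_.Fermat.Agent.S45.NUE.H17.liftE A N q M e hN (idx i) ⟨f, hf⟩ = inclL0 A (_root_.Fermat.Agent.S45.NUE.H17.hleE N q M e hN) ⟨f, hf⟩ := by
      rw [liftE_of_le A N q M e hN (idx i) h2]
    have hb : _root_.Fermat.Agent.S45.NUE.H17.liftE A N q M e hN (idx i) ⟨f, hf⟩ ∈ C.B := by
      refine hcrit _ ?_ hlV
      rw [hl]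
      exact isIntegral_inclE_inv A N M _ f hf hint
    refine ⟨1, ⟨_, hb⟩, fun h => hmax.ne_top ((Ideal.eq_top_iff_one 𝔪).2 h), ?_⟩
    have e1 : C.rdB i ⟨_, hb⟩ = C.red i ⟨_, hlV i⟩ := rfl
    rw [e1, hlred, map_one, map_one, one_mul]

include hidx hV hred hqM hA in
/-- **`hbr` for the chart of `1 / j`**: every closed point of the special fibre of a chart of
`1 / j` with the valuation rings `VE a` where `1 / j` vanishes has a branch on every component
through it. -/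
theorem branch_chartInfE (hu0 : (j0 A N)⁻¹ ∈ C.B)
    (hBint : ∀ β : C.B, IsIntegral ↥(Algebra.adjoin ↥(Rur A) {(j0 A N)⁻¹}) (β : ↥(L0 A N)))
    (hcrit : ∀ f : ↥(L0 A N), IsIntegral ↥(Algebra.adjoin ↥(Kur A) {(j0 A N)⁻¹}) f →
      (∀ i, f ∈ C.V i) → f ∈ C.B)
    (hjE : IsIntegral ↥(Algebra.adjoin ↥(Rur A) {j0 A N}) (jE A N q M e hN)) :
    ∀ 𝔪 : Ideal C.B, 𝔪.IsMaximal →
      (∀ β : C.B, (β : ↥(L0 A N)) = (j0 A N)⁻¹ → β ∈ 𝔪) →
      ∀ i, C.Icomp i ≤ 𝔪 → Nonempty (Branch C 𝔪 i) := by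
  intro 𝔪 hmax hu i hi
  haveI : IsAlgClosed (kV A) := isAlgClosed_kV A
  haveI := finiteDimensional_ubar A M hq hqM hA
  haveI := isSeparable_ubar A M hq hqM hA
  refine branch_of_model_local C i (j0 A N)⁻¹ hu0 hBint (emb i)
    (emb_surjective A N q M e B k hN hB hq C idx emb hidx hV hred hqM hA i) (ubar A M) ?_
    𝔪 hmax hi
    (exists_liftInfE A N q M e B k hN hB hq C idx emb hidx hV hred hqM hA hu0 hcrit hjE
      𝔪 hmax hu i)
  have e1 : emb i (C.rdB i ⟨(j0 A N)⁻¹, hu0⟩) = ubar A M ^ q ^ (e - 2 * idx i) :=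
    emb_red_u0 A N q M e B k hN hB hq C idx emb hV hred hA i _
  rw [e1]
  exact (isIntegral_self_adjoin _).pow _

include hB hq in
/-- `j (q^e τ)` is integral over `R^ur[j]`, from the criterion TI3-VAL for the chart of `j`. -/
theorem isIntegral_jE_Rur
    (hcrit0 : ∀ f : ↥(L0 A N), IsIntegral ↥(Algebra.adjoin ↥(Kur A) {j0 A N}) f →
      (∀ a, a ≤ e → f ∈ VE A N q M e B k hN hB hq a) →
      IsIntegral ↥(Algebra.adjoin ↥(Rur A) {j0 A N}) f) :
    IsIntegral ↥(Algebra.adjoin ↥(Rur A) {j0 A N}) (jE A N q M e hN) :=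
  hcrit0 _ (isIntegral_jE A N q M e hN)
    (fun a ha => jE_mem_VE A N q M e B k hN hB hq a ha)

end Chart

end Fermat.Agent.S45.NUE.H17

end
end
-- ==== END Fermat.Agent.S45.NUE.H17_BranchE2

-- ==== BEGIN Fermat.Agent.S45.NUE.H82_EpsVal
section

/-!
# S45 / NU_e, package E-CUSP / E-EPS (helper82): the units `eps_i` at the `e + 1` valuations

Level `N = M q^e`, `1 ≤ e`, `cE b` the normalised expansion at the cusp `1/(q^b M)` (helper23),
`WU q z m = (twist z U)(s^(q^m))`, `U = Δ(t)/Δ(t^q)`, `z` a `q^e`-th root of unity.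

* `gaussUnit_WU`, `gaussRedV_WU` : `WU q z m` is a unit of the Gauss ring, with reduction
  `HU (s^(q^m))` over `q`;
* `uexp_le` : `i < b ≤ e`: `cE b (eps_(i+1)) = WU q 1 (e - 2 b + i)`;
* `uexp_gt` : `b ≤ i < e`: `cE b (q¹² / eps_(i+1)) = WU q z (max e (2 b) - i - 1)`;
* `cE_EwF_self` : `cE a (EwF a)` is `WU q z₁ m` (`a = 0, e`) or `WU q z₁ m * WU q z₂ m`
  (`0 < a < e`), `m = max a (e - a) - 1`;
* `cE_EwF_off` : `a ≠ b`: `cE b (EwF a) = q¹² u`, `u` a unit of the Gauss ring.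
-/

set_option autoImplicit false
set_option synthInstance.maxHeartbeats 400000
set_option maxHeartbeats 1000000
set_option linter.unusedSectionVars false
set_option linter.unusedVariables false
set_option linter.style.haveILetI false

noncomputable section

open ModularCurve
open Fermat.Agent.S24 Fermat.Agent.BAD.H88 Fermat.Agent.BAD.H30
open Fermat.Agent.S28 Fermat.Agent.S28.H73
open Fermat.Agent.S36.NU.H88 Fermat.Agent.S36.NU.H23
open Fermat.Agent.S45.NUE.H73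
open Fermat.Agent.RED.H73 (GaussUnit)
open scoped MatrixGroups

namespace Fermat.Agent.S45.NUE.H82

/-! ## Series -/

section Series

variable (A : ValuationSubring Kbar) (q : ℕ) [NeZero q]

/-- `(twist z U)(s^(q^m))`. -/
def WU (z : Kbar) (m : ℕ) : LaurentSeries Kbar := qExpand Kbar (q ^ m) (twist z (UQ q))

theorem gaussUnit_UQ : GaussUnit A (UQ q) :=
  ⟨qExpand ↥A q (deltaR ↥A), deltaR ↥A, redV_qExpand_deltaR_ne_zero A q, by
    rw [redV_deltaR]; exact deltaR_ne_zero _, unit_gauss_eq A q⟩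

theorem ne_zero_of_pow_eq_one82 {z : Kbar} {n : ℕ} (hn : n ≠ 0) (hz : z ^ n = 1) : z ≠ 0 := by
  rintro rfl
  rw [zero_pow hn] at hz
  exact zero_ne_one hz

/-- A root of unity, as a unit of `A`. -/
def rootUnit (z : Kbar) (n : ℕ) (hn : n ≠ 0) (hz : z ^ n = 1) : (↥A)ˣ where
  val := ⟨z, Fermat.Agent.S28.H48.mem_of_pow_eq_one A hn hz⟩
  inv := ⟨z⁻¹, Fermat.Agent.S28.H48.mem_of_pow_eq_one A hn (by rw [inv_pow, hz, inv_one])⟩
  val_inv := Subtype.ext (mul_inv_cancel₀ (ne_zero_of_pow_eq_one82 hn hz))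
  inv_val := Subtype.ext (inv_mul_cancel₀ (ne_zero_of_pow_eq_one82 hn hz))

theorem coe_rootUnit (z : Kbar) (n : ℕ) (hn : n ≠ 0) (hz : z ^ n = 1) :
    (((_root_.Fermat.Agent.S45.NUE.H82.rootUnit A z n hn hz : (↥A)ˣ) : ↥A) : Kbar) = z := rfl

/-- Over `q` the residue of a `q^e`-th root of unity is `1`. -/
theorem resV_rootUnit (hq : q.Prime) (hA : A.LiesOverPrime q) (z : Kbar) (e : ℕ)
    (hz : z ^ (q ^ e) = 1) :
    resV A ((_root_.Fermat.Agent.S45.NUE.H82.rootUnit A z (q ^ e) (pow_ne_zero _ hq.ne_zero) hz : (↥A)ˣ) : ↥A) = 1 := by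
  haveI : CharP (kV A) q := Fermat.Agent.BAD.H82.charP_kV A hq hA
  haveI : Fact q.Prime := ⟨hq⟩
  have h1 : ((_root_.Fermat.Agent.S45.NUE.H82.rootUnit A z (q ^ e) (pow_ne_zero _ hq.ne_zero) hz : (↥A)ˣ) : ↥A) ^ (q ^ e) = 1 :=
    Subtype.ext hz
  have h2 : (resV A ((_root_.Fermat.Agent.S45.NUE.H82.rootUnit A z (q ^ e) (pow_ne_zero _ hq.ne_zero) hz : (↥A)ˣ) : ↥A) - 1)
      ^ (q ^ e) = 0 := by
    rw [sub_pow_char_pow, ← map_pow, h1, map_one, one_pow, sub_self]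
  exact sub_eq_zero.mp (pow_eq_zero_iff (pow_ne_zero _ hq.ne_zero) |>.mp h2)

theorem GaussUnit.twist82 (u : (↥A)ˣ) {x : LaurentSeries Kbar} (hx : GaussUnit A x) :
    GaussUnit A (twist ((u : ↥A) : Kbar) x) := by
  obtain ⟨g, h, hg, hh, e⟩ := hx
  have hu0 : ((u : ↥A) : Kbar) ≠ 0 := by
    intro h0
    have : (u : ↥A) = 0 := Subtype.ext h0
    exact u.ne_zero this
  refine ⟨Fermat.Agent.RED.H10.rot u g, Fermat.Agent.RED.H10.rot u h, ?_, ?_, ?_⟩
  · rw [redV_rot]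
    exact rot_ne_zero _ hg
  · rw [redV_rot]
    exact rot_ne_zero _ hh
  · rw [iotaV_rot, iotaV_rot, ← Fermat.Agent.RED.H95.twist_mul _ hu0, e]

theorem gaussUnit_twist_UQ (z : Kbar) (n : ℕ) (hn : n ≠ 0) (hz : z ^ n = 1) :
    GaussUnit A (twist z (UQ q)) :=
  GaussUnit.twist82 A (_root_.Fermat.Agent.S45.NUE.H82.rootUnit A z n hn hz) (gaussUnit_UQ A q)

theorem gaussUnit_WU (z : Kbar) (n : ℕ) (hn : n ≠ 0) (hz : z ^ n = 1) (m : ℕ) :
    GaussUnit A (WU q z m) :=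
  Fermat.Agent.BAD.H82.GaussUnit.Fr A (q ^ m) (gaussUnit_twist_UQ A q z n hn hz)

/-- `HU = (Δ~ ^ (q - 1))⁻¹` is the reduction of `U`. -/
theorem gaussRedV_UQ (hq : q.Prime) (hA : A.LiesOverPrime q) (h : UQ q ∈ gaussRingV A) :
    gaussRedV A ⟨UQ q, h⟩ = HUk A q := by
  haveI : Fact q.Prime := ⟨hq⟩
  exact gaussRedV_unit_char A q hA h

/-- **The reduction of `WU q z m`** over `q`: `HU (s^(q^m))`. -/
theorem gaussRedV_WU (hq : q.Prime) (hA : A.LiesOverPrime q) (z : Kbar) (e : ℕ)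
    (hz : z ^ (q ^ e) = 1) (m : ℕ) (h : WU q z m ∈ gaussRingV A) :
    gaussRedV A ⟨WU q z m, h⟩ = qExpand (kV A) (q ^ m) (HUk A q) := by
  have hn : q ^ e ≠ 0 := pow_ne_zero _ hq.ne_zero
  have h1 : UQ q ∈ gaussRingV A := (gaussUnit_UQ A q).mem
  have h2 : twist z (UQ q) ∈ gaussRingV A := (gaussUnit_twist_UQ A q z _ hn hz).mem
  have e1 : gaussRedV A ⟨WU q z m, h⟩
      = qExpand (kV A) (q ^ m) (gaussRedV A ⟨twist z (UQ q), h2⟩) :=
    Fermat.Agent.BAD.H73.gaussRedV_qExpand A (q ^ m) h2 h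
  have e2 : gaussRedV A ⟨twist z (UQ q), h2⟩ = gaussRedV A ⟨UQ q, h1⟩ :=
    gaussRedV_twist_of_res_eq_one A (_root_.Fermat.Agent.S45.NUE.H82.rootUnit A z (q ^ e) hn hz)
      (_root_.Fermat.Agent.S45.NUE.H82.resV_rootUnit A q hq hA z e hz) ⟨UQ q, h1⟩ h2
  rw [e1, e2, gaussRedV_UQ A q hq hA h1]

theorem const_mem82 (c : Kbar) (hc : c ∈ A) :
    (HahnSeries.C c : LaurentSeries Kbar) ∈ gaussRingV A := by
  have h3 : iotaV A (HahnSeries.C (⟨c, hc⟩ : ↥A)) = (HahnSeries.C c : LaurentSeries Kbar) :=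
    coeffMap_single A.subtype 0 _
  rw [← h3]
  exact iotaV_mem_gaussRingV A _

end Series

/-! ## The normalised expansions of the `eps_i` -/

section Exp

variable (N q M e : ℕ) (B k : ℤ) (hN : N = M * q ^ e) (hB : B * M + k * (q : ℤ) ^ e = 1)
  (hq : q.Prime) [NeZero N] [NeZero q]

open Fermat.Agent.S45.NUE.H23 (cE VE sE neZero_nE)

include hN in
theorem pow_succ_dvd_lvl (i : ℕ) (hi : i < e) : q ^ (i + 1) ∣ N := by
  rw [hN]
  exact Dvd.dvd.mul_left (pow_dvd_pow q (by omega)) M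

include hN hB hq in
theorem neZero_M82 : NeZero M := ⟨(posE N q M e B k hN hB hq).ne'⟩

/-- **`i < b ≤ e`**: `cE b (eps_(i+1)) = U (s^(q^(e - 2 b + i)))`. -/
theorem uexp_le (i b : ℕ) (hib : i < b) (hbe : b ≤ e) (h : q ^ (i + 1) ∣ N) :
    _root_.Fermat.Agent.S45.NUE.H23.cE N q M e B k hN hB hq b (epsN N q i h) = WU q 1 (e - 2 * b + i) := by
  haveI := neZero_M82 N q M e B k hN hB hq
  haveI := neZero_nE N q M e B k hN hB hq b
  obtain ⟨e', rfl⟩ : ∃ e', e = e' + 1 := ⟨e - 1, by omega⟩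
  apply qExpand_injective (R := Kbar) (N := M * q ^ min (e' + 1) (2 * b))
  rw [Fermat.Agent.S45.NUE.H31.qExpand_cE' N q M (e' + 1) B k hN hB hq b,
    le_exp q M hq e' N B k hN hB i b hib h, WU, twist_one', qExpand_qExpand]
  refine Fermat.Agent.BAD.H73.qExpand_congr ?_ _
  rw [hN, mul_assoc, ← pow_add, mul_assoc, ← pow_add]
  congr 2
  omega

/-- **`b ≤ i < e`**: `cE b (q¹² / eps_(i+1)) = (twist z U)(s^(q^(max e (2 b) - i - 1)))`. -/
theorem uexp_gt (i b : ℕ) (hbi : b ≤ i) (hie : i < e) (h : q ^ (i + 1) ∣ N) :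
    ∃ z : Kbar, z ^ (q ^ e) = 1 ∧
      _root_.Fermat.Agent.S45.NUE.H23.cE N q M e B k hN hB hq b (cqN N q ^ 12 * (epsN N q i h)⁻¹)
        = WU q z (max e (2 * b) - i - 1) := by
  haveI := neZero_M82 N q M e B k hN hB hq
  haveI := neZero_nE N q M e B k hN hB hq b
  obtain ⟨e', rfl⟩ : ∃ e', e = e' + 1 := ⟨e - 1, by omega⟩
  obtain ⟨z, hz, hexp⟩ := gt_exp' q M hq e' N B k hN hB i b hbi (by omega) h
  refine ⟨z, hz, ?_⟩
  have hW0 : qExpand Kbar (M * q ^ (e' - i + 2 * b)) (twist z (UQ q)) ≠ 0 := by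
    intro h0
    have h1 : twist z (UQ q) = 0 :=
      qExpand_injective (R := Kbar) (N := M * q ^ (e' - i + 2 * b)) (by rw [h0, map_zero])
    have hz0 : z ≠ 0 := by
      rintro rfl
      rw [zero_pow (pow_ne_zero _ hq.ne_zero)] at hz
      exact zero_ne_one hz
    exact UQ_ne_zero q (Fermat.Agent.RED.H95.twist_injective z hz0
      (by rw [h1, ← twistAlg_apply z hz0, map_zero]))
  have hC0 : (HahnSeries.C ((q : Kbar) ^ 12) : LaurentSeries Kbar) ≠ 0 := by
    rw [Ne, map_eq_zero]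
    exact pow_ne_zero _ (Nat.cast_ne_zero.mpr hq.ne_zero)
  apply qExpand_injective (R := Kbar) (N := M * q ^ min (e' + 1) (2 * b))
  rw [Fermat.Agent.S45.NUE.H31.qExpand_cE' N q M (e' + 1) B k hN hB hq b, map_mul, map_inv₀,
    map_pow, AlgHom.commutes, hexp, WU, qExpand_qExpand]
  have hidx : M * q ^ min (e' + 1) (2 * b) * q ^ (max (e' + 1) (2 * b) - i - 1)
      = M * q ^ (e' - i + 2 * b) := by
    rw [mul_assoc, ← pow_add]
    congr 2
    omega
  rw [Fermat.Agent.BAD.H73.qExpand_congr hidx]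
  have hCq : (algebraMap Kbar (LaurentSeries Kbar) (q : Kbar)) ^ 12
      = HahnSeries.C ((q : Kbar) ^ 12) := by
    rw [← map_pow, algebraMap_laurentSeries_eq_single]
    rfl
  rw [hCq, mul_inv, inv_inv, ← mul_assoc, mul_inv_cancel₀ hC0, one_mul]

end Exp

end Fermat.Agent.S45.NUE.H82

end
end
-- ==== END Fermat.Agent.S45.NUE.H82_EpsVal

-- ==== BEGIN Fermat.Agent.S45.NUE.H88_CuspRedE
section

/-!
# S45 / NU_e, package E-CUSP, leaf CUSP-RED_e (helper88): the reductions at the cusps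

Level `N = M q^e`, `1 ≤ e`, `A` over `q`, `u = 1 / j = H73.uooE`, `E_a = H73.EooE a`
(`a = 0`: `(EwE 0)^q u^(q-1)`; `a ≠ 0`: `EwE a · u^(KooE a)`), `s_a = H23.sE a`,
`HU = (Δ~^(q-1))⁻¹ = H82.HUk`, `P` = the reverse of the supersingular polynomial
(`P(0) = 1`, `P(1/j~) = HU (1/j~)^(q-1)`).

* `qExpand_pow_of_fixed` : `f(s^(q^n)) = f^(q^n)` for a series with coefficients in the prime
  field; `qExpand_pow_deltaR`, `qExpand_pow_HUk`;
* `red_series_pos`, `red_series_zero` : the two identities of Laurent series;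
* `uooE_mem_VE`, `sE_uooE` : `u ∈ V_a`, `s_a u = (j~(s^(q^(e-2a))))⁻¹`;
* `cuspRedE_core` : **CUSP-RED_e** for the component `a`, from `EwE a ∈ V_a` and the reduction
  of `EwE a`:  `s_a (EooE a) = P_a (s_a u)`, `P_a(0) = 1`  (`P_0 = P`, `P_a = P^(c_a q^(a-1))`);
* `cuspRedE` : the same for all `a ≤ e`, from `H82.Stmt_EwE_mem` and `H82.Stmt_EwE_red`;
* `cuspRedE_forall` : the form with arbitrary membership proofs.
-/

set_option autoImplicit false
set_option synthInstance.maxHeartbeats 400000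
set_option maxHeartbeats 1000000
set_option linter.unusedSectionVars false
set_option linter.unusedVariables false
set_option linter.style.haveILetI false

noncomputable section

open ModularCurve Polynomial
open Fermat.Agent.S24 Fermat.Agent.BAD.H88 Fermat.Agent.BAD.H30 Fermat.Agent.BAD.H21
open Fermat.Agent.S28 Fermat.Agent.S28.H73 Fermat.Agent.RED.H73 Fermat.Agent.RED.H17
open Fermat.Agent.S36.NU.H88 Fermat.Agent.S36.NU.H23 Fermat.Agent.S36.NU.H82
open Fermat.Agent.S45.NUE.H23 (VE sE)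
open Fermat.Agent.S45.NUE.H73 (uooE KooE EooE)
open Fermat.Agent.S45.NUE.H82 (EwE cEw HUk)

namespace Fermat.Agent.S45.NUE.H88

section Series

variable (K : Type) [Field K] (q : ℕ) [hq : Fact q.Prime] [CharP K q] [NeZero q]

/-- **Frobenius**: `f(s^(q^n)) = f^(q^n)` for a series with coefficients in the prime field. -/
theorem qExpand_pow_of_fixed (f : LaurentSeries K) (hf : coeffMap (frobenius K q) f = f)
    (n : ℕ) : qExpand K (q ^ n) f = f ^ (q ^ n) := by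
  have h1 : qExpand K q f = f ^ q := by
    rw [Fermat.Agent.RED.H10.pow_char_eq q f, hf]
  induction n with
  | zero =>
    rw [qExpand_congr (pow_zero q) f, qExpand_one_apply, pow_zero, pow_one]
  | succ n ih =>
    rw [qExpand_congr (pow_succ q n) f, ← qExpand_qExpand, h1, map_pow, ih, ← pow_mul,
      ← pow_succ]

theorem qExpand_pow_deltaR (n : ℕ) : qExpand K (q ^ n) (deltaR K) = deltaR K ^ (q ^ n) :=
  qExpand_pow_of_fixed K q _ (coeffMap_deltaR _) n

/-- `HU(s^(q^n)) = HU^(q^n)`, `HU = (Δ~^(q-1))⁻¹`. -/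
theorem qExpand_pow_HU (n : ℕ) :
    qExpand K (q ^ n) ((deltaR K ^ (q - 1))⁻¹) = ((deltaR K ^ (q - 1))⁻¹) ^ (q ^ n) := by
  rw [map_inv₀, map_pow, qExpand_pow_deltaR, inv_pow, ← pow_mul, ← pow_mul, mul_comm]

/-- `qExpand` commutes with the evaluation of polynomials with constant coefficients. -/
theorem qExpand_aevalE (d : ℕ) [NeZero d] (x : LaurentSeries K) (P : K[X]) :
    qExpand K d (aeval x P) = aeval (qExpand K d x) P := by
  rw [← qExpandAlgHomC_apply, ← qExpandAlgHomC_apply]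
  exact (Polynomial.aeval_algHom_apply (qExpandAlgHomC K d) x P).symm

/-- **The identity of series for the components `a ≠ 0`**: with `d = q^i`, `n = q^j`,
`HU(s^(dn))^c · (1/j~(s^d))^(c n (q-1)) = (P^(c n))(1/j~(s^d))`. -/
theorem red_series_pos (P : K[X])
    (hP : aeval (jqModC K)⁻¹ P = (deltaR K ^ (q - 1))⁻¹ * ((jqModC K)⁻¹) ^ (q - 1))
    (i j c : ℕ) :
    (qExpand K (q ^ (i + j)) ((deltaR K ^ (q - 1))⁻¹)) ^ c
        * ((qExpand K (q ^ i) (jqModC K))⁻¹) ^ (c * q ^ j * (q - 1))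
      = aeval ((qExpand K (q ^ i) (jqModC K))⁻¹) (P ^ (c * q ^ j)) := by
  have h1 : qExpand K (q ^ (i + j)) ((deltaR K ^ (q - 1))⁻¹)
      = (qExpand K (q ^ i) ((deltaR K ^ (q - 1))⁻¹)) ^ (q ^ j) := by
    rw [qExpand_congr (pow_add q i j) _, ← qExpand_qExpand, qExpand_pow_HU, map_pow]
  rw [map_pow, ← map_inv₀, ← qExpand_aevalE, hP, h1, map_mul, map_pow, mul_pow, ← pow_mul,
    ← pow_mul, mul_comm (q ^ j) c, mul_comm (q - 1) (c * q ^ j)]

/-- **The identity of series for the component `a = 0`**: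
`HU(s^(q^j))^q · (1/j~(s^(q^(j+1))))^(q-1) = P(1/j~(s^(q^(j+1))))`. -/
theorem red_series_zero (P : K[X])
    (hP : aeval (jqModC K)⁻¹ P = (deltaR K ^ (q - 1))⁻¹ * ((jqModC K)⁻¹) ^ (q - 1))
    (j : ℕ) :
    (qExpand K (q ^ j) ((deltaR K ^ (q - 1))⁻¹)) ^ q
        * ((qExpand K (q ^ (j + 1)) (jqModC K))⁻¹) ^ (q - 1)
      = aeval ((qExpand K (q ^ (j + 1)) (jqModC K))⁻¹) P := by
  have h1 : (qExpand K (q ^ j) ((deltaR K ^ (q - 1))⁻¹)) ^ q
      = qExpand K (q ^ (j + 1)) ((deltaR K ^ (q - 1))⁻¹) := by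
    rw [qExpand_pow_HU, qExpand_pow_HU, ← pow_mul, ← pow_succ]
  rw [← map_inv₀, ← qExpand_aevalE, hP, h1, map_mul, map_pow]

end Series

section Level

variable (A : ValuationSubring Kbar)
variable (N q M e : ℕ) (B k : ℤ) (hN : N = M * q ^ e) (hB : B * M + k * (q : ℤ) ^ e = 1)
  (hq : q.Prime) [NeZero N] [NeZero q] [NeZero M]

include hN hB hq in
/-- `u = 1 / j ∈ V_a`, with reduction `(j~(s^(q^(e - 2a))))⁻¹`. -/
theorem uooE_mem_VE (a : ℕ) :
    ∃ hu : uooE A N ∈ VE A N q M e B k hN hB hq a,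
      _root_.Fermat.Agent.S45.NUE.H23.sE A N q M e B k hN hB hq a ⟨uooE A N, hu⟩
        = (qExpand (kV A) (q ^ (e - 2 * a)) (jqModC (kV A)))⁻¹ := by
  haveI := Fermat.Agent.S45.NUE.H28.neZero_one_mul_pow q (e - 2 * a + 0)
  have hj := Fermat.Agent.S45.NUE.H28.j0_mem_VE A N q M e B k hN hB hq a
  have hsj := Fermat.Agent.S45.NUE.H28.sE_j0 A N q M e B k hN hB hq a hj
  have hd : 1 * q ^ (e - 2 * a + 0) = q ^ (e - 2 * a) := by rw [one_mul, add_zero]
  rw [qExpand_congr hd] at hsj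
  have hne : _root_.Fermat.Agent.S45.NUE.H23.sE A N q M e B k hN hB hq a ⟨j0 A N, hj⟩ ≠ 0 := by
    rw [hsj]
    intro h
    exact Fermat.Agent.S36.NU.H86.jqModC_ne_zero' (kV A)
      (qExpand_injective (q ^ (e - 2 * a)) (h.trans (map_zero _).symm))
  obtain ⟨hu, hsu⟩ := Fermat.Agent.S36.NU.H86.inv_mem_of_res_ne_zero
    (VE A N q M e B k hN hB hq a) (_root_.Fermat.Agent.S45.NUE.H23.sE A N q M e B k hN hB hq a)
    (Fermat.Agent.S45.NUE.H23.sE_eq_zero_of_not_isUnit A N q M e B k hN hB hq a)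
    (j0 A N) hj hne
  rw [hsj] at hsu
  exact ⟨hu, hsu⟩

include hN hB hq in
theorem sE_uooE (a : ℕ) (hu : uooE A N ∈ VE A N q M e B k hN hB hq a) :
    _root_.Fermat.Agent.S45.NUE.H23.sE A N q M e B k hN hB hq a ⟨uooE A N, hu⟩
      = (qExpand (kV A) (q ^ (e - 2 * a)) (jqModC (kV A)))⁻¹ :=
  (_root_.Fermat.Agent.S45.NUE.H88.uooE_mem_VE A N q M e B k hN hB hq a).choose_spec

include hN hB hq in
/-- **CUSP-RED_e** for the component `a`. -/
theorem cuspRedE_core (hA : A.LiesOverPrime q) (he : e ≠ 0) (a : ℕ) (ha : a ≤ e)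
    (hEw : EwE A N q e a ∈ VE A N q M e B k hN hB hq a)
    (hred : _root_.Fermat.Agent.S45.NUE.H23.sE A N q M e B k hN hB hq a ⟨EwE A N q e a, hEw⟩
      = (qExpand (kV A) (q ^ (max a (e - a) - 1)) (HUk A q)) ^ cEw e a) :
    ∃ (hu : uooE A N ∈ VE A N q M e B k hN hB hq a)
      (hE : EooE A N q e a ∈ VE A N q M e B k hN hB hq a) (P : Polynomial (kV A)),
      P.coeff 0 = 1 ∧
      _root_.Fermat.Agent.S45.NUE.H23.sE A N q M e B k hN hB hq a ⟨EooE A N q e a, hE⟩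
        = Polynomial.aeval (_root_.Fermat.Agent.S45.NUE.H23.sE A N q M e B k hN hB hq a ⟨uooE A N, hu⟩) P := by
  haveI : Fact q.Prime := ⟨hq⟩
  haveI : CharP (kV A) q := Fermat.Agent.BAD.H82.charP_kV A hq hA
  haveI : IsAlgClosed (kV A) := isAlgClosed_kV A
  obtain ⟨P, hP0, hP⟩ := Fermat.Agent.S36.NU.H86.exists_rev_poly (kV A) q
  obtain ⟨hu, hsu⟩ := _root_.Fermat.Agent.S45.NUE.H88.uooE_mem_VE A N q M e B k hN hB hq a
  by_cases ha0 : a = 0
  · -- the component `a = 0`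
    subst ha0
    have hE : EooE A N q e 0 ∈ VE A N q M e B k hN hB hq 0 := by
      rw [Fermat.Agent.S45.NUE.H73.EooE_zero]
      exact mul_mem (pow_mem hEw _) (pow_mem hu _)
    refine ⟨hu, hE, P, ?_, ?_⟩
    · rw [coeff_zero_eq_eval_zero, hP0]
    · have e1 : (⟨EooE A N q e 0, hE⟩ : ↥(VE A N q M e B k hN hB hq 0))
          = ⟨EwE A N q e 0, hEw⟩ ^ q * ⟨uooE A N, hu⟩ ^ (q - 1) :=
        Subtype.ext (Fermat.Agent.S45.NUE.H73.EooE_zero A N q e)
      have hc : cEw e 0 = 1 := by rw [cEw, if_pos (Or.inl rfl)]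
      have hd1 : q ^ (max 0 (e - 0) - 1) = q ^ (e - 1) := by
        congr 1
      have hd2 : q ^ (e - 2 * 0) = q ^ ((e - 1) + 1) := by
        congr 1
        omega
      rw [e1, map_mul, map_pow, map_pow, hred, hsu, hc, pow_one, qExpand_congr hd1,
        qExpand_congr hd2, HUk]
      exact red_series_zero (kV A) q P hP (e - 1)
  · -- the components `a ≠ 0`
    have hE : EooE A N q e a ∈ VE A N q M e B k hN hB hq a := by
      rw [Fermat.Agent.S45.NUE.H73.EooE_of_ne A N q e a ha0]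
      exact mul_mem hEw (pow_mem hu _)
    refine ⟨hu, hE, P ^ (cEw e a * q ^ (a - 1)), ?_, ?_⟩
    · rw [coeff_zero_eq_eval_zero, eval_pow, hP0, one_pow]
    · have e1 : (⟨EooE A N q e a, hE⟩ : ↥(VE A N q M e B k hN hB hq a))
          = ⟨EwE A N q e a, hEw⟩ * ⟨uooE A N, hu⟩ ^ KooE q e a :=
        Subtype.ext (Fermat.Agent.S45.NUE.H73.EooE_of_ne A N q e a ha0)
      have hK : KooE q e a = cEw e a * q ^ (a - 1) * (q - 1) := by
        by_cases hae : a = e
        · subst hae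
          rw [Fermat.Agent.S45.NUE.H73.KooE_top q a ha0, cEw, if_pos (Or.inr rfl), one_mul]
        · rw [Fermat.Agent.S45.NUE.H73.KooE_mid q e a ha0 hae, cEw,
            if_neg (by rintro (h | h); exacts [ha0 h, hae h])]
      have hd1 : q ^ (max a (e - a) - 1) = q ^ ((e - 2 * a) + (a - 1)) := by
        congr 1
        omega
      rw [e1, map_mul, map_pow, hred, hsu, hK, qExpand_congr hd1, HUk]
      exact red_series_pos (kV A) q P hP (e - 2 * a) (a - 1) (cEw e a)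

include hN hB hq in
/-- **CUSP-RED_e**, for all the components, from helper82's targets. -/
theorem cuspRedE (hA : A.LiesOverPrime q) (he : e ≠ 0)
    (hmem : Fermat.Agent.S45.NUE.H82.Stmt_EwE_mem A N q M e B k hN hB hq)
    (hred : Fermat.Agent.S45.NUE.H82.Stmt_EwE_red A N q M e B k hN hB hq)
    (a : ℕ) (ha : a ≤ e) :
    ∃ (hu : uooE A N ∈ VE A N q M e B k hN hB hq a)
      (hE : EooE A N q e a ∈ VE A N q M e B k hN hB hq a) (P : Polynomial (kV A)),
      P.coeff 0 = 1 ∧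
      _root_.Fermat.Agent.S45.NUE.H23.sE A N q M e B k hN hB hq a ⟨EooE A N q e a, hE⟩
        = Polynomial.aeval (_root_.Fermat.Agent.S45.NUE.H23.sE A N q M e B k hN hB hq a ⟨uooE A N, hu⟩) P :=
  cuspRedE_core A N q M e B k hN hB hq hA he a ha (hmem a a ha ha) (hred a ha (hmem a a ha ha))

include hN hB hq in
/-- **CUSP-RED_e**, with arbitrary membership proofs. -/
theorem cuspRedE_forall (hA : A.LiesOverPrime q) (he : e ≠ 0)
    (hmem : Fermat.Agent.S45.NUE.H82.Stmt_EwE_mem A N q M e B k hN hB hq)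
    (hred : Fermat.Agent.S45.NUE.H82.Stmt_EwE_red A N q M e B k hN hB hq)
    (a : ℕ) (ha : a ≤ e)
    (hu : uooE A N ∈ VE A N q M e B k hN hB hq a)
    (hE : EooE A N q e a ∈ VE A N q M e B k hN hB hq a) :
    ∃ P : Polynomial (kV A), P.coeff 0 = 1 ∧
      _root_.Fermat.Agent.S45.NUE.H23.sE A N q M e B k hN hB hq a ⟨EooE A N q e a, hE⟩
        = Polynomial.aeval (_root_.Fermat.Agent.S45.NUE.H23.sE A N q M e B k hN hB hq a ⟨uooE A N, hu⟩) P := by
  obtain ⟨_, _, P, h0, hs⟩ := cuspRedE A N q M e B k hN hB hq hA he hmem hred a ha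
  exact ⟨P, h0, hs⟩

include hN hB hq in
/-- `EooE a ∈ V_a`. -/
theorem EooE_mem_VE_self (hA : A.LiesOverPrime q) (he : e ≠ 0)
    (hmem : Fermat.Agent.S45.NUE.H82.Stmt_EwE_mem A N q M e B k hN hB hq)
    (hred : Fermat.Agent.S45.NUE.H82.Stmt_EwE_red A N q M e B k hN hB hq)
    (a : ℕ) (ha : a ≤ e) : EooE A N q e a ∈ VE A N q M e B k hN hB hq a :=
  (cuspRedE A N q M e B k hN hB hq hA he hmem hred a ha).choose_spec.choose

end Level

end Fermat.Agent.S45.NUE.H88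

end
end
-- ==== END Fermat.Agent.S45.NUE.H88_CuspRedE
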