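-- GENERATED (merged mirror, NOTES/tools/trim/merge3_helper67.py): 1 modules of the originals, bodies verbatim.
import Fermat.Agent.Zm.S45_L05_000

-- ==== BEGIN Fermat.Agent.S45.NUE.H57_IncompE
section

/-!
# S45 / NU_e, package E-TOT, leaf T8 HINC (helper57): the valuations `V_a` are pairwise
incomparable

`N = M q^e`, `B M + k q^e = 1`, `VE a` (`a ≤ e`) helper23's valuations of the inertia-fixed
functions `L0 A N`.  With `u_i = j(q^i τ)` (`uL`), the reduction of `u_i` at `V_a` is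
`j̄(s^(q^(ν_a i)))`, `ν_a i = e - 2a + i` (`i ≤ a`), `max(e, 2a) - i` (`a < i ≤ e`) (`sE_uL`).
Kronecker steps: `x_i = u_(i+1) - u_i^q` reduces to `0` at `V_a` iff `i < a`,
`y_i = u_i - u_(i+1)^q` reduces to `0` at `V_a` iff `a ≤ i`; the other reductions are
`± (j̄(s^A) - j̄(s^(A q²))) ≠ 0`.

* **`not_le_VE`** : `a ≠ a'` ⟹ `¬ VE a ≤ VE a'`.
-/

set_option autoImplicit false
set_option synthInstance.maxHeartbeats 400000
set_option maxHeartbeats 1000000
set_option linter.unusedSectionVars false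
set_option linter.unusedVariables false
set_option linter.style.haveILetI false

noncomputable section

namespace Fermat.Agent.S45.NUE.H57

open Fermat.Agent.S24 Fermat.Agent.BAD.H88 ModularCurve AlgebraicCurve
open Fermat.Agent.S28 Fermat.Agent.S28.H73 Fermat.Agent.RED.H73 Fermat.Agent.RED.H17
open Fermat.Agent.S36.NU.H88
open Fermat.Agent.S45.NUE.H23

local notation "L0" => Fermat.Agent.S36.NU.H23.L0

/-! ## Series in characteristic `q` -/

section SeriesQ

variable (k : Type*) [Field k] (q : ℕ) [NeZero q]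

/-- `j̄(s^(q^n))`. -/
def jn (n : ℕ) : LaurentSeries k := qExpand k (q ^ n) (jqModC k)

theorem jn_coeff_self (n : ℕ) : (jn k q n).coeff (-((q ^ n : ℕ) : ℤ)) = 1 := by
  have h := qExpand_coeff_mul (R := k) (q ^ n) (jqModC k) (-1)
  rw [mul_neg_one] at h
  rw [jn, h, coeff_jqModC_neg_one]

theorem jn_coeff_of_lt (hq : 1 < q) (n m : ℕ) (hnm : n < m) :
    (jn k q m).coeff (-((q ^ n : ℕ) : ℤ)) = 0 := by
  rw [jn]
  apply qExpand_coeff_of_not_dvd
  intro hd
  rw [Int.dvd_neg, Int.natCast_dvd_natCast] at hd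
  have h1 := Nat.le_of_dvd (pow_pos (by omega) n) hd
  have h2 : q ^ n < q ^ m := Nat.pow_lt_pow_right hq hnm
  omega

/-- `j̄(s^(q^n)) ≠ j̄(s^(q^m))` for `n < m`. -/
theorem jn_sub_ne_zero (hq : 1 < q) (n m : ℕ) (hnm : n < m) : jn k q n - jn k q m ≠ 0 := by
  intro h
  have h1 := congrArg (fun s : LaurentSeries k => s.coeff (-((q ^ n : ℕ) : ℤ))) h
  simp only [HahnSeries.coeff_sub, HahnSeries.coeff_zero] at h1
  rw [jn_coeff_self, jn_coeff_of_lt k q hq n m hnm, sub_zero] at h1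
  exact one_ne_zero h1

theorem jn_sub_ne_zero' (hq : 1 < q) (n m : ℕ) (hnm : n < m) : jn k q m - jn k q n ≠ 0 := by
  intro h
  apply jn_sub_ne_zero k q hq n m hnm
  rw [← neg_sub, h, neg_zero]

variable [Fact q.Prime] [CharP k q]

/-- Frobenius: `j̄(s^(q^n))^q = j̄(s^(q^(n+1)))`. -/
theorem jn_pow (n : ℕ) : jn k q n ^ q = jn k q (n + 1) := by
  rw [jn, ← map_pow, Fermat.Agent.BAD.H82.jqModC_pow_char k q, qExpand_qExpand, jn]
  exact qExpand_congr (by rw [pow_succ]) _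

end SeriesQ

/-! ## Units and non-units of a valuation ring through a residue map -/

section Units

variable {F : Type*} [Field F] (V : ValuationSubring F) {R : Type*} [CommRing R] [Nontrivial R]
  (s : ↥V →+* R)

theorem inv_mem_of_red_ne_zero (hs : ∀ x : ↥V, ¬ IsUnit x → s x = 0) (w : ↥V) (hw : s w ≠ 0) :
    ((w : F))⁻¹ ∈ V := by
  have hu : IsUnit w := by
    by_contra h
    exact hw (hs w h)
  have h1 := (ValuationSubring.valuation_eq_one_iff V w).mp hu
  rw [← ValuationSubring.valuation_le_one_iff, map_inv₀, h1, inv_one]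

theorem inv_not_mem_of_red_eq_zero (w : ↥V) (hw0 : (w : F) ≠ 0) (hw : s w = 0) :
    ((w : F))⁻¹ ∉ V := by
  intro h
  have h1 : w * ⟨((w : F))⁻¹, h⟩ = 1 := Subtype.ext (mul_inv_cancel₀ hw0)
  have h2 := congrArg s h1
  rw [map_mul, hw, zero_mul, map_one] at h2
  exact zero_ne_one h2

end Units

/-! ## The reductions of `u_i = j(q^i τ)` -/

section Level

variable (A : ValuationSubring Kbar)
variable (N q M e : ℕ) (B k : ℤ) (hN : N = M * q ^ e) (hB : B * M + k * (q : ℤ) ^ e = 1)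
  (hq : q.Prime) [NeZero N] [NeZero q]

/-- `ν_a(i)`: the reduction of `j(q^i τ)` at `V_a` is `j̄(s^(q^(ν_a i)))`. -/
def nuE (e a i : ℕ) : ℕ := if i ≤ a then e - 2 * a + i else max e (2 * a) - i

theorem nuE_le (e a i : ℕ) (h : i ≤ a) : nuE e a i = e - 2 * a + i := by
  rw [nuE, if_pos h]

theorem nuE_gt (e a i : ℕ) (h : a < i) : nuE e a i = max e (2 * a) - i := by
  rw [nuE, if_neg (by omega)]

include hN in
theorem pow_dvd_lvl (i : ℕ) (hie : i ≤ e) : q ^ i ∣ N := by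
  rw [hN]
  exact Dvd.dvd.mul_left (pow_dvd_pow q hie) M

/-- `u_i = j(q^i τ)` as an inertia-fixed function. -/
def uL (i : ℕ) (hD : q ^ i ∣ N) : ↥(L0 A N) :=
  ⟨jdF N (q ^ i) hD, Fermat.Agent.S36.NU.H23.jdF_mem_L0 A N _ hD⟩

theorem coe_uL (i : ℕ) (hD : q ^ i ∣ N) : ((uL A N q i hD : ↥(L0 A N)) : FN N) = jdF N (q ^ i) hD :=
  rfl

include hN hB hq in
theorem cE_uL_le (a i : ℕ) (hia : i ≤ a) (hD : q ^ i ∣ N) :
    cE N q M e B k hN hB hq a (jdF N (q ^ i) hD) = qExpand Kbar (q ^ (e - 2 * a + i)) jBar :=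
  haveI := neZero_nE N q M e B k hN hB hq a
  H73.cG_jq_le N q M e B k hN hB hq i a hia hD

include hN hB hq in
theorem cE_uL_gt (a i : ℕ) (hai : a < i) (hie : i ≤ e) (hD : q ^ i ∣ N) :
    cE N q M e B k hN hB hq a (jdF N (q ^ i) hD)
      = twist (H73.zE q e a B) (qExpand Kbar (q ^ (max e (2 * a) - i)) jBar) :=
  haveI := neZero_nE N q M e B k hN hB hq a
  H73.cG_jq_gt N q M e B k hN hB hq i a hai hie hD

include hN hB hq in
theorem uL_mem (a i : ℕ) (hie : i ≤ e) (hD : q ^ i ∣ N) :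
    uL A N q i hD ∈ VE A N q M e B k hN hB hq a := by
  rw [mem_VE_iff, coe_uL]
  rcases Nat.lt_or_ge a i with h | h
  · rw [cE_uL_gt N q M e B k hN hB hq a i h hie hD]
    exact H17.twist_zE_mem A q e a B (H17.qExpand_jBar_mem A _)
  · rw [cE_uL_le N q M e B k hN hB hq a i h hD]
    exact H17.qExpand_jBar_mem A _

include hN hB hq in
/-- **The reduction of `u_i` at `V_a` is `j̄(s^(q^(ν_a i)))`.** -/
theorem sE_uL (hA : (q : Kbar) ∈ A.nonunits) (a i : ℕ) (hie : i ≤ e) (hD : q ^ i ∣ N)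
    (hmem : uL A N q i hD ∈ VE A N q M e B k hN hB hq a) :
    sE A N q M e B k hN hB hq a ⟨_, hmem⟩ = jn (kV A) q (nuE e a i) := by
  rw [sE_mk]
  rcases Nat.lt_or_ge a i with h | h
  · have h0 : qExpand Kbar (q ^ (max e (2 * a) - i)) jBar ∈ gaussRingV A :=
      H17.qExpand_jBar_mem A _
    have e2 : (⟨cE N q M e B k hN hB hq a ((uL A N q i hD : ↥(L0 A N)) : FN N), hmem⟩ :
          gaussRingV A)
        = ⟨twist (H73.zE q e a B) (qExpand Kbar (q ^ (max e (2 * a) - i)) jBar),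
            H17.twist_zE_mem A q e a B h0⟩ :=
      Subtype.ext (cE_uL_gt N q M e B k hN hB hq a i h hie hD)
    rw [e2, H17.gaussRedV_twist_zE A q e a B hq hA ⟨_, h0⟩, H17.gaussRedV_qExpand_jBar,
      nuE_gt e a i h, jn]
  · have e2 : (⟨cE N q M e B k hN hB hq a ((uL A N q i hD : ↥(L0 A N)) : FN N), hmem⟩ :
          gaussRingV A)
        = ⟨qExpand Kbar (q ^ (e - 2 * a + i)) jBar, H17.qExpand_jBar_mem A _⟩ :=
      Subtype.ext (cE_uL_le N q M e B k hN hB hq a i h hD)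
    rw [e2, H17.gaussRedV_qExpand_jBar, nuE_le e a i h, jn]

/-! ## The Kronecker steps -/

/-- `x_i = u_(i+1) - u_i^q`. -/
def kx (i : ℕ) (hD : q ^ i ∣ N) (hD' : q ^ (i + 1) ∣ N) : ↥(L0 A N) :=
  uL A N q (i + 1) hD' - uL A N q i hD ^ q

/-- `y_i = u_i - u_(i+1)^q`. -/
def ky (i : ℕ) (hD : q ^ i ∣ N) (hD' : q ^ (i + 1) ∣ N) : ↥(L0 A N) :=
  uL A N q i hD - uL A N q (i + 1) hD' ^ q

include hN hB hq in
theorem kx_mem (a i : ℕ) (hie : i + 1 ≤ e) (hD : q ^ i ∣ N) (hD' : q ^ (i + 1) ∣ N) :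
    kx A N q i hD hD' ∈ VE A N q M e B k hN hB hq a :=
  sub_mem (uL_mem A N q M e B k hN hB hq a (i + 1) hie hD')
    (pow_mem (uL_mem A N q M e B k hN hB hq a i (by omega) hD) q)

include hN hB hq in
theorem ky_mem (a i : ℕ) (hie : i + 1 ≤ e) (hD : q ^ i ∣ N) (hD' : q ^ (i + 1) ∣ N) :
    ky A N q i hD hD' ∈ VE A N q M e B k hN hB hq a :=
  sub_mem (uL_mem A N q M e B k hN hB hq a i (by omega) hD)
    (pow_mem (uL_mem A N q M e B k hN hB hq a (i + 1) hie hD') q)

include hN hB hq in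
/-- The reduction of `x_i` at `V_a`. -/
theorem sE_kx (hA : (q : Kbar) ∈ A.nonunits) (a i : ℕ) (hie : i + 1 ≤ e) (hD : q ^ i ∣ N)
    (hD' : q ^ (i + 1) ∣ N) (hmem : kx A N q i hD hD' ∈ VE A N q M e B k hN hB hq a) :
    sE A N q M e B k hN hB hq a ⟨_, hmem⟩
      = jn (kV A) q (nuE e a (i + 1)) - jn (kV A) q (nuE e a i + 1) := by
  haveI : Fact q.Prime := ⟨hq⟩
  haveI : CharP (kV A) q := Fermat.Agent.BAD.H82.charP_kV A hq hA
  have h1 := uL_mem A N q M e B k hN hB hq a (i + 1) hie hD'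
  have h2 := uL_mem A N q M e B k hN hB hq a i (by omega) hD
  have e1 : (⟨kx A N q i hD hD', hmem⟩ : ↥(VE A N q M e B k hN hB hq a))
      = ⟨uL A N q (i + 1) hD', h1⟩ - ⟨uL A N q i hD, h2⟩ ^ q := rfl
  rw [e1, map_sub, map_pow, sE_uL A N q M e B k hN hB hq hA a (i + 1) hie hD' h1,
    sE_uL A N q M e B k hN hB hq hA a i (by omega) hD h2, jn_pow]

include hN hB hq in
/-- The reduction of `y_i` at `V_a`. -/
theorem sE_ky (hA : (q : Kbar) ∈ A.nonunits) (a i : ℕ) (hie : i + 1 ≤ e) (hD : q ^ i ∣ N)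
    (hD' : q ^ (i + 1) ∣ N) (hmem : ky A N q i hD hD' ∈ VE A N q M e B k hN hB hq a) :
    sE A N q M e B k hN hB hq a ⟨_, hmem⟩
      = jn (kV A) q (nuE e a i) - jn (kV A) q (nuE e a (i + 1) + 1) := by
  haveI : Fact q.Prime := ⟨hq⟩
  haveI : CharP (kV A) q := Fermat.Agent.BAD.H82.charP_kV A hq hA
  have h1 := uL_mem A N q M e B k hN hB hq a (i + 1) hie hD'
  have h2 := uL_mem A N q M e B k hN hB hq a i (by omega) hD
  have e1 : (⟨ky A N q i hD hD', hmem⟩ : ↥(VE A N q M e B k hN hB hq a))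
      = ⟨uL A N q i hD, h2⟩ - ⟨uL A N q (i + 1) hD', h1⟩ ^ q := rfl
  rw [e1, map_sub, map_pow, sE_uL A N q M e B k hN hB hq hA a (i + 1) hie hD' h1,
    sE_uL A N q M e B k hN hB hq hA a i (by omega) hD h2, jn_pow]

/-! ## Incomparability -/

include hN hB hq in
/-- **The valuations `V_a`, `a ≤ e`, are pairwise incomparable.** -/
theorem not_le_VE (hA : (q : Kbar) ∈ A.nonunits) (a a' : ℕ) (ha : a ≤ e) (ha' : a' ≤ e)
    (h : a ≠ a') :
    ¬ VE A N q M e B k hN hB hq a ≤ VE A N q M e B k hN hB hq a' := by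
  have hq1 : 1 < q := hq.one_lt
  intro hle
  rcases Nat.lt_or_gt_of_ne h with hlt | hgt
  · -- `a < a'`: `x_a` is a unit at `V_a` and reduces to `0` at `V_a'`
    have hD := pow_dvd_lvl N q M e hN a ha
    have hD' := pow_dvd_lvl N q M e hN (a + 1) (by omega)
    have m1 := kx_mem A N q M e B k hN hB hq a a (by omega) hD hD'
    have m2 := kx_mem A N q M e B k hN hB hq a' a (by omega) hD hD'
    have r1 := sE_kx A N q M e B k hN hB hq hA a a (by omega) hD hD' m1
    have r2 := sE_kx A N q M e B k hN hB hq hA a' a (by omega) hD hD' m2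
    have n1 : sE A N q M e B k hN hB hq a ⟨_, m1⟩ ≠ 0 := by
      rw [r1, nuE_gt e a (a + 1) (by omega), nuE_le e a a le_rfl]
      exact jn_sub_ne_zero (kV A) q hq1 _ _ (by omega)
    have n2 : sE A N q M e B k hN hB hq a' ⟨_, m2⟩ = 0 := by
      rw [r2, nuE_le e a' (a + 1) (by omega), nuE_le e a' a (by omega)]
      exact sub_eq_zero.mpr (by congr 1)
    have hw0 : kx A N q a hD hD' ≠ 0 := by
      intro h0
      apply n1
      have : (⟨kx A N q a hD hD', m1⟩ : ↥(VE A N q M e B k hN hB hq a)) = 0 := Subtype.ext h0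
      rw [this, map_zero]
    have i1 := inv_mem_of_red_ne_zero (VE A N q M e B k hN hB hq a)
      (sE A N q M e B k hN hB hq a)
      (sE_eq_zero_of_not_isUnit A N q M e B k hN hB hq a) ⟨_, m1⟩ n1
    exact inv_not_mem_of_red_eq_zero (VE A N q M e B k hN hB hq a')
      (sE A N q M e B k hN hB hq a') ⟨_, m2⟩ hw0 n2 (hle i1)
  · -- `a' < a`: `y_(a-1)` is a unit at `V_a` and reduces to `0` at `V_a'`
    obtain ⟨b, rfl⟩ : ∃ b, a = b + 1 := ⟨a - 1, by omega⟩
    have hD := pow_dvd_lvl N q M e hN b (by omega)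
    have hD' := pow_dvd_lvl N q M e hN (b + 1) ha
    have m1 := ky_mem A N q M e B k hN hB hq (b + 1) b ha hD hD'
    have m2 := ky_mem A N q M e B k hN hB hq a' b ha hD hD'
    have r1 := sE_ky A N q M e B k hN hB hq hA (b + 1) b ha hD hD' m1
    have r2 := sE_ky A N q M e B k hN hB hq hA a' b ha hD hD' m2
    have n1 : sE A N q M e B k hN hB hq (b + 1) ⟨_, m1⟩ ≠ 0 := by
      rw [r1, nuE_le e (b + 1) b (by omega), nuE_le e (b + 1) (b + 1) le_rfl]
      exact jn_sub_ne_zero (kV A) q hq1 _ _ (by omega)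
    have n2 : sE A N q M e B k hN hB hq a' ⟨_, m2⟩ = 0 := by
      rw [r2]
      apply sub_eq_zero.mpr
      congr 1
      rcases Nat.lt_or_ge a' b with h1 | h1
      · rw [nuE_gt e a' b h1, nuE_gt e a' (b + 1) (by omega)]
        omega
      · have : a' = b := by omega
        subst this
        rw [nuE_le e a' a' le_rfl, nuE_gt e a' (a' + 1) (by omega)]
        omega
    have hw0 : ky A N q b hD hD' ≠ 0 := by
      intro h0
      apply n1
      have : (⟨ky A N q b hD hD', m1⟩ : ↥(VE A N q M e B k hN hB hq (b + 1))) = 0 :=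
        Subtype.ext h0
      rw [this, map_zero]
    have i1 := inv_mem_of_red_ne_zero (VE A N q M e B k hN hB hq (b + 1))
      (sE A N q M e B k hN hB hq (b + 1))
      (sE_eq_zero_of_not_isUnit A N q M e B k hN hB hq (b + 1)) ⟨_, m1⟩ n1
    exact inv_not_mem_of_red_eq_zero (VE A N q M e B k hN hB hq a')
      (sE A N q M e B k hN hB hq a') ⟨_, m2⟩ hw0 n2 (hle i1)

end Level

end Fermat.Agent.S45.NUE.H57

end
end
-- ==== END Fermat.Agent.S45.NUE.H57_IncompE
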