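-- GENERATED (merged mirror, NOTES/tools/trim/merge3_helper67.py): 5 modules of the originals, bodies verbatim.
import Fermat.Agent.Zm.S45_L06_000
import Fermat.Agent.Zm.S45_L02_001
import Fermat.Agent.Zm.S45_L01_002
import Fermat.Agent.Zm.S45_L06_004
import Fermat.Agent.Zm.S36_L11_000
import Fermat.Agent.Zm.S36_L04_000
import Fermat.Agent.Zm.S45_L06_001

-- ==== BEGIN Fermat.Agent.S45.NUE.H12_SSRam
section

/-!
# S45 / NU_e, package E-FIN, leaf E-PT-SS, sub-leaf SS-RAM (helper12)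

Level `N = M q^e`, `f ∈ F_M` with integral expansion `u₀`, `x = f(τ)`, `y = f(q^e τ)`
(`H12.xE`, `H12.yE`).  On the component `a < e` the local equation
`t_a = H68.tE q e a x y` satisfies `t_a ^ φ(q^min(a, e-a)) ∈ q · VE a`.

* `rot_qExpand_pow` : `rot u (x(t^Q)) = (rot (u^Q) x)(t^Q)`;
* `pow_mem_of_sub_mem` : `a ≡ b`, `b^n ∈ I` ⟹ `a^n ∈ I`;
* `ram_coreA`, `ram_coreB` : the two series computations modulo `q` in `R((t))`:
  `g^Q - g(u^Q t^Q) ≡ g(t^Q) - g(u t)^Q ≡ - (u^Q - 1) W`;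
* `sub_one_pow_totient_div_mem` : `(z - 1)^φ(q^μ) / q` is integral if `z^(q^μ) = 1`;
* `cE_xE`, `cE_yE_lt` : the expansions of `x`, `y` at the cusp `a`;
* `ss_ram_xyE`, `ss_ram` : **SS-RAM**.
-/

set_option autoImplicit false
set_option synthInstance.maxHeartbeats 400000
set_option maxHeartbeats 1000000
set_option linter.unusedSectionVars false
set_option linter.unusedVariables false
set_option linter.style.haveILetI false

noncomputable section

namespace Fermat.Agent.S45.NUE.H12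

open Fermat.Agent.S24 Fermat.Agent.BAD.H88 ModularCurve AlgebraicCurve
open Fermat.Agent.S28 Fermat.Agent.S28.H73 Fermat.Agent.RED.H73 Fermat.Agent.RED.H17
open Fermat.Agent.RED.H10
open Fermat.Agent.S36.NU.H88 Fermat.Agent.S36.NU
open Fermat.Agent.S45.NUE.H23 Fermat.Agent.S45.NUE.H17 Fermat.Agent.S45.NUE.H68
open Fermat.Agent.S45.NUE.H73 (zE zE_pow)

local notation "L0" => Fermat.Agent.S36.NU.H23.L0

/-! ## Abstract part: series over a commutative ring -/

section Abs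

variable {R : Type*} [CommRing R]

/-- `rot u (x (t^Q)) = (rot (u^Q) x)(t^Q)`. -/
theorem rot_qExpand_pow (Q : ℕ) [NeZero Q] (u : Rˣ) (x : LaurentSeries R) :
    rot u (qExpand R Q x) = qExpand R Q (rot (u ^ Q) x) := by
  ext n
  rw [rot_coeff]
  by_cases hn : (Q : ℤ) ∣ n
  · obtain ⟨m, rfl⟩ := hn
    rw [qExpand_coeff_mul, qExpand_coeff_mul, rot_coeff, zpow_mul, zpow_natCast]
  · rw [qExpand_coeff_of_not_dvd Q x hn, qExpand_coeff_of_not_dvd Q _ hn, mul_zero]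

/-- `a ≡ b` modulo `I` and `b ^ n ∈ I` ⟹ `a ^ n ∈ I`. -/
theorem pow_mem_of_sub_mem {S : Type*} [CommRing S] (I : Ideal S) {a b : S} (n : ℕ)
    (h : a - b ∈ I) (hb : b ^ n ∈ I) : a ^ n ∈ I := by
  have h1 : a ^ n - b ^ n ∈ I := by
    obtain ⟨c, hc⟩ := sub_dvd_pow_sub_pow a b n
    rw [hc]
    exact I.mul_mem_right _ h
  have h2 := I.add_mem h1 hb
  rwa [sub_add_cancel] at h2

variable (q : ℕ) [NeZero q] [hqF : Fact q.Prime]

/-- Kronecker's congruence over `R`. -/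
theorem dvd_pow_sub_qExpand (u₀ : LaurentSeries ℤ) (j : ℕ) :
    haveI : NeZero (q ^ j) := ⟨pow_ne_zero _ (NeZero.ne q)⟩
    ((q : ℕ) : LaurentSeries R) ∣
      coeffMap (Int.castRingHom R) u₀ ^ (q ^ j)
        - qExpand R (q ^ j) (coeffMap (Int.castRingHom R) u₀) := by
  haveI : NeZero (q ^ j) := ⟨pow_ne_zero _ (NeZero.ne q)⟩
  have h := map_dvd (coeffMap (Int.castRingHom R)) (H60.dvd_powE_sub q u₀ j)
  rwa [map_natCast, map_sub, map_pow, coeffMap_qExpand] at h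

/-- `rot u (g (t^Q)) - g (t^Q) = (u^Q - 1) · W`. -/
theorem rot_qExpand_sub (Q : ℕ) [NeZero Q] (u : Rˣ) (g : LaurentSeries R) :
    rot u (qExpand R Q g) - qExpand R Q g
      = HahnSeries.C ((((u ^ Q : Rˣ) : Rˣ) : R) - 1) * qExpand R Q (H65.rotQuot (u ^ Q) g) := by
  rw [rot_qExpand_pow, ← map_sub, H65.rot_sub_self, map_mul, qExpand_C]

/-- The power `φ` of `C (v - 1) * W` is divisible by `q` if `(v - 1)^φ` is. -/
theorem neg_C_mul_pow_mem (v : R) (W : LaurentSeries R) (φ : ℕ) (w : R)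
    (hw : (v - 1) ^ φ = (q : R) * w) :
    (-(HahnSeries.C (v - 1) * W)) ^ φ
      ∈ Ideal.span ({((q : ℕ) : LaurentSeries R)} : Set (LaurentSeries R)) := by
  rw [Ideal.mem_span_singleton]
  refine ⟨HahnSeries.C w * (-W) ^ φ, ?_⟩
  have e : (HahnSeries.C (v - 1) : LaurentSeries R) ^ φ
      = ((q : ℕ) : LaurentSeries R) * HahnSeries.C w := by
    rw [← map_pow, hw, map_mul, map_natCast]
  have e2 : (-(HahnSeries.C (v - 1) * W)) ^ φ
      = (HahnSeries.C (v - 1) : LaurentSeries R) ^ φ * (-W) ^ φ := by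
    rw [← mul_pow]
    congr 1
    ring
  rw [e2, e]
  ring

/-- **Series core, case `e ≤ 2a`**: `(g^Q - g(u t)(t^Q))^φ ∈ (q)`. -/
theorem ram_coreA (u₀ : LaurentSeries ℤ) (u : Rˣ) (j : ℕ) (φ : ℕ) (w : R)
    (hw : ((((u ^ (q ^ j) : Rˣ) : Rˣ) : R) - 1) ^ φ = (q : R) * w) :
    haveI : NeZero (q ^ j) := ⟨pow_ne_zero _ (NeZero.ne q)⟩
    ((q : ℕ) : LaurentSeries R) ∣
      (coeffMap (Int.castRingHom R) u₀ ^ (q ^ j)
        - rot u (qExpand R (q ^ j) (coeffMap (Int.castRingHom R) u₀))) ^ φ := by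
  haveI : NeZero (q ^ j) := ⟨pow_ne_zero _ (NeZero.ne q)⟩
  rw [← Ideal.mem_span_singleton]
  set g := coeffMap (Int.castRingHom R) u₀ with hg
  refine pow_mem_of_sub_mem _ φ (b := -(HahnSeries.C ((((u ^ (q ^ j) : Rˣ) : Rˣ) : R) - 1)
    * qExpand R (q ^ j) (H65.rotQuot (u ^ (q ^ j)) g))) ?_
    (neg_C_mul_pow_mem q _ _ φ w hw)
  rw [Ideal.mem_span_singleton]
  have h1 := dvd_pow_sub_qExpand (R := R) q u₀ j
  have h2 := rot_qExpand_sub (q ^ j) u g
  have e : g ^ (q ^ j) - rot u (qExpand R (q ^ j) g)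
      - -(HahnSeries.C ((((u ^ (q ^ j) : Rˣ) : Rˣ) : R) - 1)
          * qExpand R (q ^ j) (H65.rotQuot (u ^ (q ^ j)) g))
      = g ^ (q ^ j) - qExpand R (q ^ j) g := by
    rw [← h2]
    ring
  rw [e]
  exact h1

/-- **Series core, case `2a < e`**: `(g(t^Q) - g(u t)^Q)^φ ∈ (q)`. -/
theorem ram_coreB (u₀ : LaurentSeries ℤ) (u : Rˣ) (j : ℕ) (φ : ℕ) (w : R)
    (hw : ((((u ^ (q ^ j) : Rˣ) : Rˣ) : R) - 1) ^ φ = (q : R) * w) :
    haveI : NeZero (q ^ j) := ⟨pow_ne_zero _ (NeZero.ne q)⟩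
    ((q : ℕ) : LaurentSeries R) ∣
      (qExpand R (q ^ j) (coeffMap (Int.castRingHom R) u₀)
        - rot u (coeffMap (Int.castRingHom R) u₀) ^ (q ^ j)) ^ φ := by
  haveI : NeZero (q ^ j) := ⟨pow_ne_zero _ (NeZero.ne q)⟩
  rw [← Ideal.mem_span_singleton]
  set g := coeffMap (Int.castRingHom R) u₀ with hg
  refine pow_mem_of_sub_mem _ φ (b := -(HahnSeries.C ((((u ^ (q ^ j) : Rˣ) : Rˣ) : R) - 1)
    * qExpand R (q ^ j) (H65.rotQuot (u ^ (q ^ j)) g))) ?_
    (neg_C_mul_pow_mem q _ _ φ w hw)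
  rw [Ideal.mem_span_singleton]
  obtain ⟨h, hh⟩ := dvd_pow_sub_qExpand (R := R) q u₀ j
  have h2 := rot_qExpand_sub (q ^ j) u g
  refine ⟨-rot u h, ?_⟩
  have e1 : rot u g ^ (q ^ j) = rot u (qExpand R (q ^ j) g)
      + ((q : ℕ) : LaurentSeries R) * rot u h := by
    rw [← map_pow, ← map_natCast (rot u) q, ← map_mul, ← map_add, ← hh]
    congr 1
    ring
  rw [e1, ← sub_eq_zero]
  linear_combination -h2

end Abs

/-! ## The valuation of `z - 1` -/

section Val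

variable {C : Type} [Field C] (O : ValuationSubring C)

/-- `(z - 1)^φ(q^μ) / q` is integral if `z^(q^μ) = 1`. -/
theorem sub_one_pow_totient_div_mem (q : ℕ) (hq : q.Prime) (hq0 : (q : C) ≠ 0) (μ : ℕ) (z : C)
    (hz : z ^ (q ^ μ) = 1) :
    (z - 1) ^ Nat.totient (q ^ μ) / (q : C) ∈ O := by
  have hpos : 0 < Nat.totient (q ^ μ) := Nat.totient_pos.2 (pow_pos hq.pos _)
  by_cases h1 : z = 1
  · rw [h1, sub_self, zero_pow hpos.ne', zero_div]
    exact zero_mem O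
  · have hdvd : orderOf z ∣ q ^ μ := orderOf_dvd_of_pow_eq_one hz
    obtain ⟨j, hjμ, hj⟩ := (Nat.dvd_prime_pow hq).1 hdvd
    have hj0 : j ≠ 0 := by
      rintro rfl
      rw [pow_zero, orderOf_eq_one_iff] at hj
      exact h1 hj
    have hprim : IsPrimitiveRoot z (q ^ j) := hj ▸ IsPrimitiveRoot.orderOf z
    have hval := H57.val_sub_one_pow_totient O hq hj0 hprim
    have hzO : z ∈ O := H57.root_mem O (pow_ne_zero μ hq.ne_zero) hz
    have hz1 : z - 1 ∈ O := sub_mem hzO (one_mem O)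
    have hle : Nat.totient (q ^ j) ≤ Nat.totient (q ^ μ) :=
      Nat.le_of_dvd hpos (Nat.totient_dvd_of_dvd (pow_dvd_pow q hjμ))
    have e : (z - 1) ^ Nat.totient (q ^ μ) / (q : C)
        = ((z - 1) ^ Nat.totient (q ^ j) / (q : C))
          * (z - 1) ^ (Nat.totient (q ^ μ) - Nat.totient (q ^ j)) := by
      rw [div_mul_eq_mul_div, ← pow_add, Nat.add_sub_cancel' hle]
    rw [e]
    refine mul_mem ?_ (pow_mem hz1 _)
    rw [← ValuationSubring.valuation_le_one_iff, map_div₀, map_pow, hval]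
    have hv0 : O.valuation (q : C) ≠ 0 := (Valuation.ne_zero_iff _).2 hq0
    rw [div_self hv0]

end Val

/-! ## The expansions of `x`, `y` at the cusp `a` -/

section Mod

variable (A : ValuationSubring Kbar)
variable (N q M e : ℕ) (B k : ℤ) (hN : N = M * q ^ e) (hB : B * M + k * (q : ℤ) ^ e = 1)
  (hq : q.Prime) [NeZero N] [NeZero q] [NeZero M]
variable (f : FN M) (u₀ : LaurentSeries ℤ) (hf : (f : LaurentSeries Kbar) = H65.intSer Kbar u₀)

include hB hq in
/-- The expansion of `x = f(τ)` at the cusp `a`. -/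
theorem cE_xE (a : ℕ) :
    haveI : NeZero (q ^ (e - 2 * a)) := ⟨pow_ne_zero _ (NeZero.ne q)⟩
    _root_.Fermat.Agent.S45.NUE.H23.cE N q M e B k hN hB hq a ((xE A N q M e hN f u₀ hf : ↥(L0 A N)) : FN N)
      = qExpand Kbar (q ^ (e - 2 * a)) (H65.intSer Kbar u₀) := by
  haveI : NeZero (q ^ (e - 2 * a)) := ⟨pow_ne_zero _ (NeZero.ne q)⟩
  rw [xE, Fermat.Agent.S36.NU.H23.coe_inclL0, cE_inclusion N q M e B k hN hB hq _ a, coe_fL0, hf]

include hB hq in
/-- The expansion of `y = f(q^e τ)` at the cusp `a < e`. -/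
theorem cE_yE_lt (a : ℕ) (hae : a < e) :
    haveI : NeZero (q ^ (max e (2 * a) - e)) := ⟨pow_ne_zero _ (NeZero.ne q)⟩
    _root_.Fermat.Agent.S45.NUE.H23.cE N q M e B k hN hB hq a ((yE A N q M e hN f u₀ hf : ↥(L0 A N)) : FN N)
      = twist (zE q e a B)
          (qExpand Kbar (q ^ (max e (2 * a) - e)) (H65.intSer Kbar u₀)) := by
  haveI : NeZero (q ^ (max e (2 * a) - e)) := ⟨pow_ne_zero _ (NeZero.ne q)⟩
  rw [yE, coe_betaL0, cE_betaE_lt N q M e B k hN hB hq a hae, coe_fL0, hf]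

/-- The root of unity `zE` as a unit of `A`. -/
def zEu (a : ℕ) : (↥A)ˣ :=
  H57.rootUnit A (zE q e a B) (q ^ max a (e - a)) (pow_ne_zero _ (NeZero.ne q)) (zE_pow q e a B)

theorem coe_zEu (a : ℕ) : (((zEu A q e B a : (↥A)ˣ) : ↥A) : Kbar) = zE q e a B := rfl

include hq in
/-- `(zE^(q^j) - 1)^φ(q^μ) ∈ q A` if `j + μ = max a (e - a)`. -/
theorem exists_zEu_pow (a j μ : ℕ) (hjμ : j + μ = max a (e - a)) :
    ∃ w : ↥A, ((((zEu A q e B a ^ (q ^ j) : (↥A)ˣ) : (↥A)ˣ) : ↥A) - 1) ^ Nat.totient (q ^ μ)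
      = ((q : ℕ) : ↥A) * w := by
  have hq0 : ((q : ℕ) : Kbar) ≠ 0 := Nat.cast_ne_zero.2 hq.ne_zero
  have hz : (zE q e a B ^ (q ^ j)) ^ (q ^ μ) = 1 := by
    rw [← pow_mul, ← pow_add, hjμ]
    exact zE_pow q e a B
  refine ⟨⟨_, sub_one_pow_totient_div_mem A q hq hq0 μ (zE q e a B ^ (q ^ j)) hz⟩, ?_⟩
  apply Subtype.ext
  show ((zE q e a B) ^ (q ^ j) - 1) ^ Nat.totient (q ^ μ)
    = ((q : ℕ) : Kbar) * ((zE q e a B ^ (q ^ j) - 1) ^ Nat.totient (q ^ μ) / ((q : ℕ) : Kbar))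
  rw [mul_div_cancel₀ _ hq0]

/-- The ring homomorphism `x ↦ cE a x` on the inertia-fixed functions. -/
def psiC (a : ℕ) : ↥(L0 A N) →+* LaurentSeries Kbar :=
  (_root_.Fermat.Agent.S45.NUE.H23.cE N q M e B k hN hB hq a).toRingHom.comp (L0 A N).subtype

theorem psiC_apply (a : ℕ) (x : ↥(L0 A N)) :
    psiC A N q M e B k hN hB hq a x = _root_.Fermat.Agent.S45.NUE.H23.cE N q M e B k hN hB hq a (x : FN N) := rfl

theorem mem_VE_iff_psiC (a : ℕ) (x : ↥(L0 A N)) :
    x ∈ VE A N q M e B k hN hB hq a ↔ psiC A N q M e B k hN hB hq a x ∈ gaussRingV A :=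
  Iff.rfl

/-- The expansion of `x` at the cusp `a`, over `A`. -/
theorem psiC_xE (a : ℕ) :
    haveI : NeZero (q ^ (e - 2 * a)) := ⟨pow_ne_zero _ (NeZero.ne q)⟩
    psiC A N q M e B k hN hB hq a (xE A N q M e hN f u₀ hf)
      = iotaV A (qExpand ↥A (q ^ (e - 2 * a)) (coeffMap (Int.castRingHom ↥A) u₀)) := by
  haveI : NeZero (q ^ (e - 2 * a)) := ⟨pow_ne_zero _ (NeZero.ne q)⟩
  rw [psiC_apply, cE_xE A N q M e B k hN hB hq f u₀ hf a, H65.intSer_eq_iotaV A]
  exact (coeffMap_qExpand A.subtype _ _).symm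

/-- The expansion of `y` at the cusp `a < e`, over `A`. -/
theorem psiC_yE (a : ℕ) (hae : a < e) :
    haveI : NeZero (q ^ (max e (2 * a) - e)) := ⟨pow_ne_zero _ (NeZero.ne q)⟩
    psiC A N q M e B k hN hB hq a (yE A N q M e hN f u₀ hf)
      = iotaV A (rot (zEu A q e B a)
          (qExpand ↥A (q ^ (max e (2 * a) - e)) (coeffMap (Int.castRingHom ↥A) u₀))) := by
  haveI : NeZero (q ^ (max e (2 * a) - e)) := ⟨pow_ne_zero _ (NeZero.ne q)⟩
  rw [psiC_apply, cE_yE_lt A N q M e B k hN hB hq f u₀ hf a hae, H65.intSer_eq_iotaV A,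
    Fermat.Agent.S36.NU.H88.iotaV_rot, coe_zEu]
  congr 1
  exact (coeffMap_qExpand A.subtype _ _).symm

include hq in
/-- **The series form of SS-RAM**: the power `φ(q^min(a, e-a))` of the expansion of `t_a` at the
cusp `a` is `q` times an integral series. -/
theorem exists_psiC_tE_pow (a : ℕ) (hae : a < e) :
    ∃ H : LaurentSeries ↥A,
      psiC A N q M e B k hN hB hq a
          (_root_.Fermat.Agent.S45.NUE.H68.tE q e a (xE A N q M e hN f u₀ hf) (yE A N q M e hN f u₀ hf))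
            ^ Nat.totient (q ^ min a (e - a))
        = ((q : ℕ) : LaurentSeries Kbar) * iotaV A H := by
  haveI : Fact q.Prime := ⟨hq⟩
  haveI : NeZero (q ^ (e - 2 * a)) := ⟨pow_ne_zero _ (NeZero.ne q)⟩
  haveI : NeZero (q ^ (max e (2 * a) - e)) := ⟨pow_ne_zero _ (NeZero.ne q)⟩
  haveI : NeZero (q ^ (2 * a - e)) := ⟨pow_ne_zero _ (NeZero.ne q)⟩
  rw [map_tE, psiC_xE A N q M e B k hN hB hq f u₀ hf a,
    psiC_yE A N q M e B k hN hB hq f u₀ hf a hae]
  set g := coeffMap (Int.castRingHom ↥A) u₀ with hg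
  by_cases h : e ≤ 2 * a
  · -- `t = x ^ Q - y`
    have h0 : e - 2 * a = 0 := by omega
    have h1 : max e (2 * a) - e = 2 * a - e := by
      rw [max_eq_right h]
    have hμ : (2 * a - e) + min a (e - a) = max a (e - a) := by
      rw [min_eq_right (by omega), max_eq_left (by omega)]
      omega
    obtain ⟨w, hw⟩ := exists_zEu_pow A q e B hq a (2 * a - e) (min a (e - a)) hμ
    obtain ⟨H, hH⟩ := ram_coreA (R := ↥A) q u₀ (zEu A q e B a) (2 * a - e)
      (Nat.totient (q ^ min a (e - a))) w hw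
    refine ⟨H, ?_⟩
    have ex : qExpand ↥A (q ^ (e - 2 * a)) g = g := by
      rw [qExpand_congr (show q ^ (e - 2 * a) = 1 by rw [h0, pow_zero]) g, qExpand_one_apply]
    have ey : qExpand ↥A (q ^ (max e (2 * a) - e)) g = qExpand ↥A (q ^ (2 * a - e)) g :=
      qExpand_congr (by rw [h1]) g
    rw [tE_of_le _ _ _ _ _ h, ex, ey, ← map_pow, ← map_sub, ← map_pow, hH, map_mul, map_natCast]
  · -- `t = x - y ^ Q`
    have h' : 2 * a < e := by omega
    have h1 : max e (2 * a) - e = 0 := by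
      rw [max_eq_left h'.le, Nat.sub_self]
    have hμ : (e - 2 * a) + min a (e - a) = max a (e - a) := by
      rw [min_eq_left (by omega), max_eq_right (by omega)]
      omega
    obtain ⟨w, hw⟩ := exists_zEu_pow A q e B hq a (e - 2 * a) (min a (e - a)) hμ
    obtain ⟨H, hH⟩ := ram_coreB (R := ↥A) q u₀ (zEu A q e B a) (e - 2 * a)
      (Nat.totient (q ^ min a (e - a))) w hw
    refine ⟨H, ?_⟩
    have ey : qExpand ↥A (q ^ (max e (2 * a) - e)) g = g := by
      rw [qExpand_congr (show q ^ (max e (2 * a) - e) = 1 by rw [h1, pow_zero]) g,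
        qExpand_one_apply]
    rw [tE_of_lt _ _ _ _ _ h', ey, ← map_pow, ← map_sub, ← map_pow, hH, map_mul, map_natCast]

include hq in
/-- **SS-RAM** for `x = xE`, `y = yE`. -/
theorem ss_ram_xyE (a : ℕ) (hae : a < e) :
    ∃ f' ∈ VE A N q M e B k hN hB hq a,
      (_root_.Fermat.Agent.S45.NUE.H68.tE q e a (xE A N q M e hN f u₀ hf) (yE A N q M e hN f u₀ hf))
          ^ Nat.totient (q ^ min a (e - a))
        = ((q : ℕ) : ↥(L0 A N)) * f' := by
  obtain ⟨H, hH⟩ := exists_psiC_tE_pow A N q M e B k hN hB hq f u₀ hf a hae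
  have hq0 : ((q : ℕ) : ↥(L0 A N)) ≠ 0 := Nat.cast_ne_zero.2 hq.ne_zero
  have hq0' : ((q : ℕ) : LaurentSeries Kbar) ≠ 0 := by
    rw [← map_natCast (psiC A N q M e B k hN hB hq a)]
    exact (map_ne_zero _).2 hq0
  refine ⟨(((q : ℕ) : ↥(L0 A N)))⁻¹
      * (_root_.Fermat.Agent.S45.NUE.H68.tE q e a (xE A N q M e hN f u₀ hf) (yE A N q M e hN f u₀ hf))
          ^ Nat.totient (q ^ min a (e - a)), ?_, ?_⟩
  · rw [mem_VE_iff_psiC, map_mul, map_inv₀, map_pow, map_natCast, hH, ← mul_assoc,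
      inv_mul_cancel₀ hq0', one_mul]
    exact iotaV_mem_gaussRingV A H
  · rw [← mul_assoc, mul_inv_cancel₀ hq0, one_mul]

include hq hf in
/-- **SS-RAM** in the shape of `NOTES/plan/S45_EPTSS.md` (input `hram` of `H16.hssE_mod`):
for any `x`, `y` with the expansions `u₀`, `u₀(t^(q^e))`. -/
theorem ss_ram (x y : ↥(L0 A N))
    (hx : ((x : FN N) : LaurentSeries Kbar) = H65.intSer Kbar u₀)
    (hy : haveI : NeZero (q ^ e) := ⟨pow_ne_zero _ (NeZero.ne q)⟩
      ((y : FN N) : LaurentSeries Kbar) = H65.intSer Kbar (qExpand ℤ (q ^ e) u₀)) :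
    ∀ n, n < e → ∃ f' ∈ VE A N q M e B k hN hB hq n,
      (_root_.Fermat.Agent.S45.NUE.H68.tE q e n x y) ^ Nat.totient (q ^ min n (e - n)) = ((q : ℕ) : ↥(L0 A N)) * f' := by
  obtain ⟨ex, ey, -⟩ := ss_fun_of A N q M e B k hN hB hq f u₀ hf x y hx hy
  intro n hn
  rw [ex, ey]
  exact ss_ram_xyE A N q M e B k hN hB hq f u₀ hf n hn

end Mod

end Fermat.Agent.S45.NUE.H12

end
end
-- ==== END Fermat.Agent.S45.NUE.H12_SSRam

-- ==== BEGIN Fermat.Agent.S45.NUE.H23_TotE2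
section

/-!
# S45 / NU_e, package E-TOT (helper23), part 2: RES_a and the modular `NRData`

Level `N = M q^e`, `q ∤ M`, `e ≥ 1`, `C = FM A M`.

* `piEa a` : the uniformiser of `VE a` (`q` for `a = 0, e`; helper73's `π_a` for `0 < a < e`);
* `nrPreE` : the `NRData` of the `e + 1` valuations with the ABSTRACT residue fields `KE a`;
* **RES_a** `sE_mem` : the residue field of `VE a` is `C` (degree count);
* `rEa a : VE a →+* C`, surjective, kernel, `rEa_incl`;
* **`nrE`** : the modular `NRData`, `κ = (C, …, C)`, `e a = φ(q^min(a, e - a))`, structure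
  maps `Fr^(e - 2a)`, and `nrE_hdeg`.
-/

set_option autoImplicit false
set_option synthInstance.maxHeartbeats 400000
set_option maxHeartbeats 1000000
set_option linter.style.haveILetI false
set_option linter.unusedSectionVars false

noncomputable section

open ModularCurve AlgebraicCurve
open Fermat.Agent.S24 Fermat.Agent.BAD.H88 Fermat.Agent.S28 Fermat.Agent.S28.H73
open Fermat.Agent.RED.H73 Fermat.Agent.RED.H17 Fermat.Agent.S36.NU.H88
open Fermat.Agent.S36.NU.H23 Fermat.Agent.BAD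

namespace Fermat.Agent.S45.NUE.H23

section TotE2

variable (A : ValuationSubring Kbar)
variable (N q M e : ℕ) (B k : ℤ) (hN : N = M * q ^ e) (hB : B * M + k * (q : ℤ) ^ e = 1)
  (hq : q.Prime) [NeZero N] [NeZero q] [NeZero M] (hqM : ¬ q ∣ M) (hA : A.LiesOverPrime q)

/-! ### The uniformisers -/

theorem dvd_hiE (a : ℕ) (ha : a ≤ e) (hN : N = M * q ^ e) : q ^ (a + min a (e - a)) ∣ N := by
  rw [hN]
  exact Dvd.dvd.mul_left (pow_dvd_pow q (by omega)) M

theorem dvd_loE (a : ℕ) (ha : a ≤ e) (hN : N = M * q ^ e) : q ^ (a - min a (e - a)) ∣ N := by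
  rw [hN]
  exact Dvd.dvd.mul_left (pow_dvd_pow q (by omega)) M

/-- The uniformiser of `VE a`. -/
def piEa (a : ℕ) : ↥(L0 A N) :=
  if h : 1 ≤ a ∧ a < e then
    Fermat.Agent.S45.NUE.H73.piEo A N q e a (dvd_hiE N q M e a h.2.le hN)
      (dvd_loE N q M e a h.2.le hN)
  else ((q : ℕ) : ↥(L0 A N))

include hA in
theorem val_piEa_lt_one (a : ℕ) :
    (VE A N q M e B k hN hB hq a).valuation (piEa A N q M e hN a) < 1 := by
  unfold piEa
  split_ifs with h
  · exact Fermat.Agent.S45.NUE.H73.val_piEo_lt_one A N q M e B k hN hB hq hA a h.1 h.2 _ _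
  · exact Fermat.Agent.S45.NUE.H73.valE_q_lt_one A N q M e B k hN hB hq hA a

include hA in
theorem hramEa (a : ℕ) (ha : a ≤ e) :
    (VE A N q M e B k hN hB hq a).valuation ((q : ℕ) : ↥(L0 A N))
      = (VE A N q M e B k hN hB hq a).valuation (piEa A N q M e hN a) ^ mE q e a := by
  unfold piEa
  split_ifs with h
  · exact Fermat.Agent.S45.NUE.H73.hramE A N q M e B k hN hB hq hA a h.1 h.2 _ _
  · have hm : mE q e a = 1 := by
      rcases Nat.eq_zero_or_pos a with h0 | h0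
      · rw [h0]; exact mE_zero q e
      · have : a = e := by
          by_contra hne
          exact h ⟨h0, lt_of_le_of_ne ha hne⟩
        rw [this]; exact mE_top q e
    rw [hm, pow_one]

/-! ### The preliminary `NRData` -/

variable (H : InE A N q M e B k hN hB hq hqM hA)

theorem algebraMap_piE :
    inclL0 A (hleE N q M e hN) (piE A q M) = ((q : ℕ) : ↥(L0 A N)) := by
  unfold piE
  exact map_natCast (inclL0 A (hleE N q M e hN)) q

/-- The abstract residue fields. -/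
abbrev kapPre : Fin (e + 1) → Type := fun i => KE A N q M e B k hN hB hq (i : ℕ)

/-- The structure maps of the abstract residue fields. -/
@[reducible] def algPre : ∀ i : Fin (e + 1),
    Algebra (FM A M) (kapPre A N q M e B k hN hB hq i) :=
  fun i => (aE A N q M e B k hN hB hq hqM hA H (i : ℕ) (Nat.lt_succ_iff.mp i.2)).toAlgebra

/-- The preliminary `NRData`, with the abstract residue fields of the `VE a`. -/
def nrPreE : @H42.NRData ↥(L0 A M) ↥(L0 A N) (FM A M) _ _ _ (algL0 A (hleE N q M e hN))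
    (Fin (e + 1)) (kapPre A N q M e B k hN hB hq) _ (algPre A N q M e B k hN hB hq hqM hA H) :=
  letI := algL0 A (hleE N q M e hN)
  letI := algPre A N q M e B k hN hB hq hqM hA H
  haveI := neZero_Mqq q M
  { VE := VE0 A M
    V := fun i => VE A N q M e B k hN hB hq (i : ℕ)
    redE := rE A M
    red := fun i => resE A N q M e B k hN hB hq (i : ℕ)
    ϖ := piE A q M
    π := fun i => piEa A N q M e hN (i : ℕ)
    e := fun i => mE q e (i : ℕ)
    hϖ0 := piE_ne_zero A q M hq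
    hE := hE_mod A q M hq hA
    hVE := fun i a ha => H.hVE (i : ℕ) (Nat.lt_succ_iff.mp i.2) a ha
    hkerE := rE_eq_zero_of_not_isUnit A M
    hsurj := fun i => resE_surjective A N q M e B k hN hB hq (i : ℕ)
    hker := fun i => resE_eq_zero_of_not_isUnit A N q M e B k hN hB hq (i : ℕ)
    hcompat := fun i a ha =>
      (aE_rE A N q M e B k hN hB hq hqM hA H (i : ℕ) (Nat.lt_succ_iff.mp i.2) a).symm
    hinc := fun i j hij => H.hincomp (i : ℕ) (j : ℕ) (Nat.lt_succ_iff.mp i.2)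
      (Nat.lt_succ_iff.mp j.2) (fun h => hij (Fin.ext h))
    hA := fun i => H.harch (i : ℕ) (Nat.lt_succ_iff.mp i.2)
    hπ := fun i => val_piEa_lt_one A N q M e B k hN hB hq hA (i : ℕ)
    he := fun i => mE_pos q e (i : ℕ) hq
    hram := fun i => by
      show (VE A N q M e B k hN hB hq (i : ℕ)).valuation
          (inclL0 A (hleE N q M e hN) (piE A q M)) = _
      rw [algebraMap_piE A N q M e hN]
      exact hramEa A N q M e B k hN hB hq hA (i : ℕ) (Nat.lt_succ_iff.mp i.2) }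

/-! ### The degree count -/

include hq hqM hA in
theorem jqModC_mem_FME :
    jqModC (kV A) ∈ redField A (modularFunctionFieldBar M) (hScM A M) :=
  haveI := neZero_Mqq q M
  jqModC_mem_FM A q M hq hqM hA

include hq hqM hA in
theorem isSeparable_FME :
    ∀ y ∈ redField A (modularFunctionFieldBar M) (hScM A M),
      IsSeparable ↥(IntermediateField.adjoin (kV A)
        ({jqModC (kV A)} : Set (LaurentSeries (kV A)))) y :=
  haveI := neZero_Mqq q M
  isSeparable_FM A q M hq hqM hA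

/-- **`[C : C] = q ^ w`** for the structure `Fr^w`. -/
theorem finrank_FrWM (w : ℕ) :
    @Module.finrank (FM A M) (FM A M) _ _ (FrWM A q M hq hqM hA w).toAlgebra.toModule
      = q ^ w :=
  haveI := neZero_Mqq q M
  @Fermat.Agent.S45.NUE.H42.finrank_of_FrW (kV A) _ q ⟨hq⟩
    (Fermat.Agent.BAD.H82.charP_kV A hq hA)
    (@Fermat.Agent.BAD.H73.perfectRing_kV _ _ _ A q ⟨hq⟩
      (Fermat.Agent.BAD.H82.charP_kV A hq hA)) _ (frobStableE A q M hq hqM hA)
    (FM A M) _ (RingEquiv.refl _) (FrWM A q M hq hqM hA w).toAlgebra w (fun _ => rfl)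
    ⟨jqModC (kV A), jqModC_mem_FME A q M hq hqM hA⟩ (-1) (not_dvd_neg_one q hq)
    (coeff_jqM A q M hq hqM hA) (isSeparable_FME A q M hq hqM hA)

theorem finite_FrWM (w : ℕ) :
    @Module.Finite (FM A M) (FM A M) _ _ (FrWM A q M hq hqM hA w).toAlgebra.toModule :=
  @Module.finite_of_finrank_pos (FM A M) (FM A M) _ _
    (FrWM A q M hq hqM hA w).toAlgebra.toModule
    (@Module.Free.of_divisionRing (FM A M) (FM A M) _ _
      (FrWM A q M hq hqM hA w).toAlgebra.toModule) _ (by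
    rw [finrank_FrWM A q M hq hqM hA w]; exact pow_pos hq.pos w)

include hq hqM hA in
/-- The degrees add up. -/
theorem sum_degE (he : 0 < e) :
    ∑ i : Fin (e + 1), mE q e (i : ℕ) * q ^ wE e (i : ℕ)
      = @Module.finrank ↥(L0 A M) ↥(L0 A N) _ _ (algL0 A (hleE N q M e hN)).toModule := by
  rw [Fermat.Agent.S45.NUE.H41.finrank_L0_pow A q e M N hq hqM he hN (hleE N q M e hN)]
  exact Fermat.Agent.S45.NUE.H60.sum_mE q e hq he

/-- **RES_a (abstract form)**: the residue field of `VE a` is the image of the residue field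
of level `M`. -/
theorem surjective_psiE (he : 0 < e) (a : ℕ) (ha : a ≤ e) :
    Function.Surjective (psiE A N q M e B k hN hB hq hqM hA H a ha) := by
  letI := algL0 A (hleE N q M e hN)
  letI := algPre A N q M e B k hN hB hq hqM hA H
  haveI : Module.Finite ↥(L0 A M) ↥(L0 A N) :=
    Fermat.Agent.S45.NUE.H41.finite_L0_of_le A M N (hleE N q M e hN)
  have h := surjective_of_count (nrPreE A N q M e B k hN hB hq hqM hA H)
    (C := fun _ : Fin (e + 1) => FM A M)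
    (fun i => FrWM A q M hq hqM hA (wE e (i : ℕ)))
    (fun i => psiE A N q M e B k hN hB hq hqM hA H (i : ℕ) (Nat.lt_succ_iff.mp i.2))
    (fun i x => psiE_FrWM A N q M e B k hN hB hq hqM hA H (i : ℕ) (Nat.lt_succ_iff.mp i.2) x)
    (fun i => q ^ wE e (i : ℕ))
    (fun i => finrank_FrWM A q M hq hqM hA (wE e (i : ℕ)))
    (fun i => pow_pos hq.pos _)
    (sum_degE A N q M e hN hq hqM hA he) ⟨a, Nat.lt_succ_iff.mpr ha⟩
  exact h

include hqM hA H in
/-- **RES_a**: the reductions at `V_a` of the inertia-fixed functions lie in the residue field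
of level `M`. -/
theorem sE_memM (he : 0 < e) (a : ℕ) (ha : a ≤ e) (x : ↥(VE A N q M e B k hN hB hq a)) :
    _root_.Fermat.Agent.S45.NUE.H23.sE A N q M e B k hN hB hq a x ∈ redField A (modularFunctionFieldBar M) (hScM A M) := by
  obtain ⟨c, hc⟩ := surjective_psiE A N q M e B k hN hB hq hqM hA H he a ha
    (resE A N q M e B k hN hB hq a x)
  rw [psiE_apply, resE_eq_iff_sE, sE_liftE] at hc
  rw [← hc]
  exact c.2

/-! ### The residue maps into the residue field of level `M` -/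

/-- The residue map of `VE a`, into the residue field of level `M`. -/
def rEa (he : 0 < e) (a : ℕ) (ha : a ≤ e) : ↥(VE A N q M e B k hN hB hq a) →+* FM A M where
  toFun x := ⟨_root_.Fermat.Agent.S45.NUE.H23.sE A N q M e B k hN hB hq a x, sE_memM A N q M e B k hN hB hq hqM hA H he a ha x⟩
  map_one' := Subtype.ext (map_one (_root_.Fermat.Agent.S45.NUE.H23.sE A N q M e B k hN hB hq a))
  map_mul' x y := Subtype.ext (map_mul (_root_.Fermat.Agent.S45.NUE.H23.sE A N q M e B k hN hB hq a) x y)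
  map_zero' := Subtype.ext (map_zero (_root_.Fermat.Agent.S45.NUE.H23.sE A N q M e B k hN hB hq a))
  map_add' x y := Subtype.ext (map_add (_root_.Fermat.Agent.S45.NUE.H23.sE A N q M e B k hN hB hq a) x y)

theorem coe_rEa (he : 0 < e) (a : ℕ) (ha : a ≤ e) (x : ↥(VE A N q M e B k hN hB hq a)) :
    ((rEa A N q M e B k hN hB hq hqM hA H he a ha x : FM A M) : LaurentSeries (kV A))
      = _root_.Fermat.Agent.S45.NUE.H23.sE A N q M e B k hN hB hq a x := rfl

theorem rEa_eq_zero_of_not_isUnit (he : 0 < e) (a : ℕ) (ha : a ≤ e)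
    (x : ↥(VE A N q M e B k hN hB hq a)) (hx : ¬ IsUnit x) :
    rEa A N q M e B k hN hB hq hqM hA H he a ha x = 0 := by
  apply Subtype.ext
  rw [coe_rEa, _root_.Fermat.Agent.S45.NUE.H23.sE_eq_zero_of_not_isUnit A N q M e B k hN hB hq a x hx]
  rfl

theorem rEa_incl (he : 0 < e) (a : ℕ) (ha : a ≤ e) (x : ↥(VE0 A M))
    (h : inclL0 A (hleE N q M e hN) (x : ↥(L0 A M)) ∈ VE A N q M e B k hN hB hq a) :
    rEa A N q M e B k hN hB hq hqM hA H he a ha ⟨_, h⟩
      = FrWM A q M hq hqM hA (wE e a) (rE A M x) := by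
  apply Subtype.ext
  rw [coe_rEa]
  exact H.hcomp a ha x h

theorem rEa_surjective (he : 0 < e) (a : ℕ) (ha : a ≤ e) :
    Function.Surjective (rEa A N q M e B k hN hB hq hqM hA H he a ha) := by
  intro c
  obtain ⟨x, hx⟩ := H.hrange a ha c
  exact ⟨x, Subtype.ext hx⟩

/-! ### The modular `NRData` -/

/-- The residue fields `(C, …, C)`. -/
def kapE : Fin (e + 1) → Type := fun _ => FM A M

instance kapEField : ∀ i, Field (kapE A M e i) := fun _ => inferInstanceAs (Field (FM A M))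

/-- The structure maps `Fr^(e - 2a)`. -/
@[reducible] def algE : ∀ i : Fin (e + 1), Algebra (FM A M) (kapE A M e i) :=
  fun i => (FrWM A q M hq hqM hA (wE e (i : ℕ))).toAlgebra

/-- **The modular `NRData`** of the `e + 1` valuations `V_a` of the inertia-fixed functions of
level `M q^e` over the Gauss valuation of level `M`. -/
def nrE (he : 0 < e) : @H42.NRData ↥(L0 A M) ↥(L0 A N) (FM A M) _ _ _
    (algL0 A (hleE N q M e hN)) (Fin (e + 1)) (kapE A M e) _ (algE A q M e hq hqM hA) :=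
  letI := algL0 A (hleE N q M e hN)
  letI := algE A q M e hq hqM hA
  haveI := neZero_Mqq q M
  { VE := VE0 A M
    V := fun i => VE A N q M e B k hN hB hq (i : ℕ)
    redE := rE A M
    red := fun i => rEa A N q M e B k hN hB hq hqM hA H he (i : ℕ) (Nat.lt_succ_iff.mp i.2)
    ϖ := piE A q M
    π := fun i => piEa A N q M e hN (i : ℕ)
    e := fun i => mE q e (i : ℕ)
    hϖ0 := piE_ne_zero A q M hq
    hE := hE_mod A q M hq hA
    hVE := fun i a ha => H.hVE (i : ℕ) (Nat.lt_succ_iff.mp i.2) a ha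
    hkerE := rE_eq_zero_of_not_isUnit A M
    hsurj := fun i =>
      rEa_surjective A N q M e B k hN hB hq hqM hA H he (i : ℕ) (Nat.lt_succ_iff.mp i.2)
    hker := fun i =>
      rEa_eq_zero_of_not_isUnit A N q M e B k hN hB hq hqM hA H he (i : ℕ)
        (Nat.lt_succ_iff.mp i.2)
    hcompat := fun i a ha =>
      rEa_incl A N q M e B k hN hB hq hqM hA H he (i : ℕ) (Nat.lt_succ_iff.mp i.2) a ha
    hinc := fun i j hij => H.hincomp (i : ℕ) (j : ℕ) (Nat.lt_succ_iff.mp i.2)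
      (Nat.lt_succ_iff.mp j.2) (fun h => hij (Fin.ext h))
    hA := fun i => H.harch (i : ℕ) (Nat.lt_succ_iff.mp i.2)
    hπ := fun i => val_piEa_lt_one A N q M e B k hN hB hq hA (i : ℕ)
    he := fun i => mE_pos q e (i : ℕ) hq
    hram := fun i => by
      show (VE A N q M e B k hN hB hq (i : ℕ)).valuation
          (inclL0 A (hleE N q M e hN) (piE A q M)) = _
      rw [algebraMap_piE A N q M e hN]
      exact hramEa A N q M e B k hN hB hq hA (i : ℕ) (Nat.lt_succ_iff.mp i.2) }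

/-- The degrees add up: `∑ φ(q^min(a, e-a)) q^(e - 2a) = q^e + q^(e-1) = [L0 N : L0 M]`. -/
theorem nrE_hdeg (he : 0 < e) :
    ∑ i, @H42.NRData.e ↥(L0 A M) ↥(L0 A N) (FM A M) _ _ _ (algL0 A (hleE N q M e hN))
          (Fin (e + 1)) (kapE A M e) _ (algE A q M e hq hqM hA)
          (nrE A N q M e B k hN hB hq hqM hA H he) i
        * @Module.finrank (FM A M) (kapE A M e i) _ _ (algE A q M e hq hqM hA i).toModule
      = @Module.finrank ↥(L0 A M) ↥(L0 A N) _ _ (algL0 A (hleE N q M e hN)).toModule := by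
  rw [← sum_degE A N q M e hN hq hqM hA he]
  refine Finset.sum_congr rfl fun i _ => ?_
  have h2 : @Module.finrank (FM A M) (kapE A M e i) _ _ (algE A q M e hq hqM hA i).toModule
      = q ^ wE e (i : ℕ) := finrank_FrWM A q M hq hqM hA (wE e (i : ℕ))
  rw [h2]
  rfl

end TotE2

end Fermat.Agent.S45.NUE.H23

end
end
-- ==== END Fermat.Agent.S45.NUE.H23_TotE2

-- ==== BEGIN Fermat.Agent.S45.NUE.H60_BaseE
section
attribute [local instance 10000] SubalgebraClass.toAlgebra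
attribute [local instance 10000] HahnSeries.powerSeriesAlgebra

set_option autoImplicit false
set_option synthInstance.maxHeartbeats 400000
set_option maxHeartbeats 1000000
set_option linter.style.haveILetI false
set_option linter.unusedSectionVars false
set_option linter.unusedVariables false

noncomputable section

open ModularCurve AlgebraicCurve
open Fermat.Agent.S24 Fermat.Agent.BAD.H88 Fermat.Agent.S28 Fermat.Agent.S28.H73
open Fermat.Agent.RED.H73 Fermat.Agent.RED.H17 Fermat.Agent.S36.NU.H88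
open Fermat.Agent.S36.NU.H23 Fermat.Agent.BAD

namespace Fermat.Agent.S45.NUE.H60

/-! ## Two residue maps of one valuation ring -/

section Abs

variable {L C : Type*} [Field L] [Field C]

/-- **WHICH-ONE**: two valuation rings with residue maps `r`, `s` are different if `s f ^ p ^ n`
(`n > 0`) is the value `s x` at an element `x` whose `r`-value is not a `p`-th power. -/
theorem ne_of_frob (p : ℕ) (V W : ValuationSubring L) (r : ↥V →+* C) (s : ↥W →+* C)
    (hr : ∀ x : ↥V, ¬ IsUnit x → r x = 0) (f x : L) (hfW : f ∈ W) (hxV : x ∈ V) (hxW : x ∈ W)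
    (n : ℕ) (h1 : s ⟨f, hfW⟩ ^ p ^ (n + 1) = s ⟨x, hxW⟩)
    (hnot : ∀ u : C, u ^ p ≠ r ⟨x, hxV⟩) : V ≠ W := by
  intro h
  subst h
  have h3 : s ((⟨f, hfW⟩ : ↥V) ^ p ^ (n + 1) - ⟨x, hxW⟩) = 0 := by
    rw [map_sub, map_pow, h1, sub_self]
  have h4 : r ((⟨f, hfW⟩ : ↥V) ^ p ^ (n + 1) - ⟨x, hxW⟩) = 0 :=
    hr _ (fun hu => (hu.map s).ne_zero h3)
  rw [map_sub, sub_eq_zero, map_pow] at h4
  refine hnot (r ⟨f, hfW⟩ ^ p ^ n) ?_
  rw [← pow_mul, ← pow_succ]
  exact h4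

/-- **UNIQ-RED**: two residue maps `r`, `s` of one valuation ring with values in a field of
characteristic `p` agree at `f` if `s f ^ p ^ n = s x` for some `x` at which they agree. -/
theorem red_eq_of_frob (p : ℕ) [Fact p.Prime] [CharP C p] (V W : ValuationSubring L)
    (hVW : V = W) (r : ↥V →+* C) (s : ↥W →+* C) (hr : ∀ x : ↥V, ¬ IsUnit x → r x = 0)
    (f x : L) (hfV : f ∈ V) (hfW : f ∈ W) (hxV : x ∈ V) (hxW : x ∈ W) (n : ℕ)
    (h1 : s ⟨f, hfW⟩ ^ p ^ n = s ⟨x, hxW⟩) (h2 : r ⟨x, hxV⟩ = s ⟨x, hxW⟩) :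
    r ⟨f, hfV⟩ = s ⟨f, hfW⟩ := by
  subst hVW
  haveI : ExpChar C p := ExpChar.prime Fact.out
  have h3 : s ((⟨f, hfW⟩ : ↥V) ^ p ^ n - ⟨x, hxW⟩) = 0 := by
    rw [map_sub, map_pow, h1, sub_self]
  have h4 : r ((⟨f, hfW⟩ : ↥V) ^ p ^ n - ⟨x, hxW⟩) = 0 :=
    hr _ (fun hu => (hu.map s).ne_zero h3)
  rw [map_sub, sub_eq_zero, map_pow] at h4
  apply iterateFrobenius_inj C p n
  rw [iterateFrobenius_def, iterateFrobenius_def]
  exact h4.trans (h2.trans h1.symm)

end Abs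

/-! ## Series in characteristic `q` -/

section Ser

variable (k : Type*) [Field k] (q : ℕ) [NeZero q] [Fact q.Prime] [CharP k q]

/-- `j̃ ^ (q²) = j̃ (t^(q²))`. -/
theorem jq_pow_sq : jqModC k ^ q ^ (1 + 1) = qExpand k q (qExpand k q (jqModC k)) := by
  rw [show q ^ (1 + 1) = q * q by ring, pow_mul, Fermat.Agent.BAD.H82.jqModC_pow_char k q,
    ← map_pow, Fermat.Agent.BAD.H82.jqModC_pow_char k q]

/-- `j̃` is not a `q`-th power. -/
theorem jq_ne_pow (u : LaurentSeries k) : u ^ q ≠ jqModC k := by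
  intro h
  have h1 : (u ^ q).coeff (-1) = (jqModC k).coeff (-1) := by rw [h]
  rw [Fermat.Agent.RED.H10.pow_char_eq q u, coeff_jqModC_neg_one,
    qExpand_coeff_of_not_dvd] at h1
  · exact zero_ne_one h1
  · intro hd
    have h2 : ((q : ℕ) : ℤ) ∣ 1 := (dvd_neg (a := (q : ℤ)) (b := 1)).mp hd
    have h3 : q ∣ 1 := by exact_mod_cast h2
    exact (Fact.out : q.Prime).one_lt.ne' (Nat.dvd_one.mp h3)

variable [PerfectRing k q]

/-- `c ^ (q²) = (φ² c)(t^(q²))`. -/
theorem pow_sq_eq_frobL (c : LaurentSeries k) :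
    c ^ q ^ 2 = qExpand k q (qExpand k q (Fermat.Agent.BAD.H73.frobL k q
      (Fermat.Agent.BAD.H73.frobL k q c))) := by
  rw [show q ^ 2 = q * q by ring, pow_mul, Fermat.Agent.BAD.H73.pow_eq_qExpand_frobL q c,
    Fermat.Agent.BAD.H73.pow_eq_qExpand_frobL q (qExpand k q _),
    Fermat.Agent.BAD.H73.frobL_qExpand]

end Ser

/-! ## The level `M q²` -/

section Base

variable (A : ValuationSubring Kbar) (q M : ℕ) (B k : ℤ) (hB : B * M + k * q = 1) (B' k' : ℤ)
  (hB' : B' * M + k' * (q : ℤ) ^ 2 = 1) (hN : M * q * q = M * q ^ 2) (hq : q.Prime)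
  [NeZero M] [NeZero q] [NeZero (M * q * q)] (hqM : ¬ q ∣ M) (hA : A.LiesOverPrime q)

local notation "VE2" => Fermat.Agent.S45.NUE.H23.VE A (M * q * q) q M 2 B' k' hN hB' hq
local notation "sE2" => Fermat.Agent.S45.NUE.H23.sE A (M * q * q) q M 2 B' k' hN hB' hq

/-- `a = 2`: the Gauss valuation at `∞`. -/
theorem VE2_two : VE2 2 = V20o A q M := by
  ext x
  rw [Fermat.Agent.S45.NUE.H23.mem_VE_top_iff, mem_V20o_iff]

theorem sE2_two (x : ↥(L0 A (M * q * q))) (h : x ∈ VE2 2) (h' : x ∈ V20o A q M) :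
    sE2 2 ⟨x, h⟩ = ((r20 A q M hq hqM hA ⟨x, h'⟩ : FM A M) : LaurentSeries (kV A)) := by
  rw [coe_r20, s20_mk, Fermat.Agent.S45.NUE.H23.sE_mk]
  congr 1
  exact Subtype.ext
    (Fermat.Agent.S45.NUE.H23.cE_top (M * q * q) q M 2 B' k' hN hB' hq (x : FN (M * q * q)))

/-- The functions of level `M` lie in all `VE2 a`. -/
theorem incl_mem_VE2 (a : ℕ) (x : ↥(L0 A M)) (hx : x ∈ VE0 A M) :
    inclL0 A (hleMN q M) x ∈ VE2 a :=
  Fermat.Agent.S45.NUE.H17.inclL0_mem_VE A (M * q * q) q M 2 B' k' hN hB' hq (hleMN q M) a x hx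

include hA in
theorem VE2_ne_top (a : ℕ) (ha : a ≤ 2) : VE2 a ≠ ⊤ := by
  intro h
  rcases Nat.eq_zero_or_pos a with h0 | h0
  · subst h0
    refine Fermat.Agent.S45.NUE.H57.not_le_VE A (M * q * q) q M 2 B' k' hN hB' hq hA 1 0
      (by omega) (by omega) (by omega) ?_
    rw [h]
    exact le_top
  · refine Fermat.Agent.S45.NUE.H57.not_le_VE A (M * q * q) q M 2 B' k' hN hB' hq hA 0 a
      (by omega) ha (by omega) ?_
    rw [h]
    exact le_top

include hqM hA in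
/-- **THREE**: `VE2 a` is one of the three valuation rings of S36. -/
theorem three_VE2 (a : ℕ) (ha : a ≤ 2) :
    VE2 a = V20o A q M ∨ VE2 a = V11o A q M B k hB hq ∨ VE2 a = V02o A q M B k hB := by
  letI := algL0 A (hleMN q M)
  letI := algM A q M hq hqM hA
  haveI : Module.Finite ↥(L0 A M) ↥(L0 A (M * q * q)) := finite_L0_NU A q M
  haveI : ∀ i, Module.Finite (FM A M) (kap3 (FM A M) (FM A M) i) :=
    fun i => (nrM A q M B k hB hq hqM hA).finite_res i
  have hW : ∀ x : ↥(L0 A M), x ∈ (nrM A q M B k hB hq hqM hA).VE →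
      algebraMap ↥(L0 A M) ↥(L0 A (M * q * q)) x ∈ VE2 a := by
    intro x hx
    show inclL0 A (hleMN q M) x ∈ VE2 a
    exact incl_mem_VE2 A q M B' k' hB' hN hq a x hx
  obtain ⟨i, hi⟩ := H42.NRData.eq_of_valuationSubring (nrM A q M B k hB hq hqM hA)
    (nrM_hdeg A q M B k hB hq hqM hA) (VE2 a) hW (VE2_ne_top A q M B' k' hB' hN hq hA a ha)
  fin_cases i
  · exact Or.inl hi
  · exact Or.inr (Or.inl hi)
  · exact Or.inr (Or.inr hi)

include hq hqM hA in
/-- A function of level `M` with reduction `j̃`. -/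
theorem exists_lift_jq :
    ∃ x0 : ↥(VE0 A M), sE A M x0 = jqModC (kV A) := by
  obtain ⟨x0, hx0⟩ := rE_surjective A q M hq hqM hA
    ⟨jqModC (kV A), jqModC_mem_FM A q M hq hqM hA⟩
  refine ⟨x0, ?_⟩
  rw [← coe_rE, hx0]

/-- The reduction at `VE2 a` of a function of level `M`. -/
theorem sE2_incl (a : ℕ) (x0 : ↥(VE0 A M))
    (h : inclL0 A (hleMN q M) (x0 : ↥(L0 A M)) ∈ VE2 a) :
    haveI : NeZero (q ^ (2 - 2 * a)) := ⟨pow_ne_zero _ (NeZero.ne q)⟩
    sE2 a ⟨_, h⟩ = qExpand (kV A) (q ^ (2 - 2 * a)) (sE A M x0) :=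
  Fermat.Agent.S45.NUE.H17.sE_inclL0 A (M * q * q) q M 2 B' k' hN hB' hq (hleMN q M) a x0 h

theorem sE2_incl_zero (x0 : ↥(VE0 A M))
    (h : inclL0 A (hleMN q M) (x0 : ↥(L0 A M)) ∈ VE2 0) :
    sE2 0 ⟨_, h⟩ = qExpand (kV A) q (qExpand (kV A) q (sE A M x0)) := by
  haveI : NeZero (q ^ (2 - 2 * 0)) := ⟨pow_ne_zero _ (NeZero.ne q)⟩
  haveI : NeZero (q * q) := ⟨Nat.mul_ne_zero (NeZero.ne q) (NeZero.ne q)⟩
  rw [sE2_incl A q M B' k' hB' hN hq 0 x0 h, qExpand_qExpand]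
  exact qExpand_congr (by ring) _

theorem sE2_incl_one (x0 : ↥(VE0 A M))
    (h : inclL0 A (hleMN q M) (x0 : ↥(L0 A M)) ∈ VE2 1) :
    sE2 1 ⟨_, h⟩ = sE A M x0 := by
  haveI : NeZero (q ^ (2 - 2 * 1)) := ⟨pow_ne_zero _ (NeZero.ne q)⟩
  rw [sE2_incl A q M B' k' hB' hN hq 1 x0 h,
    qExpand_congr (show q ^ (2 - 2 * 1) = 1 by simp), qExpand_one_apply]

include hqM hA in
/-- **`a = 0`: the cusp `0`.** -/
theorem VE2_zero : VE2 0 = V02o A q M B k hB := by
  haveI : Fact q.Prime := ⟨hq⟩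
  haveI : CharP (kV A) q := Fermat.Agent.BAD.H82.charP_kV A hq hA
  obtain ⟨x0, hx0⟩ := exists_lift_jq A q M hq hqM hA
  have hxW : inclL0 A (hleMN q M) (x0 : ↥(L0 A M)) ∈ VE2 0 :=
    incl_mem_VE2 A q M B' k' hB' hN hq 0 x0 x0.2
  obtain ⟨f, hf⟩ := Fermat.Agent.S45.NUE.H17.exists_sE_eq A (M * q * q) q M 2 B' k' hN hB' hq
    hqM hA (hleMN q M) 0 (by omega) (jqModC (kV A)) (jqModC_mem_full (kV A) M)
  have h1 : sE2 0 ⟨(f : ↥(L0 A (M * q * q))), f.2⟩ ^ q ^ (1 + 1)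
      = sE2 0 ⟨inclL0 A (hleMN q M) (x0 : ↥(L0 A M)), hxW⟩ := by
    rw [sE2_incl_zero A q M B' k' hB' hN hq x0 hxW, hx0, ← jq_pow_sq (kV A) q]
    congr 1
  rcases three_VE2 A q M B k hB B' k' hB' hN hq hqM hA 0 (by omega) with h | h | h
  · exfalso
    refine ne_of_frob q (V20o A q M) (VE2 0) (s20 A q M) (sE2 0)
      (s20_eq_zero_of_not_isUnit A q M) (f : ↥(L0 A (M * q * q)))
      (inclL0 A (hleMN q M) (x0 : ↥(L0 A M))) f.2 (hVE20 A q M x0 x0.2) hxW 1 h1 ?_ h.symm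
    intro u
    rw [s20_incl A q M x0 (hVE20 A q M x0 x0.2), hx0]
    exact jq_ne_pow (kV A) q u
  · exfalso
    refine ne_of_frob q (V11o A q M B k hB hq) (VE2 0) (s11 A q M B k hB hq) (sE2 0)
      (s11_eq_zero_of_not_isUnit A q M B k hB hq) (f : ↥(L0 A (M * q * q)))
      (inclL0 A (hleMN q M) (x0 : ↥(L0 A M))) f.2 (hVE11 A q M B k hB hq x0 x0.2) hxW 1 h1 ?_
      h.symm
    intro u
    rw [s11_incl A q M B k hB hq x0 (hVE11 A q M B k hB hq x0 x0.2), hx0]
    exact jq_ne_pow (kV A) q u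
  · exact h

include hqM hA in
/-- **`a = 1`: the middle cusp** (helper79's form, with the incomparability as a hypothesis). -/
theorem VE2_one (hne : VE2 1 ≠ VE2 2) : VE2 1 = V11o A q M B k hB hq := by
  haveI : Fact q.Prime := ⟨hq⟩
  haveI : CharP (kV A) q := Fermat.Agent.BAD.H82.charP_kV A hq hA
  obtain ⟨x0, hx0⟩ := exists_lift_jq A q M hq hqM hA
  have hxV : inclL0 A (hleMN q M) (x0 : ↥(L0 A M)) ∈ VE2 1 :=
    incl_mem_VE2 A q M B' k' hB' hN hq 1 x0 x0.2
  obtain ⟨f, hf⟩ := r02_surjective A q M B k hB hq hqM hA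
    ⟨jqModC (kV A), jqModC_mem_FM A q M hq hqM hA⟩
  have hf' : s02 A q M B k hB f = jqModC (kV A) := by
    rw [← coe_r02 A q M B k hB hq hqM hA, hf]
  have h1 : s02 A q M B k hB ⟨(f : ↥(L0 A (M * q * q))), f.2⟩ ^ q ^ (1 + 1)
      = s02 A q M B k hB ⟨inclL0 A (hleMN q M) (x0 : ↥(L0 A M)),
          hVE02 A q M B k hB hq x0 x0.2⟩ := by
    rw [s02_incl A q M B k hB hq x0 (hVE02 A q M B k hB hq x0 x0.2), hx0,
      ← jq_pow_sq (kV A) q]
    congr 1
  rcases three_VE2 A q M B k hB B' k' hB' hN hq hqM hA 1 (by omega) with h | h | h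
  · exfalso
    exact hne (h.trans (VE2_two A q M B' k' hB' hN hq).symm)
  · exact h
  · exfalso
    refine ne_of_frob q (VE2 1) (V02o A q M B k hB) (sE2 1) (s02 A q M B k hB)
      (Fermat.Agent.S45.NUE.H23.sE_eq_zero_of_not_isUnit A (M * q * q) q M 2 B' k' hN hB' hq 1)
      (f : ↥(L0 A (M * q * q))) (inclL0 A (hleMN q M) (x0 : ↥(L0 A M))) f.2 hxV
      (hVE02 A q M B k hB hq x0 x0.2) 1 h1 ?_ h
    intro u
    rw [sE2_incl_one A q M B' k' hB' hN hq x0 hxV, hx0]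
    exact jq_ne_pow (kV A) q u

include hqM hA in
/-- **`a = 1`: the middle cusp.** -/
theorem VE2_one' : VE2 1 = V11o A q M B k hB hq := by
  refine VE2_one A q M B k hB B' k' hB' hN hq hqM hA ?_
  intro h
  refine Fermat.Agent.S45.NUE.H57.not_le_VE A (M * q * q) q M 2 B' k' hN hB' hq hA 1 2
    (by omega) (by omega) (by omega) ?_
  rw [h]

/-- **The residue map at `a = 1`.** -/
theorem sE2_one (x : ↥(L0 A (M * q * q))) (h : x ∈ VE2 1) (h' : x ∈ V11o A q M B k hB hq) :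
    sE2 1 ⟨x, h⟩
      = ((r11 A q M B k hB hq hqM hA ⟨x, h'⟩ : FM A M) : LaurentSeries (kV A)) := by
  haveI : Fact q.Prime := ⟨hq⟩
  haveI : CharP (kV A) q := Fermat.Agent.BAD.H82.charP_kV A hq hA
  haveI : CharP (LaurentSeries (kV A)) q :=
    charP_of_injective_algebraMap (algebraMap (kV A) (LaurentSeries (kV A))).injective q
  rw [coe_r11]
  obtain ⟨x0, hx0⟩ := rE_surjective A q M hq hqM hA (r11 A q M B k hB hq hqM hA ⟨x, h'⟩)
  have hx0' : sE A M x0 = s11 A q M B k hB hq ⟨x, h'⟩ := by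
    rw [← coe_rE, hx0, coe_r11]
  have hxV : inclL0 A (hleMN q M) (x0 : ↥(L0 A M)) ∈ VE2 1 :=
    incl_mem_VE2 A q M B' k' hB' hN hq 1 x0 x0.2
  refine red_eq_of_frob q (VE2 1) (V11o A q M B k hB hq)
    (VE2_one' A q M B k hB B' k' hB' hN hq hqM hA) (sE2 1) (s11 A q M B k hB hq)
    (Fermat.Agent.S45.NUE.H23.sE_eq_zero_of_not_isUnit A (M * q * q) q M 2 B' k' hN hB' hq 1)
    x (inclL0 A (hleMN q M) (x0 : ↥(L0 A M))) h h' hxV (hVE11 A q M B k hB hq x0 x0.2) 0 ?_ ?_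
  · rw [pow_zero, pow_one, s11_incl A q M B k hB hq x0 (hVE11 A q M B k hB hq x0 x0.2), hx0']
  · rw [sE2_incl_one A q M B' k' hB' hN hq x0 hxV,
      s11_incl A q M B k hB hq x0 (hVE11 A q M B k hB hq x0 x0.2)]

/-- **The residue map at `a = 0`.** -/
theorem sE2_zero (x : ↥(L0 A (M * q * q))) (h : x ∈ VE2 0) (h' : x ∈ V02o A q M B k hB) :
    sE2 0 ⟨x, h⟩
      = ((r02 A q M B k hB hq hqM hA ⟨x, h'⟩ : FM A M) : LaurentSeries (kV A)) := by
  haveI : Fact q.Prime := ⟨hq⟩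
  haveI : CharP (kV A) q := Fermat.Agent.BAD.H82.charP_kV A hq hA
  haveI : PerfectRing (kV A) q := Fermat.Agent.BAD.H73.perfectRing_kV A q
  haveI : CharP (LaurentSeries (kV A)) q :=
    charP_of_injective_algebraMap (algebraMap (kV A) (LaurentSeries (kV A))).injective q
  rw [coe_r02]
  obtain ⟨x0, hx0⟩ := rE_surjective A q M hq hqM hA
    (phiM A q M hq hqM hA (phiM A q M hq hqM hA (r02 A q M B k hB hq hqM hA ⟨x, h'⟩)))
  have hx0' : sE A M x0 = Fermat.Agent.BAD.H73.frobL (kV A) q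
      (Fermat.Agent.BAD.H73.frobL (kV A) q (s02 A q M B k hB ⟨x, h'⟩)) := by
    rw [← coe_rE, hx0]
    rfl
  have hxV : inclL0 A (hleMN q M) (x0 : ↥(L0 A M)) ∈ VE2 0 :=
    incl_mem_VE2 A q M B' k' hB' hN hq 0 x0 x0.2
  refine red_eq_of_frob q (VE2 0) (V02o A q M B k hB)
    (VE2_zero A q M B k hB B' k' hB' hN hq hqM hA) (sE2 0) (s02 A q M B k hB)
    (Fermat.Agent.S45.NUE.H23.sE_eq_zero_of_not_isUnit A (M * q * q) q M 2 B' k' hN hB' hq 0)
    x (inclL0 A (hleMN q M) (x0 : ↥(L0 A M))) h h' hxV (hVE02 A q M B k hB hq x0 x0.2) 2 ?_ ?_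
  · rw [s02_incl A q M B k hB hq x0 (hVE02 A q M B k hB hq x0 x0.2), hx0',
      ← pow_sq_eq_frobL (kV A) q]
  · rw [sE2_incl_zero A q M B' k' hB' hN hq x0 hxV,
      s02_incl A q M B k hB hq x0 (hVE02 A q M B k hB hq x0 x0.2)]

end Base

end Fermat.Agent.S45.NUE.H60

end
end
-- ==== END Fermat.Agent.S45.NUE.H60_BaseE

-- ==== BEGIN Fermat.Agent.S45.NUE.H73_CuspIntE4
section

/-!
# S45 / NU_e, leaf E-CUSP, slice CUSP-INT_e (helper73), part 4: `EooE a` and `xooE a` are integral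

Level `N = M q^e`, `1 ≤ e`.

* `isIntegral_EooE` : `EooE a` is integral over `ℚ̄[1/j]`, for all `a ≤ e`;
* `isIntegral_xooE` : `xooE a` is integral over `ℚ̄[1/j]`, for `0 < a < e`.
-/

set_option autoImplicit false
set_option linter.unusedSectionVars false
set_option linter.unusedVariables false
set_option synthInstance.maxHeartbeats 400000
set_option maxHeartbeats 1000000
set_option linter.style.haveILetI false

noncomputable section

namespace Fermat.Agent.S45.NUE.H73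

open Fermat.Agent.S24 (Kbar FN jF iotaC jdF)
open Fermat.Agent.S36.NU.H88 Fermat.Agent.S36.NU.H23
open Fermat.Agent.S45.NUE.H82 (epsN coe_epsN UQ epsT epsT_eq cqN EwF EwF_zero EwF_top EwF_mid
  EwE coe_EwE)

section Int

variable (A : ValuationSubring Kbar)
variable (N q M e : ℕ) (hN : N = M * q ^ e) (hq : q.Prime) [NeZero N] [NeZero q]

theorem coe_EooE_zero :
    ((EooE A N q e 0 : ↥(L0 A N)) : FN N) = EwF N q e 0 ^ q * (jF N)⁻¹ ^ (q - 1) := by
  rw [EooE_zero]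
  rfl

theorem coe_EooE_of_ne (a : ℕ) (ha0 : a ≠ 0) :
    ((EooE A N q e a : ↥(L0 A N)) : FN N) = EwF N q e a * (jF N)⁻¹ ^ KooE q e a := by
  rw [EooE_of_ne A N q e a ha0]
  rfl

include hN hq in
/-- **`EooE a` is integral over `ℚ̄[1/j]`.** -/
theorem isIntegral_EooE (he : 1 ≤ e) (a : ℕ) (hae : a ≤ e) :
    IsIntegral ↥(Algebra.adjoin Kbar ({(jF N)⁻¹} : Set (FN N)))
      ((EooE A N q e a : ↥(L0 A N)) : FN N) := by
  by_cases ha0 : a = 0
  · subst ha0
    have h : q ^ (0 + 1) ∣ N := pow_dvd_lvl N q M e hN _ (by omega)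
    rw [coe_EooE_zero, EwF_zero, epsT_eq N q 0 h]
    exact isIntegral_eps_zero N q M e hN hq he h
  · rw [coe_EooE_of_ne A N q e a ha0]
    by_cases hae' : a = e
    · subst hae'
      have h : q ^ (a - 1 + 1) ∣ N := pow_dvd_lvl N q M a hN _ (by omega)
      rw [KooE_top q a ha0, EwF_top N q a ha0, epsT_eq N q (a - 1) h]
      exact isIntegral_eps_top N q M a hN hq he h
    · have h1 : q ^ (a - 1 + 1) ∣ N := pow_dvd_lvl N q M e hN _ (by omega)
      have h2 : q ^ (a + 1) ∣ N := pow_dvd_lvl N q M e hN _ (by omega)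
      rw [KooE_mid q e a ha0 hae', EwF_mid N q e a ha0 hae', epsT_eq N q (a - 1) h1,
        epsT_eq N q a h2]
      exact isIntegral_eps_mid N q M e hN hq a (by omega) (by omega) h1 h2

include hN hq in
/-- **`xooE a` is integral over `ℚ̄[1/j]`.** -/
theorem isIntegral_xooE (a : ℕ) (ha : 1 ≤ a) (hae : a + 1 ≤ e)
    (h1 : q ^ (a + min a (e - a)) ∣ N) (h2 : q ^ (a - min a (e - a)) ∣ N) :
    IsIntegral ↥(Algebra.adjoin Kbar ({(jF N)⁻¹} : Set (FN N)))
      ((xooE A N q e a h1 h2 : ↥(L0 A N)) : FN N) := by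
  have ha0 : a ≠ 0 := by omega
  have hae' : a ≠ e := by omega
  have hd1 : q ^ (a - 1 + 1) ∣ N := pow_dvd_lvl N q M e hN _ (by omega)
  have hd2 : q ^ (a + 1) ∣ N := pow_dvd_lvl N q M e hN _ (by omega)
  have hX1 := isIntegral_X N q M e hN hq a (min a (e - a)) (a + min a (e - a)) ha hae
    (min_le_left _ _) (by omega) (Or.inr rfl) hd1 hd2 h1
  have hX2 := isIntegral_X N q M e hN hq a (min a (e - a)) (a - min a (e - a)) ha hae
    (min_le_left _ _) (by omega) (Or.inl rfl) hd1 hd2 h2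
  have key : ((xooE A N q e a h1 h2 : ↥(L0 A N)) : FN N)
      = jdF N (q ^ (a + min a (e - a))) h1
          * (cqN N q ^ 12 * epsN N q (a - 1) hd1 * (epsN N q a hd2)⁻¹) ^ (q ^ min a (e - a))
          * (jF N)⁻¹ ^ (q ^ (a - min a (e - a))
              + q ^ min a (e - a) * (2 * q ^ (a - 1) * (q - 1)))
        - jdF N (q ^ (a - min a (e - a))) h2
          * (cqN N q ^ 12 * epsN N q (a - 1) hd1 * (epsN N q a hd2)⁻¹) ^ (q ^ min a (e - a))
          * (jF N)⁻¹ ^ (q ^ (a - min a (e - a))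
              + q ^ min a (e - a) * (2 * q ^ (a - 1) * (q - 1))) := by
    have e1 : ((xooE A N q e a h1 h2 : ↥(L0 A N)) : FN N)
        = _root_.Fermat.Agent.S45.NUE.H73.piE N q e a h1 h2 * (jF N)⁻¹ ^ (q ^ (a - min a (e - a)))
          * ((EooE A N q e a : ↥(L0 A N)) : FN N) ^ (q ^ min a (e - a)) := rfl
    rw [e1, coe_EooE_of_ne A N q e a ha0, KooE_mid q e a ha0 hae', EwF_mid N q e a ha0 hae',
      epsT_eq N q (a - 1) hd1, epsT_eq N q a hd2, _root_.Fermat.Agent.S45.NUE.H73.piE]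
    ring
  rw [key]
  exact hX1.sub hX2

end Int

end Fermat.Agent.S45.NUE.H73

end
end
-- ==== END Fermat.Agent.S45.NUE.H73_CuspIntE4

-- ==== BEGIN Fermat.Agent.S45.NUE.H73_CuspMemE
section

/-!
# S45 / NU_e, leaf E-CUSP (helper73): the elements of the chart at infinity lie in all `V_b`

Level `N = M q^e`.

* `inv_mem_VE`, `sE_inv` : an element of `V_a` with non-zero reduction is a unit of `V_a`;
* `uooE_mem_VE`, `sE_uooE` : `u = 1 / j ∈ V_a`, `s_a(u) = (j~(s^(q^(e - 2a))))⁻¹`;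
* `jq_mem_VE` : `j (q^i τ) ∈ V_b` for all `i, b ≤ e`;   `piEo_mem_VE` : `π_a ∈ V_b`;
* `EooE_mem_VE`, `xooE_mem_VE` : from helper82's `Stmt_EwE_mem`.
-/

set_option autoImplicit false
set_option synthInstance.maxHeartbeats 400000
set_option maxHeartbeats 1000000
set_option linter.unusedSectionVars false
set_option linter.unusedVariables false
set_option linter.style.haveILetI false

noncomputable section

namespace Fermat.Agent.S45.NUE.H73

open Fermat.Agent.S24 Fermat.Agent.BAD.H88 ModularCurve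
open Fermat.Agent.S28 Fermat.Agent.S28.H73 Fermat.Agent.RED.H73
open Fermat.Agent.S36.NU.H88
open Fermat.Agent.S36.NU.H23 (L0 jdF_mem_L0)
open Fermat.Agent.S45.NUE.H23 (VF VE sE neZero_nE mem_VE_iff sE_mk sE_eq_zero_of_not_isUnit)
open Fermat.Agent.S45.NUE.H82 (EwE Stmt_EwE_mem)

section Mem

variable (A : ValuationSubring Kbar)
variable (N q M e : ℕ) (B k : ℤ) (hN : N = M * q ^ e) (hB : B * M + k * (q : ℤ) ^ e = 1)
  (hq : q.Prime) [NeZero N] [NeZero q]

include hN hB hq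

/-- Inverses at `V_a`: an element with non-zero reduction is a unit. -/
theorem sE_inv (a : ℕ) (x : ↥(L0 A N)) (h : x ∈ VE A N q M e B k hN hB hq a)
    (hne : _root_.Fermat.Agent.S45.NUE.H23.sE A N q M e B k hN hB hq a ⟨x, h⟩ ≠ 0) :
    ∃ h' : x⁻¹ ∈ VE A N q M e B k hN hB hq a,
      _root_.Fermat.Agent.S45.NUE.H23.sE A N q M e B k hN hB hq a ⟨x⁻¹, h'⟩ = (_root_.Fermat.Agent.S45.NUE.H23.sE A N q M e B k hN hB hq a ⟨x, h⟩)⁻¹ := by
  have hu : IsUnit (⟨x, h⟩ : ↥(VE A N q M e B k hN hB hq a)) := by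
    by_contra hnu
    exact hne (_root_.Fermat.Agent.S45.NUE.H23.sE_eq_zero_of_not_isUnit A N q M e B k hN hB hq a _ hnu)
  obtain ⟨u, hu'⟩ := hu
  have h1 : ((u⁻¹ : (↥(VE A N q M e B k hN hB hq a))ˣ) : ↥(VE A N q M e B k hN hB hq a))
      * ⟨x, h⟩ = 1 := by
    rw [← hu']
    exact u.inv_mul
  have h2 := congrArg (fun z : ↥(VE A N q M e B k hN hB hq a) => (z : ↥(L0 A N))) h1
  simp only [MulMemClass.coe_mul, OneMemClass.coe_one] at h2
  have h3 : x⁻¹ = (((u⁻¹ : (↥(VE A N q M e B k hN hB hq a))ˣ) :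
      ↥(VE A N q M e B k hN hB hq a)) : ↥(L0 A N)) := (eq_inv_of_mul_eq_one_left h2).symm
  have hm : x⁻¹ ∈ VE A N q M e B k hN hB hq a := by
    rw [h3]
    exact Subtype.mem _
  refine ⟨hm, ?_⟩
  have he' : (⟨x⁻¹, hm⟩ : ↥(VE A N q M e B k hN hB hq a))
      = ((u⁻¹ : (↥(VE A N q M e B k hN hB hq a))ˣ) : ↥(VE A N q M e B k hN hB hq a)) :=
    Subtype.ext h3
  rw [he']
  have h4 := congrArg (_root_.Fermat.Agent.S45.NUE.H23.sE A N q M e B k hN hB hq a) h1
  rw [map_mul, map_one] at h4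
  exact eq_inv_of_mul_eq_one_left h4

omit hN hB hq in
theorem jqModC_ne_zero_k : jqModC (kV A) ≠ 0 := by
  intro h
  have h1 := congrArg (fun s : LaurentSeries (kV A) => s.coeff (-1)) h
  simp only [HahnSeries.coeff_zero] at h1
  have h2 : (jqModC (kV A)).coeff (-1) = 1 := by
    have e1 : coeffMap (Int.castRingHom (kV A)) jInt = jqModC (kV A) := by
      rw [jInt, qExpand_one_apply, coeffMap_jqModC]
    rw [← e1, coeffMap_coeff, jInt_coeff_neg_one, map_one]
  rw [h2] at h1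
  exact one_ne_zero h1

/-- `s_a(j) = j~(s^(q^(e - 2a)))`. -/
theorem sE_j0' (a : ℕ) (hj : j0 A N ∈ VE A N q M e B k hN hB hq a) :
    _root_.Fermat.Agent.S45.NUE.H23.sE A N q M e B k hN hB hq a ⟨j0 A N, hj⟩
      = qExpand (kV A) (q ^ (e - 2 * a)) (jqModC (kV A)) := by
  haveI : NeZero M := ⟨(posE N q M e B k hN hB hq).ne'⟩
  haveI := Fermat.Agent.S45.NUE.H28.neZero_one_mul_pow q (e - 2 * a + 0)
  rw [Fermat.Agent.S45.NUE.H28.sE_j0 A N q M e B k hN hB hq a hj]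
  exact qExpand_congr (by rw [one_mul, add_zero]) _

theorem j0_mem_VE' (a : ℕ) : j0 A N ∈ VE A N q M e B k hN hB hq a :=
  haveI : NeZero M := ⟨(posE N q M e B k hN hB hq).ne'⟩
  Fermat.Agent.S45.NUE.H28.j0_mem_VE A N q M e B k hN hB hq a

/-- `u = 1 / j ∈ V_a`. -/
theorem uooE_mem_VE (a : ℕ) : uooE A N ∈ VE A N q M e B k hN hB hq a := by
  have hj := j0_mem_VE' A N q M e B k hN hB hq a
  have hne : _root_.Fermat.Agent.S45.NUE.H23.sE A N q M e B k hN hB hq a ⟨j0 A N, hj⟩ ≠ 0 := by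
    rw [sE_j0' A N q M e B k hN hB hq a hj]
    intro h0
    exact jqModC_ne_zero_k A
      (qExpand_injective (q ^ (e - 2 * a)) (by rw [h0, map_zero]))
  exact (sE_inv A N q M e B k hN hB hq a _ hj hne).1

/-- `s_a(u) = (j~(s^(q^(e - 2a))))⁻¹`. -/
theorem sE_uooE (a : ℕ) (hu : uooE A N ∈ VE A N q M e B k hN hB hq a) :
    _root_.Fermat.Agent.S45.NUE.H23.sE A N q M e B k hN hB hq a ⟨uooE A N, hu⟩
      = (qExpand (kV A) (q ^ (e - 2 * a)) (jqModC (kV A)))⁻¹ := by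
  have hj := j0_mem_VE' A N q M e B k hN hB hq a
  have hne : _root_.Fermat.Agent.S45.NUE.H23.sE A N q M e B k hN hB hq a ⟨j0 A N, hj⟩ ≠ 0 := by
    rw [sE_j0' A N q M e B k hN hB hq a hj]
    intro h0
    exact jqModC_ne_zero_k A
      (qExpand_injective (q ^ (e - 2 * a)) (by rw [h0, map_zero]))
  obtain ⟨h', hs⟩ := sE_inv A N q M e B k hN hB hq a _ hj hne
  rw [← sE_j0' A N q M e B k hN hB hq a hj, ← hs]
  rfl

/-- `j (q^i τ) ∈ V_b`. -/
theorem jq_mem_VE (i b : ℕ) (hi : i ≤ e) (hD : q ^ i ∣ N) :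
    (⟨jdF N (q ^ i) hD, jdF_mem_L0 A N _ hD⟩ : ↥(L0 A N)) ∈ VE A N q M e B k hN hB hq b := by
  haveI : NeZero M := ⟨(posE N q M e B k hN hB hq).ne'⟩
  have hD' : 1 * q ^ i ∣ N := by rw [one_mul]; exact hD
  haveI : NeZero (1 * q ^ i) := Fermat.Agent.S45.NUE.H28.neZero_one_mul_pow q i
  have e1 : (⟨jdF N (q ^ i) hD, jdF_mem_L0 A N _ hD⟩ : ↥(L0 A N))
      = ⟨jdF N (1 * q ^ i) hD', jdF_mem_L0 A N _ hD'⟩ :=
    Subtype.ext (jdF_congr N (one_mul (q ^ i)).symm hD hD')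
  rw [e1]
  rcases Nat.lt_or_ge b i with hlt | hge
  · haveI := Fermat.Agent.S45.NUE.H28.neZero_one_mul_pow q (max e (2 * b) - i)
    exact Fermat.Agent.S45.NUE.H17.jdF_mem_VE_gt A N q M e B k hN hB hq 1 M i b
      (one_mul M).symm hlt hi hD'
  · haveI := Fermat.Agent.S45.NUE.H28.neZero_one_mul_pow q (e - 2 * b + i)
    exact Fermat.Agent.S45.NUE.H17.jdF_mem_VE_le A N q M e B k hN hB hq 1 M i b
      (one_mul M).symm hge hD'

/-- `π_a ∈ V_b` for all `b`. -/
theorem piEo_mem_VE (a b : ℕ) (ha : 1 ≤ a) (hae : a + 1 ≤ e)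
    (h1 : q ^ (a + min a (e - a)) ∣ N) (h2 : q ^ (a - min a (e - a)) ∣ N) :
    piEo A N q e a h1 h2 ∈ VE A N q M e B k hN hB hq b := by
  have e1 : piEo A N q e a h1 h2
      = (⟨jdF N (q ^ (a + min a (e - a))) h1, jdF_mem_L0 A N _ h1⟩ : ↥(L0 A N))
        - ⟨jdF N (q ^ (a - min a (e - a))) h2, jdF_mem_L0 A N _ h2⟩ := rfl
  rw [e1]
  exact sub_mem (jq_mem_VE A N q M e B k hN hB hq _ b (by omega) h1)
    (jq_mem_VE A N q M e B k hN hB hq _ b (by omega) h2)

/-- `EooE a ∈ V_b` for all `a, b ≤ e`. -/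
theorem EooE_mem_VE (hmem : Stmt_EwE_mem A N q M e B k hN hB hq) (a b : ℕ) (ha : a ≤ e)
    (hb : b ≤ e) : EooE A N q e a ∈ VE A N q M e B k hN hB hq b := by
  have hu := uooE_mem_VE A N q M e B k hN hB hq b
  rw [EooE]
  split_ifs with h0
  · exact mul_mem (pow_mem (hmem 0 b (Nat.zero_le e) hb) _) (pow_mem hu _)
  · exact mul_mem (hmem a b ha hb) (pow_mem hu _)

/-- `xooE a ∈ V_b` for all `b ≤ e`. -/
theorem xooE_mem_VE (hmem : Stmt_EwE_mem A N q M e B k hN hB hq) (a b : ℕ) (ha : 1 ≤ a)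
    (hae : a + 1 ≤ e) (hb : b ≤ e)
    (h1 : q ^ (a + min a (e - a)) ∣ N) (h2 : q ^ (a - min a (e - a)) ∣ N) :
    xooE A N q e a h1 h2 ∈ VE A N q M e B k hN hB hq b := by
  rw [xooE]
  exact mul_mem (mul_mem (piEo_mem_VE A N q M e B k hN hB hq a b ha hae h1 h2)
    (pow_mem (uooE_mem_VE A N q M e B k hN hB hq b) _))
    (pow_mem (EooE_mem_VE A N q M e B k hN hB hq hmem a b (by omega) hb) _)

end Mem

end Fermat.Agent.S45.NUE.H73

end
end
-- ==== END Fermat.Agent.S45.NUE.H73_CuspMemE
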