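-- GENERATED (merged mirror, NOTES/tools/trim/merge3_helper67.py): 1 modules of the originals, bodies verbatim.
import Fermat.Agent.Zm.S45_L06_005
import Fermat.Agent.Zm.S45_L02_001
import Fermat.Agent.Zm.S36_L13_001

-- ==== BEGIN Fermat.Agent.S45.NUE.H99_UnifU
section

/-!
# S45 / NU_e, leaf E-PT-ORD (helper99): the local equation of the components `0 < a < e` for a
general coordinate

`N = M q^e`, `f ∈ F_M` with integral expansion `u₀ ∈ ℤ((t))`, `0 < a < e`, `m = min(a, e - a)`,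
`δ = |e - 2 a|`, `φ = φ(q^m)`, `z = ζ_{q^m}^B` (helper73's `zU`).

* `piU a = f(q^(a+m) τ) - f(q^(a-m) τ)` (`f = j`: helper73's `piE`), `cE_piU` : its expansion at
  the cusp `1/(q^a M)` is `(u₀(z s) - u₀(s))(s^(q^δ))`;
* `piUo` : the same as an inertia-fixed function, `piUo_mem_VE` : it lies in EVERY `VE b`;
* `epsU = (z - 1)^φ / q` is a unit of `A`;
* `fUo = piU^φ / q`, `piUo_pow_eq : piUo^φ = q * fUo`, `fUo_mem_VE : fUo ∈ VE a`,
* **`sE_fUo`** : `sE a fUo = ε̄ · ((θ ū₀)(s^(q^δ)))^φ`.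
-/

set_option autoImplicit false
set_option synthInstance.maxHeartbeats 400000
set_option maxHeartbeats 1000000
set_option linter.unusedSectionVars false
set_option linter.unusedVariables false
set_option linter.style.haveILetI false

noncomputable section

namespace Fermat.Agent.S45.NUE.H99

open Fermat.Agent.S24 Fermat.Agent.BAD.H88 ModularCurve AlgebraicCurve
open Fermat.Agent.S28 Fermat.Agent.S28.H73 Fermat.Agent.RED.H73 Fermat.Agent.RED.H17
open Fermat.Agent.S36.NU Fermat.Agent.S36.NU.H88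
open Fermat.Agent.S45.NUE.H23 Fermat.Agent.S45.NUE.H17
open Fermat.Agent.S45.NUE.H73 (zE zE_pow zU zU_pow zE_pow_dE dE isPrimitiveRoot_zU zU_ne_one)
open scoped MatrixGroups

local notation "L0" => Fermat.Agent.S36.NU.H23.L0
local notation "VE0" => Fermat.Agent.S36.NU.H23.VE0
local notation "sE0" => Fermat.Agent.S36.NU.H23.sE

theorem add_min_le (e a : ℕ) (hae : a ≤ e) : a + min a (e - a) ≤ e := by omega

theorem sub_min_le (e a : ℕ) (hae : a ≤ e) : a - min a (e - a) ≤ e := by omega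

section Unif

variable (A : ValuationSubring Kbar)
variable (N q M e : ℕ) (B k : ℤ) (hN : N = M * q ^ e) (hB : B * M + k * (q : ℤ) ^ e = 1)
  (hq : q.Prime) [NeZero N] [NeZero q] [NeZero M]
variable (f : FN M) (u₀ : LaurentSeries ℤ)
  (hf : (f : LaurentSeries Kbar) = H65.intSer Kbar u₀)

/-- **The local equation** `π_a(f) = f(q^(a+m) τ) - f(q^(a-m) τ)`, `m = min(a, e - a)`. -/
def piU (a : ℕ) (hae : a ≤ e) : FN N :=
  incQ N q M e hN (a + min a (e - a)) (add_min_le e a hae) f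
    - incQ N q M e hN (a - min a (e - a)) (sub_min_le e a hae) f

include hB hq in
/-- The expansion of `π_a(f)` at the cusp `1/(q^a M)`. -/
theorem cE_piU (a : ℕ) (ha1 : 1 ≤ a) (hae : a < e) :
    _root_.Fermat.Agent.S45.NUE.H23.cE N q M e B k hN hB hq a (piU N q M e hN f a hae.le)
      = qExpand Kbar (q ^ dE e a)
          (twist (zU q e a B) (f : LaurentSeries Kbar) - (f : LaurentSeries Kbar)) := by
  have e1 : max e (2 * a) - (a + min a (e - a)) = dE e a := by rw [dE]; omega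
  have e2 : e - 2 * a + (a - min a (e - a)) = dE e a := by rw [dE]; omega
  haveI : NeZero (q ^ (max e (2 * a) - (a + min a (e - a)))) := ⟨pow_ne_zero _ (NeZero.ne q)⟩
  haveI : NeZero (q ^ (e - 2 * a + (a - min a (e - a)))) := ⟨pow_ne_zero _ (NeZero.ne q)⟩
  haveI : NeZero (q ^ dE e a) := ⟨pow_ne_zero _ (NeZero.ne q)⟩
  rw [piU, map_sub, cE_incQ_gt N q M e B k hN hB hq _ _ a (by omega),
    cE_incQ_le N q M e B k hN hB hq _ _ a (by omega), map_sub,
    qExpand_congr (congrArg (q ^ ·) e1), qExpand_congr (congrArg (q ^ ·) e2), twist_qExpand,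
    zpow_natCast, zE_pow_dE q e a B hae.le]

include hf in
/-- `f` as an element of the Gauss ring of the inertia-fixed functions of level `M`. -/
def fo0 : ↥(VE0 A M) :=
  ⟨⟨f, Fermat.Agent.S36.NU.H99.mem_L0_of_intSer A M f u₀ hf⟩,
    Fermat.Agent.S36.NU.H99.mem_VM_of_intSer A M f u₀ hf⟩

theorem coe_fo0 : (((fo0 A M f u₀ hf : ↥(VE0 A M)) : ↥(L0 A M)) : FN M) = f := rfl

/-- `π_a(f)` as an inertia-fixed function. -/
def piUo (a : ℕ) (hae : a ≤ e) : ↥(L0 A N) :=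
  incL0 A N q M e hN (a + min a (e - a)) (add_min_le e a hae) (fo0 A M f u₀ hf : ↥(L0 A M))
    - incL0 A N q M e hN (a - min a (e - a)) (sub_min_le e a hae) (fo0 A M f u₀ hf : ↥(L0 A M))

theorem coe_piUo (a : ℕ) (hae : a ≤ e) :
    ((piUo A N q M e hN f u₀ hf a hae : ↥(L0 A N)) : FN N) = piU N q M e hN f a hae := rfl

include hB hq in
/-- `π_a(f)` lies in every `VE b`. -/
theorem piUo_mem_VE (a : ℕ) (hae : a ≤ e) (b : ℕ) :
    piUo A N q M e hN f u₀ hf a hae ∈ VE A N q M e B k hN hB hq b :=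
  sub_mem (incL0_mem_VE A N q M e B k hN hB hq _ _ b _ (fo0 A M f u₀ hf).2)
    (incL0_mem_VE A N q M e B k hN hB hq _ _ b _ (fo0 A M f u₀ hf).2)

/-! ## The unit `ε = (z - 1)^φ / q` -/

/-- `ε_a = (z - 1)^φ(q^m) / q`, `z = ζ_{q^m}^B`, `m = min(a, e - a)`. -/
def epsU (q e a : ℕ) [NeZero q] (B : ℤ) : Kbar :=
  (zU q e a B - 1) ^ Nat.totient (q ^ min a (e - a)) * ((q : ℕ) : Kbar)⁻¹

include hB hq in
theorem val_epsU (a : ℕ) (ha1 : 1 ≤ a) (hae : a < e) : A.valuation (epsU q e a B) = 1 := by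
  have hm0 : min a (e - a) ≠ 0 := by omega
  have h := H57.val_sub_one_pow_totient A hq hm0 (isPrimitiveRoot_zU q M e B k hB hq a hae)
  have hq0 : A.valuation ((q : ℕ) : Kbar) ≠ 0 :=
    (Valuation.ne_zero_iff _).2 (Nat.cast_ne_zero.2 hq.ne_zero)
  rw [epsU, map_mul, map_pow, map_inv₀, h]
  exact mul_inv_cancel₀ hq0

include hB hq in
theorem epsU_mem (a : ℕ) (ha1 : 1 ≤ a) (hae : a < e) : epsU q e a B ∈ A :=
  (A.valuation_le_one_iff _).1 (val_epsU A q M e B k hB hq a ha1 hae).le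

include hB hq in
theorem resV_epsU_ne_zero (a : ℕ) (ha1 : 1 ≤ a) (hae : a < e) :
    resV A ⟨epsU q e a B, epsU_mem A q M e B k hB hq a ha1 hae⟩ ≠ 0 := by
  intro h0
  have h1 : (⟨epsU q e a B, epsU_mem A q M e B k hB hq a ha1 hae⟩ : ↥A)
      ∈ IsLocalRing.maximalIdeal ↥A := (IsLocalRing.residue_eq_zero_iff _).1 h0
  have h2 : A.valuation (epsU q e a B) < 1 := (A.valuation_lt_one_iff _).1 h1
  exact h2.ne (val_epsU A q M e B k hB hq a ha1 hae)

/-! ## `f_a = π_a^φ / q` -/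

include hB hq hf in
/-- The expansion of `π_a(f)` in the form of helper57's `ramG`. -/
theorem cG_piU (a : ℕ) (ha1 : 1 ≤ a) (hae : a < e) :
    haveI := neZero_nE N q M e B k hN hB hq a
    haveI : NeZero (q ^ dE e a) := ⟨pow_ne_zero _ (NeZero.ne q)⟩
    cG (hE N q M e B k hN hB hq a) (piU N q M e hN f a hae.le)
      = qExpand Kbar (q ^ dE e a)
          (twist (zU q e a B) (H65.intSer Kbar u₀) - H65.intSer Kbar u₀) := by
  rw [← hf]
  exact cE_piU N q M e B k hN hB hq f a ha1 hae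

include hB hq in
theorem piU_pow_div (a : ℕ) (ha1 : 1 ≤ a) (hae : a < e) :
    piU N q M e hN f a hae.le ^ Nat.totient (q ^ min a (e - a)) * (((q : ℕ) : FN N))⁻¹
      = algebraMap Kbar (FN N) (epsU q e a B)
        * H57.thG (zU q e a B) (piU N q M e hN f a hae.le)
            ^ Nat.totient (q ^ min a (e - a)) := by
  have hz1 : zU q e a B ≠ 1 := zU_ne_one q M e B k hB hq a ha1 hae
  conv_lhs => rw [H57.eq_mul_thG (zU q e a B) hz1 (piU N q M e hN f a hae.le)]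
  rw [mul_pow, epsU, map_mul, map_pow, map_inv₀, map_natCast]
  ring

/-- `f_a = π_a(f)^φ / q` as an inertia-fixed function. -/
def fUo (a : ℕ) (hae : a ≤ e) : ↥(L0 A N) :=
  piUo A N q M e hN f u₀ hf a hae ^ Nat.totient (q ^ min a (e - a))
    * (((q : ℕ) : ↥(L0 A N)))⁻¹

theorem coe_fUo (a : ℕ) (hae : a ≤ e) :
    ((fUo A N q M e hN f u₀ hf a hae : ↥(L0 A N)) : FN N)
      = piU N q M e hN f a hae ^ Nat.totient (q ^ min a (e - a)) * (((q : ℕ) : FN N))⁻¹ := by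
  have e1 : ((((q : ℕ) : ↥(L0 A N)))⁻¹ : ↥(L0 A N)) = (⟨(((q : ℕ) : FN N))⁻¹,
      inv_mem (natCast_mem (L0 A N) q)⟩ : ↥(L0 A N)) := by
    apply Subtype.ext
    show ((((q : ℕ) : ↥(L0 A N)))⁻¹ : ↥(L0 A N)).1 = (((q : ℕ) : FN N))⁻¹
    rfl
  rw [fUo, e1]
  rfl

include hq in
/-- `π_a^φ = q f_a`. -/
theorem piUo_pow_eq (a : ℕ) (hae : a ≤ e) :
    piUo A N q M e hN f u₀ hf a hae ^ Nat.totient (q ^ min a (e - a))
      = ((q : ℕ) : ↥(L0 A N)) * fUo A N q M e hN f u₀ hf a hae := by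
  have h0 : ((q : ℕ) : ↥(L0 A N)) ≠ 0 := Nat.cast_ne_zero.2 hq.ne_zero
  rw [fUo]
  field_simp

include hB hq hf in
theorem thG_piU_mem (a : ℕ) (ha1 : 1 ≤ a) (hae : a < e) :
    H57.thG (zU q e a B) (piU N q M e hN f a hae.le) ∈ VF A N q M e B k hN hB hq a := by
  haveI := neZero_nE N q M e B k hN hB hq a
  haveI : NeZero (q ^ dE e a) := ⟨pow_ne_zero _ (NeZero.ne q)⟩
  exact H57.thG_mem (hE N q M e B k hN hB hq a) A q hq (min a (e - a)) (zU q e a B)
    (zU_pow q e a B) (zU_ne_one q M e B k hB hq a ha1 hae) (q ^ dE e a) u₀ _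
    (cG_piU N q M e B k hN hB hq f u₀ hf a ha1 hae)

include hB hq in
/-- `f_a ∈ V_a`. -/
theorem fUo_mem_VE (a : ℕ) (ha1 : 1 ≤ a) (hae : a < e) :
    fUo A N q M e hN f u₀ hf a hae.le ∈ VE A N q M e B k hN hB hq a := by
  haveI := neZero_nE N q M e B k hN hB hq a
  show ((fUo A N q M e hN f u₀ hf a hae.le : ↥(L0 A N)) : FN N)
    ∈ VG (hE N q M e B k hN hB hq a) A
  rw [coe_fUo, piU_pow_div N q M e B k hN hB hq f a ha1 hae]
  exact mul_mem ((const_memG (hE N q M e B k hN hB hq a) A _).2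
    (epsU_mem A q M e B k hB hq a ha1 hae))
    (pow_mem (thG_piU_mem A N q M e B k hN hB hq f u₀ hf a ha1 hae) _)

include hB hq in
/-- **The reduction of `π_a(f)^φ / q` at `V_a` is `ε̄ ((θ ū₀)(s^(q^δ)))^φ`.** -/
theorem sE_fUo (hA : (q : Kbar) ∈ A.nonunits) (a : ℕ) (ha1 : 1 ≤ a) (hae : a < e)
    (hmem : fUo A N q M e hN f u₀ hf a hae.le ∈ VE A N q M e B k hN hB hq a) :
    haveI : NeZero (q ^ dE e a) := ⟨pow_ne_zero _ (NeZero.ne q)⟩
    sE A N q M e B k hN hB hq a ⟨_, hmem⟩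
      = algebraMap (kV A) (LaurentSeries (kV A))
          (resV A ⟨epsU q e a B, epsU_mem A q M e B k hB hq a ha1 hae⟩)
        * qExpand (kV A) (q ^ dE e a)
            (H73.thetaL (coeffMap (Int.castRingHom (kV A)) u₀))
            ^ Nat.totient (q ^ min a (e - a)) := by
  haveI := neZero_nE N q M e B k hN hB hq a
  haveI : NeZero (q ^ dE e a) := ⟨pow_ne_zero _ (NeZero.ne q)⟩
  have hc : algebraMap Kbar (FN N) (epsU q e a B) ∈ VG (hE N q M e B k hN hB hq a) A :=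
    (const_memG (hE N q M e B k hN hB hq a) A _).2 (epsU_mem A q M e B k hB hq a ha1 hae)
  have hth : H57.thG (zU q e a B) (piU N q M e hN f a hae.le)
      ∈ VG (hE N q M e B k hN hB hq a) A :=
    thG_piU_mem A N q M e B k hN hB hq f u₀ hf a ha1 hae
  have hmem' : ((fUo A N q M e hN f u₀ hf a hae.le : ↥(L0 A N)) : FN N)
      ∈ VG (hE N q M e B k hN hB hq a) A := hmem
  have e0 : (⟨((fUo A N q M e hN f u₀ hf a hae.le : ↥(L0 A N)) : FN N), hmem'⟩ :
      ↥(VG (hE N q M e B k hN hB hq a) A))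
      = ⟨_, hc⟩ * ⟨_, hth⟩ ^ Nat.totient (q ^ min a (e - a)) := by
    apply Subtype.ext
    show ((fUo A N q M e hN f u₀ hf a hae.le : ↥(L0 A N)) : FN N) = _
    rw [coe_fUo, piU_pow_div N q M e B k hN hB hq f a ha1 hae]
    rfl
  show ((redG (hE N q M e B k hN hB hq a) A ⟨_, hmem'⟩ :
      RG (hE N q M e B k hN hB hq a) A) : LaurentSeries (kV A)) = _
  rw [e0, map_mul, map_pow,
    redG_const (hE N q M e B k hN hB hq a) A
      ⟨epsU q e a B, epsU_mem A q M e B k hB hq a ha1 hae⟩ hc]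
  show algebraMap (kV A) (LaurentSeries (kV A)) _
    * ((redG (hE N q M e B k hN hB hq a) A ⟨_, hth⟩ :
      RG (hE N q M e B k hN hB hq a) A) : LaurentSeries (kV A))
        ^ Nat.totient (q ^ min a (e - a)) = _
  rw [H57.redG_thG (hE N q M e B k hN hB hq a) A q hq hA (min a (e - a)) (zU q e a B)
    (zU_pow q e a B) (zU_ne_one q M e B k hB hq a ha1 hae) (q ^ dE e a) u₀ _
    (cG_piU N q M e B k hN hB hq f u₀ hf a ha1 hae) hth]

end Unif

end Fermat.Agent.S45.NUE.H99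

end
end
-- ==== END Fermat.Agent.S45.NUE.H99_UnifU
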