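-- GENERATED (merged mirror, NOTES/tools/trim/merge3_helper67.py): 4 modules of the originals, bodies verbatim.
import Fermat.Agent.Zm.S45_L07_000
import Fermat.Agent.Zm.S45_L06_000
import Fermat.Agent.Zm.S45_L07_002
import Fermat.Agent.Zm.S45_L07_001
import Fermat.Agent.Zm.S45_L07_003
import Fermat.Agent.Zm.S45_L05_001
import Fermat.Agent.Zm.S36_L14_001

-- ==== BEGIN Fermat.Agent.S45.NUE.H23_TotE3
section
attribute [local instance 10000] SubalgebraClass.toAlgebra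
attribute [local instance 10000] HahnSeries.powerSeriesAlgebra

/-!
# S45 / NU_e, package E-TOT (helper23), part 3: the modular conservation datum `TotN`

Level `N = M q^e`, `q ∤ M`, `M` tame at `q`, `e ≥ 1`; `C = FM A M`.

**`totE : TotN ℚ̄ (L0 A N) (F_N · ℚ̄) k (Fin (e + 1)) (Place k C) (C, …, C)`** with
`V a = VE a`, `red a = rEa a`, `m a = φ(q^min(a, e - a))`, `ρ P = r_M (P | F_M)`,
`pt a z = β^(e - 2a) z`.
-/

set_option autoImplicit false
set_option synthInstance.maxHeartbeats 400000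
set_option maxHeartbeats 1000000
set_option linter.style.haveILetI false
set_option linter.unusedSectionVars false

noncomputable section

open ModularCurve AlgebraicCurve
open Fermat.Agent.S24 Fermat.Agent.BAD.H88 Fermat.Agent.S28 Fermat.Agent.S28.H73
open Fermat.Agent.RED.H73 Fermat.Agent.RED.H17 Fermat.Agent.S36.NU.H88
open Fermat.Agent.S36.NU.H23

namespace Fermat.Agent.S45.NUE.H23

open Fermat.Agent.BAD Fermat.Agent.RED Fermat.Agent.S36.NU.H79

section TotE3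

variable (A : ValuationSubring Kbar)
variable (N q M e : ℕ) (B k : ℤ) (hN : N = M * q ^ e) (hB : B * M + k * (q : ℤ) ^ e = 1)
  (hq : q.Prime) [NeZero N] [NeZero q] [NeZero M] (hqM : ¬ q ∣ M) (hA : A.LiesOverPrime q)
  (ht : H91.TameAt M q)

/-! ### The tower `F_M ⊂ F_N` -/

theorem tower_FNE (hle : modularFunctionFieldBar M ≤ modularFunctionFieldBar N) :
    letI := algF hle
    IsScalarTower Kbar (FN M) (FN N) :=
  isScalarTower_along (IntermediateField.inclusion hle)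

theorem finite_FNE (hle : modularFunctionFieldBar M ≤ modularFunctionFieldBar N) :
    letI := algF hle
    Module.Finite (FN M) (FN N) := Fermat.Agent.S45.NUE.H41.finite_FN_of_le M N hle

/-- The norm formula for `F_N / F_M`. -/
theorem normFormula_FNE (hle : modularFunctionFieldBar M ≤ modularFunctionFieldBar N) :
    letI := algF hle
    haveI := tower_FNE N M hle
    haveI := finite_FNE N M hle
    Divisor.PushforwardNormFormula Kbar (FN M) (FN N) :=
  H51.stmt_FFB_norm Kbar (FN M) (FN N) (H95.stmt_HKA_isFF M)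
    (H95.stmt_HKA_isFF N) (IntermediateField.inclusion hle)
    (Fermat.Agent.S45.NUE.H41.finite_FN_of_le M N hle)

/-- All inertia degrees are `1`. -/
theorem inertiaDeg_FNE (hle : modularFunctionFieldBar M ≤ modularFunctionFieldBar N)
    (w : Place Kbar (FN N)) :
    letI := algF hle
    haveI := tower_FNE N M hle
    haveI := finite_FNE N M hle
    w.inertiaDeg (FN M) = 1 := by
  letI := algF hle
  haveI := tower_FNE N M hle
  haveI := finite_FNE N M hle
  have h := w.deg_restrict_mul_inertiaDeg (F := FN M)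
  rw [H51.stmt_FFB_deg Kbar (FN M) (H95.stmt_HKA_isFF M),
    H51.stmt_FFB_deg Kbar (FN N) (H95.stmt_HKA_isFF N), one_mul] at h
  exact h

/-! ### The residue fields -/

/-- The natural structures of `k`-algebra of the residue fields. -/
@[reducible] def algkE : ∀ i : Fin (e + 1), Algebra (kV A) (kapE A M e i) :=
  fun _ => inferInstanceAs (Algebra (kV A) (FM A M))

theorem finite_algE (i : Fin (e + 1)) :
    @Module.Finite (FM A M) (kapE A M e i) _ _ (algE A q M e hq hqM hA i).toModule :=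
  finite_FrWM A q M hq hqM hA (wE e (i : ℕ))

/-- The points of the components over a point of the curve of level `M`. -/
def ptE : ∀ i : Fin (e + 1), Place (kV A) (FM A M) →
    @Place (kV A) (kapE A M e i) _ _ (algkE A M e i) :=
  fun i z => betaWM A q M hq hqM hA (wE e (i : ℕ)) z

/-- The reduction map of `F_N` to the curve of level `M`. -/
def rhoE (P : Place Kbar (FN N)) : Place (kV A) (FM A M) :=
  letI := algF (hleE N q M e hN)
  haveI := tower_FNE N M (hleE N q M e hN)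
  haveI := finite_FNE N M (hleE N q M e hN)
  (H91.seM hq hqM ht hA).r (P.restrict (FN M))

/-- `ord_z (N g) = ord_{pt i z} g`. -/
theorem hN_modE (i : Fin (e + 1)) (z : Place (kV A) (FM A M)) (g : kapE A M e i) :
    z.ord (@Algebra.norm (FM A M) (kapE A M e i) _ _ (algE A q M e hq hqM hA i) g)
      = @Place.ord (kV A) (kapE A M e i) _ _ (algkE A M e i)
          (ptE A q M e hq hqM hA i z) g :=
  haveI := neZero_Mqq q M
  @Fermat.Agent.S45.NUE.H42.ord_norm_of_FrW (kV A) _ q ⟨hq⟩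
    (Fermat.Agent.BAD.H82.charP_kV A hq hA)
    (@Fermat.Agent.BAD.H73.perfectRing_kV _ _ _ A q ⟨hq⟩
      (Fermat.Agent.BAD.H82.charP_kV A hq hA)) _ (frobStableE A q M hq hqM hA)
    (FM A M) _ (RingEquiv.refl _) (algE A q M e hq hqM hA i) (wE e (i : ℕ)) (fun _ => rfl)
    ⟨jqModC (kV A), jqModC_mem_FME A q M hq hqM hA⟩ (-1) (not_dvd_neg_one q hq)
    (coeff_jqM A q M hq hqM hA) (isSeparable_FME A q M hq hqM hA) z g

/-! ### The conservation datum -/

variable (H : InE A N q M e B k hN hB hq hqM hA)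

/-- **E-TOT**: the conservation datum of the `e + 1` valuations `V_a` of the inertia-fixed
functions of level `M q^e`, with multiplicities `φ(q^min(a, e - a))`. -/
def totE (he : 0 < e) : @TotN Kbar ↥(L0 A N) (FN N) (kV A) (Fin (e + 1))
    (Place (kV A) (FM A M)) (kapE A M e) _ _ _ _ _ _ _ _ (algkE A M e) :=
  letI := algF (hleE N q M e hN)
  haveI := tower_FNE N M (hleE N q M e hN)
  haveI := finite_FNE N M (hleE N q M e hN)
  letI := algL0 A (hleE N q M e hN)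
  haveI : Module.Finite ↥(L0 A M) ↥(L0 A N) :=
    Fermat.Agent.S45.NUE.H41.finite_L0_of_le A M N (hleE N q M e hN)
  letI := algE A q M e hq hqM hA
  haveI : ∀ i, Module.Finite (FM A M) (kapE A M e i) := finite_algE A q M e hq hqM hA
  letI := algkE A M e
  totN_of_normRedR (H91.seM hq hqM ht hA)
    (H51.stmt_FFB_principal Kbar (FN M) (H95.stmt_HKA_isFF M))
    (inertiaDeg_FNE N M (hleE N q M e hN)) (normFormula_FNE N M (hleE N q M e hN))
    (nrE A N q M e B k hN hB hq hqM hA H he) (nrE_hdeg A N q M e B k hN hB hq hqM hA H he)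
    (RingHom.id (FM A M))
    (fun x => (coe_inclL0 A (hleE N q M e hN) x).symm)
    (fun g => norm_L0 A (hleE N q M e hN) (Fermat.Agent.S45.NUE.H41.finite_FN_of_le M N
      (hleE N q M e hN)) g)
    (fun _ ha => ha)
    (fun _ _ => rfl)
    (fun c hc => const_L0 A (hleE N q M e hN) c hc)
    (rhoE A N q M e hN hq hqM hA ht) id Function.injective_id (fun _ => rfl)
    (ptE A q M e hq hqM hA)
    (fun i z g _ => hN_modE A q M e hq hqM hA i z g)
    (fun a => by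
      obtain ⟨c, hc, hall⟩ := H.hlift a
      refine ⟨c, hc, fun i => ?_⟩
      obtain ⟨h0, e0⟩ := hall (i : ℕ) (Nat.lt_succ_iff.mp i.2)
      exact ⟨h0, Subtype.ext e0⟩)

theorem totE_V (he : 0 < e) (i : Fin (e + 1)) :
    @TotN.V Kbar ↥(L0 A N) (FN N) (kV A) (Fin (e + 1))
      (Place (kV A) (FM A M)) (kapE A M e) _ _ _ _ _ _ _ _ (algkE A M e)
      (totE A N q M e B k hN hB hq hqM hA ht H he) i = VE A N q M e B k hN hB hq (i : ℕ) := rfl

theorem totE_red (he : 0 < e) (i : Fin (e + 1)) :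
    @TotN.red Kbar ↥(L0 A N) (FN N) (kV A) (Fin (e + 1))
      (Place (kV A) (FM A M)) (kapE A M e) _ _ _ _ _ _ _ _ (algkE A M e)
      (totE A N q M e B k hN hB hq hqM hA ht H he) i
      = rEa A N q M e B k hN hB hq hqM hA H he (i : ℕ) (Nat.lt_succ_iff.mp i.2) := rfl

theorem totE_m (he : 0 < e) (i : Fin (e + 1)) :
    @TotN.m Kbar ↥(L0 A N) (FN N) (kV A) (Fin (e + 1))
      (Place (kV A) (FM A M)) (kapE A M e) _ _ _ _ _ _ _ _ (algkE A M e)
      (totE A N q M e B k hN hB hq hqM hA ht H he) i = mE q e (i : ℕ) := rfl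

theorem totE_rho (he : 0 < e) :
    @TotN.ρ Kbar ↥(L0 A N) (FN N) (kV A) (Fin (e + 1))
      (Place (kV A) (FM A M)) (kapE A M e) _ _ _ _ _ _ _ _ (algkE A M e)
      (totE A N q M e B k hN hB hq hqM hA ht H he) = rhoE A N q M e hN hq hqM hA ht := rfl

theorem totE_pt (he : 0 < e) :
    @TotN.pt Kbar ↥(L0 A N) (FN N) (kV A) (Fin (e + 1))
      (Place (kV A) (FM A M)) (kapE A M e) _ _ _ _ _ _ _ _ (algkE A M e)
      (totE A N q M e B k hN hB hq hqM hA ht H he) = ptE A q M e hq hqM hA := rfl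

theorem ptE_apply (i : Fin (e + 1)) (z : Place (kV A) (FM A M)) :
    ptE A q M e hq hqM hA i z = betaWM A q M hq hqM hA (wE e (i : ℕ)) z := rfl

end TotE3

end Fermat.Agent.S45.NUE.H23

end
end
-- ==== END Fermat.Agent.S45.NUE.H23_TotE3

-- ==== BEGIN Fermat.Agent.S45.NUE.H33_NormFinal
section

/-!
# S45 / NU_e, package E-NORM (helper33): the norm tables of the single components, assembled

Levels `M₁ q = M' q ^ e` (lower) and `M₁ q q = M' q ^ (e + 1)` (upper), `q ∤ M'`, `A` over `q`;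
`VEl a'`, `sEl a'` (`a' ≤ e`) and `VEu a`, `sEu a` (`a ≤ e + 1`) the valuations and residue maps
of helper23, `αo`, `βo` the two degeneracy maps on the inertia-fixed functions (helper51),
`NαE`, `NβE` the norms.  From

* `H51.CoverInputs` (THREE for the upper level, incomparability below, the restriction tables),
* `RedInputs` (the reductions of `α y`, `β y`: N1 RESTR, helper31),
* `hmem` (`sEu a x ∈ fullC k M'`: E-TOT),

the norm–reduction formulas of all the single components: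

* `normAlpha_insep` (`a < e`, `2 a ≤ e`) : `(sEl a (Nα h))(s ^ q) = (sEu a h) ^ q`;
* `normAlpha_wild`  (`a < e`, `e < 2 a`) : `sEl a (Nα h) = (sEu a h) ^ q`;
* `normBeta_wild`   (`2 ≤ a ≤ e + 1`, `2 a ≤ e + 1`) : `sEl (a - 1) (Nβ h) = (sEu a h) ^ q`;
* `normBeta_insep`  (`a ≤ e + 1`, `e + 2 ≤ 2 a`) : `(sEl (a - 1) (Nβ h))(s ^ q) = (sEu a h) ^ q`;
* `unitAlpha`, `unitBeta` : the norms of a unit for all `VEu a` are units for all `VEl a'`.
-/

set_option autoImplicit false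
set_option linter.style.haveILetI false
set_option linter.unusedSectionVars false
set_option linter.unusedVariables false
set_option synthInstance.maxHeartbeats 400000
set_option maxHeartbeats 1000000

noncomputable section

namespace Fermat.Agent.S45.NUE.H33

open AlgebraicCurve ModularCurve Fermat.Agent.S24 Fermat.Agent.Lib.HeckeComm
  Fermat.Agent.S36.H44 Fermat.Agent.BAD Fermat.Agent.BAD.H88
  Fermat.Agent.S36.NU.H26 Fermat.Agent.S45.NUE.H51 Fermat.Agent.S45.NUE.H23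
  Fermat.Agent.S28 Fermat.Agent.S28.H73 Fermat.Agent.RED.H73 Fermat.Agent.RED.H17

local notation "L0" => Fermat.Agent.S36.NU.H23.L0

section Final

variable (A : ValuationSubring Kbar) (q M₁ M' el : ℕ) [NeZero M₁] [NeZero q] [NeZero M']
  [NeZero (M₁ * q)] [NeZero (M₁ * q * q)] (hq : q.Prime)
  (hNl : M₁ * q = M' * q ^ el) (hNu : M₁ * q * q = M' * q ^ (el + 1))
  (Bl kl : ℤ) (hBl : Bl * M' + kl * (q : ℤ) ^ el = 1)
  (Bu ku : ℤ) (hBu : Bu * M' + ku * (q : ℤ) ^ (el + 1) = 1)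

/-- The residue maps of the lower level. -/
abbrev sEl (a : ℕ) : ↥(VEl A q M₁ M' el hq hNl Bl kl hBl a) →+* LaurentSeries (kV A) :=
  sE A (M₁ * q) q M' el Bl kl hNl hBl hq a

/-- The residue maps of the upper level. -/
abbrev sEu (a : ℕ) : ↥(VEu A q M₁ M' el hq hNu Bu ku hBu a) →+* LaurentSeries (kV A) :=
  sE A (M₁ * q * q) q M' (el + 1) Bu ku hNu hBu hq a

/-- The norm along `α` on the inertia-fixed functions. -/
abbrev NαE (h : ↥(L0 A (M₁ * q * q))) : ↥(L0 A (M₁ * q)) :=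
  nmE A (heckeAlphaBar Kbar (M₁ * q) q) (arithEquivariant_alpha (M₁ * q) q)
    (alpha_finite (M₁ * q) q) h

/-- The norm along `β` on the inertia-fixed functions. -/
abbrev NβE (h : ↥(L0 A (M₁ * q * q))) : ↥(L0 A (M₁ * q)) :=
  nmE A (heckeBetaBar Kbar (M₁ * q) q) (arithEquivariant_beta (M₁ * q) q)
    (beta_finite (M₁ * q) q) h

/-- **The reductions of `α y`, `β y`** (N1 RESTR, reduction part). -/
structure RedInputs : Prop where
  redα_le : ∀ a : ℕ, 2 * a ≤ el → ∀ (y : ↥(VEl A q M₁ M' el hq hNl Bl kl hBl a))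
    (hy : αo A q M₁ (y : ↥(L0 A (M₁ * q))) ∈ VEu A q M₁ M' el hq hNu Bu ku hBu a),
    sEu A q M₁ M' el hq hNu Bu ku hBu a ⟨_, hy⟩
      = qExpand (kV A) q (sEl A q M₁ M' el hq hNl Bl kl hBl a y)
  redα_gt : ∀ a : ℕ, el < 2 * a → a ≤ el → ∀ (y : ↥(VEl A q M₁ M' el hq hNl Bl kl hBl a))
    (hy : αo A q M₁ (y : ↥(L0 A (M₁ * q))) ∈ VEu A q M₁ M' el hq hNu Bu ku hBu a),
    sEu A q M₁ M' el hq hNu Bu ku hBu a ⟨_, hy⟩ = sEl A q M₁ M' el hq hNl Bl kl hBl a y
  redβ_le : ∀ a : ℕ, 1 ≤ a → 2 * a ≤ el + 1 →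
    ∀ (y : ↥(VEl A q M₁ M' el hq hNl Bl kl hBl (a - 1)))
    (hy : βo A q M₁ (y : ↥(L0 A (M₁ * q))) ∈ VEu A q M₁ M' el hq hNu Bu ku hBu a),
    sEu A q M₁ M' el hq hNu Bu ku hBu a ⟨_, hy⟩
      = sEl A q M₁ M' el hq hNl Bl kl hBl (a - 1) y
  redβ_gt : ∀ a : ℕ, el + 2 ≤ 2 * a → a ≤ el + 1 →
    ∀ (y : ↥(VEl A q M₁ M' el hq hNl Bl kl hBl (a - 1)))
    (hy : βo A q M₁ (y : ↥(L0 A (M₁ * q))) ∈ VEu A q M₁ M' el hq hNu Bu ku hBu a),
    sEu A q M₁ M' el hq hNu Bu ku hBu a ⟨_, hy⟩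
      = qExpand (kV A) q (sEl A q M₁ M' el hq hNl Bl kl hBl (a - 1) y)

variable {A q M₁ M' el hq hNl hNu Bl kl hBl Bu ku hBu}

/-- The degree of `α`. -/
theorem hdegα (hq : q.Prime) : finrankAlong Kbar (heckeAlphaBar Kbar (M₁ * q) q) = q :=
  Fermat.Agent.S36.NU.H44.finrank_alpha_dvd (M₁ * q) q hq (dvd_mul_left q M₁)

/-- The degree of `β`. -/
theorem hdegβ (hq : q.Prime) : finrankAlong Kbar (heckeBetaBar Kbar (M₁ * q) q) = q :=
  Fermat.Agent.L.Pivot.Geom.H24.finrank_beta_of_dvd (M₁ * q) q hq (dvd_mul_left q M₁)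

/-- `VEu a` is the only valuation ring above `VEl a` along `α`, for `a < e`. -/
theorem uniqAlpha (h : CoverInputs A q M₁ M' el hq hNl hNu Bl kl hBl Bu ku hBu) (a : ℕ)
    (ha : a < el) : UniqAlong (αo A q M₁) (VEu A q M₁ M' el hq hNu Bu ku hBu a) := by
  intro W' hW' htop
  obtain ⟨a₁, ha₁, hWa, hmin⟩ := h.fibre_alpha a ha.le W' htop (fun y hy => by
    apply hW'
    rw [h.tabα a (by omega) y, min_eq_left ha.le]
    exact hy)
  have : a₁ = a := by
    rcases Nat.lt_or_ge a₁ el with h1 | h1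
    · rwa [min_eq_left h1.le] at hmin
    · rw [min_eq_right h1] at hmin
      omega
  rw [hWa, this]

/-- `VEu a` is the only valuation ring above `VEl (a - 1)` along `β`, for `2 ≤ a`. -/
theorem uniqBeta (h : CoverInputs A q M₁ M' el hq hNl hNu Bl kl hBl Bu ku hBu) (a : ℕ)
    (ha2 : 2 ≤ a) (ha : a ≤ el + 1) :
    UniqAlong (βo A q M₁) (VEu A q M₁ M' el hq hNu Bu ku hBu a) := by
  intro W' hW' htop
  obtain ⟨a₁, ha₁, hWa, hpred⟩ := h.fibre_beta (a - 1) (by omega) W' htop (fun y hy => by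
    apply hW'
    rw [h.tabβ a ha y]
    exact hy)
  have : a₁ = a := by omega
  rw [hWa, this]

/-- **NORM-RED along `α`, inseparable shape** (`a < e`, `2 a ≤ e`). -/
theorem normAlpha_insep (h : CoverInputs A q M₁ M' el hq hNl hNu Bl kl hBl Bu ku hBu)
    (hr : RedInputs A q M₁ M' el hq hNl hNu Bl kl hBl Bu ku hBu)
    (hqM : ¬ q ∣ M') (hA : A.LiesOverPrime q) (a : ℕ) (ha : a < el) (h2 : 2 * a ≤ el)
    (hmem : ∀ x : ↥(VEu A q M₁ M' el hq hNu Bu ku hBu a),
      sEu A q M₁ M' el hq hNu Bu ku hBu a x ∈ modularFunctionFieldFullC (kV A) M')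
    (f : ↥(L0 A (M₁ * q * q))) (hf : f ∈ VEu A q M₁ M' el hq hNu Bu ku hBu a) :
    ∃ hm : NαE A q M₁ f ∈ VEl A q M₁ M' el hq hNl Bl kl hBl a,
      qExpand (kV A) q (sEl A q M₁ M' el hq hNl Bl kl hBl a ⟨_, hm⟩)
        = sEu A q M₁ M' el hq hNu Bu ku hBu a ⟨f, hf⟩ ^ q :=
  norm_single_insep A q M' el (M₁ * q) (M₁ * q * q) Bl kl Bu ku hNl hBl hNu hBu hq
    (heckeAlphaBar Kbar (M₁ * q) q) (arithEquivariant_alpha (M₁ * q) q)
    (alpha_finite (M₁ * q) q) (hdegα hq) hqM hA a a ha.le hmem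
    (fun x => by
      have := h.tabα a (by omega) x
      rw [min_eq_left ha.le] at this
      exact this.symm)
    (hr.redα_le a h2) (uniqAlpha h a ha) f hf

/-- **NORM-RED along `α`, wild shape** (`a < e`, `e < 2 a`). -/
theorem normAlpha_wild (h : CoverInputs A q M₁ M' el hq hNl hNu Bl kl hBl Bu ku hBu)
    (hr : RedInputs A q M₁ M' el hq hNl hNu Bl kl hBl Bu ku hBu)
    (hqM : ¬ q ∣ M') (hA : A.LiesOverPrime q) (a : ℕ) (ha : a < el) (h2 : el < 2 * a)
    (hmem : ∀ x : ↥(VEu A q M₁ M' el hq hNu Bu ku hBu a),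
      sEu A q M₁ M' el hq hNu Bu ku hBu a x ∈ modularFunctionFieldFullC (kV A) M')
    (f : ↥(L0 A (M₁ * q * q))) (hf : f ∈ VEu A q M₁ M' el hq hNu Bu ku hBu a) :
    ∃ hm : NαE A q M₁ f ∈ VEl A q M₁ M' el hq hNl Bl kl hBl a,
      sEl A q M₁ M' el hq hNl Bl kl hBl a ⟨_, hm⟩
        = sEu A q M₁ M' el hq hNu Bu ku hBu a ⟨f, hf⟩ ^ q :=
  norm_single_wild A q M' el (M₁ * q) (M₁ * q * q) Bl kl Bu ku hNl hBl hNu hBu hq
    (heckeAlphaBar Kbar (M₁ * q) q) (arithEquivariant_alpha (M₁ * q) q)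
    (alpha_finite (M₁ * q) q) (hdegα hq) hqM hA a a ha.le hmem
    (fun x => by
      have := h.tabα a (by omega) x
      rw [min_eq_left ha.le] at this
      exact this.symm)
    (hr.redα_gt a h2 ha.le) (uniqAlpha h a ha) f hf

/-- **NORM-RED along `β`, wild shape** (`2 ≤ a`, `2 a ≤ e + 1`). -/
theorem normBeta_wild (h : CoverInputs A q M₁ M' el hq hNl hNu Bl kl hBl Bu ku hBu)
    (hr : RedInputs A q M₁ M' el hq hNl hNu Bl kl hBl Bu ku hBu)
    (hqM : ¬ q ∣ M') (hA : A.LiesOverPrime q) (a : ℕ) (ha2 : 2 ≤ a) (h2 : 2 * a ≤ el + 1)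
    (hmem : ∀ x : ↥(VEu A q M₁ M' el hq hNu Bu ku hBu a),
      sEu A q M₁ M' el hq hNu Bu ku hBu a x ∈ modularFunctionFieldFullC (kV A) M')
    (f : ↥(L0 A (M₁ * q * q))) (hf : f ∈ VEu A q M₁ M' el hq hNu Bu ku hBu a) :
    ∃ hm : NβE A q M₁ f ∈ VEl A q M₁ M' el hq hNl Bl kl hBl (a - 1),
      sEl A q M₁ M' el hq hNl Bl kl hBl (a - 1) ⟨_, hm⟩
        = sEu A q M₁ M' el hq hNu Bu ku hBu a ⟨f, hf⟩ ^ q :=
  norm_single_wild A q M' el (M₁ * q) (M₁ * q * q) Bl kl Bu ku hNl hBl hNu hBu hq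
    (heckeBetaBar Kbar (M₁ * q) q) (arithEquivariant_beta (M₁ * q) q)
    (beta_finite (M₁ * q) q) (hdegβ hq) hqM hA a (a - 1) (by omega) hmem
    (fun x => (h.tabβ a (by omega) x).symm)
    (hr.redβ_le a (by omega) h2) (uniqBeta h a ha2 (by omega)) f hf

/-- **NORM-RED along `β`, inseparable shape** (`a ≤ e + 1`, `e + 2 ≤ 2 a`). -/
theorem normBeta_insep (h : CoverInputs A q M₁ M' el hq hNl hNu Bl kl hBl Bu ku hBu)
    (hr : RedInputs A q M₁ M' el hq hNl hNu Bl kl hBl Bu ku hBu)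
    (hqM : ¬ q ∣ M') (hA : A.LiesOverPrime q) (a : ℕ) (ha2 : 2 ≤ a) (ha : a ≤ el + 1)
    (h2 : el + 2 ≤ 2 * a)
    (hmem : ∀ x : ↥(VEu A q M₁ M' el hq hNu Bu ku hBu a),
      sEu A q M₁ M' el hq hNu Bu ku hBu a x ∈ modularFunctionFieldFullC (kV A) M')
    (f : ↥(L0 A (M₁ * q * q))) (hf : f ∈ VEu A q M₁ M' el hq hNu Bu ku hBu a) :
    ∃ hm : NβE A q M₁ f ∈ VEl A q M₁ M' el hq hNl Bl kl hBl (a - 1),
      qExpand (kV A) q (sEl A q M₁ M' el hq hNl Bl kl hBl (a - 1) ⟨_, hm⟩)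
        = sEu A q M₁ M' el hq hNu Bu ku hBu a ⟨f, hf⟩ ^ q :=
  norm_single_insep A q M' el (M₁ * q) (M₁ * q * q) Bl kl Bu ku hNl hBl hNu hBu hq
    (heckeBetaBar Kbar (M₁ * q) q) (arithEquivariant_beta (M₁ * q) q)
    (beta_finite (M₁ * q) q) (hdegβ hq) hqM hA a (a - 1) (by omega) hmem
    (fun x => (h.tabβ a ha x).symm)
    (hr.redβ_gt a h2 ha) (uniqBeta h a ha2 ha) f hf

/-- **UNIT along `α`**: the norm of a unit for all the valuations of the upper level is a unit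
for all the valuations of the lower level. -/
theorem unitAlpha (h : CoverInputs A q M₁ M' el hq hNl hNu Bl kl hBl Bu ku hBu)
    (f : ↥(L0 A (M₁ * q * q)))
    (hu : ∀ a, a ≤ el + 1 → f ∈ VEu A q M₁ M' el hq hNu Bu ku hBu a)
    (hu' : ∀ a, a ≤ el + 1 → f⁻¹ ∈ VEu A q M₁ M' el hq hNu Bu ku hBu a)
    (a' : ℕ) (ha' : a' ≤ el) :
    NαE A q M₁ f ∈ VEl A q M₁ M' el hq hNl Bl kl hBl a'
      ∧ (NαE A q M₁ f)⁻¹ ∈ VEl A q M₁ M' el hq hNl Bl kl hBl a' :=
  unit_of_cover A (heckeAlphaBar Kbar (M₁ * q) q) (arithEquivariant_alpha (M₁ * q) q)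
    (alpha_finite (M₁ * q) q) _
    (fun a : Fin (el + 2) => VEu A q M₁ M' el hq hNu Bu ku hBu (a : ℕ))
    (fun W' hW' htop => by
      obtain ⟨a, ha, hWa, -⟩ := h.fibre_alpha a' ha' W' htop hW'
      exact ⟨⟨a, Nat.lt_succ_iff.2 ha⟩, hWa⟩)
    f (fun a => hu a (Nat.lt_succ_iff.1 a.2)) (fun a => hu' a (Nat.lt_succ_iff.1 a.2))

/-- **UNIT along `β`.** -/
theorem unitBeta (h : CoverInputs A q M₁ M' el hq hNl hNu Bl kl hBl Bu ku hBu)
    (f : ↥(L0 A (M₁ * q * q)))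
    (hu : ∀ a, a ≤ el + 1 → f ∈ VEu A q M₁ M' el hq hNu Bu ku hBu a)
    (hu' : ∀ a, a ≤ el + 1 → f⁻¹ ∈ VEu A q M₁ M' el hq hNu Bu ku hBu a)
    (a' : ℕ) (ha' : a' ≤ el) :
    NβE A q M₁ f ∈ VEl A q M₁ M' el hq hNl Bl kl hBl a'
      ∧ (NβE A q M₁ f)⁻¹ ∈ VEl A q M₁ M' el hq hNl Bl kl hBl a' :=
  unit_of_cover A (heckeBetaBar Kbar (M₁ * q) q) (arithEquivariant_beta (M₁ * q) q)
    (beta_finite (M₁ * q) q) _
    (fun a : Fin (el + 2) => VEu A q M₁ M' el hq hNu Bu ku hBu (a : ℕ))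
    (fun W' hW' htop => by
      obtain ⟨a, ha, hWa, -⟩ := h.fibre_beta a' ha' W' htop hW'
      exact ⟨⟨a, Nat.lt_succ_iff.2 ha⟩, hWa⟩)
    f (fun a => hu a (Nat.lt_succ_iff.1 a.2)) (fun a => hu' a (Nat.lt_succ_iff.1 a.2))

end Final

end Fermat.Agent.S45.NUE.H33

end
end
-- ==== END Fermat.Agent.S45.NUE.H33_NormFinal

-- ==== BEGIN Fermat.Agent.S45.NUE.H82_EwEVal
section

/-!
# S45 / NU_e, package E-CUSP / E-EPS (helper82): the witnesses `EwE a` at the `e + 1` valuations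

Level `N = M q^e`, `1 ≤ e`.  The four targets of `H82_EwE.lean`:

* `stmt_EwE_mem : Stmt_EwE_mem ..` : `EwE a ∈ V_b` for all `a, b ≤ e`;
* `stmt_EwE_inv : Stmt_EwE_inv ..` : `(EwE a)⁻¹ ∈ V_a`;
* `stmt_EwE_div : Stmt_EwE_div ..` : `a ≠ b → ∃ f' ∈ V_b, EwE a = q * f'`;
* `stmt_EwE_red : Stmt_EwE_red ..` (over `q`): `s_a (EwE a) = (HU (s^(q^(max a (e - a) - 1)))) ^ c_a`.

The expansions behind them: `cE_EwF_self`, `cE_EwF_off`.
-/

set_option autoImplicit false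
set_option synthInstance.maxHeartbeats 400000
set_option maxHeartbeats 1000000
set_option linter.unusedSectionVars false
set_option linter.unusedVariables false
set_option linter.style.haveILetI false

noncomputable section

open ModularCurve
open Fermat.Agent.S24 Fermat.Agent.BAD.H88 Fermat.Agent.BAD.H30
open Fermat.Agent.S28 Fermat.Agent.S28.H73
open Fermat.Agent.S36.NU.H88 Fermat.Agent.S36.NU.H23
open Fermat.Agent.S45.NUE.H73
open Fermat.Agent.RED.H73 (GaussUnit)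
open scoped MatrixGroups

namespace Fermat.Agent.S45.NUE.H82

section Red

variable (A : ValuationSubring Kbar)

theorem gaussRedV_congr82 {x y : LaurentSeries Kbar} (hxy : x = y) (hx : x ∈ gaussRingV A)
    (hy : y ∈ gaussRingV A) : gaussRedV A ⟨x, hx⟩ = gaussRedV A ⟨y, hy⟩ := by
  subst hxy
  rfl

theorem gaussRedV_mul82 {x y : LaurentSeries Kbar} (hx : x ∈ gaussRingV A)
    (hy : y ∈ gaussRingV A) (hxy : x * y ∈ gaussRingV A) :
    gaussRedV A ⟨x * y, hxy⟩ = gaussRedV A ⟨x, hx⟩ * gaussRedV A ⟨y, hy⟩ := by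
  have e : (⟨x * y, hxy⟩ : ↥(gaussRingV A)) = ⟨x, hx⟩ * ⟨y, hy⟩ := Subtype.ext rfl
  rw [e, map_mul]

end Red

section Main

variable (A : ValuationSubring Kbar)
variable (N q M e : ℕ) (B k : ℤ) (hN : N = M * q ^ e) (hB : B * M + k * (q : ℤ) ^ e = 1)
  (hq : q.Prime) [NeZero N] [NeZero q]

open Fermat.Agent.S45.NUE.H23 (cE VE sE)

theorem cE_cqN_pow (b : ℕ) :
    _root_.Fermat.Agent.S45.NUE.H23.cE N q M e B k hN hB hq b (cqN N q ^ 12) = HahnSeries.C ((q : Kbar) ^ 12) := by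
  rw [map_pow, cqN, AlgHom.commutes, ← map_pow, algebraMap_laurentSeries_eq_single]
  rfl

include hq in
theorem C_q_pow_ne_zero : (HahnSeries.C ((q : Kbar) ^ 12) : LaurentSeries Kbar) ≠ 0 := by
  rw [Ne, map_eq_zero]
  exact pow_ne_zero _ (Nat.cast_ne_zero.mpr hq.ne_zero)

theorem cE_of_inv_form (b : ℕ) (x : FN N) (W : LaurentSeries Kbar)
    (h : _root_.Fermat.Agent.S45.NUE.H23.cE N q M e B k hN hB hq b (cqN N q ^ 12 * x⁻¹) = W) :
    _root_.Fermat.Agent.S45.NUE.H23.cE N q M e B k hN hB hq b x = HahnSeries.C ((q : Kbar) ^ 12) * W⁻¹ := by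
  have hC0 := C_q_pow_ne_zero q hq
  rw [← h, map_mul, map_inv₀, cE_cqN_pow, mul_inv, inv_inv, ← mul_assoc, mul_inv_cancel₀ hC0,
    one_mul]

/-- **The expansion of the witness of `a` at its own cusp.** -/
theorem cE_EwF_self (he : 1 ≤ e) (a : ℕ) (ha : a ≤ e) :
    ∃ z₁ z₂ : Kbar, z₁ ^ (q ^ e) = 1 ∧ z₂ ^ (q ^ e) = 1 ∧
      _root_.Fermat.Agent.S45.NUE.H23.cE N q M e B k hN hB hq a (EwF N q e a)
        = WU q z₁ (max a (e - a) - 1)
          * (if a = 0 ∨ a = e then 1 else WU q z₂ (max a (e - a) - 1)) := by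
  by_cases ha0 : a = 0
  · subst ha0
    have h0 : q ^ (0 + 1) ∣ N := pow_succ_dvd_lvl N q M e hN 0 (by omega)
    obtain ⟨z, hz, hexp⟩ := uexp_gt N q M e B k hN hB hq 0 0 le_rfl (by omega) h0
    refine ⟨z, 1, hz, one_pow _, ?_⟩
    rw [if_pos (Or.inl rfl), mul_one, EwF_zero, epsT_eq N q 0 h0, hexp]
    exact congrArg (WU q z) (by omega)
  · by_cases hae : a = e
    · subst hae
      have h1 : q ^ (a - 1 + 1) ∣ N := pow_succ_dvd_lvl N q M a hN (a - 1) (by omega)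
      refine ⟨1, 1, one_pow _, one_pow _, ?_⟩
      rw [if_pos (Or.inr rfl), mul_one, EwF_top N q a ha0, epsT_eq N q (a - 1) h1,
        uexp_le N q M a B k hN hB hq (a - 1) a (by omega) le_rfl h1]
      exact congrArg (WU q 1) (by omega)
    · have h1 : q ^ (a - 1 + 1) ∣ N := pow_succ_dvd_lvl N q M e hN (a - 1) (by omega)
      have h2 : q ^ (a + 1) ∣ N := pow_succ_dvd_lvl N q M e hN a (by omega)
      have e1 := uexp_le N q M e B k hN hB hq (a - 1) a (by omega) ha h1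
      obtain ⟨z, hz, e2⟩ := uexp_gt N q M e B k hN hB hq a a le_rfl (by omega) h2
      refine ⟨1, z, one_pow _, hz, ?_⟩
      have e3 : EwF N q e a = epsN N q (a - 1) h1 * (cqN N q ^ 12 * (epsN N q a h2)⁻¹) := by
        rw [EwF_mid N q e a ha0 hae, epsT_eq N q (a - 1) h1, epsT_eq N q a h2]
        ring
      rw [if_neg (not_or.2 ⟨ha0, hae⟩), e3, map_mul, e1, e2,
        show e - 2 * a + (a - 1) = max a (e - a) - 1 by omega,
        show max e (2 * a) - a - 1 = max a (e - a) - 1 by omega]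

/-- **The expansion of the witness of `a` at the other cusps**: `q¹²` times a unit. -/
theorem cE_EwF_off (he : 1 ≤ e) (a b : ℕ) (ha : a ≤ e) (hb : b ≤ e) (hab : a ≠ b) :
    ∃ u : LaurentSeries Kbar, GaussUnit A u ∧
      _root_.Fermat.Agent.S45.NUE.H23.cE N q M e B k hN hB hq b (EwF N q e a) = HahnSeries.C ((q : Kbar) ^ 12) * u := by
  have hn : q ^ e ≠ 0 := pow_ne_zero _ hq.ne_zero
  have hW1 : ∀ m, GaussUnit A (WU q 1 m) := fun m => gaussUnit_WU A q 1 1 one_ne_zero (one_pow 1) m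
  by_cases ha0 : a = 0
  · subst ha0
    have h0 : q ^ (0 + 1) ∣ N := pow_succ_dvd_lvl N q M e hN 0 (by omega)
    have e1 := uexp_le N q M e B k hN hB hq 0 b (by omega) hb h0
    refine ⟨(WU q 1 (e - 2 * b + 0))⁻¹, (hW1 _).inv, ?_⟩
    rw [EwF_zero, epsT_eq N q 0 h0, map_mul, map_inv₀, cE_cqN_pow, e1]
  · by_cases hae : a = e
    · subst hae
      have h1 : q ^ (a - 1 + 1) ∣ N := pow_succ_dvd_lvl N q M a hN (a - 1) (by omega)
      obtain ⟨z, hz, e2⟩ := uexp_gt N q M a B k hN hB hq (a - 1) b (by omega) (by omega) h1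
      refine ⟨(WU q z (max a (2 * b) - (a - 1) - 1))⁻¹, (gaussUnit_WU A q z _ hn hz _).inv, ?_⟩
      rw [EwF_top N q a ha0, epsT_eq N q (a - 1) h1]
      exact cE_of_inv_form N q M a B k hN hB hq b _ _ e2
    · have h1 : q ^ (a - 1 + 1) ∣ N := pow_succ_dvd_lvl N q M e hN (a - 1) (by omega)
      have h2 : q ^ (a + 1) ∣ N := pow_succ_dvd_lvl N q M e hN a (by omega)
      have e3 : EwF N q e a = epsN N q (a - 1) h1 * (cqN N q ^ 12 * (epsN N q a h2)⁻¹) := by
        rw [EwF_mid N q e a ha0 hae, epsT_eq N q (a - 1) h1, epsT_eq N q a h2]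
        ring
      have e4 : EwF N q e a = cqN N q ^ 12 * (epsN N q (a - 1) h1 * (epsN N q a h2)⁻¹) := by
        rw [EwF_mid N q e a ha0 hae, epsT_eq N q (a - 1) h1, epsT_eq N q a h2]
        ring
      rcases Nat.lt_or_ge b a with hba | hba
      · obtain ⟨z₁, hz₁, f1⟩ :=
          uexp_gt N q M e B k hN hB hq (a - 1) b (by omega) (by omega) h1
        obtain ⟨z₂, hz₂, f2⟩ := uexp_gt N q M e B k hN hB hq a b (by omega) (by omega) h2
        refine ⟨(WU q z₁ (max e (2 * b) - (a - 1) - 1))⁻¹ * WU q z₂ (max e (2 * b) - a - 1),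
          (gaussUnit_WU A q z₁ _ hn hz₁ _).inv.mul (gaussUnit_WU A q z₂ _ hn hz₂ _), ?_⟩
        rw [e3, map_mul, f2, cE_of_inv_form N q M e B k hN hB hq b _ _ f1, mul_assoc]
      · have f1 := uexp_le N q M e B k hN hB hq (a - 1) b (by omega) hb h1
        have f2 := uexp_le N q M e B k hN hB hq a b (by omega) hb h2
        refine ⟨WU q 1 (e - 2 * b + (a - 1)) * (WU q 1 (e - 2 * b + a))⁻¹,
          (hW1 _).mul (hW1 _).inv, ?_⟩
        rw [e4, map_mul, map_mul, map_inv₀, cE_cqN_pow, f1, f2]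

/-! ## The four targets -/

theorem C_q_pow_eq : (HahnSeries.C ((q : Kbar) ^ 12) : LaurentSeries Kbar)
    = ((q : ℕ) : LaurentSeries Kbar) ^ 12 := by
  rw [map_pow, map_natCast]

theorem gaussUnit_self_form (z₁ z₂ : Kbar) (h1 : z₁ ^ (q ^ e) = 1) (h2 : z₂ ^ (q ^ e) = 1)
    (a m : ℕ) : GaussUnit A (WU q z₁ m * (if a = 0 ∨ a = e then 1 else WU q z₂ m)) := by
  have hn : q ^ e ≠ 0 := pow_ne_zero _ (NeZero.ne q)
  split_ifs
  · exact (gaussUnit_WU A q z₁ _ hn h1 m).mul (Fermat.Agent.RED.H73.gaussUnit_one A)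
  · exact (gaussUnit_WU A q z₁ _ hn h1 m).mul (gaussUnit_WU A q z₂ _ hn h2 m)

/-- **(E-EPS i)** -/
theorem stmt_EwE_mem (he : 1 ≤ e) : Stmt_EwE_mem A N q M e B k hN hB hq := by
  intro a b ha hb
  rw [Fermat.Agent.S45.NUE.H23.mem_VE_iff]
  show _root_.Fermat.Agent.S45.NUE.H23.cE N q M e B k hN hB hq b (EwF N q e a) ∈ gaussRingV A
  by_cases hab : a = b
  · subst hab
    obtain ⟨z₁, z₂, h1, h2, hexp⟩ := cE_EwF_self N q M e B k hN hB hq he a ha
    rw [hexp]
    exact (gaussUnit_self_form A q e z₁ z₂ h1 h2 a _).mem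
  · obtain ⟨u, hu, hexp⟩ := cE_EwF_off A N q M e B k hN hB hq he a b ha hb hab
    rw [hexp, C_q_pow_eq]
    exact mul_mem (pow_mem (natCast_mem _ q) 12) hu.mem

/-- **(E-EPS i')** -/
theorem stmt_EwE_inv (he : 1 ≤ e) : Stmt_EwE_inv A N q M e B k hN hB hq := by
  intro a ha
  rw [Fermat.Agent.S45.NUE.H23.mem_VE_iff]
  show _root_.Fermat.Agent.S45.NUE.H23.cE N q M e B k hN hB hq a (EwF N q e a)⁻¹ ∈ gaussRingV A
  obtain ⟨z₁, z₂, h1, h2, hexp⟩ := cE_EwF_self N q M e B k hN hB hq he a ha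
  rw [map_inv₀, hexp]
  exact (gaussUnit_self_form A q e z₁ z₂ h1 h2 a _).inv.mem

/-- **(E-EPS ii)** -/
theorem stmt_EwE_div (he : 1 ≤ e) : Stmt_EwE_div A N q M e B k hN hB hq := by
  intro a b ha hb hab
  have hq0 : ((q : ℕ) : ↥(L0 A N)) ≠ 0 := Nat.cast_ne_zero.2 hq.ne_zero
  refine ⟨((q : ℕ) : ↥(L0 A N))⁻¹ * EwE A N q e a, ?_, ?_⟩
  · rw [Fermat.Agent.S45.NUE.H23.mem_VE_iff]
    show _root_.Fermat.Agent.S45.NUE.H23.cE N q M e B k hN hB hq b (((q : ℕ) : FN N)⁻¹ * EwF N q e a) ∈ gaussRingV A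
    obtain ⟨u, hu, hexp⟩ := cE_EwF_off A N q M e B k hN hB hq he a b ha hb hab
    have hqK : ((q : ℕ) : Kbar) ≠ 0 := Nat.cast_ne_zero.2 hq.ne_zero
    have hC : (HahnSeries.C ((q : ℕ) : Kbar) : LaurentSeries Kbar) ≠ 0 := by
      rw [Ne, map_eq_zero]
      exact hqK
    have e0 : ((q : ℕ) : LaurentSeries Kbar) = HahnSeries.C ((q : ℕ) : Kbar) :=
      (map_natCast (HahnSeries.C : Kbar →+* LaurentSeries Kbar) q).symm
    have e1 : (HahnSeries.C ((q : ℕ) : Kbar) : LaurentSeries Kbar)⁻¹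
          * (HahnSeries.C ((q : Kbar) ^ 12) * u)
        = HahnSeries.C ((q : Kbar) ^ 11) * u := by
      rw [show (12 : ℕ) = 11 + 1 from rfl, pow_succ, map_mul,
        mul_comm (HahnSeries.C ((q : Kbar) ^ 11)) (HahnSeries.C ((q : ℕ) : Kbar)),
        mul_assoc, ← mul_assoc, inv_mul_cancel₀ hC, one_mul]
    rw [map_mul, map_inv₀, map_natCast, hexp, e0, e1]
    exact mul_mem (const_mem82 A _ (pow_mem (natCast_mem A q) 11)) hu.mem
  · rw [← mul_assoc, mul_inv_cancel₀ hq0, one_mul]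

/-- **(E-EPS iii)** the reduction of the witness of `a` at `V_a`, over `q`. -/
theorem stmt_EwE_red (he : 1 ≤ e) (hA : A.LiesOverPrime q) :
    Stmt_EwE_red A N q M e B k hN hB hq := by
  intro a ha h
  have hn : q ^ e ≠ 0 := pow_ne_zero _ hq.ne_zero
  obtain ⟨z₁, z₂, h1, h2, hexp⟩ := cE_EwF_self N q M e B k hN hB hq he a ha
  have hW₁ := (gaussUnit_WU A q z₁ _ hn h1 (max a (e - a) - 1)).mem
  have hW₂ := (gaussUnit_WU A q z₂ _ hn h2 (max a (e - a) - 1)).mem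
  have hs : _root_.Fermat.Agent.S45.NUE.H23.sE A N q M e B k hN hB hq a ⟨EwE A N q e a, h⟩
      = gaussRedV A ⟨_root_.Fermat.Agent.S45.NUE.H23.cE N q M e B k hN hB hq a (EwF N q e a), h⟩ := rfl
  rw [hs]
  by_cases hc : a = 0 ∨ a = e
  · rw [if_pos hc, mul_one] at hexp
    rw [cEw, if_pos hc, pow_one, gaussRedV_congr82 A hexp h hW₁,
      gaussRedV_WU A q hq hA z₁ e h1 _ hW₁]
  · rw [if_neg hc] at hexp
    rw [cEw, if_neg hc, gaussRedV_congr82 A hexp h (mul_mem hW₁ hW₂),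
      gaussRedV_mul82 A hW₁ hW₂, gaussRedV_WU A q hq hA z₁ e h1 _ hW₁,
      gaussRedV_WU A q hq hA z₂ e h2 _ hW₂, sq]

end Main

end Fermat.Agent.S45.NUE.H82

end
end
-- ==== END Fermat.Agent.S45.NUE.H82_EwEVal

-- ==== BEGIN Fermat.Agent.S45.NUE.H99_OrdE
section

/-!
# S45 / NU_e, leaf E-PT-ORD (helper99): the local equation data at the ordinary points

`N = M q^e`, `C` a chart of the inertia-fixed functions of level `N` whose valuation rings are
helper23's `VE (idx i)` (`ChartE`: the chart criterion for the integral closure of `K^ur[j]`,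
the ramification indices `φ(q^min(a, e - a))`), witnesses `EwE a` (helper82).

* `rd_eq_of_sRed`, `locEq_ord_of_red` : the abstract certificate through a reduction map;
* `ChartE`, `ChartE.witE` : the hypotheses on the chart, the witnesses in `B`;
* `MidCertE a` : **the certificate of the component `0 < a < e`** (a statement on the level
  `N` only, no chart): a coordinate `f` of level `M` with integral expansion, horizontal
  integrality of `π_a(f)`, a unit `U` and the identity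
  `(s_a(EwE a) · ε̄ (θ ū₀ (s^(q^δ)))^φ)^m = c · s_a(EwE a)^n · s_a(U)` in `k((s))`;
* `ordEndE` (components `a = 0, e`), `ordMidE` (components `0 < a < e`);
* **`hordE`** : the hypothesis `hord` of `H88.pointDataE_of_dichotomy`.
-/

set_option autoImplicit false
set_option synthInstance.maxHeartbeats 400000
set_option maxHeartbeats 1000000
set_option linter.unusedSectionVars false
set_option linter.unusedVariables false
set_option linter.style.haveILetI false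

noncomputable section

open ModularCurve AlgebraicCurve IntermediateField
open Fermat.Agent.S24 Fermat.Agent.BAD.H88 Fermat.Agent.BAD.H30 Fermat.Agent.BAD.H21
open Fermat.Agent.S28 Fermat.Agent.S28.H73 Fermat.Agent.RED.H73 Fermat.Agent.RED.H17
open Fermat.Agent.S36.NU Fermat.Agent.S36.NU.H88 Fermat.Agent.S36.NU.H23
open Fermat.Agent.S36.NU.H41 Fermat.Agent.RED

namespace Fermat.Agent.S45.NUE.H99

open Fermat.Agent.S36.NU.H16 (Chart LocEq)
open Fermat.Agent.S36.NU.H99 (ValE locEq_ord_crit_mid locEq_ord_crit_one not_mem_of_rdB_eq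
  not_mem_of_mul_eq_one pow_not_mem mul_not_mem mem_nonunits_of_map_eq_zero
  isIntegral_Kur_of_bar isIntegral_bar_of_unitOff IsUnitOff isUnitOff_const isUnitOff_unitF)
open Fermat.Agent.S45.NUE.H23 (VE sE)
open Fermat.Agent.S45.NUE.H73 (dE)
open Fermat.Agent.S45.NUE.H82 (EwE EwF cEw HUk Stmt_EwE_mem Stmt_EwE_div Stmt_EwE_red)

/-! ## The abstract certificate -/

section Abs

variable {R F k ι : Type*} {κ : ι → Type*} [CommRing R] [Field F] [Algebra R F]
  [Field k] [∀ i, Field (κ i)] [∀ i, Algebra k (κ i)]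

variable (C : Chart R F k ι κ)

/-- Equality of the residues at `V i` from a reduction map `s` of `V i`. -/
theorem rd_eq_of_sRed (i : ι) {S : Type*} [CommRing S] [Nontrivial S]
    (s : ↥(C.V i) →+* S) {x y : F} (hx : x ∈ C.V i) (hy : y ∈ C.V i)
    (h : s ⟨x, hx⟩ = s ⟨y, hy⟩) : C.rd i x = C.rd i y := by
  have hsub : x - y ∈ (C.V i).nonunits := by
    refine mem_nonunits_of_map_eq_zero (C.V i) s ⟨x - y, sub_mem hx hy⟩ ?_
    have e : (⟨x - y, sub_mem hx hy⟩ : ↥(C.V i)) = ⟨x, hx⟩ - ⟨y, hy⟩ := rfl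
    rw [e, map_sub, h, sub_self]
  have h0 := (C.rd_eq_zero_iff i (sub_mem hx hy)).2 hsub
  rw [C.rd_sub i hx hy] at h0
  exact sub_eq_zero.1 h0

variable [Fintype ι] [DecidableEq ι] (q : R)

/-- **Ordinary point of a component of multiplicity `e i`**, the certificate
`(s W' · s f')^m = c · s Y` (`c ≠ 0` a constant, `Y ∉ 𝔪`) being read through a reduction map
`s` of `V i`. -/
theorem locEq_ord_of_red (hq0 : algebraMap R F q ≠ 0)
    (hqV : ∀ i, algebraMap R F q ∈ (C.V i).nonunits)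
    (H : Subring F) (hBH : ∀ x ∈ C.B, x ∈ H) (hqH : (algebraMap R F q)⁻¹ ∈ H)
    (crit : ∀ f ∈ H, (∀ i, f ∈ C.V i) → f ∈ C.B)
    (e : ι → ℕ) (hE : ValE C q e)
    (𝔪 : Ideal C.B) [h𝔪 : 𝔪.IsPrime] (i : ι) (hi : C.Icomp i ≤ 𝔪) (he : 0 < e i)
    {S : Type*} [CommRing S] [Nontrivial S] [Algebra k S] (s : ↥(C.V i) →+* S)
    (hconst : ∀ (r : R) (h : algebraMap R F r ∈ C.V i),
      s ⟨algebraMap R F r, h⟩ = algebraMap k S (C.res r))
    (x W' : C.B) (hW' : W' ∉ 𝔪)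
    (hW'v : ∀ i', i' ≠ i → ∃ f' ∈ C.V i', (W' : F) = algebraMap R F q * f')
    (f' : F) (hf' : f' ∈ C.V i) (hxf : (x : F) ^ e i = algebraMap R F q * f')
    (m : ℕ) (hm : 0 < m) (c : k) (hc : c ≠ 0) (Y : C.B) (hY : Y ∉ 𝔪)
    (hs : (s ⟨(W' : F), C.B_le i _ W'.2⟩ * s ⟨f', hf'⟩) ^ m
      = algebraMap k S c * s ⟨(Y : F), C.B_le i _ Y.2⟩) :
    Nonempty (LocEq C q 𝔪) ∧ ∀ i', C.Icomp i' ≤ 𝔪 → i' = i := by
  obtain ⟨r, hr⟩ := C.res_surj c⁻¹
  have hrV : algebraMap R F r ∈ C.V i := C.B_le i _ (C.B.algebraMap_mem r)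
  have hWV : (W' : F) ∈ C.V i := C.B_le i _ W'.2
  refine locEq_ord_crit_mid C q hq0 hqV H hBH hqH crit e hE 𝔪 i hi he x W' hW' hW'v f' hf' hxf
    m hm (algebraMap R C.B r) Y hY ?_
  have h1 : ((W' : F) * f') ^ m * algebraMap R F r ∈ C.V i :=
    mul_mem (pow_mem (mul_mem hWV hf') m) hrV
  rw [← C.rd_coe i Y]
  refine rd_eq_of_sRed C i s h1 (C.B_le i _ Y.2) ?_
  change s ⟨((W' : F) * f') ^ m * algebraMap R F r, h1⟩ = _
  have e1 : (⟨((W' : F) * f') ^ m * algebraMap R F r, h1⟩ : ↥(C.V i))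
      = (⟨(W' : F), hWV⟩ * ⟨f', hf'⟩) ^ m * ⟨algebraMap R F r, hrV⟩ := rfl
  rw [e1, map_mul, map_pow, map_mul, hs, hconst r hrV, hr, mul_comm (algebraMap k S c) _,
    mul_assoc, ← map_mul, mul_inv_cancel₀ hc, map_one, mul_one]

end Abs

/-! ## The chart of level `M q^e` -/

section Mod

variable (A : ValuationSubring Kbar)
variable (N q M e : ℕ) (B k : ℤ) (hN : N = M * q ^ e) (hB : B * M + k * (q : ℤ) ^ e = 1)
  (hq : q.Prime) [NeZero N] [NeZero q] [NeZero M]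

variable {R ι : Type*} {κ : ι → Type*} [CommRing R] [Algebra R ↥(L0 A N)]
  [∀ i, Field (κ i)] [∀ i, Algebra (kV A) (κ i)]

/-- **The hypotheses on a chart of the inertia-fixed functions of level `N = M q^e`**: its
valuation rings are helper23's `VE (idx i)` with ramification indices
`φ(q^min(idx i, e - idx i))`, `B` is cut out of the integral closure of `K^ur[j]` by the
valuations, and the residue maps `sE` are compatible with the residue map of the constants. -/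
structure ChartE (C : Chart R ↥(L0 A N) (kV A) ι κ) (qR : R) (mult : ι → ℕ) (idx : ι → ℕ) :
    Prop where
  hqR : algebraMap R ↥(L0 A N) qR = ((q : ℕ) : ↥(L0 A N))
  hqV : ∀ i, algebraMap R ↥(L0 A N) qR ∈ (C.V i).nonunits
  crit : ∀ f : ↥(L0 A N),
    IsIntegral ↥(Algebra.adjoin ↥(Kur A) ({j0 A N} : Set ↥(L0 A N))) f →
      (∀ i, f ∈ C.V i) → f ∈ C.B
  hint : ∀ x ∈ C.B, IsIntegral ↥(Algebra.adjoin ↥(Kur A) ({j0 A N} : Set ↥(L0 A N))) x
  hE : ValE C qR mult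
  hidx : ∀ i, idx i ≤ e
  hinj : Function.Injective idx
  hmult : ∀ i, mult i = Nat.totient (q ^ min (idx i) (e - idx i))
  hV : ∀ i, C.V i = VE A N q M e B k hN hB hq (idx i)
  hconst : ∀ (i : ι) (r : R)
    (h : algebraMap R ↥(L0 A N) r ∈ VE A N q M e B k hN hB hq (idx i)),
    _root_.Fermat.Agent.S45.NUE.H23.sE A N q M e B k hN hB hq (idx i) ⟨_, h⟩
      = algebraMap (kV A) (LaurentSeries (kV A)) (C.res r)

/-- The integral closure of `K^ur[j]` in the inertia-fixed functions of level `N`. -/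
def HintE (A : ValuationSubring Kbar) (N : ℕ) [NeZero N] : Subring ↥(L0 A N) :=
  (integralClosure ↥(Algebra.adjoin ↥(Kur A) ({j0 A N} : Set ↥(L0 A N))) ↥(L0 A N)).toSubring

theorem mem_HintE {x : ↥(L0 A N)} : x ∈ HintE A N ↔
    IsIntegral ↥(Algebra.adjoin ↥(Kur A) ({j0 A N} : Set ↥(L0 A N))) x := Iff.rfl

/-- Horizontal integrality of the witnesses. -/
theorem isUnitOff_EwF (a : ℕ) : IsUnitOff N (EwF N q e a) := by
  have hc : IsUnitOff N (H82.cqN N q) :=
    isUnitOff_const (Nat.cast_ne_zero.2 (NeZero.ne q))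
  have hE : ∀ i, IsUnitOff N (H82.epsT N q i) := by
    intro i
    rw [H82.epsT]
    split_ifs with h
    · exact (isUnitOff_unitF _ _).mul (isUnitOff_unitF _ _).inv
    · exact ⟨one_ne_zero, fun P _ => P.ord_one⟩
  rw [EwF]
  split_ifs
  · exact (hc.pow 12).mul (hE 0).inv
  · exact hE _
  · exact ((hc.pow 12).mul (hE _)).mul (hE a).inv

theorem isIntegral_EwE (a : ℕ) :
    IsIntegral ↥(Algebra.adjoin ↥(Kur A) ({j0 A N} : Set ↥(L0 A N))) (EwE A N q e a) :=
  isIntegral_Kur_of_bar A _ _ (isIntegral_bar_of_unitOff (isUnitOff_EwF N q e a))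

/-- **The certificate of the component `0 < a < e`** (a statement on the level `N = M q^e`
only): a coordinate `f` of level `M` with integral expansion `u₀`, the horizontal integrality of
the local equation `π_a(f)`, a unit `U` (integral with its inverse, in every `VE b`) and the
identity `(s_a(EwE a) · ε̄ (θ ū₀ (s^(q^δ)))^φ)^m = c · s_a(EwE a)^n · s_a(U)`, `c ≠ 0`, `0 < m`,
in which `s_a(EwE a) = H₁²`, `H₁ = HU (s^(q^(max(a, e - a) - 1)))`. -/
def MidCertE (a : ℕ) (ha1 : 1 ≤ a) (hae : a < e) : Prop :=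
  ∃ (f : FN M) (u₀ : LaurentSeries ℤ) (hf : (f : LaurentSeries Kbar) = H65.intSer Kbar u₀)
    (m n : ℕ) (c : kV A) (U U' : ↥(L0 A N)),
    IsIntegral ↥(Algebra.adjoin ↥(Kur A) ({j0 A N} : Set ↥(L0 A N)))
        (piUo A N q M e hN f u₀ hf a hae.le) ∧
      0 < m ∧ c ≠ 0 ∧ U * U' = 1 ∧
      IsIntegral ↥(Algebra.adjoin ↥(Kur A) ({j0 A N} : Set ↥(L0 A N))) U ∧
      IsIntegral ↥(Algebra.adjoin ↥(Kur A) ({j0 A N} : Set ↥(L0 A N))) U' ∧
      (∀ b, b ≤ e → U ∈ VE A N q M e B k hN hB hq b ∧ U' ∈ VE A N q M e B k hN hB hq b) ∧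
      ∀ hU : U ∈ VE A N q M e B k hN hB hq a,
        haveI : NeZero (q ^ (max a (e - a) - 1)) := ⟨pow_ne_zero _ (NeZero.ne q)⟩
        haveI : NeZero (q ^ dE e a) := ⟨pow_ne_zero _ (NeZero.ne q)⟩
        (qExpand (kV A) (q ^ (max a (e - a) - 1)) (HUk A q) ^ 2
            * (algebraMap (kV A) (LaurentSeries (kV A))
                (resV A ⟨epsU q e a B, epsU_mem A q M e B k hB hq a ha1 hae⟩)
              * qExpand (kV A) (q ^ dE e a)
                  (Fermat.Agent.S36.NU.H73.thetaL (coeffMap (Int.castRingHom (kV A)) u₀))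
                  ^ Nat.totient (q ^ min a (e - a)))) ^ m
          = algebraMap (kV A) (LaurentSeries (kV A)) c
            * (qExpand (kV A) (q ^ (max a (e - a) - 1)) (HUk A q) ^ 2) ^ n
            * _root_.Fermat.Agent.S45.NUE.H23.sE A N q M e B k hN hB hq a ⟨U, hU⟩

namespace ChartE

variable {A N q M e B k hN hB hq}
variable {C : Chart R ↥(L0 A N) (kV A) ι κ} {qR : R} {mult : ι → ℕ} {idx : ι → ℕ}
  (S : ChartE A N q M e B k hN hB hq C qR mult idx)

include S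

theorem hq0 (hq' : q.Prime) : algebraMap R ↥(L0 A N) qR ≠ 0 := by
  rw [S.hqR]
  exact Nat.cast_ne_zero.2 hq'.ne_zero

theorem hBH : ∀ x ∈ C.B, x ∈ HintE A N := S.hint

theorem hqH (hq' : q.Prime) : (algebraMap R ↥(L0 A N) qR)⁻¹ ∈ HintE A N := by
  rw [S.hqR, mem_HintE]
  have e1 : (((q : ℕ) : ↥(L0 A N)))⁻¹
      = algebraMap ↥(Algebra.adjoin ↥(Kur A) ({j0 A N} : Set ↥(L0 A N))) ↥(L0 A N)
        (algebraMap ↥(Kur A) _ (((q : ℕ) : ↥(Kur A)))⁻¹) := by
    rw [← IsScalarTower.algebraMap_apply, map_inv₀, map_natCast]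
  rw [e1]
  exact isIntegral_algebraMap

theorem critH : ∀ f ∈ HintE A N, (∀ i, f ∈ C.V i) → f ∈ C.B := fun f hf h => S.crit f hf h

/-- Membership in `B` from horizontal integrality and the valuations `VE b`, `b ≤ e`. -/
theorem mem_B {x : ↥(L0 A N)}
    (hx : IsIntegral ↥(Algebra.adjoin ↥(Kur A) ({j0 A N} : Set ↥(L0 A N))) x)
    (hV : ∀ b, b ≤ e → x ∈ VE A N q M e B k hN hB hq b) : x ∈ C.B :=
  S.crit x hx fun i => by
    rw [S.hV i]
    exact hV _ (S.hidx i)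

/-- The witnesses lie in `B`. -/
theorem EwE_mem_B (hmem : Stmt_EwE_mem A N q M e B k hN hB hq) (a : ℕ) (ha : a ≤ e) :
    EwE A N q e a ∈ C.B :=
  S.mem_B (isIntegral_EwE A N q e a) fun b hb => hmem a b ha hb

/-- **The ordinary witnesses** of the chart. -/
def witE (hmem : Stmt_EwE_mem A N q M e B k hN hB hq) (i : ι) : C.B :=
  ⟨EwE A N q e (idx i), S.EwE_mem_B hmem (idx i) (S.hidx i)⟩

theorem coe_witE (hmem : Stmt_EwE_mem A N q M e B k hN hB hq) (i : ι) :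
    ((S.witE hmem i : C.B) : ↥(L0 A N)) = EwE A N q e (idx i) := rfl

/-- The witness of `i` is divisible by `q` at the other components. -/
theorem witE_div (hmem : Stmt_EwE_mem A N q M e B k hN hB hq)
    (hdiv : Stmt_EwE_div A N q M e B k hN hB hq) (i i' : ι) (hi : i' ≠ i) :
    ∃ f' ∈ C.V i', ((S.witE hmem i : C.B) : ↥(L0 A N)) = algebraMap R ↥(L0 A N) qR * f' := by
  obtain ⟨f', hf', hE⟩ := hdiv (idx i) (idx i') (S.hidx i) (S.hidx i')
    (fun h => hi (S.hinj h).symm)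
  refine ⟨f', ?_, ?_⟩
  · rw [S.hV i']
    exact hf'
  · rw [S.hqR, coe_witE]
    exact hE

/-- The reduction map of the component `i`, through `sE`. -/
def sC (i : ι) : ↥(C.V i) →+* LaurentSeries (kV A) :=
  (_root_.Fermat.Agent.S45.NUE.H23.sE A N q M e B k hN hB hq (idx i)).comp
    (ValuationSubring.inclusion _ _ (le_of_eq (S.hV i)))

theorem sC_mk (i : ι) (x : ↥(L0 A N)) (hx : x ∈ C.V i)
    (hx' : x ∈ VE A N q M e B k hN hB hq (idx i)) :
    S.sC i ⟨x, hx⟩ = _root_.Fermat.Agent.S45.NUE.H23.sE A N q M e B k hN hB hq (idx i) ⟨x, hx'⟩ := rfl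

theorem sC_const (i : ι) (r : R) (h : algebraMap R ↥(L0 A N) r ∈ C.V i) :
    S.sC i ⟨algebraMap R ↥(L0 A N) r, h⟩
      = algebraMap (kV A) (LaurentSeries (kV A)) (C.res r) := by
  have h' : algebraMap R ↥(L0 A N) r ∈ VE A N q M e B k hN hB hq (idx i) := by
    rw [← S.hV i]
    exact h
  rw [S.sC_mk i _ h h']
  exact S.hconst i r h'

end ChartE

section Ord

variable [Fintype ι] [DecidableEq ι]
variable {A N q M e B k hN hB hq}
variable {C : Chart R ↥(L0 A N) (kV A) ι κ} {qR : R} {mult : ι → ℕ} {idx : ι → ℕ}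
  (S : ChartE A N q M e B k hN hB hq C qR mult idx)

include hq in
/-- **Ordinary points of the components `a = 0` and `a = e`** (multiplicity one). -/
theorem ordEndE (hmem : Stmt_EwE_mem A N q M e B k hN hB hq)
    (hdiv : Stmt_EwE_div A N q M e B k hN hB hq)
    (𝔪 : Ideal C.B) [h𝔪 : 𝔪.IsPrime] (i : ι) (hi : C.Icomp i ≤ 𝔪)
    (hend : idx i = 0 ∨ idx i = e) (hw : S.witE hmem i ∉ 𝔪) :
    Nonempty (LocEq C qR 𝔪) ∧ ∀ i', C.Icomp i' ≤ 𝔪 → i' = i := by
  have he : mult i = 1 := by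
    rw [S.hmult i]
    have h0 : min (idx i) (e - idx i) = 0 := by
      rcases hend with h | h
      · rw [h]; exact Nat.zero_min _
      · rw [h, Nat.sub_self]; exact Nat.min_zero _
    rw [h0, pow_zero, Nat.totient_one]
  exact locEq_ord_crit_one C qR (S.hq0 hq) S.hqV (HintE A N) S.hBH (S.hqH hq) S.critH mult S.hE
    𝔪 i hi he (S.witE hmem i) hw (fun i' hi' => S.witE_div hmem hdiv i i' hi')

include hq in
/-- **Ordinary points of the components `0 < a < e`**, from the certificate. -/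
theorem ordMidE (hA : (q : Kbar) ∈ A.nonunits)
    (hmem : Stmt_EwE_mem A N q M e B k hN hB hq)
    (hdiv : Stmt_EwE_div A N q M e B k hN hB hq)
    (hred : Stmt_EwE_red A N q M e B k hN hB hq)
    (𝔪 : Ideal C.B) [h𝔪 : 𝔪.IsPrime] (i : ι) (hi : C.Icomp i ≤ 𝔪)
    (ha1 : 1 ≤ idx i) (hae : idx i < e)
    (hcert : MidCertE A N q M e B k hN hB hq (idx i) ha1 hae)
    (hw : S.witE hmem i ∉ 𝔪) :
    Nonempty (LocEq C qR 𝔪) ∧ ∀ i', C.Icomp i' ≤ 𝔪 → i' = i := by
  haveI : NeZero (q ^ (max (idx i) (e - idx i) - 1)) := ⟨pow_ne_zero _ (NeZero.ne q)⟩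
  haveI : NeZero (q ^ dE e (idx i)) := ⟨pow_ne_zero _ (NeZero.ne q)⟩
  obtain ⟨f, u₀, hf, m, n, c, U, U', hπI, hm, hc, hUU', hUI, hU'I, hUV, hid⟩ := hcert
  have htop : 𝔪 ≠ ⊤ := h𝔪.ne_top
  -- the elements of `B`
  have hπB : piUo A N q M e hN f u₀ hf (idx i) hae.le ∈ C.B :=
    S.mem_B hπI fun b _ => piUo_mem_VE A N q M e B k hN hB hq f u₀ hf (idx i) hae.le b
  have hUB : U ∈ C.B := S.mem_B hUI fun b hb => (hUV b hb).1
  have hU'B : U' ∈ C.B := S.mem_B hU'I fun b hb => (hUV b hb).2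
  have hUm : (⟨U, hUB⟩ : C.B) ∉ 𝔪 :=
    not_mem_of_mul_eq_one C 𝔪 htop (b := ⟨U', hU'B⟩) (Subtype.ext hUU')
  have he : 0 < mult i := by
    rw [S.hmult i]
    exact Nat.totient_pos.mpr (pow_pos hq.pos _)
  -- the memberships at `V i`
  have hfV' := fUo_mem_VE A N q M e B k hN hB hq f u₀ hf (idx i) ha1 hae
  have hfV : fUo A N q M e hN f u₀ hf (idx i) hae.le ∈ C.V i := by
    rw [S.hV i]
    exact hfV'
  have hWV' : EwE A N q e (idx i) ∈ VE A N q M e B k hN hB hq (idx i) :=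
    hmem _ _ (S.hidx i) (S.hidx i)
  have hUV' : U ∈ VE A N q M e B k hN hB hq (idx i) := (hUV _ (S.hidx i)).1
  have hxf : ((⟨_, hπB⟩ : C.B) : ↥(L0 A N)) ^ mult i
      = algebraMap R ↥(L0 A N) qR * fUo A N q M e hN f u₀ hf (idx i) hae.le := by
    rw [S.hqR, S.hmult i]
    exact piUo_pow_eq A N q M e hN hq f u₀ hf (idx i) hae.le
  have hcE : cEw e (idx i) = 2 := by
    rw [cEw, if_neg]
    omega
  refine locEq_ord_of_red C qR (S.hq0 hq) S.hqV (HintE A N) S.hBH (S.hqH hq) S.critH mult S.hE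
    𝔪 i hi he (S.sC i) (S.sC_const i) ⟨_, hπB⟩ (S.witE hmem i) hw
    (fun i' hi' => S.witE_div hmem hdiv i i' hi') _ hfV hxf m hm c hc
    (S.witE hmem i ^ n * ⟨U, hUB⟩) (mul_not_mem C 𝔪 (pow_not_mem C 𝔪 hw n) hUm) ?_
  -- the certificate
  have hYV' : EwE A N q e (idx i) ^ n * U ∈ VE A N q M e B k hN hB hq (idx i) :=
    mul_mem (pow_mem hWV' n) hUV'
  have e2 : (⟨EwE A N q e (idx i) ^ n * U, hYV'⟩ : ↥(VE A N q M e B k hN hB hq (idx i)))
      = ⟨EwE A N q e (idx i), hWV'⟩ ^ n * ⟨U, hUV'⟩ := rfl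
  change (_root_.Fermat.Agent.S45.NUE.H23.sE A N q M e B k hN hB hq (idx i) ⟨EwE A N q e (idx i), hWV'⟩
      * _root_.Fermat.Agent.S45.NUE.H23.sE A N q M e B k hN hB hq (idx i) ⟨fUo A N q M e hN f u₀ hf (idx i) hae.le, hfV'⟩) ^ m
    = algebraMap (kV A) (LaurentSeries (kV A)) c
      * _root_.Fermat.Agent.S45.NUE.H23.sE A N q M e B k hN hB hq (idx i) ⟨EwE A N q e (idx i) ^ n * U, hYV'⟩
  rw [e2, map_mul, map_pow, hred (idx i) (S.hidx i) hWV', hcE,
    sE_fUo A N q M e B k hN hB hq f u₀ hf hA (idx i) ha1 hae hfV', hid hUV', mul_assoc]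

include hq in
/-- **The local equation data at the ordinary points** (hypothesis `hord` of
`H88.pointDataE_of_dichotomy`), from helper82's statements on the witnesses and the certificates
of the components `0 < a < e`. -/
theorem hordE (hA : (q : Kbar) ∈ A.nonunits)
    (hmem : Stmt_EwE_mem A N q M e B k hN hB hq)
    (hdiv : Stmt_EwE_div A N q M e B k hN hB hq)
    (hred : Stmt_EwE_red A N q M e B k hN hB hq)
    (hcert : ∀ (a : ℕ) (ha1 : 1 ≤ a) (hae : a < e), MidCertE A N q M e B k hN hB hq a ha1 hae) :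
    ∀ 𝔪 : Ideal C.B, 𝔪.IsMaximal → ∀ i, C.Icomp i ≤ 𝔪 → S.witE hmem i ∉ 𝔪 →
      Nonempty (LocEq C qR 𝔪) ∧ ∀ i', C.Icomp i' ≤ 𝔪 → i' = i := by
  intro 𝔪 hmax i hi hw
  haveI : 𝔪.IsPrime := hmax.isPrime
  by_cases hend : idx i = 0 ∨ idx i = e
  · exact ordEndE (hq := hq) S hmem hdiv 𝔪 i hi hend hw
  · have ha1 : 1 ≤ idx i := by
      rcases Nat.eq_zero_or_pos (idx i) with h | h
      · exact absurd (Or.inl h) hend
      · exact h
    have hae : idx i < e := lt_of_le_of_ne (S.hidx i) fun h => hend (Or.inr h)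
    exact ordMidE (hq := hq) S hA hmem hdiv hred 𝔪 i hi ha1 hae (hcert _ ha1 hae) hw

end Ord

end Mod

end Fermat.Agent.S45.NUE.H99

end
end
-- ==== END Fermat.Agent.S45.NUE.H99_OrdE
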