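-- GENERATED (merged mirror, NOTES/tools/trim/merge3_helper67.py): 6 modules of the originals, bodies verbatim.
import Fermat.Agent.Zm.S45_L08_000
import Fermat.Agent.Zm.S45_L05_000
import Fermat.Agent.Zm.S45_L06_004
import Fermat.Agent.Zm.S45_L05_001
import Fermat.Agent.Zm.S45_L01_002
import Fermat.Agent.Zm.S45_L06_000
import Fermat.Agent.Zm.S36_L15_000
import Fermat.Agent.Zm.S45_L07_000
import Fermat.Agent.Zm.S45_L07_001
import Fermat.Agent.Zm.S36_L12_001
import Fermat.Agent.Zm.S45_L01_000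
import Fermat.Agent.Zm.S36_L06_001

-- ==== BEGIN Fermat.Agent.S45.NUE.H23_TotE4
section
attribute [local instance 10000] SubalgebraClass.toAlgebra
attribute [local instance 10000] HahnSeries.powerSeriesAlgebra

/-!
# S45 / NU_e, package E-TOT (helper23), part 4: the inputs and the UNCONDITIONAL datum

Level `N = M q^e`, `q ∤ M`, `M` tame at `q`, `e ≥ 1`.

* `inE_mod : InE …` from helper17 (`inclL0_mem_VE`, `sE_inclL0`, `exists_sE_eq`), helper57
  (`not_le_VE`), helper60 (`isArch_VE`, `hliftE`);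
* `sE_mem`, `rEM a`, **`nrEM`** (the modular `NRData`), **`totEM`** (the modular `TotN`),
  with the `rfl`-lemmas `totEM_V`, `totEM_red`, `totEM_m`, `totEM_rho`, `totEM_pt`.
-/

set_option autoImplicit false
set_option synthInstance.maxHeartbeats 400000
set_option maxHeartbeats 1000000
set_option linter.style.haveILetI false
set_option linter.unusedSectionVars false

noncomputable section

open ModularCurve AlgebraicCurve
open Fermat.Agent.S24 Fermat.Agent.BAD.H88 Fermat.Agent.S28 Fermat.Agent.S28.H73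
open Fermat.Agent.RED.H73 Fermat.Agent.RED.H17 Fermat.Agent.S36.NU.H88
open Fermat.Agent.S36.NU.H23

namespace Fermat.Agent.S45.NUE.H23

open Fermat.Agent.BAD Fermat.Agent.RED Fermat.Agent.S36.NU.H79

section TotE4

variable (A : ValuationSubring Kbar)
variable (N q M e : ℕ) (B k : ℤ) (hN : N = M * q ^ e) (hB : B * M + k * (q : ℤ) ^ e = 1)
  (hq : q.Prime) [NeZero N] [NeZero q] [NeZero M] (hqM : ¬ q ∣ M) (hA : A.LiesOverPrime q)
  (ht : H91.TameAt M q)

/-- `Fr^w y = y (t^(q^w))`. -/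
theorem coe_FrWM (w : ℕ) (y : FM A M) :
    haveI : NeZero (q ^ w) := ⟨pow_ne_zero _ (NeZero.ne q)⟩
    ((FrWM A q M hq hqM hA w y : FM A M) : LaurentSeries (kV A))
      = qExpand (kV A) (q ^ w) (y : LaurentSeries (kV A)) := by
  haveI : NeZero (q ^ w) := ⟨pow_ne_zero _ (NeZero.ne q)⟩
  unfold FrWM
  rw [@Fermat.Agent.S45.NUE.H42.FrW_apply (kV A) _ q ⟨hq⟩
    (Fermat.Agent.BAD.H82.charP_kV A hq hA)
    (@Fermat.Agent.BAD.H73.perfectRing_kV _ _ _ A q ⟨hq⟩
      (Fermat.Agent.BAD.H82.charP_kV A hq hA)) _ (frobStableE A q M hq hqM hA) w y]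
  exact @Fermat.Agent.S45.NUE.H62.coe_iterate_FrE (kV A) _ q ⟨hq⟩
    (Fermat.Agent.BAD.H82.charP_kV A hq hA)
    (@Fermat.Agent.BAD.H73.perfectRing_kV _ _ _ A q ⟨hq⟩
      (Fermat.Agent.BAD.H82.charP_kV A hq hA)) _ (frobStableE A q M hq hqM hA) w y

/-- **The modular inputs of E-TOT hold.** -/
theorem inE_mod : InE A N q M e B k hN hB hq hqM hA where
  hVE := fun a _ x hx =>
    Fermat.Agent.S45.NUE.H17.inclL0_mem_VE A N q M e B k hN hB hq (hleE N q M e hN) a x hx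
  hcomp := fun a _ x h => by
    rw [Fermat.Agent.S45.NUE.H17.sE_inclL0 A N q M e B k hN hB hq (hleE N q M e hN) a x h,
      coe_FrWM A q M hq hqM hA (wE e a) (rE A M x)]
    rfl
  hrange := fun a ha c => by
    haveI := neZero_Mqq q M
    refine Fermat.Agent.S45.NUE.H17.exists_sE_eq A N q M e B k hN hB hq hqM hA
      (hleE N q M e hN) a ha (c : LaurentSeries (kV A)) ?_
    rw [← FM_eq A q M hq hqM hA]
    exact c.2
  hincomp := fun a a' ha ha' h =>
    Fermat.Agent.S45.NUE.H57.not_le_VE A N q M e B k hN hB hq hA a a' ha ha' h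
  harch := fun a _ => Fermat.Agent.S45.NUE.H60.isArch_VE A N q M e B k hN hB hq hA a
  hlift := fun c => by
    obtain ⟨x, hx, hall⟩ := Fermat.Agent.S45.NUE.H60.hliftE A N q M e B k hN hB hq hA c
    exact ⟨x, hx, fun a _ => hall a⟩

include hqM hA in
/-- **RES_a**: the reductions at `V_a` of the inertia-fixed functions of level `M q^e` lie in
the function field of `X₀(M)` in characteristic `q`. -/
theorem sE_mem (he : 0 < e) (a : ℕ) (ha : a ≤ e) (x : ↥(VE A N q M e B k hN hB hq a)) :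
    _root_.Fermat.Agent.S45.NUE.H23.sE A N q M e B k hN hB hq a x ∈ modularFunctionFieldFullC (kV A) M := by
  haveI := neZero_Mqq q M
  rw [← FM_eq A q M hq hqM hA]
  exact sE_memM A N q M e B k hN hB hq hqM hA (inE_mod A N q M e B k hN hB hq hqM hA) he a ha x

/-- The residue map of `VE a`, into the residue field of level `M`. -/
def rEM (he : 0 < e) (a : ℕ) (ha : a ≤ e) : ↥(VE A N q M e B k hN hB hq a) →+* FM A M :=
  rEa A N q M e B k hN hB hq hqM hA (inE_mod A N q M e B k hN hB hq hqM hA) he a ha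

theorem coe_rEM (he : 0 < e) (a : ℕ) (ha : a ≤ e) (x : ↥(VE A N q M e B k hN hB hq a)) :
    ((rEM A N q M e B k hN hB hq hqM hA he a ha x : FM A M) : LaurentSeries (kV A))
      = _root_.Fermat.Agent.S45.NUE.H23.sE A N q M e B k hN hB hq a x := rfl

theorem rEM_surjective (he : 0 < e) (a : ℕ) (ha : a ≤ e) :
    Function.Surjective (rEM A N q M e B k hN hB hq hqM hA he a ha) :=
  rEa_surjective A N q M e B k hN hB hq hqM hA _ he a ha

theorem rEM_eq_zero_of_not_isUnit (he : 0 < e) (a : ℕ) (ha : a ≤ e)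
    (x : ↥(VE A N q M e B k hN hB hq a)) (hx : ¬ IsUnit x) :
    rEM A N q M e B k hN hB hq hqM hA he a ha x = 0 :=
  rEa_eq_zero_of_not_isUnit A N q M e B k hN hB hq hqM hA _ he a ha x hx

/-- **The modular `NRData`** of the `e + 1` valuations of level `M q^e`. -/
def nrEM (he : 0 < e) : @H42.NRData ↥(L0 A M) ↥(L0 A N) (FM A M) _ _ _
    (algL0 A (hleE N q M e hN)) (Fin (e + 1)) (kapE A M e) _ (algE A q M e hq hqM hA) :=
  nrE A N q M e B k hN hB hq hqM hA (inE_mod A N q M e B k hN hB hq hqM hA) he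

/-- **E-TOT (unconditional)**: the conservation datum of the `e + 1` valuations `V_a` of the
inertia-fixed functions of level `M q^e`. -/
def totEM (he : 0 < e) : @TotN Kbar ↥(L0 A N) (FN N) (kV A) (Fin (e + 1))
    (Place (kV A) (FM A M)) (kapE A M e) _ _ _ _ _ _ _ _ (algkE A M e) :=
  totE A N q M e B k hN hB hq hqM hA ht (inE_mod A N q M e B k hN hB hq hqM hA) he

theorem totEM_V (he : 0 < e) (i : Fin (e + 1)) :
    @TotN.V Kbar ↥(L0 A N) (FN N) (kV A) (Fin (e + 1))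
      (Place (kV A) (FM A M)) (kapE A M e) _ _ _ _ _ _ _ _ (algkE A M e)
      (totEM A N q M e B k hN hB hq hqM hA ht he) i = VE A N q M e B k hN hB hq (i : ℕ) := rfl

theorem totEM_red (he : 0 < e) (i : Fin (e + 1)) :
    @TotN.red Kbar ↥(L0 A N) (FN N) (kV A) (Fin (e + 1))
      (Place (kV A) (FM A M)) (kapE A M e) _ _ _ _ _ _ _ _ (algkE A M e)
      (totEM A N q M e B k hN hB hq hqM hA ht he) i
      = rEM A N q M e B k hN hB hq hqM hA he (i : ℕ) (Nat.lt_succ_iff.mp i.2) := rfl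

theorem totEM_m (he : 0 < e) (i : Fin (e + 1)) :
    @TotN.m Kbar ↥(L0 A N) (FN N) (kV A) (Fin (e + 1))
      (Place (kV A) (FM A M)) (kapE A M e) _ _ _ _ _ _ _ _ (algkE A M e)
      (totEM A N q M e B k hN hB hq hqM hA ht he) i = mE q e (i : ℕ) := rfl

theorem totEM_rho (he : 0 < e) :
    @TotN.ρ Kbar ↥(L0 A N) (FN N) (kV A) (Fin (e + 1))
      (Place (kV A) (FM A M)) (kapE A M e) _ _ _ _ _ _ _ _ (algkE A M e)
      (totEM A N q M e B k hN hB hq hqM hA ht he) = rhoE A N q M e hN hq hqM hA ht := rfl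

theorem totEM_pt (he : 0 < e) :
    @TotN.pt Kbar ↥(L0 A N) (FN N) (kV A) (Fin (e + 1))
      (Place (kV A) (FM A M)) (kapE A M e) _ _ _ _ _ _ _ _ (algkE A M e)
      (totEM A N q M e B k hN hB hq hqM hA ht he) = ptE A q M e hq hqM hA := rfl

end TotE4

end Fermat.Agent.S45.NUE.H23

end
end
-- ==== END Fermat.Agent.S45.NUE.H23_TotE4

-- ==== BEGIN Fermat.Agent.S45.NUE.H26_OrdCert23
section

/-!
# S45 / NU_e, leaf E-PT-ORD, cut ORD-CERT for `q = 2, 3` (helper26)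

Mirror of `H99_OrdCertU4` (helper99, `q ≥ 5`, `4 ∣ M`) in the two small characteristics: the
coordinate is `j` itself (as in S36, `H65.ord11_q23`), `(θ j̄)^(q-1) = j̄^(q-1)`, `j̄ Δ̄ = 1`.

* `isIntegral_incL0_j` : horizontal integrality of `j (q^i τ)`;
* `isIntegral_piUo_j` : horizontal integrality of the local equation `π_a(j)`;
* `midCertE_q23` : **`MidCertE a`** for `q = 2` or `q = 3` (any `M`), with `m = 2`, `n = 3`,
  `c = ε̄²`, `U = 1`, by the series identity `serJ4`.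
-/

set_option autoImplicit false
set_option synthInstance.maxHeartbeats 400000
set_option maxHeartbeats 1000000
set_option linter.unusedSectionVars false
set_option linter.unusedVariables false
set_option linter.style.haveILetI false

noncomputable section

open ModularCurve AlgebraicCurve IntermediateField
open Fermat.Agent.S24 Fermat.Agent.BAD.H88 Fermat.Agent.BAD.H30 Fermat.Agent.BAD.H21
open Fermat.Agent.S28 Fermat.Agent.S28.H73 Fermat.Agent.RED.H73 Fermat.Agent.RED.H17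
open Fermat.Agent.S36.NU Fermat.Agent.S36.NU.H88 Fermat.Agent.S36.NU.H23
open Fermat.Agent.S36.NU.H41 Fermat.Agent.RED

namespace Fermat.Agent.S45.NUE.H26

open Fermat.Agent.S45.NUE.H23 (VE sE)
open Fermat.Agent.S45.NUE.H73 (dE)
open Fermat.Agent.S45.NUE.H82 (HUk)
open Fermat.Agent.S45.NUE.H99

section Level

variable (A : ValuationSubring Kbar)
variable (N q M e : ℕ) (B k : ℤ) (hN : N = M * q ^ e) (hB : B * M + k * (q : ℤ) ^ e = 1)
  (hq : q.Prime) [NeZero N] [NeZero q] [NeZero M]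

include hN in
theorem one_mul_pow_dvd (i : ℕ) (hi : i ≤ e) : 1 * q ^ i ∣ N := by
  rw [hN, one_mul]
  exact Dvd.dvd.mul_left (pow_dvd_pow q hi) M

/-- `j (q^i τ)` as an inertia-fixed function of level `N`. -/
theorem incL0_j_eq (i : ℕ) (hi : i ≤ e) [NeZero (1 * q ^ i)] :
    incL0 A N q M e hN i hi
        ((fo0 A M (jdF M 1 (one_dvd M)) jInt (coe_jdF_one M) : ↥(VE0 A M)) : ↥(L0 A M))
      = (⟨jdF N (1 * q ^ i) (one_mul_pow_dvd N q M e hN i hi),
          jdF_mem_L0 A N (1 * q ^ i) (one_mul_pow_dvd N q M e hN i hi)⟩ : ↥(L0 A N)) := by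
  apply Subtype.ext
  rw [coe_incL0]
  exact incQ_jdF N q M e hN i hi 1 (one_dvd M) (one_mul_pow_dvd N q M e hN i hi)

/-- Horizontal integrality of `j (q^i τ)`. -/
theorem isIntegral_incL0_j (i : ℕ) (hi : i ≤ e) :
    IsIntegral ↥(Algebra.adjoin ↥(Kur A) ({j0 A N} : Set ↥(L0 A N)))
      (incL0 A N q M e hN i hi
        ((fo0 A M (jdF M 1 (one_dvd M)) jInt (coe_jdF_one M) : ↥(VE0 A M)) : ↥(L0 A M))) := by
  haveI : NeZero (1 * q ^ i) := ⟨by rw [one_mul]; exact pow_ne_zero _ (NeZero.ne q)⟩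
  rw [incL0_j_eq A N q M e hN i hi]
  exact isIntegral_jdF_L0 A N (1 * q ^ i) (one_mul_pow_dvd N q M e hN i hi)

/-- **Horizontal integrality of the local equation** for `f = j`. -/
theorem isIntegral_piUo_j (a : ℕ) (hae : a ≤ e) :
    IsIntegral ↥(Algebra.adjoin ↥(Kur A) ({j0 A N} : Set ↥(L0 A N)))
      (piUo A N q M e hN (jdF M 1 (one_dvd M)) jInt (coe_jdF_one M) a hae) := by
  rw [piUo]
  exact (isIntegral_incL0_j A N q M e hN _ _).sub (isIntegral_incL0_j A N q M e hN _ _)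

/-- The reduction of the integral expansion of `j`. -/
theorem coeffMap_jInt_kV : coeffMap (Int.castRingHom (kV A)) jInt = jqModC (kV A) := by
  rw [jInt, qExpand_one_apply, coeffMap_jqModC]

include hq in
/-- **The certificate of the component `0 < a < e`** for `q = 2` or `q = 3`. -/
theorem midCertE_q23 (hA : (q : Kbar) ∈ A.nonunits) (h23 : q = 2 ∨ q = 3)
    (a : ℕ) (ha1 : 1 ≤ a) (hae : a < e) :
    MidCertE A N q M e B k hN hB hq a ha1 hae := by
  have hε := resV_epsU_ne_zero A q M e B k hB hq a ha1 hae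
  refine ⟨jdF M 1 (one_dvd M), jInt, coe_jdF_one M, 2, 3,
    resV A ⟨epsU q e a B, epsU_mem A q M e B k hB hq a ha1 hae⟩ ^ 2, 1, 1,
    isIntegral_piUo_j A N q M e hN a hae.le, by norm_num, pow_ne_zero _ hε, one_mul 1,
    isIntegral_one, isIntegral_one, fun b _ => ⟨one_mem _, one_mem _⟩, ?_⟩
  intro hU
  have e1 : (⟨(1 : ↥(L0 A N)), hU⟩ : ↥(VE A N q M e B k hN hB hq a)) = 1 := rfl
  rw [e1, map_one, mul_one, coeffMap_jInt_kV]
  exact serJ4 A q hq hA h23 e a ha1 hae _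

end Level

end Fermat.Agent.S45.NUE.H26

end
end
-- ==== END Fermat.Agent.S45.NUE.H26_OrdCert23

-- ==== BEGIN Fermat.Agent.S45.NUE.H33_RedInst
section

/-!
# S45 / NU_e, package E-NORM (helper33): the reductions of `α y`, `β y`, unconditional

`redInputs : RedInputs …` from helper31's `hcompat_alpha_le/gt`, `hcompat_beta_le/gt`
(N1 RESTR), in helper51's convention (levels `M₁ q = M' q ^ e`, `M₁ q q = M' q ^ (e + 1)`).
-/

set_option autoImplicit false
set_option linter.style.haveILetI false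
set_option linter.unusedSectionVars false
set_option linter.unusedVariables false
set_option synthInstance.maxHeartbeats 400000
set_option maxHeartbeats 1000000

noncomputable section

namespace Fermat.Agent.S45.NUE.H33

open AlgebraicCurve ModularCurve Fermat.Agent.S24 Fermat.Agent.Lib.HeckeComm
  Fermat.Agent.S36.H44 Fermat.Agent.BAD Fermat.Agent.BAD.H88
  Fermat.Agent.S36.NU.H26 Fermat.Agent.S45.NUE.H51 Fermat.Agent.S45.NUE.H23
  Fermat.Agent.S28 Fermat.Agent.S28.H73 Fermat.Agent.RED.H73 Fermat.Agent.RED.H17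

section RedInst

variable (A : ValuationSubring Kbar) (q M₁ M' el : ℕ) [NeZero M₁] [NeZero q] [NeZero M']
  [NeZero (M₁ * q)] [NeZero (M₁ * q * q)] (hq : q.Prime)
  (hNl : M₁ * q = M' * q ^ el) (hNu : M₁ * q * q = M' * q ^ (el + 1))
  (Bl kl : ℤ) (hBl : Bl * M' + kl * (q : ℤ) ^ el = 1)
  (Bu ku : ℤ) (hBu : Bu * M' + ku * (q : ℤ) ^ (el + 1) = 1)

/-- **The reductions of `α y`, `β y`** (N1 RESTR, helper31), unconditional. -/
theorem redInputs : RedInputs A q M₁ M' el hq hNl hNu Bl kl hBl Bu ku hBu where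
  redα_le := fun a h2 y hy =>
    Fermat.Agent.S45.NUE.H31.hcompat_alpha_le A (M₁ * q) q M' el Bl kl Bu ku hNl hBl hNu hBu hq
      a h2 y hy
  redα_gt := fun a h2 _ y hy =>
    Fermat.Agent.S45.NUE.H31.hcompat_alpha_gt A (M₁ * q) q M' el Bl kl Bu ku hNl hBl hNu hBu hq
      a h2 y hy
  redβ_le := fun a h1 h2 y hy =>
    Fermat.Agent.S45.NUE.H31.hcompat_beta_le A (M₁ * q) q M' el Bl kl Bu ku hNl hBl hNu hBu hq
      a h1 h2 y hy
  redβ_gt := fun a h2 _ y hy =>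
    Fermat.Agent.S45.NUE.H31.hcompat_beta_gt A (M₁ * q) q M' el Bl kl Bu ku hNl hBl hNu hBu hq
      a h2 y hy

end RedInst

end Fermat.Agent.S45.NUE.H33

end
end
-- ==== END Fermat.Agent.S45.NUE.H33_RedInst

-- ==== BEGIN Fermat.Agent.S45.NUE.H73_CuspWE
section

/-!
# S45 / NU_e, leaf E-CUSP, slice CUSP-W_e (helper73): the unit identity at the mid components

Level `N = M q^e`, `0 < a < e`, `m = min a (e - a)`, `φ = φ(q^m)`, `u = uooE = 1 / j`,
`E = EooE a = EwE a · u^(2 q^(a-1) (q-1))`, `f = fooE a = (π_a u^(q^(a-m)))^φ / q`.  At `V_a`: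

* `s_a(u)^(q^(a-1)) = J⁻¹`, `J = j~(T)`, `T = s^(q^(max a (e-a) - 1))`;
* `s_a(E) = (Δ~(T)^(q-1))⁻² J^(-2(q-1))`;
* `s_a(f) = c₀ · ((θ j~)(T) J⁻¹)^(q-1)`, `c₀ ≠ 0` the residue of `(ζ' - 1)^φ / q`;
* **`s_a(f)¹² · s_a(E) = c₀¹² (1 - 1728 s_a(u)^(q^(a-1)))^(6 (q-1))`**   (`cuspWE`).
-/

set_option autoImplicit false
set_option synthInstance.maxHeartbeats 400000
set_option maxHeartbeats 1000000
set_option linter.unusedSectionVars false
set_option linter.unusedVariables false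
set_option linter.style.haveILetI false

noncomputable section

namespace Fermat.Agent.S45.NUE.H73

open Fermat.Agent.S24 Fermat.Agent.BAD.H88 Fermat.Agent.BAD.H30 Fermat.Agent.BAD.H21 ModularCurve
open Fermat.Agent.S28 Fermat.Agent.S28.H73 Fermat.Agent.RED.H73
open Fermat.Agent.S36.NU.H88
open Fermat.Agent.S36.NU.H23 (L0 jdF_mem_L0)
open Fermat.Agent.S36.NU.H73 (thetaL thetaL_coeffMap thetaL_jq_pow_six cuspW2_base)
open Fermat.Agent.S45.NUE.H23 (VF VE sE neZero_nE mem_VE_iff sE_mk sE_eq_zero_of_not_isUnit)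
open Fermat.Agent.S45.NUE.H82 (EwE Stmt_EwE_mem Stmt_EwE_red HUk cEw)
open Fermat.Agent.S45.NUE.H88 (qExpand_pow_of_fixed qExpand_pow_deltaR qExpand_pow_HU)

/-! ### The identity of series -/

section Series

variable (K : Type) [Field K] (q : ℕ) [hq : Fact q.Prime] [CharP K q] [NeZero q]

theorem frob_jq : coeffMap (frobenius K q) (jqModC K) = jqModC K := coeffMap_jqModC _

theorem frob_theta_jq :
    coeffMap (frobenius K q) (thetaL (jqModC K)) = thetaL (jqModC K) := by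
  rw [← thetaL_coeffMap, frob_jq]

/-- **The `W` identity of series.** -/
theorem w_series (a e : ℕ) (ha : 1 ≤ a) (hae : a + 1 ≤ e) (c₀ : K) (U E F : LaurentSeries K)
    (hU : U = (qExpand K (q ^ (e - 2 * a)) (jqModC K))⁻¹)
    (hE : E = (qExpand K (q ^ (max a (e - a) - 1)) ((deltaR K ^ (q - 1))⁻¹)) ^ 2
      * U ^ (2 * q ^ (a - 1) * (q - 1)))
    (hF : F = HahnSeries.C c₀
      * (qExpand K (q ^ dE e a) (thetaL (jqModC K)) * U ^ (q ^ (a - min a (e - a))))
          ^ Nat.totient (q ^ min a (e - a))) :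
    F ^ 12 * E
      = HahnSeries.C (c₀ ^ 12)
        * (1 - HahnSeries.C (1728 : K) * U ^ (q ^ (a - 1))) ^ (6 * (q - 1)) := by
  have hqp : q.Prime := hq.out
  have hJ0 : jqModC K ≠ 0 := Fermat.Agent.S36.NU.H86.jqModC_ne_zero' K
  have hD0 : deltaR K ≠ 0 := deltaR_ne_zero K
  -- the Frobenius powers
  have h1 : qExpand K (q ^ (e - 2 * a)) (jqModC K) = jqModC K ^ (q ^ (e - 2 * a)) :=
    qExpand_pow_of_fixed K q _ (frob_jq K q) _
  have h2 : qExpand K (q ^ (max a (e - a) - 1)) ((deltaR K ^ (q - 1))⁻¹)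
      = ((deltaR K ^ (q - 1))⁻¹) ^ (q ^ (max a (e - a) - 1)) := qExpand_pow_HU K q _
  have h3 : qExpand K (q ^ dE e a) (thetaL (jqModC K)) = thetaL (jqModC K) ^ (q ^ dE e a) :=
    qExpand_pow_of_fixed K q _ (frob_theta_jq K q) _
  have hm1 : 1 ≤ min a (e - a) := by omega
  have hφ : Nat.totient (q ^ min a (e - a)) = q ^ (min a (e - a) - 1) * (q - 1) :=
    Nat.totient_prime_pow hqp (by omega)
  -- the identity at the level `T`
  have hid : (thetaL (jqModC K) ^ (q ^ (max a (e - a) - 1))) ^ 6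
      = (jqModC K ^ (q ^ (max a (e - a) - 1))) ^ 4
        * (jqModC K ^ (q ^ (max a (e - a) - 1)) - 1728) ^ 3
        * deltaR K ^ (q ^ (max a (e - a) - 1)) := by
    have h := congrArg (qExpand K (q ^ (max a (e - a) - 1))) (thetaL_jq_pow_six K)
    rw [map_pow, map_mul, map_mul, map_pow, map_pow, map_sub, map_ofNat,
      ← deltaR_eq_DL, qExpand_pow_of_fixed K q _ (frob_theta_jq K q),
      qExpand_pow_of_fixed K q _ (frob_jq K q), qExpand_pow_deltaR] at h
    exact h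
  have hJ : jqModC K ^ (q ^ (max a (e - a) - 1)) ≠ 0 := pow_ne_zero _ hJ0
  have hD : deltaR K ^ (q ^ (max a (e - a) - 1)) ≠ 0 := pow_ne_zero _ hD0
  have hb := cuspW2_base hJ hD hid
  -- `U^(q^(a-1)) = J⁻¹`
  have hUJ : U ^ (q ^ (a - 1)) = (jqModC K ^ (q ^ (max a (e - a) - 1)))⁻¹ := by
    rw [hU, h1, inv_pow, ← pow_mul, ← pow_add]
    congr 3
    omega
  -- `E`
  have hEJ : E = ((deltaR K ^ (q ^ (max a (e - a) - 1)))⁻¹ ^ 2
      * (jqModC K ^ (q ^ (max a (e - a) - 1)))⁻¹ ^ 2) ^ (q - 1) := by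
    have e1 : U ^ (2 * q ^ (a - 1) * (q - 1)) = (U ^ (q ^ (a - 1))) ^ (2 * (q - 1)) := by
      rw [← pow_mul]
      congr 1
      ring
    rw [hE, h2, e1, hUJ]
    simp only [inv_pow]
    rw [← mul_inv, ← mul_inv]
    ring
  -- `F`
  have hFJ : F = HahnSeries.C c₀
      * (thetaL (jqModC K) ^ (q ^ (max a (e - a) - 1))
        * (jqModC K ^ (q ^ (max a (e - a) - 1)))⁻¹) ^ (q - 1) := by
    have e1 : (thetaL (jqModC K) ^ (q ^ dE e a) * U ^ (q ^ (a - min a (e - a))))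
        ^ (q ^ (min a (e - a) - 1))
        = thetaL (jqModC K) ^ (q ^ (max a (e - a) - 1)) * U ^ (q ^ (a - 1)) := by
      rw [mul_pow, ← pow_mul, ← pow_mul, ← pow_add, ← pow_add]
      congr 3
      · rw [dE]; omega
      · omega
    rw [hF, h3, hφ, pow_mul, e1, hUJ]
  rw [hFJ, hEJ, hUJ, map_pow, map_ofNat, pow_mul _ 6 (q - 1), ← hb]
  generalize thetaL (jqModC K) ^ (q ^ (max a (e - a) - 1)) = Θ
  generalize (jqModC K ^ (q ^ (max a (e - a) - 1)))⁻¹ = Ji
  generalize (deltaR K ^ (q ^ (max a (e - a) - 1)))⁻¹ = Di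
  generalize (HahnSeries.C c₀ : LaurentSeries K) = c
  ring

end Series

/-! ### The constant `(ζ' - 1)^φ / q` -/

section Const

variable (A : ValuationSubring Kbar)
variable (q M e : ℕ) (B k : ℤ) (hB : B * M + k * (q : ℤ) ^ e = 1) (hq : q.Prime) [NeZero q]

/-- `c₀ = (ζ' - 1)^φ / q`, `ζ' = ζ_{q^m}^B`, `m = min a (e - a)`. -/
def cWE (q e a : ℕ) [NeZero q] (B : ℤ) : Kbar :=
  (zU q e a B - 1) ^ Nat.totient (q ^ min a (e - a)) * ((q : ℕ) : Kbar)⁻¹

include hB hq in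
theorem val_cWE (a : ℕ) (ha : 1 ≤ a) (hae : a + 1 ≤ e) : A.valuation (cWE q e a B) = 1 := by
  have hq0 : ((q : ℕ) : Kbar) ≠ 0 := by exact_mod_cast (NeZero.ne q)
  have hv : A.valuation ((q : ℕ) : Kbar) ≠ 0 := (Valuation.ne_zero_iff _).mpr hq0
  have hm : min a (e - a) - 1 + 1 = min a (e - a) := by omega
  have hprim : IsPrimitiveRoot (zU q e a B) (q ^ (min a (e - a) - 1 + 1)) := by
    rw [hm]
    exact isPrimitiveRoot_zU q M e B k hB hq a (by omega)
  have h := val_sub_one_ppow A hq (min a (e - a) - 1) hprim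
  rw [hm] at h
  rw [cWE, map_mul, map_pow, h, map_inv₀, mul_inv_cancel₀ hv]

include hB hq in
theorem cWE_mem (a : ℕ) (ha : 1 ≤ a) (hae : a + 1 ≤ e) : cWE q e a B ∈ A :=
  (ValuationSubring.valuation_le_one_iff A _).mp (val_cWE A q M e B k hB hq a ha hae).le

include hB hq in
theorem resV_cWE_ne_zero (a : ℕ) (ha : 1 ≤ a) (hae : a + 1 ≤ e) :
    resV A ⟨cWE q e a B, cWE_mem A q M e B k hB hq a ha hae⟩ ≠ 0 := by
  intro h
  have h1 : (⟨cWE q e a B, cWE_mem A q M e B k hB hq a ha hae⟩ : ↥A)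
      ∈ IsLocalRing.maximalIdeal ↥A := (IsLocalRing.residue_eq_zero_iff _).mp h
  have h2 : IsUnit (⟨cWE q e a B, cWE_mem A q M e B k hB hq a ha hae⟩ : ↥A) :=
    (ValuationSubring.valuation_eq_one_iff A _).mpr (val_cWE A q M e B k hB hq a ha hae)
  exact (IsLocalRing.mem_maximalIdeal _).mp h1 h2

end Const

/-! ### The reduction of `fooE` and the `W` identity -/

section W

variable (A : ValuationSubring Kbar)
variable (N q M e : ℕ) (B k : ℤ) (hN : N = M * q ^ e) (hB : B * M + k * (q : ℤ) ^ e = 1)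
  (hq : q.Prime) [NeZero N] [NeZero q]

include hB hq in
/-- `f_a = c₀ · (θ_a · u^(q^(a-m)))^φ`. -/
theorem coe_fooE (a : ℕ) (ha : 1 ≤ a) (hae : a + 1 ≤ e)
    (h1 : q ^ (a + min a (e - a)) ∣ N) (h2 : q ^ (a - min a (e - a)) ∣ N) :
    ((fooE A N q e a h1 h2 : ↥(L0 A N)) : FN N)
      = algebraMap Kbar (FN N) (cWE q e a B)
        * (thE N q e B a h1 h2 * (Fermat.Agent.S24.jF N)⁻¹ ^ (q ^ (a - min a (e - a))))
            ^ Nat.totient (q ^ min a (e - a)) := by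
  have e0 : ((fooE A N q e a h1 h2 : ↥(L0 A N)) : FN N)
      = (_root_.Fermat.Agent.S45.NUE.H73.piE N q e a h1 h2 * (Fermat.Agent.S24.jF N)⁻¹ ^ (q ^ (a - min a (e - a))))
          ^ Nat.totient (q ^ min a (e - a))
        * ((((q : ℕ) : ↥(L0 A N)) : FN N))⁻¹ := rfl
  have e1 : (((q : ℕ) : ↥(L0 A N)) : FN N) = ((q : ℕ) : FN N) :=
    map_natCast (L0 A N).subtype q
  rw [e0, e1, piE_eq N q M e B k hB hq a ha (by omega) h1 h2, cWE, map_mul, map_pow, map_inv₀,
    map_natCast]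
  ring

include hN hB hq in
/-- **CUSP-W_e**, from the reduction of `EwE a` at `V_a`. -/
theorem cuspWE_core (hA : (q : Kbar) ∈ A.nonunits) (a : ℕ) (ha : 1 ≤ a) (hae : a + 1 ≤ e)
    (h1 : q ^ (a + min a (e - a)) ∣ N) (h2 : q ^ (a - min a (e - a)) ∣ N)
    (hEw : EwE A N q e a ∈ VE A N q M e B k hN hB hq a)
    (hred : _root_.Fermat.Agent.S45.NUE.H23.sE A N q M e B k hN hB hq a ⟨EwE A N q e a, hEw⟩
      = (qExpand (kV A) (q ^ (max a (e - a) - 1)) (HUk A q)) ^ cEw e a) :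
    ∃ (hu : uooE A N ∈ VE A N q M e B k hN hB hq a)
      (hE : EooE A N q e a ∈ VE A N q M e B k hN hB hq a)
      (hf : fooE A N q e a h1 h2 ∈ VE A N q M e B k hN hB hq a) (c : kV A), c ≠ 0 ∧
      _root_.Fermat.Agent.S45.NUE.H23.sE A N q M e B k hN hB hq a ⟨fooE A N q e a h1 h2, hf⟩ ^ 12
          * _root_.Fermat.Agent.S45.NUE.H23.sE A N q M e B k hN hB hq a ⟨EooE A N q e a, hE⟩
        = HahnSeries.C c
          * (1 - HahnSeries.C (1728 : kV A)
              * _root_.Fermat.Agent.S45.NUE.H23.sE A N q M e B k hN hB hq a ⟨uooE A N, hu⟩ ^ (q ^ (a - 1))) ^ (6 * (q - 1)) := by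
  haveI : Fact q.Prime := ⟨hq⟩
  haveI : CharP (kV A) q := Fermat.Agent.BAD.H82.charP_kV A hq hA
  haveI := neZero_nE N q M e B k hN hB hq a
  have ha0 : a ≠ 0 := by omega
  have hae' : a ≠ e := by omega
  -- `u`
  have hu := _root_.Fermat.Agent.S45.NUE.H73.uooE_mem_VE A N q M e B k hN hB hq a
  have hsu := _root_.Fermat.Agent.S45.NUE.H73.sE_uooE A N q M e B k hN hB hq a hu
  -- `E`
  have hEeq : EooE A N q e a = EwE A N q e a * uooE A N ^ (2 * q ^ (a - 1) * (q - 1)) :=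
    EooE_mid A N q e a ha0 hae'
  have hE : EooE A N q e a ∈ VE A N q M e B k hN hB hq a := by
    rw [hEeq]
    exact mul_mem hEw (pow_mem hu _)
  have hsE : _root_.Fermat.Agent.S45.NUE.H23.sE A N q M e B k hN hB hq a ⟨EooE A N q e a, hE⟩
      = (qExpand (kV A) (q ^ (max a (e - a) - 1)) ((deltaR (kV A) ^ (q - 1))⁻¹)) ^ 2
        * _root_.Fermat.Agent.S45.NUE.H23.sE A N q M e B k hN hB hq a ⟨uooE A N, hu⟩ ^ (2 * q ^ (a - 1) * (q - 1)) := by
    have e1 : (⟨EooE A N q e a, hE⟩ : ↥(VE A N q M e B k hN hB hq a))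
        = ⟨EwE A N q e a, hEw⟩ * ⟨uooE A N, hu⟩ ^ (2 * q ^ (a - 1) * (q - 1)) :=
      Subtype.ext hEeq
    have e2 : cEw e a = 2 := by
      rw [cEw, if_neg]
      rintro (h | h)
      · exact ha0 h
      · exact hae' h
    rw [e1, map_mul, map_pow, hred, e2]
    rfl
  -- `f`
  have hc : algebraMap Kbar (LaurentSeries Kbar) (cWE q e a B) ∈ gaussRingV A := by
    have h3 : iotaV A (HahnSeries.C
        (⟨cWE q e a B, cWE_mem A q M e B k hB hq a ha hae⟩ : ↥A))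
        = algebraMap Kbar (LaurentSeries Kbar) (cWE q e a B) := by
      rw [algebraMap_laurentSeries_eq_single]
      exact coeffMap_single A.subtype 0 _
    rw [← h3]
    exact iotaV_mem_gaussRingV A _
  have hth : Fermat.Agent.S45.NUE.H23.cE N q M e B k hN hB hq a (thE N q e B a h1 h2) ∈ gaussRingV A :=
    thE_mem_VG A N q M e B k hN hB hq a ha (by omega) h1 h2
  have hu' : Fermat.Agent.S45.NUE.H23.cE N q M e B k hN hB hq a ((Fermat.Agent.S24.jF N)⁻¹) ∈ gaussRingV A := hu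
  have hcf : Fermat.Agent.S45.NUE.H23.cE N q M e B k hN hB hq a ((fooE A N q e a h1 h2 : ↥(L0 A N)) : FN N)
      = algebraMap Kbar (LaurentSeries Kbar) (cWE q e a B)
        * (Fermat.Agent.S45.NUE.H23.cE N q M e B k hN hB hq a (thE N q e B a h1 h2)
          * Fermat.Agent.S45.NUE.H23.cE N q M e B k hN hB hq a ((Fermat.Agent.S24.jF N)⁻¹) ^ (q ^ (a - min a (e - a))))
            ^ Nat.totient (q ^ min a (e - a)) := by
    rw [coe_fooE A N q M e B k hB hq a ha hae h1 h2, map_mul, map_pow, map_mul, map_pow,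
      AlgHom.commutes]
  have hf : fooE A N q e a h1 h2 ∈ VE A N q M e B k hN hB hq a := by
    rw [mem_VE_iff, hcf]
    exact mul_mem hc (pow_mem (mul_mem hth (pow_mem hu' _)) _)
  have hsf : _root_.Fermat.Agent.S45.NUE.H23.sE A N q M e B k hN hB hq a ⟨fooE A N q e a h1 h2, hf⟩
      = HahnSeries.C (resV A ⟨cWE q e a B, cWE_mem A q M e B k hB hq a ha hae⟩)
        * (qExpand (kV A) (q ^ dE e a) (thetaL (jqModC (kV A)))
          * _root_.Fermat.Agent.S45.NUE.H23.sE A N q M e B k hN hB hq a ⟨uooE A N, hu⟩ ^ (q ^ (a - min a (e - a))))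
            ^ Nat.totient (q ^ min a (e - a)) := by
    rw [_root_.Fermat.Agent.S45.NUE.H23.sE_mk]
    have e1 : (⟨Fermat.Agent.S45.NUE.H23.cE N q M e B k hN hB hq a ((fooE A N q e a h1 h2 : ↥(L0 A N)) : FN N), hf⟩ :
        gaussRingV A)
        = ⟨algebraMap Kbar (LaurentSeries Kbar) (cWE q e a B), hc⟩
          * (⟨Fermat.Agent.S45.NUE.H23.cE N q M e B k hN hB hq a (thE N q e B a h1 h2), hth⟩
            * ⟨Fermat.Agent.S45.NUE.H23.cE N q M e B k hN hB hq a ((Fermat.Agent.S24.jF N)⁻¹), hu'⟩ ^ (q ^ (a - min a (e - a))))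
              ^ Nat.totient (q ^ min a (e - a)) := Subtype.ext hcf
    have e2 : gaussRedV A ⟨Fermat.Agent.S45.NUE.H23.cE N q M e B k hN hB hq a (thE N q e B a h1 h2), hth⟩
        = qExpand (kV A) (q ^ dE e a) (thetaL (jqModC (kV A))) := by
      have h5 := redG_thE A N q M e B k hN hB hq hA a ha (by omega) h1 h2 hth
      rw [Fermat.Agent.S36.NU.H73.coeffMap_jInt] at h5
      exact h5
    have e3 : gaussRedV A ⟨Fermat.Agent.S45.NUE.H23.cE N q M e B k hN hB hq a ((Fermat.Agent.S24.jF N)⁻¹), hu'⟩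
        = _root_.Fermat.Agent.S45.NUE.H23.sE A N q M e B k hN hB hq a ⟨uooE A N, hu⟩ := rfl
    rw [e1, map_mul, map_pow, map_mul, map_pow,
      Fermat.Agent.S36.NU.H73.gaussRedV_const A _ (cWE_mem A q M e B k hB hq a ha hae), e2, e3]
  refine ⟨hu, hE, hf, resV A ⟨cWE q e a B, cWE_mem A q M e B k hB hq a ha hae⟩ ^ 12,
    pow_ne_zero _ (resV_cWE_ne_zero A q M e B k hB hq a ha hae), ?_⟩
  exact w_series (kV A) q a e ha hae _ _ _ _ hsu hsE hsf

include hN hB hq in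
/-- **CUSP-W_e** (unconditional): `s_a(f_a)¹² · s_a(EooE a) = c (1 - 1728 s_a(u)^(q^(a-1)))^(6(q-1))`,
`c ≠ 0`. -/
theorem cuspWE (hA : A.LiesOverPrime q) (a : ℕ) (ha : 1 ≤ a) (hae : a + 1 ≤ e)
    (h1 : q ^ (a + min a (e - a)) ∣ N) (h2 : q ^ (a - min a (e - a)) ∣ N) :
    ∃ (hu : uooE A N ∈ VE A N q M e B k hN hB hq a)
      (hE : EooE A N q e a ∈ VE A N q M e B k hN hB hq a)
      (hf : fooE A N q e a h1 h2 ∈ VE A N q M e B k hN hB hq a) (c : kV A), c ≠ 0 ∧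
      _root_.Fermat.Agent.S45.NUE.H23.sE A N q M e B k hN hB hq a ⟨fooE A N q e a h1 h2, hf⟩ ^ 12
          * _root_.Fermat.Agent.S45.NUE.H23.sE A N q M e B k hN hB hq a ⟨EooE A N q e a, hE⟩
        = HahnSeries.C c
          * (1 - HahnSeries.C (1728 : kV A)
              * _root_.Fermat.Agent.S45.NUE.H23.sE A N q M e B k hN hB hq a ⟨uooE A N, hu⟩ ^ (q ^ (a - 1))) ^ (6 * (q - 1)) := by
  have he : 1 ≤ e := by omega
  have hEw := Fermat.Agent.S45.NUE.H82.stmt_EwE_mem A N q M e B k hN hB hq he a a (by omega)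
    (by omega)
  exact cuspWE_core A N q M e B k hN hB hq hA a ha hae h1 h2 hEw
    (Fermat.Agent.S45.NUE.H82.stmt_EwE_red A N q M e B k hN hB hq he hA a (by omega) hEw)

end W

end Fermat.Agent.S45.NUE.H73

end
end
-- ==== END Fermat.Agent.S45.NUE.H73_CuspWE

-- ==== BEGIN Fermat.Agent.S45.NUE.H82_CuspDivE
section

/-!
# S45 / NU_e, package E-FIN, leaf E-CUSP / DIV_e (helper82)

Level `N = M q^e`, `1 ≤ e`.  The witness `EooE a` (helper73's `H73.EooE`) of the component `a` in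
the chart at infinity is divisible by `q` in the valuation rings `V_b` of the other components:

* `EooE_div_of : Stmt_EwE_div .. → ∀ a b ≤ e, a ≠ b → ∃ f' ∈ V_b, EooE a = q * f'`;
* `EooE_div (he : 1 ≤ e)` : the same, unconditional;
* `EooE_div_R` : the same with `q` written `algebraMap (Rur A) (L0 A N) q` (the form of the field
  `hdiv` of `H88.CuspWit.of_series`).
-/

set_option autoImplicit false
set_option synthInstance.maxHeartbeats 400000
set_option maxHeartbeats 1000000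
set_option linter.unusedSectionVars false
set_option linter.unusedVariables false
set_option linter.style.haveILetI false

noncomputable section

open ModularCurve
open Fermat.Agent.S24 Fermat.Agent.BAD.H88
open Fermat.Agent.S36.NU.H88 Fermat.Agent.S36.NU.H23 Fermat.Agent.S36.NU.H41
open Fermat.Agent.S45.NUE.H73

namespace Fermat.Agent.S45.NUE.H82

section Div

variable (A : ValuationSubring Kbar)
variable (N q M e : ℕ) (B k : ℤ) (hN : N = M * q ^ e) (hB : B * M + k * (q : ℤ) ^ e = 1)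
  (hq : q.Prime) [NeZero N] [NeZero q]

open Fermat.Agent.S45.NUE.H23 (VE sE)

/-- **DIV_e** from `Stmt_EwE_div`. -/
theorem EooE_div_of (hdiv : Stmt_EwE_div A N q M e B k hN hB hq) (a b : ℕ) (ha : a ≤ e)
    (hb : b ≤ e) (hab : a ≠ b) :
    ∃ f' ∈ VE A N q M e B k hN hB hq b, EooE A N q e a = ((q : ℕ) : ↥(L0 A N)) * f' := by
  have hu := uooE_mem_VE A N q M e B k hN hB hq b
  obtain ⟨f, hf, hEf⟩ := hdiv a b ha hb hab
  by_cases h0 : a = 0
  · subst h0
    have hq1 : q = (q - 1) + 1 := by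
      have := hq.pos
      omega
    refine ⟨((q : ℕ) : ↥(L0 A N)) ^ (q - 1) * f ^ q * uooE A N ^ (q - 1),
      mul_mem (mul_mem (pow_mem (natCast_mem _ q) _) (pow_mem hf _)) (pow_mem hu _), ?_⟩
    rw [EooE_zero, hEf, mul_pow]
    nth_rewrite 2 [hq1]
    rw [pow_succ]
    ring
  · refine ⟨f * uooE A N ^ KooE q e a, mul_mem hf (pow_mem hu _), ?_⟩
    rw [EooE_of_ne A N q e a h0, hEf, mul_assoc]

/-- **DIV_e**, unconditional. -/
theorem EooE_div (he : 1 ≤ e) (a b : ℕ) (ha : a ≤ e) (hb : b ≤ e) (hab : a ≠ b) :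
    ∃ f' ∈ VE A N q M e B k hN hB hq b, EooE A N q e a = ((q : ℕ) : ↥(L0 A N)) * f' :=
  EooE_div_of A N q M e B k hN hB hq (stmt_EwE_div A N q M e B k hN hB hq he) a b ha hb hab

/-- **DIV_e** with `q` written in `R^ur` (the form of `H88.CuspWit`). -/
theorem EooE_div_R (he : 1 ≤ e) (a b : ℕ) (ha : a ≤ e) (hb : b ≤ e) (hab : a ≠ b) :
    ∃ f' ∈ VE A N q M e B k hN hB hq b,
      EooE A N q e a = algebraMap ↥(Rur A) ↥(L0 A N) ((q : ℕ) : ↥(Rur A)) * f' := by
  obtain ⟨f, hf, h⟩ := EooE_div A N q M e B k hN hB hq he a b ha hb hab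
  refine ⟨f, hf, ?_⟩
  rw [map_natCast]
  exact h

/-- The witness `EwE a` with `q` written in `R^ur`. -/
theorem EwE_div_R (he : 1 ≤ e) (a b : ℕ) (ha : a ≤ e) (hb : b ≤ e) (hab : a ≠ b) :
    ∃ f' ∈ VE A N q M e B k hN hB hq b,
      EwE A N q e a = algebraMap ↥(Rur A) ↥(L0 A N) ((q : ℕ) : ↥(Rur A)) * f' := by
  obtain ⟨f, hf, h⟩ := stmt_EwE_div A N q M e B k hN hB hq he a b ha hb hab
  refine ⟨f, hf, ?_⟩
  rw [map_natCast]
  exact h

end Div

end Fermat.Agent.S45.NUE.H82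

end
end
-- ==== END Fermat.Agent.S45.NUE.H82_CuspDivE

-- ==== BEGIN Fermat.Agent.S45.NUE.H99_OrdCertU4
section

/-!
# S45 / NU_e, leaf E-PT-ORD (helper99): the certificate of the components `0 < a < e` for
`q ≥ 5`, `4 ∣ M`

The coordinate is the modular unit `u = Δ(t)/Δ(t⁴)` of level `M` (as in S36, `H99.ord11_u4`):
`(θ ū)¹² = 3¹² v̄⁶ v̄₂¹⁶ Δ̄²` (helper73).

* `wU4`, `wU4i` : the unit `v⁶ v₂¹⁶` of level `M` and its inverse, `sE0_wU4`;
* `isUnitOff_incQ_unitF`, `isIntegral_incL0_unitF` : horizontal integrality of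
  `(Δ(t)/Δ(t^d))(q^i τ)`;
* `isIntegral_piUo_u4` : horizontal integrality of the local equation;
* `midCertE_u4` : **`MidCertE a`**, by helper26's series identity `H26.serJ3`.
-/

set_option autoImplicit false
set_option synthInstance.maxHeartbeats 400000
set_option maxHeartbeats 1000000
set_option linter.unusedSectionVars false
set_option linter.unusedVariables false
set_option linter.style.haveILetI false

noncomputable section

open ModularCurve AlgebraicCurve IntermediateField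
open Fermat.Agent.S24 Fermat.Agent.BAD.H88 Fermat.Agent.BAD.H30 Fermat.Agent.BAD.H21
open Fermat.Agent.S28 Fermat.Agent.S28.H73 Fermat.Agent.RED.H73 Fermat.Agent.RED.H17
open Fermat.Agent.S36.NU Fermat.Agent.S36.NU.H88 Fermat.Agent.S36.NU.H23
open Fermat.Agent.S36.NU.H41 Fermat.Agent.RED

namespace Fermat.Agent.S45.NUE.H99

open Fermat.Agent.S36.NU.H99 (isIntegral_Kur_of_bar isIntegral_bar_of_unitOff IsUnitOff
  isUnitOff_const isUnitOff_unitF uE uEi uE_mul_uEi sE_uE)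
open Fermat.Agent.S45.NUE.H23 (VE sE)
open Fermat.Agent.S45.NUE.H73 (dE)
open Fermat.Agent.S45.NUE.H82 (HUk)

section LevelM

variable (A : ValuationSubring Kbar) (M : ℕ) [NeZero M] (h4 : 4 ∣ M)

include h4 in
theorem two_dvd_of_four : 2 ∣ M := Dvd.dvd.trans (by norm_num) h4

/-- The unit `v⁶ v₂¹⁶` of level `M`, `v = Δ(t)/Δ(t²)`, `v₂ = Δ(t²)/Δ(t⁴)`. -/
def wU4 : ↥(Fermat.Agent.S36.NU.H23.VE0 A M) :=
  uE A M 2 (two_dvd_of_four M h4) ^ 6
    * (uE A M 4 h4 * uEi A M 2 (two_dvd_of_four M h4)) ^ 16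

/-- Its inverse. -/
def wU4i : ↥(Fermat.Agent.S36.NU.H23.VE0 A M) :=
  uEi A M 2 (two_dvd_of_four M h4) ^ 6
    * (uEi A M 4 h4 * uE A M 2 (two_dvd_of_four M h4)) ^ 16

theorem wU4_mul_wU4i : wU4 A M h4 * wU4i A M h4 = 1 := by
  have h2 := uE_mul_uEi A M 2 (two_dvd_of_four M h4)
  have h4' := uE_mul_uEi A M 4 h4
  have e : wU4 A M h4 * wU4i A M h4
      = (uE A M 2 (two_dvd_of_four M h4) * uEi A M 2 (two_dvd_of_four M h4)) ^ 6
        * ((uE A M 4 h4 * uEi A M 4 h4)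
          * (uE A M 2 (two_dvd_of_four M h4) * uEi A M 2 (two_dvd_of_four M h4))) ^ 16 := by
    rw [wU4, wU4i]
    ring
  rw [e, h2, h4']
  simp

theorem sE0_uEi (d : ℕ) [NeZero d] (hd : d ∣ M) :
    Fermat.Agent.S36.NU.H23.sE A M (uEi A M d hd)
      = (deltaR (kV A) * (qExpand (kV A) d (deltaR (kV A)))⁻¹)⁻¹ := by
  rw [← sE_uE A M d hd]
  apply eq_inv_of_mul_eq_one_right
  rw [← map_mul, uE_mul_uEi, map_one]

/-- The reduction of `v⁶ v₂¹⁶`. -/
theorem sE0_wU4 :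
    Fermat.Agent.S36.NU.H23.sE A M (wU4 A M h4)
      = H73.vbar (kV A) ^ 6 * H73.vbar2 (kV A) ^ 16 := by
  rw [wU4, map_mul, map_pow, map_pow, map_mul, sE_uE, sE_uE, sE0_uEi, ← H73.vbar_eq,
    ← H73.ubar4_eq, ← H73.vbar2_eq]

theorem coe_wU4 :
    (((wU4 A M h4 : ↥(Fermat.Agent.S36.NU.H23.VE0 A M)) : ↥(L0 A M)) : FN M)
      = unitF M 2 (two_dvd_of_four M h4) ^ 6
        * (unitF M 4 h4 * (unitF M 2 (two_dvd_of_four M h4))⁻¹) ^ 16 := by
  rw [wU4]
  simp only [MulMemClass.coe_mul, SubmonoidClass.coe_pow]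
  rfl

theorem coe_wU4i :
    (((wU4i A M h4 : ↥(Fermat.Agent.S36.NU.H23.VE0 A M)) : ↥(L0 A M)) : FN M)
      = ((unitF M 2 (two_dvd_of_four M h4))⁻¹) ^ 6
        * ((unitF M 4 h4)⁻¹ * unitF M 2 (two_dvd_of_four M h4)) ^ 16 := by
  rw [wU4i]
  simp only [MulMemClass.coe_mul, SubmonoidClass.coe_pow]
  rfl

end LevelM

section Level

variable (A : ValuationSubring Kbar)
variable (N q M e : ℕ) (B k : ℤ) (hN : N = M * q ^ e) (hB : B * M + k * (q : ℤ) ^ e = 1)
  (hq : q.Prime) [NeZero N] [NeZero q] [NeZero M]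

/-- `(Δ(t)/Δ(t^d))(q^i τ)` has neither zero nor pole off the cusps. -/
theorem isUnitOff_incQ_unitF (i : ℕ) (hi : i ≤ e) (d : ℕ) [NeZero d] (hd : d ∣ M) :
    IsUnitOff N (incQ N q M e hN i hi (unitF M d hd)) := by
  haveI : NeZero (q ^ i) := ⟨pow_ne_zero _ (NeZero.ne q)⟩
  have hcN : d * q ^ i ∣ N := by
    rw [hN]
    exact Nat.mul_dvd_mul hd (pow_dvd_pow q hi)
  exact H12.isUnitOff_y_of_pow d hd (q ^ i) hcN (unitF M d hd) 1 one_ne_zero (pow_one _) _
    (coe_incQ N q M e hN i hi _)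

/-- Horizontal integrality of `f(q^i τ)` when `f(q^i τ)` is a unit off the cusps. -/
theorem isIntegral_incL0_of_unitOff (i : ℕ) (hi : i ≤ e) (x : ↥(L0 A M))
    (hx : IsUnitOff N (incQ N q M e hN i hi (x : FN M))) :
    IsIntegral ↥(Algebra.adjoin ↥(Kur A) ({j0 A N} : Set ↥(L0 A N)))
      (incL0 A N q M e hN i hi x) :=
  isIntegral_Kur_of_bar A _ _ (isIntegral_bar_of_unitOff hx)

/-- **Horizontal integrality of the local equation** for `f = Δ(t)/Δ(t⁴)`. -/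
theorem isIntegral_piUo_u4 (h4 : 4 ∣ M) (a : ℕ) (hae : a ≤ e) :
    IsIntegral ↥(Algebra.adjoin ↥(Kur A) ({j0 A N} : Set ↥(L0 A N)))
      (piUo A N q M e hN (unitF M 4 h4) H73.uZ4 (H73.coeffMap_uZ4_Kbar M h4) a hae) := by
  rw [piUo]
  exact (isIntegral_incL0_of_unitOff A N q M e hN _ _ _
      (isUnitOff_incQ_unitF N q M e hN _ _ 4 h4)).sub
    (isIntegral_incL0_of_unitOff A N q M e hN _ _ _
      (isUnitOff_incQ_unitF N q M e hN _ _ 4 h4))

theorem isUnitOff_incQ_wU4 (h4 : 4 ∣ M) (i : ℕ) (hi : i ≤ e) :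
    IsUnitOff N (incQ N q M e hN i hi
      (((wU4 A M h4 : ↥(Fermat.Agent.S36.NU.H23.VE0 A M)) : ↥(L0 A M)) : FN M)) := by
  have hu2 := isUnitOff_incQ_unitF N q M e hN i hi 2 (two_dvd_of_four M h4)
  have hu4 := isUnitOff_incQ_unitF N q M e hN i hi 4 h4
  rw [coe_wU4, map_mul, map_pow, map_pow, map_mul, map_inv₀]
  exact (hu2.pow 6).mul ((hu4.mul hu2.inv).pow 16)

theorem isUnitOff_incQ_wU4i (h4 : 4 ∣ M) (i : ℕ) (hi : i ≤ e) :
    IsUnitOff N (incQ N q M e hN i hi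
      (((wU4i A M h4 : ↥(Fermat.Agent.S36.NU.H23.VE0 A M)) : ↥(L0 A M)) : FN M)) := by
  have hu2 := isUnitOff_incQ_unitF N q M e hN i hi 2 (two_dvd_of_four M h4)
  have hu4 := isUnitOff_incQ_unitF N q M e hN i hi 4 h4
  rw [coe_wU4i, map_mul, map_pow, map_pow, map_mul, map_inv₀, map_inv₀]
  exact (hu2.inv.pow 6).mul ((hu4.inv.mul hu2).pow 16)

/-- The unit `(v⁶ v₂¹⁶)(q^i τ)` of level `N`. -/
def WoU4 (h4 : 4 ∣ M) (i : ℕ) (hi : i ≤ e) : ↥(L0 A N) :=
  incL0 A N q M e hN i hi ((wU4 A M h4 : ↥(Fermat.Agent.S36.NU.H23.VE0 A M)) : ↥(L0 A M))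

/-- Its inverse. -/
def WoU4i (h4 : 4 ∣ M) (i : ℕ) (hi : i ≤ e) : ↥(L0 A N) :=
  incL0 A N q M e hN i hi ((wU4i A M h4 : ↥(Fermat.Agent.S36.NU.H23.VE0 A M)) : ↥(L0 A M))

theorem WoU4_mul_WoU4i (h4 : 4 ∣ M) (i : ℕ) (hi : i ≤ e) :
    WoU4 A N q M e hN h4 i hi * WoU4i A N q M e hN h4 i hi = 1 := by
  rw [WoU4, WoU4i, ← map_mul]
  have h1 : ((wU4 A M h4 : ↥(Fermat.Agent.S36.NU.H23.VE0 A M)) : ↥(L0 A M))
      * ((wU4i A M h4 : ↥(Fermat.Agent.S36.NU.H23.VE0 A M)) : ↥(L0 A M)) = 1 :=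
    congrArg Subtype.val (wU4_mul_wU4i A M h4)
  rw [h1, map_one]

theorem isIntegral_WoU4 (h4 : 4 ∣ M) (i : ℕ) (hi : i ≤ e) :
    IsIntegral ↥(Algebra.adjoin ↥(Kur A) ({j0 A N} : Set ↥(L0 A N)))
      (WoU4 A N q M e hN h4 i hi) :=
  isIntegral_incL0_of_unitOff A N q M e hN _ _ _ (isUnitOff_incQ_wU4 A N q M e hN h4 i hi)

theorem isIntegral_WoU4i (h4 : 4 ∣ M) (i : ℕ) (hi : i ≤ e) :
    IsIntegral ↥(Algebra.adjoin ↥(Kur A) ({j0 A N} : Set ↥(L0 A N)))
      (WoU4i A N q M e hN h4 i hi) :=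
  isIntegral_incL0_of_unitOff A N q M e hN _ _ _ (isUnitOff_incQ_wU4i A N q M e hN h4 i hi)

theorem WoU4_mem_VE (h4 : 4 ∣ M) (i : ℕ) (hi : i ≤ e) (b : ℕ) :
    WoU4 A N q M e hN h4 i hi ∈ VE A N q M e B k hN hB hq b :=
  incL0_mem_VE A N q M e B k hN hB hq _ _ b _ (wU4 A M h4).2

theorem WoU4i_mem_VE (h4 : 4 ∣ M) (i : ℕ) (hi : i ≤ e) (b : ℕ) :
    WoU4i A N q M e hN h4 i hi ∈ VE A N q M e B k hN hB hq b :=
  incL0_mem_VE A N q M e B k hN hB hq _ _ b _ (wU4i A M h4).2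

/-- The reduction of `(v⁶ v₂¹⁶)(q^i τ)`, `i = a - min a (e - a)`, on the component `a`. -/
theorem sE_WoU4 (h4 : 4 ∣ M) (a : ℕ) (hae : a ≤ e)
    (h : WoU4 A N q M e hN h4 (a - min a (e - a)) (sub_min_le e a hae)
      ∈ VE A N q M e B k hN hB hq a) :
    haveI : NeZero (q ^ dE e a) := ⟨pow_ne_zero _ (NeZero.ne q)⟩
    _root_.Fermat.Agent.S45.NUE.H23.sE A N q M e B k hN hB hq a ⟨WoU4 A N q M e hN h4 (a - min a (e - a)) (sub_min_le e a hae), h⟩
      = qExpand (kV A) (q ^ dE e a) (H73.vbar (kV A) ^ 6 * H73.vbar2 (kV A) ^ 16) := by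
  haveI : NeZero (q ^ dE e a) := ⟨pow_ne_zero _ (NeZero.ne q)⟩
  haveI : NeZero (q ^ (e - 2 * a + (a - min a (e - a)))) := ⟨pow_ne_zero _ (NeZero.ne q)⟩
  have e2 : e - 2 * a + (a - min a (e - a)) = dE e a := by rw [dE]; omega
  rw [← sE0_wU4 A M h4, ← Fermat.Agent.BAD.H73.qExpand_congr (congrArg (q ^ ·) e2)]
  exact sE_incL0_le A N q M e B k hN hB hq _ (sub_min_le e a hae) a (Nat.sub_le _ _)
    (wU4 A M h4) h

include hq in
/-- **The certificate of the component `0 < a < e`** for `q ≥ 5`, `4 ∣ M`. -/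
theorem midCertE_u4 (hA : (q : Kbar) ∈ A.nonunits) (h5 : 5 ≤ q) (h4 : 4 ∣ M)
    (a : ℕ) (ha1 : 1 ≤ a) (hae : a < e) :
    MidCertE A N q M e B k hN hB hq a ha1 hae := by
  haveI : Fact q.Prime := ⟨hq⟩
  haveI : CharP (kV A) q := Fermat.Agent.BAD.H82.charP_kV A hq hA
  have h3 : (3 : kV A) ≠ 0 := by
    intro h
    have h' : ((3 : ℕ) : kV A) = 0 := by exact_mod_cast h
    have hdvd := (CharP.cast_eq_zero_iff (kV A) q 3).1 h'
    have := Nat.le_of_dvd (by norm_num) hdvd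
    omega
  have hε := resV_epsU_ne_zero A q M e B k hB hq a ha1 hae
  refine ⟨unitF M 4 h4, H73.uZ4, H73.coeffMap_uZ4_Kbar M h4, 12, 11,
    resV A ⟨epsU q e a B, epsU_mem A q M e B k hB hq a ha1 hae⟩ ^ 12
      * 3 ^ (12 * Nat.totient (q ^ min a (e - a))),
    WoU4 A N q M e hN h4 (a - min a (e - a)) (sub_min_le e a hae.le)
      ^ Nat.totient (q ^ min a (e - a)),
    WoU4i A N q M e hN h4 (a - min a (e - a)) (sub_min_le e a hae.le)
      ^ Nat.totient (q ^ min a (e - a)),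
    isIntegral_piUo_u4 A N q M e hN h4 a hae.le, by norm_num,
    mul_ne_zero (pow_ne_zero _ hε) (pow_ne_zero _ h3), ?_, ?_, ?_, ?_, ?_⟩
  · rw [← mul_pow, WoU4_mul_WoU4i, one_pow]
  · exact (isIntegral_WoU4 A N q M e hN h4 _ _).pow _
  · exact (isIntegral_WoU4i A N q M e hN h4 _ _).pow _
  · exact fun b _ => ⟨pow_mem (WoU4_mem_VE A N q M e B k hN hB hq h4 _ _ b) _,
      pow_mem (WoU4i_mem_VE A N q M e B k hN hB hq h4 _ _ b) _⟩
  · intro hU
    have e1 := SubmonoidClass.mk_pow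
      (WoU4 A N q M e hN h4 (a - min a (e - a)) (sub_min_le e a hae.le))
      (WoU4_mem_VE A N q M e B k hN hB hq h4 _ _ a) (Nat.totient (q ^ min a (e - a)))
    have e1' : (⟨WoU4 A N q M e hN h4 (a - min a (e - a)) (sub_min_le e a hae.le)
        ^ Nat.totient (q ^ min a (e - a)), hU⟩ : ↥(VE A N q M e B k hN hB hq a))
        = ⟨WoU4 A N q M e hN h4 (a - min a (e - a)) (sub_min_le e a hae.le),
            WoU4_mem_VE A N q M e B k hN hB hq h4 _ _ a⟩ ^ Nat.totient (q ^ min a (e - a)) :=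
      e1.symm
    rw [e1', map_pow, sE_WoU4 A N q M e B k hN hB hq h4 a hae.le, H73.coeffMap_uZ4]
    exact Fermat.Agent.S45.NUE.H26.serJ3 A q hq hA e a ha1 hae _

end Level

end Fermat.Agent.S45.NUE.H99

end
end
-- ==== END Fermat.Agent.S45.NUE.H99_OrdCertU4
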