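-- GENERATED (merged mirror, NOTES/tools/trim/merge3_helper67.py): 1 modules of the originals, bodies verbatim.
import Fermat.Agent.Zm.S45_L01_002
import Fermat.Agent.Zm.S45_L05_000
import Fermat.Agent.Zm.S36_L14_001

-- ==== BEGIN Fermat.Agent.S45.NUE.H54_SepMod
section

/-!
# S45 / NU_e, package E-CHART (helper54): separating elements and `ChartHyp`, modular instance

Level `N = M q^e`, `q ∤ M` (`B M + k q^e = 1`), `A` over `q`, `VE a`, `sE a` (`a = 0..e`) the
Gauss valuations and residue maps of helper23 (`H23_ValE`), `j0 = j (τ)`, `jEE = j (q^e τ)`.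

* `Jred_pow_frob` : `j~ ^ q^m = j~ (s^(q^m))`;
* `sE_j0`, `sE_jEE` : `sE a j0 = j~ (s^(q^(e - 2a)))`, `sE a jEE = j~ (s^(q^(2a - e)))`
  (truncated subtractions): the pattern `F^a V^(e-a)`;
* `BridgeE T idx σ` : a conservation datum `T` of `L0 A N` whose valuation rings are the
  `VE (idx i)` and whose residue maps are the `sE (idx i)` after the embeddings
  `σ i : κ i →+* k((s))` (the interface to E-TOT);
* `frobPattern_of_bridge` : the `FrobPattern` of `H54_SepAbs`;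
* `chartInput0E`, `chartInputInfE` : the inputs of the charts of `j` and of `1 / j`;
* `rdN_j0_ne_zero` : `j` is a unit for all the valuations;
* `jEE_mem_intSub` : `j (q^e τ)` lies in the integral closure of `R[j]` (from TI3-VAL, e.g.
  helper28's `critE`);
* `chartHyp0E`, `chartHypInfE` : **`ChartHyp`** for the two charts.
-/

set_option autoImplicit false
set_option synthInstance.maxHeartbeats 400000
set_option maxHeartbeats 1000000
set_option linter.unusedSectionVars false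
set_option linter.unusedVariables false
set_option linter.style.haveILetI false

noncomputable section

namespace Fermat.Agent.S45.NUE.H54

open Fermat.Agent.S24 Fermat.Agent.BAD.H88 ModularCurve AlgebraicCurve
open Fermat.Agent.S28 Fermat.Agent.S28.H73 Fermat.Agent.RED.H73 Fermat.Agent.RED.H17
open Fermat.Agent.S36.NU.H16 Fermat.Agent.S36.NU.H17 Fermat.Agent.S36.NU.H24
  Fermat.Agent.S36.NU.H65 Fermat.Agent.S36.NU.H79 Fermat.Agent.S36.NU.H88
  Fermat.Agent.S36.NU.H41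
open Fermat.Agent.S45.NUE.H23
open Fermat.Agent.S45.NUE.H73 (jdF_congr)

local notation "L0" => Fermat.Agent.S36.NU.H23.L0

/-! ### Frobenius on the reduction of `j` -/

section Frob

variable (A : ValuationSubring Kbar) (q : ℕ) [NeZero q] (hq : q.Prime)
  (hA : A.LiesOverPrime q)

include hq hA in
/-- `j~ ^ q^m = j~ (s^(q^m))`. -/
theorem Jred_pow_frob (m : ℕ) : _root_.Fermat.Agent.S36.NU.H88.Jred A ^ q ^ m = qExpand (kV A) (q ^ m) (_root_.Fermat.Agent.S36.NU.H88.Jred A) := by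
  haveI : Fact q.Prime := ⟨hq⟩
  haveI : CharP (kV A) q := Fermat.Agent.BAD.H82.charP_kV A hq hA
  have h1 : _root_.Fermat.Agent.S36.NU.H88.Jred A ^ q = qExpand (kV A) q (_root_.Fermat.Agent.S36.NU.H88.Jred A) := intRed_pow q jInt
  induction m with
  | zero =>
    have h0 : qExpand (kV A) (q ^ 0) (_root_.Fermat.Agent.S36.NU.H88.Jred A) = _root_.Fermat.Agent.S36.NU.H88.Jred A :=
      (qExpand_congr (pow_zero q) (_root_.Fermat.Agent.S36.NU.H88.Jred A)).trans (qExpand_one_apply _)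
    rw [h0, pow_zero, pow_one]
  | succ m ih =>
    have h2 : qExpand (kV A) (q ^ (m + 1)) (_root_.Fermat.Agent.S36.NU.H88.Jred A)
        = qExpand (kV A) (q ^ m) (qExpand (kV A) q (_root_.Fermat.Agent.S36.NU.H88.Jred A)) := by
      rw [qExpand_qExpand]
      exact qExpand_congr (pow_succ q m) _
    calc _root_.Fermat.Agent.S36.NU.H88.Jred A ^ q ^ (m + 1) = (_root_.Fermat.Agent.S36.NU.H88.Jred A ^ q ^ m) ^ q := by rw [pow_succ, pow_mul]
      _ = (qExpand (kV A) (q ^ m) (_root_.Fermat.Agent.S36.NU.H88.Jred A)) ^ q := by rw [ih]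
      _ = qExpand (kV A) (q ^ m) (_root_.Fermat.Agent.S36.NU.H88.Jred A ^ q) := (map_pow _ _ _).symm
      _ = qExpand (kV A) (q ^ m) (qExpand (kV A) q (_root_.Fermat.Agent.S36.NU.H88.Jred A)) := by rw [h1]
      _ = qExpand (kV A) (q ^ (m + 1)) (_root_.Fermat.Agent.S36.NU.H88.Jred A) := h2.symm

include hq in
/-- `j~ (s^(q^m)) ≠ j~` for `m > 0`. -/
theorem qExpand_pow_ne_Jred (m : ℕ) (hm : 0 < m) :
    qExpand (kV A) (q ^ m) (_root_.Fermat.Agent.S36.NU.H88.Jred A) ≠ _root_.Fermat.Agent.S36.NU.H88.Jred A :=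
  qExpand_ne_self q (q ^ m) (dvd_pow_self q hm.ne') (_root_.Fermat.Agent.S36.NU.H88.Jred A) (thetaNZ_jInt q (kV A) hq)

include hq hA in
theorem Jred_pow_ne (m : ℕ) (hm : 0 < m) : _root_.Fermat.Agent.S36.NU.H88.Jred A ^ q ^ m ≠ _root_.Fermat.Agent.S36.NU.H88.Jred A := by
  rw [Jred_pow_frob A q hq hA]
  exact qExpand_pow_ne_Jred A q hq m hm

include hq in
theorem Jred_pow_ne_zero (m : ℕ) : _root_.Fermat.Agent.S36.NU.H88.Jred A ^ m ≠ 0 :=
  pow_ne_zero _ (Jred_ne_zero A q hq)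

theorem Jred_eq_jq : _root_.Fermat.Agent.S36.NU.H88.Jred A = jqModC (kV A) := by
  show coeffMap (Int.castRingHom (kV A)) (qExpand ℤ 1 (jqModC ℤ)) = jqModC (kV A)
  rw [qExpand_one_apply, coeffMap_jqModC]

end Frob

/-! ### The reductions of `j (τ)` and `j (q^e τ)` -/

section Level

variable (A : ValuationSubring Kbar)
variable (N q M e : ℕ) (B k : ℤ) (hN : N = M * q ^ e) (hB : B * M + k * (q : ℤ) ^ e = 1)
  (hq : q.Prime) [NeZero N] [NeZero q] [NeZero M]

include hN in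
theorem pow_dvd_lvl : q ^ e ∣ N := ⟨M, by rw [hN, mul_comm]⟩

/-- `j (q^e τ)` as an inertia-fixed function of level `N`. -/
def jEE (hD : q ^ e ∣ N) : ↥(L0 A N) :=
  ⟨jdF N (q ^ e) hD, Fermat.Agent.S36.NU.H23.jdF_mem_L0 A N _ hD⟩

theorem coe_jEE (hD : q ^ e ∣ N) : ((jEE A N q e hD : ↥(L0 A N)) : FN N) = jdF N (q ^ e) hD :=
  rfl

theorem j0_eq_jdF (hD : 1 * q ^ 0 ∣ N) :
    j0 A N = ⟨jdF N (1 * q ^ 0) hD, Fermat.Agent.S36.NU.H23.jdF_mem_L0 A N _ hD⟩ :=
  Subtype.ext (by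
    rw [coe_j0']
    show jdF N 1 (one_dvd N) = jdF N (1 * q ^ 0) hD
    exact jdF_congr N (by rw [pow_zero, mul_one]) (one_dvd N) hD)

theorem jEE_eq_jdF (hD : q ^ e ∣ N) (hD' : 1 * q ^ e ∣ N) :
    jEE A N q e hD = ⟨jdF N (1 * q ^ e) hD', Fermat.Agent.S36.NU.H23.jdF_mem_L0 A N _ hD'⟩ :=
  Subtype.ext (by
    rw [coe_jEE]
    show jdF N (q ^ e) hD = jdF N (1 * q ^ e) hD'
    exact jdF_congr N (one_mul _).symm hD hD')

include hN hB hq in
theorem j0_mem_VE (a : ℕ) : j0 A N ∈ VE A N q M e B k hN hB hq a := by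
  have hD : 1 * q ^ 0 ∣ N := by rw [pow_zero, mul_one]; exact one_dvd N
  rw [j0_eq_jdF A N q hD]
  exact Fermat.Agent.S45.NUE.H17.jdF_mem_VE_le A N q M e B k hN hB hq 1 M 0 a (one_mul M).symm
    (Nat.zero_le a) hD

include hN hB hq in
/-- `sE a j = j~ (s^(q^(e - 2a)))`. -/
theorem sE_j0 (a : ℕ) (hmem : j0 A N ∈ VE A N q M e B k hN hB hq a) :
    sE A N q M e B k hN hB hq a ⟨j0 A N, hmem⟩ = qExpand (kV A) (q ^ (e - 2 * a)) (_root_.Fermat.Agent.S36.NU.H88.Jred A) := by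
  have hD : 1 * q ^ 0 ∣ N := by rw [pow_zero, mul_one]; exact one_dvd N
  have e0 := j0_eq_jdF A N q hD
  have hmem' : (⟨jdF N (1 * q ^ 0) hD, Fermat.Agent.S36.NU.H23.jdF_mem_L0 A N _ hD⟩ : ↥(L0 A N))
      ∈ VE A N q M e B k hN hB hq a := e0 ▸ hmem
  have h1 := Fermat.Agent.S45.NUE.H17.sE_jdF_le A N q M e B k hN hB hq 1 M 0 a (one_mul M).symm
    (Nat.zero_le a) hD hmem'
  have e1 : (⟨j0 A N, hmem⟩ : ↥(VE A N q M e B k hN hB hq a)) = ⟨_, hmem'⟩ := Subtype.ext e0
  rw [e1, h1, Jred_eq_jq A]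
  exact qExpand_congr (by rw [one_mul, add_zero]) _

include hN hB hq in
theorem jEE_mem_VE (hD : q ^ e ∣ N) (a : ℕ) (hae : a ≤ e) :
    jEE A N q e hD ∈ VE A N q M e B k hN hB hq a := by
  have hD' : 1 * q ^ e ∣ N := by rw [one_mul]; exact hD
  rw [jEE_eq_jdF A N q e hD hD']
  rcases Nat.lt_or_ge a e with h | h
  · exact Fermat.Agent.S45.NUE.H17.jdF_mem_VE_gt A N q M e B k hN hB hq 1 M e a
      (one_mul M).symm h le_rfl hD'
  · exact Fermat.Agent.S45.NUE.H17.jdF_mem_VE_le A N q M e B k hN hB hq 1 M e a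
      (one_mul M).symm h hD'

include hN hB hq in
/-- `sE a (j (q^e τ)) = j~ (s^(q^(2a - e)))`. -/
theorem sE_jEE (hA : A.LiesOverPrime q) (hD : q ^ e ∣ N) (a : ℕ) (hae : a ≤ e)
    (hmem : jEE A N q e hD ∈ VE A N q M e B k hN hB hq a) :
    sE A N q M e B k hN hB hq a ⟨jEE A N q e hD, hmem⟩
      = qExpand (kV A) (q ^ (2 * a - e)) (_root_.Fermat.Agent.S36.NU.H88.Jred A) := by
  have hD' : 1 * q ^ e ∣ N := by rw [one_mul]; exact hD
  have e0 := jEE_eq_jdF A N q e hD hD'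
  have hmem' : (⟨jdF N (1 * q ^ e) hD', Fermat.Agent.S36.NU.H23.jdF_mem_L0 A N _ hD'⟩ :
      ↥(L0 A N)) ∈ VE A N q M e B k hN hB hq a := e0 ▸ hmem
  have e1 : (⟨jEE A N q e hD, hmem⟩ : ↥(VE A N q M e B k hN hB hq a)) = ⟨_, hmem'⟩ :=
    Subtype.ext e0
  rw [e1, Jred_eq_jq A]
  rcases Nat.lt_or_ge a e with h | h
  · rw [Fermat.Agent.S45.NUE.H17.sE_jdF_gt A N q M e B k hN hB hq hA 1 M e a (one_mul M).symm h
      le_rfl hD' hmem']
    exact qExpand_congr (by rw [one_mul]; congr 1; omega) _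
  · rw [Fermat.Agent.S45.NUE.H17.sE_jdF_le A N q M e B k hN hB hq 1 M e a (one_mul M).symm h
      hD' hmem']
    exact qExpand_congr (by rw [one_mul]; congr 1; omega) _

/-! ### Constants -/

include hN hB hq in
theorem const_mem_VE (a : ℕ) (r : ↥(Rur A)) :
    algebraMap ↥(Rur A) ↥(L0 A N) r ∈ VE A N q M e B k hN hB hq a := by
  haveI := neZero_nE N q M e B k hN hB hq a
  have h : algebraMap Kbar (FN N) (((r : ↥(Kur A)) : Kbar))
      ∈ VG (hE N q M e B k hN hB hq a) A :=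
    (const_memG (hE N q M e B k hN hB hq a) A _).mpr r.2
  exact h

include hN hB hq in
theorem sE_const (a : ℕ) (r : ↥(Rur A))
    (h : algebraMap ↥(Rur A) ↥(L0 A N) r ∈ VE A N q M e B k hN hB hq a) :
    sE A N q M e B k hN hB hq a ⟨_, h⟩
      = algebraMap (kV A) (LaurentSeries (kV A)) (resRur A r) := by
  haveI := neZero_nE N q M e B k hN hB hq a
  have hG : algebraMap Kbar (FN N) (((r : ↥(Kur A)) : Kbar))
      ∈ VG (hE N q M e B k hN hB hq a) A := h
  show ((redG (hE N q M e B k hN hB hq a) A ⟨_, hG⟩ : RG (hE N q M e B k hN hB hq a) A) :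
    LaurentSeries (kV A)) = _
  rw [redG_const (hE N q M e B k hN hB hq a) A ⟨((r : ↥(Kur A)) : Kbar), r.2⟩ hG]
  rfl

end Level

/-! ### The bridge to a conservation datum -/

section Bridge

variable (A : ValuationSubring Kbar)
variable (N q M e : ℕ) (B k : ℤ) (hN : N = M * q ^ e) (hB : B * M + k * (q : ℤ) ^ e = 1)
  (hq : q.Prime) [NeZero N] [NeZero q] [NeZero M]
variable {K L kk ι Z : Type*} {κ : ι → Type*} [Field K] [Field L] [Algebra K L]
  [Algebra ↥(L0 A N) L] [Field kk] [Fintype ι] [∀ i, Field (κ i)] [∀ i, Algebra kk (κ i)]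

/-- **The interface to E-TOT**: the valuation rings of `T` are the `VE (idx i)` and the
residue maps of `T` are the `sE (idx i)` after the embeddings `σ i` of the residue fields into
`k((s))`. -/
structure BridgeE (T : TotN K ↥(L0 A N) L kk ι Z κ) (idx : ι → ℕ)
    (σ : ∀ i, κ i →+* LaurentSeries (kV A)) : Prop where
  idx_inj : Function.Injective idx
  idx_le : ∀ i, idx i ≤ e
  V_eq : ∀ i, T.V i = VE A N q M e B k hN hB hq (idx i)
  red_eq : ∀ (i : ι) (x : ↥(L0 A N)) (hT : x ∈ T.V i)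
    (hx : x ∈ VE A N q M e B k hN hB hq (idx i)),
    σ i (T.red i ⟨x, hT⟩) = sE A N q M e B k hN hB hq (idx i) ⟨x, hx⟩

variable {A N q M e B k hN hB hq}
variable {T : TotN K ↥(L0 A N) L kk ι Z κ} {idx : ι → ℕ}
  {σ : ∀ i, κ i →+* LaurentSeries (kV A)}

theorem BridgeE.mem_iff (hb : BridgeE A N q M e B k hN hB hq T idx σ) (i : ι) (x : ↥(L0 A N)) :
    x ∈ T.V i ↔ x ∈ VE A N q M e B k hN hB hq (idx i) := by
  rw [hb.V_eq i]

theorem BridgeE.rdN_eq (hb : BridgeE A N q M e B k hN hB hq T idx σ) (i : ι) (x : ↥(L0 A N))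
    (hx : x ∈ VE A N q M e B k hN hB hq (idx i)) :
    σ i (T.rdN i x) = sE A N q M e B k hN hB hq (idx i) ⟨x, hx⟩ := by
  have hT : x ∈ T.V i := (hb.mem_iff i x).2 hx
  rw [T.rdN_of_mem hT]
  exact hb.red_eq i x hT hx

theorem BridgeE.charP (hb : BridgeE A N q M e B k hN hB hq T idx σ) (hA : A.LiesOverPrime q)
    (i : ι) : CharP (κ i) q := by
  haveI : CharP (kV A) q := Fermat.Agent.BAD.H82.charP_kV A hq hA
  haveI : CharP (LaurentSeries (kV A)) q :=
    charP_of_injective_algebraMap (algebraMap (kV A) (LaurentSeries (kV A))).injective q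
  exact (RingHom.charP_iff (σ i) (σ i).injective q).2 inferInstance

/-- The reduction of `j`. -/
theorem BridgeE.red_j0 (hb : BridgeE A N q M e B k hN hB hq T idx σ) (hA : A.LiesOverPrime q)
    (i : ι) : σ i (T.rdN i (j0 A N)) = _root_.Fermat.Agent.S36.NU.H88.Jred A ^ q ^ (e - 2 * idx i) := by
  rw [hb.rdN_eq i _ (j0_mem_VE A N q M e B k hN hB hq _), sE_j0, Jred_pow_frob A q hq hA]

/-- The reduction of `j (q^e τ)`. -/
theorem BridgeE.red_jEE (hb : BridgeE A N q M e B k hN hB hq T idx σ) (hA : A.LiesOverPrime q)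
    (hD : q ^ e ∣ N) (i : ι) :
    σ i (T.rdN i (jEE A N q e hD)) = _root_.Fermat.Agent.S36.NU.H88.Jred A ^ q ^ (2 * idx i - e) := by
  rw [hb.rdN_eq i _ (jEE_mem_VE A N q M e B k hN hB hq hD _ (hb.idx_le i)),
    sE_jEE A N q M e B k hN hB hq hA hD _ (hb.idx_le i), Jred_pow_frob A q hq hA]

/-- **The pattern `F^a V^(e-a)`** of the reductions of `j (τ)` and `j (q^e τ)`. -/
theorem frobPattern_of_bridge (hb : BridgeE A N q M e B k hN hB hq T idx σ)
    (hA : A.LiesOverPrime q) (hD : q ^ e ∣ N) :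
    FrobPattern T e q idx (j0 A N) (jEE A N q e hD) where
  q_prime := hq
  charq := hb.charP hA
  idx_inj := hb.idx_inj
  mem0 := fun i => (hb.mem_iff i _).2 (j0_mem_VE A N q M e B k hN hB hq _)
  memE := fun i => (hb.mem_iff i _).2 (jEE_mem_VE A N q M e B k hN hB hq hD _ (hb.idx_le i))
  ge := fun i h => (σ i).injective (by
    rw [map_pow, hb.red_j0 hA, hb.red_jEE hA hD, show e - 2 * idx i = 0 by omega, pow_zero,
      pow_one])
  le := fun i h => (σ i).injective (by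
    rw [map_pow, hb.red_j0 hA, hb.red_jEE hA hD, show 2 * idx i - e = 0 by omega, pow_zero,
      pow_one])
  nc0 := fun i h m hm h1 => by
    have h2 := congrArg (σ i) h1
    rw [map_pow, hb.red_j0 hA, show e - 2 * idx i = 0 by omega, pow_zero, pow_one] at h2
    exact Jred_pow_ne A q hq hA m hm h2
  ncE := fun i h m hm h1 => by
    have h2 := congrArg (σ i) h1
    rw [map_pow, hb.red_jEE hA hD, show 2 * idx i - e = 0 by omega, pow_zero, pow_one] at h2
    exact Jred_pow_ne A q hq hA m hm h2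

/-- `j` is a unit for all the valuations. -/
theorem BridgeE.rdN_j0_ne_zero (hb : BridgeE A N q M e B k hN hB hq T idx σ)
    (hA : A.LiesOverPrime q) (i : ι) : T.rdN i (j0 A N) ≠ 0 := by
  intro h
  have h1 := hb.red_j0 hA i
  rw [h, map_zero] at h1
  exact Jred_pow_ne_zero A q hq _ h1.symm

/-- `j (q^e τ)` is a unit for all the valuations. -/
theorem BridgeE.rdN_jEE_ne_zero (hb : BridgeE A N q M e B k hN hB hq T idx σ)
    (hA : A.LiesOverPrime q) (hD : q ^ e ∣ N) (i : ι) : T.rdN i (jEE A N q e hD) ≠ 0 := by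
  intro h
  have h1 := hb.red_jEE hA hD i
  rw [h, map_zero] at h1
  exact Jred_pow_ne_zero A q hq _ h1.symm

/-- `j (q^e τ)` lies in the integral closure of `R[j]`, from TI3-VAL. -/
theorem BridgeE.jEE_mem_intSub (hb : BridgeE A N q M e B k hN hB hq T idx σ) (hD : q ^ e ∣ N)
    (hcrit : ∀ f : ↥(L0 A N), IsIntegral ↥(Algebra.adjoin ↥(Kur A) {j0 A N}) f →
      (∀ i, f ∈ T.V i) → f ∈ intSub ↥(Rur A) (j0 A N)) :
    jEE A N q e hD ∈ intSub ↥(Rur A) (j0 A N) :=
  hcrit _ (isIntegral_jdF_L0 A N (q ^ e) hD)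
    (fun i => (hb.mem_iff i _).2 (jEE_mem_VE A N q M e B k hN hB hq hD _ (hb.idx_le i)))

/-- **`ChartHyp` for the chart of `j`** (any residue map `res` of the constants). -/
theorem chartHyp0E (hb : BridgeE A N q M e B k hN hB hq T idx σ) (hA : A.LiesOverPrime q)
    (hD : q ^ e ∣ N) (res : ↥(Rur A) →+* kk) (h0 : ChartInput T (j0 A N) res)
    (hintE : jEE A N q e hD ∈ intSub ↥(Rur A) (j0 A N))
    (n : ℕ) (hn : 0 < n) (hcop : Nat.Coprime n q) :
    ChartHyp (chartOf T (j0 A N) res h0) q n :=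
  chartHyp_of_frob (frobPattern_of_bridge hb hA hD) (j0 A N) res h0 (self_mem_intSub _ _) hintE
    n hn hcop

/-- **`ChartHyp` for the chart of `1 / j`.** -/
theorem chartHypInfE (hb : BridgeE A N q M e B k hN hB hq T idx σ) (hA : A.LiesOverPrime q)
    (hD : q ^ e ∣ N) (res : ↥(Rur A) →+* kk) (h0 : ChartInput T (j0 A N) res)
    (hoo : ChartInput T (j0 A N)⁻¹ res)
    (hintE : jEE A N q e hD ∈ intSub ↥(Rur A) (j0 A N))
    (n : ℕ) (hn : 0 < n) (hcop : Nat.Coprime n q) :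
    ChartHyp (chartOf T (j0 A N)⁻¹ res hoo) q n :=
  chartHyp_chartOf T _ res hoo q n hq (hb.charP hA) hn hcop
    (hinc_inv T _ res h0 (hb.rdN_j0_ne_zero hA)
      (hinc_of_frob (frobPattern_of_bridge hb hA hD) (j0 A N) (self_mem_intSub _ _) hintE))

end Bridge

/-! ### The inputs of the charts -/

section Input

variable (A : ValuationSubring Kbar)
variable (N q M e : ℕ) (B k : ℤ) (hN : N = M * q ^ e) (hB : B * M + k * (q : ℤ) ^ e = 1)
  (hq : q.Prime) [NeZero N] [NeZero q] [NeZero M]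
variable {K L ι Z : Type*} {κ : ι → Type*} [Field K] [Field L] [Algebra K L]
  [Algebra ↥(L0 A N) L] [Fintype ι] [∀ i, Field (κ i)] [∀ i, Algebra (kV A) (κ i)]

variable {A N q M e B k hN hB hq}
variable {T : TotN K ↥(L0 A N) L (kV A) ι Z κ} {idx : ι → ℕ}
  {σ : ∀ i, κ i →+* LaurentSeries (kV A)}

/-- **The input of the chart of `j`.** -/
theorem chartInput0E (hb : BridgeE A N q M e B k hN hB hq T idx σ) (hA : A.LiesOverPrime q)
    (hσ : ∀ (i : ι) (c : kV A),
      σ i (algebraMap (kV A) (κ i) c) = algebraMap (kV A) (LaurentSeries (kV A)) c) :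
    ChartInput T (j0 A N) (resRur A) where
  res_surj := resRur_surjective A hq hA
  const_mem := fun i r => (hb.mem_iff i _).2 (const_mem_VE A N q M e B k hN hB hq _ r)
  j_mem := fun i => (hb.mem_iff i _).2 (j0_mem_VE A N q M e B k hN hB hq _)
  red_const := fun i r hr => (σ i).injective (by
    rw [hb.red_eq i _ hr (const_mem_VE A N q M e B k hN hB hq _ r), sE_const, hσ])

/-- **The input of the chart of `1 / j`.** -/
theorem chartInputInfE (hb : BridgeE A N q M e B k hN hB hq T idx σ) (hA : A.LiesOverPrime q)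
    (hσ : ∀ (i : ι) (c : kV A),
      σ i (algebraMap (kV A) (κ i) c) = algebraMap (kV A) (LaurentSeries (kV A)) c) :
    ChartInput T (j0 A N)⁻¹ (resRur A) :=
  (chartInput0E hb hA hσ).inv _ _ _ (hb.rdN_j0_ne_zero hA)

end Input

end Fermat.Agent.S45.NUE.H54

end
end
-- ==== END Fermat.Agent.S45.NUE.H54_SepMod
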