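-- GENERATED (merged mirror, NOTES/tools/trim/merge3_helper67.py): 4 modules of the originals, bodies verbatim.
import Fermat.Agent.Zm.S45_L05_000
import Fermat.Agent.Zm.S45_L01_000
import Fermat.Agent.Zm.S45_L09_000
import Fermat.Agent.Zm.S45_L05_001
import Fermat.Agent.Zm.S45_L06_000
import Fermat.Agent.Zm.S45_L01_003
import Fermat.Agent.Zm.S45_L02_000
import Fermat.Agent.Zm.S45_L08_000
import Fermat.Agent.Zm.S45_L06_003
import Fermat.Agent.Zm.S36_L11_001
import Fermat.Agent.Zm.S45_L08_001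
import Fermat.Agent.Zm.S36_L04_000

-- ==== BEGIN Fermat.Agent.S45.NUE.H16_HssETot
section

/-!
# S45 / NU_e, package E-FIN, leaf E-PT-SS, SS-ASM (helper16): the instance on `totEM`

Level `N = M q^e`, `q ∤ M`, `e ≥ 1`, `T = H23.totEM` (helper23), `C` ANY chart compatible with `T`
with `B = ` the integral closure of `R[j]` (helper74's `chart0E`), `i₀ = Fin.last e` the component
of the cusp `∞`.

* `RamE` : the leaf SS-RAM (a `Prop`, in the shape of `NOTES/plan/S45_EPTSS.md`);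
* `embE`, `totEM_pt_last` : the residue field and the point of the component `∞`;
* `hssE_tot_at_xy` : **SS-ASM at one point**, generic in the coordinates `x`, `y`;
* `hssE_tot_at` : **SS-ASM at one point**, generic in the coordinate pack
  `(f, u₀, hf, d, hd, n, hn, hfn)` and in the pole data `(c, u, δ)` at `z`
  (SS-FUN = helper12's `ss_fun`, SS-INT = helper12's `ss_int`, SS-POLE = helper66's `sE_dE`);
* `hssE_tot` : **the hypothesis `hss` of `H88.pointDataE_of_dichotomy`** (`SS = ssM A q M`),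
  generic in the coordinate pack, from `hpole : ∀ z ∈ ssM A q M, ∃ c u δ, …`;
* `hssE_five` : the case `q ≥ 5`, `4 ∣ M` (`f = Δ(t)/Δ(t⁴)`);
* `hssE_five_chart0E` : the same on helper74's `chart0E`.
-/

set_option autoImplicit false
set_option synthInstance.maxHeartbeats 400000
set_option maxHeartbeats 1000000
set_option linter.unusedSectionVars false
set_option linter.unusedVariables false
set_option linter.style.haveILetI false

noncomputable section

namespace Fermat.Agent.S45.NUE.H16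

open Fermat.Agent.S24 Fermat.Agent.BAD.H88 ModularCurve AlgebraicCurve Polynomial
open Fermat.Agent.S28 Fermat.Agent.S28.H73 Fermat.Agent.RED.H73 Fermat.Agent.RED.H17
open Fermat.Agent.S36.NU.H88 Fermat.Agent.S36.NU.H23 Fermat.Agent.S36.NU.H41
open Fermat.Agent.S36.NU.H65 Fermat.Agent.S36.NU.H16 Fermat.Agent.S36.NU.H24
open Fermat.Agent.S36.NU.H79 Fermat.Agent.S36.NU.H74 Fermat.Agent.S36.NU Fermat.Agent.BAD
open Fermat.Agent.S45.NUE.H23 Fermat.Agent.S45.NUE.H68

section Fun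

variable (A : ValuationSubring Kbar)
variable (N q M e : ℕ) (B k : ℤ) (hN : N = M * q ^ e) (hB : B * M + k * (q : ℤ) ^ e = 1)
  (hq : q.Prime) [NeZero N] [NeZero q] [NeZero M]
variable (u₀ : LaurentSeries ℤ)

/-- **The leaf SS-RAM** for the expansion `u₀`: on the component `n < e` the local equation
`tE n` is, up to a unit, a uniformiser of multiplicity `φ(q^min(n, e - n))`. -/
def RamE : Prop :=
  ∀ x y : ↥(L0 A N), ((x : FN N) : LaurentSeries Kbar) = intSer Kbar u₀ →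
    ((y : FN N) : LaurentSeries Kbar) = intSer Kbar (qExpand ℤ (q ^ e) u₀) →
    ∀ n, n < e → ∃ f' ∈ VE A N q M e B k hN hB hq n,
      (_root_.Fermat.Agent.S45.NUE.H68.tE q e n x y) ^ Nat.totient (q ^ min n (e - n)) = ((q : ℕ) : ↥(L0 A N)) * f'

end Fun

section Tot

variable (A : ValuationSubring Kbar)
variable (N q M e : ℕ) (B k : ℤ) (hN : N = M * q ^ e) (hB : B * M + k * (q : ℤ) ^ e = 1)
  (hq : q.Prime) [NeZero N] [NeZero q] [NeZero M] (hqM : ¬ q ∣ M) (hA : A.LiesOverPrime q)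
  (ht : H91.TameAt M q)

attribute [local instance] algkE

/-- The residue fields of `totEM` as subfields of `k((t))`. -/
def embE (i : Fin (e + 1)) : kapE A M e i →+* LaurentSeries (kV A) :=
  (redField A (modularFunctionFieldBar M) (hScM A M)).val.toRingHom

theorem embE_apply (i : Fin (e + 1)) (w : FM A M) :
    embE A M e i w = (w : LaurentSeries (kV A)) := rfl

/-- The point of the component of the cusp `∞` over `z` is `z`. -/
theorem totEM_pt_last (he : 0 < e) (z : Place (kV A) (FM A M)) :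
    (totEM A N q M e B k hN hB hq hqM hA ht he).pt (Fin.last e) z = z := by
  show ptE A q M e hq hqM hA (Fin.last e) z = z
  rw [ptE_apply]
  have h0 : wE e ((Fin.last e : Fin (e + 1)) : ℕ) = 0 := by
    rw [Fin.val_last, wE]
    omega
  rw [h0]
  rfl

/-- **SS-ASM at one point on `totEM`**, generic in the coordinates `x`, `y` and in the pole data
at `z`. -/
theorem hssE_tot_at_xy (he : 0 < e)
    (C : Chart ↥(Rur A) ↥(L0 A N) (kV A) (Fin (e + 1)) (kapE A M e))
    (hc : Compat C (totEM A N q M e B k hN hB hq hqM hA ht he))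
    (hB0 : C.B = intSub ↥(Rur A) (j0 A N))
    (hVal : H99.ValE C ((q : ℕ) : ↥(Rur A)) (fun i => mE q e (i : ℕ)))
    (hqV : ∀ i, ((q : ℕ) : ↥(L0 A N)) ∈ (C.V i).nonunits)
    (crit : ∀ f : ↥(L0 A N), IsIntegral ↥(Algebra.adjoin ↥(Kur A) {j0 A N}) f →
      (∀ i, f ∈ C.V i) → f ∈ C.B)
    (u₀ : LaurentSeries ℤ) (x y : ↥(L0 A N))
    (hx : ((x : FN N) : LaurentSeries Kbar) = intSer Kbar u₀)
    (hy : ((y : FN N) : LaurentSeries Kbar) = intSer Kbar (qExpand ℤ (q ^ e) u₀))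
    (hxI : IsIntegral ↥(Algebra.adjoin ↥(Kur A) {j0 A N}) x)
    (hyI : IsIntegral ↥(Algebra.adjoin ↥(Kur A) {j0 A N}) y)
    (hfun : ∀ n, n ≤ e → x ∈ VE A N q M e B k hN hB hq n ∧ y ∈ VE A N q M e B k hN hB hq n)
    (hram : ∀ n, n < e → ∃ f' ∈ VE A N q M e B k hN hB hq n,
      (_root_.Fermat.Agent.S45.NUE.H68.tE q e n x y) ^ Nat.totient (q ^ min n (e - n)) = ((q : ℕ) : ↥(L0 A N)) * f')
    (z : Place (kV A) (FM A M)) (c : kV A) (u δ : FM A M)
    (hu : (u : LaurentSeries (kV A)) = coeffMap (Int.castRingHom (kV A)) u₀)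
    (hδ : (δ : LaurentSeries (kV A)) = coeffMap (Int.castRingHom (kV A)) (kdel q u₀))
    (hord : z.ord (u - algebraMap (kV A) (FM A M) c) = 1) (hcc : c ^ q ^ 2 = c)
    (hδord : z.ord δ = -1)
    (𝔪 : Ideal C.B) (hmax : 𝔪.IsMaximal)
    (h𝔪 : ∀ β : C.B, β ∈ 𝔪 ↔
      VanAt ((totEM A N q M e B k hN hB hq hqM hA ht he).pt (Fin.last e) z)
        (C.rdB (Fin.last e) β)) :
    (∀ i, C.Icomp i ≤ 𝔪) ∧ Nonempty (LocEq C ((q : ℕ) : ↥(Rur A)) 𝔪) := by
  haveI : 𝔪.IsPrime := hmax.isPrime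
  haveI : CharP (kV A) q := Fermat.Agent.BAD.H82.charP_kV A hq hA
  haveI : CharP (kapE A M e (Fin.last e)) q :=
    charP_of_injective_algebraMap (algebraMap (kV A) (FM A M)).injective q
  rw [totEM_pt_last A N q M e B k hN hB hq hqM hA ht he z] at h𝔪
  have hV : ∀ i : Fin (e + 1), C.V i = VE A N q M e B k hN hB hq (i : ℕ) := fun i => hc.hV i
  have hemb : ∀ (f : ↥(L0 A N)) (hf : f ∈ C.V (Fin.last e))
      (hf' : f ∈ VE A N q M e B k hN hB hq e),
      embE A M e (Fin.last e) (C.red (Fin.last e) ⟨f, hf⟩)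
        = _root_.Fermat.Agent.S45.NUE.H23.sE A N q M e B k hN hB hq e ⟨f, hf'⟩ := by
    intro f hf hf'
    have h1 : C.red (Fin.last e) ⟨f, hf⟩
        = (totEM A N q M e B k hN hB hq hqM hA ht he).red (Fin.last e) ⟨f, hf'⟩ := by
      rw [← C.rd_of_mem (Fin.last e) hf, hc.hrd,
        (totEM A N q M e B k hN hB hq hqM hA ht he).rdN_of_mem
          (i := Fin.last e) (f := f) hf']
    rw [h1]
    rfl
  exact hssE_mod A N q M e B k hN hB hq C hB0 (fun i => (i : ℕ)) Fin.val_injective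
    (fun i => Nat.lt_succ_iff.mp i.2) (fun n hn => ⟨⟨n, Nat.lt_succ_of_le hn⟩, rfl⟩)
    hV he (fun i => mE q e (i : ℕ)) (fun i => rfl) hVal hqV crit (Fin.last e) rfl
    (embE A M e (Fin.last e)) hemb u₀ x y hx hxI hyI hfun hram
    (H66.dE_mem_VE A N q M e B k hN hB hq u₀ x y hx hy)
    (H66.sE_dE A N q M e B k hN hB hq hA he u₀ x y hx hy)
    z c u δ hu hδ hord hcc hδord 𝔪 h𝔪

/-- **SS-ASM at one point on `totEM`**, generic in the coordinate pack: `f` of level `M` with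
integral expansion `u₀`, a root of the modular unit `Δ(t)/Δ(t^d)`, `d ∣ M`. -/
theorem hssE_tot_at (he : 0 < e)
    (C : Chart ↥(Rur A) ↥(L0 A N) (kV A) (Fin (e + 1)) (kapE A M e))
    (hc : Compat C (totEM A N q M e B k hN hB hq hqM hA ht he))
    (hB0 : C.B = intSub ↥(Rur A) (j0 A N))
    (hVal : H99.ValE C ((q : ℕ) : ↥(Rur A)) (fun i => mE q e (i : ℕ)))
    (hqV : ∀ i, ((q : ℕ) : ↥(L0 A N)) ∈ (C.V i).nonunits)
    (crit : ∀ f : ↥(L0 A N), IsIntegral ↥(Algebra.adjoin ↥(Kur A) {j0 A N}) f →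
      (∀ i, f ∈ C.V i) → f ∈ C.B)
    (f : FN M) (u₀ : LaurentSeries ℤ) (hf : (f : LaurentSeries Kbar) = intSer Kbar u₀)
    (d : ℕ) [NeZero d] (hd : d ∣ M) (n : ℕ) (hn : n ≠ 0)
    (hfn : f ^ n = Fermat.Agent.BAD.H30.unitF M d hd)
    (hram : RamE A N q M e B k hN hB hq u₀)
    (z : Place (kV A) (FM A M)) (c : kV A) (u δ : FM A M)
    (hu : (u : LaurentSeries (kV A)) = coeffMap (Int.castRingHom (kV A)) u₀)
    (hδ : (δ : LaurentSeries (kV A)) = coeffMap (Int.castRingHom (kV A)) (kdel q u₀))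
    (hord : z.ord (u - algebraMap (kV A) (FM A M) c) = 1) (hcc : c ^ q ^ 2 = c)
    (hδord : z.ord δ = -1)
    (𝔪 : Ideal C.B) (hmax : 𝔪.IsMaximal)
    (h𝔪 : ∀ β : C.B, β ∈ 𝔪 ↔
      VanAt ((totEM A N q M e B k hN hB hq hqM hA ht he).pt (Fin.last e) z)
        (C.rdB (Fin.last e) β)) :
    (∀ i, C.Icomp i ≤ 𝔪) ∧ Nonempty (LocEq C ((q : ℕ) : ↥(Rur A)) 𝔪) := by
  obtain ⟨x, y, hx, hy, hfun⟩ := H12.ss_fun A N q M e B k hN hB hq f u₀ hf
  obtain ⟨hxI, hyI⟩ := H12.ss_int A N q M e hN d hd f u₀ hf n hn hfn x y hx hy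
  exact hssE_tot_at_xy A N q M e B k hN hB hq hqM hA ht he C hc hB0 hVal hqV crit u₀ x y hx hy
    hxI hyI hfun (hram x y hx hy) z c u δ hu hδ hord hcc hδord 𝔪 hmax h𝔪

/-- **The hypothesis `hss` of `H88.pointDataE_of_dichotomy` on `totEM`** (`i₀ = Fin.last e`,
`SS` any set of points with pole data), generic in the coordinate pack. -/
theorem hssE_tot (he : 0 < e)
    (C : Chart ↥(Rur A) ↥(L0 A N) (kV A) (Fin (e + 1)) (kapE A M e))
    (hc : Compat C (totEM A N q M e B k hN hB hq hqM hA ht he))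
    (hB0 : C.B = intSub ↥(Rur A) (j0 A N))
    (hVal : H99.ValE C ((q : ℕ) : ↥(Rur A)) (fun i => mE q e (i : ℕ)))
    (hqV : ∀ i, ((q : ℕ) : ↥(L0 A N)) ∈ (C.V i).nonunits)
    (crit : ∀ f : ↥(L0 A N), IsIntegral ↥(Algebra.adjoin ↥(Kur A) {j0 A N}) f →
      (∀ i, f ∈ C.V i) → f ∈ C.B)
    (f : FN M) (u₀ : LaurentSeries ℤ) (hf : (f : LaurentSeries Kbar) = intSer Kbar u₀)
    (d : ℕ) [NeZero d] (hd : d ∣ M) (n : ℕ) (hn : n ≠ 0)
    (hfn : f ^ n = Fermat.Agent.BAD.H30.unitF M d hd)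
    (hram : RamE A N q M e B k hN hB hq u₀)
    (SS : Set (Place (kV A) (FM A M)))
    (hpole : ∀ z ∈ SS, ∃ (c : kV A) (u δ : FM A M),
      (u : LaurentSeries (kV A)) = coeffMap (Int.castRingHom (kV A)) u₀ ∧
      (δ : LaurentSeries (kV A)) = coeffMap (Int.castRingHom (kV A)) (kdel q u₀) ∧
      z.ord (u - algebraMap (kV A) (FM A M) c) = 1 ∧ c ^ q ^ 2 = c ∧ z.ord δ = -1) :
    ∀ z ∈ SS, ∀ 𝔪 : Ideal C.B, 𝔪.IsMaximal →
      (∀ β : C.B, β ∈ 𝔪 ↔
        VanAt ((totEM A N q M e B k hN hB hq hqM hA ht he).pt (Fin.last e) z)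
          (C.rdB (Fin.last e) β)) →
      Nonempty (LocEq C ((q : ℕ) : ↥(Rur A)) 𝔪) := by
  intro z hz 𝔪 hmax h𝔪
  obtain ⟨c, u, δ, hu, hδ, hord, hcc, hδord⟩ := hpole z hz
  exact (hssE_tot_at A N q M e B k hN hB hq hqM hA ht he C hc hB0 hVal hqV crit f u₀ hf d hd
    n hn hfn hram z c u δ hu hδ hord hcc hδord 𝔪 hmax h𝔪).2

/-- **`hss` on `totEM`, `q ≥ 5`, `4 ∣ M`** (`f = Δ(t)/Δ(t⁴)`, `u₀ = uZ4`, `SS = ssM A q M`). -/
theorem hssE_five [NeZero (M * q)] (he : 0 < e) (h5 : 5 ≤ q) (h4 : 4 ∣ M)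
    (C : Chart ↥(Rur A) ↥(L0 A N) (kV A) (Fin (e + 1)) (kapE A M e))
    (hc : Compat C (totEM A N q M e B k hN hB hq hqM hA ht he))
    (hB0 : C.B = intSub ↥(Rur A) (j0 A N))
    (hVal : H99.ValE C ((q : ℕ) : ↥(Rur A)) (fun i => mE q e (i : ℕ)))
    (hqV : ∀ i, ((q : ℕ) : ↥(L0 A N)) ∈ (C.V i).nonunits)
    (crit : ∀ f : ↥(L0 A N), IsIntegral ↥(Algebra.adjoin ↥(Kur A) {j0 A N}) f →
      (∀ i, f ∈ C.V i) → f ∈ C.B)
    (hram : RamE A N q M e B k hN hB hq Fermat.Agent.S36.NU.H73.uZ4) :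
    ∀ z ∈ ssM A q M, ∀ 𝔪 : Ideal C.B, 𝔪.IsMaximal →
      (∀ β : C.B, β ∈ 𝔪 ↔
        VanAt ((totEM A N q M e B k hN hB hq hqM hA ht he).pt (Fin.last e) z)
          (C.rdB (Fin.last e) β)) →
      Nonempty (LocEq C ((q : ℕ) : ↥(Rur A)) 𝔪) :=
  hssE_tot A N q M e B k hN hB hq hqM hA ht he C hc hB0 hVal hqV crit
    (Fermat.Agent.BAD.H30.unitF M 4 h4) Fermat.Agent.S36.NU.H73.uZ4 (coe_unitF4 M h4) 4 h4 1
    one_ne_zero (pow_one _) hram (ssM A q M)
    (fun z hz => coord_pole_five A q M hq hqM hA h5 h4 hz)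

/-- **`hss` on helper74's `chart0E` of `totEM`, `q ≥ 5`, `4 ∣ M`.** -/
theorem hssE_five_chart0E [NeZero (M * q)] (he : 0 < e) (h5 : 5 ≤ q) (h4 : 4 ∣ M)
    (h : H74.ChartInE A N (totEM A N q M e B k hN hB hq hqM hA ht he))
    (hVal : H99.ValE (H74.chart0E A N (totEM A N q M e B k hN hB hq hqM hA ht he) h)
      ((q : ℕ) : ↥(Rur A)) (fun i => mE q e (i : ℕ)))
    (hqV : ∀ i, ((q : ℕ) : ↥(L0 A N))
      ∈ ((H74.chart0E A N (totEM A N q M e B k hN hB hq hqM hA ht he) h).V i).nonunits)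
    (crit : ∀ f : ↥(L0 A N), IsIntegral ↥(Algebra.adjoin ↥(Kur A) {j0 A N}) f →
      (∀ i, f ∈ (H74.chart0E A N (totEM A N q M e B k hN hB hq hqM hA ht he) h).V i) →
      f ∈ (H74.chart0E A N (totEM A N q M e B k hN hB hq hqM hA ht he) h).B)
    (hram : RamE A N q M e B k hN hB hq Fermat.Agent.S36.NU.H73.uZ4) :
    ∀ z ∈ ssM A q M,
      ∀ 𝔪 : Ideal (H74.chart0E A N (totEM A N q M e B k hN hB hq hqM hA ht he) h).B,
      𝔪.IsMaximal →
      (∀ β : (H74.chart0E A N (totEM A N q M e B k hN hB hq hqM hA ht he) h).B, β ∈ 𝔪 ↔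
        VanAt ((totEM A N q M e B k hN hB hq hqM hA ht he).pt (Fin.last e) z)
          ((H74.chart0E A N (totEM A N q M e B k hN hB hq hqM hA ht he) h).rdB
            (Fin.last e) β)) →
      Nonempty (LocEq (H74.chart0E A N (totEM A N q M e B k hN hB hq hqM hA ht he) h)
        ((q : ℕ) : ↥(Rur A)) 𝔪) :=
  hssE_five A N q M e B k hN hB hq hqM hA ht he h5 h4 _
    (H74.compat_chart0E A N _ h) (H74.chart0E_B A N _ h) hVal hqV crit hram

end Tot

end Fermat.Agent.S45.NUE.H16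

end
end
-- ==== END Fermat.Agent.S45.NUE.H16_HssETot

-- ==== BEGIN Fermat.Agent.S45.NUE.H28_RadQEFinal
section

/-!
# S45 / NU_e, package E-FIN, leaf E-RADQ (helper28): the MODULAR instances

Level `N = M q^e`, `q ∤ M`, `M` tame at `q`, `e ≥ 1`, `A` a valuation ring of `ℚ̄` over `q`,
`T = totEM …` the conservation datum of helper23 (E-TOT, unconditional), `C` ANY chart over
`R = Rur A` compatible with `T` (`H24.Compat C T`).

* `hV_chartEM` : the valuation rings of `C` are those of `nrEM`;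
* `j0_mem_chartEM` : `j ∈ C.V i`;
* `transcendental_red_chartEM` : the reduction of `j` at `C.V i` is transcendental over `k`;
* `critEM`, `critEM_inv` : **TI3-VAL** (integral over `K^ur[j]` and in all `V i` ⇒ in
  `intSub R j`), resp. for `1 / j`;
* `isRadQ_chartEM`, `isRadQ_chartEM_inv` : **(RADQ)** for a chart with `B = intSub R j`, resp.
  `B = intSub R j⁻¹`;
* `hrad0EM`, `hradooEM` : **the hypotheses `hrad0`, `hradoo` of `H65.finModE_charts`** for
  helper74's charts `chart0E A N T h`, `chartInfE A N T h`, `ϖ = q`;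
* `critEM_chart0E`, `critEM_chartInfE` : TI3-VAL for these two charts.
-/

set_option autoImplicit false
set_option synthInstance.maxHeartbeats 400000
set_option maxHeartbeats 1000000
set_option linter.style.haveILetI false
set_option linter.unusedSectionVars false
set_option linter.unusedVariables false

noncomputable section

open ModularCurve AlgebraicCurve Polynomial IntermediateField
open Fermat.Agent.S24 Fermat.Agent.BAD.H88 Fermat.Agent.S28 Fermat.Agent.S28.H73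
open Fermat.Agent.RED.H73 Fermat.Agent.RED.H17 Fermat.Agent.S36.NU.H88
open Fermat.Agent.S36.NU.H23 Fermat.Agent.S36.NU.H41 Fermat.Agent.S36.NU.H17
open Fermat.Agent.S36.NU.H16 Fermat.Agent.S36.NU.H65 Fermat.Agent.BAD
open Fermat.Agent.S36.NU.H24 Fermat.Agent.S36.NU.H79
open Fermat.Agent.S45.NUE.H23 Fermat.Agent.S45.NUE.H17 Fermat.Agent.S45.NUE.H74

namespace Fermat.Agent.S45.NUE.H28

attribute [local instance] Fermat.Agent.S45.NUE.H23.algkE

section Final

variable (A : ValuationSubring Kbar)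
variable (N q M e : ℕ) (B k : ℤ) (hN : N = M * q ^ e) (hB : B * M + k * (q : ℤ) ^ e = 1)
  (hq : q.Prime) [NeZero N] [NeZero q] [NeZero M] (hqM : ¬ q ∣ M) (hA : A.LiesOverPrime q)
  (ht : H91.TameAt M q) (he : 0 < e)
  (C : Chart ↥(Rur A) ↥(L0 A N) (kV A) (Fin (e + 1)) (kapE A M e))
  (hc : Compat C (totEM A N q M e B k hN hB hq hqM hA ht he))

include hc in
/-- The valuation rings of a chart compatible with `totEM` are those of `nrEM`. -/
theorem hV_chartEM (i : Fin (e + 1)) :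
    C.V i = @H42.NRData.V ↥(L0 A M) ↥(L0 A N) (FM A M) _ _ _ (algL0 A (Fermat.Agent.S45.NUE.H23.hleE N q M e hN))
      (Fin (e + 1)) (kapE A M e) _ (algE A q M e hq hqM hA)
      (nrEM A N q M e B k hN hB hq hqM hA he) i :=
  hc.hV i

include hc in
/-- `j` is integral for all valuations of a chart compatible with `totEM`. -/
theorem j0_mem_chartEM (i : Fin (e + 1)) : j0 A N ∈ C.V i := by
  rw [hc.hV i]
  exact j0_mem_VE A N q M e B k hN hB hq (i : ℕ)

include hc in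
/-- The reduction of `j` at a valuation of a chart compatible with `totEM` is transcendental. -/
theorem transcendental_red_chartEM (i : Fin (e + 1)) (hj : j0 A N ∈ C.V i) :
    Transcendental (kV A) (C.red i ⟨j0 A N, hj⟩) := by
  have hj' : j0 A N ∈ VE A N q M e B k hN hB hq (i : ℕ) :=
    j0_mem_VE A N q M e B k hN hB hq (i : ℕ)
  have e1 : C.red i ⟨j0 A N, hj⟩
      = rEM A N q M e B k hN hB hq hqM hA he (i : ℕ) (Nat.lt_succ_iff.mp i.2)
          ⟨j0 A N, hj'⟩ := by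
    rw [← C.rd_of_mem i hj, hc.hrd i,
      (totEM A N q M e B k hN hB hq hqM hA ht he).rdN_of_mem (i := i) hj']
    rfl
  rw [e1]
  refine Fermat.Agent.RED.H73.transcendental_subtype _ _ ?_
  rw [coe_rEM]
  exact transcendental_sE_j0 A N q M e B k hN hB hq (i : ℕ) hj'

include hc in
/-- **TI3-VAL** for a chart compatible with `totEM`: integral over `K^ur[j]` and integral for
all valuations implies integral over `R^ur[j]`. -/
theorem critEM {f : ↥(L0 A N)}
    (hf₁ : IsIntegral ↥(Algebra.adjoin ↥(Kur A) {j0 A N}) f) (hf₂ : ∀ i, f ∈ C.V i) :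
    f ∈ intSub ↥(Rur A) (j0 A N) :=
  critE A q M N hq hqM hA (Fermat.Agent.S45.NUE.H23.hleE N q M e hN) (algE A q M e hq hqM hA)
    (nrEM A N q M e B k hN hB hq hqM hA he) rfl
    (nrE_hdeg A N q M e B k hN hB hq hqM hA (inE_mod A N q M e B k hN hB hq hqM hA) he)
    C (hV_chartEM A N q M e B k hN hB hq hqM hA ht he C hc) 0
    (j0_mem_chartEM A N q M e B k hN hB hq hqM hA ht he C hc 0)
    (transcendental_red_chartEM A N q M e B k hN hB hq hqM hA ht he C hc 0 _) hf₁ hf₂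

include hc in
/-- **TI3-VAL** for `1 / j`. -/
theorem critEM_inv {f : ↥(L0 A N)}
    (hf₁ : IsIntegral ↥(Algebra.adjoin ↥(Kur A) {(j0 A N)⁻¹}) f) (hf₂ : ∀ i, f ∈ C.V i) :
    f ∈ intSub ↥(Rur A) (j0 A N)⁻¹ :=
  critE_inv A q M N hq hqM hA (Fermat.Agent.S45.NUE.H23.hleE N q M e hN)
    (algE A q M e hq hqM hA)
    (nrEM A N q M e B k hN hB hq hqM hA he) rfl
    (nrE_hdeg A N q M e B k hN hB hq hqM hA (inE_mod A N q M e B k hN hB hq hqM hA) he)
    C (hV_chartEM A N q M e B k hN hB hq hqM hA ht he C hc) 0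
    (j0_mem_chartEM A N q M e B k hN hB hq hqM hA ht he C hc 0)
    (transcendental_red_chartEM A N q M e B k hN hB hq hqM hA ht he C hc 0 _) hf₁ hf₂

include hc in
/-- **(RADQ)** for a chart of `j` compatible with `totEM`. -/
theorem isRadQ_chartEM (hB0 : C.B = intSub ↥(Rur A) (j0 A N)) (ϖ : ↥(Rur A)) (hϖ : ϖ ≠ 0) :
    ∀ β ∈ C.B, (∀ i, C.rd i β = 0) → IsRadQ C.B ϖ β :=
  isRadQ_chartE A q M N hq hqM hA (Fermat.Agent.S45.NUE.H23.hleE N q M e hN)
    (algE A q M e hq hqM hA)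
    (nrEM A N q M e B k hN hB hq hqM hA he) rfl
    (nrE_hdeg A N q M e B k hN hB hq hqM hA (inE_mod A N q M e B k hN hB hq hqM hA) he)
    C (hV_chartEM A N q M e B k hN hB hq hqM hA ht he C hc) 0
    (j0_mem_chartEM A N q M e B k hN hB hq hqM hA ht he C hc 0)
    (transcendental_red_chartEM A N q M e B k hN hB hq hqM hA ht he C hc 0 _) hB0 ϖ hϖ

include hc in
/-- **(RADQ)** for a chart of `1 / j` compatible with `totEM`. -/
theorem isRadQ_chartEM_inv (hBoo : C.B = intSub ↥(Rur A) (j0 A N)⁻¹) (ϖ : ↥(Rur A))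
    (hϖ : ϖ ≠ 0) :
    ∀ β ∈ C.B, (∀ i, C.rd i β = 0) → IsRadQ C.B ϖ β :=
  isRadQ_chartE_inv A q M N hq hqM hA (Fermat.Agent.S45.NUE.H23.hleE N q M e hN)
    (algE A q M e hq hqM hA)
    (nrEM A N q M e B k hN hB hq hqM hA he) rfl
    (nrE_hdeg A N q M e B k hN hB hq hqM hA (inE_mod A N q M e B k hN hB hq hqM hA) he)
    C (hV_chartEM A N q M e B k hN hB hq hqM hA ht he C hc) 0
    (j0_mem_chartEM A N q M e B k hN hB hq hqM hA ht he C hc 0)
    (transcendental_red_chartEM A N q M e B k hN hB hq hqM hA ht he C hc 0 _) hBoo ϖ hϖ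

end Final

/-! ### The two charts of helper74 over `totEM` -/

section Charts

variable (A : ValuationSubring Kbar)
variable (N q M e : ℕ) (B k : ℤ) (hN : N = M * q ^ e) (hB : B * M + k * (q : ℤ) ^ e = 1)
  (hq : q.Prime) [NeZero N] [NeZero q] [NeZero M] (hqM : ¬ q ∣ M) (hA : A.LiesOverPrime q)
  (ht : H91.TameAt M q) (he : 0 < e)
  (h : ChartInE A N (totEM A N q M e B k hN hB hq hqM hA ht he))

/-- `q ≠ 0` in `R^ur`. -/
theorem natCast_Rur_ne_zero (n : ℕ) (hn : n ≠ 0) : ((n : ℕ) : ↥(Rur A)) ≠ 0 := by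
  intro h0
  have h1 : (((n : ℕ) : ↥(Rur A)) : ↥(Kur A)) = 0 := by rw [h0]; rfl
  have h2 : (((n : ℕ) : ↥(Rur A)) : ↥(Kur A)) = ((n : ℕ) : ↥(Kur A)) := by
    exact map_natCast (algebraMap ↥(Rur A) ↥(Kur A)) n
  rw [h2] at h1
  exact hn (Nat.cast_eq_zero.mp h1)

/-- **`hrad0` of `H65.finModE_charts` / `H65.LeavesE`**: (RADQ) for the chart of `j` over
`totEM`, `ϖ = q`. -/
theorem hrad0EM :
    ∀ β ∈ (chart0E A N (totEM A N q M e B k hN hB hq hqM hA ht he) h).B,
      (∀ i, (chart0E A N (totEM A N q M e B k hN hB hq hqM hA ht he) h).rd i β = 0) →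
      IsRadQ (chart0E A N (totEM A N q M e B k hN hB hq hqM hA ht he) h).B
        ((q : ℕ) : ↥(Rur A)) β :=
  isRadQ_chartEM A N q M e B k hN hB hq hqM hA ht he _
    (compat_chart0E A N (totEM A N q M e B k hN hB hq hqM hA ht he) h)
    (chart0E_B A N (totEM A N q M e B k hN hB hq hqM hA ht he) h)
    ((q : ℕ) : ↥(Rur A)) (natCast_Rur_ne_zero A q hq.ne_zero)

/-- **`hradoo` of `H65.finModE_charts` / `H65.LeavesE`**: (RADQ) for the chart of `1 / j` over
`totEM`, `ϖ = q`. -/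
theorem hradooEM :
    ∀ β ∈ (chartInfE A N (totEM A N q M e B k hN hB hq hqM hA ht he) h).B,
      (∀ i, (chartInfE A N (totEM A N q M e B k hN hB hq hqM hA ht he) h).rd i β = 0) →
      IsRadQ (chartInfE A N (totEM A N q M e B k hN hB hq hqM hA ht he) h).B
        ((q : ℕ) : ↥(Rur A)) β :=
  isRadQ_chartEM_inv A N q M e B k hN hB hq hqM hA ht he _
    (compat_chartInfE A N (totEM A N q M e B k hN hB hq hqM hA ht he) h)
    (chartInfE_B A N (totEM A N q M e B k hN hB hq hqM hA ht he) h)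
    ((q : ℕ) : ↥(Rur A)) (natCast_Rur_ne_zero A q hq.ne_zero)

/-- **TI3-VAL** for the chart of `j` over `totEM`. -/
theorem critEM_chart0E {f : ↥(L0 A N)}
    (hf₁ : IsIntegral ↥(Algebra.adjoin ↥(Kur A) {j0 A N}) f)
    (hf₂ : ∀ i, f ∈ (totEM A N q M e B k hN hB hq hqM hA ht he).V i) :
    f ∈ (chart0E A N (totEM A N q M e B k hN hB hq hqM hA ht he) h).B := by
  rw [chart0E_B]
  exact critEM A N q M e B k hN hB hq hqM hA ht he _
    (compat_chart0E A N (totEM A N q M e B k hN hB hq hqM hA ht he) h) hf₁ hf₂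

/-- **TI3-VAL** for the chart of `1 / j` over `totEM`. -/
theorem critEM_chartInfE {f : ↥(L0 A N)}
    (hf₁ : IsIntegral ↥(Algebra.adjoin ↥(Kur A) {(j0 A N)⁻¹}) f)
    (hf₂ : ∀ i, f ∈ (totEM A N q M e B k hN hB hq hqM hA ht he).V i) :
    f ∈ (chartInfE A N (totEM A N q M e B k hN hB hq hqM hA ht he) h).B := by
  rw [chartInfE_B]
  exact critEM_inv A N q M e B k hN hB hq hqM hA ht he _
    (compat_chartInfE A N (totEM A N q M e B k hN hB hq hqM hA ht he) h) hf₁ hf₂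

end Charts

end Fermat.Agent.S45.NUE.H28

end
end
-- ==== END Fermat.Agent.S45.NUE.H28_RadQEFinal

-- ==== BEGIN Fermat.Agent.S45.NUE.H41_PtHypsE3
section

/-!
# S45 / NU_e, package E-FIN, leaf E-PT-HYPS (helper41): the modular instance

Level `N = M q^e`, `q ∤ M`, `M` tame at `q`, `e ≥ 1`; `T = totEM` (helper23), valuations `VE a`,
reductions `rEM a` (`= sE a`), witnesses `EwE a` (helper82, `stmt_EwE_red`), `C` ANY chart
compatible with `T` with coordinate ring `B = intSub (Rur A) j` (e.g. helper74's `chart0E`).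

Series level (no chart):
* `coe_FrMW : (Fr^w y)(s) = y(s^(q^w))`, `coe_hU_HUk`, `qExpand_HUk`;
* `rEM_j0 : rEM a j = Fr^(e - 2a) j~`;
* `rEM_EwE_pow : (rEM a (EwE a))^q = Fr^(e - 2a) (hU^n)`, `n = c_a q^(max(a, e-a) - (e-2a))`.

Chart level (`wit i` ANY elements of `B` with `(wit i : L0) = EwE i`, e.g. helper99's
`ChartE.witE`; `SS = H74.ssM A q M`):
* `hSS0E_mod` : **hSS0** of `H88.pointDataE_of_dichotomy`;
* `ptHypsE_mod3` : hnc ∧ hsurj ∧ hSSchar;
* `ptHyps_chart0E`, `hSS0_chart0E` : the same for helper74's `chart0E A N totEM h`.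
-/

set_option autoImplicit false
set_option synthInstance.maxHeartbeats 400000
set_option maxHeartbeats 1000000
set_option linter.style.haveILetI false
set_option linter.unusedSectionVars false
set_option linter.unusedVariables false

noncomputable section

open ModularCurve AlgebraicCurve

namespace Fermat.Agent.S45.NUE.H41P

open Fermat.Agent.S24 Fermat.Agent.BAD.H88 Fermat.Agent.S28 Fermat.Agent.S28.H73
  Fermat.Agent.RED.H73 Fermat.Agent.RED.H17 Fermat.Agent.S36.NU.H88 Fermat.Agent.S36.NU.H23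
  Fermat.Agent.S36.NU.H74 Fermat.Agent.BAD Fermat.Agent.RED
open Fermat.Agent.S36.NU.H16 (Chart)
open Fermat.Agent.S36.NU.H79 (TotN)
open Fermat.Agent.S36.NU.H24 (Compat InChart)
open Fermat.Agent.S36.NU.H41 (Rur)
open Fermat.Agent.S36.NU.H65 (intSub)
open Fermat.Agent.S45.NUE.H23 (VE sE wE kapE algkE totEM rEM)
open Fermat.Agent.S45.NUE.H82 (EwE cEw HUk)

/-! ## Series level -/

section Series

variable (A : ValuationSubring Kbar) (q M : ℕ) (hq : q.Prime)
  [NeZero M] [NeZero q] [NeZero (M * q)] [NeZero (M * q * q)] (hqM : ¬ q ∣ M)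
  (hA : A.LiesOverPrime q)

theorem coe_FrMW_aux (y : FM A M) : ∀ (w : ℕ) (hw : NeZero (q ^ w)),
    ((FrMW A q M hq hqM hA w y : FM A M) : LaurentSeries (kV A))
      = @qExpand (kV A) _ (q ^ w) hw (y : LaurentSeries (kV A)) := by
  intro w
  induction w with
  | zero =>
    intro hw
    rw [FrMW_apply, Function.iterate_zero_apply]
    exact ((qExpand_congr (pow_zero q) _).trans (qExpand_one_apply _)).symm
  | succ w ih =>
    intro hw
    haveI hw' : NeZero (q ^ w) := ⟨pow_ne_zero _ (NeZero.ne q)⟩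
    have h1 : FrMW A q M hq hqM hA (w + 1) y
        = FrM A q M hq hqM hA (FrMW A q M hq hqM hA w y) := by
      rw [FrMW_apply, Function.iterate_succ_apply', ← FrMW_apply]
    rw [h1, coe_FrM, ih hw', qExpand_qExpand]
    exact qExpand_congr (pow_succ' q w).symm _

/-- `(Fr^w y)(s) = y(s^(q^w))`. -/
theorem coe_FrMW (w : ℕ) [hw : NeZero (q ^ w)] (y : FM A M) :
    ((FrMW A q M hq hqM hA w y : FM A M) : LaurentSeries (kV A))
      = qExpand (kV A) (q ^ w) (y : LaurentSeries (kV A)) :=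
  coe_FrMW_aux A q M hq hqM hA y w hw

/-- `hU` has the expansion `HUk`. -/
theorem coe_hU_HUk :
    ((Fermat.Agent.S36.NU.H41.hU A q M hq hqM hA : FM A M) : LaurentSeries (kV A))
      = HUk A q := by
  rw [Fermat.Agent.S36.NU.H41.coe_hU, Fermat.Agent.S36.NU.H86.HU_eq_inv A q M hq hA]
  rfl

/-- `HUk(s^(q^w)) = (Fr^w hU)(s)`. -/
theorem qExpand_HUk (w : ℕ) [hw : NeZero (q ^ w)] :
    qExpand (kV A) (q ^ w) (HUk A q)
      = ((Fermat.Agent.S36.NU.H41.hU A q M hq hqM hA ^ q ^ w : FM A M) :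
          LaurentSeries (kV A)) := by
  have h := FrMW_hU_pow A q M hq hqM hA w 1
  rw [pow_one] at h
  rw [← h, coe_FrMW, coe_hU_HUk]

end Series

/-! ## The reductions at the level `M q^e` -/

section Level

variable (A : ValuationSubring Kbar)
variable (N q M e : ℕ) (B k : ℤ) (hN : N = M * q ^ e) (hB : B * M + k * (q : ℤ) ^ e = 1)
  (hq : q.Prime) [NeZero N] [NeZero q] [NeZero M] (hqM : ¬ q ∣ M) (hA : A.LiesOverPrime q)
  (ht : H91.TameAt M q) (he : 0 < e)

/-- **`rEM a j = Fr^(e - 2a) j~`.** -/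
theorem rEM_j0 (a : ℕ) (ha : a ≤ e) (h : j0 A N ∈ VE A N q M e B k hN hB hq a) :
    rEM A N q M e B k hN hB hq hqM hA he a ha ⟨j0 A N, h⟩
      = FrMW A q M hq hqM hA (e - 2 * a) (H91.jRed A M) := by
  haveI : NeZero (q ^ (e - 2 * a)) := ⟨pow_ne_zero _ (NeZero.ne q)⟩
  apply Subtype.ext
  rw [Fermat.Agent.S45.NUE.H23.coe_rEM, coe_FrMW, Fermat.Agent.S36.NU.H41.coe_jRed,
    Fermat.Agent.S45.NUE.H54.sE_j0 A N q M e B k hN hB hq a h,
    Fermat.Agent.S45.NUE.H54.Jred_eq_jq]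

omit [NeZero N] [NeZero q] [NeZero M] in
include he in
theorem one_le_max_sub (a : ℕ) : 1 ≤ max a (e - a) := by
  rcases Nat.eq_zero_or_pos a with h | h
  · subst h
    rw [Nat.sub_zero]
    exact le_max_of_le_right he
  · exact le_max_of_le_left h

omit [NeZero N] [NeZero q] [NeZero M] in
theorem sub_two_mul_le_max (a : ℕ) : e - 2 * a ≤ max a (e - a) :=
  le_max_of_le_right (by omega)

/-- **`(rEM a (EwE a))^q = Fr^(e - 2a) (hU^n)`**, `n = c_a q^(max(a, e - a) - (e - 2a))`. -/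
theorem rEM_EwE_pow (a : ℕ) (ha : a ≤ e) (h : EwE A N q e a ∈ VE A N q M e B k hN hB hq a) :
    rEM A N q M e B k hN hB hq hqM hA he a ha ⟨EwE A N q e a, h⟩ ^ q
      = FrMW A q M hq hqM hA (e - 2 * a)
          (Fermat.Agent.S36.NU.H41.hU A q M hq hqM hA
            ^ (cEw e a * q ^ (max a (e - a) - (e - 2 * a)))) := by
  haveI : NeZero (q ^ (max a (e - a) - 1)) := ⟨pow_ne_zero _ (NeZero.ne q)⟩
  have hr : rEM A N q M e B k hN hB hq hqM hA he a ha ⟨EwE A N q e a, h⟩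
      = (Fermat.Agent.S36.NU.H41.hU A q M hq hqM hA ^ q ^ (max a (e - a) - 1)) ^ cEw e a := by
    apply Subtype.ext
    rw [Fermat.Agent.S45.NUE.H23.coe_rEM,
      Fermat.Agent.S45.NUE.H82.stmt_EwE_red A N q M e B k hN hB hq he hA a ha h,
      qExpand_HUk A q M hq hqM hA]
    rfl
  rw [hr, FrMW_hU_pow, ← pow_mul, ← pow_mul, ← pow_mul]
  congr 1
  have h1 := one_le_max_sub e he a
  have h2 := sub_two_mul_le_max e a
  have e1 : q ^ (max a (e - a) - 1) * q = q ^ max a (e - a) := by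
    rw [← pow_succ, Nat.sub_add_cancel h1]
  have e2 : q ^ (max a (e - a) - (e - 2 * a)) * q ^ (e - 2 * a) = q ^ max a (e - a) := by
    rw [← pow_add, Nat.sub_add_cancel h2]
  calc q ^ (max a (e - a) - 1) * (cEw e a * q)
      = cEw e a * (q ^ (max a (e - a) - 1) * q) := by ring
    _ = cEw e a * (q ^ (max a (e - a) - (e - 2 * a)) * q ^ (e - 2 * a)) := by rw [e1, e2]
    _ = cEw e a * q ^ (max a (e - a) - (e - 2 * a)) * q ^ (e - 2 * a) := by ring

end Level

/-! ## The point hypotheses for a chart of `totEM` -/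

section Chart

variable (A : ValuationSubring Kbar)
variable (N q M e : ℕ) (B k : ℤ) (hN : N = M * q ^ e) (hB : B * M + k * (q : ℤ) ^ e = 1)
  (hq : q.Prime) [NeZero N] [NeZero q] [NeZero M] (hqM : ¬ q ∣ M) (hA : A.LiesOverPrime q)
  (ht : H91.TameAt M q) (he : 0 < e)

/-- The structure maps `Fr^(e - 2i)` of the residue fields of `totEM`. -/
def phiE (i : Fin (e + 1)) : FM A M →+* kapE A M e i :=
  FrMW A q M hq hqM hA (e - 2 * (i : ℕ))

theorem phiE_apply (i : Fin (e + 1)) (y : FM A M) :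
    phiE A q M e hq hqM hA i y = FrMW A q M hq hqM hA (e - 2 * (i : ℕ)) y := rfl

/-- The residue of an element of the chart, through `rEM`. -/
theorem rdB_eq_rEM :
    letI := algkE A M e
    ∀ (C : Chart ↥(Rur A) ↥(L0 A N) (kV A) (Fin (e + 1)) (kapE A M e))
      (_ : Compat C (totEM A N q M e B k hN hB hq hqM hA ht he))
      (i : Fin (e + 1)) (β : C.B) (h : (β : ↥(L0 A N)) ∈ VE A N q M e B k hN hB hq (i : ℕ)),
      C.rdB i β
        = rEM A N q M e B k hN hB hq hqM hA he (i : ℕ) (Nat.lt_succ_iff.mp i.2) ⟨β, h⟩ := by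
  letI := algkE A M e
  intro C hc i β h
  rw [← C.rd_coe i β, hc.hrd i (β : ↥(L0 A N)),
    (totEM A N q M e B k hN hB hq hqM hA ht he).rdN_of_mem
      (i := i) (f := (β : ↥(L0 A N))) h]
  rfl

/-- **The three point hypotheses** `hnc`, `hsurj`, `hSSchar` of `H88.pointDataE_of_dichotomy`
for a chart of `totEM` with `B = intSub (Rur A) j` and the witnesses `EwE i`. -/
theorem ptHypsE_mod3 :
    letI := algkE A M e
    ∀ (C : Chart ↥(Rur A) ↥(L0 A N) (kV A) (Fin (e + 1)) (kapE A M e))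
      (_ : Compat C (totEM A N q M e B k hN hB hq hqM hA ht he))
      (_ : C.B = intSub ↥(Rur A) (j0 A N))
      (wit : Fin (e + 1) → C.B)
      (_ : ∀ i, ((wit i : C.B) : ↥(L0 A N)) = EwE A N q e (i : ℕ)),
      (∀ i, ∃ β : C.B, ∀ c : kV A, C.rdB i β ≠ algebraMap (kV A) (kapE A M e i) c) ∧
      (∀ (i : Fin (e + 1)) (v : Place (kV A) (kapE A M e i)),
        (∀ β : C.B, RegAt v (C.rdB i β)) →
          ∃ z, (totEM A N q M e B k hN hB hq hqM hA ht he).pt i z = v) ∧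
      (∀ (i : Fin (e + 1)) (z : Place (kV A) (FM A M)),
        (∀ β : C.B, RegAt ((totEM A N q M e B k hN hB hq hqM hA ht he).pt i z) (C.rdB i β)) →
        VanAt ((totEM A N q M e B k hN hB hq hqM hA ht he).pt i z) (C.rdB i (wit i)) →
          z ∈ ssM A q M) := by
  letI := algkE A M e
  intro C hc hC wit hwit
  have hjB : j0 A N ∈ C.B := by
    rw [hC]
    exact Fermat.Agent.S36.NU.H65.self_mem_intSub ↥(Rur A) (j0 A N)
  have hle : ∀ i : Fin (e + 1), (i : ℕ) ≤ e := fun i => Nat.lt_succ_iff.mp i.2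
  have hjV : ∀ a, j0 A N ∈ VE A N q M e B k hN hB hq a :=
    fun a => Fermat.Agent.S45.NUE.H54.j0_mem_VE A N q M e B k hN hB hq a
  have hwV : ∀ i : Fin (e + 1), EwE A N q e (i : ℕ) ∈ VE A N q M e B k hN hB hq (i : ℕ) :=
    fun i => Fermat.Agent.S45.NUE.H82.stmt_EwE_mem A N q M e B k hN hB hq he
      (i : ℕ) (i : ℕ) (hle i) (hle i)
  refine ptHyps_abs C (totEM A N q M e B k hN hB hq hqM hA ht he)
    (phiE A q M e hq hqM hA) (fun i => q ^ (e - 2 * (i : ℕ))) ?_ ?_ ?_ ?_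
    ⟨j0 A N, hjB⟩ (H91.jRed A M) ?_ (Fermat.Agent.S36.NU.H41.jRed_ne_const A M)
    (Fermat.Agent.S36.NU.H41.hU A q M hq hqM hA)
    (Fermat.Agent.S36.NU.H41.hU_ne_zero A q M hq hqM hA) wit ?_ (ssM A q M) ?_
  · intro i c
    exact FrMW_algebraMap A q M hq hqM hA (e - 2 * (i : ℕ)) c
  · intro i
    exact pow_pos hq.pos _
  · intro i z y
    exact ord_FrMW A q M hq hqM hA (e - 2 * (i : ℕ)) z y
  · intro i
    exact iterate_betaM_surjective A q M hq hqM hA (e - 2 * (i : ℕ))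
  · intro i
    rw [rdB_eq_rEM A N q M e B k hN hB hq hqM hA ht he C hc i ⟨j0 A N, hjB⟩ (hjV _)]
    exact rEM_j0 A N q M e B k hN hB hq hqM hA he (i : ℕ) (hle i) (hjV _)
  · intro i
    refine ⟨q, cEw e (i : ℕ) * q ^ (max (i : ℕ) (e - (i : ℕ)) - (e - 2 * (i : ℕ))), hq.pos, ?_⟩
    have hw : ((wit i : C.B) : ↥(L0 A N)) ∈ VE A N q M e B k hN hB hq (i : ℕ) := by
      rw [hwit i]
      exact hwV i
    rw [rdB_eq_rEM A N q M e B k hN hB hq hqM hA ht he C hc i (wit i) hw]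
    have e1 : (⟨((wit i : C.B) : ↥(L0 A N)), hw⟩ : ↥(VE A N q M e B k hN hB hq (i : ℕ)))
        = ⟨EwE A N q e (i : ℕ), hwV i⟩ := Subtype.ext (hwit i)
    rw [e1]
    exact rEM_EwE_pow A N q M e B k hN hB hq hqM hA he (i : ℕ) (hle i) (hwV i)
  · intro z hz hu
    exact mem_ssM_of_ord' A q M hq hqM hA z hz hu

/-- **`hSS0`**: the supersingular points are points of the chart. -/
theorem hSS0E_mod :
    letI := algkE A M e
    ∀ (C : Chart ↥(Rur A) ↥(L0 A N) (kV A) (Fin (e + 1)) (kapE A M e))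
      (_ : C.B = intSub ↥(Rur A) (j0 A N)),
      ∀ z ∈ ssM A q M, InChart C (totEM A N q M e B k hN hB hq hqM hA ht he) z := by
  letI := algkE A M e
  intro C hC
  exact inChart_ssM_lvl A q M N hq hqM hA ht (Fermat.Agent.S45.NUE.H23.hleE N q M e hN) C
    (totEM A N q M e B k hN hB hq hqM hA ht he) hC (fun _ => rfl)

/-- **hnc ∧ hsurj ∧ hSSchar for helper74's chart of `j`** over `totEM`. -/
theorem ptHyps_chart0E :
    letI := algkE A M e
    ∀ (h : Fermat.Agent.S45.NUE.H74.ChartInE A N (totEM A N q M e B k hN hB hq hqM hA ht he))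
      (wit : Fin (e + 1) →
        (Fermat.Agent.S45.NUE.H74.chart0E A N (totEM A N q M e B k hN hB hq hqM hA ht he) h).B)
      (_ : ∀ i, ((wit i :
        (Fermat.Agent.S45.NUE.H74.chart0E A N
          (totEM A N q M e B k hN hB hq hqM hA ht he) h).B) : ↥(L0 A N))
          = EwE A N q e (i : ℕ)),
      (∀ i, ∃ β : (Fermat.Agent.S45.NUE.H74.chart0E A N
          (totEM A N q M e B k hN hB hq hqM hA ht he) h).B,
        ∀ c : kV A, (Fermat.Agent.S45.NUE.H74.chart0E A N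
          (totEM A N q M e B k hN hB hq hqM hA ht he) h).rdB i β
            ≠ algebraMap (kV A) (kapE A M e i) c) ∧
      (∀ (i : Fin (e + 1)) (v : Place (kV A) (kapE A M e i)),
        (∀ β : (Fermat.Agent.S45.NUE.H74.chart0E A N
          (totEM A N q M e B k hN hB hq hqM hA ht he) h).B,
          RegAt v ((Fermat.Agent.S45.NUE.H74.chart0E A N
            (totEM A N q M e B k hN hB hq hqM hA ht he) h).rdB i β)) →
          ∃ z, (totEM A N q M e B k hN hB hq hqM hA ht he).pt i z = v) ∧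
      (∀ (i : Fin (e + 1)) (z : Place (kV A) (FM A M)),
        (∀ β : (Fermat.Agent.S45.NUE.H74.chart0E A N
          (totEM A N q M e B k hN hB hq hqM hA ht he) h).B,
          RegAt ((totEM A N q M e B k hN hB hq hqM hA ht he).pt i z)
            ((Fermat.Agent.S45.NUE.H74.chart0E A N
              (totEM A N q M e B k hN hB hq hqM hA ht he) h).rdB i β)) →
        VanAt ((totEM A N q M e B k hN hB hq hqM hA ht he).pt i z)
          ((Fermat.Agent.S45.NUE.H74.chart0E A N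
            (totEM A N q M e B k hN hB hq hqM hA ht he) h).rdB i (wit i)) →
          z ∈ ssM A q M) := by
  letI := algkE A M e
  intro h wit hwit
  exact ptHypsE_mod3 A N q M e B k hN hB hq hqM hA ht he
    (Fermat.Agent.S45.NUE.H74.chart0E A N (totEM A N q M e B k hN hB hq hqM hA ht he) h)
    (Fermat.Agent.S45.NUE.H74.compat_chart0E A N _ h)
    (Fermat.Agent.S45.NUE.H74.chart0E_B A N _ h) wit hwit

/-- **hSS0 for helper74's chart of `j`** over `totEM`. -/
theorem hSS0_chart0E :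
    letI := algkE A M e
    ∀ (h : Fermat.Agent.S45.NUE.H74.ChartInE A N (totEM A N q M e B k hN hB hq hqM hA ht he)),
      ∀ z ∈ ssM A q M,
        InChart (Fermat.Agent.S45.NUE.H74.chart0E A N
          (totEM A N q M e B k hN hB hq hqM hA ht he) h)
          (totEM A N q M e B k hN hB hq hqM hA ht he) z := by
  letI := algkE A M e
  intro h
  exact hSS0E_mod A N q M e B k hN hB hq hqM hA ht he
    (Fermat.Agent.S45.NUE.H74.chart0E A N (totEM A N q M e B k hN hB hq hqM hA ht he) h)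
    (Fermat.Agent.S45.NUE.H74.chart0E_B A N _ h)

end Chart

end Fermat.Agent.S45.NUE.H41P

end
end
-- ==== END Fermat.Agent.S45.NUE.H41_PtHypsE3

-- ==== BEGIN Fermat.Agent.S45.NUE.H51_CoverInst
section

/-!
# S45 / NU_e, package E-VV + leaf N4 FIBRES (helper51): the unconditional instances

Levels `M₁ q = M' q^e` (lower) and `M₁ q q = M' q^(e+1)` (upper), `q ∤ M'`.

* `threeE` : **THREE_e**, every valuation ring `≠ ⊤` of `L0 A N` (`N = M q^e`, `e > 0`) above the
  Gauss valuation of `L0 A M` is one of the `VE a`, `a ≤ e` (helper23's `nrEM` + helper42's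
  `NRData.eq_of_valuationSubring`);
* `coverInputs : CoverInputs …` (THREE, helper57's `not_le_VE`, helper31's `hV_alpha_min`,
  `hV_beta`);
* `fibre_alpha_mod`, `fibre_beta_mod`, `cover_mod` : **N4 FIBRES**, unconditional;
* `valVecE_mod : ValVecE A q (M₁ q) (IsUnitE …)` and `valVecE_mod_fin` (indexed by
  `Fin (e + 2)`): **VALVEC_e**, unconditional, `K = q`, for `2 ≤ e`.
-/

set_option autoImplicit false
set_option synthInstance.maxHeartbeats 400000
set_option maxHeartbeats 1000000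
set_option linter.unusedSectionVars false
set_option linter.unusedVariables false
set_option linter.style.haveILetI false

noncomputable section

namespace Fermat.Agent.S45.NUE.H51

open Fermat.Agent.S24 Fermat.Agent.BAD.H88 ModularCurve AlgebraicCurve
open Fermat.Agent.S36.NU.H88 Fermat.Agent.S45.NUE.H23 Fermat.Agent.S45.NUE.H17
open Fermat.Agent.BAD Fermat.Agent.BAD.H42

local notation "L0" => Fermat.Agent.S36.NU.H23.L0
local notation "VE0" => Fermat.Agent.S36.NU.H23.VE0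
local notation "inclL0" => Fermat.Agent.S36.NU.H23.inclL0

/-! ## THREE_e -/

section Three

variable (A : ValuationSubring Kbar)
variable (N q M e : ℕ) (B k : ℤ) (hN : N = M * q ^ e) (hB : B * M + k * (q : ℤ) ^ e = 1)
  (hq : q.Prime) [NeZero N] [NeZero q] [NeZero M] (hqM : ¬ q ∣ M) (hA : A.LiesOverPrime q)

include hqM hA in
/-- **THREE_e**: the `VE a`, `a ≤ e`, are the only valuation rings `≠ ⊤` of `L0 A (M q^e)` above
the Gauss valuation of `L0 A M`. -/
theorem threeE (he : 0 < e) :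
    ThreeAlong (inclL0 A (Fermat.Agent.S45.NUE.H23.hleE N q M e hN)) (VE0 A M)
      (fun a : Fin (e + 1) => VE A N q M e B k hN hB hq (a : ℕ)) := by
  intro W htop hW
  letI := Fermat.Agent.S36.NU.H23.algL0 A (Fermat.Agent.S45.NUE.H23.hleE N q M e hN)
  letI := algE A q M e hq hqM hA
  haveI : Module.Finite ↥(L0 A M) ↥(L0 A N) :=
    Fermat.Agent.S36.NU.H23.finite_L0 A (Fermat.Agent.S45.NUE.H23.hleE N q M e hN) (finite_FNE N M (Fermat.Agent.S45.NUE.H23.hleE N q M e hN))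
  haveI : ∀ i, Module.Finite (FM A M) (kapE A M e i) := fun i => finite_algE A q M e hq hqM hA i
  exact H42.NRData.eq_of_valuationSubring (nrEM A N q M e B k hN hB hq hqM hA he)
    (nrE_hdeg A N q M e B k hN hB hq hqM hA (inE_mod A N q M e B k hN hB hq hqM hA) he) W hW htop

end Three

/-! ## The inputs of N4 FIBRES and of E-VV -/

section Inst

variable (A : ValuationSubring Kbar) (q M₁ M' el : ℕ) [NeZero M₁] [NeZero q] [NeZero M']
  [NeZero (M₁ * q)] [NeZero (M₁ * q * q)] (hq : q.Prime)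
  (hNl : M₁ * q = M' * q ^ el) (hNu : M₁ * q * q = M' * q ^ (el + 1))
  (Bl kl : ℤ) (hBl : Bl * M' + kl * (q : ℤ) ^ el = 1)
  (Bu ku : ℤ) (hBu : Bu * M' + ku * (q : ℤ) ^ (el + 1) = 1)
  (hqM : ¬ q ∣ M') (hA : A.LiesOverPrime q)

include hqM hA in
/-- **The modular inputs of N4 FIBRES hold.** -/
theorem coverInputs : CoverInputs A q M₁ M' el hq hNl hNu Bl kl hBl Bu ku hBu where
  three := threeE A (M₁ * q * q) q M' (el + 1) Bu ku hNu hBu hq hqM hA (Nat.succ_pos el)
  inc_low := fun a a' ha ha' h =>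
    Fermat.Agent.S45.NUE.H57.not_le_VE A (M₁ * q) q M' el Bl kl hNl hBl hq hA a a' ha ha' h
  tabα := fun a ha y =>
    (Fermat.Agent.S45.NUE.H31.hV_alpha_min A (M₁ * q) q M' el Bl kl Bu ku hNl hBl hNu hBu hq
      a ha y).symm
  tabβ := fun a _ y =>
    (Fermat.Agent.S45.NUE.H31.hV_beta A (M₁ * q) q M' el Bl kl Bu ku hNl hBl hNu hBu hq
      a y).symm

include hqM hA in
/-- **N4 FIBRES along `α`**: a valuation ring `W ≠ ⊤` of the upper level above `VEl a'` along
`α` is `VEu a` with `min a e = a'`. -/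
theorem fibre_alpha_mod (a' : ℕ) (ha' : a' ≤ el)
    (W : ValuationSubring ↥(L0 A (M₁ * q * q))) (hW : W ≠ ⊤)
    (hα : ∀ y ∈ VEl A q M₁ M' el hq hNl Bl kl hBl a', αo A q M₁ y ∈ W) :
    ∃ a : ℕ, a ≤ el + 1 ∧ W = VEu A q M₁ M' el hq hNu Bu ku hBu a ∧ min a el = a' :=
  (coverInputs A q M₁ M' el hq hNl hNu Bl kl hBl Bu ku hBu hqM hA).fibre_alpha a' ha' W hW hα

include hqM hA in
/-- **N4 FIBRES along `β`**: a valuation ring `W ≠ ⊤` of the upper level above `VEl a'` along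
`β` is `VEu a` with `a - 1 = a'`. -/
theorem fibre_beta_mod (a' : ℕ) (ha' : a' ≤ el)
    (W : ValuationSubring ↥(L0 A (M₁ * q * q))) (hW : W ≠ ⊤)
    (hβ : ∀ y ∈ VEl A q M₁ M' el hq hNl Bl kl hBl a', βo A q M₁ y ∈ W) :
    ∃ a : ℕ, a ≤ el + 1 ∧ W = VEu A q M₁ M' el hq hNu Bu ku hBu a ∧ a - 1 = a' :=
  (coverInputs A q M₁ M' el hq hNl hNu Bl kl hBl Bu ku hBu hqM hA).fibre_beta a' ha' W hW hβ

include hNl Bl kl hBl hqM hA in
/-- **The cover**, unconditional (`2 ≤ e`). -/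
theorem cover_mod (hel : 2 ≤ el) (a : Fin (el + 2)) :
    UniqAlong (αo A q M₁) (VEu A q M₁ M' el hq hNu Bu ku hBu (a : ℕ))
      ∨ UniqAlong (βo A q M₁) (VEu A q M₁ M' el hq hNu Bu ku hBu (a : ℕ)) :=
  (coverInputs A q M₁ M' el hq hNl hNu Bl kl hBl Bu ku hBu hqM hA).cover hel a

include hNl Bl kl hBl hqM hA in
/-- **VALVEC_e**, unconditional, `K = q`. -/
theorem valVecE_mod (hel : 2 ≤ el) :
    ValVecE A q (M₁ * q) (IsUnitE A q M₁ M' el hq hNu Bu ku hBu) :=
  valVecE_final A q M₁ M' el hq hNl hNu Bl kl hBl Bu ku hBu hA hel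
    (coverInputs A q M₁ M' el hq hNl hNu Bl kl hBl Bu ku hBu hqM hA)
    (fun a _ => Fermat.Agent.S45.NUE.H60.isArch_VE A (M₁ * q * q) q M' (el + 1) Bu ku hNu hBu hq
      hA a)
    (fun a a' ha ha' h => Fermat.Agent.S45.NUE.H57.not_le_VE A (M₁ * q * q) q M' (el + 1) Bu ku
      hNu hBu hq hA a a' ha ha' h)

include hNl Bl kl hBl hqM hA in
/-- **VALVEC_e**, unconditional, for the predicate indexed by `Fin (e + 2)`. -/
theorem valVecE_mod_fin (hel : 2 ≤ el) :
    ValVecE A q (M₁ * q)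
      (fun x => ∀ a : Fin (el + 2), x ∈ VEu A q M₁ M' el hq hNu Bu ku hBu (a : ℕ)
        ∧ x⁻¹ ∈ VEu A q M₁ M' el hq hNu Bu ku hBu (a : ℕ)) :=
  Fermat.Agent.S45.NUE.H26.valVecE_mono A q (M₁ * q) _ _
    (fun x hx a => hx (a : ℕ) (Nat.lt_succ_iff.1 a.2))
    (valVecE_mod A q M₁ M' el hq hNl hNu Bl kl hBl Bu ku hBu hqM hA hel)

end Inst

end Fermat.Agent.S45.NUE.H51

end
end
-- ==== END Fermat.Agent.S45.NUE.H51_CoverInst
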