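-- GENERATED (merged mirror, NOTES/tools/trim/merge3_helper67.py): 1 modules of the originals, bodies verbatim.
import Fermat.Agent.Zm.S45_L07_002
import Fermat.Agent.Zm.S45_L05_000

-- ==== BEGIN Fermat.Agent.S45.NUE.H51_ValVecEFinal
section

/-!
# S45 / NU_e, package E-VV (helper51): VALVEC_e for the valuations `VE a`

Levels `M₁ q = M' q^e` (lower) and `M₁ q q = M' q^(e+1)` (upper), `2 ≤ e`.

* `valVecE_final` : `ValVecE A q (M₁ q) (fun x => ∀ a ≤ e + 1, x ∈ VEu a ∧ x⁻¹ ∈ VEu a)`, `K = q`,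
  from `CoverInputs` (THREE of the upper level, T8 HINC of the lower level, N1 RESTR) and
  T9 ARCH, T8 HINC of the upper level.
-/

set_option autoImplicit false
set_option synthInstance.maxHeartbeats 400000
set_option maxHeartbeats 1000000
set_option linter.unusedSectionVars false
set_option linter.unusedVariables false
set_option linter.style.haveILetI false

noncomputable section

namespace Fermat.Agent.S45.NUE.H51

open Fermat.Agent.S24 Fermat.Agent.BAD.H88 ModularCurve AlgebraicCurve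
open Fermat.Agent.S36.NU.H88 Fermat.Agent.S45.NUE.H23 Fermat.Agent.S45.NUE.H17
open Fermat.Agent.BAD.H42

local notation "L0" => Fermat.Agent.S36.NU.H23.L0

section Final

variable (A : ValuationSubring Kbar) (q M₁ M' el : ℕ) [NeZero M₁] [NeZero q] [NeZero M']
  [NeZero (M₁ * q)] [NeZero (M₁ * q * q)] (hq : q.Prime)
  (hNl : M₁ * q = M' * q ^ el) (hNu : M₁ * q * q = M' * q ^ (el + 1))
  (Bl kl : ℤ) (hBl : Bl * M' + kl * (q : ℤ) ^ el = 1)
  (Bu ku : ℤ) (hBu : Bu * M' + ku * (q : ℤ) ^ (el + 1) = 1)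

/-- `x` is a unit for the `e + 2` valuations of the upper level `M' q^(e+1)`. -/
def IsUnitE (x : ↥(L0 A (M₁ * q * q))) : Prop :=
  ∀ a : ℕ, a ≤ el + 1 →
    x ∈ VEu A q M₁ M' el hq hNu Bu ku hBu a ∧ x⁻¹ ∈ VEu A q M₁ M' el hq hNu Bu ku hBu a

/-- **VALVEC_e**, `K = q`. -/
theorem valVecE_final (hA : A.LiesOverPrime q) (hel : 2 ≤ el)
    (h : CoverInputs A q M₁ M' el hq hNl hNu Bl kl hBl Bu ku hBu)
    (harch : ∀ a : ℕ, a ≤ el + 1 → IsArch (VEu A q M₁ M' el hq hNu Bu ku hBu a))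
    (hinc : ∀ a a' : ℕ, a ≤ el + 1 → a' ≤ el + 1 → a ≠ a' →
      ¬ VEu A q M₁ M' el hq hNu Bu ku hBu a ≤ VEu A q M₁ M' el hq hNu Bu ku hBu a') :
    ValVecE A q (M₁ * q) (IsUnitE A q M₁ M' el hq hNu Bu ku hBu) := by
  have h1 := valVecE_of_cover A q M₁ hq hA (Fermat.Agent.S45.NUE.H26.linkHyp A q M₁ hq hA)
    (fun a : Fin (el + 2) => VEu A q M₁ M' el hq hNu Bu ku hBu (a : ℕ))
    (fun a => harch (a : ℕ) (Nat.lt_succ_iff.1 a.2))
    (fun a a' haa' => hinc (a : ℕ) (a' : ℕ) (Nat.lt_succ_iff.1 a.2) (Nat.lt_succ_iff.1 a'.2)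
      (fun e => haa' (Fin.ext e)))
    (fun a => Fermat.Agent.S45.NUE.H26.VE_ne_top A (M₁ * q * q) q M' (el + 1) Bu ku hNu hBu hq hA
      (a : ℕ))
    (fun a => Fermat.Agent.S45.NUE.H26.isConstA_VE A (M₁ * q * q) q M' (el + 1) Bu ku hNu hBu hq
      (a : ℕ))
    (fun a => h.cover hel a)
  refine Fermat.Agent.S45.NUE.H26.valVecE_mono A q (M₁ * q) _ _ ?_ h1
  intro x hx a ha
  exact hx ⟨a, Nat.lt_succ_iff.2 ha⟩

end Final

end Fermat.Agent.S45.NUE.H51

end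
end
-- ==== END Fermat.Agent.S45.NUE.H51_ValVecEFinal
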