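-- GENERATED (merged mirror, NOTES/tools/trim/merge3_helper67.py): 5 modules of the originals, bodies verbatim.
import Fermat.Agent.Zm.S45_L06_003
import Fermat.Agent.Zm.S45_L09_000
import Fermat.Agent.Zm.S45_L01_003
import Fermat.Agent.Zm.S45_L02_000
import Fermat.Agent.Zm.S45_L07_000
import Fermat.Agent.Zm.S45_L04_000
import Fermat.Agent.Zm.S36_L18_000
import Fermat.Agent.Zm.S45_L05_001
import Fermat.Agent.Zm.S45_L03_002
import Fermat.Agent.Zm.S45_L08_001
import Fermat.Agent.Zm.S36_L14_000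
import Fermat.Agent.Zm.S45_L06_000

-- ==== BEGIN Fermat.Agent.S45.NUE.H54_ChartPack
section

/-!
# S45 / NU_e, package E-CHART (helper54): the chart pack for the modular conservation datum

Level `N = M q^e`, `q ∤ M`, `M` tame at `q`, `e ≥ 1`, `T = totEM` (helper23, E-TOT), charts
`chart0E A N T h`, `chartInfE A N T h` (helper74), `h : ChartInE A N T` (helper81).

* `sepPattern_of_frob` : helper74's `SepPattern` from the `FrobPattern` of `H54_SepAbs`
  (`m i = 2 idx i - e`);
* `bridgeEM` : the bridge `BridgeE` for `totEM` (`idx i = i`, `σ i` the inclusion of the residue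
  field of level `M` into `k((s))`);
* `charP_kapE` : the residue fields have characteristic `q`;
* `sepPattern_totEM` : **the Frobenius pattern** of `j (τ)`, `j (q^e τ)` on `totEM`;
* `transcendental_red_j0` : the reduction of `j` at `V_0` is transcendental over `k`;
* `jEE_mem_intSub_totEM` : **`j (q^e τ)` lies in the integral closure of `R[j]`**;
* `chartHyp_chart0E_totEM`, `chartHyp_chartInfE_totEM` : **`ChartHyp`** for the two charts;
* `isRadQ_chart0E_totEM`, `isRadQ_chartInfE_totEM` : (RADQ) for the two charts (helper28's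
  `isRadQ_chartE` at `nrEM`).
-/

set_option autoImplicit false
set_option synthInstance.maxHeartbeats 400000
set_option maxHeartbeats 1000000
set_option linter.unusedSectionVars false
set_option linter.unusedVariables false
set_option linter.style.haveILetI false

noncomputable section

namespace Fermat.Agent.S45.NUE.H54

open Fermat.Agent.S24 Fermat.Agent.BAD.H88 ModularCurve AlgebraicCurve
open Fermat.Agent.S28 Fermat.Agent.S28.H73 Fermat.Agent.RED.H73 Fermat.Agent.RED.H17
open Fermat.Agent.S36.NU.H16 Fermat.Agent.S36.NU.H17 Fermat.Agent.S36.NU.H24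
  Fermat.Agent.S36.NU.H65 Fermat.Agent.S36.NU.H79 Fermat.Agent.S36.NU.H88
  Fermat.Agent.S36.NU.H41
open Fermat.Agent.S45.NUE.H23 Fermat.Agent.S45.NUE.H74 Fermat.Agent.BAD

local notation "L0" => Fermat.Agent.S36.NU.H23.L0

/-! ### `SepPattern` from `FrobPattern` -/

section Conv

variable {K F L k ι Z : Type*} {κ : ι → Type*} [Field K] [Field F] [Field L]
  [Algebra K L] [Algebra F L] [Field k] [Fintype ι] [∀ i, Field (κ i)]
  [∀ i, Algebra k (κ i)]
variable {T : TotN K F L k ι Z κ} {e q : ℕ} {idx : ι → ℕ} {j0 jE : F}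

/-- helper74's `SepPattern` from the `FrobPattern`, with `m i = 2 idx i - e`. -/
theorem sepPattern_of_frob (P : FrobPattern T e q idx j0 jE) :
    SepPattern T q j0 jE (fun i => 2 * (idx i : ℤ) - (e : ℤ)) where
  inj := fun i i' h => P.idx_inj (by
    have h' : 2 * (idx i : ℤ) - (e : ℤ) = 2 * (idx i' : ℤ) - (e : ℤ) := h
    omega)
  x_mem := P.mem0
  y_mem := P.memE
  pos := fun i h => by
    have h' : 0 ≤ 2 * (idx i : ℤ) - (e : ℤ) := h
    have h1 : e ≤ 2 * idx i := by omega
    have h2 : (2 * (idx i : ℤ) - (e : ℤ)).toNat = 2 * idx i - e := by omega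
    show T.rdN i jE = T.rdN i j0 ^ q ^ (2 * (idx i : ℤ) - (e : ℤ)).toNat
    rw [h2]
    exact P.ge i h1
  neg := fun i h => by
    have h' : 2 * (idx i : ℤ) - (e : ℤ) < 0 := h
    have h1 : 2 * idx i ≤ e := by omega
    have h2 : (-(2 * (idx i : ℤ) - (e : ℤ))).toNat = e - 2 * idx i := by omega
    show T.rdN i j0 = T.rdN i jE ^ q ^ (-(2 * (idx i : ℤ) - (e : ℤ))).toNat
    rw [h2]
    exact P.le i h1
  gen_pos := fun i h => by
    have h' : 0 ≤ 2 * (idx i : ℤ) - (e : ℤ) := h
    exact P.nc0 i (by omega)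
  gen_neg := fun i h => by
    have h' : 2 * (idx i : ℤ) - (e : ℤ) < 0 := h
    exact P.ncE i (by omega)

end Conv

/-! ### The modular datum -/

section Mod

variable (A : ValuationSubring Kbar)
variable (N q M e : ℕ) (B k : ℤ) (hN : N = M * q ^ e) (hB : B * M + k * (q : ℤ) ^ e = 1)
  (hq : q.Prime) [NeZero N] [NeZero q] [NeZero M] (hqM : ¬ q ∣ M) (hA : A.LiesOverPrime q)
  (ht : H91.TameAt M q)

attribute [local instance] algkE

/-- The inclusions of the residue fields into `k((s))`. -/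
def sigE : ∀ i : Fin (e + 1), kapE A M e i →+* LaurentSeries (kV A) :=
  fun _ => algebraMap (FM A M) (LaurentSeries (kV A))

theorem sigE_apply (i : Fin (e + 1)) (x : FM A M) :
    sigE A M e i x = (x : LaurentSeries (kV A)) := rfl

/-- **The bridge** for helper23's conservation datum. -/
theorem bridgeEM (he : 0 < e) :
    BridgeE A N q M e B k hN hB hq (totEM A N q M e B k hN hB hq hqM hA ht he)
      (fun i : Fin (e + 1) => (i : ℕ)) (sigE A M e) where
  idx_inj := Fin.val_injective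
  idx_le := fun i => Nat.lt_succ_iff.mp i.2
  V_eq := fun _ => rfl
  red_eq := fun _ _ _ _ => rfl

include hq hA in
/-- The residue fields have characteristic `q`. -/
theorem charP_kapE (i : Fin (e + 1)) : CharP (kapE A M e i) q := by
  haveI : CharP (kV A) q := Fermat.Agent.BAD.H82.charP_kV A hq hA
  haveI : CharP (LaurentSeries (kV A)) q :=
    charP_of_injective_algebraMap (algebraMap (kV A) (LaurentSeries (kV A))).injective q
  exact (RingHom.charP_iff (sigE A M e i) (sigE A M e i).injective q).2 inferInstance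

/-- **The Frobenius pattern** of `j (τ)` and `j (q^e τ)` on the modular conservation datum. -/
theorem sepPattern_totEM (he : 0 < e) (hD : q ^ e ∣ N) :
    SepPattern (totEM A N q M e B k hN hB hq hqM hA ht he) q (j0 A N) (jEE A N q e hD)
      (fun i : Fin (e + 1) => 2 * ((i : ℕ) : ℤ) - (e : ℤ)) :=
  sepPattern_of_frob (frobPattern_of_bridge (bridgeEM A N q M e B k hN hB hq hqM hA ht he) hA hD)

/-- `j` is a unit for all the valuations. -/
theorem rdN_j0_ne_zero_totEM (he : 0 < e) (i : Fin (e + 1)) :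
    (totEM A N q M e B k hN hB hq hqM hA ht he).rdN i (j0 A N) ≠ 0 :=
  (bridgeEM A N q M e B k hN hB hq hqM hA ht he).rdN_j0_ne_zero hA i

/-- `j (q^e τ)` is a unit for all the valuations. -/
theorem rdN_jEE_ne_zero_totEM (he : 0 < e) (hD : q ^ e ∣ N) (i : Fin (e + 1)) :
    (totEM A N q M e B k hN hB hq hqM hA ht he).rdN i (jEE A N q e hD) ≠ 0 :=
  (bridgeEM A N q M e B k hN hB hq hqM hA ht he).rdN_jEE_ne_zero hA hD i

/-- The reduction of `j` at any of the valuations is transcendental over `k`. -/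
theorem transcendental_red_j0 (he : 0 < e) (i : Fin (e + 1))
    (hj : j0 A N ∈ (totEM A N q M e B k hN hB hq hqM hA ht he).V i) :
    Transcendental (kV A) ((totEM A N q M e B k hN hB hq hqM hA ht he).red i ⟨j0 A N, hj⟩) := by
  have h1 : sigE A M e i ((totEM A N q M e B k hN hB hq hqM hA ht he).red i ⟨j0 A N, hj⟩)
      = qExpand (kV A) (q ^ (e - 2 * (i : ℕ))) (_root_.Fermat.Agent.S36.NU.H88.Jred A) := by
    rw [(bridgeEM A N q M e B k hN hB hq hqM hA ht he).red_eq i _ hj
      (j0_mem_VE A N q M e B k hN hB hq _), sE_j0]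
  let φ : kapE A M e i →ₐ[kV A] LaurentSeries (kV A) :=
    { sigE A M e i with commutes' := fun _ => rfl }
  refine Fermat.Agent.S45.NUE.H28.transcendental_of_algHom φ _ ?_
  show Transcendental (kV A)
    (sigE A M e i ((totEM A N q M e B k hN hB hq hqM hA ht he).red i ⟨j0 A N, hj⟩))
  rw [h1]
  exact Fermat.Agent.S45.NUE.H28.transcendental_qExpand_Jred A _

/-- **`j (q^e τ)` lies in the integral closure of `R[j]`.** -/
theorem jEE_mem_intSub_totEM (he : 0 < e) (hD : q ^ e ∣ N)
    (h : ChartInE A N (totEM A N q M e B k hN hB hq hqM hA ht he)) :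
    jEE A N q e hD ∈ intSub ↥(Rur A) (j0 A N) :=
  (bridgeEM A N q M e B k hN hB hq hqM hA ht he).jEE_mem_intSub hD (fun f hf₁ hf₂ =>
    Fermat.Agent.S45.NUE.H28.critE A q M N hq hqM hA (hleE N q M e hN)
      (algE A q M e hq hqM hA) (nrEM A N q M e B k hN hB hq hqM hA he) rfl
      (nrE_hdeg A N q M e B k hN hB hq hqM hA (inE_mod A N q M e B k hN hB hq hqM hA) he)
      (chart0E A N (totEM A N q M e B k hN hB hq hqM hA ht he) h) (fun _ => rfl) 0
      (h.j_mem 0)
      (transcendental_red_j0 A N q M e B k hN hB hq hqM hA ht he 0 (h.j_mem 0)) hf₁ hf₂)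

/-- **`ChartHyp` for the chart of `j`** on the modular conservation datum. -/
theorem chartHyp_chart0E_totEM (he : 0 < e) (hD : q ^ e ∣ N)
    (h : ChartInE A N (totEM A N q M e B k hN hB hq hqM hA ht he))
    (n : ℕ) (hn : 0 < n) (hcop : Nat.Coprime n q) :
    ChartHyp (chart0E A N (totEM A N q M e B k hN hB hq hqM hA ht he) h) q n :=
  chartHyp_chart0E_of_sep A N _ h q n hq (charP_kapE A q M e hq hA) hn hcop (jEE A N q e hD) _
    (sepPattern_totEM A N q M e B k hN hB hq hqM hA ht he hD)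
    (jEE_mem_intSub_totEM A N q M e B k hN hB hq hqM hA ht he hD h)

/-- **`ChartHyp` for the chart of `1 / j`** on the modular conservation datum. -/
theorem chartHyp_chartInfE_totEM (he : 0 < e) (hD : q ^ e ∣ N)
    (h : ChartInE A N (totEM A N q M e B k hN hB hq hqM hA ht he))
    (n : ℕ) (hn : 0 < n) (hcop : Nat.Coprime n q) :
    ChartHyp (chartInfE A N (totEM A N q M e B k hN hB hq hqM hA ht he) h) q n :=
  chartHyp_chartInfE_of_sep A N _ h q n hq (charP_kapE A q M e hq hA) hn hcop (jEE A N q e hD) _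
    (sepPattern_totEM A N q M e B k hN hB hq hqM hA ht he hD)
    (jEE_mem_intSub_totEM A N q M e B k hN hB hq hqM hA ht he hD h)

/-- **(RADQ)** for the chart of `j` on the modular conservation datum. -/
theorem isRadQ_chart0E_totEM (he : 0 < e)
    (h : ChartInE A N (totEM A N q M e B k hN hB hq hqM hA ht he))
    (ϖ : ↥(Rur A)) (hϖ : ϖ ≠ 0) :
    ∀ β ∈ (chart0E A N (totEM A N q M e B k hN hB hq hqM hA ht he) h).B,
      (∀ i, (chart0E A N (totEM A N q M e B k hN hB hq hqM hA ht he) h).rd i β = 0) →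
      IsRadQ (chart0E A N (totEM A N q M e B k hN hB hq hqM hA ht he) h).B ϖ β :=
  Fermat.Agent.S45.NUE.H28.isRadQ_chartE A q M N hq hqM hA (hleE N q M e hN)
    (algE A q M e hq hqM hA) (nrEM A N q M e B k hN hB hq hqM hA he) rfl
    (nrE_hdeg A N q M e B k hN hB hq hqM hA (inE_mod A N q M e B k hN hB hq hqM hA) he)
    (chart0E A N (totEM A N q M e B k hN hB hq hqM hA ht he) h) (fun _ => rfl) 0
    (h.j_mem 0)
    (transcendental_red_j0 A N q M e B k hN hB hq hqM hA ht he 0 (h.j_mem 0)) rfl ϖ hϖ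

/-- **(RADQ)** for the chart of `1 / j` on the modular conservation datum. -/
theorem isRadQ_chartInfE_totEM (he : 0 < e)
    (h : ChartInE A N (totEM A N q M e B k hN hB hq hqM hA ht he))
    (ϖ : ↥(Rur A)) (hϖ : ϖ ≠ 0) :
    ∀ β ∈ (chartInfE A N (totEM A N q M e B k hN hB hq hqM hA ht he) h).B,
      (∀ i, (chartInfE A N (totEM A N q M e B k hN hB hq hqM hA ht he) h).rd i β = 0) →
      IsRadQ (chartInfE A N (totEM A N q M e B k hN hB hq hqM hA ht he) h).B ϖ β :=
  Fermat.Agent.S45.NUE.H28.isRadQ_chartE_inv A q M N hq hqM hA (hleE N q M e hN)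
    (algE A q M e hq hqM hA) (nrEM A N q M e B k hN hB hq hqM hA he) rfl
    (nrE_hdeg A N q M e B k hN hB hq hqM hA (inE_mod A N q M e B k hN hB hq hqM hA) he)
    (chartInfE A N (totEM A N q M e B k hN hB hq hqM hA ht he) h) (fun _ => rfl) 0
    (h.j_mem 0)
    (transcendental_red_j0 A N q M e B k hN hB hq hqM hA ht he 0 (h.j_mem 0)) rfl ϖ hϖ

end Mod

end Fermat.Agent.S45.NUE.H54

end
end
-- ==== END Fermat.Agent.S45.NUE.H54_ChartPack

-- ==== BEGIN Fermat.Agent.S45.NUE.H60_BaseGlue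
section
attribute [local instance 10000] SubalgebraClass.toAlgebra
attribute [local instance 10000] HahnSeries.powerSeriesAlgebra

set_option autoImplicit false
set_option synthInstance.maxHeartbeats 400000
set_option maxHeartbeats 1000000
set_option linter.style.haveILetI false
set_option linter.unusedSectionVars false
set_option linter.unusedVariables false

noncomputable section

open ModularCurve AlgebraicCurve
open Fermat.Agent.S24 Fermat.Agent.BAD.H88 Fermat.Agent.S28 Fermat.Agent.S28.H73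
open Fermat.Agent.RED.H73 Fermat.Agent.RED.H17 Fermat.Agent.S36.NU.H88
open Fermat.Agent.S36.NU.H23 Fermat.Agent.BAD Fermat.Agent.RED Fermat.Agent.S36.NU.H79

namespace Fermat.Agent.S45.NUE.H60

section BaseGlue

variable (A : ValuationSubring Kbar) (q M : ℕ) (B k : ℤ) (hB : B * M + k * q = 1) (B' k' : ℤ)
  (hB' : B' * M + k' * (q : ℤ) ^ 2 = 1) (hN : M * q * q = M * q ^ 2) (hq : q.Prime)
  [NeZero M] [NeZero q] [NeZero (M * q)] [NeZero (M * q * q)] (hqM : ¬ q ∣ M)
  (hA : A.LiesOverPrime q) (ht : H91.TameAt M q)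

/-- Values of equal functions at equal places of the curve of level `M`. -/
theorem hasValue_congr_FM (v v' : Place (kV A) (FM A M)) (f f' : FM A M) (hv : v = v')
    (hf : f = f') (c : kV A) : HasValue v f c ↔ HasValue v' f' c := by
  rw [hv, hf]

include hB in
/-- The base of the GLUE tower, at the level `M q q`. -/
theorem glued_totEM_two_aux :
    letI := Fermat.Agent.S45.NUE.H23.algkE A M 2
    ∀ z ∈ Fermat.Agent.S36.NU.H74.ssM A q M,
      Fermat.Agent.S36.NU.H24.Glued
        (Fermat.Agent.S45.NUE.H23.totEM A (M * q * q) q M 2 B' k' hN hB' hq hqM hA ht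
          (by norm_num)) z := by
  intro z hz
  letI := Fermat.Agent.S45.NUE.H23.algkE A M 2
  letI := algkM A M
  have hG : Fermat.Agent.S36.NU.H24.Glued (totM A q M B k hB hq hqM hA ht) z :=
    fun f hf i j c => (nuMod A q M B k hB hq hqM hA ht).glue z hz f hf i j c
  refine Fermat.Agent.S45.NUE.H79.glued_transfer
    (Fermat.Agent.S45.NUE.H23.totEM A (M * q * q) q M 2 B' k' hN hB' hq hqM hA ht
      (by norm_num))
    (totM A q M B k hB hq hqM hA ht) Fin.rev Fin.rev_surjective ?_ z ?_ ?_ hG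
  · intro i
    fin_cases i
    · exact VE2_zero A q M B k hB B' k' hB' hN hq hqM hA
    · exact VE2_one' A q M B k hB B' k' hB' hN hq hqM hA
    · exact VE2_two A q M B' k' hB' hN hq
  · intro P hP
    exact hP
  · intro i f hf c
    fin_cases i
    · have hf0 : f ∈ Fermat.Agent.S45.NUE.H23.VE A (M * q * q) q M 2 B' k' hN hB' hq 0 := hf
      have hf' : f ∈ V02o A q M B k hB := by
        rw [← VE2_zero A q M B k hB B' k' hB' hN hq hqM hA]
        exact hf0
      have hrd : ((Fermat.Agent.S45.NUE.H23.totEM A (M * q * q) q M 2 B' k' hN hB' hq hqM hA ht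
            (by norm_num)).rdN 0 f : FM A M)
          = ((totM A q M B k hB hq hqM hA ht).rdN 2 f : FM A M) := by
        rw [TotN.rdN_of_mem _ hf0, TotN.rdN_of_mem _ hf']
        exact Subtype.ext (sE2_zero A q M B k hB B' k' hB' hN hq hqM hA f hf0 hf')
      have hpt : (Fermat.Agent.S45.NUE.H23.ptE A q M 2 hq hqM hA 0 z : Place (kV A) (FM A M))
          = (ptM A q M hq hqM hA 2 z : Place (kV A) (FM A M)) := rfl
      exact hasValue_congr_FM A M _ _ _ _ hpt hrd c
    · have hf0 : f ∈ Fermat.Agent.S45.NUE.H23.VE A (M * q * q) q M 2 B' k' hN hB' hq 1 := hf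
      have hf' : f ∈ V11o A q M B k hB hq := by
        rw [← VE2_one' A q M B k hB B' k' hB' hN hq hqM hA]
        exact hf0
      have hrd : ((Fermat.Agent.S45.NUE.H23.totEM A (M * q * q) q M 2 B' k' hN hB' hq hqM hA ht
            (by norm_num)).rdN 1 f : FM A M)
          = ((totM A q M B k hB hq hqM hA ht).rdN 1 f : FM A M) := by
        rw [TotN.rdN_of_mem _ hf0, TotN.rdN_of_mem _ hf']
        exact Subtype.ext (sE2_one A q M B k hB B' k' hB' hN hq hqM hA f hf0 hf')
      have hpt : (Fermat.Agent.S45.NUE.H23.ptE A q M 2 hq hqM hA 1 z : Place (kV A) (FM A M))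
          = (ptM A q M hq hqM hA 1 z : Place (kV A) (FM A M)) := rfl
      exact hasValue_congr_FM A M _ _ _ _ hpt hrd c
    · have hf0 : f ∈ Fermat.Agent.S45.NUE.H23.VE A (M * q * q) q M 2 B' k' hN hB' hq 2 := hf
      have hf' : f ∈ V20o A q M := by
        rw [← VE2_two A q M B' k' hB' hN hq]
        exact hf0
      have hrd : ((Fermat.Agent.S45.NUE.H23.totEM A (M * q * q) q M 2 B' k' hN hB' hq hqM hA ht
            (by norm_num)).rdN 2 f : FM A M)
          = ((totM A q M B k hB hq hqM hA ht).rdN 0 f : FM A M) := by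
        rw [TotN.rdN_of_mem _ hf0, TotN.rdN_of_mem _ hf']
        exact Subtype.ext (sE2_two A q M B' k' hB' hN hq hqM hA f hf0 hf')
      have hpt : (Fermat.Agent.S45.NUE.H23.ptE A q M 2 hq hqM hA 2 z : Place (kV A) (FM A M))
          = (ptM A q M hq hqM hA 0 z : Place (kV A) (FM A M)) := rfl
      exact hasValue_congr_FM A M _ _ _ _ hpt hrd c

end BaseGlue

/-- **ND-BASE-GLUE**: the conservation datum `totEM` of the level `N = M q²` is glued at the
supersingular points (the base of the GLUE tower). -/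
theorem glued_totEM_two (A : ValuationSubring Kbar) (N q M : ℕ) (B' k' : ℤ)
    (hN : N = M * q ^ 2) (hB' : B' * M + k' * (q : ℤ) ^ 2 = 1) (hq : q.Prime)
    [NeZero N] [NeZero q] [NeZero M] (hqM : ¬ q ∣ M) (hA : A.LiesOverPrime q)
    (ht : H91.TameAt M q) :
    letI := Fermat.Agent.S45.NUE.H23.algkE A M 2
    ∀ z ∈ Fermat.Agent.S36.NU.H74.ssM A q M,
      Fermat.Agent.S36.NU.H24.Glued
        (Fermat.Agent.S45.NUE.H23.totEM A N q M 2 B' k' hN hB' hq hqM hA ht (by norm_num)) z := by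
  have hN' : N = M * q * q := by rw [hN]; ring
  subst hN'
  have hB : B' * (M : ℤ) + (k' * (q : ℤ)) * (q : ℤ) = 1 := by rw [← hB']; ring
  exact glued_totEM_two_aux A q M B' (k' * (q : ℤ)) hB B' k' hB' hN hq hqM hA ht

end Fermat.Agent.S45.NUE.H60

end
end
-- ==== END Fermat.Agent.S45.NUE.H60_BaseGlue

-- ==== BEGIN Fermat.Agent.S45.NUE.H65_FinTopE
section

/-!
# S45 / NU_e, package E-FIN (helper65): `FinModE` at the modular levels, interface + assembly

Levels `M₁ q = M' q^el` (lower) and `N = M₁ q q = M' q^(el+1)` (upper), `q ∤ M'`, `M'` tame,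
`A` over `q` (the conventions of helper51's `valVecE_final`).  `TuE` / `TlE` = helper23's
`totEM` at the upper / lower level.

* `finModE_mono`, `finModE_charts_T` : the call of `finModE_of` for a datum `D` with
  `D.T = T`, `D.SS = SS` (leaves stated for `T`, `SS`, in the `PointDataT` form of helper96);
* `IsNuE D` : `D` is a modular instance of helper79's `NUDataE`
  (`D.T = TuE`, `D.T' = TlE`, `D.SS = ssM A q M'`, `D.d = q`, `Nm = nmAlphaE / nmBetaE`);
* `LeavesE` : the modular leaves of E-FIN on `chart0E` / `chartInfE` of `TuE`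
  (E-CHART `hchart0`, `hchartoo`; E-PT `hpt0`, with GLUE at the supersingular points as a
  hypothesis; E-CUSP `hptoo`; E-RADQ `hrad0`, `hradoo`; `hL` = LowRoot of the lower level);
* `finModE_mod` : **`FinModE A q (M₁ q) (IsUnitE …)`** from `IsNuE D` and `LeavesE`
  (`IsUnitE` = the predicate `U` of helper51's `valVecE_final`).
-/

set_option autoImplicit false
set_option synthInstance.maxHeartbeats 400000
set_option maxHeartbeats 1000000
set_option linter.style.haveILetI false
set_option linter.unusedSectionVars false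

noncomputable section

open ModularCurve AlgebraicCurve IntermediateField

attribute [local instance] Classical.propDecidable

namespace Fermat.Agent.S45.NUE.H65

open Fermat.Agent.RED.H17 Fermat.Agent.RED Fermat.Agent.S36.NU.H16 Fermat.Agent.S36.NU.H79
  Fermat.Agent.S36.NU.H17 Fermat.Agent.S36.NU.H24
  Fermat.Agent.S24 Fermat.Agent.BAD.H88 Fermat.Agent.S36.NU.H23 Fermat.Agent.S36.NU.H41
  Fermat.Agent.S36.NU.H88 Fermat.Agent.S36.NU.H74 Fermat.Agent.Lib.HeckeComm
  Fermat.Agent.S45.NUE.H79 Fermat.Agent.S45.NUE.H96 Fermat.Agent.S36.NU.H65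
  Fermat.Agent.S45.NUE.H74 Fermat.Agent.S28 Fermat.Agent.S28.H73 Fermat.Agent.RED.H73
  Fermat.Agent.S45.NUE.H23 Fermat.Agent.BAD

attribute [local instance] algkE

/-! ### The call of `finModE_of`, for `D.T = T`, `D.SS = SS` -/

section ChartsT

variable (A : ValuationSubring Kbar) (q M : ℕ) [NeZero M] [NeZero q] [NeZero (M * q)]
  {ι Z : Type*} {κ : ι → Type*} [∀ i, Field (κ i)] [∀ i, Algebra (kV A) (κ i)] [Fintype ι]
  {K' L₀' L' ι' Z' : Type*} {κ' : ι' → Type*} [Field K'] [Field L₀'] [Field L']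
  [Algebra K' L'] [Algebra L₀' L'] [Fintype ι'] [∀ i, Field (κ' i)]
  [∀ i, Algebra (kV A) (κ' i)]

/-- `FinModE` is antitone in the predicate. -/
theorem finModE_mono (U U' : ↥(L0 A (M * q)) → Prop) (hUU : ∀ f, U' f → U f)
    (hFin : FinModE A q M U) : FinModE A q M U' := by
  obtain ⟨E, hE, h⟩ := hFin
  exact ⟨E, hE, fun n hn hg f hU hdiv hα hβ => h n hn hg f (hUU f hU) hdiv hα hβ⟩

/-- **E-FIN on the two charts**, for a datum `D` with `D.T = T`, `D.SS = SS`, `D.T' = T'`. -/
theorem finModE_charts_T [IsAlgClosed (kV A)] (hq : q.Prime) (hA : A.LiesOverPrime q)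
    (D : NUDataE Kbar ↥(L0 A (M * q)) (FN (M * q)) (kV A) ι Z κ K' L₀' L' ι' Z' κ')
    (T : TotN Kbar ↥(L0 A (M * q)) (FN (M * q)) (kV A) ι Z κ) (hT : D.T = T)
    (SS : Set Z) (hSS : D.SS = SS)
    (T' : TotN K' L₀' L' (kV A) ι' Z' κ') (hT' : D.T' = T')
    (h : ChartInE A (M * q) T)
    (hP : HasPrincipalDivisors Kbar (FN (M * q)))
    (hDd : ∀ n : ℕ, Nat.Coprime n q → Nat.Coprime D.d n)
    -- E-CHART
    (hchart0 : ∀ n : ℕ, 0 < n → Nat.Coprime n q → ChartHyp (chart0E A (M * q) T h) q n)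
    (hchartoo : ∀ n : ℕ, 0 < n → Nat.Coprime n q → ChartHyp (chartInfE A (M * q) T h) q n)
    -- E-PT, E-CUSP
    (hpt0 : (∀ z ∈ SS, Glued T z) → (∀ z ∈ SS, ∀ i, (T.pt i z).deg = 1) →
      PointDataT (chart0E A (M * q) T h) T SS ((q : ℕ) : ↥(Rur A)))
    (hptoo : ∀ 𝔪 : Ideal (chartInfE A (M * q) T h).B, 𝔪.IsMaximal →
      (∃ i, (chartInfE A (M * q) T h).Icomp i ≤ 𝔪) →
      (∀ β : (chartInfE A (M * q) T h).B,
        (β : ↥(L0 A (M * q))) = (j0 A (M * q))⁻¹ → β ∈ 𝔪) →
      PointDataAtT (chartInfE A (M * q) T h) T SS ((q : ℕ) : ↥(Rur A)) 𝔪)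
    -- RADQ
    (hrad0 : ∀ β ∈ (chart0E A (M * q) T h).B, (∀ i, (chart0E A (M * q) T h).rd i β = 0) →
      IsRadQ (chart0E A (M * q) T h).B ((q : ℕ) : ↥(Rur A)) β)
    (hradoo : ∀ β ∈ (chartInfE A (M * q) T h).B,
      (∀ i, (chartInfE A (M * q) T h).rd i β = 0) →
      IsRadQ (chartInfE A (M * q) T h).B ((q : ℕ) : ↥(Rur A)) β)
    -- the lower level
    (hL : ∀ n : ℕ, 0 < n → Nat.Coprime n q → LowRoot T' n)
    (hk : ∀ n : ℕ, 0 < n → Nat.Coprime n q → ∀ i', RootClosed (kV A) (κ' i') n)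
    -- the norms
    (hNα : ∀ (n : ℕ) (h : ↥(L0 A (M * q))),
      IsNormPowE A (heckeAlphaBar Kbar M q) n (h : FN (M * q)) →
      ∃ c g : L₀', IsConstT T' c ∧ D.sα.Nm h = c * g ^ n)
    (hNβ : ∀ (n : ℕ) (h : ↥(L0 A (M * q))),
      IsNormPowE A (heckeBetaBar Kbar M q) n (h : FN (M * q)) →
      ∃ c g : L₀', IsConstT T' c ∧ D.sβ.Nm h = c * g ^ n)
    (i₀ : ι) :
    FinModE A q M (IsUnitT A (M * q) T) := by
  subst hT hSS hT'
  haveI : Infinite (kV A) := IsAlgClosed.instInfinite
  refine finModE_of_ne A q M _ ?_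
  exact finModE_of A q M hq hA D hP hDd (chart0E A (M * q) D.T h) (chartInfE A (M * q) D.T h)
    (compat_chart0E A (M * q) D.T h) (compat_chartInfE A (M * q) D.T h)
    (chart0E_B A (M * q) D.T h) (chartInfE_B A (M * q) D.T h)
    hchart0 hchartoo
    ((pointData_iff_T _ (toGlueCore D hP) _).2
      (hpt0 (fun _ hz => D.glued hP hz) D.deg_one))
    (fun 𝔪 hm hex hu => (pointDataAt_iff_T _ (toGlueCore D hP) _ 𝔪).2 (hptoo 𝔪 hm hex hu))
    hrad0 hradoo hL hk hNα hNβ _
    (fun f hf i => rdN_ne_zero_of_isUnitT A (M * q) D.T f hf.1 hf.2 i) i₀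

end ChartsT

/-! ### The modular setting -/

section Mod

variable (A : ValuationSubring Kbar) (q M₁ M' el : ℕ) [NeZero M₁] [NeZero q] [NeZero M']
  [NeZero (M₁ * q)] [NeZero (M₁ * q * q)] (hq : q.Prime)
  (hNl : M₁ * q = M' * q ^ el) (hNu : M₁ * q * q = M' * q ^ (el + 1))
  (Bl kl : ℤ) (hBl : Bl * M' + kl * (q : ℤ) ^ el = 1)
  (Bu ku : ℤ) (hBu : Bu * M' + ku * (q : ℤ) ^ (el + 1) = 1)
  (hqM : ¬ q ∣ M') (hA : A.LiesOverPrime q) (ht : H91.TameAt M' q)

/-- **The conservation datum of the upper level** `M' q^(el+1)`. -/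
abbrev TuE : TotN Kbar ↥(L0 A (M₁ * q * q)) (FN (M₁ * q * q)) (kV A) (Fin (el + 1 + 1))
    (Place (kV A) (FM A M')) (kapE A M' (el + 1)) :=
  totEM A (M₁ * q * q) q M' (el + 1) Bu ku hNu hBu hq hqM hA ht (Nat.succ_pos el)

/-- **The conservation datum of the lower level** `M' q^el`. -/
abbrev TlE (hel : 0 < el) : TotN Kbar ↥(L0 A (M₁ * q)) (FN (M₁ * q)) (kV A) (Fin (el + 1))
    (Place (kV A) (FM A M')) (kapE A M' el) :=
  totEM A (M₁ * q) q M' el Bl kl hNl hBl hq hqM hA ht hel

/-- The type of the modular data `NUDataE`. -/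
abbrev NUDataEM : Type _ :=
  NUDataE Kbar ↥(L0 A (M₁ * q * q)) (FN (M₁ * q * q)) (kV A) (Fin (el + 1 + 1))
    (Place (kV A) (FM A M')) (kapE A M' (el + 1))
    Kbar ↥(L0 A (M₁ * q)) (FN (M₁ * q)) (Fin (el + 1))
    (Place (kV A) (FM A M')) (kapE A M' el)

/-- **`D` is a modular instance of `NUDataE`.** -/
structure IsNuE (hel : 0 < el) (D : NUDataEM A q M₁ M' el) : Prop where
  hT : D.T = _root_.Fermat.Agent.S45.NUE.H65.TuE A q M₁ M' el hq hNu Bu ku hBu hqM hA ht
  hT' : D.T' = _root_.Fermat.Agent.S45.NUE.H65.TlE A q M₁ M' el hq hNl Bl kl hBl hqM hA ht hel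
  hSS : D.SS = ssM A q M'
  hd : D.d = q
  hNα : ∀ h : ↥(L0 A (M₁ * q * q)), D.sα.Nm h = nmAlphaE A (M₁ * q) q h
  hNβ : ∀ h : ↥(L0 A (M₁ * q * q)), D.sβ.Nm h = nmBetaE A (M₁ * q) q h

/-- **The modular leaves of E-FIN** on the two charts of the upper level. -/
structure LeavesE (hel : 0 < el) : Prop where
  /-- E-CHART: the input of the two charts -/
  hin : ChartInE A (M₁ * q * q) (_root_.Fermat.Agent.S45.NUE.H65.TuE A q M₁ M' el hq hNu Bu ku hBu hqM hA ht)
  /-- E-CHART: `ChartHyp` of the chart of `j` -/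
  hchart0 : ∀ n : ℕ, 0 < n → Nat.Coprime n q →
    ChartHyp (chart0E A (M₁ * q * q) (_root_.Fermat.Agent.S45.NUE.H65.TuE A q M₁ M' el hq hNu Bu ku hBu hqM hA ht) hin) q n
  /-- E-CHART: `ChartHyp` of the chart of `1 / j` -/
  hchartoo : ∀ n : ℕ, 0 < n → Nat.Coprime n q →
    ChartHyp (chartInfE A (M₁ * q * q) (_root_.Fermat.Agent.S45.NUE.H65.TuE A q M₁ M' el hq hNu Bu ku hBu hqM hA ht) hin) q n
  /-- E-PT: the local data at the closed points of the chart of `j` (GLUE at the supersingular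
  points, from ND_e, is a hypothesis) -/
  hpt0 : (∀ z ∈ ssM A q M', Glued (_root_.Fermat.Agent.S45.NUE.H65.TuE A q M₁ M' el hq hNu Bu ku hBu hqM hA ht) z) →
    (∀ z ∈ ssM A q M', ∀ i, ((_root_.Fermat.Agent.S45.NUE.H65.TuE A q M₁ M' el hq hNu Bu ku hBu hqM hA ht).pt i z).deg = 1) →
    PointDataT (chart0E A (M₁ * q * q) (_root_.Fermat.Agent.S45.NUE.H65.TuE A q M₁ M' el hq hNu Bu ku hBu hqM hA ht) hin)
      (_root_.Fermat.Agent.S45.NUE.H65.TuE A q M₁ M' el hq hNu Bu ku hBu hqM hA ht) (ssM A q M') ((q : ℕ) : ↥(Rur A))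
  /-- E-CUSP: the local data at the cusps of the chart of `1 / j` -/
  hptoo : ∀ 𝔪 : Ideal
      (chartInfE A (M₁ * q * q) (_root_.Fermat.Agent.S45.NUE.H65.TuE A q M₁ M' el hq hNu Bu ku hBu hqM hA ht) hin).B,
    𝔪.IsMaximal →
    (∃ i, (chartInfE A (M₁ * q * q) (_root_.Fermat.Agent.S45.NUE.H65.TuE A q M₁ M' el hq hNu Bu ku hBu hqM hA ht) hin).Icomp i
      ≤ 𝔪) →
    (∀ β : (chartInfE A (M₁ * q * q) (_root_.Fermat.Agent.S45.NUE.H65.TuE A q M₁ M' el hq hNu Bu ku hBu hqM hA ht) hin).B,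
      (β : ↥(L0 A (M₁ * q * q))) = (j0 A (M₁ * q * q))⁻¹ → β ∈ 𝔪) →
    PointDataAtT (chartInfE A (M₁ * q * q) (_root_.Fermat.Agent.S45.NUE.H65.TuE A q M₁ M' el hq hNu Bu ku hBu hqM hA ht) hin)
      (_root_.Fermat.Agent.S45.NUE.H65.TuE A q M₁ M' el hq hNu Bu ku hBu hqM hA ht) (ssM A q M') ((q : ℕ) : ↥(Rur A)) 𝔪
  /-- E-RADQ for the chart of `j` -/
  hrad0 : ∀ β ∈ (chart0E A (M₁ * q * q) (_root_.Fermat.Agent.S45.NUE.H65.TuE A q M₁ M' el hq hNu Bu ku hBu hqM hA ht) hin).B,
    (∀ i, (chart0E A (M₁ * q * q) (_root_.Fermat.Agent.S45.NUE.H65.TuE A q M₁ M' el hq hNu Bu ku hBu hqM hA ht) hin).rd i β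
      = 0) →
    IsRadQ (chart0E A (M₁ * q * q) (_root_.Fermat.Agent.S45.NUE.H65.TuE A q M₁ M' el hq hNu Bu ku hBu hqM hA ht) hin).B
      ((q : ℕ) : ↥(Rur A)) β
  /-- E-RADQ for the chart of `1 / j` -/
  hradoo : ∀ β ∈
      (chartInfE A (M₁ * q * q) (_root_.Fermat.Agent.S45.NUE.H65.TuE A q M₁ M' el hq hNu Bu ku hBu hqM hA ht) hin).B,
    (∀ i, (chartInfE A (M₁ * q * q) (_root_.Fermat.Agent.S45.NUE.H65.TuE A q M₁ M' el hq hNu Bu ku hBu hqM hA ht) hin).rd i β
      = 0) →
    IsRadQ (chartInfE A (M₁ * q * q) (_root_.Fermat.Agent.S45.NUE.H65.TuE A q M₁ M' el hq hNu Bu ku hBu hqM hA ht) hin).B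
      ((q : ℕ) : ↥(Rur A)) β
  /-- roots at the lower level -/
  hL : ∀ n : ℕ, 0 < n → Nat.Coprime n q →
    LowRoot (_root_.Fermat.Agent.S45.NUE.H65.TlE A q M₁ M' el hq hNl Bl kl hBl hqM hA ht hel) n

/-- The units of helper51's `valVecE_final` are units for all valuations of `TuE`. -/
theorem isUnitT_of_isUnitE (x : ↥(L0 A (M₁ * q * q)))
    (hx : Fermat.Agent.S45.NUE.H51.IsUnitE A q M₁ M' el hq hNu Bu ku hBu x) :
    IsUnitT A (M₁ * q * q) (_root_.Fermat.Agent.S45.NUE.H65.TuE A q M₁ M' el hq hNu Bu ku hBu hqM hA ht) x := fun i =>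
  hx (i : ℕ) (Nat.lt_succ_iff.mp i.2)

/-- **E-FIN at the modular levels**: `FinModE` for the units of helper51's `valVecE_final`, from
a modular instance of `NUDataE` and the modular leaves. -/
theorem finModE_mod (hel : 0 < el) (D : NUDataEM A q M₁ M' el)
    (hD : IsNuE A q M₁ M' el hq hNl hNu Bl kl hBl Bu ku hBu hqM hA ht hel D)
    (hLv : LeavesE A q M₁ M' el hq hNl hNu Bl kl hBl Bu ku hBu hqM hA ht hel) :
    FinModE A q (M₁ * q) (Fermat.Agent.S45.NUE.H51.IsUnitE A q M₁ M' el hq hNu Bu ku hBu) := by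
  haveI : IsAlgClosed (kV A) := isAlgClosed_kV A
  refine finModE_mono A q (M₁ * q) _ _
    (isUnitT_of_isUnitE A q M₁ M' el hq hNu Bu ku hBu hqM hA ht) ?_
  refine finModE_charts_T A q (M₁ * q) hq hA D _ hD.hT _ hD.hSS _ hD.hT' hLv.hin
    (Fermat.Agent.RED.H51.stmt_FFB_principal Kbar (FN (M₁ * q * q))
      (Fermat.Agent.RED.H95.stmt_HKA_isFF (M₁ * q * q)))
    (hDd_of_eq hD.hd) hLv.hchart0 hLv.hchartoo hLv.hpt0 hLv.hptoo hLv.hrad0 hLv.hradoo hLv.hL
    (hk_kV A q (kapE A M' el)) ?_ ?_ 0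
  · intro n h hn
    rw [hD.hNα]
    exact hNα_nmAlphaE A (M₁ * q) q _ n h hn
  · intro n h hn
    rw [hD.hNβ]
    exact hNβ_nmBetaE A (M₁ * q) q _ n h hn

end Mod

end Fermat.Agent.S45.NUE.H65

end
end
-- ==== END Fermat.Agent.S45.NUE.H65_FinTopE

-- ==== BEGIN Fermat.Agent.S45.NUE.H79_ShapeE
section
attribute [local instance 10000] SubalgebraClass.toAlgebra
attribute [local instance 10000] HahnSeries.powerSeriesAlgebra

/-!
# S45 / NU_e, ND_e (helper79): norms of residue fields and points of the components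

Level `M q^e`, `q ∤ M`; all residue fields are `C = FM A M` (helper23's `kapE`), the point of the
component `a` over `z` is `ptE a z = β^[e - 2 a] z`.

* `resIdE` : the norm of residue fields of degree `1` (`N = id`, `j = id`): WILD single
  components (ramification index `q`) and the double component;
* `resFrE` : the norm of residue fields of degree `q` (`N = φ`, `j = Fr`): INSEPARABLE single
  components (ramification index `1`);
* `ptE_eq_iter`, `ptE_eq_self` : the points `ptE`;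
* `ptE_alpha_wild`, `ptE_alpha_insep`, `ptE_beta_wild`, `ptE_beta_insep`, `ptE_double_top`,
  `ptE_double_mid` : the fields `pt` of `SingleRel`, `DoubleRel` for `zα = id`, `zβ = β⁻¹`;
* `deg_ptE` : the points have degree one;
* `insep_norm_eq` : `Fr x' = x ^ q → x' = φ x` (the inseparable norm formula in `ResNorm` form).
-/

set_option autoImplicit false
set_option synthInstance.maxHeartbeats 400000
set_option maxHeartbeats 1000000
set_option linter.style.haveILetI false
set_option linter.unusedSectionVars false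

noncomputable section

open ModularCurve AlgebraicCurve
open Fermat.Agent.S24 Fermat.Agent.BAD.H88 Fermat.Agent.S28 Fermat.Agent.S28.H73
open Fermat.Agent.RED.H73 Fermat.Agent.RED.H17 Fermat.Agent.S36.NU.H88
open Fermat.Agent.S36.NU.H23 Fermat.Agent.S45.NUE.H23

namespace Fermat.Agent.S45.NUE.H79

open Fermat.Agent.BAD Fermat.Agent.RED Fermat.Agent.S36.NU.H79 Fermat.Agent.S36.NU.H24

attribute [local instance] algkE

section Shape

variable (A : ValuationSubring Kbar) (q M : ℕ) (hq : q.Prime) [NeZero M] [NeZero q]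
  [NeZero (M * q * q)] (hqM : ¬ q ∣ M) (hA : A.LiesOverPrime q)

/-! ### The norms of the residue fields -/

/-- The norm of residue fields of degree `1`. -/
def resIdE : ResNorm (kV A) (FM A M) (FM A M) where
  N := MonoidHom.id _
  j := AlgHom.id _ _
  f := 1
  hj := fun x => by rw [pow_one]; rfl

/-- The norm of residue fields of degree `q`: `N = φ`, `j = Fr`. -/
def resFrE : ResNorm (kV A) (FM A M) (FM A M) where
  N := ((phiM A q M hq hqM hA : FM A M ≃+* FM A M) : FM A M →* FM A M)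
  j := FrM A q M hq hqM hA
  f := q
  hj := fun x =>
    @BAD.H73.FrE_frobE (kV A) _ q ⟨hq⟩ (BAD.H82.charP_kV A hq hA)
      (@BAD.H73.perfectRing_kV _ _ _ A q ⟨hq⟩ (BAD.H82.charP_kV A hq hA)) _
      (frobStable_FM A q M hq hqM hA) x

@[simp] theorem resIdE_f : (resIdE A M).f = 1 := rfl

@[simp] theorem resIdE_N (x : FM A M) : (resIdE A M).N x = x := rfl

@[simp] theorem resIdE_j (x : FM A M) : (resIdE A M).j x = x := rfl

@[simp] theorem resFrE_f : (resFrE A q M hq hqM hA).f = q := rfl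

theorem resFrE_N (x : FM A M) : (resFrE A q M hq hqM hA).N x = phiM A q M hq hqM hA x := rfl

theorem resFrE_j (x : FM A M) : (resFrE A q M hq hqM hA).j x = FrM A q M hq hqM hA x := rfl

/-- `Fr (φ x) = x ^ q`. -/
theorem FrM_phiM (x : FM A M) : FrM A q M hq hqM hA (phiM A q M hq hqM hA x) = x ^ q :=
  (resFrE A q M hq hqM hA).hj x

/-- **The inseparable norm formula in `ResNorm` form**: `Fr x' = x ^ q → x' = φ x`. -/
theorem insep_norm_eq (x x' : FM A M)
    (h : qExpand (kV A) q (x' : LaurentSeries (kV A)) = (x : LaurentSeries (kV A)) ^ q) :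
    x' = (resFrE A q M hq hqM hA).N x := by
  have h1 : FrM A q M hq hqM hA x' = FrM A q M hq hqM hA (phiM A q M hq hqM hA x) := by
    rw [FrM_phiM]
    apply Subtype.ext
    rw [coe_FrM, h]
    rfl
  exact (FrM A q M hq hqM hA).toRingHom.injective h1

/-- The wild norm formula in `ResNorm` form. -/
theorem wild_norm_eq (x x' : FM A M)
    (h : (x' : LaurentSeries (kV A)) = (x : LaurentSeries (kV A)) ^ q) :
    x' = (resIdE A M).N x ^ q := by
  apply Subtype.ext
  rw [h]
  rfl

/-! ### The points of the components -/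

/-- The point of the component `i` over `z` is `β^[w] z`, `w = e - 2 i`. -/
theorem ptE_eq_iter (e : ℕ) (i : Fin (e + 1)) (w : ℕ) (hw : e - 2 * (i : ℕ) = w)
    (z : Place (kV A) (FM A M)) :
    ptE A q M e hq hqM hA i z = (betaM A q M hq hqM hA)^[w] z := by
  subst hw
  rfl

/-- The point of the component `i` over `z` is `z` if `e ≤ 2 i`. -/
theorem ptE_eq_self (e : ℕ) (i : Fin (e + 1)) (hi : e ≤ 2 * (i : ℕ))
    (z : Place (kV A) (FM A M)) : ptE A q M e hq hqM hA i z = z :=
  ptE_eq_iter A q M hq hqM hA e i 0 (Nat.sub_eq_zero_of_le hi) z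

/-- `pt` along `α`, wild component (`e < 2 a`). -/
theorem ptE_alpha_wild (e : ℕ) (i : Fin (e + 2)) (i' : Fin (e + 1)) (hi' : (i' : ℕ) = (i : ℕ))
    (hi : e < 2 * (i : ℕ)) (z : Place (kV A) (FM A M)) (y : FM A M) (c : kV A)
    (h : HasValue (ptE A q M (e + 1) hq hqM hA i z) ((resIdE A M).j y) c) :
    HasValue (ptE A q M e hq hqM hA i' z) y c := by
  rw [ptE_eq_self A q M hq hqM hA (e + 1) i (by omega) z] at h
  rw [ptE_eq_self A q M hq hqM hA e i' (by omega) z]
  exact h

/-- `pt` along `α`, inseparable component (`2 a ≤ e`). -/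
theorem ptE_alpha_insep (e : ℕ) (i : Fin (e + 2)) (i' : Fin (e + 1))
    (hi' : (i' : ℕ) = (i : ℕ)) (hi : 2 * (i : ℕ) ≤ e) (z : Place (kV A) (FM A M))
    (y : FM A M) (c : kV A)
    (h : HasValue (ptE A q M (e + 1) hq hqM hA i z) ((resFrE A q M hq hqM hA).j y) c) :
    HasValue (ptE A q M e hq hqM hA i' z) y c := by
  rw [ptE_eq_iter A q M hq hqM hA (e + 1) i (e - 2 * (i : ℕ) + 1) (by omega) z,
    Function.iterate_succ_apply'] at h
  rw [ptE_eq_iter A q M hq hqM hA e i' (e - 2 * (i : ℕ)) (by omega) z]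
  exact (hasValue_betaM_FrM A q M hq hqM hA _ y c).1 h

/-- `pt` along `β`, wild component (`2 ≤ a`, `2 a ≤ e + 1`), `zβ = β⁻¹`. -/
theorem ptE_beta_wild (e : ℕ) (i : Fin (e + 2)) (i' : Fin (e + 1))
    (hi' : (i' : ℕ) + 1 = (i : ℕ)) (hi : 2 * (i : ℕ) ≤ e + 1) (z : Place (kV A) (FM A M))
    (y : FM A M) (c : kV A)
    (h : HasValue (ptE A q M (e + 1) hq hqM hA i z) ((resIdE A M).j y) c) :
    HasValue (ptE A q M e hq hqM hA i' ((betaM A q M hq hqM hA).symm z)) y c := by
  rw [ptE_eq_iter A q M hq hqM hA (e + 1) i (e + 1 - 2 * (i : ℕ)) rfl z] at h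
  rw [ptE_eq_iter A q M hq hqM hA e i' (e + 1 - 2 * (i : ℕ) + 1) (by omega) _,
    Function.iterate_succ_apply, Equiv.apply_symm_apply]
  exact h

/-- `pt` along `β`, inseparable component (`e + 2 ≤ 2 a`), `zβ = β⁻¹`. -/
theorem ptE_beta_insep (e : ℕ) (i : Fin (e + 2)) (i' : Fin (e + 1))
    (hi' : (i' : ℕ) + 1 = (i : ℕ)) (hi : e + 2 ≤ 2 * (i : ℕ)) (z : Place (kV A) (FM A M))
    (y : FM A M) (c : kV A)
    (h : HasValue (ptE A q M (e + 1) hq hqM hA i z) ((resFrE A q M hq hqM hA).j y) c) :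
    HasValue (ptE A q M e hq hqM hA i' ((betaM A q M hq hqM hA).symm z)) y c := by
  rw [ptE_eq_self A q M hq hqM hA (e + 1) i (by omega) z] at h
  rw [ptE_eq_self A q M hq hqM hA e i' (by omega) _]
  have hz : z = betaM A q M hq hqM hA ((betaM A q M hq hqM hA).symm z) :=
    (Equiv.apply_symm_apply _ _).symm
  rw [hz] at h
  exact (hasValue_betaM_FrM A q M hq hqM hA _ y c).1 h

/-- The points of the components have degree one. -/
theorem deg_ptE (ht : H91.TameAt M q) (e : ℕ) (i : Fin (e + 1)) (z : Place (kV A) (FM A M)) :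
    @Place.deg (kV A) (kapE A M e i) _ _ (algkE A M e i) (ptE A q M e hq hqM hA i z) = 1 := by
  haveI : IsAlgClosed (kV A) := isAlgClosed_kV A
  exact (Fermat.Agent.RED.H17.ffHyp_of_isFF _ _
    (Fermat.Agent.BAD.H91.isFF_redM hq hqM ht hA)).deg_one _

end Shape

end Fermat.Agent.S45.NUE.H79

end
end
-- ==== END Fermat.Agent.S45.NUE.H79_ShapeE

-- ==== BEGIN Fermat.Agent.S45.NUE.H81_ChartInE
section

/-!
# S45 / NU_e, package E-FIN, leaf E-CHART, the modular input `ChartInE` (helper81)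

Level `N = M q^e`, `q ∤ M`; `T = totE` (helper23), the conservation datum of the `e + 1`
valuations `VE a` of the inertia-fixed functions.

* `const_mem_VE`, `sE_const` : the constants of `Rur A` are integral for every `VE a`, with
  reduction `resRur`;
* `sE_j0_ne_zero` : `j` is a unit for every `VE a`;
* **`chartInE_totE : ChartInE A N totE`** : the input of helper74's charts `chart0E`, `chartInfE`;
* **`chartInE_totEM : ChartInE A N totEM`** : the same for the unconditional datum `totEM`.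
-/

set_option autoImplicit false
set_option synthInstance.maxHeartbeats 400000
set_option maxHeartbeats 1000000
set_option linter.style.haveILetI false
set_option linter.unusedSectionVars false
set_option linter.unusedVariables false

noncomputable section

open ModularCurve AlgebraicCurve
open Fermat.Agent.S24 Fermat.Agent.BAD.H88 Fermat.Agent.S28 Fermat.Agent.S28.H73
open Fermat.Agent.RED.H73 Fermat.Agent.RED.H17 Fermat.Agent.S36.NU.H88
open Fermat.Agent.S36.NU.H23 Fermat.Agent.BAD Fermat.Agent.S36.NU.H79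
open Fermat.Agent.S45.NUE.H23 Fermat.Agent.S45.NUE.H74 Fermat.Agent.S36.NU.H41

namespace Fermat.Agent.S45.NUE.H81

section Level

variable (A : ValuationSubring Kbar)
variable (N q M e : ℕ) (B k : ℤ) (hN : N = M * q ^ e) (hB : B * M + k * (q : ℤ) ^ e = 1)
  (hq : q.Prime) [NeZero N] [NeZero q] [NeZero M] (hqM : ¬ q ∣ M) (hA : A.LiesOverPrime q)
  (ht : H91.TameAt M q)

/-- The constants of `Rur A` are integral for `VE a`. -/
theorem const_mem_VE (a : ℕ) (r : ↥(Rur A)) :
    algebraMap ↥(Rur A) ↥(L0 A N) r ∈ VE A N q M e B k hN hB hq a := by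
  haveI := neZero_nE N q M e B k hN hB hq a
  exact (const_memG (hE N q M e B k hN hB hq a) A _).mpr r.2

/-- The reduction at `VE a` of a constant of `Rur A`. -/
theorem sE_const (a : ℕ) (r : ↥(Rur A))
    (h : algebraMap ↥(Rur A) ↥(L0 A N) r ∈ VE A N q M e B k hN hB hq a) :
    _root_.Fermat.Agent.S45.NUE.H23.sE A N q M e B k hN hB hq a ⟨_, h⟩
      = algebraMap (kV A) (LaurentSeries (kV A)) (resRur A r) := by
  haveI := neZero_nE N q M e B k hN hB hq a
  have hG : algebraMap Kbar (FN N) (((r : ↥(Kur A)) : Kbar))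
      ∈ VG (hE N q M e B k hN hB hq a) A := h
  show ((redG (hE N q M e B k hN hB hq a) A ⟨_, hG⟩ : RG (hE N q M e B k hN hB hq a) A) :
    LaurentSeries (kV A)) = _
  rw [redG_const (hE N q M e B k hN hB hq a) A ⟨((r : ↥(Kur A)) : Kbar), r.2⟩ hG]
  rfl

/-- `j` is a unit for `VE a`. -/
theorem sE_j0_ne_zero (a : ℕ) (hj : j0 A N ∈ VE A N q M e B k hN hB hq a) :
    _root_.Fermat.Agent.S45.NUE.H23.sE A N q M e B k hN hB hq a ⟨j0 A N, hj⟩ ≠ 0 := by
  intro h0
  have htr := Fermat.Agent.S45.NUE.H28.transcendental_sE_j0 A N q M e B k hN hB hq a hj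
  rw [h0] at htr
  exact htr (isAlgebraic_zero)

variable (H : InE A N q M e B k hN hB hq hqM hA)

/-- **The input of the two charts of level `M q^e`**. -/
theorem chartInE_totE (he : 0 < e) :
    @ChartInE A N _ (Fin (e + 1)) (Place (kV A) (FM A M)) (kapE A M e) _ _ (algkE A M e)
      (totE A N q M e B k hN hB hq hqM hA ht H he) := by
  letI := algkE A M e
  refine ⟨resRur_surjective A hq hA, fun i r => ?_, fun i r hr => ?_, fun i => ?_⟩
  · exact const_mem_VE A N q M e B k hN hB hq (i : ℕ) r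
  · apply Subtype.ext
    exact sE_const A N q M e B k hN hB hq (i : ℕ) r hr
  · have hj := Fermat.Agent.S45.NUE.H28.j0_mem_VE A N q M e B k hN hB hq (i : ℕ)
    rw [TotN.rdN_of_mem _ (show j0 A N ∈ (totE A N q M e B k hN hB hq hqM hA ht H he).V i
      from hj)]
    intro h0
    apply sE_j0_ne_zero A N q M e B k hN hB hq (i : ℕ) hj
    have := congrArg (fun c : FM A M => (c : LaurentSeries (kV A))) h0
    exact this

/-- **The input of the two charts of level `M q^e`**, for the unconditional datum `totEM`. -/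
theorem chartInE_totEM (he : 0 < e) :
    @ChartInE A N _ (Fin (e + 1)) (Place (kV A) (FM A M)) (kapE A M e) _ _ (algkE A M e)
      (totEM A N q M e B k hN hB hq hqM hA ht he) :=
  chartInE_totE A N q M e B k hN hB hq hqM hA ht (inE_mod A N q M e B k hN hB hq hqM hA) he

end Level

end Fermat.Agent.S45.NUE.H81

end
end
-- ==== END Fermat.Agent.S45.NUE.H81_ChartInE
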