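-- GENERATED (merged mirror, NOTES/tools/trim/merge3_helper67.py): 7 modules of the originals, bodies verbatim.
import Fermat.Agent.Zm.S45_L10_000
import Fermat.Agent.Zm.S45_L07_000
import Fermat.Agent.Zm.S45_L01_000
import Fermat.Agent.Zm.S45_L09_000
import Fermat.Agent.Zm.S45_L10_001
import Fermat.Agent.Zm.S45_L03_002
import Fermat.Agent.Zm.S45_L10_002
import Fermat.Agent.Zm.S36_L02_001
import Fermat.Agent.Zm.S35_L02_001
import Fermat.Agent.Zm.S45_L08_000
import Fermat.Agent.Zm.S45_L03_001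
import Fermat.Agent.Zm.S45_L03_000
import Fermat.Agent.Zm.S45_L07_001

-- ==== BEGIN Fermat.Agent.S45.NUE.H12_HssEAll
section

/-!
# S45 / NU_e, package E-FIN, leaf E-PT-SS: `hss` on `totEM` for ALL `q` (helper12)

The hypothesis `hss` of `H88.pointDataE_of_dichotomy` on helper23's `totEM` (level `N = M q^e`,
`i₀ = Fin.last e`, `SS = ssM A q M`), with the leaf SS-RAM discharged (`H12.ss_ram`):

* `ramE` : `H16.RamE` for every coordinate with integral expansion;
* `hssE_five_full` : `q ≥ 5`, `4 ∣ M` (`H16.hssE_five` without `hram`);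
* `hssE_three`, `hssE_two` : `q = 3` (`4 ∣ M`, `f = q23uF3`), `q = 2` (`9 ∣ M`, `f = q23uF2`);
* `hssE_all` : all `q`, tame level `(q ≠ 2 ∧ 4 ∣ M) ∨ (q = 2 ∧ 9 ∣ M)`;
* `hssE_all_chart0E` : the same on helper74's `chart0E`.
-/

set_option autoImplicit false
set_option synthInstance.maxHeartbeats 400000
set_option maxHeartbeats 1000000
set_option linter.unusedSectionVars false
set_option linter.unusedVariables false
set_option linter.style.haveILetI false

noncomputable section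

namespace Fermat.Agent.S45.NUE.H12

open Fermat.Agent.S24 Fermat.Agent.BAD.H88 ModularCurve AlgebraicCurve Polynomial
open Fermat.Agent.S28 Fermat.Agent.S28.H73 Fermat.Agent.RED.H73 Fermat.Agent.RED.H17
open Fermat.Agent.S36.NU.H88 Fermat.Agent.S36.NU.H23 Fermat.Agent.S36.NU.H41
open Fermat.Agent.S36.NU.H65 Fermat.Agent.S36.NU.H16 Fermat.Agent.S36.NU.H24
open Fermat.Agent.S36.NU.H79 Fermat.Agent.S36.NU.H74 Fermat.Agent.S36.NU Fermat.Agent.BAD
open Fermat.Agent.S36.NU.H5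
open Fermat.Agent.S45.NUE.H23 Fermat.Agent.S45.NUE.H68 Fermat.Agent.S45.NUE.H16

section Ram

variable (A : ValuationSubring Kbar)
variable (N q M e : ℕ) (B k : ℤ) (hN : N = M * q ^ e) (hB : B * M + k * (q : ℤ) ^ e = 1)
  (hq : q.Prime) [NeZero N] [NeZero q] [NeZero M]

include hq in
/-- **SS-RAM** as the `Prop` `H16.RamE`, for every coordinate with integral expansion. -/
theorem ramE (f : FN M) (u₀ : LaurentSeries ℤ)
    (hf : (f : LaurentSeries Kbar) = intSer Kbar u₀) : RamE A N q M e B k hN hB hq u₀ :=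
  fun x y hx hy => ss_ram A N q M e B k hN hB hq f u₀ hf x y hx hy

end Ram

section Tot

variable (A : ValuationSubring Kbar)
variable (N q M e : ℕ) (B k : ℤ) (hN : N = M * q ^ e) (hB : B * M + k * (q : ℤ) ^ e = 1)
  (hq : q.Prime) [NeZero N] [NeZero q] [NeZero M] [NeZero (M * q)] (hqM : ¬ q ∣ M)
  (hA : A.LiesOverPrime q) (ht : H91.TameAt M q)

attribute [local instance] algkE

/-- **`hss` on `totEM`, `q ≥ 5`, `4 ∣ M`**, unconditional in SS-RAM. -/
theorem hssE_five_full (he : 0 < e) (h5 : 5 ≤ q) (h4 : 4 ∣ M)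
    (C : Chart ↥(Rur A) ↥(L0 A N) (kV A) (Fin (e + 1)) (kapE A M e))
    (hc : Compat C (totEM A N q M e B k hN hB hq hqM hA ht he))
    (hB0 : C.B = intSub ↥(Rur A) (j0 A N))
    (hVal : H99.ValE C ((q : ℕ) : ↥(Rur A)) (fun i => mE q e (i : ℕ)))
    (hqV : ∀ i, ((q : ℕ) : ↥(L0 A N)) ∈ (C.V i).nonunits)
    (crit : ∀ f : ↥(L0 A N), IsIntegral ↥(Algebra.adjoin ↥(Kur A) {j0 A N}) f →
      (∀ i, f ∈ C.V i) → f ∈ C.B) :
    ∀ z ∈ ssM A q M, ∀ 𝔪 : Ideal C.B, 𝔪.IsMaximal →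
      (∀ β : C.B, β ∈ 𝔪 ↔
        VanAt ((totEM A N q M e B k hN hB hq hqM hA ht he).pt (Fin.last e) z)
          (C.rdB (Fin.last e) β)) →
      Nonempty (LocEq C ((q : ℕ) : ↥(Rur A)) 𝔪) :=
  hssE_five A N q M e B k hN hB hq hqM hA ht he h5 h4 C hc hB0 hVal hqV crit
    (ramE A N q M e B k hN hB hq (Fermat.Agent.BAD.H30.unitF M 4 h4)
      Fermat.Agent.S36.NU.H73.uZ4 (coe_unitF4 M h4))

/-- **`hss` on `totEM`, `q = 3`, `4 ∣ M`** (`f = q23uF3`, `u₀ = q23hZ4`). -/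
theorem hssE_three (h3 : q = 3) (he : 0 < e) (h4 : 4 ∣ M)
    (C : Chart ↥(Rur A) ↥(L0 A N) (kV A) (Fin (e + 1)) (kapE A M e))
    (hc : Compat C (totEM A N q M e B k hN hB hq hqM hA ht he))
    (hB0 : C.B = intSub ↥(Rur A) (j0 A N))
    (hVal : H99.ValE C ((q : ℕ) : ↥(Rur A)) (fun i => mE q e (i : ℕ)))
    (hqV : ∀ i, ((q : ℕ) : ↥(L0 A N)) ∈ (C.V i).nonunits)
    (crit : ∀ f : ↥(L0 A N), IsIntegral ↥(Algebra.adjoin ↥(Kur A) {j0 A N}) f →
      (∀ i, f ∈ C.V i) → f ∈ C.B) :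
    ∀ z ∈ ssM A q M, ∀ 𝔪 : Ideal C.B, 𝔪.IsMaximal →
      (∀ β : C.B, β ∈ 𝔪 ↔
        VanAt ((totEM A N q M e B k hN hB hq hqM hA ht he).pt (Fin.last e) z)
          (C.rdB (Fin.last e) β)) →
      Nonempty (LocEq C ((q : ℕ) : ↥(Rur A)) 𝔪) := by
  subst h3
  exact hssE_tot A N 3 M e B k hN hB hq hqM hA ht he C hc hB0 hVal hqV crit
    (q23uF3 M h4) q23hZ4 (q23uF3_coe M h4) 4 h4 3 (by norm_num) (q23uF3_cube M h4)
    (ramE A N 3 M e B k hN hB hq (q23uF3 M h4) q23hZ4 (q23uF3_coe M h4)) (ssM A 3 M)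
    (fun z hz => pole_ssM_three A M hqM hA h4 z hz)

/-- **`hss` on `totEM`, `q = 2`, `9 ∣ M`** (`f = q23uF2`, `u₀ = q23hZ9`). -/
theorem hssE_two (h2 : q = 2) (he : 0 < e) (h9 : 9 ∣ M)
    (C : Chart ↥(Rur A) ↥(L0 A N) (kV A) (Fin (e + 1)) (kapE A M e))
    (hc : Compat C (totEM A N q M e B k hN hB hq hqM hA ht he))
    (hB0 : C.B = intSub ↥(Rur A) (j0 A N))
    (hVal : H99.ValE C ((q : ℕ) : ↥(Rur A)) (fun i => mE q e (i : ℕ)))
    (hqV : ∀ i, ((q : ℕ) : ↥(L0 A N)) ∈ (C.V i).nonunits)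
    (crit : ∀ f : ↥(L0 A N), IsIntegral ↥(Algebra.adjoin ↥(Kur A) {j0 A N}) f →
      (∀ i, f ∈ C.V i) → f ∈ C.B) :
    ∀ z ∈ ssM A q M, ∀ 𝔪 : Ideal C.B, 𝔪.IsMaximal →
      (∀ β : C.B, β ∈ 𝔪 ↔
        VanAt ((totEM A N q M e B k hN hB hq hqM hA ht he).pt (Fin.last e) z)
          (C.rdB (Fin.last e) β)) →
      Nonempty (LocEq C ((q : ℕ) : ↥(Rur A)) 𝔪) := by
  subst h2
  exact hssE_tot A N 2 M e B k hN hB hq hqM hA ht he C hc hB0 hVal hqV crit
    (q23uF2 M h9) q23hZ9 (q23uF2_coe M h9) 9 h9 8 (by norm_num) (q23uF2_pow M h9)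
    (ramE A N 2 M e B k hN hB hq (q23uF2 M h9) q23hZ9 (q23uF2_coe M h9)) (ssM A 2 M)
    (fun z hz => pole_ssM_two A M hqM hA h9 z hz)

/-- **`hss` on `totEM`, all `q`**, at the tame levels (`4 ∣ M` if `q` is odd, `9 ∣ M` if
`q = 2`). -/
theorem hssE_all (hT : (q ≠ 2 ∧ 4 ∣ M) ∨ (q = 2 ∧ 9 ∣ M)) (he : 0 < e)
    (C : Chart ↥(Rur A) ↥(L0 A N) (kV A) (Fin (e + 1)) (kapE A M e))
    (hc : Compat C (totEM A N q M e B k hN hB hq hqM hA ht he))
    (hB0 : C.B = intSub ↥(Rur A) (j0 A N))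
    (hVal : H99.ValE C ((q : ℕ) : ↥(Rur A)) (fun i => mE q e (i : ℕ)))
    (hqV : ∀ i, ((q : ℕ) : ↥(L0 A N)) ∈ (C.V i).nonunits)
    (crit : ∀ f : ↥(L0 A N), IsIntegral ↥(Algebra.adjoin ↥(Kur A) {j0 A N}) f →
      (∀ i, f ∈ C.V i) → f ∈ C.B) :
    ∀ z ∈ ssM A q M, ∀ 𝔪 : Ideal C.B, 𝔪.IsMaximal →
      (∀ β : C.B, β ∈ 𝔪 ↔
        VanAt ((totEM A N q M e B k hN hB hq hqM hA ht he).pt (Fin.last e) z)
          (C.rdB (Fin.last e) β)) →
      Nonempty (LocEq C ((q : ℕ) : ↥(Rur A)) 𝔪) := by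
  rcases hT with ⟨h2, h4⟩ | ⟨h2, h9⟩
  · by_cases h3 : q = 3
    · exact hssE_three A N q M e B k hN hB hq hqM hA ht h3 he h4 C hc hB0 hVal hqV crit
    · have h5 : 5 ≤ q := by
        have h2' := hq.two_le
        by_contra hlt
        have h4' : q = 4 := by omega
        rw [h4'] at hq
        exact absurd hq (by decide)
      exact hssE_five_full A N q M e B k hN hB hq hqM hA ht he h5 h4 C hc hB0 hVal hqV crit
  · exact hssE_two A N q M e B k hN hB hq hqM hA ht h2 he h9 C hc hB0 hVal hqV crit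

/-- **`hss` on helper74's `chart0E` of `totEM`, all `q`.** -/
theorem hssE_all_chart0E (hT : (q ≠ 2 ∧ 4 ∣ M) ∨ (q = 2 ∧ 9 ∣ M)) (he : 0 < e)
    (h : H74.ChartInE A N (totEM A N q M e B k hN hB hq hqM hA ht he))
    (hVal : H99.ValE (H74.chart0E A N (totEM A N q M e B k hN hB hq hqM hA ht he) h)
      ((q : ℕ) : ↥(Rur A)) (fun i => mE q e (i : ℕ)))
    (hqV : ∀ i, ((q : ℕ) : ↥(L0 A N))
      ∈ ((H74.chart0E A N (totEM A N q M e B k hN hB hq hqM hA ht he) h).V i).nonunits)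
    (crit : ∀ f : ↥(L0 A N), IsIntegral ↥(Algebra.adjoin ↥(Kur A) {j0 A N}) f →
      (∀ i, f ∈ (H74.chart0E A N (totEM A N q M e B k hN hB hq hqM hA ht he) h).V i) →
      f ∈ (H74.chart0E A N (totEM A N q M e B k hN hB hq hqM hA ht he) h).B) :
    ∀ z ∈ ssM A q M,
      ∀ 𝔪 : Ideal (H74.chart0E A N (totEM A N q M e B k hN hB hq hqM hA ht he) h).B,
      𝔪.IsMaximal →
      (∀ β : (H74.chart0E A N (totEM A N q M e B k hN hB hq hqM hA ht he) h).B, β ∈ 𝔪 ↔
        VanAt ((totEM A N q M e B k hN hB hq hqM hA ht he).pt (Fin.last e) z)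
          ((H74.chart0E A N (totEM A N q M e B k hN hB hq hqM hA ht he) h).rdB
            (Fin.last e) β)) →
      Nonempty (LocEq (H74.chart0E A N (totEM A N q M e B k hN hB hq hqM hA ht he) h)
        ((q : ℕ) : ↥(Rur A)) 𝔪) :=
  hssE_all A N q M e B k hN hB hq hqM hA ht hT he _
    (H74.compat_chart0E A N _ h) (H74.chart0E_B A N _ h) hVal hqV crit

end Tot

end Fermat.Agent.S45.NUE.H12

end
end
-- ==== END Fermat.Agent.S45.NUE.H12_HssEAll

-- ==== BEGIN Fermat.Agent.S45.NUE.H33_SideE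
section

/-!
# S45 / NU_e, ND_e (helper33): the single components along `α` and the norms of units

Levels `N = M q ^ e` (lower, `e > 0`) and `N q = M q ^ (e + 1)` (upper), `q ∤ M`, `A` over `q`;
`Tu`, `Tl` the conservation data `totEM` of helper23 of the two levels, `nmAlphaE` the norm along
`α` on the inertia-fixed functions (helper96).

* `normAlpha_wild_gen`, `normAlpha_insep_gen` : the norm–reduction formulas of `H33_NormFinal`
  for a generic level `N` (`sE`-form);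
* `singleAlphaWild` (`a < e`, `e < 2 a`), `singleAlphaInsep` (`a < e`, `2 a ≤ e`),
  **`singleAlpha`** (`a < e`) : `H79.SingleRel Tu Tl (nmAlphaE A N q) (ssM A q M) id q i`;
* **`unitAlphaT`**, `unitBetaT` : the norm of a unit for all the valuations of the upper level is
  a unit for all the valuations of the lower level (the field `unit` of `H79.SideE`).
-/

set_option autoImplicit false
set_option linter.style.haveILetI false
set_option linter.unusedSectionVars false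
set_option linter.unusedVariables false
set_option synthInstance.maxHeartbeats 400000
set_option maxHeartbeats 1000000

noncomputable section

namespace Fermat.Agent.S45.NUE.H33

open AlgebraicCurve ModularCurve Fermat.Agent.S24 Fermat.Agent.Lib.HeckeComm
  Fermat.Agent.S36.H44 Fermat.Agent.BAD Fermat.Agent.BAD.H88
  Fermat.Agent.S36.NU.H26 Fermat.Agent.S45.NUE.H51 Fermat.Agent.S45.NUE.H23
  Fermat.Agent.S28 Fermat.Agent.S28.H73 Fermat.Agent.RED.H73 Fermat.Agent.RED.H17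
  Fermat.Agent.S36.NU.H79 Fermat.Agent.S36.NU.H88 Fermat.Agent.S36.NU.H23

attribute [local instance] Fermat.Agent.S45.NUE.H23.algkE

section SideE

variable (A : ValuationSubring Kbar) (N q M e : ℕ) (B k B' k' : ℤ) (hN : N = M * q ^ e)
  (hB : B * M + k * (q : ℤ) ^ e = 1)
  (hN' : N * q = M * q ^ (e + 1)) (hB' : B' * M + k' * (q : ℤ) ^ (e + 1) = 1) (hq : q.Prime)
  [NeZero N] [NeZero q] [NeZero (N * q)] [NeZero M] [NeZero (M * q)] [NeZero (M * q * q)]
  (he : 0 < e) (hqM : ¬ q ∣ M) (hA : A.LiesOverPrime q) (ht : H91.TameAt M q)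

/-! ### The norm formulas at a generic level -/

include hN he in
theorem exists_level : ∃ M₁ : ℕ, N = M₁ * q :=
  ⟨M * q ^ (e - 1), by
    rw [hN, mul_assoc, ← pow_succ]
    congr 2
    omega⟩

include hqM hA he in
/-- **NORM-RED along `α`, wild shape** (`a < e`, `e < 2 a`), generic level. -/
theorem normAlpha_wild_gen (a : ℕ) (ha : a < e) (h2 : e < 2 * a)
    (f : ↥(L0 A (N * q))) (hf : f ∈ VE A (N * q) q M (e + 1) B' k' hN' hB' hq a) :
    ∃ hm : Fermat.Agent.S45.NUE.H96.nmAlphaE A N q f ∈ VE A N q M e B k hN hB hq a,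
      _root_.Fermat.Agent.S45.NUE.H23.sE A N q M e B k hN hB hq a ⟨_, hm⟩
        = _root_.Fermat.Agent.S45.NUE.H23.sE A (N * q) q M (e + 1) B' k' hN' hB' hq a ⟨f, hf⟩ ^ q := by
  obtain ⟨M₁, rfl⟩ := exists_level N q M e hN he
  haveI : NeZero M₁ := ⟨fun h0 => NeZero.ne (M₁ * q) (by rw [h0, zero_mul])⟩
  exact normAlpha_wild (coverInputs A q M₁ M e hq hN hN' B k hB B' k' hB' hqM hA)
    (redInputs A q M₁ M e hq hN hN' B k hB B' k' hB') hqM hA a ha h2
    (fun x => _root_.Fermat.Agent.S45.NUE.H23.sE_mem A (M₁ * q * q) q M (e + 1) B' k' hN' hB' hq hqM hA (Nat.succ_pos e) a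
      (by omega) x) f hf

include hqM hA he in
/-- **NORM-RED along `α`, inseparable shape** (`a < e`, `2 a ≤ e`), generic level. -/
theorem normAlpha_insep_gen (a : ℕ) (ha : a < e) (h2 : 2 * a ≤ e)
    (f : ↥(L0 A (N * q))) (hf : f ∈ VE A (N * q) q M (e + 1) B' k' hN' hB' hq a) :
    ∃ hm : Fermat.Agent.S45.NUE.H96.nmAlphaE A N q f ∈ VE A N q M e B k hN hB hq a,
      qExpand (kV A) q (_root_.Fermat.Agent.S45.NUE.H23.sE A N q M e B k hN hB hq a ⟨_, hm⟩)
        = _root_.Fermat.Agent.S45.NUE.H23.sE A (N * q) q M (e + 1) B' k' hN' hB' hq a ⟨f, hf⟩ ^ q := by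
  obtain ⟨M₁, rfl⟩ := exists_level N q M e hN he
  haveI : NeZero M₁ := ⟨fun h0 => NeZero.ne (M₁ * q) (by rw [h0, zero_mul])⟩
  exact normAlpha_insep (coverInputs A q M₁ M e hq hN hN' B k hB B' k' hB' hqM hA)
    (redInputs A q M₁ M e hq hN hN' B k hB B' k' hB') hqM hA a ha h2
    (fun x => _root_.Fermat.Agent.S45.NUE.H23.sE_mem A (M₁ * q * q) q M (e + 1) B' k' hN' hB' hq hqM hA (Nat.succ_pos e) a
      (by omega) x) f hf

include hqM hA he in
/-- **UNIT along `α`**, generic level, membership form. -/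
theorem unitAlpha_gen (f : ↥(L0 A (N * q)))
    (hu : ∀ a, a ≤ e + 1 → f ∈ VE A (N * q) q M (e + 1) B' k' hN' hB' hq a)
    (hu' : ∀ a, a ≤ e + 1 → f⁻¹ ∈ VE A (N * q) q M (e + 1) B' k' hN' hB' hq a)
    (a' : ℕ) (ha' : a' ≤ e) :
    Fermat.Agent.S45.NUE.H96.nmAlphaE A N q f ∈ VE A N q M e B k hN hB hq a'
      ∧ (Fermat.Agent.S45.NUE.H96.nmAlphaE A N q f)⁻¹ ∈ VE A N q M e B k hN hB hq a' := by
  obtain ⟨M₁, rfl⟩ := exists_level N q M e hN he
  haveI : NeZero M₁ := ⟨fun h0 => NeZero.ne (M₁ * q) (by rw [h0, zero_mul])⟩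
  exact unitAlpha (coverInputs A q M₁ M e hq hN hN' B k hB B' k' hB' hqM hA) f hu hu' a' ha'

include hqM hA he in
/-- **UNIT along `β`**, generic level, membership form. -/
theorem unitBeta_gen (f : ↥(L0 A (N * q)))
    (hu : ∀ a, a ≤ e + 1 → f ∈ VE A (N * q) q M (e + 1) B' k' hN' hB' hq a)
    (hu' : ∀ a, a ≤ e + 1 → f⁻¹ ∈ VE A (N * q) q M (e + 1) B' k' hN' hB' hq a)
    (a' : ℕ) (ha' : a' ≤ e) :
    Fermat.Agent.S45.NUE.H96.nmBetaE A N q f ∈ VE A N q M e B k hN hB hq a'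
      ∧ (Fermat.Agent.S45.NUE.H96.nmBetaE A N q f)⁻¹ ∈ VE A N q M e B k hN hB hq a' := by
  obtain ⟨M₁, rfl⟩ := exists_level N q M e hN he
  haveI : NeZero M₁ := ⟨fun h0 => NeZero.ne (M₁ * q) (by rw [h0, zero_mul])⟩
  exact unitBeta (coverInputs A q M₁ M e hq hN hN' B k hB B' k' hB' hqM hA) f hu hu' a' ha'

/-! ### The conservation data of the two levels -/

/-- The conservation datum of the upper level `N q = M q ^ (e + 1)`. -/
abbrev TuE := totEM A (N * q) q M (e + 1) B' k' hN' hB' hq hqM hA ht (Nat.succ_pos e)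

/-- The conservation datum of the lower level `N = M q ^ e`. -/
abbrev TlE := totEM A N q M e B k hN hB hq hqM hA ht he

/-- A non-zero `h` with `h, h⁻¹ ∈ V i` has non-zero reduction. -/
theorem rdN_ne_zero_of_mem_inv {K L₀ L k ι Z : Type*} {E : ι → Type*} [Field K] [Field L₀]
    [Field L] [Algebra K L] [Algebra L₀ L] [Field k] [Fintype ι] [∀ i, Field (E i)]
    [∀ i, Algebra k (E i)] (T : TotN K L₀ L k ι Z E) {i : ι} {h : L₀} (h0 : h ≠ 0)
    (hm : h ∈ T.V i) (hi : h⁻¹ ∈ T.V i) : T.rdN i h ≠ 0 := by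
  intro hz
  have h1 : T.rdN i (h⁻¹ * h) = T.rdN i h⁻¹ * T.rdN i h := T.rdN_mul hi hm
  rw [inv_mul_cancel₀ h0, T.rdN_one, hz, mul_zero] at h1
  exact one_ne_zero h1

/-- A function with non-zero reduction is non-zero. -/
theorem ne_zero_of_rdN_ne_zero {K L₀ L k ι Z : Type*} {E : ι → Type*} [Field K] [Field L₀]
    [Field L] [Algebra K L] [Algebra L₀ L] [Field k] [Fintype ι] [∀ i, Field (E i)]
    [∀ i, Algebra k (E i)] (T : TotN K L₀ L k ι Z E) {i : ι} {h : L₀}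
    (hu : T.rdN i h ≠ 0) : h ≠ 0 := by
  rintro rfl
  apply hu
  rw [T.rdN_of_mem (T.V i).zero_mem]
  exact map_zero (T.red i)

/-- Membership of a unit of the upper level. -/
theorem mem_of_unitT (h : ↥(L0 A (N * q)))
    (hu : ∀ i, (TuE A N q M e B' k' hN' hB' hq hqM hA ht).rdN i h ≠ 0) (a : ℕ)
    (ha : a ≤ e + 1) : h ∈ VE A (N * q) q M (e + 1) B' k' hN' hB' hq a :=
  (TuE A N q M e B' k' hN' hB' hq hqM hA ht).mem_of_rdN_ne_zero
    (i := (⟨a, Nat.lt_succ_iff.2 ha⟩ : Fin (e + 1 + 1))) (hu ⟨a, Nat.lt_succ_iff.2 ha⟩)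

/-- Membership of the inverse of a unit of the upper level. -/
theorem inv_mem_of_unitT (h : ↥(L0 A (N * q)))
    (hu : ∀ i, (TuE A N q M e B' k' hN' hB' hq hqM hA ht).rdN i h ≠ 0) (a : ℕ)
    (ha : a ≤ e + 1) : h⁻¹ ∈ VE A (N * q) q M (e + 1) B' k' hN' hB' hq a :=
  (TuE A N q M e B' k' hN' hB' hq hqM hA ht).inv_mem_of_rdN_ne_zero
    (i := (⟨a, Nat.lt_succ_iff.2 ha⟩ : Fin (e + 1 + 1))) (hu ⟨a, Nat.lt_succ_iff.2 ha⟩)

/-- A unit of the upper level is non-zero. -/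
theorem ne_zero_of_unitT (h : ↥(L0 A (N * q)))
    (hu : ∀ i, (TuE A N q M e B' k' hN' hB' hq hqM hA ht).rdN i h ≠ 0) : h ≠ 0 :=
  ne_zero_of_rdN_ne_zero (TuE A N q M e B' k' hN' hB' hq hqM hA ht)
    (i := (⟨0, Nat.succ_pos _⟩ : Fin (e + 1 + 1))) (hu ⟨0, Nat.succ_pos _⟩)

/-- The reduction at the lower level of a unit is non-zero. -/
theorem rdN_low_ne_zero (x : ↥(L0 A N)) (hx0 : x ≠ 0) (i' : Fin (e + 1))
    (h1 : x ∈ VE A N q M e B k hN hB hq (i' : ℕ))
    (h2 : x⁻¹ ∈ VE A N q M e B k hN hB hq (i' : ℕ)) :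
    (TlE A N q M e B k hN hB hq he hqM hA ht).rdN i' x ≠ 0 :=
  rdN_ne_zero_of_mem_inv (TlE A N q M e B k hN hB hq he hqM hA ht) (i := i') hx0 h1 h2

/-- **UNIT along `α`** (the field `unit` of `H79.SideE`). -/
theorem unitAlphaT (h : ↥(L0 A (N * q)))
    (hu : ∀ i, (TuE A N q M e B' k' hN' hB' hq hqM hA ht).rdN i h ≠ 0) (i' : Fin (e + 1)) :
    (TlE A N q M e B k hN hB hq he hqM hA ht).rdN i'
      (Fermat.Agent.S45.NUE.H96.nmAlphaE A N q h) ≠ 0 := by
  have h0 : h ≠ 0 := ne_zero_of_unitT A N q M e B' k' hN' hB' hq hqM hA ht h hu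
  have hn0 : Fermat.Agent.S45.NUE.H96.nmAlphaE A N q h ≠ 0 :=
    ((IsUnit.mk0 h h0).map (Fermat.Agent.S45.NUE.H96.nmAlphaE A N q)).ne_zero
  obtain ⟨h1, h2⟩ := unitAlpha_gen A N q M e B k B' k' hN hB hN' hB' hq he hqM hA h
    (mem_of_unitT A N q M e B' k' hN' hB' hq hqM hA ht h hu)
    (inv_mem_of_unitT A N q M e B' k' hN' hB' hq hqM hA ht h hu)
    (i' : ℕ) (Nat.lt_succ_iff.1 i'.2)
  exact rdN_low_ne_zero A N q M e B k hN hB hq he hqM hA ht _ hn0 i' h1 h2

/-- **UNIT along `β`** (the field `unit` of `H79.SideE`). -/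
theorem unitBetaT (h : ↥(L0 A (N * q)))
    (hu : ∀ i, (TuE A N q M e B' k' hN' hB' hq hqM hA ht).rdN i h ≠ 0) (i' : Fin (e + 1)) :
    (TlE A N q M e B k hN hB hq he hqM hA ht).rdN i'
      (Fermat.Agent.S45.NUE.H96.nmBetaE A N q h) ≠ 0 := by
  have h0 : h ≠ 0 := ne_zero_of_unitT A N q M e B' k' hN' hB' hq hqM hA ht h hu
  have hn0 : Fermat.Agent.S45.NUE.H96.nmBetaE A N q h ≠ 0 :=
    ((IsUnit.mk0 h h0).map (Fermat.Agent.S45.NUE.H96.nmBetaE A N q)).ne_zero
  obtain ⟨h1, h2⟩ := unitBeta_gen A N q M e B k B' k' hN hB hN' hB' hq he hqM hA h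
    (mem_of_unitT A N q M e B' k' hN' hB' hq hqM hA ht h hu)
    (inv_mem_of_unitT A N q M e B' k' hN' hB' hq hqM hA ht h hu)
    (i' : ℕ) (Nat.lt_succ_iff.1 i'.2)
  exact rdN_low_ne_zero A N q M e B k hN hB hq he hqM hA ht _ hn0 i' h1 h2

/-! ### The single components along `α` -/

/-- **The single components along `α`, wild shape** (`a < e`, `e < 2 a`). -/
def singleAlphaWild (i : Fin (e + 2)) (hi : (i : ℕ) < e) (h2 : e < 2 * (i : ℕ)) :
    Fermat.Agent.S45.NUE.H79.SingleRel (TuE A N q M e B' k' hN' hB' hq hqM hA ht)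
      (TlE A N q M e B k hN hB hq he hqM hA ht)
      (Fermat.Agent.S45.NUE.H96.nmAlphaE A N q) (Fermat.Agent.S36.NU.H74.ssM A q M) id q i where
  i' := ⟨(i : ℕ), by omega⟩
  R := Fermat.Agent.S45.NUE.H79.resIdE A M
  e := q
  deg := by
    show 1 * q = q
    rw [one_mul]
  norm := fun h hu => by
    have hf : h ∈ VE A (N * q) q M (e + 1) B' k' hN' hB' hq (i : ℕ) :=
      (TuE A N q M e B' k' hN' hB' hq hqM hA ht).mem_of_rdN_ne_zero (hu i)
    obtain ⟨hm, hs⟩ := normAlpha_wild_gen A N q M e B k B' k' hN hB hN' hB' hq he hqM hA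
      (i : ℕ) hi h2 h hf
    rw [(TuE A N q M e B' k' hN' hB' hq hqM hA ht).rdN_of_mem hf,
      (TlE A N q M e B k hN hB hq he hqM hA ht).rdN_of_mem
        (i := (⟨(i : ℕ), by omega⟩ : Fin (e + 1))) hm]
    exact Fermat.Agent.S45.NUE.H79.wild_norm_eq A q M _ _ hs
  pt := fun z _ y c hv =>
    Fermat.Agent.S45.NUE.H79.ptE_alpha_wild A q M hq hqM hA e i ⟨(i : ℕ), by omega⟩ rfl h2
      z y c hv

/-- **The single components along `α`, inseparable shape** (`a < e`, `2 a ≤ e`). -/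
def singleAlphaInsep (i : Fin (e + 2)) (hi : (i : ℕ) < e) (h2 : 2 * (i : ℕ) ≤ e) :
    Fermat.Agent.S45.NUE.H79.SingleRel (TuE A N q M e B' k' hN' hB' hq hqM hA ht)
      (TlE A N q M e B k hN hB hq he hqM hA ht)
      (Fermat.Agent.S45.NUE.H96.nmAlphaE A N q) (Fermat.Agent.S36.NU.H74.ssM A q M) id q i where
  i' := ⟨(i : ℕ), by omega⟩
  R := Fermat.Agent.S45.NUE.H79.resFrE A q M hq hqM hA
  e := 1
  deg := by
    show q * 1 = q
    rw [mul_one]
  norm := fun h hu => by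
    have hf : h ∈ VE A (N * q) q M (e + 1) B' k' hN' hB' hq (i : ℕ) :=
      (TuE A N q M e B' k' hN' hB' hq hqM hA ht).mem_of_rdN_ne_zero (hu i)
    obtain ⟨hm, hs⟩ := normAlpha_insep_gen A N q M e B k B' k' hN hB hN' hB' hq he hqM hA
      (i : ℕ) hi h2 h hf
    rw [(TuE A N q M e B' k' hN' hB' hq hqM hA ht).rdN_of_mem hf,
      (TlE A N q M e B k hN hB hq he hqM hA ht).rdN_of_mem
        (i := (⟨(i : ℕ), by omega⟩ : Fin (e + 1))) hm, pow_one]
    exact Fermat.Agent.S45.NUE.H79.insep_norm_eq A q M hq hqM hA _ _ hs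
  pt := fun z _ y c hv =>
    Fermat.Agent.S45.NUE.H79.ptE_alpha_insep A q M hq hqM hA e i ⟨(i : ℕ), by omega⟩ rfl h2
      z y c hv

/-- **The single components along `α`** (`a < e`). -/
def singleAlpha (i : Fin (e + 2)) (hi : (i : ℕ) < e) :
    Fermat.Agent.S45.NUE.H79.SingleRel (TuE A N q M e B' k' hN' hB' hq hqM hA ht)
      (TlE A N q M e B k hN hB hq he hqM hA ht)
      (Fermat.Agent.S45.NUE.H96.nmAlphaE A N q) (Fermat.Agent.S36.NU.H74.ssM A q M) id q i :=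
  if h2 : 2 * (i : ℕ) ≤ e then
    singleAlphaInsep A N q M e B k B' k' hN hB hN' hB' hq he hqM hA ht i hi h2
  else
    singleAlphaWild A N q M e B k B' k' hN hB hN' hB' hq he hqM hA ht i hi (by omega)

theorem singleAlpha_i' (i : Fin (e + 2)) (hi : (i : ℕ) < e) :
    ((singleAlpha A N q M e B k B' k' hN hB hN' hB' hq he hqM hA ht i hi).i' : ℕ) = (i : ℕ) := by
  unfold singleAlpha
  split_ifs <;> rfl

end SideE

end Fermat.Agent.S45.NUE.H33

end
end
-- ==== END Fermat.Agent.S45.NUE.H33_SideE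

-- ==== BEGIN Fermat.Agent.S45.NUE.H54_LeavesE
section

/-!
# S45 / NU_e, package E-FIN (helper54): the leaves `LeavesE` from E-PT and E-CUSP

Levels `M₁ q = M' q^el` (lower) and `M₁ q q = M' q^(el+1)` (upper) as in helper65's
`H65_FinTopE`.  All the fields of `H65.LeavesE` except the local data at the points (`hpt0`,
E-PT) and at the cusps (`hptoo`, E-CUSP) are available:

* `hin_TuE` : the input of the two charts (helper81);
* `hchart0_TuE`, `hchartoo_TuE` : `ChartHyp` of the two charts (E-CHART, `H54_ChartPack`);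
* `hrad0_TuE`, `hradoo_TuE` : (RADQ) for the two charts;
* `hL_TlE` : `LowRoot` of the lower level (`H54_LowRootE`);
* `leavesE_of_pt` : **`LeavesE` from `hpt0` and `hptoo`**;
* `finModE_of_pt` : `FinModE` at the modular levels from `IsNuE D`, `hpt0` and `hptoo`.
-/

set_option autoImplicit false
set_option synthInstance.maxHeartbeats 400000
set_option maxHeartbeats 1000000
set_option linter.style.haveILetI false
set_option linter.unusedSectionVars false
set_option linter.unusedVariables false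

noncomputable section

open ModularCurve AlgebraicCurve IntermediateField

attribute [local instance] Classical.propDecidable

namespace Fermat.Agent.S45.NUE.H54

open Fermat.Agent.RED.H17 Fermat.Agent.RED Fermat.Agent.S36.NU.H16 Fermat.Agent.S36.NU.H79
  Fermat.Agent.S36.NU.H17 Fermat.Agent.S36.NU.H24
  Fermat.Agent.S24 Fermat.Agent.BAD.H88 Fermat.Agent.S36.NU.H23 Fermat.Agent.S36.NU.H41
  Fermat.Agent.S36.NU.H88 Fermat.Agent.S36.NU.H74 Fermat.Agent.Lib.HeckeComm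
  Fermat.Agent.S45.NUE.H79 Fermat.Agent.S45.NUE.H96 Fermat.Agent.S36.NU.H65
  Fermat.Agent.S45.NUE.H74 Fermat.Agent.S28 Fermat.Agent.S28.H73 Fermat.Agent.RED.H73
  Fermat.Agent.S45.NUE.H23 Fermat.Agent.BAD Fermat.Agent.S45.NUE.H65

attribute [local instance] algkE

section Mod

variable (A : ValuationSubring Kbar) (q M₁ M' el : ℕ) [NeZero M₁] [NeZero q] [NeZero M']
  [NeZero (M₁ * q)] [NeZero (M₁ * q * q)] (hq : q.Prime)
  (hNl : M₁ * q = M' * q ^ el) (hNu : M₁ * q * q = M' * q ^ (el + 1))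
  (Bl kl : ℤ) (hBl : Bl * M' + kl * (q : ℤ) ^ el = 1)
  (Bu ku : ℤ) (hBu : Bu * M' + ku * (q : ℤ) ^ (el + 1) = 1)
  (hqM : ¬ q ∣ M') (hA : A.LiesOverPrime q) (ht : H91.TameAt M' q)

/-- The input of the two charts of the upper level (helper81). -/
theorem hin_TuE : ChartInE A (M₁ * q * q) (_root_.Fermat.Agent.S45.NUE.H65.TuE A q M₁ M' el hq hNu Bu ku hBu hqM hA ht) :=
  Fermat.Agent.S45.NUE.H81.chartInE_totEM A (M₁ * q * q) q M' (el + 1) Bu ku hNu hBu hq hqM hA
    ht (Nat.succ_pos el)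

include hNu in
theorem pow_dvd_upper : q ^ (el + 1) ∣ M₁ * q * q :=
  pow_dvd_lvl (M₁ * q * q) q M' (el + 1) hNu

/-- E-CHART: `ChartHyp` of the chart of `j` of the upper level. -/
theorem hchart0_TuE (hin : ChartInE A (M₁ * q * q) (_root_.Fermat.Agent.S45.NUE.H65.TuE A q M₁ M' el hq hNu Bu ku hBu hqM hA ht))
    (n : ℕ) (hn : 0 < n) (hcop : Nat.Coprime n q) :
    ChartHyp (chart0E A (M₁ * q * q) (_root_.Fermat.Agent.S45.NUE.H65.TuE A q M₁ M' el hq hNu Bu ku hBu hqM hA ht) hin) q n :=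
  chartHyp_chart0E_totEM A (M₁ * q * q) q M' (el + 1) Bu ku hNu hBu hq hqM hA ht
    (Nat.succ_pos el) (pow_dvd_upper q M₁ M' el hNu) hin n hn hcop

/-- E-CHART: `ChartHyp` of the chart of `1 / j` of the upper level. -/
theorem hchartoo_TuE
    (hin : ChartInE A (M₁ * q * q) (_root_.Fermat.Agent.S45.NUE.H65.TuE A q M₁ M' el hq hNu Bu ku hBu hqM hA ht))
    (n : ℕ) (hn : 0 < n) (hcop : Nat.Coprime n q) :
    ChartHyp (chartInfE A (M₁ * q * q) (_root_.Fermat.Agent.S45.NUE.H65.TuE A q M₁ M' el hq hNu Bu ku hBu hqM hA ht) hin) q n :=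
  chartHyp_chartInfE_totEM A (M₁ * q * q) q M' (el + 1) Bu ku hNu hBu hq hqM hA ht
    (Nat.succ_pos el) (pow_dvd_upper q M₁ M' el hNu) hin n hn hcop

include hq in
theorem natCast_Rur_ne_zero : ((q : ℕ) : ↥(Rur A)) ≠ 0 := by exact_mod_cast hq.ne_zero

/-- E-RADQ for the chart of `j` of the upper level. -/
theorem hrad0_TuE (hin : ChartInE A (M₁ * q * q) (_root_.Fermat.Agent.S45.NUE.H65.TuE A q M₁ M' el hq hNu Bu ku hBu hqM hA ht)) :
    ∀ β ∈ (chart0E A (M₁ * q * q) (_root_.Fermat.Agent.S45.NUE.H65.TuE A q M₁ M' el hq hNu Bu ku hBu hqM hA ht) hin).B,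
      (∀ i, (chart0E A (M₁ * q * q) (_root_.Fermat.Agent.S45.NUE.H65.TuE A q M₁ M' el hq hNu Bu ku hBu hqM hA ht) hin).rd i β
        = 0) →
      IsRadQ (chart0E A (M₁ * q * q) (_root_.Fermat.Agent.S45.NUE.H65.TuE A q M₁ M' el hq hNu Bu ku hBu hqM hA ht) hin).B
        ((q : ℕ) : ↥(Rur A)) β :=
  isRadQ_chart0E_totEM A (M₁ * q * q) q M' (el + 1) Bu ku hNu hBu hq hqM hA ht
    (Nat.succ_pos el) hin _ (natCast_Rur_ne_zero A q hq)

/-- E-RADQ for the chart of `1 / j` of the upper level. -/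
theorem hradoo_TuE
    (hin : ChartInE A (M₁ * q * q) (_root_.Fermat.Agent.S45.NUE.H65.TuE A q M₁ M' el hq hNu Bu ku hBu hqM hA ht)) :
    ∀ β ∈ (chartInfE A (M₁ * q * q) (_root_.Fermat.Agent.S45.NUE.H65.TuE A q M₁ M' el hq hNu Bu ku hBu hqM hA ht) hin).B,
      (∀ i, (chartInfE A (M₁ * q * q) (_root_.Fermat.Agent.S45.NUE.H65.TuE A q M₁ M' el hq hNu Bu ku hBu hqM hA ht) hin).rd i β
        = 0) →
      IsRadQ (chartInfE A (M₁ * q * q) (_root_.Fermat.Agent.S45.NUE.H65.TuE A q M₁ M' el hq hNu Bu ku hBu hqM hA ht) hin).B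
        ((q : ℕ) : ↥(Rur A)) β :=
  isRadQ_chartInfE_totEM A (M₁ * q * q) q M' (el + 1) Bu ku hNu hBu hq hqM hA ht
    (Nat.succ_pos el) hin _ (natCast_Rur_ne_zero A q hq)

/-- Roots at the lower level. -/
theorem hL_TlE (hel : 0 < el) (n : ℕ) (hn : 0 < n) (hcop : Nat.Coprime n q) :
    LowRoot (_root_.Fermat.Agent.S45.NUE.H65.TlE A q M₁ M' el hq hNl Bl kl hBl hqM hA ht hel) n :=
  lowRoot_totEM A (M₁ * q) q M' el Bl kl hNl hBl hq hqM hA ht hel n hn.ne'

/-- **The leaves of E-FIN from E-PT and E-CUSP.** -/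
theorem leavesE_of_pt (hel : 0 < el)
    (hpt0 : (∀ z ∈ ssM A q M', Glued (_root_.Fermat.Agent.S45.NUE.H65.TuE A q M₁ M' el hq hNu Bu ku hBu hqM hA ht) z) →
      (∀ z ∈ ssM A q M', ∀ i,
        ((_root_.Fermat.Agent.S45.NUE.H65.TuE A q M₁ M' el hq hNu Bu ku hBu hqM hA ht).pt i z).deg = 1) →
      PointDataT
        (chart0E A (M₁ * q * q) (_root_.Fermat.Agent.S45.NUE.H65.TuE A q M₁ M' el hq hNu Bu ku hBu hqM hA ht)
          (hin_TuE A q M₁ M' el hq hNu Bu ku hBu hqM hA ht))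
        (_root_.Fermat.Agent.S45.NUE.H65.TuE A q M₁ M' el hq hNu Bu ku hBu hqM hA ht) (ssM A q M') ((q : ℕ) : ↥(Rur A)))
    (hptoo : ∀ 𝔪 : Ideal
        (chartInfE A (M₁ * q * q) (_root_.Fermat.Agent.S45.NUE.H65.TuE A q M₁ M' el hq hNu Bu ku hBu hqM hA ht)
          (hin_TuE A q M₁ M' el hq hNu Bu ku hBu hqM hA ht)).B,
      𝔪.IsMaximal →
      (∃ i, (chartInfE A (M₁ * q * q) (_root_.Fermat.Agent.S45.NUE.H65.TuE A q M₁ M' el hq hNu Bu ku hBu hqM hA ht)
          (hin_TuE A q M₁ M' el hq hNu Bu ku hBu hqM hA ht)).Icomp i ≤ 𝔪) →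
      (∀ β : (chartInfE A (M₁ * q * q) (_root_.Fermat.Agent.S45.NUE.H65.TuE A q M₁ M' el hq hNu Bu ku hBu hqM hA ht)
          (hin_TuE A q M₁ M' el hq hNu Bu ku hBu hqM hA ht)).B,
        (β : ↥(L0 A (M₁ * q * q))) = (j0 A (M₁ * q * q))⁻¹ → β ∈ 𝔪) →
      PointDataAtT (chartInfE A (M₁ * q * q) (_root_.Fermat.Agent.S45.NUE.H65.TuE A q M₁ M' el hq hNu Bu ku hBu hqM hA ht)
          (hin_TuE A q M₁ M' el hq hNu Bu ku hBu hqM hA ht))
        (_root_.Fermat.Agent.S45.NUE.H65.TuE A q M₁ M' el hq hNu Bu ku hBu hqM hA ht) (ssM A q M') ((q : ℕ) : ↥(Rur A)) 𝔪) :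
    LeavesE A q M₁ M' el hq hNl hNu Bl kl hBl Bu ku hBu hqM hA ht hel where
  hin := hin_TuE A q M₁ M' el hq hNu Bu ku hBu hqM hA ht
  hchart0 := hchart0_TuE A q M₁ M' el hq hNu Bu ku hBu hqM hA ht _
  hchartoo := hchartoo_TuE A q M₁ M' el hq hNu Bu ku hBu hqM hA ht _
  hpt0 := hpt0
  hptoo := hptoo
  hrad0 := hrad0_TuE A q M₁ M' el hq hNu Bu ku hBu hqM hA ht _
  hradoo := hradoo_TuE A q M₁ M' el hq hNu Bu ku hBu hqM hA ht _
  hL := hL_TlE A q M₁ M' el hq hNl Bl kl hBl hqM hA ht hel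

/-- **E-FIN at the modular levels** from a modular instance of `NUDataE`, E-PT and E-CUSP. -/
theorem finModE_of_pt (hel : 0 < el) (D : NUDataEM A q M₁ M' el)
    (hD : IsNuE A q M₁ M' el hq hNl hNu Bl kl hBl Bu ku hBu hqM hA ht hel D)
    (hpt0 : (∀ z ∈ ssM A q M', Glued (_root_.Fermat.Agent.S45.NUE.H65.TuE A q M₁ M' el hq hNu Bu ku hBu hqM hA ht) z) →
      (∀ z ∈ ssM A q M', ∀ i,
        ((_root_.Fermat.Agent.S45.NUE.H65.TuE A q M₁ M' el hq hNu Bu ku hBu hqM hA ht).pt i z).deg = 1) →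
      PointDataT
        (chart0E A (M₁ * q * q) (_root_.Fermat.Agent.S45.NUE.H65.TuE A q M₁ M' el hq hNu Bu ku hBu hqM hA ht)
          (hin_TuE A q M₁ M' el hq hNu Bu ku hBu hqM hA ht))
        (_root_.Fermat.Agent.S45.NUE.H65.TuE A q M₁ M' el hq hNu Bu ku hBu hqM hA ht) (ssM A q M') ((q : ℕ) : ↥(Rur A)))
    (hptoo : ∀ 𝔪 : Ideal
        (chartInfE A (M₁ * q * q) (_root_.Fermat.Agent.S45.NUE.H65.TuE A q M₁ M' el hq hNu Bu ku hBu hqM hA ht)
          (hin_TuE A q M₁ M' el hq hNu Bu ku hBu hqM hA ht)).B,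
      𝔪.IsMaximal →
      (∃ i, (chartInfE A (M₁ * q * q) (_root_.Fermat.Agent.S45.NUE.H65.TuE A q M₁ M' el hq hNu Bu ku hBu hqM hA ht)
          (hin_TuE A q M₁ M' el hq hNu Bu ku hBu hqM hA ht)).Icomp i ≤ 𝔪) →
      (∀ β : (chartInfE A (M₁ * q * q) (_root_.Fermat.Agent.S45.NUE.H65.TuE A q M₁ M' el hq hNu Bu ku hBu hqM hA ht)
          (hin_TuE A q M₁ M' el hq hNu Bu ku hBu hqM hA ht)).B,
        (β : ↥(L0 A (M₁ * q * q))) = (j0 A (M₁ * q * q))⁻¹ → β ∈ 𝔪) →
      PointDataAtT (chartInfE A (M₁ * q * q) (_root_.Fermat.Agent.S45.NUE.H65.TuE A q M₁ M' el hq hNu Bu ku hBu hqM hA ht)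
          (hin_TuE A q M₁ M' el hq hNu Bu ku hBu hqM hA ht))
        (_root_.Fermat.Agent.S45.NUE.H65.TuE A q M₁ M' el hq hNu Bu ku hBu hqM hA ht) (ssM A q M') ((q : ℕ) : ↥(Rur A)) 𝔪) :
    FinModE A q (M₁ * q) (Fermat.Agent.S45.NUE.H51.IsUnitE A q M₁ M' el hq hNu Bu ku hBu) :=
  finModE_mod A q M₁ M' el hq hNl hNu Bl kl hBl Bu ku hBu hqM hA ht hel D hD
    (leavesE_of_pt A q M₁ M' el hq hNl hNu Bl kl hBl Bu ku hBu hqM hA ht hel hpt0 hptoo)

end Mod

end Fermat.Agent.S45.NUE.H54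

end
end
-- ==== END Fermat.Agent.S45.NUE.H54_LeavesE

-- ==== BEGIN Fermat.Agent.S45.NUE.H65_FinTopAll
section

/-!
# S45 / NU_e, package E-FIN (helper65): `Stmt_FinTopE` from the modular datum and the leaves

* `Stmt_NuEAll` : a modular instance of `NUDataE` at every tame two-level setting (ND_e);
* `Stmt_LeavesEAll` : the modular leaves of E-FIN at every tame two-level setting;
* `tameNU_base`, `casesE_of_tameNU`, `tameAtE_of_tameNU` : the tameness of `M'` from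
  `TameNU (lvlE M' q e) q`;
* `stmt_FinTopE_of` : **`∀ q M' e, Stmt_FinTopE q M' e`** from the two statements (VALVEC_e is
  helper51's `valVecE_mod`), hence (`nuCoreETame_of`) `Stmt_NUCoreETame`.
-/

set_option autoImplicit false
set_option synthInstance.maxHeartbeats 400000
set_option maxHeartbeats 1000000
set_option linter.style.haveILetI false
set_option linter.unusedSectionVars false

noncomputable section

open ModularCurve AlgebraicCurve IntermediateField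

namespace Fermat.Agent.S45.NUE.H65

open Fermat.Agent.S24 Fermat.Agent.BAD.H88 Fermat.Agent.S36.NU.H23 Fermat.Agent.S36.NU.H81
  Fermat.Agent.S45.NUE.H79 Fermat.Agent.S45.NUE.H23 Fermat.Agent.BAD

attribute [local instance] algkE

/-- The tame cases of the level `M'` prime to `q`. -/
def CasesE (q M' : ℕ) : Prop := (5 ≤ q ∧ 4 ∣ M') ∨ (q = 3 ∧ 4 ∣ M') ∨ (q = 2 ∧ 9 ∣ M')

/-- A modular instance of `NUDataE` at every tame two-level setting. -/
def Stmt_NuEAll : Prop :=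
  ∀ (A : ValuationSubring Kbar) (q M₁ M' el : ℕ) [NeZero M₁] [NeZero q] [NeZero M']
    [NeZero (M₁ * q)] [NeZero (M₁ * q * q)] (hq : q.Prime)
    (hNl : M₁ * q = M' * q ^ el) (hNu : M₁ * q * q = M' * q ^ (el + 1))
    (Bl kl : ℤ) (hBl : Bl * M' + kl * (q : ℤ) ^ el = 1)
    (Bu ku : ℤ) (hBu : Bu * M' + ku * (q : ℤ) ^ (el + 1) = 1)
    (hqM : ¬ q ∣ M') (hA : A.LiesOverPrime q) (ht : H91.TameAt M' q) (hel : 0 < el),
    2 ≤ el → CasesE q M' →
    ∃ D : NUDataEM A q M₁ M' el,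
      IsNuE A q M₁ M' el hq hNl hNu Bl kl hBl Bu ku hBu hqM hA ht hel D

/-- The modular leaves of E-FIN at every tame two-level setting. -/
def Stmt_LeavesEAll : Prop :=
  ∀ (A : ValuationSubring Kbar) (q M₁ M' el : ℕ) [NeZero M₁] [NeZero q] [NeZero M']
    [NeZero (M₁ * q)] [NeZero (M₁ * q * q)] (hq : q.Prime)
    (hNl : M₁ * q = M' * q ^ el) (hNu : M₁ * q * q = M' * q ^ (el + 1))
    (Bl kl : ℤ) (hBl : Bl * M' + kl * (q : ℤ) ^ el = 1)
    (Bu ku : ℤ) (hBu : Bu * M' + ku * (q : ℤ) ^ (el + 1) = 1)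
    (hqM : ¬ q ∣ M') (hA : A.LiesOverPrime q) (ht : H91.TameAt M' q) (hel : 0 < el),
    2 ≤ el → CasesE q M' →
    LeavesE A q M₁ M' el hq hNl hNu Bl kl hBl Bu ku hBu hqM hA ht hel

/-! ### Tameness -/

/-- `TameNU` of the level `M' q^e`, `e ≥ 1`, `q ∤ M'`, gives `TameNU` of the level `M' q`. -/
theorem tameNU_base {q M' e : ℕ} (hq : q.Prime) (ht : TameNU (lvlE M' q e) q) :
    TameNU (M' * q) q := by
  rw [lvlE_eq] at ht
  rcases ht with ⟨h2, h4⟩ | ⟨h2, h9⟩
  · refine Or.inl ⟨h2, ?_⟩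
    have h2q : Nat.Coprime 2 q := (Nat.coprime_primes Nat.prime_two hq).2 (fun h => h2 h.symm)
    have hc : Nat.Coprime (2 ^ 2) (q ^ e) := Nat.Coprime.pow 2 e h2q
    have h4' : 4 ∣ M' := by
      have : (2 ^ 2 : ℕ) ∣ M' := hc.dvd_of_dvd_mul_right (by simpa using h4)
      simpa using this
    exact Dvd.dvd.mul_right h4' q
  · refine Or.inr ⟨h2, ?_⟩
    subst h2
    have hc : Nat.Coprime (3 ^ 2) (2 ^ e) := Nat.Coprime.pow 2 e (by decide)
    have h9' : 9 ∣ M' := by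
      have : (3 ^ 2 : ℕ) ∣ M' := hc.dvd_of_dvd_mul_right (by simpa using h9)
      simpa using this
    exact Dvd.dvd.mul_right h9' 2

theorem casesE_of_tameNU {q M' e : ℕ} (hq : q.Prime) (ht : TameNU (lvlE M' q e) q) :
    CasesE q M' :=
  Fermat.Agent.S36.NU.H10.cases_of_tameNU hq (tameNU_base hq ht)

theorem tameAtE_of_tameNU {q M' e : ℕ} (hq : q.Prime) (ht : TameNU (lvlE M' q e) q) :
    H91.TameAt M' q :=
  Fermat.Agent.S36.NU.H10.tameAt_of_tameNU hq (tameNU_base hq ht)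

/-- Bézout for `M'` and `q ^ n`. -/
theorem exists_bezoutE {q M' : ℕ} (hq : q.Prime) (hqM : ¬ q ∣ M') (n : ℕ) :
    ∃ B k : ℤ, B * M' + k * (q : ℤ) ^ n = 1 := by
  have h1 : Nat.Coprime M' q := ((Nat.Prime.coprime_iff_not_dvd hq).2 hqM).symm
  have h2 : IsCoprime (M' : ℤ) (q : ℤ) := Nat.isCoprime_iff_coprime.2 h1
  exact h2.pow_right

/-! ### The assembly -/

/-- **`Stmt_FinTopE q M' e`** from the modular datum and the modular leaves. -/
theorem stmt_FinTopE_of (hNuAll : Stmt_NuEAll) (hLv : Stmt_LeavesEAll) (q M' e : ℕ) [NeZero M']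
    [NeZero q] : Stmt_FinTopE q M' e := by
  intro hq hqM he ht
  obtain ⟨el', rfl⟩ : ∃ el', e = el' + 1 := ⟨e - 1, by omega⟩
  obtain ⟨A, hA⟩ := Fermat.Agent.Lib.FrobExists.exists_liesOverPrime q hq
  have hc : CasesE q M' := casesE_of_tameNU hq ht
  have htA : H91.TameAt M' q := tameAtE_of_tameNU hq ht
  haveI : NeZero (lvlE M' q el' * q) := ⟨Nat.mul_ne_zero (NeZero.ne _) hq.ne_zero⟩
  haveI : NeZero (lvlE M' q el' * q * q) := ⟨Nat.mul_ne_zero (NeZero.ne _) hq.ne_zero⟩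
  have hNl : lvlE M' q el' * q = M' * q ^ (el' + 1) := by
    rw [← lvlE_succ, lvlE_eq]
  have hNu : lvlE M' q el' * q * q = M' * q ^ (el' + 1 + 1) := by
    rw [← lvlE_succ, ← lvlE_succ, lvlE_eq]
  obtain ⟨Bl, kl, hBl⟩ := exists_bezoutE hq hqM (el' + 1)
  obtain ⟨Bu, ku, hBu⟩ := exists_bezoutE hq hqM (el' + 1 + 1)
  have hel : 0 < el' + 1 := Nat.succ_pos _
  obtain ⟨D, hD⟩ := hNuAll A q (lvlE M' q el') M' (el' + 1) hq hNl hNu Bl kl hBl Bu ku hBu hqM hA
    htA hel he hc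
  have hL := hLv A q (lvlE M' q el') M' (el' + 1) hq hNl hNu Bl kl hBl Bu ku hBu hqM hA
    htA hel he hc
  exact ⟨A, Fermat.Agent.S45.NUE.H51.IsUnitE A q (lvlE M' q el') M' (el' + 1) hq hNu Bu ku hBu,
    hA,
    finModE_mod A q (lvlE M' q el') M' (el' + 1) hq hNl hNu Bl kl hBl Bu ku hBu hqM hA htA hel
      D hD hL,
    Fermat.Agent.S45.NUE.H51.valVecE_mod A q (lvlE M' q el') M' (el' + 1) hq hNl hNu Bl kl hBl
      Bu ku hBu hqM hA he⟩

/-- **THE TARGET `Stmt_NUCoreETame`** from the modular datum and the modular leaves. -/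
theorem nuCoreETame_of_leaves (hNu : Stmt_NuEAll) (hLv : Stmt_LeavesEAll) : Stmt_NUCoreETame :=
  nuCoreETame_of (fun q M' e _ _ => stmt_FinTopE_of hNu hLv q M' e)

end Fermat.Agent.S45.NUE.H65

end
end
-- ==== END Fermat.Agent.S45.NUE.H65_FinTopAll

-- ==== BEGIN Fermat.Agent.S45.NUE.H74_ChartEInst
section

/-!
# S45 / NU_e, package E-CHART (helper74): `H99.ChartE` and `H88.ChartOoE` over E-TOT

Level `N = M q^e`, `q ∤ M`, `e ≥ 1`, `T = totEM …` (helper23, unconditional),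
`h : ChartInE A N T` (helper81).

* `hqR_totEM` : `q ∈ R^ur` maps to the uniformiser `ϖ` of the `NRData` `nrEM`;
* `critE_totEM` : **TI3-VAL** at `totEM` (helper28's `critE`);
* `chartE_chart0E` : **helper99's `ChartE`** for `chart0E A N totEM h`, with `qR = q`,
  `mult a = φ(q^min(a, e - a))`, `idx = Fin.val`  (input of `H99.hordE`);
* `chartOoE_chartInfE` : **helper88's `ChartOoE`** for `chartInfE A N totEM h`
  (input of `H88.cusp_pointDataAtE` / `hptooE_of_wit`).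
-/

set_option autoImplicit false
set_option synthInstance.maxHeartbeats 400000
set_option maxHeartbeats 1000000
set_option linter.style.haveILetI false
set_option linter.unusedSectionVars false
set_option linter.unusedVariables false

noncomputable section

open ModularCurve AlgebraicCurve IntermediateField

namespace Fermat.Agent.S45.NUE.H74

open Fermat.Agent.S24 Fermat.Agent.BAD.H88 Fermat.Agent.S28 Fermat.Agent.S28.H73
  Fermat.Agent.S36.NU.H88 Fermat.Agent.S36.NU.H23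
  Fermat.Agent.S36.NU.H16 Fermat.Agent.S36.NU.H24 Fermat.Agent.S36.NU.H65
  Fermat.Agent.S36.NU.H41 Fermat.Agent.S36.NU.H17 Fermat.Agent.S36.NU.H79
  Fermat.Agent.RED.H73 Fermat.Agent.RED.H17 Fermat.Agent.BAD
open Fermat.Agent.S45.NUE.H23

section Inst

variable (A : ValuationSubring Kbar)
variable (N q M e : ℕ) (B k : ℤ) (hN : N = M * q ^ e) (hB : B * M + k * (q : ℤ) ^ e = 1)
  (hq : q.Prime) [NeZero N] [NeZero q] [NeZero M] (hqM : ¬ q ∣ M) (hA : A.LiesOverPrime q)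
  (ht : H91.TameAt M q) (he : 0 < e)

attribute [local instance] algkE

/-- `q ∈ R^ur` maps to the image of the uniformiser of the `NRData`. -/
theorem hqR_totEM :
    algebraMap ↥(Rur A) ↥(L0 A N) ((q : ℕ) : ↥(Rur A))
      = @algebraMap ↥(L0 A M) ↥(L0 A N) _ _ (algL0 A (hleE N q M e hN))
          (@H42.NRData.ϖ ↥(L0 A M) ↥(L0 A N) (FM A M) _ _ _ (algL0 A (hleE N q M e hN))
            (Fin (e + 1)) (kapE A M e) _ (algE A q M e hq hqM hA)
            (nrEM A N q M e B k hN hB hq hqM hA he)) := by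
  rw [map_natCast]
  exact (algebraMap_piE A N q M e hN).symm

/-- **TI3-VAL** at the modular conservation datum. -/
theorem critE_totEM (h : ChartInE A N (totEM A N q M e B k hN hB hq hqM hA ht he))
    (f : ↥(L0 A N))
    (hf₁ : IsIntegral ↥(Algebra.adjoin ↥(Kur A) ({j0 A N} : Set ↥(L0 A N))) f)
    (hf₂ : ∀ i, f ∈ (totEM A N q M e B k hN hB hq hqM hA ht he).V i) :
    f ∈ intSub ↥(Rur A) (j0 A N) :=
  Fermat.Agent.S45.NUE.H28.critE A q M N hq hqM hA (hleE N q M e hN)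
    (algE A q M e hq hqM hA) (nrEM A N q M e B k hN hB hq hqM hA he) rfl
    (nrE_hdeg A N q M e B k hN hB hq hqM hA (inE_mod A N q M e B k hN hB hq hqM hA) he)
    (chart0E A N (totEM A N q M e B k hN hB hq hqM hA ht he) h) (fun _ => rfl) 0
    (h.j_mem 0)
    (H54.transcendental_red_j0 A N q M e B k hN hB hq hqM hA ht he 0 (h.j_mem 0)) hf₁ hf₂

/-- **helper99's `ChartE`** for the chart of `j` over the modular conservation datum. -/
theorem chartE_chart0E (h : ChartInE A N (totEM A N q M e B k hN hB hq hqM hA ht he)) :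
    H99.ChartE A N q M e B k hN hB hq
      (chart0E A N (totEM A N q M e B k hN hB hq hqM hA ht he) h)
      ((q : ℕ) : ↥(Rur A)) (fun i : Fin (e + 1) => mE q e (i : ℕ))
      (fun i : Fin (e + 1) => (i : ℕ)) := by
  letI := algL0 A (hleE N q M e hN)
  haveI : Module.Finite ↥(L0 A M) ↥(L0 A N) :=
    Fermat.Agent.S45.NUE.H41.finite_L0_of_le A M N (hleE N q M e hN)
  letI := algE A q M e hq hqM hA
  refine
    { hqR := map_natCast _ q
      hqV := fun i => Fermat.Agent.S45.NUE.H65.q_mem_nonunits_of_nrData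
        (nrEM A N q M e B k hN hB hq hqM hA he)
        (chart0E A N (totEM A N q M e B k hN hB hq hqM hA ht he) h) id (fun _ => rfl) _
        (hqR_totEM A N q M e B k hN hB hq hqM hA he) i
      crit := fun f hf₁ hf₂ => critE_totEM A N q M e B k hN hB hq hqM hA ht he h f hf₁ hf₂
      hint := fun x hx => isIntegral_adjoin_field ↥(Rur A) ↥(Kur A) (j0 A N) hx
      hE := Fermat.Agent.S45.NUE.H65.valE_of_nrData
        (nrEM A N q M e B k hN hB hq hqM hA he)
        (nrE_hdeg A N q M e B k hN hB hq hqM hA (inE_mod A N q M e B k hN hB hq hqM hA) he)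
        (chart0E A N (totEM A N q M e B k hN hB hq hqM hA ht he) h) id (fun _ => rfl) _
        (hqR_totEM A N q M e B k hN hB hq hqM hA he)
      hidx := fun i => Nat.lt_succ_iff.mp i.2
      hinj := Fin.val_injective
      hmult := fun _ => rfl
      hV := fun _ => rfl
      hconst := fun i r hr => H54.sE_const A N q M e B k hN hB hq (i : ℕ) r hr }

/-- **helper88's `ChartOoE`** for the chart of `1 / j` over the modular conservation datum. -/
theorem chartOoE_chartInfE (h : ChartInE A N (totEM A N q M e B k hN hB hq hqM hA ht he)) :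
    Fermat.Agent.S45.NUE.H88.ChartOoE
      (chartInfE A N (totEM A N q M e B k hN hB hq hqM hA ht he) h)
      ((q : ℕ) : ↥(Rur A)) (fun i : Fin (e + 1) => mE q e (i : ℕ))
      (Fermat.Agent.S45.NUE.H88.HintOoE A N) :=
  Fermat.Agent.S45.NUE.H88.chartOoE_of_nrData A q M N hq hqM hA (hleE N q M e hN)
    (algE A q M e hq hqM hA) (nrEM A N q M e B k hN hB hq hqM hA he) rfl
    (nrE_hdeg A N q M e B k hN hB hq hqM hA (inE_mod A N q M e B k hN hB hq hqM hA) he)
    (chartInfE A N (totEM A N q M e B k hN hB hq hqM hA ht he) h) (fun _ => rfl) 0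
    (h.j_mem 0)
    (H54.transcendental_red_j0 A N q M e B k hN hB hq hqM hA ht he 0 (h.j_mem 0)) rfl
    (hqR_totEM A N q M e B k hN hB hq hqM hA he)

end Inst

end Fermat.Agent.S45.NUE.H74

end
end
-- ==== END Fermat.Agent.S45.NUE.H74_ChartEInst

-- ==== BEGIN Fermat.Agent.S45.NUE.H79_NuE
section

/-!
# S45 / NU_e, ND_e (helper79): the GLUE tower and the modular datum `NUDataE`

Lower level `N = M q^e`, upper level `N q = M q^(e+1)`, `q ∤ M`, `M` tame at `q`, `A` over `q`;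
`Tl = totEM` at `(N, e)`, `Tu = totEM` at `(N q, e + 1)` (helper23), `SS = ssM A q M`,
`Nα = nmAlphaE A N q`, `Nβ = nmBetaE A N q` (helper96), `zα = id`, `zβ = β⁻¹`.

* `AlphaInputs` : the inputs of the side `α` (singles `a < e`: helper33; unit: helper33;
  reg: helper96; double at `(e + 1, e)`: helper5);
* `BetaInputs` : the inputs of the side `β` (singles `2 ≤ a`, unit, reg);
* `AlphaInputs.sideE` : the side `α` from GLUE at the lower level;
* `glued_step` : GLUE at the level `e + 1` from GLUE at the level `e` (`1 ≤ e`);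
* **`glued_totEM`** : the GLUE tower: GLUE at every level `e ≥ 2` from the base `e = 2`;
* **`nuDataE`** : the modular datum of the two levels, `2 ≤ e`;
  `nuDataE_T`, `nuDataE_T'`, `nuDataE_SS`, `nuDataE_d`, `nuDataE_Nα`, `nuDataE_Nβ` (`rfl`);
* **`glued_totEM`** : the GLUE tower by induction on `e`.
-/

set_option autoImplicit false
set_option synthInstance.maxHeartbeats 400000
set_option maxHeartbeats 1000000
set_option linter.style.haveILetI false
set_option linter.unusedSectionVars false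

noncomputable section

open ModularCurve AlgebraicCurve
open Fermat.Agent.S24 Fermat.Agent.BAD.H88 Fermat.Agent.S28 Fermat.Agent.S28.H73
open Fermat.Agent.RED.H73 Fermat.Agent.RED.H17 Fermat.Agent.S36.NU.H88
open Fermat.Agent.S36.NU.H23 Fermat.Agent.S45.NUE.H23 Fermat.Agent.S36.NU.H74
open Fermat.Agent.S45.NUE.H96

namespace Fermat.Agent.S45.NUE.H79

open Fermat.Agent.BAD Fermat.Agent.RED Fermat.Agent.S36.NU.H79 Fermat.Agent.S36.NU.H24

attribute [local instance] algkE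

section Inputs

variable (A : ValuationSubring Kbar) (N q M e : ℕ) (B k B' k' : ℤ)
  (hN : N = M * q ^ e) (hB : B * M + k * (q : ℤ) ^ e = 1)
  (hN' : N * q = M * q ^ (e + 1)) (hB' : B' * M + k' * (q : ℤ) ^ (e + 1) = 1)
  (hq : q.Prime) [NeZero N] [NeZero q] [NeZero (N * q)] [NeZero M] [NeZero (M * q)]
  [NeZero (M * q * q)] (hqM : ¬ q ∣ M) (hA : A.LiesOverPrime q) (ht : H91.TameAt M q)
  (he : 0 < e)

/-- The conservation datum of the upper level. -/
abbrev TuE : TotN Kbar ↥(L0 A (N * q)) (FN (N * q)) (kV A) (Fin (e + 2))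
    (Place (kV A) (FM A M)) (kapE A M (e + 1)) :=
  totEM A (N * q) q M (e + 1) B' k' hN' hB' hq hqM hA ht (Nat.succ_pos e)

/-- The conservation datum of the lower level. -/
abbrev TlE : TotN Kbar ↥(L0 A N) (FN N) (kV A) (Fin (e + 1))
    (Place (kV A) (FM A M)) (kapE A M e) :=
  totEM A N q M e B k hN hB hq hqM hA ht he

/-- **The inputs of the side `α`.** -/
structure AlphaInputs where
  /-- the single components `a < e` (helper33) -/
  single : ∀ i : Fin (e + 2), (i : ℕ) < e →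
    SingleRel (TuE A N q M e B' k' hN' hB' hq hqM hA ht)
      (TlE A N q M e B k hN hB hq hqM hA ht he) (nmAlphaE A N q) (ssM A q M) id q i
  /-- norms of units (helper33) -/
  unit : ∀ h : ↥(L0 A (N * q)),
    (∀ i, (TuE A N q M e B' k' hN' hB' hq hqM hA ht).rdN i h ≠ 0) →
    ∀ i', (TlE A N q M e B k hN hB hq hqM hA ht he).rdN i' (nmAlphaE A N q h) ≠ 0
  /-- norms of functions regular on a fibre (helper96) -/
  reg : ∀ z ∈ ssM A q M, ∀ h : ↥(L0 A (N * q)),
    (∀ P, (TuE A N q M e B' k' hN' hB' hq hqM hA ht).ρ P = z →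
      RegAt P (algebraMap ↥(L0 A (N * q)) (FN (N * q)) h)) →
    ∀ Q, (TlE A N q M e B k hN hB hq hqM hA ht he).ρ Q = z →
      RegAt Q (algebraMap ↥(L0 A N) (FN N) (nmAlphaE A N q h))
  /-- the double component `(e + 1, e)` over `e` (helper5) -/
  double : DoubleRel (TuE A N q M e B' k' hN' hB' hq hqM hA ht)
    (TlE A N q M e B k hN hB hq hqM hA ht he) (nmAlphaE A N q) (ssM A q M) id q
    (⟨e + 1, by omega⟩ : Fin (e + 2)) (⟨e, by omega⟩ : Fin (e + 2))

/-- **The inputs of the side `β`.** -/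
structure BetaInputs where
  /-- the single components `2 ≤ a` (helper33) -/
  single : ∀ i : Fin (e + 2), 2 ≤ (i : ℕ) →
    SingleRel (TuE A N q M e B' k' hN' hB' hq hqM hA ht)
      (TlE A N q M e B k hN hB hq hqM hA ht he) (nmBetaE A N q) (ssM A q M)
      (betaM A q M hq hqM hA).symm q i
  /-- norms of units (helper33) -/
  unit : ∀ h : ↥(L0 A (N * q)),
    (∀ i, (TuE A N q M e B' k' hN' hB' hq hqM hA ht).rdN i h ≠ 0) →
    ∀ i', (TlE A N q M e B k hN hB hq hqM hA ht he).rdN i' (nmBetaE A N q h) ≠ 0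
  /-- norms of functions regular on a fibre (helper96) -/
  reg : ∀ z ∈ ssM A q M, ∀ h : ↥(L0 A (N * q)),
    (∀ P, (TuE A N q M e B' k' hN' hB' hq hqM hA ht).ρ P = z →
      RegAt P (algebraMap ↥(L0 A (N * q)) (FN (N * q)) h)) →
    ∀ Q, (TlE A N q M e B k hN hB hq hqM hA ht he).ρ Q = (betaM A q M hq hqM hA).symm z →
      RegAt Q (algebraMap ↥(L0 A N) (FN N) (nmBetaE A N q h))

variable {A N q M e B k B' k' hN hB hN' hB' hq hqM hA ht he}

/-- The side `α`, from GLUE at the lower level. -/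
def AlphaInputs.sideE (I : AlphaInputs A N q M e B k B' k' hN hB hN' hB' hq hqM hA ht he)
    (hg : ∀ z ∈ ssM A q M, Glued (TlE A N q M e B k hN hB hq hqM hA ht he) z) :
    SideE (TuE A N q M e B' k' hN' hB' hq hqM hA ht)
      (TlE A N q M e B k hN hB hq hqM hA ht he) (ssM A q M) q where
  Nm := nmAlphaE A N q
  zm := id
  S := fun i => (i : ℕ) < e
  single := I.single
  unit := I.unit
  reg := I.reg
  glue' := fun z hz => hg z hz

/-- The side `β`, from GLUE at the lower level. -/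
def BetaInputs.sideE (I : BetaInputs A N q M e B k B' k' hN hB hN' hB' hq hqM hA ht he)
    (hg : ∀ z ∈ ssM A q M, Glued (TlE A N q M e B k hN hB hq hqM hA ht he) z) :
    SideE (TuE A N q M e B' k' hN' hB' hq hqM hA ht)
      (TlE A N q M e B k hN hB hq hqM hA ht he) (ssM A q M) q where
  Nm := nmBetaE A N q
  zm := (betaM A q M hq hqM hA).symm
  S := fun i => 2 ≤ (i : ℕ)
  single := I.single
  unit := I.unit
  reg := I.reg
  glue' := fun z hz => hg _ (betaM_symm_mem_ssM A q M hq hqM hA z hz)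

/-- **The step of the GLUE tower**: GLUE at the level `e + 1` from GLUE at the level `e`. -/
theorem glued_step (I : AlphaInputs A N q M e B k B' k' hN hB hN' hB' hq hqM hA ht he)
    (hg : ∀ z ∈ ssM A q M, Glued (TlE A N q M e B k hN hB hq hqM hA ht he) z) :
    ∀ z ∈ ssM A q M, Glued (TuE A N q M e B' k' hN' hB' hq hqM hA ht) z := by
  haveI : IsAlgClosed (kV A) := isAlgClosed_kV A
  haveI : Infinite (kV A) := IsAlgClosed.instInfinite
  intro z hz
  refine SideE.glued_of_double (I.sideE hg) hq.pos I.double (j := (⟨0, by omega⟩ : Fin (e + 2)))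
    (show (0 : ℕ) < e from he) ?_ (hasPrincipalDivisors_FN (N * q)) hz
    (fun i => deg_ptE A q M hq hqM hA ht (e + 1) i z)
  intro i
  rcases Nat.lt_or_ge (i : ℕ) e with h | h
  · exact Or.inl h
  · have hi := i.2
    rcases Nat.eq_or_lt_of_le h with h1 | h1
    · exact Or.inr (Or.inr (Fin.ext h1.symm))
    · exact Or.inr (Or.inl (Fin.ext (by simp only []; omega)))

end Inputs

section Data

variable (A : ValuationSubring Kbar) (N q M e : ℕ) (B k B' k' : ℤ)
  (hN : N = M * q ^ e) (hB : B * M + k * (q : ℤ) ^ e = 1)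
  (hN' : N * q = M * q ^ (e + 1)) (hB' : B' * M + k' * (q : ℤ) ^ (e + 1) = 1)
  (hq : q.Prime) [NeZero N] [NeZero q] [NeZero (N * q)] [NeZero M] [NeZero (M * q)]
  [NeZero (M * q * q)] (hqM : ¬ q ∣ M) (hA : A.LiesOverPrime q) (ht : H91.TameAt M q)
  (he : 2 ≤ e)

/-- **ND_e: the modular datum of the two levels** `M q^e ⊂ M q^(e+1)`, `2 ≤ e`. -/
def nuDataE
    (Iα : AlphaInputs A N q M e B k B' k' hN hB hN' hB' hq hqM hA ht (by omega))
    (Iβ : BetaInputs A N q M e B k B' k' hN hB hN' hB' hq hqM hA ht (by omega))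
    (hg : ∀ z ∈ ssM A q M, Glued (TlE A N q M e B k hN hB hq hqM hA ht (by omega)) z) :
    NUDataE Kbar ↥(L0 A (N * q)) (FN (N * q)) (kV A) (Fin (e + 2)) (Place (kV A) (FM A M))
      (kapE A M (e + 1)) Kbar ↥(L0 A N) (FN N) (Fin (e + 1)) (Place (kV A) (FM A M))
      (kapE A M e) where
  T := TuE A N q M e B' k' hN' hB' hq hqM hA ht
  T' := TlE A N q M e B k hN hB hq hqM hA ht (by omega)
  SS := ssM A q M
  d := q
  d_pos := hq.pos
  sα := Iα.sideE hg
  sβ := Iβ.sideE hg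
  cover := fun i => by
    rcases Nat.lt_or_ge (i : ℕ) e with h | h
    · exact Or.inl h
    · exact Or.inr (show 2 ≤ (i : ℕ) by omega)
  jα := ⟨0, by omega⟩
  hjα := show (0 : ℕ) < e by omega
  i₁ := ⟨e + 1, by omega⟩
  i₂ := ⟨e, by omega⟩
  hi₁ := show 2 ≤ e + 1 by omega
  hi₂ := he
  double := Iα.double
  deg_one := fun z _ i => deg_ptE A q M hq hqM hA ht (e + 1) i z

variable (Iα : AlphaInputs A N q M e B k B' k' hN hB hN' hB' hq hqM hA ht (by omega))
  (Iβ : BetaInputs A N q M e B k B' k' hN hB hN' hB' hq hqM hA ht (by omega))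
  (hg : ∀ z ∈ ssM A q M, Glued (TlE A N q M e B k hN hB hq hqM hA ht (by omega)) z)

theorem nuDataE_T :
    (nuDataE A N q M e B k B' k' hN hB hN' hB' hq hqM hA ht he Iα Iβ hg).T
      = totEM A (N * q) q M (e + 1) B' k' hN' hB' hq hqM hA ht (Nat.succ_pos e) := rfl

theorem nuDataE_T' :
    (nuDataE A N q M e B k B' k' hN hB hN' hB' hq hqM hA ht he Iα Iβ hg).T'
      = totEM A N q M e B k hN hB hq hqM hA ht (by omega) := rfl

theorem nuDataE_SS :
    (nuDataE A N q M e B k B' k' hN hB hN' hB' hq hqM hA ht he Iα Iβ hg).SS = ssM A q M := rfl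

theorem nuDataE_d :
    (nuDataE A N q M e B k B' k' hN hB hN' hB' hq hqM hA ht he Iα Iβ hg).d = q := rfl

theorem nuDataE_Nα :
    (nuDataE A N q M e B k B' k' hN hB hN' hB' hq hqM hA ht he Iα Iβ hg).sα.Nm
      = nmAlphaE A N q := rfl

theorem nuDataE_Nβ :
    (nuDataE A N q M e B k B' k' hN hB hN' hB' hq hqM hA ht he Iα Iβ hg).sβ.Nm
      = nmBetaE A N q := rfl

end Data

section Tower

variable (A : ValuationSubring Kbar) (q M : ℕ) (hq : q.Prime) [NeZero q] [NeZero M]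
  [NeZero (M * q)] [NeZero (M * q * q)] (hqM : ¬ q ∣ M) (hA : A.LiesOverPrime q)
  (ht : H91.TameAt M q)

/-- **The GLUE tower**: GLUE at every level `M q^e`, `2 ≤ e`, from the base `e = 2` (S36) and the
inputs of the side `α` at the levels `e ≥ 2`. -/
theorem glued_totEM
    (hbase : ∀ (N : ℕ) (B k : ℤ) (hN : N = M * q ^ 2) (hB : B * M + k * (q : ℤ) ^ 2 = 1)
      [NeZero N], ∀ z ∈ ssM A q M,
        Glued (totEM A N q M 2 B k hN hB hq hqM hA ht (by norm_num)) z)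
    (hα : ∀ (e : ℕ) (he : 2 ≤ e) (N : ℕ) (B k B' k' : ℤ) (hN : N = M * q ^ e)
      (hB : B * M + k * (q : ℤ) ^ e = 1) (hN' : N * q = M * q ^ (e + 1))
      (hB' : B' * M + k' * (q : ℤ) ^ (e + 1) = 1) [NeZero N] [NeZero (N * q)],
      AlphaInputs A N q M e B k B' k' hN hB hN' hB' hq hqM hA ht (by omega)) :
    ∀ (e : ℕ) (he : 2 ≤ e) (N : ℕ) (B k : ℤ) (hN : N = M * q ^ e)
      (hB : B * M + k * (q : ℤ) ^ e = 1) [NeZero N], ∀ z ∈ ssM A q M,
        Glued (totEM A N q M e B k hN hB hq hqM hA ht (by omega)) z := by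
  intro e he
  induction e, he using Nat.le_induction with
  | base => exact fun N B k hN hB _ z hz => hbase N B k hN hB z hz
  | succ e he ih =>
    intro N' B' k' hN' hB' _ z hz
    have hNN : N' = M * q ^ e * q := by rw [hN', pow_succ, mul_assoc]
    subst hNN
    haveI : NeZero (M * q ^ e) := ⟨Nat.mul_ne_zero (NeZero.ne M) (pow_ne_zero _ (NeZero.ne q))⟩
    have hB : B' * M + (k' * (q : ℤ)) * (q : ℤ) ^ e = 1 := by
      rw [← hB', pow_succ]
      ring
    exact glued_step (hα e he (M * q ^ e) B' (k' * (q : ℤ)) B' k' rfl hB hN' hB')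
      (ih (M * q ^ e) B' (k' * (q : ℤ)) rfl hB) z hz

end Tower

end Fermat.Agent.S45.NUE.H79

end
end
-- ==== END Fermat.Agent.S45.NUE.H79_NuE

-- ==== BEGIN Fermat.Agent.S45.NUE.H88_CuspFinalE
section

/-!
# S45 / NU_e, package E-FIN, leaf E-CUSP: the final plug (helper88)

Level `N = M q^e`, `q ∤ M`, `M` tame at `q`, `1 ≤ e`, `T = totEM` (helper23),
`C = chartInfE A N T h` (helper74), `u = 1 / j`, `E_a = H73.EooE a`, `x_a = H73.xooE a`,
`f_a = H73.fooE a`.

* `Stmt_EooE_div` : (DIV_e) `E_a ∈ q · V_b` for `b ≠ a` (helper82);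
* `Stmt_CuspW` : (CUSP-W_e) `f_a ∈ V_a` and
  `s_a(f_a)^m · s_a(E_a)^a' = c (1 - c' s_a(u)^n₁)^n₂ · s_a(E_a)^b` for `0 < a < e` (helper73);
* `EooE_mem_chartInfE`, `xooE_mem_chartInfE` : `E_a`, `x_a` lie in the chart at infinity;
* `cuspWit_totEM` : **the cusp witnesses** `H88.CuspWit` of all the components;
* `hptooE_totEM` : **the hypothesis `hptoo` of `H65.finModE_of` / `finModE_charts`** for the
  modular conservation datum, from DIV_e, CUSP-W_e and the branches at the cusps.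
-/

set_option autoImplicit false
set_option synthInstance.maxHeartbeats 400000
set_option maxHeartbeats 1000000
set_option linter.style.haveILetI false
set_option linter.unusedSectionVars false
set_option linter.unusedVariables false

noncomputable section

open ModularCurve AlgebraicCurve Polynomial IntermediateField
open Fermat.Agent.S24 Fermat.Agent.BAD.H88 Fermat.Agent.S28 Fermat.Agent.S28.H73
open Fermat.Agent.RED.H73 Fermat.Agent.RED.H17 Fermat.Agent.S36.NU.H88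
open Fermat.Agent.S36.NU.H23 Fermat.Agent.S36.NU.H41 Fermat.Agent.S36.NU.H17
open Fermat.Agent.S36.NU.H16 Fermat.Agent.S36.NU.H65 Fermat.Agent.BAD
open Fermat.Agent.S45.NUE.H23 Fermat.Agent.S45.NUE.H74
open Fermat.Agent.S45.NUE.H73 (uooE KooE EooE xooE fooE)

namespace Fermat.Agent.S45.NUE.H88

section Targets

variable (A : ValuationSubring Kbar)
variable (N q M e : ℕ) (B k : ℤ) (hN : N = M * q ^ e) (hB : B * M + k * (q : ℤ) ^ e = 1)
  (hq : q.Prime) [NeZero N] [NeZero q]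

/-- **(DIV_e)** the witness of the component `a` is divisible by `q` at the other components. -/
def Stmt_EooE_div : Prop :=
  ∀ a b : ℕ, a ≤ e → b ≤ e → a ≠ b →
    ∃ f' ∈ VE A N q M e B k hN hB hq b, EooE A N q e a = ((q : ℕ) : ↥(L0 A N)) * f'

/-- **(CUSP-W_e)** on a component `0 < a < e`: `f_a ∈ V_a` and
`s_a(f_a)^m · s_a(E_a)^a' = c (1 - c' s_a(u)^n₁)^n₂ · s_a(E_a)^b`, `c ≠ 0`, `0 < m`, `0 < n₁`. -/
def Stmt_CuspW : Prop :=
  ∀ (a : ℕ) (_ : 1 ≤ a) (_ : a + 1 ≤ e)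
    (h1 : q ^ (a + min a (e - a)) ∣ N) (h2 : q ^ (a - min a (e - a)) ∣ N)
    (hu : uooE A N ∈ VE A N q M e B k hN hB hq a)
    (hE : EooE A N q e a ∈ VE A N q M e B k hN hB hq a),
    ∃ (hf : fooE A N q e a h1 h2 ∈ VE A N q M e B k hN hB hq a)
      (m a' b n₁ n₂ : ℕ) (c c' : kV A), 0 < m ∧ 0 < n₁ ∧ c ≠ 0 ∧
      _root_.Fermat.Agent.S45.NUE.H23.sE A N q M e B k hN hB hq a ⟨fooE A N q e a h1 h2, hf⟩ ^ m
          * _root_.Fermat.Agent.S45.NUE.H23.sE A N q M e B k hN hB hq a ⟨EooE A N q e a, hE⟩ ^ a'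
        = algebraMap (kV A) (LaurentSeries (kV A)) c
          * (1 - algebraMap (kV A) (LaurentSeries (kV A)) c'
              * _root_.Fermat.Agent.S45.NUE.H23.sE A N q M e B k hN hB hq a ⟨uooE A N, hu⟩ ^ n₁) ^ n₂
          * _root_.Fermat.Agent.S45.NUE.H23.sE A N q M e B k hN hB hq a ⟨EooE A N q e a, hE⟩ ^ b

end Targets

section Final

variable (A : ValuationSubring Kbar)
variable (N q M e : ℕ) (B k : ℤ) (hN : N = M * q ^ e) (hB : B * M + k * (q : ℤ) ^ e = 1)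
  (hq : q.Prime) [NeZero N] [NeZero q] [NeZero M] (hqM : ¬ q ∣ M) (hA : A.LiesOverPrime q)
  (ht : H91.TameAt M q)

attribute [local instance] algkE

/-- Membership in the chart at infinity of the modular conservation datum: integral over
`ℚ̄[1 / j]` (as a function of `F_N · ℚ̄`) and in all the `V_b`. -/
theorem mem_chartInfE_totEM (he : 0 < e)
    (h : ChartInE A N (totEM A N q M e B k hN hB hq hqM hA ht he)) (f : ↥(L0 A N))
    (hf₁ : IsIntegral ↥(Algebra.adjoin Kbar ({(_root_.Fermat.Agent.S24.jF N)⁻¹} : Set (FN N))) (f : FN N))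
    (hf₂ : ∀ b : ℕ, b ≤ e → f ∈ VE A N q M e B k hN hB hq b) :
    f ∈ (chartInfE A N (totEM A N q M e B k hN hB hq hqM hA ht he) h).B :=
  mem_chart_of_isIntegral A q M N hq hqM hA (hleE N q M e hN)
    (algE A q M e hq hqM hA) (nrEM A N q M e B k hN hB hq hqM hA he) rfl
    (nrE_hdeg A N q M e B k hN hB hq hqM hA (inE_mod A N q M e B k hN hB hq hqM hA) he)
    (chartInfE A N (totEM A N q M e B k hN hB hq hqM hA ht he) h) (fun _ => rfl) 0
    (h.j_mem 0)
    (Fermat.Agent.S45.NUE.H54.transcendental_red_j0 A N q M e B k hN hB hq hqM hA ht he 0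
      (h.j_mem 0)) rfl
    (isIntegral_adjoin_L0 A N (j0 A N)⁻¹ f hf₁)
    (fun i => hf₂ (i : ℕ) (Nat.lt_succ_iff.mp i.2))

/-- `E_a` lies in the chart at infinity. -/
theorem EooE_mem_chartInfE (he : 0 < e)
    (h : ChartInE A N (totEM A N q M e B k hN hB hq hqM hA ht he)) (a : ℕ) (ha : a ≤ e) :
    EooE A N q e a ∈ (chartInfE A N (totEM A N q M e B k hN hB hq hqM hA ht he) h).B :=
  mem_chartInfE_totEM A N q M e B k hN hB hq hqM hA ht he h _
    (Fermat.Agent.S45.NUE.H73.isIntegral_EooE A N q M e hN hq he a ha)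
    (fun b hb => Fermat.Agent.S45.NUE.H73.EooE_mem_VE A N q M e B k hN hB hq
      (Fermat.Agent.S45.NUE.H82.stmt_EwE_mem A N q M e B k hN hB hq he) a b ha hb)

/-- `x_a` lies in the chart at infinity. -/
theorem xooE_mem_chartInfE (he : 0 < e)
    (h : ChartInE A N (totEM A N q M e B k hN hB hq hqM hA ht he)) (a : ℕ) (ha : 1 ≤ a)
    (hae : a + 1 ≤ e) (h1 : q ^ (a + min a (e - a)) ∣ N) (h2 : q ^ (a - min a (e - a)) ∣ N) :
    xooE A N q e a h1 h2
      ∈ (chartInfE A N (totEM A N q M e B k hN hB hq hqM hA ht he) h).B :=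
  mem_chartInfE_totEM A N q M e B k hN hB hq hqM hA ht he h _
    (Fermat.Agent.S45.NUE.H73.isIntegral_xooE A N q M e hN hq a ha hae h1 h2)
    (fun b hb => Fermat.Agent.S45.NUE.H73.xooE_mem_VE A N q M e B k hN hB hq
      (Fermat.Agent.S45.NUE.H82.stmt_EwE_mem A N q M e B k hN hB hq he) a b ha hae hb h1 h2)

/-- **The cusp witnesses of all the components** of the modular conservation datum. -/
theorem cuspWit_totEM (he : 0 < e)
    (h : ChartInE A N (totEM A N q M e B k hN hB hq hqM hA ht he))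
    (hdiv : Stmt_EooE_div A N q M e B k hN hB hq)
    (hW : Stmt_CuspW A N q M e B k hN hB hq) (i : Fin (e + 1)) :
    CuspWit (chartInfE A N (totEM A N q M e B k hN hB hq hqM hA ht he) h)
      ((q : ℕ) : ↥(Rur A)) (fun i : Fin (e + 1) => mE q e (i : ℕ))
      ⟨(j0 A N)⁻¹, inv_j0_mem_chartInfE A N _ h⟩ i := by
  have hmem := Fermat.Agent.S45.NUE.H82.stmt_EwE_mem A N q M e B k hN hB hq he
  have hred := Fermat.Agent.S45.NUE.H82.stmt_EwE_red A N q M e B k hN hB hq he hA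
  obtain ⟨a, hai⟩ := i
  have hae : a ≤ e := Nat.lt_succ_iff.mp hai
  obtain ⟨hu, hE, P, hP0, hs⟩ := cuspRedE A N q M e B k hN hB hq hA he.ne' hmem hred a hae
  have hP0' : P.coeff 0 ≠ 0 := by rw [hP0]; exact one_ne_zero
  have hEB := EooE_mem_chartInfE A N q M e B k hN hB hq hqM hA ht he h a hae
  have hconst : ∀ (r : ↥(Rur A))
      (hr : algebraMap ↥(Rur A) ↥(L0 A N) r ∈ VE A N q M e B k hN hB hq a),
      _root_.Fermat.Agent.S45.NUE.H23.sE A N q M e B k hN hB hq a ⟨algebraMap ↥(Rur A) ↥(L0 A N) r, hr⟩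
        = algebraMap (kV A) (LaurentSeries (kV A)) (resRur A r) :=
    fun r hr => Fermat.Agent.S45.NUE.H54.sE_const A N q M e B k hN hB hq a r hr
  have hdiv' : ∀ i' : Fin (e + 1), i' ≠ ⟨a, hai⟩ →
      ∃ f' ∈ VE A N q M e B k hN hB hq (i' : ℕ),
        EooE A N q e a = algebraMap ↥(Rur A) ↥(L0 A N) ((q : ℕ) : ↥(Rur A)) * f' := by
    intro i' hi'
    obtain ⟨f', hf', hf⟩ := hdiv a (i' : ℕ) hae (Nat.lt_succ_iff.mp i'.2)
      (fun h0 => hi' (Fin.ext h0.symm))
    exact ⟨f', hf', by rw [hqR_ooE]; exact hf⟩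
  by_cases hm : min a (e - a) = 0
  · -- a component of multiplicity one
    have he1 : mE q e a = 1 := by
      unfold mE
      rw [hm, pow_zero, Nat.totient_one]
    exact CuspWit.of_red_one
      (C := chartInfE A N (totEM A N q M e B k hN hB hq hqM hA ht he) h)
      ((q : ℕ) : ↥(Rur A)) (fun i : Fin (e + 1) => mE q e (i : ℕ))
      ⟨(j0 A N)⁻¹, inv_j0_mem_chartInfE A N _ h⟩ ⟨a, hai⟩ he1
      (_root_.Fermat.Agent.S45.NUE.H23.sE A N q M e B k hN hB hq a) hconst ⟨EooE A N q e a, hEB⟩ hu hE P hP0' hs hdiv'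
  · -- a component `0 < a < e`
    have ha1 : 1 ≤ a := by
      rcases Nat.eq_zero_or_pos a with h0 | h0
      · exact absurd (by rw [h0]; exact Nat.zero_min _) hm
      · exact h0
    have hae1 : a + 1 ≤ e := by
      rcases Nat.eq_or_lt_of_le hae with h0 | h0
      · exact absurd (by rw [h0, Nat.sub_self]; exact Nat.min_zero _) hm
      · exact h0
    have hmle : min a (e - a) ≤ e - a := min_le_right _ _
    have h1 : q ^ (a + min a (e - a)) ∣ N := by
      rw [hN]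
      exact Dvd.dvd.mul_left (pow_dvd_pow q (by omega)) M
    have h2 : q ^ (a - min a (e - a)) ∣ N := by
      rw [hN]
      exact Dvd.dvd.mul_left (pow_dvd_pow q (by omega)) M
    obtain ⟨hf, m, a', b, n₁, n₂, c, c', hm0, hn₁, hc, hWeq⟩ := hW a ha1 hae1 h1 h2 hu hE
    have hxB := xooE_mem_chartInfE A N q M e B k hN hB hq hqM hA ht he h a ha1 hae1 h1 h2
    have hxf : xooE A N q e a h1 h2 ^ mE q e a
        = algebraMap ↥(Rur A) ↥(L0 A N) ((q : ℕ) : ↥(Rur A))
          * (fooE A N q e a h1 h2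
            * EooE A N q e a ^ (q ^ min a (e - a) * Nat.totient (q ^ min a (e - a)))) := by
      rw [hqR_ooE]
      exact Fermat.Agent.S45.NUE.H73.xooE_pow A N q e a h1 h2
    exact CuspWit.of_series
      (C := chartInfE A N (totEM A N q M e B k hN hB hq hqM hA ht he) h)
      ((q : ℕ) : ↥(Rur A)) (fun i : Fin (e + 1) => mE q e (i : ℕ))
      ⟨(j0 A N)⁻¹, inv_j0_mem_chartInfE A N _ h⟩ ⟨a, hai⟩ (mE_pos q e a hq)
      (_root_.Fermat.Agent.S45.NUE.H23.sE A N q M e B k hN hB hq a) hconst ⟨EooE A N q e a, hEB⟩ hu hE P hP0' hs hdiv'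
      ⟨xooE A N q e a h1 h2, hxB⟩ (fooE A N q e a h1 h2) hf
      (q ^ min a (e - a) * Nat.totient (q ^ min a (e - a))) hxf
      m a' b n₁ n₂ hm0 hn₁ c c' hc hWeq

variable {Z K L : Type*} [Field K] [Field L] [Algebra K L] [Algebra ↥(L0 A N) L]

/-- **E-CUSP: the hypothesis `hptoo` of `H65.finModE_of`** for the modular conservation datum,
from (DIV_e), (CUSP-W_e) and the branches at the cusps. -/
theorem hptooE_totEM (he : 0 < e)
    (h : ChartInE A N (totEM A N q M e B k hN hB hq hqM hA ht he))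
    (G : H96.GlueCore K ↥(L0 A N) L (kV A) (Fin (e + 1)) Z (kapE A M e))
    (hdiv : Stmt_EooE_div A N q M e B k hN hB hq)
    (hW : Stmt_CuspW A N q M e B k hN hB hq)
    (hbr : ∀ 𝔪 : Ideal (chartInfE A N (totEM A N q M e B k hN hB hq hqM hA ht he) h).B,
      𝔪.IsMaximal →
      (∀ β : (chartInfE A N (totEM A N q M e B k hN hB hq hqM hA ht he) h).B,
        (β : ↥(L0 A N)) = (j0 A N)⁻¹ → β ∈ 𝔪) →
      ∀ i, (chartInfE A N (totEM A N q M e B k hN hB hq hqM hA ht he) h).Icomp i ≤ 𝔪 →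
        Nonempty (Branch (chartInfE A N (totEM A N q M e B k hN hB hq hqM hA ht he) h) 𝔪 i)) :
    ∀ 𝔪 : Ideal (chartInfE A N (totEM A N q M e B k hN hB hq hqM hA ht he) h).B,
      𝔪.IsMaximal →
      (∃ i, (chartInfE A N (totEM A N q M e B k hN hB hq hqM hA ht he) h).Icomp i ≤ 𝔪) →
      (∀ β : (chartInfE A N (totEM A N q M e B k hN hB hq hqM hA ht he) h).B,
        (β : ↥(L0 A N)) = (j0 A N)⁻¹ → β ∈ 𝔪) →
      H96.PointDataAt (chartInfE A N (totEM A N q M e B k hN hB hq hqM hA ht he) h) G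
        ((q : ℕ) : ↥(Rur A)) 𝔪 :=
  hptooE_of_wit A q M N hq hqM hA (hleE N q M e hN)
    (algE A q M e hq hqM hA) (nrEM A N q M e B k hN hB hq hqM hA he) rfl
    (nrE_hdeg A N q M e B k hN hB hq hqM hA (inE_mod A N q M e B k hN hB hq hqM hA) he)
    (chartInfE A N (totEM A N q M e B k hN hB hq hqM hA ht he) h) (fun _ => rfl) 0
    (h.j_mem 0)
    (Fermat.Agent.S45.NUE.H54.transcendental_red_j0 A N q M e B k hN hB hq hqM hA ht he 0
      (h.j_mem 0)) rfl
    ((hqR_ooE A N q).trans (algebraMap_piE A N q M e hN).symm) G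
    (fun i => cuspWit_totEM A N q M e B k hN hB hq hqM hA ht he h hdiv hW i) hbr

end Final

end Fermat.Agent.S45.NUE.H88

end
end
-- ==== END Fermat.Agent.S45.NUE.H88_CuspFinalE
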