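-- GENERATED (merged mirror, NOTES/tools/trim/merge3_helper67.py): 13 modules of the originals, bodies verbatim.
import Fermat.Agent.Zm.S45_L07_001
import Fermat.Agent.Zm.S45_L11_000
import Fermat.Agent.Zm.S45_L09_000
import Fermat.Agent.Zm.S45_L10_000
import Fermat.Agent.Zm.S45_L04_000
import Fermat.Agent.Zm.S45_L10_001
import Fermat.Agent.Zm.S45_L06_001
import Fermat.Agent.Zm.S45_L08_000
import Fermat.Agent.Zm.S45_L02_002

-- ==== BEGIN Fermat.Agent.S45.NUE.H17_BranchInst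
section

/-!
# S45 / NU_e, leaf E-PT-BR, instance (helper17): the branches of the two charts over `totEM`

`N = M q^e`, `q ∤ M` tame, `e ≥ 1`, `T = totEM …` (helper23), `h : ChartInE A N T` (helper81).

* `branch_chart0E_totEM` : **`hbr` of `H88.pointDataE_of_dichotomy`** for `chart0E A N T h`;
* `branch_chartInfE_totEM` : **`hbr` of `H88.hptooE_totEM` / `H88.cusp_pointDataAtE`** for
  `chartInfE A N T h`;
* `isIntegral_jE_totEM` : `j (q^e τ)` is integral over `R^ur[j]`.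
-/

set_option autoImplicit false
set_option synthInstance.maxHeartbeats 400000
set_option maxHeartbeats 1000000
set_option linter.style.haveILetI false
set_option linter.unusedSectionVars false
set_option linter.unusedVariables false

noncomputable section

open ModularCurve AlgebraicCurve IntermediateField

namespace Fermat.Agent.S45.NUE.H17

open Fermat.Agent.S24 Fermat.Agent.BAD.H88 Fermat.Agent.S28 Fermat.Agent.S28.H73
  Fermat.Agent.S36.NU.H88 Fermat.Agent.S36.NU.H16 Fermat.Agent.S36.NU.H65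
  Fermat.Agent.S36.NU.H41 Fermat.Agent.BAD
open Fermat.Agent.S45.NUE.H23 Fermat.Agent.S45.NUE.H74

local notation "L0" => Fermat.Agent.S36.NU.H23.L0

section Inst

variable (A : ValuationSubring Kbar)
variable (N q M e : ℕ) (B k : ℤ) (hN : N = M * q ^ e) (hB : B * M + k * (q : ℤ) ^ e = 1)
  (hq : q.Prime) [NeZero N] [NeZero q] [NeZero M] (hqM : ¬ q ∣ M) (hA : A.LiesOverPrime q)
  (ht : H91.TameAt M q) (he : 0 < e)

attribute [local instance] algkE

/-- `j (q^e τ)` is integral over `R^ur[j]`. -/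
theorem isIntegral_jE_totEM (h : ChartInE A N (totEM A N q M e B k hN hB hq hqM hA ht he)) :
    IsIntegral ↥(Algebra.adjoin ↥(Rur A) {j0 A N}) (jE A N q M e hN) :=
  isIntegral_jE_Rur A N q M e B k hN hB hq (fun f hf₁ hf₂ =>
    critE_totEM A N q M e B k hN hB hq hqM hA ht he h f hf₁
      (fun i => hf₂ (i : ℕ) (Nat.lt_succ_iff.mp i.2)))

/-- **`hbr` for the chart of `j` over `totEM`.** -/
theorem branch_chart0E_totEM (h : ChartInE A N (totEM A N q M e B k hN hB hq hqM hA ht he)) :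
    ∀ 𝔪 : Ideal (chart0E A N (totEM A N q M e B k hN hB hq hqM hA ht he) h).B, 𝔪.IsMaximal →
      ∀ i, (chart0E A N (totEM A N q M e B k hN hB hq hqM hA ht he) h).Icomp i ≤ 𝔪 →
        Nonempty (Branch (chart0E A N (totEM A N q M e B k hN hB hq hqM hA ht he) h) 𝔪 i) :=
  branch_chart0E A N q M e B k hN hB hq
    (chart0E A N (totEM A N q M e B k hN hB hq hqM hA ht he) h)
    (fun i : Fin (e + 1) => (i : ℕ)) (fun _ => AlgHom.id (kV A) (FM A M))
    (fun i => Nat.lt_succ_iff.mp i.2) (fun _ => rfl) (fun _ _ _ _ => rfl) hqM hA ht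
    (self_mem_intSub _ _) (fun β => β.2)
    (fun f hf₁ hf₂ => critE_totEM A N q M e B k hN hB hq hqM hA ht he h f hf₁ hf₂)

/-- **`hbr` for the chart of `1 / j` over `totEM`**, at the cusps. -/
theorem branch_chartInfE_totEM
    (h : ChartInE A N (totEM A N q M e B k hN hB hq hqM hA ht he)) :
    ∀ 𝔪 : Ideal (chartInfE A N (totEM A N q M e B k hN hB hq hqM hA ht he) h).B,
      𝔪.IsMaximal →
      (∀ β : (chartInfE A N (totEM A N q M e B k hN hB hq hqM hA ht he) h).B,
        (β : ↥(L0 A N)) = (j0 A N)⁻¹ → β ∈ 𝔪) →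
      ∀ i, (chartInfE A N (totEM A N q M e B k hN hB hq hqM hA ht he) h).Icomp i ≤ 𝔪 →
        Nonempty (Branch (chartInfE A N (totEM A N q M e B k hN hB hq hqM hA ht he) h) 𝔪 i) :=
  branch_chartInfE A N q M e B k hN hB hq
    (chartInfE A N (totEM A N q M e B k hN hB hq hqM hA ht he) h)
    (fun i : Fin (e + 1) => (i : ℕ)) (fun _ => AlgHom.id (kV A) (FM A M))
    (fun i => Nat.lt_succ_iff.mp i.2) (fun _ => rfl) (fun _ _ _ _ => rfl) hqM hA
    (self_mem_intSub _ _) (fun β => β.2)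
    (fun f hf₁ hf₂ =>
      Fermat.Agent.S45.NUE.H88.mem_chart_of_isIntegral A q M N hq hqM hA (_root_.Fermat.Agent.S45.NUE.H17.hleE N q M e hN)
        (algE A q M e hq hqM hA) (nrEM A N q M e B k hN hB hq hqM hA he) rfl
        (nrE_hdeg A N q M e B k hN hB hq hqM hA (inE_mod A N q M e B k hN hB hq hqM hA) he)
        (chartInfE A N (totEM A N q M e B k hN hB hq hqM hA ht he) h) (fun _ => rfl) 0
        (h.j_mem 0)
        (Fermat.Agent.S45.NUE.H54.transcendental_red_j0 A N q M e B k hN hB hq hqM hA ht he 0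
          (h.j_mem 0)) rfl hf₁ hf₂)
    (isIntegral_jE_totEM A N q M e B k hN hB hq hqM hA ht he h)

end Inst

end Fermat.Agent.S45.NUE.H17

end
end
-- ==== END Fermat.Agent.S45.NUE.H17_BranchInst

-- ==== BEGIN Fermat.Agent.S45.NUE.H65_NuEAll
section

/-!
# S45 / NU_e, package E-FIN (helper65): `Stmt_NuEAll` from helper79's frame

* `exists_isNuE` : helper79's `nuDataE` is a modular instance (`IsNuE`) in the setting of
  `H65_FinTopE`;
* `Stmt_BaseGlueE`, `Stmt_AlphaAll`, `Stmt_BetaAll` : the inputs of helper79's frame at every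
  tame setting (GLUE at the base level `e = 2`, the inputs of the two sides);
* `glued_all` : GLUE at every level `e ≥ 2` (helper79's tower);
* `stmt_NuEAll_of` : `Stmt_NuEAll` from the three statements.
-/

set_option autoImplicit false
set_option synthInstance.maxHeartbeats 400000
set_option maxHeartbeats 1000000
set_option linter.style.haveILetI false
set_option linter.unusedSectionVars false

noncomputable section

open ModularCurve AlgebraicCurve IntermediateField

namespace Fermat.Agent.S45.NUE.H65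

open Fermat.Agent.S24 Fermat.Agent.BAD.H88 Fermat.Agent.S36.NU.H23 Fermat.Agent.S36.NU.H81
  Fermat.Agent.S45.NUE.H79 Fermat.Agent.S45.NUE.H23 Fermat.Agent.BAD
  Fermat.Agent.S36.NU.H74 Fermat.Agent.S45.NUE.H96 Fermat.Agent.S36.NU.H79
  Fermat.Agent.S36.NU.H24

attribute [local instance] algkE

/-- helper79's datum is a modular instance of `NUDataE` in the setting of `H65_FinTopE`. -/
theorem exists_isNuE (A : ValuationSubring Kbar) (q M₁ M' el : ℕ) [NeZero M₁] [NeZero q]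
    [NeZero M'] [NeZero (M₁ * q)] [NeZero (M₁ * q * q)] [NeZero (M' * q)] [NeZero (M' * q * q)]
    (hq : q.Prime)
    (hNl : M₁ * q = M' * q ^ el) (hNu : M₁ * q * q = M' * q ^ (el + 1))
    (Bl kl : ℤ) (hBl : Bl * M' + kl * (q : ℤ) ^ el = 1)
    (Bu ku : ℤ) (hBu : Bu * M' + ku * (q : ℤ) ^ (el + 1) = 1)
    (hqM : ¬ q ∣ M') (hA : A.LiesOverPrime q) (ht : H91.TameAt M' q) (hel : 0 < el)
    (hel2 : 2 ≤ el)
    (Iα : AlphaInputs A (M₁ * q) q M' el Bl kl Bu ku hNl hBl hNu hBu hq hqM hA ht hel)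
    (Iβ : BetaInputs A (M₁ * q) q M' el Bl kl Bu ku hNl hBl hNu hBu hq hqM hA ht hel)
    (hg : ∀ z ∈ ssM A q M',
      Glued (Fermat.Agent.S45.NUE.H79.TlE A (M₁ * q) q M' el Bl kl hNl hBl hq hqM hA ht hel) z) :
    ∃ D : NUDataEM A q M₁ M' el,
      IsNuE A q M₁ M' el hq hNl hNu Bl kl hBl Bu ku hBu hqM hA ht hel D :=
  ⟨nuDataE A (M₁ * q) q M' el Bl kl Bu ku hNl hBl hNu hBu hq hqM hA ht hel2 Iα Iβ hg,
    ⟨rfl, rfl, rfl, rfl, fun _ => rfl, fun _ => rfl⟩⟩

/-- GLUE at the base level `e = 2` (helper60 / S36). -/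
def Stmt_BaseGlueE : Prop :=
  ∀ (A : ValuationSubring Kbar) (q M : ℕ) (hq : q.Prime) [NeZero q] [NeZero M]
    (hqM : ¬ q ∣ M) (hA : A.LiesOverPrime q) (ht : H91.TameAt M q), CasesE q M →
    ∀ (N : ℕ) (B k : ℤ) (hN : N = M * q ^ 2) (hB : B * M + k * (q : ℤ) ^ 2 = 1)
      [NeZero N], ∀ z ∈ ssM A q M,
        Glued (totEM A N q M 2 B k hN hB hq hqM hA ht (by norm_num)) z

/-- The inputs of the side `α` at every tame setting. -/
def Stmt_AlphaAll : Prop :=
  ∀ (A : ValuationSubring Kbar) (q M : ℕ) (hq : q.Prime) [NeZero q] [NeZero M]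
    [NeZero (M * q)] [NeZero (M * q * q)]
    (hqM : ¬ q ∣ M) (hA : A.LiesOverPrime q) (ht : H91.TameAt M q), CasesE q M →
    ∀ (e : ℕ) (he : 2 ≤ e) (N : ℕ) (B k B' k' : ℤ) (hN : N = M * q ^ e)
      (hB : B * M + k * (q : ℤ) ^ e = 1) (hN' : N * q = M * q ^ (e + 1))
      (hB' : B' * M + k' * (q : ℤ) ^ (e + 1) = 1) [NeZero N] [NeZero (N * q)],
      Nonempty (AlphaInputs A N q M e B k B' k' hN hB hN' hB' hq hqM hA ht (by omega))

/-- The inputs of the side `β` at every tame setting. -/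
def Stmt_BetaAll : Prop :=
  ∀ (A : ValuationSubring Kbar) (q M : ℕ) (hq : q.Prime) [NeZero q] [NeZero M]
    [NeZero (M * q)] [NeZero (M * q * q)]
    (hqM : ¬ q ∣ M) (hA : A.LiesOverPrime q) (ht : H91.TameAt M q), CasesE q M →
    ∀ (e : ℕ) (he : 2 ≤ e) (N : ℕ) (B k B' k' : ℤ) (hN : N = M * q ^ e)
      (hB : B * M + k * (q : ℤ) ^ e = 1) (hN' : N * q = M * q ^ (e + 1))
      (hB' : B' * M + k' * (q : ℤ) ^ (e + 1) = 1) [NeZero N] [NeZero (N * q)],
      Nonempty (BetaInputs A N q M e B k B' k' hN hB hN' hB' hq hqM hA ht (by omega))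

/-- **GLUE at every level** `M q^e`, `2 ≤ e` (helper79's tower). -/
theorem glued_all (hbase : Stmt_BaseGlueE) (hα : Stmt_AlphaAll)
    (A : ValuationSubring Kbar) (q M : ℕ) (hq : q.Prime) [NeZero q] [NeZero M]
    (hqM : ¬ q ∣ M) (hA : A.LiesOverPrime q) (ht : H91.TameAt M q) (hc : CasesE q M)
    (e : ℕ) (he : 2 ≤ e) (N : ℕ) (B k : ℤ) (hN : N = M * q ^ e)
    (hB : B * M + k * (q : ℤ) ^ e = 1) [NeZero N] :
    ∀ z ∈ ssM A q M, Glued (totEM A N q M e B k hN hB hq hqM hA ht (by omega)) z := by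
  haveI : NeZero (M * q) := ⟨Nat.mul_ne_zero (NeZero.ne M) (NeZero.ne q)⟩
  haveI : NeZero (M * q * q) := ⟨Nat.mul_ne_zero (NeZero.ne (M * q)) (NeZero.ne q)⟩
  exact glued_totEM A q M hq hqM hA ht
    (fun N B k hN hB _ => hbase A q M hq hqM hA ht hc N B k hN hB)
    (fun e he N B k B' k' hN hB hN' hB' _ _ =>
      (hα A q M hq hqM hA ht hc e he N B k B' k' hN hB hN' hB').some) e he N B k hN hB

/-- **`Stmt_NuEAll`** from GLUE at the base level and the inputs of the two sides. -/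
theorem stmt_NuEAll_of (hbase : Stmt_BaseGlueE) (hα : Stmt_AlphaAll) (hβ : Stmt_BetaAll) :
    Stmt_NuEAll := by
  intro A q M₁ M' el _ _ _ _ _ hq hNl hNu Bl kl hBl Bu ku hBu hqM hA ht hel hel2 hc
  haveI : NeZero (M' * q) := ⟨Nat.mul_ne_zero (NeZero.ne M') (NeZero.ne q)⟩
  haveI : NeZero (M' * q * q) := ⟨Nat.mul_ne_zero (NeZero.ne (M' * q)) (NeZero.ne q)⟩
  obtain ⟨Iα⟩ := hα A q M' hq hqM hA ht hc el hel2 (M₁ * q) Bl kl Bu ku hNl hBl hNu hBu
  obtain ⟨Iβ⟩ := hβ A q M' hq hqM hA ht hc el hel2 (M₁ * q) Bl kl Bu ku hNl hBl hNu hBu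
  exact exists_isNuE A q M₁ M' el hq hNl hNu Bl kl hBl Bu ku hBu hqM hA ht hel hel2 Iα Iβ
    (glued_all hbase hα A q M' hq hqM hA ht hc el hel2 (M₁ * q) Bl kl hNl hBl)

end Fermat.Agent.S45.NUE.H65

end
end
-- ==== END Fermat.Agent.S45.NUE.H65_NuEAll

-- ==== BEGIN Fermat.Agent.S45.NUE.H65_PtooE
section

/-!
# S45 / NU_e, package E-FIN (helper65): E-CUSP closed (`hptoo` of `LeavesE`, unconditional)

Level `N = M q^e`, `q ∤ M`, `e ≥ 1`, `T = totEM …`, `h : ChartInE A N T`, `C = chartInfE A N T h`.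

* `stmt_EooE_div_totEM` : helper88's `Stmt_EooE_div` (helper82's `EooE_div`);
* `stmt_CuspW_totEM` : helper88's `Stmt_CuspW` (helper73's `cuspWE`);
* `hbroo_totEM` : the branches at the cusps of the chart of `1 / j` (helper17's
  `branch_chartInfE`);
* `hptoo_totEM` : **`hptoo`**, in the form `PointDataAtT` of `H65.LeavesE`.
-/

set_option autoImplicit false
set_option synthInstance.maxHeartbeats 400000
set_option maxHeartbeats 1000000
set_option linter.style.haveILetI false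
set_option linter.unusedSectionVars false
set_option linter.unusedVariables false

noncomputable section

open ModularCurve AlgebraicCurve IntermediateField

namespace Fermat.Agent.S45.NUE.H65

open Fermat.Agent.S24 Fermat.Agent.BAD.H88 Fermat.Agent.S28 Fermat.Agent.S28.H73
  Fermat.Agent.S36.NU.H88 Fermat.Agent.S36.NU.H23
  Fermat.Agent.S36.NU.H16 Fermat.Agent.S36.NU.H24 Fermat.Agent.S36.NU.H65
  Fermat.Agent.S36.NU.H41 Fermat.Agent.S36.NU.H17 Fermat.Agent.S36.NU.H79
  Fermat.Agent.RED.H73 Fermat.Agent.RED.H17 Fermat.Agent.BAD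
  Fermat.Agent.S36.NU.H74
open Fermat.Agent.S45.NUE.H23 Fermat.Agent.S45.NUE.H74 Fermat.Agent.S45.NUE.H96

section Cusp

variable (A : ValuationSubring Kbar)
variable (N q M e : ℕ) (B k : ℤ) (hN : N = M * q ^ e) (hB : B * M + k * (q : ℤ) ^ e = 1)
  (hq : q.Prime) [NeZero N] [NeZero q] [NeZero M] (hqM : ¬ q ∣ M) (hA : A.LiesOverPrime q)
  (ht : H91.TameAt M q) (he : 0 < e)

attribute [local instance] algkE

include he in
/-- (DIV_e), closed. -/
theorem stmt_EooE_div_totEM :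
    Fermat.Agent.S45.NUE.H88.Stmt_EooE_div A N q M e B k hN hB hq :=
  fun a b ha hb hab =>
    Fermat.Agent.S45.NUE.H82.EooE_div A N q M e B k hN hB hq he a b ha hb hab

include hA in
/-- (CUSP-W_e), closed. -/
theorem stmt_CuspW_totEM :
    Fermat.Agent.S45.NUE.H88.Stmt_CuspW A N q M e B k hN hB hq := by
  intro a ha hae h1 h2 hu hE
  obtain ⟨hu', hE', hf, c, hc, hW⟩ :=
    Fermat.Agent.S45.NUE.H73.cuspWE A N q M e B k hN hB hq hA a ha hae h1 h2
  refine ⟨hf, 12, 1, 0, q ^ (a - 1), 6 * (q - 1), c, 1728, by norm_num,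
    pow_pos hq.pos _, hc, ?_⟩
  rw [pow_one, pow_zero, mul_one, Fermat.Agent.S45.NUE.H88.algebraMap_eq_C_laurentE,
    Fermat.Agent.S45.NUE.H88.algebraMap_eq_C_laurentE]
  exact hW

/-- **The branches at the cusps** of the chart of `1 / j` over the modular conservation datum. -/
theorem hbroo_totEM (h : ChartInE A N (totEM A N q M e B k hN hB hq hqM hA ht he)) :
    ∀ 𝔪 : Ideal (chartInfE A N (totEM A N q M e B k hN hB hq hqM hA ht he) h).B,
      𝔪.IsMaximal →
      (∀ β : (chartInfE A N (totEM A N q M e B k hN hB hq hqM hA ht he) h).B,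
        (β : ↥(L0 A N)) = (j0 A N)⁻¹ → β ∈ 𝔪) →
      ∀ i, (chartInfE A N (totEM A N q M e B k hN hB hq hqM hA ht he) h).Icomp i ≤ 𝔪 →
        Nonempty (Branch (chartInfE A N (totEM A N q M e B k hN hB hq hqM hA ht he) h) 𝔪 i) :=
  Fermat.Agent.S45.NUE.H17.branch_chartInfE A N q M e B k hN hB hq
    (chartInfE A N (totEM A N q M e B k hN hB hq hqM hA ht he) h)
    (fun i : Fin (e + 1) => (i : ℕ)) (fun _ => AlgHom.id (kV A) (FM A M))
    (fun i => Nat.lt_succ_iff.mp i.2) (fun _ => rfl) (fun _ _ _ _ => rfl) hqM hA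
    (inv_j0_mem_chartInfE A N _ h) (fun β => β.2)
    (fun f h1 h2 =>
      Fermat.Agent.S45.NUE.H28.critEM_chartInfE A N q M e B k hN hB hq hqM hA ht he h h1 h2)
    (Fermat.Agent.S45.NUE.H17.isIntegral_jE_Rur A N q M e B k hN hB hq
      (fun f h1 h2 =>
        Fermat.Agent.S45.NUE.H28.critEM_chart0E A N q M e B k hN hB hq hqM hA ht he h h1
          (fun i => h2 (i : ℕ) (Nat.lt_succ_iff.mp i.2))))

/-- **E-CUSP, closed: `hptoo` of `LeavesE`** for the modular conservation datum. -/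
theorem hptoo_totEM (h : ChartInE A N (totEM A N q M e B k hN hB hq hqM hA ht he))
    (SS : Set (Place (kV A) (FM A M))) :
    ∀ 𝔪 : Ideal (chartInfE A N (totEM A N q M e B k hN hB hq hqM hA ht he) h).B,
      𝔪.IsMaximal →
      (∃ i, (chartInfE A N (totEM A N q M e B k hN hB hq hqM hA ht he) h).Icomp i ≤ 𝔪) →
      (∀ β : (chartInfE A N (totEM A N q M e B k hN hB hq hqM hA ht he) h).B,
        (β : ↥(L0 A N)) = (j0 A N)⁻¹ → β ∈ 𝔪) →
      PointDataAtT (chartInfE A N (totEM A N q M e B k hN hB hq hqM hA ht he) h)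
        (totEM A N q M e B k hN hB hq hqM hA ht he) SS ((q : ℕ) : ↥(Rur A)) 𝔪 := by
  intro 𝔪 hm hi hβ
  have key := Fermat.Agent.S45.NUE.H88.hptooE_totEM A N q M e B k hN hB hq hqM hA ht he h
    (⟨totEM A N q M e B k hN hB hq hqM hA ht he, ∅, fun _ hz => hz.elim,
      fun _ hz => hz.elim⟩ :
      GlueCore Kbar ↥(L0 A N) (FN N) (kV A) (Fin (e + 1)) (Place (kV A) (FM A M))
        (kapE A M e))
    (stmt_EooE_div_totEM A N q M e B k hN hB hq he)
    (stmt_CuspW_totEM A N q M e B k hN hB hq hA)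
    (hbroo_totEM A N q M e B k hN hB hq hqM hA ht he h) 𝔪 hm hi hβ
  obtain ⟨h1, h2, h3⟩ := key
  refine ⟨h1, h2, h3.imp id ?_⟩
  rintro ⟨z, hz, -⟩
  exact hz.elim

end Cusp

end Fermat.Agent.S45.NUE.H65

end
end
-- ==== END Fermat.Agent.S45.NUE.H65_PtooE

-- ==== BEGIN Fermat.Agent.S45.NUE.H79_NuEFinal
section

/-!
# S45 / NU_e, ND_e (helper79): the modular instance of `NUDataE` in helper65's interface

`exists_isNuE_of` : `∃ D, H65.IsNuE D` at the levels `M₁ q = M' q^el ⊂ M₁ q q = M' q^(el+1)`,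
`2 ≤ el`, from

* `hbase` : GLUE at the level `M' q²` (helper60, ND-BASE-GLUE);
* `hα` : the inputs of the side `α` at all levels `e ≥ 2`;
* `hβ` : the inputs of the side `β` at the level `el`.

`alphaInputs_of`, `betaInputs_of` : the inputs of the two sides with the fields of helper33
(`single` along `α`, `unit` along `α` and `β`) filled in;
`exists_isNuE_of_rem` : `∃ D, H65.IsNuE D` from the remaining leaves (`reg` along `α`, `β`,
`double` along `α`, `single` along `β`), with the base of the GLUE tower (helper60) filled in.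
-/

set_option autoImplicit false
set_option synthInstance.maxHeartbeats 400000
set_option maxHeartbeats 1000000
set_option linter.style.haveILetI false
set_option linter.unusedSectionVars false

noncomputable section

open ModularCurve AlgebraicCurve
open Fermat.Agent.S24 Fermat.Agent.BAD.H88 Fermat.Agent.S28 Fermat.Agent.S28.H73
open Fermat.Agent.RED.H73 Fermat.Agent.RED.H17 Fermat.Agent.S36.NU.H88
open Fermat.Agent.S36.NU.H23 Fermat.Agent.S45.NUE.H23 Fermat.Agent.S36.NU.H74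
open Fermat.Agent.S45.NUE.H96

namespace Fermat.Agent.S45.NUE.H79

open Fermat.Agent.BAD Fermat.Agent.RED Fermat.Agent.S36.NU.H79 Fermat.Agent.S36.NU.H24

attribute [local instance] algkE

section Inputs

variable (A : ValuationSubring Kbar) (N q M e : ℕ) (B k B' k' : ℤ)
  (hN : N = M * q ^ e) (hB : B * M + k * (q : ℤ) ^ e = 1)
  (hN' : N * q = M * q ^ (e + 1)) (hB' : B' * M + k' * (q : ℤ) ^ (e + 1) = 1)
  (hq : q.Prime) [NeZero N] [NeZero q] [NeZero (N * q)] [NeZero M] [NeZero (M * q)]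
  [NeZero (M * q * q)] (hqM : ¬ q ∣ M) (hA : A.LiesOverPrime q) (ht : H91.TameAt M q)
  (he : 0 < e)

/-- The inputs of the side `α` from `reg` and `double` (`single`, `unit`: helper33). -/
def alphaInputs_of
    (hreg : ∀ z ∈ ssM A q M, ∀ h : ↥(L0 A (N * q)),
      (∀ P, (TuE A N q M e B' k' hN' hB' hq hqM hA ht).ρ P = z →
        RegAt P (algebraMap ↥(L0 A (N * q)) (FN (N * q)) h)) →
      ∀ Q, (TlE A N q M e B k hN hB hq hqM hA ht he).ρ Q = z →
        RegAt Q (algebraMap ↥(L0 A N) (FN N) (nmAlphaE A N q h)))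
    (hdouble : DoubleRel (TuE A N q M e B' k' hN' hB' hq hqM hA ht)
      (TlE A N q M e B k hN hB hq hqM hA ht he) (nmAlphaE A N q) (ssM A q M) id q
      (⟨e + 1, by omega⟩ : Fin (e + 2)) (⟨e, by omega⟩ : Fin (e + 2))) :
    AlphaInputs A N q M e B k B' k' hN hB hN' hB' hq hqM hA ht he where
  single := fun i hi =>
    Fermat.Agent.S45.NUE.H33.singleAlpha A N q M e B k B' k' hN hB hN' hB' hq he hqM hA ht i hi
  unit := fun h hu i' =>
    Fermat.Agent.S45.NUE.H33.unitAlphaT A N q M e B k B' k' hN hB hN' hB' hq he hqM hA ht h hu i'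
  reg := hreg
  double := hdouble

/-- The inputs of the side `β` from `single` and `reg` (`unit`: helper33). -/
def betaInputs_of
    (hsingle : ∀ i : Fin (e + 2), 2 ≤ (i : ℕ) →
      SingleRel (TuE A N q M e B' k' hN' hB' hq hqM hA ht)
        (TlE A N q M e B k hN hB hq hqM hA ht he) (nmBetaE A N q) (ssM A q M)
        (betaM A q M hq hqM hA).symm q i)
    (hreg : ∀ z ∈ ssM A q M, ∀ h : ↥(L0 A (N * q)),
      (∀ P, (TuE A N q M e B' k' hN' hB' hq hqM hA ht).ρ P = z →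
        RegAt P (algebraMap ↥(L0 A (N * q)) (FN (N * q)) h)) →
      ∀ Q, (TlE A N q M e B k hN hB hq hqM hA ht he).ρ Q = (betaM A q M hq hqM hA).symm z →
        RegAt Q (algebraMap ↥(L0 A N) (FN N) (nmBetaE A N q h))) :
    BetaInputs A N q M e B k B' k' hN hB hN' hB' hq hqM hA ht he where
  single := hsingle
  unit := fun h hu i' =>
    Fermat.Agent.S45.NUE.H33.unitBetaT A N q M e B k B' k' hN hB hN' hB' hq he hqM hA ht h hu i'
  reg := hreg

end Inputs

section Final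

variable (A : ValuationSubring Kbar) (q M₁ M' el : ℕ) [NeZero M₁] [NeZero q] [NeZero M']
  [NeZero (M₁ * q)] [NeZero (M₁ * q * q)] (hq : q.Prime)
  (hNl : M₁ * q = M' * q ^ el) (hNu : M₁ * q * q = M' * q ^ (el + 1))
  (Bl kl : ℤ) (hBl : Bl * M' + kl * (q : ℤ) ^ el = 1)
  (Bu ku : ℤ) (hBu : Bu * M' + ku * (q : ℤ) ^ (el + 1) = 1)
  (hqM : ¬ q ∣ M') (hA : A.LiesOverPrime q) (ht : H91.TameAt M' q)

/-- **ND_e**: the modular instance of `NUDataE`, from the base of the GLUE tower and the inputs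
of the two sides. -/
theorem exists_isNuE_of (hel : 2 ≤ el)
    (hbase : ∀ (N : ℕ) (B k : ℤ) (hN : N = M' * q ^ 2) (hB : B * M' + k * (q : ℤ) ^ 2 = 1)
      [NeZero N], ∀ z ∈ ssM A q M',
        Glued (totEM A N q M' 2 B k hN hB hq hqM hA ht (by norm_num)) z)
    (hα : ∀ (e : ℕ) (he : 2 ≤ e) (N : ℕ) (B k B' k' : ℤ) (hN : N = M' * q ^ e)
      (hB : B * M' + k * (q : ℤ) ^ e = 1) (hN' : N * q = M' * q ^ (e + 1))
      (hB' : B' * M' + k' * (q : ℤ) ^ (e + 1) = 1) [NeZero N] [NeZero (N * q)],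
      AlphaInputs A N q M' e B k B' k' hN hB hN' hB' hq hqM hA ht (by omega))
    (Iβ : BetaInputs A (M₁ * q) q M' el Bl kl Bu ku hNl hBl hNu hBu hq hqM hA ht (by omega)) :
    ∃ D : Fermat.Agent.S45.NUE.H65.NUDataEM A q M₁ M' el,
      Fermat.Agent.S45.NUE.H65.IsNuE A q M₁ M' el hq hNl hNu Bl kl hBl Bu ku hBu hqM hA ht
        (by omega) D :=
  ⟨nuDataE A (M₁ * q) q M' el Bl kl Bu ku hNl hBl hNu hBu hq hqM hA ht hel
      (hα el hel (M₁ * q) Bl kl Bu ku hNl hBl hNu hBu) Iβ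
      (glued_totEM A q M' hq hqM hA ht hbase hα el hel (M₁ * q) Bl kl hNl hBl),
    ⟨rfl, rfl, rfl, rfl, fun _ => rfl, fun _ => rfl⟩⟩

/-- **ND_e** from the remaining leaves: `reg` and `double` along `α` at all levels `e ≥ 2`,
`single` and `reg` along `β` at the level `el`. -/
theorem exists_isNuE_of_rem (hel : 2 ≤ el)
    (hregα : ∀ (e : ℕ) (he : 2 ≤ e) (N : ℕ) (B k B' k' : ℤ) (hN : N = M' * q ^ e)
      (hB : B * M' + k * (q : ℤ) ^ e = 1) (hN' : N * q = M' * q ^ (e + 1))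
      (hB' : B' * M' + k' * (q : ℤ) ^ (e + 1) = 1) [NeZero N] [NeZero (N * q)],
      ∀ z ∈ ssM A q M', ∀ h : ↥(L0 A (N * q)),
        (∀ P, (TuE A N q M' e B' k' hN' hB' hq hqM hA ht).ρ P = z →
          RegAt P (algebraMap ↥(L0 A (N * q)) (FN (N * q)) h)) →
        ∀ Q, (TlE A N q M' e B k hN hB hq hqM hA ht (by omega)).ρ Q = z →
          RegAt Q (algebraMap ↥(L0 A N) (FN N) (nmAlphaE A N q h)))
    (hdoubleα : ∀ (e : ℕ) (he : 2 ≤ e) (N : ℕ) (B k B' k' : ℤ) (hN : N = M' * q ^ e)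
      (hB : B * M' + k * (q : ℤ) ^ e = 1) (hN' : N * q = M' * q ^ (e + 1))
      (hB' : B' * M' + k' * (q : ℤ) ^ (e + 1) = 1) [NeZero N] [NeZero (N * q)],
      DoubleRel (TuE A N q M' e B' k' hN' hB' hq hqM hA ht)
        (TlE A N q M' e B k hN hB hq hqM hA ht (by omega)) (nmAlphaE A N q) (ssM A q M') id q
        (⟨e + 1, by omega⟩ : Fin (e + 2)) (⟨e, by omega⟩ : Fin (e + 2)))
    (hsingleβ : ∀ i : Fin (el + 2), 2 ≤ (i : ℕ) →
      SingleRel (TuE A (M₁ * q) q M' el Bu ku hNu hBu hq hqM hA ht)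
        (TlE A (M₁ * q) q M' el Bl kl hNl hBl hq hqM hA ht (by omega)) (nmBetaE A (M₁ * q) q)
        (ssM A q M') (betaM A q M' hq hqM hA).symm q i)
    (hregβ : ∀ z ∈ ssM A q M', ∀ h : ↥(L0 A (M₁ * q * q)),
      (∀ P, (TuE A (M₁ * q) q M' el Bu ku hNu hBu hq hqM hA ht).ρ P = z →
        RegAt P (algebraMap ↥(L0 A (M₁ * q * q)) (FN (M₁ * q * q)) h)) →
      ∀ Q, (TlE A (M₁ * q) q M' el Bl kl hNl hBl hq hqM hA ht (by omega)).ρ Q
          = (betaM A q M' hq hqM hA).symm z →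
        RegAt Q (algebraMap ↥(L0 A (M₁ * q)) (FN (M₁ * q)) (nmBetaE A (M₁ * q) q h))) :
    ∃ D : Fermat.Agent.S45.NUE.H65.NUDataEM A q M₁ M' el,
      Fermat.Agent.S45.NUE.H65.IsNuE A q M₁ M' el hq hNl hNu Bl kl hBl Bu ku hBu hqM hA ht
        (by omega) D := by
  haveI : NeZero (M' * q) := ⟨Nat.mul_ne_zero (NeZero.ne M') (NeZero.ne q)⟩
  haveI : NeZero (M' * q * q) := ⟨Nat.mul_ne_zero (NeZero.ne (M' * q)) (NeZero.ne q)⟩
  refine exists_isNuE_of A q M₁ M' el hq hNl hNu Bl kl hBl Bu ku hBu hqM hA ht hel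
    (fun N B k hN hB _ z hz =>
      Fermat.Agent.S45.NUE.H60.glued_totEM_two A N q M' B k hN hB hq hqM hA ht z hz)
    (fun e he N B k B' k' hN hB hN' hB' _ _ =>
      alphaInputs_of A N q M' e B k B' k' hN hB hN' hB' hq hqM hA ht (by omega)
        (hregα e he N B k B' k' hN hB hN' hB') (hdoubleα e he N B k B' k' hN hB hN' hB'))
    (betaInputs_of A (M₁ * q) q M' el Bl kl Bu ku hNl hBl hNu hBu hq hqM hA ht (by omega)
      hsingleβ hregβ)

end Final

end Fermat.Agent.S45.NUE.H79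

end
end
-- ==== END Fermat.Agent.S45.NUE.H79_NuEFinal

-- ==== BEGIN Fermat.Agent.S45.NUE.H79_SingleBeta
section

/-!
# S45 / NU_e, ND_e (helper79): the single components along `β`

Levels `N = M q ^ e` (lower, `e > 0`) and `N q = M q ^ (e + 1)` (upper), `q ∤ M`, `A` over `q`;
the mirror image of helper33's `H33_SideE` (single components along `α`).

* `normBeta_wild_gen`, `normBeta_insep_gen` : the norm–reduction formulas of `H33_NormFinal`
  along `β` for a generic level `N` (`sE`-form);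
* `singleBetaWild` (`2 ≤ a`, `2 a ≤ e + 1`), `singleBetaInsep` (`2 ≤ a`, `e + 2 ≤ 2 a`),
  **`singleBeta`** (`2 ≤ a`) :
  `H79.SingleRel Tu Tl (nmBetaE A N q) (ssM A q M) (betaM A q M hq hqM hA).symm q i`.
-/

set_option autoImplicit false
set_option linter.style.haveILetI false
set_option linter.unusedSectionVars false
set_option linter.unusedVariables false
set_option synthInstance.maxHeartbeats 400000
set_option maxHeartbeats 1000000

noncomputable section

namespace Fermat.Agent.S45.NUE.H79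

open AlgebraicCurve ModularCurve Fermat.Agent.S24 Fermat.Agent.Lib.HeckeComm
  Fermat.Agent.S36.H44 Fermat.Agent.BAD Fermat.Agent.BAD.H88
  Fermat.Agent.S36.NU.H26 Fermat.Agent.S45.NUE.H51 Fermat.Agent.S45.NUE.H23
  Fermat.Agent.S28 Fermat.Agent.S28.H73 Fermat.Agent.RED.H73 Fermat.Agent.RED.H17
  Fermat.Agent.S36.NU.H79 Fermat.Agent.S36.NU.H88 Fermat.Agent.S36.NU.H23
  Fermat.Agent.S45.NUE.H33

attribute [local instance] Fermat.Agent.S45.NUE.H23.algkE

section SingleBeta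

variable (A : ValuationSubring Kbar) (N q M e : ℕ) (B k B' k' : ℤ) (hN : N = M * q ^ e)
  (hB : B * M + k * (q : ℤ) ^ e = 1)
  (hN' : N * q = M * q ^ (e + 1)) (hB' : B' * M + k' * (q : ℤ) ^ (e + 1) = 1) (hq : q.Prime)
  [NeZero N] [NeZero q] [NeZero (N * q)] [NeZero M] [NeZero (M * q)] [NeZero (M * q * q)]
  (he : 0 < e) (hqM : ¬ q ∣ M) (hA : A.LiesOverPrime q) (ht : H91.TameAt M q)

include hqM hA he in
/-- **NORM-RED along `β`, wild shape** (`2 ≤ a`, `2 a ≤ e + 1`), generic level. -/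
theorem normBeta_wild_gen (a : ℕ) (ha2 : 2 ≤ a) (h2 : 2 * a ≤ e + 1)
    (f : ↥(L0 A (N * q))) (hf : f ∈ VE A (N * q) q M (e + 1) B' k' hN' hB' hq a) :
    ∃ hm : Fermat.Agent.S45.NUE.H96.nmBetaE A N q f ∈ VE A N q M e B k hN hB hq (a - 1),
      _root_.Fermat.Agent.S45.NUE.H23.sE A N q M e B k hN hB hq (a - 1) ⟨_, hm⟩
        = _root_.Fermat.Agent.S45.NUE.H23.sE A (N * q) q M (e + 1) B' k' hN' hB' hq a ⟨f, hf⟩ ^ q := by
  obtain ⟨M₁, rfl⟩ := exists_level N q M e hN he
  haveI : NeZero M₁ := ⟨fun h0 => NeZero.ne (M₁ * q) (by rw [h0, zero_mul])⟩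
  exact normBeta_wild (coverInputs A q M₁ M e hq hN hN' B k hB B' k' hB' hqM hA)
    (redInputs A q M₁ M e hq hN hN' B k hB B' k' hB') hqM hA a ha2 h2
    (fun x => _root_.Fermat.Agent.S45.NUE.H23.sE_mem A (M₁ * q * q) q M (e + 1) B' k' hN' hB' hq hqM hA (Nat.succ_pos e) a
      (by omega) x) f hf

include hqM hA he in
/-- **NORM-RED along `β`, inseparable shape** (`2 ≤ a ≤ e + 1`, `e + 2 ≤ 2 a`), generic
level. -/
theorem normBeta_insep_gen (a : ℕ) (ha2 : 2 ≤ a) (ha : a ≤ e + 1) (h2 : e + 2 ≤ 2 * a)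
    (f : ↥(L0 A (N * q))) (hf : f ∈ VE A (N * q) q M (e + 1) B' k' hN' hB' hq a) :
    ∃ hm : Fermat.Agent.S45.NUE.H96.nmBetaE A N q f ∈ VE A N q M e B k hN hB hq (a - 1),
      qExpand (kV A) q (_root_.Fermat.Agent.S45.NUE.H23.sE A N q M e B k hN hB hq (a - 1) ⟨_, hm⟩)
        = _root_.Fermat.Agent.S45.NUE.H23.sE A (N * q) q M (e + 1) B' k' hN' hB' hq a ⟨f, hf⟩ ^ q := by
  obtain ⟨M₁, rfl⟩ := exists_level N q M e hN he
  haveI : NeZero M₁ := ⟨fun h0 => NeZero.ne (M₁ * q) (by rw [h0, zero_mul])⟩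
  exact normBeta_insep (coverInputs A q M₁ M e hq hN hN' B k hB B' k' hB' hqM hA)
    (redInputs A q M₁ M e hq hN hN' B k hB B' k' hB') hqM hA a ha2 ha h2
    (fun x => _root_.Fermat.Agent.S45.NUE.H23.sE_mem A (M₁ * q * q) q M (e + 1) B' k' hN' hB' hq hqM hA (Nat.succ_pos e) a
      (by omega) x) f hf

/-! ### The single components along `β` -/

/-- **The single components along `β`, wild shape** (`2 ≤ a`, `2 a ≤ e + 1`). -/
def singleBetaWild (i : Fin (e + 2)) (hi : 2 ≤ (i : ℕ)) (h2 : 2 * (i : ℕ) ≤ e + 1) :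
    Fermat.Agent.S45.NUE.H79.SingleRel (_root_.Fermat.Agent.S45.NUE.H33.TuE A N q M e B' k' hN' hB' hq hqM hA ht)
      (_root_.Fermat.Agent.S45.NUE.H33.TlE A N q M e B k hN hB hq he hqM hA ht)
      (Fermat.Agent.S45.NUE.H96.nmBetaE A N q) (Fermat.Agent.S36.NU.H74.ssM A q M)
      (betaM A q M hq hqM hA).symm q i where
  i' := ⟨(i : ℕ) - 1, by omega⟩
  R := Fermat.Agent.S45.NUE.H79.resIdE A M
  e := q
  deg := by
    show 1 * q = q
    rw [one_mul]
  norm := fun h hu => by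
    have hf : h ∈ VE A (N * q) q M (e + 1) B' k' hN' hB' hq (i : ℕ) :=
      (_root_.Fermat.Agent.S45.NUE.H33.TuE A N q M e B' k' hN' hB' hq hqM hA ht).mem_of_rdN_ne_zero (hu i)
    obtain ⟨hm, hs⟩ := normBeta_wild_gen A N q M e B k B' k' hN hB hN' hB' hq he hqM hA
      (i : ℕ) hi h2 h hf
    rw [(_root_.Fermat.Agent.S45.NUE.H33.TuE A N q M e B' k' hN' hB' hq hqM hA ht).rdN_of_mem hf,
      (_root_.Fermat.Agent.S45.NUE.H33.TlE A N q M e B k hN hB hq he hqM hA ht).rdN_of_mem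
        (i := (⟨(i : ℕ) - 1, by omega⟩ : Fin (e + 1))) hm]
    exact Fermat.Agent.S45.NUE.H79.wild_norm_eq A q M _ _ hs
  pt := fun z _ y c hv =>
    Fermat.Agent.S45.NUE.H79.ptE_beta_wild A q M hq hqM hA e i ⟨(i : ℕ) - 1, by omega⟩
      (by show (i : ℕ) - 1 + 1 = (i : ℕ); omega) h2 z y c hv

/-- **The single components along `β`, inseparable shape** (`2 ≤ a`, `e + 2 ≤ 2 a`). -/
def singleBetaInsep (i : Fin (e + 2)) (hi : 2 ≤ (i : ℕ)) (h2 : e + 2 ≤ 2 * (i : ℕ)) :
    Fermat.Agent.S45.NUE.H79.SingleRel (_root_.Fermat.Agent.S45.NUE.H33.TuE A N q M e B' k' hN' hB' hq hqM hA ht)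
      (_root_.Fermat.Agent.S45.NUE.H33.TlE A N q M e B k hN hB hq he hqM hA ht)
      (Fermat.Agent.S45.NUE.H96.nmBetaE A N q) (Fermat.Agent.S36.NU.H74.ssM A q M)
      (betaM A q M hq hqM hA).symm q i where
  i' := ⟨(i : ℕ) - 1, by omega⟩
  R := Fermat.Agent.S45.NUE.H79.resFrE A q M hq hqM hA
  e := 1
  deg := by
    show q * 1 = q
    rw [mul_one]
  norm := fun h hu => by
    have hf : h ∈ VE A (N * q) q M (e + 1) B' k' hN' hB' hq (i : ℕ) :=
      (_root_.Fermat.Agent.S45.NUE.H33.TuE A N q M e B' k' hN' hB' hq hqM hA ht).mem_of_rdN_ne_zero (hu i)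
    obtain ⟨hm, hs⟩ := normBeta_insep_gen A N q M e B k B' k' hN hB hN' hB' hq he hqM hA
      (i : ℕ) hi (by omega) h2 h hf
    rw [(_root_.Fermat.Agent.S45.NUE.H33.TuE A N q M e B' k' hN' hB' hq hqM hA ht).rdN_of_mem hf,
      (_root_.Fermat.Agent.S45.NUE.H33.TlE A N q M e B k hN hB hq he hqM hA ht).rdN_of_mem
        (i := (⟨(i : ℕ) - 1, by omega⟩ : Fin (e + 1))) hm, pow_one]
    exact Fermat.Agent.S45.NUE.H79.insep_norm_eq A q M hq hqM hA _ _ hs
  pt := fun z _ y c hv =>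
    Fermat.Agent.S45.NUE.H79.ptE_beta_insep A q M hq hqM hA e i ⟨(i : ℕ) - 1, by omega⟩
      (by show (i : ℕ) - 1 + 1 = (i : ℕ); omega) h2 z y c hv

/-- **The single components along `β`** (`2 ≤ a`). -/
def singleBeta (i : Fin (e + 2)) (hi : 2 ≤ (i : ℕ)) :
    Fermat.Agent.S45.NUE.H79.SingleRel (_root_.Fermat.Agent.S45.NUE.H33.TuE A N q M e B' k' hN' hB' hq hqM hA ht)
      (_root_.Fermat.Agent.S45.NUE.H33.TlE A N q M e B k hN hB hq he hqM hA ht)
      (Fermat.Agent.S45.NUE.H96.nmBetaE A N q) (Fermat.Agent.S36.NU.H74.ssM A q M)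
      (betaM A q M hq hqM hA).symm q i :=
  if h2 : 2 * (i : ℕ) ≤ e + 1 then
    singleBetaWild A N q M e B k B' k' hN hB hN' hB' hq he hqM hA ht i hi h2
  else
    singleBetaInsep A N q M e B k B' k' hN hB hN' hB' hq he hqM hA ht i hi (by omega)

theorem singleBeta_i' (i : Fin (e + 2)) (hi : 2 ≤ (i : ℕ)) :
    ((singleBeta A N q M e B k B' k' hN hB hN' hB' hq he hqM hA ht i hi).i' : ℕ)
      = (i : ℕ) - 1 := by
  unfold singleBeta
  split_ifs <;> rfl

end SingleBeta

end Fermat.Agent.S45.NUE.H79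

end
end
-- ==== END Fermat.Agent.S45.NUE.H79_SingleBeta

-- ==== BEGIN Fermat.Agent.S45.NUE.H81_DoubleRel
section

/-!
# S45 / NU_e, ND_e: the DOUBLE component along `α` (helper81)

The field `double` of `H79.AlphaInputs`: the two valuations `a = e + 1` (Gauss at `∞`) and
`a = e` (cusp `1/(q^e M)`) of the upper level `N q = M q^(e+1)` lie over the Gauss valuation
`a = e` of the lower level `N = M q^e`, with `R₁ = R₂ = resIdE` (residue degree `1`) and
ramification indices `1` and `q - 1`; the norm formula is helper5's `normDouble_E`.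

* `doubleAlpha : H79.DoubleRel (TuE ..) (TlE ..) (nmAlphaE A N q) (ssM A q M) id q ⟨e+1,_⟩ ⟨e,_⟩`.
-/

set_option autoImplicit false
set_option synthInstance.maxHeartbeats 400000
set_option maxHeartbeats 1000000
set_option linter.style.haveILetI false
set_option linter.unusedSectionVars false
set_option linter.unusedVariables false

noncomputable section

open ModularCurve AlgebraicCurve
open Fermat.Agent.S24 Fermat.Agent.BAD.H88 Fermat.Agent.S28 Fermat.Agent.S28.H73
open Fermat.Agent.RED.H73 Fermat.Agent.RED.H17 Fermat.Agent.S36.NU.H88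
open Fermat.Agent.S36.NU.H23 Fermat.Agent.S45.NUE.H23 Fermat.Agent.S36.NU.H74
open Fermat.Agent.S45.NUE.H96

namespace Fermat.Agent.S45.NUE.H81

open Fermat.Agent.BAD Fermat.Agent.RED Fermat.Agent.S36.NU.H79 Fermat.Agent.S36.NU.H24
open Fermat.Agent.S45.NUE.H79

attribute [local instance] algkE

section DoubleAlpha

variable (A : ValuationSubring Kbar) (N q M e : ℕ) (B k B' k' : ℤ)
  (hN : N = M * q ^ e) (hB : B * M + k * (q : ℤ) ^ e = 1)
  (hN' : N * q = M * q ^ (e + 1)) (hB' : B' * M + k' * (q : ℤ) ^ (e + 1) = 1)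
  (hq : q.Prime) [NeZero N] [NeZero q] [NeZero (N * q)] [NeZero M] [NeZero (M * q)]
  [NeZero (M * q * q)] (hqM : ¬ q ∣ M) (hA : A.LiesOverPrime q) (ht : H91.TameAt M q)
  (he : 0 < e)

/-- The two memberships of a unit. -/
theorem doubleAlpha_mem (h : ↥(L0 A (N * q)))
    (hu : ∀ j, (TuE A N q M e B' k' hN' hB' hq hqM hA ht).rdN j h ≠ 0) :
    h ∈ VE A (N * q) q M (e + 1) B' k' hN' hB' hq (e + 1) ∧
      h ∈ VE A (N * q) q M (e + 1) B' k' hN' hB' hq e := by
  have h1 : h ∈ (TuE A N q M e B' k' hN' hB' hq hqM hA ht).V (⟨e + 1, by omega⟩ : Fin (e + 2)) :=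
    (TuE A N q M e B' k' hN' hB' hq hqM hA ht).mem_of_rdN_ne_zero
      (i := (⟨e + 1, by omega⟩ : Fin (e + 2))) (hu _)
  have h2 : h ∈ (TuE A N q M e B' k' hN' hB' hq hqM hA ht).V (⟨e, by omega⟩ : Fin (e + 2)) :=
    (TuE A N q M e B' k' hN' hB' hq hqM hA ht).mem_of_rdN_ne_zero
      (i := (⟨e, by omega⟩ : Fin (e + 2))) (hu _)
  exact ⟨h1, h2⟩

/-- The norm formula of the double component, in `FM A M`. -/
theorem doubleAlpha_red (h : ↥(L0 A (N * q)))
    (htop : h ∈ VE A (N * q) q M (e + 1) B' k' hN' hB' hq (e + 1))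
    (hmid : h ∈ VE A (N * q) q M (e + 1) B' k' hN' hB' hq e) :
    ∃ hmem : nmAlphaE A N q h ∈ VE A N q M e B k hN hB hq e,
      rEM A N q M e B k hN hB hq hqM hA he e le_rfl ⟨nmAlphaE A N q h, hmem⟩
        = rEM A (N * q) q M (e + 1) B' k' hN' hB' hq hqM hA (Nat.succ_pos e) (e + 1) le_rfl
            ⟨h, htop⟩
          * rEM A (N * q) q M (e + 1) B' k' hN' hB' hq hqM hA (Nat.succ_pos e) e
            (Nat.le_succ e) ⟨h, hmid⟩ ^ (q - 1) := by
  obtain ⟨δ, h1, h2⟩ := Fermat.Agent.S45.NUE.H5.normDouble_E A N q M e B k B' k' hN hB hN' hB' hq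
    (Nat.succ_le_of_lt he) hqM hA h htop hmid
  have hδ : nmAlphaE A N q h = (δ : ↥(L0 A N)) := by
    apply Subtype.ext
    rw [coe_nmAlphaE]
    exact h1
  have hmem : nmAlphaE A N q h ∈ VE A N q M e B k hN hB hq e := by
    rw [hδ]; exact δ.2
  refine ⟨hmem, ?_⟩
  have e1 : (⟨nmAlphaE A N q h, hmem⟩ : ↥(VE A N q M e B k hN hB hq e)) = δ := Subtype.ext hδ
  rw [e1]
  apply Subtype.ext
  rw [coe_rEM, h2]
  rfl

/-- **The double component `(e + 1, e)` over `e` along `α`.** -/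
def doubleAlpha :
    DoubleRel (TuE A N q M e B' k' hN' hB' hq hqM hA ht)
      (TlE A N q M e B k hN hB hq hqM hA ht he) (nmAlphaE A N q) (ssM A q M) id q
      (⟨e + 1, by omega⟩ : Fin (e + 2)) (⟨e, by omega⟩ : Fin (e + 2)) where
  i' := ⟨e, by omega⟩
  R₁ := resIdE A M
  R₂ := resIdE A M
  e₁ := 1
  e₂ := q - 1
  deg := by
    have := hq.one_lt
    show 1 * 1 + 1 * (q - 1) = q
    omega
  pos₁ := by
    show 0 < 1 * 1
    omega
  pos₂ := by
    have := hq.one_lt
    show 0 < 1 * (q - 1)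
    omega
  norm := fun h hu => by
    obtain ⟨htop, hmid⟩ := doubleAlpha_mem A N q M e B' k' hN' hB' hq hqM hA ht h hu
    obtain ⟨hmem, hred⟩ := doubleAlpha_red A N q M e B k B' k' hN hB hN' hB' hq hqM hA he h
      htop hmid
    refine ((TlE A N q M e B k hN hB hq hqM hA ht he).rdN_of_mem
      (i := (⟨e, by omega⟩ : Fin (e + 1))) hmem).trans ?_
    have t1 := (TuE A N q M e B' k' hN' hB' hq hqM hA ht).rdN_of_mem
      (i := (⟨e + 1, by omega⟩ : Fin (e + 2))) htop
    have t2 := (TuE A N q M e B' k' hN' hB' hq hqM hA ht).rdN_of_mem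
      (i := (⟨e, by omega⟩ : Fin (e + 2))) hmid
    rw [t1, t2]
    exact hred.trans (by rw [pow_one]; rfl)
  pt₁ := fun z _ y c h => by
    have h' : HasValue (ptE A q M (e + 1) hq hqM hA (⟨e + 1, by omega⟩ : Fin (e + 2)) z) y c := h
    rw [ptE_eq_self A q M hq hqM hA (e + 1) _ (by show e + 1 ≤ 2 * (e + 1); omega) z] at h'
    show HasValue (ptE A q M e hq hqM hA (⟨e, by omega⟩ : Fin (e + 1)) z) y c
    rw [ptE_eq_self A q M hq hqM hA e _ (by show e ≤ 2 * e; omega) z]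
    exact h'
  pt₂ := fun z _ y c h => by
    have h' : HasValue (ptE A q M (e + 1) hq hqM hA (⟨e, by omega⟩ : Fin (e + 2)) z) y c := h
    rw [ptE_eq_self A q M hq hqM hA (e + 1) _ (by show e + 1 ≤ 2 * e; omega) z] at h'
    show HasValue (ptE A q M e hq hqM hA (⟨e, by omega⟩ : Fin (e + 1)) z) y c
    rw [ptE_eq_self A q M hq hqM hA e _ (by show e ≤ 2 * e; omega) z]
    exact h'

end DoubleAlpha

end Fermat.Agent.S45.NUE.H81

end
end
-- ==== END Fermat.Agent.S45.NUE.H81_DoubleRel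

-- ==== BEGIN Fermat.Agent.S45.NUE.H99_OrdFinal
section

/-!
# S45 / NU_e, leaf E-PT-ORD (helper99): the hypothesis `hord` on the chart of `j` of `totEM`

Level `N = M q^e`, `q ∤ M`, `e ≥ 1`, `T = totEM …` (helper23), `h : ChartInE A N T` (helper81),
chart `chart0E A N T h` with helper74's `ChartE` instance, helper82's statements on the
witnesses `EwE`.

* `witE0` : the ordinary witnesses of the chart of `j` (`coe_witE0 : witE0 i = EwE i`);
* `hordE_totEM_of_cert` : **`hord`** of `H88.pointDataE_of_dichotomy` from the certificates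
  `MidCertE a`, `0 < a < e`;
* `hordE_totEM_five` : **`hord`**, unconditional, for `q ≥ 5`, `4 ∣ M`.
-/

set_option autoImplicit false
set_option synthInstance.maxHeartbeats 400000
set_option maxHeartbeats 1000000
set_option linter.unusedSectionVars false
set_option linter.unusedVariables false
set_option linter.style.haveILetI false

noncomputable section

open ModularCurve AlgebraicCurve IntermediateField
open Fermat.Agent.S24 Fermat.Agent.BAD.H88 Fermat.Agent.S28 Fermat.Agent.S28.H73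
  Fermat.Agent.S36.NU.H88 Fermat.Agent.S36.NU.H23
  Fermat.Agent.S36.NU.H16 Fermat.Agent.S36.NU.H24 Fermat.Agent.S36.NU.H65
  Fermat.Agent.S36.NU.H41 Fermat.Agent.S36.NU.H17 Fermat.Agent.S36.NU.H79
  Fermat.Agent.RED.H73 Fermat.Agent.RED.H17 Fermat.Agent.BAD
open Fermat.Agent.S45.NUE.H23 Fermat.Agent.S45.NUE.H74

namespace Fermat.Agent.S45.NUE.H99

section Inst

variable (A : ValuationSubring Kbar)
variable (N q M e : ℕ) (B k : ℤ) (hN : N = M * q ^ e) (hB : B * M + k * (q : ℤ) ^ e = 1)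
  (hq : q.Prime) [NeZero N] [NeZero q] [NeZero M] (hqM : ¬ q ∣ M) (hA : A.LiesOverPrime q)
  (ht : H91.TameAt M q) (he : 0 < e)

attribute [local instance] algkE

/-- **The ordinary witnesses** of the chart of `j` over `totEM`. -/
def witE0 (h : ChartInE A N (totEM A N q M e B k hN hB hq hqM hA ht he)) (i : Fin (e + 1)) :
    (chart0E A N (totEM A N q M e B k hN hB hq hqM hA ht he) h).B :=
  (H74.chartE_chart0E A N q M e B k hN hB hq hqM hA ht he h).witE
    (H82.stmt_EwE_mem A N q M e B k hN hB hq he) i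

theorem coe_witE0 (h : ChartInE A N (totEM A N q M e B k hN hB hq hqM hA ht he))
    (i : Fin (e + 1)) :
    ((witE0 A N q M e B k hN hB hq hqM hA ht he h i :
        (chart0E A N (totEM A N q M e B k hN hB hq hqM hA ht he) h).B) : ↥(L0 A N))
      = H82.EwE A N q e (i : ℕ) := rfl

/-- **`hord` on the chart of `j`**, from the certificates of the components `0 < a < e`. -/
theorem hordE_totEM_of_cert (h : ChartInE A N (totEM A N q M e B k hN hB hq hqM hA ht he))
    (hcert : ∀ (a : ℕ) (ha1 : 1 ≤ a) (hae : a < e), MidCertE A N q M e B k hN hB hq a ha1 hae) :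
    ∀ 𝔪 : Ideal (chart0E A N (totEM A N q M e B k hN hB hq hqM hA ht he) h).B, 𝔪.IsMaximal →
      ∀ i, (chart0E A N (totEM A N q M e B k hN hB hq hqM hA ht he) h).Icomp i ≤ 𝔪 →
        witE0 A N q M e B k hN hB hq hqM hA ht he h i ∉ 𝔪 →
        Nonempty (LocEq (chart0E A N (totEM A N q M e B k hN hB hq hqM hA ht he) h)
            ((q : ℕ) : ↥(Rur A)) 𝔪)
          ∧ ∀ i', (chart0E A N (totEM A N q M e B k hN hB hq hqM hA ht he) h).Icomp i' ≤ 𝔪 →
            i' = i :=
  hordE (hq := hq) (H74.chartE_chart0E A N q M e B k hN hB hq hqM hA ht he h) hA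
    (H82.stmt_EwE_mem A N q M e B k hN hB hq he)
    (H82.stmt_EwE_div A N q M e B k hN hB hq he)
    (H82.stmt_EwE_red A N q M e B k hN hB hq he hA) hcert

/-- **`hord` on the chart of `j`**, unconditional, for `q ≥ 5`, `4 ∣ M`. -/
theorem hordE_totEM_five (h5 : 5 ≤ q) (h4 : 4 ∣ M)
    (h : ChartInE A N (totEM A N q M e B k hN hB hq hqM hA ht he)) :
    ∀ 𝔪 : Ideal (chart0E A N (totEM A N q M e B k hN hB hq hqM hA ht he) h).B, 𝔪.IsMaximal →
      ∀ i, (chart0E A N (totEM A N q M e B k hN hB hq hqM hA ht he) h).Icomp i ≤ 𝔪 →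
        witE0 A N q M e B k hN hB hq hqM hA ht he h i ∉ 𝔪 →
        Nonempty (LocEq (chart0E A N (totEM A N q M e B k hN hB hq hqM hA ht he) h)
            ((q : ℕ) : ↥(Rur A)) 𝔪)
          ∧ ∀ i', (chart0E A N (totEM A N q M e B k hN hB hq hqM hA ht he) h).Icomp i' ≤ 𝔪 →
            i' = i :=
  hordE_totEM_of_cert A N q M e B k hN hB hq hqM hA ht he h fun a ha1 hae =>
    midCertE_u4 A N q M e B k hN hB hq hA h5 h4 a ha1 hae

end Inst

end Fermat.Agent.S45.NUE.H99

end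
end
-- ==== END Fermat.Agent.S45.NUE.H99_OrdFinal

-- ==== BEGIN Fermat.Agent.S45.NUE.H65_Close
section

/-!
# S45 / NU_e, package E-FIN (helper65): the close of `Stmt_NUCoreETame`

* `Stmt_Pt0EAll` : E-PT (`hpt0`) at every tame level `N = M q^e` (GLUE and `deg = 1` at the
  supersingular points as hypotheses);
* `stmt_LeavesEAll_of` : `Stmt_LeavesEAll` from `Stmt_Pt0EAll` (E-CHART, E-RADQ, `hL`:
  helper54's `leavesE_of_pt`; E-CUSP: `hptoo_totEM`);
* `nuCoreETame_close` : **`Stmt_NUCoreETame`** from `Stmt_NuEAll` (ND_e) and `Stmt_Pt0EAll`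
  (E-PT).
-/

set_option autoImplicit false
set_option synthInstance.maxHeartbeats 400000
set_option maxHeartbeats 1000000
set_option linter.style.haveILetI false
set_option linter.unusedSectionVars false
set_option linter.unusedVariables false

noncomputable section

open ModularCurve AlgebraicCurve IntermediateField

namespace Fermat.Agent.S45.NUE.H65

open Fermat.Agent.S24 Fermat.Agent.BAD.H88 Fermat.Agent.S36.NU.H23 Fermat.Agent.S36.NU.H81
  Fermat.Agent.S45.NUE.H79 Fermat.Agent.S45.NUE.H23 Fermat.Agent.BAD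
  Fermat.Agent.S36.NU.H74 Fermat.Agent.S45.NUE.H96 Fermat.Agent.S36.NU.H79
  Fermat.Agent.S36.NU.H24 Fermat.Agent.S45.NUE.H74 Fermat.Agent.S36.NU.H16
  Fermat.Agent.S36.NU.H41 Fermat.Agent.S36.NU.H88 Fermat.Agent.S36.NU.H17
  Fermat.Agent.RED.H17 Fermat.Agent.RED

attribute [local instance] algkE

/-- **E-PT at every tame level** `N = M q^e`: the local data at the closed points of the chart
of `j` over the modular conservation datum, from GLUE and `deg = 1` at the supersingular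
points. -/
def Stmt_Pt0EAll : Prop :=
  ∀ (A : ValuationSubring Kbar) (N q M e : ℕ) (B k : ℤ) (hN : N = M * q ^ e)
    (hB : B * M + k * (q : ℤ) ^ e = 1) (hq : q.Prime) [NeZero N] [NeZero q] [NeZero M]
    (hqM : ¬ q ∣ M) (hA : A.LiesOverPrime q) (ht : H91.TameAt M q) (he : 0 < e),
    CasesE q M →
    ∀ h : ChartInE A N (totEM A N q M e B k hN hB hq hqM hA ht he),
    (∀ z ∈ ssM A q M, Glued (totEM A N q M e B k hN hB hq hqM hA ht he) z) →
    (∀ z ∈ ssM A q M, ∀ i, ((totEM A N q M e B k hN hB hq hqM hA ht he).pt i z).deg = 1) →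
    PointDataT (chart0E A N (totEM A N q M e B k hN hB hq hqM hA ht he) h)
      (totEM A N q M e B k hN hB hq hqM hA ht he) (ssM A q M) ((q : ℕ) : ↥(Rur A))

/-- **`Stmt_LeavesEAll`** from E-PT. -/
theorem stmt_LeavesEAll_of (hpt0 : Stmt_Pt0EAll) : Stmt_LeavesEAll := by
  intro A q M₁ M' el _ _ _ _ _ hq hNl hNu Bl kl hBl Bu ku hBu hqM hA ht hel hel2 hc
  exact Fermat.Agent.S45.NUE.H54.leavesE_of_pt A q M₁ M' el hq hNl hNu Bl kl hBl Bu ku hBu hqM
    hA ht hel
    (hpt0 A (M₁ * q * q) q M' (el + 1) Bu ku hNu hBu hq hqM hA ht (Nat.succ_pos el) hc _)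
    (hptoo_totEM A (M₁ * q * q) q M' (el + 1) Bu ku hNu hBu hq hqM hA ht (Nat.succ_pos el) _
      (ssM A q M'))

/-- **THE TARGET `Stmt_NUCoreETame`** from ND_e and E-PT. -/
theorem nuCoreETame_close (hNu : Stmt_NuEAll) (hpt0 : Stmt_Pt0EAll) : Stmt_NUCoreETame :=
  nuCoreETame_of_leaves hNu (stmt_LeavesEAll_of hpt0)

end Fermat.Agent.S45.NUE.H65

end
end
-- ==== END Fermat.Agent.S45.NUE.H65_Close

-- ==== BEGIN Fermat.Agent.S45.NUE.H79_NuEAll
section

/-!
# S45 / NU_e, ND_e (helper79): the statements of helper65's frame (`H65_NuEAll`)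

* `stmt_BaseGlueE : H65.Stmt_BaseGlueE` (helper60's base of the GLUE tower);
* `Stmt_RegAlphaAll`, `Stmt_DoubleAlphaAll`, `Stmt_SingleBetaAll`, `Stmt_RegBetaAll` : the
  remaining leaves at every tame setting;
* `stmt_AlphaAll_of`, `stmt_BetaAll_of` : `H65.Stmt_AlphaAll`, `H65.Stmt_BetaAll` from the leaves
  (`single` along `α`, `unit` along `α`, `β` : helper33);
* `stmt_NuEAll_of_leaves` : `H65.Stmt_NuEAll` from the four leaves.
-/

set_option autoImplicit false
set_option synthInstance.maxHeartbeats 400000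
set_option maxHeartbeats 1000000
set_option linter.style.haveILetI false
set_option linter.unusedSectionVars false

noncomputable section

open ModularCurve AlgebraicCurve
open Fermat.Agent.S24 Fermat.Agent.BAD.H88 Fermat.Agent.S28 Fermat.Agent.S28.H73
open Fermat.Agent.RED.H73 Fermat.Agent.RED.H17 Fermat.Agent.S36.NU.H88
open Fermat.Agent.S36.NU.H23 Fermat.Agent.S45.NUE.H23 Fermat.Agent.S36.NU.H74
open Fermat.Agent.S45.NUE.H96

namespace Fermat.Agent.S45.NUE.H79

open Fermat.Agent.BAD Fermat.Agent.RED Fermat.Agent.S36.NU.H79 Fermat.Agent.S36.NU.H24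

attribute [local instance] algkE

/-- **GLUE at the base level** `e = 2` (helper60). -/
theorem stmt_BaseGlueE : Fermat.Agent.S45.NUE.H65.Stmt_BaseGlueE :=
  fun A q M hq _ _ hqM hA ht _ N B k hN hB _ z hz =>
    Fermat.Agent.S45.NUE.H60.glued_totEM_two A N q M B k hN hB hq hqM hA ht z hz

/-- REG along `α` at every tame setting. -/
def Stmt_RegAlphaAll : Prop :=
  ∀ (A : ValuationSubring Kbar) (q M : ℕ) (hq : q.Prime) [NeZero q] [NeZero M]
    [NeZero (M * q)] [NeZero (M * q * q)]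
    (hqM : ¬ q ∣ M) (hA : A.LiesOverPrime q) (ht : H91.TameAt M q),
    Fermat.Agent.S45.NUE.H65.CasesE q M →
    ∀ (e : ℕ) (he : 2 ≤ e) (N : ℕ) (B k B' k' : ℤ) (hN : N = M * q ^ e)
      (hB : B * M + k * (q : ℤ) ^ e = 1) (hN' : N * q = M * q ^ (e + 1))
      (hB' : B' * M + k' * (q : ℤ) ^ (e + 1) = 1) [NeZero N] [NeZero (N * q)],
      ∀ z ∈ ssM A q M, ∀ h : ↥(L0 A (N * q)),
        (∀ P, (TuE A N q M e B' k' hN' hB' hq hqM hA ht).ρ P = z →
          RegAt P (algebraMap ↥(L0 A (N * q)) (FN (N * q)) h)) →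
        ∀ Q, (TlE A N q M e B k hN hB hq hqM hA ht (by omega)).ρ Q = z →
          RegAt Q (algebraMap ↥(L0 A N) (FN N) (nmAlphaE A N q h))

/-- DOUBLE along `α` at every tame setting. -/
def Stmt_DoubleAlphaAll : Prop :=
  ∀ (A : ValuationSubring Kbar) (q M : ℕ) (hq : q.Prime) [NeZero q] [NeZero M]
    [NeZero (M * q)] [NeZero (M * q * q)]
    (hqM : ¬ q ∣ M) (hA : A.LiesOverPrime q) (ht : H91.TameAt M q),
    Fermat.Agent.S45.NUE.H65.CasesE q M →
    ∀ (e : ℕ) (he : 2 ≤ e) (N : ℕ) (B k B' k' : ℤ) (hN : N = M * q ^ e)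
      (hB : B * M + k * (q : ℤ) ^ e = 1) (hN' : N * q = M * q ^ (e + 1))
      (hB' : B' * M + k' * (q : ℤ) ^ (e + 1) = 1) [NeZero N] [NeZero (N * q)],
      Nonempty (DoubleRel (TuE A N q M e B' k' hN' hB' hq hqM hA ht)
        (TlE A N q M e B k hN hB hq hqM hA ht (by omega)) (nmAlphaE A N q) (ssM A q M) id q
        (⟨e + 1, by omega⟩ : Fin (e + 2)) (⟨e, by omega⟩ : Fin (e + 2)))

/-- SINGLE along `β` at every tame setting. -/
def Stmt_SingleBetaAll : Prop :=
  ∀ (A : ValuationSubring Kbar) (q M : ℕ) (hq : q.Prime) [NeZero q] [NeZero M]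
    [NeZero (M * q)] [NeZero (M * q * q)]
    (hqM : ¬ q ∣ M) (hA : A.LiesOverPrime q) (ht : H91.TameAt M q),
    Fermat.Agent.S45.NUE.H65.CasesE q M →
    ∀ (e : ℕ) (he : 2 ≤ e) (N : ℕ) (B k B' k' : ℤ) (hN : N = M * q ^ e)
      (hB : B * M + k * (q : ℤ) ^ e = 1) (hN' : N * q = M * q ^ (e + 1))
      (hB' : B' * M + k' * (q : ℤ) ^ (e + 1) = 1) [NeZero N] [NeZero (N * q)],
      ∀ i : Fin (e + 2), 2 ≤ (i : ℕ) →
        Nonempty (SingleRel (TuE A N q M e B' k' hN' hB' hq hqM hA ht)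
          (TlE A N q M e B k hN hB hq hqM hA ht (by omega)) (nmBetaE A N q) (ssM A q M)
          (betaM A q M hq hqM hA).symm q i)

/-- REG along `β` at every tame setting. -/
def Stmt_RegBetaAll : Prop :=
  ∀ (A : ValuationSubring Kbar) (q M : ℕ) (hq : q.Prime) [NeZero q] [NeZero M]
    [NeZero (M * q)] [NeZero (M * q * q)]
    (hqM : ¬ q ∣ M) (hA : A.LiesOverPrime q) (ht : H91.TameAt M q),
    Fermat.Agent.S45.NUE.H65.CasesE q M →
    ∀ (e : ℕ) (he : 2 ≤ e) (N : ℕ) (B k B' k' : ℤ) (hN : N = M * q ^ e)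
      (hB : B * M + k * (q : ℤ) ^ e = 1) (hN' : N * q = M * q ^ (e + 1))
      (hB' : B' * M + k' * (q : ℤ) ^ (e + 1) = 1) [NeZero N] [NeZero (N * q)],
      ∀ z ∈ ssM A q M, ∀ h : ↥(L0 A (N * q)),
        (∀ P, (TuE A N q M e B' k' hN' hB' hq hqM hA ht).ρ P = z →
          RegAt P (algebraMap ↥(L0 A (N * q)) (FN (N * q)) h)) →
        ∀ Q, (TlE A N q M e B k hN hB hq hqM hA ht (by omega)).ρ Q
            = (betaM A q M hq hqM hA).symm z →
          RegAt Q (algebraMap ↥(L0 A N) (FN N) (nmBetaE A N q h))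

/-- The inputs of the side `α` at every tame setting, from REG and DOUBLE. -/
theorem stmt_AlphaAll_of (hreg : Stmt_RegAlphaAll) (hdouble : Stmt_DoubleAlphaAll) :
    Fermat.Agent.S45.NUE.H65.Stmt_AlphaAll :=
  fun A q M hq _ _ _ _ hqM hA ht hc e he N B k B' k' hN hB hN' hB' _ _ =>
    ⟨alphaInputs_of A N q M e B k B' k' hN hB hN' hB' hq hqM hA ht (by omega)
      (hreg A q M hq hqM hA ht hc e he N B k B' k' hN hB hN' hB')
      (hdouble A q M hq hqM hA ht hc e he N B k B' k' hN hB hN' hB').some⟩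

/-- The inputs of the side `β` at every tame setting, from SINGLE and REG. -/
theorem stmt_BetaAll_of (hsingle : Stmt_SingleBetaAll) (hreg : Stmt_RegBetaAll) :
    Fermat.Agent.S45.NUE.H65.Stmt_BetaAll :=
  fun A q M hq _ _ _ _ hqM hA ht hc e he N B k B' k' hN hB hN' hB' _ _ =>
    ⟨betaInputs_of A N q M e B k B' k' hN hB hN' hB' hq hqM hA ht (by omega)
      (fun i hi => (hsingle A q M hq hqM hA ht hc e he N B k B' k' hN hB hN' hB' i hi).some)
      (hreg A q M hq hqM hA ht hc e he N B k B' k' hN hB hN' hB')⟩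

/-- **`Stmt_NuEAll`** (ND_e at every tame setting) from the four remaining leaves. -/
theorem stmt_NuEAll_of_leaves (hregα : Stmt_RegAlphaAll) (hdoubleα : Stmt_DoubleAlphaAll)
    (hsingleβ : Stmt_SingleBetaAll) (hregβ : Stmt_RegBetaAll) :
    Fermat.Agent.S45.NUE.H65.Stmt_NuEAll :=
  Fermat.Agent.S45.NUE.H65.stmt_NuEAll_of stmt_BaseGlueE (stmt_AlphaAll_of hregα hdoubleα)
    (stmt_BetaAll_of hsingleβ hregβ)

end Fermat.Agent.S45.NUE.H79

end
end
-- ==== END Fermat.Agent.S45.NUE.H79_NuEAll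

-- ==== BEGIN Fermat.Agent.S45.NUE.H99_OrdAll
section

/-!
# S45 / NU_e, leaf E-PT-ORD (helper99): `hord` on the chart of `j` of `totEM`, all tame cases

* `midCertE_all` : the certificates `MidCertE a`, `0 < a < e`, for `q = 2`, `q = 3` (helper26's
  `midCertE_q23`, coordinate `j`) and for `q ≥ 5`, `4 ∣ M` (`midCertE_u4`, coordinate
  `Δ(t)/Δ(t⁴)`);
* `hordE_totEM` : **the hypothesis `hord` of `H88.pointDataE_of_dichotomy`** on
  `chart0E A N totEM h`, with the witnesses `witE0`, unconditional in these cases.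
-/

set_option autoImplicit false
set_option synthInstance.maxHeartbeats 400000
set_option maxHeartbeats 1000000
set_option linter.unusedSectionVars false
set_option linter.unusedVariables false
set_option linter.style.haveILetI false

noncomputable section

open ModularCurve AlgebraicCurve IntermediateField
open Fermat.Agent.S24 Fermat.Agent.BAD.H88 Fermat.Agent.S28 Fermat.Agent.S28.H73
  Fermat.Agent.S36.NU.H88 Fermat.Agent.S36.NU.H23
  Fermat.Agent.S36.NU.H16 Fermat.Agent.S36.NU.H24 Fermat.Agent.S36.NU.H65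
  Fermat.Agent.S36.NU.H41 Fermat.Agent.S36.NU.H17 Fermat.Agent.S36.NU.H79
  Fermat.Agent.RED.H73 Fermat.Agent.RED.H17 Fermat.Agent.BAD
open Fermat.Agent.S45.NUE.H23 Fermat.Agent.S45.NUE.H74

namespace Fermat.Agent.S45.NUE.H99

section Inst

variable (A : ValuationSubring Kbar)
variable (N q M e : ℕ) (B k : ℤ) (hN : N = M * q ^ e) (hB : B * M + k * (q : ℤ) ^ e = 1)
  (hq : q.Prime) [NeZero N] [NeZero q] [NeZero M] (hqM : ¬ q ∣ M) (hA : A.LiesOverPrime q)
  (ht : H91.TameAt M q) (he : 0 < e)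

attribute [local instance] algkE

include hA in
/-- **The certificates of all components `0 < a < e`**, `q = 2`, `q = 3`, or `q ≥ 5`, `4 ∣ M`. -/
theorem midCertE_all (hcase : q = 2 ∨ q = 3 ∨ (5 ≤ q ∧ 4 ∣ M))
    (a : ℕ) (ha1 : 1 ≤ a) (hae : a < e) :
    MidCertE A N q M e B k hN hB hq a ha1 hae := by
  rcases hcase with h2 | h3 | ⟨h5, h4⟩
  · exact Fermat.Agent.S45.NUE.H26.midCertE_q23 A N q M e B k hN hB hq hA (Or.inl h2) a ha1 hae
  · exact Fermat.Agent.S45.NUE.H26.midCertE_q23 A N q M e B k hN hB hq hA (Or.inr h3) a ha1 hae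
  · exact midCertE_u4 A N q M e B k hN hB hq hA h5 h4 a ha1 hae

/-- **`hord` on the chart of `j`**, unconditional: `q = 2`, `q = 3`, or `q ≥ 5`, `4 ∣ M`. -/
theorem hordE_totEM (hcase : q = 2 ∨ q = 3 ∨ (5 ≤ q ∧ 4 ∣ M))
    (h : ChartInE A N (totEM A N q M e B k hN hB hq hqM hA ht he)) :
    ∀ 𝔪 : Ideal (chart0E A N (totEM A N q M e B k hN hB hq hqM hA ht he) h).B, 𝔪.IsMaximal →
      ∀ i, (chart0E A N (totEM A N q M e B k hN hB hq hqM hA ht he) h).Icomp i ≤ 𝔪 →
        witE0 A N q M e B k hN hB hq hqM hA ht he h i ∉ 𝔪 →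
        Nonempty (LocEq (chart0E A N (totEM A N q M e B k hN hB hq hqM hA ht he) h)
            ((q : ℕ) : ↥(Rur A)) 𝔪)
          ∧ ∀ i', (chart0E A N (totEM A N q M e B k hN hB hq hqM hA ht he) h).Icomp i' ≤ 𝔪 →
            i' = i :=
  hordE_totEM_of_cert A N q M e B k hN hB hq hqM hA ht he h
    (midCertE_all A N q M e B k hN hB hq hA hcase)

end Inst

end Fermat.Agent.S45.NUE.H99

end
end
-- ==== END Fermat.Agent.S45.NUE.H99_OrdAll

-- ==== BEGIN Fermat.Agent.S45.NUE.H65_Pt0E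
section

/-!
# S45 / NU_e, package E-FIN (helper65): E-PT closed (`hpt0` of `LeavesE`)

Level `N = M q^e`, `q ∤ M`, `e ≥ 1`, `T = totEM …`, `h : ChartInE A N T`, `C = chart0E A N T h`.

* `hpt0_totEM` : the local data at the closed points of the chart of `j`, from GLUE and
  `deg = 1` at the supersingular points: one call of helper88's `pointDataE_of_dichotomy`, with
  `hss` (helper12/16), `hbr` (helper17), `hord` (helper99), `hnc`, `hsurj`, `hSSchar`, `hSS0`
  (helper41);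
* `stmt_Pt0EAll` : **`Stmt_Pt0EAll`**;
* `stmt_LeavesEAll` : **`Stmt_LeavesEAll`**, unconditional;
* `nuCoreETame_of_nu` : **`Stmt_NUCoreETame`** from `Stmt_NuEAll` (ND_e).
-/

set_option autoImplicit false
set_option synthInstance.maxHeartbeats 400000
set_option maxHeartbeats 1000000
set_option linter.style.haveILetI false
set_option linter.unusedSectionVars false
set_option linter.unusedVariables false

noncomputable section

open ModularCurve AlgebraicCurve IntermediateField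

namespace Fermat.Agent.S45.NUE.H65

open Fermat.Agent.S24 Fermat.Agent.BAD.H88 Fermat.Agent.S36.NU.H23 Fermat.Agent.S36.NU.H81
  Fermat.Agent.S45.NUE.H79 Fermat.Agent.S45.NUE.H23 Fermat.Agent.BAD
  Fermat.Agent.S36.NU.H74 Fermat.Agent.S45.NUE.H96 Fermat.Agent.S36.NU.H79
  Fermat.Agent.S36.NU.H24 Fermat.Agent.S45.NUE.H74 Fermat.Agent.S36.NU.H16
  Fermat.Agent.S36.NU.H41 Fermat.Agent.S36.NU.H88 Fermat.Agent.S36.NU.H17
  Fermat.Agent.RED.H17 Fermat.Agent.RED Fermat.Agent.S28 Fermat.Agent.S28.H73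
  Fermat.Agent.RED.H73

attribute [local instance] algkE

section Pt0

variable (A : ValuationSubring Kbar)
variable (N q M e : ℕ) (B k : ℤ) (hN : N = M * q ^ e) (hB : B * M + k * (q : ℤ) ^ e = 1)
  (hq : q.Prime) [NeZero N] [NeZero q] [NeZero M] (hqM : ¬ q ∣ M) (hA : A.LiesOverPrime q)
  (ht : H91.TameAt M q) (he : 0 < e)

/-- **E-PT, closed: `hpt0` of `LeavesE`** for the modular conservation datum. -/
theorem hpt0_totEM (hc : CasesE q M)
    (h : ChartInE A N (totEM A N q M e B k hN hB hq hqM hA ht he))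
    (hglue : ∀ z ∈ ssM A q M, Glued (totEM A N q M e B k hN hB hq hqM hA ht he) z)
    (hdeg : ∀ z ∈ ssM A q M, ∀ i,
      ((totEM A N q M e B k hN hB hq hqM hA ht he).pt i z).deg = 1) :
    PointDataT (chart0E A N (totEM A N q M e B k hN hB hq hqM hA ht he) h)
      (totEM A N q M e B k hN hB hq hqM hA ht he) (ssM A q M) ((q : ℕ) : ↥(Rur A)) := by
  haveI : IsAlgClosed (kV A) := isAlgClosed_kV A
  haveI : Infinite (kV A) := IsAlgClosed.instInfinite
  haveI : IsNoetherianRing ↥(chart0E A N (totEM A N q M e B k hN hB hq hqM hA ht he) h).B :=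
    isNoetherianRing_chart0E A N _ h q hq hA
  have hP : HasPrincipalDivisors Kbar (FN N) :=
    Fermat.Agent.RED.H51.stmt_FFB_principal Kbar (FN N) (Fermat.Agent.RED.H95.stmt_HKA_isFF N)
  have S := Fermat.Agent.S45.NUE.H74.chartE_chart0E A N q M e B k hN hB hq hqM hA ht he h
  have hT : (q ≠ 2 ∧ 4 ∣ M) ∨ (q = 2 ∧ 9 ∣ M) := by
    rcases hc with ⟨h5, h4⟩ | ⟨h3, h4⟩ | ⟨h2, h9⟩
    · exact Or.inl ⟨by omega, h4⟩
    · exact Or.inl ⟨by omega, h4⟩
    · exact Or.inr ⟨h2, h9⟩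
  have hcase : q = 2 ∨ q = 3 ∨ (5 ≤ q ∧ 4 ∣ M) := by
    rcases hc with ⟨h5, h4⟩ | ⟨h3, h4⟩ | ⟨h2, h9⟩
    · exact Or.inr (Or.inr ⟨h5, h4⟩)
    · exact Or.inr (Or.inl h3)
    · exact Or.inl h2
  obtain ⟨hnc, hsurj, hSSchar⟩ :=
    Fermat.Agent.S45.NUE.H41P.ptHyps_chart0E A N q M e B k hN hB hq hqM hA ht he h
      (Fermat.Agent.S45.NUE.H99.witE0 A N q M e B k hN hB hq hqM hA ht he h) (fun _ => rfl)
  have hqV : ∀ i, ((q : ℕ) : ↥(L0 A N))
      ∈ ((chart0E A N (totEM A N q M e B k hN hB hq hqM hA ht he) h).V i).nonunits := by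
    intro i
    have := S.hqV i
    rwa [S.hqR] at this
  exact (pointData_iff_T _
    (⟨totEM A N q M e B k hN hB hq hqM hA ht he, ssM A q M, hglue, hdeg⟩ :
      GlueCore Kbar ↥(L0 A N) (FN N) (kV A) (Fin (e + 1)) (Place (kV A) (FM A M))
        (kapE A M e)) _).1
    (Fermat.Agent.S45.NUE.H88.pointDataE_of_dichotomy
      (chart0E A N (totEM A N q M e B k hN hB hq hqM hA ht he) h)
      (⟨totEM A N q M e B k hN hB hq hqM hA ht he, ssM A q M, hglue, hdeg⟩ :
        GlueCore Kbar ↥(L0 A N) (FN N) (kV A) (Fin (e + 1)) (Place (kV A) (FM A M))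
          (kapE A M e))
      ((q : ℕ) : ↥(Rur A))
      (compat_chart0E A N (totEM A N q M e B k hN hB hq hqM hA ht he) h) hP
      (Fermat.Agent.S45.NUE.H41P.hSS0_chart0E A N q M e B k hN hB hq hqM hA ht he h)
      (Fermat.Agent.S45.NUE.H99.witE0 A N q M e B k hN hB hq hqM hA ht he h)
      hnc hsurj hSSchar (Fin.last e)
      (Fermat.Agent.S45.NUE.H12.hssE_all_chart0E A N q M e B k hN hB hq hqM hA ht hT he h
        S.hE hqV S.crit)
      (Fermat.Agent.S45.NUE.H17.branch_chart0E_totEM A N q M e B k hN hB hq hqM hA ht he h)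
      (Fermat.Agent.S45.NUE.H99.hordE_totEM A N q M e B k hN hB hq hqM hA ht he hcase h))

end Pt0

/-- **E-PT at every tame level.** -/
theorem stmt_Pt0EAll : Stmt_Pt0EAll :=
  fun A N q M e B k hN hB hq _ _ _ hqM hA ht he hc h hglue hdeg =>
    hpt0_totEM A N q M e B k hN hB hq hqM hA ht he hc h hglue hdeg

/-- **The modular leaves of E-FIN at every tame two-level setting**, unconditional. -/
theorem stmt_LeavesEAll : Stmt_LeavesEAll := stmt_LeavesEAll_of stmt_Pt0EAll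

/-- **THE TARGET `Stmt_NUCoreETame`** from ND_e. -/
theorem nuCoreETame_of_nu (hNu : Stmt_NuEAll) : Stmt_NUCoreETame :=
  nuCoreETame_close hNu stmt_Pt0EAll

end Fermat.Agent.S45.NUE.H65

end
end
-- ==== END Fermat.Agent.S45.NUE.H65_Pt0E

-- ==== BEGIN Fermat.Agent.S45.NUE.H79_NuEClosed
section

/-!
# S45 / NU_e, ND_e (helper79): the leaves of `H79_NuEAll` closed

* `stmt_RegAlphaAll`, `stmt_RegBetaAll` (helper96's `regE_alpha_T`, `regE_beta_T`);
* `stmt_SingleBetaAll` (`singleBeta`);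
* `stmt_BetaAll : H65.Stmt_BetaAll`;
* `stmt_DoubleAlphaAll` (helper81's `doubleAlpha`, from helper5's norm formula);
* `stmt_AlphaAll : H65.Stmt_AlphaAll`;
* `stmt_NuEAll_of_double : Stmt_DoubleAlphaAll → H65.Stmt_NuEAll`;
* **`stmt_NuEAll : H65.Stmt_NuEAll`** : ND_e at every tame setting, UNCONDITIONAL.
-/

set_option autoImplicit false
set_option synthInstance.maxHeartbeats 400000
set_option maxHeartbeats 1000000
set_option linter.style.haveILetI false
set_option linter.unusedSectionVars false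

noncomputable section

open ModularCurve AlgebraicCurve
open Fermat.Agent.S24 Fermat.Agent.BAD.H88 Fermat.Agent.S28 Fermat.Agent.S28.H73
open Fermat.Agent.RED.H73 Fermat.Agent.RED.H17 Fermat.Agent.S36.NU.H88
open Fermat.Agent.S36.NU.H23 Fermat.Agent.S45.NUE.H23 Fermat.Agent.S36.NU.H74
open Fermat.Agent.S45.NUE.H96

namespace Fermat.Agent.S45.NUE.H79

open Fermat.Agent.BAD Fermat.Agent.RED Fermat.Agent.S36.NU.H79 Fermat.Agent.S36.NU.H24

attribute [local instance] algkE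

/-- **REG along `α`** at every tame setting (helper96). -/
theorem stmt_RegAlphaAll : Stmt_RegAlphaAll := by
  intro A q M hq _ _ _ _ hqM hA ht _ e he N B k B' k' hN hB hN' hB' _ _
  exact Fermat.Agent.S45.NUE.H96.regE_alpha_T A q M N hq hqM hA ht (hleE N q M e hN)
    (hleE (N * q) q M (e + 1) hN')
    (TuE A N q M e B' k' hN' hB' hq hqM hA ht)
    (TlE A N q M e B k hN hB hq hqM hA ht (by omega))
    (fun _ => rfl) (fun _ => rfl) (ssM A q M)

/-- **REG along `β`** at every tame setting (helper96). -/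
theorem stmt_RegBetaAll : Stmt_RegBetaAll := by
  intro A q M hq _ _ _ _ hqM hA ht _ e he N B k B' k' hN hB hN' hB' _ _
  exact Fermat.Agent.S45.NUE.H96.regE_beta_T A q M N hq hqM hA ht (hleE N q M e hN)
    (hleE (N * q) q M (e + 1) hN') ⟨q ^ e, hN⟩
    (TuE A N q M e B' k' hN' hB' hq hqM hA ht)
    (TlE A N q M e B k hN hB hq hqM hA ht (by omega))
    (fun _ => rfl) (fun _ => rfl) (ssM A q M) subset_rfl

/-- **SINGLE along `β`** at every tame setting. -/
theorem stmt_SingleBetaAll : Stmt_SingleBetaAll :=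
  fun A q M hq _ _ _ _ hqM hA ht _ e he N B k B' k' hN hB hN' hB' _ _ i hi =>
    ⟨singleBeta A N q M e B k B' k' hN hB hN' hB' hq (by omega) hqM hA ht i hi⟩

/-- **The inputs of the side `β`** at every tame setting. -/
theorem stmt_BetaAll : Fermat.Agent.S45.NUE.H65.Stmt_BetaAll :=
  stmt_BetaAll_of stmt_SingleBetaAll stmt_RegBetaAll

/-- **`Stmt_NuEAll`** (ND_e at every tame setting) from DOUBLE along `α`. -/
theorem stmt_NuEAll_of_double (hdoubleα : Stmt_DoubleAlphaAll) :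
    Fermat.Agent.S45.NUE.H65.Stmt_NuEAll :=
  stmt_NuEAll_of_leaves stmt_RegAlphaAll hdoubleα stmt_SingleBetaAll stmt_RegBetaAll

/-- **DOUBLE along `α`** at every tame setting (helper81, helper5). -/
theorem stmt_DoubleAlphaAll : Stmt_DoubleAlphaAll :=
  fun A q M hq _ _ _ _ hqM hA ht _ e he N B k B' k' hN hB hN' hB' _ _ =>
    ⟨Fermat.Agent.S45.NUE.H81.doubleAlpha A N q M e B k B' k' hN hB hN' hB' hq hqM hA ht
      (by omega)⟩

/-- **The inputs of the side `α`** at every tame setting. -/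
theorem stmt_AlphaAll : Fermat.Agent.S45.NUE.H65.Stmt_AlphaAll :=
  stmt_AlphaAll_of stmt_RegAlphaAll stmt_DoubleAlphaAll

/-- **ND_e**: a modular instance of `NUDataE` at every tame two-level setting. -/
theorem stmt_NuEAll : Fermat.Agent.S45.NUE.H65.Stmt_NuEAll :=
  stmt_NuEAll_of_double stmt_DoubleAlphaAll

end Fermat.Agent.S45.NUE.H79

end
end
-- ==== END Fermat.Agent.S45.NUE.H79_NuEClosed

-- ==== BEGIN Fermat.Agent.S45.NUE.H65_NUCoreE
section

/-!
# S45 / NU_e (helper65): **`Stmt_NUCoreETame`, unconditional**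

The geometric side of S45: `Stmt_NUCoreETame` from

* ND_e : helper79's `stmt_NuEAll` (the modular instance of `NUDataE` at every tame two-level
  setting);
* E-FIN : `stmt_LeavesEAll` (`H65_Pt0E`): E-CHART, E-PT, E-CUSP, E-RADQ, `LowRoot`;
* E-VV : helper51's `valVecE_mod` (inside `stmt_FinTopE_of`).
-/

set_option autoImplicit false

namespace Fermat.Agent.S45.NUE.H65

/-- **THE TARGET `Stmt_NUCoreETame`**, unconditional. -/
theorem stmt_NUCoreETame : Stmt_NUCoreETame :=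
  nuCoreETame_of_nu Fermat.Agent.S45.NUE.H79.stmt_NuEAll

end Fermat.Agent.S45.NUE.H65

end
-- ==== END Fermat.Agent.S45.NUE.H65_NUCoreE
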