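-- GENERATED (merged mirror, NOTES/tools/trim/merge3_helper67.py): 1 modules of the originals, bodies verbatim.
import Fermat.Agent.Zm.S48_L21_000
import Fermat.Agent.Zm.S48_L17_000

-- ==== BEGIN Fermat.Agent.S48.H43_FinalR
section

/-!
# S48 from the last open leaf `R.Stmt_Chart` (helper43)

`s48_of_chart : B2.R.Stmt_Chart → (the frozen statement of S48)`:
slice T is closed (`B2.T.H01.stmt_EigBot`), slice R is wired by helper32
(`R.H32.stmt_TorsUnramH_of`, `stmt_TorsESH_of`) with R-DEG by helper31.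
-/

set_option autoImplicit false

open CongruenceSubgroup
open scoped MatrixGroups

namespace Fermat.Agent.S48.H43

local notation "Γℚ" => (AlgebraicClosure ℚ ≃ₐ[ℚ] AlgebraicClosure ℚ)

/-- **S48 from `Stmt_Chart`.** -/
theorem s48_of_chart (hCh : Fermat.Agent.S48.B2.R.Stmt_Chart)
    (N : ℕ) [NeZero N] (ε : DirichletCharacter ℂ N) (f : CuspForm (Gamma1 N) 1)
    (hf₁ : ModularFormClass.qCoeff f 1 = 1)
    (hT : ∀ p : ℕ, p.Prime → ¬ p ∣ N → ∀ n : ℕ,
        ModularFormClass.qCoeff f (p * n) +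
            ε (p : ZMod N) * (if p ∣ n then ModularFormClass.qCoeff f (n / p) else 0) =
          ModularFormClass.qCoeff f p * ModularFormClass.qCoeff f n) :
    ∃ ρ : Γℚ →* GL (Fin 2) ℂ, GaloisFactorsThroughFiniteLevel ρ ∧
      (Deformation.matrixRepresentation ρ).IsIrreducible ∧
      ∀ p : ℕ, p.Prime → ¬ p ∣ N →
        ∀ A : ValuationSubring (AlgebraicClosure ℚ), A.LiesOverPrime p →
          (∀ σ ∈ A.inertiaSubgroupIn ℚ, ρ σ = 1) ∧
          ∀ σ : Γℚ, A.IsFrobeniusAt σ p →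
            ((ρ σ : GL (Fin 2) ℂ) : Matrix (Fin 2) (Fin 2) ℂ).trace = ModularFormClass.qCoeff f p ∧
            ((ρ σ : GL (Fin 2) ℂ) : Matrix (Fin 2) (Fin 2) ℂ).det = ε (p : ZMod N) :=
  s48_of_R
    (Fermat.Agent.S48.B2.R.H32.stmt_TorsUnramH_of Fermat.Agent.S48.B2.R.H31.stmt_RDeg_defs hCh)
    (Fermat.Agent.S48.B2.R.H32.stmt_TorsESH_of Fermat.Agent.S48.B2.R.H31.stmt_RDeg_defs hCh)
    N ε f hf₁ hT

end Fermat.Agent.S48.H43

end
-- ==== END Fermat.Agent.S48.H43_FinalR
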