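-- GENERATED (merged mirror, NOTES/tools/trim/merge3_helper67.py): 28 modules of the originals, bodies verbatim.
import Mathlib
import Fermat.Prelude.Def_GaloisRep_Adic
import Fermat.Prelude.Def_GaloisRep_ResidualEquiv
import Fermat.Prelude.Def_EllipticCurve_FrobeniusTrace
import Fermat.Prelude.Def_GaloisRep_LocalConditions
import Fermat.Prelude.Def_FLTPrelim_Ramification
import Fermat.Prelude.Def_AlgebraicCurve_IsCurveOver
import Fermat.Prelude.Def_AlgebraicCurve_Repartitions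
import Fermat.Agent.Zm.S43_L02_000
import Fermat.Agent.Zm.S44_L14_000
import Fermat.Agent.Zm.S44_L15_000
import Fermat.Agent.Zm.S44_L03_000
import Fermat.Agent.Zm.S43_L15_001
import Fermat.Agent.Zm.S56_L07_005
import Fermat.Agent.Zm.S43_L01_005
import Fermat.Agent.Zm.S56_L03_005
import Fermat.Agent.Zm.S43_L02_004
import Fermat.Agent.Zm.S35_L02_001
import Fermat.Agent.Zm.S56_L01_006
import Fermat.Agent.Zm.S43_L14_001
import Fermat.Agent.Zm.S43_L13_000
import Fermat.Agent.Zm.S43_L09_001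
import Fermat.Agent.Zm.S43_L16_001
import Fermat.Agent.Zm.S43_L17_001
import Fermat.Agent.Zm.S43_L14_002
import Fermat.Agent.Zm.S43_L10_001
import Fermat.Agent.Zm.S36_L03_000
import Fermat.Agent.Zm.S33_L02_002
import Fermat.Agent.Zm.S15_L02_003
import Fermat.Agent.Zm.S35_L08_002
import Fermat.Agent.Lib.LangSemilinear
import Fermat.Agent.Zm.S35_L03_002

-- ==== BEGIN Fermat.Agent.BADP.H21_CoordFinal
section

/-!
# S44 / S43 / S15, package COORD (helper21): the unconditional form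

Level `N = M q`, `q ∤ M` tame (`H91.TameAt M q`), `A` a place of `ℚ̄` over `q`,
`theS = H21.theS A q M a b hab hq hA hqM ht` the modular semistable Deuring datum.

* `isModDatum_theS` : `theS` is a modular datum in the sense of helper93's `BADP.IsModDatum`
  (any tame `(M, q)`);
* `isK0Lift_theS` : (K0) for `theS` (helper11's ARITH-0);
* `coord_final` : **COORD, unconditional**: at every node `s` of `theS` there are `n ≥ 1`,
  `n ∣ 12`, and a function `t` fixed by the inertia group with `IsAnnCoord s t (q ^ n)`;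
* `theS_cusp_good`, `theS_unit` : the cusps are good places; the modular unit at the nodes.
-/

set_option autoImplicit false
set_option linter.style.haveILetI false
set_option linter.unusedSectionVars false
set_option synthInstance.maxHeartbeats 400000
set_option maxHeartbeats 1000000

noncomputable section

open HahnSeries IntermediateField AlgebraicCurve ModularCurve
open Fermat.Agent.S28.H73 Fermat.Agent.RED.H73 Fermat.Agent.RED Fermat.Agent.S24
open Fermat.Agent.BAD.H88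

namespace Fermat.Agent.BADP.H21

open Fermat.Agent.BAD Fermat.Agent.BAD.H91 Fermat.Agent.S15.Desc.H67

attribute [local instance 5000] SubalgebraClass.toAlgebra

section Final

variable (A : ValuationSubring Kbar) (q M : ℕ) (a b : ℤ) (hab : a * q + b * M = 1)
  (hq : q.Prime) [NeZero M] [NeZero (M * q)] [NeZero q] (hA : A.LiesOverPrime q)
  (hqM : ¬ q ∣ M) (ht : TameAt M q)

/-- **The modular datum is a modular datum** (any tame `(M, q)`). -/
theorem isModDatum_theS :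
    IsModDatum A q M a b hab hq (theS A q M a b hab hq hA hqM ht) where
  mem₁ := fun _ => Iff.rfl
  red₁ := fun _ _ => rfl
  mem₂ := fun _ => Iff.rfl
  red₂ := fun _ _ _ => rfl
  ff := ffL q M
  ff₁ := ff1 A q M a b hab hq hA hqM ht
  genus := modS_genus A q M a b hab hq hA hqM ht (totModAt A q M a b hab hq hA hqM ht)
  inertial := fun _ hσ =>
    modS_inertial A q M a b hab hq hA hqM ht (totModAt A q M a b hab hq hA hqM ht) hσ

/-- **(K0)** for the modular datum (helper11's ARITH-0). -/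
theorem isK0Lift_theS :
    IsK0Lift (theS A q M a b hab hq hA hqM ht) (inertiaSet A (M * q)) :=
  Fermat.Agent.BADP.H11.isK0Lift_mod hA (isModDatum_theS A q M a b hab hq hA hqM ht) _
    (fun _ hτ => hτ)

/-- **COORD, unconditional**: at every node of the modular datum of level `M q` there is an
annulus coordinate of thickness `q ^ n`, `n ∣ 12`, fixed by the inertia group. -/
theorem coord_final {s : Place (kV A) (F1 A q M) × Place (kV A) (F1 A q M)}
    (hs : s ∈ (theS A q M a b hab hq hA hqM ht).nodes) :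
    ∃ (n : ℕ) (t : FN (M * q)), 0 < n ∧ n ∣ 12 ∧
      (theS A q M a b hab hq hA hqM ht).IsAnnCoord s t ((q : Kbar) ^ n) ∧
      ∀ σ ∈ A.inertiaSubgroupIn ℚ, galF (M * q) σ • t = t :=
  coord_theS A q M a b hab hq hA hqM ht (isK0Lift_theS A q M a b hab hq hA hqM ht) hs

/-- The thickness exponent is prime to every prime `p ≥ 5`. -/
theorem not_dvd_of_dvd_twelve {p n : ℕ} (hp : p.Prime) (h5 : 5 ≤ p) (_hn : 0 < n)
    (h12 : n ∣ 12) : ¬ p ∣ n := by
  intro hpn
  have h1 : p ∣ 12 := hpn.trans h12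
  have h2 : p ≤ 12 := Nat.le_of_dvd (by norm_num) h1
  interval_cases p <;> simp_all (config := { decide := true })

/-- **COORD, unconditional**, in the form of `S43.CompEis.H60.Stmt_CE_Coord`: thickness
`q ^ e`, `p ∤ e`. -/
theorem coord_final_prime {p : ℕ} (hp : p.Prime) (h5 : 5 ≤ p)
    {s : Place (kV A) (F1 A q M) × Place (kV A) (F1 A q M)}
    (hs : s ∈ (theS A q M a b hab hq hA hqM ht).nodes) :
    ∃ (e : ℕ) (t : FN (M * q)), ¬ p ∣ e ∧
      (theS A q M a b hab hq hA hqM ht).IsAnnCoord s t ((q : Kbar) ^ e) ∧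
      ∀ σ ∈ A.inertiaSubgroupIn ℚ, galF (M * q) σ • t = t := by
  obtain ⟨n, t, hn, h12, hc, hfix⟩ := coord_final A q M a b hab hq hA hqM ht hs
  exact ⟨n, t, not_dvd_of_dvd_twelve hp h5 hn h12, hc, hfix⟩

/-- The cusps are good places of the first component. -/
theorem theS_cusp_good {z : Place (kV A) (F1 A q M)}
    (hz : z.ord (jRed A (M * q) : F1 A q M) < 0) :
    z ∈ (theS A q M a b hab hq hA hqM ht).c₁.good :=
  modS_cusp_good A q M a b hab hq hA hqM ht (totModAt A q M a b hab hq hA hqM ht)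
    (cuspHyp A q M a b hab hq hA hqM ht) hz

end Final

end Fermat.Agent.BADP.H21

end
end
-- ==== END Fermat.Agent.BADP.H21_CoordFinal

-- ==== BEGIN Fermat.Agent.BADP3.Defs
section
attribute [local instance 10000] SubalgebraClass.toAlgebra
attribute [local instance 10000] HahnSeries.powerSeriesAlgebra

set_option autoImplicit false
set_option synthInstance.maxHeartbeats 400000
set_option maxHeartbeats 1000000

noncomputable section

open AlgebraicCurve ModularCurve

namespace Fermat.Agent.BADP3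

open Fermat.Agent.BAD Fermat.Agent.S44 Fermat.Agent.S43.BadQ Fermat.Agent.S28.H73
  Fermat.Agent.RED.H73 Fermat.Agent.BADP
open Fermat.Agent.RED.H17 Fermat.Agent.RED

/-! ## The modular datum at the tame levels -/

/-- **(MOD-T)**: the modular datum (Gauss valuation, `w_p`, Riemann, genus inequality, inertia)
exists at every tame level. -/
def Stmt_ModT : Prop :=
  ∀ (p M : ℕ), Fermat.Agent.BAD.H91.TameAt M p →
    ∀ (a b : ℤ) (hab : a * p + b * M = 1) (hp : p.Prime) [NeZero (M * p)],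
    ∀ A : ValuationSubring (AlgebraicClosure ℚ), A.LiesOverPrime p →
      ∃ S : SSD (AlgebraicClosure ℚ) ↥(FNbar (M * p)) (kV A) (RedF A (M * p)) (RedF A (M * p)),
        IsModDatum A p M a b hab hp S

/-- **(MOD-T+)**: the modular datum with the cusps and the modular unit exists at every tame
level. -/
def Stmt_ModPlusT : Prop :=
  ∀ (p : ℕ) [NeZero p] (M : ℕ), Fermat.Agent.BAD.H91.TameAt M p →
    ∀ (a b : ℤ) (hab : a * p + b * M = 1) (hp : p.Prime) [NeZero (M * p)],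
    ∀ A : ValuationSubring (AlgebraicClosure ℚ), A.LiesOverPrime p →
      ∃ S : SSD (AlgebraicClosure ℚ) ↥(FNbar (M * p)) (kV A) (RedF A (M * p)) (RedF A (M * p)),
        IsModDatumU A p M a b hab hp S

theorem stmt_ModT_of_plus (h : Stmt_ModPlusT) : Stmt_ModT := by
  intro p M ht a b hab hp _ A hA
  have : NeZero p := ⟨hp.ne_zero⟩
  obtain ⟨S, hS⟩ := h p M ht a b hab hp A hA
  exact ⟨S, hS.datum⟩

/-- **(K0-T)**: ARITH-0 for every modular datum (every prime `p`). -/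
def Stmt_K0LiftT : Prop :=
  ∀ (p M : ℕ) (a b : ℤ) (hab : a * p + b * M = 1) (hp : p.Prime) [NeZero (M * p)],
    ∀ A : ValuationSubring (AlgebraicClosure ℚ), A.LiesOverPrime p →
    ∀ S : SSD (AlgebraicClosure ℚ) ↥(FNbar (M * p)) (kV A) (RedF A (M * p)) (RedF A (M * p)),
      IsModDatum A p M a b hab hp S → IsK0Lift S (inertiaAuts A (M * p))

/-- **(THICK)**: at a tame level the thickness exponents are prime to `p`: if `Q` is not a
cusp (pole of `j~`) and `e · ord_Q (rd U) = 12` then `p ∤ e`.  (`p ≥ 5`: `e ∣ 12`.  `p = 3`, `2 ∣ M`: `rd U = j~ ^ 2` and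
`j~ x~ ^ 2 = (x~ + 256) ^ 3` for the Hauptmodul `x` of level `2`, so `3 ∣ ord_Q (j~)` at the
zeros of `j~`, `6 ∣ ord_Q (rd U)`, `e ∣ 2`.) -/
def Stmt_Thick : Prop :=
  ∀ (p : ℕ) [NeZero p], p.Prime → p ≠ 2 → ∀ (M : ℕ), ¬ p ∣ M →
    Fermat.Agent.BAD.H91.TameAt M p → ∀ [NeZero (M * p)],
    ∀ A : ValuationSubring (AlgebraicClosure ℚ), A.LiesOverPrime p →
    ∀ (Q : Place (kV A) (RedF A (M * p))) (e : ℤ),
      0 ≤ Q.ord (Fermat.Agent.BAD.H91.jRed A (M * p)) →
      e * Q.ord (unitRed A (M * p) p (Dvd.intro_left M rfl)) = 12 → ¬ (p : ℤ) ∣ e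

/-! ## The abstract assemblies, without `p ∤ w` -/

/-- **NODE-VAL2** = `BADP.H38.Stmt_NodeVal` with `0 < w` instead of `p ∤ w` (the proof of
helper38 uses `p ∤ w` only through `0 < w`). -/
def Stmt_NodeVal2 : Prop :=
  ∀ (K F k F₁ F₂ : Type) [Field K] [Field F] [Algebra K F] [Field k] [Field F₁]
    [Algebra k F₁] [Field F₂] [Algebra k F₂] [IsAlgClosed K] [IsAlgClosed k]
    (S : SSD K F k F₁ F₂), FFHyp K F → FFHyp k F₁ → FFHyp k F₂ →
    ∀ (g g₁ g₂ : ℕ) (c c₁ c₂ : ℤ), IsGenus K F g c → IsGenus k F₁ g₁ c₁ → IsGenus k F₂ g₂ c₂ →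
    g + 1 ≤ g₁ + g₂ + S.nodes.card →
    ∀ (p : ℕ), p.Prime → CharP k p → (p : K) ≠ 0 →
    ∀ (𝓘 𝓘' : Set (SemilinearAut K F)), (∀ τ ∈ 𝓘, S.IsInertial τ) → 𝓘' ⊆ 𝓘 →
      IsK0Lift S 𝓘 →
    ∀ (F0 : Subfield F), (∀ y : F, y ∈ F0 ↔ ∀ τ ∈ 𝓘, τ • y = y) →
      (∀ y ∈ F0, y ≠ 0 → ∃ n : ℤ, S.c₂.V.valuation y = S.c₂.V.valuation (p : F) ^ n) →
    ∀ (U : F) (w : ℕ), S.c₁.IsGU U → (∀ τ ∈ 𝓘, τ • U = U) →
      (∀ P : Place K F, S.IsNodeP P → P.ord U = 0) →
      S.c₂.IsGU (U / algebraMap K F ((p : K) ^ w)) → 0 < w →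
    ∀ (f : F), S.c₁.IsGU f → (∀ P : Place K F, (p : ℤ) ∣ P.ord f) → (∀ τ ∈ 𝓘', τ • f = f) →
      ∃ (e : Place k F₁ × Place k F₂ → ℕ) (G : Place k F₁ × Place k F₂ → F)
        (d : Place k F₁ × Place k F₂ → ℤ), ∀ s ∈ S.nodes,
        (e s : ℤ) * s.1.ord (S.c₁.rd U) = w ∧
        (∀ τ ∈ 𝓘', τ • G s = G s) ∧ S.c₁.IsGU (G s) ∧
        (∀ P : Place K F, S.c₁.r P = some s.1 → (p : ℤ) * P.ord (G s) = P.ord f) ∧
        S.c₂.V.valuation f =
          S.c₂.V.valuation (p : F) ^ ((e s : ℤ) * (s.1.ord (S.c₁.rd f) - p * d s)) *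
            S.c₂.V.valuation (G s) ^ p

/-- **EIS-ABS2** (wild case) = `BADP.Stmt_EisAbs` with the hypothesis `p ∤ w` replaced by
`0 < w`, `p ^ 2 ∤ w` and (THICK) at the nodes, and the conclusion taken modulo `p ^ 2`:
`p n_s ≡ m a_s`. -/
def Stmt_EisAbs2 : Prop :=
  ∀ (K F k F₁ F₂ : Type) [Field K] [Field F] [Algebra K F] [Field k] [Field F₁]
    [Algebra k F₁] [Field F₂] [Algebra k F₂] [IsAlgClosed K] [IsAlgClosed k]
    (S : SSD K F k F₁ F₂), FFHyp K F → FFHyp k F₁ → FFHyp k F₂ →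
    ∀ (g g₁ g₂ : ℕ) (c c₁ c₂ : ℤ), IsGenus K F g c → IsGenus k F₁ g₁ c₁ → IsGenus k F₂ g₂ c₂ →
    g + 1 ≤ g₁ + g₂ + S.nodes.card →
    ∀ (p : ℕ), p.Prime → p ≠ 2 → CharP k p → (p : K) ≠ 0 →
    ∀ (𝓘 𝓘1 𝓘2 : Set (SemilinearAut K F)), (∀ τ ∈ 𝓘, S.IsInertial τ) → 𝓘1 ⊆ 𝓘 → 𝓘2 ⊆ 𝓘1 →
      IsK0Lift S 𝓘 →
    ∀ (F0 : Subfield F), (∀ y : F, y ∈ F0 ↔ ∀ τ ∈ 𝓘, τ • y = y) →
    ∀ (ζ ω : K) (σ : SemilinearAut K F), σ ∈ 𝓘1 →
      H97.KData S.c₁.V.valuation F0 p (algebraMap K F ζ) (algebraMap K F ω)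
        ((SemilinearAut.toRingAut σ : F ≃+* F) : F →+* F) →
      H97.KData S.c₂.V.valuation F0 p (algebraMap K F ζ) (algebraMap K F ω)
        ((SemilinearAut.toRingAut σ : F ≃+* F) : F →+* F) →
      (∀ y : F, (∀ τ ∈ 𝓘2, τ • y = y) →
        y ∈ IntermediateField.adjoin F0 ({algebraMap K F ζ, algebraMap K F ω} : Set F)) →
      (∀ y : F, (∀ τ ∈ 𝓘1, τ • y = y) →
        y ∈ IntermediateField.adjoin F0 ({algebraMap K F ζ} : Set F)) →
      (∀ τ ∈ 𝓘2, SemilinearAut.baseAut τ ζ = ζ ∧ SemilinearAut.baseAut τ ω = ω) →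
      (∀ τ ∈ 𝓘1, SemilinearAut.baseAut τ ζ = ζ) →
      (∀ y : F, (∀ τ ∈ 𝓘2, τ • y = y) → ∀ τ ∈ 𝓘2, τ • (σ • y) = σ • y) →
    -- the unit
    ∀ (U : F) (w : ℕ), S.c₁.IsGU U → (∀ τ ∈ 𝓘, τ • U = U) →
      (∀ P : Place K F, S.IsNodeP P → P.ord U = 0) →
      S.c₂.IsGU (U / algebraMap K F ((p : K) ^ w)) → 0 < w → ¬ p ^ 2 ∣ w →
      (∀ s ∈ S.nodes, ∀ e : ℤ, e * s.1.ord (S.c₁.rd U) = w → ¬ (p : ℤ) ∣ e) →
    -- the Kummer function
    ∀ (f : F), S.c₁.IsGU f → (∀ P : Place K F, (p : ℤ) ∣ P.ord f) → (∀ τ ∈ 𝓘2, τ • f = f) →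
    -- the class of `σ x - x`
    ∀ (f₀ f₀' h₀ T : F) (a e : K), f₀ ∈ S.c₁.V → S.c₁.rd f₀ = 1 →
      (∀ P : Place K F, (p : ℤ) ∣ P.ord f₀) → f₀' ∈ S.c₂.V → S.c₂.rd f₀' = 1 →
      f₀ = algebraMap K F a * f₀' * h₀ ^ p →
      (∀ τ ∈ 𝓘1, ∃ (e' : K) (T' : F), τ • f₀ = algebraMap K F e' * f₀ * T' ^ p) →
      σ • f = algebraMap K F e * f * f₀ * T ^ p →
      ∃ m : ℤ, ∀ s ∈ S.nodes,
        (p : ℤ) ^ 2 ∣ p * s.1.ord (S.c₁.rd f) - m * s.1.ord (S.c₁.rd U)

/-- **EIS-ABS-TAME2** = `BADP.Stmt_EisAbsTame` in the same form. -/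
def Stmt_EisAbsTame2 : Prop :=
  ∀ (K F k F₁ F₂ : Type) [Field K] [Field F] [Algebra K F] [Field k] [Field F₁]
    [Algebra k F₁] [Field F₂] [Algebra k F₂] [IsAlgClosed K] [IsAlgClosed k]
    (S : SSD K F k F₁ F₂), FFHyp K F → FFHyp k F₁ → FFHyp k F₂ →
    ∀ (g g₁ g₂ : ℕ) (c c₁ c₂ : ℤ), IsGenus K F g c → IsGenus k F₁ g₁ c₁ → IsGenus k F₂ g₂ c₂ →
    g + 1 ≤ g₁ + g₂ + S.nodes.card →
    ∀ (p : ℕ), p.Prime → p ≠ 2 → CharP k p → (p : K) ≠ 0 →
    ∀ (𝓘 𝓘1 : Set (SemilinearAut K F)), (∀ τ ∈ 𝓘, S.IsInertial τ) → 𝓘1 ⊆ 𝓘 →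
      IsK0Lift S 𝓘 →
    ∀ (F0 : Subfield F), (∀ y : F, y ∈ F0 ↔ ∀ τ ∈ 𝓘, τ • y = y) →
    ∀ (ζ : K), IsPrimitiveRoot ζ p →
      (∀ y ∈ F0, y ≠ 0 → ∃ n : ℤ, S.c₁.V.valuation y = S.c₁.V.valuation (p : F) ^ n) →
      (∀ y ∈ F0, y ≠ 0 → ∃ n : ℤ, S.c₂.V.valuation y = S.c₂.V.valuation (p : F) ^ n) →
      (∀ y : F, (∀ τ ∈ 𝓘1, τ • y = y) →
        y ∈ IntermediateField.adjoin F0 ({algebraMap K F ζ} : Set F)) →
      (∀ τ ∈ 𝓘1, SemilinearAut.baseAut τ ζ = ζ) →
    ∀ (U : F) (w : ℕ), S.c₁.IsGU U → (∀ τ ∈ 𝓘, τ • U = U) →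
      (∀ P : Place K F, S.IsNodeP P → P.ord U = 0) →
      S.c₂.IsGU (U / algebraMap K F ((p : K) ^ w)) → 0 < w → ¬ p ^ 2 ∣ w →
      (∀ s ∈ S.nodes, ∀ e : ℤ, e * s.1.ord (S.c₁.rd U) = w → ¬ (p : ℤ) ∣ e) →
    ∀ (f : F), S.c₁.IsGU f → (∀ P : Place K F, (p : ℤ) ∣ P.ord f) → (∀ τ ∈ 𝓘1, τ • f = f) →
      ∃ m : ℤ, ∀ s ∈ S.nodes,
        (p : ℤ) ^ 2 ∣ p * s.1.ord (S.c₁.rd f) - m * s.1.ord (S.c₁.rd U)

/-! ## Clause (d): SLOPE -/

/-- **Eisenstein Kummer pair modulo `p ^ 2`.**  As `BADP.IsEisPair`, with the congruence at the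
non-cuspidal places in the form `p · ord_Q (red f) ≡ c · ord_Q (red U)` modulo `p ^ 2`. -/
def IsEisPair2 (A : ValuationSubring (AlgebraicClosure ℚ)) (N p : ℕ) [NeZero N] [NeZero p]
    (hd : p ∣ N)
    (x : JZero N) (D : Divisor.degZero (K := AlgebraicClosure ℚ) (F := ↥(FNbar N)))
    (f : ↥(gaussV A N)) (c : ℤ) : Prop :=
  x = Pic0.mk D ∧ gaussRes A N f ≠ 0 ∧
  (∀ P : Place (AlgebraicClosure ℚ) ↥(FNbar N),
    (p : ℤ) * (D : Divisor (AlgebraicClosure ℚ) ↥(FNbar N)) P = P.ord ((f : ↥(FNbar N)))) ∧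
  ∀ Q : Place (kV A) ↥(redField A (FNbar N) (hasScale_laurentBaseChange A N)),
    (0 ≤ Q.ord (Fermat.Agent.BAD.H91.jRed A N) →
      (p : ℤ) ^ 2 ∣ p * Q.ord (gaussRes A N f) - c * Q.ord (unitRed A N p hd)) ∧
    (Q.ord (Fermat.Agent.BAD.H91.jRed A N) < 0 → (p : ℤ) ∣ Q.ord (gaussRes A N f))

/-- An Eisenstein pair is an Eisenstein pair modulo `p ^ 2`. -/
theorem isEisPair2_of_isEisPair {A : ValuationSubring (AlgebraicClosure ℚ)} {N p : ℕ}
    [NeZero N] [NeZero p] {hd : p ∣ N} {x : JZero N}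
    {D : Divisor.degZero (K := AlgebraicClosure ℚ) (F := ↥(FNbar N))}
    {f : ↥(gaussV A N)} {c : ℤ} (h : IsEisPair A N p hd x D f c) :
    IsEisPair2 A N p hd x D f (p * c) := by
  obtain ⟨h1, h2, h3, h4⟩ := h
  refine ⟨h1, h2, h3, fun Q => ⟨fun hQ => ?_, (h4 Q).2⟩⟩
  obtain ⟨k, hk⟩ := (h4 Q).1 hQ
  refine ⟨k, ?_⟩
  linear_combination (p : ℤ) * hk

/-- **(d0)-(d5), (d7) at the tame levels**: a class with the peu ramifiée structure has an
Eisenstein Kummer pair modulo `p ^ 2`. -/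
def Stmt_EisSlopeT : Prop :=
  ∀ (p : ℕ) [NeZero p], p.Prime → p ≠ 2 → ∀ (M : ℕ), ¬ p ∣ M →
    Fermat.Agent.BAD.H91.TameAt M p → ∀ [NeZero (M * p)],
    ∀ A : ValuationSubring (AlgebraicClosure ℚ), A.LiesOverPrime p →
    ∀ (x : (jzModule (M * p) p).J) (Y : Submodule (ZMod p) (jzModule (M * p) p).J) (u : ℤ),
      (jzModule (M * p) p).IsCycOn A Y →
      (∀ σ ∈ A.inertiaSubgroupIn ℚ, (jzModule (M * p) p).gal σ x - x ∈ Y) →
      ¬ (p : ℤ) ∣ u → (jzModule (M * p) p).IsPeuFixed A u x →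
      ∃ (D : Divisor.degZero (K := AlgebraicClosure ℚ) (F := ↥(FNbar (M * p))))
        (f : ↥(gaussV A (M * p))) (c : ℤ),
        IsEisPair2 A (M * p) p (Dvd.intro_left M rfl) (jzModule.pt (M * p) p x) D f c

/-- **(d6) = H-DROP2**: a non-Eisenstein eigenvector with an Eisenstein Kummer pair modulo
`p ^ 2` lies in the finite part.  (Every prime `p`, every level `M p`, `p ∤ M`.)
Proof: as `BADP.H74.stmt_HDropP`, with `hdrop_abs` modulo `p ^ 2`: auxiliary function
`H = (β' g) ^ p · (α' U) ^ (-c)`. -/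
def Stmt_HDropT : Prop :=
  ∀ (p : ℕ) [NeZero p], p.Prime → ∀ (M : ℕ), ¬ p ∣ M → ∀ [NeZero (M * p)],
    ∀ A : ValuationSubring (AlgebraicClosure ℚ), A.LiesOverPrime p →
    ∀ (S : Finset ℕ) (t : ℕ → ℤ) (x : (jzModule (M * p) p).J),
      (jzModule (M * p) p).IsEigen (M * p) S t x → NonEisSystem p (M * p) S t →
      ∀ (D : Divisor.degZero (K := AlgebraicClosure ℚ) (F := ↥(FNbar (M * p))))
        (f : ↥(gaussV A (M * p))) (c : ℤ),
        IsEisPair2 A (M * p) p (Dvd.intro_left M rfl) (jzModule.pt (M * p) p x) D f c →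
        Fin1 A (M * p) p (jzModule.pt (M * p) p x)

/-- **(EIS-MOD-T)**: the modular assembly of (d) at the tame levels.  Proof: as
`BADP.H18E.stmt_EisMod` (helper18), with the datum of (MOD-T+), the abstract statements
`Stmt_EisAbs2`, `Stmt_EisAbsTame2` (`w = 12`) and (THICK). -/
def Stmt_EisModT : Prop :=
  Stmt_ModPlusT → Stmt_K0LiftT → Stmt_KumCmp → Stmt_KumW → Stmt_EisAbs2 → Stmt_EisAbsTame2 →
    Stmt_Thick → Stmt_EisSlopeT

/-- **(d) SLOPE at the tame levels.** -/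
def Stmt_SlopeT : Prop :=
  ∀ (p : ℕ), p.Prime → p ≠ 2 → ∀ (M : ℕ), ¬ p ∣ M →
    Fermat.Agent.BAD.H91.TameAt M p → ∀ [NeZero (M * p)],
    ∀ A : ValuationSubring (AlgebraicClosure ℚ), A.LiesOverPrime p →
    ∀ (S : Finset ℕ) (t : ℕ → ℤ) (x : (jzModule (M * p) p).J)
      (Y : Submodule (ZMod p) (jzModule (M * p) p).J) (u : ℤ),
      (jzModule (M * p) p).IsEigen (M * p) S t x → NonEisSystem p (M * p) S t →
      (jzModule (M * p) p).IsCycOn A Y →
      (∀ σ ∈ A.inertiaSubgroupIn ℚ, (jzModule (M * p) p).gal σ x - x ∈ Y) →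
      ¬ (p : ℤ) ∣ u → (jzModule (M * p) p).IsPeuFixed A u x →
      Fin1 A (M * p) p (jzModule.pt (M * p) p x)

theorem stmt_SlopeT_of (h1 : Stmt_EisSlopeT) (h2 : Stmt_HDropT) : Stmt_SlopeT := by
  intro p hp hp2 M hpM ht _ A hA S t x Y u hT hNE hY hsub hu hfix
  have : NeZero p := ⟨hp.ne_zero⟩
  obtain ⟨D, f, c, hpair⟩ := h1 p hp hp2 M hpM ht A hA x Y u hY hsub hu hfix
  exact h2 p hp M hpM A hA S t x hT hNE D f c hpair

/-! ## Clause (e): RAYNAUD -/

/-- **(RAY-K3), corrected, at the tame levels.** -/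
def Stmt_RayK3xT : Prop :=
  ∀ (p : ℕ), p ≠ 2 → ∀ (M : ℕ), Fermat.Agent.BAD.H91.TameAt M p →
    ∀ (a b : ℤ) (hab : a * p + b * M = 1) (hp : p.Prime) [NeZero (M * p)],
    ∀ A : ValuationSubring (AlgebraicClosure ℚ), A.LiesOverPrime p →
    ∀ (x : (jzModule (M * p) p).J) (u : ℤ) (ω : AlgebraicClosure ℚ),
      InK1 A (M * p) p (jzModule.pt (M * p) p x) →
      InK1 A (M * p) p (wS p M a b hab hp • jzModule.pt (M * p) p x) →
      ¬ (p : ℤ) ∣ u → IsGoodRoot p A u ω →
      (∀ σ ∈ A.inertiaSubgroupIn ℚ, σ ω = ω → (jzModule (M * p) p).gal σ x = x) →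
      x = 0

/-- **(RAY-MOD-T)**: the modular assembly of (e) at the tame levels.  Proof: as
`BADP.H15.stmt_RayMod` (helper15), with the datum of (MOD-T). -/
def Stmt_RayModT : Prop :=
  Stmt_ModT → Stmt_K0LiftT → Stmt_KumFix → Stmt_KumW → Stmt_RayK3xT

/-- **(e) RAYNAUD at the tame levels.** -/
def Stmt_RayT : Prop :=
  ∀ (p : ℕ), p ≠ 2 → ∀ (M : ℕ), Fermat.Agent.BAD.H91.TameAt M p →
    ∀ (a b : ℤ) (hab : a * p + b * M = 1) (hp : p.Prime) [NeZero (M * p)],
    ∀ A : ValuationSubring (AlgebraicClosure ℚ), A.LiesOverPrime p →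
    ∀ (x : (jzModule (M * p) p).J) (Y : Submodule (ZMod p) (jzModule (M * p) p).J) (u : ℤ),
      InK1 A (M * p) p (jzModule.pt (M * p) p x) →
      InK1 A (M * p) p (wS p M a b hab hp • jzModule.pt (M * p) p x) →
      (jzModule (M * p) p).IsCycOn A Y →
      (∀ σ ∈ A.inertiaSubgroupIn ℚ, (jzModule (M * p) p).gal σ x - x ∈ Y) →
      ¬ (p : ℤ) ∣ u → (jzModule (M * p) p).IsPeuFixed A u x →
      x ∈ Y

/-- **(e0)**: `Stmt_RayK3xT` and GOOD-ROOT give `Stmt_RayT`. -/
theorem stmt_RayT_of_rayK3xT (h : Stmt_RayK3xT) (hg : Stmt_GoodRoot) : Stmt_RayT := by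
  intro p hp2 M ht a b hab hp _ A hA x Y u hx hwx hY hsub hu hfix
  refine ray_of_rayK3x (jzModule (M * p) p) A hp (toric p M a b hab hp p A)
    (fun Y' hY' => isCycOn_le p M a b hab hp A hp2 hA Y' hY') ?_ ?_ x Y u
    ((mem_toric_iff p M a b hab hp p A x).2 ⟨hx, hwx⟩) hY hsub hu hfix
  · intro x' u' ω hx' hu' hω hgood hfix'
    have hx'' := (mem_toric_iff p M a b hab hp p A x').1 hx'
    exact h p hp2 M ht a b hab hp A hA x' u' ω hx''.1 hx''.2 hu' ⟨hω, hgood⟩ hfix'
  · intro u' hu'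
    obtain ⟨ω, hω, hgood⟩ := hg p hp hp2 A hA u' hu'
    exact ⟨ω, hω, hgood⟩

/-! ## The structure of `J₀(M p)[p]` at the tame levels -/

/-- **BAD_p at the tame levels** (`p` odd; `p = 3`: `2 ∣ M`). -/
def Stmt_BadP2T : Prop :=
  ∀ (p : ℕ), p.Prime → p ≠ 2 → ∀ (M : ℕ), ¬ p ∣ M →
    Fermat.Agent.BAD.H91.TameAt M p → ∀ [NeZero (M * p)],
    ∀ A : ValuationSubring (AlgebraicClosure ℚ), A.LiesOverPrime p →
      (jzModule (M * p) p).HasBadStructure (M * p) A

end Fermat.Agent.BADP3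

end
end
-- ==== END Fermat.Agent.BADP3.Defs

-- ==== BEGIN Fermat.Agent.BADP3.H57_RayMod
section
attribute [local instance 10000] SubalgebraClass.toAlgebra
attribute [local instance 10000] HahnSeries.powerSeriesAlgebra

/-!
# BAD_3 (S39 at `p = 3`, for S59-LL), leaf RAY-MOD at a datum (helper57)

`rayMod_at` : the statement (RAY-K3x) at `(p, M, A)` for EVERY odd prime `p`, from a modular datum
`S` (`IsModDatum A p M a b hab hp S`) with `𝓘`-fixed parts (`IsK0Lift S (inertiaAuts A (M p))`).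
No condition `5 ≤ p`: the proof of `BADP.H15.stmt_RayMod` uses `5 ≤ p` only to get the datum
and `p ≠ 2`.  (KUM-FIX), (KUM-W) are plugged in (`BADP.H57.stmt_KumFix`, `stmt_KumW`).

`rayMod_at_of` : the same with (KUM-FIX), (KUM-W) as hypotheses.
-/

set_option autoImplicit false
set_option linter.style.haveILetI false
set_option linter.unusedSectionVars false
set_option synthInstance.maxHeartbeats 400000
set_option maxHeartbeats 1000000

noncomputable section

open AlgebraicCurve ModularCurve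

namespace Fermat.Agent.BADP3.H57

open Fermat.Agent.BAD Fermat.Agent.S44 Fermat.Agent.S43.BadQ Fermat.Agent.S28.H73
  Fermat.Agent.RED.H73 Fermat.Agent.BADP.H97 Fermat.Agent.S24 Fermat.Agent.BADP
  Fermat.Agent.BADP.H15

/-- **(RAY-MOD) at a datum**, every odd prime `p`. -/
theorem rayMod_at_of (hKumFix : Stmt_KumFix) (hKumW : Stmt_KumW)
    (p : ℕ) (hp2 : p ≠ 2) (M : ℕ) (a b : ℤ) (hab : a * p + b * M = 1) (hp : p.Prime)
    [NeZero (M * p)] (A : ValuationSubring (AlgebraicClosure ℚ)) (hA : A.LiesOverPrime p)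
    (S : SSD (AlgebraicClosure ℚ) ↥(FNbar (M * p)) (kV A) (RedF A (M * p)) (RedF A (M * p)))
    (hS : IsModDatum A p M a b hab hp S) (hK0S : IsK0Lift S (inertiaAuts A (M * p)))
    (x : (jzModule (M * p) p).J) (u : ℤ) (ω : AlgebraicClosure ℚ)
    (hx : InK1 A (M * p) p (jzModule.pt (M * p) p x))
    (hwx : InK1 A (M * p) p (wS p M a b hab hp • jzModule.pt (M * p) p x))
    (hu : ¬ (p : ℤ) ∣ u) (hgood : IsGoodRoot p A u ω)
    (hfix : ∀ σ ∈ A.inertiaSubgroupIn ℚ, σ ω = ω → (jzModule (M * p) p).gal σ x = x) :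
    x = 0 := by
  have h2le : 2 ≤ p := hp.two_le
  haveI : IsAlgClosed (kV A) := isAlgClosed_kV A
  have hchar : CharP (kV A) p := Fermat.Agent.BAD.H82.charP_kV A hp hA
  have hpK : (p : AlgebraicClosure ℚ) ≠ 0 := Nat.cast_ne_zero.2 hp.ne_zero
  obtain ⟨g, g₁, c, c₁, hg, hg₁, hnum⟩ := hS.genus
  obtain ⟨D, f, f', h₀, c₀, hf, hf', hxD, hdiv, hrf, hrf', hff'⟩ :=
    hKumW p M a b hab hp p A (jzModule.pt (M * p) p x) hx hwx
  -- the Kummer function
  have hf₁ : f ∈ S.c₁.V := (hS.mem₁ f).2 hf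
  have hrd₁ : S.c₁.rd f = 1 := by
    rw [S.c₁.rd_of_mem hf₁, hS.red₁ ⟨f, hf⟩ hf₁, hrf]
  have hf0 : f ≠ 0 := by
    rintro rfl
    rw [S.c₁.rd_zero] at hrd₁
    exact zero_ne_one hrd₁
  have hf'₂ : f' ∈ S.c₂.V := (hS.mem₂ f').2 hf'
  have hrd₂ : S.c₂.rd f' = 1 := by
    rw [S.c₂.rd_of_mem hf'₂, hS.red₂ f' hf'₂ hf', hrf']
  have hdivp : ∀ P : Place (AlgebraicClosure ℚ) ↥(FNbar (M * p)), (p : ℤ) ∣ P.ord f :=
    fun P => ⟨_, (hdiv P).symm⟩
  have h𝓘 : ∀ τ ∈ inertiaAuts A (M * p), S.IsInertial τ := by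
    rintro τ ⟨σ, hσ, rfl⟩
    exact hS.inertial σ hσ
  -- it is enough to show that `f` is a constant times a `p`-th power
  suffices hmain : ∃ (e : AlgebraicClosure ℚ) (h : ↥(FNbar (M * p))),
      f = algebraMap (AlgebraicClosure ℚ) ↥(FNbar (M * p)) e * h ^ p by
    obtain ⟨e, h, hfe⟩ := hmain
    have h0 := mk_eq_zero_of_pow hp.ne_zero D hf0 hdiv hfe
    rw [← hxD] at h0
    apply jzModule.pt_injective (M * p) p
    rw [h0]
    rfl
  -- the Kummer functions of the conjugates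
  have hcls : ∀ σ ∈ A.inertiaSubgroupIn ℚ, σ ω = ω →
      ∃ (e : AlgebraicClosure ℚ) (T : ↥(FNbar (M * p))),
        galF (M * p) σ • f = algebraMap (AlgebraicClosure ℚ) ↥(FNbar (M * p)) e * f * T ^ p := by
    intro σ hσ hσω
    refine hKumFix (M * p) p (jzModule.pt (M * p) p x) D f hf0 hxD hdiv σ ?_
    rw [← jzModule.pt_gal, hfix σ hσ hσω]
  obtain ⟨hω, τ₀, hτ₀, hτ₀ω, ζ, hζp, hτ₀ζ⟩ := hgood
  have hζ1 : ζ ≠ 1 := by
    rintro rfl
    exact hτ₀ζ (map_one τ₀)
  have hζ : IsPrimitiveRoot ζ p := isPrimitiveRoot_of_ne_one hp hζp hζ1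
  have hu0 : (u : AlgebraicClosure ℚ) ≠ 0 := by
    intro h0
    have : u = 0 := by exact_mod_cast h0
    exact hu (this ▸ dvd_zero _)
  have hω0 : ω ≠ 0 := by
    rintro rfl
    rw [zero_pow hp.ne_zero] at hω
    exact hu0 hω.symm
  rcases karith_dichotomy hp hp2 hA u hu hζ with ⟨z, hzK, hz⟩ | ⟨t, ω', σ', htK, ht, htω, hσ', hKD⟩
  · -- the tame case: the good root lies in `K₀`
    have hz0 : z ≠ 0 := by
      rintro rfl
      rw [zero_pow hp.ne_zero] at hz
      exact hu0 hz.symm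
    have hξ : (ω / z) ^ p = 1 := by
      rw [div_pow, hω, hz, div_self hu0]
    have hτξ : τ₀ (ω / z) = ω / z := by
      rw [map_div₀, hτ₀ω, mem_K0.1 hzK τ₀ hτ₀]
    have hξ1 : ω / z = 1 := by
      by_contra hne
      have hprim := isPrimitiveRoot_of_ne_one hp hξ hne
      haveI : NeZero p := ⟨hp.ne_zero⟩
      obtain ⟨i, -, hi⟩ := hprim.eq_pow_of_pow_eq_one hζp
      apply hτ₀ζ
      rw [← hi, map_pow, hτξ]
    have hωz : ω = z := by
      field_simp at hξ1
      exact hξ1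
    have hωK : ω ∈ K0 A := hωz ▸ hzK
    refine Fermat.Agent.BADP.H51.stmt_RayAbsTame (AlgebraicClosure ℚ) ↥(FNbar (M * p)) (kV A)
      (RedF A (M * p)) (RedF A (M * p)) S hS.ff hS.ff₁ hS.ff₁ g g₁ g₁ c c₁ c₁ hg hg₁ hg₁ hnum
      p hp hp2 hchar hpK (inertiaAuts A (M * p)) h𝓘 hK0S ?_ f hf₁ hrd₁ hdivp f' h₀ c₀ hf'₂
      hrd₂ hff' ?_
    · -- the linear regime
      intro a₀ ha₀ haCM
      have haK : a₀ ∈ K0 A := mem_K0.2 fun σ hσ => ha₀ (galF (M * p) σ) ⟨σ, hσ, rfl⟩
      have hav : A.valuation a₀ < 1 := val_lt_one_of_isCM hS haCM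
      have hav' := val_le_p_of_lt_one hp hA haK hav
      have hvp0 : A.valuation (p : AlgebraicClosure ℚ) ≠ 0 := val_p_ne hp
      refine ⟨a₀ ^ (p - 1) / (p : AlgebraicClosure ℚ), ?_, ?_⟩
      · refine rd_const_eq_zero (modDatum_const₁ hS) ?_
        rw [map_div₀, map_pow]
        have h2 : p - 1 = (p - 2) + 1 := by omega
        rw [h2, pow_succ]
        have h3 : A.valuation a₀ ^ (p - 2) < 1 :=
          pow_lt_one₀ zero_le hav (by omega)
        calc A.valuation a₀ ^ (p - 2) * A.valuation a₀ / A.valuation (p : AlgebraicClosure ℚ)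
            ≤ A.valuation a₀ ^ (p - 2) * A.valuation (p : AlgebraicClosure ℚ)
                / A.valuation (p : AlgebraicClosure ℚ) := by
              gcongr
              exact zero_le
          _ = A.valuation a₀ ^ (p - 2) := by
              rw [mul_div_assoc, div_self hvp0, mul_one]
          _ < 1 := h3
      · have h2 : p = (p - 1) + 1 := by omega
        conv_lhs => rw [h2, pow_succ]
        field_simp
    · rintro τ ⟨σ, hσ, rfl⟩
      exact hcls σ hσ (mem_K0.1 hωK σ hσ)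
  · -- the wild case
    have hp1 : p - 1 ≠ 0 := Nat.sub_ne_zero_of_lt hp.one_lt
    have ht0 : t ≠ 0 := by
      rintro rfl
      rw [zero_pow hp1] at ht
      exact zero_ne_one ht
    obtain ⟨u1, hu1K, hu1v, hω'⟩ := hKD.pow
    have hω'0 : ω' ≠ 0 := by
      rintro rfl
      rw [mul_zero, zero_pow hp.ne_zero] at htω
      exact hu0 htω.symm
    -- the root `ω₁ = ω / t` of `1 + p u₁`
    set ω₁ : AlgebraicClosure ℚ := ω / t with hω₁def
    have hω₁p : ω₁ ^ p = ω' ^ p := by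
      rw [hω₁def, div_pow, hω, ← htω, mul_pow]
      field_simp
    have hω₁ : ω₁ ^ p = 1 + (p : AlgebraicClosure ℚ) * u1 := by rw [hω₁p, hω']
    have hξ : (ω₁ / ω') ^ p = 1 := by
      rw [div_pow, hω₁p, div_self (pow_ne_zero _ hω'0)]
    haveI : NeZero p := ⟨hp.ne_zero⟩
    obtain ⟨i, -, hi⟩ := hζ.eq_pow_of_pow_eq_one hξ
    have hσ'ω₁ : σ' ω₁ = ζ * ω₁ := by
      have e1 : ω₁ = ζ ^ i * ω' := by
        rw [hi]
        field_simp
      have hσζ : σ' ζ = ζ := hKD.σζ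
      have hσω' : σ' ω' = ζ * ω' := hKD.σω
      rw [e1, map_mul, map_pow, hσζ, hσω']
      ring
    have hKD₁ : KData A.valuation (K0 A) p ζ ω₁
        (σ' : AlgebraicClosure ℚ →+* AlgebraicClosure ℚ) :=
      kdata_qbar hp hA hζ hu1K hu1v hω₁ hσ' hKD.σζ hσ'ω₁
    -- the stabilisers of `ω` and `ω₁` coincide
    have hstab : ∀ σ ∈ A.inertiaSubgroupIn ℚ, σ ω₁ = ω₁ → σ ω = ω := by
      intro σ hσ h1
      have e1 : ω = t * ω₁ := by
        rw [hω₁def]
        field_simp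
      rw [e1, map_mul, mem_K0.1 htK σ hσ, h1]
    -- the transferred data
    have hK₁ := kdata_fn (T := S.c₁) (modDatum_const₁ hS) hA hKD₁ hσ' (galF (M * p) σ')
      (fun _ => rfl) (hS.inertial σ' hσ').mem₁ (fixF (M * p) (inertiaSet A))
      (fun c hc => const_mem_F0 (M * p) A hc) (fun g hg => galF_F0 (M * p) A hσ' hg)
      (stmt_A1 (M * p) A S.c₁ (fun f hf => (hS.mem₁ f).2 hf))
    have hK₂ := kdata_fn (T := S.c₂) (modDatum_const₂ hS) hA hKD₁ hσ' (galF (M * p) σ')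
      (fun _ => rfl) (hS.inertial σ' hσ').mem₂ (fixF (M * p) (inertiaSet A))
      (fun c hc => const_mem_F0 (M * p) A hc) (fun g hg => galF_F0 (M * p) A hσ' hg)
      (stmt_A1_two A p M a b hab hp S.c₂ (fun f hf => (hS.mem₂ f).2 hf))
    have hadj : ∀ y : ↥(FNbar (M * p)),
        (∀ τ ∈ stabAuts A (M * p) {ω₁}, τ • y = y) →
        y ∈ IntermediateField.adjoin (fixF (M * p) (inertiaSet A))
          ({algebraMap (AlgebraicClosure ℚ) ↥(FNbar (M * p)) ω₁} : Set ↥(FNbar (M * p))) := by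
      intro y hy
      refine mem_adjoin_singleton_of_fixed (M * p) A hp hA ω₁ fun σ hσ hσω => ?_
      exact hy (galF (M * p) σ) ⟨σ, hσ, fun t ht => by rw [Set.mem_singleton_iff.1 ht, hσω], rfl⟩
    refine Fermat.Agent.BADP.H51.stmt_RayAbs (AlgebraicClosure ℚ) ↥(FNbar (M * p)) (kV A)
      (RedF A (M * p)) (RedF A (M * p)) S hS.ff hS.ff₁ hS.ff₁ g g₁ g₁ c c₁ c₁ hg hg₁ hg₁ hnum
      p hp hp2 hchar hpK (inertiaAuts A (M * p)) (stabAuts A (M * p) {ω₁}) h𝓘 ?_ hK0S
      (ζ - 1) (ω₁ - 1) (keyP_pi_isCM (T := S.c₁) (modDatum_const₁ hS) hKD₁ hp2)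
      (sub_ne_zero.2 hζ1) (keyP_pi (T := S.c₁) (modDatum_const₁ hS) hKD₁ hp2)
      (keyP_varpi_isCM (T := S.c₁) (modDatum_const₁ hS) hKD₁)
      (keyP_varpi (T := S.c₁) (modDatum_const₁ hS) hKD₁)
      (galF (M * p) σ') ⟨σ', hσ', rfl⟩ ?_ ?_ ?_ f hf₁ hrd₁ hdivp f' h₀ c₀ hf'₂ hrd₂ hff' ?_
    · rintro τ ⟨σ, hσ, -, rfl⟩
      exact ⟨σ, hσ, rfl⟩
    · intro y hy hyV
      exact stmt_A2_k3 hK₁ (hadj y hy) hyV
    · intro y hy hyV
      exact stmt_A2_k3 hK₂ (hadj y hy) hyV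
    · intro a₀ ha₀ haCM
      have haA : a₀ ∈ A.nonunits := A.mem_nonunits_iff.2 (val_lt_one_of_isCM hS haCM)
      have ha' : ∀ τ ∈ A.inertiaSubgroupIn ℚ, τ ω₁ = ω₁ → τ a₀ = a₀ := fun τ hτ hτω =>
        ha₀ (galF (M * p) τ)
          ⟨τ, hτ, fun t ht => by rw [Set.mem_singleton_iff.1 ht, hτω], rfl⟩
      have h3 := keyP_A3 (T := S.c₁) (modDatum_const₁ hS) hA hKD₁ haA ha'
      rw [mul_one] at h3
      exact h3
    · rintro τ ⟨σ, hσ, hσω, rfl⟩
      exact hcls σ hσ (hstab σ hσ (hσω ω₁ rfl))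

/-- **(RAY-MOD) at a datum**, every odd prime `p`, unconditional in (KUM). -/
theorem rayMod_at
    (p : ℕ) (hp2 : p ≠ 2) (M : ℕ) (a b : ℤ) (hab : a * p + b * M = 1) (hp : p.Prime)
    [NeZero (M * p)] (A : ValuationSubring (AlgebraicClosure ℚ)) (hA : A.LiesOverPrime p)
    (S : SSD (AlgebraicClosure ℚ) ↥(FNbar (M * p)) (kV A) (RedF A (M * p)) (RedF A (M * p)))
    (hS : IsModDatum A p M a b hab hp S) (hK0S : IsK0Lift S (inertiaAuts A (M * p)))
    (x : (jzModule (M * p) p).J) (u : ℤ) (ω : AlgebraicClosure ℚ)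
    (hx : InK1 A (M * p) p (jzModule.pt (M * p) p x))
    (hwx : InK1 A (M * p) p (wS p M a b hab hp • jzModule.pt (M * p) p x))
    (hu : ¬ (p : ℤ) ∣ u) (hgood : IsGoodRoot p A u ω)
    (hfix : ∀ σ ∈ A.inertiaSubgroupIn ℚ, σ ω = ω → (jzModule (M * p) p).gal σ x = x) :
    x = 0 :=
  rayMod_at_of Fermat.Agent.BADP.H57.stmt_KumFix Fermat.Agent.BADP.H57.stmt_KumW
    p hp2 M a b hab hp A hA S hS hK0S x u ω hx hwx hu hgood hfix

end Fermat.Agent.BADP3.H57

end
end
-- ==== END Fermat.Agent.BADP3.H57_RayMod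

-- ==== BEGIN Fermat.Agent.L.Pivot.H76_Wire2SO
section

set_option autoImplicit false
set_option linter.style.haveILetI false
set_option linter.unusedVariables false
set_option linter.unusedSectionVars false

open Polynomial IsLocalRing CuspForm CongruenceSubgroup ModularFormClass
open WeierstrassCurve WeierstrassCurve.Affine WeierstrassCurve.Affine.Point
open scoped WeierstrassCurve.Affine TensorProduct

namespace Fermat.Agent.L.Pivot.H76

open Fermat.Agent.L.Pivot Fermat.Agent.S59 Fermat.Agent.S59.Asm Fermat.Agent.S44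
  Fermat.Agent.S43

section Adic

variable {A : Type} [CommRing A] [IsLocalRing A]

/-- Strict ordinarity passes to the residual representation. -/
theorem isStrictOrdinaryAt_residual (ρ : GaloisRepAdic A) (p : ℕ)
    (h : ρ.IsStrictOrdinaryAt p) :
    (GaloisRepAdic.ofResidualGaloisRep ρ.residual).IsStrictOrdinaryAt p := by
  refine ⟨?_, fun P hP => ?_⟩
  · have h1 : ((p : ℕ) : ResidueField A) = 0 := by
      rw [← map_natCast (residue A)]
      exact (residue_eq_zero_iff _).mpr h.1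
    rw [h1]
    exact zero_mem _
  · exact Fermat.Agent.S56.H92.strictOrdinary_core (residue A) ρ p P (h.2 P hP)

end Adic

set_option maxHeartbeats 1000000 in
set_option synthInstance.maxHeartbeats 400000 in
/-- **Layer W of PV-WIRE2** (`p ∥ N`, `E[p]` très ramifiée at `p`). -/
theorem pivotWCoreSO_of (hCYC : Stmt_CYC) (hTRES : Stmt_TRES) (hG : Stmt_PivotGal) :
    Stmt_PivotWCoreSO5 := by
  classical
  intro p hp h5 W hΔ hss hirr N q hsq hpN hpΔ hpeu hq hqp hqN hunrq hexc f 𝔪 S hf h𝔪 hp𝔪 hcong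
  have hp2 : p ≠ 2 := by omega
  haveI : Fact p.Prime := ⟨hp⟩
  have hN0 : 0 < N := Nat.pos_of_ne_zero hsq.ne_zero
  obtain ⟨𝒪, _, _, _, _, _, _, ρ, hdet, hunip, hSO, hfrob, habs, hTW, hsplit, ζ, hζ⟩ :=
    exists_coeff_rep hCYC p hp2 W hΔ hss hirr N
  have hp𝒪 : (p : 𝒪) ∈ maximalIdeal 𝒪 := hdet.1
  haveI hchar : CharP (ResidueField 𝒪) p := by
    refine (CharP.charP_iff_prime_eq_zero hp).mpr ?_
    have : residue 𝒪 (p : 𝒪) = 0 := (residue_eq_zero_iff _).mpr hp𝒪
    rwa [map_natCast] at this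
  let j : ZMod p →+* ResidueField 𝒪 := ZMod.castHom (dvd_refl p) (ResidueField 𝒪)
  have hbr : ((torsRes W hΔ p).baseChangeAlong j).IsEquiv ρ.residual :=
    Fermat.Agent.S59.LL.H77.bridgeRes W hΔ p _ _ j ρ ∅
      (fun ℓ hℓ hℓp _ hg A hA σ hσ => hfrob ℓ hℓ hℓp hg A hA σ hσ) habs
  have hunr_iff : ∀ q' : ℕ, ρ.residual.IsUnramifiedAt q' ↔ UnrW W p q' := fun q' =>
    (Fermat.Agent.S59.LL.H77.unramified_iff_of_isEquiv j _ _ hbr q').trans
      (torsRes_isUnramifiedAt_iff W hΔ p q')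
  have hbad : ¬ W.IsGoodPrimeFor p := fun h => h hpΔ
  have hnflat : ¬ (GaloisRepAdic.ofResidualGaloisRep ρ.residual).IsFlatAt p :=
    hTRES p hp2 W hΔ hss hirr hpeu 𝒪 ρ hdet habs hfrob
  have hgoodS : ∀ ℓ : ℕ, ℓ.Prime → ℓ ∉ S ∪ W.Δ.natAbs.primeFactors → W.IsGoodPrimeFor ℓ := by
    intro ℓ hℓ hℓS hdvd
    refine hℓS (Finset.mem_union_right _ (Nat.mem_primeFactors.2 ⟨hℓ, ?_, ?_⟩))
    · exact Int.natCast_dvd.1 hdvd
    · exact Int.natAbs_ne_zero.2 hΔ
  obtain ⟨g, 𝔪', S', hg, h𝔪', hp𝔪', hgc⟩ := hG 𝒪 p hp2 h5 hp𝒪 false ρ.residual habs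
    (detIsCyclotomic_residual ρ p hdet) hsplit hTW N hsq (fun h => by cases h)
    (fun _ => ⟨hpN, isStrictOrdinaryAt_residual ρ p (hSO hbad), hnflat⟩)
    (fun q' hq' _ hq'p => isUnipotentOnInertiaAt_residual ρ q' (hunip q' hq' hq'p))
    (fun q' hq' hq'N hq'p hu => by
      obtain ⟨hdvd, A, hA, c, hc⟩ := hexc q' hq' hq'p hq'N ((hunr_iff q').mp hu)
      refine ⟨hdvd, A, hA, fun σ hσ => ⟨j c, ?_⟩⟩
      have h1 : (torsRes W hΔ p).ρ σ = c • (1 : Module.End (ZMod p) (torsRes W hΔ p).V) :=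
        LinearMap.ext fun v => hc σ hσ v
      exact scalar_of_isEquiv_resid hbr σ (j c) (scalar_bcAlong_resid j _ σ c h1))
    (fun q' hq' hq'N e he => by
      have h1 : 0 < q' - 1 := by have := hq'.two_le; omega
      have h2 : q' - 1 ≤ N := by
        have := Nat.le_of_dvd hN0 hq'N
        omega
      exact exists_primitiveRoot_of_le hp hζ (le_of_pow_dvd hp he h1 h2))
    f 𝔪 (fun ℓ => W.apOfModel ℓ) (S ∪ W.Δ.natAbs.primeFactors) hf h𝔪 hp𝔪
    (fun ℓ hℓ hℓS hℓN hℓp =>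
      hcong ℓ hℓ (fun h => hℓS (Finset.mem_union_left _ h)) (hgoodS ℓ hℓ hℓS) hℓN hℓp)
    (fun ℓ hℓ hℓS hℓp A hA σ hσ =>
      charpoly_frob_residual ρ σ _ ℓ (hfrob ℓ hℓ hℓp (hgoodS ℓ hℓ hℓS) A hA σ hσ))
    q hq hqN hqp ((hunr_iff q).mpr hunrq)
  exact ⟨g, 𝔪', S', hg, h𝔪', hp𝔪', fun ℓ hℓ hℓS hℓN hℓp _ => hgc ℓ hℓ hℓS hℓN hℓp⟩

end Fermat.Agent.L.Pivot.H76

end
-- ==== END Fermat.Agent.L.Pivot.H76_Wire2SO

-- ==== BEGIN Fermat.Agent.L.Pivot3.H24_AuxDefs
section

set_option autoImplicit false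

open IsLocalRing

namespace Fermat.Agent.L.Pivot3.H24

/-- **The hypothesis on `ρbar` at an auxiliary prime `r`.** -/
def AuxAt (p : ℕ) {k : Type} [Field k] (ρbar : ResidualGaloisRep k) (r : ℕ) : Prop :=
  r.Prime ∧ r ≠ p ∧ ¬ p ∣ r - 1 ∧ ρbar.IsUnramifiedAt r ∧
    ∀ P : ValuationSubring (AlgebraicClosure ℚ), P.LiesOverPrime r →
      ∀ σ : AlgebraicClosure ℚ ≃ₐ[ℚ] AlgebraicClosure ℚ, P.IsFrobeniusAt σ r →
        LinearMap.det (ρbar.ρ σ) = (r : k) ∧
          LinearMap.trace k ρbar.V (ρbar.ρ σ) ^ 2 ≠ ((r : k) + 1) ^ 2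

/-- **AUTO-UNR**: every lift of `ρbar` to a complete noetherian local ring is unramified at an
auxiliary prime. -/
def Stmt_AutoUnr : Prop :=
  ∀ (A : Type) [CommRing A] [IsLocalRing A] [IsNoetherianRing A]
    [IsAdicComplete (maximalIdeal A) A]
    (p : ℕ), p.Prime → (p : A) ∈ maximalIdeal A →
    ∀ (k : Type) [Field k] (ρbar : ResidualGaloisRep k) (φ : k →+* ResidueField A)
      (ρ : GaloisRepAdic A),
    ρ.residual.IsEquiv (ρbar.baseChangeAlong φ) →
    ∀ r : ℕ, AuxAt p ρbar r → ρ.IsUnramifiedAt r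

end Fermat.Agent.L.Pivot3.H24

end
-- ==== END Fermat.Agent.L.Pivot3.H24_AuxDefs

-- ==== BEGIN Fermat.Agent.L.Pivot3.H34_AutoUnrCore
section

set_option autoImplicit false

open Polynomial IsLocalRing

namespace Fermat.Agent.L.Pivot3.H34

open Fermat.Agent.S59.TWGal Fermat.Agent.S59.TWGal.H01

/-! ### The matrix core -/

section matrix

variable {A : Type} [CommRing A]

/-- The scalar by which `X ↦ Φ X - q X Φ` is invertible on `M₂(A)`. -/
def adScalar (q : A) (Φ : Matrix (Fin 2) (Fin 2) A) : A :=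
  (1 - q) * Φ.det * ((1 + q) ^ 2 * Φ.det - q * Φ.trace ^ 2)

/-- First step of the inverse: `C ↦ T C - Φ C - q C Φ`. -/
def adStep (q : A) (Φ C : Matrix (Fin 2) (Fin 2) A) : Matrix (Fin 2) (Fin 2) A :=
  Φ.trace • C - Φ * C - q • (C * Φ)

/-- The inverse of `X ↦ Φ X - q X Φ` up to the scalar `adScalar q Φ`. -/
def adInv (q : A) (Φ C : Matrix (Fin 2) (Fin 2) A) : Matrix (Fin 2) (Fin 2) A :=
  (Φ.det * (1 + q) - q * Φ.trace ^ 2) • adStep q Φ C + (q * Φ.trace) • (adStep q Φ C * Φ)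

/-- **The explicit inverse of `Ad`.** -/
theorem adj_identity (q : A) (Φ X : Matrix (Fin 2) (Fin 2) A) :
    adScalar q Φ • X = adInv q Φ (Φ * X - q • (X * Φ)) := by
  ext i j
  fin_cases i <;> fin_cases j <;>
  · simp only [adScalar, adInv, adStep, Matrix.det_fin_two, Matrix.trace_fin_two,
      Matrix.smul_apply, Matrix.add_apply, Matrix.sub_apply, Matrix.mul_apply, Fin.sum_univ_two,
      smul_eq_mul, Fin.zero_eta, Fin.mk_one, Fin.isValue]
    ring

theorem EntriesIn.smul' {J : Ideal A} {M : Matrix (Fin 2) (Fin 2) A} (h : EntriesIn J M)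
    (c : A) : EntriesIn J (c • M) := fun i j => by
  rw [Matrix.smul_apply, smul_eq_mul]
  exact J.mul_mem_left _ (h i j)

theorem entriesIn_adInv {J : Ideal A} (q : A) (Φ : Matrix (Fin 2) (Fin 2) A)
    {C : Matrix (Fin 2) (Fin 2) A} (h : EntriesIn J C) : EntriesIn J (adInv q Φ C) := by
  have h1 : EntriesIn J (adStep q Φ C) :=
    ((EntriesIn.smul' h _).sub (h.mul_left Φ)).sub (EntriesIn.smul' (h.mul_right Φ) _)
  exact (EntriesIn.smul' h1 _).add (EntriesIn.smul' (h1.mul_right Φ) _)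

/-- **MatTriv**: the tame relation `Φ Y Φ⁻¹ = Y ^ q` forces `Y ≡ 1 mod I` to be trivial, when
`Ad Φ - q` is invertible. -/
theorem matTriv (I : Ideal A) (N q : ℕ) (Φ : Matrix (Fin 2) (Fin 2) A)
    (hu : IsUnit (adScalar (q : A) Φ)) (Y : Matrix (Fin 2) (Fin 2) A)
    (hY : ∀ i j, (Y - 1) i j ∈ I) (hrel : ∀ i j, (Φ * Y - Y ^ q * Φ) i j ∈ I ^ N) :
    ∀ i j, (Y - 1) i j ∈ I ^ N := by
  have hY' : EntriesIn I (Y - 1) := hY
  have hrel' : EntriesIn (I ^ N) (Φ * Y - Y ^ q * Φ) := hrel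
  have key : ∀ k : ℕ, k ≤ N → EntriesIn (I ^ k) (Y - 1) := by
    intro k
    induction k with
    | zero =>
      intro _ i j
      rw [pow_zero, Ideal.one_eq_top]
      exact Submodule.mem_top
    | succ k ih =>
      intro hk
      have hX := ih (by omega)
      rcases Nat.eq_zero_or_pos k with rfl | hkpos
      · rw [zero_add, pow_one]
        exact hY'
      -- `Y ^ q = 1 + q X + E`, `E ∈ I ^ (k + 1)`
      have h1 : EntriesIn (I ^ (k + 1)) (Y ^ q - 1 - q • (Y - 1)) := by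
        refine (entriesIn_pow_sub hX q).mono ?_
        rw [← pow_add]
        exact Ideal.pow_le_pow_right (by omega)
      have h2 : EntriesIn (I ^ (k + 1)) (Φ * Y - Y ^ q * Φ) :=
        hrel'.mono (Ideal.pow_le_pow_right hk)
      -- `C = Φ X - q X Φ ∈ I ^ (k + 1)`
      have h3 : EntriesIn (I ^ (k + 1)) (Φ * (Y - 1) - (q : A) • ((Y - 1) * Φ)) := by
        have e : Φ * (Y - 1) - (q : A) • ((Y - 1) * Φ)
            = (Φ * Y - Y ^ q * Φ) + (Y ^ q - 1 - q • (Y - 1)) * Φ := by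
          have e1 : (Y ^ q - 1 - q • (Y - 1)) * Φ
              = Y ^ q * Φ - Φ - (q : A) • ((Y - 1) * Φ) := by
            rw [← Nat.cast_smul_eq_nsmul A q (Y - 1), sub_mul, sub_mul, one_mul, smul_mul_assoc]
          rw [e1, mul_sub, mul_one]
          abel
        rw [e]
        exact h2.add (h1.mul_right Φ)
      have h4 := entriesIn_adInv (q : A) Φ h3
      rw [← adj_identity] at h4
      intro i j
      have h5 := h4 i j
      rw [Matrix.smul_apply, smul_eq_mul] at h5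
      obtain ⟨u, hu'⟩ := hu
      have h6 : (Y - 1) i j = (↑u⁻¹ : A) * (adScalar (q : A) Φ * (Y - 1) i j) := by
        rw [← mul_assoc, ← hu', Units.inv_mul, one_mul]
      rw [h6]
      exact Ideal.mul_mem_left _ _ h5
  exact key N le_rfl

end matrix

end Fermat.Agent.L.Pivot3.H34

end
-- ==== END Fermat.Agent.L.Pivot3.H34_AutoUnrCore

-- ==== BEGIN Fermat.Agent.L.Pivot3.H34_AutoUnrDefs
section

set_option autoImplicit false

open Polynomial IsLocalRing

namespace Fermat.Agent.L.Pivot3.H34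

open Fermat.Agent.S59.TWGal

/-- **AUTO-UNR at one place.**  `A` noetherian local with `p ∈ 𝔪`, `ρ` a representation over `A`,
`q ≠ p` a prime, `P ∣ q` a place at which the residual representation is unramified, `φ` a
Frobenius at `P` such that `(1 - q) d ((1 + q)² d - q t²) ≠ 0` in the residue field, where
`d = det ρ̄(φ)`, `t = tr ρ̄(φ)`.  Then `ρ` is unramified at `P`. -/
def Stmt_AutoUnrMain : Prop :=
  ∀ (A : Type) [CommRing A] [IsLocalRing A] [IsNoetherianRing A]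
    (p : ℕ), p.Prime → (p : A) ∈ maximalIdeal A →
  ∀ (ρ : GaloisRepAdic A) (q : ℕ), q.Prime → q ≠ p →
  ∀ (P : ValuationSubring Qb), P.LiesOverPrime q →
    (∀ σ ∈ P.inertiaSubgroupIn ℚ, ρ.residual.ρ σ = 1) →
  ∀ (φ : GQ), P.IsFrobeniusAt φ q →
    (1 - (q : ResidueField A)) * LinearMap.det (ρ.residual.ρ φ) *
      ((1 + (q : ResidueField A)) ^ 2 * LinearMap.det (ρ.residual.ρ φ) -
        (q : ResidueField A) *
          LinearMap.trace (ResidueField A) ρ.residual.V (ρ.residual.ρ φ) ^ 2) ≠ 0 →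
    ∀ σ ∈ P.inertiaSubgroupIn ℚ, ρ.ρ σ = 1

end Fermat.Agent.L.Pivot3.H34

end
-- ==== END Fermat.Agent.L.Pivot3.H34_AutoUnrDefs

-- ==== BEGIN Fermat.Agent.L.Pivot3.H60_PVAsmG
section

set_option autoImplicit false
set_option linter.unusedSectionVars false
set_option linter.unusedVariables false

open Polynomial CuspForm IsLocalRing

namespace Fermat.Agent.L.Pivot3.H60

open Fermat.Agent.S56 Fermat.Agent.S59 Fermat.Agent.S59.TWGal Fermat.Agent.S59.Asm
  Fermat.Agent.S59.Asm.H77 Fermat.Agent.L.Pivot Fermat.Agent.L.Pivot.H77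

/-- **PV-ASM** (A), unbundled: the text of `L.Pivot.Stmt_PVAsm` with `PVHyp` replaced by `hyp`,
`hex` and `Smin ∪ Pv.set ⊆ S`. -/
def Stmt_PVAsmG : Prop :=
  ∀ (𝒪 : Type) [CommRing 𝒪] [IsDomain 𝒪] [IsDiscreteValuationRing 𝒪]
    [IsAdicComplete (maximalIdeal 𝒪) 𝒪] [Finite (ResidueField 𝒪)] [CharZero 𝒪]
    (p : ℕ) [Fact p.Prime] (fl : Bool) (ρbar : ResidualGaloisRep (ResidueField 𝒪))
    (N1 : ℕ) [NeZero N1] [Fact (CuspForm.HasIntegralStructure N1 2)] (S Smin : Finset ℕ)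
    (θ : CuspForm.heckeAlgebra N1 2 (↑S : Set ℕ) →+* ResidueField 𝒪)
    (M : HMod 𝒪 N1 (↑S : Set ℕ) θ) (k : ℕ) (Pv : PivotPrimes k) (eP : Fin k → ℕ),
    Hyp 𝒪 p ρbar S Smin → Pv.IsExceptional p ρbar → Smin ∪ Pv.set ⊆ S →
    ∀ (H : CuspForm.HeckeGaloisRepDatum N1 (↑S : Set ℕ) 𝒪 θ
        (CuspForm.heckeLocal N1 (↑S : Set ℕ) 𝒪 θ)),
    H.π = CuspForm.heckeLocal.π N1 (↑S : Set ℕ) 𝒪 θ →
    cond 𝒪 p fl Smin Pv.set H.ρ →
    ∀ (ηM : CuspForm.heckeLocal N1 (↑S : Set ℕ) 𝒪 θ →ₐ[𝒪] Module.End 𝒪 M.V),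
    (∀ t : CuspForm.heckeAlgebra N1 2 (↑S : Set ℕ),
      ηM (CuspForm.heckeLocal.π N1 (↑S : Set ℕ) 𝒪 θ t) = M.η t) →
    ∀ (g r n : ℕ) (qv : Fin r → ℕ), IsTWFamily ρbar p n S qv →
    ∀ [NeZero (twLevel N1 qv)] [NeZero (pvLevel N1 Pv.q qv)]
      [Fact (CuspForm.HasIntegralStructure (twLevel N1 qv) 2)]
      [Fact (CuspForm.HasIntegralStructure (pvLevel N1 Pv.q qv) 2)]
      (X : PVCtx 𝒪 p fl ρbar N1 S Smin θ M Pv eP g n qv)
      (τ : X.DQ.R →ₐ[𝒪] CuspForm.heckeLocal N1 (↑S : Set ℕ) 𝒪 θ),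
    Function.Surjective τ →
    ∀ (hτl : IsLocalHom (τ : X.DQ.R →+* CuspForm.heckeLocal N1 (↑S : Set ℕ) 𝒪 θ)),
    (X.DQ.ρ.baseChangeAlong (τ : X.DQ.R →+* CuspForm.heckeLocal N1 (↑S : Set ℕ) 𝒪 θ)
      hτl).IsEquiv H.ρ →
    ∀ (ϖ : 𝒪), maximalIdeal 𝒪 = Ideal.span {ϖ} →
    ∀ (ψ : Fin k → 𝒪), (∀ j, ψ j ^ (p ^ eP j) = 1) → (∀ j, ψ j - 1 ∈ Ideal.span {ϖ}) →
    ∀ (I1 Iχ : Ideal (PRing 𝒪 k g)),
      (∀ f ∈ I1, ∀ v : X.G.W.V, X.ηW (X.φQ (X.γ f)) v ∈ typeSub X.G.c (fun _ => (1 : 𝒪))) →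
      (∀ f ∈ Iχ, ∀ v : X.G.W.V, X.ηW (X.φQ (X.γ f)) v ∈ typeSub X.G.c ψ) →
    ∀ (b : Module.Basis (Fin 2) (CuspForm.heckeLocal N1 (↑S : Set ℕ) 𝒪 θ) H.ρ.V),
      Nonempty (@PivotLevel 𝒪 _ r (6 * k + g) (CuspForm.heckeLocal N1 (↑S : Set ℕ) 𝒪 θ) _ _
        M.V _ (Module.compHom M.V
          ((ηM : CuspForm.heckeLocal N1 (↑S : Set ℕ) 𝒪 θ →ₐ[𝒪] Module.End 𝒪 M.V) :
            CuspForm.heckeLocal N1 (↑S : Set ℕ) 𝒪 θ →+* Module.End 𝒪 M.V))
        ϖ I1 Iχ (idealX 𝒪 k g) (pvXi H.ρ b Pv) (twIdealP 𝒪 r p n) X.G.rk)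

set_option maxHeartbeats 1000000 in
set_option synthInstance.maxHeartbeats 400000 in
/-- **PV-ASM** (A), unbundled: the level of the patching datum at a Taylor–Wiles family. -/
theorem stmt_PVAsmG : Stmt_PVAsmG := by
  intro 𝒪 _ _ _ _ _ _ p _ fl ρbar N1 _ _ S Smin θ M k Pv eP hyp hex hsub H hHπ hHcond ηM hηM g r n
    qv hTW
    _ _ _ _ X τ hτs hτl hτe ϖ hϖ ψ hψ hψϖ I1 Iχ h1 hχ b
  have hp : p.Prime := Fact.out
  have hp2 : p ≠ 2 := hyp.hp2
  have hp𝒪 : (p : 𝒪) ∈ maximalIdeal 𝒪 := hyp.hp𝒪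
  -- Step 1: the restriction maps
  obtain ⟨res', hres'⟩ := H85.stmt_RESLOC 𝒪 (twLevel N1 qv) (pvLevel N1 Pv.q qv)
    (↑(twSet S qv) : Set ℕ) (↑(twSet S qv) : Set ℕ) (θ.comp X.G.G1.rest) X.G.rest
  obtain ⟨res1, hres1⟩ := H85.stmt_RESLOC 𝒪 N1 (twLevel N1 qv) (↑S : Set ℕ)
    (↑(twSet S qv) : Set ℕ) θ X.G.G1.rest
  obtain ⟨res, hres⟩ : ∃ res : CuspForm.heckeLocal (pvLevel N1 Pv.q qv) (↑(twSet S qv) : Set ℕ) 𝒪
      ((θ.comp X.G.G1.rest).comp X.G.rest) →ₐ[𝒪] CuspForm.heckeLocal N1 (↑S : Set ℕ) 𝒪 θ,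
      ∀ t, res (CuspForm.heckeLocal.π (pvLevel N1 Pv.q qv) (↑(twSet S qv) : Set ℕ) 𝒪
        ((θ.comp X.G.G1.rest).comp X.G.rest) t) =
        CuspForm.heckeLocal.π N1 (↑S : Set ℕ) 𝒪 θ (X.G.G1.rest (X.G.rest t)) :=
    ⟨res1.comp res', fun t => by rw [AlgHom.comp_apply, hres', hres1]⟩
  -- Step 2: extension from generators
  have hgen : ∀ t, X.ηW (X.HQ.π t) = X.G.W.η t := fun t =>
    (congrArg (fun f => X.ηW (f t)) X.HQ_π).trans (X.ηW_π t)
  have hgη : ∀ (σ : GalQ) (x : CuspForm.heckeLocal (pvLevel N1 Pv.q qv) (↑(twSet S qv) : Set ℕ) 𝒪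
      ((θ.comp X.G.G1.rest).comp X.G.rest)), Commute (X.G.gal σ) (X.ηW x) := fun σ =>
    commute_of_gen X.HQ.adjoin_range_π X.ηW (X.G.gal σ) fun t =>
      (congrArg (Commute (X.G.gal σ)) (hgen t)).mpr (X.G.gal_η σ t)
  have hdη : ∀ (i : Fin r) (x : CuspForm.heckeLocal (pvLevel N1 Pv.q qv) (↑(twSet S qv) : Set ℕ) 𝒪
      ((θ.comp X.G.G1.rest).comp X.G.rest)), Commute (X.G.d i) (X.ηW x) := fun i =>
    commute_of_gen X.HQ.adjoin_range_π X.ηW (X.G.d i) fun t =>
      (congrArg (Commute (X.G.d i)) (hgen t)).mpr (X.G.d_η i t)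
  have hcη : ∀ (j : Fin k) (x : CuspForm.heckeLocal (pvLevel N1 Pv.q qv) (↑(twSet S qv) : Set ℕ) 𝒪
      ((θ.comp X.G.G1.rest).comp X.G.rest)), Commute (X.G.c j) (X.ηW x) := fun j =>
    commute_of_gen X.HQ.adjoin_range_π X.ηW (X.G.c j) fun t =>
      (congrArg (Commute (X.G.c j)) (hgen t)).mpr (X.G.c_η j t)
  have hWαη : ∀ (i : Fin r) (x : CuspForm.heckeLocal (pvLevel N1 Pv.q qv) (↑(twSet S qv) : Set ℕ) 𝒪
      ((θ.comp X.G.G1.rest).comp X.G.rest)), ∀ v ∈ X.G.Wα i, X.ηW x v ∈ X.G.Wα i := fun i =>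
    mem_of_gen X.HQ.adjoin_range_π X.ηW (X.G.Wα i) fun t v hv =>
      (congrArg (fun z : Module.End 𝒪 X.G.W.V => z v ∈ X.G.Wα i) (hgen t)).mpr
        (X.G.Wα_η i t v hv)
  have hπη : ∀ (x : CuspForm.heckeLocal (pvLevel N1 Pv.q qv) (↑(twSet S qv) : Set ℕ) 𝒪
      ((θ.comp X.G.G1.rest).comp X.G.rest)) (v : X.G.W.V),
      (X.G.G1.π.comp X.G.κ) (X.ηW x v) = ηM (res x) ((X.G.G1.π.comp X.G.κ) v) :=
    intertwine_of_gen X.HQ.adjoin_range_π X.ηW ηM res (X.G.G1.π.comp X.G.κ) fun t v =>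
      (congrArg (fun z : Module.End 𝒪 X.G.W.V => X.G.G1.π (X.G.κ (z v))) (hgen t)).trans
        ((congrArg X.G.G1.π (X.G.κ_η t v)).trans ((X.G.G1.π_η (X.G.rest t) (X.G.κ v)).trans
          (congrArg (fun z : Module.End 𝒪 M.V => z (X.G.G1.π (X.G.κ v)))
            ((congrArg (fun f => ηM (res (f t))) X.HQ_π).trans
              ((congrArg ηM (hres t)).trans (hηM _))).symm)))
  -- the bad set
  have hbad : ∀ ℓ : ℕ, ℓ.Prime → ℓ ∉ twSet S qv ∪ (pvLevel N1 Pv.q qv).primeFactors →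
      (¬ ℓ ∣ pvLevel N1 Pv.q qv) ∧ ℓ ∉ (↑(twSet S qv) : Set ℕ) ∧ (¬ ℓ ∣ twLevel N1 qv) ∧
        (¬ ℓ ∣ N1) ∧ ℓ ∉ (↑S : Set ℕ) := by
    intro ℓ hℓ hℓS
    have h1 : ¬ ℓ ∣ pvLevel N1 Pv.q qv := fun h => hℓS (Finset.mem_union_right _
      (Nat.mem_primeFactors.2 ⟨hℓ, h, NeZero.ne _⟩))
    have h2 : ℓ ∉ (↑(twSet S qv) : Set ℕ) := fun h => hℓS (Finset.mem_union_left _
      (Finset.mem_coe.1 h))
    have h3 : ¬ ℓ ∣ twLevel N1 qv := fun h => h1 (h.trans (Dvd.intro _ rfl))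
    exact ⟨h1, h2, h3, fun h => h3 (h.trans (H41.dvd_twLevel N1 qv)),
      fun h => h2 (H41.subset_twSet S qv h)⟩
  -- Step 3: Cayley–Hamilton
  have hCH : ∀ σ : GalQ, X.G.gal σ * X.G.gal σ - X.ηW (X.HQ.ρ.trace σ) * X.G.gal σ
      + X.ηW (LinearMap.det (X.HQ.ρ.ρ σ)) = 0 := by
    refine ch_of_es X.HQ.ρ X.ηW X.G.gal X.G.gal_cont hgη
      (twSet S qv ∪ (pvLevel N1 Pv.q qv).primeFactors) ?_
    intro ℓ hℓ hℓS A hA σ hσ
    have hb := hbad ℓ hℓ hℓS
    obtain ⟨h1, h2, -, -, -⟩ := hb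
    refine ⟨X.HQ.π (CuspForm.heckeAlgebra.T hℓ h1 h2),
      X.HQ.charpoly_frob ℓ hℓ h1 h2 A hA σ hσ, ?_⟩
    exact (congrArg (fun z : Module.End 𝒪 X.G.W.V => X.G.gal σ * X.G.gal σ - z * X.G.gal σ
      + (ℓ : 𝒪) • (1 : Module.End 𝒪 X.G.W.V)) (hgen _)).trans (X.G.es ℓ hℓ h1 h2 A hA σ hσ)
  -- Step 5: `res ∘ φQ = τ`
  have hfrob : ∀ ℓ : ℕ, ℓ.Prime → ℓ ∉ twSet S qv ∪ (pvLevel N1 Pv.q qv).primeFactors →
      ∀ B : ValuationSubring (AlgebraicClosure ℚ), B.LiesOverPrime ℓ → ∀ σ : GalQ,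
      B.IsFrobeniusAt σ ℓ →
        (LinearMap.charpoly (X.HQ.ρ.ρ σ)).map (res : CuspForm.heckeLocal (pvLevel N1 Pv.q qv)
          (↑(twSet S qv) : Set ℕ) 𝒪 ((θ.comp X.G.G1.rest).comp X.G.rest) →+*
            CuspForm.heckeLocal N1 (↑S : Set ℕ) 𝒪 θ) = LinearMap.charpoly (H.ρ.ρ σ) := by
    intro ℓ hℓ hℓS B hB σ hσ
    have hb := hbad ℓ hℓ hℓS
    obtain ⟨h1, h2, h3, h4, h5⟩ := hb
    refine (map_charpoly_frob (res : CuspForm.heckeLocal (pvLevel N1 Pv.q qv)
      (↑(twSet S qv) : Set ℕ) 𝒪 ((θ.comp X.G.G1.rest).comp X.G.rest) →+*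
        CuspForm.heckeLocal N1 (↑S : Set ℕ) 𝒪 θ)
      (X.HQ.π (CuspForm.heckeAlgebra.T hℓ h1 h2)) (H.π (CuspForm.heckeAlgebra.T hℓ h4 h5)) ℓ ?_ _
      (X.HQ.charpoly_frob ℓ hℓ h1 h2 B hB σ hσ)).trans
      (H.charpoly_frob ℓ hℓ h4 h5 B hB σ hσ).symm
    exact (congrArg (fun f => res (f (CuspForm.heckeAlgebra.T hℓ h1 h2))) X.HQ_π).trans
      ((hres _).trans ((congrArg (CuspForm.heckeLocal.π N1 (↑S : Set ℕ) 𝒪 θ)
        ((congrArg X.G.G1.rest (X.G.rest_T ℓ hℓ h1 h2 h3)).trans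
          (X.G.G1.rest_T ℓ hℓ h3 h2 h4 h5))).trans
        (congrArg (fun f => f (CuspForm.heckeAlgebra.T hℓ h4 h5)) hHπ).symm))
  have hHcond' : cond 𝒪 p fl Smin (Pv.set ∪ Finset.univ.image qv) H.ρ :=
    cond_mono Finset.subset_union_left hHcond
  have hcompat : res.comp X.φQ = τ :=
    compat_tau (T := CuspForm.heckeLocal N1 (↑S : Set ℕ) 𝒪 θ)
      (TQ := CuspForm.heckeLocal (pvLevel N1 Pv.q qv) (↑(twSet S qv) : Set ℕ) 𝒪
        ((θ.comp X.G.G1.rest).comp X.G.rest))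
      ρbar (cond 𝒪 p fl Smin (Pv.set ∪ Finset.univ.image qv)) X.DQ
      H.residue_surjective H.ρ hHcond' X.HQ.ρ
      τ hτl hτe X.φQ X.φQ_local X.φQ_equiv res
      (twSet S qv ∪ (pvLevel N1 Pv.q qv).primeFactors) hfrob
  -- Step 4: the elements `δ_i`
  have hδ : ∀ i : Fin r, ∃ δ : X.DQ.R, δ - 1 ∈ maximalIdeal X.DQ.R ∧ τ δ = 1 ∧
      X.ηW (X.φQ δ) = X.G.d i := by
    intro i
    have hTWi := hTW.2.1 i
    obtain ⟨hq, hqS, hqp⟩ := hTWi
    have hqne : qv i ≠ p := fun h => hqS (h ▸ hyp.hSmin hyp.hpSmin)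
    have hunr : ρbar.IsUnramifiedAt (qv i) := by
      by_contra h
      exact hqS (hyp.hSmin ((hyp.hmin (qv i) hq hqne).2 h))
    have hunrH : H.ρ.IsUnramifiedAt (qv i) :=
      cond_unram hHcond (qv i) hq (fun h => hqS (hsub h))
    exact exists_delta hp hp2 hp𝒪 X.HQ.residue_surjective X.DQ.ρ H.ρ X.HQ.ρ
      X.HQ.residual_absIrr τ hτl hτe X.φQ X.φQ_local X.φQ_equiv (qv i) n hq hqp
      (X.G.G1.P i) (X.G.G1.P_over i)
      (hunrH (X.G.G1.P i) (X.G.G1.P_over i))
      (fun σ hσ => resid_eq_one_of_isEquiv ρbar X.DQ.ρ X.DQ.residual_isEquiv σ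
        (hunr (X.G.G1.P i) (X.G.G1.P_over i) σ hσ))
      (X.G.G1.frob i) (X.G.G1.frob_spec i) (X.G.G1.a i) (X.G.G1.a' i) (X.G.G1.a_ne i)
      (resid_charpoly_of_isEquiv ρbar X.DQ.ρ X.DQ.residual_isEquiv (X.G.G1.frob i)
        (X.G.G1.a i) (X.G.G1.a' i) (X.G.G1.charpoly_frob i))
      (X.G.G1.σ i) (X.G.G1.σ_mem i) X.ηW X.G.gal hgη hCH (X.G.d i) (X.G.d_pow i) (hdη i)
      (X.G.d_gal i) (X.G.Wα i) (X.G.Wβ i) (X.G.W_isCompl i) (hWαη i) (X.G.Wα_d i)
      (X.G.Wα_frob i) (X.G.Wβ_frob i) (X.G.Wα_nil i) (X.G.Wβ_nil i) (X.G.W_lg i)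
  choose δ hδm hτδ hδd using hδ
  -- Step 7: the ideal `Ξ`
  have hresT : H.ρ.residual.IsEquiv (ρbar.baseChangeAlong (ResidueField.map
      (algebraMap 𝒪 (CuspForm.heckeLocal N1 (↑S : Set ℕ) 𝒪 θ)))) :=
    resid_isEquiv_of_tau ρbar hyp.habs X.DQ.ρ H.ρ X.DQ.residual_isEquiv τ hτl hτe
  obtain ⟨b', hb'⟩ := stmt_TRANSPORT X.DQ.R (CuspForm.heckeLocal N1 (↑S : Set ℕ) 𝒪 θ)
    (τ : X.DQ.R →+* CuspForm.heckeLocal N1 (↑S : Set ℕ) 𝒪 θ) hτl X.DQ.ρ H.ρ hτe X.bQ
  have hdetcyc : H.ρ.DetIsCyclotomic p := cond_det hHcond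
  have h2 : IsUnit (2 : CuspForm.heckeLocal N1 (↑S : Set ℕ) 𝒪 θ) := by
    by_contra h
    exact two_notMem_maximalIdeal hp hp2 (natCast_mem_of_algebra (𝒪 := 𝒪) hp𝒪)
      ((mem_maximalIdeal _).2 h)
  have hΞ : pvXi H.ρ b Pv ≤ Ideal.map ((τ.comp X.γ : PRing 𝒪 k g →ₐ[𝒪]
      CuspForm.heckeLocal N1 (↑S : Set ℕ) 𝒪 θ) :
        PRing 𝒪 k g →+* CuspForm.heckeLocal N1 (↑S : Set ℕ) 𝒪 θ) (idealX 𝒪 k g) :=
    H76.pvXi_le_map H.ρ X.DQ.ρ Pv X.γ τ b X.bQ b' (fun j i i' => hb' (Pv.τ j) i i') _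
      X.γ_coord h2
      (fun j => H59.det_eq_one_of_mem_inertia p hp H.ρ hdetcyc (Pv.q j) (Pv.q_prime j)
        (hex j).2.1 (Pv.P j) (Pv.P_over j) (Pv.τ j) (Pv.τ_gen j).1)
      (fun j v => sub_mem_of_resid_unram ρbar H.ρ hresT b' (Pv.τ j)
        ((hex j).2.2.1 (Pv.P j) (Pv.P_over j) (Pv.τ j) (Pv.τ_gen j).1) v)
  -- Step 8: the kernel
  have hker : LinearMap.ker (X.G.G1.π.comp X.G.κ) =
      typeSub X.G.c (fun _ => (1 : 𝒪)) ⊔ ⨆ i, LinearMap.range (X.G.d i - 1) :=
    (ker_comp_eq_sup X.G.κ X.G.κ_surjective X.G.G1.π X.G.d X.G.G1.d X.G.κ_d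
      X.G.G1.ker_π).trans (congrArg (fun z : Submodule 𝒪 X.G.W.V =>
        z ⊔ ⨆ i, LinearMap.range (X.G.d i - 1)) X.G.ker_κ)
  -- Step 9
  let _ : Module (CuspForm.heckeLocal N1 (↑S : Set ℕ) 𝒪 θ) M.V := Module.compHom M.V
    ((ηM : CuspForm.heckeLocal N1 (↑S : Set ℕ) 𝒪 θ →ₐ[𝒪] Module.End 𝒪 M.V) :
      CuspForm.heckeLocal N1 (↑S : Set ℕ) 𝒪 θ →+* Module.End 𝒪 M.V)
  refine H76.pvCore 𝒪 ϖ p r n k (6 * k + g) hp hp𝒪 (CuspForm.heckeLocal N1 (↑S : Set ℕ) 𝒪 θ) M.V
    I1 Iχ (idealX 𝒪 k g) (pvXi H.ρ b Pv) X.DQ.R X.γ X.γ_surjective τ hτs hΞ X.G.W.V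
    (X.ηW.comp X.φQ) δ hδm hτδ X.G.d hδd X.G.d_pow eP X.G.c X.G.c_pow X.G.c_comm
    (fun j a => hcη j (X.φQ a)) ψ hψ hψϖ X.G.rk X.G.b X.G.b_basis (X.G.G1.π.comp X.G.κ)
    (X.G.G1.π_surjective.comp X.G.κ_surjective) hker ?_ h1 hχ
  intro x v
  have h3 : res (X.φQ x) = τ x := congrArg (fun f : X.DQ.R →ₐ[𝒪] _ => f x) hcompat
  exact (hπη (X.φQ x) v).trans
    (congrArg (fun z => ηM z ((X.G.G1.π.comp X.G.κ) v)) h3)

end Fermat.Agent.L.Pivot3.H60

end
-- ==== END Fermat.Agent.L.Pivot3.H60_PVAsmG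

-- ==== BEGIN Fermat.Agent.L.Pivot3.H60_PVNUG
section

set_option autoImplicit false
set_option linter.style.haveILetI false
set_option linter.unusedSectionVars false

namespace Fermat.Agent.L.Pivot3.H60

open IsLocalRing Polynomial CuspForm Fermat.Agent.S56 Fermat.Agent.S59 Fermat.Agent.S59.Asm
  Fermat.Agent.L.Pivot Fermat.Agent.L.Pivot.H72
open scoped TensorProduct

/-- **PV-NU** (C), unbundled: the text of `L.Pivot.Stmt_PVNU` with `PVHyp` replaced by the
fields `hyp`, `hsq`, `hNS`, `hex`, `hPvN`, `heP`. -/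
def Stmt_PVNUG : Prop :=
  ∀ (𝒪 : Type) [CommRing 𝒪] [IsDomain 𝒪] [IsDiscreteValuationRing 𝒪]
    [IsAdicComplete (maximalIdeal 𝒪) 𝒪] [Finite (ResidueField 𝒪)] [CharZero 𝒪]
    (p : ℕ) [Fact p.Prime] (fl : Bool) (ρbar : ResidualGaloisRep (ResidueField 𝒪))
    (N1 : ℕ) [NeZero N1] (S Smin : Finset ℕ)
    (θ : CuspForm.heckeAlgebra N1 2 (↑S : Set ℕ) →+* ResidueField 𝒪)
    (M : HMod 𝒪 N1 (↑S : Set ℕ) θ) (k : ℕ) (Pv : PivotPrimes k) (eP : Fin k → ℕ),
    Hyp 𝒪 p ρbar S Smin → Squarefree N1 → (∀ q : ℕ, q.Prime → q ∣ N1 → q ∈ S) →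
    Pv.IsExceptional p ρbar → (∀ j, Pv.q j ∣ N1) →
    (∀ j, p ^ eP j ∣ Pv.q j - 1 ∧ ¬ p ^ (eP j + 1) ∣ Pv.q j - 1) →
    ∀ (g r n : ℕ) (qv : Fin r → ℕ), IsTWFamily ρbar p n S qv →
    ∀ [NeZero (twLevel N1 qv)] [NeZero (pvLevel N1 Pv.q qv)]
      [Fact (CuspForm.HasIntegralStructure (pvLevel N1 Pv.q qv) 2)]
      (X : PVCtx 𝒪 p fl ρbar N1 S Smin θ M Pv eP g n qv)
      (ζ : Fin k → 𝒪), (∀ j, IsPrimitiveRoot (ζ j) (p ^ eP j)) →
    ∀ (ψ : Fin k → 𝒪), (∀ j, ψ j ^ (p ^ eP j) = 1 ∧ ψ j ≠ 1) →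
    ∀ (𝔞 : (Fin k → 𝒪) → Ideal (PRing 𝒪 k g)),
      (∀ δ ∈ pvTypes p eP ζ, KilledByType g δ (𝔞 δ)) →
    ∀ f ∈ (pvTypes p eP ζ).inf 𝔞, ∀ v : X.G.W.V,
      X.ηW (X.φQ (X.γ f)) v ∈ typeSub X.G.c ψ

/-- **PV-NU** (C), unbundled, from **PV-NU-POINT** (C-pt). -/
theorem stmt_PVNUG_of (hpt : Stmt_PVNUPoint) : Stmt_PVNUG := by
  intro 𝒪 _ _ _ _ _ _ p _ fl ρbar N1 _ S Smin θ M k Pv eP hyp hsq hNS hex hPvN heP g r n qv hqv _ _ _
    X ζ hζ ψ hψ
    𝔞 h𝔞
  have hp : p.Prime := Fact.out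
  have hpS : p ∈ S := hyp.hSmin hyp.hpSmin
  -- the primes of the level
  have hPvS : ∀ j, Pv.q j ∈ S := fun j => hNS _ (Pv.q_prime j) (hPvN j)
  have hne : ∀ j i, qv i ≠ Pv.q j := fun j i h => (hqv.2.1 i).2.1 (h ▸ hPvS j)
  have hNS' : ∀ q' : ℕ, q'.Prime → q' ∣ pvLevel N1 Pv.q qv → q' ∈ twSet S qv := by
    intro q' hq' hdiv
    unfold twSet
    rcases prime_dvd_pvLevel N1 Pv.q qv Pv.q_prime (fun i => (hqv.2.1 i).1) hq' hdiv with
      h | ⟨i, rfl⟩ | ⟨j, rfl⟩
    · exact Finset.mem_union_left _ (hNS q' hq' h)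
    · exact Finset.mem_union_right _ (Finset.mem_image_of_mem _ (Finset.mem_univ i))
    · exact Finset.mem_union_left _ (hPvS j)
  have hNS'' : ∀ q' : ℕ, q'.Prime → q' ∣ pvLevel N1 Pv.q qv →
      q' ∈ (↑(twSet S qv) : Set ℕ) := fun q' hq' hdiv => Finset.mem_coe.2 (hNS' q' hq' hdiv)
  -- the Hecke ring is reduced
  haveI : Module.Finite ℤ (heckeAlgebra (pvLevel N1 Pv.q qv) 2 (↑(twSet S qv) : Set ℕ)) :=
    Fermat.Agent.S22.result (pvLevel N1 Pv.q qv) 2 (↑(twSet S qv) : Set ℕ)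
  haveI : IsReduced (heckeAlgebra (pvLevel N1 Pv.q qv) 2 (↑(twSet S qv) : Set ℕ)) :=
    Fermat.Agent.R.H58.stmt_HeckeReduced (pvLevel N1 Pv.q qv) (↑(twSet S qv) : Set ℕ) hNS''
  haveI : IsReduced (heckeLocal (pvLevel N1 Pv.q qv) (↑(twSet S qv) : Set ℕ) 𝒪
      ((θ.comp X.G.G1.rest).comp X.G.rest)) :=
    Fermat.Agent.R.H2.isReduced_of_flat_of_adjoin_eq_top
      (heckeAlgebra (pvLevel N1 Pv.q qv) 2 (↑(twSet S qv) : Set ℕ)) 𝒪
      (heckeLocal (pvLevel N1 Pv.q qv) (↑(twSet S qv) : Set ℕ) 𝒪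
        ((θ.comp X.G.G1.rest).comp X.G.rest)) X.HQ.π X.HQ.adjoin_range_π
  -- the universal deformation
  have hdetQ : X.DQ.ρ.DetIsCyclotomic p := detIsCyclotomic_of_cond fl Smin _ _ X.DQ.isOfType
  have hresQ : ∀ j, X.DQ.ρ.residual.IsUnramifiedAt (Pv.q j) := fun j =>
    resid_unramified_of_isEquiv_baseChange _ ρbar _ X.DQ.residual_isEquiv _ (hex j).2.2.1
  -- saturation
  have hsat : ∀ c : 𝒪, c ≠ 0 → ∀ v : X.G.W.V, c • v ∈ typeSub X.G.c ψ → v ∈ typeSub X.G.c ψ :=
    fun c hc v hv => H76.typeSub_saturated hp.pos X.G.c_comm X.G.c_pow X.G.b_basis ψ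
      (fun j => (hψ j).1) c hc v hv
  refine pvNU_mod p hp hyp.hp2 hyp.hp𝒪 g Pv (fun j => (hex j).1) eP heP ζ hζ X.DQ.R
    X.DQ.residue_surjective X.DQ.ρ hdetQ hresQ X.bQ X.γ X.γ_coord
    (heckeLocal (pvLevel N1 Pv.q qv) (↑(twSet S qv) : Set ℕ) 𝒪
      ((θ.comp X.G.G1.rest).comp X.G.rest)) X.HQ.ρ X.φQ X.φQ_local X.φQ_equiv X.G.W.V X.ηW
    (typeSub X.G.c ψ) hsat ?_ 𝔞 h𝔞
  -- the points occurring in `W / typeSub c ψ` are not unipotent at the pivot primes
  intro O _ _ _ _ _ _ _ _ x hx hkill j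
  obtain ⟨hN, hqM, hMq⟩ := pvLevel_split N1 Pv.q qv (NeZero.ne N1) hsq Pv.q_prime Pv.q_inj
    (fun i => (hqv.2.1 i).1) j (hPvN j) (hne j)
  haveI hNq0 : NeZero (pvLevel N1 Pv.q qv / Pv.q j) := by
    refine ⟨fun h0 => ?_⟩
    rw [h0] at hMq
    rcases mul_eq_zero.1 hMq with h | h
    · rw [h, zero_mul] at hN
      exact (NeZero.ne (pvLevel N1 Pv.q qv)) hN
    · exact (Pv.q_prime j).ne_zero h
  refine not_unipotent_of_new hpt p hp hyp.hp2 (pvLevel N1 Pv.q qv) (twSet S qv) (Pv.q j)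
    (Pv.q_prime j) (hex j).2.1 hN hqM hMq (Finset.mem_union_left _ hpS) hNS' _ X.HQ.π
    X.HQ.ρ X.HQ.charpoly_frob X.HQ.residual_absIrr X.HQ_det.1 O _ hx ?_
  intro χ' hχ'
  refine X.G.new ψ hψ O ((x : _ →+* O).comp X.HQ.π) (fun t ht => ?_) j χ' hχ'
  refine hkill (X.HQ.π t) fun v => ?_
  rw [X.HQ_π, X.ηW_π]
  exact ht v

end Fermat.Agent.L.Pivot3.H60

end
-- ==== END Fermat.Agent.L.Pivot3.H60_PVNUG

-- ==== BEGIN Fermat.Agent.L.Pivot3.H60_PVUnipG
section

set_option autoImplicit false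
set_option linter.style.haveILetI false
set_option linter.unusedSectionVars false
set_option linter.unusedVariables false

namespace Fermat.Agent.L.Pivot3.H60

open Polynomial IsLocalRing CuspForm Fermat.Agent.S56 Fermat.Agent.S59 Fermat.Agent.S59.Asm
  Fermat.Agent.S59.TWGal Fermat.Agent.R Fermat.Agent.L.Pivot Fermat.Agent.L.Pivot.H76

/-- **PV-UNIP** (B), unbundled: the text of `L.Pivot.Stmt_PVUnip` with `PVHyp` replaced by the
fields `hex`, `hNS`. -/
def Stmt_PVUnipG : Prop :=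
  ∀ (𝒪 : Type) [CommRing 𝒪] [IsDomain 𝒪] [IsDiscreteValuationRing 𝒪]
    [IsAdicComplete (maximalIdeal 𝒪) 𝒪] [Finite (ResidueField 𝒪)] [CharZero 𝒪]
    (p : ℕ) [Fact p.Prime] (fl : Bool) (ρbar : ResidualGaloisRep (ResidueField 𝒪))
    (N1 : ℕ) [NeZero N1] (S Smin : Finset ℕ)
    (θ : CuspForm.heckeAlgebra N1 2 (↑S : Set ℕ) →+* ResidueField 𝒪)
    (M : HMod 𝒪 N1 (↑S : Set ℕ) θ) (k : ℕ) (Pv : PivotPrimes k) (eP : Fin k → ℕ),
    Pv.IsExceptional p ρbar → (∀ q : ℕ, q.Prime → q ∣ N1 → q ∈ S) →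
    ∀ (g r n : ℕ) (qv : Fin r → ℕ), IsTWFamily ρbar p n S qv →
    ∀ [NeZero (twLevel N1 qv)] [NeZero (pvLevel N1 Pv.q qv)]
      [Fact (CuspForm.HasIntegralStructure (twLevel N1 qv) 2)]
      [Fact (CuspForm.HasIntegralStructure (pvLevel N1 Pv.q qv) 2)]
      (X : PVCtx 𝒪 p fl ρbar N1 S Smin θ M Pv eP g n qv)
      (HQ1 : CuspForm.HeckeGaloisRepDatum (twLevel N1 qv) (↑(twSet S qv) : Set ℕ) 𝒪
        (θ.comp X.G.G1.rest)
        (CuspForm.heckeLocal (twLevel N1 qv) (↑(twSet S qv) : Set ℕ) 𝒪 (θ.comp X.G.G1.rest))),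
    HQ1.π = CuspForm.heckeLocal.π (twLevel N1 qv) (↑(twSet S qv) : Set ℕ) 𝒪
      (θ.comp X.G.G1.rest) →
    HQ1.ρ.DetIsCyclotomic p →
    (∀ j, HQ1.ρ.IsUnipotentOnInertiaAt (Pv.q j)) →
    ∀ f ∈ idealUnip g (fun j => ((Pv.q j : ℕ) : 𝒪)), ∀ v : X.G.W.V,
      X.ηW (X.φQ (X.γ f)) v ∈ typeSub X.G.c (fun _ => (1 : 𝒪))

set_option maxHeartbeats 1000000 in
set_option synthInstance.maxHeartbeats 400000 in
/-- **PV-UNIP** (B), unbundled. -/
theorem stmt_PVUnipG : Stmt_PVUnipG := by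
  intro 𝒪 _ _ _ _ _ _ p _ fl ρbar N1 _ S Smin θ M k Pv eP hex hNS g r n qv hTW _ _ _ _ X HQ1 hHQ1π
    hdet1 hU f hf v
  have hp : p.Prime := Fact.out
  have hqp : ∀ j, Pv.q j ≠ p := fun j => (hex j).2.1
  -- Step 1: the action on `G1.W` and the restriction
  obtain ⟨ηW1, hηW1⟩ := H85.stmt_LOCMOD 𝒪 (twLevel N1 qv) (↑(twSet S qv) : Set ℕ)
    (θ.comp X.G.G1.rest) X.G.G1.W
  obtain ⟨res, hres⟩ := H85.stmt_RESLOC 𝒪 (twLevel N1 qv) (pvLevel N1 Pv.q qv)
    (↑(twSet S qv) : Set ℕ) (↑(twSet S qv) : Set ℕ) (θ.comp X.G.G1.rest) X.G.rest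
  -- Step 2: `κ` intertwines
  have hκ : ∀ (t : CuspForm.heckeLocal (pvLevel N1 Pv.q qv) (↑(twSet S qv) : Set ℕ) 𝒪
      ((θ.comp X.G.G1.rest).comp X.G.rest)) (v : X.G.W.V),
      X.G.κ (X.ηW t v) = ηW1 (res t) (X.G.κ v) :=
    H77.intertwine_of_gen X.HQ.adjoin_range_π X.ηW ηW1 res X.G.κ fun t v => by
      rw [X.HQ_π, X.ηW_π, X.G.κ_η, hres, hηW1]
  -- Step 3: the composite `res ∘ φQ` is local and carries `DQ.ρ` to `HQ1.ρ`
  have hresl : IsLocalHom (res : CuspForm.heckeLocal (pvLevel N1 Pv.q qv)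
      (↑(twSet S qv) : Set ℕ) 𝒪 ((θ.comp X.G.G1.rest).comp X.G.rest) →+*
      CuspForm.heckeLocal (twLevel N1 qv) (↑(twSet S qv) : Set ℕ) 𝒪 (θ.comp X.G.G1.rest)) :=
    isLocalHom_of_finite (𝒪 := 𝒪) res
  have hf1 := H77.isLocalHom_comp_algHom res X.φQ hresl X.φQ_local
  have hD : X.DQ.ρ.residual.IsAbsolutelyIrreducible :=
    Fermat.Agent.S59.Datum.H57.absIrr_of_isEquiv X.DQ.residual_isEquiv
      (Fermat.Agent.S59.Datum.H57.absIrr_baseChangeAlong _ ρbar X.DQ.absIrr)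
  have hirr := Fermat.Agent.R.H86.residual_absIrr_baseChangeAlong _ hf1 X.DQ.ρ hD
  have hdvd : twLevel N1 qv ∣ pvLevel N1 Pv.q qv := Dvd.intro _ rfl
  have he : (X.DQ.ρ.baseChangeAlong ((res.comp X.φQ : X.DQ.R →ₐ[𝒪] _) : X.DQ.R →+* _)
      hf1).IsEquiv HQ1.ρ := by
    refine H57.isEquiv_of_frobenius _ HQ1.ρ hirr
      (twSet S qv ∪ (pvLevel N1 Pv.q qv).primeFactors) ?_
    intro ℓ hℓ hℓS B hB σ hσ
    have h1 : ¬ ℓ ∣ pvLevel N1 Pv.q qv := fun h => hℓS (Finset.mem_union_right _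
      (Nat.mem_primeFactors.2 ⟨hℓ, h, NeZero.ne _⟩))
    have h2 : ℓ ∉ (↑(twSet S qv) : Set ℕ) := fun h => hℓS (Finset.mem_union_left _
      (Finset.mem_coe.1 h))
    have h3 : ¬ ℓ ∣ twLevel N1 qv := fun h => h1 (h.trans hdvd)
    rw [charpoly_bcAlong, HQ1.charpoly_frob ℓ hℓ h3 h2 B hB σ hσ]
    have h4 : (LinearMap.charpoly (X.DQ.ρ.ρ σ)).map
        ((res.comp X.φQ : X.DQ.R →ₐ[𝒪] _) : X.DQ.R →+* _) =
        ((LinearMap.charpoly (X.DQ.ρ.ρ σ)).map (X.φQ : X.DQ.R →+*
          CuspForm.heckeLocal (pvLevel N1 Pv.q qv) (↑(twSet S qv) : Set ℕ) 𝒪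
            ((θ.comp X.G.G1.rest).comp X.G.rest))).map
          (res : CuspForm.heckeLocal (pvLevel N1 Pv.q qv) (↑(twSet S qv) : Set ℕ) 𝒪
            ((θ.comp X.G.G1.rest).comp X.G.rest) →+*
            CuspForm.heckeLocal (twLevel N1 qv) (↑(twSet S qv) : Set ℕ) 𝒪
              (θ.comp X.G.G1.rest)) := by
      rw [Polynomial.map_map]
      rfl
    have h5 : LinearMap.charpoly ((X.DQ.ρ.baseChangeAlong (X.φQ : X.DQ.R →+*
        CuspForm.heckeLocal (pvLevel N1 Pv.q qv) (↑(twSet S qv) : Set ℕ) 𝒪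
          ((θ.comp X.G.G1.rest).comp X.G.rest)) X.φQ_local).ρ σ) =
        (LinearMap.charpoly (X.DQ.ρ.ρ σ)).map (X.φQ : X.DQ.R →+*
          CuspForm.heckeLocal (pvLevel N1 Pv.q qv) (↑(twSet S qv) : Set ℕ) 𝒪
            ((θ.comp X.G.G1.rest).comp X.G.rest)) :=
      charpoly_bcAlong _ X.φQ_local X.DQ.ρ σ
    rw [h4, ← h5, charpoly_of_isEquiv X.φQ_equiv σ]
    refine H77.map_charpoly_frob _ (X.HQ.π (CuspForm.heckeAlgebra.T hℓ h1 h2)) _ ℓ ?_ _
      (X.HQ.charpoly_frob ℓ hℓ h1 h2 B hB σ hσ)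
    have e1 := RingHom.congr_fun X.HQ_π (CuspForm.heckeAlgebra.T hℓ h1 h2)
    have e2 := RingHom.congr_fun hHQ1π (CuspForm.heckeAlgebra.T hℓ h3 h2)
    have e3 := hres (CuspForm.heckeAlgebra.T hℓ h1 h2)
    have e4 := X.G.rest_T ℓ hℓ h1 h2 h3
    exact (congrArg res e1).trans (e3.trans ((congrArg _ e4).trans e2.symm))
  -- Step 4: `TQ1` is reduced
  have hNS1 : ∀ q : ℕ, q.Prime → q ∣ twLevel N1 qv → q ∈ (↑(twSet S qv) : Set ℕ) := by
    intro q hq hqN
    by_cases hqN1 : q ∣ N1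
    · exact H41.subset_twSet S qv (Finset.mem_coe.2 (hNS q hq hqN1))
    · exact H41.new_prime_mem_twSet N1 S qv (fun j => (hTW.2.1 j).1) q hq hqN hqN1
  haveI : Module.Finite ℤ (CuspForm.heckeAlgebra (twLevel N1 qv) 2 (↑(twSet S qv) : Set ℕ)) :=
    Fermat.Agent.S22.result (twLevel N1 qv) 2 (↑(twSet S qv) : Set ℕ)
  haveI : IsReduced (CuspForm.heckeAlgebra (twLevel N1 qv) 2 (↑(twSet S qv) : Set ℕ)) :=
    H58.stmt_HeckeReduced (twLevel N1 qv) (↑(twSet S qv) : Set ℕ) hNS1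
  have hadj : Algebra.adjoin 𝒪 (Set.range (CuspForm.heckeLocal.π (twLevel N1 qv)
      (↑(twSet S qv) : Set ℕ) 𝒪 (θ.comp X.G.G1.rest))) = ⊤ := by
    rw [← hHQ1π]
    exact HQ1.adjoin_range_π
  haveI : IsReduced (CuspForm.heckeLocal (twLevel N1 qv) (↑(twSet S qv) : Set ℕ) 𝒪
      (θ.comp X.G.G1.rest)) :=
    H2.isReduced_of_flat_of_adjoin_eq_top
      (CuspForm.heckeAlgebra (twLevel N1 qv) 2 (↑(twSet S qv) : Set ℕ)) 𝒪
      (CuspForm.heckeLocal (twLevel N1 qv) (↑(twSet S qv) : Set ℕ) 𝒪 (θ.comp X.G.G1.rest))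
      (CuspForm.heckeLocal.π (twLevel N1 qv) (↑(twSet S qv) : Set ℕ) 𝒪 (θ.comp X.G.G1.rest))
      hadj
  -- Step 5: the universal deformation is residually unramified at the pivot primes
  have hresQ : ∀ j, ∀ σ ∈ (Pv.P j).inertiaSubgroupIn ℚ, X.DQ.ρ.residual.ρ σ = 1 :=
    fun j σ hσ => H77.resid_eq_one_of_isEquiv ρbar X.DQ.ρ X.DQ.residual_isEquiv σ
      ((hex j).2.2.1 (Pv.P j) (Pv.P_over j) σ hσ)
  exact pvUnip_modQ p hp g Pv hqp X.DQ.R X.DQ.ρ hresQ X.bQ X.γ X.γ_coord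
    (CuspForm.heckeLocal (twLevel N1 qv) (↑(twSet S qv) : Set ℕ) 𝒪 (θ.comp X.G.G1.rest))
    HQ1.ρ hdet1 hU _ X.φQ res hf1 he X.G.W.V X.G.G1.W.V X.G.c X.G.κ X.G.ker_κ X.ηW ηW1 hκ
    f hf v

end Fermat.Agent.L.Pivot3.H60

end
-- ==== END Fermat.Agent.L.Pivot3.H60_PVUnipG

-- ==== BEGIN Fermat.Agent.L.Pivot3.H80_AutoUnr
section

/-!
# PIVOT at `p = 3` (package PIVOT3, owner helper75), leaf AUTO-UNR, the DATUM FORM (helper80)

For an auxiliary prime `r` (`r ≠ p`, `p ∤ r - 1`) at which the residual representation `ρbar` is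
unramified with `det ρbar(Frob_r) = r` and `tr ρbar(Frob_r)² ≠ (r + 1)²`, EVERY lift `ρ` of
`ρbar` (to a noetherian local ring `A` with `p ∈ 𝔪`) is unramified at `r`.

* `Stmt_AutoUnrMain` : the statement of helper34's `autoUnr_main`
  (`L/Pivot3/H34_AutoUnrCore.lean`): the same with hypotheses on `ρ.residual` at one place `P`
  and one Frobenius `φ` at `P`;
* `autoUnr_datum`    : the datum form, all hypotheses unfolded;
* `AuxAtH`, `Stmt_AutoUnrH` : helper24's `AuxAt`, `Stmt_AutoUnr` (verbatim);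
* `stmt_AutoUnr_of   : Stmt_AutoUnrMain → Stmt_AutoUnrH`.

Transport of unramifiedness, determinant and trace along `ResidualGaloisRep.IsEquiv` and
`ResidualGaloisRep.baseChangeAlong`, and `(1 - r) r² ((1 + r)² - t²) ≠ 0` in characteristic `p`.
-/

set_option autoImplicit false
set_option linter.unusedSectionVars false
set_option linter.unusedVariables false
set_option linter.style.haveILetI false

noncomputable section

open IsLocalRing TensorProduct

namespace Fermat.Agent.L.Pivot3.H80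

/-- `Q̄`. -/
abbrev Qb : Type := AlgebraicClosure ℚ

/-- The absolute Galois group of `ℚ`. -/
abbrev GQ : Type := Qb ≃ₐ[ℚ] Qb

/-! ## Transport along equivalences and base change (residual representations) -/

section Transport

variable {k : Type} [Field k]

theorem rho_eq_of_equiv {ρ₁ ρ₂ : ResidualGaloisRep k} (e : ResidualGaloisRep.Equiv ρ₁ ρ₂)
    (σ : GQ) :
    ρ₂.ρ σ = (e.toLinearEquiv : ρ₁.V →ₗ[k] ρ₂.V) ∘ₗ ρ₁.ρ σ ∘ₗ
      (e.toLinearEquiv.symm : ρ₂.V →ₗ[k] ρ₁.V) := by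
  refine LinearMap.ext fun x => ?_
  rw [LinearMap.comp_apply, LinearMap.comp_apply, LinearEquiv.coe_coe, LinearEquiv.coe_coe,
    e.map_apply, LinearEquiv.apply_symm_apply]

theorem det_eq_of_isEquiv {ρ₁ ρ₂ : ResidualGaloisRep k} (h : ρ₁.IsEquiv ρ₂) (σ : GQ) :
    LinearMap.det (ρ₂.ρ σ) = LinearMap.det (ρ₁.ρ σ) := by
  obtain ⟨e⟩ := h
  rw [rho_eq_of_equiv e σ, LinearMap.det_conj]

theorem trace_eq_of_isEquiv {ρ₁ ρ₂ : ResidualGaloisRep k} (h : ρ₁.IsEquiv ρ₂) (σ : GQ) :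
    LinearMap.trace k ρ₂.V (ρ₂.ρ σ) = LinearMap.trace k ρ₁.V (ρ₁.ρ σ) := by
  obtain ⟨e⟩ := h
  have h1 : ρ₂.ρ σ = e.toLinearEquiv.conj (ρ₁.ρ σ) := by
    rw [rho_eq_of_equiv e σ]
    rfl
  rw [h1, LinearMap.trace_conj']

theorem one_of_isEquiv {ρ₁ ρ₂ : ResidualGaloisRep k} (h : ρ₁.IsEquiv ρ₂) (σ : GQ)
    (h1 : ρ₂.ρ σ = 1) : ρ₁.ρ σ = 1 := by
  obtain ⟨e⟩ := h
  refine LinearMap.ext fun x => ?_
  apply e.toLinearEquiv.injective
  rw [e.map_apply, h1]
  rfl

variable {k' : Type} [Field k']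

theorem rho_baseChangeAlong (φ : k →+* k') (ρbar : ResidualGaloisRep k) (σ : GQ) :
    (ρbar.baseChangeAlong φ).ρ σ =
      letI : Algebra k k' := φ.toAlgebra
      (ρbar.ρ σ).baseChange k' := rfl

theorem det_baseChangeAlong (φ : k →+* k') (ρbar : ResidualGaloisRep k) (σ : GQ) :
    LinearMap.det ((ρbar.baseChangeAlong φ).ρ σ) = φ (LinearMap.det (ρbar.ρ σ)) := by
  letI : Algebra k k' := φ.toAlgebra
  rw [rho_baseChangeAlong]
  exact LinearMap.det_baseChange (ρbar.ρ σ)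

theorem trace_baseChangeAlong (φ : k →+* k') (ρbar : ResidualGaloisRep k) (σ : GQ) :
    LinearMap.trace k' (ρbar.baseChangeAlong φ).V ((ρbar.baseChangeAlong φ).ρ σ)
      = φ (LinearMap.trace k ρbar.V (ρbar.ρ σ)) := by
  letI : Algebra k k' := φ.toAlgebra
  rw [rho_baseChangeAlong]
  exact LinearMap.trace_baseChange (ρbar.ρ σ) k'

theorem one_baseChangeAlong (φ : k →+* k') (ρbar : ResidualGaloisRep k) (σ : GQ)
    (h1 : ρbar.ρ σ = 1) : (ρbar.baseChangeAlong φ).ρ σ = 1 := by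
  letI : Algebra k k' := φ.toAlgebra
  rw [rho_baseChangeAlong, h1]
  exact LinearMap.baseChange_one _ _

end Transport

/-! ## Arithmetic in characteristic `p` -/

section Arith

variable {k : Type} [Field k]

/-- In a field with `(p : k) = 0`, `p` prime: `(n : k) = 0 ↔ p ∣ n`. -/
theorem natCast_eq_zero_iff_of_prime {p : ℕ} (hp : p.Prime) (hpk : (p : k) = 0) (n : ℕ) :
    (n : k) = 0 ↔ p ∣ n := by
  have h1 : ringChar k ∣ p := (ringChar.spec k p).1 hpk
  have h2 : ringChar k ≠ 1 := by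
    intro h
    have : ((1 : ℕ) : k) = 0 := (ringChar.spec k 1).2 (by rw [h])
    rw [Nat.cast_one] at this
    exact one_ne_zero this
  have h3 : ringChar k = p := (Nat.dvd_prime hp).1 h1 |>.resolve_left h2
  rw [ringChar.spec k n, h3]

theorem cast_ne_zero_of_ne {p r : ℕ} (hp : p.Prime) (hpk : (p : k) = 0) (hr : r.Prime)
    (hrp : r ≠ p) : (r : k) ≠ 0 := by
  rw [Ne, natCast_eq_zero_iff_of_prime hp hpk]
  intro hd
  exact hrp ((Nat.prime_dvd_prime_iff_eq hp hr).1 hd).symm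

theorem one_sub_cast_ne_zero {p r : ℕ} (hp : p.Prime) (hpk : (p : k) = 0) (hr : r.Prime)
    (hpr : ¬ p ∣ r - 1) : (1 : k) - (r : k) ≠ 0 := by
  intro h
  apply hpr
  rw [← natCast_eq_zero_iff_of_prime (k := k) hp hpk, Nat.cast_sub hr.one_lt.le, Nat.cast_one]
  rw [sub_eq_zero] at h
  rw [← h, sub_self]

end Arith

/-! ## The statements -/

/-- The statement of helper34's `autoUnr_main` (inertia form at one place). -/
def Stmt_AutoUnrMain : Prop :=
  ∀ (A : Type) [CommRing A] [IsLocalRing A] [IsNoetherianRing A]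
    (p : ℕ) (hp : p.Prime) (hpA : (p : A) ∈ maximalIdeal A)
    (ρ : GaloisRepAdic A) (q : ℕ) (hq : q.Prime) (hqp : q ≠ p)
    (P : ValuationSubring Qb) (hP : P.LiesOverPrime q)
    (hur : ∀ σ ∈ P.inertiaSubgroupIn ℚ, ρ.residual.ρ σ = 1)
    (φ : GQ) (hφ : P.IsFrobeniusAt φ q)
    (hne : (1 - (q : ResidueField A)) * LinearMap.det (ρ.residual.ρ φ) *
      ((1 + (q : ResidueField A)) ^ 2 * LinearMap.det (ρ.residual.ρ φ) -
        (q : ResidueField A) *
          LinearMap.trace (ResidueField A) ρ.residual.V (ρ.residual.ρ φ) ^ 2) ≠ 0),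
    ∀ σ ∈ P.inertiaSubgroupIn ℚ, ρ.ρ σ = 1

/-- **AUTO-UNR, datum form** (all hypotheses unfolded): every lift of `ρbar` is unramified at an
auxiliary prime `r`. -/
theorem autoUnr_datum (hmain : Stmt_AutoUnrMain)
    (A : Type) [CommRing A] [IsLocalRing A] [IsNoetherianRing A]
    (p : ℕ) (hp : p.Prime) (hpA : (p : A) ∈ maximalIdeal A)
    (k : Type) [Field k] (ρbar : ResidualGaloisRep k) (φ : k →+* ResidueField A)
    (ρ : GaloisRepAdic A) (hres : ρ.residual.IsEquiv (ρbar.baseChangeAlong φ))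
    (r : ℕ) (hr : r.Prime) (hrp : r ≠ p) (hpr : ¬ p ∣ r - 1)
    (hunr : ρbar.IsUnramifiedAt r)
    (hfrob : ∀ P : ValuationSubring (AlgebraicClosure ℚ), P.LiesOverPrime r →
      ∀ σ, P.IsFrobeniusAt σ r →
        LinearMap.det (ρbar.ρ σ) = (r : k) ∧
          LinearMap.trace k _ (ρbar.ρ σ) ^ 2 ≠ ((r : k) + 1) ^ 2) :
    ρ.IsUnramifiedAt r := by
  intro P hP
  obtain ⟨σ₀, hσ₀⟩ := Fermat.Agent.Lib.FrobExists.exists_isFrobeniusAt r hr P hP
  obtain ⟨hdet, htr⟩ := hfrob P hP σ₀ hσ₀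
  -- characteristic `p`
  have hpκ : ((p : ℕ) : ResidueField A) = 0 := by
    have : residue A (p : A) = 0 := (residue_eq_zero_iff _).2 hpA
    rwa [map_natCast] at this
  have hpk : ((p : ℕ) : k) = 0 := by
    apply φ.injective
    rw [map_natCast, map_zero]
    exact hpκ
  -- the residual representation at `P`
  have hur : ∀ σ ∈ P.inertiaSubgroupIn ℚ, ρ.residual.ρ σ = 1 := fun σ hσ =>
    one_of_isEquiv hres σ (one_baseChangeAlong φ ρbar σ (hunr P hP σ hσ))
  have hD : LinearMap.det (ρ.residual.ρ σ₀) = φ (r : k) := by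
    rw [← det_eq_of_isEquiv hres σ₀, det_baseChangeAlong, hdet]
  have hT : LinearMap.trace (ResidueField A) ρ.residual.V (ρ.residual.ρ σ₀)
      = φ (LinearMap.trace k ρbar.V (ρbar.ρ σ₀)) := by
    rw [← trace_eq_of_isEquiv hres σ₀, trace_baseChangeAlong]
  refine hmain A p hp hpA ρ r hr hrp P hP hur σ₀ hσ₀ ?_
  rw [hD, hT]
  have hcast : ((r : ℕ) : ResidueField A) = φ (r : k) := (map_natCast φ r).symm
  rw [hcast]
  set t : k := LinearMap.trace k ρbar.V (ρbar.ρ σ₀) with ht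
  have e : (1 - φ (r : k)) * φ (r : k) * ((1 + φ (r : k)) ^ 2 * φ (r : k) - φ (r : k) * φ t ^ 2)
      = φ ((1 - (r : k)) * ((r : k) * (r : k)) * (((r : k) + 1) ^ 2 - t ^ 2)) := by
    simp only [map_mul, map_sub, map_add, map_pow, map_one]
    ring
  rw [e]
  intro h0
  have h1 : (1 - (r : k)) * ((r : k) * (r : k)) * (((r : k) + 1) ^ 2 - t ^ 2) = 0 :=
    φ.injective (by rw [h0, map_zero])
  have hr0 : (r : k) ≠ 0 := cast_ne_zero_of_ne hp hpk hr hrp
  have hr1 : (1 : k) - (r : k) ≠ 0 := one_sub_cast_ne_zero hp hpk hr hpr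
  rcases mul_eq_zero.1 h1 with h2 | h2
  · rcases mul_eq_zero.1 h2 with h3 | h3
    · exact hr1 h3
    · rcases mul_eq_zero.1 h3 with h4 | h4 <;> exact hr0 h4
  · exact htr (sub_eq_zero.1 h2).symm

/-! ## helper24's interface (verbatim) -/

/-- Hypothesis on `ρbar` at an auxiliary prime `r` (helper24's `AuxAt`). -/
def AuxAtH (p : ℕ) {k : Type} [Field k] (ρbar : ResidualGaloisRep k) (r : ℕ) : Prop :=
  r.Prime ∧ r ≠ p ∧ ¬ p ∣ r - 1 ∧ ρbar.IsUnramifiedAt r ∧
  ∀ P : ValuationSubring (AlgebraicClosure ℚ), P.LiesOverPrime r → ∀ σ, P.IsFrobeniusAt σ r →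
    LinearMap.det (ρbar.ρ σ) = (r : k) ∧ LinearMap.trace k _ (ρbar.ρ σ) ^ 2 ≠ ((r : k) + 1) ^ 2

/-- **AUTO-UNR**, datum form (helper24's `Stmt_AutoUnr`). -/
def Stmt_AutoUnrH : Prop :=
  ∀ (A : Type) [CommRing A] [IsLocalRing A] [IsNoetherianRing A]
    [IsAdicComplete (maximalIdeal A) A]
    (p : ℕ), p.Prime → (p : A) ∈ maximalIdeal A →
    ∀ (k : Type) [Field k] (ρbar : ResidualGaloisRep k) (φ : k →+* ResidueField A)
      (ρ : GaloisRepAdic A),
    ρ.residual.IsEquiv (ρbar.baseChangeAlong φ) → ∀ r, AuxAtH p ρbar r → ρ.IsUnramifiedAt r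

/-- **AUTO-UNR, datum form**, from the inertia form. -/
theorem stmt_AutoUnr_of (hmain : Stmt_AutoUnrMain) : Stmt_AutoUnrH := by
  intro A _ _ _ _ p hp hpA k _ ρbar φ ρ hres r haux
  exact autoUnr_datum hmain A p hp hpA k ρbar φ ρ hres r haux.1 haux.2.1 haux.2.2.1
    haux.2.2.2.1 haux.2.2.2.2

end Fermat.Agent.L.Pivot3.H80

end
end
-- ==== END Fermat.Agent.L.Pivot3.H80_AutoUnr

-- ==== BEGIN Fermat.Agent.NEB.Geom.H26_WMDFinal
section

/-!
# Item 72 (LG-NEB), package NEB-GEOM, leaf W-MD (helper26): `stmt_W_MD : Stmt_W_MD`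

Unconditional.  Inputs: the coordinatised Tate system of `J₀(N)` (G-TOR, helper81), G-RED
(Eichler–Shimura and unramifiedness), the eigenvector lemma N1 and the abstract `θ`-part step N2
(helper6), `thetaMap_injective` (helper2), LOC (helper61).
-/

set_option autoImplicit false

namespace Fermat.Agent.NEB.Geom.H26

/-- **N2** in the explicit form. -/
theorem stmt_N2 : Stmt_N2 := by
  intro 𝒪 _ _ _ _ p hpm hp0 𝕋 _ B _ _ hB η θ μ hμ x₀ hx₀
  exact Fermat.Agent.NEB.Geom.H6.nontrivial_thetaPart_of_functional hpm hp0 hB η θ μ hμ x₀ hx₀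

/-- **W-MD**: the level-`N` data of NEB-GEOM. -/
theorem stmt_W_MD : Stmt_W_MD := stmt_W_MD_of stmt_N2

end Fermat.Agent.NEB.Geom.H26

end
-- ==== END Fermat.Agent.NEB.Geom.H26_WMDFinal

-- ==== BEGIN Fermat.Agent.NEB.Geom.H67_PiUpInv
section

/-!
# Item 72 (LG-NEB), package NEB-GEOM, leaf PI-UPINV (helper67)

`stmt_PI_UPINV : H14.Stmt_PI_UPINV`: every `Δ`-fixed element of `Wtw[ϖ]` is `π^* y`, `y ∈ Ytw`.
From `H94.stmt_W_INV`, the third clause of `Stmt_TOWER_INST`, `H94.etaTw_tEisPoly`,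
`H14.finite_AH`, `H14.finite_A0`, `H14.polyHom_intertwine` and `H29.stmt_Z_COMMtw`.
-/

set_option autoImplicit false
set_option linter.unusedSectionVars false
set_option linter.unusedVariables false
set_option linter.style.haveILetI false

noncomputable section

open ModularCurve AlgebraicCurve IsLocalRing TensorProduct Polynomial

namespace Fermat.Agent.NEB.Geom.H67

open Fermat.Agent.NEB Fermat.Agent.NEB.JH Fermat.Agent.S59.Asm Fermat.Agent.S59.Lim
  Fermat.Agent.S59.Lim.H2 Fermat.Agent.NEB.Geom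

/-- **PI-UPINV**. -/
theorem stmt_PI_UPINV : H14.Stmt_PI_UPINV := by
  intro 𝒪 _ _ _ _ _ ϖ hϖ p _ hpm N _ S n r qv hTW _ h2 hT hcomm hcomm0 θ α δ hδ ℓ₀ hℓ₀ hne
    v hv hϖv hdv
  obtain ⟨-, -, hinv, -, -, -⟩ := hT hTW δ hδ ℓ₀ hℓ₀.1 (goodTw_not_dvd hℓ₀)
  have hp0 : (p : 𝒪) ≠ 0 := Nat.cast_ne_zero.mpr hTW.hp.ne_zero
  haveI : NeZero (twC qv) := ⟨by omega⟩
  have hE := H94.etaTw_tEisPoly N S p n qv h2 hcomm ℓ₀ hℓ₀
  have hθ : thetaTw N S qv θ α (H94.tEisPoly p n qv ℓ₀) ≠ 0 := by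
    rw [H94.thetaTw_tEisPoly N S p n qv θ α ℓ₀ hℓ₀]
    exact sub_ne_zero.mpr hne
  obtain ⟨-, -, -, -, hup, -, -⟩ := H29.stmt_Z_COMMtw N S p n qv h2 hTW
  obtain ⟨y, hy, -, hy2⟩ := H94.stmt_W_INV 𝒪 ϖ hϖ p hpm hp0
    (AH (N * twC qv) (twC qv) (twH p n qv) p) (fun x => isPTors_coe x)
    (H14.finite_AH (N * twC qv) (twC qv) (twH p n qv) h2 (dvd_mul_left _ _) p)
    (A0 (N * twC qv) p) (fun x => isPTors_coe x)
    (H14.finite_A0 (N * twC qv) p hTW.hp.ne_zero)
    (PolyTw r (twC qv)) (etaTw N S p n qv h2 hcomm) (etaTw0 N S p qv hcomm0)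
    (thetaTw N S qv θ α) (H94.tEisPoly p n qv ℓ₀) hθ
    (upZ (N * twC qv) (twC qv) (twH p n qv) p)
    (fun t => H14.polyHom_intertwine (opsTw0 N S p qv) hcomm0 (opsTw N S p n qv h2) hcomm
      (upZ (N * twC qv) (twC qv) (twH p n qv) p) hup t)
    (ZMod (twC qv))ˣ
    (diaZ (N * twC qv) (twC qv) (twH p n qv) h2 (dvd_mul_left _ _) p)
    (fun u => ⟨MvPolynomial.X (Sum.inr (Sum.inr u)), polyHom_X _ _ _⟩)
    (fun y hy hdy => by
      obtain ⟨y₀, m, h1, h3⟩ := hinv y hy hdy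
      exact ⟨y₀, m, h1, by rw [hE]; exact h3⟩)
    v hv hϖv hdv
  exact ⟨y, hy, hy2⟩

end Fermat.Agent.NEB.Geom.H67

end
end
-- ==== END Fermat.Agent.NEB.Geom.H67_PiUpInv

-- ==== BEGIN Fermat.Agent.NEB.Geom.H6_AFrobNilTop
section

/-!
# NEB-GEOM assembly leaf A-FROBNIL (helper6), universally quantified form

`stmt_A_FROBNIL_of : Stmt_A_PI → Stmt_A_FROBNIL`.
-/

set_option autoImplicit false
set_option linter.unusedSectionVars false
set_option linter.unusedVariables false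

noncomputable section

open ModularCurve AlgebraicCurve IsLocalRing TensorProduct Polynomial

namespace Fermat.Agent.NEB.Geom.H6

open Fermat.Agent.NEB Fermat.Agent.NEB.JH Fermat.Agent.S59 Fermat.Agent.S59.Asm
  Fermat.Agent.S59.Lim Fermat.Agent.S59.Lim.H2 Fermat.Agent.NEB.Geom

/-- **Leaf A-FROBNIL** (universally quantified), from A-PI. -/
theorem stmt_A_FROBNIL_of (hPI : Stmt_A_PI) : Stmt_A_FROBNIL := by
  intro 𝒪 _ _ _ _ _ _ ϖ p _ N _ S θ ρbar hstd Dm n r qv _ _ _ D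
  exact a_frob_nil hstd.hϖ hstd.hpm Dm D (hPI 𝒪 ϖ p N S θ ρbar hstd Dm n r qv D)

end Fermat.Agent.NEB.Geom.H6

end
end
-- ==== END Fermat.Agent.NEB.Geom.H6_AFrobNilTop

-- ==== BEGIN Fermat.Agent.NEB.Geom.H84_R0
section

/-!
# Item 72 (LG-NEB), package NEB-GEOM, leaf A-R0 (helper84): the case `r = 0`

* `cont_baseChange` : pointwise continuity of a Galois action passes to `𝒪 ⊗ A`;
* `stmt_A_R0 : Stmt_A_R0`.
-/

set_option autoImplicit false
set_option linter.unusedSectionVars false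
set_option linter.style.haveILetI false
set_option linter.unusedVariables false

noncomputable section

open ModularCurve AlgebraicCurve IsLocalRing TensorProduct Polynomial

namespace Fermat.Agent.NEB.Geom.H84

open Fermat.Agent.NEB Fermat.Agent.NEB.JH Fermat.Agent.S59 Fermat.Agent.S59.Asm
  Fermat.Agent.S59.Lim Fermat.Agent.S59.Lim.H2 Fermat.Agent.NEB.Geom

/-- Pointwise continuity passes to the tensor product. -/
theorem cont_baseChange {A : Type} [AddCommGroup A] (ρ : _root_.Fermat.Agent.NEB.Geom.GalQ →* Module.End ℤ A)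
    (h : ∀ x : A, ∃ L : IntermediateField ℚ Kbar, FiniteDimensional ℚ L ∧
      ∀ σ : _root_.Fermat.Agent.NEB.Geom.GalQ, (∀ y ∈ L, σ y = y) → ρ σ x = x)
    (𝒪 : Type) [CommRing 𝒪] (x : 𝒪 ⊗[ℤ] A) :
    ∃ L : IntermediateField ℚ Kbar, FiniteDimensional ℚ L ∧
      ∀ σ : _root_.Fermat.Agent.NEB.Geom.GalQ, (∀ y ∈ L, σ y = y) → (ρ σ).baseChange 𝒪 x = x := by
  induction x using TensorProduct.induction_on with
  | zero =>
    exact ⟨⊥, inferInstance, fun σ _ => map_zero _⟩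
  | tmul a x =>
    obtain ⟨L, hL, hLx⟩ := h x
    refine ⟨L, hL, fun σ hσ => ?_⟩
    rw [LinearMap.baseChange_tmul, hLx σ hσ]
  | add x y hx hy =>
    obtain ⟨L₁, hL₁, h₁⟩ := hx
    obtain ⟨L₂, hL₂, h₂⟩ := hy
    refine ⟨L₁ ⊔ L₂, IntermediateField.finiteDimensional_sup L₁ L₂, fun σ hσ => ?_⟩
    rw [map_add, h₁ σ (fun y hy => hσ y ((le_sup_left : L₁ ≤ L₁ ⊔ L₂) hy)),
      h₂ σ (fun y hy => hσ y ((le_sup_right : L₂ ≤ L₁ ⊔ L₂) hy))]

section

variable {𝒪 : Type} [CommRing 𝒪] [IsDomain 𝒪] [IsDiscreteValuationRing 𝒪]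
  {ϖ : 𝒪} {p : ℕ} {N : ℕ} [NeZero N] {S : Finset ℕ}
  {θ : CuspForm.heckeAlgebra N 2 (↑S : Set ℕ) →+* ResidueField 𝒪}

/-- Continuity of the Galois action on `MD.W`. -/
theorem MinSetup.gal_cont (Dm : MinSetup 𝒪 ϖ p N S θ) (x : Dm.MD.W) :
    ∃ L : IntermediateField ℚ Kbar, FiniteDimensional ℚ L ∧
      ∀ σ : _root_.Fermat.Agent.NEB.Geom.GalQ, (∀ y ∈ L, σ y = y) → Dm.gal σ x = x := by
  obtain ⟨L, hL, h⟩ := cont_baseChange (galZ0 N p) Dm.cont 𝒪 (x : ↥(thetaPart Dm.ηC θ)).1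
  exact ⟨L, hL, fun σ hσ => Subtype.ext (h σ hσ)⟩

/-- Eichler–Shimura on `MD.W`. -/
theorem MinSetup.es_W (Dm : MinSetup 𝒪 ϖ p N S θ) (ℓ : ℕ) (hℓ : ℓ.Prime) (hℓN : ¬ ℓ ∣ N)
    (hℓS : ℓ ∉ (↑S : Set ℕ)) (hℓp : ℓ ≠ p)
    (P : ValuationSubring Kbar) (hP : P.LiesOverPrime ℓ) (σ : _root_.Fermat.Agent.NEB.Geom.GalQ)
    (hσ : P.IsFrobeniusAt σ ℓ) :
    Dm.gal σ * Dm.gal σ - Dm.MD.η (CuspForm.heckeAlgebra.T hℓ hℓN hℓS) * Dm.gal σ
      + (ℓ : 𝒪) • (1 : Module.End 𝒪 Dm.MD.W) = 0 := by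
  have h := Dm.es ℓ hℓ hℓN hℓp P hP σ hσ
  rw [← Dm.ηC_T ℓ hℓ hℓN hℓS] at h
  have h' : galZ0 N p σ * galZ0 N p σ
      - Dm.ηC (CuspForm.heckeAlgebra.T hℓ hℓN hℓS) * galZ0 N p σ
      + ℓ • (1 : Module.End ℤ (A0 N p)) = 0 := by
    rw [← h]
    congr 1
  exact thetaZ_es (θ := θ) (Dm.gal_comm σ)
    (fun t' => (Commute.all t' (CuspForm.heckeAlgebra.T hℓ hℓN hℓS)).map Dm.ηC) ℓ h'

end

/-- **A-R0**: the case `r = 0`. -/
theorem stmt_A_R0 : Stmt_A_R0 := by
  intro 𝒪 _ _ _ _ _ _ ϖ p _ N _ S θ ρbar hstd Dm n qv _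
  have hqv : ∀ j : Fin 0, (qv j).Prime := fun j => j.elim0
  have hpS : p ∈ S := hstd.hres.hpSmin
  refine ⟨{
    rest := Fermat.Agent.S59.Asm.H41.restTW N S qv hqv
    rest_T := fun ℓ hℓ hℓN' hℓS' hℓN hℓS =>
      Fermat.Agent.S59.Asm.H41.restTW_T N S qv hqv ℓ hℓ hℓN' hℓS' hℓN hℓS
    WD := {
      W := Dm.MD.W
      isDiv := Dm.MD.isDiv
      η := Dm.MD.η.comp (Fermat.Agent.S59.Asm.H41.restTW N S qv hqv)
      η_local := fun t a ha x hx => Dm.MD.η_local _ a ha x hx }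
    gal := Dm.gal
    gal_cont := fun x => MinSetup.gal_cont Dm x
    gal_η := fun g t => thetaZ_commute_eta (Dm.gal_comm g) _
    es := ?_
    d := fun j => j.elim0
    d_pow := fun j => j.elim0
    d_comm := fun i => i.elim0
    d_η := fun j => j.elim0
    d_gal := fun j => j.elim0
    hstep := fun j => j.elim0
    π := LinearMap.id
    πup := LinearMap.id
    πup_injective := fun _ _ h => h
    πup_π := ?_
    d_πup := fun j => j.elim0
    inv := fun v _ _ => ⟨v, rfl⟩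
    π_η := fun t v => rfl
    P := fun j => j.elim0
    P_over := fun j => j.elim0
    frob := fun j => j.elim0
    frob_spec := fun j => j.elim0
    σ := fun j => j.elim0
    σ_mem := fun j => j.elim0
    a := fun j => j.elim0
    a' := fun j => j.elim0
    a_ne := fun j => j.elim0
    charpoly_frob := fun j => j.elim0
    frob_nil := fun j => j.elim0
    lg := fun j => j.elim0 }⟩
  · intro ℓ hℓ hℓN hℓS A hA σ hσ
    have hℓN' : ¬ ℓ ∣ N := fun hd => hℓN (Dvd.dvd.trans hd (Fermat.Agent.S59.Asm.H41.dvd_twLevel N qv))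
    have hℓS' : ℓ ∉ (↑S : Set ℕ) := fun h => hℓS (Fermat.Agent.S59.Asm.H41.subset_twSet S qv h)
    have hℓp : ℓ ≠ p := by
      rintro rfl
      exact hℓS' (by exact_mod_cast hpS)
    have h := MinSetup.es_W Dm ℓ hℓ hℓN' hℓS' hℓp A hA σ hσ
    show Dm.gal σ * Dm.gal σ
      - Dm.MD.η (Fermat.Agent.S59.Asm.H41.restTW N S qv hqv
          (CuspForm.heckeAlgebra.T hℓ hℓN hℓS)) * Dm.gal σ
      + (ℓ : 𝒪) • (1 : Module.End 𝒪 Dm.MD.W) = 0
    rw [Fermat.Agent.S59.Asm.H41.restTW_T N S qv hqv ℓ hℓ hℓN hℓS hℓN' hℓS']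
    exact h
  · intro x
    show x = Fermat.Agent.S59.TWH.H90.nmTot (p ^ n) (fun j : Fin 0 => j.elim0) x
    simp [Fermat.Agent.S59.TWH.H90.nmTot]

end Fermat.Agent.NEB.Geom.H84

end
end
-- ==== END Fermat.Agent.NEB.Geom.H84_R0

-- ==== BEGIN Fermat.Agent.NEB.Geom.H9_ALG
section

set_option autoImplicit false
set_option linter.unusedSectionVars false
set_option linter.style.haveILetI false
set_option linter.unusedVariables false
set_option synthInstance.maxHeartbeats 400000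
set_option maxHeartbeats 1000000

noncomputable section

open ModularCurve AlgebraicCurve IsLocalRing TensorProduct Polynomial

namespace Fermat.Agent.NEB.Geom.H9

open Fermat.Agent.NEB Fermat.Agent.NEB.JH Fermat.Agent.NEB.Geom Fermat.Agent.S59.Asm
  Fermat.Agent.S59.Lim Fermat.Agent.S59.Lim.H2

/-! ## Finiteness of `J_H[p]` -/

theorem finite_AH_p (M c : ℕ) [NeZero M] [NeZero c] (H : Subgroup (ZMod c)ˣ) (h2 : 2 ≤ c)
    (hc : c ∣ M) (p : ℕ) [Fact p.Prime] : Finite {x : AH M c H p // p • x = 0} := by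
  have hfin := Fermat.Agent.NEB.Geom.H29.stmt_ZFIN_final H h2 hc p 1
  haveI : Finite ↥{y : JH M c H | ((p ^ 1 : ℕ) : ℤ) • y = 0} := hfin.to_subtype
  have hmem : ∀ x : {x : AH M c H p // p • x = 0},
      ((x.1 : AH M c H p) : JH M c H) ∈ {y : JH M c H | ((p ^ 1 : ℕ) : ℤ) • y = 0} := by
    intro x
    have h1 : ((p • x.1 : AH M c H p) : JH M c H) = 0 := by rw [x.2]; rfl
    show ((p ^ 1 : ℕ) : ℤ) • ((x.1 : AH M c H p) : JH M c H) = 0
    rw [pow_one, natCast_zsmul]
    exact h1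
  refine Finite.of_injective (fun x : {x : AH M c H p // p • x = 0} =>
    (⟨((x.1 : AH M c H p) : JH M c H), hmem x⟩ :
      ↥{y : JH M c H | ((p ^ 1 : ℕ) : ℤ) • y = 0})) ?_
  intro x y hxy
  exact Subtype.ext (Subtype.ext (Subtype.mk.inj hxy))

/-! ## The kernel of reduction is stable under the operators -/

section KZ

variable {N : ℕ} {S : Finset ℕ} {p n : ℕ} {r : ℕ} {qv : Fin r → ℕ}
  [NeZero (N * twC qv)] (h2 : 2 ≤ twC qv) (P : ValuationSubring Kbar)

theorem mem_KZ {x : AH (N * twC qv) (twC qv) (twH p n qv) p} :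
    x ∈ KZ N p n qv h2 P ↔
      Fermat.Agent.NEB.Geom.H70.InKU P p
        (diamondData (N * twC qv) (twC qv) (twH p n qv) h2 (dvd_mul_left _ _))
        (x : JH (N * twC qv) (twC qv) (twH p n qv)) := Iff.rfl

theorem KZ_dia {x : AH (N * twC qv) (twC qv) (twH p n qv) p} (hx : x ∈ KZ N p n qv h2 P)
    (u : (ZMod (twC qv))ˣ) :
    diaZ (N * twC qv) (twC qv) (twH p n qv) h2 (dvd_mul_left _ _) p u x ∈ KZ N p n qv h2 P := by
  rw [mem_KZ] at hx ⊢
  exact hx.diamond u

theorem not_dvd_level_of_goodTw {ℓ : ℕ} (h : GoodTw N S qv ℓ) : ¬ ℓ ∣ N * twC qv := by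
  intro hd
  apply h.2.1
  have h1 : N * twC qv ∣ twLevel N qv := by
    unfold twLevel twC
    refine mul_dvd_mul_left N ?_
    rw [Finset.prod_pow]
    exact Dvd.intro _ (sq _).symm
  exact hd.trans h1

theorem KZ_ops (hprime : ∀ j, (qv j).Prime) (i : IdxTw r (twC qv))
    {x : AH (N * twC qv) (twC qv) (twH p n qv) p} (hx : x ∈ KZ N p n qv h2 P) :
    opsTw N S p n qv h2 i x ∈ KZ N p n qv h2 P := by
  classical
  rcases i with ℓ | j | u
  · by_cases hg : GoodTw N S qv ℓ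
    · have e : opsTw N S p n qv h2 (Sum.inl ℓ)
          = TzTw (N * twC qv) (twC qv) (twH p n qv) h2 (dvd_mul_left _ _) p (jTw p n) ℓ := by
        show (if GoodTw N S qv ℓ then _ else 0) = _
        rw [if_pos hg]
      rw [e, TzTw, Module.End.mul_apply, ← map_pow]
      have hx' := KZ_dia h2 P hx (Fermat.Agent.NEB.EIG.H39.unitOf (twC qv) ℓ ^ jTw p n)
      haveI : NeZero ℓ := ⟨hg.1.ne_zero⟩
      rw [mem_KZ] at hx' ⊢
      rw [Tz_apply]
      exact Fermat.Agent.NEB.Geom.H70.InKU.TH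
        (heckeData (N * twC qv) (twC qv) ℓ (twH p n qv) h2 (dvd_mul_left _ _)) h2
        (dvd_mul_left _ _) hg.1 (not_dvd_level_of_goodTw hg) hx'
    · have e : opsTw N S p n qv h2 (Sum.inl ℓ) = 0 := by
        show (if GoodTw N S qv ℓ then _ else 0) = _
        rw [if_neg hg]
      rw [e, LinearMap.zero_apply]
      exact zero_mem _
  · have e : opsTw N S p n qv h2 (Sum.inr (Sum.inl j))
        = Uz (N * twC qv) (twC qv) (twH p n qv) h2 (dvd_mul_left _ _) p (qv j) := rfl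
    haveI : NeZero (qv j) := ⟨(hprime j).ne_zero⟩
    have hdvd : qv j ∣ N * twC qv :=
      Dvd.dvd.mul_left (Finset.dvd_prod_of_mem qv (Finset.mem_univ j)) N
    rw [e]
    rw [mem_KZ] at hx ⊢
    rw [Uz_apply]
    exact Fermat.Agent.NEB.Geom.H70.InKU.UH
      (heckeData (N * twC qv) (twC qv) (qv j) (twH p n qv) h2 (dvd_mul_left _ _))
      (hprime j) hdvd hx
  · exact KZ_dia h2 P hx u

theorem KZ_eta (hprime : ∀ j, (qv j).Prime)
    (hcomm : ∀ i j, Commute (opsTw N S p n qv h2 i) (opsTw N S p n qv h2 j))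
    (t : PolyTw r (twC qv)) :
    ∀ x : AH (N * twC qv) (twC qv) (twH p n qv) p, x ∈ KZ N p n qv h2 P →
      etaTw N S p n qv h2 hcomm t x ∈ KZ N p n qv h2 P := by
  induction t using MvPolynomial.induction_on with
  | C a =>
    intro x hx
    have : etaTw N S p n qv h2 hcomm (MvPolynomial.C a)
        = (a : Module.End ℤ (AH (N * twC qv) (twC qv) (twH p n qv) p)) := by
      rw [show (MvPolynomial.C a : PolyTw r (twC qv)) = ((a : ℤ) : PolyTw r (twC qv)) from
        (eq_intCast (MvPolynomial.C : ℤ →+* PolyTw r (twC qv)) a), map_intCast]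
    rw [this]
    have h1 : (a : Module.End ℤ (AH (N * twC qv) (twC qv) (twH p n qv) p)) x = a • x := by
      rw [← zsmul_one, LinearMap.smul_apply, Module.End.one_apply]
    rw [h1]
    exact zsmul_mem hx a
  | add f g hf hg =>
    intro x hx
    rw [map_add, LinearMap.add_apply]
    exact add_mem (hf x hx) (hg x hx)
  | mul_X f i hf =>
    intro x hx
    rw [map_mul, Module.End.mul_apply]
    have h : etaTw N S p n qv h2 hcomm (MvPolynomial.X i) = opsTw N S p n qv h2 i :=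
      polyHom_X _ _ _
    rw [h]
    exact hf _ (KZ_ops h2 P hprime i hx)

end KZ

/-! ## A-LG -/

section Main

variable {𝒪 : Type} [CommRing 𝒪] [IsDomain 𝒪] [IsDiscreteValuationRing 𝒪]
  {ϖ : 𝒪} {p : ℕ} {N : ℕ} [NeZero N] {S : Finset ℕ}
  {θ : CuspForm.heckeAlgebra N 2 (↑S : Set ℕ) →+* ResidueField 𝒪}
  {ρbar : ResidualGaloisRep (ResidueField 𝒪)} {n : ℕ} {r : ℕ} {qv : Fin r → ℕ}
  [NeZero (N * twC qv)] [NeZero (twC qv)] [NeZero (twLevel N qv)]

theorem normal_inertia (P : ValuationSubring Kbar) : (P.inertiaSubgroup ℚ).Normal :=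
  MonoidHom.normal_ker _

/-- The tame relations on `J_H[p^m]`. -/
theorem tame_inst (D : TwSetup 𝒪 ϖ p N S θ ρbar n qv) [Fact p.Prime] (j : Fin r) (m : ℕ) :
    ∃ τ₀ ∈ (D.P j).inertiaSubgroup ℚ,
      (∀ σ ∈ (D.P j).inertiaSubgroup ℚ, ∃ i e : ℕ,
        ∀ y : AH (N * twC qv) (twC qv) (twH p n qv) p, p ^ m • y = 0 →
          galZ (N * twC qv) (twC qv) (twH p n qv) p
            ((((τ₀ ^ i)⁻¹ * σ) ^ (qv j ^ e) : ↥((D.P j).decompositionSubgroup ℚ)) : _root_.Fermat.Agent.NEB.Geom.GalQ) y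
            = y) ∧
      (∃ e : ℕ, ∀ y : AH (N * twC qv) (twC qv) (twH p n qv) p, p ^ m • y = 0 →
        galZ (N * twC qv) (twC qv) (twH p n qv) p
          ((((τ₀ ^ (qv j))⁻¹ * ((⟨D.frob j, (D.frob_spec j).mem_decompositionSubgroup⟩ :
            ↥((D.P j).decompositionSubgroup ℚ)) * τ₀ *
            (⟨D.frob j, (D.frob_spec j).mem_decompositionSubgroup⟩ :
              ↥((D.P j).decompositionSubgroup ℚ))⁻¹)) ^ (qv j ^ e) :
            ↥((D.P j).decompositionSubgroup ℚ)) : _root_.Fermat.Agent.NEB.Geom.GalQ) y = y) := by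
  obtain ⟨L, hL, hfix⟩ := Fermat.Agent.NEB.Geom.H29.stmt_ZGALCONT_tors (twH p n qv) D.h2
    (dvd_mul_left (twC qv) N) p m
  obtain ⟨τ₀, hτ₀, ht1, ht2, -⟩ := Fermat.Agent.S59.TWGal.H59.stmt_TAME (qv j)
    (D.hTW.prime j) (D.P j) (D.P_over j) (D.frob j) (D.frob_spec j) L hL
  rw [ValuationSubring.inertiaSubgroupIn, Subgroup.mem_map] at hτ₀
  obtain ⟨τ, hτ, rfl⟩ := hτ₀
  have htriv : ∀ g : _root_.Fermat.Agent.NEB.Geom.GalQ, g ∈ L.fixingSubgroup →
      ∀ y : AH (N * twC qv) (twC qv) (twH p n qv) p, p ^ m • y = 0 →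
        galZ (N * twC qv) (twC qv) (twH p n qv) p g y = y := by
    intro g hg y hy
    apply Subtype.ext
    rw [galZ_apply]
    refine hfix g (fun z hz => (IntermediateField.mem_fixingSubgroup_iff L g).1 hg z hz)
      (y : JH (N * twC qv) (twC qv) (twH p n qv)) ?_
    have h1 : ((p ^ m • y : AH (N * twC qv) (twC qv) (twH p n qv) p) :
        JH (N * twC qv) (twC qv) (twH p n qv)) = 0 := by
      rw [hy]; rfl
    rw [natCast_zsmul]
    exact h1
  refine ⟨τ, hτ, fun σ hσ => ?_, ?_⟩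
  · obtain ⟨i, e, hie⟩ := ht1 (σ : _root_.Fermat.Agent.NEB.Geom.GalQ) (Subgroup.mem_map_of_mem _ hσ)
    exact ⟨i, e, fun y hy => htriv _ hie y hy⟩
  · obtain ⟨e, he⟩ := ht2
    exact ⟨e, fun y hy => htriv _ he y hy⟩

theorem thetaTw_U (D : TwSetup 𝒪 ϖ p N S θ ρbar n qv) (j : Fin r) :
    thetaTw N S qv θ D.α (MvPolynomial.X (Sum.inr (Sum.inl j))) = D.α j := by
  simp [thetaTw, thetaVal]

theorem alpha_sq_ne_one (D : TwSetup 𝒪 ϖ p N S θ ρbar n qv) (j : Fin r) :
    D.α j ^ 2 ≠ 1 := by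
  intro h
  have h1 : D.α j * (D.α j - D.β j) = 0 := by
    rw [mul_sub, D.eig.mul j, ← sq, h, sub_self]
  have hα : D.α j ≠ 0 := fun h0 => by
    have := D.eig.mul j
    rw [h0, zero_mul] at this
    exact zero_ne_one this
  rcases mul_eq_zero.mp h1 with h2 | h2
  · exact hα h2
  · exact D.eig.ne j (sub_eq_zero.mp h2)

/-- The instance of W-LG at the Taylor–Wiles prime `q_j`. -/
theorem wlg_inst [Finite (ResidueField 𝒪)] [CharZero 𝒪] [Fact p.Prime] (hϖ : Irreducible ϖ)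
    (hpm : (p : 𝒪) ∈ maximalIdeal 𝒪) (hsq : Squarefree N)
    (Dm : MinSetup 𝒪 ϖ p N S θ) (D : TwSetup 𝒪 ϖ p N S θ ρbar n qv)
    (hKEY : Stmt_W_KEYq) (hPI : Stmt_A_pi Dm D) (j : Fin r) (σ : _root_.Fermat.Agent.NEB.Geom.GalQ)
    (hσ : σ ∈ (D.P j).inertiaSubgroupIn ℚ)
    (x : 𝒪 ⊗[ℤ] AH (N * twC qv) (twC qv) (twH p n qv) p)
    (hx : x ∈ Wtw 𝒪 N S p n qv D.h2 D.hcomm θ D.α)
    (hgk : ∃ k : ℕ, ((((galZ (N * twC qv) (twC qv) (twH p n qv) p (D.frob j) *
        diaZ (N * twC qv) (twC qv) (twH p n qv) D.h2 (dvd_mul_left _ _) p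
          (Fermat.Agent.NEB.Geom.H6.chiC (twC qv) (D.frob j) ^ (jTw p n + 1))).baseChange 𝒪
        - D.a j • (1 : Module.End 𝒪 (𝒪 ⊗[ℤ] AH (N * twC qv) (twC qv) (twH p n qv) p))) ^ k)
          x = 0)) :
    (galZ (N * twC qv) (twC qv) (twH p n qv) p σ).baseChange 𝒪 x = x := by
  have hp0 : (p : 𝒪) ≠ 0 := Nat.cast_ne_zero.mpr (Fact.out : p.Prime).ne_zero
  rw [ValuationSubring.inertiaSubgroupIn, Subgroup.mem_map] at hσ
  obtain ⟨σ', hσ', rfl⟩ := hσ
  refine Fermat.Agent.NEB.Geom.H46.stmt_W_LG 𝒪 ϖ hϖ p hpm hp0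
    (AH (N * twC qv) (twC qv) (twH p n qv) p) (fun y => isPTors_coe y)
    (finite_AH_p (N * twC qv) (twC qv) (twH p n qv) D.h2 (dvd_mul_left _ _) p)
    (PolyTw r (twC qv)) (etaTw N S p n qv D.h2 D.hcomm) (thetaTw N S qv θ D.α)
    (ZMod (twC qv))ˣ (diaZ (N * twC qv) (twC qv) (twH p n qv) D.h2 (dvd_mul_left _ _) p) n
    ?_ ?_ (KZ N p n qv D.h2 (D.P j)) ?_
    ↥((D.P j).decompositionSubgroup ℚ)
    ((galZ (N * twC qv) (twC qv) (twH p n qv) p).comp (Subgroup.subtype _))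
    ?_ ?_ ((D.P j).inertiaSubgroup ℚ)
    ⟨D.frob j, (D.frob_spec j).mem_decompositionSubgroup⟩
    ?_ ?_ (Fermat.Agent.NEB.Geom.H6.chiC (twC qv) (D.frob j) ^ (jTw p n + 1))
    (MvPolynomial.X (Sum.inr (Sum.inl j))) (qv j) (D.a j) ?_ ?_ ?_ ?_ ?_ ?_ σ' hσ' x hx hgk
  · intro u
    rw [← map_pow]
    exact diaZ_eq_one_of_mem _ _ _ _ _ _ ⟨u, rfl⟩
  · exact fun u => ⟨MvPolynomial.X (Sum.inr (Sum.inr u)), polyHom_X _ _ _⟩
  · exact fun t y hy => KZ_eta D.h2 (D.P j) D.hTW.prime D.hcomm t y hy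
  · exact fun g t => D.comm_gal (g : _root_.Fermat.Agent.NEB.Geom.GalQ) t
  · intro g y hy
    rw [mem_KZ] at hy ⊢
    exact Fermat.Agent.NEB.Geom.H70.InKU.galois hy g.2
  · exact fun τ hτ => (normal_inertia (D.P j)).conj_mem τ hτ _
  · intro τ hτ y
    rw [mem_KZ]
    exact Fermat.Agent.NEB.Geom.H70.inKU_inertia _ (Subgroup.mem_map_of_mem _ hτ) y.2
  · rw [D.ha j, thetaTw_U]
  · exact D.eig.q_one j
  · rw [thetaTw_U]
    exact alpha_sq_ne_one D j
  · intro y hyW hyK hyfix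
    have e : etaTw N S p n qv D.h2 D.hcomm (MvPolynomial.X (Sum.inr (Sum.inl j)))
        = Uz (N * twC qv) (twC qv) (twH p n qv) D.h2 (dvd_mul_left _ _) p (qv j) :=
      polyHom_X _ _ _
    rw [e]
    exact hKEY 𝒪 ϖ hϖ p hpm N S n r qv D.hTW hsq D.h2 D.hcomm θ D.α D.β D.eig D.ℓ₀ D.hℓ₀
      D.hne j (D.P j) (D.P_over j) (D.frob j) (D.frob_spec j) y hyW hyK hyfix
  · intro τ hτ y hyW hy0 hyfix
    exact Fermat.Agent.NEB.Geom.H6.lg_socle Dm D hPI j (τ : _root_.Fermat.Agent.NEB.Geom.GalQ)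
      (Subgroup.mem_map_of_mem _ hτ) y hyW hy0 hyfix
  · exact fun m => tame_inst D j m

/-- **A-LG**, from W-KEYq and A-PI. -/
theorem a_lg [Finite (ResidueField 𝒪)] [CharZero 𝒪] [Fact p.Prime] (hϖ : Irreducible ϖ)
    (hpm : (p : 𝒪) ∈ maximalIdeal 𝒪) (hsq : Squarefree N)
    (Dm : MinSetup 𝒪 ϖ p N S θ) (D : TwSetup 𝒪 ϖ p N S θ ρbar n qv)
    (hKEY : Stmt_W_KEYq) (hPI : Stmt_A_pi Dm D) : Stmt_A_lg D :=
  Fermat.Agent.NEB.Geom.H6.a_lg_of_wlg D fun j σ hσ x hx hgk =>
    wlg_inst hϖ hpm hsq Dm D hKEY hPI j σ hσ x hx hgk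

/-- **A-LG** (universally quantified), from W-KEYq and A-PI. -/
theorem stmt_A_LG_of (hKEY : Stmt_W_KEYq) (hPI : Stmt_A_PI) : Stmt_A_LG := by
  intro 𝒪 _ _ _ _ _ _ ϖ p _ N _ S θ ρbar hstd Dm n r qv _ _ _ D
  exact a_lg hstd.hϖ hstd.hpm hstd.hsq Dm D hKEY (hPI 𝒪 ϖ p N S θ ρbar hstd Dm n r qv D)

/-- **A-GAL** (universally quantified). -/
theorem stmt_A_GAL : Stmt_A_GAL := by
  intro 𝒪 _ _ _ _ _ _ ϖ p _ N _ S θ ρbar hstd Dm n r qv _ _ _ D
  exact a_gal D

end Main

end Fermat.Agent.NEB.Geom.H9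

end
end
-- ==== END Fermat.Agent.NEB.Geom.H9_ALG

-- ==== BEGIN Fermat.Agent.S15.Desc.H97_TameCyc
section

set_option autoImplicit false

open scoped Pointwise NumberField

namespace Fermat.Agent.S15.Desc.H97

open Fermat.Agent.S15.Desc

local notation "Qbar" => AlgebraicClosure ℚ
local notation "GQ" => (AlgebraicClosure ℚ ≃ₐ[ℚ] AlgebraicClosure ℚ)

attribute [local instance] qbar_isAlgebraic qbar_isAlgClosure qbar_isGalois

/-- `tame_cyclic` with the exponent hypothesis on the inertia group only. -/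
theorem tame_cyclic' (p : ℕ) (hp : p.Prime) (A : ValuationSubring Qbar) (hA : A.LiesOverPrime p)
    {T : Type*} [Group T] (Ψ : GQ →* T)
    (hopen : ∃ S : Finset Qbar, ∀ σ : GQ, (∀ x ∈ S, σ x = x) → Ψ σ = 1)
    (n : ℕ) (hn : n.Coprime p) (hT : ∀ σ ∈ A.inertiaSubgroupIn ℚ, Ψ σ ^ n = 1) :
    ∃ σ₀ ∈ A.inertiaSubgroupIn ℚ, ∀ σ ∈ A.inertiaSubgroupIn ℚ, ∃ k : ℕ, Ψ σ = Ψ σ₀ ^ k := by
  classical
  obtain ⟨S, hS⟩ := hopen
  let F : IntermediateField ℚ Qbar := IntermediateField.adjoin ℚ (S : Set Qbar)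
  have hFD : FiniteDimensional ℚ F :=
    IntermediateField.finiteDimensional_adjoin (fun x _ => Algebra.IsIntegral.isIntegral x)
  let L : IntermediateField ℚ Qbar := IntermediateField.normalClosure ℚ F Qbar
  have hLn : Normal ℚ L := normalClosure.normal ℚ F Qbar
  have hLfd : FiniteDimensional ℚ L := normalClosure.is_finiteDimensional ℚ F Qbar
  have hFL : F ≤ L := IntermediateField.le_normalClosure F
  have hker : ∀ σ : GQ, AlgEquiv.restrictNormalHom L σ = 1 → Ψ σ = 1 := by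
    intro σ hσ
    apply hS
    intro x hx
    have hxL : x ∈ L := hFL (IntermediateField.subset_adjoin ℚ _ hx)
    have h1 := AlgEquiv.restrictNormal_commutes σ L ⟨x, hxL⟩
    have h2 : AlgEquiv.restrictNormal σ L = 1 := hσ
    rw [h2] at h1
    exact h1.symm
  obtain ⟨τ₀, hτ₀, hgen⟩ := tame_cyclic_finite L p hp A hA
  obtain ⟨σ₀, hσ₀, hres₀⟩ := lift_inertia L p hp A hA τ₀ hτ₀
  refine ⟨σ₀, hσ₀, fun σ hσ => ?_⟩
  obtain ⟨k, a, hka⟩ := hgen _ (res_mem_inertia L A σ hσ)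
  refine ⟨k, ?_⟩
  set u : GQ := (σ₀ ^ k)⁻¹ * σ with hu
  have huI : u ∈ A.inertiaSubgroupIn ℚ :=
    Subgroup.mul_mem _ (Subgroup.inv_mem _ (Subgroup.pow_mem _ hσ₀ k)) hσ
  have hresu : AlgEquiv.restrictNormalHom L (u ^ (p ^ a)) = 1 := by
    rw [map_pow, hu, map_mul, map_inv, map_pow, hres₀]
    exact hka
  have h1 : Ψ u ^ (p ^ a) = 1 := by
    rw [← map_pow]
    exact hker _ hresu
  have h2 : Ψ u ^ n = 1 := hT u huI
  have h3 : orderOf (Ψ u) ∣ Nat.gcd (p ^ a) n :=
    Nat.dvd_gcd (orderOf_dvd_of_pow_eq_one h1) (orderOf_dvd_of_pow_eq_one h2)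
  have h4 : Nat.gcd (p ^ a) n = 1 := Nat.Coprime.pow_left a (Nat.Coprime.symm hn)
  rw [h4, Nat.dvd_one, orderOf_eq_one_iff] at h3
  have h5 : Ψ σ = Ψ (σ₀ ^ k) * Ψ u := by
    rw [← map_mul, hu, mul_inv_cancel_left]
  rw [h5, h3, mul_one, map_pow]

/-- **TAME-CYC**: the inertia group at `p` acts on `J[r^m]` through a cyclic group, if it acts
unipotently of level two on the `r`-power torsion (`r ≠ p`). -/
theorem tame_cyc {J : Type*} [AddCommGroup J] [DistribMulAction GQ J]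
    (p r : ℕ) (hp : p.Prime) (hr : r.Prime) (hpr : p ≠ r)
    (A : ValuationSubring Qbar) (hA : A.LiesOverPrime p)
    (hfin : ∀ n : ℕ, 0 < n → Finite (TorsR J n))
    (hgal : ∀ y : J, ∃ S : Finset Qbar, ∀ σ : GQ, (∀ x ∈ S, σ x = x) → σ • y = y)
    (htu : ∀ σ ∈ A.inertiaSubgroupIn ℚ, ∀ τ ∈ A.inertiaSubgroupIn ℚ,
      ∀ x : J, (∃ n : ℕ, r ^ n • x = 0) → σ • τ • x - σ • x - τ • x + x = 0) (m : ℕ) :
    ∃ σ₀ ∈ A.inertiaSubgroupIn ℚ, ∀ σ ∈ A.inertiaSubgroupIn ℚ, ∃ k : ℕ,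
      ∀ u : J, r ^ m • u = 0 → σ • u = σ₀ ^ k • u := by
  classical
  have hfinm : Finite (TorsR J (r ^ m)) := hfin _ (pow_pos hr.pos m)
  have : Fintype (TorsR J (r ^ m)) := Fintype.ofFinite _
  let Ψ : GQ →* Equiv.Perm (TorsR J (r ^ m)) := MulAction.toPermHom GQ (TorsR J (r ^ m))
  have hΨ : ∀ (σ : GQ) (u : TorsR J (r ^ m)), ((Ψ σ u : TorsR J (r ^ m)) : J) = σ • (u : J) :=
    fun σ u => rfl
  -- open kernel
  have hopen : ∃ S : Finset Qbar, ∀ σ : GQ, (∀ x ∈ S, σ x = x) → Ψ σ = 1 := by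
    choose Sy hSy using hgal
    refine ⟨Finset.univ.biUnion (fun u : TorsR J (r ^ m) => Sy (u : J)), fun σ hσ => ?_⟩
    ext u
    rw [hΨ]
    exact hSy (u : J) σ (fun x hx => hσ x (Finset.mem_biUnion.2 ⟨u, Finset.mem_univ u, hx⟩))
  -- exponent on inertia
  have hT : ∀ σ ∈ A.inertiaSubgroupIn ℚ, Ψ σ ^ (r ^ m) = 1 := by
    intro σ hσ
    rw [← map_pow]
    ext u
    rw [hΨ]
    have hu : r ^ m • (u : J) = 0 := mem_torsR.mp u.2
    have h1 := pow_smul_sub_of_unip σ (u : J) (htu σ hσ σ hσ (u : J) ⟨m, hu⟩) (r ^ m)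
    have h2 : r ^ m • (σ • (u : J) - (u : J)) = 0 := by
      rw [smul_sub, ← smul_comm, hu, smul_zero, sub_zero]
    rw [h2] at h1
    exact sub_eq_zero.mp h1
  have hcop : (r ^ m).Coprime p :=
    Nat.Coprime.pow_left m ((Nat.coprime_primes hr hp).2 (Ne.symm hpr))
  obtain ⟨σ₀, hσ₀, hcyc⟩ := tame_cyclic' p hp A hA Ψ hopen (r ^ m) hcop hT
  refine ⟨σ₀, hσ₀, fun σ hσ => ?_⟩
  obtain ⟨k, hk⟩ := hcyc σ hσ
  refine ⟨k, fun u hu => ?_⟩
  have h1 := congrArg (fun f : Equiv.Perm (TorsR J (r ^ m)) => ((f ⟨u, hu⟩ : TorsR J (r ^ m)) : J)) hk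
  simp only [hΨ] at h1
  rw [h1, ← map_pow, hΨ]

end Fermat.Agent.S15.Desc.H97

end
-- ==== END Fermat.Agent.S15.Desc.H97_TameCyc

-- ==== BEGIN Fermat.Agent.S27.Char0.Defs
section

/-!
# S27 (row 26), characteristic-0 half: interface statements (planner: helper20)

Plan: `NOTES/plan/S27_char0.md`.  The characteristic-`p` half (exact count over `F̄_p`) is
helper62's (`Fermat/Agent/S27/Defs.lean`, `S27/CharP/`).

Everything here is UNIVERSE POLYMORPHIC (frozen S27 is `Type*`).  The reduction toolkit of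
helper17 (`RED/H17_*.lean`: `RedSetup`, `FFHyp`, `IsGenus`, `GenusLE'`, `ticore`) is polymorphic
and is the common language.  All `Stmt_*` are `Prop`s; owners prove them in their own files
`Fermat/Agent/S27/Char0/H<seat>_<Name>.lean`, namespace `Fermat.Agent.S27.Char0.H<seat>`.
This file contains no unproved statement.
-/

set_option autoImplicit false

noncomputable section

open AlgebraicCurve IntermediateField

namespace Fermat.Agent.S27.Char0

open Fermat.Agent.RED.H17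

universe u v u' v'

/-- `F / K` is a function field of one variable (universe polymorphic form of `RED.IsFF`). -/
def IsFFu (K : Type u) (F : Type v) [Field K] [Field F] [Algebra K F] : Prop :=
  ∃ x : F, Transcendental K x ∧ Module.Finite K⟮x⟯ F

/-- `k` is algebraic over the prime field `𝔽_p` (stated without instances). -/
def IsAlgOverFp (k : Type u) [Field k] (p : ℕ) : Prop :=
  ∀ a : k, ∃ n : ℕ, 0 < n ∧ a ^ (p ^ n) = a

/-! ## FFu: the function field toolkit for the frozen hypotheses -/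

/-- **FF-X**: the frozen hypotheses give a function field of one variable. -/
def Stmt_FFX : Prop :=
  ∀ (K : Type u) (F : Type v) [Field K] [Field F] [Algebra K F] [IsAlgClosed K] [CharZero K]
    [IsCurveOver K F] [Algebra.EssFiniteType K F], IsFFu K F

/-- **FF-H**: the zeros theorem and Riemann's theorem, universe polymorphic
(any characteristic; the proofs of `RED/H42_*`, `H12_*`, `H51_*` are polymorphic inside). -/
def Stmt_FFH : Prop :=
  ∀ (K : Type u) (F : Type v) [Field K] [Field F] [Algebra K F] [IsAlgClosed K],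
    IsFFu K F → FFHyp K F ∧ ∃ (g : ℕ) (c : ℤ), IsGenus K F g c

/-- **GFF**: the genus of the prelude (`genusFF`, dimension of `H1 0` of repartitions) is
Riemann's genus. -/
def Stmt_GFF : Prop :=
  ∀ (K : Type u) (F : Type v) [Field K] [Field F] [Algebra K F] [IsAlgClosed K],
    FFHyp K F → ∀ (g : ℕ) (c : ℤ), IsGenus K F g c → genusFF K F = g

/-! ## Good reduction data -/

/-- A good reduction of `F / K` to `Ft / k`: helper17's reduction data with the divisor identity,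
a chart `x` of the same degree on both sides, and "the genus does not drop". -/
structure GoodRed (K : Type u) (F : Type v) (k : Type u') (Ft : Type v') [Field K] [Field F]
    [Algebra K F] [Field k] [Field Ft] [Algebra k Ft] where
  /-- the reduction data (valuation ring, reduction map, map on places, divisor identity) -/
  S : RedSetup K F k Ft
  /-- the chart -/
  x : F
  hx : x ∈ S.V
  transc : Transcendental k (S.rd x)
  fin : Module.Finite K⟮x⟯ F
  fin' : Module.Finite k⟮S.rd x⟯ Ft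
  deg : Module.finrank k⟮S.rd x⟯ Ft = Module.finrank K⟮x⟯ F
  sep' : Algebra.IsSeparable k⟮S.rd x⟯ Ft
  genusLE : S.GenusLE'

/-- **RED-EX**: every function field over an algebraically closed field of characteristic `0`
has a good reduction to a function field over an algebraic closure of `𝔽_p`, for some prime
`p` different from `ℓ`. -/
def Stmt_REDEX : Prop :=
  ∀ (K : Type u) (F : Type v) [Field K] [Field F] [Algebra K F] [IsAlgClosed K] [CharZero K],
    IsFFu K F → ∀ ℓ : ℕ,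
    ∃ (p : ℕ) (k : Type u) (Ft : Type v) (_ : Field k) (_ : Field Ft) (_ : Algebra k Ft)
      (_ : IsAlgClosed k) (_ : CharP k p),
      p.Prime ∧ p ≠ ℓ ∧ IsAlgOverFp k p ∧ Nonempty (GoodRed K F k Ft)

/-! ## Torsion: injectivity and lifting -/

/-- The push-forward of a divisor of degree `0` has degree `0` (all places have degree one). -/
def Stmt_DegPush : Prop :=
  ∀ (K : Type u) (F : Type v) (k : Type u') (Ft : Type v') [Field K] [Field F] [Algebra K F]
    [Field k] [Field Ft] [Algebra k Ft] (S : RedSetup K F k Ft),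
    FFHyp K F → FFHyp k Ft → ∀ D : Divisor K F,
      Divisor.degree (Finsupp.mapDomain S.r D) = Divisor.degree D

/-- **TI-PIC**: the reduction of divisors induces a surjective homomorphism `Pic0 F → Pic0 Ft`
which is injective on the torsion prime to the residue characteristic. -/
def Stmt_TIPic : Prop :=
  ∀ (K : Type u) (F : Type v) (k : Type u') (Ft : Type v') [Field K] [Field F] [Algebra K F]
    [Field k] [Field Ft] [Algebra k Ft] [IsAlgClosed K] [IsAlgClosed k]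
    (S : RedSetup K F k Ft), FFHyp K F → FFHyp k Ft →
    ∀ (g : ℕ) (c : ℤ) (g' : ℕ) (c' : ℤ), IsGenus K F g c → IsGenus k Ft g' c' → S.GenusLE' →
    ∃ ρ : Pic0 K F →+ Pic0 k Ft,
      (∀ (D : Divisor K F) (hD : D ∈ Divisor.degZero (K := K) (F := F)),
        ∃ hD' : Finsupp.mapDomain S.r D ∈ Divisor.degZero (K := k) (F := Ft),
          ρ (Pic0.mk ⟨D, hD⟩) = Pic0.mk ⟨Finsupp.mapDomain S.r D, hD'⟩) ∧
      Function.Surjective ρ ∧
      ∀ m : ℕ, (m : k) ≠ 0 → ∀ x : Pic0 K F, (m : ℤ) • x = 0 → ρ x = 0 → x = 0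

/-- **LIFT**: under good reduction every torsion class of order prime to the residue
characteristic is the reduction of a torsion class (divisor form). -/
def Stmt_LIFT : Prop :=
  ∀ (K : Type u) (F : Type v) (k : Type u') (Ft : Type v') [Field K] [Field F] [Algebra K F]
    [Field k] [Field Ft] [Algebra k Ft] [IsAlgClosed K] [CharZero K] [IsAlgClosed k]
    (G : GoodRed K F k Ft), FFHyp K F → FFHyp k Ft →
    ∀ (g : ℕ) (c : ℤ) (c' : ℤ), IsGenus K F g c → IsGenus k Ft g c' →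
    ∀ n : ℕ, (n : k) ≠ 0 → ∀ E : Divisor k Ft, Divisor.degree E = 0 →
      (n : ℤ) • E ∈ Divisor.principal (K := k) (F := Ft) →
      ∃ D : Divisor K F, Divisor.degree D = 0 ∧
        (n : ℤ) • D ∈ Divisor.principal (K := K) (F := F) ∧
        Finsupp.mapDomain G.S.r D - E ∈ Divisor.principal (K := k) (F := Ft)

/-- **GENUS-EQ**: under good reduction the two Riemann genera agree. -/
def Stmt_GenusEq : Prop :=
  ∀ (K : Type u) (F : Type v) (k : Type u') (Ft : Type v') [Field K] [Field F] [Algebra K F]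
    [Field k] [Field Ft] [Algebra k Ft] [IsAlgClosed K] [IsAlgClosed k]
    (S : RedSetup K F k Ft), FFHyp K F → FFHyp k Ft →
    ∀ (g : ℕ) (c : ℤ) (g' : ℕ) (c' : ℤ), IsGenus K F g c → IsGenus k Ft g' c' → S.GenusLE' →
      g' = g

/-! ## The interface with the characteristic-`p` half (helper62) -/

/-- **COUNT-P** (helper62's half, in the form used by the wiring): the exact count of the
`ℓ`-power torsion over an algebraic closure of `𝔽_p`, `ℓ ≠ p`, in terms of Riemann's genus. -/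
def Stmt_CountPu : Prop :=
  ∀ (k : Type u) (Ft : Type v) [Field k] [Field Ft] [Algebra k Ft] [IsAlgClosed k]
    (p : ℕ) [CharP k p], p.Prime → IsAlgOverFp k p → IsFFu k Ft →
    ∀ (g : ℕ) (c : ℤ), IsGenus k Ft g c →
    ∀ ℓ : ℕ, ℓ.Prime → ℓ ≠ p → ∀ j : ℕ,
      Nat.card (Pic0.torsion k Ft (ℓ ^ j)) = ℓ ^ (2 * g * j)

end Fermat.Agent.S27.Char0

end
end
-- ==== END Fermat.Agent.S27.Char0.Defs

-- ==== BEGIN Fermat.Agent.S27.Char0.H57_VALCore
section

/-!
# S27, char-0 half, leaf VAL (helper57): core (Mathlib only)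

For an algebraically closed field `K` of characteristic `0`, a finite set `I ⊆ K` and `m > 0`
there are a prime `p ∤ m` and a valuation ring `O` of `K` in which the nonzero elements of `I`
are units, `p` is a non-unit and whose residue field is algebraic over `𝔽_p`
(`∀ a ∈ O, ∃ n > 0, a^(p^n) - a ∈ m_O`).

Route: `A := ℤ[I, I⁻¹, 1/m]`, a maximal ideal `m0` of `A` (`A / m0` is a finite field by the
Nullstellensatz over `ℤ`), and a valuation ring `O ⊇ A` with `m0 ⊆ m_O` which is MINIMAL with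
these properties (Zorn: the intersection of a chain of valuation rings is a valuation ring).
If the residue field of a minimal `O` had an element `ā` which is not absolutely algebraic, then
the residue field has a valuation ring `V` with `ā⁻¹ ∉ V`, and the composite
`{x ∈ O : x mod m_O ∈ V}` is a strictly smaller valuation ring with the same properties.
-/

set_option autoImplicit false
set_option linter.style.haveILetI false

noncomputable section

namespace Fermat.Agent.S27.Char0.H57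

universe u

open IsLocalRing

section ResField

variable {k : Type u} [Field k]

/-- An element with `z ^ q = z` (`q ≥ 2`) lies in every valuation subring. -/
theorem mem_of_pow_eq (V : ValuationSubring k) {z : k} {q : ℕ} (hq : 2 ≤ q) (hz : z ^ q = z) :
    z ∈ V := by
  rcases V.mem_or_inv_mem z with h | h
  · exact h
  · by_cases hz0 : z = 0
    · rw [hz0]; exact V.zero_mem
    · obtain ⟨r, rfl⟩ : ∃ r, q = r + 2 := ⟨q - 2, by omega⟩
      have h2 : z ^ r * z = 1 := by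
        have h3 : z ^ r * z * z = 1 * z := by
          rw [one_mul]
          calc z ^ r * z * z = z ^ (r + 2) := by ring
            _ = z := hz
        exact mul_right_cancel₀ hz0 h3
      have h4 : z = (z⁻¹) ^ r := by
        rw [inv_pow]
        exact eq_inv_of_mul_eq_one_right h2
      rw [h4]
      exact pow_mem h r

/-- An element algebraic over `𝔽_p` satisfies `y ^ (p ^ n) = y` for some `n > 0`. -/
theorem exists_pow_eq_of_isAlgebraic (p : ℕ) [Fact p.Prime] [CharP k p]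
    (alg : Algebra (ZMod p) k) {y : k} (hy : IsAlgebraic (ZMod p) y) :
    ∃ n : ℕ, 0 < n ∧ y ^ (p ^ n) = y := by
  have hint : IsIntegral (ZMod p) y := hy.isIntegral
  haveI : FiniteDimensional (ZMod p) (IntermediateField.adjoin (ZMod p) {y}) :=
    IntermediateField.adjoin.finiteDimensional hint
  haveI : Finite (IntermediateField.adjoin (ZMod p) {y}) := Module.finite_of_finite (ZMod p)
  haveI : Fintype (IntermediateField.adjoin (ZMod p) {y}) := Fintype.ofFinite _
  haveI : CharP (IntermediateField.adjoin (ZMod p) {y}) p :=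
    charP_of_injective_algebraMap
      (algebraMap (ZMod p) (IntermediateField.adjoin (ZMod p) {y})).injective p
  obtain ⟨n, -, hn⟩ := FiniteField.card (IntermediateField.adjoin (ZMod p) {y}) p
  refine ⟨n, n.pos, ?_⟩
  have h := FiniteField.pow_card
    (⟨y, IntermediateField.mem_adjoin_simple_self _ y⟩ : IntermediateField.adjoin (ZMod p) {y})
  rw [hn] at h
  exact congrArg Subtype.val h

/-- If `y` is not absolutely algebraic, some valuation subring does not contain `y⁻¹`. -/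
theorem exists_valuationSubring_inv_notMem (p : ℕ) [Fact p.Prime] [CharP k p] {y : k}
    (hy : ∀ n : ℕ, 0 < n → y ^ (p ^ n) ≠ y) : ∃ V : ValuationSubring k, y⁻¹ ∉ V := by
  have hy0 : y ≠ 0 := by
    rintro rfl
    exact hy 1 one_pos (zero_pow (pow_ne_zero _ (Fact.out : p.Prime).ne_zero))
  letI alg : Algebra (ZMod p) k := ZMod.algebra k p
  let B : Subring k := (Algebra.adjoin (ZMod p) {y}).toSubring
  have hyB : y ∈ B := Algebra.self_mem_adjoin_singleton _ y
  have hI : Ideal.span {(⟨y, hyB⟩ : B)} ≠ ⊤ := by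
    intro htop
    rw [Ideal.span_singleton_eq_top] at htop
    obtain ⟨⟨b, hb⟩, hmul⟩ := isUnit_iff_exists_inv.mp htop
    have hmul' : y * b = 1 := congrArg Subtype.val hmul
    have hb' : b ∈ Algebra.adjoin (ZMod p) {y} := hb
    rw [Algebra.adjoin_singleton_eq_range_aeval] at hb'
    obtain ⟨G, rfl⟩ := hb'
    have halg : IsAlgebraic (ZMod p) y := by
      refine ⟨Polynomial.X * G - 1, ?_, ?_⟩
      · intro h0
        have := congrArg (fun f => Polynomial.coeff f 0) h0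
        simp at this
      · have h5 : (Polynomial.aeval y) G = (Polynomial.aeval y).toRingHom G := rfl
        rw [map_sub, map_mul, Polynomial.aeval_X, map_one, h5, hmul', sub_self]
    obtain ⟨n, hn, hpow⟩ := exists_pow_eq_of_isAlgebraic p alg halg
    exact hy n hn hpow
  obtain ⟨V, -, hV⟩ := Ideal.image_subset_nonunits_valuationSubring _ hI
  refine ⟨V, ?_⟩
  have hyV : y ∈ V.nonunits := hV ⟨⟨y, hyB⟩, Ideal.subset_span rfl, rfl⟩
  rw [ValuationSubring.mem_nonunits_iff_or] at hyV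
  exact hyV.resolve_left hy0

/-- `ℤ` is a Jacobson ring. -/
theorem isJacobsonRing_int : IsJacobsonRing ℤ := by
  rw [isJacobsonRing_iff_prime_eq]
  intro P hP
  by_cases hbot : P = ⊥
  · subst hbot
    rw [eq_bot_iff]
    intro n hn
    rw [Ideal.mem_bot]
    by_contra hn0
    obtain ⟨p, hpn, hp⟩ := Nat.exists_infinite_primes (n.natAbs + 1)
    have hmax : (Ideal.span {(p : ℤ)}).IsMaximal :=
      PrincipalIdealRing.isMaximal_of_irreducible (Nat.prime_iff_prime_int.mp hp).irreducible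
    have hmem : n ∈ Ideal.span {(p : ℤ)} := (Ideal.mem_sInf.mp hn) ⟨bot_le, hmax⟩
    rw [Ideal.mem_span_singleton] at hmem
    have h2 : p ∣ n.natAbs := Int.natCast_dvd.mp hmem
    have h3 := Nat.le_of_dvd (Int.natAbs_pos.mpr hn0) h2
    omega
  · haveI : P.IsMaximal := Ideal.IsPrime.isMaximal hP hbot
    exact Ideal.jacobson_eq_self_of_isMaximal

/-- A field which is a finitely generated abelian group is finite. -/
theorem finite_of_moduleFinite_int (F : Type*) [Field F] [Module.Finite ℤ F] : Finite F := by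
  have hchar : ¬ CharZero F := by
    intro h0
    haveI : Algebra.IsIntegral ℤ F := Algebra.IsIntegral.of_finite ℤ F
    have hinj : Function.Injective (algebraMap ℤ F) := by
      intro a b hab
      have : ((a : ℤ) : F) = (b : F) := by simpa using hab
      exact_mod_cast this
    exact Int.not_isField (isField_of_isIntegral_of_isField hinj (Field.toIsField F))
  obtain ⟨r, hr⟩ := CharP.exists F
  have hr0 : r ≠ 0 := by
    rintro rfl
    exact hchar (CharP.charP_to_charZero F)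
  refine Module.finite_of_fg_torsion F ?_
  intro x
  refine ⟨⟨(r : ℤ), mem_nonZeroDivisors_of_ne_zero (by exact_mod_cast hr0)⟩, ?_⟩
  show ((r : ℤ) : ℤ) • x = 0
  rw [natCast_zsmul, nsmul_eq_mul, CharP.cast_eq_zero F r, zero_mul]

end ResField

section Val

variable {K : Type u} [Field K]

/-- The intersection of a chain of valuation subrings. -/
def chainInf (c : Set (ValuationSubring K))
    (htot : ∀ O₁ ∈ c, ∀ O₂ ∈ c, O₁ ≤ O₂ ∨ O₂ ≤ O₁) : ValuationSubring K :=
  ValuationSubring.ofSubring (⨅ O ∈ c, O.toSubring) (by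
    intro x
    by_cases h : ∀ O ∈ c, x ∈ O
    · left
      simp only [Subring.mem_iInf]
      exact fun O hO => h O hO
    · right
      push Not at h
      obtain ⟨O₁, hO₁, hx⟩ := h
      simp only [Subring.mem_iInf]
      intro O hO
      rcases htot O hO O₁ hO₁ with h | h
      · exact (O.mem_or_inv_mem x).resolve_left (fun hxO => hx (h hxO))
      · exact h ((O₁.mem_or_inv_mem x).resolve_left hx))

theorem mem_chainInf {c : Set (ValuationSubring K)}
    {htot : ∀ O₁ ∈ c, ∀ O₂ ∈ c, O₁ ≤ O₂ ∨ O₂ ≤ O₁} {x : K} :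
    x ∈ chainInf c htot ↔ ∀ O ∈ c, x ∈ O := by
  show x ∈ (⨅ O ∈ c, O.toSubring) ↔ _
  simp only [Subring.mem_iInf]
  rfl

/-- The residue class of `x ∈ O` vanishes iff `x = 0` or `x⁻¹ ∉ O`. -/
theorem residue_eq_zero_iff_or (O : ValuationSubring K) {x : K} (hx : x ∈ O) :
    residue O ⟨x, hx⟩ = 0 ↔ x = 0 ∨ x⁻¹ ∉ O := by
  rw [IsLocalRing.residue_eq_zero_iff, ← ValuationSubring.mem_nonunits_iff_or,
    ValuationSubring.mem_nonunits_iff_exists_mem_maximalIdeal]
  constructor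
  · intro h; exact ⟨hx, h⟩
  · rintro ⟨_, h⟩; exact h

theorem residue_inv (O : ValuationSubring K) {x : K} (hx : x ∈ O) (hx' : x⁻¹ ∈ O)
    (hx0 : x ≠ 0) : residue O ⟨x⁻¹, hx'⟩ = (residue O ⟨x, hx⟩)⁻¹ := by
  have h1 : (⟨x, hx⟩ : O) * ⟨x⁻¹, hx'⟩ = 1 := Subtype.ext (mul_inv_cancel₀ hx0)
  have h2 : residue O ⟨x, hx⟩ * residue O ⟨x⁻¹, hx'⟩ = 1 := by
    rw [← map_mul, h1, map_one]
  exact eq_inv_of_mul_eq_one_right h2

/-- The composite of a valuation ring `O` of `K` and a valuation ring `V` of its residue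
field. -/
def compVal (O : ValuationSubring K) (V : ValuationSubring (ResidueField O)) :
    ValuationSubring K :=
  ValuationSubring.ofSubring ((V.toSubring.comap (residue O)).map O.subtype) (by
    intro x
    by_cases hx : x ∈ O
    · by_cases hr : residue O ⟨x, hx⟩ = 0
      · left
        refine ⟨⟨x, hx⟩, ?_, rfl⟩
        show residue O ⟨x, hx⟩ ∈ V
        rw [hr]; exact V.zero_mem
      · have h1 := (not_iff_not.mpr (residue_eq_zero_iff_or O hx)).mp hr
        push Not at h1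
        obtain ⟨hx0, hx'⟩ := h1
        rcases V.mem_or_inv_mem (residue O ⟨x, hx⟩) with h | h
        · left
          exact ⟨⟨x, hx⟩, h, rfl⟩
        · right
          refine ⟨⟨x⁻¹, hx'⟩, ?_, rfl⟩
          show residue O ⟨x⁻¹, hx'⟩ ∈ V
          rw [residue_inv O hx hx' hx0]
          exact h
    · right
      have hx' : x⁻¹ ∈ O := (O.mem_or_inv_mem x).resolve_left hx
      refine ⟨⟨x⁻¹, hx'⟩, ?_, rfl⟩
      show residue O ⟨x⁻¹, hx'⟩ ∈ V
      have h0 : residue O ⟨x⁻¹, hx'⟩ = 0 := by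
        rw [residue_eq_zero_iff_or]
        right
        rw [inv_inv]
        exact hx
      rw [h0]; exact V.zero_mem)

theorem mem_compVal {O : ValuationSubring K} {V : ValuationSubring (ResidueField O)} {x : K} :
    x ∈ compVal O V ↔ ∃ h : x ∈ O, residue O ⟨x, h⟩ ∈ V := by
  constructor
  · rintro ⟨⟨y, hy⟩, hyV, rfl⟩
    exact ⟨hy, hyV⟩
  · rintro ⟨h, hV⟩
    exact ⟨⟨x, h⟩, hV, rfl⟩

theorem compVal_le (O : ValuationSubring K) (V : ValuationSubring (ResidueField O)) :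
    compVal O V ≤ O := fun _ hx => (mem_compVal.mp hx).1

/-- Zorn: a minimal valuation subring containing a subring `A` in which the elements of a set
`M0` are non-units. -/
theorem exists_minimal_valuationSubring (A : Subring K) (M0 : Set K)
    (hne : ∃ O : ValuationSubring K, A ≤ O.toSubring ∧ M0 ⊆ O.nonunits) :
    ∃ O : ValuationSubring K, (A ≤ O.toSubring ∧ M0 ⊆ O.nonunits) ∧
      ∀ O' : ValuationSubring K, A ≤ O'.toSubring → M0 ⊆ O'.nonunits → O' ≤ O → O ≤ O' := by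
  obtain ⟨O₀, hO₀⟩ := hne
  obtain ⟨m, hm⟩ := zorn_le₀ (α := (ValuationSubring K)ᵒᵈ)
    {O | A ≤ (OrderDual.ofDual O).toSubring ∧ M0 ⊆ (OrderDual.ofDual O).nonunits} (by
      intro c hc hchain
      by_cases hemp : c = ∅
      · refine ⟨OrderDual.toDual O₀, hO₀, ?_⟩
        intro z hz
        rw [hemp] at hz
        exact absurd hz (Set.notMem_empty z)
      · obtain ⟨O₁, hO₁⟩ := Set.nonempty_iff_ne_empty.mpr hemp
        have htot : ∀ P₁ ∈ (OrderDual.ofDual '' c : Set (ValuationSubring K)),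
            ∀ P₂ ∈ (OrderDual.ofDual '' c : Set (ValuationSubring K)), P₁ ≤ P₂ ∨ P₂ ≤ P₁ := by
          rintro _ ⟨P₁, hP₁, rfl⟩ _ ⟨P₂, hP₂, rfl⟩
          rcases hchain.total hP₁ hP₂ with h | h
          · exact Or.inr h
          · exact Or.inl h
        refine ⟨OrderDual.toDual (chainInf _ htot), ⟨?_, ?_⟩, ?_⟩
        · intro x hx
          show x ∈ chainInf _ htot
          rw [mem_chainInf]
          rintro _ ⟨P, hP, rfl⟩
          exact (hc hP).1 hx
        · intro x hx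
          show x ∈ (chainInf _ htot).nonunits
          rw [ValuationSubring.mem_nonunits_iff_or]
          have h1 : x ∈ (OrderDual.ofDual O₁).nonunits := (hc hO₁).2 hx
          rw [ValuationSubring.mem_nonunits_iff_or] at h1
          rcases h1 with h1 | h1
          · exact Or.inl h1
          · right
            intro h2
            rw [mem_chainInf] at h2
            exact h1 (h2 _ ⟨O₁, hO₁, rfl⟩)
        · intro z hz
          show chainInf _ htot ≤ OrderDual.ofDual z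
          intro x hx
          rw [mem_chainInf] at hx
          exact hx _ ⟨z, hz, rfl⟩)
  refine ⟨OrderDual.ofDual m, hm.1, ?_⟩
  intro O' hA hM hle
  exact hm.2 (y := OrderDual.toDual O') ⟨hA, hM⟩ hle

end Val

/-- **VAL**, core form. -/
theorem val_core (K : Type u) [Field K] [CharZero K] (I : Finset K) (m : ℕ) (hm : 0 < m) :
    ∃ (p : ℕ) (O : ValuationSubring K), p.Prime ∧ ¬ p ∣ m ∧
      (∀ a ∈ I, a ∈ O) ∧ (∀ a ∈ I, a ≠ 0 → a⁻¹ ∈ O) ∧
      (p : K) ∈ O ∧ ((p : K))⁻¹ ∉ O ∧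
      ∀ a ∈ O, ∃ n : ℕ, 0 < n ∧ (a ^ (p ^ n) - a = 0 ∨ (a ^ (p ^ n) - a)⁻¹ ∉ O) := by
  classical
  -- the finitely generated ring `A`
  let S : Finset K := I ∪ I.image (fun a => a⁻¹) ∪ {((m : K))⁻¹}
  let A₀ : Subalgebra ℤ K := Algebra.adjoin ℤ (S : Set K)
  let A : Subring K := A₀.toSubring
  have hSA : ∀ s ∈ S, s ∈ A := fun s hs => Algebra.subset_adjoin (Finset.mem_coe.mpr hs)
  haveI hft₀ : Algebra.FiniteType ℤ A₀ :=
    (Subalgebra.fg_iff_finiteType A₀).mp (Subalgebra.fg_adjoin_finset S)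
  obtain ⟨m0, hm0⟩ := Ideal.exists_maximal A
  letI : Field (A ⧸ m0) := Ideal.Quotient.field m0
  -- `A / m0` is a finite field
  let ι : A₀ →+* A := (A₀.val : A₀ →+* K).codRestrict A (fun x => x.2)
  have hι : Function.Surjective ι := fun x => ⟨⟨x.1, x.2⟩, Subtype.ext rfl⟩
  let g : A₀ →ₐ[ℤ] (A ⧸ m0) := ((Ideal.Quotient.mk m0).comp ι).toIntAlgHom
  have hg : Function.Surjective g := by
    intro y
    obtain ⟨x, rfl⟩ := Ideal.Quotient.mk_surjective y
    obtain ⟨x', rfl⟩ := hι x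
    exact ⟨x', rfl⟩
  haveI : Algebra.FiniteType ℤ (A ⧸ m0) := Algebra.FiniteType.of_surjective g hg
  haveI : IsJacobsonRing ℤ := isJacobsonRing_int
  haveI : Module.Finite ℤ (A ⧸ m0) := finite_of_finite_type_of_isJacobsonRing ℤ (A ⧸ m0)
  haveI : Finite (A ⧸ m0) := finite_of_moduleFinite_int (A ⧸ m0)
  haveI : Fintype (A ⧸ m0) := Fintype.ofFinite _
  set q : ℕ := Fintype.card (A ⧸ m0) with hq
  have hq2 : 2 ≤ q := Fintype.one_lt_card
  obtain ⟨p, hpchar⟩ := CharP.exists (A ⧸ m0)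
  haveI := hpchar
  have hp : p.Prime := (CharP.char_is_prime_or_zero (A ⧸ m0) p).resolve_right
    (fun h0 => by
      subst h0
      haveI : CharZero (A ⧸ m0) := CharP.charP_to_charZero _
      exact not_finite (A ⧸ m0))
  haveI : Fact p.Prime := ⟨hp⟩
  -- `p ∈ m0`
  have hpm0 : ((p : ℕ) : A) ∈ m0 := by
    rw [← Ideal.Quotient.eq_zero_iff_mem, map_natCast]
    exact CharP.cast_eq_zero (A ⧸ m0) p
  -- `x ^ q - x ∈ m0`
  have hfrob : ∀ x : A, x ^ q - x ∈ m0 := by
    intro x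
    rw [← Ideal.Quotient.eq_zero_iff_mem, map_sub, map_pow, hq, FiniteField.pow_card, sub_self]
  have hmK : (m : K) ≠ 0 := Nat.cast_ne_zero.mpr hm.ne'
  have hpK : (p : K) ≠ 0 := Nat.cast_ne_zero.mpr hp.ne_zero
  have hminv : ((m : K))⁻¹ ∈ A := hSA _ (by simp [S])
  have hpm : ¬ p ∣ m := by
    rintro ⟨c, rfl⟩
    have h1 : ((⟨((p * c : ℕ) : K)⁻¹, hminv⟩ : A) * ((c : ℕ) : A)) * ((p : ℕ) : A) = 1 := by
      apply Subtype.ext
      push_cast
      push_cast at hmK
      have hcK : (c : K) ≠ 0 := right_ne_zero_of_mul hmK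
      field_simp
    have h2 : (1 : A) ∈ m0 := by
      rw [← h1]
      exact m0.mul_mem_left _ hpm0
    exact hm0.ne_top ((Ideal.eq_top_iff_one m0).mpr h2)
  -- the set `M0`
  let M0 : Set K := A.subtype '' (m0 : Set A)
  obtain ⟨O, ⟨hAO, hMO⟩, hmin⟩ := exists_minimal_valuationSubring A M0
    (Ideal.image_subset_nonunits_valuationSubring m0 hm0.ne_top)
  have hM0 : ∀ x : A, x ∈ m0 → (x : K) = 0 ∨ ((x : K))⁻¹ ∉ O := by
    intro x hx
    have h1 : (x : K) ∈ O.nonunits := hMO ⟨x, hx, rfl⟩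
    exact (O.mem_nonunits_iff_or).mp h1
  have hpO : ((p : K))⁻¹ ∉ O := by
    have h1 := hM0 _ hpm0
    have h2 : (((p : ℕ) : A) : K) = (p : K) := by push_cast; rfl
    rw [h2] at h1
    exact h1.resolve_left hpK
  refine ⟨p, O, hp, hpm, ?_, ?_, natCast_mem O p, hpO, ?_⟩
  · intro a ha
    exact hAO (hSA a (by simp [S, ha]))
  · intro a ha _
    refine hAO (hSA _ ?_)
    simp only [S, Finset.mem_union, Finset.mem_image, Finset.mem_singleton]
    exact Or.inl (Or.inr ⟨a, ha, rfl⟩)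
  -- the residue field is absolutely algebraic
  intro a ha
  by_contra hcon
  push Not at hcon
  -- characteristic of the residue field
  have hpres : ((p : ℕ) : ResidueField O) = 0 := by
    have h1 : residue O ⟨(p : K), natCast_mem O p⟩ = 0 := by
      rw [residue_eq_zero_iff_or]
      exact Or.inr hpO
    have h2 : (⟨(p : K), natCast_mem O p⟩ : O) = ((p : ℕ) : O) := Subtype.ext (by push_cast; rfl)
    rw [h2, map_natCast] at h1
    exact h1
  haveI : CharP (ResidueField O) p := by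
    obtain ⟨r, hr⟩ := CharP.exists (ResidueField O)
    have hdvd : r ∣ p := (CharP.cast_eq_zero_iff (ResidueField O) r p).mp hpres
    rcases (Nat.dvd_prime hp).mp hdvd with h1 | h1
    · exact absurd h1 (CharP.char_ne_one (ResidueField O) r)
    · rw [← h1]; exact hr
  have hres : ∀ n : ℕ, 0 < n →
      (residue O ⟨a, ha⟩) ^ (p ^ n) ≠ residue O ⟨a, ha⟩ := by
    intro n hn h
    have h1 : residue O ⟨a ^ (p ^ n) - a, O.sub_mem (O.pow_mem ha _) ha⟩ = 0 := by
      have h2 : (⟨a ^ (p ^ n) - a, O.sub_mem (O.pow_mem ha _) ha⟩ : O)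
          = (⟨a, ha⟩ : O) ^ (p ^ n) - ⟨a, ha⟩ := Subtype.ext rfl
      rw [h2, map_sub, map_pow, h, sub_self]
    rw [residue_eq_zero_iff_or] at h1
    rcases h1 with h1 | h1
    · exact (hcon n hn).1 h1
    · exact h1 (hcon n hn).2
  obtain ⟨V, hV⟩ := exists_valuationSubring_inv_notMem p hres
  -- the composite is smaller
  have hA' : A ≤ (compVal O V).toSubring := by
    intro x hx
    show x ∈ compVal O V
    rw [mem_compVal]
    refine ⟨hAO hx, mem_of_pow_eq V hq2 ?_⟩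
    have h1 := hM0 _ (hfrob ⟨x, hx⟩)
    have h2 : residue O ⟨x ^ q - x, O.sub_mem (O.pow_mem (hAO hx) _) (hAO hx)⟩ = 0 := by
      rw [residue_eq_zero_iff_or]
      exact h1
    have h3 : (⟨x ^ q - x, O.sub_mem (O.pow_mem (hAO hx) _) (hAO hx)⟩ : O)
        = (⟨x, hAO hx⟩ : O) ^ q - ⟨x, hAO hx⟩ := Subtype.ext rfl
    rw [h3, map_sub, map_pow, sub_eq_zero] at h2
    exact h2
  have hM' : M0 ⊆ (compVal O V).nonunits := by
    rintro _ ⟨x, hx, rfl⟩
    show (x : K) ∈ (compVal O V).nonunits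
    rw [ValuationSubring.mem_nonunits_iff_or]
    rcases hM0 x hx with h | h
    · exact Or.inl h
    · exact Or.inr fun h' => h (compVal_le O V h')
  have hle := hmin (compVal O V) hA' hM' (compVal_le O V)
  -- `a⁻¹ ∈ O` but `a⁻¹ ∉ compVal O V`
  have ha0 : residue O ⟨a, ha⟩ ≠ 0 := by
    intro h
    apply hres 1 one_pos
    rw [h, zero_pow (pow_ne_zero _ hp.ne_zero)]
  have h1 := (not_iff_not.mpr (residue_eq_zero_iff_or O ha)).mp ha0
  push Not at h1
  obtain ⟨ha0', hainv⟩ := h1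
  have h2 := hle hainv
  rw [mem_compVal] at h2
  obtain ⟨h3, h4⟩ := h2
  rw [residue_inv O ha h3 ha0'] at h4
  exact hV h4

end Fermat.Agent.S27.Char0.H57

end
end
-- ==== END Fermat.Agent.S27.Char0.H57_VALCore

-- ==== BEGIN Fermat.Agent.S27.Char0.H64_EisAbs
section

/-!
# S27 / RED-EX, leaf GaussExt (helper64), part 1: the abstract Eisenstein lemma

`eisP d c = T^d + Σ_{i<d} c_i T^i`.  If the `c_i ∈ L[X]` are divisible by `X` and `X² ∤ c_0`, then
`eisP d c` is irreducible over `L[X]`, over `RatFunc L` and over `L(x)` for every transcendental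
`x` (Eisenstein + Gauss + `RatFunc.algEquivOfTranscendental`).  Consequences for a root `y`:
the minimal polynomial, linear independence of `1, y, …, y^(d-1)` over `L(x)`, generation.
-/

set_option autoImplicit false
set_option linter.unusedSectionVars false
set_option linter.style.haveILetI false

noncomputable section

namespace Fermat.Agent.S27.Char0.H64

open Polynomial IntermediateField

universe u v

section Poly

variable {R : Type u} [CommRing R] {S : Type v} [CommRing S]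

/-- The monic polynomial `T^d + Σ_{i<d} c_i T^i`. -/
def eisP (d : ℕ) (c : Fin d → R) : R[X] := X ^ d + ∑ i : Fin d, C (c i) * X ^ (i : ℕ)

theorem eisP_tail_degree_lt [Nontrivial R] (d : ℕ) (c : Fin d → R) :
    (∑ i : Fin d, C (c i) * X ^ (i : ℕ)).degree < (d : WithBot ℕ) := by
  exact degree_sum_fin_lt c

theorem eisP_monic [Nontrivial R] (d : ℕ) (c : Fin d → R) : (eisP d c).Monic := by
  unfold eisP
  exact monic_X_pow_add (eisP_tail_degree_lt d c)

theorem eisP_natDegree [Nontrivial R] (d : ℕ) (c : Fin d → R) : (eisP d c).natDegree = d := by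
  have h := eisP_tail_degree_lt d c
  unfold eisP
  rw [natDegree_add_eq_left_of_degree_lt, natDegree_X_pow]
  rw [degree_X_pow]
  exact h

theorem eisP_coeff (d : ℕ) (c : Fin d → R) (i : Fin d) : (eisP d c).coeff i = c i := by
  unfold eisP
  rw [coeff_add, coeff_X_pow, if_neg (ne_of_lt i.2), zero_add, finsetSum_coeff,
    Finset.sum_eq_single i]
  · rw [coeff_C_mul, coeff_X_pow, if_pos rfl, mul_one]
  · intro j _ hj
    rw [coeff_C_mul, coeff_X_pow, if_neg, mul_zero]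
    exact fun h => hj (Fin.ext h.symm)
  · intro h
    exact absurd (Finset.mem_univ i) h

theorem eisP_map (f : R →+* S) (d : ℕ) (c : Fin d → R) :
    (eisP d c).map f = eisP d (fun i => f (c i)) := by
  unfold eisP
  simp [Polynomial.map_sum]

theorem eisP_eval₂ (f : R →+* S) (y : S) (d : ℕ) (c : Fin d → R) :
    (eisP d c).eval₂ f y = y ^ d + ∑ i : Fin d, f (c i) * y ^ (i : ℕ) := by
  unfold eisP
  simp [eval₂_finsetSum]

end Poly

section Eis

variable {L : Type u} [Field L]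

/-- **Eisenstein** at the prime `X` of `L[X]`. -/
theorem eisP_irreducible {d : ℕ} (hd : 0 < d) (c : Fin d → L[X]) (h0 : ∀ i, (c i).coeff 0 = 0)
    (h1 : (c ⟨0, hd⟩).coeff 1 ≠ 0) : Irreducible (eisP d c) := by
  have hprime : (Ideal.span {(X : L[X])}).IsPrime := by
    rw [Ideal.span_singleton_prime X_ne_zero]
    exact prime_X
  have hmon := eisP_monic d c
  have hdeg := eisP_natDegree d c
  refine irreducible_of_eisenstein_criterion hprime ?_ ?_ ?_ ?_ hmon.isPrimitive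
  · rw [hmon.leadingCoeff, Ideal.mem_span_singleton]
    exact fun h => not_isUnit_X (isUnit_of_dvd_one h)
  · intro n hn
    rw [degree_eq_natDegree hmon.ne_zero, hdeg] at hn
    have hn' : n < d := by exact_mod_cast hn
    have := eisP_coeff d c ⟨n, hn'⟩
    simp only at this
    rw [this, Ideal.mem_span_singleton, X_dvd_iff]
    exact h0 _
  · rw [degree_eq_natDegree hmon.ne_zero, hdeg]
    exact_mod_cast hd
  · have := eisP_coeff d c ⟨0, hd⟩
    simp only at this
    rw [this, Ideal.span_singleton_pow, Ideal.mem_span_singleton, X_pow_dvd_iff]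
    intro h
    exact h1 (h 1 (by norm_num))

/-- `eisP` is prime in `L[X][T]`. -/
theorem eisP_prime {d : ℕ} (hd : 0 < d) (c : Fin d → L[X]) (h0 : ∀ i, (c i).coeff 0 = 0)
    (h1 : (c ⟨0, hd⟩).coeff 1 ≠ 0) : Prime (eisP d c) :=
  UniqueFactorizationMonoid.irreducible_iff_prime.mp (eisP_irreducible hd c h0 h1)

/-- Irreducibility over `RatFunc L` (Gauss). -/
theorem eisP_irreducible_ratFunc {d : ℕ} (hd : 0 < d) (c : Fin d → L[X])
    (h0 : ∀ i, (c i).coeff 0 = 0) (h1 : (c ⟨0, hd⟩).coeff 1 ≠ 0) :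
    Irreducible ((eisP d c).map (algebraMap L[X] (RatFunc L))) :=
  (Monic.irreducible_iff_irreducible_map_fraction_map (eisP_monic d c)).mp
    (eisP_irreducible hd c h0 h1)

variable {E : Type v} [Field E] [Algebra L E]

/-- The evaluation `L[X] → L(x)`. -/
def evGen (x : E) : L[X] →+* L⟮x⟯ := (aeval (AdjoinSimple.gen L x)).toRingHom

theorem evGen_apply (x : E) (p : L[X]) : evGen x p = aeval (AdjoinSimple.gen L x) p := rfl

theorem coe_evGen (x : E) (p : L[X]) : ((evGen x p : L⟮x⟯) : E) = aeval x p := by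
  rw [evGen_apply, ← IntermediateField.aeval_coe, AdjoinSimple.coe_gen]

theorem evGen_injective {x : E} (hx : Transcendental L x) : Function.Injective (evGen (L := L) x) := by
  intro p q hpq
  have h := congrArg (fun z : L⟮x⟯ => (z : E)) hpq
  simp only [coe_evGen] at h
  exact (transcendental_iff_injective.mp hx) h

theorem evGen_eq_comp {x : E} (hx : Transcendental L x) :
    evGen x = ((RatFunc.algEquivOfTranscendental x hx : RatFunc L ≃ₐ[L] L⟮x⟯) :
      RatFunc L →+* L⟮x⟯).comp (algebraMap L[X] (RatFunc L)) := by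
  refine Polynomial.ringHom_ext (fun a => ?_) ?_
  · apply Subtype.ext
    rw [coe_evGen, aeval_C, RingHom.comp_apply]
    have : algebraMap L[X] (RatFunc L) (C a) = algebraMap L (RatFunc L) a := by
      rw [RatFunc.algebraMap_eq_C, RatFunc.algebraMap_C]
    rw [this]
    change _ = (((RatFunc.algEquivOfTranscendental x hx) (algebraMap L (RatFunc L) a) : L⟮x⟯) : E)
    rw [AlgEquiv.commutes]
    rfl
  · apply Subtype.ext
    rw [coe_evGen, aeval_X, RingHom.comp_apply, RatFunc.algebraMap_X]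
    change _ = (((RatFunc.algEquivOfTranscendental x hx) RatFunc.X : L⟮x⟯) : E)
    rw [RatFunc.algEquivOfTranscendental_X]

/-- Irreducibility over `L(x)`, `x` transcendental. -/
theorem eisP_irreducible_adjoin {d : ℕ} (hd : 0 < d) (c : Fin d → L[X])
    (h0 : ∀ i, (c i).coeff 0 = 0) (h1 : (c ⟨0, hd⟩).coeff 1 ≠ 0) {x : E}
    (hx : Transcendental L x) : Irreducible ((eisP d c).map (evGen x)) := by
  have h := eisP_irreducible_ratFunc hd c h0 h1
  rw [evGen_eq_comp hx, ← Polynomial.map_map]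
  exact (MulEquiv.irreducible_iff (Polynomial.mapEquiv
    (RatFunc.algEquivOfTranscendental x hx).toRingEquiv).toMulEquiv).mpr h

/-- The evaluation `L[X] → E` at `x`. -/
def evE (x : E) : L[X] →+* E := (aeval x).toRingHom

theorem evE_apply (x : E) (p : L[X]) : evE x p = aeval x p := rfl

theorem evE_eq_comp (x : E) : evE (L := L) x = (algebraMap L⟮x⟯ E).comp (evGen x) := by
  ext p <;> simp [evE_apply, ← coe_evGen]

theorem eval₂_evE (x y : E) (g : L[X][X]) :
    g.eval₂ (evE x) y = aeval y (g.map (evGen x)) := by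
  rw [aeval_def, eval₂_map, evE_eq_comp]

section Root

variable {d : ℕ} (hd : 0 < d) (c : Fin d → L[X]) (h0 : ∀ i, (c i).coeff 0 = 0)
  (h1 : (c ⟨0, hd⟩).coeff 1 ≠ 0) {x : E} (hx : Transcendental L x) {y : E}
  (hy : (eisP d c).eval₂ (evE x) y = 0)

include hd h0 h1 hx hy

theorem eis_minpoly : minpoly L⟮x⟯ y = (eisP d c).map (evGen x) := by
  symm
  refine minpoly.eq_of_irreducible_of_monic (eisP_irreducible_adjoin hd c h0 h1 hx) ?_
    ((eisP_monic d c).map _)
  rw [← eval₂_evE]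
  exact hy

theorem eis_isIntegral : IsIntegral L⟮x⟯ y := by
  refine ⟨(eisP d c).map (evGen x), (eisP_monic d c).map _, ?_⟩
  rw [← aeval_def, ← eval₂_evE]
  exact hy

theorem eis_natDegree_minpoly : (minpoly L⟮x⟯ y).natDegree = d := by
  rw [eis_minpoly hd c h0 h1 hx hy, (eisP_monic d c).natDegree_map, eisP_natDegree]

/-- **INJ**: a polynomial of degree `< d` vanishing at `(x, y)` is zero. -/
theorem eis_inj (g : L[X][X]) (hg : g.degree < (d : WithBot ℕ)) (h : g.eval₂ (evE x) y = 0) :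
    g = 0 := by
  by_contra hne
  have hmap : g.map (evGen x) ≠ 0 := by
    intro h0'
    apply hne
    apply Polynomial.map_injective _ (evGen_injective hx)
    rw [h0', Polynomial.map_zero]
  have h2 : aeval y (g.map (evGen x)) = 0 := by rw [← eval₂_evE]; exact h
  have h3 := minpoly.degree_le_of_ne_zero L⟮x⟯ y hmap h2
  rw [degree_eq_natDegree (minpoly.ne_zero (eis_isIntegral hd c h0 h1 hx hy)),
    eis_natDegree_minpoly hd c h0 h1 hx hy] at h3
  have h4 : (g.map (evGen x)).degree ≤ g.degree := degree_map_le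
  exact absurd (h3.trans h4) (not_le.mpr hg)

/-- Separability of the root when `d` is invertible. -/
theorem eis_isSeparable (hdL : (d : L) ≠ 0) : IsSeparable L⟮x⟯ y := by
  unfold IsSeparable
  have hirr : Irreducible (minpoly L⟮x⟯ y) := minpoly.irreducible (eis_isIntegral hd c h0 h1 hx hy)
  rw [Polynomial.separable_iff_derivative_ne_zero hirr]
  intro hder
  have hcoef := congrArg (fun p => p.coeff (d - 1)) hder
  simp only [coeff_zero] at hcoef
  rw [coeff_derivative, Nat.sub_add_cancel hd] at hcoef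
  have hlead : (minpoly L⟮x⟯ y).coeff d = 1 := by
    have := (minpoly.monic (eis_isIntegral hd c h0 h1 hx hy)).coeff_natDegree
    rwa [eis_natDegree_minpoly hd c h0 h1 hx hy] at this
  rw [hlead, one_mul] at hcoef
  have hd1 : ((d - 1 : ℕ) : L⟮x⟯) + 1 = (d : L⟮x⟯) := by
    have : ((d - 1 : ℕ) : L⟮x⟯) + 1 = (((d - 1) + 1 : ℕ) : L⟮x⟯) := by push_cast; ring
    rw [this, Nat.sub_add_cancel hd]
  rw [hd1] at hcoef
  apply hdL
  have : (algebraMap L L⟮x⟯) (d : L) = 0 := by rw [map_natCast]; exact hcoef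
  exact (map_eq_zero _).mp this

theorem eval₂_evE_mem (g : L[X][X]) : g.eval₂ (evE x) y ∈ L⟮x⟯⟮y⟯ := by
  rw [eval₂_evE]
  exact IntermediateField.algebra_adjoin_le_adjoin _ _ (Polynomial.aeval_mem_adjoin_singleton _ _)

/-- If `(x, y)` generate `E` as a field, then `L(x)(y) = E`. -/
theorem eis_adjoin_eq_top
    (hgen : ∀ z : E, ∃ a b : L[X][X], b.eval₂ (evE x) y ≠ 0 ∧
      z * b.eval₂ (evE x) y = a.eval₂ (evE x) y) :
    L⟮x⟯⟮y⟯ = ⊤ := by
  rw [eq_top_iff]
  intro z _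
  obtain ⟨a, b, hb, hab⟩ := hgen z
  have hz : z = a.eval₂ (evE x) y * (b.eval₂ (evE x) y)⁻¹ := by
    rw [← hab, mul_assoc, mul_inv_cancel₀ hb, mul_one]
  rw [hz]
  exact mul_mem (eval₂_evE_mem hd c h0 h1 hx hy a)
    (inv_mem (eval₂_evE_mem hd c h0 h1 hx hy b))

/-- Degree of `E / L(x)` when `(x, y)` generate. -/
theorem eis_finite_of_top (htop : L⟮x⟯⟮y⟯ = ⊤) : Module.Finite L⟮x⟯ E := by
  haveI := IntermediateField.adjoin.finiteDimensional (eis_isIntegral hd c h0 h1 hx hy)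
  have e : L⟮x⟯⟮y⟯ ≃ₗ[L⟮x⟯] E :=
    ((IntermediateField.equivOfEq htop).trans IntermediateField.topEquiv).toLinearEquiv
  exact Module.Finite.equiv e

theorem eis_finrank_of_top (htop : L⟮x⟯⟮y⟯ = ⊤) : Module.finrank L⟮x⟯ E = d := by
  rw [← IntermediateField.finrank_top', ← htop,
    IntermediateField.adjoin.finrank (eis_isIntegral hd c h0 h1 hx hy),
    eis_natDegree_minpoly hd c h0 h1 hx hy]

theorem eis_sep_of_top (htop : L⟮x⟯⟮y⟯ = ⊤) (hdL : (d : L) ≠ 0) :
    Algebra.IsSeparable L⟮x⟯ E := by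
  haveI : Algebra.IsSeparable L⟮x⟯ L⟮x⟯⟮y⟯ :=
    (IntermediateField.isSeparable_adjoin_simple_iff_isSeparable _ _).mpr
      (eis_isSeparable hd c h0 h1 hx hy hdL)
  exact Algebra.IsSeparable.of_algHom L⟮x⟯ L⟮x⟯⟮y⟯
    ((IntermediateField.equivOfEq htop).trans IntermediateField.topEquiv).symm.toAlgHom

/-- If `[E : L(x)] = d`, then `L(x)(y) = E`. -/
theorem eis_adjoin_eq_top_of_finrank [Module.Finite L⟮x⟯ E] (hdeg : Module.finrank L⟮x⟯ E = d) :
    L⟮x⟯⟮y⟯ = ⊤ := by
  haveI : FiniteDimensional L⟮x⟯ (⊤ : IntermediateField L⟮x⟯ E) :=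
    Module.Finite.equiv (IntermediateField.topEquiv (F := L⟮x⟯) (E := E)).symm.toLinearEquiv
  refine IntermediateField.eq_of_le_of_finrank_eq le_top ?_
  rw [IntermediateField.finrank_top', hdeg,
    IntermediateField.adjoin.finrank (eis_isIntegral hd c h0 h1 hx hy),
    eis_natDegree_minpoly hd c h0 h1 hx hy]

/-- **GEN**: if `[E : L(x)] = d`, every element of `E` is `g(x, y) / q(x)`. -/
theorem eis_gen [Module.Finite L⟮x⟯ E] (hdeg : Module.finrank L⟮x⟯ E = d) (f : E) :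
    ∃ (g : L[X][X]) (q : L[X]), q ≠ 0 ∧ f * aeval x q = g.eval₂ (evE x) y := by
  have htop := eis_adjoin_eq_top_of_finrank hd c h0 h1 hx hy hdeg
  have hf : f ∈ L⟮x⟯⟮y⟯ := by rw [htop]; trivial
  have halg : IsAlgebraic L⟮x⟯ y := (eis_isIntegral hd c h0 h1 hx hy).isAlgebraic
  have hf2 : f ∈ (L⟮x⟯⟮y⟯).toSubalgebra := hf
  rw [IntermediateField.adjoin_simple_toSubalgebra_of_isAlgebraic halg,
    Algebra.adjoin_singleton_eq_range_aeval] at hf2
  obtain ⟨r, hr⟩ := hf2
  set e := RatFunc.algEquivOfTranscendental x hx with he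
  set r₀ : (RatFunc L)[X] := r.map (e.symm : L⟮x⟯ →+* RatFunc L) with hr₀
  obtain ⟨b, hbM, hb⟩ := IsLocalization.integerNormalization_spec (nonZeroDivisors L[X]) r₀
  refine ⟨IsLocalization.integerNormalization (nonZeroDivisors L[X]) r₀, b,
    nonZeroDivisors.ne_zero hbM, ?_⟩
  rw [eval₂_evE, evGen_eq_comp hx, ← Polynomial.map_map, hb]
  have h1' : (b • r₀).map ((e : RatFunc L ≃ₐ[L] L⟮x⟯) : RatFunc L →+* L⟮x⟯) = evGen x b • r := by
    rw [Algebra.smul_def, Polynomial.map_mul, hr₀, Polynomial.map_map]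
    have hid : ((e : RatFunc L →+* L⟮x⟯).comp (e.symm : L⟮x⟯ →+* RatFunc L)) = RingHom.id _ := by
      ext z
      simp
    rw [hid, Polynomial.map_id, Polynomial.algebraMap_apply, Polynomial.map_C, smul_eq_C_mul]
    congr 2
    rw [evGen_eq_comp hx]
    rfl
  have hr' : aeval y r = f := hr
  rw [h1', map_smul, hr', Algebra.smul_def, mul_comm]
  congr 1
  exact (coe_evGen x b).symm

end Root

end Eis

end Fermat.Agent.S27.Char0.H64

end
end
-- ==== END Fermat.Agent.S27.Char0.H64_EisAbs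

-- ==== BEGIN Fermat.Agent.S27.CharP.H41_FrobExA
section

/-!
# S27 char-p half, leaf FROB-EX, part A (helper41): extending a locally periodic automorphism

`E` a field with an automorphism `σ` all of whose orbits are finite, `F / E` a finite extension.
Then some power `σ ^ a` (`a > 0`) extends to an automorphism `Φ` of `F` all of whose orbits are
finite.  (Choose a basis `b` of `F / E`; a power of `σ` fixes the structure constants of `b`
and the coordinates of `1`; let `Φ` act on the coordinates.)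
-/

set_option autoImplicit false
set_option linter.style.haveILetI false

noncomputable section

namespace Fermat.Agent.S27.CharP.H41

open Module

section Coord

variable {E F : Type*} [Field E] [Field F] [Algebra E F]
  {ι : Type*} [Fintype ι] (b : Basis ι E F)

/-- The action of an automorphism of `E` on the coordinates with respect to `b`. -/
def coordMap (s : E ≃+* E) : F →+ F where
  toFun v := ∑ l, s (b.repr v l) • b l
  map_zero' := by simp
  map_add' u v := by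
    simp only [map_add, Finsupp.coe_add, Pi.add_apply, add_smul, Finset.sum_add_distrib]

theorem coordMap_apply (s : E ≃+* E) (v : F) :
    coordMap b s v = ∑ l, s (b.repr v l) • b l := rfl

theorem repr_coordMap (s : E ≃+* E) (v : F) (l : ι) :
    b.repr (coordMap b s v) l = s (b.repr v l) := by
  rw [coordMap_apply, b.repr_sum_self]

theorem coordMap_smul (s : E ≃+* E) (z : E) (v : F) :
    coordMap b s (z • v) = s z • coordMap b s v := by
  rw [coordMap_apply, coordMap_apply, Finset.smul_sum]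
  refine Finset.sum_congr rfl fun l _ => ?_
  rw [map_smul, Finsupp.smul_apply, smul_eq_mul, map_mul, mul_smul]

theorem coordMap_of_fixed (s : E ≃+* E) (w : F) (h : ∀ l, s (b.repr w l) = b.repr w l) :
    coordMap b s w = w := by
  rw [coordMap_apply]
  conv_rhs => rw [← b.sum_repr w]
  exact Finset.sum_congr rfl fun l _ => by rw [h l]

theorem coordMap_basis (s : E ≃+* E) (i : ι) : coordMap b s (b i) = b i := by
  classical
  apply coordMap_of_fixed
  intro l
  rw [b.repr_self, Finsupp.single_apply]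
  split_ifs
  · exact map_one s
  · exact map_zero s

theorem coordMap_comp (s t : E ≃+* E) (v : F) :
    coordMap b s (coordMap b t v) = coordMap b (t.trans s) v := by
  rw [coordMap_apply b s, coordMap_apply b (t.trans s)]
  refine Finset.sum_congr rfl fun l _ => ?_
  rw [repr_coordMap]
  rfl

theorem coordMap_refl (v : F) : coordMap b (RingEquiv.refl E) v = v :=
  coordMap_of_fixed b _ v fun _ => rfl

theorem coordMap_mul (s : E ≃+* E)
    (h : ∀ i j l, s (b.repr (b i * b j) l) = b.repr (b i * b j) l) (u v : F) :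
    coordMap b s (u * v) = coordMap b s u * coordMap b s v := by
  have hbb : ∀ i j, coordMap b s (b i * b j) = b i * b j := fun i j =>
    coordMap_of_fixed b s _ (h i j)
  have hu : u = ∑ i, b.repr u i • b i := (b.sum_repr u).symm
  have hv : v = ∑ j, b.repr v j • b j := (b.sum_repr v).symm
  have h1 : u * v = ∑ i, ∑ j, (b.repr u i * b.repr v j) • (b i * b j) := by
    conv_lhs => rw [hu, hv]
    rw [Finset.sum_mul_sum]
    refine Finset.sum_congr rfl fun i _ => Finset.sum_congr rfl fun j _ => ?_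
    rw [smul_mul_smul_comm]
  have h2 : coordMap b s u * coordMap b s v
      = ∑ i, ∑ j, (s (b.repr u i) * s (b.repr v j)) • (b i * b j) := by
    rw [coordMap_apply, coordMap_apply, Finset.sum_mul_sum]
    refine Finset.sum_congr rfl fun i _ => Finset.sum_congr rfl fun j _ => ?_
    rw [smul_mul_smul_comm]
  rw [h2, h1, map_sum]
  refine Finset.sum_congr rfl fun i _ => ?_
  rw [map_sum]
  refine Finset.sum_congr rfl fun j _ => ?_
  rw [coordMap_smul, hbb, map_mul]

/-- The coordinatewise action as a ring automorphism of `F`. -/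
def coordEquiv (s : E ≃+* E)
    (h : ∀ i j l, s (b.repr (b i * b j) l) = b.repr (b i * b j) l) : F ≃+* F where
  toFun := coordMap b s
  invFun := coordMap b s.symm
  left_inv v := by
    rw [coordMap_comp]
    have : s.trans s.symm = RingEquiv.refl E := RingEquiv.self_trans_symm s
    rw [this, coordMap_refl]
  right_inv v := by
    rw [coordMap_comp]
    have : s.symm.trans s = RingEquiv.refl E := RingEquiv.symm_trans_self s
    rw [this, coordMap_refl]
  map_mul' := coordMap_mul b s h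
  map_add' := map_add (coordMap b s)

theorem coordEquiv_apply (s : E ≃+* E)
    (h : ∀ i j l, s (b.repr (b i * b j) l) = b.repr (b i * b j) l) (v : F) :
    coordEquiv b s h v = coordMap b s v := rfl

theorem coordEquiv_algebraMap (s : E ≃+* E)
    (h : ∀ i j l, s (b.repr (b i * b j) l) = b.repr (b i * b j) l) (z : E) :
    coordEquiv b s h (algebraMap E F z) = algebraMap E F (s z) := by
  have h1 : coordEquiv b s h 1 = 1 := map_one _
  rw [Algebra.algebraMap_eq_smul_one, coordEquiv_apply, coordMap_smul, ← coordEquiv_apply b s h,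
    h1, ← Algebra.algebraMap_eq_smul_one]

theorem repr_coordEquiv_pow (s : E ≃+* E)
    (h : ∀ i j l, s (b.repr (b i * b j) l) = b.repr (b i * b j) l) (n : ℕ) (v : F) (l : ι) :
    b.repr (((coordEquiv b s h : RingAut F) ^ n) v) l = ((s : RingAut E) ^ n) (b.repr v l) := by
  induction n with
  | zero => rfl
  | succ n ih =>
    rw [pow_succ', pow_succ', RingAut.mul_apply, RingAut.mul_apply, coordEquiv_apply,
      repr_coordMap, ih]

end Coord

section Periodic

variable {E : Type*} [Field E]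

theorem pow_mul_apply_of_fixed (σ : RingAut E) {m : ℕ} {z : E} (h : (σ ^ m) z = z) (t : ℕ) :
    (σ ^ (m * t)) z = z := by
  induction t with
  | zero => rfl
  | succ t ih =>
    rw [Nat.mul_succ, pow_add, RingAut.mul_apply, h, ih]

theorem pow_apply_of_dvd (σ : RingAut E) {m n : ℕ} {z : E} (h : (σ ^ m) z = z) (hmn : m ∣ n) :
    (σ ^ n) z = z := by
  obtain ⟨t, rfl⟩ := hmn
  exact pow_mul_apply_of_fixed σ h t

/-- Finitely many elements with finite orbits have a common period. -/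
theorem exists_common_period (σ : RingAut E)
    (hper : ∀ z : E, ∃ m : ℕ, 0 < m ∧ (σ ^ m) z = z) {κ : Type*} [Finite κ] (c : κ → E) :
    ∃ a : ℕ, 0 < a ∧ ∀ i, (σ ^ a) (c i) = c i := by
  classical
  haveI := Fintype.ofFinite κ
  choose per hper0 hper1 using hper
  refine ⟨∏ i, per (c i), Finset.prod_pos fun i _ => hper0 _, fun i => ?_⟩
  exact pow_apply_of_dvd σ (hper1 (c i)) (Finset.dvd_prod_of_mem _ (Finset.mem_univ i))

end Periodic

section Extend

variable {E F : Type*} [Field E] [Field F] [Algebra E F] [FiniteDimensional E F]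

/-- **FROB-EX, part A.**  A power of a locally periodic automorphism of `E` extends to a locally
periodic automorphism of the finite extension `F`. -/
theorem exists_periodic_extension (σ : RingAut E)
    (hper : ∀ z : E, ∃ m : ℕ, 0 < m ∧ (σ ^ m) z = z) :
    ∃ (a : ℕ) (Φ : RingAut F), 0 < a ∧
      (∀ z : E, Φ (algebraMap E F z) = algebraMap E F ((σ ^ a) z)) ∧
      ∀ y : F, ∃ n : ℕ, 0 < n ∧ (Φ ^ n) y = y := by
  classical
  let b := Module.finBasis E F
  obtain ⟨a, ha, hfix⟩ := exists_common_period σ hper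
    (fun q : Fin (finrank E F) × Fin (finrank E F) × Fin (finrank E F) =>
      b.repr (b q.1 * b q.2.1) q.2.2)
  have hsc : ∀ i j l, (σ ^ a) (b.repr (b i * b j) l) = b.repr (b i * b j) l :=
    fun i j l => hfix (i, j, l)
  refine ⟨a, coordEquiv b (σ ^ a) hsc, ha, fun z => coordEquiv_algebraMap b (σ ^ a) hsc z,
    fun y => ?_⟩
  obtain ⟨n, hn, hfixy⟩ := exists_common_period σ hper (fun l => b.repr y l)
  refine ⟨n, hn, ?_⟩
  apply b.repr.injective
  ext l
  rw [repr_coordEquiv_pow]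
  have h1 : ((σ ^ a : RingAut E) ^ n) = σ ^ (n * a) := by rw [← pow_mul, mul_comm]
  rw [h1]
  exact pow_mul_apply_of_fixed σ (hfixy l) a

end Extend

end Fermat.Agent.S27.CharP.H41

end
end
-- ==== END Fermat.Agent.S27.CharP.H41_FrobExA

-- ==== BEGIN Fermat.Agent.S27.CharP.H41_FrobExB
section

/-!
# S27 char-p half, leaf FROB-EX, part B (helper41): Frobenius on the coefficients of `k(X)`

`k` a perfect field of characteristic `p` all of whose elements are algebraic over `𝔽_p`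
(`a ^ p ^ n = a` for some `n > 0`).  The automorphism `ratFrob` of `RatFunc k` (Frobenius on the
coefficients, `X ↦ X`) has finite orbits.
-/

set_option autoImplicit false
set_option linter.style.haveILetI false

noncomputable section

namespace Fermat.Agent.S27.CharP.H41

open Polynomial

section Period

variable {k : Type*} [Field k] {p : ℕ}

theorem pow_p_pow_mul {a : k} {n : ℕ} (h : a ^ p ^ n = a) (t : ℕ) : a ^ p ^ (n * t) = a := by
  induction t with
  | zero => simp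
  | succ t ih =>
    rw [Nat.mul_succ, pow_add, pow_mul, ih, h]

theorem pow_p_pow_of_dvd {a : k} {n m : ℕ} (h : a ^ p ^ n = a) (hnm : n ∣ m) :
    a ^ p ^ m = a := by
  obtain ⟨t, rfl⟩ := hnm
  exact pow_p_pow_mul h t

/-- Finitely many elements have a common Frobenius period. -/
theorem exists_common_frob_period (hk : ∀ a : k, ∃ n : ℕ, 0 < n ∧ a ^ p ^ n = a)
    (s : Finset k) : ∃ m : ℕ, 0 < m ∧ ∀ a ∈ s, a ^ p ^ m = a := by
  classical
  choose per hper0 hper1 using hk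
  refine ⟨∏ a ∈ s, per a, Finset.prod_pos fun a _ => hper0 a, fun a ha => ?_⟩
  exact pow_p_pow_of_dvd (hper1 a) (Finset.dvd_prod_of_mem _ ha)

end Period

section RatFrob

variable (k : Type*) [Field k] (p : ℕ) [Fact p.Prime] [CharP k p] [PerfectRing k p]

/-- Frobenius on the coefficients of rational functions. -/
def ratFrob : RingAut (RatFunc k) :=
  IsFractionRing.ringEquivOfRingEquiv (K := RatFunc k) (L := RatFunc k)
    (Polynomial.mapEquiv (frobeniusEquiv k p))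

theorem ratFrob_algebraMap (P : k[X]) :
    ratFrob k p (algebraMap k[X] (RatFunc k) P)
      = algebraMap k[X] (RatFunc k) (P.map (frobenius k p)) := by
  unfold ratFrob
  rw [IsFractionRing.ringEquivOfRingEquiv_algebraMap]
  rfl

theorem ratFrob_pow_algebraMap (m : ℕ) (P : k[X]) :
    ((ratFrob k p) ^ m) (algebraMap k[X] (RatFunc k) P)
      = algebraMap k[X] (RatFunc k) (P.map (iterateFrobenius k p m)) := by
  induction m with
  | zero =>
    have h : iterateFrobenius k p 0 = RingHom.id k := by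
      ext x
      simp
    rw [h, Polynomial.map_id]
    rfl
  | succ m ih =>
    rw [pow_succ', RingAut.mul_apply, ih, ratFrob_algebraMap, Polynomial.map_map]
    congr 2
    ext x
    simp only [RingHom.comp_apply, iterateFrobenius_def, frobenius_def]
    rw [← pow_mul, ← pow_succ]

theorem ratFrob_pow_const (m : ℕ) (a : k) :
    ((ratFrob k p) ^ m) (algebraMap k (RatFunc k) a) = algebraMap k (RatFunc k) (a ^ p ^ m) := by
  have h : ∀ c : k, algebraMap k (RatFunc k) c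
      = algebraMap k[X] (RatFunc k) (Polynomial.C c) := fun c =>
    IsScalarTower.algebraMap_apply k k[X] (RatFunc k) c
  rw [h, h, ratFrob_pow_algebraMap, Polynomial.map_C, iterateFrobenius_def]

variable {k p}

omit [PerfectRing k p] in
theorem map_iterateFrobenius_eq_self (P : k[X]) (m : ℕ)
    (h : ∀ a ∈ P.coeffs, a ^ p ^ m = a) :
    P.map (iterateFrobenius k p m) = P := by
  ext i
  rw [Polynomial.coeff_map, iterateFrobenius_def]
  by_cases hi : P.coeff i = 0
  · rw [hi, zero_pow]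
    exact pow_ne_zero _ (Fact.out : p.Prime).ne_zero
  · exact h _ (Polynomial.coeff_mem_coeffs hi)

/-- **FROB-EX, part B.**  Frobenius on the coefficients has finite orbits on `k(X)`. -/
theorem ratFrob_periodic (hk : ∀ a : k, ∃ n : ℕ, 0 < n ∧ a ^ p ^ n = a) (z : RatFunc k) :
    ∃ m : ℕ, 0 < m ∧ ((ratFrob k p) ^ m) z = z := by
  classical
  obtain ⟨P, R, -, rfl⟩ := IsFractionRing.div_surjective (A := k[X]) z
  obtain ⟨m, hm, hfix⟩ := exists_common_frob_period hk (P.coeffs ∪ R.coeffs)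
  refine ⟨m, hm, ?_⟩
  rw [map_div₀, ratFrob_pow_algebraMap, ratFrob_pow_algebraMap,
    map_iterateFrobenius_eq_self P m (fun a ha => hfix a (Finset.mem_union_left _ ha)),
    map_iterateFrobenius_eq_self R m (fun a ha => hfix a (Finset.mem_union_right _ ha))]

end RatFrob

end Fermat.Agent.S27.CharP.H41

end
end
-- ==== END Fermat.Agent.S27.CharP.H41_FrobExB

-- ==== BEGIN Fermat.Agent.S27.CharP.H52_LangFull
section

/-!
# S27, characteristic-`p` half, leaf DESC-L (helper52): the full Lang lemma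

`k` algebraically closed of characteristic `p`, `q = p ^ m` (`m > 0`), `V` a finite dimensional
`k`-vector space, `Φ : V →+ V` injective and `q`-semilinear.  Then

* `span_fixed_eq_top` : the fixed vectors of `Φ` span `V`;
* `exists_fixed_basis` : `V` has a basis of fixed vectors;
* `card_fixed` : `Nat.card {v // Φ v = v} = q ^ finrank k V`.
-/

set_option autoImplicit false
set_option linter.style.haveILetI false
set_option linter.unusedSectionVars false

noncomputable section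

open Polynomial

namespace Fermat.Agent.S27.CharP.H52

variable {k : Type*} [Field k] [IsAlgClosed k]

/-- Artin-Schreier equations are solvable. -/
theorem exists_artinSchreier {q : ℕ} (hq : 2 ≤ q) (c : k) : ∃ t : k, t ^ q - t = c := by
  have hdeg : (X ^ q - X - C c : k[X]).degree ≠ 0 := by
    have h1 : (X ^ q - X - C c : k[X]) = X ^ q - (X + C c) := by ring
    have h2 : (X + C c : k[X]).degree < (X ^ q : k[X]).degree := by
      rw [degree_X_pow, degree_X_add_C]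
      exact_mod_cast hq
    rw [h1, degree_sub_eq_left_of_degree_lt h2, degree_X_pow]
    exact_mod_cast (by omega : q ≠ 0)
  obtain ⟨t, ht⟩ := IsAlgClosed.exists_root _ hdeg
  refine ⟨t, ?_⟩
  rw [IsRoot.def, eval_sub, eval_sub, eval_pow, eval_X, eval_C, sub_eq_zero] at ht
  exact ht

section Span

variable {V : Type*} [AddCommGroup V] [Module k V] {q : ℕ} (Φ : V →+ V)

/-- The span of the fixed vectors. -/
def fixSpan (Φ : V →+ V) : Submodule k V := Submodule.span k {v : V | Φ v = v}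

theorem map_mem_fixSpan (hΦ : ∀ (c : k) (v : V), Φ (c • v) = c ^ q • Φ v) {x : V}
    (hx : x ∈ fixSpan (k := k) Φ) : Φ x ∈ fixSpan (k := k) Φ := by
  unfold fixSpan at hx ⊢
  induction hx using Submodule.span_induction with
  | mem v hv =>
    have hv' : Φ v = v := hv
    rw [hv']
    exact Submodule.subset_span hv
  | zero => rw [map_zero]; exact Submodule.zero_mem _
  | add x y _ _ ihx ihy => rw [map_add]; exact Submodule.add_mem _ ihx ihy
  | smul a x _ ih => rw [hΦ]; exact Submodule.smul_mem _ _ ih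

/-- Every element of the span is the image of an element of the span. -/
theorem exists_map_eq (hq : 0 < q) (hΦ : ∀ (c : k) (v : V), Φ (c • v) = c ^ q • Φ v) {x : V}
    (hx : x ∈ fixSpan (k := k) Φ) : ∃ y ∈ fixSpan (k := k) Φ, Φ y = x := by
  unfold fixSpan at hx ⊢
  induction hx using Submodule.span_induction with
  | mem v hv => exact ⟨v, Submodule.subset_span hv, hv⟩
  | zero => exact ⟨0, Submodule.zero_mem _, map_zero Φ⟩
  | add x y _ _ ihx ihy =>
    obtain ⟨x', hx', rfl⟩ := ihx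
    obtain ⟨y', hy', rfl⟩ := ihy
    exact ⟨x' + y', Submodule.add_mem _ hx' hy', map_add Φ x' y'⟩
  | smul a x _ ih =>
    obtain ⟨x', hx', rfl⟩ := ih
    obtain ⟨b, hb⟩ := IsAlgClosed.exists_pow_nat_eq a hq
    exact ⟨b • x', Submodule.smul_mem _ _ hx', by rw [hΦ, hb]⟩

theorem mem_fixSpan_of_map_mem (hq : 0 < q) (hΦ : ∀ (c : k) (v : V), Φ (c • v) = c ^ q • Φ v)
    (hinj : Function.Injective Φ) {x : V} (hx : Φ x ∈ fixSpan (k := k) Φ) :
    x ∈ fixSpan (k := k) Φ := by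
  obtain ⟨y, hy, hxy⟩ := exists_map_eq Φ hq hΦ hx
  rwa [← hinj hxy]

/-- Artin-Schreier on the span: `Φ z - z = y` is solvable in the span. -/
theorem exists_sub_eq (hq : 2 ≤ q) (hΦ : ∀ (c : k) (v : V), Φ (c • v) = c ^ q • Φ v) {y : V}
    (hy : y ∈ fixSpan (k := k) Φ) : ∃ z ∈ fixSpan (k := k) Φ, Φ z - z = y := by
  have key : ∀ c : k, ∃ z ∈ fixSpan (k := k) Φ, Φ z - z = c • y := by
    unfold fixSpan at hy ⊢
    induction hy using Submodule.span_induction with
    | mem v hv =>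
      intro c
      have hv' : Φ v = v := hv
      obtain ⟨t, ht⟩ := exists_artinSchreier hq c
      refine ⟨t • v, Submodule.smul_mem _ _ (Submodule.subset_span hv), ?_⟩
      rw [hΦ, hv', ← sub_smul, ht]
    | zero =>
      intro c
      exact ⟨0, Submodule.zero_mem _, by rw [map_zero, sub_zero, smul_zero]⟩
    | add x y _ _ ihx ihy =>
      intro c
      obtain ⟨zx, hzx, ex⟩ := ihx c
      obtain ⟨zy, hzy, ey⟩ := ihy c
      refine ⟨zx + zy, Submodule.add_mem _ hzx hzy, ?_⟩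
      rw [map_add, smul_add, ← ex, ← ey]
      abel
    | smul a x _ ih =>
      intro c
      obtain ⟨z, hz, e⟩ := ih (c * a)
      exact ⟨z, hz, by rw [e, mul_smul]⟩
  obtain ⟨z, hz, e⟩ := key 1
  exact ⟨z, hz, by rw [e, one_smul]⟩

end Span

section Main

variable (p : ℕ) [Fact p.Prime] [CharP k p] (m : ℕ)
  {V : Type*} [AddCommGroup V] [Module k V] [FiniteDimensional k V] (Φ : V →+ V)

/-- `Φ` as a semilinear map. -/
def toSemilinear (hΦ : ∀ (c : k) (v : V), Φ (c • v) = c ^ (p ^ m) • Φ v) :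
    V →ₛₗ[iterateFrobenius k p m] V where
  toFun := Φ
  map_add' := map_add Φ
  map_smul' c v := by rw [iterateFrobenius_def]; exact hΦ c v

theorem two_le_pow (hm : 0 < m) : 2 ≤ p ^ m := by
  have hp2 : 2 ≤ p := (Fact.out : p.Prime).two_le
  calc 2 ≤ p := hp2
    _ = p ^ 1 := (pow_one p).symm
    _ ≤ p ^ m := Nat.pow_le_pow_right (by omega) hm

/-- **The fixed vectors span `V`.** -/
theorem span_fixed_eq_top (hm : 0 < m)
    (hΦ : ∀ (c : k) (v : V), Φ (c • v) = c ^ (p ^ m) • Φ v) (hinj : Function.Injective Φ) :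
    Submodule.span k {v : V | Φ v = v} = ⊤ := by
  have hq2 := two_le_pow p m hm
  have hq0 : 0 < p ^ m := by omega
  set W : Submodule k V := fixSpan (k := k) Φ with hW
  show W = ⊤
  by_contra hne
  -- the quotient is nontrivial
  haveI : Nontrivial (V ⧸ W) := Submodule.Quotient.nontrivial_iff.mpr hne
  -- the induced map
  set Ψ : V ⧸ W →ₛₗ[iterateFrobenius k p m] V ⧸ W :=
    W.mapQ W (toSemilinear p m Φ hΦ) (fun x hx => map_mem_fixSpan Φ hΦ hx) with hΨ
  have hΨmk : ∀ x : V, Ψ (Submodule.Quotient.mk x) = Submodule.Quotient.mk (Φ x) :=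
    fun x => rfl
  have hΨinj : Function.Injective Ψ.toAddMonoidHom := by
    rw [injective_iff_map_eq_zero]
    intro x hx
    obtain ⟨x, rfl⟩ := Submodule.Quotient.mk_surjective W x
    have hx' : Ψ (Submodule.Quotient.mk x) = 0 := hx
    rw [hΨmk, Submodule.Quotient.mk_eq_zero] at hx'
    rw [Submodule.Quotient.mk_eq_zero]
    exact mem_fixSpan_of_map_mem Φ hq0 hΦ hinj hx'
  obtain ⟨w, hw0, hw⟩ := Fermat.Agent.Lib.LangSemilinear.exists_fixed_of_frobSemilinear k p m hm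
    (V ⧸ W) Ψ.toAddMonoidHom (fun c v => by
      show Ψ (c • v) = c ^ (p ^ m) • Ψ v
      rw [map_smulₛₗ, iterateFrobenius_def]) hΨinj
  obtain ⟨w, rfl⟩ := Submodule.Quotient.mk_surjective W w
  have hw' : Ψ (Submodule.Quotient.mk w) = Submodule.Quotient.mk w := hw
  rw [hΨmk, ← sub_eq_zero, ← Submodule.Quotient.mk_sub, Submodule.Quotient.mk_eq_zero] at hw'
  obtain ⟨z, hz, e⟩ := exists_sub_eq Φ hq2 hΦ (Submodule.neg_mem _ hw')
  have hfix : Φ (w + z) = w + z := by
    have : Φ (w + z) - (w + z) = 0 := by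
      rw [map_add]
      have : Φ w + Φ z - (w + z) = (Φ w - w) + (Φ z - z) := by abel
      rw [this, e]
      abel
    exact sub_eq_zero.mp this
  have hwz : w + z ∈ W := Submodule.subset_span hfix
  apply hw0
  rw [Submodule.Quotient.mk_eq_zero]
  have : w = (w + z) - z := by abel
  rw [this]
  exact Submodule.sub_mem _ hwz hz

/-- **`V` has a basis of fixed vectors.** -/
theorem exists_fixed_basis (hm : 0 < m)
    (hΦ : ∀ (c : k) (v : V), Φ (c • v) = c ^ (p ^ m) • Φ v) (hinj : Function.Injective Φ) :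
    ∃ (b : Set V) (e : Module.Basis b k V), (∀ i : b, e i = (i : V)) ∧ ∀ i : b, Φ (i : V) = i := by
  obtain ⟨b, hb, hspan, hli⟩ := exists_linearIndependent k {v : V | Φ v = v}
  rw [span_fixed_eq_top p m Φ hm hΦ hinj] at hspan
  have hsp : ⊤ ≤ Submodule.span k (Set.range (Subtype.val : b → V)) := by
    rw [Subtype.range_coe, hspan]
  refine ⟨b, Module.Basis.mk hli hsp, fun i => ?_, fun i => hb i.2⟩
  rw [Module.Basis.mk_apply]

/-- The number of solutions of `a ^ q = a`. -/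
theorem card_pow_eq_self (hm : 0 < m) : Nat.card {a : k // a ^ (p ^ m) = a} = p ^ m := by
  have hp1 : 1 < p := (Fact.out : p.Prime).one_lt
  have hdeg : (X ^ p ^ m - X : k[X]).natDegree = p ^ m :=
    FiniteField.X_pow_card_pow_sub_X_natDegree_eq k hm.ne' hp1
  have hne : (X ^ p ^ m - X : k[X]) ≠ 0 := by
    intro h0
    rw [h0, natDegree_zero] at hdeg
    have := two_le_pow p m hm
    omega
  have hsep : (X ^ p ^ m - X : k[X]).Separable :=
    galois_poly_separable p (p ^ m) (dvd_pow_self p hm.ne')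
  have hcard := card_rootSet_eq_natDegree (K := k) hsep (IsAlgClosed.splits _)
  rw [hdeg, ← Nat.card_eq_fintype_card] at hcard
  refine Eq.trans (Nat.card_congr (Equiv.subtypeEquivRight fun a => ?_)) hcard
  rw [mem_rootSet_of_ne hne, map_sub, map_pow, aeval_X, sub_eq_zero]

/-- **The number of fixed vectors is `q ^ dim V`.** -/
theorem card_fixed (hm : 0 < m)
    (hΦ : ∀ (c : k) (v : V), Φ (c • v) = c ^ (p ^ m) • Φ v) (hinj : Function.Injective Φ) :
    Nat.card {v : V // Φ v = v} = (p ^ m) ^ Module.finrank k V := by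
  obtain ⟨b, e, he, hfix⟩ := exists_fixed_basis p m Φ hm hΦ hinj
  haveI : Finite b := Module.Finite.finite_basis e
  haveI : Fintype b := Fintype.ofFinite b
  -- the coordinates of `Φ v`
  have hrepr : ∀ (v : V) (i : b), e.equivFun (Φ v) i = (e.equivFun v i) ^ (p ^ m) := by
    intro v i
    have hv : v = ∑ j, e.equivFun v j • e j := (e.sum_equivFun v).symm
    have h1 : Φ v = ∑ j, (e.equivFun v j) ^ (p ^ m) • e j := by
      conv_lhs => rw [hv]
      rw [map_sum]
      refine Finset.sum_congr rfl fun j _ => ?_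
      rw [hΦ, he j, hfix j]
    rw [h1, map_sum, Finset.sum_apply, Finset.sum_eq_single i]
    · rw [map_smul, Pi.smul_apply, Module.Basis.equivFun_apply, Module.Basis.equivFun_apply,
        Module.Basis.repr_self, Finsupp.single_eq_same, smul_eq_mul, mul_one]
    · intro j _ hji
      rw [map_smul, Pi.smul_apply, Module.Basis.equivFun_apply (b := e) (u := e j),
        Module.Basis.repr_self, Finsupp.single_eq_of_ne hji.symm, smul_zero]
    · intro hi
      exact absurd (Finset.mem_univ i) hi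
  have hiff : ∀ v : V, Φ v = v ↔ ∀ i : b, (e.equivFun v i) ^ (p ^ m) = e.equivFun v i := by
    intro v
    constructor
    · intro h i
      rw [← hrepr, h]
    · intro h
      apply e.equivFun.injective
      funext i
      rw [hrepr, h]
  have e1 : {v : V // Φ v = v} ≃ {f : b → k // ∀ i, f i ^ (p ^ m) = f i} :=
    Equiv.subtypeEquiv e.equivFun.toEquiv (fun v => hiff v)
  have e2 : {f : b → k // ∀ i, f i ^ (p ^ m) = f i} ≃ (b → {a : k // a ^ (p ^ m) = a}) :=
    Equiv.subtypePiEquivPi (β := fun _ => k) (p := fun _ a => a ^ (p ^ m) = a)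
  rw [Nat.card_congr (e1.trans e2), Nat.card_fun, card_pow_eq_self p m hm,
    Module.finrank_eq_nat_card_basis e]

end Main

end Fermat.Agent.S27.CharP.H52

end
end
-- ==== END Fermat.Agent.S27.CharP.H52_LangFull

-- ==== BEGIN Fermat.Agent.S27.IW.Defs
section

set_option autoImplicit false

namespace Fermat.Agent.S27.IW

/-- **IW-MAT** (lifting the exponent for matrices): there is `e ≥ 1` such that for all `j` and all
`m'` prime to `ℓ`: `det(1 - A^(e m' ℓ^j)) = det(1 - A^(e ℓ^j)) · u` with `ℓ ∤ u`, and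
`det(1 - A^(e ℓ^(j+1))) = det(1 - A^(e ℓ^j)) · ℓ^n · u` with `ℓ ∤ u`.
(`e` = order of `A` in `GL_n(ℤ/ℓ²)`; `B = A^(e ℓ^j) = 1 + ℓ² M`; `B^m - 1 = (B - 1) ∑_{i<m} B^i`,
`∑_{i<m} B^i ≡ m mod ℓ²`, and for `m = ℓ`: `∑_{i<ℓ} B^i = ℓ (1 + ℓ W)`; determinants mod `ℓ`.) -/
def Stmt_IW_Mat : Prop :=
  ∀ (ℓ : ℕ) [Fact ℓ.Prime] (n : ℕ) (A : Matrix (Fin n) (Fin n) ℤ), ¬ (ℓ : ℤ) ∣ A.det →
    ∃ e : ℕ, 0 < e ∧
      (∀ m' j : ℕ, ¬ ℓ ∣ m' →
        ∃ u : ℤ, ¬ (ℓ : ℤ) ∣ u ∧
          (1 - A ^ (e * m' * ℓ ^ j)).det = (1 - A ^ (e * ℓ ^ j)).det * u) ∧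
      (∀ j : ℕ, ∃ u : ℤ, ¬ (ℓ : ℤ) ∣ u ∧
          (1 - A ^ (e * ℓ ^ (j + 1))).det = (1 - A ^ (e * ℓ ^ j)).det * (ℓ : ℤ) ^ n * u)

/-- **IW-SYL**: the `ℓ`-primary part of a finite abelian group `H` has order `ℓ^{v_ℓ(#H)}`
(Sylow: `Sylow.card_eq_multiplicity` on `Multiplicative H`, or directly). -/
def Stmt_IW_Syl.{u} : Prop :=
  ∀ (ℓ : ℕ) [Fact ℓ.Prime] (H : Type u) [AddCommGroup H] [Finite H],
    Nat.card {x : H // ∃ k : ℕ, (ℓ ^ k) • x = 0} = ℓ ^ (Nat.card H).factorization ℓ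

/-- the hypotheses of package IW on `(G, φ, A)` -/
structure Hyp (ℓ : ℕ) {G : Type*} [AddCommGroup G] (φ : G →+ G) {n : ℕ}
    (A : Matrix (Fin n) (Fin n) ℤ) : Prop where
  det : ¬ (ℓ : ℤ) ∣ A.det
  fix : ∀ x : G, ∃ m : ℕ, 0 < m ∧ (⇑φ)^[m] x = x
  fin : ∀ m : ℕ, 0 < m → Finite {x : G // (⇑φ)^[m] x = x}
  card : ∀ m : ℕ, 0 < m → Nat.card {x : G // (⇑φ)^[m] x = x} = (1 - A ^ m).det.natAbs

/-- **IW-FIN**: the `ℓ^k`-torsion of `G` is finite. -/
def Stmt_IW_Fin.{u} : Prop :=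
  ∀ (ℓ : ℕ) [Fact ℓ.Prime] (G : Type u) [AddCommGroup G] (φ : G →+ G) (n : ℕ)
    (A : Matrix (Fin n) (Fin n) ℤ), Hyp ℓ φ A →
    ∀ k : ℕ, Finite {x : G // (ℓ ^ k) • x = 0}

/-- **IW-BOUND**: `#G[ℓ^k] ≤ C ℓ^{nk}`. -/
def Stmt_IW_Bound.{u} : Prop :=
  ∀ (ℓ : ℕ) [Fact ℓ.Prime] (G : Type u) [AddCommGroup G] (φ : G →+ G) (n : ℕ)
    (A : Matrix (Fin n) (Fin n) ℤ), Hyp ℓ φ A →
    ∃ C : ℕ, ∀ k : ℕ, Nat.card {x : G // (ℓ ^ k) • x = 0} ≤ C * ℓ ^ (n * k)

/-- **IW-CARD**: if `G` is `ℓ`-divisible, `#G[ℓ^k] = ℓ^{nk}`. -/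
def Stmt_IW_Card.{u} : Prop :=
  ∀ (ℓ : ℕ) [Fact ℓ.Prime] (G : Type u) [AddCommGroup G] (φ : G →+ G) (n : ℕ)
    (A : Matrix (Fin n) (Fin n) ℤ), Hyp ℓ φ A →
    (∀ x : G, ∃ y : G, ℓ • y = x) →
    ∀ k : ℕ, Nat.card {x : G // (ℓ ^ k) • x = 0} = ℓ ^ (n * k)

end Fermat.Agent.S27.IW

end
-- ==== END Fermat.Agent.S27.IW.Defs

-- ==== BEGIN Fermat.Agent.S27.Lift.H68_Interp
section

/-!
# S27 / LIFT, pure algebra (helper68): interpolation

Let `O` be a local ring with infinite residue field, `E` an `O`-algebra and `W` an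
`O`-submodule of `E`.  A polynomial with coefficients in `E` all of whose values at points
of `O` lie in `W` has all its coefficients in `W` (Vandermonde with unit determinant).

* `Polynomial` version: `polynomial_coeff_mem_of_eval_mem`;
* `MvPolynomial` version: `mvPolynomial_coeff_mem_of_eval_mem`.
-/

set_option linter.style.haveILetI false
set_option linter.unusedSectionVars false

namespace Fermat.Agent.S27.Lift.H68

open MvPolynomial

section interp

variable {O E : Type*} [CommRing O] [IsLocalRing O] [Infinite (IsLocalRing.ResidueField O)]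
  [CommRing E] [Algebra O E] (W : Submodule O E)

/-- There are arbitrarily many elements of `O` with pairwise unit differences. -/
lemma exists_unit_diff (n : ℕ) :
    ∃ t : Fin n → O, ∀ i j, i ≠ j → IsUnit (t j - t i) := by
  classical
  obtain ⟨s, hs⟩ : ∃ s : Fin n → IsLocalRing.ResidueField O, Function.Injective s :=
    ⟨_, (Infinite.natEmbedding (IsLocalRing.ResidueField O)).injective.comp Fin.val_injective⟩
  choose t ht using fun i => IsLocalRing.residue_surjective (s i)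
  refine ⟨t, fun i j hij => ?_⟩
  by_contra hnu
  have h1 : t j - t i ∈ IsLocalRing.maximalIdeal O := (IsLocalRing.mem_maximalIdeal _).mpr hnu
  have h2 : IsLocalRing.residue O (t j - t i) = 0 := (IsLocalRing.residue_eq_zero_iff _).mpr h1
  rw [map_sub, ht, ht, sub_eq_zero] at h2
  exact hij (hs h2).symm

/-- One variable: values in `W` on `O` imply coefficients in `W`. -/
theorem polynomial_coeff_mem_of_eval_mem (P : Polynomial E)
    (h : ∀ t : O, P.eval (algebraMap O E t) ∈ W) (i : ℕ) : P.coeff i ∈ W := by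
  classical
  by_cases hi : i < P.natDegree + 1
  swap
  · rw [Polynomial.coeff_eq_zero_of_natDegree_lt (by omega)]
    exact W.zero_mem
  obtain ⟨t, ht⟩ := exists_unit_diff (O := O) (P.natDegree + 1)
  let V : Matrix (Fin (P.natDegree + 1)) (Fin (P.natDegree + 1)) O := Matrix.vandermonde t
  have hdet : IsUnit V.det := by
    rw [Matrix.det_vandermonde]
    refine IsUnit.prod_univ_iff.mpr fun a => ?_
    refine (IsUnit.prod_iff).mpr fun b hb => ?_
    exact ht a b (ne_of_lt (Finset.mem_Ioi.mp hb))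
  have hVinv : V⁻¹ * V = 1 := Matrix.nonsing_inv_mul V hdet
  -- values as linear combinations of coefficients
  have hval : ∀ l : Fin (P.natDegree + 1),
      P.eval (algebraMap O E (t l)) = ∑ a : Fin (P.natDegree + 1), V l a • P.coeff a := by
    intro l
    rw [Polynomial.eval_eq_sum_range,
      Finset.sum_range fun a => P.coeff a * algebraMap O E (t l) ^ a]
    refine Finset.sum_congr rfl fun a _ => ?_
    change _ = Matrix.vandermonde t l a • _
    rw [Matrix.vandermonde_apply, Algebra.smul_def, map_pow, mul_comm]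
  have hcoeff : P.coeff i =
      ∑ l : Fin (P.natDegree + 1), V⁻¹ ⟨i, hi⟩ l • P.eval (algebraMap O E (t l)) := by
    simp_rw [hval, Finset.smul_sum, smul_smul]
    rw [Finset.sum_comm]
    simp_rw [← Finset.sum_smul, ← Matrix.mul_apply, hVinv, Matrix.one_apply]
    simp
  rw [hcoeff]
  exact W.sum_mem fun l _ => W.smul_mem _ (h (t l))

/-- `Fin n` variables: values in `W` on `O^n` imply coefficients in `W`. -/
theorem mvPolynomial_fin_coeff_mem_of_eval_mem : ∀ (n : ℕ) (P : MvPolynomial (Fin n) E),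
    (∀ t : Fin n → O, eval (fun i => algebraMap O E (t i)) P ∈ W) → ∀ m, coeff m P ∈ W := by
  intro n
  induction n with
  | zero =>
    intro P h m
    have hm : m = 0 := Subsingleton.elim _ _
    have hP : P = C (coeff 0 P) := MvPolynomial.eq_C_of_isEmpty P
    have := h (fun i => i.elim0)
    rw [hP, eval_C] at this
    rw [hm]
    exact this
  | succ n ih =>
    intro P h m
    have key : ∀ i : ℕ, ∀ s : Fin n → O,
        eval (fun j => algebraMap O E (s j)) (Polynomial.coeff (finSuccEquiv E n P) i) ∈ W := by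
      intro i s
      rw [← MvPolynomial.coeff_eval_eq_eval_coeff]
      apply polynomial_coeff_mem_of_eval_mem W
      intro y
      rw [← MvPolynomial.eval_eq_eval_mv_eval']
      have : (Fin.cons (algebraMap O E y) (fun j => algebraMap O E (s j)) : Fin (n + 1) → E) =
          fun j => algebraMap O E ((Fin.cons y s : Fin (n + 1) → O) j) := by
        funext j
        refine Fin.cases ?_ (fun j' => ?_) j <;> simp
      rw [this]
      exact h _
    have := ih (Polynomial.coeff (finSuccEquiv E n P) (m 0)) (key (m 0)) (Finsupp.tail m)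
    rw [MvPolynomial.finSuccEquiv_coeff_coeff, Finsupp.cons_tail] at this
    exact this

/-- Finitely many variables: a polynomial with coefficients in `E` whose values on `O^σ` lie in
the `O`-submodule `W` has its coefficients in `W`. -/
theorem mvPolynomial_coeff_mem_of_eval_mem {σ : Type*} [Finite σ] (P : MvPolynomial σ E)
    (h : ∀ t : σ → O, eval (fun i => algebraMap O E (t i)) P ∈ W) (m : σ →₀ ℕ) :
    coeff m P ∈ W := by
  classical
  haveI := Fintype.ofFinite σ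
  let e : σ ≃ Fin (Fintype.card σ) := Fintype.equivFin σ
  have h1 : ∀ t : Fin (Fintype.card σ) → O,
      eval (fun i => algebraMap O E (t i)) (rename e P) ∈ W := by
    intro t
    rw [eval_rename]
    exact h fun i => t (e i)
  have h2 := mvPolynomial_fin_coeff_mem_of_eval_mem W _ (rename e P) h1 (Finsupp.mapDomain e m)
  rwa [coeff_rename_mapDomain e e.injective] at h2

end interp

end Fermat.Agent.S27.Lift.H68

end
-- ==== END Fermat.Agent.S27.Lift.H68_Interp

-- ==== BEGIN Fermat.Agent.S27.Lift.H68_Jacobi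
section

/-!
# S27 / LIFT, pure algebra (helper68): Jacobi's formula

* `derivation_prod`: Leibniz rule for finite products.
* `derivation_det`: **Jacobi's formula** `D (det P) = tr (adj P * D P)` for a derivation `D`.
* `pencil`, `normForm`: the determinant of the generic linear combination `∑ X_j M_j` as a
  multivariate polynomial; its values and the values of its partial derivatives.
* `eval_pderiv_normForm_leftMul`: for a finite free algebra, the derivative of the norm form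
  `t ↦ N (∑ t_j f_j)` at a point where `h = ∑ t_j f_j` is invertible is `N h * Tr (f_j / h)`.
-/

set_option linter.style.haveILetI false
set_option linter.unusedSectionVars false

namespace Fermat.Agent.S27.Lift.H68

open MvPolynomial Matrix

section derivation

variable {R A : Type*} [CommRing R] [CommRing A] [Algebra R A]

/-- Leibniz rule for finite products. -/
theorem derivation_prod (D : Derivation R A A) {ι : Type*} [DecidableEq ι] (s : Finset ι)
    (f : ι → A) : D (∏ i ∈ s, f i) = ∑ j ∈ s, (∏ i ∈ s.erase j, f i) * D (f j) := by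
  induction s using Finset.induction_on with
  | empty => simp
  | insert a s ha ih =>
    rw [Finset.prod_insert ha, Derivation.leibniz, ih, Finset.sum_insert ha,
      Finset.erase_insert ha, smul_eq_mul, smul_eq_mul, add_comm]
    congr 1
    rw [Finset.mul_sum]
    refine Finset.sum_congr rfl fun j hj => ?_
    have hja : j ≠ a := fun h => ha (h ▸ hj)
    rw [Finset.erase_insert_of_ne (Ne.symm hja), Finset.prod_insert (by
      simp only [Finset.mem_erase]; exact fun h => ha h.2), mul_assoc]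

variable {n : Type*} [Fintype n] [DecidableEq n]

/-- **Jacobi's formula**: `D (det P) = ∑_j det (P with column j replaced by its derivative)`. -/
theorem derivation_det_eq_sum_updateCol (D : Derivation R A A) (P : Matrix n n A) :
    D P.det = ∑ j, (P.updateCol j fun a => D (P a j)).det := by
  simp only [Matrix.det_apply, map_sum]
  rw [Finset.sum_comm]
  refine Finset.sum_congr rfl fun σ _ => ?_
  rw [Units.smul_def, map_zsmul, derivation_prod, Finset.smul_sum]
  refine Finset.sum_congr rfl fun j _ => ?_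
  rw [Units.smul_def]
  congr 1
  rw [← Finset.mul_prod_erase Finset.univ _ (Finset.mem_univ j), Matrix.updateCol_self, mul_comm]
  congr 1
  refine Finset.prod_congr rfl fun i hi => ?_
  rw [Matrix.updateCol_ne (Finset.ne_of_mem_erase hi)]

/-- **Jacobi's formula**: `D (det P) = tr (adj P * D P)`. -/
theorem derivation_det (D : Derivation R A A) (P : Matrix n n A) :
    D P.det = Matrix.trace (P.adjugate * P.map D) := by
  rw [derivation_det_eq_sum_updateCol, Matrix.trace]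
  refine Finset.sum_congr rfl fun j _ => ?_
  rw [← Matrix.cramer_apply, Matrix.cramer_eq_adjugate_mulVec]
  simp [Matrix.mulVec, dotProduct, Matrix.mul_apply]

end derivation

section pencil

variable {R : Type*} [CommRing R] {σ : Type*} [Fintype σ] {n : Type*} [Fintype n] [DecidableEq n]

/-- The generic linear combination `∑_j X_j M_j`. -/
noncomputable def pencil (M : σ → Matrix n n R) : Matrix n n (MvPolynomial σ R) :=
  ∑ j, (X j : MvPolynomial σ R) • (M j).map C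

/-- The determinant of the generic linear combination `∑_j X_j M_j`. -/
noncomputable def normForm (M : σ → Matrix n n R) : MvPolynomial σ R :=
  (pencil M).det

lemma pencil_apply (M : σ → Matrix n n R) (a b : n) :
    pencil M a b = ∑ j, X j * C (M j a b) := by
  simp [pencil, Matrix.sum_apply]

lemma map_pencil {S : Type*} [CommRing S] (φ : R →+* S) (M : σ → Matrix n n R) :
    (pencil M).map (MvPolynomial.map φ) = pencil fun j => (M j).map φ := by
  ext a b : 1
  simp [pencil_apply]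

lemma map_normForm {S : Type*} [CommRing S] (φ : R →+* S) (M : σ → Matrix n n R) :
    MvPolynomial.map φ (normForm M) = normForm fun j => (M j).map φ := by
  rw [normForm, normForm, ← map_pencil, RingHom.map_det]
  rfl

lemma eval_pencil (M : σ → Matrix n n R) (t : σ → R) :
    (pencil M).map (eval t) = ∑ j, t j • M j := by
  ext a b : 1
  simp [pencil_apply, Matrix.sum_apply]

lemma eval_normForm (M : σ → Matrix n n R) (t : σ → R) :
    eval t (normForm M) = (∑ j, t j • M j).det := by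
  rw [normForm, RingHom.map_det, ← eval_pencil]
  rfl

lemma pderiv_pencil [DecidableEq σ] (M : σ → Matrix n n R) (j : σ) :
    (pencil M).map (pderiv j) = (M j).map C := by
  ext a b : 1
  simp only [Matrix.map_apply, pencil_apply, map_sum, Derivation.leibniz, pderiv_C,
    pderiv_X, smul_eq_mul]
  simp [Pi.single_apply]

/-- The partial derivatives of the norm form (Jacobi's formula). -/
lemma pderiv_normForm [DecidableEq σ] (M : σ → Matrix n n R) (j : σ) :
    pderiv j (normForm M) = Matrix.trace ((pencil M).adjugate * (M j).map C) := by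
  rw [normForm, derivation_det, pderiv_pencil]

lemma eval_pderiv_normForm [DecidableEq σ] (M : σ → Matrix n n R) (t : σ → R) (j : σ) :
    eval t (pderiv j (normForm M)) = Matrix.trace ((∑ i, t i • M i).adjugate * M j) := by
  have h1 : ∀ Y : Matrix n n (MvPolynomial σ R),
      eval t Y.trace = ((eval t).mapMatrix Y).trace := by
    intro Y
    simp [Matrix.trace, map_sum]
  have h2 : (eval t).mapMatrix ((M j).map C) = M j := by
    ext a b : 1
    simp
  have h3 : (eval t).mapMatrix (pencil M) = ∑ i, t i • M i := eval_pencil M t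
  rw [pderiv_normForm, h1, map_mul, RingHom.map_adjugate, h2, h3]

end pencil

section norm

variable {M L : Type*} [CommRing M] [CommRing L] [Algebra M L]
  {σ : Type*} [Fintype σ] [DecidableEq σ] {n : Type*} [Fintype n] [DecidableEq n]

/-- The norm form `t ↦ N_{L/M} (∑ t_j f_j)` as a multivariate polynomial (with respect to a
basis of `L` over `M`). -/
noncomputable def normFormAlg (β : Module.Basis n M L) (f : σ → L) : MvPolynomial σ M :=
  normForm fun j => Algebra.leftMulMatrix β (f j)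

lemma leftMulMatrix_sum_smul (β : Module.Basis n M L) (f : σ → L) (t : σ → M) :
    Algebra.leftMulMatrix β (∑ j, t j • f j) = ∑ j, t j • Algebra.leftMulMatrix β (f j) := by
  simp [map_sum, map_smul]

lemma eval_normFormAlg (β : Module.Basis n M L) (f : σ → L) (t : σ → M) :
    eval t (normFormAlg β f) = Algebra.norm M (∑ j, t j • f j) := by
  rw [normFormAlg, eval_normForm, Algebra.norm_eq_matrix_det β, leftMulMatrix_sum_smul]

/-- Derivative of the norm: `∂_j N(h_t) = N(h_t) Tr(f_j / h_t)` where `h_t = ∑ t_j f_j` has the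
inverse `hinv`. -/
lemma eval_pderiv_normFormAlg (β : Module.Basis n M L) (f : σ → L) (t : σ → M) (hinv : L)
    (h1 : (∑ j, t j • f j) * hinv = 1) (j : σ) :
    eval t (pderiv j (normFormAlg β f)) =
      Algebra.norm M (∑ i, t i • f i) * Algebra.trace M L (hinv * f j) := by
  rw [normFormAlg, eval_pderiv_normForm, ← leftMulMatrix_sum_smul,
    Algebra.norm_eq_matrix_det β, Algebra.trace_eq_matrix_trace β]
  set H := Algebra.leftMulMatrix β (∑ i, t i • f i) with hH
  have hHinv : H * Algebra.leftMulMatrix β hinv = 1 := by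
    rw [hH, ← map_mul, h1, map_one]
  have hadj : H.adjugate = H.det • Algebra.leftMulMatrix β hinv := by
    calc H.adjugate = H.adjugate * (H * Algebra.leftMulMatrix β hinv) := by
          rw [hHinv, mul_one]
      _ = (H.adjugate * H) * Algebra.leftMulMatrix β hinv := by rw [mul_assoc]
      _ = H.det • Algebra.leftMulMatrix β hinv := by
          rw [Matrix.adjugate_mul, Matrix.smul_mul, one_mul]
  rw [hadj, Matrix.smul_mul, Matrix.trace_smul, smul_eq_mul, ← map_mul]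

end norm

end Fermat.Agent.S27.Lift.H68

end
-- ==== END Fermat.Agent.S27.Lift.H68_Jacobi

-- ==== BEGIN Fermat.Agent.S27.Lift.H68_MvHenselEtale
section

/-!
# S27 / LIFT leaf MV-HENSEL, part 1 (helper68): the standard étale algebra of a square system

For a square polynomial system `f : σ → MvPolynomial σ A` with Jacobian determinant `Δ`, the
algebra `B = A[X_σ, Y] / (f, Y Δ - 1)` is étale over `A` (Mathlib: submersive presentation of
relative dimension `0`).  Algebra maps `B → R` are the solutions `b` of `f = 0` in `R` with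
`Δ(b)` a unit.
-/

set_option linter.style.haveILetI false
set_option linter.unusedSectionVars false

namespace Fermat.Agent.S27.Lift.H68

open MvPolynomial

universe u w

variable {A : Type u} [CommRing A] {σ : Type w} [Fintype σ] [DecidableEq σ]

/-- The Jacobian matrix `(∂ f_i / ∂ X_j)` of a square system. -/
noncomputable def jacMat (f : σ → MvPolynomial σ A) : Matrix σ σ (MvPolynomial σ A) :=
  Matrix.of fun i j => pderiv j (f i)

/-- The Jacobian determinant of a square system. -/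
noncomputable def jacDet (f : σ → MvPolynomial σ A) : MvPolynomial σ A :=
  (jacMat f).det

/-- The relations `f_i` (in the variables `inl`) and `Y Δ - 1` (`Y = X (inr ())`). -/
noncomputable def relB (f : σ → MvPolynomial σ A) : σ ⊕ Unit → MvPolynomial (σ ⊕ Unit) A :=
  Sum.elim (fun i => rename Sum.inl (f i))
    (fun _ => X (Sum.inr ()) * rename Sum.inl (jacDet f) - 1)

/-- The standard étale algebra `A[X_σ, Y] / (f, Y Δ - 1)` of a square system. -/
abbrev RingB (f : σ → MvPolynomial σ A) : Type (max u w) :=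
  MvPolynomial (σ ⊕ Unit) A ⧸ Ideal.span (Set.range (relB f))

lemma pderiv_inl_rename (p : MvPolynomial σ A) (i : σ) :
    pderiv (Sum.inl i : σ ⊕ Unit) (rename Sum.inl p) = rename Sum.inl (pderiv i p) := by
  exact (pderiv_rename (f := (Sum.inl : σ → σ ⊕ Unit)) Sum.inl_injective i p)

lemma pderiv_inr_rename (p : MvPolynomial σ A) (u : Unit) :
    pderiv (Sum.inr u : σ ⊕ Unit) (rename Sum.inl p) = 0 := by
  induction p using MvPolynomial.induction_on with
  | C a => simp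
  | add p q hp hq => simp [hp, hq]
  | mul_X p i hp =>
    simp only [map_mul, rename_X, Derivation.leibniz, hp, smul_zero, add_zero]
    rw [pderiv_X_of_ne (by simp)]
    simp

/-- The naive pre-submersive presentation of `RingB f`. -/
noncomputable def preB (f : σ → MvPolynomial σ A) :
    Algebra.PreSubmersivePresentation A (RingB f) (σ ⊕ Unit) (σ ⊕ Unit) :=
  Algebra.PreSubmersivePresentation.naive (v := relB f) id Function.injective_id

lemma preB_jacobiMatrix (f : σ → MvPolynomial σ A) (i j : σ ⊕ Unit) :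
    (preB f).jacobiMatrix i j = pderiv i (relB f j) :=
  Algebra.PreSubmersivePresentation.jacobiMatrix_naive ..

lemma preB_jacobiMatrix_eq (f : σ → MvPolynomial σ A) :
    (preB f).jacobiMatrix =
      Matrix.fromBlocks ((jacMat f).transpose.map (rename (Sum.inl : σ → σ ⊕ Unit)))
        (Matrix.of fun i _ => pderiv (Sum.inl i) (relB f (Sum.inr ()))) 0
        (Matrix.of fun _ _ => rename Sum.inl (jacDet f)) := by
  refine Matrix.ext fun i j => ?_
  rw [preB_jacobiMatrix]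
  rcases i with i | u <;> rcases j with j | v
  · simp [relB, jacMat, pderiv_inl_rename]
  · simp
  · simp [relB, pderiv_inr_rename]
  · simp [relB, pderiv_inr_rename]

lemma preB_jacobiMatrix_det (f : σ → MvPolynomial σ A) :
    (preB f).jacobiMatrix.det =
      rename Sum.inl (jacDet f) * rename Sum.inl (jacDet f) := by
  rw [preB_jacobiMatrix_eq, Matrix.det_fromBlocks_zero₂₁]
  congr 1
  · have := (RingHom.map_det (rename (Sum.inl : σ → σ ⊕ Unit)).toRingHom (jacMat f).transpose)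
    rw [Matrix.det_transpose] at this
    exact this.symm
  · rw [Matrix.det_unique]
    rfl

/-- The class of a polynomial in `RingB f`. -/
noncomputable def mkB (f : σ → MvPolynomial σ A) : MvPolynomial (σ ⊕ Unit) A →ₐ[A] RingB f :=
  Ideal.Quotient.mkₐ A _

lemma mkB_surjective (f : σ → MvPolynomial σ A) : Function.Surjective (mkB f) :=
  Ideal.Quotient.mk_surjective

lemma mkB_relB (f : σ → MvPolynomial σ A) (j : σ ⊕ Unit) : mkB f (relB f j) = 0 :=
  Ideal.Quotient.eq_zero_iff_mem.mpr (Ideal.subset_span ⟨j, rfl⟩)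

lemma mkB_f (f : σ → MvPolynomial σ A) (i : σ) : mkB f (rename Sum.inl (f i)) = 0 :=
  mkB_relB f (Sum.inl i)

lemma mkB_Y_mul (f : σ → MvPolynomial σ A) :
    mkB f (X (Sum.inr ())) * mkB f (rename Sum.inl (jacDet f)) = 1 := by
  have h := mkB_relB f (Sum.inr ())
  simp only [relB, Sum.elim_inr, map_sub, map_mul, map_one] at h
  exact sub_eq_zero.mp h

lemma isUnit_mkB_jacDet (f : σ → MvPolynomial σ A) :
    IsUnit (mkB f (rename Sum.inl (jacDet f))) :=
  IsUnit.of_mul_eq_one _ (by rw [mul_comm]; exact mkB_Y_mul f)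

lemma preB_algebraMap (f : σ → MvPolynomial σ A) (p : MvPolynomial (σ ⊕ Unit) A) :
    algebraMap (preB f).Ring (RingB f) p = mkB f p := by
  change _ = Ideal.Quotient.mk _ p
  rw [Algebra.Generators.algebraMap_apply]
  simp [preB, Algebra.PreSubmersivePresentation.naive, Algebra.Presentation.naive,
    Algebra.Generators.naive]
  induction p using MvPolynomial.induction_on with
  | C a => simp; rfl
  | add p q hp hq => simp [hp, hq]
  | mul_X p i hp => simp [hp]

/-- The submersive presentation of `RingB f`. -/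
noncomputable def subB (f : σ → MvPolynomial σ A) :
    Algebra.SubmersivePresentation A (RingB f) (σ ⊕ Unit) (σ ⊕ Unit) where
  __ := preB f
  jacobian_isUnit := by
    rw [Algebra.PreSubmersivePresentation.jacobian_eq_jacobiMatrix_det, preB_jacobiMatrix_det,
      preB_algebraMap, map_mul]
    exact (isUnit_mkB_jacDet f).mul (isUnit_mkB_jacDet f)

/-- `RingB f` is étale over `A`. -/
instance instEtaleRingB (f : σ → MvPolynomial σ A) : Algebra.Etale A (RingB f) := by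
  haveI : Algebra.IsStandardSmoothOfRelativeDimension 0 A (RingB f) :=
    (subB f).isStandardSmoothOfRelativeDimension (by
      simp [Algebra.Presentation.dimension])
  infer_instance

section lift

variable {R : Type*} [CommRing R] [Algebra A R]

/-- The evaluation `A[X_σ, Y] → R` at `X = b`, `Y = y`. -/
noncomputable def evalXY (b : σ → R) (y : R) : MvPolynomial (σ ⊕ Unit) A →ₐ[A] R :=
  aeval (Sum.elim b fun _ => y)

lemma evalXY_rename (b : σ → R) (y : R) (p : MvPolynomial σ A) :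
    evalXY b y (rename Sum.inl p) = aeval b p := by
  simp [evalXY, aeval_rename, Function.comp_def]

lemma evalXY_X_inl (b : σ → R) (y : R) (i : σ) :
    evalXY b y (X (Sum.inl i) : MvPolynomial (σ ⊕ Unit) A) = b i := by
  simp [evalXY]

lemma evalXY_X_inr (b : σ → R) (y : R) (u : Unit) :
    evalXY b y (X (Sum.inr u) : MvPolynomial (σ ⊕ Unit) A) = y := by
  simp [evalXY]

/-- A solution `b` of `f = 0` in `R` together with an inverse `y` of `Δ(b)` gives an algebra map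
`RingB f → R`. -/
noncomputable def liftB (f : σ → MvPolynomial σ A) (b : σ → R) (y : R)
    (hb : ∀ i, aeval b (f i) = 0) (hy : y * aeval b (jacDet f) = 1) : RingB f →ₐ[A] R :=
  Ideal.Quotient.liftₐ _ (evalXY b y) (by
    intro p hp
    have hle : Ideal.span (Set.range (relB f)) ≤ RingHom.ker (evalXY (A := A) b y) := by
      rw [Ideal.span_le]
      rintro _ ⟨j, rfl⟩
      rcases j with j | u
      · simp [relB, evalXY_rename, hb]
      · simp [relB, evalXY_rename, evalXY_X_inr, hy]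
    exact hle hp)

lemma liftB_mkB (f : σ → MvPolynomial σ A) (b : σ → R) (y : R)
    (hb : ∀ i, aeval b (f i) = 0) (hy : y * aeval b (jacDet f) = 1)
    (p : MvPolynomial (σ ⊕ Unit) A) : liftB f b y hb hy (mkB f p) = evalXY b y p :=
  rfl

lemma liftB_X (f : σ → MvPolynomial σ A) (b : σ → R) (y : R)
    (hb : ∀ i, aeval b (f i) = 0) (hy : y * aeval b (jacDet f) = 1) (i : σ) :
    liftB f b y hb hy (mkB f (X (Sum.inl i))) = b i := by
  rw [liftB_mkB, evalXY_X_inl]

/-- Conversely an algebra map `φ : RingB f → R` gives the solution `φ (X_i)`. -/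
lemma aeval_of_algHom (f : σ → MvPolynomial σ A) (φ : RingB f →ₐ[A] R) (p : MvPolynomial σ A) :
    aeval (fun i => φ (mkB f (X (Sum.inl i)))) p = φ (mkB f (rename Sum.inl p)) := by
  induction p using MvPolynomial.induction_on with
  | C a => simp
  | add p q hp hq => simp [hp, hq]
  | mul_X p i hp => simp [hp]

lemma aeval_f_of_algHom (f : σ → MvPolynomial σ A) (φ : RingB f →ₐ[A] R) (j : σ) :
    aeval (fun i => φ (mkB f (X (Sum.inl i)))) (f j) = 0 := by
  rw [aeval_of_algHom, mkB_f, map_zero]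

/-- Two algebra maps out of `RingB f` agreeing on the `X_i` are equal. -/
lemma algHom_ext_X (f : σ → MvPolynomial σ A) (φ ψ : RingB f →ₐ[A] R)
    (h : ∀ i, φ (mkB f (X (Sum.inl i))) = ψ (mkB f (X (Sum.inl i)))) : φ = ψ := by
  have hJ : φ (mkB f (rename Sum.inl (jacDet f))) = ψ (mkB f (rename Sum.inl (jacDet f))) := by
    rw [← aeval_of_algHom, ← aeval_of_algHom]
    have hfun : (fun i => φ (mkB f (X (Sum.inl i)))) = fun i => ψ (mkB f (X (Sum.inl i))) :=
      funext h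
    rw [hfun]
  have hY : φ (mkB f (X (Sum.inr ()))) = ψ (mkB f (X (Sum.inr ()))) := by
    have h1 : φ (mkB f (X (Sum.inr ()))) * φ (mkB f (rename Sum.inl (jacDet f))) = 1 := by
      rw [← map_mul, mkB_Y_mul, map_one]
    have h2 : ψ (mkB f (X (Sum.inr ()))) * ψ (mkB f (rename Sum.inl (jacDet f))) = 1 := by
      rw [← map_mul, mkB_Y_mul, map_one]
    calc φ (mkB f (X (Sum.inr ())))
        = φ (mkB f (X (Sum.inr ()))) *
            (ψ (mkB f (X (Sum.inr ()))) * ψ (mkB f (rename Sum.inl (jacDet f)))) := by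
          rw [h2, mul_one]
      _ = (φ (mkB f (X (Sum.inr ()))) * φ (mkB f (rename Sum.inl (jacDet f)))) *
            ψ (mkB f (X (Sum.inr ()))) := by rw [hJ]; ring
      _ = ψ (mkB f (X (Sum.inr ()))) := by rw [h1, one_mul]
  have : φ.comp (mkB f) = ψ.comp (mkB f) := by
    apply MvPolynomial.algHom_ext
    rintro (i | u)
    · exact h i
    · exact hY
  ext x
  obtain ⟨p, rfl⟩ := mkB_surjective f x
  exact congrArg (fun g : MvPolynomial (σ ⊕ Unit) A →ₐ[A] R => g p) this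

end lift

end Fermat.Agent.S27.Lift.H68

end
-- ==== END Fermat.Agent.S27.Lift.H68_MvHenselEtale

-- ==== BEGIN Fermat.Agent.S27.RR.H52_Adele
section

/-!
# S27, package RR-DUAL (helper52), part 1: repartitions (adeles) of a function field

`K` a field, `F / K` a function field with the facts `RED.H17.FFHyp K F` (all places of degree
one, principal divisors, ...).  Universe-polymorphic.

* `finite_poles` : an adele has finitely many poles; `exists_mem_AD` : every adele lies in some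
  `A(D)`, `D ≥ B`;
* `sgl v x` : the adele with the only component `x` at `v`; `cst f` : the principal adele of `f`;
* `AD_succ_le` : `A(D + v) ≤ A(D) + K · sgl v u` if `ord_v u = - D(v) - 1`;
* `sgl_mem_sup_of_L`, `sgl_not_mem_sup_of_L` : `sgl v u ∈ A(D) + F` iff `L(D + v) ≠ L(D)`.
-/

set_option autoImplicit false
set_option linter.style.haveILetI false
set_option linter.unusedSectionVars false

noncomputable section

open AlgebraicCurve

attribute [local instance] Classical.propDecidable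

namespace Fermat.Agent.S27.RR.H52

open Fermat.Agent.RED Fermat.Agent.RED.H51 Fermat.Agent.RED.H17

variable {K F : Type*} [Field K] [Field F] [Algebra K F]

local notation "L" => riemannRochSpace

/-- The ring of repartitions (adeles) of `F / K`. -/
abbrev Adele (K F : Type*) [Field K] [Field F] [Algebra K F] : Type _ := ↥(repartitions K F)

theorem mem_AD_iff {D : Divisor K F} {α : Adele K F} :
    α ∈ repartitionsOf D ↔ ∀ v : Place K F, OrdGe v (-D v) ((α : Place K F → F) v) :=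
  mem_repartitionsOf_iff

theorem mem_L_iff' {D : Divisor K F} {f : F} :
    f ∈ L D ↔ ∀ v : Place K F, OrdGe v (-D v) f :=
  mem_riemannRochSpace_iff

theorem ordGe_zero_of_not_neg (v : Place K F) {x : F} (h : ¬ v.ord x < 0) : OrdGe v 0 x :=
  Or.inr (not_lt.mp h)

theorem not_neg_of_ordGe_zero (v : Place K F) {x : F} (h : OrdGe v 0 x) : ¬ v.ord x < 0 := by
  rcases h with rfl | h
  · simp
  · exact not_lt.mpr h

/-- Every adele has finitely many poles. -/
theorem finite_poles (H : HasPrincipalDivisors K F) (α : Adele K F) :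
    {v : Place K F | v.ord ((α : Place K F → F) v) < 0}.Finite := by
  obtain ⟨a, ha⟩ := α
  show {v : Place K F | v.ord (a v) < 0}.Finite
  induction ha using Algebra.adjoin_induction with
  | mem x hx =>
    have e : {v : Place K F | v.ord (x v) < 0}
        = {v : Place K F | ¬ v.adicValuation (x v) ≤ 1} :=
      Set.ext fun v => (v.not_adicValuation_le_one_iff).symm
    rw [e]
    exact hx
  | algebraMap f =>
    by_cases hf : f = 0
    · subst hf
      refine Set.Finite.subset Set.finite_empty fun v hv => ?_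
      have hv' : v.ord (0 : F) < 0 := hv
      simp at hv'
    · obtain ⟨D, hD, -⟩ := H.exists_divisor f hf
      refine D.support.finite_toSet.subset fun v hv => ?_
      have hv' : v.ord f < 0 := hv
      rw [Finset.mem_coe, Finsupp.mem_support_iff, hD v]
      omega
  | add x y _ _ ihx ihy =>
    refine (ihx.union ihy).subset fun v hv => ?_
    by_contra hcon
    rw [Set.mem_union, not_or] at hcon
    have h1 := ordGe_zero_of_not_neg v hcon.1
    have h2 := ordGe_zero_of_not_neg v hcon.2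
    exact not_neg_of_ordGe_zero v (h1.add h2) hv
  | mul x y _ _ ihx ihy =>
    refine (ihx.union ihy).subset fun v hv => ?_
    by_contra hcon
    rw [Set.mem_union, not_or] at hcon
    have h1 := ordGe_zero_of_not_neg v hcon.1
    have h2 := ordGe_zero_of_not_neg v hcon.2
    have h3 := h1.mul h2
    rw [add_zero] at h3
    exact not_neg_of_ordGe_zero v h3 hv

/-- Every adele lies in `A(D)` for some `D ≥ B`. -/
theorem exists_mem_AD (H : HasPrincipalDivisors K F) (α : Adele K F) (B : Divisor K F) :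
    ∃ D : Divisor K F, B ≤ D ∧ α ∈ repartitionsOf D := by
  set S : Finset (Place K F) := (finite_poles H α).toFinset ∪ B.support with hS
  have hsupp : ∀ v : Place K F,
      max (B v) (-v.ord ((α : Place K F → F) v)) ≠ 0 → v ∈ S := by
    intro v hv
    rw [hS, Finset.mem_union, Set.Finite.mem_toFinset, Set.mem_ofPred_eq, Finsupp.mem_support_iff]
    by_contra hcon
    rw [not_or, not_not, not_lt] at hcon
    apply hv
    rw [hcon.2]
    exact max_eq_left (by omega)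
  refine ⟨Finsupp.onFinset S (fun v => max (B v) (-v.ord ((α : Place K F → F) v))) hsupp,
    ?_, ?_⟩
  · rw [Finsupp.le_def]
    intro v
    rw [Finsupp.onFinset_apply]
    exact le_max_left _ _
  · rw [mem_AD_iff]
    intro v
    right
    rw [Finsupp.onFinset_apply]
    have := le_max_right (B v) (-v.ord ((α : Place K F → F) v))
    omega

/-! ### Special adeles -/

/-- The adele with component `x` at `v` and `0` elsewhere. -/
def sgl (v : Place K F) (x : F) : Adele K F :=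
  ⟨fun w => if w = v then x else 0, mem_repartitions_of_finite_ord (by
    refine (Set.finite_singleton v).subset fun w hw => ?_
    rw [Set.mem_ofPred_eq] at hw
    rw [Set.mem_singleton_iff]
    by_contra hne
    rw [if_neg hne] at hw
    simp at hw)⟩

theorem sgl_apply (v w : Place K F) (x : F) :
    ((sgl v x : Adele K F) : Place K F → F) w = if w = v then x else 0 := rfl

theorem sgl_apply_self (v : Place K F) (x : F) :
    ((sgl v x : Adele K F) : Place K F → F) v = x := by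
  rw [sgl_apply, if_pos rfl]

theorem sgl_apply_ne {v w : Place K F} (h : w ≠ v) (x : F) :
    ((sgl v x : Adele K F) : Place K F → F) w = 0 := by
  rw [sgl_apply, if_neg h]

theorem sgl_mem_AD_iff (v : Place K F) (x : F) (D : Divisor K F) :
    sgl v x ∈ repartitionsOf D ↔ OrdGe v (-D v) x := by
  rw [mem_AD_iff]
  constructor
  · intro h
    have := h v
    rwa [sgl_apply_self] at this
  · intro h w
    by_cases hw : w = v
    · subst hw
      rwa [sgl_apply_self]
    · rw [sgl_apply_ne hw]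
      exact ordGe_zero _ _

/-- The principal adele of `f`. -/
def cst (f : F) : Adele K F := algebraMap F (Adele K F) f

theorem cst_apply (f : F) (v : Place K F) : ((cst f : Adele K F) : Place K F → F) v = f := rfl

theorem cst_mem_principal (f : F) : (cst f : Adele K F) ∈ principalRepartitions K F :=
  mem_principalRepartitions_iff.mpr ⟨f, rfl⟩

theorem exists_cst_of_mem_principal {φ : Adele K F} (h : φ ∈ principalRepartitions K F) :
    ∃ f : F, φ = cst f := by
  obtain ⟨f, hf⟩ := mem_principalRepartitions_iff.mp h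
  exact ⟨f, Subtype.ext hf⟩

theorem cst_mem_AD_iff (f : F) (D : Divisor K F) :
    (cst f : Adele K F) ∈ repartitionsOf D ↔ f ∈ L D := by
  rw [mem_AD_iff, mem_L_iff']
  rfl

theorem coe_sub_smul (α β : Adele K F) (c : K) (w : Place K F) :
    ((α - c • β : Adele K F) : Place K F → F) w
      = (α : Place K F → F) w - c • (β : Place K F → F) w := rfl

theorem coe_add' (α β : Adele K F) (w : Place K F) :
    ((α + β : Adele K F) : Place K F → F) w
      = (α : Place K F → F) w + (β : Place K F → F) w := rfl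

theorem coe_sub' (α β : Adele K F) (w : Place K F) :
    ((α - β : Adele K F) : Place K F → F) w
      = (α : Place K F → F) w - (β : Place K F → F) w := rfl

theorem single_add_le (D : Divisor K F) (v : Place K F) : D ≤ D + Finsupp.single v 1 := by
  rw [Finsupp.le_def]
  intro w
  rw [Finsupp.add_apply, Finsupp.single_apply]
  split_ifs <;> omega

theorem add_single_apply_ne (D : Divisor K F) {v w : Place K F} (h : w ≠ v) :
    (D + Finsupp.single v 1 : Divisor K F) w = D w := by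
  rw [Finsupp.add_apply, Finsupp.single_apply, if_neg (Ne.symm h), add_zero]

theorem add_single_apply_self (D : Divisor K F) (v : Place K F) :
    (D + Finsupp.single v 1 : Divisor K F) v = D v + 1 := by
  rw [Finsupp.add_apply, Finsupp.single_apply, if_pos rfl]

/-- **One step**: `A(D + v) ≤ A(D) + K · sgl v u` for `u` of order `-D(v) - 1` at `v`. -/
theorem AD_succ_le (v : Place K F) (hdeg : v.deg = 1) (D : Divisor K F) {u : F} (hu : u ≠ 0)
    (hord : v.ord u = -D v - 1) :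
    repartitionsOf (D + Finsupp.single v 1)
      ≤ repartitionsOf D ⊔ Submodule.span K {sgl v u} := by
  intro α hα
  rw [mem_AD_iff] at hα
  set a : F := (α : Place K F → F) v with ha
  have hav : OrdGe v (-(D v + 1)) a := by
    have := hα v
    rwa [add_single_apply_self] at this
  -- the value of `a / u` at `v`
  have hreg : RegAt v (a / u) := by
    rw [regAt_iff_ord]
    rcases hav with h0 | h
    · left
      rw [h0, zero_div]
    · by_cases ha0 : a = 0
      · left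
        rw [ha0, zero_div]
      · right
        rw [H17.ord_div v ha0 hu, hord]
        omega
  obtain ⟨c, hc⟩ := _root_.Fermat.Agent.RED.H17.exists_value v hdeg hreg
  rw [vanAt_iff_ord] at hc
  have hkey : OrdGe v (-D v) (a - c • u) := by
    have e : a - c • u = u * (a / u - algebraMap K F c) := by
      rw [Algebra.smul_def]
      field_simp
    rw [e]
    rcases hc with h0 | h
    · left
      rw [h0, mul_zero]
    · right
      have hne : a / u - algebraMap K F c ≠ 0 := by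
        intro h0
        rw [h0] at h
        simp at h
      rw [Place.ord_mul v hu hne, hord]
      omega
  have hmem : α - c • sgl v u ∈ repartitionsOf D := by
    rw [mem_AD_iff]
    intro w
    rw [coe_sub_smul]
    by_cases hw : w = v
    · subst hw
      rw [sgl_apply_self]
      exact hkey
    · rw [sgl_apply_ne hw, smul_zero, sub_zero]
      have := hα w
      rwa [add_single_apply_ne D hw] at this
  have e : α = (α - c • sgl v u) + c • sgl v u := by abel
  rw [e]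
  exact Submodule.add_mem_sup hmem
    (Submodule.smul_mem _ c (Submodule.mem_span_singleton_self _))

theorem sgl_mem_AD_succ (v : Place K F) (D : Divisor K F) {u : F}
    (hord : v.ord u = -D v - 1) : sgl v u ∈ repartitionsOf (D + Finsupp.single v 1) := by
  rw [sgl_mem_AD_iff, add_single_apply_self]
  right
  omega

theorem sgl_not_mem_AD (v : Place K F) (D : Divisor K F) {u : F} (hu : u ≠ 0)
    (hord : v.ord u = -D v - 1) : sgl v u ∉ repartitionsOf D := by
  rw [sgl_mem_AD_iff]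
  rintro (h | h)
  · exact hu h
  · omega

/-- If `L(D + v) ≠ L(D)` then `sgl v u ∈ A(D) + F`. -/
theorem sgl_mem_sup_of_L (v : Place K F) (hdeg : v.deg = 1) (D : Divisor K F) {u : F}
    (hu : u ≠ 0) (hord : v.ord u = -D v - 1) {f : F} (hf : f ∈ L (D + Finsupp.single v 1))
    (hfD : f ∉ L D) :
    sgl v u ∈ repartitionsOf D ⊔ principalRepartitions K F := by
  have h1 : (cst f : Adele K F) ∈ repartitionsOf (D + Finsupp.single v 1) :=
    (cst_mem_AD_iff f _).mpr hf
  obtain ⟨α₀, hα₀, y, hy, hsum⟩ := Submodule.mem_sup.mp (AD_succ_le v hdeg D hu hord h1)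
  obtain ⟨c, rfl⟩ := Submodule.mem_span_singleton.mp hy
  have hc : c ≠ 0 := by
    rintro rfl
    rw [zero_smul, add_zero] at hsum
    apply hfD
    rw [← cst_mem_AD_iff, ← hsum]
    exact hα₀
  have e : sgl v u = c⁻¹ • (cst f - α₀) := by
    rw [← hsum, add_sub_cancel_left, smul_smul, inv_mul_cancel₀ hc, one_smul]
  rw [e]
  refine Submodule.smul_mem _ _ (Submodule.sub_mem _ ?_ ?_)
  · exact Submodule.mem_sup_right (cst_mem_principal f)
  · exact Submodule.mem_sup_left hα₀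

/-- If `L(D + v) = L(D)` then `sgl v u ∉ A(D) + F`. -/
theorem sgl_not_mem_sup_of_L (v : Place K F) (D : Divisor K F) {u : F}
    (hu : u ≠ 0) (hord : v.ord u = -D v - 1) (hL : L (D + Finsupp.single v 1) ≤ L D) :
    sgl v u ∉ repartitionsOf D ⊔ principalRepartitions K F := by
  intro h
  obtain ⟨α₀, hα₀, φ, hφ, hsum⟩ := Submodule.mem_sup.mp h
  obtain ⟨f, rfl⟩ := exists_cst_of_mem_principal hφ
  have h1 : (cst f : Adele K F) ∈ repartitionsOf (D + Finsupp.single v 1) := by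
    have e : (cst f : Adele K F) = sgl v u - α₀ := by
      rw [← hsum, add_sub_cancel_left]
    rw [e]
    exact Submodule.sub_mem _ (sgl_mem_AD_succ v D hord)
      (repartitionsOf_mono (single_add_le D v) hα₀)
  have h2 : (cst f : Adele K F) ∈ repartitionsOf D :=
    (cst_mem_AD_iff f D).mpr (hL ((cst_mem_AD_iff f _).mp h1))
  apply sgl_not_mem_AD v D hu hord
  rw [← hsum]
  exact Submodule.add_mem _ hα₀ h2

end Fermat.Agent.S27.RR.H52

end
end
-- ==== END Fermat.Agent.S27.RR.H52_Adele
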