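-- GENERATED (merged mirror, NOTES/tools/trim/merge3_helper67.py): 24 modules of the originals, bodies verbatim.
import Mathlib
import Fermat.Prelude.Def_CuspForm_HeckeAlgebra
import Fermat.Prelude.Thm_IsAdicComplete_of_module_finite
import Fermat.Agent.Zm.S43_L01_004
import Fermat.Agent.Zm.S36_L08_000
import Fermat.Agent.Zm.S36_L04_001
import Fermat.Agent.Zm.S36_L02_002
import Fermat.Agent.Zm.S36_L01_001
import Fermat.Agent.Zm.S36_L09_000
import Fermat.Agent.Zm.S35_L05_001
import Fermat.Agent.Zm.S36_L11_000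
import Fermat.Agent.Zm.S43_L02_005
import Fermat.Agent.Zm.S35_L07_000
import Fermat.Agent.Zm.S36_L05_002
import Fermat.Agent.Zm.S35_L16_001
import Fermat.Agent.Zm.S35_L16_000
import Fermat.Agent.Zm.S35_L11_001
import Fermat.Agent.Zm.S35_L21_000
import Fermat.Agent.Zm.S35_L15_000
import Fermat.Agent.Zm.S44_L01_003
import Fermat.Agent.Zm.S35_L04_000
import Fermat.Agent.Zm.S43_L02_003
import Fermat.Agent.Zm.S15_L06_000
import Fermat.Agent.Zm.S36_L13_000
import Fermat.Agent.Zm.S36_L03_001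
import Fermat.Agent.Zm.S35_L13_000
import Fermat.Agent.Zm.S43_L03_002
import Fermat.Agent.Zm.S48_L04_000
import Fermat.Agent.Zm.S48_L05_000
import Fermat.Agent.Zm.S44_L05_001
import Fermat.Agent.Zm.S44_L08_000
import Fermat.Agent.Zm.S48_L02_001
import Fermat.Agent.Zm.S35_L01_000
import Fermat.Agent.Zm.S43_L01_005
import Fermat.Agent.Zm.S43_L14_003
import Fermat.Agent.Zm.S33_L12_000
import Fermat.Agent.S05.H95_Inertia

-- ==== BEGIN Fermat.Agent.S59.LL.H40_LLss
section

/-!
# S59, package LL: the semistable form of the input S39 (helper40)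

`llec_of` (`S59/LL/Defs.lean`) takes the frozen type of S39.  In the induction the statement S39 is
only used for a SEMISTABLE curve `W`, at a SQUAREFREE level `M` all of whose primes `q ≠ p` are
ramified for the residual representation.  `Stmt_S39ss` is S39 with these extra hypotheses (this is
what `BAD_3` of helper93 can prove at `p = 3`: for a semistable curve the image of the residual
representation is not dihedral, see `NOTES/plan/L_S39_BAD3.md` and `NOTES/plan/lead_BAD3_test.md`).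

* `s39ss_of : Stmt_S39 → Stmt_S39ss`;
* `llec_of_ss : Stmt_SQ → Stmt_S38 → Stmt_S39ss → Stmt_LLec`.
-/

set_option autoImplicit false
set_option linter.unusedVariables false

noncomputable section

open WeierstrassCurve WeierstrassCurve.Affine WeierstrassCurve.Affine.Point

namespace Fermat.Agent.S59.LL.H40

open Fermat.Agent.S59.LL

/-- **S39 for a semistable curve at a minimal squarefree level**: `W` semistable, `E[p]`
irreducible and peu ramifiée at `p`, `M` squarefree, `p ∣ M`, every prime `q ≠ p` of `M` ramified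
for the residual representation, `W` residually modular of level `M`: then `W` is residually
modular of level `M / p`. -/
def Stmt_S39ss : Prop :=
  ∀ (p : ℕ) [Fact p.Prime] (_hp2 : p ≠ 2) (W : WeierstrassCurve ℤ) (_hΔ : W.Δ ≠ 0)
    (_hW : W.IsSemistableModel)
    (hcard₁ : Nat.card (Submodule.torsionBy ℤ
      ((W.map (Int.castRingHom ℚ))⁄(AlgebraicClosure ℚ)).Point p) = p ^ 2)
    (hker : GaloisFactorsThroughFiniteLevel
      (WeierstrassCurve.Affine.Point.galoisRepModuleEnd (K := AlgebraicClosure ℚ) ℚ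
        (W.map (Int.castRingHom ℚ)) p))
    (_hirr : W.ModRepIsIrreducible p)
    (_hfin : (W.map (Int.castRingHom ℚ)).IsPeuRamifieeAt p p)
    (M : ℕ) (_hM : 0 < M) (_hsq : Squarefree M) (_hpM : p ∣ M)
    (_hram : ∀ q : ℕ, q.Prime → q ≠ p → q ∣ M →
      ¬ ((W.map (Int.castRingHom ℚ)).residualGaloisRepOf p hcard₁ hker).IsUnramifiedAt q)
    (_hmod : W.IsResiduallyModularOfLevel p M),
    W.IsResiduallyModularOfLevel p (M / p)

/-- The frozen S39 gives its semistable form. -/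
theorem s39ss_of (h39 : Stmt_S39) : Stmt_S39ss := by
  intro p hpF hp2 W hΔ hW hcard₁ hker hirr hfin M hM hsq hpM hram hmod
  have hp : p.Prime := hpF.out
  have hp2M : ¬ p ^ 2 ∣ M := by
    intro h
    have h1 : p * p ∣ M := by rwa [pow_two] at h
    exact hp.not_isUnit (hsq p h1)
  exact h39 W hΔ hp hp2 (hW p hp) hirr hfin hM hpM hp2M hmod

/-- Bookkeeping: SQUARE removal, S38 and the SEMISTABLE form of S39 give LL. -/
theorem llec_of_ss (hSQ : Stmt_SQ) (h38 : Stmt_S38) (h39 : Stmt_S39ss) : Stmt_LLec := by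
  classical
  intro p hpF hp2 W hΔ hW hcard₁ hker hirr
  have hp : p.Prime := hpF.out
  -- strong induction on the level
  suffices H : ∀ n : ℕ, ∀ M : ℕ, M ≤ n → M ≠ 0 → ¬ p ^ 2 ∣ M →
      (∀ q : ℕ, q.Prime → q ≠ p → ¬ q ^ 3 ∣ M) → W.IsResiduallyModularOfLevel p M →
      ∃ N : ℕ, N ∣ M ∧ Squarefree N ∧ W.IsResiduallyModularOfLevel p N ∧
        (∀ q : ℕ, q.Prime → q ≠ p → q ∣ N →
          ¬ ((W.map (Int.castRingHom ℚ)).residualGaloisRepOf p hcard₁ hker).IsUnramifiedAt q) ∧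
        (p ∣ N → ¬ (W.map (Int.castRingHom ℚ)).IsPeuRamifieeAt p p) by
    intro M₀ hM₀ hpM₀ hcube hres
    exact H M₀ M₀ le_rfl hM₀ hpM₀ hcube hres
  intro n
  induction n with
  | zero =>
    intro M hM hM0
    exact absurd (Nat.le_zero.mp hM) hM0
  | succ n ih =>
    intro M hMn hM0 hpM hcube hres
    -- a helper: passing to a proper divisor `M / q`
    have step : ∀ q : ℕ, q.Prime → q ∣ M → W.IsResiduallyModularOfLevel p (M / q) →
        ∃ N : ℕ, N ∣ M ∧ Squarefree N ∧ W.IsResiduallyModularOfLevel p N ∧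
          (∀ q : ℕ, q.Prime → q ≠ p → q ∣ N →
            ¬ ((W.map (Int.castRingHom ℚ)).residualGaloisRepOf p hcard₁ hker).IsUnramifiedAt q) ∧
          (p ∣ N → ¬ (W.map (Int.castRingHom ℚ)).IsPeuRamifieeAt p p) := by
      intro q hq hqM hres'
      have hdvd : M / q ∣ M := Nat.div_dvd_of_dvd hqM
      have hlt : M / q < M := Nat.div_lt_self (Nat.pos_of_ne_zero hM0) hq.one_lt
      have hne : M / q ≠ 0 := by
        intro h0
        have hqle : q ≤ M := Nat.le_of_dvd (Nat.pos_of_ne_zero hM0) hqM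
        have := (Nat.div_eq_zero_iff).mp h0
        rcases this with h | h
        · exact hq.ne_zero h
        · omega
      obtain ⟨N, hNM, hsq, hresN, hram, hpN⟩ := ih (M / q) (by omega) hne
        (fun h => hpM (h.trans hdvd))
        (fun r hr hrp h => hcube r hr hrp (h.trans hdvd)) hres'
      exact ⟨N, hNM.trans hdvd, hsq, hresN, hram, hpN⟩
    by_cases hsqr : ∃ q : ℕ, q.Prime ∧ q ≠ p ∧ q ^ 2 ∣ M
    · obtain ⟨q, hq, hqp, hq2⟩ := hsqr
      exact step q hq ((dvd_pow_self q two_ne_zero).trans hq2)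
        (hSQ p hp2 W hΔ hW hirr M q hq hqp hq2 (hcube q hq hqp) hres)
    · push Not at hsqr
      have hMsq : Squarefree M := by
        rw [Nat.squarefree_iff_prime_squarefree]
        intro r hr hrr
        by_cases hrp : r = p
        · subst hrp
          exact hpM (by rwa [pow_two])
        · exact hsqr r hr hrp (by rwa [pow_two])
      by_cases hunr : ∃ q : ℕ, q.Prime ∧ q ≠ p ∧ q ∣ M ∧
          ((W.map (Int.castRingHom ℚ)).residualGaloisRepOf p hcard₁ hker).IsUnramifiedAt q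
      · obtain ⟨q, hq, hqp, hqM, hu⟩ := hunr
        have hq2 : ¬ q ^ 2 ∣ M := fun h => hsqr q hq hqp h
        exact step q hq hqM (h38 p hp2 W hΔ hW hcard₁ hker hirr M q hq hqp hqM hq2 hMsq hu hres)
      · push Not at hunr
        by_cases hpp : p ∣ M ∧ (W.map (Int.castRingHom ℚ)).IsPeuRamifieeAt p p
        · obtain ⟨hpdvd, hfin⟩ := hpp
          exact step p hp hpdvd
            (h39 p hp2 W hΔ hW hcard₁ hker hirr hfin M (Nat.pos_of_ne_zero hM0) hMsq hpdvd
              (fun q hq hqp hqM => hunr q hq hqp hqM) hres)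
        · refine ⟨M, dvd_rfl, hMsq, hres, fun q hq hqp hqM => hunr q hq hqp hqM, fun hpdvd hfin =>
            hpp ⟨hpdvd, hfin⟩⟩

end Fermat.Agent.S59.LL.H40

end
end
-- ==== END Fermat.Agent.S59.LL.H40_LLss

-- ==== BEGIN Fermat.Agent.S59.LL.SQ.H16_RegAbs
section

/-!
# S59 / LL / SQ, leaf R1 REG-TAME (helper16), abstract part

`dvd_ord_rd_abs`: in a chart `C` with (HOR) for `h` and the local data (one branch, a local
equation datum) at the closed point below a point `v` of degree one of the component `i`, the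
order at `v` of the reduction of `h` on the component `i` is divisible by `n`.

Proof: REG (`H16.reg_abs`) gives `s` with `h sⁿ ∈ B` not in the closed point, so the reduction
`rd i h * (rd i s)ⁿ` is regular and does not vanish at `v`.
-/

set_option autoImplicit false
set_option synthInstance.maxHeartbeats 400000
set_option maxHeartbeats 1000000
set_option linter.style.haveILetI false
set_option linter.unusedSectionVars false

noncomputable section

open AlgebraicCurve

namespace Fermat.Agent.S59.LL.SQ.H16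

open Fermat.Agent.RED.H17 Fermat.Agent.RED Fermat.Agent.S36.NU.H16 Fermat.Agent.S36.NU.H24
  Fermat.Agent.S36.NU.H17

section PlaceAux

variable {k E : Type*} [Field k] [Field E] [Algebra k E]

/-- A function regular and not vanishing at `v` has order `0` at `v`. -/
theorem ord_eq_zero_of_regAt_not_vanAt (v : Place k E) {x : E} (hr : RegAt v x)
    (hv : ¬ VanAt v x) : v.ord x = 0 := by
  have h1 : 0 ≤ v.ord x := hr.ord_nonneg
  have h2 : ¬ 0 < v.ord x := fun h => hv (vanAt_of_ord_pos h)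
  omega

end PlaceAux

section Abs

variable {R F k ι : Type*} {κ : ι → Type*} [CommRing R] [Field F] [Algebra R F]
  [Field k] [∀ i, Field (κ i)] [∀ i, Algebra k (κ i)]

/-- If the reduction of `j` is regular at `v`, so is the reduction of every function of the chart
(integral over `R[j]`). -/
theorem regAt_rdB_of_integral (C : Chart R F k ι κ) (i : ι) (j : F) (hjB : j ∈ C.B)
    (hB : ∀ β : C.B, IsIntegral ↥(Algebra.adjoin R {j}) (β : F))
    (v : Place k (κ i)) (hj : RegAt v (C.rdB i ⟨j, hjB⟩)) (β : C.B) :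
    RegAt v (C.rdB i β) := by
  rw [regAt_iff_mem]
  have h1 : IsIntegral ↥(Algebra.adjoin k ({C.rdB i ⟨j, hjB⟩} : Set (κ i))) (C.rdB i β) :=
    rdB_mem_intClosure C i j hjB hB (C.rdB i ⟨j, hjB⟩)
      (isIntegral_algebraMap (R := ↥(Algebra.adjoin k ({C.rdB i ⟨j, hjB⟩} : Set (κ i))))
        (A := κ i) (x := ⟨_, Algebra.self_mem_adjoin_singleton k _⟩)) β
  exact mem_of_isIntegral_adjoin k (C.rdB i ⟨j, hjB⟩) v.toValuationSubring
    (fun r => (regAt_iff_mem v _).1 (regAt_algebraMap v r)) ((regAt_iff_mem v _).1 hj) h1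

variable [Fintype ι]

/-- **REG on one component** (abstract form). -/
theorem dvd_ord_rd_abs (C : Chart R F k ι κ) [IsNoetherianRing C.B] [IsFractionRing C.B F]
    (q : R) (n : ℕ) (hn : 0 < n) (h : F) (hh : ∀ i, h ∈ C.V i ∧ h⁻¹ ∈ C.V i) (h0 : h ≠ 0)
    (hHOR : HOR C q n h) (i : ι) (v : Place k (κ i)) (hdeg : v.deg = 1)
    (hreg : ∀ β : C.B, RegAt v (C.rdB i β))
    (hbr : ∀ i', C.Icomp i' ≤ ptIdeal C i v hreg → Nonempty (Branch C (ptIdeal C i v hreg) i'))
    (hL : Nonempty (LocEq C q (ptIdeal C i v hreg))) :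
    (n : ℤ) ∣ v.ord (C.rd i h) := by
  have hmax := ptIdeal_isMaximal hreg hdeg
  have hle : C.Icomp i ≤ ptIdeal C i v hreg := Icomp_le_ptIdeal hreg
  obtain ⟨b⟩ := hbr i hle
  obtain ⟨L⟩ := hL
  obtain ⟨s, hs, hsm⟩ := reg_abs C q n hn h hh h0 _ hmax i b L hHOR
  have hnv : ¬ VanAt v (C.rdB i ⟨h * s ^ n, hs⟩) := fun hv => hsm ((mem_ptIdeal hreg _).2 hv)
  have hord := ord_eq_zero_of_regAt_not_vanAt v (hreg ⟨h * s ^ n, hs⟩) hnv
  -- `s ∈ V i`
  have hsn : s ^ n ∈ C.V i := by
    have h2 : s ^ n = h⁻¹ * (h * s ^ n) := by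
      rw [← mul_assoc, inv_mul_cancel₀ h0, one_mul]
    rw [h2]
    exact mul_mem (hh i).2 (C.B_le i _ hs)
  have hsV : s ∈ C.V i := C.mem_of_pow_mem i hn hsn
  have heq : C.rdB i ⟨h * s ^ n, hs⟩ = C.rd i h * C.rd i s ^ n := by
    rw [← C.rd_coe, C.rd_mul i (hh i).1 hsn, C.rd_pow i hsV]
  rw [heq] at hord hnv
  have hh0 : C.rd i h ≠ 0 := by
    intro e
    apply hnv
    rw [e, zero_mul]
    exact vanAt_zero v
  have hs0 : C.rd i s ≠ 0 := by
    intro e
    apply hnv
    rw [e, zero_pow hn.ne', mul_zero]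
    exact vanAt_zero v
  rw [v.ord_mul hh0 (pow_ne_zero _ hs0), Fermat.Agent.RED.H17.ord_pow] at hord
  refine ⟨-v.ord (C.rd i s), ?_⟩
  linarith

end Abs

end Fermat.Agent.S59.LL.SQ.H16

end
end
-- ==== END Fermat.Agent.S59.LL.SQ.H16_RegAbs

-- ==== BEGIN Fermat.Agent.S59.LL.SQ.H33_CompEisAbs
section

/-!
# S59 / LL / SQ, leaf (E) COMP-EIS at `q²` (helper33): the abstract valuation-vector argument

`L` a field with three discrete valuations `V₁`, `V₂`, `V₃` (uniformisers `Q`, `π`, `Q`,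
`v₂ Q = v₂ π ^ e`), `T : L →* L` (the Hecke operator on functions) which preserves the units of
each `V_i` and has `T Q = Q ^ n`.

* `nv_one` : `v (T x) = v ϖ ^ (n a)` if `v x = v ϖ ^ a`;
* `nv_congr` : if `T f = c f ^ t₀ g ^ p` then `(n - t₀) a = e m + p b`;
* `unit3_of_eigen` : if moreover `n - t₀` is invertible modulo `p`, then `f Q ^ m' G ^ p` is a
  unit for the three valuations, for some `m'` and `G ≠ 0`.
-/

set_option autoImplicit false

namespace Fermat.Agent.S59.LL.SQ.H33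

open Fermat.Agent.S36.NU.H16

section One

variable {L : Type*} [Field L] (V : ValuationSubring L) (ϖ Q : L) (e : ℕ)

/-- NORM-VAL for one valuation, from the preservation of units. -/
theorem nv_one (he : 0 < e) (hϖ0 : ϖ ≠ 0) (hϖ : V.valuation ϖ < 1)
    (hex : ∀ x : L, x ≠ 0 → ∃ m : ℤ, V.valuation x = V.valuation ϖ ^ m)
    (hQ : V.valuation Q = V.valuation ϖ ^ e)
    (T : L →* L) (n : ℕ) (hTQ : T Q = Q ^ n)
    (hTu : ∀ u : L, V.valuation u = 1 → V.valuation (T u) = 1)
    (x : L) (hx : x ≠ 0) (a : ℤ) (ha : V.valuation x = V.valuation ϖ ^ a) :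
    V.valuation (T x) = V.valuation ϖ ^ ((n : ℤ) * a) := by
  have hw0 : V.valuation ϖ ≠ 0 := (Valuation.ne_zero_iff _).2 hϖ0
  have hinj : Function.Injective fun m : ℤ => V.valuation ϖ ^ m :=
    zpow_right_injective₀ (zero_lt_iff.2 hw0) hϖ.ne
  have hQ0 : Q ≠ 0 := by
    intro h0
    rw [h0, map_zero] at hQ
    exact pow_ne_zero _ hw0 hQ.symm
  have hTx0 : T x ≠ 0 := by
    intro h0
    have h1 : T x * T x⁻¹ = 1 := by rw [← map_mul, mul_inv_cancel₀ hx, map_one]
    rw [h0, zero_mul] at h1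
    exact zero_ne_one h1
  -- the unit `u = x ^ e Q ^ (-a)`
  have hu : V.valuation (x ^ e * Q ^ (-a)) = 1 := by
    rw [map_mul, map_pow, map_zpow₀, ha, hQ, ← zpow_natCast (V.valuation ϖ ^ a) e,
      ← zpow_natCast (V.valuation ϖ) e, ← zpow_mul, ← zpow_mul, ← zpow_add₀ hw0]
    have : a * (e : ℤ) + (e : ℤ) * -a = 0 := by ring
    rw [this, zpow_zero]
  have hTu' := hTu _ hu
  rw [map_mul, map_pow, monoidHom_zpow T Q hQ0, hTQ, map_mul, map_pow, map_zpow₀, map_pow,
    hQ] at hTu'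
  obtain ⟨a', ha'⟩ := hex (T x) hTx0
  rw [ha', ← zpow_natCast (V.valuation ϖ ^ a') e, ← zpow_natCast (V.valuation ϖ) e,
    ← zpow_natCast (V.valuation ϖ ^ (e : ℤ)) n, ← zpow_mul, ← zpow_mul, ← zpow_mul,
    ← zpow_add₀ hw0] at hTu'
  have h0 : a' * (e : ℤ) + (e : ℤ) * ((n : ℤ) * -a) = 0 :=
    hinj (hTu'.trans (zpow_zero _).symm)
  have he0 : (e : ℤ) ≠ 0 := by exact_mod_cast he.ne'
  have h1 : a' = (n : ℤ) * a := by
    have h2 : (e : ℤ) * (a' - (n : ℤ) * a) = 0 := by linear_combination h0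
    rcases mul_eq_zero.1 h2 with h3 | h3
    · exact absurd h3 he0
    · linarith
  rw [ha', h1]

/-- The congruence for one valuation. -/
theorem nv_congr (he : 0 < e) (hϖ0 : ϖ ≠ 0) (hϖ : V.valuation ϖ < 1)
    (hex : ∀ x : L, x ≠ 0 → ∃ m : ℤ, V.valuation x = V.valuation ϖ ^ m)
    (hQ : V.valuation Q = V.valuation ϖ ^ e)
    (T : L →* L) (n : ℕ) (hTQ : T Q = Q ^ n)
    (hTu : ∀ u : L, V.valuation u = 1 → V.valuation (T u) = 1)
    (f g c : L) (hf : f ≠ 0) (hg : g ≠ 0) (t₀ p : ℕ)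
    (hrel : T f = c * f ^ t₀ * g ^ p) (m : ℤ) (hcm : V.valuation c = V.valuation Q ^ m)
    (a : ℤ) (ha : V.valuation f = V.valuation ϖ ^ a) :
    ∃ b : ℤ, ((n : ℤ) - t₀) * a = e * m + p * b := by
  have hw0 : V.valuation ϖ ≠ 0 := (Valuation.ne_zero_iff _).2 hϖ0
  have hinj : Function.Injective fun m : ℤ => V.valuation ϖ ^ m :=
    zpow_right_injective₀ (zero_lt_iff.2 hw0) hϖ.ne
  obtain ⟨b, hb⟩ := hex g hg
  refine ⟨b, ?_⟩
  have h1 := nv_one V ϖ Q e he hϖ0 hϖ hex hQ T n hTQ hTu f hf a ha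
  rw [hrel, map_mul, map_mul, map_pow, map_pow, hcm, ha, hb, hQ,
    ← zpow_natCast (V.valuation ϖ) e, ← zpow_natCast (V.valuation ϖ ^ a) t₀,
    ← zpow_natCast (V.valuation ϖ ^ b) p, ← zpow_mul, ← zpow_mul, ← zpow_mul,
    ← zpow_add₀ hw0, ← zpow_add₀ hw0] at h1
  have h2 : (e : ℤ) * m + a * (t₀ : ℤ) + b * (p : ℤ) = (n : ℤ) * a := hinj h1
  linear_combination -h2

end One

section Three

variable {L : Type*} [Field L] (V₁ V₂ V₃ : ValuationSubring L) (Q π t₂ t₃ : L) (e : ℕ)

/-- **The valuation-vector argument.**  If `T f = c f ^ t₀ g ^ p` with a constant `c` and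
`n - t₀` invertible modulo `p`, then `f Q ^ m' G ^ p` is a unit for the three valuations. -/
theorem unit3_of_eigen (he : 0 < e) (hQ0 : Q ≠ 0) (hπ0 : π ≠ 0)
    (hQ₁ : V₁.valuation Q < 1) (hπ₂ : V₂.valuation π < 1) (hQ₃ : V₃.valuation Q < 1)
    (hex₁ : ∀ x : L, x ≠ 0 → ∃ m : ℤ, V₁.valuation x = V₁.valuation Q ^ m)
    (hex₂ : ∀ x : L, x ≠ 0 → ∃ m : ℤ, V₂.valuation x = V₂.valuation π ^ m)
    (hex₃ : ∀ x : L, x ≠ 0 → ∃ m : ℤ, V₃.valuation x = V₃.valuation Q ^ m)
    (hram : V₂.valuation Q = V₂.valuation π ^ e)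
    (ht₂ : V₁.valuation t₂ = 1 ∧ V₂.valuation t₂ = V₂.valuation π ∧ V₃.valuation t₂ = 1)
    (ht₃ : V₁.valuation t₃ = 1 ∧ V₂.valuation t₃ = 1 ∧ V₃.valuation t₃ = V₃.valuation Q)
    (T : L →* L) (n : ℕ) (hTQ : T Q = Q ^ n)
    (hTu₁ : ∀ u : L, V₁.valuation u = 1 → V₁.valuation (T u) = 1)
    (hTu₂ : ∀ u : L, V₂.valuation u = 1 → V₂.valuation (T u) = 1)
    (hTu₃ : ∀ u : L, V₃.valuation u = 1 → V₃.valuation (T u) = 1)
    (f g c : L) (hf : f ≠ 0) (hg : g ≠ 0) (t₀ p : ℕ)
    (hrel : T f = c * f ^ t₀ * g ^ p) (m : ℤ)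
    (hc₁ : V₁.valuation c = V₁.valuation Q ^ m) (hc₂ : V₂.valuation c = V₂.valuation Q ^ m)
    (hc₃ : V₃.valuation c = V₃.valuation Q ^ m)
    (s' r : ℤ) (hs : ((n : ℤ) - t₀) * s' = 1 + p * r) :
    ∃ (m' : ℤ) (G : L), G ≠ 0 ∧ V₁.valuation (f * Q ^ m' * G ^ p) = 1 ∧
      V₂.valuation (f * Q ^ m' * G ^ p) = 1 ∧ V₃.valuation (f * Q ^ m' * G ^ p) = 1 := by
  have hw₁ : V₁.valuation Q ≠ 0 := (Valuation.ne_zero_iff _).2 hQ0
  have hw₂ : V₂.valuation π ≠ 0 := (Valuation.ne_zero_iff _).2 hπ0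
  have hw₃ : V₃.valuation Q ≠ 0 := (Valuation.ne_zero_iff _).2 hQ0
  have ht₂0 : t₂ ≠ 0 := by
    intro h0
    have := ht₂.1
    rw [h0, map_zero] at this
    exact zero_ne_one this
  have ht₃0 : t₃ ≠ 0 := by
    intro h0
    have := ht₃.1
    rw [h0, map_zero] at this
    exact zero_ne_one this
  obtain ⟨a₁, ha₁⟩ := hex₁ f hf
  obtain ⟨a₂, ha₂⟩ := hex₂ f hf
  obtain ⟨a₃, ha₃⟩ := hex₃ f hf
  obtain ⟨b₁, hb₁⟩ := nv_congr V₁ Q Q 1 one_pos hQ0 hQ₁ hex₁ (pow_one _).symm T n hTQ hTu₁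
    f g c hf hg t₀ p hrel m hc₁ a₁ ha₁
  obtain ⟨b₂, hb₂⟩ := nv_congr V₂ π Q e he hπ0 hπ₂ hex₂ hram T n hTQ hTu₂
    f g c hf hg t₀ p hrel m hc₂ a₂ ha₂
  obtain ⟨b₃, hb₃⟩ := nv_congr V₃ Q Q 1 one_pos hQ0 hQ₃ hex₃ (pow_one _).symm T n hTQ hTu₃
    f g c hf hg t₀ p hrel m hc₃ a₃ ha₃
  -- `a_i = e_i m' + p c_i`
  set m' : ℤ := s' * m with hm'
  set c₁ : ℤ := s' * b₁ - r * a₁ with hc₁'
  set c₂ : ℤ := s' * b₂ - r * a₂ with hc₂'
  set c₃ : ℤ := s' * b₃ - r * a₃ with hc₃'
  have e₁ : a₁ = m' + p * c₁ := by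
    rw [hm', hc₁']
    linear_combination s' * hb₁ - a₁ * hs
  have e₂ : a₂ = e * m' + p * c₂ := by
    rw [hm', hc₂']
    linear_combination s' * hb₂ - a₂ * hs
  have e₃ : a₃ = m' + p * c₃ := by
    rw [hm', hc₃']
    linear_combination s' * hb₃ - a₃ * hs
  set G : L := Q ^ (-c₁) * t₂ ^ (-(c₂ - e * c₁)) * t₃ ^ (-(c₃ - c₁)) with hG
  have hG0 : G ≠ 0 :=
    mul_ne_zero (mul_ne_zero (zpow_ne_zero _ hQ0) (zpow_ne_zero _ ht₂0)) (zpow_ne_zero _ ht₃0)
  have hG₁ : V₁.valuation G = V₁.valuation Q ^ (-c₁) := by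
    rw [hG, map_mul, map_mul, map_zpow₀, map_zpow₀, map_zpow₀, ht₂.1, ht₃.1, one_zpow,
      one_zpow, mul_one, mul_one]
  have hG₂ : V₂.valuation G = V₂.valuation π ^ (-c₂) := by
    rw [hG, map_mul, map_mul, map_zpow₀, map_zpow₀, map_zpow₀, ht₂.2.1, ht₃.2.1, one_zpow,
      mul_one, hram, ← zpow_natCast (V₂.valuation π) e, ← zpow_mul, ← zpow_add₀ hw₂]
    congr 1
    ring
  have hG₃ : V₃.valuation G = V₃.valuation Q ^ (-c₃) := by
    rw [hG, map_mul, map_mul, map_zpow₀, map_zpow₀, map_zpow₀, ht₂.2.2, ht₃.2.2, one_zpow,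
      mul_one, ← zpow_add₀ hw₃]
    congr 1
    ring
  refine ⟨-m', G, hG0, ?_, ?_, ?_⟩
  · rw [map_mul, map_mul, map_pow, map_zpow₀, hG₁, ha₁,
      ← zpow_natCast (V₁.valuation Q ^ (-c₁)) p, ← zpow_mul, ← zpow_add₀ hw₁,
      ← zpow_add₀ hw₁]
    have : a₁ + -m' + -c₁ * (p : ℤ) = 0 := by rw [e₁]; ring
    rw [this, zpow_zero]
  · rw [map_mul, map_mul, map_pow, map_zpow₀, hG₂, ha₂, hram,
      ← zpow_natCast (V₂.valuation π) e, ← zpow_mul,
      ← zpow_natCast (V₂.valuation π ^ (-c₂)) p, ← zpow_mul, ← zpow_add₀ hw₂,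
      ← zpow_add₀ hw₂]
    have : a₂ + (e : ℤ) * -m' + -c₂ * (p : ℤ) = 0 := by rw [e₂]; ring
    rw [this, zpow_zero]
  · rw [map_mul, map_mul, map_pow, map_zpow₀, hG₃, ha₃,
      ← zpow_natCast (V₃.valuation Q ^ (-c₃)) p, ← zpow_mul, ← zpow_add₀ hw₃,
      ← zpow_add₀ hw₃]
    have : a₃ + -m' + -c₃ * (p : ℤ) = 0 := by rw [e₃]; ring
    rw [this, zpow_zero]

end Three

end Fermat.Agent.S59.LL.SQ.H33

end
-- ==== END Fermat.Agent.S59.LL.SQ.H33_CompEisAbs

-- ==== BEGIN Fermat.Agent.S59.LL.SQ.H33_CompEisDefs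
section

/-!
# S59 / LL / SQ, leaf (E) COMP-EIS at `q²` (helper33): interface of NORM-VAL3

Level `N = M q²`, `q ∤ M`, `A` over `q`, `ℓ ∤ N` a prime.  `T_ℓ` on Kummer functions is
`f ↦ heckeNormFn f = N_α (β f)` (`α, β : F_N → F_{N ℓ}`).

* `IsVU V x` : `x` is a unit of the valuation ring `V`;
* `NV20At`, `NV11At`, `NV02At` : **NORM-VAL** for one valuation: `T_ℓ` maps inertia-fixed
  `V_i`-units to `V_i`-units (`i = 20, 11, 02`);
* `Stmt_NV20`, `Stmt_NV11`, `Stmt_NV02` : the same for all levels.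

Owners: NV20, NV02 helper33 (`H33_CompEisNV.lean`); NV11 helper87 (on helper35's tower at `ℓ`).
-/

set_option autoImplicit false
set_option linter.style.haveILetI false
set_option linter.unusedSectionVars false

noncomputable section

open ModularCurve AlgebraicCurve
open Fermat.Agent.S24 Fermat.Agent.S36.NU.H88 Fermat.Agent.S36.NU.H23

namespace Fermat.Agent.S59.LL.SQ.H33

/-- `x` is a unit of the valuation ring `V`. -/
def IsVU {F : Type} [Field F] (V : ValuationSubring F) (x : F) : Prop :=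
  x ≠ 0 ∧ x ∈ V ∧ x⁻¹ ∈ V

section Defs

variable (A : ValuationSubring Kbar) (q M : ℕ) (B k : ℤ) (hB : B * M + k * q = 1) (hq : q.Prime)
  [NeZero M] [NeZero q] [NeZero (M * q * q)]

/-- **NORM-VAL for `V₂₀`** at level `M q²`: `T_ℓ` maps inertia-fixed units to units. -/
def NV20At : Prop :=
  ∀ (ℓ : ℕ) [NeZero ℓ], ℓ.Prime → ¬ ℓ ∣ M * q * q →
    ∀ f : FN (M * q * q), f ∈ L0 A (M * q * q) → IsVU (V20 A (M * q * q)) f →
      IsVU (V20 A (M * q * q)) (Fermat.Agent.GTor.H2.heckeNormFn Kbar (M * q * q) ℓ f)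

/-- **NORM-VAL for `V₁₁`** at level `M q²`: `T_ℓ` maps inertia-fixed units to units. -/
def NV11At : Prop :=
  ∀ (ℓ : ℕ) [NeZero ℓ], ℓ.Prime → ¬ ℓ ∣ M * q * q →
    ∀ f : FN (M * q * q), f ∈ L0 A (M * q * q) →
      IsVU (V11 A (M * q * q) q M B k (lvl q M) hB hq) f →
      IsVU (V11 A (M * q * q) q M B k (lvl q M) hB hq)
        (Fermat.Agent.GTor.H2.heckeNormFn Kbar (M * q * q) ℓ f)

/-- **NORM-VAL for `V₀₂`** at level `M q²`: `T_ℓ` maps inertia-fixed units to units. -/
def NV02At : Prop :=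
  ∀ (ℓ : ℕ) [NeZero ℓ], ℓ.Prime → ¬ ℓ ∣ M * q * q →
    ∀ f : FN (M * q * q), f ∈ L0 A (M * q * q) →
      IsVU (V02 A (M * q * q) q M B k (lvl q M) hB) f →
      IsVU (V02 A (M * q * q) q M B k (lvl q M) hB)
        (Fermat.Agent.GTor.H2.heckeNormFn Kbar (M * q * q) ℓ f)

end Defs

/-- **NV20**, all levels. -/
def Stmt_NV20 : Prop :=
  ∀ (A : ValuationSubring Kbar) (q M : ℕ) (hq : q.Prime)
    [NeZero M] [NeZero q] [NeZero (M * q * q)], ¬ q ∣ M → A.LiesOverPrime q → NV20At A q M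

/-- **NV11**, all levels. -/
def Stmt_NV11 : Prop :=
  ∀ (A : ValuationSubring Kbar) (q M : ℕ) (B k : ℤ) (hB : B * M + k * q = 1) (hq : q.Prime)
    [NeZero M] [NeZero q] [NeZero (M * q * q)], ¬ q ∣ M → A.LiesOverPrime q →
    NV11At A q M B k hB hq

/-- **NV02**, all levels. -/
def Stmt_NV02 : Prop :=
  ∀ (A : ValuationSubring Kbar) (q M : ℕ) (B k : ℤ) (hB : B * M + k * q = 1) (hq : q.Prime)
    [NeZero M] [NeZero q] [NeZero (M * q * q)], ¬ q ∣ M → A.LiesOverPrime q →
    NV02At A q M B k hB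

end Fermat.Agent.S59.LL.SQ.H33

end
end
-- ==== END Fermat.Agent.S59.LL.SQ.H33_CompEisDefs

-- ==== BEGIN Fermat.Agent.S59.LL.SQ.H35_MidTower
section

/-!
# S59 / LL / SQ, leaf OLD-RED at `q²` (helper35): the middle cusp in the Hecke tower

Level `N = M q²`, `q ∤ M`, `ℓ` prime to `N`; `cM` the expansion at the middle cusp of level `N`
(helper88), `cMup` the expansion at the middle cusp of level `N ℓ = (M ℓ) q²`.

* `exists_inertia_pow` : the inertia group of a place over `q` acts on the `q`-th roots of unity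
  through all of `(ℤ/q)ˣ`;
* `cMup_comp_beta` : `cMup ∘ β = (t ↦ t ^ ℓ) ∘ cM`;
* `cMup_alpha_arith` : `cMup (α (σ x)) = σ (cM x)` for `σ` with `σ (ζ ^ B) = ζ ^ B'`;
* `exists_inertia_mid` : such a `σ` exists in the inertia group.
-/

set_option autoImplicit false
set_option linter.style.haveILetI false
set_option linter.unusedSectionVars false
set_option synthInstance.maxHeartbeats 400000
set_option maxHeartbeats 1000000

noncomputable section

open AlgebraicCurve ModularCurve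
open Fermat.Agent.S24 Fermat.Agent.BAD Fermat.Agent.BAD.H88
open Fermat.Agent.S28 Fermat.Agent.S28.H73 Fermat.Agent.RED.H73 Fermat.Agent.RED.H17
open Fermat.Agent.S36.NU.H88 Fermat.Agent.S36.NU.H23

namespace Fermat.Agent.S59.LL.SQ.H35

section Cyclo

/-- The inertia group of a place over `q` acts on the `q`-th roots of unity through all of
`(ℤ/q)ˣ`. -/
theorem exists_inertia_pow (A : ValuationSubring Kbar) (q : ℕ) (hq : q.Prime)
    (hA : A.LiesOverPrime q) (m : ℕ) (hm : m.Coprime q) :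
    ∃ σ ∈ A.inertiaSubgroupIn ℚ, ∀ μ : Kbar, μ ^ q = 1 → σ μ = μ ^ m :=
  Fermat.Agent.Tate.T7.H52.stmt_CYC q hq A hA m
    ((Nat.Prime.coprime_iff_not_dvd hq).1 hm.symm)

end Cyclo

section MidTower

variable (q M ℓ : ℕ) (B k B' k' : ℤ) (hB : B * M + k * q = 1)
  (hB' : B' * ((M * ℓ : ℕ) : ℤ) + k' * q = 1) (hq : q.Prime)
  [NeZero M] [NeZero q] [NeZero ℓ] [NeZero (M * q * q)] [NeZero (M * q * q * ℓ)]

omit [NeZero M] [NeZero q] [NeZero ℓ] [NeZero (M * q * q)] [NeZero (M * q * q * ℓ)] in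
theorem lvlUp : M * q * q * ℓ = M * ℓ * (q * q) := by ring

omit [NeZero M] [NeZero q] [NeZero ℓ] [NeZero (M * q * q)] [NeZero (M * q * q * ℓ)] in
/-- The two Bezout relations are compatible. -/
theorem bez_rel (hB : B * M + k * q = 1) (hB' : B' * ((M * ℓ : ℕ) : ℤ) + k' * q = 1) :
    B' * ℓ = B + q * (B' * ℓ * k - B * k') := by
  push_cast at hB'
  linear_combination (-(B' * ℓ)) * hB + B * hB'

omit [NeZero M] [NeZero ℓ] [NeZero (M * q * q)] [NeZero (M * q * q * ℓ)] in
/-- `z' ^ ℓ = z` for the roots of unity of the two middle cusps. -/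
theorem zMid_up_pow (hB : B * M + k * q = 1) (hB' : B' * ((M * ℓ : ℕ) : ℤ) + k' * q = 1) :
    (zetaK q ^ B') ^ ℓ = zetaK q ^ B := by
  have hζ := (isPrimitiveRoot_zetaK q).pow_eq_one
  rw [← zpow_natCast, ← zpow_mul, bez_rel q M ℓ B k B' k' hB hB',
    zpow_add₀ (zetaK_ne_zero q), zpow_mul, zpow_natCast, hζ, one_zpow, mul_one]

include hB' hq

/-- The expansion at the middle cusp of level `M q² ℓ`. -/
abbrev cMup : FN (M * q * q * ℓ) →ₐ[Kbar] LaurentSeries Kbar :=
  cMid (M * q * q * ℓ) q (M * ℓ) B' k' (lvlUp q M ℓ) hB' hq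

theorem cMup_jdF1 (D d d' : ℕ) (hD : D = d) (hM : M * ℓ = d * d') [NeZero D]
    (h : D ∣ M * q * q * ℓ) :
    cMup q M ℓ B' k' hB' hq (jdF (M * q * q * ℓ) D h) = qExpand Kbar D jBar := by
  subst hD
  exact cMid_jdF1 _ q (M * ℓ) B' k' _ hB' hq D d' hM h

theorem cMup_jdF2 (D d d' : ℕ) (hD : D = d * q) (hM : M * ℓ = d * d') [NeZero D]
    (h : D ∣ M * q * q * ℓ) :
    cMup q M ℓ B' k' hB' hq (jdF (M * q * q * ℓ) D h) = qExpand Kbar D jBar := by
  subst hD
  exact cMid_jdF2 _ q (M * ℓ) B' k' _ hB' hq d d' hM h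

theorem cMup_jdF3 (D d d' : ℕ) (hD : D = d * (q * q)) (hM : M * ℓ = d * d') [NeZero D]
    [NeZero d] (h : D ∣ M * q * q * ℓ) :
    cMup q M ℓ B' k' hB' hq (jdF (M * q * q * ℓ) D h)
      = twist (zetaK q ^ B') (qExpand Kbar d jBar) := by
  subst hD
  exact cMid_jdF3 _ q (M * ℓ) B' k' _ hB' hq d d' hM h

include hB

/-- **`cMup ∘ β = (t ↦ t ^ ℓ) ∘ cM`.** -/
theorem cMup_comp_beta :
    (cMup q M ℓ B' k' hB' hq).comp (heckeBetaBar Kbar (M * q * q) ℓ)
      = (qExpandAlgHomC Kbar ℓ).comp (cM q M B k hB hq) := by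
  apply algHom_ext_of_adjoin _ (adjoin_jdF (M * q * q))
  rintro x ⟨D, hD0, hD, rfl⟩
  have hℓ0 : 0 < ℓ := Nat.pos_of_ne_zero (NeZero.ne ℓ)
  haveI : NeZero (D * ℓ) := ⟨(Nat.mul_pos (Nat.pos_of_ne_zero (NeZero.ne D)) hℓ0).ne'⟩
  rw [AlgHom.comp_apply, AlgHom.comp_apply, beta_jdF, qExpandAlgHomC_apply]
  obtain ⟨d, d', hM, h | h | h⟩ := mid_dvd_cases (M * q * q) q M B k (lvl q M) hB hq D hD
  · rw [cMup_jdF1 q M ℓ B' k' hB' hq (D * ℓ) (D * ℓ) d' rfl (by rw [hM, h]; ring) _,
      cM_jdF1 q M B k hB hq D d d' h hM hD, qExpand_qExpand]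
    exact qExpand_congr (mul_comm D ℓ) _
  · rw [cMup_jdF2 q M ℓ B' k' hB' hq (D * ℓ) (d * ℓ) d' (by rw [h]; ring) (by rw [hM]; ring) _,
      cM_jdF2 q M B k hB hq D d d' h hM hD, qExpand_qExpand]
    exact qExpand_congr (mul_comm D ℓ) _
  · have hd0 : 0 < d := by
      rcases Nat.eq_zero_or_pos d with h0 | h0
      · exfalso
        apply NeZero.ne D
        rw [h, h0, zero_mul]
      · exact h0
    haveI : NeZero d := ⟨hd0.ne'⟩
    haveI : NeZero (d * ℓ) := ⟨(Nat.mul_pos hd0 hℓ0).ne'⟩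
    rw [cMup_jdF3 q M ℓ B' k' hB' hq (D * ℓ) (d * ℓ) d' (by rw [h]; ring) (by rw [hM]; ring) _,
      cM_jdF3 q M B k hB hq D d d' h hM hD, twist_qExpand, twist_qExpand, qExpand_qExpand]
    have e : (zetaK q ^ B') ^ ((d * ℓ : ℕ) : ℤ) = (zetaK q ^ B) ^ ((d : ℕ) : ℤ) := by
      rw [zpow_natCast, zpow_natCast, mul_comm d ℓ, pow_mul,
        zMid_up_pow q M ℓ B k B' k' hB hB']
    rw [e]
    exact qExpand_congr (mul_comm d ℓ) _

theorem cMup_beta (x : FN (M * q * q)) :
    cMup q M ℓ B' k' hB' hq (heckeBetaBar Kbar (M * q * q) ℓ x)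
      = qExpand Kbar ℓ (cM q M B k hB hq x) :=
  congrArg (fun f : FN (M * q * q) →ₐ[Kbar] LaurentSeries Kbar => f x)
    (cMup_comp_beta q M ℓ B k B' k' hB hB' hq)

/-- **`cMup (α (σ x)) = σ (cM x)`** for `σ` with `σ (ζ ^ B) = ζ ^ B'`. -/
theorem cMup_alpha_arith (σ : Kbar ≃ₐ[ℚ] Kbar) (hσ : σ (zetaK q ^ B) = zetaK q ^ B')
    (x : FN (M * q * q)) :
    cMup q M ℓ B' k' hB' hq (heckeAlphaBar Kbar (M * q * q) ℓ
        (arithmeticRingAut (modularFunctionFieldFull (M * q * q)) σ x))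
      = coeffMap (σ : Kbar →+* Kbar) (cM q M B k hB hq x) := by
  have hx : x ∈ IntermediateField.adjoin Kbar
      {x : FN (M * q * q) | ∃ (d : ℕ) (_ : NeZero d) (hd : d ∣ M * q * q),
        x = jdF (M * q * q) d hd} := by
    rw [adjoin_jdF]; exact IntermediateField.mem_top
  induction hx using IntermediateField.adjoin_induction with
  | mem y hy =>
    obtain ⟨D, hD0, hD, rfl⟩ := hy
    rw [arith_jdF, alpha_jdF]
    obtain ⟨d, d', hM, h | h | h⟩ := mid_dvd_cases (M * q * q) q M B k (lvl q M) hB hq D hD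
    · rw [cMup_jdF1 q M ℓ B' k' hB' hq D d (d' * ℓ) h (by rw [hM]; ring) _,
        cM_jdF1 q M B k hB hq D d d' h hM hD, qExpand_jBar, coeffMap_coeffEmb]
    · rw [cMup_jdF2 q M ℓ B' k' hB' hq D d (d' * ℓ) h (by rw [hM]; ring) _,
        cM_jdF2 q M B k hB hq D d d' h hM hD, qExpand_jBar, coeffMap_coeffEmb]
    · have hd0 : 0 < d := by
        rcases Nat.eq_zero_or_pos d with h0 | h0
        · exfalso
          apply NeZero.ne D
          rw [h, h0, zero_mul]
        · exact h0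
      haveI : NeZero d := ⟨hd0.ne'⟩
      rw [cMup_jdF3 q M ℓ B' k' hB' hq D d (d' * ℓ) h (by rw [hM]; ring) _,
        cM_jdF3 q M B k hB hq D d d' h hM hD, coeffMap_twist, qExpand_jBar, coeffMap_coeffEmb]
      congr 1
      exact hσ.symm
  | algebraMap c =>
    rw [arithmeticRingAut_algebraMap, AlgHom.commutes, AlgHom.commutes, AlgHom.commutes,
      coeffMap_algebraMap]
    rfl
  | add y z _ _ hy hz => rw [map_add, map_add, map_add, map_add, map_add, hy, hz]
  | inv y _ hy => rw [map_inv₀, map_inv₀, map_inv₀, map_inv₀, map_inv₀, hy]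
  | mul y z _ _ hy hz => rw [map_mul, map_mul, map_mul, map_mul, map_mul, hy, hz]

end MidTower

end Fermat.Agent.S59.LL.SQ.H35

end
end
-- ==== END Fermat.Agent.S59.LL.SQ.H35_MidTower

-- ==== BEGIN Fermat.Agent.S59.LL.SQ.H35_RootL0
section
attribute [local instance 10000] SubalgebraClass.toAlgebra
attribute [local instance 10000] HahnSeries.powerSeriesAlgebra

/-!
# S59 / LL / SQ, leaf OLD-RED at `q²` (helper35): roots of inertia-fixed functions

`A` a valuation ring of `ℚ̄`, `I` its inertia group, `L0 A N` the functions of level `N` fixed by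
`I`.

* `root_L0` : if `G ∈ L0 A N` and `div G = n · div h` (`n ≠ 0`) for a function `h` of level `N`,
  then `G = c · h₀ ^ n` with a constant `c` fixed by `I` and `h₀ ∈ L0 A N` with the divisor of `h`
  (normalisation by the leading coefficient of the `q`-expansion).
-/

set_option autoImplicit false
set_option linter.style.haveILetI false
set_option linter.unusedSectionVars false
set_option synthInstance.maxHeartbeats 400000
set_option maxHeartbeats 1000000

noncomputable section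

open AlgebraicCurve ModularCurve
open Fermat.Agent.S24 Fermat.Agent.BAD Fermat.Agent.BAD.H88
open Fermat.Agent.S36.NU.H23 Fermat.Agent.S36.NU.H26 Fermat.Agent.S36.H44

namespace Fermat.Agent.S59.LL.SQ.H35

/-- **Roots in `L0`.** -/
theorem root_L0 (A : ValuationSubring Kbar) {N : ℕ} [NeZero N] (n : ℕ) (hn : n ≠ 0)
    (G : FN N) (hG0 : G ≠ 0) (hG : G ∈ L0 A N) (h : FN N) (hh0 : h ≠ 0)
    (hord : ∀ P : Place Kbar (FN N), P.ord G = (n : ℤ) * P.ord h) :
    ∃ (c : Kbar) (h₀ : FN N), c ≠ 0 ∧ (∀ σ ∈ A.inertiaSubgroupIn ℚ, σ c = c) ∧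
      h₀ ≠ 0 ∧ h₀ ∈ L0 A N ∧ (∀ P : Place Kbar (FN N), P.ord h₀ = P.ord h) ∧
      G = algebraMap Kbar (FN N) c * h₀ ^ n := by
  have hhn0 : h ^ n ≠ 0 := pow_ne_zero n hh0
  have hu : ∀ P : Place Kbar (FN N), P.ord (G * (h ^ n)⁻¹) = 0 := by
    intro P
    rw [P.ord_mul hG0 (inv_ne_zero hhn0), P.ord_inv, Fermat.Agent.RED.H17.ord_pow, hord P]
    ring
  obtain ⟨c₁, hc₁⟩ := Fermat.Agent.FL.H2.exists_const_of_ord_eq_zero (isFF_FN N) hu
  have hc₁0 : c₁ ≠ 0 := by
    rintro rfl
    rw [map_zero] at hc₁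
    exact mul_ne_zero hG0 (inv_ne_zero hhn0) hc₁.symm
  have hG1 : G = algebraMap Kbar (FN N) c₁ * h ^ n := by
    rw [hc₁, inv_mul_cancel_right₀ hhn0]
  -- normalise `h`
  set a : Kbar := Fermat.Agent.S36.H61.lcQ N h with ha
  have ha0 : a ≠ 0 := (Fermat.Agent.S36.H61.leadCoeffH N ⊤).lc_ne_zero h hh0
  set h₀ : FN N := algebraMap Kbar (FN N) a⁻¹ * h with hh₀
  have hai0 : algebraMap Kbar (FN N) a⁻¹ ≠ 0 :=
    (map_ne_zero_iff _ (algebraMap Kbar (FN N)).injective).mpr (inv_ne_zero ha0)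
  have hh₀0 : h₀ ≠ 0 := mul_ne_zero hai0 hh0
  have hlc : Fermat.Agent.S36.H61.lcQ N h₀ = 1 := by
    rw [hh₀, lcQ_mul', lcQ_algebraMap', ← ha, inv_mul_cancel₀ ha0]
  set c : Kbar := c₁ * a ^ n with hc
  have hc0 : c ≠ 0 := mul_ne_zero hc₁0 (pow_ne_zero n ha0)
  have hG2 : G = algebraMap Kbar (FN N) c * h₀ ^ n := by
    have h0 : algebraMap Kbar (FN N) (a ^ n) * algebraMap Kbar (FN N) (a⁻¹ ^ n) = 1 := by
      rw [← map_mul, inv_pow, mul_inv_cancel₀ (pow_ne_zero n ha0), map_one]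
    rw [hG1, hc, hh₀, mul_pow, map_mul, ← map_pow (algebraMap Kbar (FN N)) a⁻¹ n, mul_assoc,
      ← mul_assoc (algebraMap Kbar (FN N) (a ^ n)), h0, one_mul]
  have hlcG : Fermat.Agent.S36.H61.lcQ N G = c := by
    rw [hG2, lcQ_mul', lcQ_algebraMap', lcQ_pow', hlc, one_pow, mul_one]
  have hcfix : ∀ σ ∈ A.inertiaSubgroupIn ℚ, σ c = c := by
    intro σ hσ
    rw [← hlcG, ← lcQ_arith, hG σ hσ]
  have hh₀fix : h₀ ∈ L0 A N := by
    intro σ hσ
    set s := arithmeticRingAut (modularFunctionFieldFull N) σ with hs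
    have h1 : s G = G := hG σ hσ
    rw [hG2, map_mul, map_pow, hs, arithmeticRingAut_algebraMap, hcfix σ hσ, ← hs] at h1
    have hc0' : algebraMap Kbar (FN N) c ≠ 0 :=
      (map_ne_zero_iff _ (algebraMap Kbar (FN N)).injective).mpr hc0
    have h2 : s h₀ ^ n = h₀ ^ n := mul_left_cancel₀ hc0' h1
    have hsg0 : s h₀ ≠ 0 := (map_ne_zero_iff _ s.injective).mpr hh₀0
    have h3 : (s h₀ * h₀⁻¹) ^ n = 1 := by
      rw [mul_pow, h2, inv_pow, mul_inv_cancel₀ (pow_ne_zero n hh₀0)]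
    have hu' : ∀ Q : Place Kbar (FN N), Q.ord (s h₀ * h₀⁻¹) = 0 := by
      intro Q
      have h4 : (n : ℤ) * Q.ord (s h₀ * h₀⁻¹) = 0 := by
        rw [← Fermat.Agent.RED.H17.ord_pow, h3, Q.ord_one]
      rcases mul_eq_zero.mp h4 with h5 | h5
      · exact absurd (by exact_mod_cast h5) hn
      · exact h5
    obtain ⟨c', hc'⟩ := Fermat.Agent.FL.H2.exists_const_of_ord_eq_zero (isFF_FN N) hu'
    have h6 : Fermat.Agent.S36.H61.lcQ N (s h₀ * h₀⁻¹) * Fermat.Agent.S36.H61.lcQ N h₀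
        = Fermat.Agent.S36.H61.lcQ N (s h₀) := by
      rw [← lcQ_mul', inv_mul_cancel_right₀ hh₀0]
    rw [← hc', lcQ_algebraMap', hs, lcQ_arith, hlc, map_one, mul_one] at h6
    rw [h6, map_one] at hc'
    have h7 : s h₀ = h₀ := by
      have := congrArg (· * h₀) hc'
      simp only [one_mul, inv_mul_cancel_right₀ hh₀0] at this
      exact this.symm
    exact h7
  refine ⟨c, h₀, hc0, hcfix, hh₀0, hh₀fix, fun Q => ?_, hG2⟩
  rw [hh₀, Fermat.Agent.RED.H17.ord_algebraMap_mul Q (inv_ne_zero ha0)]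

end Fermat.Agent.S59.LL.SQ.H35

end
end
-- ==== END Fermat.Agent.S59.LL.SQ.H35_RootL0

-- ==== BEGIN Fermat.Agent.S59.LL.SQ.H40_EigAbs
section

/-!
# S59, package LL / SQ, abstract algebra for step (T) (helper40)

* `exists_eigenvector_of_eigenfunctional`: a commuting family of endomorphisms of a
  finite-dimensional vector space which has a nonzero simultaneous eigen-FUNCTIONAL with
  eigenvalues `t` has a nonzero simultaneous eigenvector with the same eigenvalues.
* `exists_eigen_of_map_eigen`: if `φ : Y → J` is equivariant for two families of operators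
  (commuting on `Y`, `Y` finite-dimensional) and `φ y` is a nonzero simultaneous eigenvector in `J`,
  then `Y` contains a nonzero simultaneous eigenvector with the same eigenvalues.
  [Use: `x = α^* y + β^* y'` in `J₀(M'q²)[p]`, `φ = α^* + β^*` on `J₀(M'q)[p]²`.]
-/

set_option autoImplicit false

namespace Fermat.Agent.S59.LL.SQ.H40

open Module

/-- A commuting family of nilpotent endomorphisms of a nonzero finite-dimensional space has a
common kernel vector. -/
theorem exists_common_kernel_of_nilpotent {k : Type*} [Field k] {ι : Type*} :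
    ∀ (n : ℕ) (M : Type*) [AddCommGroup M] [Module k M] [FiniteDimensional k M]
      (U : ι → Module.End k M), finrank k M = n → n ≠ 0 →
      (∀ i j, Commute (U i) (U j)) → (∀ i, IsNilpotent (U i)) →
      ∃ m : M, m ≠ 0 ∧ ∀ i, U i m = 0 := by
  intro n
  induction n using Nat.strong_induction_on with
  | _ n ih =>
    intro M _ _ _ U hn hn0 hcomm hnil
    by_cases hall : ∀ i, U i = 0
    · have : Nontrivial M := Module.nontrivial_of_finrank_pos (R := k) (by omega)
      obtain ⟨m, hm⟩ := exists_ne (0 : M)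
      exact ⟨m, hm, fun i => by rw [hall i]; rfl⟩
    · push Not at hall
      obtain ⟨i₁, hi₁⟩ := hall
      -- `N = ker (U i₁)` is proper, nonzero and stable
      set N : Submodule k M := LinearMap.ker (U i₁) with hN
      have hNtop : N ≠ ⊤ := by
        intro h
        apply hi₁
        exact LinearMap.ker_eq_top.mp h
      have hNbot : N ≠ ⊥ := by
        intro h
        have hinj : Function.Injective (U i₁) := LinearMap.ker_eq_bot.mp h
        obtain ⟨d, hd⟩ := hnil i₁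
        have : Nontrivial M := Module.nontrivial_of_finrank_pos (R := k) (by omega)
        obtain ⟨m, hm⟩ := exists_ne (0 : M)
        have hinjd : Function.Injective ((U i₁) ^ d) := by
          rw [Module.End.coe_pow]
          exact hinj.iterate d
        apply hm
        apply hinjd
        rw [hd]
        simp
      have hstab : ∀ i, ∀ x ∈ N, U i x ∈ N := by
        intro i x hx
        rw [hN, LinearMap.mem_ker] at hx ⊢
        have := (hcomm i₁ i).eq
        calc U i₁ (U i x) = (U i₁ * U i) x := rfl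
          _ = (U i * U i₁) x := by rw [this]
          _ = U i (U i₁ x) := rfl
          _ = 0 := by rw [hx, map_zero]
      let U' : ι → Module.End k N := fun i => (U i).restrict (hstab i)
      have hlt : finrank k N < n := by
        rw [← hn]
        exact Submodule.finrank_lt hNtop
      have hpos : finrank k N ≠ 0 := by
        intro h
        exact hNbot (Submodule.finrank_eq_zero.mp h)
      have hcomm' : ∀ i j, Commute (U' i) (U' j) := by
        intro i j
        apply LinearMap.ext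
        intro x
        apply Subtype.ext
        show U i (U j x) = U j (U i x)
        have := (hcomm i j).eq
        calc U i (U j x) = (U i * U j) x := rfl
          _ = (U j * U i) x := by rw [this]
          _ = U j (U i x) := rfl
      have hnil' : ∀ i, IsNilpotent (U' i) := by
        intro i
        obtain ⟨d, hd⟩ := hnil i
        refine ⟨d, ?_⟩
        apply LinearMap.ext
        intro x
        apply Subtype.ext
        have h1 : ∀ (e : ℕ) (y : N), (((U' i) ^ e) y : M) = ((U i) ^ e) (y : M) := by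
          intro e
          induction e with
          | zero => intro y; rfl
          | succ e ihe =>
            intro y
            rw [pow_succ, pow_succ, Module.End.mul_apply, Module.End.mul_apply, ihe]
            rfl
        rw [h1, hd]
        rfl
      obtain ⟨m, hm0, hm⟩ := ih (finrank k N) hlt N U' rfl hpos hcomm' hnil'
      refine ⟨(m : M), fun h => hm0 (Subtype.ext h), fun i => ?_⟩
      have := congrArg Subtype.val (hm i)
      exact this

/-- **Eigen-functional ⟹ eigenvector**, for a commuting family on a finite-dimensional space. -/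
theorem exists_eigenvector_of_eigenfunctional {k : Type*} [Field k] {ι : Type*} :
    ∀ (n : ℕ) (M : Type*) [AddCommGroup M] [Module k M] [FiniteDimensional k M]
      (T : ι → Module.End k M) (t : ι → k) (lam : M →ₗ[k] k), finrank k M = n →
      (∀ i j, Commute (T i) (T j)) → lam ≠ 0 → (∀ i m, lam (T i m) = t i * lam m) →
      ∃ m : M, m ≠ 0 ∧ ∀ i, T i m = t i • m := by
  intro n
  induction n using Nat.strong_induction_on with
  | _ n ih =>
    intro M _ _ _ T t lam hn hcomm hlam0 hlam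
    have hMnt : ∃ m₀ : M, lam m₀ ≠ 0 := by
      by_contra h
      push Not at h
      exact hlam0 (LinearMap.ext h)
    obtain ⟨m₀, hm₀⟩ := hMnt
    have hn0 : n ≠ 0 := by
      intro h
      rw [h] at hn
      have : Subsingleton M := Module.finrank_zero_iff.mp hn
      apply hm₀
      rw [Subsingleton.elim m₀ 0, map_zero]
    let U : ι → Module.End k M := fun i => T i - t i • (1 : Module.End k M)
    have hUcomm : ∀ i j, Commute (U i) (U j) := by
      intro i j
      have h1 : Commute (T i) (t j • (1 : Module.End k M)) :=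
        (Commute.one_right (T i)).smul_right (t j)
      have h2 : Commute (t i • (1 : Module.End k M)) (T j) :=
        (Commute.one_left (T j)).smul_left (t i)
      have h3 : Commute (t i • (1 : Module.End k M)) (t j • (1 : Module.End k M)) :=
        ((Commute.one_left (1 : Module.End k M)).smul_left (t i)).smul_right (t j)
      exact ((hcomm i j).sub_right h1).sub_left (h2.sub_right h3)
    have hlamU : ∀ i m, lam (U i m) = 0 := by
      intro i m
      show lam (T i m - (t i • (1 : Module.End k M)) m) = 0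
      rw [map_sub, hlam, LinearMap.smul_apply, Module.End.one_apply, map_smul, smul_eq_mul,
        sub_self]
    have hlamUd : ∀ i (d : ℕ), d ≠ 0 → ∀ m, lam (((U i) ^ d) m) = 0 := by
      intro i d hd m
      obtain ⟨e, rfl⟩ := Nat.exists_eq_succ_of_ne_zero hd
      rw [pow_succ', Module.End.mul_apply]
      exact hlamU i _
    by_cases hallnil : ∀ i, IsNilpotent (U i)
    · obtain ⟨m, hm0, hm⟩ := exists_common_kernel_of_nilpotent n M U hn hn0 hUcomm hallnil
      refine ⟨m, hm0, fun i => ?_⟩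
      have := hm i
      have h2 : T i m - t i • m = 0 := this
      exact sub_eq_zero.mp h2
    · push Not at hallnil
      obtain ⟨i₀, hi₀⟩ := hallnil
      -- Fitting decomposition for `U i₀`
      have hev := LinearMap.eventually_isCompl_ker_pow_range_pow (U i₀)
      obtain ⟨d, hd⟩ := (hev.and (Filter.eventually_ge_atTop 1)).exists
      obtain ⟨hcompl, hd1⟩ := hd
      set M₀ : Submodule k M := LinearMap.ker ((U i₀) ^ d) with hM₀
      have hM₀top : M₀ ≠ ⊤ := by
        intro h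
        apply hi₀
        exact ⟨d, LinearMap.ker_eq_top.mp h⟩
      have hstab : ∀ i, ∀ x ∈ M₀, T i x ∈ M₀ := by
        intro i x hx
        rw [hM₀, LinearMap.mem_ker] at hx ⊢
        have hc : Commute ((U i₀) ^ d) (T i) := by
          have h1 : Commute (U i₀) (T i) := by
            have h2 : Commute (t i₀ • (1 : Module.End k M)) (T i) :=
              (Commute.one_left (T i)).smul_left (t i₀)
            exact (hcomm i₀ i).sub_left h2
          exact h1.pow_left d
        calc ((U i₀) ^ d) (T i x) = ((U i₀) ^ d * T i) x := rfl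
          _ = (T i * (U i₀) ^ d) x := by rw [hc.eq]
          _ = T i (((U i₀) ^ d) x) := rfl
          _ = 0 := by rw [hx, map_zero]
      -- `lam` is nonzero on `M₀`
      have hlamM₀ : lam.comp M₀.subtype ≠ 0 := by
        intro h
        apply hm₀
        have hsum : m₀ ∈ M₀ ⊔ LinearMap.range ((U i₀) ^ d) := by
          rw [hcompl.sup_eq_top]
          exact Submodule.mem_top
        obtain ⟨a, ha, b, hb, hab⟩ := Submodule.mem_sup.mp hsum
        obtain ⟨c, rfl⟩ := hb
        rw [← hab, map_add, hlamUd i₀ d (by omega) c, add_zero]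
        have := LinearMap.congr_fun h ⟨a, ha⟩
        exact this
      let T' : ι → Module.End k M₀ := fun i => (T i).restrict (hstab i)
      have hlt : finrank k M₀ < n := by
        rw [← hn]
        exact Submodule.finrank_lt hM₀top
      have hcomm' : ∀ i j, Commute (T' i) (T' j) := by
        intro i j
        apply LinearMap.ext
        intro x
        apply Subtype.ext
        show T i (T j x) = T j (T i x)
        have := (hcomm i j).eq
        calc T i (T j x) = (T i * T j) x := rfl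
          _ = (T j * T i) x := by rw [this]
          _ = T j (T i x) := rfl
      obtain ⟨m, hm0, hm⟩ := ih (finrank k M₀) hlt M₀ T' t (lam.comp M₀.subtype) rfl hcomm'
        hlamM₀ (fun i m => hlam i m)
      refine ⟨(m : M), fun h => hm0 (Subtype.ext h), fun i => ?_⟩
      have := congrArg Subtype.val (hm i)
      exact this

/-- **Eigenvectors in the image of an equivariant map come from eigenvectors.** -/
theorem exists_eigen_of_map_eigen {k : Type*} [Field k] {ι : Type*} {Y J : Type*}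
    [AddCommGroup Y] [Module k Y] [FiniteDimensional k Y] [AddCommGroup J] [Module k J]
    (TY : ι → Module.End k Y) (TJ : ι → Module.End k J)
    (hcomm : ∀ i j, Commute (TY i) (TY j)) (φ : Y →ₗ[k] J)
    (hφ : ∀ i y, φ (TY i y) = TJ i (φ y)) (t : ι → k) (y : Y) (hx0 : φ y ≠ 0)
    (hx : ∀ i, TJ i (φ y) = t i • φ y) :
    ∃ z : Y, z ≠ 0 ∧ ∀ i, TY i z = t i • z := by
  classical
  -- `Y₀ = φ⁻¹ (k · x)`
  set x : J := φ y with hxdef
  set Y₀ : Submodule k Y := (Submodule.span k {x}).comap φ with hY₀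
  have hstab : ∀ i, ∀ z ∈ Y₀, TY i z ∈ Y₀ := by
    intro i z hz
    rw [hY₀, Submodule.mem_comap] at hz ⊢
    obtain ⟨c, hc⟩ := Submodule.mem_span_singleton.mp hz
    rw [hφ, ← hc, map_smul, hx i, smul_smul]
    exact Submodule.smul_mem _ _ (Submodule.mem_span_singleton_self x)
  -- the coordinate functional on `span {x}`
  -- functional on `Y₀`
  have hex : ∀ z : Y₀, ∃! c : k, c • x = φ z := by
    intro z
    obtain ⟨c, hc⟩ := Submodule.mem_span_singleton.mp z.2
    refine ⟨c, hc, fun c' hc' => ?_⟩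
    have : (c' - c) • x = 0 := by rw [sub_smul, hc', hc, sub_self]
    rcases smul_eq_zero.mp this with h | h
    · exact sub_eq_zero.mp h
    · exact absurd h hx0
  choose coord hcoord huniq using hex
  let lam : Y₀ →ₗ[k] k :=
    { toFun := coord
      map_add' := fun a b => by
        apply (huniq (a + b) _ _).symm
        rw [add_smul, hcoord, hcoord]
        simp
      map_smul' := fun c a => by
        apply (huniq (c • a) _ _).symm
        rw [RingHom.id_apply, smul_eq_mul, mul_smul, hcoord]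
        simp }
  have hyY₀ : y ∈ Y₀ := by
    rw [hY₀, Submodule.mem_comap]
    exact Submodule.mem_span_singleton_self x
  have hlam0 : lam ≠ 0 := by
    intro h
    have h1 : lam ⟨y, hyY₀⟩ = 0 := by rw [h]; rfl
    have h2 := hcoord ⟨y, hyY₀⟩
    have h3 : coord ⟨y, hyY₀⟩ = 0 := h1
    rw [h3, zero_smul] at h2
    exact hx0 h2.symm
  let T' : ι → Module.End k Y₀ := fun i => (TY i).restrict (hstab i)
  have hlam : ∀ i (m : Y₀), lam (T' i m) = t i * lam m := by
    intro i m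
    apply (huniq (T' i m) _ _).symm
    show (t i * coord m) • x = φ (TY i m)
    rw [hφ, ← hcoord m, map_smul, hx i, smul_smul, mul_comm]
  have hcomm' : ∀ i j, Commute (T' i) (T' j) := by
    intro i j
    apply LinearMap.ext
    intro z
    apply Subtype.ext
    show TY i (TY j z) = TY j (TY i z)
    have := (hcomm i j).eq
    calc TY i (TY j z) = (TY i * TY j) z := rfl
      _ = (TY j * TY i) z := by rw [this]
      _ = TY j (TY i z) := rfl
  obtain ⟨m, hm0, hm⟩ := exists_eigenvector_of_eigenfunctional (finrank k Y₀) Y₀ T' t lam rfl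
    hcomm' hlam0 hlam
  refine ⟨(m : Y), fun h => hm0 (Subtype.ext h), fun i => ?_⟩
  have := congrArg Subtype.val (hm i)
  exact this

end Fermat.Agent.S59.LL.SQ.H40

end
-- ==== END Fermat.Agent.S59.LL.SQ.H40_EigAbs

-- ==== BEGIN Fermat.Agent.S59.LL.SQ.H40_GlueAbs
section

/-!
# S59, package LL / SQ, step (T): abstract gluing data at the triple points (helper40)

Setting: helper79's `NUData` (S36 / NU-B): the conservation datum `D.T` of the higher level
(`q² M'`, valuations `i₂₀`, `i₁₁`, `i₀₂`), the datum `D.T'` of the lower level (`q M'`), the triple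
points `D.SS`.

* `GlueData n H a b` : the unit `H` has reductions `c · G i ^ n`, local generators at the triple
  points, and at every triple point `z` the values of `G i · red i s` (`s` a local generator) are
  `u`, `a z · u`, `b z · u` for `i = i₂₀, i₁₁, i₀₂` (the GLUING INVARIANTS of `H` are `(a, b)`);
* `GlueData.trivRed` : gluing invariants `(1, 1)` on `SS` is `NUData.TrivRed` (input of TI3);
* `GlueData.mul`, `GlueData.inv`, `GlueData.congr` : the gluing invariants are multiplicative;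
* `glueAt_of_gen` : the values for ONE local generator determine the values for all;
* `exists_glueData` : every unit whose three reductions are constants times `n`-th powers has
  gluing invariants, with values in `μ_n`.
-/

set_option autoImplicit false
set_option linter.style.haveILetI false

noncomputable section

open AlgebraicCurve

attribute [local instance] Classical.propDecidable

namespace Fermat.Agent.S59.LL.SQ.H40

open Fermat.Agent.RED.H17 Fermat.Agent.RED Fermat.Agent.BAD.H79 Fermat.Agent.BAD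
  Fermat.Agent.S36.NU.H79

variable {K L₀ L k ι Z : Type*} {E : ι → Type*} {K' L' L₁ L₂ : Type*}
  [Field K] [Field L₀] [Field L] [Algebra K L] [Algebra L₀ L] [Field k] [Fintype ι]
  [∀ i, Field (E i)] [∀ i, Algebra k (E i)] [Field K'] [Field L'] [Algebra K' L']
  [Field L₁] [Algebra k L₁] [Field L₂] [Algebra k L₂]

/-! ## Units of `TotN` -/

section Units

variable (T : TotN K L₀ L k ι Z E)

theorem rdN_mul_ne_zero {i : ι} {f g : L₀} (hf : T.rdN i f ≠ 0) (hg : T.rdN i g ≠ 0) :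
    T.rdN i (f * g) ≠ 0 := by
  rw [T.rdN_mul (T.mem_of_rdN_ne_zero hf) (T.mem_of_rdN_ne_zero hg)]
  exact mul_ne_zero hf hg

theorem ne_zero_of_rdN {i : ι} {f : L₀} (hf : T.rdN i f ≠ 0) : f ≠ 0 := by
  rintro rfl
  apply hf
  rw [T.rdN_of_mem (T.V i).zero_mem]
  exact map_zero _

theorem rdN_inv {i : ι} {f : L₀} (hf : T.rdN i f ≠ 0) : T.rdN i f⁻¹ = (T.rdN i f)⁻¹ := by
  have h1 := T.rdN_mul (T.mem_of_rdN_ne_zero hf) (T.inv_mem_of_rdN_ne_zero hf)
  rw [mul_inv_cancel₀ (ne_zero_of_rdN T hf), T.rdN_one] at h1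
  exact eq_inv_of_mul_eq_one_right h1.symm

theorem rdN_inv_ne_zero {i : ι} {f : L₀} (hf : T.rdN i f ≠ 0) : T.rdN i f⁻¹ ≠ 0 := by
  rw [rdN_inv T hf]
  exact inv_ne_zero hf

theorem rdN_pow_ne_zero {i : ι} {f : L₀} (hf : T.rdN i f ≠ 0) (m : ℕ) :
    T.rdN i (f ^ m) ≠ 0 := by
  rw [T.rdN_pow (T.mem_of_rdN_ne_zero hf)]
  exact pow_ne_zero m hf

end Units

variable (D : NUData K L₀ L k ι Z E K' L' L₁ L₂)

/-! ## Local generators -/

theorem IsGen.s_ne_zero {n : ℕ} {z : Z} {H s : L₀} (h : D.IsGen n z H s) : s ≠ 0 :=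
  ne_zero_of_rdN D.T (h.1 D.i₂₀)

theorem IsGen.mul {n : ℕ} {z : Z} {H H' s s' : L₀} (hH : H ≠ 0) (hH' : H' ≠ 0)
    (h : D.IsGen n z H s) (h' : D.IsGen n z H' s') : D.IsGen n z (H * H') (s * s') := by
  refine ⟨fun i => rdN_mul_ne_zero D.T (h.1 i) (h'.1 i), fun P hP => ?_⟩
  have e : H * H' * (s * s') ^ n = (H * s ^ n) * (H' * s' ^ n) := by ring
  have h1 : algebraMap L₀ L (H * s ^ n) ≠ 0 :=
    (map_ne_zero (algebraMap L₀ L)).2 (mul_ne_zero hH (pow_ne_zero n (IsGen.s_ne_zero D h)))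
  have h2 : algebraMap L₀ L (H' * s' ^ n) ≠ 0 :=
    (map_ne_zero (algebraMap L₀ L)).2 (mul_ne_zero hH' (pow_ne_zero n (IsGen.s_ne_zero D h')))
  rw [e, map_mul, Place.ord_mul _ h1 h2, h.2 P hP, h'.2 P hP, add_zero]

theorem IsGen.inv {n : ℕ} {z : Z} {H s : L₀} (h : D.IsGen n z H s) :
    D.IsGen n z H⁻¹ s⁻¹ := by
  refine ⟨fun i => rdN_inv_ne_zero D.T (h.1 i), fun P hP => ?_⟩
  have e : H⁻¹ * s⁻¹ ^ n = (H * s ^ n)⁻¹ := by rw [mul_inv, inv_pow]
  rw [e, map_inv₀, Place.ord_inv, h.2 P hP, neg_zero]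

/-- The quotient of two local generators of `H` at `z` is a unit of `R_z`. -/
theorem IsGen.quot {n : ℕ} (hn : n ≠ 0) {z : Z} {H s s₀ : L₀} (hH : H ≠ 0)
    (h : D.IsGen n z H s) (h₀ : D.IsGen n z H s₀) :
    (∀ i, D.T.rdN i (s * s₀⁻¹) ≠ 0) ∧
      ∀ P, D.T.ρ P = z → P.ord (algebraMap L₀ L (s * s₀⁻¹)) = 0 := by
  refine ⟨fun i => rdN_mul_ne_zero D.T (h.1 i) (rdN_inv_ne_zero D.T (h₀.1 i)), fun P hP => ?_⟩
  have hs : s ≠ 0 := IsGen.s_ne_zero D h
  have hs₀ : s₀ ≠ 0 := IsGen.s_ne_zero D h₀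
  have e : (s * s₀⁻¹) ^ n = (H * s ^ n) * (H * s₀ ^ n)⁻¹ := by
    have hX : s₀ ^ n ≠ 0 := pow_ne_zero n hs₀
    rw [mul_pow, inv_pow]
    generalize s₀ ^ n = X at hX ⊢
    generalize s ^ n = Y
    field_simp
  have h1 : algebraMap L₀ L (H * s ^ n) ≠ 0 :=
    (map_ne_zero (algebraMap L₀ L)).2 (mul_ne_zero hH (pow_ne_zero n hs))
  have h2 : algebraMap L₀ L (H * s₀ ^ n)⁻¹ ≠ 0 :=
    (map_ne_zero (algebraMap L₀ L)).2 (inv_ne_zero (mul_ne_zero hH (pow_ne_zero n hs₀)))
  have h3 : P.ord (algebraMap L₀ L ((s * s₀⁻¹) ^ n)) = 0 := by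
    rw [e, map_mul, Place.ord_mul _ h1 h2, map_inv₀, Place.ord_inv, h.2 P hP, h₀.2 P hP]
    simp
  rw [map_pow, ord_pow] at h3
  rcases mul_eq_zero.mp h3 with h4 | h4
  · exact absurd (by exact_mod_cast h4) hn
  · exact h4

/-- A unit for all valuations without zero or pole on the fibre of the triple point `z` takes
the same non-zero value on the three components at `z`. -/
theorem exists_common_value [Infinite k] (hP : HasPrincipalDivisors K L) {z : Z}
    (hz : z ∈ D.SS) {t : L₀} (hu : ∀ i, D.T.rdN i t ≠ 0)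
    (hgood : ∀ P, D.T.ρ P = z → P.ord (algebraMap L₀ L t) = 0) :
    ∃ τ : k, τ ≠ 0 ∧ ∀ i, HasValue (D.T.pt i z) (D.T.rdN i t) τ := by
  obtain ⟨τ, hτ0, hτ⟩ := D.T.exists_value_of_unit hP hu hgood (D.deg_one z hz) D.i₂₀
  have hR : D.T.InR z t := ⟨fun i => D.T.mem_of_rdN_ne_zero (hu i), fun P hPz =>
    regAt_of_ord_nonneg (hgood P hPz).ge⟩
  exact ⟨τ, hτ0, fun i => (D.glue z hz t hR D.i₂₀ i τ).mp hτ⟩

/-! ## Gluing data -/

/-- The values at the triple point `z` of the roots `G i` of the reductions of `H`, corrected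
by a local generator, are `u`, `a u`, `b u`. -/
def GlueAt (n : ℕ) (H : L₀) (G : ∀ i, E i) (z : Z) (a b : k) : Prop :=
  ∀ s : L₀, D.IsGen n z H s →
    ∃ u : k, u ≠ 0 ∧ HasValue (D.T.pt D.i₂₀ z) (G D.i₂₀ * D.T.rdN D.i₂₀ s) u ∧
      HasValue (D.T.pt D.i₁₁ z) (G D.i₁₁ * D.T.rdN D.i₁₁ s) (a * u) ∧
      HasValue (D.T.pt D.i₀₂ z) (G D.i₀₂ * D.T.rdN D.i₀₂ s) (b * u)

/-- **Gluing data**: `H` is a unit for the three valuations with local generators at the triple
points, reductions `c · G i ^ n` and gluing invariants `(a z, b z)` at `z ∈ SS`. -/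
structure GlueData (n : ℕ) (H : L₀) (a b : Z → k) : Prop where
  unit : ∀ i, D.T.rdN i H ≠ 0
  gen : ∀ z ∈ D.SS, ∃ s, D.IsGen n z H s
  ne : ∀ z ∈ D.SS, a z ≠ 0 ∧ b z ≠ 0
  glue : ∃ (c : k) (G : ∀ i, E i), c ≠ 0 ∧
    (∀ i, D.T.rdN i H = algebraMap k (E i) c * G i ^ n) ∧
    ∀ z ∈ D.SS, GlueAt D n H G z (a z) (b z)

/-- The values for one local generator determine the values for all. -/
theorem glueAt_of_gen [Infinite k] (hP : HasPrincipalDivisors K L) {n : ℕ} (hn : n ≠ 0)
    {H : L₀} (hH : H ≠ 0) (G : ∀ i, E i) {z : Z} (hz : z ∈ D.SS) {a b : k} {s₀ : L₀}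
    (h₀ : D.IsGen n z H s₀) {u : k} (hu : u ≠ 0)
    (h20 : HasValue (D.T.pt D.i₂₀ z) (G D.i₂₀ * D.T.rdN D.i₂₀ s₀) u)
    (h11 : HasValue (D.T.pt D.i₁₁ z) (G D.i₁₁ * D.T.rdN D.i₁₁ s₀) (a * u))
    (h02 : HasValue (D.T.pt D.i₀₂ z) (G D.i₀₂ * D.T.rdN D.i₀₂ s₀) (b * u)) :
    GlueAt D n H G z a b := by
  intro s hs
  obtain ⟨hq1, hq2⟩ := IsGen.quot D hn hH hs h₀
  obtain ⟨τ, hτ0, hτ⟩ := exists_common_value D hP hz hq1 hq2
  have key : ∀ i, G i * D.T.rdN i s = (G i * D.T.rdN i s₀) * D.T.rdN i (s * s₀⁻¹) := by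
    intro i
    have hs₀ : s₀ ≠ 0 := IsGen.s_ne_zero D h₀
    have e : s = s₀ * (s * s₀⁻¹) := by field_simp
    conv_lhs => rw [e]
    rw [D.T.rdN_mul (D.T.mem_of_rdN_ne_zero (h₀.1 i)) (D.T.mem_of_rdN_ne_zero (hq1 i)),
      mul_assoc]
  refine ⟨u * τ, mul_ne_zero hu hτ0, ?_, ?_, ?_⟩
  · rw [key]; exact h20.mul (hτ _)
  · rw [key, ← mul_assoc]; exact h11.mul (hτ _)
  · rw [key, ← mul_assoc]; exact h02.mul (hτ _)

namespace GlueData

variable {D}

theorem H_ne_zero {n : ℕ} {H : L₀} {a b : Z → k} (h : GlueData D n H a b) : H ≠ 0 :=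
  ne_zero_of_rdN D.T (h.unit D.i₂₀)

/-- Gluing invariants `(1, 1)` on the triple points: trivial reduction data. -/
theorem trivRed {n : ℕ} {H : L₀} {a b : Z → k} (h : GlueData D n H a b)
    (ha : ∀ z ∈ D.SS, a z = 1) (hb : ∀ z ∈ D.SS, b z = 1) : D.TrivRed n H := by
  obtain ⟨c, G, hc, hG, hgl⟩ := h.glue
  refine ⟨c, G, hc, hG, fun z hz s hs => ?_⟩
  obtain ⟨u, hu, h20, h11, h02⟩ := hgl z hz s hs
  rw [ha z hz, one_mul] at h11
  rw [hb z hz, one_mul] at h02
  refine ⟨u, hu, fun i => ?_⟩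
  rcases D.cases i with rfl | rfl | rfl
  · exact h20
  · exact h11
  · exact h02

/-- The gluing invariants only matter on the triple points. -/
theorem congr {n : ℕ} {H : L₀} {a b a' b' : Z → k} (h : GlueData D n H a b)
    (ha : ∀ z ∈ D.SS, a z = a' z) (hb : ∀ z ∈ D.SS, b z = b' z) : GlueData D n H a' b' := by
  obtain ⟨c, G, hc, hG, hgl⟩ := h.glue
  refine ⟨h.unit, h.gen, fun z hz => ?_, c, G, hc, hG, fun z hz => ?_⟩
  · rw [← ha z hz, ← hb z hz]; exact h.ne z hz
  · rw [← ha z hz, ← hb z hz]; exact hgl z hz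

/-- The gluing invariants are multiplicative. -/
theorem mul {n : ℕ} {H H' : L₀} {a b a' b' : Z → k} (h : GlueData D n H a b)
    (h' : GlueData D n H' a' b') : GlueData D n (H * H') (a * a') (b * b') := by
  obtain ⟨c, G, hc, hG, hgl⟩ := h.glue
  obtain ⟨c', G', hc', hG', hgl'⟩ := h'.glue
  have hH := h.H_ne_zero
  have hH' := h'.H_ne_zero
  refine ⟨fun i => rdN_mul_ne_zero D.T (h.unit i) (h'.unit i), fun z hz => ?_, fun z hz => ?_,
    c * c', fun i => G i * G' i, mul_ne_zero hc hc', fun i => ?_, fun z hz => ?_⟩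
  · obtain ⟨s, hs⟩ := h.gen z hz
    obtain ⟨s', hs'⟩ := h'.gen z hz
    exact ⟨s * s', IsGen.mul D hH hH' hs hs'⟩
  · exact ⟨mul_ne_zero (h.ne z hz).1 (h'.ne z hz).1, mul_ne_zero (h.ne z hz).2 (h'.ne z hz).2⟩
  · rw [D.T.rdN_mul (D.T.mem_of_rdN_ne_zero (h.unit i)) (D.T.mem_of_rdN_ne_zero (h'.unit i)),
      hG i, hG' i, map_mul, mul_pow]
    ring
  · intro s hs
    obtain ⟨s₁, hs₁⟩ := h.gen z hz
    -- `s₂ = s / s₁` is a local generator of `H'`
    have hs₁0 : s₁ ≠ 0 := IsGen.s_ne_zero D hs₁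
    have hs0 : s ≠ 0 := IsGen.s_ne_zero D hs
    have hs₂ : D.IsGen n z H' (s * s₁⁻¹) := by
      refine ⟨fun i => rdN_mul_ne_zero D.T (hs.1 i) (rdN_inv_ne_zero D.T (hs₁.1 i)),
        fun P hPz => ?_⟩
      have e : H' * (s * s₁⁻¹) ^ n = (H * H' * s ^ n) * (H * s₁ ^ n)⁻¹ := by
        have hX : s₁ ^ n ≠ 0 := pow_ne_zero n hs₁0
        rw [mul_pow, inv_pow]
        generalize s₁ ^ n = X at hX ⊢
        generalize s ^ n = Y
        field_simp
      have h1 : algebraMap L₀ L (H * H' * s ^ n) ≠ 0 :=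
        (map_ne_zero (algebraMap L₀ L)).2 (mul_ne_zero (mul_ne_zero hH hH') (pow_ne_zero n hs0))
      have h2 : algebraMap L₀ L (H * s₁ ^ n)⁻¹ ≠ 0 :=
        (map_ne_zero (algebraMap L₀ L)).2 (inv_ne_zero (mul_ne_zero hH (pow_ne_zero n hs₁0)))
      rw [e, map_mul, Place.ord_mul _ h1 h2, map_inv₀, Place.ord_inv, hs.2 P hPz, hs₁.2 P hPz]
      simp
    obtain ⟨u, hu, h20, h11, h02⟩ := hgl z hz s₁ hs₁
    obtain ⟨u', hu', h20', h11', h02'⟩ := hgl' z hz _ hs₂
    have key : ∀ i, G i * G' i * D.T.rdN i s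
        = (G i * D.T.rdN i s₁) * (G' i * D.T.rdN i (s * s₁⁻¹)) := by
      intro i
      have e : s = s₁ * (s * s₁⁻¹) := by field_simp
      conv_lhs => rw [e]
      rw [D.T.rdN_mul (D.T.mem_of_rdN_ne_zero (hs₁.1 i)) (D.T.mem_of_rdN_ne_zero (hs₂.1 i))]
      ring
    refine ⟨u * u', mul_ne_zero hu hu', ?_, ?_, ?_⟩
    · rw [key]; exact h20.mul h20'
    · rw [key]
      have e : (a * a') z * (u * u') = (a z * u) * (a' z * u') := by
        rw [Pi.mul_apply]; ring
      rw [e]; exact h11.mul h11'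
    · rw [key]
      have e : (b * b') z * (u * u') = (b z * u) * (b' z * u') := by
        rw [Pi.mul_apply]; ring
      rw [e]; exact h02.mul h02'

/-- The gluing invariants of the inverse. -/
theorem inv {n : ℕ} {H : L₀} {a b : Z → k} (h : GlueData D n H a b) :
    GlueData D n H⁻¹ a⁻¹ b⁻¹ := by
  obtain ⟨c, G, hc, hG, hgl⟩ := h.glue
  refine ⟨fun i => rdN_inv_ne_zero D.T (h.unit i), fun z hz => ?_, fun z hz => ?_,
    c⁻¹, fun i => (G i)⁻¹, inv_ne_zero hc, fun i => ?_, fun z hz => ?_⟩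
  · obtain ⟨s, hs⟩ := h.gen z hz
    exact ⟨s⁻¹, IsGen.inv D hs⟩
  · exact ⟨inv_ne_zero (h.ne z hz).1, inv_ne_zero (h.ne z hz).2⟩
  · rw [rdN_inv D.T (h.unit i), hG i, mul_inv, map_inv₀, inv_pow]
  · intro s hs
    have hs' : D.IsGen n z H s⁻¹ := by
      have := IsGen.inv D hs
      rwa [inv_inv] at this
    obtain ⟨u, hu, h20, h11, h02⟩ := hgl z hz _ hs'
    have key : ∀ i, (G i)⁻¹ * D.T.rdN i s = (G i * D.T.rdN i s⁻¹)⁻¹ := by
      intro i
      rw [rdN_inv D.T (hs.1 i), mul_inv, inv_inv]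
    refine ⟨u⁻¹, inv_ne_zero hu, ?_, ?_, ?_⟩
    · rw [key]; exact h20.inv (D.deg_one z hz _) hu
    · rw [key]
      have e : a⁻¹ z * u⁻¹ = (a z * u)⁻¹ := by rw [Pi.inv_apply, mul_inv]
      rw [e]; exact h11.inv (D.deg_one z hz _) (mul_ne_zero (h.ne z hz).1 hu)
    · rw [key]
      have e : b⁻¹ z * u⁻¹ = (b z * u)⁻¹ := by rw [Pi.inv_apply, mul_inv]
      rw [e]; exact h02.inv (D.deg_one z hz _) (mul_ne_zero (h.ne z hz).2 hu)

end GlueData

end Fermat.Agent.S59.LL.SQ.H40

end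
end
-- ==== END Fermat.Agent.S59.LL.SQ.H40_GlueAbs

-- ==== BEGIN Fermat.Agent.S59.LL.SQ.H40_Pull
section
attribute [local instance 10000] SubalgebraClass.toAlgebra
attribute [local instance 10000] HahnSeries.powerSeriesAlgebra

/-!
# S59, package LL / SQ, leaf EQUIV-PB (helper40): the degeneracy PULL-BACKS on `J₀`

* `pic0Pull φ hφ hFI : Pic0 K F →+ Pic0 K F'` : the pull-back of divisor classes of degree `0`
  along a finite morphism of function fields (generic);
* `alphaPull M q`, `betaPull M q : JZero M →+ JZero (M * q)` : the pull-backs along the two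
  degeneracy maps `heckeAlphaBar`, `heckeBetaBar`;
* `alpha_pull_norm_comm`, `beta_pull_norm_comm` : base change of the norm functions of `T_ℓ`
  (`ℓ ∤ M q`) along `α_q`, `β_q` (helper44's squares, `adjoin_alpha_jdF`, `stmt_GenJ`);
* `alphaPull_hecke`, `betaPull_hecke` : `α^* T_ℓ = T_ℓ α^*`, `β^* T_ℓ = T_ℓ β^*` for `ℓ ∤ M q`.
-/

set_option autoImplicit false
set_option linter.style.haveILetI false
set_option linter.unusedSectionVars false

noncomputable section

namespace Fermat.Agent.S59.LL.SQ.H40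

open AlgebraicCurve ModularCurve Fermat.Agent.S24 Fermat.Agent.Lib.HeckeComm
  Fermat.Agent.GTor Fermat.Agent.GTor.H2 Fermat.Agent.S36.H44

local notation "Kb" => AlgebraicClosure ℚ

section Generic

variable {K F F' : Type*} [Field K] [Field F] [Field F'] [Algebra K F] [Algebra K F']
variable [HasPrincipalDivisors K F']
variable (φ : F →ₐ[K] F') (hφ : φ.toRingHom.IsIntegral)
variable (hFI : FundamentalIdentityAlong K φ hφ)

/-- The pull-back on divisors of degree `0`. -/
def degZeroPull :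
    Divisor.degZero (K := K) (F := F) →+ Divisor.degZero (K := K) (F := F') :=
  ((Divisor.pullbackAlong φ hφ).comp (Divisor.degZero (K := K) (F := F)).subtype).codRestrict _
    (fun D => Divisor.pullbackAlong_mem_degZero φ hφ hFI D.2)

@[simp]
theorem coe_degZeroPull (D : Divisor.degZero (K := K) (F := F)) :
    (degZeroPull φ hφ hFI D : Divisor K F') = Divisor.pullbackAlong φ hφ (D : Divisor K F) :=
  rfl

/-- The pull-back on `Pic⁰`. -/
def pic0Pull : Pic0 K F →+ Pic0 K F' :=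
  QuotientAddGroup.map _ _ (degZeroPull φ hφ hFI) (by
    rintro ⟨D, hD0⟩ hD
    simp only [AddSubgroup.mem_addSubgroupOf] at hD ⊢
    exact Divisor.isPrincipal_pullbackAlong φ hφ hD)

theorem pic0Pull_mk (D : Divisor.degZero (K := K) (F := F)) :
    pic0Pull φ hφ hFI (Pic0.mk D) = Pic0.mk (degZeroPull φ hφ hFI D) :=
  rfl

/-- `φ^* (div f) = div (φ f)`. -/
theorem pullbackAlong_ord {f : F} (D : Divisor K F) (hD : ∀ v : Place K F, D v = v.ord f)
    (w : Place K F') :
    Divisor.pullbackAlong φ hφ D w = w.ord (φ f) := by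
  rw [Divisor.pullbackAlong_apply, hD, Place.ord_restrictAlong φ hφ]

end Generic

section Modular

variable (M q : ℕ) [NeZero M] [NeZero q]

theorem hasPD_FN (N : ℕ) [NeZero N] : HasPrincipalDivisors Kb (FN N) :=
  hasPrincipalDivisors_FN N

theorem alpha_FI : haveI := hasPD_FN (M * q)
    FundamentalIdentityAlong Kb (heckeAlphaBar Kb M q) (alpha_integral M q) :=
  Fermat.Agent.RED.H51.stmt_FFB_fundamental Kb _ _ (isFF_FN M) (isFF_FN (M * q))
    (heckeAlphaBar Kb M q) (alpha_integral M q) (hasPD_FN (M * q))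

theorem beta_FI : haveI := hasPD_FN (M * q)
    FundamentalIdentityAlong Kb (heckeBetaBar Kb M q) (beta_integral M q) :=
  Fermat.Agent.RED.H51.stmt_FFB_fundamental Kb _ _ (isFF_FN M) (isFF_FN (M * q))
    (heckeBetaBar Kb M q) (beta_integral M q) (hasPD_FN (M * q))

/-- `α^* : J₀(M) → J₀(M q)`. -/
def alphaPull : JZero M →+ JZero (M * q) :=
  haveI := hasPD_FN (M * q)
  pic0Pull (heckeAlphaBar Kb M q) (alpha_integral M q) (alpha_FI M q)

/-- `β^* : J₀(M) → J₀(M q)`. -/
def betaPull : JZero M →+ JZero (M * q) :=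
  haveI := hasPD_FN (M * q)
  pic0Pull (heckeBetaBar Kb M q) (beta_integral M q) (beta_FI M q)

theorem alphaPull_mk (D : Divisor.degZero (K := Kb) (F := FN M)) :
    haveI := hasPD_FN (M * q)
    alphaPull M q (Pic0.mk D)
      = Pic0.mk (degZeroPull (heckeAlphaBar Kb M q) (alpha_integral M q) (alpha_FI M q) D) :=
  rfl

theorem betaPull_mk (D : Divisor.degZero (K := Kb) (F := FN M)) :
    haveI := hasPD_FN (M * q)
    betaPull M q (Pic0.mk D)
      = Pic0.mk (degZeroPull (heckeBetaBar Kb M q) (beta_integral M q) (beta_FI M q) D) :=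
  rfl

variable (ℓ : ℕ) [NeZero ℓ]

/-- A pull-back commutes with the Hecke correspondence on divisors if it commutes with the norm
functions. -/
theorem pull_heckeDiv_comm_of (p : FN M →ₐ[Kb] FN (M * q)) (hp : p.toRingHom.IsIntegral)
    (hα : HeckeAlphaBarIntegral Kb M ℓ) (hβ : HeckeBetaBarIntegral Kb M ℓ)
    (hP : HasPrincipalDivisors Kb (laurentBaseChange Kb (modularFunctionFieldFull (M * ℓ))))
    (hfin : FiniteAlong Kb (heckeAlphaBar Kb M ℓ))
    (hN : NormFormulaAlong Kb (heckeAlphaBar Kb M ℓ) hfin)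
    (hα' : HeckeAlphaBarIntegral Kb (M * q) ℓ) (hβ' : HeckeBetaBarIntegral Kb (M * q) ℓ)
    (hP' : HasPrincipalDivisors Kb
      (laurentBaseChange Kb (modularFunctionFieldFull (M * q * ℓ))))
    (hfin' : FiniteAlong Kb (heckeAlphaBar Kb (M * q) ℓ))
    (hN' : NormFormulaAlong Kb (heckeAlphaBar Kb (M * q) ℓ) hfin')
    (hcomm : ∀ f : FN M, f ≠ 0 →
      p (heckeNormFn Kb M ℓ f) = heckeNormFn Kb (M * q) ℓ (p f)) :
    haveI := hasPD_FN (M * q)
    (Divisor.pullbackAlong p hp).comp (heckeDivBar (L := Kb) hα hβ)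
      = (heckeDivBar (L := Kb) hα' hβ').comp (Divisor.pullbackAlong p hp) := by
  haveI := hasPD_FN (M * q)
  haveI := hasPD_FN M
  refine eq_of_eq_on_principal _ _
    (FinPre.comp (finPre_pullbackAlong p hp) (finPre_heckeDivBar M ℓ hα hβ))
    (FinPre.comp (finPre_heckeDivBar (M * q) ℓ hα' hβ') (finPre_pullbackAlong p hp)) ?_
  intro f D hf hD
  apply Finsupp.ext
  intro w
  rw [AddMonoidHom.comp_apply, AddMonoidHom.comp_apply]
  have h1 := heckeDivBar_ord M ℓ hα hβ hfin hN D hf hD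
  have h2 : ∀ w : Place Kb (FN (M * q)), Divisor.pullbackAlong p hp D w = w.ord (p f) :=
    pullbackAlong_ord p hp D hD
  have hf2 : p f ≠ 0 := fun h0 => hf (p.toRingHom.injective (by simpa using h0))
  rw [pullbackAlong_ord p hp _ h1 w, heckeDivBar_ord (M * q) ℓ hα' hβ' hfin' hN' _ hf2 h2 w,
    hcomm f hf]

/-- **Base change of the norm function of `T_ℓ` along `α_q`.** -/
theorem alpha_pull_norm_comm (hℓ : ℓ.Prime) (hℓM : ¬ ℓ ∣ M * q) (f : FN M) :
    heckeAlphaBar Kb M q (heckeNormFn Kb M ℓ f)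
      = heckeNormFn Kb (M * q) ℓ (heckeAlphaBar Kb M q f) := by
  have hℓM' : ¬ ℓ ∣ M := fun h => hℓM (dvd_mul_of_dvd_left h q)
  rw [heckeNormFn_eq_normAlongHom, heckeNormFn_eq_normAlongHom]
  have h := normAlongHom_baseChange (heckeAlphaBar Kb M ℓ).toRingHom
    (heckeAlphaBar Kb (M * q) ℓ).toRingHom (heckeAlphaBar Kb M q).toRingHom
    (alphaLift M q ℓ).toRingHom
    (fun a => (RingHom.congr_fun (alpha_square M q ℓ) a).symm)
    (alpha_finite M ℓ) (alpha_finite (M * q) ℓ) (jdF (M * ℓ) (M * ℓ) dvd_rfl)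
    (stmt_GenJ M (M * ℓ) (dvd_mul_right M ℓ)) ?_ ?_ (heckeBetaBar Kb M ℓ f)
  · have e := alpha_square_beta M q ℓ f
    simp only [AlgHom.toRingHom_eq_coe, RingHom.coe_coe] at e h
    rw [e]
    exact h
  · have e : (alphaLift M q ℓ).toRingHom (jdF (M * ℓ) (M * ℓ) dvd_rfl)
        = heckeBetaBar Kb (M * q) ℓ (jdF (M * q) M (dvd_mul_right M q)) := by
      apply Subtype.ext
      simp only [AlgHom.toRingHom_eq_coe, RingHom.coe_coe, coe_alphaLift, coe_heckeBetaBar,
        Fermat.Agent.RED.H95.coe_jdF, qExpand_qExpand]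
      exact qExpand_congr (mul_comm M ℓ) _
    rw [e]
    exact Fermat.Agent.S35.H44.adjoin_alpha_jdF hℓ hℓM M (dvd_mul_right M q)
  · exact (Fermat.Agent.RED.H95.finrankAlong_alpha hℓ hℓM').trans
      (Fermat.Agent.RED.H95.finrankAlong_alpha hℓ hℓM).symm

/-- **Base change of the norm function of `T_ℓ` along `β_q`.** -/
theorem beta_pull_norm_comm (hℓ : ℓ.Prime) (hℓM : ¬ ℓ ∣ M * q) (f : FN M) :
    heckeBetaBar Kb M q (heckeNormFn Kb M ℓ f)
      = heckeNormFn Kb (M * q) ℓ (heckeBetaBar Kb M q f) := by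
  have hℓM' : ¬ ℓ ∣ M := fun h => hℓM (dvd_mul_of_dvd_left h q)
  rw [heckeNormFn_eq_normAlongHom, heckeNormFn_eq_normAlongHom]
  have h := normAlongHom_baseChange (heckeAlphaBar Kb M ℓ).toRingHom
    (heckeAlphaBar Kb (M * q) ℓ).toRingHom (heckeBetaBar Kb M q).toRingHom
    (betaLift M q ℓ).toRingHom
    (fun a => (RingHom.congr_fun (beta_square M q ℓ) a).symm)
    (alpha_finite M ℓ) (alpha_finite (M * q) ℓ) (jdF (M * ℓ) (M * ℓ) dvd_rfl)
    (stmt_GenJ M (M * ℓ) (dvd_mul_right M ℓ)) ?_ ?_ (heckeBetaBar Kb M ℓ f)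
  · have e := beta_square_beta M q ℓ f
    simp only [AlgHom.toRingHom_eq_coe, RingHom.coe_coe] at e h
    rw [e]
    exact h
  · have e : (betaLift M q ℓ).toRingHom (jdF (M * ℓ) (M * ℓ) dvd_rfl)
        = jdF (M * q * ℓ) (M * q * ℓ) dvd_rfl := by
      apply Subtype.ext
      simp only [AlgHom.toRingHom_eq_coe, RingHom.coe_coe, coe_betaLift,
        Fermat.Agent.RED.H95.coe_jdF, qExpand_qExpand]
      exact qExpand_congr (by ring) _
    rw [e]
    exact stmt_GenJ (M * q) (M * q * ℓ) (dvd_mul_right (M * q) ℓ)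
  · exact (Fermat.Agent.RED.H95.finrankAlong_alpha hℓ hℓM').trans
      (Fermat.Agent.RED.H95.finrankAlong_alpha hℓ hℓM).symm

end Modular

/-- A pull-back commutes with `T_ℓ` on `J₀` if it commutes with the norm functions. -/
theorem pic0Pull_hecke_of (M q : ℕ) [NeZero M] [NeZero q] (ℓ : Nat.Primes)
    (p : FN M →ₐ[Kb] FN (M * q)) (hp : p.toRingHom.IsIntegral)
    (hFI : haveI := hasPD_FN (M * q); FundamentalIdentityAlong Kb p hp)
    (hcomm : haveI : NeZero (ℓ : ℕ) := ⟨ℓ.2.ne_zero⟩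
      ∀ f : FN M, f ≠ 0 → p (heckeNormFn Kb M ℓ f) = heckeNormFn Kb (M * q) ℓ (p f))
    (y : JZero M) :
    haveI := hasPD_FN (M * q)
    pic0Pull p hp hFI (heckeOperatorBar M ℓ y)
      = heckeOperatorBar (M * q) ℓ (pic0Pull p hp hFI y) := by
  haveI : NeZero (ℓ : ℕ) := ⟨ℓ.2.ne_zero⟩
  haveI := hasPD_FN (M * q)
  obtain ⟨hα, hβ, hP, hfin, hFI0, hN⟩ := Fermat.Agent.RED.H51.stmt_HKA M ℓ
  obtain ⟨hα', hβ', hP', hfin', hFI', hN'⟩ := Fermat.Agent.RED.H51.stmt_HKA (M * q) ℓ
  have hdiv := pull_heckeDiv_comm_of M q ℓ p hp hα hβ hP hfin hN hα' hβ' hP' hfin' hN' hcomm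
  obtain ⟨D, rfl⟩ := Pic0.mk_surjective y
  rw [heckeOperatorBar_mk M ℓ hα hβ hP hfin hFI0 hN D, pic0Pull_mk, pic0Pull_mk,
    heckeOperatorBar_mk (M * q) ℓ hα' hβ' hP' hfin' hFI' hN']
  congr 1
  apply Subtype.ext
  exact congrArg (fun Φ : Divisor Kb (FN M) →+ Divisor Kb (FN (M * q)) =>
    Φ (D : Divisor Kb (FN M))) hdiv

/-- **`α^* T_ℓ = T_ℓ α^*`** for the primes `ℓ ∤ M q`. -/
theorem alphaPull_hecke (M q : ℕ) [NeZero M] [NeZero q] (ℓ : Nat.Primes)
    (hℓ : ¬ (ℓ : ℕ) ∣ M * q) (y : JZero M) :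
    alphaPull M q (heckeOperatorBar M ℓ y) = heckeOperatorBar (M * q) ℓ (alphaPull M q y) := by
  haveI : NeZero (ℓ : ℕ) := ⟨ℓ.2.ne_zero⟩
  exact pic0Pull_hecke_of M q ℓ (heckeAlphaBar Kb M q) (alpha_integral M q) (alpha_FI M q)
    (fun f _ => alpha_pull_norm_comm M q ℓ ℓ.2 hℓ f) y

/-- **`β^* T_ℓ = T_ℓ β^*`** for the primes `ℓ ∤ M q`. -/
theorem betaPull_hecke (M q : ℕ) [NeZero M] [NeZero q] (ℓ : Nat.Primes)
    (hℓ : ¬ (ℓ : ℕ) ∣ M * q) (y : JZero M) :
    betaPull M q (heckeOperatorBar M ℓ y) = heckeOperatorBar (M * q) ℓ (betaPull M q y) := by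
  haveI : NeZero (ℓ : ℕ) := ⟨ℓ.2.ne_zero⟩
  exact pic0Pull_hecke_of M q ℓ (heckeBetaBar Kb M q) (beta_integral M q) (beta_FI M q)
    (fun f _ => beta_pull_norm_comm M q ℓ ℓ.2 hℓ f) y

end Fermat.Agent.S59.LL.SQ.H40

end
end
-- ==== END Fermat.Agent.S59.LL.SQ.H40_Pull

-- ==== BEGIN Fermat.Agent.S59.LL.SQ.H56_CompAbs
section

/-!
# S59 / LL / SQ, leaf ST-RANK (d), abstract part (helper56): the component map

`Y` a commutative group (the inertia-fixed `n`-torsion classes), `U` a commutative group (the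
inertia-fixed functions), `δ : U → ℤ` additive (the difference of the two valuations), `R y h`
the relation "`h` is a Kummer function of `y`".  If every `y` has a Kummer function, Kummer
functions can be divided and multiplied by `n`-th powers, then the classes with a Kummer function
of `δ = 0` have index at most `n`:

`card_le_mul_card_of_delta : Nat.card Y ≤ n * Nat.card G`.

The component map is `y ↦ δ(h_y) / λ mod n`, `λ` the generator of `δ(U) ⊆ ℤ`.
This file contains no unproved statement.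
-/

set_option autoImplicit false

namespace Fermat.Agent.S59.LL.SQ.H56

section Abs

variable {Y U : Type*} [AddCommGroup Y] [CommGroup U]

theorem delta_one (δ : U → ℤ) (hδ : ∀ a b, δ (a * b) = δ a + δ b) : δ 1 = 0 := by
  have := hδ 1 1
  rw [mul_one] at this
  omega

theorem delta_inv (δ : U → ℤ) (hδ : ∀ a b, δ (a * b) = δ a + δ b) (a : U) : δ a⁻¹ = - δ a := by
  have := hδ a a⁻¹
  rw [mul_inv_cancel, delta_one δ hδ] at this
  omega

theorem delta_div (δ : U → ℤ) (hδ : ∀ a b, δ (a * b) = δ a + δ b) (a b : U) :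
    δ (a / b) = δ a - δ b := by
  rw [div_eq_mul_inv, hδ, delta_inv δ hδ]
  ring

theorem delta_pow (δ : U → ℤ) (hδ : ∀ a b, δ (a * b) = δ a + δ b) (a : U) (n : ℕ) :
    δ (a ^ n) = n * δ a := by
  induction n with
  | zero => rw [pow_zero, delta_one δ hδ]; simp
  | succ n ih => rw [pow_succ, hδ, ih]; push_cast; ring

theorem delta_zpow (δ : U → ℤ) (hδ : ∀ a b, δ (a * b) = δ a + δ b) (a : U) (n : ℤ) :
    δ (a ^ n) = n * δ a := by
  cases n with
  | ofNat n => rw [Int.ofNat_eq_natCast, zpow_natCast, delta_pow δ hδ]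
  | negSucc n =>
    rw [zpow_negSucc, delta_inv δ hδ, delta_pow δ hδ, Int.negSucc_eq]
    push_cast
    ring

/-- The values of `δ` are the multiples of one value. -/
theorem exists_generator (δ : U → ℤ) (hδ : ∀ a b, δ (a * b) = δ a + δ b) :
    ∃ (w₀ : U), ∀ u : U, ∃ t : ℤ, δ u = t * δ w₀ := by
  let Λ : AddSubgroup ℤ :=
    { carrier := Set.range δ
      zero_mem' := ⟨1, delta_one δ hδ⟩
      add_mem' := by
        rintro _ _ ⟨a, rfl⟩ ⟨b, rfl⟩
        exact ⟨a * b, hδ a b⟩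
      neg_mem' := by
        rintro _ ⟨a, rfl⟩
        exact ⟨a⁻¹, delta_inv δ hδ a⟩ }
  obtain ⟨lam, hlam⟩ := Int.subgroup_cyclic Λ
  have hmem : lam ∈ Λ := by
    rw [hlam]
    exact AddSubgroup.subset_closure (Set.mem_singleton lam)
  obtain ⟨w₀, hw₀⟩ := hmem
  refine ⟨w₀, fun u => ?_⟩
  have hu : δ u ∈ Λ := ⟨u, rfl⟩
  rw [hlam, AddSubgroup.mem_closure_singleton] at hu
  obtain ⟨t, ht⟩ := hu
  refine ⟨t, ?_⟩
  rw [hw₀, ← ht, smul_eq_mul]

/-- **The component map count.** -/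
theorem card_le_mul_card_of_delta (n : ℕ) (hn : 0 < n) (δ : U → ℤ)
    (hδ : ∀ a b, δ (a * b) = δ a + δ b) (R : Y → U → Prop)
    (hex : ∀ y, ∃ h, R y h)
    (hsub : ∀ y y' h h', R y h → R y' h' → R (y - y') (h / h'))
    (hpow : ∀ y h w, R y h → R y (h * w ^ n))
    (G : Set Y) (hG : ∀ y h, R y h → δ h = 0 → y ∈ G) :
    Nat.card Y ≤ n * Nat.card G := by
  classical
  rcases finite_or_infinite Y with hfin | hinf
  swap
  · rw [Nat.card_eq_zero_of_infinite]
    exact Nat.zero_le _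
  have : NeZero n := ⟨hn.ne'⟩
  have := Fintype.ofFinite Y
  obtain ⟨w₀, hw₀⟩ := exists_generator δ hδ
  choose hy hRy using hex
  choose t ht using fun y => hw₀ (hy y)
  let φ : Y → ZMod n := fun y => (t y : ZMod n)
  -- equal values of `φ` differ by an element of `G`
  have key : ∀ y y', φ y = φ y' → y - y' ∈ G := by
    intro y y' hφ
    have hd : (n : ℤ) ∣ t y - t y' := by
      rw [← ZMod.intCast_zmod_eq_zero_iff_dvd]
      push_cast
      exact sub_eq_zero.2 hφ
    obtain ⟨s, hs⟩ := hd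
    refine hG (y - y') (hy y / hy y' * (w₀ ^ (-s)) ^ n)
      (hpow _ _ _ (hsub _ _ _ _ (hRy y) (hRy y'))) ?_
    rw [hδ, delta_div δ hδ, delta_pow δ hδ, delta_zpow δ hδ, ht y, ht y']
    have : t y * δ w₀ - t y' * δ w₀ = (t y - t y') * δ w₀ := by ring
    rw [this, hs]
    ring
  -- count the fibres
  have hfib : ∀ a ∈ (Finset.univ : Finset Y).image φ,
      (Finset.univ.filter fun y => φ y = a).card ≤ Nat.card G := by
    intro a ha
    obtain ⟨y₀, -, hy₀⟩ := Finset.mem_image.1 ha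
    have hinj : Function.Injective
        (fun y : {y : Y // y ∈ Finset.univ.filter fun y => φ y = a} =>
          (⟨(y : Y) - y₀, key _ _ (by
            have := (Finset.mem_filter.1 y.2).2
            rw [this, hy₀])⟩ : G)) := by
      intro y y' hyy
      have h1 : (y : Y) - y₀ = (y' : Y) - y₀ := congrArg Subtype.val hyy
      exact Subtype.ext (sub_left_injective h1)
    have := Nat.card_le_card_of_injective _ hinj
    rwa [Nat.card_eq_fintype_card, Fintype.card_coe] at this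
  have h1 := Finset.card_le_mul_card_image (f := φ) (Finset.univ : Finset Y) (Nat.card G) hfib
  have h2 : ((Finset.univ : Finset Y).image φ).card ≤ n := by
    calc ((Finset.univ : Finset Y).image φ).card ≤ (Finset.univ : Finset (ZMod n)).card :=
          Finset.card_le_card (Finset.subset_univ _)
      _ = n := by rw [Finset.card_univ, ZMod.card]
  rw [Nat.card_eq_fintype_card, ← Finset.card_univ]
  calc (Finset.univ : Finset Y).card ≤ Nat.card G * ((Finset.univ : Finset Y).image φ).card := h1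
    _ ≤ Nat.card G * n := Nat.mul_le_mul_left _ h2
    _ = n * Nat.card G := mul_comm _ _

end Abs

end Fermat.Agent.S59.LL.SQ.H56

end
-- ==== END Fermat.Agent.S59.LL.SQ.H56_CompAbs

-- ==== BEGIN Fermat.Agent.S59.LL.SQ.H69_StRankCKum
section
attribute [local instance 10000] SubalgebraClass.toAlgebra
attribute [local instance 10000] HahnSeries.powerSeriesAlgebra

/-!
# S59 / LL / SQ, leaf ST-RANK (c), input W = KUM-REL (helper69, for helper64)

Level `N`, `q ‖ N`, `A` a valuation ring of `ℚ̄` over `q`, `I` its inertia group,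
`L0 A N` the functions fixed by `I`, `n` prime to `q`.

* `stmt_TotMod_h69` : the law of total conservation (helper23's `tot_mod`);
* `stmt_B1_all` : **(B1)** at every level `N` with `q ‖ N`: the inertia group fixes `K1(n)`;
* `inertia_fix_sub` : for `σ ∈ I` and `n y = 0`, the class `σ y - y` is fixed by `I`;
* `kumRel` : **KUM-REL**: for `σ ∈ I` and `n y = 0` there are `h₀` (a Kummer function of `y`),
  `h ∈ L0` (a Kummer function of `σ y - y`), `w ≠ 0` and a constant `a ≠ 0` with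
  `h = a · (σ h₀ / h₀) · w ^ n`;
* `stmt_KumRel` : the same at the level `M q`, `q ∤ M`.

This file contains no unproved statement.
-/

set_option autoImplicit false
set_option linter.style.haveILetI false
set_option linter.unusedSectionVars false
set_option synthInstance.maxHeartbeats 400000
set_option maxHeartbeats 1000000

noncomputable section

open HahnSeries IntermediateField AlgebraicCurve ModularCurve
open Fermat.Agent.S28.H73 Fermat.Agent.RED.H73 Fermat.Agent.RED Fermat.Agent.S24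
open Fermat.Agent.BAD.H88

namespace Fermat.Agent.S59.LL.SQ.H69K

open Fermat.Agent.BAD Fermat.Agent.BAD.H91 Fermat.Agent.S36.NU.H23

/-- The law of total conservation for the modular datum of level `M q` (helper23's `tot_mod`
at helper82's identification (D)). -/
theorem stmt_TotMod_h69 : Fermat.Agent.BAD.H91.Stmt_TotMod :=
  fun A q M a b hab hq _ _ hA hqM ht =>
    Fermat.Agent.BAD.H23.tot_mod A q M a b hab hq hA hqM ht
      (Fermat.Agent.BAD.H82.redField_eq_fullC q M a b hab hq A hA)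

/-- **(B1), Kummer form, at every level** `N` with `q ‖ N`. -/
theorem stmt_B1core_all (N q : ℕ) [NeZero N] (hq : q.Prime) (hqN : q ∣ N)
    (hq2 : ¬ q ^ 2 ∣ N) : Stmt_B1core N q :=
  b1core_all
    (fun M q' _ hq' hqM hqM2 ht =>
      b1core_of_ABS M stmt_ABS hq' (modSSD_tame_of stmt_TotMod_h69 M q' hq' hqM hqM2 ht))
    N q hq hqN hq2

/-- **(B1) at every level** `N` with `q ‖ N`: the inertia group at `q` fixes `K1(n)`, `q ∤ n`. -/
theorem stmt_B1_all (N q : ℕ) [NeZero N] (hq : q.Prime) (hqN : q ∣ N)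
    (hq2 : ¬ q ^ 2 ∣ N) : Stmt_B1 N q :=
  b1_of_core N (stmt_B1core_all N q hq hqN hq2)

section Gen

variable (N q : ℕ) [NeZero N] (hq : q.Prime) (hqN : q ∣ N) (hq2 : ¬ q ^ 2 ∣ N)
  (A : ValuationSubring Kbar) (hA : A.LiesOverPrime q)

include hq hqN hq2 hA in
/-- For `σ` in the inertia group and `n y = 0`, `q ∤ n`: the class `σ y - y` is fixed by the
inertia group. -/
theorem inertia_fix_sub {σ : GalQ} (hσ : σ ∈ A.inertiaSubgroupIn ℚ) {n : ℕ} (hn : ¬ q ∣ n)
    {y : JZero N} (hy : n • y = 0) :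
    ∀ τ ∈ A.inertiaSubgroupIn ℚ, τ • (σ • y - y) = σ • y - y :=
  fun τ hτ => stmt_B1_all N q hq hqN hq2 A hA τ hτ n hn _ (stmt_B0 N A σ hσ n y hy)

include hq hqN hq2 hA in
/-- **KUM-REL** (level `N`, `q ‖ N`). -/
theorem kumRel {σ : GalQ} (hσ : σ ∈ A.inertiaSubgroupIn ℚ) {n : ℕ} (hn : ¬ q ∣ n)
    (y : JZero N) (hy : n • y = 0) :
    ∃ (h₀ h w : FN N) (a : Kbar) (E : Divisor.degZero (K := Kbar) (F := FN N)),
      h₀ ≠ 0 ∧ (∀ P : Place Kbar (FN N), (n : ℤ) ∣ P.ord h₀) ∧ h ∈ L0 A N ∧ h ≠ 0 ∧ w ≠ 0 ∧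
      a ≠ 0 ∧
      h = algebraMap Kbar (FN N) a * ((galF N σ • h₀) / h₀) * w ^ n ∧
      σ • y - y = Pic0.mk E ∧
      ∀ P : Place Kbar (FN N), (n : ℤ) * (E : Divisor Kbar (FN N)) P = P.ord h := by
  have hfix := inertia_fix_sub N q hq hqN hq2 A hA hσ hn hy
  obtain ⟨D, rfl⟩ := Pic0.mk_surjective y
  obtain ⟨h₀, hh₀, hD⟩ := exists_kummer_of_nsmul_eq_zero N n D hy
  have hnx : n • (σ • (Pic0.mk D : JZero N) - Pic0.mk D) = 0 := by
    have e : n • (σ • (Pic0.mk D : JZero N)) = 0 := by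
      have h1 := map_nsmul (DistribSMul.toAddMonoidHom (JZero N) σ) n (Pic0.mk D)
      rw [hy, map_zero] at h1
      exact h1.symm
    rw [nsmul_sub, e, hy, sub_zero]
  obtain ⟨E, h, hh0, hxE, hEh, -, hhfix, -, -⟩ :=
    Fermat.Agent.S36.H61.stmt_NUB0 N (A.inertiaSubgroupIn ℚ) n _ hnx hfix
  -- the class of `σ D - D`
  have hcls : (σ • (Pic0.mk D : JZero N) - Pic0.mk D)
      = Pic0.mk (SemilinearAut.degZeroSMulHom (galF N σ) D - D) := by
    show galF N σ • (Pic0.mk D) - Pic0.mk D = _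
    rw [SemilinearAut.pic0_smul_mk]
    rfl
  have hEq : (Pic0.mk (SemilinearAut.degZeroSMulHom (galF N σ) D - D) : JZero N) = Pic0.mk E := by
    rw [← hcls, hxE]
  have h2 := (QuotientAddGroup.eq).1 hEq
  rw [AddSubgroup.mem_addSubgroupOf] at h2
  obtain ⟨w, hw0, hwD⟩ := h2
  have hσD : ∀ P : Place Kbar (FN N),
      ((SemilinearAut.degZeroSMulHom (galF N σ) D - D :
        Divisor.degZero (K := Kbar) (F := FN N)) : Divisor Kbar (FN N)) P
        = (D : Divisor Kbar (FN N)) ((galF N σ)⁻¹ • P) - (D : Divisor Kbar (FN N)) P := by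
    intro P
    rw [AddSubgroup.coe_sub, SemilinearAut.coe_degZeroSMulHom, Finsupp.sub_apply,
      SemilinearAut.divisor_smul_apply]
  have hw : ∀ P : Place Kbar (FN N),
      P.ord w = (E : Divisor Kbar (FN N)) P
        - ((D : Divisor Kbar (FN N)) ((galF N σ)⁻¹ • P) - (D : Divisor Kbar (FN N)) P) := by
    intro P
    rw [← hσD P, ← hwD P]
    show (-((SemilinearAut.degZeroSMulHom (galF N σ) D - D :
        Divisor.degZero (K := Kbar) (F := FN N)) : Divisor Kbar (FN N))
      + (E : Divisor Kbar (FN N))) P = _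
    rw [Finsupp.add_apply, Finsupp.neg_apply]
    ring
  have hσh₀ : galF N σ • h₀ ≠ 0 := by
    intro h0
    apply hh₀
    have h1 := congrArg (fun z => (galF N σ)⁻¹ • z) h0
    simp only [inv_smul_smul, smul_zero] at h1
    exact h1
  have hq0 : galF N σ • h₀ / h₀ ≠ 0 := div_ne_zero hσh₀ hh₀
  -- `u = h / ((σ h₀ / h₀) w ^ n)` has no zero and no pole
  have hden : galF N σ • h₀ / h₀ * w ^ n ≠ 0 := mul_ne_zero hq0 (pow_ne_zero _ hw0)
  have hu0 : h / (galF N σ • h₀ / h₀ * w ^ n) ≠ 0 := div_ne_zero hh0 hden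
  have hord : ∀ P : Place Kbar (FN N), P.ord (h / (galF N σ • h₀ / h₀ * w ^ n)) = 0 := by
    intro P
    rw [div_eq_mul_inv, P.ord_mul hh0 (inv_ne_zero hden), Place.ord_inv,
      P.ord_mul hq0 (pow_ne_zero _ hw0), div_eq_mul_inv, P.ord_mul hσh₀ (inv_ne_zero hh₀),
      Place.ord_inv, Fermat.Agent.RED.H17.ord_pow, ord_galF_smul, ← hEh P, ← hD P, ← hD ((galF N σ)⁻¹ • P),
      hw P]
    ring
  have hFF : RED.H17.FFHyp Kbar (FN N) := RED.H17.ffHyp_of_isFF _ _ (H95.stmt_HKA_isFF N)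
  obtain ⟨a, ha⟩ := hFF.const_of_regular (f := h / (galF N σ • h₀ / h₀ * w ^ n))
    (fun P => le_of_eq (hord P).symm)
  have ha0 : a ≠ 0 := by
    rintro rfl
    rw [map_zero] at ha
    exact hu0 ha
  refine ⟨h₀, h, w, a, E, hh₀, fun P => ⟨_, (hD P).symm⟩, fun τ hτ => hhfix τ hτ, hh0, hw0, ha0,
    ?_, hxE, hEh⟩
  rw [mul_assoc, ← ha, div_mul_cancel₀ _ hden]

end Gen

/-- **KUM-REL** at the level `M q`, `q ∤ M` (the input W of ST-RANK (c)). -/
theorem stmt_KumRel (A : ValuationSubring Kbar) (q M : ℕ) (hq : q.Prime) [NeZero (M * q)]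
    (hA : A.LiesOverPrime q) (hqM : ¬ q ∣ M) :
    ∀ σ ∈ A.inertiaSubgroupIn ℚ, ∀ n : ℕ, ¬ q ∣ n → ∀ y : JZero (M * q), n • y = 0 →
      ∃ (h₀ h w : FN (M * q)) (a : Kbar) (E : Divisor.degZero (K := Kbar) (F := FN (M * q))),
        h₀ ≠ 0 ∧ (∀ P : Place Kbar (FN (M * q)), (n : ℤ) ∣ P.ord h₀) ∧ h ∈ L0 A (M * q) ∧
        h ≠ 0 ∧ w ≠ 0 ∧ a ≠ 0 ∧
        h = algebraMap Kbar (FN (M * q)) a * ((galF (M * q) σ • h₀) / h₀) * w ^ n ∧
        σ • y - y = Pic0.mk E ∧
        ∀ P : Place Kbar (FN (M * q)), (n : ℤ) * (E : Divisor Kbar (FN (M * q))) P = P.ord h := by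
  intro σ hσ n hn y hy
  have hq2 : ¬ q ^ 2 ∣ M * q := by
    intro hd
    apply hqM
    rw [pow_two] at hd
    exact Nat.dvd_of_mul_dvd_mul_right hq.pos hd
  exact kumRel (M * q) q hq (Dvd.intro_left M rfl) hq2 A hA hσ hn y hy

end Fermat.Agent.S59.LL.SQ.H69K

end
end
-- ==== END Fermat.Agent.S59.LL.SQ.H69_StRankCKum

-- ==== BEGIN Fermat.Agent.S59.LL.SQ.H69_StRankFAbs
section

/-!
# S59 / LL / SQ, leaf ST-RANK (f), abstract part (helper69)

`S : BAD.SSD K F k F₁ F₂` a semistable Deuring datum, `L` a subfield of `F` (modular: the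
functions fixed by the inertia group), `n ≠ 0`.

* `IsKumA n x f` : `f` is a Kummer function of the class `x` (`x = [D]`, `n D = div f`);
* `InGA S L n x` : **the finite part**: `x` has a Kummer function in `L` which is a unit for the
  two valuations;
* `InTA S L n x` : **the toric part**: moreover the two reductions are `n`-th powers;
* `card_le_of_fibres` : counting along the fibres of a map;
* `rootCls` : the class of `(1/n) div ψ` in `Pic⁰[n]`, and `eq_of_rootCls_eq`;
* `card_inGA_le` : **ST-RANK (f), abstract form**: if the reductions of the Kummer functions of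
  the finite part have divisors divisible by `n` (REG), then
  `#G ≤ #Pic⁰(F₁)[n] · #Pic⁰(F₂)[n] · #T`.

This file contains no unproved statement.
-/

set_option autoImplicit false
set_option linter.style.haveILetI false
set_option linter.unusedSectionVars false
set_option maxHeartbeats 1000000

noncomputable section

open AlgebraicCurve

attribute [local instance] Classical.propDecidable

namespace Fermat.Agent.S59.LL.SQ.H69

open Fermat.Agent.RED.H17 Fermat.Agent.RED Fermat.Agent.BAD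

/-! ### Counting along the fibres of a map -/

/-- If two elements of `Gs` with the same image under `c` differ by an element of the finite set
`Ts`, then `#Gs ≤ #X · #Ts`. -/
theorem card_le_of_fibres {G X : Type*} [AddCommGroup G] [Finite X] (Gs Ts : Set G)
    (hT : Ts.Finite) (c : Gs → X) (h : ∀ x y : Gs, c x = c y → (x : G) - (y : G) ∈ Ts) :
    Nat.card Gs ≤ Nat.card X * Nat.card Ts := by
  rcases isEmpty_or_nonempty Gs with he | hne
  · rw [Nat.card_of_isEmpty]
    exact Nat.zero_le _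
  haveI : Finite Ts := hT
  have hinv : ∀ x : Gs, c (Function.invFun c (c x)) = c x :=
    fun x => Function.invFun_eq ⟨x, rfl⟩
  let φ : Gs → X × Ts := fun x =>
    (c x, ⟨(x : G) - ((Function.invFun c (c x) : Gs) : G), h x _ (hinv x).symm⟩)
  have hφ : Function.Injective φ := by
    intro x y hxy
    have h1 : c x = c y := congrArg Prod.fst hxy
    have h2 : (x : G) - ((Function.invFun c (c x) : Gs) : G)
        = (y : G) - ((Function.invFun c (c y) : Gs) : G) :=
      congrArg (fun z : X × Ts => (z.2 : G)) hxy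
    rw [h1] at h2
    exact Subtype.ext (sub_left_injective h2)
  have := Nat.card_le_card_of_injective φ hφ
  rwa [Nat.card_prod] at this

/-! ### The class of `(1/n) div ψ` -/

section Root

variable {k E : Type*} [Field k] [Field E] [Algebra k E]

/-- The divisor `(1/n) div ψ`. -/
def rootDiv (hP : HasPrincipalDivisors k E) (n : ℕ) (ψ : E) : Divisor k E :=
  (dv hP ψ).mapRange (fun m : ℤ => m / (n : ℤ)) (by simp)

theorem rootDiv_apply (hP : HasPrincipalDivisors k E) (n : ℕ) (ψ : E) (Q : Place k E) :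
    rootDiv hP n ψ Q = Q.ord ψ / (n : ℤ) := by
  unfold rootDiv
  rw [Finsupp.mapRange_apply, dv_apply]

theorem zsmul_rootDiv (hP : HasPrincipalDivisors k E) {n : ℕ} {ψ : E}
    (hdvd : ∀ Q : Place k E, (n : ℤ) ∣ Q.ord ψ) : (n : ℤ) • rootDiv hP n ψ = dv hP ψ := by
  ext Q
  rw [Finsupp.smul_apply, rootDiv_apply, dv_apply, smul_eq_mul,
    Int.mul_ediv_cancel' (hdvd Q)]

theorem degree_rootDiv (hP : HasPrincipalDivisors k E) {n : ℕ} (hn : n ≠ 0) {ψ : E}
    (hdvd : ∀ Q : Place k E, (n : ℤ) ∣ Q.ord ψ) : Divisor.degree (rootDiv hP n ψ) = 0 := by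
  have h := congrArg Divisor.degree (zsmul_rootDiv hP hdvd)
  rw [map_zsmul, degree_dv, smul_eq_mul] at h
  rcases mul_eq_zero.mp h with h0 | h0
  · exact absurd (by exact_mod_cast h0) hn
  · exact h0

/-- The class of `(1/n) div ψ`. -/
def rootCls (hP : HasPrincipalDivisors k E) (n : ℕ) (hn : n ≠ 0) (ψ : E)
    (hdvd : ∀ Q : Place k E, (n : ℤ) ∣ Q.ord ψ) : Pic0 k E :=
  Pic0.mk ⟨rootDiv hP n ψ, degree_rootDiv hP hn hdvd⟩

theorem rootCls_mem_torsion (hP : HasPrincipalDivisors k E) (n : ℕ) (hn : n ≠ 0) {ψ : E}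
    (hψ : ψ ≠ 0) (hdvd : ∀ Q : Place k E, (n : ℤ) ∣ Q.ord ψ) :
    rootCls hP n hn ψ hdvd ∈ Pic0.torsion k E n := by
  rw [Pic0.mem_torsion]
  have e : (n : ℤ) • rootCls hP n hn ψ hdvd
      = Pic0.mk ((n : ℤ) • (⟨rootDiv hP n ψ, degree_rootDiv hP hn hdvd⟩ :
          Divisor.degZero (K := k) (F := E))) := rfl
  rw [e, Pic0.mk, QuotientAddGroup.eq_zero_iff, AddSubgroup.mem_addSubgroupOf]
  show (n : ℤ) • rootDiv hP n ψ ∈ Divisor.principal (K := k) (F := E)
  rw [zsmul_rootDiv hP hdvd]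
  exact dv_mem_principal hP hψ

/-- Two functions with the same class `(1/n) div` differ by an `n`-th power
(`k` algebraically closed). -/
theorem eq_of_rootCls_eq [IsAlgClosed k] (H : FFHyp k E) (n : ℕ) (hn : n ≠ 0) {ψ ψ' : E}
    (hψ : ψ ≠ 0) (hψ' : ψ' ≠ 0) (hdvd : ∀ Q : Place k E, (n : ℤ) ∣ Q.ord ψ)
    (hdvd' : ∀ Q : Place k E, (n : ℤ) ∣ Q.ord ψ')
    (h : rootCls H.principal n hn ψ hdvd = rootCls H.principal n hn ψ' hdvd') :
    ∃ g : E, g ≠ 0 ∧ ψ / ψ' = g ^ n := by
  have h2 := (QuotientAddGroup.eq).1 h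
  rw [AddSubgroup.mem_addSubgroupOf] at h2
  obtain ⟨g₀, hg₀, hg₀D⟩ := h2
  have hD : ∀ Q : Place k E,
      Q.ord g₀ = rootDiv H.principal n ψ' Q - rootDiv H.principal n ψ Q := by
    intro Q
    rw [← hg₀D Q]
    show (-(rootDiv H.principal n ψ) + rootDiv H.principal n ψ') Q = _
    rw [Finsupp.add_apply, Finsupp.neg_apply]
    ring
  have hnZ : (n : ℤ) ≠ 0 := by exact_mod_cast hn
  -- `w = ψ / ψ' * g₀ ^ n` has no zero and no pole
  have hw0 : ψ / ψ' * g₀ ^ n ≠ 0 :=
    mul_ne_zero (div_ne_zero hψ hψ') (pow_ne_zero _ hg₀)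
  have hword : ∀ Q : Place k E, Q.ord (ψ / ψ' * g₀ ^ n) = 0 := by
    intro Q
    rw [Q.ord_mul (div_ne_zero hψ hψ') (pow_ne_zero _ hg₀), ord_div Q hψ hψ', ord_pow, hD Q,
      rootDiv_apply, rootDiv_apply, mul_sub, Int.mul_ediv_cancel' (hdvd Q),
      Int.mul_ediv_cancel' (hdvd' Q)]
    ring
  obtain ⟨a, ha⟩ := H.const_of_regular (f := ψ / ψ' * g₀ ^ n)
    (fun Q => le_of_eq (hword Q).symm)
  have ha0 : a ≠ 0 := by
    rintro rfl
    rw [map_zero] at ha
    exact hw0 ha
  obtain ⟨α, hα⟩ := IsAlgClosed.exists_pow_nat_eq a (Nat.pos_of_ne_zero hn)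
  have hα0 : α ≠ 0 := by
    rintro rfl
    rw [zero_pow hn] at hα
    exact ha0 hα.symm
  refine ⟨algebraMap k E α * g₀⁻¹, mul_ne_zero
    ((map_ne_zero_iff _ (algebraMap k E).injective).mpr hα0) (inv_ne_zero hg₀), ?_⟩
  rw [mul_pow, ← map_pow, hα, ← ha, inv_pow]
  field_simp

end Root

/-! ### The finite part and the toric part -/

section Abs

variable {K F k F₁ F₂ : Type*} [Field K] [Field F] [Algebra K F] [Field k] [Field F₁]
  [Algebra k F₁] [Field F₂] [Algebra k F₂]

/-- `f` is a **Kummer function** of the class `x` for the exponent `n`: `x = [D]`,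
`n D = div f`. -/
def IsKumA (n : ℕ) (x : Pic0 K F) (f : F) : Prop :=
  ∃ D : Divisor.degZero (K := K) (F := F), x = Pic0.mk D ∧
    ∀ P : Place K F, (n : ℤ) * (D : Divisor K F) P = P.ord f

/-- **The finite part** (exponent `n`): the classes with a Kummer function in `L` which is a
unit for the two valuations. -/
def InGA (S : SSD K F k F₁ F₂) (L : Subfield F) (n : ℕ) (x : Pic0 K F) : Prop :=
  ∃ f : F, f ∈ L ∧ IsKumA n x f ∧ S.c₁.IsGU f ∧ S.c₂.IsGU f

/-- **The toric part** (exponent `n`): the classes with a Kummer function in `L` which is a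
unit for the two valuations, with reductions `ψ₁ ^ n` and `ψ₂ ^ n`. -/
def InTA (S : SSD K F k F₁ F₂) (L : Subfield F) (n : ℕ) (x : Pic0 K F) : Prop :=
  ∃ f : F, f ∈ L ∧ IsKumA n x f ∧ S.c₁.IsGU f ∧ S.c₂.IsGU f ∧
    ∃ (ψ₁ : F₁) (ψ₂ : F₂), S.c₁.rd f = ψ₁ ^ n ∧ S.c₂.rd f = ψ₂ ^ n

theorem InTA.inGA {S : SSD K F k F₁ F₂} {L : Subfield F} {n : ℕ} {x : Pic0 K F}
    (h : InTA S L n x) : InGA S L n x := by
  obtain ⟨f, hfL, hK, h₁, h₂, -⟩ := h
  exact ⟨f, hfL, hK, h₁, h₂⟩

theorem IsKumA.dvd {n : ℕ} {x : Pic0 K F} {f : F} (h : IsKumA n x f) (P : Place K F) :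
    (n : ℤ) ∣ P.ord f := by
  obtain ⟨D, -, hD⟩ := h
  exact ⟨_, (hD P).symm⟩

theorem IsKumA.div {n : ℕ} {x x' : Pic0 K F} {f f' : F} (h : IsKumA n x f)
    (h' : IsKumA n x' f') (hf : f ≠ 0) (hf' : f' ≠ 0) : IsKumA n (x - x') (f / f') := by
  obtain ⟨D, rfl, hD⟩ := h
  obtain ⟨D', rfl, hD'⟩ := h'
  refine ⟨D - D', rfl, fun P => ?_⟩
  rw [ord_div P hf hf', ← hD P, ← hD' P]
  show (n : ℤ) * ((D : Divisor K F) - (D' : Divisor K F)) P = _
  rw [Finsupp.sub_apply]
  ring

theorem IsKumA.zsmul_eq_zero {n : ℕ} {x : Pic0 K F} {f : F} (h : IsKumA n x f) (hf : f ≠ 0) :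
    (n : ℤ) • x = 0 := by
  obtain ⟨D, rfl, hD⟩ := h
  have e : (n : ℤ) • (Pic0.mk D : Pic0 K F) = Pic0.mk ((n : ℤ) • D) := rfl
  rw [e, Pic0.mk, QuotientAddGroup.eq_zero_iff, AddSubgroup.mem_addSubgroupOf]
  refine ⟨f, hf, fun P => ?_⟩
  rw [← hD P]
  show ((n : ℤ) • (D : Divisor K F)) P = _
  rw [Finsupp.smul_apply, smul_eq_mul]

theorem InGA.mem_torsion {S : SSD K F k F₁ F₂} {L : Subfield F} {n : ℕ} {x : Pic0 K F}
    (h : InGA S L n x) : x ∈ Pic0.torsion K F n := by
  obtain ⟨f, -, hK, h₁, -⟩ := h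
  exact Pic0.mem_torsion.mpr (hK.zsmul_eq_zero h₁.ne_zero)

/-- **ST-RANK (f), abstract form.**  If the reductions of the Kummer functions of the finite part
have divisors divisible by `n`, then `#G ≤ #Pic⁰(F₁)[n] · #Pic⁰(F₂)[n] · #T`. -/
theorem card_inGA_le [IsAlgClosed k] (S : SSD K F k F₁ F₂) (L : Subfield F)
    (H₁ : FFHyp k F₁) (H₂ : FFHyp k F₂) (n : ℕ) (hn : n ≠ 0)
    (hreg : ∀ f : F, f ∈ L → S.c₁.IsGU f → S.c₂.IsGU f →
      (∀ P : Place K F, (n : ℤ) ∣ P.ord f) →
      (∀ Q : Place k F₁, (n : ℤ) ∣ Q.ord (S.c₁.rd f)) ∧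
        (∀ Q : Place k F₂, (n : ℤ) ∣ Q.ord (S.c₂.rd f)))
    [Finite (Pic0.torsion k F₁ n)] [Finite (Pic0.torsion k F₂ n)]
    (hT : {x : Pic0 K F | InTA S L n x}.Finite) :
    Nat.card {x : Pic0 K F | InGA S L n x} ≤
      Nat.card (Pic0.torsion k F₁ n) * Nat.card (Pic0.torsion k F₂ n) *
        Nat.card {x : Pic0 K F | InTA S L n x} := by
  -- the chosen Kummer functions
  have hex : ∀ x : {x : Pic0 K F | InGA S L n x}, ∃ f : F, f ∈ L ∧ IsKumA n (x : Pic0 K F) f ∧
      S.c₁.IsGU f ∧ S.c₂.IsGU f := fun x => x.2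
  choose φ hφL hφK hφ₁ hφ₂ using hex
  have hR : ∀ x : {x : Pic0 K F | InGA S L n x},
      (∀ Q : Place k F₁, (n : ℤ) ∣ Q.ord (S.c₁.rd (φ x))) ∧
        (∀ Q : Place k F₂, (n : ℤ) ∣ Q.ord (S.c₂.rd (φ x))) :=
    fun x => hreg (φ x) (hφL x) (hφ₁ x) (hφ₂ x) (hφK x).dvd
  let c : {x : Pic0 K F | InGA S L n x} → Pic0.torsion k F₁ n × Pic0.torsion k F₂ n :=
    fun x => (⟨rootCls H₁.principal n hn (S.c₁.rd (φ x)) (hR x).1,
        rootCls_mem_torsion H₁.principal n hn (hφ₁ x).rd_ne_zero (hR x).1⟩,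
      ⟨rootCls H₂.principal n hn (S.c₂.rd (φ x)) (hR x).2,
        rootCls_mem_torsion H₂.principal n hn (hφ₂ x).rd_ne_zero (hR x).2⟩)
  have key := card_le_of_fibres {x : Pic0 K F | InGA S L n x} {x : Pic0 K F | InTA S L n x}
    hT c (by
      intro x y hxy
      have h1 : rootCls H₁.principal n hn (S.c₁.rd (φ x)) (hR x).1
          = rootCls H₁.principal n hn (S.c₁.rd (φ y)) (hR y).1 :=
        congrArg (fun z : Pic0.torsion k F₁ n × Pic0.torsion k F₂ n => (z.1 : Pic0 k F₁)) hxy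
      have h2 : rootCls H₂.principal n hn (S.c₂.rd (φ x)) (hR x).2
          = rootCls H₂.principal n hn (S.c₂.rd (φ y)) (hR y).2 :=
        congrArg (fun z : Pic0.torsion k F₁ n × Pic0.torsion k F₂ n => (z.2 : Pic0 k F₂)) hxy
      obtain ⟨g₁, -, hg₁⟩ := eq_of_rootCls_eq H₁ n hn (hφ₁ x).rd_ne_zero (hφ₁ y).rd_ne_zero
        (hR x).1 (hR y).1 h1
      obtain ⟨g₂, -, hg₂⟩ := eq_of_rootCls_eq H₂ n hn (hφ₂ x).rd_ne_zero (hφ₂ y).rd_ne_zero
        (hR x).2 (hR y).2 h2
      refine ⟨φ x / φ y, L.div_mem (hφL x) (hφL y),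
        (hφK x).div (hφK y) (hφ₁ x).ne_zero (hφ₁ y).ne_zero,
        (hφ₁ x).div (hφ₁ y), (hφ₂ x).div (hφ₂ y), g₁, g₂, ?_, ?_⟩
      · rw [(hφ₁ x).rd_div (hφ₁ y), hg₁]
      · rw [(hφ₂ x).rd_div (hφ₂ y), hg₂])
  rwa [Nat.card_prod] at key

end Abs

end Fermat.Agent.S59.LL.SQ.H69

end
end
-- ==== END Fermat.Agent.S59.LL.SQ.H69_StRankFAbs

-- ==== BEGIN Fermat.Agent.S59.LL.SQ.H83_GamAbs
section

/-!
# S59 / LL / SQ, leaf ST-RANK (g), group theory (helper83)

* `card_le_card_torsion_pow` : a finite commutative group of exponent `p ^ e` has at most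
  `#G[p] ^ e` elements;
* `torsion_le_of_card` : if `Γ ≤ A` has exponent `p ^ e`, `#A[p] ≤ p ^ d` and
  `p ^ (2 e d) ≤ p ^ (e + c) · #Γ ^ 2` with `c < e`, then `A[p] ⊆ Γ`.
This file contains no unproved statement.
-/

set_option autoImplicit false

namespace Fermat.Agent.S59.LL.SQ.H83

universe u

/-- A finite commutative group of exponent `p ^ e` has at most `#G[p] ^ e` elements. -/
theorem card_le_card_torsion_pow (p : ℕ) : ∀ (e : ℕ) (G : Type u) [CommGroup G] [Finite G],
    (∀ g : G, g ^ (p ^ e) = 1) → Nat.card G ≤ (Nat.card {g : G // g ^ p = 1}) ^ e := by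
  intro e
  induction e with
  | zero =>
    intro G _ _ h
    have hs : Subsingleton G := ⟨fun a b => by
      have ha := h a
      have hb := h b
      rw [pow_zero, pow_one] at ha hb
      rw [ha, hb]⟩
    rw [pow_zero]
    exact Finite.card_le_one_iff_subsingleton.mpr hs
  | succ e ih =>
    intro G _ _ h
    set φ : G →* G := powMonoidHom p with hφ
    have h1 : Nat.card G = Nat.card φ.ker * Nat.card φ.range := by
      rw [mul_comm, ← Nat.card_congr (QuotientGroup.quotientKerEquivRange φ).toEquiv]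
      exact Subgroup.card_eq_card_quotient_mul_card_subgroup φ.ker
    have hker : Nat.card φ.ker = Nat.card {g : G // g ^ p = 1} := by
      apply Nat.card_congr
      exact Equiv.subtypeEquivRight (fun g => by rw [MonoidHom.mem_ker]; rfl)
    have hR : ∀ r : φ.range, r ^ (p ^ e) = 1 := by
      rintro ⟨r, g, rfl⟩
      apply Subtype.ext
      show (φ g) ^ (p ^ e) = 1
      rw [hφ, powMonoidHom_apply, ← pow_mul, ← pow_succ']
      exact h g
    have h2 := ih ↥φ.range hR
    have h3 : Nat.card {r : φ.range // r ^ p = 1} ≤ Nat.card {g : G // g ^ p = 1} := by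
      apply Nat.card_le_card_of_injective
        (fun r : {r : φ.range // r ^ p = 1} =>
          (⟨(r.1 : G), by
            have := congrArg (Subtype.val) r.2
            simpa using this⟩ : {g : G // g ^ p = 1}))
      intro r r' hrr
      apply Subtype.ext
      apply Subtype.ext
      have h1 := congrArg (fun x : {g : G // g ^ p = 1} => (x : G)) hrr
      exact h1
    calc Nat.card G = Nat.card φ.ker * Nat.card φ.range := h1
      _ ≤ Nat.card {g : G // g ^ p = 1} * (Nat.card {g : G // g ^ p = 1}) ^ e := by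
          rw [hker]
          exact Nat.mul_le_mul_left _ (h2.trans (Nat.pow_le_pow_left h3 e))
      _ = (Nat.card {g : G // g ^ p = 1}) ^ (e + 1) := by rw [pow_succ']

/-- **Bounded index forces the `p`-torsion**: if `Γ ≤ A` has exponent `p ^ e`,
`#A[p] ≤ p ^ d` and `p ^ (2 e d) ≤ p ^ (e + c) · #Γ ^ 2` with `c < e`, then `A[p] ⊆ Γ`. -/
theorem torsion_le_of_card {A : Type u} [CommGroup A] [Finite A] (p e c d : ℕ) (hp : p.Prime)
    (Γ : Subgroup A) (hexp : ∀ g ∈ Γ, g ^ (p ^ e) = 1)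
    (hA : Nat.card {a : A // a ^ p = 1} ≤ p ^ d)
    (hcard : p ^ (2 * e * d) ≤ p ^ (e + c) * (Nat.card Γ) ^ 2) (hce : c < e) :
    ∀ a : A, a ^ p = 1 → a ∈ Γ := by
  intro a ha
  by_contra haΓ
  have : Fact p.Prime := ⟨hp⟩
  set P : Subgroup A := (powMonoidHom p : A →* A).ker with hP
  have hmemP : ∀ x : A, x ∈ P ↔ x ^ p = 1 := fun x => by
    rw [hP, MonoidHom.mem_ker]; rfl
  have hPcard : Nat.card P ≤ p ^ d := by
    have : Nat.card P = Nat.card {a : A // a ^ p = 1} :=
      Nat.card_congr (Equiv.subtypeEquivRight hmemP)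
    rw [this]; exact hA
  set Q : Subgroup ↥P := Γ.subgroupOf P with hQ
  have hQne : Q ≠ ⊤ := by
    intro htop
    have : (⟨a, (hmemP a).mpr ha⟩ : ↥P) ∈ Q := by rw [htop]; exact Subgroup.mem_top _
    rw [hQ, Subgroup.mem_subgroupOf] at this
    exact haΓ this
  have hPp : IsPGroup p ↥P := by
    intro x
    refine ⟨1, ?_⟩
    rw [pow_one]
    apply Subtype.ext
    exact (hmemP x.1).mp x.2
  obtain ⟨j, hj⟩ := hPp.index Q
  have hj0 : j ≠ 0 := by
    rintro rfl
    rw [pow_zero] at hj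
    exact hQne (Subgroup.index_eq_one.mp hj)
  have hmul : Nat.card Q * Q.index = Nat.card P := Q.card_mul_index
  have hQcard : Nat.card Q * p ≤ p ^ d := by
    calc Nat.card Q * p ≤ Nat.card Q * Q.index := by
          rw [hj]
          exact Nat.mul_le_mul_left _ (by
            calc p = p ^ 1 := (pow_one p).symm
              _ ≤ p ^ j := Nat.pow_le_pow_right hp.pos (by omega))
      _ = Nat.card P := hmul
      _ ≤ p ^ d := hPcard
  have hQpos : 0 < Nat.card Q := Nat.card_pos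
  obtain ⟨d', rfl⟩ : ∃ d', d = d' + 1 := by
    rcases d with _ | d'
    · exfalso
      rw [pow_zero] at hQcard
      have := hp.two_le
      nlinarith
    · exact ⟨d', rfl⟩
  have hQle : Nat.card Q ≤ p ^ d' := by
    rw [pow_succ] at hQcard
    exact Nat.le_of_mul_le_mul_right hQcard hp.pos
  -- the `p`-torsion of `Γ`
  have hΓp : Nat.card {γ : ↥Γ // γ ^ p = 1} ≤ Nat.card Q := by
    apply Nat.card_le_card_of_injective
      (fun γ : {γ : ↥Γ // γ ^ p = 1} =>
        (⟨⟨(γ.1 : A), (hmemP _).mpr (by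
            have := congrArg (Subtype.val) γ.2
            simpa using this)⟩, by
          rw [hQ, Subgroup.mem_subgroupOf]
          exact γ.1.2⟩ : ↥Q))
    intro γ γ' h
    apply Subtype.ext
    apply Subtype.ext
    have h1 := congrArg (fun x : ↥Q => ((x : ↥P) : A)) h
    exact h1
  have hΓexp : ∀ γ : ↥Γ, γ ^ (p ^ e) = 1 := fun γ => Subtype.ext (hexp γ.1 γ.2)
  have hΓ := card_le_card_torsion_pow p e ↥Γ hΓexp
  have hΓle : Nat.card Γ ≤ p ^ (d' * e) := by
    calc Nat.card Γ ≤ (Nat.card {γ : ↥Γ // γ ^ p = 1}) ^ e := hΓ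
      _ ≤ (p ^ d') ^ e := Nat.pow_le_pow_left (hΓp.trans hQle) e
      _ = p ^ (d' * e) := by rw [← pow_mul]
  have h4 : p ^ (2 * e * (d' + 1)) ≤ p ^ (e + c + 2 * (d' * e)) := by
    calc p ^ (2 * e * (d' + 1)) ≤ p ^ (e + c) * (Nat.card Γ) ^ 2 := hcard
      _ ≤ p ^ (e + c) * (p ^ (d' * e)) ^ 2 :=
          Nat.mul_le_mul_left _ (Nat.pow_le_pow_left hΓle 2)
      _ = p ^ (e + c + 2 * (d' * e)) := by rw [← pow_mul, ← pow_add]; ring_nf
  have h5 := (Nat.pow_le_pow_iff_right hp.one_lt).mp h4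
  have h6 : 2 * e * (d' + 1) = 2 * e + 2 * (d' * e) := by ring
  omega

end Fermat.Agent.S59.LL.SQ.H83

end
-- ==== END Fermat.Agent.S59.LL.SQ.H83_GamAbs

-- ==== BEGIN Fermat.Agent.S59.LL.SQ.H83_NumLe
section
attribute [local instance 10000] SubalgebraClass.toAlgebra
attribute [local instance 10000] HahnSeries.powerSeriesAlgebra

/-!
# S59 / LL / SQ, leaf NUM-LE (helper83): the exact number of nodes of the modular datum

For `q ∤ M` tame and `A` over `q`, the explicit modular semistable Deuring datum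
`S43.H91.modSSD` of `F_{M q} · ℚ̄` at `A` (two components with function field `F1 A q M`):

* `genus_eq_nodes` : `g + 1 = 2 g₁ + δ` (Riemann genera, `δ` the number of nodes);
* `genus_F1_eq` : the genus of the components is `genusFormula M`;
* `nodes_card_eq` : `δ = genusFormula (M q) + 1 - 2 genusFormula M`;
* `numLE` : **NUM-LE**, `δ ≤ genusFormula (M q) - 2 genusFormula M + 1`;
* `card_eq_nodes_card` : a set of nodes `Z` with the inequality of NUM has all the nodes.

Inputs: the abstract genus formula `S15.Desc.H83.genus_formula` (surjectivity of the reduction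
of twisted Riemann–Roch spaces + pivot), NUM (`H30.num_final_tame`), `BAD.H17.genus_FN_eq`,
`BAD.H17.genusFormula_le_redM`.
This file contains no unproved statement.
-/

set_option autoImplicit false
set_option linter.style.haveILetI false
set_option synthInstance.maxHeartbeats 400000
set_option maxHeartbeats 1000000
set_option linter.unusedSectionVars false

noncomputable section

open HahnSeries IntermediateField AlgebraicCurve ModularCurve
open Fermat.Agent.S28.H73 Fermat.Agent.RED.H73 Fermat.Agent.RED Fermat.Agent.S24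
open Fermat.Agent.BAD.H88 Fermat.Agent.BAD

namespace Fermat.Agent.S59.LL.SQ.H83

open Fermat.Agent.BAD.H91 Fermat.Agent.S43.H91 Fermat.Agent.S35.H89

section Mod

variable (A : ValuationSubring Kbar) (q M : ℕ) (a b : ℤ) (hab : a * q + b * M = 1)
  (hq : q.Prime) [NeZero M] [NeZero (M * q)] [NeZero q] (hA : A.LiesOverPrime q)
  (hqM : ¬ q ∣ M) (ht : TameAt M q)

/-- **The genus formula of the modular datum**: `g + 1 = 2 g₁ + δ`. -/
theorem genus_eq_nodes {g g₁ : ℕ} {c c₁ : ℤ} (hg : RED.H17.IsGenus Kbar (FN (M * q)) g c)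
    (hg₁ : RED.H17.IsGenus (kV A) (F1 A q M) g₁ c₁) :
    g + 1 = g₁ + g₁ + (modSSD A q M a b hab hq hA hqM ht).nodes.card := by
  haveI : IsAlgClosed (kV A) := isAlgClosed_kV A
  haveI : Infinite (kV A) := IsAlgClosed.instInfinite
  exact Fermat.Agent.S15.Desc.H83.genus_formula H28.stmt_TwSurj H17.stmt_Pivot
    (modSSD A q M a b hab hq hA hqM ht) (ffHyp_FN q M) (ffHyp_F1 A q M a b hab hq hA hqM ht)
    (ffHyp_F1 A q M a b hab hq hA hqM ht) g g₁ g₁ c c₁ c₁ hg hg₁ hg₁
    (modSSD_card_ge A q M a b hab hq hA hqM ht hg hg₁)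

include hab hq hA hqM ht in
/-- **The genus of the components** of the modular datum is `genusFormula M`. -/
theorem genus_F1_eq {g₁ : ℕ} {c₁ : ℤ} (hg₁ : RED.H17.IsGenus (kV A) (F1 A q M) g₁ c₁) :
    (g₁ : ℚ) = genusFormula M := by
  haveI : IsAlgClosed (kV A) := isAlgClosed_kV A
  haveI : Infinite (kV A) := IsAlgClosed.instInfinite
  obtain ⟨g, c, hg⟩ := RED.H17.exists_isGenus _ _ (H95.stmt_HKA_isFF (M * q))
  have hMq : 1 < M * q := by
    have h1 : 0 < M := Nat.pos_of_ne_zero (NeZero.ne M)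
    have h2 := hq.two_le
    nlinarith
  have hgQ : (g : ℚ) = genusFormula (M * q) := Fermat.Agent.BAD.H17.genus_FN_eq (M * q) hMq hg
  have hg₁' : RED.H17.IsGenus (kV A) ↥(H91.redM A M) g₁ c₁ :=
    isGenus_congr (H82.redField_eq_redField q M a b hab hq A hA) hg₁
  have hle : genusFormula M ≤ (g₁ : ℚ) :=
    Fermat.Agent.BAD.H17.genusFormula_le_redM hq hqM ht hA hg₁'
  obtain ⟨Z, hZne, hZc, hZo, hnum⟩ :=
    Fermat.Agent.BAD.H30.num_final_tame M q hq ht hqM A hA (Dvd.intro_left M rfl)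
  have hZ' : ∀ z ∈ Z.map (kappa A q M a b hab hq hA).symm.toEmbedding,
      (modTot A q M a b hab hq hA hqM ht).IsNode z := by
    intro z hz
    obtain ⟨z₀, hz₀, rfl⟩ := Finset.mem_map.mp hz
    exact isNode_modT a b hab hq hA hqM ht _ _ _ z₀ (hZc z₀ hz₀) (hZo z₀ hz₀)
  have h1 := (modTot A q M a b hab hq hA hqM ht).card_le_toSSD_nodes (ffHyp_FN q M).principal
    (ffHyp_FN q M).deg_one (ffHyp_F1 A q M a b hab hq hA hqM ht).principal
    (ffHyp_F1 A q M a b hab hq hA hqM ht).deg_one (ffHyp_F1 A q M a b hab hq hA hqM ht).deg_one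
    (exists_node_modTot A q M a b hab hq hA hqM ht) _ hZ'
  rw [Finset.card_map] at h1
  have h3 : Z.card ≤ (modSSD A q M a b hab hq hA hqM ht).nodes.card := h1
  have h4 := genus_eq_nodes A q M a b hab hq hA hqM ht hg hg₁
  have h3Q : (Z.card : ℚ) ≤ ((modSSD A q M a b hab hq hA hqM ht).nodes.card : ℚ) := by
    exact_mod_cast h3
  have h4Q : (g : ℚ) + 1
      = (g₁ : ℚ) + g₁ + ((modSSD A q M a b hab hq hA hqM ht).nodes.card : ℚ) := by
    exact_mod_cast h4
  rw [← hgQ] at hnum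
  linarith

/-- **The exact number of nodes** of the modular datum. -/
theorem nodes_card_eq :
    ((modSSD A q M a b hab hq hA hqM ht).nodes.card : ℚ)
      = genusFormula (M * q) + 1 - 2 * genusFormula M := by
  haveI : IsAlgClosed (kV A) := isAlgClosed_kV A
  obtain ⟨g, c, hg⟩ := RED.H17.exists_isGenus _ _ (H95.stmt_HKA_isFF (M * q))
  obtain ⟨g₁, c₁, hg₁⟩ := RED.H17.exists_isGenus _ _ (isFF_F1 a b hab hq hA hqM ht)
  have hMq : 1 < M * q := by
    have h1 : 0 < M := Nat.pos_of_ne_zero (NeZero.ne M)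
    have h2 := hq.two_le
    nlinarith
  have hgQ : (g : ℚ) = genusFormula (M * q) := Fermat.Agent.BAD.H17.genus_FN_eq (M * q) hMq hg
  have h1 := genus_F1_eq A q M a b hab hq hA hqM ht hg₁
  have h4 := genus_eq_nodes A q M a b hab hq hA hqM ht hg hg₁
  have h4Q : (g : ℚ) + 1
      = (g₁ : ℚ) + g₁ + ((modSSD A q M a b hab hq hA hqM ht).nodes.card : ℚ) := by
    exact_mod_cast h4
  rw [← hgQ, ← h1]
  linarith

/-- **NUM-LE**: the number of nodes (supersingular points) is at most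
`g(M q) - 2 g(M) + 1`. -/
theorem numLE :
    ((modSSD A q M a b hab hq hA hqM ht).nodes.card : ℚ)
      ≤ genusFormula (M * q) - 2 * genusFormula M + 1 := by
  rw [nodes_card_eq A q M a b hab hq hA hqM ht]
  linarith

/-- A set of nodes which satisfies the inequality of NUM contains all the nodes. -/
theorem card_eq_nodes_card (Z : Finset (Place (kV A) (F1 A q M)))
    (hZ : ∀ z ∈ Z, (modTot A q M a b hab hq hA hqM ht).IsNode z)
    (hnum : genusFormula (M * q) + 1 ≤ 2 * genusFormula M + (Z.card : ℚ)) :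
    Z.card = (modSSD A q M a b hab hq hA hqM ht).nodes.card := by
  haveI : IsAlgClosed (kV A) := isAlgClosed_kV A
  haveI : Infinite (kV A) := IsAlgClosed.instInfinite
  have h1 := (modTot A q M a b hab hq hA hqM ht).card_le_toSSD_nodes (ffHyp_FN q M).principal
    (ffHyp_FN q M).deg_one (ffHyp_F1 A q M a b hab hq hA hqM ht).principal
    (ffHyp_F1 A q M a b hab hq hA hqM ht).deg_one (ffHyp_F1 A q M a b hab hq hA hqM ht).deg_one
    (exists_node_modTot A q M a b hab hq hA hqM ht) Z hZ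
  have h3 : Z.card ≤ (modSSD A q M a b hab hq hA hqM ht).nodes.card := h1
  have h2 := nodes_card_eq A q M a b hab hq hA hqM ht
  have h4 : ((modSSD A q M a b hab hq hA hqM ht).nodes.card : ℚ) ≤ (Z.card : ℚ) := by
    rw [h2]; linarith
  have h5 : (modSSD A q M a b hab hq hA hqM ht).nodes.card ≤ Z.card := by exact_mod_cast h4
  omega

/-- **The modular datum with the exact numerical data** (package form): the explicit datum
`modSSD`, Riemann's theorem for `F_{M q} · ℚ̄` and for the components, `g = genusFormula (M q)`,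
`g₁ = genusFormula M`, `g + 1 = 2 g₁ + δ`. -/
theorem modSSD_exact :
    ∃ (g g₁ : ℕ) (c c₁ : ℤ),
      RED.H17.IsGenus Kbar (FN (M * q)) g c ∧ RED.H17.IsGenus (kV A) (F1 A q M) g₁ c₁ ∧
      (g : ℚ) = genusFormula (M * q) ∧ (g₁ : ℚ) = genusFormula M ∧
      g + 1 = g₁ + g₁ + (modSSD A q M a b hab hq hA hqM ht).nodes.card := by
  haveI : IsAlgClosed (kV A) := isAlgClosed_kV A
  obtain ⟨g, c, hg⟩ := RED.H17.exists_isGenus _ _ (H95.stmt_HKA_isFF (M * q))
  obtain ⟨g₁, c₁, hg₁⟩ := RED.H17.exists_isGenus _ _ (isFF_F1 a b hab hq hA hqM ht)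
  have hMq : 1 < M * q := by
    have h1 : 0 < M := Nat.pos_of_ne_zero (NeZero.ne M)
    have h2 := hq.two_le
    nlinarith
  exact ⟨g, g₁, c, c₁, hg, hg₁, Fermat.Agent.BAD.H17.genus_FN_eq (M * q) hMq hg,
    genus_F1_eq A q M a b hab hq hA hqM ht hg₁,
    genus_eq_nodes A q M a b hab hq hA hqM ht hg hg₁⟩

end Mod

end Fermat.Agent.S59.LL.SQ.H83

end
end
-- ==== END Fermat.Agent.S59.LL.SQ.H83_NumLe

-- ==== BEGIN Fermat.Agent.S59.LL.SQ.H83_StRankCMod
section
attribute [local instance 10000] SubalgebraClass.toAlgebra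
attribute [local instance 10000] HahnSeries.powerSeriesAlgebra

/-!
# S59 / LL / SQ, leaf ST-RANK (c), modular input M1 APPROX-L0 (helper83)

`S = modSSD A q M …` the modular semistable Deuring datum of level `M q` (`q ∤ M` tame),
`L₀ = L0 A (M q)` the inertia-fixed functions, `V₁`, `V₂` the two Gauss valuations.

* `not_V1r_le_V2r`, `not_V2r_le_V1r` : the restrictions of `V₁`, `V₂` to `L₀` are incomparable
  (separating element `kronF = j_q - j^q ∈ L₀`);
* `exists_val_vec01` : there is `t ∈ L₀` with `V₁ (t) = 1` and `V₂ (t) = V₂ (q)`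
  (approximation theorem `S36.NU.H51.exists_unif_abs`);
* `stmt_ApproxL0` : **M1**: `∃ g₀ ∈ L₀, S.c₁.IsGU g₀ ∧ S.c₂.IsGU (g₀ / q)`.
-/

set_option autoImplicit false
set_option linter.style.haveILetI false
set_option synthInstance.maxHeartbeats 400000
set_option maxHeartbeats 400000
set_option linter.unusedSectionVars false

noncomputable section

open ModularCurve AlgebraicCurve
open Fermat.Agent.S28.H73 Fermat.Agent.RED.H73 Fermat.Agent.RED Fermat.Agent.S24
open Fermat.Agent.BAD.H88 Fermat.Agent.BAD Fermat.Agent.S36.NU.H23 Fermat.Agent.BAD.H91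

namespace Fermat.Agent.S59.LL.SQ.H83C

section Mod

variable (A : ValuationSubring Kbar) (q M : ℕ) (a b : ℤ) (hab : a * q + b * M = 1)
  (hq : q.Prime) [NeZero M] [NeZero (M * q)] [NeZero q] (hA : A.LiesOverPrime q)
  (hqM : ¬ q ∣ M) (ht : TameAt M q)

/-- The restriction of `V₁` to `L₀`. -/
def V1r : ValuationSubring ↥(L0 A (M * q)) := resV0 (L0 A (M * q)) (V1 A q M)

/-- The restriction of `V₂` to `L₀`. -/
def V2r : ValuationSubring ↥(L0 A (M * q)) := resV0 (L0 A (M * q)) (V2 A q M a b hab hq)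

/-- `j_q - j^q` is inertia-fixed. -/
theorem kronF_mem_L0 : BAD.H82.kronF q M ∈ L0 A (M * q) := by
  have : NeZero q := BAD.H82.neZero_of_mul_right q M
  unfold BAD.H82.kronF
  exact (L0 A (M * q)).sub_mem (jdF_mem_L0 A (M * q) q (dvd_mul_left q M))
    ((L0 A (M * q)).pow_mem (jdF_mem_L0 A (M * q) 1 (one_dvd _)) q)

include hab hq hA in
/-- `j_q - j^q` is a non-unit of `V₁`: its inverse is not in `V₁`. -/
theorem kronF_inv_not_mem_V1 : (BAD.H82.kronF q M)⁻¹ ∉ V1 A q M := by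
  intro hinv
  have hxm := BAD.H82.gaussRes_kronF q M hq A hA
  have hnu : ¬ IsUnit (⟨BAD.H82.kronF q M, BAD.H82.kronF_mem q M A⟩ : ↥(gaussV A (M * q))) := by
    rw [isUnit_iff_gaussResF_ne_zero, not_not]
    exact congrArg Subtype.val hxm
  by_cases hx0 : BAD.H82.kronF q M = 0
  · have hwu := BAD.H82.gaussRes_wq_kronF_ne_zero q M a b hab hq A hA
    apply hwu
    have e : (⟨wq q M a b hab hq (BAD.H82.kronF q M), BAD.H82.wq_kronF_mem q M a b hab hq A⟩ :
        ↥(gaussV A (M * q))) = 0 := Subtype.ext (by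
      show wq q M a b hab hq (BAD.H82.kronF q M) = 0
      rw [hx0, map_zero])
    rw [e, map_zero]
  · apply hnu
    refine IsUnit.of_mul_eq_one (⟨(BAD.H82.kronF q M)⁻¹, hinv⟩ : ↥(gaussV A (M * q))) ?_
    exact Subtype.ext (mul_inv_cancel₀ hx0)

include hA in
/-- `j_q - j^q` is a unit of `V₂`: its inverse is in `V₂`. -/
theorem kronF_inv_mem_V2 : (BAD.H82.kronF q M)⁻¹ ∈ V2 A q M a b hab hq := by
  rw [mem_V2_iff, map_inv₀]
  have hwu := BAD.H82.gaussRes_wq_kronF_ne_zero q M a b hab hq A hA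
  obtain ⟨h, -⟩ := BAD.H82.inv_mem_gaussV (M * q) A
    ⟨wq q M a b hab hq (BAD.H82.kronF q M), BAD.H82.wq_kronF_mem q M a b hab hq A⟩ hwu
  exact h

include hA in
theorem V1r_ne_V2r : V1r A q M ≠ V2r A q M a b hab hq := by
  intro h
  have h1 : (⟨(BAD.H82.kronF q M)⁻¹, (L0 A (M * q)).inv_mem (kronF_mem_L0 A q M)⟩ :
      ↥(L0 A (M * q))) ∈ V2r A q M a b hab hq :=
    kronF_inv_mem_V2 A q M a b hab hq hA
  rw [← h] at h1
  exact kronF_inv_not_mem_V1 A q M a b hab hq hA h1

include hq hA in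
theorem V1r_ne_top : V1r A q M ≠ ⊤ := by
  intro h
  have hc : algebraMap Kbar (FN (M * q)) ((q : Kbar))⁻¹ ∈ L0 A (M * q) := by
    rw [const_mem_L0_iff]
    intro σ _
    rw [map_inv₀, map_natCast]
  have h1 : (⟨_, hc⟩ : ↥(L0 A (M * q))) ∈ V1r A q M := by
    rw [h]; exact ValuationSubring.mem_top _
  have h1' : algebraMap Kbar (FN (M * q)) ((q : Kbar))⁻¹ ∈ V1 A q M := h1
  rw [const_mem1] at h1'
  have h2 : (q : Kbar) ∈ A.nonunits := hA
  rw [ValuationSubring.mem_nonunits_iff_or] at h2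
  rcases h2 with h2 | h2
  · exact hq.ne_zero (by exact_mod_cast h2)
  · exact h2 h1'

include hq hA in
theorem V2r_ne_top : V2r A q M a b hab hq ≠ ⊤ := by
  intro h
  have hc : algebraMap Kbar (FN (M * q)) ((q : Kbar))⁻¹ ∈ L0 A (M * q) := by
    rw [const_mem_L0_iff]
    intro σ _
    rw [map_inv₀, map_natCast]
  have h1 : (⟨_, hc⟩ : ↥(L0 A (M * q))) ∈ V2r A q M a b hab hq := by
    rw [h]; exact ValuationSubring.mem_top _
  have h1' : algebraMap Kbar (FN (M * q)) ((q : Kbar))⁻¹ ∈ V2 A q M a b hab hq := h1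
  rw [const_mem2, const_mem1] at h1'
  have h2 : (q : Kbar) ∈ A.nonunits := hA
  rw [ValuationSubring.mem_nonunits_iff_or] at h2
  rcases h2 with h2 | h2
  · exact hq.ne_zero (by exact_mod_cast h2)
  · exact h2 h1'

include hq hA in
theorem isArch_V1r : H42.IsArch (V1r A q M) :=
  isArch_resV0 _ _ (BAD.H73.isArch_V1 A q M hq hA)

include hq hA in
theorem isArch_V2r : H42.IsArch (V2r A q M a b hab hq) :=
  isArch_resV0 _ _ (BAD.H73.isArch_V2 A q M a b hab hq hA)

include hA in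
/-- **`V₁|L₀ ⊄ V₂|L₀`.** -/
theorem not_V1r_le_V2r : ¬ V1r A q M ≤ V2r A q M a b hab hq :=
  H42.not_le_of_isArch (isArch_V1r A q M hq hA) (V1r_ne_V2r A q M a b hab hq hA)
    (V2r_ne_top A q M a b hab hq hA)

include hA in
/-- **`V₂|L₀ ⊄ V₁|L₀`.** -/
theorem not_V2r_le_V1r : ¬ V2r A q M a b hab hq ≤ V1r A q M :=
  H42.not_le_of_isArch (isArch_V2r A q M a b hab hq hA) (V1r_ne_V2r A q M a b hab hq hA).symm
    (V1r_ne_top A q M hq hA)

include hA in
/-- A function of `L₀` with valuation vector `(0, 1)`. -/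
theorem exists_val_vec01 :
    ∃ t : ↥(L0 A (M * q)), (V1 A q M).valuation (t : FN (M * q)) = 1 ∧
      (V2 A q M a b hab hq).valuation (t : FN (M * q))
        = (V2 A q M a b hab hq).valuation ((q : ℕ) : FN (M * q)) := by
  classical
  have h2 : S36.NU.H51.IsLowVal A (M * q) q (V2 A q M a b hab hq) :=
    S36.NU.H51.isLowVal_V2 A q M a b hab hq hA
  set V : Fin 2 → ValuationSubring ↥(L0 A (M * q)) :=
    ![V1r A q M, V2r A q M a b hab hq] with hV
  have hArch : ∀ i, H42.IsArch (V i) := by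
    intro i
    fin_cases i
    · exact isArch_V1r A q M hq hA
    · exact isArch_V2r A q M a b hab hq hA
  have hinc : ∀ i j, i ≠ j → ¬ V i ≤ V j := by
    intro i j hij
    fin_cases i <;> fin_cases j
    · exact absurd rfl hij
    · exact not_V1r_le_V2r A q M a b hab hq hA
    · exact not_V2r_le_V1r A q M a b hab hq hA
    · exact absurd rfl hij
  have hnt : ∀ i, V i ≠ ⊤ := by
    intro i
    fin_cases i
    · exact V1r_ne_top A q M hq hA
    · exact V2r_ne_top A q M a b hab hq hA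
  have hq0 : ((q : ℕ) : ↥(L0 A (M * q))) ≠ 0 := by
    exact_mod_cast hq.ne_zero
  have hπ : (V 1).valuation ((q : ℕ) : ↥(L0 A (M * q))) < 1 := h2.res_val_q_lt_one hA
  obtain ⟨t, ht1, ht2⟩ := S36.NU.H51.exists_unif_abs V hArch hinc hnt 1
    ((q : ℕ) : ↥(L0 A (M * q))) hq0 hπ
  refine ⟨t, ?_, ?_⟩
  · have h0 := ht2 0 (by decide)
    have h0' : (resV0 (L0 A (M * q)) (V1 A q M)).valuation t
        = (resV0 (L0 A (M * q)) (V1 A q M)).valuation 1 := by
      rw [map_one]; exact h0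
    have := (valuation_resV0_eq_iff _ _ t 1).1 h0'
    simpa using this
  · have h1' : (resV0 (L0 A (M * q)) (V2 A q M a b hab hq)).valuation t
        = (resV0 (L0 A (M * q)) (V2 A q M a b hab hq)).valuation ((q : ℕ) : ↥(L0 A (M * q))) :=
      ht1
    have := (valuation_resV0_eq_iff _ _ t ((q : ℕ) : ↥(L0 A (M * q)))).1 h1'
    simpa using this

include hA in
/-- **M1 APPROX-L0**: a function of `L₀` which is a Gauss unit for the first component and
`q` times a Gauss unit for the second one. -/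
theorem stmt_ApproxL0 :
    ∃ g₀ : FN (M * q), g₀ ∈ L0 A (M * q) ∧
      (S43.H91.modSSD A q M a b hab hq hA hqM ht).c₁.IsGU g₀ ∧
      (S43.H91.modSSD A q M a b hab hq hA hqM ht).c₂.IsGU
        (g₀ / algebraMap Kbar (FN (M * q)) ((q : ℕ) : Kbar)) := by
  obtain ⟨t, ht1, ht2⟩ := exists_val_vec01 A q M a b hab hq hA
  refine ⟨(t : FN (M * q)), t.2, ?_, ?_⟩
  · have hmem : (t : FN (M * q)) ∈ (S43.H91.modSSD A q M a b hab hq hA hqM ht).c₁.V := by
      rw [S43.H91.modSSD_c₁_V, ← ValuationSubring.valuation_le_one_iff, ht1]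
    rw [BAD.PRed.isGU_iff_isUnit _ hmem]
    rw [ValuationSubring.valuation_eq_one_iff]
    exact ht1
  · have e : algebraMap Kbar (FN (M * q)) ((q : ℕ) : Kbar) = ((q : ℕ) : FN (M * q)) :=
      map_natCast _ q
    have hq0 : ((q : ℕ) : FN (M * q)) ≠ 0 := by exact_mod_cast hq.ne_zero
    have hv : (V2 A q M a b hab hq).valuation
        ((t : FN (M * q)) / algebraMap Kbar (FN (M * q)) ((q : ℕ) : Kbar)) = 1 := by
      rw [e, map_div₀, ht2]
      exact div_self ((Valuation.ne_zero_iff _).2 hq0)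
    have hmem : (t : FN (M * q)) / algebraMap Kbar (FN (M * q)) ((q : ℕ) : Kbar)
        ∈ (S43.H91.modSSD A q M a b hab hq hA hqM ht).c₂.V := by
      rw [S43.H91.modSSD_c₂_V, ← ValuationSubring.valuation_le_one_iff, hv]
    rw [BAD.PRed.isGU_iff_isUnit _ hmem]
    rw [ValuationSubring.valuation_eq_one_iff]
    exact hv

end Mod

end Fermat.Agent.S59.LL.SQ.H83C

end
end
-- ==== END Fermat.Agent.S59.LL.SQ.H83_StRankCMod

-- ==== BEGIN Fermat.Agent.S59.LL.SQ.H87_CPowAbs
section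

/-!
# S59 / LL / SQ, leaf (R), hypothesis CPOW2002 (helper87): the abstract steps

Generic lemmas (no modular curves) for `H87_CPow.lean`:

* `cpa_val_eq_one` : an element of a valuation ring with non-zero reduction has valuation `1`;
* `cpa_red_unit_form` : the reduction of `c' g' ^ p` (`c'` a unit constant, `g'` a unit) is
  `res c' · (red g') ^ p`, both factors non-zero;
* `cpa_pow_of_phi` : if `φ x = c₁ G ^ p` for a semilinear automorphism `φ` acting on the
  constants by `c ↦ c ^ q` over an algebraically closed field then `x = a y ^ p`;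
* `cpa_coe_const_mul_pow` : the coercion of `a y ^ p` from an intermediate field.

This file contains no `sorry`.
-/

set_option autoImplicit false

namespace Fermat.Agent.S59.LL.SQ.H87

section Abs

variable {K F : Type*} [Field K] [Field F] [Algebra K F]
variable {κ E₁ : Type*} [Field κ] [Field E₁] [Algebra κ E₁]

/-- An element of a valuation ring with non-zero reduction has valuation `1`. -/
theorem cpa_val_eq_one (W : ValuationSubring F) (red : ↥W →+* E₁)
    (hred : ∀ u : ↥W, red u = 0 ↔ u ∈ IsLocalRing.maximalIdeal ↥W)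
    (n : F) (hn : n ∈ W) (h : red ⟨n, hn⟩ ≠ 0) : W.valuation n = 1 := by
  have hunit : IsUnit (⟨n, hn⟩ : ↥W) := by
    by_contra hnu
    exact h ((hred _).2 ((IsLocalRing.mem_maximalIdeal _).2 hnu))
  exact (W.valuation_eq_one_iff ⟨n, hn⟩).1 hunit

/-- The reduction of a unit is non-zero. -/
theorem cpa_red_ne_zero (W : ValuationSubring F) (red : ↥W →+* E₁)
    (hred : ∀ u : ↥W, red u = 0 ↔ u ∈ IsLocalRing.maximalIdeal ↥W)
    (n : F) (hn : n ∈ W) (h : W.valuation n = 1) : red ⟨n, hn⟩ ≠ 0 := by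
  intro h0
  have h1 := (hred _).1 h0
  exact ((IsLocalRing.mem_maximalIdeal _).1 h1) ((W.valuation_eq_one_iff ⟨n, hn⟩).2 h)

/-- The reduction of `c' g' ^ p`, with a unit constant `c'` and a unit `g'`. -/
theorem cpa_red_unit_form (A : ValuationSubring K) (W : ValuationSubring F)
    (res : ↥A →+* κ) (hres : ∀ c : ↥A, IsUnit c → res c ≠ 0)
    (red : ↥W →+* E₁)
    (hred : ∀ u : ↥W, red u = 0 ↔ u ∈ IsLocalRing.maximalIdeal ↥W)
    (hmem : ∀ c : K, c ∈ A → algebraMap K F c ∈ W)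
    (hconst : ∀ (c : ↥A) (h : algebraMap K F (c : K) ∈ W),
      red ⟨_, h⟩ = algebraMap κ E₁ (res c))
    (p : ℕ) (c' : K) (g' : F) (hc' : A.valuation c' = 1) (hg' : W.valuation g' = 1)
    (n : F) (hn : n ∈ W) (hne : n = algebraMap K F c' * g' ^ p) :
    ∃ (c₁ : κ) (G : E₁), c₁ ≠ 0 ∧ G ≠ 0 ∧ red ⟨n, hn⟩ = algebraMap κ E₁ c₁ * G ^ p := by
  have hc'A : c' ∈ A := (A.valuation_le_one_iff c').1 hc'.le
  have hc'W : algebraMap K F c' ∈ W := hmem c' hc'A
  have hg'W : g' ∈ W := (W.valuation_le_one_iff g').1 hg'.le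
  have hc'u : IsUnit (⟨c', hc'A⟩ : ↥A) := (A.valuation_eq_one_iff ⟨c', hc'A⟩).2 hc'
  refine ⟨res ⟨c', hc'A⟩, red ⟨g', hg'W⟩, hres _ hc'u,
    cpa_red_ne_zero W red hred g' hg'W hg', ?_⟩
  have hprod : (⟨n, hn⟩ : ↥W) = ⟨algebraMap K F c', hc'W⟩ * ⟨g', hg'W⟩ ^ p := by
    apply Subtype.ext
    rw [MulMemClass.coe_mul, SubmonoidClass.coe_pow]
    exact hne
  rw [hprod, map_mul, map_pow]
  exact congrArg (· * red ⟨g', hg'W⟩ ^ p) (hconst ⟨c', hc'A⟩ hc'W)

variable {E : Type*} [Field E] [Algebra κ E]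

/-- If `φ x = c₁ G ^ p`, where `φ` acts on the constants by `c ↦ c ^ q`, then `x = a y ^ p`. -/
theorem cpa_pow_of_phi [IsAlgClosed κ] (φ : E ≃+* E) (q : ℕ) (hq : 0 < q)
    (hφ : ∀ c : κ, φ (algebraMap κ E c) = algebraMap κ E (c ^ q))
    (p : ℕ) (x : E) (c₁ : κ) (G : E) (hc₁ : c₁ ≠ 0) (hG : G ≠ 0)
    (hx : φ x = algebraMap κ E c₁ * G ^ p) :
    ∃ (a : κ) (y : E), a ≠ 0 ∧ y ≠ 0 ∧ x = algebraMap κ E a * y ^ p := by
  obtain ⟨a, ha⟩ := IsAlgClosed.exists_pow_nat_eq c₁ hq
  refine ⟨a, φ.symm G, ?_, ?_, ?_⟩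
  · rintro rfl
    rw [zero_pow hq.ne'] at ha
    exact hc₁ ha.symm
  · intro h0
    exact hG (by rw [← φ.apply_symm_apply G, h0, map_zero])
  · apply φ.injective
    rw [hx, map_mul, map_pow, RingEquiv.apply_symm_apply, hφ, ha]

/-- The chain of the abstract steps: from `φ x = j (red n)`, `n = c' g' ^ p` with units
`c'`, `g'`, to `x = a y ^ p`. -/
theorem cpa_main [IsAlgClosed κ] (A : ValuationSubring K) (W : ValuationSubring F)
    (res : ↥A →+* κ) (hres : ∀ c : ↥A, IsUnit c → res c ≠ 0)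
    (red : ↥W →+* E₁)
    (hred : ∀ u : ↥W, red u = 0 ↔ u ∈ IsLocalRing.maximalIdeal ↥W)
    (hmem : ∀ c : K, c ∈ A → algebraMap K F c ∈ W)
    (hconst : ∀ (c : ↥A) (h : algebraMap K F (c : K) ∈ W),
      red ⟨_, h⟩ = algebraMap κ E₁ (res c))
    (j : E₁ →ₐ[κ] E) (φ : E ≃+* E) (q : ℕ) (hq : 0 < q)
    (hφ : ∀ c : κ, φ (algebraMap κ E c) = algebraMap κ E (c ^ q))
    (p : ℕ) (c' : K) (g' : F) (hc' : A.valuation c' = 1) (hg' : W.valuation g' = 1)
    (n : F) (hn : n ∈ W) (hne : n = algebraMap K F c' * g' ^ p)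
    (x : E) (hx : φ x = j (red ⟨n, hn⟩)) :
    ∃ (a : κ) (y : E), a ≠ 0 ∧ y ≠ 0 ∧ x = algebraMap κ E a * y ^ p := by
  obtain ⟨c₁, G, hc₁, hG, e⟩ :=
    cpa_red_unit_form A W res hres red hred hmem hconst p c' g' hc' hg' n hn hne
  refine cpa_pow_of_phi φ q hq hφ p x c₁ (j G) hc₁
    ((map_ne_zero_iff _ j.injective).2 hG) ?_
  rw [hx, e, map_mul, map_pow, AlgHom.commutes]

/-- `x ≠ 0` and `φ x = j (red n)` give `v(n) = 1`. -/
theorem cpa_unit (W : ValuationSubring F) (red : ↥W →+* E₁)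
    (hred : ∀ u : ↥W, red u = 0 ↔ u ∈ IsLocalRing.maximalIdeal ↥W)
    (j : E₁ →ₐ[κ] E) (φ : E ≃+* E) (n : F) (hn : n ∈ W)
    (x : E) (hx0 : x ≠ 0) (hx : φ x = j (red ⟨n, hn⟩)) : W.valuation n = 1 := by
  apply cpa_val_eq_one W red hred n hn
  intro h0
  rw [h0, map_zero] at hx
  exact hx0 ((map_eq_zero_iff _ φ.injective).1 hx)

/-- The coercion of `a y ^ p` from an intermediate field. -/
theorem cpa_coe_const_mul_pow {L : Type*} [Field L] [Algebra κ L] (S : IntermediateField κ L)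
    (a : κ) (y : ↥S) (p : ℕ) :
    ((algebraMap κ ↥S a * y ^ p : ↥S) : L) = algebraMap κ L a * (y : L) ^ p := by
  rw [IntermediateField.coe_mul, IntermediateField.coe_pow]
  rfl

end Abs

end Fermat.Agent.S59.LL.SQ.H87

end
-- ==== END Fermat.Agent.S59.LL.SQ.H87_CPowAbs

-- ==== BEGIN Fermat.Agent.S59.LL.SQ23.H36_H90
section

/-!
# S59 / LL / SQ23, leaf S3-H90 in abstract form (helper36)

`K` algebraically closed, `L` a function field of one variable over `K`, `c` a `K`-automorphism of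
`L` of order exactly `3`, `E = L^⟨c⟩` (`fixE c`), `φ : E → L` (`fixIncl c`).  `Φ` a correspondence
on `L` with function `N` and degree `d = n` (calculus of `NEB.H14.IsCorr`), `N` multiplicative,
commuting with `c`, with `N ζ = ζ ^ n` on the cube roots of unity of `K`
(for `T_ℓ`: `N = Norm_β ∘ α^*`, `d = n = ℓ + 1`).

* `fix_norm`, `fix_finrank`, `fix_finiteAlong`, `isFF_fixE` : the cyclic cubic extension `L / E`;
* `pushP_fix_eq_zero` : steps (a) + (b) of helper40's note: if `x ∈ Pic⁰(L)[3]` is fixed by `c`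
  and `Φ x = t x` with `3 ∤ t - n`, then `φ_* x = 0`  (the character `ζ_x` is trivial);
* `h90_eigen` : then `x = c u - u`  (`NEB.H29.pionto_ker` = Tsen + permutation modules, Bezout).
-/

set_option autoImplicit false
set_option linter.style.haveILetI false
set_option linter.unusedSectionVars false

noncomputable section

namespace Fermat.Agent.S59.LL.SQ23.H36

open AlgebraicCurve Fermat.Agent.RED Fermat.Agent.NEB.H14 Fermat.Agent.NEB.H29

section Fix

variable {K L F₀ : Type} [Field K] [Field L] [Field F₀] [Algebra K L] [Algebra K F₀]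

/-- The fixed field of `c`. -/
def fixE (c : L ≃ₐ[K] L) : IntermediateField K L :=
  IntermediateField.fixedField (Subgroup.zpowers c)

theorem zpowers_apply_eq (c : L ≃ₐ[K] L) {x : L} (hx : c x = x) (g : L ≃ₐ[K] L)
    (hg : g ∈ Subgroup.zpowers c) : g x = x := by
  have hle : Subgroup.zpowers c ≤ MulAction.stabilizer (L ≃ₐ[K] L) x := by
    rw [Subgroup.zpowers_le]
    exact hx
  exact hle hg

theorem mem_fixE_iff (c : L ≃ₐ[K] L) (x : L) : x ∈ fixE c ↔ c x = x := by
  rw [fixE, IntermediateField.mem_fixedField_iff]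
  constructor
  · intro h
    exact h c (Subgroup.mem_zpowers c)
  · intro h g hg
    exact zpowers_apply_eq c h g hg

/-- The inclusion of the fixed field. -/
def fixIncl (c : L ≃ₐ[K] L) : ↥(fixE c) →ₐ[K] L := (fixE c).val

@[simp] theorem fixIncl_apply (c : L ≃ₐ[K] L) (e : ↥(fixE c)) : fixIncl c e = (e : L) := rfl

theorem fixIncl_fixed (c : L ≃ₐ[K] L) (e : ↥(fixE c)) : c (fixIncl c e) = fixIncl c e :=
  (mem_fixE_iff c _).1 e.2

theorem exists_fixIncl_eq (c : L ≃ₐ[K] L) {x : L} (hx : c x = x) : ∃ e, fixIncl c e = x :=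
  ⟨⟨x, (mem_fixE_iff c x).2 hx⟩, rfl⟩

theorem orderOf_eq_three (c : L ≃ₐ[K] L) (hc3 : c ^ 3 = 1) (hc1 : c ≠ 1) : orderOf c = 3 := by
  haveI : Fact (Nat.Prime 3) := ⟨Nat.prime_three⟩
  exact orderOf_eq_prime hc3 hc1

/-- The norm of `L / L^⟨c⟩` is `x ↦ x · c x · c² x`. -/
theorem fix_norm (c : L ≃ₐ[K] L) (hc3 : c ^ 3 = 1) (hc1 : c ≠ 1) (x : L) :
    fixIncl c (normFn (fixIncl c) x) = ∏ i : Fin 3, (c ^ (i : ℕ)) x := by
  have hord := orderOf_eq_three c hc3 hc1
  have hfo : IsOfFinOrder c := isOfFinOrder_iff_pow_eq_one.mpr ⟨3, by norm_num, hc3⟩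
  haveI : Finite ↥(Subgroup.zpowers c) := hfo.finite_zpowers
  letI : Fintype ↥(Subgroup.zpowers c) := Fintype.ofFinite _
  have h := (Fermat.Agent.NEB.H2.galNorm (fixIncl c) (Subgroup.zpowers c)
    (fun x hx => exists_fixIncl_eq c (hx c (Subgroup.mem_zpowers c)))
    (fun g y hg => zpowers_apply_eq c (fixIncl_fixed c y) g hg)).2.2 x
  rw [h]
  rw [← Fintype.prod_equiv (finEquivZPowers hfo) (fun i => (c ^ (i : ℕ)) x)
    (fun g => (g : L ≃ₐ[K] L) x) (fun i => by rw [finEquivZPowers_apply])]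
  rw [Fin.prod_univ_eq_prod_range (fun i => (c ^ i) x) (orderOf c), hord,
    ← Fin.prod_univ_eq_prod_range (fun i => (c ^ i) x) 3]

theorem fix_finiteAlong (c : L ≃ₐ[K] L) (hc3 : c ^ 3 = 1) :
    FiniteAlong K (fixIncl c) := by
  have hfo : IsOfFinOrder c := isOfFinOrder_iff_pow_eq_one.mpr ⟨3, by norm_num, hc3⟩
  haveI : Finite ↥(Subgroup.zpowers c) := hfo.finite_zpowers
  letI : Fintype ↥(Subgroup.zpowers c) := Fintype.ofFinite _
  exact (Fermat.Agent.NEB.H2.galNorm (fixIncl c) (Subgroup.zpowers c)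
    (fun x hx => exists_fixIncl_eq c (hx c (Subgroup.mem_zpowers c)))
    (fun g y hg => zpowers_apply_eq c (fixIncl_fixed c y) g hg)).1

theorem fix_finrank (c : L ≃ₐ[K] L) (hc3 : c ^ 3 = 1) (hc1 : c ≠ 1) :
    finrankAlong K (fixIncl c) = 3 := by
  have hord := orderOf_eq_three c hc3 hc1
  have hfo : IsOfFinOrder c := isOfFinOrder_iff_pow_eq_one.mpr ⟨3, by norm_num, hc3⟩
  haveI : Finite ↥(Subgroup.zpowers c) := hfo.finite_zpowers
  letI : Fintype ↥(Subgroup.zpowers c) := Fintype.ofFinite _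
  rw [(Fermat.Agent.NEB.H2.galNorm (fixIncl c) (Subgroup.zpowers c)
    (fun x hx => exists_fixIncl_eq c (hx c (Subgroup.mem_zpowers c)))
    (fun g y hg => zpowers_apply_eq c (fixIncl_fixed c y) g hg)).2.1]
  rw [← Nat.card_eq_fintype_card, Nat.card_zpowers, hord]

/-- The fixed field is a function field. -/
theorem isFF_fixE (hL : IsFF K L) (hF₀ : IsFF K F₀) [IsAlgClosed K] (μ : F₀ →ₐ[K] L)
    (c : L ≃ₐ[K] L) (hμ : ∀ a, c (μ a) = μ a) : IsFF K ↥(fixE c) := by
  let μ' : F₀ →ₐ[K] ↥(fixE c) :=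
    AlgHom.codRestrict μ (fixE c).toSubalgebra (fun a => (mem_fixE_iff c _).2 (hμ a))
  refine Fermat.Agent.NEB.H94.isFF_of_finiteAlong hF₀ μ' ?_
  have hfinL : FiniteAlong K μ := finiteAlong_hom hF₀ hL μ
  letI a1 := algebraAlong μ
  letI a2 := algebraAlong μ'
  haveI : Module.Finite F₀ L := hfinL
  show Module.Finite F₀ ↥(fixE c)
  let ι : ↥(fixE c) →ₗ[F₀] L :=
    { toFun := fun e => (e : L)
      map_add' := fun _ _ => rfl
      map_smul' := fun a e => by
        show ((μ' a * e : ↥(fixE c)) : L) = μ a * (e : L)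
        rfl }
  exact Module.Finite.of_injective ι Subtype.val_injective

end Fix

section Main

variable {K L : Type} [Field K] [Field L] [Algebra K L] [IsAlgClosed K]

/-- `ζ ^ 3 = 1` and `ζ ^ m = 1` with `3 ∤ m` give `ζ = 1`. -/
theorem eq_one_of_zpow {ζ : K} (hζ0 : ζ ≠ 0) (h3 : ζ ^ 3 = 1) (m : ℤ) (hm : ζ ^ m = 1)
    (h : ¬ (3 : ℤ) ∣ m) : ζ = 1 := by
  have hcop : IsCoprime m (3 : ℤ) := by
    have hp : Prime (3 : ℤ) := Int.prime_three
    exact (hp.coprime_iff_not_dvd.mpr h).symm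
  obtain ⟨a, b, hab⟩ := hcop
  have h1 : ζ ^ (a * m + b * 3) = 1 := by
    rw [zpow_add₀ hζ0, mul_comm a m, zpow_mul, hm, one_zpow, mul_comm b 3, zpow_mul]
    have : ζ ^ (3 : ℤ) = 1 := by exact_mod_cast h3
    rw [this, one_zpow, one_mul]
  rw [hab, zpow_one] at h1
  exact h1

/-- **(a) + (b)**: a `c`-fixed non-Eisenstein eigenvector of order `3` is killed by the
push-forward to the quotient by `c`. -/
theorem pushP_fix_eq_zero (hL : IsFF K L) (c : L ≃ₐ[K] L) (hE : IsFF K ↥(fixE c))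
    (hc3 : c ^ 3 = 1) (hc1 : c ≠ 1)
    {Φ : Divisor K L →+ Divisor K L} {N : L → L} {d : ℤ} (hΦ : IsCorr Φ N d)
    (hNmul : ∀ f g, N (f * g) = N f * N g) (hNc : ∀ f, N (c f) = c (N f))
    (n : ℕ) (hNK : ∀ ζ : K, ζ ^ 3 = 1 → N (algebraMap K L ζ) = algebraMap K L (ζ ^ n))
    (x : Pic0 K L) (h3 : (3 : ℤ) • x = 0) (hcx : c • x = x) (t : ℤ)
    (ht : picMap Φ x = t • x) (hEis : ¬ (3 : ℤ) ∣ t - n) :
    pushP (fixIncl c) x = 0 := by
  haveI := hasPD hL
  haveI := hasPD hE
  have hconst : ConstHyp K L := constHyp_of_isFF hL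
  have hpull := isCorr_pullD hE hL (fixIncl c)
  have hpush := isCorr_pushD hE hL (fixIncl c)
  obtain ⟨D, rfl⟩ := Pic0.mk_surjective x
  -- (1) `S := φ^* φ_* D` is principal
  have hSprin : pullD (fixIncl c) (pushD (fixIncl c) (D : Divisor K L)) ∈
      Divisor.principal (K := K) (F := L) := by
    have h1 := pullP_pushP_of_norm hE hL (fixIncl c) (fun i : Fin 3 => c ^ (i : ℕ))
      (fun x _ => fix_norm c hc3 hc1 x) (Pic0.mk D)
    have h2 : ∀ i : ℕ, (c ^ i) • Pic0.mk D = Pic0.mk D := by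
      intro i
      induction i with
      | zero => rw [pow_zero, one_smul]
      | succ k ih => rw [pow_succ, mul_smul, hcx, ih]
    simp only [h2, Finset.sum_const, Finset.card_univ, Fintype.card_fin] at h1
    have h4 : pullP (fixIncl c) (pushP (fixIncl c) (Pic0.mk D)) = 0 := by
      rw [h1, ← natCast_zsmul]
      exact h3
    rw [pushP, picMap_mk hpush.isGood, pullP, picMap_mk hpull.isGood, pic0_mk_eq_zero_iff] at h4
    simpa only [coe_degZeroMap] using h4
  obtain ⟨f, hf0, hSf⟩ := hSprin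
  -- (2) `c • S = S`
  have hcS : smulD c (pullD (fixIncl c) (pushD (fixIncl c) (D : Divisor K L))) =
      pullD (fixIncl c) (pushD (fixIncl c) (D : Divisor K L)) := by
    have h1 : (smulD c).comp (pullD (fixIncl c)) = pullD (fixIncl c) :=
      ((isCorr_smulD c).comp hpull).eq hpull (fun e _ => fixIncl_fixed c e)
    exact DFunLike.congr_fun h1 _
  -- (3) `c f = ζ f`
  have hcf0 : c f ≠ 0 := by simpa using hf0
  have hord_cf : ∀ w : Place K L, w.ord (c f) = w.ord f := by
    intro w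
    have h1 := ((isCorr_smulD c).hasFn f hf0).2 _ hSf w
    rw [hcS] at h1
    rw [← h1, hSf w]
  obtain ⟨ζ, hζ⟩ := hconst (c f * f⁻¹) (mul_ne_zero hcf0 (inv_ne_zero hf0)) (fun v => by
    rw [v.ord_mul hcf0 (inv_ne_zero hf0), v.ord_inv, hord_cf v, add_neg_cancel])
  have hcf : c f = algebraMap K L ζ * f := by
    rw [hζ]
    field_simp
  have hζ0 : ζ ≠ 0 := by
    rintro rfl
    rw [map_zero, zero_mul] at hcf
    exact hcf0 hcf
  have hζ3 : ζ ^ 3 = 1 := by
    have h1 : (c ^ 3) f = algebraMap K L (ζ ^ 3) * f := by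
      have e3 : c ^ 3 = c * c * c := by rw [pow_succ, pow_two]
      rw [e3]
      simp only [AlgEquiv.mul_apply, hcf, map_mul, AlgEquiv.commutes, map_pow]
      ring
    rw [hc3, AlgEquiv.one_apply] at h1
    have h2 : algebraMap K L (ζ ^ 3) = 1 :=
      mul_right_cancel₀ hf0 (by rw [← h1, one_mul])
    exact (algebraMap K L).injective (by rw [h2, map_one])
  -- (4) the eigen-relation on divisors
  obtain ⟨g₀, hg₀, hg⟩ : ∃ g₀ : L, g₀ ≠ 0 ∧
      ∀ v, (Φ (D : Divisor K L) - t • (D : Divisor K L)) v = v.ord g₀ := by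
    rw [picMap_mk hΦ.isGood] at ht
    have h1 : Pic0.mk (degZeroMap Φ hΦ.isGood D - t • D) = 0 := by
      have : Pic0.mk (degZeroMap Φ hΦ.isGood D - t • D) =
          Pic0.mk (degZeroMap Φ hΦ.isGood D) - t • Pic0.mk D := rfl
      rw [this, ht, sub_self]
    rw [pic0_mk_eq_zero_iff] at h1
    obtain ⟨g₀, hg₀, hg⟩ := h1
    refine ⟨g₀, hg₀, fun v => ?_⟩
    have := hg v
    simpa only [AddSubgroup.coe_sub, coe_degZeroMap, AddSubgroup.coe_zsmul] using this
  -- `φ^* φ_*` commutes with `Φ`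
  have hSdcorr : IsCorr ((pullD (fixIncl c)).comp (pushD (fixIncl c)))
      ((fixIncl c) ∘ normFn (fixIncl c)) (finrankAlong K (fixIncl c) * 1) := hpull.comp hpush
  have hcomm : Φ.comp ((pullD (fixIncl c)).comp (pushD (fixIncl c))) =
      ((pullD (fixIncl c)).comp (pushD (fixIncl c))).comp Φ := by
    refine (hΦ.comp hSdcorr).eq (hSdcorr.comp hΦ) (fun f _ => ?_)
    show N (fixIncl c (normFn (fixIncl c) f)) = fixIncl c (normFn (fixIncl c) (N f))
    rw [fix_norm c hc3 hc1, fix_norm c hc3 hc1, Fin.prod_univ_three, Fin.prod_univ_three]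
    simp only [Fin.val_zero, Fin.val_one, Fin.val_two, pow_zero, pow_one, AlgEquiv.one_apply]
    rw [hNmul, hNmul, pow_two]
    simp only [AlgEquiv.mul_apply]
    rw [hNc, hNc, hNc]
  have h5 : Φ (pullD (fixIncl c) (pushD (fixIncl c) (D : Divisor K L))) =
      pullD (fixIncl c) (pushD (fixIncl c) (Φ (D : Divisor K L))) :=
    DFunLike.congr_fun hcomm (D : Divisor K L)
  -- the functions
  have hh₀0 : fixIncl c (normFn (fixIncl c) g₀) ≠ 0 := by
    intro h0
    exact normFn_ne_zero hE hL (fixIncl c) hg₀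
      ((fixIncl c).toRingHom.injective (by simpa using h0))
  have hNf0 : N f ≠ 0 := (hΦ.hasFn f hf0).1
  have hft0 : f ^ t ≠ 0 := zpow_ne_zero t hf0
  have hord2 : ∀ w : Place K L,
      w.ord (N f) = w.ord (f ^ t * fixIncl c (normFn (fixIncl c) g₀)) := by
    intro w
    have e1 := (hΦ.hasFn f hf0).2 _ hSf w
    have e2 : Φ (D : Divisor K L) = t • (D : Divisor K L) +
        (Φ (D : Divisor K L) - t • (D : Divisor K L)) := by abel
    have e3 := (hSdcorr.hasFn g₀ hg₀).2 _ hg w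
    rw [AddMonoidHom.comp_apply, Function.comp_apply] at e3
    rw [← e1, h5, e2, map_add, map_add, map_zsmul, map_zsmul, Finsupp.add_apply,
      Finsupp.smul_apply, e3, hSf w, w.ord_mul hft0 hh₀0, w.ord_zpow, smul_eq_mul]
  obtain ⟨a, ha⟩ := hconst (N f * (f ^ t * fixIncl c (normFn (fixIncl c) g₀))⁻¹)
    (mul_ne_zero hNf0 (inv_ne_zero (mul_ne_zero hft0 hh₀0))) (fun v => by
      rw [v.ord_mul hNf0 (inv_ne_zero (mul_ne_zero hft0 hh₀0)), v.ord_inv, hord2 v,
        add_neg_cancel])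
  have hNf : N f = algebraMap K L a * (f ^ t * fixIncl c (normFn (fixIncl c) g₀)) := by
    rw [ha]
    field_simp
  -- apply `c`
  have h6 : c (N f) = algebraMap K L (ζ ^ n) * N f := by
    rw [← hNc, hcf, hNmul, hNK ζ hζ3]
  have h7 : c (N f) = algebraMap K L (ζ ^ t) * N f := by
    conv_lhs => rw [hNf]
    rw [map_mul, map_mul, map_zpow₀, hcf, fixIncl_fixed, AlgEquiv.commutes, mul_zpow,
      map_zpow₀]
    conv_rhs => rw [hNf]
    ring
  have h8 : ζ ^ (t - n) = 1 := by
    have h9 : algebraMap K L (ζ ^ n) = algebraMap K L (ζ ^ t) :=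
      mul_right_cancel₀ hNf0 (h6.symm.trans h7)
    have h10 : ζ ^ (n : ℤ) = ζ ^ t := by
      have := (algebraMap K L).injective h9
      rw [zpow_natCast]
      exact this
    rw [zpow_sub₀ hζ0, ← h10, div_self (zpow_ne_zero _ hζ0)]
  have hζ1 : ζ = 1 := eq_one_of_zpow hζ0 hζ3 (t - n) h8 hEis
  -- (5) `f` comes from the fixed field
  rw [hζ1, map_one, one_mul] at hcf
  obtain ⟨e, he⟩ := exists_fixIncl_eq c hcf
  have he0 : e ≠ 0 := by
    rintro rfl
    rw [map_zero] at he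
    exact hf0 he.symm
  -- (6) `φ_* D = div e`
  rw [pushP, picMap_mk hpush.isGood, pic0_mk_eq_zero_iff]
  refine ⟨e, he0, fun v => ?_⟩
  rw [coe_degZeroMap]
  have h11 := DFunLike.congr_fun (pushD_comp_pullD hE hL (fixIncl c))
    (pushD (fixIncl c) (D : Divisor K L))
  rw [AddMonoidHom.comp_apply, fix_finrank c hc3 hc1] at h11
  have h12 := (hpush.hasFn f hf0).2 _ hSf v
  rw [h11, ← he, normFn_apply_self, fix_finrank c hc3 hc1] at h12
  rw [AddMonoidHom.smul_apply, AddMonoidHom.id_apply, Finsupp.smul_apply, ord_pow_nat] at h12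
  have h13 : (3 : ℤ) * (pushD (fixIncl c) (D : Divisor K L)) v = 3 * v.ord e := by
    rw [nsmul_eq_mul] at h12
    exact_mod_cast h12
  exact mul_left_cancel₀ (by norm_num) h13

/-- **S3-H90, abstract form.** -/
theorem h90_eigen {F₀ : Type} [Field F₀] [Algebra K F₀]
    (hL : IsFF K L) (hF₀ : IsFF K F₀) (μ : F₀ →ₐ[K] L) (c : L ≃ₐ[K] L)
    (hμ : ∀ a, c (μ a) = μ a) (hc3 : c ^ 3 = 1) (hc1 : c ≠ 1)
    {Φ : Divisor K L →+ Divisor K L} {N : L → L} {d : ℤ} (hΦ : IsCorr Φ N d)
    (hNmul : ∀ f g, N (f * g) = N f * N g) (hNc : ∀ f, N (c f) = c (N f))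
    (n : ℕ) (hNK : ∀ ζ : K, ζ ^ 3 = 1 → N (algebraMap K L ζ) = algebraMap K L (ζ ^ n))
    (hd : d = n)
    (x : Pic0 K L) (h3 : (3 : ℤ) • x = 0) (hcx : c • x = x) (t : ℤ)
    (ht : picMap Φ x = t • x) (hEis : ¬ (3 : ℤ) ∣ t - d) :
    ∃ u : Pic0 K L, c • u - u = x := by
  have hE : IsFF K ↥(fixE c) := isFF_fixE hL hF₀ μ c hμ
  have hpush : pushP (fixIncl c) x = 0 :=
    pushP_fix_eq_zero hL c hE hc3 hc1 hΦ hNmul hNc n hNK x h3 hcx t ht (by rw [← hd]; exact hEis)
  obtain ⟨u, hu⟩ := pionto_ker hE hL (fixIncl c) c 3 (by norm_num) hc3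
    (fun x _ => fix_norm c hc3 hc1 x) hΦ (fun f _ => hNc f) x hpush
  rw [ht, ← sub_smul] at hu
  -- Bezout
  have hcop : IsCoprime (t - d) (3 : ℤ) := by
    have hp : Prime (3 : ℤ) := Int.prime_three
    exact (hp.coprime_iff_not_dvd.mpr hEis).symm
  obtain ⟨a, b, hab⟩ := hcop
  refine ⟨a • u, ?_⟩
  have h1 : x = a • ((t - d) • x) + b • ((3 : ℤ) • x) := by
    rw [← mul_zsmul, ← mul_zsmul, ← add_zsmul, hab, one_zsmul]
  have h2 : c • (a • u) = a • (c • u) :=
    map_zsmul (DistribSMul.toAddMonoidHom (Pic0 K L) c) a u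
  rw [h2, ← zsmul_sub, ← hu]
  conv_rhs => rw [h1, h3, zsmul_zero, add_zero]

end Main

end Fermat.Agent.S59.LL.SQ23.H36

end
end
-- ==== END Fermat.Agent.S59.LL.SQ23.H36_H90

-- ==== BEGIN Fermat.Agent.S59.LL.SQ23.H6_S3Abs
section

/-!
# S59 / LL / SQ23, leaf S3-HECKE (helper6): abstract field theory

* `deck_restrict` : restriction of a deck involution to a stable quadratic subfield.  In a
  commutative square of fields `a ∘ b = b' ∘ a₂`, if `s` is an involution of the source of `a`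
  with fixed field the range of `b`, `s'` is an automorphism of the target of `a` with fixed field
  the range of `b'`, and the range of `a` is not contained in the range of `b'`, then
  `s' ∘ a = a ∘ s`.
* `exists_deck_of_finrank_two` : a field extension of degree `2` in characteristic `0` has a deck
  involution (over any base field `K`).
* `norm_comm_of_intertwine` : the norm along `φ` commutes with automorphisms intertwined by `φ`.
-/

set_option autoImplicit false
set_option linter.unusedSectionVars false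
set_option linter.unusedVariables false
set_option linter.style.haveILetI false

noncomputable section

namespace Fermat.Agent.S59.LL.SQ23.H6

section Restrict

variable {F₂ F₄ G₂ G₄ : Type*} [Field F₂] [Field F₄] [Field G₂] [Field G₄]

/-- **Restriction of a deck involution to a stable quadratic subfield.** -/
theorem deck_restrict (a : F₄ →+* G₄) (b : F₂ →+* F₄) (b' : G₂ →+* G₄) (a₂ : F₂ →+* G₂)
    (hsq : ∀ z, a (b z) = b' (a₂ z))
    (s : F₄ ≃+* F₄) (hs2 : ∀ x, s (s x) = x) (hsfix : ∀ x, s x = x → ∃ z, b z = x)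
    (s' : G₄ ≃+* G₄) (hs'b : ∀ y, s' (b' y) = b' y) (hs'fix : ∀ y, s' y = y → ∃ z, b' z = y)
    (x₀ : F₄) (hx₀ : ∀ z, b' z ≠ a x₀) :
    ∀ x, s' (a x) = a (s x) := by
  -- `a` of an `s`-fixed element is `s'`-fixed
  have hfix : ∀ x, s x = x → s' (a x) = a x := by
    intro x hx
    obtain ⟨z, rfl⟩ := hsfix x hx
    rw [hsq, hs'b]
  -- the case of `x₀`
  have hx₀s : s x₀ ≠ x₀ := by
    intro h
    obtain ⟨z, hz⟩ := hsfix x₀ h
    exact hx₀ (a₂ z) (by rw [← hsq, hz])
  have hx₀s' : s' (a x₀) ≠ a x₀ := by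
    intro h
    obtain ⟨z, hz⟩ := hs'fix _ h
    exact hx₀ z hz
  have ht : s (x₀ + s x₀) = x₀ + s x₀ := by rw [map_add, hs2, add_comm]
  have hn : s (x₀ * s x₀) = x₀ * s x₀ := by rw [map_mul, hs2, mul_comm]
  have hkey : (s' (a x₀) - a x₀) * (s' (a x₀) - a (s x₀)) = 0 := by
    have h1 : a x₀ * a x₀ - a (x₀ + s x₀) * a x₀ + a (x₀ * s x₀) = 0 := by
      rw [← map_mul, ← map_mul, ← map_sub, ← map_add]
      have : x₀ * x₀ - (x₀ + s x₀) * x₀ + x₀ * s x₀ = 0 := by ring
      rw [this, map_zero]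
    have h2 := congrArg s' h1
    rw [map_zero, map_add, map_sub, map_mul, map_mul, hfix _ ht, hfix _ hn] at h2
    rw [map_add, map_mul] at h2
    have : (s' (a x₀) - a x₀) * (s' (a x₀) - a (s x₀))
        = s' (a x₀) * s' (a x₀) - (a x₀ + a (s x₀)) * s' (a x₀) + a x₀ * a (s x₀) := by ring
    rw [this, h2]
  have h0 : s' (a x₀) = a (s x₀) := by
    rcases mul_eq_zero.mp hkey with h | h
    · exact absurd (sub_eq_zero.mp h) hx₀s'
    · exact sub_eq_zero.mp h
  -- the general case: `x = u + v x₀` with `u`, `v` fixed by `s`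
  intro x
  have hd : x₀ - s x₀ ≠ 0 := fun h => hx₀s (sub_eq_zero.mp h).symm
  set v : F₄ := (x - s x) / (x₀ - s x₀) with hv
  set u : F₄ := x - v * x₀ with hu
  have hsv : s v = v := by
    rw [hv, map_div₀, map_sub, map_sub, hs2, hs2]
    rw [div_eq_div_iff (fun h => hd (by
      have := sub_eq_zero.mp h
      rw [this, sub_self])) hd]
    ring
  have hvd : v * (x₀ - s x₀) = x - s x := by
    rw [hv, div_mul_cancel₀ _ hd]
  have hsu : s u = u := by
    rw [hu, map_sub, map_mul, hsv]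
    have : x - v * x₀ - (s x - v * s x₀) = (x - s x) - v * (x₀ - s x₀) := by ring
    have h3 : x - v * x₀ - (s x - v * s x₀) = 0 := by rw [this, hvd, sub_self]
    exact (sub_eq_zero.mp h3).symm
  have hx : x = u + v * x₀ := by rw [hu]; ring
  have hsx : s x = u + v * s x₀ := by
    conv_lhs => rw [hx]
    rw [map_add, map_mul, hsu, hsv]
  rw [hsx]
  conv_lhs => rw [hx]
  rw [map_add, map_mul, map_add, map_mul, hfix u hsu, hfix v hsv, h0, map_add, map_mul]

end Restrict

section Deck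

variable {K F F' : Type*} [Field K] [Field F] [Field F'] [Algebra K F] [Algebra K F']

/-- A field extension of degree `2` in characteristic `0` has a deck involution. -/
theorem exists_deck_of_finrank_two [CharZero F] (φ : F →ₐ[K] F')
    (h2 : letI := φ.toRingHom.toAlgebra; Module.finrank F F' = 2) :
    ∃ s : F' ≃ₐ[K] F', (∀ y, s (s y) = y) ∧ (∀ z, s (φ z) = φ z) ∧
      (∀ y, s y = y → ∃ z, φ z = y) ∧ (∃ y, s y ≠ y) := by
  letI := φ.toRingHom.toAlgebra
  haveI : IsScalarTower K F F' := IsScalarTower.of_algebraMap_eq fun k => (φ.commutes k).symm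
  haveI : Algebra.IsQuadraticExtension F F' := ⟨h2⟩
  haveI : FiniteDimensional F F' := Module.finite_of_finrank_pos (by rw [h2]; norm_num)
  haveI : IsGalois F F' := inferInstance
  have hcard : Nat.card (F' ≃ₐ[F] F') = 2 := by
    rw [IsGalois.card_aut_eq_finrank, h2]
  haveI : Finite (F' ≃ₐ[F] F') := Nat.finite_of_card_ne_zero (by rw [hcard]; norm_num)
  -- a non-trivial element
  obtain ⟨σ, hσ⟩ : ∃ σ : F' ≃ₐ[F] F', σ ≠ 1 := by
    by_contra hcon
    push Not at hcon
    haveI : Subsingleton (F' ≃ₐ[F] F') := ⟨fun a b => (hcon a).trans (hcon b).symm⟩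
    have := Nat.card_of_subsingleton (1 : F' ≃ₐ[F] F')
    omega
  -- every element is `1` or `σ`
  have hall : ∀ τ : F' ≃ₐ[F] F', τ = 1 ∨ τ = σ := by
    intro τ
    by_contra hcon
    push Not at hcon
    haveI : Fintype (F' ≃ₐ[F] F') := Fintype.ofFinite _
    classical
    have h3 : ({1, σ, τ} : Finset (F' ≃ₐ[F] F')).card = 3 := by
      rw [Finset.card_insert_of_notMem, Finset.card_insert_of_notMem, Finset.card_singleton]
      · simp only [Finset.mem_singleton]; exact fun h => hcon.2 h.symm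
      · simp only [Finset.mem_insert, Finset.mem_singleton, not_or]
        exact ⟨fun h => hσ h.symm, fun h => hcon.1 h.symm⟩
    have h4 := Finset.card_le_univ ({1, σ, τ} : Finset (F' ≃ₐ[F] F'))
    rw [h3, ← Nat.card_eq_fintype_card, hcard] at h4
    omega
  have hσ2 : σ * σ = 1 := by
    rcases hall (σ * σ) with h | h
    · exact h
    · exfalso
      apply hσ
      have := congrArg (fun t => σ⁻¹ * t) h
      simpa using this
  refine ⟨σ.restrictScalars K, ?_, ?_, ?_, ?_⟩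
  · intro y
    have := congrArg (fun t : F' ≃ₐ[F] F' => t y) hσ2
    simpa using this
  · intro z
    exact σ.commutes z
  · intro y hy
    have hmem : y ∈ Set.range (algebraMap F F') := by
      rw [IsGalois.mem_range_algebraMap_iff_fixed]
      intro τ
      rcases hall τ with rfl | rfl
      · rfl
      · exact hy
    obtain ⟨z, hz⟩ := hmem
    exact ⟨z, hz⟩
  · by_contra hcon
    push Not at hcon
    apply hσ
    ext y
    exact hcon y

/-- The norm along `φ` commutes with automorphisms intertwined by `φ`. -/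
theorem norm_comm_of_intertwine (φ : F →ₐ[K] F') (σ : F ≃ₐ[K] F) (σ' : F' ≃ₐ[K] F')
    (h : ∀ x, σ' (φ x) = φ (σ x)) (y : F') :
    letI := φ.toRingHom.toAlgebra
    Algebra.norm F (σ' y) = σ (Algebra.norm F y) := by
  letI := φ.toRingHom.toAlgebra
  have he : RingHom.comp (algebraMap F F') ((σ : F ≃+* F) : F →+* F)
      = RingHom.comp ((σ' : F' ≃+* F') : F' →+* F') (algebraMap F F') := by
    ext x
    exact (h x).symm
  have := Algebra.norm_eq_of_equiv_equiv (σ : F ≃+* F) (σ' : F' ≃+* F') he y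
  rw [this]
  exact (RingEquiv.apply_symm_apply (σ : F ≃+* F) _).symm ▸ rfl

end Deck

end Fermat.Agent.S59.LL.SQ23.H6

end
end
-- ==== END Fermat.Agent.S59.LL.SQ23.H6_S3Abs

-- ==== BEGIN Fermat.Agent.S59.LL.SQ23.H72_GalAbs
section

/-!
# S59 / LL / SQ23, leaf S3-GAL (helper72): the abstract Galois theory

* `exists_deck` : a quadratic extension in characteristic `0` has a deck involution, whose fixed
  points are exactly the base field.
* `s3_of_degrees` : two different quadratic subextensions `a : A → E`, `b : B → E` over a common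
  subfield `C` of degree `6` give two involutions `s0`, `s1` of `E` with `(s0 s1)³ = 1`.
-/

set_option autoImplicit false
set_option linter.style.haveILetI false
set_option linter.unusedVariables false

noncomputable section

namespace Fermat.Agent.S59.LL.SQ23.H72

/-- In a group of order `6`, the product of two involutions has order dividing `3`. -/
theorem pow_three_of_card_six {G : Type*} [Group G] [Finite G] (h6 : Nat.card G = 6)
    (s t : G) (hs : s ^ 2 = 1) (ht : t ^ 2 = 1) (hs1 : s ≠ 1) (ht1 : t ≠ 1) :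
    (s * t) ^ 3 = 1 := by
  haveI : Fact (Nat.Prime 3) := ⟨by norm_num⟩
  haveI : Fact (Nat.Prime 2) := ⟨by norm_num⟩
  obtain ⟨d, hd⟩ := exists_prime_orderOf_dvd_card' (G := G) 3 (by rw [h6]; norm_num)
  set P : Subgroup G := Subgroup.zpowers d with hP
  have hPc : Nat.card P = 3 := by rw [hP, Nat.card_zpowers, hd]
  have hidx : P.index = 2 := by
    have h := Subgroup.card_mul_index P
    rw [hPc, h6] at h
    omega
  have hnot : ∀ u : G, u ^ 2 = 1 → u ≠ 1 → u ∉ P := by
    intro u hu hu1 hmem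
    have h3 : (⟨u, hmem⟩ : P) ^ 3 = 1 := by
      have := pow_card_eq_one' (G := P) (x := ⟨u, hmem⟩)
      rwa [hPc] at this
    have h3' : u ^ 3 = 1 := by
      have := congrArg (fun x : P => (x : G)) h3
      simpa using this
    apply hu1
    calc u = u ^ 3 * (u ^ 2)⁻¹ := by group
      _ = 1 := by rw [h3', hu]; simp
  have hmem : s * t ∈ P := by
    rw [Subgroup.mul_mem_iff_of_index_two hidx]
    exact ⟨fun h => absurd h (hnot s hs hs1), fun h => absurd h (hnot t ht ht1)⟩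
  have h3 : (⟨s * t, hmem⟩ : P) ^ 3 = 1 := by
    have := pow_card_eq_one' (G := P) (x := ⟨s * t, hmem⟩)
    rwa [hPc] at this
  have := congrArg (fun x : P => (x : G)) h3
  simpa using this

/-- A finite group whose order divides `6`, with two different involutions, has order `6`. -/
theorem card_six_of_two_involutions {G : Type*} [Group G] [Finite G] (hdvd : Nat.card G ∣ 6)
    (s t : G) (hs : s ^ 2 = 1) (ht : t ^ 2 = 1) (hs1 : s ≠ 1) (ht1 : t ≠ 1) (hst : s ≠ t) :
    Nat.card G = 6 := by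
  have h2 : 2 ∣ Nat.card G := by
    have ho : orderOf s = 2 := orderOf_eq_prime hs hs1
    rw [← ho]
    exact orderOf_dvd_natCard s
  have h3 : 3 ≤ Nat.card G := by
    classical
    haveI : Fintype G := Fintype.ofFinite G
    rw [Nat.card_eq_fintype_card]
    have hsub : ({1, s, t} : Finset G) ⊆ Finset.univ := Finset.subset_univ _
    have hc : ({1, s, t} : Finset G).card = 3 := by
      rw [Finset.card_insert_of_notMem, Finset.card_insert_of_notMem, Finset.card_singleton]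
      · simpa using hst
      · simp only [Finset.mem_insert, Finset.mem_singleton, not_or]
        exact ⟨fun h => hs1 h.symm, fun h => ht1 h.symm⟩
    calc 3 = ({1, s, t} : Finset G).card := hc.symm
      _ ≤ Finset.univ.card := Finset.card_le_card hsub
      _ = Fintype.card G := Finset.card_univ
  have hle : Nat.card G ≤ 6 := Nat.le_of_dvd (by norm_num) hdvd
  interval_cases h : Nat.card G <;> omega

/-- **The deck involution** of a quadratic extension in characteristic `0`. -/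
theorem exists_deck {K A E : Type*} [Field K] [Field A] [Field E] [Algebra K A] [Algebra K E]
    [CharZero A] (φ : A →ₐ[K] E)
    (h2 : letI := φ.toRingHom.toAlgebra; Module.finrank A E = 2) :
    ∃ s : E ≃ₐ[K] E, (∀ f, s (s f) = f) ∧ (∀ x, s (φ x) = φ x) ∧
      (∀ f, s f = f → ∃ x, φ x = f) ∧ ∃ f, s f ≠ f := by
  letI := φ.toRingHom.toAlgebra
  haveI : IsScalarTower K A E := IsScalarTower.of_algebraMap_eq fun k => (φ.commutes k).symm
  haveI : Algebra.IsQuadraticExtension A E := ⟨h2⟩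
  haveI : FiniteDimensional A E := Module.finite_of_finrank_pos (by rw [h2]; norm_num)
  haveI : IsGalois A E := inferInstance
  have hcard : Nat.card (E ≃ₐ[A] E) = 2 := by rw [IsGalois.card_aut_eq_finrank, h2]
  haveI : Finite (E ≃ₐ[A] E) := Nat.finite_of_card_ne_zero (by rw [hcard]; norm_num)
  haveI : Nontrivial (E ≃ₐ[A] E) := by
    rw [← Finite.one_lt_card_iff_nontrivial, hcard]
    norm_num
  obtain ⟨s, hs⟩ := exists_ne (1 : E ≃ₐ[A] E)
  have hs2 : s ^ 2 = 1 := by
    have := pow_card_eq_one' (G := E ≃ₐ[A] E) (x := s)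
    rwa [hcard] at this
  have hall : ∀ σ : E ≃ₐ[A] E, σ = 1 ∨ σ = s := by
    classical
    intro σ
    by_contra hσ
    push Not at hσ
    haveI : Fintype (E ≃ₐ[A] E) := Fintype.ofFinite _
    have hc : ({1, s, σ} : Finset (E ≃ₐ[A] E)).card = 3 := by
      rw [Finset.card_insert_of_notMem, Finset.card_insert_of_notMem, Finset.card_singleton]
      · simpa using fun h => hσ.2 h.symm
      · simp only [Finset.mem_insert, Finset.mem_singleton, not_or]
        exact ⟨fun h => hs h.symm, fun h => hσ.1 h.symm⟩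
    have : 3 ≤ Nat.card (E ≃ₐ[A] E) := by
      rw [Nat.card_eq_fintype_card]
      calc 3 = ({1, s, σ} : Finset (E ≃ₐ[A] E)).card := hc.symm
        _ ≤ Finset.univ.card := Finset.card_le_card (Finset.subset_univ _)
        _ = Fintype.card (E ≃ₐ[A] E) := Finset.card_univ
    omega
  refine ⟨s.restrictScalars K, ?_, ?_, ?_, ?_⟩
  · intro f
    have := DFunLike.congr_fun hs2 f
    simpa [pow_two, AlgEquiv.mul_apply] using this
  · intro x
    exact s.commutes x
  · intro f hf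
    have hfix : ∀ σ : E ≃ₐ[A] E, σ f = f := by
      intro σ
      rcases hall σ with rfl | rfl
      · rfl
      · exact hf
    have := (IsGalois.mem_range_algebraMap_iff_fixed (F := A) (E := E) f).2 hfix
    obtain ⟨x, hx⟩ := this
    exact ⟨x, hx⟩
  · by_contra hcon
    push Not at hcon
    apply hs
    ext f
    exact hcon f

/-- **Two different quadratic subextensions over a common subfield of degree `6`** give two
involutions whose product has order dividing `3`. -/
theorem s3_of_degrees {K C A B E : Type*} [Field K] [Field C] [Field A] [Field B] [Field E]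
    [Algebra K C] [Algebra K A] [Algebra K B] [Algebra K E] [CharZero K]
    (a : A →ₐ[K] E) (b : B →ₐ[K] E) (ca : C →ₐ[K] A) (cb : C →ₐ[K] B)
    (hsq : ∀ z, a (ca z) = b (cb z))
    (ha : letI := a.toRingHom.toAlgebra; Module.finrank A E = 2)
    (hb : letI := b.toRingHom.toAlgebra; Module.finrank B E = 2)
    (hc : letI := (a.comp ca).toRingHom.toAlgebra; Module.finrank C E = 6)
    (hne : ∃ x : A, ∀ y : B, b y ≠ a x) :
    ∃ s0 s1 : E ≃ₐ[K] E, (∀ f, s0 (s0 f) = f) ∧ (∀ f, s1 (s1 f) = f) ∧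
      (∀ y, s0 (b y) = b y) ∧ (∀ x, s1 (a x) = a x) ∧
      (∀ f, s0 f = f → ∃ y, b y = f) ∧ (∀ f, s1 f = f → ∃ x, a x = f) ∧
      ∀ f, s0 (s1 (s0 (s1 (s0 (s1 f))))) = f := by
  haveI : CharZero A := charZero_of_injective_algebraMap (algebraMap K A).injective
  haveI : CharZero B := charZero_of_injective_algebraMap (algebraMap K B).injective
  obtain ⟨s1, h11, h1a, h1f, h1n⟩ := exists_deck a ha
  obtain ⟨s0, h00, h0b, h0f, h0n⟩ := exists_deck b hb
  refine ⟨s0, s1, h00, h11, h0b, h1a, h0f, h1f, ?_⟩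
  letI := (a.comp ca).toRingHom.toAlgebra
  have hmap : ∀ z : C, algebraMap C E z = a (ca z) := fun z => rfl
  haveI : FiniteDimensional C E := Module.finite_of_finrank_pos (by rw [hc]; norm_num)
  -- the two involutions as automorphisms over `C`
  let t0 : E ≃ₐ[C] E := AlgEquiv.ofRingEquiv (f := s0.toRingEquiv) (fun z => by
    rw [hmap, hsq]
    exact h0b _)
  let t1 : E ≃ₐ[C] E := AlgEquiv.ofRingEquiv (f := s1.toRingEquiv) (fun z => by
    rw [hmap]
    exact h1a _)
  have ht0 : ∀ f, t0 f = s0 f := fun f => rfl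
  have ht1 : ∀ f, t1 f = s1 f := fun f => rfl
  have ht0sq : t0 ^ 2 = 1 := by
    ext f
    rw [pow_two, AlgEquiv.mul_apply, ht0, ht0, h00]
    rfl
  have ht1sq : t1 ^ 2 = 1 := by
    ext f
    rw [pow_two, AlgEquiv.mul_apply, ht1, ht1, h11]
    rfl
  have ht0ne : t0 ≠ 1 := by
    intro h
    obtain ⟨f, hf⟩ := h0n
    apply hf
    rw [← ht0, h]
    rfl
  have ht1ne : t1 ≠ 1 := by
    intro h
    obtain ⟨f, hf⟩ := h1n
    apply hf
    rw [← ht1, h]
    rfl
  have hne01 : t0 ≠ t1 := by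
    intro h
    obtain ⟨x, hx⟩ := hne
    have h1 : s0 (a x) = a x := by rw [← ht0, h, ht1, h1a]
    obtain ⟨y, hy⟩ := h0f _ h1
    exact hx y hy
  haveI : Finite (E ≃ₐ[C] E) := inferInstance
  have hdvd : Nat.card (E ≃ₐ[C] E) ∣ 6 := by
    have h1 := IntermediateField.finrank_fixedField_eq_card (F := C) (E := E)
      (⊤ : Subgroup (E ≃ₐ[C] E))
    have h2 := Module.finrank_mul_finrank C
      (IntermediateField.fixedField (⊤ : Subgroup (E ≃ₐ[C] E))) E
    rw [hc, h1] at h2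
    have h3 : Nat.card (⊤ : Subgroup (E ≃ₐ[C] E)) = Nat.card (E ≃ₐ[C] E) :=
      Subgroup.card_top
    rw [h3] at h2
    exact Dvd.intro_left _ h2
  have h6 := card_six_of_two_involutions hdvd t0 t1 ht0sq ht1sq ht0ne ht1ne hne01
  have h3 := pow_three_of_card_six h6 t0 t1 ht0sq ht1sq ht0ne ht1ne
  intro f
  have := DFunLike.congr_fun h3 f
  rw [pow_succ, pow_two] at this
  simpa [AlgEquiv.mul_apply, ht0, ht1] using this

end Fermat.Agent.S59.LL.SQ23.H72

end
end
-- ==== END Fermat.Agent.S59.LL.SQ23.H72_GalAbs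

-- ==== BEGIN Fermat.Agent.S59.LL.SQWire
section

/-!
# S59, package LL, piece SQ (helper40): wiring of SQUARE removal

* `HasSqPartAt` : the abstract form of "BAD at `q²`" (Mazur's principle at `q²`, no exceptional
  case): a nonzero inertia-fixed non-Eisenstein eigenvector of `J` comes from level `N / q`.
* `Stmt_SqQ`   : `J₀(N)[p]` has this property at every `q² ∥ N`, `q ≠ p` (package SQ, geometric).
* `Stmt_SQFix` : for a semistable curve the inertia group at `q ≠ p` fixes a nonzero vector of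
  `E[p]`.
* `sq_of : Stmt_SqQ → Stmt_SQFix → Stmt_SQ`.
-/

set_option autoImplicit false

open WeierstrassCurve WeierstrassCurve.Affine WeierstrassCurve.Affine.Point
open scoped WeierstrassCurve.Affine

namespace Fermat.Agent.S59.LL

open Fermat.Agent.S44

/-- **BAD at `q²`, abstract form.**  Every nonzero inertia-fixed eigenvector with a
non-Eisenstein system of eigenvalues comes from level `N / q`. -/
def HasSqPartAt {p : ℕ} (H : HeckeGaloisModule p) (N q : ℕ)
    (A : ValuationSubring (AlgebraicClosure ℚ)) : Prop :=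
  ∀ (S : Finset ℕ) (t : ℕ → ℤ) (x : H.J), x ≠ 0 →
    (∀ σ ∈ A.inertiaSubgroupIn ℚ, H.gal σ x = x) →
    (∀ ℓ : ℕ, ℓ.Prime → ℓ ∉ S → ¬ ℓ ∣ N → ℓ ≠ p → H.T ℓ x = ((t ℓ : ℤ) : ZMod p) • x) →
    (∃ ℓ : ℕ, ℓ.Prime ∧ ℓ ∉ S ∧ ¬ ℓ ∣ N ∧ ℓ ≠ p ∧ ((t ℓ : ℤ) : ZMod p) ≠ 1 + (ℓ : ZMod p)) →
    ∃ (g : CuspForm (CongruenceSubgroup.Gamma0 (N / q)) 2) (𝔪 : Ideal ZBar),
      g.IsNormalizedEigenform ∧ 𝔪.IsMaximal ∧ (p : ZBar) ∈ 𝔪 ∧
      ∀ ℓ : ℕ, ℓ.Prime → ℓ ∉ S → ¬ ℓ ∣ N → ℓ ≠ p →
        ∃ a : ZBar, (a : ℂ) = ModularFormClass.qCoeff g ℓ ∧ a - ((t ℓ : ℤ) : ZBar) ∈ 𝔪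

/-- **Package SQ (geometric).**  The structure of `J₀(N)[p]` at a place over a prime `q ≠ p`
with `q² ∥ N`. -/
def Stmt_SqQ : Prop :=
  ∀ (p : ℕ), p.Prime → p ≠ 2 → ∀ (N : ℕ) [NeZero N] (q : ℕ), q.Prime → q ≠ p →
    q ^ 2 ∣ N → ¬ q ^ 3 ∣ N →
    ∀ A : ValuationSubring (AlgebraicClosure ℚ), A.LiesOverPrime q →
      HasSqPartAt (jzModule N p) N q A

/-- **SQ-FIX.**  Semistable at `q ≠ p`: the inertia group at `q` fixes a nonzero vector of
`E[p]`. -/
def Stmt_SQFix : Prop :=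
  ∀ (p : ℕ), p.Prime → ∀ (W : WeierstrassCurve ℤ), W.Δ ≠ 0 → W.IsSemistableModel →
    ∀ (q : ℕ), q.Prime → q ≠ p →
    ∀ A : ValuationSubring (AlgebraicClosure ℚ), A.LiesOverPrime q →
      ∃ v : Tors (W.map (Int.castRingHom ℚ)) p, v ≠ 0 ∧
        ∀ σ : GQ, σ ∈ A.inertiaSubgroupIn ℚ → σ • v = v

/-- **SQUARE removal from the two packages.** -/
theorem sq_of (h1 : Stmt_SqQ) (h2 : Stmt_SQFix) : Stmt_SQ := by
  intro p hpF hp2 W hΔ hW hirr M q hq hqp hq2 hq3 hres
  have hp : p.Prime := hpF.out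
  obtain ⟨f, 𝔪, hf, h𝔪, hp𝔪, hcong⟩ := hres
  have hM0 : M ≠ 0 := by
    rintro rfl
    exact hq3 (dvd_zero _)
  have hMpos : 0 < M := Nat.pos_of_ne_zero hM0
  have : NeZero M := ⟨hM0⟩
  set E : WeierstrassCurve ℚ := W.map (Int.castRingHom ℚ) with hE
  have hWE : W.IsIntegralModelOf E := ⟨1, one_smul _ _⟩
  have : E.IsElliptic := by
    refine ⟨isUnit_iff_ne_zero.mpr ?_⟩
    rw [hE, WeierstrassCurve.map_Δ]
    simpa using hΔ
  obtain ⟨A, hAq⟩ := stmt_PlaceOver q hq
  obtain ⟨hcont, hES, hsupp⟩ := stmt_TateModP p hp hp2 M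
  set S : Finset ℕ := W.Δ.natAbs.primeFactors with hS
  have hnat : W.Δ.natAbs ≠ 0 := Int.natAbs_ne_zero.mpr hΔ
  have hgood : ∀ ℓ : ℕ, ℓ.Prime → ℓ ∉ S → W.IsGoodPrimeFor ℓ := by
    intro ℓ hℓ hℓS hdvd
    apply hℓS
    rw [hS, Nat.mem_primeFactors]
    exact ⟨hℓ, Int.natCast_dvd.mp hdvd, hnat⟩
  have hbad : ∀ ℓ : ℕ, W.IsGoodPrimeFor ℓ → ℓ ∉ S := by
    intro ℓ hg hmem
    rw [hS, Nat.mem_primeFactors] at hmem
    exact hg (Int.natCast_dvd.mpr hmem.2.1)
  obtain ⟨x, hx0, hx⟩ := hsupp f 𝔪 S (fun ℓ => W.apOfModel ℓ) hf h𝔪 hp𝔪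
    (fun ℓ hℓ hℓS hℓN hℓp => hcong ℓ hℓ (hgood ℓ hℓ hℓS) hℓN hℓp)
  obtain ⟨ι, hinj, hequiv, hT⟩ := Fermat.Agent.L.H52.recovery p hp hp2 M hMpos
    (jzModule M p) hcont hES E W hWE hirr S hgood x hx0 hx
  obtain ⟨v, hv0, hvfix⟩ := h2 p hp W hΔ hW q hq hqp A hAq
  have hNE : ∃ ℓ : ℕ, ℓ.Prime ∧ ℓ ∉ S ∧ ¬ ℓ ∣ M ∧ ℓ ≠ p ∧
      ((W.apOfModel ℓ : ℤ) : ZMod p) ≠ 1 + (ℓ : ZMod p) := by
    have h := Fermat.Agent.S41.H19.stmt_I3 E W hWE p M hp hMpos hirr
    by_contra hcon
    apply h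
    intro ℓ hℓ hℓW hℓN hℓp
    by_contra hne
    exact hcon ⟨ℓ, hℓ, hbad ℓ hℓW, hℓN, hℓp, hne⟩
  obtain ⟨g, 𝔪', hg, h𝔪', hp𝔪', hgc⟩ := h1 p hp hp2 M q hq hqp hq2 hq3 A hAq S
    (fun ℓ => W.apOfModel ℓ) (ι v)
    (fun h => hv0 (hinj (by rw [h, _root_.map_zero])))
    (fun σ hσ => by rw [← hequiv, hvfix σ hσ])
    (fun ℓ hℓ hℓS hℓN hℓp => hT ℓ hℓ hℓS hℓN hℓp v) hNE
  refine ⟨g, 𝔪', hg, h𝔪', hp𝔪', fun ℓ hℓ hℓgood hℓMq hℓp => ?_⟩
  have hqMq : q ∣ M / q := by
    obtain ⟨k, hk⟩ := hq2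
    refine ⟨k, ?_⟩
    rw [hk, pow_two, mul_assoc, Nat.mul_div_cancel_left _ hq.pos]
  have hℓM : ¬ ℓ ∣ M := by
    intro hd
    have hqM : q ∣ M := (dvd_pow_self q two_ne_zero).trans hq2
    rw [← Nat.div_mul_cancel hqM] at hd
    rcases (Nat.Prime.dvd_mul hℓ).1 hd with h | h
    · exact hℓMq h
    · have : ℓ = q := (Nat.prime_dvd_prime_iff_eq hℓ hq).1 h
      exact hℓMq (this ▸ hqMq)
  exact hgc ℓ hℓ (hbad ℓ hℓgood) hℓM hℓp

end Fermat.Agent.S59.LL

end
-- ==== END Fermat.Agent.S59.LL.SQWire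

-- ==== BEGIN Fermat.Agent.S59.NonMin.CQNE.Defs
section

set_option autoImplicit false

open UpperHalfPlane ModularForm

namespace Fermat.Agent.S59.NonMin.CQNE

/-- **EIG-OF-CHAR**: if a ring homomorphism `x` from the Hecke algebra to a field of
characteristic `0` sends `t` to the integer `c`, then `c` is an eigenvalue of `t` on the space of
cusp forms.
[`t - c` is integral over `ℤ` (`Fermat.Agent.S22.result`: the Hecke algebra is a finitely
generated `ℤ`-module); take a monic `P ∈ ℤ[X]` of minimal degree with `P (t - c) = 0`.  If `t - c`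
were injective on the (finite-dimensional) space of cusp forms, then `P(0) ≠ 0` (otherwise
`P = X Q`, `Q (t - c) ∘ (t - c) = 0`, `t - c` is bijective, so `Q (t - c) = 0`); but
`0 = x (P (t - c)) = P (x t - c) = P(0)` in `K`, and `K` has characteristic `0`.] -/
def Stmt_EigOfChar : Prop :=
  ∀ (N : ℕ) [NeZero N] (S : Set ℕ) (K : Type) [Field K] [CharZero K]
    (x : CuspForm.heckeAlgebra N 2 S →+* K) (t : CuspForm.heckeAlgebra N 2 S) (c : ℤ),
    x t = (c : K) →
    ∃ f : CuspForm (CongruenceSubgroup.Gamma0 N) 2, f ≠ 0 ∧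
      (t : Module.End ℂ (CuspForm (CongruenceSubgroup.Gamma0 N) 2)) f = (c : ℂ) • f

/-- **MAXPT**: for a cusp form `f` of weight `2` the function `z ↦ ‖f z‖ · Im z` attains its
maximum.
[As in `Mathlib/NumberTheory/ModularForms/Bounds.lean`: `φ_γ(z) := ‖f (γ⁻¹ • z)‖ · Im (γ⁻¹ • z)`
depends only on the class of `γ` in `SL(2, ℤ) ⧸ Γ₀(N)` (finite); `Φ := max_γ φ_γ` is continuous,
`SL(2, ℤ)`-invariant and tends to `0` at `i∞` (`CuspFormClass.petersson_bounded_left`, its proof:
`CuspForm.translate`, `petersson_isZeroAtImInfty_left`); on the compact set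
`ModularGroup.truncatedFundamentalDomain y` it attains its maximum
(`isCompact_truncatedFundamentalDomain`, `IsCompact.exists_isMaxOn`), which is the maximum on `𝒟`,
hence on `ℍ` (`ModularGroup.exists_smul_mem_fd`).] -/
def Stmt_MaxPt : Prop :=
  ∀ (N : ℕ) [NeZero N] (f : CuspForm (CongruenceSubgroup.Gamma0 N) 2),
    ∃ z₀ : ℍ, ∀ z : ℍ, ‖f z‖ * z.im ≤ ‖f z₀‖ * z₀.im

/-- **HECKE-INEQ**: the Hecke relation in absolute values.
[`T_q f (z) = q⁻¹ ∑_j f ((z + j) / q) + q f (q z)` (prelude `heckeT_def`,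
`slash_heckeMatrix_apply`, `slash_heckeDiagMatrix_apply`, `coe_heckeMatrix_smul`,
`coe_heckeDiagMatrix_smul`), `Im ((z + j) / q) = Im z / q`, `Im (q z) = q Im z`.] -/
def Stmt_HeckeIneq : Prop :=
  ∀ (N : ℕ) [NeZero N] (q : ℕ) (hq : q.Prime) (hqN : ¬ q ∣ N)
    (f : CuspForm (CongruenceSubgroup.Gamma0 N) 2) (a : ℂ),
    CuspForm.heckeTLin 2 hq hqN f = a • f →
    ∀ z : ℍ, ‖a‖ * (‖f z‖ * z.im) ≤
      (∑ j ∈ Finset.range q, ‖f (heckeMatrix q j • z)‖ * (heckeMatrix q j • z).im) +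
        ‖f (heckeDiagMatrix q • z)‖ * (heckeDiagMatrix q • z).im

/-- **DECAY**: `‖f z‖ · Im z → 0` as `Im z → ∞`.
[`CuspFormClass.zero_at_infty` + exponential decay (`CuspFormClass.exp_decay_atImInfty`), or
`UpperHalfPlane.petersson_isZeroAtImInfty_left` for `petersson 2 f f = conj f * f * im ^ 2`.] -/
def Stmt_Decay : Prop :=
  ∀ (N : ℕ) [NeZero N] (f : CuspForm (CongruenceSubgroup.Gamma0 N) 2) (ε : ℝ), 0 < ε →
    ∃ Y : ℝ, ∀ z : ℍ, Y ≤ z.im → ‖f z‖ * z.im < ε

end Fermat.Agent.S59.NonMin.CQNE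

end
-- ==== END Fermat.Agent.S59.NonMin.CQNE.Defs

-- ==== BEGIN Fermat.Agent.S59.NonMin.Geom.H12_CorHecke
section

set_option autoImplicit false
set_option linter.style.haveILetI false
set_option linter.unusedSectionVars false

namespace Fermat.Agent.S59.NonMin.Geom.H12

open Fermat.Agent.S41 Fermat.Agent.S41.H19 Fermat.Agent.Betti

section Abstract

variable {Γ' Γ G : Type*} [Group Γ'] [Group Γ] [Group G] {X : Type*}

/-! ### Change of representatives -/

/-- A family obtained from a Hecke family by permuting the indices and multiplying on the left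
by elements of `Γ` is a Hecke family. -/
theorem isHeckeFamily_of_twist {e : Γ →* G} {X' : Type*} {rep : X → G} (H : IsHeckeFamily e rep)
    {rep' : X' → G} (π : X' ≃ X) (ε : X' → Γ) (hrep : ∀ i, rep' i = e (ε i) * rep (π i)) :
    IsHeckeFamily e rep' where
  exists_mul γ i := by
    refine ⟨π.symm (H.perm γ (π i)), ε i * H.kap γ (π i) * (ε (π.symm (H.perm γ (π i))))⁻¹, ?_⟩
    rw [hrep i, hrep (π.symm (H.perm γ (π i))), Equiv.apply_symm_apply, mul_assoc,
      H.rep_mul γ (π i), map_mul, map_mul, map_inv]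
    group
  inj i j δ h := by
    rw [hrep i, hrep j] at h
    have h2 : rep (π i) = e ((ε i)⁻¹ * δ * ε j) * rep (π j) := by
      have h3 : rep (π i) = (e (ε i))⁻¹ * (e δ * (e (ε j) * rep (π j))) := by
        rw [← h, inv_mul_cancel_left]
      rw [h3]
      simp only [map_mul, map_inv]
      group
    exact π.injective (H.inj _ _ _ h2)

variable [Fintype X] {A : Type*} [AddCommGroup A]

/-- The Hecke operator does not depend on the representatives. -/
theorem heckeOp_of_twist {e : Γ →* G} (he : Function.Injective e) {X' : Type*} [Fintype X']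
    {rep : X → G} (H : IsHeckeFamily e rep) {rep' : X' → G} (H' : IsHeckeFamily e rep')
    (π : X' ≃ X) (ε : X' → Γ) (hrep : ∀ i, rep' i = e (ε i) * rep (π i))
    (φ : Additive Γ →+ A) : H'.heckeOp he φ = H.heckeOp he φ := by
  have h := IsHeckeFamily.heckeOp_eq_of_twist H' H he (MonoidHom.id G) (MonoidHom.id Γ)
    (fun _ => rfl) π ε (fun i => hrep i) φ
  exact h.symm

/-! ### Restriction -/

/-- The Hecke operator commutes with the restriction along `ι`, when the same representatives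
serve for `Γ` and for `Γ'`. -/
theorem heckeOp_resAlong (e : Γ →* G) (he : Function.Injective e) (ι : Γ' →* Γ)
    (he' : Function.Injective (e.comp ι)) {rep : X → G} (H : IsHeckeFamily e rep)
    (H' : IsHeckeFamily (e.comp ι) rep) (φ : Additive Γ →+ A) :
    H'.heckeOp he' (resAlong A ι φ) = resAlong A ι (H.heckeOp he φ) := by
  refine AddMonoidHom.ext fun γ' => ?_
  obtain ⟨γ, rfl⟩ : ∃ g : Γ', Additive.ofMul g = γ' := ⟨Additive.toMul γ', rfl⟩
  show ∑ x, φ (Additive.ofMul (ι (H'.kap γ x))) = ∑ x, φ (Additive.ofMul (H.kap (ι γ) x))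
  refine Finset.sum_congr rfl fun x _ => ?_
  have h : rep x * e (ι γ) = e (ι (H'.kap γ x)) * rep (H'.perm γ x) := H'.rep_mul γ x
  rw [(H.unique he h).2]

/-! ### Corestriction -/

/-- Uniqueness of the decomposition `e (t a * ι ε) * rep b`. -/
theorem decomp_unique {e : Γ →* G} (he : Function.Injective e) {ι : Γ' →* Γ}
    (hι : Function.Injective ι) {rep : X → G} (H : IsHeckeFamily e rep) {J : Type*} {t : J → Γ}
    (ht : IsReps ι t) {a₁ a₂ : J} {ε₁ ε₂ : Γ'} {b₁ b₂ : X}
    (h : e (t a₁ * ι ε₁) * rep b₁ = e (t a₂ * ι ε₂) * rep b₂) :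
    a₁ = a₂ ∧ ε₁ = ε₂ ∧ b₁ = b₂ := by
  have h1 : rep b₁ = e ((t a₁ * ι ε₁)⁻¹ * (t a₂ * ι ε₂)) * rep b₂ := by
    rw [map_mul, map_inv, mul_assoc, ← h, inv_mul_cancel_left]
  have hb : b₁ = b₂ := H.inj _ _ _ h1
  subst hb
  have h2 : e (t a₁ * ι ε₁) = e (t a₂ * ι ε₂) := mul_right_cancel h
  have h3 : t a₁ * ι ε₁ = t a₂ * ι ε₂ := he h2
  have ha : a₁ = a₂ := by
    apply ht.inj
    refine ⟨ε₁ * ε₂⁻¹, ?_⟩
    rw [map_mul, map_inv]
    have : t a₂ = t a₁ * ι ε₁ * (ι ε₂)⁻¹ := by rw [h3]; group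
    rw [this]; group
  subst ha
  exact ⟨rfl, hι (mul_left_cancel h3), rfl⟩

/-- **The transfer commutes with the Hecke operator.** -/
theorem corAlong_heckeOp (e : Γ →* G) (he : Function.Injective e) (ι : Γ' →* Γ)
    (hι : Function.Injective ι) (he' : Function.Injective (e.comp ι)) {rep : X → G}
    (H : IsHeckeFamily e rep) (H' : IsHeckeFamily (e.comp ι) rep)
    (hC : ∀ (x x' : X) (γ : Γ) (ε : Γ'), rep x * e γ = e (ι ε) * rep x' → γ ∈ ι.range)
    (ψ : Additive Γ' →+ A) :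
    corAlong A ι (H'.heckeOp he' ψ) = H.heckeOp he (corAlong A ι ψ) := by
  classical
  by_cases hfin : ι.range.FiniteIndex
  swap
  · have hn : ¬ (Function.Injective ι ∧ ι.range.FiniteIndex) := fun h => hfin h.2
    rw [corAlong_of_not hn, corAlong_of_not hn, H.heckeOp_zero]
  haveI : Finite (Γ ⧸ ι.range) := Subgroup.finite_quotient_of_finiteIndex
  letI : Fintype (Γ ⧸ ι.range) := Fintype.ofFinite _
  set t : Γ ⧸ ι.range → Γ := fun q => q.out with htdef
  have ht : IsReps ι t := isReps_out ι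
  -- the solutions of `κ * t j = t (σ κ j) * ι (h κ j)`
  choose σ h hh using fun κ : Γ => ht.exists_sol κ
  have hσ : ∀ κ, Function.Bijective (σ κ) := fun κ => ht.sol_bijective (hh κ)
  -- the decomposition of `κ_y(t_j)`
  have hdec : ∀ κ : Γ, ∃ (a : Γ ⧸ ι.range) (ε : Γ'), κ = t a * ι ε := by
    intro κ
    obtain ⟨a, ε, hε⟩ := ht.surj κ
    exact ⟨a, ε, by rw [hε, mul_inv_cancel_left]⟩
  choose a ε hε using fun (y : X) (j : Γ ⧸ ι.range) => hdec (H.kap (t j) y)
  have hD : ∀ (y : X) (j : Γ ⧸ ι.range),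
      rep y * e (t j) = e (t (a y j) * ι (ε y j)) * rep (H.perm (t j) y) := by
    intro y j
    rw [← hε y j]
    exact H.rep_mul (t j) y
  -- `j ↦ a y j` is a bijection
  have ha : ∀ y, Function.Bijective (a y) := by
    intro y
    apply Finite.injective_iff_bijective.mp
    intro j₁ j₂ h12
    apply ht.inj
    have h1 := hD y j₁
    have h2 := hD y j₂
    rw [← h12] at h2
    refine hC (H.perm (t j₁) y) (H.perm (t j₂) y) _ ((ε y j₁)⁻¹ * ε y j₂) ?_
    have e1 : rep (H.perm (t j₁) y) = (e (t (a y j₁) * ι (ε y j₁)))⁻¹ * (rep y * e (t j₁)) := by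
      rw [h1, inv_mul_cancel_left]
    calc rep (H.perm (t j₁) y) * e ((t j₁)⁻¹ * t j₂)
        = (e (t (a y j₁) * ι (ε y j₁)))⁻¹ * (rep y * e (t j₂)) := by
          rw [e1]; simp only [map_mul, map_inv]; group
      _ = (e (t (a y j₁) * ι (ε y j₁)))⁻¹ * (e (t (a y j₁) * ι (ε y j₂)) *
            rep (H.perm (t j₂) y)) := by rw [h2]
      _ = e (ι ((ε y j₁)⁻¹ * ε y j₂)) * rep (H.perm (t j₂) y) := by
          simp only [map_mul, map_inv]; group
  -- the key identity
  have key : ∀ (g : Γ) (x : X) (j : Γ ⧸ ι.range),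
      h (H.kap g x) (a (H.perm g x) j) * ε (H.perm g x) j
        = ε x (σ g j) * H'.kap (h g j) (H.perm (t (σ g j)) x) := by
    intro g x j
    have w1 : rep x * e (g * t j)
        = e (t (σ (H.kap g x) (a (H.perm g x) j)) *
              ι (h (H.kap g x) (a (H.perm g x) j) * ε (H.perm g x) j)) *
            rep (H.perm (t j) (H.perm g x)) := by
      calc rep x * e (g * t j) = (rep x * e g) * e (t j) := by rw [map_mul, mul_assoc]
        _ = e (H.kap g x) * (rep (H.perm g x) * e (t j)) := by rw [H.rep_mul g x, mul_assoc]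
        _ = e (H.kap g x * t (a (H.perm g x) j) * ι (ε (H.perm g x) j)) *
              rep (H.perm (t j) (H.perm g x)) := by
            rw [hD (H.perm g x) j]; simp only [map_mul]; group
        _ = _ := by
            rw [hh (H.kap g x) (a (H.perm g x) j)]; simp only [map_mul]; group
    have w2 : rep x * e (g * t j)
        = e (t (a x (σ g j)) * ι (ε x (σ g j) * H'.kap (h g j) (H.perm (t (σ g j)) x))) *
            rep (H'.perm (h g j) (H.perm (t (σ g j)) x)) := by
      have r' : rep (H.perm (t (σ g j)) x) * e (ι (h g j))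
          = e (ι (H'.kap (h g j) (H.perm (t (σ g j)) x))) *
            rep (H'.perm (h g j) (H.perm (t (σ g j)) x)) :=
        H'.rep_mul (h g j) (H.perm (t (σ g j)) x)
      calc rep x * e (g * t j) = (rep x * e (t (σ g j))) * e (ι (h g j)) := by
            rw [hh g j, map_mul, mul_assoc]
        _ = e (t (a x (σ g j)) * ι (ε x (σ g j))) *
              (rep (H.perm (t (σ g j)) x) * e (ι (h g j))) := by
            rw [hD x (σ g j), mul_assoc]
        _ = _ := by
            rw [r']; simp only [map_mul]; group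
    exact (decomp_unique he hι H ht (w1.symm.trans w2)).2.1
  -- the sums
  refine AddMonoidHom.ext fun g' => ?_
  obtain ⟨g, rfl⟩ : ∃ g : Γ, Additive.ofMul g = g' := ⟨Additive.toMul g', rfl⟩
  rw [corAlong_eq_sum ι hι t ht _ g (σ g) (h g) (hh g)]
  show ∑ j, ∑ x, ψ (Additive.ofMul (H'.kap (h g j) x))
    = ∑ x, corAlong A ι ψ (Additive.ofMul (H.kap g x))
  have hR : ∀ x, corAlong A ι ψ (Additive.ofMul (H.kap g x))
      = ∑ j, ψ (Additive.ofMul (h (H.kap g x) (a (H.perm g x) j))) := by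
    intro x
    rw [corAlong_eq_sum ι hι t ht ψ (H.kap g x) (σ _) (h _) (hh _)]
    exact (Equiv.sum_comp (Equiv.ofBijective _ (ha (H.perm g x)))
      (fun j => ψ (Additive.ofMul (h (H.kap g x) j)))).symm
  have hL : ∀ j, ∑ x, ψ (Additive.ofMul (H'.kap (h g j) x))
      = ∑ x, ψ (Additive.ofMul (H'.kap (h g j) (H.perm (t (σ g j)) x))) := by
    intro j
    exact (Equiv.sum_comp (H.permEquiv he (t (σ g j)))
      (fun x => ψ (Additive.ofMul (H'.kap (h g j) x)))).symm
  have hE : ∀ (x : X) (j : Γ ⧸ ι.range),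
      ψ (Additive.ofMul (H'.kap (h g j) (H.perm (t (σ g j)) x)))
        = ψ (Additive.ofMul (h (H.kap g x) (a (H.perm g x) j)))
          + ψ (Additive.ofMul (ε (H.perm g x) j)) - ψ (Additive.ofMul (ε x (σ g j))) := by
    intro x j
    have := congrArg (fun z => ψ (Additive.ofMul z)) (key g x j)
    simp only [ofMul_mul, map_add] at this
    rw [this]
    abel
  rw [Finset.sum_congr rfl fun x _ => hR x, Finset.sum_congr rfl fun j _ => hL j,
    Finset.sum_comm]
  rw [Finset.sum_congr rfl fun x _ => Finset.sum_congr rfl fun j _ => hE x j]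
  simp only [Finset.sum_sub_distrib, Finset.sum_add_distrib]
  have c1 : ∑ x, ∑ j, ψ (Additive.ofMul (ε (H.perm g x) j))
      = ∑ x, ∑ j, ψ (Additive.ofMul (ε x j)) :=
    Equiv.sum_comp (H.permEquiv he g) (fun x => ∑ j, ψ (Additive.ofMul (ε x j)))
  have c2 : ∑ x, ∑ j, ψ (Additive.ofMul (ε x (σ g j)))
      = ∑ x, ∑ j, ψ (Additive.ofMul (ε x j)) :=
    Finset.sum_congr rfl fun x _ =>
      Equiv.sum_comp (Equiv.ofBijective _ (hσ g)) (fun j => ψ (Additive.ofMul (ε x j)))
  rw [c1, c2]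
  abel

end Abstract

end Fermat.Agent.S59.NonMin.Geom.H12

end
-- ==== END Fermat.Agent.S59.NonMin.Geom.H12_CorHecke

-- ==== BEGIN Fermat.Agent.S59.NonMin.Geom.H12_Fit
section

set_option autoImplicit false
set_option linter.style.haveILetI false
set_option linter.unusedSectionVars false

open IsLocalRing

namespace Fermat.Agent.S59.NonMin.Geom.H12

/-! ### Idempotent powers in a finite monoid -/

/-- In a finite monoid every element has an idempotent power with positive exponent. -/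
theorem exists_pow_idem {M : Type*} [Monoid M] [Finite M] (a : M) :
    ∃ n : ℕ, 0 < n ∧ a ^ (n + n) = a ^ n := by
  obtain ⟨i, j, hij, h⟩ := Finite.exists_ne_map_eq_of_infinite (fun k : ℕ => a ^ k)
  wlog hlt : i < j generalizing i j
  · exact this j i hij.symm h.symm (lt_of_le_of_ne (not_lt.mp hlt) hij.symm)
  obtain ⟨d, hd⟩ : ∃ d, j = i + d := ⟨j - i, by omega⟩
  have hd0 : 0 < d := by omega
  subst hd
  have h' : a ^ i = a ^ (i + d) := h
  -- `a ^ k = a ^ (k + d)` for `k ≥ i`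
  have h1 : ∀ k, i ≤ k → a ^ k = a ^ (k + d) := by
    intro k hk
    obtain ⟨c, rfl⟩ : ∃ c, k = i + c := ⟨k - i, by omega⟩
    calc a ^ (i + c) = a ^ i * a ^ c := pow_add _ _ _
      _ = a ^ (i + d) * a ^ c := by rw [← h']
      _ = a ^ (i + c + d) := by rw [← pow_add]; congr 1; omega
  have h2 : ∀ t k, i ≤ k → a ^ k = a ^ (k + t * d) := by
    intro t
    induction t with
    | zero => intro k _; simp
    | succ t ih =>
      intro k hk
      rw [ih k hk, h1 (k + t * d) (by omega)]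
      congr 1
      ring
  refine ⟨(i + 1) * d, Nat.mul_pos (Nat.succ_pos i) hd0, ?_⟩
  have hge : i ≤ (i + 1) * d := by nlinarith
  exact (h2 (i + 1) ((i + 1) * d) hge).symm

section Fit

variable {𝒪 : Type} [CommRing 𝒪] [IsDomain 𝒪] [IsDiscreteValuationRing 𝒪]
  [IsAdicComplete (maximalIdeal 𝒪) 𝒪] [Finite (ResidueField 𝒪)]
  {X : Type} [AddCommGroup X] [Module 𝒪 X] [Module.Finite 𝒪 X]

/-- `𝔪^m X`. -/
abbrev Sm (𝒪 : Type) [CommRing 𝒪] [IsLocalRing 𝒪] (X : Type) [AddCommGroup X] [Module 𝒪 X]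
    (m : ℕ) : Submodule 𝒪 X :=
  (maximalIdeal 𝒪 ^ m • ⊤ : Submodule 𝒪 X)

omit [IsDomain 𝒪] [IsDiscreteValuationRing 𝒪] [IsAdicComplete (maximalIdeal 𝒪) 𝒪]
  [Finite (ResidueField 𝒪)] [Module.Finite 𝒪 X] in
/-- Every endomorphism preserves `𝔪^m X`. -/
theorem map_mem_Sm [IsLocalRing 𝒪] (g : Module.End 𝒪 X) (m : ℕ) {x : X} (hx : x ∈ Sm 𝒪 X m) :
    g x ∈ Sm 𝒪 X m := by
  have h : (Sm 𝒪 X m).map g ≤ Sm 𝒪 X m := by
    rw [Submodule.map_smul'']
    exact Submodule.smul_mono le_rfl le_top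
  exact h ⟨x, hx, rfl⟩

omit [IsDomain 𝒪] [IsDiscreteValuationRing 𝒪] [IsAdicComplete (maximalIdeal 𝒪) 𝒪]
  [Finite (ResidueField 𝒪)] [Module.Finite 𝒪 X] in
theorem Sm_anti [IsLocalRing 𝒪] {m m' : ℕ} (h : m ≤ m') : Sm 𝒪 X m' ≤ Sm 𝒪 X m :=
  Submodule.smul_mono_left (Ideal.pow_le_pow_right h)

/-- Some positive power of `f` is idempotent modulo `𝔪^m X`. -/
theorem exists_idem_mod (f : Module.End 𝒪 X) (m : ℕ) :
    ∃ n : ℕ, 0 < n ∧ ∀ x : X, (f ^ (n + n)) x - (f ^ n) x ∈ Sm 𝒪 X m := by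
  haveI : Fermat.Agent.S59.Patch.FinQuot (maximalIdeal 𝒪) 𝒪 :=
    Fermat.Agent.S59.Patch.finQuot_of_isLocalRing 𝒪
  haveI : Fermat.Agent.S59.Patch.FinQuot (maximalIdeal 𝒪) X :=
    Fermat.Agent.S59.Patch.finQuot_of_finite _
  haveI hfin : Finite (X ⧸ Sm 𝒪 X m) := Fermat.Agent.S59.Patch.FinQuot.fin m
  haveI : Finite (Module.End 𝒪 (X ⧸ Sm 𝒪 X m)) :=
    Finite.of_injective (fun g : Module.End 𝒪 (X ⧸ Sm 𝒪 X m) => (g : X ⧸ Sm 𝒪 X m → X ⧸ Sm 𝒪 X m))
      DFunLike.coe_injective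
  have hle : Sm 𝒪 X m ≤ (Sm 𝒪 X m).comap f := fun x hx => map_mem_Sm f m hx
  set fb : Module.End 𝒪 (X ⧸ Sm 𝒪 X m) := (Sm 𝒪 X m).mapQ (Sm 𝒪 X m) f hle with hfb
  have hpow : ∀ (k : ℕ) (x : X), (fb ^ k) (Submodule.Quotient.mk x)
      = Submodule.Quotient.mk ((f ^ k) x) := by
    intro k
    induction k with
    | zero => intro x; simp
    | succ k ih =>
      intro x
      rw [pow_succ, Module.End.mul_apply, pow_succ, Module.End.mul_apply, hfb,
        Submodule.mapQ_apply, ← hfb, ih]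
  obtain ⟨n, hn, h⟩ := exists_pow_idem fb
  refine ⟨n, hn, fun x => ?_⟩
  have h1 := congrArg (fun g : Module.End 𝒪 (X ⧸ Sm 𝒪 X m) => g (Submodule.Quotient.mk x)) h
  simp only [hpow] at h1
  exact (Submodule.Quotient.eq _).mp h1

omit [IsDomain 𝒪] [IsDiscreteValuationRing 𝒪] [IsAdicComplete (maximalIdeal 𝒪) 𝒪]
  [Finite (ResidueField 𝒪)] [Module.Finite 𝒪 X] in
/-- An idempotent modulo `S` power: `f^(t n) ≡ f^n` for `t ≥ 1`. -/
theorem idem_mul [IsLocalRing 𝒪] (f : Module.End 𝒪 X) (m n : ℕ)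
    (h : ∀ x : X, (f ^ (n + n)) x - (f ^ n) x ∈ Sm 𝒪 X m) (t : ℕ) (x : X) :
    (f ^ ((t + 1) * n)) x - (f ^ n) x ∈ Sm 𝒪 X m := by
  induction t with
  | zero => simp
  | succ t ih =>
    have e : (f ^ ((t + 1 + 1) * n)) x = (f ^ n) ((f ^ ((t + 1) * n)) x) := by
      rw [← Module.End.mul_apply, ← pow_add]
      congr 2
      ring
    have h1 : (f ^ n) ((f ^ ((t + 1) * n)) x) - (f ^ n) ((f ^ n) x) ∈ Sm 𝒪 X m := by
      rw [← map_sub]
      exact map_mem_Sm _ m ih
    have h2 : (f ^ n) ((f ^ n) x) - (f ^ n) x ∈ Sm 𝒪 X m := by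
      rw [← Module.End.mul_apply, ← pow_add]
      exact h x
    rw [e]
    have := add_mem h1 h2
    simpa using this

/-- **FIT**, for finite modules. -/
theorem fit (f : Module.End 𝒪 X) :
    ∃ π : Module.End 𝒪 X, π * π = π ∧ (∀ g : Module.End 𝒪 X, Commute g f → Commute g π) ∧
      ∀ x : X, π x = x ↔ ∀ m : ℕ, ∃ n : ℕ, (f ^ n) x ∈ Sm 𝒪 X m := by
  haveI : IsAdicComplete (maximalIdeal 𝒪) X := IsAdicComplete.of_module_finite _ _
  choose n hn0 hn using exists_idem_mod f
  -- compatibility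
  have hcomp : ∀ {m m' : ℕ}, m ≤ m' → ∀ x : X, (f ^ n m) x - (f ^ n m') x ∈ Sm 𝒪 X m := by
    intro m m' hmm x
    have hm' : ∀ y : X, (f ^ (n m' + n m')) y - (f ^ n m') y ∈ Sm 𝒪 X m :=
      fun y => Sm_anti hmm (hn m' y)
    obtain ⟨a, ha⟩ : ∃ a, n m = a + 1 := ⟨n m - 1, by have := hn0 m; omega⟩
    obtain ⟨b, hb⟩ : ∃ b, n m' = b + 1 := ⟨n m' - 1, by have := hn0 m'; omega⟩
    have h1 := idem_mul f m (n m) (hn m) b x
    have h2 := idem_mul f m (n m') hm' a x
    have e : (b + 1) * n m = (a + 1) * n m' := by rw [← ha, ← hb]; ring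
    rw [e] at h1
    have := sub_mem h2 h1
    simpa using this
  -- the limit
  have hlim : ∀ x : X, ∃ L : X, ∀ m, (f ^ n m) x - L ∈ Sm 𝒪 X m := by
    intro x
    obtain ⟨L, hL⟩ := IsPrecomplete.prec' (I := maximalIdeal 𝒪) (fun m => (f ^ n m) x)
      (fun {m m'} hmm => SModEq.sub_mem.mpr (hcomp hmm x))
    exact ⟨L, fun m => SModEq.sub_mem.mp (hL m)⟩
  choose E hE using hlim
  have huniq : ∀ y y' : X, (∀ m, y - y' ∈ Sm 𝒪 X m) → y = y' := by
    intro y y' h
    have := IsHausdorff.haus' (I := maximalIdeal 𝒪) (y - y')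
      (fun m => SModEq.sub_mem.mpr (by simpa using h m))
    exact sub_eq_zero.mp this
  have hEadd : ∀ x y, E (x + y) = E x + E y := by
    intro x y
    apply huniq
    intro m
    have h1 := hE (x + y) m
    have h2 := hE x m
    have h3 := hE y m
    have : E (x + y) - (E x + E y)
        = ((f ^ n m) x - E x) + ((f ^ n m) y - E y) - ((f ^ n m) (x + y) - E (x + y)) := by
      rw [map_add]; abel
    rw [this]
    exact sub_mem (add_mem h2 h3) h1
  have hEsmul : ∀ (c : 𝒪) x, E (c • x) = c • E x := by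
    intro c x
    apply huniq
    intro m
    have h1 := hE (c • x) m
    have h2 := (Sm 𝒪 X m).smul_mem c (hE x m)
    have : E (c • x) - c • E x
        = c • ((f ^ n m) x - E x) - ((f ^ n m) (c • x) - E (c • x)) := by
      rw [map_smul, smul_sub]; abel
    rw [this]
    exact sub_mem h2 h1
  let EL : Module.End 𝒪 X :=
    { toFun := E
      map_add' := hEadd
      map_smul' := hEsmul }
  have hEL : ∀ x, EL x = E x := fun _ => rfl
  -- `E` commutes with the commutant
  have hEcomm : ∀ g : Module.End 𝒪 X, Commute g f → ∀ x, g (E x) = E (g x) := by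
    intro g hg x
    apply huniq
    intro m
    have h1 : g ((f ^ n m) x - E x) ∈ Sm 𝒪 X m := map_mem_Sm g m (hE x m)
    have h2 := hE (g x) m
    have hc : g ((f ^ n m) x) = (f ^ n m) (g x) := by
      have := (hg.pow_right (n m)).eq
      exact congrArg (fun u : Module.End 𝒪 X => u x) this
    have : g (E x) - E (g x) = ((f ^ n m) (g x) - E (g x)) - g ((f ^ n m) x - E x) := by
      rw [map_sub, hc]; abel
    rw [this]
    exact sub_mem h2 h1
  -- `E` is idempotent
  have hEE : ∀ x, E (E x) = E x := by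
    intro x
    apply huniq
    intro m
    have h1 := hE (E x) m
    have h2 : (f ^ n m) ((f ^ n m) x - E x) ∈ Sm 𝒪 X m := map_mem_Sm _ m (hE x m)
    have h3 : (f ^ (n m + n m)) x - (f ^ n m) x ∈ Sm 𝒪 X m := hn m x
    have h4 := hE x m
    have e : (f ^ (n m + n m)) x = (f ^ n m) ((f ^ n m) x) := by
      rw [pow_add, Module.End.mul_apply]
    have : E (E x) - E x
        = ((f ^ (n m + n m)) x - (f ^ n m) x) + ((f ^ n m) x - E x)
          - (f ^ n m) ((f ^ n m) x - E x) - ((f ^ n m) (E x) - E (E x)) := by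
      rw [e, map_sub]; abel
    rw [this]
    exact sub_mem (sub_mem (add_mem h3 h4) h2) h1
  refine ⟨1 - EL, ?_, ?_, ?_⟩
  · have : EL * EL = EL := LinearMap.ext fun x => hEE x
    rw [mul_sub, sub_mul, sub_mul, this]
    simp
  · intro g hg
    have hgE : Commute g EL := LinearMap.ext fun x => hEcomm g hg x
    exact (Commute.one_right g).sub_right hgE
  · intro x
    have hfix : (1 - EL) x = x ↔ E x = 0 := by
      rw [LinearMap.sub_apply, Module.End.one_apply, hEL, sub_eq_self]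
    rw [hfix]
    constructor
    · intro h0 m
      refine ⟨n m, ?_⟩
      have := hE x m
      rwa [h0, sub_zero] at this
    · intro h
      apply huniq
      intro m
      rw [sub_zero]
      obtain ⟨k, hk⟩ := h m
      -- `f^(n m) x ∈ S m`
      have h1 : (f ^ ((k + 1) * n m)) x ∈ Sm 𝒪 X m := by
        have hge : k ≤ (k + 1) * n m := by
          have := hn0 m
          nlinarith
        obtain ⟨c, hc⟩ : ∃ c, (k + 1) * n m = c + k := ⟨(k + 1) * n m - k, by omega⟩
        rw [hc, pow_add, Module.End.mul_apply]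
        exact map_mem_Sm _ m hk
      have h2 := idem_mul f m (n m) (hn m) k x
      have h3 : (f ^ n m) x ∈ Sm 𝒪 X m := by
        have := sub_mem h1 h2
        simpa using this
      have h4 := hE x m
      have := sub_mem h3 h4
      simpa using this

end Fit

/-- **FIT**. -/
theorem stmt_FIT : Stmt_FIT := by
  intro 𝒪 _ _ _ _ _ X _ _ _ _ f
  exact fit f

end Fermat.Agent.S59.NonMin.Geom.H12

end
-- ==== END Fermat.Agent.S59.NonMin.Geom.H12_Fit

-- ==== BEGIN Fermat.Agent.S59.NonMin.H92_PeuFlatAbs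
section

/-!
# S59, case C, leaf PEUFLAT (helper92): the abstract Hopf order of an ordinary, peu ramifié module

`flat_of_peu_abs`: let `M` be a finite abelian group with an action of `G_ℚ` through a finite
quotient, `P` a place of `ℚ̄` over `p` (inertia `I`, decomposition group `D`), `M₀ ⊂ M` a
`D`-stable subgroup such that `I` acts trivially on `M / M₀`, and `ev : Λ → M₀ → ℚ̄` a finite
family of characters of `M₀` with unit values which separates the points of `M₀`, is
`I`-equivariant and stable under the twists by `D`.  Suppose that for every `lam ∈ Λ` and `r ∈ M`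
the crossed homomorphism `σ ↦ ev lam (σ r - r)` of `I` is `σ ↦ σ y / y` for a `P`-unit `y`
(this is where "peu ramifié" enters).  Then `M` is flat at `p`
(`Lib.HopfOrderLoc.flat_of_local_generators`).

Generators: `e_v` (the indicator of the class of `v` modulo `M₀`) and
`t_lam (x) = ev lam (x - rep x) * y_{lam, rep x}`.
-/

set_option autoImplicit false
set_option linter.unusedSectionVars false
set_option linter.style.haveILetI false
set_option linter.unusedVariables false

namespace Fermat.Agent.S59.NonMin.H92P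

open Fermat.Agent.Lib.HopfOrder Fermat.Agent.Lib.HopfOrderLoc

local notation "Qbar" => AlgebraicClosure ℚ
local notation "Γℚ" => (AlgebraicClosure ℚ ≃ₐ[ℚ] AlgebraicClosure ℚ)

section Act

variable {M : Type} [AddCommGroup M] (act : Γℚ → M → M)

theorem act_zero (act_add : ∀ σ x y, act σ (x + y) = act σ x + act σ y) (σ : Γℚ) :
    act σ 0 = 0 := by
  have h := act_add σ 0 0
  rw [add_zero] at h
  exact left_eq_add.mp h

theorem act_neg (act_add : ∀ σ x y, act σ (x + y) = act σ x + act σ y) (σ : Γℚ) (x : M) :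
    act σ (-x) = - act σ x := by
  have h := act_add σ x (-x)
  rw [add_neg_cancel, _root_.Fermat.Agent.S59.NonMin.H92P.act_zero act act_add] at h
  exact eq_neg_of_add_eq_zero_right h.symm

theorem act_sub (act_add : ∀ σ x y, act σ (x + y) = act σ x + act σ y) (σ : Γℚ) (x y : M) :
    act σ (x - y) = act σ x - act σ y := by
  rw [sub_eq_add_neg, act_add, act_neg act act_add, ← sub_eq_add_neg]

end Act

section Rep

variable {M : Type} [AddCommGroup M] (M₀ : AddSubgroup M)

/-- A system of representatives of the classes modulo `M₀`. -/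
theorem exists_rep : ∃ rep : M → M, (∀ x, x - rep x ∈ M₀) ∧
    ∀ x x', x - x' ∈ M₀ → rep x = rep x' := by
  refine ⟨fun x => (QuotientAddGroup.mk x : M ⧸ M₀).out, fun x => ?_, fun x x' h => ?_⟩
  · have h1 : (QuotientAddGroup.mk ((QuotientAddGroup.mk x : M ⧸ M₀).out) : M ⧸ M₀) =
        QuotientAddGroup.mk x := QuotientAddGroup.out_eq' _
    have h2 := (QuotientAddGroup.eq.mp h1)
    have h3 : x - (QuotientAddGroup.mk x : M ⧸ M₀).out =
        -(QuotientAddGroup.mk x : M ⧸ M₀).out + x := by abel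
    rw [h3]
    exact h2
  · have h1 : (QuotientAddGroup.mk x : M ⧸ M₀) = QuotientAddGroup.mk x' := by
      rw [QuotientAddGroup.eq]
      have h3 : -x + x' = -(x - x') := by abel
      rw [h3]
      exact M₀.neg_mem h
    show (QuotientAddGroup.mk x : M ⧸ M₀).out = (QuotientAddGroup.mk x' : M ⧸ M₀).out
    rw [h1]

end Rep

section GenRing

variable {M ι : Type} [Finite M] (A : Subring Qbar) (h : ι → M → Qbar)

/-- A finite sum of products `constant * generator * function in the ring` lies in `genRing`. -/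
theorem sum_mem_genRing (s : Finset M) (g : M → M → Qbar)
    (hg : ∀ v ∈ s, g v ∈ genRing A h) : (fun x => ∑ v ∈ s, g v x) ∈ genRing A h := by
  have h1 : (fun x => ∑ v ∈ s, g v x) = ∑ v ∈ s, g v := by
    funext x
    rw [Finset.sum_apply]
  rw [h1]
  exact Subring.sum_mem _ hg

end GenRing

section Abs

variable {M : Type} [AddCommGroup M] [Finite M]
  (p : ℕ) (P : ValuationSubring Qbar) (act : Γℚ → M → M) (M₀ : AddSubgroup M)
  {Λ : Type} [Finite Λ] (ev : Λ → M → Qbar)

/-- **The abstract Hopf order of an ordinary peu ramifié module.** -/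
theorem flat_of_peu_abs (hp : p.Prime) (hP : P.LiesOverPrime p)
    (act_one : ∀ x, act 1 x = x) (act_mul : ∀ σ τ x, act (σ * τ) x = act σ (act τ x))
    (act_add : ∀ σ x y, act σ (x + y) = act σ x + act σ y)
    (act_cont : ∃ L : IntermediateField ℚ Qbar, FiniteDimensional ℚ L ∧
      ∀ σ ∈ L.fixingSubgroup, ∀ x, act σ x = x)
    (hD : ∀ σ ∈ P.decompositionSubgroup ℚ, ∀ w ∈ M₀, act σ w ∈ M₀)
    (hI : ∀ σ ∈ P.inertiaSubgroupIn ℚ, ∀ x, act σ x - x ∈ M₀)
    (ev_add : ∀ lam, ∀ w ∈ M₀, ∀ w' ∈ M₀, ev lam (w + w') = ev lam w * ev lam w')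
    (ev_ne : ∀ lam, ∀ w ∈ M₀, ev lam w ≠ 0)
    (ev_mem : ∀ lam, ∀ w ∈ M₀, ev lam w ∈ P)
    (ev_sep : ∀ w ∈ M₀, w ≠ 0 → ∃ lam, ev lam w ≠ 1)
    (ev_I : ∀ σ ∈ P.inertiaSubgroupIn ℚ, ∀ lam, ∀ w ∈ M₀, ev lam (act σ w) = σ (ev lam w))
    (ev_D : ∀ σ ∈ P.decompositionSubgroup ℚ, ∀ lam, ∃ lam', ∀ w ∈ M₀,
      ev lam' w = σ (ev lam (act σ⁻¹ w)))
    (hy : ∀ lam (r : M), ∃ y : Qbar, y ≠ 0 ∧ y ∈ P ∧ y⁻¹ ∈ P ∧
      ∀ σ ∈ P.inertiaSubgroupIn ℚ, σ y = ev lam (act σ r - r) * y) :
    ∃ (H' : Type) (_ : CommRing H') (_ : HopfAlgebra (GaloisRep.ratLocalizedAt p) H'),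
      Module.Finite (GaloisRep.ratLocalizedAt p) H' ∧
      Module.Flat (GaloisRep.ratLocalizedAt p) H' ∧
      Coalgebra.IsCocomm (GaloisRep.ratLocalizedAt p) H' ∧
      ∃ e : WithConv (H' →ₐ[GaloisRep.ratLocalizedAt p] AlgebraicClosure ℚ) ≃ M,
        (∀ f g : WithConv (H' →ₐ[GaloisRep.ratLocalizedAt p] AlgebraicClosure ℚ),
          e (f * g) = e f + e g) ∧
        ∀ (σ : AlgebraicClosure ℚ ≃ₐ[ℚ] AlgebraicClosure ℚ)
          (f g : WithConv (H' →ₐ[GaloisRep.ratLocalizedAt p] AlgebraicClosure ℚ)),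
          (∀ h : H', g h = σ (f h)) → e g = act σ (e f) := by
  classical
  haveI : Fintype M := Fintype.ofFinite M
  obtain ⟨rep, hrep, hrep'⟩ := exists_rep M₀
  -- basic facts
  have hID : ∀ σ ∈ P.inertiaSubgroupIn ℚ, σ ∈ P.decompositionSubgroup ℚ := fun σ hσ =>
    Fermat.Agent.S05.H95.mem_decomposition_of_mem_inertia P hσ
  have hPD : ∀ σ ∈ P.decompositionSubgroup ℚ, ∀ x ∈ P, σ x ∈ P := fun σ hσ x hx =>
    Fermat.Agent.S05.H95.mem_of_mem_decomposition P hσ hx
  have hrr : ∀ x, rep (rep x) = rep x := fun x => by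
    apply hrep'
    have h1 : rep x - x = -(x - rep x) := by abel
    rw [h1]
    exact M₀.neg_mem (hrep x)
  have hradd : ∀ x y, rep (x + y) = rep (rep x + rep y) := fun x y => by
    apply hrep'
    have h1 : x + y - (rep x + rep y) = (x - rep x) + (y - rep y) := by abel
    rw [h1]
    exact M₀.add_mem (hrep x) (hrep y)
  have hev0 : ∀ lam, ev lam 0 = 1 := fun lam => by
    have h1 := ev_add lam 0 M₀.zero_mem 0 M₀.zero_mem
    rw [add_zero] at h1
    have h2 := ev_ne lam 0 M₀.zero_mem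
    have h3 : ev lam 0 * (ev lam 0 - 1) = 0 := by
      rw [mul_sub, mul_one, ← h1, sub_self]
    rcases mul_eq_zero.mp h3 with h | h
    · exact absurd h h2
    · exact sub_eq_zero.mp h
  have hevinv : ∀ lam, ∀ w ∈ M₀, (ev lam w)⁻¹ ∈ P := fun lam w hw => by
    have h1 := ev_add lam w hw (-w) (M₀.neg_mem hw)
    rw [add_neg_cancel, hev0] at h1
    have h2 : (ev lam w)⁻¹ = ev lam (-w) := by
      rw [inv_eq_of_mul_eq_one_right h1.symm]
    rw [h2]
    exact ev_mem lam (-w) (M₀.neg_mem hw)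
  -- the units
  choose yy hyy0 hyyP hyyP' hyyI using hy
  -- the generators
  let h : M ⊕ Λ → M → Qbar := fun j x =>
    match j with
    | Sum.inl v => if rep x = rep v then 1 else 0
    | Sum.inr lam => ev lam (x - rep x) * yy lam (rep x)
  have hl : ∀ v x, h (Sum.inl v) x = if rep x = rep v then 1 else 0 := fun v x => rfl
  have hr : ∀ lam x, h (Sum.inr lam) x = ev lam (x - rep x) * yy lam (rep x) := fun lam x => rfl
  -- functions which are constant on the classes
  have hclass : ∀ g : M → Qbar, (∀ v, g v ∈ P) →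
      (fun x => g (rep x)) ∈ genRing P.toSubring h := by
    intro g hg
    have h1 : (fun x => g (rep x)) =
        fun x => ∑ v ∈ Finset.univ.image rep, (fun y => g v * h (Sum.inl v) y) x := by
      funext x
      rw [Finset.sum_eq_single (rep x)]
      · show g (rep x) = g (rep x) * h (Sum.inl (rep x)) x
        rw [hl, hrr, if_pos rfl, mul_one]
      · intro v hv hne
        obtain ⟨u, -, rfl⟩ := Finset.mem_image.mp hv
        show g (rep u) * h (Sum.inl (rep u)) x = 0
        rw [hl, hrr, if_neg (fun h' => hne h'.symm), mul_zero]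
      · intro hx
        exact absurd (Finset.mem_image.mpr ⟨x, Finset.mem_univ _, rfl⟩) hx
    rw [h1]
    apply sum_mem_genRing
    intro v _
    exact Subring.mul_mem _ (const_mem_genRing P.toSubring h (hg v))
      (gen_mem_genRing P.toSubring h (Sum.inl v))
  have hclass2 : ∀ G : M → M → Qbar, (∀ a b, G a b ∈ P) →
      (fun q : M × M => G (rep q.1) (rep q.2)) ∈ pairRing P.toSubring h := by
    intro G hG
    have h1 : (fun q : M × M => G (rep q.1) (rep q.2)) =
        ∑ a ∈ Finset.univ.image rep, ∑ b ∈ Finset.univ.image rep,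
          (fun _ : M × M => G a b) * ((fun q : M × M => h (Sum.inl a) q.1) *
            (fun q : M × M => h (Sum.inl b) q.2)) := by
      funext q
      rw [Finset.sum_apply, Finset.sum_eq_single (rep q.1)]
      · rw [Finset.sum_apply, Finset.sum_eq_single (rep q.2)]
        · show G (rep q.1) (rep q.2) = G (rep q.1) (rep q.2) *
            (h (Sum.inl (rep q.1)) q.1 * h (Sum.inl (rep q.2)) q.2)
          rw [hl, hl, hrr, hrr, if_pos rfl, if_pos rfl, mul_one, mul_one]
        · intro v hv hne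
          obtain ⟨u, -, rfl⟩ := Finset.mem_image.mp hv
          show G (rep q.1) (rep u) * (h (Sum.inl (rep q.1)) q.1 * h (Sum.inl (rep u)) q.2) = 0
          rw [hl (rep u), hrr, if_neg (fun h' => hne h'.symm), mul_zero, mul_zero]
        · intro hx
          exact absurd (Finset.mem_image.mpr ⟨q.2, Finset.mem_univ _, rfl⟩) hx
      · intro v hv hne
        obtain ⟨u, -, rfl⟩ := Finset.mem_image.mp hv
        rw [Finset.sum_apply]
        apply Finset.sum_eq_zero
        intro b _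
        show G (rep u) b * (h (Sum.inl (rep u)) q.1 * h (Sum.inl b) q.2) = 0
        rw [hl (rep u), hrr, if_neg (fun h' => hne h'.symm), zero_mul, mul_zero]
      · intro hx
        exact absurd (Finset.mem_image.mpr ⟨q.1, Finset.mem_univ _, rfl⟩) hx
    rw [h1]
    apply Subring.sum_mem
    intro a _
    apply Subring.sum_mem
    intro b _
    exact Subring.mul_mem _ (const_mem_pairRing P.toSubring h (hG a b))
      (Subring.mul_mem _ (fst_mem_pairRing P.toSubring h (Sum.inl a))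
        (snd_mem_pairRing P.toSubring h (Sum.inl b)))
  have hsub : ∀ σ, ∀ x y, act σ (x - y) = act σ x - act σ y := act_sub act act_add
  -- the action of `D` on the classes
  have hrepD : ∀ σ ∈ P.decompositionSubgroup ℚ, ∀ x, rep (act σ x) = rep (act σ (rep x)) := by
    intro σ hσ x
    apply hrep'
    rw [← hsub]
    exact hD σ hσ _ (hrep x)
  refine flat_of_local_generators p hp P hP act h act_one act_mul act_add act_cont ?_ ?_ ?_ ?_ ?_
  · -- integral
    rintro (v | lam) x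
    · rw [hl]
      split_ifs
      · exact P.one_mem
      · exact P.zero_mem
    · rw [hr]
      exact mul_mem (ev_mem lam _ (hrep x)) (hyyP lam _)
  · -- equivariant
    rintro (v | lam) σ hσ x
    · have h1 : rep (act σ x) = rep x := hrep' _ _ (hI σ hσ x)
      rw [hl, hl, h1]
      split_ifs
      · rw [map_one]
      · rw [map_zero]
    · have h1 : rep (act σ x) = rep x := hrep' _ _ (hI σ hσ x)
      rw [hr, hr, h1, map_mul, hyyI lam (rep x) σ hσ]
      have h2 : act σ x - rep x = act σ (x - rep x) + (act σ (rep x) - rep x) := by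
        rw [hsub]
        abel
      rw [h2, ev_add lam _ (hD σ (hID σ hσ) _ (hrep x)) _ (hI σ hσ (rep x)),
        ev_I σ hσ lam _ (hrep x)]
      ring
  · -- stable
    rintro (v | lam) σ hσ
    · have hσ' : σ⁻¹ ∈ P.decompositionSubgroup ℚ := inv_mem hσ
      have h1 : twist act σ (h (Sum.inl v)) =
          fun x => (fun u => if rep (act σ⁻¹ u) = rep v then (1 : Qbar) else 0) (rep x) := by
        funext x
        show σ (h (Sum.inl v) (act σ⁻¹ x)) =
          if rep (act σ⁻¹ (rep x)) = rep v then (1 : Qbar) else 0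
        rw [hl, hrepD σ⁻¹ hσ' x]
        split_ifs
        · rw [map_one]
        · rw [map_zero]
      rw [h1]
      refine hclass (fun u => if rep (act σ⁻¹ u) = rep v then (1 : Qbar) else 0) ?_
      intro u
      show (if rep (act σ⁻¹ u) = rep v then (1 : Qbar) else 0) ∈ P
      split_ifs
      · exact P.one_mem
      · exact P.zero_mem
    · have hσ' : σ⁻¹ ∈ P.decompositionSubgroup ℚ := inv_mem hσ
      obtain ⟨lam', hlam'⟩ := ev_D σ hσ lam
      have h1 : twist act σ (h (Sum.inr lam)) =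
          (fun x => (fun u => σ (ev lam (act σ⁻¹ u - rep (act σ⁻¹ u))) *
            σ (yy lam (rep (act σ⁻¹ u))) * (yy lam' u)⁻¹) (rep x)) * h (Sum.inr lam') := by
        funext x
        show σ (h (Sum.inr lam) (act σ⁻¹ x)) =
          (σ (ev lam (act σ⁻¹ (rep x) - rep (act σ⁻¹ (rep x)))) *
            σ (yy lam (rep (act σ⁻¹ (rep x)))) * (yy lam' (rep x))⁻¹) * h (Sum.inr lam') x
        rw [hr, hr, hrepD σ⁻¹ hσ' x, hlam' _ (hrep x)]
        have h2 : act σ⁻¹ x - rep (act σ⁻¹ (rep x)) =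
            (act σ⁻¹ (rep x) - rep (act σ⁻¹ (rep x))) + act σ⁻¹ (x - rep x) := by
          rw [hsub]
          abel
        rw [h2, ev_add lam _ (hrep _) _ (hD σ⁻¹ hσ' _ (hrep x)), map_mul, map_mul]
        have h3 := hyy0 lam' (rep x)
        field_simp
      rw [h1]
      apply Subring.mul_mem _ _ (gen_mem_genRing P.toSubring h (Sum.inr lam'))
      refine hclass (fun u => σ (ev lam (act σ⁻¹ u - rep (act σ⁻¹ u))) *
            σ (yy lam (rep (act σ⁻¹ u))) * (yy lam' u)⁻¹) ?_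
      intro u
      exact mul_mem (mul_mem (hPD σ hσ _ (ev_mem lam _ (hrep _)))
        (hPD σ hσ _ (hyyP lam _))) (hyyP' lam' u)
  · -- separates
    intro x y hxy
    by_cases hc : rep x = rep y
    · have h1 : x - rep x - (y - rep x) ≠ 0 := by
        intro h0
        apply hxy
        have h2 : x - rep x - (y - rep x) = x - y := by abel
        rw [h2] at h0
        exact sub_eq_zero.mp h0
      have hyM : y - rep x ∈ M₀ := by rw [hc]; exact hrep y
      obtain ⟨lam, hlam⟩ := ev_sep _ (M₀.sub_mem (hrep x) hyM) h1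
      refine ⟨Sum.inr lam, ?_⟩
      rw [hr, hr, ← hc]
      intro heq
      apply hlam
      have h3 := mul_right_cancel₀ (hyy0 lam (rep x)) heq
      have h4 : x - rep x = (x - rep x - (y - rep x)) + (y - rep x) := by abel
      rw [h4, ev_add lam _ (M₀.sub_mem (hrep x) hyM) _ hyM] at h3
      exact mul_right_cancel₀ (ev_ne lam _ hyM) (h3.trans (one_mul _).symm)
    · refine ⟨Sum.inl x, ?_⟩
      rw [hl, hl, if_pos rfl, if_neg (fun h' => hc h'.symm)]
      exact one_ne_zero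
  · -- comultiplication
    rintro (v | lam)
    · have h1 : (fun q : M × M => h (Sum.inl v) (q.1 + q.2)) =
          fun q : M × M => (fun a b => if rep (a + b) = rep v then (1 : Qbar) else 0)
            (rep q.1) (rep q.2) := by
        funext q
        show h (Sum.inl v) (q.1 + q.2) =
          if rep (rep q.1 + rep q.2) = rep v then (1 : Qbar) else 0
        rw [hl, hradd]
      rw [h1]
      refine hclass2 (fun a b => if rep (a + b) = rep v then (1 : Qbar) else 0) ?_
      intro a b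
      show (if rep (a + b) = rep v then (1 : Qbar) else 0) ∈ P
      split_ifs
      · exact P.one_mem
      · exact P.zero_mem
    · have h1 : (fun q : M × M => h (Sum.inr lam) (q.1 + q.2)) =
          (fun q : M × M => (fun a b => ev lam (a + b - rep (a + b)) * yy lam (rep (a + b)) *
            (yy lam a)⁻¹ * (yy lam b)⁻¹) (rep q.1) (rep q.2)) *
          ((fun q : M × M => h (Sum.inr lam) q.1) * (fun q : M × M => h (Sum.inr lam) q.2)) := by
        funext q
        show h (Sum.inr lam) (q.1 + q.2) =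
          (ev lam (rep q.1 + rep q.2 - rep (rep q.1 + rep q.2)) *
            yy lam (rep (rep q.1 + rep q.2)) * (yy lam (rep q.1))⁻¹ * (yy lam (rep q.2))⁻¹) *
          (h (Sum.inr lam) q.1 * h (Sum.inr lam) q.2)
        rw [hr, hr, hr, hradd q.1 q.2]
        have h2 : q.1 + q.2 - rep (rep q.1 + rep q.2) =
            (q.1 - rep q.1) + ((q.2 - rep q.2) +
              (rep q.1 + rep q.2 - rep (rep q.1 + rep q.2))) := by abel
        rw [h2, ev_add lam _ (hrep _) _ (M₀.add_mem (hrep _) (hrep _)),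
          ev_add lam _ (hrep _) _ (hrep _)]
        have h3 := hyy0 lam (rep q.1)
        have h4 := hyy0 lam (rep q.2)
        field_simp
      rw [h1]
      apply Subring.mul_mem _ _ (Subring.mul_mem _ (fst_mem_pairRing P.toSubring h (Sum.inr lam))
        (snd_mem_pairRing P.toSubring h (Sum.inr lam)))
      refine hclass2 (fun a b => ev lam (a + b - rep (a + b)) * yy lam (rep (a + b)) *
            (yy lam a)⁻¹ * (yy lam b)⁻¹) ?_
      intro a b
      exact mul_mem (mul_mem (mul_mem (ev_mem lam _ (hrep _)) (hyyP lam _))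
        (hyyP' lam a)) (hyyP' lam b)

end Abs

end Fermat.Agent.S59.NonMin.H92P

end
-- ==== END Fermat.Agent.S59.NonMin.H92_PeuFlatAbs
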