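-- GENERATED (merged mirror, NOTES/tools/trim/merge3_helper67.py): 21 modules of the originals, bodies verbatim.
import Mathlib
import Fermat.Prelude.Def_ModularForm_HeckeOperator
import Fermat.Prelude.Thm_ModularForm_heckeT_slash_eq_self_of_mem_Gamma0
import Fermat.Prelude.Def_EllipticCurve_FrobeniusTrace
import Fermat.Agent.Zm.S43_L03_004
import Fermat.Agent.Zm.S43_L03_003
import Fermat.Agent.Zm.S56_L04_000
import Fermat.Agent.Zm.S35_L01_001
import Fermat.Agent.Zm.S35_L02_001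
import Fermat.Agent.Zm.S35_L03_001
import Fermat.Agent.Zm.S48_L01_000
import Fermat.Agent.Zm.S56_L01_000
import Fermat.Agent.Zm.S43_L14_003
import Fermat.Agent.Zm.S56_L11_006
import Fermat.Agent.Zm.S43_L13_002
import Fermat.Agent.Zm.S43_L01_004
import Fermat.Agent.Zm.S35_L04_002
import Fermat.Agent.Zm.S35_L06_001
import Fermat.Agent.Zm.S35_L06_003
import Fermat.Agent.Zm.S56_L07_005
import Fermat.Agent.Zm.S43_L02_004
import Fermat.Agent.Zm.S56_L01_005
import Fermat.Agent.Zm.S56_L02_003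
import Fermat.Agent.Zm.S44_L10_000
import Fermat.Agent.Zm.S44_L12_000
import Fermat.Agent.Zm.S44_L03_001
import Fermat.Agent.Zm.S44_L02_002

-- ==== BEGIN Fermat.Agent.S59.NonMin.H47_OrdLine
section

/-!
# S59, package RT-NONMIN, case C, leaf DEF-ord, part 1 (helper47): the ordinary line is intrinsic

The analogue of `S59/H99_DefSO.lean` (helper99) for the prelude's `GaloisRepAdic.IsOrdinaryAt`
(no condition on the eigenvalues): for `σ₀` in the inertia group of `P` whose cyclotomic exponent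
is not `1` modulo `p`, and `ρ` with cyclotomic determinant, an ordinary line `L` of `ρ` at `P` is
the image of `F = ρ(σ₀) - 1`, `t = tr F = det ρ(σ₀) - 1` is a unit, `F ∘ F = t F`, and the
conditions on `L` are polynomial identities (`OrdInt`), which descend along jointly injective
families (`jfam_ordInt`, `jfam_isOrdinaryAt`).  Also: `isOrdinaryAt_of_isEquiv`,
`isOrdinaryAt_baseChangeAlong`.
-/

set_option autoImplicit false
set_option linter.unusedSectionVars false
set_option linter.style.haveILetI false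
set_option linter.unusedVariables false

open IsLocalRing TensorProduct

namespace Fermat.Agent.S59.NonMin.H47

open Fermat.Agent.S59.H99 Fermat.Agent.S56.H92

variable {A : Type} [CommRing A] [IsLocalRing A]

/-- The prelude's condition on an ordinary line `L` at the place `P`. -/
def IsOrdLineAt (ρ : GaloisRepAdic A) (P : ValuationSubring (AlgebraicClosure ℚ))
    (L : Submodule A ρ.V) : Prop :=
  (∃ b : Module.Basis (Fin 2) A ρ.V, L = Submodule.span A {b 0}) ∧
  (∀ σ ∈ P.decompositionSubgroup ℚ, ∀ v ∈ L, ρ.ρ σ v ∈ L) ∧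
  (∀ σ ∈ P.inertiaSubgroupIn ℚ, ∀ v : ρ.V, ρ.ρ σ v - v ∈ L)

theorem isOrdinaryAt_iff (ρ : GaloisRepAdic A) (p : ℕ) :
    ρ.IsOrdinaryAt p ↔ ∀ P : ValuationSubring (AlgebraicClosure ℚ), P.LiesOverPrime p →
      ∃ L : Submodule A ρ.V, IsOrdLineAt ρ P L := Iff.rfl

/-- The intrinsic form of the ordinary condition at `P`. -/
structure OrdInt (ρ : GaloisRepAdic A) (P : ValuationSubring (AlgebraicClosure ℚ))
    (σ₀ : AlgebraicClosure ℚ ≃ₐ[ℚ] AlgebraicClosure ℚ) : Prop where
  unit : IsUnit (soT ρ σ₀)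
  sq : soF ρ σ₀ * soF ρ σ₀ = soT ρ σ₀ • soF ρ σ₀
  stab : ∀ σ ∈ P.decompositionSubgroup ℚ,
    soT ρ σ₀ • (ρ.ρ σ * soF ρ σ₀) = soF ρ σ₀ * (ρ.ρ σ * soF ρ σ₀)
  inert : ∀ σ ∈ P.inertiaSubgroupIn ℚ, soT ρ σ₀ • (ρ.ρ σ - 1) = soF ρ σ₀ * (ρ.ρ σ - 1)

/-! ### From the intrinsic form to the line -/

section ToLine

variable {ρ : GaloisRepAdic A} {P : ValuationSubring (AlgebraicClosure ℚ)}
  {σ₀ : AlgebraicClosure ℚ ≃ₐ[ℚ] AlgebraicClosure ℚ}

/-- `t u = F w` implies `u ∈ range F`. -/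
theorem ord_mem_range_of_smul_eq (hu : IsUnit (soT ρ σ₀)) {u w : ρ.V}
    (huw : soT ρ σ₀ • u = soF ρ σ₀ w) : u ∈ LinearMap.range (soF ρ σ₀) := by
  obtain ⟨s, hs⟩ := hu
  refine ⟨((s⁻¹ : Aˣ) : A) • w, ?_⟩
  rw [map_smul, ← huw, smul_smul, ← hs, Units.inv_mul, one_smul]

theorem isOrdLineAt_of_ordInt (h : OrdInt ρ P σ₀) :
    IsOrdLineAt ρ P (LinearMap.range (soF ρ σ₀)) := by
  obtain ⟨s, hs⟩ := h.unit
  have hsq : ∀ v, soF ρ σ₀ (soF ρ σ₀ v) = soT ρ σ₀ • soF ρ σ₀ v := fun v =>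
    LinearMap.congr_fun h.sq v
  refine ⟨?_, ?_, ?_⟩
  · -- the basis
    let e : ρ.V →ₗ[A] ρ.V := ((s⁻¹ : Aˣ) : A) • soF ρ σ₀
    have he : ∀ v, e (e v) = e v := by
      intro v
      simp only [e, LinearMap.smul_apply, map_smul]
      rw [hsq, smul_smul, smul_smul, ← hs, mul_assoc, Units.inv_mul, mul_one]
    have htr : LinearMap.trace A ρ.V e = 1 := by
      simp only [e, map_smul, smul_eq_mul]
      change ((s⁻¹ : Aˣ) : A) * soT ρ σ₀ = 1
      rw [← hs, Units.inv_mul]
    obtain ⟨b, hb⟩ := exists_basis_range_of_idempotent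
      (Module.finBasisOfFinrankEq A ρ.V ρ.finrank_eq) e he htr
    refine ⟨b, ?_⟩
    rw [← hb]
    apply le_antisymm
    · rintro _ ⟨v, rfl⟩
      refine ⟨(s : A) • v, ?_⟩
      simp only [e, LinearMap.smul_apply, map_smul]
      rw [smul_smul, Units.mul_inv, one_smul]
    · rintro _ ⟨v, rfl⟩
      exact ⟨((s⁻¹ : Aˣ) : A) • v, by simp only [e, LinearMap.smul_apply, map_smul]⟩
  · -- stability
    rintro σ hσ _ ⟨v, rfl⟩
    apply ord_mem_range_of_smul_eq h.unit (w := ρ.ρ σ (soF ρ σ₀ v))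
    exact LinearMap.congr_fun (h.stab σ hσ) v
  · -- inertia
    intro σ hσ v
    apply ord_mem_range_of_smul_eq h.unit (w := ρ.ρ σ v - v)
    exact LinearMap.congr_fun (h.inert σ hσ) v

end ToLine

/-! ### From the line to the intrinsic form -/

section OfLine

/-- The determinant of an endomorphism which is `x` on the line `A b₀` and `z` modulo the
line. -/
theorem det_of_line_quot {V : Type} [AddCommGroup V] [Module A V]
    (b : Module.Basis (Fin 2) A V) (H : V →ₗ[A] V) (x z : A)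
    (h1 : H (b 0) = x • b 0) (h2 : H (b 1) - z • b 1 ∈ Submodule.span A {b 0}) :
    LinearMap.det H = x * z := by
  rw [← LinearMap.det_toMatrix b, Matrix.det_fin_two]
  simp only [LinearMap.toMatrix_apply]
  have h3 := repr_one_eq_zero_of_mem_span b h2
  rw [map_sub, Finsupp.sub_apply, map_smul, Finsupp.smul_apply, Module.Basis.repr_self,
    Finsupp.single_eq_same, smul_eq_mul, mul_one, sub_eq_zero] at h3
  rw [h1, h3, map_smul, Finsupp.smul_apply, Finsupp.smul_apply, Module.Basis.repr_self,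
    Finsupp.single_eq_same, Finsupp.single_apply, if_neg (by decide), smul_eq_mul, mul_one,
    smul_zero, mul_zero, sub_zero]

variable {ρ : GaloisRepAdic A} {p : ℕ} {P : ValuationSubring (AlgebraicClosure ℚ)}
  {σ₀ : AlgebraicClosure ℚ ≃ₐ[ℚ] AlgebraicClosure ℚ}

theorem ordInt_of_isOrdLineAt (hdet : ρ.DetIsCyclotomic p)
    (hσ₀ : σ₀ ∈ P.inertiaSubgroupIn ℚ) (a₀ : ℕ) (ha₀ : ActsPow p σ₀ 1 a₀)
    (hu : IsUnit ((a₀ : A) - 1)) {L : Submodule A ρ.V} (hL : IsOrdLineAt ρ P L) :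
    OrdInt ρ P σ₀ := by
  obtain ⟨⟨b, rfl⟩, hstab, hin⟩ := hL
  have hσ₀D := mem_decomposition_of_mem_inertia' P σ₀ hσ₀
  have hb0 : b 0 ∈ Submodule.span A {b 0} := Submodule.mem_span_singleton_self _
  obtain ⟨x₀, hx₀'⟩ := Submodule.mem_span_singleton.1 (hstab σ₀ hσ₀D (b 0) hb0)
  have hx₀ : ∀ w ∈ Submodule.span A {b 0}, ρ.ρ σ₀ w = x₀ • w := by
    intro w hw
    obtain ⟨c, rfl⟩ := Submodule.mem_span_singleton.1 hw
    rw [map_smul, ← hx₀', smul_comm]
  have hdetx : LinearMap.det (ρ.ρ σ₀) = x₀ := by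
    have h1 := det_of_line_quot b (ρ.ρ σ₀) x₀ 1 hx₀'.symm
      (by rw [one_smul]; exact hin σ₀ hσ₀ (b 1))
    rw [mul_one] at h1
    exact h1
  -- `t₀ = x₀ - 1` is a unit
  have hxa : x₀ - (a₀ : A) ∈ maximalIdeal A := by
    have h1 := hdet.2 1 σ₀ a₀ ha₀
    rw [hdetx] at h1
    have h2 : Ideal.span {((p ^ 1 : ℕ) : A)} ≤ maximalIdeal A := by
      rw [Ideal.span_singleton_le_iff_mem, pow_one]
      exact hdet.1
    exact h2 h1
  have ht₀ : IsUnit (x₀ - 1) := by
    have := isUnit_of_isUnit_add_mem hu hxa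
    have e : (a₀ : A) - 1 + (x₀ - (a₀ : A)) = x₀ - 1 := by ring
    rwa [e] at this
  have hFL : ∀ v, soF ρ σ₀ v ∈ Submodule.span A {b 0} := fun v => hin σ₀ hσ₀ v
  have hFw : ∀ w ∈ Submodule.span A {b 0}, soF ρ σ₀ w = (x₀ - 1) • w := by
    intro w hw
    change ρ.ρ σ₀ w - w = _
    rw [hx₀ w hw, sub_smul, one_smul]
  have hT : soT ρ σ₀ = x₀ - 1 :=
    trace_of_range_le_line b (soF ρ σ₀) (x₀ - 1) hFL (hFw _ hb0)
  refine ⟨?_, ?_, ?_, ?_⟩
  · rw [hT]; exact ht₀
  · ext v
    change soF ρ σ₀ (soF ρ σ₀ v) = soT ρ σ₀ • soF ρ σ₀ v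
    rw [hFw _ (hFL v), hT]
  · intro σ hσ
    ext v
    change soT ρ σ₀ • ρ.ρ σ (soF ρ σ₀ v) = soF ρ σ₀ (ρ.ρ σ (soF ρ σ₀ v))
    rw [hFw _ (hstab σ hσ _ (hFL v)), hT]
  · intro σ hσ
    ext v
    change soT ρ σ₀ • (ρ.ρ σ v - v) = soF ρ σ₀ (ρ.ρ σ v - v)
    rw [hFw _ (hin σ hσ v), hT]

end OfLine

/-! ### Descent of the intrinsic form -/

section Descent

variable {p : ℕ} (F : JFam A p) (ρ : GaloisRepAdic A)
  (P : ValuationSubring (AlgebraicClosure ℚ))
  (σ₀ : AlgebraicClosure ℚ ≃ₐ[ℚ] AlgebraicClosure ℚ)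

theorem jfam_ordInt (h : ∀ i, OrdInt (ρ.baseChangeAlong (F.φ i) (F.hφ i)) P σ₀) :
    OrdInt ρ P σ₀ := by
  refine ⟨?_, ?_, ?_, ?_⟩
  · apply F.isUnit
    intro i
    have := (h i).unit
    rwa [soT_baseChangeAlong] at this
  · apply F.end_eq
    intro i
    letI := (F.φ i).toAlgebra
    have hi := (h i).sq
    rw [soT_baseChangeAlong, soF_baseChangeAlong] at hi
    rw [LinearMap.baseChange_mul, smul_baseChange_eq]
    exact hi
  · intro σ hσ
    apply F.end_eq
    intro i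
    letI := (F.φ i).toAlgebra
    have hi := (h i).stab σ hσ
    rw [soT_baseChangeAlong, soF_baseChangeAlong] at hi
    rw [LinearMap.baseChange_mul, smul_baseChange_eq, LinearMap.baseChange_mul]
    exact hi
  · intro σ hσ
    apply F.end_eq
    intro i
    letI := (F.φ i).toAlgebra
    have hi := (h i).inert σ hσ
    rw [soT_baseChangeAlong, soF_baseChangeAlong] at hi
    rw [LinearMap.baseChange_mul, smul_baseChange_eq, LinearMap.baseChange_sub,
      LinearMap.baseChange_one]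
    exact hi

end Descent

/-! ### The ordinary condition descends -/

section Final

variable {p : ℕ} [Fact p.Prime] (F : JFam A p) (ρ : GaloisRepAdic A)

theorem jfam_isOrdinaryAt (hp2 : p ≠ 2)
    (hdet : ∀ i, (ρ.baseChangeAlong (F.φ i) (F.hφ i)).DetIsCyclotomic p)
    (h : ∀ i, (ρ.baseChangeAlong (F.φ i) (F.hφ i)).IsOrdinaryAt p) :
    ρ.IsOrdinaryAt p := by
  have hpp : p.Prime := Fact.out
  intro P hP
  obtain ⟨σ₀, hσ₀, ζ, hζ, hne⟩ := Fermat.Agent.R.H2.stmt_CycInertia p hpp hp2 P hP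
  obtain ⟨a₀, ha₀⟩ := exists_actsPow p σ₀ 1
  have hmod := not_modEq_one_of_ne ha₀ hζ hne
  have hint : OrdInt ρ P σ₀ := by
    apply jfam_ordInt F
    intro i
    obtain ⟨L, hL⟩ := h i P hP
    exact ordInt_of_isOrdLineAt (hdet i) hσ₀ a₀ ha₀
      (isUnit_natCast_sub_one hpp (hdet i).1 hmod) hL
  exact ⟨_, isOrdLineAt_of_ordInt hint⟩

end Final

/-! ### Equivalence and base change -/

section Equiv

variable {ρ ρ' : GaloisRepAdic A}

theorem isOrdinaryAt_of_isEquiv (he : ρ.IsEquiv ρ') (p : ℕ)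
    (h : ρ.IsOrdinaryAt p) : ρ'.IsOrdinaryAt p := by
  obtain ⟨e⟩ := he
  intro P hP
  obtain ⟨L, ⟨b, hb⟩, hD, hI⟩ := h P hP
  refine ⟨L.map (e.toLinearEquiv : ρ.V →ₗ[A] ρ'.V), ⟨b.map e.toLinearEquiv, ?_⟩, ?_, ?_⟩
  · rw [hb, Submodule.map_span, Set.image_singleton]
    rfl
  · intro σ hσ v hv
    obtain ⟨w, hw, rfl⟩ := hv
    refine ⟨ρ.ρ σ w, hD σ hσ w hw, ?_⟩
    exact e.map_apply σ w
  · intro σ hσ v
    obtain ⟨w, rfl⟩ := e.toLinearEquiv.surjective v
    refine ⟨ρ.ρ σ w - w, hI σ hσ w, ?_⟩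
    change e.toLinearEquiv (ρ.ρ σ w - w) = _
    rw [map_sub, e.map_apply]

end Equiv

section BaseChange

variable {B : Type} [CommRing B] [IsLocalRing B]

/-- Core of the ordinary base change, stated on `B ⊗[A] V` directly. -/
theorem ordinary_core (φ : A →+* B) (ρ : GaloisRepAdic A)
    (P : ValuationSubring (AlgebraicClosure ℚ))
    (h : ∃ L : Submodule A ρ.V,
      (∃ b : Module.Basis (Fin 2) A ρ.V, L = Submodule.span A {b 0}) ∧
      (∀ σ ∈ P.decompositionSubgroup ℚ, ∀ v ∈ L, ρ.ρ σ v ∈ L) ∧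
      (∀ σ ∈ P.inertiaSubgroupIn ℚ, ∀ v : ρ.V, ρ.ρ σ v - v ∈ L)) :
    letI : Algebra A B := φ.toAlgebra
    ∃ L : Submodule B (B ⊗[A] ρ.V),
      (∃ b : Module.Basis (Fin 2) B (B ⊗[A] ρ.V), L = Submodule.span B {b 0}) ∧
      (∀ σ ∈ P.decompositionSubgroup ℚ, ∀ v ∈ L, (ρ.ρ σ).baseChange B v ∈ L) ∧
      (∀ σ ∈ P.inertiaSubgroupIn ℚ, ∀ v : B ⊗[A] ρ.V, (ρ.ρ σ).baseChange B v - v ∈ L) := by
  letI : Algebra A B := φ.toAlgebra
  obtain ⟨L, ⟨b, hb⟩, hD, hI⟩ := h
  have hb0 : b 0 ∈ L := by rw [hb]; exact Submodule.mem_span_singleton_self _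
  refine ⟨Submodule.span B {(1 : B) ⊗ₜ[A] b 0}, ⟨b.baseChange B, ?_⟩, ?_, ?_⟩
  · rw [Module.Basis.baseChange_apply]
  · intro σ hσ v hv
    obtain ⟨c, rfl⟩ := Submodule.mem_span_singleton.1 hv
    rw [map_smul, LinearMap.baseChange_tmul]
    refine Submodule.smul_mem _ _ ?_
    have := hD σ hσ (b 0) hb0
    rw [hb] at this
    exact tmul_mem_span φ 1 this
  · intro σ hσ v
    induction v using TensorProduct.induction_on with
    | zero => rw [LinearMap.map_zero, sub_zero]; exact Submodule.zero_mem _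
    | tmul c v =>
      rw [LinearMap.baseChange_tmul, ← TensorProduct.tmul_sub]
      have := hI σ hσ v
      rw [hb] at this
      exact tmul_mem_span φ c this
    | add x y hx hy =>
      rw [map_add, add_sub_add_comm]
      exact Submodule.add_mem _ hx hy

theorem isOrdinaryAt_baseChangeAlong (φ : A →+* B) (hφ : IsLocalHom φ)
    (ρ : GaloisRepAdic A) (p : ℕ) (h : ρ.IsOrdinaryAt p) :
    (ρ.baseChangeAlong φ hφ).IsOrdinaryAt p :=
  fun P hP => ordinary_core φ ρ P (h P hP)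

end BaseChange

end Fermat.Agent.S59.NonMin.H47

end
-- ==== END Fermat.Agent.S59.NonMin.H47_OrdLine

-- ==== BEGIN Fermat.Agent.S59.NonMin.H48_H90
section

/-!
# S59, case C, leaf KUM-p (helper48): Hilbert 90 over the fixed field of a subgroup of `G_ℚ`

`hilbert90_sub`: let `H` be a subgroup of `Gal(ℚ̄/ℚ)` and `c : H → ℚ̄ˣ` a 1-cocycle
(`c (g h) = c g · g (c h)`) which is trivial on the elements of `H` fixing a number field `F`.
Then `c g = g y / y` for some `y ≠ 0`.

Proof: Poincaré series over the (finite) set of restrictions to `F` of the elements of `H`,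
Dedekind's independence of characters.
-/

set_option autoImplicit false

namespace Fermat.Agent.S59.NonMin.H48

/-- The Galois group of `ℚ`. -/
local notation "Γℚ" => AlgebraicClosure ℚ ≃ₐ[ℚ] AlgebraicClosure ℚ

/-- Composition with `g` on the embeddings of `F`. -/
noncomputable def compEquivH90 (F : IntermediateField ℚ (AlgebraicClosure ℚ)) (g : Γℚ) :
    (F →ₐ[ℚ] AlgebraicClosure ℚ) ≃ (F →ₐ[ℚ] AlgebraicClosure ℚ) where
  toFun φ := (g : AlgebraicClosure ℚ →ₐ[ℚ] AlgebraicClosure ℚ).comp φ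
  invFun φ := ((g⁻¹ : Γℚ) : AlgebraicClosure ℚ →ₐ[ℚ] AlgebraicClosure ℚ).comp φ
  left_inv φ := by
    ext x
    show (g⁻¹ * g) (φ x) = φ x
    rw [inv_mul_cancel]
    rfl
  right_inv φ := by
    ext x
    show (g * g⁻¹) (φ x) = φ x
    rw [mul_inv_cancel]
    rfl

theorem compEquivH90_apply (F : IntermediateField ℚ (AlgebraicClosure ℚ)) (g : Γℚ)
    (φ : F →ₐ[ℚ] AlgebraicClosure ℚ) (x : F) : compEquivH90 F g φ x = g (φ x) := rfl

/-- The restriction of an automorphism to `F`. -/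
noncomputable def resH90 (F : IntermediateField ℚ (AlgebraicClosure ℚ)) (g : Γℚ) :
    F →ₐ[ℚ] AlgebraicClosure ℚ :=
  (g : AlgebraicClosure ℚ →ₐ[ℚ] AlgebraicClosure ℚ).comp F.val

theorem resH90_apply (F : IntermediateField ℚ (AlgebraicClosure ℚ)) (g : Γℚ) (x : F) :
    resH90 F g x = g (x : AlgebraicClosure ℚ) := rfl

theorem compEquivH90_res (F : IntermediateField ℚ (AlgebraicClosure ℚ)) (g r : Γℚ) :
    compEquivH90 F g (resH90 F r) = resH90 F (g * r) := rfl

/-- **Hilbert 90** for a subgroup `H` of `G_ℚ` and a continuous cocycle. -/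
theorem hilbert90_sub (H : Subgroup Γℚ) (c : Γℚ → AlgebraicClosure ℚ)
    (hc0 : ∀ g ∈ H, c g ≠ 0)
    (hcoc : ∀ g ∈ H, ∀ h ∈ H, c (g * h) = c g * g (c h))
    (F : IntermediateField ℚ (AlgebraicClosure ℚ)) [FiniteDimensional ℚ F]
    (hF : ∀ g ∈ H, (∀ x ∈ F, g x = x) → c g = 1) :
    ∃ y : AlgebraicClosure ℚ, y ≠ 0 ∧ ∀ g ∈ H, g y = c g * y := by
  classical
  -- `c` only depends on the restriction to `F`
  have hwd : ∀ g ∈ H, ∀ g' ∈ H, resH90 F g = resH90 F g' → c g = c g' := by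
    intro g hg g' hg' h
    have ht : g⁻¹ * g' ∈ H := H.mul_mem (H.inv_mem hg) hg'
    have hfix : ∀ x ∈ F, (g⁻¹ * g') x = x := by
      intro x hx
      have h1 : g (⟨x, hx⟩ : F) = g' (⟨x, hx⟩ : F) := by
        have := congrArg (fun φ : F →ₐ[ℚ] AlgebraicClosure ℚ => φ ⟨x, hx⟩) h
        exact this
      show g⁻¹ (g' x) = x
      have h2 : g' x = g x := h1.symm
      rw [h2]
      show (g⁻¹ * g) x = x
      rw [inv_mul_cancel]
      rfl
    have h1 := hcoc g hg _ ht
    rw [mul_inv_cancel_left, hF _ ht hfix, map_one, mul_one] at h1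
    exact h1.symm
  -- the coefficients
  let a : (F →ₐ[ℚ] AlgebraicClosure ℚ) → AlgebraicClosure ℚ := fun φ =>
    if h : ∃ r ∈ H, resH90 F r = φ then c h.choose else 0
  have ha_res : ∀ r ∈ H, a (resH90 F r) = c r := by
    intro r hr
    have h : ∃ r' ∈ H, resH90 F r' = resH90 F r := ⟨r, hr, rfl⟩
    show (if h : ∃ r' ∈ H, resH90 F r' = resH90 F r then c h.choose else 0) = c r
    rw [dif_pos h]
    exact hwd _ h.choose_spec.1 _ hr h.choose_spec.2
  have ha_not : ∀ φ, (¬ ∃ r ∈ H, resH90 F r = φ) → a φ = 0 := by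
    intro φ h
    show (if h : ∃ r' ∈ H, resH90 F r' = φ then c h.choose else 0) = 0
    rw [dif_neg h]
  have ha_comp : ∀ g ∈ H, ∀ φ, a (compEquivH90 F g φ) = c g * g (a φ) := by
    intro g hg φ
    by_cases h : ∃ r ∈ H, resH90 F r = φ
    · obtain ⟨r, hr, rfl⟩ := h
      rw [compEquivH90_res, ha_res _ (H.mul_mem hg hr), ha_res r hr, hcoc g hg r hr]
    · rw [ha_not φ h, map_zero, mul_zero]
      apply ha_not
      rintro ⟨r, hr, hrφ⟩
      apply h
      refine ⟨g⁻¹ * r, H.mul_mem (H.inv_mem hg) hr, ?_⟩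
      rw [← compEquivH90_res, hrφ]
      exact (compEquivH90 F g).symm_apply_apply φ
  -- Dedekind
  have hli := linearIndependent_toLinearMap ℚ F (AlgebraicClosure ℚ)
  have hex : ∃ θ : F, (∑ φ : F →ₐ[ℚ] AlgebraicClosure ℚ, a φ * φ θ) ≠ 0 := by
    by_contra hcon
    push Not at hcon
    have h1 : (∑ φ : F →ₐ[ℚ] AlgebraicClosure ℚ, a φ • (φ.toLinearMap)) = 0 := by
      apply LinearMap.ext
      intro θ
      rw [LinearMap.sum_apply, LinearMap.zero_apply]
      simpa using hcon θ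
    have h2 := (Fintype.linearIndependent_iff.1 hli) a h1 (resH90 F 1)
    rw [ha_res 1 H.one_mem] at h2
    exact hc0 1 H.one_mem h2
  obtain ⟨θ, hθ⟩ := hex
  set y₀ : AlgebraicClosure ℚ := ∑ φ : F →ₐ[ℚ] AlgebraicClosure ℚ, a φ * φ θ with hy₀
  have hkey : ∀ g ∈ H, c g * g y₀ = y₀ := by
    intro g hg
    rw [hy₀, map_sum, Finset.mul_sum]
    rw [← Equiv.sum_comp (compEquivH90 F g) (fun φ => a φ * φ θ)]
    refine Finset.sum_congr rfl fun φ _ => ?_
    rw [ha_comp g hg φ, compEquivH90_apply, map_mul, mul_assoc]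
  refine ⟨y₀⁻¹, inv_ne_zero hθ, fun g hg => ?_⟩
  have h1 := hkey g hg
  have hg0 : g y₀ ≠ 0 := (map_ne_zero_iff g g.injective).2 hθ
  rw [map_inv₀]
  field_simp
  rw [mul_comm]
  exact h1.symm

end Fermat.Agent.S59.NonMin.H48

end
-- ==== END Fermat.Agent.S59.NonMin.H48_H90

-- ==== BEGIN Fermat.Agent.S59.NonMin.H56_CQNECore
section

set_option autoImplicit false

open UpperHalfPlane ModularForm CongruenceSubgroup Matrix.SpecialLinearGroup Filter
open scoped MatrixGroups ModularForm Modular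
open P2MW.S_ModularForm_heckeT_slash_eq_self_of_mem_Gamma0.ModularForm.HeckeSlashInvariance

noncomputable section

namespace Fermat.Agent.S59.NonMin.H56

/-- The supremum of `phi` over the `SL(2, ℤ)`-orbit of `z`. -/
def orbSup (phi : ℍ → ℝ) (z : ℍ) : ℝ := ⨆ γ : SL(2, ℤ), phi (γ • z)

section core

variable {phi : ℍ → ℝ} {C : ℝ}

theorem bddAbove_orb (hC : ∀ z, phi z ≤ C) (z : ℍ) :
    BddAbove (Set.range fun γ : SL(2, ℤ) => phi (γ • z)) :=
  ⟨C, by rintro _ ⟨γ, rfl⟩; exact hC _⟩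

theorem le_orbSup (hC : ∀ z, phi z ≤ C) (z : ℍ) : phi z ≤ orbSup phi z := by
  have h := le_ciSup (bddAbove_orb hC z) 1
  simp only [one_smul] at h
  exact h

theorem le_orbSup_smul (hC : ∀ z, phi z ≤ C) (γ : SL(2, ℤ)) (z : ℍ) :
    phi (γ • z) ≤ orbSup phi z :=
  le_ciSup (bddAbove_orb hC z) γ

theorem orbSup_le (hC : ∀ z, phi z ≤ C) (z : ℍ) : orbSup phi z ≤ C :=
  ciSup_le fun _ => hC _

theorem orbSup_smul (g : SL(2, ℤ)) (z : ℍ) : orbSup phi (g • z) = orbSup phi z := by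
  unfold orbSup
  have : (fun γ : SL(2, ℤ) => phi (γ • g • z)) = (fun γ : SL(2, ℤ) => phi (γ • z)) ∘
      (Equiv.mulRight g) := by
    funext γ
    simp only [Function.comp_apply, Equiv.coe_mulRight, mul_smul]
  rw [this]
  exact (Equiv.mulRight g).iSup_comp (g := fun γ : SL(2, ℤ) => phi (γ • z))

variable {q : ℕ} [Fact q.Prime]

theorem smul_smul_eq (γ : SL(2, ℤ)) (x : OnePoint (ZMod q)) (z : ℍ) :
    ∃ g' : SL(2, ℤ), heckeRep q x • γ • z = g' • (heckeRep q (redMatrix q γ • x) • z) := by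
  obtain ⟨g', -, hg'⟩ :=
    heckeRep_mul (N := 1) (p := q) (Fact.out : q.Prime).not_dvd_one γ (by simp) x
  refine ⟨g', ?_⟩
  rw [MulAction.compHom_smul_def (mapGL ℝ) γ z, MulAction.compHom_smul_def (mapGL ℝ) g',
    ← mul_smul, hg', mul_smul]

/-- The Hecke inequality passes to the orbit supremum. -/
theorem hecke_orbSup (hC : ∀ z, phi z ≤ C)
    (hh : ∀ z : ℍ, ((q : ℝ) + 1) * phi z ≤ ∑ x : OnePoint (ZMod q), phi (heckeRep q x • z))
    (z : ℍ) :
    ((q : ℝ) + 1) * orbSup phi z ≤ ∑ x : OnePoint (ZMod q), orbSup phi (heckeRep q x • z) := by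
  have key : ∀ γ : SL(2, ℤ), ((q : ℝ) + 1) * phi (γ • z) ≤
      ∑ x : OnePoint (ZMod q), orbSup phi (heckeRep q x • z) := by
    intro γ
    refine (hh (γ • z)).trans ?_
    calc ∑ x : OnePoint (ZMod q), phi (heckeRep q x • γ • z)
        ≤ ∑ x : OnePoint (ZMod q), orbSup phi (heckeRep q (redMatrix q γ • x) • z) := by
          refine Finset.sum_le_sum fun x _ => ?_
          obtain ⟨g', hg'⟩ := smul_smul_eq γ x z
          rw [hg']
          exact le_orbSup_smul hC g' _
      _ = ∑ x : OnePoint (ZMod q), orbSup phi (heckeRep q x • z) :=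
          Equiv.sum_comp (MulAction.toPerm (redMatrix q γ))
            (fun x => orbSup phi (heckeRep q x • z))
  have hpos : 0 < (q : ℝ) + 1 := by positivity
  rw [← le_div_iff₀' hpos]
  exact ciSup_le fun γ => by rw [le_div_iff₀' hpos]; exact key γ

/-- One step: `(q + 1) G(z) ≤ G(q z) + q M`. -/
theorem hecke_step {M : ℝ} (hC : ∀ z, phi z ≤ C) (hM : ∀ z, orbSup phi z ≤ M)
    (hh : ∀ z : ℍ, ((q : ℝ) + 1) * phi z ≤ ∑ x : OnePoint (ZMod q), phi (heckeRep q x • z))
    (z : ℍ) :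
    ((q : ℝ) + 1) * orbSup phi z ≤ orbSup phi (heckeDiagMatrix q • z) + q * M := by
  refine (hecke_orbSup hC hh z).trans ?_
  have hsplit : ∑ x : OnePoint (ZMod q), orbSup phi (heckeRep q x • z) =
      orbSup phi (heckeDiagMatrix q • z) +
        ∑ j : ZMod q, orbSup phi (heckeMatrix q j.val • z) :=
    Fintype.sum_option (fun x : OnePoint (ZMod q) => orbSup phi (heckeRep q x • z))
  rw [hsplit]
  have hsum : ∑ j : ZMod q, orbSup phi (heckeMatrix q j.val • z) ≤ q * M := by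
    calc ∑ j : ZMod q, orbSup phi (heckeMatrix q j.val • z) ≤ ∑ _j : ZMod q, M :=
          Finset.sum_le_sum fun j _ => hM _
      _ = q * M := by
          rw [Finset.sum_const, Finset.card_univ, ZMod.card, nsmul_eq_mul]
  linarith

theorem im_heckeDiag_smul (z : ℍ) : (heckeDiagMatrix q • z).im = q * z.im := by
  have h := coe_heckeDiagMatrix_smul (Fact.out : q.Prime).ne_zero z
  have h2 := congrArg Complex.im h
  simpa using h2

theorem im_heckeDiag_pow_smul (j : ℕ) (z : ℍ) :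
    ((heckeDiagMatrix q ^ j) • z).im = (q : ℝ) ^ j * z.im := by
  induction j with
  | zero => simp
  | succ j ih =>
    rw [pow_succ', mul_smul, im_heckeDiag_smul, ih]
    ring

theorem hecke_iter {M : ℝ} (hC : ∀ z, phi z ≤ C) (hM : ∀ z, orbSup phi z ≤ M)
    (hh : ∀ z : ℍ, ((q : ℝ) + 1) * phi z ≤ ∑ x : OnePoint (ZMod q), phi (heckeRep q x • z))
    (j : ℕ) (z : ℍ) :
    M - orbSup phi ((heckeDiagMatrix q ^ j) • z) ≤ ((q : ℝ) + 1) ^ j * (M - orbSup phi z) := by
  induction j with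
  | zero => simp
  | succ j ih =>
    have h1 := hecke_step hC hM hh ((heckeDiagMatrix q ^ j) • z)
    rw [← mul_smul, ← pow_succ'] at h1
    have hpos : 0 ≤ (q : ℝ) + 1 := by positivity
    calc M - orbSup phi ((heckeDiagMatrix q ^ (j + 1)) • z)
        ≤ ((q : ℝ) + 1) * (M - orbSup phi ((heckeDiagMatrix q ^ j) • z)) := by linarith
      _ ≤ ((q : ℝ) + 1) * (((q : ℝ) + 1) ^ j * (M - orbSup phi z)) :=
          mul_le_mul_of_nonneg_left ih hpos
      _ = ((q : ℝ) + 1) ^ (j + 1) * (M - orbSup phi z) := by ring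

/-- **The maximum principle.** -/
theorem phi_eq_zero (h0 : ∀ z, 0 ≤ phi z) (hC : ∀ z, phi z ≤ C)
    (hdecay : ∀ ε : ℝ, 0 < ε → ∃ Y : ℝ, ∀ z : ℍ, Y ≤ z.im → ∀ γ : SL(2, ℤ), phi (γ • z) ≤ ε)
    (hh : ∀ z : ℍ, ((q : ℝ) + 1) * phi z ≤ ∑ x : OnePoint (ZMod q), phi (heckeRep q x • z))
    (z₁ : ℍ) : phi z₁ = 0 := by
  by_contra hne
  have hz₁ : 0 < phi z₁ := lt_of_le_of_ne (h0 z₁) (Ne.symm hne)
  have hbdd : BddAbove (Set.range phi) := ⟨C, by rintro _ ⟨z, rfl⟩; exact hC z⟩
  set M : ℝ := ⨆ z, phi z with hMdef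
  have hphiM : ∀ z, phi z ≤ M := fun z => le_ciSup hbdd z
  have hMpos : 0 < M := hz₁.trans_le (hphiM z₁)
  have hGM : ∀ z, orbSup phi z ≤ M := orbSup_le hphiM
  -- decay
  obtain ⟨Y, hY⟩ := hdecay (M / 2) (by positivity)
  have hq1 : (1 : ℝ) < q := by exact_mod_cast (Fact.out : q.Prime).one_lt
  obtain ⟨j, hj⟩ := pow_unbounded_of_one_lt (2 * Y) hq1
  have hpow : 0 < ((q : ℝ) + 1) ^ j := by positivity
  set et : ℝ := M / (4 * ((q : ℝ) + 1) ^ j) with het
  have hetpos : 0 < et := by positivity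
  obtain ⟨z₀, hz₀⟩ := exists_lt_of_lt_ciSup (show M - et < ⨆ z, phi z by rw [← hMdef]; linarith)
  obtain ⟨g, hg⟩ := ModularGroup.exists_smul_mem_fd z₀
  set w : ℍ := g • z₀ with hw
  have him : (1 : ℝ) / 2 ≤ w.im := by
    have h3 := ModularGroup.three_le_four_mul_im_sq_of_mem_fd hg
    have hpos := w.im_pos
    nlinarith
  have hGw : M - et < orbSup phi w := by
    rw [hw, orbSup_smul]
    exact hz₀.trans_le (le_orbSup hphiM z₀)
  have hiter := hecke_iter hphiM hGM hh j w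
  have hlarge : Y ≤ ((heckeDiagMatrix q ^ j) • w).im := by
    rw [im_heckeDiag_pow_smul]
    have : (0 : ℝ) < (q : ℝ) ^ j := by positivity
    nlinarith
  have hsmall : orbSup phi ((heckeDiagMatrix q ^ j) • w) ≤ M / 2 :=
    ciSup_le fun γ => hY _ hlarge γ
  have h1 : ((q : ℝ) + 1) ^ j * (M - orbSup phi w) < ((q : ℝ) + 1) ^ j * et :=
    mul_lt_mul_of_pos_left (by linarith) hpow
  have h2 : ((q : ℝ) + 1) ^ j * et = M / 4 := by
    rw [het]; field_simp
  linarith

end core

end Fermat.Agent.S59.NonMin.H56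

end

end
-- ==== END Fermat.Agent.S59.NonMin.H56_CQNECore

-- ==== BEGIN Fermat.Agent.S59.NonMin.H56_KVal
section

set_option autoImplicit false

namespace Fermat.Agent.S59.NonMin.H56K

/-- `ℚ̄`. -/
abbrev Qb : Type := AlgebraicClosure ℚ

/-- The absolute Galois group of `ℚ`. -/
abbrev GQ : Type := AlgebraicClosure ℚ ≃ₐ[ℚ] AlgebraicClosure ℚ

variable {p : ℕ} (P : ValuationSubring Qb)

theorem val_p_lt_one (hP : P.LiesOverPrime p) : P.valuation (p : Qb) < 1 :=
  P.mem_nonunits_iff.1 hP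

theorem val_p_ne_zero (hp : p.Prime) : P.valuation (p : Qb) ≠ 0 := by
  rw [ne_eq, map_eq_zero]
  exact_mod_cast hp.ne_zero

/-- `k ↦ |p|_P ^ k` is injective. -/
theorem zpow_val_p_injective (hp : p.Prime) (hP : P.LiesOverPrime p) {a b : ℤ}
    (h : P.valuation (p : Qb) ^ a = P.valuation (p : Qb) ^ b) : a = b := by
  have h0 := val_p_ne_zero P hp
  have h1 := val_p_lt_one P hP
  have key : ∀ c : ℤ, 0 < c → P.valuation (p : Qb) ^ c < 1 := by
    intro c hc
    lift c to ℕ using hc.le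
    rw [zpow_natCast]
    exact pow_lt_one₀ zero_le h1 (by omega)
  by_contra hne
  rcases lt_or_gt_of_ne hne with hlt | hlt
  · have h2 := key (b - a) (by omega)
    rw [zpow_sub₀ h0, ← h, div_self (zpow_ne_zero _ h0)] at h2
    exact lt_irrefl _ h2
  · have h2 := key (a - b) (by omega)
    rw [zpow_sub₀ h0, h, div_self (zpow_ne_zero _ h0)] at h2
    exact lt_irrefl _ h2

/-- An element of valuation `1` is a unit of `P`. -/
theorem mem_of_val_eq_one {u : Qb} (hu : P.valuation u = 1) : u ∈ P ∧ u⁻¹ ∈ P ∧ u ≠ 0 := by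
  refine ⟨(P.valuation_le_one_iff u).1 hu.le, (P.valuation_le_one_iff _).1 ?_, ?_⟩
  · rw [map_inv₀, hu, inv_one]
  · rintro rfl
    rw [map_zero] at hu
    exact zero_ne_one hu

theorem val_eq_one_of_mem {u : Qb} (h1 : u ∈ P) (h2 : u⁻¹ ∈ P) (h0 : u ≠ 0) :
    P.valuation u = 1 := by
  have a1 := (P.valuation_le_one_iff u).2 h1
  have a2 := (P.valuation_le_one_iff _).2 h2
  rw [map_inv₀] at a2
  have hv0 : P.valuation u ≠ 0 := by rwa [ne_eq, map_eq_zero]
  have a3 : 1 ≤ P.valuation u := by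
    have := (inv_le_one₀ (zero_lt_iff.2 hv0)).1 a2
    exact this
  exact le_antisymm a1 a3

/-- **VAL**: an inertia-fixed `w ≠ 0` is a power of `p` times an inertia-fixed unit. -/
theorem val_fixed (hp : p.Prime) (hP : P.LiesOverPrime p) (w : Qb) (hw : w ≠ 0)
    (hfix : ∀ s ∈ P.inertiaSubgroupIn ℚ, s w = w) :
    ∃ k : ℤ, P.valuation (w * (p : Qb) ^ k) = 1 ∧
      ∀ s ∈ P.inertiaSubgroupIn ℚ, s (w * (p : Qb) ^ k) = w * (p : Qb) ^ k := by
  obtain ⟨k, hk⟩ := Fermat.Agent.R.H6.stmt_UnrFix p hp P hP w hw hfix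
  refine ⟨-k, ?_, fun s hs => ?_⟩
  · rw [map_mul, map_zpow₀, hk, ← zpow_add₀ (val_p_ne_zero P hp), add_neg_cancel, zpow_zero]
  · rw [map_mul, map_zpow₀, hfix s hs, map_natCast]

/-- **VAL**, membership form. -/
theorem val_fixed' (hp : p.Prime) (hP : P.LiesOverPrime p) (w : Qb) (hw : w ≠ 0)
    (hfix : ∀ s ∈ P.inertiaSubgroupIn ℚ, s w = w) :
    ∃ k : ℤ, (w * (p : Qb) ^ k ∈ P ∧ (w * (p : Qb) ^ k)⁻¹ ∈ P ∧ w * (p : Qb) ^ k ≠ 0) ∧
      ∀ s ∈ P.inertiaSubgroupIn ℚ, s (w * (p : Qb) ^ k) = w * (p : Qb) ^ k := by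
  obtain ⟨k, h1, h2⟩ := val_fixed P hp hP w hw hfix
  exact ⟨k, mem_of_val_eq_one P h1, h2⟩

end Fermat.Agent.S59.NonMin.H56K

end
-- ==== END Fermat.Agent.S59.NonMin.H56_KVal

-- ==== BEGIN Fermat.Agent.S59.NonMin.H77_ExistsICore
section

set_option autoImplicit false

open scoped Pointwise

noncomputable section

namespace Fermat.Agent.S59.NonMin.H77

open Fermat.Agent.Lib.FrobIntegers Fermat.Agent.Lib.FrobExists Polynomial

attribute [local instance] qbar_isAlgebraic qbar_isAlgClosure qbar_isGalois zbar_isInvariant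
  zbarTopologicalSpace zbar_discreteTopology zbar_continuousSMul

/-- the field generated by the `p`-power roots of unity -/
def muField (p : ℕ) : IntermediateField ℚ (AlgebraicClosure ℚ) :=
  IntermediateField.adjoin ℚ {μ : AlgebraicClosure ℚ | ∃ n : ℕ, μ ^ p ^ n = 1}

/-- the subgroup fixing the `p`-power roots of unity -/
def fixMu (p : ℕ) : Subgroup (AlgebraicClosure ℚ ≃ₐ[ℚ] AlgebraicClosure ℚ) :=
  (muField p).fixingSubgroup

theorem fixMu_apply {p : ℕ} {σ : AlgebraicClosure ℚ ≃ₐ[ℚ] AlgebraicClosure ℚ}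
    (hσ : σ ∈ fixMu p) (n : ℕ) (μ : AlgebraicClosure ℚ) (hμ : μ ^ p ^ n = 1) : σ μ = μ :=
  (IntermediateField.mem_fixingSubgroup_iff _ σ).1 hσ μ
    (IntermediateField.subset_adjoin ℚ _ ⟨n, hμ⟩)

theorem fixMu_isClosed (p : ℕ) :
    IsClosed (fixMu p : Set (AlgebraicClosure ℚ ≃ₐ[ℚ] AlgebraicClosure ℚ)) :=
  InfiniteGalois.fixingSubgroup_isClosed (muField p)

theorem fixMu_compactSpace (p : ℕ) : CompactSpace (fixMu p) :=
  isCompact_iff_compactSpace.1 (fixMu_isClosed p).isCompact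

/-- an element fixed by `fixMu p` lies in `muField p` -/
theorem mem_muField_of_fixed (p : ℕ) (a : AlgebraicClosure ℚ)
    (ha : ∀ σ ∈ fixMu p, σ a = a) : a ∈ muField p := by
  have h := InfiniteGalois.fixedField_fixingSubgroup (muField p)
  rw [← h]
  rw [IntermediateField.mem_fixedField_iff]
  intro σ hσ
  exact ha σ hσ

/-- an element of `muField p` lies in a cyclotomic field of level `p ^ N` -/
theorem exists_level_of_mem_muField (p : ℕ) (hp : p ≠ 0) (a : AlgebraicClosure ℚ)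
    (ha : a ∈ muField p) :
    ∃ N : ℕ, a ∈ IntermediateField.adjoin ℚ
      {b : AlgebraicClosure ℚ | ∃ m ∈ ({p ^ N} : Set ℕ), m ≠ 0 ∧ b ^ m = 1} := by
  classical
  obtain ⟨T, hT, haT⟩ := IntermediateField.exists_finset_of_mem_adjoin ha
  have hN : ∃ N : ℕ, ∀ μ ∈ T, μ ^ p ^ N = 1 := by
    choose! n hn using fun μ (hμ : μ ∈ T) => hT hμ
    refine ⟨T.sup n, fun μ hμ => ?_⟩
    have h1 : n μ ≤ T.sup n := Finset.le_sup hμ
    obtain ⟨d, hd⟩ := Nat.exists_eq_add_of_le h1
    rw [hd, pow_add, pow_mul, hn μ hμ, one_pow]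
  obtain ⟨N, hN⟩ := hN
  refine ⟨N, IntermediateField.adjoin.mono ℚ _ _ ?_ haT⟩
  intro μ hμ
  exact ⟨p ^ N, rfl, pow_ne_zero _ hp, hN μ hμ⟩

/-- an algebraic integer of the cyclotomic field of level `p ^ N` is a polynomial in a primitive
root of unity -/
theorem exists_aeval_eq (p : ℕ) [hp : Fact p.Prime] (N : ℕ) (a : AlgebraicClosure ℚ)
    (hint : IsIntegral ℤ a)
    (ha : a ∈ IntermediateField.adjoin ℚ
      {b : AlgebraicClosure ℚ | ∃ m ∈ ({p ^ N} : Set ℕ), m ≠ 0 ∧ b ^ m = 1}) :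
    ∃ (ζ : AlgebraicClosure ℚ) (f : ℤ[X]), ζ ^ p ^ N = 1 ∧ aeval ζ f = a := by
  set K : IntermediateField ℚ (AlgebraicClosure ℚ) := IntermediateField.adjoin ℚ
      {b : AlgebraicClosure ℚ | ∃ m ∈ ({p ^ N} : Set ℕ), m ≠ 0 ∧ b ^ m = 1} with hK
  have hpN : p ^ N ≠ 0 := pow_ne_zero _ hp.out.ne_zero
  have : NeZero (p ^ N) := ⟨hpN⟩
  obtain ⟨ζ₀, hζ₀⟩ := HasEnoughRootsOfUnity.exists_primitiveRoot (AlgebraicClosure ℚ) (p ^ N)
  have hcyc : IsCyclotomicExtension {p ^ N} ℚ K :=
    IntermediateField.isCyclotomicExtension_adjoin_of_exists_isPrimitiveRoot {p ^ N} ℚ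
      (AlgebraicClosure ℚ) (fun n hn _ => by
        rw [Set.mem_singleton_iff] at hn
        subst hn
        exact ⟨ζ₀, hζ₀⟩)
  have hζK : ζ₀ ∈ K := IntermediateField.subset_adjoin ℚ _ ⟨p ^ N, rfl, hpN, hζ₀.pow_eq_one⟩
  set ζ : K := ⟨ζ₀, hζK⟩ with hζ
  have hζprim : IsPrimitiveRoot ζ (p ^ N) :=
    IsPrimitiveRoot.of_map_of_injective (f := algebraMap K (AlgebraicClosure ℚ)) hζ₀
      (FaithfulSMul.algebraMap_injective K (AlgebraicClosure ℚ))
  have hcl := IsCyclotomicExtension.Rat.isIntegralClosure_adjoin_singleton_of_prime_pow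
    (p := p) (k := N) (K := K) hζprim
  have hint' : IsIntegral ℤ (⟨a, ha⟩ : K) :=
    (isIntegral_algHom_iff (K.val.restrictScalars ℤ) Subtype.val_injective).1 hint
  obtain ⟨y, hy⟩ := hcl.isIntegral_iff.1 hint'
  have hy2 : (y : K) ∈ Algebra.adjoin ℤ ({ζ} : Set K) := y.2
  rw [Algebra.adjoin_singleton_eq_range_aeval] at hy2
  obtain ⟨f, hf⟩ := hy2
  refine ⟨ζ₀, f, hζ₀.pow_eq_one, ?_⟩
  have h1 : (aeval ζ f : K) = ⟨a, ha⟩ := by
    rw [← hy]
    exact hf
  have h2 := congrArg (fun x : K => (x : AlgebraicClosure ℚ)) h1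
  simp only at h2
  rw [← h2]
  exact Polynomial.aeval_algHom_apply (K.val.restrictScalars ℤ) ζ f

/-- a `p`-power root of unity is congruent to `1` modulo a prime over `p` -/
theorem sub_one_mem_of_pow_eq_one (p : ℕ) [hp : Fact p.Prime] (Q : Ideal ZBar) [hQ : Q.IsPrime]
    (hpQ : (p : ZBar) ∈ Q) (ζ : ZBar) (N : ℕ) (hζ : ζ ^ p ^ N = 1) : ζ - 1 ∈ Q := by
  have hchar : CharP (ZBar ⧸ Q) p := by
    have hnt : Nontrivial (ZBar ⧸ Q) := Ideal.Quotient.nontrivial_iff.2 hQ.ne_top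
    rw [CharP.charP_iff_prime_eq_zero hp.out]
    have : ((p : ZBar) : ZBar ⧸ Q) = 0 := Ideal.Quotient.eq_zero_iff_mem.mpr hpQ
    simpa using this
  have h1 : (Ideal.Quotient.mk Q ζ - 1) ^ p ^ N = 0 := by
    rw [sub_pow_char_pow, one_pow, ← map_pow, hζ, map_one, sub_self]
  have h2 : Ideal.Quotient.mk Q ζ - 1 = 0 := by
    have : IsDomain (ZBar ⧸ Q) := Ideal.Quotient.isDomain Q
    exact pow_eq_zero_iff (pow_ne_zero _ hp.out.ne_zero) |>.1 h1
  rw [← map_one (Ideal.Quotient.mk Q), ← map_sub] at h2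
  exact Ideal.Quotient.eq_zero_iff_mem.1 h2

/-- **Main lemma**: an algebraic integer of `muField p` is congruent to a rational integer
modulo every prime over `p`. -/
theorem exists_int_sub_mem (p : ℕ) [hp : Fact p.Prime] (Q : Ideal ZBar) [hQ : Q.IsPrime]
    (hpQ : (p : ZBar) ∈ Q) (a : ZBar) (ha : (a : AlgebraicClosure ℚ) ∈ muField p) :
    ∃ n : ℤ, a - (n : ZBar) ∈ Q := by
  obtain ⟨N, hN⟩ := exists_level_of_mem_muField p hp.out.ne_zero _ ha
  obtain ⟨ζ, f, hζ, hf⟩ := exists_aeval_eq p N _ a.2 hN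
  have hζint : IsIntegral ℤ ζ :=
    IsIntegral.of_pow (pow_pos hp.out.pos N) (by rw [hζ]; exact isIntegral_one)
  set ζ' : ZBar := ⟨ζ, hζint⟩ with hζ'
  have hζ'1 : ζ' ^ p ^ N = 1 := Subtype.ext (by simpa using hζ)
  have h1 : ζ' - 1 ∈ Q := sub_one_mem_of_pow_eq_one p Q hpQ ζ' N hζ'1
  have h2 : a = aeval ζ' f := by
    apply Subtype.ext
    rw [← hf]
    exact Polynomial.aeval_algHom_apply (ZBar.val) ζ' f
  refine ⟨f.eval 1, ?_⟩
  have h3 : (aeval ζ' f : ZBar) - aeval (1 : ZBar) f ∈ Q := by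
    obtain ⟨c, hc⟩ := Polynomial.sub_dvd_eval_sub ζ' 1 (f.map (algebraMap ℤ ZBar))
    rw [Polynomial.aeval_def, Polynomial.aeval_def, ← Polynomial.eval_map, ← Polynomial.eval_map, hc]
    exact Q.mul_mem_right _ h1
  have h4 : (aeval (1 : ZBar) f : ZBar) = ((f.eval 1 : ℤ) : ZBar) := by
    have := Polynomial.aeval_algebraMap_apply_eq_algebraMap_eval (A := ZBar) (1 : ℤ) f
    simpa using this
  rw [h2, ← h4]
  exact h3

/-- `muField p` is normal over `ℚ`. -/
theorem muField_normal (p : ℕ) : Normal ℚ (muField p) := by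
  refine (IntermediateField.normal_iff_forall_map_le (F := ℚ) (K := muField p)).2 ?_
  intro σ
  rw [muField, IntermediateField.adjoin_map]
  apply IntermediateField.adjoin.mono
  rintro _ ⟨μ, ⟨n, hn⟩, rfl⟩
  exact ⟨n, by rw [← map_pow, hn, map_one]⟩

/-- **EXISTS-i** (core form): every element of the decomposition group at a place over `p` can be
corrected by an element of the inertia group to an element fixing the `p`-power roots of
unity. -/
theorem exists_inertia_mul_fixes (p : ℕ) (hp : p.Prime)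
    (P : ValuationSubring (AlgebraicClosure ℚ)) (hP : P.LiesOverPrime p)
    (g : AlgebraicClosure ℚ ≃ₐ[ℚ] AlgebraicClosure ℚ) (hg : g ∈ P.decompositionSubgroup ℚ) :
    ∃ i ∈ P.inertiaSubgroupIn ℚ,
      ∀ (n : ℕ) (μ : AlgebraicClosure ℚ), μ ^ p ^ n = 1 → (g * i) μ = μ := by
  have : Fact p.Prime := ⟨hp⟩
  have hQprime : (primeUnder P).IsPrime := primeUnder_isPrime P
  have hpQ : (p : ZBar) ∈ primeUnder P :=
    Fermat.Agent.Lib.InertiaConj.natCast_mem_primeUnder p P hP
  have hnormal : Normal ℚ (muField p) := muField_normal p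
  have hginv : g⁻¹ ∈ P.decompositionSubgroup ℚ := inv_mem hg
  obtain ⟨i, hi, hiF⟩ := Fermat.Agent.Lib.InertiaLift.exists_mem_inertiaSubgroupIn_eqOn p hp P hP
    (muField p) g⁻¹ (by
      intro x hx hxi
      obtain ⟨n, hn⟩ := exists_int_sub_mem p (primeUnder P) hpQ ⟨x, hxi⟩ hx
      rw [mem_primeUnder] at hn
      have hn' : P.valuation (x - (n : AlgebraicClosure ℚ)) < 1 := by
        simpa using hn
      rw [ValuationSubring.mem_nonunits_iff]
      have h1 : g⁻¹ x - x = g⁻¹ (x - (n : AlgebraicClosure ℚ)) - (x - (n : AlgebraicClosure ℚ)) := by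
        rw [map_sub, map_intCast]
        ring
      rw [h1]
      exact Valuation.map_sub_lt _
        ((Fermat.Agent.Lib.InertiaBridge.valuation_map_lt_one_iff P g⁻¹ hginv _).2 hn') hn')
  refine ⟨i, hi, fun n μ hμ => ?_⟩
  have hμF : μ ∈ muField p := IntermediateField.subset_adjoin ℚ _ ⟨n, hμ⟩
  show g (i μ) = μ
  rw [hiF μ hμF]
  exact AlgEquiv.apply_symm_apply g μ

end Fermat.Agent.S59.NonMin.H77

end
end
-- ==== END Fermat.Agent.S59.NonMin.H77_ExistsICore

-- ==== BEGIN Fermat.Agent.S59.NonMin.H80_SelmerPConj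
section

set_option autoImplicit false
set_option linter.unusedSectionVars false
set_option linter.style.haveILetI false

open IsLocalRing
open scoped Pointwise

namespace Fermat.Agent.S59.NonMin.H80

open Fermat.Agent.S55.CFT.GS.H6 Fermat.Agent.Lib.InertiaBridge

/-- Conjugation of the inertia group. -/
theorem conj_mem_inertia_of_smul (A : ValuationSubring (AlgebraicClosure ℚ))
    (g σ : AlgebraicClosure ℚ ≃ₐ[ℚ] AlgebraicClosure ℚ)
    (hσ : σ ∈ (g • A).inertiaSubgroupIn ℚ) : g⁻¹ * σ * g ∈ A.inertiaSubgroupIn ℚ := by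
  rw [mem_inertiaSubgroupIn_iff_forall] at hσ ⊢
  obtain ⟨hD, hI⟩ := hσ
  refine ⟨?_, fun a ha => ?_⟩
  · rw [ValuationSubring.decompositionSubgroup, MulAction.mem_stabilizer_iff] at hD ⊢
    rw [mul_smul, mul_smul, hD, inv_smul_smul]
  · have h0 : g⁻¹ (g a) = a := AlgEquiv.symm_apply_apply g a
    have h1 : g a ∈ g • A := by
      rw [ur_mem_smul_iff, h0]
      exact ha
    have h2 := hI (g a) h1
    rw [ur_valuation_smul_lt, map_sub, h0] at h2
    exact h2

/-- Transport of the units of the inertia field. -/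
theorem map_mem_peuUnits (A : ValuationSubring (AlgebraicClosure ℚ))
    (g : AlgebraicClosure ℚ ≃ₐ[ℚ] AlgebraicClosure ℚ) (u : AlgebraicClosure ℚ)
    (hu : u ∈ peuUnits A) : g u ∈ peuUnits (g • A) := by
  obtain ⟨h1, h2, h3, h4⟩ := hu
  have h0 : ∀ y : AlgebraicClosure ℚ, g⁻¹ (g y) = y := fun y => AlgEquiv.symm_apply_apply g y
  refine ⟨?_, ?_, ?_, fun s hs => ?_⟩
  · rw [ur_mem_smul_iff, h0]
    exact h1
  · rw [ur_mem_smul_iff, ← map_inv₀, h0]
    exact h2
  · exact (map_ne_zero g).2 h3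
  · have h5 := h4 _ (conj_mem_inertia_of_smul A g s hs)
    have h6 : g ((g⁻¹ * s * g) u) = s (g u) := by
      change g (g⁻¹ (s (g u))) = s (g u)
      exact AlgEquiv.apply_symm_apply g _
    rw [← h6, h5]

/-- Conjugation of the peu ramifié inertia. -/
theorem conj_mem_Ipeu_of_smul (p : ℕ) (A : ValuationSubring (AlgebraicClosure ℚ))
    (g σ : AlgebraicClosure ℚ ≃ₐ[ℚ] AlgebraicClosure ℚ) (hσ : σ ∈ Ipeu p (g • A)) :
    g⁻¹ * σ * g ∈ Ipeu p A := by
  obtain ⟨h1, h2⟩ := hσ
  refine ⟨conj_mem_inertia_of_smul A g σ h1, fun y n hy => ?_⟩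
  have h3 : (g y) ^ p ^ n ∈ peuUnits (g • A) := by
    rw [← map_pow]
    exact map_mem_peuUnits A g _ hy
  have h4 := h2 (g y) n h3
  change g⁻¹ (σ (g y)) = y
  rw [h4]
  exact AlgEquiv.symm_apply_apply g y

/-- The peu ramifié inertia groups over `p` are conjugate. -/
theorem conj_mem_Ipeu (p : ℕ) (hp : p.Prime) (P P' : ValuationSubring (AlgebraicClosure ℚ))
    (hP : P.LiesOverPrime p) (hP' : P'.LiesOverPrime p) :
    ∃ g : AlgebraicClosure ℚ ≃ₐ[ℚ] AlgebraicClosure ℚ,
      ∀ σ ∈ Ipeu p P', g⁻¹ * σ * g ∈ Ipeu p P := by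
  obtain ⟨g, hg⟩ := ur_exists_smul P P' p hp hP hP'
  refine ⟨g, fun σ hσ => ?_⟩
  rw [hg] at hσ
  exact conj_mem_Ipeu_of_smul p P g σ hσ

/-- A representation which is trivial on the peu ramifié inertia of one place over `p` is peu
ramifié at `p`. -/
theorem isPeuAt_of_one_place {C : Type} [CommRing C] [IsLocalRing C] (ρ : GaloisRepAdic C)
    (p : ℕ) (hp : p.Prime) (P : ValuationSubring (AlgebraicClosure ℚ)) (hP : P.LiesOverPrime p)
    (h : ∀ σ ∈ Ipeu p P, ρ.ρ σ = 1) : IsPeuAt ρ p := by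
  intro P' hP' σ hσ
  obtain ⟨g, hg⟩ := conj_mem_Ipeu p hp P P' hP hP'
  have h1 := h _ (hg σ hσ)
  have h2 : σ = g * (g⁻¹ * σ * g) * g⁻¹ := by group
  rw [h2, map_mul, map_mul, h1, mul_one, ← map_mul, mul_inv_cancel, map_one]

end Fermat.Agent.S59.NonMin.H80

end
-- ==== END Fermat.Agent.S59.NonMin.H80_SelmerPConj

-- ==== BEGIN Fermat.Agent.S59.NonMin.H92_EtaNe
section

/-!
# S59, package RT-NONMIN, leaf ETANE (helper92): the congruence ideal is nonzero

* `eta_ne_bot` : GENERAL.  `A` a reduced noetherian ring, integral over a domain `𝒪`,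
  `π : A → 𝒪` an augmentation.  Then `η = π (Ann (ker π)) ≠ 0`.
  [`𝔭 = ker π` is a minimal prime (incomparability); `J` := the intersection of the other minimal
  primes; `𝔭 ∩ J = nilradical = 0`, so `J ⊆ Ann 𝔭`; `J ⊄ 𝔭` since `𝔭` is prime and minimal.]
* `stmt_ETANE : Stmt_ETANE` : the full local Hecke ring is reduced
  (`R.H58.stmt_HeckeReduced`, `R.H2.isReduced_of_flat_of_adjoin_eq_top`, `Datum.H85.stmt_Ring`).
-/

set_option autoImplicit false
set_option linter.unusedSectionVars false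
set_option linter.style.haveILetI false
set_option linter.unusedVariables false

namespace Fermat.Agent.S59.NonMin.H92

open IsLocalRing

section General

variable {𝒪 A : Type} [CommRing 𝒪] [IsDomain 𝒪] [CommRing A] [Algebra 𝒪 A]

/-- The kernel of an augmentation lies over `0`. -/
theorem comap_ker_aug (π : A →ₐ[𝒪] 𝒪) :
    (RingHom.ker (π : A →+* 𝒪)).comap (algebraMap 𝒪 A) = ⊥ := by
  rw [eq_bot_iff]
  intro a ha
  rw [Ideal.mem_comap, RingHom.mem_ker] at ha
  have h1 : (π : A →+* 𝒪) (algebraMap 𝒪 A a) = a := by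
    show π (algebraMap 𝒪 A a) = a
    rw [π.commutes]
    rfl
  rw [h1] at ha
  exact ha

/-- The kernel of an augmentation of an integral algebra is a minimal prime. -/
theorem ker_aug_le_of_le [Algebra.IsIntegral 𝒪 A] (π : A →ₐ[𝒪] 𝒪) (𝔮 : Ideal A) [𝔮.IsPrime]
    (h : 𝔮 ≤ RingHom.ker (π : A →+* 𝒪)) : RingHom.ker (π : A →+* 𝒪) ≤ 𝔮 := by
  by_contra hne
  obtain ⟨x, hx, hxq⟩ := SetLike.not_le_iff_exists.mp hne
  have h1 := Ideal.comap_lt_comap_of_integral_mem_sdiff (R := 𝒪) h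
    (show x ∈ ((RingHom.ker (π : A →+* 𝒪) : Ideal A) : Set A) \ (𝔮 : Set A) from ⟨hx, hxq⟩)
    (Algebra.IsIntegral.isIntegral x)
  rw [comap_ker_aug π] at h1
  exact not_lt_bot h1

/-- **The congruence ideal of an augmentation of a reduced noetherian integral algebra is
nonzero.** -/
theorem eta_ne_bot [IsNoetherianRing A] [IsReduced A] [Algebra.IsIntegral 𝒪 A]
    (π : A →ₐ[𝒪] 𝒪) : Fermat.Agent.S59.NumCrit.eta π ≠ ⊥ := by
  classical
  set 𝔭 : Ideal A := RingHom.ker (π : A →+* 𝒪) with h𝔭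
  haveI hprime : 𝔭.IsPrime := RingHom.ker_isPrime _
  have hfin : (minimalPrimes A).Finite := minimalPrimes.finite_of_isNoetherianRing A
  have hmin : 𝔭 ∈ minimalPrimes A := by
    refine ⟨⟨hprime, bot_le⟩, fun 𝔮 h𝔮 hle => ?_⟩
    haveI := h𝔮.1
    exact ker_aug_le_of_le π 𝔮 hle
  let s : Finset (Ideal A) := hfin.toFinset.erase 𝔭
  let J : Ideal A := s.inf id
  have hJ : 𝔭 ⊓ J = ⊥ := by
    have h1 : 𝔭 ⊓ J = (insert 𝔭 s).inf id := by
      rw [Finset.inf_insert]
      rfl
    have h2 : insert 𝔭 s = hfin.toFinset :=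
      Finset.insert_erase (hfin.mem_toFinset.mpr hmin)
    rw [h1, h2, Finset.inf_id_eq_sInf, Set.Finite.coe_toFinset]
    have h3 : sInf (minimalPrimes A) = (⊥ : Ideal A).radical := Ideal.sInf_minimalPrimes
    rw [h3]
    exact Ideal.radical_bot_of_isReduced
  have hJann : J ≤ (𝔭 : Ideal A).annihilator := by
    intro x hx
    rw [Submodule.mem_annihilator]
    intro y hy
    have h1 : x * y ∈ 𝔭 ⊓ J :=
      ⟨Ideal.mul_mem_left _ x hy, Ideal.mul_mem_right y _ hx⟩
    rw [hJ] at h1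
    exact h1
  have hJp : ¬ J ≤ 𝔭 := by
    intro hle
    obtain ⟨𝔮, h𝔮s, h𝔮p⟩ := (Ideal.IsPrime.inf_le' hprime).mp hle
    have h𝔮min : 𝔮 ∈ minimalPrimes A := hfin.mem_toFinset.mp (Finset.mem_of_mem_erase h𝔮s)
    have h𝔮ne : 𝔮 ≠ 𝔭 := Finset.ne_of_mem_erase h𝔮s
    haveI := h𝔮min.1.1
    exact h𝔮ne (le_antisymm h𝔮p (ker_aug_le_of_le π 𝔮 h𝔮p))
  obtain ⟨x, hxJ, hxp⟩ := SetLike.not_le_iff_exists.mp hJp
  intro hbot
  have h1 : (π : A →+* 𝒪) x ∈ Fermat.Agent.S59.NumCrit.eta π :=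
    Ideal.mem_map_of_mem _ (hJann hxJ)
  rw [hbot, Ideal.mem_bot] at h1
  exact hxp h1

end General

/-- **ETANE**. -/
theorem stmt_ETANE : Stmt_ETANE := by
  intro 𝒪 _ _ _ _ _ N _ _ S hNS θ π
  haveI : Module.Finite ℤ (CuspForm.heckeAlgebra N 2 (↑S : Set ℕ)) :=
    Fermat.Agent.S22.result N 2 (↑S : Set ℕ)
  haveI : IsReduced (CuspForm.heckeAlgebra N 2 (↑S : Set ℕ)) :=
    Fermat.Agent.R.H58.stmt_HeckeReduced N (↑S : Set ℕ) hNS
  have hgen : Algebra.adjoin 𝒪 (Set.range (CuspForm.heckeLocal.π N (↑S : Set ℕ) 𝒪 θ)) = ⊤ :=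
    (Fermat.Agent.S59.Datum.H85.stmt_Ring 𝒪 N (↑S : Set ℕ) θ).2.1
  haveI : IsReduced (CuspForm.heckeLocal N (↑S : Set ℕ) 𝒪 θ) :=
    Fermat.Agent.R.H2.isReduced_of_flat_of_adjoin_eq_top (CuspForm.heckeAlgebra N 2 (↑S : Set ℕ)) 𝒪
      (CuspForm.heckeLocal N (↑S : Set ℕ) 𝒪 θ) (CuspForm.heckeLocal.π N (↑S : Set ℕ) 𝒪 θ) hgen
  haveI : IsNoetherianRing 𝒪 := inferInstance
  haveI : IsNoetherianRing (CuspForm.heckeLocal N (↑S : Set ℕ) 𝒪 θ) :=
    IsNoetherianRing.of_finite 𝒪 (CuspForm.heckeLocal N (↑S : Set ℕ) 𝒪 θ)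
  haveI : Algebra.IsIntegral 𝒪 (CuspForm.heckeLocal N (↑S : Set ℕ) 𝒪 θ) :=
    Algebra.IsIntegral.of_finite 𝒪 (CuspForm.heckeLocal N (↑S : Set ℕ) 𝒪 θ)
  exact eta_ne_bot π

end Fermat.Agent.S59.NonMin.H92

end
-- ==== END Fermat.Agent.S59.NonMin.H92_EtaNe

-- ==== BEGIN Fermat.Agent.S59.NonMin.H92_PeuFlatDefs
section

/-!
# S59, package RT-NONMIN, case C, leaf PEUFLAT (helper92): interface

* `Stmt_KCore` : **K-CORE** (owner helper56): let `K = ℚ̄^I` be the inertia field at `P` (`P` over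
  `p`, `p` odd).  If `y ≠ 0`, `y ^ p ^ n ∈ K` and `y` is fixed by the peu ramifié inertia
  `Ipeu p P`, then `y = b · (P-unit)` with `b ∈ Kˣ`.
* `Stmt_PeuUnit` : Hilbert 90 for the inertia group, with unit solutions: a crossed homomorphism
  `z : I → μ_{p^n}` which is trivial on `Ipeu p P` and on the inertia of a finite level is
  `σ ↦ σ y / y` for a `P`-unit `y`.   (`Stmt_KCore → Stmt_PeuUnit`: `H92_PeuUnit.lean`.)

No `sorry`; definitions only.
-/

set_option autoImplicit false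

namespace Fermat.Agent.S59.NonMin.H92P

open Fermat.Agent.S59.NonMin

/-- **K-CORE**. -/
def Stmt_KCore : Prop :=
  ∀ (p : ℕ), p.Prime → p ≠ 2 →
  ∀ (P : ValuationSubring (AlgebraicClosure ℚ)), P.LiesOverPrime p →
  ∀ (y : AlgebraicClosure ℚ) (n : ℕ), y ≠ 0 →
    (∀ s ∈ P.inertiaSubgroupIn ℚ, s (y ^ p ^ n) = y ^ p ^ n) →
    (∀ σ ∈ Ipeu p P, σ y = y) →
    ∃ b : AlgebraicClosure ℚ, b ≠ 0 ∧ (∀ s ∈ P.inertiaSubgroupIn ℚ, s b = b) ∧
      y / b ∈ P ∧ b / y ∈ P

/-- **Hilbert 90 with unit solutions**: a crossed homomorphism of the inertia group at `P` with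
values in the `p ^ n`-th roots of unity, trivial on the peu ramifié inertia and on the elements
of the inertia group which fix a finite extension `L` of `ℚ`, is of the form `σ ↦ σ y / y` for a
`P`-unit `y`. -/
def Stmt_PeuUnit : Prop :=
  ∀ (p : ℕ), p.Prime → p ≠ 2 →
  ∀ (P : ValuationSubring (AlgebraicClosure ℚ)), P.LiesOverPrime p →
  ∀ (n : ℕ) (z : (AlgebraicClosure ℚ ≃ₐ[ℚ] AlgebraicClosure ℚ) → AlgebraicClosure ℚ),
    (∀ σ ∈ P.inertiaSubgroupIn ℚ, z σ ^ p ^ n = 1) →
    (∀ σ ∈ P.inertiaSubgroupIn ℚ, ∀ τ ∈ P.inertiaSubgroupIn ℚ, z (σ * τ) = z σ * σ (z τ)) →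
    (∃ L : IntermediateField ℚ (AlgebraicClosure ℚ), FiniteDimensional ℚ L ∧
      ∀ σ ∈ P.inertiaSubgroupIn ℚ, σ ∈ L.fixingSubgroup → z σ = 1) →
    (∀ σ ∈ Ipeu p P, z σ = 1) →
    ∃ y : AlgebraicClosure ℚ, y ≠ 0 ∧ y ∈ P ∧ y⁻¹ ∈ P ∧
      ∀ σ ∈ P.inertiaSubgroupIn ℚ, σ y = z σ * y

end Fermat.Agent.S59.NonMin.H92P

end
-- ==== END Fermat.Agent.S59.NonMin.H92_PeuFlatDefs

-- ==== BEGIN Fermat.Agent.S59.NonMin.H92_Pres
section

/-!
# S59, package RT-NONMIN, leaf PRES (helper92): a universal deformation ring is a quotient of a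
power series ring

`𝔪_R` is finitely generated (`R` noetherian); evaluate power series at generators
(`S56.H50.exists_eval`), surjectivity is `S56.H50.surjective_of_gens`.
-/

set_option autoImplicit false
set_option linter.unusedSectionVars false
set_option linter.style.haveILetI false
set_option linter.unusedVariables false

namespace Fermat.Agent.S59.NonMin.H92

open IsLocalRing

/-- A complete noetherian local `𝒪`-algebra with residue field `k` is a quotient of a power
series ring over `𝒪`. -/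
theorem exists_presentation {𝒪 : Type} [CommRing 𝒪] [IsDomain 𝒪] [IsDiscreteValuationRing 𝒪]
    [IsAdicComplete (maximalIdeal 𝒪) 𝒪]
    (R : Type) [CommRing R] [IsLocalRing R] [IsNoetherianRing R]
    [IsAdicComplete (maximalIdeal R) R] [Algebra 𝒪 R] [IsLocalHom (algebraMap 𝒪 R)]
    (hres : Function.Surjective (residue R ∘ algebraMap 𝒪 R)) :
    ∃ (n : ℕ) (γ : MvPowerSeries (Fin n) 𝒪 →ₐ[𝒪] R), Function.Surjective γ := by
  have hfg : (maximalIdeal R).FG := IsNoetherian.noetherian _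
  obtain ⟨n, x, hx⟩ := Submodule.fg_iff_exists_fin_generating_family.mp hfg
  have hxm : ∀ i, x i ∈ maximalIdeal R := fun i => by
    rw [← hx]
    exact Submodule.subset_span ⟨i, rfl⟩
  obtain ⟨γ, hγ⟩ := Fermat.Agent.S56.H50.exists_eval (𝒪 := 𝒪) n x hxm
  refine ⟨n, γ, Fermat.Agent.S56.H50.surjective_of_gens hres n x γ hγ ?_⟩
  have h1 : maximalIdeal R = Ideal.span (Set.range x) := hx.symm
  rw [h1]
  exact le_sup_left

/-- **PRES**. -/
theorem stmt_PRES : Stmt_PRES := by
  intro 𝒪 _ _ _ _ ρbar 𝒟 D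
  exact exists_presentation D.R D.residue_surjective

end Fermat.Agent.S59.NonMin.H92

end
-- ==== END Fermat.Agent.S59.NonMin.H92_Pres

-- ==== BEGIN Fermat.Agent.S59.NumCrit.H85_Dim
section

set_option autoImplicit false

/-!
# S59, NUMCRIT (helper85): the leaf DIM

`exists_X_pow_mem_ofList` : in `k⟦X_1, …, X_n⟧` a weakly regular sequence of length `n` of
power series without constant term generates an ideal containing a power of every variable.

Proof: `dim k⟦X⟧ ≤ n` (induction along `finSuccEquiv`, Krull's height theorem), so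
`dim k⟦X⟧/(ys) ≤ 0` (`ringKrullDim_add_length_eq_ringKrullDim_of_isRegular`), so the quotient is
Artinian and its Jacobson radical, which contains the variables, is nilpotent.
-/

noncomputable section

open MvPowerSeries

namespace Fermat.Agent.S59.NumCrit.H85

/-- `dim R⟦X⟧ ≤ dim R + 1` for a Noetherian ring `R`. -/
theorem ringKrullDim_powerSeries_le (R : Type*) [CommRing R] [IsNoetherianRing R] :
    ringKrullDim (PowerSeries R) ≤ ringKrullDim R + 1 := by
  have hX : ((({PowerSeries.X} : Finset (PowerSeries R)) : Set (PowerSeries R)))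
      ⊆ Ring.jacobson (PowerSeries R) := by
    intro x hx
    rw [Finset.coe_singleton, Set.mem_singleton_iff] at hx
    subst hx
    rw [SetLike.mem_coe, ← Ideal.jacobson_bot, Ideal.mem_jacobson_bot]
    intro y
    rw [PowerSeries.isUnit_iff_constantCoeff]
    simp
  have h1 := ringKrullDim_le_ringKrullDim_quotient_add_card
    ({PowerSeries.X} : Finset (PowerSeries R)) hX
  rw [Finset.coe_singleton, Finset.card_singleton] at h1
  have hker : RingHom.ker (PowerSeries.constantCoeff (R := R))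
      = Ideal.span {PowerSeries.X} := by
    ext f
    rw [RingHom.mem_ker, Ideal.mem_span_singleton, PowerSeries.X_dvd_iff]
  have hsurj : Function.Surjective (PowerSeries.constantCoeff (R := R)) := fun r =>
    ⟨PowerSeries.C r, PowerSeries.constantCoeff_C r⟩
  let e : (PowerSeries R ⧸ Ideal.span {(PowerSeries.X : PowerSeries R)}) ≃+* R :=
    (Ideal.quotEquivOfEq hker.symm).trans
      (RingHom.quotientKerEquivOfSurjective hsurj)
  rw [ringKrullDim_eq_of_ringEquiv e] at h1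
  exact_mod_cast h1

/-- `dim R⟦X_1, …, X_n⟧ ≤ dim R + n` for a Noetherian ring `R`. -/
theorem ringKrullDim_mvPowerSeries_le (R : Type*) [CommRing R] [IsNoetherianRing R] (n : ℕ) :
    ringKrullDim (MvPowerSeries (Fin n) R) ≤ ringKrullDim R + n := by
  induction n with
  | zero =>
    rw [ringKrullDim_eq_of_ringEquiv (MvPowerSeries.isEmptyEquiv (Fin 0) R).toRingEquiv]
    simp
  | succ n ih =>
    rw [ringKrullDim_eq_of_ringEquiv (MvPowerSeries.finSuccEquiv R n).toRingEquiv]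
    refine (ringKrullDim_powerSeries_le (MvPowerSeries (Fin n) R)).trans ?_
    calc ringKrullDim (MvPowerSeries (Fin n) R) + 1
        ≤ ringKrullDim R + n + 1 := by gcongr
      _ = ringKrullDim R + ((n + 1 : ℕ) : WithBot ℕ∞) := by
          rw [add_assoc]; norm_cast

/-- **DIM.** -/
theorem exists_X_pow_mem_ofList {k : Type*} [Field k] (n : ℕ)
    (ys : List (MvPowerSeries (Fin n) k)) (hlen : ys.length = n)
    (hmem : ∀ y ∈ ys, constantCoeff y = 0)
    (hreg : RingTheory.Sequence.IsWeaklyRegular (MvPowerSeries (Fin n) k) ys) :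
    ∃ N : ℕ, ∀ i, (X i : MvPowerSeries (Fin n) k) ^ N ∈ Ideal.ofList ys := by
  -- the ideal is contained in the kernel of the constant coefficient
  have hle : Ideal.ofList ys ≤ RingHom.ker (constantCoeff (σ := Fin n) (R := k)) := by
    rw [Ideal.ofList, Ideal.span_le]
    intro y hy
    exact (RingHom.mem_ker).mpr (hmem y hy)
  have hne : Ideal.ofList ys ≠ ⊤ := by
    intro h
    have h1 : (1 : MvPowerSeries (Fin n) k) ∈ RingHom.ker (constantCoeff (σ := Fin n) (R := k)) :=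
      hle (h ▸ Submodule.mem_top)
    rw [RingHom.mem_ker, map_one] at h1
    exact one_ne_zero h1
  have hreg' : RingTheory.Sequence.IsRegular (MvPowerSeries (Fin n) k) ys :=
    ⟨hreg, by
      intro h
      apply hne
      rw [← Ideal.mul_top (Ideal.ofList ys)]
      exact h.symm⟩
  have h1 := ringKrullDim_add_length_eq_ringKrullDim_of_isRegular ys hreg'
  have h2 := ringKrullDim_mvPowerSeries_le k n
  rw [ringKrullDim_eq_zero_of_field, zero_add, ← h1, hlen] at h2
  -- the quotient has dimension `≤ 0`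
  have h3 : ringKrullDim (MvPowerSeries (Fin n) k ⧸ Ideal.ofList ys) ≤ 0 := by
    generalize ringKrullDim (MvPowerSeries (Fin n) k ⧸ Ideal.ofList ys) = d at h2
    induction d using WithBot.recBotCoe with
    | bot => exact bot_le
    | coe a =>
      have h4 : ((a + (n : ℕ∞) : ℕ∞) : WithBot ℕ∞) ≤ ((n : ℕ∞) : WithBot ℕ∞) := by
        exact_mod_cast h2
      have h5 : a + (n : ℕ∞) ≤ 0 + (n : ℕ∞) := by
        rw [zero_add]
        exact WithBot.coe_le_coe.mp h4
      have h6 : a ≤ 0 := (WithTop.add_le_add_iff_right (ENat.natCast_ne_top n)).mp h5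
      exact_mod_cast h6
  have : Ring.KrullDimLE 0 (MvPowerSeries (Fin n) k ⧸ Ideal.ofList ys) :=
    Ring.krullDimLE_iff.mpr (by exact_mod_cast h3)
  have : IsArtinianRing (MvPowerSeries (Fin n) k ⧸ Ideal.ofList ys) :=
    isArtinianRing_iff_krullDimLE_zero.mpr inferInstance
  obtain ⟨N, hN⟩ := IsArtinianRing.isNilpotent_jacobson_bot
    (R := MvPowerSeries (Fin n) k ⧸ Ideal.ofList ys)
  refine ⟨N, fun i => ?_⟩
  have hX : Ideal.Quotient.mk (Ideal.ofList ys) (X i)
      ∈ Ideal.jacobson (⊥ : Ideal (MvPowerSeries (Fin n) k ⧸ Ideal.ofList ys)) := by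
    rw [Ideal.mem_jacobson_bot]
    intro y
    obtain ⟨y, rfl⟩ := Ideal.Quotient.mk_surjective y
    rw [← map_mul, ← map_one (Ideal.Quotient.mk (Ideal.ofList ys)), ← map_add]
    apply IsUnit.map
    rw [MvPowerSeries.isUnit_iff_constantCoeff]
    simp
  have h7 := Ideal.pow_mem_pow hX N
  rw [hN, Ideal.zero_eq_bot, Ideal.mem_bot, ← map_pow, Ideal.Quotient.eq_zero_iff_mem] at h7
  exact h7

end Fermat.Agent.S59.NumCrit.H85

end

end
-- ==== END Fermat.Agent.S59.NumCrit.H85_Dim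

-- ==== BEGIN Fermat.Agent.S59.NumCrit.H8_Avoid
section

/-!
# S59 NUMCRIT, leaf AVOID (helper8): coset prime avoidance

`coset_prime_avoidance`: for an ideal `I` contained in none of finitely many prime ideals `q`, every
coset `c + I` contains an element lying in none of the `q`.
-/

set_option autoImplicit false

namespace Fermat.Agent.S59.NumCrit.H8

/-- **AVOID**: coset prime avoidance. -/
theorem coset_prime_avoidance {R : Type*} [CommRing R] (I : Ideal R) (c : R)
    (s : Finset (Ideal R)) (hs : ∀ q ∈ s, q.IsPrime) (hI : ∀ q ∈ s, ¬ I ≤ q) :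
    ∃ x ∈ I, ∀ q ∈ s, c + x ∉ q := by
  classical
  induction s using Finset.strongInduction with
  | H s ih =>
    rcases s.eq_empty_or_nonempty with rfl | hne
    · exact ⟨0, I.zero_mem, by simp⟩
    obtain ⟨q₀, hq₀s, hmin⟩ : ∃ q₀ ∈ s, ∀ q ∈ s, q ≤ q₀ → q = q₀ := by
      obtain ⟨q₀, hq₀⟩ := s.exists_minimal hne
      exact ⟨q₀, hq₀.1, fun q hq hle => le_antisymm hle (hq₀.2 hq hle)⟩
    obtain ⟨x', hx'I, hx'⟩ := ih (s.erase q₀) (Finset.erase_ssubset hq₀s)
      (fun q hq => hs q (Finset.mem_of_mem_erase hq))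
      (fun q hq => hI q (Finset.mem_of_mem_erase hq))
    by_cases hc : c + x' ∈ q₀
    · have hq₀prime := hs q₀ hq₀s
      obtain ⟨a, haI, haq⟩ : ∃ a ∈ I, a ∉ q₀ := SetLike.not_le_iff_exists.mp (hI q₀ hq₀s)
      have hb : ∀ q ∈ s.erase q₀, ∃ b ∈ q, b ∉ q₀ := by
        intro q hq
        have hq' := Finset.mem_erase.mp hq
        have : ¬ q ≤ q₀ := fun hle => hq'.1 (hmin q hq'.2 hle)
        exact SetLike.not_le_iff_exists.mp this
      choose! b hbq hbq₀ using hb
      have hyI : a * ∏ q ∈ s.erase q₀, b q ∈ I := I.mul_mem_right _ haI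
      have hyq : ∀ q ∈ s.erase q₀, a * ∏ q ∈ s.erase q₀, b q ∈ q := by
        intro q hq
        refine Ideal.mul_mem_left _ _ ?_
        rw [← Finset.mul_prod_erase _ _ hq]
        exact Ideal.mul_mem_right _ _ (hbq q hq)
      have hyq₀ : a * ∏ q ∈ s.erase q₀, b q ∉ q₀ := by
        intro h
        rcases hq₀prime.mem_or_mem h with h | h
        · exact haq h
        · obtain ⟨q, hq, hbq'⟩ := (hq₀prime.prod_mem_iff).mp h
          exact hbq₀ q hq hbq'
      refine ⟨x' + a * ∏ q ∈ s.erase q₀, b q, I.add_mem hx'I hyI, fun q hq => ?_⟩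
      by_cases hqq : q = q₀
      · subst hqq
        intro h
        apply hyq₀
        have := q.sub_mem h hc
        rwa [show c + (x' + a * ∏ q ∈ s.erase q, b q) - (c + x') = a * ∏ q ∈ s.erase q, b q by
          ring] at this
      · have hq' : q ∈ s.erase q₀ := Finset.mem_erase.mpr ⟨hqq, hq⟩
        intro h
        apply hx' q hq'
        have := q.sub_mem h (hyq q hq')
        rwa [show c + (x' + a * ∏ q ∈ s.erase q₀, b q) - a * ∏ q ∈ s.erase q₀, b q = c + x' by
          ring] at this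
    · refine ⟨x', hx'I, fun q hq => ?_⟩
      by_cases hqq : q = q₀
      · subst hqq
        exact hc
      · exact hx' q (Finset.mem_erase.mpr ⟨hqq, hq⟩)

end Fermat.Agent.S59.NumCrit.H8

end
-- ==== END Fermat.Agent.S59.NumCrit.H8_Avoid

-- ==== BEGIN Fermat.Agent.S59.NumCrit.H8_Card
section

/-!
# S59 NUMCRIT, leaf CARD (helper8): the index of a lattice is the index of its determinant

`card_quotient_eq_card_det`: a submodule `N` of finite index of `𝒪^n`, `𝒪` a discrete valuation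
ring, has a basis `b` with `#(𝒪^n / N) = #(𝒪 / det b)` (Smith normal form).
-/

set_option autoImplicit false

open Module

namespace Fermat.Agent.S59.NumCrit.H8

section DVR

variable {𝒪 : Type*} [CommRing 𝒪] [IsDomain 𝒪] [IsDiscreteValuationRing 𝒪]

/-- The cardinality of `𝒪 / (x)` is a power of the cardinality of the residue field. -/
theorem exists_card_span_singleton {x : 𝒪} (hx : x ≠ 0) :
    ∃ k : ℕ, Ideal.span {x} = IsLocalRing.maximalIdeal 𝒪 ^ k ∧
      Nat.card (𝒪 ⧸ Ideal.span {x}) = Nat.card (𝒪 ⧸ IsLocalRing.maximalIdeal 𝒪) ^ k := by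
  obtain ⟨ϖ, hϖ⟩ := IsDiscreteValuationRing.exists_irreducible 𝒪
  have hm : IsLocalRing.maximalIdeal 𝒪 = Ideal.span {ϖ} :=
    (IsDiscreteValuationRing.irreducible_iff_uniformizer ϖ).1 hϖ
  have hne : Ideal.span {x} ≠ ⊥ := by
    rw [Ne, Ideal.span_singleton_eq_bot]
    exact hx
  obtain ⟨k, hk⟩ := IsDiscreteValuationRing.ideal_eq_span_pow_irreducible hne hϖ
  have hk' : Ideal.span {x} = IsLocalRing.maximalIdeal 𝒪 ^ k := by
    rw [hk, hm, Ideal.span_singleton_pow]
  refine ⟨k, hk', ?_⟩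
  have hbot : IsLocalRing.maximalIdeal 𝒪 ≠ ⊥ := IsDiscreteValuationRing.not_a_field 𝒪
  have := cardQuot_pow_of_prime (S := 𝒪) (P := IsLocalRing.maximalIdeal 𝒪) hbot (i := k)
  rw [Submodule.cardQuot_apply, Submodule.cardQuot_apply] at this
  rw [hk']
  exact this

/-- Multiplicativity of `x ↦ #(𝒪 / (x))`. -/
theorem card_span_mul {x y : 𝒪} (hx : x ≠ 0) (hy : y ≠ 0) :
    Nat.card (𝒪 ⧸ Ideal.span {x * y}) =
      Nat.card (𝒪 ⧸ Ideal.span {x}) * Nat.card (𝒪 ⧸ Ideal.span {y}) := by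
  obtain ⟨k, hk, hkc⟩ := exists_card_span_singleton hx
  obtain ⟨l, hl, hlc⟩ := exists_card_span_singleton hy
  have hbot : IsLocalRing.maximalIdeal 𝒪 ≠ ⊥ := IsDiscreteValuationRing.not_a_field 𝒪
  have h1 : Ideal.span {x * y} = IsLocalRing.maximalIdeal 𝒪 ^ (k + l) := by
    rw [← Ideal.span_singleton_mul_span_singleton, hk, hl, pow_add]
  have := cardQuot_pow_of_prime (S := 𝒪) (P := IsLocalRing.maximalIdeal 𝒪) hbot (i := k + l)
  rw [Submodule.cardQuot_apply, Submodule.cardQuot_apply] at this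
  rw [h1, this, hkc, hlc, pow_add]

omit [IsDomain 𝒪] [IsDiscreteValuationRing 𝒪] in
theorem card_span_unit_mul {u x : 𝒪} (hu : IsUnit u) :
    Nat.card (𝒪 ⧸ Ideal.span {x * u}) = Nat.card (𝒪 ⧸ Ideal.span {x}) := by
  rw [Ideal.span_singleton_mul_right_unit hu]

theorem card_span_prod {ι : Type*} (s : Finset ι) (a : ι → 𝒪) (ha : ∀ i ∈ s, a i ≠ 0) :
    Nat.card (𝒪 ⧸ Ideal.span {∏ i ∈ s, a i}) = ∏ i ∈ s, Nat.card (𝒪 ⧸ Ideal.span {a i}) := by
  classical
  induction s using Finset.induction_on with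
  | empty =>
    rw [Finset.prod_empty, Finset.prod_empty, Ideal.span_singleton_one]
    have := Submodule.cardQuot_top 𝒪 𝒪
    rw [Submodule.cardQuot_apply] at this
    exact this
  | insert i s hi ih =>
    rw [Finset.prod_insert hi, Finset.prod_insert hi,
      card_span_mul (ha i (Finset.mem_insert_self i s))
        (Finset.prod_ne_zero_iff.mpr fun j hj => ha j (Finset.mem_insert_of_mem hj)),
      ih fun j hj => ha j (Finset.mem_insert_of_mem hj)]

end DVR

/-- **CARD**. -/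
theorem card_quotient_eq_card_det {𝒪 : Type*} [CommRing 𝒪] [IsDomain 𝒪]
    [IsDiscreteValuationRing 𝒪] [Finite (IsLocalRing.ResidueField 𝒪)] (n : ℕ)
    (N : Submodule 𝒪 (Fin n → 𝒪)) [Finite ((Fin n → 𝒪) ⧸ N)] :
    ∃ b : Fin n → (Fin n → 𝒪), (∀ i, b i ∈ N) ∧ Submodule.span 𝒪 (Set.range b) = N ∧
      (Matrix.of b).det ≠ 0 ∧
      Nat.card ((Fin n → 𝒪) ⧸ N) = Nat.card (𝒪 ⧸ Ideal.span {(Matrix.of b).det}) := by
  classical
  -- `N` has full rank
  have hrank : finrank 𝒪 N = finrank 𝒪 (Fin n → 𝒪) := by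
    have h0 : finrank 𝒪 ((Fin n → 𝒪) ⧸ N) = 0 := by
      rw [Module.finrank_eq_zero_iff]
      intro x
      obtain ⟨ϖ, hϖ⟩ := IsDiscreteValuationRing.exists_irreducible 𝒪
      have hinj : Function.Injective fun k : ℕ => ϖ ^ k :=
        pow_injective_of_not_isUnit hϖ.not_isUnit hϖ.ne_zero
      obtain ⟨k, l, hkl, h⟩ := Finite.exists_ne_map_eq_of_infinite (fun k : ℕ => ϖ ^ k • x)
      refine ⟨ϖ ^ k - ϖ ^ l, sub_ne_zero.mpr (fun e => hkl (hinj e)), ?_⟩
      have h' : ϖ ^ k • x = ϖ ^ l • x := h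
      rw [sub_smul, h', sub_self]
    have := Submodule.finrank_quotient_add_finrank N
    omega
  let b₀ : Basis (Fin n) 𝒪 (Fin n → 𝒪) := Pi.basisFun 𝒪 (Fin n)
  obtain ⟨a, ha⟩ : ∃ a : Fin n → 𝒪, a = Submodule.smithNormalFormCoeffs b₀ hrank := ⟨_, rfl⟩
  obtain ⟨bM, hbM⟩ : ∃ bM : Basis (Fin n) 𝒪 (Fin n → 𝒪),
      bM = Submodule.smithNormalFormTopBasis b₀ hrank := ⟨_, rfl⟩
  obtain ⟨bN, hbN⟩ : ∃ bN : Basis (Fin n) 𝒪 N,
      bN = Submodule.smithNormalFormBotBasis b₀ hrank := ⟨_, rfl⟩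
  have hdef : ∀ i, (bN i : Fin n → 𝒪) = a i • bM i := by
    intro i
    rw [hbN, ha, hbM]
    exact Submodule.smithNormalFormBotBasis_def b₀ hrank i
  have ha0 : ∀ i, a i ≠ 0 := fun i => by
    rw [ha]
    exact Submodule.smithNormalFormCoeffs_ne_zero b₀ hrank i
  -- the determinant
  have hmat : Matrix.of (fun i => (bN i : Fin n → 𝒪))
      = Matrix.of fun i j => a i * (Matrix.of fun i => (bM i : Fin n → 𝒪)) i j := by
    ext i j
    rw [Matrix.of_apply, Matrix.of_apply, hdef i, Pi.smul_apply, smul_eq_mul, Matrix.of_apply]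
  have hunit : IsUnit (Matrix.of fun i => (bM i : Fin n → 𝒪)).det := by
    have h1 : (Matrix.of fun i => (bM i : Fin n → 𝒪)) = (b₀.toMatrix ⇑bM).transpose := by
      ext i j
      rw [Matrix.transpose_apply, Module.Basis.toMatrix_apply, Matrix.of_apply]
      rfl
    rw [h1, Matrix.det_transpose]
    exact b₀.isUnit_det bM
  have hdet : (Matrix.of (fun i => (bN i : Fin n → 𝒪))).det
      = (∏ i, a i) * (Matrix.of fun i => (bM i : Fin n → 𝒪)).det := by
    rw [hmat, Matrix.det_mul_column]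
  have hprod : (∏ i, a i) ≠ 0 := Finset.prod_ne_zero_iff.mpr fun i _ => ha0 i
  refine ⟨fun i => (bN i : Fin n → 𝒪), fun i => (bN i).2, ?_, ?_, ?_⟩
  · -- the span
    have h1 : Set.range (fun i => (bN i : Fin n → 𝒪)) = N.subtype '' Set.range bN := by
      rw [← Set.range_comp]
      rfl
    rw [h1, Submodule.span_image, bN.span_eq, Submodule.map_subtype_top]
  · rw [hdet]
    exact mul_ne_zero hprod hunit.ne_zero
  · rw [hdet, card_span_unit_mul hunit, card_span_prod Finset.univ a fun i _ => ha0 i,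
      Nat.card_congr (Submodule.quotientEquivPiSpan N b₀ hrank).toEquiv, Nat.card_pi, ha]

end Fermat.Agent.S59.NumCrit.H8

end
-- ==== END Fermat.Agent.S59.NumCrit.H8_Card

-- ==== BEGIN Fermat.Agent.S59.NumCrit.H8_Kap
section

set_option autoImplicit false

open Submodule

namespace Fermat.Agent.S59.NumCrit.H8

/-! ### Part 0: generalities -/

section General

variable {R : Type*} [CommRing R]

/-- A linear relation which is bi-total and bi-injective gives a linear equivalence. -/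
theorem nonempty_linearEquiv_of_rel {P Q : Type*} [AddCommGroup P] [Module R P]
    [AddCommGroup Q] [Module R Q] (Γ : Submodule R (P × Q))
    (h1 : ∀ p, ∃ q, (p, q) ∈ Γ) (h2 : ∀ q, ∃ p, (p, q) ∈ Γ)
    (h3 : ∀ q, ((0 : P), q) ∈ Γ → q = 0) (h4 : ∀ p, (p, (0 : Q)) ∈ Γ → p = 0) :
    Nonempty (P ≃ₗ[R] Q) := by
  let f : Γ →ₗ[R] P := (LinearMap.fst R P Q).comp Γ.subtype
  let g : Γ →ₗ[R] Q := (LinearMap.snd R P Q).comp Γ.subtype
  have hf : Function.Bijective f := by
    constructor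
    · rw [← LinearMap.ker_eq_bot, eq_bot_iff]
      rintro ⟨⟨p, q⟩, hγ⟩ h
      have hp : p = 0 := h
      subst hp
      have hq := h3 q hγ
      subst hq
      rfl
    · intro p
      obtain ⟨q, hq⟩ := h1 p
      exact ⟨⟨(p, q), hq⟩, rfl⟩
  have hg : Function.Bijective g := by
    constructor
    · rw [← LinearMap.ker_eq_bot, eq_bot_iff]
      rintro ⟨⟨p, q⟩, hγ⟩ h
      have hq : q = 0 := h
      subst hq
      have hp := h4 p hγ
      subst hp
      rfl
    · intro q
      obtain ⟨p, hp⟩ := h2 q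
      exact ⟨⟨(p, q), hp⟩, rfl⟩
  exact ⟨(LinearEquiv.ofBijective f hf).symm.trans (LinearEquiv.ofBijective g hg)⟩

/-- The socle functor `torsionBySet · I` transports along linear equivalences. -/
noncomputable def socEquiv (I : Ideal R) {A B : Type*} [AddCommGroup A] [Module R A]
    [AddCommGroup B] [Module R B] (e : A ≃ₗ[R] B) :
    torsionBySet R A (I : Set R) ≃ₗ[R] torsionBySet R B (I : Set R) :=
  LinearEquiv.ofSubmodules e _ _ (by
    ext b
    simp only [Submodule.mem_map, mem_torsionBySet_iff, SetLike.coe_sort_coe, Subtype.forall]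
    constructor
    · rintro ⟨a, ha, rfl⟩ r hr
      rw [← map_smul, ha r hr, map_zero]
    · intro hb
      refine ⟨e.symm b, fun r hr => ?_, e.apply_symm_apply b⟩
      rw [← map_smul, hb r hr, map_zero])

end General

/-! ### Part 1: one-element exchange -/

section Exchange

variable {R : Type*} [CommRing R] (I : Ideal R) {A : Type*} [AddCommGroup A] [Module R A]

theorem quotSMulTop_mk_eq_zero_iff (a : R) (u : A) :
    (Submodule.Quotient.mk u : QuotSMulTop a A) = 0 ↔ ∃ w : A, a • w = u := by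
  rw [Submodule.Quotient.mk_eq_zero, Submodule.mem_smul_pointwise_iff_exists]
  simp

theorem exch_total {a z : R} (ha : IsSMulRegular A a) (hzI : z ∈ I)
    (p : torsionBySet R (QuotSMulTop a A) (I : Set R)) :
    ∃ q : torsionBySet R (QuotSMulTop z A) (I : Set R), ∃ u v : A,
      (Submodule.Quotient.mk u : QuotSMulTop a A) = p.1 ∧
      (Submodule.Quotient.mk v : QuotSMulTop z A) = q.1 ∧ z • u = a • v := by
  obtain ⟨⟨pbar, hp⟩, rfl⟩ : ∃ p' : torsionBySet R (QuotSMulTop a A) (I : Set R), p' = p :=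
    ⟨p, rfl⟩
  obtain ⟨u, rfl⟩ := Submodule.Quotient.mk_surjective _ pbar
  rw [mem_torsionBySet_iff] at hp
  have hmul : ∀ r ∈ I, ∃ w : A, a • w = r • u := by
    intro r hr
    have := hp ⟨r, hr⟩
    rw [← quotSMulTop_mk_eq_zero_iff]
    exact this
  obtain ⟨v, hv⟩ := hmul z hzI
  refine ⟨⟨Submodule.Quotient.mk v, ?_⟩, u, v, rfl, rfl, hv.symm⟩
  rw [mem_torsionBySet_iff]
  rintro ⟨r, hr⟩
  obtain ⟨w, hw⟩ := hmul r hr
  change (Submodule.Quotient.mk (r • v) : QuotSMulTop z A) = 0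
  rw [quotSMulTop_mk_eq_zero_iff]
  refine ⟨w, ha ?_⟩
  change a • z • w = a • r • v
  rw [smul_comm a z w, hw, smul_comm z r u, ← hv, smul_comm]

theorem exch_inj {a z : R} (ha : IsSMulRegular A a) {u v : A}
    (hu : (Submodule.Quotient.mk u : QuotSMulTop a A) = 0) (h : z • u = a • v) :
    (Submodule.Quotient.mk v : QuotSMulTop z A) = 0 := by
  obtain ⟨w, rfl⟩ := (quotSMulTop_mk_eq_zero_iff a u).1 hu
  rw [quotSMulTop_mk_eq_zero_iff]
  refine ⟨w, ha ?_⟩
  change a • z • w = a • v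
  rw [← h, smul_comm]

/-- the exchange relation -/
def exchRel (a z : R) :
    Submodule R (torsionBySet R (QuotSMulTop a A) (I : Set R) ×
      torsionBySet R (QuotSMulTop z A) (I : Set R)) where
  carrier := {pq | ∃ u v : A, (Submodule.Quotient.mk u : QuotSMulTop a A) = pq.1.1 ∧
      (Submodule.Quotient.mk v : QuotSMulTop z A) = pq.2.1 ∧ z • u = a • v}
  zero_mem' := ⟨0, 0, rfl, rfl, by rw [smul_zero, smul_zero]⟩
  add_mem' := by
    rintro ⟨p, q⟩ ⟨p', q'⟩ ⟨u, v, hu, hv, h⟩ ⟨u', v', hu', hv', h'⟩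
    refine ⟨u + u', v + v', ?_, ?_, ?_⟩
    · change (Submodule.Quotient.mk (u + u') : QuotSMulTop a A) = p.1 + p'.1
      rw [Submodule.Quotient.mk_add, hu, hu']
    · change (Submodule.Quotient.mk (v + v') : QuotSMulTop z A) = q.1 + q'.1
      rw [Submodule.Quotient.mk_add, hv, hv']
    · rw [smul_add, smul_add, h, h']
  smul_mem' := by
    rintro r ⟨p, q⟩ ⟨u, v, hu, hv, h⟩
    refine ⟨r • u, r • v, ?_, ?_, ?_⟩
    · change (Submodule.Quotient.mk (r • u) : QuotSMulTop a A) = r • p.1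
      rw [Submodule.Quotient.mk_smul, hu]
    · change (Submodule.Quotient.mk (r • v) : QuotSMulTop z A) = r • q.1
      rw [Submodule.Quotient.mk_smul, hv]
    · rw [smul_comm z r u, smul_comm a r v, h]

/-- **One-element exchange**: if `a, z ∈ I` are both regular on `A` then the `I`-socles of
`A/aA` and `A/zA` are isomorphic. -/
theorem exchange {a z : R} (ha : IsSMulRegular A a) (hz : IsSMulRegular A z)
    (haI : a ∈ I) (hzI : z ∈ I) :
    Nonempty (torsionBySet R (QuotSMulTop a A) (I : Set R) ≃ₗ[R]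
      torsionBySet R (QuotSMulTop z A) (I : Set R)) := by
  refine nonempty_linearEquiv_of_rel (exchRel I a z) ?_ ?_ ?_ ?_
  · intro p
    obtain ⟨q, u, v, hu, hv, h⟩ := exch_total I ha hzI p
    exact ⟨q, u, v, hu, hv, h⟩
  · intro q
    obtain ⟨p, v, u, hv, hu, h⟩ := exch_total I hz haI q
    exact ⟨p, u, v, hu, hv, h.symm⟩
  · rintro q ⟨u, v, hu, hv, h⟩
    apply Subtype.ext
    rw [← hv]
    exact exch_inj ha hu h
  · rintro p ⟨u, v, hu, hv, h⟩
    apply Subtype.ext
    rw [← hu]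
    exact exch_inj hz hv h.symm

end Exchange

/-! ### Part 2: prime avoidance -/

section Avoid

variable {R : Type*} [CommRing R] [IsNoetherianRing R] (I : Ideal R)
  {M : Type*} [AddCommGroup M] [Module R M] [Module.Finite R M]

/-- If for each of finitely many quotients of `M` some element of `I` is regular on it, then a
single element of `I` is regular on all of them. -/
theorem exists_common_regular {ι : Type*} (s : Finset ι) (S : ι → Submodule R M)
    (h : ∀ k ∈ s, ∃ r ∈ I, IsSMulRegular (M ⧸ S k) r) :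
    ∃ z ∈ I, ∀ k ∈ s, IsSMulRegular (M ⧸ S k) z := by
  classical
  by_contra hcon
  push Not at hcon
  let T : Set (Ideal R) := ⋃ k ∈ s, associatedPrimes R (M ⧸ S k)
  have hT : T.Finite :=
    Set.Finite.biUnion s.finite_toSet fun k _ => associatedPrimes.finite R (M ⧸ S k)
  have hsub : (I : Set R) ⊆ ⋃ p ∈ T, (p : Set R) := by
    intro z hz
    obtain ⟨k, hk, hreg⟩ := hcon z hz
    have hz' : z ∈ ({r : R | IsSMulRegular (M ⧸ S k) r}ᶜ : Set R) := hreg
    rw [← biUnion_associatedPrimes_eq_compl_regular R (M ⧸ S k)] at hz'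
    simp only [Set.mem_iUnion, exists_prop] at hz' ⊢
    obtain ⟨p, hp, hzp⟩ := hz'
    exact ⟨p, Set.mem_biUnion (Finset.mem_coe.2 hk) hp, hzp⟩
  have hprime : ∀ p ∈ T, p ≠ (⊤ : Ideal R) → p ≠ (⊤ : Ideal R) → p.IsPrime := by
    intro p hp _ _
    simp only [T, Set.mem_iUnion, exists_prop] at hp
    obtain ⟨k, _, hpk⟩ := hp
    exact hpk.isPrime
  obtain ⟨p, hp, hIp⟩ := (Ideal.subset_union_prime_finite hT (f := fun p => p) ⊤ ⊤ hprime).1 hsub
  simp only [T, Set.mem_iUnion, exists_prop] at hp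
  obtain ⟨k, hk, hpk⟩ := hp
  obtain ⟨r, hrI, hr⟩ := h k hk
  have hrp : r ∈ (⋃ q ∈ associatedPrimes R (M ⧸ S k), (q : Set R)) :=
    Set.mem_biUnion hpk (hIp hrI)
  rw [biUnion_associatedPrimes_eq_compl_regular R (M ⧸ S k)] at hrp
  exact hrp hr

end Avoid

/-! ### Part 3: moving a regular element to the front -/

section Front

open RingTheory.Sequence
open scoped Pointwise

variable {R : Type*} [CommRing R]

/-- `(M/aM)/z(M/aM) ≃ M/(aM + zM)`. -/
noncomputable def quotQuotSMulTopEquiv (M : Type*) [AddCommGroup M] [Module R M] (a z : R) :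
    QuotSMulTop z (QuotSMulTop a M) ≃ₗ[R]
      M ⧸ ((a • ⊤ : Submodule R M) ⊔ (z • ⊤ : Submodule R M)) :=
  quotEquivOfEq (z • ⊤ : Submodule R (QuotSMulTop a M))
      ((z • ⊤ : Submodule R M).map (a • ⊤ : Submodule R M).mkQ)
      (by rw [map_pointwise_smul, Submodule.map_top, range_mkQ]) ≪≫ₗ
    quotientQuotientEquivQuotientSup (a • ⊤ : Submodule R M) (z • ⊤ : Submodule R M)

/-- `(M/aM)/z(M/aM) ≃ (M/zM)/a(M/zM)`. -/
noncomputable def quotSMulTopSwap (M : Type*) [AddCommGroup M] [Module R M] (a z : R) :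
    QuotSMulTop z (QuotSMulTop a M) ≃ₗ[R] QuotSMulTop a (QuotSMulTop z M) :=
  quotQuotSMulTopEquiv M a z ≪≫ₗ quotEquivOfEq _ _ (sup_comm _ _) ≪≫ₗ
    (quotQuotSMulTopEquiv M z a).symm

/-- `M/(0)M ≃ M`. -/
noncomputable def quotOfListNilEquiv (M : Type*) [AddCommGroup M] [Module R M] :
    (M ⧸ (Ideal.ofList ([] : List R) • ⊤ : Submodule R M)) ≃ₗ[R] M :=
  quotEquivOfEqBot _ (by rw [Ideal.ofList_nil, Submodule.bot_smul])

/-- swap lemma: if `a` is regular on `M` and `z` is regular on `M/aM` then `a` is regular on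
`M/zM` (no local hypothesis needed). -/
theorem isSMulRegular_quotSMulTop_swap {M : Type*} [AddCommGroup M] [Module R M] {a z : R}
    (ha : IsSMulRegular M a) (hz : IsSMulRegular (QuotSMulTop a M) z) :
    IsSMulRegular (QuotSMulTop z M) a := by
  rw [isSMulRegular_quotient_iff_mem_of_smul_mem] at hz ⊢
  intro x hx
  obtain ⟨w, -, hw⟩ := (Submodule.mem_smul_pointwise_iff_exists _ _ _).1 hx
  -- `z • w = a • x`
  have hw' : w ∈ (a • ⊤ : Submodule R M) := by
    refine hz w ?_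
    rw [hw]
    exact Submodule.smul_mem_pointwise_smul x a ⊤ Submodule.mem_top
  obtain ⟨w', -, rfl⟩ := (Submodule.mem_smul_pointwise_iff_exists _ _ _).1 hw'
  have hx' : x = z • w' := by
    apply ha
    change a • x = a • z • w'
    rw [← hw, smul_comm]
  rw [hx']
  exact Submodule.smul_mem_pointwise_smul w' z ⊤ Submodule.mem_top

/-- **Move to the front**: if `xs` is weakly regular on `M` and `z` is regular on all the
partial quotients `M/(x₁, …, xᵢ)M`, `0 ≤ i ≤ n`, then `z :: xs` is weakly regular on `M`. -/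
theorem isWeaklyRegular_cons_of_regular_take (z : R) :
    ∀ (xs : List R) (M : Type*) [AddCommGroup M] [Module R M], IsWeaklyRegular M xs →
      (∀ i ≤ xs.length,
        IsSMulRegular (M ⧸ (Ideal.ofList (xs.take i) • ⊤ : Submodule R M)) z) →
      IsWeaklyRegular M (z :: xs) := by
  intro xs
  induction xs with
  | nil =>
    intro M _ _ _ h
    have h0 := h 0 le_rfl
    rw [List.take_nil, (quotOfListNilEquiv M).isSMulRegular_congr] at h0
    exact (isWeaklyRegular_singleton_iff M z).2 h0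
  | cons a as ih =>
    intro M _ _ hreg h
    obtain ⟨ha, has⟩ := (isWeaklyRegular_cons_iff M a as).1 hreg
    have hz0 : IsSMulRegular M z := by
      have h0 := h 0 (Nat.zero_le _)
      rw [List.take_zero, (quotOfListNilEquiv M).isSMulRegular_congr] at h0
      exact h0
    have hz' : ∀ j ≤ as.length,
        IsSMulRegular (QuotSMulTop a M ⧸
          (Ideal.ofList (as.take j) • ⊤ : Submodule R (QuotSMulTop a M))) z := by
      intro j hj
      have h1 := h (j + 1) (by simpa using hj)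
      rw [List.take_succ_cons,
        (quotOfListConsSMulTopEquivQuotSMulTopInner M a (as.take j)).isSMulRegular_congr] at h1
      exact h1
    have hIH := ih (QuotSMulTop a M) has hz'
    obtain ⟨hza, hzas⟩ := (isWeaklyRegular_cons_iff (QuotSMulTop a M) z as).1 hIH
    rw [isWeaklyRegular_cons_iff, isWeaklyRegular_cons_iff]
    refine ⟨hz0, isSMulRegular_quotSMulTop_swap ha hza, ?_⟩
    exact ((quotSMulTopSwap M a z).isWeaklyRegular_congr as).1 hzas

end Front

/-! ### Part 4: the theorem -/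

section Main

open RingTheory.Sequence
open scoped Pointwise

variable {R : Type*} [CommRing R]

theorem ofList_append_singleton (xs : List R) (x : R) :
    Ideal.ofList (xs ++ [x]) = Ideal.ofList (x :: xs) := by
  rw [Ideal.ofList_append, Ideal.ofList_singleton, Ideal.ofList_cons, sup_comm]

/-- `M/(xs ++ [x])M ≃ (M/xsM)/x(M/xsM)`. -/
noncomputable def quotAppendEquivOuter (M : Type*) [AddCommGroup M] [Module R M]
    (xs : List R) (x : R) :
    (M ⧸ (Ideal.ofList (xs ++ [x]) • ⊤ : Submodule R M)) ≃ₗ[R]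
      QuotSMulTop x (M ⧸ (Ideal.ofList xs • ⊤ : Submodule R M)) :=
  quotEquivOfEq _ _ (by rw [ofList_append_singleton]) ≪≫ₗ
    quotOfListConsSMulTopEquivQuotSMulTopOuter M x xs

/-- `M/(xs ++ [z])M ≃ (M/zM)/xs(M/zM)`. -/
noncomputable def quotAppendEquivInner (M : Type*) [AddCommGroup M] [Module R M]
    (xs : List R) (z : R) :
    (M ⧸ (Ideal.ofList (xs ++ [z]) • ⊤ : Submodule R M)) ≃ₗ[R]
      QuotSMulTop z M ⧸ (Ideal.ofList xs • ⊤ : Submodule R (QuotSMulTop z M)) :=
  quotEquivOfEq _ _ (by rw [ofList_append_singleton]) ≪≫ₗ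
    quotOfListConsSMulTopEquivQuotSMulTopInner M z xs

variable (I : Ideal R)

/-- exchange of the last element of a weakly regular sequence -/
theorem exchange_last {M : Type*} [AddCommGroup M] [Module R M] (xs : List R) {x z : R}
    (hxI : x ∈ I) (hzI : z ∈ I)
    (hx : IsSMulRegular (M ⧸ (Ideal.ofList xs • ⊤ : Submodule R M)) x)
    (hz : IsSMulRegular (M ⧸ (Ideal.ofList xs • ⊤ : Submodule R M)) z) :
    Nonempty (torsionBySet R (M ⧸ (Ideal.ofList (xs ++ [x]) • ⊤ : Submodule R M)) (I : Set R)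
      ≃ₗ[R]
      torsionBySet R (QuotSMulTop z M ⧸
        (Ideal.ofList xs • ⊤ : Submodule R (QuotSMulTop z M))) (I : Set R)) := by
  obtain ⟨e⟩ := exchange I hx hz hxI hzI
  exact ⟨socEquiv I (quotAppendEquivOuter M xs x) ≪≫ₗ e ≪≫ₗ
    socEquiv I ((quotAppendEquivOuter M xs z).symm ≪≫ₗ quotAppendEquivInner M xs z)⟩

theorem regular_take_of_isWeaklyRegular {M : Type*} [AddCommGroup M] [Module R M]
    (xs : List R) (x : R) (hxI : ∀ r ∈ xs ++ [x], r ∈ I)
    (h : IsWeaklyRegular M (xs ++ [x])) (i : ℕ) (hi : i ≤ xs.length) :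
    ∃ r ∈ I, IsSMulRegular (M ⧸ (Ideal.ofList (xs.take i) • ⊤ : Submodule R M)) r := by
  have hlt : i < (xs ++ [x]).length := by
    rw [List.length_append, List.length_singleton]
    omega
  have h1 := h.regular_mod_prev i hlt
  rw [List.take_append_of_le_length hi] at h1
  exact ⟨_, hxI _ (List.getElem_mem hlt), h1⟩

theorem kap_aux [IsNoetherianRing R] (n : ℕ) :
    ∀ (M : Type*) [AddCommGroup M] [Module R M] [Module.Finite R M]
    (xs ys : List R), xs.length = n → ys.length = n →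
    (∀ x ∈ xs, x ∈ I) → (∀ y ∈ ys, y ∈ I) →
    IsWeaklyRegular M xs → IsWeaklyRegular M ys →
    Nonempty (torsionBySet R (M ⧸ (Ideal.ofList xs • ⊤ : Submodule R M)) (I : Set R)
      ≃ₗ[R] torsionBySet R (M ⧸ (Ideal.ofList ys • ⊤ : Submodule R M)) (I : Set R)) := by
  classical
  induction n with
  | zero =>
    intro M _ _ _ xs ys hxl hyl _ _ _ _
    obtain rfl := List.length_eq_zero_iff.1 hxl
    obtain rfl := List.length_eq_zero_iff.1 hyl
    exact ⟨LinearEquiv.refl _ _⟩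
  | succ n ih =>
    intro M _ _ _ xs ys hxl hyl hxI hyI hx hy
    -- split off the last elements
    rcases List.eq_nil_or_concat xs with rfl | ⟨xs', x, hxs⟩
    · simp at hxl
    rcases List.eq_nil_or_concat ys with rfl | ⟨ys', y, hys⟩
    · simp at hyl
    rw [List.concat_eq_append] at hxs hys
    subst hxs hys
    have hxl' : xs'.length = n := by simpa using hxl
    have hyl' : ys'.length = n := by simpa using hyl
    -- a common regular element
    let s : Finset (Submodule R M) :=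
      (Finset.range (n + 1)).image (fun i => (Ideal.ofList (xs'.take i) • ⊤ : Submodule R M)) ∪
      (Finset.range (n + 1)).image (fun i => (Ideal.ofList (ys'.take i) • ⊤ : Submodule R M))
    obtain ⟨z, hzI, hz⟩ := exists_common_regular I s (fun N => N) (by
      intro N hN
      rcases Finset.mem_union.1 hN with h | h
      · obtain ⟨i, hi, rfl⟩ := Finset.mem_image.1 h
        exact regular_take_of_isWeaklyRegular I xs' x hxI hx i
          (by rw [hxl']; exact Nat.lt_succ_iff.1 (Finset.mem_range.1 hi))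
      · obtain ⟨i, hi, rfl⟩ := Finset.mem_image.1 h
        exact regular_take_of_isWeaklyRegular I ys' y hyI hy i
          (by rw [hyl']; exact Nat.lt_succ_iff.1 (Finset.mem_range.1 hi)))
    have hzx : ∀ i ≤ xs'.length,
        IsSMulRegular (M ⧸ (Ideal.ofList (xs'.take i) • ⊤ : Submodule R M)) z := fun i hi =>
      hz _ (Finset.mem_union_left _ (Finset.mem_image.2
        ⟨i, Finset.mem_range.2 (by omega), rfl⟩))
    have hzy : ∀ i ≤ ys'.length,
        IsSMulRegular (M ⧸ (Ideal.ofList (ys'.take i) • ⊤ : Submodule R M)) z := fun i hi =>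
      hz _ (Finset.mem_union_right _ (Finset.mem_image.2
        ⟨i, Finset.mem_range.2 (by omega), rfl⟩))
    -- the pieces
    obtain ⟨hxs', hxlast⟩ := (isWeaklyRegular_append_iff M xs' [x]).1 hx
    obtain ⟨hys', hylast⟩ := (isWeaklyRegular_append_iff M ys' [y]).1 hy
    rw [isWeaklyRegular_singleton_iff] at hxlast hylast
    have hzx' : IsSMulRegular (M ⧸ (Ideal.ofList xs' • ⊤ : Submodule R M)) z := by
      have := hzx xs'.length le_rfl
      rwa [List.take_length] at this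
    have hzy' : IsSMulRegular (M ⧸ (Ideal.ofList ys' • ⊤ : Submodule R M)) z := by
      have := hzy ys'.length le_rfl
      rwa [List.take_length] at this
    obtain ⟨e1⟩ := exchange_last I xs' (hxI x (by simp)) hzI hxlast hzx'
    obtain ⟨e2⟩ := exchange_last I ys' (hyI y (by simp)) hzI hylast hzy'
    have hfx := isWeaklyRegular_cons_of_regular_take z xs' M hxs' hzx
    have hfy := isWeaklyRegular_cons_of_regular_take z ys' M hys' hzy
    obtain ⟨e3⟩ := ih (QuotSMulTop z M) xs' ys' hxl' hyl'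
      (fun r hr => hxI r (List.mem_append_left _ hr))
      (fun r hr => hyI r (List.mem_append_left _ hr))
      ((isWeaklyRegular_cons_iff M z xs').1 hfx).2
      ((isWeaklyRegular_cons_iff M z ys').1 hfy).2
    exact ⟨e1 ≪≫ₗ e3 ≪≫ₗ e2.symm⟩

/-- **KAP** (Kaplansky, Commutative Rings, Thm 121). -/
theorem kaplansky_socle_equiv {R : Type*} [CommRing R] [IsNoetherianRing R] (I : Ideal R)
    {M : Type*} [AddCommGroup M] [Module R M] [Module.Finite R M]
    (xs ys : List R) (hlen : xs.length = ys.length)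
    (hxI : ∀ x ∈ xs, x ∈ I) (hyI : ∀ y ∈ ys, y ∈ I)
    (hx : RingTheory.Sequence.IsWeaklyRegular M xs)
    (hy : RingTheory.Sequence.IsWeaklyRegular M ys) :
    Nonempty (Submodule.torsionBySet R (M ⧸ (Ideal.ofList xs • (⊤ : Submodule R M))) (I : Set R)
      ≃ₗ[R] Submodule.torsionBySet R (M ⧸ (Ideal.ofList ys • (⊤ : Submodule R M))) (I : Set R)) :=
  kap_aux I ys.length M xs ys hlen rfl hxI hyI hx hy

end Main

end Fermat.Agent.S59.NumCrit.H8

end
-- ==== END Fermat.Agent.S59.NumCrit.H8_Kap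

-- ==== BEGIN Fermat.Agent.S59.NumCrit.H90_Nil
section

/-!
# S59 NUMCRIT, leaf NIL: powers of the variables lie in the reduction of the kernel

`exists_X_pow_mem_map`: if `T` is a finite `𝒪`-algebra and `ψ : 𝒪⟦X_1..X_n⟧ → T` an algebra
homomorphism, then some power of every `X i` lies in the image of `ker ψ` in `k⟦X_1..X_n⟧`.
-/

set_option autoImplicit false

namespace Fermat.Agent.S59.NumCrit.H90

open MvPowerSeries

/-- a polynomial in one variable `X i` with non-zero lowest coefficient over a field divides a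
power of `X i` in the power series ring. -/
theorem X_pow_mem_of_aeval_mem {k : Type*} [Field k] {σ : Type*} (i : σ)
    (G : Polynomial k) (hG : G ≠ 0) (𝔞 : Ideal (MvPowerSeries σ k))
    (h : Polynomial.aeval (X i : MvPowerSeries σ k) G ∈ 𝔞) :
    (X i : MvPowerSeries σ k) ^ G.natDegree ∈ 𝔞 := by
  classical
  obtain ⟨H, hGH, hH⟩ := Polynomial.exists_eq_pow_rootMultiplicity_mul_and_not_dvd G hG 0
  set a := G.rootMultiplicity 0 with ha
  have hH0 : H.eval 0 ≠ 0 := by
    intro h0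
    apply hH
    rw [Polynomial.dvd_iff_isRoot]
    exact h0
  have hconst : constantCoeff (Polynomial.aeval (X i : MvPowerSeries σ k) H) = H.eval 0 := by
    rw [Polynomial.aeval_def, Polynomial.hom_eval₂, constantCoeff_X]
    have : (constantCoeff (σ := σ) (R := k)).comp (algebraMap k (MvPowerSeries σ k))
        = RingHom.id k := by
      ext x
      simp [MvPowerSeries.algebraMap_apply]
    rw [this]
    exact Polynomial.eval₂_id
  have hunit : IsUnit (Polynomial.aeval (X i : MvPowerSeries σ k) H) := by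
    rw [MvPowerSeries.isUnit_iff_constantCoeff, hconst]
    exact isUnit_iff_ne_zero.mpr hH0
  have h1 : Polynomial.aeval (X i : MvPowerSeries σ k) G
      = X i ^ a * Polynomial.aeval (X i : MvPowerSeries σ k) H := by
    conv_lhs => rw [hGH]
    rw [map_mul, map_pow, map_sub, Polynomial.aeval_X, Polynomial.aeval_C, map_zero, sub_zero]
  rw [h1] at h
  have h2 : (X i : MvPowerSeries σ k) ^ a ∈ 𝔞 := (Ideal.mul_unit_mem_iff_mem _ hunit).mp h
  have hH' : H ≠ 0 := by
    rintro rfl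
    rw [mul_zero] at hGH
    exact hG hGH
  have hle : a ≤ G.natDegree := by
    have : G.natDegree = a + H.natDegree := by
      conv_lhs => rw [hGH]
      rw [Polynomial.natDegree_mul (pow_ne_zero _ (Polynomial.X_sub_C_ne_zero 0)) hH',
        Polynomial.natDegree_pow, Polynomial.natDegree_X_sub_C, mul_one]
    omega
  obtain ⟨b, hb⟩ := Nat.exists_eq_add_of_le hle
  rw [hb, pow_add]
  exact Ideal.mul_mem_right _ _ h2

/-- **NIL**. -/
theorem exists_X_pow_mem_map {𝒪 T : Type*} [CommRing 𝒪] [IsLocalRing 𝒪] [CommRing T] [Algebra 𝒪 T]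
    [Module.Finite 𝒪 T] (n : ℕ) (ψ : MvPowerSeries (Fin n) 𝒪 →ₐ[𝒪] T) :
    ∃ N : ℕ, ∀ i, (X i : MvPowerSeries (Fin n) (IsLocalRing.ResidueField 𝒪)) ^ N
      ∈ Ideal.map (MvPowerSeries.map (IsLocalRing.residue 𝒪)) (RingHom.ker ψ) := by
  classical
  have hint : ∀ i : Fin n, ∃ F : Polynomial 𝒪, F.Monic ∧
      Polynomial.aeval (ψ (X i)) F = 0 := by
    intro i
    obtain ⟨F, hF, hF0⟩ := Algebra.IsIntegral.isIntegral (R := 𝒪) (ψ (X i))
    exact ⟨F, hF, by rw [Polynomial.aeval_def]; exact hF0⟩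
  choose F hFm hF0 using hint
  have key : ∀ i, (X i : MvPowerSeries (Fin n) (IsLocalRing.ResidueField 𝒪)) ^ (F i).natDegree
      ∈ Ideal.map (MvPowerSeries.map (IsLocalRing.residue 𝒪)) (RingHom.ker ψ) := by
    intro i
    have h1 : Polynomial.aeval (X i : MvPowerSeries (Fin n) 𝒪) (F i) ∈ RingHom.ker ψ := by
      rw [RingHom.mem_ker]
      have := Polynomial.aeval_algHom_apply ψ (X i : MvPowerSeries (Fin n) 𝒪) (F i)
      rw [← this, hF0 i]
    have h2 : MvPowerSeries.map (IsLocalRing.residue 𝒪)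
        (Polynomial.aeval (X i : MvPowerSeries (Fin n) 𝒪) (F i))
        = Polynomial.aeval (X i : MvPowerSeries (Fin n) (IsLocalRing.ResidueField 𝒪))
            ((F i).map (IsLocalRing.residue 𝒪)) := by
      rw [Polynomial.aeval_def, Polynomial.hom_eval₂, Polynomial.aeval_def, Polynomial.eval₂_map,
        map_X]
      congr 1
      ext x
      simp [MvPowerSeries.algebraMap_apply]
    have h3 := Ideal.mem_map_of_mem (MvPowerSeries.map (IsLocalRing.residue 𝒪)) h1
    rw [h2] at h3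
    have hm : ((F i).map (IsLocalRing.residue 𝒪)).Monic := (hFm i).map _
    have := X_pow_mem_of_aeval_mem i _ hm.ne_zero _ h3
    rwa [(hFm i).natDegree_map] at this
  refine ⟨∑ i, (F i).natDegree, fun i => ?_⟩
  have hle : (F i).natDegree ≤ ∑ i, (F i).natDegree :=
    Finset.single_le_sum (f := fun i => (F i).natDegree) (fun _ _ => Nat.zero_le _)
      (Finset.mem_univ i)
  obtain ⟨b, hb⟩ := Nat.exists_eq_add_of_le hle
  rw [hb, pow_add]
  exact Ideal.mul_mem_right _ _ (key i)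

end Fermat.Agent.S59.NumCrit.H90

end
-- ==== END Fermat.Agent.S59.NumCrit.H90_Nil

-- ==== BEGIN Fermat.Agent.S59.NumCrit.H90_Norm
section

/-!
# S59 NUMCRIT, (NORM): normalising a presentation of an augmented algebra

For `𝒪` local and adically complete, `γ : 𝒪⟦X_1..X_n⟧ → R` and an augmentation `π : R → 𝒪`, there is
an automorphism `τ` of `𝒪⟦X⟧` (a translation `X_i ↦ X_i - c_i`, `c_i = π (γ X_i) ∈ 𝔪`) such that
`π (γ (τ X_i)) = 0` (`exists_normalized`).
-/

set_option autoImplicit false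

namespace Fermat.Agent.S59.NumCrit.H90

open MvPowerSeries

section translation

open WithPiTopology

variable {𝒪 : Type*} [CommRing 𝒪]

/-- translation of the variables by elements of an ideal `I` for which `𝒪` is adically complete. -/
theorem exists_translation (I : Ideal 𝒪) [hI : IsAdicComplete I 𝒪] {n : ℕ} (c : Fin n → 𝒪)
    (hc : ∀ i, c i ∈ I) :
    ∃ τ : MvPowerSeries (Fin n) 𝒪 ≃ₐ[𝒪] MvPowerSeries (Fin n) 𝒪,
      ∀ i, τ (X i) = X i + C (c i) := by
  let _ : WithIdeal 𝒪 := ⟨I⟩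
  have hadic : IsAdic (I : Ideal 𝒪) := rfl
  obtain ⟨hcomp, ht2⟩ := hadic.isAdicComplete_iff.mp hI
  have hC : Continuous (C : 𝒪 →+* MvPowerSeries (Fin n) 𝒪) := by
    exact MvPowerSeries.WithPiTopology.continuous_C
  have hev : ∀ c' : Fin n → 𝒪, (∀ i, c' i ∈ I) →
      HasEval (fun i => (X i : MvPowerSeries (Fin n) 𝒪) + C (c' i)) := by
    intro c' hc'
    have h1 : HasEval (fun i => (X i : MvPowerSeries (Fin n) 𝒪)) := HasEval.X
    have h2 : HasEval c' :=
      ⟨fun i => WithIdeal.isTopologicallyNilpotent_of_mem (hc' i), by simp⟩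
    exact h1.add (h2.map hC)
  have hX : ∀ (c' : Fin n → 𝒪) (hc' : ∀ i, c' i ∈ I) (i : Fin n),
      aeval (R := 𝒪) (hev c' hc') (X i : MvPowerSeries (Fin n) 𝒪) = X i + C (c' i) := by
    intro c' hc' i
    rw [coe_aeval, eval₂_X]
  have hcomp' : ∀ (c₁ c₂ : Fin n → 𝒪) (h₁ : ∀ i, c₁ i ∈ I) (h₂ : ∀ i, c₂ i ∈ I),
      (∀ i, c₁ i + c₂ i = 0) →
      (aeval (hev c₁ h₁)).comp (aeval (hev c₂ h₂))
        = AlgHom.id 𝒪 (MvPowerSeries (Fin n) 𝒪) := by
    intro c₁ c₂ h₁ h₂ h12
    have hcont : Continuous ((aeval (hev c₁ h₁)).comp (aeval (hev c₂ h₂))) :=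
      (continuous_aeval (hev c₁ h₁)).comp (continuous_aeval (hev c₂ h₂))
    have hcontid : Continuous (AlgHom.id 𝒪 (MvPowerSeries (Fin n) 𝒪)) := continuous_id
    rw [← aeval_unique hcont, ← aeval_unique hcontid]
    congr 1
    funext i
    show (aeval (hev c₁ h₁)) ((aeval (hev c₂ h₂)) (X i)) = X i
    rw [hX c₂ h₂ i, map_add, hX c₁ h₁ i]
    have : (C (c₂ i) : MvPowerSeries (Fin n) 𝒪) = algebraMap 𝒪 _ (c₂ i) := by
      rw [MvPowerSeries.algebraMap_apply]
      rfl
    rw [this, AlgHom.commutes, ← this, add_assoc, ← map_add, h12 i, map_zero, add_zero]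
  have hc'' : ∀ i, (-c) i ∈ I := fun i => I.neg_mem (hc i)
  refine ⟨AlgEquiv.ofAlgHom (aeval (hev c hc)) (aeval (hev (-c) hc''))
    (hcomp' c (-c) hc hc'' (fun i => by simp))
    (hcomp' (-c) c hc'' hc (fun i => by simp)), hX c hc⟩

end translation

section norm

variable {𝒪 : Type*} [CommRing 𝒪] [IsLocalRing 𝒪]
  {R : Type*} [CommRing R] [Algebra 𝒪 R] {n : ℕ}

/-- the value of an augmentation on a variable lies in the maximal ideal. -/
theorem pi_gamma_X_mem_maximalIdeal (γ : MvPowerSeries (Fin n) 𝒪 →ₐ[𝒪] R) (π : R →ₐ[𝒪] 𝒪)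
    (i : Fin n) : π (γ (X i)) ∈ IsLocalRing.maximalIdeal 𝒪 := by
  rw [IsLocalRing.mem_maximalIdeal, mem_nonunits_iff]
  intro hu
  obtain ⟨u, hu⟩ := hu.exists_right_inv
  have h1 : IsUnit (1 - C u * X i : MvPowerSeries (Fin n) 𝒪) := by
    rw [MvPowerSeries.isUnit_iff_constantCoeff]
    simp
  have h2 : IsUnit (π (γ (1 - C u * X i))) := (h1.map γ).map π
  rw [map_sub, map_sub, map_one, map_one, map_mul, map_mul, pi_psi_C, mul_comm, hu, sub_self]
    at h2
  exact not_isUnit_zero h2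

/-- **(NORM)**. -/
theorem exists_normalized [IsAdicComplete (IsLocalRing.maximalIdeal 𝒪) 𝒪]
    (γ : MvPowerSeries (Fin n) 𝒪 →ₐ[𝒪] R) (π : R →ₐ[𝒪] 𝒪) :
    ∃ τ : MvPowerSeries (Fin n) 𝒪 ≃ₐ[𝒪] MvPowerSeries (Fin n) 𝒪,
      ∀ i, π (γ (τ (X i))) = 0 := by
  obtain ⟨τ, hτ⟩ := exists_translation (IsLocalRing.maximalIdeal 𝒪)
    (fun i => - π (γ (X i)))
    (fun i => (Ideal.neg_mem_iff _).mpr (pi_gamma_X_mem_maximalIdeal γ π i))
  refine ⟨τ, fun i => ?_⟩
  rw [hτ i, map_add, map_add, pi_psi_C, add_neg_cancel]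

omit [IsLocalRing 𝒪] in
/-- the kernel of a presentation after an automorphism of the source. -/
theorem ker_comp_algEquiv (γ : MvPowerSeries (Fin n) 𝒪 →ₐ[𝒪] R)
    (τ : MvPowerSeries (Fin n) 𝒪 ≃ₐ[𝒪] MvPowerSeries (Fin n) 𝒪)
    (g : Fin n → MvPowerSeries (Fin n) 𝒪) (hg : RingHom.ker γ = Ideal.span (Set.range g)) :
    RingHom.ker (γ.comp (τ : MvPowerSeries (Fin n) 𝒪 →ₐ[𝒪] MvPowerSeries (Fin n) 𝒪))
      = Ideal.span (Set.range fun i => τ.symm (g i)) := by
  apply le_antisymm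
  · intro f hf
    have h1 : τ f ∈ RingHom.ker γ := hf
    rw [hg] at h1
    obtain ⟨c, hc⟩ := (Ideal.mem_span_range_iff_exists_fun (R := MvPowerSeries (Fin n) 𝒪)).mp h1
    have h2 : f = ∑ i, τ.symm (c i) * τ.symm (g i) := by
      rw [← τ.symm_apply_apply f, ← hc, map_sum]
      simp
    rw [h2]
    exact Ideal.sum_mem _ fun i _ => Ideal.mul_mem_left _ _ (Ideal.subset_span ⟨i, rfl⟩)
  · rw [Ideal.span_le]
    rintro _ ⟨i, rfl⟩
    show γ (τ (τ.symm (g i))) = 0
    rw [τ.apply_symm_apply]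
    have : g i ∈ RingHom.ker γ := by rw [hg]; exact Ideal.subset_span ⟨i, rfl⟩
    exact this

end norm

end Fermat.Agent.S59.NumCrit.H90

end
-- ==== END Fermat.Agent.S59.NumCrit.H90_Norm

-- ==== BEGIN Fermat.Agent.S59.NumCrit.H90_Red
section

/-!
# S59 NUMCRIT, leaf RED: reduction of power series modulo the maximal ideal

`map_residue_surjective`, `ker_map_residue` for `MvPowerSeries.map (IsLocalRing.residue 𝒪)`.
-/

set_option autoImplicit false

namespace Fermat.Agent.S59.NumCrit.H90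

open MvPowerSeries

theorem map_surjective_of_surjective {σ : Type*} {R S : Type*} [CommRing R] [CommRing S]
    (f : R →+* S) (hf : Function.Surjective f) :
    Function.Surjective (MvPowerSeries.map (σ := σ) f) := by
  intro φ
  choose g hg using hf
  let θ : MvPowerSeries σ R := fun m => g (coeff m φ)
  have hθ : ∀ m, coeff m θ = g (coeff m φ) := fun m => rfl
  refine ⟨θ, ?_⟩
  ext m
  rw [coeff_map, hθ]
  exact hg _

/-- RED, surjectivity. -/
theorem map_residue_surjective (σ : Type*) (𝒪 : Type*) [CommRing 𝒪] [IsLocalRing 𝒪] :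
    Function.Surjective (MvPowerSeries.map (σ := σ) (IsLocalRing.residue 𝒪)) :=
  map_surjective_of_surjective _ IsLocalRing.residue_surjective

/-- RED, the kernel. -/
theorem ker_map_residue (σ : Type*) {𝒪 : Type*} [CommRing 𝒪] [IsLocalRing 𝒪] {ϖ : 𝒪}
    (hϖ : IsLocalRing.maximalIdeal 𝒪 = Ideal.span {ϖ}) :
    RingHom.ker (MvPowerSeries.map (σ := σ) (IsLocalRing.residue 𝒪))
      = Ideal.span {(C ϖ : MvPowerSeries σ 𝒪)} := by
  apply le_antisymm
  · intro f hf
    rw [RingHom.mem_ker] at hf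
    have h1 : ∀ m, ∃ a : 𝒪, coeff m f = ϖ * a := by
      intro m
      have h2 : IsLocalRing.residue 𝒪 (coeff m f) = 0 := by
        rw [← coeff_map, hf, map_zero]
      have h3 : coeff m f ∈ IsLocalRing.maximalIdeal 𝒪 := by
        rwa [IsLocalRing.residue_eq_zero_iff] at h2
      rw [hϖ, Ideal.mem_span_singleton'] at h3
      obtain ⟨a, ha⟩ := h3
      exact ⟨a, by rw [← ha, mul_comm]⟩
    choose a ha using h1
    rw [Ideal.mem_span_singleton']
    let θ : MvPowerSeries σ 𝒪 := fun m => a m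
    have hθ : ∀ m, coeff m θ = a m := fun m => rfl
    refine ⟨θ, ?_⟩
    ext m
    rw [mul_comm, ← smul_eq_C_mul, ha m, map_smul, hθ, smul_eq_mul]
  · rw [Ideal.span_le, Set.singleton_subset_iff, SetLike.mem_coe, RingHom.mem_ker, map_C]
    have : IsLocalRing.residue 𝒪 ϖ = 0 := by
      rw [IsLocalRing.residue_eq_zero_iff, hϖ]
      exact Ideal.mem_span_singleton_self ϖ
    rw [this, map_zero]

end Fermat.Agent.S59.NumCrit.H90

end
-- ==== END Fermat.Agent.S59.NumCrit.H90_Red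

-- ==== BEGIN Fermat.Agent.S59.TRes.Defs
section

/-!
# S59, leaf TRES (helper49): interfaces

`Asm.Stmt_TRES` : for a semistable `W` with `p ∤ v_p(Δ)`, the residual representation is not flat
at `p`.  Plan: `NOTES/plan/S59_TRES.md`.

* `Stmt_TRESloc` : the LOCAL statement.  `W` has multiplicative reduction at `p` (`p ∣ Δ`,
  `p ∤ c₄`), `p` odd, `p ∤ v_p(Δ)`.  Then there is NO finite Galois extension `L/ℚ_p` of bounded
  ramification (`S56.FL.IsBddField`) such that `Gal(K̄/L)` acts trivially on `E[p](ℚ̄)`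
  (through `localGaloisToGlobal`).
* `Stmt_TRESwire` : `Stmt_TRESloc → Asm.Stmt_TRES` (Fontaine's bound `S56.FL.H54.stmt_FL_A` +
  BRIDGE-RES `LL.H77.bridgeRes`).

No `sorry`; definitions only.
-/

set_option autoImplicit false

open WeierstrassCurve WeierstrassCurve.Affine

namespace Fermat.Agent.S59.TRes

open Fermat.Agent.S56.FL Fermat.Agent.S52.H5

/-- **TRES, local form.**  Multiplicative reduction at the odd prime `p` with `p ∤ v_p(Δ)`: the
field of `E[p]` is not contained in a finite Galois extension of `ℚ_p` with bounded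
ramification. -/
def Stmt_TRESloc : Prop :=
  ∀ (p : ℕ) [Fact p.Prime], p ≠ 2 → ∀ (W : WeierstrassCurve ℤ), W.Δ ≠ 0 →
    (p : ℤ) ∣ W.Δ → ¬ (p : ℤ) ∣ W.c₄ →
    ¬ (W.map (Int.castRingHom ℚ)).IsPeuRamifieeAt p p →
    ∀ (L : IntermediateField ℚ_[p] (PadicAlgCl p)) [FiniteDimensional ℚ_[p] L],
      Normal ℚ_[p] L → IsBddField p L →
      ¬ (∀ σ : Gp p, σ ∈ L.fixingSubgroup →
          ∀ P : (EQ W).Point, p • P = 0 → localGaloisToGlobal p σ • P = P)

/-- The wiring: the local statement gives `Asm.Stmt_TRES`. -/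
def Stmt_TRESwire : Prop :=
  Stmt_TRESloc → Fermat.Agent.S59.Asm.Stmt_TRES

end Fermat.Agent.S59.TRes

end
-- ==== END Fermat.Agent.S59.TRes.Defs

-- ==== BEGIN Fermat.Agent.S59.TRes.H49_BigRoot
section

/-!
# S59, leaf TRES (helper49): BIGROOT (E2 of `NOTES/plan/S59_TRES.md`)

On the S05 model `y² = x³ + a x² + b x` (`|a| = 1`, `|b| < 1`) over an algebraically closed valued
field of characteristic `0` and odd residue characteristic `p`, some point `T₀` of order `p`
satisfies `1 ≤ |p| · |x(T₀)| ^ ((p - 1) / 2)`.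

Route (as ROOT, helper97): the `p`-th division polynomial `g` has leading coefficient `p`, degree
`(p² - 1)/2`, and its coefficient of `X ^ ((p² - p)/2)` is a unit (T6-DP).  If all roots have
`|ξ| ≤ R` then `|g_i| R^i ≤ |p| R^deg`.
-/

set_option autoImplicit false

namespace Fermat.Agent.S59.TRes.H49

open WeierstrassCurve WeierstrassCurve.Affine Polynomial IsLocalRing
open Fermat.Agent.S05 (ModelHyp)
open Fermat.Agent.Lib.TorsionGen
open Fermat.Agent.Lib.EllFinite
open Fermat.Agent.Tate.T6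

section valpoly

variable {L : Type*} [Field L] (A : ValuationSubring L)

/-- A product of linear factors `X - ξ` with `|ξ| ≤ R`: `|c_i| R^i ≤ R^(number of factors)`. -/
lemma coeff_prod_mul_pow_le (s : Multiset L) (R : A.ValueGroup)
    (hs : ∀ ξ ∈ s, A.valuation ξ ≤ R) (i : ℕ) :
    A.valuation ((s.map (fun ξ => X - C ξ)).prod.coeff i) * R ^ i ≤ R ^ (Multiset.card s) := by
  induction s using Multiset.induction_on generalizing i with
  | empty =>
    rw [Multiset.map_zero, Multiset.prod_zero, Multiset.card_zero, pow_zero]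
    by_cases hi : i = 0
    · rw [hi, coeff_one_zero, map_one, pow_zero, one_mul]
    · rw [coeff_one, if_neg hi, map_zero, zero_mul]
      exact zero_le
  | cons ξ t ih =>
    rw [Multiset.map_cons, Multiset.prod_cons, Multiset.card_cons]
    have hξ : A.valuation ξ ≤ R := hs ξ (Multiset.mem_cons_self ξ t)
    have iht : ∀ j, A.valuation ((t.map (fun ξ => X - C ξ)).prod.coeff j) * R ^ j ≤
        R ^ (Multiset.card t) :=
      fun j => ih (fun η hη => hs η (Multiset.mem_cons_of_mem hη)) j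
    set P := (t.map (fun ξ => X - C ξ)).prod with hP
    cases i with
    | zero =>
      have h0 : ((X - C ξ) * P).coeff 0 = -ξ * P.coeff 0 := by
        rw [mul_coeff_zero, coeff_sub, coeff_X_zero, coeff_C_zero, zero_sub]
      rw [h0, map_mul, Valuation.map_neg, pow_zero, mul_one, pow_succ, mul_comm]
      have := iht 0
      rw [pow_zero, mul_one] at this
      exact mul_le_mul' this hξ
    | succ j =>
      have hj : ((X - C ξ) * P).coeff (j + 1) = P.coeff j - ξ * P.coeff (j + 1) := by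
        rw [sub_mul, coeff_sub, coeff_X_mul, coeff_C_mul]
      rw [hj]
      have h1 : A.valuation (P.coeff j) * R ^ (j + 1) ≤ R ^ (Multiset.card t + 1) := by
        rw [pow_succ, ← mul_assoc, pow_succ]
        exact mul_le_mul' (iht j) le_rfl
      have h2 : A.valuation (ξ * P.coeff (j + 1)) * R ^ (j + 1) ≤ R ^ (Multiset.card t + 1) := by
        rw [map_mul, mul_assoc, pow_succ (n := Multiset.card t), mul_comm (R ^ Multiset.card t) R]
        exact mul_le_mul' hξ (iht (j + 1))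
      rcases le_total (A.valuation (P.coeff j)) (A.valuation (ξ * P.coeff (j + 1))) with hle | hle
      · refine le_trans (mul_le_mul' ((Valuation.map_sub _ _ _).trans (max_le hle le_rfl)) le_rfl) h2
      · refine le_trans (mul_le_mul' ((Valuation.map_sub _ _ _).trans (max_le le_rfl hle)) le_rfl) h1

/-- A split polynomial all of whose roots have `|ξ| ≤ R`: `|g_i| R^i ≤ |lead| R^deg`. -/
lemma coeff_mul_pow_le_of_roots [IsAlgClosed L] (g : L[X]) (R : A.ValueGroup)
    (hs : ∀ ξ ∈ g.roots, A.valuation ξ ≤ R) (i : ℕ) :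
    A.valuation (g.coeff i) * R ^ i ≤ A.valuation g.leadingCoeff * R ^ g.natDegree := by
  have hprod := (IsAlgClosed.splits g).eq_prod_roots
  have hcard : Multiset.card g.roots = g.natDegree :=
    (IsAlgClosed.splits g).natDegree_eq_card_roots.symm
  have key := coeff_prod_mul_pow_le A g.roots R hs i
  have e : g.coeff i =
      g.leadingCoeff * ((g.roots.map (fun ξ => X - C ξ)).prod).coeff i := by
    conv_lhs => rw [hprod]
    rw [coeff_C_mul]
  rw [e, map_mul, mul_assoc, ← hcard]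
  exact mul_le_mul' le_rfl key

end valpoly

/-- **BIGROOT**: a point of order `p` deep in the kernel of reduction. -/
theorem stmt_BIGROOT (L : Type) [Field L] [DecidableEq L] [IsAlgClosed L] [CharZero L]
    (A : ValuationSubring L) (p : ℕ) (hp : p.Prime) (hp2 : p ≠ 2)
    (hpv : A.valuation (p : L) < 1) (W : Affine L) (hW : ModelHyp A W)
    (hb : A.valuation W.a₄ < 1) (hΔ : W.Δ ≠ 0) :
    ∃ (x y : L) (h : W.Nonsingular x y), p • Point.some x y h = 0 ∧
      1 ≤ A.valuation (p : L) * A.valuation x ^ ((p - 1) / 2) := by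
  classical
  have hfact : Fact p.Prime := ⟨hp⟩
  have hodd : ¬ Even p := fun h => hp2 ((Nat.Prime.even_iff hp).1 h)
  -- `|a| = 1`
  have h4 : A.valuation (4 : L) ≤ 1 := by
    have : (4 : L) = 2 * 2 := by norm_num
    rw [this, map_mul, hW.two, one_mul]
  have h4b : A.valuation (4 * W.a₄) < 1 := by
    rw [map_mul]
    calc A.valuation (4 : L) * A.valuation W.a₄ ≤ 1 * A.valuation W.a₄ := mul_le_mul' h4 le_rfl
      _ = A.valuation W.a₄ := one_mul _
      _ < 1 := hb
  have hasq : A.valuation (W.a₂ ^ 2) = 1 := by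
    have e : W.a₂ ^ 2 = (W.a₂ ^ 2 - 4 * W.a₄) + 4 * W.a₄ := by ring
    rw [e, Valuation.map_add_eq_of_lt_left _ (by rw [hW.disc]; exact h4b), hW.disc]
  have hav : A.valuation W.a₂ = 1 := by
    refine le_antisymm hW.a_le ?_
    have h1 : A.valuation (W.a₂ ^ 2) ≤ A.valuation W.a₂ := by
      rw [pow_two, map_mul]
      calc A.valuation W.a₂ * A.valuation W.a₂ ≤ 1 * A.valuation W.a₂ :=
            mul_le_mul' hW.a_le le_rfl
        _ = A.valuation W.a₂ := one_mul _
    rw [hasq] at h1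
    exact h1
  -- the model over `A`
  let aA : A := ⟨W.a₂, (A.valuation_le_one_iff _).1 hW.a_le⟩
  let bA : A := ⟨W.a₄, (A.valuation_le_one_iff _).1 hW.b_le⟩
  let WA : WeierstrassCurve A := ⟨0, aA, 0, bA, 0⟩
  have hWA : WA.map (algebraMap A L) = W := by
    ext
    · show algebraMap A L 0 = W.a₁
      rw [map_zero, hW.a₁]
    · rfl
    · show algebraMap A L 0 = W.a₃
      rw [map_zero, hW.a₃]
    · rfl
    · show algebraMap A L 0 = W.a₆
      rw [map_zero, hW.a₆]
  have hres_b : residue A bA = 0 := (H4.res_eq_zero_iff bA).2 hb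
  have hres_a : residue A aA ≠ 0 := (H4.res_ne_zero_iff aA).2 hav
  have hWk : WA.map (residue A) = nodal (residue A aA) := by
    ext
    · show residue A 0 = 0
      rw [map_zero]
    · rfl
    · show residue A 0 = 0
      rw [map_zero]
    · exact hres_b
    · show residue A 0 = 0
      rw [map_zero]
  have hp0 : ((p : ℕ) : ResidueField A) = 0 := by
    have h1 : residue A ((p : ℕ) : A) = 0 := by
      apply (H4.res_eq_zero_iff _).2
      simpa using hpv
    simpa using h1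
  have hchar : CharP (ResidueField A) p := (CharP.charP_iff_prime_eq_zero hp).2 hp0
  obtain ⟨c, hc, hDP⟩ := H97.stmt_DP (ResidueField A) p hp2 (residue A aA) hres_a
  set d₀ := (p ^ 2 - p) / 2 with hd₀
  set g₀ := WA.preΨ' p with hg₀
  have hg₀k : g₀.map (residue A) = C c * X ^ d₀ := by
    rw [hg₀, ← map_preΨ', hWk, hDP]
  have hgL : g₀.map (algebraMap A L) = W.preΨ' p := by
    rw [hg₀, ← map_preΨ', hWA]
  have hcoeff_d : A.valuation ((W.preΨ' p).coeff d₀) = 1 := by
    rw [← hgL, coeff_map]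
    apply (H4.res_ne_zero_iff _).1
    rw [← coeff_map, hg₀k, coeff_C_mul, coeff_X_pow, if_pos rfl, mul_one]
    exact hc
  -- degree and leading coefficient
  have hpL : ((p : ℕ) : L) ≠ 0 := by exact_mod_cast hp.ne_zero
  have hdeg : (W.preΨ' p).natDegree = (p ^ 2 - 1) / 2 := by
    rw [W.natDegree_preΨ' hpL, if_neg hodd]
  have hlead : (W.preΨ' p).leadingCoeff = (p : L) := by
    rw [W.leadingCoeff_preΨ' hpL, if_neg hodd]
  have h3 : 3 ≤ p := by
    have := hp.two_le
    omega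
  have hNd : (p ^ 2 - 1) / 2 = d₀ + (p - 1) / 2 := by
    obtain ⟨m, hm⟩ := Nat.not_even_iff_odd.1 hodd
    have e1 : p ^ 2 - 1 = 2 * (2 * m ^ 2 + 2 * m) := by
      rw [hm]
      have : (2 * m + 1) ^ 2 = 2 * (2 * m ^ 2 + 2 * m) + 1 := by ring
      omega
    have e2 : p ^ 2 - p = 2 * (2 * m ^ 2 + m) := by
      rw [hm]
      have : (2 * m + 1) ^ 2 = 2 * (2 * m ^ 2 + m) + (2 * m + 1) := by ring
      omega
    have e3 : p - 1 = 2 * m := by omega
    rw [hd₀, e1, e2, e3, Nat.mul_div_cancel_left _ (by norm_num : 0 < 2),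
      Nat.mul_div_cancel_left _ (by norm_num : 0 < 2),
      Nat.mul_div_cancel_left _ (by norm_num : 0 < 2)]
    ring
  -- the roots
  have hne : W.preΨ' p ≠ 0 := by
    intro h0
    rw [h0, coeff_zero, map_zero] at hcoeff_d
    exact zero_ne_one hcoeff_d
  have hroots : (W.preΨ' p).roots ≠ 0 := by
    intro h0
    have hcard := (IsAlgClosed.splits (W.preΨ' p)).natDegree_eq_card_roots
    rw [h0, Multiset.card_zero, hdeg, hNd] at hcard
    have : 1 ≤ (p - 1) / 2 := by omega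
    omega
  -- a root of maximal absolute value
  obtain ⟨ξ, hξ, hmax⟩ : ∃ ξ ∈ (W.preΨ' p).roots, ∀ η ∈ (W.preΨ' p).roots,
      A.valuation η ≤ A.valuation ξ := by
    obtain ⟨ξ, hξ, hmax⟩ := Finset.exists_max_image (W.preΨ' p).roots.toFinset
      (fun η => A.valuation η) (by
        obtain ⟨η, hη⟩ := Multiset.exists_mem_of_ne_zero hroots
        exact ⟨η, Multiset.mem_toFinset.2 hη⟩)
    exact ⟨ξ, Multiset.mem_toFinset.1 hξ, fun η hη => hmax η (Multiset.mem_toFinset.2 hη)⟩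
  have key := coeff_mul_pow_le_of_roots A (W.preΨ' p) (A.valuation ξ) hmax d₀
  rw [hcoeff_d, one_mul, hlead, hdeg, hNd, pow_add, ← mul_assoc, mul_comm _ (A.valuation ξ ^ d₀),
    mul_assoc] at key
  -- `ξ ≠ 0`
  have hξ0 : ξ ≠ 0 := by
    rintro rfl
    have hR0 : (0 : A.ValueGroup) < A.valuation (p : L) :=
      zero_lt_iff.2 (by simpa using hpL)
    have hall : ∀ η ∈ (W.preΨ' p).roots, A.valuation η ≤ A.valuation (p : L) := by
      intro η hη
      have := hmax η hη
      rw [map_zero] at this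
      exact this.trans hR0.le
    have k2 := coeff_mul_pow_le_of_roots A (W.preΨ' p) (A.valuation (p : L)) hall d₀
    rw [hcoeff_d, one_mul, hlead, hdeg, hNd, pow_add, ← mul_assoc,
      mul_comm _ (A.valuation (p : L) ^ d₀), mul_assoc] at k2
    have hR0d : (0 : A.ValueGroup) < A.valuation (p : L) ^ d₀ := pow_pos hR0 _
    have k3 : (1 : A.ValueGroup) ≤ A.valuation (p : L) * A.valuation (p : L) ^ ((p - 1) / 2) := by
      have : A.valuation (p : L) ^ d₀ * 1 ≤ A.valuation (p : L) ^ d₀ *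
          (A.valuation (p : L) * A.valuation (p : L) ^ ((p - 1) / 2)) := by
        rw [mul_one]; exact k2
      exact (mul_le_mul_iff_right₀ hR0d).1 this
    have k4 : A.valuation (p : L) * A.valuation (p : L) ^ ((p - 1) / 2) < 1 := by
      rw [← pow_succ']
      exact pow_lt_one₀ zero_le hpv (Nat.succ_ne_zero _)
    exact absurd k3 (not_le.2 k4)
  have hvξ : (0 : A.ValueGroup) < A.valuation ξ ^ d₀ :=
    pow_pos (zero_lt_iff.2 (by simpa using hξ0)) _
  have key' : (1 : A.ValueGroup) ≤ A.valuation (p : L) * A.valuation ξ ^ ((p - 1) / 2) := by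
    have : A.valuation ξ ^ d₀ * 1 ≤
        A.valuation ξ ^ d₀ * (A.valuation (p : L) * A.valuation ξ ^ ((p - 1) / 2)) := by
      rw [mul_one]; exact key
    exact (mul_le_mul_iff_right₀ hvξ).1 this
  have hroot : (W.preΨ' p).eval ξ = 0 := (mem_roots'.1 hξ).2
  obtain ⟨y, hy⟩ := IsAlgClosed.exists_pow_nat_eq (ξ ^ 3 + W.a₂ * ξ ^ 2 + W.a₄ * ξ) (n := 2)
    (by norm_num)
  have heq : W.Equation ξ y :=
    (Fermat.Agent.S05.legendre_equation_iff hW.a₁ hW.a₃ hW.a₆ ξ y).2 hy
  have hns : W.Nonsingular ξ y := (equation_iff_nonsingular_of_Δ_ne_zero hΔ).1 heq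
  exact ⟨ξ, y, hns, (nsmul_eq_zero_iff_eval_preΨ' hns hodd).2 hroot, key'⟩

end Fermat.Agent.S59.TRes.H49

end
-- ==== END Fermat.Agent.S59.TRes.H49_BigRoot

-- ==== BEGIN Fermat.Agent.S59.TRes.H49_Contr
section

/-!
# S59, leaf TRES (helper49): the contraction argument (abstract part)

`C` a field with an ultrametric norm.

* `norm_le_norm_sum_of_distinct` : finitely many elements with pairwise distinct norms (of the
  nonzero ones): every term is bounded by the norm of the sum.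
* `norm_map_pow_sub_pow_le` : `‖σ g - g‖ ≤ ρ ‖g‖` gives `‖σ (g^k) - g^k‖ ≤ ρ ‖g‖^k`.
* `contraction_false` : the contradiction (K3 + K4 of `NOTES/plan/S59_TRES.md`).
* `exists_coeff_of_interp` : Lagrange interpolation with invariance (K2).
-/

set_option autoImplicit false

open Polynomial

namespace Fermat.Agent.S59.TRes.H49

section orth

variable {C : Type*} [NormedField C] [IsUltrametricDist C]

/-- Finitely many elements such that the nonzero ones have pairwise distinct norms: every term is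
bounded by the norm of the sum, and the sum is zero or has the norm of a nonzero term. -/
theorem norm_sum_of_distinct {ι : Type*} [DecidableEq ι] (s : Finset ι) (f : ι → C)
    (h : ∀ i ∈ s, ∀ j ∈ s, i ≠ j → f i ≠ 0 → f j ≠ 0 → ‖f i‖ ≠ ‖f j‖) :
    (∀ i ∈ s, ‖f i‖ ≤ ‖∑ j ∈ s, f j‖) ∧
      (∑ j ∈ s, f j = 0 ∨ ∃ j ∈ s, f j ≠ 0 ∧ ‖∑ j ∈ s, f j‖ = ‖f j‖) := by
  induction s using Finset.induction_on with
  | empty => exact ⟨fun i hi => absurd hi (Finset.notMem_empty i), Or.inl Finset.sum_empty⟩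
  | insert a t ha ih =>
    have ht : ∀ i ∈ t, ∀ j ∈ t, i ≠ j → f i ≠ 0 → f j ≠ 0 → ‖f i‖ ≠ ‖f j‖ :=
      fun i hi j hj => h i (Finset.mem_insert_of_mem hi) j (Finset.mem_insert_of_mem hj)
    obtain ⟨ih1, ih2⟩ := ih ht
    rw [Finset.sum_insert ha]
    by_cases hfa : f a = 0
    · rw [hfa, zero_add]
      refine ⟨fun i hi => ?_, ?_⟩
      · rcases Finset.mem_insert.1 hi with rfl | hi
        · rw [hfa, norm_zero]; exact norm_nonneg _
        · exact ih1 i hi
      · rcases ih2 with h0 | ⟨j, hj, hj0, hjn⟩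
        · exact Or.inl h0
        · exact Or.inr ⟨j, Finset.mem_insert_of_mem hj, hj0, hjn⟩
    rcases ih2 with h0 | ⟨j, hj, hj0, hjn⟩
    · rw [h0, add_zero]
      refine ⟨fun i hi => ?_, Or.inr ⟨a, Finset.mem_insert_self a t, hfa, rfl⟩⟩
      rcases Finset.mem_insert.1 hi with rfl | hi
      · exact le_rfl
      · have := ih1 i hi
        rw [h0, norm_zero] at this
        exact this.trans (norm_nonneg _)
    · have hne : ‖f a‖ ≠ ‖∑ x ∈ t, f x‖ := by
        rw [hjn]
        refine h a (Finset.mem_insert_self a t) j (Finset.mem_insert_of_mem hj) ?_ hfa hj0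
        rintro rfl
        exact ha hj
      have hmax := IsUltrametricDist.norm_add_eq_max_of_norm_ne_norm hne
      refine ⟨fun i hi => ?_, ?_⟩
      · rw [hmax]
        rcases Finset.mem_insert.1 hi with rfl | hi
        · exact le_max_left _ _
        · exact (ih1 i hi).trans (le_max_right _ _)
      · right
        rcases le_total ‖f a‖ ‖∑ x ∈ t, f x‖ with hle | hle
        · exact ⟨j, Finset.mem_insert_of_mem hj, hj0, by rw [hmax, max_eq_right hle, hjn]⟩
        · exact ⟨a, Finset.mem_insert_self a t, hfa, by rw [hmax, max_eq_left hle]⟩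

theorem norm_le_norm_sum_of_distinct {ι : Type*} [DecidableEq ι] (s : Finset ι) (f : ι → C)
    (h : ∀ i ∈ s, ∀ j ∈ s, i ≠ j → f i ≠ 0 → f j ≠ 0 → ‖f i‖ ≠ ‖f j‖) {i : ι} (hi : i ∈ s) :
    ‖f i‖ ≤ ‖∑ j ∈ s, f j‖ :=
  (norm_sum_of_distinct s f h).1 i hi

/-- The norm of a finite sum is at most a common bound of the norms of the terms. -/
theorem norm_sum_le_of_forall_le' {ι : Type*} (s : Finset ι) (f : ι → C) {B : ℝ} (hB : 0 ≤ B)
    (h : ∀ i ∈ s, ‖f i‖ ≤ B) : ‖∑ j ∈ s, f j‖ ≤ B := by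
  classical
  induction s using Finset.induction_on with
  | empty => simpa using hB
  | insert a t ha ih =>
    rw [Finset.sum_insert ha]
    refine (IsUltrametricDist.norm_add_le_max _ _).trans (max_le ?_ ?_)
    · exact h a (Finset.mem_insert_self a t)
    · exact ih fun i hi => h i (Finset.mem_insert_of_mem hi)

/-- `‖a - b‖ ≤ ρ ‖b‖` and `‖a‖ = ‖b‖` give `‖a ^ k - b ^ k‖ ≤ ρ ‖b‖ ^ k`. -/
theorem norm_pow_sub_pow_le {a b : C} {ρ : ℝ} (hab : ‖a‖ = ‖b‖) (h : ‖a - b‖ ≤ ρ * ‖b‖)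
    (k : ℕ) (hk : 0 < k) : ‖a ^ k - b ^ k‖ ≤ ρ * ‖b‖ ^ k := by
  induction k with
  | zero => exact absurd hk (lt_irrefl 0)
  | succ m ih =>
    rcases Nat.eq_zero_or_pos m with rfl | hm
    · simpa using h
    have e : a ^ (m + 1) - b ^ (m + 1) = a * (a ^ m - b ^ m) + (a - b) * b ^ m := by ring
    rw [e]
    refine (IsUltrametricDist.norm_add_le_max _ _).trans (max_le ?_ ?_)
    · rw [norm_mul, hab]
      calc ‖b‖ * ‖a ^ m - b ^ m‖ ≤ ‖b‖ * (ρ * ‖b‖ ^ m) :=
            mul_le_mul_of_nonneg_left (ih hm) (norm_nonneg _)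
        _ = ρ * ‖b‖ ^ (m + 1) := by ring
    · rw [norm_mul, norm_pow]
      calc ‖a - b‖ * ‖b‖ ^ m ≤ ρ * ‖b‖ * ‖b‖ ^ m :=
            mul_le_mul_of_nonneg_right h (pow_nonneg (norm_nonneg _) _)
        _ = ρ * ‖b‖ ^ (m + 1) := by ring

/-- **The contraction argument.**  `σ` an isometric ring endomorphism of `C`, `c k` fixed by `σ`,
`α = ∑_{k<n} c_k g^k` of norm `1`, the norms `‖c_k g^k‖` (for `c_k ≠ 0`) pairwise distinct and
`≠ 1` for `k ≥ 1`, `‖σ g - g‖ ≤ ρ ‖g‖`.  Then `‖σ α - α‖ < ρ` or `σ α = α`. -/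
theorem contraction (σ : C →+* C) (hσ : ∀ x, ‖σ x‖ = ‖x‖) (n : ℕ) (c : ℕ → C)
    (hc : ∀ k, σ (c k) = c k) (g α : C) (hα : α = ∑ k ∈ Finset.range n, c k * g ^ k)
    (hα1 : ‖α‖ = 1)
    (horth : ∀ i ∈ Finset.range n, ∀ j ∈ Finset.range n, i ≠ j → c i * g ^ i ≠ 0 →
      c j * g ^ j ≠ 0 → ‖c i * g ^ i‖ ≠ ‖c j * g ^ j‖)
    (hfrac : ∀ k ∈ Finset.range n, 0 < k → ‖c k * g ^ k‖ ≠ 1)
    {ρ : ℝ} (hρ : 0 < ρ) (hg : ‖σ g - g‖ ≤ ρ * ‖g‖) :
    ‖σ α - α‖ < ρ := by
  classical
  have hterm : ∀ k ∈ Finset.range n, ‖c k * g ^ k‖ ≤ 1 := by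
    intro k hk
    have := norm_le_norm_sum_of_distinct (Finset.range n) (fun k => c k * g ^ k) horth hk
    rw [← hα, hα1] at this
    exact this
  have hlt : ∀ k ∈ Finset.range n, 0 < k → ‖c k * g ^ k‖ < 1 :=
    fun k hk hk0 => lt_of_le_of_ne (hterm k hk) (hfrac k hk hk0)
  have e : σ α - α = ∑ k ∈ Finset.range n, c k * ((σ g) ^ k - g ^ k) := by
    rw [hα, map_sum, ← Finset.sum_sub_distrib]
    refine Finset.sum_congr rfl fun k _ => ?_
    rw [map_mul, map_pow, hc k]
    ring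
  -- the finite maximum of the terms with `k ≥ 1`
  obtain ⟨B, hB0, hB1, hB⟩ : ∃ B : ℝ, 0 ≤ B ∧ B < 1 ∧
      ∀ k ∈ Finset.range n, 0 < k → ‖c k * g ^ k‖ ≤ B := by
    by_cases hne : ((Finset.range n).filter fun k => 0 < k).Nonempty
    · obtain ⟨k₀, hk₀, hmax⟩ := Finset.exists_max_image
        ((Finset.range n).filter fun k => 0 < k) (fun k => ‖c k * g ^ k‖) hne
      rw [Finset.mem_filter] at hk₀
      refine ⟨‖c k₀ * g ^ k₀‖, norm_nonneg _, hlt k₀ hk₀.1 hk₀.2, fun k hk hk0 => ?_⟩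
      exact hmax k (Finset.mem_filter.2 ⟨hk, hk0⟩)
    · refine ⟨0, le_rfl, zero_lt_one, fun k hk hk0 => ?_⟩
      exact absurd ⟨k, Finset.mem_filter.2 ⟨hk, hk0⟩⟩ hne
  have hbound : ‖σ α - α‖ ≤ ρ * B := by
    rw [e]
    refine norm_sum_le_of_forall_le' _ _ (mul_nonneg hρ.le hB0) fun k hk => ?_
    rcases Nat.eq_zero_or_pos k with rfl | hk0
    · simp only [pow_zero, sub_self, mul_zero, norm_zero]
      exact mul_nonneg hρ.le hB0
    rw [norm_mul]
    calc ‖c k‖ * ‖(σ g) ^ k - g ^ k‖ ≤ ‖c k‖ * (ρ * ‖g‖ ^ k) :=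
          mul_le_mul_of_nonneg_left (norm_pow_sub_pow_le (hσ g) hg k hk0) (norm_nonneg _)
      _ = ρ * ‖c k * g ^ k‖ := by rw [norm_mul, norm_pow]; ring
      _ ≤ ρ * B := mul_le_mul_of_nonneg_left (hB k hk hk0) hρ.le
  calc ‖σ α - α‖ ≤ ρ * B := hbound
    _ < ρ * 1 := mul_lt_mul_of_pos_left hB1 hρ
    _ = ρ := mul_one ρ

end orth

section interp

variable {F : Type*} [Field F]

/-- **Lagrange interpolation with invariance.**  Nodes `γ i` (distinct) and values `v i` indexed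
by a finite type, a ring endomorphism `σ` and a permutation `π` of the indices with
`σ (γ i) = γ (π i)`, `σ (v i) = v (π i)`: the coefficients of the interpolation polynomial are
fixed by `σ`. -/
theorem coeff_interp_fixed {ι : Type*} [Fintype ι] [DecidableEq ι] (γ v : ι → F)
    (hγ : Function.Injective γ) (σ : F →+* F) (π : ι → ι) (hπ : Function.Surjective π)
    (h1 : ∀ i, σ (γ i) = γ (π i)) (h2 : ∀ i, σ (v i) = v (π i)) (k : ℕ) :
    σ ((Lagrange.interpolate Finset.univ γ v).coeff k) =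
      (Lagrange.interpolate Finset.univ γ v).coeff k := by
  set Q := Lagrange.interpolate Finset.univ γ v with hQ
  have hinj : Set.InjOn γ (Finset.univ : Finset ι) := hγ.injOn
  have hdeg : (Q.map σ).degree < (Finset.univ : Finset ι).card := by
    refine lt_of_le_of_lt (Polynomial.degree_map_le) ?_
    exact Lagrange.degree_interpolate_lt v hinj
  have hval : ∀ j, (Q.map σ).eval (γ j) = v j := by
    intro j
    obtain ⟨i, rfl⟩ := hπ j
    rw [← h1 i, Polynomial.eval_map, Polynomial.eval₂_hom,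
      Lagrange.eval_interpolate_at_node v hinj (Finset.mem_univ i), h2]
  have hQ' : Q.map σ = Q := by
    rw [Lagrange.eq_interpolate hinj hdeg, hQ]
    congr 1
    funext j
    exact hval j
  have := congrArg (fun q : F[X] => q.coeff k) hQ'
  simpa [Polynomial.coeff_map] using this

/-- The value at a node as a polynomial expression of degree `< card` in the node. -/
theorem interp_eval_eq_sum {ι : Type*} [Fintype ι] [DecidableEq ι] (γ v : ι → F)
    (hγ : Function.Injective γ) (i : ι) :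
    v i = ∑ k ∈ Finset.range (Fintype.card ι),
      (Lagrange.interpolate Finset.univ γ v).coeff k * γ i ^ k := by
  have hinj : Set.InjOn γ (Finset.univ : Finset ι) := hγ.injOn
  have hdeg : (Lagrange.interpolate Finset.univ γ v).degree < (Fintype.card ι : ℕ) := by
    have := Lagrange.degree_interpolate_lt v hinj
    simpa using this
  have h := Lagrange.eval_interpolate_at_node v hinj (Finset.mem_univ i)
  have hnat : (Lagrange.interpolate Finset.univ γ v).natDegree < Fintype.card ι := by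
    by_cases hQ0 : Lagrange.interpolate Finset.univ γ v = 0
    · rw [hQ0, Polynomial.natDegree_zero]
      exact Fintype.card_pos_iff.2 ⟨i⟩
    · exact (Polynomial.natDegree_lt_iff_degree_lt hQ0).2 hdeg
  rw [← h]
  exact Polynomial.eval_eq_sum_range' hnat _

end interp

end Fermat.Agent.S59.TRes.H49

end
-- ==== END Fermat.Agent.S59.TRes.H49_Contr

-- ==== BEGIN Fermat.Agent.S59.TRes.H49_Dict
section

/-!
# S59, leaf TRES (helper49): dictionary between `padicPlace p` and the `p`-adic norm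
-/

set_option autoImplicit false

namespace Fermat.Agent.S59.TRes.H49

open Fermat.Agent.Lib.LocalGlobalDense

variable (p : ℕ) [Fact p.Prime]

example (c : ℚ_[p]) : ‖algebraMap ℚ_[p] (PadicAlgCl p) c‖ = ‖c‖ := norm_algebraMap' _ c

/-- Dictionary: the valuation of `padicPlace p` versus the `p`-adic norm. -/
theorem val_le_iff (x y : AlgebraicClosure ℚ) :
    (padicPlace p).valuation x ≤ (padicPlace p).valuation y ↔
      ‖padicEmbedding p x‖ ≤ ‖padicEmbedding p y‖ := by
  by_cases hy : y = 0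
  · subst hy
    rw [map_zero, map_zero, norm_zero, le_zero_iff, map_eq_zero, norm_le_zero_iff, map_eq_zero]
  · have hvy : 0 < (padicPlace p).valuation y := zero_lt_iff.2 (by simpa using hy)
    have hny : 0 < ‖padicEmbedding p y‖ := norm_pos_iff.2 (by simpa using hy)
    rw [← div_le_one₀ hvy, ← map_div₀, ValuationSubring.valuation_le_one_iff,
      ← absQ_le_one_iff, absQ_apply, map_div₀, norm_div, div_le_one₀ hny]

theorem val_lt_iff (x y : AlgebraicClosure ℚ) :
    (padicPlace p).valuation x < (padicPlace p).valuation y ↔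
      ‖padicEmbedding p x‖ < ‖padicEmbedding p y‖ := by
  rw [← not_le, ← not_le, val_le_iff]

theorem val_eq_iff (x y : AlgebraicClosure ℚ) :
    (padicPlace p).valuation x = (padicPlace p).valuation y ↔
      ‖padicEmbedding p x‖ = ‖padicEmbedding p y‖ := by
  rw [le_antisymm_iff, le_antisymm_iff, val_le_iff, val_le_iff]

/-- The distinguished place lies over `p`. -/
theorem padicPlace_liesOver49 : (padicPlace p).LiesOverPrime p := by
  show ((p : ℕ) : AlgebraicClosure ℚ) ∈ (padicPlace p).nonunits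
  rw [ValuationSubring.mem_nonunits_iff_or]
  right
  rw [← absQ_le_one_iff, map_inv₀, absQ_natCast_self, inv_inv, not_le]
  exact_mod_cast (Fact.out : p.Prime).one_lt

theorem norm_emb_natCast_self : ‖padicEmbedding p (p : AlgebraicClosure ℚ)‖ = (p : ℝ)⁻¹ :=
  absQ_natCast_self p

/-- The norm of an integer. -/
theorem norm_emb_intCast (z : ℤ) (hz : z ≠ 0) :
    ‖padicEmbedding p (z : AlgebraicClosure ℚ)‖ = ((p : ℝ)⁻¹) ^ (padicValInt p z) := by
  rw [map_intCast]
  have h1 : ((z : ℤ) : PadicAlgCl p) = algebraMap ℚ_[p] (PadicAlgCl p) ((z : ℚ) : ℚ_[p]) := by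
    rw [Rat.cast_intCast, map_intCast]
  rw [h1, norm_algebraMap', Padic.eq_padicNorm, padicNorm.eq_zpow_of_nonzero (by exact_mod_cast hz),
    padicValRat.of_int]
  push_cast
  rw [zpow_neg, zpow_natCast, inv_pow]

end Fermat.Agent.S59.TRes.H49

end
-- ==== END Fermat.Agent.S59.TRes.H49_Dict

-- ==== BEGIN Fermat.Agent.S59.TRes.H49_Ell
section

/-!
# S59, leaf TRES (helper49): elliptic prerequisites of the assembly

`xc` (the `x`-coordinate), its Galois equivariance, `e1Sub` (the kernel of reduction as a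
subgroup), points with the same `x`-coordinate.
-/

set_option autoImplicit false

open WeierstrassCurve WeierstrassCurve.Affine

namespace Fermat.Agent.S59.TRes.H49

open Fermat.Agent.S52.H5 Fermat.Agent.S05 Fermat.Agent.Lib.PointVariableChange

section xc

variable {F : Type*} [Field F]

/-- The `x`-coordinate, with junk value `0` at the origin. -/
def xc {W : Affine F} : W.Point → F
  | .zero => 0
  | .some x _ _ => x

@[simp] lemma xc_some {W : Affine F} {x y : F} (h : W.Nonsingular x y) :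
    xc (Point.some x y h) = x := rfl

/-- Nonzero points with the same `x`-coordinate are equal or opposite. -/
theorem eq_or_eq_neg_of_xc_eq [DecidableEq F] {W : Affine F} {Q₁ Q₂ : W.Point} (h₁ : Q₁ ≠ 0)
    (h₂ : Q₂ ≠ 0) (h : xc Q₁ = xc Q₂) : Q₁ = Q₂ ∨ Q₁ = -Q₂ := by
  rcases Q₁ with _ | ⟨x₁, y₁, n₁⟩
  · exact absurd rfl h₁
  rcases Q₂ with _ | ⟨x₂, y₂, n₂⟩
  · exact absurd rfl h₂
  simp only [xc_some] at h
  subst h
  rcases Y_eq_of_X_eq n₁.left n₂.left rfl with hy | hy
  · left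
    subst hy
    rfl
  · right
    rw [Point.neg_some]
    subst hy
    rfl

end xc

section gal

variable (W : WeierstrassCurve ℤ)

/-- The `x`-coordinate is Galois equivariant. -/
theorem xc_smul (σ : Qb ≃ₐ[ℚ] Qb) (Q : (EQ W).Point) : xc (σ • Q) = σ (xc Q) := by
  rcases Q with _ | ⟨x, y, h⟩
  · exact (map_zero σ).symm
  · rfl

end gal

section model

variable {L : Type*} [Field L] [DecidableEq L]

/-- The kernel of reduction as a subgroup. -/
def e1Sub (A : ValuationSubring L) (W : Affine L) (hyp : ModelHyp A W) : AddSubgroup W.Point where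
  carrier := {Q | InE1 A Q}
  zero_mem' := trivial
  add_mem' := fun {P Q} hP hQ => H28.stmt_E1_add_of line A W hyp P Q hP hQ
  neg_mem' := by
    intro Q hQ
    rcases Q with _ | ⟨x, y, h⟩
    · exact hQ
    · exact hQ

lemma mem_e1Sub {A : ValuationSubring L} {W : Affine L} (hyp : ModelHyp A W) (Q : W.Point) :
    Q ∈ e1Sub A W hyp ↔ InE1 A Q := Iff.rfl

/-- The `x`-coordinate under a change of variables. -/
lemma xc_equiv (E : Affine L) (C : VariableChange L) {x y : L}
    (h : (C • E).toAffine.Nonsingular x y) : xc (equiv E C (.some x y h)) = vcX C x := rfl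

end model

end Fermat.Agent.S59.TRes.H49

end
-- ==== END Fermat.Agent.S59.TRes.H49_Ell
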