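-- GENERATED (merged mirror, NOTES/tools/trim/merge3_helper67.py): 24 modules of the originals, bodies verbatim.
import Mathlib.RingTheory.Smooth.Field
import Mathlib.RingTheory.Etale.Kaehler
import Mathlib.RingTheory.Kaehler.Polynomial
import Mathlib.FieldTheory.FinTrdeg
import Fermat.Agent.Zm.S44_L12_000
import Fermat.Agent.Zm.S59_L01_000
import Fermat.Agent.Zm.S35_L21_000
import Fermat.Agent.Zm.S44_L16_000
import Fermat.Agent.Zm.S44_L15_000
import Fermat.Agent.BADP3.H28_HDrop2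
import Fermat.Agent.Zm.S44_L04_000
import Fermat.Agent.Zm.S43_L17_000
import Fermat.Agent.Zm.S43_L12_000
import Fermat.Agent.Zm.S43_L01_001
import Fermat.Agent.Zm.S33_L01_005
import Fermat.Agent.Zm.S43_L11_000
import Fermat.Agent.Zm.S35_L08_004
import Fermat.Agent.Zm.S43_L18_001
import Fermat.Agent.Zm.S43_L13_001
import Fermat.Agent.Zm.S43_L17_001
import Fermat.Agent.Zm.S43_L17_002
import Fermat.Agent.Zm.S43_L16_001
import Fermat.Agent.Zm.S43_L12_001
import Fermat.Agent.Zm.S59_L01_001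
import Fermat.Agent.Zm.S59_L01_005
import Fermat.Agent.Zm.S33_L01_003

-- ==== BEGIN Fermat.Agent.BADP3.H33_ModP
section

set_option autoImplicit false
set_option linter.style.haveILetI false
set_option synthInstance.maxHeartbeats 400000
set_option maxHeartbeats 1000000

noncomputable section

open HahnSeries IntermediateField AlgebraicCurve ModularCurve
open Fermat.Agent.S28.H73 Fermat.Agent.RED.H73 Fermat.Agent.RED Fermat.Agent.S24
open Fermat.Agent.BAD.H88

namespace Fermat.Agent.BADP3.H33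

open Fermat.Agent.BADP

open Fermat.Agent.BAD Fermat.Agent.BAD.H91 Fermat.Agent.S43.BadQ

/-- speed: shortcut for an instance which is synthesised many times in this file. -/
local instance (priority := 100000) speedH93_kV_F1 (A : ValuationSubring (AlgebraicClosure ℚ))
    (q M : ℕ) [NeZero (M * q)] : Algebra (kV A) (F1 A q M) := inferInstance

/-- speed: shortcut for an instance which is synthesised many times in this file. -/
local instance (priority := 100000) speedH93_kV_RedF (A : ValuationSubring (AlgebraicClosure ℚ))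
    (N : ℕ) [NeZero N] : Algebra (kV A) (RedF A N) := inferInstance

/-- The law of total conservation for the modular datum (helper23's `tot_mod`). -/
theorem totMod : Fermat.Agent.BAD.H91.Stmt_TotMod :=
  fun A q M a b hab hq _ _ hA hqM ht =>
    Fermat.Agent.BAD.H23.tot_mod A q M a b hab hq hA hqM ht
      (Fermat.Agent.BAD.H82.redField_eq_fullC q M a b hab hq A hA)

/-- `p ∤ M` from a Bezout relation. -/
theorem not_dvd_of_bezout {p M : ℕ} {a b : ℤ} (hab : a * p + b * M = 1) (hp : p.Prime) :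
    ¬ p ∣ M := by
  intro h
  have h1 : (p : ℤ) ∣ a * p + b * M :=
    dvd_add (Dvd.intro_left a rfl) (Dvd.dvd.mul_left (Int.natCast_dvd_natCast.2 h) b)
  rw [hab] at h1
  have h2 : (p : ℤ) ≤ 1 := Int.le_of_dvd one_pos h1
  have := hp.two_le
  omega

theorem neZero_left (M p : ℕ) [NeZero (M * p)] : NeZero M :=
  ⟨fun h0 => NeZero.ne (M * p) (by rw [h0, zero_mul])⟩

section Datum

variable (A : ValuationSubring (AlgebraicClosure ℚ)) (p M : ℕ) (a b : ℤ)
  (hab : a * p + b * M = 1) (hp : p.Prime) [NeZero (M * p)] (ht : Fermat.Agent.BAD.H91.TameAt M p)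
  (hA : A.LiesOverPrime p)

/-- The bijection `β` between the places of the two components (helper73's `betaF1`). -/
def modBeta : Place (kV A) (F1 A p M) ≃ Place (kV A) (F1 A p M) :=
  H73.betaF1 A p M hp hA M (H82.redField_eq_fullC p M a b hab hp A hA)

include ht in
/-- The modular total conservation datum at `p ≥ 5`, `p ∤ M`. -/
def modTot : H79.TotData Kbar (FN (M * p)) (kV A) (F1 A p M) (F1 A p M) :=
  haveI : NeZero M := neZero_left M p
  haveI : NeZero p := ⟨hp.ne_zero⟩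
  modT a b hab hp hA (not_dvd_of_bezout hab hp) ht (modBeta A p M a b hab hp hA)
    (totMod A p M a b hab hp hA (not_dvd_of_bezout hab hp) ht)

/-- `F_N ℚ̄` is a function field: the basic hypotheses. -/
theorem ffHyp : RED.H17.FFHyp Kbar ↥(FNbar (M * p)) :=
  RED.H17.ffHyp_of_isFF _ _ (H95.stmt_HKA_isFF (M * p))

include hab hp hA ht in
/-- The reduced field is a function field. -/
theorem isFF_red : IsFF (kV A) (F1 A p M) :=
  haveI : NeZero M := neZero_left M p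
  isFF_F1 a b hab hp hA (not_dvd_of_bezout hab hp) ht

include hab hp hA ht in
/-- The reduced field is a function field: the basic hypotheses. -/
theorem ffHyp₁ : RED.H17.FFHyp (kV A) (F1 A p M) :=
  haveI : IsAlgClosed (kV A) := isAlgClosed_kV A
  RED.H17.ffHyp_of_isFF _ _ (isFF_red A p M a b hab hp ht hA)

/-- The genera, the nodes coming from NUM and the numerical inequality. -/
theorem exists_nodes_genus :
    ∃ (Z : Finset (Place (kV A) (F1 A p M))) (g g₁ : ℕ) (c c₁ : ℤ), Z.Nonempty ∧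
      (∀ z ∈ Z, (modTot A p M a b hab hp ht hA).IsNode z) ∧
      RED.H17.IsGenus Kbar ↥(FNbar (M * p)) g c ∧
      RED.H17.IsGenus (kV A) (F1 A p M) g₁ c₁ ∧ g + 1 ≤ g₁ + g₁ + Z.card := by
  have hqM : ¬ p ∣ M := not_dvd_of_bezout hab hp
  haveI : NeZero M := neZero_left M p
  haveI : NeZero p := ⟨hp.ne_zero⟩
  haveI : IsAlgClosed (kV A) := isAlgClosed_kV A
  have hFFL : IsFF Kbar ↥(FNbar (M * p)) := H95.stmt_HKA_isFF (M * p)
  have hFF1 : IsFF (kV A) (F1 A p M) := isFF_F1 a b hab hp hA hqM ht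
  obtain ⟨g, c, hg⟩ := RED.H17.exists_isGenus _ _ hFFL
  obtain ⟨g₁, c₁, hg₁⟩ := RED.H17.exists_isGenus _ _ hFF1
  have hg₁' : RED.H17.IsGenus (kV A) ↥(Fermat.Agent.BAD.H91.redM A M) g₁ c₁ :=
    isGenus_congr (H82.redField_eq_redField p M a b hab hp A hA) hg₁
  obtain ⟨Z, hZne, hZc, hZo, hnum⟩ :=
    Fermat.Agent.BAD.H30.num_final_tame M p hp ht hqM A hA (Dvd.intro_left M rfl)
  refine ⟨Z.map (kappa A p M a b hab hp hA).symm.toEmbedding, g, g₁, c, c₁, hZne.map, ?_,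
    hg, hg₁, ?_⟩
  · intro z hz
    obtain ⟨z₀, hz₀, rfl⟩ := Finset.mem_map.mp hz
    exact isNode_modT a b hab hp hA hqM ht _ _ _ z₀ (hZc z₀ hz₀) (hZo z₀ hz₀)
  · rw [Finset.card_map]
    exact Fermat.Agent.BAD.H17.genus_ineq hp hqM ht hA hg hg₁' Z.card hnum

/-- The modular datum has a node. -/
theorem exists_node : ∃ z, (modTot A p M a b hab hp ht hA).IsNode z := by
  obtain ⟨Z, -, -, -, -, ⟨z, hz⟩, hZ, -⟩ := exists_nodes_genus A p M a b hab hp ht hA
  exact ⟨z, hZ z hz⟩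

/-- **The modular semistable Deuring datum at `p ≥ 5`, `p ∤ M`.** -/
def modS : SSD (AlgebraicClosure ℚ) ↥(FNbar (M * p)) (kV A) (RedF A (M * p)) (RedF A (M * p)) :=
  haveI : IsAlgClosed (kV A) := isAlgClosed_kV A
  (modTot A p M a b hab hp ht hA).toSSD (ffHyp p M).principal (ffHyp p M).deg_one
    (ffHyp₁ A p M a b hab hp ht hA).principal (ffHyp₁ A p M a b hab hp ht hA).deg_one
    (ffHyp₁ A p M a b hab hp ht hA).deg_one (exists_node A p M a b hab hp ht hA)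

/-! ### The fields of `modS` -/

theorem modS_c₁_V : (modS A p M a b hab hp ht hA).c₁.V = gaussV A (M * p) := rfl

theorem modS_c₂_V : (modS A p M a b hab hp ht hA).c₂.V = V2 A p M a b hab hp := rfl

theorem modS_c₁_red : (modS A p M a b hab hp ht hA).c₁.red = red1 A p M := rfl

theorem modS_c₂_red : (modS A p M a b hab hp ht hA).c₂.red = red2 A p M a b hab hp := rfl

theorem modS_c₁_r : (modS A p M a b hab hp ht hA).c₁.r = (modTot A p M a b hab hp ht hA).r₁ :=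
  rfl

theorem modS_c₂_r : (modS A p M a b hab hp ht hA).c₂.r = (modTot A p M a b hab hp ht hA).r₂ :=
  rfl

theorem modS_nodes : (modS A p M a b hab hp ht hA).nodes =
    haveI : IsAlgClosed (kV A) := isAlgClosed_kV A
    (modTot A p M a b hab hp ht hA).nodes (ffHyp p M).principal
      (ffHyp₁ A p M a b hab hp ht hA).principal := rfl

theorem modTot_ρ : (modTot A p M a b hab hp ht hA).ρ =
    haveI : NeZero M := neZero_left M p
    rhoF1 a b hab hp hA (not_dvd_of_bezout hab hp) ht := rfl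

theorem modTot_β : (modTot A p M a b hab hp ht hA).β = modBeta A p M a b hab hp hA := rfl

/-- **The modular datum is a modular datum.** -/
theorem isModDatum_modS : IsModDatum A p M a b hab hp (modS A p M a b hab hp ht hA) := by
  have hqM : ¬ p ∣ M := not_dvd_of_bezout hab hp
  haveI : NeZero M := neZero_left M p
  haveI : NeZero p := ⟨hp.ne_zero⟩
  haveI : IsAlgClosed (kV A) := isAlgClosed_kV A
  obtain ⟨Z, g, g₁, c, c₁, -, hZ, hg, hg₁, hnum⟩ := exists_nodes_genus A p M a b hab hp ht hA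
  have hcard := (modTot A p M a b hab hp ht hA).card_le_toSSD_nodes (ffHyp p M).principal
    (ffHyp p M).deg_one (ffHyp₁ A p M a b hab hp ht hA).principal
    (ffHyp₁ A p M a b hab hp ht hA).deg_one (ffHyp₁ A p M a b hab hp ht hA).deg_one
    (exists_node A p M a b hab hp ht hA) Z hZ
  refine
    { mem₁ := fun f => Iff.rfl
      red₁ := fun f hf => rfl
      mem₂ := fun f => Iff.rfl
      red₂ := fun f hf hf' => rfl
      ff := ffHyp p M
      ff₁ := ffHyp₁ A p M a b hab hp ht hA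
      genus := ⟨g, g₁, c, c₁, hg, hg₁, ?_⟩
      inertial := ?_ }
  · have h : Z.card ≤ (modS A p M a b hab hp ht hA).nodes.card := hcard
    omega
  · intro s hs
    exact (inert_totDataOf A p M a b hab hp hA (modBeta A p M a b hab hp hA)
      (rhoF1 a b hab hp hA hqM ht) (totMod A p M a b hab hp hA hqM ht)
      (hunif_mod a b hab hp hA hqM ht) hs
      (fun P => rhoF1_inertia a b hab hp hA hqM ht hs P)).isInertial
        (ffHyp p M).principal (ffHyp p M).deg_one (ffHyp₁ A p M a b hab hp ht hA).principal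
        (ffHyp₁ A p M a b hab hp ht hA).deg_one (ffHyp₁ A p M a b hab hp ht hA).deg_one
        (exists_node A p M a b hab hp ht hA)

end Datum

/-- **(MOD-P)**: the modular semistable Deuring datum at `p ≥ 5`, `p ∤ M`, exists. -/
theorem stmt_ModT : Stmt_ModT := fun p M ht a b hab hp _ A hA =>
  ⟨modS A p M a b hab hp ht hA, isModDatum_modS A p M a b hab hp ht hA⟩

end Fermat.Agent.BADP3.H33

end
end
-- ==== END Fermat.Agent.BADP3.H33_ModP

-- ==== BEGIN Fermat.Agent.BADP3.H57_RayTame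
section

/-!
# BAD_3 (S39 at `p = 3`, for S59-LL), leaf RAY at the tame levels (helper57)

`rayK3x_tame` : the statement (RAY-K3x) at every TAME level `(M, p)` (`BAD.H91.TameAt M p`:
`5 ≤ p`, or `p = 3` and `2 ∣ M`, or `p = 2` and `3 ∣ M`), `p` odd, `p ∤ M`: the connected part
`G0 = K1 ∩ w K1` of `J₀(M p)[p]` has no non-zero element fixed by the stabiliser in the inertia
group of a good `p`-th root of an integer prime to `p`.

From `rayMod_at` (`BADP3/H57_RayMod.lean`) with helper21's datum `BADP.H21.theS`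
(`isModDatum_theS`) and helper11's ARITH-0 (`BADP.H11.isK0Lift_mod`).
-/

set_option autoImplicit false
set_option linter.style.haveILetI false
set_option linter.unusedSectionVars false
set_option synthInstance.maxHeartbeats 400000
set_option maxHeartbeats 1000000

noncomputable section

open AlgebraicCurve ModularCurve

namespace Fermat.Agent.BADP3.H57

open Fermat.Agent.BAD Fermat.Agent.S44 Fermat.Agent.S43.BadQ Fermat.Agent.S28.H73
  Fermat.Agent.RED.H73 Fermat.Agent.S24 Fermat.Agent.BADP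

/-- **(RAY-K3x) at the tame levels**, every odd prime `p`. -/
theorem rayK3x_tame
    (p : ℕ) (hp2 : p ≠ 2) (M : ℕ) (a b : ℤ) (hab : a * p + b * M = 1) (hp : p.Prime)
    [NeZero M] [NeZero (M * p)] [NeZero p]
    (A : ValuationSubring (AlgebraicClosure ℚ)) (hA : A.LiesOverPrime p)
    (hpM : ¬ p ∣ M) (ht : Fermat.Agent.BAD.H91.TameAt M p)
    (x : (jzModule (M * p) p).J) (u : ℤ) (ω : AlgebraicClosure ℚ)
    (hx : InK1 A (M * p) p (jzModule.pt (M * p) p x))
    (hwx : InK1 A (M * p) p (wS p M a b hab hp • jzModule.pt (M * p) p x))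
    (hu : ¬ (p : ℤ) ∣ u) (hgood : IsGoodRoot p A u ω)
    (hfix : ∀ σ ∈ A.inertiaSubgroupIn ℚ, σ ω = ω → (jzModule (M * p) p).gal σ x = x) :
    x = 0 :=
  rayMod_at p hp2 M a b hab hp A hA (Fermat.Agent.BADP.H21.theS A p M a b hab hp hA hpM ht)
    (Fermat.Agent.BADP.H21.isModDatum_theS A p M a b hab hp hA hpM ht)
    (Fermat.Agent.BADP.H11.isK0Lift_mod hA
      (Fermat.Agent.BADP.H21.isModDatum_theS A p M a b hab hp hA hpM ht) _ (fun _ hτ => hτ))
    x u ω hx hwx hu hgood hfix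

end Fermat.Agent.BADP3.H57

end
end
-- ==== END Fermat.Agent.BADP3.H57_RayTame

-- ==== BEGIN Fermat.Agent.BADP3.H66_EisModT
section
attribute [local instance 10000] SubalgebraClass.toAlgebra
attribute [local instance 10000] HahnSeries.powerSeriesAlgebra

set_option autoImplicit false
set_option linter.style.haveILetI false
set_option linter.unusedSectionVars false
set_option synthInstance.maxHeartbeats 400000
set_option maxHeartbeats 1000000

noncomputable section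

open AlgebraicCurve ModularCurve

namespace Fermat.Agent.BADP3.H66

open Fermat.Agent.BAD Fermat.Agent.S44 Fermat.Agent.S43.BadQ Fermat.Agent.S28.H73
  Fermat.Agent.RED.H73 Fermat.Agent.BADP Fermat.Agent.BADP.H18E

/-! ## From the nodes to the Eisenstein pair modulo `p ^ 2` -/

section Final

variable (A : ValuationSubring (AlgebraicClosure ℚ)) (p M : ℕ) (a b : ℤ)
  (hab : a * p + b * M = 1) (hp : p.Prime) [NeZero (M * p)] [NeZero p]

include hab hp in
/-- The Eisenstein pair modulo `p ^ 2` from the congruences at the nodes. -/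
theorem eisPair2_of_nodes
    (S : SSD (AlgebraicClosure ℚ) ↥(FNbar (M * p)) (kV A) (RedF A (M * p)) (RedF A (M * p)))
    (hS : IsModDatumU A p M a b hab hp S) (x : JZero (M * p))
    (D : Divisor.degZero (K := AlgebraicClosure ℚ) (F := ↥(FNbar (M * p))))
    (f : ↥(FNbar (M * p))) (hfV : f ∈ gaussV A (M * p))
    (hfr : gaussRes A (M * p) ⟨f, hfV⟩ ≠ 0) (hx : x = Pic0.mk D)
    (hD : ∀ P : Place (AlgebraicClosure ℚ) ↥(FNbar (M * p)),
      (p : ℤ) * (D : Divisor (AlgebraicClosure ℚ) ↥(FNbar (M * p))) P = P.ord f)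
    (m : ℤ)
    (hm : ∀ s ∈ S.nodes, (p : ℤ) ^ 2 ∣ p * s.1.ord (S.c₁.rd f) -
      m * s.1.ord (S.c₁.rd (Fermat.Agent.BAD.H30.unitF (M * p) p (Dvd.intro_left M rfl)))) :
    IsEisPair2 A (M * p) p (Dvd.intro_left M rfl) x D ⟨f, hfV⟩ m := by
  set U := Fermat.Agent.BAD.H30.unitF (M * p) p (Dvd.intro_left M rfl) with hUdef
  have hUV : U ∈ gaussV A (M * p) :=
    Fermat.Agent.BAD.H30.unitF_mem_gaussV A (M * p) p (Dvd.intro_left M rfl)
  have hUr : gaussRes A (M * p) ⟨U, hUV⟩ ≠ 0 :=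
    Fermat.Agent.BAD.H30.gaussRes_unitF_ne_zero A (M * p) p (Dvd.intro_left M rfl)
  have hfS : f ∈ S.c₁.V := (hS.datum.mem₁ f).2 hfV
  have hUS : U ∈ S.c₁.V := (hS.datum.mem₁ U).2 hUV
  have hrdf : S.c₁.rd f = gaussRes A (M * p) ⟨f, hfV⟩ := by
    rw [S.c₁.rd_of_mem hfS]
    exact hS.datum.red₁ ⟨f, hfV⟩ hfS
  have hrdU : S.c₁.rd U = gaussRes A (M * p) ⟨U, hUV⟩ := by
    rw [S.c₁.rd_of_mem hUS]
    exact hS.datum.red₁ ⟨U, hUV⟩ hUS
  have hU0 : U ≠ 0 := by
    rintro h0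
    apply hUr
    have : (⟨U, hUV⟩ : ↥(gaussV A (M * p))) = 0 := Subtype.ext h0
    rw [this, map_zero]
  -- the good places
  have hgood : ∀ Q ∈ S.c₁.good, (p : ℤ) ∣ Q.ord (gaussRes A (M * p) ⟨f, hfV⟩) := by
    intro Q hQ
    have h1 := S.c₁.DI ⟨f, hfS⟩ (by rw [← S.c₁.rd_of_mem hfS, hrdf]; exact hfr)
      ((p : ℤ) • (D : Divisor (AlgebraicClosure ℚ) ↥(FNbar (M * p))))
      (fun P => by rw [Finsupp.smul_apply, smul_eq_mul]; exact hD P) Q hQ
    rw [← S.c₁.rd_of_mem hfS, hrdf, Finsupp.mapDomain_smul, Finsupp.smul_apply,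
      smul_eq_mul] at h1
    exact ⟨_, h1.symm⟩
  have hgoodU : ∀ Q ∈ S.c₁.good, 0 ≤ Q.ord (Fermat.Agent.BAD.H91.jRed A (M * p)) →
      Q.ord (gaussRes A (M * p) ⟨U, hUV⟩) = 0 := by
    intro Q hQ hj
    obtain ⟨DU, hDU, -⟩ := hS.datum.ff.principal.exists_divisor U hU0
    have h1 := S.c₁.DI ⟨U, hUS⟩ (by rw [← S.c₁.rd_of_mem hUS, hrdU]; exact hUr) DU hDU Q hQ
    rw [← S.c₁.rd_of_mem hUS, hrdU] at h1
    rw [← h1]
    refine mapDomain_eq_zero _ _ _ fun P hP => ?_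
    rw [hDU]
    exact hS.unit_ord P Q hP hj
  refine ⟨hx, hfr, hD, fun Q => ?_⟩
  by_cases hQ : Q ∈ S.c₁.good
  · refine ⟨fun hj => ?_, fun _ => hgood Q hQ⟩
    have h2 : Q.ord (unitRed A (M * p) p (Dvd.intro_left M rfl)) = 0 := hgoodU Q hQ hj
    rw [h2, mul_zero, sub_zero, pow_two]
    exact mul_dvd_mul_left _ (hgood Q hQ)
  · have hnode : ∃ s ∈ S.nodes, s.1 = Q := by
      by_contra hcon
      apply hQ
      refine (S.good₁ Q).2 fun s hs hsQ => hcon ⟨s, hs, hsQ⟩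
    obtain ⟨s, hs, rfl⟩ := hnode
    refine ⟨fun _ => ?_, fun hj => absurd (hS.cusp_good _ hj) hQ⟩
    have h3 := hm s hs
    rw [hrdf, hrdU] at h3
    exact h3

end Final

/-! ## The main theorem -/

section Main

theorem not_sq_dvd_twelve {p : ℕ} (hp : p.Prime) (hp2 : p ≠ 2) : ¬ p ^ 2 ∣ 12 := by
  intro h
  have h3 : 3 ≤ p := by
    have := hp.two_le
    omega
  have h9 : 9 ≤ p ^ 2 := by nlinarith
  have hle := Nat.le_of_dvd (by norm_num) h
  have h4 : p ≤ 3 := by nlinarith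
  have hp3 : p = 3 := le_antisymm h4 h3
  subst hp3
  norm_num at h

/-- **EIS-MOD-T.** -/
theorem stmt_EisModT : Stmt_EisModT := by
  intro hMod hK0 hCmp hW hAbs hTame hThick p _ hp hp2 M hpM ht _ A hA x Y u hY hsub hu hfix
  obtain ⟨a, b, hab⟩ : ∃ a b : ℤ, a * p + b * M = 1 := by
    have hcop : Nat.Coprime p M := (Nat.Prime.coprime_iff_not_dvd hp).2 hpM
    obtain ⟨a, b, h⟩ := Nat.isCoprime_iff_coprime.2 hcop
    exact ⟨a, b, h⟩
  haveI : IsAlgClosed (kV A) := isAlgClosed_kV A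
  haveI hchar : CharP (kV A) p := Fermat.Agent.BAD.H82.charP_kV A hp hA
  have hp0 : (p : AlgebraicClosure ℚ) ≠ 0 := by exact_mod_cast hp.ne_zero
  -- the datum
  obtain ⟨S, hS⟩ := hMod p M ht a b hab hp A hA
  have hK := hK0 p M a b hab hp A hA S hS.datum
  obtain ⟨g, g₁, c, c₁, hg, hg₁, hnum⟩ := hS.datum.genus
  have hT₁ := const_mem_c1 A p M a b hab hp S hS.datum
  have hT₂ := const_mem_c2 A p M a b hab hp S hS.datum
  have hV₁ : ∀ f, f ∈ gaussV A (M * p) → f ∈ S.c₁.V := fun f hf => (hS.datum.mem₁ f).2 hf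
  have hV₂ : ∀ f, f ∈ Fermat.Agent.BAD.H88.V2 A p M a b hab hp → f ∈ S.c₂.V :=
    fun f hf => (hS.datum.mem₂ f).2 hf
  have hA1₁ := H15.stmt_A1 (M * p) A S.c₁ hV₁
  have hA1₂ := H15.stmt_A1_two A p M a b hab hp S.c₂ hV₂
  have hinert : ∀ τ ∈ inertiaAuts A (M * p), S.IsInertial τ := by
    rintro τ ⟨σ, hσ, rfl⟩
    exact hS.datum.inertial σ hσ
  -- the unit
  set U := Fermat.Agent.BAD.H30.unitF (M * p) p (Dvd.intro_left M rfl) with hUdef
  have hUV : U ∈ gaussV A (M * p) :=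
    Fermat.Agent.BAD.H30.unitF_mem_gaussV A (M * p) p (Dvd.intro_left M rfl)
  have hUr : gaussRes A (M * p) ⟨U, hUV⟩ ≠ 0 :=
    Fermat.Agent.BAD.H30.gaussRes_unitF_ne_zero A (M * p) p (Dvd.intro_left M rfl)
  have hrdU : S.c₁.rd U = gaussRes A (M * p) ⟨U, hUV⟩ := by
    rw [S.c₁.rd_of_mem (hV₁ U hUV)]
    exact hS.datum.red₁ ⟨U, hUV⟩ (hV₁ U hUV)
  have hUGU : S.c₁.IsGU U := by
    refine ⟨hV₁ U hUV, ?_⟩
    rw [hrdU]
    exact hUr
  have hUfix : ∀ τ ∈ inertiaAuts A (M * p), τ • U = U := by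
    rintro τ ⟨σ, hσ, rfl⟩
    exact hS.unit_fixed σ hσ
  have hUnode : ∀ P : Place (AlgebraicClosure ℚ) ↥(FNbar (M * p)), S.IsNodeP P →
      P.ord U = 0 := by
    rintro P ⟨s, hs, hr⟩
    refine hS.unit_ord P s.1 hr ?_
    by_contra hcon
    rw [not_le] at hcon
    exact (S.good₁ s.1).1 (hS.cusp_good s.1 hcon) s hs rfl
  have h12 : (0 : ℕ) < 12 := by norm_num
  have h144 : ¬ p ^ 2 ∣ 12 := not_sq_dvd_twelve hp hp2
  have hthick : ∀ s ∈ S.nodes, ∀ e : ℤ, e * s.1.ord (S.c₁.rd U) = ((12 : ℕ) : ℤ) →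
      ¬ (p : ℤ) ∣ e := by
    intro s hs e he
    rw [hrdU] at he
    have hnc : 0 ≤ s.1.ord (Fermat.Agent.BAD.H91.jRed A (M * p)) := by
      by_contra hcon
      rw [not_le] at hcon
      exact (S.good₁ s.1).1 (hS.cusp_good s.1 hcon) s hs rfl
    exact hThick p hp hp2 M hpM ht A hA s.1 e hnc (by exact_mod_cast he)
  -- the torsion point
  have htors : p • jzModule.pt (M * p) p x = 0 := by
    have h := jzModule.pt_torsion (M * p) p x
    rwa [natCast_zsmul] at h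
  have hu0 : (u : AlgebraicClosure ℚ) ≠ 0 := by
    intro h
    apply hu
    have h1 : u = 0 := by exact_mod_cast h
    rw [h1]
    exact dvd_zero _
  -- a primitive root of unity
  obtain ⟨ζ, hζ⟩ : ∃ ζ : AlgebraicClosure ℚ, IsPrimitiveRoot ζ p := by
    haveI : NeZero (p : AlgebraicClosure ℚ) := ⟨hp0⟩
    exact HasEnoughRootsOfUnity.exists_primitiveRoot (AlgebraicClosure ℚ) p
  -- the descent for `I₁`
  have hdesc1 : ∀ y : ↥(FNbar (M * p)), (∀ τ ∈ stabAuts A (M * p) {ζ}, τ • y = y) →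
      y ∈ IntermediateField.adjoin (H15.fixF (M * p) (H15.inertiaSet A))
        ({algebraMap (AlgebraicClosure ℚ) ↥(FNbar (M * p)) ζ} : Set ↥(FNbar (M * p))) := by
    intro y hy
    refine H15.mem_adjoin_singleton_of_fixed (M * p) A hp hA ζ fun σ hσ hσζ => ?_
    exact hy _ ⟨σ, hσ, fun t ht => by rw [Set.mem_singleton_iff.1 ht]; exact hσζ, rfl⟩
  have hbase1 : ∀ τ ∈ stabAuts A (M * p) {ζ}, SemilinearAut.baseAut τ ζ = ζ := by
    rintro τ ⟨σ, -, hT, rfl⟩
    exact hT ζ rfl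
  -- the final step
  have hfinal : ∀ (D : Divisor.degZero (K := AlgebraicClosure ℚ) (F := ↥(FNbar (M * p))))
      (f : ↥(FNbar (M * p))) (hfV : f ∈ gaussV A (M * p)),
      gaussRes A (M * p) ⟨f, hfV⟩ ≠ 0 → jzModule.pt (M * p) p x = Pic0.mk D →
      (∀ P : Place (AlgebraicClosure ℚ) ↥(FNbar (M * p)),
        (p : ℤ) * (D : Divisor (AlgebraicClosure ℚ) ↥(FNbar (M * p))) P = P.ord f) →
      (∃ m : ℤ, ∀ s ∈ S.nodes,
        (p : ℤ) ^ 2 ∣ p * s.1.ord (S.c₁.rd f) - m * s.1.ord (S.c₁.rd U)) →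
      ∃ (D : Divisor.degZero (K := AlgebraicClosure ℚ) (F := ↥(FNbar (M * p))))
        (f : ↥(gaussV A (M * p))) (c : ℤ),
        IsEisPair2 A (M * p) p (Dvd.intro_left M rfl) (jzModule.pt (M * p) p x) D f c := by
    rintro D f hfV hfr hxD hDf ⟨m, hm⟩
    exact ⟨D, ⟨f, hfV⟩, m, eisPair2_of_nodes A p M a b hab hp S hS _ D f hfV hfr hxD hDf m hm⟩
  have hGU_of : ∀ (f : ↥(FNbar (M * p))) (hfV : f ∈ gaussV A (M * p)),
      gaussRes A (M * p) ⟨f, hfV⟩ ≠ 0 → S.c₁.IsGU f := by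
    intro f hfV hfr
    refine ⟨hV₁ f hfV, ?_⟩
    rw [S.c₁.rd_of_mem (hV₁ f hfV), hS.datum.red₁ ⟨f, hfV⟩ (hV₁ f hfV)]
    exact hfr
  -- the dichotomy
  rcases H97.karith_dichotomy hp hp2 hA u hu hζ with ⟨z, hzK, hz⟩ | ⟨t, ω, σ, htK, -, htω, hσ, hKD⟩
  · -- the tame case
    have hx1 : ∀ τ ∈ stabSub A {ζ}, τ • jzModule.pt (M * p) p x = jzModule.pt (M * p) p x := by
      rintro τ ⟨hτ, hτT⟩
      have hτζ : τ ζ = ζ := hτT ζ rfl
      have hτz : τ z = z := H97.mem_K0.1 hzK τ hτ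
      have h1 := hfix τ hτ (fix_roots hp.pos hζ hτζ)
        (fix_pth_roots hp.pos hζ hτζ hu0 hz hτz)
      rw [← jzModule.pt_gal, h1]
    obtain ⟨D, f, hfV, hf0, hxD, hfr, hDf, hffix⟩ :=
      exists_pair_of_fixed (M * p) A (stabSub A {ζ}) p _ htors hx1
    refine hfinal D f hfV hfr hxD hDf ?_
    refine hTame (AlgebraicClosure ℚ) ↥(FNbar (M * p)) (kV A) (RedF A (M * p)) (RedF A (M * p)) S
      hS.datum.ff hS.datum.ff₁ hS.datum.ff₁ g g₁ g₁ c c₁ c₁ hg hg₁ hg₁ hnum p hp hp2 hchar hp0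
      (inertiaAuts A (M * p)) (stabAuts A (M * p) {ζ}) hinert
      (stabAuts_subset_inertiaAuts A (M * p) {ζ}) hK
      (H15.fixF (M * p) (H15.inertiaSet A)) (mem_F0_iff A p M) ζ hζ
      (val_F0 A p M a b hab hp hA S.c₁ hT₁ hA1₁) (val_F0 A p M a b hab hp hA S.c₂ hT₂ hA1₂)
      hdesc1 hbase1 U 12 hUGU hUfix hUnode hS.unit_two h12 h144 hthick f (hGU_of f hfV hfr)
      (fun P => ⟨_, (hDf P).symm⟩) ?_
    rintro τ ⟨σ, hσ, hT, rfl⟩
    exact hffix σ ⟨hσ, hT⟩
  · -- the wild case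
    have hσζ : σ ζ = ζ := hKD.σζ
    have hσω : σ ω = ζ * ω := hKD.σω
    have hx2 : ∀ τ ∈ stabSub A {ζ, ω},
        τ • jzModule.pt (M * p) p x = jzModule.pt (M * p) p x := by
      rintro τ ⟨hτ, hτT⟩
      have hτζ : τ ζ = ζ := hτT ζ (Set.mem_insert _ _)
      have hτω : τ ω = ω := hτT ω (Set.mem_insert_of_mem _ rfl)
      have hτt : τ t = t := H97.mem_K0.1 htK τ hτ
      have h1 := hfix τ hτ (fix_roots hp.pos hζ hτζ)
        (fix_pth_roots hp.pos hζ hτζ hu0 htω (by rw [map_mul, hτt, hτω]))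
      rw [← jzModule.pt_gal, h1]
    obtain ⟨D, f, hfV, hf0, hxD, hfr, hDf, hffix⟩ :=
      exists_pair_of_fixed (M * p) A (stabSub A {ζ, ω}) p _ htors hx2
    refine hfinal D f hfV hfr hxD hDf ?_
    -- the class `y₀ = σ x - x`
    have hy₀Y : (jzModule (M * p) p).gal σ x - x ∈ Y := hsub σ hσ
    have hY0 := isCycOn_le p M a b hab hp A hp2 hA Y hY hy₀Y
    obtain ⟨hK1, hK1w⟩ := (mem_toric_iff p M a b hab hp p A _).1 hY0
    obtain ⟨D₀, f₀, f₀', h₀, c₀, hf₀V, hf₀'V, hy₀D, hD₀, hr₀, hr₀', hfact⟩ :=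
      hW p M a b hab hp p A _ hK1 hK1w
    have hf₀0 : f₀ ≠ 0 := by
      rintro rfl
      have : (⟨0, hf₀V⟩ : ↥(gaussV A (M * p))) = 0 := rfl
      rw [this, map_zero] at hr₀
      exact zero_ne_one hr₀
    -- the class of `y₀` is fixed by `I₁`
    have hcyc : ∀ τ ∈ A.inertiaSubgroupIn ℚ, τ ζ = ζ →
        τ • (Pic0.mk D₀ : JZero (M * p)) = Pic0.mk D₀ := by
      intro τ hτ hτζ
      have h1 := hY τ hτ 1 (fun ζ' hζ' => by rw [pow_one]; exact fix_roots hp.pos hζ hτζ ζ' hζ')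
        _ hy₀Y
      rw [Nat.cast_one, one_smul] at h1
      have h2 := congrArg (jzModule.pt (M * p) p) h1
      rw [jzModule.pt_gal] at h2
      rw [← hy₀D]
      exact h2
    have hσD : σ • (Pic0.mk D : JZero (M * p)) - Pic0.mk D = Pic0.mk D₀ := by
      rw [← hy₀D, ← hxD]
      rfl
    obtain ⟨e, T, hσf⟩ := kum_sigma (M * p) hCmp p D D₀ f f₀ hf0 hf₀0 hDf hD₀ σ hσD
    -- the data of K-ARITH
    have hσ1 : galF (M * p) σ ∈ stabAuts A (M * p) {ζ} :=
      ⟨σ, hσ, fun t ht => by rw [Set.mem_singleton_iff.1 ht]; exact hσζ, rfl⟩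
    have hkd₁ := H97.kdata_fn hT₁ hA hKD hσ (galF (M * p) σ) (fun _ => rfl)
      (hS.datum.inertial σ hσ).mem₁ (H15.fixF (M * p) (H15.inertiaSet A))
      (fun c hc => H15.const_mem_F0 (M * p) A hc) (fun g hg => H15.galF_F0 (M * p) A hσ hg) hA1₁
    have hkd₂ := H97.kdata_fn hT₂ hA hKD hσ (galF (M * p) σ) (fun _ => rfl)
      (hS.datum.inertial σ hσ).mem₂ (H15.fixF (M * p) (H15.inertiaSet A))
      (fun c hc => H15.const_mem_F0 (M * p) A hc) (fun g hg => H15.galF_F0 (M * p) A hσ hg) hA1₂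
    have hdesc2 : ∀ y : ↥(FNbar (M * p)), (∀ τ ∈ stabAuts A (M * p) {ζ, ω}, τ • y = y) →
        y ∈ IntermediateField.adjoin (H15.fixF (M * p) (H15.inertiaSet A))
          ({algebraMap (AlgebraicClosure ℚ) ↥(FNbar (M * p)) ζ,
            algebraMap (AlgebraicClosure ℚ) ↥(FNbar (M * p)) ω} : Set ↥(FNbar (M * p))) := by
      intro y hy
      refine H15.mem_adjoin_pair_of_fixed (M * p) A hp hA ζ ω fun τ hτ hτζ hτω => ?_
      refine hy _ ⟨τ, hτ, fun t ht => ?_, rfl⟩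
      rcases ht with rfl | ht
      · exact hτζ
      · rw [Set.mem_singleton_iff.1 ht]
        exact hτω
    have hbase2 : ∀ τ ∈ stabAuts A (M * p) {ζ, ω},
        SemilinearAut.baseAut τ ζ = ζ ∧ SemilinearAut.baseAut τ ω = ω := by
      rintro τ ⟨τ', -, hT, rfl⟩
      exact ⟨hT ζ (Set.mem_insert _ _), hT ω (Set.mem_insert_of_mem _ rfl)⟩
    have hσinv : ∀ z : AlgebraicClosure ℚ, σ⁻¹ (σ z) = z := by
      intro z
      rw [← AlgEquiv.mul_apply, inv_mul_cancel]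
      rfl
    have hnorm : ∀ y : ↥(FNbar (M * p)), (∀ τ ∈ stabAuts A (M * p) {ζ, ω}, τ • y = y) →
        ∀ τ ∈ stabAuts A (M * p) {ζ, ω}, τ • (galF (M * p) σ • y) = galF (M * p) σ • y := by
      rintro y hy τ ⟨τ', hτ', hT, rfl⟩
      have hτζ : τ' ζ = ζ := hT ζ (Set.mem_insert _ _)
      have hτω : τ' ω = ω := hT ω (Set.mem_insert_of_mem _ rfl)
      have hmem : galF (M * p) (σ⁻¹ * τ' * σ) ∈ stabAuts A (M * p) {ζ, ω} := by
        refine ⟨σ⁻¹ * τ' * σ,
          Subgroup.mul_mem _ (Subgroup.mul_mem _ (Subgroup.inv_mem _ hσ) hτ') hσ,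
          fun t ht => ?_, rfl⟩
        rcases ht with rfl | ht
        · rw [AlgEquiv.mul_apply, AlgEquiv.mul_apply, hσζ, hτζ]
          have := hσinv t
          rwa [hσζ] at this
        · rw [Set.mem_singleton_iff.1 ht, AlgEquiv.mul_apply, AlgEquiv.mul_apply, hσω, map_mul,
            hτζ, hτω, ← hσω]
          exact hσinv ω
      have h1 := hy _ hmem
      have h2 : galF (M * p) τ' * galF (M * p) σ =
          galF (M * p) σ * galF (M * p) (σ⁻¹ * τ' * σ) := by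
        rw [← map_mul, ← map_mul]
        congr 1
        group
      rw [← mul_smul, h2, mul_smul, h1]
    -- the abstract statement
    refine hAbs (AlgebraicClosure ℚ) ↥(FNbar (M * p)) (kV A) (RedF A (M * p)) (RedF A (M * p)) S
      hS.datum.ff hS.datum.ff₁ hS.datum.ff₁ g g₁ g₁ c c₁ c₁ hg hg₁ hg₁ hnum p hp hp2 hchar hp0
      (inertiaAuts A (M * p)) (stabAuts A (M * p) {ζ}) (stabAuts A (M * p) {ζ, ω}) hinert
      (stabAuts_subset_inertiaAuts A (M * p) {ζ})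
      (stabAuts_mono A (M * p) (by
        intro t ht
        rw [Set.mem_singleton_iff.1 ht]
        exact Set.mem_insert _ _)) hK
      (H15.fixF (M * p) (H15.inertiaSet A)) (mem_F0_iff A p M) ζ ω (galF (M * p) σ) hσ1
      hkd₁ hkd₂ hdesc2 hdesc1 hbase2 hbase1 hnorm U 12 hUGU hUfix hUnode hS.unit_two h12 h144
      hthick f (hGU_of f hfV hfr) (fun P => ⟨_, (hDf P).symm⟩) ?_
      f₀ f₀' h₀ T c₀ e (hV₁ f₀ hf₀V) ?_ (fun P => ⟨_, (hD₀ P).symm⟩)
      ((hS.datum.mem₂ f₀').2 hf₀'V) ?_ hfact ?_ ?_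
    · rintro τ ⟨τ', hτ', hT, rfl⟩
      exact hffix τ' ⟨hτ', hT⟩
    · rw [S.c₁.rd_of_mem (hV₁ f₀ hf₀V), hS.datum.red₁ ⟨f₀, hf₀V⟩ (hV₁ f₀ hf₀V)]
      exact hr₀
    · rw [S.c₂.rd_of_mem ((hS.datum.mem₂ f₀').2 hf₀'V),
        hS.datum.red₂ f₀' ((hS.datum.mem₂ f₀').2 hf₀'V) hf₀'V]
      exact hr₀'
    · rintro τ ⟨τ', hτ', hT, rfl⟩
      exact kum_fix (M * p) hCmp p D₀ f₀ hf₀0 hD₀ τ' (hcyc τ' hτ' (hT ζ rfl))
    · rw [hσf, mul_assoc (algebraMap (AlgebraicClosure ℚ) ↥(FNbar (M * p)) e) f f₀]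

end Main

end Fermat.Agent.BADP3.H66

end
end
-- ==== END Fermat.Agent.BADP3.H66_EisModT

-- ==== BEGIN Fermat.Agent.BADP3.H93_HDropT
section
attribute [local instance 10000] SubalgebraClass.toAlgebra
attribute [local instance 10000] HahnSeries.powerSeriesAlgebra

set_option autoImplicit false
set_option linter.style.haveILetI false
set_option linter.unusedSectionVars false
set_option synthInstance.maxHeartbeats 400000
set_option maxHeartbeats 1000000

noncomputable section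

open AlgebraicCurve ModularCurve Fermat.Agent.S28.H73 Fermat.Agent.RED.H73 Fermat.Agent.RED
open Fermat.Agent.BAD Fermat.Agent.S43.Old.H35 Fermat.Agent.S44 Fermat.Agent.S43.BadQ

namespace Fermat.Agent.BADP3.H93

open Fermat.Agent.BADP Fermat.Agent.BADP.H74

section Core

variable (A : ValuationSubring (AlgebraicClosure ℚ)) (M p ℓ : ℕ) [NeZero M] [NeZero (M * p)]
  [NeZero ℓ] [NeZero p]

/-- **H-DROP2 with values in `Ft A M`.** -/
theorem hdrop_core2 (hp : p.Prime) (hpM : ¬ p ∣ M) (hℓ : ℓ.Prime) (hℓN : ¬ ℓ ∣ M * p)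
    (hA : A.LiesOverPrime p) (hle : Ft A (M * p) ≤ Ft A M)
    (t : ℤ) (ht : ¬ (p : ℤ) ∣ t - ((ℓ : ℤ) + 1))
    (D : Divisor.degZero (K := AlgebraicClosure ℚ) (F := ↥(FNbar (M * p))))
    (f : ↥(gaussV A (M * p)))
    (hf : resTo A (M * p) (Ft A M) hle f ≠ 0)
    (hD : ∀ P : Place (AlgebraicClosure ℚ) ↥(FNbar (M * p)),
      (p : ℤ) * (D : Divisor (AlgebraicClosure ℚ) ↥(FNbar (M * p))) P
        = P.ord ((f : ↥(FNbar (M * p)))))
    (hT : heckeOperatorBar (M * p) ⟨ℓ, hℓ⟩ (Pic0.mk D) = t • Pic0.mk D)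
    (hd : p ∣ M * p) (c : ℤ)
    (hE : ∀ Q : Place (kV A) ↥(Ft A M),
      (0 ≤ Q.ord (jTo A M p (Ft A M) hle) →
        (p : ℤ) ^ 2 ∣ (p : ℤ) * Q.ord (resTo A (M * p) (Ft A M) hle f)
          - c * Q.ord (unitTo A M p hd (Ft A M) hle)) ∧
      (Q.ord (jTo A M p (Ft A M) hle) < 0 →
        (p : ℤ) ∣ Q.ord (resTo A (M * p) (Ft A M) hle f))) :
    ∀ Q : Place (kV A) ↥(Ft A M), (p : ℤ) ∣ Q.ord (resTo A (M * p) (Ft A M) hle f) := by
  have hℓp : ℓ ≠ p := fun h => hℓN (h ▸ dvd_mul_left ℓ M)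
  have hℓM : ¬ ℓ ∣ M := fun h => hℓN (h.mul_right p)
  have hpℓ : ¬ p ∣ ℓ := fun h => hℓp ((Nat.prime_dvd_prime_iff_eq hp hℓ).1 h).symm
  have hpMℓ : ¬ p ∣ M * ℓ := by
    intro h
    rcases (Nat.Prime.dvd_mul hp).1 h with h1 | h1
    · exact hpM h1
    · exact hpℓ h1
  obtain ⟨hα, hβ, hP, hfin, hFI, hNF⟩ := RED.H51.stmt_HKA (M * p) ℓ
  haveI := hP
  have hTI := towerInputs (A := A) (M := M) (ℓ := ℓ) hp hA hpMℓ
  haveI := hTI.hP
  have hdeg := finrank_alphaT A M ℓ p hℓ hℓM hp hpMℓ hA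
  have heig := heig_of_eigen (M * p) ℓ hℓ hα hβ hfin hFI hNF D t hT
  have hjc := coe_jTo A M p (Ft A M) hle
  have hUc := coe_unitTo A M p hp hA hd (Ft A M) hle
  have hU0 : unitTo A M p hd (Ft A M) hle ≠ 0 := by
    intro h0
    rw [h0] at hUc
    exact inv_ne_zero (pow_ne_zero _ (Fermat.Agent.BAD.H30.deltaR_ne_zero (kV A))) hUc.symm
  have htd : ¬ (p : ℤ) ∣ t - (finrankAlong (kV A) (alphaT A M ℓ) : ℤ) := by
    rw [hdeg]
    push_cast
    exact ht
  refine Fermat.Agent.BADP3.H28.hdrop_abs2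
    (fun g hg h => by
      obtain ⟨c', hc'⟩ := Fermat.Agent.GTor.H33.exists_algebraMap_eq_FN (M * p) g hg h
      exact ⟨c', hc'.symm⟩)
    (heckeAlphaBar (AlgebraicClosure ℚ) (M * p) ℓ) (heckeBetaBar (AlgebraicClosure ℚ) (M * p) ℓ)
    hα hβ hfin hNF (alphaT A M ℓ) (betaT A M ℓ) hTI.hα hTI.hβ hTI.hfin hTI.hNF
    (gaussV A (M * p)) (resTo A (M * p) (Ft A M) hle)
    (fun u => resTo_eq_zero_iff A (M * p) (Ft A M) hle u)
    (fun g hg => resTo_scale A (M * p) (Ft A M) hle g hg)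
    (fun c' h => resTo_const A (M * p) (Ft A M) hle c' h)
    (fun g => hnorm_levelN A p M ℓ hp hpM hℓ hℓN hA hle g)
    p hp t htd (D : Divisor (AlgebraicClosure ℚ) ↥(FNbar (M * p))) f hf hD heig
    (unitTo A M p hd (Ft A M) hle) hU0 c
    {Q | Q.ord (jTo A M p (Ft A M) hle) < 0} ?_ ?_ ?_ ?_
  · intro Q hQ
    exact (hE Q).1 (not_lt.mp hQ)
  · intro Q hQ
    exact (hE Q).2 hQ
  · intro Q hQ
    have h1 : 0 ≤ (Q.restrictAlong (alphaT A M ℓ) hTI.hα).ord (jTo A M p (Ft A M) hle) :=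
      not_lt.mp hQ
    have h2 := (ord_along_nonneg_iff (alphaT A M ℓ) hTI.hα Q _).2 h1
    have h3 := ord_betaT_nonneg A M ℓ hp hpℓ hA _ hjc Q h2
    have h4 := (ord_along_nonneg_iff (betaT A M ℓ) hTI.hβ Q _).1 h3
    exact not_lt.mpr h4
  · intro Q hQ
    have h1 : 0 ≤ (Q.restrictAlong (alphaT A M ℓ) hTI.hα).ord (jTo A M p (Ft A M) hle) :=
      not_lt.mp hQ
    have h2 := (ord_along_nonneg_iff (alphaT A M ℓ) hTI.hα Q _).2 h1
    exact ord_betaT_unit A M ℓ hp hpℓ hA _ hjc _ (p - 1) hUc Q h2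

/-- **H-DROP2 with values in an intermediate field `E = Ft A M`.** -/
theorem hdrop_E2 (hp : p.Prime) (hpM : ¬ p ∣ M) (hℓ : ℓ.Prime) (hℓN : ¬ ℓ ∣ M * p)
    (hA : A.LiesOverPrime p)
    (E : IntermediateField (kV A) (LaurentSeries (kV A))) (hME : Ft A M = E)
    (hle : Ft A (M * p) ≤ E)
    (t : ℤ) (ht : ¬ (p : ℤ) ∣ t - ((ℓ : ℤ) + 1))
    (D : Divisor.degZero (K := AlgebraicClosure ℚ) (F := ↥(FNbar (M * p))))
    (f : ↥(gaussV A (M * p)))
    (hf : resTo A (M * p) E hle f ≠ 0)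
    (hD : ∀ P : Place (AlgebraicClosure ℚ) ↥(FNbar (M * p)),
      (p : ℤ) * (D : Divisor (AlgebraicClosure ℚ) ↥(FNbar (M * p))) P
        = P.ord ((f : ↥(FNbar (M * p)))))
    (hT : heckeOperatorBar (M * p) ⟨ℓ, hℓ⟩ (Pic0.mk D) = t • Pic0.mk D)
    (hd : p ∣ M * p) (c : ℤ)
    (hE : ∀ Q : Place (kV A) ↥E,
      (0 ≤ Q.ord (jTo A M p E hle) →
        (p : ℤ) ^ 2 ∣ (p : ℤ) * Q.ord (resTo A (M * p) E hle f)
          - c * Q.ord (unitTo A M p hd E hle)) ∧
      (Q.ord (jTo A M p E hle) < 0 → (p : ℤ) ∣ Q.ord (resTo A (M * p) E hle f))) :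
    ∀ Q : Place (kV A) ↥E, (p : ℤ) ∣ Q.ord (resTo A (M * p) E hle f) := by
  subst hME
  exact hdrop_core2 A M p ℓ hp hpM hℓ hℓN hA hle t ht D f hf hD hT hd c hE

end Core

/-- **(d6) = H-DROP2.** -/
theorem stmt_HDropT : Fermat.Agent.BADP3.Stmt_HDropT := by
  intro p _ hp M hpM _ A hA S t x hEig hNE D f c hpair
  obtain ⟨ℓ, hℓ, hℓS, hℓN, hℓp, hne⟩ := hNE
  haveI : NeZero ℓ := ⟨hℓ.ne_zero⟩
  haveI hM0 : NeZero M := ⟨fun h0 => NeZero.ne (M * p) (by rw [h0, zero_mul])⟩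
  have hd : p ∣ M * p := Dvd.intro_left M rfl
  obtain ⟨hx, hfne, hD, hQ⟩ := hpair
  -- the eigen-equation
  have hT : heckeOperatorBar (M * p) ⟨ℓ, hℓ⟩ (Pic0.mk D) = t ℓ • Pic0.mk D := by
    have h1 := hEig ℓ hℓ hℓS hℓN hℓp
    have h2 := congrArg (jzModule.pt (M * p) p) h1
    rw [jzModule.pt_T (M * p) p hℓ hℓN] at h2
    rw [← hx]
    exact h2.trans (coe_intCast_smul p (M * p) (t ℓ) x)
  -- the system is not Eisenstein at `ℓ`
  have ht : ¬ (p : ℤ) ∣ t ℓ - ((ℓ : ℤ) + 1) := by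
    intro h
    apply hne
    have h1 := (ZMod.intCast_eq_intCast_iff_dvd_sub ((ℓ : ℤ) + 1) (t ℓ) p).2 h
    rw [← h1]
    push_cast
    ring
  have key := hdrop_E2 A M p ℓ hp hpM hℓ hℓN hA (Ft A (M * p)) (ft_mul_eq A p M hp hpM hA).symm
    le_rfl (t ℓ) ht D f hfne hD hT hd c hQ
  exact ⟨D, f, hx, hfne, hD, fun Q => key Q⟩

end Fermat.Agent.BADP3.H93

end
end
-- ==== END Fermat.Agent.BADP3.H93_HDropT

-- ==== BEGIN Fermat.Agent.BADP3.H97_NodeVal2
section

set_option autoImplicit false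
set_option linter.style.haveILetI false

noncomputable section

open AlgebraicCurve

attribute [local instance] Classical.propDecidable

namespace Fermat.Agent.BADP3.H97

open Fermat.Agent.RED.H17 Fermat.Agent.RED Fermat.Agent.BAD Fermat.Agent.BADP
  Fermat.Agent.S15.Desc.H67 Fermat.Agent.BADP.H38 Fermat.Agent.BADP3

section Node

variable {K F k F₁ F₂ : Type} [Field K] [Field F] [Algebra K F] [Field k] [Field F₁]
  [Algebra k F₁] [Field F₂] [Algebra k F₂] [IsAlgClosed k]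

/-- **NODE-VAL** at one node. -/
theorem nodeVal2_at (S : SSD K F k F₁ F₂) (H : FFHyp K F) (H₁ : FFHyp k F₁) (H₂ : FFHyp k F₂)
    {g g₁ g₂ : ℕ} {c c₁ c₂ : ℤ} (hR : IsGenus K F g c) (hR₁ : IsGenus k F₁ g₁ c₁)
    (hR₂ : IsGenus k F₂ g₂ c₂) (hnum : g + 1 ≤ g₁ + g₂ + S.nodes.card)
    {p : ℕ} (hchar : CharP k p) (hpK : (p : K) ≠ 0)
    (𝓘 𝓘' : Set (SemilinearAut K F)) (hI : ∀ τ ∈ 𝓘, S.IsInertial τ) (hsub : 𝓘' ⊆ 𝓘)
    (hK0 : IsK0Lift S 𝓘) (F0 : Subfield F) (hF0 : ∀ y : F, y ∈ F0 ↔ ∀ τ ∈ 𝓘, τ • y = y)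
    (hval : ∀ y ∈ F0, y ≠ 0 → ∃ n : ℤ, S.c₂.V.valuation y = S.c₂.V.valuation (p : F) ^ n)
    (U : F) (w : ℕ) (hU : S.c₁.IsGU U) (hUnode : ∀ P : Place K F, S.IsNodeP P → P.ord U = 0)
    (hU₂ : S.c₂.IsGU (U / algebraMap K F ((p : K) ^ w))) (hw0 : 0 < w)
    (f : F) (hf : S.c₁.IsGU f) (hdiv : ∀ P : Place K F, (p : ℤ) ∣ P.ord f)
    (hfix : ∀ τ ∈ 𝓘', τ • f = f) {s : Place k F₁ × Place k F₂} (hs : s ∈ S.nodes) :
    ∃ (e : ℕ) (G : F) (d : ℤ), (e : ℤ) * s.1.ord (S.c₁.rd U) = w ∧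
      (∀ τ ∈ 𝓘', τ • G = G) ∧ S.c₁.IsGU G ∧
      (∀ P : Place K F, S.c₁.r P = some s.1 → (p : ℤ) * P.ord G = P.ord f) ∧
      S.c₂.V.valuation f =
        S.c₂.V.valuation (p : F) ^ ((e : ℤ) * (s.1.ord (S.c₁.rd f) - p * d)) *
          S.c₂.V.valuation G ^ p := by
  haveI : Infinite k := IsAlgClosed.instInfinite
  haveI := hchar
  -- the constant `p`
  have hpcast : algebraMap K F (p : K) = (p : F) := map_natCast _ p
  have hpV₁ : algebraMap K F (p : K) ∈ S.c₁.V := by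
    rw [hpcast]
    exact S.c₁.natCast_mem_V p
  have hp0 : S.c₁.rd (algebraMap K F (p : K)) = 0 := by
    rw [hpcast, S.c₁.rd_natCast, ← map_natCast (algebraMap k F₁), CharP.cast_eq_zero, map_zero]
  have hpF0 : algebraMap K F (p : K) ∈ F0 := by
    rw [hpcast]
    exact natCast_mem F0 p
  obtain ⟨hpV₂, hp0₂⟩ := S.rd₂_const_zero hpV₁ hp0
  have hpF_ne : (p : F) ≠ 0 := by
    rw [← hpcast]
    exact (map_ne_zero_iff _ (algebraMap K F).injective).mpr hpK
  have hvp_ne : S.c₂.V.valuation (p : F) ≠ 0 := (Valuation.ne_zero_iff _).2 hpF_ne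
  have hvp_lt : S.c₂.V.valuation (p : F) < 1 := by
    rw [← hpcast]
    exact nv_val_lt_of_rd_eq_zero hpV₂ hp0₂
  -- the unit `U`
  have hU₂' : S.c₂.IsGU (U / algebraMap K F (p : K) ^ w) := by
    rw [← map_pow]
    exact hU₂
  have hUzf : ZeroFree S s U := fun P hP => hUnode P ⟨s, hs, hP⟩
  obtain ⟨hpw₂, hpw0⟩ := rd₂_pow_unif (S := S) hpV₁ hp0 hw0
  have hpwF : algebraMap K F (p : K) ^ w ≠ 0 := by
    rw [hpcast]
    exact pow_ne_zero w hpF_ne
  have hUeq : U = algebraMap K F (p : K) ^ w * (U / algebraMap K F (p : K) ^ w) := by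
    rw [mul_div_cancel₀ _ hpwF]
  have hUV₂ : U ∈ S.c₂.V := by
    rw [hUeq]
    exact S.c₂.V.mul_mem _ _ hpw₂ hU₂'.1
  have hUr₂ : S.c₂.rd U = 0 := by
    rw [hUeq, S.c₂.rd_mul hpw₂ hU₂'.1, hpw0, zero_mul]
  have hUvan : VanAt s.1 (S.c₁.rd U) :=
    vanAt₁_of_rd₂_eq_zero hs hU.1 hUV₂ hUr₂ hUzf.poleFree
  have hUpos : 0 < s.1.ord (S.c₁.rd U) := hUvan.ord_pos hU.2
  obtain ⟨a, ha⟩ : ∃ a : ℕ, s.1.ord (S.c₁.rd U) = a :=
    ⟨(s.1.ord (S.c₁.rd U)).toNat, (Int.toNat_of_nonneg hUpos.le).symm⟩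
  have ha0 : 0 < a := by
    rw [ha] at hUpos
    exact_mod_cast hUpos
  -- (K0)
  have hK0' : ∀ u : F, u ∈ S.c₁.V → u ∈ S.c₂.V → PoleFree S s u →
      ∃ u0 ∈ F0, u0 ∈ S.c₁.V ∧ u0 ∈ S.c₂.V ∧ S.c₁.rd u0 = S.c₁.rd u ∧
        S.c₂.rd u0 = S.c₂.rd u ∧ PoleFree S s u0 := by
    intro u hu₁ hu₂ hupf
    obtain ⟨u0, hu0fix, hu0₁, hu0₂, hr₁, hr₂, hpoles⟩ := hK0 u hu₁ hu₂
    refine ⟨u0, (hF0 u0).2 hu0fix, hu0₁, hu0₂, hr₁, hr₂, fun P hP => ?_⟩
    by_contra hneg
    rw [not_le] at hneg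
    obtain ⟨P', hP'₁, -, hP'lt⟩ := hpoles P hneg
    have := hupf P' (hP'₁.trans hP)
    omega
  -- (DISC)
  have hdisc : ∀ y ∈ F0, y ∈ S.c₂.V → S.c₂.rd y = 0 → y / algebraMap K F (p : K) ∈ S.c₂.V := by
    intro y hyF hy₂ hyr
    rcases eq_or_ne y 0 with rfl | hy0
    · rw [zero_div]
      exact S.c₂.V.zero_mem
    obtain ⟨n, hn⟩ := hval y hyF hy0
    have hylt : S.c₂.V.valuation y < 1 := nv_val_lt_of_rd_eq_zero hy₂ hyr
    have hn1 : 1 ≤ n := by
      by_contra hcon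
      rw [not_le] at hcon
      have hn0 : n ≤ 0 := by omega
      have h1 : 1 ≤ S.c₂.V.valuation (p : F) ^ n :=
        one_le_zpow_of_nonpos₀ (zero_lt_iff.2 hvp_ne) hvp_lt.le hn0
      rw [← hn] at h1
      exact absurd hylt (not_lt.2 h1)
    rw [← S.c₂.V.valuation_le_one_iff, map_div₀, hn, hpcast]
    have e : S.c₂.V.valuation (p : F) ^ n / S.c₂.V.valuation (p : F) =
        S.c₂.V.valuation (p : F) ^ (n - 1) := by
      rw [zpow_sub₀ hvp_ne, zpow_one]
    rw [e]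
    exact zpow_le_one₀ (zero_lt_iff.2 hvp_ne) hvp_lt.le (by omega)
  -- the annulus coordinate
  obtain ⟨t, htF0, n, hn0, hann, hna⟩ :=
    H21.exists_isAnnCoord_of_goodLift S H H₁ H₂ hR hR₁ hR₂ hnum hs hpK hpV₁ hp0 F0 hpF0 hK0'
      hdisc hU hUzf hU₂' ha0 ha
  -- the divisor `div f / p`
  obtain ⟨Df, hDf, -⟩ := H.principal.exists_divisor f hf.ne_zero
  set D : Place K F →₀ ℤ := Df.mapRange (fun m => m / (p : ℤ)) (Int.zero_ediv _) with hDdef
  have hDP : ∀ P : Place K F, (p : ℤ) * D P = P.ord f := by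
    intro P
    rw [hDdef, Finsupp.mapRange_apply, hDf P]
    exact Int.mul_ediv_cancel' (hdiv P)
  have hpZ : (p : ℤ) ≠ 0 := by
    intro h0
    apply hpK
    have : p = 0 := by exact_mod_cast h0
    rw [this, Nat.cast_zero]
  have hDinv : ∀ τ ∈ 𝓘', ∀ P, S.c₁.r P = some s.1 → D (τ • P) = D P := by
    intro τ hτ P _
    have h1 : (p : ℤ) * D (τ • P) = (p : ℤ) * D P := by
      rw [hDP, hDP]
      conv_lhs => rw [← hfix τ hτ]
      exact SemilinearAut.ord_smul τ P f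
    exact mul_left_cancel₀ hpZ h1
  obtain ⟨G, C, hC0, hGfix, -, hGord, hG₁, hG₂, hrad⟩ :=
    H97.local_node S H.principal H.deg_one hs hann 𝓘'
      (fun τ hτ => ⟨(hI τ (hsub hτ)).r₁, (hF0 t).1 htF0 τ (hsub hτ)⟩) D hDinv
  -- the scale of `f` for `V₂`
  obtain ⟨b, hb0, hb⟩ := S.c₂.exists_isGU_scale hf.ne_zero
  have h1f : S.c₁.IsGU (algebraMap K F 1 * f) := by
    rw [map_one, one_mul]
    exact hf
  have hcu := hrad f 1 b p h1f hb (fun P hP => (hDP P).symm)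
  rw [map_one, one_mul] at hcu
  set d : ℤ := ∑ P ∈ D.support.filter (fun P => S.c₁.r P = some s.1), D P with hd
  refine ⟨n, G, d, ?_, hGfix, hG₁, fun P hP => ?_, ?_⟩
  · rw [ha]
    exact_mod_cast hna
  · rw [hGord P hP, hDP]
  · -- valuations
    have hv1 : S.c₂.V.valuation (algebraMap K F b) * S.c₂.V.valuation f = 1 := by
      rw [← map_mul]
      exact nv_isGU_iff_val_eq_one.1 hb
    have hv2 : (S.c₂.V.valuation (algebraMap K F C))⁻¹ * S.c₂.V.valuation G = 1 := by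
      rw [← map_inv₀, ← map_mul, ← map_inv₀]
      exact nv_isGU_iff_val_eq_one.1 hG₂
    have hv3 := nv_isGU_iff_val_eq_one.1 hcu.isGU₂
    simp only [map_div₀, map_mul, map_pow, map_zpow₀, map_one, map_natCast] at hv3
    have hbv : S.c₂.V.valuation (algebraMap K F b) ≠ 0 :=
      (Valuation.ne_zero_iff _).2 ((map_ne_zero_iff _ (algebraMap K F).injective).mpr hb0)
    exact nv_value_identity hvp_ne hbv hv1 hv2 hv3

end Node

/-- Leaf **NODE-VAL2** of BAD_3. -/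
theorem stmt_NodeVal2 : Stmt_NodeVal2 := by
  intro K F k F₁ F₂ _ _ _ _ _ _ _ _ _ _ S H H₁ H₂ g g₁ g₂ c c₁ c₂ hR hR₁ hR₂ hnum p _ hchar hpK
    𝓘 𝓘' hI hsub hK0 F0 hF0 hval U w hU _ hUnode hU₂ hw0 f hf hdiv hfix
  have key : ∀ s : Place k F₁ × Place k F₂, ∃ (e : ℕ) (G : F) (d : ℤ), s ∈ S.nodes →
      ((e : ℤ) * s.1.ord (S.c₁.rd U) = w ∧
      (∀ τ ∈ 𝓘', τ • G = G) ∧ S.c₁.IsGU G ∧
      (∀ P : Place K F, S.c₁.r P = some s.1 → (p : ℤ) * P.ord G = P.ord f) ∧
      S.c₂.V.valuation f =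
        S.c₂.V.valuation (p : F) ^ ((e : ℤ) * (s.1.ord (S.c₁.rd f) - p * d)) *
          S.c₂.V.valuation G ^ p) := by
    intro s
    by_cases hs : s ∈ S.nodes
    · obtain ⟨e, G, d, h⟩ := nodeVal2_at S H H₁ H₂ hR hR₁ hR₂ hnum hchar hpK 𝓘 𝓘' hI hsub hK0
        F0 hF0 hval U w hU hUnode hU₂ hw0 f hf hdiv hfix hs
      exact ⟨e, G, d, fun _ => h⟩
    · exact ⟨0, 0, 0, fun h => absurd h hs⟩
  choose e G d h using key
  exact ⟨e, G, d, fun s hs => h s hs⟩

end Fermat.Agent.BADP3.H97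

end
end
-- ==== END Fermat.Agent.BADP3.H97_NodeVal2

-- ==== BEGIN Fermat.Agent.L.Pivot.H76_Wire2SOFinal
section

set_option autoImplicit false

namespace Fermat.Agent.L.Pivot.H76

open Fermat.Agent.L.Pivot Fermat.Agent.S59.Asm

/-- **PV-WIRE2, curve form, `p ∥ N` très ramifiée.** -/
theorem pivotWCoreSO_of_pivotCoreB (hTRES : Stmt_TRES) (hPC : Stmt_PivotCoreB) :
    Stmt_PivotWCoreSO5 :=
  pivotWCoreSO_of Fermat.Agent.L.Pivot.H3.stmt_CYC hTRES
    (pivotGal_of Fermat.Agent.S59.Asm.H92.stmt_THETAMIN Fermat.Agent.S59.Asm.H80.stmt_EXACTb hPC)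

end Fermat.Agent.L.Pivot.H76

end
-- ==== END Fermat.Agent.L.Pivot.H76_Wire2SOFinal

-- ==== BEGIN Fermat.Agent.L.Pivot3.Asm3
section

set_option autoImplicit false

noncomputable section

namespace Fermat.Agent.L.Pivot3

open Polynomial IsLocalRing CuspForm Fermat.Agent.S56 Fermat.Agent.S59 Fermat.Agent.S59.Asm
  Fermat.Agent.L.Pivot

/-- The standing hypotheses of the assembly on the level and the pivot primes, with auxiliary
primes `R` in the level. -/
structure PVHypA {𝒪 : Type} [CommRing 𝒪] [IsLocalRing 𝒪] (p : ℕ)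
    (ρbar : ResidualGaloisRep (ResidueField 𝒪)) (N1 : ℕ) (S Smin : Finset ℕ) {k : ℕ}
    (Pv : PivotPrimes k) (eP : Fin k → ℕ) : Prop where
  hyp : Hyp 𝒪 p ρbar S Smin
  /-- no elliptic ramification in the pivot tower -/
  hU : 5 ≤ p ∨ ∃ r : ℕ, r.Prime ∧ r ∣ N1 ∧ r % 3 = 2
  /-- there is at least one pivot prime -/
  hk : 0 < k
  hsq : Squarefree N1
  hNS : ∀ q : ℕ, q.Prime → q ∣ N1 → q ∈ S
  hex : Pv.IsExceptional p ρbar
  hPvN : ∀ j, Pv.q j ∣ N1
  /-- the auxiliary primes -/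
  hR : ∃ R : Finset ℕ, S = Smin ∪ Pv.set ∪ R ∧ ∀ r ∈ R, H24.AuxAt p ρbar r ∧ r ∣ N1
  hSminN : ∀ q ∈ Smin, q ≠ p → q ∣ N1
  heP : ∀ j, p ^ eP j ∣ Pv.q j - 1 ∧ ¬ p ^ (eP j + 1) ∣ Pv.q j - 1

theorem PVHypA.pv_subset {𝒪 : Type} [CommRing 𝒪] [IsLocalRing 𝒪] {p : ℕ}
    {ρbar : ResidualGaloisRep (ResidueField 𝒪)} {N1 : ℕ} {S Smin : Finset ℕ} {k : ℕ}
    {Pv : PivotPrimes k} {eP : Fin k → ℕ} (h : PVHypA p ρbar N1 S Smin Pv eP) :
    Pv.set ⊆ S := by
  obtain ⟨R, hS, -⟩ := h.hR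
  rw [hS]
  exact fun q hq => Finset.mem_union_left _ (Finset.mem_union_right _ hq)

/-! ### The geometric datum -/

/-- **PV-GEOM with auxiliary primes**: `Stmt_PVGeom2` with `5 ≤ p` replaced by
`5 ≤ p ∨ ∃ r ≡ 2 mod 3, r ∣ N1` and WITHOUT the hypothesis `S = Smin ∪ Pv.set` (not used by the
geometry). -/
def Stmt_PVGeom2A : Prop :=
  ∀ (𝒪 : Type) [CommRing 𝒪] [IsDomain 𝒪] [IsDiscreteValuationRing 𝒪]
    [IsAdicComplete (maximalIdeal 𝒪) 𝒪] [Finite (ResidueField 𝒪)] [CharZero 𝒪]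
    (p : ℕ) [Fact p.Prime] (ρbar : ResidualGaloisRep (ResidueField 𝒪)) (S Smin : Finset ℕ),
    Hyp 𝒪 p ρbar S Smin →
    ∀ (N1 : ℕ) [NeZero N1] [Fact (CuspForm.HasIntegralStructure N1 2)],
    (∀ q : ℕ, q.Prime → q ∣ N1 → q ∈ S) → Squarefree N1 →
    (5 ≤ p ∨ ∃ r : ℕ, r.Prime ∧ r ∣ N1 ∧ r % 3 = 2) →
    ∀ (θ : CuspForm.heckeAlgebra N1 2 (↑S : Set ℕ) →+* ResidueField 𝒪),
      Fermat.Agent.S59.Datum.FrobHyp ρbar N1 S θ →
    ∀ (k : ℕ) (Pv : PivotPrimes k), 0 < k → Pv.IsExceptional p ρbar → (∀ j, Pv.q j ∣ N1) →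
    ∀ (eP : Fin k → ℕ), (∀ j, p ^ eP j ∣ Pv.q j - 1 ∧ ¬ p ^ (eP j + 1) ∣ Pv.q j - 1) →
    ∃ M : HMod 𝒪 N1 (↑S : Set ℕ) θ, Nontrivial M.V ∧
      ∀ (r n : ℕ) (qv : Fin r → ℕ), IsTWFamily ρbar p n S qv →
        ∀ [NeZero (twLevel N1 qv)] [NeZero (pvLevel N1 Pv.q qv)]
          [Fact (CuspForm.HasIntegralStructure (twLevel N1 qv) 2)]
          [Fact (CuspForm.HasIntegralStructure (pvLevel N1 Pv.q qv) 2)],
          Nonempty (PVGeom2 𝒪 p ρbar N1 S θ M Pv.q eP n qv)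

/-! ### Leaf B: the unipotent relations -/

/-- **PV-UNIP** (B).  `idealUnip` kills `W / ∑ (c_j - 1) W = G1.W`.
[`κ` intertwines `ηW` with the action of `TQ1` through the restriction `T'Q → TQ1` (RESLOC,
`intertwine_of_gen`); `TQ1` is reduced; at a minimal prime of `TQ1` the representation is
unipotent at `q_j` (`hunip`, from the frozen S34), so `H59.types_of_point` with `i_j = 0`
applies.] -/
def Stmt_PVUnipA : Prop :=
  ∀ (𝒪 : Type) [CommRing 𝒪] [IsDomain 𝒪] [IsDiscreteValuationRing 𝒪]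
    [IsAdicComplete (maximalIdeal 𝒪) 𝒪] [Finite (ResidueField 𝒪)] [CharZero 𝒪]
    (p : ℕ) [Fact p.Prime] (fl : Bool) (ρbar : ResidualGaloisRep (ResidueField 𝒪))
    (N1 : ℕ) [NeZero N1] (S Smin : Finset ℕ)
    (θ : CuspForm.heckeAlgebra N1 2 (↑S : Set ℕ) →+* ResidueField 𝒪)
    (M : HMod 𝒪 N1 (↑S : Set ℕ) θ) (k : ℕ) (Pv : PivotPrimes k) (eP : Fin k → ℕ),
    PVHypA p ρbar N1 S Smin Pv eP →
    ∀ (g r n : ℕ) (qv : Fin r → ℕ), IsTWFamily ρbar p n S qv →
    ∀ [NeZero (twLevel N1 qv)] [NeZero (pvLevel N1 Pv.q qv)]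
      [Fact (CuspForm.HasIntegralStructure (twLevel N1 qv) 2)]
      [Fact (CuspForm.HasIntegralStructure (pvLevel N1 Pv.q qv) 2)]
      (X : PVCtx 𝒪 p fl ρbar N1 S Smin θ M Pv eP g n qv)
      (HQ1 : CuspForm.HeckeGaloisRepDatum (twLevel N1 qv) (↑(twSet S qv) : Set ℕ) 𝒪
        (θ.comp X.G.G1.rest)
        (CuspForm.heckeLocal (twLevel N1 qv) (↑(twSet S qv) : Set ℕ) 𝒪 (θ.comp X.G.G1.rest))),
    HQ1.π = CuspForm.heckeLocal.π (twLevel N1 qv) (↑(twSet S qv) : Set ℕ) 𝒪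
      (θ.comp X.G.G1.rest) →
    HQ1.ρ.DetIsCyclotomic p →
    (∀ j, HQ1.ρ.IsUnipotentOnInertiaAt (Pv.q j)) →
    ∀ f ∈ idealUnip g (fun j => ((Pv.q j : ℕ) : 𝒪)), ∀ v : X.G.W.V,
      X.ηW (X.φQ (X.γ f)) v ∈ typeSub X.G.c (fun _ => (1 : 𝒪))

/-! ### Leaf C: the ramified types -/

/-- **PV-NU** (C).  The intersection of the type ideals kills `W / ∑ (c_j - ψ_j) W` when all
`ψ_j ≠ 1`.
[`W / typeSub c ψ` is `𝒪`-free and `T'Q` is reduced, so it suffices to test at the points `x` of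
`T'Q` which kill the annihilator of `W / typeSub c ψ`; by the field `new` of the geometric datum
`x ∘ π` does not occur at the level `pvLevel / q_j`, by `Stmt_PVNUPoint` the representation at
`x` is not unipotent at `q_j`, so `i_j ≠ 0` in `H59.types_of_point`: `x ∘ φQ ∘ γ` is a point of
type `δ ∈ pvTypes`, killed by `𝔞 δ`.] -/
def Stmt_PVNUA : Prop :=
  ∀ (𝒪 : Type) [CommRing 𝒪] [IsDomain 𝒪] [IsDiscreteValuationRing 𝒪]
    [IsAdicComplete (maximalIdeal 𝒪) 𝒪] [Finite (ResidueField 𝒪)] [CharZero 𝒪]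
    (p : ℕ) [Fact p.Prime] (fl : Bool) (ρbar : ResidualGaloisRep (ResidueField 𝒪))
    (N1 : ℕ) [NeZero N1] (S Smin : Finset ℕ)
    (θ : CuspForm.heckeAlgebra N1 2 (↑S : Set ℕ) →+* ResidueField 𝒪)
    (M : HMod 𝒪 N1 (↑S : Set ℕ) θ) (k : ℕ) (Pv : PivotPrimes k) (eP : Fin k → ℕ),
    PVHypA p ρbar N1 S Smin Pv eP →
    ∀ (g r n : ℕ) (qv : Fin r → ℕ), IsTWFamily ρbar p n S qv →
    ∀ [NeZero (twLevel N1 qv)] [NeZero (pvLevel N1 Pv.q qv)]
      [Fact (CuspForm.HasIntegralStructure (pvLevel N1 Pv.q qv) 2)]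
      (X : PVCtx 𝒪 p fl ρbar N1 S Smin θ M Pv eP g n qv)
      (ζ : Fin k → 𝒪), (∀ j, IsPrimitiveRoot (ζ j) (p ^ eP j)) →
    ∀ (ψ : Fin k → 𝒪), (∀ j, ψ j ^ (p ^ eP j) = 1 ∧ ψ j ≠ 1) →
    ∀ (𝔞 : (Fin k → 𝒪) → Ideal (PRing 𝒪 k g)),
      (∀ δ ∈ pvTypes p eP ζ, KilledByType g δ (𝔞 δ)) →
    ∀ f ∈ (pvTypes p eP ζ).inf 𝔞, ∀ v : X.G.W.V,
      X.ηW (X.φQ (X.γ f)) v ∈ typeSub X.G.c ψ

/-! ### Leaf A: the assembly -/

/-- **PV-ASM** (A): the level of the patching datum at a Taylor–Wiles family.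
[As `Fermat.Agent.S59.Asm.H77.stmt_ASM`, with `H76.pvCore` instead of `twLevel_of_core`:
`V := W`, `fV := ηW ∘ φQ`, `π := G1.π ∘ κ`; `δ_i` from `exists_delta` on `W` (fields `Wα, …` of
`PVGeom2`); `res1 ∘ res' ∘ φQ = τ` by COMPAT; `Ξ ≤ (τ γ)(𝔵) T`: the ideal of the entries of
`H.ρ (τ_j) - 1` does not depend on the basis, and `a - 1 ∈ (a - d, b, c)` when `a d - b c = 1`,
`a ≡ 1` and `2` is a unit.] -/
def Stmt_PVAsmA : Prop :=
  ∀ (𝒪 : Type) [CommRing 𝒪] [IsDomain 𝒪] [IsDiscreteValuationRing 𝒪]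
    [IsAdicComplete (maximalIdeal 𝒪) 𝒪] [Finite (ResidueField 𝒪)] [CharZero 𝒪]
    (p : ℕ) [Fact p.Prime] (fl : Bool) (ρbar : ResidualGaloisRep (ResidueField 𝒪))
    (N1 : ℕ) [NeZero N1] [Fact (CuspForm.HasIntegralStructure N1 2)] (S Smin : Finset ℕ)
    (θ : CuspForm.heckeAlgebra N1 2 (↑S : Set ℕ) →+* ResidueField 𝒪)
    (M : HMod 𝒪 N1 (↑S : Set ℕ) θ) (k : ℕ) (Pv : PivotPrimes k) (eP : Fin k → ℕ),
    PVHypA p ρbar N1 S Smin Pv eP →
    ∀ (H : CuspForm.HeckeGaloisRepDatum N1 (↑S : Set ℕ) 𝒪 θ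
        (CuspForm.heckeLocal N1 (↑S : Set ℕ) 𝒪 θ)),
    H.π = CuspForm.heckeLocal.π N1 (↑S : Set ℕ) 𝒪 θ →
    cond 𝒪 p fl Smin Pv.set H.ρ →
    ∀ (ηM : CuspForm.heckeLocal N1 (↑S : Set ℕ) 𝒪 θ →ₐ[𝒪] Module.End 𝒪 M.V),
    (∀ t : CuspForm.heckeAlgebra N1 2 (↑S : Set ℕ),
      ηM (CuspForm.heckeLocal.π N1 (↑S : Set ℕ) 𝒪 θ t) = M.η t) →
    ∀ (g r n : ℕ) (qv : Fin r → ℕ), IsTWFamily ρbar p n S qv →
    ∀ [NeZero (twLevel N1 qv)] [NeZero (pvLevel N1 Pv.q qv)]
      [Fact (CuspForm.HasIntegralStructure (twLevel N1 qv) 2)]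
      [Fact (CuspForm.HasIntegralStructure (pvLevel N1 Pv.q qv) 2)]
      (X : PVCtx 𝒪 p fl ρbar N1 S Smin θ M Pv eP g n qv)
      (τ : X.DQ.R →ₐ[𝒪] CuspForm.heckeLocal N1 (↑S : Set ℕ) 𝒪 θ),
    Function.Surjective τ →
    ∀ (hτl : IsLocalHom (τ : X.DQ.R →+* CuspForm.heckeLocal N1 (↑S : Set ℕ) 𝒪 θ)),
    (X.DQ.ρ.baseChangeAlong (τ : X.DQ.R →+* CuspForm.heckeLocal N1 (↑S : Set ℕ) 𝒪 θ)
      hτl).IsEquiv H.ρ →
    ∀ (ϖ : 𝒪), maximalIdeal 𝒪 = Ideal.span {ϖ} →
    ∀ (ψ : Fin k → 𝒪), (∀ j, ψ j ^ (p ^ eP j) = 1) → (∀ j, ψ j - 1 ∈ Ideal.span {ϖ}) →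
    ∀ (I1 Iχ : Ideal (PRing 𝒪 k g)),
      (∀ f ∈ I1, ∀ v : X.G.W.V, X.ηW (X.φQ (X.γ f)) v ∈ typeSub X.G.c (fun _ => (1 : 𝒪))) →
      (∀ f ∈ Iχ, ∀ v : X.G.W.V, X.ηW (X.φQ (X.γ f)) v ∈ typeSub X.G.c ψ) →
    ∀ (b : Module.Basis (Fin 2) (CuspForm.heckeLocal N1 (↑S : Set ℕ) 𝒪 θ) H.ρ.V),
      Nonempty (@PivotLevel 𝒪 _ r (6 * k + g) (CuspForm.heckeLocal N1 (↑S : Set ℕ) 𝒪 θ) _ _
        M.V _ (Module.compHom M.V
          ((ηM : CuspForm.heckeLocal N1 (↑S : Set ℕ) 𝒪 θ →ₐ[𝒪] Module.End 𝒪 M.V) :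
            CuspForm.heckeLocal N1 (↑S : Set ℕ) 𝒪 θ →+* Module.End 𝒪 M.V))
        ϖ I1 Iχ (idealX 𝒪 k g) (pvXi H.ρ b Pv) (twIdealP 𝒪 r p n) X.G.rk)

/-! ### The levels and the target, for both conditions at `p` -/

/-- **PV-ASM: the levels** (for `cond 𝒪 p fl`).  As `L.Pivot.Stmt_PVLevelsB`; `fl = true`: `p ∤ N1`,
`fl = false`: `p ∣ N1` and `ρbar` is not flat at `p`. -/
def Stmt_PVLevelsBA : Prop :=
  ∀ (𝒪 : Type) [CommRing 𝒪] [IsDomain 𝒪] [IsDiscreteValuationRing 𝒪]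
    [IsAdicComplete (maximalIdeal 𝒪) 𝒪] [Finite (ResidueField 𝒪)] [CharZero 𝒪]
    (p : ℕ) [Fact p.Prime] (fl : Bool) (ρbar : ResidualGaloisRep (ResidueField 𝒪))
    (S Smin : Finset ℕ),
    cond 𝒪 p fl Smin ∅ (GaloisRepAdic.ofResidualGaloisRep ρbar) →
    (fl = false → ¬ (GaloisRepAdic.ofResidualGaloisRep ρbar).IsFlatAt p) →
    ∀ (N1 : ℕ) [NeZero N1], (fl = true → ¬ p ∣ N1) → (fl = false → p ∣ N1) →
    ∀ (θ : CuspForm.heckeAlgebra N1 2 (↑S : Set ℕ) →+* ResidueField 𝒪),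
      Fermat.Agent.S59.Datum.FrobHyp ρbar N1 S θ →
    ∀ (k : ℕ) (Pv : PivotPrimes k) (eP : Fin k → ℕ), PVHypA p ρbar N1 S Smin Pv eP →
      (∀ j, ∃ ζ : 𝒪, IsPrimitiveRoot ζ (p ^ eP j)) →
    ∀ (ϖ : 𝒪), maximalIdeal 𝒪 = Ideal.span {ϖ} →
    ∃ (T : Type) (_ : CommRing T) (_ : IsLocalRing T) (_ : IsNoetherianRing T)
      (_ : IsAdicComplete (maximalIdeal T) T) (_ : Algebra 𝒪 T)
      (_ : IsLocalHom (algebraMap 𝒪 T)) (_ : Module.Finite 𝒪 T) (_ : Module.Free 𝒪 T)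
      (H : CuspForm.HeckeGaloisRepDatum N1 (↑S : Set ℕ) 𝒪 θ T)
      (b : Module.Basis (Fin 2) T H.ρ.V)
      (M : Type) (_ : AddCommGroup M) (_ : Module T M) (_ : Nontrivial M)
      (r g d : ℕ) (t : Finset (Fin k → 𝒪)),
      H.ρ.DetIsCyclotomic p ∧ (∀ j, H.ρ.residual.IsUnramifiedAt (Pv.q j)) ∧
      r + 1 = 1 + 3 * k + g ∧ (∀ δ ∈ t, ∀ j, δ j ≠ 0) ∧ (∀ δ ∈ t, ∀ j, δ j ∈ maximalIdeal 𝒪) ∧
      ∀ 𝔞 : (Fin k → 𝒪) → Ideal (PRing 𝒪 k g), (∀ δ ∈ t, KilledByType g δ (𝔞 δ)) →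
        ∀ n : ℕ, Nonempty (PivotLevel 𝒪 r (6 * k + g) T M ϖ
          (idealUnip g (fun j => ((Pv.q j : ℕ) : 𝒪))) (t.inf 𝔞)
          (idealX 𝒪 k g) (pvXi H.ρ b Pv) (twIdealP 𝒪 r p n) d)

/-- **PIVOT, Hecke–Galois form, for both conditions at `p`.** -/
def Stmt_PivotCoreBA : Prop :=
  ∀ (𝒪 : Type) [CommRing 𝒪] [IsDomain 𝒪] [IsDiscreteValuationRing 𝒪]
    [IsAdicComplete (maximalIdeal 𝒪) 𝒪] [Finite (ResidueField 𝒪)] [CharZero 𝒪]
    (p : ℕ) [Fact p.Prime] (fl : Bool) (ρbar : ResidualGaloisRep (ResidueField 𝒪))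
    (S Smin : Finset ℕ),
    cond 𝒪 p fl Smin ∅ (GaloisRepAdic.ofResidualGaloisRep ρbar) →
    (fl = false → ¬ (GaloisRepAdic.ofResidualGaloisRep ρbar).IsFlatAt p) →
    ∀ (N1 : ℕ) [NeZero N1], (fl = true → ¬ p ∣ N1) → (fl = false → p ∣ N1) →
    ∀ (θ : CuspForm.heckeAlgebra N1 2 (↑S : Set ℕ) →+* ResidueField 𝒪),
      Fermat.Agent.S59.Datum.FrobHyp ρbar N1 S θ →
    ∀ (k : ℕ) (Pv : PivotPrimes k) (eP : Fin k → ℕ), PVHypA p ρbar N1 S Smin Pv eP →
      (∀ j, ∃ ζ : 𝒪, IsPrimitiveRoot ζ (p ^ eP j)) →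
    ∀ (j : Fin k) [NeZero (N1 / Pv.q j)],
      ∃ θ' : CuspForm.heckeAlgebra (N1 / Pv.q j) 2 (↑S : Set ℕ) →+* ResidueField 𝒪,
        ∀ (ℓ : ℕ) (hℓ : ℓ.Prime) (hℓN : ¬ ℓ ∣ N1) (hℓS : ℓ ∉ (↑S : Set ℕ))
          (hℓN' : ¬ ℓ ∣ N1 / Pv.q j),
          θ' (CuspForm.heckeAlgebra.T hℓ hℓN' hℓS) = θ (CuspForm.heckeAlgebra.T hℓ hℓN hℓS)

/-- **PIVOT (Hecke–Galois form, both conditions) from the packages.** -/
theorem pivotCoreBA_of (hType : Stmt_PVLoc_type) (hUnr : Stmt_PVLoc_unr)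
    (hDim : Stmt_PVLoc_dimS) (hPatch : Stmt_PVPatch) (hLev : Stmt_PVLevelsBA)
    (hTame : Stmt_PVTame1) (hOld : Stmt_PVOld) : Stmt_PivotCoreBA := by
  intro 𝒪 _ _ _ _ _ _ p _ fl ρbar S Smin hcond hnfl N1 _ hpN hpN' θ hθ k Pv eP hPV hζ j _
  have hyp := hPV.hyp
  have hsq := hPV.hsq
  have hex := hPV.hex
  obtain ⟨ϖ, hϖirr⟩ := IsDiscreteValuationRing.exists_irreducible 𝒪
  have hϖ' : maximalIdeal 𝒪 = Ideal.span {ϖ} :=
    (IsDiscreteValuationRing.irreducible_iff_uniformizer ϖ).mp hϖirr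
  obtain ⟨T, _, _, _, _, _, _, _, _, H, b, M, _, _, _, r, g, d, t, hdet, hunr, hr, ht0, htm,
    hlev⟩ := hLev 𝒪 p fl ρbar S Smin hcond hnfl N1 hpN hpN' θ hθ k Pv eP hPV hζ ϖ hϖ'
  have hp𝒪 : (p : 𝒪) ∈ maximalIdeal 𝒪 := hyp.hp𝒪
  -- `2` is a unit
  have h2 : IsUnit (2 : 𝒪) := by
    by_contra h
    have h2m : (2 : 𝒪) ∈ maximalIdeal 𝒪 := (IsLocalRing.mem_maximalIdeal _).mpr h
    have hodd : Odd p := (Fact.out : p.Prime).odd_of_ne_two hyp.hp2
    obtain ⟨m, hm⟩ := hodd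
    have h1 : (1 : 𝒪) = (p : 𝒪) - 2 * (m : 𝒪) := by
      rw [hm]; push_cast; ring
    have : (1 : 𝒪) ∈ maximalIdeal 𝒪 := by
      rw [h1]
      exact Ideal.sub_mem _ hp𝒪 (Ideal.mul_mem_right _ _ h2m)
    exact (Ideal.ne_top_iff_one _).mp (IsLocalRing.maximalIdeal.isMaximal 𝒪).ne_top this
  -- `q ≡ 1`
  have hq₀ : ∀ i, ((Pv.q i : ℕ) : 𝒪) - 1 ∈ maximalIdeal 𝒪 := by
    intro i
    obtain ⟨m, hm⟩ := (hex i).1
    have hq1 : 1 ≤ Pv.q i := (Pv.q_prime i).one_le
    have h1 : ((Pv.q i : ℕ) : 𝒪) - 1 = (p : 𝒪) * (m : 𝒪) := by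
      have : Pv.q i = p * m + 1 := by omega
      rw [this]; push_cast; ring
    rw [h1]
    exact Ideal.mul_mem_right _ _ hp𝒪
  obtain ⟨𝔱, h𝔱, -, hϖ𝔱, hΞ⟩ := H3.pivot_of_levels hType hUnr hDim hPatch hp𝒪 hr
    H.residue_surjective hϖ' h2 (fun i => ((Pv.q i : ℕ) : 𝒪)) hq₀ t ht0 htm
    (pvXi H.ρ b Pv) d hlev
  -- `p ∉ 𝔱`
  have hpT : (p : T) ∉ 𝔱 := by
    intro hp
    have hp0 : (p : 𝒪) ≠ 0 := by
      exact_mod_cast (Fact.out : p.Prime).ne_zero
    obtain ⟨e, u, hu⟩ := IsDiscreteValuationRing.eq_unit_mul_pow_irreducible hp0 hϖirr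
    have h3 : (p : T) = algebraMap 𝒪 T (u : 𝒪) * (algebraMap 𝒪 T ϖ) ^ e := by
      rw [← map_pow, ← map_mul, ← hu, map_natCast]
    rw [h3] at hp
    rcases h𝔱.mem_or_mem hp with h | h
    · have hu' : IsUnit (algebraMap 𝒪 T (u : 𝒪)) := (u.isUnit).map _
      exact h𝔱.ne_top (Ideal.eq_top_of_isUnit_mem _ h hu')
    · exact hϖ𝔱 (h𝔱.mem_of_pow_mem e h)
  -- unramified modulo `𝔱` at `q_j`
  have hτ : ∀ v : H.ρ.V, H.ρ.ρ (Pv.τ j) v - v ∈ (𝔱 • ⊤ : Submodule T H.ρ.V) := by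
    intro v
    refine sub_mem_smul_top_of_entries b _ 𝔱 (fun a c => ?_) v
    exact hΞ (Ideal.subset_span ⟨j, a, c, rfl⟩)
  have hpTm : (p : T) ∈ maximalIdeal T := hdet.1
  have hall := hTame T p hpTm H.ρ (Pv.q j) (Pv.q_prime j) (hex j).2.1 (hunr j) (Pv.P j)
    (Pv.P_over j) (Pv.τ j) (Pv.τ_gen j) 𝔱 hτ
  have hqN : ¬ (Pv.q j) ^ 2 ∣ N1 := by
    intro h
    have := Nat.squarefree_iff_prime_squarefree.mp hsq (Pv.q j) (Pv.q_prime j)
    exact this (by rwa [← pow_two])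
  have hpS : p ∈ S := hyp.hSmin hyp.hpSmin
  exact hOld 𝒪 p hyp.hp2 hp𝒪 N1 S hpS hPV.hNS θ T H hdet (Pv.q j) (Pv.q_prime j) (hex j).2.1
    (hPV.hPvN j) hqN 𝔱 h𝔱 hpT hall


end Fermat.Agent.L.Pivot3

end

end
-- ==== END Fermat.Agent.L.Pivot3.Asm3

-- ==== BEGIN Fermat.Agent.L.Pivot3.H34_AutoUnr
section

set_option autoImplicit false

open Polynomial IsLocalRing

namespace Fermat.Agent.L.Pivot3.H34

open Fermat.Agent.S59.TWGal

/-- **AUTO-UNR at one place**, hypotheses on the matrix of `ρ(φ)` in a basis. -/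
theorem autoUnr_at (A : Type) [CommRing A] [IsLocalRing A] [IsNoetherianRing A]
    (p : ℕ) (hp : p.Prime) (hpA : (p : A) ∈ maximalIdeal A)
    (ρ : GaloisRepAdic A) (q : ℕ) (hq : q.Prime) (hqp : q ≠ p)
    (P : ValuationSubring Qb) (hP : P.LiesOverPrime q)
    (hI : ∀ σ ∈ P.inertiaSubgroupIn ℚ, ∀ v : ρ.V,
      ρ.ρ σ v - v ∈ maximalIdeal A • (⊤ : Submodule A ρ.V))
    (φ : GQ) (hφ : P.IsFrobeniusAt φ q)
    (b : Module.Basis (Fin 2) A ρ.V)
    (hu : IsUnit (adScalar (q : A) (mat b (ρ.ρ φ)))) :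
    ∀ σ ∈ P.inertiaSubgroupIn ℚ, ρ.ρ σ = 1 := by
  have hcop : ∀ e : ℕ, (q ^ e).Coprime p :=
    fun e => Nat.Coprime.pow_left e ((Nat.coprime_primes hq hp).2 hqp)
  -- the matrix representation
  let μ : GQ →* Matrix (Fin 2) (Fin 2) A :=
    ((LinearMap.toMatrixAlgEquiv b : Module.End A ρ.V ≃ₐ[A] _) : Module.End A ρ.V →* _).comp ρ.ρ
  have hμ : ∀ g, μ g = mat b (ρ.ρ g) := fun _ => rfl
  -- the key claim: `μ σ` is trivial modulo `𝔪 ^ N` for `σ ∈ I_P`
  have key : ∀ N : ℕ, ∀ σ ∈ P.inertiaSubgroupIn ℚ, red (maximalIdeal A ^ N) (μ σ) = 1 := by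
    intro N σ hσ
    obtain ⟨L, hL, hcont⟩ := ρ.isAdicContinuous N
    -- elements fixing `L` are trivial modulo `𝔪 ^ N`
    have hfix : ∀ u ∈ L.fixingSubgroup, red (maximalIdeal A ^ N) (μ u) = 1 := by
      intro u hu
      rw [red_eq_one_iff]
      exact mat_sub_one_mem b _ _
        (hcont u (fun x hx => (IntermediateField.mem_fixingSubgroup_iff L u).1 hu x hx))
    obtain ⟨τ₀, hτ₀, hcyc, ⟨e₀, hconj⟩, -⟩ := H59.stmt_TAME q hq P hP φ hφ L hL
    -- inertia elements of `q`-power order modulo `G_L` are trivial modulo `𝔪 ^ N`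
    have hwild : ∀ w ∈ P.inertiaSubgroupIn ℚ, ∀ e : ℕ, w ^ (q ^ e) ∈ L.fixingSubgroup →
        red (maximalIdeal A ^ N) (μ w) = 1 := by
      intro w hw e hwe
      rw [red_eq_one_iff]
      refine H01.stmt_MatUnip A (maximalIdeal A) p (q ^ e) N hpA (hcop e) (μ w) ?_ ?_
      · exact mat_sub_one_mem b _ _ (hI w hw)
      · rw [← map_pow, ← red_eq_one_iff]
        exact hfix _ hwe
    have hφD : φ ∈ P.decompositionSubgroup ℚ := hφ.mem_decompositionSubgroup
    have hnormal : ∀ {τ σ : GQ}, τ ∈ P.decompositionSubgroup ℚ → σ ∈ P.inertiaSubgroupIn ℚ →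
        τ * σ * τ⁻¹ ∈ P.inertiaSubgroupIn ℚ := by
      intro τ σ hτ hσ
      obtain ⟨s, hs, rfl⟩ := hσ
      refine ⟨⟨τ, hτ⟩ * s * ⟨τ, hτ⟩⁻¹, ?_, rfl⟩
      have hn : (P.inertiaSubgroup ℚ).Normal := by
        unfold ValuationSubring.inertiaSubgroup
        infer_instance
      exact hn.conj_mem s hs ⟨τ, hτ⟩
    -- the tame relation modulo `𝔪 ^ N`
    have hw₀ : (τ₀ ^ q)⁻¹ * (φ * τ₀ * φ⁻¹) ∈ P.inertiaSubgroupIn ℚ :=
      mul_mem (inv_mem (pow_mem hτ₀ q)) (hnormal hφD hτ₀)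
    have hrel : red (maximalIdeal A ^ N) (μ φ) * red (maximalIdeal A ^ N) (μ τ₀) =
        red (maximalIdeal A ^ N) (μ τ₀) ^ q * red (maximalIdeal A ^ N) (μ φ) := by
      have h1 := hwild _ hw₀ e₀ hconj
      have h2 : φ * τ₀ = τ₀ ^ q * ((τ₀ ^ q)⁻¹ * (φ * τ₀ * φ⁻¹)) * φ := by group
      calc red (maximalIdeal A ^ N) (μ φ) * red (maximalIdeal A ^ N) (μ τ₀)
          = red (maximalIdeal A ^ N) (μ (φ * τ₀)) := by rw [map_mul, map_mul]
        _ = red (maximalIdeal A ^ N) (μ (τ₀ ^ q * ((τ₀ ^ q)⁻¹ * (φ * τ₀ * φ⁻¹)) * φ)) := by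
            rw [← h2]
        _ = red (maximalIdeal A ^ N) (μ τ₀) ^ q * red (maximalIdeal A ^ N) (μ φ) := by
            rw [map_mul, map_mul, map_mul, map_mul, h1, mul_one, map_pow, map_pow]
    -- `μ τ₀` is trivial modulo `𝔪 ^ N`
    have hτ : red (maximalIdeal A ^ N) (μ τ₀) = 1 := by
      rw [red_eq_one_iff]
      refine matTriv (maximalIdeal A) N q (μ φ) hu (μ τ₀)
        (mat_sub_one_mem b _ _ (hI τ₀ hτ₀)) ?_
      intro i j
      rw [← red_apply_eq_zero_iff, map_sub, map_mul, map_mul, map_pow, hrel, sub_self,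
        Matrix.zero_apply]
    obtain ⟨j, e, hje⟩ := hcyc σ hσ
    have h1 := hwild _ (mul_mem (inv_mem (pow_mem hτ₀ j)) hσ) e hje
    have h2 : σ = τ₀ ^ j * ((τ₀ ^ j)⁻¹ * σ) := by group
    rw [h2, map_mul, map_mul, h1, mul_one, map_pow, map_pow, hτ, one_pow]
  -- Krull
  have hkrull : ∀ x : A, (∀ N : ℕ, x ∈ maximalIdeal A ^ N) → x = 0 := by
    intro x hx
    have h := Ideal.iInf_pow_eq_bot_of_isLocalRing (maximalIdeal A)
      (maximalIdeal.isMaximal A).ne_top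
    have hmem : x ∈ ⨅ i : ℕ, maximalIdeal A ^ i := by
      rw [Ideal.mem_iInf]; exact hx
    rw [h] at hmem
    exact (Submodule.mem_bot A).1 hmem
  intro σ hσ
  have h1 : μ σ = 1 := by
    ext i j
    have h2 : (μ σ - 1) i j = 0 :=
      hkrull _ fun N => (red_eq_one_iff _ _).1 (key N σ hσ) i j
    rw [Matrix.sub_apply, sub_eq_zero] at h2
    exact h2
  apply (LinearMap.toMatrixAlgEquiv b).injective
  rw [map_one]
  exact h1

/-- The scalar `adScalar` of the matrix of an endomorphism, in terms of determinant and trace. -/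
theorem adScalar_mat {A : Type} [CommRing A] {V : Type} [AddCommGroup V] [Module A V]
    (b : Module.Basis (Fin 2) A V) (q : A) (f : Module.End A V) :
    adScalar q (mat b f) = (1 - q) * LinearMap.det f *
      ((1 + q) ^ 2 * LinearMap.det f - q * LinearMap.trace A V f ^ 2) := by
  have h1 : (mat b f).det = LinearMap.det f := by
    rw [← LinearMap.det_toMatrix b f]
    rfl
  have h2 : (mat b f).trace = LinearMap.trace A V f := by
    rw [LinearMap.trace_eq_matrix_trace A b f]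
    rfl
  rw [adScalar, h1, h2]

/-- **AUTO-UNR at one place**, hypotheses on determinant and trace of `ρ(φ)`. -/
theorem autoUnr_at' (A : Type) [CommRing A] [IsLocalRing A] [IsNoetherianRing A]
    (p : ℕ) (hp : p.Prime) (hpA : (p : A) ∈ maximalIdeal A)
    (ρ : GaloisRepAdic A) (q : ℕ) (hq : q.Prime) (hqp : q ≠ p)
    (P : ValuationSubring Qb) (hP : P.LiesOverPrime q)
    (hI : ∀ σ ∈ P.inertiaSubgroupIn ℚ, ∀ v : ρ.V,
      ρ.ρ σ v - v ∈ maximalIdeal A • (⊤ : Submodule A ρ.V))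
    (φ : GQ) (hφ : P.IsFrobeniusAt φ q)
    (hu : IsUnit ((1 - (q : A)) * LinearMap.det (ρ.ρ φ) *
      ((1 + (q : A)) ^ 2 * LinearMap.det (ρ.ρ φ) -
        (q : A) * LinearMap.trace A ρ.V (ρ.ρ φ) ^ 2))) :
    ∀ σ ∈ P.inertiaSubgroupIn ℚ, ρ.ρ σ = 1 := by
  have b : Module.Basis (Fin 2) A ρ.V := Module.finBasisOfFinrankEq A ρ.V ρ.finrank_eq
  refine autoUnr_at A p hp hpA ρ q hq hqp P hP hI φ hφ b ?_
  rw [adScalar_mat]
  exact hu

/-- **AUTO-UNR at one place**, hypotheses on the residual representation. -/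
theorem stmt_AutoUnrMain : Stmt_AutoUnrMain := by
  intro A _ _ _ p hp hpA ρ q hq hqp P hP hur φ hφ hne
  obtain ⟨hres1, -⟩ := H4.stmt_RES A ρ
  refine autoUnr_at' A p hp hpA ρ q hq hqp P hP (fun σ hσ => hres1 σ (hur σ hσ)) φ hφ ?_
  have hdet : LinearMap.det (ρ.residual.ρ φ) = residue A (LinearMap.det (ρ.ρ φ)) := by
    show LinearMap.det ((ρ.ρ φ).baseChange (ResidueField A)) = _
    rw [LinearMap.det_baseChange]
    rfl
  have htr : LinearMap.trace (ResidueField A) ρ.residual.V (ρ.residual.ρ φ) =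
      residue A (LinearMap.trace A ρ.V (ρ.ρ φ)) := by
    show LinearMap.trace (ResidueField A) _ ((ρ.ρ φ).baseChange (ResidueField A)) = _
    rw [LinearMap.trace_baseChange]
    rfl
  rw [hdet, htr] at hne
  rw [← isUnit_map_iff (residue A)]
  simp only [map_mul, map_sub, map_add, map_pow, map_one, map_natCast]
  exact hne.isUnit

end Fermat.Agent.L.Pivot3.H34

end
-- ==== END Fermat.Agent.L.Pivot3.H34_AutoUnr

-- ==== BEGIN Fermat.Agent.L.Pivot3.H75_Defs
section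

set_option autoImplicit false

open Polynomial IsLocalRing CuspForm CongruenceSubgroup ModularFormClass
open WeierstrassCurve WeierstrassCurve.Affine WeierstrassCurve.Affine.Point
open scoped WeierstrassCurve.Affine

namespace Fermat.Agent.L.Pivot3.H75

open Fermat.Agent.S59 Fermat.Agent.S44 Fermat.Agent.S43 Fermat.Agent.L.Pivot.H76
  Fermat.Agent.L.Pivot3.H24

/-- **PIVOT, Galois form with an eigenform and auxiliary primes `R` in the level.** -/
def Stmt_PivotGalAux : Prop :=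
  ∀ (𝒪 : Type) [CommRing 𝒪] [IsDomain 𝒪] [IsDiscreteValuationRing 𝒪]
    [IsAdicComplete (maximalIdeal 𝒪) 𝒪] [Finite (ResidueField 𝒪)] [CharZero 𝒪]
    (p : ℕ) [Fact p.Prime], p ≠ 2 → (p : 𝒪) ∈ maximalIdeal 𝒪 →
    ∀ (fl : Bool) (ρbar : ResidualGaloisRep (ResidueField 𝒪)),
    ρbar.IsAbsolutelyIrreducible →
    (GaloisRepAdic.ofResidualGaloisRep ρbar).DetIsCyclotomic p →
    (∀ σ : AlgebraicClosure ℚ ≃ₐ[ℚ] AlgebraicClosure ℚ,
      ∃ α β : ResidueField 𝒪, LinearMap.charpoly (ρbar.ρ σ) = (X - C α) * (X - C β)) →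
    TWCond ρbar →
    ∀ (N : ℕ), Squarefree N →
    (fl = true → ¬ p ∣ N) →
    (fl = false → p ∣ N ∧ (GaloisRepAdic.ofResidualGaloisRep ρbar).IsStrictOrdinaryAt p ∧
      ¬ (GaloisRepAdic.ofResidualGaloisRep ρbar).IsFlatAt p) →
    ∀ (R : Finset ℕ), (∀ r ∈ R, AuxAt p ρbar r ∧ r ∣ N) →
    (5 ≤ p ∨ ∃ r : ℕ, r.Prime ∧ r ∣ N ∧ r % 3 = 2) →
    (∀ q' : ℕ, q'.Prime → q' ∣ N → q' ≠ p →
      (GaloisRepAdic.ofResidualGaloisRep ρbar).IsUnipotentOnInertiaAt q') →
    (∀ q' : ℕ, q'.Prime → q' ∣ N → q' ≠ p → q' ∉ R → ρbar.IsUnramifiedAt q' → p ∣ q' - 1 ∧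
      ∃ A : ValuationSubring (AlgebraicClosure ℚ), A.LiesOverPrime q' ∧
        ∀ σ : AlgebraicClosure ℚ ≃ₐ[ℚ] AlgebraicClosure ℚ, A.IsFrobeniusAt σ q' →
          ∃ c : ResidueField 𝒪, ρbar.ρ σ = c • (1 : Module.End (ResidueField 𝒪) ρbar.V)) →
    (∀ q' : ℕ, q'.Prime → q' ∣ N → ∀ e : ℕ, p ^ e ∣ q' - 1 →
      ∃ ζ : 𝒪, IsPrimitiveRoot ζ (p ^ e)) →
    ∀ (f : CuspForm (Gamma0 N) 2) (𝔪 : Ideal (integralClosure ℤ ℂ)) (a : ℕ → ℤ)
      (Sig : Finset ℕ),
    f.IsNormalizedEigenform → 𝔪.IsMaximal → (p : integralClosure ℤ ℂ) ∈ 𝔪 →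
    (∀ ℓ : ℕ, ℓ.Prime → ℓ ∉ Sig → ¬ ℓ ∣ N → ℓ ≠ p →
      ∃ b : integralClosure ℤ ℂ, (b : ℂ) = qCoeff f ℓ ∧
        b - ((a ℓ : ℤ) : integralClosure ℤ ℂ) ∈ 𝔪) →
    (∀ ℓ : ℕ, ℓ.Prime → ℓ ∉ Sig → ℓ ≠ p →
      ∀ A : ValuationSubring (AlgebraicClosure ℚ), A.LiesOverPrime ℓ →
        ∀ σ : AlgebraicClosure ℚ ≃ₐ[ℚ] AlgebraicClosure ℚ, A.IsFrobeniusAt σ ℓ →
          LinearMap.charpoly (ρbar.ρ σ)
            = X ^ 2 - C (((a ℓ : ℤ) : ResidueField 𝒪)) * X + C ((ℓ : ResidueField 𝒪))) →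
    ∀ q : ℕ, q.Prime → q ∣ N → q ≠ p → q ∉ R → ρbar.IsUnramifiedAt q →
    ∃ (g : CuspForm (Gamma0 (N / q)) 2) (𝔪' : Ideal (integralClosure ℤ ℂ)) (S : Finset ℕ),
      g.IsNormalizedEigenform ∧ 𝔪'.IsMaximal ∧ (p : integralClosure ℤ ℂ) ∈ 𝔪' ∧
      ∀ ℓ : ℕ, ℓ.Prime → ℓ ∉ S → ¬ ℓ ∣ N → ℓ ≠ p →
        ∃ b : integralClosure ℤ ℂ, (b : ℂ) = qCoeff g ℓ ∧
          b - ((a ℓ : ℤ) : integralClosure ℤ ℂ) ∈ 𝔪'

/-- **PIVOT at `p = 3` with an auxiliary prime `r` in the level, curve form, level prime to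
`3`.**  Every prime `q' ≠ r` of `N` at which `E[3]` is unramified is exceptional; `r ≡ 2 mod 3`
is a prime of `N` of good reduction with `a_r ≢ 0 mod 3`. -/
def Stmt_PivotWCoreAux3 : Prop :=
  ∀ (W : WeierstrassCurve ℤ), W.Δ ≠ 0 → W.IsSemistableModel →
    GaloisRepIsIrreducible (K := AlgebraicClosure ℚ) ℚ (W.map (Int.castRingHom ℚ)).toAffine 3 →
    ∀ (N q r : ℕ), Squarefree N → ¬ 3 ∣ N → q.Prime → q ∣ N → UnrW W 3 q →
    r.Prime → r ∣ N → r ≠ q → r % 3 = 2 → W.IsGoodPrimeFor r → UnrW W 3 r →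
    ((W.apOfModel r : ℤ) : ZMod 3) ≠ 0 →
    (∀ q' : ℕ, q'.Prime → q' ∣ N → q' ≠ r → UnrW W 3 q' → IsExcW W 3 q') →
    ∀ (f : CuspForm (CongruenceSubgroup.Gamma0 N) 2) (𝔪 : Ideal (integralClosure ℤ ℂ))
      (S : Finset ℕ),
    f.IsNormalizedEigenform → 𝔪.IsMaximal → ((3 : ℕ) : integralClosure ℤ ℂ) ∈ 𝔪 →
    (∀ ℓ : ℕ, ℓ.Prime → ℓ ∉ S → W.IsGoodPrimeFor ℓ → ¬ ℓ ∣ N → ℓ ≠ 3 →
      ∃ a : integralClosure ℤ ℂ, (a : ℂ) = ModularFormClass.qCoeff f ℓ ∧
        a - ((W.apOfModel ℓ : ℤ) : integralClosure ℤ ℂ) ∈ 𝔪) →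
    LowerConcl 3 N q W

/-- **PIVOT at `p = 3` with an auxiliary prime `r` in the level, curve form, `3 ∥ N` and `E[3]`
très ramifiée at `3`.** -/
def Stmt_PivotWCoreSOAux3 : Prop :=
  ∀ (W : WeierstrassCurve ℤ), W.Δ ≠ 0 → W.IsSemistableModel →
    GaloisRepIsIrreducible (K := AlgebraicClosure ℚ) ℚ (W.map (Int.castRingHom ℚ)).toAffine 3 →
    ∀ (N q r : ℕ), Squarefree N → 3 ∣ N → (3 : ℤ) ∣ W.Δ →
    ¬ (W.map (Int.castRingHom ℚ)).IsPeuRamifieeAt 3 3 →
    q.Prime → q ≠ 3 → q ∣ N → UnrW W 3 q →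
    r.Prime → r ∣ N → r ≠ q → r % 3 = 2 → W.IsGoodPrimeFor r → UnrW W 3 r →
    ((W.apOfModel r : ℤ) : ZMod 3) ≠ 0 →
    (∀ q' : ℕ, q'.Prime → q' ≠ 3 → q' ∣ N → q' ≠ r → UnrW W 3 q' → IsExcW W 3 q') →
    ∀ (f : CuspForm (CongruenceSubgroup.Gamma0 N) 2) (𝔪 : Ideal (integralClosure ℤ ℂ))
      (S : Finset ℕ),
    f.IsNormalizedEigenform → 𝔪.IsMaximal → ((3 : ℕ) : integralClosure ℤ ℂ) ∈ 𝔪 →
    (∀ ℓ : ℕ, ℓ.Prime → ℓ ∉ S → W.IsGoodPrimeFor ℓ → ¬ ℓ ∣ N → ℓ ≠ 3 →
      ∃ a : integralClosure ℤ ℂ, (a : ℂ) = ModularFormClass.qCoeff f ℓ ∧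
        a - ((W.apOfModel ℓ : ℤ) : integralClosure ℤ ℂ) ∈ 𝔪) →
    LowerConcl 3 N q W

end Fermat.Agent.L.Pivot3.H75

end
-- ==== END Fermat.Agent.L.Pivot3.H75_Defs

-- ==== BEGIN Fermat.Agent.L.Pivot3.H80_AuxCurve
section

/-!
# PIVOT at `p = 3` (package PIVOT3, owner helper75): `AuxAt` for a curve (helper80)

Shared lemma of the leaves W3 and WSO3.  Let `ρ` be a `3`-adic representation (over a local ring
`𝒪` with `3 ∈ 𝔪`) with the Frobenius characteristic polynomials `X² - a_r X + r` of a model `W` at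
the prime `r`, `r ≡ 2 mod 3`, `a_r(W) ≢ 0 mod 3`, whose residual representation is unramified at
`r`.  Then `H24.AuxAt 3 ρ.residual r`:  `det ρ̄(Frob_r) = r`, `tr ρ̄(Frob_r)² = a_r² ≠ 0 = (r + 1)²`.

* `auxAt_residual_of_charpoly` : the general form (integer `a` with `(a : ZMod 3) ≠ 0`);
* `auxAt_residual_of_curve`    : the form for `a = W.apOfModel r`.
-/

set_option autoImplicit false
set_option linter.unusedSectionVars false
set_option linter.unusedVariables false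
set_option linter.style.haveILetI false

noncomputable section

open Polynomial IsLocalRing

namespace Fermat.Agent.L.Pivot3.H80

open Fermat.Agent.L.Pivot3.H24

section Aux

variable {𝒪 : Type} [CommRing 𝒪] [IsLocalRing 𝒪]

/-- The residue field has characteristic `p` if `p ∈ 𝔪`. -/
theorem charP_residueField_of_mem {p : ℕ} (hp : p.Prime) (hp𝒪 : (p : 𝒪) ∈ maximalIdeal 𝒪) :
    CharP (ResidueField 𝒪) p := by
  refine (CharP.charP_iff_prime_eq_zero hp).mpr ?_
  have : residue 𝒪 (p : 𝒪) = 0 := (residue_eq_zero_iff _).mpr hp𝒪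
  rwa [map_natCast] at this

/-- An integer which is nonzero modulo `p` is nonzero in a field of characteristic `p`. -/
theorem intCast_ne_zero_of_zmod {k : Type} [Field k] {p : ℕ} [Fact p.Prime] [CharP k p]
    (a : ℤ) (ha : ((a : ℤ) : ZMod p) ≠ 0) : ((a : ℤ) : k) ≠ 0 := by
  intro h
  apply ha
  rw [ZMod.intCast_zmod_eq_zero_iff_dvd]
  exact (CharP.intCast_eq_zero_iff k p a).1 h

/-- **`AuxAt` from the Frobenius characteristic polynomials at `r`** (`p = 3`). -/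
theorem auxAt_residual_of_charpoly (ρ : GaloisRepAdic 𝒪) (h3 : ((3 : ℕ) : 𝒪) ∈ maximalIdeal 𝒪)
    (r : ℕ) (hr : r.Prime) (hr3 : r % 3 = 2) (a : ℤ) (ha : ((a : ℤ) : ZMod 3) ≠ 0)
    (hunr : ρ.residual.IsUnramifiedAt r)
    (hfrob : ∀ A : ValuationSubring (AlgebraicClosure ℚ), A.LiesOverPrime r →
      ∀ σ : AlgebraicClosure ℚ ≃ₐ[ℚ] AlgebraicClosure ℚ, A.IsFrobeniusAt σ r →
        LinearMap.charpoly (ρ.ρ σ) = X ^ 2 - C ((a : ℤ) : 𝒪) * X + C ((r : 𝒪))) :
    AuxAt 3 ρ.residual r := by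
  haveI : Fact (3 : ℕ).Prime := ⟨Nat.prime_three⟩
  haveI : CharP (ResidueField 𝒪) 3 := charP_residueField_of_mem Nat.prime_three h3
  refine ⟨hr, ?_, ?_, hunr, fun P hP σ hσ => ?_⟩
  · intro h
    rw [h] at hr3
    norm_num at hr3
  · intro h
    omega
  · have hc := Fermat.Agent.L.Pivot.H76.charpoly_frob_residual ρ σ a r (hfrob P hP σ hσ)
    obtain ⟨htr, hdet⟩ :=
      Fermat.Agent.S58.H99.trace_det_of_charpoly_two ρ.residual.finrank_eq (ρ.residual.ρ σ) hc
    refine ⟨hdet, ?_⟩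
    rw [htr]
    have h0 : ((r : ℕ) : ResidueField 𝒪) + 1 = 0 := by
      have hd : 3 ∣ r + 1 := by omega
      have := (CharP.cast_eq_zero_iff (ResidueField 𝒪) 3 (r + 1)).2 hd
      rwa [Nat.cast_add, Nat.cast_one] at this
    rw [h0]
    have hne : ((a : ℤ) : ResidueField 𝒪) ≠ 0 := intCast_ne_zero_of_zmod a ha
    intro h
    rw [zero_pow two_ne_zero] at h
    exact hne (pow_eq_zero_iff two_ne_zero |>.1 h)

/-- **`AuxAt` for a curve** (`p = 3`): `r ≡ 2 mod 3`, `a_r(W) ≢ 0 mod 3`. -/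
theorem auxAt_residual_of_curve (ρ : GaloisRepAdic 𝒪) (h3 : ((3 : ℕ) : 𝒪) ∈ maximalIdeal 𝒪)
    (W : WeierstrassCurve ℤ) (r : ℕ) (hr : r.Prime) (hr3 : r % 3 = 2)
    (har : ((W.apOfModel r : ℤ) : ZMod 3) ≠ 0)
    (hunr : ρ.residual.IsUnramifiedAt r)
    (hfrob : ∀ A : ValuationSubring (AlgebraicClosure ℚ), A.LiesOverPrime r →
      ∀ σ : AlgebraicClosure ℚ ≃ₐ[ℚ] AlgebraicClosure ℚ, A.IsFrobeniusAt σ r →
        LinearMap.charpoly (ρ.ρ σ)
          = X ^ 2 - C (((W.apOfModel r : ℤ) : 𝒪)) * X + C ((r : 𝒪))) :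
    AuxAt 3 ρ.residual r :=
  auxAt_residual_of_charpoly ρ h3 r hr hr3 (W.apOfModel r) har hunr hfrob

end Aux

end Fermat.Agent.L.Pivot3.H80

end
end
-- ==== END Fermat.Agent.L.Pivot3.H80_AuxCurve

-- ==== BEGIN Fermat.Agent.NEB.Geom.H14_PiFinal
section

/-!
# Item 72 (LG-NEB), package NEB-GEOM, leaf PI-WIRE (helper14): UNCONDITIONAL

`stmt_PI_WIRE : Stmt_PI_WIRE`, from `H14.stmt_PI_WIRE_of`, `H29.stmt_TOWER_INST` (helper29),
`H67.stmt_PI_UPINJ`, `H67.stmt_PI_UPINV` (helper67).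
-/

set_option autoImplicit false

noncomputable section

namespace Fermat.Agent.NEB.Geom.H14

open Fermat.Agent.NEB.Geom

theorem stmt_A_TOWER : Stmt_A_TOWER :=
  fun N S p n _ qv _ h2 => H29.stmt_TOWER_INST N S p n qv h2

/-- **PI-WIRE**, unconditional. -/
theorem stmt_PI_WIRE : Stmt_PI_WIRE :=
  stmt_PI_WIRE_of stmt_A_TOWER H67.stmt_PI_UPINJ H67.stmt_PI_UPINV

end Fermat.Agent.NEB.Geom.H14

end
end
-- ==== END Fermat.Agent.NEB.Geom.H14_PiFinal

-- ==== BEGIN Fermat.Agent.NEB.Geom.H84_Geom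
section

/-!
# Item 72 (LG-NEB), package NEB-GEOM (helper84): the final wiring

`stmt_TWGEOM_of_eta_pi : Stmt_A_ETA → Stmt_A_PI → Asm.Stmt_TWGEOM`:
all other leaves of the assembly (`AsmTop.stmt_TWGEOM_of`) are discharged here:

* A-MIN     : `H6.stmt_A_MIN_of` + `H26.stmt_W_MD`;
* A-SETUP   : `stmt_A_SETUP_of` + `H29.stmt_Z_COMMtw` + `H6.stmt_W_NONEIS` (+ A-ETA);
* A-R0      : `H84.stmt_A_R0`;
* A-GAL     : `H9.stmt_A_GAL`;
* A-ES      : `H29.stmt_A_ES`;
* A-HSTEP   : `stmt_A_HSTEP`;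
* A-FROBNIL : `H6.stmt_A_FROBNIL_of` (+ A-PI);
* A-LG      : `H9.stmt_A_LG_of` + `H70.stmt_W_KEYq` (+ A-PI).

`nonempty_twDiv_of_eta_pi` : the same for an ARBITRARY `MinSetup` (for `Stmt_TWGEOMB`).
-/

set_option autoImplicit false
set_option linter.unusedSectionVars false
set_option linter.style.haveILetI false
set_option linter.unusedVariables false

noncomputable section

open ModularCurve AlgebraicCurve IsLocalRing TensorProduct Polynomial

namespace Fermat.Agent.NEB.Geom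

open Fermat.Agent.NEB Fermat.Agent.NEB.JH Fermat.Agent.S59 Fermat.Agent.S59.Asm
  Fermat.Agent.S59.Lim Fermat.Agent.S59.Lim.H2

/-- **A-COMM**. -/
theorem stmt_A_COMM : Stmt_A_COMM :=
  fun N S p n _ qv _ h2 => Fermat.Agent.NEB.Geom.H29.stmt_Z_COMMtw N S p n qv h2

/-- **A-MIN**. -/
theorem stmt_A_MIN : Stmt_A_MIN :=
  Fermat.Agent.NEB.Geom.H6.stmt_A_MIN_of Fermat.Agent.NEB.Geom.H26.stmt_W_MD

/-- **A-SETUP**, modulo A-ETA. -/
theorem stmt_A_SETUP_of_eta (hETA : Stmt_A_ETA) : Stmt_A_SETUP :=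
  stmt_A_SETUP_of stmt_A_COMM Fermat.Agent.NEB.Geom.H6.stmt_W_NONEIS hETA

/-- **A-FROBNIL**, modulo A-PI. -/
theorem stmt_A_FROBNIL_of_pi (hPI : Stmt_A_PI) : Stmt_A_FROBNIL :=
  Fermat.Agent.NEB.Geom.H6.stmt_A_FROBNIL_of hPI

/-- **A-LG**, modulo A-PI. -/
theorem stmt_A_LG_of_pi (hPI : Stmt_A_PI) : Stmt_A_LG :=
  Fermat.Agent.NEB.Geom.H9.stmt_A_LG_of Fermat.Agent.NEB.Geom.H70.stmt_W_KEYq hPI

/-- The Taylor–Wiles data `TWDiv` over the divisible module of an ARBITRARY level-`N` setup `Dm`,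
modulo A-ETA and A-PI. -/
theorem nonempty_twDiv_of_eta_pi (hETA : Stmt_A_ETA) (hPI : Stmt_A_PI)
    (𝒪 : Type) [CommRing 𝒪] [IsDomain 𝒪] [IsDiscreteValuationRing 𝒪]
    [IsAdicComplete (maximalIdeal 𝒪) 𝒪] [Finite (ResidueField 𝒪)] [CharZero 𝒪]
    (ϖ : 𝒪) (p : ℕ) [Fact p.Prime] (N : ℕ) [NeZero N] (S : Finset ℕ)
    (θ : CuspForm.heckeAlgebra N 2 (↑S : Set ℕ) →+* ResidueField 𝒪)
    (ρbar : ResidualGaloisRep (ResidueField 𝒪)) (hstd : StdHyp 𝒪 ϖ p N S θ ρbar)
    (Dm : MinSetup 𝒪 ϖ p N S θ) (r n : ℕ) (qv : Fin r → ℕ)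
    (hfam : Fermat.Agent.S56.IsTWFamily ρbar p n S qv) [NeZero (twLevel N qv)]
    (hint' : CuspForm.HasIntegralStructure (twLevel N qv) 2) :
    Nonempty (TWDiv 𝒪 ϖ p ρbar N S θ Dm.MD n qv) := by
  rcases Nat.eq_zero_or_pos r with hr | hr
  · subst hr
    exact H84.stmt_A_R0 𝒪 ϖ p N S θ ρbar hstd Dm n qv
  · have hprime : ∀ j, (qv j).Prime := fun j => (hfam.2.1 j).1
    have hc0 : twC qv ≠ 0 := Finset.prod_ne_zero_iff.mpr fun j _ => (hprime j).ne_zero
    haveI : NeZero (twC qv) := ⟨hc0⟩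
    haveI : NeZero (N * twC qv) := ⟨mul_ne_zero (NeZero.ne N) hc0⟩
    obtain ⟨D⟩ := stmt_A_SETUP_of_eta hETA 𝒪 ϖ p N S θ ρbar hstd n r qv hr hfam hint'
    exact H84.nonempty_twDiv Dm D
      (Fermat.Agent.NEB.Geom.H9.stmt_A_GAL 𝒪 ϖ p N S θ ρbar hstd Dm n r qv D)
      (Fermat.Agent.NEB.Geom.H29.stmt_A_ES 𝒪 ϖ p N S θ ρbar hstd Dm n r qv D)
      (stmt_A_HSTEP 𝒪 ϖ p N S θ ρbar hstd Dm n r qv D)
      (hPI 𝒪 ϖ p N S θ ρbar hstd Dm n r qv D)
      (stmt_A_FROBNIL_of_pi hPI 𝒪 ϖ p N S θ ρbar hstd Dm n r qv D)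
      (stmt_A_LG_of_pi hPI 𝒪 ϖ p N S θ ρbar hstd Dm n r qv D)

/-- **NEB-GEOM**, modulo A-ETA and A-PI. -/
theorem stmt_TWGEOM_of_eta_pi (hETA : Stmt_A_ETA) (hPI : Stmt_A_PI) :
    Fermat.Agent.S59.Asm.Stmt_TWGEOM :=
  stmt_TWGEOM_of stmt_A_MIN (stmt_A_SETUP_of_eta hETA)
    H84.stmt_A_R0 Fermat.Agent.NEB.Geom.H9.stmt_A_GAL Fermat.Agent.NEB.Geom.H29.stmt_A_ES
    stmt_A_HSTEP hPI (stmt_A_FROBNIL_of_pi hPI) (stmt_A_LG_of_pi hPI)

end Fermat.Agent.NEB.Geom

end
end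
-- ==== END Fermat.Agent.NEB.Geom.H84_Geom

-- ==== BEGIN Fermat.Agent.S27.Char0.H20_FFX
section

/-!
# S27 char-0 half, leaf FF-X (helper20): the frozen hypotheses give a function field of one
variable.

`F / K` is finitely generated, `K` has characteristic `0`, so for a finite transcendence basis
`x : ι → F` the extension `F / K[x_i]` is formally étale and `Ω[F/K]` is free on the `d x_i`.
Rank one gives `#ι = 1`.
-/

set_option autoImplicit false
set_option linter.style.haveILetI false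

noncomputable section

open AlgebraicCurve IntermediateField KaehlerDifferential

namespace Fermat.Agent.S27.Char0.H20

universe u v

/-- The rank of the Kähler differentials of a finitely generated extension of fields of
characteristic `0` is the cardinality of a (finite) transcendence basis. -/
theorem finrank_kaehler_eq_card {K : Type u} {F : Type v} [Field K] [Field F] [Algebra K F]
    [CharZero K] {ι : Type v} [Fintype ι] {x : ι → F} (hx : IsTranscendenceBasis K x) :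
    Module.finrank F Ω[F⁄K] = Fintype.card ι := by
  classical
  let S := MvPolynomial ι K
  letI algSF : Algebra S F := (MvPolynomial.aeval x : S →ₐ[K] F).toRingHom.toAlgebra
  have hSF : ∀ s : S, algebraMap S F s = MvPolynomial.aeval x s := fun _ => rfl
  haveI : IsScalarTower K S F :=
    IsScalarTower.of_algebraMap_eq' (MvPolynomial.aeval x : S →ₐ[K] F).comp_algebraMap.symm
  have hinj : Function.Injective (algebraMap S F) := hx.1
  haveI : FaithfulSMul S F := (faithfulSMul_iff_algebraMap_injective S F).mpr hinj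
  let L₀ := FractionRing S
  letI algLF : Algebra L₀ F := (IsFractionRing.lift (K := L₀) hinj).toAlgebra
  haveI : IsScalarTower S L₀ F :=
    IsScalarTower.of_algebraMap_eq fun s => (IsFractionRing.lift_algebraMap hinj s).symm
  -- `F` is algebraic over `S`
  haveI hA₀ : Algebra.IsAlgebraic (Algebra.adjoin K (Set.range x)) F := hx.isAlgebraic
  haveI hSalg : Algebra.IsAlgebraic S F := by
    refine Algebra.IsAlgebraic.of_ringHom_of_comp_eq (R := S)
      (S := Algebra.adjoin K (Set.range x)) (A := F) (B := F)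
      (hx.1.aevalEquiv : S ≃+* Algebra.adjoin K (Set.range x)) (RingHom.id F)
      (EquivLike.surjective _) Function.injective_id ?_
    refine RingHom.ext fun p => ?_
    simp only [RingHom.comp_apply, hSF]
    exact hx.1.algebraMap_aevalEquiv p
  haveI : Algebra.IsAlgebraic L₀ F := IsFractionRing.comap_isAlgebraic_iff.mp hSalg
  haveI : CharZero L₀ := charZero_of_injective_algebraMap (algebraMap K L₀).injective
  haveI : Algebra.IsSeparable L₀ F := inferInstance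
  haveI : Algebra.FormallyEtale L₀ F := Algebra.FormallyEtale.of_isSeparable L₀ F
  haveI : Algebra.FormallyEtale S L₀ := Algebra.FormallyEtale.of_isLocalization (nonZeroDivisors S)
  haveI : Algebra.FormallyEtale S F := Algebra.FormallyEtale.comp S L₀ F
  let e := tensorKaehlerEquivOfFormallyEtale K S F
  let b : Module.Basis ι F Ω[F⁄K] := ((mvPolynomialBasis K ι).baseChange F).map e
  exact Module.finrank_eq_card_basis b

/-- **FF-X**. -/
theorem stmt_FFX : Stmt_FFX.{u, v} := by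
  intro K F _ _ _ _ _ _ _
  obtain ⟨s, hs⟩ := exists_finset_isTranscendenceBasis K F
  have h1 : Module.finrank F Ω[F⁄K] = Fintype.card ↥s := finrank_kaehler_eq_card hs
  rw [IsCurveOver.finrank_kaehler] at h1
  have h2 : s.card = 1 := by simpa using h1.symm
  obtain ⟨x₀, rfl⟩ := Finset.card_eq_one.mp h2
  refine ⟨x₀, ?_, ?_⟩
  · have := hs.1.transcendental ⟨x₀, by simp⟩
    simpa using this
  · have halg := hs.isAlgebraic_field
    have hr : Set.range ((↑) : ↥({x₀} : Finset F) → F) = {x₀} := by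
      ext y; simp
    rw [hr] at halg
    haveI := halg
    haveI : Algebra.EssFiniteType K⟮x₀⟯ F := Algebra.EssFiniteType.of_comp K K⟮x₀⟯ F
    exact Algebra.finite_of_essFiniteType_of_isAlgebraic

end Fermat.Agent.S27.Char0.H20

end
end
-- ==== END Fermat.Agent.S27.Char0.H20_FFX

-- ==== BEGIN Fermat.Agent.S27.Char0.H64_GaussRing
section

/-!
# S27 / RED-EX, leaf GaussExt (helper64), part 2: the Gauss valuation ring `V = V₀[θ]`

Data `GData`: a valuation ring `O` of `K`, `w ∈ F` transcendental with `[F : K(w)] = d`, and a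
root `θ ∈ F` of a monic Eisenstein polynomial `P = T^d + Σ c_i(w) T^i`, `c_i ∈ O[X]`, `X ∣ c_i`,
`c_0 / X` with unit constant term.

`A₂ = O[X][T]`, `evF : A₂ → F` (`X ↦ w`, `T ↦ θ`), `evD : A₂ → D = k[X][T]/(P~)` (a domain).
`V = {evF a / evF b : evD b ≠ 0}` is a valuation ring of `F` with `V ∩ K = O`, of Gauss type.
-/

set_option autoImplicit false
set_option linter.unusedSectionVars false
set_option linter.style.haveILetI false

noncomputable section

namespace Fermat.Agent.S27.Char0.H64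

open Polynomial IntermediateField IsLocalRing

universe u v

/-- In a valuation ring, a finite set with a nonzero element contains a nonzero element dividing
all the others. -/
theorem exists_dvd_all {R : Type u} [CommRing R] [IsDomain R] [ValuationRing R] (s : Finset R)
    (hs : ∃ a ∈ s, a ≠ 0) : ∃ c ∈ s, c ≠ 0 ∧ ∀ a ∈ s, c ∣ a := by
  classical
  induction s using Finset.induction_on with
  | empty =>
    obtain ⟨a, ha, -⟩ := hs
    exact absurd ha (Finset.notMem_empty a)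
  | insert x t _ ih =>
    by_cases ht : ∃ a ∈ t, a ≠ 0
    · obtain ⟨c₀, hc₀t, hc₀, hdiv⟩ := ih ht
      by_cases hx : x = 0
      · refine ⟨c₀, Finset.mem_insert_of_mem hc₀t, hc₀, fun a ha => ?_⟩
        rcases Finset.mem_insert.mp ha with rfl | ha
        · rw [hx]; exact dvd_zero _
        · exact hdiv a ha
      · rcases ValuationRing.dvd_total c₀ x with h | h
        · refine ⟨c₀, Finset.mem_insert_of_mem hc₀t, hc₀, fun a ha => ?_⟩
          rcases Finset.mem_insert.mp ha with rfl | ha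
          · exact h
          · exact hdiv a ha
        · refine ⟨x, Finset.mem_insert_self x t, hx, fun a ha => ?_⟩
          rcases Finset.mem_insert.mp ha with rfl | ha
          · exact dvd_rfl
          · exact h.trans (hdiv a ha)
    · have ht0 : ∀ a ∈ t, a = 0 := fun a ha => by
        by_contra h
        exact ht ⟨a, ha, h⟩
      obtain ⟨a, ha, ha0⟩ := hs
      have hx : x ≠ 0 := by
        rcases Finset.mem_insert.mp ha with rfl | ha'
        · exact ha0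
        · exact absurd (ht0 a ha') ha0
      refine ⟨x, Finset.mem_insert_self x t, hx, fun b hb => ?_⟩
      rcases Finset.mem_insert.mp hb with rfl | hb
      · exact dvd_rfl
      · rw [ht0 b hb]; exact dvd_zero _

/-- The data of an integral Eisenstein model over a valuation ring. -/
structure GData (K : Type u) (F : Type v) [Field K] [Field F] [Algebra K F] where
  O : ValuationSubring K
  w : F
  θ : F
  d : ℕ
  hd : 0 < d
  c : Fin d → (↥O)[X]
  c0 : ∀ i, (c i).coeff 0 = 0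
  c1 : IsUnit ((c ⟨0, hd⟩).coeff 1)
  rel : θ ^ d + ∑ i : Fin d,
    (c i).eval₂ ((algebraMap K F).comp O.subtype) w * θ ^ (i : ℕ) = 0
  transc : Transcendental K w
  fin : Module.Finite K⟮w⟯ F
  deg : Module.finrank K⟮w⟯ F = d

namespace GData

variable {K : Type u} {F : Type v} [Field K] [Field F] [Algebra K F] (G : GData K F)

/-- The residue field of `O`. -/
abbrev k : Type u := ResidueField ↥G.O

/-- `O → K`. -/
def iO : ↥G.O →+* K := G.O.subtype

/-- `O → F`. -/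
def iF : ↥G.O →+* F := (algebraMap K F).comp G.O.subtype

/-- `O → k`. -/
def res : ↥G.O →+* G.k := residue ↥G.O

theorem iO_injective : Function.Injective G.iO := Subtype.val_injective

theorem res_surjective : Function.Surjective G.res := residue_surjective

theorem res_eq_zero_iff (a : ↥G.O) : G.res a = 0 ↔ ¬ IsUnit a := by
  unfold res
  rw [residue_eq_zero_iff, mem_maximalIdeal, mem_nonunits_iff]

/-- The coefficients over `K`. -/
def cK (i : Fin G.d) : K[X] := (G.c i).map G.iO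

/-- The coefficients over `k`. -/
def ck (i : Fin G.d) : G.k[X] := (G.c i).map G.res

theorem cK0 (i : Fin G.d) : (G.cK i).coeff 0 = 0 := by
  unfold cK
  rw [coeff_map, G.c0, map_zero]

theorem ck0 (i : Fin G.d) : (G.ck i).coeff 0 = 0 := by
  unfold ck
  rw [coeff_map, G.c0, map_zero]

theorem cK1 : (G.cK ⟨0, G.hd⟩).coeff 1 ≠ 0 := by
  unfold cK
  rw [coeff_map]
  intro h
  have h2 : (G.c ⟨0, G.hd⟩).coeff 1 = 0 := G.iO_injective (by rw [h, map_zero])
  have := G.c1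
  rw [h2] at this
  exact not_isUnit_zero this

theorem ck1 : (G.ck ⟨0, G.hd⟩).coeff 1 ≠ 0 := by
  unfold ck
  rw [coeff_map]
  intro h
  exact ((G.res_eq_zero_iff _).mp h) G.c1

/-- The Eisenstein polynomial over `O[X]`. -/
def P : (↥G.O)[X][X] := eisP G.d G.c

theorem P_monic : G.P.Monic := eisP_monic _ _

theorem P_natDegree : G.P.natDegree = G.d := eisP_natDegree _ _

theorem P_degree : G.P.degree = (G.d : WithBot ℕ) := by
  rw [degree_eq_natDegree G.P_monic.ne_zero, G.P_natDegree]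

/-- The domain `D = k[X][T]/(P~)`. -/
abbrev D : Type u := AdjoinRoot (eisP G.d G.ck)

instance : IsDomain G.D := AdjoinRoot.isDomain_of_prime (eisP_prime G.hd G.ck G.ck0 G.ck1)

/-- Evaluation `A₂ → F`. -/
def evF : (↥G.O)[X][X] →+* F := eval₂RingHom (eval₂RingHom G.iF G.w) G.θ

/-- Reduction `A₂ → k[X][T]`. -/
def redP : (↥G.O)[X][X] →+* G.k[X][X] := mapRingHom (mapRingHom G.res)

/-- Base change `A₂ → K[X][T]`. -/
def bcK : (↥G.O)[X][X] →+* K[X][X] := mapRingHom (mapRingHom G.iO)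

/-- Evaluation `A₂ → D`. -/
def evD : (↥G.O)[X][X] →+* G.D := (AdjoinRoot.mk (eisP G.d G.ck)).comp G.redP

theorem bcK_injective : Function.Injective G.bcK :=
  Polynomial.map_injective _ (Polynomial.map_injective _ G.iO_injective)

theorem redP_P : G.redP G.P = eisP G.d G.ck := by
  unfold redP P
  rw [coe_mapRingHom, eisP_map]
  rfl

theorem bcK_P : G.bcK G.P = eisP G.d G.cK := by
  unfold bcK P
  rw [coe_mapRingHom, eisP_map]
  rfl

theorem evF_eq (g : (↥G.O)[X][X]) : G.evF g = (G.bcK g).eval₂ (evE G.w) G.θ := by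
  unfold evF bcK
  rw [coe_mapRingHom, eval₂_map, coe_eval₂RingHom]
  congr 1
  refine Polynomial.ringHom_ext (fun a => ?_) ?_
  · simp [evE_apply, iF, iO]
  · simp [evE_apply]

theorem evF_P : G.evF G.P = 0 := by
  unfold evF P
  rw [coe_eval₂RingHom, eisP_eval₂]
  exact G.rel

theorem evD_P : G.evD G.P = 0 := by
  unfold evD
  rw [RingHom.comp_apply, G.redP_P, AdjoinRoot.mk_self]

theorem hyK : (eisP G.d G.cK).eval₂ (evE G.w) G.θ = 0 := by
  rw [← G.bcK_P, ← G.evF_eq, G.evF_P]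

/-! ### Coordinates -/

theorem degree_bcK_le (g : (↥G.O)[X][X]) : (G.bcK g).degree ≤ g.degree := degree_map_le

theorem degree_redP_le (g : (↥G.O)[X][X]) : (G.redP g).degree ≤ g.degree := degree_map_le

/-- **INJ**: `evF` is injective on polynomials of degree `< d`. -/
theorem evF_inj (g : (↥G.O)[X][X]) (hg : g.degree < (G.d : WithBot ℕ)) (h : G.evF g = 0) :
    g = 0 := by
  apply G.bcK_injective
  rw [map_zero]
  refine eis_inj G.hd G.cK G.cK0 G.cK1 G.transc G.hyK _ ((G.degree_bcK_le g).trans_lt hg) ?_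
  rw [← G.evF_eq]
  exact h

/-- **PRIM**: on polynomials of degree `< d`, `evD g = 0` iff all coefficients are non-units. -/
theorem evD_eq_zero_iff (g : (↥G.O)[X][X]) (hg : g.degree < (G.d : WithBot ℕ)) :
    G.evD g = 0 ↔ G.redP g = 0 := by
  constructor
  · intro h
    unfold evD at h
    rw [RingHom.comp_apply, AdjoinRoot.mk_eq_zero] at h
    refine Polynomial.eq_zero_of_dvd_of_degree_lt h ?_
    have : (eisP G.d G.ck).degree = (G.d : WithBot ℕ) := by
      rw [degree_eq_natDegree (eisP_monic _ _).ne_zero, eisP_natDegree]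
    rw [this]
    exact (G.degree_redP_le g).trans_lt hg
  · intro h
    unfold evD
    rw [RingHom.comp_apply, h, map_zero]

theorem redP_eq_zero_iff (g : (↥G.O)[X][X]) :
    G.redP g = 0 ↔ ∀ i j, ¬ IsUnit ((g.coeff i).coeff j) := by
  unfold redP
  rw [coe_mapRingHom]
  constructor
  · intro h i j
    have := congrArg (fun p : G.k[X][X] => (p.coeff i).coeff j) h
    simp only [coeff_map, coe_mapRingHom, coeff_zero] at this
    exact (G.res_eq_zero_iff _).mp this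
  · intro h
    ext i j
    simp only [coeff_map, coe_mapRingHom, coeff_zero]
    exact (G.res_eq_zero_iff _).mpr (h i j)

/-- Reduction modulo `P`. -/
def rem (g : (↥G.O)[X][X]) : (↥G.O)[X][X] := g %ₘ G.P

theorem rem_degree (g : (↥G.O)[X][X]) : (G.rem g).degree < (G.d : WithBot ℕ) := by
  unfold rem
  rw [← G.P_degree]
  exact degree_modByMonic_lt g G.P_monic

theorem evF_rem (g : (↥G.O)[X][X]) : G.evF (G.rem g) = G.evF g := by
  have h := modByMonic_add_div g G.P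
  conv_rhs => rw [← h]
  rw [map_add, map_mul, G.evF_P, zero_mul, add_zero]
  rfl

theorem evD_rem (g : (↥G.O)[X][X]) : G.evD (G.rem g) = G.evD g := by
  have h := modByMonic_add_div g G.P
  conv_rhs => rw [← h]
  rw [map_add, map_mul, G.evD_P, zero_mul, add_zero]
  rfl

/-- `evF g = 0` implies `evD g = 0`. -/
theorem evD_eq_zero_of_evF (g : (↥G.O)[X][X]) (h : G.evF g = 0) : G.evD g = 0 := by
  have h1 : G.rem g = 0 := G.evF_inj _ (G.rem_degree g) (by rw [G.evF_rem]; exact h)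
  rw [← G.evD_rem, h1, map_zero]

theorem evF_ne_zero (g : (↥G.O)[X][X]) (h : G.evD g ≠ 0) : G.evF g ≠ 0 :=
  fun h0 => h (G.evD_eq_zero_of_evF g h0)

/-- Equality of values of `evF` implies equality of values of `evD`. -/
theorem evD_eq_of_evF_eq (a b : (↥G.O)[X][X]) (h : G.evF a = G.evF b) : G.evD a = G.evD b := by
  have e1 : G.evF (a - b) = G.evF a - G.evF b := map_sub G.evF a b
  have e2 : G.evD (a - b) = G.evD a - G.evD b := map_sub G.evD a b
  have := G.evD_eq_zero_of_evF (a - b) (by rw [e1, h, sub_self])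
  rw [e2, sub_eq_zero] at this
  exact this

/-- The constant `c ∈ O` as an element of `A₂`. -/
def CC (c : ↥G.O) : (↥G.O)[X][X] := C (C c)

theorem evF_CC (c : ↥G.O) : G.evF (G.CC c) = algebraMap K F (c : K) := by
  unfold evF CC
  simp [iF]

theorem redP_CC (c : ↥G.O) : G.redP (G.CC c) = C (C (G.res c)) := by
  unfold redP CC
  simp

theorem degree_CC_le (c : ↥G.O) : (G.CC c).degree ≤ 0 := degree_C_le

theorem d_pos' : (0 : WithBot ℕ) < (G.d : WithBot ℕ) := by exact_mod_cast G.hd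

theorem evD_CC_eq_zero_iff (c : ↥G.O) : G.evD (G.CC c) = 0 ↔ ¬ IsUnit c := by
  rw [G.evD_eq_zero_iff _ ((G.degree_CC_le c).trans_lt G.d_pos'), G.redP_CC, C_eq_zero, C_eq_zero,
    G.res_eq_zero_iff]

/-! ### Scaling -/

/-- **SCALE**: a nonzero polynomial is a nonzero constant times a primitive one. -/
theorem exists_scale_poly (g : (↥G.O)[X][X]) (hg0 : g ≠ 0) :
    ∃ (c : ↥G.O) (g₁ : (↥G.O)[X][X]), c ≠ 0 ∧ g = G.CC c * g₁ ∧ G.redP g₁ ≠ 0 := by
  classical
  set s : Finset ↥G.O :=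
    g.support.biUnion (fun i => (g.coeff i).support.image (fun j => (g.coeff i).coeff j)) with hs
  have hmem : ∀ i j, (g.coeff i).coeff j ≠ 0 → (g.coeff i).coeff j ∈ s := by
    intro i j hij
    rw [hs, Finset.mem_biUnion]
    refine ⟨i, ?_, Finset.mem_image.mpr ⟨j, mem_support_iff.mpr hij, rfl⟩⟩
    rw [mem_support_iff]
    intro h
    rw [h, coeff_zero] at hij
    exact hij rfl
  have hne : ∃ a ∈ s, a ≠ 0 := by
    obtain ⟨i, hi⟩ : ∃ i, g.coeff i ≠ 0 := by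
      by_contra h
      push Not at h
      exact hg0 (Polynomial.ext fun i => by rw [h i, coeff_zero])
    obtain ⟨j, hj⟩ : ∃ j, (g.coeff i).coeff j ≠ 0 := by
      by_contra h
      push Not at h
      exact hi (Polynomial.ext fun j => by rw [h j, coeff_zero])
    exact ⟨_, hmem i j hj, hj⟩
  obtain ⟨c, hcs, hc0, hdiv⟩ := exists_dvd_all s hne
  have hdvd : G.CC c ∣ g := by
    unfold CC
    rw [C_dvd_iff_dvd_coeff]
    intro i
    rw [C_dvd_iff_dvd_coeff]
    intro j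
    by_cases hij : (g.coeff i).coeff j = 0
    · rw [hij]; exact dvd_zero _
    · exact hdiv _ (hmem i j hij)
  obtain ⟨g₁, hg₁⟩ := hdvd
  refine ⟨c, g₁, hc0, hg₁, ?_⟩
  rw [Ne, G.redP_eq_zero_iff]
  push Not
  rw [hs, Finset.mem_biUnion] at hcs
  obtain ⟨i, -, hi⟩ := hcs
  obtain ⟨j, -, hj⟩ := Finset.mem_image.mp hi
  refine ⟨i, j, ?_⟩
  have h1 : (g.coeff i).coeff j = c * (g₁.coeff i).coeff j := by
    rw [hg₁]
    unfold CC
    rw [coeff_C_mul, coeff_C_mul]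
  rw [hj] at h1
  have h2 : (g₁.coeff i).coeff j = 1 := by
    have : c * 1 = c * (g₁.coeff i).coeff j := by rw [mul_one]; exact h1
    exact (mul_left_cancel₀ hc0 this).symm
  rw [h2]
  exact isUnit_one

/-- `evD` of a primitive polynomial of degree `< d` is nonzero. -/
theorem evD_ne_zero_of_redP (g : (↥G.O)[X][X]) (hg : g.degree < (G.d : WithBot ℕ))
    (h : G.redP g ≠ 0) : G.evD g ≠ 0 :=
  fun h0 => h ((G.evD_eq_zero_iff g hg).mp h0)

theorem degree_of_CC_mul (c : ↥G.O) (hc : c ≠ 0) (g₁ : (↥G.O)[X][X]) :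
    (G.CC c * g₁).degree = g₁.degree := by
  unfold CC
  rw [degree_mul, degree_C (C_ne_zero.mpr hc), zero_add]

/-- **SCALE**, degree `< d` form. -/
theorem exists_scale (g : (↥G.O)[X][X]) (hg0 : g ≠ 0) (hg : g.degree < (G.d : WithBot ℕ)) :
    ∃ (c : ↥G.O) (g₁ : (↥G.O)[X][X]), c ≠ 0 ∧ g = G.CC c * g₁ ∧ G.evD g₁ ≠ 0 := by
  obtain ⟨c, g₁, hc, hg₁, hred⟩ := G.exists_scale_poly g hg0
  refine ⟨c, g₁, hc, hg₁, G.evD_ne_zero_of_redP g₁ ?_ hred⟩
  rw [← G.degree_of_CC_mul c hc g₁, ← hg₁]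
  exact hg

/-! ### Every element of `F` is a quotient -/

/-- Common denominators: a polynomial over `K` times a nonzero constant of `O` is integral. -/
theorem exists_int_multiple (s : Finset K) :
    ∃ b : ↥G.O, b ≠ 0 ∧ ∀ a ∈ s, (b : K) * a ∈ G.O := by
  obtain ⟨b, hb⟩ := IsLocalization.exist_integer_multiples_of_finset (nonZeroDivisors ↥G.O) s
  refine ⟨b, nonZeroDivisors.coe_ne_zero b, fun a ha => ?_⟩
  obtain ⟨y, hy⟩ := hb a ha
  rw [Algebra.smul_def] at hy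
  have : (b : K) * a = (y : K) := hy.symm
  rw [this]
  exact y.2

theorem exists_lift_poly (q : K[X]) (h : ∀ j, q.coeff j ∈ G.O) :
    ∃ q₀ : (↥G.O)[X], q₀.map G.iO = q := by
  have : q ∈ Polynomial.lifts G.iO := by
    rw [lifts_iff_coeff_lifts]
    intro n
    exact ⟨⟨q.coeff n, h n⟩, rfl⟩
  exact (mem_lifts q).mp this

theorem exists_lift_poly₂ (g : K[X][X]) (h : ∀ i j, (g.coeff i).coeff j ∈ G.O) :
    ∃ g₀ : (↥G.O)[X][X], G.bcK g₀ = g := by
  have : g ∈ Polynomial.lifts (mapRingHom G.iO) := by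
    rw [lifts_iff_coeff_lifts]
    intro n
    obtain ⟨q₀, hq₀⟩ := G.exists_lift_poly (g.coeff n) (h n)
    exact ⟨q₀, hq₀⟩
  exact (mem_lifts g).mp this

/-- **GEN** over `O`: every element of `F` is `evF a / evF b`, `b ≠ 0` of degree `< d`. -/
theorem exists_quot (f : F) :
    ∃ a b : (↥G.O)[X][X], b ≠ 0 ∧ b.degree < (G.d : WithBot ℕ) ∧
      a.degree < (G.d : WithBot ℕ) ∧ f * G.evF b = G.evF a := by
  classical
  haveI := G.fin
  obtain ⟨g, q, hq, hfq⟩ := eis_gen G.hd G.cK G.cK0 G.cK1 G.transc G.hyK G.deg f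
  set s : Finset K :=
    (g.support.biUnion (fun i => (g.coeff i).support.image (fun j => (g.coeff i).coeff j))) ∪
      q.support.image (fun j => q.coeff j) with hs
  obtain ⟨b, hb0, hb⟩ := G.exists_int_multiple s
  have hg : ∀ i j, ((C (C (b : K)) * g).coeff i).coeff j ∈ G.O := by
    intro i j
    rw [coeff_C_mul, coeff_C_mul]
    by_cases hij : (g.coeff i).coeff j = 0
    · rw [hij, mul_zero]; exact zero_mem _
    · apply hb
      rw [hs]
      apply Finset.mem_union_left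
      rw [Finset.mem_biUnion]
      refine ⟨i, ?_, Finset.mem_image.mpr ⟨j, mem_support_iff.mpr hij, rfl⟩⟩
      rw [mem_support_iff]
      intro h
      rw [h, coeff_zero] at hij
      exact hij rfl
  have hq' : ∀ j, (C (b : K) * q).coeff j ∈ G.O := by
    intro j
    rw [coeff_C_mul]
    by_cases hj : q.coeff j = 0
    · rw [hj, mul_zero]; exact zero_mem _
    · apply hb
      rw [hs]
      apply Finset.mem_union_right
      exact Finset.mem_image.mpr ⟨j, mem_support_iff.mpr hj, rfl⟩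
  obtain ⟨g₀, hg₀⟩ := G.exists_lift_poly₂ _ hg
  obtain ⟨q₀, hq₀⟩ := G.exists_lift_poly _ hq'
  have hbK : (b : K) ≠ 0 := fun h => hb0 (Subtype.ext h)
  have hq₀0 : q₀ ≠ 0 := by
    intro h
    rw [h, Polynomial.map_zero] at hq₀
    exact mul_ne_zero (C_ne_zero.mpr hbK) hq hq₀.symm
  have hevq : G.evF (C q₀) = algebraMap K F (b : K) * aeval G.w q := by
    rw [G.evF_eq]
    unfold bcK
    rw [coe_mapRingHom, map_C, eval₂_C, coe_mapRingHom, hq₀, evE_apply, map_mul, aeval_C]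
  have hevg : G.evF g₀ = algebraMap K F (b : K) * g.eval₂ (evE G.w) G.θ := by
    rw [G.evF_eq, hg₀, eval₂_mul, eval₂_C, evE_apply, aeval_C]
  refine ⟨G.rem g₀, C q₀, C_ne_zero.mpr hq₀0, (degree_C_le).trans_lt G.d_pos', G.rem_degree g₀, ?_⟩
  rw [G.evF_rem, hevq, hevg, ← hfq]
  ring

/-! ### The valuation ring -/

/-- The carrier of `V`. -/
def Vset : Set F := {f | ∃ a b : (↥G.O)[X][X], G.evD b ≠ 0 ∧ f * G.evF b = G.evF a}

theorem evF_mem (g : (↥G.O)[X][X]) : G.evF g ∈ G.Vset :=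
  ⟨g, 1, by rw [map_one]; exact one_ne_zero, by rw [map_one, mul_one]⟩

theorem mul_mem_Vset {f₁ f₂ : F} (h₁ : f₁ ∈ G.Vset) (h₂ : f₂ ∈ G.Vset) : f₁ * f₂ ∈ G.Vset := by
  obtain ⟨a₁, b₁, hb₁, e₁⟩ := h₁
  obtain ⟨a₂, b₂, hb₂, e₂⟩ := h₂
  refine ⟨a₁ * a₂, b₁ * b₂, ?_, ?_⟩
  · rw [map_mul]; exact mul_ne_zero hb₁ hb₂
  · rw [map_mul, map_mul, ← e₁, ← e₂]; ring

theorem add_mem_Vset {f₁ f₂ : F} (h₁ : f₁ ∈ G.Vset) (h₂ : f₂ ∈ G.Vset) : f₁ + f₂ ∈ G.Vset := by
  obtain ⟨a₁, b₁, hb₁, e₁⟩ := h₁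
  obtain ⟨a₂, b₂, hb₂, e₂⟩ := h₂
  refine ⟨a₁ * b₂ + a₂ * b₁, b₁ * b₂, ?_, ?_⟩
  · rw [map_mul]; exact mul_ne_zero hb₁ hb₂
  · rw [map_add, map_mul, map_mul, map_mul, ← e₁, ← e₂]; ring

theorem neg_mem_Vset {f : F} (h : f ∈ G.Vset) : -f ∈ G.Vset := by
  obtain ⟨a, b, hb, e⟩ := h
  refine ⟨-a, b, hb, ?_⟩
  have : G.evF (-a) = -G.evF a := map_neg G.evF a
  rw [this, ← e]; ring

/-- Decomposition of a nonzero element: `f · c_b · evF b₁ = c_a · evF a₁` with `a₁, b₁` primitive. -/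
theorem exists_decomp (f : F) (hf : f ≠ 0) :
    ∃ (ca cb : ↥G.O) (a₁ b₁ : (↥G.O)[X][X]), ca ≠ 0 ∧ cb ≠ 0 ∧ G.evD a₁ ≠ 0 ∧ G.evD b₁ ≠ 0 ∧
      f * (algebraMap K F (cb : K) * G.evF b₁) = algebraMap K F (ca : K) * G.evF a₁ := by
  obtain ⟨a, b, hb0, hbd, had, hab⟩ := G.exists_quot f
  have hevb : G.evF b ≠ 0 := fun h => hb0 (G.evF_inj b hbd h)
  have ha0 : a ≠ 0 := by
    intro h
    rw [h, map_zero] at hab
    exact (mul_ne_zero hf hevb) hab
  obtain ⟨ca, a₁, hca, ha₁, hda⟩ := G.exists_scale a ha0 had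
  obtain ⟨cb, b₁, hcb, hb₁, hdb⟩ := G.exists_scale b hb0 hbd
  refine ⟨ca, cb, a₁, b₁, hca, hcb, hda, hdb, ?_⟩
  rw [← G.evF_CC, ← G.evF_CC, ← map_mul, ← map_mul, ← ha₁, ← hb₁]
  exact hab

theorem mem_or_inv_mem_Vset (f : F) : f ∈ G.Vset ∨ f⁻¹ ∈ G.Vset := by
  by_cases hf : f = 0
  · left
    rw [hf, ← map_zero G.evF]
    exact G.evF_mem 0
  obtain ⟨ca, cb, a₁, b₁, hca, hcb, hda, hdb, h⟩ := G.exists_decomp f hf
  rcases ValuationRing.dvd_total cb ca with ⟨e, he⟩ | ⟨e, he⟩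
  · left
    refine ⟨G.CC e * a₁, b₁, hdb, ?_⟩
    have hcbF : algebraMap K F (cb : K) ≠ 0 := by
      rw [Ne, map_eq_zero]
      exact fun h => hcb (Subtype.ext h)
    apply mul_left_cancel₀ hcbF
    rw [map_mul, G.evF_CC]
    have : (ca : K) = (cb : K) * (e : K) := by rw [he]; rfl
    rw [this, map_mul] at h
    rw [← mul_assoc, ← mul_assoc, ← h]
    ring
  · right
    refine ⟨G.CC e * b₁, a₁, hda, ?_⟩
    have hcaF : algebraMap K F (ca : K) ≠ 0 := by
      rw [Ne, map_eq_zero]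
      exact fun h => hca (Subtype.ext h)
    have heva : G.evF a₁ ≠ 0 := G.evF_ne_zero a₁ hda
    have : (cb : K) = (ca : K) * (e : K) := by rw [he]; rfl
    rw [this, map_mul] at h
    rw [map_mul, G.evF_CC]
    apply mul_left_cancel₀ hcaF
    apply mul_left_cancel₀ hf
    rw [← mul_assoc, ← mul_assoc, mul_comm f, mul_assoc _ f, mul_inv_cancel₀ hf, mul_one, ← h]
    ring

/-- The Gauss valuation ring of `F`. -/
def V : ValuationSubring F where
  carrier := G.Vset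
  mul_mem' := G.mul_mem_Vset
  one_mem' := by rw [← map_one G.evF]; exact G.evF_mem 1
  add_mem' := G.add_mem_Vset
  zero_mem' := by rw [← map_zero G.evF]; exact G.evF_mem 0
  neg_mem' := G.neg_mem_Vset
  mem_or_inv_mem' := G.mem_or_inv_mem_Vset

theorem mem_V_iff (f : F) :
    f ∈ G.V ↔ ∃ a b : (↥G.O)[X][X], G.evD b ≠ 0 ∧ f * G.evF b = G.evF a := Iff.rfl

theorem evF_mem_V (g : (↥G.O)[X][X]) : G.evF g ∈ G.V := G.evF_mem g

/-! ### `V ∩ K = O` and the scale property -/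

theorem algebraMap_mem_V_iff (c : K) : algebraMap K F c ∈ G.V ↔ c ∈ G.O := by
  constructor
  · intro h
    by_contra hc
    obtain ⟨a, b, hb, hab⟩ := (G.mem_V_iff _).mp h
    have hc0 : c ≠ 0 := fun h0 => hc (by rw [h0]; exact zero_mem _)
    have hcinv : c⁻¹ ∈ G.O := (G.O.mem_or_inv_mem c).resolve_left hc
    set e : ↥G.O := ⟨c⁻¹, hcinv⟩ with he
    have hnu : ¬ IsUnit e := by
      intro hu
      obtain ⟨u, hu⟩ := hu
      apply hc
      have h' : (u : ↥G.O) * ((u⁻¹ : (↥G.O)ˣ) : ↥G.O) = 1 := u.mul_inv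
      rw [hu] at h'
      have h2 : c⁻¹ * (((u⁻¹ : (↥G.O)ˣ) : ↥G.O) : K) = 1 := congrArg Subtype.val h'
      have h1 : (((u⁻¹ : (↥G.O)ˣ) : ↥G.O) : K) = c := by
        rw [← inv_eq_of_mul_eq_one_right h2, inv_inv]
      rw [← h1]
      exact ((u⁻¹ : (↥G.O)ˣ) : ↥G.O).2
    -- `evF b = evF (CC e * a)`
    have h1 : G.evF (G.rem b) = G.evF (G.rem (G.CC e * a)) := by
      rw [G.evF_rem, G.evF_rem, map_mul, G.evF_CC, ← hab]
      change G.evF b = algebraMap K F c⁻¹ * _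
      rw [← mul_assoc, ← map_mul, inv_mul_cancel₀ hc0, map_one, one_mul]
    have h2 := G.evD_eq_of_evF_eq _ _ h1
    rw [G.evD_rem, G.evD_rem, map_mul, (G.evD_CC_eq_zero_iff e).mpr hnu, zero_mul] at h2
    exact hb h2
  · intro h
    have := G.evF_mem_V (G.CC ⟨c, h⟩)
    rw [G.evF_CC] at this
    exact this

theorem comap_V : G.V.comap (algebraMap K F) = G.O := by
  ext c
  rw [ValuationSubring.mem_comap]
  exact G.algebraMap_mem_V_iff c

/-- Units of `V` among the values of `evF`. -/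
theorem evF_inv_mem_V (g : (↥G.O)[X][X]) (h : G.evD g ≠ 0) : (G.evF g)⁻¹ ∈ G.V := by
  refine (G.mem_V_iff _).mpr ⟨1, g, h, ?_⟩
  rw [map_one, inv_mul_cancel₀ (G.evF_ne_zero g h)]

theorem evD_ne_zero_of_inv_mem (g : (↥G.O)[X][X]) (h0 : G.evF g ≠ 0) (h : (G.evF g)⁻¹ ∈ G.V) :
    G.evD g ≠ 0 := by
  obtain ⟨a, b, hb, hab⟩ := (G.mem_V_iff _).mp h
  intro hg
  have h1 : G.evF b = G.evF (a * g) := by
    rw [map_mul, ← hab, mul_comm _ (G.evF b), mul_assoc, inv_mul_cancel₀ h0, mul_one]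
  have h2 := G.evD_eq_of_evF_eq _ _ h1
  rw [map_mul, hg, mul_zero] at h2
  exact hb h2

/-- The scale property. -/
theorem scale_V (f : F) (hf : f ≠ 0) :
    ∃ c : K, c ≠ 0 ∧ ∃ u : (↥G.V)ˣ, f = algebraMap K F c * ((u : ↥G.V) : F) := by
  obtain ⟨ca, cb, a₁, b₁, hca, hcb, hda, hdb, h⟩ := G.exists_decomp f hf
  have hcaK : (ca : K) ≠ 0 := fun h => hca (Subtype.ext h)
  have hcbK : (cb : K) ≠ 0 := fun h => hcb (Subtype.ext h)
  have heva : G.evF a₁ ≠ 0 := G.evF_ne_zero a₁ hda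
  have hevb : G.evF b₁ ≠ 0 := G.evF_ne_zero b₁ hdb
  have hu1 : G.evF a₁ * (G.evF b₁)⁻¹ ∈ G.V :=
    G.V.mul_mem _ _ (G.evF_mem_V a₁) (G.evF_inv_mem_V b₁ hdb)
  have hu2 : G.evF b₁ * (G.evF a₁)⁻¹ ∈ G.V :=
    G.V.mul_mem _ _ (G.evF_mem_V b₁) (G.evF_inv_mem_V a₁ hda)
  refine ⟨(ca : K) * (cb : K)⁻¹, mul_ne_zero hcaK (inv_ne_zero hcbK),
    ⟨⟨_, hu1⟩, ⟨_, hu2⟩, ?_, ?_⟩, ?_⟩
  · apply Subtype.ext
    change G.evF a₁ * (G.evF b₁)⁻¹ * (G.evF b₁ * (G.evF a₁)⁻¹) = 1
    field_simp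
  · apply Subtype.ext
    change G.evF b₁ * (G.evF a₁)⁻¹ * (G.evF a₁ * (G.evF b₁)⁻¹) = 1
    field_simp
  · change f = algebraMap K F ((ca : K) * (cb : K)⁻¹) * (G.evF a₁ * (G.evF b₁)⁻¹)
    have hcbF : algebraMap K F (cb : K) ≠ 0 := by rw [Ne, map_eq_zero]; exact hcbK
    rw [map_mul, map_inv₀]
    field_simp
    rw [← h]
    ring

/-! ### The residue field -/

/-- The residue field of `V`. -/
abbrev Ft : Type v := ResidueField ↥G.V

/-- `evF` as a map into `V`. -/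
def evV : (↥G.O)[X][X] →+* ↥G.V := G.evF.codRestrict G.V (fun g => G.evF_mem_V g)

theorem coe_evV (g : (↥G.O)[X][X]) : ((G.evV g : ↥G.V) : F) = G.evF g := rfl

theorem isUnit_evV_iff (g : (↥G.O)[X][X]) : IsUnit (G.evV g) ↔ G.evD g ≠ 0 := by
  constructor
  · rintro ⟨u, hu⟩
    have h1 : ((u : ↥G.V) : F) * (((u⁻¹ : (↥G.V)ˣ) : ↥G.V) : F) = 1 :=
      congrArg Subtype.val u.mul_inv
    rw [hu, G.coe_evV] at h1
    have h0 : G.evF g ≠ 0 := fun h => by rw [h, zero_mul] at h1; exact zero_ne_one h1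
    refine G.evD_ne_zero_of_inv_mem g h0 ?_
    rw [inv_eq_of_mul_eq_one_right h1]
    exact ((u⁻¹ : (↥G.V)ˣ) : ↥G.V).2
  · intro h
    have h0 := G.evF_ne_zero g h
    refine ⟨⟨G.evV g, ⟨(G.evF g)⁻¹, G.evF_inv_mem_V g h⟩, ?_, ?_⟩, rfl⟩
    · apply Subtype.ext
      change G.evF g * (G.evF g)⁻¹ = 1
      exact mul_inv_cancel₀ h0
    · apply Subtype.ext
      change (G.evF g)⁻¹ * G.evF g = 1
      exact inv_mul_cancel₀ h0

/-- The reduction `A₂ → Ft`. -/
def redA : (↥G.O)[X][X] →+* G.Ft := (residue ↥G.V).comp G.evV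

theorem redA_eq_zero_iff (g : (↥G.O)[X][X]) : G.redA g = 0 ↔ G.evD g = 0 := by
  unfold redA
  rw [RingHom.comp_apply, residue_eq_zero_iff, mem_maximalIdeal, mem_nonunits_iff,
    G.isUnit_evV_iff, not_not]

/-- `O → V`. -/
def oV : ↥G.O →+* ↥G.V := G.evV.comp ((C : (↥G.O)[X] →+* (↥G.O)[X][X]).comp C)

theorem oV_apply (c : ↥G.O) : G.oV c = G.evV (G.CC c) := rfl

theorem coe_oV (c : ↥G.O) : ((G.oV c : ↥G.V) : F) = algebraMap K F (c : K) := by
  rw [G.oV_apply, G.coe_evV, G.evF_CC]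

instance instAlgebraOV : Algebra ↥G.O ↥G.V := G.oV.toAlgebra

theorem algebraMap_OV (c : ↥G.O) : algebraMap ↥G.O ↥G.V c = G.oV c := rfl

instance instIsLocalHomOV : IsLocalHom (algebraMap ↥G.O ↥G.V) where
  map_nonunit c hc := by
    rw [G.algebraMap_OV, G.oV_apply, G.isUnit_evV_iff] at hc
    by_contra h
    exact hc ((G.evD_CC_eq_zero_iff c).mpr h)

theorem algebraMap_res (c : ↥G.O) :
    algebraMap G.k G.Ft (G.res c) = G.redA (G.CC c) := rfl

/-- The reduction of `w`. -/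
def wt : G.Ft := G.redA (C X)

/-- The reduction of `θ`. -/
def θt : G.Ft := G.redA X

/-- `redA` is reduction of coefficients followed by evaluation at `(wt, θt)`. -/
theorem redA_eq (g : (↥G.O)[X][X]) : G.redA g = (G.redP g).eval₂ (evE G.wt) G.θt := by
  have h : G.redA = (eval₂RingHom (evE (L := G.k) G.wt) G.θt).comp G.redP := by
    refine Polynomial.ringHom_ext (fun a => ?_) ?_
    · have h2 : G.redA.comp C = ((eval₂RingHom (evE (L := G.k) G.wt) G.θt).comp G.redP).comp C := by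
        refine Polynomial.ringHom_ext (fun c => ?_) ?_
        · simp only [RingHom.comp_apply, redP, coe_mapRingHom, map_C, coe_eval₂RingHom, eval₂_C,
            evE_apply, aeval_C]
          exact (G.algebraMap_res c).symm
        · simp only [RingHom.comp_apply, redP, coe_mapRingHom, map_C, map_X, coe_eval₂RingHom,
            eval₂_C, evE_apply, aeval_X]
          rfl
      exact congrArg (fun φ : (↥G.O)[X] →+* G.Ft => φ a) h2
    · simp only [RingHom.comp_apply, redP, coe_mapRingHom, map_X, coe_eval₂RingHom, eval₂_X]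
      rfl
  rw [h]
  rfl

theorem wt_transcendental : Transcendental G.k G.wt := by
  rw [transcendental_iff_injective, injective_iff_map_eq_zero]
  intro pt hpt
  obtain ⟨p, hp⟩ := Polynomial.map_surjective G.res G.res_surjective pt
  have h1 : G.redA (C p) = 0 := by
    rw [G.redA_eq]
    unfold redP
    rw [coe_mapRingHom, map_C, eval₂_C, coe_mapRingHom, hp, evE_apply]
    exact hpt
  have h2 := (G.redA_eq_zero_iff _).mp h1
  have h3 := (G.evD_eq_zero_iff (C p) ((degree_C_le).trans_lt G.d_pos')).mp h2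
  unfold redP at h3
  rw [coe_mapRingHom, map_C, coe_mapRingHom, hp, C_eq_zero] at h3
  exact h3

theorem hyk : (eisP G.d G.ck).eval₂ (evE G.wt) G.θt = 0 := by
  rw [← G.redP_P, ← G.redA_eq, G.redA_eq_zero_iff, G.evD_P]

theorem hgenk (z : G.Ft) : ∃ a b : G.k[X][X], b.eval₂ (evE G.wt) G.θt ≠ 0 ∧
    z * b.eval₂ (evE G.wt) G.θt = a.eval₂ (evE G.wt) G.θt := by
  obtain ⟨v, rfl⟩ := residue_surjective z
  obtain ⟨a, b, hb, hab⟩ := (G.mem_V_iff _).mp v.2
  refine ⟨G.redP a, G.redP b, ?_, ?_⟩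
  · rw [← G.redA_eq, Ne, G.redA_eq_zero_iff]
    exact hb
  · rw [← G.redA_eq, ← G.redA_eq]
    have h1 : v * G.evV b = G.evV a := Subtype.ext hab
    have h2 := congrArg (residue ↥G.V) h1
    rw [map_mul] at h2
    exact h2

theorem adjoin_top : G.k⟮G.wt⟯⟮G.θt⟯ = ⊤ :=
  eis_adjoin_eq_top G.hd G.ck G.ck0 G.ck1 G.wt_transcendental G.hyk G.hgenk

theorem finite_Ft : Module.Finite G.k⟮G.wt⟯ G.Ft :=
  eis_finite_of_top G.hd G.ck G.ck0 G.ck1 G.wt_transcendental G.hyk G.adjoin_top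

theorem finrank_Ft : Module.finrank G.k⟮G.wt⟯ G.Ft = G.d :=
  eis_finrank_of_top G.hd G.ck G.ck0 G.ck1 G.wt_transcendental G.hyk G.adjoin_top

theorem separable_Ft (hdk : (G.d : G.k) ≠ 0) : Algebra.IsSeparable G.k⟮G.wt⟯ G.Ft :=
  eis_sep_of_top G.hd G.ck G.ck0 G.ck1 G.wt_transcendental G.hyk G.adjoin_top hdk

theorem w_eq : G.w = G.evF (C X) := by
  unfold evF
  simp

theorem w_mem_V : G.w ∈ G.V := by
  rw [G.w_eq]
  exact G.evF_mem_V _

theorem evD_CX_ne_zero : G.evD (C X) ≠ 0 := by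
  rw [Ne, G.evD_eq_zero_iff (C X) ((degree_C_le).trans_lt G.d_pos')]
  unfold redP
  rw [coe_mapRingHom, map_C, coe_mapRingHom, map_X, C_eq_zero]
  exact X_ne_zero

theorem w_inv_mem_V : G.w⁻¹ ∈ G.V := by
  rw [G.w_eq]
  exact G.evF_inv_mem_V _ G.evD_CX_ne_zero

theorem residue_w : residue ↥G.V ⟨G.w, G.w_mem_V⟩ = G.wt := by
  unfold wt redA
  rw [RingHom.comp_apply]
  congr 1
  apply Subtype.ext
  rw [G.coe_evV]
  exact G.w_eq

end GData

end Fermat.Agent.S27.Char0.H64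

end
end
-- ==== END Fermat.Agent.S27.Char0.H64_GaussRing

-- ==== BEGIN Fermat.Agent.S27.Char0.Lift.Defs
section

/-!
# S27 (row 26), char-0 half, package LIFT (owner: helper45): leaves

Target: `Fermat.Agent.S27.Char0.Stmt_LIFT`.  Route (helper20's note "package LIFT = norm system +
MV-HENSEL", tested by helper68 and helper45): valuations only, no completeness.

Setting: `G : GoodRed K F k Ft`, `x := G.x`, `xt := G.S.rd G.x`, `n` with `(n : k) ≠ 0`,
`E` on `Ft` of degree `0` with `n E` principal.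

* **GENERIC** (`Stmt_Generic`, only on `Ft`): a reduced non-special `Et = ∑_{Q ∈ A} Q` (`#A = g`),
  `xt` unramified at the points of `A` and injective on `A`, and `Et' ≥ 0` of degree `g`,
  `ht ≠ 0` with `div ht = n (Et - Et')`, `Et - Et' ∼ E`, `l(n Et') = n g + 1 - g`.
* **LATTICE** (`Stmt_Lattice`): a lift `E'` of `Et'` (one point per disc, poles of `xt` lifted to
  poles of `x`), the `x`-values `b P` of its finite points, and `f_1 .. f_N ∈ L(n E') ∩ V` whose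
  reductions are a basis of `L(n Et')`.
* **SOLVE** (`Stmt_Solve`): (norm system + Jacobian + MV-HENSEL) there are `h ∈ L(n E') ∩ V` with
  `rd h = ht`, `c ≠ 0` and lifts `a_Q` of `α_Q` with
  `Dfin(x) · N_{F/K(x)}(h) = c · ∏_{Q ∈ A} (x - a_Q)^n`.
* **CONCL** (`Stmt_Concl`): for such an `h`, `n ∣ ord_P h` for every place `P`.
* **TRACEPOLE** (`Stmt_TracePole`, used inside SOLVE): order of the pole of a trace.
Assembly `Stmt_LIFT` from these: `H45_Asm.lean`.
-/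

set_option autoImplicit false

noncomputable section

open AlgebraicCurve IntermediateField

namespace Fermat.Agent.S27.Char0.Lift

open Fermat.Agent.RED.H17 Fermat.Agent.S27.Char0

attribute [local instance] Classical.propDecidable

local notation "L" => riemannRochSpace

universe u v u' v'

/-- Output of GENERIC (step 0), on the function field `Ft / k` with chart `xt`. -/
structure GenericData (k : Type u') (Ft : Type v') [Field k] [Field Ft] [Algebra k Ft]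
    (xt : Ft) (g n : ℕ) (E : Divisor k Ft) where
  /-- the points `Q_1 .. Q_g` of `Et` -/
  A : Finset (Place k Ft)
  /-- the values `α_Q = xt(Q)` -/
  α : Place k Ft → k
  /-- the effective divisor `Et'` -/
  Et' : Divisor k Ft
  /-- the function `ht` with `div ht = n (Et - Et')` -/
  ht : Ft
  card_A : A.card = g
  nonspecial : Module.finrank k (L (ptsDiv A)) = 1
  simple : ∀ Q ∈ A, Q.ord (xt - algebraMap k Ft (α Q)) = 1
  inj : ∀ Q ∈ A, ∀ Q' ∈ A, α Q = α Q' → Q = Q'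
  eff : ∀ Q, 0 ≤ Et' Q
  deg : Divisor.degree Et' = g
  ht_ne : ht ≠ 0
  div_ht : ∀ Q, Q.ord ht = n * (ptsDiv A Q - Et' Q)
  equiv : ptsDiv A - Et' - E ∈ Divisor.principal (K := k) (F := Ft)
  rank : (Module.finrank k (L ((n : ℤ) • Et')) : ℤ) = n * g + 1 - g

/-- **GENERIC** (step 0). -/
def Stmt_Generic : Prop :=
  ∀ (k : Type u') (Ft : Type v') [Field k] [Field Ft] [Algebra k Ft] [IsAlgClosed k],
    FFHyp k Ft → ∀ (g : ℕ) (c' : ℤ), IsGenus k Ft g c' →
    ∀ (xt : Ft), Transcendental k xt → Module.Finite k⟮xt⟯ Ft → Algebra.IsSeparable k⟮xt⟯ Ft →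
    ∀ (n : ℕ), 0 < n → ∀ (E : Divisor k Ft), Divisor.degree E = 0 →
      (n : ℤ) • E ∈ Divisor.principal (K := k) (F := Ft) →
      Nonempty (GenericData k Ft xt g n E)

section Setting

variable {K : Type u} {F : Type v} {k : Type u'} {Ft : Type v'} [Field K] [Field F]
  [Algebra K F] [Field k] [Field Ft] [Algebra k Ft]

/-- Output of LATTICE (step 1). -/
structure LatticeData (G : GoodRed K F k Ft) (n : ℕ) (Et' : Divisor k Ft) (N : ℕ) where
  /-- the lift of `Et'` -/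
  E' : Divisor K F
  /-- the `x`-values of the points of `E'` which are not poles of `x` -/
  b : Place K F → K
  /-- the lattice basis -/
  f : Fin N → F
  eff : ∀ P, 0 ≤ E' P
  push : Finsupp.mapDomain G.S.r E' = Et'
  one_per_disc : ∀ P ∈ E'.support, ∀ P' ∈ E'.support, G.S.r P = G.S.r P' → P = P'
  pole : ∀ P ∈ E'.support, (G.S.r P).ord (G.S.rd G.x) < 0 → P.ord G.x < 0
  value : ∀ P ∈ E'.support, 0 ≤ (G.S.r P).ord (G.S.rd G.x) →
    0 < P.ord (G.x - algebraMap K F (b P))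
  b_int : ∀ P ∈ E'.support, 0 ≤ (G.S.r P).ord (G.S.rd G.x) → algebraMap K F (b P) ∈ G.S.V
  f_mem_V : ∀ j, f j ∈ G.S.V
  f_mem_L : ∀ j, f j ∈ L ((n : ℤ) • E')
  f_li : LinearIndependent k (fun j => G.S.rd (f j))
  f_span : ∀ y ∈ L ((n : ℤ) • Et'), y ∈ Submodule.span k (Set.range fun j => G.S.rd (f j))

/-- The polynomial `Dfin(x)` (as an element of `F`). -/
def dfin (G : GoodRed K F k Ft) (n : ℕ) (E' : Divisor K F) (b : Place K F → K) : F :=
  ∏ P ∈ E'.support.filter (fun P => 0 ≤ P.ord G.x),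
    (G.x - algebraMap K F (b P)) ^ (n * (E' P).toNat)

/-- The conclusion of SOLVE for a function `h`. -/
structure IsSolution (G : GoodRed K F k Ft) (n : ℕ) (A : Finset (Place k Ft))
    (α : Place k Ft → k) (ht : Ft) (E' : Divisor K F) (b : Place K F → K) (h : F) : Prop where
  mem_V : h ∈ G.S.V
  rd_eq : G.S.rd h = ht
  mem_L : h ∈ L ((n : ℤ) • E')
  norm_eq : ∃ (c : K) (a : Place k Ft → K), c ≠ 0 ∧
    (∀ Q ∈ A, algebraMap K F (a Q) ∈ G.S.V ∧
      G.S.rd (algebraMap K F (a Q)) = algebraMap k Ft (α Q)) ∧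
    dfin G n E' b * algebraMap K⟮G.x⟯ F (Algebra.norm K⟮G.x⟯ h) =
      algebraMap K F c * ∏ Q ∈ A, (G.x - algebraMap K F (a Q)) ^ n

end Setting

/-- **LATTICE** (step 1). -/
def Stmt_Lattice : Prop :=
  ∀ (K : Type u) (F : Type v) (k : Type u') (Ft : Type v') [Field K] [Field F] [Algebra K F]
    [Field k] [Field Ft] [Algebra k Ft] [IsAlgClosed K] [IsAlgClosed k]
    (G : GoodRed K F k Ft), FFHyp K F → FFHyp k Ft →
    ∀ (g : ℕ) (c : ℤ) (c' : ℤ), IsGenus K F g c → IsGenus k Ft g c' →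
    ∀ (n : ℕ) (Et' : Divisor k Ft), (∀ Q, 0 ≤ Et' Q) → Divisor.degree Et' = g →
    ∀ N : ℕ, (N : ℤ) = n * g + 1 - g → Module.finrank k (L ((n : ℤ) • Et')) = N →
      Nonempty (LatticeData G n Et' N)

/-- **SOLVE** (steps 2-4: norm system, Jacobian, MV-HENSEL). -/
def Stmt_Solve : Prop :=
  ∀ (K : Type u) (F : Type v) (k : Type u') (Ft : Type v') [Field K] [Field F] [Algebra K F]
    [Field k] [Field Ft] [Algebra k Ft] [IsAlgClosed K] [CharZero K] [IsAlgClosed k]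
    (G : GoodRed K F k Ft), FFHyp K F → FFHyp k Ft →
    ∀ (g : ℕ) (c : ℤ) (c' : ℤ), IsGenus K F g c → IsGenus k Ft g c' →
    ∀ n : ℕ, (n : k) ≠ 0 → ∀ (E : Divisor k Ft) (Gd : GenericData k Ft (G.S.rd G.x) g n E)
      (N : ℕ), (N : ℤ) = n * g + 1 - g → ∀ Ld : LatticeData G n Gd.Et' N,
      ∃ h : F, IsSolution G n Gd.A Gd.α Gd.ht Ld.E' Ld.b h

/-- **CONCL** (step 5): all orders of a solution are divisible by `n`. -/
def Stmt_Concl : Prop :=
  ∀ (K : Type u) (F : Type v) (k : Type u') (Ft : Type v') [Field K] [Field F] [Algebra K F]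
    [Field k] [Field Ft] [Algebra k Ft] [IsAlgClosed K] [CharZero K] [IsAlgClosed k]
    (G : GoodRed K F k Ft), FFHyp K F → FFHyp k Ft →
    ∀ (g : ℕ) (c : ℤ) (c' : ℤ), IsGenus K F g c → IsGenus k Ft g c' →
    ∀ n : ℕ, (n : k) ≠ 0 → ∀ (E : Divisor k Ft) (Gd : GenericData k Ft (G.S.rd G.x) g n E)
      (N : ℕ) (Ld : LatticeData G n Gd.Et' N) (h : F),
      IsSolution G n Gd.A Gd.α Gd.ht Ld.E' Ld.b h → ∀ P : Place K F, (n : ℤ) ∣ P.ord h

/-- **TRACEPOLE**: if `w` has a pole of order `m ≥ 1` at a place `Q` where `xt - α` has a simple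
zero, and `w` is regular at the other zeros of `xt - α`, then the trace of `w` to `k(xt)` has a
pole of order exactly `m` at `Q`. -/
def Stmt_TracePole : Prop :=
  ∀ (k : Type u') (Ft : Type v') [Field k] [Field Ft] [Algebra k Ft] [IsAlgClosed k],
    FFHyp k Ft → ∀ (xt : Ft), Transcendental k xt → Module.Finite k⟮xt⟯ Ft →
    Algebra.IsSeparable k⟮xt⟯ Ft →
    ∀ (w : Ft) (α : k) (Q : Place k Ft) (m : ℕ), 0 < m →
      Q.ord (xt - algebraMap k Ft α) = 1 → Q.ord w = -(m : ℤ) →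
      (∀ R : Place k Ft, R ≠ Q → 0 < R.ord (xt - algebraMap k Ft α) → 0 ≤ R.ord w) →
      Q.ord (algebraMap k⟮xt⟯ Ft (Algebra.trace k⟮xt⟯ Ft w)) = -(m : ℤ)

end Fermat.Agent.S27.Char0.Lift

end
end
-- ==== END Fermat.Agent.S27.Char0.Lift.Defs

-- ==== BEGIN Fermat.Agent.S27.Char0.Lift.H68_SolveDefs3
section

/-!
# S27 LIFT, leaf SOLVE (helper68): sub-leaf EVAL-ID (pure algebra)

**EVAL-ID** (`Stmt_EvalID`): values and partial derivatives of the reduced norm system.  From the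
identity of polynomials in `t` over `Ft`
`∑_e xt^e · Φ~_e = rD · N(∑ t_j rf_j)` (the conclusion of `H68.normSys`) deduce, for `τ ∈ k^N`,
* `∑_e Φ~_e(τ) xt^e = rD · N(h_τ)`, `h_τ = ∑ τ_j rf_j`;
* `∑_e (∂_j Φ~_e)(τ) xt^e = rD · N(h_τ) · Tr(h_τ⁻¹ rf_j)` if `h_τ` is invertible.
(`H68.eval_normFormAlg`, `H68.eval_pderiv_normFormAlg`, `MvPolynomial.pderiv_map`,
`MvPolynomial.eval₂_comp`.)
This file contains no unproved statement.
-/

set_option autoImplicit false

noncomputable section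

namespace Fermat.Agent.S27.Char0.Lift.Solve

open Fermat.Agent.S27.Lift.H68 MvPolynomial

universe u u' v'

/-- **EVAL-ID**. -/
def Stmt_EvalID : Prop :=
  ∀ (k : Type u') (Ft : Type v') [Field k] [Field Ft] [Algebra k Ft]
    (E : IntermediateField k Ft) (O : Type u) [CommRing O] (res : O →+* k) (N M d : ℕ)
    (Φ : Fin (M + 1) → MvPolynomial (Fin N) O) (xt rD : Ft)
    (βt : Module.Basis (Fin d) ↥E Ft) (rf : Fin N → Ft),
    ∑ e : Fin (M + 1), C (xt ^ (e : ℕ)) * map ((algebraMap k Ft).comp res) (Φ e) =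
      C rD * map (algebraMap ↥E Ft) (normFormAlg βt rf) →
    ∀ τ : Fin N → k,
      (∑ e : Fin (M + 1), algebraMap k Ft (eval τ (map res (Φ e))) * xt ^ (e : ℕ) =
        rD * algebraMap ↥E Ft (Algebra.norm ↥E (∑ j, algebraMap k Ft (τ j) * rf j))) ∧
      ∀ hinv : Ft, (∑ j, algebraMap k Ft (τ j) * rf j) * hinv = 1 → ∀ j : Fin N,
        ∑ e : Fin (M + 1), algebraMap k Ft (eval τ (pderiv j (map res (Φ e)))) * xt ^ (e : ℕ) =
          rD * algebraMap ↥E Ft (Algebra.norm ↥E (∑ j, algebraMap k Ft (τ j) * rf j)) *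
            algebraMap ↥E Ft (Algebra.trace ↥E Ft (hinv * rf j))

end Fermat.Agent.S27.Char0.Lift.Solve

end
end
-- ==== END Fermat.Agent.S27.Char0.Lift.H68_SolveDefs3

-- ==== BEGIN Fermat.Agent.S27.IW.H64_Mat
section

set_option autoImplicit false

namespace Fermat.Agent.S27.IW.H64

open Matrix Finset

variable {n : ℕ}

/-- two integer matrices which agree modulo `N` differ by `N` times an integer matrix -/
theorem exists_eq_add_smul (N : ℕ) (X Y : Matrix (Fin n) (Fin n) ℤ)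
    (h : (Int.castRingHom (ZMod N)).mapMatrix X = (Int.castRingHom (ZMod N)).mapMatrix Y) :
    ∃ W : Matrix (Fin n) (Fin n) ℤ, X = Y + (N : ℤ) • W := by
  have hd : ∀ i j, (N : ℤ) ∣ X i j - Y i j := by
    intro i j
    have := congrFun (congrFun h i) j
    simp only [RingHom.mapMatrix_apply, Matrix.map_apply, Int.coe_castRingHom] at this
    rw [← ZMod.intCast_zmod_eq_zero_iff_dvd]
    push_cast
    rw [this, sub_self]
  choose W hW using hd
  refine ⟨Matrix.of W, ?_⟩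
  ext i j
  simp only [Matrix.add_apply, Matrix.smul_apply, Matrix.of_apply, smul_eq_mul]
  rw [← hW i j]
  ring

/-- if `B ≡ 1 mod N` then `∑_{i<m} B^i ≡ m mod N` -/
theorem map_geom_sum (N : ℕ) (B : Matrix (Fin n) (Fin n) ℤ)
    (hB : (Int.castRingHom (ZMod N)).mapMatrix B = 1) (m : ℕ) :
    (Int.castRingHom (ZMod N)).mapMatrix (∑ i ∈ range m, B ^ i) =
      (m : Matrix (Fin n) (Fin n) (ZMod N)) := by
  rw [map_sum]
  simp only [map_pow, hB, one_pow, sum_const, card_range, nsmul_eq_mul, mul_one]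

/-- the determinant of a matrix which is `≡ c mod ℓ` -/
theorem det_of_map_eq_natCast (ℓ : ℕ) (X : Matrix (Fin n) (Fin n) ℤ) (c : ℕ)
    (h : (Int.castRingHom (ZMod ℓ)).mapMatrix X = (c : Matrix (Fin n) (Fin n) (ZMod ℓ))) :
    ((X.det : ℤ) : ZMod ℓ) = (c : ZMod ℓ) ^ n := by
  have h1 := RingHom.map_det (Int.castRingHom (ZMod ℓ)) X
  rw [h] at h1
  simp only [Int.coe_castRingHom] at h1
  rw [h1, ← diagonal_natCast, det_diagonal]
  simp

/-- `1 - B^m = (1 - B) * ∑_{i<m} B^i`, determinants -/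
theorem det_one_sub_pow (B : Matrix (Fin n) (Fin n) ℤ) (m : ℕ) :
    (1 - B ^ m).det = (1 - B).det * (∑ i ∈ range m, B ^ i).det := by
  rw [← det_mul, mul_neg_geom_sum]

/-- powers of a matrix `≡ 1 mod N` are `≡ 1 mod N` -/
theorem map_pow_eq_one (N : ℕ) (B : Matrix (Fin n) (Fin n) ℤ)
    (hB : (Int.castRingHom (ZMod N)).mapMatrix B = 1) (m : ℕ) :
    (Int.castRingHom (ZMod N)).mapMatrix (B ^ m) = 1 := by
  rw [map_pow, hB, one_pow]

/-- reduction `mod ℓ²` to `mod ℓ` -/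
theorem map_eq_one_of_sq (ℓ : ℕ) (B : Matrix (Fin n) (Fin n) ℤ)
    (hB : (Int.castRingHom (ZMod (ℓ ^ 2))).mapMatrix B = 1) :
    (Int.castRingHom (ZMod ℓ)).mapMatrix B = 1 := by
  obtain ⟨W, hW⟩ := exists_eq_add_smul (ℓ ^ 2) B 1 (by rw [hB, map_one])
  rw [hW, map_add, map_one]
  have : (Int.castRingHom (ZMod ℓ)).mapMatrix (((ℓ ^ 2 : ℕ) : ℤ) • W) = 0 := by
    ext i j
    simp only [RingHom.mapMatrix_apply, Matrix.map_apply, Matrix.smul_apply, smul_eq_mul,
      Int.coe_castRingHom, Matrix.zero_apply]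
    push_cast
    rw [pow_two, ZMod.natCast_self, zero_mul, zero_mul]
  rw [this, add_zero]

/-- existence of the exponent `e` -/
theorem exists_pow_map_eq_one (N : ℕ) [NeZero N] (A : Matrix (Fin n) (Fin n) ℤ)
    (hA : IsUnit ((A.det : ℤ) : ZMod N)) :
    ∃ e : ℕ, 0 < e ∧ (Int.castRingHom (ZMod N)).mapMatrix (A ^ e) = 1 := by
  have hu : IsUnit ((Int.castRingHom (ZMod N)).mapMatrix A) := by
    rw [Matrix.isUnit_iff_isUnit_det, ← RingHom.map_det]
    exact hA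
  obtain ⟨u, hu⟩ := hu
  refine ⟨orderOf u, orderOf_pos u, ?_⟩
  rw [map_pow, ← hu, ← Units.val_pow_eq_pow_val, pow_orderOf_eq_one, Units.val_one]

/-- **IW-MAT**. -/
theorem stmt_IW_Mat : Stmt_IW_Mat := by
  intro ℓ _ n A hA
  have hℓ : ℓ.Prime := Fact.out
  have : NeZero (ℓ ^ 2) := ⟨pow_ne_zero _ hℓ.ne_zero⟩
  have hunit : IsUnit ((A.det : ℤ) : ZMod (ℓ ^ 2)) := by
    rw [ZMod.coe_int_isUnit_iff_isCoprime]
    push_cast
    refine IsCoprime.pow_left ?_
    exact (Nat.prime_iff_prime_int.mp hℓ).coprime_iff_not_dvd.2 hA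
  obtain ⟨e, he, hAe⟩ := exists_pow_map_eq_one (ℓ ^ 2) A hunit
  have hB : ∀ j : ℕ, (Int.castRingHom (ZMod (ℓ ^ 2))).mapMatrix (A ^ (e * ℓ ^ j)) = 1 := by
    intro j
    rw [pow_mul]
    exact map_pow_eq_one _ _ hAe _
  have hndvd : ∀ (X : Matrix (Fin n) (Fin n) ℤ) (c : ℕ), ¬ ℓ ∣ c →
      (Int.castRingHom (ZMod ℓ)).mapMatrix X = (c : Matrix (Fin n) (Fin n) (ZMod ℓ)) →
      ¬ (ℓ : ℤ) ∣ X.det := by
    intro X c hc hX hdvd
    have h1 := det_of_map_eq_natCast ℓ X c hX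
    rw [(ZMod.intCast_zmod_eq_zero_iff_dvd _ _).2 hdvd] at h1
    have h2 : (c : ZMod ℓ) = 0 := by
      by_cases hn : n = 0
      · subst hn
        simp at h1
      · exact pow_eq_zero_iff hn |>.1 h1.symm
    exact hc ((ZMod.natCast_eq_zero_iff _ _).1 h2)
  refine ⟨e, he, ?_, ?_⟩
  · intro m' j hm'
    refine ⟨(∑ i ∈ range m', (A ^ (e * ℓ ^ j)) ^ i).det, ?_, ?_⟩
    · exact hndvd _ m' hm' (map_geom_sum ℓ _ (map_eq_one_of_sq ℓ _ (hB j)) m')
    · rw [← det_one_sub_pow, ← pow_mul]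
      congr 3
      ring
  · intro j
    obtain ⟨W, hW⟩ := exists_eq_add_smul (ℓ ^ 2) (∑ i ∈ range ℓ, (A ^ (e * ℓ ^ j)) ^ i)
      ((ℓ : ℕ) : Matrix (Fin n) (Fin n) ℤ) (by
        rw [map_geom_sum (ℓ ^ 2) _ (hB j) ℓ, map_natCast])
    have hsum : ∑ i ∈ range ℓ, (A ^ (e * ℓ ^ j)) ^ i =
        (ℓ : ℤ) • (1 + (ℓ : ℤ) • W) := by
      rw [hW, smul_add, smul_smul]
      congr 1
      · ext a b
        simp [Matrix.natCast_apply, Matrix.one_apply]
      · push_cast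
        rw [pow_two]
    refine ⟨(1 + (ℓ : ℤ) • W).det, ?_, ?_⟩
    · refine hndvd _ 1 (fun h => hℓ.one_lt.ne' (Nat.dvd_one.1 h)) ?_
      rw [map_add, map_one, Nat.cast_one]
      have : (Int.castRingHom (ZMod ℓ)).mapMatrix ((ℓ : ℤ) • W) = 0 := by
        ext a b
        simp only [RingHom.mapMatrix_apply, Matrix.map_apply, Matrix.smul_apply, smul_eq_mul,
          Int.coe_castRingHom, Matrix.zero_apply]
        push_cast
        rw [ZMod.natCast_self, zero_mul]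
      rw [this, add_zero]
    · rw [pow_succ, ← mul_assoc, pow_mul _ _ ℓ, det_one_sub_pow, hsum, det_smul,
        Fintype.card_fin]
      ring

end Fermat.Agent.S27.IW.H64

end
-- ==== END Fermat.Agent.S27.IW.H64_Mat

-- ==== BEGIN Fermat.Agent.S27.IW.H64_Syl
section

set_option autoImplicit false

universe u

namespace Fermat.Agent.S27.IW.H64

/-- the `ℓ`-primary part of a commutative group -/
def primaryPart (ℓ : ℕ) (G : Type u) [CommGroup G] : Subgroup G where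
  carrier := {x | ∃ k : ℕ, x ^ (ℓ ^ k) = 1}
  one_mem' := ⟨0, one_pow _⟩
  mul_mem' := by
    rintro x y ⟨a, ha⟩ ⟨b, hb⟩
    refine ⟨a + b, ?_⟩
    rw [mul_pow, pow_add, pow_mul, ha, one_pow, mul_comm (ℓ ^ a), pow_mul, hb, one_pow, one_mul]
  inv_mem' := by
    rintro x ⟨a, ha⟩
    exact ⟨a, by rw [inv_pow, ha, inv_one]⟩

theorem mem_primaryPart {ℓ : ℕ} {G : Type u} [CommGroup G] {x : G} :
    x ∈ primaryPart ℓ G ↔ ∃ k : ℕ, x ^ (ℓ ^ k) = 1 := Iff.rfl

theorem card_primaryPart (ℓ : ℕ) [Fact ℓ.Prime] (G : Type u) [CommGroup G] [Finite G] :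
    Nat.card (primaryPart ℓ G) = ℓ ^ (Nat.card G).factorization ℓ := by
  have hP : IsPGroup ℓ (primaryPart ℓ G) := by
    rintro ⟨g, k, hk⟩
    exact ⟨k, Subtype.ext hk⟩
  obtain ⟨Q, hQ⟩ := hP.exists_le_sylow
  have hQP : (Q : Subgroup G) ≤ primaryPart ℓ G := by
    intro g hg
    obtain ⟨k, hk⟩ := Q.isPGroup' ⟨g, hg⟩
    exact ⟨k, congrArg Subtype.val hk⟩
  have heq : primaryPart ℓ G = (Q : Subgroup G) := le_antisymm hQ hQP
  rw [heq]
  exact Q.card_eq_multiplicity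

/-- **IW-SYL**. -/
theorem stmt_IW_Syl : Stmt_IW_Syl.{u} := by
  intro ℓ _ H _ _
  have h1 := card_primaryPart ℓ (Multiplicative H)
  rw [Nat.card_congr (Multiplicative.toAdd : Multiplicative H ≃ H)] at h1
  rw [← h1]
  refine Nat.card_congr ⟨fun x => ⟨Multiplicative.ofAdd x.1, ?_⟩, fun y => ⟨Multiplicative.toAdd y.1, ?_⟩,
    fun x => rfl, fun y => rfl⟩
  · obtain ⟨k, hk⟩ := x.2
    refine ⟨k, ?_⟩
    rw [← ofAdd_nsmul, hk, ofAdd_zero]
  · obtain ⟨k, hk⟩ := y.2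
    refine ⟨k, ?_⟩
    have := congrArg Multiplicative.toAdd hk
    rwa [toAdd_pow, toAdd_one] at this

end Fermat.Agent.S27.IW.H64

end
-- ==== END Fermat.Agent.S27.IW.H64_Syl

-- ==== BEGIN Fermat.Agent.S27.IW.H68_Basic
section

set_option autoImplicit false
set_option linter.unusedSectionVars false
set_option linter.unusedVariables false

namespace Fermat.Agent.S27.IW.H68

variable {G : Type*} [AddCommGroup G]

/-- the `N`-torsion of `G` -/
def tors (G : Type*) [AddCommGroup G] (N : ℕ) : AddSubgroup G where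
  carrier := {x | N • x = 0}
  zero_mem' := smul_zero N
  add_mem' := by
    intro a b ha hb
    show N • (a + b) = 0
    rw [smul_add, ha, hb, add_zero]
  neg_mem' := by
    intro a ha
    show N • (-a) = 0
    rw [smul_neg, ha, neg_zero]

theorem mem_tors {N : ℕ} {x : G} : x ∈ tors G N ↔ N • x = 0 := Iff.rfl

/-- the `ℓ`-primary part of `G` -/
def prim (G : Type*) [AddCommGroup G] (ℓ : ℕ) : AddSubgroup G where
  carrier := {x | ∃ k : ℕ, (ℓ ^ k) • x = 0}
  zero_mem' := ⟨0, smul_zero _⟩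
  add_mem' := by
    rintro a b ⟨k, hk⟩ ⟨k', hk'⟩
    refine ⟨k + k', ?_⟩
    have h1 : (ℓ ^ (k + k')) • a = 0 := by
      rw [pow_add, mul_comm, mul_smul, hk, smul_zero]
    have h2 : (ℓ ^ (k + k')) • b = 0 := by
      rw [pow_add, mul_smul, hk', smul_zero]
    rw [smul_add, h1, h2, add_zero]
  neg_mem' := by
    rintro a ⟨k, hk⟩
    exact ⟨k, by rw [smul_neg, hk, neg_zero]⟩

theorem mem_prim {ℓ : ℕ} {x : G} : x ∈ prim G ℓ ↔ ∃ k : ℕ, (ℓ ^ k) • x = 0 := Iff.rfl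

theorem tors_le_prim (ℓ k : ℕ) : tors G (ℓ ^ k) ≤ prim G ℓ := fun x hx => ⟨k, hx⟩

theorem tors_mono (ℓ : ℕ) {k k' : ℕ} (h : k ≤ k') : tors G (ℓ ^ k) ≤ tors G (ℓ ^ k') := by
  intro x hx
  obtain ⟨d, rfl⟩ := Nat.exists_eq_add_of_le h
  show (ℓ ^ (k + d)) • x = 0
  rw [pow_add, mul_comm, mul_smul, mem_tors.1 hx, smul_zero]

/-- the fixed points of an endomorphism -/
def fixE (Φ : Module.End ℤ G) : AddSubgroup G where
  carrier := {x | Φ x = x}
  zero_mem' := map_zero Φ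
  add_mem' := by
    intro a b ha hb
    show Φ (a + b) = a + b
    rw [map_add, ha, hb]
  neg_mem' := by
    intro a ha
    show Φ (-a) = -a
    rw [map_neg, ha]

theorem mem_fixE {Φ : Module.End ℤ G} {x : G} : x ∈ fixE Φ ↔ Φ x = x := Iff.rfl

theorem fixE_pow_le (Φ : Module.End ℤ G) (a b : ℕ) : fixE (Φ ^ a) ≤ fixE (Φ ^ (a * b)) := by
  intro x hx
  rw [mem_fixE] at hx ⊢
  rw [pow_mul]
  induction b with
  | zero => simp
  | succ b ih =>
    rw [pow_succ, Module.End.mul_apply, hx, ih]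

theorem end_nsmul (P : Module.End ℤ G) (N : ℕ) (x : G) : P (N • x) = N • P x :=
  map_nsmul P N x

/-- binomial lemma: if `ℓ • (Ψ - 1) x = 0` then `Ψ^ℓ x = x + (Ψ - 1)^ℓ x` -/
theorem pow_prime_apply (ℓ : ℕ) (hℓ : ℓ.Prime) (Ψ : Module.End ℤ G) (x : G)
    (hx : ℓ • (Ψ - 1) x = 0) : (Ψ ^ ℓ) x = x + ((Ψ - 1) ^ ℓ) x := by
  set D := Ψ - 1 with hD
  have hΨ : Ψ = D + 1 := by rw [hD]; abel
  have hc : Commute D 1 := Commute.one_right D
  rw [hΨ, hc.add_pow]
  rw [LinearMap.sum_apply]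
  have hterm : ∀ m ∈ Finset.range (ℓ + 1), m ≠ 0 → m ≠ ℓ →
      (D ^ m * 1 ^ (ℓ - m) * ((ℓ.choose m : ℕ) : Module.End ℤ G)) x = 0 := by
    intro m hm h0 hl
    have hlt : m < ℓ := lt_of_le_of_ne (Nat.lt_succ_iff.1 (Finset.mem_range.1 hm)) hl
    obtain ⟨c, hc⟩ := hℓ.dvd_choose_self h0 hlt
    rw [one_pow, mul_one, Module.End.mul_apply]
    have h1 : ((ℓ.choose m : ℕ) : Module.End ℤ G) x = (ℓ.choose m) • x := by
      rw [← Nat.cast_smul_eq_nsmul ℤ]
      simp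
    rw [h1, end_nsmul, hc, mul_comm, mul_smul]
    obtain ⟨m', rfl⟩ := Nat.exists_eq_succ_of_ne_zero h0
    rw [pow_succ, Module.End.mul_apply, ← end_nsmul, hx, map_zero, smul_zero]
  rw [Finset.sum_eq_add_of_mem 0 ℓ (Finset.mem_range.2 (Nat.succ_pos ℓ))
    (Finset.mem_range.2 (Nat.lt_succ_self ℓ)) hℓ.pos.ne
    (fun m hm hne => hterm m hm hne.1 hne.2)]
  simp

/-- two endomorphisms which agree on a subgroup stable under the second one have powers which
agree on it -/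
theorem pow_agree (P Q : Module.End ℤ G) (S : AddSubgroup G) (hS : ∀ x ∈ S, Q x ∈ S)
    (h : ∀ x ∈ S, P x = Q x) (k : ℕ) : ∀ x ∈ S, (P ^ k) x = (Q ^ k) x := by
  induction k with
  | zero => intro x _; simp
  | succ k ih =>
    intro x hx
    rw [pow_succ, pow_succ, Module.End.mul_apply, Module.End.mul_apply, h x hx]
    exact ih _ (hS x hx)

theorem tors_stable (N : ℕ) (P : Module.End ℤ G) : ∀ x ∈ tors G N, P x ∈ tors G N := by
  intro x hx
  show N • P x = 0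
  rw [← end_nsmul, mem_tors.1 hx, map_zero]

/-- on the `ℓ`-torsion, `Φ^(ℓ^j) - 1 = (Φ - 1)^(ℓ^j)` -/
theorem pow_prime_pow_apply (ℓ : ℕ) (hℓ : ℓ.Prime) (Φ : Module.End ℤ G) (j : ℕ) :
    ∀ x ∈ tors G ℓ, (Φ ^ (ℓ ^ j)) x = x + ((Φ - 1) ^ (ℓ ^ j)) x := by
  induction j with
  | zero =>
    intro x _
    simp
  | succ j ih =>
    intro x hx
    have h1 : ∀ y ∈ tors G ℓ, (Φ ^ (ℓ ^ j) - 1) y = ((Φ - 1) ^ (ℓ ^ j)) y := by
      intro y hy
      rw [LinearMap.sub_apply, ih y hy]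
      simp
    have h2 : ℓ • (Φ ^ (ℓ ^ j) - 1) x = 0 := by
      rw [← end_nsmul, mem_tors.1 hx, map_zero]
    rw [pow_succ, pow_mul, pow_prime_apply ℓ hℓ _ x h2]
    congr 1
    rw [pow_agree _ _ (tors G ℓ) (tors_stable ℓ _) h1 ℓ x hx, ← pow_mul]

end Fermat.Agent.S27.IW.H68

end
-- ==== END Fermat.Agent.S27.IW.H68_Basic

-- ==== BEGIN Fermat.Agent.S27.Lift.H68_LogDer
section

/-!
# S27, pure algebra (helper68): Newton's identities for `det (1 - X A)` and companion matrices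

* `succ_mul_coeff_charpolyRev`: for `P = det (1 - X A) = A.charpolyRev`,
  `(j+1) p_{j+1} = - ∑_{m ≤ j} tr (A^{m+1}) p_{j-m}`  (i.e. `X P' = - P ∑_{m ≥ 1} tr(A^m) X^m`).
* `coeff_eq_of_newton`: a sequence with `l_0 = 1` satisfying the same recursion over a ring
  without `ℕ`-torsion is the coefficient sequence of `A.charpolyRev`.
* `exists_matrix_charpoly_eq`: every monic polynomial of degree `d` is the characteristic
  polynomial of a `d × d` matrix;
* `exists_matrix_charpolyRev_eq`: every polynomial `L` with `L(0) = 1` and `natDegree L = d` is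
  `det (1 - X A)` for a `d × d` matrix `A` with `det A = (-1)^d * leadingCoeff L`.
-/

set_option linter.style.haveILetI false
set_option linter.unusedSectionVars false

namespace Fermat.Agent.S27.Lift.H68

open Polynomial Matrix

variable {R : Type*} [CommRing R] {n : Type*} [Fintype n] [DecidableEq n]

/-- The matrix `1 - X A` over `R[X]`. -/
noncomputable def oneSubXMat (A : Matrix n n R) : Matrix n n R[X] :=
  1 - (X : R[X]) • A.map C

lemma charpolyRev_eq_det (A : Matrix n n R) : A.charpolyRev = (oneSubXMat A).det := rfl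

lemma map_derivative_oneSubXMat (A : Matrix n n R) :
    (oneSubXMat A).map (Polynomial.derivative) = - A.map C := by
  ext i j : 1
  simp only [oneSubXMat, Matrix.map_apply, Matrix.sub_apply, Matrix.smul_apply, smul_eq_mul,
    Matrix.neg_apply, Polynomial.derivative_sub, Polynomial.derivative_mul,
    Polynomial.derivative_X, Polynomial.derivative_C, one_mul, mul_zero, add_zero]
  by_cases h : i = j
  · subst h; simp
  · simp [Matrix.one_apply_ne h]

/-- Jacobi: `P' = - tr (adj (1 - X A) * A)` for `P = det (1 - X A)`. -/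
lemma derivative_charpolyRev (A : Matrix n n R) :
    Polynomial.derivative A.charpolyRev = - Matrix.trace ((oneSubXMat A).adjugate * A.map C) := by
  have h := derivation_det (R := R) (A := R[X]) (Polynomial.derivative' (R := R)) (oneSubXMat A)
  have h2 : (oneSubXMat A).map (Polynomial.derivative' (R := R)) = - A.map C :=
    map_derivative_oneSubXMat A
  rw [h2] at h
  rw [charpolyRev_eq_det]
  simpa [Matrix.mul_neg, Matrix.trace_neg] using h


lemma adjugate_oneSubXMat_eq (A : Matrix n n R) (N : ℕ) :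
    (oneSubXMat A).adjugate =
      A.charpolyRev • (∑ m ∈ Finset.range N, ((X : R[X]) • A.map C) ^ m) +
        (oneSubXMat A).adjugate * ((X : R[X]) • A.map C) ^ N := by
  have h1 : oneSubXMat A * (∑ m ∈ Finset.range N, ((X : R[X]) • A.map C) ^ m) =
      1 - ((X : R[X]) • A.map C) ^ N := by
    rw [oneSubXMat]
    exact mul_neg_geom_sum _ _
  have h2 : (oneSubXMat A).adjugate * oneSubXMat A = A.charpolyRev • (1 : Matrix n n R[X]) := by
    rw [Matrix.adjugate_mul, charpolyRev_eq_det]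
  have h3 := congrArg (fun Y => (oneSubXMat A).adjugate * Y) h1
  simp only [← mul_assoc, h2, mul_sub, mul_one, Matrix.smul_mul, one_mul] at h3
  rw [h3]
  abel

lemma map_C_pow (A : Matrix n n R) (m : ℕ) : (A.map C) ^ m = (A ^ m).map (C : R → R[X]) := by
  have := (RingHom.mapMatrix (C : R →+* R[X])).map_pow A m
  exact this.symm

lemma trace_map_C (A : Matrix n n R) : Matrix.trace (A.map (C : R → R[X])) = C A.trace := by
  simp [Matrix.trace, map_sum]

/-- `P' = - P ∑_{m<N} tr(A^{m+1}) X^m - X^N T` for `P = det (1 - X A)`. -/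
lemma derivative_charpolyRev_eq (A : Matrix n n R) (N : ℕ) :
    ∃ T : R[X], Polynomial.derivative A.charpolyRev =
      - (A.charpolyRev * ∑ m ∈ Finset.range N, C (A ^ (m + 1)).trace * X ^ m) - X ^ N * T := by
  refine ⟨Matrix.trace ((oneSubXMat A).adjugate * (A.map C) ^ N * A.map C), ?_⟩
  rw [derivative_charpolyRev]
  conv_lhs => rw [adjugate_oneSubXMat_eq A N]
  rw [add_mul, Matrix.trace_add, neg_add, sub_eq_add_neg]
  congr 1
  · rw [Matrix.smul_mul, Matrix.trace_smul, smul_eq_mul, Finset.sum_mul, Matrix.trace_sum]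
    congr 2
    refine Finset.sum_congr rfl fun m _ => ?_
    rw [_root_.smul_pow, Matrix.smul_mul, Matrix.trace_smul, smul_eq_mul, ← pow_succ, map_C_pow,
      trace_map_C, mul_comm]
  · rw [_root_.smul_pow, Matrix.mul_smul, Matrix.smul_mul, Matrix.trace_smul, smul_eq_mul]

/-- **Newton's identities for `det (1 - X A)`**:
`(j+1) p_{j+1} = - ∑_{m ≤ j} tr(A^{m+1}) p_{j-m}`. -/
theorem succ_mul_coeff_charpolyRev (A : Matrix n n R) (j : ℕ) :
    ((j : R) + 1) * A.charpolyRev.coeff (j + 1) =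
      - ∑ m ∈ Finset.range (j + 1), (A ^ (m + 1)).trace * A.charpolyRev.coeff (j - m) := by
  obtain ⟨T, hT⟩ := derivative_charpolyRev_eq A (j + 1)
  have h := congrArg (fun p : R[X] => p.coeff j) hT
  simp only [Polynomial.coeff_derivative, Polynomial.coeff_sub, Polynomial.coeff_neg,
    Polynomial.coeff_X_pow_mul'] at h
  rw [if_neg (by omega), sub_zero] at h
  rw [mul_comm, h, neg_inj, Finset.mul_sum, Polynomial.finsetSum_coeff]
  refine Finset.sum_congr rfl fun m hm => ?_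
  have hm' : m ≤ j := Nat.lt_succ_iff.mp (Finset.mem_range.mp hm)
  rw [← mul_assoc, mul_comm A.charpolyRev, mul_assoc, Polynomial.coeff_C_mul,
    Polynomial.coeff_mul_X_pow', if_pos hm']

/-- Uniqueness for the Newton recursion over a ring without `ℕ`-torsion. -/
theorem coeff_eq_of_newton [IsDomain R] [CharZero R] (A : Matrix n n R) (l : ℕ → R) (h0 : l 0 = 1)
    (hrec : ∀ j : ℕ, ((j : R) + 1) * l (j + 1) =
      - ∑ m ∈ Finset.range (j + 1), (A ^ (m + 1)).trace * l (j - m)) :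
    ∀ j, l j = A.charpolyRev.coeff j := by
  intro j
  induction j using Nat.strong_induction_on with
  | _ j ih =>
    rcases j with _ | j
    · rw [h0, Polynomial.coeff_zero_eq_eval_zero, Matrix.eval_charpolyRev]
    · have h1 := hrec j
      have h2 := succ_mul_coeff_charpolyRev A j
      have h3 : ∑ m ∈ Finset.range (j + 1), (A ^ (m + 1)).trace * l (j - m) =
          ∑ m ∈ Finset.range (j + 1), (A ^ (m + 1)).trace * A.charpolyRev.coeff (j - m) := by
        refine Finset.sum_congr rfl fun m hm => ?_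
        rw [ih (j - m) (by omega)]
      rw [h3, ← h2] at h1
      have hne : ((j : R) + 1) ≠ 0 := by
        have : ((j + 1 : ℕ) : R) ≠ 0 := Nat.cast_ne_zero.mpr (Nat.succ_ne_zero j)
        simpa using this
      exact mul_left_cancel₀ hne h1

section companion

variable {R : Type*} [CommRing R]

/-- Every monic polynomial is a characteristic polynomial (multiplication by the root on
`AdjoinRoot f`). -/
theorem exists_matrix_charpoly_eq [Nontrivial R] (f : R[X]) (hf : f.Monic) :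
    ∃ A : Matrix (Fin f.natDegree) (Fin f.natDegree) R, A.charpoly = f := by
  classical
  let pb := AdjoinRoot.powerBasis' hf
  let A : Matrix (Fin f.natDegree) (Fin f.natDegree) R :=
    Algebra.leftMulMatrix pb.basis (AdjoinRoot.root f)
  refine ⟨A, ?_⟩
  have hCH : Polynomial.aeval A A.charpoly = 0 := Matrix.aeval_self_charpoly A
  have h1 : Algebra.leftMulMatrix pb.basis (Polynomial.aeval (AdjoinRoot.root f) A.charpoly) = 0 := by
    rw [← Polynomial.aeval_algHom_apply]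
    exact hCH
  have h2 : Polynomial.aeval (AdjoinRoot.root f) A.charpoly = 0 :=
    (Algebra.leftMulMatrix_injective pb.basis) (by rw [h1, map_zero])
  have h3 : f ∣ A.charpoly := by
    rw [← AdjoinRoot.mk_eq_zero, ← AdjoinRoot.aeval_eq]
    exact h2
  have hmon : A.charpoly.Monic := Matrix.charpoly_monic A
  have hdeg : A.charpoly.natDegree = f.natDegree := by
    rw [Matrix.charpoly_natDegree_eq_dim, Fintype.card_fin]
  obtain ⟨q, hq⟩ := h3
  have hqmon : q.Monic := by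
    have := hmon
    rw [hq] at this
    exact hf.of_mul_monic_left this
  have hqdeg : q.natDegree = 0 := by
    have := congrArg Polynomial.natDegree hq
    rw [hf.natDegree_mul hqmon, hdeg] at this
    omega
  have hq1 : q = 1 := by
    rw [Polynomial.eq_C_of_natDegree_eq_zero hqdeg] at hqmon ⊢
    have : q.coeff 0 = 1 := by
      have h := hqmon.leadingCoeff
      rwa [Polynomial.leadingCoeff_C] at h
    rw [this, map_one]
  rw [hq, hq1, mul_one]

/-- Version with a prescribed size. -/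
theorem exists_matrix_charpoly_eq' [Nontrivial R] (f : R[X]) (hf : f.Monic) (d : ℕ)
    (hd : f.natDegree = d) : ∃ A : Matrix (Fin d) (Fin d) R, A.charpoly = f := by
  subst hd
  exact exists_matrix_charpoly_eq f hf

/-- Every polynomial `L` with `L(0) = 1` and `natDegree L = d` is `det (1 - X A)` for a
`d × d` matrix `A`, and `det A = (-1)^d * leadingCoeff L`. -/
theorem exists_matrix_charpolyRev_eq [Nontrivial R] (L : R[X]) (h0 : L.coeff 0 = 1) (d : ℕ)
    (hd : L.natDegree = d) :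
    ∃ A : Matrix (Fin d) (Fin d) R, A.charpolyRev = L ∧ A.det = (-1) ^ d * L.leadingCoeff := by
  have hne : L.coeff 0 ≠ 0 := by rw [h0]; exact one_ne_zero
  have htr : L.natTrailingDegree = 0 := by
    by_contra h
    exact hne (Polynomial.coeff_eq_zero_of_lt_natTrailingDegree (Nat.pos_of_ne_zero h))
  have hmon : L.reverse.Monic := by
    rw [Polynomial.Monic, Polynomial.reverse_leadingCoeff, Polynomial.trailingCoeff, htr, h0]
  have hdeg : L.reverse.natDegree = d := by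
    rw [Polynomial.reverse_natDegree, htr, Nat.sub_zero, hd]
  obtain ⟨A, hA⟩ := exists_matrix_charpoly_eq' L.reverse hmon d hdeg
  refine ⟨A, ?_, ?_⟩
  · rw [← Matrix.reverse_charpoly, hA]
    ext i
    rw [Polynomial.coeff_reverse, hdeg, Polynomial.coeff_reverse, hd, Polynomial.revAt_invol]
  · rw [Matrix.det_eq_sign_charpoly_coeff, hA, Polynomial.coeff_zero_reverse, Fintype.card_fin]

end companion

end Fermat.Agent.S27.Lift.H68

end
-- ==== END Fermat.Agent.S27.Lift.H68_LogDer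

-- ==== BEGIN Fermat.Agent.S27.Lift.H68_MvHensel
section

/-!
# S27 / LIFT leaf MV-HENSEL (helper68): multivariate Hensel for the valuation ring of an
algebraically closed field

Let `A` be a valuation ring whose fraction field `K` is algebraically closed (any rank, no
completeness).  For a square system `f : σ → A[X_σ]` and `a : σ → A` with `f(a) ∈ 𝔪` and
`det (∂f_i/∂X_j)(a)` a unit there is a unique `b ≡ a mod 𝔪` with `f(b) = 0`.

Proof.  `B = A[X, Y]/(f, YΔ - 1)` is étale over `A`, hence flat (Mathlib `Algebra.Smooth.flat`),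
hence has going-down.  The point `ā` of the special fibre is a prime `Q` over `𝔪`; going-down
gives a prime `P ⊆ Q` over `0`; as `K ⊗ B` is finite over the algebraically closed `K`,
`P` is the kernel of a point `φ : B → K`.  The subring `φ(B) ⊇ A` of `K` has the prime `φ(Q)`
over `𝔪`, so `φ(B) = A` (valuation rings are maximal for domination).
Uniqueness holds over any local ring (formally unramified + Nakayama).
-/

set_option linter.style.haveILetI false
set_option linter.unusedSectionVars false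

namespace Fermat.Agent.S27.Lift.H68

open MvPolynomial TensorProduct

universe u v w

/-- A prime of an étale `A`-algebra lying over `0` is the kernel of a point with values in the
algebraically closed fraction field. -/
theorem exists_algHom_ker_eq_of_etale
    {A K B : Type*} [CommRing A] [IsDomain A] [Field K] [Algebra A K] [IsFractionRing A K]
    [IsAlgClosed K] [CommRing B] [Algebra A B] [Algebra.Etale A B]
    (P : Ideal B) [P.IsPrime] (hP : P.under A = ⊥) :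
    ∃ φ : B →ₐ[A] K, RingHom.ker (φ : B →+* K) = P := by
  classical
  let C := B ⧸ P
  let L := FractionRing C
  have hAC : Function.Injective (algebraMap A C) := by
    rw [injective_iff_map_eq_zero]
    intro x hx
    have : x ∈ P.under A := by
      rw [Ideal.under_def, Ideal.mem_comap]
      exact Ideal.Quotient.eq_zero_iff_mem.mp hx
    rw [hP] at this
    exact this
  have hAL : Function.Injective (algebraMap A L) := by
    rw [IsScalarTower.algebraMap_eq A C L]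
    exact (IsFractionRing.injective C L).comp hAC
  letI : Algebra K L := (IsFractionRing.lift hAL).toAlgebra
  haveI : IsScalarTower A K L := IsScalarTower.of_algebraMap_eq fun x => by
    rw [RingHom.algebraMap_toAlgebra, IsFractionRing.lift_algebraMap]
  let g : B →ₐ[A] L := (IsScalarTower.toAlgHom A C L).comp (Ideal.Quotient.mkₐ A P)
  have hg : ∀ b, g b = 0 ↔ b ∈ P := by
    intro b
    change algebraMap C L (Ideal.Quotient.mk P b) = 0 ↔ _
    rw [map_eq_zero_iff _ (IsFractionRing.injective C L), Ideal.Quotient.eq_zero_iff_mem]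
  let ψ : K ⊗[A] B →ₐ[K] L :=
    Algebra.TensorProduct.lift (Algebra.ofId K L) g (fun _ _ => Commute.all _ _)
  haveI : Module.Finite K (K ⊗[A] B) := Algebra.FormallyUnramified.finite_of_free K (K ⊗[A] B)
  haveI : Module.Finite K ψ.range := by
    have := Module.Finite.range ψ.toLinearMap
    exact this
  haveI : Algebra.IsIntegral K ψ.range := Algebra.IsIntegral.of_finite K _
  have hbij : Function.Bijective (algebraMap K ψ.range) :=
    IsAlgClosed.algebraMap_bijective_of_isIntegral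
  let e : K ≃ₐ[K] ψ.range := AlgEquiv.ofBijective (Algebra.ofId K ψ.range) hbij
  let φ : B →ₐ[A] K :=
    ((e.symm.toAlgHom.comp ψ.rangeRestrict).restrictScalars A).comp
      (Algebra.TensorProduct.includeRight : B →ₐ[A] K ⊗[A] B)
  have hφ : ∀ b, algebraMap K L (φ b) = g b := by
    intro b
    have h1 : (algebraMap K ψ.range (φ b) : L) = algebraMap K L (φ b) := rfl
    have h2 : algebraMap K ψ.range (φ b) = ψ.rangeRestrict (1 ⊗ₜ b) := by
      change e (e.symm (ψ.rangeRestrict (1 ⊗ₜ b))) = _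
      exact e.apply_symm_apply _
    rw [← h1, h2]
    change ψ (1 ⊗ₜ b) = g b
    simp [ψ]
  refine ⟨φ, ?_⟩
  ext b
  rw [RingHom.mem_ker, ← hg b, ← hφ b]
  exact (map_eq_zero_iff _ (algebraMap K L).injective).symm


section uniq

variable {A : Type u} [CommRing A] {σ : Type w} [Fintype σ] [DecidableEq σ]

lemma algebraMap_eval {R : Type*} [CommRing R] [Algebra A R] (c : σ → A) (p : MvPolynomial σ A) :
    algebraMap A R (eval c p) = aeval (fun i => algebraMap A R (c i)) p := by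
  rw [MvPolynomial.eval₂_comp, aeval_def]
  rfl

lemma eval_sub_mem_of_sub_mem (I : Ideal A) (p : MvPolynomial σ A) (b b' : σ → A)
    (h : ∀ i, b' i - b i ∈ I) : eval b' p - eval b p ∈ I := by
  rw [← Ideal.Quotient.eq_zero_iff_mem, map_sub, sub_eq_zero]
  have h1 : ∀ c : σ → A, Ideal.Quotient.mk I (eval c p) =
      aeval (fun i => algebraMap A (A ⧸ I) (c i)) p := fun c => algebraMap_eval c p
  rw [h1, h1]
  have : (fun i => algebraMap A (A ⧸ I) (b' i)) = fun i => algebraMap A (A ⧸ I) (b i) :=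
    funext fun i => Ideal.Quotient.eq.mpr (h i)
  rw [this]

variable [IsLocalRing A]

/-- Uniqueness in multivariate Hensel (any local ring). -/
theorem mvHensel_unique (f : σ → MvPolynomial σ A) (b b' : σ → A)
    (hb : ∀ i, eval b (f i) = 0) (hb' : ∀ i, eval b' (f i) = 0)
    (hJ : IsUnit (eval b (jacDet f)))
    (hbb : ∀ i, b' i - b i ∈ IsLocalRing.maximalIdeal A) : b' = b := by
  classical
  have hJ' : IsUnit (eval b' (jacDet f)) := by
    by_contra hnu
    have h1 : eval b' (jacDet f) ∈ IsLocalRing.maximalIdeal A :=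
      (IsLocalRing.mem_maximalIdeal _).mpr hnu
    have h2 := eval_sub_mem_of_sub_mem (IsLocalRing.maximalIdeal A) (jacDet f) b b' hbb
    have h3 : eval b (jacDet f) ∈ IsLocalRing.maximalIdeal A := by
      have := (IsLocalRing.maximalIdeal A).sub_mem h1 h2
      simpa using this
    exact (IsLocalRing.mem_maximalIdeal _).mp h3 hJ
  obtain ⟨y, hy⟩ := hJ.exists_left_inv
  obtain ⟨y', hy'⟩ := hJ'.exists_left_inv
  let I : Ideal A := Ideal.span (Set.range fun i => b' i - b i)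
  have hI𝔪 : I ≤ IsLocalRing.maximalIdeal A := by
    rw [Ideal.span_le]
    rintro _ ⟨i, rfl⟩
    exact hbb i
  have hIfg : I.FG := by
    refine ⟨(Set.finite_range fun i => b' i - b i).toFinset, ?_⟩
    rw [Set.Finite.coe_toFinset]
  let φ : RingB f →ₐ[A] A := liftB f b y (by simpa using hb) (by simpa using hy)
  let φ' : RingB f →ₐ[A] A := liftB f b' y' (by simpa using hb') (by simpa using hy')
  let R := A ⧸ I ^ 2
  let g : RingB f →ₐ[A] R := (Ideal.Quotient.mkₐ A (I ^ 2)).comp φ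
  let g' : RingB f →ₐ[A] R := (Ideal.Quotient.mkₐ A (I ^ 2)).comp φ'
  have hle : I ^ 2 ≤ I := Ideal.pow_le_self (by norm_num)
  have hnil : IsNilpotent (RingHom.ker (Ideal.Quotient.factor hle)) := by
    refine ⟨2, ?_⟩
    rw [Ideal.Quotient.factor_ker, ← Ideal.map_pow, Ideal.zero_eq_bot, Ideal.map_quotient_self]
  have hgg : g = g' := by
    apply Algebra.FormallyUnramified.ext' (Ideal.Quotient.factor hle) hnil
    intro x
    have key : (Ideal.Quotient.mkₐ A I).comp φ = (Ideal.Quotient.mkₐ A I).comp φ' := by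
      apply algHom_ext_X
      intro i
      simp only [AlgHom.comp_apply, φ, φ', liftB_X, Ideal.Quotient.mkₐ_eq_mk]
      refine (Ideal.Quotient.eq.mpr ?_).symm
      exact Ideal.subset_span ⟨i, rfl⟩
    have := congrArg (fun h : RingB f →ₐ[A] A ⧸ I => h x) key
    simpa [g, g'] using this
  have hsq : I ≤ I ^ 2 := by
    rw [Ideal.span_le]
    rintro _ ⟨i, rfl⟩
    have := congrArg (fun h : RingB f →ₐ[A] R => h (mkB f (X (Sum.inl i)))) hgg
    simp only [g, g', AlgHom.comp_apply, φ, φ', liftB_X, Ideal.Quotient.mkₐ_eq_mk] at this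
    exact Ideal.Quotient.eq.mp this.symm
  have hbot : I = ⊥ := by
    apply Submodule.eq_bot_of_le_smul_of_le_jacobson_bot I I hIfg
    · rw [smul_eq_mul, ← pow_two]
      exact hsq
    · rw [IsLocalRing.jacobson_eq_maximalIdeal _ bot_ne_top]
      exact hI𝔪
  funext i
  have : b' i - b i ∈ I := Ideal.subset_span ⟨i, rfl⟩
  rw [hbot, Ideal.mem_bot, sub_eq_zero] at this
  exact this

end uniq


section exist

variable {A : Type u} [CommRing A] [IsDomain A] [ValuationRing A]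
  {K : Type v} [Field K] [Algebra A K] [IsFractionRing A K] [IsAlgClosed K]
  {σ : Type w} [Fintype σ] [DecidableEq σ]

/-- Existence in multivariate Hensel for the valuation ring of an algebraically closed field. -/
theorem mvHensel_exists (K : Type v) [Field K] [Algebra A K] [IsFractionRing A K] [IsAlgClosed K]
    (f : σ → MvPolynomial σ A) (a : σ → A)
    (h0 : ∀ i, eval a (f i) ∈ IsLocalRing.maximalIdeal A)
    (hJ : IsUnit (eval a (jacDet f))) :
    ∃ b : σ → A, (∀ i, b i - a i ∈ IsLocalRing.maximalIdeal A) ∧ ∀ i, eval b (f i) = 0 := by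
  classical
  let k := IsLocalRing.ResidueField A
  let ā : σ → k := fun i => algebraMap A k (a i)
  have hres : ∀ x : A, algebraMap A k x = 0 ↔ x ∈ IsLocalRing.maximalIdeal A := fun x =>
    IsLocalRing.residue_eq_zero_iff x
  have hā : ∀ i, aeval ā (f i) = 0 := by
    intro i
    rw [← algebraMap_eval, hres]
    exact h0 i
  have hΔ : aeval ā (jacDet f) ≠ 0 := by
    rw [← algebraMap_eval, Ne, hres]
    exact fun h => (IsLocalRing.mem_maximalIdeal _).mp h hJ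
  let ev : RingB f →ₐ[A] k := liftB f ā (aeval ā (jacDet f))⁻¹ hā (inv_mul_cancel₀ hΔ)
  let Q : Ideal (RingB f) := RingHom.ker (ev : RingB f →+* k)
  haveI hQp : Q.IsPrime := RingHom.ker_isPrime _
  have hQ : ∀ x, x ∈ Q ↔ ev x = 0 := fun x => RingHom.mem_ker
  have hQu : Q.under A = IsLocalRing.maximalIdeal A := by
    ext x
    rw [Ideal.under_def, Ideal.mem_comap, hQ, AlgHom.commutes, hres]
  haveI : Q.LiesOver (IsLocalRing.maximalIdeal A) := ⟨hQu.symm⟩
  obtain ⟨P, hPQ, hPp, hPo⟩ := Ideal.exists_ideal_le_liesOver_of_le (p := (⊥ : Ideal A))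
    (q := IsLocalRing.maximalIdeal A) Q bot_le
  have hP : P.under A = ⊥ := hPo.over.symm
  obtain ⟨φ, hφ⟩ := exists_algHom_ker_eq_of_etale (K := K) P hP
  have hφQ : ∀ x, φ x = 0 → ev x = 0 := by
    intro x hx
    have : x ∈ P := by rw [← hφ]; exact hx
    exact (hQ x).mp (hPQ this)
  have hint : ∀ x : RingB f, ∃ c : A, φ x = algebraMap A K c := by
    intro x
    rcases ValuationRing.isInteger_or_isInteger A (φ x) with ⟨c, hc⟩ | ⟨m, hm⟩
    · exact ⟨c, hc.symm⟩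
    · by_cases hx0 : φ x = 0
      · exact ⟨0, by rw [hx0, map_zero]⟩
      by_cases hmu : IsUnit m
      · obtain ⟨m', hm'⟩ := hmu.exists_right_inv
        refine ⟨m', ?_⟩
        have h1 : algebraMap A K m * algebraMap A K m' = 1 := by
          rw [← map_mul, hm', map_one]
        rw [hm] at h1
        have h2 : φ x * ((φ x)⁻¹ * algebraMap A K m') = φ x := by rw [h1, mul_one]
        rw [← mul_assoc, mul_inv_cancel₀ hx0, one_mul] at h2
        exact h2.symm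
      · exfalso
        have hmm : m ∈ IsLocalRing.maximalIdeal A := (IsLocalRing.mem_maximalIdeal _).mpr hmu
        have h1 : φ (x * algebraMap A (RingB f) m - 1) = 0 := by
          rw [map_sub, map_mul, AlgHom.commutes, hm, mul_inv_cancel₀ hx0, map_one, sub_self]
        have h2 := hφQ _ h1
        rw [map_sub, map_mul, AlgHom.commutes, (hres m).mpr hmm, mul_zero, map_one,
          zero_sub, neg_eq_zero] at h2
        exact one_ne_zero h2
  choose c hc using hint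
  let b : σ → A := fun i => c (mkB f (X (Sum.inl i)))
  have hinj : Function.Injective (algebraMap A K) := IsFractionRing.injective A K
  refine ⟨b, fun i => ?_, fun j => ?_⟩
  · rw [← hres, map_sub, sub_eq_zero]
    have h1 : φ (mkB f (X (Sum.inl i)) - algebraMap A (RingB f) (b i)) = 0 := by
      rw [map_sub, AlgHom.commutes, hc, sub_self]
    have h2 := hφQ _ h1
    rw [map_sub, AlgHom.commutes, sub_eq_zero] at h2
    rw [← h2]
    exact liftB_X f ā _ hā _ i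
  · apply hinj
    rw [map_zero, algebraMap_eval]
    have : (fun i => algebraMap A K (b i)) = fun i => φ (mkB f (X (Sum.inl i))) :=
      funext fun i => (hc _).symm
    rw [this]
    exact aeval_f_of_algHom f φ j

end exist


section main

variable {A : Type u} [CommRing A] [IsDomain A] [ValuationRing A]
  {σ : Type w} [Fintype σ] [DecidableEq σ]

/-- **Multivariate Hensel** for the valuation ring `A` of an algebraically closed field `K`. -/
theorem mvHensel (K : Type v) [Field K] [Algebra A K] [IsFractionRing A K] [IsAlgClosed K]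
    (f : σ → MvPolynomial σ A) (a : σ → A)
    (h0 : ∀ i, eval a (f i) ∈ IsLocalRing.maximalIdeal A)
    (hJ : IsUnit (eval a (jacDet f))) :
    ∃! b : σ → A, (∀ i, b i - a i ∈ IsLocalRing.maximalIdeal A) ∧ ∀ i, eval b (f i) = 0 := by
  obtain ⟨b, hba, hb⟩ := mvHensel_exists K f a h0 hJ
  have hJb : IsUnit (eval b (jacDet f)) := by
    by_contra hnu
    have h1 : eval b (jacDet f) ∈ IsLocalRing.maximalIdeal A :=
      (IsLocalRing.mem_maximalIdeal _).mpr hnu
    have h2 := eval_sub_mem_of_sub_mem (IsLocalRing.maximalIdeal A) (jacDet f) a b hba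
    have h3 : eval a (jacDet f) ∈ IsLocalRing.maximalIdeal A := by
      have := (IsLocalRing.maximalIdeal A).sub_mem h1 h2
      simpa using this
    exact (IsLocalRing.mem_maximalIdeal _).mp h3 hJ
  refine ⟨b, ⟨hba, hb⟩, ?_⟩
  rintro b' ⟨hb'a, hb'⟩
  refine mvHensel_unique f b b' hb hb' hJb fun i => ?_
  have := (IsLocalRing.maximalIdeal A).sub_mem (hb'a i) (hba i)
  simpa using this

lemma eval_jacDet (f : σ → MvPolynomial σ A) (a : σ → A) :
    eval a (jacDet f) = Matrix.det (Matrix.of fun i j => eval a (pderiv j (f i))) := by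
  rw [jacDet, RingHom.map_det]
  rfl

/-- Matrix form of `mvHensel`. -/
theorem mvHensel' (K : Type v) [Field K] [Algebra A K] [IsFractionRing A K] [IsAlgClosed K]
    (f : σ → MvPolynomial σ A) (a : σ → A)
    (h0 : ∀ i, eval a (f i) ∈ IsLocalRing.maximalIdeal A)
    (hJ : IsUnit (Matrix.det (Matrix.of fun i j => eval a (pderiv j (f i))))) :
    ∃! b : σ → A, (∀ i, b i - a i ∈ IsLocalRing.maximalIdeal A) ∧ ∀ i, eval b (f i) = 0 :=
  mvHensel K f a h0 (by rw [eval_jacDet]; exact hJ)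

end main

/-- The statement MV-HENSEL of the S27 LIFT package (universe-polymorphic). -/
def Stmt_MvHensel : Prop :=
  ∀ (A : Type u) (K : Type v) [CommRing A] [IsDomain A] [ValuationRing A] [Field K] [Algebra A K]
    [IsFractionRing A K] [IsAlgClosed K] (σ : Type w) [Fintype σ] [DecidableEq σ]
    (f : σ → MvPolynomial σ A) (a : σ → A),
    (∀ i, eval a (f i) ∈ IsLocalRing.maximalIdeal A) →
    IsUnit (Matrix.det (Matrix.of fun i j => eval a (pderiv j (f i)))) →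
    ∃! b : σ → A, (∀ i, b i - a i ∈ IsLocalRing.maximalIdeal A) ∧ ∀ i, eval b (f i) = 0

theorem stmt_MvHensel : Stmt_MvHensel.{u, v, w} :=
  fun _ K _ _ _ _ _ _ _ _ _ _ f a h0 hJ => mvHensel' K f a h0 hJ

/-- MV-HENSEL for a `ValuationSubring` of an algebraically closed field. -/
theorem mvHensel_valuationSubring {K : Type v} [Field K] [IsAlgClosed K] (A : ValuationSubring K)
    {σ : Type w} [Fintype σ] [DecidableEq σ] (f : σ → MvPolynomial σ A) (a : σ → A)
    (h0 : ∀ i, eval a (f i) ∈ IsLocalRing.maximalIdeal A)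
    (hJ : IsUnit (Matrix.det (Matrix.of fun i j => eval a (pderiv j (f i))))) :
    ∃! b : σ → A, (∀ i, b i - a i ∈ IsLocalRing.maximalIdeal A) ∧ ∀ i, eval b (f i) = 0 :=
  mvHensel' K f a h0 hJ

end Fermat.Agent.S27.Lift.H68

end
-- ==== END Fermat.Agent.S27.Lift.H68_MvHensel

-- ==== BEGIN Fermat.Agent.S27.REDu.H34_Gauss
section

/-!
# G-RED package IG (helper34): Gauss lemma in a `RedSetting`

`S : RedSetting C F k Ft`, `x ∈ V` with transcendental reduction.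
* `exists_scale` : every nonzero `p ∈ C[X]` is `c • p₀` with `p₀ ∈ O[X]` having a coefficient `1`.
* `psi` : the ring hom `O[X] → V`, `X ↦ x`; `red (psi p₀) = p₀ mod m (xt)`.
* `aeval_mem_iff` : `p(x) ∈ V ↔ p ∈ O[X]`.
-/

set_option autoImplicit false

universe uC uCf uK uR uF uL uE uk ukap uFp uFt uFtp uiot uEp uKp ux3b1

noncomputable section

open Polynomial IntermediateField

namespace Fermat.Agent.S27.REDu.H34

variable {C : Type uC} {F : Type uF} {k : Type uk} {Ft : Type uFt} [Field C] [Field F] [Algebra C F] [Field k] [Field Ft] [Algebra k Ft]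

/-- Gauss scaling: a nonzero polynomial over the fraction field of a valuation ring is a constant
times a polynomial over the valuation ring with a coefficient equal to `1`. -/
theorem exists_scale (O : ValuationSubring C) (p : C[X]) (hp : p ≠ 0) :
    ∃ c : C, c ≠ 0 ∧ ∃ p₀ : (↥O)[X], p = Polynomial.C c * p₀.map O.subtype ∧
      ∃ i, p₀.coeff i = 1 := by
  classical
  have hne : p.support.Nonempty := Polynomial.nonempty_support_iff.2 hp
  obtain ⟨i₀, hi₀, hmax⟩ := Finset.exists_max_image p.support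
    (fun i => O.valuation (p.coeff i)) hne
  have hc : p.coeff i₀ ≠ 0 := Polynomial.mem_support_iff.1 hi₀
  have hall : ∀ i, p.coeff i / p.coeff i₀ ∈ O := by
    intro i
    rw [← O.valuation_le_one_iff, map_div₀]
    have hv0 : O.valuation (p.coeff i₀) ≠ 0 := (Valuation.ne_zero_iff _).2 hc
    rw [div_le_one₀ (zero_lt_iff.2 hv0)]
    by_cases hi : i ∈ p.support
    · exact hmax i hi
    · rw [Polynomial.notMem_support_iff.1 hi, map_zero]
      exact zero_le
  have hlift : Polynomial.C (p.coeff i₀)⁻¹ * p ∈ Polynomial.lifts O.subtype := by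
    rw [Polynomial.lifts_iff_coeff_lifts]
    intro n
    rw [Polynomial.coeff_C_mul]
    exact ⟨⟨p.coeff n / p.coeff i₀, hall n⟩, by simp [div_eq_inv_mul]⟩
  obtain ⟨p₀, hp₀⟩ := (Polynomial.mem_lifts _).1 hlift
  refine ⟨p.coeff i₀, hc, p₀, ?_, i₀, ?_⟩
  · rw [hp₀, ← mul_assoc, ← Polynomial.C_mul, mul_inv_cancel₀ hc, Polynomial.C_1, one_mul]
  · apply Subtype.ext
    have := congrArg (fun q => q.coeff i₀) hp₀
    simp only [Polynomial.coeff_map, Polynomial.coeff_C_mul] at this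
    rw [show ((p₀.coeff i₀ : ↥O) : C) = O.subtype (p₀.coeff i₀) from rfl, this,
      inv_mul_cancel₀ hc]
    rfl

namespace RedSetting

variable (S : RedSetting C F k Ft)

/-- The valuation ring of constants `O = V ∩ C`. -/
abbrev O : ValuationSubring C := S.V.comap (algebraMap C F)

theorem red_eq_zero_iff (f : ↥S.V) : S.red f = 0 ↔ ¬ IsUnit f := by
  constructor
  · intro h hu
    have := hu.map S.red
    rw [h] at this
    exact not_isUnit_zero this
  · intro h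
    have hmax : (RingHom.ker S.red).IsMaximal := RingHom.ker_isMaximal_of_surjective _ S.red_surj
    have := IsLocalRing.eq_maximalIdeal hmax
    rw [← RingHom.mem_ker, this]
    exact h

theorem resO_eq_zero_iff (a : ↥S.O) : S.resO a = 0 ↔ ¬ IsUnit a := by
  constructor
  · intro h hu
    have := hu.map S.resO
    rw [h] at this
    exact not_isUnit_zero this
  · intro h
    have hmax : (RingHom.ker S.resO).IsMaximal :=
      RingHom.ker_isMaximal_of_surjective _ S.resO_surj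
    have := IsLocalRing.eq_maximalIdeal hmax
    rw [← RingHom.mem_ker, this]
    exact h

/-- The inclusion `O → V`. -/
def inclO : ↥S.O →+* ↥S.V where
  toFun a := ⟨algebraMap C F (a : C), a.2⟩
  map_one' := by apply Subtype.ext; simp
  map_mul' a b := by apply Subtype.ext; simp
  map_zero' := by apply Subtype.ext; simp
  map_add' a b := by apply Subtype.ext; simp

@[simp] theorem coe_inclO (a : ↥S.O) : ((S.inclO a : ↥S.V) : F) = algebraMap C F (a : C) := rfl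

theorem red_inclO (a : ↥S.O) : S.red (S.inclO a) = algebraMap k Ft (S.resO a) :=
  S.red_algebraMap a

variable {S}
variable {x : F} (hx : x ∈ S.V)

/-- The ring hom `O[X] → V`, `X ↦ x`. -/
def psi : (↥S.O)[X] →+* ↥S.V := Polynomial.eval₂RingHom S.inclO ⟨x, hx⟩

theorem coe_psi (p₀ : (↥S.O)[X]) :
    ((psi hx p₀ : ↥S.V) : F) = Polynomial.aeval x (p₀.map S.O.subtype) := by
  have h : (S.V.subtype.comp (psi hx)) =
      ((Polynomial.aeval x : C[X] →ₐ[C] F) : C[X] →+* F).comp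
        (Polynomial.mapRingHom S.O.subtype) := by
    apply Polynomial.ringHom_ext
    · intro a
      simp [psi]
    · simp [psi]
  exact congrArg (fun g : (↥S.O)[X] →+* F => g p₀) h

theorem red_psi (p₀ : (↥S.O)[X]) :
    S.red (psi hx p₀) = Polynomial.aeval (S.red ⟨x, hx⟩) (p₀.map S.resO) := by
  have h : (S.red.comp (psi hx)) =
      ((Polynomial.aeval (S.red ⟨x, hx⟩) : k[X] →ₐ[k] Ft) : k[X] →+* Ft).comp
        (Polynomial.mapRingHom S.resO) := by
    apply Polynomial.ringHom_ext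
    · intro a
      simp [psi, red_inclO]
    · simp [psi]
  exact congrArg (fun g : (↥S.O)[X] →+* Ft => g p₀) h

theorem isUnit_psi (hxt : Transcendental k (S.red ⟨x, hx⟩)) (p₀ : (↥S.O)[X])
    (h : p₀.map S.resO ≠ 0) : IsUnit (psi hx p₀) := by
  by_contra hu
  have h0 := (S.red_eq_zero_iff _).2 hu
  rw [red_psi] at h0
  exact h ((transcendental_iff.1 hxt) _ h0)

/-- Transcendence of `x` over `C` follows from that of its reduction. -/
theorem aeval_ne_zero (hxt : Transcendental k (S.red ⟨x, hx⟩)) (p : C[X]) (hp : p ≠ 0) :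
    Polynomial.aeval x p ≠ 0 := by
  obtain ⟨c, hc, p₀, hp₀, i, hi⟩ := exists_scale S.O p hp
  have hne : p₀.map S.resO ≠ 0 := by
    intro h0
    have := congrArg (fun q => q.coeff i) h0
    simp [Polynomial.coeff_map, hi] at this
  have hu := isUnit_psi hx hxt p₀ hne
  rw [hp₀, map_mul, Polynomial.aeval_C, ← coe_psi hx]
  refine mul_ne_zero ?_ ?_
  · exact fun h => hc ((map_eq_zero _).1 h)
  · intro h0
    have : (psi hx p₀ : ↥S.V) = 0 := Subtype.ext h0
    rw [this] at hu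
    exact not_isUnit_zero hu

theorem transcendental_x (hxt : Transcendental k (S.red ⟨x, hx⟩)) : Transcendental C x := by
  rw [transcendental_iff]
  intro p hp
  by_contra h
  exact aeval_ne_zero hx hxt p h hp

/-- Decomposition `p(x) = c · u` with `u` a unit of `V` (Gauss lemma). -/
theorem exists_decomp (hxt : Transcendental k (S.red ⟨x, hx⟩)) (p : C[X]) (hp : p ≠ 0) :
    ∃ c : C, c ≠ 0 ∧ ∃ p₀ : (↥S.O)[X], p₀.map S.resO ≠ 0 ∧ IsUnit (psi hx p₀) ∧
      p = Polynomial.C c * p₀.map S.O.subtype ∧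
      Polynomial.aeval x p = algebraMap C F c * ((psi hx p₀ : ↥S.V) : F) := by
  obtain ⟨c, hc, p₀, hp₀, i, hi⟩ := exists_scale S.O p hp
  have hne : p₀.map S.resO ≠ 0 := by
    intro h0
    have := congrArg (fun q => q.coeff i) h0
    simp [Polynomial.coeff_map, hi] at this
  refine ⟨c, hc, p₀, hne, isUnit_psi hx hxt p₀ hne, hp₀, ?_⟩
  rw [coe_psi, ← Polynomial.aeval_C (A := F) x c, ← map_mul, ← hp₀]

theorem aeval_mem_V_iff (hxt : Transcendental k (S.red ⟨x, hx⟩)) (p : C[X]) :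
    Polynomial.aeval x p ∈ S.V ↔ ∀ i, p.coeff i ∈ S.O := by
  constructor
  · intro h i
    by_cases hp : p = 0
    · rw [hp, Polynomial.coeff_zero]
      exact S.O.zero_mem
    obtain ⟨c, hc, p₀, hne, hu, hp₀, he⟩ := exists_decomp hx hxt p hp
    have hcO : c ∈ S.O := by
      rw [ValuationSubring.mem_comap]
      obtain ⟨u, hu'⟩ := hu
      have h1 : algebraMap C F c = Polynomial.aeval x p * ((u⁻¹ : (↥S.V)ˣ) : ↥S.V) := by
        rw [he, ← hu', mul_assoc, ← Subring.coe_mul, ← Units.val_mul, mul_inv_cancel,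
          Units.val_one, Subring.coe_one, mul_one]
      rw [h1]
      exact mul_mem h (Subtype.mem _)
    rw [hp₀, Polynomial.coeff_C_mul, Polynomial.coeff_map]
    exact mul_mem hcO (Subtype.mem _)
  · intro h
    have hl : p ∈ Polynomial.lifts S.O.subtype := by
      rw [Polynomial.lifts_iff_coeff_lifts]
      exact fun n => ⟨⟨p.coeff n, h n⟩, rfl⟩
    obtain ⟨p₀, hp₀⟩ := (Polynomial.mem_lifts _).1 hl
    rw [← hp₀, ← coe_psi hx]
    exact Subtype.mem _

/-- Elements of `O[X]` lifting a polynomial over `C` with coefficients in `O`. -/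
theorem exists_lift_of_aeval_mem (hxt : Transcendental k (S.red ⟨x, hx⟩)) (p : C[X])
    (h : Polynomial.aeval x p ∈ S.V) : ∃ p₀ : (↥S.O)[X], p₀.map S.O.subtype = p := by
  have hl : p ∈ Polynomial.lifts S.O.subtype := by
    rw [Polynomial.lifts_iff_coeff_lifts]
    exact fun n => ⟨⟨p.coeff n, (aeval_mem_V_iff hx hxt p).1 h n⟩, rfl⟩
  exact (Polynomial.mem_lifts _).1 hl

/-- The reduction of an element of `C(x) ∩ V` lies in `k(xt)`. -/
theorem red_mem_adjoin (hxt : Transcendental k (S.red ⟨x, hx⟩)) (a : F) (ha : a ∈ C⟮x⟯)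
    (haV : a ∈ S.V) : S.red ⟨a, haV⟩ ∈ k⟮S.red ⟨x, hx⟩⟯ := by
  obtain ⟨p, q, hpq⟩ := (IntermediateField.mem_adjoin_simple_iff C a).1 ha
  by_cases hq : q = 0
  · have : (⟨a, haV⟩ : ↥S.V) = 0 := by
      apply Subtype.ext
      simp [hpq, hq]
    rw [this, map_zero]
    exact zero_mem _
  by_cases hp : p = 0
  · have : (⟨a, haV⟩ : ↥S.V) = 0 := by
      apply Subtype.ext
      simp [hpq, hp]
    rw [this, map_zero]
    exact zero_mem _
  obtain ⟨c, hc, p₀, hpne, hpu, -, hpe⟩ := exists_decomp hx hxt p hp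
  obtain ⟨c', hc', q₀, hqne, hqu, -, hqe⟩ := exists_decomp hx hxt q hq
  obtain ⟨u, hu⟩ := hpu
  obtain ⟨w, hw⟩ := hqu
  have hF : a = algebraMap C F (c / c') * (((u * w⁻¹ : (↥S.V)ˣ) : ↥S.V) : F) := by
    have hw0 : ((w : ↥S.V) : F) ≠ 0 := by
      intro h0
      have : (w : ↥S.V) = 0 := Subtype.ext h0
      exact w.ne_zero this
    have hwinv : (((w⁻¹ : (↥S.V)ˣ) : ↥S.V) : F) = ((w : ↥S.V) : F)⁻¹ := by
      apply eq_inv_of_mul_eq_one_left
      rw [← Subring.coe_mul, ← Units.val_mul, inv_mul_cancel]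
      rfl
    rw [hpq, hpe, hqe, ← hu, ← hw, Units.val_mul, Subring.coe_mul, hwinv, map_div₀]
    field_simp
  have hcO : c / c' ∈ S.O := by
    rw [ValuationSubring.mem_comap]
    have h1 : algebraMap C F (c / c') = a * (((u * w⁻¹ : (↥S.V)ˣ)⁻¹ : (↥S.V)ˣ) : ↥S.V) := by
      rw [hF, mul_assoc, ← Subring.coe_mul, ← Units.val_mul, mul_inv_cancel, Units.val_one,
        Subring.coe_one, mul_one]
    rw [h1]
    exact mul_mem haV (Subtype.mem _)
  have hV : (⟨a, haV⟩ : ↥S.V) = S.inclO ⟨c / c', hcO⟩ * ((u * w⁻¹ : (↥S.V)ˣ) : ↥S.V) :=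
    Subtype.ext hF
  rw [hV, map_mul, red_inclO, Units.val_mul, map_mul]
  refine mul_mem (IntermediateField.algebraMap_mem _ _) (mul_mem ?_ ?_)
  · rw [hu, red_psi]
    rw [Polynomial.aeval_eq_sum_range]
    exact sum_mem fun i _ => (k⟮S.red ⟨x, hx⟩⟯).smul_mem
      (pow_mem (IntermediateField.mem_adjoin_simple_self k _) i)
  · have hwinv : S.red ((w⁻¹ : (↥S.V)ˣ) : ↥S.V) = (S.red (w : ↥S.V))⁻¹ := by
      apply eq_inv_of_mul_eq_one_left
      rw [← map_mul, ← Units.val_mul, inv_mul_cancel, Units.val_one, map_one]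
    rw [hwinv, hw, red_psi]
    refine inv_mem ?_
    rw [Polynomial.aeval_eq_sum_range]
    exact sum_mem fun i _ => (k⟮S.red ⟨x, hx⟩⟯).smul_mem
      (pow_mem (IntermediateField.mem_adjoin_simple_self k _) i)

end RedSetting

end Fermat.Agent.S27.REDu.H34

end
end
-- ==== END Fermat.Agent.S27.REDu.H34_Gauss

-- ==== BEGIN Fermat.Agent.S27.REDu.H34_Points
section

/-!
# G-RED package IG (helper34): points of the integral closure of `C[x]` over `x = ρ`

`C` algebraically closed, `B` = integral closure of `C[x]` in `F`.  For a maximal ideal `P` of `B`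
containing `x - ρ` we construct the evaluation `evP : B →+* C` (`B/P = C`), and show that an element
lying in all `P ∈ ptsOver x ρ` is nilpotent modulo `x - ρ`.
-/

set_option autoImplicit false

universe uC uCf uK uR uF uL uE uk ukap uFp uFt uFtp uiot uEp uKp ux3b1

noncomputable section

open Polynomial IntermediateField

namespace Fermat.Agent.S27.REDu.H34

variable {C : Type uC} {F : Type uF} [Field C] [Field F] [Algebra C F]

section Points

variable (x : F)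

/-- `C[x]` as a subalgebra. -/
abbrev Rx : Subalgebra C F := Algebra.adjoin C {x}

/-- The integral closure of `C[x]` in `F`. -/
abbrev Bx : Subalgebra ↥(Algebra.adjoin C {x}) F := integralClosure ↥(Algebra.adjoin C {x}) F

/-- The generator `x` of `C[x]`. -/
def genX : ↥(Algebra.adjoin C {x}) := ⟨x, Algebra.self_mem_adjoin_singleton C x⟩

/-- the element `x - ρ` of `C[x]`. -/
def piRho (ρ : C) : ↥(Algebra.adjoin C {x}) :=
  ⟨x - algebraMap C F ρ,
    sub_mem (Algebra.self_mem_adjoin_singleton C x) (Subalgebra.algebraMap_mem _ ρ)⟩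

theorem piRho_eq (ρ : C) : piRho x ρ = genX x - algebraMap C _ ρ := rfl

theorem mem_ptsOver_iff (ρ : C) (P : Ideal ↥(Bx (C := C) x)) :
    P ∈ ptsOver x ρ ↔ P.IsMaximal ∧ algebraMap _ ↥(Bx (C := C) x) (piRho x ρ) ∈ P := by
  constructor
  · rintro ⟨h1, h2⟩
    exact ⟨h1, h2 _ rfl⟩
  · rintro ⟨h1, h2⟩
    refine ⟨h1, fun b hb => ?_⟩
    have : b = algebraMap _ ↥(Bx (C := C) x) (piRho x ρ) := Subtype.ext hb
    rw [this]
    exact h2

variable {x}
variable {ρ : C} {P : Ideal ↥(Bx (C := C) x)}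

/-- Modulo an ideal `P` containing `x - ρ`, every element of `C[x]` is a constant. -/
theorem exists_const_of_mem_Rx (hP : algebraMap _ ↥(Bx (C := C) x) (piRho x ρ) ∈ P)
    (r : ↥(Algebra.adjoin C {x})) :
    ∃ c : C, algebraMap _ ↥(Bx (C := C) x) r - algebraMap C ↥(Bx (C := C) x) c ∈ P := by
  obtain ⟨r, hr⟩ := r
  induction hr using Algebra.adjoin_induction with
  | mem y hy =>
    rw [Set.mem_singleton_iff] at hy
    subst hy
    exact ⟨ρ, hP⟩
  | algebraMap c =>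
    refine ⟨c, ?_⟩
    have : algebraMap ↥(Algebra.adjoin C {x}) ↥(Bx (C := C) x)
        ⟨algebraMap C F c, Subalgebra.algebraMap_mem _ c⟩ = algebraMap C ↥(Bx (C := C) x) c := rfl
    rw [this, sub_self]
    exact P.zero_mem
  | add a b ha hb iha ihb =>
    obtain ⟨ca, hca⟩ := iha
    obtain ⟨cb, hcb⟩ := ihb
    refine ⟨ca + cb, ?_⟩
    have : algebraMap ↥(Algebra.adjoin C {x}) ↥(Bx (C := C) x) ⟨a + b, add_mem ha hb⟩ -
        algebraMap C ↥(Bx (C := C) x) (ca + cb) =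
        (algebraMap ↥(Algebra.adjoin C {x}) ↥(Bx (C := C) x) ⟨a, ha⟩ -
          algebraMap C ↥(Bx (C := C) x) ca) +
        (algebraMap ↥(Algebra.adjoin C {x}) ↥(Bx (C := C) x) ⟨b, hb⟩ -
          algebraMap C ↥(Bx (C := C) x) cb) := by
      rw [map_add, show (⟨a + b, add_mem ha hb⟩ : ↥(Algebra.adjoin C {x})) = ⟨a, ha⟩ + ⟨b, hb⟩
        from rfl, map_add]
      ring
    rw [this]
    exact P.add_mem hca hcb
  | mul a b ha hb iha ihb =>
    obtain ⟨ca, hca⟩ := iha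
    obtain ⟨cb, hcb⟩ := ihb
    refine ⟨ca * cb, ?_⟩
    have : algebraMap ↥(Algebra.adjoin C {x}) ↥(Bx (C := C) x) ⟨a * b, mul_mem ha hb⟩ -
        algebraMap C ↥(Bx (C := C) x) (ca * cb) =
        (algebraMap ↥(Algebra.adjoin C {x}) ↥(Bx (C := C) x) ⟨a, ha⟩ -
          algebraMap C ↥(Bx (C := C) x) ca) *
          algebraMap ↥(Algebra.adjoin C {x}) ↥(Bx (C := C) x) ⟨b, hb⟩ +
        algebraMap C ↥(Bx (C := C) x) ca *
        (algebraMap ↥(Algebra.adjoin C {x}) ↥(Bx (C := C) x) ⟨b, hb⟩ -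
          algebraMap C ↥(Bx (C := C) x) cb) := by
      rw [map_mul, show (⟨a * b, mul_mem ha hb⟩ : ↥(Algebra.adjoin C {x})) = ⟨a, ha⟩ * ⟨b, hb⟩
        from rfl, map_mul]
      ring
    rw [this]
    exact P.add_mem (P.mul_mem_right _ hca) (P.mul_mem_left _ hcb)

/-- `B / Q` is integral over `C` for every ideal `Q` containing `x - ρ`. -/
theorem isIntegral_quot (hP : algebraMap _ ↥(Bx (C := C) x) (piRho x ρ) ∈ P) :
    Algebra.IsIntegral C (↥(Bx (C := C) x) ⧸ P) := by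
  refine ⟨fun y => ?_⟩
  obtain ⟨g, rfl⟩ := Ideal.Quotient.mk_surjective y
  by_cases htop : P = ⊤
  · have : Subsingleton (↥(Bx (C := C) x) ⧸ P) := Ideal.Quotient.subsingleton_iff.2 htop
    exact ⟨Polynomial.X, Polynomial.monic_X, Subsingleton.elim _ _⟩
  have : Nontrivial (↥(Bx (C := C) x) ⧸ P) := Ideal.Quotient.nontrivial_iff.2 htop
  obtain ⟨p, hpm, hp0⟩ := integralClosure.isIntegral g
  set φ : ↥(Algebra.adjoin C {x}) →+* (↥(Bx (C := C) x) ⧸ P) :=
    (Ideal.Quotient.mk P).comp (algebraMap _ ↥(Bx (C := C) x)) with hφ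
  have hl : p.map φ ∈ Polynomial.lifts (algebraMap C (↥(Bx (C := C) x) ⧸ P)) := by
    rw [Polynomial.lifts_iff_coeff_lifts]
    intro n
    obtain ⟨c, hc⟩ := exists_const_of_mem_Rx hP (p.coeff n)
    refine ⟨c, ?_⟩
    rw [Polynomial.coeff_map]
    exact ((Ideal.Quotient.eq).2 hc).symm
  obtain ⟨q, hq, -, hqm⟩ := Polynomial.lifts_and_degree_eq_and_monic hl (hpm.map φ)
  refine ⟨q, hqm, ?_⟩
  rw [← Polynomial.eval_map, hq, Polynomial.eval_map, hφ, ← Polynomial.hom_eval₂, hp0, map_zero]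

/-- A prime of `B` containing `x - ρ` is maximal. -/
theorem isMaximal_of_isPrime (hprime : P.IsPrime)
    (hP : algebraMap _ ↥(Bx (C := C) x) (piRho x ρ) ∈ P) : P.IsMaximal := by
  have := isIntegral_quot hP
  have hf : IsField (↥(Bx (C := C) x) ⧸ P) :=
    isField_of_isIntegral_of_isField' (R := C) (S := ↥(Bx (C := C) x) ⧸ P) (Field.toIsField C)
  exact Ideal.Quotient.maximal_of_isField P hf

/-- An element lying in all points over `ρ` is nilpotent modulo `x - ρ`. -/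
theorem pow_mem_of_forall_mem (w : ↥(Bx (C := C) x)) (hw : ∀ P ∈ ptsOver x ρ, w ∈ P) :
    ∃ e : ℕ, w ^ e ∈ Ideal.span {algebraMap _ ↥(Bx (C := C) x) (piRho x ρ)} := by
  rw [← Ideal.mem_radical_iff, Ideal.radical_eq_sInf, Ideal.mem_sInf]
  rintro J ⟨hJ1, hJ2⟩
  have hmem : algebraMap _ ↥(Bx (C := C) x) (piRho x ρ) ∈ J :=
    hJ1 (Ideal.subset_span (Set.mem_singleton _))
  exact hw J ((mem_ptsOver_iff x ρ J).2 ⟨isMaximal_of_isPrime hJ2 hmem, hmem⟩)

/-- Every element of `B` is congruent to a constant modulo `P` (`C` algebraically closed). -/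
theorem exists_const [IsAlgClosed C] (hP : P ∈ ptsOver x ρ) (f : ↥(Bx (C := C) x)) :
    ∃ c : C, f - algebraMap C ↥(Bx (C := C) x) c ∈ P := by
  have hmax : P.IsMaximal := hP.1
  let _ : Field (↥(Bx (C := C) x) ⧸ P) := Ideal.Quotient.field P
  have hint := isIntegral_quot ((mem_ptsOver_iff x ρ P).1 hP).2
  obtain ⟨c, hc⟩ := (IsAlgClosed.algebraMap_bijective_of_isIntegral
    (k := C) (K := ↥(Bx (C := C) x) ⧸ P)).2 (Ideal.Quotient.mk P f)
  refine ⟨c, ?_⟩
  rw [← Ideal.Quotient.eq]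
  exact hc.symm

theorem const_unique (hP : P ∈ ptsOver x ρ) (f : ↥(Bx (C := C) x)) (c c' : C)
    (hc : f - algebraMap C ↥(Bx (C := C) x) c ∈ P)
    (hc' : f - algebraMap C ↥(Bx (C := C) x) c' ∈ P) : c = c' := by
  by_contra hne
  have h1 : algebraMap C ↥(Bx (C := C) x) (c' - c) ∈ P := by
    have := P.sub_mem hc hc'
    rw [map_sub]
    convert this using 1
    ring
  have h2 : (1 : ↥(Bx (C := C) x)) ∈ P := by
    have := P.mul_mem_left (algebraMap C ↥(Bx (C := C) x) (c' - c)⁻¹) h1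
    rwa [← map_mul, inv_mul_cancel₀ (sub_ne_zero.2 (Ne.symm hne)), map_one] at this
  exact hP.1.ne_top ((Ideal.eq_top_iff_one P).2 h2)

/-- Evaluation at the point `P`. -/
def evP [IsAlgClosed C] (hP : P ∈ ptsOver x ρ) : ↥(Bx (C := C) x) →+* C where
  toFun f := Classical.choose (exists_const hP f)
  map_one' := by
    refine (const_unique hP 1 _ _ ?_ (Classical.choose_spec (exists_const hP 1))).symm
    rw [map_one, sub_self]
    exact P.zero_mem
  map_zero' := by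
    refine (const_unique hP 0 _ _ ?_ (Classical.choose_spec (exists_const hP 0))).symm
    rw [map_zero, sub_self]
    exact P.zero_mem
  map_add' f g := by
    refine (const_unique hP (f + g) _ _ ?_ (Classical.choose_spec (exists_const hP (f + g)))).symm
    have h1 := Classical.choose_spec (exists_const hP f)
    have h2 := Classical.choose_spec (exists_const hP g)
    have := P.add_mem h1 h2
    rw [map_add]
    convert this using 1
    ring
  map_mul' f g := by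
    refine (const_unique hP (f * g) _ _ ?_ (Classical.choose_spec (exists_const hP (f * g)))).symm
    have h1 := Classical.choose_spec (exists_const hP f)
    have h2 := Classical.choose_spec (exists_const hP g)
    have := P.add_mem (P.mul_mem_right g h1)
      (P.mul_mem_left (algebraMap C ↥(Bx (C := C) x) (Classical.choose (exists_const hP f))) h2)
    rw [map_mul]
    convert this using 1
    ring

theorem sub_evP_mem [IsAlgClosed C] (hP : P ∈ ptsOver x ρ) (f : ↥(Bx (C := C) x)) :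
    f - algebraMap C ↥(Bx (C := C) x) (evP hP f) ∈ P :=
  Classical.choose_spec (exists_const hP f)

theorem evP_eq_of_mem [IsAlgClosed C] (hP : P ∈ ptsOver x ρ) (f : ↥(Bx (C := C) x)) (c : C)
    (hc : f - algebraMap C ↥(Bx (C := C) x) c ∈ P) : evP hP f = c :=
  const_unique hP f _ _ (sub_evP_mem hP f) hc

theorem evP_algebraMap [IsAlgClosed C] (hP : P ∈ ptsOver x ρ) (c : C) :
    evP hP (algebraMap C ↥(Bx (C := C) x) c) = c := by
  refine evP_eq_of_mem hP _ c ?_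
  rw [sub_self]
  exact P.zero_mem

theorem evP_genX [IsAlgClosed C] (hP : P ∈ ptsOver x ρ) :
    evP hP (algebraMap ↥(Algebra.adjoin C {x}) ↥(Bx (C := C) x) (genX x)) = ρ :=
  evP_eq_of_mem hP _ ρ ((mem_ptsOver_iff x ρ P).1 hP).2

theorem evP_eq_zero_iff [IsAlgClosed C] (hP : P ∈ ptsOver x ρ) (f : ↥(Bx (C := C) x)) :
    evP hP f = 0 ↔ f ∈ P := by
  constructor
  · intro h
    have := sub_evP_mem hP f
    rwa [h, map_zero, sub_zero] at this
  · intro h
    refine evP_eq_of_mem hP f 0 ?_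
    rwa [map_zero, sub_zero]

end Points

end Fermat.Agent.S27.REDu.H34

end
end
-- ==== END Fermat.Agent.S27.REDu.H34_Points

-- ==== BEGIN Fermat.Agent.S59.NonMin.H92_PeuUnit
section

/-!
# S59, case C, leaf PEUFLAT (helper92): Hilbert 90 over the inertia group with unit solutions

`peuUnit_of_kcore : Stmt_KCore → Stmt_PeuUnit`.  Hilbert 90 for the inertia group `I` of `P`
(`Lib.LocalKummer.exists_hilbert90` with `G := I`) gives `γ ≠ 0` with `σ γ = z σ * γ` for `σ ∈ I`;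
then `γ ^ p ^ n` is fixed by `I` and `γ` is fixed by the peu ramifié inertia, so K-CORE makes
`γ` a `P`-unit after division by an element of the inertia field.
-/

set_option autoImplicit false
set_option linter.unusedSectionVars false
set_option linter.style.haveILetI false
set_option linter.unusedVariables false

namespace Fermat.Agent.S59.NonMin.H92P

open Fermat.Agent.S59.NonMin

local notation "Qbar" => AlgebraicClosure ℚ
local notation "Γℚ" => (AlgebraicClosure ℚ ≃ₐ[ℚ] AlgebraicClosure ℚ)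

/-- **Hilbert 90 over the inertia group.** -/
theorem exists_hilbert90_inertia (P : ValuationSubring Qbar) (z : Γℚ → Qbar)
    (hz0 : ∀ σ ∈ P.inertiaSubgroupIn ℚ, z σ ≠ 0)
    (hzc : ∀ σ ∈ P.inertiaSubgroupIn ℚ, ∀ τ ∈ P.inertiaSubgroupIn ℚ,
      z (σ * τ) = z σ * σ (z τ))
    (L : IntermediateField ℚ Qbar) [FiniteDimensional ℚ L]
    (hzL : ∀ σ ∈ P.inertiaSubgroupIn ℚ, σ ∈ L.fixingSubgroup → z σ = 1) :
    ∃ γ : Qbar, γ ≠ 0 ∧ ∀ σ ∈ P.inertiaSubgroupIn ℚ, σ γ = z σ * γ := by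
  classical
  haveI hfin : Finite (Γℚ ⧸ L.fixingSubgroup) :=
    Fermat.Agent.S15.Desc.H97.finite_quot_fixingSubgroup L
  haveI : L.fixingSubgroup.FiniteIndex := Subgroup.finiteIndex_of_finite_quotient
  haveI : (L.fixingSubgroup.subgroupOf (P.inertiaSubgroupIn ℚ)).FiniteIndex := inferInstance
  haveI : Finite (↥(P.inertiaSubgroupIn ℚ) ⧸
      L.fixingSubgroup.subgroupOf (P.inertiaSubgroupIn ℚ)) :=
    Subgroup.finite_quotient_of_finiteIndex
  obtain ⟨γ, hγ0, hγ⟩ := Fermat.Agent.Lib.LocalKummer.exists_hilbert90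
    (G := ↥(P.inertiaSubgroupIn ℚ)) (Ω := Qbar) (F := ↥L)
    (fun g => z g.1) (fun g h => hzc g.1 g.2 h.1 h.2) (fun g => hz0 g.1 g.2)
    (L.fixingSubgroup.subgroupOf (P.inertiaSubgroupIn ℚ))
    (fun u hu => hzL u.1 u.2 (Subgroup.mem_subgroupOf.mp hu))
    ((L.val : L →ₐ[ℚ] Qbar) : L →* Qbar)
    (fun g hg => by
      rw [Subgroup.mem_subgroupOf, IntermediateField.mem_fixingSubgroup_iff]
      intro x hx
      exact hg ⟨x, hx⟩)
    (fun u hu x => by
      have h1 := Subgroup.mem_subgroupOf.mp hu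
      rw [IntermediateField.mem_fixingSubgroup_iff] at h1
      exact h1 x x.2)
  exact ⟨γ, hγ0, fun σ hσ => hγ ⟨σ, hσ⟩⟩

/-- **PEU-UNIT** from **K-CORE**. -/
theorem peuUnit_of_kcore (hK : Stmt_KCore) : Stmt_PeuUnit := by
  intro p hp hp2 P hP n z hzn hzc hL hzpeu
  obtain ⟨L, hLfin, hzL⟩ := hL
  haveI := hLfin
  have hz0 : ∀ σ ∈ P.inertiaSubgroupIn ℚ, z σ ≠ 0 := by
    intro σ hσ h0
    have h1 := hzn σ hσ
    rw [h0, zero_pow (pow_ne_zero n hp.ne_zero)] at h1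
    exact zero_ne_one h1
  obtain ⟨γ, hγ0, hγ⟩ := exists_hilbert90_inertia P z hz0 hzc L hzL
  obtain ⟨b, hb0, hbI, h1, h2⟩ := hK p hp hp2 P hP γ n hγ0
    (fun s hs => by rw [map_pow, hγ s hs, mul_pow, hzn s hs, one_mul])
    (fun σ hσ => by rw [hγ σ hσ.1, hzpeu σ hσ, one_mul])
  refine ⟨γ / b, div_ne_zero hγ0 hb0, h1, ?_, fun σ hσ => ?_⟩
  · rw [inv_div]
    exact h2
  · rw [map_div₀, hγ σ hσ, hbI σ hσ, mul_div_assoc]

end Fermat.Agent.S59.NonMin.H92P

end
-- ==== END Fermat.Agent.S59.NonMin.H92_PeuUnit
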