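-- GENERATED (merged mirror, NOTES/tools/trim/merge3_helper67.py): 23 modules of the originals, bodies verbatim.
import Mathlib
import Fermat.Prelude.Def_AlgebraicCurve_DivisorClassGroup
import Fermat.Prelude.Def_AlgebraicCurve_Repartitions
import Fermat.Statements.S29
import Fermat.Prelude.Def_WeierstrassCurve_PeuRamifiee
import Fermat.Prelude.Def_FLTPrelim_ModularRep
import Fermat.Agent.Zm.S35_L21_000
import Fermat.Agent.Zm.S36_L02_002
import Fermat.Agent.Zm.S44_L01_004
import Fermat.Agent.Zm.S43_L05_002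
import Fermat.Agent.Zm.S43_L02_003
import Fermat.Agent.Zm.S43_L01_001
import Fermat.Agent.Zm.S43_L02_002
import Fermat.Agent.S38.Complete.Defs
import Fermat.Agent.Zm.S44_L01_002
import Fermat.Agent.S05.H14_VarChange
import Fermat.Agent.Zm.S44_L02_004
import Fermat.Agent.Zm.S56_L02_000
import Fermat.Agent.Zm.S44_L09_001
import Fermat.Agent.Zm.S44_L04_001
import Fermat.Agent.Zm.S44_L03_003
import Fermat.Agent.Zm.S43_L14_002
import Fermat.Agent.Zm.S43_L14_003

-- ==== BEGIN Fermat.Agent.S27.REDu.H12_Zero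
section

set_option autoImplicit false

universe uC uCf uK uR uF uL uE uk ukap uFp uFt uFtp uiot uEp uKp ux3b1

namespace Fermat.Agent.S27.REDu.H12

open Polynomial IntermediateField AlgebraicCurve

variable {K F : Type*} [Field K] [Field F] [Algebra K F]

section Val

variable (B : ValuationSubring F)

lemma val_algebraMap (hK : ∀ a : K, algebraMap K F a ∈ B) {a : K} (ha : a ≠ 0) :
    B.valuation (algebraMap K F a) = 1 := by
  have h1 : B.valuation (algebraMap K F a) ≤ 1 := (B.valuation_le_one_iff _).mpr (hK a)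
  have h2 : B.valuation (algebraMap K F a⁻¹) ≤ 1 := (B.valuation_le_one_iff _).mpr (hK a⁻¹)
  have h3 : B.valuation (algebraMap K F a) * B.valuation (algebraMap K F a⁻¹) = 1 := by
    rw [← map_mul, ← map_mul, mul_inv_cancel₀ ha, map_one, map_one]
  by_contra hne
  have hlt : B.valuation (algebraMap K F a) < 1 := lt_of_le_of_ne h1 hne
  have : B.valuation (algebraMap K F a) * B.valuation (algebraMap K F a⁻¹) < 1 :=
    mul_lt_one_of_lt_of_le hlt h2
  rw [h3] at this
  exact lt_irrefl _ this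

lemma aeval_mem (hK : ∀ a : K, algebraMap K F a ∈ B) {t : F} (ht : t ∈ B) (p : K[X]) :
    aeval t p ∈ B := by
  induction p using Polynomial.induction_on' with
  | add p q hp hq => rw [map_add]; exact B.add_mem _ _ hp hq
  | monomial n a =>
    rw [aeval_monomial]
    exact B.mul_mem _ _ (hK a) (B.pow_mem ht n)

lemma val_aeval_eq_one (hK : ∀ a : K, algebraMap K F a ∈ B) {t : F} (ht : B.valuation t < 1)
    (q : K[X]) (hq : q.coeff 0 ≠ 0) : B.valuation (aeval t q) = 1 := by
  have htB : t ∈ B := (B.valuation_le_one_iff _).mp ht.le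
  have e : aeval t q = aeval t q.divX * t + algebraMap K F (q.coeff 0) := by
    conv_lhs => rw [← Polynomial.divX_mul_X_add q]
    simp
  rw [e]
  have h1 : B.valuation (aeval t q.divX * t) < 1 := by
    rw [map_mul]
    calc B.valuation (aeval t q.divX) * B.valuation t
        ≤ 1 * B.valuation t :=
          mul_le_mul_left ((B.valuation_le_one_iff _).mpr (aeval_mem B hK htB _)) _
      _ = B.valuation t := one_mul _
      _ < 1 := ht
  have h2 := val_algebraMap B hK hq
  rw [← h2] at h1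
  rw [Valuation.map_add_eq_of_lt_right _ h1, h2]

lemma val_aeval (hK : ∀ a : K, algebraMap K F a ∈ B) {t : F} (ht : B.valuation t < 1)
    (p : K[X]) (hp : p ≠ 0) :
    B.valuation (aeval t p) = B.valuation t ^ (p.rootMultiplicity 0) := by
  obtain ⟨q, hpq, hq⟩ := Polynomial.exists_eq_pow_rootMultiplicity_mul_and_not_dvd p hp 0
  rw [map_zero, sub_zero] at hpq hq
  have hq0 : q.coeff 0 ≠ 0 := fun h => hq (Polynomial.X_dvd_iff.mpr h)
  conv_lhs => rw [hpq]
  rw [map_mul, map_pow, aeval_X, map_mul, map_pow, val_aeval_eq_one B hK ht q hq0, mul_one]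

end Val

/-- A finite sum of terms with pairwise distinct valuations (among the nonzero ones), not all
zero, is nonzero. -/
lemma sum_ne_zero_of_val_injOn {Γ : Type*} [LinearOrderedCommGroupWithZero Γ]
    (v : Valuation F Γ) {ι : Type*} (s : Finset ι) (f : ι → F)
    (hne : ∃ i ∈ s, f i ≠ 0)
    (hinj : ∀ i ∈ s, ∀ j ∈ s, f i ≠ 0 → f j ≠ 0 → v (f i) = v (f j) → i = j) :
    ∑ i ∈ s, f i ≠ 0 := by
  classical
  obtain ⟨i₀, hi₀, hfi₀⟩ := hne
  obtain ⟨j, hj, hmax⟩ := Finset.exists_max_image s (fun i => v (f i)) ⟨i₀, hi₀⟩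
  have hfj : f j ≠ 0 := by
    intro h
    have := hmax i₀ hi₀
    rw [h, map_zero] at this
    exact hfi₀ ((Valuation.zero_iff v).mp (le_antisymm this zero_le))
  have hvj : v (f j) ≠ 0 := (Valuation.ne_zero_iff v).mpr hfj
  have hlt : ∀ i ∈ s.erase j, v (f i) < v (f j) := by
    intro i hi
    have hij : i ≠ j := Finset.ne_of_mem_erase hi
    have his : i ∈ s := Finset.mem_of_mem_erase hi
    by_cases hfi : f i = 0
    · rw [hfi, map_zero]; exact zero_lt_iff.mpr hvj
    · exact lt_of_le_of_ne (hmax i his) (fun h => hij (hinj i his j hj hfi hfj h))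
  have hsum : v (∑ i ∈ s.erase j, f i) < v (f j) := Valuation.map_sum_lt v hvj hlt
  rw [← Finset.add_sum_erase s f hj]
  intro h0
  have := Valuation.map_add_eq_of_lt_left v hsum
  rw [h0, map_zero] at this
  exact hvj this.symm


section Order

variable {Γ : Type*} [LinearOrderedCommGroupWithZero Γ]

lemma pow_lt_one_of_lt {a : Γ} (ha : a < 1) {n : ℕ} (hn : n ≠ 0) : a ^ n < 1 :=
  pow_lt_one₀ zero_le ha hn

lemma pow_mul_lt_aux {a b c : Γ} (ha0 : a ≠ 0) (ha : a < 1) (hb : a ≤ b) (hc : c < 1)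
    {k l : ℕ} (hkl : k < l) : a ^ k * b ≠ a ^ l * c := by
  intro h
  obtain ⟨d, rfl⟩ := Nat.exists_eq_add_of_lt hkl
  have h1 : a ^ (k + d + 1) = a ^ k * (a ^ d * a) := by
    rw [pow_succ, pow_add, mul_assoc]
  rw [h1, mul_assoc] at h
  have h2 : b = a ^ d * a * c := mul_left_cancel₀ (pow_ne_zero k ha0) h
  have h3 : a ^ d ≤ 1 := pow_le_one₀ zero_le ha.le
  have h4 : a ^ d * a * c ≤ a * c := by
    calc a ^ d * a * c = a ^ d * (a * c) := mul_assoc _ _ _
      _ ≤ 1 * (a * c) := mul_le_mul_left h3 _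
      _ = a * c := one_mul _
  have h5 : a * c < a := by
    calc a * c < a * 1 := by
          rcases eq_or_ne c 0 with rfl | hc0
          · rw [mul_zero, mul_one]; exact zero_lt_iff.mpr ha0
          · exact mul_lt_mul_of_pos_left hc (zero_lt_iff.mpr ha0)
      _ = a := mul_one a
  have : b < a := h2 ▸ lt_of_le_of_lt h4 h5
  exact absurd hb (not_le.mpr this)

lemma pow_mul_inj {a b c : Γ} (ha0 : a ≠ 0) (ha : a < 1) (hb : a ≤ b) (hb1 : b < 1)
    (hc : a ≤ c) (hc1 : c < 1) {k l : ℕ} (h : a ^ k * b = a ^ l * c) : b = c := by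
  rcases lt_trichotomy k l with hkl | hkl | hkl
  · exact absurd h (pow_mul_lt_aux ha0 ha hb hc1 hkl)
  · subst hkl
    exact mul_left_cancel₀ (pow_ne_zero k ha0) h
  · exact absurd h.symm (pow_mul_lt_aux ha0 ha hc hb1 hkl)

end Order

section LinIndep

open scoped IntermediateField.algebraAdjoinAdjoin

variable (B : ValuationSubring F)

lemma exists_val_eq_pow (hK : ∀ a : K, algebraMap K F a ∈ B) {t : F} (ht : B.valuation t < 1)
    (g : Algebra.adjoin K {t}) (hg : g ≠ 0) :
    ∃ k : ℕ, B.valuation (g : F) = B.valuation t ^ k := by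
  have hmem : (g : F) ∈ (aeval (R := K) t).range := by
    rw [← Algebra.adjoin_singleton_eq_range_aeval]; exact g.2
  obtain ⟨p, hp⟩ := hmem
  have hp0 : p ≠ 0 := by
    rintro rfl
    apply hg
    apply Subtype.ext
    rw [← hp]; simp
  exact ⟨p.rootMultiplicity 0, by rw [← hp]; exact val_aeval B hK ht p hp0⟩

lemma linearIndependent_of_val (hK : ∀ a : K, algebraMap K F a ∈ B) {t : F} (ht0 : t ≠ 0)
    (ht : B.valuation t < 1) {ι : Type*} (y : ι → F)
    (hy1 : ∀ i, B.valuation t ≤ B.valuation (y i)) (hy2 : ∀ i, B.valuation (y i) < 1)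
    (hinj : Function.Injective (fun i => B.valuation (y i))) :
    LinearIndependent K⟮t⟯ y := by
  rw [← LinearIndependent.iff_fractionRing (Algebra.adjoin K {t}) K⟮t⟯]
  rw [linearIndependent_iff']
  intro s g hsum i hi
  by_contra hgi
  have hvt0 : B.valuation t ≠ 0 := (Valuation.ne_zero_iff _).mpr ht0
  have hy0 : ∀ j, y j ≠ 0 := fun j h => by
    have := hy1 j
    rw [h, map_zero] at this
    exact hvt0 (le_antisymm this zero_le)
  have hsmul : ∀ j, g j • y j = (g j : F) * y j := fun j => rfl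
  have hne0 : ∀ j, g j • y j ≠ 0 ↔ g j ≠ 0 := by
    intro j
    rw [hsmul]
    constructor
    · intro h h0
      apply h
      rw [h0]; simp
    · intro h
      refine mul_ne_zero ?_ (hy0 j)
      exact fun h0 => h (Subtype.ext h0)
  refine sum_ne_zero_of_val_injOn B.valuation s (fun j => g j • y j)
    ⟨i, hi, (hne0 i).mpr hgi⟩ ?_ hsum
  intro j _ l _ hj hl hjl
  obtain ⟨k, hk⟩ := exists_val_eq_pow B hK ht (g j) ((hne0 j).mp hj)
  obtain ⟨m, hm⟩ := exists_val_eq_pow B hK ht (g l) ((hne0 l).mp hl)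
  simp only [hsmul, map_mul, hk, hm] at hjl
  exact hinj (pow_mul_inj hvt0 ht (hy1 j) (hy2 j) (hy1 l) (hy2 l) hjl)

end LinIndep


section Finite

variable (B : ValuationSubring F)

/-- The values in `[v t, 1)`. -/
def valSet (t : F) : Set B.ValueGroup :=
  {γ | ∃ y : F, B.valuation y = γ ∧ B.valuation t ≤ γ ∧ γ < 1}

lemma valSet_finite (hK : ∀ a : K, algebraMap K F a ∈ B) {t : F} (ht0 : t ≠ 0)
    (ht : B.valuation t < 1) [FiniteDimensional K⟮t⟯ F] : (valSet B t).Finite := by
  classical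
  by_contra hinf
  have hinf' : (valSet B t).Infinite := hinf
  obtain ⟨T, hT, hcard⟩ := hinf'.exists_subset_card_eq (Module.finrank K⟮t⟯ F + 1)
  have hch : ∀ γ : T, ∃ y : F, B.valuation y = γ ∧ B.valuation t ≤ γ ∧ (γ : B.ValueGroup) < 1 :=
    fun γ => hT γ.2
  choose y hy using hch
  have hli : LinearIndependent K⟮t⟯ y := by
    apply linearIndependent_of_val B hK ht0 ht y
    · intro i; rw [(hy i).1]; exact (hy i).2.1
    · intro i; rw [(hy i).1]; exact (hy i).2.2
    · intro i j hij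
      simp only [(hy i).1, (hy j).1] at hij
      exact Subtype.ext hij
  have := hli.fintype_card_le_finrank
  rw [Fintype.card_coe, hcard] at this
  omega

end Finite


section DVR

variable (B : ValuationSubring F)

/-- Nonzero nonunits of a valuation ring containing the algebraically closed field `K` are
transcendental over `K`. -/
lemma transcendental_of_val_lt_one [IsAlgClosed K] (hK : ∀ a : K, algebraMap K F a ∈ B)
    {y : F} (hy0 : y ≠ 0) (hy : B.valuation y < 1) : Transcendental K y := by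
  intro halg
  have hint : IsIntegral K y := halg.isIntegral
  have hdeg : (minpoly K y).degree = 1 :=
    IsAlgClosed.degree_eq_one_of_irreducible K (minpoly.irreducible hint)
  obtain ⟨a, ha⟩ := minpoly.mem_range_of_degree_eq_one K y hdeg
  have ha0 : a ≠ 0 := by
    rintro rfl
    exact hy0 (by rw [← ha, map_zero])
  have := val_algebraMap B hK ha0
  rw [ha] at this
  exact absurd this (ne_of_lt hy)

theorem exists_generator [IsAlgClosed K] (hK : ∀ a : K, algebraMap K F a ∈ B)
    (hfin : ∀ y : F, Transcendental K y → FiniteDimensional K⟮y⟯ F)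
    {x : F} (hx0 : x ≠ 0) (hx : B.valuation x < 1) :
    ∃ π : F, B.valuation π < 1 ∧ π ≠ 0 ∧
      (∀ y, B.valuation y < 1 → B.valuation y ≤ B.valuation π) ∧
      ∀ y, y ≠ 0 → B.valuation y ≤ 1 → ∃ n : ℕ, B.valuation y = B.valuation π ^ n := by
  have := hfin x (transcendental_of_val_lt_one B hK hx0 hx)
  have hV := valSet_finite B hK hx0 hx
  have hne : (valSet B x).Nonempty := ⟨B.valuation x, x, rfl, le_rfl, hx⟩
  obtain ⟨γ, hγmem, hγmax⟩ := Set.exists_max_image (valSet B x) id hV hne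
  obtain ⟨π, hπv, hπ1, hπ2⟩ := hγmem
  have hvx0 : B.valuation x ≠ 0 := (Valuation.ne_zero_iff _).mpr hx0
  have hγ0 : γ ≠ 0 := fun h => hvx0 (le_antisymm (h ▸ hπ1) zero_le)
  have hπ0 : π ≠ 0 := (Valuation.ne_zero_iff _).mp (hπv ▸ hγ0)
  have hγpos : 0 < γ := zero_lt_iff.mpr hγ0
  have E1 : ∀ y, B.valuation y < 1 → B.valuation y ≤ γ := by
    intro y hy
    by_contra h
    rw [not_le] at h
    have hm : B.valuation y ∈ valSet B x := ⟨y, rfl, le_trans hπ1 h.le, hy⟩
    exact absurd (hγmax _ hm) (not_le.mpr h)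
  refine ⟨π, hπv ▸ hπ2, hπ0, fun y hy => hπv ▸ E1 y hy, ?_⟩
  intro y hy0 hy1
  rw [hπv]
  rcases eq_or_lt_of_le hy1 with h1 | hlt
  · exact ⟨0, by rw [h1, pow_zero]⟩
  have := hfin y (transcendental_of_val_lt_one B hK hy0 hlt)
  have hVy := valSet_finite B hK hy0 hlt
  have hex : ∃ n : ℕ, γ ^ n ≤ B.valuation y := by
    by_contra hno
    push Not at hno
    have hinj : Function.Injective (fun n : ℕ => γ ^ (n + 1)) := by
      intro a b hab
      have := (pow_right_strictAnti₀ hγpos hπ2).injective hab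
      omega
    have hmem : ∀ n : ℕ, (fun n : ℕ => γ ^ (n + 1)) n ∈ valSet B y := by
      intro n
      refine ⟨π ^ (n + 1), by rw [map_pow, hπv], (hno (n + 1)).le, ?_⟩
      exact pow_lt_one₀ zero_le hπ2 (Nat.succ_ne_zero n)
    exact (Set.infinite_of_injective_forall_mem hinj hmem) hVy
  classical
  have hspec := Nat.find_spec hex
  have hmin := fun m (hm : m < Nat.find hex) => Nat.find_min hex hm
  rcases hn : Nat.find hex with _ | m
  · rw [hn, pow_zero] at hspec
    exact absurd hlt (not_lt.mpr hspec)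
  · rw [hn] at hspec
    have hm : ¬ γ ^ m ≤ B.valuation y := hmin m (by rw [hn]; exact Nat.lt_succ_self m)
    rw [not_le] at hm
    have hγm : 0 < γ ^ m := pow_pos hγpos m
    have hz : B.valuation (y / π ^ m) < 1 := by
      rw [map_div₀, map_pow, hπv]
      exact (div_lt_one₀ hγm).mpr hm
    have hz2 := E1 _ hz
    rw [map_div₀, map_pow, hπv, div_le_iff₀ hγm] at hz2
    refine ⟨m + 1, le_antisymm ?_ hspec⟩
    rw [pow_succ, mul_comm]
    exact hz2

theorem hasUnitMulPowIrreducibleFactorization [IsAlgClosed K]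
    (hK : ∀ a : K, algebraMap K F a ∈ B)
    (hfin : ∀ y : F, Transcendental K y → FiniteDimensional K⟮y⟯ F)
    {x : F} (hx0 : x ≠ 0) (hx : B.valuation x < 1) :
    IsDiscreteValuationRing.HasUnitMulPowIrreducibleFactorization B := by
  obtain ⟨π, hπ1, hπ0, hmax, hpow⟩ := exists_generator B hK hfin hx0 hx
  have hπB : π ∈ B := (B.valuation_le_one_iff π).mp hπ1.le
  have hγpos : 0 < B.valuation π := zero_lt_iff.mpr ((Valuation.ne_zero_iff _).mpr hπ0)
  refine ⟨⟨π, hπB⟩, ?_, ?_⟩
  · rw [irreducible_iff]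
    refine ⟨fun hu => ?_, fun a b hab => ?_⟩
    · have := (B.valuation_eq_one_iff ⟨π, hπB⟩).mp hu
      exact absurd this (ne_of_lt hπ1)
    · by_contra hno
      push Not at hno
      have ha : B.valuation (a : F) < 1 :=
        (B.valuation_lt_one_or_eq_one a).resolve_right
          (fun h => hno.1 ((B.valuation_eq_one_iff a).mpr h))
      have hb : B.valuation (b : F) < 1 :=
        (B.valuation_lt_one_or_eq_one b).resolve_right
          (fun h => hno.2 ((B.valuation_eq_one_iff b).mpr h))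
      have hπab : π = (a : F) * (b : F) := congrArg Subtype.val hab
      have h1 : B.valuation π ≤ B.valuation π * B.valuation π := by
        conv_lhs => rw [hπab, map_mul]
        exact mul_le_mul' (hmax _ ha) (hmax _ hb)
      have h2 : B.valuation π * B.valuation π < B.valuation π := by
        calc B.valuation π * B.valuation π < B.valuation π * 1 :=
              mul_lt_mul_of_pos_left hπ1 hγpos
          _ = B.valuation π := mul_one _
      exact absurd h1 (not_le.mpr h2)
  · intro y hy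
    have hyF : (y : F) ≠ 0 := fun h => hy (Subtype.ext h)
    obtain ⟨n, hn⟩ := hpow (y : F) hyF (B.valuation_le_one y)
    refine ⟨n, associated_of_dvd_dvd ?_ ?_⟩
    · have h1 : B.valuation (y : F) ≤ B.valuation (π ^ n) := by rw [map_pow, hn]
      obtain ⟨a, ha⟩ := (B.valuation_le_iff _ _).mp h1
      exact ⟨a, Subtype.ext (by rw [mul_comm]; exact ha.symm)⟩
    · have h1 : B.valuation (π ^ n) ≤ B.valuation (y : F) := by rw [map_pow, hn]
      obtain ⟨a, ha⟩ := (B.valuation_le_iff _ _).mp h1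
      exact ⟨a, Subtype.ext (by rw [mul_comm]; exact ha.symm)⟩

end DVR


section Exists

/-- A valuation subring of `F` containing `K` in which the transcendental element `x` is a
nonunit. -/
theorem exists_valuationSubring (x : F) (hx : Transcendental K x) :
    ∃ B : ValuationSubring F, (∀ a : K, algebraMap K F a ∈ B) ∧ B.valuation x < 1 := by
  let A : Subring F := (Algebra.adjoin K {x}).toSubring
  have hxA : x ∈ A := Algebra.self_mem_adjoin_singleton K x
  have hI : Ideal.span {(⟨x, hxA⟩ : A)} ≠ ⊤ := by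
    intro htop
    rw [Ideal.span_singleton_eq_top] at htop
    obtain ⟨g, hg⟩ := htop.exists_right_inv
    have hgm : (g : F) ∈ (aeval (R := K) x).range := by
      rw [← Algebra.adjoin_singleton_eq_range_aeval]; exact g.2
    obtain ⟨p, hp⟩ := hgm
    have h1 : x * (g : F) = 1 := congrArg Subtype.val hg
    have hp' : aeval x p = (g : F) := hp
    have h2 : aeval x (X * p - 1 : K[X]) = 0 := by
      rw [map_sub, map_mul, aeval_X, hp', h1, map_one, sub_self]
    have h3 := (transcendental_iff.mp hx) _ h2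
    have h4 := congrArg (fun q : K[X] => q.coeff 0) h3
    simp at h4
  obtain ⟨B, hAB, hIB⟩ := Ideal.image_subset_nonunits_valuationSubring _ hI
  refine ⟨B, fun a => hAB (Subalgebra.algebraMap_mem (Algebra.adjoin K {x}) a), ?_⟩
  rw [← ValuationSubring.mem_nonunits_iff]
  exact hIB ⟨⟨x, hxA⟩, Ideal.subset_span rfl, rfl⟩

theorem ord_pos_of_val_lt_one (v : Place K F) {f : F} (hf : f ≠ 0)
    (h : v.toValuationSubring.valuation f < 1) : 0 < v.ord f := by
  have hfB : f ∈ v.toValuationSubring := (v.toValuationSubring.valuation_le_one_iff f).mp h.le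
  have hm : (⟨f, hfB⟩ : v.toValuationSubring) ∈ IsLocalRing.maximalIdeal v.toValuationSubring :=
    (v.toValuationSubring.valuation_lt_one_iff ⟨f, hfB⟩).mpr h
  have h1 : v.adicValuation f < 1 := by
    have := v.adicValuation_coe ⟨f, hfB⟩
    rw [show ((⟨f, hfB⟩ : v.toValuationSubring) : F) = f from rfl] at this
    rw [this]
    exact (IsDedekindDomain.HeightOneSpectrum.intValuation_lt_one_iff_mem _ _).mpr hm
  have h2 : WithZero.log (v.adicValuation f) < 0 := by
    rw [← WithZero.log_one]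
    exact (WithZero.log_lt_log (v.adicValuation_ne_zero hf) one_ne_zero).mpr h1
  simp only [Place.ord]
  omega

/-- **Existence of zeros** (Stichtenoth 1.1.6 + 1.1.19): in a function field over an
algebraically closed field, every transcendental element has a zero. -/
theorem exists_place_ord_pos [IsAlgClosed K]
    (hfin : ∀ y : F, Transcendental K y → FiniteDimensional K⟮y⟯ F)
    (x : F) (hx : Transcendental K x) : ∃ v : Place K F, 0 < v.ord x := by
  obtain ⟨B, hK, hxv⟩ := exists_valuationSubring x hx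
  have hx0 : x ≠ 0 := fun h => hx (h ▸ isAlgebraic_zero)
  have hfact := hasUnitMulPowIrreducibleFactorization B hK hfin hx0 hxv
  have hdvr : IsDiscreteValuationRing B :=
    IsDiscreteValuationRing.ofHasUnitMulPowIrreducibleFactorization hfact
  have hne : B ≠ ⊤ := by
    rintro rfl
    have h1 : (⊤ : ValuationSubring F).valuation x⁻¹ ≤ 1 :=
      (ValuationSubring.valuation_le_one_iff _ _).mpr (ValuationSubring.mem_top _)
    rw [map_inv₀] at h1
    have h2 : 1 < ((⊤ : ValuationSubring F).valuation x)⁻¹ :=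
      (one_lt_inv₀ (zero_lt_iff.mpr ((Valuation.ne_zero_iff _).mpr hx0))).mpr hxv
    exact absurd h1 (not_le.mpr h2)
  let v : Place K F := ⟨B, hK, hne, inferInstance⟩
  exact ⟨v, ord_pos_of_val_lt_one v hx0 hxv⟩

end Exists

end Fermat.Agent.S27.REDu.H12

end
-- ==== END Fermat.Agent.S27.REDu.H12_Zero

-- ==== BEGIN Fermat.Agent.S27.REDu.H34_IGCore
section

/-!
# IG-core (helper34): a discriminant criterion for an order to be the full integral closure

Pure commutative algebra, no modular input.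

* `H34.pow_card_dvd_det_of_cols` : if the columns `j ∈ J` of a square matrix are divisible by `π`,
  then `π ^ #J ∣ det`.
* `H34.pow_dvd_det_of_subspace` : if the reduction of `M` modulo a prime `π` kills a subspace of
  dimension `≥ s`, then `π ^ s ∣ det M`.
* `H34.dvd_trace_of_pow_mem` : trace of an element nilpotent mod `π` is divisible by `π`.
* `H34.pow_dvd_discr_of_linearMap` : `π ^ (n - r) ∣ disc` if `B/rad(πB)` has dimension `≤ r`.
* `H34.span_eq_of_discr_bound` : the criterion (IG-core).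
* `H34.span_eq_of_discr_bound_order` : the criterion with functionals on the order only.
-/

universe uC uCf uK uR uF uL uE uk ukap uFp uFt uFtp uiot uEp uKp ux3b1

namespace Fermat.Agent.S27.REDu.H34

open Matrix Module

section MatrixLemmas

variable {R : Type*} [CommRing R] {ι : Type*} [Fintype ι] [DecidableEq ι]

/-- If all columns `j ∈ J` of `A` are divisible by `π`, then `π ^ #J ∣ det A`. -/
theorem pow_card_dvd_det_of_cols (π : R) (A : Matrix ι ι R) (J : Finset ι)
    (h : ∀ i, ∀ j ∈ J, π ∣ A i j) : π ^ J.card ∣ A.det := by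
  classical
  choose! q hq using h
  let A' : Matrix ι ι R := Matrix.of fun i j => if j ∈ J then q i j else A i j
  let v : ι → R := fun j => if j ∈ J then π else 1
  have hA : A = Matrix.of fun i j => v j * A' i j := by
    ext i j
    by_cases hj : j ∈ J
    · simp [v, A', hj, hq i j hj]
    · simp [v, A', hj]
  have hv : ∏ j, v j = π ^ J.card := by
    simp only [v]
    rw [Finset.prod_ite, Finset.prod_const, Finset.prod_const_one, mul_one]
    congr 1
    congr 1
    ext j
    simp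
  rw [hA, Matrix.det_mul_row, hv]
  exact Dvd.intro _ rfl

end MatrixLemmas

section MatrixLemmas2

variable {R : Type*} [CommRing R] [IsDomain R] {ι : Type*} [Fintype ι] [DecidableEq ι]

/-- If the reduction of `M` modulo the prime `π` kills a subspace `N` of dimension `≥ s`,
then `π ^ s ∣ det M`. -/
theorem pow_dvd_det_of_subspace {κ : Type*} [Field κ] (φ : R →+* κ)
    (hφ : Function.Surjective φ) (π : R) (hπ : Prime π) (hker : ∀ x, φ x = 0 ↔ π ∣ x)
    (M : Matrix ι ι R) (N : Submodule κ (ι → κ)) (hN : ∀ v ∈ N, (M.map φ) *ᵥ v = 0)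
    (s : ℕ) (hs : s ≤ Module.finrank κ N) : π ^ s ∣ M.det := by
  classical
  set d := Module.finrank κ N with hd
  let bN : Basis (Fin d) κ N := Module.finBasis κ N
  let v : Fin d → (ι → κ) := fun i => (bN i : ι → κ)
  have hv : LinearIndependent κ v :=
    bN.linearIndependent.map' N.subtype (Submodule.ker_subtype N)
  have hS : LinearIndepOn κ id (Set.range v) := hv.linearIndepOn_id
  let bE := Basis.extend hS
  have hfin : Fintype (hS.extend (Set.subset_univ _)) := FiniteDimensional.fintypeBasisIndex bE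
  have hcard : Fintype.card ι = Fintype.card (hS.extend (Set.subset_univ _)) := by
    rw [← Module.finrank_eq_card_basis bE, Module.finrank_pi]
  let e : ι ≃ hS.extend (Set.subset_univ _) := Fintype.equivOfCardEq hcard
  let bE' : Basis ι κ (ι → κ) := bE.reindex e.symm
  let Ubar : Matrix ι ι κ := (Pi.basisFun κ ι).toMatrix bE'
  have hUbar : IsUnit Ubar.det := by
    have := (Pi.basisFun κ ι).invertibleToMatrix bE'
    exact Matrix.isUnit_det_of_invertible Ubar
  choose U hU using fun i j => hφ (Ubar i j)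
  let Um : Matrix ι ι R := Matrix.of U
  have hUm : Um.map φ = Ubar := by
    ext i j
    simp [Um, hU]
  have hdetU : ¬ π ∣ Um.det := by
    intro h
    have := (hker _).2 h
    rw [RingHom.map_det, RingHom.mapMatrix_apply, hUm] at this
    exact hUbar.ne_zero this
  -- the set of "kernel" columns
  let x : Fin d → hS.extend (Set.subset_univ _) := fun k =>
    ⟨v k, hS.subset_extend _ (Set.mem_range_self k)⟩
  have hx : Function.Injective x := by
    intro k k' h
    have h' : v k = v k' := congrArg (fun z : hS.extend (Set.subset_univ _) => (z : ι → κ)) h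
    exact hv.injective h'
  let J : Finset ι := Finset.univ.map ⟨fun k => e.symm (x k), e.symm.injective.comp hx⟩
  have hJcard : J.card = d := by
    simp [J]
  have hcols : ∀ i, ∀ j ∈ J, π ∣ (M * Um) i j := by
    intro i j hj
    rw [← hker]
    obtain ⟨k, -, rfl⟩ := Finset.mem_map.1 hj
    have hcol : (fun i' => Ubar i' (e.symm (x k))) = v k := by
      ext i'
      simp [Ubar, bE', bE, Basis.toMatrix_apply, x]
    have hmem : v k ∈ N := (bN k).2
    have h0 := hN _ hmem
    have : φ ((M * Um) i (e.symm (x k))) = ((M.map φ) *ᵥ (v k)) i := by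
      rw [← hcol]
      simp only [Matrix.mul_apply, map_sum, map_mul, Matrix.mulVec, dotProduct, Matrix.map_apply,
        ← hUm]
    simpa [h0] using this
  have h1 : π ^ d ∣ (M * Um).det := hJcard ▸ pow_card_dvd_det_of_cols π (M * Um) J hcols
  rw [Matrix.det_mul] at h1
  exact (pow_dvd_pow π hs).trans (hπ.pow_dvd_of_dvd_mul_right d hdetU h1)

end MatrixLemmas2

section TraceLemma

/-- An element of a finite free `R`-algebra which is nilpotent modulo the prime `π` has trace
divisible by `π`. -/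
theorem dvd_trace_of_pow_mem {R B ι : Type*} [CommRing R] [CommRing B] [Algebra R B]
    [Fintype ι] [DecidableEq ι] (c : Basis ι R B) (π : R) (hπ : Prime π) (y : B) (m : ℕ)
    (hy : y ^ m ∈ Ideal.span {algebraMap R B π}) : π ∣ Algebra.trace R B y := by
  obtain ⟨z, hz⟩ := Ideal.mem_span_singleton'.1 hy
  have hprime : (Ideal.span {π}).IsPrime := (Ideal.span_singleton_prime hπ.ne_zero).2 hπ
  let φ : R →+* R ⧸ Ideal.span {π} := Ideal.Quotient.mk _
  set Y := Algebra.leftMulMatrix c y with hY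
  have h1 : Y ^ m = π • Algebra.leftMulMatrix c z := by
    rw [hY, ← map_pow, ← hz, mul_comm, ← Algebra.smul_def, map_smul]
  have h2 : (φ.mapMatrix Y) ^ m = 0 := by
    rw [← map_pow, h1]
    ext i j
    simp [φ]
  have h3 : Matrix.trace (φ.mapMatrix Y) = 0 :=
    (Matrix.isNilpotent_trace_of_isNilpotent ⟨m, h2⟩).eq_zero
  have h4 : φ (Matrix.trace Y) = 0 := by
    rw [← h3]
    exact AddMonoidHom.map_trace φ.toAddMonoidHom Y
  rw [Algebra.trace_eq_matrix_trace c y, ← Ideal.mem_span_singleton, ← Ideal.Quotient.eq_zero_iff_mem]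
  exact h4

end TraceLemma

section Count

variable {R B ι : Type*} [CommRing R] [IsDomain R] [CommRing B] [Algebra R B]
  [Fintype ι] [DecidableEq ι]

/-- Discriminant bound, module form: if `g : B → κ ^ r` (`κ = R/π`) is `R`-linear and every
element of `ker g` is nilpotent modulo `π`, then `π ^ (n - r)` divides the discriminant of any
`R`-basis of `B`. -/
theorem pow_dvd_discr_of_linearMap (c : Basis ι R B) (π : R) (hπ : Prime π)
    [hmax : (Ideal.span {π}).IsMaximal] {r : ℕ}
    (g : B →ₗ[R] (Fin r → R ⧸ Ideal.span {π}))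
    (hg : ∀ y, g y = 0 → ∃ m, y ^ m ∈ Ideal.span {algebraMap R B π}) :
    π ^ (Fintype.card ι - r) ∣ Algebra.discr R c := by
  classical
  let _ : Field (R ⧸ Ideal.span {π}) := Ideal.Quotient.field _
  let κ := R ⧸ Ideal.span {π}
  let φ : R →+* κ := Ideal.Quotient.mk _
  have hφ : Function.Surjective φ := Ideal.Quotient.mk_surjective
  have hker : ∀ x, φ x = 0 ↔ π ∣ x := fun x => by
    rw [Ideal.Quotient.eq_zero_iff_mem, Ideal.mem_span_singleton]
  -- the induced κ-linear map
  let gbar : (ι → κ) →ₗ[κ] (Fin r → κ) :=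
    (Pi.basisFun κ ι).constr κ (fun i => g (c i))
  have hNdim : Fintype.card ι - r ≤ Module.finrank κ (LinearMap.ker gbar) := by
    have h1 := LinearMap.finrank_range_add_finrank_ker gbar
    have h2 : Module.finrank κ (LinearMap.range gbar) ≤ r := by
      have := Submodule.finrank_le (LinearMap.range gbar)
      simpa using this
    rw [Module.finrank_pi] at h1
    omega
  rw [Algebra.discr_def]
  refine pow_dvd_det_of_subspace φ hφ π hπ hker _ (LinearMap.ker gbar) ?_ _ hNdim
  intro vbar hv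
  choose v hvφ using fun i => hφ (vbar i)
  let y : B := ∑ i, v i • c i
  have hgy : g y = 0 := by
    have : gbar vbar = 0 := hv
    rw [← this]
    simp only [y, map_sum, map_smul, gbar, Basis.constr_apply_fintype, Pi.basisFun_equivFun,
      LinearEquiv.refl_apply]
    refine Finset.sum_congr rfl fun i _ => ?_
    rw [← hvφ i]
    rfl
  obtain ⟨m, hm⟩ := hg y hgy
  ext i
  have hi : π ∣ Algebra.trace R B (c i * y) := by
    refine dvd_trace_of_pow_mem c π hπ (c i * y) m ?_
    rw [mul_pow]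
    exact Ideal.mul_mem_left _ _ hm
  have hexp : Algebra.trace R B (c i * y) = ∑ j, Algebra.traceMatrix R c i j * v j := by
    simp only [y, Finset.mul_sum, map_sum, Algebra.traceMatrix_apply, Algebra.traceForm_apply,
      mul_smul_comm, map_smul, smul_eq_mul, mul_comm]
  rw [hexp, ← hker, map_sum] at hi
  simp only [Matrix.mulVec, dotProduct, Matrix.map_apply, Pi.zero_apply]
  rw [← hi]
  refine Finset.sum_congr rfl fun j _ => ?_
  rw [map_mul, hvφ j]

end Count

section Main

open scoped nonZeroDivisors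

variable {R K L : Type*} [CommRing R] [IsDomain R] [IsPrincipalIdealRing R]
    [Field K] [Field L] [Algebra R K] [IsFractionRing R K] [Algebra K L] [Algebra R L]
    [IsScalarTower R K L] [FiniteDimensional K L] [Algebra.IsSeparable K L]
    {ι : Type*} [Fintype ι] [DecidableEq ι]

/-- **IG-core.**  `R` a PID, `K = Frac R`, `L/K` finite separable, `b` a `K`-basis of `L`
consisting of `R`-integral elements, `d ∈ R` its discriminant.  Suppose that for every prime
`π ∣ d` there are `r` and an `R`-linear map `g : B → (R/π)^r` on the integral closure `B` of `R`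
in `L`, all of whose kernel elements are nilpotent modulo `π` (e.g. `g` = evaluation at the `r`
points of `B` above `π`, when the residue degrees are `1`), and that `π ^ (n - r + 1) ∤ d`.
Then the `R`-span of `b` is the whole integral closure. -/
theorem span_eq_of_discr_bound (b : Basis ι K L) (hb : ∀ i, IsIntegral R (b i))
    (d : R) (hd : algebraMap R K d = Algebra.discr K b)
    (h : ∀ π : R, Prime π → π ∣ d →
      ∃ (r : ℕ) (g : integralClosure R L →ₗ[R] (Fin r → R ⧸ Ideal.span {π})),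
        (∀ y, g y = 0 → ∃ m, y ^ m ∈ Ideal.span {algebraMap R (integralClosure R L) π}) ∧
        ¬ π ^ (Fintype.card ι - r + 1) ∣ d) :
    ∀ y : L, IsIntegral R y → y ∈ Submodule.span R (Set.range b) := by
  classical
  have hinj : Function.Injective (algebraMap R L) := by
    rw [IsScalarTower.algebraMap_eq R K L]
    exact (algebraMap K L).injective.comp (IsFractionRing.injective R K)
  have htf : Module.IsTorsionFree R L := by
    rw [Module.isTorsionFree_iff_algebraMap_injective]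
    exact hinj
  have hfree : Module.Free R (integralClosure R L) :=
    IsIntegralClosure.module_free R K L (integralClosure R L)
  have hfin : Module.Finite R (integralClosure R L) :=
    IsIntegralClosure.finite R K L (integralClosure R L)
  have hrank : Module.finrank R (integralClosure R L) = Fintype.card ι := by
    rw [IsIntegralClosure.rank R K L (integralClosure R L), Module.finrank_eq_card_basis b]
  let c : Basis ι R (integralClosure R L) :=
    (Module.finBasisOfFinrankEq R (integralClosure R L) hrank).reindex (Fintype.equivFin ι).symm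
  have hloc : IsLocalization (Algebra.algebraMapSubmonoid (integralClosure R L) R⁰) L :=
    IsIntegralClosure.isLocalization R K L (integralClosure R L)
  let cK : Basis ι K L := c.localizationLocalization K R⁰ L
  have hcK : ∀ i, cK i = (c i : L) := fun i => by
    simp [cK, Basis.localizationLocalization_apply]
  -- the transition matrix
  let P : Matrix ι ι R := Matrix.of fun i j => c.repr ⟨b i, hb i⟩ j
  have hbP : ∀ i, b i = ∑ j, P i j • (c j : L) := by
    intro i
    have h1 := c.sum_repr ⟨b i, hb i⟩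
    have h2 := congrArg (fun z : integralClosure R L => (z : L)) h1
    simp only [AddSubmonoidClass.coe_finsetSum, Subalgebra.coe_smul] at h2
    exact h2.symm
  have hbP' : (b : ι → L) = ((P.map (algebraMap R K)).map (algebraMap K L)) *ᵥ (cK : ι → L) := by
    ext i
    rw [hbP i]
    simp only [Matrix.mulVec, dotProduct, Matrix.map_apply, hcK]
    refine Finset.sum_congr rfl fun j _ => ?_
    rw [← IsScalarTower.algebraMap_apply, Algebra.smul_def]
  have hdisc : d = P.det ^ 2 * Algebra.discr R c := by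
    apply IsFractionRing.injective R K
    rw [hd, hbP', Algebra.discr_of_matrix_mulVec, Algebra.discr_localizationLocalization R R⁰ L c,
      map_mul, map_pow, RingHom.map_det, RingHom.mapMatrix_apply]
  have hd0 : d ≠ 0 := by
    intro h0
    rw [h0, map_zero] at hd
    exact Algebra.discr_not_zero_of_basis K b hd.symm
  have hP0 : P.det ≠ 0 := by
    intro h0
    rw [hdisc, h0] at hd0
    simp at hd0
  have hunit : IsUnit P.det := by
    by_contra hnu
    obtain ⟨π, hπirr, hπdvd⟩ := WfDvdMonoid.exists_irreducible_factor hnu hP0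
    have hπ : Prime π := hπirr.prime
    have hπd : π ∣ d := by
      rw [hdisc]
      exact Dvd.dvd.mul_right (Dvd.dvd.pow hπdvd two_ne_zero) _
    obtain ⟨r, g, hg, hnot⟩ := h π hπ hπd
    have : (Ideal.span {π}).IsMaximal := PrincipalIdealRing.isMaximal_of_irreducible hπirr
    have h1 : π ^ (Fintype.card ι - r) ∣ Algebra.discr R c := pow_dvd_discr_of_linearMap c π hπ g hg
    apply hnot
    rw [hdisc]
    have h2 : π ^ 2 ∣ P.det ^ 2 := pow_dvd_pow_of_dvd hπdvd 2
    have h3 : π ^ (2 + (Fintype.card ι - r)) ∣ P.det ^ 2 * Algebra.discr R c := by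
      rw [pow_add]
      exact mul_dvd_mul h2 h1
    exact (pow_dvd_pow π (by omega)).trans h3
  -- conclude
  have hPinv : P⁻¹ * P = 1 := Matrix.nonsing_inv_mul P hunit
  have hc : ∀ j, (c j : L) ∈ Submodule.span R (Set.range b) := by
    intro j
    have : (c j : L) = ∑ i, (P⁻¹) j i • b i := by
      simp_rw [hbP, Finset.smul_sum, smul_smul]
      rw [Finset.sum_comm]
      simp_rw [← Finset.sum_smul, ← Matrix.mul_apply, hPinv, Matrix.one_apply]
      simp
    rw [this]
    exact Submodule.sum_mem _ fun i _ => Submodule.smul_mem _ _ (Submodule.subset_span ⟨i, rfl⟩)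
  intro y hy
  have h1 := c.sum_repr ⟨y, hy⟩
  have h2 := congrArg (fun z : integralClosure R L => (z : L)) h1
  simp only [AddSubmonoidClass.coe_finsetSum, Subalgebra.coe_smul] at h2
  rw [← h2]
  exact Submodule.sum_mem _ fun j _ => Submodule.smul_mem _ _ (hc j)

end Main

section Order

open scoped nonZeroDivisors

variable {R K L : Type*} [CommRing R] [IsDomain R] [IsPrincipalIdealRing R]
    [Field K] [Field L] [Algebra R K] [IsFractionRing R K] [Algebra K L] [Algebra R L]
    [IsScalarTower R K L] [FiniteDimensional K L] [Algebra.IsSeparable K L]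
    {ι : Type*} [Fintype ι] [DecidableEq ι]

/-- **IG-core, order version.**  Same as `span_eq_of_discr_bound`, but the `r` functionals
(given by the rows of a matrix `Λ` over `R`) are only defined on the lattice spanned by `b`:
if `π` divides all `Λ_t(v)` then `∑ v_i b_i` is nilpotent modulo `π` (in the integral closure). -/
theorem span_eq_of_discr_bound_order (b : Basis ι K L) (hb : ∀ i, IsIntegral R (b i))
    (d : R) (hd : algebraMap R K d = Algebra.discr K b)
    (h : ∀ π : R, Prime π → π ∣ d →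
      ∃ (r : ℕ) (Λ : Matrix (Fin r) ι R),
        (∀ v : ι → R, (∀ t, π ∣ (Λ *ᵥ v) t) →
          ∃ (m : ℕ) (z : L), IsIntegral R z ∧ (∑ i, v i • b i) ^ m = π • z) ∧
        ¬ π ^ (Fintype.card ι - r + 1) ∣ d) :
    ∀ y : L, IsIntegral R y → y ∈ Submodule.span R (Set.range b) := by
  classical
  have hinj : Function.Injective (algebraMap R L) := by
    rw [IsScalarTower.algebraMap_eq R K L]
    exact (algebraMap K L).injective.comp (IsFractionRing.injective R K)
  have htf : Module.IsTorsionFree R L := by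
    rw [Module.isTorsionFree_iff_algebraMap_injective]
    exact hinj
  have hfree : Module.Free R (integralClosure R L) :=
    IsIntegralClosure.module_free R K L (integralClosure R L)
  have hfin : Module.Finite R (integralClosure R L) :=
    IsIntegralClosure.finite R K L (integralClosure R L)
  have hrank : Module.finrank R (integralClosure R L) = Fintype.card ι := by
    rw [IsIntegralClosure.rank R K L (integralClosure R L), Module.finrank_eq_card_basis b]
  let c : Basis ι R (integralClosure R L) :=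
    (Module.finBasisOfFinrankEq R (integralClosure R L) hrank).reindex (Fintype.equivFin ι).symm
  have hloc : IsLocalization (Algebra.algebraMapSubmonoid (integralClosure R L) R⁰) L :=
    IsIntegralClosure.isLocalization R K L (integralClosure R L)
  let cK : Basis ι K L := c.localizationLocalization K R⁰ L
  have hcK : ∀ i, cK i = (c i : L) := fun i => by
    simp [cK, Basis.localizationLocalization_apply]
  -- the transition matrix
  let bB : ι → integralClosure R L := fun i => ⟨b i, hb i⟩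
  let P : Matrix ι ι R := Matrix.of fun i j => c.repr (bB i) j
  have hbB : ∀ i, bB i = ∑ j, P i j • c j := fun i => (c.sum_repr (bB i)).symm
  have hbP : ∀ i, b i = ∑ j, P i j • (c j : L) := by
    intro i
    have h2 := congrArg (fun z : integralClosure R L => (z : L)) (hbB i)
    simp only [AddSubmonoidClass.coe_finsetSum, Subalgebra.coe_smul] at h2
    exact h2
  have hbP' : (b : ι → L) = ((P.map (algebraMap R K)).map (algebraMap K L)) *ᵥ (cK : ι → L) := by
    ext i
    rw [hbP i]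
    simp only [Matrix.mulVec, dotProduct, Matrix.map_apply, hcK]
    refine Finset.sum_congr rfl fun j _ => ?_
    rw [← IsScalarTower.algebraMap_apply, Algebra.smul_def]
  have hdisc : d = P.det ^ 2 * Algebra.discr R c := by
    apply IsFractionRing.injective R K
    rw [hd, hbP', Algebra.discr_of_matrix_mulVec, Algebra.discr_localizationLocalization R R⁰ L c,
      map_mul, map_pow, RingHom.map_det, RingHom.mapMatrix_apply]
  have hd0 : d ≠ 0 := by
    intro h0
    rw [h0, map_zero] at hd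
    exact Algebra.discr_not_zero_of_basis K b hd.symm
  have hP0 : P.det ≠ 0 := by
    intro h0
    rw [hdisc, h0] at hd0
    simp at hd0
  -- the mixed trace matrix `M' i j = Tr (b_i c_j) = (P * traceMatrix c) i j`
  have hmixed : ∀ i j, (P * Algebra.traceMatrix R c) i j = Algebra.trace R _ (bB i * c j) := by
    intro i j
    rw [hbB i, Finset.sum_mul, map_sum, Matrix.mul_apply]
    refine Finset.sum_congr rfl fun k _ => ?_
    rw [smul_mul_assoc, map_smul, smul_eq_mul, Algebra.traceMatrix_apply, Algebra.traceForm_apply]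
  have hunit : IsUnit P.det := by
    by_contra hnu
    obtain ⟨π, hπirr, hπdvd⟩ := WfDvdMonoid.exists_irreducible_factor hnu hP0
    have hπ : Prime π := hπirr.prime
    have hπd : π ∣ d := by
      rw [hdisc]
      exact Dvd.dvd.mul_right (Dvd.dvd.pow hπdvd two_ne_zero) _
    obtain ⟨r, Λ, hΛ, hnot⟩ := h π hπ hπd
    have hmax : (Ideal.span {π}).IsMaximal := PrincipalIdealRing.isMaximal_of_irreducible hπirr
    let _ : Field (R ⧸ Ideal.span {π}) := Ideal.Quotient.field _
    let κ := R ⧸ Ideal.span {π}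
    let φ : R →+* κ := Ideal.Quotient.mk _
    have hφ : Function.Surjective φ := Ideal.Quotient.mk_surjective
    have hker : ∀ x, φ x = 0 ↔ π ∣ x := fun x => by
      rw [Ideal.Quotient.eq_zero_iff_mem, Ideal.mem_span_singleton]
    let Λbar : (ι → κ) →ₗ[κ] (Fin r → κ) := Matrix.mulVecLin (Λ.map φ)
    have hNdim : Fintype.card ι - r ≤ Module.finrank κ (LinearMap.ker Λbar) := by
      have h1 := LinearMap.finrank_range_add_finrank_ker Λbar
      have h2 : Module.finrank κ (LinearMap.range Λbar) ≤ r := by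
        have := Submodule.finrank_le (LinearMap.range Λbar)
        simpa using this
      rw [Module.finrank_pi] at h1
      omega
    have h1 : π ^ (Fintype.card ι - r) ∣ (P * Algebra.traceMatrix R c)ᵀ.det := by
      refine pow_dvd_det_of_subspace φ hφ π hπ hker _ (LinearMap.ker Λbar) ?_ _ hNdim
      intro vbar hv
      choose v hvφ using fun i => hφ (vbar i)
      have hΛv : ∀ t, π ∣ (Λ *ᵥ v) t := by
        intro t
        rw [← hker]
        have : Λbar vbar t = 0 := by
          have : Λbar vbar = 0 := hv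
          rw [this]; rfl
        rw [← this]
        simp only [Λbar, Matrix.mulVecLin_apply, Matrix.mulVec, dotProduct, Matrix.map_apply,
          map_sum, map_mul, hvφ]
      obtain ⟨m, z, hz, hm⟩ := hΛ v hΛv
      let y : integralClosure R L := ∑ i, v i • bB i
      have hy : (y : L) = ∑ i, v i • b i := by
        simp [y, bB, AddSubmonoidClass.coe_finsetSum]
      have hym : y ^ m ∈ Ideal.span {algebraMap R (integralClosure R L) π} := by
        rw [Ideal.mem_span_singleton']
        refine ⟨⟨z, hz⟩, ?_⟩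
        apply Subtype.ext
        simp only [Subalgebra.coe_mul, Subalgebra.coe_algebraMap, SubmonoidClass.coe_pow]
        rw [hy, hm, Algebra.smul_def, mul_comm]
      ext j
      have hj : π ∣ Algebra.trace R _ (y * c j) := by
        refine dvd_trace_of_pow_mem c π hπ (y * c j) m ?_
        rw [mul_pow]
        exact Ideal.mul_mem_right _ _ hym
      have hexp : Algebra.trace R _ (y * c j) = ∑ i, (P * Algebra.traceMatrix R c) i j * v i := by
        have e1 : y * c j = ∑ i, v i • (bB i * c j) := by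
          simp only [y, Finset.sum_mul, smul_mul_assoc]
        rw [e1, map_sum]
        refine Finset.sum_congr rfl fun i _ => ?_
        rw [map_smul, smul_eq_mul, hmixed, mul_comm]
      rw [hexp, ← hker, map_sum] at hj
      simp only [Matrix.mulVec, dotProduct, Matrix.map_apply, Pi.zero_apply, Matrix.transpose_apply]
      rw [← hj]
      refine Finset.sum_congr rfl fun i _ => ?_
      rw [map_mul, hvφ i]
    rw [Matrix.det_transpose, Matrix.det_mul] at h1
    apply hnot
    rw [hdisc, ← Algebra.discr_def] at *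
    have h3 : π ^ (1 + (Fintype.card ι - r)) ∣ P.det ^ 2 * Algebra.discr R c := by
      rw [pow_add, pow_one, pow_two, mul_assoc]
      exact mul_dvd_mul hπdvd h1
    exact (pow_dvd_pow π (by omega)).trans h3
  -- conclude
  have hPinv : P⁻¹ * P = 1 := Matrix.nonsing_inv_mul P hunit
  have hc : ∀ j, (c j : L) ∈ Submodule.span R (Set.range b) := by
    intro j
    have : (c j : L) = ∑ i, (P⁻¹) j i • b i := by
      simp_rw [hbP, Finset.smul_sum, smul_smul]
      rw [Finset.sum_comm]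
      simp_rw [← Finset.sum_smul, ← Matrix.mul_apply, hPinv, Matrix.one_apply]
      simp
    rw [this]
    exact Submodule.sum_mem _ fun i _ => Submodule.smul_mem _ _ (Submodule.subset_span ⟨i, rfl⟩)
  intro y hy
  have h1 := c.sum_repr ⟨y, hy⟩
  have h2 := congrArg (fun z : integralClosure R L => (z : L)) h1
  simp only [AddSubmonoidClass.coe_finsetSum, Subalgebra.coe_smul] at h2
  rw [← h2]
  exact Submodule.sum_mem _ fun j _ => Submodule.smul_mem _ _ (hc j)

end Order

end Fermat.Agent.S27.REDu.H34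

end
-- ==== END Fermat.Agent.S27.REDu.H34_IGCore

-- ==== BEGIN Fermat.Agent.S27.REDu.H34_IGDefs
section

/-!
# G-RED package IG (helper34): interface definitions for "good reduction of an affine chart"

Abstract setting (no modular forms): `F/C` a function field, `V` a valuation ring of `F` of
"Gauss type" (value group of `V` = value group of `O = V ∩ C`), `Ft` its residue field,
`x ∈ V` with transcendental reduction `xt`.  `B` = integral closure of `C[x]` in `F`,
`Bt` = integral closure of `k[xt]` in `Ft`.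

**Chart theorem** (`Stmt_chartNormal.{uC, uF, uk, uFt}`): if `[Ft : k(xt)] = [F : C(x)]`, `Ft/k(xt)` is separable and
the branch values of `x` lying in `O` are pairwise distinct modulo the maximal ideal, then every
element of `Bt` is the reduction of an element of `B ∩ V`.

Inputs proved separately (pure algebra):
* `Stmt_rootRed.{uC, uk}`   : reduction of roots of polynomials over a valuation ring of an alg. closed field;
* `Stmt_tameDiscr.{uK, uR, uL, uiot}` : tame discriminant bound `ord_π disc(B/R) ≤ n - #{primes over π}`.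
-/

set_option autoImplicit false

universe uC uCf uK uR uF uL uE uk ukap uFp uFt uFtp uiot uEp uKp ux3b1

noncomputable section

open IntermediateField

namespace Fermat.Agent.S27.REDu.H34

/-- Abstract reduction setting: a valuation ring `V` of `F` with residue field `Ft`, such that
`O = V ∩ C` has residue field `k` and the value group of `V` is that of `O`. -/
structure RedSetting (C : Type uC) (F : Type uF) (k : Type uk) (Ft : Type uFt) [Field C] [Field F] [Algebra C F] [Field k] [Field Ft]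
    [Algebra k Ft] where
  /-- the valuation ring -/
  V : ValuationSubring F
  /-- the reduction map -/
  red : ↥V →+* Ft
  red_surj : Function.Surjective red
  /-- the reduction map on constants -/
  resO : ↥(V.comap (algebraMap C F)) →+* k
  resO_surj : Function.Surjective resO
  red_algebraMap : ∀ a : ↥(V.comap (algebraMap C F)),
    red ⟨algebraMap C F (a : C), a.2⟩ = algebraMap k Ft (resO a)
  scale : ∀ f : F, f ≠ 0 → ∃ c : C, c ≠ 0 ∧ ∃ u : (↥V)ˣ, f = algebraMap C F c * ((u : ↥V) : F)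

/-- The maximal ideals of the integral closure `B` of `C[x]` in `F` lying over `x = ρ`. -/
def ptsOver {C : Type uC} {F : Type uF} [Field C] [Field F] [Algebra C F] (x : F) (ρ : C) :
    Set (Ideal ↥(integralClosure ↥(Algebra.adjoin C {x}) F)) :=
  {P | P.IsMaximal ∧ ∀ b : ↥(integralClosure ↥(Algebra.adjoin C {x}) F),
    (b : F) = x - algebraMap C F ρ → b ∈ P}

/-- `ρ` is a branch value of `x`: fewer than `[F : C(x)]` points lie over `x = ρ`. -/
def IsBranchValue {C : Type uC} {F : Type uF} [Field C] [Field F] [Algebra C F] (x : F) (ρ : C) : Prop :=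
  (ptsOver x ρ).ncard < Module.finrank C⟮x⟯ F

/-- **Chart theorem**: the reduction of the integral closure is the integral closure of the
reduction. -/
def Stmt_chartNormal : Prop :=
  ∀ (C : Type uC) (F : Type uF) (k : Type uk) (Ft : Type uFt) [Field C] [Field F] [Algebra C F] [Field k] [Field Ft] [Algebra k Ft]
    [IsAlgClosed C] [CharZero C] [IsAlgClosed k] (S : RedSetting C F k Ft)
    (x : F) (hx : x ∈ S.V), Transcendental k (S.red ⟨x, hx⟩) →
    FiniteDimensional C⟮x⟯ F →
    Module.finrank k⟮S.red ⟨x, hx⟩⟯ Ft = Module.finrank C⟮x⟯ F →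
    Algebra.IsSeparable k⟮S.red ⟨x, hx⟩⟯ Ft →
    (∀ ρ ρ' : ↥(S.V.comap (algebraMap C F)), IsBranchValue x (ρ : C) → IsBranchValue x (ρ' : C) →
      S.resO ρ = S.resO ρ' → ρ = ρ') →
    ∀ y : Ft, IsIntegral ↥(Algebra.adjoin k {S.red ⟨x, hx⟩}) y →
      ∃ f : ↥S.V, IsIntegral ↥(Algebra.adjoin C {x}) (f : F) ∧ S.red f = y

/-- **Reduction of roots.**  `O` a valuation ring of an algebraically closed field, `res` its
residue map, `D ∈ O[X]` with nonzero reduction.  Every root `γ` of the reduction is the reduction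
of a root `ρ ∈ O` of `D`, and if `ρ` is the only root of `D` in `O` reducing to `γ`, the
multiplicities agree. -/
def Stmt_rootRed : Prop :=
  ∀ (C : Type uC) (k : Type uk) [Field C] [IsAlgClosed C] [Field k] (O : ValuationSubring C) (res : ↥O →+* k),
    Function.Surjective res → (∀ a : ↥O, res a = 0 ↔ ¬ IsUnit a) →
    ∀ D : Polynomial ↥O, D.map res ≠ 0 → ∀ γ : k, (D.map res).IsRoot γ →
      ∃ ρ : ↥O, res ρ = γ ∧ D.IsRoot ρ ∧
        ((∀ ρ' : ↥O, res ρ' = γ → D.IsRoot ρ' → ρ' = ρ) →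
          (D.map res).rootMultiplicity γ = D.rootMultiplicity ρ)

/-- **Tame discriminant bound.**  `R` a PID, `B` the integral closure of `R` in a finite separable
extension `L` of `K = Frac R`, `π` a prime of `R` of residue characteristic `0` such that all
primes of `B` over `π` have residue degree one.  Then `ord_π disc(B/R) ≤ n - r`, `r` the number of
primes of `B` over `π`. -/
def Stmt_tameDiscr : Prop :=
  ∀ (R : Type uR) (K : Type uK) (L : Type uL) [CommRing R] [IsDomain R] [IsPrincipalIdealRing R] [Field K] [Field L]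
    [Algebra R K] [IsFractionRing R K] [Algebra K L] [Algebra R L] [IsScalarTower R K L]
    [FiniteDimensional K L] [Algebra.IsSeparable K L]
    (ι : Type uiot) [Fintype ι] [DecidableEq ι] (c : Module.Basis ι R ↥(integralClosure R L))
    (π : R), Prime π → (∀ m : ℕ, m ≠ 0 → ¬ π ∣ (m : R)) →
    (∀ P : Ideal ↥(integralClosure R L), P.IsMaximal →
      algebraMap R ↥(integralClosure R L) π ∈ P →
        Function.Surjective (algebraMap R (↥(integralClosure R L) ⧸ P))) →
    ¬ π ^ (Fintype.card ι -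
        Set.ncard {P : Ideal ↥(integralClosure R L) |
          P.IsMaximal ∧ algebraMap R ↥(integralClosure R L) π ∈ P} + 1) ∣ Algebra.discr R c

end Fermat.Agent.S27.REDu.H34

end
end
-- ==== END Fermat.Agent.S27.REDu.H34_IGDefs

-- ==== BEGIN Fermat.Agent.S27.REDu.H42_RiemannBasic
section

/-!
# G-RED, package FF-R (helper42): Riemann's theorem for function fields, any characteristic

Elementary proof (no differentials), following the classical route: `L(D + v) / L(D)` has
dimension at most one, `L(0) = K`, and the lower bound on `l(l * (x)_infty)` coming from a basis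
of `F` over `K(x)`.
-/

set_option autoImplicit false

universe uC uCf uK uR uF uL uE uk ukap uFp uFt uFtp uiot uEp uKp ux3b1

noncomputable section

open AlgebraicCurve IntermediateField WithZero

namespace Fermat.Agent.S27.REDu.H42

variable {K F : Type*} [Field K] [Field F] [Algebra K F]


/-! ## Basic facts on places -/

theorem mem_iff_adicValuation_le_one (v : Place K F) (x : F) :
    x ∈ v.toValuationSubring ↔ v.adicValuation x ≤ 1 := by
  constructor
  · exact v.adicValuation_le_one_of_mem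
  · intro h
    by_contra hx
    have hx0 : x ≠ 0 := fun h0 => hx (h0 ▸ v.toValuationSubring.zero_mem)
    have hxi : x⁻¹ ∈ v.toValuationSubring := (v.toValuationSubring.mem_or_inv_mem x).resolve_left hx
    have h1 : v.adicValuation x⁻¹ ≤ 1 := v.adicValuation_le_one_of_mem hxi
    have h2 : v.adicValuation x⁻¹ = 1 := by
      apply le_antisymm h1
      rw [map_inv₀]
      exact (one_le_inv₀ (zero_lt_iff.mpr (v.adicValuation_ne_zero hx0))).mpr h
    have h3 : IsUnit (⟨x⁻¹, hxi⟩ : v.toValuationSubring) :=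
      (v.adicValuation_coe_eq_one_iff ⟨x⁻¹, hxi⟩).mp h2
    obtain ⟨b, hb⟩ := h3.exists_right_inv
    have hb' : x⁻¹ * (b : F) = 1 := congrArg Subtype.val hb
    have hbx : (b : F) = x := by
      field_simp at hb'
      exact hb'
    exact hx (hbx ▸ b.2)

theorem adicValuation_lt_one_iff (v : Place K F) (a : v.toValuationSubring) :
    v.adicValuation (a : F) < 1 ↔ a ∈ IsLocalRing.maximalIdeal v.toValuationSubring := by
  rw [IsLocalRing.mem_maximalIdeal, mem_nonunits_iff, ← v.adicValuation_coe_eq_one_iff]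
  have hle : v.adicValuation (a : F) ≤ 1 := v.adicValuation_le_one_of_mem a.2
  exact ⟨fun h => h.ne, fun h => lt_of_le_of_ne hle h⟩

theorem adicValuation_algebraMap (v : Place K F) {c : K} (hc : c ≠ 0) :
    v.adicValuation (algebraMap K F c) = 1 := by
  have hu : IsUnit (algebraMap K v.toValuationSubring c) := (hc.isUnit).map _
  exact (v.adicValuation_coe_eq_one_iff _).mpr hu

/-- If `deg v = 1`, every element of the valuation ring is congruent to a constant. -/
theorem exists_const_sub_lt_one (v : Place K F) (hdeg : v.deg = 1) {u : F}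
    (hu : v.adicValuation u ≤ 1) : ∃ c : K, v.adicValuation (u - algebraMap K F c) < 1 := by
  have hmem : u ∈ v.toValuationSubring := (mem_iff_adicValuation_le_one v u).mpr hu
  have hbij : Function.Bijective (algebraMap K v.ResidueField) :=
    Algebra.finrank_eq_one_iff_bijective_algebraMap.mp hdeg
  obtain ⟨c, hc⟩ := hbij.2 (IsLocalRing.residue _ ⟨u, hmem⟩)
  refine ⟨c, ?_⟩
  have h1 : IsLocalRing.residue v.toValuationSubring (⟨u, hmem⟩ - algebraMap K v.toValuationSubring c) = 0 := by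
    rw [map_sub, ← hc]
    exact sub_eq_zero.mpr rfl
  have h2 : (⟨u, hmem⟩ - algebraMap K v.toValuationSubring c : v.toValuationSubring) ∈
      IsLocalRing.maximalIdeal v.toValuationSubring := by
    rwa [IsLocalRing.residue_eq_zero_iff] at h1
  have h3 := (adicValuation_lt_one_iff v _).mpr h2
  simpa using h3





/-! ## The spaces `L(D)` -/

local notation "L" => riemannRochSpace

theorem mem_L_iff {D : Divisor K F} {f : F} :
    f ∈ L D ↔ ∀ v : Place K F, v.adicValuation f ≤ exp (D v) := Iff.rfl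

theorem L_mono {D D' : Divisor K F} (h : D ≤ D') : L D ≤ L D' := fun _ hf v =>
  (hf v).trans (exp_le_exp.mpr (Finsupp.le_def.mp h v))

theorem lt_exp_succ_iff {a : ℤᵐ⁰} {n : ℤ} : a < exp (n + 1) ↔ a ≤ exp n := by
  rcases eq_or_ne a 0 with rfl | ha
  · simp
  · rw [← exp_log ha, exp_lt_exp, exp_le_exp]
    omega

/-- One step: modulo `L(D)`, the space `L(D + v)` is spanned by any of its elements outside `L(D)`. -/
theorem one_step (v : Place K F) (hdeg : v.deg = 1) (D : Divisor K F) {f g : F}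
    (hf : f ∈ L (D + Finsupp.single v 1)) (hfD : f ∉ L D)
    (hg : g ∈ L (D + Finsupp.single v 1)) : ∃ c : K, g - c • f ∈ L D := by
  classical
  have hw : ∀ w : Place K F, w ≠ v → (D + Finsupp.single v 1 : Divisor K F) w = D w := fun w hwv => by
    rw [Finsupp.add_apply, Finsupp.single_apply, if_neg (Ne.symm hwv), add_zero]
  have hv : (D + Finsupp.single v 1 : Divisor K F) v = D v + 1 := by
    rw [Finsupp.add_apply, Finsupp.single_apply, if_pos rfl]
  -- the failing place is `v`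
  have hfv : ¬ v.adicValuation f ≤ exp (D v) := by
    intro hle
    apply hfD
    intro w
    by_cases hwv : w = v
    · subst hwv; exact hle
    · have := hf w
      rwa [hw w hwv] at this
  have hf0 : f ≠ 0 := by
    rintro rfl
    exact hfv (by simp)
  have hfval : v.adicValuation f = exp (D v + 1) := by
    have h1 := hf v
    rw [hv] at h1
    rcases lt_or_eq_of_le h1 with h2 | h2
    · exact absurd (lt_exp_succ_iff.mp h2) hfv
    · exact h2
  have hgv : v.adicValuation g ≤ exp (D v + 1) := by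
    have := hg v
    rwa [hv] at this
  have hu : v.adicValuation (g / f) ≤ 1 := by
    rw [map_div₀, hfval]
    exact div_le_one_of_le₀ hgv zero_le
  obtain ⟨c, hc⟩ := exists_const_sub_lt_one v hdeg hu
  refine ⟨c, fun w => ?_⟩
  by_cases hwv : w = v
  · subst hwv
    have h1 : g - c • f = (g / f - algebraMap K F c) * f := by
      rw [Algebra.smul_def]; field_simp
    rw [h1, map_mul, hfval, ← lt_exp_succ_iff]
    calc w.adicValuation (g / f - algebraMap K F c) * exp (D w + 1)
        < 1 * exp (D w + 1) := by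
          apply mul_lt_mul_of_pos_right hc
          exact zero_lt_iff.mpr exp_ne_zero
      _ = exp (D w + 1) := one_mul _
  · have h1 := hf w
    have h2 := hg w
    rw [hw w hwv] at h1 h2
    have h3 : w.adicValuation (c • f) ≤ exp (D w) := by
      rw [Algebra.smul_def, map_mul]
      exact (mul_le_of_le_one_left' (w.adicValuation_algebraMap_le_one c)).trans h1
    exact (Valuation.map_sub _ _ _).trans (max_le h2 h3)






/-! ## Degrees -/

theorem degree_nonneg {E : Divisor K F} (hE : 0 ≤ E) : 0 ≤ Divisor.degree E := by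
  have h : Divisor.degree E = E.sum fun v n => n * (v.deg : ℤ) := by
    simp [Divisor.degree, Finsupp.liftAddHom_apply]
  rw [h, Finsupp.sum]
  refine Finset.sum_nonneg fun v _ => ?_
  have := Finsupp.le_def.mp hE v
  simp only [Finsupp.coe_zero, Pi.zero_apply] at this
  positivity

theorem degree_mono {D D' : Divisor K F} (h : D ≤ D') : Divisor.degree D ≤ Divisor.degree D' := by
  have h1 : 0 ≤ D' - D := sub_nonneg.mpr h
  have h2 := degree_nonneg h1
  rw [map_sub] at h2
  linarith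

theorem eq_or_exists_lt {D D' : Divisor K F} (h : D ≤ D') : D = D' ∨ ∃ v, D v < D' v := by
  by_cases hall : ∀ v, D' v ≤ D v
  · left
    ext v
    exact le_antisymm (Finsupp.le_def.mp h v) (hall v)
  · right
    push Not at hall
    exact hall

theorem le_sub_single {D D' : Divisor K F} (h : D ≤ D') {v : Place K F} (hv : D v < D' v) :
    D ≤ D' - Finsupp.single v 1 := by
  classical
  rw [Finsupp.le_def]
  intro w
  rw [Finsupp.sub_apply, Finsupp.single_apply]
  have := Finsupp.le_def.mp h w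
  split_ifs with hw
  · subst hw; omega
  · omega

/-- One step, dimension form. -/
theorem step_finrank (v : Place K F) (hdeg : v.deg = 1) (D : Divisor K F)
    (hfin : Module.Finite K (L D)) :
    Module.Finite K (L (D + Finsupp.single v 1)) ∧
      Module.finrank K (L (D + Finsupp.single v 1)) ≤ Module.finrank K (L D) + 1 := by
  classical
  have hle : L D ≤ L (D + Finsupp.single v 1) := L_mono (by
    rw [Finsupp.le_def]; intro w
    rw [Finsupp.add_apply, Finsupp.single_apply]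
    split_ifs <;> omega)
  by_cases h : L (D + Finsupp.single v 1) ≤ L D
  · have heq : L (D + Finsupp.single v 1) = L D := le_antisymm h hle
    rw [heq]
    exact ⟨hfin, Nat.le_succ _⟩
  · obtain ⟨f, hf, hfD⟩ := SetLike.not_le_iff_exists.mp h
    have hsub : L (D + Finsupp.single v 1) ≤ L D ⊔ Submodule.span K {f} := by
      intro g hg
      obtain ⟨c, hc⟩ := one_step v hdeg D hf hfD hg
      have : g = (g - c • f) + c • f := by ring
      rw [this]
      exact Submodule.add_mem_sup hc (Submodule.smul_mem _ c (Submodule.mem_span_singleton_self f))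
    have hf0 : f ≠ 0 := by
      rintro rfl
      exact hfD (Submodule.zero_mem _)
    have : FiniteDimensional K (L D) := hfin
    have : FiniteDimensional K (L D ⊔ Submodule.span K {f} : Submodule K F) := inferInstance
    refine ⟨Submodule.finiteDimensional_of_le hsub, ?_⟩
    calc Module.finrank K (L (D + Finsupp.single v 1))
        ≤ Module.finrank K (L D ⊔ Submodule.span K {f} : Submodule K F) := Submodule.finrank_mono hsub
      _ ≤ Module.finrank K (L D) + Module.finrank K (Submodule.span K {f}) :=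
          Submodule.finrank_add_le_finrank_add_finrank _ _
      _ = Module.finrank K (L D) + 1 := by rw [finrank_span_singleton hf0]

/-- Comparison of `L(D)` and `L(D')` for `D ≤ D'`. -/
theorem finrank_le_of_le (hdeg : ∀ v : Place K F, v.deg = 1) :
    ∀ (m : ℕ) (D D' : Divisor K F), D ≤ D' → Divisor.degree D' - Divisor.degree D ≤ m →
      Module.Finite K (L D) →
      Module.Finite K (L D') ∧
        (Module.finrank K (L D') : ℤ) ≤ Module.finrank K (L D) +
          (Divisor.degree D' - Divisor.degree D) := by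
  intro m
  induction m with
  | zero =>
    intro D D' h hm hfin
    rcases eq_or_exists_lt h with rfl | ⟨v, hv⟩
    · exact ⟨hfin, by simp⟩
    · exfalso
      have h1 := degree_mono (le_sub_single h hv)
      rw [map_sub, Divisor.degree_single, hdeg v] at h1
      simp only [Nat.cast_zero] at hm
      simp only [one_mul, Nat.cast_one] at h1
      omega
  | succ m ih =>
    intro D D' h hm hfin
    rcases eq_or_exists_lt h with rfl | ⟨v, hv⟩
    · exact ⟨hfin, by simp⟩
    · have hle := le_sub_single h hv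
      have hdeg' : Divisor.degree (D' - Finsupp.single v 1) = Divisor.degree D' - 1 := by
        rw [map_sub, Divisor.degree_single, hdeg v]; simp
      obtain ⟨hfin', hrk⟩ := ih D (D' - Finsupp.single v 1) hle (by rw [hdeg']; push_cast at hm; omega) hfin
      obtain ⟨hfin'', hrk'⟩ := step_finrank v (hdeg v) (D' - Finsupp.single v 1) hfin'
      rw [sub_add_cancel] at hfin'' hrk'
      refine ⟨hfin'', ?_⟩
      rw [hdeg'] at hrk
      have : (Module.finrank K (L D') : ℤ) ≤ Module.finrank K (L (D' - Finsupp.single v 1)) + 1 := by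
        exact_mod_cast hrk'
      omega

theorem finite_of_le (hdeg : ∀ v : Place K F, v.deg = 1) {D D' : Divisor K F} (h : D ≤ D')
    (hfin : Module.Finite K (L D)) : Module.Finite K (L D') :=
  (finrank_le_of_le hdeg _ D D' h (Int.self_le_toNat _) hfin).1

theorem finrank_le_add (hdeg : ∀ v : Place K F, v.deg = 1) {D D' : Divisor K F} (h : D ≤ D')
    (hfin : Module.Finite K (L D)) :
    (Module.finrank K (L D') : ℤ) ≤ Module.finrank K (L D) +
          (Divisor.degree D' - Divisor.degree D) :=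
  (finrank_le_of_le hdeg _ D D' h (Int.self_le_toNat _) hfin).2









/-! ## Hypotheses -/

/-- The facts about places used in the proof of Riemann's theorem. -/
structure Hyp (K F : Type*) [Field K] [Field F] [Algebra K F] : Prop where
  principal : ∀ f : F, f ≠ 0 → ∃ D : Divisor K F, (∀ v, D v = v.ord f) ∧ Divisor.degree D = 0
  deg_one : ∀ v : Place K F, v.deg = 1
  exists_pole : ∀ f : F, f ∉ Set.range (algebraMap K F) → ∃ v : Place K F, v.ord f < 0

variable (H : Hyp K F)
include H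

theorem L_zero_eq : L (0 : Divisor K F) = Submodule.span K {(1 : F)} := by
  apply le_antisymm
  · intro f hf
    by_cases hfr : f ∈ Set.range (algebraMap K F)
    · obtain ⟨c, rfl⟩ := hfr
      rw [Submodule.mem_span_singleton]
      exact ⟨c, by rw [Algebra.smul_def, mul_one]⟩
    · exfalso
      obtain ⟨v, hv⟩ := H.exists_pole f hfr
      have h1 := (mem_riemannRochSpace_iff.mp hf) v
      rcases h1 with rfl | h1
      · simp at hv
      · simp only [Finsupp.coe_zero, Pi.zero_apply, neg_zero] at h1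
        omega
  · rw [Submodule.span_singleton_le_iff_mem]
    intro v
    simp

theorem finite_L_zero : Module.Finite K (L (0 : Divisor K F)) := by
  rw [L_zero_eq H]
  infer_instance

theorem finrank_L_zero : Module.finrank K (L (0 : Divisor K F)) = 1 := by
  rw [L_zero_eq H]
  exact finrank_span_singleton one_ne_zero

theorem finite_L (D : Divisor K F) : Module.Finite K (L D) := by
  have h1 : Module.Finite K (L (D ⊔ 0)) := finite_of_le H.deg_one le_sup_right (finite_L_zero H)
  exact Submodule.finiteDimensional_of_le (L_mono (le_sup_left : D ≤ D ⊔ 0))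

theorem L_eq_bot_of_degree_neg {D : Divisor K F} (hD : Divisor.degree D < 0) : L D = ⊥ := by
  rw [eq_bot_iff]
  intro f hf
  rw [Submodule.mem_bot]
  by_contra hf0
  obtain ⟨E, hE, hE0⟩ := H.principal f hf0
  have h1 : 0 ≤ D + E := by
    rw [Finsupp.le_def]
    intro v
    have := (mem_riemannRochSpace_iff.mp hf) v
    rcases this with h | h
    · exact absurd h hf0
    · rw [Finsupp.add_apply, hE v]
      simp only [Finsupp.coe_zero, Pi.zero_apply]
      omega
  have h2 := degree_nonneg h1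
  rw [map_add, hE0] at h2
  omega

omit H in
/-- Multiplication by `f` maps `L(D + div f)` into `L(D)`. -/
theorem mul_mem_L {D E : Divisor K F} {f : F} (hf : f ≠ 0) (hE : ∀ v, E v = v.ord f) {g : F}
    (hg : g ∈ L (D + E)) : g * f ∈ L D := by
  intro v
  have h1 := hg v
  rw [Finsupp.add_apply, hE v] at h1
  rw [map_mul, v.adicValuation_eq_exp_neg_ord hf]
  calc v.adicValuation g * exp (-v.ord f) ≤ exp (D v + v.ord f) * exp (-v.ord f) := by gcongr
    _ = exp (D v) := by rw [← exp_add]; congr 1; ring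

omit H in
theorem mul_inv_mem_L {D E : Divisor K F} {f : F} (hf : f ≠ 0) (hE : ∀ v, E v = v.ord f) {g : F}
    (hg : g ∈ L D) : g * f⁻¹ ∈ L (D + E) := by
  intro v
  have h1 := hg v
  rw [Finsupp.add_apply, hE v]
  rw [map_mul, v.adicValuation_eq_exp_neg_ord (inv_ne_zero hf), Place.ord_inv, neg_neg]
  calc v.adicValuation g * exp (v.ord f) ≤ exp (D v) * exp (v.ord f) := by gcongr
    _ = exp (D v + v.ord f) := by rw [← exp_add]

theorem finrank_L_add_principal {D E : Divisor K F} {f : F} (hf : f ≠ 0)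
    (hE : ∀ v, E v = v.ord f) :
    Module.finrank K (L (D + E)) = Module.finrank K (L D) := by
  have hfin1 := finite_L H D
  have hfin2 := finite_L H (D + E)
  apply le_antisymm
  · let φ : L (D + E) →ₗ[K] L D :=
      { toFun := fun g => ⟨g.1 * f, mul_mem_L hf hE g.2⟩
        map_add' := fun a b => by ext; simp [add_mul]
        map_smul' := fun c a => by ext; simp [Algebra.smul_def, mul_assoc] }
    refine LinearMap.finrank_le_finrank_of_injective (f := φ) ?_
    intro a b hab
    have := congrArg Subtype.val hab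
    simp only [φ, LinearMap.coe_mk, AddHom.coe_mk] at this
    exact Subtype.ext (mul_right_cancel₀ hf this)
  · let ψ : L D →ₗ[K] L (D + E) :=
      { toFun := fun g => ⟨g.1 * f⁻¹, mul_inv_mem_L hf hE g.2⟩
        map_add' := fun a b => by ext; simp [add_mul]
        map_smul' := fun c a => by ext; simp [Algebra.smul_def, mul_assoc] }
    refine LinearMap.finrank_le_finrank_of_injective (f := ψ) ?_
    intro a b hab
    have := congrArg Subtype.val hab
    simp only [ψ, LinearMap.coe_mk, AddHom.coe_mk] at this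
    exact Subtype.ext (mul_right_cancel₀ (inv_ne_zero hf) this)

theorem finrank_L_le {D : Divisor K F} (hD : 0 ≤ Divisor.degree D) :
    (Module.finrank K (L D) : ℤ) ≤ Divisor.degree D + 1 := by
  by_cases hbot : L D = ⊥
  · rw [hbot, finrank_bot]
    simp only [Nat.cast_zero]
    omega
  · obtain ⟨f, hf, hf0⟩ := (Submodule.ne_bot_iff _).mp hbot
    obtain ⟨E, hE, hE0⟩ := H.principal f hf0
    have h1 : 0 ≤ D + E := by
      rw [Finsupp.le_def]
      intro v
      have := (mem_riemannRochSpace_iff.mp hf) v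
      rcases this with h | h
      · exact absurd h hf0
      · rw [Finsupp.add_apply, hE v]
        simp only [Finsupp.coe_zero, Pi.zero_apply]
        omega
    have h2 := finrank_le_add H.deg_one h1 (finite_L_zero H)
    rw [finrank_L_zero H, map_zero, map_add, hE0, finrank_L_add_principal H hf0 hE] at h2
    simp only [Nat.cast_one, add_zero, sub_zero] at h2
    omega



end Fermat.Agent.S27.REDu.H42

end
end
-- ==== END Fermat.Agent.S27.REDu.H42_RiemannBasic

-- ==== BEGIN Fermat.Agent.S27.REDu.H51_Ord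
section

/-!
# FF-B, piece P0 (helper51): elementary API for `Place.ord`

`OrdGe v n f` says `v(f) ≥ n`, where `f = 0` is allowed (`v(0) = ∞`).  It is closed under sums and
compatible with products.  `ord_add_eq` is the strict triangle inequality.  Everything here holds for
arbitrary fields `K ⊆ F`.
-/

set_option autoImplicit false
set_option linter.style.haveILetI false

universe uC uCf uK uR uF uL uE uk ukap uFp uFt uFtp uiot uEp uKp ux3b1

noncomputable section

open AlgebraicCurve WithZero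

namespace Fermat.Agent.S27.REDu.H51

variable {K F : Type*} [Field K] [Field F] [Algebra K F]

/-- `v(f) ≥ n`, with the convention `v(0) = ∞`. -/
def OrdGe (v : Place K F) (n : ℤ) (f : F) : Prop := f = 0 ∨ n ≤ v.ord f

theorem ordGe_iff (v : Place K F) (n : ℤ) (f : F) :
    OrdGe v n f ↔ v.adicValuation f ≤ exp (-n) := by
  rw [v.adicValuation_le_exp_iff, neg_neg]
  rfl

@[simp]
theorem ordGe_zero (v : Place K F) (n : ℤ) : OrdGe v n (0 : F) := Or.inl rfl

theorem ordGe_of_le (v : Place K F) {n : ℤ} {f : F} (h : n ≤ v.ord f) : OrdGe v n f := Or.inr h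

theorem OrdGe.le {v : Place K F} {n : ℤ} {f : F} (h : OrdGe v n f) (hf : f ≠ 0) : n ≤ v.ord f :=
  h.resolve_left hf

theorem OrdGe.mono {v : Place K F} {n m : ℤ} {f : F} (h : OrdGe v n f) (hmn : m ≤ n) :
    OrdGe v m f :=
  h.imp id fun h' => hmn.trans h'

theorem OrdGe.add {v : Place K F} {n : ℤ} {f g : F} (hf : OrdGe v n f) (hg : OrdGe v n g) :
    OrdGe v n (f + g) := by
  rw [ordGe_iff] at hf hg ⊢
  exact (Valuation.map_add _ _ _).trans (max_le hf hg)

theorem OrdGe.neg {v : Place K F} {n : ℤ} {f : F} (hf : OrdGe v n f) : OrdGe v n (-f) := by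
  rw [ordGe_iff] at hf ⊢
  rwa [Valuation.map_neg]

theorem OrdGe.sub {v : Place K F} {n : ℤ} {f g : F} (hf : OrdGe v n f) (hg : OrdGe v n g) :
    OrdGe v n (f - g) := by
  rw [sub_eq_add_neg]
  exact hf.add hg.neg

theorem OrdGe.mul {v : Place K F} {n m : ℤ} {f g : F} (hf : OrdGe v n f) (hg : OrdGe v m g) :
    OrdGe v (n + m) (f * g) := by
  rcases eq_or_ne f 0 with rfl | hf0
  · simp
  rcases eq_or_ne g 0 with rfl | hg0
  · simp
  refine Or.inr ?_
  rw [v.ord_mul hf0 hg0]
  exact add_le_add (hf.le hf0) (hg.le hg0)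

theorem ordGe_sum {ι : Type*} (v : Place K F) (n : ℤ) (s : Finset ι) (f : ι → F)
    (h : ∀ i ∈ s, OrdGe v n (f i)) : OrdGe v n (∑ i ∈ s, f i) := by
  classical
  induction s using Finset.induction_on with
  | empty => simp
  | insert a s ha ih =>
    rw [Finset.sum_insert ha]
    exact (h a (Finset.mem_insert_self a s)).add
      (ih fun i hi => h i (Finset.mem_insert_of_mem hi))

/-- Constants have order zero. -/
theorem ord_algebraMap (v : Place K F) (a : K) : v.ord (algebraMap K F a) = 0 := by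
  rcases eq_or_ne a 0 with rfl | ha
  · simp
  · have hu : IsUnit (algebraMap K v.toValuationSubring a) := (ha.isUnit).map _
    have := v.ord_coe_unit hu.unit
    simpa using this

theorem ordGe_algebraMap (v : Place K F) (a : K) : OrdGe v 0 (algebraMap K F a) :=
  Or.inr (ord_algebraMap v a).ge

theorem ordGe_one (v : Place K F) : OrdGe v 0 (1 : F) := Or.inr (by simp)

theorem ord_pow (v : Place K F) (f : F) (n : ℕ) : v.ord (f ^ n) = n * v.ord f := by
  have := v.ord_zpow f (n : ℤ)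
  rwa [zpow_natCast] at this

theorem ord_div (v : Place K F) {f g : F} (hf : f ≠ 0) (hg : g ≠ 0) :
    v.ord (f / g) = v.ord f - v.ord g := by
  rw [div_eq_mul_inv, v.ord_mul hf (inv_ne_zero hg), v.ord_inv]
  ring

theorem ord_neg (v : Place K F) (f : F) : v.ord (-f) = v.ord f := by
  unfold Place.ord
  rw [Valuation.map_neg]

theorem ord_sub_comm (v : Place K F) (f g : F) : v.ord (f - g) = v.ord (g - f) := by
  rw [← ord_neg, neg_sub]

theorem ne_zero_of_ord_ne_zero (v : Place K F) {f : F} (h : v.ord f ≠ 0) : f ≠ 0 := by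
  rintro rfl
  exact h v.ord_zero

/-- Membership in the valuation ring. -/
theorem ordGe_zero_iff_mem (v : Place K F) (f : F) :
    OrdGe v 0 f ↔ f ∈ v.toValuationSubring := by
  constructor
  · rintro (rfl | h)
    · exact zero_mem _
    · rcases eq_or_ne f 0 with rfl | hf
      · exact zero_mem _
      obtain ⟨π, hπ⟩ := IsDiscreteValuationRing.exists_irreducible v.toValuationSubring
      obtain ⟨u, hu⟩ := v.exists_unit_mul_zpow hf hπ
      rw [hu, show v.ord f = (((v.ord f).toNat : ℕ) : ℤ) from (Int.toNat_of_nonneg h).symm,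
        zpow_natCast]
      exact mul_mem (u : v.toValuationSubring).2 (pow_mem (π : v.toValuationSubring).2 _)
  · intro hf
    rw [ordGe_iff, neg_zero, exp_zero]
    exact v.adicValuation_le_one_of_mem hf

theorem mem_iff_ord_nonneg (v : Place K F) {f : F} (hf : f ≠ 0) :
    f ∈ v.toValuationSubring ↔ 0 ≤ v.ord f := by
  rw [← ordGe_zero_iff_mem]
  exact ⟨fun h => h.le hf, fun h => Or.inr h⟩

theorem not_mem_iff_ord_neg (v : Place K F) {f : F} :
    f ∉ v.toValuationSubring ↔ v.ord f < 0 := by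
  rw [← ordGe_zero_iff_mem]
  constructor
  · intro h
    by_contra h'
    exact h (Or.inr (not_lt.mp h'))
  · rintro h (rfl | h')
    · simp at h
    · omega

/-- Strict triangle inequality: a summand of strictly smallest order decides the order. -/
theorem ord_add_eq (v : Place K F) {f g : F} (hf : f ≠ 0) (hg : OrdGe v (v.ord f + 1) g) :
    f + g ≠ 0 ∧ v.ord (f + g) = v.ord f := by
  have hlt : v.adicValuation g < v.adicValuation f := by
    rw [ordGe_iff] at hg
    refine hg.trans_lt ?_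
    rw [v.adicValuation_eq_exp_neg_ord hf, exp_lt_exp]
    omega
  have heq : v.adicValuation (f + g) = v.adicValuation f :=
    Valuation.map_add_eq_of_lt_left _ hlt
  have hne : f + g ≠ 0 := by
    intro h0
    rw [h0, map_zero] at heq
    exact v.adicValuation_ne_zero hf heq.symm
  refine ⟨hne, ?_⟩
  unfold Place.ord
  rw [heq]

theorem ord_add_eq' (v : Place K F) {f g : F} (hf : f ≠ 0) (hg : OrdGe v (v.ord f + 1) g) :
    g + f ≠ 0 ∧ v.ord (g + f) = v.ord f := by
  rw [add_comm]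
  exact ord_add_eq v hf hg

/-- There is a uniformizer. -/
theorem exists_uniformizer (v : Place K F) : ∃ t : F, t ≠ 0 ∧ v.ord t = 1 := by
  obtain ⟨π, hπ⟩ := IsDiscreteValuationRing.exists_irreducible v.toValuationSubring
  refine ⟨(π : F), ?_, v.ord_coe_irreducible hπ⟩
  simpa [ne_eq, ZeroMemClass.coe_eq_zero] using hπ.ne_zero

/-- Elements of every prescribed order exist. -/
theorem exists_ord_eq (v : Place K F) (n : ℤ) : ∃ t : F, t ≠ 0 ∧ v.ord t = n := by
  obtain ⟨t, ht0, ht⟩ := exists_uniformizer v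
  exact ⟨t ^ n, zpow_ne_zero n ht0, by rw [v.ord_zpow, ht, mul_one]⟩

theorem OrdGe.pos_of_ne {v : Place K F} {f : F} (h : OrdGe v 1 f) (hf : f ≠ 0) : 0 < v.ord f := by
  have := h.le hf
  omega

theorem ordGe_pow {v : Place K F} {n : ℤ} {f : F} (hf : OrdGe v n f) (k : ℕ) :
    OrdGe v (k * n) (f ^ k) := by
  rcases eq_or_ne f 0 with rfl | hf0
  · rcases Nat.eq_zero_or_pos k with rfl | hk
    · simp only [pow_zero, Nat.cast_zero, zero_mul]
      exact ordGe_one v
    · rw [zero_pow hk.ne']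
      exact ordGe_zero v _
  · refine Or.inr ?_
    rw [ord_pow]
    exact mul_le_mul_of_nonneg_left (hf.le hf0) (Int.natCast_nonneg k)

end Fermat.Agent.S27.REDu.H51

end
end
-- ==== END Fermat.Agent.S27.REDu.H51_Ord

-- ==== BEGIN Fermat.Agent.S27.Zeta.Defs
section

set_option autoImplicit false

noncomputable section

namespace Fermat.Agent.S27.Zeta

universe u v

variable {Pl : Type u}

/-- action of a permutation of the places on divisors: `act σ (∑ n_P P) = ∑ n_P σ(P)` -/
def act (σ : Equiv.Perm Pl) : (Pl →₀ ℤ) →+ (Pl →₀ ℤ) := Finsupp.mapDomain.addMonoidHom σ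

theorem act_apply (σ : Equiv.Perm Pl) (D : Pl →₀ ℤ) : act σ D = Finsupp.mapDomain σ D := rfl

@[simp] theorem act_single (σ : Equiv.Perm Pl) (P : Pl) (n : ℤ) :
    act σ (Finsupp.single P n) = Finsupp.single (σ P) n := by
  rw [act_apply, Finsupp.mapDomain_single]

theorem act_mul (σ τ : Equiv.Perm Pl) (D : Pl →₀ ℤ) : act (σ * τ) D = act σ (act τ D) := by
  rw [act_apply, act_apply, act_apply, ← Finsupp.mapDomain_comp]
  rfl

theorem act_one (D : Pl →₀ ℤ) : act (1 : Equiv.Perm Pl) D = D := by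
  rw [act_apply]
  exact Finsupp.mapDomain_id

theorem act_pow (σ : Equiv.Perm Pl) (m : ℕ) (D : Pl →₀ ℤ) : act (σ ^ m) D = (⇑(act σ))^[m] D := by
  induction m with
  | zero => rw [pow_zero, act_one]; rfl
  | succ m ih => rw [pow_succ', act_mul, ih, Function.iterate_succ_apply']

/-- the degree (sum of the coefficients; all places have degree `1`) -/
def deg : (Pl →₀ ℤ) →+ ℤ := Finsupp.liftAddHom fun _ => AddMonoidHom.id ℤ

@[simp] theorem deg_single (P : Pl) (n : ℤ) : deg (Finsupp.single P n) = n := by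
  simp [deg]

theorem deg_act (σ : Equiv.Perm Pl) (D : Pl →₀ ℤ) : deg (act σ D) = deg D := by
  induction D using Finsupp.induction with
  | zero => simp
  | single_add P n D _ _ ih => rw [map_add, map_add, map_add, ih, act_single, deg_single, deg_single]

/-- the divisor `P + φP + … + φ^(j-1) P` (it is `φ`-invariant if `φ^j P = P`) -/
def orbSum (φ : Equiv.Perm Pl) (j : ℕ) (P : Pl) : Pl →₀ ℤ :=
  ∑ i ∈ Finset.range j, Finsupp.single ((φ ^ i) P) 1

/-- the `φ`-invariant effective divisors of degree `n` -/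
def effInv (φ : Equiv.Perm Pl) (n : ℕ) : Set (Pl →₀ ℤ) :=
  {E | 0 ≤ E ∧ act φ E = E ∧ deg E = n}

/-- the places fixed by `φ^j` -/
def fixPts (φ : Equiv.Perm Pl) (j : ℕ) : Set Pl := {P | (φ ^ j) P = P}

/-- The abstract zeta system. -/
structure ZSys (Pl : Type u) where
  /-- Frobenius on the places -/
  φ : Equiv.Perm Pl
  /-- the degree of a divisor -/
  degree : (Pl →₀ ℤ) →+ ℤ
  /-- the principal divisors -/
  Princ : AddSubgroup (Pl →₀ ℤ)
  /-- `l(D) = dim L(D)` -/
  l : (Pl →₀ ℤ) → ℕ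
  /-- the cardinality of the finite field -/
  Q : ℕ
  /-- the genus -/
  g : ℕ
  /-- a canonical divisor -/
  W : Pl →₀ ℤ
  two_le : 2 ≤ Q
  degree_single : ∀ (P : Pl) (n : ℤ), degree (Finsupp.single P n) = n
  orbit : ∀ P : Pl, ∃ m : ℕ, 0 < m ∧ (φ ^ m) P = P
  fixfin : ∀ m : ℕ, 0 < m → (fixPts φ m).Finite
  fixed : ∃ P₀ : Pl, φ P₀ = P₀
  princ_deg : ∀ D ∈ Princ, degree D = 0
  princ_act : ∀ D ∈ Princ, act φ D ∈ Princ
  l_princ : ∀ D E : Pl →₀ ℤ, E ∈ Princ → l (D + E) = l D
  l_act : ∀ D : Pl →₀ ℤ, l (act φ D) = l D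
  l_neg : ∀ D : Pl →₀ ℤ, degree D < 0 → l D = 0
  l_zero : l 0 = 1
  rr : ∀ D : Pl →₀ ℤ, (l D : ℤ) = degree D + 1 - g + l (W - D)
  cnt : ∀ m : ℕ, 0 < m → ∀ D : Pl →₀ ℤ, act (φ ^ m) D - D ∈ Princ →
    Nat.card {E : Pl →₀ ℤ // 0 ≤ E ∧ act (φ ^ m) E = E ∧ E - D ∈ Princ} * (Q ^ m - 1)
      = Q ^ (m * l D) - 1

namespace ZSys

variable (S : ZSys Pl)

theorem degree_eq : S.degree = deg := by
  apply Finsupp.addHom_ext
  intro P n
  rw [S.degree_single, deg_single]

theorem degree_act (σ : Equiv.Perm Pl) (D : Pl →₀ ℤ) : S.degree (act σ D) = S.degree D := by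
  rw [S.degree_eq, deg_act]

/-- the divisors of degree `0` -/
def degZero : AddSubgroup (Pl →₀ ℤ) := S.degree.ker

/-- the group of divisor classes of degree `0` -/
abbrev Cl0 : Type u := S.degZero ⧸ S.Princ.addSubgroupOf S.degZero

/-- Frobenius on the divisors of degree `0` -/
def frobDegZero : S.degZero →+ S.degZero :=
  ((act S.φ).comp S.degZero.subtype).codRestrict S.degZero fun D => by
    show S.degree (act S.φ D) = 0
    rw [S.degree_act]
    exact D.2

@[simp] theorem coe_frobDegZero (D : S.degZero) :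
    (S.frobDegZero D : Pl →₀ ℤ) = act S.φ (D : Pl →₀ ℤ) := rfl

/-- Frobenius on the classes of degree `0` -/
def frob : S.Cl0 →+ S.Cl0 :=
  QuotientAddGroup.map _ _ S.frobDegZero (by
    rintro ⟨D, hD0⟩ hD
    simp only [AddSubgroup.mem_comap, AddSubgroup.mem_addSubgroupOf] at hD ⊢
    exact S.princ_act D hD)

theorem frob_mk (D : S.degZero) :
    S.frob (QuotientAddGroup.mk D) = QuotientAddGroup.mk (S.frobDegZero D) := rfl

/-- the `φ`-invariant effective divisors of degree `n` of the system -/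
def invEff (n : ℕ) : Set (Pl →₀ ℤ) := {E | 0 ≤ E ∧ act S.φ E = E ∧ S.degree E = n}

theorem invEff_eq (n : ℕ) : S.invEff n = effInv S.φ n := by
  unfold invEff effInv
  rw [S.degree_eq]

/-- the system of `φ^m`, over the field with `Q^m` elements -/
def pow (m : ℕ) (hm : 0 < m) : ZSys Pl where
  φ := S.φ ^ m
  degree := S.degree
  Princ := S.Princ
  l := S.l
  Q := S.Q ^ m
  g := S.g
  W := S.W
  two_le := by
    calc 2 ≤ S.Q := S.two_le
      _ = S.Q ^ 1 := (pow_one _).symm
      _ ≤ S.Q ^ m := Nat.pow_le_pow_right (by have := S.two_le; omega) hm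
  degree_single := S.degree_single
  orbit := fun P => by
    obtain ⟨n, hn, h⟩ := S.orbit P
    refine ⟨n, hn, ?_⟩
    rw [← pow_mul, mul_comm, pow_mul]
    have : ∀ j : ℕ, ((S.φ ^ n) ^ j) P = P := by
      intro j
      induction j with
      | zero => rfl
      | succ j ih => rw [pow_succ, Equiv.Perm.mul_apply, h, ih]
    exact this m
  fixfin := fun j hj => by
    have := S.fixfin (m * j) (Nat.mul_pos hm hj)
    unfold fixPts at this ⊢
    simpa only [← pow_mul] using this
  fixed := by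
    obtain ⟨P₀, h⟩ := S.fixed
    refine ⟨P₀, ?_⟩
    have : ∀ j : ℕ, (S.φ ^ j) P₀ = P₀ := by
      intro j
      induction j with
      | zero => rfl
      | succ j ih => rw [pow_succ, Equiv.Perm.mul_apply, h, ih]
    exact this m
  princ_deg := S.princ_deg
  princ_act := fun D hD => by
    have : ∀ j : ℕ, act (S.φ ^ j) D ∈ S.Princ := by
      intro j
      induction j with
      | zero => rw [pow_zero, act_one]; exact hD
      | succ j ih => rw [pow_succ', act_mul]; exact S.princ_act _ ih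
    exact this m
  l_princ := S.l_princ
  l_act := fun D => by
    have : ∀ j : ℕ, S.l (act (S.φ ^ j) D) = S.l D := by
      intro j
      induction j with
      | zero => rw [pow_zero, act_one]
      | succ j ih => rw [pow_succ', act_mul, S.l_act, ih]
    exact this m
  l_neg := S.l_neg
  l_zero := S.l_zero
  rr := S.rr
  cnt := fun j hj D hD => by
    have e : (S.φ ^ m) ^ j = S.φ ^ (m * j) := (pow_mul S.φ m j).symm
    have eQ : (S.Q ^ m) ^ j = S.Q ^ (m * j) := (pow_mul S.Q m j).symm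
    have eQ2 : (S.Q ^ m) ^ (j * S.l D) = S.Q ^ (m * j * S.l D) := by
      rw [← pow_mul, mul_assoc]
    rw [e] at hD ⊢
    rw [eQ, eQ2]
    exact S.cnt (m * j) (Nat.mul_pos hm hj) D hD

@[simp] theorem pow_φ (m : ℕ) (hm : 0 < m) : (S.pow m hm).φ = S.φ ^ m := rfl
@[simp] theorem pow_Q (m : ℕ) (hm : 0 < m) : (S.pow m hm).Q = S.Q ^ m := rfl
@[simp] theorem pow_g (m : ℕ) (hm : 0 < m) : (S.pow m hm).g = S.g := rfl
@[simp] theorem pow_degree (m : ℕ) (hm : 0 < m) : (S.pow m hm).degree = S.degree := rfl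
@[simp] theorem pow_Princ (m : ℕ) (hm : 0 < m) : (S.pow m hm).Princ = S.Princ := rfl

theorem act_mem_degZero (σ : Equiv.Perm Pl) {D : Pl →₀ ℤ} (hD : D ∈ S.degZero) :
    act σ D ∈ S.degZero := by
  show S.degree (act σ D) = 0
  rw [S.degree_act]
  exact hD

theorem iterate_frob_mk (j : ℕ) (D : S.degZero) :
    (⇑S.frob)^[j] (QuotientAddGroup.mk D : S.Cl0) =
      QuotientAddGroup.mk (⟨act (S.φ ^ j) D, S.act_mem_degZero _ D.2⟩ : S.degZero) := by
  induction j with
  | zero =>
    rw [Function.iterate_zero, id_eq]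
    congr 1
    exact Subtype.ext (by simp only [pow_zero, act_one])
  | succ j ih =>
    rw [Function.iterate_succ_apply', ih, frob_mk]
    congr 1
    exact Subtype.ext (by simp only [coe_frobDegZero, pow_succ', act_mul])

/-- `Cl0` of the power system is `Cl0` (definitionally), and its Frobenius is the `m`-th iterate. -/
theorem pow_frob (m : ℕ) (hm : 0 < m) (x : S.Cl0) :
    (S.pow m hm).frob x = (⇑S.frob)^[m] x := by
  obtain ⟨D, rfl⟩ := QuotientAddGroup.mk_surjective x
  rw [S.iterate_frob_mk m D]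
  rfl

end ZSys

/-! ## The leaves -/

/-- **Z-FIN**: finitely many invariant effective divisors of given degree; every class is fixed by
a power of Frobenius; finitely many classes fixed by a given power; every invariant class of
degree `0` is the class of an invariant divisor.
(Proof: the support of `E ∈ invEff n` is in `⋃_{j ≤ n} fixPts φ j`; a divisor has finite support
and places have finite orbits; `D + g P₀` has `l ≥ 1` by `rr`, so `cnt` gives an invariant
effective divisor in its class, and `invEff g` is finite.) -/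
def Stmt_Z_Fin : Prop :=
  ∀ (Pl : Type u) (S : ZSys Pl),
    (∀ n : ℕ, (S.invEff n).Finite) ∧
    (∀ x : S.Cl0, ∃ m : ℕ, 0 < m ∧ (⇑S.frob)^[m] x = x) ∧
    (∀ m : ℕ, 0 < m → Finite {x : S.Cl0 // (⇑S.frob)^[m] x = x}) ∧
    (∀ x : S.Cl0, S.frob x = x →
      ∃ D : S.degZero, act S.φ (D : Pl →₀ ℤ) = D ∧ QuotientAddGroup.mk D = x)

/-- **Z-LOGDER** (pure combinatorics; the logarithmic derivative of the Euler product
`∑_E χ(E) t^(deg E) = ∏_O (1 - χ(O) t^|O|)⁻¹`): for `χ` multiplicative on invariant effective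
divisors, `n A_n(χ) = ∑_{j=1}^n S_j(χ) A_{n-j}(χ)` with `A_n(χ) = ∑_{E ∈ effInv n} χ(E)` and
`S_j(χ) = ∑_{P ∈ Fix φ^j} χ(P + φP + … + φ^(j-1)P)`.
(Double counting: for `D ∈ effInv n` and an orbit `O` of size `e` with multiplicity `d` in `D`,
the triples `(j = e r, P ∈ O, E = D - r O)`, `1 ≤ r ≤ d`, are `e d = ∑_{P ∈ O} D(P)` in number.) -/
def Stmt_Z_LogDer : Prop :=
  ∀ (Pl : Type u) (φ : Equiv.Perm Pl),
    (∀ P : Pl, ∃ m : ℕ, 0 < m ∧ (φ ^ m) P = P) → (∀ m : ℕ, 0 < m → (fixPts φ m).Finite) →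
    ∀ (R : Type v) [CommRing R] (χ : (Pl →₀ ℤ) → R), χ 0 = 1 →
      (∀ D E : Pl →₀ ℤ, 0 ≤ D → 0 ≤ E → act φ D = D → act φ E = E → χ (D + E) = χ D * χ E) →
      ∀ n : ℕ, (n : R) * (∑ᶠ E ∈ effInv φ n, χ E) =
        ∑ j ∈ Finset.Icc 1 n,
          (∑ᶠ P ∈ fixPts φ j, χ (orbSum φ j P)) * (∑ᶠ E ∈ effInv φ (n - j), χ E)

/-- **Z-RAT** (rationality and the functional equation at the top coefficient):
`(1 - t)(1 - Q t) ∑_n A_n t^n = L(t)` is a polynomial of degree `≤ 2g` with `L(0) = 1`,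
coefficient `Q^g` at `t^(2g)`, and `L(1) = h = #(Cl⁰)^φ`.
(Proof: `A_n = ∑_{c} (Q^(l(c)) - 1)/(Q - 1)` over the `h` invariant classes of degree `n`
(`cnt`, `m = 1`; classes of degree `n` ↔ classes of degree `0` by `P₀`); `l(c) = n + 1 - g` for
`n ≥ 2g - 1`, and in degree `2g - 2`: `l(c) = g - 1` except `l([W]) = g` (`rr`, `l_neg`,
`l_zero`, `l_act`); so `(Q-1) L = (1-t)(1-Qt) F + h Q^g t^(2g-1) (1-t) - h (1-Qt)`,
`F = ∑_{n ≤ 2g-2} (∑_c Q^(l(c))) t^n`.) -/
def Stmt_Z_Rat : Prop :=
  ∀ (Pl : Type u) (S : ZSys Pl),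
    ∃ L : Polynomial ℤ, L.natDegree ≤ 2 * S.g ∧ L.coeff (2 * S.g) = (S.Q : ℤ) ^ S.g ∧
      L.coeff 0 = 1 ∧ L.eval 1 = (Nat.card {x : S.Cl0 // S.frob x = x} : ℤ) ∧
      (L : PowerSeries ℤ) =
        (1 - PowerSeries.X) * (1 - PowerSeries.C (S.Q : ℤ) * PowerSeries.X) *
          PowerSeries.mk fun n => ((S.invEff n).ncard : ℤ)

/-- **Z-EXT** (extension of constants): there is an integer matrix `A` of size `2g` with
`det A = Q^g` and `#(Cl⁰)^(φ^m) = det(1 - A^m)` for all `m ≥ 1`.
(Proof: `A` = companion matrix of `T^(2g) L(1/T)`, `L` from `Stmt_Z_Rat`.  `Stmt_Z_LogDer` with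
`χ = 1` for `φ` gives `#Fix(φ^j) = 1 + Q^j - tr(A^j)`; the same for `φ^m` (`S.pow m`) gives
`t L_m'/L_m = -∑_j tr(A^(m j)) t^j`, so `L_m(t) = det(1 - t A^m)`, and `h_m = L_m(1)`.) -/
def Stmt_Z_Ext : Prop :=
  ∀ (Pl : Type u) (S : ZSys Pl),
    ∃ A : Matrix (Fin (2 * S.g)) (Fin (2 * S.g)) ℤ, A.det = (S.Q : ℤ) ^ S.g ∧
      ∀ m : ℕ, 0 < m →
        (Nat.card {x : S.Cl0 // (⇑S.frob)^[m] x = x} : ℤ) = (1 - A ^ m).det

/-- **Z-NORM** (Lang's theorem for `Pic⁰`, in the form "the norm is surjective"): every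
`φ`-invariant class of degree `0` is `y + φy + … + φ^(m-1) y` for a `φ^m`-invariant class `y`.
(Proof by `L`-functions: if not, there is a character `χ` of the finite group
(invariant divisors)/(norms + principal) which is non-trivial on some invariant class of degree
`0`.  Then `∑_{E ∈ effInv n} χ(E) ζ^n = 0` for `n ≥ 2g - 1` and every `ζ` with `ζ^m = 1`
(`cnt`, `rr`), so `Π(t) = ∏_ζ L(ζ t, χ)` is a polynomial; by `Stmt_Z_LogDer` its logarithmic
derivative is `m ∑_{m ∣ j} #Fix(φ^j) t^j`, the one of `Z_m(t^m)`, `Z_m` the zeta function of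
`φ^m`; so `Π(t) = Z_m(t^m)`, which is not a polynomial (`n P₀` is invariant effective).) -/
def Stmt_Z_Norm : Prop :=
  ∀ (Pl : Type u) (S : ZSys Pl) (m : ℕ), 0 < m → ∀ x : S.Cl0, S.frob x = x →
    ∃ y : S.Cl0, (⇑S.frob)^[m] y = y ∧ ∑ i ∈ Finset.range m, (⇑S.frob)^[i] y = x

/-- **Z-DIVP** (pure group theory): a group which is the union of the finite groups of fixed
points of the powers of `φ`, with finite `ℓ`-torsion and surjective norms, is `ℓ`-divisible.
(Proof: `G/ℓG` is finite (`#G_m/ℓG_m = #G_m[ℓ] ≤ #G[ℓ]`), so `φ^m₀ = 1` on it for some `m₀`;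
for `x` fixed by `φ^m`, `m₀ ∣ m`, write `x = ∑_{i<ℓ} φ^(m i) y`: modulo `ℓG` this is `ℓ y = 0`.) -/
def Stmt_Z_DivP : Prop :=
  ∀ (ℓ : ℕ) [Fact ℓ.Prime] (G : Type u) [AddCommGroup G] (φ : G →+ G),
    (∀ x : G, ∃ m : ℕ, 0 < m ∧ (⇑φ)^[m] x = x) →
    (∀ m : ℕ, 0 < m → Finite {x : G // (⇑φ)^[m] x = x}) →
    Finite {x : G // ℓ • x = 0} →
    (∀ m : ℕ, 0 < m → ∀ x : G, (⇑φ)^[m] x = x →
      ∃ y : G, (⇑φ)^[m * ℓ] y = y ∧ ∑ i ∈ Finset.range ℓ, (⇑φ)^[m * i] y = x) →
    ∀ x : G, ∃ y : G, ℓ • y = x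

/-- **Z-MAIN** (assembly: Z-FIN, Z-EXT, Z-NORM for the systems `S.pow m`, Z-DIVP and package IW
`Stmt_IW_Fin`, `Stmt_IW_Card` of `S27/IW/Defs.lean`): `#Cl⁰[ℓ^n] = ℓ^(2 g n)` for `ℓ ∤ Q`. -/
def Stmt_Z_Main : Prop :=
  ∀ (Pl : Type u) (S : ZSys Pl) (ℓ : ℕ) [Fact ℓ.Prime], ¬ ℓ ∣ S.Q → ∀ n : ℕ,
    Nat.card {x : S.Cl0 // (ℓ ^ n) • x = 0} = ℓ ^ (2 * S.g * n)

end Fermat.Agent.S27.Zeta

end
end
-- ==== END Fermat.Agent.S27.Zeta.Defs

-- ==== BEGIN Fermat.Agent.S27.Zeta.H30_NormChar
section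

set_option autoImplicit false

namespace Fermat.Agent.S27.Zeta.H30

/-- characters of a finite abelian group separate points -/
theorem norm_char_sep (G : Type*) [CommGroup G] [Finite G] (a : G) (ha : a ≠ 1) :
    ∃ φ : G →* ℂˣ, φ a ≠ 1 := by
  have h1 : NeZero (Monoid.exponent G) := ⟨Monoid.exponent_ne_zero_of_finite⟩
  have h2 : NeZero ((Monoid.exponent G : ℕ) : ℂ) :=
    ⟨by exact_mod_cast NeZero.ne (Monoid.exponent G)⟩
  exact CommGroup.exists_apply_ne_one_of_hasEnoughRootsOfUnity G ℂ ha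

/-- the points fixed by an endomorphism -/
def fixSub {G : Type*} [AddCommGroup G] (f : G →+ G) : AddSubgroup G where
  carrier := {x | f x = x}
  zero_mem' := map_zero f
  add_mem' := fun {a b} ha hb => by
    show f (a + b) = a + b
    rw [map_add, show f a = a from ha, show f b = b from hb]
  neg_mem' := fun {a} ha => by
    show f (-a) = -a
    rw [map_neg, show f a = a from ha]

theorem mem_fixSub {G : Type*} [AddCommGroup G] (f : G →+ G) (x : G) :
    x ∈ fixSub f ↔ f x = x := Iff.rfl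

theorem norm_char_exists {G : Type*} [AddCommGroup G] (H N : AddSubgroup G)
    (hfin : (H : Set G).Finite) (x : G) (hx : x ∈ H) (hxN : x ∉ N) :
    ∃ ψ : G → ℂ, ψ 0 = 1 ∧ (∀ a ∈ H, ∀ b ∈ H, ψ (a + b) = ψ a * ψ b) ∧
      (∀ a ∈ H, a ∈ N → ψ a = 1) ∧ ψ x ≠ 1 := by
  classical
  have : Finite H := hfin.to_subtype
  have : Finite (H ⧸ N.addSubgroupOf H) := inferInstance
  have : Finite (Multiplicative (H ⧸ N.addSubgroupOf H)) := inferInstance
  have hne : (Multiplicative.ofAdd (QuotientAddGroup.mk ⟨x, hx⟩ : H ⧸ N.addSubgroupOf H)) ≠ 1 := by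
    intro h
    have h' : (QuotientAddGroup.mk ⟨x, hx⟩ : H ⧸ N.addSubgroupOf H) = 0 := h
    rw [QuotientAddGroup.eq_zero_iff] at h'
    exact hxN h'
  obtain ⟨φ, hφ⟩ := norm_char_sep (Multiplicative (H ⧸ N.addSubgroupOf H)) _ hne
  refine ⟨fun g => if h : g ∈ H then
      ((φ (Multiplicative.ofAdd (QuotientAddGroup.mk ⟨g, h⟩ : H ⧸ N.addSubgroupOf H)) : ℂˣ) : ℂ)
      else 1, ?_, ?_, ?_, ?_⟩
  · show (if h : (0 : G) ∈ H then _ else _) = _
    rw [dif_pos H.zero_mem]
    have : (QuotientAddGroup.mk ⟨0, H.zero_mem⟩ : H ⧸ N.addSubgroupOf H) = 0 := rfl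
    rw [this, ofAdd_zero, map_one, Units.val_one]
  · intro a ha b hb
    show (if h : a + b ∈ H then _ else _) = (if h : a ∈ H then _ else _) * (if h : b ∈ H then _ else _)
    rw [dif_pos ha, dif_pos hb, dif_pos (H.add_mem ha hb)]
    have : (QuotientAddGroup.mk ⟨a + b, H.add_mem ha hb⟩ : H ⧸ N.addSubgroupOf H)
        = QuotientAddGroup.mk ⟨a, ha⟩ + QuotientAddGroup.mk ⟨b, hb⟩ := rfl
    rw [this, ofAdd_add, map_mul, Units.val_mul]
  · intro a ha haN
    show (if h : a ∈ H then _ else _) = _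
    rw [dif_pos ha]
    have : (QuotientAddGroup.mk ⟨a, ha⟩ : H ⧸ N.addSubgroupOf H) = 0 := by
      rw [QuotientAddGroup.eq_zero_iff]
      exact haN
    rw [this, ofAdd_zero, map_one, Units.val_one]
  · show (if h : x ∈ H then _ else _) ≠ _
    rw [dif_pos hx]
    intro h
    apply hφ
    exact Units.ext h

theorem norm_char_sum_zero {G : Type*} [AddCommGroup G] (H : AddSubgroup G)
    (hfin : (H : Set G).Finite) (ψ : G → ℂ)
    (hmul : ∀ a ∈ H, ∀ b ∈ H, ψ (a + b) = ψ a * ψ b) (x : G) (hx : x ∈ H) (hψx : ψ x ≠ 1) :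
    ∑ c ∈ hfin.toFinset, ψ c = 0 := by
  classical
  have h1 : ∑ c ∈ hfin.toFinset, ψ (c + x) = ∑ c ∈ hfin.toFinset, ψ c := by
    refine Finset.sum_bij' (fun c _ => c + x) (fun c _ => c - x) ?_ ?_ ?_ ?_ ?_
    · intro c hc
      rw [Set.Finite.mem_toFinset] at hc ⊢
      exact H.add_mem hc hx
    · intro c hc
      rw [Set.Finite.mem_toFinset] at hc ⊢
      exact H.sub_mem hc hx
    · intro c _
      exact add_sub_cancel_right c x
    · intro c _
      exact sub_add_cancel c x
    · intro c _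
      rfl
  have h2 : ∑ c ∈ hfin.toFinset, ψ (c + x) = (∑ c ∈ hfin.toFinset, ψ c) * ψ x := by
    rw [Finset.sum_mul]
    refine Finset.sum_congr rfl fun c hc => ?_
    rw [Set.Finite.mem_toFinset] at hc
    exact hmul c hc x hx
  have h3 : (∑ c ∈ hfin.toFinset, ψ c) * (ψ x - 1) = 0 := by
    rw [mul_sub, mul_one, ← h2, h1, sub_self]
  rcases mul_eq_zero.mp h3 with h | h
  · exact h
  · exact absurd (sub_eq_zero.mp h) hψx

end Fermat.Agent.S27.Zeta.H30

end
-- ==== END Fermat.Agent.S27.Zeta.H30_NormChar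

-- ==== BEGIN Fermat.Agent.S27.Zeta.H30_NormPS
section

set_option autoImplicit false

namespace Fermat.Agent.S27.Zeta.H30

open PowerSeries Finset

/-- uniqueness of the solution of `F' = T F` with given constant coefficient -/
theorem ps_ode_unique (T F G : PowerSeries ℂ) (hF : PowerSeries.derivative ℂ F = T * F)
    (hG : PowerSeries.derivative ℂ G = T * G)
    (h0 : PowerSeries.coeff 0 F = PowerSeries.coeff 0 G) : F = G := by
  have key : ∀ n : ℕ, ∀ k : ℕ, k ≤ n → PowerSeries.coeff k F = PowerSeries.coeff k G := by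
    intro n
    induction n with
    | zero =>
      intro k hk
      have : k = 0 := by omega
      rw [this]; exact h0
    | succ n ih =>
      intro k hk
      rcases Nat.lt_or_ge k (n + 1) with h | h
      · exact ih k (by omega)
      · have hk' : k = n + 1 := by omega
        rw [hk']
        have h1 := congrArg (PowerSeries.coeff n) hF
        have h2 := congrArg (PowerSeries.coeff n) hG
        rw [PowerSeries.coeff_derivative, PowerSeries.coeff_mul] at h1 h2
        have h3 : ∑ p ∈ antidiagonal n, PowerSeries.coeff p.1 T * PowerSeries.coeff p.2 F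
            = ∑ p ∈ antidiagonal n, PowerSeries.coeff p.1 T * PowerSeries.coeff p.2 G := by
          refine Finset.sum_congr rfl fun p hp => ?_
          have hp' : p.1 + p.2 = n := Finset.HasAntidiagonal.mem_antidiagonal.mp hp
          rw [ih p.2 (by omega)]
        have h4 : PowerSeries.coeff (n + 1) F * ((n : ℂ) + 1)
            = PowerSeries.coeff (n + 1) G * ((n : ℂ) + 1) := by rw [h1, h2, h3]
        have h5 : ((n : ℂ) + 1) ≠ 0 := by exact_mod_cast Nat.succ_ne_zero n
        exact mul_right_cancel₀ h5 h4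
  ext n
  exact key n n le_rfl

/-- the logarithmic derivative of a product -/
theorem ps_ode_prod {ι : Type*} (s : Finset ι) (F T : ι → PowerSeries ℂ)
    (h : ∀ k ∈ s, PowerSeries.derivative ℂ (F k) = T k * F k) :
    PowerSeries.derivative ℂ (∏ k ∈ s, F k) = (∑ k ∈ s, T k) * ∏ k ∈ s, F k := by
  classical
  induction s using Finset.induction_on with
  | empty =>
    rw [Finset.prod_empty, Finset.sum_empty, zero_mul]
    exact PowerSeries.derivative_one
  | insert a s ha ih =>
    rw [Finset.prod_insert ha, Finset.sum_insert ha, Derivation.leibniz,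
      ih (fun k hk => h k (Finset.mem_insert_of_mem hk)), h a (Finset.mem_insert_self a s)]
    simp only [smul_eq_mul]
    ring

/-- the logarithmic derivative of `F(a t)` -/
theorem ps_ode_rescale (a : ℂ) (F T : PowerSeries ℂ)
    (h : PowerSeries.derivative ℂ F = T * F) :
    PowerSeries.derivative ℂ (PowerSeries.rescale a F)
      = (PowerSeries.C a * PowerSeries.rescale a T) * PowerSeries.rescale a F := by
  have h1 : PowerSeries.derivative ℂ (PowerSeries.rescale a F)
      = PowerSeries.C a * PowerSeries.rescale a (PowerSeries.derivative ℂ F) := by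
    ext n
    rw [PowerSeries.coeff_derivative, PowerSeries.coeff_rescale, PowerSeries.coeff_C_mul,
      PowerSeries.coeff_rescale, PowerSeries.coeff_derivative]
    ring
  rw [h1, h, map_mul]
  ring

/-- the logarithmic derivative of `F(t^m)` -/
theorem ps_ode_expand (m : ℕ) (hm : m ≠ 0) (F T : PowerSeries ℂ)
    (h : PowerSeries.derivative ℂ F = T * F) :
    PowerSeries.derivative ℂ (PowerSeries.expand m hm F)
      = (PowerSeries.C (m : ℂ) * PowerSeries.X ^ (m - 1) * PowerSeries.expand m hm T)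
          * PowerSeries.expand m hm F := by
  have hX : PowerSeries.derivative ℂ ((PowerSeries.X : PowerSeries ℂ) ^ m)
      = PowerSeries.C (m : ℂ) * PowerSeries.X ^ (m - 1) := by
    rw [PowerSeries.derivative_pow, PowerSeries.derivative_X, mul_one,
      map_natCast (PowerSeries.C (R := ℂ)) m]
  rw [PowerSeries.expand_apply, PowerSeries.derivative_subst (PowerSeries.HasSubst.X_pow hm), h,
    ← PowerSeries.expand_apply (hp := hm), ← PowerSeries.expand_apply (hp := hm), map_mul, hX]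
  ring

/-- a power series with finitely many non-zero coefficients -/
def PSFin (F : PowerSeries ℂ) : Prop := ∃ N : ℕ, ∀ n : ℕ, N ≤ n → PowerSeries.coeff n F = 0

theorem psFin_one : PSFin 1 := by
  refine ⟨1, fun n hn => ?_⟩
  rw [PowerSeries.coeff_one, if_neg (by omega)]

theorem psFin_mul {F G : PowerSeries ℂ} (hF : PSFin F) (hG : PSFin G) : PSFin (F * G) := by
  obtain ⟨N, hN⟩ := hF
  obtain ⟨N', hN'⟩ := hG
  refine ⟨N + N', fun n hn => ?_⟩
  rw [PowerSeries.coeff_mul]
  refine Finset.sum_eq_zero fun p hp => ?_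
  have hp' : p.1 + p.2 = n := Finset.HasAntidiagonal.mem_antidiagonal.mp hp
  rcases Nat.lt_or_ge p.1 N with h | h
  · rw [hN' p.2 (by omega), mul_zero]
  · rw [hN p.1 h, zero_mul]

theorem psFin_prod {ι : Type*} (s : Finset ι) (F : ι → PowerSeries ℂ)
    (h : ∀ k ∈ s, PSFin (F k)) : PSFin (∏ k ∈ s, F k) := by
  classical
  induction s using Finset.induction_on with
  | empty => rw [Finset.prod_empty]; exact psFin_one
  | insert a s ha ih =>
    rw [Finset.prod_insert ha]
    exact psFin_mul (h a (Finset.mem_insert_self a s))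
      (ih fun k hk => h k (Finset.mem_insert_of_mem hk))

theorem psFin_rescale (a : ℂ) {F : PowerSeries ℂ} (hF : PSFin F) :
    PSFin (PowerSeries.rescale a F) := by
  obtain ⟨N, hN⟩ := hF
  refine ⟨N, fun n hn => ?_⟩
  rw [PowerSeries.coeff_rescale, hN n hn, mul_zero]

/-- `∑_{k < m} (ω^k)^j = m` or `0` according as `m ∣ j` or not -/
theorem sum_pow_primitive (m : ℕ) (ω : ℂ) (hω : IsPrimitiveRoot ω m) (j : ℕ) :
    ∑ k ∈ range m, (ω ^ k) ^ j = if m ∣ j then (m : ℂ) else 0 := by
  have h1 : ∀ k : ℕ, (ω ^ k) ^ j = (ω ^ j) ^ k := fun k => by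
    rw [← pow_mul, ← pow_mul, mul_comm]
  simp only [h1]
  split_ifs with hd
  · have : ω ^ j = 1 := (hω.pow_eq_one_iff_dvd j).mpr hd
    simp [this]
  · have hne : ω ^ j ≠ 1 := fun h => hd ((hω.pow_eq_one_iff_dvd j).mp h)
    have h2 : (∑ k ∈ range m, (ω ^ j) ^ k) * (ω ^ j - 1) = 0 := by
      rw [geom_sum_mul, ← pow_mul, mul_comm, pow_mul, hω.pow_eq_one, one_pow, sub_self]
    rcases mul_eq_zero.mp h2 with h | h
    · exact h
    · exact absurd (sub_eq_zero.mp h) hne

/-- the recursion `n A_n = ∑_{j=1}^n S_j A_{n-j}` as a differential equation -/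
theorem ps_ode_of_rec (A S : ℕ → ℂ)
    (h : ∀ n : ℕ, (n : ℂ) * A n = ∑ j ∈ Finset.Icc 1 n, S j * A (n - j)) :
    PowerSeries.derivative ℂ (PowerSeries.mk A)
      = PowerSeries.mk (fun i => S (i + 1)) * PowerSeries.mk A := by
  ext n
  rw [PowerSeries.coeff_derivative, PowerSeries.coeff_mk, PowerSeries.coeff_mul]
  simp only [PowerSeries.coeff_mk]
  rw [Finset.Nat.sum_antidiagonal_eq_sum_range_succ (fun i j => S (i + 1) * A j) n]
  have h1 := h (n + 1)
  have h2 : ∑ j ∈ Finset.Icc 1 (n + 1), S j * A (n + 1 - j)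
      = ∑ k ∈ Finset.range (n + 1), S (k + 1) * A (n - k) := by
    have e : Finset.Icc 1 (n + 1) = (Finset.range (n + 1)).image (fun k => k + 1) := by
      ext j
      simp only [Finset.mem_Icc, Finset.mem_image, Finset.mem_range]
      constructor
      · intro hj
        exact ⟨j - 1, by omega, by omega⟩
      · rintro ⟨k, hk, rfl⟩
        omega
    rw [e, Finset.sum_image (fun a _ b _ h => by simpa using h)]
    refine Finset.sum_congr rfl fun k _ => ?_
    congr 2
    omega
  rw [← h2, ← h1]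
  push_cast
  ring

/-- **The power-series contradiction.** -/
theorem norm_ps_contra (m : ℕ) (hm : 0 < m) (A S z c : ℕ → ℂ)
    (hA : ∀ n : ℕ, (n : ℂ) * A n = ∑ j ∈ Finset.Icc 1 n, S j * A (n - j))
    (hz : ∀ r : ℕ, (r : ℂ) * z r = ∑ i ∈ Finset.Icc 1 r, c (m * i) * z (r - i))
    (hS : ∀ j : ℕ, 0 < j → m ∣ j → S j = c j)
    (hA0 : A 0 = 1) (hz0 : z 0 = 1)
    (hAfin : ∃ N : ℕ, ∀ n : ℕ, N ≤ n → A n = 0)
    (hznz : ∀ r : ℕ, z r ≠ 0) : False := by
  have hm0 : m ≠ 0 := by omega
  obtain ⟨ω, hω⟩ : ∃ ω : ℂ, IsPrimitiveRoot ω m := ⟨_, Complex.isPrimitiveRoot_exp m hm0⟩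
  set F : PowerSeries ℂ := PowerSeries.mk A with hFdef
  set T : PowerSeries ℂ := PowerSeries.mk (fun i => S (i + 1)) with hTdef
  set Zm : PowerSeries ℂ := PowerSeries.mk z with hZmdef
  set Tm : PowerSeries ℂ := PowerSeries.mk (fun i => c (m * (i + 1))) with hTmdef
  have hF : PowerSeries.derivative ℂ F = T * F := ps_ode_of_rec A S hA
  have hZm : PowerSeries.derivative ℂ Zm = Tm * Zm :=
    ps_ode_of_rec z (fun j => c (m * j)) hz
  have hPi := ps_ode_prod (range m) (fun k => PowerSeries.rescale (ω ^ k) F)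
    (fun k => PowerSeries.C (ω ^ k) * PowerSeries.rescale (ω ^ k) T)
    (fun k _ => ps_ode_rescale (ω ^ k) F T hF)
  have hZ := ps_ode_expand m hm0 Zm Tm hZm
  have hT : (∑ k ∈ range m, PowerSeries.C (ω ^ k) * PowerSeries.rescale (ω ^ k) T)
      = PowerSeries.C (m : ℂ) * PowerSeries.X ^ (m - 1) * PowerSeries.expand m hm0 Tm := by
    ext i
    rw [map_sum, mul_assoc, PowerSeries.coeff_C_mul, PowerSeries.coeff_X_pow_mul',
      PowerSeries.coeff_expand]
    simp only [PowerSeries.coeff_C_mul, PowerSeries.coeff_rescale, hTdef, hTmdef,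
      PowerSeries.coeff_mk]
    have e1 : ∀ k : ℕ, ω ^ k * ((ω ^ k) ^ i * S (i + 1)) = (ω ^ k) ^ (i + 1) * S (i + 1) :=
      fun k => by ring
    simp only [e1]
    rw [← Finset.sum_mul, sum_pow_primitive m ω hω (i + 1)]
    by_cases hd : m ∣ i + 1
    · obtain ⟨q, hq⟩ := hd
      have hq1 : 1 ≤ q := by
        rcases Nat.eq_zero_or_pos q with h | h
        · rw [h, mul_zero] at hq; omega
        · exact h
      have hi : i - (m - 1) = m * (q - 1) := by
        have : m * q = m * (q - 1) + m := by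
          conv_lhs => rw [show q = (q - 1) + 1 by omega, mul_add, mul_one]
        omega
      have hle : m - 1 ≤ i := by
        have : m ≤ m * q := Nat.le_mul_of_pos_right m hq1
        omega
      rw [if_pos ⟨q, hq⟩, if_pos hle, if_pos (hi ▸ Dvd.intro _ rfl), hi,
        Nat.mul_div_cancel_left _ hm, hS (i + 1) (by omega) ⟨q, hq⟩]
      congr 2
      rw [hq]
      congr 1
      omega
    · rw [if_neg hd, zero_mul]
      by_cases hle : m - 1 ≤ i
      · rw [if_pos hle]
        have hnd : ¬ m ∣ i - (m - 1) := by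
          intro hd'
          apply hd
          have : i + 1 = (i - (m - 1)) + m := by omega
          rw [this]
          exact Dvd.dvd.add hd' (dvd_refl m)
        rw [if_neg hnd, mul_zero]
      · rw [if_neg hle, mul_zero]
  rw [hT] at hPi
  have h0 : PowerSeries.coeff 0 (∏ k ∈ range m, PowerSeries.rescale (ω ^ k) F)
      = PowerSeries.coeff 0 (PowerSeries.expand m hm0 Zm) := by
    rw [PowerSeries.coeff_zero_eq_constantCoeff_apply, PowerSeries.coeff_zero_eq_constantCoeff_apply,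
      PowerSeries.constantCoeff_expand, map_prod]
    have e2 : ∀ k ∈ range m, PowerSeries.constantCoeff (PowerSeries.rescale (ω ^ k) F) = 1 := by
      intro k _
      rw [← PowerSeries.coeff_zero_eq_constantCoeff_apply, PowerSeries.coeff_rescale, pow_zero,
        one_mul, hFdef, PowerSeries.coeff_mk, hA0]
    rw [Finset.prod_congr rfl e2, Finset.prod_const_one,
      ← PowerSeries.coeff_zero_eq_constantCoeff_apply, hZmdef, PowerSeries.coeff_mk, hz0]
  have hEq := ps_ode_unique _ _ _ hPi hZ h0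
  have hfin : PSFin (∏ k ∈ range m, PowerSeries.rescale (ω ^ k) F) := by
    refine psFin_prod _ _ fun k _ => psFin_rescale _ ?_
    obtain ⟨N, hN⟩ := hAfin
    exact ⟨N, fun n hn => by rw [hFdef, PowerSeries.coeff_mk]; exact hN n hn⟩
  obtain ⟨N, hN⟩ := hfin
  have h1 := hN (m * N) (Nat.le_mul_of_pos_left N hm)
  rw [hEq, PowerSeries.coeff_expand_mul, hZmdef, PowerSeries.coeff_mk] at h1
  exact hznz N h1

end Fermat.Agent.S27.Zeta.H30

end
-- ==== END Fermat.Agent.S27.Zeta.H30_NormPS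

-- ==== BEGIN Fermat.Agent.S29
section

set_option autoImplicit false
open CuspForm CuspForm.IsNormalizedEigenform

namespace Fermat.Agent.S29

theorem result
    {N : ℕ} {g : CuspForm (CongruenceSubgroup.Gamma0 N) 2} (hg : g.IsNormalizedEigenform)
    {p : ℕ} (hp : p.Prime) {k : Type} [Field k] [CharP k p]
    (φ : integralClosure ℤ ℂ →+* k) :
    ∃ ρ : ResidualGaloisRep k, ρ.IsAttachedTo g φ ∧
      ∀ ℓ : ℕ, ℓ.Prime → ¬ ℓ ∣ N * p → ρ.IsUnramifiedAt ℓ :=
  Fermat.Agent.R.H33.stmt_S29 hg hp φ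

end Fermat.Agent.S29

end
-- ==== END Fermat.Agent.S29

-- ==== BEGIN Fermat.Agent.S36.NU.H41_UnramR
section

/-!
# S36 NU-B, leaf UNRAM-CONST, part R (helper41): restriction of a place to a subfield

`exists_place_restrict`: for a ring homomorphism `φ : F₁ → F₂` of fields and a place `w` of `F₂`
which is not trivial on `F₁`, the restriction of `w` to `F₁` is a place `v` of `F₁` with
`ord_w (φ g) = e * ord_v g` for a positive integer `e`.
(The argument is the one of `GTor.H56.dvd_ord_map` (helper56), isolated as a statement.)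
-/

set_option autoImplicit false
set_option linter.style.haveILetI false

noncomputable section

namespace Fermat.Agent.S36.NU.H41

open AlgebraicCurve

section General

variable {k K F₁ F₂ : Type*} [Field k] [Field K] [Field F₁] [Field F₂]
  [Algebra k F₁] [Algebra K F₂]

theorem mem_of_ord_nonneg (v : Place K F₂) {f : F₂} (h : 0 ≤ v.ord f) :
    f ∈ v.toValuationSubring := by
  rcases eq_or_ne f 0 with rfl | hf
  · exact v.toValuationSubring.zero_mem
  obtain ⟨π, hπ⟩ := IsDiscreteValuationRing.exists_irreducible v.toValuationSubring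
  obtain ⟨u, hu⟩ := v.exists_unit_mul_zpow hf hπ
  obtain ⟨n, hn⟩ := Int.eq_ofNat_of_zero_le h
  rw [hu, hn, zpow_natCast]
  exact v.toValuationSubring.mul_mem _ _ (Subtype.mem _)
    (v.toValuationSubring.pow_mem (Subtype.mem _) n)

theorem ord_nonneg_of_mem (v : Place K F₂) {f : F₂} (h : f ∈ v.toValuationSubring) :
    0 ≤ v.ord f := by
  rcases eq_or_ne f 0 with rfl | hf
  · simp
  have h1 : v.adicValuation f ≤ 1 := by
    have := v.adicValuation_coe ⟨f, h⟩
    rw [show ((⟨f, h⟩ : v.toValuationSubring) : F₂) = f from rfl] at this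
    rw [this]
    exact IsDedekindDomain.HeightOneSpectrum.intValuation_le_one _ _
  have h2 : WithZero.log (v.adicValuation f) ≤ 0 := by
    rw [← WithZero.log_one]
    exact (WithZero.log_le_log (v.adicValuation_ne_zero hf) one_ne_zero).mpr h1
  simp only [Place.ord]
  omega

theorem mem_iff_ord_nonneg (v : Place K F₂) {f : F₂} :
    f ∈ v.toValuationSubring ↔ 0 ≤ v.ord f :=
  ⟨ord_nonneg_of_mem v, mem_of_ord_nonneg v⟩

/-- an element of the valuation ring is a unit iff its order is `0` -/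
theorem isUnit_iff_ord_eq_zero (v : Place K F₂) (x : v.toValuationSubring)
    (hx : (x : F₂) ≠ 0) : IsUnit x ↔ v.ord (x : F₂) = 0 := by
  constructor
  · intro hu
    obtain ⟨u, rfl⟩ := hu
    exact v.ord_coe_unit u
  · intro h
    have hinv : (x : F₂)⁻¹ ∈ v.toValuationSubring := by
      rw [mem_iff_ord_nonneg, v.ord_inv, h, neg_zero]
    refine isUnit_iff_exists_inv.mpr ⟨⟨_, hinv⟩, Subtype.ext ?_⟩
    simp [mul_inv_cancel₀ hx]

/-- membership in the maximal ideal -/
theorem mem_maximalIdeal_iff_ord_pos (v : Place K F₂) (x : v.toValuationSubring)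
    (hx : (x : F₂) ≠ 0) :
    x ∈ IsLocalRing.maximalIdeal v.toValuationSubring ↔ 0 < v.ord (x : F₂) := by
  rw [IsLocalRing.mem_maximalIdeal, mem_nonunits_iff, isUnit_iff_ord_eq_zero v x hx]
  have h0 := ord_nonneg_of_mem v x.2
  omega

/-- **Restriction of places.** -/
theorem exists_place_restrict (φ : F₁ →+* F₂) (w : Place K F₂)
    (hk : ∀ c : k, φ (algebraMap k F₁ c) ∈ w.toValuationSubring)
    (hnt : ∃ g : F₁, g ≠ 0 ∧ w.ord (φ g) ≠ 0) :
    ∃ (v : Place k F₁) (e : ℕ), 0 < e ∧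
      v.toValuationSubring = w.toValuationSubring.comap φ ∧
      ∀ g : F₁, w.ord (φ g) = e * v.ord g := by
  classical
  set V : ValuationSubring F₁ := w.toValuationSubring.comap φ with hV
  set ν : F₁ → ℤ := fun g => w.ord (φ g) with hν
  have hne : ∀ {g : F₁}, g ≠ 0 → φ g ≠ 0 := fun hg => (map_ne_zero φ).mpr hg
  have hν_mul : ∀ {g h : F₁}, g ≠ 0 → h ≠ 0 → ν (g * h) = ν g + ν h := by
    intro g h hg hh
    simp only [hν, map_mul]
    exact w.ord_mul (hne hg) (hne hh)
  have hν_inv : ∀ g : F₁, ν g⁻¹ = - ν g := by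
    intro g
    simp only [hν, map_inv₀]
    exact w.ord_inv _
  have hν_zpow : ∀ (g : F₁) (z : ℤ), ν (g ^ z) = z * ν g := by
    intro g z
    simp only [hν, map_zpow₀]
    exact w.ord_zpow _ _
  have hV_iff : ∀ {g : F₁}, (g ∈ V ↔ 0 ≤ ν g) := by
    intro g
    rw [hV, ValuationSubring.mem_comap]
    exact mem_iff_ord_nonneg w
  have htop : V ≠ ⊤ := by
    intro htop
    obtain ⟨g, hg0, hg⟩ := hnt
    have h1 : 0 ≤ ν g := hV_iff.mp (htop ▸ ValuationSubring.mem_top g)
    have h2 : 0 ≤ ν g⁻¹ := hV_iff.mp (htop ▸ ValuationSubring.mem_top _)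
    rw [hν_inv] at h2
    have : ν g = 0 := by omega
    exact hg this
  -- a positive value exists
  have hex : ∃ m : ℕ, 0 < m ∧ ∃ g : F₁, g ≠ 0 ∧ ν g = (m : ℤ) := by
    obtain ⟨g, hg0, hg⟩ := hnt
    have hg' : ν g ≠ 0 := hg
    rcases lt_or_gt_of_ne hg' with h | h
    · refine ⟨(- ν g).toNat, by omega, g⁻¹, inv_ne_zero hg0, ?_⟩
      rw [hν_inv]
      omega
    · exact ⟨(ν g).toNat, by omega, g, hg0, by omega⟩
  obtain ⟨e, ⟨he0, π₀, hπ₀, hπν⟩, hmin⟩ : ∃ e : ℕ, (0 < e ∧ ∃ g : F₁, g ≠ 0 ∧ ν g = (e : ℤ)) ∧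
      ∀ m : ℕ, m < e → ¬ (0 < m ∧ ∃ g : F₁, g ≠ 0 ∧ ν g = (m : ℤ)) :=
    ⟨Nat.find hex, Nat.find_spec hex, fun m hm => Nat.find_min hex hm⟩
  -- Claim A
  have hA : ∀ {g : F₁}, g ≠ 0 → (e : ℤ) ∣ ν g := by
    intro g hg
    have hr0 : 0 ≤ ν g % (e : ℤ) := Int.emod_nonneg _ (by omega)
    have hr1 : ν g % (e : ℤ) < e := Int.emod_lt_of_pos _ (by omega)
    have hg' : g * π₀ ^ (- (ν g / (e : ℤ))) ≠ 0 := mul_ne_zero hg (zpow_ne_zero _ hπ₀)
    have hval : ν (g * π₀ ^ (- (ν g / (e : ℤ)))) = ν g % (e : ℤ) := by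
      rw [hν_mul hg (zpow_ne_zero _ hπ₀), hν_zpow, hπν, Int.emod_def]
      ring
    by_contra hnd
    have hrpos : 0 < ν g % (e : ℤ) := by
      rcases hr0.lt_or_eq with h | h
      · exact h
      · exact absurd (Int.dvd_of_emod_eq_zero h.symm) hnd
    refine hmin (ν g % (e : ℤ)).toNat (by omega) ⟨by omega, _, hg', ?_⟩
    rw [hval]
    omega
  have hπV : π₀ ∈ V := hV_iff.mpr (by rw [hπν]; omega)
  -- units of V
  have hunit : ∀ x : V, (x : F₁) ≠ 0 → ν (x : F₁) = 0 → IsUnit x := by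
    intro x hx0 hx
    have hxinv : (x : F₁)⁻¹ ∈ V := hV_iff.mpr (by rw [hν_inv, hx, neg_zero])
    refine isUnit_iff_exists_inv.mpr ⟨⟨_, hxinv⟩, Subtype.ext ?_⟩
    simp [mul_inv_cancel₀ hx0]
  have hunit' : ∀ x : V, IsUnit x → ν (x : F₁) = 0 := by
    intro x hx
    obtain ⟨y, hy⟩ := isUnit_iff_exists_inv.mp hx
    have hy' : (x : F₁) * (y : F₁) = 1 := by
      have := congrArg Subtype.val hy
      simpa using this
    have hx0 : (x : F₁) ≠ 0 := left_ne_zero_of_mul_eq_one hy'
    have hy0 : (y : F₁) ≠ 0 := right_ne_zero_of_mul_eq_one hy'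
    have h1 := hV_iff.mp x.2
    have h2 := hV_iff.mp y.2
    have h3 : ν ((x : F₁) * (y : F₁)) = 0 := by
      rw [hy']
      simp [hν]
    rw [hν_mul hx0 hy0] at h3
    omega
  set p : V := ⟨π₀, hπV⟩ with hp
  have hp0 : p ≠ 0 := fun h0 => hπ₀ (congrArg Subtype.val h0)
  have hpirr : Irreducible p := by
    refine ⟨fun hu => ?_, fun a b hab => ?_⟩
    · have := hunit' p hu
      rw [show ((p : V) : F₁) = π₀ from rfl, hπν] at this
      omega
    · have hab' : π₀ = (a : F₁) * (b : F₁) := congrArg Subtype.val hab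
      have ha0 : (a : F₁) ≠ 0 := fun h0 => hπ₀ (by rw [hab', h0, zero_mul])
      have hb0 : (b : F₁) ≠ 0 := fun h0 => hπ₀ (by rw [hab', h0, mul_zero])
      have hsum : ν (a : F₁) + ν (b : F₁) = e := by
        rw [← hν_mul ha0 hb0, ← hab', hπν]
      have ha1 := hV_iff.mp a.2
      have hb1 := hV_iff.mp b.2
      obtain ⟨qa, hqa⟩ := hA ha0
      obtain ⟨qb, hqb⟩ := hA hb0
      have he' : (0 : ℤ) < e := by omega
      have hqa0 : 0 ≤ qa := by
        by_contra hcon
        have : (e : ℤ) * qa < 0 := mul_neg_of_pos_of_neg he' (not_le.mp hcon)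
        omega
      have hqb0 : 0 ≤ qb := by
        by_contra hcon
        have : (e : ℤ) * qb < 0 := mul_neg_of_pos_of_neg he' (not_le.mp hcon)
        omega
      have hq : qa + qb = 1 := by
        have : (e : ℤ) * (qa + qb) = e * 1 := by rw [mul_add, ← hqa, ← hqb, hsum, mul_one]
        exact mul_left_cancel₀ (by omega) this
      have hcase : qa = 0 ∨ qb = 0 := by omega
      rcases hcase with h0 | h0
      · left
        exact hunit a ha0 (by rw [hqa, h0, mul_zero])
      · right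
        exact hunit b hb0 (by rw [hqb, h0, mul_zero])
  have hfact : IsDiscreteValuationRing.HasUnitMulPowIrreducibleFactorization V := by
    refine ⟨p, hpirr, fun {x} hx => ?_⟩
    have hx0 : (x : F₁) ≠ 0 := fun h0 => hx (Subtype.ext h0)
    obtain ⟨q, hq⟩ := hA hx0
    have hx1 := hV_iff.mp x.2
    have he' : (0 : ℤ) < e := by omega
    have hq0 : 0 ≤ q := by
      by_contra hcon
      have : (e : ℤ) * q < 0 := mul_neg_of_pos_of_neg he' (not_le.mp hcon)
      omega
    obtain ⟨m, rfl⟩ := Int.eq_ofNat_of_zero_le hq0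
    refine ⟨m, ?_⟩
    have hu0 : (x : F₁) * (π₀ ^ m)⁻¹ ≠ 0 := mul_ne_zero hx0 (inv_ne_zero (pow_ne_zero _ hπ₀))
    have huν : ν ((x : F₁) * (π₀ ^ m)⁻¹) = 0 := by
      rw [hν_mul hx0 (inv_ne_zero (pow_ne_zero _ hπ₀)), hν_inv, ← zpow_natCast, hν_zpow, hπν, hq]
      ring
    have huV : (x : F₁) * (π₀ ^ m)⁻¹ ∈ V := hV_iff.mpr (by rw [huν])
    have hU : IsUnit (⟨_, huV⟩ : V) := hunit ⟨_, huV⟩ hu0 huν
    refine ⟨hU.unit, Subtype.ext ?_⟩
    simp only [IsUnit.unit_spec, MulMemClass.coe_mul, SubmonoidClass.coe_pow, hp]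
    field_simp
  haveI hDVR : IsDiscreteValuationRing V :=
    IsDiscreteValuationRing.ofHasUnitMulPowIrreducibleFactorization hfact
  let v : Place k F₁ :=
    { toValuationSubring := V
      algebraMap_mem' := fun a => by
        rw [hV, ValuationSubring.mem_comap]
        exact hk a
      ne_top' := htop
      isPrincipalIdealRing' := inferInstance }
  have hp' : Irreducible (p : v.toValuationSubring) := hpirr
  refine ⟨v, e, he0, rfl, ?_⟩
  intro f
  rcases eq_or_ne f 0 with rfl | hf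
  · simp
  obtain ⟨u, hu⟩ := v.exists_unit_mul_zpow hf hp'
  have huν : ν ((u : v.toValuationSubring) : F₁) = 0 := hunit' _ u.isUnit
  have hu0 : ((u : v.toValuationSubring) : F₁) ≠ 0 := by
    intro h0
    rw [h0, zero_mul] at hu
    exact hf hu
  have key : ν f = v.ord f * e := by
    conv_lhs => rw [hu]
    rw [hν_mul hu0 (zpow_ne_zero _ hπ₀), huν, zero_add, hν_zpow, hπν]
  show ν f = e * v.ord f
  rw [key, mul_comm]

end General

end Fermat.Agent.S36.NU.H41

end
end
-- ==== END Fermat.Agent.S36.NU.H41_UnramR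

-- ==== BEGIN Fermat.Agent.S38.CE3.H8_Ram0
section

set_option autoImplicit false

noncomputable section

open AlgebraicCurve ModularCurve

namespace Fermat.Agent.S38.CE3.H8

open Fermat.Agent.S24 (Kbar FN)

/-- `x² + x + 1 = 0` has no solution modulo a prime `ℓ ≡ 2 mod 3`. -/
theorem no_cube_root_mod_prime {ℓ : ℕ} (hℓ : ℓ.Prime) (h2 : ℓ % 3 = 2) (y : ZMod ℓ) :
    y ^ 2 + y + 1 ≠ 0 := by
  have : Fact ℓ.Prime := ⟨hℓ⟩
  intro hy
  have h3 : (3 : ZMod ℓ) ≠ 0 := by
    intro h
    have h' : ((3 : ℕ) : ZMod ℓ) = 0 := by exact_mod_cast h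
    rw [ZMod.natCast_eq_zero_iff] at h'
    have := Nat.le_of_dvd (by norm_num) h'
    have h5 : ℓ = 2 ∨ ℓ = 3 := by
      have := hℓ.two_le
      omega
    rcases h5 with rfl | rfl
    · omega
    · omega
  have hy3 : y ^ 3 = 1 := by linear_combination (y - 1) * hy
  have hy1 : y ≠ 1 := by
    rintro rfl
    apply h3
    linear_combination hy
  have hy0 : y ≠ 0 := by
    rintro rfl
    simp at hy3
  let u : (ZMod ℓ)ˣ := Units.mk0 y hy0
  have hu3 : u ^ 3 = 1 := by
    ext
    simpa [u] using hy3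
  have hu1 : u ≠ 1 := by
    intro hh
    apply hy1
    have := congrArg Units.val hh
    simpa [u] using this
  have hord : orderOf u = 3 := by
    have hdvd := orderOf_dvd_of_pow_eq_one hu3
    rcases (Nat.dvd_prime Nat.prime_three).mp hdvd with h1 | h1
    · exact absurd (orderOf_eq_one_iff.mp h1) hu1
    · exact h1
  have hcard : orderOf u ∣ Fintype.card (ZMod ℓ)ˣ := orderOf_dvd_card
  rw [ZMod.card_units_eq_totient, Nat.totient_prime hℓ, hord] at hcard
  omega

/-- `ν₃(N) = 0` as soon as a prime `ℓ ≡ 2 mod 3` divides `N`. -/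
theorem nuThree_eq_zero_of_prime_dvd {N ℓ : ℕ} (hℓ : ℓ.Prime) (h2 : ℓ % 3 = 2) (hd : ℓ ∣ N) :
    nuThree N = 0 := by
  unfold nuThree
  have : IsEmpty {x : ZMod N // x ^ 2 + x + 1 = 0} := by
    refine ⟨fun x => ?_⟩
    have hx := x.2
    have h := congrArg (ZMod.castHom hd (ZMod ℓ)) hx
    rw [map_add, map_add, map_pow, map_one, map_zero] at h
    exact no_cube_root_mod_prime hℓ h2 _ h
  exact Nat.card_of_isEmpty

/-- **RAM0**, at every level divisible by a prime `ℓ ≡ 2 mod 3`: every zero of `j` in `F_N`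
(over `Q̄`) has order `3`. -/
theorem ram0 (N : ℕ) [NeZero N] {ℓ : ℕ} (hℓ : ℓ.Prime) (h2 : ℓ % 3 = 2) (hd : ℓ ∣ N)
    (v : Place Kbar (FN N)) (hv : 0 < v.ord (Fermat.Agent.RED.H73.jF (L := Kbar) N)) :
    v.ord (Fermat.Agent.RED.H73.jF (L := Kbar) N) = 3 := by
  have h := Fermat.Agent.S36.NU.H30.ram_char0_zero N (nuThree_eq_zero_of_prime_dvd hℓ h2 hd) v
    (by rw [map_zero, sub_zero]; exact hv)
  rw [map_zero, sub_zero] at h
  exact h

/-- **RAM0** (L4a): `ℓ ≡ 2 mod 3` prime: every place of `F_ℓ` (over `Q̄`) with `ord j > 0` has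
`ord j = 3`. -/
theorem ram0_prime (ℓ : ℕ) [NeZero ℓ] (hℓ : ℓ.Prime) (h2 : ℓ % 3 = 2)
    (v : Place Kbar (FN ℓ)) (hv : 0 < v.ord (Fermat.Agent.RED.H73.jF (L := Kbar) ℓ)) :
    v.ord (Fermat.Agent.RED.H73.jF (L := Kbar) ℓ) = 3 :=
  ram0 ℓ hℓ h2 dvd_rfl v hv

/-- The orders of `j` at ALL places of a level divisible by `ℓ ≡ 2 mod 3`, away from the poles,
are divisible by `3`. -/
theorem three_dvd_ord_j (N : ℕ) [NeZero N] {ℓ : ℕ} (hℓ : ℓ.Prime) (h2 : ℓ % 3 = 2) (hd : ℓ ∣ N)
    (v : Place Kbar (FN N)) (hv : 0 ≤ v.ord (Fermat.Agent.RED.H73.jF (L := Kbar) N)) :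
    (3 : ℤ) ∣ v.ord (Fermat.Agent.RED.H73.jF (L := Kbar) N) := by
  rcases hv.lt_or_eq with h | h
  · rw [ram0 N hℓ h2 hd v h]
  · rw [← h]
    exact dvd_zero _

/-- `ram0` for the `S24` name of `j`. -/
theorem ram0' (N : ℕ) [NeZero N] {ℓ : ℕ} (hℓ : ℓ.Prime) (h2 : ℓ % 3 = 2) (hd : ℓ ∣ N)
    (v : Place Kbar (FN N)) (hv : 0 < v.ord (Fermat.Agent.S24.jF N)) :
    v.ord (Fermat.Agent.S24.jF N) = 3 := by
  rw [Fermat.Agent.RED.H76.jF_eq] at hv ⊢
  exact ram0 N hℓ h2 hd v hv

end Fermat.Agent.S38.CE3.H8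

end
end
-- ==== END Fermat.Agent.S38.CE3.H8_Ram0

-- ==== BEGIN Fermat.Agent.S38.P3.H57_StrongCore
section

/-!
# S38 at `p = 3`, STRONG witness: linear algebra core (helper57)

`exists_det_neg_one_trace_ne_zero`: let `ρ : G → GL(V)`, `V` a plane over `𝔽₃`, and suppose that
the image of `H = ker (det ρ)` spans `End V` and `H ≠ G`.  Then some `g` has `det ρ(g) = -1` and
`tr ρ(g) ≠ 0`.

Proof.  Otherwise every `g ∉ H` has `ρ(g)² = 1` (Cayley–Hamilton), so for `g₁ ∉ H` fixed and
`h ∈ H`: `ρ(g₁) ρ(h) ρ(g₁) = ρ(h)⁻¹`; hence inversion is multiplicative on `ρ(H)`, `ρ(H)` is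
commutative, and so is its span `End V`: absurd.

`pow_of_trace_zero`: if `tr f = 0`, `det f = -1`, then `f ^ j = f` for odd `j`.
-/

set_option autoImplicit false

namespace Fermat.Agent.S38.P3.H57

open Module Fermat.Agent.S41.H19

/-- Elements of `ZMod 3`. -/
theorem zmod3_cases (d : ZMod 3) : d = 0 ∨ d = 1 ∨ d = -1 := by
  revert d
  decide

section

variable {V : Type*} [AddCommGroup V] [Module (ZMod 3) V]
variable {G : Type*} [Group G]

/-- The kernel of `det ∘ ρ`. -/
def detKer (ρ : G →* (V →ₗ[ZMod 3] V)) : Subgroup G where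
  carrier := {g | LinearMap.det (ρ g) = 1}
  one_mem' := by
    show LinearMap.det (ρ 1) = 1
    rw [map_one, map_one]
  mul_mem' := by
    intro a b (ha : LinearMap.det (ρ a) = 1) (hb : LinearMap.det (ρ b) = 1)
    show LinearMap.det (ρ (a * b)) = 1
    rw [map_mul, map_mul, ha, hb, mul_one]
  inv_mem' := by
    intro a (ha : LinearMap.det (ρ a) = 1)
    show LinearMap.det (ρ a⁻¹) = 1
    have h : LinearMap.det (ρ a⁻¹) * LinearMap.det (ρ a) = 1 := by
      rw [← map_mul, ← map_mul, inv_mul_cancel, map_one, map_one]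
    rwa [ha, mul_one] at h

theorem mem_detKer (ρ : G →* (V →ₗ[ZMod 3] V)) (g : G) :
    g ∈ detKer ρ ↔ LinearMap.det (ρ g) = 1 := Iff.rfl

theorem det_rho_ne_zero (ρ : G →* (V →ₗ[ZMod 3] V)) (g : G) : LinearMap.det (ρ g) ≠ 0 := by
  intro h0
  have h : LinearMap.det (ρ g⁻¹) * LinearMap.det (ρ g) = 1 := by
    rw [← map_mul, ← map_mul, inv_mul_cancel, map_one, map_one]
  rw [h0, mul_zero] at h
  exact zero_ne_one h

theorem det_eq_neg_one_of_notMem (ρ : G →* (V →ₗ[ZMod 3] V)) {g : G} (hg : g ∉ detKer ρ) :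
    LinearMap.det (ρ g) = -1 := by
  rcases zmod3_cases (LinearMap.det (ρ g)) with h | h | h
  · exact absurd h (det_rho_ne_zero ρ g)
  · exact absurd h hg
  · exact h

theorem notMem_detKer_of_det (ρ : G →* (V →ₗ[ZMod 3] V)) {g : G}
    (hg : LinearMap.det (ρ g) = -1) : g ∉ detKer ρ := by
  intro h
  rw [mem_detKer, hg] at h
  revert h
  decide

/-- `ker (det ρ)` has index two as soon as some determinant is `-1`. -/
theorem index_detKer (ρ : G →* (V →ₗ[ZMod 3] V)) {g₁ : G}
    (hg₁ : LinearMap.det (ρ g₁) = -1) : (detKer ρ).index = 2 := by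
  rw [Subgroup.index_eq_two_iff]
  refine ⟨g₁, fun b => ?_⟩
  by_cases hb : b ∈ detKer ρ
  · refine Or.inr ⟨hb, ?_⟩
    apply notMem_detKer_of_det
    rw [map_mul, map_mul, hg₁, (mem_detKer ρ b).1 hb, one_mul]
  · refine Or.inl ⟨?_, hb⟩
    rw [mem_detKer, map_mul, map_mul, hg₁, det_eq_neg_one_of_notMem ρ hb]
    norm_num

/-- Cayley–Hamilton: trace `0` and determinant `-1` give an involution. -/
theorem sq_eq_one_of_trace_zero (hV : finrank (ZMod 3) V = 2) (f : V →ₗ[ZMod 3] V)
    (ht : LinearMap.trace (ZMod 3) V f = 0) (hd : LinearMap.det f = -1) : f * f = 1 := by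
  rw [end_CH_two hV f, ht, hd, zero_smul, neg_smul, one_smul, zero_sub, neg_neg]

/-- An involution: odd powers. -/
theorem pow_odd_of_sq_eq_one {M : Type*} [Monoid M] (f : M) (hf : f * f = 1) (j : ℕ)
    (hj : Odd j) : f ^ j = f := by
  obtain ⟨m, rfl⟩ := hj
  rw [pow_succ, pow_mul, pow_two, hf, one_pow, one_mul]

/-- `(a x)² = 1` and `x x' = 1` give `a x a = x'`. -/
theorem conj_eq_of_mul_self {M : Type*} [Monoid M] (a x x' : M) (h : a * x * (a * x) = 1)
    (hx : x * x' = 1) : a * x * a = x' := by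
  calc a * x * a = a * x * a * (x * x') := by rw [hx, mul_one]
    _ = (a * x * (a * x)) * x' := by simp only [mul_assoc]
    _ = x' := by rw [h, one_mul]

/-- If conjugation by the involution `a` sends `x'` to `x`, `y'` to `y` and `x' y'` to `y x`,
then `x` and `y` commute. -/
theorem comm_of_conj {M : Type*} [Monoid M] (a x' y' x y : M) (haa : a * a = 1)
    (h1 : a * x' * a = x) (h2 : a * y' * a = y) (h3 : a * (x' * y') * a = y * x) :
    x * y = y * x := by
  rw [← h3, ← h1, ← h2]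
  calc a * x' * a * (a * y' * a) = a * x' * (a * a) * (y' * a) := by simp only [mul_assoc]
    _ = a * (x' * y') * a := by rw [haa]; simp only [mul_assoc, mul_one]

/-- `End V` is not commutative for a plane `V`. -/
theorem exists_not_commute (hV : finrank (ZMod 3) V = 2) :
    ∃ a b : V →ₗ[ZMod 3] V, a * b ≠ b * a := by
  have hfin : Module.Finite (ZMod 3) V := Module.finite_of_finrank_eq_succ hV
  let b : Module.Basis (Fin 2) (ZMod 3) V := Module.finBasisOfFinrankEq (ZMod 3) V hV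
  let T : (V →ₗ[ZMod 3] V) ≃ₐ[ZMod 3] Matrix (Fin 2) (Fin 2) (ZMod 3) :=
    LinearMap.toMatrixAlgEquiv b
  refine ⟨T.symm !![0, 1; 0, 0], T.symm !![0, 0; 1, 0], fun h => ?_⟩
  have h2 := congrArg T h
  rw [map_mul, map_mul, AlgEquiv.apply_symm_apply, AlgEquiv.apply_symm_apply] at h2
  have h3 := congrFun (congrFun h2 0) 0
  revert h3
  simp [Matrix.mul_apply, Fin.sum_univ_two]

/-- **Core.**  If the image of `ker (det ρ)` spans `End V` and some determinant is `-1`, then some
element has determinant `-1` and nonzero trace. -/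
theorem exists_det_neg_one_trace_ne_zero (hV : finrank (ZMod 3) V = 2)
    (ρ : G →* (V →ₗ[ZMod 3] V)) {g₁ : G} (hg₁ : LinearMap.det (ρ g₁) = -1)
    (hspan : Submodule.span (ZMod 3) (ρ '' (detKer ρ : Set G)) = ⊤) :
    ∃ g : G, LinearMap.det (ρ g) = -1 ∧ LinearMap.trace (ZMod 3) V (ρ g) ≠ 0 := by
  by_contra hcon
  push Not at hcon
  -- every element outside `H` is an involution
  have hinv : ∀ g : G, LinearMap.det (ρ g) = -1 → ρ g * ρ g = 1 := fun g hg =>
    sq_eq_one_of_trace_zero hV (ρ g) (hcon g hg) hg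
  have haa : ρ g₁ * ρ g₁ = 1 := hinv g₁ hg₁
  -- conjugation by `a = ρ g₁` inverts the image of `H`
  have hconj : ∀ h ∈ detKer ρ, ρ g₁ * ρ h * ρ g₁ = ρ h⁻¹ := by
    intro h hh
    have h1 : LinearMap.det (ρ (g₁ * h)) = -1 := by
      rw [map_mul, map_mul, hg₁, (mem_detKer ρ h).1 hh, mul_one]
    have h2 := hinv (g₁ * h) h1
    rw [map_mul] at h2
    have h4 : ρ h * ρ h⁻¹ = 1 := by rw [← map_mul, mul_inv_cancel, map_one]
    exact conj_eq_of_mul_self (ρ g₁) (ρ h) (ρ h⁻¹) h2 h4
  -- the image of `H` is commutative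
  have hcomm : ∀ h ∈ detKer ρ, ∀ h' ∈ detKer ρ, ρ h * ρ h' = ρ h' * ρ h := by
    intro h hh h' hh'
    have e1 := hconj h⁻¹ ((detKer ρ).inv_mem hh)
    have e2 := hconj h'⁻¹ ((detKer ρ).inv_mem hh')
    have e3 := hconj (h⁻¹ * h'⁻¹) ((detKer ρ).mul_mem ((detKer ρ).inv_mem hh)
      ((detKer ρ).inv_mem hh'))
    rw [inv_inv] at e1 e2
    rw [mul_inv_rev, inv_inv, inv_inv, map_mul, map_mul] at e3
    exact comm_of_conj (ρ g₁) (ρ h⁻¹) (ρ h'⁻¹) (ρ h) (ρ h') haa e1 e2 e3
  -- hence `End V` is commutative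
  have hall : ∀ x y : V →ₗ[ZMod 3] V, x * y = y * x := by
    have hx1 : ∀ h ∈ detKer ρ, ∀ y : V →ₗ[ZMod 3] V, ρ h * y = y * ρ h := by
      intro h hh y
      have hy : y ∈ Submodule.span (ZMod 3) (ρ '' (detKer ρ : Set G)) := by
        rw [hspan]; exact Submodule.mem_top
      induction hy using Submodule.span_induction with
      | mem y hy =>
        obtain ⟨h', hh', rfl⟩ := hy
        exact hcomm h hh h' hh'
      | zero => rw [mul_zero, zero_mul]
      | add y z _ _ hy hz => rw [mul_add, add_mul, hy, hz]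
      | smul c y _ hy => rw [mul_smul_comm, smul_mul_assoc, hy]
    intro x y
    have hx : x ∈ Submodule.span (ZMod 3) (ρ '' (detKer ρ : Set G)) := by
      rw [hspan]; exact Submodule.mem_top
    induction hx using Submodule.span_induction with
    | mem x hx =>
      obtain ⟨h, hh, rfl⟩ := hx
      exact hx1 h hh y
    | zero => rw [mul_zero, zero_mul]
    | add x z _ _ hx hz => rw [mul_add, add_mul, hx, hz]
    | smul c x _ hx => rw [mul_smul_comm, smul_mul_assoc, hx]
  obtain ⟨x, y, hxy⟩ := exists_not_commute hV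
  exact hxy (hall x y)

end

end Fermat.Agent.S38.P3.H57

end
-- ==== END Fermat.Agent.S38.P3.H57_StrongCore

-- ==== BEGIN Fermat.Agent.S38.P3.H60_BetaUp
section
attribute [local instance 10000] SubalgebraClass.toAlgebra
attribute [local instance 10000] HahnSeries.powerSeriesAlgebra

set_option autoImplicit false
set_option synthInstance.maxHeartbeats 400000
set_option maxHeartbeats 1000000
set_option linter.unusedSectionVars false
set_option linter.style.haveILetI false

noncomputable section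

open AlgebraicCurve ModularCurve

namespace Fermat.Agent.S38.P3.H60

open Fermat.Agent.BAD Fermat.Agent.S24 Fermat.Agent.BAD.H88 Fermat.Agent.S43.BadQ
open Fermat.Agent.S28.H73 Fermat.Agent.RED.H73 Fermat.Agent.RED Fermat.Agent.S44
open Fermat.Agent.S43.CompEis.H60

section BetaUp

variable (q M R r : ℕ) [NeZero (M * q)] [NeZero r] [NeZero (M * R * q)] (hrR : r ∣ R)

include hrR in
theorem level_dvd : M * q * r ∣ M * R * q := by
  obtain ⟨k, rfl⟩ := hrR
  exact ⟨k, by ring⟩

/-- `β_r` from the level `M q` to the level `M R q`, `r ∣ R`. -/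
def betaUp : FN (M * q) →ₐ[Kbar] FN (M * R * q) :=
  (lift (level_dvd q M R r hrR)).comp (heckeBetaBar Kbar (M * q) r)

theorem coe_betaUp (x : FN (M * q)) :
    ((betaUp q M R r hrR x : FN (M * R * q)) : LaurentSeries Kbar)
      = qExpand Kbar r (x : LaurentSeries Kbar) := by
  rw [betaUp, AlgHom.comp_apply, coe_lift, coe_heckeBetaBar]

theorem jdF_congr (N : ℕ) [NeZero N] {d d' : ℕ} [NeZero d] [NeZero d'] (h : d = d')
    (hd : d ∣ N) (hd' : d' ∣ N) : jdF N d hd = jdF N d' hd' := by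
  subst h
  rfl

theorem betaUp_jdF (D D' : ℕ) [NeZero D] [NeZero D'] (hD : D ∣ M * q) (hD' : D' ∣ M * R * q)
    (h : D' = D * r) :
    betaUp q M R r hrR (jdF (M * q) D hD) = jdF (M * R * q) D' hD' := by
  subst h
  apply Subtype.ext
  rw [coe_betaUp]
  show qExpand Kbar r (coeffEmb Kbar (qExpand ℚ D jq)) = coeffEmb Kbar (qExpand ℚ (D * r) jq)
  rw [coeffEmb_qExpand_jq, coeffEmb_qExpand_jq, qExpand_qExpand]
  exact qExpand_congr (mul_comm r D) _

variable (a b : ℤ) (hab : a * q + b * M = 1) (a' b' : ℤ)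
  (hab' : a' * q + b' * ((M * R : ℕ) : ℤ) = 1) (hq : q.Prime)

include hab hab' hq in
/-- `w_q ∘ β_r = β_r ∘ w_q`. -/
theorem wq_comp_betaUp :
    (wq q (M * R) a' b' hab' hq).toAlgHom.comp (betaUp q M R r hrR) =
      (betaUp q M R r hrR).comp (wq q M a b hab hq).toAlgHom := by
  have hr0 : 0 < r := Nat.pos_of_ne_zero (NeZero.ne r)
  apply algHom_ext_of_adjoin _ (adjoin_jdF (M * q))
  rintro x ⟨D, hD0, hD, rfl⟩
  rw [AlgHom.comp_apply, AlgHom.comp_apply]
  rcases dvd_cases q M a b hab hq D hD with ⟨e, he⟩ | ⟨d, e, rfl, he⟩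
  · have hDpos : 0 < D := Nat.pos_of_ne_zero (NeZero.ne D)
    haveI : NeZero (D * q) := ⟨(Nat.mul_pos hDpos hq.pos).ne'⟩
    haveI : NeZero (D * r) := ⟨(Nat.mul_pos hDpos hr0).ne'⟩
    haveI : NeZero (D * r * q) := ⟨(Nat.mul_pos (Nat.mul_pos hDpos hr0) hq.pos).ne'⟩
    have hDM : D ∣ M := ⟨e, he⟩
    have hDrMR : D * r ∣ M * R := Nat.mul_dvd_mul hDM hrR
    have h1 : (wq q M a b hab hq).toAlgHom (jdF (M * q) D hD)
        = jdF (M * q) (D * q) (Nat.mul_dvd_mul_right hDM q) :=
      wqHom_jdF q M a b hab hq D hDM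
    have h2 : (wq q (M * R) a' b' hab' hq).toAlgHom
        (jdF (M * R * q) (D * r) (Dvd.dvd.mul_right hDrMR q))
        = jdF (M * R * q) (D * r * q) (Nat.mul_dvd_mul_right hDrMR q) :=
      wqHom_jdF q (M * R) a' b' hab' hq (D * r) hDrMR
    rw [h1, betaUp_jdF q M R r hrR D (D * r) hD (Dvd.dvd.mul_right hDrMR q) rfl, h2,
      betaUp_jdF q M R r hrR (D * q) (D * r * q) _ (Nat.mul_dvd_mul_right hDrMR q) (by ring)]
  · have hdpos : 0 < d := by
      rcases Nat.eq_zero_or_pos d with h | h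
      · exfalso; apply NeZero.ne (d * q); rw [h, zero_mul]
      · exact h
    haveI : NeZero d := ⟨hdpos.ne'⟩
    haveI : NeZero (d * r) := ⟨(Nat.mul_pos hdpos hr0).ne'⟩
    haveI : NeZero (d * r * q) := ⟨(Nat.mul_pos (Nat.mul_pos hdpos hr0) hq.pos).ne'⟩
    have hdM : d ∣ M := ⟨e, he⟩
    have hdrMR : d * r ∣ M * R := Nat.mul_dvd_mul hdM hrR
    have h1 : (wq q M a b hab hq).toAlgHom (jdF (M * q) (d * q) hD)
        = jdF (M * q) d (Dvd.dvd.mul_right hdM q) :=
      wqHom_jdF_mul q M a b hab hq d hdM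
    have h2 : (wq q (M * R) a' b' hab' hq).toAlgHom
        (jdF (M * R * q) (d * r * q) (Nat.mul_dvd_mul_right hdrMR q))
        = jdF (M * R * q) (d * r) (Dvd.dvd.mul_right hdrMR q) :=
      wqHom_jdF_mul q (M * R) a' b' hab' hq (d * r) hdrMR
    rw [h1, betaUp_jdF q M R r hrR (d * q) (d * r * q) hD
        (Nat.mul_dvd_mul_right hdrMR q) (by ring), h2,
      betaUp_jdF q M R r hrR d (d * r) _ (Dvd.dvd.mul_right hdrMR q) rfl]

/-! ### Gauss units, slopes, inertia, orders -/

variable (A : ValuationSubring (AlgebraicClosure ℚ))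

/-- `β` maps Gauss units to Gauss units. -/
theorem isGaussUnit_betaUp {x : FN (M * q)} (hx : IsGaussUnit A (M * q) x) :
    IsGaussUnit A (M * R * q) (betaUp q M R r hrR x) := by
  have h1 := Fermat.Agent.S43.CompEis.H9.isGaussUnit_beta r A (M * q) x hx
  have hxy : ((betaUp q M R r hrR x : FN (M * R * q)) : LaurentSeries Kbar)
      = ((heckeBetaBar Kbar (M * q) r x : FN (M * q * r)) : LaurentSeries Kbar) := by
    rw [coe_betaUp, coe_heckeBetaBar]
  exact (isGaussUnit_transfer hxy).mpr h1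

include hab hab' hq in
theorem wS_betaUp (x : FN (M * q)) :
    wS q (M * R) a' b' hab' hq • betaUp q M R r hrR x
      = betaUp q M R r hrR (wS q M a b hab hq • x) :=
  congrArg (fun g : FN (M * q) →ₐ[Kbar] FN (M * R * q) => g x)
    (wq_comp_betaUp q M R r hrR a b hab a' b' hab' hq)

/-- The slope of `β f` is the slope of `f`. -/
theorem hasSlope_betaUp {x : FN (M * q)} {k : ℤ} (h : HasSlope A q M a b hab hq x k) :
    HasSlope A q (M * R) a' b' hab' hq (betaUp q M R r hrR x) k := by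
  obtain ⟨c₁, c₂, h1, h2, h3⟩ := h
  refine ⟨c₁, c₂, ?_, ?_, h3⟩
  · have := isGaussUnit_betaUp q M R r hrR A h1
    rwa [map_mul, AlgHom.commutes] at this
  · have := isGaussUnit_betaUp q M R r hrR A h2
    rwa [map_mul, AlgHom.commutes, ← wS_betaUp q M R r hrR a b hab a' b' hab' hq] at this

/-- `β` commutes with the Galois action. -/
theorem galF_betaUp_fixed {x : FN (M * q)} (σ : GalQ) (h : galF (M * q) σ • x = x) :
    galF (M * R * q) σ • betaUp q M R r hrR x = betaUp q M R r hrR x := by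
  apply Subtype.ext
  have h1 := congrArg (Subtype.val : ↥(FNbar (M * q)) → LaurentSeries (AlgebraicClosure ℚ)) h
  rw [coe_arithmeticGalois_smul] at h1 ⊢
  rw [coe_betaUp, Fermat.Agent.GTor.H2.coeffMap_qExpand, h1]

/-- Divisibility of the orders is preserved by `β`. -/
theorem dvd_ord_betaUp (n : ℤ) {x : FN (M * q)}
    (hx : ∀ P : Place (AlgebraicClosure ℚ) ↥(FNbar (M * q)), n ∣ P.ord x)
    (P' : Place (AlgebraicClosure ℚ) ↥(FNbar (M * R * q))) :
    n ∣ P'.ord (betaUp q M R r hrR x) := by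
  have hint : (betaUp q M R r hrR).toRingHom.IsIntegral :=
    (H51.stmt_FFB_finite _ _ _ (H95.stmt_HKA_isFF (M * q)) (H95.stmt_HKA_isFF (M * R * q)) _).1
  rw [Place.ord_restrictAlong (betaUp q M R r hrR) hint P' x]
  exact Dvd.dvd.mul_left (hx _) _

end BetaUp

end Fermat.Agent.S38.P3.H60

end
end
-- ==== END Fermat.Agent.S38.P3.H60_BetaUp

-- ==== BEGIN Fermat.Agent.S38.P3.PivotDefs
section

set_option autoImplicit false

open WeierstrassCurve WeierstrassCurve.Affine WeierstrassCurve.Affine.Point Polynomial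
open scoped WeierstrassCurve.Affine

namespace Fermat.Agent.S38.P3

open Fermat.Agent.S44 Fermat.Agent.S43 Fermat.Agent.L.Pivot.H76 IsLocalRing

/-- **PIVOT at `p = 3`, curve form, level prime to `3`.** -/
def Stmt_PivotWCore3 : Prop :=
  ∀ (W : WeierstrassCurve ℤ), W.Δ ≠ 0 → W.IsSemistableModel →
    GaloisRepIsIrreducible (K := AlgebraicClosure ℚ) ℚ (W.map (Int.castRingHom ℚ)).toAffine 3 →
    ∀ (N q : ℕ), Squarefree N → ¬ 3 ∣ N → q.Prime → q ∣ N → UnrW W 3 q →
    (∀ q' : ℕ, q'.Prime → q' ∣ N → UnrW W 3 q' → IsExcW W 3 q') →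
    ∀ (f : CuspForm (CongruenceSubgroup.Gamma0 N) 2) (𝔪 : Ideal (integralClosure ℤ ℂ))
      (S : Finset ℕ),
    f.IsNormalizedEigenform → 𝔪.IsMaximal → ((3 : ℕ) : integralClosure ℤ ℂ) ∈ 𝔪 →
    (∀ ℓ : ℕ, ℓ.Prime → ℓ ∉ S → W.IsGoodPrimeFor ℓ → ¬ ℓ ∣ N → ℓ ≠ 3 →
      ∃ a : integralClosure ℤ ℂ, (a : ℂ) = ModularFormClass.qCoeff f ℓ ∧
        a - ((W.apOfModel ℓ : ℤ) : integralClosure ℤ ℂ) ∈ 𝔪) →
    LowerConcl 3 N q W

/-- **PIVOT at `p = 3`, curve form, `3 ∥ N` and `E[3]` très ramifiée at `3`.** -/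
def Stmt_PivotWCoreSO3 : Prop :=
  ∀ (W : WeierstrassCurve ℤ), W.Δ ≠ 0 → W.IsSemistableModel →
    GaloisRepIsIrreducible (K := AlgebraicClosure ℚ) ℚ (W.map (Int.castRingHom ℚ)).toAffine 3 →
    ∀ (N q : ℕ), Squarefree N → 3 ∣ N → (3 : ℤ) ∣ W.Δ →
    ¬ (W.map (Int.castRingHom ℚ)).IsPeuRamifieeAt 3 3 →
    q.Prime → q ≠ 3 → q ∣ N → UnrW W 3 q →
    (∀ q' : ℕ, q'.Prime → q' ≠ 3 → q' ∣ N → UnrW W 3 q' → IsExcW W 3 q') →
    ∀ (f : CuspForm (CongruenceSubgroup.Gamma0 N) 2) (𝔪 : Ideal (integralClosure ℤ ℂ))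
      (S : Finset ℕ),
    f.IsNormalizedEigenform → 𝔪.IsMaximal → ((3 : ℕ) : integralClosure ℤ ℂ) ∈ 𝔪 →
    (∀ ℓ : ℕ, ℓ.Prime → ℓ ∉ S → W.IsGoodPrimeFor ℓ → ¬ ℓ ∣ N → ℓ ≠ 3 →
      ∃ a : integralClosure ℤ ℂ, (a : ℂ) = ModularFormClass.qCoeff f ℓ ∧
        a - ((W.apOfModel ℓ : ℤ) : integralClosure ℤ ℂ) ∈ 𝔪) →
    LowerConcl 3 N q W

/-- **PIVOT, curve form, level prime to `p`, every odd `p`.** -/
def Stmt_PivotWCoreAll : Prop :=
  ∀ (p : ℕ), p.Prime → p ≠ 2 → ∀ (W : WeierstrassCurve ℤ), W.Δ ≠ 0 → W.IsSemistableModel →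
    GaloisRepIsIrreducible (K := AlgebraicClosure ℚ) ℚ (W.map (Int.castRingHom ℚ)).toAffine p →
    ∀ (N q : ℕ), Squarefree N → ¬ p ∣ N → q.Prime → q ∣ N → UnrW W p q →
    (∀ q' : ℕ, q'.Prime → q' ∣ N → UnrW W p q' → IsExcW W p q') →
    ∀ (f : CuspForm (CongruenceSubgroup.Gamma0 N) 2) (𝔪 : Ideal (integralClosure ℤ ℂ))
      (S : Finset ℕ),
    f.IsNormalizedEigenform → 𝔪.IsMaximal → (p : integralClosure ℤ ℂ) ∈ 𝔪 →
    (∀ ℓ : ℕ, ℓ.Prime → ℓ ∉ S → W.IsGoodPrimeFor ℓ → ¬ ℓ ∣ N → ℓ ≠ p →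
      ∃ a : integralClosure ℤ ℂ, (a : ℂ) = ModularFormClass.qCoeff f ℓ ∧
        a - ((W.apOfModel ℓ : ℤ) : integralClosure ℤ ℂ) ∈ 𝔪) →
    LowerConcl p N q W

/-- **PIVOT, curve form, `p ∥ N` and `E[p]` très ramifiée at `p`, every odd `p`.** -/
def Stmt_PivotWCoreSOAll : Prop :=
  ∀ (p : ℕ), p.Prime → p ≠ 2 → ∀ (W : WeierstrassCurve ℤ), W.Δ ≠ 0 → W.IsSemistableModel →
    GaloisRepIsIrreducible (K := AlgebraicClosure ℚ) ℚ (W.map (Int.castRingHom ℚ)).toAffine p →
    ∀ (N q : ℕ), Squarefree N → p ∣ N → (p : ℤ) ∣ W.Δ →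
    ¬ (W.map (Int.castRingHom ℚ)).IsPeuRamifieeAt p p →
    q.Prime → q ≠ p → q ∣ N → UnrW W p q →
    (∀ q' : ℕ, q'.Prime → q' ≠ p → q' ∣ N → UnrW W p q' → IsExcW W p q') →
    ∀ (f : CuspForm (CongruenceSubgroup.Gamma0 N) 2) (𝔪 : Ideal (integralClosure ℤ ℂ))
      (S : Finset ℕ),
    f.IsNormalizedEigenform → 𝔪.IsMaximal → (p : integralClosure ℤ ℂ) ∈ 𝔪 →
    (∀ ℓ : ℕ, ℓ.Prime → ℓ ∉ S → W.IsGoodPrimeFor ℓ → ¬ ℓ ∣ N → ℓ ≠ p →
      ∃ a : integralClosure ℤ ℂ, (a : ℂ) = ModularFormClass.qCoeff f ℓ ∧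
        a - ((W.apOfModel ℓ : ℤ) : integralClosure ℤ ℂ) ∈ 𝔪) →
    LowerConcl p N q W

/-- **PIVOT, curve form, level prime to `p`, `p ≥ 5`.** -/
def Stmt_PivotWCore5 : Prop :=
  ∀ (p : ℕ), p.Prime → 5 ≤ p → ∀ (W : WeierstrassCurve ℤ), W.Δ ≠ 0 → W.IsSemistableModel →
    GaloisRepIsIrreducible (K := AlgebraicClosure ℚ) ℚ (W.map (Int.castRingHom ℚ)).toAffine p →
    ∀ (N q : ℕ), Squarefree N → ¬ p ∣ N → q.Prime → q ∣ N → UnrW W p q →
    (∀ q' : ℕ, q'.Prime → q' ∣ N → UnrW W p q' → IsExcW W p q') →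
    ∀ (f : CuspForm (CongruenceSubgroup.Gamma0 N) 2) (𝔪 : Ideal (integralClosure ℤ ℂ))
      (S : Finset ℕ),
    f.IsNormalizedEigenform → 𝔪.IsMaximal → (p : integralClosure ℤ ℂ) ∈ 𝔪 →
    (∀ ℓ : ℕ, ℓ.Prime → ℓ ∉ S → W.IsGoodPrimeFor ℓ → ¬ ℓ ∣ N → ℓ ≠ p →
      ∃ a : integralClosure ℤ ℂ, (a : ℂ) = ModularFormClass.qCoeff f ℓ ∧
        a - ((W.apOfModel ℓ : ℤ) : integralClosure ℤ ℂ) ∈ 𝔪) →
    LowerConcl p N q W

/-- **PIVOT, curve form, `p ∥ N` and `E[p]` très ramifiée at `p`, `p ≥ 5`.** -/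
def Stmt_PivotWCoreSO5 : Prop :=
  ∀ (p : ℕ), p.Prime → 5 ≤ p → ∀ (W : WeierstrassCurve ℤ), W.Δ ≠ 0 → W.IsSemistableModel →
    GaloisRepIsIrreducible (K := AlgebraicClosure ℚ) ℚ (W.map (Int.castRingHom ℚ)).toAffine p →
    ∀ (N q : ℕ), Squarefree N → p ∣ N → (p : ℤ) ∣ W.Δ →
    ¬ (W.map (Int.castRingHom ℚ)).IsPeuRamifieeAt p p →
    q.Prime → q ≠ p → q ∣ N → UnrW W p q →
    (∀ q' : ℕ, q'.Prime → q' ≠ p → q' ∣ N → UnrW W p q' → IsExcW W p q') →
    ∀ (f : CuspForm (CongruenceSubgroup.Gamma0 N) 2) (𝔪 : Ideal (integralClosure ℤ ℂ))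
      (S : Finset ℕ),
    f.IsNormalizedEigenform → 𝔪.IsMaximal → (p : integralClosure ℤ ℂ) ∈ 𝔪 →
    (∀ ℓ : ℕ, ℓ.Prime → ℓ ∉ S → W.IsGoodPrimeFor ℓ → ¬ ℓ ∣ N → ℓ ≠ p →
      ∃ a : integralClosure ℤ ℂ, (a : ℂ) = ModularFormClass.qCoeff f ℓ ∧
        a - ((W.apOfModel ℓ : ℤ) : integralClosure ℤ ℂ) ∈ 𝔪) →
    LowerConcl p N q W

/-- An odd prime is `3` or at least `5`. -/
theorem three_or_five_le_of_odd {p : ℕ} (hp : p.Prime) (hp2 : p ≠ 2) : p = 3 ∨ 5 ≤ p := by
  have h2 := hp.two_le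
  have h4 : p ≠ 4 := by
    rintro rfl
    exact absurd hp (by decide)
  omega

/-- `p ≥ 5` and `p = 3` together: every odd `p` (level prime to `p`). -/
theorem pivotWCoreAll_of (h5 : _root_.Fermat.Agent.S38.P3.Stmt_PivotWCore5) (h3 : Stmt_PivotWCore3) :
    Stmt_PivotWCoreAll := by
  intro p hp hp2
  rcases three_or_five_le_of_odd hp hp2 with rfl | h
  · exact h3
  · exact h5 p hp h

/-- `p ≥ 5` and `p = 3` together: every odd `p` (`p ∥ N`). -/
theorem pivotWCoreSOAll_of (h5 : _root_.Fermat.Agent.S38.P3.Stmt_PivotWCoreSO5) (h3 : Stmt_PivotWCoreSO3) :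
    Stmt_PivotWCoreSOAll := by
  intro p hp hp2
  rcases three_or_five_le_of_odd hp hp2 with rfl | h
  · exact h3
  · exact h5 p hp h

end Fermat.Agent.S38.P3

end
-- ==== END Fermat.Agent.S38.P3.PivotDefs

-- ==== BEGIN Fermat.Agent.S38.Wiring
section

set_option autoImplicit false
set_option synthInstance.maxHeartbeats 400000
set_option maxHeartbeats 1000000

noncomputable section

open AlgebraicCurve ModularCurve
open WeierstrassCurve WeierstrassCurve.Affine WeierstrassCurve.Affine.Point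
open scoped WeierstrassCurve.Affine

namespace Fermat.Agent.S38

open Fermat.Agent.BAD Fermat.Agent.S44 Fermat.Agent.L Fermat.Agent.S43 Fermat.Agent.S43.BadQ

/-- The three leaves of BAD_q in the generality of S38: `p` odd, `q ≠ p` any prime, squarefree
level. -/
def Stmt_FrobToricGen : Prop :=
  ∀ (p : ℕ), p.Prime → p ≠ 2 →
    ∀ (q M : ℕ) (a b : ℤ) (hab : a * q + b * M = 1) (hq : q.Prime) [NeZero (M * q)],
    q ≠ p → Squarefree (M * q) →
    ∀ A : ValuationSubring (AlgebraicClosure ℚ), A.LiesOverPrime q →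
      FrobToricAt (-1) p q M a b hab hq A

def Stmt_CompEisGen : Prop :=
  ∀ (p : ℕ), p.Prime → p ≠ 2 → ∀ (N : ℕ) [NeZero N] (q : ℕ), q.Prime → q ≠ p →
    q ∣ N → Squarefree N →
    ∀ A : ValuationSubring (AlgebraicClosure ℚ), A.LiesOverPrime q → CompEisAt p N A

def Stmt_OldGen : Prop :=
  ∀ (p : ℕ), p.Prime → p ≠ 2 → ∀ (N : ℕ) [NeZero N] (q : ℕ), q.Prime → q ≠ p →
    q ∣ N → Squarefree N →
    ∀ A : ValuationSubring (AlgebraicClosure ℚ), A.LiesOverPrime q → OldAt p N q A

/-- **BAD_q for S38**: `p` odd, `q ≠ p`, squarefree level. -/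
def Stmt_BadQsf : Prop :=
  ∀ (p : ℕ), p.Prime → p ≠ 2 → ∀ (N : ℕ) [NeZero N] (q : ℕ), q.Prime → q ≠ p →
    q ∣ N → Squarefree N →
    ∀ A : ValuationSubring (AlgebraicClosure ℚ), A.LiesOverPrime q →
      (jzModule N p).HasToricPartAt N q A

theorem badQsf_of_at (hF : Stmt_FrobToricGen) (hC : Stmt_CompEisGen) (hO : Stmt_OldGen) :
    Stmt_BadQsf := by
  intro p hp hp2 N _ q hq hqp hqN hsq A hA
  obtain ⟨M, rfl⟩ : ∃ M, N = M * q := ⟨N / q, (Nat.div_mul_cancel hqN).symm⟩
  have hqM : ¬ q ∣ M := by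
    rintro ⟨k, rfl⟩
    exact hq.not_isUnit (hsq q ⟨k, by ring⟩)
  have hcop : IsCoprime (q : ℤ) (M : ℤ) :=
    Nat.isCoprime_iff_coprime.2 ((Nat.Prime.coprime_iff_not_dvd hq).2 hqM)
  obtain ⟨a, b, hab⟩ := hcop
  exact hasToricAt_of q M a b hab hq p A Fermat.Agent.S43.H88.stmt_WHecke (Or.inr rfl)
    (hF p hp hp2 q M a b hab hq hqp hsq A hA) (hC p hp hp2 (M * q) q hq hqp hqN hsq A hA)
    (hO p hp hp2 (M * q) q hq hqp hqN hsq A hA)

/-- The statements of S43 with `p ≥ 5` restricted... are special cases. -/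
theorem frobToricOdd_of_gen (h : Stmt_FrobToricGen) : Stmt_FrobToricOdd :=
  fun p hp hp5 q M a b hab hq _ _ hqp hsq A hA =>
    h p hp (by omega) q M a b hab hq hqp hsq A hA

/-- **PIVOT, general form** (item 66): the exceptional case for a semistable model `W`.  If all
Frobenius elements at a place over `q` act on `E[p]` through one scalar (this forces
`q ≡ 1 mod p`), the level can still be lowered at `q`.  The congruence is assumed outside a finite
set `S` only, and it is obtained outside a finite set (`LowerConcl`). -/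
def Stmt_PivotW : Prop :=
  ∀ (p : ℕ), p.Prime → p ≠ 2 → ∀ (W : WeierstrassCurve ℤ), W.Δ ≠ 0 → W.IsSemistableModel →
    GaloisRepIsIrreducible (K := AlgebraicClosure ℚ) ℚ (W.map (Int.castRingHom ℚ)).toAffine p →
    ∀ (N q : ℕ), Squarefree N → q.Prime → q ≠ p → q ∣ N →
    (∀ A : ValuationSubring (AlgebraicClosure ℚ), A.LiesOverPrime q →
      ∀ σ ∈ A.inertiaSubgroupIn ℚ, ∀ v : Tors (W.map (Int.castRingHom ℚ)) p,
        galoisRepModuleEnd (S := ℚ) (K := AlgebraicClosure ℚ)
          (W.map (Int.castRingHom ℚ)).toAffine p σ v = v) →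
    ∀ (f : CuspForm (CongruenceSubgroup.Gamma0 N) 2) (𝔪 : Ideal (integralClosure ℤ ℂ))
      (S : Finset ℕ),
    f.IsNormalizedEigenform → 𝔪.IsMaximal → (p : integralClosure ℤ ℂ) ∈ 𝔪 →
    (∀ ℓ : ℕ, ℓ.Prime → ℓ ∉ S → W.IsGoodPrimeFor ℓ → ¬ ℓ ∣ N → ℓ ≠ p →
      ∃ a : integralClosure ℤ ℂ, (a : ℂ) = ModularFormClass.qCoeff f ℓ ∧
        a - ((W.apOfModel ℓ : ℤ) : integralClosure ℤ ℂ) ∈ 𝔪) →
    ∀ A : ValuationSubring (AlgebraicClosure ℚ), A.LiesOverPrime q →
    (∃ c : ZMod p, ∀ σ : GQ, A.IsFrobeniusAt σ q →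
      ∀ v : Tors (W.map (Int.castRingHom ℚ)) p,
        galoisRepModuleEnd (S := ℚ) (K := AlgebraicClosure ℚ)
          (W.map (Int.castRingHom ℚ)).toAffine p σ v = c • v) →
    LowerConcl p N q W

theorem isIntegralModelOf_map (W : WeierstrassCurve ℤ) :
    W.IsIntegralModelOf (W.map (Int.castRingHom ℚ)) :=
  ⟨1, one_smul _ _⟩

/-- **The core of S38 from the packages.** -/
theorem lowerConcl_gen (h2 : Stmt_BadQsf) (h3 : Stmt_PivotW)
    (p : ℕ) (hp : p.Prime) (hp2 : p ≠ 2) (W : WeierstrassCurve ℤ) (hΔ : W.Δ ≠ 0)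
    (hW : W.IsSemistableModel)
    (hirr : GaloisRepIsIrreducible (K := AlgebraicClosure ℚ) ℚ
      (W.map (Int.castRingHom ℚ)).toAffine p)
    (N q : ℕ) (hN : Squarefree N) (hq : q.Prime) (hqp : q ≠ p) (hqN : q ∣ N)
    (hunr : ∀ A : ValuationSubring (AlgebraicClosure ℚ), A.LiesOverPrime q →
      ∀ σ ∈ A.inertiaSubgroupIn ℚ, ∀ v : Tors (W.map (Int.castRingHom ℚ)) p,
        galoisRepModuleEnd (S := ℚ) (K := AlgebraicClosure ℚ)
          (W.map (Int.castRingHom ℚ)).toAffine p σ v = v)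
    (f : CuspForm (CongruenceSubgroup.Gamma0 N) 2)
    (𝔪 : Ideal (integralClosure ℤ ℂ)) (hf : f.IsNormalizedEigenform)
    (h𝔪 : 𝔪.IsMaximal) (hp𝔪 : (p : integralClosure ℤ ℂ) ∈ 𝔪)
    (hcong : ∀ ℓ : ℕ, ℓ.Prime → W.IsGoodPrimeFor ℓ → ¬ ℓ ∣ N → ℓ ≠ p →
      ∃ a : integralClosure ℤ ℂ, (a : ℂ) = ModularFormClass.qCoeff f ℓ ∧
        a - ((W.apOfModel ℓ : ℤ) : integralClosure ℤ ℂ) ∈ 𝔪) :
    LowerConcl p N q W := by
  have hNpos : 0 < N := Nat.pos_of_ne_zero hN.ne_zero
  have : NeZero N := ⟨hN.ne_zero⟩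
  have hWE := isIntegralModelOf_map W
  have : (W.map (Int.castRingHom ℚ)).IsElliptic :=
    ⟨isUnit_iff_ne_zero.mpr (by
      rw [WeierstrassCurve.map_Δ]
      simpa using hΔ)⟩
  obtain ⟨A, hAq⟩ := stmt_PlaceOver q hq
  by_cases hexc : ∃ c : ZMod p, ∀ σ : GQ, A.IsFrobeniusAt σ q →
      ∀ v : Tors (W.map (Int.castRingHom ℚ)) p,
        galoisRepModuleEnd (S := ℚ) (K := AlgebraicClosure ℚ)
          (W.map (Int.castRingHom ℚ)).toAffine p σ v = c • v
  · exact h3 p hp hp2 W hΔ hW hirr N q hN hq hqp hqN hunr f 𝔪 ∅ hf h𝔪 hp𝔪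
      (fun ℓ hℓ _ hg hℓN hℓp => hcong ℓ hℓ hg hℓN hℓp) A hAq hexc
  · obtain ⟨hcont, hES, hsupp⟩ := stmt_TateModP p hp hp2 N
    set S : Finset ℕ := W.Δ.natAbs.primeFactors with hS
    have hgood : ∀ ℓ : ℕ, ℓ.Prime → ℓ ∉ S → W.IsGoodPrimeFor ℓ := fun ℓ hℓ h =>
      prime_not_mem_of_good hℓ hΔ h
    obtain ⟨x, hx0, hx⟩ := hsupp f 𝔪 S (fun ℓ => W.apOfModel ℓ) hf h𝔪 hp𝔪
      (fun ℓ hℓ hℓS hℓN hℓp => hcong ℓ hℓ (hgood ℓ hℓ hℓS) hℓN hℓp)
    obtain ⟨ι, hinj, hequiv, hT⟩ := Fermat.Agent.L.H52.recovery p hp hp2 N hNpos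
      (jzModule N p) hcont hES (W.map (Int.castRingHom ℚ)) W hWE hirr S hgood x hx0 hx
    have hNE : ∃ ℓ : ℕ, ℓ.Prime ∧ ℓ ∉ S ∧ ¬ ℓ ∣ N ∧ ℓ ≠ p ∧
        ((W.apOfModel ℓ : ℤ) : ZMod p) ≠ 1 + (ℓ : ZMod p) := by
      have h := Fermat.Agent.S41.H19.stmt_I3 (W.map (Int.castRingHom ℚ)) W hWE p N hp hNpos hirr
      by_contra hcon
      apply h
      intro ℓ hℓ hℓW hℓN hℓp
      by_contra hne
      refine hcon ⟨ℓ, hℓ, ?_, hℓN, hℓp, hne⟩
      intro hmem
      rw [hS, Nat.mem_primeFactors] at hmem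
      exact hℓW (Int.natCast_dvd.mpr hmem.2.1)
    have hrem := removesQ_of_toric hp hp2 (jzModule N p) N q A
      (h2 p hp hp2 N q hq hqp hqN hN A hAq)
    obtain ⟨g, 𝔪', hg, h𝔪', hp𝔪', hgc⟩ := hrem (Tors (W.map (Int.castRingHom ℚ)) p)
      (galoisRepModuleEnd (S := ℚ) (K := AlgebraicClosure ℚ)
        (W.map (Int.castRingHom ℚ)).toAffine p)
      ι S (fun ℓ => W.apOfModel ℓ)
      (fun W' hW' => hirr.2 W' (fun σ x hx => hW' σ x hx))
      (fun σ hσ v => hunr A hAq σ hσ v)
      hexc hinj (fun σ v => hequiv σ v) hT hNE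
    exact ⟨g, 𝔪', S, hg, h𝔪', hp𝔪', fun ℓ hℓ hℓS hℓN hℓp _ => hgc ℓ hℓ hℓS hℓN hℓp⟩

/-- `LowerConcl` and COMPLETE give residual modularity of level `N / q` for the model `W`. -/
theorem isResiduallyModular_of_lowerConcl (hK : Stmt_Complete)
    (p : ℕ) (hp : p.Prime) (W : WeierstrassCurve ℤ) (hΔ : W.Δ ≠ 0)
    (N q : ℕ) (hN : Squarefree N) (hq : q.Prime) (hqN : q ∣ N)
    (h : LowerConcl p N q W) : W.IsResiduallyModularOfLevel p (N / q) := by
  obtain ⟨g, 𝔪, S, hg, hmax, hp𝔪, hcong⟩ := h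
  have hNq : N / q * q = N := Nat.div_mul_cancel hqN
  have hpos : 0 < N / q :=
    Nat.div_pos (Nat.le_of_dvd (Nat.pos_of_ne_zero hN.ne_zero) hqN) hq.pos
  refine ⟨g, 𝔪, hg, hmax, hp𝔪, ?_⟩
  refine hK p hp W hΔ (N / q) hpos g 𝔪 (insert q S) hg hmax hp𝔪 ?_
  intro ℓ hℓ hℓS hgood hℓM hℓp
  have hℓq : ℓ ≠ q := fun h => hℓS (by rw [h]; exact Finset.mem_insert_self _ _)
  have hℓS' : ℓ ∉ S := fun h => hℓS (Finset.mem_insert_of_mem h)
  have hℓN : ¬ ℓ ∣ N := by
    intro hd
    rw [← hNq] at hd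
    rcases (Nat.Prime.dvd_mul hℓ).1 hd with h | h
    · exact hℓM h
    · exact hℓq ((Nat.prime_dvd_prime_iff_eq hℓ hq).1 h)
  exact hcong ℓ hℓ hℓS' hℓN hℓp hgood

/-- **S38 from BAD_q (squarefree levels), PIVOT (general form) and COMPLETE.**  The conclusion is
the frozen statement S38. -/
theorem result_of_badq (h2 : Stmt_BadQsf) (h3 : Stmt_PivotW) (hK : Stmt_Complete)
    (p : ℕ) [Fact p.Prime] (_hp2 : p ≠ 2) (W : WeierstrassCurve ℤ) (_hΔ : W.Δ ≠ 0)
    (_hW : W.IsSemistableModel)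
    (hcard₁ : Nat.card (Submodule.torsionBy ℤ
      ((W.map (Int.castRingHom ℚ))⁄(AlgebraicClosure ℚ)).Point p) = p ^ 2)
    (hker : GaloisFactorsThroughFiniteLevel
      (WeierstrassCurve.Affine.Point.galoisRepModuleEnd (K := AlgebraicClosure ℚ) ℚ
        (W.map (Int.castRingHom ℚ)) p))
    (_hirr : W.ModRepIsIrreducible p) (M q : ℕ) (hq : q.Prime) (hqp : q ≠ p)
    (hqM : q ∣ M) (_hq2 : ¬ q ^ 2 ∣ M) (hM : Squarefree M)
    (hunr : ((W.map (Int.castRingHom ℚ)).residualGaloisRepOf p hcard₁ hker).IsUnramifiedAt q)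
    (hres : W.IsResiduallyModularOfLevel p M) :
    W.IsResiduallyModularOfLevel p (M / q) := by
  have hp : p.Prime := Fact.out
  obtain ⟨f, 𝔪, hf, h𝔪, hp𝔪, hcong⟩ := hres
  refine isResiduallyModular_of_lowerConcl hK p hp W _hΔ M q hM hq hqM ?_
  refine lowerConcl_gen h2 h3 p hp _hp2 W _hΔ _hW _hirr M q hM hq hqp hqM ?_ f 𝔪 hf h𝔪 hp𝔪 hcong
  intro A hA σ hσ v
  have h1 := hunr A hA σ hσ
  have h2 : galoisRepModuleEnd (S := ℚ) (K := AlgebraicClosure ℚ)
      (W.map (Int.castRingHom ℚ)).toAffine p σ = 1 := h1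
  rw [h2]
  rfl

/-- **S38 from the leaves.** -/
theorem result_of_leaves (hF : Stmt_FrobToricGen) (hC : Stmt_CompEisGen) (hO : Stmt_OldGen)
    (h3 : Stmt_PivotW) (hK : Stmt_Complete)
    (p : ℕ) [Fact p.Prime] (_hp2 : p ≠ 2) (W : WeierstrassCurve ℤ) (_hΔ : W.Δ ≠ 0)
    (_hW : W.IsSemistableModel)
    (hcard₁ : Nat.card (Submodule.torsionBy ℤ
      ((W.map (Int.castRingHom ℚ))⁄(AlgebraicClosure ℚ)).Point p) = p ^ 2)
    (hker : GaloisFactorsThroughFiniteLevel
      (WeierstrassCurve.Affine.Point.galoisRepModuleEnd (K := AlgebraicClosure ℚ) ℚ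
        (W.map (Int.castRingHom ℚ)) p))
    (_hirr : W.ModRepIsIrreducible p) (M q : ℕ) (hq : q.Prime) (hqp : q ≠ p)
    (hqM : q ∣ M) (hq2 : ¬ q ^ 2 ∣ M) (hM : Squarefree M)
    (hunr : ((W.map (Int.castRingHom ℚ)).residualGaloisRepOf p hcard₁ hker).IsUnramifiedAt q)
    (hres : W.IsResiduallyModularOfLevel p M) :
    W.IsResiduallyModularOfLevel p (M / q) :=
  result_of_badq (badQsf_of_at hF hC hO) h3 hK p _hp2 W _hΔ _hW hcard₁ hker _hirr M q hq hqp
    hqM hq2 hM hunr hres

end Fermat.Agent.S38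

end
end
-- ==== END Fermat.Agent.S38.Wiring

-- ==== BEGIN Fermat.Agent.S39.FinGood.H71_FinLocLin
section

set_option autoImplicit false

noncomputable section

namespace Fermat.Agent.S39.FinGood.H71

variable {k V : Type*} [Field k] [AddCommGroup V] [Module k V]

/-- A proper nonzero subspace of a plane is spanned by the first vector of a basis. -/
theorem exists_basis_of_line (h2 : Module.finrank k V = 2) (L : Submodule k V) (h0 : L ≠ ⊥)
    (h1 : L ≠ ⊤) : ∃ b : Module.Basis (Fin 2) k V, L = Submodule.span k {b 0} := by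
  have : FiniteDimensional k V := Module.finite_of_finrank_pos (by omega)
  obtain ⟨v, hvL, hv0⟩ := Submodule.exists_mem_ne_zero_of_ne_bot h0
  have hL1 : Module.finrank k L = 1 := by
    have h3 : Module.finrank k L < 2 := h2 ▸ Submodule.finrank_lt h1
    have h4 : 0 < Module.finrank k L :=
      Module.finrank_pos_iff_exists_ne_zero.mpr
        ⟨⟨v, hvL⟩, fun h => hv0 (congrArg Subtype.val h)⟩
    omega
  have hspan : L = Submodule.span k {v} := by
    refine le_antisymm (fun w hw => ?_) ((Submodule.span_singleton_le_iff_mem _ _).mpr hvL)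
    have h5 := (finrank_eq_one_iff_of_nonzero' (⟨v, hvL⟩ : L)
      (fun h => hv0 (congrArg Subtype.val h))).mp hL1 ⟨w, hw⟩
    obtain ⟨c, hc⟩ := h5
    rw [Submodule.mem_span_singleton]
    exact ⟨c, congrArg Subtype.val hc⟩
  obtain ⟨w, hw⟩ : ∃ w, w ∉ L := by
    by_contra h
    push_neg at h
    exact h1 (eq_top_iff.mpr fun x _ => h x)
  have hli : LinearIndependent k ![v, w] := by
    rw [LinearIndependent.pair_iff' hv0]
    intro a ha
    apply hw
    rw [← ha]
    exact L.smul_mem a hvL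
  refine ⟨basisOfLinearIndependentOfCardEqFinrank hli (by simp [h2]), ?_⟩
  rw [coe_basisOfLinearIndependentOfCardEqFinrank, hspan]
  rfl

variable (b : Module.Basis (Fin 2) k V)

/-- The coefficient of `b 0` in `T (b 0)`. -/
def triX (T : Module.End k V) : k := b.repr (T (b 0)) 0

/-- The coefficient of `b 0` in `T (b 1)`. -/
def triC (T : Module.End k V) : k := b.repr (T (b 1)) 0

/-- The coefficient of `b 1` in `T (b 1)`. -/
def triZ (T : Module.End k V) : k := b.repr (T (b 1)) 1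

theorem repr_one_of_mem_span {y : V} (hy : y ∈ Submodule.span k {b 0}) : b.repr y 1 = 0 := by
  obtain ⟨t, rfl⟩ := Submodule.mem_span_singleton.mp hy
  rw [map_smul, Finsupp.smul_apply, Module.Basis.repr_self,
    Finsupp.single_eq_of_ne (by decide), smul_zero]

theorem tri_apply_one (T : Module.End k V) : T (b 1) = triC b T • b 0 + triZ b T • b 1 := by
  have h := b.sum_repr (T (b 1))
  rw [Fin.sum_univ_two] at h
  exact h.symm

theorem tri_apply_zero (T : Module.End k V) (hT : T (b 0) ∈ Submodule.span k {b 0}) :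
    T (b 0) = triX b T • b 0 := by
  have h := b.sum_repr (T (b 0))
  rw [Fin.sum_univ_two, repr_one_of_mem_span b hT, zero_smul, add_zero] at h
  exact h.symm

theorem triZ_mul (S T : Module.End k V) (hS : S (b 0) ∈ Submodule.span k {b 0}) :
    triZ b (S * T) = triZ b S * triZ b T := by
  have h1 : (S * T) (b 1) = (triC b T * triX b S + triZ b T * triC b S) • b 0
      + (triZ b T * triZ b S) • b 1 := by
    rw [Module.End.mul_apply, tri_apply_one b T, map_add, map_smul, map_smul,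
      tri_apply_zero b S hS, tri_apply_one b S, smul_add, smul_smul, smul_smul, smul_smul,
      add_smul]
    abel
  unfold triZ
  rw [h1, map_add, map_smul, map_smul, Finsupp.add_apply, Finsupp.smul_apply,
    Finsupp.smul_apply, Module.Basis.repr_self, Module.Basis.repr_self,
    Finsupp.single_eq_of_ne (by decide), Finsupp.single_eq_same, smul_zero, zero_add,
    smul_eq_mul, mul_one, mul_comm]
  rfl

theorem triC_mul (S T : Module.End k V) (hS : S (b 0) ∈ Submodule.span k {b 0}) :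
    triC b (S * T) = triX b S * triC b T + triC b S * triZ b T := by
  have h1 : (S * T) (b 1) = (triC b T * triX b S + triZ b T * triC b S) • b 0
      + (triZ b T * triZ b S) • b 1 := by
    rw [Module.End.mul_apply, tri_apply_one b T, map_add, map_smul, map_smul,
      tri_apply_zero b S hS, tri_apply_one b S, smul_add, smul_smul, smul_smul, smul_smul,
      add_smul]
    abel
  unfold triC
  rw [h1, map_add, map_smul, map_smul, Finsupp.add_apply, Finsupp.smul_apply,
    Finsupp.smul_apply, Module.Basis.repr_self, Module.Basis.repr_self,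
    Finsupp.single_eq_same, Finsupp.single_eq_of_ne (by decide), smul_zero, add_zero,
    smul_eq_mul, mul_one]
  unfold triC
  ring

theorem tri_det (T : Module.End k V) (hT : T (b 0) ∈ Submodule.span k {b 0}) :
    LinearMap.det T = triX b T * triZ b T := by
  classical
  rw [← LinearMap.det_toMatrix b, Matrix.det_fin_two]
  have h10 : LinearMap.toMatrix b b T 1 0 = 0 := by
    rw [LinearMap.toMatrix_apply]
    exact repr_one_of_mem_span b hT
  rw [h10, mul_zero, sub_zero, LinearMap.toMatrix_apply, LinearMap.toMatrix_apply]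
  rfl

theorem triZ_eq_one (T : Module.End k V) (hT : T (b 1) - b 1 ∈ Submodule.span k {b 0}) :
    triZ b T = 1 := by
  have h := repr_one_of_mem_span b hT
  rw [map_sub, Finsupp.sub_apply, Module.Basis.repr_self, Finsupp.single_eq_same,
    sub_eq_zero] at h
  exact h

theorem tri_eq_one (T : Module.End k V) (hT : T (b 0) ∈ Submodule.span k {b 0})
    (hX : triX b T = 1) (hZ : triZ b T = 1) (hC : triC b T = 0) : T = 1 := by
  refine b.ext fun i => ?_
  fin_cases i
  · show T (b 0) = b 0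
    rw [tri_apply_zero b T hT, hX, one_smul]
  · show T (b 1) = b 1
    rw [tri_apply_one b T, hZ, hC, zero_smul, zero_add, one_smul]

theorem triC_one : triC b (1 : Module.End k V) = 0 := by
  unfold triC
  rw [Module.End.one_apply, Module.Basis.repr_self, Finsupp.single_eq_of_ne (by decide)]

end Fermat.Agent.S39.FinGood.H71

end
end
-- ==== END Fermat.Agent.S39.FinGood.H71_FinLocLin

-- ==== BEGIN Fermat.Agent.S39.FinMult.Defs
section

set_option autoImplicit false

namespace Fermat.Agent.S39.FinMult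

open WeierstrassCurve WeierstrassCurve.Affine
open Fermat.Agent.S05 (InE0 InE1 valUnit)
open Fermat.Agent.S44.C (lam)

section model

variable {L : Type*} [Field L]

/-- Hypotheses on the node model `y² = x³ + a x² + b x + c` relative to a valuation subring `A`:
`2` and `a` are units, `|b|, |c| ≤ |Δ| < 1`, `Δ ≠ 0`. -/
structure NodeHyp (A : ValuationSubring L) (W : Affine L) : Prop where
  a₁ : W.a₁ = 0
  a₃ : W.a₃ = 0
  two : A.valuation (2 : L) = 1
  a_one : A.valuation W.a₂ = 1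
  b_le : A.valuation W.a₄ ≤ A.valuation W.Δ
  c_le : A.valuation W.a₆ ≤ A.valuation W.Δ
  Δ_lt : A.valuation W.Δ < 1
  Δ_ne : W.Δ ≠ 0

/-- `|Δ|` as a unit of the value group. -/
noncomputable def dUnit {A : ValuationSubring L} {W : Affine L} (hyp : NodeHyp A W) :
    (A.ValueGroup)ˣ :=
  Units.mk0 (A.valuation W.Δ) (by simpa using hyp.Δ_ne)

/-- The component group `Γˣ / ⟨|Δ|⟩` of the node model. -/
abbrev NodeComp {A : ValuationSubring L} {W : Affine L} (hyp : NodeHyp A W) : Type _ :=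
  (A.ValueGroup)ˣ ⧸ Subgroup.zpowers (dUnit hyp)

end model

/-- **NODE-M1** (component homomorphism of the node model; transport of `S05.M1`). -/
def Stmt_NodeM1 : Prop :=
  ∀ (L : Type) [Field L] [DecidableEq L] [IsAlgClosed L] (A : ValuationSubring L) (W : Affine L)
    (hyp : NodeHyp A W) (β : L), β ^ 2 = W.a₂ →
  ∃ φ : W.Point →+ Additive (NodeComp hyp),
    (∀ P, φ P = 0 ↔ InE0 A P) ∧
    (∀ (x y : L) (h : W.Nonsingular x y) (hx0 : x ≠ 0),
      A.valuation W.Δ < A.valuation x ^ 2 → A.valuation x < 1 →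
      A.valuation (y - β * x) < A.valuation x →
      φ (.some x y h) = Additive.ofMul (QuotientGroup.mk (valUnit A x hx0)))

/-- **NODE-E1**: `E₁` is a subgroup of the node model. -/
def Stmt_NodeE1 : Prop :=
  ∀ (L : Type) [Field L] [DecidableEq L] [IsAlgClosed L] (A : ValuationSubring L) (W : Affine L),
    NodeHyp A W → ∀ P Q : W.Point, InE1 A P → InE1 A Q → InE1 A (P + Q)

/-- **NODE-ROOT**: a point of order `p` of the node model outside `E₀`. -/
def Stmt_NodeRoot : Prop :=
  ∀ (L : Type) [Field L] [DecidableEq L] [IsAlgClosed L] [CharZero L] (A : ValuationSubring L)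
    (p : ℕ), p.Prime → p ≠ 2 → A.valuation (p : L) < 1 →
  ∀ (W : Affine L), NodeHyp A W →
    ∃ (x y : L) (h : W.Nonsingular x y), p • Point.some x y h = 0 ∧ A.valuation x < 1

/-- **NODE-M** (multiplicativity of `lam` on `E₀` of the node model): `lam` is a unit on `E₀`,
`lam (-P) = (lam P)⁻¹`, `|lam P - 1|² |x(P)| = 1` on `E₀`, and
`|lam (P + Q) - lam P · lam Q| ≤ |Δ| · |lam Q - 1|` for `P, Q, P + Q ∈ E₀`. -/
def Stmt_NodeM : Prop :=
  ∀ (L : Type) [Field L] [DecidableEq L] (A : ValuationSubring L) (W : Affine L),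
    NodeHyp A W → ∀ β : L, β ^ 2 = W.a₂ →
    (∀ P : W.Point, InE0 A P → A.valuation (lam β P) = 1) ∧
    (∀ P : W.Point, lam β (-P) = (lam β P)⁻¹) ∧
    (∀ (x y : L) (h : W.Nonsingular x y), 1 ≤ A.valuation x →
      A.valuation (lam β (Point.some x y h) - 1) ^ 2 * A.valuation x = 1) ∧
    (∀ P Q : W.Point, InE0 A P → InE0 A Q → InE0 A (P + Q) →
      A.valuation (lam β (P + Q) - lam β P * lam β Q) ≤
        A.valuation W.Δ * A.valuation (lam β Q - 1))

/-- **NODE-L4** (no small `p`-torsion in `E₁`): if `|Δ| < |p| < 1`, `S ∈ E₁`, `p S = O` and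
`|lam S - 1| ^ (p - 1) < |p|` then `S = O`. -/
def Stmt_NodeL4 : Prop :=
  ∀ (L : Type) [Field L] [DecidableEq L] [IsAlgClosed L] (A : ValuationSubring L) (W : Affine L),
    NodeHyp A W → ∀ β : L, β ^ 2 = W.a₂ →
    ∀ p : ℕ, p.Prime → A.valuation (p : L) < 1 → A.valuation W.Δ < A.valuation (p : L) →
    ∀ S : W.Point, InE1 A S → p • S = 0 →
      A.valuation (lam β S - 1) ^ (p - 1) < A.valuation (p : L) → S = 0

/-- **NODE-ARITH** (the node model of an integral model with multiplicative reduction at an odd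
prime `p`): a curve `G` over `ℚ`, isomorphic to `W` by a change of variables with `u = 1`, which
is a node model at every place over `p`, with the same discriminant.
[`x = X - x₀`, `y = Y + (a₁ X + a₃)/2`, `x₀ = (18 b₆ - b₂ b₄)/c₄`; then `a = -c₆/(4 c₄)`,
`b = -36 Δ/c₄²`, `c = Δ c₆/c₄³`, and `c₆² = c₄³ - 1728 Δ` is prime to `p`.] -/
def Stmt_NodeArith : Prop :=
  ∀ (W : WeierstrassCurve ℤ), W.Δ ≠ 0 → ∀ (p : ℕ), p.Prime → p ≠ 2 →
    (p : ℤ) ∣ W.Δ → ¬ (p : ℤ) ∣ W.c₄ →
    ∀ A : ValuationSubring (AlgebraicClosure ℚ), A.LiesOverPrime p →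
    ∃ (G : Affine ℚ) (r s t : ℚ),
      Fermat.Agent.S05.H14.IsVarChange
        ((W.map (Int.castRingHom ℚ)).toAffine⁄(AlgebraicClosure ℚ)) (G⁄(AlgebraicClosure ℚ))
        (1 : AlgebraicClosure ℚ) (algebraMap ℚ (AlgebraicClosure ℚ) r)
        (algebraMap ℚ (AlgebraicClosure ℚ) s) (algebraMap ℚ (AlgebraicClosure ℚ) t) ∧
      NodeHyp A (G⁄(AlgebraicClosure ℚ)) ∧
      G.Δ = ((W.Δ : ℤ) : ℚ)

/-- **NODE-PEU** (arithmetic of `p ∣ v_p(Δ)`): `|Δ| = |c₀| ^ p` for a rational `c₀`, and
`|Δ| ≤ |p|²`. -/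
def Stmt_NodePeu : Prop :=
  ∀ (W : WeierstrassCurve ℤ), W.Δ ≠ 0 → ∀ (p : ℕ), p.Prime → p ≠ 2 → (p : ℤ) ∣ W.Δ →
    (W.map (Int.castRingHom ℚ)).IsPeuRamifieeAt p p →
    ∀ A : ValuationSubring (AlgebraicClosure ℚ), A.LiesOverPrime p →
    ∃ c₀ : ℚ,
      A.valuation (algebraMap ℚ (AlgebraicClosure ℚ) c₀) ^ p =
        A.valuation (((W.Δ : ℤ) : ℚ) : AlgebraicClosure ℚ) ∧
      A.valuation (((W.Δ : ℤ) : ℚ) : AlgebraicClosure ℚ) ≤
        A.valuation ((p : ℕ) : AlgebraicClosure ℚ) ^ 2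

end Fermat.Agent.S39.FinMult

end
-- ==== END Fermat.Agent.S39.FinMult.Defs

-- ==== BEGIN Fermat.Agent.S39.H71_OldCase
section

/-!
# S39 / S40, leaf OLD-NEW at `p`: the old case (helper71)

`residuallyModular_of_occurs` : an eigensystem `χ` of level `N` (away from `S`) with values in a
local domain `𝒪` of characteristic `0` and residue characteristic `p`, congruent to the
eigenvalues of `W` modulo the maximal ideal, which occurs at level `M`, makes `W` residually
modular of level `M`.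
[`L.Pivot.H50.exists_complex_point` gives a complex eigencharacter `μ` of level `M` with
`ker μ = ker χ'`; `R.H99.exists_normalizedEigenform_of_character` a normalised eigenform; the
prime `χ'⁻¹(𝔪_𝒪)` of the Hecke algebra contains `ker μ`, so by lying over there is a maximal ideal
of `ℤ̄` over it.]
-/

set_option autoImplicit false
set_option linter.unusedSectionVars false
set_option linter.unusedVariables false
set_option linter.style.haveILetI false

open IsLocalRing CuspForm CongruenceSubgroup ModularFormClass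

namespace Fermat.Agent.S39.H71

open Fermat.Agent.R

/-- A prime ideal of `ℤ̄` which contains a prime number is maximal. -/
theorem isMaximal_of_natCast_mem {p : ℕ} (hp : p.Prime) (Q : Ideal (integralClosure ℤ ℂ))
    [hQ : Q.IsPrime] (hpQ : (p : integralClosure ℤ ℂ) ∈ Q) : Q.IsMaximal := by
  have h1 : (Q.comap (algebraMap ℤ (integralClosure ℤ ℂ))).IsPrime := Ideal.comap_isPrime _ _
  have h2 : Q.comap (algebraMap ℤ (integralClosure ℤ ℂ)) ≠ ⊥ := by
    intro h
    have h3 : (p : ℤ) ∈ Q.comap (algebraMap ℤ (integralClosure ℤ ℂ)) := by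
      rw [Ideal.mem_comap, map_natCast]
      exact hpQ
    rw [h, Ideal.mem_bot] at h3
    exact hp.ne_zero (by exact_mod_cast h3)
  have h4 : (Q.comap (algebraMap ℤ (integralClosure ℤ ℂ))).IsMaximal := h1.isMaximal h2
  exact Ideal.isMaximal_of_isIntegral_of_isMaximal_comap Q h4

/-- **The old case.** -/
theorem residuallyModular_of_occurs (W : WeierstrassCurve ℤ) {p : ℕ} (hp : p.Prime)
    {N M : ℕ} [NeZero N] [NeZero M] (S : Finset ℕ)
    {𝒪 : Type} [CommRing 𝒪] [IsDomain 𝒪] [CharZero 𝒪] [IsLocalRing 𝒪]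
    (hp𝒪 : (p : 𝒪) ∈ maximalIdeal 𝒪)
    (χ : heckeAlgebra N 2 (↑S : Set ℕ) →+* 𝒪)
    (hχ : ∀ (ℓ : ℕ) (hℓ : ℓ.Prime) (hℓN : ¬ ℓ ∣ N) (hℓS : ℓ ∉ (↑S : Set ℕ)),
      W.IsGoodPrimeFor ℓ →
        χ (heckeAlgebra.T hℓ hℓN hℓS) - ((W.apOfModel ℓ : ℤ) : 𝒪) ∈ maximalIdeal 𝒪)
    (hocc : OccursAtLevel χ M)
    (hcover : ∀ ℓ : ℕ, ℓ.Prime → ¬ ℓ ∣ M → ℓ ≠ p → ¬ ℓ ∣ N ∧ ℓ ∉ (↑S : Set ℕ)) :
    W.IsResiduallyModularOfLevel p M := by
  classical
  obtain ⟨χ', hχ'⟩ := hocc
  obtain ⟨μ, w, hw0, hμ, hker⟩ := Fermat.Agent.L.Pivot.H50.exists_complex_point (↑S : Set ℕ) χ'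
  obtain ⟨g, hg, hgμ⟩ :=
    Fermat.Agent.R.H99.exists_normalizedEigenform_of_character (↑S : Set ℕ) μ w hw0 hμ
  have hg0 : g ≠ 0 := hg.ne_zero
  have ha : ∀ (ℓ : ℕ) (hℓ : ℓ.Prime) (hℓM : ¬ ℓ ∣ M) (hℓS : ℓ ∉ (↑S : Set ℕ)),
      qCoeff ⇑g ℓ = μ (heckeAlgebra.T hℓ hℓM hℓS) := by
    intro ℓ hℓ hℓM hℓS
    have h1 := hgμ (heckeAlgebra.T hℓ hℓM hℓS)
    rw [heckeAlgebra.coe_T] at h1
    have h2 := Fermat.Agent.R.H99.heckeTLin_apply_eq_smul hg hℓ hℓM
    exact smul_left_injective ℂ hg0 (h2.symm.trans h1)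
  -- the values of `μ` are algebraic integers
  have hfinT : Module.Finite ℤ (heckeAlgebra M 2 (↑S : Set ℕ)) := Fermat.Agent.S22.result M 2 _
  have hint : ∀ t : heckeAlgebra M 2 (↑S : Set ℕ), μ t ∈ integralClosure ℤ ℂ := by
    intro t
    have ht : IsIntegral ℤ t := Algebra.IsIntegral.isIntegral t
    exact ht.map μ.toIntAlgHom
  let μZ : heckeAlgebra M 2 (↑S : Set ℕ) →+* integralClosure ℤ ℂ :=
    { toFun := fun t => ⟨μ t, hint t⟩
      map_one' := Subtype.ext (map_one μ)
      map_mul' := fun x y => Subtype.ext (map_mul μ x y)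
      map_zero' := Subtype.ext (map_zero μ)
      map_add' := fun x y => Subtype.ext (map_add μ x y) }
  have hμZ : ∀ t, ((μZ t : integralClosure ℤ ℂ) : ℂ) = μ t := fun t => rfl
  have hkerZ : RingHom.ker μZ = RingHom.ker χ' := by
    rw [← hker]
    ext t
    rw [RingHom.mem_ker, RingHom.mem_ker]
    constructor
    · intro h
      have := congrArg (fun y : integralClosure ℤ ℂ => (y : ℂ)) h
      exact this
    · intro h
      exact Subtype.ext h
  -- lying over
  letI : Algebra (heckeAlgebra M 2 (↑S : Set ℕ)) (integralClosure ℤ ℂ) := μZ.toAlgebra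
  have hZint : Algebra.IsIntegral (heckeAlgebra M 2 (↑S : Set ℕ)) (integralClosure ℤ ℂ) := by
    refine ⟨fun x => ?_⟩
    have hx : IsIntegral ℤ x := Algebra.IsIntegral.isIntegral x
    exact hx.tower_top
  let 𝔮 : Ideal (heckeAlgebra M 2 (↑S : Set ℕ)) := (maximalIdeal 𝒪).comap χ'
  have h𝔮 : 𝔮.IsPrime := Ideal.comap_isPrime _ _
  have hker𝔮 : RingHom.ker (algebraMap (heckeAlgebra M 2 (↑S : Set ℕ)) (integralClosure ℤ ℂ))
      ≤ 𝔮 := by
    intro t ht
    have h1 : t ∈ RingHom.ker μZ := ht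
    rw [hkerZ, RingHom.mem_ker] at h1
    show χ' t ∈ maximalIdeal 𝒪
    rw [h1]
    exact Ideal.zero_mem _
  obtain ⟨Q, hQ, hQ𝔮⟩ := Ideal.exists_ideal_over_prime_of_isIntegral_of_isDomain 𝔮 hker𝔮
  have hmemQ : ∀ t : heckeAlgebra M 2 (↑S : Set ℕ), χ' t ∈ maximalIdeal 𝒪 → μZ t ∈ Q := by
    intro t ht
    have h1 : t ∈ 𝔮 := ht
    rw [← hQ𝔮] at h1
    exact h1
  have hpQ : (p : integralClosure ℤ ℂ) ∈ Q := by
    have h1 := hmemQ (p : heckeAlgebra M 2 (↑S : Set ℕ)) (by rw [map_natCast]; exact hp𝒪)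
    rwa [map_natCast] at h1
  refine ⟨g, Q, hg, isMaximal_of_natCast_mem hp Q hpQ, hpQ, ?_⟩
  intro ℓ hℓ hgood hℓM hℓp
  obtain ⟨hℓN, hℓS⟩ := hcover ℓ hℓ hℓM hℓp
  refine ⟨μZ (heckeAlgebra.T hℓ hℓM hℓS), ?_, ?_⟩
  · rw [hμZ, ha ℓ hℓ hℓM hℓS]
  · have h1 := hmemQ (heckeAlgebra.T hℓ hℓM hℓS - ((W.apOfModel ℓ : ℤ) :
      heckeAlgebra M 2 (↑S : Set ℕ))) (by
        rw [map_sub, map_intCast, hχ' ℓ hℓ hℓN hℓM hℓS]
        exact hχ ℓ hℓ hℓN hℓS hgood)
    rwa [map_sub, map_intCast] at h1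

end Fermat.Agent.S39.H71

end
-- ==== END Fermat.Agent.S39.H71_OldCase

-- ==== BEGIN Fermat.Agent.S39.Wiring
section

set_option autoImplicit false
set_option synthInstance.maxHeartbeats 400000
set_option maxHeartbeats 1000000

noncomputable section

open WeierstrassCurve WeierstrassCurve.Affine WeierstrassCurve.Affine.Point
open scoped WeierstrassCurve.Affine

namespace Fermat.Agent.S39

open Fermat.Agent.S44 Fermat.Agent.L

/-- **Steinberg shape at `p`** of a Galois module `V` over `ZMod p`, with respect to a place `A`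
of `ℚ̄` over `p`: a proper nonzero submodule `L`, stable under the decomposition group, such that
inertia acts trivially on `V / L` and the square of every Frobenius element acts trivially on
`V / L`.  (The shape of the reduction of a `p`-new form of level `p M'`:
`[[ε χ, *], [0, χ]]`, `χ` unramified, `χ² = 1`.) -/
def SteinbergShapeAt (p : ℕ) (A : ValuationSubring (AlgebraicClosure ℚ))
    {V : Type} [AddCommGroup V] [Module (ZMod p) V] (ρ : GQ →* Module.End (ZMod p) V) : Prop :=
  ∃ L : Submodule (ZMod p) V, L ≠ ⊥ ∧ L ≠ ⊤ ∧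
    (∀ σ ∈ A.decompositionSubgroup ℚ, ∀ x ∈ L, ρ σ x ∈ L) ∧
    (∀ σ ∈ A.inertiaSubgroupIn ℚ, ∀ x : V, ρ σ x - x ∈ L) ∧
    (∀ σ : GQ, A.IsFrobeniusAt σ p → ∀ x : V, ρ (σ * σ) x - x ∈ L)

/-- The Galois representation on `E[p]` for the integral model `W`. -/
abbrev rhoTors (W : WeierstrassCurve ℤ) (p : ℕ) :
    GQ →* Module.End (ZMod p) (Tors (W.map (Int.castRingHom ℚ)) p) :=
  galoisRepModuleEnd (S := ℚ) (K := AlgebraicClosure ℚ) (W.map (Int.castRingHom ℚ)).toAffine p

/-- **Mazur's principle at `p`, module form, all odd `p`** (BAD_p): `J₀(N)[p]`, `p ∥ N`. -/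
def Stmt_RemovesPGen : Prop :=
  ∀ (p : ℕ), p.Prime → p ≠ 2 → ∀ (N : ℕ) [NeZero N], p ∣ N → ¬ p ^ 2 ∣ N →
    ∀ A : ValuationSubring (AlgebraicClosure ℚ), A.LiesOverPrime p →
      (jzModule N p).RemovesP N A

/-- BAD_p in the form of `S44.Stmt_BadP2`, without `5 ≤ p`. -/
def Stmt_BadP2Gen : Prop :=
  ∀ (p : ℕ), p.Prime → p ≠ 2 → ∀ (N : ℕ) [NeZero N], p ∣ N → ¬ p ^ 2 ∣ N →
    ∀ A : ValuationSubring (AlgebraicClosure ℚ), A.LiesOverPrime p →
      (jzModule N p).HasBadStructure N A

theorem removesPGen_of_badP2Gen (h : Stmt_BadP2Gen) : Stmt_RemovesPGen :=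
  fun p hp hp2 N _ hpN hp2N A hA =>
    removesP_of_badStructure (jzModule N p) N A (h p hp hp2 N hpN hp2N A hA)

/-- `S44.Stmt_BadP2` is the case `5 ≤ p`. -/
theorem badP2_of_gen (h : Stmt_BadP2Gen) : Stmt_BadP2 :=
  fun p hp hp5 N _ hpN hp2N A hA => h p hp (by omega) N hpN hp2N A hA

/-- **FIN-MULT** (case C): multiplicative reduction at `p` with `p ∣ v_p(Δ)`: `E[p]` is finite
at `p`.  (Tate curve: the inertia field of `E[p]` is `ℚ_p^nr(μ_p, q_E^{1/p})`,
`q_E = p^{p k} u`.  General form of `S44.Stmt_FreyFiniteAtP`.) -/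
def Stmt_FinMult : Prop :=
  ∀ (W : WeierstrassCurve ℤ), W.Δ ≠ 0 → ∀ (p : ℕ), p.Prime → p ≠ 2 →
    (p : ℤ) ∣ W.Δ → ¬ (p : ℤ) ∣ W.c₄ → (W.map (Int.castRingHom ℚ)).IsPeuRamifieeAt p p →
    ∀ A : ValuationSubring (AlgebraicClosure ℚ), A.LiesOverPrime p →
      IsFiniteAt p A (rhoTors W p)

/-- **OLD-NEW at `p`** (cases A, B): for a curve with good reduction at `p` and irreducible
`E[p]`, residually modular of a level `M` with `p ∥ M`: either it is residually modular of level
`M / p`, or `E[p]` has the Steinberg shape at every place over `p`.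
[The eigensystem of `f` away from `M` is the eigensystem of a newform `g` of a level `L ∣ M`.
If `p ∤ L`: raise the level of `g` to `M / p` (stabilisation).  If `p ∣ L`: `g` is `p`-new, so
`ρ_g` is strictly ordinary at `p` (S33 `Stmt_OrdNewStrict`), its reduction is `E[p] ⊗ k`
(Frobenius density + Brauer–Nesbitt), and the stable line descends to `ZMod p` because inertia
acts non-trivially on `E[p]` (`det = ε`, `p` odd).] -/
def Stmt_OldNewP : Prop :=
  ∀ (W : WeierstrassCurve ℤ), W.Δ ≠ 0 → ∀ (p : ℕ), p.Prime → p ≠ 2 →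
    W.IsGoodPrimeFor p → W.ModRepIsIrreducible p →
    ∀ (M : ℕ), 0 < M → p ∣ M → ¬ p ^ 2 ∣ M → W.IsResiduallyModularOfLevel p M →
    W.IsResiduallyModularOfLevel p (M / p) ∨
      ∀ A : ValuationSubring (AlgebraicClosure ℚ), A.LiesOverPrime p →
        SteinbergShapeAt p A (rhoTors W p)

/-- **FIN-GOOD** (case B): good reduction at `p` and Steinberg shape at `p`: `E[p]` is finite at
`p`.  [`E[p]` is flat at `p` (good reduction); with the Steinberg shape it is, up to the
quadratic unramified twist `χ`, an extension of `ℤ/p` by `μ_p` over `ℚ_p`, given by a Kummer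
class `c ∈ ℚ_p^× / p`; flat ⟹ `c` is a unit class (`S15.Desc.H66.stmt_FlatKummer`), and a unit
class of `ℚ_p^×/p` is represented by an integer prime to `p`.] -/
def Stmt_FinGood : Prop :=
  ∀ (W : WeierstrassCurve ℤ), W.Δ ≠ 0 → ∀ (p : ℕ), p.Prime → p ≠ 2 →
    W.IsGoodPrimeFor p → W.ModRepIsIrreducible p →
    ∀ A : ValuationSubring (AlgebraicClosure ℚ), A.LiesOverPrime p →
      SteinbergShapeAt p A (rhoTors W p) → IsFiniteAt p A (rhoTors W p)

theorem isIntegralModelOf_map' (W : WeierstrassCurve ℤ) :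
    W.IsIntegralModelOf (W.map (Int.castRingHom ℚ)) :=
  ⟨1, one_smul _ _⟩

/-- **The common core**: Mazur's principle at `p` for a curve whose `E[p]` is finite at `p`. -/
theorem lower_of_isFiniteAt (hR : Stmt_RemovesPGen)
    (W : WeierstrassCurve ℤ) (hΔ : W.Δ ≠ 0) {p : ℕ} (hp : p.Prime) (hp2 : p ≠ 2)
    (hirr : W.ModRepIsIrreducible p)
    {M : ℕ} (hM : 0 < M) (hpM : p ∣ M) (hp2M : ¬ p ^ 2 ∣ M)
    (hmod : W.IsResiduallyModularOfLevel p M)
    (A : ValuationSubring (AlgebraicClosure ℚ)) (hAp : A.LiesOverPrime p)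
    (hfin : IsFiniteAt p A (rhoTors W p)) :
    W.IsResiduallyModularOfLevel p (M / p) := by
  have : Fact p.Prime := ⟨hp⟩
  have : NeZero M := ⟨hM.ne'⟩
  obtain ⟨f, 𝔪, hf, h𝔪, hp𝔪, hcong⟩ := hmod
  have hWE := isIntegralModelOf_map' W
  have : (W.map (Int.castRingHom ℚ)).IsElliptic :=
    ⟨isUnit_iff_ne_zero.mpr (by
      rw [WeierstrassCurve.map_Δ]
      simpa using hΔ)⟩
  obtain ⟨hcont, hES, hsupp⟩ := stmt_TateModP p hp hp2 M
  have hrem := hR p hp hp2 M hpM hp2M A hAp
  -- the exceptional set: the bad primes of the model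
  set S : Finset ℕ := W.Δ.natAbs.primeFactors with hS
  have hgood : ∀ ℓ : ℕ, ℓ.Prime → ℓ ∉ S → W.IsGoodPrimeFor ℓ := fun ℓ hℓ h =>
    prime_not_mem_of_good hℓ hΔ h
  -- the eigenvector of level `M`
  obtain ⟨x, hx0, hx⟩ := hsupp f 𝔪 S (fun ℓ => W.apOfModel ℓ) hf h𝔪 hp𝔪
    (fun ℓ hℓ hℓS hℓN hℓp => hcong ℓ hℓ (hgood ℓ hℓ hℓS) hℓN hℓp)
  -- congruence recovery
  obtain ⟨ι, hinj, hequiv, hT⟩ := Fermat.Agent.L.H52.recovery p hp hp2 M hM (jzModule M p)
    hcont hES (W.map (Int.castRingHom ℚ)) W hWE hirr S hgood x hx0 hx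
  -- the system is not Eisenstein
  have hNE : ∃ ℓ : ℕ, ℓ.Prime ∧ ℓ ∉ S ∧ ¬ ℓ ∣ M ∧ ℓ ≠ p ∧
      ((W.apOfModel ℓ : ℤ) : ZMod p) ≠ 1 + (ℓ : ZMod p) := by
    have h := Fermat.Agent.S41.H19.stmt_I3 (W.map (Int.castRingHom ℚ)) W hWE p M hp hM hirr
    by_contra hcon
    apply h
    intro ℓ hℓ hℓW hℓN hℓp
    by_contra hne
    refine hcon ⟨ℓ, hℓ, ?_, hℓN, hℓp, hne⟩
    intro hmem
    rw [hS, Nat.mem_primeFactors] at hmem
    exact hℓW (Int.natCast_dvd.mpr hmem.2.1)
  have hdim : Module.finrank (ZMod p) (Tors (W.map (Int.castRingHom ℚ)) p) = 2 :=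
    Fermat.Agent.L.H52.finrank_tors_main hΔ
  -- Mazur's principle
  obtain ⟨g, 𝔪', hg, h𝔪', hp𝔪', hg_cong⟩ := hrem (Tors (W.map (Int.castRingHom ℚ)) p)
    (rhoTors W p) ι S (fun ℓ => W.apOfModel ℓ) hdim
    (fun W' hW' => hirr.2 W' (fun σ x hx => hW' σ x hx))
    hfin hinj (fun σ v => hequiv σ v) hT hNE
  refine ⟨g, 𝔪', hg, h𝔪', hp𝔪', ?_⟩
  intro ℓ hℓ hℓW hℓM hℓp
  have hℓN : ¬ ℓ ∣ M := by
    intro hdvd
    have hN : M = p * (M / p) := (Nat.mul_div_cancel' hpM).symm
    rw [hN] at hdvd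
    rcases (Nat.Prime.dvd_mul hℓ).mp hdvd with h | h
    · exact hℓp ((Nat.prime_dvd_prime_iff_eq hℓ hp).mp h)
    · exact hℓM h
  have hℓS : ℓ ∉ S := by
    intro hmem
    rw [hS, Nat.mem_primeFactors] at hmem
    exact hℓW (Int.natCast_dvd.mpr hmem.2.1)
  exact hg_cong ℓ hℓ hℓS hℓN hℓp

/-- **S40 from the leaves.**  The conclusion is the frozen statement S40. -/
theorem result40_of_leaves (hR : Stmt_RemovesPGen) (hON : Stmt_OldNewP) (hFG : Stmt_FinGood)
    (W : WeierstrassCurve ℤ) (hΔ : W.Δ ≠ 0)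
    {p : ℕ} (hp : p.Prime) (hp2 : p ≠ 2)
    (hgood : W.IsGoodPrimeFor p)
    (hirr : W.ModRepIsIrreducible p)
    {M : ℕ} (hM : 0 < M) (hpM : p ∣ M) (hp2M : ¬ p ^ 2 ∣ M)
    (hmod : W.IsResiduallyModularOfLevel p M) :
    W.IsResiduallyModularOfLevel p (M / p) := by
  rcases hON W hΔ p hp hp2 hgood hirr M hM hpM hp2M hmod with h | h
  · exact h
  · obtain ⟨A, hAp⟩ := stmt_PlaceOver p hp
    exact lower_of_isFiniteAt hR W hΔ hp hp2 hirr hM hpM hp2M hmod A hAp
      (hFG W hΔ p hp hp2 hgood hirr A hAp (h A hAp))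

/-- **S39 from the leaves.**  The conclusion is the frozen statement S39. -/
theorem result39_of_leaves (hR : Stmt_RemovesPGen) (hFM : Stmt_FinMult) (hON : Stmt_OldNewP)
    (hFG : Stmt_FinGood)
    (W : WeierstrassCurve ℤ) (hΔ : W.Δ ≠ 0)
    {p : ℕ} (hp : p.Prime) (hp2 : p ≠ 2)
    (hsemi : (p : ℤ) ∣ W.Δ → ¬ (p : ℤ) ∣ W.c₄)
    (hirr : W.ModRepIsIrreducible p)
    (hfin : (W.map (Int.castRingHom ℚ)).IsPeuRamifieeAt p p)
    {M : ℕ} (hM : 0 < M) (hpM : p ∣ M) (hp2M : ¬ p ^ 2 ∣ M)
    (hmod : W.IsResiduallyModularOfLevel p M) :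
    W.IsResiduallyModularOfLevel p (M / p) := by
  by_cases hbad : (p : ℤ) ∣ W.Δ
  · obtain ⟨A, hAp⟩ := stmt_PlaceOver p hp
    exact lower_of_isFiniteAt hR W hΔ hp hp2 hirr hM hpM hp2M hmod A hAp
      (hFM W hΔ p hp hp2 hbad (hsemi hbad) hfin A hAp)
  · exact result40_of_leaves hR hON hFG W hΔ hp hp2 hbad hirr hM hpM hp2M hmod

end Fermat.Agent.S39

end
end
-- ==== END Fermat.Agent.S39.Wiring

-- ==== BEGIN Fermat.Agent.S41.H19_IharaDefs
section

/-!
# S41, Ihara's lemma by the Kummer–Hecke route (helper39's proof): definitions and leaf interfaces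

Notation: `InX N r` : the rational `r` has denominator prime to `N`; `mob M r` : Möbius action of an
integer matrix on `ℚ`; `TT ℓ f` : the Hecke operator `f ↦ (r ↦ ∑_{j<ℓ} f((r+j)/ℓ) + f(ℓ r))` on
functions on `ℚ`.

Leaves (all for `2 ≤ N`, `q ∤ N` prime, `p` an odd prime, `p ≠ q`; `a : ℕ → ZMod p` the system of
eigenvalues, `P : ℕ → Prop` the set of allowed primes):

* `Stmt_IhA` (Steps 0–2): period functions `F₁, F₂` with `F_i(g r) = F_i(r) + x_i(g)`, exact
  eigenfunctions of all `TT ℓ`, and `F₁(r) + F₂(q r) = 0`.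
* `Stmt_IhB` (Step 3): `F₁(q² r) = F₁(r)` and `F₁(r + t) = F₁(r)` for `t ∈ ℤ[1/q]`.
* `Stmt_IhC` (Step 4): the orbit sum: `(a_ℓ - 2) F(r) = 0` for the auxiliary primes `ℓ`.
* `Stmt_IhD` (Step 5): existence of the auxiliary primes (Frobenius density in a Kummer extension).
-/

set_option autoImplicit false

open scoped MatrixGroups
open CongruenceSubgroup Matrix
open WeierstrassCurve WeierstrassCurve.Affine WeierstrassCurve.Affine.Point

namespace Fermat.Agent.S41.Ihara

open Fermat.Agent.S41 Fermat.Agent.S41.H19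

/-- Rationals with denominator prime to `N`. -/
def InX (N : ℕ) (r : ℚ) : Prop := r.den.Coprime N

/-- Möbius action of an integer matrix on `ℚ` (junk value `0` if the denominator vanishes). -/
def mob (M : Matrix (Fin 2) (Fin 2) ℤ) (r : ℚ) : ℚ :=
  ((M 0 0 : ℚ) * r + (M 0 1 : ℚ)) / ((M 1 0 : ℚ) * r + (M 1 1 : ℚ))

/-- The Hecke operator `T_ℓ` on functions on `ℚ`. -/
def TT (ℓ : ℕ) {A : Type*} [AddCommMonoid A] (f : ℚ → A) (r : ℚ) : A :=
  ∑ j ∈ Finset.range ℓ, f ((r + (j : ℚ)) / (ℓ : ℚ)) + f ((ℓ : ℚ) * r)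

/-- `t ∈ ℤ[1/q]`. -/
def InZq (q : ℕ) (t : ℚ) : Prop := ∃ k : ℕ, ((q : ℚ) ^ k * t).den = 1

/-- An abstract system of Hecke eigenvalues mod `p`, on a set `P` of primes. -/
structure EigSys (p N q : ℕ) where
  /-- the allowed primes -/
  P : ℕ → Prop
  /-- the eigenvalues -/
  a : ℕ → ZMod p
  prime : ∀ ℓ, P ℓ → ℓ.Prime
  not_dvd : ∀ ℓ, P ℓ → ¬ ℓ ∣ N * q
  ne_p : ∀ ℓ, P ℓ → ℓ ≠ p

/-- `F` is a period function for `x`. -/
def IsPeriodFn {p N : ℕ} (x : Additive (Gamma0 N) →+ ZMod p) (F : ℚ → ZMod p) : Prop :=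
  ∀ (g : Gamma0 N) (r : ℚ), InX N r → F (mob (mat g) r) = F r + x (Additive.ofMul g)

/-- `F` is an exact eigenfunction of all `TT ℓ`, `ℓ ∈ P`, on `X`. -/
def IsEigFn {p N q : ℕ} (es : EigSys p N q) (F : ℚ → ZMod p) : Prop :=
  ∀ ℓ, es.P ℓ → ∀ r, InX N r → TT ℓ F r = es.a ℓ * F r

/-- **Leaf A** (Steps 0, 1, 2). -/
def Stmt_IhA : Prop :=
  ∀ (p N q : ℕ), p.Prime → p ≠ 2 → 2 ≤ N → q.Prime → ¬ q ∣ N → q ≠ p →
    ∀ (es : EigSys p N q) (ℓ₀ : ℕ), es.P ℓ₀ → es.a ℓ₀ ≠ (ℓ₀ : ZMod p) + 1 →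
    ∀ x₁ x₂ : Additive (Gamma0 N) →+ ZMod p,
    IsCuspidalHom (Gamma0 N) x₁ → IsCuspidalHom (Gamma0 N) x₂ →
    (∀ ℓ, es.P ℓ → Tcoh N (ZMod p) ℓ x₁ = es.a ℓ • x₁) →
    res1 N q (ZMod p) x₁ + res2 N q (ZMod p) x₂ = 0 →
    ∃ F₁ F₂ : ℚ → ZMod p, IsPeriodFn x₁ F₁ ∧ IsPeriodFn x₂ F₂ ∧ IsEigFn es F₁ ∧ IsEigFn es F₂ ∧
      ∀ r, InX N r → F₁ r + F₂ ((q : ℚ) * r) = 0

/-- **Leaf B** (Step 3). -/
def Stmt_IhB : Prop :=
  ∀ (p N q : ℕ), p.Prime → p ≠ 2 → 2 ≤ N → q.Prime → ¬ q ∣ N → q ≠ p →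
    ∀ (es : EigSys p N q) (ℓ₀ : ℕ), es.P ℓ₀ → es.a ℓ₀ ≠ (ℓ₀ : ZMod p) + 1 →
    ∀ (x₁ x₂ : Additive (Gamma0 N) →+ ZMod p) (F₁ F₂ : ℚ → ZMod p),
    IsCuspidalHom (Gamma0 N) x₁ → IsCuspidalHom (Gamma0 N) x₂ →
    IsPeriodFn x₁ F₁ → IsPeriodFn x₂ F₂ → IsEigFn es F₁ → IsEigFn es F₂ →
    (∀ r, InX N r → F₁ r + F₂ ((q : ℚ) * r) = 0) →
    (∀ r, InX N r → F₁ ((q : ℚ) ^ 2 * r) = F₁ r) ∧
    (∀ r t, InX N r → InZq q t → F₁ (r + t) = F₁ r)

/-- **Leaf C** (Step 4): the orbit sum.  `m` is a multiple of the prime-to-`q` part of the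
denominator of `r`, and `v = q ^ (2 k) ≡ 1 mod m`. -/
def Stmt_IhC : Prop :=
  ∀ (p N q : ℕ), p.Prime → 2 ≤ N → q.Prime → ¬ q ∣ N → q ≠ p →
    ∀ (F : ℚ → ZMod p),
    (∀ r, InX N r → F ((q : ℚ) ^ 2 * r) = F r) →
    (∀ r t, InX N r → InZq q t → F (r + t) = F r) →
    ∀ (ℓ : ℕ) (a : ZMod p), ℓ.Prime → ¬ ℓ ∣ N * q → ℓ ≠ p →
    (∀ r, InX N r → TT ℓ F r = a * F r) →
    ∀ (r : ℚ) (m k : ℕ), InX N r → 0 < m → InZq q ((m : ℚ) * r) → m.Coprime q →
      q ^ (2 * k) % m = 1 % m → ℓ % m = 1 % m →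
      p ∣ orderOf ((q : ZMod ℓ) ^ (2 * k)) →
      (a - 2) * F r = 0

/-- **Leaf D** (Step 5): auxiliary primes. -/
def Stmt_IhD : Prop :=
  ∀ (E : WeierstrassCurve ℚ) [E.IsElliptic] (W : WeierstrassCurve ℤ), W.IsIntegralModelOf E →
    ∀ (p q : ℕ), p.Prime → p ≠ 2 → q.Prime → q ≠ p →
    GaloisRepIsIrreducible (K := AlgebraicClosure ℚ) ℚ E p →
    ∀ (M : ℕ), 0 < M → p ∣ M → ∀ S : Finset ℕ,
    ∃ ℓ : ℕ, ℓ.Prime ∧ ℓ ∉ S ∧ W.IsGoodPrimeFor ℓ ∧ ℓ % M = 1 % M ∧
      (q : ZMod ℓ) ^ ((ℓ - 1) / p) ≠ 1 ∧ ((W.apOfModel ℓ : ℤ) : ZMod p) ≠ 2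

end Fermat.Agent.S41.Ihara

end
-- ==== END Fermat.Agent.S41.H19_IharaDefs

-- ==== BEGIN Fermat.Agent.S41.H19_Rel
section

/-!
# S41 package H (helper19): `stmt_REL : Stmt_REL`

For `x` of level `N` with `T_{q'} x = ε (q'+1) x`, the class `y = res1 x - ε res2 x` of level `N q'`
is cuspidal, has the same eigenvalues, and is killed by both trace maps.
-/

set_option autoImplicit false

open scoped MatrixGroups
open CongruenceSubgroup Matrix

namespace Fermat.Agent.S41.H19

open Fermat.Agent.S41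

section Linear

variable {H G : Type*} [Group H] [Group G] {A : Type*} [AddCommGroup A]
  {R : Type*} [Semiring R] [Module R A]

lemma resAlong_sub (ι : H →* G) (φ ψ : Additive G →+ A) :
    resAlong A ι (φ - ψ) = resAlong A ι φ - resAlong A ι ψ := rfl

lemma resAlong_smul (ι : H →* G) (c : R) (φ : Additive G →+ A) :
    resAlong A ι (c • φ) = c • resAlong A ι φ := rfl

end Linear

section Tcoh

variable {A : Type*} [AddCommGroup A] {R : Type*} [Semiring R] [Module R A]

lemma Tcoh_sub (N ℓ : ℕ) (φ ψ : Additive (Gamma0 N) →+ A) :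
    Tcoh N A ℓ (φ - ψ) = Tcoh N A ℓ φ - Tcoh N A ℓ ψ := by
  unfold Tcoh cor1 res2
  rw [resAlong_sub, corAlong_sub]

lemma Tcoh_smul (N ℓ : ℕ) (c : R) (φ : Additive (Gamma0 N) →+ A) :
    Tcoh N A ℓ (c • φ) = c • Tcoh N A ℓ φ := by
  unfold Tcoh cor1 res2
  rw [resAlong_smul, corAlong_smul]

end Tcoh

/-- **Package H**: the formal relations between `res1, res2, cor1, cor2, Tcoh`. -/
theorem stmt_REL : Stmt_REL := by
  intro W p N q' hp hN hq' hq'N hq'p ε hε x hxc hxe hxT
  have hεε : (ε : ZMod p) * (ε : ZMod p) = 1 := by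
    rcases hε with rfl | rfl <;> simp
  refine ⟨?_, ?_, ?_, ?_⟩
  · -- cuspidal
    intro γ hγ
    have h1 : x (Additive.ofMul (inclG N q' γ)) = 0 := hxc _ hγ
    have h2 : x (Additive.ofMul (conjG N q' γ)) = 0 := by
      apply hxc
      have : ((conjG N q' γ : Gamma0 N) : SL(2, ℤ)).1 = conjMat q' (mat γ) := rfl
      rw [this, trace_conjMat]
      exact hγ
    change x (Additive.ofMul (inclG N q' γ)) - (ε : ZMod p) • x (Additive.ofMul (conjG N q' γ)) = 0
    rw [h1, h2, smul_zero, sub_zero]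
  · -- eigenvalues
    intro ℓ hℓ hg hℓd hℓp
    have hℓN : ¬ ℓ ∣ N := fun h => hℓd (dvd_mul_of_dvd_left h q')
    have hℓq : ℓ ≠ q' := fun h => hℓd (h ▸ dvd_mul_left ℓ N)
    have hx := hxe ℓ hℓ hg hℓN hℓp
    rw [Tcoh_sub, Tcoh_smul, Tcoh_res1 hN hq' hℓ hℓN hℓq, Tcoh_res2 hN hq' hℓ hℓN hℓq, hx]
    unfold res1 res2
    rw [resAlong_smul, resAlong_smul, smul_sub, smul_comm]
  · -- first trace
    unfold cor1
    rw [corAlong_sub, corAlong_smul]
    change cor1 N q' (ZMod p) (res1 N q' (ZMod p) x)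
      - (ε : ZMod p) • Tcoh N (ZMod p) q' x = 0
    rw [cor1_res1 hN hq' hq'N, hxT, smul_smul, ← Nat.cast_smul_eq_nsmul (ZMod p), ← sub_smul]
    have : (((q' + 1 : ℕ) : ZMod p)) - (ε : ZMod p) * ((ε * ((q' : ℤ) + 1) : ℤ) : ZMod p) = 0 := by
      push_cast
      linear_combination (-(q' : ZMod p) - 1) * hεε
    rw [this, zero_smul]
  · -- second trace
    unfold cor2
    rw [corAlong_sub, corAlong_smul]
    change cor2 N q' (ZMod p) (res1 N q' (ZMod p) x)
      - (ε : ZMod p) • cor2 N q' (ZMod p) (res2 N q' (ZMod p) x) = 0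
    rw [cor2_res1 hN hq' hq'N, cor2_res2 hN hq' hq'N, hxT, ← Nat.cast_smul_eq_nsmul (ZMod p),
      smul_smul, ← sub_smul]
    have : ((ε * ((q' : ℤ) + 1) : ℤ) : ZMod p) - (ε : ZMod p) * ((q' + 1 : ℕ) : ZMod p) = 0 := by
      push_cast
      ring
    rw [this, zero_smul]

end Fermat.Agent.S41.H19

end
-- ==== END Fermat.Agent.S41.H19_Rel

-- ==== BEGIN Fermat.Agent.S41.H19_SumReindex
section

/-!
# Reindexing sums of periodic functions over `Finset.range ℓ` (helper19)

* `sum_range_reindex` : for `G : ℤ → A` with `G (n + ℓ) = G n` and `u` prime to `ℓ`: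
  `∑ j < ℓ, G (u j + c) = ∑ j < ℓ, G j`.
* `sum_range_range_mul` : `∑ j < a, ∑ j' < b, G (j + a j') = ∑ n < a b, G n`.
-/

set_option autoImplicit false

namespace Fermat.Agent.S41.H19

variable {A : Type*} [AddCommMonoid A]

lemma sum_range_eq_sum_zmod (ℓ : ℕ) [NeZero ℓ] (H : ZMod ℓ → A) :
    ∑ j ∈ Finset.range ℓ, H (j : ZMod ℓ) = ∑ z : ZMod ℓ, H z := by
  refine Finset.sum_nbij' (fun j => (j : ZMod ℓ)) (fun z => z.val) ?_ ?_ ?_ ?_ ?_
  · intro j _
    exact Finset.mem_univ _
  · intro z _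
    exact Finset.mem_range.mpr (ZMod.val_lt z)
  · intro j hj
    exact ZMod.val_natCast_of_lt (Finset.mem_range.mp hj)
  · intro z _
    exact ZMod.natCast_zmod_val z
  · intro j _
    rfl

omit [AddCommMonoid A] in
lemma periodic_eq_of_intCast_eq (ℓ : ℕ) (G : ℤ → A) (hG : ∀ n, G (n + ℓ) = G n) {n m : ℤ}
    (h : (n : ZMod ℓ) = (m : ZMod ℓ)) : G n = G m := by
  have hp : Function.Periodic G (ℓ : ℤ) := hG
  obtain ⟨k, hk⟩ := (ZMod.intCast_eq_intCast_iff_dvd_sub n m ℓ).mp h
  have : m = n + k * ℓ := by linarith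
  rw [this]
  exact ((hp.int_mul k) n).symm

/-- Reindexing a sum of a periodic function by an affine map `j ↦ u j + c`, `u` prime to `ℓ`. -/
theorem sum_range_reindex (ℓ : ℕ) [NeZero ℓ] (G : ℤ → A) (hG : ∀ n, G (n + ℓ) = G n) (u c : ℤ)
    (hu : IsCoprime u (ℓ : ℤ)) :
    ∑ j ∈ Finset.range ℓ, G (u * (j : ℤ) + c) = ∑ j ∈ Finset.range ℓ, G (j : ℤ) := by
  obtain ⟨a, b, hab⟩ := hu
  have hau : (a : ZMod ℓ) * (u : ZMod ℓ) = 1 := by
    have := congrArg (Int.cast : ℤ → ZMod ℓ) hab
    push_cast at this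
    simpa using this
  let H : ZMod ℓ → A := fun z => G (z.val : ℤ)
  have hH : ∀ n : ℤ, G n = H (n : ZMod ℓ) := by
    intro n
    apply periodic_eq_of_intCast_eq ℓ G hG
    simp
  let e : ZMod ℓ ≃ ZMod ℓ :=
    { toFun := fun z => (u : ZMod ℓ) * z + (c : ZMod ℓ)
      invFun := fun z => (a : ZMod ℓ) * (z - (c : ZMod ℓ))
      left_inv := fun z => by
        change (a : ZMod ℓ) * ((u : ZMod ℓ) * z + (c : ZMod ℓ) - (c : ZMod ℓ)) = z
        rw [add_sub_cancel_right, ← mul_assoc, hau, one_mul]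
      right_inv := fun z => by
        change (u : ZMod ℓ) * ((a : ZMod ℓ) * (z - (c : ZMod ℓ))) + (c : ZMod ℓ) = z
        rw [← mul_assoc, mul_comm (u : ZMod ℓ), hau, one_mul, sub_add_cancel] }
  calc ∑ j ∈ Finset.range ℓ, G (u * (j : ℤ) + c)
      = ∑ j ∈ Finset.range ℓ, H (e (j : ZMod ℓ)) := by
        refine Finset.sum_congr rfl fun j _ => ?_
        rw [hH]
        congr 1
        push_cast
        rfl
    _ = ∑ z : ZMod ℓ, H (e z) := sum_range_eq_sum_zmod ℓ (fun z => H (e z))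
    _ = ∑ z : ZMod ℓ, H z := Equiv.sum_comp e H
    _ = ∑ j ∈ Finset.range ℓ, H (j : ZMod ℓ) := (sum_range_eq_sum_zmod ℓ H).symm
    _ = ∑ j ∈ Finset.range ℓ, G (j : ℤ) := by
        refine Finset.sum_congr rfl fun j _ => ?_
        rw [hH]
        simp

theorem sum_range_range_mul (a b : ℕ) (G : ℕ → A) :
    ∑ j ∈ Finset.range a, ∑ j' ∈ Finset.range b, G (j + a * j')
      = ∑ n ∈ Finset.range (a * b), G n := by
  induction b with
  | zero => simp
  | succ b ih =>
    rw [Nat.mul_succ, Finset.sum_range_add, ← ih, ← Finset.sum_add_distrib]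
    refine Finset.sum_congr rfl fun j _ => ?_
    rw [Finset.sum_range_succ, add_comm j (a * b)]

end Fermat.Agent.S41.H19

end
-- ==== END Fermat.Agent.S41.H19_SumReindex

-- ==== BEGIN Fermat.Agent.S59.CaseC.H85_SelmerBridge
section

/-!
# S59, case C (helper85): the Selmer bound at `p`, from the `NonMin` form to the `CaseC` form

`NonMin.Stmt_SELMERp` bounds the growth of the cotangent space by `#(𝒪 / c)`,
`c² = x (tr ρ(g'))² - 4`, for `g'` in the decomposition group FIXING `μ_{p^∞}`;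
`CaseC.Stmt_SELMERp` bounds it by `#(𝒪 / (x z² - 1))`, `z` the eigenvalue of ANY `g` in the
decomposition group on the quotient by the ordinary line.

Bridge: `g' := g * i`, `i` in the inertia group with `g * i` fixing `μ_{p^∞}` (`Stmt_EXISTSi`:
the cyclotomic character of the inertia group is onto).  Inertia acts trivially on the quotient,
so `z` is the eigenvalue of `g'` on the quotient as well; `det ρ(g') = 1`; so
`ρ(g') = [[z⁻¹, *], [0, z]]`, `tr = z + z⁻¹`, and `c := x z - x z⁻¹` satisfies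
`c² = x(tr)² - 4`, `(c) = (x z² - 1)`.

* `Stmt_EXISTSi`   : the input on the inertia group (leaf for helper77).
* `selmerp_bridge` : `NonMin.Stmt_SELMERp → Stmt_EXISTSi → CaseC.Stmt_SELMERp`.
-/

set_option autoImplicit false

open IsLocalRing

namespace Fermat.Agent.S59.CaseC.H85

open Fermat.Agent.S59 Fermat.Agent.S59.NonMin

/-- The Galois group of `ℚ`. -/
local notation "Γℚ" => AlgebraicClosure ℚ ≃ₐ[ℚ] AlgebraicClosure ℚ

/-- **EXISTS-i**: every element of the decomposition group at `P ∣ p` can be corrected by an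
element of the inertia group so that it fixes all `p`-power roots of unity.
[The decomposition group of `P` in `Gal(ℚ̄ / ℚ(μ_{p^∞}))` maps ONTO the Galois group of the
residue field over `𝔽_p` (`ℚ(μ_{p^∞})` is totally ramified at `p`); take `h` there with the image
of `g` and `i := g⁻¹ h`.] -/
def Stmt_EXISTSi : Prop :=
  ∀ (p : ℕ), p.Prime →
  ∀ (P : ValuationSubring (AlgebraicClosure ℚ)), P.LiesOverPrime p →
  ∀ g ∈ P.decompositionSubgroup ℚ, ∃ i ∈ P.inertiaSubgroupIn ℚ, FixesPRoots p (g * i)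

/-- The inertia group lies in the decomposition group. -/
theorem mem_decomposition_of_mem_inertia {P : ValuationSubring (AlgebraicClosure ℚ)} {σ : Γℚ}
    (h : σ ∈ P.inertiaSubgroupIn ℚ) : σ ∈ P.decompositionSubgroup ℚ := by
  obtain ⟨s, -, rfl⟩ := h
  exact s.2

section lin

variable {A : Type} [CommRing A] {V : Type} [AddCommGroup V] [Module A V]

/-- Coordinates of an endomorphism which stabilises the line `A b₀` and is `z` modulo it. -/
theorem trace_det_of_line (b : Module.Basis (Fin 2) A V) (f : V →ₗ[A] V) (χ z : A)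
    (h1 : f (b 0) = χ • b 0) (h2 : f (b 1) - z • b 1 ∈ Submodule.span A {b 0}) :
    LinearMap.trace A V f = χ + z ∧ LinearMap.det f = χ * z := by
  obtain ⟨β, hβ⟩ := Submodule.mem_span_singleton.1 h2
  have h3 : f (b 1) = β • b 0 + z • b 1 := by
    rw [hβ]; abel
  have m00 : LinearMap.toMatrix b b f 0 0 = χ := by
    rw [LinearMap.toMatrix_apply, h1]
    simp
  have m10 : LinearMap.toMatrix b b f 1 0 = 0 := by
    rw [LinearMap.toMatrix_apply, h1]
    simp
  have m11 : LinearMap.toMatrix b b f 1 1 = z := by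
    rw [LinearMap.toMatrix_apply, h3]
    simp
  constructor
  · rw [LinearMap.trace_eq_matrix_trace A b f, Matrix.trace_fin_two, m00, m11]
  · rw [← LinearMap.det_toMatrix b, Matrix.det_fin_two, m00, m11, m10, mul_zero, sub_zero]

end lin

/-- In a noetherian local ring with `p` in the maximal ideal, an element which is divisible by
every power of `p` is zero. -/
theorem eq_zero_of_forall_mem_span_pow {R : Type} [CommRing R] [IsLocalRing R]
    [IsNoetherianRing R] (p : ℕ) (hp : (p : R) ∈ maximalIdeal R) (y : R)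
    (h : ∀ n : ℕ, y ∈ Ideal.span {((p ^ n : ℕ) : R)}) : y = 0 := by
  have h1 : ∀ n : ℕ, y ∈ maximalIdeal R ^ n := by
    intro n
    have h2 : Ideal.span {((p ^ n : ℕ) : R)} ≤ maximalIdeal R ^ n := by
      rw [Ideal.span_singleton_le_iff_mem]
      push_cast
      exact Ideal.pow_mem_pow hp n
    exact h2 (h n)
  have h3 : y ∈ (⨅ n : ℕ, maximalIdeal R ^ n : Ideal R) := by
    rw [Ideal.mem_iInf]
    exact h1
  rw [Ideal.iInf_pow_eq_bot_of_isLocalRing (maximalIdeal R)
    (Ideal.IsMaximal.ne_top (maximalIdeal.isMaximal R))] at h3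
  exact h3

/-- The determinant of a representation with cyclotomic determinant is `1` on the elements fixing
the `p`-power roots of unity. -/
theorem det_eq_one_of_fixesPRoots {R : Type} [CommRing R] [IsLocalRing R] [IsNoetherianRing R]
    (ρ : GaloisRepAdic R) (p : ℕ) (hdet : ρ.DetIsCyclotomic p) (g : Γℚ)
    (hg : FixesPRoots p g) : LinearMap.det (ρ.ρ g) = 1 := by
  have h := eq_zero_of_forall_mem_span_pow p hdet.1 (LinearMap.det (ρ.ρ g) - 1) (fun n => by
    have := hdet.2 n g 1 (fun μ hμ => by rw [pow_one]; exact hg n μ hμ)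
    simpa using this)
  exact sub_eq_zero.1 h

/-- **The bridge**: the Selmer bound at `p` in the `CaseC` form follows from the `NonMin` form. -/
theorem selmerp_bridge (hS : Fermat.Agent.S59.NonMin.Stmt_SELMERp) (hE : _root_.Fermat.Agent.S59.CaseC.H85.Stmt_EXISTSi) :
    Fermat.Agent.S59.CaseC.Stmt_SELMERp := by
  intro 𝒪 _ _ _ _ _ p _ hp2 hp𝒪 ρbar Smin Sig _habs hpS hprime D D' τ hτ heq x P hP ℒ g hg z hz
    hne hfin
  have hp : p.Prime := Fact.out
  -- the corrected element
  obtain ⟨i, hi, hfix⟩ := hE p hp P hP g hg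
  have hgi : g * i ∈ P.decompositionSubgroup ℚ :=
    mul_mem hg (mem_decomposition_of_mem_inertia hi)
  -- the line
  obtain ⟨b, hb⟩ := ℒ.isLine
  have hb0 : b 0 ∈ ℒ.L := by
    rw [hb]; exact Submodule.mem_span_singleton_self _
  obtain ⟨χ, hχ⟩ : ∃ χ : D.R, D.ρ.ρ (g * i) (b 0) = χ • b 0 := by
    have h1 := ℒ.stable (g * i) hgi (b 0) hb0
    rw [hb] at h1
    obtain ⟨χ, hχ⟩ := Submodule.mem_span_singleton.1 h1
    exact ⟨χ, hχ.symm⟩
  have hquot : D.ρ.ρ (g * i) (b 1) - z • b 1 ∈ Submodule.span D.R {b 0} := by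
    rw [← hb]
    have h1 : D.ρ.ρ (g * i) (b 1) - z • b 1 =
        D.ρ.ρ g (D.ρ.ρ i (b 1) - b 1) + (D.ρ.ρ g (b 1) - z • b 1) := by
      rw [map_mul, Module.End.mul_apply, map_sub]
      abel
    rw [h1]
    exact ℒ.L.add_mem (ℒ.stable g hg _ (ℒ.inertia i hi (b 1))) (hz (b 1))
  obtain ⟨htr, hdet⟩ := trace_det_of_line b (D.ρ.ρ (g * i)) χ z hχ hquot
  have hDdet : D.ρ.DetIsCyclotomic p := D.isOfType.1.1
  have hone : χ * z = 1 := by
    rw [← hdet]
    exact det_eq_one_of_fixesPRoots D.ρ p hDdet (g * i) hfix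
  have hxone : x χ * x z = 1 := by
    rw [← map_mul, hone, map_one]
  -- the constant
  have hc2 : (x z - x χ) ^ 2 = x (D.ρ.trace (g * i)) ^ 2 - 4 := by
    have h1 : D.ρ.trace (g * i) = χ + z := htr
    rw [h1, map_add]
    linear_combination (-4 : 𝒪) * hxone
  have hmul : x z * (x z - x χ) = x z ^ 2 - 1 := by
    linear_combination (-1 : 𝒪) * hxone
  have hc0 : x z - x χ ≠ 0 := by
    intro h0
    apply hne
    rw [← hmul, h0, mul_zero]
  have hspan : Ideal.span {x z - x χ} = Ideal.span {x z ^ 2 - 1} := by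
    have hu : IsUnit (x z) := IsUnit.of_mul_eq_one _ (by rw [mul_comm]; exact hxone)
    rw [← hmul]
    exact (Ideal.span_singleton_mul_left_unit hu _).symm
  have key := hS 𝒪 p hp2 hp𝒪 ρbar Smin Sig hpS hprime D D' τ hτ heq x P hP (g * i) hgi hfix
    (x z - x χ) hc2 hc0 hfin
  rw [hspan] at key
  exact key

end Fermat.Agent.S59.CaseC.H85

end
-- ==== END Fermat.Agent.S59.CaseC.H85_SelmerBridge
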