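-- GENERATED (merged mirror, NOTES/tools/trim/merge3_helper67.py): 31 modules of the originals, bodies verbatim.
import Mathlib
import Fermat.Prelude.Def_FLTPrelim_Ramification
import Fermat.Prelude.Def_EllipticCurve_FrobeniusTrace
import Fermat.Prelude.Thm_IsLocalRing_isAdicComplete_of_module_finite
import Fermat.Prelude.Thm_IsAdicComplete_of_module_finite
import Fermat.Prelude.Def_GaloisRep_CompletionBridge
import Fermat.Agent.Zm.S44_L03_003
import Fermat.Agent.Zm.S35_L02_000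
import Fermat.Agent.Zm.S44_L09_000
import Fermat.Agent.Zm.S44_L08_000
import Fermat.Agent.S43.Old.H75_WireAbs
import Fermat.Agent.Zm.S44_L15_000
import Fermat.Agent.Zm.S44_L02_004
import Fermat.Agent.Zm.S44_L02_001
import Fermat.Agent.Zm.S35_L05_001
import Fermat.Agent.Zm.S44_L16_000
import Fermat.Agent.Zm.S43_L13_002
import Fermat.Agent.Zm.S58_L01_000
import Fermat.Agent.Lib.EllFinite.Main
import Fermat.Agent.Zm.S43_L11_001
import Fermat.Agent.Zm.S43_L04_002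
import Fermat.Agent.Zm.S43_L02_004
import Fermat.Agent.Zm.S43_L10_001
import Fermat.Agent.Zm.S43_L02_003
import Fermat.Agent.Zm.S43_L03_003
import Fermat.Agent.Zm.S43_L05_002
import Fermat.Agent.Zm.S33_L01_002
import Fermat.Agent.Zm.S43_L07_001
import Fermat.Agent.Zm.S43_L07_002
import Fermat.Agent.Zm.S56_L07_005
import Fermat.Agent.Zm.S43_L06_002
import Fermat.Agent.Zm.S43_L14_002
import Fermat.Agent.Zm.S43_L14_003
import Fermat.Agent.Zm.S35_L02_001
import Fermat.Agent.Zm.S35_L04_002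
import Fermat.Agent.S56
import Fermat.Agent.Zm.S35_L07_000
import Fermat.Agent.Zm.S35_L04_001
import Fermat.Agent.Zm.S33_L04_000
import Fermat.Agent.Zm.S33_L12_000
import Fermat.Agent.Zm.S36_L01_002
import Fermat.Agent.Zm.S35_L10_001

-- ==== BEGIN Fermat.Agent.S41.H39_AL
section

/-!
# S41, package AL (helper39): `U_q ^ 2 = 1` on the `q`-new classes

For a prime `q ∤ N`, `0 < N`, every abelian group `A` and every `φ : Γ₀(N q) → A`:

  `cor1 φ = 0 → cor2 φ = 0 → UB (UB φ) = φ`     (`UB` = the Betti operator `U_q` of level `N q`).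

Proof.  `W = [[q, v], [-N q, q u]]` (`q u + N v = 1`) normalises `Γ₀(N q)`; `alG h = W h W⁻¹`.
* `cor2 φ = cor1 (φ ∘ alG)`                         (`H19.cor2_eq_cor1`);
* `(cor1 ψ)(g) = ψ g + UB (ψ ∘ alG) g` for `g ∈ Γ₀(N q)`   (representatives `ρ_j = W [[1,j],[0,q]] / q` of
  `Γ₀(N q) \ Γ₀(N)`);
* `alG (alG h) = c h c⁻¹` with `c ∈ Γ₀(N q)`.
-/

set_option autoImplicit false

open scoped MatrixGroups
open CongruenceSubgroup Matrix

namespace Fermat.Agent.S41.H39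

open Fermat.Agent.S41 Fermat.Agent.S41.H19 Fermat.Agent.Betti

section AL

variable {N q : ℕ} {u v : ℤ} (huv : (q : ℤ) * u + (N : ℤ) * v = 1)

/-- The Atkin–Lehner matrix `W = [[q, v], [-N q, q u]]`, of determinant `q`. -/
def Wmat (N q : ℕ) (u v : ℤ) : Matrix (Fin 2) (Fin 2) ℤ :=
  !![(q : ℤ), v; -((N : ℤ) * q), (q : ℤ) * u]

lemma Dq_Wmat : Dq q * Wmat N q u v = (q : ℤ) • mat (g0 huv) := by
  rw [mat_g0]
  ext i j
  fin_cases i <;> fin_cases j <;>
    simp [Dq, Wmat, Matrix.mul_apply, Fin.sum_univ_two] <;> ring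

/-- `h ↦ g0 h g0⁻¹` maps `Γ₀(N q)` into the range of `conjG`. -/
lemma conj_mem_range (hq : q ≠ 0) (h : Gamma0 (N * q)) :
    g0 huv * inclG N q h * (g0 huv)⁻¹ ∈ (conjG N q).range := by
  obtain ⟨h', hh'⟩ := AL_surj huv hq h
  exact ⟨h', hh'⟩

/-- The Atkin–Lehner automorphism `h ↦ W h W⁻¹` of `Γ₀(N q)`. -/
noncomputable def alG (hq : q ≠ 0) : Gamma0 (N * q) →* Gamma0 (N * q) :=
  (MonoidHom.ofInjective (conjG_injective N q hq)).symm.toMonoidHom.comp
    (((MulAut.conj (g0 huv)).toMonoidHom.comp (inclG N q)).codRestrict (conjG N q).range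
      (fun h => by
        simpa [MulAut.conj_apply] using conj_mem_range huv hq h))

lemma conjG_alG (hq : q ≠ 0) (h : Gamma0 (N * q)) :
    conjG N q (alG huv hq h) = g0 huv * inclG N q h * (g0 huv)⁻¹ := by
  have := (MonoidHom.ofInjective (conjG_injective N q hq)).apply_symm_apply
    ((((MulAut.conj (g0 huv)).toMonoidHom.comp (inclG N q)).codRestrict (conjG N q).range
      (fun h => by
        simpa [MulAut.conj_apply] using conj_mem_range huv hq h)) h)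
  have h2 := congrArg Subtype.val this
  simpa [alG, MulAut.conj_apply] using h2

/-- `alG h * W = W * h` in integer matrices. -/
lemma mat_alG_mul (hq : q ≠ 0) (h : Gamma0 (N * q)) :
    mat (alG huv hq h) * Wmat N q u v = Wmat N q u v * mat h := by
  have e1 : conjMat q (mat (alG huv hq h)) * mat (g0 huv) = mat (g0 huv) * mat h := by
    have : conjG N q (alG huv hq h) * g0 huv = g0 huv * inclG N q h := by
      rw [conjG_alG]; group
    have := congrArg mat this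
    simpa using this
  have hq' : (q : ℤ) ≠ 0 := by exact_mod_cast hq
  apply Dq_cancel_left hq
  calc Dq q * (mat (alG huv hq h) * Wmat N q u v)
      = (Dq q * mat (alG huv hq h)) * Wmat N q u v := by rw [Matrix.mul_assoc]
    _ = (conjMat q (mat (alG huv hq h)) * Dq q) * Wmat N q u v := by
        rw [conjMat_Dq (q_dvd_of_mem_gamma0_mul (alG huv hq h).2)]
    _ = conjMat q (mat (alG huv hq h)) * (Dq q * Wmat N q u v) := by rw [Matrix.mul_assoc]
    _ = (q : ℤ) • (conjMat q (mat (alG huv hq h)) * mat (g0 huv)) := by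
        rw [Dq_Wmat huv, Matrix.mul_smul]
    _ = (q : ℤ) • (mat (g0 huv) * mat h) := by rw [e1]
    _ = (Dq q * Wmat N q u v) * mat h := by rw [Dq_Wmat huv, Matrix.smul_mul]
    _ = Dq q * (Wmat N q u v * mat h) := by rw [Matrix.mul_assoc]

/-- `W * W = q • c` with `c ∈ Γ₀(N q)`. -/
def cAL : Gamma0 (N * q) :=
  mkG0 (N * q) ((q : ℤ) - (N : ℤ) * v) (v * (1 + u)) (-((N : ℤ) * q) * (1 + u))
    ((q : ℤ) * u ^ 2 - (N : ℤ) * v)
    (by linear_combination ((q : ℤ) * u + (N : ℤ) * v + 1) * huv)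
    ⟨-(1 + u), by push_cast; ring⟩

lemma Wmat_sq : Wmat N q u v * Wmat N q u v = (q : ℤ) • mat (cAL huv) := by
  rw [cAL, mat_mkG0]
  ext i j
  fin_cases i <;> fin_cases j <;>
    simp [Wmat, Matrix.mul_apply, Fin.sum_univ_two] <;> ring

lemma smul_mat_cancel {q : ℕ} (hq : q ≠ 0) {X Y : Matrix (Fin 2) (Fin 2) ℤ}
    (h : (q : ℤ) • X = (q : ℤ) • Y) : X = Y := by
  have hq' : (q : ℤ) ≠ 0 := by exact_mod_cast hq
  ext i j
  have := congrFun (congrFun h i) j
  simp only [Matrix.smul_apply, smul_eq_mul] at this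
  exact mul_left_cancel₀ hq' this

/-- `alG (alG h) = c h c⁻¹`. -/
lemma alG_alG (hq : q ≠ 0) (h : Gamma0 (N * q)) :
    alG huv hq (alG huv hq h) = cAL huv * h * (cAL huv)⁻¹ := by
  have e : alG huv hq (alG huv hq h) * cAL huv = cAL huv * h := by
    apply mat_injective
    rw [mat_mul, mat_mul]
    apply smul_mat_cancel hq
    calc (q : ℤ) • (mat (alG huv hq (alG huv hq h)) * mat (cAL huv))
        = mat (alG huv hq (alG huv hq h)) * (Wmat N q u v * Wmat N q u v) := by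
          rw [Wmat_sq huv, Matrix.mul_smul]
      _ = (mat (alG huv hq (alG huv hq h)) * Wmat N q u v) * Wmat N q u v := by
          rw [Matrix.mul_assoc]
      _ = Wmat N q u v * (mat (alG huv hq h) * Wmat N q u v) := by
          rw [mat_alG_mul, Matrix.mul_assoc]
      _ = (Wmat N q u v * Wmat N q u v) * mat h := by
          rw [mat_alG_mul, Matrix.mul_assoc]
      _ = (q : ℤ) • (mat (cAL huv) * mat h) := by
          rw [Wmat_sq huv, Matrix.smul_mul]
  rw [← e]; group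

variable {A : Type*} [AddCommGroup A]

/-- `φ ∘ alG ∘ alG = φ`. -/
lemma res_alG_alG (hq : q ≠ 0) (φ : Additive (Gamma0 (N * q)) →+ A) :
    resAlong A (alG huv hq) (resAlong A (alG huv hq) φ) = φ := by
  refine AddMonoidHom.ext fun x => ?_
  change φ (Additive.ofMul (alG huv hq (alG huv hq (Additive.toMul x))))
    = φ (Additive.ofMul (Additive.toMul x))
  rw [alG_alG, hom_conj]

/-- `cor2 φ = cor1 (φ ∘ alG)`. -/
lemma cor2_eq_cor1_alG (hN : 0 < N) (hq : q.Prime) (hqN : ¬ q ∣ N)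
    (φ : Additive (Gamma0 (N * q)) →+ A) :
    cor2 N q A φ = cor1 N q A (resAlong A (alG huv hq.ne_zero) φ) := by
  unfold cor2 cor1
  apply cor2_eq_cor1 hN hq hqN huv
  intro h h' hrel
  rw [resAlong_apply]
  have : h' = alG huv hq.ne_zero h := by
    apply conjG_injective N q hq.ne_zero
    rw [hrel, conjG_alG]
  rw [this]

end AL

/-! ### The representatives `ρ_j` and the identity `res1 ∘ cor1 = 1 + UB ∘ w` -/

section Mackey

variable {N q : ℕ} {u v : ℤ} (huv : (q : ℤ) * u + (N : ℤ) * v = 1)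

/-- The integer matrix `[[1, j], [0, q]]`. -/
def Bmat (q : ℕ) (j : ℤ) : Matrix (Fin 2) (Fin 2) ℤ := !![1, j; 0, (q : ℤ)]

/-- `ρ_j = [[1, j + v], [-N, -N j + q u]] ∈ Γ₀(N)`. -/
def rho (j : ℤ) : Gamma0 N :=
  mkG0 N 1 (j + v) (-(N : ℤ)) (-(N : ℤ) * j + (q : ℤ) * u) (by linear_combination huv)
    (dvd_neg.mpr dvd_rfl)

lemma mat_rho (j : ℤ) :
    mat (rho huv j) = !![1, j + v; -(N : ℤ), -(N : ℤ) * j + (q : ℤ) * u] := rfl

lemma Wmat_Bmat (j : ℤ) : Wmat N q u v * Bmat q j = (q : ℤ) • mat (rho huv j) := by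
  rw [mat_rho]
  ext i k
  fin_cases i <;> fin_cases k <;>
    simp [Wmat, Bmat, Matrix.mul_apply, Fin.sum_univ_two] <;> ring

/-- The relation of a Hecke family of `U_q`, in integer matrices. -/
lemma Bmat_rel {M : ℕ} (hq : q ≠ 0) {γ κ : Gamma0 M} {j j' : ZMod q}
    (h : repU q j * incl M γ = incl M κ * repU q j') :
    Bmat q (j.val : ℤ) * mat γ = mat κ * Bmat q (j'.val : ℤ) := by
  have h2 := congrArg (fun X : GL (Fin 2) ℝ => (X : Matrix (Fin 2) (Fin 2) ℝ)) h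
  simp only [Units.val_mul, incl_apply, Matrix.SpecialLinearGroup.mapGL_coe_matrix,
    ModularForm.val_heckeMatrix hq] at h2
  apply Matrix.map_injective (Int.cast_injective (α := ℝ))
  show (Bmat q (j.val : ℤ) * mat γ).map (Int.cast : ℤ → ℝ)
    = (mat κ * Bmat q (j'.val : ℤ)).map (Int.cast : ℤ → ℝ)
  have e1 : (Bmat q (j.val : ℤ)).map (Int.cast : ℤ → ℝ) = !![(1 : ℝ), ((j.val : ℕ) : ℝ); 0, (q : ℝ)] := by
    ext i k
    fin_cases i <;> fin_cases k <;> simp [Bmat]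
  have e2 : (Bmat q (j'.val : ℤ)).map (Int.cast : ℤ → ℝ) = !![(1 : ℝ), ((j'.val : ℕ) : ℝ); 0, (q : ℝ)] := by
    ext i k
    fin_cases i <;> fin_cases k <;> simp [Bmat]
  rw [Matrix.map_mul_intCast, Matrix.map_mul_intCast, e1, e2]
  exact h2

/-- The relation `ρ_j γ = alG(κ) ρ_j'` in `Γ₀(N)`. -/
lemma rho_rel (hq : q ≠ 0) {γ κ : Gamma0 (N * q)} {j j' : ZMod q}
    (h : repU q j * incl (N * q) γ = incl (N * q) κ * repU q j') :
    rho huv (j.val : ℤ) * inclG N q γ = inclG N q (alG huv hq κ) * rho huv (j'.val : ℤ) := by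
  apply mat_injective
  rw [mat_mul, mat_mul, mat_inclG, mat_inclG]
  apply smul_mat_cancel hq
  calc (q : ℤ) • (mat (rho huv (j.val : ℤ)) * mat γ)
      = (Wmat N q u v * Bmat q (j.val : ℤ)) * mat γ := by
        rw [Wmat_Bmat huv, Matrix.smul_mul]
    _ = Wmat N q u v * (Bmat q (j.val : ℤ) * mat γ) := by rw [Matrix.mul_assoc]
    _ = Wmat N q u v * (mat κ * Bmat q (j'.val : ℤ)) := by rw [Bmat_rel hq h]
    _ = (Wmat N q u v * mat κ) * Bmat q (j'.val : ℤ) := by rw [Matrix.mul_assoc]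
    _ = (mat (alG huv hq κ) * Wmat N q u v) * Bmat q (j'.val : ℤ) := by rw [mat_alG_mul]
    _ = mat (alG huv hq κ) * (Wmat N q u v * Bmat q (j'.val : ℤ)) := by rw [Matrix.mul_assoc]
    _ = (q : ℤ) • (mat (alG huv hq κ) * mat (rho huv (j'.val : ℤ))) := by
        rw [Wmat_Bmat huv, Matrix.mul_smul]

/-- The system of representatives of `Γ₀(N) / Γ₀(N q)`: `1` and the `ρ_j⁻¹`. -/
def tAL (o : Option (ZMod q)) : Gamma0 N :=
  match o with
  | none => 1
  | some j => (rho huv (j.val : ℤ))⁻¹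

lemma mem_range_inclG_iff (g : Gamma0 N) :
    g ∈ (inclG N q).range ↔ ((N * q : ℕ) : ℤ) ∣ mat g 1 0 := by
  constructor
  · rintro ⟨h, rfl⟩
    exact dvd_of_mem_gamma0_mul h.2
  · intro hd
    refine ⟨⟨(g : SL(2, ℤ)), ?_⟩, rfl⟩
    rw [Gamma0_mem, ZMod.intCast_zmod_eq_zero_iff_dvd]
    exact hd

lemma mat_inv (g : Gamma0 N) : mat g⁻¹ = !![mat g 1 1, -mat g 0 1; -mat g 1 0, mat g 0 0] := by
  show ((((g : SL(2, ℤ)))⁻¹ : SL(2, ℤ)) : Matrix (Fin 2) (Fin 2) ℤ) = _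
  rw [Matrix.SpecialLinearGroup.coe_inv, Matrix.adjugate_fin_two]

lemma tAL_inj (hN : 0 < N) (hq : q.Prime) (i j : Option (ZMod q))
    (h : (tAL huv i)⁻¹ * tAL huv j ∈ (inclG N q).range) : i = j := by
  have hN' : (N : ℤ) ≠ 0 := by exact_mod_cast hN.ne'
  have hq1 : ¬ (q : ℤ) ∣ 1 := by
    intro hd
    have := Int.natAbs_dvd_natAbs.mpr hd
    simp at this
    exact hq.one_lt.ne' this
  have key : ∀ x : ℤ, ((N * q : ℕ) : ℤ) ∣ (N : ℤ) * x → (q : ℤ) ∣ x := by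
    intro x hx
    obtain ⟨c, hc⟩ := hx
    refine ⟨c, ?_⟩
    have : (N : ℤ) * x = (N : ℤ) * ((q : ℤ) * c) := by push_cast at hc; linear_combination hc
    exact mul_left_cancel₀ hN' this
  rw [mem_range_inclG_iff] at h
  rcases i with _ | i <;> rcases j with _ | j
  · rfl
  · exfalso
    simp only [tAL, inv_one, one_mul] at h
    rw [mat_inv, mat_rho] at h
    simp only [Matrix.of_apply, Matrix.cons_val', Matrix.cons_val_zero, Matrix.cons_val_one,
      Matrix.empty_val', Matrix.cons_val_fin_one, neg_neg] at h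
    exact hq1 (key 1 (by simpa using h))
  · exfalso
    simp only [tAL, inv_inv, mul_one] at h
    rw [mat_rho] at h
    simp only [Matrix.of_apply, Matrix.cons_val', Matrix.cons_val_zero, Matrix.cons_val_one,
      Matrix.empty_val', Matrix.cons_val_fin_one] at h
    have h' : ((N * q : ℕ) : ℤ) ∣ (N : ℤ) * 1 := by
      rw [mul_one]; exact (dvd_neg.mp h)
    exact hq1 (key 1 h')
  · simp only [tAL, inv_inv] at h
    rw [mat_mul, mat_inv, mat_rho, mat_rho] at h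
    simp only [Matrix.mul_apply, Fin.sum_univ_two, Matrix.of_apply, Matrix.cons_val',
      Matrix.cons_val_zero, Matrix.cons_val_one, Matrix.empty_val', Matrix.cons_val_fin_one,
      neg_neg] at h
    have h' : ((N * q : ℕ) : ℤ) ∣ (N : ℤ) * ((N : ℤ) * ((j.val : ℤ) - (i.val : ℤ))) := by
      convert h using 1
      ring
    have h2 : (q : ℤ) ∣ (N : ℤ) * ((j.val : ℤ) - (i.val : ℤ)) := key _ h'
    have h3 : (q : ℤ) ∣ (j.val : ℤ) - (i.val : ℤ) := (isCoprime_q_N huv).dvd_of_dvd_mul_left h2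
    haveI : NeZero q := ⟨hq.ne_zero⟩
    congr 1
    have h4 := (ZMod.intCast_zmod_eq_zero_iff_dvd _ q).mpr h3
    push_cast at h4
    rw [ZMod.natCast_zmod_val, ZMod.natCast_zmod_val] at h4
    exact (sub_eq_zero.mp h4).symm

theorem isReps_tAL (hN : 0 < N) (hq : q.Prime) (hqN : ¬ q ∣ N) :
    IsReps (inclG N q) (tAL huv) := by
  haveI : NeZero q := ⟨hq.ne_zero⟩
  haveI := finiteIndex_inclG hN hq hqN
  have hinj : Function.Injective (fun i : Option (ZMod q) => (tAL huv i : Gamma0 N ⧸ (inclG N q).range)) := by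
    intro i j hij
    exact tAL_inj huv hN hq i j (QuotientGroup.eq.mp hij)
  have hcard : Nat.card (Gamma0 N ⧸ (inclG N q).range) ≤ Nat.card (Option (ZMod q)) := by
    have h1 : Nat.card (Gamma0 N ⧸ (inclG N q).range) = q + 1 := index_inclG hN hq hqN
    rw [h1]
    simp [Nat.card_eq_fintype_card, ZMod.card]
  have hbij := hinj.bijective_of_nat_card_le hcard
  refine ⟨tAL_inj huv hN hq, fun g => ?_⟩
  obtain ⟨i, hi⟩ := hbij.2 (g : Gamma0 N ⧸ (inclG N q).range)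
  exact ⟨i, QuotientGroup.eq.mp hi⟩

variable {A : Type*} [AddCommGroup A]

/-- **Mackey + Atkin–Lehner**: `(cor1 ψ)(g) = ψ g + U_q (ψ ∘ alG) g` for `g ∈ Γ₀(N q)`. -/
theorem cor1_incl (hN : 0 < N) (hq : q.Prime) (hqN : ¬ q ∣ N) [NeZero (N * q)]
    (ψ : Additive (Gamma0 (N * q)) →+ A) (γ : Gamma0 (N * q)) :
    cor1 N q A ψ (Additive.ofMul (inclG N q γ))
      = ψ (Additive.ofMul γ)
        + UB (N * q) A (dvd_mul_left q N) (resAlong A (alG huv hq.ne_zero) ψ) (Additive.ofMul γ) := by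
  haveI : NeZero q := ⟨hq.ne_zero⟩
  set H := isHeckeFamily_U (N * q) (dvd_mul_left q N) with hH
  have key := corAlong_eq_sum (A := A) (inclG N q) (inclG_injective N q) (tAL huv)
    (isReps_tAL huv hN hq hqN) ψ ((inclG N q γ)⁻¹)
    (fun o => match o with
      | none => none
      | some j => some (H.perm γ j))
    (fun o => match o with
      | none => γ⁻¹
      | some j => (alG huv hq.ne_zero (H.kap γ j))⁻¹)
    (by
      intro o
      rcases o with _ | j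
      · simp [tAL]
      · have h1 := rho_rel huv hq.ne_zero (H.rep_mul γ j)
        have h2 := congrArg (fun x => x⁻¹) h1
        simp only [_root_.mul_inv_rev] at h2
        simpa [tAL] using h2)
  rw [Fintype.sum_option] at key
  have e1 : (cor1 N q A ψ) (Additive.ofMul (inclG N q γ))
      = - corAlong A (inclG N q) ψ (Additive.ofMul (inclG N q γ)⁻¹) := by
    rw [ofMul_inv, map_neg, neg_neg]; rfl
  rw [e1, key, UB_apply_apply]
  simp only [ofMul_inv, map_neg, Finset.sum_neg_distrib, resAlong_apply]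
  abel

end Mackey

/-! ### The theorem -/

/-- **AL**: on the classes killed by both trace maps the Betti operator `U_q` is an involution. -/
theorem al_main {N q : ℕ} [NeZero (N * q)] (hN : 0 < N) (hq : q.Prime) (hqN : ¬ q ∣ N)
    {A : Type*} [AddCommGroup A] (hdvd : q ∣ N * q) (φ : Additive (Gamma0 (N * q)) →+ A)
    (h1 : cor1 N q A φ = 0) (h2 : cor2 N q A φ = 0) :
    UB (N * q) A hdvd (UB (N * q) A hdvd φ) = φ := by
  obtain ⟨u, v, huv⟩ := exists_bezout hq hqN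
  set w : (Additive (Gamma0 (N * q)) →+ A) → (Additive (Gamma0 (N * q)) →+ A) :=
    resAlong A (alG huv hq.ne_zero) with hw
  -- `UB (w φ) = -φ`
  have ha : UB (N * q) A hdvd (w φ) = -φ := by
    refine AddMonoidHom.ext fun x => ?_
    have := cor1_incl huv hN hq hqN φ (Additive.toMul x)
    rw [h1] at this
    have h0 : (0 : Additive (Gamma0 N) →+ A) (Additive.ofMul (inclG N q (Additive.toMul x))) = 0 :=
      rfl
    rw [h0] at this
    exact eq_neg_of_add_eq_zero_right this.symm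
  -- `UB φ = - w φ`
  have hb : UB (N * q) A hdvd φ = -(w φ) := by
    have h1' : cor1 N q A (w φ) = 0 := by
      rw [hw, ← cor2_eq_cor1_alG huv hN hq hqN φ, h2]
    refine AddMonoidHom.ext fun x => ?_
    have := cor1_incl huv hN hq hqN (w φ) (Additive.toMul x)
    rw [h1'] at this
    have h0 : (0 : Additive (Gamma0 N) →+ A) (Additive.ofMul (inclG N q (Additive.toMul x))) = 0 :=
      rfl
    rw [h0] at this
    have hww : resAlong A (alG huv hq.ne_zero) (w φ) = φ := res_alG_alG huv hq.ne_zero φ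
    rw [hww] at this
    exact eq_neg_of_add_eq_zero_right this.symm
  rw [hb, map_neg, ha, neg_neg]

end Fermat.Agent.S41.H39

end
-- ==== END Fermat.Agent.S41.H39_AL

-- ==== BEGIN Fermat.Agent.S41.H41_KumDefs
section

/-!
# I2 leaf D, sub-leaf D-KUM (helper41): Kummer theory statements

`ζ` a primitive `M`-th root of unity in `ℚ̄`, `p ∣ M` an odd prime, `q` a prime, `y ^ p = q`.

* `Stmt_KumA`  : some automorphism fixes `ζ` and moves `y`.
* `Stmt_KumHom`: on every subgroup `H` fixing `ζ`, `g ↦ g y / y` is a homomorphism to a group of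
  order `p` (`Multiplicative (ZMod p)`), with kernel `{g | g y = y}`.
* `Stmt_KumB1` : a Frobenius at `ℓ ∤ M` fixing `ζ` has `ℓ ≡ 1 mod M`.
* `Stmt_KumB2` : a Frobenius at `ℓ ≠ p, q` with `p ∣ ℓ - 1` moving `y` has
  `q ^ ((ℓ - 1) / p) ≠ 1` in `ZMod ℓ`.
-/

set_option autoImplicit false

namespace Fermat.Agent.S41.H41

/-- D-KUM (a): there is an automorphism of `ℚ̄` fixing `ζ_M` and moving `q^(1/p)`. -/
def Stmt_KumA : Prop :=
  ∀ (p q M : ℕ), p.Prime → p ≠ 2 → q.Prime → 0 < M → p ∣ M →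
    ∀ (ζ y : AlgebraicClosure ℚ), IsPrimitiveRoot ζ M → y ^ p = (q : AlgebraicClosure ℚ) →
      ∃ σ : AlgebraicClosure ℚ ≃ₐ[ℚ] AlgebraicClosure ℚ, σ ζ = ζ ∧ σ y ≠ y

/-- D-KUM (hom): the Kummer character `g ↦ g y / y` on any subgroup fixing `ζ_M`. -/
def Stmt_KumHom : Prop :=
  ∀ (p q M : ℕ), p.Prime → q.Prime → 0 < M → p ∣ M →
    ∀ (ζ y : AlgebraicClosure ℚ), IsPrimitiveRoot ζ M → y ^ p = (q : AlgebraicClosure ℚ) →
      ∀ H : Subgroup (AlgebraicClosure ℚ ≃ₐ[ℚ] AlgebraicClosure ℚ), (∀ g ∈ H, g ζ = ζ) →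
        ∃ κ : H →* Multiplicative (ZMod p), ∀ g : H, κ g = 1 ↔ (g : AlgebraicClosure ℚ ≃ₐ[ℚ]
          AlgebraicClosure ℚ) y = y

/-- D-KUM (b1): a Frobenius element at `ℓ ∤ M` which fixes `ζ_M` has `ℓ ≡ 1 mod M`. -/
def Stmt_KumB1 : Prop :=
  ∀ (ℓ M : ℕ), ℓ.Prime → 0 < M → ¬ ℓ ∣ M →
    ∀ (A : ValuationSubring (AlgebraicClosure ℚ))
      (σ : AlgebraicClosure ℚ ≃ₐ[ℚ] AlgebraicClosure ℚ),
      A.LiesOverPrime ℓ → A.IsFrobeniusAt σ ℓ →
      ∀ ζ : AlgebraicClosure ℚ, IsPrimitiveRoot ζ M → σ ζ = ζ → ℓ % M = 1 % M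

/-- D-KUM (b2): a Frobenius element at `ℓ` (`ℓ ≠ p`, `ℓ ≠ q`, `p ∣ ℓ - 1`) which moves
`y = q^(1/p)` has `q ^ ((ℓ - 1) / p) ≠ 1` in `ZMod ℓ`. -/
def Stmt_KumB2 : Prop :=
  ∀ (ℓ p q : ℕ), ℓ.Prime → p.Prime → q.Prime → ℓ ≠ p → ℓ ≠ q → p ∣ ℓ - 1 →
    ∀ (A : ValuationSubring (AlgebraicClosure ℚ))
      (σ : AlgebraicClosure ℚ ≃ₐ[ℚ] AlgebraicClosure ℚ),
      A.LiesOverPrime ℓ → A.IsFrobeniusAt σ ℓ →
      ∀ y : AlgebraicClosure ℚ, y ^ p = (q : AlgebraicClosure ℚ) → σ y ≠ y →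
        (q : ZMod ℓ) ^ ((ℓ - 1) / p) ≠ 1

end Fermat.Agent.S41.H41

end
-- ==== END Fermat.Agent.S41.H41_KumDefs

-- ==== BEGIN Fermat.Agent.S41.H77_Heis
section

/-!
# The Heisenberg group over a commutative ring (helper77, for S41-P leaf B2)

`Heis k = {(p, q, r)}` with `(p, q, r) * (p', q', r') = (p + p', q + q', r + r' + p * q')`.
A map `h ↦ (φ h, ψ h, -b h)` into `Heis k` is multiplicative iff `b` is a primitive of the cup
product `φ ∪ ψ`.
-/

set_option autoImplicit false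

namespace Fermat.Agent.S41.H77

/-- The Heisenberg group. -/
@[ext]
structure Heis (k : Type) where
  /-- first coordinate -/
  p : k
  /-- second coordinate -/
  q : k
  /-- central coordinate -/
  r : k

namespace Heis

variable {k : Type} [CommRing k]

instance : Mul (Heis k) := ⟨fun a b => ⟨a.p + b.p, a.q + b.q, a.r + b.r + a.p * b.q⟩⟩
instance : One (Heis k) := ⟨⟨0, 0, 0⟩⟩
instance : Inv (Heis k) := ⟨fun a => ⟨-a.p, -a.q, -a.r + a.p * a.q⟩⟩

@[simp] theorem mul_p (a b : Heis k) : (a * b).p = a.p + b.p := rfl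
@[simp] theorem mul_q (a b : Heis k) : (a * b).q = a.q + b.q := rfl
@[simp] theorem mul_r (a b : Heis k) : (a * b).r = a.r + b.r + a.p * b.q := rfl
@[simp] theorem one_p : (1 : Heis k).p = 0 := rfl
@[simp] theorem one_q : (1 : Heis k).q = 0 := rfl
@[simp] theorem one_r : (1 : Heis k).r = 0 := rfl
@[simp] theorem inv_p (a : Heis k) : (a⁻¹).p = -a.p := rfl
@[simp] theorem inv_q (a : Heis k) : (a⁻¹).q = -a.q := rfl
@[simp] theorem inv_r (a : Heis k) : (a⁻¹).r = -a.r + a.p * a.q := rfl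

instance : Group (Heis k) where
  mul_assoc a b c := by
    ext <;> simp only [mul_p, mul_q, mul_r] <;> ring
  one_mul a := by
    ext <;> simp only [mul_p, mul_q, mul_r, one_p, one_q, one_r] <;> ring
  mul_one a := by
    ext <;> simp only [mul_p, mul_q, mul_r, one_p, one_q, one_r] <;> ring
  inv_mul_cancel a := by
    ext <;> simp only [mul_p, mul_q, mul_r, one_p, one_q, one_r, inv_p, inv_q, inv_r] <;> ring

end Heis

end Fermat.Agent.S41.H77

end
-- ==== END Fermat.Agent.S41.H77_Heis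

-- ==== BEGIN Fermat.Agent.S41.H78_DGrpStmt
section

/-!
# S41 / I2 leaf D, sub-leaf D-GRP (helper78): statements

A pure group / linear algebra lemma.  `k` a field with `2 ≠ 0`, `V` a plane over `k`,
`ρ : G →* End_k V`, `H ≤ G` containing all commutators of `G`, and a subset `D ⊆ H`
(in the application `D = {g ∈ H | g y ≠ y}`) such that

* `D` is nonempty,
* for `g ∈ H` and `s ∈ D` at least two of `g`, `g * s`, `g * s * s` lie in `D`,
* every `ρ g`, `g ∈ D`, has trace `2` and determinant `1`,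

and an involution `c ∈ G` with `det ρ c = -1`.  Then `ρ` has a stable line (conclusion in the
same shape as `Fermat.Agent.S41.H19.stable_line`).

`Stmt_DGRP` is the version with a homomorphism `κ : H →* A` (`A` without elements of order two
in the image) and `D = {κ ≠ 1}`.  Both are proved in `Fermat/Agent/S41/H78_DGrp.lean`
(universe polymorphic theorems `dgrp_pred`, `dgrp`).
-/

set_option autoImplicit false

namespace Fermat.Agent.S41.H78

open Module

/-- D-GRP, predicate form. -/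
def Stmt_DGRP_pred : Prop :=
  ∀ (k : Type) [Field k], (2 : k) ≠ 0 →
  ∀ (V : Type) [AddCommGroup V] [Module k V], finrank k V = 2 →
  ∀ (G : Type) [Group G] (ρ : G →* (V →ₗ[k] V)) (H : Subgroup G),
    (∀ g g' : G, g * g' * g⁻¹ * g'⁻¹ ∈ H) →
  ∀ (D : G → Prop), (∀ s, D s → s ∈ H) → (∃ s, D s) →
    (∀ g s, g ∈ H → D s →
      (D g ∧ D (g * s)) ∨ (D g ∧ D (g * s * s)) ∨ (D (g * s) ∧ D (g * s * s))) →
    (∀ g, D g → LinearMap.trace k V (ρ g) = 2 ∧ LinearMap.det (ρ g) = 1) →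
    (∃ c : G, c * c = 1 ∧ LinearMap.det (ρ c) = -1) →
    ∃ v : V, v ≠ 0 ∧ ∀ g, ∃ a : k, ρ g v = a • v

/-- D-GRP, homomorphism form. -/
def Stmt_DGRP : Prop :=
  ∀ (k : Type) [Field k], (2 : k) ≠ 0 →
  ∀ (V : Type) [AddCommGroup V] [Module k V], finrank k V = 2 →
  ∀ (G : Type) [Group G] (ρ : G →* (V →ₗ[k] V)) (H : Subgroup G),
    (∀ g g' : G, g * g' * g⁻¹ * g'⁻¹ ∈ H) →
  ∀ (A : Type) [Group A] (κ : H →* A),
    (∀ g : H, κ g * κ g = 1 → κ g = 1) → (∃ s : H, κ s ≠ 1) →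
    (∀ g : H, κ g ≠ 1 →
      LinearMap.trace k V (ρ g) = 2 ∧ LinearMap.det (ρ (g : G)) = 1) →
    (∃ c : G, c * c = 1 ∧ LinearMap.det (ρ c) = -1) →
    ∃ v : V, v ≠ 0 ∧ ∀ g, ∃ a : k, ρ g v = a • v

end Fermat.Agent.S41.H78

end
-- ==== END Fermat.Agent.S41.H78_DGrpStmt

-- ==== BEGIN Fermat.Agent.S41.H94_DualAbs
section

/-!
# S41, package P: abstract "dual Ihara" (pure linear algebra)

`V` finite-dimensional with a nondegenerate form `B`, `V'` with a nondegenerate form `B'`,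
`r₁ r₂ : V → V'` with adjoints `c₁ c₂ : V' → V`, operators `T i` on `V` self-adjoint for `B`, scalars `a i`.
If (Ihara) `r₁ x₁ + r₂ x₂ = 0` with `x₁` an eigenvector (`T i x₁ = a i • x₁`) forces `x₁ = 0`, and the
relation is symmetric in `(x₁, x₂)`, then `V × V` is spanned by the image of `(c₁, c₂)` and the images of the
`T i - a i` in both factors.
-/

set_option autoImplicit false

namespace Fermat.Agent.S41.H94

section Abstract

variable {k : Type*} [Field k] {V : Type*} [AddCommGroup V] [Module k V] [FiniteDimensional k V]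
  {V' : Type*} [AddCommGroup V'] [Module k V']

/-- A bilinear form with trivial left kernel on a finite-dimensional space represents every functional. -/
theorem exists_repr_of_nondeg (B : V →ₗ[k] V →ₗ[k] k) (hB : ∀ x, (∀ y, B x y = 0) → x = 0)
    (f : V →ₗ[k] k) : ∃ x, B x = f := by
  have hinj : Function.Injective B := by
    rw [← LinearMap.ker_eq_bot, LinearMap.ker_eq_bot']
    intro x hx
    exact hB x (fun y => by rw [hx]; rfl)
  have hsurj : Function.Surjective B :=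
    (LinearMap.injective_iff_surjective_of_finrank_eq_finrank
      (Subspace.dual_finrank_eq (K := k) (V := V)).symm).mp hinj
  exact hsurj f

/-- The generating set of the abstract dual Ihara statement. -/
def dualGens {I : Type*} (c₁ c₂ : V' →ₗ[k] V) (T : I → V →ₗ[k] V) (a : I → k) : Set (V × V) :=
  (Set.range fun y : V' => (c₁ y, c₂ y)) ∪
    (Set.range fun iu : I × V => (T iu.1 iu.2 - a iu.1 • iu.2, (0 : V))) ∪
    (Set.range fun iu : I × V => ((0 : V), T iu.1 iu.2 - a iu.1 • iu.2))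

theorem span_dualGens_eq_top {I : Type*} (B : V →ₗ[k] V →ₗ[k] k) (B' : V' →ₗ[k] V' →ₗ[k] k)
    (hB : ∀ x, (∀ y, B x y = 0) → x = 0) (hB' : ∀ z, (∀ y, B' z y = 0) → z = 0)
    (r₁ r₂ : V →ₗ[k] V') (c₁ c₂ : V' →ₗ[k] V)
    (adj₁ : ∀ x y, B' (r₁ x) y = B x (c₁ y)) (adj₂ : ∀ x y, B' (r₂ x) y = B x (c₂ y))
    (T : I → V →ₗ[k] V) (a : I → k) (hT : ∀ i x y, B x (T i y) = B (T i x) y)
    (ih : ∀ x₁ x₂, (∀ i, T i x₁ = a i • x₁) → r₁ x₁ + r₂ x₂ = 0 → x₁ = 0)
    (sw : ∀ x₁ x₂, r₁ x₁ + r₂ x₂ = 0 → r₁ x₂ + r₂ x₁ = 0) :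
    Submodule.span k (dualGens c₁ c₂ T a) = ⊤ := by
  by_contra hne
  obtain ⟨v, hv⟩ : ∃ v : V × V, v ∉ Submodule.span k (dualGens c₁ c₂ T a) :=
    not_forall.mp fun hall => hne (eq_top_iff.mpr fun v _ => hall v)
  obtain ⟨f, hfv, hf⟩ := Submodule.exists_dual_map_eq_bot_of_notMem hv inferInstance
  have hf0 : ∀ z ∈ dualGens c₁ c₂ T a, f z = 0 := by
    intro z hz
    have : f z ∈ (Submodule.span k (dualGens c₁ c₂ T a)).map f :=
      Submodule.mem_map_of_mem (Submodule.subset_span hz)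
    rw [hf] at this
    exact (Submodule.mem_bot k).mp this
  obtain ⟨x₁, hx₁⟩ := exists_repr_of_nondeg B hB (f.comp (LinearMap.inl k V V))
  obtain ⟨x₂, hx₂⟩ := exists_repr_of_nondeg B hB (f.comp (LinearMap.inr k V V))
  have hsplit : ∀ u w : V, f (u, w) = B x₁ u + B x₂ w := by
    intro u w
    rw [hx₁, hx₂]
    simp only [LinearMap.comp_apply, LinearMap.inl_apply, LinearMap.inr_apply]
    rw [← map_add]
    simp
  have hrel : r₁ x₁ + r₂ x₂ = 0 := by
    apply hB'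
    intro y
    rw [map_add, LinearMap.add_apply, adj₁, adj₂, ← hsplit]
    exact hf0 _ (Or.inl (Or.inl ⟨y, rfl⟩))
  have he₁ : ∀ i, T i x₁ = a i • x₁ := by
    intro i
    rw [← sub_eq_zero]
    apply hB
    intro u
    rw [map_sub, LinearMap.sub_apply, map_smul, LinearMap.smul_apply, ← hT]
    have := hf0 _ (Or.inl (Or.inr ⟨(i, u), rfl⟩))
    rw [hsplit] at this
    simp only [map_zero, add_zero, map_sub, map_smul] at this
    exact this
  have he₂ : ∀ i, T i x₂ = a i • x₂ := by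
    intro i
    rw [← sub_eq_zero]
    apply hB
    intro u
    rw [map_sub, LinearMap.sub_apply, map_smul, LinearMap.smul_apply, ← hT]
    have := hf0 _ (Or.inr ⟨(i, u), rfl⟩)
    rw [hsplit] at this
    simp only [map_zero, zero_add, map_sub, map_smul] at this
    exact this
  have h1 : x₁ = 0 := ih x₁ x₂ he₁ hrel
  have h2 : x₂ = 0 := ih x₂ x₁ he₂ (sw x₁ x₂ hrel)
  apply hfv
  obtain ⟨u, w⟩ := v
  rw [hsplit, h1, h2]
  simp

end Abstract

end Fermat.Agent.S41.H94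

end
-- ==== END Fermat.Agent.S41.H94_DualAbs

-- ==== BEGIN Fermat.Agent.S41.H94_PDDefs
section

/-!
# S41, package P (Poincare duality): interfaces of the group-theoretic leaves

`tau = T * S⁻¹` (order 3).  Leaves:

* `Stmt_PSL` : `PSL(2,ℤ) = C₂ * C₃` as a universal property of `SL(2,ℤ)`.
* `Stmt_C3`  : every element of trace `-1` is conjugate to `tau` or `tau⁻¹`.
* `Stmt_PAR` : every element of trace `2` is conjugate to a power of `T`.
-/

set_option autoImplicit false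

open scoped MatrixGroups

namespace Fermat.Agent.S41.H94

/-- `τ = T S⁻¹ = [[-1, 1], [-1, 0]]`, an element of order `3` of `SL(2,ℤ)`. -/
def tau : SL(2, ℤ) := ModularGroup.T * ModularGroup.S⁻¹

/-- **P0** (`PSL(2,ℤ) = C₂ * C₃`): for any group `H` and `s t : H` with `s² = 1`, `t³ = 1` there is a
homomorphism `SL(2,ℤ) → H` with `S ↦ s`, `T S⁻¹ ↦ t`. -/
def Stmt_PSL : Prop :=
  ∀ (H : Type) [Group H] (s t : H), s ^ 2 = 1 → t ^ 3 = 1 →
    ∃ θ : SL(2, ℤ) →* H, θ ModularGroup.S = s ∧ θ tau = t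

/-- **C3**: an element of `SL(2,ℤ)` of trace `-1` is conjugate to `τ` or to `τ⁻¹`. -/
def Stmt_C3 : Prop :=
  ∀ γ : SL(2, ℤ), (γ : Matrix (Fin 2) (Fin 2) ℤ).trace = -1 →
    ∃ x : SL(2, ℤ), γ = x⁻¹ * tau * x ∨ γ = x⁻¹ * tau⁻¹ * x

/-- **PAR**: an element of `SL(2,ℤ)` of trace `2` is conjugate to a power of `T`. -/
def Stmt_PAR : Prop :=
  ∀ γ : SL(2, ℤ), (γ : Matrix (Fin 2) (Fin 2) ℤ).trace = 2 →
    ∃ (x : SL(2, ℤ)) (n : ℤ), γ = x⁻¹ * ModularGroup.T ^ n * x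

end Fermat.Agent.S41.H94

end
-- ==== END Fermat.Agent.S41.H94_PDDefs

-- ==== BEGIN Fermat.Agent.S41.H94_Ribbon
section

/-!
# S41, package P (Poincare duality), part P1: the ribbon-graph pairing

`X` is a finite set with two permutations `s` (an involution) and `t` (of order dividing 3); think of
`X = SL(2,ℤ)/Γ`, `s` = action of `S`, `t` = action of `T S⁻¹`.  Functions `a : X → k` with
`a ∘ t - a ∈ range (s^* - 1)` are called *Manin functions*; they carry the skew form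

  `Qform t a b = ∑ x, (a x * b (t x) - a (t x) * b x)`.

Main result `Qform_radical`: if `b` is Manin and `Qform t a b = 0` for every Manin `a`, then
`b ∘ t - b = c ∘ s - c` for some `c` invariant under `t ∘ s` (a "boundary").
-/

set_option autoImplicit false

namespace Fermat.Agent.S41.H94

open Finset

section Ribbon

variable {X : Type*} [Fintype X] {k : Type*} [Field k]

/-- The skew form on functions on `X` attached to the permutation `t`. -/
def Qform (t : Equiv.Perm X) (a b : X → k) : k := ∑ x, (a x * b (t x) - a (t x) * b x)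

/-- `a` is a Manin function: `a ∘ t - a = u ∘ s - u` for some `u`. -/
def IsManin (s t : Equiv.Perm X) (a : X → k) : Prop :=
  ∃ u : X → k, ∀ x, a (t x) - a x = u (s x) - u x

theorem Qform_skew (t : Equiv.Perm X) (a b : X → k) : Qform t a b = - Qform t b a := by
  unfold Qform
  rw [← Finset.sum_neg_distrib]
  refine Finset.sum_congr rfl fun x _ => ?_
  ring

theorem Qform_add_left (t : Equiv.Perm X) (a a' b : X → k) :
    Qform t (a + a') b = Qform t a b + Qform t a' b := by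
  unfold Qform
  rw [← Finset.sum_add_distrib]
  refine Finset.sum_congr rfl fun x _ => ?_
  simp only [Pi.add_apply]; ring

theorem Qform_add_right (t : Equiv.Perm X) (a b b' : X → k) :
    Qform t a (b + b') = Qform t a b + Qform t a b' := by
  unfold Qform
  rw [← Finset.sum_add_distrib]
  refine Finset.sum_congr rfl fun x _ => ?_
  simp only [Pi.add_apply]; ring

theorem Qform_smul_left (t : Equiv.Perm X) (r : k) (a b : X → k) :
    Qform t (r • a) b = r * Qform t a b := by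
  unfold Qform
  rw [Finset.mul_sum]
  refine Finset.sum_congr rfl fun x _ => ?_
  simp only [Pi.smul_apply, smul_eq_mul]; ring

theorem Qform_smul_right (t : Equiv.Perm X) (r : k) (a b : X → k) :
    Qform t a (r • b) = r * Qform t a b := by
  unfold Qform
  rw [Finset.mul_sum]
  refine Finset.sum_congr rfl fun x _ => ?_
  simp only [Pi.smul_apply, smul_eq_mul]; ring

theorem Qform_sub_left (t : Equiv.Perm X) (a a' b : X → k) :
    Qform t (a - a') b = Qform t a b - Qform t a' b := by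
  unfold Qform
  rw [← Finset.sum_sub_distrib]
  refine Finset.sum_congr rfl fun x _ => ?_
  simp only [Pi.sub_apply]; ring

theorem Qform_sub_right (t : Equiv.Perm X) (a b b' : X → k) :
    Qform t a (b - b') = Qform t a b - Qform t a b' := by
  unfold Qform
  rw [← Finset.sum_sub_distrib]
  refine Finset.sum_congr rfl fun x _ => ?_
  simp only [Pi.sub_apply]; ring

/-- Alternative expression of the form: `Q(a,b) = ∑ a(x) (b(t x) - b(t⁻¹ x))`. -/
theorem Qform_eq_sum (t : Equiv.Perm X) (a b : X → k) :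
    Qform t a b = ∑ x, a x * (b (t x) - b (t.symm x)) := by
  unfold Qform
  rw [Finset.sum_sub_distrib]
  have h : ∑ x, a (t x) * b x = ∑ x, a x * b (t.symm x) := by
    rw [← Equiv.sum_comp t (fun x => a x * b (t.symm x))]
    simp
  rw [h, ← Finset.sum_sub_distrib]
  refine Finset.sum_congr rfl fun x _ => ?_
  ring

/-- `t`-invariant functions are in the kernel of the form. -/
theorem Qform_left_of_invariant (t : Equiv.Perm X) (c b : X → k) (hc : ∀ x, c (t x) = c x) :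
    Qform t c b = 0 := by
  unfold Qform
  rw [Finset.sum_sub_distrib, sub_eq_zero]
  rw [← Equiv.sum_comp t (fun x => c (t x) * b x)]
  refine Finset.sum_congr rfl fun x _ => ?_
  rw [hc, hc]

theorem Qform_right_of_invariant (t : Equiv.Perm X) (a c : X → k) (hc : ∀ x, c (t x) = c x) :
    Qform t a c = 0 := by
  rw [Qform_skew, Qform_left_of_invariant t c a hc, neg_zero]

/-- A function orthogonal to all `s`-invariant functions is anti-invariant under `s`. -/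
theorem anti_of_orthogonal_invariants [DecidableEq X] (s : Equiv.Perm X) (hs : ∀ x, s (s x) = x)
    (g : X → k) (hg : ∀ e : X → k, (∀ x, e (s x) = e x) → ∑ x, g x * e x = 0) (x : X) :
    g (s x) = - g x := by
  have h := hg (fun y => (if y = x then 1 else 0) + (if y = s x then 1 else 0)) (by
    intro y
    have h1 : (s y = x) ↔ (y = s x) := by
      constructor
      · intro h; rw [← h, hs]
      · intro h; rw [h, hs]
    have h2 : (s y = s x) ↔ (y = x) := s.injective.eq_iff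
    simp only [h1, h2]
    ring)
  simp only [mul_add, Finset.sum_add_distrib, mul_ite, mul_one, mul_zero, Finset.sum_ite_eq',
    Finset.mem_univ, if_true] at h
  linear_combination h

/-- **Key duality step.**  If `Q(a, b) = 0` for every Manin function `a`, then
`b ∘ t - b ∘ t⁻¹ = e ∘ t⁻¹ - e` for some `s`-invariant `e`. -/
theorem exists_invariant_of_radical [DecidableEq X] (s t : Equiv.Perm X) (hs : ∀ x, s (s x) = x)
    (h2 : (2 : k) ≠ 0) (b : X → k)
    (hrad : ∀ a : X → k, IsManin s t a → Qform t a b = 0) :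
    ∃ e : X → k, (∀ x, e (s x) = e x) ∧ ∀ x, b (t x) - b (t.symm x) = e (t.symm x) - e x := by
  classical
  -- the subspace `M = L (A^s)`, `L e = e ∘ t⁻¹ - e`
  let L : (X → k) →ₗ[k] (X → k) :=
    { toFun := fun e x => e (t.symm x) - e x
      map_add' := fun e e' => by ext x; simp only [Pi.add_apply]; ring
      map_smul' := fun r e => by ext x; simp only [Pi.smul_apply, smul_eq_mul, RingHom.id_apply]; ring }
  let As : Submodule k (X → k) :=
    { carrier := {e | ∀ x, e (s x) = e x}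
      add_mem' := fun {e e'} he he' x => by simp only [Pi.add_apply, he x, he' x]
      zero_mem' := fun x => rfl
      smul_mem' := fun r e he x => by simp only [Pi.smul_apply, he x] }
  let M : Submodule k (X → k) := As.map L
  let f₀ : X → k := fun x => b (t x) - b (t.symm x)
  suffices hf : f₀ ∈ M by
    obtain ⟨e, he, hLe⟩ := hf
    refine ⟨e, he, fun x => ?_⟩
    have := congrFun hLe x
    exact this.symm
  -- `M = (M^⊥)^⊥`
  rw [← Subspace.dualAnnihilator_dualCoannihilator_eq (W := M)]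
  rw [Submodule.mem_dualCoannihilator]
  intro φ hφ
  -- `φ = ⟨a, ·⟩`
  set a : X → k := fun x => φ (Pi.single x 1) with ha
  have hφa : ∀ f : X → k, φ f = ∑ x, a x * f x := by
    intro f
    rw [LinearMap.pi_apply_eq_sum_univ φ f]
    refine Finset.sum_congr rfl fun x _ => ?_
    simp only [ha, smul_eq_mul]
    rw [mul_comm]
    congr 2
    ext j
    simp [Pi.single_apply, eq_comm]
  -- `a` is Manin
  have hMan : IsManin s t a := by
    have hanti : ∀ x, (fun y => a (t y) - a y) (s x) = - (fun y => a (t y) - a y) x := by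
      refine anti_of_orthogonal_invariants s hs (fun y => a (t y) - a y) ?_
      intro e he
      have h1 : φ (L e) = 0 := by
        rw [Submodule.mem_dualAnnihilator] at hφ
        exact hφ (L e) ⟨e, he, rfl⟩
      rw [hφa] at h1
      have h3 : ∑ x, a x * (L e) x = ∑ x, (a (t x) - a x) * e x := by
        show ∑ x, a x * (e (t.symm x) - e x) = _
        simp only [mul_sub, sub_mul, Finset.sum_sub_distrib]
        congr 1
        rw [← Equiv.sum_comp t (fun x => a x * e (t.symm x))]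
        simp
      rw [← h3]; exact h1
    refine ⟨fun x => -(a (t x) - a x) / 2, fun x => ?_⟩
    have := hanti x
    simp only at this
    field_simp
    linear_combination this
  have := hrad a hMan
  rw [Qform_eq_sum] at this
  rw [hφa]
  exact this

/-- **Nondegeneracy of the ribbon-graph pairing** (radical = boundaries). -/
theorem Qform_radical [DecidableEq X] (s t : Equiv.Perm X) (hs : ∀ x, s (s x) = x)
    (ht : ∀ x, t (t (t x)) = x) (h2 : (2 : k) ≠ 0) (b : X → k) (hb : IsManin s t b)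
    (hrad : ∀ a : X → k, IsManin s t a → Qform t a b = 0) :
    ∃ c : X → k, (∀ x, c (t (s x)) = c x) ∧ ∀ x, b (t x) - b x = c (s x) - c x := by
  obtain ⟨e, hes, he⟩ := exists_invariant_of_radical s t hs h2 b hrad
  obtain ⟨u, hu⟩ := hb
  have htsymm : ∀ x, t.symm x = t (t x) := by
    intro x
    rw [Equiv.symm_apply_eq, ht]
  -- `w x = b (t x) - b x`
  set w : X → k := fun x => b (t x) - b x with hw
  have hws : ∀ x, w (s x) = - w x := by
    intro x
    simp only [hw, hu, hs]; ring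
  have hwe : ∀ y, w y = e (t (t y)) - e (t y) := by
    intro y
    have h1 := he (t (t y))
    simp only [htsymm, ht] at h1
    simp only [hw]
    linear_combination -h1
  refine ⟨fun x => -(e x + w x) / 2, fun x => ?_, fun x => ?_⟩
  · -- invariance under `t ∘ s`
    have h1 : w (t (s x)) = e (s x) - e (t (t (s x))) := by
      rw [hwe (t (s x)), ht]
    have h3 : w x = e (t (s x)) - e (t (t (s x))) := by
      have := hws x
      rw [hwe (s x)] at this
      linear_combination this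
    simp only
    rw [h1, h3, hes x]
    ring
  · simp only
    rw [hws x, hes x]
    field_simp
    ring

end Ribbon

end Fermat.Agent.S41.H94

end
-- ==== END Fermat.Agent.S41.H94_Ribbon

-- ==== BEGIN Fermat.Agent.S43.Old.H35_OldRed
section

/-!
# S43, leaf OLD-RED (helper35): the final statement

* `stmt_HeckeRed : Stmt_HeckeRed` : the Hecke compatibility of the two reductions, with
  `T~_ℓ = Divisor.correspondence (betaT A M ℓ) (alphaT A M ℓ)`: level `M` by `hr_div`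
  (`r_* T_ℓ = T~_ℓ r_*` on all divisors), level `N = M q` by `levelN_eigen_T` (NORM-RED);
* `stmt_OldRed : Stmt_OldRed` : by helper75's assembly `stmt_OldRed_of_heckeRed`.
-/

set_option autoImplicit false
set_option linter.style.haveILetI false
set_option linter.unusedSectionVars false
set_option synthInstance.maxHeartbeats 400000
set_option maxHeartbeats 1000000

noncomputable section

open AlgebraicCurve ModularCurve Fermat.Agent.S28.H73 Fermat.Agent.RED.H73 Fermat.Agent.RED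
open Fermat.Agent.BAD

namespace Fermat.Agent.S43.Old.H35

/-- **HECKE-RED.** -/
theorem stmt_HeckeRed : Fermat.Agent.S43.Old.Stmt_HeckeRed := by
  intro p hp M q ℓ _ _ _ hq hqM hℓ hℓN A hA
  have hℓq : ℓ ≠ q := fun h => hℓN (h ▸ dvd_mul_left ℓ M)
  have hqMℓ : ¬ q ∣ M * ℓ := by
    intro h
    rcases (Nat.Prime.dvd_mul hq).1 h with h1 | h1
    · exact hqM h1
    · exact hℓq ((Nat.prime_dvd_prime_iff_eq hq hℓ).1 h1).symm
  have TI := towerInputs (A := A) (M := M) (ℓ := ℓ) hq hA hqMℓ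
  haveI := TI.hP
  refine ⟨Divisor.correspondence (betaT A M ℓ) (alphaT A M ℓ) TI.hβ TI.hα, ?_, ?_⟩
  · intro hα hβ _ r hr hm Dz
    rw [hr_div A q M ℓ hq hℓ hℓq hqM hA hα hβ TI.hα TI.hβ r hr hm Dz, sub_self]
    exact ⟨1, one_ne_zero, fun v => by simp⟩
  · intro hα hβ _ D f hf hD g hg D' hD' t heig
    exact levelN_eigen_T A p hp.ne_zero q M ℓ hq hqM hℓ hℓN hA hα hβ TI.hα TI.hβ D f hf hD
      g hg D' hD' t heig

/-- **OLD-RED.** -/
theorem stmt_OldRed : Fermat.Agent.S43.Old.Stmt_OldRed :=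
  Fermat.Agent.S43.Old.stmt_OldRed_of_heckeRed stmt_HeckeRed

end Fermat.Agent.S43.Old.H35

end
end
-- ==== END Fermat.Agent.S43.Old.H35_OldRed

-- ==== BEGIN Fermat.Agent.S43.Old.LiftEig
section

/-!
# LIFT-EIG, generic form (helper75)

`liftEig_of` : let `q ∤ M`, `A` over `q`, `redM : J₀(M)(ℚ̄) → Pic (F~_M)` the reduction map.  If
`z ∈ J₀(M)` has a non-zero reduction `y = redM z` killed by the prime `p` (`p = q` allowed) and
`redM (T_ℓ z) = t_ℓ y` for all primes `ℓ ∉ S`, `ℓ ∤ M`, then there is a normalised eigenform `g` of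
level `M` and a maximal ideal `𝔪 ∋ p` with `a_ℓ(g) ≡ t_ℓ mod 𝔪` for all these `ℓ`.

The only hypothesis is `RED.H51.Stmt_HRcore` (stability of `ker redM` under the Hecke operators);
STAR, TORS-REL and CHAR-M are proved.  This is the form to use at other levels (three-component
fibres, `q² ∥ N`, ...): produce `z` and apply `liftEig_of`.
-/

set_option autoImplicit false
set_option linter.style.haveILetI false
set_option linter.unusedSectionVars false
set_option synthInstance.maxHeartbeats 400000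
set_option maxHeartbeats 1600000

noncomputable section

open AlgebraicCurve ModularCurve Fermat.Agent.S28.H73 Fermat.Agent.RED.H73
open Fermat.Agent.RED Fermat.Agent.L.LiftEig

namespace Fermat.Agent.S43.Old

/-- **LIFT-EIG**, generic form. -/
theorem liftEig_of (hcore : H51.Stmt_HRcore) (p : ℕ) (hp : p.Prime) (M q : ℕ) [NeZero M]
    (hq : q.Prime) (hqM : ¬ q ∣ M) (A : ValuationSubring (AlgebraicClosure ℚ))
    (hA : A.LiesOverPrime q)
    (r : Place (AlgebraicClosure ℚ) ↥(modularFunctionFieldBar M) →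
        Place (kV A) ↥(redField A (modularFunctionFieldBar M) (hasScale_laurentBaseChange A M)))
    (hr : IsRed A (hasScale_laurentBaseChange A M) r)
    (hmove : HasMove A (hasScale_laurentBaseChange A M) r)
    (S : Finset ℕ) (t : ℕ → ℤ) (z : JZero M)
    (hz0 : H36.redPic A (hasScale_laurentBaseChange A M) hr z ≠ 0)
    (hzp : (p : ℤ) • H36.redPic A (hasScale_laurentBaseChange A M) hr z = 0)
    (hzT : ∀ ℓ : Nat.Primes, (ℓ : ℕ) ∉ S → ¬ (ℓ : ℕ) ∣ M →
      H36.redPic A (hasScale_laurentBaseChange A M) hr (heckeOperatorBar M ℓ z)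
        = t ℓ • H36.redPic A (hasScale_laurentBaseChange A M) hr z) :
    ∃ (g : CuspForm (CongruenceSubgroup.Gamma0 M) 2) (𝔪 : Ideal (integralClosure ℤ ℂ)),
      g.IsNormalizedEigenform ∧ 𝔪.IsMaximal ∧ (p : integralClosure ℤ ℂ) ∈ 𝔪 ∧
      ∀ ℓ : ℕ, ℓ.Prime → ℓ ∉ S → ¬ ℓ ∣ M →
        ∃ a : integralClosure ℤ ℂ, (a : ℂ) = ModularFormClass.qCoeff g ℓ ∧
          a - ((t ℓ : ℤ) : integralClosure ℤ ℂ) ∈ 𝔪 := by
  refine H46.stmt_CharM p hp M S t fun P hP => ?_
  -- `P(T)` kills the reduction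
  have h1 : H36.redPic A (hasScale_laurentBaseChange A M) hr (evalJ M ↑S P z) = 0 := by
    refine H75.stmt_Star M q hq hqM A hA r hr (evalJ M ↑S P).toAddMonoidHom ?_ ?_ z
    · intro σ y
      exact H75.lift_smul_comm
        (fun ℓ : GoodPrime M (↑S : Set ℕ) => heckeOperatorBar M ⟨ℓ.1, ℓ.2.1⟩)
        (fun ℓ σ y => (Fermat.Agent.GTor.H2.stmt_GalHecke M ⟨ℓ.1, ℓ.2.1⟩ σ y).symm)
        P σ y
    · intro h hh y hy
      exact H37.stmt_TorsRel M ↑S P hP h hh y hy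
  -- `redM (P(T) z) = P(t) redM z`
  have h2 := H75.red_lift_eq (H36.redPic A (hasScale_laurentBaseChange A M) hr)
    (fun ℓ : GoodPrime M (↑S : Set ℕ) => heckeOperatorBar M ⟨ℓ.1, ℓ.2.1⟩)
    (fun ℓ : GoodPrime M (↑S : Set ℕ) => t ℓ.1)
    (fun ℓ u hu => H75.redPic_heckeOperatorBar_eq_zero hcore M q hq hqM A hA r hr hmove
      ⟨ℓ.1, ℓ.2.1⟩ u hu)
    z
    (fun ℓ => hzT ⟨ℓ.1, ℓ.2.1⟩ (fun h => ℓ.2.2.2 (Finset.mem_coe.mpr h)) ℓ.2.2.1)
    P z 1 (one_smul ℤ _).symm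
  have h3 : evalt M ↑S t P • H36.redPic A (hasScale_laurentBaseChange A M) hr z = 0 := by
    have h4 : H36.redPic A (hasScale_laurentBaseChange A M) hr (evalJ M ↑S P z)
        = (evalt M ↑S t P * 1) • H36.redPic A (hasScale_laurentBaseChange A M) hr z := h2
    rw [h1, mul_one] at h4
    exact h4.symm
  exact H75.dvd_of_smul_eq_zero hp hz0 hzp h3

end Fermat.Agent.S43.Old

end
end
-- ==== END Fermat.Agent.S43.Old.LiftEig

-- ==== BEGIN Fermat.Agent.S44.Done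
section

set_option autoImplicit false
set_option synthInstance.maxHeartbeats 400000
set_option maxHeartbeats 1000000

noncomputable section

open AlgebraicCurve ModularCurve

namespace Fermat.Agent.S44

open Fermat.Agent.BADP

/-- (d) SLOPE, unconditional (`p ≥ 5`). -/
theorem stmt_SlopeP_done : Stmt_SlopeP :=
  stmt_SlopeP_of_eisMod Fermat.Agent.BADP.H18E.stmt_EisMod

/-- **BAD_p for `p ≥ 5`**, unconditional. -/
theorem stmt_BadP2_done : Stmt_BadP2 :=
  stmt_BadP2_of_leaves Fermat.Agent.S43.Old.stmt_OldP_done stmt_SlopeP_done stmt_RayP_done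

/-- **Mazur's principle at `p ≥ 5`**, module form, unconditional. -/
theorem removesP_ge5 (p : ℕ) (hp : p.Prime) (hp5 : 5 ≤ p) (N : ℕ) [NeZero N] (hpN : p ∣ N)
    (hp2N : ¬ p ^ 2 ∣ N) (A : ValuationSubring (AlgebraicClosure ℚ)) (hA : A.LiesOverPrime p) :
    (jzModule N p).RemovesP N A :=
  removesP_of_badStructure (jzModule N p) N A (stmt_BadP2_done p hp hp5 N hpN hp2N A hA)

end Fermat.Agent.S44

end
end
-- ==== END Fermat.Agent.S44.Done

-- ==== BEGIN Fermat.Agent.S59.Asm.H49_CardKer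
section

/-!
# S59 (helper49): `Stmt_CARDKER`

The two standing hypotheses of `residualGaloisRepOf` for an integral Weierstrass curve with
`Δ ≠ 0`: `#E[p](Q̄) = p²` (item 62, `Lib/EllFinite`) and the mod `p` representation factors
through a finite level (`S58.H99.torsW_finiteLevel`).
-/

set_option autoImplicit false

open WeierstrassCurve WeierstrassCurve.Affine

namespace Fermat.Agent.S59.Asm.H49

/-- **CARD-KER**. -/
theorem stmt_CARDKER : Fermat.Agent.S59.Asm.Stmt_CARDKER := by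
  intro p _ W hΔ
  have hp : p.Prime := Fact.out
  have hΔ' : ((W.map (Int.castRingHom ℚ)).map
      (algebraMap ℚ (AlgebraicClosure ℚ))).Δ ≠ 0 := by
    rw [WeierstrassCurve.map_Δ, WeierstrassCurve.map_Δ]
    simpa using hΔ
  have hpK : ((p : ℕ) : AlgebraicClosure ℚ) ≠ 0 := by exact_mod_cast hp.ne_zero
  refine ⟨?_, Fermat.Agent.S58.H99.torsW_finiteLevel W hΔ p⟩
  exact Fermat.Agent.Lib.EllFinite.H46.natCard_torsionBy (K := AlgebraicClosure ℚ)
    (W.map (Int.castRingHom ℚ)).toAffine hΔ' hpK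

end Fermat.Agent.S59.Asm.H49

end
-- ==== END Fermat.Agent.S59.Asm.H49_CardKer

-- ==== BEGIN Fermat.Agent.S59.Asm.H71_CardKer
section

/-!
# S59: the leaf `Stmt_CARDKER` (helper71)

`#E[p] = p²` and the Galois action on `E[p]` factors through a finite level: both are in
`S58/H99_Tors.lean` (helper99, from item 62).
-/

set_option autoImplicit false

namespace Fermat.Agent.S59.Asm.H71

open Fermat.Agent.S59.Asm

/-- **CARD-KER.** -/
theorem stmt_CARDKER : Stmt_CARDKER := by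
  intro p _ W hΔ
  refine ⟨?_, Fermat.Agent.S58.H99.torsW_finiteLevel W hΔ p⟩
  have hfr := Fermat.Agent.S58.H99.finrank_torsW W hΔ p
  have : Module.Finite (ZMod p) (Fermat.Agent.S58.H99.TorsW W p) :=
    Module.finite_of_finrank_eq_succ hfr
  have h := Module.natCard_eq_pow_finrank (K := ZMod p) (V := Fermat.Agent.S58.H99.TorsW W p)
  rw [hfr, Nat.card_zmod] at h
  exact h

end Fermat.Agent.S59.Asm.H71

end
-- ==== END Fermat.Agent.S59.Asm.H71_CardKer

-- ==== BEGIN Fermat.Agent.S59.Asm.H71_LiftWire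
section

/-!
# S59: the wiring `Stmt_LIFTWIRE` (helper71)

`stmt_LIFTWIRE : Asm.Stmt_LIFTWIRE`, i.e.

`Stmt_Tate → LL.Stmt_LLec → Stmt_CARDKER → Stmt_BRIDGERES → Stmt_TRES → Stmt_MLTred → Stmt_Stab →
   Stmt_Lift`.

As `S59.lift_of`, with the level optimisation `LL.Stmt_LLec` in front of modularity lifting.
`lift_of_eigenform` is the second half of `S59.lift_of` (stabilisation at the missing primes).
-/

set_option autoImplicit false

open WeierstrassCurve Polynomial IsLocalRing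

namespace Fermat.Agent.S59.Asm.H71

open Fermat.Agent.S59 Fermat.Agent.S59.Asm

/-- The second half of `S59.lift_of`: an eigenform with the eigenvalues of `W` at the good
primes `ℓ ≠ p` not dividing its level `N₁` (cube-free, `p² ∤ N₁`) makes `W` modular of a
cube-free level divisible by `p` and by all bad primes, with `p²` not dividing it. -/
theorem lift_of_eigenform (hS : Stmt_Stab) (p : ℕ) (hpp : p.Prime) (W : WeierstrassCurve ℤ)
    (hΔ : W.Δ ≠ 0) (N₁ : ℕ) (hN₁p : ¬ p ^ 2 ∣ N₁) (hN₁3 : ∀ q : ℕ, q.Prime → ¬ q ^ 3 ∣ N₁)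
    (f₁ : CuspForm (CongruenceSubgroup.Gamma0 N₁) 2) (hf₁ : f₁.IsNormalizedEigenform)
    (hf₁a : ∀ ℓ : ℕ, ℓ.Prime → ℓ ≠ p → W.IsGoodPrimeFor ℓ → ¬ ℓ ∣ N₁ →
      ModularFormClass.qCoeff f₁ ℓ = (W.apOfModel ℓ : ℂ)) :
    ∃ N : ℕ, W.IsModularModelOfLevel N ∧ (∀ ℓ : ℕ, ℓ.Prime → (ℓ : ℤ) ∣ W.Δ → ℓ ∣ N) ∧
      ¬ p ^ 2 ∣ N ∧ ∀ q : ℕ, q.Prime → ¬ q ^ 3 ∣ N := by
  classical
  set Sig : Finset ℕ := (W.Δ.natAbs.primeFactors).erase p with hSig
  have hnat : W.Δ.natAbs ≠ 0 := Int.natAbs_ne_zero.mpr hΔ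
  have hmemSig : ∀ q : ℕ, q ∈ Sig ↔ q.Prime ∧ q ≠ p ∧ (q : ℤ) ∣ W.Δ := by
    intro q
    rw [hSig, Finset.mem_erase, Nat.mem_primeFactors]
    constructor
    · rintro ⟨h1, h2, h3, -⟩
      exact ⟨h2, h1, Int.natCast_dvd.mpr h3⟩
    · rintro ⟨h1, h2, h3⟩
      exact ⟨h2, h1, Int.natCast_dvd.mp h3, hnat⟩
  -- add the missing primes of `Sig ∪ {p}` to the level
  set s : Finset ℕ := (insert p Sig).filter (fun q => ¬ q ∣ N₁) with hs
  have hsprime : ∀ q ∈ s, q.Prime ∧ ¬ q ∣ N₁ := by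
    intro q hq
    rw [hs, Finset.mem_filter, Finset.mem_insert] at hq
    refine ⟨?_, hq.2⟩
    rcases hq.1 with rfl | h
    · exact hpp
    · exact ((hmemSig q).1 h).1
  obtain ⟨P, hP⟩ : ∃ P : ℕ, P = ∏ q ∈ s, q := ⟨_, rfl⟩
  obtain ⟨g, hg, hgf⟩ : ∃ g : CuspForm (CongruenceSubgroup.Gamma0 (N₁ * P)) 2,
      g.IsNormalizedEigenform ∧ ∀ ℓ : ℕ, ℓ.Prime → ℓ ∉ s →
        ModularFormClass.qCoeff g ℓ = ModularFormClass.qCoeff f₁ ℓ := by
    rw [hP]
    exact stab_finset hS s N₁ f₁ hf₁ hsprime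
  have hPsq : Squarefree P := by
    rw [hP]
    refine Finset.squarefree_prod_of_pairwise_isCoprime ?_ ?_
    · intro a ha b hb hab
      exact Nat.coprime_iff_isRelPrime.mp
        ((Nat.coprime_primes (hsprime a ha).1 (hsprime b hb).1).2 hab)
    · intro a ha
      exact (hsprime a ha).1.squarefree
  have hPcop : Nat.Coprime N₁ P := by
    rw [hP]
    refine Nat.Coprime.prod_right fun q hq => ?_
    exact (Nat.Coprime.symm ((Nat.Prime.coprime_iff_not_dvd (hsprime q hq).1).2 (hsprime q hq).2))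
  have hdvdN : ∀ q ∈ insert p Sig, q ∣ N₁ * P := by
    intro q hq
    by_cases hqN : q ∣ N₁
    · exact Dvd.dvd.mul_right hqN _
    · refine Dvd.dvd.mul_left ?_ _
      rw [hP]
      exact Finset.dvd_prod_of_mem _ (Finset.mem_filter.2 ⟨hq, hqN⟩)
  have hpow : ∀ (q : ℕ) (k : ℕ), q.Prime → 2 ≤ k → q ^ k ∣ N₁ * P → q ^ k ∣ N₁ := by
    intro q k hq hk hdvd
    by_cases hqP : q ∣ P
    · exfalso
      have hqN : ¬ q ∣ N₁ := fun h =>
        (Nat.Prime.one_lt hq).ne' (Nat.eq_one_of_dvd_coprimes hPcop h hqP)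
      have hcop : Nat.Coprime (q ^ k) N₁ :=
        Nat.Coprime.pow_left k ((Nat.Prime.coprime_iff_not_dvd hq).2 hqN)
      have h1 : q ^ k ∣ P := hcop.dvd_of_dvd_mul_left hdvd
      have h2 : q * q ∣ P := Dvd.dvd.trans ⟨q ^ (k - 2), by
        rw [← pow_two, ← pow_add]; congr 1; omega⟩ h1
      exact hq.one_lt.ne' (Nat.isUnit_iff.mp (hPsq q h2))
    · have hcop : Nat.Coprime (q ^ k) P :=
        Nat.Coprime.pow_left k ((Nat.Prime.coprime_iff_not_dvd hq).2 hqP)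
      exact hcop.dvd_of_dvd_mul_right hdvd
  refine ⟨N₁ * P, ⟨g, hg, ?_⟩, ?_, ?_, ?_⟩
  · intro ℓ hℓ hℓgood hℓN
    have hℓp : ℓ ≠ p := by
      rintro rfl
      exact hℓN (hdvdN _ (Finset.mem_insert_self _ _))
    have hℓS : ℓ ∉ Sig := fun h => hℓgood ((hmemSig ℓ).1 h).2.2
    have hℓs : ℓ ∉ s := fun h => by
      rw [hs, Finset.mem_filter, Finset.mem_insert] at h
      rcases h.1 with h' | h'
      · exact hℓp h'
      · exact hℓS h'
    rw [hgf ℓ hℓ hℓs, hf₁a ℓ hℓ hℓp hℓgood (fun h => hℓN (Dvd.dvd.mul_right h _))]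
  · intro ℓ hℓ hdvd
    by_cases hℓp : ℓ = p
    · subst hℓp
      exact hdvdN _ (Finset.mem_insert_self _ _)
    · exact hdvdN _ (Finset.mem_insert_of_mem ((hmemSig ℓ).2 ⟨hℓ, hℓp, hdvd⟩))
  · intro h
    exact hN₁p (hpow p 2 hpp le_rfl h)
  · intro q hq h
    exact hN₁3 q hq (hpow q 3 hq (by norm_num) h)

/-- **LIFT-WIRE.** -/
theorem stmt_LIFTWIRE : Stmt_LIFTWIRE := by
  classical
  intro hT hLL hCK hB hTR hM hS p hp W hΔ hW hirr M₀ hM₀ne hres hM₀ hM₀3
  have hpp : p.Prime := by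
    rcases hp with rfl | rfl
    · exact Nat.prime_three
    · exact Nat.prime_five
  have : Fact p.Prime := ⟨hpp⟩
  have hp2 : p ≠ 2 := by
    rcases hp with rfl | rfl <;> norm_num
  -- level optimisation
  obtain ⟨hcard₁, hker⟩ := hCK p W hΔ
  obtain ⟨N, -, hNsq, hresN, hram, hpN⟩ :=
    hLL p hp2 W hΔ hW hcard₁ hker hirr M₀ hM₀ne hM₀ hM₀3 hres
  have hNne : N ≠ 0 := fun h => by
    rw [h] at hNsq
    exact not_squarefree_zero hNsq
  -- the Tate module
  obtain ⟨𝒪, i1, i2, i3, i4, i5, i6, ρ, hdet, hunr, hunip, hflat, hord, hfrob, hres'⟩ :=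
    hT p hp2 W hΔ hW
  obtain ⟨habs, hTW⟩ := hres' hirr
  -- the set of bad primes different from `p`
  set Sig : Finset ℕ := (W.Δ.natAbs.primeFactors).erase p with hSig
  have hnat : W.Δ.natAbs ≠ 0 := Int.natAbs_ne_zero.mpr hΔ
  have hmemSig : ∀ q : ℕ, q ∈ Sig ↔ q.Prime ∧ q ≠ p ∧ (q : ℤ) ∣ W.Δ := by
    intro q
    rw [hSig, Finset.mem_erase, Nat.mem_primeFactors]
    constructor
    · rintro ⟨h1, h2, h3, -⟩
      exact ⟨h2, h1, Int.natCast_dvd.mpr h3⟩
    · rintro ⟨h1, h2, h3⟩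
      exact ⟨h2, h1, Int.natCast_dvd.mp h3, hnat⟩
  have hgood : ∀ q : ℕ, q.Prime → q ≠ p → q ∉ Sig → W.IsGoodPrimeFor q := by
    intro q hq hqp hqS hdvd
    exact hqS ((hmemSig q).2 ⟨hq, hqp, hdvd⟩)
  have hloc : ρ.IsFlatAt p ∨ ρ.IsStrictOrdinaryAt p := by
    by_cases hg : W.IsGoodPrimeFor p
    · exact Or.inl (hflat hg)
    · exact Or.inr (hord hg)
  obtain ⟨f₀, 𝔪, hf₀, h𝔪, hp𝔪, hcong⟩ := hresN
  obtain ⟨N₁, hN₁p, hN₁3, f₁, hf₁, hf₁a⟩ :=
    hM p hp2 𝒪 ρ (fun ℓ => W.apOfModel ℓ) Sig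
      (fun q hq => ⟨((hmemSig q).1 hq).1, ((hmemSig q).1 hq).2.1⟩)
      hdet
      (fun q hq hqp hqS => hunr q hq hqp (hgood q hq hqp hqS))
      (fun q hq => hunip q ((hmemSig q).1 hq).1 ((hmemSig q).1 hq).2.1)
      hloc
      (fun ℓ hℓ hℓp hℓS A hA σ hσ => hfrob ℓ hℓ hℓp (hgood ℓ hℓ hℓp hℓS) A hA σ hσ)
      habs hTW (fun h => h.elim) N hNne hNsq
      (fun q hq hqp hqN =>
        hB p hp2 W hΔ hcard₁ hker 𝒪 ρ hdet habs hfrob q hq (hram q hq hqp hqN))
      (fun hpdvd => hTR p hp2 W hΔ hW hirr (hpN hpdvd) 𝒪 ρ hdet habs hfrob)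
      f₀ 𝔪 hf₀ h𝔪 hp𝔪
      (fun ℓ hℓ hℓS hℓM hℓp => hcong ℓ hℓ (hgood ℓ hℓ hℓp hℓS) hℓM hℓp)
  refine lift_of_eigenform hS p hpp W hΔ N₁ hN₁p hN₁3 f₁ hf₁ ?_
  intro ℓ hℓ hℓp hℓg hℓN
  exact hf₁a ℓ hℓ hℓp (fun h => hℓg ((hmemSig ℓ).1 h).2.2) hℓN

end Fermat.Agent.S59.Asm.H71

end
-- ==== END Fermat.Agent.S59.Asm.H71_LiftWire

-- ==== BEGIN Fermat.Agent.S59.Asm.H77_BridgeRes
section

/-!
# S59, leaf BRIDGERES (helper77)

`stmt_BRIDGERES : Stmt_BRIDGERES`, from `LL.H77.bridgeRes` (item 62 + Frobenius density + Carayol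
over a field) and `LL.H77.unramified_iff_of_isEquiv`.
-/

set_option autoImplicit false

open Polynomial IsLocalRing WeierstrassCurve WeierstrassCurve.Affine

namespace Fermat.Agent.S59.Asm.H77

open Fermat.Agent.S59 Fermat.Agent.S59.Asm

/-- the residue field of a local ring with `p` in the maximal ideal has characteristic `p` -/
theorem charP_residueField {A : Type} [CommRing A] [IsLocalRing A] {p : ℕ} (hp : p.Prime)
    (hpA : (p : A) ∈ maximalIdeal A) : CharP (ResidueField A) p := by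
  refine (CharP.charP_iff_prime_eq_zero hp).2 ?_
  have h := (residue_eq_zero_iff (p : A)).2 hpA
  rwa [map_natCast] at h

/-- **BRIDGERES.** -/
theorem stmt_BRIDGERES : Stmt_BRIDGERES := by
  intro p _ hp2 W hΔ hcard₁ hker 𝒪 _ _ _ _ _ _ ρ hdet hirr hfrob q hq hram hunr
  have hp : p.Prime := Fact.out
  have hchar : CharP (ResidueField 𝒪) p := charP_residueField hp hdet.1
  let j : ZMod p →+* ResidueField 𝒪 := ZMod.castHom (dvd_refl p) (ResidueField 𝒪)
  have he := Fermat.Agent.S59.LL.H77.bridgeRes W hΔ p hcard₁ hker j ρ ∅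
    (fun ℓ hℓ hℓp _ hgood A hA σ hσ => hfrob ℓ hℓ hℓp hgood A hA σ hσ) hirr
  exact hram ((Fermat.Agent.S59.LL.H77.unramified_iff_of_isEquiv j _ _ he q).1 hunr)

end Fermat.Agent.S59.Asm.H77

end
-- ==== END Fermat.Agent.S59.Asm.H77_BridgeRes

-- ==== BEGIN Fermat.Agent.S59.Asm.H77_RedWire
section

/-!
# S59 (helper77): the wiring `Stmt_REDWIRE`

`stmt_REDWIRE : Stmt_THETAMIN → Stmt_EXACTb → Stmt_MLTgen → Stmt_MLTredS`.

`ρbar := ρ.residual`, `Smin := insert p (primes of M₀)`, `fl := (p ∤ M₀)`; by `Stmt_THETAMIN`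
`ρbar` is unramified outside `M₀ p` and `θ` exists at level `M₀` away from `Smin`; by the
hypothesis of ramification at the primes of `M₀` the set `Smin ∖ {p}` is exactly the set of the
primes `≠ p` where `ρbar` ramifies, and it is contained in `Sig`; `minLevel p fl Smin = M₀`
because `M₀` is squarefree; if `p ∤ M₀` then `ρbar` is flat by `Stmt_EXACTb`; if `p ∣ M₀` then
`ρbar` is not flat, hence `ρ` is not flat, so `ρ` and `ρbar` are strictly ordinary.
-/

set_option autoImplicit false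
set_option linter.unusedSectionVars false
set_option linter.unusedVariables false

open Polynomial CuspForm CongruenceSubgroup ModularFormClass IsLocalRing

namespace Fermat.Agent.S59.Asm.H77

open Fermat.Agent.S59 Fermat.Agent.S59.Asm Fermat.Agent.S59.H99 Fermat.Agent.S56.H92

/-- the reduction of `ρ`, as an adic representation over the residue field, is the base change
along the residue map -/
theorem isEquiv_bc_residue {A : Type} [CommRing A] [IsLocalRing A] (ρ : GaloisRepAdic A)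
    (h : IsLocalHom (residue A)) :
    (ρ.baseChangeAlong (residue A) h).IsEquiv (GaloisRepAdic.ofResidualGaloisRep ρ.residual) :=
  ⟨{ toLinearEquiv := LinearEquiv.refl _ _, map_apply := fun _ _ => rfl }⟩

theorem residueField_map_self (𝒪 : Type) [CommRing 𝒪] [IsLocalRing 𝒪] :
    ResidueField.map (algebraMap 𝒪 𝒪) = RingHom.id (ResidueField 𝒪) := by
  refine RingHom.ext fun x => ?_
  obtain ⟨a, rfl⟩ := residue_surjective x
  rw [ResidueField.map_residue]
  rfl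

/-- `ρbar` is its own base change along the identity -/
theorem isEquiv_bcAlong_self {𝒪 : Type} [CommRing 𝒪] [IsLocalRing 𝒪]
    (ρbar : ResidualGaloisRep (ResidueField 𝒪)) (habs : ρbar.IsAbsolutelyIrreducible) :
    ρbar.IsEquiv (ρbar.baseChangeAlong (ResidueField.map (algebraMap 𝒪 𝒪))) := by
  refine Fermat.Agent.S59.Datum.H57.isEquiv_of_charpoly_eq _ _
    (Fermat.Agent.S59.Datum.H57.absIrr_baseChangeAlong _ ρbar habs) fun σ => ?_
  rw [charpoly_bcAlong_resid, residueField_map_self, Polynomial.map_id]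

/-- `cond` from its parts -/
theorem cond_of_parts {𝒪 : Type} [CommRing 𝒪] {p : ℕ} {fl : Bool} {Smin T : Finset ℕ}
    {A : Type} [CommRing A] [IsLocalRing A] [Algebra 𝒪 A] {ρ : GaloisRepAdic A}
    (hdet : ρ.DetIsCyclotomic p) (hfl : fl = true → ρ.IsFlatAt p)
    (hso : fl = false → ρ.IsStrictOrdinaryAt p)
    (hunr : ∀ q : ℕ, q.Prime → q ∉ Smin ∪ T → ρ.IsUnramifiedAt q)
    (hunip : ∀ q ∈ Smin, q.Prime → q ≠ p → ρ.IsUnipotentOnInertiaAt q) :
    cond 𝒪 p fl Smin T ρ := by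
  cases fl
  · exact ⟨⟨hdet, hso rfl, hunr⟩, hunip⟩
  · exact ⟨⟨hdet, hfl rfl, hunr⟩, hunip⟩

/-- the reduction of an unramified representation is unramified -/
theorem residual_isUnramifiedAt {A : Type} [CommRing A] [IsLocalRing A] (ρ : GaloisRepAdic A)
    (q : ℕ) (h : ρ.IsUnramifiedAt q) : ρ.residual.IsUnramifiedAt q := by
  intro P hP σ hσ
  have h1 : ρ.residual.ρ σ = (ρ.ρ σ).baseChange (ResidueField A) := rfl
  rw [h1, h P hP σ hσ]
  exact LinearMap.baseChange_one (R := A) (A := ResidueField A) (M := ρ.V)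

/-- the residual Frobenius characteristic polynomials -/
theorem residual_charpoly_frob {A : Type} [CommRing A] [IsLocalRing A] (ρ : GaloisRepAdic A)
    (σ : GalQ) (t : ℤ) (ℓ : ℕ)
    (h : LinearMap.charpoly (ρ.ρ σ) = X ^ 2 - C ((t : ℤ) : A) * X + C ((ℓ : A))) :
    LinearMap.charpoly (ρ.residual.ρ σ) =
      X ^ 2 - C ((t : ℤ) : ResidueField A) * X + C ((ℓ : ResidueField A)) := by
  rw [charpoly_resid, h, Polynomial.map_add, Polynomial.map_sub, Polynomial.map_mul,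
    Polynomial.map_pow, Polynomial.map_X, Polynomial.map_C, Polynomial.map_C, map_intCast,
    map_natCast]

/-- the minimal level for `Smin = insert p (primes of M₀)` -/
theorem minLevel_insert_primeFactors {p M₀ : ℕ} (hsq : Squarefree M₀) (fl : Bool)
    (h1 : fl = true → ¬ p ∣ M₀) (h0 : fl = false → p.Prime ∧ p ∣ M₀) (hM₀ : M₀ ≠ 0) :
    M₀ = minLevel p fl (insert p M₀.primeFactors) := by
  unfold minLevel
  rw [Finset.erase_insert_eq_erase]
  cases fl
  · obtain ⟨hp, hpM⟩ := h0 rfl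
    have hmem : p ∈ M₀.primeFactors := Nat.mem_primeFactors.2 ⟨hp, hpM, hM₀⟩
    simp only [Bool.false_eq_true, if_false]
    rw [Finset.prod_erase_mul _ _ hmem]
    exact (Nat.prod_primeFactors_of_squarefree hsq).symm
  · have hmem : p ∉ M₀.primeFactors := fun h => h1 rfl (Nat.dvd_of_mem_primeFactors h)
    simp only [if_true, mul_one]
    rw [Finset.erase_eq_of_notMem hmem]
    exact (Nat.prod_primeFactors_of_squarefree hsq).symm

/-- **REDWIRE.** -/
theorem stmt_REDWIRE : Stmt_REDWIRE := by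
  intro hTH hEX hGen p _ hp2 𝒪 _ _ _ _ _ _ ρ a Sig hSig hdet hunr hunip hloc hfrob habs hTW hsplit
    M₀ hM₀ hsq hram hnfl f₀ 𝔪 hf₀ h𝔪 hp𝔪 hcong
  have hp : p.Prime := Fact.out
  have hp𝒪 : (p : 𝒪) ∈ maximalIdeal 𝒪 := hdet.1
  have hNZ : NeZero M₀ := ⟨hM₀⟩
  have hchar : CharP (ResidueField 𝒪) p := by
    refine (CharP.charP_iff_prime_eq_zero hp).2 ?_
    have h := (residue_eq_zero_iff (p : 𝒪)).2 hp𝒪
    rwa [map_natCast] at h
  -- the residual Frobenius characteristic polynomials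
  have hfrobbar : ∀ ℓ : ℕ, ℓ.Prime → ℓ ∉ Sig → ℓ ≠ p →
      ∀ A : ValuationSubring (AlgebraicClosure ℚ), A.LiesOverPrime ℓ →
        ∀ σ : AlgebraicClosure ℚ ≃ₐ[ℚ] AlgebraicClosure ℚ, A.IsFrobeniusAt σ ℓ →
          LinearMap.charpoly (ρ.residual.ρ σ) =
            X ^ 2 - C (((a ℓ : ℤ) : ResidueField 𝒪)) * X + C ((ℓ : ResidueField 𝒪)) :=
    fun ℓ hℓ hℓS hℓp A hA σ hσ =>
      residual_charpoly_frob ρ σ (a ℓ) ℓ (hfrob ℓ hℓ hℓp hℓS A hA σ hσ)
  -- THETAMIN
  obtain ⟨hunrbar, hθ⟩ := hTH p hp2 (ResidueField 𝒪) ρ.residual habs M₀ f₀ 𝔪 hf₀ h𝔪 hp𝔪 a Sig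
    hcong hfrobbar
  have hpS : p ∈ insert p M₀.primeFactors := Finset.mem_insert_self _ _
  have hMS : ∀ q : ℕ, q.Prime → q ∣ M₀ → q ∈ insert p M₀.primeFactors := fun q hq hqM =>
    Finset.mem_insert_of_mem (Nat.mem_primeFactors.2 ⟨hq, hqM, hM₀⟩)
  obtain ⟨θ, hθF⟩ := hθ (insert p M₀.primeFactors) hpS hMS
  -- the primes of `M₀` different from `p` are in `Sig`
  have hMSig : ∀ q : ℕ, q.Prime → q ∣ M₀ → q ≠ p → q ∈ Sig := by
    intro q hq hqM hqp
    by_contra hqS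
    exact hram q hq hqp hqM (residual_isUnramifiedAt ρ q (hunr q hq hqp hqS))
  have hSminSig : ∀ q ∈ insert p M₀.primeFactors, q ≠ p → q ∈ Sig := by
    intro q hq hqp
    rcases Finset.mem_insert.1 hq with h | h
    · exact absurd h hqp
    · exact hMSig q (Nat.prime_of_mem_primeFactors h) (Nat.dvd_of_mem_primeFactors h) hqp
  -- the reduction as an adic representation
  have hresl : IsLocalHom (residue 𝒪) := inferInstance
  have he := isEquiv_bc_residue ρ hresl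
  have hdetbar : (GaloisRepAdic.ofResidualGaloisRep ρ.residual).DetIsCyclotomic p :=
    detIsCyclotomic_of_isEquiv he p (detIsCyclotomic_baseChangeAlong (residue 𝒪) hresl ρ p hdet)
  -- the standing hypotheses
  have hRes : ResHyp p ρ.residual (insert p M₀.primeFactors) :=
    { habs := habs
      hdet := hdetbar
      hsplit := hsplit trivial
      hTW := hTW
      hpSmin := hpS
      hS := fun q hq => by
        rcases Finset.mem_insert.1 hq with h | h
        · exact h ▸ hp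
        · exact Nat.prime_of_mem_primeFactors h
      hmin := fun q hq hqp => by
        constructor
        · intro hqS
          rcases Finset.mem_insert.1 hqS with h | h
          · exact absurd h hqp
          · exact hram q hq hqp (Nat.dvd_of_mem_primeFactors h)
        · intro hnu
          by_contra hqS
          exact hnu (hunrbar q hq (fun hqM => hqS (hMS q hq hqM)) hqp) }
  -- the type at `p`
  obtain ⟨fl, hfl1, hfl0⟩ : ∃ fl : Bool,
      (fl = true → ¬ p ∣ M₀ ∧ (GaloisRepAdic.ofResidualGaloisRep ρ.residual).IsFlatAt p) ∧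
      (fl = false → p ∣ M₀ ∧ ¬ (GaloisRepAdic.ofResidualGaloisRep ρ.residual).IsFlatAt p ∧
        (GaloisRepAdic.ofResidualGaloisRep ρ.residual).IsStrictOrdinaryAt p) := by
    by_cases hpM : p ∣ M₀
    · refine ⟨false, fun h => absurd h (by decide), fun _ => ⟨hpM, hnfl hpM, ?_⟩⟩
      rcases hloc with hflat | hso
      · exact absurd (isFlatAt_of_isEquiv he p hp (isFlatAt_baseChangeAlong (residue 𝒪) hresl
          (finite_residueField_of_finite (ResidueField 𝒪)) ρ p hp hflat)) (hnfl hpM)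
      · exact isStrictOrdinaryAt_of_isEquiv he p
          (isStrictOrdinaryAt_baseChangeAlong (residue 𝒪) hresl ρ p hso)
    · exact ⟨true, fun _ => ⟨hpM, hEX 𝒪 p hp2 hp𝒪 ρ.residual habs M₀
        (insert p M₀.primeFactors) hpS hMS hpM θ hθF⟩, fun h => absurd h (by decide)⟩
  have hcond : cond 𝒪 p fl (insert p M₀.primeFactors) ∅
      (GaloisRepAdic.ofResidualGaloisRep ρ.residual) := by
    refine cond_of_parts hdetbar (fun h => (hfl1 h).2) (fun h => (hfl0 h).2.2) ?_ ?_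
    · intro q hq hqS
      rw [Finset.union_empty] at hqS
      exact hunrbar q hq (fun hqM => hqS (hMS q hq hqM)) (fun h => hqS (h ▸ hpS))
    · intro q hqS hq hqp
      exact isUnipotentOnInertiaAt_of_isEquiv he q
        (isUnipotentOnInertiaAt_baseChangeAlong (residue 𝒪) hresl ρ q
          (hunip q (hSminSig q hqS hqp)))
  have hlevel : M₀ = minLevel p fl (insert p M₀.primeFactors) :=
    minLevel_insert_primeFactors hsq fl (fun h => (hfl1 h).1) (fun h => ⟨hp, (hfl0 h).1⟩) hM₀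
  -- RT-NONMIN
  obtain ⟨N', hN1, hN2, g, hg, hcoef⟩ := hGen 𝒪 p hp2 hp𝒪 fl ρ.residual
    (insert p M₀.primeFactors) hRes hcond (fun h => (hfl0 h).2.1) M₀ hlevel θ hθF
    (Sig \ insert p M₀.primeFactors)
    (fun q hq => ⟨(hSig q (Finset.mem_sdiff.1 hq).1).1, (Finset.mem_sdiff.1 hq).2⟩)
    ρ hdet
    (fun q hq hqS hqSig => hunr q hq (fun h => hqS (h ▸ hpS))
      (fun h => hqSig (Finset.mem_sdiff.2 ⟨h, hqS⟩)))
    (fun q hqS hqp => hunip q (hSminSig q hqS hqp))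
    (fun q hq => hunip q (Finset.mem_sdiff.1 hq).1)
    hloc (isEquiv_bcAlong_self ρ.residual habs) a
    (fun ℓ hℓ hℓS hℓSig A hA σ hσ => hfrob ℓ hℓ (fun h => hℓS (h ▸ hpS))
      (fun h => hℓSig (Finset.mem_sdiff.2 ⟨h, hℓS⟩)) A hA σ hσ)
  refine ⟨N', hN1, hN2, g, hg, fun ℓ hℓ hℓp hℓSig hℓN => ?_⟩
  exact hcoef ℓ hℓ (fun h => hℓSig (hSminSig ℓ h hℓp))
    (fun h => hℓSig (Finset.mem_sdiff.1 h).1) hℓN

end Fermat.Agent.S59.Asm.H77

end
-- ==== END Fermat.Agent.S59.Asm.H77_RedWire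

-- ==== BEGIN Fermat.Agent.S59.Asm.H8_RedSplit
section

set_option autoImplicit false

open Polynomial IsLocalRing
open scoped TensorProduct

namespace Fermat.Agent.S59.Asm.H8

open Fermat.Agent.S59 Fermat.Agent.R

section Embed

variable {A B : Type} [CommRing A] [IsLocalRing A] [CommRing B] [IsLocalRing B]

/-- The residual representation of `ρ` embeds, additively and Galois-equivariantly, into the
residual representation of a base change of `ρ` along a local homomorphism (when the residue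
field map is injective, e.g. always for fields). -/
theorem exists_residual_embedding (ψ : A →+* B) (hψ : IsLocalHom ψ) (ρ : GaloisRepAdic A) :
    ∃ j : ρ.residual.V →+ (ρ.baseChangeAlong ψ hψ).residual.V, Function.Injective j ∧
      ∀ σ x, j (ρ.residual.ρ σ x) = (ρ.baseChangeAlong ψ hψ).residual.ρ σ (j x) := by
  classical
  have := hψ
  let _ : Algebra A B := ψ.toAlgebra
  let b : Module.Basis (Fin 2) A ρ.V := Module.finBasisOfFinrankEq A ρ.V ρ.finrank_eq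
  let b₁ : Module.Basis (Fin 2) (ResidueField A) ρ.residual.V :=
    Algebra.TensorProduct.basis (ResidueField A) b
  let b' : Module.Basis (Fin 2) B (ρ.baseChangeAlong ψ hψ).V :=
    Algebra.TensorProduct.basis B b
  let b₂ : Module.Basis (Fin 2) (ResidueField B) (ρ.baseChangeAlong ψ hψ).residual.V :=
    Algebra.TensorProduct.basis (ResidueField B) b'
  let ψbar : ResidueField A →+* ResidueField B := ResidueField.map ψ
  have hM₁ : ∀ σ, LinearMap.toMatrix b₁ b₁ (ρ.residual.ρ σ)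
      = (LinearMap.toMatrix b b (ρ.ρ σ)).map (algebraMap A (ResidueField A)) := fun σ =>
    LinearMap.toMatrix_baseChange (ResidueField A) (ρ.ρ σ) b b
  have hM' : ∀ σ, LinearMap.toMatrix b' b' ((ρ.baseChangeAlong ψ hψ).ρ σ)
      = (LinearMap.toMatrix b b (ρ.ρ σ)).map ψ := fun σ =>
    LinearMap.toMatrix_baseChange B (ρ.ρ σ) b b
  have hM₂ : ∀ σ, LinearMap.toMatrix b₂ b₂ ((ρ.baseChangeAlong ψ hψ).residual.ρ σ)
      = (LinearMap.toMatrix b' b' ((ρ.baseChangeAlong ψ hψ).ρ σ)).map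
          (algebraMap B (ResidueField B)) := fun σ =>
    LinearMap.toMatrix_baseChange (ResidueField B) ((ρ.baseChangeAlong ψ hψ).ρ σ) b' b'
  have hM : ∀ σ, LinearMap.toMatrix b₂ b₂ ((ρ.baseChangeAlong ψ hψ).residual.ρ σ)
      = (LinearMap.toMatrix b₁ b₁ (ρ.residual.ρ σ)).map ψbar := by
    intro σ
    rw [hM₂, hM', hM₁, Matrix.map_map, Matrix.map_map]
    rfl
  let j : ρ.residual.V →+ (ρ.baseChangeAlong ψ hψ).residual.V :=
    (b₂.equivFun.symm.toLinearMap.toAddMonoidHom).comp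
      ((ψbar.toAddMonoidHom.compLeft (Fin 2)).comp b₁.equivFun.toLinearMap.toAddMonoidHom)
  have hj : ∀ x, b₂.equivFun (j x) = fun i => ψbar (b₁.equivFun x i) := fun x =>
    b₂.equivFun.apply_symm_apply _
  refine ⟨j, ?_, ?_⟩
  · intro x y hxy
    have h1 := congrArg b₂.equivFun hxy
    rw [hj, hj] at h1
    apply b₁.equivFun.injective
    funext i
    exact ψbar.injective (congrFun h1 i)
  · intro σ x
    apply b₂.equivFun.injective
    rw [hj]
    have e1 : b₁.equivFun (ρ.residual.ρ σ x)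
        = (LinearMap.toMatrix b₁ b₁ (ρ.residual.ρ σ)).mulVec (b₁.equivFun x) :=
      (LinearMap.toMatrix_mulVec_repr b₁ b₁ (ρ.residual.ρ σ) x).symm
    have e2 : b₂.equivFun ((ρ.baseChangeAlong ψ hψ).residual.ρ σ (j x))
        = (LinearMap.toMatrix b₂ b₂ ((ρ.baseChangeAlong ψ hψ).residual.ρ σ)).mulVec
            (b₂.equivFun (j x)) :=
      (LinearMap.toMatrix_mulVec_repr b₂ b₂ ((ρ.baseChangeAlong ψ hψ).residual.ρ σ) (j x)).symm
    rw [e2, hj, hM, e1]
    funext i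
    exact RingHom.map_mulVec ψbar (LinearMap.toMatrix b₁ b₁ (ρ.residual.ρ σ))
      (b₁.equivFun x) i

end Embed

section Flat

variable {k : Type} [Field k]

/-- Flatness of the Galois module `ρbar.V` from flatness of the representation over the field. -/
theorem isFlatGaloisModule_of_isFlatAt (ρbar : ResidualGaloisRep k) (p : ℕ) (hp : p.Prime)
    [Finite k] (h : (GaloisRepAdic.ofResidualGaloisRep ρbar).IsFlatAt p) :
    IsFlatGaloisModule p ρbar.V (fun σ => ρbar.ρ σ) := by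
  rw [isFlatAt_iff] at h
  have hfin : Finite (k ⧸ (⊥ : Ideal k)) :=
    Finite.of_surjective (Ideal.Quotient.mk (⊥ : Ideal k)) Ideal.Quotient.mk_surjective
  have h0 := h.2 ⊥ hfin
  refine H54.stmt_FlatSub p hp _ ρbar.V _ (fun σ => ρbar.ρ σ)
    (Submodule.mkQ ((⊥ : Ideal k) • (⊤ : Submodule k ρbar.V))).toAddMonoidHom ?_ ?_ h0
  · intro x y hxy
    have h1 : Submodule.Quotient.mk (p := (⊥ : Ideal k) • (⊤ : Submodule k ρbar.V)) x
        = Submodule.Quotient.mk y := hxy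
    rw [Submodule.Quotient.eq, Submodule.bot_smul, Submodule.mem_bot, sub_eq_zero] at h1
    exact h1
  · intro σ x
    rfl

/-- Flatness of the representation over the field from flatness of the Galois module. -/
theorem isFlatAt_of_isFlatGaloisModule (ρbar : ResidualGaloisRep k) (p : ℕ) (hp : p.Prime)
    [Finite k] (h : IsFlatGaloisModule p ρbar.V (fun σ => ρbar.ρ σ)) :
    (GaloisRepAdic.ofResidualGaloisRep ρbar).IsFlatAt p := by
  rw [isFlatAt_iff]
  have hfink : Finite (ResidueField k) :=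
    Finite.of_surjective (residue k) residue_surjective
  refine ⟨hfink, fun I _ => ?_⟩
  refine H54.stmt_FlatQuot p hp ρbar.V _ (fun σ => ρbar.ρ σ) _
    (Submodule.mkQ (I • (⊤ : Submodule k ρbar.V))).toAddMonoidHom ?_ ?_ h
  · exact Submodule.mkQ_surjective _
  · intro σ x
    rfl

end Flat

/-- **REDSPLIT**. -/
theorem stmt_REDSPLIT : Stmt_REDSPLIT := by
  intro hS p hpF hp2 𝒪 _ _ _ _ _ _ ρ a Sig hSig hdet hunr hunip hloc hfrob habs hTW _ M₀ hM₀
    hsqf hram hnflat f₀ 𝔪 hf₀ h𝔪 hp𝔪 hcong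
  obtain ⟨𝒪', i1, i2, i3, i4, i5, i6, i7, i8, hfree, i9, hquad⟩ := H99.exists_split_ext 𝒪
  have halg : (algebraMap 𝒪 𝒪').toAlgebra = i7 := Algebra.algebra_ext _ _ (fun r => rfl)
  obtain ⟨j, hj, hjeq⟩ := exists_residual_embedding (algebraMap 𝒪 𝒪') i9 ρ
  refine hS p hp2 𝒪' (ρ.baseChangeAlong (algebraMap 𝒪 𝒪') i9) a Sig hSig
    (Fermat.Agent.S56.H92.detIsCyclotomic_baseChangeAlong _ i9 ρ p hdet)
    (fun q hq hqp hqS =>
      Fermat.Agent.S56.H92.isUnramifiedAt_baseChangeAlong _ i9 ρ q (hunr q hq hqp hqS))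
    (fun q hq => Fermat.Agent.S56.H92.isUnipotentOnInertiaAt_baseChangeAlong _ i9 ρ q
      (hunip q hq))
    (hloc.imp
      (fun h => H99.isFlatAt_baseChangeAlong_of_finite_free (algebraMap 𝒪 𝒪') i9
        (halg ▸ hfree) (halg ▸ i8) i5 ρ p hpF.out h)
      (fun h => Fermat.Agent.S56.H92.isStrictOrdinaryAt_baseChangeAlong _ i9 ρ p h))
    ?_ (Fermat.Agent.R.H86.residual_absIrr_baseChangeAlong _ i9 ρ habs)
    (H99.twCond_baseChangeAlong _ i9 ρ hTW) ?_ M₀ hM₀ hsqf ?_ ?_ f₀ 𝔪 hf₀ h𝔪 hp𝔪 hcong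
  · -- Frobenius characteristic polynomials
    intro ℓ hℓ hℓp hℓS A hA σ hσ
    rw [Fermat.Agent.R.H86.baseChangeAlong_charpoly, hfrob ℓ hℓ hℓp hℓS A hA σ hσ]
    simp only [Polynomial.map_add, Polynomial.map_sub, Polynomial.map_mul, Polynomial.map_pow,
      Polynomial.map_X, map_intCast, map_natCast, Polynomial.map_intCast,
      Polynomial.map_natCast]
  · -- split
    intro _ σ
    have hm : (LinearMap.charpoly (ρ.residual.ρ σ)).Monic := LinearMap.charpoly_monic _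
    have hd : (LinearMap.charpoly (ρ.residual.ρ σ)).natDegree = 2 := by
      rw [LinearMap.charpoly_natDegree, ρ.residual.finrank_eq]
    obtain ⟨α, β, hαβ⟩ := hquad _ hm hd
    refine ⟨α, β, ?_⟩
    rw [← hαβ, H99.charpoly_residual, H99.charpoly_residual,
      Fermat.Agent.R.H86.baseChangeAlong_charpoly, Polynomial.map_map, Polynomial.map_map]
    congr 1
  · -- ramified descends
    intro q hq hqp hqM hunr'
    refine hram q hq hqp hqM ?_
    intro P hP σ hσ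
    have h1 := hunr' P hP σ hσ
    refine LinearMap.ext fun x => hj ?_
    rw [hjeq, h1]
    rfl
  · -- not flat descends
    intro hpM hflat'
    refine hnflat hpM ?_
    have hfin' : Finite (ResidueField 𝒪') := i5
    have h1 := isFlatGaloisModule_of_isFlatAt
      (ρ.baseChangeAlong (algebraMap 𝒪 𝒪') i9).residual p hpF.out hflat'
    have h2 : IsFlatGaloisModule p ρ.residual.V (fun σ => ρ.residual.ρ σ) :=
      H54.stmt_FlatSub p hpF.out _ _ _ _ j hj hjeq h1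
    exact isFlatAt_of_isFlatGaloisModule ρ.residual p hpF.out h2

end Fermat.Agent.S59.Asm.H8

end
-- ==== END Fermat.Agent.S59.Asm.H8_RedSplit

-- ==== BEGIN Fermat.Agent.S59.Asm.H99_Tau
section

/-!
# S59, package ASM, leaf TAU (helper99): `R_Q ↠ R`

* `surjective_of_isEquiv` : GENERAL.  Let `D` be a universal deformation ring for a deformation
  condition `𝒟`.  If the universal deformation `D.ρ` is (equivalent to) the base change of a
  lift `ρQ` of `ρbar` over a complete local `𝒪`-algebra `RQ` along a local `𝒪`-algebra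
  homomorphism `τ : RQ → D.R`, then `τ` is surjective.
  [Modulo `𝔪²`: the entries of a matrix form of `D.ρ ⊗ R/𝔪²` lie in the image `B` of `RQ`;
  the restriction to `B` is of type `𝒟`, so the universal property of `D` over `B` and the
  uniqueness over `R/𝔪²` show `B = R/𝔪²`.  Then Nakayama and completeness.]
* `stmt_TAU : Stmt_TAU`.
-/

set_option autoImplicit false
set_option linter.unusedSectionVars false
set_option linter.style.haveILetI false

namespace Fermat.Agent.S59.Asm.H99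

open IsLocalRing Fermat.Agent.S53

section General

/-- A matrix form of `ρ` is a matrix form of every equivalent representation. -/
theorem isMatOf_of_isEquiv {A : Type} [CommRing A] [IsLocalRing A] {ρ ρ' : GaloisRepAdic A}
    {r : GQ → M2 A} (h : IsMatOf ρ r) (he : ρ.IsEquiv ρ') : IsMatOf ρ' r := by
  obtain ⟨r', hr'⟩ := exists_isMatOf ρ'
  obtain ⟨g, hg⟩ := (IsMatOf.isEquiv_iff h hr').mp he
  have h1 := hr'.conj g⁻¹
  have h2 : (fun σ => ((g⁻¹ : (M2 A)ˣ) : M2 A) * r' σ * (((g⁻¹)⁻¹ : (M2 A)ˣ) : M2 A)) = r := by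
    funext σ
    rw [inv_inv, mul_assoc, ← hg σ, ← mul_assoc, Units.inv_mul, one_mul]
  rw [h2] at h1
  exact h1

variable {𝒪 : Type} [CommRing 𝒪] [IsDomain 𝒪] [IsDiscreteValuationRing 𝒪]
  [IsAdicComplete (maximalIdeal 𝒪) 𝒪] [Finite (ResidueField 𝒪)]
variable {ρbar : ResidualGaloisRep (ResidueField 𝒪)}
variable {𝒟 : ∀ ⦃A : Type⦄ [CommRing A] [IsLocalRing A] [Algebra 𝒪 A], GaloisRepAdic A → Prop}

/-- A finite local `𝒪`-algebra is complete. -/
theorem isAdicComplete_of_finite (B : Type) [CommRing B] [IsLocalRing B] [Algebra 𝒪 B]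
    [IsLocalHom (algebraMap 𝒪 B)] [Finite B] : IsAdicComplete (maximalIdeal B) B := by
  haveI : Module.Finite 𝒪 B := Module.Finite.of_finite
  exact IsLocalRing.isAdicComplete_of_module_finite (𝒪 := 𝒪)

/-- The image of `RQ` generates `R` modulo `𝔪²`. -/
theorem surjective_mod_sq (h𝒟 : GaloisRep.IsDeformationCondition 𝒪 𝒟)
    (D : GaloisRep.DeformationRingData 𝒪 ρbar 𝒟)
    {RQ : Type} [CommRing RQ] [IsLocalRing RQ] [Algebra 𝒪 RQ] [IsLocalHom (algebraMap 𝒪 RQ)]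
    (ρQ : GaloisRepAdic RQ)
    (hresQ : ρQ.residual.IsEquiv (ρbar.baseChangeAlong (ResidueField.map (algebraMap 𝒪 RQ))))
    (τ : RQ →ₐ[𝒪] D.R) (hτ : IsLocalHom (τ : RQ →+* D.R))
    (heq : (ρQ.baseChangeAlong (τ : RQ →+* D.R) hτ).IsEquiv D.ρ) :
    Function.Surjective ((Ideal.Quotient.mkₐ 𝒪 (maximalIdeal D.R ^ (1 + 1))).comp τ) := by
  classical
  obtain ⟨rbar, hbar⟩ := exists_isMatOfRes ρbar
  obtain ⟨rQ, hrQ, hlQ⟩ := exists_isLift_of_residual_isEquiv hbar ρQ hresQ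
  set r1 : GQ →* M2 D.R := mapHom (τ : RQ →+* D.R) rQ with hr1
  have hr1m : IsMatOf D.ρ r1 :=
    isMatOf_of_isEquiv (hrQ.baseChangeAlong (τ : RQ →+* D.R) hτ) heq
  have hl1 : IsLift 𝒪 rbar r1 := Univ.IsLift.map τ hτ hlQ
  haveI hfinres : Finite (ResidueField D.R) :=
    H50.finite_residueField_of_surjective 𝒪 D.R D.residue_surjective
  haveI hAfin : Finite (D.R ⧸ maximalIdeal D.R ^ (1 + 1)) := H50.finite_quot D.R (1 + 1)
  haveI hAloc : IsLocalHom (algebraMap 𝒪 (D.R ⧸ maximalIdeal D.R ^ (1 + 1))) :=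
    H50.isLocalHom_algebraMap_quot 𝒪 D.R 1
  have hA' : GaloisRep.IsArtinianTestAlgebra 𝒪 (D.R ⧸ maximalIdeal D.R ^ (1 + 1)) :=
    H50.isArtinianTestAlgebra_quot 𝒪 D.R D.residue_surjective 1
  have hresA := hA'.residue_surjective
  set π : D.R →ₐ[𝒪] (D.R ⧸ maximalIdeal D.R ^ (1 + 1)) := Ideal.Quotient.mkₐ 𝒪 _ with hπdef
  have hπ : IsLocalHom (π : D.R →+* (D.R ⧸ maximalIdeal D.R ^ (1 + 1))) :=
    H50.isLocalHom_mk D.R 1
  have hπs : Function.Surjective π := Ideal.Quotient.mkₐ_surjective 𝒪 _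
  have hDA : 𝒟 (D.ρ.baseChangeAlong (π : D.R →+* (D.R ⧸ maximalIdeal D.R ^ (1 + 1))) hπ) :=
    (h𝒟.iff_forall_surjective D.instIsLocalHom D.residue_surjective D.ρ).mp D.isOfType hA'
      π hπ hπs
  set tA : GQ →* M2 (D.R ⧸ maximalIdeal D.R ^ (1 + 1)) :=
    mapHom (π : D.R →+* (D.R ⧸ maximalIdeal D.R ^ (1 + 1))) r1 with htA
  have htAm : IsMatOf (D.ρ.baseChangeAlong (π : D.R →+* (D.R ⧸ maximalIdeal D.R ^ (1 + 1))) hπ)
      tA := hr1m.baseChangeAlong (π : D.R →+* (D.R ⧸ maximalIdeal D.R ^ (1 + 1))) hπ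
  have htAD : DMat 𝒪 𝒟 tA := ⟨_, htAm, hDA⟩
  have htAl : IsLift 𝒪 rbar tA := Univ.IsLift.map π hπ hl1
  -- the image of `RQ`
  set f : RQ →ₐ[𝒪] (D.R ⧸ maximalIdeal D.R ^ (1 + 1)) := π.comp τ with hf
  set B : Subalgebra 𝒪 (D.R ⧸ maximalIdeal D.R ^ (1 + 1)) := f.range with hB
  have htB : ∀ σ i j, tA σ i j ∈ B := fun σ i j => ⟨rQ σ i j, rfl⟩
  haveI hvalloc : IsLocalHom (B.val : B →+* (D.R ⧸ maximalIdeal D.R ^ (1 + 1))) :=
    isLocalHom_subalgebra_val B
  haveI : IsLocalRing B :=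
    RingHom.domain_isLocalRing (B.val : B →+* (D.R ⧸ maximalIdeal D.R ^ (1 + 1)))
  haveI : IsLocalHom (algebraMap 𝒪 B) := isLocalHom_algebraMap_of_isLocalHom B.val
  have hresB : Function.Surjective (residue B ∘ algebraMap 𝒪 B) :=
    res_surj_of_isLocalHom B.val hvalloc hresA
  haveI : Finite B := inferInstance
  have hB' : GaloisRep.IsArtinianTestAlgebra 𝒪 B := isArtinianTestAlgebra_of_finite hresB
  set tB : GQ →* M2 B := restrictHom B tA htB with htBdef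
  have htBD : DMat 𝒪 𝒟 tB :=
    DMat.of_map_injective h𝒟 hB' hA' B.val hvalloc Subtype.val_injective tB htAD
  have htBl : IsLift 𝒪 rbar tB := Univ.IsLift.of_map B.val (r := tB) htAl
  obtain ⟨ρB, hρBm, hρBD⟩ := htBD
  have hρBres := residual_isEquiv_of_isLift hbar hρBm htBl
  haveI : IsNoetherianRing B := inferInstance
  haveI : IsAdicComplete (maximalIdeal B) B := isAdicComplete_of_finite (𝒪 := 𝒪) B
  obtain ⟨s, ⟨hs, hseq⟩, -⟩ := D.universal B hresB ρB hρBD hρBres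
  -- uniqueness over `A`
  haveI : IsNoetherianRing (D.R ⧸ maximalIdeal D.R ^ (1 + 1)) := inferInstance
  haveI : IsAdicComplete (maximalIdeal (D.R ⧸ maximalIdeal D.R ^ (1 + 1)))
      (D.R ⧸ maximalIdeal D.R ^ (1 + 1)) := isAdicComplete_of_finite (𝒪 := 𝒪) _
  obtain ⟨φ0, -, huniq⟩ := D.universal (D.R ⧸ maximalIdeal D.R ^ (1 + 1)) hresA
    (D.ρ.baseChangeAlong (π : D.R →+* (D.R ⧸ maximalIdeal D.R ^ (1 + 1))) hπ) hDA
    (residual_isEquiv_of_isLift hbar htAm htAl)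
  have h1 : π = φ0 := huniq π ⟨hπ, ⟨GaloisRepAdic.Equiv.refl _⟩⟩
  have hloc2 : IsLocalHom ((B.val.comp s : D.R →ₐ[𝒪] (D.R ⧸ maximalIdeal D.R ^ (1 + 1))) :
      D.R →+* (D.R ⧸ maximalIdeal D.R ^ (1 + 1))) :=
    Univ.isLocalHom_of_res_surj hresA _
  have h2 : B.val.comp s = φ0 := by
    refine huniq _ ⟨hloc2, ?_⟩
    obtain ⟨gB, hgB⟩ := (IsMatOf.isEquiv_iff
      (hr1m.baseChangeAlong (s : D.R →+* B) hs) hρBm).mp hseq
    refine (IsMatOf.isEquiv_iff (hr1m.baseChangeAlong _ hloc2) htAm).mpr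
      ⟨Units.map ((B.val : B →+* (D.R ⧸ maximalIdeal D.R ^ (1 + 1))).mapMatrix :
        M2 B →+* M2 (D.R ⧸ maximalIdeal D.R ^ (1 + 1))).toMonoidHom gB, fun σ => ?_⟩
    have key := congrArg (fun M : M2 B =>
      M.map (B.val : B →+* (D.R ⧸ maximalIdeal D.R ^ (1 + 1)))) (hgB σ)
    simp only [Matrix.map_mul] at key
    have e1 : ((r1 σ).map (s : D.R →+* B)).map
        (B.val : B →+* (D.R ⧸ maximalIdeal D.R ^ (1 + 1))) =
        (r1 σ).map ((B.val.comp s : D.R →ₐ[𝒪] (D.R ⧸ maximalIdeal D.R ^ (1 + 1))) :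
          D.R →+* (D.R ⧸ maximalIdeal D.R ^ (1 + 1))) := by
      ext i j; rfl
    have e2 : (tB σ).map (B.val : B →+* (D.R ⧸ maximalIdeal D.R ^ (1 + 1))) = tA σ := by
      ext i j; rfl
    rw [e1, e2] at key
    exact key
  intro a
  obtain ⟨x, rfl⟩ := hπs a
  have hx : π x ∈ B := by
    rw [h1, ← h2]
    exact (s x).2
  exact hx

/-- **General surjectivity**: if the universal deformation is a base change from `RQ`, then
`RQ → R` is surjective. -/
theorem surjective_of_isEquiv (h𝒟 : GaloisRep.IsDeformationCondition 𝒪 𝒟)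
    (D : GaloisRep.DeformationRingData 𝒪 ρbar 𝒟)
    {RQ : Type} [CommRing RQ] [IsLocalRing RQ] [IsAdicComplete (maximalIdeal RQ) RQ]
    [Algebra 𝒪 RQ] [IsLocalHom (algebraMap 𝒪 RQ)]
    (ρQ : GaloisRepAdic RQ)
    (hresQ : ρQ.residual.IsEquiv (ρbar.baseChangeAlong (ResidueField.map (algebraMap 𝒪 RQ))))
    (τ : RQ →ₐ[𝒪] D.R) (hτ : IsLocalHom (τ : RQ →+* D.R))
    (heq : (ρQ.baseChangeAlong (τ : RQ →+* D.R) hτ).IsEquiv D.ρ) :
    Function.Surjective τ := by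
  have hfs := surjective_mod_sq h𝒟 D ρQ hresQ τ hτ heq
  have hle : maximalIdeal D.R ≤
      (maximalIdeal RQ).map (τ : RQ →+* D.R) ⊔ maximalIdeal D.R ^ 2 := by
    intro x hx
    obtain ⟨y, hy⟩ := hfs (Ideal.Quotient.mkₐ 𝒪 (maximalIdeal D.R ^ (1 + 1)) x)
    have hy2 : Ideal.Quotient.mk (maximalIdeal D.R ^ (1 + 1)) (τ y) =
        Ideal.Quotient.mk (maximalIdeal D.R ^ (1 + 1)) x := hy
    have hk : x - τ y ∈ maximalIdeal D.R ^ 2 := by
      have := (Ideal.Quotient.eq.mp hy2)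
      have h3 := (maximalIdeal D.R ^ (1 + 1)).neg_mem this
      simpa using h3
    have hτy : τ y ∈ maximalIdeal D.R := by
      have h4 : maximalIdeal D.R ^ 2 ≤ maximalIdeal D.R := Ideal.pow_le_self two_ne_zero
      have := (maximalIdeal D.R).sub_mem hx (h4 hk)
      simpa using this
    have hy' : y ∈ maximalIdeal RQ := by
      rw [mem_maximalIdeal, mem_nonunits_iff]
      intro hu
      exact ((mem_maximalIdeal _).1 hτy) (hu.map τ)
    have hsplit : x = τ y + (x - τ y) := by ring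
    rw [hsplit]
    exact Ideal.add_mem _ (Ideal.mem_sup_left (Ideal.mem_map_of_mem _ hy'))
      (Ideal.mem_sup_right hk)
  have hle' : maximalIdeal D.R ≤ (maximalIdeal RQ).map (τ : RQ →+* D.R) :=
    Fermat.Agent.S56.H50.le_of_le_sup_sq _ hle
  have hmap : (maximalIdeal RQ).map (τ : RQ →+* D.R) = maximalIdeal D.R := by
    apply le_antisymm _ hle'
    rw [Ideal.map_le_iff_le_comap]
    intro y hy
    rw [Ideal.mem_comap, mem_maximalIdeal, mem_nonunits_iff]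
    rw [mem_maximalIdeal, mem_nonunits_iff] at hy
    exact fun h => hy (hτ.map_nonunit y h)
  haveI haus : IsHausdorff ((maximalIdeal RQ).map (τ : RQ →+* D.R)) D.R := by
    rw [hmap]; infer_instance
  have hsurj : Function.Surjective ((Ideal.Quotient.mk
      ((maximalIdeal RQ).map (τ : RQ →+* D.R))).comp (τ : RQ →+* D.R)) := by
    intro y
    obtain ⟨a, rfl⟩ := Ideal.Quotient.mk_surjective y
    obtain ⟨c, hc⟩ := exists_sub_mem_maximalIdeal D.residue_surjective a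
    refine ⟨algebraMap 𝒪 _ c, ?_⟩
    rw [RingHom.comp_apply, Ideal.Quotient.eq, hmap]
    have h1 : (τ : RQ →+* D.R) (algebraMap 𝒪 _ c) = algebraMap 𝒪 D.R c := τ.commutes c
    rw [h1]
    have := (maximalIdeal D.R).neg_mem hc
    simpa using this
  exact surjective_of_mk_map_comp_surjective (τ : RQ →+* D.R) hsurj

end General

/-- Enlarging the auxiliary set weakens the condition. -/
theorem cond_mono {𝒪 : Type} [CommRing 𝒪] (p : ℕ) (fl : Bool) (Smin Q : Finset ℕ)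
    {A : Type} [CommRing A] [IsLocalRing A] [Algebra 𝒪 A] (ρ : GaloisRepAdic A)
    (h0 : Fermat.Agent.S59.cond 𝒪 p fl Smin ∅ ρ) : Fermat.Agent.S59.cond 𝒪 p fl Smin Q ρ := by
  rw [Fermat.Agent.S59.H99.cond_eq_condB] at h0 ⊢
  refine ⟨⟨h0.1.1, fun q hq hqS => h0.1.2.1 q hq ?_, h0.1.2.2⟩, h0.2⟩
  intro hmem
  apply hqS
  rw [Finset.union_empty] at hmem
  exact Finset.mem_union_left _ hmem

/-- **TAU**. -/
theorem stmt_TAU : Fermat.Agent.S59.Asm.Stmt_TAU := by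
  intro 𝒪 _ _ _ _ _ p _ hp2 _hp𝒪 fl ρbar Smin Q _hpS _hprime D DQ
  have h𝒟 : GaloisRep.IsDeformationCondition 𝒪 (Fermat.Agent.S59.cond 𝒪 p fl Smin ∅) := by
    rw [Fermat.Agent.S59.H99.cond_eq_condB]
    exact Fermat.Agent.S59.H99.isDeformationCondition_condB 𝒪 p hp2 fl Smin ∅
  have hQ : Fermat.Agent.S59.cond 𝒪 p fl Smin Q D.ρ := _root_.Fermat.Agent.S59.Asm.H99.cond_mono p fl Smin Q D.ρ D.isOfType
  obtain ⟨τ, ⟨hτ, hτeq⟩, -⟩ := DQ.universal D.R D.residue_surjective D.ρ hQ D.residual_isEquiv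
  exact ⟨τ, surjective_of_isEquiv h𝒟 D DQ.ρ DQ.residual_isEquiv τ hτ hτeq, hτ, hτeq⟩

end Fermat.Agent.S59.Asm.H99

end
-- ==== END Fermat.Agent.S59.Asm.H99_Tau

-- ==== BEGIN Fermat.Agent.S59.Asm.Leaves4
section

/-!
# S59, RT-NONMIN (helper53 for helper85's package): the algebraic core of SELMER-q

`c_q = (q - 1) (a_q² - (q + 1)²)` bounds the growth of the cotangent space when ramification at
`q` is allowed:  the universal lift modulo `𝔭'²` restricted to the tame inertia generator `t` is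
`1 + X`, `X` traceless with entries in `Φ' = 𝔭'/𝔭'²`, and `F X = q X F` (`F = ρ_x(Frob_q)`,
`φ t φ⁻¹ = t^q`).

* `Stmt_SELqALG` : entries of a vector killed by a square matrix `A` over a discrete valuation
                   ring span a module of cardinality at most `#(𝒪/det A)`.
* `Stmt_SELqAD`  : the determinant of `X ↦ F X adj(F) - q² X` on traceless `2 × 2` matrices is
                   `q³ (q - 1) (tr(F)² - (q + 1)²)` when `det F = q`.
-/

set_option autoImplicit false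

namespace Fermat.Agent.S59.Asm

/-- **SELq-ALG**.  [The map `𝒪ⁿ → Φ`, `e_j ↦ X j`, kills the rows of `A`; so its range is a
quotient of `𝒪ⁿ / rows(A)`, of cardinality `#(𝒪/det A)` (`NumCrit` CARD':
`card_quotient_span_rows`).] -/
def Stmt_SELqALG : Prop :=
  ∀ (𝒪 : Type) [CommRing 𝒪] [IsDomain 𝒪] [IsDiscreteValuationRing 𝒪]
    [Finite (IsLocalRing.ResidueField 𝒪)] (n : ℕ) (A : Matrix (Fin n) (Fin n) 𝒪), A.det ≠ 0 →
  ∀ (Φ : Type) [AddCommGroup Φ] [Module 𝒪 Φ] (X : Fin n → Φ),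
    (∀ i, ∑ j, A i j • X j = 0) →
    Finite (Submodule.span 𝒪 (Set.range X)) ∧
      Nat.card (Submodule.span 𝒪 (Set.range X)) ≤ Nat.card (𝒪 ⧸ Ideal.span {A.det})

/-- The traceless matrix with coordinates `(y, z, m)`: `!![m, y; z, -m]`. -/
def tl {R : Type} [CommRing R] (v : Fin 3 → R) : Matrix (Fin 2) (Fin 2) R :=
  !![v 2, v 0; v 1, -v 2]

/-- **SELq-AD**: there is a `3 × 3` matrix `A` (the matrix of `X ↦ F X adj(F) - q² X` on traceless
matrices in the coordinates `tl`) with `F · tl v · adj F - q² • tl v = tl (A v)` and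
`det A = q³ (q - 1) (tr(F)² - (q + 1)²)`, for every `F` with `det F = q`. -/
def Stmt_SELqAD : Prop :=
  ∀ (R : Type) [CommRing R] (F : Matrix (Fin 2) (Fin 2) R) (q : R), F.det = q →
    ∃ A : Matrix (Fin 3) (Fin 3) R,
      (∀ v : Fin 3 → R, F * tl v * F.adjugate - q ^ 2 • tl v = tl (A.mulVec v)) ∧
      A.det = q ^ 3 * (q - 1) * (F.trace ^ 2 - (q + 1) ^ 2)

end Fermat.Agent.S59.Asm

end
-- ==== END Fermat.Agent.S59.Asm.Leaves4

-- ==== BEGIN Fermat.Agent.S59.Asm.Leaves5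
section

/-!
# S59, RT-NONMIN (helper53 for helper85's package): SELMER-q, deformation-theoretic form

`Stmt_SELMERq`: allowing ramification at one more prime `q` (where `ρbar` is unramified) lets the
cotangent space at a point `x` of the smaller deformation ring grow at most by
`#(𝒪 / c_q)`, `c_q = (q - 1) (a_q² - (q + 1)²)`, `a_q = x (tr ρ(Frob_q))`.

Proof (pure algebra + tame inertia; NO Galois cohomology):
1. `ker τ = J :=` ideal generated by the matrix entries of `D'.ρ(σ) - 1`, `σ` in an inertia group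
   at `q` (universal properties, as in `Asm.H99.stmt_TAU`); so
   `ker (Φ' → Φ) =` image of `J` in `Φ' = 𝔭'/𝔭'²`, `𝔭' = ker (x ∘ τ)`, `𝔭 = ker x`.
2. Modulo `𝔭'²` the ring is `𝒪 ⊕ Φ'` (`Φ'² = 0`) and `D'.ρ` lifts `ρ_x := x_* D.ρ`, which is
   unramified at `q`: `σ ↦ X(σ) := D'.ρ(σ) - 1` (entries in `Φ'`) is additive on inertia, factors
   through the pro-`p` tame quotient (`L/Pivot` PV-TAME of helper59: uniform tame generator `t`,
   `φ t φ⁻¹ = t^q` modulo wild inertia), so `F X = q X F` for `X = X(t)`, `F = ρ_x(φ)`, and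
   `tr X = 0` (determinant fixed).  The image of `J` is the `𝒪`-span of the entries of `X`.
3. `Asm.Stmt_SELqAD` + `Asm.Stmt_SELqALG` (`Asm/Leaves4.lean`): `#span ≤ #(𝒪 / q³ c_q)`, `q` a unit.
-/

set_option autoImplicit false

open Polynomial IsLocalRing

namespace Fermat.Agent.S59.Asm

open Fermat.Agent.S59

/-- **SELMER-q**. -/
def Stmt_SELMERq : Prop :=
  ∀ (𝒪 : Type) [CommRing 𝒪] [IsDomain 𝒪] [IsDiscreteValuationRing 𝒪]
    [IsAdicComplete (maximalIdeal 𝒪) 𝒪] [Finite (ResidueField 𝒪)]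
    (p : ℕ) [Fact p.Prime], p ≠ 2 → (p : 𝒪) ∈ maximalIdeal 𝒪 →
    ∀ (fl : Bool) (ρbar : ResidualGaloisRep (ResidueField 𝒪)) (Smin Sig : Finset ℕ) (q : ℕ),
    q.Prime → q ≠ p → q ∉ Smin → q ∉ Sig → p ∈ Smin → (∀ q' ∈ Smin ∪ Sig, q'.Prime) →
    ∀ (D : GaloisRep.DeformationRingData 𝒪 ρbar (cond 𝒪 p fl Smin Sig))
      (D' : GaloisRep.DeformationRingData 𝒪 ρbar (cond 𝒪 p fl Smin (insert q Sig)))
      (τ : D'.R →ₐ[𝒪] D.R) (hτ : IsLocalHom (τ : D'.R →+* D.R)),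
    (D'.ρ.baseChangeAlong (τ : D'.R →+* D.R) hτ).IsEquiv D.ρ →
    ∀ (x : D.R →ₐ[𝒪] 𝒪) (P : ValuationSubring (AlgebraicClosure ℚ)), P.LiesOverPrime q →
    ∀ φ : AlgebraicClosure ℚ ≃ₐ[ℚ] AlgebraicClosure ℚ, P.IsFrobeniusAt φ q →
    ((q : 𝒪) - 1) * (x (D.ρ.trace φ) ^ 2 - ((q : 𝒪) + 1) ^ 2) ≠ 0 →
    Finite (RingHom.ker (x : D.R →+* 𝒪)).Cotangent →
    Finite (RingHom.ker ((x.comp τ : D'.R →ₐ[𝒪] 𝒪) : D'.R →+* 𝒪)).Cotangent ∧
      Nat.card (RingHom.ker ((x.comp τ : D'.R →ₐ[𝒪] 𝒪) : D'.R →+* 𝒪)).Cotangent ≤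
        Nat.card (RingHom.ker (x : D.R →+* 𝒪)).Cotangent *
          Nat.card (𝒪 ⧸ Ideal.span
            {((q : 𝒪) - 1) * (x (D.ρ.trace φ) ^ 2 - ((q : 𝒪) + 1) ^ 2)})

end Fermat.Agent.S59.Asm

end
-- ==== END Fermat.Agent.S59.Asm.Leaves5

-- ==== BEGIN Fermat.Agent.S59.Asm.Red2
section

/-!
# S59 (helper53): final interfaces, version 2 — with the base point `x₀` (AUG)

helper85's request (03:05Z): the numerical criterion needs a characteristic zero point `x₀` of the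
Hecke algebra at the minimal level.  It exists after a finite extension of `𝒪`
(`R.H2.nonempty_algTPoint`); the extension is made ONCE, together with the split extension, at the
top level, where the hypotheses to be transported are the simplest.

Chain (replaces `Stmt_REDWIRE`, `Stmt_REDSPLIT` of `Asm/Red.lean`; `Stmt_MLTred` is unchanged):
```
NonMin.Stmt_MLTnm + CaseC.Stmt_MLTc              ──► CaseC.Stmt_MLTgenPt   (`CaseC.Stmt_GENPTWIRE`)
Stmt_THETAMIN + Stmt_EXACTb + CaseC.Stmt_MLTgenPt ──► Stmt_MLTredS2        (`Stmt_REDWIRE2`)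
Stmt_THETAMIN + Stmt_MLTredS2                     ──► Stmt_MLTred          (`Stmt_REDSPLIT2`)
```
-/

set_option autoImplicit false

open Polynomial CuspForm CongruenceSubgroup ModularFormClass IsLocalRing

namespace Fermat.Agent.S59.Asm

open Fermat.Agent.S59

/-- **Modularity lifting, reduced form, split residual characteristic polynomials, with a base
point**: `Stmt_MLTredS` with `[NeZero M₀]` and a ring homomorphism
`x₀ : heckeAlgebra M₀ 2 (insert p M₀.primeFactors) → 𝒪` whose reduction gives the Frobenius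
traces of `ρ.residual` at ALL primes `ℓ ∤ M₀ p`. -/
def Stmt_MLTredS2 : Prop :=
  ∀ (p : ℕ) [Fact p.Prime], p ≠ 2 →
  ∀ (𝒪 : Type) [CommRing 𝒪] [IsDomain 𝒪] [IsDiscreteValuationRing 𝒪]
    [IsAdicComplete (IsLocalRing.maximalIdeal 𝒪) 𝒪] [Finite (IsLocalRing.ResidueField 𝒪)]
    [CharZero 𝒪] (ρ : GaloisRepAdic 𝒪) (a : ℕ → ℤ) (Sig : Finset ℕ),
    (∀ q ∈ Sig, q.Prime ∧ q ≠ p) →
    ρ.DetIsCyclotomic p →
    (∀ q : ℕ, q.Prime → q ≠ p → q ∉ Sig → ρ.IsUnramifiedAt q) →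
    (∀ q ∈ Sig, ρ.IsUnipotentOnInertiaAt q) →
    (ρ.IsFlatAt p ∨ ρ.IsStrictOrdinaryAt p) →
    (∀ ℓ : ℕ, ℓ.Prime → ℓ ≠ p → ℓ ∉ Sig →
      ∀ A : ValuationSubring (AlgebraicClosure ℚ), A.LiesOverPrime ℓ →
        ∀ σ : AlgebraicClosure ℚ ≃ₐ[ℚ] AlgebraicClosure ℚ, A.IsFrobeniusAt σ ℓ →
          LinearMap.charpoly (ρ.ρ σ) = X ^ 2 - C (((a ℓ : ℤ) : 𝒪)) * X + C ((ℓ : 𝒪))) →
    ρ.residual.IsAbsolutelyIrreducible → TWCond ρ.residual →
    (∀ σ : AlgebraicClosure ℚ ≃ₐ[ℚ] AlgebraicClosure ℚ,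
      ∃ α β : IsLocalRing.ResidueField 𝒪,
        LinearMap.charpoly (ρ.residual.ρ σ) = (X - C α) * (X - C β)) →
    ∀ (M₀ : ℕ) [NeZero M₀], Squarefree M₀ →
    (∀ q : ℕ, q.Prime → q ≠ p → q ∣ M₀ → ¬ ρ.residual.IsUnramifiedAt q) →
    (p ∣ M₀ → ¬ (GaloisRepAdic.ofResidualGaloisRep ρ.residual).IsFlatAt p) →
    ∀ (f₀ : CuspForm (CongruenceSubgroup.Gamma0 M₀) 2) (𝔪 : Ideal (integralClosure ℤ ℂ)),
      f₀.IsNormalizedEigenform → 𝔪.IsMaximal → (p : integralClosure ℤ ℂ) ∈ 𝔪 →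
      (∀ ℓ : ℕ, ℓ.Prime → ℓ ∉ Sig → ¬ ℓ ∣ M₀ → ℓ ≠ p →
        ∃ b : integralClosure ℤ ℂ, (b : ℂ) = ModularFormClass.qCoeff f₀ ℓ ∧
          b - ((a ℓ : ℤ) : integralClosure ℤ ℂ) ∈ 𝔪) →
    ∀ (x₀ : CuspForm.heckeAlgebra M₀ 2 (↑(insert p M₀.primeFactors) : Set ℕ) →+* 𝒪),
      (∀ (ℓ : ℕ) (hℓ : ℓ.Prime) (hℓN : ¬ ℓ ∣ M₀)
          (hℓS : ℓ ∉ (↑(insert p M₀.primeFactors) : Set ℕ)),
        ∀ A : ValuationSubring (AlgebraicClosure ℚ), A.LiesOverPrime ℓ →
          ∀ σ : AlgebraicClosure ℚ ≃ₐ[ℚ] AlgebraicClosure ℚ, A.IsFrobeniusAt σ ℓ →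
            LinearMap.charpoly (ρ.residual.ρ σ) =
              X ^ 2 - C (residue 𝒪 (x₀ (CuspForm.heckeAlgebra.T hℓ hℓN hℓS))) * X +
                C ((ℓ : ResidueField 𝒪))) →
    ∃ N : ℕ, ¬ p ^ 2 ∣ N ∧ (∀ q : ℕ, q.Prime → ¬ q ^ 3 ∣ N) ∧
      ∃ f : CuspForm (CongruenceSubgroup.Gamma0 N) 2, f.IsNormalizedEigenform ∧
        ∀ ℓ : ℕ, ℓ.Prime → ℓ ≠ p → ℓ ∉ Sig → ¬ ℓ ∣ N →
          ModularFormClass.qCoeff f ℓ = (a ℓ : ℂ)

/-- Wiring (W-b), version 2.
[`ρbar := ρ.residual`, `Smin := insert p M₀.primeFactors`, `θ := residue ∘ x₀` (then `FrobHyp` is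
the hypothesis on `x₀`), `fl := (ρbar is flat at p)`, `N := M₀ = minLevel p fl Smin`
(`Stmt_EXACTb`; `Nat.prod_primeFactors_of_squarefree`); `hmin` of `ResHyp`: `⟸` is
`Stmt_THETAMIN` (first part), `⟹` is the hypothesis on `M₀`; `Sig' := Sig ∖ Smin`;
`CaseC.Stmt_MLTgenPt`.] -/
def Stmt_REDWIRE2 : Prop :=
  Stmt_THETAMIN → Stmt_EXACTb → Fermat.Agent.S59.CaseC.Stmt_MLTgenPt → Stmt_MLTredS2

/-- Wiring (W-a), version 2: two finite extensions of the coefficient ring.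
[(1) `H99.exists_split_ext`: `𝒪₁`, all hypotheses transported as in `Asm.H8.stmt_REDSPLIT`;
(2) `Stmt_THETAMIN` over `k₁` with `S := insert p M₀.primeFactors`: `θ₁` with `FrobHyp`;
`T₁ := heckeLocal M₀ S 𝒪₁ θ₁` (`S23.result`), `R.H2.nonempty_algTPoint` at a minimal prime:
`𝒪₂ ⊇ 𝒪₁` finite free local and `ψ : T₁ → 𝒪₂`; `x₀ := ψ ∘ heckeLocal.π`; residues as in
`Datum.H7.exists_ptRep`; transport everything along `𝒪 → 𝒪₂`.] -/
def Stmt_REDSPLIT2 : Prop :=
  Stmt_THETAMIN → Stmt_MLTredS2 → Stmt_MLTred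

end Fermat.Agent.S59.Asm

end
-- ==== END Fermat.Agent.S59.Asm.Red2

-- ==== BEGIN Fermat.Agent.S59.CaseC.Geom.Defs
section

/-!
# S59, case C, package PGEOM (planner helper53): the geometry of the step at `p`

Plan: `NOTES/plan/S59_PGEOM.md`.  Same Betti framework as `S59/NonMin/Geom/Defs.lean` (helper61):
the states of the class `G` are Betti lattices (`Geom.IsBetti`).

POINTWISE form.  `NumCrit.H90.card_omega_growth_tors` / `NonMin.H90.step_core` (helper90) need the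
relation `α' ∘ α = e` only on the eigenspace `M[x]`, with a scalar `e : 𝒪`.  So the geometry has to
give the constant only pointwise, and local–global compatibility at `p` is needed only at the
characteristic zero points (`Stmt_LGCpt`).

* `PClause p ρbar s`  : the data of the step at `p` at the state `s` + the constant at every point;
* `Stmt_NMGEOMp`      : the geometric target of case C (replaces `CaseC.Stmt_NMGEOM2`);
* `Stmt_STEPPpt`, `Stmt_STEPPptWIRE`, `Stmt_CWIREp` : the algebra and the wiring which consume it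
                        (replace `CaseC.Stmt_STEPP`, `Stmt_STEPPWIRE`, `Stmt_CWIRE`);
* `Stmt_NMGEOMB`, `Stmt_PSTEPB`, `nmgeomp_of` : splitting of the target into the induction at
                        `q ≠ p` (helper61, class `G` exposed) and the step at `p`;
* leaves of `Stmt_PSTEPB`: `Stmt_LGCpt`, `Stmt_PREL`, `Stmt_IHARA2k`, `Stmt_CHEBkp`, `Stmt_PDUAL`,
  `Stmt_PALG` (`Deg2`, `Deg2Out`), `Stmt_PORD`, `Stmt_PLINK`, `Stmt_PRANK`, `Stmt_PASM`.

No `sorry`.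
-/

set_option autoImplicit false

open Polynomial CuspForm CongruenceSubgroup ModularFormClass IsLocalRing
open scoped MatrixGroups

namespace Fermat.Agent.S59.CaseC.Geom

open Fermat.Agent.S41 Fermat.Agent.Betti Fermat.Agent.S59 Fermat.Agent.S59.Asm
  Fermat.Agent.S59.NonMin Fermat.Agent.S59.NonMin.Geom Fermat.Agent.S59.CaseC

/-- The Galois group of `ℚ`. -/
local notation "Γℚ" => AlgebraicClosure ℚ ≃ₐ[ℚ] AlgebraicClosure ℚ

/-! ## 1. The clause at `p`, the target, the consumers -/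

section Clause

variable {𝒪 : Type} [CommRing 𝒪] [IsDomain 𝒪] [IsDiscreteValuationRing 𝒪]
  [IsAdicComplete (maximalIdeal 𝒪) 𝒪]

/-- **The step at `p` at the state `s`, pointwise form.**  There are the data `NMStepP s p c` of
the step (`c := α' ∘ α`), and for every Hecke–Galois datum `H` over the full local Hecke ring `T`
acting on `s.M` through `ηhat`, every ordinary line `ℒ` of `H.ρ` at a place `P` over `p`, every
Frobenius element `g` at `P` with eigenvalue `z ∈ T` on the unramified quotient, and every point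
`πx : T → 𝒪`: the operator `c` acts on the eigenspace of `πx` as `w (πx(z)² - 1)`, `w` a unit.
[`c = U⁻¹ (1 - p U⁻²)(U² - 1)`, `U` the unit root of `X² - T_p X + p` on `s.M`
(`Stmt_PALG`), and `U = πx(z)` on the eigenspace (`Stmt_PLINK`).] -/
def PClause (p : ℕ) (ρbar : ResidualGaloisRep (ResidueField 𝒪)) (s : NMState 𝒪)
    [NeZero (s.N * p)] [Fact (CuspForm.HasIntegralStructure s.N 2)] : Prop :=
  ∃ (c : Module.End 𝒪 s.M.V) (_ : NMStepP s p c),
    ∀ (H : CuspForm.HeckeGaloisRepDatum s.N (↑s.S : Set ℕ) 𝒪 s.θ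
          (CuspForm.heckeLocal s.N (↑s.S : Set ℕ) 𝒪 s.θ))
      (ηhat : CuspForm.heckeLocal s.N (↑s.S : Set ℕ) 𝒪 s.θ →ₐ[𝒪] Module.End 𝒪 s.M.V),
      H.π = CuspForm.heckeLocal.π s.N (↑s.S : Set ℕ) 𝒪 s.θ →
      (∀ t, ηhat (CuspForm.heckeLocal.π s.N (↑s.S : Set ℕ) 𝒪 s.θ t) = s.M.η t) →
      H.ρ.DetIsCyclotomic p →
      H.ρ.residual.IsEquiv (ρbar.baseChangeAlong
        (ResidueField.map (algebraMap 𝒪 (CuspForm.heckeLocal s.N (↑s.S : Set ℕ) 𝒪 s.θ)))) →
      ∀ (P : ValuationSubring (AlgebraicClosure ℚ)), P.LiesOverPrime p →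
      ∀ (ℒ : OrdLine H.ρ P) (g : Γℚ), P.IsFrobeniusAt g p →
      ∀ z : CuspForm.heckeLocal s.N (↑s.S : Set ℕ) 𝒪 s.θ, ℒ.IsQuotEigen g z →
      ∀ πx : CuspForm.heckeLocal s.N (↑s.S : Set ℕ) 𝒪 s.θ →ₐ[𝒪] 𝒪,
        ∃ w : 𝒪ˣ, ∀ v : s.M.V, (∀ t, ηhat t v = πx t • v) →
          c v = ((w : 𝒪) * (πx z ^ 2 - 1)) • v

end Clause

/-- **NMGEOM-p**: the geometric target of case C.  `NonMin.Stmt_NMGEOM` at a minimal level `N`
PRIME TO `p`, for `ρbar` flat and ordinary, with a class `G` of states which admits the step at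
`p` (`PClause`).  Replaces `CaseC.Stmt_NMGEOM2`. -/
def Stmt_NMGEOMp : Prop :=
  ∀ (𝒪 : Type) [CommRing 𝒪] [IsDomain 𝒪] [IsDiscreteValuationRing 𝒪]
    [IsAdicComplete (maximalIdeal 𝒪) 𝒪] [Finite (ResidueField 𝒪)] [CharZero 𝒪]
    (p : ℕ) [Fact p.Prime], p ≠ 2 → (p : 𝒪) ∈ maximalIdeal 𝒪 →
    ∀ (ρbar : ResidualGaloisRep (ResidueField 𝒪)) (Smin : Finset ℕ), ResHyp p ρbar Smin →
    cond 𝒪 p true Smin ∅ (GaloisRepAdic.ofResidualGaloisRep ρbar) →
    (GaloisRepAdic.ofResidualGaloisRep ρbar).IsOrdinaryAt p →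
    ∀ (N : ℕ) [NeZero N] [Fact (CuspForm.HasIntegralStructure N 2)],
    (∀ q : ℕ, q.Prime → q ∣ N → q ∈ Smin) → Squarefree N → ¬ p ∣ N →
    ∀ (θ : CuspForm.heckeAlgebra N 2 (↑Smin : Set ℕ) →+* ResidueField 𝒪),
    Fermat.Agent.S59.Datum.FrobHyp ρbar N Smin θ →
    ∃ (M : HMod 𝒪 N (↑Smin : Set ℕ) θ) (G : NMState 𝒪 → Prop), Nontrivial M.V ∧
      (∀ (r n : ℕ) (qv : Fin r → ℕ), Fermat.Agent.S56.IsTWFamily ρbar p n Smin qv →
        ∀ [NeZero (twLevel N qv)] [Fact (CuspForm.HasIntegralStructure (twLevel N qv) 2)],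
          Nonempty (TWGeom 𝒪 p ρbar N Smin θ M n qv)) ∧
      G ⟨N, Smin, θ, M⟩ ∧
      (∀ s : NMState 𝒪, G s → ∀ (q : ℕ) (hq : q.Prime), q ≠ p → ∀ (hqN : ¬ q ∣ s.N)
        (hqS : q ∉ (↑s.S : Set ℕ)) [NeZero (s.N * q ^ 2)],
        ∃ st : NMStep s hq hqN hqS, G st.next) ∧
      (∀ s : NMState 𝒪, G s → ¬ p ∣ s.N → p ∈ s.S →
        ∀ [NeZero (s.N * p)] [Fact (CuspForm.HasIntegralStructure s.N 2)], PClause p ρbar s)

/-- **STEP-p, pointwise form** (algebra + deformation theory): `CaseC.Stmt_STEPP` with the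
geometric hypothesis replaced by `PClause`.
[As `CaseC.Stmt_STEPP`; the growth of the congruence module by
`NumCrit.H90.card_omega_growth_tors` / `NonMin.H90.step_core` with `e := w (πx(z)² - 1)`;
`πx(z)² - 1 ≠ 0` by `CaseC.Stmt_CPNE`; the Selmer bound `CaseC.Stmt_SELMERp` at
`z_D := φ⁻¹ z`.] -/
def Stmt_STEPPpt : Prop :=
  ∀ (𝒪 : Type) [CommRing 𝒪] [IsDomain 𝒪] [IsDiscreteValuationRing 𝒪]
    [IsAdicComplete (maximalIdeal 𝒪) 𝒪] [Finite (ResidueField 𝒪)] [CharZero 𝒪]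
    (p : ℕ) [Fact p.Prime], p ≠ 2 → (p : 𝒪) ∈ maximalIdeal 𝒪 →
    ∀ (ρbar : ResidualGaloisRep (ResidueField 𝒪)) (Smin : Finset ℕ),
    ResHyp p ρbar Smin →
    cond 𝒪 p true Smin ∅ (GaloisRepAdic.ofResidualGaloisRep ρbar) →
    (GaloisRepAdic.ofResidualGaloisRep ρbar).IsOrdinaryAt p →
    ∀ (Sig : Finset ℕ) (s : NMState 𝒪) [Fact (CuspForm.HasIntegralStructure s.N 2)],
    LevelHyp 𝒪 p true Smin Sig s →
    Fermat.Agent.S59.Datum.FrobHyp ρbar s.N s.S s.θ →
    ∀ (x : CuspForm.heckeAlgebra s.N 2 (↑s.S : Set ℕ) →+* 𝒪),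
    (∀ t, residue 𝒪 (x t) = s.θ t) →
    ∀ (d : ℕ), 0 < d → RTProp 𝒪 p true ρbar Smin Sig s x d →
    ∀ [NeZero (s.N * p)] [Fact (CuspForm.HasIntegralStructure (s.N * p) 2)],
    PClause p ρbar s →
    ∀ (ρ : GaloisRepAdic 𝒪), CaseC.condOrd 𝒪 p Smin Sig ρ →
    ρ.residual.IsEquiv (ρbar.baseChangeAlong (ResidueField.map (algebraMap 𝒪 𝒪))) →
    ∀ (a : ℕ → ℤ),
    (∀ ℓ : ℕ, ℓ.Prime → ℓ ∉ Smin ∪ Sig →
      ∀ A : ValuationSubring (AlgebraicClosure ℚ), A.LiesOverPrime ℓ →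
        ∀ σ : Γℚ, A.IsFrobeniusAt σ ℓ →
          LinearMap.charpoly (ρ.ρ σ) = X ^ 2 - C (((a ℓ : ℤ) : 𝒪)) * X + C ((ℓ : 𝒪))) →
    ∃ g : CuspForm (Gamma0 (s.N * p)) 2, g.IsNormalizedEigenform ∧
      ∀ ℓ : ℕ, ℓ.Prime → ¬ ℓ ∣ s.N * p → ℓ ∉ Smin ∪ Sig → qCoeff ⇑g ℓ = (a ℓ : ℂ)

/-- The wiring of the step at `p` from its leaves (pointwise form). -/
def Stmt_STEPPptWIRE : Prop :=
  CaseC.Stmt_S33 → CaseC.Stmt_DEFord → CaseC.Stmt_ORDT → CaseC.Stmt_TAUP →
    CaseC.Stmt_SELMERp → CaseC.Stmt_CPNE → Stmt_STEPPpt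

/-- Wiring of case C (pointwise form): geometry + the induction of RT-NONMIN + the step at `p`.
[As `CaseC.Stmt_CWIRE`; `N = minLevel p true Smin` is prime to `p`.] -/
def Stmt_CWIREp : Prop :=
  Stmt_NMGEOMp → CaseC.Stmt_RTALL → Stmt_STEPPpt → CaseC.Stmt_MLTc

/-! ## 2. Splitting of the target: the induction at `q ≠ p` (helper61) and the step at `p` -/

/-- **NMGEOM-B** = `Geom.Stmt_NMGEOM2` (helper61) with the class `G` EXPOSED: every state of the
class is a Betti lattice (`Geom.IsBetti`) with `Geom.GeomHyp` and `FrobHyp`.  The assembly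
`Geom.Stmt_ASMG` proves exactly this (its `G` is defined in this way). -/
def Stmt_NMGEOMB : Prop :=
  ∀ (𝒪 : Type) [CommRing 𝒪] [IsDomain 𝒪] [IsDiscreteValuationRing 𝒪]
    [IsAdicComplete (maximalIdeal 𝒪) 𝒪] [Finite (ResidueField 𝒪)] [CharZero 𝒪]
    (p : ℕ) [Fact p.Prime], p ≠ 2 → (p : 𝒪) ∈ maximalIdeal 𝒪 →
    ∀ (ρbar : ResidualGaloisRep (ResidueField 𝒪)) (Smin : Finset ℕ), ResHyp p ρbar Smin →
    ∀ (N : ℕ) [NeZero N] [Fact (CuspForm.HasIntegralStructure N 2)],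
    (∀ q : ℕ, q.Prime → q ∣ N → q ∈ Smin) → Squarefree N →
    (p ∣ N → ¬ (GaloisRepAdic.ofResidualGaloisRep ρbar).IsFlatAt p) →
    ∀ (θ : CuspForm.heckeAlgebra N 2 (↑Smin : Set ℕ) →+* ResidueField 𝒪),
    Fermat.Agent.S59.Datum.FrobHyp ρbar N Smin θ →
    ∃ (M : HMod 𝒪 N (↑Smin : Set ℕ) θ) (G : NMState 𝒪 → Prop), Nontrivial M.V ∧
      (∀ (r n : ℕ) (qv : Fin r → ℕ), Fermat.Agent.S56.IsTWFamily ρbar p n Smin qv →
        ∀ [NeZero (twLevel N qv)] [Fact (CuspForm.HasIntegralStructure (twLevel N qv) 2)],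
          Nonempty (TWGeom 𝒪 p ρbar N Smin θ M n qv)) ∧
      G ⟨N, Smin, θ, M⟩ ∧
      (∀ s : NMState 𝒪, G s → ∀ (q : ℕ) (hq : q.Prime), q ≠ p → ∀ (hqN : ¬ q ∣ s.N)
        (hqS : q ∉ (↑s.S : Set ℕ)) [NeZero (s.N * q ^ 2)],
        ∃ st : NMStep s hq hqN hqS, G st.next) ∧
      (∀ s : NMState 𝒪, G s → ∃ Sig : Finset ℕ, GeomHyp p Smin N Sig s.N s.S ∧
        Fermat.Agent.S59.Datum.FrobHyp ρbar s.N s.S s.θ ∧ IsBetti s Sig)

/-- **PSTEP-B**: the step at `p` at a Betti state of level prime to `p`. -/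
def Stmt_PSTEPB : Prop :=
  ∀ (𝒪 : Type) [CommRing 𝒪] [IsDomain 𝒪] [IsDiscreteValuationRing 𝒪]
    [IsAdicComplete (maximalIdeal 𝒪) 𝒪] [Finite (ResidueField 𝒪)] [CharZero 𝒪]
    (p : ℕ) [Fact p.Prime], p ≠ 2 → (p : 𝒪) ∈ maximalIdeal 𝒪 →
    ∀ (ρbar : ResidualGaloisRep (ResidueField 𝒪)) (Smin : Finset ℕ), ResHyp p ρbar Smin →
    cond 𝒪 p true Smin ∅ (GaloisRepAdic.ofResidualGaloisRep ρbar) →
    (GaloisRepAdic.ofResidualGaloisRep ρbar).IsOrdinaryAt p →
    ∀ (N₀ : ℕ) (Sig : Finset ℕ) (s : NMState 𝒪), GeomHyp p Smin N₀ Sig s.N s.S →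
    Fermat.Agent.S59.Datum.FrobHyp ρbar s.N s.S s.θ → IsBetti s Sig → ¬ p ∣ s.N →
    ∀ [NeZero (s.N * p)] [Fact (CuspForm.HasIntegralStructure s.N 2)], PClause p ρbar s

/-- The target from the two halves. -/
theorem nmgeomp_of (hB : Stmt_NMGEOMB) (hP : Stmt_PSTEPB) : Stmt_NMGEOMp := by
  intro 𝒪 _ _ _ _ _ _ p _ hp2 hp𝒪 ρbar Smin hyp hfl hord N _ _ hN hsq hpN θ hθ
  obtain ⟨M, G, h1, h2, h3, h4, h5⟩ :=
    hB 𝒪 p hp2 hp𝒪 ρbar Smin hyp N hN hsq (fun h => absurd h hpN) θ hθ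
  refine ⟨M, G, h1, h2, h3, h4, ?_⟩
  intro s hs hps _ _ _
  obtain ⟨Sig, hG, hF, hBt⟩ := h5 s hs
  exact hP 𝒪 p hp2 hp𝒪 ρbar Smin hyp hfl hord N Sig s hG hF hBt hps

/-! ## 3. Local–global compatibility at `p`, at a point (owner: helper54) -/

/-- **LGC-pt** (Eichler–Shimura at `p`, at a characteristic zero point): let `p ∤ N`, let
`x̃` be a character of the Hecke algebra AWAY FROM `S ∖ {p}` (so `T_p` belongs to it), and `ρ` a
representation over `𝒪` with the Frobenius characteristic polynomials `X² - x̃(T_ℓ) X + ℓ`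
(`ℓ ∉ S`), cyclotomic determinant, absolutely irreducible reduction.  If `ℒ` is an ordinary line
of `ρ` at `P ∣ p` and `z` the eigenvalue of a Frobenius element `g` at `P` on the quotient, then
`z² - x̃(T_p) z + p = 0`: `z` is the unit root of `X² - a_p X + p`.
[helper54's route: `RED.Stmt_ES3` at `ℓ = p` on divisors, `r(g D) = φ r(D)`, `r(σ D) = r(D)` for
`σ` in inertia; `ker(red) ∩ V_k = L_k` by `FlatInf` for the Hopf order of G-FL.] -/
def Stmt_LGCpt : Prop :=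
  ∀ (𝒪 : Type) [CommRing 𝒪] [IsDomain 𝒪] [IsDiscreteValuationRing 𝒪]
    [IsAdicComplete (maximalIdeal 𝒪) 𝒪] [Finite (ResidueField 𝒪)] [CharZero 𝒪]
    (p : ℕ) [Fact p.Prime], p ≠ 2 → (p : 𝒪) ∈ maximalIdeal 𝒪 →
    ∀ (N : ℕ) [NeZero N] (S : Finset ℕ), p ∈ S → (∀ q : ℕ, q.Prime → q ∣ N → q ∈ S) →
    ∀ (hp : p.Prime) (hpN : ¬ p ∣ N) (hpS : p ∉ (↑(S.erase p) : Set ℕ))
      (xt : CuspForm.heckeAlgebra N 2 (↑(S.erase p) : Set ℕ) →+* 𝒪) (ρ : GaloisRepAdic 𝒪),
    (∀ (ℓ : ℕ) (hℓ : ℓ.Prime) (hℓN : ¬ ℓ ∣ N) (hℓS : ℓ ∉ (↑(S.erase p) : Set ℕ)), ℓ ≠ p →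
      ∀ B : ValuationSubring (AlgebraicClosure ℚ), B.LiesOverPrime ℓ →
        ∀ σ : Γℚ, B.IsFrobeniusAt σ ℓ →
          LinearMap.charpoly (ρ.ρ σ) =
            X ^ 2 - C (xt (CuspForm.heckeAlgebra.T hℓ hℓN hℓS)) * X + C ((ℓ : 𝒪))) →
    ρ.DetIsCyclotomic p → ρ.residual.IsAbsolutelyIrreducible →
    ∀ (P : ValuationSubring (AlgebraicClosure ℚ)), P.LiesOverPrime p →
    ∀ (ℒ : OrdLine ρ P) (g : Γℚ), P.IsFrobeniusAt g p →
    ∀ z : 𝒪, ℒ.IsQuotEigen g z →
      z ^ 2 - xt (CuspForm.heckeAlgebra.T hp hpN hpS) * z + (p : 𝒪) = 0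

/-! ## 4. Betti cohomology at the levels `N` and `N q` (any prime `q ∤ N`, `q = p` allowed) -/

/-- **P-REL**: the relations between the two degeneracy maps `res1, res2` (`cor1, cor2`) and
`U_q` of level `N q`, `T_q` of level `N` (the "stage 1 relations" of `NOTES/plan/S59_NMGEOM.md`
§0; the last four are `S41.H19.cor1_res1`, `cor2_res2`, `cor2_res1`, `S41.H20.Tcoh_eq_TB`).
Any coefficient group; `q` ANY prime not dividing `N`. -/
def Stmt_PREL : Prop :=
  ∀ (N q : ℕ) [NeZero N] [NeZero (N * q)] (hq : q.Prime) (hqN : ¬ q ∣ N) (hd : q ∣ N * q)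
    (A : Type) [AddCommGroup A],
    (∀ φ : Additive (Gamma0 N) →+ A,
      UB (N * q) A hd (res1 N q A φ) = res1 N q A (TB N A hq hqN φ) - res2 N q A φ ∧
      UB (N * q) A hd (res2 N q A φ) = q • res1 N q A φ ∧
      cor1 N q A (res1 N q A φ) = (q + 1) • φ ∧
      cor2 N q A (res2 N q A φ) = (q + 1) • φ ∧
      cor1 N q A (res2 N q A φ) = TB N A hq hqN φ ∧
      cor2 N q A (res1 N q A φ) = TB N A hq hqN φ) ∧
    (∀ ψ : Additive (Gamma0 (N * q)) →+ A,
      cor1 N q A (UB (N * q) A hd ψ) = q • cor2 N q A ψ ∧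
      cor2 N q A (UB (N * q) A hd ψ) = TB N A hq hqN (cor2 N q A ψ) - cor1 N q A ψ)

/-- **P-RELT**: `res_i`, `cor_i` (levels `N`, `N q`) commute with `T_ℓ` (`ℓ ∤ N q`) and `U_r`
(`r ∣ N`), preserve parabolic and cuspidal homomorphisms; `T_q` of level `N` commutes with
`T_ℓ`, `U_r` and preserves parabolic homomorphisms. -/
def Stmt_PRELT : Prop :=
  ∀ (N q : ℕ) [NeZero N] [NeZero (N * q)] (hq : q.Prime) (hqN : ¬ q ∣ N)
    (A : Type) [AddCommGroup A],
    (∀ (ℓ : ℕ) (hℓ : ℓ.Prime) (hℓN : ¬ ℓ ∣ N) (hℓN' : ¬ ℓ ∣ N * q),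
      (∀ φ : Additive (Gamma0 N) →+ A,
        TB (N * q) A hℓ hℓN' (res1 N q A φ) = res1 N q A (TB N A hℓ hℓN φ) ∧
        TB (N * q) A hℓ hℓN' (res2 N q A φ) = res2 N q A (TB N A hℓ hℓN φ) ∧
        TB N A hℓ hℓN (TB N A hq hqN φ) = TB N A hq hqN (TB N A hℓ hℓN φ)) ∧
      (∀ ψ : Additive (Gamma0 (N * q)) →+ A,
        cor1 N q A (TB (N * q) A hℓ hℓN' ψ) = TB N A hℓ hℓN (cor1 N q A ψ) ∧
        cor2 N q A (TB (N * q) A hℓ hℓN' ψ) = TB N A hℓ hℓN (cor2 N q A ψ))) ∧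
    (∀ (r : ℕ), r.Prime → ∀ (hrN : r ∣ N) (hrN' : r ∣ N * q),
      (∀ φ : Additive (Gamma0 N) →+ A,
        UB (N * q) A hrN' (res1 N q A φ) = res1 N q A (UB N A hrN φ) ∧
        UB (N * q) A hrN' (res2 N q A φ) = res2 N q A (UB N A hrN φ) ∧
        UB N A hrN (TB N A hq hqN φ) = TB N A hq hqN (UB N A hrN φ)) ∧
      (∀ ψ : Additive (Gamma0 (N * q)) →+ A,
        cor1 N q A (UB (N * q) A hrN' ψ) = UB N A hrN (cor1 N q A ψ) ∧
        cor2 N q A (UB (N * q) A hrN' ψ) = UB N A hrN (cor2 N q A ψ))) ∧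
    (∀ φ : Additive (Gamma0 N) →+ A, ModularCurve.Period.IsParabolicHom (Gamma0 N) φ →
      ModularCurve.Period.IsParabolicHom (Gamma0 (N * q)) (res1 N q A φ) ∧
      ModularCurve.Period.IsParabolicHom (Gamma0 (N * q)) (res2 N q A φ) ∧
      ModularCurve.Period.IsParabolicHom (Gamma0 N) (TB N A hq hqN φ)) ∧
    (∀ ψ : Additive (Gamma0 (N * q)) →+ A,
      ModularCurve.Period.IsParabolicHom (Gamma0 (N * q)) ψ →
      ModularCurve.Period.IsParabolicHom (Gamma0 N) (cor1 N q A ψ) ∧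
      ModularCurve.Period.IsParabolicHom (Gamma0 N) (cor2 N q A ψ))

/-- **IHARA2-k**: Ihara's lemma for two degeneracy maps over a field `k` of characteristic `p`,
in the form of `S41.Stmt_IHARA`, for ANY prime `q ∤ N` — `q = p` is allowed.
[Port of `S41.Ihara` (`H19_Ihara*`, `H37_Ihara*`) from `ZMod p` to `k`.  In the `S41` files
`q ≠ p` is used ONLY in `H19_IharaStep0.eigen_x2`, to see that `y := T_ℓ x₂ - a x₂` vanishes at
`[[1,1],[0,1]]`; this holds because `y` is cuspidal.] -/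
def Stmt_IHARA2k : Prop :=
  ∀ (k : Type) [Field k] (p : ℕ) [Fact p.Prime] [CharP k p], p ≠ 2 →
    ∀ (N q : ℕ), 0 < N → q.Prime → ¬ q ∣ N →
    ∀ (P : ℕ → Prop) (a : ℕ → k), (∀ ℓ, P ℓ → ℓ.Prime ∧ ¬ ℓ ∣ N * q ∧ ℓ ≠ p) →
    (∀ M : ℕ, 0 < M → p ∣ M →
      ∃ ℓ, P ℓ ∧ ℓ % M = 1 % M ∧ (q : ZMod ℓ) ^ ((ℓ - 1) / p) ≠ 1 ∧ a ℓ ≠ 2) →
    ∀ x₁ x₂ : Additive (Gamma0 N) →+ k,
    IsCuspidalHom (Gamma0 N) x₁ → IsCuspidalHom (Gamma0 N) x₂ →
    (∀ (ℓ : ℕ) (hℓ : ℓ.Prime) (hℓN : ¬ ℓ ∣ N), P ℓ → TB N k hℓ hℓN x₁ = a ℓ • x₁) →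
    res1 N q k x₁ + res2 N q k x₂ = 0 → x₁ = 0 ∧ x₂ = 0

/-- **CHEB-k at `p`** = `Geom.Stmt_CHEBk` (helper61) for `q = p`: the auxiliary primes
`ℓ ≡ 1 mod M` with `p` not a `p`-th power modulo `ℓ` and `θ(T_ℓ) ≠ 2`. -/
def Stmt_CHEBkp : Prop :=
  ∀ (𝒪 : Type) [CommRing 𝒪] [IsDomain 𝒪] [IsDiscreteValuationRing 𝒪]
    [Finite (ResidueField 𝒪)] (p : ℕ) [Fact p.Prime], p ≠ 2 → (p : 𝒪) ∈ maximalIdeal 𝒪 →
    ∀ (ρbar : ResidualGaloisRep (ResidueField 𝒪)) (Smin : Finset ℕ), ResHyp p ρbar Smin →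
    ∀ (N : ℕ) [NeZero N] (S : Finset ℕ)
      (θ : CuspForm.heckeAlgebra N 2 (↑S : Set ℕ) →+* ResidueField 𝒪),
    Fermat.Agent.S59.Datum.FrobHyp ρbar N S θ →
    ∀ (M : ℕ), 0 < M → p ∣ M → ∀ S' : Finset ℕ,
    ∃ (ℓ : ℕ) (hℓ : ℓ.Prime) (hℓN : ¬ ℓ ∣ N) (hℓS : ℓ ∉ (↑S : Set ℕ)), ℓ ∉ S' ∧
      ℓ % M = 1 % M ∧ (p : ZMod ℓ) ^ ((ℓ - 1) / p) ≠ 1 ∧
      θ (CuspForm.heckeAlgebra.T hℓ hℓN hℓS) ≠ 2

/-- **P-DUAL** (dual Ihara at `p`): `(cor1, cor2)` maps the Betti lattice of level `N p` onto the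
square of the Betti lattice of level `N`, modulo the maximal ideal.
[Mod `ϖ`: `S41.H94.BL` is perfect with `res_i ↔ cor_i` adjoint and `T_ℓ` self-adjoint; the
adjoint `(x₁, x₂) ↦ res1 x₁ + res2 x₂` is injective on the `θ`-part: its kernel is Hecke stable,
a common eigenvector has both components in the eigenspace, `Stmt_IHARA2k` + `Stmt_CHEBkp`;
projectors `e_r` (`Geom.Stmt_RELSPLIT`), lifting by `Betti.H77.stmt_torsLift`, as in
`Geom.Stmt_DUAL`.] -/
def Stmt_PDUAL : Prop :=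
  ∀ (𝒪 : Type) [CommRing 𝒪] [IsDomain 𝒪] [IsDiscreteValuationRing 𝒪]
    [IsAdicComplete (maximalIdeal 𝒪) 𝒪] [Finite (ResidueField 𝒪)] [CharZero 𝒪]
    (p : ℕ) [Fact p.Prime], p ≠ 2 → (p : 𝒪) ∈ maximalIdeal 𝒪 →
    ∀ (ρbar : ResidualGaloisRep (ResidueField 𝒪)) (Smin : Finset ℕ), ResHyp p ρbar Smin →
    ∀ (N₀ : ℕ) (Sig : Finset ℕ) (N : ℕ) [NeZero N] (S : Finset ℕ), GeomHyp p Smin N₀ Sig N S →
    ¬ p ∣ N →
    ∀ (θ : CuspForm.heckeAlgebra N 2 (↑S : Set ℕ) →+* ResidueField 𝒪),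
    Fermat.Agent.S59.Datum.FrobHyp ρbar N S θ →
    ∀ [NeZero (N * p)]
      (rest : CuspForm.heckeAlgebra (N * p) 2 (↑S : Set ℕ) →+*
        CuspForm.heckeAlgebra N 2 (↑S : Set ℕ)),
    (∀ (ℓ : ℕ) (hℓ : ℓ.Prime) (hℓN' : ¬ ℓ ∣ N * p) (hℓS : ℓ ∉ (↑S : Set ℕ)) (hℓN : ¬ ℓ ∣ N),
      rest (CuspForm.heckeAlgebra.T hℓ hℓN' hℓS) = CuspForm.heckeAlgebra.T hℓ hℓN hℓS) →
    ∀ φ₁ φ₂ : Additive (Gamma0 N) →+ 𝒪,
    InBetti 𝒪 N (↑S : Set ℕ) θ Sig φ₁ → InBetti 𝒪 N (↑S : Set ℕ) θ Sig φ₂ →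
      ∃ ψ : Additive (Gamma0 (N * p)) →+ 𝒪,
        InBetti 𝒪 (N * p) (↑S : Set ℕ) (θ.comp rest) Sig ψ ∧
        ∀ γ, (cor1 N p 𝒪 ψ - φ₁) γ ∈ maximalIdeal 𝒪 ∧ (cor2 N p 𝒪 ψ - φ₂) γ ∈ maximalIdeal 𝒪

/-! ## 5. The abstract package (pure algebra) -/

/-- The abstract data of two degeneracy maps at `p` between two Hecke modules `L` (level `N`) and
`L'` (level `N p`, the whole `θ`-part), with the relations of Betti cohomology (`Stmt_PREL`),
ordinarity (`T_p` invertible on `L`), Ihara's lemma and its dual. -/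
structure Deg2 (𝒪 : Type) [CommRing 𝒪] [IsLocalRing 𝒪] {H H' : Type} [CommRing H] [CommRing H']
    (rest : H' →+* H) (θ : H →+* ResidueField 𝒪) : Type 1 where
  /-- the module at the level `N` -/
  L : Type
  /-- the module at the level `N p` -/
  L' : Type
  [iL1 : AddCommGroup L]
  [iL2 : Module 𝒪 L]
  [iL3 : Module.Finite 𝒪 L]
  [iL4 : Module.Free 𝒪 L]
  [iL'1 : AddCommGroup L']
  [iL'2 : Module 𝒪 L']
  [iL'3 : Module.Finite 𝒪 L']
  [iL'4 : Module.Free 𝒪 L']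
  η : H →+* Module.End 𝒪 L
  η' : H' →+* Module.End 𝒪 L'
  η_local : ∀ (t : H) (a : 𝒪), residue 𝒪 a = θ t →
    ∃ m : ℕ, ∀ v : L, ((η t - a • (1 : Module.End 𝒪 L)) ^ m) v ∈
      (maximalIdeal 𝒪 • ⊤ : Submodule 𝒪 L)
  η'_local : ∀ (t : H') (a : 𝒪), residue 𝒪 a = θ (rest t) →
    ∃ m : ℕ, ∀ w : L', ((η' t - a • (1 : Module.End 𝒪 L')) ^ m) w ∈
      (maximalIdeal 𝒪 • ⊤ : Submodule 𝒪 L')
  /-- the prime `p` -/
  p : ℕ
  p_mem : (p : 𝒪) ∈ maximalIdeal 𝒪
  /-- `T_p` on `L` -/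
  Tp : Module.End 𝒪 L
  Tp_η : ∀ t : H, Commute Tp (η t)
  /-- ordinarity: `T_p` is invertible on `L` -/
  Tp_unit : IsUnit Tp
  /-- `U_p` on `L'` -/
  U : Module.End 𝒪 L'
  U_η' : ∀ t : H', Commute U (η' t)
  r₁ : L →ₗ[𝒪] L'
  r₂ : L →ₗ[𝒪] L'
  c₁ : L' →ₗ[𝒪] L
  c₂ : L' →ₗ[𝒪] L
  r₁_η : ∀ (t : H') (v : L), r₁ (η (rest t) v) = η' t (r₁ v)
  r₂_η : ∀ (t : H') (v : L), r₂ (η (rest t) v) = η' t (r₂ v)
  c₁_η : ∀ (t : H') (w : L'), c₁ (η' t w) = η (rest t) (c₁ w)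
  c₂_η : ∀ (t : H') (w : L'), c₂ (η' t w) = η (rest t) (c₂ w)
  R1a : ∀ v : L, U (r₁ v) = r₁ (Tp v) - r₂ v
  R1b : ∀ v : L, U (r₂ v) = p • r₁ v
  R2a : ∀ w : L', c₁ (U w) = p • c₂ w
  R2b : ∀ w : L', c₂ (U w) = Tp (c₂ w) - c₁ w
  R3a : ∀ v : L, c₁ (r₁ v) = (p + 1) • v
  R3b : ∀ v : L, c₂ (r₂ v) = (p + 1) • v
  R3c : ∀ v : L, c₁ (r₂ v) = Tp v
  R3d : ∀ v : L, c₂ (r₁ v) = Tp v
  /-- Ihara's lemma: `(v₁, v₂) ↦ r₁ v₁ + r₂ v₂` is injective modulo the maximal ideal -/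
  ihara : ∀ v₁ v₂ : L, r₁ v₁ + r₂ v₂ ∈ (maximalIdeal 𝒪 • ⊤ : Submodule 𝒪 L') →
    v₁ ∈ (maximalIdeal 𝒪 • ⊤ : Submodule 𝒪 L) ∧ v₂ ∈ (maximalIdeal 𝒪 • ⊤ : Submodule 𝒪 L)
  /-- dual Ihara: `(c₁, c₂)` is surjective modulo the maximal ideal -/
  dual : ∀ v₁ v₂ : L, ∃ w : L', c₁ w - v₁ ∈ (maximalIdeal 𝒪 • ⊤ : Submodule 𝒪 L) ∧
    c₂ w - v₂ ∈ (maximalIdeal 𝒪 • ⊤ : Submodule 𝒪 L)

attribute [instance] Deg2.iL1 Deg2.iL2 Deg2.iL3 Deg2.iL4 Deg2.iL'1 Deg2.iL'2 Deg2.iL'3 Deg2.iL'4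

/-- The output of the algebra: the unit root `Uu` of `X² - T_p X + p` on `L`, the `U_p`-ordinary
part `V = ⋂ Uⁿ L' ⊆ L'` with its Hecke action, the maps `α = r₁ - r₂ Uu⁻¹ : L → V`,
`α' = c₂ - Uu⁻¹ c₁ : V → L` and their properties. -/
structure Deg2Out {𝒪 : Type} [CommRing 𝒪] [IsLocalRing 𝒪] {H H' : Type} [CommRing H]
    [CommRing H'] {rest : H' →+* H} {θ : H →+* ResidueField 𝒪} (D : Deg2 𝒪 rest θ) :
    Type 1 where
  V : Type
  [iV1 : AddCommGroup V]
  [iV2 : Module 𝒪 V]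
  [iV3 : Module.Finite 𝒪 V]
  [iV4 : Module.Free 𝒪 V]
  ι : V →ₗ[𝒪] D.L'
  ι_inj : Function.Injective ι
  /-- `V` is the ordinary part -/
  range_ι : ∀ w : D.L', w ∈ Set.range ι ↔ ∀ n : ℕ, ∃ w' : D.L', (D.U ^ n) w' = w
  η'' : H' →+* Module.End 𝒪 V
  ι_η : ∀ (t : H') (v : V), ι (η'' t v) = D.η' t (ι v)
  η''_local : ∀ (t : H') (a : 𝒪), residue 𝒪 a = θ (rest t) →
    ∃ m : ℕ, ∀ v : V, ((η'' t - a • (1 : Module.End 𝒪 V)) ^ m) v ∈
      (maximalIdeal 𝒪 • ⊤ : Submodule 𝒪 V)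
  /-- the unit root of `X² - T_p X + p` and its inverse -/
  Uu : Module.End 𝒪 D.L
  Ui : Module.End 𝒪 D.L
  Uu_Ui : Uu * Ui = 1
  Ui_Uu : Ui * Uu = 1
  Uu_root : Uu * Uu - D.Tp * Uu + (D.p : 𝒪) • (1 : Module.End 𝒪 D.L) = 0
  /-- `Uu` commutes with everything that commutes with `T_p` -/
  Uu_comm : ∀ X : Module.End 𝒪 D.L, Commute X D.Tp → Commute X Uu
  α : D.L →ₗ[𝒪] V
  α' : V →ₗ[𝒪] D.L
  ι_α : ∀ v : D.L, ι (α v) = D.r₁ v - D.r₂ (Ui v)
  α'_eq : ∀ w : V, α' w = D.c₂ (ι w) - Ui (D.c₁ (ι w))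
  α_η : ∀ (t : H') (v : D.L), α (D.η (rest t) v) = η'' t (α v)
  α'_η : ∀ (t : H') (w : V), α' (η'' t w) = D.η (rest t) (α' w)
  α_inj : Function.Injective α
  α_sat : ∀ (a : 𝒪) (w : V), a ≠ 0 → a • w ∈ LinearMap.range α → w ∈ LinearMap.range α
  α'_surj : Function.Surjective α'
  /-- `α' α = Uu⁻¹ (1 - p Uu⁻²) (Uu² - 1)` -/
  comp : ∀ v : D.L, α' (α v) =
    Ui (Uu (Uu v) - v) - (D.p : 𝒪) • Ui (Ui (Ui (Uu (Uu v) - v)))

/-- **P-ALG** (pure algebra, Mathlib only).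
Proof: `Uu := lim uₙ`, `u₀ = T_p`, `uₙ₊₁ = T_p - p uₙ⁻¹` (`End L` is `p`-adically complete, `T_p`
a unit); Fitting decomposition `L' = V ⊕ L'_nil` for `U` (`V = ⋂ Uⁿ L'`, a direct summand);
`U (r₁ - r₂ Ui) = (r₁ - r₂ Ui) Uu` by `R1` and `Uu = T_p - p Ui`, so `α` lands in `V`;
`(c₂ - Ui c₁) U = Uu (c₂ - Ui c₁)` by `R2`, so `c₂ - Ui c₁` kills `L'_nil`, and it is onto by
`dual` + Nakayama: `α'` is onto; `α` is injective with saturated image by `ihara` (as in
`Geom.Stmt_ALG`); `comp` by `R3`. -/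
def Stmt_PALG : Prop :=
  ∀ (𝒪 : Type) [CommRing 𝒪] [IsDomain 𝒪] [IsDiscreteValuationRing 𝒪]
    [IsAdicComplete (maximalIdeal 𝒪) 𝒪]
    {H H' : Type} [CommRing H] [CommRing H'] (rest : H' →+* H) (θ : H →+* ResidueField 𝒪)
    (D : Deg2 𝒪 rest θ), Nonempty (Deg2Out D)

/-! ## 6. Ordinarity, the link with the Galois side, multiplicity one -/

/-- **P-ORD**: `T_p` is invertible on the Betti lattice of a state of level prime to `p`, if
`ρbar` is ordinary (and flat) at `p`.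
[Every eigenvalue of `T_p` on `L ⊗ K̄` is `x̃(T_p)` for a character `x̃` of the Hecke algebra away
from `S ∖ {p}` (`Betti.H76.heckeRho`); `Datum.stmt_DATUM` + `CaseC.Stmt_ORDT` give an ordinary
`ρ` at the point, `Stmt_LGCpt`: `x̃(T_p) = z + p z⁻¹` is a unit; so `det T_p` is a unit.] -/
def Stmt_PORD : Prop :=
  ∀ (𝒪 : Type) [CommRing 𝒪] [IsDomain 𝒪] [IsDiscreteValuationRing 𝒪]
    [IsAdicComplete (maximalIdeal 𝒪) 𝒪] [Finite (ResidueField 𝒪)] [CharZero 𝒪]
    (p : ℕ) [Fact p.Prime], p ≠ 2 → (p : 𝒪) ∈ maximalIdeal 𝒪 →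
    ∀ (ρbar : ResidualGaloisRep (ResidueField 𝒪)) (Smin : Finset ℕ), ResHyp p ρbar Smin →
    cond 𝒪 p true Smin ∅ (GaloisRepAdic.ofResidualGaloisRep ρbar) →
    (GaloisRepAdic.ofResidualGaloisRep ρbar).IsOrdinaryAt p →
    ∀ (N₀ : ℕ) (Sig : Finset ℕ) (N : ℕ) [NeZero N] [Fact (CuspForm.HasIntegralStructure N 2)]
      (S : Finset ℕ), GeomHyp p Smin N₀ Sig N S →
    ∀ (θ : CuspForm.heckeAlgebra N 2 (↑S : Set ℕ) →+* ResidueField 𝒪),
    Fermat.Agent.S59.Datum.FrobHyp ρbar N S θ →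
    ∀ (hp : p.Prime) (hpN : ¬ p ∣ N) (φ : Additive (Gamma0 N) →+ 𝒪),
    InBetti 𝒪 N (↑S : Set ℕ) θ Sig φ →
      ∃ φ' : Additive (Gamma0 N) →+ 𝒪, InBetti 𝒪 N (↑S : Set ℕ) θ Sig φ' ∧
        TB N 𝒪 hp hpN φ' = φ

/-- **P-LINK** (module form of local–global compatibility at `p`, pointwise): on the eigenspace
of a point `πx` the Betti operator `T_p` is the scalar `z + p z⁻¹`, `z = πx` of the eigenvalue of
Frobenius on the unramified quotient.
[The minimal polynomial of `T_p` on the eigenspace: each root `b` gives a character `x̃` of the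
Hecke algebra away from `S ∖ {p}` with `x̃(T_p) = b` extending the point (`Betti.H76.heckeRho`),
over the integers of `K(b)`; `Stmt_LGCpt` for the base change of `H.ρ` along `πx`: `b = z + p/z`;
`T_p` is semisimple because the Hecke algebra away from `S ∖ {p}` is reduced
(`R.Pet.H98.stmt_HeckeReduced`).] -/
def Stmt_PLINK : Prop :=
  ∀ (𝒪 : Type) [CommRing 𝒪] [IsDomain 𝒪] [IsDiscreteValuationRing 𝒪]
    [IsAdicComplete (maximalIdeal 𝒪) 𝒪] [Finite (ResidueField 𝒪)] [CharZero 𝒪]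
    (p : ℕ) [Fact p.Prime], p ≠ 2 → (p : 𝒪) ∈ maximalIdeal 𝒪 →
    ∀ (ρbar : ResidualGaloisRep (ResidueField 𝒪)) (Smin : Finset ℕ), ResHyp p ρbar Smin →
    ∀ (N₀ : ℕ) (Sig : Finset ℕ) (s : NMState 𝒪) [Fact (CuspForm.HasIntegralStructure s.N 2)],
    GeomHyp p Smin N₀ Sig s.N s.S →
    Fermat.Agent.S59.Datum.FrobHyp ρbar s.N s.S s.θ →
    ∀ (hp : p.Prime) (hpN : ¬ p ∣ s.N)
      (ι : s.M.V →ₗ[𝒪] (Additive (Gamma0 s.N) →+ 𝒪)), Function.Injective ι →
    (∀ φ, φ ∈ Set.range ι ↔ InBetti 𝒪 s.N (↑s.S : Set ℕ) s.θ Sig φ) →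
    (∀ (ℓ : ℕ) (hℓ : ℓ.Prime) (hℓN : ¬ ℓ ∣ s.N) (hℓS : ℓ ∉ (↑s.S : Set ℕ)) (v : s.M.V),
      ι (s.M.η (CuspForm.heckeAlgebra.T hℓ hℓN hℓS) v) = TB s.N 𝒪 hℓ hℓN (ι v)) →
    ∀ (H : CuspForm.HeckeGaloisRepDatum s.N (↑s.S : Set ℕ) 𝒪 s.θ
          (CuspForm.heckeLocal s.N (↑s.S : Set ℕ) 𝒪 s.θ))
      (ηhat : CuspForm.heckeLocal s.N (↑s.S : Set ℕ) 𝒪 s.θ →ₐ[𝒪] Module.End 𝒪 s.M.V),
      H.π = CuspForm.heckeLocal.π s.N (↑s.S : Set ℕ) 𝒪 s.θ →
      (∀ t, ηhat (CuspForm.heckeLocal.π s.N (↑s.S : Set ℕ) 𝒪 s.θ t) = s.M.η t) →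
      H.ρ.DetIsCyclotomic p →
      H.ρ.residual.IsEquiv (ρbar.baseChangeAlong
        (ResidueField.map (algebraMap 𝒪 (CuspForm.heckeLocal s.N (↑s.S : Set ℕ) 𝒪 s.θ)))) →
      ∀ (P : ValuationSubring (AlgebraicClosure ℚ)), P.LiesOverPrime p →
      ∀ (ℒ : OrdLine H.ρ P) (g : Γℚ), P.IsFrobeniusAt g p →
      ∀ z : CuspForm.heckeLocal s.N (↑s.S : Set ℕ) 𝒪 s.θ, ℒ.IsQuotEigen g z →
      ∀ (πx : CuspForm.heckeLocal s.N (↑s.S : Set ℕ) 𝒪 s.θ →ₐ[𝒪] 𝒪) (v : s.M.V),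
        (∀ t, ηhat t v = πx t • v) →
        πx z • TB s.N 𝒪 hp hpN (ι v) = (πx z ^ 2 + (p : 𝒪)) • ι v

/-- **P-RANK** (multiplicity one at `p`): the eigenspaces do not grow from `L` (level `N`) to the
`U_p`-ordinary part `M'` of level `N p`.
[`rank M'[x ∘ rest] = 2 dim E'`, `E' ⊆ S₂(Γ₀(N p))` the forms with the eigenvalues `x(T_ℓ)`
(`ℓ ∉ S`), killed by `U_r` (`r ∈ Sig`), in the ordinary part of `U_p`; no `p`-new form has the
system `x` (`R.H99.smo`: it would be a newform of a level divisible by `p` with the eigenvalues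
of a form of level prime to `p`), so `E' ⊆ E ⊕ V_p E`, where `U_p` has the matrix
`[[a_p, p], [-1, 0]]`: eigenvalues `u` (unit) and `p / u`; the ordinary part is one copy of
`E`.  helper27 (RANK sub-planner): same tools as `Geom.Stmt_RANK`.] -/
def Stmt_PRANK : Prop :=
  ∀ (𝒪 : Type) [CommRing 𝒪] [IsDomain 𝒪] [IsDiscreteValuationRing 𝒪]
    [IsAdicComplete (maximalIdeal 𝒪) 𝒪] [Finite (ResidueField 𝒪)] [CharZero 𝒪]
    (p : ℕ) [Fact p.Prime], p ≠ 2 → (p : 𝒪) ∈ maximalIdeal 𝒪 →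
    ∀ (ρbar : ResidualGaloisRep (ResidueField 𝒪)) (Smin : Finset ℕ), ResHyp p ρbar Smin →
    ∀ (N₀ : ℕ) (Sig : Finset ℕ) (s : NMState 𝒪), GeomHyp p Smin N₀ Sig s.N s.S →
    Fermat.Agent.S59.Datum.FrobHyp ρbar s.N s.S s.θ → IsBetti s Sig → ¬ p ∣ s.N →
    ∀ [NeZero (s.N * p)] (hd : p ∣ s.N * p)
      (rest : CuspForm.heckeAlgebra (s.N * p) 2 (↑s.S : Set ℕ) →+*
        CuspForm.heckeAlgebra s.N 2 (↑s.S : Set ℕ)),
    (∀ (ℓ : ℕ) (hℓ : ℓ.Prime) (hℓN' : ¬ ℓ ∣ s.N * p) (hℓS : ℓ ∉ (↑s.S : Set ℕ))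
      (hℓN : ¬ ℓ ∣ s.N),
      rest (CuspForm.heckeAlgebra.T hℓ hℓN' hℓS) = CuspForm.heckeAlgebra.T hℓ hℓN hℓS) →
    ∀ (M' : HMod 𝒪 (s.N * p) (↑s.S : Set ℕ) (s.θ.comp rest))
      (ι' : M'.V →ₗ[𝒪] (Additive (Gamma0 (s.N * p)) →+ 𝒪)), Function.Injective ι' →
    (∀ ψ, ψ ∈ Set.range ι' ↔
      (InBetti 𝒪 (s.N * p) (↑s.S : Set ℕ) (s.θ.comp rest) Sig ψ ∧
        ∀ n : ℕ, ∃ ψ', InBetti 𝒪 (s.N * p) (↑s.S : Set ℕ) (s.θ.comp rest) Sig ψ' ∧
          (UB (s.N * p) 𝒪 hd)^[n] ψ' = ψ)) →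
    (∀ (ℓ : ℕ) (hℓ : ℓ.Prime) (hℓN' : ¬ ℓ ∣ s.N * p) (hℓS : ℓ ∉ (↑s.S : Set ℕ)) (w : M'.V),
      ι' (M'.η (CuspForm.heckeAlgebra.T hℓ hℓN' hℓS) w) = TB (s.N * p) 𝒪 hℓ hℓN' (ι' w)) →
    ∀ (x : CuspForm.heckeAlgebra s.N 2 (↑s.S : Set ℕ) →+* 𝒪),
    (∀ t, residue 𝒪 (x t) = s.θ t) →
    Module.finrank 𝒪 ↥(NMState.eigen (⟨s.N * p, s.S, s.θ.comp rest, M'⟩ : NMState 𝒪)
      (x.comp rest)) ≤ Module.finrank 𝒪 ↥(s.eigen x)

/-! ## 7. The assembly -/

/-- **P-ASM**: the assembly of the step at `p`.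
[`rest`: as `Asm.H41.rest` (same `S`); `L := s.M` (`IsBetti`), `L'` := the lattice of
`Geom.Stmt_BM` at `(N p, S, θ ∘ rest, Sig)`; the operators of `Stmt_PREL`, `Stmt_PRELT` restricted
to the lattices; `Tp_unit` from `Stmt_PORD`; `ihara` from `Stmt_IHARA2k` + `Stmt_CHEBkp` (a common
eigenvector, over a finite extension of `k`, in the kernel mod `ϖ`); `dual` from `Stmt_PDUAL`;
`Stmt_PALG`; `M' := V`, `rank` from `Stmt_PRANK`;
`c := Ui (1 - p Ui²)(Uu² - 1)`; at a point: `T_p = z + p z⁻¹` on the eigenspace (`Stmt_PLINK`),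
so `(Uu - z)(Uu - p z⁻¹) = 0` there and `Uu - p z⁻¹` is invertible: `Uu = z`,
`c = z⁻¹ (1 - p z⁻²)(z² - 1)`.] -/
def Stmt_PASM : Prop :=
  Geom.Stmt_BM → Stmt_PREL → Stmt_PRELT → Stmt_IHARA2k → Stmt_CHEBkp → Stmt_PDUAL →
    Stmt_PALG → Stmt_PORD → Stmt_PLINK → Stmt_PRANK → Stmt_PSTEPB

end Fermat.Agent.S59.CaseC.Geom

end
-- ==== END Fermat.Agent.S59.CaseC.Geom.Defs

-- ==== BEGIN Fermat.Agent.S59.CaseC.Geom.H13_PDeg2Abs
section

/-!
# S59 / case C / PGEOM, leaf P-DEG2 (helper13): abstract tools (Mathlib only)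

* `liftL`, `liftL_spec` : the lift of a linear map along two embeddings;
* `intertwine_of_gen`, `intertwine_of_gen'`, `commute_of_gen` : a linear map which intertwines
  the generators of a `ℤ`-algebra intertwines the whole algebra;
* `prod_mem_smul_top_iff` : `I • ⊤` in a product;
* `isUnit_of_surjective` : a surjective endomorphism of a finite module is a unit;
* `charP_residue` : the characteristic of the residue field.
-/

set_option autoImplicit false

open IsLocalRing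

namespace Fermat.Agent.S59.CaseC.Geom.H13

section Lift

variable {𝒪 : Type*} [CommRing 𝒪] {V V' X X' : Type*} [AddCommGroup V] [Module 𝒪 V]
  [AddCommGroup V'] [Module 𝒪 V'] [AddCommGroup X] [Module 𝒪 X] [AddCommGroup X'] [Module 𝒪 X']

/-- The lift of `Φ : X → X'` to `V → V'` along `ι : V → X` and an injective `ι' : V' → X'`. -/
noncomputable def liftL (ι : V →ₗ[𝒪] X) (ι' : V' →ₗ[𝒪] X') (hι' : Function.Injective ι')
    (Φ : X →ₗ[𝒪] X') (h : ∀ v, Φ (ι v) ∈ LinearMap.range ι') : V →ₗ[𝒪] V' :=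
  ((LinearEquiv.ofInjective ι' hι').symm : LinearMap.range ι' →ₗ[𝒪] V').comp
    ((Φ.comp ι).codRestrict (LinearMap.range ι') h)

theorem liftL_spec (ι : V →ₗ[𝒪] X) (ι' : V' →ₗ[𝒪] X') (hι' : Function.Injective ι')
    (Φ : X →ₗ[𝒪] X') (h : ∀ v, Φ (ι v) ∈ LinearMap.range ι') (v : V) :
    ι' (liftL ι ι' hι' Φ h v) = Φ (ι v) := by
  unfold liftL
  rw [LinearMap.comp_apply]
  exact LinearEquiv.ofInjective_symm_apply ι' _

end Lift

section Gen

variable {𝒪 : Type*} [CommRing 𝒪] {V V' : Type*} [AddCommGroup V] [Module 𝒪 V]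
  [AddCommGroup V'] [Module 𝒪 V'] {H H' : Type*} [CommRing H] [CommRing H']

theorem intCast_end_apply (n : ℤ) (v : V) : ((n : Module.End 𝒪 V)) v = n • v := by
  rw [← zsmul_one, LinearMap.smul_apply, Module.End.one_apply]

/-- A linear map which intertwines the generators intertwines the algebra. -/
theorem intertwine_of_gen (rest : H' →+* H) {G : Set H'} (hG : Algebra.adjoin ℤ G = ⊤)
    (η : H →+* Module.End 𝒪 V) (η' : H' →+* Module.End 𝒪 V') (f : V →ₗ[𝒪] V')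
    (h : ∀ g ∈ G, ∀ v, f (η (rest g) v) = η' g (f v)) (t : H') :
    ∀ v : V, f (η (rest t) v) = η' t (f v) := by
  have ht : t ∈ Algebra.adjoin ℤ G := by rw [hG]; exact Algebra.mem_top
  induction ht using Algebra.adjoin_induction with
  | mem x hx => exact h x hx
  | algebraMap n =>
    intro v
    rw [eq_intCast (algebraMap ℤ H') n, map_intCast, map_intCast, map_intCast,
      intCast_end_apply, intCast_end_apply, map_zsmul]
  | add x y _ _ hx hy =>
    intro v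
    rw [map_add, map_add, LinearMap.add_apply, map_add, hx, hy, map_add, LinearMap.add_apply]
  | mul x y _ _ hx hy =>
    intro v
    rw [map_mul, map_mul, Module.End.mul_apply, hx, hy, map_mul, Module.End.mul_apply]

/-- The same in the other direction. -/
theorem intertwine_of_gen' (rest : H' →+* H) {G : Set H'} (hG : Algebra.adjoin ℤ G = ⊤)
    (η : H →+* Module.End 𝒪 V) (η' : H' →+* Module.End 𝒪 V') (f : V' →ₗ[𝒪] V)
    (h : ∀ g ∈ G, ∀ w, f (η' g w) = η (rest g) (f w)) (t : H') :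
    ∀ w : V', f (η' t w) = η (rest t) (f w) := by
  have ht : t ∈ Algebra.adjoin ℤ G := by rw [hG]; exact Algebra.mem_top
  induction ht using Algebra.adjoin_induction with
  | mem x hx => exact h x hx
  | algebraMap n =>
    intro w
    rw [eq_intCast (algebraMap ℤ H') n, map_intCast, map_intCast, map_intCast,
      intCast_end_apply, intCast_end_apply, map_zsmul]
  | add x y _ _ hx hy =>
    intro w
    rw [map_add, map_add, LinearMap.add_apply, map_add, hx, hy, map_add, LinearMap.add_apply]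
  | mul x y _ _ hx hy =>
    intro w
    rw [map_mul, map_mul, Module.End.mul_apply, hx, hy, map_mul, Module.End.mul_apply]

/-- An endomorphism which commutes with the generators commutes with the algebra. -/
theorem commute_of_gen (η : H →+* Module.End 𝒪 V) (f : Module.End 𝒪 V) {G : Set H}
    (hG : Algebra.adjoin ℤ G = ⊤)
    (h : ∀ g ∈ G, ∀ v, f (η g v) = η g (f v)) (t : H) : Commute f (η t) := by
  have := intertwine_of_gen (RingHom.id H) hG η η f h t
  exact LinearMap.ext this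

end Gen

section Misc

variable {𝒪 : Type*} [CommRing 𝒪]

theorem prod_mem_smul_top_iff (I : Ideal 𝒪) {V V' : Type*} [AddCommGroup V] [Module 𝒪 V]
    [AddCommGroup V'] [Module 𝒪 V'] (x : V) (y : V') :
    ((x, y) : V × V') ∈ (I • ⊤ : Submodule 𝒪 (V × V')) ↔
      x ∈ (I • ⊤ : Submodule 𝒪 V) ∧ y ∈ (I • ⊤ : Submodule 𝒪 V') := by
  constructor
  · intro h
    exact ⟨Submodule.smul_top_le_comap_smul_top I (LinearMap.fst 𝒪 V V') h,
      Submodule.smul_top_le_comap_smul_top I (LinearMap.snd 𝒪 V V') h⟩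
  · rintro ⟨hx, hy⟩
    have h1 : ((x, y) : V × V') = LinearMap.inl 𝒪 V V' x + LinearMap.inr 𝒪 V V' y := by
      simp
    rw [h1]
    exact Submodule.add_mem _
      (Submodule.smul_top_le_comap_smul_top I (LinearMap.inl 𝒪 V V') hx)
      (Submodule.smul_top_le_comap_smul_top I (LinearMap.inr 𝒪 V V') hy)

theorem isUnit_of_surjective {V : Type*} [AddCommGroup V] [Module 𝒪 V] [Module.Finite 𝒪 V]
    (f : Module.End 𝒪 V) (h : Function.Surjective f) : IsUnit f :=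
  (Module.End.isUnit_iff f).2 ⟨OrzechProperty.injective_of_surjective_endomorphism f h, h⟩

theorem prodMap_pow_apply {V : Type*} [AddCommGroup V] [Module 𝒪 V] (D : Module.End 𝒪 V)
    (m : ℕ) (w : V × V) :
    ((LinearMap.prodMap D D : Module.End 𝒪 (V × V)) ^ m) w = ((D ^ m) w.1, (D ^ m) w.2) := by
  induction m generalizing w with
  | zero => rfl
  | succ m ih =>
    rw [pow_succ, Module.End.mul_apply, ih, pow_succ, Module.End.mul_apply,
      Module.End.mul_apply]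
    rfl

theorem charP_residue [IsLocalRing 𝒪] {p : ℕ} (hp : p.Prime)
    (h : (p : 𝒪) ∈ maximalIdeal 𝒪) : CharP (ResidueField 𝒪) p := by
  apply ringChar.of_eq
  apply CharP.ringChar_of_prime_eq_zero hp
  have h1 : residue 𝒪 (p : 𝒪) = 0 := (residue_eq_zero_iff _).2 h
  rwa [map_natCast] at h1

end Misc

end Fermat.Agent.S59.CaseC.Geom.H13

end
-- ==== END Fermat.Agent.S59.CaseC.Geom.H13_PDeg2Abs

-- ==== BEGIN Fermat.Agent.S59.CaseC.Geom.H34_Fitting
section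

set_option autoImplicit false
set_option linter.style.haveILetI false
set_option linter.unusedSectionVars false
set_option linter.unusedSimpArgs false

namespace Fermat.Agent.S59.CaseC.Geom.H34

open IsLocalRing Polynomial

/-- Pure commutative algebra: from `x ^ a = x ^ (a + 1) * b`, an idempotent. -/
theorem idem_of_stab {R : Type*} [CommRing R] (x b : R) (a : ℕ) (h : x ^ a = x ^ (a + 1) * b) :
    (x ^ a * b ^ a) * (x ^ a * b ^ a) = x ^ a * b ^ a ∧ x ^ a * (1 - x ^ a * b ^ a) = 0 ∧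
    x ^ a * b ^ a = x * (x ^ a * b ^ (a + 1)) := by
  have h1 : ∀ k : ℕ, x ^ a = x ^ (a + k) * b ^ k := by
    intro k
    induction k with
    | zero => simp
    | succ k ih =>
      calc x ^ a = x ^ (a + k) * b ^ k := ih
        _ = x ^ k * b ^ k * x ^ a := by ring
        _ = x ^ k * b ^ k * (x ^ (a + 1) * b) := by rw [← h]
        _ = x ^ (a + (k + 1)) * b ^ (k + 1) := by ring
  have h2 := h1 a
  refine ⟨?_, ?_, ?_⟩
  · calc x ^ a * b ^ a * (x ^ a * b ^ a) = (x ^ (a + a) * b ^ a) * b ^ a := by ring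
      _ = x ^ a * b ^ a := by rw [← h2]
  · calc x ^ a * (1 - x ^ a * b ^ a) = x ^ a - x ^ (a + a) * b ^ a := by ring
      _ = 0 := by rw [← h2, sub_self]
  · calc x ^ a * b ^ a = (x ^ (a + 1) * b) * b ^ a := by rw [← h]
      _ = _ := by ring

section CommB

variable {𝒪 : Type} [CommRing 𝒪] [IsDomain 𝒪] [IsDiscreteValuationRing 𝒪]
  [IsAdicComplete (maximalIdeal 𝒪) 𝒪]
variable (B : Type) [CommRing B] [Algebra 𝒪 B]

/-- The ideal `𝔪 B`. -/
abbrev JB : Ideal B := (maximalIdeal 𝒪).map (algebraMap 𝒪 B)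

omit [IsAdicComplete (maximalIdeal 𝒪) 𝒪] in
theorem mem_JB_iff {B : Type} [CommRing B] [Algebra 𝒪 B] {ϖ : 𝒪}
    (hϖ : maximalIdeal 𝒪 = Ideal.span {ϖ}) (x : B) :
    x ∈ JB (𝒪 := 𝒪) B ↔ ∃ y : B, x = ϖ • y := by
  unfold JB
  rw [hϖ, Ideal.map_span, Set.image_singleton, Ideal.mem_span_singleton']
  constructor
  · rintro ⟨y, rfl⟩
    exact ⟨y, by rw [Algebra.smul_def, mul_comm]⟩
  · rintro ⟨y, rfl⟩
    exact ⟨y, by rw [Algebra.smul_def, mul_comm]⟩

variable [Module.Finite 𝒪 B]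

theorem isAdicComplete_JB : IsAdicComplete (JB (𝒪 := 𝒪) B) B :=
  (IsAdicComplete.map_algebraMap_iff (maximalIdeal 𝒪) B).2
    (IsAdicComplete.of_module_finite (maximalIdeal 𝒪) B)

theorem henselian_JB : HenselianRing B (JB (𝒪 := 𝒪) B) :=
  haveI := isAdicComplete_JB (𝒪 := 𝒪) B
  inferInstance

variable {B}

/-- An element congruent to a unit modulo `𝔪 B` is a unit. -/
theorem isUnit_of_sub_mem_JB {u t : B} (ht : IsUnit t) (h : u - t ∈ JB (𝒪 := 𝒪) B) : IsUnit u := by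
  haveI := henselian_JB (𝒪 := 𝒪) B
  haveI := isLocalHom_of_le_jacobson_bot (JB (𝒪 := 𝒪) B) HenselianRing.jac
  apply isUnit_of_map_unit (Ideal.Quotient.mk (JB (𝒪 := 𝒪) B))
  have : Ideal.Quotient.mk (JB (𝒪 := 𝒪) B) u = Ideal.Quotient.mk (JB (𝒪 := 𝒪) B) t :=
    Ideal.Quotient.eq.2 h
  rw [this]
  exact ht.map _


/-- The unit root of `X² - t X + p`. -/
theorem exists_unit_root (t : B) (ht : IsUnit t) (p : 𝒪) (hp : p ∈ maximalIdeal 𝒪) :
    ∃ u : B, IsUnit u ∧ u * u - t * u + algebraMap 𝒪 B p = 0 := by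
  haveI := henselian_JB (𝒪 := 𝒪) B
  have hpJ : algebraMap 𝒪 B p ∈ JB (𝒪 := 𝒪) B := Ideal.mem_map_of_mem _ hp
  let f : B[X] := X ^ 2 - C t * X + C (algebraMap 𝒪 B p)
  have hf : f.Monic := by
    have h1 : (X ^ 2 - C t * X + C (algebraMap 𝒪 B p) : B[X]) =
        X ^ 2 + (C (-t) * X + C (algebraMap 𝒪 B p)) := by
      rw [C_neg]; ring
    show (X ^ 2 - C t * X + C (algebraMap 𝒪 B p) : B[X]).Monic
    rw [h1]
    refine Polynomial.monic_X_pow_add ?_
    refine lt_of_le_of_lt (Polynomial.degree_linear_le) ?_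
    norm_num
  have h1 : f.eval t ∈ JB (𝒪 := 𝒪) B := by
    have : f.eval t = algebraMap 𝒪 B p := by
      simp only [f, eval_add, eval_sub, eval_pow, eval_X, eval_mul, eval_C]
      ring
    rw [this]
    exact hpJ
  have h2 : IsUnit (Ideal.Quotient.mk (JB (𝒪 := 𝒪) B) (f.derivative.eval t)) := by
    have : f.derivative.eval t = t := by
      simp only [f, derivative_add, derivative_sub, derivative_X_pow, derivative_mul,
        derivative_C, derivative_X, eval_add, eval_sub, eval_pow, eval_X, eval_mul, eval_C,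
        zero_mul, zero_add, mul_one, eval_zero, add_zero, Nat.cast_ofNat]
      simp
      ring
    rw [this]
    exact ht.map _
  obtain ⟨u, hu, hut⟩ := HenselianRing.is_henselian f hf t h1 h2
  refine ⟨u, isUnit_of_sub_mem_JB ht hut, ?_⟩
  have := hu
  simp only [f, IsRoot.def, eval_add, eval_sub, eval_pow, eval_X, eval_mul, eval_C] at this
  rw [← this]
  ring

/-- Stabilisation of the powers of `r` modulo `𝔪 B`. -/
theorem exists_stab (r : B) : ∃ (a : ℕ) (b : B), r ^ a - r ^ (a + 1) * b ∈ JB (𝒪 := 𝒪) B := by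
  obtain ⟨χ, hχ, hχr⟩ : IsIntegral 𝒪 r := IsIntegral.of_finite 𝒪 r
  let J : Ideal B := JB (𝒪 := 𝒪) B
  let f₀ : ResidueField 𝒪 →+* B ⧸ J :=
    Ideal.Quotient.lift (maximalIdeal 𝒪) ((Ideal.Quotient.mk J).comp (algebraMap 𝒪 B))
      (fun a ha => Ideal.Quotient.eq_zero_iff_mem.2 (Ideal.mem_map_of_mem _ ha))
  have hf₀ : f₀.comp (residue 𝒪) = (Ideal.Quotient.mk J).comp (algebraMap 𝒪 B) := by
    ext x
    rfl
  set x : B ⧸ J := Ideal.Quotient.mk J r with hx
  have h0 : (χ.map (residue 𝒪)).eval₂ f₀ x = 0 := by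
    rw [Polynomial.eval₂_map, hf₀, hx, ← Polynomial.hom_eval₂, hχr, map_zero]
  have hne : χ.map (residue 𝒪) ≠ 0 := (hχ.map _).ne_zero
  obtain ⟨g, hg, hnd⟩ := exists_eq_pow_rootMultiplicity_mul_and_not_dvd (χ.map (residue 𝒪)) hne 0
  set a := rootMultiplicity 0 (χ.map (residue 𝒪)) with ha
  rw [C_0, sub_zero] at hg hnd
  have hc : g.coeff 0 ≠ 0 := fun h => hnd (Polynomial.X_dvd_iff.2 h)
  have hg2 : g = divX g * X + C (g.coeff 0) := (Polynomial.divX_mul_X_add g).symm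
  rw [hg, eval₂_mul, eval₂_pow, eval₂_X, hg2, eval₂_add, eval₂_mul, eval₂_X, eval₂_C] at h0
  set h := (divX g).eval₂ f₀ x with hh
  have hcc : f₀ (g.coeff 0) * f₀ (g.coeff 0)⁻¹ = 1 := by
    rw [← map_mul, mul_inv_cancel₀ hc, map_one]
  have key : x ^ a = x ^ (a + 1) * (-(h * f₀ (g.coeff 0)⁻¹)) := by
    have e1 : x ^ a * f₀ (g.coeff 0) = -(x ^ (a + 1) * h) := by
      linear_combination h0
    calc x ^ a = x ^ a * f₀ (g.coeff 0) * f₀ (g.coeff 0)⁻¹ := by
          rw [mul_assoc, hcc, mul_one]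
      _ = _ := by rw [e1]; ring
  obtain ⟨b, hb⟩ := Ideal.Quotient.mk_surjective (-(h * f₀ (g.coeff 0)⁻¹))
  refine ⟨a, b, ?_⟩
  rw [← Ideal.Quotient.eq_zero_iff_mem, map_sub, map_mul, map_pow, map_pow, hb, ← hx, ← key,
    sub_self]

/-- The Fitting idempotent of `r`. -/
theorem exists_fitting_idem (r : B) : ∃ (e w : B) (n : ℕ), e * e = e ∧ e * r * w = e ∧
    r ^ n * (1 - e) ∈ JB (𝒪 := 𝒪) B := by
  haveI := henselian_JB (𝒪 := 𝒪) B
  obtain ⟨a, b, hab⟩ := exists_stab (𝒪 := 𝒪) r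
  let J : Ideal B := JB (𝒪 := 𝒪) B
  have hab' : (Ideal.Quotient.mk J r) ^ a =
      (Ideal.Quotient.mk J r) ^ (a + 1) * Ideal.Quotient.mk J b := by
    have := Ideal.Quotient.eq_zero_iff_mem.2 hab
    rw [map_sub, map_mul, map_pow, map_pow, sub_eq_zero] at this
    exact this
  obtain ⟨i1, i2, i3⟩ := idem_of_stab _ _ a hab'
  set e₀ : B := r ^ a * b ^ a with he₀
  set w₀ : B := r ^ a * b ^ (a + 1) with hw₀
  have j1 : e₀ * e₀ - e₀ ∈ J := by
    rw [← Ideal.Quotient.eq_zero_iff_mem, map_sub, map_mul, he₀, map_mul, map_pow, map_pow, i1,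
      sub_self]
  have j2 : r ^ a * (1 - e₀) ∈ J := by
    rw [← Ideal.Quotient.eq_zero_iff_mem, map_mul, map_sub, map_one, he₀, map_mul, map_pow,
      map_pow, i2]
  have j3 : e₀ - r * w₀ ∈ J := by
    rw [← Ideal.Quotient.eq_zero_iff_mem, map_sub, he₀, hw₀, map_mul, map_mul, map_mul, map_pow,
      map_pow, map_pow, ← i3, sub_self]
  let f : B[X] := X ^ 2 - X
  have hf : f.Monic := by
    show (X ^ 2 - X : B[X]).Monic
    exact Polynomial.monic_X_pow_sub (lt_of_le_of_lt degree_X_le (by norm_num))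
  have h1 : f.eval e₀ ∈ J := by
    have : f.eval e₀ = e₀ * e₀ - e₀ := by
      simp only [f, eval_sub, eval_pow, eval_X]
      ring
    rw [this]
    exact j1
  have h2 : IsUnit (Ideal.Quotient.mk J (f.derivative.eval e₀)) := by
    have : f.derivative.eval e₀ = 2 * e₀ - 1 := by
      simp only [f, derivative_sub, derivative_X_pow, derivative_X, eval_sub, eval_mul, eval_pow,
        eval_X, eval_C, eval_one, Nat.cast_ofNat]
      simp
    rw [this]
    refine IsUnit.of_mul_eq_one (Ideal.Quotient.mk J (2 * e₀ - 1)) ?_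
    rw [← map_mul, ← map_one (Ideal.Quotient.mk J), Ideal.Quotient.eq]
    have : (2 * e₀ - 1) * (2 * e₀ - 1) - 1 = 4 * (e₀ * e₀ - e₀) := by ring
    rw [this]
    exact J.mul_mem_left _ j1
  obtain ⟨e, he, hee⟩ := HenselianRing.is_henselian f hf e₀ h1 h2
  have hee2 : e * e = e := by
    have := he
    simp only [f, IsRoot.def, eval_sub, eval_pow, eval_X] at this
    linear_combination this
  have hj : e - r * w₀ ∈ J := by
    have : e - r * w₀ = (e - e₀) + (e₀ - r * w₀) := by ring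
    rw [this]
    exact J.add_mem hee j3
  have hu : IsUnit (1 - (e - r * w₀)) := by
    refine isUnit_of_sub_mem_JB (𝒪 := 𝒪) isUnit_one ?_
    have : 1 - (e - r * w₀) - 1 = -(e - r * w₀) := by ring
    rw [this]
    exact J.neg_mem hj
  obtain ⟨v, hv⟩ := hu.exists_right_inv
  refine ⟨e, w₀ * v, a, hee2, ?_, ?_⟩
  · calc e * r * (w₀ * v) = e * (r * w₀) * v := by ring
      _ = (e * e - e * (e - r * w₀)) * v := by ring
      _ = e * ((1 - (e - r * w₀)) * v) := by rw [hee2]; ring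
      _ = e := by rw [hv, mul_one]
  · have : r ^ a * (1 - e) = r ^ a * (1 - e₀) - r ^ a * (e - e₀) := by ring
    rw [this]
    exact J.sub_mem j2 (J.mul_mem_left _ hee)

/-- The Fitting idempotent of `r`, with the powers. -/
theorem exists_fitting_idem_pow {ϖ : 𝒪} (hϖ : maximalIdeal 𝒪 = Ideal.span {ϖ}) (r : B) :
    ∃ (e w : B) (n : ℕ), e * e = e ∧ (∀ k : ℕ, e = r ^ k * w ^ k * e) ∧
      ∀ k : ℕ, ∃ y : B, r ^ (n * k) * (1 - e) = ϖ ^ k • y := by
  obtain ⟨e, w, n, h1, h2, h3⟩ := exists_fitting_idem (𝒪 := 𝒪) r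
  obtain ⟨y₁, hy₁⟩ := (mem_JB_iff hϖ _).1 h3
  refine ⟨e, w, n, h1, ?_, ?_⟩
  · intro k
    induction k with
    | zero => simp
    | succ k ih =>
      calc e = r ^ k * w ^ k * e := ih
        _ = r ^ k * w ^ k * (e * r * w) := by rw [h2]
        _ = r ^ (k + 1) * w ^ (k + 1) * e := by ring
  · intro k
    induction k with
    | zero => exact ⟨1 - e, by simp⟩
    | succ k ih =>
      obtain ⟨y, hy⟩ := ih
      refine ⟨y * y₁, ?_⟩
      have hsq : (1 - e) * (1 - e) = 1 - e := by linear_combination h1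
      calc r ^ (n * (k + 1)) * (1 - e)
          = r ^ (n * k) * r ^ n * ((1 - e) * (1 - e)) := by rw [hsq, mul_add, mul_one, pow_add]
        _ = (r ^ (n * k) * (1 - e)) * (r ^ n * (1 - e)) := by ring
        _ = ϖ ^ (k + 1) • (y * y₁) := by
          rw [hy, hy₁, Algebra.smul_def, Algebra.smul_def, Algebra.smul_def, map_pow, map_pow]
          ring

end CommB


section RingA

variable {𝒪 : Type} [CommRing 𝒪] [IsDomain 𝒪] [IsDiscreteValuationRing 𝒪]
  [IsAdicComplete (maximalIdeal 𝒪) 𝒪]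
variable {A : Type} [Ring A] [Algebra 𝒪 A] [Module.Finite 𝒪 A]

/-- The double centralizer of `t`. -/
def dcent (t : A) : Subalgebra 𝒪 A :=
  Subalgebra.centralizer 𝒪 (Subalgebra.centralizer 𝒪 {t} : Set A)

theorem mem_dcent_iff (t x : A) :
    x ∈ dcent (𝒪 := 𝒪) t ↔ ∀ X : A, Commute X t → Commute X x := by
  unfold dcent
  rw [Subalgebra.mem_centralizer_iff]
  constructor
  · intro h X hX
    refine h X ?_
    rw [SetLike.mem_coe, Subalgebra.mem_centralizer_iff]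
    intro g hg
    rw [Set.mem_singleton_iff] at hg
    subst hg
    exact hX.symm.eq
  · intro h X hX
    rw [SetLike.mem_coe, Subalgebra.mem_centralizer_iff] at hX
    exact (h X (hX t rfl).symm).eq

theorem self_mem_dcent (t : A) : t ∈ dcent (𝒪 := 𝒪) t :=
  (mem_dcent_iff t t).2 fun _ h => h

theorem commute_of_mem_dcent {t a b : A} (ha : a ∈ dcent (𝒪 := 𝒪) t)
    (hb : b ∈ dcent (𝒪 := 𝒪) t) : Commute a b := by
  have h1 : Commute a t := ((mem_dcent_iff t a).1 ha t (Commute.refl t)).symm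
  exact (mem_dcent_iff t b).1 hb a h1

/-- The double centralizer is commutative. -/
@[reducible] noncomputable def dcentCommRing (t : A) : CommRing (dcent (𝒪 := 𝒪) t) :=
  { (inferInstance : Ring (dcent (𝒪 := 𝒪) t)) with
    mul_comm := fun a b => Subtype.ext (commute_of_mem_dcent a.2 b.2).eq }

theorem mem_smul_top_of_mem_JB (t : A) (x : dcent (𝒪 := 𝒪) t)
    (hx : letI := dcentCommRing (𝒪 := 𝒪) t; x ∈ JB (𝒪 := 𝒪) (dcent (𝒪 := 𝒪) t)) :
    (x : A) ∈ (maximalIdeal 𝒪 • ⊤ : Submodule 𝒪 A) := by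
  letI := dcentCommRing (𝒪 := 𝒪) t
  obtain ⟨ϖ, hirr⟩ := IsDiscreteValuationRing.exists_irreducible 𝒪
  have hϖ : maximalIdeal 𝒪 = Ideal.span {ϖ} :=
    (IsDiscreteValuationRing.irreducible_iff_uniformizer ϖ).mp hirr
  obtain ⟨y, rfl⟩ := (mem_JB_iff hϖ x).1 hx
  have : ((ϖ • y : dcent (𝒪 := 𝒪) t) : A) = ϖ • (y : A) := rfl
  rw [this]
  refine Submodule.smul_mem_smul ?_ Submodule.mem_top
  rw [hϖ]
  exact Ideal.subset_span rfl

/-- The unit root of `X² - t X + p` in a finite `𝒪`-algebra. -/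
theorem exists_unit_root_ring (t : A) (ht : IsUnit t) (p : 𝒪) (hp : p ∈ maximalIdeal 𝒪) :
    ∃ u u' : A, u * u' = 1 ∧ u' * u = 1 ∧ u * u - t * u + p • (1 : A) = 0 ∧
      (∀ X : A, Commute X t → Commute X u) ∧ (∀ X : A, Commute X t → Commute X u') := by
  letI := dcentCommRing (𝒪 := 𝒪) t
  haveI : Module.Finite 𝒪 (dcent (𝒪 := 𝒪) t) :=
    Module.Finite.of_injective (dcent (𝒪 := 𝒪) t).val.toLinearMap Subtype.val_injective
  obtain ⟨t', h1, h2⟩ := isUnit_iff_exists.1 ht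
  have ht'mem : t' ∈ dcent (𝒪 := 𝒪) t := by
    rw [mem_dcent_iff]
    intro X hX
    show X * t' = t' * X
    calc X * t' = (t' * t) * X * t' := by rw [h2, one_mul]
      _ = t' * (t * X) * t' := by simp only [mul_assoc]
      _ = t' * (X * t) * t' := by rw [hX.eq]
      _ = t' * X * (t * t') := by simp only [mul_assoc]
      _ = t' * X := by rw [h1, mul_one]
  have htS : IsUnit (⟨t, self_mem_dcent t⟩ : dcent (𝒪 := 𝒪) t) :=
    isUnit_iff_exists.2 ⟨⟨t', ht'mem⟩, Subtype.ext h1, Subtype.ext h2⟩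
  obtain ⟨u, hu, hroot⟩ := exists_unit_root (𝒪 := 𝒪) _ htS p hp
  obtain ⟨u', hu1, hu2⟩ := isUnit_iff_exists.1 hu
  refine ⟨u, u', congrArg Subtype.val hu1, congrArg Subtype.val hu2, ?_,
    (mem_dcent_iff t _).1 u.2, (mem_dcent_iff t _).1 u'.2⟩
  have := congrArg Subtype.val hroot
  rw [Algebra.smul_def, mul_one]
  exact this

/-- The Fitting idempotent in a finite `𝒪`-algebra. -/
theorem exists_fitting_idem_ring {ϖ : 𝒪} (hϖ : maximalIdeal 𝒪 = Ideal.span {ϖ}) (r : A) :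
    ∃ (e w : A) (n : ℕ), e * e = e ∧ Commute e r ∧ (∀ k : ℕ, e = r ^ k * w ^ k * e) ∧
      ∀ k : ℕ, ∃ y : A, r ^ (n * k) * (1 - e) = ϖ ^ k • y := by
  letI := dcentCommRing (𝒪 := 𝒪) r
  haveI : Module.Finite 𝒪 (dcent (𝒪 := 𝒪) r) :=
    Module.Finite.of_injective (dcent (𝒪 := 𝒪) r).val.toLinearMap Subtype.val_injective
  obtain ⟨e, w, n, h1, h2, h3⟩ :=
    exists_fitting_idem_pow hϖ (⟨r, self_mem_dcent r⟩ : dcent (𝒪 := 𝒪) r)
  refine ⟨e, w, n, congrArg Subtype.val h1, commute_of_mem_dcent e.2 (self_mem_dcent r), ?_, ?_⟩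
  · intro k
    exact congrArg Subtype.val (h2 k)
  · intro k
    obtain ⟨y, hy⟩ := h3 k
    exact ⟨y, congrArg Subtype.val hy⟩

end RingA

section Mod

variable {𝒪 : Type} [CommRing 𝒪] [IsDomain 𝒪] [IsDiscreteValuationRing 𝒪]
  [IsAdicComplete (maximalIdeal 𝒪) 𝒪]
variable {M : Type} [AddCommGroup M] [Module 𝒪 M] [Module.Finite 𝒪 M] [Module.Free 𝒪 M]

omit [IsAdicComplete (maximalIdeal 𝒪) 𝒪] [Module.Finite 𝒪 M] [Module.Free 𝒪 M] in
/-- A linear map preserves `I M`. -/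
theorem map_mem_smul_top {N : Type} [AddCommGroup N] [Module 𝒪 N] (f : M →ₗ[𝒪] N) (I : Ideal 𝒪)
    {x : M} (hx : x ∈ (I • ⊤ : Submodule 𝒪 M)) : f x ∈ (I • ⊤ : Submodule 𝒪 N) := by
  refine Submodule.smul_induction_on hx (fun r hr n _ => ?_) (fun x y hx hy => ?_)
  · rw [map_smul]
    exact Submodule.smul_mem_smul hr Submodule.mem_top
  · rw [map_add]
    exact add_mem hx hy

omit [IsAdicComplete (maximalIdeal 𝒪) 𝒪] [Module.Free 𝒪 M] in
/-- Krull's intersection theorem. -/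
theorem eq_zero_of_forall_mem_pow {x : M}
    (h : ∀ k : ℕ, x ∈ (maximalIdeal 𝒪 ^ k • ⊤ : Submodule 𝒪 M)) : x = 0 := by
  have hk := Ideal.iInf_pow_smul_eq_bot_of_isLocalRing (M := M) (maximalIdeal 𝒪)
    (maximalIdeal.isMaximal 𝒪).ne_top
  have hmem : x ∈ ⨅ i : ℕ, (maximalIdeal 𝒪 ^ i • ⊤ : Submodule 𝒪 M) := by
    rw [Submodule.mem_iInf]
    exact h
  rw [hk] at hmem
  exact (Submodule.mem_bot 𝒪).1 hmem

/-- The Fitting decomposition of an endomorphism of a finite free module over a complete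
discrete valuation ring. -/
theorem exists_fitting_mod (U : Module.End 𝒪 M) :
    ∃ (E : Module.End 𝒪 M) (n : ℕ), (∀ w, E (E w) = E w) ∧ (∀ w, E (U w) = U (E w)) ∧
      (∀ (k : ℕ) (w : M), ∃ w', E w = (U ^ k) w') ∧
      (∀ (k : ℕ) (w : M),
        (U ^ (n * k)) (w - E w) ∈ (maximalIdeal 𝒪 ^ k • ⊤ : Submodule 𝒪 M)) := by
  obtain ⟨ϖ, hirr⟩ := IsDiscreteValuationRing.exists_irreducible 𝒪
  have hϖ : maximalIdeal 𝒪 = Ideal.span {ϖ} :=
    (IsDiscreteValuationRing.irreducible_iff_uniformizer ϖ).mp hirr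
  obtain ⟨E, W, n, h1, h2, h3, h4⟩ := exists_fitting_idem_ring hϖ U
  refine ⟨E, n, fun w => LinearMap.congr_fun h1 w, fun w => LinearMap.congr_fun h2.eq w, ?_, ?_⟩
  · intro k w
    refine ⟨(W ^ k) (E w), ?_⟩
    exact LinearMap.congr_fun (h3 k) w
  · intro k w
    obtain ⟨y, hy⟩ := h4 k
    have : (U ^ (n * k)) (w - E w) = ϖ ^ k • y w := by
      have := LinearMap.congr_fun hy w
      simpa using this
    rw [this]
    refine Submodule.smul_mem_smul ?_ Submodule.mem_top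
    rw [hϖ, Ideal.span_singleton_pow]
    exact Ideal.subset_span rfl

/-- The unit root of `X² - T X + p`. -/
theorem exists_unit_root_mod (T : Module.End 𝒪 M) (hT : IsUnit T) (p : 𝒪)
    (hp : p ∈ maximalIdeal 𝒪) :
    ∃ Uu Ui : Module.End 𝒪 M, Uu * Ui = 1 ∧ Ui * Uu = 1 ∧
      Uu * Uu - T * Uu + p • (1 : Module.End 𝒪 M) = 0 ∧
      (∀ X : Module.End 𝒪 M, Commute X T → Commute X Uu) ∧
      (∀ X : Module.End 𝒪 M, Commute X T → Commute X Ui) :=
  exists_unit_root_ring T hT p hp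

end Mod

end Fermat.Agent.S59.CaseC.Geom.H34

end
-- ==== END Fermat.Agent.S59.CaseC.Geom.H34_Fitting

-- ==== BEGIN Fermat.Agent.S59.CaseC.Geom.H7_POrdAlg
section

set_option autoImplicit false
set_option linter.style.haveILetI false
set_option linter.unusedSectionVars false

open IsLocalRing Polynomial
open scoped TensorProduct

namespace Fermat.Agent.S59.CaseC.Geom.H7

section Charpoly

variable {𝒪 : Type} [CommRing 𝒪] [IsLocalRing 𝒪]
  {L : Type} [AddCommGroup L] [Module 𝒪 L] [Module.Finite 𝒪 L] [Module.Free 𝒪 L]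

/-- The base change to the residue field of an endomorphism with image in `𝔪 L` is zero. -/
theorem baseChange_residue_eq_zero (f : Module.End 𝒪 L)
    (hf : ∀ v : L, f v ∈ (maximalIdeal 𝒪 • ⊤ : Submodule 𝒪 L)) :
    f.baseChange (ResidueField 𝒪) = 0 := by
  apply TensorProduct.AlgebraTensorModule.ext
  intro c v
  rw [LinearMap.baseChange_tmul, LinearMap.zero_apply]
  have key : ∀ w ∈ (maximalIdeal 𝒪 • ⊤ : Submodule 𝒪 L),
      (c ⊗ₜ[𝒪] w : ResidueField 𝒪 ⊗[𝒪] L) = 0 := by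
    intro w hw
    induction hw using Submodule.smul_induction_on' with
    | smul a ha y _ =>
      rw [← TensorProduct.smul_tmul, Algebra.smul_def]
      have : algebraMap 𝒪 (ResidueField 𝒪) a = 0 := (residue_eq_zero_iff a).2 ha
      rw [this, zero_mul, TensorProduct.zero_tmul]
    | add y _ z _ hy hz => rw [TensorProduct.tmul_add, hy, hz, add_zero]
  exact key _ (hf v)

/-- The characteristic polynomial of an endomorphism with image in `𝔪 L` is a power of `X`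
modulo `𝔪`. -/
theorem charpoly_map_residue (f : Module.End 𝒪 L)
    (hf : ∀ v : L, f v ∈ (maximalIdeal 𝒪 • ⊤ : Submodule 𝒪 L)) :
    ∃ d : ℕ, f.charpoly.map (residue 𝒪) = X ^ d := by
  refine ⟨Module.finrank (ResidueField 𝒪) (ResidueField 𝒪 ⊗[𝒪] L), ?_⟩
  have h1 := LinearMap.charpoly_baseChange (A := ResidueField 𝒪) f
  rw [baseChange_residue_eq_zero f hf, LinearMap.charpoly_zero] at h1
  exact h1.symm

end Charpoly

section Point

variable {𝒪 : Type} [CommRing 𝒪] [IsLocalRing 𝒪]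
  {L : Type} [AddCommGroup L] [Module 𝒪 L] [Module.Finite 𝒪 L] [Module.Free 𝒪 L]
  {𝕋 : Type} [CommRing 𝕋] [Algebra 𝒪 𝕋]
  (ρ : 𝕋 →ₐ[𝒪] Module.End 𝒪 L)
  {𝒪' : Type} [CommRing 𝒪'] [IsLocalRing 𝒪'] [Algebra 𝒪 𝒪'] [IsLocalHom (algebraMap 𝒪 𝒪')]
  (x : 𝕋 →ₐ[𝒪] 𝒪')

/-- A point which kills `ker ρ` maps every `s` with `ρ s L ⊆ 𝔪 L` into the maximal ideal. -/
theorem point_mem_of_range_le (hx : ∀ s : 𝕋, ρ s = 0 → x s = 0) (s : 𝕋)
    (hs : ∀ v : L, ρ s v ∈ (maximalIdeal 𝒪 • ⊤ : Submodule 𝒪 L)) :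
    x s ∈ maximalIdeal 𝒪' := by
  obtain ⟨d, hd⟩ := charpoly_map_residue (ρ s) hs
  have h1 : ρ (aeval s (ρ s).charpoly) = 0 := by
    rw [← Polynomial.aeval_algHom_apply]
    exact LinearMap.aeval_self_charpoly (ρ s)
  have h2 : aeval (x s) (ρ s).charpoly = 0 := by
    rw [Polynomial.aeval_algHom_apply]
    exact hx _ h1
  have h3 : residue 𝒪' (aeval (x s) (ρ s).charpoly) = 0 := by rw [h2, map_zero]
  rw [Polynomial.aeval_def, Polynomial.hom_eval₂] at h3
  have h4 : (residue 𝒪').comp (algebraMap 𝒪 𝒪') =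
      (ResidueField.map (algebraMap 𝒪 𝒪')).comp (residue 𝒪) := rfl
  rw [h4, ← Polynomial.eval₂_map, hd, Polynomial.eval₂_X_pow] at h3
  have h5 : residue 𝒪' (x s) = 0 := IsNilpotent.eq_zero ⟨d, h3⟩
  exact (residue_eq_zero_iff _).1 h5

/-- If `ρ t - a` is topologically nilpotent on `L` (pointwise), then `x t ≡ a`. -/
theorem point_sub_mem_of_nilp (hx : ∀ s : 𝕋, ρ s = 0 → x s = 0) (t : 𝕋) (a : 𝒪)
    (ht : ∀ v : L, ∃ n : ℕ,
      ((ρ t - algebraMap 𝒪 (Module.End 𝒪 L) a) ^ n) v ∈ (maximalIdeal 𝒪 • ⊤ : Submodule 𝒪 L)) :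
    x t - algebraMap 𝒪 𝒪' a ∈ maximalIdeal 𝒪' := by
  classical
  set f : Module.End 𝒪 L := ρ t - algebraMap 𝒪 (Module.End 𝒪 L) a with hf
  -- `𝔪 L` is stable under endomorphisms
  have hstab : ∀ (g : Module.End 𝒪 L) (w : L), w ∈ (maximalIdeal 𝒪 • ⊤ : Submodule 𝒪 L) →
      g w ∈ (maximalIdeal 𝒪 • ⊤ : Submodule 𝒪 L) := by
    intro g w hw
    induction hw using Submodule.smul_induction_on' with
    | smul c hc y _ =>
      rw [map_smul]
      exact Submodule.smul_mem_smul hc Submodule.mem_top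
    | add y _ z _ hy hz =>
      rw [map_add]
      exact Submodule.add_mem _ hy hz
  have hmono : ∀ (v : L) (n m : ℕ), n ≤ m → (f ^ n) v ∈ (maximalIdeal 𝒪 • ⊤ : Submodule 𝒪 L) →
      (f ^ m) v ∈ (maximalIdeal 𝒪 • ⊤ : Submodule 𝒪 L) := by
    intro v n m hnm hv
    obtain ⟨k, rfl⟩ := Nat.exists_eq_add_of_le hnm
    rw [add_comm, pow_add, Module.End.mul_apply]
    exact hstab _ _ hv
  -- a uniform exponent
  obtain ⟨G, hG⟩ := (Module.Finite.fg_top : (⊤ : Submodule 𝒪 L).FG)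
  choose nv hnv using ht
  set n : ℕ := G.sup nv with hn
  have hall : ∀ v : L, (f ^ n) v ∈ (maximalIdeal 𝒪 • ⊤ : Submodule 𝒪 L) := by
    intro v
    have hv : v ∈ Submodule.span 𝒪 (G : Set L) := by rw [hG]; exact Submodule.mem_top
    induction hv using Submodule.span_induction with
    | mem y hy => exact hmono y (nv y) n (Finset.le_sup (Finset.mem_coe.1 hy)) (hnv y)
    | zero => rw [map_zero]; exact Submodule.zero_mem _
    | add y z _ _ hy hz => rw [map_add]; exact Submodule.add_mem _ hy hz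
    | smul c y _ hy => rw [map_smul]; exact Submodule.smul_mem _ _ hy
  have hρ : ρ ((t - algebraMap 𝒪 𝕋 a) ^ n) = f ^ n := by
    rw [map_pow, map_sub, AlgHom.commutes]
  have h1 : x ((t - algebraMap 𝒪 𝕋 a) ^ n) ∈ maximalIdeal 𝒪' :=
    point_mem_of_range_le ρ x hx _ (fun v => by rw [hρ]; exact hall v)
  rw [map_pow, map_sub, AlgHom.commutes] at h1
  exact (maximalIdeal.isMaximal 𝒪').isPrime.mem_of_pow_mem n h1

end Point

section Exists

variable (𝒪 : Type) [CommRing 𝒪] [IsDomain 𝒪] [IsDiscreteValuationRing 𝒪]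
  [IsAdicComplete (maximalIdeal 𝒪) 𝒪] [Finite (ResidueField 𝒪)] [CharZero 𝒪]
  {L : Type} [AddCommGroup L] [Module 𝒪 L] [Module.Finite 𝒪 L] [Module.Free 𝒪 L]
  {𝕋 : Type} [CommRing 𝕋] [Algebra 𝒪 𝕋] [Module.Finite 𝒪 𝕋]
  (ρ : 𝕋 →ₐ[𝒪] Module.End 𝒪 L)

/-- **Existence of a point**: if `ρ u` is not surjective, there is a point `x` of `𝕋` in a
complete discrete valuation ring `𝒪'`, finite over `𝒪`, which kills `ker ρ` and maps `u` into
the maximal ideal. -/
theorem exists_point_of_not_surjective (u : 𝕋) (hu : ¬ Function.Surjective (ρ u)) :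
    ∃ (𝒪' : Type) (_ : CommRing 𝒪') (_ : IsDomain 𝒪') (_ : IsDiscreteValuationRing 𝒪')
      (_ : IsAdicComplete (maximalIdeal 𝒪') 𝒪') (_ : Finite (ResidueField 𝒪'))
      (_ : CharZero 𝒪') (_ : Algebra 𝒪 𝒪') (_ : IsLocalHom (algebraMap 𝒪 𝒪'))
      (x : 𝕋 →ₐ[𝒪] 𝒪'),
      x u ∈ maximalIdeal 𝒪' ∧ ∀ s : 𝕋, ρ s = 0 → x s = 0 := by
  classical
  set I : Ideal 𝕋 := RingHom.ker (ρ : 𝕋 →+* Module.End 𝒪 L) with hI
  have hmemI : ∀ s : 𝕋, s ∈ I ↔ ρ s = 0 := fun s => RingHom.mem_ker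
  -- `u` is not a unit modulo `I`
  have hnu : Ideal.Quotient.mk I u ∈ nonunits (𝕋 ⧸ I) := by
    intro h
    obtain ⟨w, hw⟩ := h.exists_right_inv
    obtain ⟨w', rfl⟩ := Ideal.Quotient.mk_surjective w
    rw [← map_mul, ← map_one (Ideal.Quotient.mk I), Ideal.Quotient.eq, hmemI, map_sub, map_mul,
      map_one, sub_eq_zero] at hw
    apply hu
    intro v
    refine ⟨ρ w' v, ?_⟩
    rw [← Module.End.mul_apply, hw, Module.End.one_apply]
  obtain ⟨𝔫, h𝔫max, hu𝔫⟩ := exists_max_ideal_of_mem_nonunits hnu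
  obtain ⟨𝔮, h𝔮min, h𝔮le⟩ := Ideal.exists_minimalPrimes_le (bot_le : (⊥ : Ideal (𝕋 ⧸ I)) ≤ 𝔫)
  haveI h𝔮prime : 𝔮.IsPrime := h𝔮min.1.1
  -- `𝒪` injects into `(𝕋 ⧸ I) ⧸ 𝔮`
  have hinj : Function.Injective (algebraMap 𝒪 ((𝕋 ⧸ I) ⧸ 𝔮)) := by
    rw [injective_iff_map_eq_zero]
    intro a ha
    by_contra ha0
    have hnzd : algebraMap 𝒪 (𝕋 ⧸ I) a ∈ nonZeroDivisors (𝕋 ⧸ I) := by
      rw [mem_nonZeroDivisors_iff_right]
      intro y hy
      obtain ⟨t, rfl⟩ := Ideal.Quotient.mk_surjective y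
      have e : algebraMap 𝒪 (𝕋 ⧸ I) a = Ideal.Quotient.mk I (algebraMap 𝒪 𝕋 a) := rfl
      rw [e, ← map_mul, Ideal.Quotient.eq_zero_iff_mem, hmemI, map_mul, AlgHom.commutes] at hy
      rw [Ideal.Quotient.eq_zero_iff_mem, hmemI]
      ext v
      have h1 := congrArg (fun g : Module.End 𝒪 L => g v) hy
      simp only [Module.End.mul_apply, Module.algebraMap_end_apply, LinearMap.zero_apply,
        map_smul] at h1
      rw [LinearMap.zero_apply]
      exact (smul_eq_zero.mp h1).resolve_left ha0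
    have hmem : algebraMap 𝒪 (𝕋 ⧸ I) a ∈ 𝔮 := by
      rw [← Ideal.Quotient.eq_zero_iff_mem]
      exact ha
    exact Set.disjoint_left.1 (Ideal.disjoint_nonZeroDivisors_of_mem_minimalPrimes h𝔮min)
      hmem hnzd
  haveI : FaithfulSMul 𝒪 ((𝕋 ⧸ I) ⧸ 𝔮) :=
    (faithfulSMul_iff_algebraMap_injective 𝒪 ((𝕋 ⧸ I) ⧸ 𝔮)).2 hinj
  haveI : Module.Finite 𝒪 ((𝕋 ⧸ I) ⧸ 𝔮) :=
    Module.Finite.of_surjective
      (((Ideal.Quotient.mkₐ 𝒪 𝔮).comp (Ideal.Quotient.mkₐ 𝒪 I)).toLinearMap)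
      ((Ideal.Quotient.mkₐ_surjective 𝒪 𝔮).comp (Ideal.Quotient.mkₐ_surjective 𝒪 I))
  obtain ⟨𝒪', iCR, iD, iDVR, iAC, iFin, iCZ, iAlg, iMF, iLH, j, -, -, hjO, hjmax⟩ :=
    Fermat.Agent.R.H2.exists_dvr_of_finite_domain 𝒪 ((𝕋 ⧸ I) ⧸ 𝔮)
  let x₀ : 𝕋 →+* 𝒪' := (j.comp (Ideal.Quotient.mk 𝔮)).comp (Ideal.Quotient.mk I)
  let x : 𝕋 →ₐ[𝒪] 𝒪' :=
    { x₀ with
      commutes' := fun a => by
        show j (Ideal.Quotient.mk 𝔮 (Ideal.Quotient.mk I (algebraMap 𝒪 𝕋 a))) = _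
        exact hjO a }
  refine ⟨𝒪', iCR, iD, iDVR, iAC, iFin, iCZ, iAlg, iLH, x, ?_, ?_⟩
  · -- `u` is not a unit modulo `𝔮`
    have hnu' : Ideal.Quotient.mk 𝔮 (Ideal.Quotient.mk I u) ∈ nonunits ((𝕋 ⧸ I) ⧸ 𝔮) := by
      intro h
      obtain ⟨w, hw⟩ := h.exists_right_inv
      obtain ⟨w', rfl⟩ := Ideal.Quotient.mk_surjective w
      rw [← map_mul, ← map_one (Ideal.Quotient.mk 𝔮), Ideal.Quotient.eq] at hw
      have h1 : Ideal.Quotient.mk I u * w' - 1 ∈ 𝔫 := h𝔮le hw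
      have h2 : (1 : 𝕋 ⧸ I) ∈ 𝔫 := by
        have := 𝔫.sub_mem (𝔫.mul_mem_right w' hu𝔫) h1
        rwa [sub_sub_cancel] at this
      exact h𝔫max.ne_top ((Ideal.eq_top_iff_one 𝔫).2 h2)
    obtain ⟨𝔫', h𝔫'max, hu𝔫'⟩ := exists_max_ideal_of_mem_nonunits hnu'
    have := hjmax 𝔫' h𝔫'max
    rw [← this, Ideal.mem_comap] at hu𝔫'
    exact hu𝔫'
  · intro s hs
    show j (Ideal.Quotient.mk 𝔮 (Ideal.Quotient.mk I s)) = 0
    rw [Ideal.Quotient.eq_zero_iff_mem.2 ((hmemI s).2 hs), map_zero, map_zero]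

end Exists

end Fermat.Agent.S59.CaseC.Geom.H7

end
-- ==== END Fermat.Agent.S59.CaseC.Geom.H7_POrdAlg

-- ==== BEGIN Fermat.Agent.S59.CaseC.Geom.H7_POrdCut
section

set_option autoImplicit false
set_option linter.unusedSectionVars false

open IsLocalRing
open scoped Pointwise

namespace Fermat.Agent.S59.CaseC.Geom.H7

section Cut

variable {𝒪 : Type} [CommRing 𝒪] {Λ : Type} [AddCommGroup Λ] [Module 𝒪 Λ]

/-- `I Λ` is stable under endomorphisms. -/
theorem end_map_ideal_smul_top (I : Ideal 𝒪) (g : Module.End 𝒪 Λ) {w : Λ}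
    (hw : w ∈ (I • ⊤ : Submodule 𝒪 Λ)) : g w ∈ (I • ⊤ : Submodule 𝒪 Λ) := by
  induction hw using Submodule.smul_induction_on' with
  | smul c hc y _ =>
    rw [map_smul]
    exact Submodule.smul_mem_smul hc Submodule.mem_top
  | add y _ z _ hy hz =>
    rw [map_add]
    exact Submodule.add_mem _ hy hz

theorem pow_mem_of_le (I : Ideal 𝒪) (F : Module.End 𝒪 Λ) {c : Λ} {n n' : ℕ} (h : n ≤ n')
    (hc : (F ^ n) c ∈ (I • ⊤ : Submodule 𝒪 Λ)) : (F ^ n') c ∈ (I • ⊤ : Submodule 𝒪 Λ) := by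
  obtain ⟨k, rfl⟩ := Nat.exists_eq_add_of_le h
  rw [add_comm, pow_add, Module.End.mul_apply]
  exact end_map_ideal_smul_top I _ hc

variable [IsLocalRing 𝒪]

/-- The vectors killed by the `U ∈ Us` on which the `F ∈ Fs` are topologically nilpotent. -/
def cutLattice (Us Fs : Set (Module.End 𝒪 Λ)) : Submodule 𝒪 Λ where
  carrier := {c | (∀ U ∈ Us, U c = 0) ∧
    ∀ F ∈ Fs, ∀ m : ℕ, ∃ n : ℕ, (F ^ n) c ∈ ((maximalIdeal 𝒪 ^ m) • ⊤ : Submodule 𝒪 Λ)}
  zero_mem' := ⟨fun U _ => map_zero U, fun F _ m =>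
    ⟨0, by rw [map_zero]; exact Submodule.zero_mem _⟩⟩
  add_mem' := by
    rintro c c' ⟨h1, h2⟩ ⟨h1', h2'⟩
    refine ⟨fun U hU => by rw [map_add, h1 U hU, h1' U hU, add_zero], fun F hF m => ?_⟩
    obtain ⟨n, hn⟩ := h2 F hF m
    obtain ⟨n', hn'⟩ := h2' F hF m
    refine ⟨max n n', ?_⟩
    rw [map_add]
    exact Submodule.add_mem _ (pow_mem_of_le _ F (le_max_left _ _) hn)
      (pow_mem_of_le _ F (le_max_right _ _) hn')
  smul_mem' := by
    rintro a c ⟨h1, h2⟩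
    refine ⟨fun U hU => by rw [map_smul, h1 U hU, smul_zero], fun F hF m => ?_⟩
    obtain ⟨n, hn⟩ := h2 F hF m
    exact ⟨n, by rw [map_smul]; exact Submodule.smul_mem _ _ hn⟩

theorem mem_cutLattice {Us Fs : Set (Module.End 𝒪 Λ)} {c : Λ} :
    c ∈ cutLattice Us Fs ↔ (∀ U ∈ Us, U c = 0) ∧
      ∀ F ∈ Fs, ∀ m : ℕ, ∃ n : ℕ, (F ^ n) c ∈ ((maximalIdeal 𝒪 ^ m) • ⊤ : Submodule 𝒪 Λ) :=
  Iff.rfl

/-- The lattice is stable under the endomorphisms commuting with the operators. -/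
theorem cutLattice_stable {Us Fs : Set (Module.End 𝒪 Λ)} (g : Module.End 𝒪 Λ)
    (hU : ∀ U ∈ Us, Commute g U) (hF : ∀ F ∈ Fs, Commute g F) {c : Λ}
    (hc : c ∈ cutLattice Us Fs) : g c ∈ cutLattice Us Fs := by
  refine ⟨fun U hUm => ?_, fun F hFm m => ?_⟩
  · have h1 : U (g c) = g (U c) := by
      rw [← Module.End.mul_apply, ← Module.End.mul_apply, (hU U hUm).eq]
    rw [h1, hc.1 U hUm, map_zero]
  · obtain ⟨n, hn⟩ := hc.2 F hFm m
    refine ⟨n, ?_⟩
    have h1 : (F ^ n) (g c) = g ((F ^ n) c) := by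
      rw [← Module.End.mul_apply, ← Module.End.mul_apply, ((hF F hFm).pow_right n).eq]
    rw [h1]
    exact end_map_ideal_smul_top _ g hn

end Cut

section Sat

variable {𝒪 : Type} [CommRing 𝒪] [IsDomain 𝒪] [IsDiscreteValuationRing 𝒪]
  {Λ : Type} [AddCommGroup Λ] [Module 𝒪 Λ]

/-- `𝔪^m Λ = ϖ^m Λ`. -/
theorem mem_maximalIdeal_pow_smul_top {ϖ : 𝒪} (hϖ : Irreducible ϖ) (m : ℕ) (w : Λ) :
    w ∈ ((maximalIdeal 𝒪 ^ m) • ⊤ : Submodule 𝒪 Λ) ↔ ∃ y : Λ, w = ϖ ^ m • y := by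
  rw [hϖ.maximalIdeal_eq, Ideal.span_singleton_pow, Submodule.ideal_span_singleton_smul]
  constructor
  · intro h
    obtain ⟨y, -, hy⟩ := (Submodule.mem_smul_pointwise_iff_exists _ _ _).1 h
    exact ⟨y, hy.symm⟩
  · rintro ⟨y, rfl⟩
    exact Submodule.smul_mem_pointwise_smul _ _ _ Submodule.mem_top

theorem mem_maximalIdeal_smul_top {ϖ : 𝒪} (hϖ : Irreducible ϖ) (w : Λ) :
    w ∈ (maximalIdeal 𝒪 • ⊤ : Submodule 𝒪 Λ) ↔ ∃ y : Λ, w = ϖ • y := by
  have := mem_maximalIdeal_pow_smul_top (Λ := Λ) hϖ 1 w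
  rwa [pow_one, pow_one] at this

variable (htf : ∀ (a : 𝒪) (w : Λ), a ≠ 0 → a • w = 0 → w = 0)
include htf

/-- The lattice is saturated. -/
theorem cutLattice_saturated {Us Fs : Set (Module.End 𝒪 Λ)} {ϖ : 𝒪} (hϖ : Irreducible ϖ)
    {c : Λ} (hc : ϖ • c ∈ cutLattice Us Fs) : c ∈ cutLattice Us Fs := by
  refine ⟨fun U hU => ?_, fun F hF m => ?_⟩
  · have h1 := hc.1 U hU
    rw [map_smul] at h1
    exact htf ϖ _ hϖ.ne_zero h1
  · obtain ⟨n, hn⟩ := hc.2 F hF (m + 1)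
    refine ⟨n, ?_⟩
    rw [map_smul, mem_maximalIdeal_pow_smul_top hϖ] at hn
    obtain ⟨y, hy⟩ := hn
    rw [mem_maximalIdeal_pow_smul_top hϖ]
    refine ⟨y, ?_⟩
    have h2 : ϖ • ((F ^ n) c - ϖ ^ m • y) = 0 := by
      rw [smul_sub, hy, smul_smul, ← pow_succ', sub_self]
    exact sub_eq_zero.1 (htf ϖ _ hϖ.ne_zero h2)

/-- In a saturated submodule `L ⊆ Λ`, `L ∩ 𝔪 Λ = 𝔪 L`. -/
theorem mem_smul_top_of_saturated {ϖ : 𝒪} (hϖ : Irreducible ϖ) (L : Submodule 𝒪 Λ)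
    (hL : ∀ c : Λ, ϖ • c ∈ L → c ∈ L) (v : L)
    (hv : (v : Λ) ∈ (maximalIdeal 𝒪 • ⊤ : Submodule 𝒪 Λ)) :
    v ∈ (maximalIdeal 𝒪 • ⊤ : Submodule 𝒪 L) := by
  rw [mem_maximalIdeal_smul_top hϖ] at hv ⊢
  obtain ⟨y, hy⟩ := hv
  have hyL : y ∈ L := hL y (by rw [← hy]; exact v.2)
  exact ⟨⟨y, hyL⟩, Subtype.ext hy⟩

end Sat

section Restrict

variable {𝒪 : Type} [CommRing 𝒪] {Λ : Type} [AddCommGroup Λ] [Module 𝒪 Λ]
  {R : Type} [CommRing R] (MO : R →+* Module.End 𝒪 Λ) (L : Submodule 𝒪 Λ)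
  (hst : ∀ (t : R) (c : Λ), c ∈ L → MO t c ∈ L)

/-- The restriction to a stable submodule of an action of a ring. -/
noncomputable def restrictHom : R →+* Module.End 𝒪 L where
  toFun t := (MO t).restrict (fun c hc => hst t c hc)
  map_one' := by
    ext v
    simp [LinearMap.restrict_apply]
  map_mul' s t := by
    ext v
    simp [LinearMap.restrict_apply]
  map_zero' := by
    ext v
    simp [LinearMap.restrict_apply]
  map_add' s t := by
    ext v
    simp [LinearMap.restrict_apply]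

@[simp] theorem restrictHom_coe (t : R) (v : L) :
    ((restrictHom MO L hst t v : L) : Λ) = MO t (v : Λ) := rfl

/-- Powers of `ρ t - a` on `L` and on `Λ`. -/
theorem restrictHom_sub_pow_coe (t : R) (a : 𝒪) (n : ℕ) (v : L) :
    ((((restrictHom MO L hst t - algebraMap 𝒪 (Module.End 𝒪 L) a) ^ n) v : L) : Λ) =
      ((MO t - algebraMap 𝒪 (Module.End 𝒪 Λ) a) ^ n) (v : Λ) := by
  induction n generalizing v with
  | zero => simp
  | succ n ih =>
    rw [pow_succ, pow_succ, Module.End.mul_apply, Module.End.mul_apply, ih]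
    congr 1

end Restrict

end Fermat.Agent.S59.CaseC.Geom.H7

end
-- ==== END Fermat.Agent.S59.CaseC.Geom.H7_POrdCut

-- ==== BEGIN Fermat.Agent.S59.CaseC.Geom.H90_PLinkAlg
section

/-!
# S59, case C, PGEOM, leaf P-LINK (helper90): the algebraic core

`alg_core`: let `𝕋` be a reduced commutative ring, finite free over `ℤ`, acting on a torsion
free `𝒪`-module `V` (`𝒪` a complete discrete valuation ring of characteristic `0` with finite
residue field), `a ∈ V`, `t ∈ 𝕋`, `c₁ c₀ ∈ 𝒪`.  If `c₁ x̃(t) = c₀` for every character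
`x̃ : 𝕋 → 𝒪'` (`𝒪'` a complete discrete valuation ring finite over `𝒪`) which is compatible
with `a` (`ρ(s) a = c a ⟹ x̃(s) = c`), then `c₁ ρ(t) a = c₀ a`.

Proof: `B := (𝒪 ⊗ 𝕋) / Ann(a)` is a finite torsion free `𝒪`-algebra generated by the image of
`𝕋`, hence reduced (`R.H2.isReduced_of_flat_of_adjoin_eq_top`); every minimal prime `𝔮` of `B`
gives a character `B → B/𝔮 ↪ 𝒪'` (`R.H2.exists_dvr_of_finite_domain`), so `c₁ t - c₀` lies in
all the minimal primes of `B`: it is zero.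
-/

set_option autoImplicit false
set_option linter.style.haveILetI false
set_option linter.unusedSectionVars false
set_option linter.unusedVariables false

open IsLocalRing TensorProduct

namespace Fermat.Agent.S59.CaseC.Geom.H90

section Ann

variable {𝒪 : Type} [CommRing 𝒪] {R : Type} [CommRing R] [Algebra 𝒪 R]
  {V : Type} [AddCommGroup V] [Module 𝒪 V]

/-- the annihilator of a vector -/
def annI (f : R →ₐ[𝒪] Module.End 𝒪 V) (a : V) : Ideal R where
  carrier := {y | f y a = 0}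
  add_mem' := fun {x y} hx hy => by
    show f (x + y) a = 0
    rw [map_add, LinearMap.add_apply, (hx : f x a = 0), (hy : f y a = 0), add_zero]
  zero_mem' := by
    show f 0 a = 0
    rw [map_zero, LinearMap.zero_apply]
  smul_mem' := fun c x hx => by
    show f (c • x) a = 0
    rw [smul_eq_mul, map_mul, Module.End.mul_apply, (hx : f x a = 0), map_zero]

theorem mem_annI (f : R →ₐ[𝒪] Module.End 𝒪 V) (a : V) (y : R) :
    y ∈ annI f a ↔ f y a = 0 := Iff.rfl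

end Ann

section Main

variable (𝒪 : Type) [CommRing 𝒪] [IsDomain 𝒪] [IsDiscreteValuationRing 𝒪]
  [IsAdicComplete (maximalIdeal 𝒪) 𝒪] [Finite (ResidueField 𝒪)] [CharZero 𝒪]
  (𝕋 : Type) [CommRing 𝕋] [Module.Free ℤ 𝕋] [Module.Finite ℤ 𝕋] [IsReduced 𝕋]
  {V : Type} [AddCommGroup V] [Module 𝒪 V] [Module.IsTorsionFree 𝒪 V]

/-- The core, for a finite `𝒪`-algebra `R` generated by the image of `𝕋`. -/
theorem alg_core_R (R : Type) [CommRing R] [Algebra 𝒪 R] [Module.Finite 𝒪 R]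
    (ι : 𝕋 →+* R) (hι : Algebra.adjoin 𝒪 (Set.range ι) = ⊤)
    (f : R →ₐ[𝒪] Module.End 𝒪 V) (a : V) (τ : R)
    (H : ∀ (O' : Type) [CommRing O'] [IsDomain O'] [IsDiscreteValuationRing O']
      [IsAdicComplete (maximalIdeal O') O'] [Finite (ResidueField O')] [CharZero O']
      [Algebra 𝒪 O'] [IsLocalHom (algebraMap 𝒪 O')] (x : R →ₐ[𝒪] O'),
      (∀ y : R, f y a = 0 → x y = 0) → x τ = 0) :
    f τ a = 0 := by
  classical
  -- the ring `B = R / Ann(a)`
  haveI hfin : Module.Finite 𝒪 (R ⧸ annI f a) :=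
    Module.Finite.of_surjective (Ideal.Quotient.mkₐ 𝒪 (annI f a)).toLinearMap
      (Ideal.Quotient.mkₐ_surjective 𝒪 (annI f a))
  haveI htf : Module.IsTorsionFree 𝒪 (R ⧸ annI f a) := by
    refine ⟨fun r hr b₁ b₂ hb => ?_⟩
    obtain ⟨y₁, rfl⟩ := Ideal.Quotient.mk_surjective b₁
    obtain ⟨y₂, rfl⟩ := Ideal.Quotient.mk_surjective b₂
    have hr0 : r ≠ 0 := hr.ne_zero
    have h1 : Ideal.Quotient.mk (annI f a) (r • y₁) = Ideal.Quotient.mk (annI f a) (r • y₂) := hb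
    rw [Ideal.Quotient.eq, mem_annI, ← smul_sub, map_smul, LinearMap.smul_apply] at h1
    rw [Ideal.Quotient.eq, mem_annI]
    exact (smul_eq_zero_iff_right hr0).mp h1
  haveI hfree : Module.Free 𝒪 (R ⧸ annI f a) := inferInstance
  let π : 𝕋 →+* R ⧸ annI f a := (Ideal.Quotient.mk (annI f a)).comp ι
  have hgen : Algebra.adjoin 𝒪 (Set.range π) = ⊤ := by
    have h1 : (Algebra.adjoin 𝒪 (Set.range ι)).map (Ideal.Quotient.mkₐ 𝒪 (annI f a)) = ⊤ := by
      rw [hι, Algebra.map_top, AlgHom.range_eq_top]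
      exact Ideal.Quotient.mkₐ_surjective 𝒪 (annI f a)
    rw [← h1, AlgHom.map_adjoin, ← Set.range_comp]
    rfl
  haveI hred : IsReduced (R ⧸ annI f a) :=
    Fermat.Agent.R.H2.isReduced_of_flat_of_adjoin_eq_top 𝕋 𝒪 _ π hgen
  -- reduction to the vanishing of `τ` in `B`
  suffices hτ : Ideal.Quotient.mk (annI f a) τ = 0 from Ideal.Quotient.eq_zero_iff_mem.mp hτ
  -- `τ` lies in every minimal prime
  have hnil : Ideal.Quotient.mk (annI f a) τ ∈ sInf (minimalPrimes (R ⧸ annI f a)) := by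
    rw [Ideal.mem_sInf]
    intro 𝔮 h𝔮
    haveI h𝔮prime : 𝔮.IsPrime := h𝔮.1.1
    have hinj : Function.Injective (algebraMap 𝒪 ((R ⧸ annI f a) ⧸ 𝔮)) :=
      Fermat.Agent.R.H2.injective_algebraMap_quotient_minimalPrime' 𝒪 _ 𝔮 h𝔮
    haveI : FaithfulSMul 𝒪 ((R ⧸ annI f a) ⧸ 𝔮) :=
      (faithfulSMul_iff_algebraMap_injective 𝒪 _).2 hinj
    obtain ⟨O', iCR, iD, iDVR, iAC, iFin, iCZ, iAlg, iMF, iLH, j, hO'inj, hjinj, hjO, hjmax⟩ :=
      Fermat.Agent.R.H2.exists_dvr_of_finite_domain 𝒪 ((R ⧸ annI f a) ⧸ 𝔮)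
    let x : R →ₐ[𝒪] O' :=
      { toRingHom := j.comp ((Ideal.Quotient.mk 𝔮).comp (Ideal.Quotient.mk (annI f a)))
        commutes' := fun c => by
          show j (Ideal.Quotient.mk 𝔮 (Ideal.Quotient.mk (annI f a) (algebraMap 𝒪 R c))) = _
          rw [Ideal.Quotient.mk_algebraMap, Ideal.Quotient.mk_algebraMap]
          exact hjO c }
    have hx : ∀ y : R, x y = j (Ideal.Quotient.mk 𝔮 (Ideal.Quotient.mk (annI f a) y)) :=
      fun y => rfl
    have hcompat : ∀ y : R, f y a = 0 → x y = 0 := by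
      intro y hy
      have h3 : Ideal.Quotient.mk (annI f a) y = 0 :=
        Ideal.Quotient.eq_zero_iff_mem.mpr ((mem_annI f a y).mpr hy)
      rw [hx, h3, map_zero, map_zero]
    have h6 := H O' x hcompat
    rw [hx] at h6
    have h8 : Ideal.Quotient.mk 𝔮 (Ideal.Quotient.mk (annI f a) τ) = 0 :=
      hjinj (by rw [map_zero]; exact h6)
    exact Ideal.Quotient.eq_zero_iff_mem.mp h8
  have hbot : sInf (minimalPrimes (R ⧸ annI f a)) = (⊥ : Ideal (R ⧸ annI f a)) := by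
    have h1 := Ideal.sInf_minimalPrimes (I := (⊥ : Ideal (R ⧸ annI f a)))
    rw [minimalPrimes, h1]
    exact nilradical_eq_zero _
  rw [hbot] at hnil
  exact (Submodule.mem_bot _).1 hnil

/-- the action of `𝒪 ⊗ 𝕋` -/
noncomputable def actT (ρ : 𝕋 →+* Module.End 𝒪 V) : (𝒪 ⊗[ℤ] 𝕋) →ₐ[𝒪] Module.End 𝒪 V :=
  Algebra.TensorProduct.lift (Algebra.ofId 𝒪 (Module.End 𝒪 V)) ρ.toIntAlgHom
    (fun x y => Algebra.commute_algebraMap_left x _)

theorem actT_tmul (ρ : 𝕋 →+* Module.End 𝒪 V) (c : 𝒪) (t : 𝕋) (v : V) :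
    actT 𝒪 𝕋 ρ (c ⊗ₜ[ℤ] t) v = c • ρ t v := by
  have h : actT 𝒪 𝕋 ρ (c ⊗ₜ[ℤ] t) = algebraMap 𝒪 (Module.End 𝒪 V) c * ρ t :=
    Algebra.TensorProduct.lift_tmul _ _ _ c t
  rw [h, Module.End.mul_apply, Module.algebraMap_end_apply]

/-- **The algebraic core of P-LINK.** -/
theorem alg_core (ρ : 𝕋 →+* Module.End 𝒪 V) (a : V) (t : 𝕋) (c₁ c₀ : 𝒪)
    (H : ∀ (O' : Type) [CommRing O'] [IsDomain O'] [IsDiscreteValuationRing O']
      [IsAdicComplete (maximalIdeal O') O'] [Finite (ResidueField O')] [CharZero O']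
      [Algebra 𝒪 O'] [IsLocalHom (algebraMap 𝒪 O')] (x : 𝕋 →+* O'),
      (∀ (s : 𝕋) (c : 𝒪), ρ s a = c • a → x s = algebraMap 𝒪 O' c) →
      algebraMap 𝒪 O' c₁ * x t = algebraMap 𝒪 O' c₀) :
    c₁ • ρ t a = c₀ • a := by
  have hgen : Algebra.adjoin 𝒪 (Set.range
      (Algebra.TensorProduct.includeRight (R := ℤ) (A := 𝒪) (B := 𝕋)).toRingHom) = ⊤ := by
    rw [eq_top_iff]
    rintro y -
    induction y using TensorProduct.induction_on with
    | zero => exact Subalgebra.zero_mem _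
    | tmul c s =>
      have h1 : c ⊗ₜ[ℤ] s = c • ((1 : 𝒪) ⊗ₜ[ℤ] s) := by
        rw [TensorProduct.smul_tmul', smul_eq_mul, mul_one]
      rw [h1]
      have h2 : (1 : 𝒪) ⊗ₜ[ℤ] s ∈ Set.range
          (Algebra.TensorProduct.includeRight (R := ℤ) (A := 𝒪) (B := 𝕋)).toRingHom :=
        ⟨s, rfl⟩
      exact Subalgebra.smul_mem _ (Algebra.subset_adjoin h2) c
    | add x y hx hy => exact Subalgebra.add_mem _ hx hy
  have key := alg_core_R 𝒪 𝕋 (𝒪 ⊗[ℤ] 𝕋)
    (Algebra.TensorProduct.includeRight (R := ℤ) (A := 𝒪) (B := 𝕋)).toRingHom hgen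
    (actT 𝒪 𝕋 ρ) a (c₁ ⊗ₜ[ℤ] t - c₀ ⊗ₜ[ℤ] (1 : 𝕋)) ?_
  · rw [map_sub, LinearMap.sub_apply, actT_tmul, actT_tmul, map_one, Module.End.one_apply,
      sub_eq_zero] at key
    exact key
  · intro O' _ _ _ _ _ _ _ _ x hx
    have hxc : ∀ (c : 𝒪) (s : 𝕋), x (c ⊗ₜ[ℤ] s) = algebraMap 𝒪 O' c * x ((1 : 𝒪) ⊗ₜ[ℤ] s) := by
      intro c s
      have h1 : c ⊗ₜ[ℤ] s = c • ((1 : 𝒪) ⊗ₜ[ℤ] s) := by
        rw [TensorProduct.smul_tmul', smul_eq_mul, mul_one]
      rw [h1, map_smul, Algebra.smul_def]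
    have hx1 : x ((1 : 𝒪) ⊗ₜ[ℤ] (1 : 𝕋)) = 1 := map_one x
    have h5 := H O' ((x : (𝒪 ⊗[ℤ] 𝕋) →+* O').comp
      (Algebra.TensorProduct.includeRight (R := ℤ) (A := 𝒪) (B := 𝕋)).toRingHom) ?_
    · have h6 : x ((1 : 𝒪) ⊗ₜ[ℤ] t) = ((x : (𝒪 ⊗[ℤ] 𝕋) →+* O').comp
          (Algebra.TensorProduct.includeRight (R := ℤ) (A := 𝒪) (B := 𝕋)).toRingHom) t := rfl
      rw [map_sub, hxc c₁ t, hxc c₀ 1, hx1, mul_one, h6, h5, sub_self]
    · intro s c hs
      have h3 : actT 𝒪 𝕋 ρ ((1 : 𝒪) ⊗ₜ[ℤ] s - c ⊗ₜ[ℤ] (1 : 𝕋)) a = 0 := by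
        rw [map_sub, LinearMap.sub_apply, actT_tmul, actT_tmul, one_smul, map_one,
          Module.End.one_apply, hs, sub_self]
      have h4 := hx _ h3
      rw [map_sub, hxc c 1, hx1, mul_one, sub_eq_zero] at h4
      exact h4

end Main

end Fermat.Agent.S59.CaseC.Geom.H90

end
-- ==== END Fermat.Agent.S59.CaseC.Geom.H90_PLinkAlg

-- ==== BEGIN Fermat.Agent.S59.H47_TWprimes
section

/-!
# S59: `Stmt_TWprimes` (helper47)

`stmt_TWprimes : Stmt_TWprimes` (`S59/Min.lean`), directly from the frozen statement S56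
(`Fermat.Agent.S56.result`, `Fermat/Agent/S56.lean`) with `S := Smin`.
-/

set_option autoImplicit false

namespace Fermat.Agent.S59.H47

open Polynomial IsLocalRing

/-- **TW primes**: the Taylor–Wiles primes of S56, in terms of `cond`. -/
theorem stmt_TWprimes : Stmt_TWprimes := by
  intro 𝒪 _ _ _ _ _ p _ hp2 hp𝒪 fl ρbar Smin h
  have key := Fermat.Agent.S56.result p hp2 hp𝒪 ρbar h.habs h.hdet h.hsplit h.hTW Smin Smin
    h.hpSmin (Finset.Subset.refl _) h.hS h.hmin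
  cases fl with
  | false =>
    obtain ⟨r, hr⟩ := key.1
    refine ⟨r, fun n => ?_⟩
    obtain ⟨qv, h1, h2, h3, h4⟩ := hr n
    exact ⟨qv, ⟨h1, h2, h3⟩, fun DQ => h4 DQ⟩
  | true =>
    obtain ⟨r, hr⟩ := key.2
    refine ⟨r, fun n => ?_⟩
    obtain ⟨qv, h1, h2, h3, h4⟩ := hr n
    exact ⟨qv, ⟨h1, h2, h3⟩, fun DQ => h4 DQ⟩

end Fermat.Agent.S59.H47

end
-- ==== END Fermat.Agent.S59.H47_TWprimes

-- ==== BEGIN Fermat.Agent.S59.LGC.Defs
section

/-!
# S59, case C, LGC-p (helper54): torsion-level interface statements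

Level `N`, `p ∤ N` an odd prime, `A` a valuation ring of `ℚ̄` over `p`,
`K1(n) = BAD.InK1 A N n` = the kernel of reduction on `J₀(N)[n]` (classes with a Kummer function
`≡ 1` for the Gauss valuation).

* `Stmt_TorsESp N p` **(ES-p)**: the Eichler–Shimura relation at `p` modulo `K1`:
  `(g² - T_p g + p) J₀(N)[n] ⊆ K1(n)` for every Frobenius element `g` at `A`.
  [`RED.Stmt_ES3` at `ℓ = p` holds on DIVISORS: `r_*(T_p (g D)) = φ² r_* D + p r_* D`
  (as in `RED.H36.redPackage_of`, which uses `ℓ ∤ p` only for injectivity); so the divisor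
  `E = g g D - T_p (g D) + p D` has `r_* E = 0`; `n E = div f`, `f` scaled to a Gauss unit,
  `div (red f) = 0`, `red f` constant.]
* `Stmt_K1NoUnr N p` **(NUQ)**: `K1(p^k)` has no unramified quotient, at the place
  `padicPlace p`: if `Nsub` is a subgroup stable under the decomposition group,
  `x ∈ K1(p^k)`, `p x ∈ Nsub` and inertia fixes `x` modulo `Nsub`, then `x ∈ Nsub`.
  [`S59.LGC.Stmt_FLGenCoreK1` (file `DefsFL.lean`) + the proof of `R.Stmt_FlatInf`
  (`S33.H86.flatInf_padicPlace`, `subq_gen`) for the explicit Hopf order `genAlg`.]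

`Fermat.Agent.S59.LGC.H54.lgc_of` deduces `CaseC.Geom.Stmt_LGCpt` from these two statements.
Definitions only.
-/

set_option autoImplicit false

noncomputable section

open AlgebraicCurve ModularCurve

namespace Fermat.Agent.S59.LGC

/-- **(ES-p)**: the Eichler–Shimura relation at `p ∤ N` on the `n`-torsion of `J₀(N)`, modulo
the kernel of reduction. -/
def Stmt_TorsESp (N p : ℕ) [NeZero N] : Prop :=
  ∀ (hp : p.Prime), ¬ p ∣ N →
    ∀ A : ValuationSubring (AlgebraicClosure ℚ), A.LiesOverPrime p →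
      ∀ σ : AlgebraicClosure ℚ ≃ₐ[ℚ] AlgebraicClosure ℚ, A.IsFrobeniusAt σ p →
        ∀ (n : ℕ) (x : JZero N), n • x = 0 →
          Fermat.Agent.BAD.InK1 A N n
            (σ • σ • x - heckeOperatorBar N ⟨p, hp⟩ (σ • x) + p • x)

/-- **(NUQ)**: the kernel of reduction `K1(p^k)` of `J₀(N)`, `p ∤ N` odd, has no unramified
quotient (place `padicPlace p`). -/
def Stmt_K1NoUnr (N p : ℕ) [NeZero N] [Fact p.Prime] : Prop :=
  p ≠ 2 → ¬ p ∣ N → ∀ (k : ℕ) (Nsub : AddSubgroup (JZero N)),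
    (∀ σ ∈ (padicPlace p).decompositionSubgroup ℚ, ∀ x ∈ Nsub, σ • x ∈ Nsub) →
    ∀ x : JZero N, Fermat.Agent.BAD.InK1 (padicPlace p) N (p ^ k) x → p • x ∈ Nsub →
      (∀ σ ∈ (padicPlace p).inertiaSubgroupIn ℚ, σ • x - x ∈ Nsub) → x ∈ Nsub

end Fermat.Agent.S59.LGC

end
end
-- ==== END Fermat.Agent.S59.LGC.Defs

-- ==== BEGIN Fermat.Agent.S59.LGC.DefsFL
section

/-!
# S59, case C, LGC-p (helper54): the finite flat coordinates WITH the reduction clause

The coordinates `h j` of G-FL (S19) on `J₀(N)[ℓ^k]`, `ℓ ∤ N`, have one more property which the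
S19 chain does not export: **two points with the same reduction have congruent coordinates**
(the coordinates are the indicators of the reduction classes and the entries of the integral
echelon bases `M x`, which depend on `x` only through `L(B₁ - E x)`, whose reduction depends
only on the reduction of `x`).  With this clause the points of the Hopf order which reduce to
the identity CONTAIN the kernel of reduction `K1` (`BAD.InK1`), so that `R.Stmt_FlatInf`
("a connected finite flat group scheme has no unramified quotient", `p` odd) applies to `K1`.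

* `RedZero S z`        : the class `z` has a representative whose reduction is the zero divisor.
* `HasIntCoordsK1`, `Stmt_FLAbsK1`   : `FL.Stmt_FLAbs` + the clause.   [copy of
  `FL.H36.stmt_FLAbs_of`; clause: `RedZero (x - y)` ⟹ `CS.cls x = CS.cls y` (`Stmt_RedLinEq`,
  `l~(r_* E x) = 1`) ⟹ `(M x).map rc = (M y).map rc` (`IsEch`, `Stmt_EchUnique`).]
* `Stmt_FLTameCK1`     : `FL.Stmt_FLTameC` + the clause for `BAD.InK1`.   [copy of
  `FL.H33.stmt_FLTameC_of`; `InK1 A M n z`, `n ≠ 0` ⟹ `RedZero (tameSetup ..) z` by `RedSetup.DI`.]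
* `Stmt_FLGenCoreK1`   : `S19.H32.Stmt_FLGenCore` for EVERY place `A` over `ℓ` + the clause.
  [copy of `S19.H32.flGenCore_of_tame`; `InK1 A N n x → InK1 A M n (levelPull x)`:
  `FL.H2.pullD_kummer`, the Laurent series of `inclFN f` is that of `f`.]

Definitions only.
-/

set_option autoImplicit false

noncomputable section

open AlgebraicCurve ModularCurve

namespace Fermat.Agent.S59.LGC

open Fermat.Agent.FL Fermat.Agent.RED Fermat.Agent.RED.H17 Fermat.Agent.Lib.HopfOrder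
  Fermat.Agent.Lib.HopfOrderLoc Fermat.Agent.S19 Fermat.Agent.S19.H32

/-- The class `z` has a representative whose reduction is the zero divisor. -/
def RedZero {K F k F' : Type} [Field K] [Field F] [Algebra K F] [Field k] [Field F']
    [Algebra k F'] (S : RedSetup K F k F') (z : Pic0 K F) : Prop :=
  ∃ D : Divisor.degZero (K := K) (F := F), Pic0.mk D = z ∧
    Finsupp.mapDomain S.r (D : Divisor K F) = 0

/-- `FL.HasIntCoords` with the reduction clause: points of `𝒮` whose difference reduces to zero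
have congruent coordinates. -/
def HasIntCoordsK1 {K F k F' : Type} [Field K] [Field F] [Algebra K F] [Field k] [Field F']
    [Algebra k F'] (S : RedSetup K F k F') {Γ : Type} [Group Γ] (G : GalRed S Γ)
    (𝒮 : Set (Pic0 K F)) : Prop :=
  ∃ (ι : Type) (_ : Finite ι) (h : ι → 𝒮 → K),
    (∀ j x, h j x ∈ constVal S) ∧
    (∀ j, ∀ σ ∈ G.I, ∀ (x : 𝒮) (hx : G.act σ • (x : Pic0 K F) ∈ 𝒮),
      h j ⟨_, hx⟩ = SemilinearAut.baseAut (G.act σ) (h j x)) ∧
    (∀ j (σ : Γ), ∃ φ ∈ genRing (constVal S).toSubring h,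
      ∀ (x : 𝒮) (hx : G.act σ • (x : Pic0 K F) ∈ 𝒮),
        φ ⟨_, hx⟩ = SemilinearAut.baseAut (G.act σ) (h j x)) ∧
    (∀ x y : 𝒮, x ≠ y → ∃ j, h j x ≠ h j y) ∧
    (∀ j, ∃ φ ∈ pairRing (constVal S).toSubring h,
      ∀ (x y : 𝒮) (hxy : (x : Pic0 K F) + (y : Pic0 K F) ∈ 𝒮), φ (x, y) = h j ⟨_, hxy⟩) ∧
    (∀ x y : 𝒮, RedZero S ((x : Pic0 K F) - (y : Pic0 K F)) →
      ∀ j, (constVal S).valuation (h j x - h j y) < 1)

/-- **The abstract main theorem of G-FL with the reduction clause.** -/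
def Stmt_FLAbsK1 : Prop :=
  ∀ (K F k F' : Type) [Field K] [Field F] [Algebra K F] [Field k] [Field F'] [Algebra k F']
    [IsAlgClosed K] [IsAlgClosed k] (S : RedSetup K F k F'), IsFF K F → IsFF k F' →
    S.GenusLE' →
  ∀ (Γ : Type) [Group Γ] (G : GalRed S Γ), HasUnrConst S G → HasRatFrames S G →
  ∀ 𝒮 : Set (Pic0 K F), 𝒮.Finite → (∀ (σ : Γ), ∀ x ∈ 𝒮, G.act σ • x ∈ 𝒮) →
    HasIntCoordsK1 S G 𝒮

/-- **The concrete main theorem of G-FL at a tame level with the reduction clause.** -/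
def Stmt_FLTameCK1 : Prop :=
  ∀ (M ℓ : ℕ) [NeZero M], ℓ.Prime → ¬ ℓ ∣ M → IsTame M ℓ →
  ∀ A : ValuationSubring (AlgebraicClosure ℚ), A.LiesOverPrime ℓ →
  ∀ 𝒮 : Set (JZero M), 𝒮.Finite →
    (∀ σ ∈ A.decompositionSubgroup ℚ, ∀ x ∈ 𝒮, σ • x ∈ 𝒮) →
    ∃ (ι : Type) (_ : Finite ι) (h : ι → 𝒮 → AlgebraicClosure ℚ),
      (∀ j x, h j x ∈ A) ∧
      (∀ j, ∀ σ ∈ A.inertiaSubgroupIn ℚ, ∀ (x : 𝒮) (hx : σ • (x : JZero M) ∈ 𝒮),
        h j ⟨_, hx⟩ = σ (h j x)) ∧
      (∀ j, ∀ σ ∈ A.decompositionSubgroup ℚ, ∃ φ ∈ genRing A.toSubring h,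
        ∀ (x : 𝒮) (hx : σ • (x : JZero M) ∈ 𝒮), φ ⟨_, hx⟩ = σ (h j x)) ∧
      (∀ x y : 𝒮, x ≠ y → ∃ j, h j x ≠ h j y) ∧
      (∀ j, ∃ φ ∈ pairRing A.toSubring h,
        ∀ (x y : 𝒮) (hxy : (x : JZero M) + (y : JZero M) ∈ 𝒮), φ (x, y) = h j ⟨_, hxy⟩) ∧
      (∀ x y : 𝒮, ∀ n : ℕ, n ≠ 0 →
        Fermat.Agent.BAD.InK1 A M n ((x : JZero M) - (y : JZero M)) →
        ∀ j, A.valuation (h j x - h j y) < 1)

/-- **Local generators of `J₀(N)[ℓ^k]`, `ℓ ∤ N`, at EVERY place `A` over `ℓ`, with the reduction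
clause**: if `x - y ∈ K1(ℓ^k)` then `h j x ≡ h j y` modulo the maximal ideal of `A`. -/
def Stmt_FLGenCoreK1 : Prop :=
  ∀ (N : ℕ) [NeZero N] (ℓ : ℕ) [Fact ℓ.Prime], ¬ ℓ ∣ N → ∀ k : ℕ,
    ∀ A : ValuationSubring (AlgebraicClosure ℚ), A.LiesOverPrime ℓ →
    ∃ (ι : Type) (_ : Finite ι) (h : ι → Tors N ((ℓ : ℤ) ^ k) → AlgebraicClosure ℚ),
      (∀ j x, h j x ∈ A) ∧
      (∀ j, ∀ σ ∈ A.inertiaSubgroupIn ℚ, ∀ x,
        h j (torsAct N ((ℓ : ℤ) ^ k) σ x) = σ (h j x)) ∧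
      (∀ j, ∀ σ ∈ A.decompositionSubgroup ℚ,
        twist (torsAct N ((ℓ : ℤ) ^ k)) σ (h j) ∈ genRing A.toSubring h) ∧
      (∀ x y, x ≠ y → ∃ j, h j x ≠ h j y) ∧
      (∀ j, (fun q : Tors N ((ℓ : ℤ) ^ k) × Tors N ((ℓ : ℤ) ^ k) => h j (q.1 + q.2)) ∈
        pairRing A.toSubring h) ∧
      (∀ x y : Tors N ((ℓ : ℤ) ^ k),
        Fermat.Agent.BAD.InK1 A N (ℓ ^ k) ((x : JZero N) - (y : JZero N)) →
        ∀ j, A.valuation (h j x - h j y) < 1)

end Fermat.Agent.S59.LGC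

end
end
-- ==== END Fermat.Agent.S59.LGC.DefsFL

-- ==== BEGIN Fermat.Agent.S59.LGC.H54_NUQ
section

/-!
# S59, case C, LGC-p: groups without unramified quotients (pure algebra)  (helper54)

`G` a group acting additively on `W` (`act : G → W →+ W`), `D, I ⊆ G` ("decomposition" and
"inertia", `I ⊆ D`), `p : ℕ`.  A subgroup `K` of `W` has **no unramified quotient**
(`NUQ p act D I K`) if for every `D`-stable subgroup `Nsub` and every `κ ∈ K` with
`p κ ∈ Nsub` whose class modulo `Nsub` is fixed by `I`, one has `κ ∈ Nsub`.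

* `NUQ.pow`  : the same with `p ^ j κ ∈ Nsub`;
* `NUQ.map`  : images under equivariant homomorphisms;
* `NUQ.sup`, `NUQ.finset_sup` : (finite) sums of `D`-stable subgroups;
* `nuq_span` : the span over a finite ring `R` of the image of `K` in an `R`-module on which
  `G` acts `R`-linearly.
-/

set_option autoImplicit false
set_option linter.unusedSectionVars false

namespace Fermat.Agent.S59.LGC.H54

section NUQ

variable {G W W' : Type} [AddCommGroup W] [AddCommGroup W']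

/-- `Nsub` is stable under `D`. -/
def DStable (act : G → W →+ W) (D : Set G) (Nsub : AddSubgroup W) : Prop :=
  ∀ σ ∈ D, ∀ w ∈ Nsub, act σ w ∈ Nsub

/-- `K` has no unramified quotient. -/
def NUQ (p : ℕ) (act : G → W →+ W) (D I : Set G) (K : AddSubgroup W) : Prop :=
  ∀ Nsub : AddSubgroup W, DStable act D Nsub →
    ∀ κ ∈ K, p • κ ∈ Nsub → (∀ σ ∈ I, act σ κ - κ ∈ Nsub) → κ ∈ Nsub

variable {p : ℕ} {act : G → W →+ W} {act' : G → W' →+ W'} {D I : Set G}

theorem DStable.sup {A B : AddSubgroup W} (hA : DStable act D A) (hB : DStable act D B) :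
    DStable act D (A ⊔ B) := by
  intro σ hσ w hw
  obtain ⟨a, ha, b, hb, rfl⟩ := AddSubgroup.mem_sup.1 hw
  rw [map_add]
  exact AddSubgroup.mem_sup.2 ⟨_, hA σ hσ a ha, _, hB σ hσ b hb, rfl⟩

theorem DStable.bot : DStable act D (⊥ : AddSubgroup W) := by
  intro σ _ w hw
  rw [AddSubgroup.mem_bot] at hw ⊢
  rw [hw, map_zero]

theorem DStable.finset_sup {ι : Type} (K : ι → AddSubgroup W)
    (hK : ∀ i, DStable act D (K i)) (s : Finset ι) : DStable act D (s.sup K) := by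
  classical
  induction s using Finset.induction_on with
  | empty =>
    rw [Finset.sup_empty]
    exact DStable.bot
  | insert a s _ ih =>
    rw [Finset.sup_insert]
    exact (hK a).sup ih

theorem DStable.map {K : AddSubgroup W} (hK : DStable act D K) (f : W →+ W')
    (hf : ∀ σ ∈ D, ∀ w, f (act σ w) = act' σ (f w)) : DStable act' D (K.map f) := by
  rintro σ hσ _ ⟨w, hw, rfl⟩
  exact ⟨act σ w, hK σ hσ w hw, hf σ hσ w⟩

/-- the `p`-power form. -/
theorem NUQ.pow {K : AddSubgroup W} (h : NUQ p act D I K) (Nsub : AddSubgroup W)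
    (hN : DStable act D Nsub) (j : ℕ) :
    ∀ κ ∈ K, p ^ j • κ ∈ Nsub → (∀ σ ∈ I, act σ κ - κ ∈ Nsub) → κ ∈ Nsub := by
  induction j with
  | zero =>
    intro κ _ h0 _
    rwa [pow_zero, one_smul] at h0
  | succ j ih =>
    intro κ hκ h1 h2
    refine ih κ hκ ?_ h2
    refine h Nsub hN (p ^ j • κ) (K.nsmul_mem hκ _) ?_ ?_
    · rw [← mul_smul, ← pow_succ']
      exact h1
    · intro σ hσ
      have e : act σ (p ^ j • κ) - p ^ j • κ = p ^ j • (act σ κ - κ) := by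
        rw [map_nsmul, nsmul_sub]
      rw [e]
      exact Nsub.nsmul_mem (h2 σ hσ) _

/-- images under equivariant homomorphisms. -/
theorem NUQ.map {K : AddSubgroup W} (h : NUQ p act D I K) (hID : I ⊆ D) (f : W →+ W')
    (hf : ∀ σ ∈ D, ∀ w, f (act σ w) = act' σ (f w)) : NUQ p act' D I (K.map f) := by
  rintro Nsub hN _ ⟨κ, hκ, rfl⟩ h1 h2
  have hc : DStable act D (Nsub.comap f) := by
    intro σ hσ w hw
    show f (act σ w) ∈ Nsub
    rw [hf σ hσ w]
    exact hN σ hσ _ hw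
  refine h (Nsub.comap f) hc κ hκ ?_ ?_
  · show f (p • κ) ∈ Nsub
    rw [map_nsmul]
    exact h1
  · intro σ hσ
    show f (act σ κ - κ) ∈ Nsub
    rw [map_sub, hf σ (hID hσ) κ]
    exact h2 σ hσ

/-- sums. -/
theorem NUQ.sup {A B : AddSubgroup W} (hA : NUQ p act D I A) (hB : NUQ p act D I B)
    (hID : I ⊆ D) (hBs : DStable act D B) : NUQ p act D I (A ⊔ B) := by
  intro Nsub hN κ hκ h1 h2
  obtain ⟨a, ha, b, hb, rfl⟩ := AddSubgroup.mem_sup.1 hκ
  have hNB : DStable act D (Nsub ⊔ B) := hN.sup hBs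
  have ha' : a ∈ Nsub ⊔ B := by
    refine hA (Nsub ⊔ B) hNB a ha ?_ ?_
    · have e : p • a = p • (a + b) + (- (p • b)) := by
        rw [nsmul_add]
        abel
      rw [e]
      exact AddSubgroup.mem_sup.2 ⟨_, h1, _, B.neg_mem (B.nsmul_mem hb _), rfl⟩
    · intro σ hσ
      have e : act σ a - a = (act σ (a + b) - (a + b)) + (- (act σ b - b)) := by
        rw [map_add]
        abel
      rw [e]
      exact AddSubgroup.mem_sup.2 ⟨_, h2 σ hσ, _,
        B.neg_mem (B.sub_mem (hBs σ (hID hσ) b hb) hb), rfl⟩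
  obtain ⟨n, hn, b', hb', hab⟩ := AddSubgroup.mem_sup.1 ha'
  have hb'' : b' + b ∈ Nsub := by
    refine hB Nsub hN (b' + b) (B.add_mem hb' hb) ?_ ?_
    · have e : p • (b' + b) = p • (a + b) - p • n := by
        rw [← hab]
        simp only [nsmul_add]
        abel
      rw [e]
      exact Nsub.sub_mem h1 (Nsub.nsmul_mem hn _)
    · intro σ hσ
      have e : act σ (b' + b) - (b' + b) =
          (act σ (a + b) - (a + b)) - (act σ n - n) := by
        rw [← hab]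
        simp only [map_add]
        abel
      rw [e]
      exact Nsub.sub_mem (h2 σ hσ) (Nsub.sub_mem (hN σ (hID hσ) n hn) hn)
  have e : a + b = n + (b' + b) := by
    rw [← hab]
    abel
  rw [e]
  exact Nsub.add_mem hn hb''

theorem NUQ.bot : NUQ p act D I (⊥ : AddSubgroup W) := by
  intro Nsub _ κ hκ _ _
  rw [AddSubgroup.mem_bot] at hκ
  rw [hκ]
  exact Nsub.zero_mem

/-- finite sums. -/
theorem NUQ.finset_sup {ι : Type} (K : ι → AddSubgroup W)
    (hK : ∀ i, NUQ p act D I (K i)) (hKs : ∀ i, DStable act D (K i)) (hID : I ⊆ D)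
    (s : Finset ι) : NUQ p act D I (s.sup K) := by
  classical
  induction s using Finset.induction_on with
  | empty =>
    rw [Finset.sup_empty]
    exact NUQ.bot
  | insert a s _ ih =>
    rw [Finset.sup_insert]
    exact (hK a).sup ih hID (DStable.finset_sup K hKs s)

end NUQ

section Span

variable {G M W R : Type} [AddCommGroup M] [AddCommGroup W] [CommRing R] [Module R W]
  [Fintype R]

/-- the homomorphism `x ↦ a • c x`. -/
def smulHom (c : M →+ W) (a : R) : M →+ W where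
  toFun x := a • c x
  map_zero' := by rw [map_zero, smul_zero]
  map_add' x y := by rw [map_add, smul_add]

@[simp] theorem smulHom_apply (c : M →+ W) (a : R) (x : M) : smulHom c a x = a • c x := rfl

/-- the `R`-span of the image of `K`, as a finite sum of images. -/
def spanSup (c : M →+ W) (K : AddSubgroup M) : AddSubgroup W :=
  Finset.univ.sup fun a : R => K.map (smulHom c a)

theorem smul_mem_spanSup (c : M →+ W) (K : AddSubgroup M) (a : R) {x : M} (hx : x ∈ K) :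
    a • c x ∈ spanSup (R := R) c K := by
  have h1 : K.map (smulHom c a) ≤ spanSup (R := R) c K :=
    Finset.le_sup (f := fun a : R => K.map (smulHom c a)) (Finset.mem_univ a)
  exact h1 ⟨x, hx, rfl⟩

/-- **The span of a group without unramified quotient has no unramified quotient.** -/
theorem nuq_span {p : ℕ} {actM : G → M →+ M} {actW : G → W →+ W} {D I : Set G}
    (hID : I ⊆ D) (c : M →+ W) (hc : ∀ σ ∈ D, ∀ x, c (actM σ x) = actW σ (c x))
    (hlin : ∀ σ ∈ D, ∀ (a : R) (w : W), actW σ (a • w) = a • actW σ w)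
    {K : AddSubgroup M} (hK : NUQ p actM D I K) (hKs : DStable actM D K) :
    NUQ p actW D I (spanSup (R := R) c K) := by
  have hf : ∀ a : R, ∀ σ ∈ D, ∀ x, smulHom c a (actM σ x) = actW σ (smulHom c a x) := by
    intro a σ hσ x
    rw [smulHom_apply, smulHom_apply, hc σ hσ x, hlin σ hσ]
  exact NUQ.finset_sup _ (fun a => hK.map hID (smulHom c a) (hf a))
    (fun a => hKs.map (smulHom c a) (hf a)) hID Finset.univ

end Span

end Fermat.Agent.S59.LGC.H54

end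
-- ==== END Fermat.Agent.S59.LGC.H54_NUQ

-- ==== BEGIN Fermat.Agent.S59.LL.SQ.H50_Compositum
section

/-!
# S59 / LL / SQ, leaf U2 SPAN-UP (helper50), part 1: the compositum `F_b (j_c) = F_d`

For `b ∣ d`, `c ∣ d` such that every integer divisible by `b` and by `c` is divisible by `d`
(`d = lcm (b, c)`): `F_d` is generated over `F_b` by `j (q ^ c)`.

Galois correspondence in the S24 closure `LN d / EN`: an automorphism `piN d γ` fixing
`j (q ^ b)` and `j (q ^ c)` has `γ ∈ Γ₀(b) ∩ Γ₀(c) = Γ₀(d)`, hence fixes `F_d`.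
-/

set_option autoImplicit false
set_option linter.style.haveILetI false
set_option linter.unusedSectionVars false

noncomputable section

namespace Fermat.Agent.S59.LL.SQ.H50

open AlgebraicCurve ModularCurve Fermat.Agent.S24 Fermat.Agent.Lib.HeckeComm
  Fermat.Agent.S36.NU.H44
open scoped MatrixGroups

local notation "Kb" => AlgebraicClosure ℚ

section Comp

variable (b c d : ℕ) [NeZero b] [NeZero c] [NeZero d] (hb : b ∣ d) (hc : c ∣ d)
  (hlcm : ∀ n : ℤ, (b : ℤ) ∣ n → (c : ℤ) ∣ n → (d : ℤ) ∣ n)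

include hlcm in
theorem mem_Gamma0_of_lcm {γ : SL(2, ℤ)} (h1 : γ ∈ CongruenceSubgroup.Gamma0 b)
    (h2 : γ ∈ CongruenceSubgroup.Gamma0 c) : γ ∈ CongruenceSubgroup.Gamma0 d := by
  rw [CongruenceSubgroup.Gamma0_mem, ZMod.intCast_zmod_eq_zero_iff_dvd] at h1 h2 ⊢
  exact hlcm _ h1 h2

include hlcm in
/-- An automorphism of the closure fixing `j_b` and `j_c` fixes `F_d`. -/
theorem fixingSubgroup_adjoin_pair_le :
    (IntermediateField.adjoin EN {phi d (jdF d b hb), phi d (jdF d c hc)} :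
        IntermediateField EN (LN d)).fixingSubgroup
      ≤ (IsScalarTower.toAlgHom EN (FN d) (LN d)).fieldRange.fixingSubgroup := by
  intro σ hσ
  obtain ⟨γ, rfl⟩ := piN_surjective d σ
  rw [IntermediateField.mem_fixingSubgroup_iff] at hσ ⊢
  have hγb : γ ∈ CongruenceSubgroup.Gamma0 b := by
    have h1 := hσ (phi d (jdF d b hb))
      (IntermediateField.subset_adjoin _ _ (Set.mem_insert _ _))
    rw [piN_phi_jdF, phi_jdF] at h1
    have h2 := IsFractionRing.injective (AT d) (LN d) h1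
    have h3 := (toAT d).injective h2
    exact mem_Gamma0_of_smul_jdA_d d b (Nat.pos_of_ne_zero (NeZero.ne b)) hb γ h3
  have hγc : γ ∈ CongruenceSubgroup.Gamma0 c := by
    have h1 := hσ (phi d (jdF d c hc))
      (IntermediateField.subset_adjoin _ _ (Set.mem_insert_of_mem _ (Set.mem_singleton _)))
    rw [piN_phi_jdF, phi_jdF] at h1
    have h2 := IsFractionRing.injective (AT d) (LN d) h1
    have h3 := (toAT d).injective h2
    exact mem_Gamma0_of_smul_jdA_d d c (Nat.pos_of_ne_zero (NeZero.ne c)) hc γ h3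
  have hγ := mem_Gamma0_of_lcm b c d hlcm hγb hγc
  rintro _ ⟨y, rfl⟩
  exact piN_phi_of_mem_Gamma0 d γ hγ y

include hlcm in
/-- The image of `F_d` in the closure is `EN (j_b, j_c)`. -/
theorem fieldRange_eq_adjoin_pair :
    (IsScalarTower.toAlgHom EN (FN d) (LN d)).fieldRange
      = IntermediateField.adjoin EN {phi d (jdF d b hb), phi d (jdF d c hc)} := by
  apply le_antisymm
  · rw [← IsGalois.fixedField_fixingSubgroup
      (IntermediateField.adjoin EN {phi d (jdF d b hb), phi d (jdF d c hc)} :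
        IntermediateField EN (LN d)),
      IntermediateField.le_iff_le]
    exact fixingSubgroup_adjoin_pair_le b c d hb hc hlcm
  · rw [IntermediateField.adjoin_le_iff]
    rintro _ (rfl | rfl)
    · exact ⟨jdF d b hb, rfl⟩
    · exact ⟨jdF d c hc, rfl⟩

include hlcm in
/-- `F_d` is generated by `j_b`, `j_c` over `EN = Q̄(j)`. -/
theorem adjoin_EN_pair :
    (IntermediateField.adjoin EN {jdF d b hb, jdF d c hc} : IntermediateField EN (FN d)) = ⊤ := by
  apply IntermediateField.map_injective (IsScalarTower.toAlgHom EN (FN d) (LN d))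
  rw [IntermediateField.adjoin_map, Set.image_pair, ← AlgHom.fieldRange_eq_map,
    fieldRange_eq_adjoin_pair b c d hb hc hlcm]
  rfl

include hlcm in
/-- **The compositum**: `F_d = F_b (j (q ^ c))` for `d = lcm (b, c)`. -/
theorem adjoin_FN_jdF_of_lcm :
    letI := (inclFN b d hb).toRingHom.toAlgebra
    IntermediateField.adjoin (FN b) {jdF d c hc} = ⊤ := by
  letI := (inclFN b d hb).toRingHom.toAlgebra
  show (IntermediateField.adjoin (FN b) {jdF d c hc} : IntermediateField (FN b) (FN d)) = ⊤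
  let D : IntermediateField Kb (FN d) :=
    { (IntermediateField.adjoin (FN b) {jdF d c hc} :
        IntermediateField (FN b) (FN d)).toSubfield with
      algebraMap_mem' := fun x => by
        have hx : algebraMap Kb (FN d) x = algebraMap (FN b) (FN d) (algebraMap Kb (FN b) x) :=
          ((inclFN b d hb).commutes x).symm
        rw [hx]
        exact (IntermediateField.adjoin (FN b) {jdF d c hc} :
          IntermediateField (FN b) (FN d)).algebraMap_mem _ }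
  have hjD : jF d ∈ D := by
    have hj : jF d = algebraMap (FN b) (FN d) (jF b) := (inclFN_jF b d hb).symm
    rw [hj]
    exact (IntermediateField.adjoin (FN b) {jdF d c hc} :
      IntermediateField (FN b) (FN d)).algebraMap_mem _
  have hbD : jdF d b hb ∈ D := by
    have hj : jdF d b hb = algebraMap (FN b) (FN d) (jdF b b dvd_rfl) :=
      (inclFN_jdF b d hb b dvd_rfl).symm
    rw [hj]
    exact (IntermediateField.adjoin (FN b) {jdF d c hc} :
      IntermediateField (FN b) (FN d)).algebraMap_mem _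
  have hcD : jdF d c hc ∈ D :=
    IntermediateField.subset_adjoin (FN b) _ (Set.mem_singleton _)
  let B : IntermediateField EN (FN d) :=
    { D.toSubfield with
      algebraMap_mem' := fun y => H44.algebraMap_EN_mem d D hjD y }
  have hB : B = ⊤ := by
    rw [eq_top_iff, ← adjoin_EN_pair b c d hb hc hlcm, IntermediateField.adjoin_le_iff]
    rintro _ (rfl | rfl)
    · exact hbD
    · exact hcD
  rw [eq_top_iff]
  intro x _
  have hx : x ∈ B := by rw [hB]; exact IntermediateField.mem_top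
  exact hx

end Comp

end Fermat.Agent.S59.LL.SQ.H50

end
end
-- ==== END Fermat.Agent.S59.LL.SQ.H50_Compositum
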