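-- GENERATED (merged mirror, NOTES/tools/trim/merge3_helper67.py): 19 modules of the originals, bodies verbatim.
import Mathlib
import Fermat.Prelude.Thm_IsAdicComplete_of_module_finite
import Mathlib.NumberTheory.ModularForms.QExpansion
import Mathlib.NumberTheory.ModularForms.CongruenceSubgroups
import Fermat.Prelude.Def_ModularForm_HeckeOperatorForms
import Fermat.Prelude.Def_FLTPrelim_Modularity
import Fermat.Prelude.Thm_ModularFormClass_qCoeff_heckeT
import Fermat.Prelude.Thm_ModularFormClass_qCoeff_heckeU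
import Fermat.Prelude.Thm_CongruenceSubgroup_one_mem_strictPeriods_Gamma0
import Fermat.Agent.Zm.S43_L01_003
import Fermat.Agent.Zm.S43_L14_003
import Fermat.Agent.Zm.S35_L11_000
import Fermat.Agent.Zm.S35_L04_000
import Fermat.Agent.Zm.S43_L01_005
import Fermat.Agent.Zm.S43_L07_002
import Fermat.Agent.Zm.S43_L13_002
import Fermat.Agent.Zm.S43_L04_002
import Fermat.Agent.Zm.S43_L02_003
import Fermat.Agent.Zm.S43_L01_001

-- ==== BEGIN Fermat.Agent.S59.NonMin.Geom.H13_RelTAbs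
section

/-!
# S59, NMGEOM, leaf REL-T (helper13): abstract part

Transfer calculus for "Hecke operators" `T = cor_a ∘ res_b` defined by a pair of homomorphisms
`a, b : G' → G`.

* `index_range_comp`, `finiteIndex_of_comp` : the index of a composite of injective maps;
* `corAlong_id`, `corAlong_zero'` ;
* `cor_hecke_comm` : the transfer along `ι : H → G` commutes with the Hecke operators, if the
  square of the `b`'s is cartesian and the `a`'s have the same index;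
* `res_hecke_comm` : the same for the restriction.
-/

set_option autoImplicit false
set_option linter.style.haveILetI false

namespace Fermat.Agent.S59.NonMin.Geom.H13

open Fermat.Agent.S41 Fermat.Agent.S41.H19 Fermat.Agent.S41.H77

section Index

variable {P H G : Type*} [Group P] [Group H] [Group G]

/-- The index of the range of a composite. -/
theorem index_range_comp (κ : P →* H) (ι : H →* G) (hι : Function.Injective ι) :
    (ι.comp κ).range.index = κ.range.index * ι.range.index := by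
  rw [MonoidHom.range_comp, Subgroup.index_map_of_injective _ hι]

theorem finiteIndex_of_comp (κ : P →* H) (ι : H →* G) (hι : Function.Injective ι)
    (h : (ι.comp κ).range.FiniteIndex) : κ.range.FiniteIndex ∧ ι.range.FiniteIndex := by
  have h1 := h.index_ne_zero
  rw [index_range_comp κ ι hι] at h1
  exact ⟨⟨fun h0 => h1 (by rw [h0, zero_mul])⟩, ⟨fun h0 => h1 (by rw [h0, mul_zero])⟩⟩

theorem finiteIndex_comp (κ : P →* H) (ι : H →* G) (hι : Function.Injective ι)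
    (hκ : κ.range.FiniteIndex) (hι' : ι.range.FiniteIndex) : (ι.comp κ).range.FiniteIndex := by
  refine ⟨?_⟩
  rw [index_range_comp κ ι hι]
  exact Nat.mul_ne_zero hκ.index_ne_zero hι'.index_ne_zero

end Index

section Cor

variable {G : Type*} [Group G] {A : Type*} [AddCommGroup A]

theorem corAlong_zero' {H : Type*} [Group H] (ι : H →* G) :
    corAlong A ι (0 : Additive H →+ A) = 0 := by
  have h := corAlong_sub (A := A) ι (0 : Additive H →+ A) 0
  rw [sub_zero, sub_self] at h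
  exact h

/-- The transfer along the identity. -/
theorem corAlong_id (φ : Additive G →+ A) : corAlong A (MonoidHom.id G) φ = φ := by
  haveI : (MonoidHom.id G).range.FiniteIndex := by
    rw [MonoidHom.range_eq_top.2 Function.surjective_id]
    infer_instance
  have h := corAlong_resAlong (A := A) (MonoidHom.id G) Function.injective_id φ
  rw [MonoidHom.range_eq_top.2 Function.surjective_id, Subgroup.index_top, one_smul] at h
  exact h

end Cor

section Hecke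

variable {G H G' H' : Type*} [Group G] [Group H] [Group G'] [Group H']
  {A : Type*} [AddCommGroup A]

/-- **The transfer commutes with the Hecke operators.** -/
theorem cor_hecke_comm (ι : H →* G) (aG bG : G' →* G) (aH bH : H' →* H) (ι' : H' →* G')
    (hι : Function.Injective ι) [hfι : ι.range.FiniteIndex]
    (haG : Function.Injective aG) [hfG : aG.range.FiniteIndex]
    (haH : Function.Injective aH) [hfH : aH.range.FiniteIndex]
    (hι' : Function.Injective ι')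
    (hidx : aG.range.index = aH.range.index)
    (hca : ∀ p, ι (aH p) = aG (ι' p)) (hcb : ∀ p, bG (ι' p) = ι (bH p))
    (hpull : ∀ (k : G') (h : H), bG k = ι h → ∃ p, ι' p = k)
    (ψ : Additive H →+ A) :
    corAlong A ι (corAlong A aH (resAlong A bH ψ))
      = corAlong A aG (resAlong A bG (corAlong A ι ψ)) := by
  have hcomp : ι.comp aH = aG.comp ι' := MonoidHom.ext hca
  have h1 := index_range_comp aH ι hι
  have h2 := index_range_comp ι' aG haG
  rw [hcomp, h2, hidx] at h1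
  have h0 : aH.range.index ≠ 0 := hfH.index_ne_zero
  have h3 : ι'.range.index = ι.range.index := by
    have h4 : aH.range.index * ι'.range.index = aH.range.index * ι.range.index := by
      rw [mul_comm, h1]
    exact Nat.eq_of_mul_eq_mul_left (Nat.pos_of_ne_zero h0) h4
  haveI hfι' : ι'.range.FiniteIndex := ⟨by rw [h3]; exact hfι.index_ne_zero⟩
  have hidx' : Nat.card (G ⧸ ι.range) ≤ Nat.card (G' ⧸ ι'.range) := by
    rw [← Subgroup.index_eq_card, ← Subgroup.index_eq_card, h3]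
  rw [← corAlong_comp aH ι haH hι, hcomp, corAlong_comp ι' aG hι' haG,
    corAlong_mackey ι bG ι' bH hι hι' hcb hpull hidx' ψ]

/-- **The restriction commutes with the Hecke operators.** -/
theorem res_hecke_comm (r : H →* G) (aG bG : G' →* G) (aH bH : H' →* H) (r' : H' →* G')
    (haG : Function.Injective aG) [hfG : aG.range.FiniteIndex]
    (haH : Function.Injective aH)
    (hidx : Nat.card (G ⧸ aG.range) ≤ Nat.card (H ⧸ aH.range))
    (hca : ∀ p, r (aH p) = aG (r' p)) (hcb : ∀ p, bG (r' p) = r (bH p))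
    (hpull : ∀ (k : H) (h : G'), r k = aG h → ∃ p, aH p = k)
    (φ : Additive G →+ A) :
    corAlong A aH (resAlong A bH (resAlong A r φ))
      = resAlong A r (corAlong A aG (resAlong A bG φ)) := by
  rw [corAlong_mackey aG r aH r' haG haH hca hpull hidx (resAlong A bG φ)]
  congr 1
  apply AddMonoidHom.ext
  intro x
  show φ (Additive.ofMul (r (bH (Additive.toMul x)))) = φ (Additive.ofMul (bG (r' (Additive.toMul x))))
  rw [hcb]

end Hecke

end Fermat.Agent.S59.NonMin.Geom.H13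

end
-- ==== END Fermat.Agent.S59.NonMin.Geom.H13_RelTAbs

-- ==== BEGIN Fermat.Agent.S59.NonMin.Geom.H48_AsmGDefs
section

/-!
# S59 / NMGEOM, assembly ASM-G, first half (helper48): interface

The assembly is split (planner helper61): helper48 constructs the abstract package `Deg3` at a
Betti state from the leaves (`deg3_of`), helper30 goes from `Deg3Out` to `NMStep` and runs the
induction.  This file is the interface between the two halves.

* `IsBettiVia s Sig ι` : the body of `Geom.IsBetti` for a given embedding `ι`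
  (`IsBetti s Sig ↔ ∃ ι, IsBettiVia s Sig ι` by `Iff.rfl`);
* `Deg3Data s hq hqN hqS rest M'` : the operators `U, A_a, C_a` between `s.M.V` and `M'.V` with
  the relations of `Geom.Deg3`;
* `Deg3Data.toDeg3` : the package `Deg3 𝒪 rest s.θ` with `L = s.M.V`, `L' = M'.V`, `η = s.M.η`,
  `η' = M'.η`, `q = q`, `Tq = T_q`, all by `rfl`;
* `Stmt_DEG3` : at a Betti state there is a `Deg3Data` whose `U` is `U_q` on the lattice.

No `sorry`; definitions only.
-/

set_option autoImplicit false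

open Polynomial CuspForm CongruenceSubgroup IsLocalRing
open scoped MatrixGroups

namespace Fermat.Agent.S59.NonMin.Geom.H48

open Fermat.Agent.S41 Fermat.Agent.Betti Fermat.Agent.S59 Fermat.Agent.S59.Asm
  Fermat.Agent.S59.NonMin Fermat.Agent.S59.NonMin.Geom
open ModularCurve.Period

section

variable {𝒪 : Type} [CommRing 𝒪] [IsLocalRing 𝒪]

/-- The body of `Geom.IsBetti`: `ι` identifies the module of the state `s` with the Betti
lattice `InBetti 𝒪 s.N s.S s.θ Sig`, compatibly with the `T_ℓ`. -/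
def IsBettiVia (s : NMState 𝒪) (Sig : Finset ℕ)
    (ι : s.M.V →ₗ[𝒪] (Additive (Gamma0 s.N) →+ 𝒪)) : Prop :=
  Function.Injective ι ∧
    (∀ φ, φ ∈ Set.range ι ↔ InBetti 𝒪 s.N (↑s.S : Set ℕ) s.θ Sig φ) ∧
    ∀ (ℓ : ℕ) (hℓ : ℓ.Prime) (hℓN : ¬ ℓ ∣ s.N) (hℓS : ℓ ∉ (↑s.S : Set ℕ)) (v : s.M.V),
      ι (s.M.η (CuspForm.heckeAlgebra.T hℓ hℓN hℓS) v) = TB s.N 𝒪 hℓ hℓN (ι v)

theorem isBetti_iff_exists_via (s : NMState 𝒪) (Sig : Finset ℕ) :
    IsBetti s Sig ↔ ∃ ι, IsBettiVia s Sig ι := Iff.rfl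

/-- The operators of `Geom.Deg3` between the module `s.M.V` of a state and a Hecke module `M'.V`
of level `N q²` (away from `S ∪ {q}`), with all the relations. -/
structure Deg3Data (s : NMState 𝒪) {q : ℕ} (hq : q.Prime) (hqN : ¬ q ∣ s.N)
    (hqS : q ∉ (↑s.S : Set ℕ)) [NeZero (s.N * q ^ 2)]
    (rest : CuspForm.heckeAlgebra (s.N * q ^ 2) 2 (↑(insert q s.S) : Set ℕ) →+*
      CuspForm.heckeAlgebra s.N 2 (↑s.S : Set ℕ))
    (M' : HMod 𝒪 (s.N * q ^ 2) (↑(insert q s.S) : Set ℕ) (s.θ.comp rest)) : Type where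
  q_unit : IsUnit (q : 𝒪)
  /-- `U_q` on `M'.V` -/
  U : Module.End 𝒪 M'.V
  U_η' : ∀ t, Commute U (M'.η t)
  A₁ : s.M.V →ₗ[𝒪] M'.V
  A₂ : s.M.V →ₗ[𝒪] M'.V
  A₃ : s.M.V →ₗ[𝒪] M'.V
  C₁ : M'.V →ₗ[𝒪] s.M.V
  C₂ : M'.V →ₗ[𝒪] s.M.V
  C₃ : M'.V →ₗ[𝒪] s.M.V
  A₁_η : ∀ t (v : s.M.V), A₁ (s.M.η (rest t) v) = M'.η t (A₁ v)
  A₂_η : ∀ t (v : s.M.V), A₂ (s.M.η (rest t) v) = M'.η t (A₂ v)
  A₃_η : ∀ t (v : s.M.V), A₃ (s.M.η (rest t) v) = M'.η t (A₃ v)
  C₁_η : ∀ t (w : M'.V), C₁ (M'.η t w) = s.M.η (rest t) (C₁ w)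
  C₂_η : ∀ t (w : M'.V), C₂ (M'.η t w) = s.M.η (rest t) (C₂ w)
  C₃_η : ∀ t (w : M'.V), C₃ (M'.η t w) = s.M.η (rest t) (C₃ w)
  R1a : ∀ v : s.M.V, U (A₁ v) = A₁ (s.M.η (CuspForm.heckeAlgebra.T hq hqN hqS) v) - A₂ v
  R1b : ∀ v : s.M.V, U (A₂ v) = q • A₁ v
  R1c : ∀ v : s.M.V, U (A₃ v) = q • A₂ v
  R2a : ∀ w : M'.V, C₁ (U w) = q • C₂ w
  R2b : ∀ w : M'.V, C₂ (U w) = q • C₃ w
  R2c : ∀ w : M'.V, C₃ (U w) = s.M.η (CuspForm.heckeAlgebra.T hq hqN hqS) (C₃ w) - C₂ w
  R3a : ∀ v : s.M.V, C₁ (A₁ v) = (q * (q + 1)) • v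
  R3b : ∀ v : s.M.V, C₁ (A₂ v) = q • s.M.η (CuspForm.heckeAlgebra.T hq hqN hqS) v
  R3c : ∀ v : s.M.V, C₁ (A₃ v) =
    s.M.η (CuspForm.heckeAlgebra.T hq hqN hqS) (s.M.η (CuspForm.heckeAlgebra.T hq hqN hqS) v) -
      (q + 1) • v
  split : ∀ w : M'.V, ∃ w₀ w₁ : M'.V, w = w₀ + U w₁ ∧ U w₀ = 0
  ihara : ∀ v : s.M.V,
    q • A₁ v - A₂ (s.M.η (CuspForm.heckeAlgebra.T hq hqN hqS) v) + A₃ v ∈
      (maximalIdeal 𝒪 • ⊤ : Submodule 𝒪 M'.V) →
    v ∈ (maximalIdeal 𝒪 • ⊤ : Submodule 𝒪 s.M.V)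
  dual : ∀ v : s.M.V, ∃ w : M'.V,
    C₁ w - s.M.η (CuspForm.heckeAlgebra.T hq hqN hqS) (C₂ w) + q • C₃ w - v ∈
      (maximalIdeal 𝒪 • ⊤ : Submodule 𝒪 s.M.V)

/-- The package `Geom.Deg3` of a `Deg3Data`: `L = s.M.V`, `L' = M'.V`, `η = s.M.η`,
`η' = M'.η`, `q = q`, `Tq = T_q`, `U = d.U`, … (all definitional). -/
noncomputable def Deg3Data.toDeg3 {s : NMState 𝒪} {q : ℕ} {hq : q.Prime} {hqN : ¬ q ∣ s.N}
    {hqS : q ∉ (↑s.S : Set ℕ)} [NeZero (s.N * q ^ 2)]
    {rest : CuspForm.heckeAlgebra (s.N * q ^ 2) 2 (↑(insert q s.S) : Set ℕ) →+*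
      CuspForm.heckeAlgebra s.N 2 (↑s.S : Set ℕ)}
    {M' : HMod 𝒪 (s.N * q ^ 2) (↑(insert q s.S) : Set ℕ) (s.θ.comp rest)}
    (d : Deg3Data s hq hqN hqS rest M') : Deg3 𝒪 rest s.θ where
  L := s.M.V
  L' := M'.V
  η := s.M.η
  η' := M'.η
  η_local := s.M.η_local
  η'_local := M'.η_local
  q := q
  q_unit := d.q_unit
  Tq := CuspForm.heckeAlgebra.T hq hqN hqS
  U := d.U
  U_η' := d.U_η'
  A₁ := d.A₁
  A₂ := d.A₂
  A₃ := d.A₃
  C₁ := d.C₁
  C₂ := d.C₂
  C₃ := d.C₃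
  A₁_η := d.A₁_η
  A₂_η := d.A₂_η
  A₃_η := d.A₃_η
  C₁_η := d.C₁_η
  C₂_η := d.C₂_η
  C₃_η := d.C₃_η
  Tq_η := fun t => (Commute.all _ t).map s.M.η
  R1a := d.R1a
  R1b := d.R1b
  R1c := d.R1c
  R2a := d.R2a
  R2b := d.R2b
  R2c := d.R2c
  R3a := d.R3a
  R3b := d.R3b
  R3c := d.R3c
  split := d.split
  ihara := d.ihara
  dual := d.dual

end

/-- **DEG3** (first half of ASM-G): at a Betti state `s` of the class `G` and a Betti lattice
`M'` of level `N q²` away from `S ∪ {q}` (no condition at `q`, the same `Sig`) there is a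
`Deg3Data` whose operator `U` is `U_q` on the lattice. -/
def Stmt_DEG3 : Prop :=
  ∀ (𝒪 : Type) [CommRing 𝒪] [IsDomain 𝒪] [IsDiscreteValuationRing 𝒪]
    [IsAdicComplete (maximalIdeal 𝒪) 𝒪] [Finite (ResidueField 𝒪)] [CharZero 𝒪]
    (p : ℕ) [Fact p.Prime], p ≠ 2 → (p : 𝒪) ∈ maximalIdeal 𝒪 →
    ∀ (ρbar : ResidualGaloisRep (ResidueField 𝒪)) (Smin : Finset ℕ), ResHyp p ρbar Smin →
    ∀ (N₀ : ℕ) (Sig : Finset ℕ) (s : NMState 𝒪), GeomHyp p Smin N₀ Sig s.N s.S →
    Fermat.Agent.S59.Datum.FrobHyp ρbar s.N s.S s.θ →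
    ∀ (ι : s.M.V →ₗ[𝒪] (Additive (Gamma0 s.N) →+ 𝒪)), IsBettiVia s Sig ι →
    ∀ (q : ℕ) (hq : q.Prime), q ≠ p → ∀ (hqN : ¬ q ∣ s.N) (hqS : q ∉ (↑s.S : Set ℕ))
      [NeZero (s.N * q ^ 2)]
      (rest : CuspForm.heckeAlgebra (s.N * q ^ 2) 2 (↑(insert q s.S) : Set ℕ) →+*
        CuspForm.heckeAlgebra s.N 2 (↑s.S : Set ℕ)),
    (∀ (ℓ : ℕ) (hℓ : ℓ.Prime) (hℓN' : ¬ ℓ ∣ s.N * q ^ 2)
      (hℓS' : ℓ ∉ (↑(insert q s.S) : Set ℕ)) (hℓN : ¬ ℓ ∣ s.N) (hℓS : ℓ ∉ (↑s.S : Set ℕ)),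
      rest (CuspForm.heckeAlgebra.T hℓ hℓN' hℓS') = CuspForm.heckeAlgebra.T hℓ hℓN hℓS) →
    ∀ (M' : HMod 𝒪 (s.N * q ^ 2) (↑(insert q s.S) : Set ℕ) (s.θ.comp rest))
      (ι' : M'.V →ₗ[𝒪] (Additive (Gamma0 (s.N * q ^ 2)) →+ 𝒪)),
    IsBettiVia (⟨s.N * q ^ 2, insert q s.S, s.θ.comp rest, M'⟩ : NMState 𝒪) Sig ι' →
    ∃ d : Deg3Data s hq hqN hqS rest M',
      ∀ (hd : q ∣ s.N * q ^ 2) (w : M'.V), ι' (d.U w) = UB (s.N * q ^ 2) 𝒪 hd (ι' w)

end Fermat.Agent.S59.NonMin.Geom.H48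

end
-- ==== END Fermat.Agent.S59.NonMin.Geom.H48_AsmGDefs

-- ==== BEGIN Fermat.Agent.S59.NonMin.Geom.H53_BComm
section

/-!
# S59 / NMGEOM + PGEOM, shared lemma B-COMM (helper53)

The Betti Hecke operators `TB`, `UB` of a level `N` COMMUTE on the parabolic homomorphisms
`Γ₀(N) → A` with values in a torsion free group `A` ("GAP 3" of the assemblies ASM-G / P-ASM:
`U_q` acts on the Betti lattice and commutes with the Hecke action).

Proof: a word `w` in the Hecke generators which vanishes on `S₂(Γ₀(N))` vanishes on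
`Hom_par(Γ₀(N), ℤ)` (`Betti.H76.wordBL_eq_zero_iff`), hence on `Hom_par(Γ₀(N), A)` by the universal
basis (`Betti.stmt_basis`) and naturality in the coefficients (`Betti.H76.wordB_comp`); the
commutator of two generators vanishes on cusp forms because the Hecke algebra is commutative.

* `wordB_eq_zero_of_wordS` : the transfer principle;
* `genB_comm`              : two generators commute on parabolic homomorphisms;
* `TB_TB_comm`, `UB_TB_comm`, `TB_UB_comm`, `UB_UB_comm` : the four cases.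

No `sorry`.
-/

set_option autoImplicit false

open CongruenceSubgroup ModularCurve ModularCurve.Period
open scoped MatrixGroups

namespace Fermat.Agent.S59.NonMin.Geom.H53

open Fermat.Agent.Betti Fermat.Agent.Betti.H76

variable (N : ℕ) [NeZero N] (S : Set ℕ)

/-- **Transfer principle**: a word in the Hecke generators which vanishes on `S₂(Γ₀(N))`
vanishes on the parabolic homomorphisms with values in any torsion free group. -/
theorem wordB_eq_zero_of_wordS (A : Type) [AddCommGroup A] [IsAddTorsionFree A]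
    (w : FreeAlgebra ℤ (Gen S)) (hw : wordS N S w = 0) (φ : Additive (Gamma0 N) →+ A)
    (hφ : IsParabolicHom (Gamma0 N) φ) : wordB N S A w φ = 0 := by
  obtain ⟨r, b, hb⟩ := stmt_basis N
  obtain ⟨a, ha, -⟩ := hb.2 A φ hφ
  have hφ' : φ = ∑ i, (zmultiplesHom A (a i)).comp (b i) := by
    refine AddMonoidHom.ext fun γ => ?_
    rw [ha γ, AddMonoidHom.finsetSum_apply]
    refine Finset.sum_congr rfl fun i _ => ?_
    rw [AddMonoidHom.comp_apply, zmultiplesHom_apply]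
  have hz : ∀ i, wordB N S ℤ w (b i) = 0 := by
    intro i
    have h0 : wordBL N S w = 0 := (wordBL_eq_zero_iff N S w).mpr hw
    have h1 := wordBL_coe N S w (⟨b i, hb.1 i⟩ : ParZ N)
    rw [h0] at h1
    exact h1.symm
  rw [hφ', map_sum]
  refine Finset.sum_eq_zero fun i _ => ?_
  rw [wordB_comp, hz i, AddMonoidHom.comp_zero]

/-- Two Hecke generators commute on cusp forms. -/
theorem genS_comm (l l' : Gen S) : genS N S l * genS N S l' = genS N S l' * genS N S l := by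
  have h1 : genS N S l ∈ CuspForm.heckeAlgebra N 2 S := by
    have := wordS_mem_heckeAlgebra N S (FreeAlgebra.ι ℤ l)
    rwa [wordS_ι] at this
  have h2 : genS N S l' ∈ CuspForm.heckeAlgebra N 2 S := by
    have := wordS_mem_heckeAlgebra N S (FreeAlgebra.ι ℤ l')
    rwa [wordS_ι] at this
  have := mul_comm (⟨genS N S l, h1⟩ : CuspForm.heckeAlgebra N 2 S) ⟨genS N S l', h2⟩
  exact congrArg Subtype.val this

/-- Two Betti Hecke generators commute on the parabolic homomorphisms with values in a torsion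
free group. -/
theorem genB_comm (A : Type) [AddCommGroup A] [IsAddTorsionFree A] (l l' : Gen S)
    (φ : Additive (Gamma0 N) →+ A) (hφ : IsParabolicHom (Gamma0 N) φ) :
    genB N S A l (genB N S A l' φ) = genB N S A l' (genB N S A l φ) := by
  have hw : wordS N S (FreeAlgebra.ι ℤ l * FreeAlgebra.ι ℤ l'
      - FreeAlgebra.ι ℤ l' * FreeAlgebra.ι ℤ l) = 0 := by
    rw [map_sub, map_mul, map_mul, wordS_ι, wordS_ι, genS_comm N S l l', sub_self]
  have h := wordB_eq_zero_of_wordS N S A _ hw φ hφ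
  rw [map_sub, map_mul, map_mul, wordB_ι, wordB_ι, LinearMap.sub_apply, Module.End.mul_apply,
    Module.End.mul_apply, sub_eq_zero] at h
  exact h

variable {N}

theorem genB_of_not_dvd (A : Type) [AddCommGroup A] {ℓ : ℕ} (hℓ : ℓ.Prime) (hℓN : ¬ ℓ ∣ N)
    (hℓS : ℓ ∉ S) (φ : Additive (Gamma0 N) →+ A) :
    genB N S A (mkGen ℓ hℓ hℓS) φ = TB N A hℓ hℓN φ := by
  unfold genB
  rw [dif_neg (show ¬ (mkGen ℓ hℓ hℓS : Gen S).1 ∣ N from hℓN)]
  rfl

theorem genB_of_dvd (A : Type) [AddCommGroup A] {q : ℕ} (hq : q.Prime) (hqN : q ∣ N)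
    (hqS : q ∉ S) (φ : Additive (Gamma0 N) →+ A) :
    genB N S A (mkGen q hq hqS) φ = UB N A hqN φ := by
  unfold genB
  rw [dif_pos (show (mkGen q hq hqS : Gen S).1 ∣ N from hqN)]
  rfl

/-- `T_ℓ` and `T_ℓ'` commute on parabolic homomorphisms. -/
theorem TB_TB_comm (A : Type) [AddCommGroup A] [IsAddTorsionFree A] {ℓ ℓ' : ℕ} (hℓ : ℓ.Prime)
    (hℓN : ¬ ℓ ∣ N) (hℓ' : ℓ'.Prime) (hℓ'N : ¬ ℓ' ∣ N) (φ : Additive (Gamma0 N) →+ A)
    (hφ : IsParabolicHom (Gamma0 N) φ) :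
    TB N A hℓ hℓN (TB N A hℓ' hℓ'N φ) = TB N A hℓ' hℓ'N (TB N A hℓ hℓN φ) := by
  have h := genB_comm N (∅ : Set ℕ) A (mkGen ℓ hℓ (Set.notMem_empty ℓ))
    (mkGen ℓ' hℓ' (Set.notMem_empty ℓ')) φ hφ
  rwa [genB_of_not_dvd ∅ A hℓ' hℓ'N, genB_of_not_dvd ∅ A hℓ hℓN, genB_of_not_dvd ∅ A hℓ hℓN,
    genB_of_not_dvd ∅ A hℓ' hℓ'N] at h

/-- `U_q` and `T_ℓ` commute on parabolic homomorphisms. -/
theorem UB_TB_comm (A : Type) [AddCommGroup A] [IsAddTorsionFree A] {q ℓ : ℕ} (hq : q.Prime)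
    (hqN : q ∣ N) (hℓ : ℓ.Prime) (hℓN : ¬ ℓ ∣ N) (φ : Additive (Gamma0 N) →+ A)
    (hφ : IsParabolicHom (Gamma0 N) φ) :
    UB N A hqN (TB N A hℓ hℓN φ) = TB N A hℓ hℓN (UB N A hqN φ) := by
  have h := genB_comm N (∅ : Set ℕ) A (mkGen q hq (Set.notMem_empty q))
    (mkGen ℓ hℓ (Set.notMem_empty ℓ)) φ hφ
  rwa [genB_of_not_dvd ∅ A hℓ hℓN, genB_of_dvd ∅ A hq hqN, genB_of_dvd ∅ A hq hqN,
    genB_of_not_dvd ∅ A hℓ hℓN] at h

/-- `T_ℓ` and `U_q` commute on parabolic homomorphisms. -/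
theorem TB_UB_comm (A : Type) [AddCommGroup A] [IsAddTorsionFree A] {q ℓ : ℕ} (hq : q.Prime)
    (hqN : q ∣ N) (hℓ : ℓ.Prime) (hℓN : ¬ ℓ ∣ N) (φ : Additive (Gamma0 N) →+ A)
    (hφ : IsParabolicHom (Gamma0 N) φ) :
    TB N A hℓ hℓN (UB N A hqN φ) = UB N A hqN (TB N A hℓ hℓN φ) :=
  (UB_TB_comm A hq hqN hℓ hℓN φ hφ).symm

/-- `U_q` and `U_r` commute on parabolic homomorphisms. -/
theorem UB_UB_comm (A : Type) [AddCommGroup A] [IsAddTorsionFree A] {q r : ℕ} (hq : q.Prime)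
    (hqN : q ∣ N) (hr : r.Prime) (hrN : r ∣ N) (φ : Additive (Gamma0 N) →+ A)
    (hφ : IsParabolicHom (Gamma0 N) φ) :
    UB N A hqN (UB N A hrN φ) = UB N A hrN (UB N A hqN φ) := by
  have h := genB_comm N (∅ : Set ℕ) A (mkGen q hq (Set.notMem_empty q))
    (mkGen r hr (Set.notMem_empty r)) φ hφ
  rwa [genB_of_dvd ∅ A hr hrN, genB_of_dvd ∅ A hq hqN, genB_of_dvd ∅ A hq hqN,
    genB_of_dvd ∅ A hr hrN] at h

omit [NeZero N] in
/-- `T_ℓ` preserves parabolic homomorphisms. -/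
theorem TB_par (A : Type) [AddCommGroup A] {ℓ : ℕ} (hℓ : ℓ.Prime) (hℓN : ¬ ℓ ∣ N)
    (φ : Additive (Gamma0 N) →+ A) (hφ : IsParabolicHom (Gamma0 N) φ) :
    IsParabolicHom (Gamma0 N) (TB N A hℓ hℓN φ) :=
  TB_mem_parabolicHoms_gen ℤ hℓ hℓN (φ := φ) hφ

/-- `U_q` preserves parabolic homomorphisms. -/
theorem UB_par (A : Type) [AddCommGroup A] {q : ℕ} (hqN : q ∣ N)
    (φ : Additive (Gamma0 N) →+ A) (hφ : IsParabolicHom (Gamma0 N) φ) :
    IsParabolicHom (Gamma0 N) (UB N A hqN φ) :=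
  UB_mem_parabolicHoms_gen ℤ hqN (φ := φ) hφ

end Fermat.Agent.S59.NonMin.Geom.H53

end
-- ==== END Fermat.Agent.S59.NonMin.Geom.H53_BComm

-- ==== BEGIN Fermat.Agent.S59.NonMin.Geom.H61_BMAlg
section

/-!
# S59 NMGEOM, leaf BM: the generic algebra (helper61)

Pure algebra (Mathlib only).  Let `𝒪` be a discrete valuation ring, `P` a finite free
`𝒪`-module with an action `η₀ : R →+* End P` of a commutative ring `R`, `θ : R →+* k` a character
with values in the residue field, `G ⊆ R` a set of generators and `K ⊆ P` a saturated stable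
submodule.

* `NilMod f`        : `f` is nilpotent modulo the maximal ideal;
* `locSub K η₀ θ G` : the vectors `v ∈ K` with `(η₀ g - a)^n v → 0` for all `g ∈ G` and all lifts
                      `a` of `θ g`;
* `locSub_stable`, `locSub_sat` : it is stable and saturated;
* `restrictHom`     : the restricted action;
* `locSub_local`    : `η t - a` is nilpotent modulo the maximal ideal on `locSub`, for ALL `t`;
* `local_shift`     : locality does not depend on the lift.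
-/

set_option autoImplicit false

open IsLocalRing

namespace Fermat.Agent.S59.NonMin.Geom.H61

section Basic

variable {𝒪 : Type*} [CommRing 𝒪] {P : Type*} [AddCommGroup P] [Module 𝒪 P]

/-- `I • ⊤` is stable under endomorphisms. -/
theorem map_mem_smul_top (I : Ideal 𝒪) (f : Module.End 𝒪 P) {x : P}
    (hx : x ∈ (I • ⊤ : Submodule 𝒪 P)) : f x ∈ (I • ⊤ : Submodule 𝒪 P) := by
  have h : (I • ⊤ : Submodule 𝒪 P).map f ≤ I • ⊤ := by
    rw [Submodule.map_smul'']
    exact Submodule.smul_mono le_rfl le_top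
  exact h (Submodule.mem_map_of_mem hx)

theorem pow_mem_smul_top_of_le (I : Ideal 𝒪) (f : Module.End 𝒪 P) {x : P} {n n' : ℕ}
    (h : n ≤ n') (hx : (f ^ n) x ∈ (I • ⊤ : Submodule 𝒪 P)) :
    (f ^ n') x ∈ (I • ⊤ : Submodule 𝒪 P) := by
  obtain ⟨d, rfl⟩ := Nat.exists_eq_add_of_le h
  rw [add_comm, pow_add, Module.End.mul_apply]
  exact map_mem_smul_top I _ hx

/-- `I^m • ⊤` decreases with `m`. -/
theorem pow_smul_top_anti (I : Ideal 𝒪) {m m' : ℕ} (h : m ≤ m') :
    (I ^ m' • ⊤ : Submodule 𝒪 P) ≤ I ^ m • ⊤ :=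
  Submodule.smul_mono_left (Ideal.pow_le_pow_right h)

/-- Two endomorphisms, one of `P` and one of a submodule, which agree, have the same powers. -/
theorem coe_pow_of_coe {V : Submodule 𝒪 P} (F : Module.End 𝒪 V) (F₀ : Module.End 𝒪 P)
    (h : ∀ v : V, ((F v : V) : P) = F₀ v) (n : ℕ) (v : V) :
    (((F ^ n) v : V) : P) = (F₀ ^ n) v := by
  induction n generalizing v with
  | zero => simp
  | succ n ih =>
    rw [pow_succ, pow_succ, Module.End.mul_apply, Module.End.mul_apply, ih, h]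

end Basic

section NilMod

variable {𝒪 : Type*} [CommRing 𝒪] [IsLocalRing 𝒪] {P : Type*} [AddCommGroup P] [Module 𝒪 P]

/-- `f` is nilpotent modulo the maximal ideal. -/
def NilMod (f : Module.End 𝒪 P) : Prop :=
  ∃ m : ℕ, ∀ v : P, (f ^ m) v ∈ (maximalIdeal 𝒪 • ⊤ : Submodule 𝒪 P)

theorem nilMod_smul_one {c : 𝒪} (hc : c ∈ maximalIdeal 𝒪) :
    NilMod (c • (1 : Module.End 𝒪 P)) :=
  ⟨1, fun v => by
    rw [pow_one, LinearMap.smul_apply, Module.End.one_apply]
    exact Submodule.smul_mem_smul hc Submodule.mem_top⟩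

theorem NilMod.mul_left {f g : Module.End 𝒪 P} (hf : NilMod f) (h : Commute g f) :
    NilMod (g * f) := by
  obtain ⟨m, hm⟩ := hf
  refine ⟨m, fun v => ?_⟩
  rw [h.mul_pow, Module.End.mul_apply]
  exact map_mem_smul_top _ _ (hm v)

theorem NilMod.smul {f : Module.End 𝒪 P} (hf : NilMod f) (c : 𝒪) : NilMod (c • f) := by
  obtain ⟨m, hm⟩ := hf
  refine ⟨m, fun v => ?_⟩
  rw [smul_pow, LinearMap.smul_apply]
  exact Submodule.smul_mem _ _ (hm v)

theorem NilMod.add {f g : Module.End 𝒪 P} (hf : NilMod f) (hg : NilMod g) (h : Commute f g) :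
    NilMod (f + g) := by
  obtain ⟨m, hm⟩ := hf
  obtain ⟨n, hn⟩ := hg
  refine ⟨m + n, fun v => ?_⟩
  rw [h.add_pow', LinearMap.sum_apply]
  refine Submodule.sum_mem _ fun ij hij => ?_
  rw [LinearMap.smul_apply]
  refine Submodule.smul_of_tower_mem _ _ ?_
  rw [Module.End.mul_apply]
  have hsum : ij.1 + ij.2 = m + n := Finset.HasAntidiagonal.mem_antidiagonal.mp hij
  by_cases hi : m ≤ ij.1
  · exact pow_mem_smul_top_of_le _ f hi (hm _)
  · have hj : n ≤ ij.2 := by omega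
    exact map_mem_smul_top _ _ (pow_mem_smul_top_of_le _ g hj (hn v))

/-- Locality does not depend on the lift: if `f^n x → 0` and `c ∈ 𝔪` then `(f + c)^n x → 0`. -/
theorem local_shift (f : Module.End 𝒪 P) {c : 𝒪} (hc : c ∈ maximalIdeal 𝒪) (x : P)
    (hx : ∀ m : ℕ, ∃ n : ℕ, (f ^ n) x ∈ (maximalIdeal 𝒪 ^ m • ⊤ : Submodule 𝒪 P)) (m : ℕ) :
    ∃ n : ℕ, ((f + c • (1 : Module.End 𝒪 P)) ^ n) x ∈
      (maximalIdeal 𝒪 ^ m • ⊤ : Submodule 𝒪 P) := by
  obtain ⟨n₀, hn₀⟩ := hx m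
  refine ⟨n₀ + m, ?_⟩
  have hcomm : Commute f (c • (1 : Module.End 𝒪 P)) := (Commute.one_right f).smul_right c
  rw [hcomm.add_pow', LinearMap.sum_apply]
  refine Submodule.sum_mem _ fun ij hij => ?_
  rw [LinearMap.smul_apply]
  refine Submodule.smul_of_tower_mem _ _ ?_
  rw [Module.End.mul_apply]
  have hsum : ij.1 + ij.2 = n₀ + m := Finset.HasAntidiagonal.mem_antidiagonal.mp hij
  by_cases hi : n₀ ≤ ij.1
  · have h1 : ((c • (1 : Module.End 𝒪 P)) ^ ij.2) x = c ^ ij.2 • x := by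
      rw [smul_pow, one_pow, LinearMap.smul_apply, Module.End.one_apply]
    rw [h1, map_smul]
    exact Submodule.smul_mem _ _ (pow_mem_smul_top_of_le _ f hi hn₀)
  · have hj : m ≤ ij.2 := by omega
    have h1 : ((c • (1 : Module.End 𝒪 P)) ^ ij.2) x = c ^ ij.2 • x := by
      rw [smul_pow, one_pow, LinearMap.smul_apply, Module.End.one_apply]
    rw [h1]
    apply map_mem_smul_top
    exact Submodule.smul_mem_smul (Ideal.pow_le_pow_right hj (Ideal.pow_mem_pow hc _))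
      Submodule.mem_top

end NilMod

section Restrict

variable {𝒪 : Type*} [CommRing 𝒪] {P : Type*} [AddCommGroup P] [Module 𝒪 P]
  {R : Type*} [Ring R]

/-- The restriction of an action to a stable submodule. -/
def restrictHom (V : Submodule 𝒪 P) (η₀ : R →+* Module.End 𝒪 P)
    (h : ∀ t, ∀ v ∈ V, η₀ t v ∈ V) : R →+* Module.End 𝒪 V where
  toFun t := (η₀ t).restrict (h t)
  map_one' := by
    ext v
    simp
  map_mul' x y := by
    ext v
    simp
  map_zero' := by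
    ext v
    simp
  map_add' x y := by
    ext v
    simp

@[simp] theorem coe_restrictHom (V : Submodule 𝒪 P) (η₀ : R →+* Module.End 𝒪 P)
    (h : ∀ t, ∀ v ∈ V, η₀ t v ∈ V) (t : R) (v : V) :
    ((restrictHom V η₀ h t v : V) : P) = η₀ t v := rfl

end Restrict

section DVR

variable {𝒪 : Type*} [CommRing 𝒪] [IsDomain 𝒪] [IsDiscreteValuationRing 𝒪]
  {P : Type*} [AddCommGroup P] [Module 𝒪 P]

/-- Membership in `𝔪^m • ⊤` over a discrete valuation ring with uniformiser `ϖ`. -/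
theorem mem_pow_smul_top_iff {ϖ : 𝒪} (hϖ : Irreducible ϖ) (m : ℕ) (x : P) :
    x ∈ (maximalIdeal 𝒪 ^ m • ⊤ : Submodule 𝒪 P) ↔ ∃ y : P, ϖ ^ m • y = x := by
  rw [hϖ.maximalIdeal_eq, Ideal.span_singleton_pow, Submodule.ideal_span_singleton_smul,
    Submodule.mem_smul_pointwise_iff_exists]
  simp

theorem mem_smul_top_iff {ϖ : 𝒪} (hϖ : Irreducible ϖ) (x : P) :
    x ∈ (maximalIdeal 𝒪 • ⊤ : Submodule 𝒪 P) ↔ ∃ y : P, ϖ • y = x := by
  have := mem_pow_smul_top_iff (P := P) hϖ 1 x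
  rwa [pow_one, pow_one] at this

end DVR

section Loc

variable {𝒪 : Type*} [CommRing 𝒪] [IsDomain 𝒪] [IsDiscreteValuationRing 𝒪]
  {P : Type*} [AddCommGroup P] [Module 𝒪 P]
  {R : Type*} [CommRing R]

/-- The `θ`-local part of `K`: the vectors `v ∈ K` such that `(η₀ g - a)^n v → 0` for all
`g ∈ G` and all lifts `a` of `θ g`. -/
def locSub (K : Submodule 𝒪 P) (η₀ : R →+* Module.End 𝒪 P) (θ : R →+* ResidueField 𝒪)
    (G : Set R) : Submodule 𝒪 P where
  carrier := {v | v ∈ K ∧ ∀ g ∈ G, ∀ a : 𝒪, residue 𝒪 a = θ g → ∀ m : ℕ, ∃ n : ℕ,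
    ((η₀ g - a • (1 : Module.End 𝒪 P)) ^ n) v ∈ (maximalIdeal 𝒪 ^ m • ⊤ : Submodule 𝒪 P)}
  add_mem' := by
    rintro v w ⟨hv, hv'⟩ ⟨hw, hw'⟩
    refine ⟨K.add_mem hv hw, fun g hg a ha m => ?_⟩
    obtain ⟨n₁, h₁⟩ := hv' g hg a ha m
    obtain ⟨n₂, h₂⟩ := hw' g hg a ha m
    refine ⟨max n₁ n₂, ?_⟩
    rw [map_add]
    exact Submodule.add_mem _ (pow_mem_smul_top_of_le _ _ (le_max_left _ _) h₁)
      (pow_mem_smul_top_of_le _ _ (le_max_right _ _) h₂)
  zero_mem' := ⟨K.zero_mem, fun g _ a _ m => ⟨0, by simp⟩⟩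
  smul_mem' := by
    rintro c v ⟨hv, hv'⟩
    refine ⟨K.smul_mem c hv, fun g hg a ha m => ?_⟩
    obtain ⟨n, hn⟩ := hv' g hg a ha m
    exact ⟨n, by rw [map_smul]; exact Submodule.smul_mem _ _ hn⟩

theorem mem_locSub {K : Submodule 𝒪 P} {η₀ : R →+* Module.End 𝒪 P}
    {θ : R →+* ResidueField 𝒪} {G : Set R} {v : P} :
    v ∈ locSub K η₀ θ G ↔ v ∈ K ∧ ∀ g ∈ G, ∀ a : 𝒪, residue 𝒪 a = θ g → ∀ m : ℕ, ∃ n : ℕ,
      ((η₀ g - a • (1 : Module.End 𝒪 P)) ^ n) v ∈
        (maximalIdeal 𝒪 ^ m • ⊤ : Submodule 𝒪 P) := Iff.rfl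

theorem commute_sub_smul (η₀ : R →+* Module.End 𝒪 P) (x y : R) (a b : 𝒪) :
    Commute (η₀ x - a • (1 : Module.End 𝒪 P)) (η₀ y - b • (1 : Module.End 𝒪 P)) := by
  have h1 : Commute (η₀ x) (η₀ y) := (Commute.all x y).map η₀
  have h2 : ∀ (f : Module.End 𝒪 P) (c : 𝒪), Commute f (c • (1 : Module.End 𝒪 P)) :=
    fun f c => (Commute.one_right f).smul_right c
  exact (h1.sub_right (h2 _ _)).sub_left ((h2 _ _).symm)

theorem commute_map_sub_smul (η₀ : R →+* Module.End 𝒪 P) (x y : R) (b : 𝒪) :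
    Commute (η₀ x) (η₀ y - b • (1 : Module.End 𝒪 P)) :=
  ((Commute.all x y).map η₀).sub_right ((Commute.one_right _).smul_right b)

/-- `locSub` is stable under the action. -/
theorem locSub_stable {K : Submodule 𝒪 P} {η₀ : R →+* Module.End 𝒪 P}
    {θ : R →+* ResidueField 𝒪} {G : Set R} (hK : ∀ t, ∀ v ∈ K, η₀ t v ∈ K) (t : R) :
    ∀ v ∈ locSub K η₀ θ G, η₀ t v ∈ locSub K η₀ θ G := by
  rintro v ⟨hv, hv'⟩
  refine ⟨hK t v hv, fun g hg a ha m => ?_⟩
  obtain ⟨n, hn⟩ := hv' g hg a ha m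
  refine ⟨n, ?_⟩
  have hc : Commute (η₀ t) ((η₀ g - a • (1 : Module.End 𝒪 P)) ^ n) :=
    (commute_map_sub_smul η₀ t g a).pow_right n
  have h1 : ((η₀ g - a • (1 : Module.End 𝒪 P)) ^ n) (η₀ t v)
      = η₀ t (((η₀ g - a • (1 : Module.End 𝒪 P)) ^ n) v) := by
    rw [← Module.End.mul_apply, ← Module.End.mul_apply, hc.eq]
  rw [h1]
  exact map_mem_smul_top _ _ hn

variable [Module.IsTorsionFree 𝒪 P]

/-- `locSub` is saturated. -/
theorem locSub_sat {K : Submodule 𝒪 P} {η₀ : R →+* Module.End 𝒪 P}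
    {θ : R →+* ResidueField 𝒪} {G : Set R} {ϖ : 𝒪} (hϖ : Irreducible ϖ)
    (hK : ∀ v : P, ϖ • v ∈ K → v ∈ K) (v : P) (hv : ϖ • v ∈ locSub K η₀ θ G) :
    v ∈ locSub K η₀ θ G := by
  obtain ⟨hv1, hv2⟩ := hv
  refine ⟨hK v hv1, fun g hg a ha m => ?_⟩
  obtain ⟨n, hn⟩ := hv2 g hg a ha (m + 1)
  refine ⟨n, ?_⟩
  rw [mem_pow_smul_top_iff hϖ] at hn ⊢
  obtain ⟨y, hy⟩ := hn
  refine ⟨y, ?_⟩
  rw [map_smul, pow_succ, mul_comm, mul_smul] at hy
  exact smul_right_injective P hϖ.ne_zero hy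

end Loc

section Stable

variable {𝒪 : Type*} [CommRing 𝒪] {P : Type*} [AddCommGroup P] [Module 𝒪 P]
  {R : Type*} [CommRing R]

/-- A submodule stable under the generators is stable. -/
theorem stable_of_gen {K : Submodule 𝒪 P} {η₀ : R →+* Module.End 𝒪 P} {G : Set R}
    (hG : Algebra.adjoin ℤ G = ⊤) (h : ∀ g ∈ G, ∀ v ∈ K, η₀ g v ∈ K) (t : R) :
    ∀ v ∈ K, η₀ t v ∈ K := by
  have ht : t ∈ Algebra.adjoin ℤ G := by rw [hG]; exact Algebra.mem_top
  induction ht using Algebra.adjoin_induction with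
  | mem x hx => exact h x hx
  | algebraMap n =>
    intro v hv
    rw [eq_intCast (algebraMap ℤ R) n, map_intCast]
    have h1 : ((n : Module.End 𝒪 P)) v = n • v := by
      rw [← zsmul_one, LinearMap.smul_apply, Module.End.one_apply]
    rw [h1]
    exact K.smul_of_tower_mem n hv
  | add x y _ _ hx hy =>
    intro v hv
    rw [map_add, LinearMap.add_apply]
    exact K.add_mem (hx v hv) (hy v hv)
  | mul x y _ _ hx hy =>
    intro v hv
    rw [map_mul, Module.End.mul_apply]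
    exact hx _ (hy v hv)

end Stable

section Aux

variable {𝒪 : Type*} [CommRing 𝒪] {E : Type*} [Ring E] [Algebra 𝒪 E]

theorem aux_int (n : ℤ) (a : 𝒪) : (n : E) - a • (1 : E) = (((n : 𝒪)) - a) • (1 : E) := by
  rw [sub_smul, Int.cast_smul_eq_zsmul 𝒪 n (1 : E), zsmul_eq_mul, mul_one]

theorem aux_add (f g : E) (a ax : 𝒪) :
    f + g - a • (1 : E) = (f - ax • (1 : E)) + (g - (a - ax) • (1 : E)) := by
  rw [sub_smul]
  abel

theorem aux_mul (f g : E) (a ax ay : 𝒪) :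
    f * g - a • (1 : E) = (f * (g - ay • (1 : E)) + ay • (f - ax • (1 : E)))
      + (ax * ay - a) • (1 : E) := by
  rw [mul_sub, mul_smul_comm, mul_one, smul_sub, smul_smul, sub_smul, mul_comm ay ax]
  abel

end Aux

section Local

variable {𝒪 : Type*} [CommRing 𝒪] [IsDomain 𝒪] [IsDiscreteValuationRing 𝒪]
  {P : Type*} [AddCommGroup P] [Module 𝒪 P] [Module.Finite 𝒪 P] [Module.IsTorsionFree 𝒪 P]
  {R : Type*} [CommRing R]

/-- On `locSub` the operators `η g - a`, `g ∈ G`, are nilpotent modulo the maximal ideal. -/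
theorem nilMod_gen {K : Submodule 𝒪 P} {η₀ : R →+* Module.End 𝒪 P}
    {θ : R →+* ResidueField 𝒪} {G : Set R} {ϖ : 𝒪} (hϖ : Irreducible ϖ)
    (hKst : ∀ t, ∀ v ∈ K, η₀ t v ∈ K) (hKsat : ∀ v : P, ϖ • v ∈ K → v ∈ K)
    {g : R} (hg : g ∈ G) (a : 𝒪) (ha : residue 𝒪 a = θ g) :
    NilMod (restrictHom (locSub K η₀ θ G) η₀ (locSub_stable hKst) g -
      a • (1 : Module.End 𝒪 (locSub K η₀ θ G))) := by
  classical
  set V := locSub K η₀ θ G with hV
  set F : Module.End 𝒪 V := restrictHom V η₀ (locSub_stable hKst) g -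
    a • (1 : Module.End 𝒪 V) with hF
  set F₀ : Module.End 𝒪 P := η₀ g - a • (1 : Module.End 𝒪 P) with hF₀
  have hFF : ∀ v : V, ((F v : V) : P) = F₀ v := fun v => rfl
  have hpt : ∀ v : V, ∃ n : ℕ, (F ^ n) v ∈ (maximalIdeal 𝒪 • ⊤ : Submodule 𝒪 V) := by
    intro v
    obtain ⟨n, hn⟩ := v.2.2 g hg a ha 1
    refine ⟨n, ?_⟩
    rw [pow_one, mem_smul_top_iff hϖ] at hn
    obtain ⟨y, hy⟩ := hn
    have hyV : y ∈ V := by
      apply locSub_sat hϖ hKsat
      rw [hy, ← coe_pow_of_coe F F₀ hFF n v]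
      exact ((F ^ n) v).2
    rw [mem_smul_top_iff hϖ]
    refine ⟨⟨y, hyV⟩, Subtype.ext ?_⟩
    rw [Submodule.coe_smul, coe_pow_of_coe F F₀ hFF n v]
    exact hy
  choose n hn using hpt
  obtain ⟨s, hs⟩ := (Module.Finite.fg_top : (⊤ : Submodule 𝒪 V).FG)
  refine ⟨s.sup n, fun v => ?_⟩
  have hle : Submodule.span 𝒪 (s : Set V) ≤
      Submodule.comap (F ^ s.sup n) (maximalIdeal 𝒪 • ⊤ : Submodule 𝒪 V) := by
    rw [Submodule.span_le]
    intro x hx
    exact pow_mem_smul_top_of_le _ F (Finset.le_sup (f := n) hx) (hn x)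
  rw [hs] at hle
  exact hle Submodule.mem_top

/-- **Locality**: on `locSub` every operator `η t - a` (`a` a lift of `θ t`) is nilpotent modulo
the maximal ideal, if `G` generates `R`. -/
theorem locSub_local {K : Submodule 𝒪 P} {η₀ : R →+* Module.End 𝒪 P}
    {θ : R →+* ResidueField 𝒪} {G : Set R} (hG : Algebra.adjoin ℤ G = ⊤) {ϖ : 𝒪}
    (hϖ : Irreducible ϖ)
    (hKst : ∀ t, ∀ v ∈ K, η₀ t v ∈ K) (hKsat : ∀ v : P, ϖ • v ∈ K → v ∈ K)
    (t : R) (a : 𝒪) (ha : residue 𝒪 a = θ t) :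
    ∃ m : ℕ, ∀ v : locSub K η₀ θ G,
      ((restrictHom (locSub K η₀ θ G) η₀ (locSub_stable hKst) t -
        a • (1 : Module.End 𝒪 (locSub K η₀ θ G))) ^ m) v ∈
        (maximalIdeal 𝒪 • ⊤ : Submodule 𝒪 (locSub K η₀ θ G)) := by
  set V := locSub K η₀ θ G with hV
  set η : R →+* Module.End 𝒪 V := restrictHom V η₀ (locSub_stable hKst) with hη
  suffices h : ∀ t : R, ∀ a : 𝒪, residue 𝒪 a = θ t →
      NilMod (η t - a • (1 : Module.End 𝒪 V)) from h t a ha
  intro t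
  have ht : t ∈ Algebra.adjoin ℤ G := by rw [hG]; exact Algebra.mem_top
  induction ht using Algebra.adjoin_induction with
  | mem x hx => exact fun a ha => nilMod_gen hϖ hKst hKsat hx a ha
  | algebraMap n =>
    intro a ha
    have h1 : η (algebraMap ℤ R n) - a • (1 : Module.End 𝒪 V)
        = (((n : 𝒪)) - a) • (1 : Module.End 𝒪 V) := by
      rw [eq_intCast (algebraMap ℤ R) n, map_intCast]
      exact aux_int n a
    have h2 : ((n : 𝒪)) - a ∈ maximalIdeal 𝒪 := by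
      rw [← residue_eq_zero_iff, map_sub, ha, eq_intCast (algebraMap ℤ R) n, map_intCast,
        map_intCast, sub_self]
    rw [h1]
    exact nilMod_smul_one h2
  | add x y _ _ hx hy =>
    intro a ha
    obtain ⟨ax, hax⟩ := residue_surjective (θ x)
    have hay : residue 𝒪 (a - ax) = θ y := by
      rw [map_sub, ha, hax, map_add, add_sub_cancel_left]
    have h1 : η (x + y) - a • (1 : Module.End 𝒪 V)
        = (η x - ax • (1 : Module.End 𝒪 V)) + (η y - (a - ax) • (1 : Module.End 𝒪 V)) := by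
      rw [map_add]
      exact aux_add _ _ a ax
    rw [h1]
    exact (hx ax hax).add (hy (a - ax) hay) (commute_sub_smul η x y ax (a - ax))
  | mul x y _ _ hx hy =>
    intro a ha
    obtain ⟨ax, hax⟩ := residue_surjective (θ x)
    obtain ⟨ay, hay⟩ := residue_surjective (θ y)
    have hc : ax * ay - a ∈ maximalIdeal 𝒪 := by
      rw [← residue_eq_zero_iff, map_sub, map_mul, hax, hay, ha, map_mul, sub_self]
    have h1 : η (x * y) - a • (1 : Module.End 𝒪 V)
        = (η x * (η y - ay • (1 : Module.End 𝒪 V)) + ay • (η x - ax • (1 : Module.End 𝒪 V)))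
          + (ax * ay - a) • (1 : Module.End 𝒪 V) := by
      rw [map_mul]
      exact aux_mul _ _ a ax ay
    rw [h1]
    have hT1 : NilMod (η x * (η y - ay • (1 : Module.End 𝒪 V))) :=
      (hy ay hay).mul_left (commute_map_sub_smul η x y ay)
    have hT2 : NilMod (ay • (η x - ax • (1 : Module.End 𝒪 V))) := (hx ax hax).smul ay
    have hT3 : NilMod ((ax * ay - a) • (1 : Module.End 𝒪 V)) := nilMod_smul_one hc
    have hc12 : Commute (η x * (η y - ay • (1 : Module.End 𝒪 V)))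
        (ay • (η x - ax • (1 : Module.End 𝒪 V))) := by
      refine Commute.smul_right ?_ ay
      refine Commute.mul_left ?_ ?_
      · exact commute_map_sub_smul η x x ax
      · exact commute_sub_smul η y x ay ax
    exact (hT1.add hT2 hc12).add hT3 ((Commute.one_right _).smul_right _)

end Local

end Fermat.Agent.S59.NonMin.Geom.H61

end
-- ==== END Fermat.Agent.S59.NonMin.Geom.H61_BMAlg

-- ==== BEGIN Fermat.Agent.S59.NonMin.Geom.H61_Deg3Leaves
section

/-!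
# S59 NMGEOM, assembly ASM-G / DEG3: function-level sub-leaves (planner helper61)

The first half of the assembly (`Geom.H48.Stmt_DEG3`, helper48) is split into statements about
homomorphisms `Γ₀(N) → 𝒪` (no `HMod`, no structure):

* `Stmt_INBMAP`   : a linear map between the `Hom`s which preserves parabolic homomorphisms and
                    intertwines the `U_r` (`r ∈ Sig`) and the `T_ℓ` maps `InBetti` to `InBetti`;
* `Stmt_IHARAFLD` : Ihara's lemma on the lattice, three-vector form: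
                    `A₁ φ₁ + A₂ φ₂ + A₃ φ₃ ≡ 0 mod 𝔪` ⟹ `φ_i ≡ 0 mod 𝔪` for `φ_i` in the lattice;
* `Stmt_PROJQ`    : the projector `π` of the anemic lattice of level `N` away from `S ∪ {q}` onto
                    the lattice away from `S` (`Stmt_BM` + `Stmt_FIT`);
* `Stmt_SPLITFLD` : `L' = ker U_q + im U_q` on the lattice of level `N q²` (`Stmt_RELSPLIT`).

Definitions only; no `sorry`.
-/

set_option autoImplicit false

open Polynomial CuspForm CongruenceSubgroup IsLocalRing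
open scoped MatrixGroups

namespace Fermat.Agent.S59.NonMin.Geom

open Fermat.Agent.S41 Fermat.Agent.Betti Fermat.Agent.S59 Fermat.Agent.S59.Asm
open ModularCurve.Period

/-- **INB-MAP**: an `𝒪`-linear map `F : Hom(Γ₀(N), 𝒪) → Hom(Γ₀(N'), 𝒪)` which preserves
parabolic homomorphisms and intertwines (on parabolic homomorphisms) the `U_r`, `r ∈ Sig`, and
the `T_ℓ`, `ℓ ∤ N'`, `ℓ ∉ S'`, maps the lattice `InBetti 𝒪 N S θ Sig` into
`InBetti 𝒪 N' S' θ' Sig`.
[`(T' - a)^n (F φ) = F ((T - a)^n φ)`; a homomorphism with values in `𝔪^m` is `ϖ^m ψ`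
(`H61.hom_div`), and `F (ϖ^m ψ) = ϖ^m F ψ`.] -/
def Stmt_INBMAP : Prop :=
  ∀ (𝒪 : Type) [CommRing 𝒪] [IsDomain 𝒪] [IsDiscreteValuationRing 𝒪]
    (N N' : ℕ) [NeZero N] [NeZero N'] (S S' : Set ℕ)
    (θ : CuspForm.heckeAlgebra N 2 S →+* ResidueField 𝒪)
    (θ' : CuspForm.heckeAlgebra N' 2 S' →+* ResidueField 𝒪) (Sig : Finset ℕ)
    (F : (Additive (Gamma0 N) →+ 𝒪) →+ (Additive (Gamma0 N') →+ 𝒪)),
    (∀ (c : 𝒪) φ, F (c • φ) = c • F φ) →
    (∀ φ, IsParabolicHom (Gamma0 N) φ → IsParabolicHom (Gamma0 N') (F φ)) →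
    (∀ r ∈ Sig, ∀ hr' : r ∣ N', ∃ hr : r ∣ N, ∀ φ, IsParabolicHom (Gamma0 N) φ →
      UB N' 𝒪 hr' (F φ) = F (UB N 𝒪 hr φ)) →
    (∀ (ℓ : ℕ) (hℓ : ℓ.Prime) (hℓN' : ¬ ℓ ∣ N') (hℓS' : ℓ ∉ S'),
      ∃ (hℓN : ¬ ℓ ∣ N) (hℓS : ℓ ∉ S),
        θ' (CuspForm.heckeAlgebra.T hℓ hℓN' hℓS') = θ (CuspForm.heckeAlgebra.T hℓ hℓN hℓS) ∧
        ∀ φ, IsParabolicHom (Gamma0 N) φ →
          TB N' 𝒪 hℓ hℓN' (F φ) = F (TB N 𝒪 hℓ hℓN φ)) →
    ∀ φ, InBetti 𝒪 N S θ Sig φ → InBetti 𝒪 N' S' θ' Sig (F φ)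

/-- **IHARA-FLD** (three-vector Ihara on the lattice): for `φ₁, φ₂, φ₃` in the Betti lattice of
`(N, S, θ, Sig)`, if `A₁ φ₁ + A₂ φ₂ + A₃ φ₃` has values in `𝔪` then so have `φ₁, φ₂, φ₃`.
[Reduction mod `𝔪`: `redB φ_i` are cuspidal, `T_ℓ - θ(T_ℓ)` is nilpotent on them
(`ℓ ∉ S`, `ℓ ∤ N`); `K' := {(x₁, x₂, x₃) ∈ X̄³ : A₁ x₁ + A₂ x₂ + A₃ x₃ = 0}`, `X̄` the reduction of
the lattice (finite dimensional: `Stmt_BM`), is stable under the diagonal `T_ℓ`, `ℓ ∉ S ∪ {q}`
(`Stmt_RELT` with coefficients `k`); a common eigenvector (`H53_CommonEigen`) is killed by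
`H78.stmt_IHARA3v`, the auxiliary primes by `H61.stmt_CHEBk`.]
The field `ihara` of `Deg3` is the case `(q φ, - T_q φ, φ)`. -/
def Stmt_IHARAFLD : Prop :=
  ∀ (𝒪 : Type) [CommRing 𝒪] [IsDomain 𝒪] [IsDiscreteValuationRing 𝒪]
    [IsAdicComplete (maximalIdeal 𝒪) 𝒪] [Finite (ResidueField 𝒪)] [CharZero 𝒪]
    (p : ℕ) [Fact p.Prime], p ≠ 2 → (p : 𝒪) ∈ maximalIdeal 𝒪 →
    ∀ (ρbar : ResidualGaloisRep (ResidueField 𝒪)) (Smin : Finset ℕ), ResHyp p ρbar Smin →
    ∀ (N₀ : ℕ) (Sig : Finset ℕ) (N : ℕ) [NeZero N] (S : Finset ℕ), GeomHyp p Smin N₀ Sig N S →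
    ∀ (θ : CuspForm.heckeAlgebra N 2 (↑S : Set ℕ) →+* ResidueField 𝒪),
    Fermat.Agent.S59.Datum.FrobHyp ρbar N S θ →
    ∀ (q : ℕ), q.Prime → q ≠ p → ¬ q ∣ N → q ∉ (↑S : Set ℕ) →
    ∀ φ₁ φ₂ φ₃ : Additive (Gamma0 N) →+ 𝒪,
      InBetti 𝒪 N (↑S : Set ℕ) θ Sig φ₁ → InBetti 𝒪 N (↑S : Set ℕ) θ Sig φ₂ →
      InBetti 𝒪 N (↑S : Set ℕ) θ Sig φ₃ →
      (∀ γ, (resA1 N q 𝒪 φ₁ + resA2 N q 𝒪 φ₂ + resA3 N q 𝒪 φ₃) γ ∈ maximalIdeal 𝒪) →
      ∀ γ, φ₁ γ ∈ maximalIdeal 𝒪 ∧ φ₂ γ ∈ maximalIdeal 𝒪 ∧ φ₃ γ ∈ maximalIdeal 𝒪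

/-- **PROJQ** (gap 1 of the assembly): the projector of the anemic lattice
`X = InBetti 𝒪 N (insert q S) θ' Sig` (no condition at `T_q`) onto the lattice
`L = InBetti 𝒪 N S θ Sig`.
[`Stmt_BM` at `(N, insert q S, θ', Sig)` gives `X` as a finite free module; `T_q` acts on `X`
(`H53.TB_par`, `H53.UB_TB_comm`, `H53.TB_TB_comm`, `Stmt_INBMAP`); `H12.stmt_FIT` for
`f := T_q - a₀`; `L` is the set of fixed points (`H61.local_shift`: locality does not depend on
the lift `a₀`; `H61.hom_div`: `X` is saturated).] -/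
def Stmt_PROJQ : Prop :=
  ∀ (𝒪 : Type) [CommRing 𝒪] [IsDomain 𝒪] [IsDiscreteValuationRing 𝒪]
    [IsAdicComplete (maximalIdeal 𝒪) 𝒪] [Finite (ResidueField 𝒪)] [CharZero 𝒪]
    (N : ℕ) [NeZero N] (S : Finset ℕ), (∀ r : ℕ, r.Prime → r ∣ N → r ∈ S) →
    ∀ (θ : CuspForm.heckeAlgebra N 2 (↑S : Set ℕ) →+* ResidueField 𝒪) (Sig : Finset ℕ),
    (∀ r ∈ Sig, r.Prime) →
    ∀ (q : ℕ), q.Prime → ¬ q ∣ N → q ∉ (↑S : Set ℕ) →
    ∀ (θ' : CuspForm.heckeAlgebra N 2 (↑(insert q S) : Set ℕ) →+* ResidueField 𝒪),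
    (∀ (ℓ : ℕ) (hℓ : ℓ.Prime) (hℓN : ¬ ℓ ∣ N) (hℓS' : ℓ ∉ (↑(insert q S) : Set ℕ))
      (hℓS : ℓ ∉ (↑S : Set ℕ)),
      θ' (CuspForm.heckeAlgebra.T hℓ hℓN hℓS') = θ (CuspForm.heckeAlgebra.T hℓ hℓN hℓS)) →
    ∃ π : (Additive (Gamma0 N) →+ 𝒪) → (Additive (Gamma0 N) →+ 𝒪),
      (∀ φ, InBetti 𝒪 N (↑(insert q S) : Set ℕ) θ' Sig φ →
        InBetti 𝒪 N (↑S : Set ℕ) θ Sig (π φ)) ∧
      (∀ φ, InBetti 𝒪 N (↑S : Set ℕ) θ Sig φ → π φ = φ) ∧
      (∀ φ ψ, InBetti 𝒪 N (↑(insert q S) : Set ℕ) θ' Sig φ →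
        InBetti 𝒪 N (↑(insert q S) : Set ℕ) θ' Sig ψ → π (φ + ψ) = π φ + π ψ) ∧
      (∀ (c : 𝒪) φ, InBetti 𝒪 N (↑(insert q S) : Set ℕ) θ' Sig φ → π (c • φ) = c • π φ) ∧
      (∀ (ℓ : ℕ) (hℓ : ℓ.Prime) (hℓN : ¬ ℓ ∣ N), ℓ ∉ (↑S : Set ℕ) →
        ∀ φ, InBetti 𝒪 N (↑(insert q S) : Set ℕ) θ' Sig φ →
          InBetti 𝒪 N (↑(insert q S) : Set ℕ) θ' Sig (TB N 𝒪 hℓ hℓN φ) ∧
          π (TB N 𝒪 hℓ hℓN φ) = TB N 𝒪 hℓ hℓN (π φ)) ∧
      (∀ φ, InBetti 𝒪 N (↑(insert q S) : Set ℕ) θ' Sig φ → (∀ γ, φ γ ∈ maximalIdeal 𝒪) →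
        ∀ γ, π φ γ ∈ maximalIdeal 𝒪)

/-- **SPLIT-FLD**: on the Betti lattice of level `N q²` (no condition at `q`; `q ∉ Sig`,
`q` invertible in `𝒪`) `L' = ker U_q + im U_q`.
[The operators `e, g` of `H98.stmt_RELSPLIT` preserve the lattice by `Stmt_INBMAP`.] -/
def Stmt_SPLITFLD : Prop :=
  ∀ (𝒪 : Type) [CommRing 𝒪] [IsDomain 𝒪] [IsDiscreteValuationRing 𝒪]
    (N q : ℕ) [NeZero N] [NeZero (N * q ^ 2)], q.Prime → ¬ q ∣ N → IsUnit (q : 𝒪) →
    ∀ (S' : Set ℕ) (θ' : CuspForm.heckeAlgebra (N * q ^ 2) 2 S' →+* ResidueField 𝒪)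
      (Sig : Finset ℕ), (∀ r ∈ Sig, r.Prime ∧ r ≠ q) →
    ∀ (hd : q ∣ N * q ^ 2) (ψ : Additive (Gamma0 (N * q ^ 2)) →+ 𝒪),
      InBetti 𝒪 (N * q ^ 2) S' θ' Sig ψ →
      ∃ ψ₀ ψ₁ : Additive (Gamma0 (N * q ^ 2)) →+ 𝒪,
        InBetti 𝒪 (N * q ^ 2) S' θ' Sig ψ₀ ∧ InBetti 𝒪 (N * q ^ 2) S' θ' Sig ψ₁ ∧
        ψ = ψ₀ + UB (N * q ^ 2) 𝒪 hd ψ₁ ∧ UB (N * q ^ 2) 𝒪 hd ψ₀ = 0

end Fermat.Agent.S59.NonMin.Geom

end
-- ==== END Fermat.Agent.S59.NonMin.Geom.H61_Deg3Leaves

-- ==== BEGIN Fermat.Agent.S59.NonMin.Geom.H72_ALG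
section

set_option autoImplicit false
set_option linter.style.haveILetI false
set_option linter.unusedSectionVars false

namespace Fermat.Agent.S59.NonMin.Geom.H72

open IsLocalRing

section General

variable {𝒪 : Type} [CommRing 𝒪] [IsDomain 𝒪] [IsDiscreteValuationRing 𝒪]

/-- `𝔪 M = ϖ M`. -/
theorem mem_max_smul_top_iff {M : Type*} [AddCommGroup M] [Module 𝒪 M] {ϖ : 𝒪}
    (hϖ : maximalIdeal 𝒪 = Ideal.span {ϖ}) (x : M) :
    x ∈ (maximalIdeal 𝒪 • ⊤ : Submodule 𝒪 M) ↔ ∃ y : M, x = ϖ • y := by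
  rw [hϖ, Submodule.ideal_span_singleton_smul, Submodule.mem_smul_pointwise_iff_exists]
  constructor
  · rintro ⟨y, -, rfl⟩
    exact ⟨y, rfl⟩
  · rintro ⟨y, rfl⟩
    exact ⟨y, Submodule.mem_top, rfl⟩

/-- A saturated submodule: `𝔪 L' ∩ V = 𝔪 V`. -/
theorem mem_max_smul_top_of_saturated {M : Type*} [AddCommGroup M] [Module 𝒪 M]
    (V : Submodule 𝒪 M) (hsat : ∀ (a : 𝒪) (w : M), a ≠ 0 → a • w ∈ V → w ∈ V) (x : V)
    (hx : (x : M) ∈ (maximalIdeal 𝒪 • ⊤ : Submodule 𝒪 M)) :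
    x ∈ (maximalIdeal 𝒪 • ⊤ : Submodule 𝒪 V) := by
  obtain ⟨ϖ, hirr⟩ := IsDiscreteValuationRing.exists_irreducible 𝒪
  have hϖ : maximalIdeal 𝒪 = Ideal.span {ϖ} :=
    (IsDiscreteValuationRing.irreducible_iff_uniformizer ϖ).mp hirr
  obtain ⟨y, hy⟩ := (mem_max_smul_top_iff hϖ _).1 hx
  have hyV : y ∈ V := hsat ϖ y hirr.ne_zero (hy ▸ x.2)
  exact (mem_max_smul_top_iff hϖ _).2 ⟨⟨y, hyV⟩, Subtype.ext hy⟩

end General

section Main

variable {𝒪 : Type} [CommRing 𝒪] [IsDomain 𝒪] [IsDiscreteValuationRing 𝒪]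
  {H H' : Type} [CommRing H] [CommRing H'] {rest : H' →+* H} {θ : H →+* ResidueField 𝒪}
  (D : Deg3 𝒪 rest θ)

/-- `α = q A₁ - A₂ T_q + A₃ : L → L'`. -/
def alphaFull : D.L →ₗ[𝒪] D.L' := D.q • D.A₁ - D.A₂ ∘ₗ D.η D.Tq + D.A₃

theorem alphaFull_apply (v : D.L) :
    alphaFull D v = D.q • D.A₁ v - D.A₂ (D.η D.Tq v) + D.A₃ v := rfl

theorem U_alphaFull (v : D.L) : D.U (alphaFull D v) = 0 := by
  rw [alphaFull_apply, map_add, map_sub, map_nsmul, D.R1a, D.R1b, D.R1c, smul_sub]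
  abel

/-- `α' = C₁ - T_q C₂ + q C₃ : L' → L`. -/
def alphaFull' : D.L' →ₗ[𝒪] D.L := D.C₁ - D.η D.Tq ∘ₗ D.C₂ + D.q • D.C₃

theorem alphaFull'_apply (w : D.L') :
    alphaFull' D w = D.C₁ w - D.η D.Tq (D.C₂ w) + D.q • D.C₃ w := rfl

theorem alphaFull'_U (w : D.L') : alphaFull' D (D.U w) = 0 := by
  rw [alphaFull'_apply, D.R2a, D.R2b, D.R2c, map_nsmul, smul_sub]
  abel

/-- `U` commutes with the Hecke operators, pointwise. -/
theorem U_η'_apply (t : H') (w : D.L') : D.U (D.η' t w) = D.η' t (D.U w) :=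
  LinearMap.congr_fun (D.U_η' t).eq w

theorem Tq_η_apply (t : H) (v : D.L) : D.η D.Tq (D.η t v) = D.η t (D.η D.Tq v) :=
  LinearMap.congr_fun (D.Tq_η t).eq v

/-- `ker U` is saturated. -/
theorem ker_U_saturated (a : 𝒪) (w : D.L') (ha : a ≠ 0) (h : a • w ∈ LinearMap.ker D.U) :
    w ∈ LinearMap.ker D.U := by
  rw [LinearMap.mem_ker, map_smul] at h
  rw [LinearMap.mem_ker]
  exact (smul_eq_zero.1 h).resolve_left ha

/-- The Hecke action on `V = ker U`. -/
def etaV : H' →+* Module.End 𝒪 (LinearMap.ker D.U) where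
  toFun t := (D.η' t).restrict fun w hw => by
    rw [LinearMap.mem_ker] at hw ⊢
    rw [U_η'_apply, hw, map_zero]
  map_one' := by
    ext w
    simp
  map_mul' s t := by
    ext w
    simp
  map_zero' := by
    ext w
    simp
  map_add' s t := by
    ext w
    simp

theorem coe_etaV (t : H') (v : LinearMap.ker D.U) :
    ((etaV D t v : LinearMap.ker D.U) : D.L') = D.η' t v := rfl

/-- `α : L → V`. -/
def alphaV : D.L →ₗ[𝒪] LinearMap.ker D.U :=
  LinearMap.codRestrict (LinearMap.ker D.U) (alphaFull D) fun v => U_alphaFull D v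

theorem coe_alphaV (v : D.L) : ((alphaV D v : LinearMap.ker D.U) : D.L') = alphaFull D v := rfl

/-- `α' : V → L`. -/
def alphaV' : LinearMap.ker D.U →ₗ[𝒪] D.L := alphaFull' D ∘ₗ (LinearMap.ker D.U).subtype

theorem alphaV'_apply (w : LinearMap.ker D.U) : alphaV' D w = alphaFull' D (w : D.L') := rfl

/-- The Hecke action on `V` is `θ`-local. -/
theorem etaV_local (t : H') (a : 𝒪) (ha : residue 𝒪 a = θ (rest t)) :
    ∃ m : ℕ, ∀ v : LinearMap.ker D.U,
      ((etaV D t - a • (1 : Module.End 𝒪 (LinearMap.ker D.U))) ^ m) v ∈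
        (maximalIdeal 𝒪 • ⊤ : Submodule 𝒪 (LinearMap.ker D.U)) := by
  obtain ⟨m, hm⟩ := D.η'_local t a ha
  refine ⟨m, fun v => ?_⟩
  refine mem_max_smul_top_of_saturated _ (ker_U_saturated D) _ ?_
  have key : ∀ (n : ℕ) (v : LinearMap.ker D.U),
      ((((etaV D t - a • (1 : Module.End 𝒪 (LinearMap.ker D.U))) ^ n) v :
        LinearMap.ker D.U) : D.L') =
      ((D.η' t - a • (1 : Module.End 𝒪 D.L')) ^ n) (v : D.L') := by
    intro n
    induction n with
    | zero => intro v; rfl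
    | succ n ih =>
      intro v
      rw [pow_succ, pow_succ, Module.End.mul_apply, Module.End.mul_apply, ih]
      rfl
  rw [key]
  exact hm _

theorem alphaV_η (t : H') (v : D.L) : alphaV D (D.η (rest t) v) = etaV D t (alphaV D v) := by
  apply Subtype.ext
  rw [coe_etaV, coe_alphaV, coe_alphaV, alphaFull_apply, alphaFull_apply, D.A₁_η,
    Tq_η_apply, D.A₂_η, D.A₃_η, map_add, map_sub, map_nsmul]

theorem alphaV'_η (t : H') (w : LinearMap.ker D.U) :
    alphaV' D (etaV D t w) = D.η (rest t) (alphaV' D w) := by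
  rw [alphaV'_apply, alphaV'_apply, coe_etaV, alphaFull'_apply, alphaFull'_apply, D.C₁_η,
    D.C₂_η, D.C₃_η, Tq_η_apply, map_add, map_sub, map_nsmul]

/-- Krull: an element of `L` divisible by all powers of `ϖ` is zero; hence every nonzero
element is `ϖ ^ n • v₁` with `v₁ ∉ 𝔪 L`. -/
theorem exists_eq_pow_smul {ϖ : 𝒪} (hϖ : maximalIdeal 𝒪 = Ideal.span {ϖ}) (v : D.L)
    (hv : v ≠ 0) :
    ∃ (n : ℕ) (v₁ : D.L), v = ϖ ^ n • v₁ ∧ v₁ ∉ (maximalIdeal 𝒪 • ⊤ : Submodule 𝒪 D.L) := by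
  by_contra hcon
  simp only [not_exists, not_and, not_not] at hcon
  have hall : ∀ n : ℕ, ∃ v₁ : D.L, v = ϖ ^ n • v₁ := by
    intro n
    induction n with
    | zero => exact ⟨v, by rw [pow_zero, one_smul]⟩
    | succ n ih =>
      obtain ⟨v₁, hv₁⟩ := ih
      obtain ⟨y, hy⟩ := (mem_max_smul_top_iff hϖ _).1 (hcon n v₁ hv₁)
      exact ⟨y, by rw [hv₁, hy, smul_smul, pow_succ]⟩
  have hk := Ideal.iInf_pow_smul_eq_bot_of_isLocalRing (M := D.L) (maximalIdeal 𝒪)
    (maximalIdeal.isMaximal 𝒪).ne_top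
  have hmem : v ∈ ⨅ i : ℕ, (maximalIdeal 𝒪 ^ i • ⊤ : Submodule 𝒪 D.L) := by
    rw [Submodule.mem_iInf]
    intro n
    obtain ⟨v₁, hv₁⟩ := hall n
    rw [hv₁]
    refine Submodule.smul_mem_smul ?_ Submodule.mem_top
    rw [hϖ, Ideal.span_singleton_pow]
    exact Ideal.subset_span rfl
  rw [hk] at hmem
  exact hv ((Submodule.mem_bot 𝒪).1 hmem)

/-- Ihara's lemma for `α`. -/
theorem ihara_alpha (v : D.L)
    (h : alphaFull D v ∈ (maximalIdeal 𝒪 • ⊤ : Submodule 𝒪 D.L')) :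
    v ∈ (maximalIdeal 𝒪 • ⊤ : Submodule 𝒪 D.L) := D.ihara v h

theorem alphaFull_injective : Function.Injective (alphaFull D) := by
  rw [injective_iff_map_eq_zero]
  intro v hv
  by_contra hv0
  obtain ⟨ϖ, hirr⟩ := IsDiscreteValuationRing.exists_irreducible 𝒪
  have hϖ : maximalIdeal 𝒪 = Ideal.span {ϖ} :=
    (IsDiscreteValuationRing.irreducible_iff_uniformizer ϖ).mp hirr
  obtain ⟨n, v₁, hv₁, hnot⟩ := exists_eq_pow_smul D hϖ v hv0
  rw [hv₁, map_smul] at hv
  have h0 : alphaFull D v₁ = 0 :=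
    (smul_eq_zero.1 hv).resolve_left (pow_ne_zero n hirr.ne_zero)
  exact hnot (ihara_alpha D v₁ (h0 ▸ Submodule.zero_mem _))

theorem alphaV_injective : Function.Injective (alphaV D) := fun _ _ h =>
  alphaFull_injective D (congrArg Subtype.val h)

/-- The image of `α` is saturated. -/
theorem alphaV_sat (a : 𝒪) (w : LinearMap.ker D.U) (ha : a ≠ 0)
    (h : a • w ∈ LinearMap.range (alphaV D)) : w ∈ LinearMap.range (alphaV D) := by
  obtain ⟨ϖ, hirr⟩ := IsDiscreteValuationRing.exists_irreducible 𝒪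
  have hϖ : maximalIdeal 𝒪 = Ideal.span {ϖ} :=
    (IsDiscreteValuationRing.irreducible_iff_uniformizer ϖ).mp hirr
  -- the case `a = ϖ`
  have hstep : ∀ w : LinearMap.ker D.U, ϖ • w ∈ LinearMap.range (alphaV D) →
      w ∈ LinearMap.range (alphaV D) := by
    rintro w ⟨v, hv⟩
    have h1 : alphaFull D v ∈ (maximalIdeal 𝒪 • ⊤ : Submodule 𝒪 D.L') := by
      rw [mem_max_smul_top_iff hϖ]
      refine ⟨(w : D.L'), ?_⟩
      rw [← coe_alphaV, hv]
      rfl
    obtain ⟨v₁, hv₁⟩ := (mem_max_smul_top_iff hϖ _).1 (ihara_alpha D v h1)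
    refine ⟨v₁, ?_⟩
    rw [hv₁, map_smul] at hv
    exact smul_right_injective _ hirr.ne_zero hv
  have hpow : ∀ (n : ℕ) (w : LinearMap.ker D.U), ϖ ^ n • w ∈ LinearMap.range (alphaV D) →
      w ∈ LinearMap.range (alphaV D) := by
    intro n
    induction n with
    | zero => intro w hw; rwa [pow_zero, one_smul] at hw
    | succ n ih =>
      intro w hw
      rw [pow_succ, mul_smul] at hw
      exact hstep w (ih _ hw)
  obtain ⟨n, u, hu⟩ := IsDiscreteValuationRing.eq_unit_mul_pow_irreducible ha hirr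
  refine hpow n w ?_
  have h2 : ϖ ^ n • w = (↑u⁻¹ : 𝒪) • (a • w) := by
    rw [hu, smul_smul, ← mul_assoc, Units.inv_mul, one_mul]
  rw [h2]
  exact Submodule.smul_mem _ _ h

/-- `α'` is onto (dual Ihara + splitting + Nakayama). -/
theorem alphaV'_surjective : Function.Surjective (alphaV' D) := by
  rw [← LinearMap.range_eq_top]
  refine top_le_iff.1 ?_
  refine Submodule.le_of_le_smul_of_le_jacobson_bot (I := maximalIdeal 𝒪)
    (Module.Finite.fg_top) (IsLocalRing.maximalIdeal_le_jacobson _) ?_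
  intro v _
  obtain ⟨w, hw⟩ := D.dual v
  obtain ⟨w₀, w₁, hw01, hw₀⟩ := D.split w
  have h1 : alphaFull' D w = alphaV' D ⟨w₀, hw₀⟩ := by
    rw [alphaV'_apply, hw01, map_add, alphaFull'_U, add_zero]
  have h2 : v = alphaV' D ⟨w₀, hw₀⟩ - (alphaFull' D w - v) := by
    rw [h1]
    abel
  rw [h2]
  refine Submodule.sub_mem _ (Submodule.mem_sup_left ⟨_, rfl⟩) (Submodule.mem_sup_right ?_)
  rw [alphaFull'_apply]
  exact hw

theorem nsmul_eq_zero_of_unit {M : Type*} [AddCommGroup M] [Module 𝒪 M] (x : M)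
    (h : D.q • x = 0) : x = 0 := by
  rw [← Nat.cast_smul_eq_nsmul 𝒪] at h
  have h1 := congrArg (fun y => (↑(D.q_unit.unit⁻¹) : 𝒪) • y) h
  simp only [smul_smul, smul_zero] at h1
  rw [show (↑(D.q_unit.unit⁻¹) : 𝒪) * (D.q : 𝒪) = 1 from by
    have := D.q_unit.unit.inv_mul
    simp, one_smul] at h1
  exact h1

/-- `α' α = -(q - 1)(T_q² - (q + 1)²)`. -/
theorem alphaV'_alphaV (v : D.L) :
    alphaV' D (alphaV D v) =
      -(D.η (((D.q : H) - 1) * (D.Tq ^ 2 - ((D.q : H) + 1) ^ 2)) v) := by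
  have hU : D.U (alphaFull D v) = 0 := U_alphaFull D v
  have hC2 : D.C₂ (alphaFull D v) = 0 := by
    apply nsmul_eq_zero_of_unit D
    rw [← D.R2a, hU, map_zero]
  have hC3 : D.C₃ (alphaFull D v) = 0 := by
    apply nsmul_eq_zero_of_unit D
    rw [← D.R2b, hU, map_zero]
  rw [alphaV'_apply, coe_alphaV, alphaFull'_apply, hC2, hC3, map_zero, smul_zero, sub_zero,
    add_zero, alphaFull_apply, map_add, map_sub, map_nsmul, D.R3a, D.R3b, D.R3c]
  have hq : ∀ x : D.L, D.η (D.q : H) x = D.q • x := by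
    intro x
    rw [map_natCast]
    exact Module.End.natCast_apply _ _
  simp only [map_mul, map_sub, map_add, map_one, pow_two, Module.End.mul_apply,
    LinearMap.sub_apply, LinearMap.add_apply, Module.End.one_apply, hq, map_nsmul, smul_sub,
    smul_add, mul_smul, add_smul, one_smul, mul_add, add_mul]
  simp only [← Nat.cast_smul_eq_nsmul 𝒪, smul_smul]
  module

end Main

/-- **NM-ALG.** -/
theorem stmt_ALG : Stmt_ALG := by
  intro 𝒪 _ _ _ H H' _ _ rest θ D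
  exact ⟨{
    V := LinearMap.ker D.U
    ι := (LinearMap.ker D.U).subtype
    ι_inj := Subtype.val_injective
    range_ι := fun w => by
      constructor
      · rintro ⟨v, rfl⟩
        exact v.2
      · intro hw
        exact ⟨⟨w, hw⟩, rfl⟩
    η'' := etaV D
    ι_η := fun _ _ => rfl
    η''_local := etaV_local D
    α := alphaV D
    α' := alphaV' D
    ι_α := fun _ => rfl
    α'_eq := fun _ => rfl
    α_η := alphaV_η D
    α'_η := alphaV'_η D
    α_inj := alphaV_injective D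
    α_sat := alphaV_sat D
    α'_surj := alphaV'_surjective D
    comp := alphaV'_alphaV D }⟩

end Fermat.Agent.S59.NonMin.Geom.H72

end
-- ==== END Fermat.Agent.S59.NonMin.Geom.H72_ALG

-- ==== BEGIN Fermat.Agent.S59.NonMin.Geom.H72_DualAbs
section

/-!
# S59 / NMGEOM, leaf DUAL-k: the abstract linear algebra (helper72)

`k` a field, all spaces finite dimensional.

* `LocNil N x` : every operator `N i` of the family is nilpotent at `x`;
* `exists_joint_ker` (L1): a nonzero subspace stable under a commuting family, on which every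
  member is locally nilpotent, contains a nonzero vector killed by the whole family;
* `exists_locNil_add` (L2): if `W` is stable under the commuting family `N` and for every `i` some
  power `(N i)^n` maps `W` into `K₁`, then every `z ∈ W` is `z₀ + z₁` with `z₀ ∈ W` locally
  nilpotent and `z₁ ∈ K₁` (Fitting + induction on the dimension);
* `inj3_of_eigen` : three maps `A₁ A₂ A₃ : V → V'` intertwining `T i` and `T' i`, jointly injective
  on triples of joint eigenvectors, are jointly injective on triples of generalized eigenvectors;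
* `dual_onto` : the abstract dual statement: if `αd` (the adjoint of `α'`) is injective on the
  generalized eigenvectors, then `α'` maps the generalized eigenvectors `y` with `U' r y = 0` onto
  the generalized eigenvectors `x` with `U r x = 0`.
-/

set_option autoImplicit false

namespace Fermat.Agent.S59.NonMin.Geom.H72D

section LinAlg

variable {k : Type*} [Field k] {K : Type*} [AddCommGroup K] [Module k K]

/-- every member of the family is nilpotent at `x` -/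
def LocNil {I : Type*} (N : I → Module.End k K) (x : K) : Prop :=
  ∀ i, ∃ n : ℕ, ((N i) ^ n) x = 0

theorem pow_apply_eq_zero_of_le {f : Module.End k K} {x : K} {n m : ℕ} (h : (f ^ n) x = 0)
    (hnm : n ≤ m) : (f ^ m) x = 0 := by
  obtain ⟨d, rfl⟩ := Nat.exists_eq_add_of_le hnm
  rw [add_comm, pow_add, Module.End.mul_apply, h, map_zero]

theorem LocNil.add {I : Type*} {N : I → Module.End k K} {x y : K} (hx : LocNil N x)
    (hy : LocNil N y) : LocNil N (x + y) := by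
  intro i
  obtain ⟨n, hn⟩ := hx i
  obtain ⟨m, hm⟩ := hy i
  refine ⟨max n m, ?_⟩
  rw [map_add, pow_apply_eq_zero_of_le hn (le_max_left _ _),
    pow_apply_eq_zero_of_le hm (le_max_right _ _), add_zero]

theorem LocNil.smul {I : Type*} {N : I → Module.End k K} {x : K} (hx : LocNil N x) (c : k) :
    LocNil N (c • x) := by
  intro i
  obtain ⟨n, hn⟩ := hx i
  exact ⟨n, by rw [map_smul, hn, smul_zero]⟩

theorem LocNil.zero {I : Type*} (N : I → Module.End k K) : LocNil N (0 : K) :=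
  fun _ => ⟨0, by simp⟩

theorem Commute.pow_apply_comm {f g : Module.End k K} (h : Commute f g) (n : ℕ) (x : K) :
    (f ^ n) (g x) = g ((f ^ n) x) := by
  have := (h.pow_left n).eq
  exact congrArg (fun e : Module.End k K => e x) this

/-- an operator commuting with the family preserves local nilpotence -/
theorem LocNil.map {I : Type*} {N : I → Module.End k K} {x : K} (hx : LocNil N x)
    (g : Module.End k K) (hg : ∀ i, Commute (N i) g) : LocNil N (g x) := by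
  intro i
  obtain ⟨n, hn⟩ := hx i
  exact ⟨n, by rw [Commute.pow_apply_comm (hg i), hn, map_zero]⟩

variable [FiniteDimensional k K]

/-- **L1**: joint kernel vector. -/
theorem exists_joint_ker {I : Type*} (N : I → Module.End k K)
    (hc : ∀ i j, Commute (N i) (N j)) :
    ∀ (W : Submodule k K), W ≠ ⊥ → (∀ i, ∀ x ∈ W, N i x ∈ W) → (∀ x ∈ W, LocNil N x) →
      ∃ z ∈ W, z ≠ 0 ∧ ∀ i, N i z = 0 := by
  intro W
  induction' hd : Module.finrank k W using Nat.strong_induction_on with d ih generalizing W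
  intro hW hstab hnil
  by_cases hall : ∀ i, ∀ x ∈ W, N i x = 0
  · obtain ⟨z, hz, hz0⟩ := (Submodule.ne_bot_iff W).mp hW
    exact ⟨z, hz, hz0, fun i => hall i z hz⟩
  · simp only [not_forall] at hall
    obtain ⟨i, x, hxW, hx⟩ := hall
    -- the subspace `W ⊓ ker (N i)`
    set W' : Submodule k K := W ⊓ LinearMap.ker (N i) with hW'
    have hlt : W' < W := by
      refine lt_of_le_of_ne inf_le_left ?_
      intro heq
      apply hx
      have : x ∈ W' := heq ▸ hxW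
      exact LinearMap.mem_ker.mp this.2
    have hne : W' ≠ ⊥ := by
      obtain ⟨n, hn⟩ := hnil x hxW i
      -- minimal exponent
      have hex : ∃ n, ((N i) ^ n) x = 0 := ⟨n, hn⟩
      classical
      set m := Nat.find hex with hm
      have hm0 : ((N i) ^ m) x = 0 := Nat.find_spec hex
      have hmpos : m ≠ 0 := by
        intro h0
        rw [h0, pow_zero, Module.End.one_apply] at hm0
        rw [hm0, map_zero] at hx
        exact hx rfl
      obtain ⟨m', hm'⟩ := Nat.exists_eq_succ_of_ne_zero hmpos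
      have hmin : ((N i) ^ m') x ≠ 0 := by
        have : m' < m := by omega
        exact Nat.find_min hex this
      have hmemW : ∀ j : ℕ, ((N i) ^ j) x ∈ W := by
        intro j
        induction j with
        | zero => simpa using hxW
        | succ j ihj =>
          rw [pow_succ', Module.End.mul_apply]
          exact hstab i _ ihj
      intro hbot
      have hmem : ((N i) ^ m') x ∈ W' := by
        refine ⟨hmemW m', LinearMap.mem_ker.mpr ?_⟩
        rw [← Module.End.mul_apply, ← pow_succ', ← Nat.succ_eq_add_one, ← hm', hm0]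
      rw [hbot] at hmem
      exact hmin ((Submodule.mem_bot k).mp hmem)
    have hdim : Module.finrank k W' < d := by
      rw [← hd]
      exact Submodule.finrank_lt_finrank_of_lt hlt
    obtain ⟨z, hz, hz0, hzk⟩ := ih _ hdim W' rfl hne
      (fun j y hy => ⟨hstab j y hy.1, LinearMap.mem_ker.mpr (by
        have := (hc i j).eq
        have h2 := congrArg (fun e : Module.End k K => e y) this
        simp only [Module.End.mul_apply] at h2
        rw [h2, LinearMap.mem_ker.mp hy.2, map_zero])⟩)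
      (fun y hy => hnil y hy.1)
    exact ⟨z, hz.1, hz0, hzk⟩

/-- Fitting decomposition inside a stable subspace, in elementary form. -/
theorem exists_fitting (f : Module.End k K) (W : Submodule k K) (hW : ∀ x ∈ W, f x ∈ W)
    (n₀ : ℕ) : ∃ m, n₀ ≤ m ∧ ∀ z ∈ W, ∃ z' ∈ W, ∃ w ∈ W, (f ^ m) z' = 0 ∧ z = z' + (f ^ m) w := by
  have hev := LinearMap.eventually_isCompl_ker_pow_range_pow (f.restrict hW)
  obtain ⟨m, hm, hm0⟩ := (hev.and (Filter.eventually_ge_atTop n₀)).exists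
  refine ⟨m, hm0, fun z hz => ?_⟩
  have hz' : (⟨z, hz⟩ : W) ∈ (LinearMap.ker ((f.restrict hW) ^ m) ⊔
      LinearMap.range ((f.restrict hW) ^ m) : Submodule k W) := by
    rw [hm.sup_eq_top]; trivial
  obtain ⟨a, ha, b, ⟨w, rfl⟩, hab⟩ := Submodule.mem_sup.mp hz'
  have hpow : ∀ v : W, (((f.restrict hW) ^ m) v : K) = (f ^ m) (v : K) := by
    intro v
    rw [Module.End.pow_restrict]
    rfl
  refine ⟨a, a.2, w, w.2, ?_, ?_⟩
  · rw [← hpow a, LinearMap.mem_ker.mp ha]; rfl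
  · have := congrArg (Subtype.val) hab
    rw [← hpow w]
    exact this.symm

/-- **L2**. -/
theorem exists_locNil_add {I : Type*} (N : I → Module.End k K)
    (hc : ∀ i j, Commute (N i) (N j)) (K₁ : Submodule k K) :
    ∀ (W : Submodule k K), (∀ i, ∀ x ∈ W, N i x ∈ W) →
      (∀ i, ∃ n : ℕ, ∀ x ∈ W, ((N i) ^ n) x ∈ K₁) →
      ∀ z ∈ W, ∃ z₀ ∈ W, LocNil N z₀ ∧ z - z₀ ∈ K₁ := by
  intro W
  induction' hd : Module.finrank k W using Nat.strong_induction_on with d ih generalizing W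
  intro hstab hK₁ z hz
  by_cases hall : ∀ x ∈ W, LocNil N x
  · exact ⟨z, hz, hall z hz, by simp⟩
  · simp only [not_forall] at hall
    obtain ⟨x, hxW, hx⟩ := hall
    unfold LocNil at hx
    simp only [not_forall, not_exists] at hx
    obtain ⟨i, hxi⟩ := hx
    obtain ⟨n₀, hn₀⟩ := hK₁ i
    obtain ⟨m, hm, hfit⟩ := exists_fitting (N i) W (hstab i) n₀
    set W' : Submodule k K := W ⊓ LinearMap.ker ((N i) ^ m) with hW'
    have hlt : W' < W := by
      refine lt_of_le_of_ne inf_le_left ?_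
      intro heq
      have : x ∈ W' := heq ▸ hxW
      exact hxi m (LinearMap.mem_ker.mp this.2)
    have hdim : Module.finrank k W' < d := by
      rw [← hd]
      exact Submodule.finrank_lt_finrank_of_lt hlt
    have hmemW : ∀ (j : ℕ) (y : K), y ∈ W → ((N i) ^ j) y ∈ W := by
      intro j y hy
      induction j with
      | zero => simpa using hy
      | succ j ihj =>
        rw [pow_succ', Module.End.mul_apply]
        exact hstab i _ ihj
    obtain ⟨z', hz'W, w, hwW, hz'k, hzz⟩ := hfit z hz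
    have hz'W' : z' ∈ W' := ⟨hz'W, LinearMap.mem_ker.mpr hz'k⟩
    obtain ⟨z₀, hz₀, hz₀n, hz₀K⟩ := ih _ hdim W' rfl
      (fun j y hy => ⟨hstab j y hy.1, LinearMap.mem_ker.mpr (by
        rw [Commute.pow_apply_comm (hc i j), LinearMap.mem_ker.mp hy.2, map_zero])⟩)
      (fun j => by
        obtain ⟨n, hn⟩ := hK₁ j
        exact ⟨n, fun y hy => hn y hy.1⟩) z' hz'W'
    refine ⟨z₀, hz₀.1, hz₀n, ?_⟩
    have h1 : ((N i) ^ m) w ∈ K₁ := by
      obtain ⟨d', rfl⟩ := Nat.exists_eq_add_of_le hm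
      rw [pow_add, Module.End.mul_apply]
      exact hn₀ _ (hmemW d' w hwW)
    have : z - z₀ = (z' - z₀) + ((N i) ^ m) w := by rw [hzz]; abel
    rw [this]
    exact K₁.add_mem hz₀K h1

end LinAlg

/-! ### Three maps: from joint eigenvectors to generalized eigenvectors -/

section Three

variable {k : Type*} [Field k] {V : Type*} [AddCommGroup V] [Module k V]
  {V' : Type*} [AddCommGroup V'] [Module k V']

/-- the diagonal operator on `V × V × V` -/
def diag3 (f : Module.End k V) : Module.End k (V × V × V) :=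
  f.prodMap (f.prodMap f)

theorem diag3_apply (f : Module.End k V) (x : V × V × V) :
    diag3 f x = (f x.1, f x.2.1, f x.2.2) := rfl

theorem diag3_pow (f : Module.End k V) (n : ℕ) (x : V × V × V) :
    ((diag3 f) ^ n) x = ((f ^ n) x.1, (f ^ n) x.2.1, (f ^ n) x.2.2) := by
  induction n generalizing x with
  | zero => simp
  | succ n ih =>
    rw [pow_succ, Module.End.mul_apply, ih]
    simp only [diag3_apply, pow_succ, Module.End.mul_apply]

theorem diag3_commute {f g : Module.End k V} (h : Commute f g) :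
    Commute (diag3 f) (diag3 g) := by
  have e : ∀ x, f (g x) = g (f x) := fun x => congrArg (fun e : Module.End k V => e x) h.eq
  refine LinearMap.ext fun x => ?_
  simp only [Module.End.mul_apply, diag3_apply, e]

variable [FiniteDimensional k V]

/-- If `(A₁, A₂, A₃)` is jointly injective on triples of joint eigenvectors (for the system `a`),
it is jointly injective on triples of generalized eigenvectors. -/
theorem inj3_of_eigen {I : Type*} (T : I → Module.End k V) (T' : I → Module.End k V')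
    (a : I → k) (hTc : ∀ i j, Commute (T i) (T j))
    (A₁ A₂ A₃ : V →ₗ[k] V')
    (h₁ : ∀ i x, A₁ (T i x) = T' i (A₁ x)) (h₂ : ∀ i x, A₂ (T i x) = T' i (A₂ x))
    (h₃ : ∀ i x, A₃ (T i x) = T' i (A₃ x))
    (hI : ∀ x₁ x₂ x₃ : V, (∀ i, T i x₁ = a i • x₁) → (∀ i, T i x₂ = a i • x₂) →
      (∀ i, T i x₃ = a i • x₃) → A₁ x₁ + A₂ x₂ + A₃ x₃ = 0 → x₁ = 0 ∧ x₂ = 0 ∧ x₃ = 0)
    (x₁ x₂ x₃ : V) (hx₁ : LocNil (fun i => T i - a i • (1 : Module.End k V)) x₁)
    (hx₂ : LocNil (fun i => T i - a i • (1 : Module.End k V)) x₂)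
    (hx₃ : LocNil (fun i => T i - a i • (1 : Module.End k V)) x₃)
    (hrel : A₁ x₁ + A₂ x₂ + A₃ x₃ = 0) : x₁ = 0 ∧ x₂ = 0 ∧ x₃ = 0 := by
  set N : I → Module.End k V := fun i => T i - a i • (1 : Module.End k V) with hN
  have hNc : ∀ i j, Commute (N i) (N j) := by
    intro i j
    have h := hTc i j
    exact ((h.sub_right ((Commute.one_right _).smul_right _)).sub_left
      (((Commute.one_left _).smul_left _).sub_right ((Commute.one_left _).smul_left _ |>.smul_right _)))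
  -- the subspace of relations between generalized eigenvectors
  let W : Submodule k (V × V × V) :=
    { carrier := {x | LocNil N x.1 ∧ LocNil N x.2.1 ∧ LocNil N x.2.2 ∧
        A₁ x.1 + A₂ x.2.1 + A₃ x.2.2 = 0}
      add_mem' := by
        rintro x y ⟨hx1, hx2, hx3, hx⟩ ⟨hy1, hy2, hy3, hy⟩
        refine ⟨hx1.add hy1, hx2.add hy2, hx3.add hy3, ?_⟩
        simp only [Prod.fst_add, Prod.snd_add, map_add]
        rw [show A₁ x.1 + A₁ y.1 + (A₂ x.2.1 + A₂ y.2.1) + (A₃ x.2.2 + A₃ y.2.2)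
          = (A₁ x.1 + A₂ x.2.1 + A₃ x.2.2) + (A₁ y.1 + A₂ y.2.1 + A₃ y.2.2) by abel, hx, hy,
          add_zero]
      zero_mem' := ⟨LocNil.zero N, LocNil.zero N, LocNil.zero N, by simp⟩
      smul_mem' := by
        rintro c x ⟨hx1, hx2, hx3, hx⟩
        refine ⟨hx1.smul c, hx2.smul c, hx3.smul c, ?_⟩
        simp only [Prod.smul_fst, Prod.smul_snd, map_smul]
        rw [← smul_add, ← smul_add, hx, smul_zero] }
  have hAN : ∀ (A : V →ₗ[k] V') (_ : ∀ i x, A (T i x) = T' i (A x)) (i : I) (x : V),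
      A (N i x) = (T' i - a i • (1 : Module.End k V')) (A x) := by
    intro A hA i x
    simp only [hN, LinearMap.sub_apply, LinearMap.smul_apply, Module.End.one_apply, map_sub,
      map_smul, hA]
  by_contra hne
  have hW : W ≠ ⊥ := by
    intro hbot
    have hmem : (x₁, x₂, x₃) ∈ W := ⟨hx₁, hx₂, hx₃, hrel⟩
    rw [hbot] at hmem
    have h0 := (Submodule.mem_bot k).mp hmem
    apply hne
    simp only [Prod.mk_eq_zero] at h0
    exact h0
  obtain ⟨z, hzW, hz0, hzk⟩ := exists_joint_ker (fun i => diag3 (N i))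
    (fun i j => diag3_commute (hNc i j)) W hW
    (by
      rintro i x ⟨hx1, hx2, hx3, hx⟩
      refine ⟨hx1.map _ (fun j => hNc j i), hx2.map _ (fun j => hNc j i),
        hx3.map _ (fun j => hNc j i), ?_⟩
      simp only [diag3_apply]
      rw [hAN A₁ h₁, hAN A₂ h₂, hAN A₃ h₃, ← map_add, ← map_add, hx, map_zero])
    (by
      rintro x ⟨hx1, hx2, hx3, -⟩ i
      obtain ⟨n1, hn1⟩ := hx1 i
      obtain ⟨n2, hn2⟩ := hx2 i
      obtain ⟨n3, hn3⟩ := hx3 i
      refine ⟨max n1 (max n2 n3), ?_⟩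
      rw [diag3_pow, pow_apply_eq_zero_of_le hn1 (le_max_left _ _),
        pow_apply_eq_zero_of_le hn2 ((le_max_left _ _).trans (le_max_right _ _)),
        pow_apply_eq_zero_of_le hn3 ((le_max_right _ _).trans (le_max_right _ _))]
      rfl)
  have heig : ∀ (y : V), (∀ i, N i y = 0) → ∀ i, T i y = a i • y := by
    intro y hy i
    have := hy i
    simp only [hN, LinearMap.sub_apply, LinearMap.smul_apply, Module.End.one_apply] at this
    exact sub_eq_zero.mp this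
  have hz1 : ∀ i, N i z.1 = 0 := fun i => congrArg Prod.fst (hzk i)
  have hz2 : ∀ i, N i z.2.1 = 0 := fun i => congrArg (fun x : V × V × V => x.2.1) (hzk i)
  have hz3 : ∀ i, N i z.2.2 = 0 := fun i => congrArg (fun x : V × V × V => x.2.2) (hzk i)
  obtain ⟨e1, e2, e3⟩ := hI z.1 z.2.1 z.2.2 (heig _ hz1) (heig _ hz2) (heig _ hz3) hzW.2.2.2
  apply hz0
  ext
  · exact e1
  · exact e2
  · exact e3

end Three

/-! ### The abstract dual statement -/

section Dual

variable {k : Type*} [Field k] {V : Type*} [AddCommGroup V] [Module k V] [FiniteDimensional k V]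
  {V' : Type*} [AddCommGroup V'] [Module k V'] [FiniteDimensional k V']

/-- A bilinear form with trivial left kernel on a finite dimensional space represents every
functional. -/
theorem exists_repr (B : V →ₗ[k] V →ₗ[k] k) (hB : ∀ x, (∀ y, B x y = 0) → x = 0)
    (f : V →ₗ[k] k) : ∃ x, B x = f := by
  have hinj : Function.Injective B := by
    rw [← LinearMap.ker_eq_bot, LinearMap.ker_eq_bot']
    intro x hx
    exact hB x (fun y => by rw [hx]; rfl)
  have hsurj : Function.Surjective B :=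
    (LinearMap.injective_iff_surjective_of_finrank_eq_finrank
      (Subspace.dual_finrank_eq (K := k) (V := V)).symm).mp hinj
  exact hsurj f

/-- separation of a vector from a subspace by the form -/
theorem exists_orth (B : V →ₗ[k] V →ₗ[k] k) (hB : ∀ x, (∀ y, B x y = 0) → x = 0)
    (R : Submodule k V) (x : V) (hx : x ∉ R) : ∃ z, (∀ r ∈ R, B z r = 0) ∧ B z x ≠ 0 := by
  obtain ⟨f, hfx, hf⟩ := Submodule.exists_dual_map_eq_bot_of_notMem hx inferInstance
  obtain ⟨z, hz⟩ := exists_repr B hB f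
  refine ⟨z, fun r hr => ?_, ?_⟩
  · rw [hz]
    have : f r ∈ R.map f := Submodule.mem_map_of_mem hr
    rw [hf] at this
    exact (Submodule.mem_bot k).mp this
  · rw [hz]; exact hfx

omit [FiniteDimensional k V'] in
theorem pow_ker_of_sq_ker (U : Module.End k V') (hU : ∀ y, U (U y) = 0 → U y = 0) (y : V')
    (n : ℕ) (h : (U ^ n) (U y) = 0) : U y = 0 := by
  induction n with
  | zero => simpa using h
  | succ n ih =>
    apply ih
    rw [pow_succ, Module.End.mul_apply, Commute.pow_apply_comm (Commute.refl U),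
      Commute.pow_apply_comm (Commute.refl U)] at h
    rw [Commute.pow_apply_comm (Commute.refl U)]
    exact hU _ h

theorem commute_sub_smul {E : Type*} [AddCommGroup E] [Module k E] (f g : Module.End k E)
    (c d : k) (h : Commute f g) :
    Commute (f - c • (1 : Module.End k E)) (g - d • (1 : Module.End k E)) :=
  ((h.sub_right ((Commute.one_right _).smul_right _)).sub_left
    (((Commute.one_left _).smul_left _).sub_right
      ((Commute.one_left _).smul_left _ |>.smul_right _)))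

theorem commute_sub_smul_left {E : Type*} [AddCommGroup E] [Module k E] (f g : Module.End k E)
    (c : k) (h : Commute f g) : Commute (f - c • (1 : Module.End k E)) g :=
  h.sub_left ((Commute.one_left _).smul_left _)

/-- **The abstract dual statement.** -/
theorem dual_onto (B : V →ₗ[k] V →ₗ[k] k) (B' : V' →ₗ[k] V' →ₗ[k] k)
    (hB : ∀ x, (∀ y, B x y = 0) → x = 0) (hB' : ∀ x, (∀ y, B' x y = 0) → x = 0)
    {I : Type*} (T : I → Module.End k V) (T' : I → Module.End k V') (a : I → k)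
    (hTc : ∀ i j, Commute (T i) (T j)) (hT'c : ∀ i j, Commute (T' i) (T' j))
    (hTsa : ∀ i x y, B x (T i y) = B (T i x) y)
    {J : Type*} (U : J → Module.End k V) (U' : J → Module.End k V')
    (hU'c : ∀ r s, Commute (U' r) (U' s)) (hT'U' : ∀ i r, Commute (T' i) (U' r))
    (hTU : ∀ i r, Commute (T i) (U r))
    (hU'ker : ∀ r y, U' r (U' r y) = 0 → U' r y = 0)
    (α' : V' →ₗ[k] V) (αd : V →ₗ[k] V')
    (hadj : ∀ x y, B' (αd x) y = B x (α' y))
    (hα'T : ∀ i y, α' (T' i y) = T i (α' y))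
    (hαdT : ∀ i x, αd (T i x) = T' i (αd x))
    (hα'U : ∀ r y, α' (U' r y) = U r (α' y))
    (hinj : ∀ x, LocNil (fun i => T i - a i • (1 : Module.End k V)) x → αd x = 0 → x = 0)
    (x : V) (hx : LocNil (fun i => T i - a i • (1 : Module.End k V)) x)
    (hxU : ∀ r, U r x = 0) :
    ∃ y : V', LocNil (fun i => T' i - a i • (1 : Module.End k V')) y ∧ (∀ r, U' r y = 0) ∧
      α' y = x := by
  classical
  set N : I → Module.End k V := fun i => T i - a i • (1 : Module.End k V) with hN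
  set N' : I → Module.End k V' := fun i => T' i - a i • (1 : Module.End k V') with hN'
  have hNc : ∀ i j, Commute (N i) (N j) := fun i j => commute_sub_smul _ _ _ _ (hTc i j)
  have hN'c : ∀ i j, Commute (N' i) (N' j) := fun i j => commute_sub_smul _ _ _ _ (hT'c i j)
  have hNsa : ∀ i x y, B x (N i y) = B (N i x) y := by
    intro i x y
    simp only [hN, LinearMap.sub_apply, LinearMap.smul_apply, Module.End.one_apply, map_sub,
      map_smul, hTsa]
  have hNsa_pow : ∀ i (n : ℕ) x y, B x ((N i ^ n) y) = B ((N i ^ n) x) y := by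
    intro i n
    induction n with
    | zero => intro x y; simp
    | succ n ih =>
      intro x y
      have e1 : (N i ^ (n + 1)) y = (N i ^ n) (N i y) := by
        rw [pow_succ, Module.End.mul_apply]
      have e2 : (N i ^ (n + 1)) x = N i ((N i ^ n) x) := by
        rw [pow_succ', Module.End.mul_apply]
      rw [e1, e2, ih, hNsa]
  have hαdN : ∀ i x, αd (N i x) = N' i (αd x) := by
    intro i x
    simp only [hN, hN', LinearMap.sub_apply, LinearMap.smul_apply, Module.End.one_apply, map_sub,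
      map_smul, hαdT]
  have hα'N : ∀ i y, α' (N' i y) = N i (α' y) := by
    intro i y
    simp only [hN, hN', LinearMap.sub_apply, LinearMap.smul_apply, Module.End.one_apply, map_sub,
      map_smul, hα'T]
  have hα'N_pow : ∀ i (n : ℕ) y, α' ((N' i ^ n) y) = (N i ^ n) (α' y) := by
    intro i n
    induction n with
    | zero => intro y; simp
    | succ n ih =>
      intro y
      have e1 : (N' i ^ (n + 1)) y = (N' i ^ n) (N' i y) := by
        rw [pow_succ, Module.End.mul_apply]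
      have e2 : (N i ^ (n + 1)) (α' y) = (N i ^ n) (N i (α' y)) := by
        rw [pow_succ, Module.End.mul_apply]
      rw [e1, e2, ih, hα'N]
  -- Step (i): `x` is in the range of `α'`
  have hrange : x ∈ LinearMap.range α' := by
    by_contra hxR
    obtain ⟨z, hzR, hzx⟩ := exists_orth B hB (LinearMap.range α') x hxR
    have hzK : αd z = 0 := by
      apply hB'
      intro y
      rw [hadj]
      exact hzR _ ⟨y, rfl⟩
    obtain ⟨z₀, hz₀K, hz₀n, hz₀1⟩ := exists_locNil_add N hNc (LinearMap.ker ((B.flip) x))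
      (LinearMap.ker αd)
      (fun i w hw => LinearMap.mem_ker.mpr (by rw [hαdN, LinearMap.mem_ker.mp hw, map_zero]))
      (fun i => by
        obtain ⟨n, hn⟩ := hx i
        refine ⟨n, fun w _ => LinearMap.mem_ker.mpr ?_⟩
        rw [LinearMap.flip_apply, ← hNsa_pow, hn, map_zero])
      z (LinearMap.mem_ker.mpr hzK)
    have hz₀ : z₀ = 0 := hinj z₀ hz₀n (LinearMap.mem_ker.mp hz₀K)
    rw [hz₀, sub_zero] at hz₀1
    exact hzx (by simpa [LinearMap.flip_apply] using LinearMap.mem_ker.mp hz₀1)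
  obtain ⟨y₀, hy₀⟩ := hrange
  -- Step (ii): correct `y₀`
  choose nx hnx using hx
  -- the subspace `X` of `V`
  let X : Submodule k V :=
    { carrier := {v | (∀ i, (N i ^ nx i) v = 0) ∧ ∀ r, U r v = 0}
      add_mem' := by
        rintro v w ⟨hv1, hv2⟩ ⟨hw1, hw2⟩
        exact ⟨fun i => by rw [map_add, hv1, hw1, add_zero],
          fun r => by rw [map_add, hv2, hw2, add_zero]⟩
      zero_mem' := ⟨fun i => map_zero _, fun r => map_zero _⟩
      smul_mem' := by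
        rintro c v ⟨hv1, hv2⟩
        exact ⟨fun i => by rw [map_smul, hv1, smul_zero],
          fun r => by rw [map_smul, hv2, smul_zero]⟩ }
  have hxX : x ∈ X := ⟨hnx, hxU⟩
  have hNU : ∀ i r, Commute (N i) (U r) := fun i r => commute_sub_smul_left _ _ _ (hTU i r)
  have hXN : ∀ i, ∀ v ∈ X, N i v ∈ X := by
    rintro i v ⟨hv1, hv2⟩
    refine ⟨fun j => ?_, fun r => ?_⟩
    · rw [Commute.pow_apply_comm (hNc j i), hv1, map_zero]
    · have := congrArg (fun e : Module.End k V => e v) (hNU i r).eq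
      simp only [Module.End.mul_apply] at this
      rw [← this, hv2, map_zero]
  -- the family on `V'`
  let N'' : I ⊕ J → Module.End k V' := Sum.elim N' U'
  have hN''c : ∀ s t, Commute (N'' s) (N'' t) := by
    rintro (i | r) (j | s)
    · exact hN'c i j
    · exact commute_sub_smul_left _ _ _ (hT'U' i s)
    · exact (commute_sub_smul_left _ _ _ (hT'U' j r)).symm
    · exact hU'c r s
  obtain ⟨y, hyW, hyn, hy1⟩ := exists_locNil_add N'' hN''c (LinearMap.ker α')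
    (X.comap α')
    (by
      rintro (i | r) w hw
      · show α' (N' i w) ∈ X
        rw [hα'N]
        exact hXN i _ hw
      · show α' (U' r w) ∈ X
        rw [hα'U, (show U r (α' w) = 0 from hw.2 r)]
        exact X.zero_mem)
    (by
      rintro (i | r)
      · refine ⟨nx i, fun w hw => LinearMap.mem_ker.mpr ?_⟩
        show α' ((N' i ^ nx i) w) = 0
        rw [hα'N_pow]
        exact hw.1 i
      · refine ⟨1, fun w hw => LinearMap.mem_ker.mpr ?_⟩
        show α' ((U' r ^ 1) w) = 0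
        rw [pow_one, hα'U]
        exact hw.2 r)
    y₀ (show α' y₀ ∈ X by rw [hy₀]; exact hxX)
  refine ⟨y, fun i => hyn (Sum.inl i), fun r => ?_, ?_⟩
  · obtain ⟨n, hn⟩ := hyn (Sum.inr r)
    change (U' r ^ n) y = 0 at hn
    rcases n with _ | n
    · simp only [pow_zero, Module.End.one_apply] at hn
      rw [hn, map_zero]
    · apply pow_ker_of_sq_ker (U' r) (hU'ker r) y n
      rw [← Module.End.mul_apply, ← pow_succ]
      exact hn
  · have := LinearMap.mem_ker.mp hy1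
    rw [map_sub, sub_eq_zero] at this
    rw [← this, hy₀]

end Dual

end Fermat.Agent.S59.NonMin.Geom.H72D

end
-- ==== END Fermat.Agent.S59.NonMin.Geom.H72_DualAbs

-- ==== BEGIN Fermat.Agent.S59.NonMin.Geom.H78_Ihara3vDefs
section

/-!
# S59 / NMGEOM, leaf IHARA3 (helper78): the three-vector form

`Stmt_IHARA3v` (proposed by helper48 and helper94; it replaces `Geom.Stmt_IHARA3`, which is too weak
for `Deg3.ihara` and for DUAL): three cuspidal eigen-homomorphisms `x₁, x₂, x₃ : Γ₀(N) → k` for the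
same non-Eisenstein system of eigenvalues with `A₁ x₁ + A₂ x₂ + A₃ x₃ = 0` all vanish.
`Stmt_IHARA3` follows from it with `x_i := c_i • x`.

Definition only; the proof is `H78.stmt_IHARA3v` (file `H78_Ihara3v.lean`).  No `sorry`.
-/

set_option autoImplicit false

open CongruenceSubgroup
open scoped MatrixGroups

namespace Fermat.Agent.S59.NonMin.Geom.H78

open Fermat.Agent.S41 Fermat.Agent.Betti Fermat.Agent.S59.NonMin.Geom

/-- **IHARA3, three-vector form.** -/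
def Stmt_IHARA3v : Prop :=
  ∀ (k : Type) [Field k] (p : ℕ) [Fact p.Prime] [CharP k p], p ≠ 2 →
    ∀ (N q : ℕ), 0 < N → q.Prime → ¬ q ∣ N → q ≠ p →
    ∀ (P : ℕ → Prop) (a : ℕ → k), (∀ ℓ, P ℓ → ℓ.Prime ∧ ¬ ℓ ∣ N * q ∧ ℓ ≠ p) →
    (∀ M : ℕ, 0 < M → p ∣ M →
      ∃ ℓ, P ℓ ∧ ℓ % M = 1 % M ∧ (q : ZMod ℓ) ^ ((ℓ - 1) / p) ≠ 1 ∧ a ℓ ≠ 2) →
    ∀ x₁ x₂ x₃ : Additive (Gamma0 N) →+ k,
    IsCuspidalHom (Gamma0 N) x₁ → IsCuspidalHom (Gamma0 N) x₂ → IsCuspidalHom (Gamma0 N) x₃ →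
    (∀ (ℓ : ℕ) (hℓ : ℓ.Prime) (hℓN : ¬ ℓ ∣ N), P ℓ →
      TB N k hℓ hℓN x₁ = a ℓ • x₁ ∧ TB N k hℓ hℓN x₂ = a ℓ • x₂ ∧ TB N k hℓ hℓN x₃ = a ℓ • x₃) →
    resA1 N q k x₁ + resA2 N q k x₂ + resA3 N q k x₃ = 0 → x₁ = 0 ∧ x₂ = 0 ∧ x₃ = 0

end Fermat.Agent.S59.NonMin.Geom.H78

end
-- ==== END Fermat.Agent.S59.NonMin.Geom.H78_Ihara3vDefs

-- ==== BEGIN Fermat.Agent.S59.NonMin.Geom.H85_ThetaSurj
section

/-!
# S59, NMGEOM / PGEOM: the abstract core of "dual Ihara on the `θ`-part"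
(pure linear algebra over a field, Mathlib only; helper85)

`V`, `V'` finite dimensional with nondegenerate forms `B`, `B'`; `c : V' → V` with adjoint
`r : V → V'`; a commuting family `T i` on `V`, self-adjoint for `B`, with `c ∘ T' i = T i ∘ c`.
If (Ihara) `r` is injective on the joint kernel of the `T i`, then every `x : V` on which all `T i`
are locally nilpotent is `c y`; moreover, if `(N j, N' j)` is any family of operators intertwined
by `c`, the `N' j` commuting, locally nilpotent at `x`, then `y` can be chosen with all `N' j`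
locally nilpotent at `y`.

* `exists_joint_kernel` : a nonzero stable subspace on which commuting operators are locally
  nilpotent contains a nonzero joint kernel vector;
* `fitting_sub` : Fitting's lemma for an operator on a stable subspace;
* `le_nil_sup` : if `(N i)^(n i) K ⊆ K₁` then every `z ∈ K` is `a + z₁`, `a ∈ K` with all `N i`
  locally nilpotent at `a`, `z₁ ∈ K₁`;
* `theta_surj` : the theorem.

No projectors, no primary decomposition.
-/

set_option autoImplicit false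

namespace Fermat.Agent.S59.NonMin.Geom.H85

section Abs

variable {k : Type*} [Field k] {V : Type*} [AddCommGroup V] [Module k V]

/-- a power of an operator commutes with an operator commuting with it -/
theorem pow_apply_comm {f g : Module.End k V} (h : Commute f g) (n : ℕ) (x : V) :
    (f ^ n) (g x) = g ((f ^ n) x) :=
  congrArg (fun e : Module.End k V => e x) (h.pow_left n).eq

/-- the vectors at which `f` is locally nilpotent -/
def locNil (f : Module.End k V) : Submodule k V where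
  carrier := {x | ∃ n : ℕ, (f ^ n) x = 0}
  zero_mem' := ⟨0, by simp⟩
  add_mem' := by
    rintro x y ⟨n, hn⟩ ⟨m, hm⟩
    refine ⟨n + m, ?_⟩
    have h1 : (f ^ (n + m)) y = 0 := by
      rw [pow_add, Module.End.mul_apply, hm, map_zero]
    have h2 : (f ^ (n + m)) x = 0 := by
      rw [add_comm, pow_add, Module.End.mul_apply, hn, map_zero]
    rw [map_add, h1, h2, add_zero]
  smul_mem' := by
    rintro c x ⟨n, hn⟩
    exact ⟨n, by rw [map_smul, hn, smul_zero]⟩

theorem mem_locNil {f : Module.End k V} {x : V} : x ∈ locNil f ↔ ∃ n : ℕ, (f ^ n) x = 0 :=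
  Iff.rfl

/-- **L1**: a nonzero stable subspace on which the commuting operators `N i` are locally nilpotent
contains a nonzero vector killed by all `N i`. -/
theorem exists_joint_kernel_aux [FiniteDimensional k V] {I : Type*} (N : I → Module.End k V)
    (hc : ∀ i j, Commute (N i) (N j)) :
    ∀ (d : ℕ) (Q : Submodule k V), Module.finrank k Q = d → Q ≠ ⊥ →
      (∀ i, ∀ x ∈ Q, N i x ∈ Q) → (∀ i, ∀ x ∈ Q, ∃ n : ℕ, (N i ^ n) x = 0) →
      ∃ z ∈ Q, z ≠ 0 ∧ ∀ i, N i z = 0 := by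
  intro d
  induction d using Nat.strong_induction_on with
  | _ d IH =>
    intro Q hd hQ hst hnil
    by_cases hall : ∀ i, ∀ x ∈ Q, N i x = 0
    · obtain ⟨z, hz, hz0⟩ := Submodule.exists_mem_ne_zero_of_ne_bot hQ
      exact ⟨z, hz, hz0, fun i => hall i z hz⟩
    · push Not at hall
      obtain ⟨i, x, hx, hx0⟩ := hall
      have hlt : Q ⊓ LinearMap.ker (N i) < Q := by
        refine lt_of_le_of_ne inf_le_left ?_
        intro h
        have hxm : x ∈ Q ⊓ LinearMap.ker (N i) := by rw [h]; exact hx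
        exact hx0 (LinearMap.mem_ker.mp (Submodule.mem_inf.mp hxm).2)
      have hne : Q ⊓ LinearMap.ker (N i) ≠ ⊥ := by
        classical
        have hex : ∃ n, (N i ^ n) x = 0 := hnil i x hx
        have hm0 : (N i ^ Nat.find hex) x = 0 := Nat.find_spec hex
        have hmpos : Nat.find hex ≠ 0 := by
          intro h0
          rw [h0, pow_zero] at hm0
          apply hx0
          have hx' : x = 0 := hm0
          rw [hx', map_zero]
        obtain ⟨m', hm'⟩ := Nat.exists_eq_succ_of_ne_zero hmpos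
        have hm'ne : (N i ^ m') x ≠ 0 := Nat.find_min hex (by omega)
        intro hbot
        apply hm'ne
        have hmem : (N i ^ m') x ∈ Q ⊓ LinearMap.ker (N i) := by
          refine Submodule.mem_inf.mpr ⟨Module.End.pow_apply_mem_of_forall_mem m' (hst i) x hx, ?_⟩
          rw [LinearMap.mem_ker, ← Module.End.mul_apply, ← pow_succ', ← Nat.succ_eq_add_one,
            ← hm']
          exact hm0
        rw [hbot] at hmem
        exact (Submodule.mem_bot k).mp hmem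
      have hst' : ∀ j, ∀ y ∈ Q ⊓ LinearMap.ker (N i), N j y ∈ Q ⊓ LinearMap.ker (N i) := by
        intro j y hy
        have hy' := Submodule.mem_inf.mp hy
        refine Submodule.mem_inf.mpr ⟨hst j y hy'.1, ?_⟩
        rw [LinearMap.mem_ker]
        have e : N i (N j y) = N j (N i y) :=
          congrArg (fun e : Module.End k V => e y) (hc i j).eq
        rw [e, LinearMap.mem_ker.mp hy'.2, map_zero]
      have hnil' : ∀ j, ∀ y ∈ Q ⊓ LinearMap.ker (N i), ∃ n : ℕ, (N j ^ n) y = 0 :=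
        fun j y hy => hnil j y (Submodule.mem_inf.mp hy).1
      obtain ⟨z, hz, hz0, hzk⟩ := IH (Module.finrank k ↥(Q ⊓ LinearMap.ker (N i)))
        (hd ▸ Submodule.finrank_lt_finrank_of_lt hlt) (Q ⊓ LinearMap.ker (N i)) rfl hne hst'
        hnil'
      exact ⟨z, (Submodule.mem_inf.mp hz).1, hz0, hzk⟩

/-- **L1**: a nonzero stable subspace on which the commuting operators `N i` are locally nilpotent
contains a nonzero vector killed by all `N i`. -/
theorem exists_joint_kernel [FiniteDimensional k V] {I : Type*} (N : I → Module.End k V)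
    (hc : ∀ i j, Commute (N i) (N j)) (Q : Submodule k V) (hQ : Q ≠ ⊥)
    (hst : ∀ i, ∀ x ∈ Q, N i x ∈ Q) (hnil : ∀ i, ∀ x ∈ Q, ∃ n : ℕ, (N i ^ n) x = 0) :
    ∃ z ∈ Q, z ≠ 0 ∧ ∀ i, N i z = 0 :=
  exists_joint_kernel_aux N hc _ Q rfl hQ hst hnil

/-- **Fitting's lemma** for an operator `f` on a stable subspace `K`: every `z ∈ K` is `a + b`
with `f` locally nilpotent at `a ∈ K` and `b ∈ ⋂ fⁿ K`. -/
theorem fitting_sub [FiniteDimensional k V] (f : Module.End k V) (K : Submodule k V)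
    (hK : ∀ x ∈ K, f x ∈ K) (z : V) (hz : z ∈ K) :
    ∃ a ∈ K, (∃ n : ℕ, (f ^ n) a = 0) ∧ ∀ n : ℕ, ∃ b ∈ K, (f ^ n) b = z - a := by
  have hcompl := LinearMap.isCompl_iSup_ker_pow_iInf_range_pow (f.restrict hK)
  have htop : (⟨z, hz⟩ : K) ∈ (⨆ n, LinearMap.ker ((f.restrict hK) ^ n)) ⊔
      (⨅ n, LinearMap.range ((f.restrict hK) ^ n)) := by
    rw [hcompl.sup_eq_top]
    trivial
  obtain ⟨a, ha, b, hb, hab⟩ := Submodule.mem_sup.mp htop
  obtain ⟨n, hn⟩ := (LinearMap.eventually_iSup_ker_pow_eq (f.restrict hK)).exists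
  rw [hn] at ha
  have hpow : ∀ (m : ℕ) (w : K), (((f.restrict hK) ^ m) w : V) = (f ^ m) w.1 := by
    intro m w
    rw [Module.End.pow_restrict m hK]
    rfl
  refine ⟨a.1, a.2, ⟨n, ?_⟩, ?_⟩
  · rw [← hpow, LinearMap.mem_ker.mp ha]
    rfl
  · intro m
    obtain ⟨b', hb'⟩ := (Submodule.mem_iInf _).mp hb m
    refine ⟨b'.1, b'.2, ?_⟩
    rw [← hpow, hb']
    have h1 : (a : V) + (b : V) = z := congrArg Subtype.val hab
    rw [← h1]
    abel

/-- **L2**: `K` stable under the commuting operators `N i`, and for every `i` some power of `N i`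
maps `K` into `K₁`.  Then every `z ∈ K` is `a + z₁` with `a ∈ K`, all `N i` locally nilpotent at
`a`, and `z₁ ∈ K₁`. -/
theorem le_nil_sup_aux [FiniteDimensional k V] {I : Type*} (N : I → Module.End k V)
    (hc : ∀ i j, Commute (N i) (N j)) (K₁ : Submodule k V) :
    ∀ (d : ℕ) (K : Submodule k V), Module.finrank k K = d → (∀ i, ∀ x ∈ K, N i x ∈ K) →
      (∀ i, ∃ n : ℕ, ∀ x ∈ K, (N i ^ n) x ∈ K₁) →
      ∀ z ∈ K, ∃ a ∈ K, (∀ i, ∃ n : ℕ, (N i ^ n) a = 0) ∧ z - a ∈ K₁ := by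
  intro d
  induction d using Nat.strong_induction_on with
  | _ d IH =>
    intro K hd hst hK₁ z hz
    by_cases hall : ∀ i, ∀ x ∈ K, ∃ n : ℕ, (N i ^ n) x = 0
    · exact ⟨z, hz, fun i => hall i z hz, by rw [sub_self]; exact K₁.zero_mem⟩
    · push Not at hall
      obtain ⟨i, x, hx, hxn⟩ := hall
      have hlt : K ⊓ locNil (N i) < K := by
        refine lt_of_le_of_ne inf_le_left ?_
        intro h
        have hxm : x ∈ K ⊓ locNil (N i) := by rw [h]; exact hx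
        obtain ⟨n, hn⟩ := (Submodule.mem_inf.mp hxm).2
        exact hxn n hn
      have hst' : ∀ j, ∀ y ∈ K ⊓ locNil (N i), N j y ∈ K ⊓ locNil (N i) := by
        intro j y hy
        have hy' := Submodule.mem_inf.mp hy
        refine Submodule.mem_inf.mpr ⟨hst j y hy'.1, ?_⟩
        obtain ⟨n, hn⟩ := hy'.2
        exact ⟨n, by rw [pow_apply_comm (hc i j), hn, map_zero]⟩
      have hK₁' : ∀ j, ∃ n : ℕ, ∀ y ∈ K ⊓ locNil (N i), (N j ^ n) y ∈ K₁ := by
        intro j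
        obtain ⟨n, hn⟩ := hK₁ j
        exact ⟨n, fun y hy => hn y (Submodule.mem_inf.mp hy).1⟩
      obtain ⟨a₀, ha₀, ha₀n, ha₀r⟩ := fitting_sub (N i) K (hst i) z hz
      obtain ⟨n, hn⟩ := hK₁ i
      obtain ⟨b, hb, hbz⟩ := ha₀r n
      have hza₀ : z - a₀ ∈ K₁ := by
        rw [← hbz]
        exact hn b hb
      obtain ⟨a, ha, han, haa⟩ := IH (Module.finrank k ↥(K ⊓ locNil (N i)))
        (hd ▸ Submodule.finrank_lt_finrank_of_lt hlt) (K ⊓ locNil (N i)) rfl hst' hK₁' a₀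
        (Submodule.mem_inf.mpr ⟨ha₀, ha₀n⟩)
      refine ⟨a, (Submodule.mem_inf.mp ha).1, han, ?_⟩
      have e : z - a = (z - a₀) + (a₀ - a) := by abel
      rw [e]
      exact K₁.add_mem hza₀ haa

/-- **L2**: `K` stable under the commuting operators `N i`, and for every `i` some power of `N i`
maps `K` into `K₁`.  Then every `z ∈ K` is `a + z₁` with `a ∈ K`, all `N i` locally nilpotent at
`a`, and `z₁ ∈ K₁`. -/
theorem le_nil_sup [FiniteDimensional k V] {I : Type*} (N : I → Module.End k V)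
    (hc : ∀ i j, Commute (N i) (N j)) (K K₁ : Submodule k V)
    (hst : ∀ i, ∀ x ∈ K, N i x ∈ K) (hK₁ : ∀ i, ∃ n : ℕ, ∀ x ∈ K, (N i ^ n) x ∈ K₁)
    (z : V) (hz : z ∈ K) :
    ∃ a ∈ K, (∀ i, ∃ n : ℕ, (N i ^ n) a = 0) ∧ z - a ∈ K₁ :=
  le_nil_sup_aux N hc K₁ _ K rfl hst hK₁ z hz

/-- a bilinear form with trivial left kernel on a finite dimensional space represents every
functional -/
theorem exists_repr_of_left_nondeg [FiniteDimensional k V] (B : V →ₗ[k] V →ₗ[k] k)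
    (hB : ∀ x, (∀ y, B x y = 0) → x = 0) (f : V →ₗ[k] k) : ∃ x, B x = f := by
  have hinj : Function.Injective B := by
    rw [← LinearMap.ker_eq_bot, LinearMap.ker_eq_bot']
    intro x hx
    exact hB x (fun y => by rw [hx]; rfl)
  exact ((LinearMap.injective_iff_surjective_of_finrank_eq_finrank
    (Subspace.dual_finrank_eq (K := k) (V := V)).symm).mp hinj) f

variable {V' : Type*} [AddCommGroup V'] [Module k V']

/-- **Dual Ihara on the `θ`-part, abstract form.**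
`B`, `B'` nondegenerate; `r` is the adjoint of `c`; the `T i` commute, are self-adjoint, and
`c ∘ T' i = T i ∘ c`; Ihara: `r` is injective on the joint kernel of the `T i`.
`(N j, N' j)`: any family intertwined by `c`, the `N' j` commuting.
Then every `x` at which all `T i` and all `N j` are locally nilpotent is `c y` with all `N' j`
locally nilpotent at `y`. -/
theorem theta_surj [FiniteDimensional k V] [FiniteDimensional k V'] {I J : Type*}
    (B : V →ₗ[k] V →ₗ[k] k) (B' : V' →ₗ[k] V' →ₗ[k] k)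
    (hB : ∀ x, (∀ y, B x y = 0) → x = 0) (hB' : ∀ z, (∀ y, B' z y = 0) → z = 0)
    (r : V →ₗ[k] V') (c : V' →ₗ[k] V) (adj : ∀ x y, B' (r x) y = B x (c y))
    (T : I → Module.End k V) (hTc : ∀ i j, Commute (T i) (T j))
    (hT : ∀ i x y, B x (T i y) = B (T i x) y)
    (T' : I → Module.End k V') (cT : ∀ i y, c (T' i y) = T i (c y))
    (ih : ∀ z, (∀ i, T i z = 0) → r z = 0 → z = 0)
    (N : J → Module.End k V) (N' : J → Module.End k V')
    (hN' : ∀ i j, Commute (N' i) (N' j)) (cN : ∀ j y, c (N' j y) = N j (c y))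
    (x : V) (hxT : ∀ i, ∃ n : ℕ, (T i ^ n) x = 0) (hxN : ∀ j, ∃ n : ℕ, (N j ^ n) x = 0) :
    ∃ y : V', c y = x ∧ ∀ j, ∃ n : ℕ, (N' j ^ n) y = 0 := by
  classical
  -- powers
  have hTpow : ∀ (i : I) (n : ℕ) (w v : V), B ((T i ^ n) w) v = B w ((T i ^ n) v) := by
    intro i n
    induction n with
    | zero => intro w v; simp
    | succ n IHn =>
      intro w v
      have e : (T i ^ n) (T i v) = T i ((T i ^ n) v) := by
        rw [← Module.End.mul_apply, ← Module.End.mul_apply, ← pow_succ, ← pow_succ']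
      rw [pow_succ, Module.End.mul_apply, Module.End.mul_apply, IHn, e, hT]
  have hNpow : ∀ (j : J) (n : ℕ) (y : V'), c ((N' j ^ n) y) = (N j ^ n) (c y) := by
    intro j n
    induction n with
    | zero => intro y; simp
    | succ n IHn =>
      intro y
      rw [pow_succ, Module.End.mul_apply, IHn, cN, pow_succ, Module.End.mul_apply]
  -- the kernel of `r` is stable under the `T i`
  have hker : ∀ i, ∀ w ∈ LinearMap.ker r, T i w ∈ LinearMap.ker r := by
    intro i w hw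
    rw [LinearMap.mem_ker] at hw ⊢
    apply hB'
    intro y
    rw [adj, ← hT i w (c y), ← cT, ← adj, hw]
    simp
  -- (2) `x` is in the range of `c`
  have hrange : x ∈ LinearMap.range c := by
    by_contra hnot
    obtain ⟨f, hfx, hf⟩ := Submodule.exists_dual_map_eq_bot_of_notMem hnot inferInstance
    obtain ⟨z, hz⟩ := exists_repr_of_left_nondeg B hB f
    have hf0 : ∀ y, B z (c y) = 0 := by
      intro y
      have h1 : f (c y) ∈ (LinearMap.range c).map f :=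
        Submodule.mem_map_of_mem (LinearMap.mem_range_self c y)
      rw [hf] at h1
      rw [hz]
      exact (Submodule.mem_bot k).mp h1
    have hrz : z ∈ LinearMap.ker r := by
      rw [LinearMap.mem_ker]
      apply hB'
      intro y
      rw [adj]
      exact hf0 y
    have hzx : B z x ≠ 0 := by
      rw [hz]
      exact hfx
    -- the decomposition of `z`
    obtain ⟨a, ha, han, haz⟩ := le_nil_sup T hTc (LinearMap.ker r) (LinearMap.ker (B.flip x))
      hker (fun i => by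
        obtain ⟨n, hn⟩ := hxT i
        refine ⟨n, fun w _ => ?_⟩
        rw [LinearMap.mem_ker, LinearMap.flip_apply, hTpow, hn, map_zero]) z hrz
    -- `a = 0` by Ihara
    have ha0 : a = 0 := by
      by_contra hane
      have hQ : (LinearMap.ker r ⊓ ⨅ i, locNil (T i)) ≠ ⊥ := by
        intro hbot
        apply hane
        have : a ∈ LinearMap.ker r ⊓ ⨅ i, locNil (T i) :=
          Submodule.mem_inf.mpr ⟨ha, (Submodule.mem_iInf _).mpr han⟩
        rw [hbot] at this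
        exact (Submodule.mem_bot k).mp this
      obtain ⟨z', hz', hz'0, hz'k⟩ := exists_joint_kernel T hTc _ hQ
        (fun i w hw => Submodule.mem_inf.mpr ⟨hker i w (Submodule.mem_inf.mp hw).1,
          (Submodule.mem_iInf _).mpr fun j => by
            obtain ⟨n, hn⟩ := (Submodule.mem_iInf _).mp (Submodule.mem_inf.mp hw).2 j
            exact ⟨n, by rw [pow_apply_comm (hTc j i), hn, map_zero]⟩⟩)
        (fun i w hw => (Submodule.mem_iInf _).mp (Submodule.mem_inf.mp hw).2 i)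
      exact hz'0 (ih z' hz'k (LinearMap.mem_ker.mp (Submodule.mem_inf.mp hz').1))
    rw [ha0, sub_zero, LinearMap.mem_ker, LinearMap.flip_apply] at haz
    exact hzx haz
  obtain ⟨y₀, hy₀⟩ := hrange
  -- (3) the adjustment
  choose m hm using hxN
  have hKst : ∀ i, ∀ y ∈ (⨅ j, LinearMap.ker (c ∘ₗ (N' j ^ m j)) : Submodule k V'),
      N' i y ∈ (⨅ j, LinearMap.ker (c ∘ₗ (N' j ^ m j)) : Submodule k V') := by
    intro i y hy
    refine (Submodule.mem_iInf _).mpr fun j => ?_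
    have hyj := (Submodule.mem_iInf _).mp hy j
    rw [LinearMap.mem_ker, LinearMap.comp_apply] at hyj ⊢
    rw [pow_apply_comm (hN' j i), cN, hyj, map_zero]
  have hy₀K : y₀ ∈ (⨅ j, LinearMap.ker (c ∘ₗ (N' j ^ m j)) : Submodule k V') := by
    refine (Submodule.mem_iInf _).mpr fun j => ?_
    rw [LinearMap.mem_ker, LinearMap.comp_apply, hNpow, hy₀, hm]
  obtain ⟨y, _, hyn, hyy⟩ := le_nil_sup N' hN' _ (LinearMap.ker c) hKst
    (fun j => ⟨m j, fun w hw => by
      have := (Submodule.mem_iInf _).mp hw j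
      rw [LinearMap.mem_ker, LinearMap.comp_apply] at this
      exact LinearMap.mem_ker.mpr this⟩) y₀ hy₀K
  refine ⟨y, ?_, hyn⟩
  rw [LinearMap.mem_ker, map_sub, sub_eq_zero] at hyy
  rw [← hyy, hy₀]

end Abs

end Fermat.Agent.S59.NonMin.Geom.H85

end
-- ==== END Fermat.Agent.S59.NonMin.Geom.H85_ThetaSurj

-- ==== BEGIN Fermat.Agent.S59.NonMin.Geom.H92_B0Coord
section

set_option autoImplicit false

namespace Fermat.Agent.S59.NonMin.Geom.H92B

/-- A compatible system of coordinates on the `p`-power torsion of `A`: `e 0 i = 0`,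
`p • e (k+1) i = e k i`, and the `e k i` are a basis of `A[p^k]` over `ℤ/p^k`. -/
structure IsCoordSys {A : Type} [AddCommGroup A] {r : ℕ} (p : ℕ) (e : ℕ → Fin r → A) : Prop where
  zero : ∀ i, e 0 i = 0
  succ : ∀ k i, p • e (k + 1) i = e k i
  span : ∀ (k : ℕ) (x : A), p ^ k • x = 0 → ∃ n : Fin r → ℤ, x = ∑ i, n i • e k i
  indep : ∀ (k : ℕ) (n : Fin r → ℤ), ∑ i, n i • e k i = 0 → ∀ i, ((p : ℤ) ^ k) ∣ n i

theorem IsCoordSys.pow_smul {A : Type} [AddCommGroup A] {r : ℕ} {p : ℕ} {e : ℕ → Fin r → A}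
    (he : IsCoordSys p e) (k : ℕ) (i : Fin r) : p ^ k • e k i = 0 := by
  induction k with
  | zero => rw [pow_zero, one_smul, he.zero]
  | succ k ih => rw [pow_succ, mul_smul, he.succ, ih]

end Fermat.Agent.S59.NonMin.Geom.H92B

end
-- ==== END Fermat.Agent.S59.NonMin.Geom.H92_B0Coord

-- ==== BEGIN Fermat.Agent.S59.NonMin.Geom.H94_DualDefs
section

/-!
# S59 / NMGEOM, leaf DUAL: interface of the split (helper94, helper72)

`Stmt_DUAL` is split into

* `Stmt_DUALk` (helper72): the statement over the residue field `k`: `α' = C₁ - T_q C₂ + q C₃`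
  maps the `θ`-part of the cuspidal `k`-valued classes of level `N q²` killed by the `U_r`
  (`r ∈ Sig`) ONTO the same part of level `N`;
* `Stmt_LIFTB` (helper94): every class of the `k`-level lattice part (`InBettik`) of ANY level
  `M` is the reduction of a class of the `𝒪`-lattice (`InBetti`);
* `Stmt_KERU` (input of both; a by-product of the proof of `Stmt_RELSPLIT`): at a level
  `N r²`, `r ∤ N`, with coefficients in a field in which `r` is invertible, `U_r (U_r ψ) = 0`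
  implies `U_r ψ = 0`;
* the assembly `H94.dual_of : Stmt_DUALk → Stmt_LIFTB → Stmt_DUAL` (file `H94_DualAsm.lean`).

Definitions only; no `sorry`.
-/

set_option autoImplicit false

open CuspForm CongruenceSubgroup IsLocalRing
open scoped MatrixGroups

namespace Fermat.Agent.S59.NonMin.Geom

open Fermat.Agent.S41 Fermat.Agent.Betti Fermat.Agent.S59 Fermat.Agent.S59.Asm
open ModularCurve.Period

/-- Reduction of the coefficients modulo the maximal ideal. -/
noncomputable def redB (𝒪 : Type) [CommRing 𝒪] [IsLocalRing 𝒪] {G : Type} [AddZeroClass G]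
    (φ : G →+ 𝒪) :
    G →+ ResidueField 𝒪 :=
  (residue 𝒪).toAddMonoidHom.comp φ

@[simp] theorem redB_apply (𝒪 : Type) [CommRing 𝒪] [IsLocalRing 𝒪] {G : Type} [AddZeroClass G]
    (φ : G →+ 𝒪) (γ : G) : redB 𝒪 φ γ = residue 𝒪 (φ γ) := rfl

/-- The `k`-level analogue of `InBetti`: `φ : Γ₀(N) → k` is cuspidal (kills the parabolic and the
elliptic elements), killed by `U_r` for `r ∈ Sig`, and every `T_ℓ - θ(T_ℓ)` is nilpotent on it. -/
def InBettik (k : Type) [Field k] (N : ℕ) [NeZero N] (S : Set ℕ)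
    (θ : CuspForm.heckeAlgebra N 2 S →+* k) (Sig : Finset ℕ)
    (φ : Additive (Gamma0 N) →+ k) : Prop :=
  IsCuspidalHom (Gamma0 N) φ ∧
  (∀ r ∈ Sig, ∀ hr : r ∣ N, UB N k hr φ = 0) ∧
  ∀ (ℓ : ℕ) (hℓ : ℓ.Prime) (hℓN : ¬ ℓ ∣ N) (hℓS : ℓ ∉ S),
    ∃ n : ℕ, (fun χ : Additive (Gamma0 N) →+ k =>
      TB N k hℓ hℓN χ - θ (CuspForm.heckeAlgebra.T hℓ hℓN hℓS) • χ)^[n] φ = 0

/-- **DUAL-k** (helper72): dual Ihara over the residue field.  Same hypotheses as `Stmt_DUAL`. -/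
def Stmt_DUALk : Prop :=
  ∀ (𝒪 : Type) [CommRing 𝒪] [IsDomain 𝒪] [IsDiscreteValuationRing 𝒪]
    [IsAdicComplete (maximalIdeal 𝒪) 𝒪] [Finite (ResidueField 𝒪)] [CharZero 𝒪]
    (p : ℕ) [Fact p.Prime], p ≠ 2 → (p : 𝒪) ∈ maximalIdeal 𝒪 →
    ∀ (ρbar : ResidualGaloisRep (ResidueField 𝒪)) (Smin : Finset ℕ), ResHyp p ρbar Smin →
    ∀ (N₀ : ℕ) (Sig : Finset ℕ) (N : ℕ) [NeZero N] (S : Finset ℕ), GeomHyp p Smin N₀ Sig N S →
    ∀ (θ : CuspForm.heckeAlgebra N 2 (↑S : Set ℕ) →+* ResidueField 𝒪),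
    Fermat.Agent.S59.Datum.FrobHyp ρbar N S θ →
    ∀ (q : ℕ) (hq : q.Prime), q ≠ p → ∀ (hqN : ¬ q ∣ N), q ∉ (↑S : Set ℕ) →
    ∀ [NeZero (N * q ^ 2)]
      (rest : CuspForm.heckeAlgebra (N * q ^ 2) 2 (↑(insert q S) : Set ℕ) →+*
        CuspForm.heckeAlgebra N 2 (↑S : Set ℕ)),
    (∀ (ℓ : ℕ) (hℓ : ℓ.Prime) (hℓN' : ¬ ℓ ∣ N * q ^ 2)
      (hℓS' : ℓ ∉ (↑(insert q S) : Set ℕ)) (hℓN : ¬ ℓ ∣ N) (hℓS : ℓ ∉ (↑S : Set ℕ)),
      rest (CuspForm.heckeAlgebra.T hℓ hℓN' hℓS') = CuspForm.heckeAlgebra.T hℓ hℓN hℓS) →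
    ∀ φ : Additive (Gamma0 N) →+ ResidueField 𝒪,
      InBettik (ResidueField 𝒪) N (↑S : Set ℕ) θ Sig φ →
      ∃ ψ : Additive (Gamma0 (N * q ^ 2)) →+ ResidueField 𝒪,
        InBettik (ResidueField 𝒪) (N * q ^ 2) (↑(insert q S) : Set ℕ) (θ.comp rest) Sig ψ ∧
        alphaB' N (ResidueField 𝒪) hq hqN ψ = φ

/-- **LIFT-B** (helper94): at any level `M`, every class of the `k`-level lattice part is the
reduction of a class of the Betti lattice.  The primes of `Sig` are invertible in `𝒪` and divide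
`M` exactly twice.
[`Betti` TORSLIFT (a cuspidal class lifts to a parabolic class); the `θ`-primary decomposition of
the finite modules `Hom_par(Γ₀(M), 𝒪 / 𝔪^m)` and a limit; the projectors `e_r` of
`Stmt_RELSPLIT` with `Stmt_KERU`.] -/
def Stmt_LIFTB : Prop :=
  ∀ (𝒪 : Type) [CommRing 𝒪] [IsDomain 𝒪] [IsDiscreteValuationRing 𝒪]
    [IsAdicComplete (maximalIdeal 𝒪) 𝒪] [Finite (ResidueField 𝒪)] [CharZero 𝒪]
    (p : ℕ) [Fact p.Prime], (p : 𝒪) ∈ maximalIdeal 𝒪 →
    ∀ (M : ℕ) [NeZero M] (S : Set ℕ) (θ : CuspForm.heckeAlgebra M 2 S →+* ResidueField 𝒪)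
      (Sig : Finset ℕ),
    (∀ r ∈ Sig, r.Prime ∧ r ≠ p ∧ ∃ M₀ : ℕ, M = M₀ * r ^ 2 ∧ ¬ r ∣ M₀) →
    ∀ ψb : Additive (Gamma0 M) →+ ResidueField 𝒪, InBettik (ResidueField 𝒪) M S θ Sig ψb →
      ∃ ψ : Additive (Gamma0 M) →+ 𝒪, InBetti 𝒪 M S θ Sig ψ ∧ redB 𝒪 ψ = ψb

/-- **KERU**: at a level `N r²` (`r ∤ N` prime) and with coefficients in a field in which `r` is
invertible, `U_r` has no nilpotent part: `U_r (U_r ψ) = 0 → U_r ψ = 0`.
[`U_r = res1 ∘ cor2` through the level `N r`, `U' = cor2 ∘ res1` is injective on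
`Hom(Γ₀(N r), k)` and so is `res1` (`cor1 ∘ res1 = r`): `U² ψ = res1 (U' (cor2 ψ))`.] -/
def Stmt_KERU : Prop :=
  ∀ (k : Type) [Field k] (N r : ℕ) [NeZero (N * r ^ 2)], r.Prime → ¬ r ∣ N → (r : k) ≠ 0 →
    ∀ (hd : r ∣ N * r ^ 2) (ψ : Additive (Gamma0 (N * r ^ 2)) →+ k),
      UB (N * r ^ 2) k hd (UB (N * r ^ 2) k hd ψ) = 0 → UB (N * r ^ 2) k hd ψ = 0

end Fermat.Agent.S59.NonMin.Geom

end
-- ==== END Fermat.Agent.S59.NonMin.Geom.H94_DualDefs

-- ==== BEGIN Fermat.Agent.S59.NonMin.Geom.H94_LiftAbs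
section

/-!
# S59 / NMGEOM, leaf DUAL, part LIFT-B (helper94): the abstract lifting lemma

Pure algebra.  Let `𝒪` be a complete noetherian local ring with finite residue field, `X` a
finite `𝒪`-module with an action `Φ : R →+* End_𝒪 X` of a commutative ring `R`, and `s ⊆ R`.

* `exists_lift_level` : if every `t ∈ s` is nilpotent at `x₀` modulo `I X`, then some
  `x ≡ x₀ mod I X` has every `t ∈ s` nilpotent modulo `I^m X` (primary decomposition of the finite
  `R`-module `X / I^m X`, `Lim.H61`);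
* `abs_lift` : … then some `x ≡ x₀ mod 𝔪 X` has `(Φ t)^n x → 0` for every `t ∈ s` (a limit along
  an ultrafilter, `Patch.ulim`).

No `sorry`.
-/

set_option autoImplicit false
set_option linter.style.haveILetI false

open IsLocalRing Filter

namespace Fermat.Agent.S59.NonMin.Geom.H94

open Fermat.Agent.S59.Lim Fermat.Agent.S59.Patch

section Level

variable {𝒪 : Type} [CommRing 𝒪] {X : Type} [AddCommGroup X] [Module 𝒪 X]
  {R : Type} [CommRing R]

/-- `I • ⊤` is stable under endomorphisms. -/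
theorem end_mem_smul_top (I : Ideal 𝒪) (f : Module.End 𝒪 X) {x : X}
    (hx : x ∈ (I • ⊤ : Submodule 𝒪 X)) : f x ∈ (I • ⊤ : Submodule 𝒪 X) := by
  have h : (I • ⊤ : Submodule 𝒪 X).map f ≤ I • ⊤ := by
    rw [Submodule.map_smul'']
    exact Submodule.smul_mono le_rfl le_top
  exact h (Submodule.mem_map_of_mem hx)

/-- The submodule `I X` as an `R`-submodule. -/
def smulTopR (Φ : R →+* Module.End 𝒪 X) (I : Ideal 𝒪) :
    letI : Module R X := Module.compHom X Φ
    Submodule R X :=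
  letI : Module R X := Module.compHom X Φ
  { carrier := ((I • ⊤ : Submodule 𝒪 X) : Set X)
    add_mem' := fun ha hb => Submodule.add_mem _ ha hb
    zero_mem' := Submodule.zero_mem _
    smul_mem' := fun r _ hx => end_mem_smul_top I (Φ r) hx }

theorem mem_smulTopR (Φ : R →+* Module.End 𝒪 X) (I : Ideal 𝒪) (x : X) :
    letI : Module R X := Module.compHom X Φ
    x ∈ smulTopR Φ I ↔ x ∈ (I • ⊤ : Submodule 𝒪 X) := Iff.rfl

/-- The finite level. -/
theorem exists_lift_level (I : Ideal 𝒪) (Φ : R →+* Module.End 𝒪 X) (s : Set R) (m : ℕ)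
    (hm : 1 ≤ m) (hfin : Finite (X ⧸ (I ^ m • ⊤ : Submodule 𝒪 X)))
    (x₀ : X) (h₀ : ∀ t ∈ s, ∃ n : ℕ, (Φ t ^ n) x₀ ∈ (I • ⊤ : Submodule 𝒪 X)) :
    ∃ x : X, x - x₀ ∈ (I • ⊤ : Submodule 𝒪 X) ∧
      ∀ t ∈ s, ∃ n : ℕ, (Φ t ^ n) x ∈ (I ^ m • ⊤ : Submodule 𝒪 X) := by
  letI : Module R X := Module.compHom X Φ
  have hsm : ∀ (t : R) (n : ℕ) (x : X), t ^ n • x = (Φ t ^ n) x := by
    intro t n x
    show Φ (t ^ n) x = (Φ t ^ n) x
    rw [map_pow]
  set Nm : Submodule R X := smulTopR Φ (I ^ m) with hNm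
  set N1 : Submodule R X := smulTopR Φ I with hN1
  have hle : Nm ≤ N1 := by
    intro x hx
    have h1 : (I ^ m • ⊤ : Submodule 𝒪 X) ≤ I • ⊤ :=
      Submodule.smul_mono_left (Ideal.pow_le_self (by omega))
    exact h1 hx
  -- finiteness
  haveI hfm : Finite (X ⧸ Nm) := by
    let g : (X ⧸ (I ^ m • ⊤ : Submodule 𝒪 X)) → (X ⧸ Nm) :=
      Quotient.lift (fun x : X => (Submodule.Quotient.mk x : X ⧸ Nm)) (by
        intro a b hab
        have h1 : a - b ∈ (I ^ m • ⊤ : Submodule 𝒪 X) :=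
          (Submodule.quotientRel_def _).mp hab
        exact (Submodule.Quotient.eq Nm).mpr h1)
    refine Finite.of_surjective g ?_
    intro w
    obtain ⟨x, rfl⟩ := Submodule.Quotient.mk_surjective Nm w
    exact ⟨Submodule.Quotient.mk x, rfl⟩
  let f : (X ⧸ Nm) →ₗ[R] (X ⧸ N1) := Submodule.mapQ Nm N1 LinearMap.id hle
  have hf : ∀ x : X, f (Submodule.Quotient.mk x) = Submodule.Quotient.mk x := fun x => rfl
  haveI hf1 : Finite (X ⧸ N1) := by
    refine Finite.of_surjective f ?_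
    intro w
    obtain ⟨x, rfl⟩ := Submodule.Quotient.mk_surjective N1 w
    exact ⟨Submodule.Quotient.mk x, hf x⟩
  have hlfm : ∀ w : X ⧸ Nm, Finite (Submodule.span R {w}) := fun _ => inferInstance
  have hlf1 : ∀ w : X ⧸ N1, Finite (Submodule.span R {w}) := fun _ => inferInstance
  -- the class of `x₀` modulo `I X` is primary
  have h1 : (Submodule.Quotient.mk x₀ : X ⧸ N1) ∈ primPart (Ideal.span s) (X ⧸ N1) := by
    refine (H61.stmt_LOC_gk R (X ⧸ N1) hlf1 s _).mp ?_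
    intro t ht
    obtain ⟨n, hn⟩ := h₀ t ht
    refine ⟨n, ?_⟩
    rw [← Submodule.Quotient.mk_smul, hsm, Submodule.Quotient.mk_eq_zero]
    exact hn
  obtain ⟨w, hw, hfw⟩ := H61.exists_prim_of_map_prim (Ideal.span s) hlfm f
    (Submodule.Quotient.mk x₀) (by rw [hf]; exact h1)
  obtain ⟨x, rfl⟩ := Submodule.Quotient.mk_surjective Nm w
  refine ⟨x, ?_, ?_⟩
  · rw [hf, hf] at hfw
    exact (Submodule.Quotient.eq N1).mp hfw
  · intro t ht
    obtain ⟨n, hn⟩ := (H61.stmt_LOC_gk R (X ⧸ Nm) hlfm s _).mpr hw t ht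
    refine ⟨n, ?_⟩
    rw [← Submodule.Quotient.mk_smul, hsm, Submodule.Quotient.mk_eq_zero] at hn
    exact hn

end Level

section Limit

variable {𝒪 : Type} [CommRing 𝒪] [IsLocalRing 𝒪] [IsNoetherianRing 𝒪]
  [IsAdicComplete (maximalIdeal 𝒪) 𝒪] [Finite (ResidueField 𝒪)]
  {X : Type} [AddCommGroup X] [Module 𝒪 X] [Module.Finite 𝒪 X]
  {R : Type} [CommRing R]

/-- **The abstract lifting lemma.** -/
theorem abs_lift (Φ : R →+* Module.End 𝒪 X) (s : Set R) (x₀ : X)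
    (h₀ : ∀ t ∈ s, ∃ n : ℕ, (Φ t ^ n) x₀ ∈ (maximalIdeal 𝒪 • ⊤ : Submodule 𝒪 X)) :
    ∃ x : X, x - x₀ ∈ (maximalIdeal 𝒪 • ⊤ : Submodule 𝒪 X) ∧
      ∀ t ∈ s, ∀ m : ℕ, ∃ n : ℕ, (Φ t ^ n) x ∈ (maximalIdeal 𝒪 ^ m • ⊤ : Submodule 𝒪 X) := by
  haveI : FinQuot (maximalIdeal 𝒪) 𝒪 := finQuot_of_isLocalRing 𝒪
  haveI : FinQuot (maximalIdeal 𝒪) X := finQuot_of_finite _
  haveI : IsAdicComplete (maximalIdeal 𝒪) X := IsAdicComplete.of_module_finite _ _
  have hex : ∀ m : ℕ, ∃ x : X, x - x₀ ∈ (maximalIdeal 𝒪 • ⊤ : Submodule 𝒪 X) ∧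
      ∀ t ∈ s, ∃ n : ℕ, (Φ t ^ n) x ∈ (maximalIdeal 𝒪 ^ (m + 1) • ⊤ : Submodule 𝒪 X) :=
    fun m => exists_lift_level (maximalIdeal 𝒪) Φ s (m + 1) (by omega) (FinQuot.fin (m + 1))
      x₀ h₀
  choose u hu1 hu2 using hex
  have h𝔘 : ((hyperfilter ℕ : Ultrafilter ℕ) : Filter ℕ) ≤ atTop := by
    rw [← Nat.cofinite_eq_atTop]
    exact hyperfilter_le_cofinite
  set L : X := ulim (maximalIdeal 𝒪) (hyperfilter ℕ) u with hL
  have hpick : ∀ m : ℕ, ∃ n : ℕ, m ≤ n ∧
      u n - L ∈ (maximalIdeal 𝒪 ^ m • ⊤ : Submodule 𝒪 X) := by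
    intro m
    have h1 := ulim_spec (maximalIdeal 𝒪) (hyperfilter ℕ) u m
    have h2 : ∀ᶠ n in ((hyperfilter ℕ : Ultrafilter ℕ) : Filter ℕ), m ≤ n :=
      h𝔘 (eventually_ge_atTop m)
    obtain ⟨n, hn1, hn2⟩ := (h2.and h1).exists
    exact ⟨n, hn1, hn2⟩
  refine ⟨L, ?_, ?_⟩
  · obtain ⟨n, -, hn⟩ := hpick 1
    rw [pow_one] at hn
    have : L - x₀ = (u n - x₀) - (u n - L) := by abel
    rw [this]
    exact Submodule.sub_mem _ (hu1 n) hn
  · intro t ht m
    obtain ⟨n, hmn, hn⟩ := hpick m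
    obtain ⟨k, hk⟩ := hu2 n t ht
    refine ⟨k, ?_⟩
    have h3 : (maximalIdeal 𝒪 ^ (n + 1) • ⊤ : Submodule 𝒪 X) ≤ maximalIdeal 𝒪 ^ m • ⊤ :=
      Submodule.smul_mono_left (Ideal.pow_le_pow_right (by omega))
    have : (Φ t ^ k) L = (Φ t ^ k) (u n) - (Φ t ^ k) (u n - L) := by
      rw [map_sub]
      abel
    rw [this]
    exact Submodule.sub_mem _ (h3 hk) (end_mem_smul_top _ _ hn)

end Limit

end Fermat.Agent.S59.NonMin.Geom.H94

end
-- ==== END Fermat.Agent.S59.NonMin.Geom.H94_LiftAbs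

-- ==== BEGIN Fermat.Agent.S59.NonMin.Geom.Rank.Defs
section

/-!
# S59 / RT-NONMIN / NMGEOM, leaf RANK (sub-planner helper27): interface

Plan: `NOTES/plan/S59_NMG_RANK.md`.  Target: `Geom.Stmt_RANK` (multiplicity one: the eigenspaces
of the Betti lattices do not grow from the level `N` to the level `N q²`).

Route (no newform theory, no semisimplicity, no signs of `U_r`):
* `rank_𝒪 M[x] = dim_K EB(K)` (`Stmt_LAT`), `dim EB` does not depend on the field (`Stmt_FIELD`,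
  `Stmt_EMBED`), `dim_ℂ EB(ℂ) = 2 dim_ℂ EC` (`Stmt_ES`, Eichler–Shimura);
* `dim EC ≤ 1` at every state (`Stmt_MULT1`): `a₁` is injective on `EC`, by depletion
  (`Stmt_DEPL`), the single-prime main lemma of Atkin–Lehner (`Stmt_MAIN`, `Stmt_MAINb`) and the
  Galois-theoretic input `Stmt_NOLOW` (no form of a level prime to `r ∈ Smin`, `r ∣ N₀`, has the
  eigenvalues of `x`);
* `EC ≠ 0` at every state (`Stmt_NONVAN`).

Conventions for a leaf `X`: file `Fermat/Agent/S59/NonMin/Geom/Rank/H<seat>_<X>.lean`, namespace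
`Fermat.Agent.S59.NonMin.Geom.Rank.H<seat>`, `theorem stmt_<X> : Stmt_<X>` (or
`<x>_of : <other leaves as hypotheses> → Stmt_<X>`).  Definitions only; no `sorry`.
-/

set_option autoImplicit false

open Polynomial CuspForm CongruenceSubgroup IsLocalRing ModularFormClass
open scoped MatrixGroups

namespace Fermat.Agent.S59.NonMin.Geom.Rank

open Fermat.Agent.Betti Fermat.Agent.S59 Fermat.Agent.S59.Asm
open ModularCurve.Period

/-! ## 1. The eigenspaces -/

section Eigenspaces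

variable (N : ℕ) [NeZero N] (S : Set ℕ) (Sig : Finset ℕ)

/-- `φ : Γ₀(N) → R` is parabolic, an eigenvector of the `T_ℓ` (`ℓ ∤ N`, `ℓ ∉ S`) for the
character `χ`, and killed by the `U_r`, `r ∈ Sig`. -/
def IsEB (R : Type) [CommRing R] (χ : CuspForm.heckeAlgebra N 2 S →+* R)
    (φ : Additive (Gamma0 N) →+ R) : Prop :=
  IsParabolicHom (Gamma0 N) φ ∧
  (∀ (ℓ : ℕ) (hℓ : ℓ.Prime) (hℓN : ¬ ℓ ∣ N) (hℓS : ℓ ∉ S),
    TB N R hℓ hℓN φ = χ (CuspForm.heckeAlgebra.T hℓ hℓN hℓS) • φ) ∧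
  ∀ r ∈ Sig, ∀ hr : r ∣ N, UB N R hr φ = 0

/-- The Betti eigenspace with coefficients in a field `K`. -/
def EB (K : Type) [Field K] (χ : CuspForm.heckeAlgebra N 2 S →+* K) :
    Submodule K (Additive (Gamma0 N) →+ K) where
  carrier := {φ | IsEB N S Sig K χ φ}
  zero_mem' := by
    refine ⟨fun _ _ => rfl, fun ℓ hℓ hℓN hℓS => ?_, fun r _ hr => ?_⟩
    · rw [map_zero, smul_zero]
    · rw [map_zero]
  add_mem' := by
    rintro φ ψ ⟨h1, h2, h3⟩ ⟨k1, k2, k3⟩
    refine ⟨(parabolicHoms K (Gamma0 N) K).add_mem h1 k1, fun ℓ hℓ hℓN hℓS => ?_,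
      fun r hr hrN => ?_⟩
    · rw [map_add, h2, k2, smul_add]
    · rw [map_add, h3 r hr hrN, k3 r hr hrN, add_zero]
  smul_mem' := by
    rintro c φ ⟨h1, h2, h3⟩
    refine ⟨(parabolicHoms K (Gamma0 N) K).smul_mem c h1, fun ℓ hℓ hℓN hℓS => ?_,
      fun r hr hrN => ?_⟩
    · rw [TB_smul, h2, smul_comm]
    · rw [UB_smul, h3 r hr hrN, smul_zero]

variable {N S Sig} in
theorem mem_EB {K : Type} [Field K] {χ : CuspForm.heckeAlgebra N 2 S →+* K}
    {φ : Additive (Gamma0 N) →+ K} : φ ∈ EB N S Sig K χ ↔ IsEB N S Sig K χ φ := Iff.rfl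

/-- The cusp form eigenspace: `T_ℓ f = χ(T_ℓ) f` (`ℓ ∤ N`, `ℓ ∉ S`), `U_r f = 0` (`r ∈ Sig`). -/
def EC (χ : CuspForm.heckeAlgebra N 2 S →+* ℂ) : Submodule ℂ (CuspForm (Gamma0 N) 2) where
  carrier := {f | (∀ (ℓ : ℕ) (hℓ : ℓ.Prime) (hℓN : ¬ ℓ ∣ N) (hℓS : ℓ ∉ S),
      CuspForm.heckeTLin 2 hℓ hℓN f = χ (CuspForm.heckeAlgebra.T hℓ hℓN hℓS) • f) ∧
    ∀ r ∈ Sig, ∀ hr : r ∣ N, CuspForm.heckeULin 2 hr f = 0}
  zero_mem' := by
    refine ⟨fun ℓ hℓ hℓN hℓS => ?_, fun r _ hr => ?_⟩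
    · rw [map_zero, smul_zero]
    · rw [map_zero]
  add_mem' := by
    rintro f g ⟨h2, h3⟩ ⟨k2, k3⟩
    refine ⟨fun ℓ hℓ hℓN hℓS => ?_, fun r hr hrN => ?_⟩
    · rw [map_add, h2, k2, smul_add]
    · rw [map_add, h3 r hr hrN, k3 r hr hrN, add_zero]
  smul_mem' := by
    rintro c f ⟨h2, h3⟩
    refine ⟨fun ℓ hℓ hℓN hℓS => ?_, fun r hr hrN => ?_⟩
    · rw [map_smul, h2, smul_comm]
    · rw [map_smul, h3 r hr hrN, smul_zero]

variable {N S Sig} in
theorem mem_EC {χ : CuspForm.heckeAlgebra N 2 S →+* ℂ} {f : CuspForm (Gamma0 N) 2} :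
    f ∈ EC N S Sig χ ↔
      (∀ (ℓ : ℕ) (hℓ : ℓ.Prime) (hℓN : ¬ ℓ ∣ N) (hℓS : ℓ ∉ S),
        CuspForm.heckeTLin 2 hℓ hℓN f = χ (CuspForm.heckeAlgebra.T hℓ hℓN hℓS) • f) ∧
      ∀ r ∈ Sig, ∀ hr : r ∣ N, CuspForm.heckeULin 2 hr f = 0 := Iff.rfl

end Eigenspaces

/-- `f` (of level `L`) is an eigenvector of `T_ℓ` with eigenvalue `a ℓ` for every prime `ℓ ∤ L`,
`ℓ ∉ S` (a condition which makes sense at every level). -/
def IsAnemic (L : ℕ) (S : Set ℕ) (a : ℕ → ℂ) (f : CuspForm (Gamma0 L) 2) : Prop :=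
  ∀ (ℓ : ℕ) (hℓ : ℓ.Prime) (hℓL : ¬ ℓ ∣ L), ℓ ∉ S → CuspForm.heckeTLin 2 hℓ hℓL f = a ℓ • f

open Classical in
/-- The eigenvalues `ℓ ↦ χ(T_ℓ)` of a character of the Hecke algebra (`0` at the primes where
`T_ℓ` is not in the algebra). -/
noncomputable def eigVal {N : ℕ} [NeZero N] {S : Set ℕ} {R : Type} [Zero R]
    (χ : CuspForm.heckeAlgebra N 2 S → R) (ℓ : ℕ) : R :=
  if h : ℓ.Prime ∧ ¬ ℓ ∣ N ∧ ℓ ∉ S then χ (CuspForm.heckeAlgebra.T h.1 h.2.1 h.2.2) else 0

theorem eigVal_eq {N : ℕ} [NeZero N] {S : Set ℕ} {R : Type} [Zero R]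
    (χ : CuspForm.heckeAlgebra N 2 S → R) {ℓ : ℕ} (hℓ : ℓ.Prime) (hℓN : ¬ ℓ ∣ N) (hℓS : ℓ ∉ S) :
    eigVal χ ℓ = χ (CuspForm.heckeAlgebra.T hℓ hℓN hℓS) := by
  unfold eigVal
  rw [dif_pos ⟨hℓ, hℓN, hℓS⟩]

/-- **No low level at `r`**: no nonzero cusp form of a level prime to `r` (with all its prime
divisors in `S`) is an eigenvector of the `T_ℓ`, `ℓ ∉ S`, with the eigenvalues `a`. -/
def NoLow (S : Set ℕ) (a : ℕ → ℂ) (r : ℕ) : Prop :=
  ∀ (L : ℕ) [NeZero L], ¬ r ∣ L → (∀ s : ℕ, s.Prime → s ∣ L → s ∈ S) →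
    ∀ f : CuspForm (Gamma0 L) 2, IsAnemic L S a f → f = 0

/-- The characters `x` (with values in `𝒪`) and `χ` (with values in `ℂ`) are conjugate: they
come from one character `x₀` with values in a field `F` which maps to `Frac 𝒪` and to `ℂ`. -/
def Conj {𝒪 : Type} [CommRing 𝒪] [IsDomain 𝒪] {H : Type} [CommRing H] (x : H →+* 𝒪)
    (χ : H →+* ℂ) : Prop :=
  ∃ (F : Type) (_ : Field F) (x₀ : H →+* F) (jK : F →+* FractionRing 𝒪) (jC : F →+* ℂ),
    jK.comp x₀ = (algebraMap 𝒪 (FractionRing 𝒪)).comp x ∧ jC.comp x₀ = χ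

/-! ## 2. Cusp forms: the tools (pure modular forms, no Galois theory) -/

/-- **DEPL** (depletion at `r`, `r² ∣ L`, stays at the level `L`):
`g = f - (1/r) ∑_{j mod r} f(z + j/r) = ∑_{r ∤ n} a_n qⁿ`.
[For `γ = [[a,b],[c,d]] ∈ Γ₀(L)`, `r² ∣ c`: `T^{j/r} γ T^{-j'/r} ∈ Γ₀(L)` for
`j' ≡ a⁻¹ d j mod r` (`T^{j/r} = [[1, j/r],[0, 1]]`), so `∑_j f ∣ T^{j/r}` is `Γ₀(L)`-invariant;
each term is a cusp form on `Γ₀(L) ∩ Γ₁(r)` (`CuspForm.translate`, `S59.H61.restrictCusp`);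
coefficients: `∑_j ζ_r^{jn} = r [r ∣ n]`.] -/
def Stmt_DEPL : Prop :=
  ∀ (L r : ℕ) [NeZero L], r.Prime → r ^ 2 ∣ L → ∀ f : CuspForm (Gamma0 L) 2,
    ∃ g : CuspForm (Gamma0 L) 2, ∀ n : ℕ, qCoeff g n = if r ∣ n then 0 else qCoeff f n

/-- **MAIN** (the single-prime main lemma of Atkin–Lehner): a form of level `L` whose
`q`-expansion is supported on the multiples of `r` is `G(r z)` with `G` of level `L / gcd(L, r)`.
[`G(z) := f(z/r)` is invariant under `Γ₀(L') ∩ Γ⁰(r)`, `L' = L / gcd(L, r)`, and under `T`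
(`f(z + 1/r) = f(z)`); `Γ₀(L') = ⟨Γ₀(L') ∩ Γ⁰(r), T⟩` for every `L'` and every prime `r`.] -/
def Stmt_MAIN : Prop :=
  ∀ (L r : ℕ) [NeZero L], r.Prime → ∀ f : CuspForm (Gamma0 L) 2,
    (∀ n : ℕ, ¬ r ∣ n → qCoeff f n = 0) →
    ∃ G : CuspForm (Gamma0 (L / Nat.gcd L r)) 2, ∀ n : ℕ, qCoeff G n = qCoeff f (r * n)

/-- **MAINb**: a form of level `L` prime to `r` supported on the multiples of `r` is zero.
[`G₀` from `Stmt_MAIN` has level `L`; `f₀ = G₀`, `f₁ = f`, `f_{k+1} = (T_r f_k - f_{k-1}) / r` has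
the coefficients `a_n(f_k) = a_{n / r^k}(G₀) [r^k ∣ n]`; if `G₀ ≠ 0` the `f_k` are linearly
independent (distinct orders of vanishing): contradiction with `finiteDimensional_cuspForm`
(`R/H99_Newform.lean`).] -/
def Stmt_MAINb : Prop :=
  ∀ (L r : ℕ) [NeZero L], r.Prime → ¬ r ∣ L → ∀ f : CuspForm (Gamma0 L) 2,
    (∀ n : ℕ, ¬ r ∣ n → qCoeff f n = 0) → f = 0

/-- **CLAIM** (the induction): an eigenvector of the `T_ℓ` (`ℓ ∉ S`) whose coefficients `a_n`
vanish for all `n` prime to the primes of `P` is zero, if every `r ∈ P` divides the level at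
most once and, when it does, `NoLow S a r` holds.
[Induction on `P`.  `P = ∅`: `q`-expansion principle.  `r ∈ P`: include `f` in the level
`L r²` and deplete at `r` (`Stmt_DEPL`): `f''` is an eigenvector (coefficient formulas
`ModularFormClass.qCoeff_heckeT` + `UpperHalfPlane.eq_of_forall_qCoeff_eq`) with `a_n(f'') = 0`
for `n` prime to `P \ {r}`: `f'' = 0` by induction, so `f` is supported on the multiples of `r`.
If `r ∤ L`: `f = 0` (`Stmt_MAINb`).  If `r ∣ L`: `G` of `Stmt_MAIN` has level `L / r`, prime to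
`r`, and is an eigenvector: `G = 0` by `NoLow`; hence `f = 0`.] -/
def Stmt_CLAIM : Prop :=
  ∀ (S : Set ℕ) (a : ℕ → ℂ) (P : Finset ℕ), (∀ r ∈ P, r.Prime ∧ r ∈ S) →
    ∀ (L : ℕ) [NeZero L], (∀ s : ℕ, s.Prime → s ∣ L → s ∈ S) →
    (∀ r ∈ P, ¬ r ^ 2 ∣ L) → (∀ r ∈ P, r ∣ L → NoLow S a r) →
    ∀ f : CuspForm (Gamma0 L) 2, IsAnemic L S a f →
    (∀ n : ℕ, (∀ r ∈ P, ¬ r ∣ n) → qCoeff f n = 0) → f = 0

/-- the leaf CLAIM proves this -/
def Stmt_CLAIM_of : Prop := Stmt_DEPL → Stmt_MAIN → Stmt_MAINb → Stmt_CLAIM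

/-- the leaf MAINb proves this -/
def Stmt_MAINb_of : Prop := Stmt_MAIN → Stmt_MAINb

/-- **COEF**: for `f ∈ EC` with `a₁(f) = 0`, `a_n(f) = 0` for every `n` without prime factor in
`S \ Sig`.  [Strong induction on `n`: `n = 1` given (`n = 0`: cusp form); a prime factor
`r ∈ Sig`: `a_n(f) = a_{n/r}(U_r f) = 0`; a prime factor `ℓ ∉ S`:
`a_n(f) = χ(T_ℓ) a_{n/ℓ}(f) - ℓ a_{n/ℓ²}(f)`.] -/
def Stmt_COEF : Prop :=
  ∀ (N : ℕ) [NeZero N] (S : Set ℕ) (Sig : Finset ℕ) (χ : CuspForm.heckeAlgebra N 2 S →+* ℂ),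
    (∀ s : ℕ, s.Prime → s ∣ N → s ∈ S) → (∀ r ∈ Sig, r ∣ N) →
    ∀ f ∈ EC N S Sig χ, qCoeff f 1 = 0 →
    ∀ n : ℕ, (∀ s : ℕ, s.Prime → s ∣ n → s ∈ S → s ∈ Sig) → qCoeff f n = 0

/-- **NONVAN**: the eigenspace `EC` is not zero (any level, any character, `r² ∣ N` for
`r ∈ Sig`).  [`X = {f : T_ℓ f = χ(T_ℓ) f, ℓ ∉ S} ≠ 0` (`GTor.H81.exists_cusp_eigenvector`) is
stable under all `T_ℓ` (`ℓ ∤ N`) and `U_s` (`s ∣ N`) (prelude `heckeTLin_comm`, …); if `a₁ = 0`
on `X` then all `a_n = 0` on `X` (strong induction on `n`), so there is `f ∈ X` with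
`a₁(f) ≠ 0`; deplete `f` at every `r ∈ Sig` (`Stmt_DEPL`): the result is in `EC` (coefficient
formulas) and has `a₁ ≠ 0`.] -/
def Stmt_NONVAN : Prop :=
  ∀ (N : ℕ) [NeZero N] (S : Set ℕ) (Sig : Finset ℕ) (χ : CuspForm.heckeAlgebra N 2 S →+* ℂ),
    (∀ r ∈ Sig, r.Prime ∧ r ^ 2 ∣ N) → EC N S Sig χ ≠ ⊥

/-- the leaf NONVAN proves this -/
def Stmt_NONVAN_of : Prop := Stmt_DEPL → Stmt_NONVAN

/-! ## 3. The Galois-theoretic input -/

/-- **NOLOW**: for `r ∈ Smin` (`r ≠ p`, or `r = p` and `ρbar` not flat at `p`), no nonzero form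
of a level prime to `r` has the eigenvalues of `χ` (conjugate to `x`, which lifts `θ`).
[Let `f ≠ 0` of level `L` be such a form.  `R.H99.exists_character_of_eigenvector` gives a
character `y` of `heckeAlgebra L 2 S` with `y(T_ℓ) = χ(T_ℓ) = jC (x₀ (T_ℓ))`; its values lie in
`jC` of the subring `{b : jK b ∈ 𝒪}`, so `y = jC ∘ jK⁻¹ ∘ y₀` with
`y₀ : heckeAlgebra L 2 S →+* 𝒪`, `y₀(T_ℓ) = x(T_ℓ)`.  `S30` (`Fermat.Agent.S30.result`) for
`y₀`: `ρ` over `𝒪''`, unramified at `r ∤ L p`, Frobenius polynomials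
`X² - y₀(T_ℓ) X + ℓ`.  Its residual representation has the Frobenius polynomials of `ρbar`
(`FrobHyp`), so it is absolutely irreducible and equivalent to a base change of `ρbar`
(`Datum.H57.stmt_ResIrr`).  `r ≠ p`: `ρbar` is unramified at `r`, contradiction with
`ResHyp.hmin`.  `r = p`: `ρ` is flat at `p` (`R.Stmt_FlatPoint`, proved in
`S59/NonMin/H7_CondOrdFinal.lean`), hence `ρbar` is flat (`Datum.H78.stmt_FlatDesc`):
contradiction.] -/
def Stmt_NOLOW : Prop :=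
  ∀ (𝒪 : Type) [CommRing 𝒪] [IsDomain 𝒪] [IsDiscreteValuationRing 𝒪]
    [IsAdicComplete (maximalIdeal 𝒪) 𝒪] [Finite (ResidueField 𝒪)] [CharZero 𝒪]
    (p : ℕ) [Fact p.Prime], p ≠ 2 → (p : 𝒪) ∈ maximalIdeal 𝒪 →
    ∀ (ρbar : ResidualGaloisRep (ResidueField 𝒪)) (Smin : Finset ℕ), ResHyp p ρbar Smin →
    ∀ (N : ℕ) [NeZero N] (S : Finset ℕ), Smin ⊆ S → (∀ s : ℕ, s.Prime → s ∣ N → s ∈ S) →
    ∀ (θ : CuspForm.heckeAlgebra N 2 (↑S : Set ℕ) →+* ResidueField 𝒪),
    Fermat.Agent.S59.Datum.FrobHyp ρbar N S θ →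
    ∀ (x : CuspForm.heckeAlgebra N 2 (↑S : Set ℕ) →+* 𝒪), (∀ t, residue 𝒪 (x t) = θ t) →
    ∀ (χ : CuspForm.heckeAlgebra N 2 (↑S : Set ℕ) →+* ℂ), Conj x χ →
    ∀ r ∈ Smin, (r = p → ¬ (GaloisRepAdic.ofResidualGaloisRep ρbar).IsFlatAt p) →
      NoLow (↑S : Set ℕ) (eigVal χ) r

/-- **MULT1** (multiplicity one): `dim EC ≤ 1` at every state.
[`a₁ : EC → ℂ` is injective: for `f ∈ EC` with `a₁(f) = 0`, `Stmt_COEF` gives `a_n(f) = 0` for
`n` prime to `Smin`; `Stmt_CLAIM` with `P = Smin`, `L = N` (`N₀` squarefree, `Sig ∩ Smin = ∅`;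
`r ∈ Smin`, `r ∣ N` ⟹ `r ∣ N₀`: `Stmt_NOLOW`, with the non-flatness if `r = p`).] -/
def Stmt_MULT1 : Prop :=
  ∀ (𝒪 : Type) [CommRing 𝒪] [IsDomain 𝒪] [IsDiscreteValuationRing 𝒪]
    [IsAdicComplete (maximalIdeal 𝒪) 𝒪] [Finite (ResidueField 𝒪)] [CharZero 𝒪]
    (p : ℕ) [Fact p.Prime], p ≠ 2 → (p : 𝒪) ∈ maximalIdeal 𝒪 →
    ∀ (ρbar : ResidualGaloisRep (ResidueField 𝒪)) (Smin : Finset ℕ), ResHyp p ρbar Smin →
    ∀ (N₀ : ℕ), (p ∣ N₀ → ¬ (GaloisRepAdic.ofResidualGaloisRep ρbar).IsFlatAt p) →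
    ∀ (Sig : Finset ℕ) (N : ℕ) [NeZero N] (S : Finset ℕ), GeomHyp p Smin N₀ Sig N S →
    ∀ (θ : CuspForm.heckeAlgebra N 2 (↑S : Set ℕ) →+* ResidueField 𝒪),
    Fermat.Agent.S59.Datum.FrobHyp ρbar N S θ →
    ∀ (x : CuspForm.heckeAlgebra N 2 (↑S : Set ℕ) →+* 𝒪), (∀ t, residue 𝒪 (x t) = θ t) →
    ∀ (χ : CuspForm.heckeAlgebra N 2 (↑S : Set ℕ) →+* ℂ), Conj x χ →
      Module.finrank ℂ ↥(EC N (↑S : Set ℕ) Sig χ) ≤ 1

/-- the leaf MULT1 proves this -/
def Stmt_MULT1_of : Prop := Stmt_CLAIM → Stmt_COEF → Stmt_NOLOW → Stmt_MULT1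

/-! ## 4. Betti side: lattices, fields, Eichler–Shimura -/

/-- **ES** (Eichler–Shimura): `dim_ℂ EB(ℂ) = 2 dim_ℂ EC`.
[`periodHomPair N : S₂ × S₂ → Hom(Γ₀(N), ℂ)` is `ℂ`-linear, injective with range the parabolic
homomorphisms (`Fermat.Agent.S21.result`), and intertwines `T × T` with `TB`, `U × U` with `UB`
(`Betti.H76.stmt_period_TB/UB`, `charInvolution_TB/UB`; model: `GTor.H81.periodHomPair_word`);
so it maps `EC × EC` isomorphically onto `EB`.] -/
def Stmt_ES : Prop :=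
  ∀ (N : ℕ) [NeZero N] (S : Set ℕ) (Sig : Finset ℕ) (χ : CuspForm.heckeAlgebra N 2 S →+* ℂ),
    (∀ r ∈ Sig, r.Prime) →
    Module.finrank ℂ ↥(EB N S Sig ℂ χ) = 2 * Module.finrank ℂ ↥(EC N S Sig χ)

/-- **FIELD**: the dimension of the Betti eigenspace is invariant under extension of the field
of coefficients.  [In a universal basis `b` (`Betti.stmt_basis`, `IsParBasis`) the parabolic
homomorphisms with values in `F` are `F^r`, and `TB`, `UB` are given by integer matrices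
(`TB_castHom`, `UB_castHom`); `EB(F)` is the kernel of a family of matrices with entries in `F`,
which can be taken finite; the rank of a matrix does not change under field extension.
`CharZero F`: needed for `IsParBasis` (torsion free coefficients).] -/
def Stmt_FIELD : Prop :=
  ∀ (N : ℕ) [NeZero N] (S : Set ℕ) (Sig : Finset ℕ) (F L : Type) [Field F] [Field L]
    [CharZero F] (j : F →+* L) (χ : CuspForm.heckeAlgebra N 2 S →+* F),
    Module.finrank L ↥(EB N S Sig L (j.comp χ)) = Module.finrank F ↥(EB N S Sig F χ)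

/-- **EMBED**: every character with values in `𝒪` (characteristic zero) is conjugate to a
complex one.  [`F` := the algebraic closure of `ℚ` in `Frac 𝒪`; the values of `x` are integral
over `ℤ` (`Fermat.Agent.S22.result`: the Hecke algebra is a finite `ℤ`-module), so `x` factors
through `F`; `jC := IsAlgClosed.lift`.] -/
def Stmt_EMBED : Prop :=
  ∀ (𝒪 : Type) [CommRing 𝒪] [IsDomain 𝒪] [CharZero 𝒪] (N : ℕ) [NeZero N] (S : Set ℕ)
    (x : CuspForm.heckeAlgebra N 2 S →+* 𝒪),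
    ∃ χ : CuspForm.heckeAlgebra N 2 S →+* ℂ, Conj x χ

/-- **LAT**: the rank of the eigenspace of a Betti state is the dimension of the Betti
eigenspace over `K = Frac 𝒪`.
[`ι` of `IsBetti` identifies `s.eigen x` with `{φ : IsEB … 𝒪 x φ}` (an eigenvector for the
generators `T_ℓ` is one for the whole algebra: all primes of `N` are in `S`, so there is no `U`
among the generators; an eigenvector for `x` lifting `θ` is `θ`-local:
`(T_ℓ - a)ⁿ φ = (x(T_ℓ) - a)ⁿ φ`); `φ ↦ algebraMap ∘ φ` embeds it in `EB(K)` and every element of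
`EB(K)` has a multiple in the image (`IsParBasis`: finitely many coordinates); so the ranks
agree.] -/
def Stmt_LAT : Prop :=
  ∀ (𝒪 : Type) [CommRing 𝒪] [IsDomain 𝒪] [IsDiscreteValuationRing 𝒪]
    (s : NMState 𝒪) (Sig : Finset ℕ), (∀ r : ℕ, r.Prime → r ∣ s.N → r ∈ s.S) →
    IsBetti s Sig →
    ∀ (x : CuspForm.heckeAlgebra s.N 2 (↑s.S : Set ℕ) →+* 𝒪),
    (∀ t, residue 𝒪 (x t) = s.θ t) →
    Module.finrank 𝒪 ↥(s.eigen x) =
      Module.finrank (FractionRing 𝒪)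
        ↥(EB s.N (↑s.S : Set ℕ) Sig (FractionRing 𝒪)
          ((algebraMap 𝒪 (FractionRing 𝒪)).comp x))

/-! ## 5. The assembly -/

/-- **RANK-ASM**: the assembly.
[`χ` from `Stmt_EMBED` for `x`; then `x ∘ rest` is conjugate to `χ ∘ rest` (same `F`).
`rank M'[x ∘ rest] = dim_K EB' = dim_F EB' = dim_ℂ EB' = 2 dim EC' ≤ 2` (`Stmt_LAT`,
`Stmt_FIELD` twice, `Stmt_ES`, `Stmt_MULT1` at the state of level `N q²`, whose `GeomHyp` holds
with `insert q Sig`), and `rank M[x] = … = 2 dim EC ≥ 2` (`Stmt_NONVAN`).] -/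
def Stmt_RANKASM : Prop :=
  Stmt_LAT → Stmt_FIELD → Stmt_EMBED → Stmt_ES → Stmt_MULT1 → Stmt_NONVAN → Stmt_RANK

end Fermat.Agent.S59.NonMin.Geom.Rank

end
-- ==== END Fermat.Agent.S59.NonMin.Geom.Rank.Defs

-- ==== BEGIN Fermat.Agent.S59.NonMin.Geom.Rank.H21_KerExt
section

/-!
# S59 / NMGEOM / RANK, leaf RANK-ES, part 1 (helper21): kernels of systems of linear equations

`kerFam A` : the common kernel of a family of square matrices `A j` over a commutative ring.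

* `finrank_kerFam_map` : for an extension of fields `F → K` the dimension of the common kernel
  does not change;
* `finrank_kerFam_fraction` : for a domain `R` with fraction field `K`, the rank of the common
  kernel over `R` is the dimension of the common kernel over `K`.

Mathlib only.
-/

set_option autoImplicit false

open Module

namespace Fermat.Agent.S59.NonMin.Geom.Rank.H21

/-- The common kernel of a family of matrices. -/
def kerFam {R : Type*} [CommRing R] {n : ℕ} {J : Type*} (A : J → Matrix (Fin n) (Fin n) R) :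
    Submodule R (Fin n → R) :=
  ⨅ j, LinearMap.ker (Matrix.mulVecLin (A j))

theorem mem_kerFam {R : Type*} [CommRing R] {n : ℕ} {J : Type*}
    (A : J → Matrix (Fin n) (Fin n) R) (v : Fin n → R) :
    v ∈ kerFam A ↔ ∀ j, (A j).mulVec v = 0 := by
  simp only [kerFam, Submodule.mem_iInf, LinearMap.mem_ker, Matrix.mulVecLin_apply]

section FieldExt

variable {F K : Type*} [Field F] [Field K] [Algebra F K] {n : ℕ} {J : Type*}

/-- extension of scalars of vectors -/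
def extV (F K : Type*) [Field F] [Field K] [Algebra F K] (n : ℕ) :
    (Fin n → F) →ₗ[F] (Fin n → K) :=
  (Algebra.linearMap F K).compLeft (Fin n)

theorem extV_apply (v : Fin n → F) (k : Fin n) : extV F K n v k = algebraMap F K (v k) := rfl

/-- coordinatewise application of an `F`-linear functional -/
def coV (n : ℕ) (l : K →ₗ[F] F) : (Fin n → K) →ₗ[F] (Fin n → F) :=
  l.compLeft (Fin n)

theorem coV_apply (l : K →ₗ[F] F) (v : Fin n → K) (k : Fin n) : coV n l v k = l (v k) := rfl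

theorem coV_mulVec (l : K →ₗ[F] F) (A : Matrix (Fin n) (Fin n) F) (v : Fin n → K) :
    coV n l ((A.map (algebraMap F K)).mulVec v) = A.mulVec (coV n l v) := by
  funext k
  rw [coV_apply]
  simp only [Matrix.mulVec, dotProduct, Matrix.map_apply, coV_apply]
  rw [map_sum]
  refine Finset.sum_congr rfl fun j _ => ?_
  rw [← Algebra.smul_def, map_smul, smul_eq_mul]

theorem coV_smul_extV (l : K →ₗ[F] F) (c : K) (w : Fin n → F) :
    coV n l (c • extV F K n w) = l c • w := by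
  funext k
  rw [coV_apply, Pi.smul_apply, Pi.smul_apply, extV_apply, smul_eq_mul, smul_eq_mul, mul_comm c,
    ← Algebra.smul_def, map_smul, smul_eq_mul, mul_comm]

theorem extV_mem_kerFam (A : J → Matrix (Fin n) (Fin n) F) {v : Fin n → F}
    (hv : v ∈ kerFam A) : extV F K n v ∈ kerFam (fun j => (A j).map (algebraMap F K)) := by
  rw [mem_kerFam] at hv ⊢
  intro j
  funext k
  have h := congrFun (hv j) k
  simp only [Matrix.mulVec, dotProduct, Matrix.map_apply, extV_apply, Pi.zero_apply] at h ⊢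
  simp only [← map_mul, ← map_sum, h, map_zero]

theorem coV_mem_kerFam (A : J → Matrix (Fin n) (Fin n) F) (l : K →ₗ[F] F) {v : Fin n → K}
    (hv : v ∈ kerFam (fun j => (A j).map (algebraMap F K))) : coV n l v ∈ kerFam A := by
  rw [mem_kerFam] at hv ⊢
  intro j
  rw [← coV_mulVec, hv j, map_zero]

/-- every vector over `K` is a combination of its coordinate vectors in a basis of `K / F` -/
theorem exists_decomp (v : Fin n → K) :
    ∃ (T : Finset (Basis.ofVectorSpaceIndex F K)),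
      v = ∑ s ∈ T, (Basis.ofVectorSpace F K s) •
        extV F K n (coV n ((Basis.ofVectorSpace F K).coord s) v) := by
  classical
  let b := Basis.ofVectorSpace F K
  refine ⟨Finset.univ.biUnion fun k => (b.repr (v k)).support, ?_⟩
  funext k
  rw [Finset.sum_apply]
  have h1 : v k = Finsupp.linearCombination F b (b.repr (v k)) :=
    (b.linearCombination_repr (v k)).symm
  rw [Finsupp.linearCombination_apply, Finsupp.sum_of_support_subset (b.repr (v k))
    (s := Finset.univ.biUnion fun k => (b.repr (v k)).support)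
    (fun s hs => Finset.mem_biUnion.mpr ⟨k, Finset.mem_univ k, hs⟩) _
    (fun s _ => zero_smul F (b s))] at h1
  conv_lhs => rw [h1]
  refine Finset.sum_congr rfl fun s _ => ?_
  rw [Pi.smul_apply, extV_apply, coV_apply, Basis.coord_apply, smul_eq_mul, Algebra.smul_def,
    mul_comm]

theorem kerFam_map_le_span (A : J → Matrix (Fin n) (Fin n) F) :
    kerFam (fun j => (A j).map (algebraMap F K)) ≤
      Submodule.span K (extV F K n '' (kerFam A : Set (Fin n → F))) := by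
  intro v hv
  obtain ⟨T, hT⟩ := exists_decomp (F := F) v
  rw [hT]
  refine Submodule.sum_mem _ fun s _ => Submodule.smul_mem _ _ (Submodule.subset_span ?_)
  exact ⟨_, coV_mem_kerFam A _ hv, rfl⟩

theorem linearIndependent_extV {ι : Type*} {w : ι → (Fin n → F)}
    (hw : LinearIndependent F w) : LinearIndependent K (fun a => extV F K n (w a)) := by
  classical
  rw [linearIndependent_iff'] at hw ⊢
  intro s c hc a ha
  rw [← Module.forall_dual_apply_eq_zero_iff (R := F)]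
  intro l
  have h1 := congrArg (coV n l) hc
  rw [map_sum, map_zero] at h1
  simp only [coV_smul_extV] at h1
  exact hw s (fun a => l (c a)) h1 a ha

/-- **Field extension**: the dimension of the common kernel of a family of matrices does not
change under an extension of fields. -/
theorem finrank_kerFam_map (A : J → Matrix (Fin n) (Fin n) F) :
    finrank K (kerFam (fun j => (A j).map (algebraMap F K))) = finrank F (kerFam A) := by
  classical
  let w := Module.finBasis F (kerFam A)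
  have hw : LinearIndependent F (fun a => ((w a : kerFam A) : Fin n → F)) :=
    w.linearIndependent.map' (kerFam A).subtype (Submodule.ker_subtype _)
  have hli := linearIndependent_extV (K := K) hw
  have hspan : kerFam (fun j => (A j).map (algebraMap F K)) =
      Submodule.span K (Set.range fun a => extV F K n ((w a : kerFam A) : Fin n → F)) := by
    apply le_antisymm
    · refine (kerFam_map_le_span A).trans (Submodule.span_le.mpr ?_)
      rintro _ ⟨v, hv, rfl⟩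
      have h2 : (⟨v, hv⟩ : kerFam A) ∈ Submodule.span F (Set.range w) := by
        rw [w.span_eq]; exact Submodule.mem_top
      have h3 : v ∈ Submodule.span F (Set.range fun a => ((w a : kerFam A) : Fin n → F)) := by
        have := Submodule.apply_mem_span_image_of_mem_span (kerFam A).subtype h2
        rwa [← Set.range_comp] at this
      have h4 : Submodule.span F (Set.range fun a => ((w a : kerFam A) : Fin n → F)) ≤
          ((Submodule.span K (Set.range fun a =>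
            extV F K n ((w a : kerFam A) : Fin n → F))).restrictScalars F).comap
              (extV F K n) := by
        rw [Submodule.span_le]
        rintro _ ⟨a, rfl⟩
        exact Submodule.subset_span ⟨a, rfl⟩
      exact h4 h3
    · rw [Submodule.span_le]
      rintro _ ⟨a, rfl⟩
      exact extV_mem_kerFam A (w a).2
  rw [hspan, finrank_span_eq_card hli, Fintype.card_fin]

end FieldExt

section Fraction

variable {R K : Type*} [CommRing R] [Field K] [Algebra R K] {n : ℕ} {J : Type*}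

/-- extension of scalars of vectors, from a domain to its fraction field -/
def extR (R K : Type*) [CommRing R] [Field K] [Algebra R K] (n : ℕ) :
    (Fin n → R) →ₗ[R] (Fin n → K) :=
  (Algebra.linearMap R K).compLeft (Fin n)

theorem extR_apply (v : Fin n → R) (k : Fin n) : extR R K n v k = algebraMap R K (v k) := rfl

theorem extR_mulVec (A : Matrix (Fin n) (Fin n) R) (v : Fin n → R) :
    (A.map (algebraMap R K)).mulVec (extR R K n v) = extR R K n (A.mulVec v) := by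
  funext k
  simp only [Matrix.mulVec, dotProduct, Matrix.map_apply, extR_apply]
  simp only [← map_mul, ← map_sum]

variable [IsFractionRing R K]

theorem extR_injective : Function.Injective (extR R K n) := by
  intro v w h
  funext k
  exact IsFractionRing.injective R K (congrFun h k)

theorem extR_mem_kerFam_iff (A : J → Matrix (Fin n) (Fin n) R) (v : Fin n → R) :
    extR R K n v ∈ kerFam (fun j => (A j).map (algebraMap R K)) ↔ v ∈ kerFam A := by
  rw [mem_kerFam, mem_kerFam]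
  refine forall_congr' fun j => ?_
  rw [extR_mulVec, ← map_zero (extR R K n)]
  exact (extR_injective (R := R) (K := K)).eq_iff

/-- the map from the kernel over `R` to the kernel over `K` -/
def kerMap (A : J → Matrix (Fin n) (Fin n) R) :
    kerFam A →ₗ[R] kerFam (fun j => (A j).map (algebraMap R K)) where
  toFun v := ⟨extR R K n v.1, (extR_mem_kerFam_iff A v.1).mpr v.2⟩
  map_add' v w := Subtype.ext (map_add (extR R K n) v.1 w.1)
  map_smul' c v := Subtype.ext (map_smul (extR R K n) c v.1)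

theorem kerMap_coe (A : J → Matrix (Fin n) (Fin n) R) (v : kerFam A) :
    ((kerMap (K := K) A v : kerFam (fun j => (A j).map (algebraMap R K))) : Fin n → K) =
      extR R K n v.1 := rfl

theorem kerMap_injective (A : J → Matrix (Fin n) (Fin n) R) :
    Function.Injective (kerMap (K := K) A) := by
  intro v w h
  exact Subtype.ext (extR_injective (R := R) (K := K) (congrArg Subtype.val h))

theorem exists_smul_eq_kerMap (A : J → Matrix (Fin n) (Fin n) R)
    (y : kerFam (fun j => (A j).map (algebraMap R K))) :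
    ∃ (d : nonZeroDivisors R) (v : kerFam A), d • y = kerMap (K := K) A v := by
  obtain ⟨d, hd⟩ := IsLocalization.exist_integer_multiples_of_finite (nonZeroDivisors R)
    (fun k : Fin n => (y : Fin n → K) k)
  choose v hv using hd
  have hext : extR R K n v = (d : R) • (y : Fin n → K) := by
    funext k
    rw [extR_apply, hv k, Pi.smul_apply]
  have hmem : v ∈ kerFam A := by
    rw [← extR_mem_kerFam_iff (K := K), hext]
    exact Submodule.smul_of_tower_mem _ _ y.2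
  refine ⟨d, ⟨v, hmem⟩, Subtype.ext ?_⟩
  rw [kerMap_coe, hext]
  rfl

variable [IsDomain R]

instance kerMap_isLocalizedModule (A : J → Matrix (Fin n) (Fin n) R) :
    IsLocalizedModule (nonZeroDivisors R) (kerMap (K := K) A) where
  map_units d := by
    rw [Module.End.isUnit_iff]
    have hd : algebraMap R K d ≠ 0 :=
      IsFractionRing.to_map_ne_zero_of_mem_nonZeroDivisors d.2
    constructor
    · intro y z h
      simp only [Module.algebraMap_end_apply] at h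
      have h' : (algebraMap R K d) • y = (algebraMap R K d) • z := by
        rwa [algebraMap_smul, algebraMap_smul]
      exact smul_right_injective _ hd h'
    · intro y
      refine ⟨(algebraMap R K d)⁻¹ • y, ?_⟩
      simp only [Module.algebraMap_end_apply]
      rw [← algebraMap_smul K (d : R), smul_smul, mul_inv_cancel₀ hd, one_smul]
  surj y := by
    obtain ⟨d, v, h⟩ := exists_smul_eq_kerMap A y
    exact ⟨(v, d), h⟩
  exists_of_eq {v w} h := ⟨1, by rw [kerMap_injective A h]⟩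

/-- **Fraction field**: the rank of the common kernel over a domain is the dimension of the
common kernel over its fraction field. -/
theorem finrank_kerFam_fraction (A : J → Matrix (Fin n) (Fin n) R) :
    finrank K (kerFam (fun j => (A j).map (algebraMap R K))) = finrank R (kerFam A) := by
  rw [IsFractionRing.finrank_right_eq R K]
  exact IsLocalizedModule.finrank_eq (nonZeroDivisors R) (kerMap (K := K) A) le_rfl

end Fraction

end Fermat.Agent.S59.NonMin.Geom.Rank.H21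

end
-- ==== END Fermat.Agent.S59.NonMin.Geom.Rank.H21_KerExt

-- ==== BEGIN Fermat.Agent.S59.NonMin.Geom.Rank.H25_DeplCore
section

set_option autoImplicit false

noncomputable section

namespace Fermat.Agent.S59.NonMin.Geom.Rank.H25

open CongruenceSubgroup ModularForm UpperHalfPlane Matrix.SpecialLinearGroup ModularFormClass
open P2MW.S_ModularForm_heckeU_slash_eq_self_of_mem_Gamma0.ModularForm.HeckeSlashInvariance
open scoped MatrixGroups ModularForm

variable {L r : ℕ}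

/-! ## Invariance -/

theorem dvd_div_of_sq_dvd (hr2 : r ^ 2 ∣ L) : r ∣ L / r := by
  obtain ⟨m, rfl⟩ := hr2
  rcases Nat.eq_zero_or_pos r with rfl | hr
  · simp
  refine ⟨m, ?_⟩
  rw [pow_two, mul_assoc, Nat.mul_div_cancel_left _ hr]

theorem dvd_of_sq_dvd (hr2 : r ^ 2 ∣ L) : r ∣ L :=
  (dvd_pow_self r two_ne_zero).trans hr2

/-- **Level lowering for `U_r`**: if `r² ∣ L` and `f` is invariant under `Γ₀(L)`, then `U_r f` is
invariant under `Γ₀(L / r)`. -/
theorem heckeU_slash_lower (k : ℤ) [NeZero r] (hr2 : r ^ 2 ∣ L) (f : ℍ → ℂ)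
    (hf : ∀ γ ∈ (Gamma0 L : Subgroup (GL (Fin 2) ℝ)), f ∣[k] γ = f)
    (g : SL(2, ℤ)) (hg : ((L / r : ℕ) : ℤ) ∣ g 1 0) :
    heckeU k r f ∣[k] (mapGL ℝ g) = heckeU k r f := by
  have hc : (r : ℤ) ∣ g 1 0 := (Int.natCast_dvd_natCast.mpr (dvd_div_of_sq_dvd hr2)).trans hg
  rw [heckeU_eq_sum_zmod k f, SlashAction.sum_slash]
  calc ∑ x : ZMod r, (f ∣[k] heckeMatrix r x.val) ∣[k] mapGL ℝ g
      = ∑ x : ZMod r, f ∣[k] heckeMatrix r
          (affinePerm g ((ZMod.intCast_zmod_eq_zero_iff_dvd _ _).mpr hc) x).val := by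
        refine Finset.sum_congr rfl fun x _ ↦ ?_
        obtain ⟨g', hg', hmul⟩ := heckeMatrix_mul_of_dvd g hc x
        have hg'N : g' ∈ Gamma0 L := by
          rw [Gamma0_mem, hg', ZMod.intCast_zmod_eq_zero_iff_dvd]
          obtain ⟨m, hm⟩ := hg
          refine ⟨m, ?_⟩
          rw [hm, ← mul_assoc]
          congr 1
          have := Nat.mul_div_cancel' (dvd_of_sq_dvd hr2)
          exact_mod_cast this
        rw [← SlashAction.slash_mul, hmul, SlashAction.slash_mul,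
          hf _ (Subgroup.mem_map_of_mem (mapGL ℝ) hg'N)]
    _ = ∑ x : ZMod r, f ∣[k] heckeMatrix r x.val :=
        Equiv.sum_comp (affinePerm g _) (fun x ↦ f ∣[k] heckeMatrix r x.val)

/-- The function `(U_r f) ∣ diag(r, 1)` is invariant under `Γ₀(L)` if `r² ∣ L`. -/
theorem depl_slash (k : ℤ) [NeZero r] (hr2 : r ^ 2 ∣ L) (f : ℍ → ℂ)
    (hf : ∀ γ ∈ (Gamma0 L : Subgroup (GL (Fin 2) ℝ)), f ∣[k] γ = f)
    (g : SL(2, ℤ)) (hg : g ∈ Gamma0 L) :
    (heckeU k r f ∣[k] heckeDiagMatrix r) ∣[k] (mapGL ℝ g)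
      = heckeU k r f ∣[k] heckeDiagMatrix r := by
  have hcL : (L : ℤ) ∣ g 1 0 :=
    (ZMod.intCast_zmod_eq_zero_iff_dvd _ _).mp (Gamma0_mem.mp hg)
  obtain ⟨m, hm⟩ := hcL
  have hL : (L : ℤ) = (r : ℤ) * ((L / r : ℕ) : ℤ) := by
    have := Nat.mul_div_cancel' (dvd_of_sq_dvd hr2)
    exact_mod_cast this.symm
  have he : g 1 0 = (r : ℤ) * (((L / r : ℕ) : ℤ) * m) := by
    rw [hm, hL, mul_assoc]
  obtain ⟨g', hg', hmul⟩ := heckeDiagMatrix_mul_of_eq' (NeZero.ne r) g _ he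
  rw [← SlashAction.slash_mul, hmul, SlashAction.slash_mul,
    heckeU_slash_lower k hr2 f hf g' (by rw [hg']; exact dvd_mul_right _ _)]

/-! ## The cusp form -/

theorem isZeroAt_sub {c : OnePoint ℝ} {k : ℤ} {f f' : ℍ → ℂ} (hf : c.IsZeroAt f k)
    (hf' : c.IsZeroAt f' k) : c.IsZeroAt (f - f') k := by
  intro g hg
  rw [sub_eq_add_neg, SlashAction.add_slash, SlashAction.neg_slash]
  exact (hf g hg).add (hf' g hg).neg

theorem depl_eq_sub (k : ℤ) (f : ℍ → ℂ) :
    heckeU k r f ∣[k] heckeDiagMatrix r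
      = heckeT k r (heckeU k r f) - heckeU k r (heckeU k r f) := by
  rw [heckeT_eq_heckeU_add, add_sub_cancel_left]

theorem depl_mdiff (k : ℤ) {f : ℍ → ℂ}
    (hf : MDifferentiable (modelWithCornersSelf ℂ ℂ) (modelWithCornersSelf ℂ ℂ) f) :
    MDifferentiable (modelWithCornersSelf ℂ ℂ) (modelWithCornersSelf ℂ ℂ)
      (heckeU k r f ∣[k] heckeDiagMatrix r) := by
  rw [depl_eq_sub]
  exact (mdifferentiable_heckeT (mdifferentiable_heckeU hf k r) k r).sub
    (mdifferentiable_heckeU (mdifferentiable_heckeU hf k r) k r)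

theorem depl_isZeroAt [NeZero L] (hrL : r ∣ L) (f : CuspForm (Gamma0 L) 2) {c : OnePoint ℝ}
    (hc : IsCusp c (Gamma0 L : Subgroup (GL (Fin 2) ℝ))) :
    c.IsZeroAt (heckeU 2 r ⇑f ∣[(2 : ℤ)] heckeDiagMatrix r) 2 := by
  rw [depl_eq_sub]
  have h1 := CuspFormClass.isZeroAt_heckeT (CuspForm.heckeULin 2 hrL f) r hc
  have h2 := CuspFormClass.isZeroAt_heckeU (CuspForm.heckeULin 2 hrL f) r hc
  rw [CuspForm.coe_heckeULin_apply] at h1 h2
  exact isZeroAt_sub h1 h2

/-- The cusp form `D = (U_r f) ∣ diag(r, 1)` of level `L` (`r² ∣ L`). -/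
def deplForm [NeZero L] [NeZero r] (hr2 : r ^ 2 ∣ L) (f : CuspForm (Gamma0 L) 2) :
    CuspForm (Gamma0 L) 2 where
  toFun := heckeU 2 r ⇑f ∣[(2 : ℤ)] heckeDiagMatrix r
  slash_action_eq' := fun γ hγ => by
    obtain ⟨g, hg, rfl⟩ := hγ
    exact depl_slash 2 hr2 ⇑f (fun γ hγ => SlashInvariantFormClass.slash_action_eq f γ hγ) g hg
  holo' := depl_mdiff 2 (CuspFormClass.holo f)
  zero_at_cusps' := fun {_} hc => depl_isZeroAt (dvd_of_sq_dvd hr2) f hc

theorem coe_deplForm [NeZero L] [NeZero r] (hr2 : r ^ 2 ∣ L) (f : CuspForm (Gamma0 L) 2) :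
    ⇑(deplForm hr2 f) = heckeU 2 r ⇑f ∣[(2 : ℤ)] heckeDiagMatrix r := rfl

/-! ## Coefficients -/

theorem hper25 (N : ℕ) :
    (1 : ℝ) ∈ (Subgroup.map (Matrix.SpecialLinearGroup.mapGL ℝ) (Gamma0 N)).strictPeriods :=
  CongruenceSubgroup.one_mem_strictPeriods_Gamma0 N

theorem qCoeff_add25 {N : ℕ} {k : ℤ} (f g : CuspForm (Gamma0 N) k) (n : ℕ) :
    qCoeff ⇑(f + g) n = qCoeff ⇑f n + qCoeff ⇑g n := by
  simp only [qCoeff, FunLike.coe_add]
  rw [ModularForm.qExpansion_add one_pos (hper25 N) f g, map_add]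

theorem qCoeff_sub25 {N : ℕ} {k : ℤ} (f g : CuspForm (Gamma0 N) k) (n : ℕ) :
    qCoeff ⇑(f - g) n = qCoeff ⇑f n - qCoeff ⇑g n := by
  simp only [qCoeff, FunLike.coe_sub]
  rw [ModularForm.qExpansion_sub one_pos (hper25 N) f g, map_sub]

theorem qCoeff_smul25 {N : ℕ} {k : ℤ} (c : ℂ) (f : CuspForm (Gamma0 N) k) (n : ℕ) :
    qCoeff ⇑(c • f) n = c * qCoeff ⇑f n := by
  have h1 : ⇑(c • f) = c • ⇑f := by
    ext z
    simp
  simp only [qCoeff, h1]
  rw [ModularForm.qExpansion_smul one_pos (hper25 N) c f]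
  simp

/-- `a_n(D) = r a_n(f)` if `r ∣ n`, and `0` otherwise. -/
theorem qCoeff_deplForm [NeZero L] [NeZero r] (hr2 : r ^ 2 ∣ L) (f : CuspForm (Gamma0 L) 2)
    (n : ℕ) :
    qCoeff ⇑(deplForm hr2 f) n = if r ∣ n then (r : ℂ) * qCoeff ⇑f n else 0 := by
  have hrL := dvd_of_sq_dvd hr2
  have hr0 : r ≠ 0 := NeZero.ne r
  set U := CuspForm.heckeULin 2 hrL f with hU
  -- `T_r (U f) = U (U f) + D` as functions
  have e : heckeT 2 r ⇑U = ⇑(CuspForm.heckeULin 2 hrL U + deplForm hr2 f) := by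
    rw [FunLike.coe_add, CuspForm.coe_heckeULin_apply, coe_deplForm, heckeT_eq_heckeU_add]
    rfl
  have h1 := ModularFormClass.qCoeff_heckeT (k := 2) U (hper25 L) hr0 n
  rw [e, qCoeff_add25, coeffHeckeT_apply] at h1
  have h2 := ModularFormClass.qCoeff_heckeU (k := 2) U (hper25 L) hr0 n
  rw [← CuspForm.coe_heckeULin_apply 2 hrL U, coeffHeckeU_apply] at h2
  rw [h2] at h1
  have h3 : qCoeff ⇑(deplForm hr2 f) n
      = if r ∣ n then (r : ℂ) ^ ((2 : ℤ) - 1) * qCoeff ⇑U (n / r) else 0 :=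
    add_left_cancel h1
  rw [h3]
  split_ifs with hdvd
  · have h4 := ModularFormClass.qCoeff_heckeU (k := 2) f (hper25 L) hr0 (n / r)
    rw [← CuspForm.coe_heckeULin_apply 2 hrL f, coeffHeckeU_apply,
      Nat.div_mul_cancel hdvd] at h4
    rw [h4]
    norm_num
  · rfl

/-- **DEPL**: depletion at `r`, inside the level `L` (`r² ∣ L`). -/
theorem exists_depl (L r : ℕ) [NeZero L] (hr : r.Prime) (hr2 : r ^ 2 ∣ L)
    (f : CuspForm (Gamma0 L) 2) :
    ∃ g : CuspForm (Gamma0 L) 2, ∀ n : ℕ, qCoeff g n = if r ∣ n then 0 else qCoeff f n := by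
  have : NeZero r := ⟨hr.ne_zero⟩
  have hr0 : (r : ℂ) ≠ 0 := by exact_mod_cast hr.ne_zero
  refine ⟨f - (r : ℂ)⁻¹ • deplForm hr2 f, fun n => ?_⟩
  rw [qCoeff_sub25, qCoeff_smul25, qCoeff_deplForm]
  split_ifs with hdvd
  · rw [← mul_assoc, inv_mul_cancel₀ hr0, one_mul, sub_self]
  · rw [mul_zero, sub_zero]

end Fermat.Agent.S59.NonMin.Geom.Rank.H25

end
end
-- ==== END Fermat.Agent.S59.NonMin.Geom.Rank.H25_DeplCore

-- ==== BEGIN Fermat.Agent.S59.NonMin.Geom.Rank.H2_POrd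
section

/-!
# S59 / NMGEOM / RANK, stage 2 (P-RANK): the algebra of the unit root (helper2)

Let `𝒪` be a complete discrete valuation ring, `Λ` a free `𝒪`-module of finite rank,
`U ∈ End Λ` with `U² - a U + π = 0` (`π ∈ 𝔪`, `π ≠ 0`) and `det U = unit · π ^ d`.  If `Λ₁ ⊆ Λ` is
a submodule with `U Λ₁ = Λ₁`, then `rank Λ₁ + d ≤ rank Λ` (`finrank_add_le_of_unitRoot`).

[`a ∈ 𝔪`: `Λ₁ ⊆ ⋂ 𝔪^j Λ = 0`.  `a` a unit: Hensel, `X² - a X + π = (X - u)(X - u')`, `u` a unit,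
`u' ∈ 𝔪`; `Λ₁ ⊆ ker (U - u)`, and `det U = u ^ r u' ^ (n - r)`, `r = rank ker (U - u)`.]
-/

set_option autoImplicit false
set_option linter.style.haveILetI false
set_option linter.unusedSectionVars false
set_option linter.unusedVariables false
set_option linter.unusedSimpArgs false
set_option maxHeartbeats 1000000

open IsLocalRing Polynomial Module

namespace Fermat.Agent.S59.NonMin.Geom.Rank.H2

section POrd

variable {𝒪 : Type} [CommRing 𝒪] [IsDomain 𝒪] [IsDiscreteValuationRing 𝒪]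
variable {Λ : Type} [AddCommGroup Λ] [Module 𝒪 Λ] [Module.Free 𝒪 Λ] [Module.Finite 𝒪 Λ]

/-- Krull: an element lying in `𝔪^j Λ` for all `j` is zero. -/
theorem eq_zero_of_forall_mem_pow_smul (v : Λ)
    (h : ∀ j : ℕ, v ∈ (maximalIdeal 𝒪 ^ j) • (⊤ : Submodule 𝒪 Λ)) : v = 0 := by
  have h1 : (⨅ i : ℕ, maximalIdeal 𝒪 ^ i • ⊤ : Submodule 𝒪 Λ) = ⊥ :=
    Ideal.iInf_pow_smul_eq_bot_of_isLocalRing (maximalIdeal 𝒪)
      (Ideal.IsPrime.ne_top inferInstance)
  have h2 : v ∈ (⨅ i : ℕ, maximalIdeal 𝒪 ^ i • ⊤ : Submodule 𝒪 Λ) := by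
    rw [Submodule.mem_iInf]
    exact h
  rw [h1] at h2
  exact (Submodule.mem_bot 𝒪).mp h2

theorem smul_mem_pow_succ_smul {c : 𝒪} (hc : c ∈ maximalIdeal 𝒪) {j : ℕ} {v : Λ}
    (hv : v ∈ (maximalIdeal 𝒪 ^ j) • (⊤ : Submodule 𝒪 Λ)) :
    c • v ∈ (maximalIdeal 𝒪 ^ (j + 1)) • (⊤ : Submodule 𝒪 Λ) := by
  rw [pow_succ', Submodule.mul_smul]
  exact Submodule.smul_mem_smul hc hv

/-- An operator `Z` commuting with `U` and with `U Z = c Z`, `c ∈ 𝔪`, kills every submodule on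
which `U` is onto. -/
theorem apply_eq_zero_of_contracting (U Z : Module.End 𝒪 Λ) (c : 𝒪) (hc : c ∈ maximalIdeal 𝒪)
    (hcomm : ∀ x, Z (U x) = U (Z x)) (hUZ : ∀ x, U (Z x) = c • Z x)
    (Λ₁ : Submodule 𝒪 Λ) (hsurj : ∀ v ∈ Λ₁, ∃ w ∈ Λ₁, U w = v) :
    ∀ v ∈ Λ₁, Z v = 0 := by
  have key : ∀ j : ℕ, ∀ v ∈ Λ₁, Z v ∈ (maximalIdeal 𝒪 ^ j) • (⊤ : Submodule 𝒪 Λ) := by
    intro j
    induction j with
    | zero =>
      intro v _
      rw [pow_zero, Ideal.one_eq_top, Submodule.top_smul]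
      exact Submodule.mem_top
    | succ j ih =>
      intro v hv
      obtain ⟨w, hw, rfl⟩ := hsurj v hv
      rw [hcomm, hUZ]
      exact smul_mem_pow_succ_smul hc (ih w hw)
  intro v hv
  exact eq_zero_of_forall_mem_pow_smul _ (fun j => key j v hv)

/-- If `U² = a U - π` with `a, π ∈ 𝔪`, every submodule on which `U` is onto is zero. -/
theorem eq_zero_of_nilpotent_type (U : Module.End 𝒪 Λ) (a π : 𝒪) (ha : a ∈ maximalIdeal 𝒪)
    (hπ : π ∈ maximalIdeal 𝒪) (hU : ∀ x, U (U x) = a • U x - π • x)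
    (Λ₁ : Submodule 𝒪 Λ) (hsurj : ∀ v ∈ Λ₁, ∃ w ∈ Λ₁, U w = v) :
    ∀ v ∈ Λ₁, v = 0 := by
  have key : ∀ j : ℕ, ∀ v ∈ Λ₁, v ∈ (maximalIdeal 𝒪 ^ j) • (⊤ : Submodule 𝒪 Λ) := by
    intro j
    induction j with
    | zero =>
      intro v _
      rw [pow_zero, Ideal.one_eq_top, Submodule.top_smul]
      exact Submodule.mem_top
    | succ j ih =>
      intro v hv
      obtain ⟨w₁, hw₁, rfl⟩ := hsurj v hv
      obtain ⟨w₂, hw₂, rfl⟩ := hsurj w₁ hw₁
      rw [hU]
      exact Submodule.sub_mem _ (smul_mem_pow_succ_smul ha (ih _ hw₁))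
        (smul_mem_pow_succ_smul hπ (ih _ hw₂))
  intro v hv
  exact eq_zero_of_forall_mem_pow_smul _ (fun j => key j v hv)

/-- `unit · π ^ d = unit · π ^ q` forces `d ≤ q` (indeed `d = q`). -/
theorem le_of_unit_mul_pow_eq {π : 𝒪} (hπ : π ∈ maximalIdeal 𝒪) (hπ0 : π ≠ 0) {d q : ℕ}
    {c c' : 𝒪} (hc : IsUnit c) (hc' : IsUnit c') (h : c * π ^ d = c' * π ^ q) : d ≤ q := by
  by_contra hlt
  have hlt' : q < d := Nat.lt_of_not_le hlt
  obtain ⟨e, rfl⟩ : ∃ e, d = q + (e + 1) := ⟨d - q - 1, by omega⟩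
  have h1 : π ^ q * (c * π ^ (e + 1)) = π ^ q * c' := by
    rw [mul_comm (π ^ q) c', ← h, pow_add]
    ring
  have h2 : c * π ^ (e + 1) = c' := mul_left_cancel₀ (pow_ne_zero q hπ0) h1
  have h3 : IsUnit (π ^ (e + 1)) := by
    have : IsUnit (c * π ^ (e + 1)) := h2 ▸ hc'
    exact (IsUnit.mul_iff.mp this).2
  have h4 : IsUnit π := (isUnit_pow_iff (Nat.succ_ne_zero e)).mp h3
  exact ((mem_maximalIdeal π).mp hπ) h4

/-- `det U` divides `π ^ n` if `U (a - U) = π`. -/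
theorem le_finrank_of_det (U : Module.End 𝒪 Λ) (a π : 𝒪)
    (hπ : π ∈ maximalIdeal 𝒪) (hπ0 : π ≠ 0) (hU : ∀ x, U (U x) = a • U x - π • x)
    (d : ℕ) (u₀ : 𝒪) (hu₀ : IsUnit u₀) (hdet : LinearMap.det U = u₀ * π ^ d) :
    d ≤ finrank 𝒪 Λ := by
  have h1 : U * (a • (1 : Module.End 𝒪 Λ) - U) = π • (1 : Module.End 𝒪 Λ) := by
    refine LinearMap.ext fun x => ?_
    rw [Module.End.mul_apply, LinearMap.sub_apply, LinearMap.smul_apply, Module.End.one_apply,
      map_sub, map_smul, hU, LinearMap.smul_apply, Module.End.one_apply]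
    abel
  have h2 := congrArg LinearMap.det h1
  rw [map_mul, LinearMap.det_smul, map_one, mul_one, hdet] at h2
  -- `u₀ π^d det(a - U) = π^n`
  by_contra hlt
  have hlt' : finrank 𝒪 Λ < d := Nat.lt_of_not_le hlt
  obtain ⟨e, he⟩ : ∃ e, d = finrank 𝒪 Λ + (e + 1) := ⟨d - finrank 𝒪 Λ - 1, by omega⟩
  rw [he, pow_add] at h2
  have h3 : π ^ finrank 𝒪 Λ * (u₀ * π ^ (e + 1) *
      LinearMap.det (a • (1 : Module.End 𝒪 Λ) - U)) = π ^ finrank 𝒪 Λ * 1 := by
    calc π ^ finrank 𝒪 Λ * (u₀ * π ^ (e + 1) *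
          LinearMap.det (a • (1 : Module.End 𝒪 Λ) - U))
        = u₀ * (π ^ finrank 𝒪 Λ * π ^ (e + 1)) *
          LinearMap.det (a • (1 : Module.End 𝒪 Λ) - U) := by ring
      _ = π ^ finrank 𝒪 Λ := h2
      _ = π ^ finrank 𝒪 Λ * 1 := (mul_one _).symm
  have h4 := mul_left_cancel₀ (pow_ne_zero _ hπ0) h3
  have h5 : IsUnit (π ^ (e + 1)) := by
    have h6 : IsUnit (u₀ * π ^ (e + 1) * LinearMap.det (a • (1 : Module.End 𝒪 Λ) - U)) := by
      rw [h4]
      exact isUnit_one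
    exact (IsUnit.mul_iff.mp (IsUnit.mul_iff.mp h6).1).2
  exact ((mem_maximalIdeal π).mp hπ) ((isUnit_pow_iff (Nat.succ_ne_zero e)).mp h5)

/-- The determinant of an operator with `(U - u)(U - u') = 0`: `det U = u ^ r u' ^ q`,
`r = rank ker (U - u)`, `r + q = rank Λ`. -/
theorem det_of_split (U : Module.End 𝒪 Λ) (u u' : 𝒪)
    (hU : ∀ x, U (U x) = (u + u') • U x - (u * u') • x) :
    ∃ q : ℕ, finrank 𝒪 (LinearMap.ker (U - u • (1 : Module.End 𝒪 Λ))) + q = finrank 𝒪 Λ ∧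
      LinearMap.det U =
        u ^ finrank 𝒪 (LinearMap.ker (U - u • (1 : Module.End 𝒪 Λ))) * u' ^ q := by
  set Z : Module.End 𝒪 Λ := U - u • (1 : Module.End 𝒪 Λ) with hZ
  set W : Submodule 𝒪 Λ := LinearMap.ker Z with hW
  have hZx : ∀ x, Z x = U x - u • x := fun x => by
    rw [hZ, LinearMap.sub_apply, LinearMap.smul_apply, Module.End.one_apply]
  have hmemW : ∀ x, x ∈ W ↔ U x = u • x := fun x => by
    rw [hW, LinearMap.mem_ker, hZx, sub_eq_zero]
  haveI : Module.Free 𝒪 (Λ ⧸ W) :=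
    Module.Free.of_equiv (LinearMap.quotKerEquivRange Z).symm
  have he : W ≤ W.comap U := by
    intro x hx
    rw [Submodule.mem_comap, hmemW]
    rw [hmemW] at hx
    rw [hx, map_smul, hx]
  have h1 := LinearMap.det_eq_det_mul_det W U he
  have h2 : U.restrict he = u • (LinearMap.id : W →ₗ[𝒪] W) := by
    refine LinearMap.ext fun x => Subtype.ext ?_
    rw [LinearMap.coe_restrict_apply, LinearMap.smul_apply, LinearMap.id_apply,
      Submodule.coe_smul]
    exact (hmemW x).mp x.2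
  have h3 : W.mapQ W U he = u' • (LinearMap.id : (Λ ⧸ W) →ₗ[𝒪] (Λ ⧸ W)) := by
    refine LinearMap.ext fun y => ?_
    obtain ⟨x, rfl⟩ := Submodule.Quotient.mk_surjective W y
    rw [Submodule.mapQ_apply, LinearMap.smul_apply, LinearMap.id_apply,
      ← Submodule.Quotient.mk_smul, Submodule.Quotient.eq, hmemW, map_sub, map_smul, hU]
    simp only [smul_sub, smul_smul, add_smul]
    abel
  rw [h2, h3, LinearMap.det_smul, LinearMap.det_smul] at h1
  simp only [LinearMap.det_id, mul_one] at h1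
  refine ⟨finrank 𝒪 (Λ ⧸ W), ?_, h1⟩
  rw [add_comm]
  exact Submodule.finrank_quotient_add_finrank W

variable [IsAdicComplete (maximalIdeal 𝒪) 𝒪]

/-- Hensel: the unit root of `X² - a X + π`, `a` a unit, `π ∈ 𝔪`. -/
theorem exists_unit_root (a π : 𝒪) (ha : IsUnit a) (hπ : π ∈ maximalIdeal 𝒪) :
    ∃ u u' : 𝒪, IsUnit u ∧ u' ∈ maximalIdeal 𝒪 ∧ u + u' = a ∧ u * u' = π := by
  have hmonic : (X ^ 2 - C a * X + C π : 𝒪[X]).Monic := by
    have h1 : (X ^ 2 - C a * X + C π : 𝒪[X]) = X ^ 2 + (- C a * X + C π) := by ring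
    rw [h1]
    apply Polynomial.monic_X_pow_add
    refine lt_of_le_of_lt (Polynomial.degree_add_le _ _) ?_
    refine max_lt ?_ ?_
    · rw [neg_mul, Polynomial.degree_neg]
      refine lt_of_le_of_lt (Polynomial.degree_C_mul_X_le a) ?_
      norm_num
    · refine lt_of_le_of_lt Polynomial.degree_C_le ?_
      norm_num
  have heval : (X ^ 2 - C a * X + C π : 𝒪[X]).eval a ∈ maximalIdeal 𝒪 := by
    simp only [eval_add, eval_sub, eval_pow, eval_X, eval_mul, eval_C]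
    have : a ^ 2 - a * a + π = π := by ring
    rw [this]
    exact hπ
  have hder : IsUnit (Ideal.Quotient.mk (maximalIdeal 𝒪)
      ((X ^ 2 - C a * X + C π : 𝒪[X]).derivative.eval a)) := by
    have h1 : (X ^ 2 - C a * X + C π : 𝒪[X]).derivative.eval a = a := by
      simp only [derivative_add, derivative_sub, derivative_X_pow, derivative_mul, derivative_C,
        derivative_X, eval_add, eval_sub, eval_mul, eval_C, eval_X, eval_pow, zero_mul,
        mul_one, zero_add, add_zero, eval_zero, Nat.cast_ofNat, eval_ofNat]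
      ring
    rw [h1]
    exact ha.map _
  obtain ⟨u, hu, hua⟩ := HenselianRing.is_henselian
    (X ^ 2 - C a * X + C π : 𝒪[X]) hmonic a heval hder
  have hu' : u ^ 2 - a * u + π = 0 := by
    have := hu
    rw [Polynomial.IsRoot.def] at this
    simpa only [eval_add, eval_sub, eval_pow, eval_X, eval_mul, eval_C] using this
  have huu : IsUnit u := by
    by_contra hnu
    have h1 : u ∈ maximalIdeal 𝒪 := (mem_maximalIdeal u).mpr hnu
    have h2 : a ∈ maximalIdeal 𝒪 := by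
      have : a = u - (u - a) := by ring
      rw [this]
      exact Ideal.sub_mem _ h1 hua
    exact ((mem_maximalIdeal a).mp h2) ha
  refine ⟨u, a - u, huu, ?_, by ring, ?_⟩
  · have : a - u = -(u - a) := by ring
    rw [this]
    exact neg_mem hua
  · have : u * (a - u) = π - (u ^ 2 - a * u + π) := by ring
    rw [this, hu', sub_zero]

/-- **P-ORD, algebra**: the rank of a submodule on which `U` is onto is at most the multiplicity
of the unit root. -/
theorem finrank_add_le_of_unitRoot (U : Module.End 𝒪 Λ) (a π : 𝒪)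
    (hπ : π ∈ maximalIdeal 𝒪) (hπ0 : π ≠ 0) (hU : ∀ x, U (U x) = a • U x - π • x)
    (d : ℕ) (u₀ : 𝒪) (hu₀ : IsUnit u₀) (hdet : LinearMap.det U = u₀ * π ^ d)
    (Λ₁ : Submodule 𝒪 Λ) (hsurj : ∀ v ∈ Λ₁, ∃ w ∈ Λ₁, U w = v) :
    finrank 𝒪 Λ₁ + d ≤ finrank 𝒪 Λ := by
  by_cases ha : IsUnit a
  · obtain ⟨u, u', hu, hu', hsum, hprod⟩ := exists_unit_root a π ha hπ
    have hU' : ∀ x, U (U x) = (u + u') • U x - (u * u') • x := by
      intro x
      rw [hsum, hprod]
      exact hU x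
    obtain ⟨q, hq, hdet'⟩ := det_of_split U u u' hU'
    -- `Λ₁ ⊆ ker (U - u)`
    have hle : Λ₁ ≤ LinearMap.ker (U - u • (1 : Module.End 𝒪 Λ)) := by
      intro v hv
      rw [LinearMap.mem_ker]
      refine apply_eq_zero_of_contracting U (U - u • (1 : Module.End 𝒪 Λ)) u' hu' ?_ ?_ Λ₁ hsurj
        v hv
      · intro x
        simp only [LinearMap.sub_apply, LinearMap.smul_apply, Module.End.one_apply, map_sub,
          map_smul]
      · intro x
        simp only [LinearMap.sub_apply, LinearMap.smul_apply, Module.End.one_apply, map_sub,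
          map_smul, hU' x, smul_sub, smul_smul, add_smul, mul_comm]
        abel
    have h1 : finrank 𝒪 Λ₁ ≤ finrank 𝒪 (LinearMap.ker (U - u • (1 : Module.End 𝒪 Λ))) :=
      Submodule.finrank_mono hle
    -- `d ≤ q`
    have h2 : d ≤ q := by
      set r := finrank 𝒪 (LinearMap.ker (U - u • (1 : Module.End 𝒪 Λ))) with hr
      have h3 : (u₀ * u ^ q) * π ^ d = u ^ r * π ^ q := by
        have h4 : u₀ * π ^ d = u ^ r * u' ^ q := by rw [← hdet, hdet']
        calc (u₀ * u ^ q) * π ^ d = (u₀ * π ^ d) * u ^ q := by ring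
          _ = u ^ r * u' ^ q * u ^ q := by rw [h4]
          _ = u ^ r * (u * u') ^ q := by ring
          _ = u ^ r * π ^ q := by rw [hprod]
      exact le_of_unit_mul_pow_eq hπ hπ0 (hu₀.mul (hu.pow q)) (hu.pow r) h3
    omega
  · have ha' : a ∈ maximalIdeal 𝒪 := (mem_maximalIdeal a).mpr ha
    have h0 := eq_zero_of_nilpotent_type U a π ha' hπ hU Λ₁ hsurj
    have hbot : Λ₁ = ⊥ := by
      rw [eq_bot_iff]
      intro v hv
      rw [Submodule.mem_bot]
      exact h0 v hv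
    rw [hbot, finrank_bot, zero_add]
    exact le_finrank_of_det U a π hπ hπ0 hU d u₀ hu₀ hdet

end POrd

end Fermat.Agent.S59.NonMin.Geom.Rank.H2

end
-- ==== END Fermat.Agent.S59.NonMin.Geom.Rank.H2_POrd

-- ==== BEGIN Fermat.Agent.S59.NonMin.Geom.Rank.H56_MainCore
section

/-!
# RANK leaf MAIN (helper56): the single-prime Atkin–Lehner main lemma

If `f ∈ S₂(Γ₀(L))` has `q`-expansion supported on the multiples of a prime `r`, then
`G(z) = f(z / r) = U_r f` is a cusp form of level `L / gcd(L, r)` with `a_n(G) = a_{rn}(f)`.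
-/

set_option autoImplicit false

open UpperHalfPlane ModularForm CongruenceSubgroup ModularFormClass Matrix.SpecialLinearGroup
open scoped MatrixGroups ModularForm
open P2MW.S_ModularForm_heckeT_slash_eq_self_of_mem_Gamma0.ModularForm.HeckeSlashInvariance

noncomputable section

namespace Fermat.Agent.S59.NonMin.Geom.Rank.H56

local notation "𝕢" => Function.Periodic.qParam

theorem hper56 (N : ℕ) :
    (1 : ℝ) ∈ (Subgroup.map (Matrix.SpecialLinearGroup.mapGL ℝ) (Gamma0 N)).strictPeriods :=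
  CongruenceSubgroup.one_mem_strictPeriods_Gamma0 N

/-- The `q`-parameter at `(z + j) / r`, raised to a multiple of `r`, does not depend on `j`. -/
theorem qParam_pow_mul {r : ℕ} (hr : r ≠ 0) (z : ℍ) (j m : ℕ) :
    𝕢 1 ((heckeMatrix r j • z : ℍ) : ℂ) ^ (r * m) = 𝕢 1 ((heckeMatrix r 0 • z : ℍ) : ℂ) ^ (r * m) := by
  have hr' : (r : ℂ) ≠ 0 := by exact_mod_cast hr
  rw [coe_heckeMatrix_smul hr, coe_heckeMatrix_smul hr]
  simp only [Function.Periodic.qParam, ← Complex.exp_nat_mul]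
  rw [Complex.exp_eq_exp_iff_exists_int]
  refine ⟨(j * m : ℕ), ?_⟩
  push_cast
  field_simp
  ring

/-- A cusp form whose `q`-expansion is supported on the multiples of `r` is `1 / r`-periodic. -/
theorem apply_heckeMatrix_smul {L r : ℕ} [NeZero L] (hr : r ≠ 0) (f : CuspForm (Gamma0 L) 2)
    (h : ∀ n : ℕ, ¬ r ∣ n → qCoeff f n = 0) (z : ℍ) (j : ℕ) :
    f (heckeMatrix r j • z) = f (heckeMatrix r 0 • z) := by
  have h1 := ModularForm.hasSum_qExpansion (f := f) one_pos (hper56 L) (heckeMatrix r j • z)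
  have h2 := ModularForm.hasSum_qExpansion (f := f) one_pos (hper56 L) (heckeMatrix r 0 • z)
  refine h1.unique ?_
  convert h2 using 2 with m
  by_cases hm : r ∣ m
  · obtain ⟨m', rfl⟩ := hm
    rw [qParam_pow_mul hr]
  · have := h m hm
    rw [qCoeff] at this
    rw [this, zero_mul, zero_mul]

/-! ### The arithmetic of the coset representatives -/

/-- For `g ∈ SL(2, ℤ)` and a prime `r` there are `j ∈ {0, 1}`, `j'` and `e` with
`b + j d = j' (a + j c) + r e`. -/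
theorem exists_index {r : ℕ} (hr : r.Prime) (g : SL(2, ℤ)) :
    ∃ (j j' : ℕ) (e : ℤ), g 0 1 + j * g 1 1 = j' * (g 0 0 + j * g 1 0) + r * e := by
  have : Fact r.Prime := ⟨hr⟩
  have hdet := det_eq g
  -- choose `j` with `r ∤ a + j c`
  obtain ⟨j, hj⟩ : ∃ j : ℕ, ((g 0 0 + j * g 1 0 : ℤ) : ZMod r) ≠ 0 := by
    by_cases ha : ((g 0 0 : ℤ) : ZMod r) = 0
    · refine ⟨1, ?_⟩
      intro h
      push_cast at h
      rw [ha, zero_add, one_mul] at h
      have h1 := congrArg (Int.cast : ℤ → ZMod r) hdet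
      push_cast at h1
      rw [ha, h] at h1
      simp at h1
    · exact ⟨0, by simpa using ha⟩
  set u : ZMod r := ((g 0 0 + j * g 1 0 : ℤ) : ZMod r) with hu
  set w : ZMod r := ((g 0 1 + j * g 1 1 : ℤ) : ZMod r) / u with hw
  have h1 : ((g 0 1 + j * g 1 1 - (w.val : ℤ) * (g 0 0 + j * g 1 0) : ℤ) : ZMod r) = 0 := by
    push_cast
    rw [ZMod.natCast_zmod_val]
    have : w * u = ((g 0 1 + j * g 1 1 : ℤ) : ZMod r) := by
      rw [hw, div_mul_cancel₀ _ hj]
    push_cast at this hu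
    rw [← hu, this]
    ring
  obtain ⟨e, he⟩ := (ZMod.intCast_zmod_eq_zero_iff_dvd _ _).1 h1
  exact ⟨j, w.val, e, by linear_combination he⟩

/-! ### The form `G(z) = f(z / r)` -/

section construction

variable {L r : ℕ} [NeZero L] (f : CuspForm (Gamma0 L) 2)

/-- All the translates `f ∣ [[1, j], [0, r]]` coincide. -/
theorem slash_heckeMatrix_eq (hr : r ≠ 0) (h : ∀ n : ℕ, ¬ r ∣ n → qCoeff f n = 0) (j : ℕ) :
    (⇑f) ∣[(2 : ℤ)] heckeMatrix r j = (⇑f) ∣[(2 : ℤ)] heckeMatrix r 0 := by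
  funext z
  rw [slash_heckeMatrix_apply 2 hr, slash_heckeMatrix_apply 2 hr, apply_heckeMatrix_smul hr f h]

/-- `U_r f` is invariant under `Γ₀(L')` as soon as `L ∣ r L'`. -/
theorem heckeU_slash {L' : ℕ} (hr : r.Prime) (hL : L ∣ r * L')
    (h : ∀ n : ℕ, ¬ r ∣ n → qCoeff f n = 0) (γ : SL(2, ℤ)) (hγ : γ ∈ Gamma0 L') :
    (heckeU 2 r ⇑f) ∣[(2 : ℤ)] (mapGL ℝ γ) = heckeU 2 r ⇑f := by
  obtain ⟨j, j', e, he⟩ := exists_index hr γ
  obtain ⟨g', hg', hmul⟩ := heckeMatrix_mul_of_eq hr.ne_zero γ j j' e he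
  have hg'L : g' ∈ Gamma0 L := by
    rw [Gamma0_mem, hg']
    rw [Gamma0_mem, ZMod.intCast_zmod_eq_zero_iff_dvd] at hγ
    rw [ZMod.intCast_zmod_eq_zero_iff_dvd]
    have h1 : (L : ℤ) ∣ (r : ℤ) * (L' : ℤ) := by exact_mod_cast hL
    exact h1.trans (mul_dvd_mul_left _ hγ)
  have key : ((⇑f) ∣[(2 : ℤ)] heckeMatrix r 0) ∣[(2 : ℤ)] mapGL ℝ γ =
      (⇑f) ∣[(2 : ℤ)] heckeMatrix r 0 := by
    have e0 := slash_heckeMatrix_eq f hr.ne_zero h j
    have e1 : ((⇑f) ∣[(2 : ℤ)] heckeMatrix r j) ∣[(2 : ℤ)] mapGL ℝ γ =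
        (⇑f) ∣[(2 : ℤ)] heckeMatrix r 0 := by
      rw [← SlashAction.slash_mul, hmul, SlashAction.slash_mul,
        SlashInvariantFormClass.slash_action_eq f _ (Subgroup.mem_map_of_mem (mapGL ℝ) hg'L),
        slash_heckeMatrix_eq f hr.ne_zero h j']
    rw [e0] at e1
    exact e1
  rw [heckeU_def, SlashAction.sum_slash]
  refine Finset.sum_congr rfl fun x _ => ?_
  rw [slash_heckeMatrix_eq f hr.ne_zero h x, key]

/-- The cusp form `G(z) = f(z / r) = U_r f` of level `L'`, for `f` supported on the multiples of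
`r` and `L ∣ r L'`. -/
def descendCusp (L' : ℕ) [NeZero L'] (hr : r.Prime) (hL : L ∣ r * L')
    (h : ∀ n : ℕ, ¬ r ∣ n → qCoeff f n = 0) : CuspForm (Gamma0 L') 2 where
  toFun := heckeU 2 r ⇑f
  slash_action_eq' := by
    rintro _ ⟨γ, hγ, rfl⟩
    exact heckeU_slash f hr hL h γ hγ
  holo' := mdifferentiable_heckeU (CuspFormClass.holo f) 2 r
  zero_at_cusps' := fun hc => CuspFormClass.isZeroAt_heckeU f r (by
    rw [Subgroup.IsArithmetic.isCusp_iff_isCusp_SL2Z] at hc ⊢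
    exact hc)

@[simp] theorem coe_descendCusp (L' : ℕ) [NeZero L'] (hr : r.Prime) (hL : L ∣ r * L')
    (h : ∀ n : ℕ, ¬ r ∣ n → qCoeff f n = 0) :
    ⇑(descendCusp f L' hr hL h) = heckeU 2 r ⇑f := rfl

theorem qCoeff_descendCusp (L' : ℕ) [NeZero L'] (hr : r.Prime) (hL : L ∣ r * L')
    (h : ∀ n : ℕ, ¬ r ∣ n → qCoeff f n = 0) (n : ℕ) :
    qCoeff (descendCusp f L' hr hL h) n = qCoeff f (r * n) := by
  rw [coe_descendCusp, ModularFormClass.qCoeff_heckeU f (hper56 L) hr.ne_zero n,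
    coeffHeckeU_apply, mul_comm]

end construction

/-- **MAIN** (single-prime Atkin–Lehner main lemma). -/
theorem main (L r : ℕ) [NeZero L] (hr : r.Prime) (f : CuspForm (Gamma0 L) 2)
    (h : ∀ n : ℕ, ¬ r ∣ n → ModularFormClass.qCoeff f n = 0) :
    ∃ G : CuspForm (Gamma0 (L / Nat.gcd L r)) 2,
      ∀ n : ℕ, ModularFormClass.qCoeff G n = ModularFormClass.qCoeff f (r * n) := by
  have hL0 : L ≠ 0 := NeZero.ne L
  have hgL : Nat.gcd L r ∣ L := Nat.gcd_dvd_left L r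
  have hne : L / Nat.gcd L r ≠ 0 := by
    intro h0
    rw [Nat.div_eq_zero_iff] at h0
    rcases h0 with h0 | h0
    · exact hL0 (Nat.eq_zero_of_gcd_eq_zero_left h0)
    · exact absurd (Nat.le_of_dvd (Nat.pos_of_ne_zero hL0) hgL) (not_le.2 h0)
  have : NeZero (L / Nat.gcd L r) := ⟨hne⟩
  have hL : L ∣ r * (L / Nat.gcd L r) := by
    have h1 : Nat.gcd L r * (L / Nat.gcd L r) = L := Nat.mul_div_cancel' hgL
    have h2 : Nat.gcd L r ∣ r := Nat.gcd_dvd_right L r
    calc L = Nat.gcd L r * (L / Nat.gcd L r) := h1.symm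
      _ ∣ r * (L / Nat.gcd L r) := Nat.mul_dvd_mul_right h2 _
  exact ⟨descendCusp f (L / Nat.gcd L r) hr hL h, qCoeff_descendCusp f _ hr hL h⟩

end Fermat.Agent.S59.NonMin.Geom.Rank.H56

end

end
-- ==== END Fermat.Agent.S59.NonMin.Geom.Rank.H56_MainCore

-- ==== BEGIN Fermat.Agent.S59.NonMin.H2_Wire
section

/-!
# S59, package RT-NONMIN, leaf WIRE (helper2)

`mltnm_of : Stmt_NMGEOM → Stmt_STEP → Stmt_BASE → Asm.Stmt_COND → Datum.Stmt_DATUM →
  Stmt_TWprimes → Asm.Stmt_ASM → Stmt_MLTnm`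

Wiles' induction on the set `Sig` of auxiliary primes:
* `levelHyp_base`, `levelHyp_next` : the arithmetic of the levels;
* `frobHyp_comp` : the Frobenius hypothesis along a restriction map;
* `rtProp_base` : `RTProp` at the minimal state (Taylor–Wiles patching + `Stmt_BASE`);
* `mltnm_of` : the induction.
-/

set_option autoImplicit false
set_option linter.style.haveILetI false
set_option linter.unusedSectionVars false
set_option linter.unusedVariables false
set_option maxHeartbeats 1000000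

open Polynomial CuspForm CongruenceSubgroup ModularFormClass IsLocalRing

namespace Fermat.Agent.S59.NonMin.H2

open Fermat.Agent.S59 Fermat.Agent.S59.Asm Fermat.Agent.S59.NonMin

/-! ### The Frobenius hypothesis along a restriction map -/

theorem frobHyp_comp {k : Type} [Field k] {ρbar : ResidualGaloisRep k} {N N' : ℕ} [NeZero N]
    [NeZero N'] {S S' : Finset ℕ} {θ : CuspForm.heckeAlgebra N 2 (↑S : Set ℕ) →+* k}
    (hθ : Fermat.Agent.S59.Datum.FrobHyp ρbar N S θ) (hN : N ∣ N') (hS : S ⊆ S')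
    (rest : CuspForm.heckeAlgebra N' 2 (↑S' : Set ℕ) →+* CuspForm.heckeAlgebra N 2 (↑S : Set ℕ))
    (rest_T : ∀ (ℓ : ℕ) (hℓ : ℓ.Prime) (hℓN' : ¬ ℓ ∣ N') (hℓS' : ℓ ∉ (↑S' : Set ℕ))
      (hℓN : ¬ ℓ ∣ N) (hℓS : ℓ ∉ (↑S : Set ℕ)),
      rest (CuspForm.heckeAlgebra.T hℓ hℓN' hℓS') = CuspForm.heckeAlgebra.T hℓ hℓN hℓS) :
    Fermat.Agent.S59.Datum.FrobHyp ρbar N' S' (θ.comp rest) := by
  intro ℓ hℓ hℓN' hℓS' A hA σ hσ
  have hℓN : ¬ ℓ ∣ N := fun h => hℓN' (h.trans hN)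
  have hℓS : ℓ ∉ (↑S : Set ℕ) := fun h => hℓS' (by
    rw [Finset.mem_coe] at h ⊢
    exact hS h)
  rw [RingHom.comp_apply, rest_T ℓ hℓ hℓN' hℓS' hℓN hℓS]
  exact hθ ℓ hℓ hℓN hℓS A hA σ hσ

/-! ### Arithmetic of the levels -/

section Level

variable (𝒪 : Type) [CommRing 𝒪] [IsDomain 𝒪] [IsDiscreteValuationRing 𝒪]
  [IsAdicComplete (maximalIdeal 𝒪) 𝒪]

theorem not_cube_dvd_of_squarefree {N q : ℕ} (hN : Squarefree N) (hq : q.Prime) :
    ¬ q ^ 3 ∣ N := fun h =>
  Asm.H2.not_sq_dvd_of_squarefree hN hq ((pow_dvd_pow q (by norm_num : 2 ≤ 3)).trans h)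

/-- the level hypotheses at the minimal state -/
theorem levelHyp_base {p : ℕ} (hp : p.Prime) (fl : Bool) {Smin : Finset ℕ}
    (hS : ∀ q ∈ Smin, q.Prime) (hpS : p ∈ Smin) {N : ℕ} [NeZero N]
    (hN : N = minLevel p fl Smin)
    (θ : CuspForm.heckeAlgebra N 2 (↑Smin : Set ℕ) →+* ResidueField 𝒪)
    (M : HMod 𝒪 N (↑Smin : Set ℕ) θ) :
    LevelHyp 𝒪 p fl Smin ∅ (⟨N, Smin, θ, M⟩ : NMState 𝒪) := by
  have hsqf : Squarefree N := by
    rw [hN]
    exact Asm.H2.squarefree_minLevel hp fl hS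
  refine ⟨(Finset.union_empty _).symm, fun q hq => absurd hq (Finset.notMem_empty q), ?_, ?_,
    ?_, ?_, ?_⟩
  · intro q hq hqN
    have hqN' : q ∣ N := hqN
    rw [hN] at hqN'
    exact Asm.H2.prime_dvd_minLevel hp fl hS hpS hq hqN'
  · intro q hq hqp
    refine ⟨?_, Asm.H2.not_sq_dvd_of_squarefree hsqf (hS q hq)⟩
    show q ∣ N
    rw [hN]
    exact Asm.H2.dvd_minLevel_of_mem fl hq hqp
  · intro q hq
    exact not_cube_dvd_of_squarefree hsqf hq
  · intro hfl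
    show ¬ p ∣ N
    rw [hN, hfl]
    exact Asm.H2.not_dvd_minLevel_of_fl hp hS
  · intro hfl
    refine ⟨?_, Asm.H2.not_sq_dvd_of_squarefree hsqf hp⟩
    show p ∣ N
    rw [hN, hfl]
    exact Asm.H2.dvd_minLevel_of_not_fl

/-- a prime power prime to `q` divides `N q²` iff it divides `N` -/
theorem pow_dvd_mul_sq_iff {N q q' : ℕ} (hq : q.Prime) (hq' : q'.Prime) (hne : q' ≠ q)
    (k : ℕ) : q' ^ k ∣ N * q ^ 2 ↔ q' ^ k ∣ N := by
  have hcop : Nat.Coprime (q' ^ k) (q ^ 2) :=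
    Nat.Coprime.pow k 2 ((Nat.coprime_primes hq' hq).mpr hne)
  exact ⟨fun h => hcop.dvd_of_dvd_mul_right h, fun h => Dvd.dvd.mul_right h _⟩

/-- the level hypotheses pass to the next state -/
theorem levelHyp_next {p : ℕ} (hp : p.Prime) {fl : Bool} {Smin Sig : Finset ℕ}
    (hpS : p ∈ Smin) (hSmin : ∀ q ∈ Smin, q.Prime) {s : NMState 𝒪}
    (h : LevelHyp 𝒪 p fl Smin Sig s) {q : ℕ} (hq : q.Prime) (hqSmin : q ∉ Smin)
    (hqN : ¬ q ∣ s.N) [NeZero (s.N * q ^ 2)] (s' : NMState 𝒪) (hN' : s'.N = s.N * q ^ 2)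
    (hS' : s'.S = insert q s.S) :
    LevelHyp 𝒪 p fl Smin (insert q Sig) s' := by
  have hqp : q ≠ p := fun e => hqSmin (e ▸ hpS)
  refine ⟨?_, ?_, ?_, ?_, ?_, ?_, ?_⟩
  · rw [hS', h.hS, Finset.union_insert]
  · intro q' hq'
    rcases Finset.mem_insert.mp hq' with e | hq''
    · rw [e]
      exact ⟨hq, hqSmin⟩
    · exact h.hSig q' hq''
  · intro q' hq' hq'N
    rw [hN'] at hq'N
    rw [hS']
    rcases (Nat.Prime.dvd_mul hq').mp hq'N with h1 | h1
    · exact Finset.mem_insert_of_mem (h.dvd_mem q' hq' h1)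
    · have := (Nat.prime_dvd_prime_iff_eq hq' hq).mp (hq'.dvd_of_dvd_pow h1)
      rw [this]
      exact Finset.mem_insert_self q s.S
  · intro q' hq' hq'p
    have hne : q' ≠ q := fun e => hqSmin (e ▸ hq')
    have h1 := pow_dvd_mul_sq_iff (N := s.N) hq (hSmin q' hq') hne 1
    have h2 := pow_dvd_mul_sq_iff (N := s.N) hq (hSmin q' hq') hne 2
    rw [pow_one] at h1
    rw [hN']
    exact ⟨h1.mpr (h.hmin q' hq' hq'p).1, fun h3 => (h.hmin q' hq' hq'p).2 (h2.mp h3)⟩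
  · intro q' hq'
    rw [hN']
    by_cases hne : q' = q
    · rw [hne]
      intro h3
      apply hqN
      have h4 : q ^ 2 * q ∣ q ^ 2 * s.N := by
        rw [← pow_succ, mul_comm (q ^ 2) s.N]
        exact h3
      exact (Nat.mul_dvd_mul_iff_left (pow_pos hq.pos 2)).mp h4
    · intro h3
      exact h.hcube q' hq' ((pow_dvd_mul_sq_iff (N := s.N) hq hq' hne 3).mp h3)
  · intro hfl h3
    rw [hN'] at h3
    have h1 := pow_dvd_mul_sq_iff (N := s.N) hq hp (Ne.symm hqp) 1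
    rw [pow_one] at h1
    exact h.hfl hfl (h1.mp h3)
  · intro hfl
    have h1 := pow_dvd_mul_sq_iff (N := s.N) hq hp (Ne.symm hqp) 1
    have h2 := pow_dvd_mul_sq_iff (N := s.N) hq hp (Ne.symm hqp) 2
    rw [pow_one] at h1
    rw [hN']
    exact ⟨h1.mpr (h.hso hfl).1, fun h3 => (h.hso hfl).2 (h2.mp h3)⟩

end Level

/-! ### The base of the induction -/

section Base

variable (𝒪 : Type) [CommRing 𝒪] [IsDomain 𝒪] [IsDiscreteValuationRing 𝒪]
  [IsAdicComplete (maximalIdeal 𝒪) 𝒪] [Finite (ResidueField 𝒪)] [CharZero 𝒪]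
  (p : ℕ) [Fact p.Prime]

/-- **`RTProp` at the minimal state**: Taylor–Wiles patching (`Asm.H2.exists_patchingDatum`,
`Patch.patch`, `S57.result`) and `Stmt_BASE`. -/
theorem rtProp_base (hBASE : Stmt_BASE) (hCOND : Asm.Stmt_COND)
    (hDATUM : Fermat.Agent.S59.Datum.Stmt_DATUM) (hTWP : Stmt_TWprimes) (hASM : Asm.Stmt_ASM)
    (hp2 : p ≠ 2) (hp𝒪 : (p : 𝒪) ∈ maximalIdeal 𝒪)
    (fl : Bool) (ρbar : ResidualGaloisRep (ResidueField 𝒪)) (Smin : Finset ℕ)
    (hyp : ResHyp p ρbar Smin)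
    (hbar : cond 𝒪 p fl Smin ∅ (GaloisRepAdic.ofResidualGaloisRep ρbar))
    (hnf : fl = false → ¬ (GaloisRepAdic.ofResidualGaloisRep ρbar).IsFlatAt p)
    (N : ℕ) [NeZero N] [hI : Fact (CuspForm.HasIntegralStructure N 2)]
    (hN : N = minLevel p fl Smin)
    (θ : CuspForm.heckeAlgebra N 2 (↑Smin : Set ℕ) →+* ResidueField 𝒪)
    (hθ : Fermat.Agent.S59.Datum.FrobHyp ρbar N Smin θ)
    (x₀ : CuspForm.heckeAlgebra N 2 (↑Smin : Set ℕ) →+* 𝒪)
    (hx₀ : ∀ t, residue 𝒪 (x₀ t) = θ t)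
    (M : HMod 𝒪 N (↑Smin : Set ℕ) θ) (hMnt : Nontrivial M.V)
    (hG : ∀ (r n : ℕ) (qv : Fin r → ℕ), Fermat.Agent.S56.IsTWFamily ρbar p n Smin qv →
      ∀ [NeZero (twLevel N qv)] [Fact (CuspForm.HasIntegralStructure (twLevel N qv) 2)],
        Nonempty (TWGeom 𝒪 p ρbar N Smin θ M n qv)) :
    ∃ d : ℕ, 0 < d ∧
      @RTProp 𝒪 _ _ _ _ p fl ρbar Smin ∅ (⟨N, Smin, θ, M⟩ : NMState 𝒪) hI x₀ d := by
  have hpP : p.Prime := Fact.out
  obtain ⟨D⟩ := Fermat.Agent.S59.H99.stmt_DEF 𝒪 p hp2 hp𝒪 fl ρbar hyp.habs Smin ∅ hyp.hpSmin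
    (fun q hq => hyp.hS q (by simpa using hq)) hbar
  obtain ⟨H, φ, hφ, ηM, r, hHπ, hHcond, hHres, hφs, hφe, hηM, ⟨P⟩⟩ :=
    Asm.H2.exists_patchingDatum 𝒪 p hCOND hDATUM hTWP hASM hp2 hp𝒪 fl ρbar Smin hyp hbar hnf
      N hN θ hθ D M hG
  letI iM : Module D.R M.V := Module.compHom M.V
    ((ηM.comp φ : D.R →ₐ[𝒪] Module.End 𝒪 M.V) : D.R →+* Module.End 𝒪 M.V)
  obtain ⟨L⟩ := Fermat.Agent.S59.Patch.patch hp𝒪 D.residue_surjective P
  obtain ⟨hfree, -, hker⟩ := Fermat.Agent.S57.result L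
  exact hBASE 𝒪 p hp2 hp𝒪 fl ρbar Smin hyp (⟨N, Smin, θ, M⟩ : NMState 𝒪)
    (levelHyp_base 𝒪 hpP fl hyp.hS hyp.hpSmin hN θ M) x₀ hx₀ D H hHπ φ hφ hφs hφe ηM hηM r
    L.ψ (fun i => L.φ (MvPowerSeries.X i)) L.ψ_surjective hker hfree hMnt

/-- **The induction on `Sig`**: `RTProp` at some state of the class `G` for every finite set
`Sig` of auxiliary primes. -/
theorem rtProp_of_step (hSTEP : Stmt_STEP)
    (hp2 : p ≠ 2) (hp𝒪 : (p : 𝒪) ∈ maximalIdeal 𝒪)
    (fl : Bool) (ρbar : ResidualGaloisRep (ResidueField 𝒪)) (Smin : Finset ℕ)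
    (hyp : ResHyp p ρbar Smin)
    (hbar : cond 𝒪 p fl Smin ∅ (GaloisRepAdic.ofResidualGaloisRep ρbar))
    (hnf : fl = false → ¬ (GaloisRepAdic.ofResidualGaloisRep ρbar).IsFlatAt p)
    (G : NMState 𝒪 → Prop)
    (hGstep : ∀ s : NMState 𝒪, G s → ∀ (q : ℕ) (hq : q.Prime), q ≠ p → ∀ (hqN : ¬ q ∣ s.N)
      (hqS : q ∉ (↑s.S : Set ℕ)) [NeZero (s.N * q ^ 2)],
      ∃ st : NMStep s hq hqN hqS, G st.next)
    (d : ℕ) (hd : 0 < d)
    (s₀ : NMState 𝒪) (hI₀ : Fact (CuspForm.HasIntegralStructure s₀.N 2))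
    (x₀ : CuspForm.heckeAlgebra s₀.N 2 (↑s₀.S : Set ℕ) →+* 𝒪)
    (hG₀ : G s₀) (hL₀ : LevelHyp 𝒪 p fl Smin ∅ s₀)
    (hF₀ : Fermat.Agent.S59.Datum.FrobHyp ρbar s₀.N s₀.S s₀.θ)
    (hx₀ : ∀ t, residue 𝒪 (x₀ t) = s₀.θ t)
    (hRT₀ : @RTProp 𝒪 _ _ _ _ p fl ρbar Smin ∅ s₀ hI₀ x₀ d)
    (Sig : Finset ℕ) (hSig : ∀ q ∈ Sig, q.Prime ∧ q ∉ Smin) :
    ∃ (s : NMState 𝒪) (hI : Fact (CuspForm.HasIntegralStructure s.N 2))
      (x : CuspForm.heckeAlgebra s.N 2 (↑s.S : Set ℕ) →+* 𝒪),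
      G s ∧ LevelHyp 𝒪 p fl Smin Sig s ∧
      Fermat.Agent.S59.Datum.FrobHyp ρbar s.N s.S s.θ ∧
      (∀ t, residue 𝒪 (x t) = s.θ t) ∧
      @RTProp 𝒪 _ _ _ _ p fl ρbar Smin Sig s hI x d := by
  classical
  have hpP : p.Prime := Fact.out
  induction Sig using Finset.induction_on with
  | empty => exact ⟨s₀, hI₀, x₀, hG₀, hL₀, hF₀, hx₀, hRT₀⟩
  | insert q Sig' hqSig ih =>
    obtain ⟨s, hI, x, hGs, hLev, hFrob, hx, hRT⟩ :=
      ih (fun q' hq' => hSig q' (Finset.mem_insert_of_mem hq'))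
    obtain ⟨hqP, hqSmin⟩ := hSig q (Finset.mem_insert_self q Sig')
    have hqp : q ≠ p := fun e => hqSmin (e ▸ hyp.hpSmin)
    have hqS : q ∉ (↑s.S : Set ℕ) := by
      rw [Finset.mem_coe, hLev.hS, Finset.mem_union]
      rintro (h | h)
      · exact hqSmin h
      · exact hqSig h
    have hqN : ¬ q ∣ s.N := fun h => hqS (Finset.mem_coe.mpr (hLev.dvd_mem q hqP h))
    haveI : NeZero (s.N * q ^ 2) :=
      ⟨mul_ne_zero (NeZero.ne s.N) (pow_ne_zero 2 hqP.ne_zero)⟩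
    obtain ⟨st, hGst⟩ := hGstep s hGs q hqP hqp hqN hqS
    haveI hI' : Fact (CuspForm.HasIntegralStructure (s.N * q ^ 2) 2) :=
      ⟨Fermat.Agent.S23.result (s.N * q ^ 2)⟩
    haveI := hI
    have hRT' := hSTEP 𝒪 p hp2 hp𝒪 fl ρbar Smin hyp hbar hnf Sig' s hLev hFrob x hx d hd hRT
      q hqP hqp hqN hqS st
    refine ⟨st.next, hI', x.comp st.rest, hGst, ?_, ?_, ?_, hRT'⟩
    · exact levelHyp_next 𝒪 hpP hyp.hpSmin hyp.hS hLev hqP hqSmin hqN st.next rfl rfl
    · exact frobHyp_comp (N := s.N) (N' := s.N * q ^ 2) (S := s.S) (S' := insert q s.S) hFrob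
        (Dvd.intro _ rfl) (Finset.subset_insert q s.S) st.rest st.rest_T
    · intro t
      exact hx (st.rest t)

end Base

/-! ### The wiring -/

/-- **WIRE of RT-NONMIN**: modularity lifting in the non-minimal case from the geometry
(`Stmt_NMGEOM`), the step (`Stmt_STEP`), the base (`Stmt_BASE`) and the inputs of the minimal
case. -/
theorem mltnm_of (hNM : Stmt_NMGEOM) (hSTEP : Stmt_STEP) (hBASE : Stmt_BASE)
    (hCOND : Asm.Stmt_COND) (hDATUM : Fermat.Agent.S59.Datum.Stmt_DATUM)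
    (hTWP : Stmt_TWprimes) (hASM : Asm.Stmt_ASM) : Stmt_MLTnm := by
  intro 𝒪 _ _ _ _ _ _ p _ hp2 hp𝒪 fl ρbar Smin hyp hbar hnf N _ hN θ hθ x₀ hx₀ Sig hSig ρ hρ
    hres a hfrob
  have hpP : p.Prime := Fact.out
  haveI hI : Fact (CuspForm.HasIntegralStructure N 2) := ⟨Fermat.Agent.S23.result N⟩
  have hNS : ∀ q : ℕ, q.Prime → q ∣ N → q ∈ Smin := by
    intro q hq hqN
    rw [hN] at hqN
    exact Asm.H2.prime_dvd_minLevel hpP fl hyp.hS hyp.hpSmin hq hqN
  have hsqf : Squarefree N := by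
    rw [hN]
    exact Asm.H2.squarefree_minLevel hpP fl hyp.hS
  obtain ⟨M, G, hMnt, hG, hG₀, hGstep⟩ := hNM 𝒪 p hp2 hp𝒪 ρbar Smin hyp N hNS hsqf θ hθ
  obtain ⟨d, hd, hRT₀⟩ := rtProp_base 𝒪 p hBASE hCOND hDATUM hTWP hASM hp2 hp𝒪 fl ρbar Smin hyp
    hbar hnf N hN θ hθ x₀ hx₀ M hMnt hG
  obtain ⟨s, hIs, x, -, hLev, -, -, hRT⟩ := rtProp_of_step 𝒪 p hSTEP hp2 hp𝒪 fl ρbar Smin hyp
    hbar hnf G hGstep d hd (⟨N, Smin, θ, M⟩ : NMState 𝒪) hI x₀ hG₀
    (levelHyp_base 𝒪 hpP fl hyp.hS hyp.hpSmin hN θ M) hθ hx₀ hRT₀ Sig hSig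
  haveI := hIs
  obtain ⟨-, D, H, φ, hφ, ηhat, πx, hHπ, hφbij, hφe, -, -, -, -⟩ := hRT
  have hmem : ∀ ℓ : ℕ, ℓ ∉ (↑s.S : Set ℕ) → ℓ ∉ Smin ∪ Sig := by
    intro ℓ hℓ h
    apply hℓ
    rw [Finset.mem_coe, hLev.hS]
    exact h
  have hmem' : ∀ ℓ : ℕ, ℓ ∉ Smin ∪ Sig → ℓ ∉ (↑s.S : Set ℕ) := by
    intro ℓ hℓ h
    apply hℓ
    rw [Finset.mem_coe, hLev.hS] at h
    exact h
  obtain ⟨g, hg, hga⟩ := eigenform_of_RT D H φ hφbij.2 hφbij.1 hφ hφe ρ hρ hres a
    (fun ℓ hℓ hℓN hℓS A hA σ hσ => hfrob ℓ hℓ (hmem ℓ hℓS) A hA σ hσ)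
  refine ⟨s.N, ?_, hLev.hcube, g, hg, fun ℓ hℓ hℓN hℓS => hga ℓ hℓ hℓN (hmem' ℓ hℓS)⟩
  cases hfl : fl with
  | false => exact (hLev.hso hfl).2
  | true =>
    intro h
    exact hLev.hfl hfl ((dvd_pow_self p (by norm_num : (2 : ℕ) ≠ 0)).trans h)

end Fermat.Agent.S59.NonMin.H2

end
-- ==== END Fermat.Agent.S59.NonMin.H2_Wire

-- ==== BEGIN Fermat.Agent.S59.NonMin.H48_KumGen
section

/-!
# S59, case C, leaf KUM-p (helper48): a uniform generator of the Kummer character of `p` on the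
peu ramifié inertia

* `IpeuSub p P` : `Ipeu p P` as a subgroup of `G_ℚ`; it is closed (`isClosed_Ipeu`), fixes the
  `p`-power roots of unity (`Ipeu_fix_root`) and is normalised by the decomposition group
  (`conj_mem_Ipeu`).
* `KumGenAt p P n τ` : the value of the Kummer character `σ ↦ σ π₀ / π₀` (`π₀ ^ (p ^ n) = p`) at
  `τ` generates its image on `Ipeu p P`.
* `exists_kum_generator` : ONE `τ₀ ∈ Ipeu p P` with `KumGenAt p P n τ₀` for all `n`
  (subgroups of the cyclic group `μ_{p^n}` are cyclic; compactness of `G_ℚ`).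
  No Kummer theory is needed: `τ₀` generates the image of the Kummer character, whatever it is.
-/

set_option autoImplicit false
set_option linter.style.haveILetI false

namespace Fermat.Agent.S59.NonMin.H48

open Fermat.Agent.L.Pivot

/-- The Galois group of `ℚ`. -/
local notation "Γℚ" => AlgebraicClosure ℚ ≃ₐ[ℚ] AlgebraicClosure ℚ

variable {p : ℕ} {P : ValuationSubring (AlgebraicClosure ℚ)}

theorem one_mem_peuUnits (P : ValuationSubring (AlgebraicClosure ℚ)) :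
    (1 : AlgebraicClosure ℚ) ∈ peuUnits P :=
  ⟨P.one_mem, by rw [inv_one]; exact P.one_mem, one_ne_zero, fun s _ => map_one s⟩

/-- The peu ramifié inertia fixes the `p`-power roots of unity. -/
theorem Ipeu_fix_root {σ : Γℚ} (hσ : σ ∈ Ipeu p P) (n : ℕ) (μ : AlgebraicClosure ℚ)
    (hμ : μ ^ p ^ n = 1) : σ μ = μ :=
  hσ.2 μ n (by rw [hμ]; exact one_mem_peuUnits P)

/-- The peu ramifié inertia as a subgroup. -/
def IpeuSub (p : ℕ) (P : ValuationSubring (AlgebraicClosure ℚ)) : Subgroup Γℚ where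
  carrier := Ipeu p P
  mul_mem' := by
    rintro a b ⟨ha, ha'⟩ ⟨hb, hb'⟩
    refine ⟨mul_mem ha hb, fun y n h1 => ?_⟩
    rw [AlgEquiv.mul_apply, hb' y n h1, ha' y n h1]
  one_mem' := ⟨one_mem _, fun _ _ _ => rfl⟩
  inv_mem' := by
    rintro a ⟨ha, ha'⟩
    refine ⟨inv_mem ha, fun y n h1 => ?_⟩
    have := ha' y n h1
    calc a⁻¹ y = a⁻¹ (a y) := by rw [this]
      _ = y := by
        change (a⁻¹ * a) y = y
        rw [inv_mul_cancel]; rfl

theorem mem_IpeuSub {σ : Γℚ} : σ ∈ IpeuSub p P ↔ σ ∈ Ipeu p P := Iff.rfl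

/-- `Ipeu` is closed in the Krull topology. -/
theorem isClosed_Ipeu (p : ℕ) (P : ValuationSubring (AlgebraicClosure ℚ)) :
    IsClosed (Ipeu p P) := by
  have h1 : Ipeu p P = (P.inertiaSubgroupIn ℚ : Set Γℚ) ∩
      ⋂ (y : AlgebraicClosure ℚ), ⋂ (n : ℕ), ⋂ (_ : y ^ p ^ n ∈ peuUnits P),
        {σ : Γℚ | σ y ∈ ({y} : Set (AlgebraicClosure ℚ))} := by
    ext σ
    simp only [Ipeu, Set.mem_ofPred_eq, Set.mem_inter_iff, Set.mem_iInter,
      Set.mem_singleton_iff, SetLike.mem_coe]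
  rw [h1]
  exact (H59.isClosed_inertiaSubgroupIn P).inter
    (isClosed_iInter fun y => isClosed_iInter fun n => isClosed_iInter fun _ =>
      H59.isClosed_setOf_apply_mem y _)

/-- A `p ^ n`-th root of `p` is not zero. -/
theorem root_ne_zero (hp : p.Prime) {n : ℕ} {π₀ : AlgebraicClosure ℚ}
    (hπ₀ : π₀ ^ p ^ n = (p : AlgebraicClosure ℚ)) : π₀ ≠ 0 := by
  intro h0
  rw [h0, zero_pow (pow_ne_zero n hp.ne_zero)] at hπ₀
  exact (Nat.cast_ne_zero.2 hp.ne_zero) hπ₀.symm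

/-- The value of the Kummer character is a `p ^ n`-th root of unity. -/
theorem kum_pow (hp : p.Prime) {n : ℕ} {π₀ : AlgebraicClosure ℚ}
    (hπ₀ : π₀ ^ p ^ n = (p : AlgebraicClosure ℚ)) (σ : Γℚ) : (σ π₀ / π₀) ^ p ^ n = 1 := by
  rw [div_pow, ← map_pow, hπ₀, map_natCast]
  exact div_self (Nat.cast_ne_zero.2 hp.ne_zero)

/-- The Kummer character does not depend on the root. -/
theorem kum_indep (hp : p.Prime) {n : ℕ} {π₀ π₁ : AlgebraicClosure ℚ}
    (hπ₀ : π₀ ^ p ^ n = (p : AlgebraicClosure ℚ)) (hπ₁ : π₁ ^ p ^ n = (p : AlgebraicClosure ℚ))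
    {σ : Γℚ} (hσ : σ ∈ Ipeu p P) : σ π₁ / π₁ = σ π₀ / π₀ := by
  have h0 := root_ne_zero hp hπ₀
  have h1 := root_ne_zero hp hπ₁
  have hfix : σ (π₁ / π₀) = π₁ / π₀ := Ipeu_fix_root hσ n _ (by
    rw [div_pow, hπ₀, hπ₁]
    exact div_self (Nat.cast_ne_zero.2 hp.ne_zero))
  rw [map_div₀] at hfix
  have h2 : σ π₀ ≠ 0 := (map_ne_zero_iff σ σ.injective).2 h0
  field_simp at hfix ⊢
  rw [hfix]

/-- The Kummer character is multiplicative on `Ipeu`. -/
theorem kum_mul (hp : p.Prime) {n : ℕ} {π₀ : AlgebraicClosure ℚ}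
    (hπ₀ : π₀ ^ p ^ n = (p : AlgebraicClosure ℚ)) {σ : Γℚ} (hσ : σ ∈ Ipeu p P) (τ : Γℚ) :
    (σ * τ) π₀ / π₀ = (σ π₀ / π₀) * (τ π₀ / π₀) := by
  have h0 := root_ne_zero hp hπ₀
  have hfix : σ (τ π₀ / π₀) = τ π₀ / π₀ := Ipeu_fix_root hσ n _ (kum_pow hp hπ₀ τ)
  have h1 : τ π₀ = (τ π₀ / π₀) * π₀ := by
    field_simp
  rw [AlgEquiv.mul_apply]
  conv_lhs => rw [h1, map_mul, hfix]
  field_simp

/-- The Kummer character of `p` at the level `n`, on the peu ramifié inertia. -/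
noncomputable def kumHom (hp : p.Prime) (P : ValuationSubring (AlgebraicClosure ℚ)) (n : ℕ)
    (π₀ : AlgebraicClosure ℚ) (hπ₀ : π₀ ^ p ^ n = (p : AlgebraicClosure ℚ)) :
    IpeuSub p P →* (AlgebraicClosure ℚ)ˣ where
  toFun σ := Units.mk0 ((σ : Γℚ) π₀ / π₀)
    (div_ne_zero ((map_ne_zero_iff (σ : Γℚ) (σ : Γℚ).injective).2 (root_ne_zero hp hπ₀))
      (root_ne_zero hp hπ₀))
  map_one' := by
    apply Units.ext
    show (1 : Γℚ) π₀ / π₀ = 1
    exact div_self (root_ne_zero hp hπ₀)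
  map_mul' σ τ := by
    apply Units.ext
    exact kum_mul hp hπ₀ σ.2 τ

theorem kumHom_apply (hp : p.Prime) (n : ℕ) (π₀ : AlgebraicClosure ℚ)
    (hπ₀ : π₀ ^ p ^ n = (p : AlgebraicClosure ℚ)) (σ : IpeuSub p P) :
    ((kumHom hp P n π₀ hπ₀ σ : (AlgebraicClosure ℚ)ˣ) : AlgebraicClosure ℚ) =
      (σ : Γℚ) π₀ / π₀ := rfl

/-- At a given level, the image of the Kummer character is cyclic. -/
theorem exists_kum_generator_level (hp : p.Prime) (P : ValuationSubring (AlgebraicClosure ℚ))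
    (n : ℕ) (π₀ : AlgebraicClosure ℚ) (hπ₀ : π₀ ^ p ^ n = (p : AlgebraicClosure ℚ)) :
    ∃ τ ∈ Ipeu p P, ∀ σ ∈ Ipeu p P, ∃ m : ℕ, σ π₀ / π₀ = (τ π₀ / π₀) ^ m := by
  classical
  haveI : NeZero (p ^ n) := ⟨pow_ne_zero n hp.ne_zero⟩
  set K : Subgroup (AlgebraicClosure ℚ)ˣ := (kumHom hp P n π₀ hπ₀).range with hK
  have hle : K ≤ rootsOfUnity (p ^ n) (AlgebraicClosure ℚ) := by
    rintro u ⟨σ, rfl⟩
    rw [mem_rootsOfUnity]
    apply Units.ext
    rw [Units.val_pow_eq_pow_val, kumHom_apply, Units.val_one]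
    exact kum_pow hp hπ₀ _
  haveI : Finite K := Finite.of_injective _ (Subgroup.inclusion_injective hle)
  obtain ⟨x, hx⟩ := IsCyclic.exists_monoid_generator (α := K)
  obtain ⟨τ, hτ⟩ := x.2
  refine ⟨τ.1, τ.2, fun σ hσ => ?_⟩
  obtain ⟨m, hm⟩ := hx ⟨kumHom hp P n π₀ hπ₀ ⟨σ, hσ⟩, ⟨⟨σ, hσ⟩, rfl⟩⟩
  refine ⟨m, ?_⟩
  have h1 := congrArg (fun y : K => ((y : (AlgebraicClosure ℚ)ˣ) : AlgebraicClosure ℚ)) hm
  simp only [SubmonoidClass.coe_pow, Units.val_pow_eq_pow_val] at h1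
  rw [← hτ, kumHom_apply, kumHom_apply] at h1
  exact h1.symm

/-- `τ` generates the image of the Kummer character of `p` at the level `n`. -/
def KumGenAt (p : ℕ) (P : ValuationSubring (AlgebraicClosure ℚ)) (n : ℕ) (τ : Γℚ) : Prop :=
  ∀ π₀ : AlgebraicClosure ℚ, π₀ ^ p ^ n = (p : AlgebraicClosure ℚ) →
    ∀ σ ∈ Ipeu p P, ∃ m : ℕ, σ π₀ / π₀ = (τ π₀ / π₀) ^ m

theorem isClosed_setOf_kumGenAt (p : ℕ) (P : ValuationSubring (AlgebraicClosure ℚ)) (n : ℕ) :
    IsClosed {τ : Γℚ | KumGenAt p P n τ} := by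
  have h1 : {τ : Γℚ | KumGenAt p P n τ} =
      ⋂ (π₀ : AlgebraicClosure ℚ), ⋂ (_ : π₀ ^ p ^ n = (p : AlgebraicClosure ℚ)),
        {τ : Γℚ | τ π₀ ∈ {z : AlgebraicClosure ℚ |
          ∀ σ ∈ Ipeu p P, ∃ m : ℕ, σ π₀ / π₀ = (z / π₀) ^ m}} := by
    ext τ
    simp only [KumGenAt, Set.mem_ofPred_eq, Set.mem_iInter]
  rw [h1]
  exact isClosed_iInter fun π₀ => isClosed_iInter fun _ => H59.isClosed_setOf_apply_mem π₀ _

/-- A generator at the level `N` is a generator at every level `n ≤ N`. -/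
theorem KumGenAt.of_le (hp : p.Prime) {N n : ℕ} (hn : n ≤ N) {τ : Γℚ} (hτ : τ ∈ Ipeu p P)
    (h : KumGenAt p P N τ) : KumGenAt p P n τ := by
  intro π₀ hπ₀ σ hσ
  obtain ⟨π₁, hπ₁⟩ := IsAlgClosed.exists_pow_nat_eq (p : AlgebraicClosure ℚ)
    (pow_pos hp.pos N)
  obtain ⟨m, hm⟩ := h π₁ hπ₁ σ hσ
  refine ⟨m, ?_⟩
  have h1 := root_ne_zero hp hπ₁
  -- the root `π₁ ^ (p ^ (N - n))` of level `n`
  have hπ₂ : (π₁ ^ p ^ (N - n)) ^ p ^ n = (p : AlgebraicClosure ℚ) := by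
    rw [← pow_mul, ← pow_add, Nat.sub_add_cancel hn, hπ₁]
  have e : ∀ g : Γℚ, g (π₁ ^ p ^ (N - n)) / π₁ ^ p ^ (N - n) = (g π₁ / π₁) ^ p ^ (N - n) := by
    intro g
    rw [map_pow, div_pow]
  rw [kum_indep hp hπ₂ hπ₀ hσ, kum_indep hp hπ₂ hπ₀ hτ, e, e, hm, ← pow_mul, ← pow_mul, mul_comm]

/-- **A uniform generator of the Kummer character of `p` on the peu ramifié inertia.** -/
theorem exists_kum_generator (hp : p.Prime) (P : ValuationSubring (AlgebraicClosure ℚ)) :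
    ∃ τ₀ ∈ Ipeu p P, ∀ n : ℕ, KumGenAt p P n τ₀ := by
  classical
  haveI : IsGalois ℚ (AlgebraicClosure ℚ) := Fermat.Agent.Lib.InertiaLift.qbar_isGalois'
  have hfin : ∀ u : Finset ℕ,
      ((Ipeu p P : Set Γℚ) ∩ ⋂ n ∈ u, {τ : Γℚ | KumGenAt p P n τ}).Nonempty := by
    intro u
    obtain ⟨π₁, hπ₁⟩ := IsAlgClosed.exists_pow_nat_eq (p : AlgebraicClosure ℚ)
      (pow_pos hp.pos (u.sup id))
    obtain ⟨τ, hτ, hgen⟩ := exists_kum_generator_level hp P (u.sup id) π₁ hπ₁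
    have hN : KumGenAt p P (u.sup id) τ := by
      intro π₀ hπ₀ σ hσ
      obtain ⟨m, hm⟩ := hgen σ hσ
      exact ⟨m, by rw [kum_indep hp hπ₁ hπ₀ hσ, kum_indep hp hπ₁ hπ₀ hτ, hm]⟩
    refine ⟨τ, hτ, ?_⟩
    simp only [Set.mem_iInter]
    intro n hn
    exact KumGenAt.of_le hp (Finset.le_sup (f := id) hn) hτ hN
  obtain ⟨τ₀, hτ₀, hτ⟩ :=
    (isClosed_Ipeu p P).isCompact.inter_iInter_nonempty
      (fun n => {τ : Γℚ | KumGenAt p P n τ}) (fun n => isClosed_setOf_kumGenAt p P n) hfin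
  exact ⟨τ₀, hτ₀, fun n => Set.mem_iInter.1 hτ n⟩

end Fermat.Agent.S59.NonMin.H48

end
-- ==== END Fermat.Agent.S59.NonMin.H48_KumGen
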