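-- GENERATED (merged mirror, NOTES/tools/trim/merge3_helper67.py): 23 modules of the originals, bodies verbatim.
import Mathlib
import Fermat.Prelude.Def_GaloisRep_Flat
import Fermat.Prelude.Def_GaloisRep_CompletionBridge
import Fermat.Agent.Zm.S59_L01_001
import Fermat.Agent.Zm.S59_L01_002
import Fermat.Agent.Zm.S56_L02_000
import Fermat.Agent.Zm.S44_L01_004
import Fermat.Agent.Zm.S35_L01_004
import Fermat.Agent.Zm.S43_L11_001
import Fermat.Agent.Zm.S43_L08_001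
import Fermat.Agent.Zm.S43_L08_002
import Fermat.Agent.Zm.S43_L05_002
import Fermat.Agent.Zm.S43_L12_001
import Fermat.Agent.Zm.S48_L01_000
import Fermat.Agent.Zm.S43_L01_004
import Fermat.Agent.Zm.S33_L01_002
import Fermat.Agent.Zm.S35_L08_004
import Fermat.Agent.Zm.S59_L01_004
import Fermat.Agent.Zm.S35_L04_000
import Fermat.Agent.Zm.S35_L11_000
import Fermat.Agent.Zm.S43_L14_003
import Fermat.Agent.Zm.S43_L16_002
import Fermat.Agent.Zm.S56_L07_005
import Fermat.Agent.Zm.S35_L02_001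
import Fermat.Agent.Zm.S43_L14_002
import Fermat.Agent.Zm.S59_L01_005

-- ==== BEGIN Fermat.Agent.S27.REDu.H42_Riemann
section

/-!
# G-RED, package FF-R (helper42): Riemann's theorem, abstract form

`riemann`: from the hypotheses `Hyp K F` (principal divisors have degree `0`, places have
degree `1`, non-constant functions have a pole) and a transcendental `x` with `F / K(x)` finite
whose pole divisor has degree at most `[F : K(x)]`, there are `g` and `c` with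
`l(D) ≥ deg D + 1 - g` for all `D` and equality if `deg D ≥ c`.
-/

set_option autoImplicit false

universe uC uCf uK uR uF uL uE uk ukap uFp uFt uFtp uiot uEp uKp ux3b1

noncomputable section

open AlgebraicCurve IntermediateField WithZero Polynomial

namespace Fermat.Agent.S27.REDu.H42

variable {K F : Type*} [Field K] [Field F] [Algebra K F]

local notation "L" => riemannRochSpace

/-! ## Products and polynomials in `L(D)` -/

theorem mul_mem_L_add {D D' : Divisor K F} {f g : F} (hf : f ∈ L D) (hg : g ∈ L D') :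
    f * g ∈ L (D + D') := by
  intro v
  rw [map_mul, Finsupp.add_apply, exp_add]
  exact mul_le_mul' (hf v) (hg v)

theorem one_mem_L {D : Divisor K F} (hD : 0 ≤ D) : (1 : F) ∈ L D := by
  intro v
  rw [map_one, ← exp_zero, exp_le_exp]
  exact Finsupp.le_def.mp hD v

theorem algebraMap_mem_L {D : Divisor K F} (hD : 0 ≤ D) (c : K) : algebraMap K F c ∈ L D := by
  have := (L D).smul_mem c (one_mem_L hD)
  rwa [Algebra.smul_def, mul_one] at this

theorem pow_mem_L {B : Divisor K F} {x : F} (hx : x ∈ L B) (i : ℕ) : x ^ i ∈ L (i • B) := by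
  intro v
  rw [map_pow, Finsupp.smul_apply, exp_nsmul]
  exact pow_le_pow_left' (hx v) i

theorem nsmul_le_nsmul_of_nonneg {B : Divisor K F} (hB : 0 ≤ B) {i l : ℕ} (h : i ≤ l) :
    i • B ≤ l • B := by
  rw [Finsupp.le_def]
  intro v
  have h0 := Finsupp.le_def.mp hB v
  simp only [Finsupp.coe_zero, Pi.zero_apply] at h0
  rw [Finsupp.smul_apply, Finsupp.smul_apply, nsmul_eq_mul, nsmul_eq_mul]
  exact mul_le_mul_of_nonneg_right (by exact_mod_cast h) h0

theorem aeval_mem_L {B : Divisor K F} (hB : 0 ≤ B) {x : F} (hx : x ∈ L B) {l : ℕ} {p : K[X]}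
    (hp : p.natDegree ≤ l) : aeval x p ∈ L (l • B) := by
  rw [aeval_eq_sum_range]
  refine Submodule.sum_mem _ fun i hi => ?_
  refine Submodule.smul_mem _ _ ?_
  have hi' : i ≤ l := (Nat.lt_succ_iff.mp (Finset.mem_range.mp hi)).trans hp
  exact L_mono (nsmul_le_nsmul_of_nonneg hB hi') (pow_mem_L hx i)

theorem finrank_degreeLT (n : ℕ) : Module.finrank K (degreeLT K n) = n := by
  rw [(degreeLTEquiv K n).finrank_eq, Module.finrank_fin_fun]

theorem natDegree_le_of_mem_degreeLT {l : ℕ} {p : K[X]} (hp : p ∈ degreeLT K (l + 1)) :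
    p.natDegree ≤ l := by
  rw [mem_degreeLT] at hp
  by_cases hp0 : p = 0
  · simp [hp0]
  · rw [degree_eq_natDegree hp0] at hp
    have : p.natDegree < l + 1 := by exact_mod_cast hp
    omega


/-! ## The lower bound -/

/-- The `K`-linear map `(p_j) ↦ Σ p_j(x) b_j`. -/
def polyComb (x : F) {n : ℕ} (b : Fin n → F) (l : ℕ) :
    (Fin n → degreeLT K (l + 1)) →ₗ[K] F where
  toFun p := ∑ j, aeval x (p j : K[X]) * b j
  map_add' p q := by
    simp only [Pi.add_apply, Submodule.coe_add, map_add, add_mul, Finset.sum_add_distrib]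
  map_smul' c p := by
    simp only [Pi.smul_apply, Submodule.coe_smul, map_smul, RingHom.id_apply, Finset.smul_sum,
      smul_mul_assoc]

theorem polyComb_apply (x : F) {n : ℕ} (b : Fin n → F) (l : ℕ)
    (p : Fin n → degreeLT K (l + 1)) :
    polyComb x b l p = ∑ j, aeval x (p j : K[X]) * b j := rfl

theorem polyComb_injective {x : F} (hx : Transcendental K x) {n : ℕ} {b : Fin n → F}
    (hb : LinearIndependent K⟮x⟯ b) (l : ℕ) : Function.Injective (polyComb (K := K) x b l) := by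
  rw [injective_iff_map_eq_zero]
  intro p hp
  rw [polyComb_apply] at hp
  have h1 : ∑ j, (aeval (AdjoinSimple.gen K x) (p j : K[X]) : K⟮x⟯) • b j = 0 := by
    rw [← hp]
    refine Finset.sum_congr rfl fun j _ => ?_
    rw [Algebra.smul_def, IntermediateField.algebraMap_apply, AdjoinSimple.coe_aeval_gen_apply]
  have h2 := (Fintype.linearIndependent_iff.mp hb) _ h1
  funext j
  have h3 : aeval x (p j : K[X]) = 0 := by
    have := congrArg (fun z : K⟮x⟯ => (z : F)) (h2 j)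
    simpa using this
  have h4 : (p j : K[X]) = 0 := by
    by_contra hne
    exact hx ⟨_, hne, h3⟩
  exact Subtype.ext h4

theorem polyComb_mem {B C : Divisor K F} (hB : 0 ≤ B) {x : F} (hx : x ∈ L B) {n : ℕ}
    {b : Fin n → F} (hb : ∀ j, b j ∈ L C) (l : ℕ) (p : Fin n → degreeLT K (l + 1)) :
    polyComb x b l p ∈ L (l • B + C) := by
  rw [polyComb_apply]
  refine Submodule.sum_mem _ fun j _ => ?_
  exact mul_mem_L_add (aeval_mem_L hB hx (natDegree_le_of_mem_degreeLT (p j).2)) (hb j)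

/-- The lower bound `n (l + 1) ≤ l(l B + C)`. -/
theorem le_finrank_L {B C : Divisor K F} (hB : 0 ≤ B) {x : F} (hx : x ∈ L B)
    (hxt : Transcendental K x) {n : ℕ} {b : Fin n → F} (hbi : LinearIndependent K⟮x⟯ b)
    (hb : ∀ j, b j ∈ L C) (l : ℕ) (hfin : Module.Finite K (L (l • B + C))) :
    n * (l + 1) ≤ Module.finrank K (L (l • B + C)) := by
  let Φ : (Fin n → degreeLT K (l + 1)) →ₗ[K] L (l • B + C) :=
    LinearMap.codRestrict _ (polyComb x b l) (polyComb_mem hB hx hb l)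
  have hΦ : Function.Injective Φ := by
    intro p q hpq
    apply polyComb_injective hxt hbi l
    exact congrArg Subtype.val hpq
  have h1 := LinearMap.finrank_le_finrank_of_injective hΦ
  rw [Module.finrank_pi_fintype] at h1
  simp only [finrank_degreeLT, Finset.sum_const, Finset.card_univ, Fintype.card_fin,
    smul_eq_mul] at h1
  exact h1


/-! ## The defect `deg D + 1 - l(D)` -/

/-- The defect `deg D + 1 - l(D)`. -/
def defect (D : Divisor K F) : ℤ :=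
  Divisor.degree D + 1 - (Module.finrank K (L D) : ℤ)

theorem defect_def (D : Divisor K F) :
    defect D = Divisor.degree D + 1 - (Module.finrank K (L D) : ℤ) := rfl

variable (H : Hyp K F)
include H

theorem defect_zero : defect (0 : Divisor K F) = 0 := by
  rw [defect_def, finrank_L_zero H, map_zero]
  simp

theorem defect_mono {D D' : Divisor K F} (h : D ≤ D') : defect D ≤ defect D' := by
  have := finrank_le_add H.deg_one h (finite_L H D)
  rw [defect_def, defect_def]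
  omega

theorem defect_add_principal {D E : Divisor K F} {f : F} (hf : f ≠ 0)
    (hE : ∀ v, E v = v.ord f) : defect (D + E) = defect D := by
  obtain ⟨E', hE', hE'0⟩ := H.principal f hf
  have hEE : E = E' := by
    ext v
    rw [hE v, hE' v]
  rw [defect_def, defect_def, finrank_L_add_principal H hf hE, map_add, hEE, hE'0, add_zero]

/-- Every function lies in `L(C)` for some `C ≥ 0`. -/
theorem exists_nonneg_mem_L (f : F) : ∃ C : Divisor K F, 0 ≤ C ∧ f ∈ L C := by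
  by_cases hf : f = 0
  · exact ⟨0, le_rfl, hf ▸ Submodule.zero_mem _⟩
  · obtain ⟨E, hE, -⟩ := H.principal f hf
    refine ⟨(-E) ⊔ 0, le_sup_right, ?_⟩
    rw [mem_riemannRochSpace_iff]
    intro v
    right
    rw [← hE v]
    have h1 : (-E) v ≤ ((-E) ⊔ 0 : Divisor K F) v := Finsupp.le_def.mp le_sup_left v
    rw [Finsupp.neg_apply] at h1
    omega

theorem exists_nonneg_forall_mem_L {n : ℕ} (b : Fin n → F) :
    ∃ C : Divisor K F, 0 ≤ C ∧ ∀ j, b j ∈ L C := by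
  choose C hC0 hC using fun j => exists_nonneg_mem_L H (b j)
  refine ⟨∑ j, C j, Finset.sum_nonneg fun j _ => hC0 j, fun j => ?_⟩
  exact L_mono (Finset.single_le_sum (fun i _ => hC0 i) (Finset.mem_univ j)) (hC j)

/-- If `L(D - A)` contains a nonzero function, then `defect A ≤ defect D`. -/
theorem defect_le_of_ne_bot {A D : Divisor K F} (h : L (D - A) ≠ ⊥) : defect A ≤ defect D := by
  obtain ⟨z, hz, hz0⟩ := (Submodule.ne_bot_iff _).mp h
  obtain ⟨E, hE, -⟩ := H.principal z hz0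
  have h1 : A ≤ D + E := by
    rw [Finsupp.le_def]
    intro v
    rcases (mem_riemannRochSpace_iff.mp hz) v with h0 | h0
    · exact absurd h0 hz0
    · rw [Finsupp.add_apply, hE v]
      rw [Finsupp.sub_apply] at h0
      omega
  calc defect A ≤ defect (D + E) := defect_mono H h1
    _ = defect D := defect_add_principal H hz0 hE

/-- `l(D - A) ≥ l(D) - deg A` for `A ≥ 0`. -/
theorem finrank_L_sub_ge {A D : Divisor K F} (hA : 0 ≤ A) :
    (Module.finrank K (L D) : ℤ) - Divisor.degree A ≤ Module.finrank K (L (D - A)) := by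
  have h1 : D - A ≤ D := sub_le_self D hA
  have := finrank_le_add H.deg_one h1 (finite_L H (D - A))
  rw [map_sub] at this
  omega


/-! ## The Riemann bound -/

/-- Lower bound for `l(l B)`. -/
theorem le_finrank_L_nsmul {B C : Divisor K F} (hB : 0 ≤ B) {x : F} (hx : x ∈ L B)
    (hxt : Transcendental K x) {n : ℕ} {b : Fin n → F} (hbi : LinearIndependent K⟮x⟯ b)
    (hb : ∀ j, b j ∈ L C) (hC : 0 ≤ C) (l : ℕ) :
    ((n * (l + 1) : ℕ) : ℤ) - Divisor.degree C ≤ Module.finrank K (L (l • B)) := by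
  have h1 := le_finrank_L hB hx hxt hbi hb l (finite_L H _)
  have h2 : l • B ≤ l • B + C := le_add_of_nonneg_right hC
  have h3 := finrank_le_add H.deg_one h2 (finite_L H _)
  rw [map_add] at h3
  have h1' : ((n * (l + 1) : ℕ) : ℤ) ≤ Module.finrank K (L (l • B + C)) := by exact_mod_cast h1
  omega

/-- The defect is bounded above. -/
theorem defect_le_of_basis {B C : Divisor K F} (hB : 0 ≤ B) {x : F} (hx : x ∈ L B)
    (hxt : Transcendental K x) {n : ℕ} (hn : 0 < n) (hBn : Divisor.degree B ≤ n)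
    {b : Fin n → F} (hbi : LinearIndependent K⟮x⟯ b)
    (hb : ∀ j, b j ∈ L C) (hC : 0 ≤ C) (A : Divisor K F) :
    defect A ≤ Divisor.degree C + 1 - n := by
  -- bound for `l • B`
  have hlB : ∀ l : ℕ, defect (l • B) ≤ Divisor.degree C + 1 - n := by
    intro l
    have h1 := le_finrank_L_nsmul H hB hx hxt hbi hb hC l
    rw [defect_def, map_nsmul, nsmul_eq_mul]
    push_cast at h1
    have h2 : (l : ℤ) * Divisor.degree B ≤ l * n :=
      mul_le_mul_of_nonneg_left hBn (by positivity)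
    nlinarith
  -- reduce to `A ≥ 0`
  have hA1 : defect A ≤ defect (A ⊔ 0) := defect_mono H le_sup_left
  have hA0 : (0 : Divisor K F) ≤ A ⊔ 0 := le_sup_right
  set A₁ := A ⊔ 0 with hA₁
  have hdA : 0 ≤ Divisor.degree A₁ := degree_nonneg hA0
  have hdC : 0 ≤ Divisor.degree C := degree_nonneg hC
  -- choose `l` large
  set l : ℕ := (Divisor.degree C + Divisor.degree A₁).toNat with hl
  have hl' : (l : ℤ) = Divisor.degree C + Divisor.degree A₁ := Int.toNat_of_nonneg (by omega)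
  have h1 := le_finrank_L_nsmul H hB hx hxt hbi hb hC l
  have h2 := finrank_L_sub_ge H (D := l • B) hA0
  have h3 : (0 : ℤ) < Module.finrank K (L (l • B - A₁)) := by
    push_cast at h1
    have hn' : (1 : ℤ) ≤ n := by exact_mod_cast hn
    have h4 : (l : ℤ) + 1 ≤ n * (l + 1) := by nlinarith
    omega
  have h4 : L (l • B - A₁) ≠ ⊥ := by
    intro hbot
    rw [hbot, finrank_bot] at h3
    simp at h3
  exact hA1.trans ((defect_le_of_ne_bot H h4).trans (hlB l))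

/-- **Riemann's theorem**, abstract form. -/
theorem riemann_of_bound {γ : ℤ} (hγ : ∀ A : Divisor K F, defect A ≤ γ) :
    ∃ (g : ℕ) (c : ℤ), ∀ D : Divisor K F,
      Divisor.degree D + 1 - g ≤ (Module.finrank K (L D) : ℤ) ∧
      (c ≤ Divisor.degree D →
        (Module.finrank K (L D) : ℤ) = Divisor.degree D + 1 - g) := by
  obtain ⟨g, ⟨A₀, hA₀⟩, hmax⟩ := Int.exists_greatest_of_bdd
    (P := fun z => ∃ A : Divisor K F, defect A = z) ⟨γ, fun z ⟨A, hA⟩ => hA ▸ hγ A⟩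
    ⟨0, 0, defect_zero H⟩
  have hg0 : 0 ≤ g := hmax 0 ⟨0, defect_zero H⟩
  have hle : ∀ D : Divisor K F, defect D ≤ g := fun D => hmax _ ⟨D, rfl⟩
  refine ⟨g.toNat, Divisor.degree A₀ + g, fun D => ?_⟩
  have hgn : ((g.toNat : ℕ) : ℤ) = g := Int.toNat_of_nonneg hg0
  rw [hgn]
  have h1 := hle D
  rw [defect_def] at h1
  refine ⟨by omega, fun hc => ?_⟩
  -- `L(D - A₀) ≠ 0`
  have h2 := hle (D - A₀)
  rw [defect_def, map_sub] at h2
  have h3 : L (D - A₀) ≠ ⊥ := by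
    intro hbot
    rw [hbot, finrank_bot] at h2
    simp only [Nat.cast_zero, sub_zero] at h2
    omega
  have h4 := defect_le_of_ne_bot H h3
  rw [hA₀, defect_def] at h4
  omega



/-- **Riemann's theorem** from `Hyp` and the bound on the pole divisor of `x`. -/
theorem riemann {x : F} (hxt : Transcendental K x) [Module.Finite K⟮x⟯ F]
    {B : Divisor K F} (hB : 0 ≤ B) (hx : x ∈ L B)
    (hBn : Divisor.degree B ≤ (Module.finrank K⟮x⟯ F : ℤ)) :
    ∃ (g : ℕ) (c : ℤ), ∀ D : Divisor K F,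
      Divisor.degree D + 1 - g ≤ (Module.finrank K (L D) : ℤ) ∧
      (c ≤ Divisor.degree D →
        (Module.finrank K (L D) : ℤ) = Divisor.degree D + 1 - g) := by
  have hn : 0 < Module.finrank K⟮x⟯ F := Module.finrank_pos
  let b := Module.finBasis K⟮x⟯ F
  obtain ⟨C, hC, hb⟩ := exists_nonneg_forall_mem_L H (fun j => b j)
  exact riemann_of_bound H
    (defect_le_of_basis H hB hx hxt hn hBn b.linearIndependent hb hC)

end Fermat.Agent.S27.REDu.H42

end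
end
-- ==== END Fermat.Agent.S27.REDu.H42_Riemann

-- ==== BEGIN Fermat.Agent.S39.WiringD
section

set_option autoImplicit false
set_option synthInstance.maxHeartbeats 400000
set_option maxHeartbeats 1000000

noncomputable section

open WeierstrassCurve WeierstrassCurve.Affine WeierstrassCurve.Affine.Point
open scoped WeierstrassCurve.Affine

namespace Fermat.Agent.S39

open Fermat.Agent.S44 Fermat.Agent.L

/-- **Steinberg shape at `p`, strong form**: a proper nonzero submodule `L`, stable under the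
decomposition group, such that inertia acts trivially on `V / L` and the square of every element
of the decomposition group acts trivially on `V / L`. -/
def SteinbergShapeD (p : ℕ) (A : ValuationSubring (AlgebraicClosure ℚ))
    {V : Type} [AddCommGroup V] [Module (ZMod p) V] (ρ : GQ →* Module.End (ZMod p) V) : Prop :=
  ∃ L : Submodule (ZMod p) V, L ≠ ⊥ ∧ L ≠ ⊤ ∧
    (∀ σ ∈ A.decompositionSubgroup ℚ, ∀ x ∈ L, ρ σ x ∈ L) ∧
    (∀ σ ∈ A.inertiaSubgroupIn ℚ, ∀ x : V, ρ σ x - x ∈ L) ∧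
    (∀ σ ∈ A.decompositionSubgroup ℚ, ∀ x : V, ρ (σ * σ) x - x ∈ L)

theorem SteinbergShapeD.toAt {p : ℕ} {A : ValuationSubring (AlgebraicClosure ℚ)}
    {V : Type} [AddCommGroup V] [Module (ZMod p) V] {ρ : GQ →* Module.End (ZMod p) V}
    (h : SteinbergShapeD p A ρ) : SteinbergShapeAt p A ρ := by
  obtain ⟨L, h1, h2, h3, h4, h5⟩ := h
  exact ⟨L, h1, h2, h3, h4, fun σ hσ x => h5 σ hσ.mem_decompositionSubgroup x⟩

/-- **OLD-NEW at `p`**, strong form. -/
def Stmt_OldNewPD : Prop :=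
  ∀ (W : WeierstrassCurve ℤ), W.Δ ≠ 0 → ∀ (p : ℕ), p.Prime → p ≠ 2 →
    W.IsGoodPrimeFor p → W.ModRepIsIrreducible p →
    ∀ (M : ℕ), 0 < M → p ∣ M → ¬ p ^ 2 ∣ M → W.IsResiduallyModularOfLevel p M →
    W.IsResiduallyModularOfLevel p (M / p) ∨
      ∀ A : ValuationSubring (AlgebraicClosure ℚ), A.LiesOverPrime p →
        SteinbergShapeD p A (rhoTors W p)

theorem Stmt_OldNewPD.toOldNewP (h : Stmt_OldNewPD) : Stmt_OldNewP :=
  fun W hΔ p hp hp2 hgood hirr M hM hpM hp2M hmod =>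
    (h W hΔ p hp hp2 hgood hirr M hM hpM hp2M hmod).imp id
      (fun h' A hA => (h' A hA).toAt)

/-- **FIN-GOOD**, for the strong form of the Steinberg shape. -/
def Stmt_FinGoodD : Prop :=
  ∀ (W : WeierstrassCurve ℤ), W.Δ ≠ 0 → ∀ (p : ℕ), p.Prime → p ≠ 2 →
    W.IsGoodPrimeFor p → W.ModRepIsIrreducible p →
    ∀ A : ValuationSubring (AlgebraicClosure ℚ), A.LiesOverPrime p →
      SteinbergShapeD p A (rhoTors W p) → IsFiniteAt p A (rhoTors W p)

/-- **S40 from the leaves**, second form.  The conclusion is the frozen statement S40. -/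
theorem result40_of_leavesD (hR : Stmt_RemovesPGen) (hON : Stmt_OldNewPD)
    (hFG : Stmt_FinGoodD)
    (W : WeierstrassCurve ℤ) (hΔ : W.Δ ≠ 0)
    {p : ℕ} (hp : p.Prime) (hp2 : p ≠ 2)
    (hgood : W.IsGoodPrimeFor p)
    (hirr : W.ModRepIsIrreducible p)
    {M : ℕ} (hM : 0 < M) (hpM : p ∣ M) (hp2M : ¬ p ^ 2 ∣ M)
    (hmod : W.IsResiduallyModularOfLevel p M) :
    W.IsResiduallyModularOfLevel p (M / p) := by
  rcases hON W hΔ p hp hp2 hgood hirr M hM hpM hp2M hmod with h | h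
  · exact h
  · obtain ⟨A, hAp⟩ := stmt_PlaceOver p hp
    exact lower_of_isFiniteAt hR W hΔ hp hp2 hirr hM hpM hp2M hmod A hAp
      (hFG W hΔ p hp hp2 hgood hirr A hAp (h A hAp))

/-- **S39 from the leaves**, second form.  The conclusion is the frozen statement S39. -/
theorem result39_of_leavesD (hR : Stmt_RemovesPGen) (hFM : Stmt_FinMult) (hON : Stmt_OldNewPD)
    (hFG : Stmt_FinGoodD)
    (W : WeierstrassCurve ℤ) (hΔ : W.Δ ≠ 0)
    {p : ℕ} (hp : p.Prime) (hp2 : p ≠ 2)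
    (hsemi : (p : ℤ) ∣ W.Δ → ¬ (p : ℤ) ∣ W.c₄)
    (hirr : W.ModRepIsIrreducible p)
    (hfin : (W.map (Int.castRingHom ℚ)).IsPeuRamifieeAt p p)
    {M : ℕ} (hM : 0 < M) (hpM : p ∣ M) (hp2M : ¬ p ^ 2 ∣ M)
    (hmod : W.IsResiduallyModularOfLevel p M) :
    W.IsResiduallyModularOfLevel p (M / p) := by
  by_cases hbad : (p : ℤ) ∣ W.Δ
  · obtain ⟨A, hAp⟩ := stmt_PlaceOver p hp
    exact lower_of_isFiniteAt hR W hΔ hp hp2 hirr hM hpM hp2M hmod A hAp
      (hFM W hΔ p hp hp2 hbad (hsemi hbad) hfin A hAp)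
  · exact result40_of_leavesD hR hON hFG W hΔ hp hp2 hbad hirr hM hpM hp2M hmod

end Fermat.Agent.S39

end
end
-- ==== END Fermat.Agent.S39.WiringD

-- ==== BEGIN Fermat.Agent.S41.H19_IharaMob
section

/-!
# S41, Ihara leaf A (helper19): Möbius action on `X = {r : den r prime to N}` and the period
function `P_x`
-/

set_option autoImplicit false

open scoped MatrixGroups
open CongruenceSubgroup Matrix

namespace Fermat.Agent.S41.Ihara

open Fermat.Agent.S41 Fermat.Agent.S41.H19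

/-! ### `InX` -/

lemma inX_of_eq_div {N : ℕ} {r : ℚ} (n m : ℤ) (hm : IsCoprime m (N : ℤ)) (h : r = (n : ℚ) / (m : ℚ)) :
    InX N r := by
  have h1 : ((Rat.divInt n m).den : ℤ) ∣ m := Rat.den_dvd n m
  rw [Rat.divInt_eq_div] at h1
  rw [← h] at h1
  have h2 : IsCoprime (r.den : ℤ) (N : ℤ) := hm.of_isCoprime_of_dvd_left h1
  exact Nat.isCoprime_iff_coprime.mp h2

lemma InX.isCoprime {N : ℕ} {r : ℚ} (h : InX N r) : IsCoprime (r.den : ℤ) (N : ℤ) :=
  Nat.isCoprime_iff_coprime.mpr h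

lemma inX_zero (N : ℕ) : InX N 0 := by
  unfold InX
  simp

lemma inX_intCast (N : ℕ) (n : ℤ) : InX N (n : ℚ) := by
  unfold InX
  simp

lemma ne_zero_of_isCoprime {N : ℕ} (hN : 2 ≤ N) {m : ℤ} (hm : IsCoprime m (N : ℤ)) : m ≠ 0 := by
  rintro rfl
  have := isCoprime_zero_left.mp hm
  have h1 : (N : ℤ) ∣ 1 := this.dvd
  have h2 := Int.le_of_dvd one_pos h1
  omega

/-! ### `mob` -/

lemma mob_one (r : ℚ) : mob 1 r = r := by
  simp [mob]

lemma mob_mul (M M' : Matrix (Fin 2) (Fin 2) ℤ) (r : ℚ)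
    (h : (M' 1 0 : ℚ) * r + (M' 1 1 : ℚ) ≠ 0) : mob (M * M') r = mob M (mob M' r) := by
  simp only [mob, Matrix.mul_apply, Fin.sum_univ_two]
  push_cast
  have e1 : (M 1 0 : ℚ) * (((M' 0 0 : ℚ) * r + M' 0 1) / ((M' 1 0 : ℚ) * r + M' 1 1)) + M 1 1
      = ((M 1 0 : ℚ) * ((M' 0 0 : ℚ) * r + M' 0 1) + M 1 1 * ((M' 1 0 : ℚ) * r + M' 1 1))
        / ((M' 1 0 : ℚ) * r + M' 1 1) := by
    rw [mul_div_assoc', div_add' _ _ _ h]
  have e2 : (M 0 0 : ℚ) * (((M' 0 0 : ℚ) * r + M' 0 1) / ((M' 1 0 : ℚ) * r + M' 1 1)) + M 0 1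
      = ((M 0 0 : ℚ) * ((M' 0 0 : ℚ) * r + M' 0 1) + M 0 1 * ((M' 1 0 : ℚ) * r + M' 1 1))
        / ((M' 1 0 : ℚ) * r + M' 1 1) := by
    rw [mul_div_assoc', div_add' _ _ _ h]
  rw [e1, e2, div_div_div_cancel_right₀ h]
  congr 1 <;> ring

section Gamma0

variable {N : ℕ}

lemma isCoprime_mat11 (g : Gamma0 N) : IsCoprime (mat g 1 1) (N : ℤ) := by
  obtain ⟨c, hc⟩ := mat_dvd g
  have hdet := mat_det' g
  refine ⟨mat g 0 0, -(mat g 0 1 * c), ?_⟩
  rw [hc] at hdet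
  linear_combination hdet

/-- Numerator and denominator of `g r`. -/
lemma mob_eq_div (g : Gamma0 N) (r : ℚ) :
    mob (mat g) r = ((mat g 0 0 * r.num + mat g 0 1 * r.den : ℤ) : ℚ)
      / ((mat g 1 0 * r.num + mat g 1 1 * r.den : ℤ) : ℚ) := by
  have hd : (r.den : ℚ) ≠ 0 := by exact_mod_cast r.den_nz
  conv_lhs => rw [mob, ← Rat.num_div_den r]
  push_cast
  field_simp

lemma isCoprime_denom (g : Gamma0 N) {r : ℚ} (hr : InX N r) :
    IsCoprime (mat g 1 0 * r.num + mat g 1 1 * r.den) (N : ℤ) := by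
  obtain ⟨c, hc⟩ := mat_dvd g
  have h1 : IsCoprime (mat g 1 1 * (r.den : ℤ)) (N : ℤ) := (isCoprime_mat11 g).mul_left hr.isCoprime
  rw [hc]
  have : (N : ℤ) * c * r.num + mat g 1 1 * r.den = mat g 1 1 * r.den + (c * r.num) * N := by ring
  rw [this]
  exact (IsCoprime.add_mul_right_left_iff).mpr h1

lemma denom_ne_zero (hN : 2 ≤ N) (g : Gamma0 N) {r : ℚ} (hr : InX N r) :
    (mat g 1 0 : ℚ) * r + (mat g 1 1 : ℚ) ≠ 0 := by
  have hd : (r.den : ℚ) ≠ 0 := by exact_mod_cast r.den_nz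
  have h1 := ne_zero_of_isCoprime hN (isCoprime_denom g hr)
  intro h0
  apply h1
  have h2 : ((mat g 1 0 * r.num + mat g 1 1 * r.den : ℤ) : ℚ) = 0 := by
    push_cast
    have : (r.num : ℚ) = r * r.den := (Rat.mul_den_eq_num r).symm
    rw [this]
    linear_combination (r.den : ℚ) * h0
  exact_mod_cast h2

lemma inX_mob (g : Gamma0 N) {r : ℚ} (hr : InX N r) : InX N (mob (mat g) r) :=
  inX_of_eq_div _ _ (isCoprime_denom g hr) (mob_eq_div g r)

lemma mob_mat_mul (hN : 2 ≤ N) (g h : Gamma0 N) {r : ℚ} (hr : InX N r) :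
    mob (mat (g * h)) r = mob (mat g) (mob (mat h) r) := by
  rw [mat_mul, mob_mul _ _ _ (denom_ne_zero hN h hr)]

/-- `X = Gamma0 N · 0`. -/
lemma exists_mob_zero {r : ℚ} (hr : InX N r) : ∃ g : Gamma0 N, mob (mat g) 0 = r := by
  have h1 : IsCoprime (r.den : ℤ) (r.num * N) := by
    apply IsCoprime.mul_right _ hr.isCoprime
    have := r.reduced
    exact (Int.isCoprime_iff_gcd_eq_one.mpr (by
      rw [Int.gcd_comm]
      exact_mod_cast this))
  obtain ⟨a, c, hac⟩ := h1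
  refine ⟨mkG0 N a r.num (-(c * N)) r.den (by linear_combination hac) ⟨-c, by ring⟩, ?_⟩
  rw [mat_mkG0]
  simp only [mob, Matrix.of_apply, Matrix.cons_val', Matrix.cons_val_zero, Matrix.cons_val_one,
    Matrix.empty_val', Matrix.cons_val_fin_one, mul_zero, zero_add]
  push_cast
  exact Rat.num_div_den r

lemma mob_zero (g : Gamma0 N) : mob (mat g) 0 = (mat g 0 1 : ℚ) / (mat g 1 1 : ℚ) := by
  simp [mob]

lemma mat11_ne_zero (hN : 2 ≤ N) (g : Gamma0 N) : mat g 1 1 ≠ 0 :=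
  ne_zero_of_isCoprime hN (isCoprime_mat11 g)

end Gamma0

/-! ### The period function -/

section Period

variable {N : ℕ} {A : Type*} [AddCommGroup A]

/-- Elements of `Gamma0 N` with the same image of `0` have the same value under a cuspidal hom. -/
lemma cusp_eq_of_mob_zero_eq (hN : 2 ≤ N) (x : Additive (Gamma0 N) →+ A)
    (hx : IsCuspidalHom (Gamma0 N) x) (g g' : Gamma0 N) (h : mob (mat g) 0 = mob (mat g') 0) :
    x (Additive.ofMul g) = x (Additive.ofMul g') := by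
  rw [mob_zero, mob_zero] at h
  have h11 : (mat g 1 1 : ℚ) ≠ 0 := by exact_mod_cast mat11_ne_zero hN g
  have h11' : (mat g' 1 1 : ℚ) ≠ 0 := by exact_mod_cast mat11_ne_zero hN g'
  rw [div_eq_div_iff h11 h11'] at h
  have hz : mat g 0 1 * mat g' 1 1 = mat g' 0 1 * mat g 1 1 := by exact_mod_cast h
  obtain ⟨k, hk⟩ : ∃ k : Gamma0 N, k = g⁻¹ * g' := ⟨_, rfl⟩
  have e1 : g * k = g' := by rw [hk]; group
  have e1' : mat g * mat k = mat g' := congrArg mat e1
  have e01 := congrFun (congrFun e1' 0) 1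
  have e11 := congrFun (congrFun e1' 1) 1
  simp only [Matrix.mul_apply, Fin.sum_univ_two] at e01 e11
  have hdet := mat_det' g
  have hk01 : mat k 0 1 = 0 := by
    have : (mat g 0 0 * mat g 1 1 - mat g 0 1 * mat g 1 0) * mat k 0 1 = 0 := by
      rw [← e01, ← e11] at hz
      linear_combination -hz
    rw [hdet, one_mul] at this
    exact this
  have hdk := mat_det' k
  rw [hk01, zero_mul, sub_zero] at hdk
  have htr : (mat k).trace ^ 2 ≤ 4 := by
    rw [Matrix.trace_fin_two]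
    rcases Int.eq_one_or_neg_one_of_mul_eq_one' hdk with ⟨h1, h2⟩ | ⟨h1, h2⟩ <;>
      rw [h1, h2] <;> norm_num
  have hxk : x (Additive.ofMul k) = 0 := hx k htr
  rw [← e1]
  change x (Additive.ofMul g) = x (Additive.ofMul g + Additive.ofMul k)
  rw [map_add, hxk, add_zero]

open Classical in
/-- The period function `P_x` of a cuspidal hom `x`: `P_x (g · 0) = x g`. -/
noncomputable def Pfn (x : Additive (Gamma0 N) →+ A) (r : ℚ) : A :=
  if h : ∃ g : Gamma0 N, mob (mat g) 0 = r then x (Additive.ofMul h.choose) else 0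

lemma Pfn_mob_zero (hN : 2 ≤ N) (x : Additive (Gamma0 N) →+ A)
    (hx : IsCuspidalHom (Gamma0 N) x) (g : Gamma0 N) :
    Pfn x (mob (mat g) 0) = x (Additive.ofMul g) := by
  have h : ∃ g' : Gamma0 N, mob (mat g') 0 = mob (mat g) 0 := ⟨g, rfl⟩
  unfold Pfn
  rw [dif_pos h]
  exact cusp_eq_of_mob_zero_eq hN x hx _ _ h.choose_spec

lemma Pfn_mob (hN : 2 ≤ N) (x : Additive (Gamma0 N) →+ A)
    (hx : IsCuspidalHom (Gamma0 N) x) (g : Gamma0 N) {r : ℚ} (hr : InX N r) :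
    Pfn x (mob (mat g) r) = Pfn x r + x (Additive.ofMul g) := by
  obtain ⟨h, rfl⟩ := exists_mob_zero hr
  rw [← mob_mat_mul hN g h (inX_zero N), Pfn_mob_zero hN x hx, Pfn_mob_zero hN x hx]
  change x (Additive.ofMul g + Additive.ofMul h) = _
  rw [map_add, add_comm]

lemma Pfn_zero (hN : 2 ≤ N) (x : Additive (Gamma0 N) →+ A)
    (hx : IsCuspidalHom (Gamma0 N) x) : Pfn x 0 = 0 := by
  have := Pfn_mob_zero hN x hx 1
  rw [mat_one, mob_one] at this
  rw [this]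
  exact map_zero x

end Period

end Fermat.Agent.S41.Ihara

end
-- ==== END Fermat.Agent.S41.H19_IharaMob

-- ==== BEGIN Fermat.Agent.S41.H37_IharaOrbit
section

/-!
# S41, Ihara's lemma by the Kummer–Hecke route: leaf C (Step 4, the orbit sum)

`stmt_IhC : Stmt_IhC`.  For `F : ℚ → ZMod p` invariant under `r ↦ q² r` and under translations by
`ℤ[1/q]`, and a prime `ℓ ≡ 1 mod m` (`m r ∈ ℤ[1/q]`) with `p ∣ ord_ℓ(q^(2k))`, `q^(2k) ≡ 1 mod m`:
`TT ℓ F r = 2 F r`, because `(r + j)/ℓ ≡ r + i/ℓ mod ℤ[1/q]` and `i ↦ F (r + i/ℓ)` is constant on the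
orbits of multiplication by `q^(2k)` on `(ℤ/ℓ)^×`, which all have `ord_ℓ(q^(2k)) ≡ 0 mod p` elements.

Also here: elementary closure lemmas for `InX`, `InZq` (used by leaf B as well).
-/

set_option autoImplicit false

open Finset

namespace Fermat.Agent.S41.H37

open Fermat.Agent.S41.Ihara

theorem inX_add {N : ℕ} {a b : ℚ} (ha : InX N a) (hb : InX N b) : InX N (a + b) := by
  unfold InX at *
  exact Nat.Coprime.coprime_dvd_left (Rat.add_den_dvd a b) (Nat.Coprime.mul_left ha hb)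

theorem inX_mul {N : ℕ} {a b : ℚ} (ha : InX N a) (hb : InX N b) : InX N (a * b) := by
  unfold InX at *
  exact Nat.Coprime.coprime_dvd_left (Rat.mul_den_dvd a b) (Nat.Coprime.mul_left ha hb)

theorem inX_intCast (N : ℕ) (z : ℤ) : InX N (z : ℚ) := by
  unfold InX
  simp

theorem inX_natCast (N : ℕ) (n : ℕ) : InX N (n : ℚ) := by
  unfold InX
  simp

theorem inX_inv_natCast {N ℓ : ℕ} (h : ℓ.Coprime N) : InX N ((ℓ : ℚ)⁻¹) := by
  unfold InX
  rcases Nat.eq_zero_or_pos ℓ with h0 | hpos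
  · subst h0; simp
  · rw [Rat.inv_natCast_den_of_pos hpos]
    exact h

theorem inX_inv_pow {N q : ℕ} (h : q.Coprime N) (n : ℕ) : InX N (((q : ℚ) ^ n)⁻¹) := by
  have := inX_inv_natCast (N := N) (ℓ := q ^ n) (Nat.Coprime.pow_left n h)
  simpa using this

theorem inZq_iff {q : ℕ} {t : ℚ} : InZq q t ↔ ∃ (k : ℕ) (z : ℤ), (q : ℚ) ^ k * t = z := by
  constructor
  · rintro ⟨k, hk⟩
    exact ⟨k, ((q : ℚ) ^ k * t).num, ((Rat.den_eq_one_iff _).1 hk).symm⟩
  · rintro ⟨k, z, h⟩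
    exact ⟨k, by rw [h]; exact Rat.den_intCast z⟩

theorem inZq_of_eq_div {q : ℕ} (hq : q ≠ 0) (z : ℤ) (n : ℕ) : InZq q ((z : ℚ) / (q : ℚ) ^ n) := by
  rw [inZq_iff]
  refine ⟨n, z, ?_⟩
  have : ((q : ℚ) ^ n) ≠ 0 := pow_ne_zero _ (by exact_mod_cast hq)
  field_simp

theorem inZq_exists {q : ℕ} (hq : q ≠ 0) {t : ℚ} (h : InZq q t) :
    ∃ (k : ℕ) (z : ℤ), t = (z : ℚ) / (q : ℚ) ^ k := by
  obtain ⟨k, z, hz⟩ := inZq_iff.1 h
  refine ⟨k, z, ?_⟩
  have : ((q : ℚ) ^ k) ≠ 0 := pow_ne_zero _ (by exact_mod_cast hq)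
  rw [← hz]; field_simp

theorem inZq_intCast_mul {q : ℕ} (c : ℤ) {t : ℚ} (h : InZq q t) : InZq q ((c : ℚ) * t) := by
  obtain ⟨k, z, hz⟩ := inZq_iff.1 h
  rw [inZq_iff]
  refine ⟨k, c * z, ?_⟩
  push_cast
  rw [← hz]; ring

theorem inZq_inX {N q : ℕ} (hq : q ≠ 0) (hqN : q.Coprime N) {t : ℚ} (h : InZq q t) : InX N t := by
  obtain ⟨k, z, rfl⟩ := inZq_exists hq h
  rw [div_eq_mul_inv]
  exact inX_mul (_root_.Fermat.Agent.S41.H37.inX_intCast N z) (inX_inv_pow hqN k)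

/-- Sum over `range ℓ` of a function of the residue class = sum over `ZMod ℓ`. -/
theorem sum_range_zmod {ℓ : ℕ} [NeZero ℓ] {A : Type*} [AddCommMonoid A] (h : ZMod ℓ → A) :
    ∑ j ∈ Finset.range ℓ, h (j : ZMod ℓ) = ∑ i : ZMod ℓ, h i := by
  refine Finset.sum_nbij' (fun j => (j : ZMod ℓ)) (fun i => i.val) ?_ ?_ ?_ ?_ ?_
  · intro j _; exact Finset.mem_univ _
  · intro i _; exact Finset.mem_range.2 (ZMod.val_lt i)
  · intro j hj
    exact ZMod.val_natCast_of_lt (Finset.mem_range.1 hj)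
  · intro i _; exact ZMod.natCast_zmod_val i
  · intro j _; rfl

/-- The shift lemma: modulo `ℤ[1/q]`, the point `r + s/ℓ` (`s ∈ ℤ[1/q]`) only depends on the class of
`s` in `ℤ[1/q]/ℓ = ZMod ℓ`. -/
theorem shift {p N q ℓ : ℕ} (hq : q.Prime) (_hqN : ¬ q ∣ N) (hℓ : ℓ.Prime) (hℓN : ¬ ℓ ∣ N)
    (F : ℚ → ZMod p) (hper : ∀ r t, InX N r → InZq q t → F (r + t) = F r)
    (r : ℚ) (hr : InX N r) (n : ℕ) (z : ℤ) (i : ZMod ℓ)
    (hz : (z : ZMod ℓ) = i * (q : ZMod ℓ) ^ n) :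
    F (r + ((z : ℚ) / (q : ℚ) ^ n) / ℓ) = F (r + (i.val : ℚ) / ℓ) := by
  have : NeZero ℓ := ⟨hℓ.ne_zero⟩
  have hdvd : (ℓ : ℤ) ∣ z - (i.val : ℤ) * (q : ℤ) ^ n := by
    rw [← ZMod.intCast_zmod_eq_zero_iff_dvd]
    push_cast
    rw [hz, ZMod.natCast_zmod_val]
    ring
  obtain ⟨y, hy⟩ := hdvd
  have hq0 : (q : ℚ) ≠ 0 := by exact_mod_cast hq.ne_zero
  have hℓ0 : (ℓ : ℚ) ≠ 0 := by exact_mod_cast hℓ.ne_zero
  have hqn : ((q : ℚ) ^ n) ≠ 0 := pow_ne_zero _ hq0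
  have hzq : (z : ℚ) = (i.val : ℚ) * (q : ℚ) ^ n + (ℓ : ℚ) * y := by
    have : ((z - (i.val : ℤ) * (q : ℤ) ^ n : ℤ) : ℚ) = (((ℓ : ℤ) * y : ℤ) : ℚ) := by rw [hy]
    push_cast at this
    linarith
  have key : r + ((z : ℚ) / (q : ℚ) ^ n) / ℓ = (r + (i.val : ℚ) / ℓ) + (y : ℚ) / (q : ℚ) ^ n := by
    rw [hzq]; field_simp; ring
  rw [key]
  refine hper _ _ ?_ (inZq_of_eq_div hq.ne_zero y n)
  refine inX_add hr ?_
  rw [div_eq_mul_inv]
  exact inX_mul (inX_natCast N _) (inX_inv_natCast ((Nat.Prime.coprime_iff_not_dvd hℓ).2 hℓN))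

/-- In characteristic `p`, the sum over a finite commutative group of a function invariant under
multiplication by an element whose order is divisible by `p` vanishes. -/
theorem sum_eq_zero_of_mul_invariant {G : Type*} [CommGroup G] [Fintype G] {p : ℕ}
    (v : G) (hv : p ∣ orderOf v) (f : G → ZMod p) (hf : ∀ g, f (v * g) = f g) :
    ∑ g, f g = 0 := by
  classical
  set H : Subgroup G := Subgroup.zpowers v with hH
  have hpow : ∀ n : ℕ, ∀ g, f (v ^ n * g) = f g := by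
    intro n
    induction n with
    | zero => intro g; simp
    | succ n ih =>
      intro g
      rw [pow_succ, mul_assoc, ih, hf]
  have hinv : ∀ h ∈ H, ∀ g, f (h * g) = f g := by
    intro h hh g
    obtain ⟨n, rfl⟩ := (Subgroup.mem_zpowers_iff (g := v)).1 hh
    have hfin : IsOfFinOrder v := isOfFinOrder_of_finite v
    obtain ⟨k, hk⟩ : ∃ k : ℕ, v ^ n = v ^ k := by
      obtain ⟨k, hk⟩ := (hfin.mem_powers_iff_mem_zpowers (y := v ^ n)).2 ⟨n, rfl⟩
      exact ⟨k, hk.symm⟩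
    rw [hk]
    exact hpow k g
  have hconst : ∀ g g' : G, (g : G ⧸ H) = (g' : G ⧸ H) → f g = f g' := by
    intro g g' h
    have h1 : g⁻¹ * g' ∈ H := QuotientGroup.eq.1 h
    have h2 := hinv _ h1 g
    rw [← h2]
    congr 1
    rw [mul_comm g⁻¹ g', mul_assoc, inv_mul_cancel, mul_one]
  let e := Subgroup.groupEquivQuotientProdSubgroup (s := H)
  have hmk : ∀ x : (G ⧸ H) × H, ((e.symm x : G) : G ⧸ H) = x.1 := by
    intro x
    have : (e (e.symm x)).1 = ((e.symm x : G) : G ⧸ H) := rfl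
    rw [← this, Equiv.apply_symm_apply]
  have hcard : (Fintype.card H : ZMod p) = 0 := by
    rw [Fintype.card_zpowers]
    exact (ZMod.natCast_eq_zero_iff _ _).2 hv
  calc ∑ g, f g = ∑ x : (G ⧸ H) × H, f (e.symm x) := (Equiv.sum_comp e.symm f).symm
    _ = ∑ x : (G ⧸ H) × H, f (Quotient.out x.1) := by
        refine Finset.sum_congr rfl (fun x _ => hconst _ _ ?_)
        rw [hmk]
        exact (QuotientGroup.out_eq' x.1).symm
    _ = ∑ c : G ⧸ H, ∑ _h : H, f (Quotient.out c) := by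
        rw [Fintype.sum_prod_type]
    _ = 0 := by
        refine Finset.sum_eq_zero (fun c _ => ?_)
        rw [Finset.sum_const, Finset.card_univ, nsmul_eq_mul, hcard, zero_mul]

/-- Sum over a finite field = value at `0` + sum over the units. -/
theorem sum_zmod_eq {ℓ : ℕ} [Fact ℓ.Prime] {A : Type*} [AddCommMonoid A] (g : ZMod ℓ → A) :
    ∑ i : ZMod ℓ, g i = g 0 + ∑ u : (ZMod ℓ)ˣ, g (u : ZMod ℓ) := by
  classical
  rw [← Finset.add_sum_erase Finset.univ g (Finset.mem_univ (0 : ZMod ℓ))]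
  congr 1
  symm
  refine Finset.sum_bij (fun u _ => (u : ZMod ℓ)) ?_ ?_ ?_ ?_
  · intro u _
    exact Finset.mem_erase.2 ⟨u.ne_zero, Finset.mem_univ _⟩
  · intro u _ u' _ h
    exact Units.ext h
  · intro i hi
    exact ⟨Units.mk0 i (Finset.mem_erase.1 hi).1, Finset.mem_univ _, rfl⟩
  · intro u _; rfl

/-- Iterating the `q²`-invariance. -/
theorem inv_pow {p N q : ℕ} (hqN : q.Coprime N) (F : ℚ → ZMod p)
    (hq2 : ∀ r, InX N r → F ((q : ℚ) ^ 2 * r) = F r) (k : ℕ) :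
    ∀ r, InX N r → F ((q : ℚ) ^ (2 * k) * r) = F r := by
  induction k with
  | zero => intro r _; simp
  | succ k ih =>
    intro r hr
    have h1 : (q : ℚ) ^ (2 * (k + 1)) * r = (q : ℚ) ^ 2 * ((q : ℚ) ^ (2 * k) * r) := by ring
    rw [h1, hq2 _ ?_, ih r hr]
    refine inX_mul ?_ hr
    have := inX_natCast N (q ^ (2 * k))
    simpa using this

/-- **Leaf C** (Step 4 of the Kummer–Hecke proof of Ihara's lemma): the orbit sum. -/
theorem stmt_IhC : Stmt_IhC := by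
  intro p N q _hp _hN hq hqN _hqp F hq2 hper ℓ a hℓ hℓNq _hℓp heig r m k hr _hm hmr _hmq hqk hℓm hord
  have : Fact ℓ.Prime := ⟨hℓ⟩
  have : NeZero ℓ := ⟨hℓ.ne_zero⟩
  have hℓN : ¬ ℓ ∣ N := fun h => hℓNq (Dvd.dvd.mul_right h q)
  have hℓq : ¬ ℓ ∣ q := fun h => hℓNq (Dvd.dvd.mul_left h N)
  have hqNc : q.Coprime N := (Nat.Prime.coprime_iff_not_dvd hq).2 hqN
  have hℓNc : ℓ.Coprime N := (Nat.Prime.coprime_iff_not_dvd hℓ).2 hℓN
  have hq0 : (q : ℚ) ≠ 0 := by exact_mod_cast hq.ne_zero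
  have hℓ0 : (ℓ : ℚ) ≠ 0 := by exact_mod_cast hℓ.ne_zero
  have hqℓ : (q : ZMod ℓ) ≠ 0 := by
    intro h
    exact hℓq ((ZMod.natCast_eq_zero_iff q ℓ).1 h)
  -- `(ℓ - 1) r ∈ ℤ[1/q]`
  obtain ⟨c, hc⟩ : ∃ c : ℤ, (ℓ : ℤ) - 1 = (m : ℤ) * c := by
    have : (1 : ℕ) ≡ ℓ [MOD m] := hℓm.symm
    exact (Nat.modEq_iff_dvd.1 this)
  obtain ⟨c', hc'⟩ : ∃ c' : ℤ, ((q ^ (2 * k) : ℕ) : ℤ) - 1 = (m : ℤ) * c' := by
    have : (1 : ℕ) ≡ q ^ (2 * k) [MOD m] := hqk.symm
    exact (Nat.modEq_iff_dvd.1 this)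
  have ht : InZq q (((ℓ : ℚ) - 1) * r) := by
    have h1 : ((ℓ : ℚ) - 1) * r = (c : ℚ) * ((m : ℚ) * r) := by
      have : ((ℓ : ℚ) - 1) = (m : ℚ) * c := by exact_mod_cast hc
      rw [this]; ring
    rw [h1]
    exact inZq_intCast_mul c hmr
  have ht' : InZq q ((((q : ℚ) ^ (2 * k)) - 1) * r) := by
    have h1 : (((q : ℚ) ^ (2 * k)) - 1) * r = (c' : ℚ) * ((m : ℚ) * r) := by
      have : (((q : ℚ) ^ (2 * k)) - 1) = (m : ℚ) * c' := by exact_mod_cast hc'
      rw [this]; ring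
    rw [h1]
    exact inZq_intCast_mul c' hmr
  -- the term `F (ℓ r)`
  have hℓr : F ((ℓ : ℚ) * r) = F r := by
    have : (ℓ : ℚ) * r = r + ((ℓ : ℚ) - 1) * r := by ring
    rw [this]
    exact hper r _ hr ht
  -- the function on `ZMod ℓ`
  set g : ZMod ℓ → ZMod p := fun i => F (r + (i.val : ℚ) / ℓ) with hg
  have hg0 : g 0 = F r := by
    simp [hg]
  -- the terms `F ((r + j)/ℓ)`
  obtain ⟨n, z, hz⟩ := inZq_exists hq.ne_zero ht
  have hqn : ((q : ℚ) ^ n) ≠ 0 := pow_ne_zero _ hq0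
  set τ : ZMod ℓ := (z : ZMod ℓ) * ((q : ZMod ℓ) ^ n)⁻¹ with hτ
  have hterm : ∀ j : ℕ, F ((r + (j : ℚ)) / ℓ) = g ((j : ZMod ℓ) - τ) := by
    intro j
    have h1 : (r + (j : ℚ)) / ℓ
        = r + (((j * (q : ℤ) ^ n - z : ℤ) : ℚ) / (q : ℚ) ^ n) / ℓ := by
      have h2 : r = (r + (j : ℚ)) / ℓ + (((ℓ : ℚ) - 1) * r - j) / ℓ := by
        field_simp; ring
      push_cast
      rw [hz] at h2
      have h3 : ((j : ℚ) * (q : ℚ) ^ n - z) / (q : ℚ) ^ n = j - (z : ℚ) / (q : ℚ) ^ n := by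
        field_simp
      rw [h3]
      linear_combination (-1 : ℚ) * h2
    rw [h1]
    refine shift hq hqN hℓ hℓN F hper r hr n _ _ ?_
    push_cast
    rw [hτ, sub_mul, mul_assoc, inv_mul_cancel₀ (pow_ne_zero _ hqℓ), mul_one]
  have hsum : ∑ j ∈ Finset.range ℓ, F ((r + (j : ℚ)) / ℓ) = ∑ i : ZMod ℓ, g i := by
    rw [Finset.sum_congr rfl (fun j _ => hterm j)]
    rw [sum_range_zmod (fun i => g (i - τ))]
    exact Equiv.sum_comp (Equiv.subRight τ) g
  -- invariance of `g` under multiplication by `v = q^(2k)`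
  have hginv : ∀ i : ZMod ℓ, g ((q : ZMod ℓ) ^ (2 * k) * i) = g i := by
    intro i
    obtain ⟨n', z', hz'⟩ := inZq_exists hq.ne_zero ht'
    have hqn' : ((q : ℚ) ^ n') ≠ 0 := pow_ne_zero _ hq0
    have hri : InX N (r + (i.val : ℚ) / ℓ) := by
      refine inX_add hr ?_
      rw [div_eq_mul_inv]
      exact inX_mul (inX_natCast N _) (inX_inv_natCast hℓNc)
    have h1 : g i = F ((q : ℚ) ^ (2 * k) * (r + (i.val : ℚ) / ℓ)) :=
      (inv_pow hqNc F hq2 k _ hri).symm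
    have h2 : (q : ℚ) ^ (2 * k) * (r + (i.val : ℚ) / ℓ)
        = r + ((((ℓ : ℤ) * z' + (q : ℤ) ^ (2 * k) * (q : ℤ) ^ n' * (i.val : ℤ) : ℤ) : ℚ)
            / (q : ℚ) ^ n') / ℓ := by
      have h3 : (q : ℚ) ^ (2 * k) * r = r + (z' : ℚ) / (q : ℚ) ^ n' := by
        rw [← hz']; ring
      push_cast
      rw [mul_add, h3]
      field_simp
      ring
    rw [h1, h2]
    symm
    refine shift hq hqN hℓ hℓN F hper r hr n' _ _ ?_
    push_cast
    rw [ZMod.natCast_self, zero_mul, zero_add, ZMod.natCast_zmod_val]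
    ring
  have hunits : ∑ u : (ZMod ℓ)ˣ, g (u : ZMod ℓ) = 0 := by
    set v : (ZMod ℓ)ˣ := Units.mk0 ((q : ZMod ℓ) ^ (2 * k)) (pow_ne_zero _ hqℓ) with hv
    have hov : p ∣ orderOf v := by
      have : orderOf (v : ZMod ℓ) = orderOf v := orderOf_units
      rw [← this]
      exact hord
    refine sum_eq_zero_of_mul_invariant v hov (fun u => g (u : ZMod ℓ)) ?_
    intro u
    have : ((v * u : (ZMod ℓ)ˣ) : ZMod ℓ) = (q : ZMod ℓ) ^ (2 * k) * (u : ZMod ℓ) := by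
      simp [hv]
    show g ((v * u : (ZMod ℓ)ˣ) : ZMod ℓ) = g (u : ZMod ℓ)
    rw [this]
    exact hginv _
  have hTT := heig r hr
  unfold TT at hTT
  rw [hsum, sum_zmod_eq, hunits, add_zero, hg0, hℓr] at hTT
  have : (a - 2) * F r = a * F r - (F r + F r) := by ring
  rw [this, ← hTT, sub_self]

end Fermat.Agent.S41.H37

end
-- ==== END Fermat.Agent.S41.H37_IharaOrbit

-- ==== BEGIN Fermat.Agent.S41.H41_KumA
section

/-!
# D-KUM (a): the Kummer extension `ℚ(ζ_M, q^(1/p))` (helper41)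

* `stmt_KumA` : some automorphism of `ℚ̄` fixes `ζ_M` and moves `y = q^(1/p)`.
  Elementary proof: otherwise all automorphisms commute on `y` (commutators fix `ζ_M`), and
  twisting `y` by a suitable `p`-th root of unity gives a rational `p`-th root of `q`.
* `stmt_KumHom` : the Kummer character `g ↦ g y / y` on a subgroup fixing `ζ_M`.
-/

set_option autoImplicit false
set_option linter.style.haveILetI false

namespace Fermat.Agent.S41.H41

open Fermat.Agent.R.H2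

/-- Every `p`-th root of unity is a power of a primitive one. -/
theorem exists_pow_eq_of_pow_eq_one {p : ℕ} {ω u : AlgebraicClosure ℚ} (hp : 0 < p)
    (hω : IsPrimitiveRoot ω p) (hu : u ^ p = 1) : ∃ i : ℕ, ω ^ i = u := by
  haveI : NeZero p := ⟨hp.ne'⟩
  obtain ⟨i, -, hi⟩ := hω.eq_pow_of_pow_eq_one hu
  exact ⟨i, hi⟩

/-- Automorphisms commute on roots of unity. -/
theorem map_map_root_comm {M : ℕ} (hM : 0 < M) {ζ : AlgebraicClosure ℚ}
    (hζ : IsPrimitiveRoot ζ M) (g h : AlgebraicClosure ℚ ≃ₐ[ℚ] AlgebraicClosure ℚ) :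
    g (h ζ) = h (g ζ) := by
  obtain ⟨a, ha⟩ := exists_pow_eq_of_pow_eq_one hM hζ
    (show (g ζ) ^ M = 1 by rw [← map_pow, hζ.pow_eq_one, map_one])
  obtain ⟨b, hb⟩ := exists_pow_eq_of_pow_eq_one hM hζ
    (show (h ζ) ^ M = 1 by rw [← map_pow, hζ.pow_eq_one, map_one])
  rw [← ha, ← hb, map_pow, map_pow, ← ha, ← hb, ← pow_mul, ← pow_mul, mul_comm]

/-- A prime is not a `p`-th power of a rational number (`p ≥ 2`). -/
theorem prime_ne_rat_pow {p q : ℕ} (hp : 1 < p) (hq : q.Prime) (r : ℚ) : r ^ p ≠ (q : ℚ) := by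
  intro hrp
  haveI : Fact q.Prime := ⟨hq⟩
  have hr0 : r ≠ 0 := by
    rintro rfl
    rw [zero_pow (by omega)] at hrp
    exact hq.ne_zero (by exact_mod_cast hrp.symm)
  have h5 : padicValRat q (r ^ p) = p * padicValRat q r := padicValRat.pow (p := q) (q := r) (k := p)
  rw [hrp] at h5
  have h6 : padicValRat q (q : ℚ) = 1 := padicValRat.self hq.one_lt
  rw [h6] at h5
  have h7 : (p : ℤ) ∣ 1 := ⟨_, h5⟩
  have h8 := Int.eq_one_of_dvd_one (by positivity) h7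
  omega

/-- **D-KUM (a).** -/
theorem stmt_KumA : Stmt_KumA := by
  intro p q M hp hp2 hq hM hpM ζ y hζ hy
  haveI : Algebra.IsAlgebraic ℚ (AlgebraicClosure ℚ) := AlgebraicClosure.isAlgebraic ℚ
  haveI : IsAlgClosure ℚ (AlgebraicClosure ℚ) := ⟨inferInstance, inferInstance⟩
  haveI : IsGalois ℚ (AlgebraicClosure ℚ) := inferInstance
  by_contra hcon
  push Not at hcon
  have hq0 : (q : AlgebraicClosure ℚ) ≠ 0 := by exact_mod_cast hq.ne_zero
  have hy0 : y ≠ 0 := by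
    rintro rfl
    rw [zero_pow hp.ne_zero] at hy
    exact hq0 hy.symm
  -- all automorphisms commute on `y`
  have hcomm : ∀ g h : AlgebraicClosure ℚ ≃ₐ[ℚ] AlgebraicClosure ℚ, g (h y) = h (g y) := by
    intro g h
    have h1 : ((h * g)⁻¹ * (g * h)) ζ = ζ := by
      rw [AlgEquiv.mul_apply, AlgEquiv.mul_apply g h, map_map_root_comm hM hζ g h,
        ← AlgEquiv.mul_apply h g, ← AlgEquiv.mul_apply, inv_mul_cancel, AlgEquiv.one_apply]
    have h2 := hcon _ h1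
    have h3 := congrArg (h * g) h2
    rw [← AlgEquiv.mul_apply, mul_inv_cancel_left, AlgEquiv.mul_apply, AlgEquiv.mul_apply] at h3
    exact h3
  obtain ⟨d, hd⟩ := hpM
  have hω : IsPrimitiveRoot (ζ ^ d) p := IsPrimitiveRoot.pow hM hζ (by rw [hd, mul_comm])
  obtain ⟨g₀, hg₀⟩ := exists_algEquiv_ne_of_isPrimitiveRoot hp hp2 hω
  haveI : NeZero p := ⟨hp.ne_zero⟩
  obtain ⟨k, hk, hgk⟩ : ∃ k < p, (ζ ^ d) ^ k = g₀ (ζ ^ d) :=
    hω.eq_pow_of_pow_eq_one (by rw [← map_pow, hω.pow_eq_one, map_one])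
  have hk1 : k ≠ 1 := by
    rintro rfl
    rw [pow_one] at hgk
    exact hg₀ hgk.symm
  have hk0 : k ≠ 0 := by
    rintro rfl
    rw [pow_zero] at hgk
    have h1 : g₀ (ζ ^ d) = g₀ 1 := by rw [← hgk, map_one]
    have h2 := g₀.injective h1
    exact hω.ne_one hp.one_lt h2
  have hroot : ∀ u : AlgebraicClosure ℚ, u ^ p = 1 → g₀ u = u ^ k := by
    intro u hu
    obtain ⟨i, rfl⟩ := exists_pow_eq_of_pow_eq_one hp.pos hω hu
    rw [map_pow, ← hgk, ← pow_mul, mul_comm, pow_mul]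
  have hβp : ∀ h : AlgebraicClosure ℚ ≃ₐ[ℚ] AlgebraicClosure ℚ, (h y * y⁻¹) ^ p = 1 := by
    intro h
    rw [mul_pow, inv_pow, ← map_pow, hy, map_natCast]
    exact mul_inv_cancel₀ hq0
  have hβy : ∀ h : AlgebraicClosure ℚ ≃ₐ[ℚ] AlgebraicClosure ℚ, h y = (h y * y⁻¹) * y := by
    intro h
    rw [mul_assoc, inv_mul_cancel₀ hy0, mul_one]
  have hβ0 : ∀ h : AlgebraicClosure ℚ ≃ₐ[ℚ] AlgebraicClosure ℚ, h y * y⁻¹ ≠ 0 := by
    intro h
    refine mul_ne_zero ?_ (inv_ne_zero hy0)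
    rw [Ne, map_eq_zero_iff h h.injective]
    exact hy0
  have hkey : ∀ h : AlgebraicClosure ℚ ≃ₐ[ℚ] AlgebraicClosure ℚ,
      (h y * y⁻¹) ^ k * (g₀ y * y⁻¹) = h (g₀ y * y⁻¹) * (h y * y⁻¹) := by
    intro h
    have h1 := hcomm g₀ h
    have h2 : g₀ (h y) = (h y * y⁻¹) ^ k * ((g₀ y * y⁻¹) * y) := by
      conv_lhs => rw [hβy h, map_mul, hroot _ (hβp h), hβy g₀]
    have h3 : h (g₀ y) = h (g₀ y * y⁻¹) * ((h y * y⁻¹) * y) := by
      conv_lhs => rw [hβy g₀, map_mul, hβy h]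
    rw [h2, h3] at h1
    apply mul_right_cancel₀ hy0
    linear_combination h1
  have hcop : Nat.Coprime (k - 1) p := by
    apply Nat.Coprime.symm
    rw [Nat.Prime.coprime_iff_not_dvd hp]
    intro hdvd
    have := Nat.le_of_dvd (by omega) hdvd
    omega
  obtain ⟨c, -, hc⟩ := Nat.exists_mul_mod_eq_one_of_coprime hcop hp.one_lt
  have hz : ((g₀ y * y⁻¹) ^ c) ^ p = 1 := by
    rw [← pow_mul, mul_comm c p, pow_mul, hβp g₀, one_pow]
  have hz0 : (g₀ y * y⁻¹) ^ c ≠ 0 := pow_ne_zero _ (hβ0 g₀)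
  have hhz : ∀ h : AlgebraicClosure ℚ ≃ₐ[ℚ] AlgebraicClosure ℚ,
      h ((g₀ y * y⁻¹) ^ c) = (h y * y⁻¹) * (g₀ y * y⁻¹) ^ c := by
    intro h
    have h2 : h (g₀ y * y⁻¹) = (h y * y⁻¹) ^ (k - 1) * (g₀ y * y⁻¹) := by
      have h3 := hkey h
      have h4 : (h y * y⁻¹) ^ k = (h y * y⁻¹) ^ (k - 1) * (h y * y⁻¹) := by
        rw [← pow_succ]
        congr 1
        omega
      rw [h4] at h3
      apply mul_right_cancel₀ (hβ0 h)
      rw [← h3]
      ring
    rw [map_pow, h2, mul_pow, ← pow_mul]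
    have h4 : (h y * y⁻¹) ^ ((k - 1) * c) = h y * y⁻¹ := by
      conv_lhs => rw [← Nat.div_add_mod ((k - 1) * c) p, hc, pow_add, pow_mul, hβp h, one_pow,
        one_mul, pow_one]
    rw [h4]
  have hfix : ∀ h : AlgebraicClosure ℚ ≃ₐ[ℚ] AlgebraicClosure ℚ,
      h (y * ((g₀ y * y⁻¹) ^ c)⁻¹) = y * ((g₀ y * y⁻¹) ^ c)⁻¹ := by
    intro h
    rw [map_mul, map_inv₀, hhz h]
    have h1 := hβ0 h
    rw [mul_inv, ← mul_assoc]
    congr 1
    rw [mul_inv, inv_inv, ← mul_assoc, mul_inv_cancel₀, one_mul]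
    rw [Ne, map_eq_zero_iff h h.injective]
    exact hy0
  have hmem : y * ((g₀ y * y⁻¹) ^ c)⁻¹ ∈ (⊥ : IntermediateField ℚ (AlgebraicClosure ℚ)) :=
    (InfiniteGalois.mem_bot_iff_fixed _).2 hfix
  obtain ⟨r, hr⟩ := IntermediateField.mem_bot.1 hmem
  have hrp : r ^ p = (q : ℚ) := by
    apply (algebraMap ℚ (AlgebraicClosure ℚ)).injective
    rw [map_pow, hr, mul_pow, inv_pow, hz, inv_one, mul_one, hy, map_natCast]
  exact prime_ne_rat_pow hp.one_lt hq r hrp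

end Fermat.Agent.S41.H41

end
-- ==== END Fermat.Agent.S41.H41_KumA

-- ==== BEGIN Fermat.Agent.S41.H41_KumB
section

/-!
# D-KUM (b): Frobenius elements and Kummer conditions (helper41)

* `stmt_KumB1` : a Frobenius at `ℓ ∤ M` fixing a primitive `M`-th root of unity has `ℓ ≡ 1 mod M`.
* `stmt_KumB2` : a Frobenius at `ℓ` moving `q^(1/p)` has `q ^ ((ℓ - 1) / p) ≠ 1` in `ZMod ℓ`.
-/

set_option autoImplicit false

namespace Fermat.Agent.S41.H41

open Fermat.Agent.R.H89 Fermat.Agent.R.H2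

/-- **D-KUM (b1).** -/
theorem stmt_KumB1 : Stmt_KumB1 := by
  intro ℓ M hℓ hM hℓM A σ hA hσ ζ hζ hfix
  have hcop : M.Coprime ℓ := (Nat.Coprime.symm ((Nat.Prime.coprime_iff_not_dvd hℓ).2 hℓM))
  have h1 : σ ζ = ζ ^ ℓ := Fermat.Agent.R.H2.stmt_FrobCyc ℓ hℓ A hA σ hσ M hcop ζ hζ.pow_eq_one
  have h2 : ζ ^ ℓ = ζ ^ 1 := by rw [pow_one, ← h1, hfix]
  have hfin : IsOfFinOrder ζ := isOfFinOrder_iff_pow_eq_one.2 ⟨M, hM, hζ.pow_eq_one⟩
  have h3 := (hfin.pow_eq_pow_iff_modEq).1 h2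
  rw [← hζ.eq_orderOf] at h3
  exact h3

/-- **D-KUM (b2).** -/
theorem stmt_KumB2 : Stmt_KumB2 := by
  intro ℓ p q hℓ hp hq hℓp hℓq hdvd A σ hA hσ y hy hmove hpow
  apply hmove
  obtain ⟨e, he⟩ := hdvd
  have hediv : (ℓ - 1) / p = e := by
    rw [he]; exact Nat.mul_div_cancel_left e hp.pos
  rw [hediv] at hpow
  -- `q ^ e ≡ 1 mod ℓ`
  have hmod : q ^ e ≡ 1 [MOD ℓ] := by
    rw [← ZMod.natCast_eq_natCast_iff]
    push_cast
    exact hpow
  have hq1 : 1 ≤ q ^ e := Nat.one_le_pow _ _ hq.pos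
  have hdvd' : ℓ ∣ q ^ e - 1 := (Nat.modEq_iff_dvd' hq1).1 hmod.symm
  obtain ⟨k, hk⟩ := hdvd'
  have hqe : (q : AlgebraicClosure ℚ) ^ e = 1 + (ℓ : AlgebraicClosure ℚ) * k := by
    have h : q ^ e = 1 + ℓ * k := by omega
    have := congrArg (fun n : ℕ => (n : AlgebraicClosure ℚ)) h
    simpa using this
  have hℓA : (ℓ : AlgebraicClosure ℚ) ∈ A.nonunits := hA
  have hpA : (p : AlgebraicClosure ℚ) ∉ A.nonunits :=
    h89_prime_not_mem_nonunits A hp hℓ hℓp hA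
  have hqA : (q : AlgebraicClosure ℚ) ∉ A.nonunits :=
    h89_prime_not_mem_nonunits A hq hℓ hℓq hA
  have hvq : A.valuation (q : AlgebraicClosure ℚ) = 1 :=
    le_antisymm (h89_valuation_natCast_le_one A q) (not_lt.1 (by rwa [A.mem_nonunits_iff] at hqA))
  have hvy : A.valuation y = 1 := by
    have h : A.valuation y ^ p = 1 := by rw [← map_pow, hy, hvq]
    exact (pow_eq_one_iff.1 h).resolve_right hp.ne_zero
  have hyA : y ∈ A := by rw [← A.valuation_le_one_iff, hvy]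
  have hy0 : y ≠ 0 := by
    rintro rfl
    rw [map_zero] at hvy
    exact zero_ne_one hvy
  have h1 := h89_frob_sub_mem A hσ hyA
  -- `y ^ ℓ = y * q ^ e`
  have hℓeq : ℓ = 1 + p * e := by have := hℓ.one_lt; omega
  have hyℓ : y ^ ℓ = y * (1 + (ℓ : AlgebraicClosure ℚ) * k) := by
    conv_lhs => rw [hℓeq]
    rw [pow_add, pow_one, pow_mul, hy, hqe]
  -- `σ y - y ∈ 𝔪`
  have h2 : σ y - y ∈ A.nonunits := by
    have h3 : σ y - y = (σ y - y ^ ℓ) + y * ((ℓ : AlgebraicClosure ℚ) * k) := by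
      rw [hyℓ]; ring
    rw [h3, A.mem_nonunits_iff]
    refine Valuation.map_add_lt _ (A.mem_nonunits_iff.1 h1) ?_
    rw [map_mul, map_mul, hvy, one_mul]
    calc A.valuation (ℓ : AlgebraicClosure ℚ) * A.valuation (k : AlgebraicClosure ℚ)
        ≤ A.valuation (ℓ : AlgebraicClosure ℚ) * 1 :=
          mul_le_mul_right (h89_valuation_natCast_le_one A k) _
      _ < 1 := by rw [mul_one]; exact A.mem_nonunits_iff.1 hℓA
  -- `w = σ y / y` is a `p`-th root of unity congruent to `1`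
  have hw : (σ y * y⁻¹) ^ (p ^ 1) = 1 := by
    rw [pow_one, mul_pow, inv_pow, ← map_pow, hy, map_natCast]
    exact mul_inv_cancel₀ (by exact_mod_cast hq.ne_zero)
  have hw1 : σ y * y⁻¹ - 1 ∈ A.nonunits := by
    have h3 : σ y * y⁻¹ - 1 = (σ y - y) * y⁻¹ := by field_simp
    rw [h3, A.mem_nonunits_iff, map_mul, map_inv₀, hvy, inv_one, mul_one]
    exact A.mem_nonunits_iff.1 h2
  have h4 := h89_eq_one_of_sub_one_mem A p hpA hw hw1
  field_simp at h4
  exact h4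

end Fermat.Agent.S41.H41

end
-- ==== END Fermat.Agent.S41.H41_KumB

-- ==== BEGIN Fermat.Agent.S41.H41_PSL
section

/-!
# S41, package P, leaf P0 (helper41): `PSL(2,ℤ) = C₂ * C₃` as a universal property

`H41.stmt_PSL : H94.Stmt_PSL`: for every group `H` and `s t : H` with `s ^ 2 = 1`, `t ^ 3 = 1`
there is a homomorphism `θ : SL(2,ℤ) → H` with `θ S = s`, `θ (T S⁻¹) = t`.

Proof: ping-pong (`Monoid.CoprodI.lift_injective_of_ping_pong`) for `C₂ = ⟨S⟩`, `C₃ = ⟨τ⟩`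
inside `Equiv.Perm ℍ` with the sets `{Re z < 0}` and `{0 < Re z}`: the free product `C₂ * C₃`
embeds into `Perm ℍ`, its image is the image of `SL(2,ℤ)` (`SL2Z_generators`), and
`θ = lift (s, t) ∘ (embedding)⁻¹ ∘ (SL(2,ℤ) → Perm ℍ)`.
-/

set_option autoImplicit false

open scoped MatrixGroups Pointwise
open UpperHalfPlane ModularGroup

namespace Fermat.Agent.S41.H41

open Fermat.Agent.S41.H94

/-! ### Homomorphisms out of cyclic groups -/

/-- The additive homomorphism `ℤ/n → Additive G`, `k ↦ x ^ k`, for `x ^ n = 1`. -/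
noncomputable def cycAdd {G : Type*} [Group G] (n : ℕ) (x : G) (hx : x ^ n = 1) :
    ZMod n →+ Additive G :=
  ZMod.lift n ⟨zmultiplesHom (Additive G) (Additive.ofMul x), by
    show (n : ℤ) • Additive.ofMul x = 0
    rw [natCast_zsmul, ← ofMul_pow, hx, ofMul_one]⟩

theorem cycAdd_intCast {G : Type*} [Group G] (n : ℕ) (x : G) (hx : x ^ n = 1) (k : ℤ) :
    cycAdd n x hx (k : ZMod n) = k • Additive.ofMul x := by
  rw [cycAdd, ZMod.lift_coe]
  rfl

/-- The homomorphism `C_n → G`, `k ↦ x ^ k`, for `x ^ n = 1`. -/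
noncomputable def cycHom {G : Type*} [Group G] (n : ℕ) (x : G) (hx : x ^ n = 1) :
    Multiplicative (ZMod n) →* G :=
  AddMonoidHom.toMultiplicativeLeft (cycAdd n x hx)

theorem cycHom_one {G : Type*} [Group G] (n : ℕ) (x : G) (hx : x ^ n = 1) :
    cycHom n x hx (Multiplicative.ofAdd 1) = x := by
  show Additive.toMul (cycAdd n x hx (1 : ZMod n)) = x
  have h1 : ((1 : ℤ) : ZMod n) = 1 := Int.cast_one
  rw [← h1, cycAdd_intCast, one_zsmul]
  rfl

theorem cycHom_two {G : Type*} [Group G] (n : ℕ) (x : G) (hx : x ^ n = 1) :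
    cycHom n x hx (Multiplicative.ofAdd 2) = x ^ 2 := by
  show Additive.toMul (cycAdd n x hx (2 : ZMod n)) = x ^ 2
  have h1 : ((2 : ℤ) : ZMod n) = 2 := by norm_cast
  rw [← h1, cycAdd_intCast]
  show Additive.toMul ((2 : ℤ) • Additive.ofMul x) = x ^ 2
  rw [← ofMul_zpow, toMul_ofMul]
  exact zpow_ofNat x 2

/-! ### The two generators in `Perm ℍ` -/

/-- The permutation representation of `SL(2,ℤ)` on the upper half plane. -/
noncomputable def piH : SL(2, ℤ) →* Equiv.Perm ℍ := MulAction.toPermHom SL(2, ℤ) ℍ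

theorem piH_apply (g : SL(2, ℤ)) (z : ℍ) : piH g z = g • z := rfl

theorem tau_pow_three : tau ^ 3 = 1 := by decide

theorem tau_mul_S : tau * S = T := by
  rw [tau, inv_mul_cancel_right]

theorem piH_S_sq : piH S ^ 2 = 1 := by
  rw [← map_pow]
  ext z
  rw [piH_apply]
  have h : (S : SL(2, ℤ)) ^ 2 = -1 := by decide
  rw [h, SL_neg_smul, one_smul]
  rfl

theorem piH_tau_cube : piH tau ^ 3 = 1 := by
  rw [← map_pow, tau_pow_three, map_one]

/-! ### Real parts -/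

theorem re_S_smul (z : ℍ) : (S • z).re = -z.re / Complex.normSq z := by
  rw [modular_S_smul]
  show ((-(z : ℂ))⁻¹).re = _
  rw [Complex.inv_re, Complex.neg_re, Complex.normSq_neg]
  rfl

theorem re_T_smul' (z : ℍ) : (T • z).re = 1 + z.re := by
  rw [modular_T_smul, vadd_re]

theorem re_T_inv_smul (z : ℍ) : (T⁻¹ • z).re = -1 + z.re := by
  have h := modular_T_zpow_smul z (-1)
  rw [zpow_neg_one] at h
  rw [h, vadd_re]
  simp

theorem normSq_pos_coe (z : ℍ) : 0 < Complex.normSq (z : ℂ) :=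
  Complex.normSq_pos.mpr z.ne_zero

theorem S_inv_smul (z : ℍ) : (S⁻¹ : SL(2, ℤ)) • z = S • z := by
  rw [S_inv, SL_neg_smul]

theorem re_S_smul_neg {z : ℍ} (hz : 0 < z.re) : (S • z).re < 0 := by
  rw [re_S_smul]
  exact div_neg_of_neg_of_pos (neg_neg_of_pos hz) (normSq_pos_coe z)

theorem re_S_smul_pos {z : ℍ} (hz : z.re < 0) : 0 < (S • z).re := by
  rw [re_S_smul]
  exact div_pos (neg_pos.mpr hz) (normSq_pos_coe z)

theorem re_tau_smul_pos {z : ℍ} (hz : z.re < 0) : 0 < (tau • z).re := by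
  rw [tau, mul_smul, re_T_smul', S_inv_smul]
  have := re_S_smul_pos hz
  linarith

theorem tau_sq : tau ^ 2 = S * T⁻¹ := by decide

theorem re_tau_sq_smul_pos {z : ℍ} (hz : z.re < 0) : 0 < (tau ^ 2 • z).re := by
  rw [tau_sq, mul_smul]
  apply re_S_smul_pos
  rw [re_T_inv_smul]
  linarith

/-! ### Ping-pong -/

/-- The family `C₂`, `C₃`. -/
abbrev Cyc (i : Fin 2) : Type := Multiplicative (ZMod (i.val + 2))

/-- The generators `S`, `τ` of the two cyclic groups in `Perm ℍ`. -/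
noncomputable def genP : (i : Fin 2) → {x : Equiv.Perm ℍ // x ^ (i.val + 2) = 1}
  | ⟨0, _⟩ => ⟨piH S, piH_S_sq⟩
  | ⟨1, _⟩ => ⟨piH tau, piH_tau_cube⟩

/-- The two embeddings `C₂, C₃ → Perm ℍ`. -/
noncomputable def fP (i : Fin 2) : Cyc i →* Equiv.Perm ℍ :=
  cycHom (i.val + 2) (genP i).1 (genP i).2

/-- The ping-pong sets. -/
def XP : Fin 2 → Set ℍ
  | ⟨0, _⟩ => {z | z.re < 0}
  | ⟨1, _⟩ => {z | 0 < z.re}

theorem fP_zero_one : fP 0 (Multiplicative.ofAdd 1) = piH S := cycHom_one _ _ _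

theorem fP_one_one : fP 1 (Multiplicative.ofAdd 1) = piH tau := cycHom_one _ _ _

theorem fP_one_two : fP 1 (Multiplicative.ofAdd 2) = piH (tau ^ 2) := by
  rw [map_pow]
  exact cycHom_two _ _ _

theorem cyc2_cases (h : Multiplicative (ZMod 2)) (hh : h ≠ 1) : h = Multiplicative.ofAdd 1 := by
  revert h; decide

theorem cyc3_cases (h : Multiplicative (ZMod 3)) (hh : h ≠ 1) :
    h = Multiplicative.ofAdd 1 ∨ h = Multiplicative.ofAdd 2 := by
  revert h; decide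

theorem pingpong : Function.Injective (Monoid.CoprodI.lift fP) := by
  refine Monoid.CoprodI.lift_injective_of_ping_pong fP (Or.inr ⟨1, ?_⟩) XP ?_ ?_ ?_
  · -- `C₃` has three elements
    show (3 : Cardinal) ≤ Cardinal.mk (Multiplicative (ZMod 3))
    rw [Cardinal.mk_fintype]
    have : Fintype.card (Multiplicative (ZMod 3)) = 3 := by
      rw [Fintype.card_multiplicative, ZMod.card]
    rw [this]
    norm_num
  · -- nonempty
    intro i
    fin_cases i
    · refine ⟨⟨⟨-1, 1⟩, by simp⟩, ?_⟩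
      show (-1 : ℝ) < 0
      norm_num
    · refine ⟨⟨⟨1, 1⟩, by simp⟩, ?_⟩
      show (0 : ℝ) < 1
      norm_num
  · -- disjoint
    intro i j hij
    fin_cases i <;> fin_cases j
    · exact absurd rfl hij
    · refine Set.disjoint_left.mpr fun z (h1 : z.re < 0) (h2 : 0 < z.re) => ?_
      linarith
    · refine Set.disjoint_left.mpr fun z (h1 : 0 < z.re) (h2 : z.re < 0) => ?_
      linarith
    · exact absurd rfl hij
  · -- ping-pong
    intro i j hij
    fin_cases i <;> fin_cases j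
    · exact absurd rfl hij
    · intro h hh
      have h1 : h = Multiplicative.ofAdd 1 := cyc2_cases h hh
      subst h1
      rw [Set.smul_set_subset_iff]
      intro z (hz : 0 < z.re)
      show ((fP 0 (Multiplicative.ofAdd 1)) z).re < 0
      rw [fP_zero_one, piH_apply]
      exact re_S_smul_neg hz
    · intro h hh
      rw [Set.smul_set_subset_iff]
      intro z (hz : z.re < 0)
      rcases cyc3_cases h hh with h1 | h1
      · subst h1
        show 0 < ((fP 1 (Multiplicative.ofAdd 1)) z).re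
        rw [fP_one_one, piH_apply]
        exact re_tau_smul_pos hz
      · subst h1
        show 0 < ((fP 1 (Multiplicative.ofAdd 2)) z).re
        rw [fP_one_two, piH_apply]
        exact re_tau_sq_smul_pos hz
    · exact absurd rfl hij

/-! ### The image of `SL(2,ℤ)` -/

theorem piH_mem_range (g : SL(2, ℤ)) : piH g ∈ (Monoid.CoprodI.lift fP).range := by
  have hS : piH S ∈ (Monoid.CoprodI.lift fP).range :=
    ⟨Monoid.CoprodI.of (i := (0 : Fin 2)) (Multiplicative.ofAdd 1), by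
      rw [Monoid.CoprodI.lift_of, fP_zero_one]⟩
  have htau : piH tau ∈ (Monoid.CoprodI.lift fP).range :=
    ⟨Monoid.CoprodI.of (i := (1 : Fin 2)) (Multiplicative.ofAdd 1), by
      rw [Monoid.CoprodI.lift_of, fP_one_one]⟩
  have hT : piH T ∈ (Monoid.CoprodI.lift fP).range := by
    rw [← tau_mul_S, map_mul]
    exact mul_mem htau hS
  have hle : Subgroup.closure {S, T} ≤ (Monoid.CoprodI.lift fP).range.comap piH := by
    rw [Subgroup.closure_le]
    rintro x (rfl | rfl)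
    · exact hS
    · exact hT
  have : g ∈ Subgroup.closure {S, T} := by
    rw [SpecialLinearGroup.SL2Z_generators]
    exact Subgroup.mem_top g
  exact hle this

/-- **P0**: `PSL(2,ℤ) = C₂ * C₃`. -/
theorem stmt_PSL : Stmt_PSL := by
  intro H _ s t hs ht
  -- the target family
  let gH : (i : Fin 2) → Cyc i →* H := fun i =>
    match i with
    | ⟨0, _⟩ => cycHom 2 s hs
    | ⟨1, _⟩ => cycHom 3 t ht
  let e := MonoidHom.ofInjective pingpong
  let ρ : SL(2, ℤ) →* (Monoid.CoprodI.lift fP).range := piH.codRestrict _ piH_mem_range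
  refine ⟨(Monoid.CoprodI.lift gH).comp (e.symm.toMonoidHom.comp ρ), ?_, ?_⟩
  · have h1 : e.symm (ρ S) = Monoid.CoprodI.of (i := (0 : Fin 2)) (Multiplicative.ofAdd 1) := by
      rw [MulEquiv.symm_apply_eq]
      apply Subtype.ext
      rw [MonoidHom.ofInjective_apply, Monoid.CoprodI.lift_of, fP_zero_one]
      rfl
    show Monoid.CoprodI.lift gH (e.symm (ρ S)) = s
    rw [h1, Monoid.CoprodI.lift_of]
    exact cycHom_one 2 s hs
  · have h1 : e.symm (ρ tau) = Monoid.CoprodI.of (i := (1 : Fin 2)) (Multiplicative.ofAdd 1) := by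
      rw [MulEquiv.symm_apply_eq]
      apply Subtype.ext
      rw [MonoidHom.ofInjective_apply, Monoid.CoprodI.lift_of, fP_one_one]
      rfl
    show Monoid.CoprodI.lift gH (e.symm (ρ tau)) = t
    rw [h1, Monoid.CoprodI.lift_of]
    exact cycHom_one 3 t ht

end Fermat.Agent.S41.H41

end
-- ==== END Fermat.Agent.S41.H41_PSL

-- ==== BEGIN Fermat.Agent.S41.H78_DGrp
section

/-!
# S41 / I2 leaf D, sub-leaf D-GRP (helper78): proofs

`dgrp_pred`, `dgrp` (universe polymorphic) and `stmt_DGRP_pred : Stmt_DGRP_pred`,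
`stmt_DGRP : Stmt_DGRP`.
-/

set_option autoImplicit false

namespace Fermat.Agent.S41.H78

open Module
open Fermat.Agent.S41.H19 (end_CH_two mem_span_of_ker trace_one_two rho_inv_mul rho_mul_inv)

variable {k : Type*} [Field k] {V : Type*} [AddCommGroup V] [Module k V]

/-- A square-zero endomorphism of a plane has determinant zero. -/
lemma det_eq_zero_of_sq_zero (hV : finrank k V = 2) {N : V →ₗ[k] V} (hNN : N * N = 0) :
    LinearMap.det N = 0 := by
  have h1 : LinearMap.det (N * N) = 0 := by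
    rw [hNN, LinearMap.det_zero, hV]
    norm_num
  rw [map_mul] at h1
  exact mul_self_eq_zero.mp h1

/-- For a square-zero `N` on a plane and an invertible `X`: `N X N = tr (X N) • N`. -/
lemma sq_zero_sandwich (hV : finrank k V = 2) {N X X' : V →ₗ[k] V} (hNN : N * N = 0)
    (hX : X' * X = 1) : N * X * N = LinearMap.trace k V (X * N) • N := by
  have hch := end_CH_two hV (X * N)
  have hdet : LinearMap.det (X * N) = 0 := by
    rw [map_mul, det_eq_zero_of_sq_zero hV hNN, mul_zero]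
  rw [hdet, zero_smul, sub_zero] at hch
  calc N * X * N = (X' * X) * (N * X * N) := by rw [hX, one_mul]
    _ = X' * ((X * N) * (X * N)) := by simp only [mul_assoc]
    _ = X' * (LinearMap.trace k V (X * N) • (X * N)) := by rw [hch]
    _ = LinearMap.trace k V (X * N) • ((X' * X) * N) := by
        rw [mul_smul_comm, mul_assoc]
    _ = LinearMap.trace k V (X * N) • N := by rw [hX, one_mul]

section

variable {G : Type*} [Group G]

/-- Case 1: some element of `D` acts nontrivially. -/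
lemma dgrp_case1 (h2 : (2 : k) ≠ 0) (hV : finrank k V = 2) (ρ : G →* (V →ₗ[k] V))
    (H : Subgroup G) (hcomm : ∀ g g' : G, g * g' * g⁻¹ * g'⁻¹ ∈ H)
    (D : G → Prop) (hDH : ∀ s, D s → s ∈ H)
    (hD2 : ∀ g s, g ∈ H → D s →
      (D g ∧ D (g * s)) ∨ (D g ∧ D (g * s * s)) ∨ (D (g * s) ∧ D (g * s * s)))
    (hU : ∀ g, D g → LinearMap.trace k V (ρ g) = 2 ∧ LinearMap.det (ρ g) = 1)
    (s : G) (hs : D s) (hne : ρ s ≠ 1) :
    ∃ v : V, v ≠ 0 ∧ ∀ g, ∃ a : k, ρ g v = a • v := by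
  have hfin : Module.Finite k V := Module.finite_of_finrank_eq_succ hV
  obtain ⟨htrU, hdetU⟩ := hU s hs
  set N : V →ₗ[k] V := ρ s - 1 with hN
  have hUs : ρ s = 1 + N := by rw [hN]; abel
  have hNN : N * N = 0 := by
    have hch := end_CH_two hV (ρ s)
    rw [htrU, hdetU, one_smul] at hch
    have : N * N = ρ s * ρ s - (2 : k) • ρ s + 1 := by
      rw [hN, sub_mul, mul_sub, mul_one, one_mul, two_smul]
      abel
    rw [this, hch]
    abel
  have hN0 : N ≠ 0 := sub_ne_zero.mpr hne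
  obtain ⟨w, hw⟩ : ∃ w, N w ≠ 0 := by
    by_contra hcon
    push Not at hcon
    exact hN0 (LinearMap.ext fun w => by simpa using hcon w)
  set v : V := N w with hvdef
  have hNv : N v = 0 := by
    rw [hvdef, ← Module.End.mul_apply, hNN]
    rfl
  have hker : ∀ x, N x = 0 → ∃ c : k, x = c • v := fun x hx => mem_span_of_ker hV hN0 hw hNv hx
  -- elements of `H` preserve the line
  have hH : ∀ g, g ∈ H → N (ρ g v) = 0 := by
    intro g hg
    have e1 : ρ (g * s) = ρ g + ρ g * N := by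
      rw [map_mul, hUs, mul_add, mul_one]
    have e2 : ρ (g * s * s) = ρ g + (2 : k) • (ρ g * N) := by
      rw [map_mul, map_mul, hUs, mul_assoc]
      have : (1 + N) * (1 + N) = 1 + (2 : k) • N := by
        rw [add_mul, mul_add, mul_add, one_mul, mul_one, one_mul, hNN, two_smul]
        abel
      rw [this, mul_add, mul_one, mul_smul_comm]
    have t1 : LinearMap.trace k V (ρ (g * s)) =
        LinearMap.trace k V (ρ g) + LinearMap.trace k V (ρ g * N) := by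
      rw [e1, map_add]
    have t2 : LinearMap.trace k V (ρ (g * s * s)) =
        LinearMap.trace k V (ρ g) + 2 * LinearMap.trace k V (ρ g * N) := by
      rw [e2, map_add, map_smul, smul_eq_mul]
    have hτ : LinearMap.trace k V (ρ g * N) = 0 := by
      rcases hD2 g s hg hs with ⟨h0, h1⟩ | ⟨h0, h1⟩ | ⟨h0, h1⟩
      · have a0 := (hU _ h0).1
        have a1 := (hU _ h1).1
        rw [t1, a0] at a1
        exact add_eq_left.mp a1
      · have a0 := (hU _ h0).1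
        have a1 := (hU _ h1).1
        rw [t2, a0] at a1
        have := add_eq_left.mp a1
        exact (mul_eq_zero.mp this).resolve_left h2
      · have a0 := (hU _ h0).1
        have a1 := (hU _ h1).1
        rw [t1] at a0
        rw [t2] at a1
        linear_combination a1 - a0
    have hsw := sq_zero_sandwich hV hNN (rho_inv_mul ρ g)
    rw [hτ, zero_smul] at hsw
    have : N (ρ g v) = (N * ρ g * N) w := by
      rw [hvdef, Module.End.mul_apply, Module.End.mul_apply]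
    rw [this, hsw]
    rfl
  refine ⟨v, hw, fun g => ?_⟩
  -- `h = g⁻¹ s g ∈ H`
  have hsH : s ∈ H := hDH s hs
  have hh : g⁻¹ * s * g ∈ H := by
    have h1 := hcomm g⁻¹ s
    have h2' := H.mul_mem h1 hsH
    have : g⁻¹ * s * g⁻¹⁻¹ * s⁻¹ * s = g⁻¹ * s * g := by group
    rwa [this] at h2'
  obtain ⟨a, ha⟩ := hker _ (hH _ hh)
  set u : V := ρ g v with hu
  have hsu : ρ s u = a • u := by
    have : s * g = g * (g⁻¹ * s * g) := by group
    rw [hu, ← Module.End.mul_apply, ← map_mul, this, map_mul, Module.End.mul_apply, ha,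
      map_smul]
  have hNu : N u = (a - 1) • u := by
    rw [hN, LinearMap.sub_apply, hsu, Module.End.one_apply, sub_smul, one_smul]
  have hu0 : u ≠ 0 := by
    intro h0
    apply hw
    have : v = ρ g⁻¹ u := by
      rw [hu, ← Module.End.mul_apply, rho_inv_mul, Module.End.one_apply]
    rw [this, h0, map_zero]
  have hNNu : N (N u) = 0 := by
    rw [← Module.End.mul_apply, hNN]
    rfl
  have ha1 : a - 1 = 0 := by
    by_contra hne1
    rw [hNu, map_smul, hNu, smul_smul] at hNNu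
    rcases smul_eq_zero.mp hNNu with h | h
    · exact hne1 (mul_self_eq_zero.mp h)
    · exact hu0 h
  rw [ha1, zero_smul] at hNu
  exact hker u hNu

/-- Case 2: abelian image and an involution of determinant `-1`. -/
lemma dgrp_case2 (h2 : (2 : k) ≠ 0) (hV : finrank k V = 2) (ρ : G →* (V →ₗ[k] V))
    (hab : ∀ g g' : G, ρ g * ρ g' = ρ g' * ρ g)
    (c : G) (hcc : c * c = 1) (hdet : LinearMap.det (ρ c) = -1) :
    ∃ v : V, v ≠ 0 ∧ ∀ g, ∃ a : k, ρ g v = a • v := by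
  have hfin : Module.Finite k V := Module.finite_of_finrank_eq_succ hV
  set X : V →ₗ[k] V := ρ c with hX
  have hXX : X * X = 1 := by rw [hX, ← map_mul, hcc, map_one]
  have hne : (-1 : k) ≠ 1 := by
    intro h
    apply h2
    have : (2 : k) = 1 - (-1) := by ring
    rw [this, h, sub_self]
  have hX1 : X - 1 ≠ 0 := by
    intro h
    have : X = 1 := sub_eq_zero.mp h
    rw [this, map_one] at hdet
    exact hne hdet.symm
  have hX2 : X + 1 ≠ 0 := by
    intro h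
    have : X = (-1 : k) • (1 : V →ₗ[k] V) := by
      rw [neg_smul, one_smul]
      exact eq_neg_of_add_eq_zero_left h
    rw [this, LinearMap.det_smul, hV, map_one] at hdet
    apply hne
    rw [← hdet]
    ring
  have hprod : (X - 1) * (X + 1) = 0 := by
    rw [sub_mul, mul_add, mul_one, one_mul, hXX]
    abel
  obtain ⟨w, hw⟩ : ∃ w, (X + 1) w ≠ 0 := by
    by_contra hcon
    push Not at hcon
    exact hX2 (LinearMap.ext fun w => by simpa using hcon w)
  set v : V := (X + 1) w with hvdef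
  have hXv : (X - 1) v = 0 := by
    rw [hvdef, ← Module.End.mul_apply, hprod]
    rfl
  refine ⟨v, hw, fun g => ?_⟩
  apply mem_span_of_ker hV hX1 hw hXv
  have hcomm' : (X - 1) * ρ g = ρ g * (X - 1) := by
    rw [sub_mul, mul_sub, one_mul, mul_one, hX, hab]
  rw [← Module.End.mul_apply, hcomm', Module.End.mul_apply, hXv, map_zero]

/-- **D-GRP, predicate form.** -/
theorem dgrp_pred (h2 : (2 : k) ≠ 0) (hV : finrank k V = 2) (ρ : G →* (V →ₗ[k] V))
    (H : Subgroup G) (hcomm : ∀ g g' : G, g * g' * g⁻¹ * g'⁻¹ ∈ H)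
    (D : G → Prop) (hDH : ∀ s, D s → s ∈ H) (hex : ∃ s, D s)
    (hD2 : ∀ g s, g ∈ H → D s →
      (D g ∧ D (g * s)) ∨ (D g ∧ D (g * s * s)) ∨ (D (g * s) ∧ D (g * s * s)))
    (hU : ∀ g, D g → LinearMap.trace k V (ρ g) = 2 ∧ LinearMap.det (ρ g) = 1)
    (hc : ∃ c : G, c * c = 1 ∧ LinearMap.det (ρ c) = -1) :
    ∃ v : V, v ≠ 0 ∧ ∀ g, ∃ a : k, ρ g v = a • v := by
  by_cases hcase : ∃ s, D s ∧ ρ s ≠ 1
  · obtain ⟨s, hs, hne⟩ := hcase
    exact dgrp_case1 h2 hV ρ H hcomm D hDH hD2 hU s hs hne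
  · push Not at hcase
    obtain ⟨s₀, hs₀⟩ := hex
    have hs₀1 : ρ s₀ = 1 := hcase s₀ hs₀
    have hH1 : ∀ g, g ∈ H → ρ g = 1 := by
      intro g hg
      rcases hD2 g s₀ hg hs₀ with ⟨h0, _⟩ | ⟨h0, _⟩ | ⟨h0, _⟩
      · exact hcase g h0
      · exact hcase g h0
      · have := hcase _ h0
        rwa [map_mul, hs₀1, mul_one] at this
    have hab : ∀ g g' : G, ρ g * ρ g' = ρ g' * ρ g := by
      intro g g'
      have e : g * g' = (g * g' * g⁻¹ * g'⁻¹) * (g' * g) := by group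
      rw [← map_mul, e, map_mul, hH1 _ (hcomm g g'), one_mul, map_mul]
    obtain ⟨c, hcc, hdet⟩ := hc
    exact dgrp_case2 h2 hV ρ hab c hcc hdet

/-- **D-GRP, homomorphism form.** -/
theorem dgrp (h2 : (2 : k) ≠ 0) (hV : finrank k V = 2) (ρ : G →* (V →ₗ[k] V))
    (H : Subgroup G) (hcomm : ∀ g g' : G, g * g' * g⁻¹ * g'⁻¹ ∈ H)
    {A : Type*} [Group A] (κ : H →* A)
    (hodd : ∀ g : H, κ g * κ g = 1 → κ g = 1) (hex : ∃ s : H, κ s ≠ 1)
    (hU : ∀ g : H, κ g ≠ 1 →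
      LinearMap.trace k V (ρ g) = 2 ∧ LinearMap.det (ρ (g : G)) = 1)
    (hc : ∃ c : G, c * c = 1 ∧ LinearMap.det (ρ c) = -1) :
    ∃ v : V, v ≠ 0 ∧ ∀ g, ∃ a : k, ρ g v = a • v := by
  refine dgrp_pred h2 hV ρ H hcomm (fun g => ∃ h : g ∈ H, κ ⟨g, h⟩ ≠ 1)
    (fun s hs => hs.1) ?_ ?_ ?_ hc
  · obtain ⟨s, hs⟩ := hex
    exact ⟨s, s.2, hs⟩
  · rintro g s hg ⟨hsH, hs⟩
    have hgs : g * s ∈ H := H.mul_mem hg hsH
    have hgss : g * s * s ∈ H := H.mul_mem hgs hsH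
    have e1 : κ ⟨g * s, hgs⟩ = κ ⟨g, hg⟩ * κ ⟨s, hsH⟩ := by
      rw [← map_mul]; rfl
    have e2 : κ ⟨g * s * s, hgss⟩ = κ ⟨g, hg⟩ * κ ⟨s, hsH⟩ * κ ⟨s, hsH⟩ := by
      rw [← map_mul, ← map_mul]; rfl
    by_cases c0 : κ ⟨g, hg⟩ = 1
    · -- then `g s` and `g s s` are in `D`
      right; right
      refine ⟨⟨hgs, ?_⟩, ⟨hgss, ?_⟩⟩
      · rw [e1, c0, one_mul]; exact hs
      · rw [e2, c0, one_mul]
        intro h
        exact hs (hodd _ h)
    · by_cases c1 : κ ⟨g * s, hgs⟩ = 1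
      · right; left
        refine ⟨⟨hg, c0⟩, ⟨hgss, ?_⟩⟩
        rw [e2, ← e1, c1, one_mul]; exact hs
      · left
        exact ⟨⟨hg, c0⟩, ⟨hgs, c1⟩⟩
  · rintro g ⟨hg, hκ⟩
    exact hU ⟨g, hg⟩ hκ

end

theorem stmt_DGRP_pred : Stmt_DGRP_pred := by
  intro k _ h2 V _ _ hV G _ ρ H hcomm D hDH hex hD2 hU hc
  exact dgrp_pred h2 hV ρ H hcomm D hDH hex hD2 hU hc

theorem stmt_DGRP : Stmt_DGRP := by
  intro k _ h2 V _ _ hV G _ ρ H hcomm A _ κ hodd hex hU hc
  exact dgrp h2 hV ρ H hcomm κ hodd hex hU hc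

end Fermat.Agent.S41.H78

end
-- ==== END Fermat.Agent.S41.H78_DGrp

-- ==== BEGIN Fermat.Agent.S41.H94_Pot
section

/-!
# S41, package P (Poincare duality), part P2a: potentials

`j : H →* G` a homomorphism, `φ : Additive H →+ k`.  A *potential* of `φ` is a function `Φ : G → k` with
`Φ (x * j h) = Φ x + φ h`.  If `φ` kills `H ∩ x⁻¹ ⟨g⟩ x` for all `x`, there is a potential which is invariant
under left multiplication by `g`.
-/

set_option autoImplicit false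

namespace Fermat.Agent.S41.H94

section Potentials

variable {G : Type*} [Group G] {H : Type*} [Group H] {k : Type*} [Field k]

/-- `Φ` is a potential of `φ` along `j`. -/
def IsPot (j : H →* G) (φ : Additive H →+ k) (Φ : G → k) : Prop :=
  ∀ (x : G) (h : H), Φ (x * j h) = Φ x + φ (Additive.ofMul h)

/-- `φ` kills every element of `H` whose image is conjugate in `G` to a power of `g`. -/
def KillsConj (j : H →* G) (φ : Additive H →+ k) (g : G) : Prop :=
  ∀ (x : G) (n : ℤ) (h : H), j h = x⁻¹ * g ^ n * x → φ (Additive.ofMul h) = 0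

theorem IsPot.add {j : H →* G} {φ φ' : Additive H →+ k} {Φ Φ' : G → k}
    (h : IsPot j φ Φ) (h' : IsPot j φ' Φ') : IsPot j (φ + φ') (Φ + Φ') := by
  intro x y
  simp only [Pi.add_apply, AddMonoidHom.add_apply, h x y, h' x y]
  ring

theorem IsPot.smul {j : H →* G} {φ : Additive H →+ k} {Φ : G → k}
    (h : IsPot j φ Φ) (r : k) : IsPot j (r • φ) (r • Φ) := by
  intro x y
  simp only [Pi.smul_apply, AddMonoidHom.smul_apply, h x y, smul_eq_mul]
  ring

theorem IsPot.sub_const {j : H →* G} {φ : Additive H →+ k} {Φ : G → k}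
    (h : IsPot j φ Φ) {c : G → k} (hc : ∀ x y, c (x * j y) = c x) :
    IsPot j φ (fun x => Φ x - c x) := by
  intro x y
  simp only [h x y, hc x y]
  ring

theorem IsPot.add_const {j : H →* G} {φ : Additive H →+ k} {Φ : G → k}
    (h : IsPot j φ Φ) {c : G → k} (hc : ∀ x y, c (x * j y) = c x) :
    IsPot j φ (fun x => Φ x + c x) := by
  intro x y
  simp only [h x y, hc x y]
  ring

/-- The difference of two potentials of `φ` is right-invariant. -/
theorem IsPot.sub_rightInv {j : H →* G} {φ : Additive H →+ k} {Φ Φ' : G → k}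
    (h : IsPot j φ Φ) (h' : IsPot j φ Φ') (x : G) (y : H) :
    Φ (x * j y) - Φ' (x * j y) = Φ x - Φ' x := by
  rw [h x y, h' x y]; ring

/-- A hom with a left-`g`-invariant potential kills the conjugates of powers of `g`. -/
theorem killsConj_of_pot {j : H →* G} {φ : Additive H →+ k} {Φ : G → k} (hΦ : IsPot j φ Φ)
    {g : G} (hg : ∀ x, Φ (g * x) = Φ x) : KillsConj j φ g := by
  intro x n h hh
  have hpow : ∀ (m : ℤ) (y : G), Φ (g ^ m * y) = Φ y := by
    intro m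
    induction m using Int.induction_on with
    | zero => intro y; simp
    | succ i ih =>
      intro y
      rw [zpow_add_one, mul_assoc, ih, hg]
    | pred i ih =>
      intro y
      rw [zpow_sub_one, mul_assoc, ih]
      have := hg (g⁻¹ * y)
      rw [mul_inv_cancel_left] at this
      exact this.symm
  have h1 := hΦ x h
  rw [hh] at h1
  have h2 : x * (x⁻¹ * g ^ n * x) = g ^ n * x := by group
  rw [h2, hpow] at h1
  exact (add_eq_left.mp h1.symm)

/-- Existence of a left-`g`-invariant potential. -/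
theorem exists_pot_leftInv (j : H →* G) (φ : Additive H →+ k) (g : G) (hφ : KillsConj j φ g) :
    ∃ Φ : G → k, IsPot j φ Φ ∧ ∀ x, Φ (g * x) = Φ x := by
  classical
  let r : G → G := fun x => (DoubleCoset.mk (Subgroup.zpowers g) j.range x).out
  have hr : ∀ x, ∃ (n : ℤ) (h : H), x = g ^ n * r x * j h := by
    intro x
    obtain ⟨a, b, ha, hb, hab⟩ := DoubleCoset.mk_out_eq_mul (Subgroup.zpowers g) j.range x
    obtain ⟨n, rfl⟩ := Subgroup.mem_zpowers_iff.mp ha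
    obtain ⟨h, rfl⟩ := hb
    refine ⟨-n, h⁻¹, ?_⟩
    have : r x = g ^ n * x * j h := hab
    rw [this, map_inv, zpow_neg]; group
  have hr1 : ∀ x, r (g * x) = r x := by
    intro x
    have : DoubleCoset.mk (Subgroup.zpowers g) j.range (g * x)
        = DoubleCoset.mk (Subgroup.zpowers g) j.range x := by
      rw [eq_comm, DoubleCoset.eq]
      exact ⟨g, Subgroup.mem_zpowers g, 1, one_mem _, by rw [mul_one]⟩
    show (DoubleCoset.mk (Subgroup.zpowers g) j.range (g * x)).out = _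
    rw [this]
  have hr2 : ∀ x y, r (x * j y) = r x := by
    intro x y
    have : DoubleCoset.mk (Subgroup.zpowers g) j.range (x * j y)
        = DoubleCoset.mk (Subgroup.zpowers g) j.range x := by
      rw [eq_comm, DoubleCoset.eq]
      exact ⟨1, one_mem _, j y, ⟨y, rfl⟩, by rw [one_mul]⟩
    show (DoubleCoset.mk (Subgroup.zpowers g) j.range (x * j y)).out = _
    rw [this]
  -- independence of the decomposition
  have hind : ∀ (ρ : G) (n n' : ℤ) (h h' : H), g ^ n * ρ * j h = g ^ n' * ρ * j h' →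
      φ (Additive.ofMul h) = φ (Additive.ofMul h') := by
    intro ρ n n' h h' heq
    have h1 : j (h' * h⁻¹) = ρ⁻¹ * g ^ (n - n') * ρ := by
      rw [map_mul, map_inv, zpow_sub]
      have : j h' = ρ⁻¹ * (g ^ n')⁻¹ * (g ^ n * ρ * j h) := by rw [heq]; group
      rw [this]; group
    have h2 := hφ ρ (n - n') (h' * h⁻¹) h1
    have h3 : φ (Additive.ofMul (h' * h⁻¹)) = φ (Additive.ofMul h') - φ (Additive.ofMul h) := by
      rw [ofMul_mul, ofMul_inv, map_add, map_neg]; ring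
    rw [h3] at h2
    exact (sub_eq_zero.mp h2).symm
  choose n h hx using hr
  refine ⟨fun x => φ (Additive.ofMul (h x)), ?_, ?_⟩
  · intro x y
    show φ (Additive.ofMul (h (x * j y))) = φ (Additive.ofMul (h x)) + φ (Additive.ofMul y)
    have e1 : g ^ n (x * j y) * r x * j (h (x * j y)) = g ^ n x * r x * j (h x * y) := by
      have := hx (x * j y)
      rw [hr2] at this
      rw [← this, map_mul, ← mul_assoc, ← hx x]
    rw [hind (r x) _ _ _ _ e1, ofMul_mul, map_add]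
  · intro x
    show φ (Additive.ofMul (h (g * x))) = φ (Additive.ofMul (h x))
    have e1 : g ^ n (g * x) * r x * j (h (g * x)) = g ^ (1 + n x) * r x * j (h x) := by
      have := hx (g * x)
      rw [hr1] at this
      rw [← this, zpow_one_add, mul_assoc, mul_assoc, ← mul_assoc (g ^ n x), ← hx x]
    exact hind (r x) _ _ _ _ e1

end Potentials

end Fermat.Agent.S41.H94

end
-- ==== END Fermat.Agent.S41.H94_Pot

-- ==== BEGIN Fermat.Agent.S41.Lead_C3
section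

/-!
# S41, package P, leaf C3: an element of `SL(2,ℤ)` of trace `-1` is conjugate to `τ` or `τ⁻¹`.

Descent on `|c|`: conjugate by a power of `T` to get `|2a+1| ≤ |c|`, then by `S`.
-/

set_option autoImplicit false

open scoped MatrixGroups

namespace Fermat.Agent.S41.Lead

open Fermat.Agent.S41.H94

/-- the property to be proved -/
def C3Prop (γ : SL(2, ℤ)) : Prop :=
  ∃ x : SL(2, ℤ), γ = x⁻¹ * tau * x ∨ γ = x⁻¹ * tau⁻¹ * x

theorem c3Prop_of_conj (γ δ : SL(2, ℤ)) (h : C3Prop (δ⁻¹ * γ * δ)) : C3Prop γ := by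
  obtain ⟨x, hx | hx⟩ := h
  · refine ⟨x * δ⁻¹, Or.inl ?_⟩
    have : γ = δ * (δ⁻¹ * γ * δ) * δ⁻¹ := by group
    rw [this, hx]; group
  · refine ⟨x * δ⁻¹, Or.inr ?_⟩
    have : γ = δ * (δ⁻¹ * γ * δ) * δ⁻¹ := by group
    rw [this, hx]; group

theorem c3_det (γ : SL(2, ℤ)) : γ 0 0 * γ 1 1 - γ 0 1 * γ 1 0 = 1 := by
  have := γ.det_coe
  rwa [Matrix.det_fin_two] at this

/-- entries of `(T^n)⁻¹ * γ * T^n` -/
theorem c3_conjT (γ : SL(2, ℤ)) (n : ℤ) :
    ((((ModularGroup.T ^ n)⁻¹ * γ * ModularGroup.T ^ n : SL(2, ℤ)) :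
        Matrix (Fin 2) (Fin 2) ℤ) 0 0 = γ 0 0 - n * γ 1 0) ∧
    ((((ModularGroup.T ^ n)⁻¹ * γ * ModularGroup.T ^ n : SL(2, ℤ)) :
        Matrix (Fin 2) (Fin 2) ℤ) 1 0 = γ 1 0) ∧
    ((((ModularGroup.T ^ n)⁻¹ * γ * ModularGroup.T ^ n : SL(2, ℤ)) :
        Matrix (Fin 2) (Fin 2) ℤ) 1 1 = γ 1 1 + n * γ 1 0) := by
  simp only [Matrix.SpecialLinearGroup.coe_mul, Matrix.SpecialLinearGroup.coe_inv,
    ModularGroup.coe_T_zpow,
    Matrix.adjugate_fin_two, Matrix.mul_apply, Fin.sum_univ_two, Matrix.of_apply,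
    Matrix.cons_val_zero, Matrix.cons_val_one, Matrix.cons_val', Matrix.cons_val_fin_one]
  refine ⟨by ring, by ring, by ring⟩

/-- entries of `S⁻¹ * γ * S` -/
theorem c3_conjS (γ : SL(2, ℤ)) :
    (((ModularGroup.S⁻¹ * γ * ModularGroup.S : SL(2, ℤ)) :
        Matrix (Fin 2) (Fin 2) ℤ) 0 0 = γ 1 1) ∧
    (((ModularGroup.S⁻¹ * γ * ModularGroup.S : SL(2, ℤ)) :
        Matrix (Fin 2) (Fin 2) ℤ) 1 0 = - γ 0 1) ∧
    (((ModularGroup.S⁻¹ * γ * ModularGroup.S : SL(2, ℤ)) :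
        Matrix (Fin 2) (Fin 2) ℤ) 1 1 = γ 0 0) := by
  simp only [Matrix.SpecialLinearGroup.coe_mul, Matrix.SpecialLinearGroup.coe_inv,
    ModularGroup.coe_S,
    Matrix.adjugate_fin_two, Matrix.mul_apply, Fin.sum_univ_two, Matrix.of_apply,
    Matrix.cons_val_zero, Matrix.cons_val_one, Matrix.cons_val', Matrix.cons_val_fin_one]
  refine ⟨by ring, by ring, by ring⟩

/-- an element of `SL(2,ℤ)` is determined by three entries and `c ≠ 0` -/
theorem c3_ext (g h : SL(2, ℤ)) (h00 : g 0 0 = h 0 0) (h10 : g 1 0 = h 1 0) (h11 : g 1 1 = h 1 1)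
    (hc : g 1 0 ≠ 0) : g = h := by
  have hg := c3_det g
  have hh := c3_det h
  have h01 : g 0 1 = h 0 1 := by
    have : g 0 1 * g 1 0 = h 0 1 * g 1 0 := by
      have e1 : g 0 1 * g 1 0 = g 0 0 * g 1 1 - 1 := by linarith
      have e2 : h 0 1 * h 1 0 = h 0 0 * h 1 1 - 1 := by linarith
      rw [e1, h10, e2, h00, h11]
    exact mul_right_cancel₀ hc this
  apply Subtype.ext
  ext i j
  fin_cases i <;> fin_cases j
  · exact h00
  · exact h01
  · exact h10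
  · exact h11

theorem c3_tau_entries :
    ((tau : SL(2, ℤ)) : Matrix (Fin 2) (Fin 2) ℤ) 0 0 = -1 ∧
    ((tau : SL(2, ℤ)) : Matrix (Fin 2) (Fin 2) ℤ) 1 0 = -1 ∧
    ((tau : SL(2, ℤ)) : Matrix (Fin 2) (Fin 2) ℤ) 1 1 = 0 := by
  simp only [tau, Matrix.SpecialLinearGroup.coe_mul, Matrix.SpecialLinearGroup.coe_inv,
    ModularGroup.coe_S, ModularGroup.coe_T,
    Matrix.adjugate_fin_two, Matrix.mul_apply, Fin.sum_univ_two, Matrix.of_apply,
    Matrix.cons_val_zero, Matrix.cons_val_one, Matrix.cons_val', Matrix.cons_val_fin_one]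
  refine ⟨by ring, by ring, by ring⟩

theorem c3_tau_inv_entries :
    ((tau⁻¹ : SL(2, ℤ)) : Matrix (Fin 2) (Fin 2) ℤ) 0 0 = 0 ∧
    ((tau⁻¹ : SL(2, ℤ)) : Matrix (Fin 2) (Fin 2) ℤ) 1 0 = 1 ∧
    ((tau⁻¹ : SL(2, ℤ)) : Matrix (Fin 2) (Fin 2) ℤ) 1 1 = -1 := by
  simp only [tau, Matrix.SpecialLinearGroup.coe_mul, Matrix.SpecialLinearGroup.coe_inv,
    ModularGroup.coe_S, ModularGroup.coe_T,
    Matrix.adjugate_fin_two, Matrix.mul_apply, Fin.sum_univ_two, Matrix.of_apply,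
    Matrix.cons_val_zero, Matrix.cons_val_one, Matrix.cons_val', Matrix.cons_val_fin_one]
  refine ⟨by ring, by ring, by ring⟩

/-- balancing, positive case -/
theorem c3_balance_pos (a c : ℤ) (hc : 0 < c) :
    ∃ n : ℤ, |2 * (a - n * c) + 1| ≤ c := by
  have hpos : 0 < 2 * c := by positivity
  have hr0 : 0 ≤ (2 * a + 1 + c) % (2 * c) := Int.emod_nonneg _ (ne_of_gt hpos)
  have hr1 : (2 * a + 1 + c) % (2 * c) < 2 * c := Int.emod_lt_of_pos _ hpos
  have hdiv : 2 * c * ((2 * a + 1 + c) / (2 * c)) + (2 * a + 1 + c) % (2 * c) = 2 * a + 1 + c :=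
    Int.mul_ediv_add_emod _ _
  refine ⟨(2 * a + 1 + c) / (2 * c), ?_⟩
  rw [abs_le]
  constructor <;> nlinarith

/-- balancing: for `c ≠ 0` and any `a` there is `n` with `|2 (a - n c) + 1| ≤ |c|`. -/
theorem c3_balance (a c : ℤ) (hc : c ≠ 0) :
    ∃ n : ℤ, |2 * (a - n * c) + 1| ≤ |c| := by
  rcases lt_or_gt_of_ne hc with h | h
  · obtain ⟨n, hn⟩ := c3_balance_pos a (-c) (by linarith)
    refine ⟨-n, ?_⟩
    rw [abs_of_neg h]
    have : 2 * (a - -n * c) + 1 = 2 * (a - n * -c) + 1 := by ring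
    rw [this]; exact hn
  · obtain ⟨n, hn⟩ := c3_balance_pos a c h
    exact ⟨n, by rw [abs_of_pos h]; exact hn⟩

/-- the descent -/
theorem c3_descent : ∀ (N : ℕ) (γ : SL(2, ℤ)),
    (γ : Matrix (Fin 2) (Fin 2) ℤ).trace = -1 →
    ((γ : Matrix (Fin 2) (Fin 2) ℤ) 1 0).natAbs = N → C3Prop γ := by
  intro N
  induction N using Nat.strong_induction_on with
  | _ N ih =>
    intro γ htr hN
    have hdet := c3_det γ
    rw [Matrix.trace_fin_two] at htr
    -- c ≠ 0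
    have hc : γ 1 0 ≠ 0 := by
      intro h0
      rw [h0, mul_zero, sub_zero] at hdet
      have hd : γ 1 1 = -1 - γ 0 0 := by linarith
      rw [hd] at hdet
      nlinarith [sq_nonneg (2 * γ 0 0 + 1)]
    obtain ⟨n, hn⟩ := c3_balance (γ 0 0) (γ 1 0) hc
    -- conjugate by T^n
    set g : SL(2, ℤ) := (ModularGroup.T ^ n)⁻¹ * γ * ModularGroup.T ^ n with hg
    obtain ⟨g00, g10, g11⟩ := c3_conjT γ n
    rw [← hg] at g00 g10 g11
    have hgdet := c3_det g
    have hgtr : g 0 0 + g 1 1 = -1 := by rw [g00, g11]; linarith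
    have hgc : g 1 0 ≠ 0 := by rw [g10]; exact hc
    have hbal : |2 * g 0 0 + 1| ≤ |g 1 0| := by rw [g00, g10]; exact hn
    apply c3Prop_of_conj γ (ModularGroup.T ^ n)
    rw [← hg]
    -- now work with g
    have hbc : g 0 1 * g 1 0 = -(g 0 0 ^ 2 + g 0 0 + 1) := by
      have hd : g 1 1 = -1 - g 0 0 := by linarith
      rw [hd] at hgdet
      nlinarith
    by_cases h1 : |g 1 0| = 1
    · -- base case: 2 a + 1 is odd of absolute value ≤ 1
      have ha : g 0 0 = -1 ∨ g 0 0 = 0 := by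
        rw [h1, abs_le] at hbal
        omega
      rcases abs_eq (by norm_num : (0:ℤ) ≤ 1) |>.mp h1 with hc1 | hc1
      · -- c = 1
        rcases ha with ha | ha
        · -- a = -1, d = 0, c = 1 : this is S⁻¹ τ⁻¹ S
          apply c3Prop_of_conj g ModularGroup.S
          refine ⟨1, Or.inr ?_⟩
          obtain ⟨s00, s10, s11⟩ := c3_conjS g
          obtain ⟨t00, t10, t11⟩ := c3_tau_inv_entries
          have hb : g 0 1 = -1 := by
            rw [hc1, ha] at hbc; linarith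
          have hd : g 1 1 = 0 := by linarith
          rw [inv_one, one_mul, mul_one]
          apply c3_ext _ tau⁻¹ (by rw [s00, t00, hd]) (by rw [s10, t10, hb]; norm_num)
            (by rw [s11, t11, ha])
          rw [s10, hb]; norm_num
        · -- a = 0, d = -1, c = 1 : this is τ⁻¹
          refine ⟨1, Or.inr ?_⟩
          obtain ⟨t00, t10, t11⟩ := c3_tau_inv_entries
          rw [inv_one, one_mul, mul_one]
          apply c3_ext g tau⁻¹ (by rw [ha, t00]) (by rw [hc1, t10]) (by rw [t11]; linarith) hgc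
      · -- c = -1
        rcases ha with ha | ha
        · -- a = -1, d = 0, c = -1 : this is τ
          refine ⟨1, Or.inl ?_⟩
          obtain ⟨t00, t10, t11⟩ := c3_tau_entries
          rw [inv_one, one_mul, mul_one]
          apply c3_ext g tau (by rw [ha, t00]) (by rw [hc1, t10]) (by rw [t11]; linarith) hgc
        · -- a = 0, d = -1, c = -1 : this is S⁻¹ τ S
          apply c3Prop_of_conj g ModularGroup.S
          refine ⟨1, Or.inl ?_⟩
          obtain ⟨s00, s10, s11⟩ := c3_conjS g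
          obtain ⟨t00, t10, t11⟩ := c3_tau_entries
          have hb : g 0 1 = 1 := by
            rw [hc1, ha] at hbc; linarith
          have hd : g 1 1 = -1 := by linarith
          rw [inv_one, one_mul, mul_one]
          apply c3_ext _ tau (by rw [s00, t00, hd]) (by rw [s10, t10, hb])
            (by rw [s11, t11, ha])
          rw [s10, hb]; norm_num
    · -- |c| ≥ 2: conjugate by S and use the induction hypothesis
      have hc2 : 2 ≤ |g 1 0| := by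
        have : 0 < |g 1 0| := abs_pos.mpr hgc
        omega
      obtain ⟨s00, s10, s11⟩ := c3_conjS g
      apply c3Prop_of_conj g ModularGroup.S
      have hlt : |g 0 1| < |g 1 0| := by
        have h4 : 4 * (|g 0 1| * |g 1 0|) = (2 * g 0 0 + 1) ^ 2 + 3 := by
          rw [← abs_mul, hbc, abs_neg, abs_of_nonneg (by nlinarith [sq_nonneg (2 * g 0 0 + 1)])]
          ring
        have h5 : (2 * g 0 0 + 1) ^ 2 ≤ |g 1 0| ^ 2 := by
          rw [← sq_abs (2 * g 0 0 + 1)]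
          exact pow_le_pow_left₀ (abs_nonneg _) hbal 2
        by_contra hge
        rw [not_lt] at hge
        nlinarith [abs_nonneg (g 0 1), abs_nonneg (g 1 0)]
      refine ih ((ModularGroup.S⁻¹ * g * ModularGroup.S : SL(2, ℤ)) 1 0).natAbs ?_ _ ?_ rfl
      · rw [← hN, s10, Int.natAbs_neg]
        have : (g 0 1).natAbs < (g 1 0).natAbs := by
          have := hlt
          rw [Int.abs_eq_natAbs, Int.abs_eq_natAbs] at this
          exact_mod_cast this
        rw [g10] at this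
        exact this
      · rw [Matrix.trace_fin_two, s00, s11]; linarith

/-- **C3**: an element of `SL(2,ℤ)` of trace `-1` is conjugate to `τ` or to `τ⁻¹`. -/
theorem stmt_C3 : Fermat.Agent.S41.H94.Stmt_C3 := by
  intro γ hγ
  exact c3_descent _ γ hγ rfl

end Fermat.Agent.S41.Lead

end
-- ==== END Fermat.Agent.S41.Lead_C3

-- ==== BEGIN Fermat.Agent.S41.Lead_PAR
section

/-!
# S41, package P, leaf PAR: an element of `SL(2,ℤ)` of trace `2` is conjugate to a power of `T`.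
-/

set_option autoImplicit false

open scoped MatrixGroups

namespace Fermat.Agent.S41.Lead

/-- the trace is invariant under conjugation -/
theorem lead_trace_conj (γ δ : SL(2, ℤ)) :
    ((δ⁻¹ * γ * δ : SL(2, ℤ)) : Matrix (Fin 2) (Fin 2) ℤ).trace =
      (γ : Matrix (Fin 2) (Fin 2) ℤ).trace := by
  have hdet : δ 0 0 * δ 1 1 - δ 0 1 * δ 1 0 = 1 := by
    have := δ.det_coe
    rwa [Matrix.det_fin_two] at this
  simp only [Matrix.trace_fin_two, Matrix.SpecialLinearGroup.coe_mul,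
    Matrix.SpecialLinearGroup.coe_inv,
    Matrix.adjugate_fin_two, Matrix.mul_apply, Fin.sum_univ_two, Matrix.of_apply,
    Matrix.cons_val_zero, Matrix.cons_val_one, Matrix.cons_val', Matrix.cons_val_fin_one]
  linear_combination (γ 0 0 + γ 1 1) * hdet

/-- an upper triangular element of `SL(2,ℤ)` of trace `2` is a power of `T` -/
theorem lead_eq_T_zpow_of_c_eq_zero (g : SL(2, ℤ))
    (hc : (g : Matrix (Fin 2) (Fin 2) ℤ) 1 0 = 0)
    (ht : (g : Matrix (Fin 2) (Fin 2) ℤ).trace = 2) :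
    g = ModularGroup.T ^ ((g : Matrix (Fin 2) (Fin 2) ℤ) 0 1) := by
  have hdet : g 0 0 * g 1 1 - g 0 1 * g 1 0 = 1 := by
    have := g.det_coe
    rwa [Matrix.det_fin_two] at this
  rw [Matrix.trace_fin_two] at ht
  have hc' : g 1 0 = 0 := hc
  rw [hc', mul_zero, sub_zero] at hdet
  have ha : g 0 0 = 1 := by nlinarith
  have hd : g 1 1 = 1 := by linarith
  apply Subtype.ext
  rw [ModularGroup.coe_T_zpow]
  ext i j
  fin_cases i <;> fin_cases j <;> simp [ha, hd, hc']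

/-- **PAR**: an element of `SL(2,ℤ)` of trace `2` is conjugate to a power of `T`. -/
theorem stmt_PAR : Fermat.Agent.S41.H94.Stmt_PAR := by
  intro γ hγ
  obtain ⟨δ, hδ⟩ := Fermat.Agent.S21.H86.exists_conj_lower_left_eq_zero γ (by rw [hγ]; norm_num)
  have ht : ((δ⁻¹ * γ * δ : SL(2, ℤ)) : Matrix (Fin 2) (Fin 2) ℤ).trace = 2 := by
    rw [lead_trace_conj, hγ]
  have h := lead_eq_T_zpow_of_c_eq_zero (δ⁻¹ * γ * δ) hδ ht
  refine ⟨δ⁻¹, ((δ⁻¹ * γ * δ : SL(2, ℤ)) : Matrix (Fin 2) (Fin 2) ℤ) 0 1, ?_⟩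
  rw [← h]
  group

end Fermat.Agent.S41.Lead

end
-- ==== END Fermat.Agent.S41.Lead_PAR

-- ==== BEGIN Fermat.Agent.S59.Asm.H2_SelqAD
section

/-!
# S59, RT-NONMIN, leaf SELq-AD (helper2)

The matrix of `X ↦ F X adj(F) - q² X` on traceless `2 × 2` matrices (coordinates `tl`) and its
determinant `q³ (q - 1) (tr(F)² - (q + 1)²)` when `det F = q`.

* `adMat F q` : the explicit `3 × 3` matrix; `adMat_spec`, `det_adMat`;
* `stmt_SELqAD : Stmt_SELqAD`.

This file contains no `sorry`.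
-/

set_option autoImplicit false
set_option linter.style.haveILetI false
set_option linter.unusedSectionVars false
set_option linter.unusedVariables false
set_option maxHeartbeats 1000000

noncomputable section

namespace Fermat.Agent.S59.Asm.H2

open Fermat.Agent.S59.Asm Matrix

variable {R : Type} [CommRing R]

/-- The matrix of `X ↦ F X adj(F) - q² X` on traceless matrices, coordinates `(y, z, m)`. -/
def adMat (F : Matrix (Fin 2) (Fin 2) R) (q : R) : Matrix (Fin 3) (Fin 3) R :=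
  !![F 0 0 ^ 2 - q ^ 2, -(F 0 1 ^ 2), -(2 * F 0 0 * F 0 1);
     -(F 1 0 ^ 2), F 1 1 ^ 2 - q ^ 2, 2 * F 1 0 * F 1 1;
     -(F 0 0 * F 1 0), F 0 1 * F 1 1, F 0 0 * F 1 1 + F 0 1 * F 1 0 - q ^ 2]

theorem adMat_spec (F : Matrix (Fin 2) (Fin 2) R) (q : R) (v : Fin 3 → R) :
    F * tl v * F.adjugate - q ^ 2 • tl v = tl ((adMat F q).mulVec v) := by
  rw [Matrix.adjugate_fin_two]
  ext i j
  fin_cases i <;> fin_cases j <;>
    simp [tl, adMat, Matrix.mul_apply, Fin.sum_univ_two, Fin.sum_univ_three, Matrix.mulVec,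
      dotProduct] <;> ring

theorem det_adMat (F : Matrix (Fin 2) (Fin 2) R) (q : R) (hq : F.det = q) :
    (adMat F q).det = q ^ 3 * (q - 1) * (F.trace ^ 2 - (q + 1) ^ 2) := by
  subst hq
  rw [Matrix.det_fin_three, Matrix.det_fin_two, Matrix.trace_fin_two]
  simp [adMat]
  ring

/-- **SELq-AD**. -/
theorem stmt_SELqAD : Stmt_SELqAD := by
  intro R _ F q hq
  exact ⟨adMat F q, adMat_spec F q, det_adMat F q hq⟩

end Fermat.Agent.S59.Asm.H2

end
end
-- ==== END Fermat.Agent.S59.Asm.H2_SelqAD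

-- ==== BEGIN Fermat.Agent.S59.Asm.H77_Main
section

/-!
# S59, package ASM (helper77): the Taylor–Wiles assembly

`stmt_ASM : Stmt_ASM`, following the six steps of `Asm/Main.lean`; the steps themselves are
proved in abstract form in `H77_MainAux.lean` (steps 2, 3), `H77_MainDelta.lean` (step 4) and
`H77_MainCompat.lean` (step 5).
-/

set_option autoImplicit false
set_option linter.unusedSectionVars false
set_option linter.unusedVariables false

open Polynomial CuspForm IsLocalRing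

namespace Fermat.Agent.S59.Asm.H77

open Fermat.Agent.S59 Fermat.Agent.S59.TWGal Fermat.Agent.S59.Asm

set_option maxHeartbeats 1000000 in
set_option synthInstance.maxHeartbeats 400000 in
/-- **ASM**: the Taylor–Wiles assembly. -/
theorem stmt_ASM : Stmt_ASM := by
  intro 𝒪 _ _ _ _ _ p _ hp2 hp𝒪 fl ρbar Smin hyp N _ _ S θ D H hHπ hHcond hHres φ hφ hφe M ηM hηM
    r n qv hTW _ _ DQ γ hγ G HQ hHQπ φQ hφQ hφQe
  have hp : p.Prime := Fact.out
  -- Step 1
  obtain ⟨ηW, hηW⟩ := H85.stmt_LOCMOD 𝒪 (twLevel N qv) (↑(twSet S qv) : Set ℕ)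
    (θ.comp G.rest) G.W
  obtain ⟨res, hres⟩ := H85.stmt_RESLOC 𝒪 N (twLevel N qv) (↑S : Set ℕ)
    (↑(twSet S qv) : Set ℕ) θ G.rest
  have hprimes : ∀ q ∈ Smin ∪ Finset.univ.image qv, q.Prime := by
    intro q hq
    rcases Finset.mem_union.1 hq with h | h
    · exact hyp.hS q h
    · obtain ⟨j, -, rfl⟩ := Finset.mem_image.1 h
      exact (hTW.2.1 j).1
  obtain ⟨τ, hτs, hτl, hτe⟩ := H99.stmt_TAU 𝒪 p hp2 hp𝒪 fl ρbar Smin (Finset.univ.image qv)
    hyp.hpSmin hprimes D DQ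
  -- Step 2
  have hgen : ∀ t, ηW (HQ.π t) = G.W.η t := fun t => by rw [hHQπ, hηW]
  have hgη : ∀ (g : GalQ) (x : CuspForm.heckeLocal (twLevel N qv) (↑(twSet S qv) : Set ℕ) 𝒪
      (θ.comp G.rest)), Commute (G.gal g) (ηW x) := fun g =>
    commute_of_gen HQ.adjoin_range_π ηW (G.gal g) fun t => by
      rw [hgen]
      exact G.gal_η g t
  have hdη : ∀ (j : Fin r) (x : CuspForm.heckeLocal (twLevel N qv) (↑(twSet S qv) : Set ℕ) 𝒪
      (θ.comp G.rest)), Commute (G.d j) (ηW x) := fun j =>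
    commute_of_gen HQ.adjoin_range_π ηW (G.d j) fun t => by
      rw [hgen]
      exact G.d_η j t
  have hVαη : ∀ (j : Fin r) (x : CuspForm.heckeLocal (twLevel N qv) (↑(twSet S qv) : Set ℕ) 𝒪
      (θ.comp G.rest)), ∀ v ∈ G.Vα j, ηW x v ∈ G.Vα j := fun j =>
    mem_of_gen HQ.adjoin_range_π ηW (G.Vα j) fun t v hv => by
      rw [hgen]
      exact G.Vα_η j t v hv
  have hπη : ∀ (x : CuspForm.heckeLocal (twLevel N qv) (↑(twSet S qv) : Set ℕ) 𝒪
      (θ.comp G.rest)) (v : G.W.V), G.π (ηW x v) = ηM (res x) (G.π v) :=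
    intertwine_of_gen HQ.adjoin_range_π ηW ηM res G.π fun t v => by
      rw [hgen, G.π_η, hHQπ, hres, hηM]
  -- the bad set
  have hbad : ∀ ℓ : ℕ, ℓ.Prime → ℓ ∉ twSet S qv ∪ (twLevel N qv).primeFactors →
      (¬ ℓ ∣ twLevel N qv) ∧ ℓ ∉ (↑(twSet S qv) : Set ℕ) ∧ (¬ ℓ ∣ N) ∧ ℓ ∉ (↑S : Set ℕ) := by
    intro ℓ hℓ hℓS
    have h1 : ¬ ℓ ∣ twLevel N qv := fun h => hℓS (Finset.mem_union_right _
      (Nat.mem_primeFactors.2 ⟨hℓ, h, NeZero.ne _⟩))
    have h2 : ℓ ∉ (↑(twSet S qv) : Set ℕ) := fun h => hℓS (Finset.mem_union_left _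
      (Finset.mem_coe.1 h))
    exact ⟨h1, h2, fun h => h1 (h.trans (H41.dvd_twLevel N qv)),
      fun h => h2 (H41.subset_twSet S qv h)⟩
  -- Step 3
  have hCH : ∀ g : GalQ, G.gal g * G.gal g - ηW (HQ.ρ.trace g) * G.gal g
      + ηW (LinearMap.det (HQ.ρ.ρ g)) = 0 := by
    refine ch_of_es HQ.ρ ηW G.gal G.gal_cont hgη (twSet S qv ∪ (twLevel N qv).primeFactors) ?_
    intro ℓ hℓ hℓS A hA σ hσ
    obtain ⟨h1, h2, -, -⟩ := hbad ℓ hℓ hℓS
    refine ⟨HQ.π (CuspForm.heckeAlgebra.T hℓ h1 h2), HQ.charpoly_frob ℓ hℓ h1 h2 A hA σ hσ, ?_⟩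
    rw [hgen]
    exact G.es ℓ hℓ h1 h2 A hA σ hσ
  -- Step 5
  have hcompat : res.comp φQ = φ.comp τ := by
    refine compat_of_frob ρbar (cond 𝒪 p fl Smin ∅) (cond 𝒪 p fl Smin (Finset.univ.image qv))
      D DQ H.residue_surjective H.ρ (cond_mono (Finset.empty_subset _) hHcond) hHres HQ.ρ
      τ hτl hτe φ hφ hφe φQ hφQ hφQe res (twSet S qv ∪ (twLevel N qv).primeFactors) ?_
    intro ℓ hℓ hℓS B hB σ hσ
    obtain ⟨h1, h2, h3, h4⟩ := hbad ℓ hℓ hℓS
    rw [H.charpoly_frob ℓ hℓ h3 h4 B hB σ hσ]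
    refine map_charpoly_frob (res : CuspForm.heckeLocal (twLevel N qv) (↑(twSet S qv) : Set ℕ) 𝒪
      (θ.comp G.rest) →+* CuspForm.heckeLocal N (↑S : Set ℕ) 𝒪 θ) (HQ.π (CuspForm.heckeAlgebra.T hℓ h1 h2)) _ ℓ ?_ _
      (HQ.charpoly_frob ℓ hℓ h1 h2 B hB σ hσ)
    rw [hHQπ, hHπ, ← G.rest_T ℓ hℓ h1 h2 h3 h4]
    exact hres _
  -- Step 4
  have hδ : ∀ j : Fin r, ∃ δ : DQ.R, δ - 1 ∈ maximalIdeal DQ.R ∧ τ δ = 1 ∧
      ηW (φQ δ) = G.d j := by
    intro j
    obtain ⟨hq, hqS, hqp⟩ := hTW.2.1 j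
    have hqne : qv j ≠ p := fun h => hqS (h ▸ hyp.hpSmin)
    have hunr : ρbar.IsUnramifiedAt (qv j) := by
      by_contra h
      exact hqS ((hyp.hmin (qv j) hq hqne).2 h)
    have hunrD : D.ρ.IsUnramifiedAt (qv j) :=
      cond_unram D.isOfType (qv j) hq (by rw [Finset.union_empty]; exact hqS)
    exact exists_delta hp hp2 hp𝒪 HQ.residue_surjective DQ.ρ D.ρ HQ.ρ HQ.residual_absIrr
      τ hτl hτe φQ hφQ hφQe (qv j) n hq hqp (G.P j) (G.P_over j)
      (hunrD (G.P j) (G.P_over j))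
      (fun σ hσ => resid_eq_one_of_isEquiv ρbar DQ.ρ DQ.residual_isEquiv σ
        (hunr (G.P j) (G.P_over j) σ hσ))
      (G.frob j) (G.frob_spec j) (G.a j) (G.a' j) (G.a_ne j)
      (resid_charpoly_of_isEquiv ρbar DQ.ρ DQ.residual_isEquiv (G.frob j) (G.a j) (G.a' j)
        (G.charpoly_frob j))
      (G.σ j) (G.σ_mem j) ηW G.gal hgη hCH (G.d j) (G.d_pow j) (hdη j) (G.d_gal j)
      (G.Vα j) (G.Vβ j) (G.isCompl j) (hVαη j) (fun v hv => G.Vα_d j j v hv)
      (G.Vα_frob j) (G.Vβ_frob j) (G.Vα_nil j) (G.Vβ_nil j) (G.lg j)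
  choose δ hδm hτδ hδd using hδ
  -- Step 6
  refine twLevel_of_core (ηM.comp φ) γ hγ τ hτs (ηW.comp φQ) δ hδm hτδ G.d hδd G.d_pow G.rk G.b
    G.b_basis G.π G.π_surjective G.ker_π ?_
  intro x v
  have h1 : res (φQ x) = φ (τ x) := congrArg (fun f : DQ.R →ₐ[𝒪] _ => f x) hcompat
  show G.π (ηW (φQ x) v) = ηM (φ (τ x)) (G.π v)
  rw [hπη, h1]

end Fermat.Agent.S59.Asm.H77

end
-- ==== END Fermat.Agent.S59.Asm.H77_Main

-- ==== BEGIN Fermat.Agent.S59.Asm.H77_RedWire2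
section

/-!
# S59 (helper77): the wiring `Stmt_REDWIRE2`

`stmt_REDWIRE2 : Stmt_THETAMIN → Stmt_EXACTb → CaseC.Stmt_MLTgenPt → Stmt_MLTredS2`
(as `stmt_REDWIRE`, with `θ := residue ∘ x₀`).
-/

set_option autoImplicit false
set_option linter.unusedSectionVars false
set_option linter.unusedVariables false

open Polynomial CuspForm CongruenceSubgroup ModularFormClass IsLocalRing

namespace Fermat.Agent.S59.Asm.H77

open Fermat.Agent.S59 Fermat.Agent.S59.Asm Fermat.Agent.S59.H99 Fermat.Agent.S56.H92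

/-- **REDWIRE2.** -/
theorem stmt_REDWIRE2 : Stmt_REDWIRE2 := by
  intro hTH hEX hGen p _ hp2 𝒪 _ _ _ _ _ _ ρ a Sig hSig hdet hunr hunip hloc hfrob habs hTW hsplit
    M₀ hNZ hsq hram hnfl f₀ 𝔪 hf₀ h𝔪 hp𝔪 hcong x₀ hx₀
  have hp : p.Prime := Fact.out
  have hp𝒪 : (p : 𝒪) ∈ maximalIdeal 𝒪 := hdet.1
  have hM₀ : M₀ ≠ 0 := NeZero.ne M₀
  have hchar : CharP (ResidueField 𝒪) p := by
    refine (CharP.charP_iff_prime_eq_zero hp).2 ?_
    have h := (residue_eq_zero_iff (p : 𝒪)).2 hp𝒪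
    rwa [map_natCast] at h
  -- the residual Frobenius characteristic polynomials
  have hfrobbar : ∀ ℓ : ℕ, ℓ.Prime → ℓ ∉ Sig → ℓ ≠ p →
      ∀ A : ValuationSubring (AlgebraicClosure ℚ), A.LiesOverPrime ℓ →
        ∀ σ : AlgebraicClosure ℚ ≃ₐ[ℚ] AlgebraicClosure ℚ, A.IsFrobeniusAt σ ℓ →
          LinearMap.charpoly (ρ.residual.ρ σ) =
            X ^ 2 - C (((a ℓ : ℤ) : ResidueField 𝒪)) * X + C ((ℓ : ResidueField 𝒪)) :=
    fun ℓ hℓ hℓS hℓp A hA σ hσ =>
      residual_charpoly_frob ρ σ (a ℓ) ℓ (hfrob ℓ hℓ hℓp hℓS A hA σ hσ)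
  -- THETAMIN, first part
  obtain ⟨hunrbar, -⟩ := hTH p hp2 (ResidueField 𝒪) ρ.residual habs M₀ f₀ 𝔪 hf₀ h𝔪 hp𝔪 a Sig
    hcong hfrobbar
  have hpS : p ∈ insert p M₀.primeFactors := Finset.mem_insert_self _ _
  have hMS : ∀ q : ℕ, q.Prime → q ∣ M₀ → q ∈ insert p M₀.primeFactors := fun q hq hqM =>
    Finset.mem_insert_of_mem (Nat.mem_primeFactors.2 ⟨hq, hqM, hM₀⟩)
  -- `θ := residue ∘ x₀`
  obtain ⟨θ, hθx⟩ : ∃ θ : CuspForm.heckeAlgebra M₀ 2 (↑(insert p M₀.primeFactors) : Set ℕ) →+*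
      ResidueField 𝒪, ∀ t, residue 𝒪 (x₀ t) = θ t := ⟨(residue 𝒪).comp x₀, fun _ => rfl⟩
  have hθF : Fermat.Agent.S59.Datum.FrobHyp ρ.residual M₀ (insert p M₀.primeFactors) θ := by
    intro ℓ hℓ hℓN hℓS A hA σ hσ
    rw [← hθx]
    exact hx₀ ℓ hℓ hℓN hℓS A hA σ hσ
  -- the primes of `M₀` different from `p` are in `Sig`
  have hMSig : ∀ q : ℕ, q.Prime → q ∣ M₀ → q ≠ p → q ∈ Sig := by
    intro q hq hqM hqp
    by_contra hqS
    exact hram q hq hqp hqM (residual_isUnramifiedAt ρ q (hunr q hq hqp hqS))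
  have hSminSig : ∀ q ∈ insert p M₀.primeFactors, q ≠ p → q ∈ Sig := by
    intro q hq hqp
    rcases Finset.mem_insert.1 hq with h | h
    · exact absurd h hqp
    · exact hMSig q (Nat.prime_of_mem_primeFactors h) (Nat.dvd_of_mem_primeFactors h) hqp
  -- the reduction as an adic representation
  have hresl : IsLocalHom (residue 𝒪) := inferInstance
  have he := isEquiv_bc_residue ρ hresl
  have hdetbar : (GaloisRepAdic.ofResidualGaloisRep ρ.residual).DetIsCyclotomic p :=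
    detIsCyclotomic_of_isEquiv he p (detIsCyclotomic_baseChangeAlong (residue 𝒪) hresl ρ p hdet)
  -- the standing hypotheses
  have hRes : ResHyp p ρ.residual (insert p M₀.primeFactors) :=
    { habs := habs
      hdet := hdetbar
      hsplit := hsplit
      hTW := hTW
      hpSmin := hpS
      hS := fun q hq => by
        rcases Finset.mem_insert.1 hq with h | h
        · exact h ▸ hp
        · exact Nat.prime_of_mem_primeFactors h
      hmin := fun q hq hqp => by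
        constructor
        · intro hqS
          rcases Finset.mem_insert.1 hqS with h | h
          · exact absurd h hqp
          · exact hram q hq hqp (Nat.dvd_of_mem_primeFactors h)
        · intro hnu
          by_contra hqS
          exact hnu (hunrbar q hq (fun hqM => hqS (hMS q hq hqM)) hqp) }
  -- the type at `p`
  obtain ⟨fl, hfl1, hfl0⟩ : ∃ fl : Bool,
      (fl = true → ¬ p ∣ M₀ ∧ (GaloisRepAdic.ofResidualGaloisRep ρ.residual).IsFlatAt p) ∧
      (fl = false → p ∣ M₀ ∧ ¬ (GaloisRepAdic.ofResidualGaloisRep ρ.residual).IsFlatAt p ∧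
        (GaloisRepAdic.ofResidualGaloisRep ρ.residual).IsStrictOrdinaryAt p) := by
    by_cases hpM : p ∣ M₀
    · refine ⟨false, fun h => absurd h (by decide), fun _ => ⟨hpM, hnfl hpM, ?_⟩⟩
      rcases hloc with hflat | hso
      · exact absurd (isFlatAt_of_isEquiv he p hp (isFlatAt_baseChangeAlong (residue 𝒪) hresl
          (finite_residueField_of_finite (ResidueField 𝒪)) ρ p hp hflat)) (hnfl hpM)
      · exact isStrictOrdinaryAt_of_isEquiv he p
          (isStrictOrdinaryAt_baseChangeAlong (residue 𝒪) hresl ρ p hso)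
    · exact ⟨true, fun _ => ⟨hpM, hEX 𝒪 p hp2 hp𝒪 ρ.residual habs M₀
        (insert p M₀.primeFactors) hpS hMS hpM θ hθF⟩, fun h => absurd h (by decide)⟩
  have hcond : cond 𝒪 p fl (insert p M₀.primeFactors) ∅
      (GaloisRepAdic.ofResidualGaloisRep ρ.residual) := by
    refine cond_of_parts hdetbar (fun h => (hfl1 h).2) (fun h => (hfl0 h).2.2) ?_ ?_
    · intro q hq hqS
      rw [Finset.union_empty] at hqS
      exact hunrbar q hq (fun hqM => hqS (hMS q hq hqM)) (fun h => hqS (h ▸ hpS))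
    · intro q hqS hq hqp
      exact isUnipotentOnInertiaAt_of_isEquiv he q
        (isUnipotentOnInertiaAt_baseChangeAlong (residue 𝒪) hresl ρ q
          (hunip q (hSminSig q hqS hqp)))
  have hlevel : M₀ = minLevel p fl (insert p M₀.primeFactors) :=
    minLevel_insert_primeFactors hsq fl (fun h => (hfl1 h).1) (fun h => ⟨hp, (hfl0 h).1⟩) hM₀
  -- RT-NONMIN
  obtain ⟨N', hN1, hN2, g, hg, hcoef⟩ := hGen 𝒪 p hp2 hp𝒪 fl ρ.residual
    (insert p M₀.primeFactors) hRes hcond (fun h => (hfl0 h).2.1) M₀ hlevel θ hθF x₀ hθx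
    (Sig \ insert p M₀.primeFactors)
    (fun q hq => ⟨(hSig q (Finset.mem_sdiff.1 hq).1).1, (Finset.mem_sdiff.1 hq).2⟩)
    ρ hdet
    (fun q hq hqS hqSig => hunr q hq (fun h => hqS (h ▸ hpS))
      (fun h => hqSig (Finset.mem_sdiff.2 ⟨h, hqS⟩)))
    (fun q hqS hqp => hunip q (hSminSig q hqS hqp))
    (fun q hq => hunip q (Finset.mem_sdiff.1 hq).1)
    hloc (isEquiv_bcAlong_self ρ.residual habs) a
    (fun ℓ hℓ hℓS hℓSig A hA σ hσ => hfrob ℓ hℓ (fun h => hℓS (h ▸ hpS))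
      (fun h => hℓSig (Finset.mem_sdiff.2 ⟨h, hℓS⟩)) A hA σ hσ)
  refine ⟨N', hN1, hN2, g, hg, fun ℓ hℓ hℓp hℓSig hℓN => ?_⟩
  exact hcoef ℓ hℓ (fun h => hℓSig (hSminSig ℓ h hℓp))
    (fun h => hℓSig (Finset.mem_sdiff.1 h).1) hℓN

end Fermat.Agent.S59.Asm.H77

end
-- ==== END Fermat.Agent.S59.Asm.H77_RedWire2

-- ==== BEGIN Fermat.Agent.S59.Asm.H80_SelmerGal
section

set_option autoImplicit false
set_option linter.unusedSectionVars false
set_option linter.style.haveILetI false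

open IsLocalRing

namespace Fermat.Agent.S59.Asm.H80

open Fermat.Agent.S53

/-- A representation which is trivial on one inertia group over `q` is unramified at `q`. -/
theorem isUnramifiedAt_of_inertia_one {C : Type} [CommRing C] [IsLocalRing C]
    (ρ : GaloisRepAdic C) (q : ℕ) (hq : q.Prime)
    (P : ValuationSubring (AlgebraicClosure ℚ)) (hP : P.LiesOverPrime q)
    (h : ∀ σ ∈ P.inertiaSubgroupIn ℚ, ρ.ρ σ = 1) : ρ.IsUnramifiedAt q := by
  intro P' hP' σ hσ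
  obtain ⟨g, hg⟩ := Fermat.Agent.Lib.InertiaConj.exists_conj_mem_inertia q hq P P' hP hP'
  have h1 := h _ ((hg σ).1 hσ)
  have h2 : σ = g * (g⁻¹ * σ * g) * g⁻¹ := by group
  rw [h2, map_mul, map_mul, h1, mul_one, ← map_mul, mul_inv_cancel, map_one]

section univ

variable {𝒪 : Type} [CommRing 𝒪] [IsDomain 𝒪] [IsDiscreteValuationRing 𝒪]
  [IsAdicComplete (maximalIdeal 𝒪) 𝒪]
variable {ρbar : ResidualGaloisRep (ResidueField 𝒪)}
variable {𝒟 𝒟' : ∀ ⦃A : Type⦄ [CommRing A] [IsLocalRing A] [Algebra 𝒪 A], GaloisRepAdic A → Prop}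

/-- If `π_* D'.ρ` is of type `𝒟`, then `π` factors through `τ : D'.R → D.R`. -/
theorem ker_le_ker_of_isOfType
    (D : GaloisRep.DeformationRingData 𝒪 ρbar 𝒟) (D' : GaloisRep.DeformationRingData 𝒪 ρbar 𝒟')
    (τ : D'.R →ₐ[𝒪] D.R) (hτ : IsLocalHom (τ : D'.R →+* D.R))
    (heq : (D'.ρ.baseChangeAlong (τ : D'.R →+* D.R) hτ).IsEquiv D.ρ)
    (C : Type) [CommRing C] [IsLocalRing C] [IsNoetherianRing C]
    [IsAdicComplete (maximalIdeal C) C] [Algebra 𝒪 C] [IsLocalHom (algebraMap 𝒪 C)]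
    (hres : Function.Surjective (residue C ∘ algebraMap 𝒪 C))
    (π : D'.R →ₐ[𝒪] C) (hπ : IsLocalHom (π : D'.R →+* C))
    (h𝒟C : 𝒟 (D'.ρ.baseChangeAlong (π : D'.R →+* C) hπ))
    (h𝒟'C : 𝒟' (D'.ρ.baseChangeAlong (π : D'.R →+* C) hπ)) :
    RingHom.ker (τ : D'.R →+* D.R) ≤ RingHom.ker (π : D'.R →+* C) := by
  classical
  obtain ⟨rbar, hbar⟩ := exists_isMatOfRes ρbar
  obtain ⟨r', hr', hl'⟩ := exists_isLift_of_residual_isEquiv hbar D'.ρ D'.residual_isEquiv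
  have hr1m : IsMatOf D.ρ (fun σ => (r' σ).map (τ : D'.R →+* D.R)) :=
    H99.isMatOf_of_isEquiv (hr'.baseChangeAlong (τ : D'.R →+* D.R) hτ) heq
  have htC : IsMatOf (D'.ρ.baseChangeAlong (π : D'.R →+* C) hπ)
      (fun σ => (r' σ).map (π : D'.R →+* C)) := hr'.baseChangeAlong (π : D'.R →+* C) hπ
  have hlC : IsLift 𝒪 rbar (fun σ => (r' σ).map (π : D'.R →+* C)) := Univ.IsLift.map π hπ hl'
  have hresC := residual_isEquiv_of_isLift hbar htC hlC
  obtain ⟨s, ⟨hs, hseq⟩, -⟩ := D.universal C hres _ h𝒟C hresC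
  obtain ⟨φ0, -, huniq⟩ := D'.universal C hres _ h𝒟'C hresC
  have h1 : π = φ0 := huniq π ⟨hπ, ⟨GaloisRepAdic.Equiv.refl _⟩⟩
  have hloc2 : IsLocalHom ((s.comp τ : D'.R →ₐ[𝒪] C) : D'.R →+* C) :=
    Univ.isLocalHom_of_res_surj hres _
  have h2 : s.comp τ = φ0 := by
    refine huniq _ ⟨hloc2, ?_⟩
    obtain ⟨g, hg⟩ := (IsMatOf.isEquiv_iff (hr1m.baseChangeAlong (s : D.R →+* C) hs) htC).mp hseq
    refine (IsMatOf.isEquiv_iff (hr'.baseChangeAlong _ hloc2) htC).mpr ⟨g, fun σ => ?_⟩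
    have e1 : (r' σ).map ((s.comp τ : D'.R →ₐ[𝒪] C) : D'.R →+* C) =
        ((r' σ).map (τ : D'.R →+* D.R)).map (s : D.R →+* C) := by
      ext i j; rfl
    rw [e1]
    exact hg σ
  intro y hy
  rw [RingHom.mem_ker] at hy ⊢
  have h3 : (π : D'.R →+* C) y = (s.comp τ) y := by
    rw [h2, ← h1]; rfl
  rw [h3]
  change s (τ y) = 0
  have hy' : τ y = 0 := hy
  rw [hy', map_zero]

end univ

end Fermat.Agent.S59.Asm.H80

end
-- ==== END Fermat.Agent.S59.Asm.H80_SelmerGal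

-- ==== BEGIN Fermat.Agent.S59.Asm.H8_RedSplit2
section

set_option autoImplicit false

open Polynomial IsLocalRing CuspForm
open scoped TensorProduct

namespace Fermat.Agent.S59.Asm.H8

open Fermat.Agent.S59 Fermat.Agent.R

/-- The hypotheses of `Stmt_MLTred` which depend on the coefficient ring. -/
structure RedHyps (p : ℕ) {A : Type} [CommRing A] [IsLocalRing A] (ρ : GaloisRepAdic A)
    (a : ℕ → ℤ) (Sig : Finset ℕ) (M₀ : ℕ) : Prop where
  hdet : ρ.DetIsCyclotomic p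
  hunr : ∀ q : ℕ, q.Prime → q ≠ p → q ∉ Sig → ρ.IsUnramifiedAt q
  hunip : ∀ q ∈ Sig, ρ.IsUnipotentOnInertiaAt q
  hloc : ρ.IsFlatAt p ∨ ρ.IsStrictOrdinaryAt p
  hfrob : ∀ ℓ : ℕ, ℓ.Prime → ℓ ≠ p → ℓ ∉ Sig →
      ∀ B : ValuationSubring (AlgebraicClosure ℚ), B.LiesOverPrime ℓ →
        ∀ σ : AlgebraicClosure ℚ ≃ₐ[ℚ] AlgebraicClosure ℚ, B.IsFrobeniusAt σ ℓ →
          LinearMap.charpoly (ρ.ρ σ) = X ^ 2 - C (((a ℓ : ℤ) : A)) * X + C ((ℓ : A))
  habs : ρ.residual.IsAbsolutelyIrreducible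
  hTW : TWCond ρ.residual
  hram : ∀ q : ℕ, q.Prime → q ≠ p → q ∣ M₀ → ¬ ρ.residual.IsUnramifiedAt q
  hnflat : p ∣ M₀ → ¬ (GaloisRepAdic.ofResidualGaloisRep ρ.residual).IsFlatAt p

/-- The residual characteristic polynomials of a base change. -/
theorem charpoly_residual_baseChangeAlong {A B : Type} [CommRing A] [IsLocalRing A]
    [CommRing B] [IsLocalRing B] (ψ : A →+* B) (hψ : IsLocalHom ψ) (ρ : GaloisRepAdic A)
    (σ : AlgebraicClosure ℚ ≃ₐ[ℚ] AlgebraicClosure ℚ) :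
    LinearMap.charpoly ((ρ.baseChangeAlong ψ hψ).residual.ρ σ) =
      (LinearMap.charpoly (ρ.residual.ρ σ)).map (ResidueField.map ψ) := by
  rw [H99.charpoly_residual, H99.charpoly_residual,
    Fermat.Agent.R.H86.baseChangeAlong_charpoly, Polynomial.map_map, Polynomial.map_map]
  congr 1

/-- The hypotheses pass to a finite free local extension of the coefficient ring. -/
theorem RedHyps.baseChange {p : ℕ} (hp : p.Prime) {A B : Type} [CommRing A] [IsLocalRing A]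
    [CommRing B] [IsLocalRing B] [Finite (ResidueField A)] (hres : Finite (ResidueField B))
    (ψ : A →+* B) (hψ : IsLocalHom ψ)
    (hfree : letI := ψ.toAlgebra; Module.Free A B)
    (hfin : letI := ψ.toAlgebra; Module.Finite A B)
    {ρ : GaloisRepAdic A} {a : ℕ → ℤ} {Sig : Finset ℕ} {M₀ : ℕ}
    (h : RedHyps p ρ a Sig M₀) : RedHyps p (ρ.baseChangeAlong ψ hψ) a Sig M₀ := by
  obtain ⟨j, hj, hjeq⟩ := exists_residual_embedding ψ hψ ρ
  refine
    { hdet := Fermat.Agent.S56.H92.detIsCyclotomic_baseChangeAlong _ hψ ρ p h.hdet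
      hunr := fun q hq hqp hqS =>
        Fermat.Agent.S56.H92.isUnramifiedAt_baseChangeAlong _ hψ ρ q (h.hunr q hq hqp hqS)
      hunip := fun q hq =>
        Fermat.Agent.S56.H92.isUnipotentOnInertiaAt_baseChangeAlong _ hψ ρ q (h.hunip q hq)
      hloc := h.hloc.imp
        (fun h' => H99.isFlatAt_baseChangeAlong_of_finite_free ψ hψ hfree hfin hres ρ p hp h')
        (fun h' => Fermat.Agent.S56.H92.isStrictOrdinaryAt_baseChangeAlong _ hψ ρ p h')
      hfrob := ?_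
      habs := Fermat.Agent.R.H86.residual_absIrr_baseChangeAlong _ hψ ρ h.habs
      hTW := H99.twCond_baseChangeAlong _ hψ ρ h.hTW
      hram := ?_
      hnflat := ?_ }
  · intro ℓ hℓ hℓp hℓS B' hB' σ hσ
    rw [Fermat.Agent.R.H86.baseChangeAlong_charpoly, h.hfrob ℓ hℓ hℓp hℓS B' hB' σ hσ]
    simp only [Polynomial.map_add, Polynomial.map_sub, Polynomial.map_mul, Polynomial.map_pow,
      Polynomial.map_X, map_intCast, map_natCast, Polynomial.map_intCast,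
      Polynomial.map_natCast]
  · intro q hq hqp hqM hunr'
    refine h.hram q hq hqp hqM ?_
    intro P hP σ hσ
    have h1 := hunr' P hP σ hσ
    refine LinearMap.ext fun x => hj ?_
    rw [hjeq, h1]
    rfl
  · intro hpM hflat'
    refine h.hnflat hpM ?_
    have h1 := isFlatGaloisModule_of_isFlatAt (ρ.baseChangeAlong ψ hψ).residual p hp hflat'
    have h2 : IsFlatGaloisModule p ρ.residual.V (fun σ => ρ.residual.ρ σ) :=
      H54.stmt_FlatSub p hp _ _ _ _ j hj hjeq h1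
    exact isFlatAt_of_isFlatGaloisModule ρ.residual p hp h2

/-- A ring homomorphism from a discrete valuation ring of residue characteristic `p` to a
domain of characteristic `0` is injective. -/
theorem injective_of_charZero {A R : Type} [CommRing A] [IsDomain A]
    [IsDiscreteValuationRing A] [CommRing R] [IsDomain R] [CharZero R] (ι : A →+* R)
    (p : ℕ) (hp0 : p ≠ 0) (hp : (p : A) ∈ maximalIdeal A) : Function.Injective ι := by
  rw [injective_iff_map_eq_zero]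
  intro a ha
  by_contra ha0
  obtain ⟨ϖ, hϖ⟩ := IsDiscreteValuationRing.exists_irreducible A
  obtain ⟨n, hn⟩ := IsDiscreteValuationRing.associated_pow_irreducible ha0 hϖ
  obtain ⟨u, hu⟩ := hn
  have h1 : ι (ϖ ^ n) = 0 := by
    have h2 : ι (a * (u : A)) = 0 := by rw [map_mul, ha, zero_mul]
    rwa [hu] at h2
  have h3 : ι ϖ = 0 := by
    rw [map_pow] at h1
    exact eq_zero_of_pow_eq_zero h1
  rw [hϖ.maximalIdeal_eq, Ideal.mem_span_singleton'] at hp
  obtain ⟨c, hc⟩ := hp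
  have h4 : ι (p : A) = 0 := by rw [← hc, map_mul, h3, mul_zero]
  rw [map_natCast] at h4
  exact hp0 (Nat.cast_eq_zero.1 h4)

/-- A point of a finite free local algebra `T` over a complete discrete valuation ring `𝒪₁`, with
values in a complete discrete valuation ring which is finite free over `𝒪₁`. -/
theorem exists_point_ext (𝒪₁ : Type) [CommRing 𝒪₁] [IsDomain 𝒪₁] [IsDiscreteValuationRing 𝒪₁]
    [IsAdicComplete (maximalIdeal 𝒪₁) 𝒪₁] [Finite (ResidueField 𝒪₁)] [CharZero 𝒪₁]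
    (p : ℕ) (hp0 : p ≠ 0) (hp : (p : 𝒪₁) ∈ maximalIdeal 𝒪₁)
    (T : Type) [CommRing T] [IsLocalRing T] [Algebra 𝒪₁ T] [Module.Finite 𝒪₁ T]
    [Module.Free 𝒪₁ T] [IsLocalHom (algebraMap 𝒪₁ T)] :
    ∃ (𝒪₂ : Type) (_ : CommRing 𝒪₂) (_ : IsDomain 𝒪₂) (_ : IsDiscreteValuationRing 𝒪₂)
      (_ : IsAdicComplete (maximalIdeal 𝒪₂) 𝒪₂) (_ : Finite (ResidueField 𝒪₂))
      (_ : CharZero 𝒪₂) (ι : 𝒪₁ →+* 𝒪₂) (_ : IsLocalHom ι) (ψ : T →+* 𝒪₂)
      (_ : IsLocalHom ψ),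
      (letI := ι.toAlgebra; Module.Free 𝒪₁ 𝒪₂) ∧ (letI := ι.toAlgebra; Module.Finite 𝒪₁ 𝒪₂) ∧
        ∀ a : 𝒪₁, ψ (algebraMap 𝒪₁ T a) = ι a := by
  obtain ⟨𝔮, h𝔮, -⟩ := Ideal.exists_minimalPrimes_le (I := (⊥ : Ideal T))
    (J := maximalIdeal T) bot_le
  obtain ⟨D⟩ := H2.nonempty_algTPoint 𝒪₁ T 𝔮 h𝔮
  have halg : (algebraMap 𝒪₁ D.R).toAlgebra = D.instAlgebra :=
    Algebra.algebra_ext _ _ (fun r => rfl)
  have hloc : IsLocalHom (algebraMap 𝒪₁ D.R) := by
    constructor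
    intro a ha
    rw [← D.hψO a] at ha
    have h1 := D.isLocalHom.map_nonunit _ ha
    exact isUnit_of_map_unit (algebraMap 𝒪₁ T) a h1
  have hinj : Function.Injective (algebraMap 𝒪₁ D.R) :=
    injective_of_charZero (algebraMap 𝒪₁ D.R) p hp0 hp
  have htf : Module.IsTorsionFree 𝒪₁ D.R :=
    Module.isTorsionFree_iff_algebraMap_injective.mpr hinj
  have hfree : Module.Free 𝒪₁ D.R := Module.free_of_finite_type_torsion_free'
  refine ⟨D.R, D.instCommRing, D.instIsDomain, D.instDVR, D.instComplete, D.instFiniteResidue,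
    D.instCharZero, algebraMap 𝒪₁ D.R, hloc, D.ψ, D.isLocalHom, ?_, ?_, D.hψO⟩
  · exact halg ▸ hfree
  · exact halg ▸ D.instFinite

/-- **REDSPLIT2**. -/
theorem stmt_REDSPLIT2 : Stmt_REDSPLIT2 := by
  intro hTH hS2 p hpF hp2 𝒪 _ _ _ _ _ _ ρ a Sig hSig hdet hunr hunip hloc hfrob habs hTW _ M₀ hM₀
    hsqf hram hnflat f₀ 𝔪 hf₀ h𝔪 hp𝔪 hcong
  have hp : p.Prime := hpF.out
  have hNZ : NeZero M₀ := ⟨hM₀⟩
  have H0 : RedHyps p ρ a Sig M₀ := ⟨hdet, hunr, hunip, hloc, hfrob, habs, hTW, hram, hnflat⟩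
  -- the first extension: the residual characteristic polynomials split
  obtain ⟨𝒪₁, i1, i2, i3, i4, i5, i6, i7, i8, hfree, i9, hquad⟩ := H99.exists_split_ext 𝒪
  have halg : (algebraMap 𝒪 𝒪₁).toAlgebra = i7 := Algebra.algebra_ext _ _ (fun r => rfl)
  have H1 : RedHyps p (ρ.baseChangeAlong (algebraMap 𝒪 𝒪₁) i9) a Sig M₀ :=
    H0.baseChange hp i5 (algebraMap 𝒪 𝒪₁) i9 (halg ▸ hfree) (halg ▸ i8)
  have hsplit₁ : ∀ σ : AlgebraicClosure ℚ ≃ₐ[ℚ] AlgebraicClosure ℚ,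
      ∃ α β : ResidueField 𝒪₁,
        LinearMap.charpoly ((ρ.baseChangeAlong (algebraMap 𝒪 𝒪₁) i9).residual.ρ σ) =
          (X - C α) * (X - C β) := by
    intro σ
    have hm : (LinearMap.charpoly (ρ.residual.ρ σ)).Monic := LinearMap.charpoly_monic _
    have hd : (LinearMap.charpoly (ρ.residual.ρ σ)).natDegree = 2 := by
      rw [LinearMap.charpoly_natDegree, ρ.residual.finrank_eq]
    obtain ⟨α, β, hαβ⟩ := hquad _ hm hd
    exact ⟨α, β, by rw [charpoly_residual_baseChangeAlong, hαβ]⟩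
  have hp𝒪₁ : (p : 𝒪₁) ∈ maximalIdeal 𝒪₁ := H1.hdet.1
  have hchar : CharP (ResidueField 𝒪₁) p := by
    refine (CharP.charP_iff_prime_eq_zero hp).2 ?_
    have h := (residue_eq_zero_iff (p : 𝒪₁)).2 hp𝒪₁
    rwa [map_natCast] at h
  -- THETAMIN over the residue field of `𝒪₁`
  have hfrobbar : ∀ ℓ : ℕ, ℓ.Prime → ℓ ∉ Sig → ℓ ≠ p →
      ∀ A : ValuationSubring (AlgebraicClosure ℚ), A.LiesOverPrime ℓ →
        ∀ σ : AlgebraicClosure ℚ ≃ₐ[ℚ] AlgebraicClosure ℚ, A.IsFrobeniusAt σ ℓ →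
          LinearMap.charpoly ((ρ.baseChangeAlong (algebraMap 𝒪 𝒪₁) i9).residual.ρ σ) =
            X ^ 2 - C (((a ℓ : ℤ) : ResidueField 𝒪₁)) * X + C ((ℓ : ResidueField 𝒪₁)) := by
    intro ℓ hℓ hℓS hℓp A hA σ hσ
    rw [H99.charpoly_residual, H1.hfrob ℓ hℓ hℓp hℓS A hA σ hσ, Polynomial.map_add,
      Polynomial.map_sub, Polynomial.map_mul, Polynomial.map_pow, Polynomial.map_X,
      Polynomial.map_C, Polynomial.map_C, map_intCast, map_natCast]
  obtain ⟨-, hθ⟩ := hTH p hp2 (ResidueField 𝒪₁)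
    (ρ.baseChangeAlong (algebraMap 𝒪 𝒪₁) i9).residual H1.habs M₀ f₀ 𝔪 hf₀ h𝔪 hp𝔪 a Sig hcong
    hfrobbar
  have hpS : p ∈ insert p M₀.primeFactors := Finset.mem_insert_self _ _
  have hMS : ∀ q : ℕ, q.Prime → q ∣ M₀ → q ∈ insert p M₀.primeFactors := fun q hq hqM =>
    Finset.mem_insert_of_mem (Nat.mem_primeFactors.2 ⟨hq, hqM, hM₀⟩)
  obtain ⟨θ₁, hθF⟩ := hθ (insert p M₀.primeFactors) hpS hMS
  -- the second extension: a point of the local Hecke ring
  have : Fact (CuspForm.HasIntegralStructure M₀ 2) := ⟨Fermat.Agent.S23.result M₀⟩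
  obtain ⟨𝒪₂, j1, j2, j3, j4, j5, j6, ι, hι, ψ, hψ, hfree₂, hfin₂, hψι⟩ :=
    exists_point_ext 𝒪₁ p hp.ne_zero hp𝒪₁
      (CuspForm.heckeLocal M₀ (↑(insert p M₀.primeFactors) : Set ℕ) 𝒪₁ θ₁)
  have H2 : RedHyps p ((ρ.baseChangeAlong (algebraMap 𝒪 𝒪₁) i9).baseChangeAlong ι hι) a Sig M₀ :=
    H1.baseChange hp j5 ι hι hfree₂ hfin₂
  have key : ∀ t : CuspForm.heckeAlgebra M₀ 2 (↑(insert p M₀.primeFactors) : Set ℕ),
      residue 𝒪₂ (ψ (CuspForm.heckeLocal.π M₀ (↑(insert p M₀.primeFactors) : Set ℕ) 𝒪₁ θ₁ t)) =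
        ResidueField.map ι (θ₁ t) := by
    intro t
    have h1 := (Fermat.Agent.S59.Datum.H85.stmt_Ring 𝒪₁ M₀
      (↑(insert p M₀.primeFactors) : Set ℕ) θ₁).1 t
    obtain ⟨y, hy⟩ := residue_surjective (θ₁ t)
    rw [← hy, ResidueField.map_residue] at h1
    rw [← ResidueField.map_residue ψ, h1, ResidueField.map_residue, hψι, ← hy,
      ResidueField.map_residue]
  refine hS2 p hp2 𝒪₂ ((ρ.baseChangeAlong (algebraMap 𝒪 𝒪₁) i9).baseChangeAlong ι hι) a Sig hSig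
    H2.hdet H2.hunr H2.hunip H2.hloc H2.hfrob H2.habs H2.hTW ?_ M₀ hsqf H2.hram H2.hnflat f₀ 𝔪
    hf₀ h𝔪 hp𝔪 hcong
    (ψ.comp (CuspForm.heckeLocal.π M₀ (↑(insert p M₀.primeFactors) : Set ℕ) 𝒪₁ θ₁)) ?_
  · intro σ
    obtain ⟨α, β, hαβ⟩ := hsplit₁ σ
    refine ⟨ResidueField.map ι α, ResidueField.map ι β, ?_⟩
    rw [charpoly_residual_baseChangeAlong, hαβ, Polynomial.map_mul, Polynomial.map_sub,
      Polynomial.map_sub, Polynomial.map_X, Polynomial.map_C, Polynomial.map_C]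
  · intro ℓ hℓ hℓN hℓS A hA σ hσ
    rw [charpoly_residual_baseChangeAlong, hθF ℓ hℓ hℓN hℓS A hA σ hσ, RingHom.comp_apply, key,
      Polynomial.map_add, Polynomial.map_sub, Polynomial.map_mul, Polynomial.map_pow,
      Polynomial.map_X, Polynomial.map_C, Polynomial.map_C, map_natCast]

end Fermat.Agent.S59.Asm.H8

end
-- ==== END Fermat.Agent.S59.Asm.H8_RedSplit2

-- ==== BEGIN Fermat.Agent.S59.CaseC.Geom.H34_PAlg
section

set_option autoImplicit false
set_option linter.style.haveILetI false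
set_option linter.unusedSectionVars false
set_option linter.unusedSimpArgs false

namespace Fermat.Agent.S59.CaseC.Geom.H34

open IsLocalRing

section General

variable {𝒪 : Type} [CommRing 𝒪] [IsDomain 𝒪] [IsDiscreteValuationRing 𝒪]

/-- `𝔪 M = ϖ M`. -/
theorem mem_max_smul_top_iff' {M : Type*} [AddCommGroup M] [Module 𝒪 M] {ϖ : 𝒪}
    (hϖ : maximalIdeal 𝒪 = Ideal.span {ϖ}) (x : M) :
    x ∈ (maximalIdeal 𝒪 • ⊤ : Submodule 𝒪 M) ↔ ∃ y : M, x = ϖ • y := by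
  rw [hϖ, Submodule.ideal_span_singleton_smul, Submodule.mem_smul_pointwise_iff_exists]
  constructor
  · rintro ⟨y, -, rfl⟩
    exact ⟨y, rfl⟩
  · rintro ⟨y, rfl⟩
    exact ⟨y, Submodule.mem_top, rfl⟩

/-- A saturated submodule: `𝔪 L' ∩ V = 𝔪 V`. -/
theorem mem_max_smul_top_of_saturated' {M : Type*} [AddCommGroup M] [Module 𝒪 M]
    (V : Submodule 𝒪 M) (hsat : ∀ (a : 𝒪) (w : M), a ≠ 0 → a • w ∈ V → w ∈ V) (x : V)
    (hx : (x : M) ∈ (maximalIdeal 𝒪 • ⊤ : Submodule 𝒪 M)) :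
    x ∈ (maximalIdeal 𝒪 • ⊤ : Submodule 𝒪 V) := by
  obtain ⟨ϖ, hirr⟩ := IsDiscreteValuationRing.exists_irreducible 𝒪
  have hϖ : maximalIdeal 𝒪 = Ideal.span {ϖ} :=
    (IsDiscreteValuationRing.irreducible_iff_uniformizer ϖ).mp hirr
  obtain ⟨y, hy⟩ := (mem_max_smul_top_iff' hϖ _).1 hx
  have hyV : y ∈ V := hsat ϖ y hirr.ne_zero (hy ▸ x.2)
  exact (mem_max_smul_top_iff' hϖ _).2 ⟨⟨y, hyV⟩, Subtype.ext hy⟩

end General

section Main

variable {𝒪 : Type} [CommRing 𝒪] [IsDomain 𝒪] [IsDiscreteValuationRing 𝒪]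
  {H H' : Type} [CommRing H] [CommRing H'] {rest : H' →+* H} {θ : H →+* ResidueField 𝒪}
  (D : Deg2 𝒪 rest θ)

/-- The ordinary part `V = ⋂ Uᵏ L'`. -/
def ordV : Submodule 𝒪 D.L' := ⨅ k : ℕ, LinearMap.range (D.U ^ k)

theorem mem_ordV (w : D.L') : w ∈ ordV D ↔ ∀ k : ℕ, ∃ w' : D.L', (D.U ^ k) w' = w := by
  unfold ordV
  rw [Submodule.mem_iInf]
  exact Iff.rfl

/-- The properties of the unit root. -/
structure UnitRoot (Uu Ui : Module.End 𝒪 D.L) : Prop where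
  Uu_Ui : Uu * Ui = 1
  Ui_Uu : Ui * Uu = 1
  root : Uu * Uu - D.Tp * Uu + (D.p : 𝒪) • (1 : Module.End 𝒪 D.L) = 0
  commU : ∀ X : Module.End 𝒪 D.L, Commute X D.Tp → Commute X Uu
  commI : ∀ X : Module.End 𝒪 D.L, Commute X D.Tp → Commute X Ui

/-- The properties of the Fitting idempotent. -/
structure Fit (E : Module.End 𝒪 D.L') (n : ℕ) : Prop where
  idem : ∀ w, E (E w) = E w
  comm : ∀ w, E (D.U w) = D.U (E w)
  ran : ∀ (k : ℕ) (w : D.L'), ∃ w', E w = (D.U ^ k) w'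
  nil : ∀ (k : ℕ) (w : D.L'),
    (D.U ^ (n * k)) (w - E w) ∈ (maximalIdeal 𝒪 ^ k • ⊤ : Submodule 𝒪 D.L')

variable {D} {Uu Ui : Module.End 𝒪 D.L} {E : Module.End 𝒪 D.L'} {n : ℕ}

theorem UnitRoot.Uu_Ui_apply (h : UnitRoot D Uu Ui) (v : D.L) : Uu (Ui v) = v :=
  LinearMap.congr_fun h.Uu_Ui v

theorem UnitRoot.Ui_Uu_apply (h : UnitRoot D Uu Ui) (v : D.L) : Ui (Uu v) = v :=
  LinearMap.congr_fun h.Ui_Uu v

theorem UnitRoot.Tp_apply (h : UnitRoot D Uu Ui) (v : D.L) :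
    D.Tp v = Uu v + (D.p : 𝒪) • Ui v := by
  have h1 := LinearMap.congr_fun h.root (Ui v)
  simp only [LinearMap.add_apply, LinearMap.sub_apply, Module.End.mul_apply,
    LinearMap.smul_apply, Module.End.one_apply, LinearMap.zero_apply, h.Uu_Ui_apply] at h1
  have h2 : D.Tp v = Uu v + (D.p : 𝒪) • Ui v - (Uu v - D.Tp v + (D.p : 𝒪) • Ui v) := by abel
  rw [h2, h1, sub_zero]

theorem UnitRoot.Uu_pow_Ui_pow (h : UnitRoot D Uu Ui) (k : ℕ) (v : D.L) :
    (Uu ^ k) ((Ui ^ k) v) = v := by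
  have hc : Commute Uu Ui := by
    show Uu * Ui = Ui * Uu
    rw [h.Uu_Ui, h.Ui_Uu]
  have : Uu ^ k * Ui ^ k = 1 := by rw [← hc.mul_pow, h.Uu_Ui, one_pow]
  exact LinearMap.congr_fun this v

theorem UnitRoot.Ui_pow_Uu_pow (h : UnitRoot D Uu Ui) (k : ℕ) (v : D.L) :
    (Ui ^ k) ((Uu ^ k) v) = v := by
  have hc : Commute Ui Uu := by
    show Ui * Uu = Uu * Ui
    rw [h.Uu_Ui, h.Ui_Uu]
  have : Ui ^ k * Uu ^ k = 1 := by rw [← hc.mul_pow, h.Ui_Uu, one_pow]
  exact LinearMap.congr_fun this v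

variable (D Ui)

/-- `α = r₁ - r₂ Uu⁻¹ : L → L'`. -/
def aFull : D.L →ₗ[𝒪] D.L' := D.r₁ - D.r₂ ∘ₗ Ui

/-- `α' = c₂ - Uu⁻¹ c₁ : L' → L`. -/
def aFull' : D.L' →ₗ[𝒪] D.L := D.c₂ - Ui ∘ₗ D.c₁

theorem aFull_apply (v : D.L) : aFull D Ui v = D.r₁ v - D.r₂ (Ui v) := rfl

theorem aFull'_apply (w : D.L') : aFull' D Ui w = D.c₂ w - Ui (D.c₁ w) := rfl

variable {D Ui}

theorem UnitRoot.U_aFull (h : UnitRoot D Uu Ui) (v : D.L) :
    D.U (aFull D Ui v) = aFull D Ui (Uu v) := by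
  rw [aFull_apply, aFull_apply, map_sub, D.R1a, D.R1b, h.Ui_Uu_apply, h.Tp_apply, map_add,
    map_smul, ← Nat.cast_smul_eq_nsmul 𝒪]
  abel

theorem UnitRoot.U_pow_aFull (h : UnitRoot D Uu Ui) (k : ℕ) (v : D.L) :
    (D.U ^ k) (aFull D Ui v) = aFull D Ui ((Uu ^ k) v) := by
  induction k generalizing v with
  | zero => rfl
  | succ k ih =>
    rw [pow_succ, pow_succ, Module.End.mul_apply, Module.End.mul_apply, h.U_aFull, ih]

theorem UnitRoot.aFull_mem (h : UnitRoot D Uu Ui) (v : D.L) : aFull D Ui v ∈ ordV D := by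
  rw [mem_ordV]
  intro k
  exact ⟨aFull D Ui ((Ui ^ k) v), by rw [h.U_pow_aFull, h.Uu_pow_Ui_pow]⟩

theorem UnitRoot.aFull'_U (h : UnitRoot D Uu Ui) (w : D.L') :
    aFull' D Ui (D.U w) = Uu (aFull' D Ui w) := by
  rw [aFull'_apply, aFull'_apply, D.R2a, D.R2b, map_sub, h.Uu_Ui_apply, h.Tp_apply,
    ← Nat.cast_smul_eq_nsmul 𝒪, map_smul]
  abel

theorem UnitRoot.aFull'_U_pow (h : UnitRoot D Uu Ui) (k : ℕ) (w : D.L') :
    aFull' D Ui ((D.U ^ k) w) = (Uu ^ k) (aFull' D Ui w) := by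
  induction k generalizing w with
  | zero => rfl
  | succ k ih =>
    rw [pow_succ', pow_succ', Module.End.mul_apply, Module.End.mul_apply, h.aFull'_U, ih]

/-! ### The Fitting idempotent -/

theorem Fit.comm_pow (hF : Fit D E n) (k : ℕ) (w : D.L') :
    E ((D.U ^ k) w) = (D.U ^ k) (E w) := by
  induction k generalizing w with
  | zero => rfl
  | succ k ih =>
    rw [pow_succ, Module.End.mul_apply, Module.End.mul_apply, ih, hF.comm]

theorem Fit.E_mem (hF : Fit D E n) (w : D.L') : E w ∈ ordV D := by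
  rw [mem_ordV]
  intro k
  obtain ⟨w', hw'⟩ := hF.ran k w
  exact ⟨w', hw'.symm⟩

theorem Fit.E_of_mem (hF : Fit D E n) {w : D.L'} (hw : w ∈ ordV D) : E w = w := by
  rw [mem_ordV] at hw
  have h0 : w - E w = 0 := by
    refine eq_zero_of_forall_mem_pow (𝒪 := 𝒪) fun k => ?_
    obtain ⟨w', hw'⟩ := hw (n * k)
    have : w - E w = (D.U ^ (n * k)) (w' - E w') := by
      rw [map_sub, ← hF.comm_pow, hw']
    rw [this]
    exact hF.nil k w'
  exact (sub_eq_zero.1 h0).symm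

/-- `V` is saturated. -/
theorem Fit.ordV_sat (hF : Fit D E n) (a : 𝒪) (w : D.L') (ha : a ≠ 0) (h : a • w ∈ ordV D) :
    w ∈ ordV D := by
  have h1 := hF.E_of_mem h
  rw [map_smul] at h1
  have h2 : E w = w := smul_right_injective _ ha h1
  rw [← h2]
  exact hF.E_mem w

/-- `α'` kills the topologically nilpotent part. -/
theorem aFull'_sub_E (h : UnitRoot D Uu Ui) (hF : Fit D E n) (w : D.L') :
    aFull' D Ui (w - E w) = 0 := by
  refine eq_zero_of_forall_mem_pow (𝒪 := 𝒪) fun k => ?_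
  have h1 : aFull' D Ui (w - E w) =
      (Ui ^ (n * k)) (aFull' D Ui ((D.U ^ (n * k)) (w - E w))) := by
    rw [h.aFull'_U_pow, h.Ui_pow_Uu_pow]
  rw [h1]
  exact map_mem_smul_top _ _ (map_mem_smul_top _ _ (hF.nil k w))

/-! ### The Hecke action on `V` -/

variable (D)

theorem U_η'_apply (t : H') (w : D.L') : D.U (D.η' t w) = D.η' t (D.U w) :=
  LinearMap.congr_fun (D.U_η' t).eq w

theorem U_pow_η'_apply (k : ℕ) (t : H') (w : D.L') :
    (D.U ^ k) (D.η' t w) = D.η' t ((D.U ^ k) w) :=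
  LinearMap.congr_fun ((D.U_η' t).pow_left k).eq w

theorem η'_mem_ordV (t : H') (w : D.L') (hw : w ∈ ordV D) : D.η' t w ∈ ordV D := by
  rw [mem_ordV] at hw ⊢
  intro k
  obtain ⟨w', hw'⟩ := hw k
  exact ⟨D.η' t w', by rw [U_pow_η'_apply, hw']⟩

/-- The Hecke action on `V`. -/
def etaV : H' →+* Module.End 𝒪 (ordV D) where
  toFun t := (D.η' t).restrict fun w hw => η'_mem_ordV D t w hw
  map_one' := by
    ext w
    simp
  map_mul' s t := by
    ext w
    simp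
  map_zero' := by
    ext w
    simp
  map_add' s t := by
    ext w
    simp

theorem coe_etaV (t : H') (v : ordV D) : ((etaV D t v : ordV D) : D.L') = D.η' t v := rfl

variable {D}

/-- The Hecke action on `V` is `θ`-local. -/
theorem etaV_local (hF : Fit D E n) (t : H') (a : 𝒪) (ha : residue 𝒪 a = θ (rest t)) :
    ∃ m : ℕ, ∀ v : ordV D,
      ((etaV D t - a • (1 : Module.End 𝒪 (ordV D))) ^ m) v ∈
        (maximalIdeal 𝒪 • ⊤ : Submodule 𝒪 (ordV D)) := by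
  obtain ⟨m, hm⟩ := D.η'_local t a ha
  refine ⟨m, fun v => ?_⟩
  refine mem_max_smul_top_of_saturated' _ hF.ordV_sat _ ?_
  have key : ∀ (k : ℕ) (v : ordV D),
      ((((etaV D t - a • (1 : Module.End 𝒪 (ordV D))) ^ k) v : ordV D) : D.L') =
      ((D.η' t - a • (1 : Module.End 𝒪 D.L')) ^ k) (v : D.L') := by
    intro k
    induction k with
    | zero => intro v; rfl
    | succ k ih =>
      intro v
      rw [pow_succ, pow_succ, Module.End.mul_apply, Module.End.mul_apply, ih]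
      rfl
  rw [key]
  exact hm _

/-! ### The maps `α`, `α'` -/

/-- `α : L → V`. -/
def alphaV (h : UnitRoot D Uu Ui) : D.L →ₗ[𝒪] ordV D :=
  LinearMap.codRestrict (ordV D) (aFull D Ui) fun v => h.aFull_mem v

theorem coe_alphaV (h : UnitRoot D Uu Ui) (v : D.L) :
    ((alphaV h v : ordV D) : D.L') = aFull D Ui v := rfl

variable (D Ui) in
/-- `α' : V → L`. -/
def alphaV' : ordV D →ₗ[𝒪] D.L := aFull' D Ui ∘ₗ (ordV D).subtype

theorem alphaV'_apply (w : ordV D) : alphaV' D Ui w = aFull' D Ui (w : D.L') := rfl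

theorem UnitRoot.Ui_η_apply (h : UnitRoot D Uu Ui) (t : H) (v : D.L) :
    Ui (D.η t v) = D.η t (Ui v) :=
  (LinearMap.congr_fun (h.commI (D.η t) (D.Tp_η t).symm).eq v).symm

theorem alphaV_η (h : UnitRoot D Uu Ui) (t : H') (v : D.L) :
    alphaV h (D.η (rest t) v) = etaV D t (alphaV h v) := by
  apply Subtype.ext
  rw [coe_etaV, coe_alphaV, coe_alphaV, aFull_apply, aFull_apply, D.r₁_η, h.Ui_η_apply,
    D.r₂_η, map_sub]

theorem alphaV'_η (h : UnitRoot D Uu Ui) (t : H') (w : ordV D) :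
    alphaV' D Ui (etaV D t w) = D.η (rest t) (alphaV' D Ui w) := by
  rw [alphaV'_apply, alphaV'_apply, coe_etaV, aFull'_apply, aFull'_apply, D.c₁_η, D.c₂_η,
    h.Ui_η_apply, map_sub]

/-- Krull: an element of `L` divisible by all powers of `ϖ` is zero; hence every nonzero
element is `ϖ ^ n • v₁` with `v₁ ∉ 𝔪 L`. -/
theorem exists_eq_pow_smul' {ϖ : 𝒪} (hϖ : maximalIdeal 𝒪 = Ideal.span {ϖ}) (v : D.L)
    (hv : v ≠ 0) :
    ∃ (n : ℕ) (v₁ : D.L), v = ϖ ^ n • v₁ ∧ v₁ ∉ (maximalIdeal 𝒪 • ⊤ : Submodule 𝒪 D.L) := by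
  by_contra hcon
  simp only [not_exists, not_and, not_not] at hcon
  have hall : ∀ n : ℕ, ∃ v₁ : D.L, v = ϖ ^ n • v₁ := by
    intro n
    induction n with
    | zero => exact ⟨v, by rw [pow_zero, one_smul]⟩
    | succ n ih =>
      obtain ⟨v₁, hv₁⟩ := ih
      obtain ⟨y, hy⟩ := (mem_max_smul_top_iff' hϖ _).1 (hcon n v₁ hv₁)
      exact ⟨y, by rw [hv₁, hy, smul_smul, pow_succ]⟩
  refine hv (eq_zero_of_forall_mem_pow (𝒪 := 𝒪) fun k => ?_)
  obtain ⟨v₁, hv₁⟩ := hall k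
  rw [hv₁]
  refine Submodule.smul_mem_smul ?_ Submodule.mem_top
  rw [hϖ, Ideal.span_singleton_pow]
  exact Ideal.subset_span rfl

/-- Ihara's lemma for `α`. -/
theorem ihara_alpha (v : D.L)
    (h : aFull D Ui v ∈ (maximalIdeal 𝒪 • ⊤ : Submodule 𝒪 D.L')) :
    v ∈ (maximalIdeal 𝒪 • ⊤ : Submodule 𝒪 D.L) := by
  have h1 : D.r₁ v + D.r₂ (-(Ui v)) ∈ (maximalIdeal 𝒪 • ⊤ : Submodule 𝒪 D.L') := by
    rw [map_neg, ← sub_eq_add_neg]
    exact h
  exact (D.ihara v _ h1).1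

theorem aFull_injective : Function.Injective (aFull D Ui) := by
  rw [injective_iff_map_eq_zero]
  intro v hv
  by_contra hv0
  obtain ⟨ϖ, hirr⟩ := IsDiscreteValuationRing.exists_irreducible 𝒪
  have hϖ : maximalIdeal 𝒪 = Ideal.span {ϖ} :=
    (IsDiscreteValuationRing.irreducible_iff_uniformizer ϖ).mp hirr
  obtain ⟨n, v₁, hv₁, hnot⟩ := exists_eq_pow_smul' hϖ v hv0
  rw [hv₁, map_smul] at hv
  have h0 : aFull D Ui v₁ = 0 :=
    (smul_eq_zero.1 hv).resolve_left (pow_ne_zero n hirr.ne_zero)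
  exact hnot (ihara_alpha v₁ (h0 ▸ Submodule.zero_mem _))

theorem alphaV_injective (h : UnitRoot D Uu Ui) : Function.Injective (alphaV h) :=
  fun _ _ h' => aFull_injective (congrArg Subtype.val h')

/-- The image of `α` is saturated. -/
theorem alphaV_sat (h : UnitRoot D Uu Ui) (a : 𝒪) (w : ordV D) (ha : a ≠ 0)
    (hw : a • w ∈ LinearMap.range (alphaV h)) : w ∈ LinearMap.range (alphaV h) := by
  obtain ⟨ϖ, hirr⟩ := IsDiscreteValuationRing.exists_irreducible 𝒪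
  have hϖ : maximalIdeal 𝒪 = Ideal.span {ϖ} :=
    (IsDiscreteValuationRing.irreducible_iff_uniformizer ϖ).mp hirr
  -- the case `a = ϖ`
  have hstep : ∀ w : ordV D, ϖ • w ∈ LinearMap.range (alphaV h) →
      w ∈ LinearMap.range (alphaV h) := by
    rintro w ⟨v, hv⟩
    have h1 : aFull D Ui v ∈ (maximalIdeal 𝒪 • ⊤ : Submodule 𝒪 D.L') := by
      rw [mem_max_smul_top_iff' hϖ]
      refine ⟨(w : D.L'), ?_⟩
      rw [← coe_alphaV h, hv]
      rfl
    obtain ⟨v₁, hv₁⟩ := (mem_max_smul_top_iff' hϖ _).1 (ihara_alpha v h1)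
    refine ⟨v₁, ?_⟩
    rw [hv₁, map_smul] at hv
    exact smul_right_injective _ hirr.ne_zero hv
  have hpow : ∀ (n : ℕ) (w : ordV D), ϖ ^ n • w ∈ LinearMap.range (alphaV h) →
      w ∈ LinearMap.range (alphaV h) := by
    intro n
    induction n with
    | zero => intro w hw; rwa [pow_zero, one_smul] at hw
    | succ n ih =>
      intro w hw
      rw [pow_succ, mul_smul] at hw
      exact hstep w (ih _ hw)
  obtain ⟨n, u, hu⟩ := IsDiscreteValuationRing.eq_unit_mul_pow_irreducible ha hirr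
  refine hpow n w ?_
  have h2 : ϖ ^ n • w = (↑u⁻¹ : 𝒪) • (a • w) := by
    rw [hu, smul_smul, ← mul_assoc, Units.inv_mul, one_mul]
  rw [h2]
  exact Submodule.smul_mem _ _ hw

/-- `α'` is onto (dual Ihara + Fitting + Nakayama). -/
theorem alphaV'_surjective (h : UnitRoot D Uu Ui) (hF : Fit D E n) :
    Function.Surjective (alphaV' D Ui) := by
  rw [← LinearMap.range_eq_top]
  refine top_le_iff.1 ?_
  refine Submodule.le_of_le_smul_of_le_jacobson_bot (I := maximalIdeal 𝒪)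
    (Module.Finite.fg_top) (IsLocalRing.maximalIdeal_le_jacobson _) ?_
  intro v _
  obtain ⟨w, hw1, hw2⟩ := D.dual 0 v
  rw [sub_zero] at hw1
  have h1 : aFull' D Ui w = alphaV' D Ui ⟨E w, hF.E_mem w⟩ := by
    rw [alphaV'_apply]
    have := aFull'_sub_E h hF w
    rw [map_sub, sub_eq_zero] at this
    exact this
  have h2 : v = alphaV' D Ui ⟨E w, hF.E_mem w⟩ - (aFull' D Ui w - v) := by
    rw [h1]
    abel
  rw [h2]
  refine Submodule.sub_mem _ (Submodule.mem_sup_left ⟨_, rfl⟩) (Submodule.mem_sup_right ?_)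
  rw [aFull'_apply]
  have h3 : D.c₂ w - Ui (D.c₁ w) - v = (D.c₂ w - v) - Ui (D.c₁ w) := by abel
  rw [h3]
  exact Submodule.sub_mem _ hw2 (map_mem_smul_top Ui _ hw1)

/-- `α' α = Uu⁻¹ (1 - p Uu⁻²) (Uu² - 1)`. -/
theorem alphaV'_alphaV (h : UnitRoot D Uu Ui) (v : D.L) :
    alphaV' D Ui (alphaV h v) =
      Ui (Uu (Uu v) - v) - (D.p : 𝒪) • Ui (Ui (Ui (Uu (Uu v) - v))) := by
  rw [alphaV'_apply, coe_alphaV, aFull'_apply, aFull_apply, map_sub, map_sub, D.R3a, D.R3b,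
    D.R3c, D.R3d, h.Tp_apply, h.Tp_apply, h.Uu_Ui_apply]
  simp only [map_sub, map_add, map_smul, map_nsmul, h.Ui_Uu_apply, h.Uu_Ui_apply,
    ← Nat.cast_smul_eq_nsmul 𝒪, Nat.cast_add, Nat.cast_one]
  module

end Main

/-- **P-ALG.** -/
theorem stmt_PALG : Stmt_PALG := by
  intro 𝒪 _ _ _ _ H H' _ _ rest θ D
  obtain ⟨Uu, Ui, h1, h2, h3, h4, h5⟩ := exists_unit_root_mod D.Tp D.Tp_unit (D.p : 𝒪) D.p_mem
  have hR : UnitRoot D Uu Ui := ⟨h1, h2, h3, h4, h5⟩
  obtain ⟨E, n, f1, f2, f3, f4⟩ := exists_fitting_mod D.U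
  have hF : Fit D E n := ⟨f1, f2, f3, f4⟩
  exact ⟨{
    V := ordV D
    ι := (ordV D).subtype
    ι_inj := Subtype.val_injective
    range_ι := fun w => by
      rw [← mem_ordV]
      constructor
      · rintro ⟨v, rfl⟩
        exact v.2
      · intro hw
        exact ⟨⟨w, hw⟩, rfl⟩
    η'' := etaV D
    ι_η := fun _ _ => rfl
    η''_local := etaV_local hF
    Uu := Uu
    Ui := Ui
    Uu_Ui := h1
    Ui_Uu := h2
    Uu_root := h3
    Uu_comm := h4
    α := alphaV hR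
    α' := alphaV' D Ui
    ι_α := fun _ => rfl
    α'_eq := fun _ => rfl
    α_η := alphaV_η hR
    α'_η := alphaV'_η hR
    α_inj := alphaV_injective hR
    α_sat := alphaV_sat hR
    α'_surj := alphaV'_surjective hR hF
    comp := alphaV'_alphaV hR }⟩

end Fermat.Agent.S59.CaseC.Geom.H34

end
-- ==== END Fermat.Agent.S59.CaseC.Geom.H34_PAlg

-- ==== BEGIN Fermat.Agent.S59.CaseC.Geom.H53_PAsmDefs
section

/-!
# S59 / case C / PGEOM, assembly P-ASM (helper53): interface of the two halves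

As in ASM-G (`NonMin/Geom/H48_AsmGDefs.lean`) the assembly is split:

* first half **P-DEG2**: at a Betti state `s` of level prime to `p` and the Betti lattice `M'` of
  level `N p` (same `S`, same `Sig`) the operators `T_p`, `U_p`, `res_i`, `cor_i` restricted to
  the lattices form a `Deg2Data` (`Stmt_PDEG2`, `Stmt_PDEG2WIRE`);
* second half **P-FIN**: `Stmt_PALG` on `Deg2Data.toDeg2`, then `Stmt_PRANK`, `Stmt_PLINK` give
  `PClause` (`Stmt_PFIN`).

`pasm_of` : the two halves give `Stmt_PASM`.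

No `sorry`.
-/

set_option autoImplicit false

open Polynomial CuspForm CongruenceSubgroup IsLocalRing
open scoped MatrixGroups

namespace Fermat.Agent.S59.CaseC.Geom.H53

open Fermat.Agent.S41 Fermat.Agent.Betti Fermat.Agent.S59 Fermat.Agent.S59.Asm
  Fermat.Agent.S59.NonMin Fermat.Agent.S59.NonMin.Geom Fermat.Agent.S59.CaseC
  Fermat.Agent.S59.CaseC.Geom
open ModularCurve.Period

section

variable {𝒪 : Type} [CommRing 𝒪] [IsLocalRing 𝒪]

/-- The operators of `Geom.Deg2` between the module `s.M.V` of a state (level `N`) and a Hecke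
module `M'.V` of level `N p` (away from the same set `S`), with all the relations. -/
structure Deg2Data (s : NMState 𝒪) (p : ℕ) [NeZero (s.N * p)]
    (rest : CuspForm.heckeAlgebra (s.N * p) 2 (↑s.S : Set ℕ) →+*
      CuspForm.heckeAlgebra s.N 2 (↑s.S : Set ℕ))
    (M' : HMod 𝒪 (s.N * p) (↑s.S : Set ℕ) (s.θ.comp rest)) : Type where
  p_mem : (p : 𝒪) ∈ maximalIdeal 𝒪
  /-- `T_p` on `s.M.V` -/
  Tp : Module.End 𝒪 s.M.V
  Tp_η : ∀ t, Commute Tp (s.M.η t)
  Tp_unit : IsUnit Tp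
  /-- `U_p` on `M'.V` -/
  U : Module.End 𝒪 M'.V
  U_η' : ∀ t, Commute U (M'.η t)
  r₁ : s.M.V →ₗ[𝒪] M'.V
  r₂ : s.M.V →ₗ[𝒪] M'.V
  c₁ : M'.V →ₗ[𝒪] s.M.V
  c₂ : M'.V →ₗ[𝒪] s.M.V
  r₁_η : ∀ t (v : s.M.V), r₁ (s.M.η (rest t) v) = M'.η t (r₁ v)
  r₂_η : ∀ t (v : s.M.V), r₂ (s.M.η (rest t) v) = M'.η t (r₂ v)
  c₁_η : ∀ t (w : M'.V), c₁ (M'.η t w) = s.M.η (rest t) (c₁ w)
  c₂_η : ∀ t (w : M'.V), c₂ (M'.η t w) = s.M.η (rest t) (c₂ w)
  R1a : ∀ v : s.M.V, U (r₁ v) = r₁ (Tp v) - r₂ v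
  R1b : ∀ v : s.M.V, U (r₂ v) = p • r₁ v
  R2a : ∀ w : M'.V, c₁ (U w) = p • c₂ w
  R2b : ∀ w : M'.V, c₂ (U w) = Tp (c₂ w) - c₁ w
  R3a : ∀ v : s.M.V, c₁ (r₁ v) = (p + 1) • v
  R3b : ∀ v : s.M.V, c₂ (r₂ v) = (p + 1) • v
  R3c : ∀ v : s.M.V, c₁ (r₂ v) = Tp v
  R3d : ∀ v : s.M.V, c₂ (r₁ v) = Tp v
  ihara : ∀ v₁ v₂ : s.M.V, r₁ v₁ + r₂ v₂ ∈ (maximalIdeal 𝒪 • ⊤ : Submodule 𝒪 M'.V) →
    v₁ ∈ (maximalIdeal 𝒪 • ⊤ : Submodule 𝒪 s.M.V) ∧
      v₂ ∈ (maximalIdeal 𝒪 • ⊤ : Submodule 𝒪 s.M.V)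
  dual : ∀ v₁ v₂ : s.M.V, ∃ w : M'.V,
    c₁ w - v₁ ∈ (maximalIdeal 𝒪 • ⊤ : Submodule 𝒪 s.M.V) ∧
      c₂ w - v₂ ∈ (maximalIdeal 𝒪 • ⊤ : Submodule 𝒪 s.M.V)

/-- The package `Geom.Deg2` of a `Deg2Data`: `L = s.M.V`, `L' = M'.V`, `η = s.M.η`,
`η' = M'.η`, … (all definitional). -/
noncomputable def Deg2Data.toDeg2 {s : NMState 𝒪} {p : ℕ} [NeZero (s.N * p)]
    {rest : CuspForm.heckeAlgebra (s.N * p) 2 (↑s.S : Set ℕ) →+*
      CuspForm.heckeAlgebra s.N 2 (↑s.S : Set ℕ)}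
    {M' : HMod 𝒪 (s.N * p) (↑s.S : Set ℕ) (s.θ.comp rest)}
    (d : Deg2Data s p rest M') : Deg2 𝒪 rest s.θ where
  L := s.M.V
  L' := M'.V
  η := s.M.η
  η' := M'.η
  η_local := s.M.η_local
  η'_local := M'.η_local
  p := p
  p_mem := d.p_mem
  Tp := d.Tp
  Tp_η := d.Tp_η
  Tp_unit := d.Tp_unit
  U := d.U
  U_η' := d.U_η'
  r₁ := d.r₁
  r₂ := d.r₂
  c₁ := d.c₁
  c₂ := d.c₂
  r₁_η := d.r₁_η
  r₂_η := d.r₂_η
  c₁_η := d.c₁_η
  c₂_η := d.c₂_η
  R1a := d.R1a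
  R1b := d.R1b
  R2a := d.R2a
  R2b := d.R2b
  R3a := d.R3a
  R3b := d.R3b
  R3c := d.R3c
  R3d := d.R3d
  ihara := d.ihara
  dual := d.dual

end

/-- **P-DEG2** (first half of P-ASM): at a Betti state `s` of level prime to `p` and a Betti
lattice `M'` of level `N p` (away from the same `S ∋ p`, the same `Sig`) there is a `Deg2Data`
whose operators `T_p`, `U_p` are the Betti operators on the lattices.
[Lattice operators by restriction: `res_i`, `cor_i`, `T_p`, `U_p` preserve `InBetti`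
(`Stmt_PRELT`; `NonMin.Geom.H53.UB_TB_comm`, `UB_UB_comm`, `UB_par` or `H98.UB_comm_TB` for
`U_p`; values in `𝔪^m` are preserved by linearity); the relations from `Stmt_PREL`;
`Tp_η`, `U_η'`, `r_i_η`, `c_i_η` on the generators `T_ℓ`, then by induction on the Hecke
algebra (all primes of the levels are in `S`); `Tp_unit` from `Stmt_PORD` (a surjective
endomorphism of a finite module is bijective); `ihara`: the submodule
`K = {(v₁, v₂) : r₁ v₁ + r₂ v₂ ∈ 𝔪 L'}` of `L × L` is Hecke stable; if `K ⊄ 𝔪 (L × L)` there is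
a common eigenvector modulo `𝔪` in it (`NonMin.Geom.H53.exists_common_eigen_mod`), its
reductions `x_i : Γ₀(N) → k` are cuspidal, `x₁` is an eigenvector with the eigenvalues
`θ(T_ℓ)` and `res1 x₁ + res2 x₂ = 0`: `Stmt_IHARA2k` (auxiliary primes: `Stmt_CHEBkp`) gives
`x₁ = x₂ = 0`, i.e. `v_i ∈ 𝔪 L` (the lattice is saturated); `dual` from `Stmt_PDUAL` and
saturation.] -/
def Stmt_PDEG2 : Prop :=
  ∀ (𝒪 : Type) [CommRing 𝒪] [IsDomain 𝒪] [IsDiscreteValuationRing 𝒪]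
    [IsAdicComplete (maximalIdeal 𝒪) 𝒪] [Finite (ResidueField 𝒪)] [CharZero 𝒪]
    (p : ℕ) [Fact p.Prime], p ≠ 2 → (p : 𝒪) ∈ maximalIdeal 𝒪 →
    ∀ (ρbar : ResidualGaloisRep (ResidueField 𝒪)) (Smin : Finset ℕ), ResHyp p ρbar Smin →
    cond 𝒪 p true Smin ∅ (GaloisRepAdic.ofResidualGaloisRep ρbar) →
    (GaloisRepAdic.ofResidualGaloisRep ρbar).IsOrdinaryAt p →
    ∀ (N₀ : ℕ) (Sig : Finset ℕ) (s : NMState 𝒪), GeomHyp p Smin N₀ Sig s.N s.S →
    Fermat.Agent.S59.Datum.FrobHyp ρbar s.N s.S s.θ →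
    ∀ (ι : s.M.V →ₗ[𝒪] (Additive (Gamma0 s.N) →+ 𝒪)), H48.IsBettiVia s Sig ι →
    ¬ p ∣ s.N →
    ∀ [NeZero (s.N * p)] [Fact (CuspForm.HasIntegralStructure s.N 2)]
      (rest : CuspForm.heckeAlgebra (s.N * p) 2 (↑s.S : Set ℕ) →+*
        CuspForm.heckeAlgebra s.N 2 (↑s.S : Set ℕ)),
    (∀ (ℓ : ℕ) (hℓ : ℓ.Prime) (hℓN' : ¬ ℓ ∣ s.N * p) (hℓS : ℓ ∉ (↑s.S : Set ℕ))
      (hℓN : ¬ ℓ ∣ s.N),
      rest (CuspForm.heckeAlgebra.T hℓ hℓN' hℓS) = CuspForm.heckeAlgebra.T hℓ hℓN hℓS) →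
    ∀ (M' : HMod 𝒪 (s.N * p) (↑s.S : Set ℕ) (s.θ.comp rest))
      (ι' : M'.V →ₗ[𝒪] (Additive (Gamma0 (s.N * p)) →+ 𝒪)),
    H48.IsBettiVia (⟨s.N * p, s.S, s.θ.comp rest, M'⟩ : NMState 𝒪) Sig ι' →
    ∃ d : Deg2Data s p rest M',
      (∀ (hp : p.Prime) (hpN : ¬ p ∣ s.N) (v : s.M.V),
        ι (d.Tp v) = TB s.N 𝒪 hp hpN (ι v)) ∧
      (∀ (hd : p ∣ s.N * p) (w : M'.V), ι' (d.U w) = UB (s.N * p) 𝒪 hd (ι' w))

/-- The wiring of the first half. -/
def Stmt_PDEG2WIRE : Prop :=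
  Stmt_PREL → Stmt_PRELT → Stmt_IHARA2k → Stmt_CHEBkp → Stmt_PDUAL → Stmt_PORD → Stmt_PDEG2

/-- **P-FIN** (second half of P-ASM): from the package to the clause at `p`.
[`rest := Asm.H41.rest`; `M'₀` := the lattice of `Geom.Stmt_BM` at `(N p, S, θ ∘ rest, Sig)`;
`d` from `Stmt_PDEG2`; `Stmt_PALG` on `d.toDeg2`; `M' := V` (the `U_p`-ordinary part) with
`ι'' := ι' ∘ Out.ι`; `rank` from `Stmt_PRANK`; `c := Ui (Uu² - 1) - p Ui³ (Uu² - 1)`; at a point:
`z₀ := πx z` is a unit (`det ρ(g)` is a unit), `z₀ T_p v = (z₀² + p) v` (`Stmt_PLINK`), so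
`(Uu - p z₀⁻¹)(Uu - z₀) v = 0` and `Uu - p z₀⁻¹` is injective: `Uu v = z₀ v`.] -/
def Stmt_PFIN : Prop :=
  Stmt_PDEG2 → Geom.Stmt_BM → Stmt_PALG → Stmt_PLINK → Stmt_PRANK → Stmt_PSTEPB

/-- The assembly from its two halves. -/
theorem pasm_of (h1 : Stmt_PDEG2WIRE) (h2 : Stmt_PFIN) : Stmt_PASM :=
  fun hBM hREL hRELT hIH hCHEB hDUAL hALG hORD hLINK hRANK =>
    h2 (h1 hREL hRELT hIH hCHEB hDUAL hORD) hBM hALG hLINK hRANK

end Fermat.Agent.S59.CaseC.Geom.H53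

end
-- ==== END Fermat.Agent.S59.CaseC.Geom.H53_PAsmDefs

-- ==== BEGIN Fermat.Agent.S59.CaseC.Geom.H7_POrdCoord
section

set_option autoImplicit false
set_option linter.unusedSectionVars false

open CongruenceSubgroup ModularCurve ModularCurve.Period IsLocalRing
open scoped MatrixGroups

namespace Fermat.Agent.S59.CaseC.Geom.H7

open Fermat.Agent.Betti Fermat.Agent.S59.NonMin.Geom

section Coord

variable {N : ℕ} (𝒪 : Type) [CommRing 𝒪] {r : ℕ} (b : Fin r → (Additive (Gamma0 N) →+ ℤ))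

/-- Change of coefficients `ℤ → 𝒪`. -/
noncomputable def castO (β : Additive (Gamma0 N) →+ ℤ) : Additive (Gamma0 N) →+ 𝒪 :=
  (Int.castAddHom 𝒪).comp β

@[simp] theorem castO_apply (β : Additive (Gamma0 N) →+ ℤ) (γ : Additive (Gamma0 N)) :
    castO 𝒪 β γ = ((β γ : ℤ) : 𝒪) := rfl

theorem castO_sum_smul (m : Fin r → ℤ) :
    castO 𝒪 (∑ i, m i • b i) = ∑ i, (m i : 𝒪) • castO 𝒪 (b i) := by
  refine AddMonoidHom.ext fun γ => ?_
  simp [castO]

/-- The coordinate map `𝒪^r → Hom(Γ₀(N), 𝒪)`, `a ↦ ∑ a_i b_i`. -/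
noncomputable def coord : (Fin r → 𝒪) →ₗ[𝒪] (Additive (Gamma0 N) →+ 𝒪) where
  toFun a := ∑ i, a i • castO 𝒪 (b i)
  map_add' a a' := by
    simp only [Pi.add_apply, add_smul, Finset.sum_add_distrib]
  map_smul' c a := by
    simp only [Pi.smul_apply, smul_eq_mul, RingHom.id_apply, Finset.smul_sum, smul_smul]

theorem coord_def (a : Fin r → 𝒪) : coord 𝒪 b a = ∑ i, a i • castO 𝒪 (b i) := rfl

theorem coord_apply (a : Fin r → 𝒪) (γ : Additive (Gamma0 N)) :
    coord 𝒪 b a γ = ∑ i, a i * ((b i γ : ℤ) : 𝒪) := by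
  simp [coord_def]

theorem TB_smulO {p : ℕ} (hp : p.Prime) (hpN : ¬ p ∣ N) (c : 𝒪)
    (φ : Additive (Gamma0 N) →+ 𝒪) : TB N 𝒪 hp hpN (c • φ) = c • TB N 𝒪 hp hpN φ := by
  have : Fact p.Prime := ⟨hp⟩
  exact ((isHeckeFamily_T N hpN).heckeOpLin (incl_injective N) 𝒪).map_smul c φ

theorem UB_smulO [NeZero N] {p : ℕ} (hpN : p ∣ N) (c : 𝒪) (φ : Additive (Gamma0 N) →+ 𝒪) :
    UB N 𝒪 hpN (c • φ) = c • UB N 𝒪 hpN φ := by
  have : NeZero p := neZero_of_dvd hpN
  exact ((isHeckeFamily_U N hpN).heckeOpLin (incl_injective N) 𝒪).map_smul c φ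

theorem TB_castO {p : ℕ} (hp : p.Prime) (hpN : ¬ p ∣ N) (β : Additive (Gamma0 N) →+ ℤ) :
    TB N 𝒪 hp hpN (castO 𝒪 β) = castO 𝒪 (TB N ℤ hp hpN β) := by
  have : Fact p.Prime := ⟨hp⟩
  exact (isHeckeFamily_T N hpN).heckeOp_comp (incl_injective N) (Int.castAddHom 𝒪) β

theorem UB_castO [NeZero N] {p : ℕ} (hpN : p ∣ N) (β : Additive (Gamma0 N) →+ ℤ) :
    UB N 𝒪 hpN (castO 𝒪 β) = castO 𝒪 (UB N ℤ hpN β) := by
  have : NeZero p := neZero_of_dvd hpN
  exact (isHeckeFamily_U N hpN).heckeOp_comp (incl_injective N) (Int.castAddHom 𝒪) β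

/-- An `𝒪`-linear operator which acts on the basis by the integer matrix `m` acts on the
coordinates by `m`. -/
theorem op_coord (T : (Additive (Gamma0 N) →+ 𝒪) →+ (Additive (Gamma0 N) →+ 𝒪))
    (hT : ∀ (c : 𝒪) φ, T (c • φ) = c • T φ) (m : Matrix (Fin r) (Fin r) ℤ)
    (hm : ∀ j, T (castO 𝒪 (b j)) = ∑ i, (m i j : 𝒪) • castO 𝒪 (b i)) (a : Fin r → 𝒪) :
    T (coord 𝒪 b a) = coord 𝒪 b ((m.map (Int.cast : ℤ → 𝒪)).mulVec a) := by
  rw [coord_def, coord_def, map_sum]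
  simp only [hT, hm, Finset.smul_sum, smul_smul]
  rw [Finset.sum_comm]
  refine Finset.sum_congr rfl fun i _ => ?_
  rw [← Finset.sum_smul]
  congr 1
  simp only [Matrix.mulVec, dotProduct, Matrix.map_apply]
  exact Finset.sum_congr rfl fun j _ => mul_comm _ _

end Coord

section MatEnd

variable (𝒪 : Type) [CommRing 𝒪] {r : ℕ} {R : Type} [CommRing R]

/-- The action on `𝒪^r` of a ring of integer matrices. -/
noncomputable def matEnd (M : R →+* Matrix (Fin r) (Fin r) ℤ) :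
    R →+* Module.End 𝒪 (Fin r → 𝒪) :=
  ((Matrix.toLinAlgEquiv' : Matrix (Fin r) (Fin r) 𝒪 ≃ₐ[𝒪] Module.End 𝒪 (Fin r → 𝒪))
      : Matrix (Fin r) (Fin r) 𝒪 →+* Module.End 𝒪 (Fin r → 𝒪)).comp
    ((Int.castRingHom 𝒪).mapMatrix.comp M)

theorem matEnd_apply (M : R →+* Matrix (Fin r) (Fin r) ℤ) (t : R) (a : Fin r → 𝒪) :
    matEnd 𝒪 M t a = ((M t).map (Int.cast : ℤ → 𝒪)).mulVec a := rfl

theorem matEnd_commute (M : R →+* Matrix (Fin r) (Fin r) ℤ) (s t : R) :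
    Commute (matEnd 𝒪 M s) (matEnd 𝒪 M t) := by
  show matEnd 𝒪 M s * matEnd 𝒪 M t = matEnd 𝒪 M t * matEnd 𝒪 M s
  rw [← map_mul, ← map_mul, mul_comm]

end MatEnd

section Basis

variable {N : ℕ} [NeZero N] (𝒪 : Type) [CommRing 𝒪] [IsDomain 𝒪] [CharZero 𝒪] {r : ℕ}
  {b : Fin r → (Additive (Gamma0 N) →+ ℤ)} (hb : IsParBasis N b)
include hb

theorem coord_isParabolicHom (a : Fin r → 𝒪) : IsParabolicHom (Gamma0 N) (coord 𝒪 b a) := by
  intro γ hγ
  rw [coord_apply]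
  refine Finset.sum_eq_zero fun i _ => ?_
  rw [hb.1 i γ hγ, Int.cast_zero, mul_zero]

theorem coord_injective : Function.Injective (coord 𝒪 b) := by
  intro a a' h
  obtain ⟨c, -, hc⟩ := hb.2 𝒪 (coord 𝒪 b a) (coord_isParabolicHom 𝒪 hb a)
  have h1 : a = c := hc a fun γ => by
    rw [coord_apply]
    exact Finset.sum_congr rfl fun i _ => by rw [zsmul_eq_mul, mul_comm]
  have h2 : a' = c := hc a' fun γ => by
    rw [h, coord_apply]
    exact Finset.sum_congr rfl fun i _ => by rw [zsmul_eq_mul, mul_comm]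
  rw [h1, h2]

theorem exists_coord (φ : Additive (Gamma0 N) →+ 𝒪) (hφ : IsParabolicHom (Gamma0 N) φ) :
    ∃ a : Fin r → 𝒪, coord 𝒪 b a = φ := by
  obtain ⟨c, hc, -⟩ := hb.2 𝒪 φ hφ
  refine ⟨c, AddMonoidHom.ext fun γ => ?_⟩
  rw [coord_apply, hc γ]
  exact Finset.sum_congr rfl fun i _ => by rw [zsmul_eq_mul, mul_comm]

/-- Divisibility of the values and of the coordinates. -/
theorem coord_dvd_iff (ϖ : 𝒪) (hϖ : ϖ ≠ 0) (c : Fin r → 𝒪) :
    (∀ γ, ϖ ∣ coord 𝒪 b c γ) ↔ ∃ y : Fin r → 𝒪, c = ϖ • y := by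
  constructor
  · intro h
    choose y hy using h
    have hadd : ∀ γ δ, y (γ + δ) = y γ + y δ := by
      intro γ δ
      apply mul_left_cancel₀ hϖ
      rw [mul_add, ← hy, ← hy, ← hy, map_add]
    let ψ : Additive (Gamma0 N) →+ 𝒪 := AddMonoidHom.mk' y hadd
    have hψ : IsParabolicHom (Gamma0 N) ψ := by
      intro γ hγ
      have h1 := hy (Additive.ofMul γ)
      rw [coord_isParabolicHom 𝒪 hb c γ hγ] at h1
      exact (mul_eq_zero.1 h1.symm).resolve_left hϖ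
    obtain ⟨c', hc'⟩ := exists_coord 𝒪 hb ψ hψ
    refine ⟨c', coord_injective 𝒪 hb ?_⟩
    rw [map_smul, hc']
    refine AddMonoidHom.ext fun γ => ?_
    rw [hy γ]
    rfl
  · rintro ⟨y, rfl⟩ γ
    rw [map_smul]
    exact ⟨coord 𝒪 b y γ, rfl⟩

end Basis

section Lattice

variable {N : ℕ} [NeZero N] (𝒪 : Type) [CommRing 𝒪] [IsDomain 𝒪] [IsDiscreteValuationRing 𝒪]
  [CharZero 𝒪] {r : ℕ} {b : Fin r → (Additive (Gamma0 N) →+ ℤ)} (hb : IsParBasis N b)
  (M : CuspForm.heckeAlgebra N 2 (∅ : Set ℕ) →+* Matrix (Fin r) (Fin r) ℤ)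
  (hMT : ∀ (ℓ : ℕ) (hℓ : ℓ.Prime) (hℓN : ¬ ℓ ∣ N) (hℓS : ℓ ∉ (∅ : Set ℕ)) (j : Fin r),
    TB N ℤ hℓ hℓN (b j) = ∑ i, M (CuspForm.heckeAlgebra.T hℓ hℓN hℓS) i j • b i)
  (hMU : ∀ (q : ℕ) (hq : q.Prime) (hqN : q ∣ N) (hqS : q ∉ (∅ : Set ℕ)) (j : Fin r),
    UB N ℤ hqN (b j) = ∑ i, M (CuspForm.heckeAlgebra.U hq hqN hqS) i j • b i)

include hMT in
theorem TB_coord {ℓ : ℕ} (hℓ : ℓ.Prime) (hℓN : ¬ ℓ ∣ N) (a : Fin r → 𝒪) :
    TB N 𝒪 hℓ hℓN (coord 𝒪 b a) =
      coord 𝒪 b (matEnd 𝒪 M (CuspForm.heckeAlgebra.T hℓ hℓN (Set.notMem_empty ℓ)) a) :=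
  op_coord 𝒪 b (TB N 𝒪 hℓ hℓN) (TB_smulO 𝒪 hℓ hℓN) _
    (fun j => by rw [TB_castO, hMT ℓ hℓ hℓN (Set.notMem_empty ℓ) j, castO_sum_smul]) a

include hMU in
theorem UB_coord {q : ℕ} (hq : q.Prime) (hqN : q ∣ N) (a : Fin r → 𝒪) :
    UB N 𝒪 hqN (coord 𝒪 b a) =
      coord 𝒪 b (matEnd 𝒪 M (CuspForm.heckeAlgebra.U hq hqN (Set.notMem_empty q)) a) :=
  op_coord 𝒪 b (UB N 𝒪 hqN) (UB_smulO 𝒪 hqN) _
    (fun j => by rw [UB_castO, hMU q hq hqN (Set.notMem_empty q) j, castO_sum_smul]) a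

include hMT in
theorem iterate_coord {ℓ : ℕ} (hℓ : ℓ.Prime) (hℓN : ¬ ℓ ∣ N) (a : 𝒪) (n : ℕ)
    (c : Fin r → 𝒪) :
    ((fun χ : Additive (Gamma0 N) →+ 𝒪 => TB N 𝒪 hℓ hℓN χ - a • χ)^[n] (coord 𝒪 b c)) =
      coord 𝒪 b (((matEnd 𝒪 M (CuspForm.heckeAlgebra.T hℓ hℓN (Set.notMem_empty ℓ)) -
        algebraMap 𝒪 (Module.End 𝒪 (Fin r → 𝒪)) a) ^ n) c) := by
  induction n with
  | zero => simp
  | succ n ih =>
    rw [Function.iterate_succ_apply', ih, TB_coord 𝒪 M hMT hℓ hℓN, pow_succ',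
      Module.End.mul_apply, LinearMap.sub_apply, Module.algebraMap_end_apply, map_sub, map_smul]

/-- The operators `U_q`, `q ∈ Sig`, in coordinates. -/
def cutUs (Sig : Finset ℕ) : Set (Module.End 𝒪 (Fin r → 𝒪)) :=
  {U | ∃ (q : ℕ) (hq : q.Prime) (hqN : q ∣ N), q ∈ Sig ∧
    U = matEnd 𝒪 M (CuspForm.heckeAlgebra.U hq hqN (Set.notMem_empty q))}

/-- The operators `T_ℓ - a`, `a` a lift of `θ(T_ℓ)`, in coordinates. -/
def cutFs (S : Set ℕ) (θ : CuspForm.heckeAlgebra N 2 S →+* ResidueField 𝒪) :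
    Set (Module.End 𝒪 (Fin r → 𝒪)) :=
  {F | ∃ (ℓ : ℕ) (hℓ : ℓ.Prime) (hℓN : ¬ ℓ ∣ N) (hℓS : ℓ ∉ S) (a : 𝒪),
    residue 𝒪 a = θ (CuspForm.heckeAlgebra.T hℓ hℓN hℓS) ∧
    F = matEnd 𝒪 M (CuspForm.heckeAlgebra.T hℓ hℓN (Set.notMem_empty ℓ)) -
      algebraMap 𝒪 (Module.End 𝒪 (Fin r → 𝒪)) a}

include hb in
/-- The values of `coord c` lie in `𝔪^m` iff the coordinates do. -/
theorem coord_mem_pow_iff (m : ℕ) (c : Fin r → 𝒪) :
    (∀ γ, coord 𝒪 b c γ ∈ maximalIdeal 𝒪 ^ m) ↔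
      c ∈ ((maximalIdeal 𝒪 ^ m) • ⊤ : Submodule 𝒪 (Fin r → 𝒪)) := by
  obtain ⟨ϖ, hϖ⟩ := IsDiscreteValuationRing.exists_irreducible 𝒪
  rw [mem_maximalIdeal_pow_smul_top hϖ, ← coord_dvd_iff 𝒪 hb (ϖ ^ m) (pow_ne_zero m hϖ.ne_zero)]
  refine forall_congr' fun γ => ?_
  rw [hϖ.maximalIdeal_eq, Ideal.span_singleton_pow, Ideal.mem_span_singleton]

include hb hMT hMU in
/-- **The Betti lattice in coordinates.** -/
theorem inBetti_coord_iff (S : Set ℕ) (θ : CuspForm.heckeAlgebra N 2 S →+* ResidueField 𝒪)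
    (Sig : Finset ℕ) (hSig : ∀ q ∈ Sig, q.Prime) (c : Fin r → 𝒪) :
    InBetti 𝒪 N S θ Sig (coord 𝒪 b c) ↔ c ∈ cutLattice (cutUs 𝒪 M Sig) (cutFs 𝒪 M S θ) := by
  constructor
  · rintro ⟨-, hU, hF⟩
    refine ⟨?_, ?_⟩
    · rintro U ⟨q, hq, hqN, hqSig, rfl⟩
      apply coord_injective 𝒪 hb
      rw [← UB_coord 𝒪 M hMU hq hqN, hU q hqSig hqN, map_zero]
    · rintro F ⟨ℓ, hℓ, hℓN, hℓS, a, ha, rfl⟩ m
      obtain ⟨n, hn⟩ := hF ℓ hℓ hℓN hℓS a ha m
      refine ⟨n, ?_⟩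
      rw [← coord_mem_pow_iff 𝒪 hb]
      intro γ
      rw [← iterate_coord 𝒪 M hMT hℓ hℓN a n c]
      exact hn γ
  · rintro ⟨hU, hF⟩
    refine ⟨coord_isParabolicHom 𝒪 hb c, ?_, ?_⟩
    · intro q hqSig hqN
      rw [UB_coord 𝒪 M hMU (hSig q hqSig) hqN, hU _ ⟨q, hSig q hqSig, hqN, hqSig, rfl⟩, map_zero]
    · intro ℓ hℓ hℓN hℓS a ha m
      obtain ⟨n, hn⟩ := hF _ ⟨ℓ, hℓ, hℓN, hℓS, a, ha, rfl⟩ m
      refine ⟨n, fun γ => ?_⟩
      rw [iterate_coord 𝒪 M hMT hℓ hℓN a n c]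
      exact (coord_mem_pow_iff 𝒪 hb m _).2 hn γ

end Lattice

end Fermat.Agent.S59.CaseC.Geom.H7

end
-- ==== END Fermat.Agent.S59.CaseC.Geom.H7_POrdCoord

-- ==== BEGIN Fermat.Agent.S59.CaseC.Geom.H7_POrdGal
section

set_option autoImplicit false
set_option linter.style.haveILetI false

open Polynomial IsLocalRing CuspForm

namespace Fermat.Agent.S59.CaseC.Geom.H7

open Fermat.Agent.R Fermat.Agent.R.H86 Fermat.Agent.S59 Fermat.Agent.S59.Datum
  Fermat.Agent.S59.CaseC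

/-- The Galois group of `ℚ`. -/
local notation "Γℚ" => AlgebraicClosure ℚ ≃ₐ[ℚ] AlgebraicClosure ℚ

/-! ## Ring homomorphisms out of a Hecke algebra -/

section Ext

variable {N : ℕ} [NeZero N] {S : Set ℕ} {R : Type*} [Ring R]

/-- Two ring homomorphisms out of a Hecke algebra which agree on the generators are equal. -/
theorem heckeAlgebra_ringHom_ext (f g : CuspForm.heckeAlgebra N 2 S →+* R)
    (hT : ∀ (ℓ : ℕ) (hℓ : ℓ.Prime) (hℓN : ¬ ℓ ∣ N) (hℓS : ℓ ∉ S),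
      f (CuspForm.heckeAlgebra.T hℓ hℓN hℓS) = g (CuspForm.heckeAlgebra.T hℓ hℓN hℓS))
    (hU : ∀ (q : ℕ) (hq : q.Prime) (hqN : q ∣ N) (hqS : q ∉ S),
      f (CuspForm.heckeAlgebra.U hq hqN hqS) = g (CuspForm.heckeAlgebra.U hq hqN hqS)) :
    f = g := by
  refine RingHom.ext ?_
  rintro ⟨t, ht⟩
  induction ht using Algebra.adjoin_induction with
  | mem x hx =>
    rcases hx with ⟨ℓ, hℓ, hℓN, hℓS, rfl⟩ | ⟨q, hqN, hq, hqS, rfl⟩
    · exact hT ℓ hℓ hℓN hℓS
    · exact hU q hq hqN hqS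
  | algebraMap r =>
    have : (⟨algebraMap ℤ _ r, Subalgebra.algebraMap_mem _ r⟩ : CuspForm.heckeAlgebra N 2 S) =
        ((r : ℤ) : CuspForm.heckeAlgebra N 2 S) := by
      apply Subtype.ext
      simp
    rw [this, map_intCast, map_intCast]
  | add x y hx hy ihx ihy =>
    have : (⟨x + y, Subalgebra.add_mem _ hx hy⟩ : CuspForm.heckeAlgebra N 2 S) =
        (⟨x, hx⟩ : CuspForm.heckeAlgebra N 2 S) + ⟨y, hy⟩ := rfl
    rw [this, map_add, map_add, ihx, ihy]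
  | mul x y hx hy ihx ihy =>
    have : (⟨x * y, Subalgebra.mul_mem _ hx hy⟩ : CuspForm.heckeAlgebra N 2 S) =
        (⟨x, hx⟩ : CuspForm.heckeAlgebra N 2 S) * ⟨y, hy⟩ := rfl
    rw [this, map_mul, map_mul, ihx, ihy]

end Ext

section Incl

variable (N : ℕ) [NeZero N]

/-- The inclusion of the Hecke algebra away from `S'` into the Hecke algebra away from `S`,
for `S ⊆ S'`. -/
noncomputable def heckeIncl {S S' : Set ℕ} (h : S ⊆ S') :
    CuspForm.heckeAlgebra N 2 S' →+* CuspForm.heckeAlgebra N 2 S :=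
  (Subalgebra.inclusion (CuspForm.heckeAlgebra_mono h)).toRingHom

variable {N}

theorem heckeIncl_T {S S' : Set ℕ} (h : S ⊆ S') {ℓ : ℕ} (hℓ : ℓ.Prime) (hℓN : ¬ ℓ ∣ N)
    (hℓS' : ℓ ∉ S') (hℓS : ℓ ∉ S) :
    heckeIncl N h (CuspForm.heckeAlgebra.T hℓ hℓN hℓS') = CuspForm.heckeAlgebra.T hℓ hℓN hℓS :=
  rfl

theorem heckeIncl_U {S S' : Set ℕ} (h : S ⊆ S') {q : ℕ} (hq : q.Prime) (hqN : q ∣ N)
    (hqS' : q ∉ S') (hqS : q ∉ S) :
    heckeIncl N h (CuspForm.heckeAlgebra.U hq hqN hqS') = CuspForm.heckeAlgebra.U hq hqN hqS :=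
  rfl

end Incl

/-! ## The eigenvalue of Frobenius on the quotient by the ordinary line -/

section Line

variable {A : Type} [CommRing A] [IsLocalRing A] {ρ : GaloisRepAdic A}
  {P : ValuationSubring (AlgebraicClosure ℚ)}

/-- Every element of the decomposition group has an eigenvalue on the quotient by the ordinary
line, and it is a unit. -/
theorem exists_quotEigen (ℒ : OrdLine ρ P) (g : Γℚ) (hg : g ∈ P.decompositionSubgroup ℚ) :
    ∃ z : A, IsUnit z ∧ ℒ.IsQuotEigen g z := by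
  classical
  obtain ⟨b, hb⟩ := ℒ.isLine
  have hmem : ∀ v : ρ.V, v ∈ ℒ.L ↔ b.repr v 1 = 0 := by
    intro v
    rw [hb]
    exact mem_span_basis_zero_iff b v
  have hb0 : b 0 ∈ ℒ.L := by
    rw [hb]; exact Submodule.mem_span_singleton_self _
  -- the eigenvalue of `σ` on the quotient
  have key : ∀ σ ∈ P.decompositionSubgroup ℚ, ∀ v : ρ.V,
      b.repr (ρ.ρ σ v) 1 = b.repr (ρ.ρ σ (b 1)) 1 * b.repr v 1 := by
    intro σ hσ v
    have hv : v = b.repr v 0 • b 0 + b.repr v 1 • b 1 := by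
      conv_lhs => rw [← b.sum_repr v, Fin.sum_univ_two]
    have h0 : b.repr (ρ.ρ σ (b 0)) 1 = 0 := (hmem _).1 (ℒ.stable σ hσ _ hb0)
    conv_lhs => rw [hv]
    rw [map_add, map_smul, map_smul, map_add, map_smul, map_smul, Finsupp.add_apply,
      Finsupp.smul_apply, Finsupp.smul_apply, h0, smul_eq_mul, smul_eq_mul, mul_zero, zero_add,
      mul_comm]
  refine ⟨b.repr (ρ.ρ g (b 1)) 1, ?_, ?_⟩
  · have hginv : g⁻¹ ∈ P.decompositionSubgroup ℚ := inv_mem hg
    have h1 := key g⁻¹ hginv (ρ.ρ g (b 1))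
    have h2 : ρ.ρ g⁻¹ (ρ.ρ g (b 1)) = b 1 := by
      rw [← Module.End.mul_apply, ← map_mul, inv_mul_cancel, map_one, Module.End.one_apply]
    rw [h2, Module.Basis.repr_self, Finsupp.single_eq_same] at h1
    exact IsUnit.of_mul_eq_one _ (by rw [mul_comm]; exact h1.symm)
  · intro v
    rw [hmem, map_sub, map_smul, Finsupp.sub_apply, Finsupp.smul_apply, key g hg v, smul_eq_mul,
      sub_self]

end Line

/-! ## The unit root -/

section Glue

variable {N : ℕ} [NeZero N] {S : Finset ℕ}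
  {𝒪 : Type} [CommRing 𝒪] [IsDomain 𝒪] [IsDiscreteValuationRing 𝒪]
  [IsAdicComplete (IsLocalRing.maximalIdeal 𝒪) 𝒪]
  {θ : CuspForm.heckeAlgebra N 2 (↑S : Set ℕ) →+* IsLocalRing.ResidueField 𝒪}
  {T : Type} [CommRing T] [IsLocalRing T] [IsNoetherianRing T]
  [IsAdicComplete (IsLocalRing.maximalIdeal T) T] [Algebra 𝒪 T] [IsLocalHom (algebraMap 𝒪 T)]
  [Module.Finite 𝒪 T] [Module.Free 𝒪 T]

/-- The unit root at a point of a Hecke–Galois datum of level prime to `p` with ordinary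
residual representation. -/
theorem unit_Tp_of_point (hL : Stmt_LGCpt) [Finite (IsLocalRing.ResidueField 𝒪)] [CharZero 𝒪]
    (p : ℕ) [Fact p.Prime] (hp2 : p ≠ 2) (hp𝒪 : (p : 𝒪) ∈ IsLocalRing.maximalIdeal 𝒪)
    (hpS : p ∈ S) (hNS : ∀ q : ℕ, q.Prime → q ∣ N → q ∈ S)
    (hp : p.Prime) (hpN : ¬ p ∣ N) (hpS' : p ∉ (↑(S.erase p) : Set ℕ))
    (H : CuspForm.HeckeGaloisRepDatum N (↑S : Set ℕ) 𝒪 θ T)
    (hcyc : H.ρ.DetIsCyclotomic p)
    (hres : (GaloisRepAdic.ofResidualGaloisRep H.ρ.residual).IsOrdinaryAt p)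
    (ψ : T →+* 𝒪) (hψ : IsLocalHom ψ)
    (xt : CuspForm.heckeAlgebra N 2 (↑(S.erase p) : Set ℕ) →+* 𝒪)
    (hxt : ∀ (ℓ : ℕ) (hℓ : ℓ.Prime) (hℓN : ¬ ℓ ∣ N) (hℓS : ℓ ∉ (↑S : Set ℕ))
      (hℓS' : ℓ ∉ (↑(S.erase p) : Set ℕ)),
      xt (CuspForm.heckeAlgebra.T hℓ hℓN hℓS') = ψ (H.π (CuspForm.heckeAlgebra.T hℓ hℓN hℓS))) :
    IsUnit (xt (CuspForm.heckeAlgebra.T hp hpN hpS')) := by
  classical
  -- the representation at the point
  have hfrob : HasFrobCharpoly (ψ.comp H.π) (H.ρ.baseChangeAlong ψ hψ) :=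
    hasFrobCharpoly_baseChangeAlong ψ hψ H.π H.ρ (hasFrobCharpoly_datum H)
  have habs' : (H.ρ.baseChangeAlong ψ hψ).residual.IsAbsolutelyIrreducible :=
    residual_absIrr_baseChangeAlong ψ hψ H.ρ H.residual_absIrr
  have hdet : (H.ρ.baseChangeAlong ψ hψ).DetIsCyclotomic p :=
    Fermat.Agent.S56.H92.detIsCyclotomic_baseChangeAlong ψ hψ H.ρ p hcyc
  have hflat : (H.ρ.baseChangeAlong ψ hψ).IsFlatAt p :=
    Fermat.Agent.S59.NonMin.H7.stmt_FlatPoint p N S 𝒪 hp hp2 hp𝒪 hpN hpS hNS (ψ.comp H.π) _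
      hfrob habs'
  have hordρ : (H.ρ.baseChangeAlong ψ hψ).IsOrdinaryAt p := by
    refine Fermat.Agent.S33.H86.stmt_FlatOrd p hp hp2 𝒪 hp𝒪 _ hflat ?_
      (residual_isOrdinaryAt_baseChangeAlong ψ hψ H.ρ p hres)
    intro P hP
    exact exists_inertia_notMem Fermat.Agent.Lib.FrobDensity.stmt_FD H2.stmt_CycInertia
      H2.stmt_FrobCyc hp hp2 hpS hNS hp𝒪 (ψ.comp H.π) _ hfrob P hP
  -- the ordinary line, a Frobenius element, its eigenvalue
  obtain ⟨P, hP⟩ := Fermat.Agent.Lib.FrobExists.exists_liesOverPrime p hp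
  obtain ⟨L₀, hline, hstab, hin⟩ := hordρ P hP
  let ℒ : OrdLine (H.ρ.baseChangeAlong ψ hψ) P := ⟨L₀, hline, hstab, hin⟩
  obtain ⟨g, hg⟩ := Fermat.Agent.Lib.FrobExists.exists_isFrobeniusAt p hp P hP
  obtain ⟨z, hzu, hz⟩ := exists_quotEigen ℒ g hg.mem_decompositionSubgroup
  have hlgc := hL 𝒪 p hp2 hp𝒪 N S hpS hNS hp hpN hpS' xt (H.ρ.baseChangeAlong ψ hψ)
    (fun ℓ hℓ hℓN hℓS' hℓp B hB σ hσ => by
      have hℓS : ℓ ∉ (↑S : Set ℕ) := by
        intro h
        exact hℓS' (Finset.mem_coe.2 (Finset.mem_erase.2 ⟨hℓp, Finset.mem_coe.1 h⟩))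
      rw [hfrob ℓ hℓ hℓN hℓS B hB σ hσ, RingHom.comp_apply, hxt ℓ hℓ hℓN hℓS hℓS'])
    hdet habs' P hP ℒ g hg z hz
  -- `xt(T_p) z = z² + p`
  by_contra hnu
  have hm : xt (CuspForm.heckeAlgebra.T hp hpN hpS') ∈ maximalIdeal 𝒪 :=
    (mem_maximalIdeal _).2 hnu
  have hz2 : z ^ 2 ∈ maximalIdeal 𝒪 := by
    have e : z ^ 2 = xt (CuspForm.heckeAlgebra.T hp hpN hpS') * z - (p : 𝒪) := by
      linear_combination hlgc
    rw [e]
    exact sub_mem (Ideal.mul_mem_right _ _ hm) hp𝒪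
  exact (mem_maximalIdeal _).1 hz2 (hzu.pow 2)

end Glue

/-- **The Galois side of P-ORD**: a character `xt` of the Hecke algebra away from `S ∖ {p}`
(level prime to `p`) whose restriction to the Hecke algebra away from `S` lifts the system `θ`
of an absolutely irreducible `ρbar`, ordinary at `p`, has `xt(T_p)` a unit. -/
theorem unit_Tp_of_lgc (hL : Stmt_LGCpt)
    (𝒪 : Type) [CommRing 𝒪] [IsDomain 𝒪] [IsDiscreteValuationRing 𝒪]
    [IsAdicComplete (maximalIdeal 𝒪) 𝒪] [Finite (ResidueField 𝒪)] [CharZero 𝒪]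
    (p : ℕ) [Fact p.Prime] (hp2 : p ≠ 2) (hp𝒪 : (p : 𝒪) ∈ maximalIdeal 𝒪)
    (ρbar : ResidualGaloisRep (ResidueField 𝒪)) (habs : ρbar.IsAbsolutelyIrreducible)
    (hord : (GaloisRepAdic.ofResidualGaloisRep ρbar).IsOrdinaryAt p)
    (N : ℕ) [NeZero N] [Fact (CuspForm.HasIntegralStructure N 2)] (S : Finset ℕ)
    (hpS : p ∈ S) (hNS : ∀ q : ℕ, q.Prime → q ∣ N → q ∈ S)
    (θ : CuspForm.heckeAlgebra N 2 (↑S : Set ℕ) →+* ResidueField 𝒪)
    (hθ : Fermat.Agent.S59.Datum.FrobHyp ρbar N S θ)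
    (hp : p.Prime) (hpN : ¬ p ∣ N) (hpS' : p ∉ (↑(S.erase p) : Set ℕ))
    (xt : CuspForm.heckeAlgebra N 2 (↑(S.erase p) : Set ℕ) →+* 𝒪)
    (hxt : ∀ (ℓ : ℕ) (hℓ : ℓ.Prime) (hℓN : ¬ ℓ ∣ N) (hℓS : ℓ ∉ (↑S : Set ℕ))
      (hℓS' : ℓ ∉ (↑(S.erase p) : Set ℕ)),
      residue 𝒪 (xt (CuspForm.heckeAlgebra.T hℓ hℓN hℓS')) =
        θ (CuspForm.heckeAlgebra.T hℓ hℓN hℓS)) :
    IsUnit (xt (CuspForm.heckeAlgebra.T hp hpN hpS')) := by
  classical
  have hsub : (↑(S.erase p) : Set ℕ) ⊆ (↑S : Set ℕ) := by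
    intro x hx
    exact Finset.mem_of_mem_erase (Finset.mem_coe.1 hx)
  -- the restriction of `xt` to the Hecke algebra away from `S`
  have hxθ : ∀ t, residue 𝒪 ((xt.comp (heckeIncl N hsub)) t) = θ t := by
    have h1 : (residue 𝒪).comp (xt.comp (heckeIncl N hsub)) = θ := by
      refine heckeAlgebra_ringHom_ext _ _ ?_ ?_
      · intro ℓ hℓ hℓN hℓS
        have hℓS' : ℓ ∉ (↑(S.erase p) : Set ℕ) := fun h => hℓS (hsub h)
        exact hxt ℓ hℓ hℓN hℓS hℓS'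
      · intro q hq hqN hqS
        exact absurd (Finset.mem_coe.2 (hNS q hq hqN)) hqS
    intro t
    exact congrArg (fun f : CuspForm.heckeAlgebra N 2 (↑S : Set ℕ) →+* ResidueField 𝒪 => f t) h1
  -- the datum and the point
  obtain ⟨H, hπ, hcyc, hequiv⟩ :=
    Fermat.Agent.S59.Datum.stmt_DATUM 𝒪 p hp2 hp𝒪 N S hpS hNS ρbar habs θ hθ
  obtain ⟨-, -, hpt, -⟩ := Fermat.Agent.S59.Datum.H85.stmt_Ring 𝒪 N (↑S : Set ℕ) θ
  obtain ⟨ψ, hψx⟩ := hpt (xt.comp (heckeIncl N hsub)) hxθ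
  have hψsurj : Function.Surjective ψ.toRingHom := by
    intro a
    exact ⟨algebraMap 𝒪 _ a, ψ.commutes a⟩
  have hψ : IsLocalHom ψ.toRingHom := IsLocalHom.of_surjective _ hψsurj
  have hres : (GaloisRepAdic.ofResidualGaloisRep H.ρ.residual).IsOrdinaryAt p := by
    obtain ⟨e⟩ := hequiv
    exact Fermat.Agent.S59.NonMin.H7.resOrd_of_isEquiv ⟨e.symm⟩ p
      (Fermat.Agent.S59.NonMin.H7.resOrd_baseChangeAlong _ ρbar p hord)
  refine unit_Tp_of_point hL p hp2 hp𝒪 hpS hNS hp hpN hpS' H hcyc hres ψ.toRingHom hψ xt ?_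
  intro ℓ hℓ hℓN hℓS hℓS'
  rw [hπ]
  exact (hψx (CuspForm.heckeAlgebra.T hℓ hℓN hℓS)).symm

end Fermat.Agent.S59.CaseC.Geom.H7

end
-- ==== END Fermat.Agent.S59.CaseC.Geom.H7_POrdGal

-- ==== BEGIN Fermat.Agent.S59.CaseC.H47_StepPLine
section

/-!
# S59, case C, the step at `p` (helper47), part 1: ordinary lines with an eigenvalue

* `IsOrdLineEig ρ P g z L` : `L` is an ordinary line of `ρ` at `P` and `ρ(g) ≡ z` modulo `L`.
* `exists_eigen`          : every element of the decomposition group has an eigenvalue on the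
                            quotient by an ordinary line.
* `isOrdLineEig_of_isEquiv`, `isOrdLineEig_baseChangeAlong` : transport along equivalences and
                            base changes (the eigenvalue becomes `φ z`).
* `exists_ordLine`        : the structure `CaseC.OrdLine` with `IsQuotEigen`.
-/

set_option autoImplicit false
set_option linter.unusedSectionVars false
set_option linter.style.haveILetI false
set_option linter.unusedVariables false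

open IsLocalRing TensorProduct

namespace Fermat.Agent.S59.CaseC.H47

open Fermat.Agent.S59.H99 Fermat.Agent.S56.H92 Fermat.Agent.S59.NonMin.H47

variable {A : Type} [CommRing A] [IsLocalRing A]

/-- `L` is an ordinary line of `ρ` at `P`, and `g` acts on the quotient by `z`. -/
def IsOrdLineEig (ρ : GaloisRepAdic A) (P : ValuationSubring (AlgebraicClosure ℚ))
    (g : AlgebraicClosure ℚ ≃ₐ[ℚ] AlgebraicClosure ℚ) (z : A) (L : Submodule A ρ.V) : Prop :=
  IsOrdLineAt ρ P L ∧ ∀ v : ρ.V, ρ.ρ g v - z • v ∈ L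

/-- from the structure to the predicate -/
theorem isOrdLineEig_of_ordLine {ρ : GaloisRepAdic A}
    {P : ValuationSubring (AlgebraicClosure ℚ)} (ℒ : OrdLine ρ P)
    {g : AlgebraicClosure ℚ ≃ₐ[ℚ] AlgebraicClosure ℚ} {z : A} (h : ℒ.IsQuotEigen g z) :
    IsOrdLineEig ρ P g z ℒ.L :=
  ⟨⟨ℒ.isLine, ℒ.stable, ℒ.inertia⟩, h⟩

/-- from the predicate to the structure -/
theorem exists_ordLine {ρ : GaloisRepAdic A}
    {P : ValuationSubring (AlgebraicClosure ℚ)}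
    {g : AlgebraicClosure ℚ ≃ₐ[ℚ] AlgebraicClosure ℚ} {z : A} {L : Submodule A ρ.V}
    (h : IsOrdLineEig ρ P g z L) : ∃ ℒ : OrdLine ρ P, ℒ.IsQuotEigen g z :=
  ⟨⟨L, h.1.1, h.1.2.1, h.1.2.2⟩, h.2⟩

/-- a vector whose second coordinate vanishes is on the line of the first basis vector -/
theorem mem_span_of_repr_one_eq_zero {V : Type} [AddCommGroup V] [Module A V]
    (b : Module.Basis (Fin 2) A V) {v : V} (hv : b.repr v 1 = 0) :
    v ∈ Submodule.span A {b 0} := by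
  have h1 := b.sum_repr v
  rw [Fin.sum_univ_two, hv, zero_smul, add_zero] at h1
  rw [← h1]
  exact Submodule.smul_mem _ _ (Submodule.mem_span_singleton_self _)

/-- **The eigenvalue on the quotient**: an element of the decomposition group acts on the
quotient by an ordinary line through a scalar. -/
theorem exists_eigen {ρ : GaloisRepAdic A} {P : ValuationSubring (AlgebraicClosure ℚ)}
    {L : Submodule A ρ.V} (hL : IsOrdLineAt ρ P L)
    (g : AlgebraicClosure ℚ ≃ₐ[ℚ] AlgebraicClosure ℚ) (hg : g ∈ P.decompositionSubgroup ℚ) :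
    ∃ z : A, IsOrdLineEig ρ P g z L := by
  obtain ⟨⟨b, rfl⟩, hstab, hin⟩ := hL
  refine ⟨b.repr (ρ.ρ g (b 1)) 1, ⟨⟨b, rfl⟩, hstab, hin⟩, fun v => ?_⟩
  apply mem_span_of_repr_one_eq_zero
  have hb0 : b.repr (ρ.ρ g (b 0)) 1 = 0 :=
    repr_one_eq_zero_of_mem_span b (hstab g hg (b 0) (Submodule.mem_span_singleton_self _))
  have hv := b.sum_repr v
  rw [Fin.sum_univ_two] at hv
  have h1 : ρ.ρ g v = b.repr v 0 • ρ.ρ g (b 0) + b.repr v 1 • ρ.ρ g (b 1) := by
    conv_lhs => rw [← hv]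
    rw [map_add, map_smul, map_smul]
  rw [map_sub, Finsupp.sub_apply, map_smul, Finsupp.smul_apply, h1, map_add, Finsupp.add_apply,
    map_smul, map_smul, Finsupp.smul_apply, Finsupp.smul_apply, hb0, smul_zero, zero_add,
    smul_eq_mul, smul_eq_mul, mul_comm, sub_self]

section Equiv

variable {ρ ρ' : GaloisRepAdic A}

/-- transport along an equivalence -/
theorem isOrdLineEig_of_isEquiv (e : GaloisRepAdic.Equiv ρ ρ')
    {P : ValuationSubring (AlgebraicClosure ℚ)}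
    {g : AlgebraicClosure ℚ ≃ₐ[ℚ] AlgebraicClosure ℚ} {z : A} {L : Submodule A ρ.V}
    (h : IsOrdLineEig ρ P g z L) :
    IsOrdLineEig ρ' P g z (L.map (e.toLinearEquiv : ρ.V →ₗ[A] ρ'.V)) := by
  obtain ⟨⟨⟨b, hb⟩, hD, hI⟩, hz⟩ := h
  refine ⟨⟨⟨b.map e.toLinearEquiv, ?_⟩, ?_, ?_⟩, ?_⟩
  · rw [hb, Submodule.map_span, Set.image_singleton]
    rfl
  · intro σ hσ v hv
    obtain ⟨w, hw, rfl⟩ := hv
    refine ⟨ρ.ρ σ w, hD σ hσ w hw, ?_⟩
    exact e.map_apply σ w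
  · intro σ hσ v
    obtain ⟨w, rfl⟩ := e.toLinearEquiv.surjective v
    refine ⟨ρ.ρ σ w - w, hI σ hσ w, ?_⟩
    change e.toLinearEquiv (ρ.ρ σ w - w) = _
    rw [map_sub, e.map_apply]
  · intro v
    obtain ⟨w, rfl⟩ := e.toLinearEquiv.surjective v
    refine ⟨ρ.ρ g w - z • w, hz w, ?_⟩
    change e.toLinearEquiv (ρ.ρ g w - z • w) = _
    rw [map_sub, e.map_apply, map_smul]

end Equiv

section BaseChange

variable {B : Type} [CommRing B] [IsLocalRing B]

/-- Core of the base change, stated on `B ⊗[A] V` directly. -/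
theorem ordEig_core (φ : A →+* B) (ρ : GaloisRepAdic A)
    (P : ValuationSubring (AlgebraicClosure ℚ))
    (g : AlgebraicClosure ℚ ≃ₐ[ℚ] AlgebraicClosure ℚ) (z : A)
    (h : ∃ L : Submodule A ρ.V,
      ((∃ b : Module.Basis (Fin 2) A ρ.V, L = Submodule.span A {b 0}) ∧
      (∀ σ ∈ P.decompositionSubgroup ℚ, ∀ v ∈ L, ρ.ρ σ v ∈ L) ∧
      (∀ σ ∈ P.inertiaSubgroupIn ℚ, ∀ v : ρ.V, ρ.ρ σ v - v ∈ L)) ∧
      ∀ v : ρ.V, ρ.ρ g v - z • v ∈ L) :
    letI : Algebra A B := φ.toAlgebra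
    ∃ L : Submodule B (B ⊗[A] ρ.V),
      ((∃ b : Module.Basis (Fin 2) B (B ⊗[A] ρ.V), L = Submodule.span B {b 0}) ∧
      (∀ σ ∈ P.decompositionSubgroup ℚ, ∀ v ∈ L, (ρ.ρ σ).baseChange B v ∈ L) ∧
      (∀ σ ∈ P.inertiaSubgroupIn ℚ, ∀ v : B ⊗[A] ρ.V, (ρ.ρ σ).baseChange B v - v ∈ L)) ∧
      ∀ v : B ⊗[A] ρ.V, (ρ.ρ g).baseChange B v - φ z • v ∈ L := by
  letI : Algebra A B := φ.toAlgebra
  obtain ⟨L, ⟨⟨b, hb⟩, hD, hI⟩, hz⟩ := h
  have hb0 : b 0 ∈ L := by rw [hb]; exact Submodule.mem_span_singleton_self _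
  refine ⟨Submodule.span B {(1 : B) ⊗ₜ[A] b 0}, ⟨⟨b.baseChange B, ?_⟩, ?_, ?_⟩, ?_⟩
  · rw [Module.Basis.baseChange_apply]
  · intro σ hσ v hv
    obtain ⟨c, rfl⟩ := Submodule.mem_span_singleton.1 hv
    rw [map_smul, LinearMap.baseChange_tmul]
    refine Submodule.smul_mem _ _ ?_
    have := hD σ hσ (b 0) hb0
    rw [hb] at this
    exact tmul_mem_span φ 1 this
  · intro σ hσ v
    induction v using TensorProduct.induction_on with
    | zero => rw [LinearMap.map_zero, sub_zero]; exact Submodule.zero_mem _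
    | tmul c v =>
      rw [LinearMap.baseChange_tmul, ← TensorProduct.tmul_sub]
      have := hI σ hσ v
      rw [hb] at this
      exact tmul_mem_span φ c this
    | add x y hx hy =>
      rw [map_add, add_sub_add_comm]
      exact Submodule.add_mem _ hx hy
  · intro v
    induction v using TensorProduct.induction_on with
    | zero => rw [LinearMap.map_zero, smul_zero, sub_zero]; exact Submodule.zero_mem _
    | tmul c v =>
      have h1 : φ z • (c ⊗ₜ[A] v : B ⊗[A] ρ.V) = c ⊗ₜ[A] (z • v) := by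
        rw [TensorProduct.smul_tmul', TensorProduct.tmul_smul, TensorProduct.smul_tmul']
        congr 1
      rw [LinearMap.baseChange_tmul, h1, ← TensorProduct.tmul_sub]
      have := hz v
      rw [hb] at this
      exact tmul_mem_span φ c this
    | add x y hx hy =>
      rw [map_add, smul_add, add_sub_add_comm]
      exact Submodule.add_mem _ hx hy

/-- transport along a base change: the eigenvalue becomes `φ z` -/
theorem exists_isOrdLineEig_baseChangeAlong (φ : A →+* B) (hφ : IsLocalHom φ)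
    (ρ : GaloisRepAdic A) {P : ValuationSubring (AlgebraicClosure ℚ)}
    {g : AlgebraicClosure ℚ ≃ₐ[ℚ] AlgebraicClosure ℚ} {z : A} {L : Submodule A ρ.V}
    (h : IsOrdLineEig ρ P g z L) :
    ∃ L' : Submodule B (ρ.baseChangeAlong φ hφ).V,
      IsOrdLineEig (ρ.baseChangeAlong φ hφ) P g (φ z) L' :=
  ordEig_core φ ρ P g z ⟨L, h⟩

/-- transport along a base change followed by an equivalence -/
theorem exists_isOrdLineEig_of_baseChange_isEquiv (φ : A →+* B) (hφ : IsLocalHom φ)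
    (ρ : GaloisRepAdic A) (ρ' : GaloisRepAdic B)
    (he : (ρ.baseChangeAlong φ hφ).IsEquiv ρ')
    {P : ValuationSubring (AlgebraicClosure ℚ)}
    {g : AlgebraicClosure ℚ ≃ₐ[ℚ] AlgebraicClosure ℚ} {z : A} {L : Submodule A ρ.V}
    (h : IsOrdLineEig ρ P g z L) :
    ∃ L' : Submodule B ρ'.V, IsOrdLineEig ρ' P g (φ z) L' := by
  obtain ⟨e⟩ := he
  obtain ⟨L₁, hL₁⟩ := exists_isOrdLineEig_baseChangeAlong φ hφ ρ h
  exact ⟨_, isOrdLineEig_of_isEquiv e hL₁⟩

end BaseChange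

end Fermat.Agent.S59.CaseC.H47

end
-- ==== END Fermat.Agent.S59.CaseC.H47_StepPLine

-- ==== BEGIN Fermat.Agent.S59.LGC.DefsHopf
section

/-!
# S59, case C, LGC-p (helper54): the finite flat model of `J₀(N)[ℓ^k]` WITH the reduction clause

`Stmt_HopfK1` = the frozen statement S19 (for `Tors N (ℓ^k)` with its Galois action) + the clause:
a point `f` of the Hopf algebra whose class lies in the kernel of reduction `K1(ℓ^k)` at the
place `A` reduces to the counit at `A`.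

* NUQ-a : `hopfK1_of : Stmt_FLGenCoreK1 → Stmt_HopfK1`.  [The proof of
  `Lib.HopfOrderLoc.localGen_of` / `Lib.HopfOrder.flat_of_generators` /
  `absFlat_of_isHopfOrder` with the Hopf order `genAlg R F` and `he : f.ofConv = evGen (e f)`
  exposed; the generators `F i` lie in `genRing A h`, so `F i x ≡ F i 0` if `h j x ≡ h j 0`;
  `(e.symm 0) a = algebraMap (counit a)`.]
* NUQ-b : `k1NoUnr_of_hopf : Stmt_HopfK1 → ∀ N p, Stmt_K1NoUnr N p`.  [The proof of
  `S33.H86.flatInf_padicPlace` with `H`, `e` given; `K1 ⊆ Inf` by the clause, at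
  `A = padicPlace p` (`valuation_padicPlace_lt_one_iff`).]

Definitions only.
-/

set_option autoImplicit false

noncomputable section

open AlgebraicCurve ModularCurve

namespace Fermat.Agent.S59.LGC

open Fermat.Agent.S19 Fermat.Agent.S19.H32

/-- **S19 with the reduction clause**, at every place `A` over `ℓ`. -/
def Stmt_HopfK1 : Prop :=
  ∀ (N : ℕ) [NeZero N] (ℓ : ℕ) [Fact ℓ.Prime], ¬ ℓ ∣ N → ∀ k : ℕ,
    ∀ A : ValuationSubring (AlgebraicClosure ℚ), A.LiesOverPrime ℓ →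
    ∃ (H : Type) (_ : CommRing H) (_ : HopfAlgebra (GaloisRep.ratLocalizedAt ℓ) H),
      Module.Finite (GaloisRep.ratLocalizedAt ℓ) H ∧
      Module.Flat (GaloisRep.ratLocalizedAt ℓ) H ∧
      Coalgebra.IsCocomm (GaloisRep.ratLocalizedAt ℓ) H ∧
      ∃ e : WithConv (H →ₐ[GaloisRep.ratLocalizedAt ℓ] AlgebraicClosure ℚ) ≃
          Tors N ((ℓ : ℤ) ^ k),
        (∀ f g : WithConv (H →ₐ[GaloisRep.ratLocalizedAt ℓ] AlgebraicClosure ℚ),
          e (f * g) = e f + e g) ∧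
        (∀ (σ : AlgebraicClosure ℚ ≃ₐ[ℚ] AlgebraicClosure ℚ)
          (f g : WithConv (H →ₐ[GaloisRep.ratLocalizedAt ℓ] AlgebraicClosure ℚ)),
          (∀ h : H, g h = σ (f h)) → e g = torsAct N ((ℓ : ℤ) ^ k) σ (e f)) ∧
        ∀ f : WithConv (H →ₐ[GaloisRep.ratLocalizedAt ℓ] AlgebraicClosure ℚ),
          Fermat.Agent.BAD.InK1 A N (ℓ ^ k) ((e f : Tors N ((ℓ : ℤ) ^ k)) : JZero N) →
          ∀ a : H, A.valuation (f.ofConv a -
            algebraMap (GaloisRep.ratLocalizedAt ℓ) (AlgebraicClosure ℚ)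
              (Coalgebra.counit a)) < 1

end Fermat.Agent.S59.LGC

end
end
-- ==== END Fermat.Agent.S59.LGC.DefsHopf

-- ==== BEGIN Fermat.Agent.S59.LGC.DefsVec
section

/-!
# S59, case C, LGC-p (helper54): the vector-level target at the place `padicPlace p`

* `Stmt_LGCpt0` : `CaseC.Geom.Stmt_LGCpt` for the single place `P = padicPlace p`.
* Leaf CONJ : `lgcpt_of_padicPlace : Stmt_LGCpt0 → CaseC.Geom.Stmt_LGCpt`.
  [All places over `p` are conjugate: `P = τ • padicPlace p`; `ℒ' := ρ(τ)⁻¹ ℒ` is an ordinary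
  line at `padicPlace p`, `g' := τ⁻¹ g τ` is a Frobenius element at `padicPlace p` with the same
  eigenvalue `z` on the quotient.  Tools: `S33.H86.mem_decomposition_conj`,
  `S33.H86.mem_inertia_conj`, `Lib.InertiaConj`, `Lib.FrobExists`.]

Definitions only.
-/

set_option autoImplicit false

open Polynomial CuspForm CongruenceSubgroup ModularFormClass IsLocalRing

namespace Fermat.Agent.S59.LGC

open Fermat.Agent.S59 Fermat.Agent.S59.CaseC

/-- `CaseC.Geom.Stmt_LGCpt` at the place `padicPlace p`. -/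
def Stmt_LGCpt0 : Prop :=
  ∀ (𝒪 : Type) [CommRing 𝒪] [IsDomain 𝒪] [IsDiscreteValuationRing 𝒪]
    [IsAdicComplete (maximalIdeal 𝒪) 𝒪] [Finite (ResidueField 𝒪)] [CharZero 𝒪]
    (p : ℕ) [Fact p.Prime], p ≠ 2 → (p : 𝒪) ∈ maximalIdeal 𝒪 →
    ∀ (N : ℕ) [NeZero N] (S : Finset ℕ), p ∈ S → (∀ q : ℕ, q.Prime → q ∣ N → q ∈ S) →
    ∀ (hp : p.Prime) (hpN : ¬ p ∣ N) (hpS : p ∉ (↑(S.erase p) : Set ℕ))
      (xt : CuspForm.heckeAlgebra N 2 (↑(S.erase p) : Set ℕ) →+* 𝒪) (ρ : GaloisRepAdic 𝒪),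
    (∀ (ℓ : ℕ) (hℓ : ℓ.Prime) (hℓN : ¬ ℓ ∣ N) (hℓS : ℓ ∉ (↑(S.erase p) : Set ℕ)), ℓ ≠ p →
      ∀ B : ValuationSubring (AlgebraicClosure ℚ), B.LiesOverPrime ℓ →
        ∀ σ : AlgebraicClosure ℚ ≃ₐ[ℚ] AlgebraicClosure ℚ, B.IsFrobeniusAt σ ℓ →
          LinearMap.charpoly (ρ.ρ σ) =
            X ^ 2 - C (xt (CuspForm.heckeAlgebra.T hℓ hℓN hℓS)) * X + C ((ℓ : 𝒪))) →
    ρ.DetIsCyclotomic p → ρ.residual.IsAbsolutelyIrreducible →
    ∀ (ℒ : OrdLine ρ (padicPlace p)) (g : AlgebraicClosure ℚ ≃ₐ[ℚ] AlgebraicClosure ℚ),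
      (padicPlace p).IsFrobeniusAt g p →
    ∀ z : 𝒪, ℒ.IsQuotEigen g z →
      z ^ 2 - xt (CuspForm.heckeAlgebra.T hp hpN hpS) * z + (p : 𝒪) = 0

end Fermat.Agent.S59.LGC

end
-- ==== END Fermat.Agent.S59.LGC.DefsVec
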