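-- GENERATED (merged mirror, NOTES/tools/trim/merge3_helper67.py): 17 modules of the originals, bodies verbatim.
import Mathlib
import Fermat.Agent.Zm.S59_L01_000
import Fermat.Agent.Zm.S59_L01_002
import Fermat.Agent.Zm.S35_L03_000
import Fermat.Agent.Zm.S35_L02_001
import Fermat.Agent.Zm.S33_L01_002
import Fermat.Agent.Zm.S56_L07_005
import Fermat.Agent.Zm.S43_L03_003
import Fermat.Agent.Zm.S44_L02_001
import Fermat.Agent.Zm.S35_L14_001
import Fermat.Agent.Zm.S35_L09_001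
import Fermat.Agent.Zm.S35_L08_000
import Fermat.Agent.Zm.S33_L05_000
import Fermat.Agent.Zm.S35_L10_001
import Fermat.Agent.Zm.S33_L03_003
import Fermat.Agent.Zm.S59_L01_003
import Fermat.Agent.Zm.S44_L10_000
import Fermat.Agent.Zm.S44_L04_000
import Fermat.Agent.Zm.S43_L02_003
import Fermat.Agent.Zm.S36_L03_002
import Fermat.Agent.S43.Old.H35_Abs
import Fermat.Agent.Zm.S35_L10_005
import Fermat.Agent.Zm.S44_L02_004
import Fermat.Agent.Zm.S35_L17_000
import Fermat.Agent.S43.Old.H75_WireAbs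
import Fermat.Agent.Zm.S44_L08_000
import Fermat.Agent.Zm.S48_L02_000
import Fermat.Agent.Zm.S36_L02_002
import Fermat.Agent.Zm.S35_L15_000
import Fermat.Agent.Zm.S33_L01_000
import Fermat.Agent.Zm.S15_L04_001
import Fermat.Agent.Zm.S35_L14_000

-- ==== BEGIN Fermat.Agent.S27.RR.H52_H1
section

/-!
# S27, package RR-DUAL (helper52), part 2: `dim H¹(D) = l(D) - deg D - 1 + g`

`F / K` with `FFHyp K F` and Riemann's theorem `IsGenus K F g c`.  Stichtenoth 1.5.4: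

* `quot_step` : linear algebra of one step `N ≤ N' ≤ N + K β`;
* `h1_step` : `H¹(D + v)` finite of dimension `i(D + v)` implies the same for `D`;
* `sup_eq_top_of_idx_zero` : `A(B) + F = A` if `l(B) = deg B + 1 - g`;
* **`finrank_H1`** : `H¹(D)` is finite dimensional of dimension `l(D) - deg D - 1 + g`;
* **`genusFF_eq`** : `genusFF K F = g`.
-/

set_option autoImplicit false
set_option linter.style.haveILetI false
set_option linter.unusedSectionVars false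

noncomputable section

open AlgebraicCurve

attribute [local instance] Classical.propDecidable

namespace Fermat.Agent.S27.RR.H52

open Fermat.Agent.RED Fermat.Agent.RED.H51 Fermat.Agent.RED.H17

local notation "L" => riemannRochSpace

section LA

variable {K M : Type*} [Field K] [AddCommGroup M] [Module K M]

/-- One step of a filtration: `N ≤ N' ≤ N + K β`, `β ∈ N'`. -/
theorem quot_step (N N' : Submodule K M) (β : M) (h1 : N ≤ N')
    (h2 : N' ≤ N ⊔ Submodule.span K {β}) (hβ : β ∈ N') (hfin : Module.Finite K (M ⧸ N')) :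
    Module.Finite K (M ⧸ N) ∧
      Module.finrank K (M ⧸ N) = Module.finrank K (M ⧸ N') + (if β ∈ N then 0 else 1) := by
  set P : Submodule K (M ⧸ N) := N'.map N.mkQ with hP
  have hPspan : P = Submodule.span K {N.mkQ β} := by
    apply le_antisymm
    · rw [hP, Submodule.map_le_iff_le_comap]
      intro x hx
      obtain ⟨n, hn, y, hy, rfl⟩ := Submodule.mem_sup.mp (h2 hx)
      obtain ⟨c, rfl⟩ := Submodule.mem_span_singleton.mp hy
      rw [Submodule.mem_comap, map_add, map_smul]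
      have h0 : N.mkQ n = 0 := by
        rw [Submodule.mkQ_apply]
        exact (Submodule.Quotient.mk_eq_zero N).mpr hn
      rw [h0, zero_add]
      exact Submodule.smul_mem _ c (Submodule.mem_span_singleton_self _)
    · rw [Submodule.span_le, Set.singleton_subset_iff]
      exact Submodule.mem_map_of_mem hβ
  have e := Submodule.quotientQuotientEquivQuotient N N' h1
  haveI : Module.Finite K ((M ⧸ N) ⧸ P) := Module.Finite.equiv e.symm
  haveI : Module.Finite K P := by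
    rw [hPspan]
    infer_instance
  haveI hQ : Module.Finite K (M ⧸ N) := Module.Finite.of_submodule_quotient P
  refine ⟨hQ, ?_⟩
  have h3 := Submodule.finrank_quotient_add_finrank P
  rw [← h3, LinearEquiv.finrank_eq e]
  congr 1
  rw [hPspan]
  split_ifs with hb
  · have h0 : N.mkQ β = 0 := by
      rw [Submodule.mkQ_apply]
      exact (Submodule.Quotient.mk_eq_zero N).mpr hb
    rw [h0, Submodule.span_zero_singleton, finrank_bot]
  · refine finrank_span_singleton fun h0 => hb ?_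
    rw [Submodule.mkQ_apply] at h0
    exact (Submodule.Quotient.mk_eq_zero N).mp h0

end LA

variable {K F : Type*} [Field K] [Field F] [Algebra K F]

/-- The index of speciality predicted by Riemann's theorem. -/
def idx (g : ℕ) (D : Divisor K F) : ℤ :=
  (Module.finrank K (L D) : ℤ) - Divisor.degree D - 1 + g

/-- `A(D) + F`. -/
abbrev NN (D : Divisor K F) : Submodule K (Adele K F) :=
  repartitionsOf D ⊔ principalRepartitions K F

theorem idx_nonneg {g : ℕ} {c : ℤ} (hg : IsGenus K F g c) (D : Divisor K F) : 0 ≤ idx g D := by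
  have := (hg D).1
  unfold idx
  omega

theorem idx_eq_zero {g : ℕ} {c : ℤ} (hg : IsGenus K F g c) {D : Divisor K F}
    (hD : c ≤ Divisor.degree D) : idx g D = 0 := by
  have := (hg D).2 hD
  unfold idx
  omega

theorem degree_add_single (H : FFHyp K F) (D : Divisor K F) (v : Place K F) :
    Divisor.degree (D + Finsupp.single v 1) = Divisor.degree D + 1 := by
  rw [map_add, Divisor.degree_single, H.deg_one v]
  simp

/-- `l(D) ≤ l(D + v) ≤ l(D) + 1`, and `L(D + v) = L(D)` iff the dimensions agree. -/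
theorem finrank_succ (H : FFHyp K F) (D : Divisor K F) (v : Place K F) :
    (L (D + Finsupp.single v 1) ≤ L D ∧
        Module.finrank K (L (D + Finsupp.single v 1)) = Module.finrank K (L D)) ∨
      (¬ L (D + Finsupp.single v 1) ≤ L D ∧
        Module.finrank K (L (D + Finsupp.single v 1)) = Module.finrank K (L D) + 1) := by
  haveI := H.finite D
  haveI := H.finite (D + Finsupp.single v 1)
  have hle : L D ≤ L (D + Finsupp.single v 1) := H42.L_mono (single_add_le D v)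
  by_cases h : L (D + Finsupp.single v 1) ≤ L D
  · left
    exact ⟨h, by rw [le_antisymm h hle]⟩
  · right
    refine ⟨h, ?_⟩
    have hlt : L D < L (D + Finsupp.single v 1) := lt_of_le_of_ne hle fun e => h (by rw [e])
    have h1 := Submodule.finrank_lt_finrank_of_lt hlt
    have h2 := H.finrank_add_single_le D v
    omega

/-- **One step down**: from `D + v` to `D`. -/
theorem h1_step (H : FFHyp K F) (g : ℕ) (D : Divisor K F) (v : Place K F)
    (h : Module.Finite K (H1 (D + Finsupp.single v 1)) ∧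
      (Module.finrank K (H1 (D + Finsupp.single v 1)) : ℤ) = idx g (D + Finsupp.single v 1)) :
    Module.Finite K (H1 D) ∧ (Module.finrank K (H1 D) : ℤ) = idx g D := by
  obtain ⟨u, hu, hord⟩ := exists_ord_eq v (-D v - 1)
  have h1 : NN D ≤ NN (D + Finsupp.single v 1) :=
    sup_le_sup_right (repartitionsOf_mono (single_add_le D v)) _
  have h2 : NN (D + Finsupp.single v 1) ≤ NN D ⊔ Submodule.span K {sgl v u} := by
    refine sup_le ?_ (le_sup_of_le_left le_sup_right)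
    exact (AD_succ_le v (H.deg_one v) D hu hord).trans (sup_le_sup_right le_sup_left _)
  have hβ : sgl v u ∈ NN (D + Finsupp.single v 1) :=
    Submodule.mem_sup_left (sgl_mem_AD_succ v D hord)
  obtain ⟨hfin, hrk⟩ := quot_step (NN D) (NN (D + Finsupp.single v 1)) (sgl v u) h1 h2 hβ h.1
  refine ⟨hfin, ?_⟩
  have hdeg := degree_add_single H D v
  have hidx := h.2
  unfold idx at hidx ⊢
  rw [hdeg] at hidx
  rcases finrank_succ H D v with ⟨hL, hl⟩ | ⟨hL, hl⟩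
  · have hnot : sgl v u ∉ NN D := sgl_not_mem_sup_of_L v D hu hord hL
    rw [if_neg hnot] at hrk
    have hrk' : (Module.finrank K (H1 D) : ℤ)
        = Module.finrank K (H1 (D + Finsupp.single v 1)) + 1 := by exact_mod_cast hrk
    rw [hl] at hidx
    omega
  · obtain ⟨f, hf, hfD⟩ := SetLike.not_le_iff_exists.mp hL
    have hmem : sgl v u ∈ NN D := sgl_mem_sup_of_L v (H.deg_one v) D hu hord hf hfD
    rw [if_pos hmem, add_zero] at hrk
    have hrk' : (Module.finrank K (H1 D) : ℤ)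
        = Module.finrank K (H1 (D + Finsupp.single v 1)) := by exact_mod_cast hrk
    rw [hl] at hidx
    push_cast at hidx
    omega

/-- The index does not increase. -/
theorem idx_succ_le (H : FFHyp K F) (g : ℕ) (D : Divisor K F) (v : Place K F) :
    idx g (D + Finsupp.single v 1) ≤ idx g D := by
  unfold idx
  rw [degree_add_single H D v]
  rcases finrank_succ H D v with ⟨-, hl⟩ | ⟨-, hl⟩ <;> rw [hl] <;> push_cast <;> omega

/-- `A(D') ≤ A(B) + F` for `D' ≥ B` if `i(B) = 0`. -/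
theorem AD_le_of_idx_zero (H : FFHyp K F) {g : ℕ} {c : ℤ} (hg : IsGenus K F g c) :
    ∀ (m : ℕ) (B D' : Divisor K F), B ≤ D' → Divisor.degree D' - Divisor.degree B ≤ m →
      idx g B = 0 → repartitionsOf D' ≤ NN B ∧ idx g D' = 0 := by
  intro m
  induction m with
  | zero =>
    intro B D' h hm hB
    rcases H42.eq_or_exists_lt h with rfl | ⟨v, hv⟩
    · exact ⟨le_sup_left, hB⟩
    · exfalso
      have h1 := H42.degree_mono (H42.le_sub_single h hv)
      rw [map_sub, Divisor.degree_single, H.deg_one v] at h1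
      simp only [Nat.cast_zero] at hm
      simp only [one_mul, Nat.cast_one] at h1
      omega
  | succ m ih =>
    intro B D' h hm hB
    rcases H42.eq_or_exists_lt h with rfl | ⟨v, hv⟩
    · exact ⟨le_sup_left, hB⟩
    · have hle := H42.le_sub_single h hv
      set D'' : Divisor K F := D' - Finsupp.single v 1 with hD''
      have hD' : D' = D'' + Finsupp.single v 1 := by rw [hD'', sub_add_cancel]
      have hdeg' : Divisor.degree D'' = Divisor.degree D' - 1 := by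
        rw [hD'', map_sub, Divisor.degree_single, H.deg_one v]
        simp
      obtain ⟨hA, hi⟩ := ih B D'' hle (by rw [hdeg']; push_cast at hm; omega) hB
      have hi' : idx g D' = 0 := by
        have h1 := idx_succ_le H g D'' v
        rw [← hD', hi] at h1
        exact le_antisymm h1 (idx_nonneg hg D')
      refine ⟨?_, hi'⟩
      obtain ⟨u, hu, hord⟩ := exists_ord_eq v (-D'' v - 1)
      -- `l(D') = l(D'') + 1`
      have hnot : ¬ L (D'' + Finsupp.single v 1) ≤ L D'' := by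
        rcases finrank_succ H D'' v with ⟨-, hl⟩ | ⟨hL, -⟩
        · exfalso
          have e1 := hi
          have e2 := hi'
          rw [hD'] at e2
          unfold idx at e1 e2
          rw [degree_add_single H D'' v, hl] at e2
          omega
        · exact hL
      obtain ⟨f, hf, hfD⟩ := SetLike.not_le_iff_exists.mp hnot
      have hmem : sgl v u ∈ NN D'' := sgl_mem_sup_of_L v (H.deg_one v) D'' hu hord hf hfD
      have hNN : NN D'' ≤ NN B := sup_le hA le_sup_right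
      rw [hD']
      refine (AD_succ_le v (H.deg_one v) D'' hu hord).trans (sup_le (le_sup_left.trans hNN) ?_)
      rw [Submodule.span_le, Set.singleton_subset_iff]
      exact hNN hmem

/-- `A(B) + F = A` if `l(B) = deg B + 1 - g`. -/
theorem sup_eq_top_of_idx_zero (H : FFHyp K F) {g : ℕ} {c : ℤ} (hg : IsGenus K F g c)
    {B : Divisor K F} (hB : idx g B = 0) : NN B = ⊤ := by
  rw [eq_top_iff]
  intro α _
  obtain ⟨D', hBD, hα⟩ := exists_mem_AD H.principal α B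
  exact (AD_le_of_idx_zero H hg _ B D' hBD (Int.self_le_toNat _) hB).1 hα

theorem exists_place (H : FFHyp K F) : Nonempty (Place K F) := by
  obtain ⟨x, hx⟩ := H.transc
  have hnr : x ∉ Set.range (algebraMap K F) := by
    rintro ⟨b, rfl⟩
    exact hx (isAlgebraic_algebraMap _)
  obtain ⟨v, -⟩ := H.exists_zero hnr
  exact ⟨v⟩

/-- **`dim H¹(D) = l(D) - deg D - 1 + g`** (Stichtenoth 1.5.4). -/
theorem finrank_H1 (H : FFHyp K F) {g : ℕ} {c : ℤ} (hg : IsGenus K F g c) (D : Divisor K F) :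
    Module.Finite K (H1 D) ∧
      (Module.finrank K (H1 D) : ℤ)
        = (Module.finrank K (L D) : ℤ) - Divisor.degree D - 1 + g := by
  obtain ⟨v⟩ := exists_place H
  have key : ∀ (n : ℕ) (D : Divisor K F), c ≤ Divisor.degree D + n →
      Module.Finite K (H1 D) ∧ (Module.finrank K (H1 D) : ℤ) = idx g D := by
    intro n
    induction n with
    | zero =>
      intro D hD
      have hi : idx g D = 0 := idx_eq_zero hg (by simpa using hD)
      have htop : NN D = ⊤ := sup_eq_top_of_idx_zero H hg hi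
      have hsub : Subsingleton (H1 D) := by
        show Subsingleton (Adele K F ⧸ NN D)
        rw [Submodule.Quotient.subsingleton_iff, htop]
      refine ⟨inferInstance, ?_⟩
      rw [hi, Module.finrank_zero_of_subsingleton]
      rfl
    | succ n ih =>
      intro D hD
      refine h1_step H g D v (ih (D + Finsupp.single v 1) ?_)
      rw [degree_add_single H D v]
      push_cast at hD
      omega
  have hn : c ≤ Divisor.degree D + ((c - Divisor.degree D).toNat : ℕ) := by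
    have := Int.self_le_toNat (c - Divisor.degree D)
    omega
  exact key _ D hn

theorem finrank_L_zero (H : FFHyp K F) : Module.finrank K (L (0 : Divisor K F)) = 1 := by
  apply le_antisymm H.finrank_L_zero_le
  haveI := H.finite (0 : Divisor K F)
  have hle : Submodule.span K {(1 : F)} ≤ L (0 : Divisor K F) := by
    rw [Submodule.span_le, Set.singleton_subset_iff]
    exact one_mem_L_of_nonneg (fun _ => le_rfl)
  have := Submodule.finrank_mono hle
  rwa [finrank_span_singleton one_ne_zero] at this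

/-- **The genus of the prelude is Riemann's genus.** -/
theorem genusFF_eq (H : FFHyp K F) {g : ℕ} {c : ℤ} (hg : IsGenus K F g c) :
    genusFF K F = g := by
  have h := (finrank_H1 H hg (0 : Divisor K F)).2
  rw [finrank_L_zero H, map_zero] at h
  unfold genusFF
  have : (Module.finrank K (H1 (0 : Divisor K F)) : ℤ) = g := by
    rw [h]; simp
  exact_mod_cast this

end Fermat.Agent.S27.RR.H52

end
end
-- ==== END Fermat.Agent.S27.RR.H52_H1

-- ==== BEGIN Fermat.Agent.S59.CaseC.Geom.H90_PLink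
section

/-!
# S59, case C, PGEOM, leaf P-LINK (helper90)

`plink_of : Stmt_LGCpt → R.Stmt_HeckeReduced → (S22) → Betti.Stmt_basis → Betti.Stmt_matrixRep →
  Stmt_PLINK`: on the eigenspace of a point `πx` of the local Hecke ring the Betti operator `T_p`
is the scalar `z + p z⁻¹`, `z = πx` of the eigenvalue of Frobenius on the unramified quotient.

Proof.  In a universal basis of the parabolic homomorphisms the Hecke algebra `𝕋'` away from
`S ∖ {p}` acts on `𝒪^r` by integer matrices; `a` := the coordinates of `ι v`.  By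
`alg_core` it suffices to see that `x̃(T_p) πx(z) = πx(z)² + p` for every character `x̃` of `𝕋'`
with values in a complete discrete valuation ring `𝒪'` finite over `𝒪` which is compatible with
`a`; this is `Stmt_LGCpt` for the base change of `H.ρ` along `T → 𝒪 → 𝒪'`.
-/

set_option autoImplicit false
set_option linter.style.haveILetI false
set_option linter.unusedSectionVars false
set_option linter.unusedVariables false

open Polynomial CuspForm CongruenceSubgroup ModularFormClass IsLocalRing TensorProduct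
open scoped MatrixGroups

namespace Fermat.Agent.S59.CaseC.Geom.H90

open Fermat.Agent.S41 Fermat.Agent.Betti Fermat.Agent.S59 Fermat.Agent.S59.Asm
  Fermat.Agent.S59.NonMin Fermat.Agent.S59.NonMin.Geom Fermat.Agent.S59.CaseC
  Fermat.Agent.S59.CaseC.Geom

/-- The Galois group of `ℚ`. -/
local notation "Γℚ" => AlgebraicClosure ℚ ≃ₐ[ℚ] AlgebraicClosure ℚ

/-! ## 1. Base change of an ordinary line -/

section OrdLineBC

variable {A B : Type} [CommRing A] [IsLocalRing A] [CommRing B] [IsLocalRing B]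

/-- Base change of an ordinary line with the eigenvalue of `g` on the quotient. -/
theorem exists_ordLine_baseChangeAlong (φ : A →+* B) (hφ : IsLocalHom φ) (ρ : GaloisRepAdic A)
    (P : ValuationSubring (AlgebraicClosure ℚ)) (ℒ : OrdLine ρ P) (g : Γℚ) (z : A)
    (hz : ℒ.IsQuotEigen g z) :
    ∃ ℒ' : OrdLine (ρ.baseChangeAlong φ hφ) P, ℒ'.IsQuotEigen g (φ z) := by
  letI : Algebra A B := φ.toAlgebra
  obtain ⟨b, hb⟩ := ℒ.isLine
  have hb0 : b 0 ∈ ℒ.L := by rw [hb]; exact Submodule.mem_span_singleton_self _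
  have hD := ℒ.stable
  have hI := ℒ.inertia
  have hstab : ∀ σ ∈ P.decompositionSubgroup ℚ,
      ∀ v ∈ Submodule.span B {(1 : B) ⊗ₜ[A] b 0}, (ρ.ρ σ).baseChange B v ∈
        Submodule.span B {(1 : B) ⊗ₜ[A] b 0} := by
    intro σ hσ v hv
    obtain ⟨c, rfl⟩ := Submodule.mem_span_singleton.1 hv
    rw [map_smul, LinearMap.baseChange_tmul]
    refine Submodule.smul_mem _ _ ?_
    have := hD σ hσ (b 0) hb0
    rw [hb] at this
    exact Fermat.Agent.S56.H92.tmul_mem_span φ 1 this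
  have hinert : ∀ σ ∈ P.inertiaSubgroupIn ℚ, ∀ v : B ⊗[A] ρ.V,
      (ρ.ρ σ).baseChange B v - v ∈ Submodule.span B {(1 : B) ⊗ₜ[A] b 0} := by
    intro σ hσ v
    induction v using TensorProduct.induction_on with
    | zero => rw [LinearMap.map_zero, sub_zero]; exact Submodule.zero_mem _
    | tmul c v =>
      rw [LinearMap.baseChange_tmul, ← TensorProduct.tmul_sub]
      have := hI σ hσ v
      rw [hb] at this
      exact Fermat.Agent.S56.H92.tmul_mem_span φ c this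
    | add x y hx hy =>
      rw [map_add, add_sub_add_comm]
      exact Submodule.add_mem _ hx hy
  have heig : ∀ v : B ⊗[A] ρ.V,
      (ρ.ρ g).baseChange B v - φ z • v ∈ Submodule.span B {(1 : B) ⊗ₜ[A] b 0} := by
    intro v
    induction v using TensorProduct.induction_on with
    | zero => rw [LinearMap.map_zero, smul_zero, sub_zero]; exact Submodule.zero_mem _
    | tmul c v =>
      have h1 : φ z • (c ⊗ₜ[A] v : B ⊗[A] ρ.V) = c ⊗ₜ[A] (z • v) := by
        rw [TensorProduct.tmul_smul, TensorProduct.smul_tmul', TensorProduct.smul_tmul']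
        congr 1
      rw [LinearMap.baseChange_tmul, h1, ← TensorProduct.tmul_sub]
      have := hz v
      rw [hb] at this
      exact Fermat.Agent.S56.H92.tmul_mem_span φ c this
    | add x y hx hy =>
      rw [map_add, smul_add, add_sub_add_comm]
      exact Submodule.add_mem _ hx hy
  have hline : ∃ b' : Module.Basis (Fin 2) B (B ⊗[A] ρ.V),
      Submodule.span B {(1 : B) ⊗ₜ[A] b 0} = Submodule.span B {b' 0} :=
    ⟨b.baseChange B, by rw [Module.Basis.baseChange_apply]⟩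
  exact ⟨⟨Submodule.span B {(1 : B) ⊗ₜ[A] b 0}, hline, hstab, hinert⟩, heig⟩

end OrdLineBC

/-! ## 2. Coordinates in a universal basis -/

section Coord

variable {N : ℕ} [NeZero N] {r : ℕ} (b : Fin r → (Additive (Gamma0 N) →+ ℤ))
  (𝒪 : Type) [CommRing 𝒪]

/-- the homomorphism with the coordinates `a` -/
noncomputable def homOf (a : Fin r → 𝒪) : Additive (Gamma0 N) →+ 𝒪 :=
  ∑ i, (zmultiplesHom 𝒪 (a i)).comp (b i)

theorem homOf_apply (a : Fin r → 𝒪) (γ : Additive (Gamma0 N)) :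
    homOf b 𝒪 a γ = ∑ i, b i γ • a i := by
  unfold homOf
  rw [AddMonoidHom.finsetSum_apply]
  refine Finset.sum_congr rfl fun i _ => ?_
  rw [AddMonoidHom.comp_apply, zmultiplesHom_apply]

theorem homOf_smul (c : 𝒪) (a : Fin r → 𝒪) : homOf b 𝒪 (c • a) = c • homOf b 𝒪 a := by
  refine AddMonoidHom.ext fun γ => ?_
  rw [AddMonoidHom.smul_apply, homOf_apply, homOf_apply, Finset.smul_sum]
  refine Finset.sum_congr rfl fun i _ => ?_
  rw [Pi.smul_apply, smul_comm]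

theorem eq_homOf (a : Fin r → 𝒪) (φ : Additive (Gamma0 N) →+ 𝒪)
    (h : ∀ γ, φ γ = ∑ i, b i γ • a i) : φ = homOf b 𝒪 a :=
  AddMonoidHom.ext fun γ => by rw [h γ, homOf_apply]

theorem isParabolicHom_homOf (hb : ∀ i, ModularCurve.Period.IsParabolicHom (Gamma0 N) (b i))
    (a : Fin r → 𝒪) : ModularCurve.Period.IsParabolicHom (Gamma0 N) (homOf b 𝒪 a) := by
  intro γ hγ
  rw [homOf_apply]
  refine Finset.sum_eq_zero fun i _ => ?_
  rw [hb i γ hγ, zero_smul]

theorem homOf_injective [IsAddTorsionFree 𝒪] (hb : IsParBasis N b) {a₁ a₂ : Fin r → 𝒪}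
    (h : homOf b 𝒪 a₁ = homOf b 𝒪 a₂) : a₁ = a₂ := by
  obtain ⟨a, -, hauniq⟩ := hb.2 𝒪 (homOf b 𝒪 a₁) (isParabolicHom_homOf b 𝒪 hb.1 a₁)
  rw [hauniq a₁ (fun γ => homOf_apply b 𝒪 a₁ γ),
    hauniq a₂ (fun γ => by rw [h]; exact homOf_apply b 𝒪 a₂ γ)]

/-- The Betti operator in coordinates. -/
theorem TB_homOf {ℓ : ℕ} (hℓ : ℓ.Prime) (hℓN : ¬ ℓ ∣ N) (m : Matrix (Fin r) (Fin r) ℤ)
    (hm : ∀ j, TB N ℤ hℓ hℓN (b j) = ∑ i, m i j • b i) (a : Fin r → 𝒪) :
    TB N 𝒪 hℓ hℓN (homOf b 𝒪 a) = homOf b 𝒪 ((m.map (Int.cast : ℤ → 𝒪)).mulVec a) := by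
  have hcomp : ∀ (u : ℤ →+ 𝒪) (β : Additive (Gamma0 N) →+ ℤ),
      TB N 𝒪 hℓ hℓN (u.comp β) = u.comp (TB N ℤ hℓ hℓN β) := by
    intro u β
    haveI : Fact ℓ.Prime := ⟨hℓ⟩
    exact (isHeckeFamily_T N hℓN).heckeOp_comp (incl_injective N) u β
  refine AddMonoidHom.ext fun γ => ?_
  unfold homOf
  rw [map_sum, AddMonoidHom.finsetSum_apply, AddMonoidHom.finsetSum_apply]
  simp only [hcomp, hm, AddMonoidHom.comp_apply, zmultiplesHom_apply,
    AddMonoidHom.finsetSum_apply, AddMonoidHom.smul_apply, Matrix.mulVec, dotProduct,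
    Matrix.map_apply, Finset.sum_smul, Finset.smul_sum]
  rw [Finset.sum_comm]
  refine Finset.sum_congr rfl fun i _ => ?_
  refine Finset.sum_congr rfl fun j _ => ?_
  simp only [smul_eq_mul, zsmul_eq_mul, Int.cast_mul]
  ring

end Coord

/-! ## 3. P-LINK -/

/-- arithmetic of the level of a state of the class `G` -/
theorem dvd_mem_of_geomHyp {p : ℕ} {Smin : Finset ℕ} {N₀ : ℕ} {Sig : Finset ℕ} {N : ℕ}
    {S : Finset ℕ} (hG : GeomHyp p Smin N₀ Sig N S) :
    ∀ q : ℕ, q.Prime → q ∣ N → q ∈ S := by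
  intro q hq hqN
  rw [hG.hS]
  rw [hG.hN] at hqN
  rcases (Nat.Prime.dvd_mul hq).mp hqN with h | h
  · exact Finset.mem_union_left _ (hG.hN₀S q hq h)
  · obtain ⟨r, hr, hqr⟩ := (Prime.dvd_finsetProd_iff hq.prime _).mp h
    have h1 : q ∣ r := hq.dvd_of_dvd_pow hqr
    have h2 : q = r := (Nat.prime_dvd_prime_iff_eq hq (hG.hSig r hr).1).mp h1
    rw [h2]
    exact Finset.mem_union_right _ hr

set_option maxHeartbeats 1600000 in
set_option synthInstance.maxHeartbeats 400000 in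
/-- **P-LINK** from the pointwise local–global compatibility at `p`. -/
theorem plink_of (hLGC : Stmt_LGCpt) (hred : Fermat.Agent.R.Stmt_HeckeReduced)
    (hfin : ∀ (N : ℕ) [NeZero N] (S : Set ℕ), Module.Finite ℤ (CuspForm.heckeAlgebra N 2 S))
    (hbasis : Fermat.Agent.Betti.Stmt_basis) (hmat : Fermat.Agent.Betti.Stmt_matrixRep) :
    Stmt_PLINK := by
  intro 𝒪 _ _ _ _ _ _ p _ hp2 hp𝒪 ρbar Smin hyp N₀ Sig s _ hG hF hp hpN ι hιinj hιrange hιT H ηhat
    hHπ hηhat hdet hres P hP ℒ g hg z hz πx v hv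
  classical
  -- the level
  have hNS : ∀ q : ℕ, q.Prime → q ∣ s.N → q ∈ s.S := dvd_mem_of_geomHyp hG
  have hpS : p ∈ s.S := by
    rw [hG.hS]
    exact Finset.mem_union_left _ hyp.hpSmin
  have hpS' : p ∉ (↑(s.S.erase p) : Set ℕ) := by simp
  have hNS' : ∀ q : ℕ, q.Prime → q ∣ s.N → q ∈ (↑(s.S.erase p) : Set ℕ) := by
    intro q hq hqN
    rw [Finset.mem_coe, Finset.mem_erase]
    refine ⟨?_, hNS q hq hqN⟩
    rintro rfl
    exact hpN hqN
  -- the homomorphism `φ = ι v` and its coordinates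
  have hφB : InBetti 𝒪 s.N (↑s.S : Set ℕ) s.θ Sig (ι v) := (hιrange (ι v)).1 ⟨v, rfl⟩
  have heig : ∀ (ℓ : ℕ) (hℓ : ℓ.Prime) (hℓN : ¬ ℓ ∣ s.N) (hℓS : ℓ ∉ (↑s.S : Set ℕ)),
      TB s.N 𝒪 hℓ hℓN (ι v) =
        πx (CuspForm.heckeLocal.π s.N (↑s.S : Set ℕ) 𝒪 s.θ
          (CuspForm.heckeAlgebra.T hℓ hℓN hℓS)) • ι v := by
    intro ℓ hℓ hℓN hℓS
    rw [← hιT ℓ hℓ hℓN hℓS v, ← hηhat, hv, map_smul]
  obtain ⟨r, b, hb⟩ := hbasis s.N
  obtain ⟨M, hMinj, hMT, hMU⟩ := hmat s.N (↑(s.S.erase p) : Set ℕ) r b hb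
  haveI : IsAddTorsionFree 𝒪 := IsAddTorsionFree.of_isTorsionFree ℤ 𝒪
  obtain ⟨a, ha, -⟩ := hb.2 𝒪 (ι v) hφB.1
  have hφ : ι v = homOf b 𝒪 a := eq_homOf b 𝒪 a (ι v) ha
  -- the action of the Hecke algebra away from `S ∖ {p}` on the coordinates
  let ρM : CuspForm.heckeAlgebra s.N 2 (↑(s.S.erase p) : Set ℕ) →+*
      Module.End 𝒪 (Fin r → 𝒪) :=
    ((Matrix.toLinAlgEquiv' : Matrix (Fin r) (Fin r) 𝒪 ≃ₐ[𝒪] _).toAlgHom.toRingHom).comp
      (((Int.castRingHom 𝒪).mapMatrix).comp M)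
  have hρM : ∀ (t : CuspForm.heckeAlgebra s.N 2 (↑(s.S.erase p) : Set ℕ)) (a' : Fin r → 𝒪),
      ρM t a' = ((M t).map (Int.cast : ℤ → 𝒪)).mulVec a' := fun t a' => rfl
  have hTBρ : ∀ (ℓ : ℕ) (hℓ : ℓ.Prime) (hℓN : ¬ ℓ ∣ s.N)
      (hℓS' : ℓ ∉ (↑(s.S.erase p) : Set ℕ)) (a' : Fin r → 𝒪),
      TB s.N 𝒪 hℓ hℓN (homOf b 𝒪 a') =
        homOf b 𝒪 (ρM (CuspForm.heckeAlgebra.T hℓ hℓN hℓS') a') := by
    intro ℓ hℓ hℓN hℓS' a'
    rw [hρM]
    exact TB_homOf b 𝒪 hℓ hℓN _ (hMT ℓ hℓ hℓN hℓS') a'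
  have heigρ : ∀ (ℓ : ℕ) (hℓ : ℓ.Prime) (hℓN : ¬ ℓ ∣ s.N) (hℓS : ℓ ∉ (↑s.S : Set ℕ))
      (hℓS' : ℓ ∉ (↑(s.S.erase p) : Set ℕ)),
      ρM (CuspForm.heckeAlgebra.T hℓ hℓN hℓS') a =
        πx (CuspForm.heckeLocal.π s.N (↑s.S : Set ℕ) 𝒪 s.θ
          (CuspForm.heckeAlgebra.T hℓ hℓN hℓS)) • a := by
    intro ℓ hℓ hℓN hℓS hℓS'
    apply homOf_injective b 𝒪 hb
    rw [← hTBρ, ← hφ, heig ℓ hℓ hℓN hℓS, homOf_smul, ← hφ]
  -- the Hecke algebra is a reduced order
  haveI : Module.Finite ℤ (CuspForm.heckeAlgebra s.N 2 (↑(s.S.erase p) : Set ℕ)) := hfin _ _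
  haveI : IsReduced (CuspForm.heckeAlgebra s.N 2 (↑(s.S.erase p) : Set ℕ)) := hred _ _ hNS'
  -- the algebraic core
  have key := alg_core 𝒪 (CuspForm.heckeAlgebra s.N 2 (↑(s.S.erase p) : Set ℕ)) ρM a
    (CuspForm.heckeAlgebra.T hp hpN hpS') (πx z) (πx z ^ 2 + (p : 𝒪)) ?_
  · rw [hφ, hTBρ p hp hpN hpS', ← homOf_smul, key, homOf_smul]
  -- the characters: local-global compatibility at `p`
  intro O' _ _ _ _ _ _ _ _ xt hxt
  have hπxloc : IsLocalHom (πx : CuspForm.heckeLocal s.N (↑s.S : Set ℕ) 𝒪 s.θ →+* 𝒪) :=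
    IsLocalHom.of_surjective _ (fun c => ⟨algebraMap 𝒪 _ c, πx.commutes c⟩)
  have hf : IsLocalHom ((algebraMap 𝒪 O').comp
      (πx : CuspForm.heckeLocal s.N (↑s.S : Set ℕ) 𝒪 s.θ →+* 𝒪)) :=
    ⟨fun t ht => hπxloc.map_nonunit t
      ((inferInstance : IsLocalHom (algebraMap 𝒪 O')).map_nonunit _ ht)⟩
  have hpO' : (p : O') ∈ maximalIdeal O' := by
    have h1 : algebraMap 𝒪 O' (p : 𝒪) ∈ maximalIdeal O' := by
      rw [mem_maximalIdeal, mem_nonunits_iff] at hp𝒪 ⊢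
      exact fun h => hp𝒪 (isUnit_of_map_unit (algebraMap 𝒪 O') _ h)
    rwa [map_natCast] at h1
  obtain ⟨ℒ', hz'⟩ := exists_ordLine_baseChangeAlong ((algebraMap 𝒪 O').comp
      (πx : CuspForm.heckeLocal s.N (↑s.S : Set ℕ) 𝒪 s.θ →+* 𝒪)) hf H.ρ P ℒ g z hz
  have hLG := hLGC O' p hp2 hpO' s.N s.S hpS hNS hp hpN hpS' xt
    (H.ρ.baseChangeAlong ((algebraMap 𝒪 O').comp
      (πx : CuspForm.heckeLocal s.N (↑s.S : Set ℕ) 𝒪 s.θ →+* 𝒪)) hf) ?_
    (Fermat.Agent.S56.H92.detIsCyclotomic_baseChangeAlong _ hf H.ρ p hdet)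
    (Fermat.Agent.R.H86.residual_absIrr_baseChangeAlong _ hf H.ρ H.residual_absIrr)
    P hP ℒ' g hg _ hz'
  · have hLG' : algebraMap 𝒪 O' (πx z) ^ 2 -
        xt (CuspForm.heckeAlgebra.T hp hpN hpS') * algebraMap 𝒪 O' (πx z) + (p : O') = 0 := hLG
    rw [map_add, map_pow, map_natCast]
    linear_combination (-1 : O') * hLG'
  · intro ℓ hℓ hℓN hℓS' hℓp B hB σ hσ
    have hℓS : ℓ ∉ (↑s.S : Set ℕ) := by
      intro h
      apply hℓS'
      rw [Finset.mem_coe, Finset.mem_erase]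
      exact ⟨hℓp, Finset.mem_coe.1 h⟩
    rw [Fermat.Agent.R.H86.baseChangeAlong_charpoly, H.charpoly_frob ℓ hℓ hℓN hℓS B hB σ hσ,
      hxt _ _ (heigρ ℓ hℓ hℓN hℓS hℓS'), hHπ]
    simp only [Polynomial.map_sub, Polynomial.map_add, Polynomial.map_mul, Polynomial.map_pow,
      Polynomial.map_X, Polynomial.map_C, Polynomial.map_natCast, RingHom.comp_apply, map_natCast]
    rfl

end Fermat.Agent.S59.CaseC.Geom.H90

end
-- ==== END Fermat.Agent.S59.CaseC.Geom.H90_PLink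

-- ==== BEGIN Fermat.Agent.S59.LGC.H54_ESp
section
attribute [local instance 10000] SubalgebraClass.toAlgebra
attribute [local instance 10000] HahnSeries.powerSeriesAlgebra

/-!
# S59, case C, LGC-p: the Eichler–Shimura relation at `p` modulo the kernel of reduction
(helper54)

`stmt_TorsESp N p : Stmt_TorsESp N p`: for `p ∤ N`, a Frobenius element `g` at a place `A` over
`p` and `x ∈ J₀(N)[n]`:  `g² x - T_p (g x) + p x ∈ K1(n)`.

Proof: `RED.Stmt_ES3` at `ℓ = p` is an identity of DIVISORS of the reduced curve,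
`r_* (T_p (g D)) = φ² r_* D + p r_* D`; hence the divisor `E = g g D - T_p (g D) + p D` has
`r_* E = 0`.  If `n E = div f`, scale `f` to a Gauss unit `u`; `div (red u) = n r_* E = 0`, so
`red u` is a constant, and `u / (lift of the constant)` has reduction `1`.
-/

set_option autoImplicit false
set_option linter.style.haveILetI false
set_option synthInstance.maxHeartbeats 400000
set_option maxHeartbeats 4000000

noncomputable section

open AlgebraicCurve ModularCurve Fermat.Agent.S28.H73 Fermat.Agent.RED.H73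

namespace Fermat.Agent.S59.LGC.H54

open Fermat.Agent.RED Fermat.Agent.RED.H36 Fermat.Agent.RED.H17 Fermat.Agent.BAD
  Fermat.Agent.S37

/-- A divisor `E` with `r_* E = 0` and `n E` principal has its class in `K1(n)`. -/
theorem inK1_of_mapDomain_eq_zero (N : ℕ) [NeZero N]
    (A : ValuationSubring (AlgebraicClosure ℚ)) [IsAlgClosed (kV A)]
    (hFt : IsFF (kV A)
      ↥(redField A (modularFunctionFieldBar N) (hasScale_laurentBaseChange A N)))
    (r : Place (AlgebraicClosure ℚ) ↥(modularFunctionFieldBar N) →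
        Place (kV A) ↥(redField A (modularFunctionFieldBar N) (hasScale_laurentBaseChange A N)))
    (hr : IsRed A (hasScale_laurentBaseChange A N) r) (n : ℕ)
    (E : Divisor.degZero (K := AlgebraicClosure ℚ) (F := ↥(FNbar N)))
    (hrE : Finsupp.mapDomain r (E : Divisor (AlgebraicClosure ℚ) ↥(FNbar N)) = 0)
    (hnE : n • (Pic0.mk E : JZero N) = 0) :
    InK1 A N n (Pic0.mk E) := by
  classical
  obtain ⟨f, hf0, hfE⟩ := Fermat.Agent.BAD.H91.exists_kummer_of_nsmul_eq_zero N n E hnE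
  set S := redSetupOf A (hasScale_laurentBaseChange A N) r hr with hS
  obtain ⟨c, hc, hmem, hne⟩ := S.exists_scale f hf0
  have hordu : ∀ P : Place (AlgebraicClosure ℚ) ↥(FNbar N),
      P.ord (algebraMap (AlgebraicClosure ℚ) ↥(FNbar N) c * f)
        = (n : ℤ) * (E : Divisor (AlgebraicClosure ℚ) ↥(FNbar N)) P := by
    intro P
    rw [Place.ord_mul _ ((map_ne_zero _).2 hc) hf0, Fermat.Agent.BAD.H91.ord_algebraMap_zero,
      zero_add, hfE P]
  -- the reduction of `u` has neither zeros nor poles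
  have hQ : ∀ Q : Place (kV A)
      ↥(redField A (modularFunctionFieldBar N) (hasScale_laurentBaseChange A N)),
      Q.ord (S.red ⟨_, hmem⟩) = 0 := by
    intro Q
    have h1 := S.DI ⟨_, hmem⟩ hne (n • (E : Divisor (AlgebraicClosure ℚ) ↥(FNbar N)))
      (fun P => by
        rw [Finsupp.smul_apply, nsmul_eq_mul]
        exact (hordu P).symm) Q
    rw [← h1, Finsupp.mapDomain_smul]
    show (n • Finsupp.mapDomain r (E : Divisor (AlgebraicClosure ℚ) ↥(FNbar N))) Q = 0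
    rw [hrE, smul_zero]
    rfl
  obtain ⟨c', hc'⟩ := const_of_ord_eq_zero hFt _ hne hQ
  have hc'0 : c' ≠ 0 := by
    rintro rfl
    rw [map_zero] at hc'
    exact hne hc'
  obtain ⟨d, hd, hdred⟩ := S.const_surj c'⁻¹
  have hd0 : d ≠ 0 := by
    rintro rfl
    have h0 : (⟨algebraMap (AlgebraicClosure ℚ) ↥(FNbar N) 0, hd⟩ : ↥S.V) = 0 :=
      Subtype.ext (map_zero _)
    rw [h0, map_zero] at hdred
    exact (map_ne_zero (algebraMap (kV A) _)).2 (inv_ne_zero hc'0) hdred.symm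
  let f₁ : ↥(gaussV A N) := (⟨_, hd⟩ : ↥S.V) * (⟨_, hmem⟩ : ↥S.V)
  refine ⟨E, f₁, rfl, ?_, fun P => ?_⟩
  · show S.red ((⟨_, hd⟩ : ↥S.V) * (⟨_, hmem⟩ : ↥S.V)) = 1
    rw [map_mul, hdred, hc', ← map_mul, inv_mul_cancel₀ hc'0, map_one]
  · show (n : ℤ) * (E : Divisor (AlgebraicClosure ℚ) ↥(FNbar N)) P
      = P.ord (algebraMap (AlgebraicClosure ℚ) ↥(FNbar N) d
          * (algebraMap (AlgebraicClosure ℚ) ↥(FNbar N) c * f))
    rw [Place.ord_mul _ ((map_ne_zero _).2 hd0)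
      (mul_ne_zero ((map_ne_zero _).2 hc) hf0), Fermat.Agent.BAD.H91.ord_algebraMap_zero,
      zero_add, hordu P]

/-- **(ES-p)**: the Eichler–Shimura relation at `p` modulo the kernel of reduction. -/
theorem stmt_TorsESp (N p : ℕ) [NeZero N] : Stmt_TorsESp N p := by
  classical
  intro hp hpN A hA σ hσ n x hx
  haveI : NeZero p := ⟨hp.ne_zero⟩
  obtain ⟨r, hr, hmove⟩ := Fermat.Agent.RED.H36.stmt_RM N p hp hpN A hA
  haveI : IsAlgClosed (kV A) := isAlgClosed_kV A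
  have hFt := isFF_redField_bar N p hp hpN A hA
  obtain ⟨hα, hβ, hP, hfin, hFI, hNF⟩ := Fermat.Agent.RED.H51.stmt_HKA N p
  obtain ⟨gt, hgt_coeff, hgt_r⟩ :=
    Fermat.Agent.RED.H36.stmt_EQ N p hp hpN A hA r hr σ hσ.mem_decompositionSubgroup
  have hφ : ∀ (x : ↥(redField A (modularFunctionFieldBar N) (hasScale_laurentBaseChange A N)))
      (n : ℤ),
      ((gt • x : ↥(redField A (modularFunctionFieldBar N)
          (hasScale_laurentBaseChange A N))) : LaurentSeries (kV A)).coeff n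
        = ((x : LaurentSeries (kV A)).coeff n) ^ p := by
    intro x n
    rw [hgt_coeff x n, hσ.smul_residue_eq]
  have hES' := @Fermat.Agent.RED.H95.stmt_ES3 N p _ _ hp hpN A hA hα hβ hP r hr hmove gt hφ
  obtain ⟨D, rfl⟩ := Pic0.mk_surjective x
  -- the divisor `E = g g D - T_p (g D) + p D`
  set E : Divisor.degZero (K := AlgebraicClosure ℚ) (F := ↥(FNbar N)) :=
    SemilinearAut.degZeroSMulHom (arithmeticGalois (modularFunctionFieldFull N) σ)
        (SemilinearAut.degZeroSMulHom (arithmeticGalois (modularFunctionFieldFull N) σ) D)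
      - Pic0.degZeroCorrespondence (heckeBetaBar (AlgebraicClosure ℚ) N p)
          (heckeAlphaBar (AlgebraicClosure ℚ) N p) hβ hα hFI
          (SemilinearAut.degZeroSMulHom (arithmeticGalois (modularFunctionFieldFull N) σ) D)
      + p • D with hE
  have hclass : σ • σ • (Pic0.mk D : JZero N)
      - heckeOperatorBar N ⟨p, hp⟩ (σ • (Pic0.mk D : JZero N)) + p • (Pic0.mk D : JZero N)
      = Pic0.mk E := by
    have hT : heckeOperatorBar N ⟨p, hp⟩ (σ • (Pic0.mk D : JZero N)) =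
        heckeOperatorAlong (AlgebraicClosure ℚ) N p (σ • (Pic0.mk D : JZero N)) := rfl
    rw [hT, heckeOperatorAlong_eq hα hβ hFI hfin hNF]
    rfl
  rw [hclass]
  have hnE : n • (Pic0.mk E : JZero N) = 0 := by
    rw [← hclass]
    have hgal : ∀ y : JZero N, n • y = 0 → n • (σ • y) = 0 := by
      intro y hy
      have h1 := map_nsmul (DistribSMul.toAddMonoidHom (JZero N) σ) n y
      simp only [DistribSMul.toAddMonoidHom_apply] at h1
      rw [← h1, hy, smul_zero]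
    have e1 : n • (σ • σ • (Pic0.mk D : JZero N)) = 0 := hgal _ (hgal _ hx)
    have e2 : n • (heckeOperatorBar N ⟨p, hp⟩ (σ • (Pic0.mk D : JZero N))) = 0 := by
      rw [← map_nsmul, hgal _ hx, map_zero]
    have e3 : n • (p • (Pic0.mk D : JZero N)) = 0 := by
      rw [smul_comm, hx, smul_zero]
    rw [nsmul_add, nsmul_sub, e1, e2, e3, sub_zero, add_zero]
  refine inK1_of_mapDomain_eq_zero N A hFt r hr n E ?_ hnE
  -- `r_* E = 0`
  have e1 := mapDomain_smul_eq A (hasScale_laurentBaseChange A N)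
    (arithmeticGalois (modularFunctionFieldFull N) σ) gt hgt_r (D : Divisor _ _)
  have e2 := mapDomain_smul_eq A (hasScale_laurentBaseChange A N)
    (arithmeticGalois (modularFunctionFieldFull N) σ) gt hgt_r
    (arithmeticGalois (modularFunctionFieldFull N) σ • (D : Divisor _ _))
  have e3 := hES' (arithmeticGalois (modularFunctionFieldFull N) σ • (D : Divisor _ _))
  rw [e1] at e2 e3
  rw [inv_smul_smul] at e3
  have e3' : Finsupp.mapDomain r
      (Divisor.correspondence (heckeBetaBar (AlgebraicClosure ℚ) N p)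
        (heckeAlphaBar (AlgebraicClosure ℚ) N p) hβ hα
        (arithmeticGalois (modularFunctionFieldFull N) σ • (D : Divisor _ _)))
      = gt • gt • Finsupp.mapDomain r (D : Divisor _ _)
        + p • Finsupp.mapDomain r (D : Divisor _ _) := e3
  have hEcoe : (E : Divisor (AlgebraicClosure ℚ) ↥(FNbar N)) =
      arithmeticGalois (modularFunctionFieldFull N) σ •
          arithmeticGalois (modularFunctionFieldFull N) σ • (D : Divisor _ _)
        - Divisor.correspondence (heckeBetaBar (AlgebraicClosure ℚ) N p)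
            (heckeAlphaBar (AlgebraicClosure ℚ) N p) hβ hα
            (arithmeticGalois (modularFunctionFieldFull N) σ • (D : Divisor _ _))
        + p • (D : Divisor _ _) := rfl
  rw [hEcoe, Finsupp.mapDomain_add, Finsupp.mapDomain_sub, Finsupp.mapDomain_smul, e2, e3']
  abel

end Fermat.Agent.S59.LGC.H54

end
end
-- ==== END Fermat.Agent.S59.LGC.H54_ESp

-- ==== BEGIN Fermat.Agent.S59.LGC.H54_K1
section

/-!
# S59, case C, LGC-p: the kernel of reduction as a subgroup of `J₀(N)[n]`  (helper54)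

* `inK1_zero`, `inK1_neg` (with `S33.New.H54.inK1_add`): `K1(n)` is a subgroup;
* `inK1_smul_of_mem_decomposition` : `K1(n)` is stable under the decomposition group of `A`;
* `k1Sub A N n : AddSubgroup (Jtor N n)`;
* `dStable_k1Sub`, `nuq_k1Sub` : the statements in the language of `H54_NUQ.lean`.
-/

set_option autoImplicit false
set_option linter.unusedSectionVars false
set_option linter.unusedVariables false
set_option linter.style.haveILetI false
set_option synthInstance.maxHeartbeats 400000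
set_option maxHeartbeats 4000000

noncomputable section

open AlgebraicCurve ModularCurve Fermat.Agent.S28.H73 Fermat.Agent.RED.H73

namespace Fermat.Agent.S59.LGC.H54

open Fermat.Agent.BAD Fermat.Agent.GTor Fermat.Agent.GTor.H81 Fermat.Agent.RED
  Fermat.Agent.RED.H33 Fermat.Agent.FL.H33

section K1

variable {A : ValuationSubring (AlgebraicClosure ℚ)} {N n : ℕ}

theorem inK1_zero : InK1 A N n (0 : JZero N) := by
  refine ⟨0, 1, rfl, map_one _, fun P => ?_⟩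
  show (n : ℤ) * (0 : Divisor (AlgebraicClosure ℚ) ↥(FNbar N)) P = P.ord (1 : ↥(FNbar N))
  rw [Place.ord_one, Finsupp.zero_apply, mul_zero]

theorem inK1_neg {x : JZero N} (hx : InK1 A N n x) : InK1 A N n (-x) := by
  obtain ⟨D, f, rfl, hf, hD⟩ := hx
  have hf0 := Fermat.Agent.S33.New.H54.ne_zero_of_gaussRes_one hf
  have hu : IsUnit f := by
    by_contra hnu
    have hm : f ∈ IsLocalRing.maximalIdeal ↥(gaussV A N) := (IsLocalRing.mem_maximalIdeal f).2 hnu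
    rw [← ker_gaussResF' A (hasScale_laurentBaseChange A N), RingHom.mem_ker] at hm
    have h0 : gaussRes A N f = 0 := hm
    rw [hf] at h0
    exact one_ne_zero h0
  obtain ⟨u, rfl⟩ := hu
  refine ⟨-D, ((u⁻¹ : (↥(gaussV A N))ˣ) : ↥(gaussV A N)), rfl, ?_, fun P => ?_⟩
  · have h1 : gaussRes A N ((u⁻¹ : (↥(gaussV A N))ˣ) : ↥(gaussV A N)) *
        gaussRes A N (u : ↥(gaussV A N)) = 1 := by
      rw [← map_mul, Units.inv_mul, map_one]
    rw [hf, mul_one] at h1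
    exact h1
  · have h2 : (((u⁻¹ : (↥(gaussV A N))ˣ) : ↥(gaussV A N)) : ↥(FNbar N)) =
        ((u : ↥(gaussV A N)) : ↥(FNbar N))⁻¹ := by
      have h3 : (((u⁻¹ : (↥(gaussV A N))ˣ) : ↥(gaussV A N)) : ↥(FNbar N)) *
          ((u : ↥(gaussV A N)) : ↥(FNbar N)) = 1 := by
        have := congrArg (fun z : ↥(gaussV A N) => (z : ↥(FNbar N))) (Units.inv_mul u)
        exact this
      exact eq_inv_of_mul_eq_one_left h3
    rw [h2, Place.ord_inv, ← hD P]
    show (n : ℤ) * (-(D : Divisor (AlgebraicClosure ℚ) ↥(FNbar N))) P = _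
    rw [Finsupp.neg_apply, mul_neg]

/-- `K1(n)` is stable under the decomposition group of `A`. -/
theorem inK1_smul_of_mem_decomposition {σ : GalQ} (hσ : σ ∈ A.decompositionSubgroup ℚ)
    {x : JZero N} (hx : InK1 A N n x) : InK1 A N n (σ • x) := by
  obtain ⟨D, f, rfl, hf, hD⟩ := hx
  have hmem : galF N σ • ((f : ↥(gaussV A N)) : ↥(FNbar N)) ∈ gaussV A N :=
    arithmeticGalois_smul_mem A (modularFunctionFieldFull N) (hasScale_laurentBaseChange A N)
      ⟨σ, hσ⟩ (f : ↥(FNbar N)) f.2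
  refine ⟨SemilinearAut.degZeroSMulHom (galF N σ) D, ⟨_, hmem⟩, ?_, ?_, fun P => ?_⟩
  · show galF N σ • (Pic0.mk D) = _
    rw [SemilinearAut.pic0_smul_mk]
  · have h1 := gaussResF'_arithmeticGalois_smul A (modularFunctionFieldFull N)
      (hasScale_laurentBaseChange A N) ⟨σ, hσ⟩ (f : ↥(FNbar N)) f.2
    have h2 : gaussResF' A (hasScale_laurentBaseChange A N) ⟨(f : ↥(FNbar N)), f.2⟩ = 1 := hf
    rw [h2, smul_one] at h1
    exact h1
  · show _ = P.ord (galF N σ • ((f : ↥(gaussV A N)) : ↥(FNbar N)))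
    rw [Fermat.Agent.BAD.H91.ord_galF_smul, ← hD, SemilinearAut.coe_degZeroSMulHom,
      SemilinearAut.divisor_smul_apply]

end K1

section Sub

variable (A : ValuationSubring (AlgebraicClosure ℚ)) (N : ℕ) [NeZero N] (n : ℕ)

/-- The kernel of reduction as a subgroup of `J₀(N)[n]`. -/
def k1Sub : AddSubgroup (Jtor N n) where
  carrier := {x | InK1 A N n (x : JZero N)}
  zero_mem' := inK1_zero
  add_mem' := fun {a b} ha hb => Fermat.Agent.S33.New.H54.inK1_add ha hb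
  neg_mem' := fun {a} ha => inK1_neg ha

theorem mem_k1Sub {x : Jtor N n} : x ∈ k1Sub A N n ↔ InK1 A N n (x : JZero N) := Iff.rfl

end Sub

section Tate

variable {N p : ℕ} [NeZero N]

/-- the Galois action on `J₀(N)[p^k]` as a family of additive maps. -/
def galAct (N p : ℕ) [NeZero N] (k : ℕ) (σ : GQ) : Jtor N (p ^ k) →+ Jtor N (p ^ k) :=
  TateCoords.galEnd (N := N) (p := p) k σ

@[simp] theorem coe_galAct (k : ℕ) (σ : GQ) (x : Jtor N (p ^ k)) :
    ((galAct N p k σ x : Jtor N (p ^ k)) : JZero N) = σ • (x : JZero N) := rfl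

theorem dStable_k1Sub (A : ValuationSubring (AlgebraicClosure ℚ)) (k : ℕ) :
    DStable (galAct N p k) (A.decompositionSubgroup ℚ : Set GQ) (k1Sub A N (p ^ k)) := by
  intro σ hσ x hx
  exact inK1_smul_of_mem_decomposition hσ hx

/-- **(NUQ)** in the language of `H54_NUQ.lean`. -/
theorem nuq_k1Sub [Fact p.Prime] (hNUQ : Stmt_K1NoUnr N p) (hp2 : p ≠ 2) (hpN : ¬ p ∣ N)
    (k : ℕ) :
    NUQ p (galAct N p k) ((padicPlace p).decompositionSubgroup ℚ : Set GQ)
      ((padicPlace p).inertiaSubgroupIn ℚ : Set GQ) (k1Sub (padicPlace p) N (p ^ k)) := by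
  intro Nsub hN κ hκ h1 h2
  have h3 := hNUQ hp2 hpN k (Nsub.map (Jtor N (p ^ k)).subtype) (by
    rintro σ hσ _ ⟨w, hw, rfl⟩
    exact ⟨galAct N p k σ w, hN σ hσ w hw, rfl⟩) (κ : JZero N) hκ
    ⟨p • κ, h1, rfl⟩ (fun σ hσ => ⟨galAct N p k σ κ - κ, h2 σ hσ, rfl⟩)
  obtain ⟨w, hw, hwκ⟩ := h3
  have : w = κ := Subtype.ext hwκ
  rwa [← this]

end Tate

end Fermat.Agent.S59.LGC.H54

end
end
-- ==== END Fermat.Agent.S59.LGC.H54_K1

-- ==== BEGIN Fermat.Agent.S59.LL.H40_SQFix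
section

/-!
# S59, package LL, leaf SQ-FIX (helper40)

For a semistable integral Weierstrass curve and primes `q ≠ p`, the inertia group at a place over
`q` fixes a nonzero vector of `E[p]`: the image of inertia in the permutation group of the finite
set `E[p]` is a `p`-group (every element is unipotent, `S52.H5.unip_torsionBy`), and a `p`-group
acting on a set of cardinality `p²` with one fixed point has another one.
-/

set_option autoImplicit false

open WeierstrassCurve WeierstrassCurve.Affine WeierstrassCurve.Affine.Point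
open scoped WeierstrassCurve.Affine

namespace Fermat.Agent.S59.LL.H40

open Fermat.Agent.S44 Fermat.Agent.S59.LL

/-- Powers of a unipotent additive automorphism. -/
theorem pow_smul_of_unip {G V : Type*} [Group G] [AddCommGroup V] [DistribMulAction G V]
    (σ : G) (v : V) (h : σ • (σ • v - v) = σ • v - v) (n : ℕ) :
    σ ^ n • v = v + n • (σ • v - v) := by
  induction n with
  | zero => simp
  | succ n ih =>
    rw [pow_succ', mul_smul, ih, smul_add, smul_comm, h, succ_nsmul]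
    abel

/-- Elements of the `p`-torsion are killed by `p`. -/
theorem nsmul_torsionBy_eq_zero {M : Type*} [AddCommGroup M] (p : ℕ)
    (x : Submodule.torsionBy ℤ M (p : ℤ)) : p • x = 0 := by
  have := x.2
  rw [Submodule.mem_torsionBy_iff] at this
  apply Subtype.ext
  rw [AddSubmonoidClass.coe_nsmul, ← natCast_zsmul]
  exact this

theorem stmt_SQFix : Stmt_SQFix := by
  classical
  intro p hp W hΔ hW q hq hqp A hA
  have : Fact p.Prime := ⟨hp⟩
  have hfr : Module.finrank (ZMod p) (Tors (W.map (Int.castRingHom ℚ)) p) = 2 :=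
    Fermat.Agent.L.H52.finrank_tors_main hΔ
  have : Module.Finite (ZMod p) (Tors (W.map (Int.castRingHom ℚ)) p) :=
    Module.finite_of_finrank_pos (by omega)
  have : Finite (Tors (W.map (Int.castRingHom ℚ)) p) := Module.finite_of_finite (ZMod p)
  have hcard : Nat.card (Tors (W.map (Int.castRingHom ℚ)) p) = p ^ 2 := by
    rw [Module.natCard_eq_pow_finrank (K := ZMod p), hfr, Nat.card_zmod]
  have hqp' : ¬ q ∣ p := fun h => hqp ((Nat.prime_dvd_prime_iff_eq hq hp).1 h)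
  -- unipotence
  have hun : ∀ σ : GQ, σ ∈ A.inertiaSubgroupIn ℚ →
      ∀ v : Tors (W.map (Int.castRingHom ℚ)) p, σ • (σ • v - v) = σ • v - v := fun σ hσ v =>
    Fermat.Agent.S52.H5.unip_torsionBy W q p A hΔ (hW q hq) hq hqp' hA σ hσ v
  -- `σ ^ p` acts trivially
  have hpow : ∀ σ : GQ, σ ∈ A.inertiaSubgroupIn ℚ →
      ∀ v : Tors (W.map (Int.castRingHom ℚ)) p, σ ^ p • v = v := by
    intro σ hσ v
    rw [pow_smul_of_unip σ v (hun σ hσ v) p]
    rw [nsmul_torsionBy_eq_zero p (σ • v - v), add_zero]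
  -- the image of inertia in the permutation group
  let φ : ↥(A.inertiaSubgroupIn ℚ) →* Equiv.Perm (Tors (W.map (Int.castRingHom ℚ)) p) :=
    MulAction.toPermHom _ _
  have hP : IsPGroup p φ.range := by
    rintro ⟨g, σ, rfl⟩
    refine ⟨1, ?_⟩
    apply Subtype.ext
    rw [pow_one, SubgroupClass.coe_pow, Subgroup.coe_one, ← map_pow]
    apply Equiv.ext
    intro v
    show (σ ^ p) • v = v
    exact hpow σ.1 σ.2 v
  have h0fix : (0 : Tors (W.map (Int.castRingHom ℚ)) p) ∈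
      MulAction.fixedPoints φ.range (Tors (W.map (Int.castRingHom ℚ)) p) := by
    rintro ⟨g, σ, rfl⟩
    show (σ : GQ) • (0 : Tors (W.map (Int.castRingHom ℚ)) p) = 0
    exact smul_zero _
  obtain ⟨b, hb, hb0⟩ := hP.exists_fixed_point_of_prime_dvd_card_of_fixed_point
    (Tors (W.map (Int.castRingHom ℚ)) p) (by rw [hcard]; exact dvd_pow_self p two_ne_zero) h0fix
  refine ⟨b, fun h => hb0 h.symm, fun σ hσ => ?_⟩
  exact hb ⟨φ ⟨σ, hσ⟩, ⟨σ, hσ⟩, rfl⟩

end Fermat.Agent.S59.LL.H40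

end
-- ==== END Fermat.Agent.S59.LL.H40_SQFix

-- ==== BEGIN Fermat.Agent.S59.LL.SQ.H33_CompEisHecke
section
attribute [local instance 10000] SubalgebraClass.toAlgebra
attribute [local instance 10000] HahnSeries.powerSeriesAlgebra

/-!
# S59 / LL / SQ, leaf (E) COMP-EIS at `q²` (helper33): the Hecke operator on Kummer functions

General level `N`, `ℓ ∤ N` a prime, `T_ℓ f := heckeNormFn f = N_α (β f)`.

* `heckeNormFn_mul`, `heckeNormFn_pow`, `heckeNormFn_const`, `heckeNormFn_const_mul`;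
* `heckeNormFn_fix` : `T_ℓ` commutes with the arithmetic Galois action, so it preserves the
  functions fixed by `σ`;
* `hecke_kummer` : an inertia-fixed `p`-torsion eigenvector `x` of `T_ℓ` with eigenvalue `t` has a
  Kummer function `f` (inertia-fixed) with `T_ℓ f = c f ^ t₀ g ^ p`, `t₀ ≡ t mod p`, `g` and `c`
  inertia-fixed (adapted from helper9's `S43.CompEis.H9H.stmt_CE_Hecke`).
-/

set_option autoImplicit false
set_option synthInstance.maxHeartbeats 400000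
set_option maxHeartbeats 1000000
set_option linter.style.haveILetI false
set_option linter.unusedSectionVars false

noncomputable section

open ModularCurve AlgebraicCurve IntermediateField
open Fermat.Agent.S24 Fermat.Agent.BAD Fermat.Agent.RED

namespace Fermat.Agent.S59.LL.SQ.H33

/-! ## Algebra of `T_ℓ` on functions -/

section Norm

variable (N ℓ : ℕ) [NeZero N] [NeZero ℓ]

theorem neZero_Nl : NeZero (N * ℓ) := ⟨Nat.mul_ne_zero (NeZero.ne N) (NeZero.ne ℓ)⟩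

theorem heckeNormFn_def (f : FN N) :
    Fermat.Agent.GTor.H2.heckeNormFn Kbar N ℓ f
      = (letI := algebraAlong (heckeAlphaBar Kbar N ℓ);
          Algebra.norm (FN N) (heckeBetaBar Kbar N ℓ f)) := rfl

theorem heckeNormFn_mul (f g : FN N) :
    Fermat.Agent.GTor.H2.heckeNormFn Kbar N ℓ (f * g)
      = Fermat.Agent.GTor.H2.heckeNormFn Kbar N ℓ f
        * Fermat.Agent.GTor.H2.heckeNormFn Kbar N ℓ g := by
  rw [heckeNormFn_def, heckeNormFn_def, heckeNormFn_def, map_mul, map_mul]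

theorem heckeNormFn_one :
    Fermat.Agent.GTor.H2.heckeNormFn Kbar N ℓ (1 : FN N) = 1 := by
  rw [heckeNormFn_def, map_one, map_one]

theorem heckeNormFn_pow (f : FN N) (n : ℕ) :
    Fermat.Agent.GTor.H2.heckeNormFn Kbar N ℓ (f ^ n)
      = Fermat.Agent.GTor.H2.heckeNormFn Kbar N ℓ f ^ n := by
  rw [heckeNormFn_def, heckeNormFn_def, map_pow, map_pow]

/-- `[F_{N ℓ} : F_N] = ℓ + 1` along `α`. -/
theorem finrank_alpha_gen (hℓ : ℓ.Prime) (hℓN : ¬ ℓ ∣ N) :
    @Module.finrank (FN N) (FN (N * ℓ)) _ _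
      (algebraAlong (heckeAlphaBar Kbar N ℓ)).toModule = ℓ + 1 := by
  haveI := neZero_Nl N ℓ
  rw [← H82.relfinrank_FM_FN ℓ N hℓ hℓN]
  exact H51.finrank_along_inclusion
    (Fermat.Agent.S18.modularFunctionFieldBar_mono (Dvd.intro ℓ rfl))

theorem heckeNormFn_const (hℓ : ℓ.Prime) (hℓN : ¬ ℓ ∣ N) (c : Kbar) :
    Fermat.Agent.GTor.H2.heckeNormFn Kbar N ℓ (algebraMap Kbar (FN N) c)
      = algebraMap Kbar (FN N) (c ^ (ℓ + 1)) := by
  rw [heckeNormFn_def]
  letI := algebraAlong (heckeAlphaBar Kbar N ℓ)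
  haveI := isScalarTower_along (heckeAlphaBar Kbar N ℓ)
  rw [AlgHom.commutes, IsScalarTower.algebraMap_apply Kbar (FN N) (FN (N * ℓ)),
    Algebra.norm_algebraMap, finrank_alpha_gen N ℓ hℓ hℓN, ← map_pow]

theorem heckeNormFn_const_mul (hℓ : ℓ.Prime) (hℓN : ¬ ℓ ∣ N) (c : Kbar) (f : FN N) :
    Fermat.Agent.GTor.H2.heckeNormFn Kbar N ℓ (algebraMap Kbar (FN N) c * f)
      = algebraMap Kbar (FN N) (c ^ (ℓ + 1)) * Fermat.Agent.GTor.H2.heckeNormFn Kbar N ℓ f := by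
  rw [heckeNormFn_mul, heckeNormFn_const N ℓ hℓ hℓN]

/-- `T_ℓ` commutes with the arithmetic Galois action. -/
theorem heckeNormFn_smul (σ : Kbar ≃ₐ[ℚ] Kbar) (f : FN N) :
    arithmeticGalois (modularFunctionFieldFull N) σ • Fermat.Agent.GTor.H2.heckeNormFn Kbar N ℓ f
      = Fermat.Agent.GTor.H2.heckeNormFn Kbar N ℓ
          (arithmeticGalois (modularFunctionFieldFull N) σ • f) := by
  haveI := neZero_Nl N ℓ
  letI := algebraAlong (heckeAlphaBar Kbar N ℓ)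
  have hα := Fermat.Agent.GTor.H2.intertwines_heckeAlphaBar (L := Kbar) N ℓ σ
  have hβ := Fermat.Agent.GTor.H2.intertwines_heckeBetaBar (L := Kbar) N ℓ σ
  have key := Algebra.norm_eq_of_equiv_equiv
    (arithmeticRingAut (L := Kbar) (modularFunctionFieldFull N) σ)
    (arithmeticRingAut (L := Kbar) (modularFunctionFieldFull (N * ℓ)) σ)
    (RingHom.ext fun x => (hα x).symm)
    (heckeBetaBar Kbar N ℓ f)
  have h2 : arithmeticRingAut (L := Kbar) (modularFunctionFieldFull (N * ℓ)) σ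
      (heckeBetaBar Kbar N ℓ f)
      = heckeBetaBar Kbar N ℓ (arithmeticGalois (modularFunctionFieldFull N) σ • f) := hβ f
  show arithmeticRingAut (L := Kbar) (modularFunctionFieldFull N) σ
      (Algebra.norm (FN N) (heckeBetaBar Kbar N ℓ f))
    = Algebra.norm (FN N)
        (heckeBetaBar Kbar N ℓ (arithmeticGalois (modularFunctionFieldFull N) σ • f))
  rw [← h2, key]
  exact RingEquiv.apply_symm_apply _ _

theorem heckeNormFn_fix (σ : Kbar ≃ₐ[ℚ] Kbar) (f : FN N)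
    (hf : arithmeticGalois (modularFunctionFieldFull N) σ • f = f) :
    arithmeticGalois (modularFunctionFieldFull N) σ • Fermat.Agent.GTor.H2.heckeNormFn Kbar N ℓ f
      = Fermat.Agent.GTor.H2.heckeNormFn Kbar N ℓ f := by
  rw [heckeNormFn_smul, hf]

end Norm

/-! ## The eigenvector condition on Kummer functions -/

section Kummer

variable (N : ℕ) [NeZero N]

theorem smul_eq_ringAut (σ : Kbar ≃ₐ[ℚ] Kbar) (f : FN N) :
    arithmeticGalois (modularFunctionFieldFull N) σ • f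
      = arithmeticRingAut (L := Kbar) (modularFunctionFieldFull N) σ f := rfl

/-- **HECKE on Kummer functions**, general level. -/
theorem hecke_kummer (H : Subgroup (Kbar ≃ₐ[ℚ] Kbar)) (p : ℕ) (hp : p.Prime)
    (ℓ : ℕ) [NeZero ℓ] (hℓ : ℓ.Prime) (t : ℤ) (x : JZero N) (hpx : (p : ℤ) • x = 0)
    (hfix : ∀ σ ∈ H, σ • x = x) (hT : heckeOperatorBar N ⟨ℓ, hℓ⟩ x = t • x) :
    ∃ (D : Divisor.degZero (K := Kbar) (F := FN N)) (f g : FN N) (c : Kbar) (t₀ : ℕ),
      f ≠ 0 ∧ g ≠ 0 ∧ c ≠ 0 ∧ x = Pic0.mk D ∧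
      (∀ P : Place Kbar (FN N), (p : ℤ) * (D : Divisor Kbar (FN N)) P = P.ord f) ∧
      (∀ σ ∈ H, arithmeticGalois (modularFunctionFieldFull N) σ • f = f) ∧
      (∀ σ ∈ H, arithmeticGalois (modularFunctionFieldFull N) σ • g = g) ∧
      (∀ σ ∈ H, σ c = c) ∧
      ((t₀ : ℤ) : ZMod p) = (t : ZMod p) ∧
      Fermat.Agent.GTor.H2.heckeNormFn Kbar N ℓ f
        = algebraMap Kbar (FN N) c * f ^ t₀ * g ^ p := by
  have hpx' : p • x = 0 := by
    rw [← natCast_zsmul]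
    exact hpx
  -- step 1: Hilbert 90
  obtain ⟨D, f, hf0, hxD, hDf, hDfix, hffix, -, -⟩ :=
    Fermat.Agent.S36.H61.stmt_NUB0 N H p x hpx' hfix
  -- step 2: the Hecke operator on Kummer pairs
  obtain ⟨hα, hβ, hP, hfin, hFI, hN⟩ := H51.stmt_HKA N ℓ
  set D' : Divisor.degZero (K := Kbar) (F := FN N) :=
    Pic0.degZeroCorrespondence (heckeBetaBar _ N ℓ) (heckeAlphaBar _ N ℓ) hβ hα hFI D with hD'def
  set f' : FN N := Fermat.Agent.GTor.H2.heckeNormFn Kbar N ℓ f with hf'def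
  have hf'0 : f' ≠ 0 := Fermat.Agent.GTor.H2.heckeNormFn_ne_zero Kbar N ℓ hfin hf0
  have hTD : heckeOperatorBar N ⟨ℓ, hℓ⟩ (Pic0.mk D) = Pic0.mk D' := by
    change heckeOperatorAlong (AlgebraicClosure ℚ) N ℓ (Pic0.mk D) = Pic0.mk D'
    rw [heckeOperatorAlong_eq hα hβ hFI hfin hN]
    rfl
  have hD'f' : ∀ P : Place Kbar (FN N),
      (p : ℤ) * (D' : Divisor Kbar (FN N)) P = P.ord f' := fun P =>
    Fermat.Agent.GTor.H2.correspondence_ord Kbar N ℓ hα hβ hfin hN (p : ℤ) _ hf0 hDf P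
  have hD'fix : ∀ σ : Kbar ≃ₐ[ℚ] Kbar,
      galF N σ • (D : Divisor Kbar (FN N)) = D →
      galF N σ • (D' : Divisor Kbar (FN N)) = D' := by
    intro σ hσ
    have h1 := Fermat.Agent.GTor.H2.divisor_correspondence_smul (galF N σ)
      (galF (N * ℓ) σ) (heckeBetaBar Kbar N ℓ) (heckeAlphaBar Kbar N ℓ) hβ hα
      (Fermat.Agent.GTor.H2.intertwines_heckeBetaBar N ℓ σ)
      (Fermat.Agent.GTor.H2.intertwines_heckeAlphaBar N ℓ σ)
      (D : Divisor Kbar (FN N))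
    rw [hσ] at h1
    exact h1.symm
  -- the residue `t₀` of `t`
  have hp0 : (p : ℤ) ≠ 0 := by exact_mod_cast hp.ne_zero
  obtain ⟨t₀, ht₀⟩ : ∃ t₀ : ℕ, (t₀ : ℤ) = t % p :=
    ⟨(t % p).toNat, Int.toNat_of_nonneg (Int.emod_nonneg _ hp0)⟩
  have htmod : ((t₀ : ℤ) : ZMod p) = (t : ZMod p) := by
    rw [ht₀]
    exact ZMod.intCast_mod t p
  have hdecomp : t = (t₀ : ℤ) + (t / p) * p := by
    rw [ht₀, mul_comm]
    exact (Int.emod_add_mul_ediv t p).symm
  have hcls : (Pic0.mk D' : JZero N) = t₀ • (Pic0.mk D : JZero N) := by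
    rw [← hTD, ← hxD, hT]
    conv_lhs => rw [hdecomp]
    rw [add_zsmul, mul_zsmul, hpx, smul_zero, add_zero, natCast_zsmul]
  -- step 3: the difference `D' - t₀ D` is principal and inertia-stable
  have hE0 : (Pic0.mk (D' - t₀ • D) : JZero N) = 0 := by
    have h1 : (Pic0.mk (D' - t₀ • D) : JZero N)
        = Pic0.mk D' - t₀ • (Pic0.mk D : JZero N) := rfl
    rw [h1, hcls, sub_self]
  have hEfix : ∀ σ : ↥H,
      Fermat.Agent.S36.H61.rhoH N H σ •
        ((D' - t₀ • D : Divisor.degZero (K := Kbar) (F := FN N)) : Divisor Kbar (FN N))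
        = ((D' - t₀ • D : Divisor.degZero (K := Kbar) (F := FN N)) : Divisor Kbar (FN N)) := by
    intro σ
    have h1 := hDfix σ.1 σ.2
    have h2 := hD'fix σ.1 h1
    show galF N (σ : Kbar ≃ₐ[ℚ] Kbar) •
      ((D' : Divisor Kbar (FN N)) - t₀ • (D : Divisor Kbar (FN N)))
      = (D' : Divisor Kbar (FN N)) - t₀ • (D : Divisor Kbar (FN N))
    rw [smul_sub, smul_comm, h1, h2]
  obtain ⟨g, hg0, hEg, hgfix, -⟩ :=
    Fermat.Agent.S36.H61.exists_fixed_function N H 1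
      (D' - t₀ • D) hEfix (by rw [one_smul]; exact hE0)
  -- the quotient `f ^ t₀ g ^ p / f'` is a constant
  have hord : ∀ P : Place Kbar (FN N), P.ord (f ^ t₀ * g ^ p / f') = 0 := by
    intro P
    have e1 := hEg P
    have e2 : ((D' - t₀ • D : Divisor.degZero (K := Kbar) (F := FN N)) : Divisor Kbar (FN N)) P
        = (D' : Divisor Kbar (FN N)) P - t₀ * (D : Divisor Kbar (FN N)) P := by
      show ((D' : Divisor Kbar (FN N)) - t₀ • (D : Divisor Kbar (FN N))) P = _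
      rw [Finsupp.sub_apply, Finsupp.smul_apply, nsmul_eq_mul]
    rw [e2] at e1
    rw [div_eq_mul_inv, P.ord_mul (mul_ne_zero (pow_ne_zero _ hf0) (pow_ne_zero _ hg0))
        (inv_ne_zero hf'0), P.ord_mul (pow_ne_zero _ hf0) (pow_ne_zero _ hg0), P.ord_inv,
      H17.ord_pow, H17.ord_pow, ← hDf P, ← hD'f' P, ← e1]
    push_cast
    ring
  have hquot0 : f ^ t₀ * g ^ p / f' ≠ 0 :=
    div_ne_zero (mul_ne_zero (pow_ne_zero _ hf0) (pow_ne_zero _ hg0)) hf'0
  obtain ⟨c, hc⟩ := H36.const_of_ord_eq_zero (H95.stmt_HKA_isFF N) _ hquot0 hord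
  have hc0 : c ≠ 0 := by
    rintro rfl
    rw [map_zero] at hc
    exact hquot0 hc
  have hcF : algebraMap Kbar (FN N) c ≠ 0 := (map_ne_zero _).mpr hc0
  have hf' : f' = algebraMap Kbar (FN N) c⁻¹ * f ^ t₀ * g ^ p := by
    have h1 : f ^ t₀ * g ^ p = algebraMap Kbar (FN N) c * f' := by
      rw [← hc, div_mul_cancel₀ _ hf'0]
    rw [mul_assoc, h1, map_inv₀, ← mul_assoc, inv_mul_cancel₀ hcF, one_mul]
  have hgfix' : ∀ σ ∈ H, arithmeticGalois (modularFunctionFieldFull N) σ • g = g :=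
    fun σ hσ => hgfix ⟨σ, hσ⟩
  have hf'fix : ∀ σ ∈ H, arithmeticGalois (modularFunctionFieldFull N) σ • f' = f' :=
    fun σ hσ => heckeNormFn_fix N ℓ σ f (hffix σ hσ)
  have hcfix : ∀ σ ∈ H, σ c = c := by
    intro σ hσ
    have h1 := hf'fix σ hσ
    have h2 := hffix σ hσ
    have h3 := hgfix' σ hσ
    rw [smul_eq_ringAut] at h1 h2 h3
    have h4 : arithmeticRingAut (L := Kbar) (modularFunctionFieldFull N) σ
        (algebraMap Kbar (FN N) c * f') = algebraMap Kbar (FN N) c * f' := by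
      have e : algebraMap Kbar (FN N) c * f' = f ^ t₀ * g ^ p := by
        rw [← hc, div_mul_cancel₀ _ hf'0]
      rw [e, map_mul, map_pow, map_pow, h2, h3]
    rw [map_mul, h1, arithmeticRingAut_algebraMap] at h4
    have h5 := mul_right_cancel₀ hf'0 h4
    exact (algebraMap Kbar (FN N)).injective h5
  refine ⟨D, f, g, c⁻¹, t₀, hf0, hg0, inv_ne_zero hc0, hxD, hDf, hffix, hgfix', ?_, htmod, hf'⟩
  intro σ hσ
  rw [map_inv₀, hcfix σ hσ]

end Kummer

end Fermat.Agent.S59.LL.SQ.H33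

end
end
-- ==== END Fermat.Agent.S59.LL.SQ.H33_CompEisHecke

-- ==== BEGIN Fermat.Agent.S59.LL.SQ.H33_CompEisNV
section
attribute [local instance 10000] SubalgebraClass.toAlgebra
attribute [local instance 10000] HahnSeries.powerSeriesAlgebra

/-!
# S59 / LL / SQ, leaf (E) COMP-EIS at `q²` (helper33): NORM-VAL for `V₂₀` and `V₀₂`

Level `N = M q²`, `q ∤ M`, `A` over `q`, `ℓ ∤ N` a prime.

* `relfinrank_hecke_eq_sq` : the residue degree of the Gauss valuations of levels `N ℓ ∣ N` is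
  the degree `ℓ + 1`;
* `nv20` : `T_ℓ` maps `V₂₀`-units to `V₂₀`-units (helper9's `norm_isGU`);
* `wSqUp`, `wSqUp_comp_alpha`, `wSqUp_comp_beta` : `W_{q²}` of level `N ℓ` extends `W_{q²}` of
  level `N` along `α` and `β`; `wSq_heckeNormFn : W_{q²} (T_ℓ f) = T_ℓ (W_{q²} f)`;
* `nv02` : `T_ℓ` maps `V₀₂`-units to `V₀₂`-units;
* `stmt_NV20 : Stmt_NV20`, `stmt_NV02 : Stmt_NV02`.
-/

set_option autoImplicit false
set_option synthInstance.maxHeartbeats 400000
set_option maxHeartbeats 1000000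
set_option linter.style.haveILetI false
set_option linter.unusedSectionVars false

noncomputable section

open ModularCurve AlgebraicCurve IntermediateField
open Fermat.Agent.S24 Fermat.Agent.S36.NU.H88 Fermat.Agent.S36.NU.H23
open Fermat.Agent.BAD Fermat.Agent.BAD.H88 Fermat.Agent.S28.H73 Fermat.Agent.RED.H73
open Fermat.Agent.RED

namespace Fermat.Agent.S59.LL.SQ.H33

/-! ## The degrees -/

section Deg

variable (q M : ℕ) (hq : q.Prime) [NeZero M] [NeZero q] [NeZero (M * q * q)] (hqM : ¬ q ∣ M)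
variable (ℓ : ℕ) [NeZero ℓ] (hℓ : ℓ.Prime) (hℓN : ¬ ℓ ∣ M * q * q)

theorem neZero_level_sq : NeZero (M * q * q * ℓ) :=
  ⟨Nat.mul_ne_zero (NeZero.ne (M * q * q)) (NeZero.ne ℓ)⟩

theorem neZero_Ml : NeZero (M * ℓ) := ⟨Nat.mul_ne_zero (NeZero.ne M) (NeZero.ne ℓ)⟩

include hℓN in
theorem l_not_dvd_M : ¬ ℓ ∣ M := fun hd =>
  hℓN (Dvd.dvd.mul_right (Dvd.dvd.mul_right hd q) q)

include hq hℓ hℓN in
theorem q_ne_l : q ≠ ℓ := by
  rintro rfl
  exact hℓN (Dvd.intro_left (M * q) rfl)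

include hq hqM hℓ hℓN in
theorem q_not_dvd_Ml : ¬ q ∣ M * ℓ := by
  intro hd
  rcases (Nat.Prime.dvd_mul hq).mp hd with hd | hd
  · exact hqM hd
  · exact q_ne_l q M hq ℓ hℓ hℓN ((Nat.prime_dvd_prime_iff_eq hq hℓ).mp hd)

include hq hqM hℓ hℓN in
/-- The residue degree of the Gauss valuations of levels `N ℓ ∣ N`, `N = M q²`, at a prime over
`q` is the degree. -/
theorem relfinrank_hecke_eq_sq [NeZero (M * q * q * ℓ)]
    (A : ValuationSubring Kbar) (hA : A.LiesOverPrime q) :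
    (modularFunctionFieldBar (M * q * q)).relfinrank (modularFunctionFieldBar (M * q * q * ℓ))
      = (redField A (modularFunctionFieldBar (M * q * q))
            (hasScale_laurentBaseChange A (M * q * q))).relfinrank
          (redField A (modularFunctionFieldBar (M * q * q * ℓ))
            (hasScale_laurentBaseChange A (M * q * q * ℓ))) := by
  haveI := neZero_Ml M ℓ
  have hqMℓ := q_not_dvd_Ml q M hq hqM ℓ hℓ hℓN
  have hℓM := l_not_dvd_M q M ℓ hℓN
  have e1 := Fermat.Agent.S36.NU.H82.redField_NU q M hq hqM A hA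
  have e2 := Fermat.Agent.S36.NU.H82.redField_level_pow q 2 (M * ℓ) (M * q * q * ℓ) hq hqMℓ
    (by ring) A hA
  have g1 := Fermat.Agent.RED.H73.stmt_GA M q hq hqM A hA
  have g2 := Fermat.Agent.RED.H73.stmt_GA (M * ℓ) q hq hqMℓ A hA
  have h3 := H36.relfinrank_level_eq (N := M) (M := M * ℓ) (Dvd.intro ℓ rfl) hq hqMℓ A hA
  rw [H82.relfinrank_FM_FN ℓ (M * q * q) hℓ hℓN, e1, e2, ← g1, ← g2, ← h3]
  exact (H82.relfinrank_FM_FN ℓ M hℓ hℓM).symm

end Deg

/-! ## NORM-VAL for `V₂₀` -/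

section NV20

variable (q M : ℕ) (hq : q.Prime) [NeZero M] [NeZero q] [NeZero (M * q * q)] (hqM : ¬ q ∣ M)
variable (ℓ : ℕ) [NeZero ℓ] (hℓ : ℓ.Prime) (hℓN : ¬ ℓ ∣ M * q * q)
variable (A : ValuationSubring Kbar) (hA : A.LiesOverPrime q)

include hq hqM hℓ hℓN hA in
/-- `T_ℓ` maps `V₂₀`-units to `V₂₀`-units (no inertia hypothesis). -/
theorem nv20 (f : FN (M * q * q)) (hf : IsVU (V20 A (M * q * q)) f) :
    IsVU (V20 A (M * q * q)) (Fermat.Agent.GTor.H2.heckeNormFn Kbar (M * q * q) ℓ f) := by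
  haveI := neZero_level_sq q M ℓ
  obtain ⟨-, -, -, hfin, -, -⟩ := H51.stmt_HKA (M * q * q) ℓ
  have h1 : Fermat.Agent.S43.CompEis.H60.IsGaussUnit A (M * q * q * ℓ)
      (heckeBetaBar Kbar (M * q * q) ℓ f) :=
    Fermat.Agent.S43.CompEis.H9.isGaussUnit_beta ℓ A (M * q * q) f hf
  exact Fermat.Agent.S43.CompEis.H9.norm_isGU A
    (Fermat.Agent.S18.modularFunctionFieldBar_mono (Dvd.intro ℓ rfl))
    (hasScale_laurentBaseChange A (M * q * q)) (hasScale_laurentBaseChange A (M * q * q * ℓ))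
    hfin (relfinrank_hecke_eq_sq q M hq hqM ℓ hℓ hℓN A hA) _ h1

/-- **NV20.** -/
theorem stmt_NV20 : Stmt_NV20 := by
  intro A q M hq _ _ _ hqM hA ℓ _ hℓ hℓN f _ hf
  exact nv20 q M hq hqM ℓ hℓ hℓN A hA f hf

end NV20

/-! ## `W_{q²}` commutes with `N_α ∘ β` -/

section W

variable (q M : ℕ) (B k : ℤ) (hB : B * M + k * q = 1) (hq : q.Prime)
  [NeZero M] [NeZero q] [NeZero (M * q * q)]
variable (ℓ : ℕ) [NeZero ℓ] [NeZero (M * q * q * ℓ)]
  (B' k' : ℤ) (hB' : B' * ((M * ℓ : ℕ) : ℤ) + k' * q = 1)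

theorem level_eq_sq : M * q * q * ℓ = M * ℓ * (q * q) := by ring

/-- `W_{q²}` at level `M q² ℓ`. -/
def wSqUp : FN (M * q * q * ℓ) ≃ₐ[Kbar] FN (M * q * q * ℓ) :=
  wSq (M * q * q * ℓ) q (M * ℓ) B' k' (level_eq_sq q M ℓ) hB'

include hB hq in
/-- `W_{q²}` at level `M q² ℓ` extends `W_{q²}` at level `M q²` along `α`. -/
theorem wSqUp_comp_alpha :
    (wSqUp q M ℓ B' k' hB').toAlgHom.comp (heckeAlphaBar Kbar (M * q * q) ℓ)
      = (heckeAlphaBar Kbar (M * q * q) ℓ).comp (wS q M B k hB).toAlgHom := by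
  apply algHom_ext_of_adjoin _ (adjoin_jdF (M * q * q))
  rintro x ⟨D, hD0, hD, rfl⟩
  rw [AlgHom.comp_apply, AlgHom.comp_apply, alpha_jdF]
  obtain ⟨d, d', e, e', hDd, hM, hQ⟩ :=
    dvd_casesQ (M * q * q) (q * q) M _ _ (lvl q M) (bezout_sq q M B k hB) D hD
  have hD0' : 0 < D := Nat.pos_of_ne_zero (NeZero.ne D)
  have hd : 0 < d := Nat.pos_of_ne_zero (by rintro rfl; rw [zero_mul] at hDd; omega)
  have hqq : 0 < q * q := Nat.mul_pos hq.pos hq.pos
  have he' : 0 < e' := Nat.pos_of_ne_zero (by rintro rfl; rw [mul_zero] at hQ; omega)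
  haveI : NeZero (d * e') := ⟨(Nat.mul_pos hd he').ne'⟩
  have hdvd : d * e' ∣ M * q * q :=
    dvd_of_factors (M * q * q) (q * q) M _ _ (lvl q M) (bezout_sq q M B k hB) d d' e e' hM hQ
  have h1 : (wS q M B k hB).toAlgHom (jdF (M * q * q) D hD) = jdF (M * q * q) (d * e') hdvd :=
    wQ_jdF' (M * q * q) (q * q) M _ _ (lvl q M) _ D (d * e') d d' e e' hDd rfl hM hQ _ _
  rw [h1, alpha_jdF]
  exact wQ_jdF' (M * q * q * ℓ) (q * q) (M * ℓ) _ _ (level_eq_sq q M ℓ) _ D (d * e') d (d' * ℓ)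
    e e' hDd rfl (by rw [hM]; ring) hQ _ _

include hB hq in
/-- `W_{q²}` at level `M q² ℓ` extends `W_{q²}` at level `M q²` along `β`. -/
theorem wSqUp_comp_beta :
    (wSqUp q M ℓ B' k' hB').toAlgHom.comp (heckeBetaBar Kbar (M * q * q) ℓ)
      = (heckeBetaBar Kbar (M * q * q) ℓ).comp (wS q M B k hB).toAlgHom := by
  apply algHom_ext_of_adjoin _ (adjoin_jdF (M * q * q))
  rintro x ⟨D, hD0, hD, rfl⟩
  have hℓ0 : 0 < ℓ := Nat.pos_of_ne_zero (NeZero.ne ℓ)
  have hD0' : 0 < D := Nat.pos_of_ne_zero (NeZero.ne D)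
  haveI : NeZero (D * ℓ) := ⟨(Nat.mul_pos hD0' hℓ0).ne'⟩
  rw [AlgHom.comp_apply, AlgHom.comp_apply, beta_jdF]
  obtain ⟨d, d', e, e', hDd, hM, hQ⟩ :=
    dvd_casesQ (M * q * q) (q * q) M _ _ (lvl q M) (bezout_sq q M B k hB) D hD
  have hd : 0 < d := Nat.pos_of_ne_zero (by rintro rfl; rw [zero_mul] at hDd; omega)
  have hqq : 0 < q * q := Nat.mul_pos hq.pos hq.pos
  have he' : 0 < e' := Nat.pos_of_ne_zero (by rintro rfl; rw [mul_zero] at hQ; omega)
  haveI : NeZero (d * e') := ⟨(Nat.mul_pos hd he').ne'⟩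
  haveI : NeZero (d * e' * ℓ) := ⟨(Nat.mul_pos (Nat.mul_pos hd he') hℓ0).ne'⟩
  have hdvd : d * e' ∣ M * q * q :=
    dvd_of_factors (M * q * q) (q * q) M _ _ (lvl q M) (bezout_sq q M B k hB) d d' e e' hM hQ
  have h1 : (wS q M B k hB).toAlgHom (jdF (M * q * q) D hD) = jdF (M * q * q) (d * e') hdvd :=
    wQ_jdF' (M * q * q) (q * q) M _ _ (lvl q M) _ D (d * e') d d' e e' hDd rfl hM hQ _ _
  rw [h1, beta_jdF]
  exact wQ_jdF' (M * q * q * ℓ) (q * q) (M * ℓ) _ _ (level_eq_sq q M ℓ) _ (D * ℓ) (d * e' * ℓ)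
    (d * ℓ) d' e e' (by rw [hDd]; ring) (by ring) (by rw [hM]; ring) hQ _ _

include hB hq hB' in
/-- `W_{q²} (N_α (β f)) = N_α (β (W_{q²} f))`. -/
theorem wSq_heckeNormFn (f : FN (M * q * q)) :
    wS q M B k hB (Fermat.Agent.GTor.H2.heckeNormFn Kbar (M * q * q) ℓ f)
      = Fermat.Agent.GTor.H2.heckeNormFn Kbar (M * q * q) ℓ (wS q M B k hB f) := by
  letI := algebraAlong (heckeAlphaBar Kbar (M * q * q) ℓ)
  have hα := wSqUp_comp_alpha q M B k hB hq ℓ B' k' hB'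
  have hβ := wSqUp_comp_beta q M B k hB hq ℓ B' k' hB'
  have key := Algebra.norm_eq_of_equiv_equiv
    ((wS q M B k hB : FN (M * q * q) ≃ₐ[Kbar] FN (M * q * q)) :
      FN (M * q * q) ≃+* FN (M * q * q))
    ((wSqUp q M ℓ B' k' hB' : FN (M * q * q * ℓ) ≃ₐ[Kbar] FN (M * q * q * ℓ)) :
      FN (M * q * q * ℓ) ≃+* FN (M * q * q * ℓ))
    (RingHom.ext fun x =>
      (congrArg (fun g : FN (M * q * q) →ₐ[Kbar] FN (M * q * q * ℓ) => g x) hα).symm)
    (heckeBetaBar Kbar (M * q * q) ℓ f)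
  have h2 : wSqUp q M ℓ B' k' hB' (heckeBetaBar Kbar (M * q * q) ℓ f)
      = heckeBetaBar Kbar (M * q * q) ℓ (wS q M B k hB f) :=
    congrArg (fun g : FN (M * q * q) →ₐ[Kbar] FN (M * q * q * ℓ) => g f) hβ
  show wS q M B k hB (Algebra.norm (FN (M * q * q)) (heckeBetaBar Kbar (M * q * q) ℓ f))
    = Algebra.norm (FN (M * q * q)) (heckeBetaBar Kbar (M * q * q) ℓ (wS q M B k hB f))
  rw [← h2, key]
  exact RingEquiv.apply_symm_apply (wS q M B k hB).toRingEquiv _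

end W

/-! ## NORM-VAL for `V₀₂` -/

section NV02

variable (q M : ℕ) (B k : ℤ) (hB : B * M + k * q = 1) (hq : q.Prime)
  [NeZero M] [NeZero q] [NeZero (M * q * q)] (hqM : ¬ q ∣ M)
variable (ℓ : ℕ) [NeZero ℓ] (hℓ : ℓ.Prime) (hℓN : ¬ ℓ ∣ M * q * q)
variable (A : ValuationSubring Kbar) (hA : A.LiesOverPrime q)

include hB in
theorem isVU_V02_iff (f : FN (M * q * q)) :
    IsVU (V02 A (M * q * q) q M B k (lvl q M) hB) f
      ↔ IsVU (V20 A (M * q * q)) (wS q M B k hB f) := by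
  unfold IsVU
  rw [mem_V02_iff, mem_V02_iff, map_inv₀]
  constructor
  · rintro ⟨h0, h1, h2⟩
    exact ⟨(map_ne_zero _).mpr h0, h1, h2⟩
  · rintro ⟨h0, h1, h2⟩
    exact ⟨(map_ne_zero _).mp h0, h1, h2⟩

include hq hqM hℓ hℓN hA in
/-- `T_ℓ` maps `V₀₂`-units to `V₀₂`-units (no inertia hypothesis). -/
theorem nv02 (f : FN (M * q * q)) (hf : IsVU (V02 A (M * q * q) q M B k (lvl q M) hB) f) :
    IsVU (V02 A (M * q * q) q M B k (lvl q M) hB)
      (Fermat.Agent.GTor.H2.heckeNormFn Kbar (M * q * q) ℓ f) := by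
  haveI := neZero_level_sq q M ℓ
  haveI := neZero_Ml M ℓ
  have hqMℓ := q_not_dvd_Ml q M hq hqM ℓ hℓ hℓN
  have hcop : Nat.Coprime (M * ℓ) q :=
    ((Nat.Prime.coprime_iff_not_dvd hq).mpr hqMℓ).symm
  obtain ⟨B', k', hB'⟩ : ∃ B' k' : ℤ, B' * ((M * ℓ : ℕ) : ℤ) + k' * q = 1 := by
    obtain ⟨u, v, huv⟩ := Nat.isCoprime_iff_coprime.mpr hcop
    exact ⟨u, v, huv⟩
  rw [isVU_V02_iff q M B k hB A] at hf ⊢
  rw [wSq_heckeNormFn q M B k hB hq ℓ B' k' hB']
  exact nv20 q M hq hqM ℓ hℓ hℓN A hA _ hf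

/-- **NV02.** -/
theorem stmt_NV02 : Stmt_NV02 := by
  intro A q M B k hB hq _ _ _ hqM hA ℓ _ hℓ hℓN f _ hf
  exact nv02 q M B k hB hq hqM ℓ hℓ hℓN A hA f hf

end NV02

end Fermat.Agent.S59.LL.SQ.H33

end
end
-- ==== END Fermat.Agent.S59.LL.SQ.H33_CompEisNV

-- ==== BEGIN Fermat.Agent.S59.LL.SQ.H35_EigAbs
section

/-!
# S59 / LL / SQ, leaf OLD-RED at `q²` (helper35): abstract steps

* `isVU_iff_val` : units of a valuation ring are the elements of value `1`;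
* `val_eq_one_of_pow` : value groups are torsion-free;
* `eig_of_rel` : the last step of the eigen-transfer: if `p D' = div g` and
  `N_α' (β' g) · g ^ b = c · g ^ a · h ^ p` then `T' D' - (a - b) D' = div h`.
-/

set_option autoImplicit false
set_option linter.style.haveILetI false
set_option linter.unusedSectionVars false
set_option synthInstance.maxHeartbeats 400000
set_option maxHeartbeats 1000000

noncomputable section

open AlgebraicCurve Fermat.Agent.RED.H17 Fermat.Agent.S43.Old.H35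

namespace Fermat.Agent.S59.LL.SQ.H35

section Val

variable {F : Type} [Field F] (V : ValuationSubring F)

theorem isVU_iff_val (x : F) : H33.IsVU V x ↔ V.valuation x = 1 := by
  constructor
  · rintro ⟨hx0, hx, hx'⟩
    have h1 : V.valuation x ≤ 1 := (ValuationSubring.valuation_le_one_iff _ _).2 hx
    have h2 : V.valuation x⁻¹ ≤ 1 := (ValuationSubring.valuation_le_one_iff _ _).2 hx'
    rw [map_inv₀] at h2
    have h0 : V.valuation x ≠ 0 := (Valuation.ne_zero_iff _).2 hx0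
    exact le_antisymm h1 ((inv_le_one₀ (zero_lt_iff.2 h0)).1 h2)
  · intro h
    have hx0 : x ≠ 0 := by
      rintro rfl
      rw [map_zero] at h
      exact zero_ne_one h
    refine ⟨hx0, (ValuationSubring.valuation_le_one_iff _ _).1 h.le, ?_⟩
    rw [← ValuationSubring.valuation_le_one_iff, map_inv₀, h, inv_one]

theorem val_eq_one_of_pow (x : F) (n : ℕ) (hn : n ≠ 0) (h : V.valuation x ^ n = 1) :
    V.valuation x = 1 := by
  rcases lt_trichotomy (V.valuation x) 1 with h1 | h1 | h1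
  · exfalso
    have := (pow_lt_one_iff hn).2 h1
    rw [h] at this
    exact lt_irrefl _ this
  · exact h1
  · exfalso
    have := one_lt_pow₀ h1 hn
    rw [h] at this
    exact lt_irrefl _ this

theorem val_one_mem {x : F} (h : V.valuation x = 1) : x ∈ V :=
  (ValuationSubring.valuation_le_one_iff _ _).1 h.le

theorem val_one_ne_zero {x : F} (h : V.valuation x = 1) : x ≠ 0 := by
  rintro rfl
  rw [map_zero] at h
  exact zero_ne_one h

theorem val_one_isUnit {x : F} (h : V.valuation x = 1) (hx : x ∈ V) : IsUnit (⟨x, hx⟩ : ↥V) :=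
  (ValuationSubring.valuation_eq_one_iff V ⟨x, hx⟩).2 h

theorem val_one_of_isUnit (x : ↥V) (h : IsUnit x) : V.valuation (x : F) = 1 :=
  (ValuationSubring.valuation_eq_one_iff V x).1 h

end Val

section Eig

variable {k F' F'' : Type*} [Field k] [Field F'] [Field F''] [Algebra k F'] [Algebra k F'']

/-- **The last step of the eigen-transfer.** -/
theorem eig_of_rel (α' β' : F' →ₐ[k] F'') (hα' : α'.toRingHom.IsIntegral)
    (hβ' : β'.toRingHom.IsIntegral) [HasPrincipalDivisors k F''] (hfin' : FiniteAlong k α')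
    (hNF' : NormFormulaAlong k α' hfin') (p : ℕ) (hp : p ≠ 0) (a b : ℕ)
    (D' : Divisor k F') (g : F') (hg : g ≠ 0)
    (hD' : ∀ Q : Place k F', (p : ℤ) * D' Q = Q.ord g)
    (c' : k) (hc' : c' ≠ 0) (h1 : F') (hh1 : h1 ≠ 0)
    (hrel : normAlong α' (β' g) * g ^ b = algebraMap k F' c' * (g ^ a * h1 ^ p)) :
    (Divisor.correspondence β' α' hβ' hα' D' - ((a : ℤ) - (b : ℤ)) • D').IsPrincipal := by
  have hpZ : (p : ℤ) ≠ 0 := by exact_mod_cast hp
  have hβ'g : β' g ≠ 0 := by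
    intro h0
    exact hg (β'.toRingHom.injective (by simpa using h0))
  have hnf0 : normAlong α' (β' g) ≠ 0 := normAlong_ne_zero α' hfin' hβ'g
  refine ⟨h1, hh1, fun Q => ?_⟩
  have hQ1 : Q.ord (normAlong α' (β' g)) = (p : ℤ) * Divisor.correspondence β' α' hβ' hα' D' Q :=
    (corr_ord β' α' hβ' hα' hfin' hNF' (p : ℤ) D' hg hD' Q).symm
  have hQ2 := congrArg Q.ord hrel
  rw [ord_algebraMap_mul Q hc', Q.ord_mul hnf0 (pow_ne_zero _ hg),
    Q.ord_mul (pow_ne_zero _ hg) (pow_ne_zero _ hh1), ord_pow, ord_pow, ord_pow, hQ1,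
    ← hD' Q] at hQ2
  rw [Finsupp.sub_apply, Finsupp.smul_apply, smul_eq_mul]
  have h5 : (p : ℤ) * (Divisor.correspondence β' α' hβ' hα' D' Q
      - ((a : ℤ) - (b : ℤ)) * D' Q) = (p : ℤ) * Q.ord h1 := by
    linear_combination hQ2
  exact mul_left_cancel₀ hpZ h5

end Eig

end Fermat.Agent.S59.LL.SQ.H35

end
end
-- ==== END Fermat.Agent.S59.LL.SQ.H35_EigAbs

-- ==== BEGIN Fermat.Agent.S59.LL.SQ.H35_KumSpan
section

/-!
# S59 / LL / SQ, leaf (T′), step S8 KUM-SPAN (helper35): from the Kummer relation to the span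

Level `N = M q²`, `α, β : F_{Mq} → F_N` the two degeneracy maps.

* `exists_div_root` : a function whose divisor is divisible by `n ≠ 0` gives a class `y` with
  `n • y = 0` and `n • D_y = div f`;
* `kum_span_abs` : if `p D = div H` and `H ^ m s ^ n = c φ(f) ψ(f')` with `n = m p`, `n ∣ div f`,
  `n ∣ div f'`, then `[D] = φ^* y + ψ^* y'` with `n • y = n • y' = 0` (generic);
* `kum_span` : the modular case, `x = α^* y + β^* y'` (helper58's statement).
-/

set_option autoImplicit false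
set_option linter.style.haveILetI false
set_option linter.unusedSectionVars false
set_option linter.unusedVariables false
set_option synthInstance.maxHeartbeats 400000
set_option maxHeartbeats 1000000

noncomputable section

open AlgebraicCurve ModularCurve
open Fermat.Agent.S24 Fermat.Agent.RED.H17 Fermat.Agent.S36.H44

namespace Fermat.Agent.S59.LL.SQ.H35

section Generic

variable {K F F' : Type*} [Field K] [Field F] [Field F'] [Algebra K F] [Algebra K F']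

/-- A function whose divisor is divisible by `n ≠ 0` is the Kummer function of a divisor of
degree `0`. -/
theorem exists_div_root [HasPrincipalDivisors K F] (n : ℕ) (hn : n ≠ 0) (f : F) (hf0 : f ≠ 0)
    (hf : ∀ Q : Place K F, (n : ℤ) ∣ Q.ord f) :
    ∃ Df : Divisor.degZero (K := K) (F := F),
      (∀ Q : Place K F, (n : ℤ) * (Df : Divisor K F) Q = Q.ord f) ∧
      n • (Pic0.mk Df) = 0 := by
  have hnZ : (n : ℤ) ≠ 0 := by exact_mod_cast hn
  obtain ⟨Dg, hDg, hDg0⟩ := HasPrincipalDivisors.exists_divisor (K := K) f hf0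
  set D₁ : Divisor K F := Finsupp.mapRange (fun a : ℤ => a / (n : ℤ)) (by simp) Dg with hD₁
  have hD₁Q : ∀ Q : Place K F, (n : ℤ) * D₁ Q = Q.ord f := by
    intro Q
    rw [hD₁, Finsupp.mapRange_apply, hDg Q]
    exact Int.mul_ediv_cancel' (hf Q)
  have hnD₁ : (n : ℤ) • D₁ = Dg := by
    ext Q
    rw [Finsupp.smul_apply, smul_eq_mul, hD₁Q Q, hDg Q]
  have hdeg : Divisor.degree D₁ = 0 := by
    have h2 : (n : ℤ) • Divisor.degree D₁ = 0 := by rw [← map_zsmul, hnD₁, hDg0]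
    rcases smul_eq_zero.mp h2 with h | h
    · exact absurd h hnZ
    · exact h
  refine ⟨⟨D₁, hdeg⟩, hD₁Q, ?_⟩
  have h1 : n • (Pic0.mk (⟨D₁, hdeg⟩ : Divisor.degZero (K := K) (F := F)))
      = Pic0.mk (n • (⟨D₁, hdeg⟩ : Divisor.degZero (K := K) (F := F))) := rfl
  rw [h1]
  refine (QuotientAddGroup.eq_zero_iff _).mpr ?_
  rw [AddSubgroup.mem_addSubgroupOf]
  refine ⟨f, hf0, fun Q => ?_⟩
  have h2 : ((n • (⟨D₁, hdeg⟩ : Divisor.degZero (K := K) (F := F)) :
      Divisor.degZero (K := K) (F := F)) : Divisor K F) = n • D₁ := rfl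
  rw [h2, Finsupp.smul_apply, nsmul_eq_mul, hD₁Q Q]

variable [HasPrincipalDivisors K F] [HasPrincipalDivisors K F']

/-- **KUM-SPAN (generic).** -/
theorem kum_span_abs (φ ψ : F →ₐ[K] F') (hφ : φ.toRingHom.IsIntegral)
    (hψ : ψ.toRingHom.IsIntegral) (hFIφ : FundamentalIdentityAlong K φ hφ)
    (hFIψ : FundamentalIdentityAlong K ψ hψ)
    (n m p : ℕ) (hn : n ≠ 0) (hnm : n = m * p)
    (D : Divisor.degZero (K := K) (F := F')) (H : F')
    (hH : ∀ P : Place K F', (p : ℤ) * (D : Divisor K F') P = P.ord H)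
    (f f' : F) (hf0 : f ≠ 0) (hf'0 : f' ≠ 0)
    (hf : ∀ Q : Place K F, (n : ℤ) ∣ Q.ord f) (hf' : ∀ Q : Place K F, (n : ℤ) ∣ Q.ord f')
    (s : F') (hs : s ≠ 0) (c : K) (hc : c ≠ 0)
    (heq : H ^ m * s ^ n = algebraMap K F' c * (φ f * ψ f')) :
    ∃ y y' : Pic0 K F, n • y = 0 ∧ n • y' = 0 ∧
      Pic0.mk D = H40.pic0Pull φ hφ hFIφ y + H40.pic0Pull ψ hψ hFIψ y' := by
  have hnZ : (n : ℤ) ≠ 0 := by exact_mod_cast hn
  obtain ⟨Df, hDf, hy⟩ := exists_div_root (K := K) n hn f hf0 hf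
  obtain ⟨Df', hDf', hy'⟩ := exists_div_root (K := K) n hn f' hf'0 hf'
  refine ⟨Pic0.mk Df, Pic0.mk Df', hy, hy', ?_⟩
  rw [H40.pic0Pull_mk, H40.pic0Pull_mk, ← Pic0.mk_add]
  refine (QuotientAddGroup.eq (s := (Divisor.principal (K := K) (F := F')).addSubgroupOf
    (Divisor.degZero (K := K) (F := F')))).mpr ?_
  rw [AddSubgroup.mem_addSubgroupOf]
  -- non-vanishing
  have hφf : φ f ≠ 0 := fun h0 => hf0 (φ.toRingHom.injective (by simpa using h0))
  have hψf : ψ f' ≠ 0 := fun h0 => hf'0 (ψ.toRingHom.injective (by simpa using h0))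
  have hR0 : algebraMap K F' c * (φ f * ψ f') ≠ 0 :=
    mul_ne_zero ((map_ne_zero_iff _ (algebraMap K F').injective).mpr hc) (mul_ne_zero hφf hψf)
  have hHm0 : H ^ m ≠ 0 := by
    intro h0
    rw [h0, zero_mul] at heq
    exact hR0 heq.symm
  -- the orders
  have hφord : ∀ w : Place K F', (n : ℤ) * Divisor.pullbackAlong φ hφ (Df : Divisor K F) w
      = w.ord (φ f) := by
    intro w
    have h1 : ∀ v : Place K F, ((n : ℤ) • (Df : Divisor K F)) v = v.ord f := fun v => by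
      rw [Finsupp.smul_apply, smul_eq_mul, hDf v]
    have h2 := H40.pullbackAlong_ord φ hφ ((n : ℤ) • (Df : Divisor K F)) h1 w
    rw [map_zsmul, Finsupp.smul_apply, smul_eq_mul] at h2
    exact h2
  have hψord : ∀ w : Place K F', (n : ℤ) * Divisor.pullbackAlong ψ hψ (Df' : Divisor K F) w
      = w.ord (ψ f') := by
    intro w
    have h1 : ∀ v : Place K F, ((n : ℤ) • (Df' : Divisor K F)) v = v.ord f' := fun v => by
      rw [Finsupp.smul_apply, smul_eq_mul, hDf' v]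
    have h2 := H40.pullbackAlong_ord ψ hψ ((n : ℤ) • (Df' : Divisor K F)) h1 w
    rw [map_zsmul, Finsupp.smul_apply, smul_eq_mul] at h2
    exact h2
  refine ⟨s, hs, fun w => ?_⟩
  have hw := congrArg w.ord heq
  rw [w.ord_mul hHm0 (pow_ne_zero _ hs), ord_pow, ord_pow, ord_algebraMap_mul w hc,
    w.ord_mul hφf hψf, ← hH w, ← hφord w, ← hψord w] at hw
  have hnm' : (n : ℤ) = (m : ℤ) * (p : ℤ) := by exact_mod_cast hnm
  have hcoe : ((-D + (H40.degZeroPull φ hφ hFIφ Df + H40.degZeroPull ψ hψ hFIψ Df') :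
      Divisor.degZero (K := K) (F := F')) : Divisor K F') w
      = -((D : Divisor K F') w) + (Divisor.pullbackAlong φ hφ (Df : Divisor K F) w
        + Divisor.pullbackAlong ψ hψ (Df' : Divisor K F) w) := rfl
  rw [hcoe]
  have h5 : (n : ℤ) * (-((D : Divisor K F') w) + (Divisor.pullbackAlong φ hφ (Df : Divisor K F) w
        + Divisor.pullbackAlong ψ hψ (Df' : Divisor K F) w)) = (n : ℤ) * w.ord s := by
    rw [hnm'] at hw ⊢
    linear_combination -hw
  exact mul_left_cancel₀ hnZ h5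

end Generic

section Modular

variable (M q : ℕ) [NeZero M] [NeZero q] [NeZero (M * q)] [NeZero (M * q * q)]

/-- **KUM-SPAN** (step S8 of (T′)): the Kummer relation `H ^ (p^(e-1)) s ^ (p^e) = c α(f) β(f')`
gives `x = α^* y + β^* y'` with `p^e`-torsion points `y`, `y'` of level `M q`. -/
theorem kum_span (p e : ℕ) (hp : p ≠ 0) (he : 0 < e) (x : JZero (M * q * q))
    (D : Divisor.degZero (K := Kbar) (F := FN (M * q * q))) (hx : x = Pic0.mk D)
    (H : FN (M * q * q))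
    (hH : ∀ P : Place Kbar (FN (M * q * q)),
      (p : ℤ) * (D : Divisor Kbar (FN (M * q * q))) P = P.ord H)
    (f f' : FN (M * q)) (hf0 : f ≠ 0) (hf'0 : f' ≠ 0)
    (hf : ∀ Q : Place Kbar (FN (M * q)), ((p ^ e : ℕ) : ℤ) ∣ Q.ord f)
    (hf' : ∀ Q : Place Kbar (FN (M * q)), ((p ^ e : ℕ) : ℤ) ∣ Q.ord f')
    (s : FN (M * q * q)) (hs : s ≠ 0) (c : Kbar) (hc : c ≠ 0)
    (heq : H ^ (p ^ (e - 1)) * s ^ (p ^ e)
      = algebraMap Kbar (FN (M * q * q)) c
        * (heckeAlphaBar Kbar (M * q) q f * heckeBetaBar Kbar (M * q) q f')) :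
    ∃ (y y' : JZero (M * q)), (p ^ e) • y = 0 ∧ (p ^ e) • y' = 0 ∧
      x = H40.alphaPull (M * q) q y + H40.betaPull (M * q) q y' := by
  haveI := H40.hasPD_FN (M * q)
  haveI := H40.hasPD_FN (M * q * q)
  have hnm : p ^ e = p ^ (e - 1) * p := by
    rw [← pow_succ, Nat.sub_add_cancel he]
  obtain ⟨y, y', hy, hy', hxy⟩ := kum_span_abs (K := Kbar) (heckeAlphaBar Kbar (M * q) q)
    (heckeBetaBar Kbar (M * q) q) (alpha_integral (M * q) q) (beta_integral (M * q) q)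
    (H40.alpha_FI (M * q) q) (H40.beta_FI (M * q) q) (p ^ e) (p ^ (e - 1)) p
    (pow_ne_zero e hp) hnm D H hH f f' hf0 hf'0 hf hf' s hs c hc heq
  exact ⟨y, y', hy, hy', hx.trans hxy⟩

end Modular

end Fermat.Agent.S59.LL.SQ.H35

end
end
-- ==== END Fermat.Agent.S59.LL.SQ.H35_KumSpan

-- ==== BEGIN Fermat.Agent.S59.LL.SQ.H35_MidRed
section

/-!
# S59 / LL / SQ, leaf OLD-RED at `q²` (helper35): NORM-RED for the valuation `V₁₁`

Level `N = M q²`, `q ∤ M`, `ℓ` a prime not dividing `N`, `A` a valuation ring of `ℚ̄` over `q`.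
On the inertia-fixed functions `L0 A N` the valuation `V₁₁` (middle cusp) has the residue field
`F~_M = Ft A M` (helper23, RES11).

* `V11g`, `s11g`, `r11g` : the valuation ring, its residue map with values in `k((t))` and in
  `Ft A M'`, for a level `N'` given with a proof of `N' = M' q²` (so that the level `N ℓ` can be
  used in the form `M * q * q * ℓ`);
* `exists_inertia_mid`, `alpha_mem_V11_iff`, `red_alpha`, `beta_mem_V11`, `red_beta` :
  compatibility of `α`, `β : F_N → F_{N ℓ}` with `V₁₁` and its residue map on `L0`.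
-/

set_option autoImplicit false
set_option linter.style.haveILetI false
set_option linter.unusedSectionVars false
set_option synthInstance.maxHeartbeats 400000
set_option maxHeartbeats 1000000

noncomputable section

open AlgebraicCurve ModularCurve
open Fermat.Agent.S24 Fermat.Agent.BAD Fermat.Agent.BAD.H88
open Fermat.Agent.S28 Fermat.Agent.S28.H73 Fermat.Agent.RED.H73 Fermat.Agent.RED.H17
open Fermat.Agent.S36.NU.H88 Fermat.Agent.S36.NU.H23 Fermat.Agent.S36.NU.H26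
open Fermat.Agent.S43.Old.H35 Fermat.Agent.Lib.HeckeComm

namespace Fermat.Agent.S59.LL.SQ.H35

/-! ## The valuation `V₁₁` on `L0`, for a level given up to equality -/

section Gen

variable (A : ValuationSubring Kbar) (N q M' : ℕ) (B' k' : ℤ) (hN : N = M' * (q * q))
  (hB' : B' * M' + k' * q = 1) (hq : q.Prime) [NeZero N] [NeZero q] [NeZero M']

/-- `V₁₁` on `L0 A N`, `N = M' q²`. -/
def V11g : ValuationSubring ↥(L0 A N) := resV0 (L0 A N) (V11 A N q M' B' k' hN hB' hq)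

theorem mem_V11g_iff (x : ↥(L0 A N)) :
    x ∈ V11g A N q M' B' k' hN hB' hq
      ↔ cMid N q M' B' k' hN hB' hq (x : FN N) ∈ gaussRingV A := Iff.rfl

/-- The residue map of `V11g`, with values in `k((t))`. -/
def s11g : ↥(V11g A N q M' B' k' hN hB' hq) →+* LaurentSeries (kV A) :=
  (IntermediateField.val _).toRingHom.comp
    (resRed (L0 A N) (V11 A N q M' B' k' hN hB' hq) (red11 A N q M' B' k' hN hB' hq))

theorem s11g_mk (x : ↥(L0 A N)) (h : x ∈ V11g A N q M' B' k' hN hB' hq) :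
    s11g A N q M' B' k' hN hB' hq ⟨x, h⟩
      = gaussRedV A ⟨cMid N q M' B' k' hN hB' hq (x : FN N), h⟩ := rfl

theorem s11g_eq_zero_iff (x : ↥(V11g A N q M' B' k' hN hB' hq)) :
    s11g A N q M' B' k' hN hB' hq x = 0 ↔ ¬ IsUnit x := by
  constructor
  · intro h0 hu
    exact (hu.map (s11g A N q M' B' k' hN hB' hq)).ne_zero h0
  · intro hx
    have h1 := resRed_eq_zero_of_not_isUnit (L0 A N) (V11 A N q M' B' k' hN hB' hq)
      (red11 A N q M' B' k' hN hB' hq) (red11_eq_zero_iff A N q M' B' k' hN hB' hq) x hx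
    show ((resRed (L0 A N) (V11 A N q M' B' k' hN hB' hq)
      (red11 A N q M' B' k' hN hB' hq) x : F11 A N q M' B' k' hN hB' hq) :
        LaurentSeries (kV A)) = 0
    rw [h1]
    rfl

variable (hqM' : ¬ q ∣ M') (hA : A.LiesOverPrime q) (hN2 : N = M' * q * q)

include hqM' hA hN2 in
/-- **RES11** for a level given up to equality. -/
theorem s11g_mem (x : ↥(V11g A N q M' B' k' hN hB' hq)) :
    s11g A N q M' B' k' hN hB' hq x ∈ Ft A M' := by
  subst hN2
  exact s11_memM A q M' B' k' hB' hq hqM' hA x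

include hqM' hA hN2 in
theorem s11g_surj (y : LaurentSeries (kV A)) (hy : y ∈ Ft A M') :
    ∃ x : ↥(V11g A N q M' B' k' hN hB' hq), s11g A N q M' B' k' hN hB' hq x = y := by
  subst hN2
  obtain ⟨x, hx⟩ := r11_surjective A q M' B' k' hB' hq hqM' hA ⟨y, hy⟩
  exact ⟨x, congrArg Subtype.val hx⟩

/-- The residue map of `V11g`, with values in the reduced field of level `M'`. -/
def r11g : ↥(V11g A N q M' B' k' hN hB' hq) →+* ↥(Ft A M') :=
  (s11g A N q M' B' k' hN hB' hq).codRestrict (Ft A M').toSubring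
    (fun x => s11g_mem A N q M' B' k' hN hB' hq hqM' hA hN2 x)

theorem coe_r11g (x : ↥(V11g A N q M' B' k' hN hB' hq)) :
    ((r11g A N q M' B' k' hN hB' hq hqM' hA hN2 x : ↥(Ft A M')) : LaurentSeries (kV A))
      = s11g A N q M' B' k' hN hB' hq x := rfl

theorem r11g_surjective :
    Function.Surjective (r11g A N q M' B' k' hN hB' hq hqM' hA hN2) := by
  intro y
  obtain ⟨x, hx⟩ := s11g_surj A N q M' B' k' hN hB' hq hqM' hA hN2 y.1 y.2
  exact ⟨x, Subtype.ext hx⟩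

theorem r11g_eq_zero_iff (x : ↥(V11g A N q M' B' k' hN hB' hq)) :
    r11g A N q M' B' k' hN hB' hq hqM' hA hN2 x = 0 ↔ ¬ IsUnit x := by
  rw [← s11g_eq_zero_iff A N q M' B' k' hN hB' hq x]
  constructor
  · intro h
    have := congrArg Subtype.val h
    rwa [coe_r11g] at this
  · intro h
    apply Subtype.ext
    rw [coe_r11g, h]
    rfl

end Gen

/-! ## The tower -/

section Tower

variable (A : ValuationSubring Kbar) (q M ℓ : ℕ) (B k B' k' : ℤ) (hB : B * M + k * q = 1)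
  (hB' : B' * ((M * ℓ : ℕ) : ℤ) + k' * q = 1) (hq : q.Prime)
  [NeZero M] [NeZero q] [NeZero ℓ] [NeZero (M * q * q)] [NeZero (M * q * q * ℓ)]

omit [NeZero M] [NeZero ℓ] [NeZero (M * q * q)] [NeZero (M * q * q * ℓ)] in
/-- An element of the inertia group moving the root of unity of the middle cusp of level `N` to
that of level `N ℓ`. -/
theorem exists_inertia_mid (hA : A.LiesOverPrime q) (hℓq : Nat.Coprime ℓ q)
    (hB : B * M + k * q = 1) (hB' : B' * ((M * ℓ : ℕ) : ℤ) + k' * q = 1) (hq : q.Prime) :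
    ∃ σ ∈ A.inertiaSubgroupIn ℚ, σ (zetaK q ^ B) = zetaK q ^ B' := by
  obtain ⟨m, -, hm⟩ := Nat.exists_mul_mod_eq_one_of_coprime hℓq hq.one_lt
  have hmq : m.Coprime q := by
    rw [Nat.coprime_comm, Nat.Prime.coprime_iff_not_dvd hq]
    intro hd
    have h0 : ℓ * m % q = 0 := Nat.mod_eq_zero_of_dvd (hd.mul_left ℓ)
    omega
  obtain ⟨σ, hσ, hσμ⟩ := exists_inertia_pow A q hq hA m hmq
  refine ⟨σ, hσ, ?_⟩
  have h1 : ℓ * m = 1 + q * (ℓ * m / q) := by
    have := Nat.div_add_mod (ℓ * m) q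
    omega
  rw [hσμ _ (zMid_pow q B), ← zMid_up_pow q M ℓ B k B' k' hB hB', ← pow_mul, h1, pow_add,
    pow_one, pow_mul, zMid_pow q B', one_pow, mul_one]

variable (hA : A.LiesOverPrime q) (hℓq : Nat.Coprime ℓ q)

include hB in
theorem cMup_alpha_of_mem (σ : Kbar ≃ₐ[ℚ] Kbar) (hσ : σ ∈ A.inertiaSubgroupIn ℚ)
    (hσz : σ (zetaK q ^ B) = zetaK q ^ B') (x : FN (M * q * q)) (hx : x ∈ L0 A (M * q * q)) :
    cMup q M ℓ B' k' hB' hq (heckeAlphaBar Kbar (M * q * q) ℓ x)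
      = coeffMap (σ : Kbar →+* Kbar) (cM q M B k hB hq x) := by
  have h := cMup_alpha_arith q M ℓ B k B' k' hB hB' hq σ hσz x
  rwa [hx σ hσ] at h

omit [NeZero M] [NeZero q] [NeZero ℓ] [NeZero (M * q * q)] [NeZero (M * q * q * ℓ)] in
theorem coeffMap_inv_cancel (σ : Kbar ≃ₐ[ℚ] Kbar) (y : LaurentSeries Kbar) :
    coeffMap ((σ⁻¹ : Kbar ≃ₐ[ℚ] Kbar) : Kbar →+* Kbar) (coeffMap (σ : Kbar →+* Kbar) y) = y := by
  rw [_root_.ModularCurve.coeffMap_coeffMap,
    coeffMap_congr (g := RingHom.id Kbar) (RingHom.ext fun a => σ.symm_apply_apply a) y,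
    coeffMap_id]

include hB hA hℓq in
/-- `α x ∈ V₁₁ (N ℓ) ↔ x ∈ V₁₁ (N)` for `x` fixed by inertia. -/
theorem alpha_mem_V11_iff (x : FN (M * q * q)) (hx : x ∈ L0 A (M * q * q)) :
    cMup q M ℓ B' k' hB' hq (heckeAlphaBar Kbar (M * q * q) ℓ x) ∈ gaussRingV A
      ↔ cM q M B k hB hq x ∈ gaussRingV A := by
  obtain ⟨σ, hσ, hσz⟩ := exists_inertia_mid A q M ℓ B k B' k' hA hℓq hB hB' hq
  rw [cMup_alpha_of_mem A q M ℓ B k B' k' hB hB' hq σ hσ hσz x hx]
  constructor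
  · intro h
    have h2 := Fermat.Agent.BAD.H91.coeffMap_mem_gaussRingV
      (Fermat.Agent.BAD.H91.inertialOn_of_mem_inertia A (inv_mem hσ)) h
    rwa [coeffMap_inv_cancel] at h2
  · exact Fermat.Agent.BAD.H91.coeffMap_mem_gaussRingV
      (Fermat.Agent.BAD.H91.inertialOn_of_mem_inertia A hσ)

include hB hA hℓq in
/-- The reduction at `V₁₁` of `α x` is that of `x`, for `x` fixed by inertia. -/
theorem red_alpha (x : FN (M * q * q)) (hx : x ∈ L0 A (M * q * q))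
    (h : cM q M B k hB hq x ∈ gaussRingV A)
    (h' : cMup q M ℓ B' k' hB' hq (heckeAlphaBar Kbar (M * q * q) ℓ x) ∈ gaussRingV A) :
    gaussRedV A ⟨cMup q M ℓ B' k' hB' hq (heckeAlphaBar Kbar (M * q * q) ℓ x), h'⟩
      = gaussRedV A ⟨cM q M B k hB hq x, h⟩ := by
  obtain ⟨σ, hσ, hσz⟩ := exists_inertia_mid A q M ℓ B k B' k' hA hℓq hB hB' hq
  have e := cMup_alpha_of_mem A q M ℓ B k B' k' hB hB' hq σ hσ hσz x hx
  have h'' : coeffMap (σ : Kbar →+* Kbar) (cM q M B k hB hq x) ∈ gaussRingV A := e ▸ h'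
  have e2 : (⟨cMup q M ℓ B' k' hB' hq (heckeAlphaBar Kbar (M * q * q) ℓ x), h'⟩ : gaussRingV A)
      = ⟨coeffMap (σ : Kbar →+* Kbar) (cM q M B k hB hq x), h''⟩ := Subtype.ext e
  rw [e2]
  exact Fermat.Agent.BAD.H91.gaussRedV_coeffMap
    (Fermat.Agent.BAD.H91.inertialOn_of_mem_inertia A hσ) h h''

include hB in
/-- `β` maps `V₁₁ (N)` into `V₁₁ (N ℓ)`. -/
theorem beta_mem_V11 (x : FN (M * q * q)) (h : cM q M B k hB hq x ∈ gaussRingV A) :
    cMup q M ℓ B' k' hB' hq (heckeBetaBar Kbar (M * q * q) ℓ x) ∈ gaussRingV A := by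
  rw [cMup_beta q M ℓ B k B' k' hB hB' hq x]
  exact Fermat.Agent.RED.H73.qExpand_mem_gaussRingV A ℓ h

include hB in
/-- The reduction at `V₁₁` of `β x`. -/
theorem red_beta (x : FN (M * q * q)) (h : cM q M B k hB hq x ∈ gaussRingV A)
    (h' : cMup q M ℓ B' k' hB' hq (heckeBetaBar Kbar (M * q * q) ℓ x) ∈ gaussRingV A) :
    gaussRedV A ⟨cMup q M ℓ B' k' hB' hq (heckeBetaBar Kbar (M * q * q) ℓ x), h'⟩
      = qExpand (kV A) ℓ (gaussRedV A ⟨cM q M B k hB hq x, h⟩) := by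
  have e := cMup_beta q M ℓ B k B' k' hB hB' hq x
  have h'' : qExpand Kbar ℓ (cM q M B k hB hq x) ∈ gaussRingV A := e ▸ h'
  have e2 : (⟨cMup q M ℓ B' k' hB' hq (heckeBetaBar Kbar (M * q * q) ℓ x), h'⟩ : gaussRingV A)
      = ⟨qExpand Kbar ℓ (cM q M B k hB hq x), h''⟩ := Subtype.ext e
  rw [e2]
  exact Fermat.Agent.RED.H73.gaussRedV_qExpand A ℓ ⟨_, h⟩ h''

end Tower

end Fermat.Agent.S59.LL.SQ.H35

end
end
-- ==== END Fermat.Agent.S59.LL.SQ.H35_MidRed

-- ==== BEGIN Fermat.Agent.S59.LL.SQ.H40_Step0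
section

/-!
# S59, package LL / SQ: STEP 0 (helper40)

`N = M q`, `q ∥ M` (so `q² ∥ N`).

* `suppConv` (**SUPP-CONV**, the converse of `HasSupport`): a nonzero `p`-torsion point of
  `J₀(M)(ℚ̄)` which is an eigenvector of the good Hecke operators with eigenvalues `t ℓ` gives a
  normalised eigenform of level `M` congruent to `t` modulo a maximal ideal over `p`
  (TORS-REL + CHAR-M, both landed).
* `step0` : if the eigenvector `x ∈ J₀(M q)[p]` is NOT `q`-new (`α_* x ≠ 0` or `β_* x ≠ 0`) its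
  system of eigenvalues occurs at level `M` (the degeneracy push-forwards commute with `T_ℓ`).
* `HasSqNewPartAt`, `Stmt_SqNew` : "BAD at `q²`" for `q`-NEW inertia-fixed eigenvectors only;
* `sqQ_of_new : Stmt_SqNew → Stmt_SqQ`.

So the geometric package SQ has to treat only `q`-new points: `x = [D]`, `p D = div h`, with
`N_α h`, `N_β h` `p`-th powers up to constants.
-/

set_option autoImplicit false
set_option linter.style.haveILetI false
set_option synthInstance.maxHeartbeats 400000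
set_option maxHeartbeats 1000000

noncomputable section

open AlgebraicCurve ModularCurve

namespace Fermat.Agent.S59.LL.SQ.H40

open Fermat.Agent.S44 Fermat.Agent.S59.LL Fermat.Agent.L.LiftEig Fermat.Agent.S36.H44
  Fermat.Agent.S35.H89

/-- **SUPP-CONV.** -/
theorem suppConv (p : ℕ) (hp : p.Prime) (M : ℕ) [NeZero M] (S : Finset ℕ) (t : ℕ → ℤ)
    (y : JZero M) (hy0 : y ≠ 0) (hyp : (p : ℤ) • y = 0)
    (hyT : ∀ ℓ : Nat.Primes, (ℓ : ℕ) ∉ S → ¬ (ℓ : ℕ) ∣ M → heckeOperatorBar M ℓ y = t ℓ • y) :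
    ∃ (g : CuspForm (CongruenceSubgroup.Gamma0 M) 2) (𝔪 : Ideal (integralClosure ℤ ℂ)),
      g.IsNormalizedEigenform ∧ 𝔪.IsMaximal ∧ (p : integralClosure ℤ ℂ) ∈ 𝔪 ∧
      ∀ ℓ : ℕ, ℓ.Prime → ℓ ∉ S → ¬ ℓ ∣ M →
        ∃ a : integralClosure ℤ ℂ, (a : ℂ) = ModularFormClass.qCoeff g ℓ ∧
          a - ((t ℓ : ℤ) : integralClosure ℤ ℂ) ∈ 𝔪 := by
  refine H46.stmt_CharM p hp M S t fun P hP => ?_
  have hyp' : p • y = 0 := by
    have := hyp
    rwa [natCast_zsmul] at this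
  have h1 : evalJ M ↑S P y = 0 := H37.stmt_TorsRel M ↑S P hP p hp.ne_zero y hyp'
  have h2 := Fermat.Agent.S43.Old.H75.red_lift_eq (AddMonoidHom.id (JZero M))
    (fun ℓ : GoodPrime M (↑S : Set ℕ) => heckeOperatorBar M ⟨ℓ.1, ℓ.2.1⟩)
    (fun ℓ : GoodPrime M (↑S : Set ℕ) => t ℓ.1)
    (fun ℓ u hu => by
      have hu' : u = 0 := hu
      rw [hu', map_zero]
      rfl)
    y
    (fun ℓ => hyT ⟨ℓ.1, ℓ.2.1⟩ (fun h => ℓ.2.2.2 (Finset.mem_coe.mpr h)) ℓ.2.2.1)
    P y 1 (one_smul ℤ _).symm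
  have h3 : evalt M ↑S t P • y = 0 := by
    have h4 : evalJ M ↑S P y = (evalt M ↑S t P * 1) • y := h2
    rw [h1, mul_one] at h4
    exact h4.symm
  exact Fermat.Agent.S43.Old.H75.dvd_of_smul_eq_zero hp hy0 hyp h3

/-- **STEP 0**: an eigenvector of level `M q` which is not `q`-new comes from level `M`. -/
theorem step0 (p : ℕ) (hp : p.Prime) (M q : ℕ) [NeZero M] [NeZero q] (hq : q.Prime)
    (S : Finset ℕ) (t : ℕ → ℤ) (x : JZero (M * q)) (hxp : (p : ℤ) • x = 0)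
    (hxT : ∀ ℓ : Nat.Primes, (ℓ : ℕ) ∉ S → ¬ (ℓ : ℕ) ∣ M * q → (ℓ : ℕ) ≠ p →
      heckeOperatorBar (M * q) ℓ x = t ℓ • x)
    (hnew : ¬ IsQNew M q x) :
    ∃ (g : CuspForm (CongruenceSubgroup.Gamma0 M) 2) (𝔪 : Ideal (integralClosure ℤ ℂ)),
      g.IsNormalizedEigenform ∧ 𝔪.IsMaximal ∧ (p : integralClosure ℤ ℂ) ∈ 𝔪 ∧
      ∀ ℓ : ℕ, ℓ.Prime → ℓ ∉ S → ¬ ℓ ∣ M * q → ℓ ≠ p →
        ∃ a : integralClosure ℤ ℂ, (a : ℂ) = ModularFormClass.qCoeff g ℓ ∧
          a - ((t ℓ : ℤ) : integralClosure ℤ ℂ) ∈ 𝔪 := by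
  classical
  -- one of the two push-forwards is nonzero
  have hne : alphaPush M q x ≠ 0 ∨ betaPush M q x ≠ 0 := by
    by_contra h
    push Not at h
    exact hnew (isQNew_of_push M q x h.1 h.2)
  -- the enlarged exceptional set
  set S' : Finset ℕ := insert p (insert q S) with hS'
  have hS'1 : ∀ ℓ : ℕ, ℓ ∉ S' → ℓ ∉ S ∧ ℓ ≠ p ∧ ℓ ≠ q := by
    intro ℓ hℓ
    rw [hS', Finset.mem_insert, Finset.mem_insert] at hℓ
    push Not at hℓ
    exact ⟨hℓ.2.2, hℓ.1, hℓ.2.1⟩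
  have hdvd : ∀ ℓ : ℕ, ℓ.Prime → ℓ ≠ q → ¬ ℓ ∣ M → ¬ ℓ ∣ M * q := by
    intro ℓ hℓ hℓq hℓM h
    rcases (Nat.Prime.dvd_mul hℓ).1 h with h | h
    · exact hℓM h
    · exact hℓq ((Nat.prime_dvd_prime_iff_eq hℓ hq).1 h)
  have key : ∀ (π : JZero (M * q) →+ JZero M),
      (∀ (ℓ : Nat.Primes), ¬ (ℓ : ℕ) ∣ M * q → ∀ x : JZero (M * q),
        π (heckeOperatorBar (M * q) ℓ x) = heckeOperatorBar M ℓ (π x)) →
      π x ≠ 0 →
      ∃ (g : CuspForm (CongruenceSubgroup.Gamma0 M) 2) (𝔪 : Ideal (integralClosure ℤ ℂ)),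
        g.IsNormalizedEigenform ∧ 𝔪.IsMaximal ∧ (p : integralClosure ℤ ℂ) ∈ 𝔪 ∧
        ∀ ℓ : ℕ, ℓ.Prime → ℓ ∉ S → ¬ ℓ ∣ M * q → ℓ ≠ p →
          ∃ a : integralClosure ℤ ℂ, (a : ℂ) = ModularFormClass.qCoeff g ℓ ∧
            a - ((t ℓ : ℤ) : integralClosure ℤ ℂ) ∈ 𝔪 := by
    intro π hπ hπx
    have hyp : (p : ℤ) • π x = 0 := by rw [← map_zsmul, hxp, map_zero]
    obtain ⟨g, 𝔪, hg, h𝔪, hp𝔪, hc⟩ := suppConv p hp M S' t (π x) hπx hyp (by
      intro ℓ hℓS' hℓM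
      obtain ⟨hℓS, hℓp, hℓq⟩ := hS'1 ℓ hℓS'
      have hℓMq := hdvd ℓ ℓ.2 hℓq hℓM
      rw [← hπ ℓ hℓMq x, hxT ℓ hℓS hℓMq hℓp, map_zsmul])
    refine ⟨g, 𝔪, hg, h𝔪, hp𝔪, fun ℓ hℓ hℓS hℓMq hℓp => ?_⟩
    have hℓq : ℓ ≠ q := by
      rintro rfl
      exact hℓMq (dvd_mul_left _ _)
    have hℓM : ¬ ℓ ∣ M := fun h => hℓMq (h.mul_right q)
    refine hc ℓ hℓ ?_ hℓM
    rw [hS', Finset.mem_insert, Finset.mem_insert]
    push Not
    exact ⟨hℓp, hℓq, hℓS⟩
  rcases hne with h | h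
  · exact key (alphaPush M q) (fun ℓ hℓ x => alphaPush_hecke M q ℓ hℓ x) h
  · exact key (betaPush M q) (fun ℓ hℓ x => betaPush_hecke M q ℓ hℓ x) h

/-- **BAD at `q²` for `q`-new points**, level `M q`, `q ∥ M`: a nonzero `q`-new `p`-torsion point,
fixed by the inertia group of `A`, eigenvector of the good Hecke operators with a non-Eisenstein
system of eigenvalues `t`: then `t` comes from level `M`. -/
def HasSqNewPartAt (p M q : ℕ) [NeZero M] [NeZero q]
    (A : ValuationSubring (AlgebraicClosure ℚ)) : Prop :=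
  ∀ (S : Finset ℕ) (t : ℕ → ℤ) (x : JZero (M * q)), x ≠ 0 → (p : ℤ) • x = 0 →
    IsQNew M q x →
    (∀ σ ∈ A.inertiaSubgroupIn ℚ, σ • x = x) →
    (∀ ℓ : Nat.Primes, (ℓ : ℕ) ∉ S → ¬ (ℓ : ℕ) ∣ M * q → (ℓ : ℕ) ≠ p →
      heckeOperatorBar (M * q) ℓ x = t ℓ • x) →
    (∃ ℓ : ℕ, ℓ.Prime ∧ ℓ ∉ S ∧ ¬ ℓ ∣ M * q ∧ ℓ ≠ p ∧
      ((t ℓ : ℤ) : ZMod p) ≠ 1 + (ℓ : ZMod p)) →
    ∃ (g : CuspForm (CongruenceSubgroup.Gamma0 M) 2) (𝔪 : Ideal (integralClosure ℤ ℂ)),
      g.IsNormalizedEigenform ∧ 𝔪.IsMaximal ∧ (p : integralClosure ℤ ℂ) ∈ 𝔪 ∧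
      ∀ ℓ : ℕ, ℓ.Prime → ℓ ∉ S → ¬ ℓ ∣ M * q → ℓ ≠ p →
        ∃ a : integralClosure ℤ ℂ, (a : ℂ) = ModularFormClass.qCoeff g ℓ ∧
          a - ((t ℓ : ℤ) : integralClosure ℤ ℂ) ∈ 𝔪

/-- **Package SQ, reduced form**: only `q`-new points. -/
def Stmt_SqNew : Prop :=
  ∀ (p : ℕ), p.Prime → p ≠ 2 → ∀ (M q : ℕ) [NeZero M] [NeZero q], q.Prime → q ≠ p →
    q ∣ M → ¬ q ^ 2 ∣ M →
    ∀ A : ValuationSubring (AlgebraicClosure ℚ), A.LiesOverPrime q → HasSqNewPartAt p M q A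

/-- The point underlying `c • x`, `c` an integer. -/
theorem pt_intCast_smul (N p : ℕ) [NeZero N] (k : ℤ) (x : (jzModule N p).J) :
    jzModule.pt N p (((k : ℤ) : ZMod p) • x) = k • jzModule.pt N p x := by
  rw [Int.cast_smul_eq_zsmul]
  rfl

/-- **The package SQ from its `q`-new part** (STEP 0). -/
theorem sqQ_of_new (h : Stmt_SqNew) : Stmt_SqQ := by
  intro p hp hp2 N hN q hq hqp hq2 hq3 A hA
  have hqN : q ∣ N := (dvd_pow_self q two_ne_zero).trans hq2
  obtain ⟨M, rfl⟩ : ∃ M, N = M * q := ⟨N / q, (Nat.div_mul_cancel hqN).symm⟩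
  have hM0 : M ≠ 0 := by
    rintro rfl
    exact hN.out (zero_mul q)
  haveI : NeZero M := ⟨hM0⟩
  haveI : NeZero q := ⟨hq.ne_zero⟩
  have hqM : q ∣ M := by
    rw [pow_two] at hq2
    exact (Nat.mul_dvd_mul_iff_right hq.pos).1 hq2
  have hq2M : ¬ q ^ 2 ∣ M := by
    intro hd
    apply hq3
    rw [pow_succ]
    exact Nat.mul_dvd_mul hd dvd_rfl
  have hdiv : M * q / q = M := Nat.mul_div_cancel M hq.pos
  intro S t x hx0 hI hT hNE
  have hx0' : jzModule.pt (M * q) p x ≠ 0 := fun h0 =>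
    hx0 (jzModule.pt_injective (M * q) p (by rw [h0]; rfl))
  have hxp : (p : ℤ) • jzModule.pt (M * q) p x = 0 := jzModule.pt_torsion (M * q) p x
  have hxT : ∀ ℓ : Nat.Primes, (ℓ : ℕ) ∉ S → ¬ (ℓ : ℕ) ∣ M * q → (ℓ : ℕ) ≠ p →
      heckeOperatorBar (M * q) ℓ (jzModule.pt (M * q) p x) = t ℓ • jzModule.pt (M * q) p x := by
    intro ℓ hℓS hℓN hℓp
    have h1 := jzModule.pt_T (M * q) p ℓ.2 hℓN x
    have h2 : heckeOperatorBar (M * q) ℓ (jzModule.pt (M * q) p x)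
        = jzModule.pt (M * q) p ((jzModule (M * q) p).T ℓ x) := h1.symm
    rw [h2, hT ℓ ℓ.2 hℓS hℓN hℓp, pt_intCast_smul]
  have hconcl : ∃ (g : CuspForm (CongruenceSubgroup.Gamma0 M) 2)
      (𝔪 : Ideal (integralClosure ℤ ℂ)),
      g.IsNormalizedEigenform ∧ 𝔪.IsMaximal ∧ (p : integralClosure ℤ ℂ) ∈ 𝔪 ∧
      ∀ ℓ : ℕ, ℓ.Prime → ℓ ∉ S → ¬ ℓ ∣ M * q → ℓ ≠ p →
        ∃ a : integralClosure ℤ ℂ, (a : ℂ) = ModularFormClass.qCoeff g ℓ ∧
          a - ((t ℓ : ℤ) : integralClosure ℤ ℂ) ∈ 𝔪 := by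
    by_cases hnew : IsQNew M q (jzModule.pt (M * q) p x)
    · refine h p hp hp2 M q hq hqp hqM hq2M A hA S t (jzModule.pt (M * q) p x) hx0' hxp hnew
        (fun σ hσ => ?_) hxT hNE
      rw [← jzModule.pt_gal, hI σ hσ]
    · exact step0 p hp M q hq S t (jzModule.pt (M * q) p x) hxp hxT hnew
  rw [hdiv]
  exact hconcl

end Fermat.Agent.S59.LL.SQ.H40

end
end
-- ==== END Fermat.Agent.S59.LL.SQ.H40_Step0

-- ==== BEGIN Fermat.Agent.S59.LL.SQ.H46_ExistsGlue
section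

/-!
# S59, package LL / SQ, step (T′), leaf G3 EXISTS-GLUE (helper46)

Abstract, on any `NUData D` (helper79) with helper40's `GlueData`:

* `exists_glueData` : a unit `H` for the three valuations whose reductions are `c · G i ^ n`
  (`c ≠ 0`, `n ≠ 0`) and which has local generators at the triple points has gluing invariants
  `(a, b)`, with values in `μ_n` on the triple points;
* `glueData_pow_exp` : `GlueData D n H a b → GlueData D (n * m) (H ^ m) a b` for `m ≠ 0`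
  (same roots `G`, same local generators, same gluing invariants).
-/

set_option autoImplicit false
set_option linter.style.haveILetI false

noncomputable section

open AlgebraicCurve

attribute [local instance] Classical.propDecidable

namespace Fermat.Agent.S59.LL.SQ.H46

open Fermat.Agent.RED.H17 Fermat.Agent.RED Fermat.Agent.BAD.H79 Fermat.Agent.BAD
  Fermat.Agent.S36.NU.H79 Fermat.Agent.S59.LL.SQ.H40

variable {K L₀ L k ι Z : Type*} {E : ι → Type*} {K' L' L₁ L₂ : Type*}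
  [Field K] [Field L₀] [Field L] [Algebra K L] [Algebra L₀ L] [Field k] [Fintype ι]
  [∀ i, Field (E i)] [∀ i, Algebra k (E i)] [Field K'] [Field L'] [Algebra K' L']
  [Field L₁] [Algebra k L₁] [Field L₂] [Algebra k L₂]

/-! ## Roots of values -/

section Root

variable {F : Type*} [Field F] [Algebra k F]

/-- If `c · w ^ n` takes the non-zero value `τ` at a point of degree one (`c ≠ 0`, `n ≠ 0`),
then `w` takes a value `u` there, with `u ^ n = c⁻¹ τ`. -/
theorem exists_root_value (v : Place k F) (hdeg : v.deg = 1) {n : ℕ} (hn : n ≠ 0) {c τ : k}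
    (hc : c ≠ 0) (hτ : τ ≠ 0) {w : F} (h : HasValue v (algebraMap k F c * w ^ n) τ) :
    ∃ u : k, u ≠ 0 ∧ u ^ n = c⁻¹ * τ ∧ HasValue v w u := by
  have hc' : algebraMap k F c ≠ 0 := (map_ne_zero (algebraMap k F)).2 hc
  have h1 : HasValue v (w ^ n) (c⁻¹ * τ) := by
    have h2 := h.const_mul c⁻¹
    have e : algebraMap k F c⁻¹ * (algebraMap k F c * w ^ n) = w ^ n := by
      rw [map_inv₀, ← mul_assoc, inv_mul_cancel₀ hc', one_mul]
    rwa [e] at h2
  have hne : c⁻¹ * τ ≠ 0 := mul_ne_zero (inv_ne_zero hc) hτ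
  have h3 : v.ord (w ^ n) = 0 := h1.ord_eq_zero hne
  rw [ord_pow] at h3
  have h4 : v.ord w = 0 := by
    rcases mul_eq_zero.mp h3 with h5 | h5
    · exact absurd (by exact_mod_cast h5) hn
    · exact h5
  have hreg : RegAt v w := regAt_of_ord_nonneg h4.ge
  obtain ⟨u, hu⟩ := exists_value v hdeg hreg
  have hu' : HasValue v w u := hu
  have h6 : u ^ n = c⁻¹ * τ := (hu'.pow n).unique h1
  refine ⟨u, ?_, h6, hu'⟩
  intro h0
  rw [h0, zero_pow hn] at h6
  exact hne h6.symm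

end Root

variable (D : NUData K L₀ L k ι Z E K' L' L₁ L₂)

/-! ## Existence of the gluing invariants -/

/-- The gluing invariants at one triple point. -/
theorem exists_glueAt [Infinite k] (hP : HasPrincipalDivisors K L) {n : ℕ} (hn : n ≠ 0)
    {H : L₀} (hu : ∀ i, D.T.rdN i H ≠ 0) {c : k} (hc : c ≠ 0) {G : ∀ i, E i}
    (hG : ∀ i, D.T.rdN i H = algebraMap k (E i) c * G i ^ n) {z : Z} (hz : z ∈ D.SS)
    {s : L₀} (hs : D.IsGen n z H s) :
    ∃ a b : k, a ≠ 0 ∧ b ≠ 0 ∧ a ^ n = 1 ∧ b ^ n = 1 ∧ GlueAt D n H G z a b := by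
  have hH : H ≠ 0 := ne_zero_of_rdN D.T (hu D.i₂₀)
  -- `t = H s ^ n` is a unit without zero or pole on the fibre of `z`
  have htu : ∀ i, D.T.rdN i (H * s ^ n) ≠ 0 := fun i =>
    rdN_mul_ne_zero D.T (hu i) (rdN_pow_ne_zero D.T (hs.1 i) n)
  obtain ⟨τ, hτ0, hτ⟩ := exists_common_value D hP hz htu hs.2
  -- the reductions of `t`
  have hrd : ∀ i, D.T.rdN i (H * s ^ n)
      = algebraMap k (E i) c * (G i * D.T.rdN i s) ^ n := by
    intro i
    rw [D.T.rdN_mul (D.T.mem_of_rdN_ne_zero (hu i))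
      (D.T.mem_of_rdN_ne_zero (rdN_pow_ne_zero D.T (hs.1 i) n)),
      D.T.rdN_pow (D.T.mem_of_rdN_ne_zero (hs.1 i)), hG i, mul_pow, mul_assoc]
  have hval : ∀ i, ∃ u : k, u ≠ 0 ∧ u ^ n = c⁻¹ * τ ∧
      HasValue (D.T.pt i z) (G i * D.T.rdN i s) u := by
    intro i
    have h1 := hτ i
    rw [hrd i] at h1
    exact exists_root_value (D.T.pt i z) (D.deg_one z hz i) hn hc hτ0 h1
  obtain ⟨u₀, hu₀, hp₀, hv₀⟩ := hval D.i₂₀
  obtain ⟨u₁, hu₁, hp₁, hv₁⟩ := hval D.i₁₁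
  obtain ⟨u₂, hu₂, hp₂, hv₂⟩ := hval D.i₀₂
  have hpow0 : u₀ ^ n ≠ 0 := pow_ne_zero n hu₀
  refine ⟨u₁ / u₀, u₂ / u₀, div_ne_zero hu₁ hu₀, div_ne_zero hu₂ hu₀, ?_, ?_, ?_⟩
  · rw [div_pow, hp₁, ← hp₀, div_self hpow0]
  · rw [div_pow, hp₂, ← hp₀, div_self hpow0]
  · refine glueAt_of_gen D hP hn hH G hz hs hu₀ hv₀ ?_ ?_
    · rw [div_mul_cancel₀ _ hu₀]; exact hv₁
    · rw [div_mul_cancel₀ _ hu₀]; exact hv₂

/-- **EXISTS-GLUE**: a unit for the three valuations whose reductions are a common constant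
times `n`-th powers and which has local generators at the triple points has gluing invariants,
with values in `μ_n` on the triple points. -/
theorem exists_glueData [Infinite k] (hP : HasPrincipalDivisors K L) {n : ℕ} {H : L₀}
    {c : k} {G : ∀ i, E i} (hu : ∀ i, D.T.rdN i H ≠ 0)
    (hG : ∀ i, D.T.rdN i H = algebraMap k (E i) c * G i ^ n) (hc : c ≠ 0) (hn : n ≠ 0)
    (hgen : ∀ z ∈ D.SS, ∃ s, D.IsGen n z H s) :
    ∃ a b : Z → k, GlueData D n H a b ∧ ∀ z ∈ D.SS, a z ^ n = 1 ∧ b z ^ n = 1 := by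
  have key : ∀ z : Z, ∃ a b : k, z ∈ D.SS →
      (a ≠ 0 ∧ b ≠ 0 ∧ a ^ n = 1 ∧ b ^ n = 1 ∧ GlueAt D n H G z a b) := by
    intro z
    by_cases hz : z ∈ D.SS
    · obtain ⟨s, hs⟩ := hgen z hz
      obtain ⟨a, b, h⟩ := exists_glueAt D hP hn hu hc hG hz hs
      exact ⟨a, b, fun _ => h⟩
    · exact ⟨1, 1, fun h => absurd h hz⟩
  choose a b hab using key
  refine ⟨a, b, ⟨hu, hgen, fun z hz => ⟨(hab z hz).1, (hab z hz).2.1⟩,
    c, G, hc, hG, fun z hz => (hab z hz).2.2.2.2⟩,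
    fun z hz => ⟨(hab z hz).2.2.1, (hab z hz).2.2.2.1⟩⟩

/-! ## Powers -/

variable {D}

/-- A local generator of `H` for the exponent `n` is a local generator of `H ^ m` for the
exponent `n * m`. -/
theorem isGen_pow_exp {n : ℕ} (m : ℕ) {z : Z} {H s : L₀} (h : D.IsGen n z H s) :
    D.IsGen (n * m) z (H ^ m) s := by
  refine ⟨h.1, fun P hPz => ?_⟩
  have e : H ^ m * s ^ (n * m) = (H * s ^ n) ^ m := by rw [mul_pow, pow_mul]
  rw [e, map_pow, ord_pow, h.2 P hPz, mul_zero]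

/-- **POW-EXP**: the gluing data of `H ^ m` for the exponent `n * m` (same roots, same local
generators, same gluing invariants). -/
theorem glueData_pow_exp [Infinite k] (hP : HasPrincipalDivisors K L) {n m : ℕ} (hm : m ≠ 0)
    {H : L₀} {a b : Z → k} (h : GlueData D n H a b) :
    GlueData D (n * m) (H ^ m) a b := by
  obtain ⟨c, G, hc, hG, hgl⟩ := h.glue
  have hH : H ≠ 0 := h.H_ne_zero
  refine ⟨fun i => rdN_pow_ne_zero D.T (h.unit i) m, fun z hz => ?_, h.ne, c ^ m, G,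
    pow_ne_zero m hc, fun i => ?_, fun z hz => ?_⟩
  · obtain ⟨s, hs⟩ := h.gen z hz
    exact ⟨s, isGen_pow_exp m hs⟩
  · rw [D.T.rdN_pow (D.T.mem_of_rdN_ne_zero (h.unit i)), hG i, mul_pow, map_pow, pow_mul]
  · by_cases hn : n = 0
    · -- exponent `0`: the local generators of `H ^ m` are those of `H`
      subst hn
      intro s hs
      have hs' : D.IsGen 0 z H s := by
        refine ⟨hs.1, fun P hPz => ?_⟩
        have h1 := hs.2 P hPz
        rw [zero_mul, pow_zero, mul_one, map_pow, ord_pow] at h1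
        rw [pow_zero, mul_one]
        rcases mul_eq_zero.mp h1 with h2 | h2
        · exact absurd (by exact_mod_cast h2) hm
        · exact h2
      exact hgl z hz s hs'
    · obtain ⟨s, hs⟩ := h.gen z hz
      obtain ⟨u, hu, h20, h11, h02⟩ := hgl z hz s hs
      exact glueAt_of_gen D hP (mul_ne_zero hn hm) (pow_ne_zero m hH) G hz
        (isGen_pow_exp m hs) hu h20 h11 h02

end Fermat.Agent.S59.LL.SQ.H46

end
end
-- ==== END Fermat.Agent.S59.LL.SQ.H46_ExistsGlue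

-- ==== BEGIN Fermat.Agent.S59.LL.SQ.H50_SpanUp
section

/-!
# S59 / LL / SQ, leaf U2 SPAN-UP (helper50)

Levels `a ∣ c` (lower row), `a q ∣ c q` (upper row), `q` prime, `q ∣ a`,
`lcm (a q, c) = c q` (e.g. `c = a r`, `q ∤ r`).  In the square

```
   F_a   --α_q, β_q-->  F_{a q}
    | ι₁                   | ι₂
   F_c   --α_q, β_q-->  F_{c q}
```

* `norm_alpha_bc`, `norm_beta_bc` : base change of the norms along `ι` :
  `α (N_{ι₁} f) = N_{ι₂} (α' f)`, `β (N_{ι₁} f) = N_{ι₂} (β' f)`;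
* `push_pull_alpha`, `push_pull_beta` : `ι₂_* α'^* = α^* ι₁_*`, `ι₂_* β'^* = β^* ι₁_*` on divisors;
* `spanUp` : **U2**: `ι₂^* x = α'^* y + β'^* y'  ⟹  [F_{cq} : F_{aq}] • x = α^* (ι₁_* y) + β^* (ι₁_* y')`;
* `spanUp_tors` : the descent of the conclusion of `TorSpanSqAt` for `p ∤ [F_{cq} : F_{aq}]`.
-/

set_option autoImplicit false
set_option linter.style.haveILetI false
set_option linter.unusedSectionVars false
set_option linter.unusedVariables false

noncomputable section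

namespace Fermat.Agent.S59.LL.SQ.H50

open AlgebraicCurve ModularCurve Fermat.Agent.S24 Fermat.Agent.Lib.HeckeComm
  Fermat.Agent.S36.H44 Fermat.Agent.S36.NU.H44 Fermat.Agent.NEB.H14

local notation "Kb" => AlgebraicClosure ℚ

section Square

variable (a c q : ℕ) [NeZero a] [NeZero c] [NeZero q] (hac : a ∣ c)

/-- `ι₁ : F_a ⊂ F_c`. -/
def inclL : FN a →ₐ[Kb] FN c := inclFN a c hac

/-- `ι₂ : F_{a q} ⊂ F_{c q}`. -/
def inclU : FN (a * q) →ₐ[Kb] FN (c * q) := inclFN (a * q) (c * q) (Nat.mul_dvd_mul_right hac q)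

theorem coe_inclL (x : FN a) : (inclL a c hac x : LaurentSeries Kb) = (x : LaurentSeries Kb) :=
  coe_inclFN _ _ _ x

theorem coe_inclU (x : FN (a * q)) :
    (inclU a c q hac x : LaurentSeries Kb) = (x : LaurentSeries Kb) :=
  coe_inclFN _ _ _ x

/-- `lcm (a q, c) = c q` for `c = a r`, `q ∤ r`. -/
theorem lcm_of_mul {r : ℕ} (hq : q.Prime) (hc : c = a * r) (hqr : ¬ q ∣ r) :
    ∀ n : ℤ, ((a * q : ℕ) : ℤ) ∣ n → (c : ℤ) ∣ n → ((c * q : ℕ) : ℤ) ∣ n := by
  subst hc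
  intro n h1 h2
  have ha0 : (a : ℤ) ≠ 0 := by exact_mod_cast NeZero.ne a
  obtain ⟨u, rfl⟩ : (a : ℤ) ∣ n := dvd_trans ⟨(q : ℤ), by push_cast; ring⟩ h1
  have h1' : (q : ℤ) ∣ u := by
    have : (a : ℤ) * q ∣ a * u := by simpa using h1
    exact (mul_dvd_mul_iff_left ha0).1 this
  have h2' : (r : ℤ) ∣ u := by
    have : (a : ℤ) * r ∣ a * u := by simpa using h2
    exact (mul_dvd_mul_iff_left ha0).1 this
  have hcop : IsCoprime (r : ℤ) (q : ℤ) :=
    Nat.isCoprime_iff_coprime.2 ((Nat.Prime.coprime_iff_not_dvd hq).2 hqr).symm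
  have h3 : (r : ℤ) * q ∣ u := hcop.mul_dvd h2' h1'
  obtain ⟨v, rfl⟩ := h3
  exact ⟨v, by push_cast; ring⟩

/-- The degrees of `ι₁` and `ι₂` agree, for a prime `q ∣ a`. -/
theorem finrank_inclU_eq (hq : q.Prime) (hqa : q ∣ a) :
    finrankHom (inclU a c q hac).toRingHom = finrankHom (inclL a c hac).toRingHom := by
  have h1 := stmt_Deg a c hac
  have h2 := stmt_Deg (a * q) (c * q) (Nat.mul_dvd_mul_right hac q)
  unfold Stmt_Deg at h1 h2
  rw [Fermat.Agent.S36.NU.H82.dedekindPsi_mul_of_dvd hq (NeZero.ne a) hqa,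
    Fermat.Agent.S36.NU.H82.dedekindPsi_mul_of_dvd hq (NeZero.ne c) (hqa.trans hac), ← h1] at h2
  have hq0 : 0 < q * dedekindPsi a := Nat.mul_pos hq.pos (dedekindPsi_pos_h2 a)
  have h3 : finrankHom (inclU a c q hac).toRingHom * (q * dedekindPsi a)
      = finrankHom (inclL a c hac).toRingHom * (q * dedekindPsi a) := by
    rw [show finrankHom (inclL a c hac).toRingHom * (q * dedekindPsi a)
      = q * (finrankHom (inclL a c hac).toRingHom * dedekindPsi a) by ring]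
    exact h2
  exact Nat.eq_of_mul_eq_mul_right hq0 h3

variable (hlcm : ∀ n : ℤ, ((a * q : ℕ) : ℤ) ∣ n → (c : ℤ) ∣ n → ((c * q : ℕ) : ℤ) ∣ n)

include hlcm in
/-- **Base change of the norm of `ι` along `α_q`.** -/
theorem norm_alpha_bc (hq : q.Prime) (hqa : q ∣ a) (f : FN c) :
    heckeAlphaBar Kb a q (normAlongHom (inclL a c hac).toRingHom f)
      = normAlongHom (inclU a c q hac).toRingHom (heckeAlphaBar Kb c q f) := by
  refine normAlongHom_baseChange (inclL a c hac).toRingHom (inclU a c q hac).toRingHom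
    (heckeAlphaBar Kb a q).toRingHom (heckeAlphaBar Kb c q).toRingHom ?_
    (stmt_Fin a c hac) (stmt_Fin (a * q) (c * q) (Nat.mul_dvd_mul_right hac q))
    (jdF c c dvd_rfl) (stmt_GenJ a c hac) ?_ ?_ f
  · intro x
    apply Subtype.ext
    simp only [AlgHom.toRingHom_eq_coe, RingHom.coe_coe, coe_heckeAlphaBar, coe_inclU,
      coe_inclL]
  · have e : (heckeAlphaBar Kb c q).toRingHom (jdF c c dvd_rfl)
        = jdF (c * q) c (dvd_mul_right c q) :=
      inclFN_jdF c (c * q) (dvd_mul_right c q) c dvd_rfl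
    rw [e]
    exact adjoin_FN_jdF_of_lcm (a * q) c (c * q) (Nat.mul_dvd_mul_right hac q)
      (dvd_mul_right c q) hlcm
  · exact (finrank_inclU_eq a c q hac hq hqa).symm

include hlcm in
/-- **Base change of the norm of `ι` along `β_q`.** -/
theorem norm_beta_bc (hq : q.Prime) (hqa : q ∣ a) (f : FN c) :
    heckeBetaBar Kb a q (normAlongHom (inclL a c hac).toRingHom f)
      = normAlongHom (inclU a c q hac).toRingHom (heckeBetaBar Kb c q f) := by
  refine normAlongHom_baseChange (inclL a c hac).toRingHom (inclU a c q hac).toRingHom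
    (heckeBetaBar Kb a q).toRingHom (heckeBetaBar Kb c q).toRingHom ?_
    (stmt_Fin a c hac) (stmt_Fin (a * q) (c * q) (Nat.mul_dvd_mul_right hac q))
    (jdF c c dvd_rfl) (stmt_GenJ a c hac) ?_ ?_ f
  · intro x
    apply Subtype.ext
    simp only [AlgHom.toRingHom_eq_coe, RingHom.coe_coe, coe_heckeBetaBar, coe_inclU,
      coe_inclL]
  · have e : (heckeBetaBar Kb c q).toRingHom (jdF c c dvd_rfl)
        = jdF (c * q) (c * q) dvd_rfl := by
      apply Subtype.ext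
      simp only [AlgHom.toRingHom_eq_coe, RingHom.coe_coe, coe_heckeBetaBar,
        Fermat.Agent.RED.H95.coe_jdF, qExpand_qExpand]
      exact qExpand_congr (mul_comm q c) _
    rw [e]
    exact stmt_GenJ (a * q) (c * q) (Nat.mul_dvd_mul_right hac q)
  · exact (finrank_inclU_eq a c q hac hq hqa).symm

include hlcm in
/-- `ι₂_* α'^* = α^* ι₁_*` on divisors. -/
theorem push_pull_alpha (hq : q.Prime) (hqa : q ∣ a) :
    (pushD (inclU a c q hac)).comp (pullD (heckeAlphaBar Kb c q))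
      = (pullD (heckeAlphaBar Kb a q)).comp (pushD (inclL a c hac)) := by
  haveI := hasPD (isFF_FN c)
  refine ((isCorr_pushD (isFF_FN (a * q)) (isFF_FN (c * q)) (inclU a c q hac)).comp
    (isCorr_pullD (isFF_FN c) (isFF_FN (c * q)) (heckeAlphaBar Kb c q))).eq
    ((isCorr_pullD (isFF_FN a) (isFF_FN (a * q)) (heckeAlphaBar Kb a q)).comp
      (isCorr_pushD (isFF_FN a) (isFF_FN c) (inclL a c hac))) (fun f _ => ?_)
  exact (norm_alpha_bc a c q hac hlcm hq hqa f).symm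

include hlcm in
/-- `ι₂_* β'^* = β^* ι₁_*` on divisors. -/
theorem push_pull_beta (hq : q.Prime) (hqa : q ∣ a) :
    (pushD (inclU a c q hac)).comp (pullD (heckeBetaBar Kb c q))
      = (pullD (heckeBetaBar Kb a q)).comp (pushD (inclL a c hac)) := by
  haveI := hasPD (isFF_FN c)
  refine ((isCorr_pushD (isFF_FN (a * q)) (isFF_FN (c * q)) (inclU a c q hac)).comp
    (isCorr_pullD (isFF_FN c) (isFF_FN (c * q)) (heckeBetaBar Kb c q))).eq
    ((isCorr_pullD (isFF_FN a) (isFF_FN (a * q)) (heckeBetaBar Kb a q)).comp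
      (isCorr_pushD (isFF_FN a) (isFF_FN c) (inclL a c hac))) (fun f _ => ?_)
  exact (norm_beta_bc a c q hac hlcm hq hqa f).symm

include hlcm in
/-- `ι₂_* α'^* = α^* ι₁_*` on `Pic⁰`. -/
theorem pushP_pullP_alpha (hq : q.Prime) (hqa : q ∣ a) (y : JZero c) :
    pushP (inclU a c q hac) (pullP (heckeAlphaBar Kb c q) y)
      = pullP (heckeAlphaBar Kb a q) (pushP (inclL a c hac) y) := by
  have h1 := picMap_comp
    (isCorr_pushD (isFF_FN (a * q)) (isFF_FN (c * q)) (inclU a c q hac)).isGood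
    (isCorr_pullD (isFF_FN c) (isFF_FN (c * q)) (heckeAlphaBar Kb c q)).isGood
  have h2 := picMap_comp
    (isCorr_pullD (isFF_FN a) (isFF_FN (a * q)) (heckeAlphaBar Kb a q)).isGood
    (isCorr_pushD (isFF_FN a) (isFF_FN c) (inclL a c hac)).isGood
  rw [push_pull_alpha a c q hac hlcm hq hqa, h2] at h1
  exact (DFunLike.congr_fun h1 y).symm

include hlcm in
/-- `ι₂_* β'^* = β^* ι₁_*` on `Pic⁰`. -/
theorem pushP_pullP_beta (hq : q.Prime) (hqa : q ∣ a) (y : JZero c) :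
    pushP (inclU a c q hac) (pullP (heckeBetaBar Kb c q) y)
      = pullP (heckeBetaBar Kb a q) (pushP (inclL a c hac) y) := by
  have h1 := picMap_comp
    (isCorr_pushD (isFF_FN (a * q)) (isFF_FN (c * q)) (inclU a c q hac)).isGood
    (isCorr_pullD (isFF_FN c) (isFF_FN (c * q)) (heckeBetaBar Kb c q)).isGood
  have h2 := picMap_comp
    (isCorr_pullD (isFF_FN a) (isFF_FN (a * q)) (heckeBetaBar Kb a q)).isGood
    (isCorr_pushD (isFF_FN a) (isFF_FN c) (inclL a c hac)).isGood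
  rw [push_pull_beta a c q hac hlcm hq hqa, h2] at h1
  exact (DFunLike.congr_fun h1 y).symm

end Square

/-! ## Bridge: `H40.pic0Pull = pullP` -/

section Bridge

/-- The pull-back of helper40 is the pull-back of helper14. -/
theorem pic0Pull_eq_pullP (M N : ℕ) [NeZero M] [NeZero N] (φ : FN M →ₐ[Kb] FN N)
    (hφ : φ.toRingHom.IsIntegral)
    (hFI : haveI := H40.hasPD_FN N; FundamentalIdentityAlong Kb φ hφ) :
    haveI := H40.hasPD_FN N
    H40.pic0Pull φ hφ hFI = pullP φ := by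
  haveI := H40.hasPD_FN N
  refine AddMonoidHom.ext fun x => ?_
  obtain ⟨D, rfl⟩ := Pic0.mk_surjective x
  rw [H40.pic0Pull_mk, pullP, picMap_mk (isCorr_pullD (isFF_FN M) (isFF_FN N) φ).isGood]
  refine congrArg Pic0.mk (Subtype.ext ?_)
  rw [coe_degZeroMap, H40.coe_degZeroPull, pullD_eq (isFF_FN M) (isFF_FN N)]

theorem alphaPull_eq_pullP (M q : ℕ) [NeZero M] [NeZero q] :
    H40.alphaPull M q = pullP (heckeAlphaBar Kb M q) :=
  pic0Pull_eq_pullP M (M * q) _ _ _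

theorem betaPull_eq_pullP (M q : ℕ) [NeZero M] [NeZero q] :
    H40.betaPull M q = pullP (heckeBetaBar Kb M q) :=
  pic0Pull_eq_pullP M (M * q) _ _ _

end Bridge

/-! ## U2 SPAN-UP -/

section Main

variable (a c q : ℕ) [NeZero a] [NeZero c] [NeZero q] (hac : a ∣ c)
  (hlcm : ∀ n : ℤ, ((a * q : ℕ) : ℤ) ∣ n → (c : ℤ) ∣ n → ((c * q : ℕ) : ℤ) ∣ n)

/-- The degree `[F_{c q} : F_{a q}]`. -/
def degU : ℕ := finrankAlong Kb (inclU a c q hac)

theorem degU_mul_psi : degU a c q hac * dedekindPsi (a * q) = dedekindPsi (c * q) :=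
  stmt_Deg (a * q) (c * q) (Nat.mul_dvd_mul_right hac q)

theorem degU_pos : 0 < degU a c q hac :=
  finrank_FN_pos (a * q) (c * q) (Nat.mul_dvd_mul_right hac q)

/-- `[F_{a ℓ q} : F_{a q}] = ℓ` for a prime `ℓ ∣ a`. -/
theorem degU_of_dvd {ℓ : ℕ} (hℓ : ℓ.Prime) (hc : c = a * ℓ) (hℓa : ℓ ∣ a) :
    degU a c q hac = ℓ := by
  have h := degU_mul_psi a c q hac
  have e : c * q = a * q * ℓ := by rw [hc]; ring
  rw [e, Fermat.Agent.S36.NU.H82.dedekindPsi_mul_of_dvd hℓ (NeZero.ne (a * q))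
    (dvd_mul_of_dvd_left hℓa q)] at h
  exact Nat.eq_of_mul_eq_mul_right (dedekindPsi_pos_h2 (a * q)) h

/-- `[F_{a ℓ q} : F_{a q}] = ℓ + 1` for a prime `ℓ ∤ a q`. -/
theorem degU_of_not_dvd {ℓ : ℕ} (hℓ : ℓ.Prime) (hc : c = a * ℓ) (hℓa : ¬ ℓ ∣ a * q) :
    degU a c q hac = ℓ + 1 := by
  have h := degU_mul_psi a c q hac
  have e : c * q = a * q * ℓ := by rw [hc]; ring
  have hcop : (a * q).Coprime ℓ := ((Nat.Prime.coprime_iff_not_dvd hℓ).mpr hℓa).symm
  have hpp := Fermat.Agent.S20.H19.dedekindPsi_prime_pow hℓ (n := 1) one_pos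
  simp only [pow_one, Nat.sub_self, pow_zero] at hpp
  rw [e, Fermat.Agent.S20.H19.dedekindPsi_mul hcop, hpp, mul_comm (dedekindPsi (a * q))] at h
  have h' : degU a c q hac * dedekindPsi (a * q) = (ℓ + 1) * dedekindPsi (a * q) := by
    rw [h]
  exact Nat.eq_of_mul_eq_mul_right (dedekindPsi_pos_h2 (a * q)) h'

include hlcm in
/-- **U2 SPAN-UP** (in terms of `pullP`, `pushP`). -/
theorem spanUp (hq : q.Prime) (hqa : q ∣ a) (x : JZero (a * q)) (y y' : JZero c)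
    (h : pullP (inclU a c q hac) x = H40.alphaPull c q y + H40.betaPull c q y') :
    degU a c q hac • x
      = H40.alphaPull a q (pushP (inclL a c hac) y)
        + H40.betaPull a q (pushP (inclL a c hac) y') := by
  have h1 := congrArg (pushP (inclU a c q hac)) h
  rw [pushP_pullP (isFF_FN (a * q)) (isFF_FN (c * q)), map_add, alphaPull_eq_pullP,
    betaPull_eq_pullP, pushP_pullP_alpha a c q hac hlcm hq hqa,
    pushP_pullP_beta a c q hac hlcm hq hqa] at h1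
  rw [alphaPull_eq_pullP, betaPull_eq_pullP]
  exact h1

include hlcm in
/-- **U2 SPAN-UP** (in terms of `H40.pic0Pull`). -/
theorem spanUp' (hq : q.Prime) (hqa : q ∣ a) (hdvd : a * q ∣ c * q)
    (hint : (inclFN (a * q) (c * q) hdvd).toRingHom.IsIntegral)
    (hFI : haveI := H40.hasPD_FN (c * q)
      FundamentalIdentityAlong Kb (inclFN (a * q) (c * q) hdvd) hint)
    (x : JZero (a * q)) (y y' : JZero c)
    (h : (haveI := H40.hasPD_FN (c * q)
        H40.pic0Pull (inclFN (a * q) (c * q) hdvd) hint hFI) x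
      = H40.alphaPull c q y + H40.betaPull c q y') :
    degU a c q hac • x
      = H40.alphaPull a q (pushP (inclL a c hac) y)
        + H40.betaPull a q (pushP (inclL a c hac) y') := by
  refine spanUp a c q hac hlcm hq hqa x y y' ?_
  rw [← h, pic0Pull_eq_pullP]
  rfl

include hlcm in
/-- **Descent of TOR-SPAN**: if `p ∤ [F_{c q} : F_{a q}]`, a `p`-torsion point `x` of level `a q`
whose pull-back to level `c q` is `α^* y + β^* y'` with torsion points `y`, `y'` of level `c` is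
itself `α^* z + β^* z'` with torsion points `z`, `z'` of level `a`. -/
theorem spanUp_tors (hq : q.Prime) (hqa : q ∣ a) (p : ℕ) (hp : p.Prime)
    (hpd : ¬ p ∣ degU a c q hac) (x : JZero (a * q)) (hxp : (p : ℤ) • x = 0)
    (y y' : JZero c) (n n' : ℕ) (hn : n ≠ 0) (hn' : n' ≠ 0) (hy : n • y = 0) (hy' : n' • y' = 0)
    (h : pullP (inclU a c q hac) x = H40.alphaPull c q y + H40.betaPull c q y') :
    ∃ (z z' : JZero a) (m m' : ℕ), m ≠ 0 ∧ m' ≠ 0 ∧ m • z = 0 ∧ m' • z' = 0 ∧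
      x = H40.alphaPull a q z + H40.betaPull a q z' := by
  have hU := spanUp a c q hac hlcm hq hqa x y y' h
  have hcop : IsCoprime (degU a c q hac : ℤ) (p : ℤ) :=
    Nat.isCoprime_iff_coprime.2 ((Nat.Prime.coprime_iff_not_dvd hp).2 hpd).symm
  obtain ⟨u, v, huv⟩ := hcop
  refine ⟨u • pushP (inclL a c hac) y, u • pushP (inclL a c hac) y', n, n', hn, hn', ?_, ?_, ?_⟩
  · rw [smul_comm, ← map_nsmul, hy, map_zero, smul_zero]
  · rw [smul_comm, ← map_nsmul, hy', map_zero, smul_zero]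
  · have hx : x = u • ((degU a c q hac : ℤ) • x) := by
      have e : ((u * (degU a c q hac : ℤ) + v * (p : ℤ)) : ℤ) • x = x := by
        rw [huv, one_zsmul]
      rw [add_zsmul, mul_zsmul, mul_zsmul, hxp, zsmul_zero, add_zero] at e
      exact e.symm
    rw [natCast_zsmul, hU] at hx
    rw [map_zsmul, map_zsmul, ← zsmul_add]
    exact hx

end Main

/-! ## The form used by SQ: levels `M q ∣ M₂ q`, `M q² ∣ M₂ q²`, `M₂ = M r`, `q ∤ r` -/

section SQ

variable (M q M₂ : ℕ) [NeZero M] [NeZero q] [NeZero M₂] [NeZero (M * q)] [NeZero (M₂ * q)]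

theorem dvd_lowLevel (hM : M ∣ M₂) : M * q ∣ M₂ * q := Nat.mul_dvd_mul_right hM q

theorem dvd_topLevel (hM : M ∣ M₂) : M * q * q ∣ M₂ * q * q :=
  Nat.mul_dvd_mul_right (Nat.mul_dvd_mul_right hM q) q

/-- The degree `[F_{M₂ q²} : F_{M q²}]`. -/
def degSq (hM : M ∣ M₂) : ℕ := degU (M * q) (M₂ * q) q (dvd_lowLevel M q M₂ hM)

theorem degSq_eq (hM : M ∣ M₂) :
    degSq M q M₂ hM = finrankAlong Kb (inclFN (M * q * q) (M₂ * q * q) (dvd_topLevel M q M₂ hM)) :=
  rfl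

theorem degSq_mul_psi (hM : M ∣ M₂) :
    degSq M q M₂ hM * dedekindPsi (M * q * q) = dedekindPsi (M₂ * q * q) :=
  degU_mul_psi _ _ _ _

/-- `[F_{M ℓ q²} : F_{M q²}] = ℓ` for a prime `ℓ ∣ M`. -/
theorem degSq_of_dvd (hM : M ∣ M₂) {ℓ : ℕ} (hℓ : ℓ.Prime) (hM₂ : M₂ = M * ℓ) (hℓM : ℓ ∣ M) :
    degSq M q M₂ hM = ℓ :=
  degU_of_dvd _ _ _ _ hℓ (by rw [hM₂]; ring) (dvd_mul_of_dvd_left hℓM q)

/-- `[F_{M ℓ q²} : F_{M q²}] = ℓ + 1` for a prime `ℓ ∤ M q`. -/
theorem degSq_of_not_dvd (hM : M ∣ M₂) {ℓ : ℕ} (hℓ : ℓ.Prime) (hM₂ : M₂ = M * ℓ)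
    (hℓM : ¬ ℓ ∣ M) (hℓq : ℓ ≠ q) (hq : q.Prime) :
    degSq M q M₂ hM = ℓ + 1 := by
  refine degU_of_not_dvd _ _ _ _ hℓ (by rw [hM₂]; ring) ?_
  intro h
  rcases (Nat.Prime.dvd_mul hℓ).1 h with h | h
  · rcases (Nat.Prime.dvd_mul hℓ).1 h with h | h
    · exact hℓM h
    · exact hℓq ((Nat.prime_dvd_prime_iff_eq hℓ hq).1 h)
  · exact hℓq ((Nat.prime_dvd_prime_iff_eq hℓ hq).1 h)

/-- **U2 SPAN-UP, SQ form.**  `x` of level `M q²`, `y`, `y'` of level `M₂ q`, `M₂ = M r`, `q ∤ r`: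
`ι^* x = α^* y + β^* y'` at level `M₂ q²` gives
`[F_{M₂ q²} : F_{M q²}] • x = α^* (ι'_* y) + β^* (ι'_* y')` at level `M q²`. -/
theorem spanUp_sq (hq : q.Prime) (hM : M ∣ M₂) {r : ℕ} (hM₂ : M₂ = M * r) (hqr : ¬ q ∣ r)
    (x : JZero (M * q * q)) (y y' : JZero (M₂ * q))
    (h : pullP (inclFN (M * q * q) (M₂ * q * q) (dvd_topLevel M q M₂ hM)) x
      = H40.alphaPull (M₂ * q) q y + H40.betaPull (M₂ * q) q y') :
    degSq M q M₂ hM • x
      = H40.alphaPull (M * q) q (pushP (inclFN (M * q) (M₂ * q) (dvd_lowLevel M q M₂ hM)) y)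
        + H40.betaPull (M * q) q
            (pushP (inclFN (M * q) (M₂ * q) (dvd_lowLevel M q M₂ hM)) y') :=
  spanUp (M * q) (M₂ * q) q (dvd_lowLevel M q M₂ hM)
    (lcm_of_mul (M * q) (M₂ * q) q hq (by rw [hM₂]; ring) hqr) hq (dvd_mul_left q M) x y y' h

/-- **Descent of the conclusion of `TorSpanSqAt`** from level `M₂ q²` to level `M q²`
(`M₂ = M r`, `q ∤ r`, `p ∤ [F_{M₂ q²} : F_{M q²}]`). -/
theorem torSpan_descend (hq : q.Prime) (hM : M ∣ M₂) {r : ℕ} (hM₂ : M₂ = M * r) (hqr : ¬ q ∣ r)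
    (p : ℕ) (hp : p.Prime) (hpd : ¬ p ∣ degSq M q M₂ hM)
    (x : JZero (M * q * q)) (hxp : (p : ℤ) • x = 0)
    (h : ∃ (y y' : JZero (M₂ * q)) (n n' : ℕ), n ≠ 0 ∧ n' ≠ 0 ∧ n • y = 0 ∧ n' • y' = 0 ∧
      pullP (inclFN (M * q * q) (M₂ * q * q) (dvd_topLevel M q M₂ hM)) x
        = H40.alphaPull (M₂ * q) q y + H40.betaPull (M₂ * q) q y') :
    ∃ (z z' : JZero (M * q)) (m m' : ℕ), m ≠ 0 ∧ m' ≠ 0 ∧ m • z = 0 ∧ m' • z' = 0 ∧
      x = H40.alphaPull (M * q) q z + H40.betaPull (M * q) q z' := by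
  obtain ⟨y, y', n, n', hn, hn', hy, hy', hx⟩ := h
  exact spanUp_tors (M * q) (M₂ * q) q (dvd_lowLevel M q M₂ hM)
    (lcm_of_mul (M * q) (M₂ * q) q hq (by rw [hM₂]; ring) hqr) hq (dvd_mul_left q M) p hp hpd x hxp
    y y' n n' hn hn' hy hy' hx

/-- The pull-back `ι^*` in the form of `H40.pic0Pull`. -/
theorem pic0Pull_top_eq (hM : M ∣ M₂)
    (hint : (inclFN (M * q * q) (M₂ * q * q) (dvd_topLevel M q M₂ hM)).toRingHom.IsIntegral)
    (hFI : haveI := H40.hasPD_FN (M₂ * q * q);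
      FundamentalIdentityAlong Kb (inclFN (M * q * q) (M₂ * q * q) (dvd_topLevel M q M₂ hM)) hint) :
    (haveI := H40.hasPD_FN (M₂ * q * q);
      H40.pic0Pull (inclFN (M * q * q) (M₂ * q * q) (dvd_topLevel M q M₂ hM)) hint hFI)
      = pullP (inclFN (M * q * q) (M₂ * q * q) (dvd_topLevel M q M₂ hM)) :=
  pic0Pull_eq_pullP _ _ _ _ _

/-- `ι_* ι^* = deg` at the top level. -/
theorem pushP_pullP_top (hM : M ∣ M₂) (x : JZero (M * q * q)) :
    pushP (inclFN (M * q * q) (M₂ * q * q) (dvd_topLevel M q M₂ hM))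
        (pullP (inclFN (M * q * q) (M₂ * q * q) (dvd_topLevel M q M₂ hM)) x)
      = degSq M q M₂ hM • x :=
  pushP_pullP (isFF_FN (M * q * q)) (isFF_FN (M₂ * q * q)) _ x

/-- `ι^*` is injective on `p`-torsion for `p ∤ deg`. -/
theorem pullP_top_ne_zero (hM : M ∣ M₂) (p : ℕ) (hp : p.Prime) (hpd : ¬ p ∣ degSq M q M₂ hM)
    (x : JZero (M * q * q)) (hxp : (p : ℤ) • x = 0) (hx : x ≠ 0) :
    pullP (inclFN (M * q * q) (M₂ * q * q) (dvd_topLevel M q M₂ hM)) x ≠ 0 := by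
  intro h0
  have h1 := pushP_pullP_top M q M₂ hM x
  rw [h0, map_zero] at h1
  have hcop : IsCoprime (degSq M q M₂ hM : ℤ) (p : ℤ) :=
    Nat.isCoprime_iff_coprime.2 ((Nat.Prime.coprime_iff_not_dvd hp).2 hpd).symm
  obtain ⟨u, v, huv⟩ := hcop
  have e : ((u * (degSq M q M₂ hM : ℤ) + v * (p : ℤ)) : ℤ) • x = x := by
    rw [huv, one_zsmul]
  rw [add_zsmul, mul_zsmul, mul_zsmul, hxp, zsmul_zero, add_zero, natCast_zsmul, ← h1,
    zsmul_zero] at e
  exact hx e.symm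

end SQ

end Fermat.Agent.S59.LL.SQ.H50

end
end
-- ==== END Fermat.Agent.S59.LL.SQ.H50_SpanUp

-- ==== BEGIN Fermat.Agent.S59.LL.SQ.H56_StRankD
section

/-!
# S59 / LL / SQ, leaf ST-RANK (d) (helper56): the component map, abstract datum

`S : BAD.SSD K F k F₁ F₂` a semistable Deuring datum, `L` a subfield of `F` (modular: the
functions fixed by the inertia group), `q` a natural number (the residue characteristic).

* `IntScale S L q` : every `h ≠ 0` of `L` becomes a unit for the first valuation after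
  multiplication by a power `q ^ m₁`, a unit for the second valuation after multiplication by a
  power `q ^ m₂` (`m₁, m₂ ∈ ℤ`), and `q ^ m` is a unit only for `m = 0`.
* `card_le_of_intScale` : **ST-RANK (d), abstract form**: if `Y` is a subgroup of `Pic⁰(F)`
  whose elements have Kummer functions in `L` (exponent `n > 0`), then
  `#Y ≤ n · #{y ∈ Y | InGA S L n y}` (`InGA` = the finite part, helper69's definition).

Proof: the component map `y ↦ (m₂ - m₁)(h_y) / λ mod n`, see `H56_CompAbs.lean`.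
This file contains no unproved statement.
-/

set_option autoImplicit false
set_option linter.style.haveILetI false
set_option linter.unusedSectionVars false

noncomputable section

open AlgebraicCurve

attribute [local instance] Classical.propDecidable

namespace Fermat.Agent.S59.LL.SQ.H56

open Fermat.Agent.RED.H17 Fermat.Agent.RED Fermat.Agent.BAD Fermat.Agent.S59.LL.SQ.H69

section Defs

variable {K F k F₁ F₂ : Type*} [Field K] [Field F] [Algebra K F] [Field k] [Field F₁]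
  [Algebra k F₁] [Field F₂] [Algebra k F₂]

/-- The constant `q ^ m` as a function. -/
def qc (K F : Type*) [Field K] [Field F] [Algebra K F] (q : ℕ) (m : ℤ) : F :=
  algebraMap K F ((q : K) ^ m)

theorem qc_add {q : ℕ} (hq0 : (q : K) ≠ 0) (m m' : ℤ) :
    qc K F q (m + m') = qc K F q m * qc K F q m' := by
  unfold qc
  rw [zpow_add₀ hq0, map_mul]

theorem qc_neg (q : ℕ) (m : ℤ) : qc K F q (-m) = (qc K F q m)⁻¹ := by
  unfold qc
  rw [zpow_neg, map_inv₀]

theorem qc_sub {q : ℕ} (hq0 : (q : K) ≠ 0) (m m' : ℤ) :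
    qc K F q (m - m') = qc K F q m / qc K F q m' := by
  rw [sub_eq_add_neg, qc_add hq0, qc_neg, div_eq_mul_inv]

theorem qc_ne_zero {q : ℕ} (hq0 : (q : K) ≠ 0) (m : ℤ) : qc K F q m ≠ 0 := by
  unfold qc
  exact (map_ne_zero_iff _ (algebraMap K F).injective).mpr (zpow_ne_zero m hq0)

/-- **Integral scales** of the functions of `L` for the two valuations. -/
def IntScale (S : SSD K F k F₁ F₂) (L : Subfield F) (q : ℕ) : Prop :=
  (∀ h : F, h ∈ L → h ≠ 0 →
    (∃ m : ℤ, S.c₁.IsGU (qc K F q m * h)) ∧ (∃ m : ℤ, S.c₂.IsGU (qc K F q m * h))) ∧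
  (∀ m : ℤ, S.c₁.IsGU (qc K F q m) → m = 0) ∧ ∀ m : ℤ, S.c₂.IsGU (qc K F q m) → m = 0

variable {S : SSD K F k F₁ F₂} {L : Subfield F} {q : ℕ}

theorem IntScale.unique₁ (hint : IntScale S L q) (hq0 : (q : K) ≠ 0) {h : F} {m m' : ℤ}
    (hm : S.c₁.IsGU (qc K F q m * h)) (hm' : S.c₁.IsGU (qc K F q m' * h)) : m = m' := by
  have h0 : h ≠ 0 := fun h0 => hm.ne_zero (by rw [h0, mul_zero])
  have h1 := hm.div hm'
  have e : qc K F q m * h / (qc K F q m' * h) = qc K F q (m - m') := by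
    rw [qc_sub hq0, mul_div_mul_right _ _ h0]
  rw [e] at h1
  have h2 := hint.2.1 (m - m') h1
  omega

theorem IntScale.unique₂ (hint : IntScale S L q) (hq0 : (q : K) ≠ 0) {h : F} {m m' : ℤ}
    (hm : S.c₂.IsGU (qc K F q m * h)) (hm' : S.c₂.IsGU (qc K F q m' * h)) : m = m' := by
  have h0 : h ≠ 0 := fun h0 => hm.ne_zero (by rw [h0, mul_zero])
  have h1 := hm.div hm'
  have e : qc K F q m * h / (qc K F q m' * h) = qc K F q (m - m') := by
    rw [qc_sub hq0, mul_div_mul_right _ _ h0]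
  rw [e] at h1
  have h2 := hint.2.2 (m - m') h1
  omega

end Defs

section Main

variable {K F k F₁ F₂ : Type*} [Field K] [Field F] [Algebra K F] [Field k] [Field F₁]
  [Algebra k F₁] [Field F₂] [Algebra k F₂]

/-- Kummer functions can be multiplied by `n`-th powers. -/
theorem isKumA_mul_pow (hP : HasPrincipalDivisors K F) {n : ℕ} {x : Pic0 K F} {f : F}
    (h : IsKumA n x f) (hf : f ≠ 0) {w : F} (hw : w ≠ 0) : IsKumA n x (f * w ^ n) := by
  obtain ⟨D, rfl, hD⟩ := h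
  have hdeg : dv hP w ∈ Divisor.degZero (K := K) (F := F) := degree_dv hP w
  refine ⟨D + ⟨dv hP w, hdeg⟩, ?_, fun P => ?_⟩
  · have e : (Pic0.mk (D + ⟨dv hP w, hdeg⟩) : Pic0 K F)
        = Pic0.mk D + Pic0.mk ⟨dv hP w, hdeg⟩ := rfl
    have e0 : (Pic0.mk ⟨dv hP w, hdeg⟩ : Pic0 K F) = 0 := by
      rw [Pic0.mk, QuotientAddGroup.eq_zero_iff, AddSubgroup.mem_addSubgroupOf]
      exact dv_mem_principal hP hw
    rw [e, e0, add_zero]
  · rw [P.ord_mul hf (pow_ne_zero _ hw), ord_pow, ← hD P]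
    show (n : ℤ) * ((D : Divisor K F) + dv hP w) P = _
    rw [Finsupp.add_apply, dv_apply]
    ring

/-- Kummer functions can be multiplied by non-zero constants. -/
theorem isKumA_const_mul {n : ℕ} {x : Pic0 K F} {f : F} (h : IsKumA n x f) {c : K}
    (hc : c ≠ 0) : IsKumA n x (algebraMap K F c * f) := by
  obtain ⟨D, rfl, hD⟩ := h
  refine ⟨D, rfl, fun P => ?_⟩
  rw [ord_algebraMap_mul P hc, hD P]

/-- A class with a Kummer function fixed by `g` is fixed by `g`. -/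
theorem smul_eq_of_isKumA (g : SemilinearAut K F) {n : ℕ} (hn : 0 < n) {x : Pic0 K F} {f : F}
    (h : IsKumA n x f) (hf : g • f = f) : g • x = x := by
  obtain ⟨D, rfl, hD⟩ := h
  rw [SemilinearAut.pic0_smul_mk]
  congr 1
  apply Subtype.ext
  rw [SemilinearAut.coe_degZeroSMulHom]
  ext w
  rw [SemilinearAut.divisor_smul_apply]
  have h1 := hD (g⁻¹ • w)
  have h2 := SemilinearAut.ord_smul g (g⁻¹ • w) f
  rw [smul_inv_smul, hf] at h2
  have h3 := hD w
  have hn' : (n : ℤ) ≠ 0 := by exact_mod_cast hn.ne'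
  have h4 : (n : ℤ) * (D : Divisor K F) (g⁻¹ • w) = (n : ℤ) * (D : Divisor K F) w := by
    rw [h1, h3, h2]
  exact mul_left_cancel₀ hn' h4

/-- **ST-RANK (d), abstract form** (count inside `Y`). -/
theorem card_le_of_intScale' (S : SSD K F k F₁ F₂) (hP : HasPrincipalDivisors K F)
    (L : Subfield F) (q : ℕ) (hq0 : (q : K) ≠ 0) (hint : IntScale S L q)
    (hqL : algebraMap K F (q : K) ∈ L)
    (Y : AddSubgroup (Pic0 K F)) (n : ℕ) (hn : 0 < n)
    (hex : ∀ y ∈ Y, ∃ h : F, h ∈ L ∧ h ≠ 0 ∧ IsKumA n y h) :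
    Nat.card Y ≤ n * Nat.card {y : Y | InGA S L n (y : Pic0 K F)} := by
  have hqcL : ∀ m : ℤ, qc K F q m ∈ L := by
    intro m
    unfold qc
    rw [map_zpow₀]
    exact zpow_mem hqL m
  have hu0 : ∀ u : (↥L)ˣ, ((u : ↥L) : F) ≠ 0 := fun u h0 =>
    u.ne_zero (Subtype.ext h0)
  -- the scales
  have hsc₁ : ∀ u : (↥L)ˣ, ∃ m : ℤ, S.c₁.IsGU (qc K F q m * ((u : ↥L) : F)) :=
    fun u => (hint.1 _ (u : ↥L).2 (hu0 u)).1
  have hsc₂ : ∀ u : (↥L)ˣ, ∃ m : ℤ, S.c₂.IsGU (qc K F q m * ((u : ↥L) : F)) :=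
    fun u => (hint.1 _ (u : ↥L).2 (hu0 u)).2
  choose m₁ hm₁ using hsc₁
  choose m₂ hm₂ using hsc₂
  have hcoe : ∀ u v : (↥L)ˣ, (((u * v : (↥L)ˣ) : ↥L) : F) = ((u : ↥L) : F) * ((v : ↥L) : F) :=
    fun u v => rfl
  have hadd₁ : ∀ u v : (↥L)ˣ, m₁ (u * v) = m₁ u + m₁ v := by
    intro u v
    refine hint.unique₁ hq0 (hm₁ (u * v)) ?_
    have h1 := (hm₁ u).mul (hm₁ v)
    have e : qc K F q (m₁ u) * ((u : ↥L) : F) * (qc K F q (m₁ v) * ((v : ↥L) : F))
        = qc K F q (m₁ u + m₁ v) * (((u * v : (↥L)ˣ) : ↥L) : F) := by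
      rw [qc_add hq0, hcoe]
      ring
    rwa [e] at h1
  have hadd₂ : ∀ u v : (↥L)ˣ, m₂ (u * v) = m₂ u + m₂ v := by
    intro u v
    refine hint.unique₂ hq0 (hm₂ (u * v)) ?_
    have h1 := (hm₂ u).mul (hm₂ v)
    have e : qc K F q (m₂ u) * ((u : ↥L) : F) * (qc K F q (m₂ v) * ((v : ↥L) : F))
        = qc K F q (m₂ u + m₂ v) * (((u * v : (↥L)ˣ) : ↥L) : F) := by
      rw [qc_add hq0, hcoe]
      ring
    rwa [e] at h1
  refine card_le_mul_card_of_delta (Y := ↥Y) (U := (↥L)ˣ) n hn (fun u => m₂ u - m₁ u)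
    (fun u v => by rw [hadd₁, hadd₂]; ring)
    (fun y u => IsKumA n (y : Pic0 K F) ((u : ↥L) : F)) ?_ ?_ ?_
    {y : Y | InGA S L n (y : Pic0 K F)} ?_
  · -- existence
    intro y
    obtain ⟨h, hL, h0, hK⟩ := hex (y : Pic0 K F) y.2
    exact ⟨Units.mk0 ⟨h, hL⟩ (fun e => h0 (congrArg Subtype.val e)), hK⟩
  · -- quotients
    intro y y' u u' hu hu'
    have e : (((u / u' : (↥L)ˣ) : ↥L) : F) = ((u : ↥L) : F) / ((u' : ↥L) : F) := by
      rw [Units.val_div_eq_div_val]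
      rfl
    show IsKumA n (((y - y' : ↥Y)) : Pic0 K F) _
    rw [e, AddSubgroup.coe_sub]
    exact hu.div hu' (hu0 u) (hu0 u')
  · -- `n`-th powers
    intro y u w hu
    have e : (((u * w ^ n : (↥L)ˣ) : ↥L) : F) = ((u : ↥L) : F) * ((w : ↥L) : F) ^ n := by
      rw [hcoe, Units.val_pow_eq_pow_val]
      rfl
    show IsKumA n (y : Pic0 K F) _
    rw [e]
    exact isKumA_mul_pow hP hu (hu0 u) (hu0 w)
  · -- the kernel of the component map
    intro y u hu hδ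
    have hδ' : m₂ u = m₁ u := by
      have : m₂ u - m₁ u = 0 := hδ
      omega
    refine ⟨qc K F q (m₁ u) * ((u : ↥L) : F), L.mul_mem (hqcL _) (u : ↥L).2, ?_, hm₁ u, ?_⟩
    · exact isKumA_const_mul hu (zpow_ne_zero _ hq0)
    · rw [← hδ']
      exact hm₂ u

/-- **ST-RANK (d), abstract form**: `#Y ≤ n · #G` if the finite part `G` lies in `Y`. -/
theorem card_le_of_intScale (S : SSD K F k F₁ F₂) (hP : HasPrincipalDivisors K F)
    (L : Subfield F) (q : ℕ) (hq0 : (q : K) ≠ 0) (hint : IntScale S L q)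
    (hqL : algebraMap K F (q : K) ∈ L)
    (Y : AddSubgroup (Pic0 K F)) (n : ℕ) (hn : 0 < n)
    (hex : ∀ y ∈ Y, ∃ h : F, h ∈ L ∧ h ≠ 0 ∧ IsKumA n y h)
    (hGY : ∀ x : Pic0 K F, InGA S L n x → x ∈ Y) :
    Nat.card Y ≤ n * Nat.card {x : Pic0 K F | InGA S L n x} := by
  have h1 := card_le_of_intScale' S hP L q hq0 hint hqL Y n hn hex
  have e : {y : Y | InGA S L n (y : Pic0 K F)} ≃ {x : Pic0 K F | InGA S L n x} :=
    { toFun := fun y => ⟨((y : ↥Y) : Pic0 K F), y.2⟩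
      invFun := fun x => ⟨⟨(x : Pic0 K F), hGY _ x.2⟩, x.2⟩
      left_inv := fun y => rfl
      right_inv := fun x => rfl }
  rwa [Nat.card_congr e] at h1

/-- Integral scales from the valuations: the values of the two valuations on `L` are powers of
the value of `q`, which is `< 1`. -/
theorem intScale_of_val (S : SSD K F k F₁ F₂) (L : Subfield F) (q : ℕ)
    (h₁ : ∀ x : F, x ∈ L → x ≠ 0 →
      ∃ m : ℤ, S.c₁.V.valuation x = S.c₁.V.valuation (algebraMap K F (q : K)) ^ m)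
    (h₂ : ∀ x : F, x ∈ L → x ≠ 0 →
      ∃ m : ℤ, S.c₂.V.valuation x = S.c₂.V.valuation (algebraMap K F (q : K)) ^ m)
    (hlt₁ : S.c₁.V.valuation (algebraMap K F (q : K)) < 1)
    (hlt₂ : S.c₂.V.valuation (algebraMap K F (q : K)) < 1)
    (hne : algebraMap K F (q : K) ≠ 0) : IntScale S L q := by
  have key : ∀ (c : PRed K F k F₁) (x : F), c.V.valuation x = 1 → c.IsGU x := by
    intro c x hx
    have hmem : x ∈ c.V := (ValuationSubring.valuation_le_one_iff _ _).1 hx.le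
    rw [c.isGU_iff_isUnit hmem]
    exact (ValuationSubring.valuation_eq_one_iff c.V ⟨x, hmem⟩).2 hx
  have key' : ∀ (c : PRed K F k F₂) (x : F), c.V.valuation x = 1 → c.IsGU x := by
    intro c x hx
    have hmem : x ∈ c.V := (ValuationSubring.valuation_le_one_iff _ _).1 hx.le
    rw [c.isGU_iff_isUnit hmem]
    exact (ValuationSubring.valuation_eq_one_iff c.V ⟨x, hmem⟩).2 hx
  have conv : ∀ (c : PRed K F k F₁) (x : F), c.IsGU x → c.V.valuation x = 1 := by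
    intro c x hx
    have h := (c.isGU_iff_isUnit hx.mem).1 hx
    exact (ValuationSubring.valuation_eq_one_iff c.V ⟨x, hx.mem⟩).1 h
  have conv' : ∀ (c : PRed K F k F₂) (x : F), c.IsGU x → c.V.valuation x = 1 := by
    intro c x hx
    have h := (c.isGU_iff_isUnit hx.mem).1 hx
    exact (ValuationSubring.valuation_eq_one_iff c.V ⟨x, hx.mem⟩).1 h
  have hqc : ∀ m : ℤ, qc K F q m = algebraMap K F (q : K) ^ m := by
    intro m
    unfold qc
    rw [map_zpow₀]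
  refine ⟨fun h hL h0 => ⟨?_, ?_⟩, ?_, ?_⟩
  · obtain ⟨m, hm⟩ := h₁ h hL h0
    refine ⟨-m, key _ _ ?_⟩
    have hv0 : S.c₁.V.valuation (algebraMap K F (q : K)) ≠ 0 :=
      (Valuation.ne_zero_iff _).2 hne
    rw [map_mul, hqc, map_zpow₀, hm, ← zpow_add₀ hv0, neg_add_cancel, zpow_zero]
  · obtain ⟨m, hm⟩ := h₂ h hL h0
    refine ⟨-m, key' _ _ ?_⟩
    have hv0 : S.c₂.V.valuation (algebraMap K F (q : K)) ≠ 0 :=
      (Valuation.ne_zero_iff _).2 hne
    rw [map_mul, hqc, map_zpow₀, hm, ← zpow_add₀ hv0, neg_add_cancel, zpow_zero]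
  · intro m hm
    have h1 := conv _ _ hm
    rw [hqc, map_zpow₀] at h1
    have hv0 : 0 < S.c₁.V.valuation (algebraMap K F (q : K)) :=
      zero_lt_iff.2 ((Valuation.ne_zero_iff _).2 hne)
    by_contra hm0
    rcases lt_or_gt_of_ne hm0 with hneg | hpos
    · have h2 : 1 < S.c₁.V.valuation (algebraMap K F (q : K)) ^ m :=
        one_lt_zpow_of_neg₀ hv0 hlt₁ hneg
      rw [h1] at h2
      exact lt_irrefl _ h2
    · have h2 : S.c₁.V.valuation (algebraMap K F (q : K)) ^ m < 1 :=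
        zpow_lt_one₀ hv0 hlt₁ hpos
      rw [h1] at h2
      exact lt_irrefl _ h2
  · intro m hm
    have h1 := conv' _ _ hm
    rw [hqc, map_zpow₀] at h1
    have hv0 : 0 < S.c₂.V.valuation (algebraMap K F (q : K)) :=
      zero_lt_iff.2 ((Valuation.ne_zero_iff _).2 hne)
    by_contra hm0
    rcases lt_or_gt_of_ne hm0 with hneg | hpos
    · have h2 : 1 < S.c₂.V.valuation (algebraMap K F (q : K)) ^ m :=
        one_lt_zpow_of_neg₀ hv0 hlt₂ hneg
      rw [h1] at h2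
      exact lt_irrefl _ h2
    · have h2 : S.c₂.V.valuation (algebraMap K F (q : K)) ^ m < 1 :=
        zpow_lt_one₀ hv0 hlt₂ hpos
      rw [h1] at h2
      exact lt_irrefl _ h2

end Main

end Fermat.Agent.S59.LL.SQ.H56

end

end
-- ==== END Fermat.Agent.S59.LL.SQ.H56_StRankD

-- ==== BEGIN Fermat.Agent.S59.LL.SQ.H64_StRankCAbs
section

/-!
# S59 / LL / SQ, leaf ST-RANK (c), abstract part (helper64)

`S : BAD.SSD K F k F₁ F₂` a semistable Deuring datum, `K`, `k` algebraically closed, `I` a set of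
inertial semilinear automorphisms, `π` a uniformiser of the fixed constants, `L` a subfield of
`I`-fixed functions with values in `v(π)^ℤ` for both valuations, containing a function with
valuation vector `(0, 1)`.

`inTA_abs` : if `h ∈ L` is a Kummer function of the class of `(σ - 1) D`, `n D = div h₀`
(`h = a (σ h₀ / h₀) w ^ n`), then `b h v ^ n` is, for suitable `b`, `v ∈ L`, a unit for both
valuations with reductions `ψ₁ ^ n`, `ψ₂ ^ n`.

Proof: `f = σ H / H` (`H` the Gauss unit multiple of `h₀`) has reductions `1` and a constant; the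
moving lemma (`BAD.stmt_Moving`, twist `1`) puts it in good position, `G₁ = f h₁ ^ n`; for `τ ∈ I`,
`τ G₁ / G₁ = t ^ n` (`BAD.H28.stmt_TIss`), and `rd₁ t = rd₂ t` is a constant (gluing at a node);
`τ h = h` gives that `τ d / d` reduces to `1` for the ratio `d` of the two scaling constants of
`w / h₁`; by Kummer theory `d` is a unit times a power of `π`, i.e. the slope of `h` is divisible
by `n`.

This file contains no unproved statement.
-/

set_option autoImplicit false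
set_option linter.style.haveILetI false
set_option linter.unusedSectionVars false
set_option maxHeartbeats 1000000

noncomputable section

open AlgebraicCurve

attribute [local instance] Classical.propDecidable

namespace Fermat.Agent.S59.LL.SQ.H64

open Fermat.Agent.RED.H17 Fermat.Agent.RED Fermat.Agent.BAD

/-! ### Roots of unity -/

/-- An `n`-th root of `1` in an extension of an algebraically closed field is a constant. -/
theorem exists_const_of_pow_eq_one {k E : Type*} [Field k] [Field E] [Algebra k E]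
    [IsAlgClosed k] {n : ℕ} (hn : n ≠ 0) {x : E} (hx : x ^ n = 1) :
    ∃ a : k, x = algebraMap k E a ∧ a ^ n = 1 := by
  have hint : IsIntegral k x := by
    refine ⟨Polynomial.X ^ n - 1, Polynomial.monic_X_pow_sub_C (1 : k) hn, ?_⟩
    simp [hx]
  have hdeg := IsAlgClosed.degree_eq_one_of_irreducible k (minpoly.irreducible hint)
  obtain ⟨a, ha⟩ := minpoly.mem_range_of_degree_eq_one k x hdeg
  refine ⟨a, ha.symm, ?_⟩
  apply (algebraMap k E).injective
  rw [map_pow, ha, hx, map_one]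

section PRedLemmas

variable {K F k F' : Type*} [Field K] [Field F] [Algebra K F] [Field k] [Field F']
  [Algebra k F'] {S : PRed K F k F'}

/-- A function is a Gauss unit iff its valuation is `1`. -/
theorem isGU_iff_valuation_eq_one (f : F) : S.IsGU f ↔ S.V.valuation f = 1 := by
  constructor
  · intro h
    have hu := (S.isGU_iff_isUnit h.1).1 h
    exact (ValuationSubring.valuation_eq_one_iff S.V ⟨f, h.1⟩).1 hu
  · intro h
    have hm : f ∈ S.V := (ValuationSubring.valuation_le_one_iff S.V f).1 h.le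
    exact (S.isGU_iff_isUnit hm).2 ((ValuationSubring.valuation_eq_one_iff S.V ⟨f, hm⟩).2 h)

/-- A root of a Gauss unit is a Gauss unit. -/
theorem isGU_of_pow {n : ℕ} (hn : n ≠ 0) {t : F} (h : S.IsGU (t ^ n)) : S.IsGU t := by
  rw [isGU_iff_valuation_eq_one] at h ⊢
  rw [map_pow] at h
  exact (pow_eq_one_iff_left hn).mp h

/-- Multiplying a Gauss unit by a constant: the product is a Gauss unit iff the constant is. -/
theorem isGU_const_of_mul {c : K} {f : F} (hf : S.IsGU f)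
    (h : S.IsGU (algebraMap K F c * f)) : S.IsGU (algebraMap K F c) := by
  have := h.div hf
  rwa [mul_div_assoc, div_self hf.ne_zero, mul_one] at this


/-- A root of unity of order prime to the residue characteristic which reduces to `1` is `1`. -/
theorem eq_one_of_pow_eq_one {n : ℕ} (hn : (n : k) ≠ 0) {ζ : K} (hζ : ζ ^ n = 1)
    (hcu : S.IsGU (algebraMap K F ζ)) (hrd : S.rd (algebraMap K F ζ) = 1) : ζ = 1 := by
  by_contra hne
  have h1 : (∑ i ∈ Finset.range n, ζ ^ i) * (ζ - 1) = ζ ^ n - 1 := geom_sum_mul ζ n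
  rw [hζ, sub_self] at h1
  have h2 : ∑ i ∈ Finset.range n, ζ ^ i = 0 := by
    rcases mul_eq_zero.1 h1 with h | h
    · exact h
    · exact absurd (sub_eq_zero.1 h) hne
  have e : ∑ i ∈ Finset.range n, (algebraMap K F ζ) ^ i = 0 := by
    rw [← map_zero (algebraMap K F), ← h2, map_sum]
    exact Finset.sum_congr rfl fun i _ => (map_pow _ _ _).symm
  obtain ⟨-, h4⟩ := S.rd_sum (Finset.range n) (fun i => (algebraMap K F ζ) ^ i)
    (fun i _ => (hcu.pow i).1)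
  rw [e, S.rd_zero] at h4
  have h5 : ∑ i ∈ Finset.range n, S.rd ((algebraMap K F ζ) ^ i) = (n : F') := by
    rw [Finset.sum_congr rfl (fun i _ => by rw [S.rd_pow hcu.1, hrd, one_pow]),
      Finset.sum_const, Finset.card_range, nsmul_eq_mul, mul_one]
  rw [h5] at h4
  have h6 : algebraMap k F' (n : k) = 0 := by
    rw [map_natCast]
    exact h4.symm
  exact hn ((map_eq_zero_iff _ (algebraMap k F').injective).1 h6)

/-! ### Gauss units with reduction an `n`-th power -/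

/-- `x` is a Gauss unit whose reduction is an `n`-th power. -/
def IsNP (S : PRed K F k F') (n : ℕ) (x : F) : Prop := S.IsGU x ∧ ∃ ψ : F', S.rd x = ψ ^ n

theorem IsNP.mul {n : ℕ} {x y : F} (hx : IsNP S n x) (hy : IsNP S n y) : IsNP S n (x * y) := by
  obtain ⟨hx1, ψ, hψ⟩ := hx
  obtain ⟨hy1, φ, hφ⟩ := hy
  exact ⟨hx1.mul hy1, ψ * φ, by rw [S.rd_mul hx1.1 hy1.1, hψ, hφ, mul_pow]⟩

theorem isNP_pow {n : ℕ} {x : F} (hx : S.IsGU x) : IsNP S n (x ^ n) :=
  ⟨hx.pow n, S.rd x, S.rd_pow hx.1 n⟩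

theorem isNP_of_rd_one {n : ℕ} {x : F} (hx : S.IsGU x) (h1 : S.rd x = 1) : IsNP S n x :=
  ⟨hx, 1, by rw [h1, one_pow]⟩

theorem isNP_const [IsAlgClosed k] {n : ℕ} (hn : n ≠ 0) {c : K}
    (hc : S.IsGU (algebraMap K F c)) : IsNP S n (algebraMap K F c) := by
  obtain ⟨c', hc'⟩ := S.rd_const_eq c hc.1
  obtain ⟨β, hβ⟩ := IsAlgClosed.exists_pow_nat_eq c' (Nat.pos_of_ne_zero hn)
  exact ⟨hc, algebraMap k F' β, by rw [hc', ← hβ, map_pow]⟩

/-- An inertial automorphism maps a Gauss unit to a Gauss unit with the same reduction. -/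
theorem isGU_smul_of {τ : SemilinearAut K F} (hm : ∀ f : F, f ∈ S.V → τ • f ∈ S.V)
    (hr : ∀ (f : F) (h : f ∈ S.V) (h' : τ • f ∈ S.V), S.red ⟨_, h'⟩ = S.red ⟨f, h⟩)
    {f : F} (hf : S.IsGU f) : S.IsGU (τ • f) ∧ S.rd (τ • f) = S.rd f := by
  have hm' := hm f hf.1
  have hrd : S.rd (τ • f) = S.rd f := by
    rw [S.rd_of_mem hm', S.rd_of_mem hf.1]
    exact hr f hf.1 hm'
  exact ⟨⟨hm', by rw [hrd]; exact hf.2⟩, hrd⟩

/-- `τ f / f` is a Gauss unit with reduction `1`, for `τ` inertial and `f` a Gauss unit. -/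
theorem isGU_ratio_of {τ : SemilinearAut K F} (hm : ∀ f : F, f ∈ S.V → τ • f ∈ S.V)
    (hr : ∀ (f : F) (h : f ∈ S.V) (h' : τ • f ∈ S.V), S.red ⟨_, h'⟩ = S.red ⟨f, h⟩)
    {f : F} (hf : S.IsGU f) : S.IsGU ((τ • f) / f) ∧ S.rd ((τ • f) / f) = 1 := by
  obtain ⟨h1, h2⟩ := isGU_smul_of hm hr hf
  exact ⟨h1.div hf, by rw [h1.rd_div hf, h2, div_self hf.2]⟩

end PRedLemmas


section Tame

variable {K F k F₁ F₂ : Type*} [Field K] [Field F] [Algebra K F] [Field k] [Field F₁]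
  [Algebra k F₁] [Field F₂] [Algebra k F₂]

/-- **Kummer theory for the constants.**  If `d ^ n` is a unit times a power of `π` and
`τ d / d` reduces to `1` for every `τ ∈ I`, then `d` is a unit times a power of `π`. -/
theorem tame_abs [IsAlgClosed K] (S : SSD K F k F₁ F₂) {n : ℕ} (hn : (n : k) ≠ 0)
    (I : Set (SemilinearAut K F)) (hI : ∀ τ ∈ I, S.IsInertial τ)
    (π : K) (hπ0 : π ≠ 0) (hπI : ∀ τ ∈ I, SemilinearAut.baseAut τ π = π)
    (hunr : ∀ Y : K, Y ≠ 0 → (∀ τ ∈ I, SemilinearAut.baseAut τ Y = Y) →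
      ∃ m : ℤ, S.IsCU (Y / π ^ m))
    {d : K} (hd : d ≠ 0) {m : ℤ} (hm : S.IsCU (d ^ n / π ^ m))
    (hτ : ∀ τ ∈ I, S.IsCU (SemilinearAut.baseAut τ d / d) ∧
      S.c₁.rd (algebraMap K F (SemilinearAut.baseAut τ d / d)) = 1) :
    ∃ m' : ℤ, S.IsCU (d / π ^ m') := by
  have hn0 : n ≠ 0 := by
    rintro rfl
    exact hn Nat.cast_zero
  obtain ⟨u₁, hu₁⟩ := IsAlgClosed.exists_pow_nat_eq (d ^ n / π ^ m) (Nat.pos_of_ne_zero hn0)
  have hu₁CU : S.IsCU u₁ := by
    show S.c₁.IsGU (algebraMap K F u₁)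
    apply isGU_of_pow hn0
    rw [← map_pow, hu₁]
    exact hm
  have hu₁0 : u₁ ≠ 0 := hu₁CU.ne_zero
  have hπm0 : π ^ m ≠ 0 := zpow_ne_zero _ hπ0
  have hc₁n : (d / u₁) ^ n = π ^ m := by
    rw [div_pow, hu₁]
    field_simp
  have hc₁0 : d / u₁ ≠ 0 := div_ne_zero hd hu₁0
  have hfix : ∀ τ ∈ I, SemilinearAut.baseAut τ (d / u₁) = d / u₁ := by
    intro τ hτI
    have hτin := hI τ hτI
    obtain ⟨hτ1, hτ2⟩ := hτ τ hτI
    -- `τ u₁ / u₁` is a unit constant with reduction `1`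
    have hr := isGU_ratio_of (S := S.c₁) hτin.mem₁ hτin.red₁ hu₁CU.isGU₁
    rw [SemilinearAut.smul_algebraMap, ← map_div₀] at hr
    set ζ : K := SemilinearAut.baseAut τ (d / u₁) / (d / u₁) with hζ
    have hτu0 : SemilinearAut.baseAut τ u₁ ≠ 0 :=
      (map_ne_zero (SemilinearAut.baseAut τ)).2 hu₁0
    have hτd0 : SemilinearAut.baseAut τ d ≠ 0 := (map_ne_zero (SemilinearAut.baseAut τ)).2 hd
    have hζeq : ζ = (SemilinearAut.baseAut τ d / d) / (SemilinearAut.baseAut τ u₁ / u₁) := by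
      rw [hζ, map_div₀]
      field_simp
    have hζn : ζ ^ n = 1 := by
      rw [hζ, div_pow, ← map_pow, hc₁n, map_zpow₀, hπI τ hτI, div_self hπm0]
    have hζGU : S.c₁.IsGU (algebraMap K F ζ) := by
      rw [hζeq, map_div₀]
      exact hτ1.isGU₁.div hr.1
    have hζrd : S.c₁.rd (algebraMap K F ζ) = 1 := by
      rw [hζeq, map_div₀, hτ1.isGU₁.rd_div hr.1, hτ2, hr.2, div_one]
    have hζ1 : ζ = 1 := eq_one_of_pow_eq_one (S := S.c₁) hn hζn hζGU hζrd
    rw [hζ, div_eq_one_iff_eq hc₁0] at hζ1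
    exact hζ1
  obtain ⟨m', hm'⟩ := hunr (d / u₁) hc₁0 hfix
  refine ⟨m', ?_⟩
  have e : d / π ^ m' = (d / u₁ / π ^ m') * u₁ := by
    field_simp
  rw [e]
  exact hm'.mul hu₁CU

end Tame


section Main

variable {K F k F₁ F₂ : Type} [Field K] [Field F] [Algebra K F] [Field k] [Field F₁]
  [Algebra k F₁] [Field F₂] [Algebra k F₂]

/-- **ST-RANK (c), abstract form.** -/
theorem inTA_abs [IsAlgClosed K] [IsAlgClosed k]
    (S : SSD K F k F₁ F₂) (H : FFHyp K F) (H₁ : FFHyp k F₁) (H₂ : FFHyp k F₂)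
    (g g₁ g₂ : ℕ) (c c₁ c₂ : ℤ) (hR : IsGenus K F g c) (hR₁ : IsGenus k F₁ g₁ c₁)
    (hR₂ : IsGenus k F₂ g₂ c₂) (hnum : g + 1 ≤ g₁ + g₂ + S.nodes.card)
    (n : ℕ) (hn : (n : k) ≠ 0)
    (I : Set (SemilinearAut K F)) (hI : ∀ τ ∈ I, S.IsInertial τ)
    (hcu : ∀ τ ∈ I, ∀ a : K, a ≠ 0 → S.IsCU (SemilinearAut.baseAut τ a / a))
    (π : K) (hπ0 : π ≠ 0) (hπI : ∀ τ ∈ I, SemilinearAut.baseAut τ π = π)
    (hπ : ∀ m : ℤ, S.IsCU (π ^ m) → m = 0)
    (hunr : ∀ Y : K, Y ≠ 0 → (∀ τ ∈ I, SemilinearAut.baseAut τ Y = Y) →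
      ∃ m : ℤ, S.IsCU (Y / π ^ m))
    (L : Subfield F) (hLI : ∀ f ∈ L, ∀ τ ∈ I, τ • f = f)
    (hlow₁ : ∀ f ∈ L, f ≠ 0 → ∃ m : ℤ, S.c₁.IsGU (f / algebraMap K F π ^ m))
    (hlow₂ : ∀ f ∈ L, f ≠ 0 → ∃ m : ℤ, S.c₂.IsGU (f / algebraMap K F π ^ m))
    (hπL : algebraMap K F π ∈ L)
    (happ : ∃ g₀ ∈ L, S.c₁.IsGU g₀ ∧ S.c₂.IsGU (g₀ / algebraMap K F π))
    (σ : SemilinearAut K F) (hσ : σ ∈ I) (h₀ : F) (hh₀ : h₀ ≠ 0)
    (hdiv₀ : ∀ P : Place K F, (n : ℤ) ∣ P.ord h₀)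
    (h : F) (hhL : h ∈ L) (hh : h ≠ 0) (w : F) (hw : w ≠ 0) (a : K) (ha : a ≠ 0)
    (hrel : h = algebraMap K F a * ((σ • h₀) / h₀) * w ^ n) :
    ∃ (f v : F) (b : K), f ∈ L ∧ v ∈ L ∧ v ≠ 0 ∧ b ≠ 0 ∧
      f = algebraMap K F b * h * v ^ n ∧ IsNP S.c₁ n f ∧ IsNP S.c₂ n f := by
  classical
  haveI : Infinite k := IsAlgClosed.instInfinite
  have hn0 : n ≠ 0 := by
    rintro rfl
    exact hn Nat.cast_zero
  have hnZ : (n : ℤ) ≠ 0 := by exact_mod_cast hn0
  have hσI := hI σ hσ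
  have hordτ : ∀ (τ : SemilinearAut K F) (P : Place K F) (y : F),
      P.ord (τ • y) = (τ⁻¹ • P).ord y := by
    intro τ P y
    have := SemilinearAut.ord_smul τ (τ⁻¹ • P) y
    rwa [smul_inv_smul] at this
  have hsmul0 : ∀ (τ : SemilinearAut K F) {y : F}, y ≠ 0 → τ • y ≠ 0 := by
    intro τ y hy h0
    apply hy
    have := congrArg (fun z => τ⁻¹ • z) h0
    simpa using this
  have halg0 : ∀ {x : K}, x ≠ 0 → algebraMap K F x ≠ 0 :=
    fun hx => (map_ne_zero (algebraMap K F)).2 hx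
  have hbase0 : ∀ (τ : SemilinearAut K F) {x : K}, x ≠ 0 → SemilinearAut.baseAut τ x ≠ 0 :=
    fun τ _ hx => (map_ne_zero (SemilinearAut.baseAut τ)).2 hx
  -- Step 1: the function `f₀ = σ H / H`
  obtain ⟨e₁, he₁0, hH₁⟩ := S.c₁.exists_isGU_scale hh₀
  obtain ⟨e₂, he₂0, hH₂⟩ := S.c₂.exists_isGU_scale hh₀
  obtain ⟨f₀, hf₀⟩ : ∃ f₀ : F, f₀ = (σ • (algebraMap K F e₁ * h₀)) / (algebraMap K F e₁ * h₀) :=
    ⟨_, rfl⟩
  have hf₀₁ := isGU_ratio_of (S := S.c₁) hσI.mem₁ hσI.red₁ hH₁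
  rw [← hf₀] at hf₀₁
  have hκ := hcu σ hσ (e₁ / e₂) (div_ne_zero he₁0 he₂0)
  obtain ⟨κ, hκdef⟩ : ∃ κ : K, κ = SemilinearAut.baseAut σ (e₁ / e₂) / (e₁ / e₂) := ⟨_, rfl⟩
  rw [← hκdef] at hκ
  have hσh₀ : σ • h₀ ≠ 0 := hsmul0 σ hh₀
  have hf₀κ : f₀ = algebraMap K F κ *
      ((σ • (algebraMap K F e₂ * h₀)) / (algebraMap K F e₂ * h₀)) := by
    have h1 := halg0 he₁0
    have h2 := halg0 he₂0
    have h3 := halg0 (hbase0 σ he₁0)
    have h4 := halg0 (hbase0 σ he₂0)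
    rw [hf₀, hκdef, smul_mul', smul_mul', SemilinearAut.smul_algebraMap,
      SemilinearAut.smul_algebraMap, map_div₀, map_div₀, map_div₀, map_div₀]
    field_simp
  have hr₂ := isGU_ratio_of (S := S.c₂) hσI.mem₂ hσI.red₂ hH₂
  have hf₀₂ : S.c₂.IsGU f₀ ∧ S.c₂.rd f₀ = S.c₂.rd (algebraMap K F κ) := by
    rw [hf₀κ]
    refine ⟨hκ.isGU₂.mul hr₂.1, ?_⟩
    rw [S.c₂.rd_mul hκ.isGU₂.1 hr₂.1.1, hr₂.2, mul_one]
  have hf₀0 : f₀ ≠ 0 := hf₀₁.1.ne_zero
  have hf₀NP₂ : IsNP S.c₂ n f₀ := by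
    obtain ⟨hGU, ψ, hψ⟩ := isNP_const (S := S.c₂) (n := n) hn0 hκ.isGU₂
    exact ⟨hf₀₂.1, ψ, by rw [hf₀₂.2, hψ]⟩
  -- the relation `h = a₁ f₀ w ^ n`
  obtain ⟨a₁, ha₁⟩ : ∃ a₁ : K, a₁ = a * (e₁ / SemilinearAut.baseAut σ e₁) := ⟨_, rfl⟩
  have ha₁0 : a₁ ≠ 0 := by
    rw [ha₁]
    exact mul_ne_zero ha (div_ne_zero he₁0 (hbase0 σ he₁0))
  have hrel₁ : h = algebraMap K F a₁ * f₀ * w ^ n := by
    have h1 := halg0 he₁0
    have h3 := halg0 (hbase0 σ he₁0)
    rw [hrel, ha₁, hf₀, smul_mul', SemilinearAut.smul_algebraMap, map_mul, map_div₀]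
    field_simp
  -- Step 2: the twist datum
  have hf₀div : ∀ P : Place K F, (n : ℤ) ∣ P.ord f₀ := by
    intro P
    rw [hf₀, ord_div P (hsmul0 σ hH₁.ne_zero) hH₁.ne_zero, hordτ,
      ord_algebraMap_mul _ he₁0, ord_algebraMap_mul _ he₁0]
    exact dvd_sub (hdiv₀ _) (hdiv₀ _)
  have hγ : ∀ s ∈ S.nodes, s.2.ord (S.c₂.rd (f₀ / (1 : F) ^ n)) = 0 := by
    intro s _
    obtain ⟨κ', hκ'⟩ := S.c₂.rd_const_eq κ hκ.isGU₂.1
    rw [one_pow, div_one, hf₀₂.2, hκ']
    exact Fermat.Agent.RED.H17.ord_algebraMap _ _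
  let X : S.Twist n :=
    { f := f₀
      ϑ := 1
      hϑ := one_ne_zero
      hf₁ := hf₀₁.1.1
      hrd₁ := hf₀₁.2
      hf₂ := by rw [one_pow, div_one]; exact hf₀₂.1
      hdiv := hf₀div
      hγ := hγ }
  -- Step 3: the moving lemma
  obtain ⟨h₁, hh₁₁, hh₁₂, hnode⟩ :=
    stmt_Moving K F k F₁ F₂ S H H₁ H₂ g g₁ g₂ c c₁ c₂ hR hR₁ hR₂ hnum n hn X
  have hh₁₂' : S.c₂.IsGU h₁ := by
    have : X.ϑ * h₁ = h₁ := one_mul h₁
    rw [this] at hh₁₂
    exact hh₁₂
  have hh₁0 : h₁ ≠ 0 := hh₁₁.ne_zero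
  obtain ⟨G₁, hG₁⟩ : ∃ G₁ : F, G₁ = f₀ * h₁ ^ n := ⟨_, rfl⟩
  have hnode' : ∀ P : Place K F, S.IsNodeP P → P.ord G₁ = 0 := by
    intro P hP
    rw [hG₁]
    exact hnode P hP
  have hG₁₁ : S.c₁.IsGU G₁ := by
    rw [hG₁]
    exact hf₀₁.1.mul (hh₁₁.pow n)
  have hG₁₂ : S.c₂.IsGU G₁ := by
    rw [hG₁]
    exact hf₀₂.1.mul (hh₁₂'.pow n)
  have hG₁0 : G₁ ≠ 0 := hG₁₁.ne_zero
  have hG₁NP₁ : IsNP S.c₁ n G₁ := by
    rw [hG₁]
    exact (isNP_of_rd_one hf₀₁.1 hf₀₁.2).mul (isNP_pow hh₁₁)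
  have hG₁NP₂ : IsNP S.c₂ n G₁ := by
    rw [hG₁]
    exact hf₀NP₂.mul (isNP_pow hh₁₂')
  have hG₁div : ∀ P : Place K F, (n : ℤ) ∣ P.ord G₁ := by
    intro P
    rw [hG₁, P.ord_mul hf₀0 (pow_ne_zero _ hh₁0), ord_pow]
    exact dvd_add (hf₀div P) (dvd_mul_right _ _)
  -- the relation `h = a₁ G₁ w' ^ n`
  obtain ⟨w', hw'⟩ : ∃ w' : F, w' = w / h₁ := ⟨_, rfl⟩
  have hw'0 : w' ≠ 0 := by
    rw [hw']
    exact div_ne_zero hw hh₁0
  have hrel₂ : h = algebraMap K F a₁ * G₁ * w' ^ n := by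
    rw [hrel₁, hG₁, hw', div_pow]
    field_simp
  -- Step 4: `τ G₁ / G₁ = t ^ n` with `rd₁ t = rd₂ t` constant
  have key4 : ∀ τ ∈ I, ∃ t : F, t ^ n = (τ • G₁) / G₁ ∧ S.c₁.IsGU t ∧ S.c₂.IsGU t ∧
      ∃ ζ : k, S.c₁.rd t = algebraMap k F₁ ζ ∧ S.c₂.rd t = algebraMap k F₂ ζ := by
    intro τ hτ
    have hτI := hI τ hτ
    have r₁ := isGU_ratio_of (S := S.c₁) hτI.mem₁ hτI.red₁ hG₁₁
    have r₂ := isGU_ratio_of (S := S.c₂) hτI.mem₂ hτI.red₂ hG₁₂
    have hordg : ∀ P : Place K F, P.ord ((τ • G₁) / G₁) = (τ⁻¹ • P).ord G₁ - P.ord G₁ := by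
      intro P
      rw [ord_div P (hsmul0 τ hG₁0) hG₁0, hordτ]
    have hdivg : ∀ P : Place K F, (n : ℤ) ∣ P.ord ((τ • G₁) / G₁) := by
      intro P
      rw [hordg]
      exact dvd_sub (hG₁div _) (hG₁div _)
    have hnodeτ : ∀ P : Place K F, S.IsNodeP P → S.IsNodeP (τ⁻¹ • P) := by
      rintro P ⟨s, hs, hP⟩
      refine ⟨s, hs, ?_⟩
      have := hτI.r₁ (τ⁻¹ • P)
      rw [smul_inv_smul] at this
      rw [← this, hP]
    have hnodeg : ∀ P : Place K F, S.IsNodeP P → P.ord ((τ • G₁) / G₁) = 0 := by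
      intro P hP
      rw [hordg, hnode' P hP, hnode' _ (hnodeτ P hP), sub_zero]
    obtain ⟨t, ht⟩ := H28.stmt_TIss K F k F₁ F₂ S H H₁ H₂ g g₁ g₂ c c₁ c₂ hR hR₁ hR₂ hnum n hn
      ((τ • G₁) / G₁) r₁.1.1 r₂.1.1 r₁.2 r₂.2 hdivg hnodeg
    have ht₁ : S.c₁.IsGU t := isGU_of_pow hn0 (by rw [ht]; exact r₁.1)
    have ht₂ : S.c₂.IsGU t := isGU_of_pow hn0 (by rw [ht]; exact r₂.1)
    obtain ⟨ζ₁, hζ₁, -⟩ := exists_const_of_pow_eq_one (k := k) hn0 (x := S.c₁.rd t)
      (by rw [← S.c₁.rd_pow ht₁.1, ht, r₁.2])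
    obtain ⟨ζ₂, hζ₂, -⟩ := exists_const_of_pow_eq_one (k := k) hn0 (x := S.c₂.rd t)
      (by rw [← S.c₂.rd_pow ht₂.1, ht, r₂.2])
    obtain ⟨s, hs⟩ := S.nodes_nonempty
    have hreg : ∀ P, S.c₁.r P = some s.1 → 0 ≤ P.ord t := by
      intro P hP
      have hPn : S.IsNodeP P := ⟨s, hs, hP⟩
      have h1 : (n : ℤ) * P.ord t = 0 := by
        rw [← ord_pow, ht]
        exact hnodeg P hPn
      rcases mul_eq_zero.1 h1 with h2 | h2
      · exact absurd h2 hnZ
      · exact h2.ge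
    obtain ⟨a₀, ha₀₁, ha₀₂⟩ := S.glue s hs t ht₁.1 ht₂.1 hreg
    rw [← S.c₁.rd_of_mem ht₁.1, hζ₁, ← map_sub] at ha₀₁
    rw [← S.c₂.rd_of_mem ht₂.1, hζ₂, ← map_sub] at ha₀₂
    have e1 := const_eq_zero_of_vanAt ha₀₁
    have e2 := const_eq_zero_of_vanAt ha₀₂
    refine ⟨t, ht, ht₁, ht₂, ζ₁, hζ₁, ?_⟩
    rw [hζ₂]
    congr 1
    rw [sub_eq_zero] at e1 e2
    rw [e1, e2]
  -- Step 6: the scaling constants of `w'`
  obtain ⟨d₁, hd₁0, hW₁⟩ := S.c₁.exists_isGU_scale hw'0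
  obtain ⟨d₂, hd₂0, hW₂⟩ := S.c₂.exists_isGU_scale hw'0
  obtain ⟨d, hd⟩ : ∃ d : K, d = d₁ / d₂ := ⟨_, rfl⟩
  have hd0 : d ≠ 0 := by
    rw [hd]
    exact div_ne_zero hd₁0 hd₂0
  have key6 : ∀ τ ∈ I, S.IsCU (SemilinearAut.baseAut τ d / d) ∧
      S.c₁.rd (algebraMap K F (SemilinearAut.baseAut τ d / d)) = 1 := by
    intro τ hτ
    have hτI := hI τ hτ
    obtain ⟨t, ht, ht₁, ht₂, ζ, hζ₁, hζ₂⟩ := key4 τ hτ
    have ht0 : t ≠ 0 := ht₁.ne_zero
    -- `τ h = h`
    have hτh : τ • h = h := hLI h hhL τ hτ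
    have hτw'0 : τ • w' ≠ 0 := hsmul0 τ hw'0
    have hτa₁0 := halg0 (hbase0 τ ha₁0)
    have ha₁0' := halg0 ha₁0
    -- `u = t τ w' / w'` is a constant
    obtain ⟨u, hu⟩ : ∃ u : F, u = t * (τ • w') / w' := ⟨_, rfl⟩
    have hu0 : u ≠ 0 := by
      rw [hu]
      exact div_ne_zero (mul_ne_zero ht0 hτw'0) hw'0
    have hun : u ^ n = algebraMap K F (a₁ / SemilinearAut.baseAut τ a₁) := by
      have h1 : τ • h = algebraMap K F (SemilinearAut.baseAut τ a₁) * (τ • G₁) * (τ • w') ^ n := by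
        rw [hrel₂, smul_mul', smul_mul', SemilinearAut.smul_algebraMap, smul_pow']
      have h2 : τ • G₁ = t ^ n * G₁ := by
        rw [ht]
        field_simp
      rw [hτh, h2] at h1
      have h3 : algebraMap K F a₁ * G₁ * w' ^ n
          = algebraMap K F (SemilinearAut.baseAut τ a₁) * (t ^ n * G₁) * (τ • w') ^ n := by
        rw [← hrel₂]
        exact h1
      rw [hu, div_pow, mul_pow, map_div₀, div_eq_div_iff (pow_ne_zero _ hw'0) hτa₁0]
      apply mul_left_cancel₀ hG₁0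
      linear_combination -h3
    have hu_ord : ∀ P : Place K F, 0 ≤ P.ord u := by
      intro P
      have h1 : (n : ℤ) * P.ord u = 0 := by
        rw [← ord_pow, hun]
        exact Fermat.Agent.RED.H17.ord_algebraMap _ _
      rcases mul_eq_zero.1 h1 with h2 | h2
      · exact absurd h2 hnZ
      · exact h2.ge
    obtain ⟨u₀, hu₀⟩ := H.const_of_regular hu_ord
    have hu₀0 : u₀ ≠ 0 := by
      rintro rfl
      rw [map_zero] at hu₀
      exact hu0 hu₀
    -- the two unit constants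
    have hτd₁0 := hbase0 τ hd₁0
    have hτd₂0 := hbase0 τ hd₂0
    have rW₁ := isGU_ratio_of (S := S.c₁) hτI.mem₁ hτI.red₁ hW₁
    have rW₂ := isGU_ratio_of (S := S.c₂) hτI.mem₂ hτI.red₂ hW₂
    have hε₁ : algebraMap K F (u₀ * (SemilinearAut.baseAut τ d₁ / d₁))
        = t * ((τ • (algebraMap K F d₁ * w')) / (algebraMap K F d₁ * w')) := by
      have h1 := halg0 hd₁0
      have h2 := halg0 hτd₁0
      rw [map_mul, ← hu₀, hu, smul_mul', SemilinearAut.smul_algebraMap, map_div₀]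
      field_simp
    have hε₂ : algebraMap K F (u₀ * (SemilinearAut.baseAut τ d₂ / d₂))
        = t * ((τ • (algebraMap K F d₂ * w')) / (algebraMap K F d₂ * w')) := by
      have h1 := halg0 hd₂0
      have h2 := halg0 hτd₂0
      rw [map_mul, ← hu₀, hu, smul_mul', SemilinearAut.smul_algebraMap, map_div₀]
      field_simp
    have hε₁GU : S.c₁.IsGU (algebraMap K F (u₀ * (SemilinearAut.baseAut τ d₁ / d₁))) := by
      rw [hε₁]
      exact ht₁.mul rW₁.1
    have hε₁rd : S.c₁.rd (algebraMap K F (u₀ * (SemilinearAut.baseAut τ d₁ / d₁)))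
        = algebraMap k F₁ ζ := by
      rw [hε₁, S.c₁.rd_mul ht₁.1 rW₁.1.1, rW₁.2, mul_one, hζ₁]
    have hε₂GU : S.c₂.IsGU (algebraMap K F (u₀ * (SemilinearAut.baseAut τ d₂ / d₂))) := by
      rw [hε₂]
      exact ht₂.mul rW₂.1
    have hε₂rd : S.c₂.rd (algebraMap K F (u₀ * (SemilinearAut.baseAut τ d₂ / d₂)))
        = algebraMap k F₂ ζ := by
      rw [hε₂, S.c₂.rd_mul ht₂.1 rW₂.1.1, rW₂.2, mul_one, hζ₂]
    have hε₂rd₁ := (S.rd₁_const hε₂GU.1 hε₂rd).2
    have hε₂GU₁ : S.c₁.IsGU (algebraMap K F (u₀ * (SemilinearAut.baseAut τ d₂ / d₂))) :=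
      S.isGU₁_const hε₂GU
    have hζ0 : algebraMap k F₁ ζ ≠ 0 := by
      rw [← hε₁rd]
      exact hε₁GU.2
    have hquot : SemilinearAut.baseAut τ d / d
        = (u₀ * (SemilinearAut.baseAut τ d₁ / d₁)) / (u₀ * (SemilinearAut.baseAut τ d₂ / d₂)) := by
      rw [hd, map_div₀]
      field_simp
    rw [hquot]
    refine ⟨?_, ?_⟩
    · show S.c₁.IsGU (algebraMap K F _)
      rw [map_div₀]
      exact hε₁GU.div hε₂GU₁
    · rw [map_div₀, hε₁GU.rd_div hε₂GU₁, hε₁rd, hε₂rd₁, div_self hζ0]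
  -- Step 7: the slopes
  obtain ⟨p, hp⟩ : ∃ p : F, p = algebraMap K F π := ⟨_, rfl⟩
  rw [← hp] at hlow₁ hlow₂ hπL happ
  have hp0 : p ≠ 0 := by
    rw [hp]
    exact halg0 hπ0
  obtain ⟨m₁, hm₁⟩ := hlow₁ h hhL hh
  obtain ⟨m₂, hm₂⟩ := hlow₂ h hhL hh
  obtain ⟨W₁, hW₁def⟩ : ∃ W₁ : F, W₁ = algebraMap K F d₁ * w' := ⟨_, rfl⟩
  obtain ⟨W₂, hW₂def⟩ : ∃ W₂ : F, W₂ = algebraMap K F d₂ * w' := ⟨_, rfl⟩
  rw [← hW₁def] at hW₁
  rw [← hW₂def] at hW₂
  have hA₁ : h / p ^ m₁ = algebraMap K F (a₁ / d₁ ^ n / π ^ m₁) * (G₁ * W₁ ^ n) := by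
    have h1 := halg0 hd₁0
    have h2 : p ^ m₁ ≠ 0 := zpow_ne_zero _ hp0
    rw [hrel₂, hW₁def, map_div₀, map_div₀, map_pow, map_zpow₀, ← hp, mul_pow]
    field_simp
  have hA₂ : h / p ^ m₂ = algebraMap K F (a₁ / d₂ ^ n / π ^ m₂) * (G₁ * W₂ ^ n) := by
    have h1 := halg0 hd₂0
    have h2 : p ^ m₂ ≠ 0 := zpow_ne_zero _ hp0
    rw [hrel₂, hW₂def, map_div₀, map_div₀, map_pow, map_zpow₀, ← hp, mul_pow]
    field_simp
  have hGW₁ : S.c₁.IsGU (G₁ * W₁ ^ n) := hG₁₁.mul (hW₁.pow n)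
  have hGW₂ : S.c₂.IsGU (G₁ * W₂ ^ n) := hG₁₂.mul (hW₂.pow n)
  have hA₁CU : S.c₁.IsGU (algebraMap K F (a₁ / d₁ ^ n / π ^ m₁)) :=
    isGU_const_of_mul hGW₁ (by rw [← hA₁]; exact hm₁)
  have hA₂CU : S.c₂.IsGU (algebraMap K F (a₁ / d₂ ^ n / π ^ m₂)) :=
    isGU_const_of_mul hGW₂ (by rw [← hA₂]; exact hm₂)
  have hπm : ∀ m : ℤ, π ^ m ≠ 0 := fun m => zpow_ne_zero _ hπ0
  have hdn : S.IsCU (d ^ n / π ^ (m₂ - m₁)) := by
    have h1 : S.IsCU (a₁ / d₁ ^ n / π ^ m₁) := hA₁CU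
    have h2 : S.IsCU (a₁ / d₂ ^ n / π ^ m₂) := SSD.isCU_of_isGU₂ hA₂CU
    have e : d ^ n / π ^ (m₂ - m₁) = (a₁ / d₂ ^ n / π ^ m₂) / (a₁ / d₁ ^ n / π ^ m₁) := by
      have h3 := hπm m₁
      have h4 := hπm m₂
      rw [hd, div_pow, zpow_sub₀ hπ0]
      field_simp
    rw [e]
    exact h2.div h1
  -- Step 8: Kummer theory
  obtain ⟨m', hm'⟩ := tame_abs S hn I hI π hπ0 hπI hunr hd0 hdn key6
  have hmm : m₂ - m₁ = (n : ℤ) * m' := by
    have h1 : S.IsCU ((d / π ^ m') ^ n) := hm'.pow n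
    have h2 : S.IsCU (π ^ ((n : ℤ) * m' - (m₂ - m₁))) := by
      have e : π ^ ((n : ℤ) * m' - (m₂ - m₁)) = (d ^ n / π ^ (m₂ - m₁)) / ((d / π ^ m') ^ n) := by
        have h3 := hπm m'
        have h4 := hπm (m₂ - m₁)
        have h5 : (π ^ m') ^ n = π ^ ((n : ℤ) * m') := by
          rw [← zpow_natCast, ← zpow_mul, mul_comm]
        rw [zpow_sub₀ hπ0, div_pow, h5]
        have h6 := hπm ((n : ℤ) * m')
        have h7 : d ^ n ≠ 0 := pow_ne_zero _ hd0
        field_simp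
      rw [e]
      exact hdn.div h1
    have := hπ _ h2
    omega
  -- Step 9: the function
  obtain ⟨g₀, hg₀L, hg₀₁, hg₀₂⟩ := happ
  have hg₀0 : g₀ ≠ 0 := hg₀₁.ne_zero
  obtain ⟨v, hv⟩ : ∃ v : F, v = g₀ ^ (-m') := ⟨_, rfl⟩
  have hv0 : v ≠ 0 := by
    rw [hv]
    exact zpow_ne_zero _ hg₀0
  have hvL : v ∈ L := by
    rw [hv]
    exact zpow_mem hg₀L _
  have hv₁ : S.c₁.IsGU v := by
    rw [hv]
    exact hg₀₁.zpow _
  have hv₂ : S.c₂.IsGU ((g₀ / p) ^ (-m')) := hg₀₂.zpow _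
  have hpm₁0 : π ^ (-m₁) ≠ 0 := hπm _
  refine ⟨algebraMap K F (π ^ (-m₁)) * h * v ^ n, v, π ^ (-m₁), ?_, hvL, hv0, hpm₁0, rfl, ?_, ?_⟩
  · refine L.mul_mem (L.mul_mem ?_ hhL) (pow_mem hvL n)
    rw [map_zpow₀, ← hp]
    exact zpow_mem hπL _
  · -- first valuation
    have e : algebraMap K F (π ^ (-m₁)) * h * v ^ n
        = algebraMap K F (a₁ / d₁ ^ n / π ^ m₁) * (G₁ * W₁ ^ n) * v ^ n := by
      rw [← hA₁, map_zpow₀, ← hp, zpow_neg]
      field_simp
    rw [e]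
    exact ((isNP_const hn0 hA₁CU).mul (hG₁NP₁.mul (isNP_pow hW₁))).mul (isNP_pow hv₁)
  · -- second valuation
    have e : algebraMap K F (π ^ (-m₁)) * h * v ^ n
        = algebraMap K F (a₁ / d₂ ^ n / π ^ m₂) * (G₁ * W₂ ^ n) * ((g₀ / p) ^ (-m')) ^ n := by
      rw [← hA₂, map_zpow₀, ← hp, hv]
      have h1 : ((g₀ / p) ^ (-m')) ^ n = (g₀ ^ (-m')) ^ n * p ^ ((n : ℤ) * m') := by
        rw [div_zpow, div_pow, zpow_neg, zpow_neg, inv_pow, inv_pow, ← zpow_natCast (p ^ m') n,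
          ← zpow_mul, mul_comm m' (n : ℤ)]
        have h2 : p ^ ((n : ℤ) * m') ≠ 0 := zpow_ne_zero _ hp0
        field_simp
      rw [h1, ← hmm, zpow_sub₀ hp0, zpow_neg]
      have h3 : p ^ m₁ ≠ 0 := zpow_ne_zero _ hp0
      have h4 : p ^ m₂ ≠ 0 := zpow_ne_zero _ hp0
      field_simp
    rw [e]
    exact ((isNP_const hn0 hA₂CU).mul (hG₁NP₂.mul (isNP_pow hW₂))).mul (isNP_pow hv₂)

end Main

end Fermat.Agent.S59.LL.SQ.H64

end
end
-- ==== END Fermat.Agent.S59.LL.SQ.H64_StRankCAbs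

-- ==== BEGIN Fermat.Agent.S59.LL.SQ.H69_StRankFAbs2
section

/-!
# S59 / LL / SQ, leaf ST-RANK (f), abstract part 2: the regular part (helper69)

`S : BAD.SSD K F k F₁ F₂`, `L` a subfield of `F`, `n = p ^ j`.

* `reg_of_nodes` : if `f` is a unit for the two valuations, `n ∣ div f` and `n` divides the orders
  of `rd₁ f` at the first branches of the nodes, then `n ∣ div (rd₁ f)` and `n ∣ div (rd₂ f)`
  (divisor identity at the regular points, conservation at the nodes);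
* `InGregA S L n x` : **the regular part**: `x` has a Kummer function in `L`, unit for the two
  valuations, whose reductions have divisors divisible by `n`;  `T ⊆ G_reg ⊆ G`;
* `card_inGregA_le` : **(f2)** `#G_reg ≤ #Pic⁰(F₁)[n] · #Pic⁰(F₂)[n] · #T`;
* `card_inGA_le_inGregA` : **(f1)** `#G ≤ p ^ δ · #G_reg` (`δ` the number of nodes) if
  `p ^ (j - 1)` divides the orders of `rd₁ f` at the first branches of the nodes for all Kummer
  functions `f` of the finite part (true if all thicknesses divide `12` and `p` is odd);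
* `card_inGA_le_weak` : **ST-RANK (f), weak form** `#G ≤ p ^ δ · #Pic⁰(F₁)[n] · #Pic⁰(F₂)[n] · #T`.

This file contains no unproved statement.
-/

set_option autoImplicit false
set_option linter.style.haveILetI false
set_option linter.unusedSectionVars false
set_option maxHeartbeats 1000000

noncomputable section

open AlgebraicCurve

attribute [local instance] Classical.propDecidable

namespace Fermat.Agent.S59.LL.SQ.H69

open Fermat.Agent.RED.H17 Fermat.Agent.RED Fermat.Agent.BAD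

section Abs2

variable {K F k F₁ F₂ : Type*} [Field K] [Field F] [Algebra K F] [Field k] [Field F₁]
  [Algebra k F₁] [Field F₂] [Algebra k F₂]

/-- Divisibility of the push-forward of the divisor of a function whose orders are divisible
by `n`. -/
theorem dvd_mapDomain_dv {X : Type*} (hP : HasPrincipalDivisors K F) (r : Place K F → X) (n : ℕ)
    {f : F} (hdiv : ∀ P : Place K F, (n : ℤ) ∣ P.ord f) (D : Divisor K F)
    (hD : ∀ P, D P = P.ord f) (x : X) : (n : ℤ) ∣ Finsupp.mapDomain r D x := by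
  have e : D = (n : ℤ) • rootDiv hP n f := by
    rw [zsmul_rootDiv hP hdiv]
    exact eq_dv hP hD
  rw [e, Finsupp.mapDomain_smul, Finsupp.smul_apply, smul_eq_mul]
  exact dvd_mul_right _ _

/-- **REG from the nodes.** -/
theorem reg_of_nodes (S : SSD K F k F₁ F₂) (hP : HasPrincipalDivisors K F) (n : ℕ) {f : F}
    (G₁ : S.c₁.IsGU f) (G₂ : S.c₂.IsGU f) (hdiv : ∀ P : Place K F, (n : ℤ) ∣ P.ord f)
    (hnode : ∀ s ∈ S.nodes, (n : ℤ) ∣ s.1.ord (S.c₁.rd f)) :
    (∀ Q : Place k F₁, (n : ℤ) ∣ Q.ord (S.c₁.rd f)) ∧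
      (∀ Q : Place k F₂, (n : ℤ) ∣ Q.ord (S.c₂.rd f)) := by
  have h1 : ∀ Q : Place k F₁, (n : ℤ) ∣ Q.ord (S.c₁.rd f) := by
    intro Q
    by_cases hQ : Q ∈ S.c₁.good
    · rw [S.c₁.ord_rd_eq_sum hP G₁ Q hQ]
      refine Finset.dvd_sum fun P _ => ?_
      split_ifs
      · exact hdiv P
      · exact dvd_zero _
    · rw [S.good₁] at hQ
      push Not at hQ
      obtain ⟨s, hs, rfl⟩ := hQ
      exact hnode s hs
  refine ⟨h1, fun Q => ?_⟩
  by_cases hQ : Q ∈ S.c₂.good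
  · rw [S.c₂.ord_rd_eq_sum hP G₂ Q hQ]
    refine Finset.dvd_sum fun P _ => ?_
    split_ifs
    · exact hdiv P
    · exact dvd_zero _
  · rw [S.good₂] at hQ
    push Not at hQ
    obtain ⟨s, hs, rfl⟩ := hQ
    have hDI := S.DIn s hs ⟨f, G₁.1⟩ ⟨f, G₂.1⟩
      (by rw [← S.c₁.rd_of_mem G₁.1]; exact G₁.2)
      (by rw [← S.c₂.rd_of_mem G₂.1]; exact G₂.2)
      ⟨1, by rw [map_one, one_mul]⟩ (dv hP f) (fun P => dv_apply hP f P)
    have h2 := dvd_mapDomain_dv hP S.c₁.r n hdiv (dv hP f) (fun P => dv_apply hP f P)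
      (some s.1)
    rw [hDI, ← S.c₁.rd_of_mem G₁.1, ← S.c₂.rd_of_mem G₂.1] at h2
    exact (dvd_add_right (h1 s.1)).mp h2

/-- **The regular part** (exponent `n`): the classes with a Kummer function in `L`, unit for the
two valuations, whose reductions have divisors divisible by `n`. -/
def InGregA (S : SSD K F k F₁ F₂) (L : Subfield F) (n : ℕ) (x : Pic0 K F) : Prop :=
  ∃ f : F, f ∈ L ∧ IsKumA n x f ∧ S.c₁.IsGU f ∧ S.c₂.IsGU f ∧
    (∀ Q : Place k F₁, (n : ℤ) ∣ Q.ord (S.c₁.rd f)) ∧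
      (∀ Q : Place k F₂, (n : ℤ) ∣ Q.ord (S.c₂.rd f))

theorem InGregA.inGA {S : SSD K F k F₁ F₂} {L : Subfield F} {n : ℕ} {x : Pic0 K F}
    (h : InGregA S L n x) : InGA S L n x := by
  obtain ⟨f, hfL, hK, h₁, h₂, -⟩ := h
  exact ⟨f, hfL, hK, h₁, h₂⟩

theorem InTA.inGregA {S : SSD K F k F₁ F₂} {L : Subfield F} {n : ℕ} {x : Pic0 K F}
    (h : InTA S L n x) : InGregA S L n x := by
  obtain ⟨f, hfL, hK, h₁, h₂, ψ₁, ψ₂, e₁, e₂⟩ := h
  refine ⟨f, hfL, hK, h₁, h₂, fun Q => ?_, fun Q => ?_⟩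
  · rw [e₁, ord_pow]
    exact dvd_mul_right _ _
  · rw [e₂, ord_pow]
    exact dvd_mul_right _ _

/-- **(f2)**: `#G_reg ≤ #Pic⁰(F₁)[n] · #Pic⁰(F₂)[n] · #T`. -/
theorem card_inGregA_le [IsAlgClosed k] (S : SSD K F k F₁ F₂) (L : Subfield F)
    (H₁ : FFHyp k F₁) (H₂ : FFHyp k F₂) (n : ℕ) (hn : n ≠ 0)
    [Finite (Pic0.torsion k F₁ n)] [Finite (Pic0.torsion k F₂ n)]
    (hT : {x : Pic0 K F | InTA S L n x}.Finite) :
    Nat.card {x : Pic0 K F | InGregA S L n x} ≤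
      Nat.card (Pic0.torsion k F₁ n) * Nat.card (Pic0.torsion k F₂ n) *
        Nat.card {x : Pic0 K F | InTA S L n x} := by
  have hex : ∀ x : {x : Pic0 K F | InGregA S L n x}, ∃ f : F, f ∈ L ∧
      IsKumA n (x : Pic0 K F) f ∧ S.c₁.IsGU f ∧ S.c₂.IsGU f ∧
      (∀ Q : Place k F₁, (n : ℤ) ∣ Q.ord (S.c₁.rd f)) ∧
        (∀ Q : Place k F₂, (n : ℤ) ∣ Q.ord (S.c₂.rd f)) := fun x => x.2
  choose φ hφL hφK hφ₁ hφ₂ hR₁ hR₂ using hex
  let c : {x : Pic0 K F | InGregA S L n x} → Pic0.torsion k F₁ n × Pic0.torsion k F₂ n :=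
    fun x => (⟨rootCls H₁.principal n hn (S.c₁.rd (φ x)) (hR₁ x),
        rootCls_mem_torsion H₁.principal n hn (hφ₁ x).rd_ne_zero (hR₁ x)⟩,
      ⟨rootCls H₂.principal n hn (S.c₂.rd (φ x)) (hR₂ x),
        rootCls_mem_torsion H₂.principal n hn (hφ₂ x).rd_ne_zero (hR₂ x)⟩)
  have key := card_le_of_fibres {x : Pic0 K F | InGregA S L n x} {x : Pic0 K F | InTA S L n x}
    hT c (by
      intro x y hxy
      have h1 : rootCls H₁.principal n hn (S.c₁.rd (φ x)) (hR₁ x)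
          = rootCls H₁.principal n hn (S.c₁.rd (φ y)) (hR₁ y) :=
        congrArg (fun z : Pic0.torsion k F₁ n × Pic0.torsion k F₂ n => (z.1 : Pic0 k F₁)) hxy
      have h2 : rootCls H₂.principal n hn (S.c₂.rd (φ x)) (hR₂ x)
          = rootCls H₂.principal n hn (S.c₂.rd (φ y)) (hR₂ y) :=
        congrArg (fun z : Pic0.torsion k F₁ n × Pic0.torsion k F₂ n => (z.2 : Pic0 k F₂)) hxy
      obtain ⟨g₁, -, hg₁⟩ := eq_of_rootCls_eq H₁ n hn (hφ₁ x).rd_ne_zero (hφ₁ y).rd_ne_zero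
        (hR₁ x) (hR₁ y) h1
      obtain ⟨g₂, -, hg₂⟩ := eq_of_rootCls_eq H₂ n hn (hφ₂ x).rd_ne_zero (hφ₂ y).rd_ne_zero
        (hR₂ x) (hR₂ y) h2
      refine ⟨φ x / φ y, L.div_mem (hφL x) (hφL y),
        (hφK x).div (hφK y) (hφ₁ x).ne_zero (hφ₁ y).ne_zero,
        (hφ₁ x).div (hφ₁ y), (hφ₂ x).div (hφ₂ y), g₁, g₂, ?_, ?_⟩
      · rw [(hφ₁ x).rd_div (hφ₁ y), hg₁]
      · rw [(hφ₂ x).rd_div (hφ₂ y), hg₂])
  rwa [Nat.card_prod] at key

/-- **(f1)**: `#G ≤ p ^ δ · #G_reg`, if `p ^ (j - 1)` divides the orders of the first reductions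
of the Kummer functions of the finite part at the first branches of the nodes. -/
theorem card_inGA_le_inGregA (S : SSD K F k F₁ F₂) (L : Subfield F)
    (hP : HasPrincipalDivisors K F) (p j : ℕ) (hp : p.Prime)
    (hweak : ∀ f : F, f ∈ L → S.c₁.IsGU f → S.c₂.IsGU f →
      (∀ P : Place K F, ((p ^ j : ℕ) : ℤ) ∣ P.ord f) →
      ∀ s ∈ S.nodes, ((p ^ (j - 1) : ℕ) : ℤ) ∣ s.1.ord (S.c₁.rd f))
    (hfin : {x : Pic0 K F | InGregA S L (p ^ j) x}.Finite) :
    Nat.card {x : Pic0 K F | InGA S L (p ^ j) x} ≤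
      p ^ S.nodes.card * Nat.card {x : Pic0 K F | InGregA S L (p ^ j) x} := by
  haveI : NeZero p := ⟨hp.ne_zero⟩
  have hex : ∀ x : {x : Pic0 K F | InGA S L (p ^ j) x}, ∃ f : F, f ∈ L ∧
      IsKumA (p ^ j) (x : Pic0 K F) f ∧ S.c₁.IsGU f ∧ S.c₂.IsGU f := fun x => x.2
  choose φ hφL hφK hφ₁ hφ₂ using hex
  let c : {x : Pic0 K F | InGA S L (p ^ j) x} → (↥S.nodes → ZMod p) :=
    fun x s => ((s.1.1.ord (S.c₁.rd (φ x)) / ((p ^ (j - 1) : ℕ) : ℤ) : ℤ) : ZMod p)
  have key := card_le_of_fibres {x : Pic0 K F | InGA S L (p ^ j) x}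
    {x : Pic0 K F | InGregA S L (p ^ j) x} hfin c (by
      intro x y hxy
      have hG₁ : S.c₁.IsGU (φ x / φ y) := (hφ₁ x).div (hφ₁ y)
      have hG₂ : S.c₂.IsGU (φ x / φ y) := (hφ₂ x).div (hφ₂ y)
      have hK : IsKumA (p ^ j) ((x : Pic0 K F) - (y : Pic0 K F)) (φ x / φ y) :=
        (hφK x).div (hφK y) (hφ₁ x).ne_zero (hφ₁ y).ne_zero
      have hnode : ∀ s ∈ S.nodes, ((p ^ j : ℕ) : ℤ) ∣ s.1.ord (S.c₁.rd (φ x / φ y)) := by
        intro s hs
        rw [(hφ₁ x).rd_div (hφ₁ y), ord_div s.1 (hφ₁ x).rd_ne_zero (hφ₁ y).rd_ne_zero]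
        obtain ⟨u, hu⟩ := hweak (φ x) (hφL x) (hφ₁ x) (hφ₂ x) (hφK x).dvd s hs
        obtain ⟨v, hv⟩ := hweak (φ y) (hφL y) (hφ₁ y) (hφ₂ y) (hφK y).dvd s hs
        have hpj0 : ((p ^ (j - 1) : ℕ) : ℤ) ≠ 0 := by
          exact_mod_cast pow_ne_zero _ hp.ne_zero
        have hc := congrFun hxy ⟨s, hs⟩
        simp only [c] at hc
        rw [hu, hv, Int.mul_ediv_cancel_left _ hpj0, Int.mul_ediv_cancel_left _ hpj0] at hc
        have hpuv : (p : ℤ) ∣ u - v := by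
          rw [← ZMod.intCast_zmod_eq_zero_iff_dvd]
          push_cast
          rw [hc, sub_self]
        rw [hu, hv, ← mul_sub]
        rcases Nat.eq_zero_or_pos j with h0 | hpos
        · subst h0
          simp
        · obtain ⟨w, hw⟩ := hpuv
          refine ⟨w, ?_⟩
          have e : ((p ^ j : ℕ) : ℤ) = ((p ^ (j - 1) : ℕ) : ℤ) * (p : ℤ) := by
            rw [← Nat.cast_mul, ← pow_succ]
            congr 2
            omega
          rw [e, hw]
          ring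
      obtain ⟨hR₁, hR₂⟩ := reg_of_nodes S hP (p ^ j) hG₁ hG₂ hK.dvd hnode
      exact ⟨φ x / φ y, L.div_mem (hφL x) (hφL y), hK, hG₁, hG₂, hR₁, hR₂⟩)
  have hX : Nat.card (↥S.nodes → ZMod p) = p ^ S.nodes.card := by
    rw [Nat.card_fun, Nat.card_eq_fintype_card (α := ↥S.nodes), Fintype.card_coe,
      Nat.card_eq_fintype_card, ZMod.card]
  rwa [hX] at key

/-- **ST-RANK (f), weak form**: `#G ≤ p ^ δ · #Pic⁰(F₁)[n] · #Pic⁰(F₂)[n] · #T`, `n = p ^ j`. -/
theorem card_inGA_le_weak [IsAlgClosed k] (S : SSD K F k F₁ F₂) (L : Subfield F)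
    (hP : HasPrincipalDivisors K F) (H₁ : FFHyp k F₁) (H₂ : FFHyp k F₂) (p j : ℕ)
    (hp : p.Prime)
    (hweak : ∀ f : F, f ∈ L → S.c₁.IsGU f → S.c₂.IsGU f →
      (∀ P : Place K F, ((p ^ j : ℕ) : ℤ) ∣ P.ord f) →
      ∀ s ∈ S.nodes, ((p ^ (j - 1) : ℕ) : ℤ) ∣ s.1.ord (S.c₁.rd f))
    [Finite (Pic0.torsion k F₁ (p ^ j))] [Finite (Pic0.torsion k F₂ (p ^ j))]
    (hfin : {x : Pic0 K F | InGA S L (p ^ j) x}.Finite) :
    Nat.card {x : Pic0 K F | InGA S L (p ^ j) x} ≤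
      p ^ S.nodes.card * (Nat.card (Pic0.torsion k F₁ (p ^ j)) *
        Nat.card (Pic0.torsion k F₂ (p ^ j)) *
          Nat.card {x : Pic0 K F | InTA S L (p ^ j) x}) := by
  have hfinR : {x : Pic0 K F | InGregA S L (p ^ j) x}.Finite :=
    hfin.subset (fun x hx => InGregA.inGA hx)
  have hfinT : {x : Pic0 K F | InTA S L (p ^ j) x}.Finite :=
    hfin.subset (fun x hx => InTA.inGA hx)
  exact (card_inGA_le_inGregA S L hP p j hp hweak hfinR).trans
    (Nat.mul_le_mul_left _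
      (card_inGregA_le S L H₁ H₂ (p ^ j) (pow_ne_zero _ hp.ne_zero) hfinT))

end Abs2

end Fermat.Agent.S59.LL.SQ.H69

end
end
-- ==== END Fermat.Agent.S59.LL.SQ.H69_StRankFAbs2

-- ==== BEGIN Fermat.Agent.S59.LL.SQ.H83_StRankG
section

/-!
# S59 / LL / SQ, leaf ST-RANK (g): the glue subgroup (helper83)

For a semistable degeneration datum `S : BAD.SSD K F k F₁ F₂` and `n = p ^ e` invertible in `k`:

* `IsGlueVec S n ψ₁ ψ₂ v` : the vector `v : nodes → μ_n` of the quotients `ψ₁(z₁) / ψ₂(z₂)` of the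
  values of `ψ₁`, `ψ₂` at the two branches of the nodes;
* `exists_glueVec` : every triple as in `S15.Desc.H83.IsTor` has a glue vector;
* `pow_of_glueVec_const` : a triple with constant glue vector is an `n`-th power (this is
  `S15.Desc.H83.core`);
* `exists_tor_of_count` : **ST-RANK (g)**.  If a finite family of triples `IsTor S (p ^ e)`, with
  functions in a submonoid `M`, pairwise distinct modulo `n`-th powers, has at least
  `p ^ (e (δ - 1) - (e + c') / 2)` members (`c' < e`, `δ` the number of nodes), then EVERY vector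
  `θ : nodes → μ_p` is the glue vector of a triple `IsTor S (p ^ e) G' ψ₁' ψ₂'` with `G' ∈ M`.

This file contains no unproved statement.
-/

set_option autoImplicit false

noncomputable section

open AlgebraicCurve

namespace Fermat.Agent.S59.LL.SQ.H83

open Fermat.Agent.RED.H17 Fermat.Agent.RED Fermat.Agent.BAD Fermat.Agent.S15.Desc.H83

section Glue

variable {K F k F₁ F₂ : Type} [Field K] [Field F] [Algebra K F] [Field k] [Field F₁]
  [Algebra k F₁] [Field F₂] [Algebra k F₂]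

/-- `v` is the vector of the quotients of the values of `ψ₁` and `ψ₂` at the two branches of the
nodes. -/
def IsGlueVec (S : SSD K F k F₁ F₂) (n : ℕ) (ψ₁ : F₁) (ψ₂ : F₂)
    (v : ↥S.nodes → rootsOfUnity n k) : Prop :=
  ∀ s : ↥S.nodes, ∃ a b : k, b ≠ 0 ∧ VanAt s.1.1 (ψ₁ - algebraMap k F₁ a) ∧
    VanAt s.1.2 (ψ₂ - algebraMap k F₂ b) ∧ a = (((v s : rootsOfUnity n k) : kˣ) : k) * b

variable {S : SSD K F k F₁ F₂}

theorem isGlueVec_one (n : ℕ) : IsGlueVec S n (1 : F₁) (1 : F₂) 1 := by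
  intro s
  refine ⟨1, 1, one_ne_zero, vanAt_one_sub s.1.1, vanAt_one_sub s.1.2, ?_⟩
  simp

theorem IsGlueVec.mul {n : ℕ} {ψ₁ ψ₁' : F₁} {ψ₂ ψ₂' : F₂} {v v' : ↥S.nodes → rootsOfUnity n k}
    (h : IsGlueVec S n ψ₁ ψ₂ v) (h' : IsGlueVec S n ψ₁' ψ₂' v') :
    IsGlueVec S n (ψ₁ * ψ₁') (ψ₂ * ψ₂') (v * v') := by
  intro s
  obtain ⟨a, b, hb, h1, h2, hab⟩ := h s
  obtain ⟨a', b', hb', h1', h2', hab'⟩ := h' s
  refine ⟨a * a', b * b', mul_ne_zero hb hb', Fermat.Agent.BAD.H28.vanAt_mul_sub h1 h1',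
    Fermat.Agent.BAD.H28.vanAt_mul_sub h2 h2', ?_⟩
  rw [hab, hab']
  simp only [Pi.mul_apply, Subgroup.coe_mul, Units.val_mul]
  ring

theorem IsGlueVec.pow {n : ℕ} {ψ₁ : F₁} {ψ₂ : F₂} {v : ↥S.nodes → rootsOfUnity n k}
    (h : IsGlueVec S n ψ₁ ψ₂ v) (m : ℕ) : IsGlueVec S n (ψ₁ ^ m) (ψ₂ ^ m) (v ^ m) := by
  induction m with
  | zero =>
    rw [pow_zero, pow_zero, pow_zero]
    exact isGlueVec_one n
  | succ m ih =>
    rw [pow_succ, pow_succ, pow_succ]
    exact ih.mul h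

/-- Change of the root on the second component by an `n`-th root of unity `w`. -/
theorem IsGlueVec.scale₂ {n : ℕ} {ψ₁ : F₁} {ψ₂ : F₂} {v : ↥S.nodes → rootsOfUnity n k}
    (h : IsGlueVec S n ψ₁ ψ₂ v) (w : rootsOfUnity n k) :
    IsGlueVec S n ψ₁ (algebraMap k F₂ (((w : rootsOfUnity n k) : kˣ) : k) * ψ₂)
      (v * fun _ => w⁻¹) := by
  intro s
  obtain ⟨a, b, hb, h1, h2, hab⟩ := h s
  refine ⟨a, (((w : rootsOfUnity n k) : kˣ) : k) * b, mul_ne_zero (Units.ne_zero _) hb, h1,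
    Fermat.Agent.BAD.H28.vanAt_mul_sub (vanAt_const_sub s.1.2 _) h2, ?_⟩
  rw [hab]
  simp only [Pi.mul_apply, Subgroup.coe_mul, Units.val_mul, InvMemClass.coe_inv]
  rw [mul_assoc, ← mul_assoc (((w : rootsOfUnity n k) : kˣ)⁻¹ : kˣ).1, ← Units.val_mul,
    inv_mul_cancel, Units.val_one, one_mul]

theorem unit_pow_eq_one {n : ℕ} (w : rootsOfUnity n k) :
    ((((w : rootsOfUnity n k) : kˣ) : k)) ^ n = 1 := by
  have h := (mem_rootsOfUnity n (w : kˣ)).mp w.2
  rw [← Units.val_pow_eq_pow_val, h, Units.val_one]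

/-- Every triple as in `IsTor` has a glue vector. -/
theorem exists_glueVec (H : FFHyp K F) (H₁ : FFHyp k F₁) (H₂ : FFHyp k F₂) {n : ℕ} (hn0 : n ≠ 0)
    {G : F} {ψ₁ : F₁} {ψ₂ : F₂} (hG : IsTor S n G ψ₁ ψ₂) :
    ∃ v : ↥S.nodes → rootsOfUnity n k, IsGlueVec S n ψ₁ ψ₂ v := by
  have hv₁ : ∀ s ∈ S.nodes, ∃ a : k, a ≠ 0 ∧ VanAt s.1 (ψ₁ - algebraMap k F₁ a) :=
    fun s hs => Fermat.Agent.BAD.H60.exists_value_ne_zero (H₁.deg_one s.1) (hG.ne₁ hn0)
      (hG.ord_eq_zero hn0 H.principal hs).1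
  have hv₂ : ∀ s ∈ S.nodes, ∃ a : k, a ≠ 0 ∧ VanAt s.2 (ψ₂ - algebraMap k F₂ a) :=
    fun s hs => Fermat.Agent.BAD.H60.exists_value_ne_zero (H₂.deg_one s.2) (hG.ne₂ hn0)
      (hG.ord_eq_zero hn0 H.principal hs).2
  choose! a₁ ha₁0 ha₁ using hv₁
  choose! a₂ ha₂0 ha₂ using hv₂
  have hζ : ∀ s ∈ S.nodes, (a₁ s / a₂ s) ^ n = 1 := by
    intro s hs
    obtain ⟨a, h1, h2⟩ := S.glue s hs G hG.gu₁.1 hG.gu₂.1 (fun P hPs => by
      rw [hG.node P ⟨s, hs, hPs⟩])
    rw [← S.c₁.rd_of_mem hG.gu₁.1, hG.rd₁] at h1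
    rw [← S.c₂.rd_of_mem hG.gu₂.1, hG.rd₂] at h2
    have e1 := value_unique s.1 h1 (Fermat.Agent.BAD.H60.vanAt_pow_sub (ha₁ s hs) n)
    have e2 := value_unique s.2 h2 (Fermat.Agent.BAD.H60.vanAt_pow_sub (ha₂ s hs) n)
    rw [div_pow, ← e1, ← e2, div_self]
    rw [e2]
    exact pow_ne_zero _ (ha₂0 s hs)
  have hζ0 : ∀ s ∈ S.nodes, a₁ s / a₂ s ≠ 0 := fun s hs =>
    div_ne_zero (ha₁0 s hs) (ha₂0 s hs)
  refine ⟨fun s => ⟨Units.mk0 (a₁ s.1 / a₂ s.1) (hζ0 s.1 s.2), ?_⟩, ?_⟩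
  · rw [mem_rootsOfUnity]
    apply Units.ext
    rw [Units.val_pow_eq_pow_val, Units.val_mk0, Units.val_one]
    exact hζ s.1 s.2
  · intro s
    refine ⟨a₁ s.1, a₂ s.1, ha₂0 s.1 s.2, ha₁ s.1 s.2, ha₂ s.1 s.2, ?_⟩
    show a₁ s.1 = a₁ s.1 / a₂ s.1 * a₂ s.1
    rw [div_mul_cancel₀ _ (ha₂0 s.1 s.2)]

/-- **The core**: a triple with constant glue vector is an `n`-th power. -/
theorem pow_of_glueVec_const [IsAlgClosed K] [Infinite k]
    (H : FFHyp K F) (H₁ : FFHyp k F₁) (H₂ : FFHyp k F₂)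
    (g g₁ g₂ : ℕ) (c c₁ c₂ : ℤ) (hR : IsGenus K F g c) (hR₁ : IsGenus k F₁ g₁ c₁)
    (hR₂ : IsGenus k F₂ g₂ c₂) (hnum : g + 1 ≤ g₁ + g₂ + S.nodes.card)
    (n : ℕ) (hn : (n : k) ≠ 0) {G : F} {ψ₁ : F₁} {ψ₂ : F₂} (hG : IsTor S n G ψ₁ ψ₂)
    (w : rootsOfUnity n k) (hv : IsGlueVec S n ψ₁ ψ₂ (fun _ => w)) :
    ∃ t : F, t ^ n = G := by
  have hTor' := hG.scale₂ (unit_pow_eq_one w)
  refine core Fermat.Agent.BAD.H28.stmt_GoodLift Fermat.Agent.BAD.H28.stmt_TIss S H H₁ H₂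
    g g₁ g₂ c c₁ c₂ hR hR₁ hR₂ hnum n hn hTor' ?_
  intro s hs
  obtain ⟨a, b, -, h1, h2, hab⟩ := hv ⟨s, hs⟩
  refine ⟨a, h1, ?_⟩
  rw [hab]
  exact Fermat.Agent.BAD.H28.vanAt_mul_sub (vanAt_const_sub s.2 _) h2

/-- The glue vectors of the triples `IsTor S n G ψ₁ ψ₂` with `G ∈ M` form a submonoid. -/
def glueSubmonoid (S : SSD K F k F₁ F₂) (n : ℕ) (M : Submonoid F) :
    Submonoid (↥S.nodes → rootsOfUnity n k) where
  carrier := {v | ∃ (G : F) (ψ₁ : F₁) (ψ₂ : F₂), G ∈ M ∧ IsTor S n G ψ₁ ψ₂ ∧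
    IsGlueVec S n ψ₁ ψ₂ v}
  one_mem' := ⟨1, 1, 1, M.one_mem, isTor_one n, isGlueVec_one n⟩
  mul_mem' := by
    rintro v v' ⟨G, ψ₁, ψ₂, hM, hT, hv⟩ ⟨G', ψ₁', ψ₂', hM', hT', hv'⟩
    exact ⟨G * G', ψ₁ * ψ₁', ψ₂ * ψ₂', M.mul_mem hM hM', hT.mul hT', hv.mul hv'⟩

theorem pi_pow_eq_one (n : ℕ) (v : ↥S.nodes → rootsOfUnity n k) : v ^ n = 1 := by
  funext s
  rw [Pi.pow_apply, Pi.one_apply]
  apply Subtype.ext
  rw [Subgroup.coe_pow, Subgroup.coe_one]
  exact (mem_rootsOfUnity n _).mp (v s).2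

/-- The glue vectors of the triples `IsTor S n G ψ₁ ψ₂` with `G ∈ M` form a subgroup. -/
def glueSubgroup (S : SSD K F k F₁ F₂) (n : ℕ) (hn0 : n ≠ 0) (M : Submonoid F) :
    Subgroup (↥S.nodes → rootsOfUnity n k) :=
  { glueSubmonoid S n M with
    inv_mem' := by
      intro v hv
      obtain ⟨n1, hn1⟩ : ∃ n1 : ℕ, n1 + 1 = n := ⟨n - 1, by omega⟩
      have h1 : v⁻¹ = v ^ n1 := by
        apply inv_eq_of_mul_eq_one_right
        rw [← pow_succ', hn1]
        exact pi_pow_eq_one n v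
      rw [h1]
      exact (glueSubmonoid S n M).pow_mem hv n1 }

theorem mem_glueSubgroup (n : ℕ) (hn0 : n ≠ 0) (M : Submonoid F)
    (v : ↥S.nodes → rootsOfUnity n k) :
    v ∈ glueSubgroup S n hn0 M ↔ ∃ (G : F) (ψ₁ : F₁) (ψ₂ : F₂), G ∈ M ∧ IsTor S n G ψ₁ ψ₂ ∧
      IsGlueVec S n ψ₁ ψ₂ v := Iff.rfl

end Glue

section Main

variable {K F k F₁ F₂ : Type} [Field K] [Field F] [Algebra K F] [Field k] [Field F₁]
  [Algebra k F₁] [Field F₂] [Algebra k F₂]

/-- The `p`-torsion of `μ_n ^ nodes` has at most `p ^ δ` elements. -/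
theorem card_torsion_pi_le (S : SSD K F k F₁ F₂) (n p : ℕ) (hn0 : n ≠ 0) (hp : p ≠ 0) :
    Nat.card {a : ↥S.nodes → rootsOfUnity n k // a ^ p = 1} ≤ p ^ S.nodes.card := by
  have : NeZero n := ⟨hn0⟩
  have : NeZero p := ⟨hp⟩
  have h1 : Nat.card (↥S.nodes → rootsOfUnity p k) ≤ p ^ S.nodes.card := by
    rw [Nat.card_fun, Nat.card_eq_fintype_card (α := ↥S.nodes), Fintype.card_coe]
    exact Nat.pow_le_pow_left (card_rootsOfUnity k p) _
  refine le_trans (Nat.card_le_card_of_injective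
    (fun a : {a : ↥S.nodes → rootsOfUnity n k // a ^ p = 1} =>
      (fun s => (⟨((a.1 s : rootsOfUnity n k) : kˣ), by
        rw [mem_rootsOfUnity]
        have h := congrArg (fun x : rootsOfUnity n k => (x : kˣ)) (congrFun a.2 s)
        simpa using h⟩ : rootsOfUnity p k))) ?_) h1
  intro a a' haa
  apply Subtype.ext
  funext s
  apply Subtype.ext
  have h := congrArg (fun x : rootsOfUnity p k => (x : kˣ)) (congrFun haa s)
  exact h

/-- **ST-RANK (g)**: a large family of triples `IsTor S (p ^ e)`, pairwise distinct modulo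
`p ^ e`-th powers, realises every vector `θ : nodes → μ_p` as a glue vector. -/
theorem exists_tor_of_count (S : SSD K F k F₁ F₂) [IsAlgClosed K] [IsAlgClosed k]
    (H : FFHyp K F) (H₁ : FFHyp k F₁) (H₂ : FFHyp k F₂)
    (g g₁ g₂ : ℕ) (c c₁ c₂ : ℤ) (hR : IsGenus K F g c) (hR₁ : IsGenus k F₁ g₁ c₁)
    (hR₂ : IsGenus k F₂ g₂ c₂) (hnum : g + 1 ≤ g₁ + g₂ + S.nodes.card)
    (p e c' : ℕ) (hp : p.Prime) (hpk : (p : k) ≠ 0) (hce : c' < e) (M : Submonoid F)
    (T : Type) [Fintype T] (G : T → F) (ψ₁ : T → F₁) (ψ₂ : T → F₂) (hM : ∀ t, G t ∈ M)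
    (hTor : ∀ t, IsTor S (p ^ e) (G t) (ψ₁ t) (ψ₂ t))
    (hinj : ∀ t t', (∃ h : F, h ^ (p ^ e) * G t' = G t) → t = t')
    (hcard : p ^ (2 * e * (S.nodes.card - 1)) ≤ p ^ (e + c') * Fintype.card T ^ 2)
    (θ : Place k F₁ × Place k F₂ → k) (hθ : ∀ s ∈ S.nodes, θ s ^ p = 1) :
    ∃ (G' : F) (ψ₁' : F₁) (ψ₂' : F₂), G' ∈ M ∧ IsTor S (p ^ e) G' ψ₁' ψ₂' ∧
      ∀ s ∈ S.nodes, ∃ a b : k, b ≠ 0 ∧ VanAt s.1 (ψ₁' - algebraMap k F₁ a) ∧
        VanAt s.2 (ψ₂' - algebraMap k F₂ b) ∧ a = θ s * b := by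
  set n : ℕ := p ^ e with hn
  have hn0 : n ≠ 0 := pow_ne_zero _ hp.ne_zero
  have hnk : (n : k) ≠ 0 := by
    rw [hn, Nat.cast_pow]
    exact pow_ne_zero _ hpk
  have : NeZero n := ⟨hn0⟩
  have : NeZero (n : k) := ⟨hnk⟩
  have hμ : Nat.card (rootsOfUnity n k) = n := HasEnoughRootsOfUnity.natCard_rootsOfUnity k n
  obtain ⟨n1, hn1⟩ : ∃ n1 : ℕ, n1 + 1 = n := ⟨n - 1, by omega⟩
  -- glue vectors of the family
  have hex : ∀ t, ∃ v, IsGlueVec S n (ψ₁ t) (ψ₂ t) v :=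
    fun t => exists_glueVec H H₁ H₂ hn0 (hTor t)
  choose V hV using hex
  set Γ := glueSubgroup S n hn0 M with hΓ
  -- the injection
  have hmemΓ : ∀ (t : T) (w : rootsOfUnity n k), (V t * fun _ => w⁻¹) ∈ Γ := fun t w =>
    ⟨G t, ψ₁ t, _, hM t, (hTor t).scale₂ (unit_pow_eq_one w), (hV t).scale₂ w⟩
  have hinjΓ : Function.Injective (fun x : T × rootsOfUnity n k =>
      (⟨V x.1 * fun _ => x.2⁻¹, hmemΓ x.1 x.2⟩ : ↥Γ)) := by
    rintro ⟨t, w⟩ ⟨t', w'⟩ hx
    have hx' : V t * (fun _ => w⁻¹) = V t' * fun _ => w'⁻¹ := congrArg Subtype.val hx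
    have hinv : (V t')⁻¹ = V t' ^ n1 := by
      apply inv_eq_of_mul_eq_one_right
      rw [← pow_succ', hn1]
      exact pi_pow_eq_one n _
    have hconst : V t * V t' ^ n1 = fun _ => w * w'⁻¹ := by
      rw [← hinv]
      funext s
      have hs := congrFun hx' s
      simp only [Pi.mul_apply, Pi.inv_apply] at hs ⊢
      rw [mul_inv_eq_iff_eq_mul] at hs
      rw [hs]
      calc V t' s * w'⁻¹ * w * (V t' s)⁻¹ = (V t' s * (V t' s)⁻¹) * (w * w'⁻¹) := by ac_rfl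
        _ = w * w'⁻¹ := by rw [mul_inv_cancel, one_mul]
    have hT2 : IsTor S n (G t * G t' ^ n1) (ψ₁ t * ψ₁ t' ^ n1) (ψ₂ t * ψ₂ t' ^ n1) :=
      (hTor t).mul ((hTor t').pow n1)
    have hV2 : IsGlueVec S n (ψ₁ t * ψ₁ t' ^ n1) (ψ₂ t * ψ₂ t' ^ n1) (V t * V t' ^ n1) :=
      (hV t).mul ((hV t').pow n1)
    rw [hconst] at hV2
    obtain ⟨h, hh⟩ := pow_of_glueVec_const H H₁ H₂ g g₁ g₂ c c₁ c₂ hR hR₁ hR₂ hnum n hnk hT2
      _ hV2
    have hG0 : G t' ≠ 0 := (hTor t').gu₁.ne_zero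
    have htt : t = t' := hinj t t' ⟨h / G t', by
      rw [div_pow, hh, ← hn1, pow_succ]
      field_simp⟩
    subst htt
    obtain ⟨s₀, hs₀⟩ := S.nodes_nonempty
    have hs := congrFun hx' ⟨s₀, hs₀⟩
    simp only [Pi.mul_apply] at hs
    have hw : w⁻¹ = w'⁻¹ := mul_left_cancel hs
    rw [inv_inj] at hw
    rw [hw]
  have hcardΓ : Fintype.card T * n ≤ Nat.card Γ := by
    have h1 := Nat.card_le_card_of_injective _ hinjΓ
    rwa [Nat.card_prod, Nat.card_eq_fintype_card, hμ] at h1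
  have hδ : 1 ≤ S.nodes.card := Finset.card_pos.mpr S.nodes_nonempty
  have hcard2 : p ^ (2 * e * S.nodes.card) ≤ p ^ (e + c') * (Nat.card Γ) ^ 2 := by
    obtain ⟨d', hd'⟩ : ∃ d', S.nodes.card = d' + 1 := ⟨S.nodes.card - 1, by omega⟩
    rw [hd'] at hcard ⊢
    rw [Nat.add_sub_cancel] at hcard
    calc p ^ (2 * e * (d' + 1)) = p ^ (2 * e * d') * (p ^ e) ^ 2 := by
          rw [← pow_mul, ← pow_add]
          ring_nf
      _ ≤ p ^ (e + c') * Fintype.card T ^ 2 * (p ^ e) ^ 2 := Nat.mul_le_mul_right _ hcard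
      _ = p ^ (e + c') * (Fintype.card T * n) ^ 2 := by
          rw [hn]
          ring
      _ ≤ p ^ (e + c') * (Nat.card Γ) ^ 2 :=
          Nat.mul_le_mul_left _ (Nat.pow_le_pow_left hcardΓ 2)
  have hexp : ∀ γ ∈ Γ, γ ^ (p ^ e) = 1 := fun γ _ => pi_pow_eq_one n γ
  have hA := card_torsion_pi_le S n p hn0 hp.ne_zero
  have key := torsion_le_of_card p e c' S.nodes.card hp Γ hexp hA hcard2 hce
  -- `θ` as a vector of roots of unity
  have hθn : ∀ s ∈ S.nodes, θ s ^ n = 1 := by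
    intro s hs
    obtain ⟨e1, he1⟩ : ∃ e1, e = e1 + 1 := ⟨e - 1, by omega⟩
    rw [hn, he1, pow_succ', pow_mul, hθ s hs, one_pow]
  have hθ0 : ∀ s ∈ S.nodes, θ s ≠ 0 := by
    intro s hs h0
    have h1 := hθ s hs
    rw [h0, zero_pow hp.ne_zero] at h1
    exact zero_ne_one h1
  set a : ↥S.nodes → rootsOfUnity n k := fun s => ⟨Units.mk0 (θ s.1) (hθ0 s.1 s.2), by
    rw [mem_rootsOfUnity]
    apply Units.ext
    rw [Units.val_pow_eq_pow_val, Units.val_mk0, Units.val_one]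
    exact hθn s.1 s.2⟩ with ha
  have hap : a ^ p = 1 := by
    funext s
    apply Subtype.ext
    apply Units.ext
    rw [Pi.pow_apply, Pi.one_apply, Subgroup.coe_pow, Subgroup.coe_one, Units.val_pow_eq_pow_val,
      Units.val_one]
    exact hθ s.1 s.2
  obtain ⟨G', ψ₁', ψ₂', hM', hT', hv'⟩ := key a hap
  refine ⟨G', ψ₁', ψ₂', hM', hT', fun s hs => ?_⟩
  obtain ⟨x, y, hy, h1, h2, hxy⟩ := hv' ⟨s, hs⟩
  exact ⟨x, y, hy, h1, h2, hxy⟩

end Main

end Fermat.Agent.S59.LL.SQ.H83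

end
end
-- ==== END Fermat.Agent.S59.LL.SQ.H83_StRankG
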