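-- GENERATED (merged mirror, NOTES/tools/trim/merge3_helper67.py): 19 modules of the originals, bodies verbatim.
import Mathlib
import Fermat.Agent.Zm.S59_L01_002
import Fermat.Agent.Zm.S15_L01_000
import Fermat.Agent.Zm.S33_L03_002
import Fermat.Agent.Zm.S33_L12_000
import Fermat.Agent.Zm.S59_L01_003
import Fermat.Agent.Zm.S36_L16_001
import Fermat.Agent.Zm.S36_L13_000
import Fermat.Agent.Zm.S36_L10_000
import Fermat.Agent.Zm.S43_L13_002
import Fermat.Agent.Zm.S35_L06_003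
import Fermat.Agent.Zm.S43_L14_003
import Fermat.Agent.Zm.S59_L01_004
import Fermat.Agent.Zm.S44_L03_003
import Fermat.Agent.Zm.S44_L05_001
import Fermat.Agent.Zm.S43_L01_004
import Fermat.Agent.Zm.S43_L01_003
import Fermat.Agent.Zm.S59_L01_001
import Fermat.Agent.Zm.S43_L15_001
import Fermat.Agent.Zm.S43_L09_001
import Fermat.Agent.Zm.S48_L02_003
import Fermat.Agent.Zm.S35_L03_003
import Fermat.Agent.Zm.S35_L02_000

-- ==== BEGIN Fermat.Agent.S59.LGC.H36_FL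
section
attribute [local instance 10000] SubalgebraClass.toAlgebra
attribute [local instance 10000] HahnSeries.powerSeriesAlgebra

/-!
# S59, case C, LGC-p, leaf LGC-FL (helper36): the finite flat coordinates with the reduction
clause

* `stmt_FLAbsK1 : Stmt_FLAbsK1` : the abstract main theorem of G-FL with the clause
  `RedZero S (x - y) → v (h j x - h j y) < 1`.
  [`cls_eq_of_redZero` : points whose difference reduces to zero have the same class;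
   `map_rc_M_eq_of_cls_eq`, `rc_gen_eq_of_cls_eq` : the reductions of the echelon bases and of
   the generators depend only on the class.]
* `stmt_FLTameCK1 : Stmt_FLTameCK1` : the same at the tame levels, clause for `BAD.InK1`
  (`redZero_of_inK1`).
* `stmt_FLGenCoreK1 : Stmt_FLGenCoreK1` : local generators of `J₀(N)[ℓ^k]` at EVERY place over
  `ℓ ∤ N` with the clause (`inK1_levelPull` : the change of level preserves `K1`).
-/

set_option autoImplicit false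
set_option linter.style.haveILetI false
set_option linter.unusedSectionVars false
set_option linter.unusedVariables false
set_option synthInstance.maxHeartbeats 400000
set_option maxHeartbeats 1000000

noncomputable section

open AlgebraicCurve ModularCurve Matrix

namespace Fermat.Agent.S59.LGC.H36

open Fermat.Agent.FL Fermat.Agent.RED Fermat.Agent.RED.H17 Fermat.Agent.Lib.HopfOrder
  Fermat.Agent.Lib.HopfOrderLoc Fermat.Agent.S59.LGC

local notation "L" => riemannRochSpace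

/-! ### The abstract main theorem -/

section Abs

variable {K F k F' : Type} [Field K] [Field F] [Algebra K F] [Field k] [Field F']
  [Algebra k F'] {S : RedSetup K F k F'} {Γ : Type} [Group Γ] {G : GalRed S Γ}
  {𝒯 : Set (Pic0 K F)} (CS : CoordSys S G 𝒯)

/-- The reductions of the echelon bases depend only on the class. -/
theorem map_rc_M_eq_of_cls_eq (x y : 𝒯) (h : CS.cls x = CS.cls y) :
    (CS.M x).map (rc S) = (CS.M y).map (rc S) := by
  obtain ⟨hx1, -, -, hx4⟩ := CS.hM x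
  obtain ⟨hy1, -, -, hy4⟩ := CS.hM y
  have h' : Finsupp.mapDomain S.r (CS.E x) = Finsupp.mapDomain S.r (CS.E y) := h
  have hJ : CS.J (Finsupp.mapDomain S.r (CS.E x)) = CS.J (Finsupp.mapDomain S.r (CS.E y)) :=
    congrArg CS.J h'
  refine Fermat.Agent.FL.H2.ech_unique (CS.J (Finsupp.mapDomain S.r (CS.E x))) _ _ ?_ ?_ ?_
  · intro a b
    rw [Matrix.map_apply, hx1 a b]
    split_ifs
    · exact Fermat.Agent.FL.H46.rc_one S
    · exact Fermat.Agent.FL.H46.rc_zero S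
  · intro a b
    rw [hJ, Matrix.map_apply, hy1 a b]
    split_ifs
    · exact Fermat.Agent.FL.H46.rc_one S
    · exact Fermat.Agent.FL.H46.rc_zero S
  · rw [hx4, hy4, Fermat.Agent.FL.H36.mapDomain_sub', Fermat.Agent.FL.H36.mapDomain_sub', h']

/-- The reductions of the generators depend only on the class. -/
theorem rc_gen_eq_of_cls_eq (𝒮 : Set (Pic0 K F)) (h𝒮 : 𝒮 ⊆ 𝒯) (x y : 𝒮)
    (h : CS.cls ⟨x, h𝒮 x.2⟩ = CS.cls ⟨y, h𝒮 y.2⟩) (j : 𝒯 ⊕ (𝒯 × Fin CS.n₁ × Fin CS.d)) :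
    rc S (CS.gen 𝒮 h𝒮 j x) = rc S (CS.gen 𝒮 h𝒮 j y) := by
  classical
  rcases j with x₀ | ⟨x₀, i, b⟩
  · simp only [CoordSys.gen]
    rw [h]
  · simp only [CoordSys.gen]
    rw [h]
    split_ifs
    · have h1 := map_rc_M_eq_of_cls_eq CS _ _ h
      have h2 := congrFun (congrFun h1 i) b
      rwa [Matrix.map_apply, Matrix.map_apply] at h2
    · rfl

/-- Two points whose difference reduces to zero have the same class. -/
theorem cls_eq_of_redZero [IsAlgClosed k] (hFF' : IsFF k F') (x y : 𝒯)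
    (h : RedZero S ((x : Pic0 K F) - (y : Pic0 K F))) : CS.cls x = CS.cls y := by
  obtain ⟨D₀, hD₀, hr₀⟩ := h
  obtain ⟨Dx, hDx, hDx'⟩ := CS.mkE x
  obtain ⟨Dy, hDy, hDy'⟩ := CS.mkE y
  have H' := Fermat.Agent.S17.H35.hyp_of_isFF k F' hFF'
  -- `Dx - Dy - D₀` is principal
  have h1 : (Dx - Dy) - D₀ ∈ (Divisor.principal (K := K) (F := F)).addSubgroupOf
      (Divisor.degZero (K := K) (F := F)) := by
    refine QuotientAddGroup.eq_iff_sub_mem.mp ?_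
    show Pic0.mk (Dx - Dy) = Pic0.mk D₀
    rw [hD₀, ← hDx, ← hDy]
    rfl
  rw [AddSubgroup.mem_addSubgroupOf] at h1
  obtain ⟨f₁, hf₁, hdiv₁⟩ := h1
  obtain ⟨g₁, hg₁, hr₁⟩ := Fermat.Agent.FL.H60.exists_rd_principal S hf₁ hdiv₁
  have hxpos : 0 ≤ Finsupp.mapDomain S.r (CS.E x) := by
    rw [Finsupp.le_def]
    intro Q
    have h0 := (CS.hE x).1
    rw [Finsupp.le_def] at h0
    exact mapDomain_nonneg' S.r (fun a => by simpa using h0 a) Q
  have hypos : 0 ≤ Finsupp.mapDomain S.r (CS.E y) := by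
    rw [Finsupp.le_def]
    intro Q
    have h0 := (CS.hE y).1
    rw [Finsupp.le_def] at h0
    exact mapDomain_nonneg' S.r (fun a => by simpa using h0 a) Q
  have key : ∀ Q : Place k F',
      (Finsupp.mapDomain S.r (CS.E x) - Finsupp.mapDomain S.r (CS.E y)) Q = Q.ord g₁ := by
    intro Q
    rw [← hr₁ Q]
    have e : CS.E x - CS.E y
        = (((Dx - Dy - D₀ : Divisor.degZero (K := K) (F := F)) : Divisor K F))
          + (D₀ : Divisor K F) := by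
      rw [AddSubgroup.coe_sub, AddSubgroup.coe_sub, hDx', hDy']
      abel
    rw [← Fermat.Agent.FL.H36.mapDomain_sub', e, Finsupp.mapDomain_add, hr₀, add_zero]
  exact Fermat.Agent.FL.H2.eq_of_principal_of_finrank_le_one H' hypos hxpos hg₁ key
    (le_of_eq (CS.ns y))

end Abs

/-- **The abstract main theorem of G-FL with the reduction clause.** -/
theorem stmt_FLAbsK1 : Stmt_FLAbsK1 := by
  intro K F k F' _ _ _ _ _ _ _ _ S hFF hFF' hG Γ _ G hU hFr 𝒮 hfin hstab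
  have hTfin : (Fermat.Agent.FL.H36.sumSet 𝒮).Finite := Fermat.Agent.FL.H36.finite_sumSet hfin
  have hTstab : ∀ (σ : Γ), ∀ x ∈ Fermat.Agent.FL.H36.sumSet 𝒮,
      G.act σ • x ∈ Fermat.Agent.FL.H36.sumSet 𝒮 := by
    rintro σ x (hx | ⟨a, ha, b, hb, rfl⟩)
    · exact Or.inl (hstab σ x hx)
    · rw [smul_add]
      exact Fermat.Agent.FL.H36.add_mem_sumSet 𝒮 (hstab σ a ha) (hstab σ b hb)
  obtain ⟨CS⟩ := Fermat.Agent.FL.H36.stmt_Setup K F k F' S hFF hFF' hG Γ G hU hFr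
    (Fermat.Agent.FL.H36.sumSet 𝒮) hTfin hTstab
  have hsub := Fermat.Agent.FL.H36.subset_sumSet 𝒮
  obtain ⟨hint, heq, hsep⟩ := Fermat.Agent.FL.H2.stmt_Basic K F k F' S hFF hFF' Γ G
    (Fermat.Agent.FL.H36.sumSet 𝒮) CS 𝒮 hsub
  have : Finite ↥(Fermat.Agent.FL.H36.sumSet 𝒮) := hTfin.to_subtype
  refine ⟨_, inferInstance, CS.gen 𝒮 hsub, hint, heq, ?_, hsep, ?_, ?_⟩
  · exact Fermat.Agent.FL.H21.stmt_DStab_of_famAdd Fermat.Agent.FL.H46.stmt_FamAdd K F k F' S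
      hFF hFF' Γ G (Fermat.Agent.FL.H36.sumSet 𝒮) hTfin hTstab CS 𝒮 hsub hstab
  · exact Fermat.Agent.FL.H40.stmt_Comul_of Fermat.Agent.FL.H46.stmt_FamAdd
      Fermat.Agent.FL.H60.stmt_RedLinEq Fermat.Agent.FL.H46.stmt_EchUnique K F k F' S
      hFF hFF' Γ G (Fermat.Agent.FL.H36.sumSet 𝒮) hTfin CS 𝒮 hsub
      (fun x hx y hy => Fermat.Agent.FL.H36.add_mem_sumSet 𝒮 hx hy)
  · intro x y hxy j
    exact Fermat.Agent.FL.H46.val_sub_lt_of_rc_eq S (hint j x) (hint j y)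
      (rc_gen_eq_of_cls_eq CS 𝒮 hsub x y
        (cls_eq_of_redZero CS hFF' ⟨x, hsub x.2⟩ ⟨y, hsub y.2⟩ hxy) j)

/-! ### The tame levels -/

section Tame

open Fermat.Agent.S28 Fermat.Agent.S28.H73 Fermat.Agent.RED.H73 Fermat.Agent.RED.H33
  Fermat.Agent.FL.H33

variable (M ℓ : ℕ) [NeZero M] (hℓ : ℓ.Prime) (hM : ¬ ℓ ∣ M)
  (htame : 5 ≤ ℓ ∨ (ℓ = 3 ∧ 2 ∣ M) ∨ (ℓ = 2 ∧ 3 ∣ M))
  (A : ValuationSubring (AlgebraicClosure ℚ)) (hA : A.LiesOverPrime ℓ)

/-- A class of `K1(n)`, `n ≠ 0`, has a representative with reduction `0`. -/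
theorem redZero_of_inK1 {n : ℕ} (hn : n ≠ 0) {z : JZero M}
    (h : Fermat.Agent.BAD.InK1 A M n z) :
    RedZero (tameSetup M ℓ hℓ hM htame A hA) z := by
  obtain ⟨D, f, rfl, hres, hD⟩ := h
  refine ⟨D, rfl, ?_⟩
  have e : (tameSetup M ℓ hℓ hM htame A hA).red f = 1 := hres
  have hne : (tameSetup M ℓ hℓ hM htame A hA).red f ≠ 0 := by
    rw [e]
    exact one_ne_zero
  have hDI := (tameSetup M ℓ hℓ hM htame A hA).DI f hne
    ((n : ℤ) • (D : Divisor (AlgebraicClosure ℚ) ↥(modularFunctionFieldBar M)))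
    (fun P => by
      rw [Finsupp.smul_apply, smul_eq_mul]
      exact hD P)
  ext Q
  have h1 := hDI Q
  rw [e, Place.ord_one, Finsupp.mapDomain_smul, Finsupp.smul_apply, smul_eq_mul] at h1
  have hnZ : (n : ℤ) ≠ 0 := by exact_mod_cast hn
  rcases mul_eq_zero.1 h1 with h2 | h2
  · exact absurd h2 hnZ
  · rw [h2]
    rfl

end Tame

/-- **The concrete main theorem of G-FL at the tame levels with the reduction clause.** -/
theorem stmt_FLTameCK1 : Stmt_FLTameCK1 := by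
  intro M ℓ _ hℓ hM htame A hA 𝒮 hfin hst
  haveI : IsAlgClosed (Fermat.Agent.S28.H73.kV A) := Fermat.Agent.RED.H73.isAlgClosed_kV A
  obtain ⟨ι, hι, h, h1, h2, h3, h4, h5, h6⟩ :=
    stmt_FLAbsK1 (AlgebraicClosure ℚ) ↥(modularFunctionFieldBar M) (Fermat.Agent.S28.H73.kV A)
      ↥(Fermat.Agent.RED.H73.redField A (modularFunctionFieldBar M)
        (Fermat.Agent.RED.H73.hasScale_laurentBaseChange A M))
      (Fermat.Agent.FL.H33.tameSetup M ℓ hℓ hM htame A hA)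
      (Fermat.Agent.FL.H33.isFF_bar M) (Fermat.Agent.FL.H33.isFF_tame M ℓ hℓ hM A hA)
      (Fermat.Agent.FL.H33.tameSetup_genusLE' M ℓ hℓ hM htame A hA)
      ↥(A.decompositionSubgroup ℚ) (Fermat.Agent.FL.H33.tameCtx M ℓ hℓ hM htame A hA)
      (Fermat.Agent.FL.H33.hasUnrConst_tame M ℓ hℓ hM htame A hA)
      (Fermat.Agent.FL.H22.stmt_TameFrames M ℓ hℓ hM htame A hA)
      𝒮 hfin (fun σ x hx => hst σ.1 σ.2 x hx)
  have hcv : constVal (Fermat.Agent.FL.H33.tameSetup M ℓ hℓ hM htame A hA) = A :=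
    Fermat.Agent.FL.H33.constVal_tameSetup M ℓ hℓ hM htame A hA
  refine ⟨ι, hι, h, ?_, ?_, ?_, h4, ?_, ?_⟩
  · intro j x
    have := h1 j x
    rwa [hcv] at this
  · intro j σ hσ x hx
    have hdec : σ ∈ A.decompositionSubgroup ℚ := by
      obtain ⟨g, -, rfl⟩ := hσ
      exact g.2
    have hI : (⟨σ, hdec⟩ : ↥(A.decompositionSubgroup ℚ)) ∈
        (Fermat.Agent.FL.H33.tameCtx M ℓ hℓ hM htame A hA).I :=
      (Fermat.Agent.FL.H33.mem_tameCtx_I_iff M ℓ hℓ hM htame A hA ⟨σ, hdec⟩).mpr hσ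
    exact h2 j ⟨σ, hdec⟩ hI x hx
  · intro j σ hσ
    obtain ⟨φ, hφ, hφx⟩ := h3 j ⟨σ, hσ⟩
    refine ⟨φ, ?_, fun x hx => hφx x hx⟩
    rwa [hcv] at hφ
  · intro j
    obtain ⟨φ, hφ, hφx⟩ := h5 j
    refine ⟨φ, ?_, hφx⟩
    rwa [hcv] at hφ
  · intro x y n hn hK j
    have := h6 x y (redZero_of_inK1 M ℓ hℓ hM htame A hA hn hK) j
    rwa [hcv] at this

/-! ### Change of level and the torsion subgroups -/

section Level

open Fermat.Agent.Lib.HeckeComm Fermat.Agent.NEB.H14 Fermat.Agent.BAD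
  Fermat.Agent.S28.H73 Fermat.Agent.RED.H73

variable (N M : ℕ) [NeZero N] [NeZero M] (h : N ∣ M)

/-- The change of level preserves `K1`. -/
theorem inK1_levelPull (A : ValuationSubring (AlgebraicClosure ℚ)) (n : ℕ) {x : JZero N}
    (hx : InK1 A N n x) : InK1 A M n (Fermat.Agent.FL.H2.levelPull N M h x) := by
  obtain ⟨D, f, rfl, hres, hD⟩ := hx
  have hF := H95.stmt_HKA_isFF N
  have hF' := H95.stmt_HKA_isFF M
  have hf0 : ((f : ↥(gaussV A N)) : ↥(FNbar N)) ≠ 0 := by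
    intro h0
    have e : f = 0 := Subtype.ext h0
    rw [e, map_zero] at hres
    exact zero_ne_one hres
  have hco : ((inclFN N M h (f : ↥(FNbar N)) : ↥(FNbar M)) : LaurentSeries (AlgebraicClosure ℚ))
      = (((f : ↥(gaussV A N)) : ↥(FNbar N)) : LaurentSeries (AlgebraicClosure ℚ)) :=
    coe_inclFN N M h _
  have hmem : inclFN N M h (f : ↥(FNbar N)) ∈ gaussV A M := by
    show ((inclFN N M h (f : ↥(FNbar N)) : ↥(FNbar M)) : LaurentSeries (AlgebraicClosure ℚ))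
      ∈ gaussRingV A
    rw [hco]
    exact f.2
  refine ⟨degZeroMap (pullD (inclFN N M h)) (isCorr_pullD hF hF' _).isGood D,
    ⟨inclFN N M h (f : ↥(FNbar N)), hmem⟩, Fermat.Agent.FL.H2.levelPull_mk N M h D, ?_, ?_⟩
  · apply Subtype.ext
    have h1 : ((gaussRes A N f : ↥(redField A (FNbar N) (hasScale_laurentBaseChange A N))) :
        LaurentSeries (kV A)) = 1 := by
      rw [hres]
      rfl
    show gaussRedV A ⟨((inclFN N M h (f : ↥(FNbar N)) : ↥(FNbar M)) :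
      LaurentSeries (AlgebraicClosure ℚ)), hmem⟩ = 1
    have h2 : gaussRedV A ⟨(((f : ↥(gaussV A N)) : ↥(FNbar N)) :
        LaurentSeries (AlgebraicClosure ℚ)), f.2⟩ = 1 := h1
    rw [← h2]
    congr 1
  · intro P
    rw [coe_degZeroMap]
    exact pullD_kummer hF hF' (inclFN N M h) (n : ℤ) _ hf0 hD P

end Level

/-- **Local generators of `J₀(N)[ℓ^k]` at every place over `ℓ ∤ N`, with the reduction
clause.** -/
theorem stmt_FLGenCoreK1 : Stmt_FLGenCoreK1 := by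
  intro p _ ℓ _ hℓp k A hA
  have hℓ : ℓ.Prime := Fact.out
  obtain ⟨M, hM0, hpM, hM36, hℓM, htame⟩ :=
    Fermat.Agent.S19.H32.exists_tame_level p ℓ (NeZero.ne p) hℓ hℓp
  haveI : NeZero M := ⟨hM0⟩
  set π : JZero p →+ JZero M := Fermat.Agent.FL.H2.levelPull p M hpM with hπ
  have hπσ : ∀ (σ : AlgebraicClosure ℚ ≃ₐ[ℚ] AlgebraicClosure ℚ) (x : JZero p),
      π (σ • x) = σ • π x := Fermat.Agent.FL.H2.levelPull_smul p M hpM
  have hπinj : ∀ m : ℕ, 0 < m → ∀ x : JZero p, m • x = 0 → π x = 0 → x = 0 :=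
    fun m hm x hmx hx =>
      Fermat.Agent.FL.H2.levelPull_injective_of_torsion p M hpM hM36 m hm x hmx hx
  have hn : ((ℓ : ℤ) ^ k) ≠ 0 := pow_ne_zero _ (by exact_mod_cast hℓ.ne_zero)
  haveI := Fermat.Agent.S19.H32.tors_finite p ((ℓ : ℤ) ^ k) hn
  set 𝒮 : Set (JZero M) :=
    Set.range fun x : Fermat.Agent.S19.Tors p ((ℓ : ℤ) ^ k) => π (x : JZero p) with h𝒮
  have hfin : 𝒮.Finite := Set.finite_range _
  have hact : ∀ (σ : Fermat.Agent.S19.GQ) (x : Fermat.Agent.S19.Tors p ((ℓ : ℤ) ^ k)),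
      π ((Fermat.Agent.S19.torsAct p ((ℓ : ℤ) ^ k) σ x : Fermat.Agent.S19.Tors p ((ℓ : ℤ) ^ k))
        : JZero p) = σ • π (x : JZero p) := fun σ x => hπσ σ (x : JZero p)
  have hst : ∀ σ ∈ A.decompositionSubgroup ℚ, ∀ x ∈ 𝒮, σ • x ∈ 𝒮 := by
    rintro σ - _ ⟨x, rfl⟩
    exact ⟨Fermat.Agent.S19.torsAct p ((ℓ : ℤ) ^ k) σ x, hact σ x⟩
  obtain ⟨ι, hι, h, hint, heq, hD, hsep, hcom, hred⟩ :=
    stmt_FLTameCK1 M ℓ hℓ hℓM htame A hA 𝒮 hfin hst
  set E : Fermat.Agent.S19.Tors p ((ℓ : ℤ) ^ k) → 𝒮 :=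
    fun x => ⟨π (x : JZero p), x, rfl⟩ with hE
  have hEinj : Function.Injective E := by
    intro x y hxy
    have h1 : π (x : JZero p) = π (y : JZero p) := congrArg Subtype.val hxy
    have h2 : π ((x - y : Fermat.Agent.S19.Tors p ((ℓ : ℤ) ^ k)) : JZero p) = 0 := by
      rw [Submodule.coe_sub, map_sub, h1, sub_self]
    have h3 : (ℓ ^ k) • ((x - y : Fermat.Agent.S19.Tors p ((ℓ : ℤ) ^ k)) : JZero p) = 0 := by
      have := (Submodule.mem_torsionBy_iff _ _).mp (x - y).2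
      rw [← natCast_zsmul]
      push_cast
      exact this
    have h4 := hπinj (ℓ ^ k) (pow_pos hℓ.pos k) _ h3 h2
    exact sub_eq_zero.mp (Subtype.ext h4)
  have hEact : ∀ (σ : Fermat.Agent.S19.GQ) (x : Fermat.Agent.S19.Tors p ((ℓ : ℤ) ^ k))
      (hx : σ • ((E x : 𝒮) : JZero M) ∈ 𝒮),
      E (Fermat.Agent.S19.torsAct p ((ℓ : ℤ) ^ k) σ x) = ⟨σ • ((E x : 𝒮) : JZero M), hx⟩ :=
    fun σ x hx => Subtype.ext (hact σ x)
  have hEadd : ∀ (x y : Fermat.Agent.S19.Tors p ((ℓ : ℤ) ^ k))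
      (hxy : ((E x : 𝒮) : JZero M) + ((E y : 𝒮) : JZero M) ∈ 𝒮),
      E (x + y) = ⟨((E x : 𝒮) : JZero M) + ((E y : 𝒮) : JZero M), hxy⟩ :=
    fun x y hxy => Subtype.ext (by
      show π ((x + y : Fermat.Agent.S19.Tors p ((ℓ : ℤ) ^ k)) : JZero p)
        = π (x : JZero p) + π (y : JZero p)
      rw [Submodule.coe_add, map_add])
  have hmemE : ∀ (σ : Fermat.Agent.S19.GQ) (x : Fermat.Agent.S19.Tors p ((ℓ : ℤ) ^ k)),
      σ • ((E x : 𝒮) : JZero M) ∈ 𝒮 :=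
    fun σ x => ⟨Fermat.Agent.S19.torsAct p ((ℓ : ℤ) ^ k) σ x, hact σ x⟩
  have haddE : ∀ (x y : Fermat.Agent.S19.Tors p ((ℓ : ℤ) ^ k)),
      ((E x : 𝒮) : JZero M) + ((E y : 𝒮) : JZero M) ∈ 𝒮 :=
    fun x y => ⟨x + y, by
      show π ((x + y : Fermat.Agent.S19.Tors p ((ℓ : ℤ) ^ k)) : JZero p)
        = π (x : JZero p) + π (y : JZero p)
      rw [Submodule.coe_add, map_add]⟩
  refine ⟨ι, hι, fun j x => h j (E x), fun j x => hint j _, ?_, ?_, ?_, ?_, ?_⟩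
  · intro j σ hσ x
    show h j (E (Fermat.Agent.S19.torsAct p ((ℓ : ℤ) ^ k) σ x)) = σ (h j (E x))
    rw [hEact σ x (hmemE σ x)]
    exact heq j σ hσ (E x) (hmemE σ x)
  · intro j σ hσ
    obtain ⟨φ, hφ, hφe⟩ := hD j σ hσ
    have key : twist (Fermat.Agent.S19.torsAct p ((ℓ : ℤ) ^ k)) σ (fun x => h j (E x))
        = fun x => φ (E x) := by
      funext x
      show σ (h j (E (Fermat.Agent.S19.torsAct p ((ℓ : ℤ) ^ k) σ⁻¹ x))) = φ (E x)
      have hx : x = Fermat.Agent.S19.torsAct p ((ℓ : ℤ) ^ k) σ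
          (Fermat.Agent.S19.torsAct p ((ℓ : ℤ) ^ k) σ⁻¹ x) := by
        rw [← Fermat.Agent.S19.H32.torsAct_mul, mul_inv_cancel, Fermat.Agent.S19.H32.torsAct_one]
      have h1 := hφe (E (Fermat.Agent.S19.torsAct p ((ℓ : ℤ) ^ k) σ⁻¹ x)) (hmemE σ _)
      rw [← hEact σ _ (hmemE σ _), ← hx] at h1
      exact h1.symm
    rw [key]
    exact Fermat.Agent.S19.H32.comp_mem_genRing A.toSubring h E hφ
  · intro x y hxy
    exact hsep (E x) (E y) (hEinj.ne hxy)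
  · intro j
    obtain ⟨φ, hφ, hφe⟩ := hcom j
    have key : (fun q : Fermat.Agent.S19.Tors p ((ℓ : ℤ) ^ k) ×
        Fermat.Agent.S19.Tors p ((ℓ : ℤ) ^ k) => h j (E (q.1 + q.2))) =
        fun q => φ (E q.1, E q.2) := by
      funext q
      rw [hφe (E q.1) (E q.2) (haddE q.1 q.2), hEadd q.1 q.2 (haddE q.1 q.2)]
    rw [key]
    exact Fermat.Agent.S19.H32.comp_mem_pairRing A.toSubring h E hφ
  · intro x y hK j
    have h1 := inK1_levelPull p M hpM A (ℓ ^ k) hK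
    have h2 : Fermat.Agent.FL.H2.levelPull p M hpM ((x : JZero p) - (y : JZero p))
        = ((E x : 𝒮) : JZero M) - ((E y : 𝒮) : JZero M) := map_sub _ _ _
    rw [h2] at h1
    exact hred (E x) (E y) (ℓ ^ k) (pow_ne_zero _ hℓ.ne_zero) h1 j

end Fermat.Agent.S59.LGC.H36

end
end
-- ==== END Fermat.Agent.S59.LGC.H36_FL

-- ==== BEGIN Fermat.Agent.S59.LL.SQ.H86_PBGlueAbs
section

/-!
# S59, package LL / SQ, step (T), leaf PB-GLUE, abstract part (helper86)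

Setting: helper79's `NUData` `D` (higher level `q² M'` with the three valuations `i₂₀`, `i₁₁`,
`i₀₂`; lower level `q M'` with the two valuations `p₁`, `p₂`), helper40's `GlueData`.
`L₀'` : the inertia-fixed functions of the lower level, `pα`, `pβ : L₀' → L₀` the two pull-backs.

* `PullTable D pα pβ` : the PULL-BACK TABLE
  `red₂₀ (α g) = j (red₁ g)`, `red₁₁ (α g) = j (red₁ g)`, `red₀₂ (α g) = j (red₂ g)`,
  `red₂₀ (β g) = j (red₁ g)`, `red₁₁ (β g) = j (red₂ g)`, `red₀₂ (β g) = j (red₂ g)`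
  (`j` the embeddings of the residue fields of the six `ResNorm`), and the compatibility of the
  fibres of the reduction maps with `α`, `β`;
* `GlueLow D zz n f θ` : gluing data of the lower level at the nodes `zz z`, `z ∈ SS`:
  `red₁ f = c G₁ ^ n`, `red₂ f = c G₂ ^ n`, and for a local generator `s` of `f` at `zz z` the
  values of `G₁ red₁ s` at `zz z` and of `G₂ red₂ s` at `β (zz z)` are `u`, `θ z · u`;
* `hasValue_of_over` : values are transported UP along a residue embedding;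
* `glueData_pullA` : `GlueLow D zα n f θ → GlueData D n (pα f) 1 θ`;
* `glueData_pullB` : `GlueLow D zβ n f θ → GlueData D n (pβ f) θ θ`.
So `γ₃ (α^* y) = (1, θ (y) ∘ zα)`, `γ₃ (β^* y) = (θ (y) ∘ zβ, θ (y) ∘ zβ)`: the matrix is unimodular.
-/

set_option autoImplicit false
set_option linter.style.haveILetI false
set_option linter.unusedSectionVars false

noncomputable section

open AlgebraicCurve

attribute [local instance] Classical.propDecidable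

namespace Fermat.Agent.S59.LL.SQ.H86

open Fermat.Agent.RED.H17 Fermat.Agent.RED Fermat.Agent.BAD.H79 Fermat.Agent.BAD
  Fermat.Agent.S36.NU.H79 Fermat.Agent.S59.LL.SQ.H40

/-! ## Values are transported up along an embedding of residue fields -/

section Over

variable {k E₁ E₂ : Type*} [Field k] [Field E₁] [Field E₂] [Algebra k E₁] [Algebra k E₂]

/-- If the point `pt` of `E₂` lies over the point `z'` of `E₁` (values go down along `j`), then
values go up along `j`. -/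
theorem hasValue_of_over (j : E₁ →ₐ[k] E₂) (pt : Place k E₂) (z' : Place k E₁)
    (hdeg : pt.deg = 1)
    (hover : ∀ (y : E₁) (a : k), HasValue pt (j y) a → HasValue z' y a)
    {y : E₁} {a : k} (h : HasValue z' y a) : HasValue pt (j y) a := by
  have hreg : RegAt pt (j y) := by
    by_contra hnr
    have hy0 : y ≠ 0 := by
      rintro rfl
      apply hnr
      rw [map_zero]
      exact (vanAt_zero pt).regAt
    have hjy0 : j y ≠ 0 := (map_ne_zero j).2 hy0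
    have hneg : pt.ord (j y) < 0 := by
      by_contra hge
      exact hnr (regAt_of_ord_nonneg (not_lt.mp hge))
    have hpos : 0 < pt.ord (j y⁻¹) := by
      rw [map_inv₀, Place.ord_inv]
      omega
    have h1 : HasValue pt (j y⁻¹) 0 := by
      unfold HasValue
      rw [map_zero, sub_zero]
      exact vanAt_of_ord_pos hpos
    have h2 : HasValue z' y⁻¹ 0 := hover _ _ h1
    have h3 : VanAt z' y⁻¹ := by
      unfold HasValue at h2
      rwa [map_zero, sub_zero] at h2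
    have h4 := h3.ord_pos (inv_ne_zero hy0)
    rw [Place.ord_inv] at h4
    have h5 := h.regAt.ord_nonneg
    omega
  obtain ⟨a', ha'⟩ := exists_value pt hdeg hreg
  have ha'' : HasValue pt (j y) a' := ha'
  have e : a' = a := (hover _ _ ha'').unique h
  rw [← e]
  exact ha''

end Over

variable {K L₀ L k ι Z : Type*} {E : ι → Type*} {K' L' L₁ L₂ : Type*}
  [Field K] [Field L₀] [Field L] [Algebra K L] [Algebra L₀ L] [Field k] [Fintype ι]
  [∀ i, Field (E i)] [∀ i, Algebra k (E i)] [Field K'] [Field L'] [Algebra K' L']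
  [Field L₁] [Algebra k L₁] [Field L₂] [Algebra k L₂]
  {L₀' : Type*} [Field L₀'] [Algebra L₀' L']

variable (D : NUData K L₀ L k ι Z E K' L' L₁ L₂)

/-! ## The pull-back table -/

/-- **The pull-back table** of the two degeneracy maps. -/
structure PullTable (pα pβ : L₀' →+* L₀) : Prop where
  α₂₀ : ∀ g : L₀', D.T'.p₁.rd (algebraMap L₀' L' g) ≠ 0 →
    D.T.rdN D.i₂₀ (pα g) = D.A₂₀.j (D.T'.p₁.rd (algebraMap L₀' L' g))
  α₁₁ : ∀ g : L₀', D.T'.p₁.rd (algebraMap L₀' L' g) ≠ 0 →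
    D.T.rdN D.i₁₁ (pα g) = D.A₁₁.j (D.T'.p₁.rd (algebraMap L₀' L' g))
  α₀₂ : ∀ g : L₀', D.T'.p₂.rd (algebraMap L₀' L' g) ≠ 0 →
    D.T.rdN D.i₀₂ (pα g) = D.A₀₂.j (D.T'.p₂.rd (algebraMap L₀' L' g))
  β₂₀ : ∀ g : L₀', D.T'.p₁.rd (algebraMap L₀' L' g) ≠ 0 →
    D.T.rdN D.i₂₀ (pβ g) = D.B₂₀.j (D.T'.p₁.rd (algebraMap L₀' L' g))
  β₁₁ : ∀ g : L₀', D.T'.p₂.rd (algebraMap L₀' L' g) ≠ 0 →
    D.T.rdN D.i₁₁ (pβ g) = D.B₁₁.j (D.T'.p₂.rd (algebraMap L₀' L' g))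
  β₀₂ : ∀ g : L₀', D.T'.p₂.rd (algebraMap L₀' L' g) ≠ 0 →
    D.T.rdN D.i₀₂ (pβ g) = D.B₀₂.j (D.T'.p₂.rd (algebraMap L₀' L' g))
  fibα : ∀ z ∈ D.SS, ∀ g : L₀',
    (∀ Q, D.T'.ρ Q = D.zα z → Q.ord (algebraMap L₀' L' g) = 0) →
    ∀ P, D.T.ρ P = z → P.ord (algebraMap L₀ L (pα g)) = 0
  fibβ : ∀ z ∈ D.SS, ∀ g : L₀',
    (∀ Q, D.T'.ρ Q = D.zβ z → Q.ord (algebraMap L₀' L' g) = 0) →
    ∀ P, D.T.ρ P = z → P.ord (algebraMap L₀ L (pβ g)) = 0

/-! ## Gluing data of the lower level -/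

/-- `s` is a **local generator** of `f` at the point `z'` of the lower level (exponent `n`): a
unit for the two valuations such that `f s ^ n` has no zero or pole on the fibre of `z'`. -/
def IsGenLow (n : ℕ) (z' : Place k L₁) (f s : L₀') : Prop :=
  D.T'.p₁.rd (algebraMap L₀' L' s) ≠ 0 ∧ D.T'.p₂.rd (algebraMap L₀' L' s) ≠ 0 ∧
    ∀ Q, D.T'.ρ Q = z' → Q.ord (algebraMap L₀' L' (f * s ^ n)) = 0

/-- **Gluing data of the lower level** at the points `zz z`, `z ∈ SS`: `f` is a unit for the two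
valuations with reductions `c G₁ ^ n`, `c G₂ ^ n`, and at `zz z` the values of `G₁ red₁ s` (at
`zz z`) and of `G₂ red₂ s` (at `β (zz z)`), `s` a local generator, are `u` and `θ z · u`. -/
structure GlueLow (zz : Z → Place k L₁) (n : ℕ) (f : L₀') (θ : Z → k) : Prop where
  unit₁ : D.T'.p₁.rd (algebraMap L₀' L' f) ≠ 0
  unit₂ : D.T'.p₂.rd (algebraMap L₀' L' f) ≠ 0
  ne : ∀ z ∈ D.SS, θ z ≠ 0
  glue : ∃ (c : k) (G₁ : L₁) (G₂ : L₂), c ≠ 0 ∧
    D.T'.p₁.rd (algebraMap L₀' L' f) = algebraMap k L₁ c * G₁ ^ n ∧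
    D.T'.p₂.rd (algebraMap L₀' L' f) = algebraMap k L₂ c * G₂ ^ n ∧
    ∀ z ∈ D.SS, ∃ (s : L₀') (u : k), IsGenLow D n (zz z) f s ∧ u ≠ 0 ∧
      HasValue (zz z) (G₁ * D.T'.p₁.rd (algebraMap L₀' L' s)) u ∧
      HasValue (D.T'.β (zz z)) (G₂ * D.T'.p₂.rd (algebraMap L₀' L' s)) (θ z * u)

variable {D}

/-- the pull-back of a local generator is a local generator (along `α`). -/
theorem isGen_pullA {pα pβ : L₀' →+* L₀} (PT : PullTable D pα pβ) {n : ℕ} {z : Z}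
    (hz : z ∈ D.SS) {f s : L₀'} (h : IsGenLow D n (D.zα z) f s) :
    D.IsGen n z (pα f) (pα s) := by
  obtain ⟨h1, h2, h3⟩ := h
  refine ⟨fun i => ?_, fun P hP => ?_⟩
  · rcases D.cases i with rfl | rfl | rfl
    · rw [PT.α₂₀ s h1]
      exact (map_ne_zero D.A₂₀.j).2 h1
    · rw [PT.α₁₁ s h1]
      exact (map_ne_zero D.A₁₁.j).2 h1
    · rw [PT.α₀₂ s h2]
      exact (map_ne_zero D.A₀₂.j).2 h2
  · have e : pα f * pα s ^ n = pα (f * s ^ n) := by rw [map_mul, map_pow]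
    rw [e]
    exact PT.fibα z hz _ h3 P hP

/-- the pull-back of a local generator is a local generator (along `β`). -/
theorem isGen_pullB {pα pβ : L₀' →+* L₀} (PT : PullTable D pα pβ) {n : ℕ} {z : Z}
    (hz : z ∈ D.SS) {f s : L₀'} (h : IsGenLow D n (D.zβ z) f s) :
    D.IsGen n z (pβ f) (pβ s) := by
  obtain ⟨h1, h2, h3⟩ := h
  refine ⟨fun i => ?_, fun P hP => ?_⟩
  · rcases D.cases i with rfl | rfl | rfl
    · rw [PT.β₂₀ s h1]
      exact (map_ne_zero D.B₂₀.j).2 h1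
    · rw [PT.β₁₁ s h2]
      exact (map_ne_zero D.B₁₁.j).2 h2
    · rw [PT.β₀₂ s h2]
      exact (map_ne_zero D.B₀₂.j).2 h2
  · have e : pβ f * pβ s ^ n = pβ (f * s ^ n) := by rw [map_mul, map_pow]
    rw [e]
    exact PT.fibβ z hz _ h3 P hP

/-- **PB-GLUE along `α`**: the gluing invariants of `α^* f` are `(1, θ)`. -/
theorem glueData_pullA [Infinite k] (hP : HasPrincipalDivisors K L)
    {pα pβ : L₀' →+* L₀} (PT : PullTable D pα pβ) {n : ℕ} (hn : n ≠ 0) {f : L₀'} {θ : Z → k}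
    (h : GlueLow D D.zα n f θ) : GlueData D n (pα f) (fun _ => 1) θ := by
  obtain ⟨c, G₁, G₂, hc, hG₁, hG₂, hgl⟩ := h.glue
  have hf0 : f ≠ 0 := by
    rintro rfl
    apply h.unit₁
    rw [map_zero]
    exact PRed.rd_zero _
  have hH0 : pα f ≠ 0 := (map_ne_zero pα).2 hf0
  -- the roots of the reductions of `α^* f`
  let G : ∀ i, E i := fun i =>
    if h₂₀ : i = D.i₂₀ then h₂₀ ▸ D.A₂₀.j G₁
    else if h₁₁ : i = D.i₁₁ then h₁₁ ▸ D.A₁₁.j G₁
    else if h₀₂ : i = D.i₀₂ then h₀₂ ▸ D.A₀₂.j G₂ else 0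
  have hG20 : G D.i₂₀ = D.A₂₀.j G₁ := by
    show (if h₂₀ : D.i₂₀ = D.i₂₀ then h₂₀ ▸ D.A₂₀.j G₁ else _) = _
    rw [dif_pos rfl]
  have hG11 : G D.i₁₁ = D.A₁₁.j G₁ := by
    show (if h₂₀ : D.i₁₁ = D.i₂₀ then h₂₀ ▸ D.A₂₀.j G₁
      else if h₁₁ : D.i₁₁ = D.i₁₁ then h₁₁ ▸ D.A₁₁.j G₁ else _) = _
    rw [dif_neg (Ne.symm D.ne₁), dif_pos rfl]
  have hG02 : G D.i₀₂ = D.A₀₂.j G₂ := by
    show (if h₂₀ : D.i₀₂ = D.i₂₀ then h₂₀ ▸ D.A₂₀.j G₁
      else if h₁₁ : D.i₀₂ = D.i₁₁ then h₁₁ ▸ D.A₁₁.j G₁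
      else if h₀₂ : D.i₀₂ = D.i₀₂ then h₀₂ ▸ D.A₀₂.j G₂ else 0) = _
    rw [dif_neg (Ne.symm D.ne₂), dif_neg (Ne.symm D.ne₃), dif_pos rfl]
  have hred : ∀ i, D.T.rdN i (pα f) = algebraMap k (E i) c * G i ^ n := by
    intro i
    rcases D.cases i with rfl | rfl | rfl
    · rw [PT.α₂₀ f h.unit₁, hG₁, hG20, map_mul, map_pow, AlgHom.commutes]
    · rw [PT.α₁₁ f h.unit₁, hG₁, hG11, map_mul, map_pow, AlgHom.commutes]
    · rw [PT.α₀₂ f h.unit₂, hG₂, hG02, map_mul, map_pow, AlgHom.commutes]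
  have hunit : ∀ i, D.T.rdN i (pα f) ≠ 0 := by
    intro i
    rcases D.cases i with rfl | rfl | rfl
    · rw [PT.α₂₀ f h.unit₁]
      exact (map_ne_zero D.A₂₀.j).2 h.unit₁
    · rw [PT.α₁₁ f h.unit₁]
      exact (map_ne_zero D.A₁₁.j).2 h.unit₁
    · rw [PT.α₀₂ f h.unit₂]
      exact (map_ne_zero D.A₀₂.j).2 h.unit₂
  refine ⟨hunit, fun z hz => ?_, fun z hz => ⟨one_ne_zero, h.ne z hz⟩, c, G, hc, hred,
    fun z hz => ?_⟩
  · obtain ⟨s, u, hs, -⟩ := hgl z hz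
    exact ⟨pα s, isGen_pullA PT hz hs⟩
  · obtain ⟨s, u, hs, hu, hv₁, hv₂⟩ := hgl z hz
    refine glueAt_of_gen D hP hn hH0 G hz (isGen_pullA PT hz hs) hu ?_ ?_ ?_
    · rw [hG20, PT.α₂₀ s hs.1, ← map_mul]
      exact hasValue_of_over D.A₂₀.j _ _ (D.deg_one z hz _) (D.ptA₂₀ z hz) hv₁
    · rw [one_mul, hG11, PT.α₁₁ s hs.1, ← map_mul]
      exact hasValue_of_over D.A₁₁.j _ _ (D.deg_one z hz _) (D.ptA₁₁ z hz) hv₁
    · rw [hG02, PT.α₀₂ s hs.2.1, ← map_mul]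
      exact hasValue_of_over D.A₀₂.j _ _ (D.deg_one z hz _) (D.ptA₀₂ z hz) hv₂

/-- **PB-GLUE along `β`**: the gluing invariants of `β^* f` are `(θ, θ)`. -/
theorem glueData_pullB [Infinite k] (hP : HasPrincipalDivisors K L)
    {pα pβ : L₀' →+* L₀} (PT : PullTable D pα pβ) {n : ℕ} (hn : n ≠ 0) {f : L₀'} {θ : Z → k}
    (h : GlueLow D D.zβ n f θ) : GlueData D n (pβ f) θ θ := by
  obtain ⟨c, G₁, G₂, hc, hG₁, hG₂, hgl⟩ := h.glue
  have hf0 : f ≠ 0 := by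
    rintro rfl
    apply h.unit₁
    rw [map_zero]
    exact PRed.rd_zero _
  have hH0 : pβ f ≠ 0 := (map_ne_zero pβ).2 hf0
  let G : ∀ i, E i := fun i =>
    if h₂₀ : i = D.i₂₀ then h₂₀ ▸ D.B₂₀.j G₁
    else if h₁₁ : i = D.i₁₁ then h₁₁ ▸ D.B₁₁.j G₂
    else if h₀₂ : i = D.i₀₂ then h₀₂ ▸ D.B₀₂.j G₂ else 0
  have hG20 : G D.i₂₀ = D.B₂₀.j G₁ := by
    show (if h₂₀ : D.i₂₀ = D.i₂₀ then h₂₀ ▸ D.B₂₀.j G₁ else _) = _
    rw [dif_pos rfl]
  have hG11 : G D.i₁₁ = D.B₁₁.j G₂ := by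
    show (if h₂₀ : D.i₁₁ = D.i₂₀ then h₂₀ ▸ D.B₂₀.j G₁
      else if h₁₁ : D.i₁₁ = D.i₁₁ then h₁₁ ▸ D.B₁₁.j G₂ else _) = _
    rw [dif_neg (Ne.symm D.ne₁), dif_pos rfl]
  have hG02 : G D.i₀₂ = D.B₀₂.j G₂ := by
    show (if h₂₀ : D.i₀₂ = D.i₂₀ then h₂₀ ▸ D.B₂₀.j G₁
      else if h₁₁ : D.i₀₂ = D.i₁₁ then h₁₁ ▸ D.B₁₁.j G₂
      else if h₀₂ : D.i₀₂ = D.i₀₂ then h₀₂ ▸ D.B₀₂.j G₂ else 0) = _
    rw [dif_neg (Ne.symm D.ne₂), dif_neg (Ne.symm D.ne₃), dif_pos rfl]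
  have hred : ∀ i, D.T.rdN i (pβ f) = algebraMap k (E i) c * G i ^ n := by
    intro i
    rcases D.cases i with rfl | rfl | rfl
    · rw [PT.β₂₀ f h.unit₁, hG₁, hG20, map_mul, map_pow, AlgHom.commutes]
    · rw [PT.β₁₁ f h.unit₂, hG₂, hG11, map_mul, map_pow, AlgHom.commutes]
    · rw [PT.β₀₂ f h.unit₂, hG₂, hG02, map_mul, map_pow, AlgHom.commutes]
  have hunit : ∀ i, D.T.rdN i (pβ f) ≠ 0 := by
    intro i
    rcases D.cases i with rfl | rfl | rfl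
    · rw [PT.β₂₀ f h.unit₁]
      exact (map_ne_zero D.B₂₀.j).2 h.unit₁
    · rw [PT.β₁₁ f h.unit₂]
      exact (map_ne_zero D.B₁₁.j).2 h.unit₂
    · rw [PT.β₀₂ f h.unit₂]
      exact (map_ne_zero D.B₀₂.j).2 h.unit₂
  refine ⟨hunit, fun z hz => ?_, fun z hz => ⟨h.ne z hz, h.ne z hz⟩, c, G, hc, hred,
    fun z hz => ?_⟩
  · obtain ⟨s, u, hs, -⟩ := hgl z hz
    exact ⟨pβ s, isGen_pullB PT hz hs⟩
  · obtain ⟨s, u, hs, hu, hv₁, hv₂⟩ := hgl z hz
    refine glueAt_of_gen D hP hn hH0 G hz (isGen_pullB PT hz hs) hu ?_ ?_ ?_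
    · rw [hG20, PT.β₂₀ s hs.1, ← map_mul]
      exact hasValue_of_over D.B₂₀.j _ _ (D.deg_one z hz _) (D.ptB₂₀ z hz) hv₁
    · rw [hG11, PT.β₁₁ s hs.2.1, ← map_mul]
      exact hasValue_of_over D.B₁₁.j _ _ (D.deg_one z hz _) (D.ptB₁₁ z hz) hv₂
    · rw [hG02, PT.β₀₂ s hs.2.1, ← map_mul]
      exact hasValue_of_over D.B₀₂.j _ _ (D.deg_one z hz _) (D.ptB₀₂ z hz) hv₂

end Fermat.Agent.S59.LL.SQ.H86

end
end
-- ==== END Fermat.Agent.S59.LL.SQ.H86_PBGlueAbs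

-- ==== BEGIN Fermat.Agent.S59.LL.SQ.H87_CPow
section
attribute [local instance 10000] SubalgebraClass.toAlgebra
attribute [local instance 10000] HahnSeries.powerSeriesAlgebra

/-!
# S59 / LL / SQ, leaf (R), hypothesis CPOW2002 (helper87): B2 at the components `20` and `02`

Level `N = M q²`, `q ∤ M`, `A` over `q`.  Let `h` be an inertia-fixed function of level `N` whose
norms along `α`, `β : F_{M q} → F_N` are constants times `p`-th powers (`H10.IsNormPow0`: the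
case of a Kummer function of a `q`-new class).

* `exists_unit_form` : a unit `c g ^ p` (`c` an inertia-fixed constant, `g` inertia-fixed) of a
  valuation with values in `v(q)^ℤ` is `c' g' ^ p` with units `c'`, `g'`;
* `cpow02` : if `h` is a unit at `V₀₂` then `s₀₂ h = c · (s₀₂ g) ^ p`
  (from `N_α`: `red₂ (N_α h) = φ (r₀₂ h)`, helper69's NORM-RED `serA2`);
* `cpow20` : if `h` is a unit at `V₂₀` then `s₂₀ h = c · (s₂₀ g) ^ p`
  (from `N_β`: `red₁ (N_β h) = φ (r₂₀ h)`, `serB1`).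

No tameness hypothesis and no `NUData` are needed.  This file contains no `sorry`.
-/

set_option autoImplicit false
set_option synthInstance.maxHeartbeats 400000
set_option maxHeartbeats 1000000
set_option linter.style.haveILetI false
set_option linter.unusedSectionVars false

noncomputable section

open ModularCurve AlgebraicCurve
open Fermat.Agent.S24 Fermat.Agent.BAD.H88 Fermat.Agent.S28 Fermat.Agent.S28.H73
open Fermat.Agent.RED.H73 Fermat.Agent.RED.H17 Fermat.Agent.S36.NU.H88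
open Fermat.Agent.Lib.HeckeComm Fermat.Agent.S36.NU.H23 Fermat.Agent.S36.NU.H89
open Fermat.Agent.S36.NU.H51 Fermat.Agent.S36.NU.H82 Fermat.Agent.S36.NU.H10

namespace Fermat.Agent.S59.LL.SQ.H87

/-! ## Scaling -/

section Scale

variable (A : ValuationSubring Kbar) {N : ℕ} [NeZero N] {q : ℕ}

/-- A unit `c g ^ p`, with `c` an inertia-fixed constant and `g` inertia-fixed, is `c' g' ^ p`
with units `c'` and `g'`. -/
theorem exists_unit_form (hq : q.Prime) (hA : A.LiesOverPrime q)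
    {W : ValuationSubring (FN N)} (hW : IsLowVal A N q W) (p : ℕ) (hp : 0 < p)
    (c : Kbar) (g : FN N) (hc : ∀ σ ∈ A.inertiaSubgroupIn ℚ, σ c = c) (hg : g ∈ L0 A N)
    (hu : W.valuation (algebraMap Kbar (FN N) c * g ^ p) = 1) :
    ∃ (c' : Kbar) (g' : FN N), A.valuation c' = 1 ∧ W.valuation g' = 1 ∧
      algebraMap Kbar (FN N) c * g ^ p = algebraMap Kbar (FN N) c' * g' ^ p := by
  have hc0 : c ≠ 0 := by
    rintro rfl
    rw [map_zero, zero_mul, map_zero] at hu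
    exact zero_ne_one hu
  have hg0 : g ≠ 0 := by
    rintro rfl
    rw [zero_pow hp.ne', mul_zero, map_zero] at hu
    exact zero_ne_one hu
  obtain ⟨m, hm⟩ := valuation_Kur A hq hA c hc hc0
  obtain ⟨j, hj⟩ := hW.exact g hg hg0
  have hqK0 : (q : Kbar) ≠ 0 := by exact_mod_cast hq.ne_zero
  have hqF0 : ((q : ℕ) : FN N) ≠ 0 := by
    have e : ((q : ℕ) : FN N) = algebraMap Kbar (FN N) (q : Kbar) := (map_natCast _ q).symm
    rw [e]
    exact (map_ne_zero _).2 hqK0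
  have hvq0 : W.valuation ((q : ℕ) : FN N) ≠ 0 := (Valuation.ne_zero_iff _).2 hqF0
  have hvq1 : W.valuation ((q : ℕ) : FN N) ≠ 1 := (hW.val_q_lt_one hA).ne
  have hAq0 : A.valuation (q : Kbar) ≠ 0 := (Valuation.ne_zero_iff _).2 hqK0
  -- the value of the constant
  have hcW : W.valuation (algebraMap Kbar (FN N) c) = W.valuation ((q : ℕ) : FN N) ^ m := by
    have h1 : A.valuation c = A.valuation ((q : Kbar) ^ m) := by rw [map_zpow₀]; exact hm
    have h2 := val_algebraMap_congr A W hW.const h1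
    rw [h2, map_zpow₀, map_natCast, map_zpow₀]
  -- `m + j p = 0`
  have hsum : m + j * p = 0 := by
    have h1 : W.valuation ((q : ℕ) : FN N) ^ (m + j * p) = 1 := by
      rw [zpow_add₀ hvq0, zpow_mul, zpow_natCast, ← hcW, ← hj, ← map_pow, ← map_mul]
      exact hu
    exact (zpow_eq_one_iff_right₀ zero_le hvq1).1 h1
  refine ⟨c * (q : Kbar) ^ (j * p), g * ((q : ℕ) : FN N) ^ (-j), ?_, ?_, ?_⟩
  · rw [map_mul, map_zpow₀, hm, ← zpow_add₀ hAq0, hsum, zpow_zero]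
  · rw [map_mul, map_zpow₀, hj, ← zpow_add₀ hvq0, add_neg_cancel, zpow_zero]
  · have e : algebraMap Kbar (FN N) ((q : Kbar) ^ (j * p)) = ((q : ℕ) : FN N) ^ (j * p) := by
      rw [map_zpow₀, map_natCast]
    rw [map_mul, e, mul_pow, ← zpow_natCast (((q : ℕ) : FN N) ^ (-j)) p, ← zpow_mul]
    have e2 : ((q : ℕ) : FN N) ^ (j * p) * ((q : ℕ) : FN N) ^ (-j * (p : ℤ)) = 1 := by
      rw [← zpow_add₀ hqF0]
      have : j * (p : ℤ) + -j * (p : ℤ) = 0 := by ring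
      rw [this, zpow_zero]
    calc algebraMap Kbar (FN N) c * g ^ p
        = algebraMap Kbar (FN N) c * g ^ p
            * (((q : ℕ) : FN N) ^ (j * p) * ((q : ℕ) : FN N) ^ (-j * (p : ℤ))) := by
          rw [e2, mul_one]
      _ = algebraMap Kbar (FN N) c * ((q : ℕ) : FN N) ^ (j * p)
            * (g ^ p * ((q : ℕ) : FN N) ^ (-j * (p : ℤ))) := by ring

end Scale

/-! ## The two components -/

section CPow

variable (A : ValuationSubring Kbar) (q M : ℕ) (B k : ℤ) (hB : B * M + k * q = 1) (hq : q.Prime)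
  [NeZero M] [NeZero q] [NeZero (M * q * q)] [NeZero (M * q)] (hqM : ¬ q ∣ M)
  (hA : A.LiesOverPrime q)

/-- `φ` on the constants. -/
theorem phiM_const (c : kV A) :
    phiM A q M hq hqM hA (algebraMap (kV A) (FM A M) c)
      = algebraMap (kV A) (FM A M) (c ^ q) := by
  have e := @Fermat.Agent.BAD.H73.frobE_algebraMap (kV A) _ q ⟨hq⟩
    (Fermat.Agent.BAD.H82.charP_kV A hq hA)
    (@Fermat.Agent.BAD.H73.perfectRing_kV _ _ _ A q ⟨hq⟩
      (Fermat.Agent.BAD.H82.charP_kV A hq hA)) _ (frobStable_FM A q M hq hqM hA) c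
  rw [frobeniusEquiv_apply] at e
  exact e

/-- The residue map of `A` does not vanish at the units. -/
theorem resV_ne_zero (c : ↥A) (hc : IsUnit c) : resV A c ≠ 0 :=
  (IsLocalRing.residue_ne_zero_iff_isUnit _).2 hc

/-- The constants of `V₁`. -/
theorem const_mem_V1 (c : Kbar) (hc : c ∈ A) : algebraMap Kbar (FN (M * q)) c ∈ V1 A q M :=
  (const_mem1 A q M c).2 hc

/-- The constants of `V₂`. -/
theorem const_mem_V2 (c : Kbar) (hc : c ∈ A) :
    algebraMap Kbar (FN (M * q)) c ∈ V2 A q M k B (hab_of_hB q M B k hB) hq :=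
  (const_mem2 A q M k B (hab_of_hB q M B k hB) hq c).2 ((const_mem1 A q M c).2 hc)

/-- The reduction of the constants at `V₂`. -/
theorem red2_const' (c : ↥A)
    (h : algebraMap Kbar (FN (M * q)) (c : Kbar) ∈ V2 A q M k B (hab_of_hB q M B k hB) hq) :
    red2 A q M k B (hab_of_hB q M B k hB) hq ⟨_, h⟩
      = algebraMap (kV A) (F1 A q M) (resV A c) := by
  have h1 : algebraMap Kbar (FN (M * q)) (c : Kbar) ∈ V1 A q M := const_mem_V1 A q M c c.2
  rw [const_red2 A q M k B (hab_of_hB q M B k hB) hq (c : Kbar) h1 h]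
  exact red1_const A q M c h1

include hq hqM hA in
/-- **CPOW at `V₀₂`**, residue form. -/
theorem cpow02_r (p : ℕ) (hp : 0 < p) (h : ↥(L0 A (M * q * q))) (h02 : h ∈ V02o A q M B k hB)
    (hr0 : r02 A q M B k hB hq hqM hA ⟨h, h02⟩ ≠ 0)
    (hN : IsNormPow0 A q M (heckeAlphaBar Kbar (M * q) q) p (h : FN (M * q * q))) :
    ∃ (a : kV A) (y : FM A M), a ≠ 0 ∧ y ≠ 0 ∧
      r02 A q M B k hB hq hqM hA ⟨h, h02⟩ = algebraMap (kV A) (FM A M) a * y ^ p := by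
  obtain ⟨hm, hser⟩ := serA2 A q M B k hB hq hqM hA h h02
  obtain ⟨c, g, hc, hg, hNe⟩ := hN
  have hNe' : NalphaM A q M h = algebraMap Kbar (FN (M * q)) c * g ^ p := hNe
  have hx : phiM A q M hq hqM hA (r02 A q M B k hB hq hqM hA ⟨h, h02⟩)
      = cF1 A q M B k hB hq hA
          (red2 A q M k B (hab_of_hB q M B k hB) hq ⟨NalphaM A q M h, hm⟩) :=
    Subtype.ext (hser.symm.trans (coe_cF1 A q M B k hB hq hA _).symm)
  have hu := cpa_unit (V2 A q M k B (hab_of_hB q M B k hB) hq)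
    (red2 A q M k B (hab_of_hB q M B k hB) hq)
    (red2_eq_zero_iff A q M k B (hab_of_hB q M B k hB) hq)
    (cF1 A q M B k hB hq hA) (phiM A q M hq hqM hA) (NalphaM A q M h) hm _ hr0 hx
  rw [hNe'] at hu
  obtain ⟨c', g', hc', hg', he⟩ := exists_unit_form A hq hA
    (isLowVal_V2 A q M k B (hab_of_hB q M B k hB) hq hA) p hp c g hc hg hu
  haveI : IsAlgClosed (kV A) := Fermat.Agent.RED.H73.isAlgClosed_kV A
  exact cpa_main A (V2 A q M k B (hab_of_hB q M B k hB) hq) (resV A) (resV_ne_zero A)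
    (red2 A q M k B (hab_of_hB q M B k hB) hq)
    (red2_eq_zero_iff A q M k B (hab_of_hB q M B k hB) hq)
    (const_mem_V2 A q M B k hB hq) (red2_const' A q M B k hB hq)
    (cF1 A q M B k hB hq hA) (phiM A q M hq hqM hA) q hq.pos (phiM_const A q M hq hqM hA)
    p c' g' hc' hg' (NalphaM A q M h) hm (hNe'.trans he) _ hx

include hq hqM hA in
/-- **CPOW at `V₀₂`**: if `h` is a unit at `V₀₂` and `N_α h = c g ^ p` then
`s₀₂ h = c' (s₀₂ g') ^ p`. -/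
theorem cpow02 (p : ℕ) (hp : 0 < p) (h : ↥(L0 A (M * q * q))) (h02 : h ∈ V02o A q M B k hB)
    (hs : s02 A q M B k hB ⟨h, h02⟩ ≠ 0)
    (hN : IsNormPow0 A q M (heckeAlphaBar Kbar (M * q) q) p (h : FN (M * q * q))) :
    ∃ (c : kV A) (g : ↥(V02o A q M B k hB)), c ≠ 0 ∧ s02 A q M B k hB g ≠ 0 ∧
      s02 A q M B k hB ⟨h, h02⟩
        = algebraMap (kV A) (LaurentSeries (kV A)) c * s02 A q M B k hB g ^ p := by
  have hr0 : r02 A q M B k hB hq hqM hA ⟨h, h02⟩ ≠ 0 := by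
    intro h0
    exact hs (congrArg Subtype.val h0)
  obtain ⟨a, y, ha, hy, hxy⟩ := cpow02_r A q M B k hB hq hqM hA p hp h h02 hr0 hN
  obtain ⟨g₀, hg₀⟩ := r02_surjective A q M B k hB hq hqM hA y
  refine ⟨a, g₀, ha, ?_, ?_⟩
  · intro h0
    apply hy
    rw [← hg₀]
    exact Subtype.ext h0
  · rw [← hg₀] at hxy
    exact (congrArg Subtype.val hxy).trans
      (cpa_coe_const_mul_pow (redField A (modularFunctionFieldBar M) (hScM A M)) a
        (r02 A q M B k hB hq hqM hA g₀) p)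

include hq hqM hA hB in
/-- **CPOW at `V₂₀`**, residue form. -/
theorem cpow20_r (p : ℕ) (hp : 0 < p) (h : ↥(L0 A (M * q * q))) (h20 : h ∈ V20o A q M)
    (hr0 : r20 A q M hq hqM hA ⟨h, h20⟩ ≠ 0)
    (hN : IsNormPow0 A q M (heckeBetaBar Kbar (M * q) q) p (h : FN (M * q * q))) :
    ∃ (a : kV A) (y : FM A M), a ≠ 0 ∧ y ≠ 0 ∧
      r20 A q M hq hqM hA ⟨h, h20⟩ = algebraMap (kV A) (FM A M) a * y ^ p := by
  obtain ⟨hm, hser⟩ := serB1 A q M hq hqM hA h h20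
  obtain ⟨c, g, hc, hg, hNe⟩ := hN
  have hNe' : NbetaM A q M h = algebraMap Kbar (FN (M * q)) c * g ^ p := hNe
  have hx : phiM A q M hq hqM hA (r20 A q M hq hqM hA ⟨h, h20⟩)
      = cF1 A q M B k hB hq hA (red1 A q M ⟨NbetaM A q M h, hm⟩) :=
    Subtype.ext (hser.symm.trans (coe_cF1 A q M B k hB hq hA _).symm)
  have hu := cpa_unit (V1 A q M) (red1 A q M) (red1_eq_zero_iff A q M)
    (cF1 A q M B k hB hq hA) (phiM A q M hq hqM hA) (NbetaM A q M h) hm _ hr0 hx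
  rw [hNe'] at hu
  have hlow : IsLowVal A (M * q) q (V1 A q M) := isLowVal_V20 A (M * q) q hq hA
  obtain ⟨c', g', hc', hg', he⟩ := exists_unit_form A hq hA hlow p hp c g hc hg hu
  haveI : IsAlgClosed (kV A) := Fermat.Agent.RED.H73.isAlgClosed_kV A
  exact cpa_main A (V1 A q M) (resV A) (resV_ne_zero A) (red1 A q M)
    (red1_eq_zero_iff A q M) (const_mem_V1 A q M) (red1_const A q M)
    (cF1 A q M B k hB hq hA) (phiM A q M hq hqM hA) q hq.pos (phiM_const A q M hq hqM hA)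
    p c' g' hc' hg' (NbetaM A q M h) hm (hNe'.trans he) _ hx

include hq hqM hA hB in
/-- **CPOW at `V₂₀`**: if `h` is a unit at `V₂₀` and `N_β h = c g ^ p` then
`s₂₀ h = c' (s₂₀ g') ^ p`. -/
theorem cpow20 (p : ℕ) (hp : 0 < p) (h : ↥(L0 A (M * q * q))) (h20 : h ∈ V20o A q M)
    (hs : s20 A q M ⟨h, h20⟩ ≠ 0)
    (hN : IsNormPow0 A q M (heckeBetaBar Kbar (M * q) q) p (h : FN (M * q * q))) :
    ∃ (c : kV A) (g : ↥(V20o A q M)), c ≠ 0 ∧ s20 A q M g ≠ 0 ∧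
      s20 A q M ⟨h, h20⟩
        = algebraMap (kV A) (LaurentSeries (kV A)) c * s20 A q M g ^ p := by
  have hr0 : r20 A q M hq hqM hA ⟨h, h20⟩ ≠ 0 := by
    intro h0
    exact hs (congrArg Subtype.val h0)
  obtain ⟨a, y, ha, hy, hxy⟩ := cpow20_r A q M B k hB hq hqM hA p hp h h20 hr0 hN
  obtain ⟨g₀, hg₀⟩ := r20_surjective A q M hq hqM hA y
  refine ⟨a, g₀, ha, ?_, ?_⟩
  · intro h0
    apply hy
    rw [← hg₀]
    exact Subtype.ext h0
  · rw [← hg₀] at hxy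
    exact (congrArg Subtype.val hxy).trans
      (cpa_coe_const_mul_pow (redField A (modularFunctionFieldBar M) (hScM A M)) a
        (r20 A q M hq hqM hA g₀) p)

end CPow

end Fermat.Agent.S59.LL.SQ.H87

end
end
-- ==== END Fermat.Agent.S59.LL.SQ.H87_CPow

-- ==== BEGIN Fermat.Agent.S59.LL.SQ23.H89_S3Pic
section

/-!
# S59 / LL / SQ23, leaf S3-PIC (helper89): `φ^* φ_* = 1 + s` for a quadratic Galois extension

`φ : F →ₐ[K] F'` a finite morphism of function fields, `s : F' ≃ₐ[K] F'` an automorphism.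

* `smulDiv s` : the action of `s` on divisors, as an additive map; `finPre_smulDiv`;
* `pull_push_div` : if `φ (N_φ f) = f * s f` for all `f`, then `φ^* φ_* = 1 + s` on divisors
  (helper2's principle: additive maps with finite preimage supports which agree on principal
  divisors are equal);
* `norm_eq_mul_of_finrank_two` : if `[F' : φ F] = 2`, `s ∘ φ = φ` and `s ≠ 1`, then
  `φ (N_φ f) = f * s f`;
* `pic0_pull_push` : `φ^* φ_* x = x + s • x` on `Pic⁰`;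
* `pic0_pull_push_of_finrank_two` : the same for a quadratic extension with its involution.

The modular instances (`α`, `β : F_{2M'} → F_{4M'}`) are in `H89_S3PicMod.lean`.
-/

set_option autoImplicit false
set_option linter.style.haveILetI false
set_option linter.unusedSectionVars false

noncomputable section

namespace Fermat.Agent.S59.LL.SQ23.H89

open AlgebraicCurve Fermat.Agent.Lib.HeckeComm Fermat.Agent.S36.H44 Fermat.Agent.S59.LL.SQ.H40

section Abstract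

variable {K F F' : Type*} [Field K] [Field F] [Field F'] [Algebra K F] [Algebra K F']

/-- The action of an automorphism on divisors, as an additive map. -/
def smulDiv (s : F' ≃ₐ[K] F') : Divisor K F' →+ Divisor K F' :=
  DistribSMul.toAddMonoidHom (Divisor K F') s

@[simp]
theorem smulDiv_apply (s : F' ≃ₐ[K] F') (D : Divisor K F') : smulDiv s D = s • D := rfl

theorem finPre_smulDiv (s : F' ≃ₐ[K] F') : FinPre (smulDiv s) := by
  intro w
  refine (Set.finite_singleton (s⁻¹ • w)).subset fun v hv => ?_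
  rw [Set.mem_ofPred_eq, smulDiv_apply, Divisor.smul_single] at hv
  rw [Set.mem_singleton_iff]
  by_contra hne
  apply hv
  refine Finsupp.single_eq_of_ne fun h => hne ?_
  rw [h, inv_smul_smul]

theorem finPre_id : FinPre (AddMonoidHom.id (Divisor K F')) := by
  intro w
  refine (Set.finite_singleton w).subset fun v hv => ?_
  rw [Set.mem_ofPred_eq, AddMonoidHom.id_apply] at hv
  rw [Set.mem_singleton_iff]
  by_contra hne
  exact hv (Finsupp.single_eq_of_ne fun h => hne h.symm)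

theorem finPre_add {Φ Ψ : Divisor K F →+ Divisor K F'} (hΦ : FinPre Φ) (hΨ : FinPre Ψ) :
    FinPre (Φ + Ψ) := by
  intro w
  refine ((hΦ w).union (hΨ w)).subset fun v hv => ?_
  rw [Set.mem_ofPred_eq, AddMonoidHom.add_apply, Finsupp.add_apply] at hv
  by_contra hne
  rw [Set.mem_union, not_or] at hne
  apply hv
  have h1 : Φ (Finsupp.single v 1) w = 0 := by
    by_contra h; exact hne.1 h
  have h2 : Ψ (Finsupp.single v 1) w = 0 := by
    by_contra h; exact hne.2 h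
  rw [h1, h2, add_zero]

/-- `s • div f = div (s f)`. -/
theorem smul_div_apply (s : F' ≃ₐ[K] F') (f : F') (D : Divisor K F')
    (hD : ∀ w : Place K F', D w = w.ord f) (w : Place K F') :
    (s • D) w = w.ord (s f) := by
  rw [Divisor.smul_apply, hD]
  have h := Place.ord_smul s (s⁻¹ • w) f
  rw [smul_inv_smul] at h
  exact h.symm

variable [HasPrincipalDivisors K F']

/-- **`φ^* φ_* = 1 + s` on divisors**, if the norm of `φ` is `f ↦ f * s f`. -/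
theorem pull_push_div (φ : F →ₐ[K] F') (hφ : φ.toRingHom.IsIntegral)
    (hfin : FiniteAlong K φ) (hN : NormFormulaAlong K φ hfin) (s : F' ≃ₐ[K] F')
    (hs : ∀ f : F', φ (normAlongHom φ.toRingHom f) = f * s f) :
    (Divisor.pullbackAlong φ hφ).comp (Divisor.pushforwardAlong φ hφ)
      = AddMonoidHom.id (Divisor K F') + smulDiv s := by
  refine eq_of_eq_on_principal _ _
    (FinPre.comp (finPre_pullbackAlong φ hφ) (finPre_pushforwardAlong φ hφ))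
    (finPre_add finPre_id (finPre_smulDiv s)) ?_
  intro f D hf hD
  apply Finsupp.ext
  intro w
  have hsf : s f ≠ 0 := fun h => hf (by simpa using h)
  rw [AddMonoidHom.comp_apply,
    pullbackAlong_ord φ hφ (f := normAlongHom φ.toRingHom f) _
      (fun v => pushforwardAlong_ord φ hφ hfin hN hf D hD v) w,
    hs f, Place.ord_mul w hf hsf, AddMonoidHom.add_apply, Finsupp.add_apply,
    AddMonoidHom.id_apply, smulDiv_apply, hD w, smul_div_apply s f D hD w]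

/-- **`φ^* φ_* x = x + s • x` on `Pic⁰`**, if the norm of `φ` is `f ↦ f * s f`. -/
theorem pic0_pull_push (φ : F →ₐ[K] F') (hφ : φ.toRingHom.IsIntegral)
    (hFI : FundamentalIdentityAlong K φ hφ)
    (hfin : FiniteAlong K φ) (hN : NormFormulaAlong K φ hfin) (s : F' ≃ₐ[K] F')
    (hs : ∀ f : F', φ (normAlongHom φ.toRingHom f) = f * s f) (x : Pic0 K F') :
    pic0Pull φ hφ hFI (pic0Push φ hφ hfin hN x) = x + s • x := by
  obtain ⟨D, rfl⟩ := Pic0.mk_surjective x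
  rw [pic0Push_mk, pic0Pull_mk, Pic0.smul_mk, ← Pic0.mk_add]
  refine congrArg Pic0.mk (Subtype.ext ?_)
  rw [coe_degZeroPull, coe_degZeroPush, AddSubgroup.coe_add, Pic0.coe_degZeroSMulHom]
  exact DFunLike.congr_fun (pull_push_div φ hφ hfin hN s hs) (D : Divisor K F')

end Abstract

section Quadratic

variable {K F F' : Type*} [Field K] [Field F] [Field F'] [Algebra K F] [Algebra K F']

/-- **The norm of a quadratic extension with a non-trivial automorphism.** -/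
theorem norm_eq_mul_of_finrank_two (φ : F →ₐ[K] F') (h2 : finrankAlong K φ = 2)
    (s : F' ≃ₐ[K] F') (hsφ : ∀ a : F, s (φ a) = φ a) (hs1 : s ≠ 1) (f : F') :
    φ (normAlongHom φ.toRingHom f) = f * s f := by
  classical
  letI := algebraAlong φ
  have hfr : Module.finrank F F' = 2 := h2
  haveI : FiniteDimensional F F' := Module.finite_of_finrank_pos (by rw [hfr]; norm_num)
  -- `s` as an automorphism over `F`
  let s' : F' ≃ₐ[F] F' := AlgEquiv.ofRingEquiv (f := s.toRingEquiv) (fun a => hsφ a)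
  have hs' : ∀ x : F', s' x = s x := fun _ => rfl
  have hne : s' ≠ 1 := by
    intro h
    apply hs1
    ext x
    have := congrArg (fun t : F' ≃ₐ[F] F' => t x) h
    simpa [hs'] using this
  -- the automorphism group has two elements
  have hle : Nat.card (F' ≃ₐ[F] F') ≤ 2 := by
    rw [← hfr]
    rw [Nat.card_eq_fintype_card]
    exact AlgEquiv.card_le
  have hge : 2 ≤ Nat.card (F' ≃ₐ[F] F') := by
    rw [Nat.card_eq_fintype_card]
    exact Fintype.one_lt_card_iff.mpr ⟨s', 1, hne⟩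
  have hcard : Nat.card (F' ≃ₐ[F] F') = Module.finrank F F' := by
    rw [hfr]; exact le_antisymm hle hge
  haveI : IsGalois F F' := IsGalois.of_card_aut_eq_finrank F F' hcard
  have huniv : (Finset.univ : Finset (F' ≃ₐ[F] F')) = {1, s'} := by
    symm
    apply Finset.eq_univ_of_card
    rw [Finset.card_pair (Ne.symm hne), ← Nat.card_eq_fintype_card]
    exact (le_antisymm hle hge).symm
  have hprod := Algebra.norm_eq_prod_automorphisms F f
  rw [huniv, Finset.prod_pair (Ne.symm hne)] at hprod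
  exact hprod

variable [HasPrincipalDivisors K F']

/-- **`φ^* φ_* x = x + s • x` on `Pic⁰`** for a quadratic extension `F' / φ F` with its
involution `s`. -/
theorem pic0_pull_push_of_finrank_two (φ : F →ₐ[K] F') (hφ : φ.toRingHom.IsIntegral)
    (hFI : FundamentalIdentityAlong K φ hφ)
    (hfin : FiniteAlong K φ) (hN : NormFormulaAlong K φ hfin) (h2 : finrankAlong K φ = 2)
    (s : F' ≃ₐ[K] F') (hsφ : ∀ a : F, s (φ a) = φ a) (hs1 : s ≠ 1) (x : Pic0 K F') :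
    pic0Pull φ hφ hFI (pic0Push φ hφ hfin hN x) = x + s • x :=
  pic0_pull_push φ hφ hFI hfin hN s (norm_eq_mul_of_finrank_two φ h2 s hsφ hs1) x

end Quadratic

end Fermat.Agent.S59.LL.SQ23.H89

end
end
-- ==== END Fermat.Agent.S59.LL.SQ23.H89_S3Pic

-- ==== BEGIN Fermat.Agent.S59.NonMin.CQNE.H7_Asm
section

set_option autoImplicit false

open UpperHalfPlane ModularForm

namespace Fermat.Agent.S59.NonMin.CQNE

/-- **The analytic core**: a `T_q`-eigenvalue on weight `2` cusp forms has absolute value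
`< q + 1`. -/
def Stmt_NormLt : Prop :=
  ∀ (N : ℕ) [NeZero N] (q : ℕ) (hq : q.Prime) (hqN : ¬ q ∣ N)
    (f : CuspForm (CongruenceSubgroup.Gamma0 N) 2), f ≠ 0 → ∀ c : ℂ,
    CuspForm.heckeTLin 2 hq hqN f = c • f → ‖c‖ < (q : ℝ) + 1

namespace H7

/-- The imaginary part of `q z`. -/
theorem im_heckeDiagMatrix_smul {q : ℕ} (hq : q ≠ 0) (z : ℍ) :
    (heckeDiagMatrix q • z).im = q * z.im := by
  have h := congrArg Complex.im (coe_heckeDiagMatrix_smul hq z)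
  rw [UpperHalfPlane.coe_im] at h
  rw [h]
  simp

/-- The analytic core from the maximum point, the Hecke inequality and the decay. -/
theorem stmt_NormLt_of (hM : Stmt_MaxPt) (hI : Stmt_HeckeIneq) (hD : Stmt_Decay) :
    Stmt_NormLt := by
  intro N _ q hq hqN f hf0 c hfc
  by_contra hlt
  rw [not_lt] at hlt
  obtain ⟨z₀, hz₀⟩ := hM N f
  -- the maximum is positive
  have hpos : 0 < ‖f z₀‖ * z₀.im := by
    obtain ⟨z, hz⟩ : ∃ z : ℍ, f z ≠ 0 := by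
      by_contra hall
      push Not at hall
      exact hf0 (DFunLike.ext _ _ fun z => by simpa using hall z)
    exact lt_of_lt_of_le (mul_pos (norm_pos_iff.mpr hz) z.im_pos) (hz₀ z)
  -- the maximum propagates along `z ↦ q z`
  have key : ∀ w : ℍ, ‖f w‖ * w.im = ‖f z₀‖ * z₀.im →
      ‖f (heckeDiagMatrix q • w)‖ * (heckeDiagMatrix q • w).im = ‖f z₀‖ * z₀.im := by
    intro w hw
    have h1 := hI N q hq hqN f c hfc w
    have h2 : (∑ j ∈ Finset.range q, ‖f (heckeMatrix q j • w)‖ * (heckeMatrix q j • w).im) ≤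
        q * (‖f z₀‖ * z₀.im) := by
      calc (∑ j ∈ Finset.range q, ‖f (heckeMatrix q j • w)‖ * (heckeMatrix q j • w).im)
          ≤ ∑ _j ∈ Finset.range q, ‖f z₀‖ * z₀.im := Finset.sum_le_sum fun j _ => hz₀ _
        _ = q * (‖f z₀‖ * z₀.im) := by rw [Finset.sum_const, Finset.card_range, nsmul_eq_mul]
    have h3 := hz₀ (heckeDiagMatrix q • w)
    rw [hw] at h1
    have h4 : ((q : ℝ) + 1) * (‖f z₀‖ * z₀.im) ≤ ‖c‖ * (‖f z₀‖ * z₀.im) :=
      mul_le_mul_of_nonneg_right hlt hpos.le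
    exact le_antisymm h3 (by linarith)
  have hall : ∀ m : ℕ, ∃ w : ℍ, ‖f w‖ * w.im = ‖f z₀‖ * z₀.im ∧ w.im = (q : ℝ) ^ m * z₀.im := by
    intro m
    induction m with
    | zero => exact ⟨z₀, rfl, by simp⟩
    | succ m ih =>
      obtain ⟨w, hw1, hw2⟩ := ih
      refine ⟨heckeDiagMatrix q • w, key w hw1, ?_⟩
      rw [im_heckeDiagMatrix_smul hq.ne_zero, hw2, pow_succ]
      ring
  obtain ⟨Y, hY⟩ := hD N f (‖f z₀‖ * z₀.im) hpos
  obtain ⟨m, hm⟩ : ∃ m : ℕ, Y / z₀.im < (q : ℝ) ^ m :=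
    pow_unbounded_of_one_lt _ (by exact_mod_cast hq.one_lt)
  obtain ⟨w, hw1, hw2⟩ := hall m
  have h5 : Y ≤ w.im := by
    rw [hw2]
    exact ((div_lt_iff₀ z₀.im_pos).1 hm).le
  have := hY w h5
  rw [hw1] at this
  exact lt_irrefl _ this

/-- **CQNE** from the algebraic reduction and the analytic core. -/
theorem stmt_CQNE_of_normLt (hE : Stmt_EigOfChar) (hA : Stmt_NormLt) :
    Fermat.Agent.S59.NonMin.Stmt_CQNE := by
  intro N _ S q hq hqN hqS K _ _ x hx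
  have h1 : (x (CuspForm.heckeAlgebra.T hq hqN hqS) - ((q : K) + 1)) *
      (x (CuspForm.heckeAlgebra.T hq hqN hqS) + ((q : K) + 1)) = 0 := by
    linear_combination hx
  have hcontra : ∀ c : ℤ, x (CuspForm.heckeAlgebra.T hq hqN hqS) = (c : K) →
      ‖(c : ℂ)‖ = (q : ℝ) + 1 → False := by
    intro c hc hnorm
    obtain ⟨f, hf0, hf⟩ := hE N S K x (CuspForm.heckeAlgebra.T hq hqN hqS) c hc
    have h2 := hA N q hq hqN f hf0 (c : ℂ) hf
    rw [hnorm] at h2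
    exact lt_irrefl _ h2
  have hq0 : (0 : ℝ) ≤ (q : ℝ) + 1 := by positivity
  rcases mul_eq_zero.1 h1 with h | h
  · refine hcontra ((q : ℤ) + 1) ?_ ?_
    · push_cast
      linear_combination h
    · push_cast
      rw [show ((q : ℂ) + 1) = (((q : ℝ) + 1 : ℝ) : ℂ) by push_cast; rfl,
        Complex.norm_of_nonneg hq0]
  · refine hcontra (-((q : ℤ) + 1)) ?_ ?_
    · push_cast
      linear_combination h
    · push_cast
      rw [norm_neg, show ((q : ℂ) + 1) = (((q : ℝ) + 1 : ℝ) : ℂ) by push_cast; rfl,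
        Complex.norm_of_nonneg hq0]

end H7

end Fermat.Agent.S59.NonMin.CQNE

end
-- ==== END Fermat.Agent.S59.NonMin.CQNE.H7_Asm

-- ==== BEGIN Fermat.Agent.S59.NonMin.CQNE.H7_Eig
section

set_option autoImplicit false

open Polynomial

namespace Fermat.Agent.S59.NonMin.CQNE.H7

/-- **EIG-OF-CHAR**. -/
theorem stmt_EigOfChar : Stmt_EigOfChar := by
  intro N _ S K _ _ x t c hx
  by_contra hne
  push Not at hne
  have : Module.Finite ℤ (CuspForm.heckeAlgebra N 2 S) := Fermat.Agent.S22.result N 2 S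
  set s : CuspForm.heckeAlgebra N 2 S := t - (c : CuspForm.heckeAlgebra N 2 S) with hs
  have hxs : x s = 0 := by rw [hs, map_sub, hx, map_intCast, sub_self]
  -- `s` is injective on cusp forms
  have hinj : ∀ f : CuspForm (CongruenceSubgroup.Gamma0 N) 2,
      (s : Module.End ℂ (CuspForm (CongruenceSubgroup.Gamma0 N) 2)) f = 0 → f = 0 := by
    intro f hf
    by_contra hf0
    apply hne f hf0
    have h1 : (s : Module.End ℂ (CuspForm (CongruenceSubgroup.Gamma0 N) 2)) f =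
        (t : Module.End ℂ (CuspForm (CongruenceSubgroup.Gamma0 N) 2)) f - (c : ℂ) • f := by
      have hc : ((c : CuspForm.heckeAlgebra N 2 S) :
          Module.End ℂ (CuspForm (CongruenceSubgroup.Gamma0 N) 2)) =
            (c : Module.End ℂ (CuspForm (CongruenceSubgroup.Gamma0 N) 2)) := rfl
      rw [hs, Subalgebra.coe_sub, hc, LinearMap.sub_apply,
        Module.End.intCast_apply, Int.cast_smul_eq_zsmul]
    rw [h1, sub_eq_zero] at hf
    exact hf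
  -- the minimal polynomial
  have hint : IsIntegral ℤ s := Algebra.IsIntegral.isIntegral s
  set P : ℤ[X] := minpoly ℤ s with hP
  have hmonic : P.Monic := minpoly.monic hint
  have haeval : aeval s P = 0 := minpoly.aeval ℤ s
  -- `P(0) = 0`
  have hcoeff : P.coeff 0 = 0 := by
    have h1 : x (aeval s P) = 0 := by rw [haeval, map_zero]
    rw [aeval_def, hom_eval₂, hxs, eval₂_at_zero] at h1
    have h2 : (x.comp (algebraMap ℤ (CuspForm.heckeAlgebra N 2 S))) (P.coeff 0) =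
        ((P.coeff 0 : ℤ) : K) := eq_intCast _ _
    rw [h2] at h1
    exact_mod_cast h1
  obtain ⟨Q, hQ⟩ := X_dvd_iff.2 hcoeff
  have hQmonic : Q.Monic := by
    have h1 : (X * Q).Monic := hQ ▸ hmonic
    exact Monic.of_mul_monic_left monic_X h1
  -- `Q(s) = 0`
  have hQs : aeval s Q = 0 := by
    have h1 : s * aeval s Q = 0 := by
      have h2 := haeval
      rw [hQ, map_mul, aeval_X] at h2
      exact h2
    apply Subtype.ext
    apply LinearMap.ext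
    intro f
    apply hinj
    have h3 := congrArg (fun u : CuspForm.heckeAlgebra N 2 S =>
      (u : Module.End ℂ (CuspForm (CongruenceSubgroup.Gamma0 N) 2)) f) h1
    simpa using h3
  -- contradiction with minimality
  have hdeg := minpoly.min ℤ s hQmonic hQs
  rw [← hP, hQ, degree_mul, degree_X] at hdeg
  have hQ0 : Q ≠ 0 := hQmonic.ne_zero
  rw [degree_eq_natDegree hQ0] at hdeg
  have : ((1 + Q.natDegree : ℕ) : WithBot ℕ) ≤ (Q.natDegree : WithBot ℕ) := by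
    simpa using hdeg
  have h4 : 1 + Q.natDegree ≤ Q.natDegree := by exact_mod_cast this
  omega

end Fermat.Agent.S59.NonMin.CQNE.H7

end
-- ==== END Fermat.Agent.S59.NonMin.CQNE.H7_Eig

-- ==== BEGIN Fermat.Agent.S59.NonMin.Geom.H12_Rel1
section

set_option autoImplicit false
set_option linter.style.haveILetI false
set_option linter.unusedSectionVars false

open scoped MatrixGroups
open CongruenceSubgroup Matrix ModularForm

namespace Fermat.Agent.S59.NonMin.Geom.H12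

open Fermat.Agent.S41 Fermat.Agent.S41.H19 Fermat.Agent.S41.H39 Fermat.Agent.Betti
open Fermat.Agent.S59.NonMin.Geom

/-! ### The matrices of the degeneracy maps -/

section Mat

variable (N q : ℕ)

theorem mat_j1 (γ : Gamma0 (N * q ^ 2)) : mat (j1 N q γ) = mat γ := rfl

theorem mat_j2 (γ : Gamma0 (N * q ^ 2)) : mat (j2 N q γ) = conjMat q (mat γ) := rfl

theorem mat_j3 (γ : Gamma0 (N * q ^ 2)) :
    mat (j3 N q γ) = conjMat q (conjMat q (mat γ)) := rfl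

theorem incl_j1 (γ : Gamma0 (N * q ^ 2)) : incl N (j1 N q γ) = incl (N * q ^ 2) γ := rfl

variable {N q}

theorem q_dvd_mat (γ : Gamma0 (N * q ^ 2)) : (q : ℤ) ∣ mat γ 1 0 := by
  refine Dvd.dvd.trans ?_ (mat_dvd γ)
  exact ⟨(N : ℤ) * q, by push_cast; ring⟩

theorem q_sq_dvd_mat (γ : Gamma0 (N * q ^ 2)) : (q : ℤ) ^ 2 ∣ mat γ 1 0 := by
  refine Dvd.dvd.trans ?_ (mat_dvd γ)
  exact ⟨(N : ℤ), by push_cast; ring⟩

theorem q_dvd_conjMat (hq : q ≠ 0) (γ : Gamma0 (N * q ^ 2)) :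
    (q : ℤ) ∣ conjMat q (mat γ) 1 0 := by
  have hq' : (q : ℤ) ≠ 0 := by exact_mod_cast hq
  obtain ⟨c, hc⟩ := q_sq_dvd_mat γ
  have h1 : conjMat q (mat γ) 1 0 = mat γ 1 0 / (q : ℤ) := by simp [conjMat]
  rw [h1, hc, pow_two, mul_assoc, Int.mul_ediv_cancel_left _ hq']
  exact dvd_mul_right _ _

/-- The unipotent matrix `[[1, j], [0, 1]]`. -/
def Tm (j : ℤ) : Matrix (Fin 2) (Fin 2) ℤ := !![1, j; 0, 1]

/-- The unipotent element `[[1, j], [0, 1]]` of `Γ₀(N)`. -/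
def tU (N : ℕ) (j : ℤ) : Gamma0 N := mkG0 N 1 j 0 1 (by ring) (dvd_zero _)

theorem mat_tU (N : ℕ) (j : ℤ) : mat (tU N j) = Tm j := rfl

theorem Dq_Bmat (q : ℕ) (j : ℤ) : Dq q * Bmat q j = (q : ℤ) • Tm j := by
  ext i k
  fin_cases i <;> fin_cases k <;>
    simp [Dq, Bmat, Tm, Matrix.mul_apply, Fin.sum_univ_two]

theorem conjMat_Tm (q : ℕ) (j : ℤ) : conjMat q (Tm j) = Tm ((q : ℤ) * j) := by
  ext i k
  fin_cases i <;> fin_cases k <;> simp [conjMat, Tm]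

theorem Tm_one_zero (j : ℤ) : Tm j 1 0 = 0 := by simp [Tm]

end Mat

/-! ### The relations of the Hecke families, in `Γ₀(N)` -/

section Rel

variable {N q : ℕ}

theorem val_incl' (M : ℕ) (g : Gamma0 M) :
    ((incl M g : GL (Fin 2) ℝ) : Matrix (Fin 2) (Fin 2) ℝ) = (mat g).map (Int.cast : ℤ → ℝ) := by
  ext a b
  simp [incl_apply, mat]

/-- The diagonal representative: `D γ = j₂(γ) D`. -/
theorem repT_infty_rel (hq : q ≠ 0) (γ : Gamma0 (N * q ^ 2)) :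
    repT q (OnePoint.infty) * incl N (j1 N q γ) = incl N (j2 N q γ) * repT q (OnePoint.infty) := by
  apply Units.ext
  show ((heckeDiagMatrix q : GL (Fin 2) ℝ) : Matrix (Fin 2) (Fin 2) ℝ) *
      ((incl N (j1 N q γ) : GL (Fin 2) ℝ) : Matrix (Fin 2) (Fin 2) ℝ) =
    ((incl N (j2 N q γ) : GL (Fin 2) ℝ) : Matrix (Fin 2) (Fin 2) ℝ) *
      ((heckeDiagMatrix q : GL (Fin 2) ℝ) : Matrix (Fin 2) (Fin 2) ℝ)
  rw [val_incl', val_incl',
    ModularForm.val_heckeDiagMatrix hq, mat_j1, mat_j2]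
  have e : (Dq q).map (Int.cast : ℤ → ℝ) = !![(q : ℝ), 0; 0, 1] := by
    ext i k
    fin_cases i <;> fin_cases k <;> simp [Dq]
  rw [← e, ← Matrix.map_mul_intCast, ← Matrix.map_mul_intCast, conjMat_Dq (q_dvd_mat γ)]

/-- `j₂(κ) t_{x'} = t_x γ` when `B_x γ = κ B_{x'}`. -/
theorem j2_kap_rel (hq : q ≠ 0) {γ κ : Gamma0 (N * q ^ 2)} {x x' : ZMod q}
    (h : repU q x * incl (N * q ^ 2) γ = incl (N * q ^ 2) κ * repU q x') :
    j2 N q κ * tU N (x'.val : ℤ) = tU N (x.val : ℤ) * j1 N q γ := by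
  apply mat_injective
  rw [mat_mul, mat_mul, mat_j2, mat_j1, mat_tU, mat_tU]
  apply smul_mat_cancel hq
  calc (q : ℤ) • (conjMat q (mat κ) * Tm (x'.val : ℤ))
      = conjMat q (mat κ) * (Dq q * Bmat q (x'.val : ℤ)) := by
        rw [Dq_Bmat, Matrix.mul_smul]
    _ = (conjMat q (mat κ) * Dq q) * Bmat q (x'.val : ℤ) := by rw [Matrix.mul_assoc]
    _ = Dq q * (mat κ * Bmat q (x'.val : ℤ)) := by
        rw [conjMat_Dq (q_dvd_mat κ), Matrix.mul_assoc]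
    _ = Dq q * (Bmat q (x.val : ℤ) * mat γ) := by rw [Bmat_rel hq h]
    _ = (Dq q * Bmat q (x.val : ℤ)) * mat γ := by rw [Matrix.mul_assoc]
    _ = (q : ℤ) • (Tm (x.val : ℤ) * mat γ) := by rw [Dq_Bmat, Matrix.smul_mul]

/-- `j₃(κ) s_{x'} = s_x j₂(γ)` when `B_x γ = κ B_{x'}`. -/
theorem j3_kap_rel (hq : q ≠ 0) {γ κ : Gamma0 (N * q ^ 2)} {x x' : ZMod q}
    (h : repU q x * incl (N * q ^ 2) γ = incl (N * q ^ 2) κ * repU q x') :
    j3 N q κ * tU N ((q : ℤ) * (x'.val : ℤ)) = tU N ((q : ℤ) * (x.val : ℤ)) * j2 N q γ := by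
  have h2 := congrArg mat (j2_kap_rel hq h)
  rw [mat_mul, mat_mul, mat_j2, mat_j1, mat_tU, mat_tU] at h2
  have h3 := congrArg (conjMat q) h2
  rw [conjMat_mul (q_dvd_conjMat hq κ) (by rw [Tm_one_zero]; exact dvd_zero _),
    conjMat_mul (by rw [Tm_one_zero]; exact dvd_zero _) (q_dvd_mat γ),
    conjMat_Tm, conjMat_Tm] at h3
  apply mat_injective
  rw [mat_mul, mat_mul, mat_j3, mat_j2, mat_tU, mat_tU]
  exact h3

end Rel

/-! ### Sums -/

section Sums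

variable {A : Type*} [AddCommGroup A]

/-- A telescoping sum: `∑ x, (f x + a - f (σ x)) = card • a`. -/
theorem sum_conj_eq {ι : Type*} [Fintype ι] (σ : Equiv.Perm ι) (f : ι → A) (a : A) :
    ∑ x, (f x + a - f (σ x)) = Fintype.card ι • a := by
  rw [Finset.sum_sub_distrib, Finset.sum_add_distrib, Equiv.sum_comp σ f, Finset.sum_const,
    Finset.card_univ]
  abel

theorem hom_of_mul_eq {G : Type*} [Group G] (φ : Additive G →+ A) {a b c d : G}
    (h : a * b = c * d) :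
    φ (Additive.ofMul a) = φ (Additive.ofMul c) + φ (Additive.ofMul d) - φ (Additive.ofMul b) := by
  have h1 : φ (Additive.ofMul (a * b)) = φ (Additive.ofMul (c * d)) := by rw [h]
  rw [ofMul_mul, ofMul_mul, map_add, map_add] at h1
  rw [← h1]
  abel

end Sums

/-! ### REL1 -/

section Main

variable {N q : ℕ} [NeZero N] [NeZero (N * q ^ 2)] {A : Type} [AddCommGroup A]

/-- `U_q A₁ = A₁ T_q - A₂`. -/
theorem UB_resA1 (hq : q.Prime) (hqN : ¬ q ∣ N) (hd : q ∣ N * q ^ 2)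
    (φ : Additive (Gamma0 N) →+ A) :
    UB (N * q ^ 2) A hd (resA1 N q A φ) = resA1 N q A (TB N A hq hqN φ) - resA2 N q A φ := by
  haveI : Fact q.Prime := ⟨hq⟩
  haveI : NeZero q := ⟨hq.ne_zero⟩
  refine AddMonoidHom.ext fun γ' => ?_
  obtain ⟨γ, rfl⟩ : ∃ g : Gamma0 (N * q ^ 2), Additive.ofMul g = γ' := ⟨Additive.toMul γ', rfl⟩
  set HU := isHeckeFamily_U (N * q ^ 2) hd with hHU
  set HT := isHeckeFamily_T N hqN with hHT
  have hx : ∀ x : ZMod q, HT.kap (j1 N q γ) (x : OnePoint (ZMod q)) = j1 N q (HU.kap γ x) := by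
    intro x
    have h := HU.rep_mul γ x
    have h' : repT q (x : OnePoint (ZMod q)) * incl N (j1 N q γ)
        = incl N (j1 N q (HU.kap γ x)) * repT q ((HU.perm γ x : ZMod q) : OnePoint (ZMod q)) := h
    exact ((HT.unique (incl_injective N) h').2).symm
  have hinf : HT.kap (j1 N q γ) (OnePoint.infty) = j2 N q γ :=
    ((HT.unique (incl_injective N) (repT_infty_rel hq.ne_zero γ)).2).symm
  have hT : TB N A hq hqN φ (Additive.ofMul (j1 N q γ))
      = φ (Additive.ofMul (j2 N q γ))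
        + ∑ x : ZMod q, φ (Additive.ofMul (j1 N q (HU.kap γ x))) := by
    rw [TB_apply_apply]
    refine (Fintype.sum_option
      (fun y : OnePoint (ZMod q) => φ (Additive.ofMul (HT.kap (j1 N q γ) y)))).trans ?_
    congr 1
    · exact congrArg (fun g => φ (Additive.ofMul g)) hinf
    · exact Finset.sum_congr rfl fun x _ => congrArg (fun g => φ (Additive.ofMul g)) (hx x)
  have hU : UB (N * q ^ 2) A hd (resA1 N q A φ) (Additive.ofMul γ)
      = ∑ x : ZMod q, φ (Additive.ofMul (j1 N q (HU.kap γ x))) := by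
    rw [UB_apply_apply]
    rfl
  rw [hU, AddMonoidHom.sub_apply]
  show _ = TB N A hq hqN φ (Additive.ofMul (j1 N q γ)) - φ (Additive.ofMul (j2 N q γ))
  rw [hT]
  abel

/-- `U_q A₂ = q A₁`. -/
theorem UB_resA2 (hq : q.Prime) (hd : q ∣ N * q ^ 2) (φ : Additive (Gamma0 N) →+ A) :
    UB (N * q ^ 2) A hd (resA2 N q A φ) = q • resA1 N q A φ := by
  haveI : NeZero q := ⟨hq.ne_zero⟩
  refine AddMonoidHom.ext fun γ' => ?_
  obtain ⟨γ, rfl⟩ : ∃ g : Gamma0 (N * q ^ 2), Additive.ofMul g = γ' := ⟨Additive.toMul γ', rfl⟩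
  set HU := isHeckeFamily_U (N * q ^ 2) hd with hHU
  have hU : UB (N * q ^ 2) A hd (resA2 N q A φ) (Additive.ofMul γ)
      = ∑ x : ZMod q, φ (Additive.ofMul (j2 N q (HU.kap γ x))) := by
    rw [UB_apply_apply]
    rfl
  rw [hU]
  have hterm : ∀ x : ZMod q, φ (Additive.ofMul (j2 N q (HU.kap γ x)))
      = φ (Additive.ofMul (tU N (x.val : ℤ))) + φ (Additive.ofMul (j1 N q γ))
        - φ (Additive.ofMul (tU N (((HU.permEquiv (incl_injective _) γ) x).val : ℤ))) :=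
    fun x => hom_of_mul_eq φ (j2_kap_rel hq.ne_zero (HU.rep_mul γ x))
  rw [Finset.sum_congr rfl fun x _ => hterm x]
  rw [sum_conj_eq (HU.permEquiv (incl_injective _) γ)
    (fun x : ZMod q => φ (Additive.ofMul (tU N (x.val : ℤ)))), ZMod.card]
  rfl

/-- `U_q A₃ = q A₂`. -/
theorem UB_resA3 (hq : q.Prime) (hd : q ∣ N * q ^ 2) (φ : Additive (Gamma0 N) →+ A) :
    UB (N * q ^ 2) A hd (resA3 N q A φ) = q • resA2 N q A φ := by
  haveI : NeZero q := ⟨hq.ne_zero⟩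
  refine AddMonoidHom.ext fun γ' => ?_
  obtain ⟨γ, rfl⟩ : ∃ g : Gamma0 (N * q ^ 2), Additive.ofMul g = γ' := ⟨Additive.toMul γ', rfl⟩
  set HU := isHeckeFamily_U (N * q ^ 2) hd with hHU
  have hU : UB (N * q ^ 2) A hd (resA3 N q A φ) (Additive.ofMul γ)
      = ∑ x : ZMod q, φ (Additive.ofMul (j3 N q (HU.kap γ x))) := by
    rw [UB_apply_apply]
    rfl
  rw [hU]
  have hterm : ∀ x : ZMod q, φ (Additive.ofMul (j3 N q (HU.kap γ x)))
      = φ (Additive.ofMul (tU N ((q : ℤ) * (x.val : ℤ)))) + φ (Additive.ofMul (j2 N q γ))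
        - φ (Additive.ofMul
            (tU N ((q : ℤ) * (((HU.permEquiv (incl_injective _) γ) x).val : ℤ)))) :=
    fun x => hom_of_mul_eq φ (j3_kap_rel hq.ne_zero (HU.rep_mul γ x))
  rw [Finset.sum_congr rfl fun x _ => hterm x]
  rw [sum_conj_eq (HU.permEquiv (incl_injective _) γ)
    (fun x : ZMod q => φ (Additive.ofMul (tU N ((q : ℤ) * (x.val : ℤ))))), ZMod.card]
  rfl

end Main

/-- **REL1**. -/
theorem stmt_REL1 : Stmt_REL1 := by
  intro N q _ _ hq hqN hd A _ φ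
  exact ⟨UB_resA1 hq hqN hd φ, UB_resA2 hq hd φ, UB_resA3 hq hd φ⟩

end Fermat.Agent.S59.NonMin.Geom.H12

end
-- ==== END Fermat.Agent.S59.NonMin.Geom.H12_Rel1

-- ==== BEGIN Fermat.Agent.S59.NonMin.Geom.H13_RelT
section

/-!
# S59, NMGEOM, leaf REL-T (helper13)

`stmt_RELT : Stmt_RELT`: the three restrictions `A₁, A₂, A₃` and the three transfers
`C₁, C₂, C₃` between the levels `N` and `N q²` commute with `T_ℓ`, `ℓ ∤ N q`.

Route: `T_ℓ = Tcoh = cor₁ ∘ res₂` through the level `N ℓ` (`S41.H20.Tcoh_eq_TB`); one step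
`M ↦ M q` at a time: helper19's `Tcoh_res1`, `Tcoh_res2` for the restrictions, the Mackey square
`cor_hecke_comm` for the transfers.
-/

set_option autoImplicit false
set_option linter.style.haveILetI false
set_option linter.unusedSectionVars false

open scoped MatrixGroups
open CongruenceSubgroup Matrix

namespace Fermat.Agent.S59.NonMin.Geom.H13

open Fermat.Agent.S41 Fermat.Agent.S41.H19 Fermat.Agent.S41.H77 Fermat.Agent.Betti

/-! ## One step: the transfers -/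

section Step

variable {M q ℓ : ℕ} {A : Type*} [AddCommGroup A]

theorem not_dvd_of_not_dvd_mul {M q ℓ : ℕ} (h : ¬ ℓ ∣ M * q) : ¬ ℓ ∣ M :=
  fun h' => h (dvd_mul_of_dvd_left h' _)

theorem ne_of_not_dvd_mul {M q ℓ : ℕ} (h : ¬ ℓ ∣ M * q) : ℓ ≠ q :=
  fun h' => h (h' ▸ dvd_mul_left _ _)

/-- `cor₁` of one step commutes with `T_ℓ`. -/
theorem cor1_Tcoh (hM : 0 < M) (hq : q.Prime) (hℓ : ℓ.Prime) (hℓMq : ¬ ℓ ∣ M * q)
    [hfin : (inclG M q).range.FiniteIndex] (ψ : Additive (Gamma0 (M * q)) →+ A) :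
    cor1 M q A (Tcoh (M * q) A ℓ ψ) = Tcoh M A ℓ (cor1 M q A ψ) := by
  have hℓM : ¬ ℓ ∣ M := not_dvd_of_not_dvd_mul hℓMq
  have hMq : 0 < M * q := Nat.mul_pos hM hq.pos
  haveI := finiteIndex_inclG hM hℓ hℓM
  haveI := finiteIndex_inclG hMq hℓ hℓMq
  have hℓ' : (ℓ : ℤ) ≠ 0 := by exact_mod_cast hℓ.ne_zero
  unfold Tcoh cor1 res2
  refine cor_hecke_comm (inclG M q) (inclG M ℓ) (conjG M ℓ) (inclG (M * q) ℓ) (conjG (M * q) ℓ)
    (inclAux M q ℓ) (inclG_injective M q) (inclG_injective M ℓ) (inclG_injective (M * q) ℓ)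
    (Subgroup.inclusion_injective _) ?_ (fun p => rfl) (fun p => rfl) ?_ ψ
  · rw [index_inclG hM hℓ hℓM, index_inclG hMq hℓ hℓMq]
  · intro k h hkh
    have e : conjMat ℓ (mat k) = mat h := congrArg mat hkh
    obtain ⟨c₁, hc₁⟩ := q_dvd_of_mem_gamma0_mul k.2
    have hc₁' : mat k 1 0 = (ℓ : ℤ) * c₁ := hc₁
    obtain ⟨c₂, hc₂⟩ := mat_dvd h
    have e10 : mat k 1 0 / (ℓ : ℤ) = mat h 1 0 := congrFun (congrFun e 1) 0
    rw [hc₁', Int.mul_ediv_cancel_left _ hℓ', hc₂] at e10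
    refine ⟨⟨(k : SL(2, ℤ)), ?_⟩, rfl⟩
    rw [Gamma0_mem, ZMod.intCast_zmod_eq_zero_iff_dvd]
    refine ⟨c₂, ?_⟩
    change mat k 1 0 = _
    rw [hc₁', e10]
    push_cast
    ring

/-- `cor₂` of one step commutes with `T_ℓ`. -/
theorem cor2_Tcoh (hM : 0 < M) (hq : q.Prime) (hℓ : ℓ.Prime) (hℓMq : ¬ ℓ ∣ M * q)
    [hfin : (conjG M q).range.FiniteIndex] (ψ : Additive (Gamma0 (M * q)) →+ A) :
    cor2 M q A (Tcoh (M * q) A ℓ ψ) = Tcoh M A ℓ (cor2 M q A ψ) := by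
  have hℓM : ¬ ℓ ∣ M := not_dvd_of_not_dvd_mul hℓMq
  have hℓq : ℓ ≠ q := ne_of_not_dvd_mul hℓMq
  have hMq : 0 < M * q := Nat.mul_pos hM hq.pos
  haveI := finiteIndex_inclG hM hℓ hℓM
  haveI := finiteIndex_inclG hMq hℓ hℓMq
  have hℓ' : (ℓ : ℤ) ≠ 0 := by exact_mod_cast hℓ.ne_zero
  have hcop : IsCoprime (q : ℤ) (ℓ : ℤ) :=
    Nat.isCoprime_iff_coprime.mpr ((Nat.coprime_primes hq hℓ).mpr hℓq.symm)
  have hinj' : Function.Injective (conjAux M q ℓ) := by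
    intro x y hxy
    have h1 : conjG (M * ℓ) q (Subgroup.inclusion (le_of_eq (by rw [mul_right_comm])) x)
        = conjG (M * ℓ) q (Subgroup.inclusion (le_of_eq (by rw [mul_right_comm])) y) := hxy
    exact Subgroup.inclusion_injective _ (conjG_injective (M * ℓ) q hq.ne_zero h1)
  unfold Tcoh cor1 cor2 res2
  refine cor_hecke_comm (conjG M q) (inclG M ℓ) (conjG M ℓ) (inclG (M * q) ℓ) (conjG (M * q) ℓ)
    (conjAux M q ℓ) (conjG_injective M q hq.ne_zero) (inclG_injective M ℓ)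
    (inclG_injective (M * q) ℓ) hinj' ?_ (fun p => rfl) ?_ ?_ ψ
  · rw [index_inclG hM hℓ hℓM, index_inclG hMq hℓ hℓMq]
  · intro p
    apply mat_injective
    rw [mat_conjG, mat_conjG, mat_conjG, mat_conjAux, conjMat_comm]
  · intro k h hkh
    have e : conjMat ℓ (mat k) = conjMat q (mat h) := congrArg mat hkh
    have e01 : (ℓ : ℤ) * mat k 0 1 = (q : ℤ) * mat h 0 1 := congrFun (congrFun e 0) 1
    have hqk : (q : ℤ) ∣ mat k 0 1 := hcop.dvd_of_dvd_mul_left ⟨mat h 0 1, e01⟩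
    obtain ⟨h', hh'⟩ := exists_conjG_eq hq.ne_zero k hqk
    exact ⟨Subgroup.inclusion (le_of_eq (by rw [mul_right_comm])) h', hh'⟩

end Step

/-! ## Change of the name of the level -/

section Cast

variable {A : Type*} [AddCommGroup A]

/-- `Γ₀(M) = Γ₀(M')` for `M = M'`. -/
def castE {M M' : ℕ} (h : M = M') : Gamma0 M →* Gamma0 M' :=
  Subgroup.inclusion (le_of_eq (congrArg (fun M => Gamma0 M) h))

theorem castE_rfl (M : ℕ) : castE (rfl : M = M) = MonoidHom.id (Gamma0 M) := by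
  ext x
  rfl

theorem castE_injective {M M' : ℕ} (h : M = M') : Function.Injective (castE h) :=
  Subgroup.inclusion_injective _

theorem resAlong_id {G : Type*} [Group G] (φ : Additive G →+ A) :
    resAlong A (MonoidHom.id G) φ = φ := rfl

theorem Tcoh_castE_res {M M' : ℕ} (h : M = M') (ℓ : ℕ) (φ : Additive (Gamma0 M') →+ A) :
    Tcoh M A ℓ (resAlong A (castE h) φ) = resAlong A (castE h) (Tcoh M' A ℓ φ) := by
  subst h
  rw [castE_rfl, resAlong_id, resAlong_id]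

theorem Tcoh_castE_cor {M M' : ℕ} (h : M = M') (ℓ : ℕ) (ψ : Additive (Gamma0 M) →+ A) :
    corAlong A (castE h) (Tcoh M A ℓ ψ) = Tcoh M' A ℓ (corAlong A (castE h) ψ) := by
  subst h
  rw [castE_rfl, corAlong_id, corAlong_id]

theorem castG_eq (N q : ℕ) : castG N q = castE (by ring : N * q ^ 2 = N * q * q) := rfl

end Cast

/-! ## REL-T -/

section RelT

variable {A : Type*} [AddCommGroup A]

/-- Two steps of restriction. -/
theorem Tcoh_res_two {N q ℓ : ℕ} (ι₁ : Gamma0 (N * q) →* Gamma0 N)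
    (ι₂ : Gamma0 (N * q * q) →* Gamma0 (N * q))
    (h₁ : ∀ φ : Additive (Gamma0 N) →+ A,
      Tcoh (N * q) A ℓ (resAlong A ι₁ φ) = resAlong A ι₁ (Tcoh N A ℓ φ))
    (h₂ : ∀ φ : Additive (Gamma0 (N * q)) →+ A,
      Tcoh (N * q * q) A ℓ (resAlong A ι₂ φ) = resAlong A ι₂ (Tcoh (N * q) A ℓ φ))
    (φ : Additive (Gamma0 N) →+ A) :
    Tcoh (N * q ^ 2) A ℓ (resAlong A (ι₁.comp (ι₂.comp (castG N q))) φ)
      = resAlong A (ι₁.comp (ι₂.comp (castG N q))) (Tcoh N A ℓ φ) := by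
  have e : ∀ χ : Additive (Gamma0 N) →+ A, resAlong A (ι₁.comp (ι₂.comp (castG N q))) χ
      = resAlong A (castE (by ring : N * q ^ 2 = N * q * q)) (resAlong A ι₂ (resAlong A ι₁ χ)) :=
    fun χ => rfl
  rw [e, e, Tcoh_castE_res, h₂, h₁]

/-- Two steps of transfer. -/
theorem Tcoh_cor_two {N q ℓ : ℕ} (ι₁ : Gamma0 (N * q) →* Gamma0 N)
    (ι₂ : Gamma0 (N * q * q) →* Gamma0 (N * q))
    (hι₁ : Function.Injective ι₁) (hι₂ : Function.Injective ι₂)
    (h₁ : ι₁.range.FiniteIndex → ∀ ψ : Additive (Gamma0 (N * q)) →+ A,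
      corAlong A ι₁ (Tcoh (N * q) A ℓ ψ) = Tcoh N A ℓ (corAlong A ι₁ ψ))
    (h₂ : ι₂.range.FiniteIndex → ∀ ψ : Additive (Gamma0 (N * q * q)) →+ A,
      corAlong A ι₂ (Tcoh (N * q * q) A ℓ ψ) = Tcoh (N * q) A ℓ (corAlong A ι₂ ψ))
    (hT0 : Tcoh N A ℓ (0 : Additive (Gamma0 N) →+ A) = 0)
    (ψ : Additive (Gamma0 (N * q ^ 2)) →+ A) :
    corAlong A (ι₁.comp (ι₂.comp (castG N q))) (Tcoh (N * q ^ 2) A ℓ ψ)
      = Tcoh N A ℓ (corAlong A (ι₁.comp (ι₂.comp (castG N q))) ψ) := by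
  by_cases hfin : (ι₁.comp (ι₂.comp (castG N q))).range.FiniteIndex
  swap
  · have hn : ¬ (Function.Injective (ι₁.comp (ι₂.comp (castG N q))) ∧
        (ι₁.comp (ι₂.comp (castG N q))).range.FiniteIndex) := fun h => hfin h.2
    rw [corAlong_of_not hn, corAlong_of_not hn, hT0]
  obtain ⟨hf₂c, hf₁⟩ := finiteIndex_of_comp (ι₂.comp (castG N q)) ι₁ hι₁ hfin
  obtain ⟨hfc, hf₂⟩ := finiteIndex_of_comp (castG N q) ι₂ hι₂ hf₂c
  have hcinj : Function.Injective (castG N q) := Subgroup.inclusion_injective _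
  have e : ∀ χ : Additive (Gamma0 (N * q ^ 2)) →+ A,
      corAlong A (ι₁.comp (ι₂.comp (castG N q))) χ
        = corAlong A ι₁ (corAlong A ι₂
            (corAlong A (castE (by ring : N * q ^ 2 = N * q * q)) χ)) := by
    intro χ
    rw [corAlong_comp (ι₂.comp (castG N q)) ι₁ (hι₂.comp hcinj) hι₁,
      corAlong_comp (castG N q) ι₂ hcinj hι₂]
    rfl
  rw [e, e, Tcoh_castE_cor, h₂ hf₂, h₁ hf₁]

theorem TB_zero' {N ℓ : ℕ} (hℓ : ℓ.Prime) (hℓN : ¬ ℓ ∣ N) :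
    TB N A hℓ hℓN (0 : Additive (Gamma0 N) →+ A) = 0 := map_zero _

/-- One step `M ↦ M q`, restrictions, for the Betti operator `TB`. -/
theorem TB_res1 {M q ℓ : ℕ} (hM : 0 < M) (hq : q.Prime) (hℓ : ℓ.Prime) (hℓM : ¬ ℓ ∣ M)
    (hℓMq : ¬ ℓ ∣ M * q) (φ : Additive (Gamma0 M) →+ A) :
    TB (M * q) A hℓ hℓMq (res1 M q A φ) = res1 M q A (TB M A hℓ hℓM φ) := by
  rw [← H20.Tcoh_eq_TB (Nat.mul_pos hM hq.pos) hℓ hℓMq, ← H20.Tcoh_eq_TB hM hℓ hℓM]
  exact Tcoh_res1 hM hq hℓ hℓM (ne_of_not_dvd_mul hℓMq) φ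

theorem TB_res2 {M q ℓ : ℕ} (hM : 0 < M) (hq : q.Prime) (hℓ : ℓ.Prime) (hℓM : ¬ ℓ ∣ M)
    (hℓMq : ¬ ℓ ∣ M * q) (φ : Additive (Gamma0 M) →+ A) :
    TB (M * q) A hℓ hℓMq (res2 M q A φ) = res2 M q A (TB M A hℓ hℓM φ) := by
  rw [← H20.Tcoh_eq_TB (Nat.mul_pos hM hq.pos) hℓ hℓMq, ← H20.Tcoh_eq_TB hM hℓ hℓM]
  exact Tcoh_res2 hM hq hℓ hℓM (ne_of_not_dvd_mul hℓMq) φ

/-- One step `M ↦ M q`, transfers, for the Betti operator `TB` (every prime `q`, also `q ∣ M`). -/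
theorem cor1_TB {M q ℓ : ℕ} (hM : 0 < M) (hq : q.Prime) (hℓ : ℓ.Prime) (hℓM : ¬ ℓ ∣ M)
    (hℓMq : ¬ ℓ ∣ M * q) (ψ : Additive (Gamma0 (M * q)) →+ A) :
    cor1 M q A (TB (M * q) A hℓ hℓMq ψ) = TB M A hℓ hℓM (cor1 M q A ψ) := by
  by_cases hfin : (inclG M q).range.FiniteIndex
  · rw [← H20.Tcoh_eq_TB (Nat.mul_pos hM hq.pos) hℓ hℓMq, ← H20.Tcoh_eq_TB hM hℓ hℓM]
    exact cor1_Tcoh hM hq hℓ hℓMq ψ
  · have hn : ¬ (Function.Injective (inclG M q) ∧ (inclG M q).range.FiniteIndex) :=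
      fun h => hfin h.2
    unfold cor1
    rw [corAlong_of_not hn, corAlong_of_not hn, TB_zero']

theorem cor2_TB {M q ℓ : ℕ} (hM : 0 < M) (hq : q.Prime) (hℓ : ℓ.Prime) (hℓM : ¬ ℓ ∣ M)
    (hℓMq : ¬ ℓ ∣ M * q) (ψ : Additive (Gamma0 (M * q)) →+ A) :
    cor2 M q A (TB (M * q) A hℓ hℓMq ψ) = TB M A hℓ hℓM (cor2 M q A ψ) := by
  by_cases hfin : (conjG M q).range.FiniteIndex
  · rw [← H20.Tcoh_eq_TB (Nat.mul_pos hM hq.pos) hℓ hℓMq, ← H20.Tcoh_eq_TB hM hℓ hℓM]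
    exact cor2_Tcoh hM hq hℓ hℓMq ψ
  · have hn : ¬ (Function.Injective (conjG M q) ∧ (conjG M q).range.FiniteIndex) :=
      fun h => hfin h.2
    unfold cor2
    rw [corAlong_of_not hn, corAlong_of_not hn, TB_zero']

/-- **REL-T**: the `A_a`, `C_a` commute with `T_ℓ`, `ℓ ∤ N q`. -/
theorem stmt_RELT : Stmt_RELT := by
  intro N q _ hq hqN ℓ hℓ hℓN hℓN' A _
  have hN : 0 < N := Nat.pos_of_ne_zero (NeZero.ne N)
  have hNq : 0 < N * q := Nat.mul_pos hN hq.pos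
  have hN' : 0 < N * q ^ 2 := Nat.mul_pos hN (pow_pos hq.pos 2)
  have hℓNq : ¬ ℓ ∣ N * q := fun h => hℓN' (by
    rw [pow_two, ← mul_assoc]
    exact dvd_mul_of_dvd_left h q)
  have hℓNqq : ¬ ℓ ∣ N * q * q := fun h => hℓN' (by rwa [pow_two, ← mul_assoc])
  have hℓq : ℓ ≠ q := ne_of_not_dvd_mul hℓNq
  have hT : ∀ χ : Additive (Gamma0 N) →+ A, TB N A hℓ hℓN χ = Tcoh N A ℓ χ :=
    fun χ => (H20.Tcoh_eq_TB hN hℓ hℓN χ).symm
  have hT' : ∀ χ : Additive (Gamma0 (N * q ^ 2)) →+ A,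
      TB (N * q ^ 2) A hℓ hℓN' χ = Tcoh (N * q ^ 2) A ℓ χ :=
    fun χ => (H20.Tcoh_eq_TB hN' hℓ hℓN' χ).symm
  have hT0 : Tcoh N A ℓ (0 : Additive (Gamma0 N) →+ A) = 0 := by
    rw [← hT, TB_zero']
  -- the one-step relations
  have r1 : ∀ φ : Additive (Gamma0 N) →+ A,
      Tcoh (N * q) A ℓ (resAlong A (inclG N q) φ) = resAlong A (inclG N q) (Tcoh N A ℓ φ) :=
    fun φ => Tcoh_res1 hN hq hℓ hℓN hℓq φ
  have r2 : ∀ φ : Additive (Gamma0 N) →+ A,
      Tcoh (N * q) A ℓ (resAlong A (conjG N q) φ) = resAlong A (conjG N q) (Tcoh N A ℓ φ) :=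
    fun φ => Tcoh_res2 hN hq hℓ hℓN hℓq φ
  have r1' : ∀ φ : Additive (Gamma0 (N * q)) →+ A,
      Tcoh (N * q * q) A ℓ (resAlong A (inclG (N * q) q) φ)
        = resAlong A (inclG (N * q) q) (Tcoh (N * q) A ℓ φ) :=
    fun φ => Tcoh_res1 hNq hq hℓ hℓNq hℓq φ
  have r2' : ∀ φ : Additive (Gamma0 (N * q)) →+ A,
      Tcoh (N * q * q) A ℓ (resAlong A (conjG (N * q) q) φ)
        = resAlong A (conjG (N * q) q) (Tcoh (N * q) A ℓ φ) :=
    fun φ => Tcoh_res2 hNq hq hℓ hℓNq hℓq φ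
  have c1 : (inclG N q).range.FiniteIndex → ∀ ψ : Additive (Gamma0 (N * q)) →+ A,
      corAlong A (inclG N q) (Tcoh (N * q) A ℓ ψ) = Tcoh N A ℓ (corAlong A (inclG N q) ψ) :=
    fun hf ψ => by haveI := hf; exact cor1_Tcoh hN hq hℓ hℓNq ψ
  have c2 : (conjG N q).range.FiniteIndex → ∀ ψ : Additive (Gamma0 (N * q)) →+ A,
      corAlong A (conjG N q) (Tcoh (N * q) A ℓ ψ) = Tcoh N A ℓ (corAlong A (conjG N q) ψ) :=
    fun hf ψ => by haveI := hf; exact cor2_Tcoh hN hq hℓ hℓNq ψ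
  have c1' : (inclG (N * q) q).range.FiniteIndex → ∀ ψ : Additive (Gamma0 (N * q * q)) →+ A,
      corAlong A (inclG (N * q) q) (Tcoh (N * q * q) A ℓ ψ)
        = Tcoh (N * q) A ℓ (corAlong A (inclG (N * q) q) ψ) :=
    fun hf ψ => by haveI := hf; exact cor1_Tcoh hNq hq hℓ hℓNqq ψ
  have c2' : (conjG (N * q) q).range.FiniteIndex → ∀ ψ : Additive (Gamma0 (N * q * q)) →+ A,
      corAlong A (conjG (N * q) q) (Tcoh (N * q * q) A ℓ ψ)
        = Tcoh (N * q) A ℓ (corAlong A (conjG (N * q) q) ψ) :=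
    fun hf ψ => by haveI := hf; exact cor2_Tcoh hNq hq hℓ hℓNqq ψ
  have i1 := inclG_injective N q
  have i2 := conjG_injective N q hq.ne_zero
  have i1' := inclG_injective (N * q) q
  have i2' := conjG_injective (N * q) q hq.ne_zero
  refine ⟨fun φ => ⟨?_, ?_, ?_⟩, fun ψ => ⟨?_, ?_, ?_⟩⟩
  · rw [hT', hT]
    exact Tcoh_res_two (inclG N q) (inclG (N * q) q) r1 r1' φ
  · rw [hT', hT]
    exact Tcoh_res_two (conjG N q) (inclG (N * q) q) r2 r1' φ
  · rw [hT', hT]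
    exact Tcoh_res_two (conjG N q) (conjG (N * q) q) r2 r2' φ
  · rw [hT', hT]
    exact Tcoh_cor_two (inclG N q) (inclG (N * q) q) i1 i1' c1 c1' hT0 ψ
  · rw [hT', hT]
    exact Tcoh_cor_two (conjG N q) (inclG (N * q) q) i2 i1' c2 c1' hT0 ψ
  · rw [hT', hT]
    exact Tcoh_cor_two (conjG N q) (conjG (N * q) q) i2 i2' c2 c2' hT0 ψ

end RelT

end Fermat.Agent.S59.NonMin.Geom.H13

end
-- ==== END Fermat.Agent.S59.NonMin.Geom.H13_RelT

-- ==== BEGIN Fermat.Agent.S59.NonMin.Geom.H30_AsmStep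
section

/-!
# S59 / NMGEOM, assembly ASM-G, second half (helper30): from `Deg3Out` to `NMStep`

Interface with the first half: `Geom.H48.Deg3Data`, `Geom.H48.Stmt_DEG3` (helper48).

* `inBetti_cut`   : cutting a Betti lattice by `U_q = 0` (abstract form);
* `outHMod d O`   : the Hecke module of the next state (`V = ker U_q` of `Deg3Out`);
* `isBetti_out`   : it is the Betti lattice of `(N q², insert q S, θ ∘ rest, insert q Sig)`;
* `outStep`       : the `NMStep`;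
* `geomHyp_base`, `geomHyp_next`, `frobHyp_next` : the class `G` is preserved.
-/

set_option autoImplicit false

open Polynomial CuspForm CongruenceSubgroup IsLocalRing
open scoped MatrixGroups

namespace Fermat.Agent.S59.NonMin.Geom.H30

open Fermat.Agent.S41 Fermat.Agent.Betti Fermat.Agent.S59 Fermat.Agent.S59.Asm
  Fermat.Agent.S59.NonMin Fermat.Agent.S59.NonMin.Geom
open ModularCurve.Period

theorem q_dvd_level (N q : ℕ) : q ∣ N * q ^ 2 := ⟨N * q, by ring⟩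

/-- Cutting a Betti lattice by `U_q = 0` (abstract form). -/
theorem inBetti_cut {𝒪 : Type} [CommRing 𝒪] [IsLocalRing 𝒪] {N' : ℕ} [NeZero N'] {S' : Set ℕ}
    {θ' : CuspForm.heckeAlgebra N' 2 S' →+* ResidueField 𝒪} {Sig : Finset ℕ} {q : ℕ}
    (hqN' : q ∣ N')
    {V W : Type} [AddCommGroup V] [Module 𝒪 V] [AddCommGroup W] [Module 𝒪 W]
    (j : V →ₗ[𝒪] W) (U : Module.End 𝒪 W)
    (hj : ∀ w : W, w ∈ Set.range j ↔ U w = 0)
    (ι'' : W →ₗ[𝒪] (Additive (Gamma0 N') →+ 𝒪)) (hinj : Function.Injective ι'')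
    (hrange : ∀ φ, φ ∈ Set.range ι'' ↔ InBetti 𝒪 N' S' θ' Sig φ)
    (hU : ∀ (hd : q ∣ N') (w : W), ι'' (U w) = UB N' 𝒪 hd (ι'' w))
    (φ : Additive (Gamma0 N') →+ 𝒪) :
    φ ∈ Set.range (ι''.comp j) ↔ InBetti 𝒪 N' S' θ' (insert q Sig) φ := by
  constructor
  · rintro ⟨v, rfl⟩
    have h1 : InBetti 𝒪 N' S' θ' Sig (ι'' (j v)) := (hrange _).mp ⟨_, rfl⟩
    have h2 : U (j v) = 0 := (hj _).mp ⟨v, rfl⟩
    refine ⟨h1.1, ?_, h1.2.2⟩
    intro r hr hrN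
    rcases Finset.mem_insert.mp hr with hrq | hr'
    · subst hrq
      have h3 := hU hrN (j v)
      rw [h2, map_zero] at h3
      exact h3.symm
    · exact h1.2.1 r hr' hrN
  · intro h
    have h1 : InBetti 𝒪 N' S' θ' Sig φ :=
      ⟨h.1, fun r hr hrN => h.2.1 r (Finset.mem_insert_of_mem hr) hrN, h.2.2⟩
    obtain ⟨w, rfl⟩ := (hrange φ).mpr h1
    have h2 : U w = 0 := by
      apply hinj
      rw [hU hqN', map_zero]
      exact h.2.1 q (Finset.mem_insert_self _ _) hqN'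
    obtain ⟨v, rfl⟩ := (hj w).mpr h2
    exact ⟨v, rfl⟩

section Step

variable {𝒪 : Type} [CommRing 𝒪] [IsLocalRing 𝒪] {s : NMState 𝒪}
  {q : ℕ} {hq : q.Prime} {hqN : ¬ q ∣ s.N} {hqS : q ∉ (↑s.S : Set ℕ)} [NeZero (s.N * q ^ 2)]
  {rest : CuspForm.heckeAlgebra (s.N * q ^ 2) 2 (↑(insert q s.S) : Set ℕ) →+*
    CuspForm.heckeAlgebra s.N 2 (↑s.S : Set ℕ)}
  {M'' : HMod 𝒪 (s.N * q ^ 2) (↑(insert q s.S) : Set ℕ) (s.θ.comp rest)}

/-- The Hecke module of the next state: `V = ker U_q` with the action `η''`. -/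
noncomputable def outHMod (d : H48.Deg3Data s hq hqN hqS rest M'') (O : Deg3Out d.toDeg3) :
    HMod 𝒪 (s.N * q ^ 2) (↑(insert q s.S) : Set ℕ) (s.θ.comp rest) where
  V := O.V
  instAddCommGroup := O.iV1
  instModule := O.iV2
  instFinite := O.iV3
  instFree := O.iV4
  η := O.η''
  η_local := O.η''_local

/-- the embedding of the next module into the lattice before cutting -/
noncomputable def outι (d : H48.Deg3Data s hq hqN hqS rest M'') (O : Deg3Out d.toDeg3) :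
    (outHMod d O).V →ₗ[𝒪] M''.V := O.ι

theorem outι_inj (d : H48.Deg3Data s hq hqN hqS rest M'') (O : Deg3Out d.toDeg3) :
    Function.Injective (outι d O) := O.ι_inj

theorem outι_range (d : H48.Deg3Data s hq hqN hqS rest M'') (O : Deg3Out d.toDeg3)
    (w : M''.V) : w ∈ Set.range (outι d O) ↔ d.U w = 0 := O.range_ι w

theorem outι_η (d : H48.Deg3Data s hq hqN hqS rest M'') (O : Deg3Out d.toDeg3)
    (t : CuspForm.heckeAlgebra (s.N * q ^ 2) 2 (↑(insert q s.S) : Set ℕ))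
    (v : (outHMod d O).V) :
    outι d O ((outHMod d O).η t v) = M''.η t (outι d O v) := O.ι_η t v

/-- The next state is a Betti state for `insert q Sig`. -/
theorem isBetti_out (d : H48.Deg3Data s hq hqN hqS rest M'') (O : Deg3Out d.toDeg3)
    (Sig : Finset ℕ) (ι'' : M''.V →ₗ[𝒪] (Additive (Gamma0 (s.N * q ^ 2)) →+ 𝒪))
    (hι'' : H48.IsBettiVia (⟨s.N * q ^ 2, insert q s.S, s.θ.comp rest, M''⟩ : NMState 𝒪)
      Sig ι'')
    (hU : ∀ (hd : q ∣ s.N * q ^ 2) (w : M''.V),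
      ι'' (d.U w) = UB (s.N * q ^ 2) 𝒪 hd (ι'' w)) :
    IsBetti (⟨s.N * q ^ 2, insert q s.S, s.θ.comp rest, outHMod d O⟩ : NMState 𝒪)
      (insert q Sig) := by
  obtain ⟨hinj, hrange, hT⟩ := hι''
  refine ⟨ι''.comp (outι d O), hinj.comp (outι_inj d O), ?_, ?_⟩
  · intro φ
    exact inBetti_cut (q_dvd_level _ _) (outι d O) d.U (outι_range d O) ι'' hinj hrange hU φ
  · intro ℓ hℓ hℓN hℓS v
    have h1 := outι_η d O (CuspForm.heckeAlgebra.T hℓ hℓN hℓS) v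
    have h2 := hT ℓ hℓ hℓN hℓS (outι d O v)
    exact (congrArg ι'' h1).trans h2

/-- The step. -/
noncomputable def outStep (d : H48.Deg3Data s hq hqN hqS rest M'') (O : Deg3Out d.toDeg3)
    (rest_T : ∀ (ℓ : ℕ) (hℓ : ℓ.Prime) (hℓN' : ¬ ℓ ∣ s.N * q ^ 2)
      (hℓS' : ℓ ∉ (↑(insert q s.S) : Set ℕ)) (hℓN : ¬ ℓ ∣ s.N) (hℓS : ℓ ∉ (↑s.S : Set ℕ)),
      rest (CuspForm.heckeAlgebra.T hℓ hℓN' hℓS') = CuspForm.heckeAlgebra.T hℓ hℓN hℓS)
    (hrank : ∀ (x : CuspForm.heckeAlgebra s.N 2 (↑s.S : Set ℕ) →+* 𝒪),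
      (∀ t, residue 𝒪 (x t) = s.θ t) →
      Module.finrank 𝒪 ↥(NMState.eigen
        (⟨s.N * q ^ 2, insert q s.S, s.θ.comp rest, outHMod d O⟩ : NMState 𝒪)
        (x.comp rest)) ≤ Module.finrank 𝒪 ↥(s.eigen x)) :
    NMStep s hq hqN hqS where
  rest := rest
  rest_T := rest_T
  M' := outHMod d O
  α := O.α
  α' := O.α'
  α_η := O.α_η
  α'_η := O.α'_η
  α_inj := O.α_inj
  α_sat := O.α_sat
  α'_surj := O.α'_surj
  u := -1
  comp := fun v => by
    have h := O.comp v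
    rw [Units.val_neg, Units.val_one, neg_one_smul]
    exact h
  rank := hrank

theorem outStep_next (d : H48.Deg3Data s hq hqN hqS rest M'') (O : Deg3Out d.toDeg3)
    (rest_T : ∀ (ℓ : ℕ) (hℓ : ℓ.Prime) (hℓN' : ¬ ℓ ∣ s.N * q ^ 2)
      (hℓS' : ℓ ∉ (↑(insert q s.S) : Set ℕ)) (hℓN : ¬ ℓ ∣ s.N) (hℓS : ℓ ∉ (↑s.S : Set ℕ)),
      rest (CuspForm.heckeAlgebra.T hℓ hℓN' hℓS') = CuspForm.heckeAlgebra.T hℓ hℓN hℓS)
    (hrank : ∀ (x : CuspForm.heckeAlgebra s.N 2 (↑s.S : Set ℕ) →+* 𝒪),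
      (∀ t, residue 𝒪 (x t) = s.θ t) →
      Module.finrank 𝒪 ↥(NMState.eigen
        (⟨s.N * q ^ 2, insert q s.S, s.θ.comp rest, outHMod d O⟩ : NMState 𝒪)
        (x.comp rest)) ≤ Module.finrank 𝒪 ↥(s.eigen x)) :
    (outStep d O rest_T hrank).next
      = (⟨s.N * q ^ 2, insert q s.S, s.θ.comp rest, outHMod d O⟩ : NMState 𝒪) := rfl

end Step

/-! ### The class `G` is preserved -/

theorem geomHyp_base (p : ℕ) (Smin : Finset ℕ) (N : ℕ) (hsq : Squarefree N)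
    (hNS : ∀ r : ℕ, r.Prime → r ∣ N → r ∈ Smin) : GeomHyp p Smin N ∅ N Smin where
  hN := by rw [Finset.prod_empty, mul_one]
  hS := by rw [Finset.union_empty]
  hSig := fun r hr => absurd hr (Finset.notMem_empty r)
  hN₀ := hsq
  hN₀S := hNS

theorem geomHyp_next {p : ℕ} {Smin : Finset ℕ} {N₀ : ℕ} {Sig : Finset ℕ} {N : ℕ} {S : Finset ℕ}
    (h : GeomHyp p Smin N₀ Sig N S) {q : ℕ} (hq : q.Prime) (hqp : q ≠ p) (hqS : q ∉ S) :
    GeomHyp p Smin N₀ (insert q Sig) (N * q ^ 2) (insert q S) where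
  hN := by
    have hqSig : q ∉ Sig := fun hmem => hqS (by rw [h.hS]; exact Finset.mem_union_right _ hmem)
    rw [Finset.prod_insert hqSig, h.hN]
    ring
  hS := by
    rw [h.hS, Finset.union_insert]
  hSig := fun r hr => by
    rcases Finset.mem_insert.mp hr with rfl | hr'
    · exact ⟨hq, hqp, fun hmem => hqS (by rw [h.hS]; exact Finset.mem_union_left _ hmem)⟩
    · exact h.hSig r hr'
  hN₀ := h.hN₀
  hN₀S := h.hN₀S

theorem geomHyp_prime_mem {p : ℕ} {Smin : Finset ℕ} {N₀ : ℕ} {Sig : Finset ℕ} {N : ℕ}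
    {S : Finset ℕ} (h : GeomHyp p Smin N₀ Sig N S) {r : ℕ} (hr : r.Prime) (hrN : r ∣ N) :
    r ∈ S := by
  rw [h.hS]
  rw [h.hN] at hrN
  rcases (Nat.Prime.dvd_mul hr).mp hrN with h1 | h1
  · exact Finset.mem_union_left _ (h.hN₀S r hr h1)
  · obtain ⟨t, ht, htd⟩ := (Prime.dvd_finsetProd_iff (Nat.Prime.prime hr) _).mp h1
    have hrt : r ∣ t := Nat.Prime.dvd_of_dvd_pow hr htd
    have : r = t := (Nat.prime_dvd_prime_iff_eq hr (h.hSig t ht).1).mp hrt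
    rw [this]
    exact Finset.mem_union_right _ ht

theorem geomHyp_prime_mem_next {p : ℕ} {Smin : Finset ℕ} {N₀ : ℕ} {Sig : Finset ℕ} {N : ℕ}
    {S : Finset ℕ} (h : GeomHyp p Smin N₀ Sig N S) {q : ℕ} (hq : q.Prime) {r : ℕ}
    (hr : r.Prime) (hrN : r ∣ N * q ^ 2) : r ∈ insert q S := by
  rcases (Nat.Prime.dvd_mul hr).mp hrN with h1 | h1
  · exact Finset.mem_insert_of_mem (geomHyp_prime_mem h hr h1)
  · have hrq : r ∣ q := Nat.Prime.dvd_of_dvd_pow hr h1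
    have : r = q := (Nat.prime_dvd_prime_iff_eq hr hq).mp hrq
    rw [this]
    exact Finset.mem_insert_self q S

theorem frobHyp_next {k : Type} [Field k] (ρbar : ResidualGaloisRep k) {N : ℕ} [NeZero N]
    {S : Finset ℕ} {θ : CuspForm.heckeAlgebra N 2 (↑S : Set ℕ) →+* k}
    (h : Fermat.Agent.S59.Datum.FrobHyp ρbar N S θ) {q : ℕ} [NeZero (N * q ^ 2)]
    (rest : CuspForm.heckeAlgebra (N * q ^ 2) 2 (↑(insert q S) : Set ℕ) →+*
      CuspForm.heckeAlgebra N 2 (↑S : Set ℕ))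
    (rest_T : ∀ (ℓ : ℕ) (hℓ : ℓ.Prime) (hℓN' : ¬ ℓ ∣ N * q ^ 2)
      (hℓS' : ℓ ∉ (↑(insert q S) : Set ℕ)) (hℓN : ¬ ℓ ∣ N) (hℓS : ℓ ∉ (↑S : Set ℕ)),
      rest (CuspForm.heckeAlgebra.T hℓ hℓN' hℓS') = CuspForm.heckeAlgebra.T hℓ hℓN hℓS) :
    Fermat.Agent.S59.Datum.FrobHyp ρbar (N * q ^ 2) (insert q S) (θ.comp rest) := by
  intro ℓ hℓ hℓN' hℓS' A hA σ hσ
  have hℓN : ¬ ℓ ∣ N := fun hd => hℓN' (Dvd.dvd.mul_right hd _)
  have hℓS : ℓ ∉ (↑S : Set ℕ) := fun hmem =>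
    hℓS' (Finset.mem_coe.mpr (Finset.mem_insert_of_mem (Finset.mem_coe.mp hmem)))
  rw [RingHom.comp_apply, rest_T ℓ hℓ hℓN' hℓS' hℓN hℓS]
  exact h ℓ hℓ hℓN hℓS A hA σ hσ

end Fermat.Agent.S59.NonMin.Geom.H30

end
-- ==== END Fermat.Agent.S59.NonMin.Geom.H30_AsmStep

-- ==== BEGIN Fermat.Agent.S59.NonMin.Geom.H48_AsmGLat
section

/-!
# S59 / NMGEOM, assembly ASM-G, first half (helper48): the Betti lattice

General lemmas on the lattice `InBetti` used by `deg3_of`: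

* naturality of `TB`, `UB` in the coefficients and the `𝒪`-linear forms `TBl`, `UBl`, `resL`,
  `corL` of the operators;
* `Mval m` : the homomorphisms with values in `𝔪^m`; `mem_Mval_iff` (divisibility by `ϖ^m`);
* `Dl a = T_ℓ - a` and the iterates;
* `inBetti_map` : an operator which commutes with the Hecke operators maps Betti lattices to
  Betti lattices;
* `inBetti_of_smul` : the lattice is saturated;
* `loc_of_loc` : locality for one lift of the eigenvalue gives locality for every lift.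

No `sorry`.
-/

set_option autoImplicit false

open Polynomial CuspForm CongruenceSubgroup IsLocalRing
open scoped MatrixGroups

namespace Fermat.Agent.S59.NonMin.Geom.H48

open Fermat.Agent.S41 Fermat.Agent.Betti Fermat.Agent.S59 Fermat.Agent.S59.Asm
  Fermat.Agent.S59.NonMin Fermat.Agent.S59.NonMin.Geom
open ModularCurve.Period

/-! ## 1. Naturality in the coefficients, linearity -/

section Nat

variable {N : ℕ} {A B : Type*} [AddCommGroup A] [AddCommGroup B]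

theorem TB_nat (f : A →+ B) {p : ℕ} (hp : p.Prime) (hpN : ¬ p ∣ N)
    (φ : Additive (Gamma0 N) →+ A) :
    TB N B hp hpN (f.comp φ) = f.comp (TB N A hp hpN φ) := by
  refine AddMonoidHom.ext fun γ => ?_
  obtain ⟨γ, rfl⟩ := Additive.ofMul.surjective γ
  rw [TB_apply_apply, AddMonoidHom.comp_apply, TB_apply_apply, map_sum]
  rfl

theorem UB_nat [NeZero N] (f : A →+ B) {p : ℕ} (hpN : p ∣ N)
    (φ : Additive (Gamma0 N) →+ A) :
    UB N B hpN (f.comp φ) = f.comp (UB N A hpN φ) := by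
  refine AddMonoidHom.ext fun γ => ?_
  obtain ⟨γ, rfl⟩ := Additive.ofMul.surjective γ
  rw [UB_apply_apply, AddMonoidHom.comp_apply, UB_apply_apply, map_sum]
  rfl

end Nat

section Lin

variable (𝒪 : Type) [CommRing 𝒪]

theorem smul_eq_comp {G : Type*} [AddGroup G] (c : 𝒪) (φ : G →+ 𝒪) :
    c • φ = (AddMonoidHom.mulLeft c).comp φ := by
  refine AddMonoidHom.ext fun γ => ?_
  rfl

/-- `T_p` as an `𝒪`-linear map -/
noncomputable def TBl (N : ℕ) {p : ℕ} (hp : p.Prime) (hpN : ¬ p ∣ N) :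
    (Additive (Gamma0 N) →+ 𝒪) →ₗ[𝒪] (Additive (Gamma0 N) →+ 𝒪) where
  toFun := TB N 𝒪 hp hpN
  map_add' := map_add _
  map_smul' c φ := by
    show TB N 𝒪 hp hpN (c • φ) = c • TB N 𝒪 hp hpN φ
    rw [smul_eq_comp 𝒪 c φ, TB_nat, ← smul_eq_comp]

@[simp] theorem TBl_apply (N : ℕ) {p : ℕ} (hp : p.Prime) (hpN : ¬ p ∣ N)
    (φ : Additive (Gamma0 N) →+ 𝒪) : TBl 𝒪 N hp hpN φ = TB N 𝒪 hp hpN φ := rfl

/-- `U_p` as an `𝒪`-linear map -/
noncomputable def UBl (N : ℕ) [NeZero N] {p : ℕ} (hpN : p ∣ N) :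
    (Additive (Gamma0 N) →+ 𝒪) →ₗ[𝒪] (Additive (Gamma0 N) →+ 𝒪) where
  toFun := UB N 𝒪 hpN
  map_add' := map_add _
  map_smul' c φ := by
    show UB N 𝒪 hpN (c • φ) = c • UB N 𝒪 hpN φ
    rw [smul_eq_comp 𝒪 c φ, UB_nat, ← smul_eq_comp]

@[simp] theorem UBl_apply (N : ℕ) [NeZero N] {p : ℕ} (hpN : p ∣ N)
    (φ : Additive (Gamma0 N) →+ 𝒪) : UBl 𝒪 N hpN φ = UB N 𝒪 hpN φ := rfl

variable {H G : Type*} [Group H] [Group G]

/-- restriction as an `𝒪`-linear map -/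
def resL (j : H →* G) : (Additive G →+ 𝒪) →ₗ[𝒪] (Additive H →+ 𝒪) where
  toFun := resAlong 𝒪 j
  map_add' _ _ := rfl
  map_smul' _ _ := rfl

@[simp] theorem resL_apply (j : H →* G) (φ : Additive G →+ 𝒪) :
    resL 𝒪 j φ = resAlong 𝒪 j φ := rfl

/-- transfer as an `𝒪`-linear map -/
noncomputable def corL (j : H →* G) : (Additive H →+ 𝒪) →ₗ[𝒪] (Additive G →+ 𝒪) where
  toFun := corAlong 𝒪 j
  map_add' := H19.corAlong_add j
  map_smul' c φ := H19.corAlong_smul j c φ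

@[simp] theorem corL_apply (j : H →* G) (φ : Additive H →+ 𝒪) :
    corL 𝒪 j φ = corAlong 𝒪 j φ := rfl

end Lin

/-! ## 2. Homomorphisms with values in `𝔪^m` -/

section MvalSec

variable (𝒪 : Type) [CommRing 𝒪] [IsLocalRing 𝒪] (G : Type*) [AddGroup G]

/-- the homomorphisms with values in `𝔪^m` -/
def Mval (m : ℕ) : Submodule 𝒪 (G →+ 𝒪) where
  carrier := {φ | ∀ γ, φ γ ∈ maximalIdeal 𝒪 ^ m}
  zero_mem' := fun _ => Ideal.zero_mem _
  add_mem' := fun ha hb γ => Ideal.add_mem _ (ha γ) (hb γ)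
  smul_mem' := fun c _ h γ => Ideal.mul_mem_left _ c (h γ)

variable {𝒪 G}

theorem mem_Mval {m : ℕ} {φ : G →+ 𝒪} : φ ∈ Mval 𝒪 G m ↔ ∀ γ, φ γ ∈ maximalIdeal 𝒪 ^ m :=
  Iff.rfl

theorem Mval_anti {m m' : ℕ} (h : m ≤ m') : Mval 𝒪 G m' ≤ Mval 𝒪 G m :=
  fun _ hφ γ => Ideal.pow_le_pow_right h (hφ γ)

theorem smul_mem_Mval {m : ℕ} {c : 𝒪} (hc : c ∈ maximalIdeal 𝒪 ^ m) (φ : G →+ 𝒪) :
    c • φ ∈ Mval 𝒪 G m :=
  fun _ => Ideal.mul_mem_right _ _ hc

theorem exists_eq_smul_of_dvd [IsDomain 𝒪] {c : 𝒪} (hc : c ≠ 0) (φ : G →+ 𝒪)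
    (h : ∀ γ, c ∣ φ γ) : ∃ φ' : G →+ 𝒪, φ = c • φ' := by
  choose f hf using h
  refine ⟨{ toFun := f, map_zero' := ?_, map_add' := ?_ }, ?_⟩
  · have h0 := hf 0
    rw [map_zero] at h0
    exact (mul_eq_zero.mp h0.symm).resolve_left hc
  · intro x y
    have h1 := hf (x + y)
    rw [map_add, hf x, hf y, ← mul_add] at h1
    exact (mul_left_cancel₀ hc h1).symm
  · refine AddMonoidHom.ext fun γ => ?_
    exact hf γ

variable [IsDomain 𝒪] [IsDiscreteValuationRing 𝒪]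

theorem maxPow_eq {ϖ : 𝒪} (hϖ : Irreducible ϖ) (m : ℕ) :
    maximalIdeal 𝒪 ^ m = Ideal.span {ϖ ^ m} := by
  rw [hϖ.maximalIdeal_eq, Ideal.span_singleton_pow]

theorem mem_Mval_iff_exists {ϖ : 𝒪} (hϖ : Irreducible ϖ) {m : ℕ} {φ : G →+ 𝒪} :
    φ ∈ Mval 𝒪 G m ↔ ∃ φ' : G →+ 𝒪, φ = ϖ ^ m • φ' := by
  constructor
  · intro h
    refine exists_eq_smul_of_dvd (pow_ne_zero m hϖ.ne_zero) φ fun γ => ?_
    have := h γ
    rwa [maxPow_eq hϖ, Ideal.mem_span_singleton] at this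
  · rintro ⟨φ', rfl⟩
    refine smul_mem_Mval ?_ φ'
    rw [maxPow_eq hϖ]
    exact Ideal.mem_span_singleton_self _

/-- every linear operator preserves the homomorphisms with values in `𝔪^m` -/
theorem map_mem_Mval {G' : Type*} [AddGroup G'] (Φ : (G →+ 𝒪) →ₗ[𝒪] (G' →+ 𝒪)) {m : ℕ}
    {φ : G →+ 𝒪} (h : φ ∈ Mval 𝒪 G m) : Φ φ ∈ Mval 𝒪 G' m := by
  obtain ⟨ϖ, hϖ⟩ := IsDiscreteValuationRing.exists_irreducible 𝒪
  obtain ⟨φ', rfl⟩ := (mem_Mval_iff_exists hϖ).mp h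
  rw [map_smul]
  exact (mem_Mval_iff_exists hϖ).mpr ⟨_, rfl⟩

theorem mem_Mval_of_smul {ϖ : 𝒪} (hϖ : Irreducible ϖ) {j m : ℕ} {φ : G →+ 𝒪}
    (h : ϖ ^ j • φ ∈ Mval 𝒪 G (m + j)) : φ ∈ Mval 𝒪 G m := by
  intro γ
  have h1 := h γ
  rw [maxPow_eq hϖ, Ideal.mem_span_singleton] at h1 ⊢
  have h2 : ϖ ^ j * ϖ ^ m ∣ ϖ ^ j * φ γ := by
    rw [← pow_add, add_comm j m]
    exact h1
  exact (mul_dvd_mul_iff_left (pow_ne_zero j hϖ.ne_zero)).mp h2

theorem smul_left_inj' {c : 𝒪} (hc : c ≠ 0) {φ ψ : G →+ 𝒪} (h : c • φ = c • ψ) : φ = ψ := by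
  refine AddMonoidHom.ext fun γ => ?_
  have := DFunLike.congr_fun h γ
  exact mul_left_cancel₀ hc this

end MvalSec

/-! ## 3. The operators `T_ℓ - a`, locality -/

section Loc

variable (𝒪 : Type) [CommRing 𝒪] [IsLocalRing 𝒪]

/-- `T_ℓ - a` -/
noncomputable def Dl (N : ℕ) {ℓ : ℕ} (hℓ : ℓ.Prime) (hℓN : ¬ ℓ ∣ N) (a : 𝒪) :
    Module.End 𝒪 (Additive (Gamma0 N) →+ 𝒪) :=
  TBl 𝒪 N hℓ hℓN - a • 1

variable {𝒪}

theorem Dl_apply (N : ℕ) {ℓ : ℕ} (hℓ : ℓ.Prime) (hℓN : ¬ ℓ ∣ N) (a : 𝒪)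
    (φ : Additive (Gamma0 N) →+ 𝒪) : Dl 𝒪 N hℓ hℓN a φ = TB N 𝒪 hℓ hℓN φ - a • φ := rfl

theorem iter_eq_pow (N : ℕ) {ℓ : ℕ} (hℓ : ℓ.Prime) (hℓN : ¬ ℓ ∣ N) (a : 𝒪) (n : ℕ)
    (φ : Additive (Gamma0 N) →+ 𝒪) :
    (fun χ : Additive (Gamma0 N) →+ 𝒪 => TB N 𝒪 hℓ hℓN χ - a • χ)^[n] φ =
      (Dl 𝒪 N hℓ hℓN a ^ n) φ := by
  rw [Module.End.pow_apply]
  rfl

/-- `φ` is local at `T_ℓ` for the lift `a` of the eigenvalue -/
def Loc (N : ℕ) {ℓ : ℕ} (hℓ : ℓ.Prime) (hℓN : ¬ ℓ ∣ N) (a : 𝒪)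
    (φ : Additive (Gamma0 N) →+ 𝒪) : Prop :=
  ∀ m : ℕ, ∃ n : ℕ, (Dl 𝒪 N hℓ hℓN a ^ n) φ ∈ Mval 𝒪 (Additive (Gamma0 N)) m

theorem inBetti_iff {N : ℕ} [NeZero N] {S : Set ℕ}
    {θ : CuspForm.heckeAlgebra N 2 S →+* ResidueField 𝒪} {Sig : Finset ℕ}
    {φ : Additive (Gamma0 N) →+ 𝒪} :
    InBetti 𝒪 N S θ Sig φ ↔ IsParabolicHom (Gamma0 N) φ ∧
      (∀ r ∈ Sig, ∀ hr : r ∣ N, UB N 𝒪 hr φ = 0) ∧
      ∀ (ℓ : ℕ) (hℓ : ℓ.Prime) (hℓN : ¬ ℓ ∣ N) (hℓS : ℓ ∉ S) (a : 𝒪),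
        residue 𝒪 a = θ (CuspForm.heckeAlgebra.T hℓ hℓN hℓS) → Loc N hℓ hℓN a φ := by
  unfold InBetti Loc
  refine and_congr Iff.rfl (and_congr Iff.rfl ?_)
  refine forall_congr' fun ℓ => forall_congr' fun hℓ => forall_congr' fun hℓN =>
    forall_congr' fun hℓS => forall_congr' fun a => forall_congr' fun _ =>
    forall_congr' fun m => exists_congr fun n => ?_
  rw [iter_eq_pow]
  rfl

theorem isParabolic_Dl {N : ℕ} {ℓ : ℕ} (hℓ : ℓ.Prime) (hℓN : ¬ ℓ ∣ N) (a : 𝒪)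
    {φ : Additive (Gamma0 N) →+ 𝒪} (h : IsParabolicHom (Gamma0 N) φ) :
    IsParabolicHom (Gamma0 N) (Dl 𝒪 N hℓ hℓN a φ) := by
  rw [Dl_apply]
  exact (parabolicHoms 𝒪 (Gamma0 N) 𝒪).sub_mem (H53.TB_par 𝒪 hℓ hℓN φ h)
    ((parabolicHoms 𝒪 (Gamma0 N) 𝒪).smul_mem a h)

theorem isParabolic_Dl_pow {N : ℕ} {ℓ : ℕ} (hℓ : ℓ.Prime) (hℓN : ¬ ℓ ∣ N) (a : 𝒪) (n : ℕ)
    {φ : Additive (Gamma0 N) →+ 𝒪} (h : IsParabolicHom (Gamma0 N) φ) :
    IsParabolicHom (Gamma0 N) ((Dl 𝒪 N hℓ hℓN a ^ n) φ) := by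
  induction n with
  | zero => exact h
  | succ n ih =>
    rw [pow_succ', Module.End.mul_apply]
    exact isParabolic_Dl hℓ hℓN a ih

variable [IsDomain 𝒪] [IsDiscreteValuationRing 𝒪]

/-- An operator which commutes with the Hecke operators maps Betti lattices to Betti
lattices. -/
theorem inBetti_map {N₁ N₂ : ℕ} [NeZero N₁] [NeZero N₂] {S₁ S₂ : Set ℕ}
    {θ₁ : CuspForm.heckeAlgebra N₁ 2 S₁ →+* ResidueField 𝒪}
    {θ₂ : CuspForm.heckeAlgebra N₂ 2 S₂ →+* ResidueField 𝒪} {Sig : Finset ℕ}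
    (Φ : (Additive (Gamma0 N₁) →+ 𝒪) →ₗ[𝒪] (Additive (Gamma0 N₂) →+ 𝒪))
    (hpar : ∀ φ, IsParabolicHom (Gamma0 N₁) φ → IsParabolicHom (Gamma0 N₂) (Φ φ))
    (hU : ∀ r ∈ Sig, ∀ hr₂ : r ∣ N₂, ∃ hr₁ : r ∣ N₁, ∀ φ, IsParabolicHom (Gamma0 N₁) φ →
      UB N₂ 𝒪 hr₂ (Φ φ) = Φ (UB N₁ 𝒪 hr₁ φ))
    (hT : ∀ (ℓ : ℕ) (hℓ : ℓ.Prime) (hℓN₂ : ¬ ℓ ∣ N₂) (hℓS₂ : ℓ ∉ S₂),
      ∃ (hℓN₁ : ¬ ℓ ∣ N₁) (hℓS₁ : ℓ ∉ S₁),
        θ₂ (CuspForm.heckeAlgebra.T hℓ hℓN₂ hℓS₂) = θ₁ (CuspForm.heckeAlgebra.T hℓ hℓN₁ hℓS₁) ∧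
        ∀ φ, IsParabolicHom (Gamma0 N₁) φ →
          TB N₂ 𝒪 hℓ hℓN₂ (Φ φ) = Φ (TB N₁ 𝒪 hℓ hℓN₁ φ))
    {φ : Additive (Gamma0 N₁) →+ 𝒪} (h : InBetti 𝒪 N₁ S₁ θ₁ Sig φ) :
    InBetti 𝒪 N₂ S₂ θ₂ Sig (Φ φ) := by
  rw [inBetti_iff] at h ⊢
  obtain ⟨h1, h2, h3⟩ := h
  refine ⟨hpar φ h1, ?_, ?_⟩
  · intro r hr hr₂
    obtain ⟨hr₁, hc⟩ := hU r hr hr₂
    rw [hc φ h1, h2 r hr hr₁, map_zero]
  · intro ℓ hℓ hℓN₂ hℓS₂ a ha m
    obtain ⟨hℓN₁, hℓS₁, hθ, hc⟩ := hT ℓ hℓ hℓN₂ hℓS₂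
    obtain ⟨n, hn⟩ := h3 ℓ hℓ hℓN₁ hℓS₁ a (ha.trans hθ) m
    refine ⟨n, ?_⟩
    have key : ∀ k : ℕ, (Dl 𝒪 N₂ hℓ hℓN₂ a ^ k) (Φ φ) = Φ ((Dl 𝒪 N₁ hℓ hℓN₁ a ^ k) φ) := by
      intro k
      induction k with
      | zero => rfl
      | succ k ih =>
        rw [pow_succ', Module.End.mul_apply, ih, pow_succ', Module.End.mul_apply, Dl_apply,
          Dl_apply, hc _ (isParabolic_Dl_pow hℓ hℓN₁ a k h1), map_sub, map_smul]
    rw [key]
    exact map_mem_Mval Φ hn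

/-- The Betti lattice is saturated. -/
theorem inBetti_of_smul {N : ℕ} [NeZero N] {S : Set ℕ}
    {θ : CuspForm.heckeAlgebra N 2 S →+* ResidueField 𝒪} {Sig : Finset ℕ}
    {ϖ : 𝒪} (hϖ : Irreducible ϖ) (j : ℕ) {φ : Additive (Gamma0 N) →+ 𝒪}
    (h : InBetti 𝒪 N S θ Sig (ϖ ^ j • φ)) : InBetti 𝒪 N S θ Sig φ := by
  have hc : ϖ ^ j ≠ 0 := pow_ne_zero j hϖ.ne_zero
  rw [inBetti_iff] at h ⊢
  obtain ⟨h1, h2, h3⟩ := h
  refine ⟨?_, ?_, ?_⟩
  · intro γ hγ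
    have := h1 γ hγ
    exact (mul_eq_zero.mp this).resolve_left hc
  · intro r hr hrN
    have := h2 r hr hrN
    rw [← UBl_apply, map_smul, UBl_apply] at this
    exact smul_left_inj' hc (this.trans (smul_zero _).symm)
  · intro ℓ hℓ hℓN hℓS a ha m
    obtain ⟨n, hn⟩ := h3 ℓ hℓ hℓN hℓS a ha (m + j)
    refine ⟨n, ?_⟩
    rw [map_smul] at hn
    exact mem_Mval_of_smul hϖ hn

/-- Division by `ϖ^m` in the Betti lattice. -/
theorem exists_inBetti_smul {N : ℕ} [NeZero N] {S : Set ℕ}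
    {θ : CuspForm.heckeAlgebra N 2 S →+* ResidueField 𝒪} {Sig : Finset ℕ}
    {ϖ : 𝒪} (hϖ : Irreducible ϖ) {m : ℕ} {φ : Additive (Gamma0 N) →+ 𝒪}
    (h : InBetti 𝒪 N S θ Sig φ) (hm : φ ∈ Mval 𝒪 (Additive (Gamma0 N)) m) :
    ∃ φ', φ = ϖ ^ m • φ' ∧ InBetti 𝒪 N S θ Sig φ' := by
  obtain ⟨φ', rfl⟩ := (mem_Mval_iff_exists hϖ).mp hm
  exact ⟨φ', rfl, inBetti_of_smul hϖ m h⟩

/-- Locality for one lift of the eigenvalue gives locality for every lift. -/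
theorem loc_of_loc {N : ℕ} {ℓ : ℕ} (hℓ : ℓ.Prime) (hℓN : ¬ ℓ ∣ N) {a a₀ : 𝒪}
    (ha : a₀ - a ∈ maximalIdeal 𝒪) {φ : Additive (Gamma0 N) →+ 𝒪}
    (h : Loc N hℓ hℓN a₀ φ) : Loc N hℓ hℓN a φ := by
  intro m
  obtain ⟨n₀, hn₀⟩ := h m
  refine ⟨n₀ + m, ?_⟩
  have hD : Dl 𝒪 N hℓ hℓN a = Dl 𝒪 N hℓ hℓN a₀ + (a₀ - a) • 1 := by
    apply LinearMap.ext
    intro ψ
    simp only [Dl, LinearMap.sub_apply, LinearMap.add_apply, LinearMap.smul_apply,
      Module.End.one_apply, sub_smul]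
    abel
  set D₀ := Dl 𝒪 N hℓ hℓN a₀ with hD₀
  set c : 𝒪 := a₀ - a with hcdef
  have hcomm : Commute D₀ (c • (1 : Module.End 𝒪 (Additive (Gamma0 N) →+ 𝒪))) := by
    rw [Algebra.smul_def, mul_one]
    exact (Algebra.commutes c D₀).symm
  rw [hD, hcomm.add_pow, LinearMap.sum_apply]
  refine Submodule.sum_mem _ fun k hk => ?_
  rw [Module.End.mul_apply, Module.End.mul_apply]
  by_cases hkn : n₀ ≤ k
  · -- `D₀^k` applied to something: write `k = (k - n₀) + n₀`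
    have h1 : ∀ ψ : Additive (Gamma0 N) →+ 𝒪,
        ((c • (1 : Module.End 𝒪 (Additive (Gamma0 N) →+ 𝒪))) ^ (n₀ + m - k)) ψ =
          c ^ (n₀ + m - k) • ψ := by
      intro ψ
      rw [_root_.smul_pow, one_pow, LinearMap.smul_apply, Module.End.one_apply]
    have h2 : ∀ ψ : Additive (Gamma0 N) →+ 𝒪,
        (((n₀ + m).choose k : ℕ) : Module.End 𝒪 (Additive (Gamma0 N) →+ 𝒪)) ψ =
          ((n₀ + m).choose k : 𝒪) • ψ := by
      intro ψ
      have : (((n₀ + m).choose k : ℕ) : Module.End 𝒪 (Additive (Gamma0 N) →+ 𝒪)) =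
          ((n₀ + m).choose k : 𝒪) • (1 : Module.End 𝒪 (Additive (Gamma0 N) →+ 𝒪)) := by
        rw [Nat.cast_smul_eq_nsmul, nsmul_eq_mul, mul_one]
      rw [this, LinearMap.smul_apply, Module.End.one_apply]
    rw [h2, h1, map_smul, map_smul]
    refine Submodule.smul_mem _ _ (Submodule.smul_mem _ _ ?_)
    have : k = (k - n₀) + n₀ := (Nat.sub_add_cancel hkn).symm
    rw [this, pow_add, Module.End.mul_apply]
    exact map_mem_Mval _ hn₀
  · have hlt : m ≤ n₀ + m - k := by omega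
    have h1 : ∀ ψ : Additive (Gamma0 N) →+ 𝒪,
        ((c • (1 : Module.End 𝒪 (Additive (Gamma0 N) →+ 𝒪))) ^ (n₀ + m - k)) ψ =
          c ^ (n₀ + m - k) • ψ := by
      intro ψ
      rw [_root_.smul_pow, one_pow, LinearMap.smul_apply, Module.End.one_apply]
    rw [h1, map_smul]
    exact smul_mem_Mval (Ideal.pow_le_pow_right hlt (Ideal.pow_mem_pow ha _)) _

end Loc

end Fermat.Agent.S59.NonMin.Geom.H48

end
-- ==== END Fermat.Agent.S59.NonMin.Geom.H48_AsmGLat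

-- ==== BEGIN Fermat.Agent.S59.NonMin.Geom.H53_CommonEigen
section

/-!
# S59 / NMGEOM + PGEOM, shared lemma COMMON-EIGEN (helper53)

Pure algebra (Mathlib + `LL.SQ.H40.exists_common_kernel_of_nilpotent`).

* `exists_common_kernel_in` : a commuting family of nilpotent endomorphisms of a finite
  dimensional vector space has a common kernel vector in every nonzero stable subspace;
* `exists_common_eigen_mod` : let `W` be a finite module over a local ring `𝒪`, `U i` a family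
  of endomorphisms which commute modulo `𝔪 W` and are nilpotent modulo `𝔪 W`, `K ⊆ W` a stable
  submodule not contained in `𝔪 W`; then there is `w ∈ K`, `w ∉ 𝔪 W`, with `U i w ∈ 𝔪 W` for all
  `i`.  [Use: `U i := T_ℓ - a_ℓ`, `K` := the kernel of the level raising map modulo `𝔪`: a common
  eigenvector modulo `𝔪` in the kernel, to which Ihara's lemma applies.]

No `sorry`.
-/

set_option autoImplicit false

open IsLocalRing

namespace Fermat.Agent.S59.NonMin.Geom.H53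

/-- A commuting family of nilpotent endomorphisms of a finite-dimensional space has a common
kernel vector in every nonzero stable subspace. -/
theorem exists_common_kernel_in {k : Type*} [Field k] {ι : Type*} {M : Type*} [AddCommGroup M]
    [Module k M] [FiniteDimensional k M] (U : ι → Module.End k M)
    (hcomm : ∀ i j, Commute (U i) (U j)) (hnil : ∀ i, IsNilpotent (U i))
    (K : Submodule k M) (hK : ∀ i, ∀ x ∈ K, U i x ∈ K) (hne : K ≠ ⊥) :
    ∃ m ∈ K, m ≠ 0 ∧ ∀ i, U i m = 0 := by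
  have hfr : Module.finrank k K ≠ 0 := by
    intro h
    exact hne (Submodule.finrank_eq_zero.mp h)
  let U' : ι → Module.End k K := fun i => (U i).restrict (hK i)
  have hcomm' : ∀ i j, Commute (U' i) (U' j) := by
    intro i j
    apply LinearMap.ext
    intro x
    apply Subtype.ext
    show U i (U j x) = U j (U i x)
    have := (hcomm i j).eq
    calc U i (U j x) = (U i * U j) x := rfl
      _ = (U j * U i) x := by rw [this]
      _ = U j (U i x) := rfl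
  have hnil' : ∀ i, IsNilpotent (U' i) := by
    intro i
    obtain ⟨d, hd⟩ := hnil i
    refine ⟨d, ?_⟩
    apply LinearMap.ext
    intro x
    apply Subtype.ext
    have h1 : ∀ (e : ℕ) (y : K), (((U' i) ^ e) y : M) = ((U i) ^ e) (y : M) := by
      intro e
      induction e with
      | zero => intro y; rfl
      | succ e ihe =>
        intro y
        rw [pow_succ, pow_succ, Module.End.mul_apply, Module.End.mul_apply, ihe]
        rfl
    rw [h1, hd]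
    rfl
  obtain ⟨m, hm0, hm⟩ := Fermat.Agent.S59.LL.SQ.H40.exists_common_kernel_of_nilpotent
    (Module.finrank k K) K U' rfl hfr hcomm' hnil'
  exact ⟨m, m.2, fun h => hm0 (Subtype.ext h), fun i => congrArg Subtype.val (hm i)⟩

section Mod

variable {𝒪 : Type*} [CommRing 𝒪] [IsLocalRing 𝒪]
  {W : Type*} [AddCommGroup W] [Module 𝒪 W] [Module.Finite 𝒪 W]

/-- **A common eigenvector modulo the maximal ideal** in a stable submodule. -/
theorem exists_common_eigen_mod {ι : Type*} (U : ι → Module.End 𝒪 W)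
    (hcomm : ∀ i j w, U i (U j w) - U j (U i w) ∈ (maximalIdeal 𝒪 • ⊤ : Submodule 𝒪 W))
    (hnil : ∀ i, ∃ m : ℕ, ∀ w, ((U i) ^ m) w ∈ (maximalIdeal 𝒪 • ⊤ : Submodule 𝒪 W))
    (K : Submodule 𝒪 W) (hK : ∀ i, ∀ w ∈ K, U i w ∈ K)
    (hne : ¬ K ≤ (maximalIdeal 𝒪 • ⊤ : Submodule 𝒪 W)) :
    ∃ w ∈ K, w ∉ (maximalIdeal 𝒪 • ⊤ : Submodule 𝒪 W) ∧
      ∀ i, U i w ∈ (maximalIdeal 𝒪 • ⊤ : Submodule 𝒪 W) := by
  classical
  set I : Ideal 𝒪 := maximalIdeal 𝒪 with hI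
  set P : Submodule 𝒪 W := I • ⊤ with hP
  letI : Field (𝒪 ⧸ I) := Ideal.Quotient.field I
  have hsurj : Function.Surjective (algebraMap 𝒪 (𝒪 ⧸ I)) := Ideal.Quotient.mk_surjective
  haveI : Module.Finite (𝒪 ⧸ I) (W ⧸ P) := Module.Finite.of_restrictScalars_finite 𝒪 _ _
  -- the operators on the quotient
  let Ub : ι → Module.End (𝒪 ⧸ I) (W ⧸ P) := fun i =>
    LinearMap.extendScalarsOfSurjective hsurj
      (Submodule.mapQ P P (U i) (Submodule.smul_top_le_comap_smul_top I (U i)))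
  have hUb : ∀ i w, Ub i (Submodule.Quotient.mk w) = Submodule.Quotient.mk (U i w) := by
    intro i w
    rfl
  have hUbpow : ∀ i (e : ℕ) w,
      ((Ub i) ^ e) (Submodule.Quotient.mk w) = Submodule.Quotient.mk (((U i) ^ e) w) := by
    intro i e
    induction e with
    | zero => intro w; rfl
    | succ e ihe =>
      intro w
      rw [pow_succ, pow_succ, Module.End.mul_apply, Module.End.mul_apply, hUb, ihe]
  have hcommb : ∀ i j, Commute (Ub i) (Ub j) := by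
    intro i j
    apply LinearMap.ext
    intro x
    obtain ⟨w, rfl⟩ := Submodule.Quotient.mk_surjective P x
    rw [Module.End.mul_apply, Module.End.mul_apply, hUb, hUb, hUb, hUb,
      Submodule.Quotient.eq]
    exact hcomm i j w
  have hnilb : ∀ i, IsNilpotent (Ub i) := by
    intro i
    obtain ⟨m, hm⟩ := hnil i
    refine ⟨m, ?_⟩
    apply LinearMap.ext
    intro x
    obtain ⟨w, rfl⟩ := Submodule.Quotient.mk_surjective P x
    rw [hUbpow, LinearMap.zero_apply, Submodule.Quotient.mk_eq_zero]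
    exact hm w
  -- the image of `K`
  let Kb : Submodule (𝒪 ⧸ I) (W ⧸ P) :=
    { carrier := {x | ∃ w ∈ K, Submodule.Quotient.mk w = x}
      add_mem' := by
        rintro _ _ ⟨w, hw, rfl⟩ ⟨w', hw', rfl⟩
        exact ⟨w + w', K.add_mem hw hw', rfl⟩
      zero_mem' := ⟨0, K.zero_mem, rfl⟩
      smul_mem' := by
        rintro c _ ⟨w, hw, rfl⟩
        obtain ⟨c, rfl⟩ := Ideal.Quotient.mk_surjective c
        exact ⟨c • w, K.smul_mem c hw, rfl⟩ }
  have hKb : ∀ i, ∀ x ∈ Kb, Ub i x ∈ Kb := by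
    rintro i _ ⟨w, hw, rfl⟩
    exact ⟨U i w, hK i w hw, (hUb i w).symm⟩
  have hKbne : Kb ≠ ⊥ := by
    intro h
    apply hne
    intro w hw
    have h1 : (Submodule.Quotient.mk w : W ⧸ P) ∈ Kb := ⟨w, hw, rfl⟩
    rw [h, Submodule.mem_bot, Submodule.Quotient.mk_eq_zero] at h1
    exact h1
  obtain ⟨x, ⟨w, hw, rfl⟩, hx0, hx⟩ := exists_common_kernel_in Ub hcommb hnilb Kb hKb hKbne
  refine ⟨w, hw, ?_, ?_⟩
  · intro h
    exact hx0 ((Submodule.Quotient.mk_eq_zero P).mpr h)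
  · intro i
    have := hx i
    rw [hUb, Submodule.Quotient.mk_eq_zero] at this
    exact this

end Mod

end Fermat.Agent.S59.NonMin.Geom.H53

end
-- ==== END Fermat.Agent.S59.NonMin.Geom.H53_CommonEigen

-- ==== BEGIN Fermat.Agent.S59.NonMin.Geom.H61_BM
section

/-!
# S59 NMGEOM, leaf BM (helper61): the Betti lattice is a Hecke module

`stmt_BM : Stmt_BM`.  In a universal basis `b` of the parabolic homomorphisms
(`Betti.stmt_basis`) the parabolic homomorphisms `Γ₀(N) → 𝒪` are `𝒪^r` (`bmPhi`), the Hecke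
algebra acts by the integer matrices of `Betti.H76.stmt_matrixRep` (`bmEta`), and the Betti lattice
is `locSub K (bmEta) θ G` of `H61_BMAlg.lean`, `K` the common kernel of the `U_r`, `r ∈ Sig`.

Reusable: `bmPhi`, `bmPhi_par`, `bmPhi_injective`, `bmPhi_surj`, `heckeOp_bmPhi`,
`bmPhi_mem_iff` (values in `𝔪^m` iff coordinates in `𝔪^m`), `hom_div` (division of a homomorphism
with values in `𝔪^m` by `ϖ^m`).
-/

set_option autoImplicit false

open Polynomial CuspForm CongruenceSubgroup IsLocalRing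
open scoped MatrixGroups

namespace Fermat.Agent.S59.NonMin.Geom.H61

open Fermat.Agent.S41 Fermat.Agent.Betti Fermat.Agent.S59 Fermat.Agent.S59.Asm
open ModularCurve.Period
open Fermat.Agent.S59.NonMin.Geom

section Phi

variable (𝒪 : Type) [CommRing 𝒪] {N : ℕ} {r : ℕ} (b : Fin r → (Additive (Gamma0 N) →+ ℤ))

/-- The coordinate map `a ↦ ∑ i, a i • b i` from `𝒪^r` to `Hom(Γ₀(N), 𝒪)`. -/
noncomputable def bmPhi : (Fin r → 𝒪) →ₗ[𝒪] (Additive (Gamma0 N) →+ 𝒪) where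
  toFun a := ∑ i, a i • (Int.castAddHom 𝒪).comp (b i)
  map_add' a a' := by
    simp only [Pi.add_apply, add_smul, Finset.sum_add_distrib]
  map_smul' c a := by
    simp only [Pi.smul_apply, smul_eq_mul, mul_smul, Finset.smul_sum, RingHom.id_apply]

theorem bmPhi_apply (a : Fin r → 𝒪) (γ : Additive (Gamma0 N)) :
    bmPhi 𝒪 b a γ = ∑ i, a i * ((b i γ : ℤ) : 𝒪) := by
  simp [bmPhi]

variable {𝒪 b}

theorem bmPhi_par (hb : IsParBasis N b) (a : Fin r → 𝒪) :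
    IsParabolicHom (Gamma0 N) (bmPhi 𝒪 b a) := by
  intro γ hγ
  rw [bmPhi_apply]
  refine Finset.sum_eq_zero fun i _ => ?_
  rw [hb.1 i γ hγ, Int.cast_zero, mul_zero]

theorem bmPhi_rep (a : Fin r → 𝒪) (γ : Additive (Gamma0 N)) :
    bmPhi 𝒪 b a γ = ∑ i, b i γ • a i := by
  rw [bmPhi_apply]
  exact Finset.sum_congr rfl fun i _ => by rw [zsmul_eq_mul, mul_comm]

theorem bmPhi_injective [IsAddTorsionFree 𝒪] (hb : IsParBasis N b) :
    Function.Injective (bmPhi 𝒪 b) := by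
  intro a a' h
  obtain ⟨c, -, hc⟩ := hb.2 𝒪 (bmPhi 𝒪 b a) (bmPhi_par hb a)
  have h1 : a = c := hc a (fun γ => bmPhi_rep a γ)
  have h2 : a' = c := hc a' (fun γ => by rw [h]; exact bmPhi_rep a' γ)
  rw [h1, h2]

theorem bmPhi_surj [IsAddTorsionFree 𝒪] (hb : IsParBasis N b) (φ : Additive (Gamma0 N) →+ 𝒪)
    (hφ : IsParabolicHom (Gamma0 N) φ) : ∃ a : Fin r → 𝒪, bmPhi 𝒪 b a = φ := by
  obtain ⟨c, hc, -⟩ := hb.2 𝒪 φ hφ
  exact ⟨c, AddMonoidHom.ext fun γ => by rw [bmPhi_rep, hc γ]⟩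

/-- The Hecke operator of a Hecke family in the coordinates. -/
theorem heckeOp_bmPhi {ι : Type*} [Fintype ι] {rep : ι → GL (Fin 2) ℝ}
    (H : IsHeckeFamily (incl N) rep) (Mt : Matrix (Fin r) (Fin r) ℤ)
    (hM : ∀ j, H.heckeOp (incl_injective N) (b j) = ∑ i, Mt i j • b i) (a : Fin r → 𝒪) :
    H.heckeOp (incl_injective N) (bmPhi 𝒪 b a)
      = bmPhi 𝒪 b ((Mt.map (Int.cast : ℤ → 𝒪)).mulVec a) := by
  refine AddMonoidHom.ext fun γ' => ?_
  set γ : Gamma0 N := Additive.toMul γ' with hγ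
  show (H.heckeOp (incl_injective N) (bmPhi 𝒪 b a)) (Additive.ofMul γ)
    = (bmPhi 𝒪 b ((Mt.map (Int.cast : ℤ → 𝒪)).mulVec a)) (Additive.ofMul γ)
  rw [H.heckeOp_apply, bmPhi_apply]
  simp only [bmPhi_apply]
  rw [Finset.sum_comm]
  have h1 : ∀ j, ∑ x, a j * ((b j (Additive.ofMul (H.kap γ x)) : ℤ) : 𝒪)
      = a j * ∑ i, ((Mt i j : ℤ) : 𝒪) * ((b i (Additive.ofMul γ) : ℤ) : 𝒪) := by
    intro j
    rw [← Finset.mul_sum]
    congr 1
    have h2 := congrArg (fun φ : Additive (Gamma0 N) →+ ℤ => φ (Additive.ofMul γ)) (hM j)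
    simp only [H.heckeOp_apply, AddMonoidHom.finsetSum_apply, AddMonoidHom.smul_apply,
      smul_eq_mul] at h2
    rw [← Int.cast_sum, h2]
    push_cast
    rfl
  rw [Finset.sum_congr rfl fun j _ => h1 j]
  simp only [Matrix.mulVec, Matrix.map_apply, dotProduct, Finset.sum_mul, Finset.mul_sum]
  rw [Finset.sum_comm]
  exact Finset.sum_congr rfl fun i _ => Finset.sum_congr rfl fun j _ => by ring

end Phi

section Div

variable {𝒪 : Type} [CommRing 𝒪] [IsDomain 𝒪] [IsDiscreteValuationRing 𝒪] {N : ℕ}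

/-- Division by `ϖ^m` of a homomorphism with values in `𝔪^m`. -/
theorem hom_div {ϖ : 𝒪} (hϖ : Irreducible ϖ) (m : ℕ) (φ : Additive (Gamma0 N) →+ 𝒪)
    (h : ∀ γ, φ γ ∈ maximalIdeal 𝒪 ^ m) :
    ∃ ψ : Additive (Gamma0 N) →+ 𝒪, ϖ ^ m • ψ = φ := by
  have hne : ϖ ^ m ≠ 0 := pow_ne_zero m hϖ.ne_zero
  have h1 : ∀ γ, ∃ c : 𝒪, ϖ ^ m * c = φ γ := by
    intro γ
    have := h γ
    rw [hϖ.maximalIdeal_eq, Ideal.span_singleton_pow, Ideal.mem_span_singleton'] at this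
    obtain ⟨c, hc⟩ := this
    exact ⟨c, by rw [mul_comm, hc]⟩
  choose f hf using h1
  refine ⟨AddMonoidHom.mk' f fun x y => ?_, ?_⟩
  · apply mul_left_cancel₀ hne
    rw [mul_add, hf, hf, hf, map_add]
  · refine AddMonoidHom.ext fun γ => ?_
    show ϖ ^ m • f γ = φ γ
    rw [smul_eq_mul, hf]

theorem par_of_smul_par {c : 𝒪} (hc : c ≠ 0) (ψ : Additive (Gamma0 N) →+ 𝒪)
    (h : IsParabolicHom (Gamma0 N) (c • ψ)) : IsParabolicHom (Gamma0 N) ψ := by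
  intro γ hγ
  have h1 : c * ψ (Additive.ofMul γ) = 0 := h γ hγ
  exact (mul_eq_zero.mp h1).resolve_left hc

theorem eq_zero_of_smul_eq_zero {c : 𝒪} (hc : c ≠ 0) (ψ : Additive (Gamma0 N) →+ 𝒪)
    (h : c • ψ = 0) : ψ = 0 := by
  refine AddMonoidHom.ext fun γ => ?_
  have h1 : c * ψ γ = 0 := congrArg (fun χ : Additive (Gamma0 N) →+ 𝒪 => χ γ) h
  exact (mul_eq_zero.mp h1).resolve_left hc

variable {r : ℕ} {b : Fin r → (Additive (Gamma0 N) →+ ℤ)}

/-- `bmPhi w` has values in `𝔪^m` iff the coordinates of `w` are in `𝔪^m`. -/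
theorem bmPhi_mem_iff [IsAddTorsionFree 𝒪] (hb : IsParBasis N b) (m : ℕ) (w : Fin r → 𝒪) :
    (∀ γ, bmPhi 𝒪 b w γ ∈ maximalIdeal 𝒪 ^ m) ↔
      w ∈ (maximalIdeal 𝒪 ^ m • ⊤ : Submodule 𝒪 (Fin r → 𝒪)) := by
  obtain ⟨ϖ, hϖ⟩ := IsDiscreteValuationRing.exists_irreducible 𝒪
  have hne : ϖ ^ m ≠ 0 := pow_ne_zero m hϖ.ne_zero
  rw [mem_pow_smul_top_iff hϖ]
  constructor
  · intro h
    obtain ⟨ψ, hψ⟩ := hom_div hϖ m _ h
    have hpar : IsParabolicHom (Gamma0 N) ψ := by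
      apply par_of_smul_par hne
      rw [hψ]
      exact bmPhi_par hb w
    obtain ⟨y, hy⟩ := bmPhi_surj hb ψ hpar
    refine ⟨y, bmPhi_injective hb ?_⟩
    rw [map_smul, hy, hψ]
  · rintro ⟨y, rfl⟩ γ
    rw [map_smul]
    show ϖ ^ m • (bmPhi 𝒪 b y γ) ∈ _
    rw [smul_eq_mul]
    exact Ideal.mul_mem_right _ _ (Ideal.pow_mem_pow (hϖ.maximalIdeal_eq ▸
      Ideal.mem_span_singleton_self ϖ) m)

end Div

section Eta

variable (𝒪 : Type) [CommRing 𝒪] {r : ℕ} {R : Type*} [Ring R]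

/-- The action of `R` on `𝒪^r` through integer matrices. -/
noncomputable def bmEta (Mat : R →+* Matrix (Fin r) (Fin r) ℤ) :
    R →+* Module.End 𝒪 (Fin r → 𝒪) :=
  ((Matrix.toLinAlgEquiv' (R := 𝒪) (n := Fin r)).toAlgHom.toRingHom).comp
    (((Int.castRingHom 𝒪).mapMatrix).comp Mat)

theorem bmEta_apply (Mat : R →+* Matrix (Fin r) (Fin r) ℤ) (t : R) (a : Fin r → 𝒪) :
    bmEta 𝒪 Mat t a = ((Mat t).map (Int.cast : ℤ → 𝒪)).mulVec a := rfl

variable {𝒪} {N : ℕ} {b : Fin r → (Additive (Gamma0 N) →+ ℤ)}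

/-- The iterates of `T - a` in the coordinates. -/
theorem iterate_bmPhi (Top : (Additive (Gamma0 N) →+ 𝒪) →+ (Additive (Gamma0 N) →+ 𝒪))
    (f : Module.End 𝒪 (Fin r → 𝒪)) (a : 𝒪)
    (h : ∀ v, Top (bmPhi 𝒪 b v) = bmPhi 𝒪 b (f v)) (n : ℕ) (v : Fin r → 𝒪) :
    (fun χ : Additive (Gamma0 N) →+ 𝒪 => Top χ - a • χ)^[n] (bmPhi 𝒪 b v)
      = bmPhi 𝒪 b (((f - a • (1 : Module.End 𝒪 (Fin r → 𝒪))) ^ n) v) := by
  induction n with
  | zero => simp
  | succ n ih =>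
    rw [Function.iterate_succ_apply', ih, pow_succ', Module.End.mul_apply, h,
      LinearMap.sub_apply, LinearMap.smul_apply, Module.End.one_apply, map_sub, map_smul]

end Eta

section Main

variable {𝒪 : Type} [CommRing 𝒪] [IsDomain 𝒪] [IsDiscreteValuationRing 𝒪] [CharZero 𝒪]
  {N : ℕ} [NeZero N]

/-- The common kernel of the `U_q`, `q ∈ Sig`, in the coordinates. -/
noncomputable def bmK {r : ℕ} (b : Fin r → (Additive (Gamma0 N) →+ ℤ)) (Sig : Finset ℕ) :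
    Submodule 𝒪 (Fin r → 𝒪) where
  carrier := {a | ∀ q ∈ Sig, ∀ hq : q ∣ N, UB N 𝒪 hq (bmPhi 𝒪 b a) = 0}
  add_mem' := by
    intro a a' ha ha' q hq hqN
    rw [map_add, map_add, ha q hq hqN, ha' q hq hqN, add_zero]
  zero_mem' := by
    intro q hq hqN
    rw [map_zero, map_zero]
  smul_mem' := by
    intro c a ha q hq hqN
    have : NeZero q := neZero_of_dvd hqN
    have h1 : UB N 𝒪 hqN (c • bmPhi 𝒪 b a) = c • UB N 𝒪 hqN (bmPhi 𝒪 b a) :=
      ((isHeckeFamily_U N hqN).heckeOpLin (incl_injective N) 𝒪).map_smul c _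
    rw [map_smul, h1, ha q hq hqN, smul_zero]

theorem mem_bmK {r : ℕ} {b : Fin r → (Additive (Gamma0 N) →+ ℤ)} {Sig : Finset ℕ}
    {a : Fin r → 𝒪} :
    a ∈ bmK (𝒪 := 𝒪) b Sig ↔ ∀ q ∈ Sig, ∀ hq : q ∣ N, UB N 𝒪 hq (bmPhi 𝒪 b a) = 0 := Iff.rfl

/-- The generators `T_ℓ` of the Hecke algebra. -/
def bmG (N : ℕ) [NeZero N] (S : Set ℕ) : Set (CuspForm.heckeAlgebra N 2 S) :=
  {t | ∃ (ℓ : ℕ) (hℓ : ℓ.Prime) (hℓN : ¬ ℓ ∣ N) (hℓS : ℓ ∉ S),
    t = CuspForm.heckeAlgebra.T hℓ hℓN hℓS}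

theorem adjoin_bmG (S : Set ℕ) (hS : ∀ q : ℕ, q.Prime → q ∣ N → q ∈ S) :
    Algebra.adjoin ℤ (bmG N S) = ⊤ := by
  have h1 : Algebra.adjoin ℤ
      ((Subtype.val : CuspForm.heckeAlgebra N 2 S → _) ⁻¹' CuspForm.heckeGenerators N 2 S) = ⊤ :=
    Algebra.adjoin_adjoin_coe_preimage
  have h2 : (Subtype.val : CuspForm.heckeAlgebra N 2 S → _) ⁻¹' CuspForm.heckeGenerators N 2 S
      ⊆ bmG N S := by
    rintro ⟨t, ht⟩ (⟨ℓ, hℓ, hℓN, hℓS, h⟩ | ⟨q, hqN, hq, hqS, -⟩)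
    · exact ⟨ℓ, hℓ, hℓN, hℓS, Subtype.ext h⟩
    · exact absurd (hS q hq hqN) hqS
  exact top_le_iff.mp (h1 ▸ Algebra.adjoin_mono h2)

section Core

variable {r : ℕ} {b : Fin r → (Additive (Gamma0 N) →+ ℤ)} {S : Set ℕ}
  {Mat : CuspForm.heckeAlgebra N 2 S →+* Matrix (Fin r) (Fin r) ℤ}

/-- The Hecke operators `T_ℓ` in the coordinates. -/
theorem bm_TB
    (hT : ∀ (ℓ : ℕ) (hℓ : ℓ.Prime) (hℓN : ¬ ℓ ∣ N) (hℓS : ℓ ∉ S) (j : Fin r),
      TB N ℤ hℓ hℓN (b j) = ∑ i, Mat (CuspForm.heckeAlgebra.T hℓ hℓN hℓS) i j • b i)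
    (ℓ : ℕ) (hℓ : ℓ.Prime) (hℓN : ¬ ℓ ∣ N) (hℓS : ℓ ∉ S) (v : Fin r → 𝒪) :
    TB N 𝒪 hℓ hℓN (bmPhi 𝒪 b v)
      = bmPhi 𝒪 b (bmEta 𝒪 Mat (CuspForm.heckeAlgebra.T hℓ hℓN hℓS) v) := by
  have : Fact ℓ.Prime := ⟨hℓ⟩
  exact heckeOp_bmPhi (isHeckeFamily_T N hℓN) _ (fun j => hT ℓ hℓ hℓN hℓS j) v

theorem bmK_gen (hb : IsParBasis N b)
    (hT : ∀ (ℓ : ℕ) (hℓ : ℓ.Prime) (hℓN : ¬ ℓ ∣ N) (hℓS : ℓ ∉ S) (j : Fin r),
      TB N ℤ hℓ hℓN (b j) = ∑ i, Mat (CuspForm.heckeAlgebra.T hℓ hℓN hℓS) i j • b i)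
    {Sig : Finset ℕ} (hSig : ∀ q ∈ Sig, q.Prime) :
    ∀ g ∈ bmG N S, ∀ v ∈ bmK (𝒪 := 𝒪) b Sig, bmEta 𝒪 Mat g v ∈ bmK (𝒪 := 𝒪) b Sig := by
  rintro g ⟨ℓ, hℓ, hℓN, hℓS, rfl⟩ v hv q hq hqN
  rw [← bm_TB hT ℓ hℓ hℓN hℓS v,
    Fermat.Agent.S59.NonMin.Geom.H53.UB_TB_comm 𝒪 (hSig q hq) hqN hℓ hℓN _ (bmPhi_par hb v),
    hv q hq hqN, map_zero]

theorem bmK_sat {Sig : Finset ℕ} {ϖ : 𝒪} (hϖ : ϖ ≠ 0) (v : Fin r → 𝒪)
    (hv : ϖ • v ∈ bmK (𝒪 := 𝒪) b Sig) : v ∈ bmK (𝒪 := 𝒪) b Sig := by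
  intro q hq hqN
  have : NeZero q := neZero_of_dvd hqN
  have h1 : UB N 𝒪 hqN (ϖ • bmPhi 𝒪 b v) = ϖ • UB N 𝒪 hqN (bmPhi 𝒪 b v) :=
    ((isHeckeFamily_U N hqN).heckeOpLin (incl_injective N) 𝒪).map_smul ϖ _
  have h2 := hv q hq hqN
  rw [map_smul, h1] at h2
  exact eq_zero_of_smul_eq_zero hϖ _ h2

variable (b Mat)

/-- The Betti lattice in the coordinates. -/
noncomputable def bmV (θ : CuspForm.heckeAlgebra N 2 S →+* ResidueField 𝒪) (Sig : Finset ℕ) :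
    Submodule 𝒪 (Fin r → 𝒪) :=
  locSub (bmK (𝒪 := 𝒪) b Sig) (bmEta 𝒪 Mat) θ (bmG N S)

variable {b Mat}

/-- The characterisation of the Betti lattice. -/
theorem bmV_iff (hb : IsParBasis N b)
    (hT : ∀ (ℓ : ℕ) (hℓ : ℓ.Prime) (hℓN : ¬ ℓ ∣ N) (hℓS : ℓ ∉ S) (j : Fin r),
      TB N ℤ hℓ hℓN (b j) = ∑ i, Mat (CuspForm.heckeAlgebra.T hℓ hℓN hℓS) i j • b i)
    (θ : CuspForm.heckeAlgebra N 2 S →+* ResidueField 𝒪) (Sig : Finset ℕ)
    (φ : Additive (Gamma0 N) →+ 𝒪) :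
    (∃ v : bmV b Mat θ Sig, bmPhi 𝒪 b (v : Fin r → 𝒪) = φ) ↔ InBetti 𝒪 N S θ Sig φ := by
  constructor
  · rintro ⟨⟨v, hv⟩, rfl⟩
    refine ⟨bmPhi_par hb v, fun q hq hqN => hv.1 q hq hqN, ?_⟩
    intro ℓ hℓ hℓN hℓS a ha m
    obtain ⟨n, hn⟩ := hv.2 _ ⟨ℓ, hℓ, hℓN, hℓS, rfl⟩ a ha m
    refine ⟨n, ?_⟩
    have h3 := iterate_bmPhi (b := b) (TB N 𝒪 hℓ hℓN)
      (bmEta 𝒪 Mat (CuspForm.heckeAlgebra.T hℓ hℓN hℓS)) a (bm_TB hT ℓ hℓ hℓN hℓS) n v
    intro γ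
    have h4 := (bmPhi_mem_iff hb m _).mpr hn γ
    rw [← h3] at h4
    exact h4
  · rintro ⟨hpar, hU, hloc⟩
    obtain ⟨v, rfl⟩ := bmPhi_surj hb φ hpar
    have hv : v ∈ bmV b Mat θ Sig := by
      refine ⟨fun q hq hqN => hU q hq hqN, ?_⟩
      rintro g ⟨ℓ, hℓ, hℓN, hℓS, rfl⟩ a ha m
      obtain ⟨n, hn⟩ := hloc ℓ hℓ hℓN hℓS a ha m
      refine ⟨n, ?_⟩
      have h3 := iterate_bmPhi (b := b) (TB N 𝒪 hℓ hℓN)
        (bmEta 𝒪 Mat (CuspForm.heckeAlgebra.T hℓ hℓN hℓS)) a (bm_TB hT ℓ hℓ hℓN hℓS) n v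
      rw [← bmPhi_mem_iff hb m, ← h3]
      exact hn
    exact ⟨⟨v, hv⟩, rfl⟩

end Core

/-- **BM**. -/
theorem stmt_BM : Stmt_BM := by
  intro 𝒪 _ _ _ _ _ _ N _ S hS θ Sig hSig
  classical
  obtain ⟨r, b, hb⟩ := stmt_basis N
  obtain ⟨Mat, -, hT, -⟩ := Fermat.Agent.Betti.H76.stmt_matrixRep N (↑S : Set ℕ) r b hb
  obtain ⟨ϖ, hϖ⟩ := IsDiscreteValuationRing.exists_irreducible 𝒪
  have hG := adjoin_bmG (N := N) (↑S : Set ℕ) hS
  have hKst := stable_of_gen hG (bmK_gen (𝒪 := 𝒪) hb hT hSig)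
  have hKsat : ∀ v : Fin r → 𝒪, ϖ • v ∈ bmK (𝒪 := 𝒪) b Sig → v ∈ bmK (𝒪 := 𝒪) b Sig :=
    fun v hv => bmK_sat hϖ.ne_zero v hv
  have hrange := bmV_iff (𝒪 := 𝒪) hb hT θ Sig
  have hequiv : ∀ (ℓ : ℕ) (hℓ : ℓ.Prime) (hℓN : ¬ ℓ ∣ N) (hℓS : ℓ ∉ (↑S : Set ℕ))
      (v : bmV b Mat θ Sig),
      bmPhi 𝒪 b (bmEta 𝒪 Mat (CuspForm.heckeAlgebra.T hℓ hℓN hℓS) (v : Fin r → 𝒪))
        = TB N 𝒪 hℓ hℓN (bmPhi 𝒪 b (v : Fin r → 𝒪)) :=
    fun ℓ hℓ hℓN hℓS v => (bm_TB hT ℓ hℓ hℓN hℓS v.1).symm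
  have hinj : Function.Injective ((bmPhi 𝒪 b).comp (bmV b Mat θ Sig).subtype) :=
    (bmPhi_injective hb).comp Subtype.val_injective
  exact ⟨{ V := bmV b Mat θ Sig
           η := restrictHom (bmV b Mat θ Sig) (bmEta 𝒪 Mat) (locSub_stable hKst)
           η_local := fun t a ha => locSub_local hG hϖ hKst hKsat t a ha },
    (bmPhi 𝒪 b).comp (bmV b Mat θ Sig).subtype, hinj, fun φ => hrange φ,
    fun ℓ hℓ hℓN hℓS v => hequiv ℓ hℓ hℓN hℓS v⟩

end Main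

end Fermat.Agent.S59.NonMin.Geom.H61

end
-- ==== END Fermat.Agent.S59.NonMin.Geom.H61_BM

-- ==== BEGIN Fermat.Agent.S59.NonMin.Geom.H72_RelBase
section

/-!
# S59 / NMGEOM: base lemmas for the relations REL1..3 (helper72)

Reusable facts about the tower `Γ₀(M q) ⊆ Γ₀(M)` when `q ∣ M` (index `q`) and about the
degeneracy maps through the middle level.

* `tLow M q j = [[1,0],[M j,1]]`, `j < q`: representatives of `Γ₀(M) / Γ₀(M q)` when `q ∣ M`
  (`isReps_tLow`), hence `index_inclG_of_dvd`, `finiteIndex_inclG_of_dvd`,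
  `cor1_res1_of_dvd : cor1 ∘ res1 = q`;
* `tHigh huv` : `none ↦ g0`, `some j ↦ tLow N q j`: representatives of `Γ₀(N) / Γ₀(N q)`, `q ∤ N`
  (`isReps_tHigh`);
* `isReps_of_range_eq`, `index_of_isReps`;
* `Tdag_res2` : `c₁'' r₂'' r₂ = r₂ T - r₁`  (`c₁'' r₂''` is the adjoint `U†` of `U_q` at level `N q`).
-/

set_option autoImplicit false

open scoped MatrixGroups
open CongruenceSubgroup Matrix

namespace Fermat.Agent.S59.NonMin.Geom.H72R

open Fermat.Agent.S41 Fermat.Agent.S41.H19 Fermat.Agent.S41.H77 Fermat.Agent.S41.H39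

/-! ### Generalities on representatives -/

section Gen

variable {H H' G : Type*} [Group H] [Group H'] [Group G]

theorem isReps_of_range_eq {ι : H →* G} {ι' : H' →* G} (h : ι.range = ι'.range) {I : Type*}
    {t : I → G} (ht : IsReps ι t) : IsReps ι' t :=
  ⟨fun i j hij => ht.inj i j (h ▸ hij), fun g => by
    obtain ⟨i, hi⟩ := ht.surj g
    exact ⟨i, h ▸ hi⟩⟩

theorem index_of_isReps {ι : H →* G} {I : Type*} [Fintype I] {t : I → G} (ht : IsReps ι t) :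
    ι.range.index = Fintype.card I := by
  rw [Subgroup.index_eq_card, ← Nat.card_eq_fintype_card]
  exact (Nat.card_eq_of_bijective _ ht.bijective).symm

end Gen

/-! ### The representatives `[[1,0],[M j,1]]` -/

section Low

variable {M q : ℕ}

/-- `[[1,0],[M j,1]] ∈ Γ₀(M)`. -/
def tLow (M q : ℕ) (j : Fin q) : Gamma0 M :=
  mkG0 M 1 0 ((M : ℤ) * ((j : ℕ) : ℤ)) 1 (by ring) (dvd_mul_right _ _)

lemma mat_tLow (j : Fin q) : mat (tLow M q j) = !![1, 0; (M : ℤ) * ((j : ℕ) : ℤ), 1] := rfl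

lemma fin_eq_of_dvd_sub {i j : Fin q} (h : (q : ℤ) ∣ ((j : ℕ) : ℤ) - ((i : ℕ) : ℤ)) : i = j := by
  have hi := i.2
  have hj := j.2
  apply Fin.ext
  have h1 : ((j : ℕ) : ℤ) % (q : ℤ) = ((i : ℕ) : ℤ) % (q : ℤ) :=
    Int.emod_eq_emod_iff_emod_sub_eq_zero.mpr (Int.emod_eq_zero_of_dvd h)
  rw [Int.emod_eq_of_lt (by positivity) (by exact_mod_cast hj),
    Int.emod_eq_of_lt (by positivity) (by exact_mod_cast hi)] at h1
  exact_mod_cast h1.symm

lemma dvd_of_mul_dvd_mul (hM : 0 < M) {x : ℤ} (h : ((M * q : ℕ) : ℤ) ∣ (M : ℤ) * x) :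
    (q : ℤ) ∣ x := by
  have hM' : (M : ℤ) ≠ 0 := by exact_mod_cast hM.ne'
  obtain ⟨c, hc⟩ := h
  refine ⟨c, ?_⟩
  have : (M : ℤ) * x = (M : ℤ) * ((q : ℤ) * c) := by push_cast at hc; linear_combination hc
  exact mul_left_cancel₀ hM' this

lemma mat10_tLow_inv_mul (i : Fin q) (g : Gamma0 M) :
    mat ((tLow M q i)⁻¹ * g) 1 0 = mat g 1 0 - (M : ℤ) * ((i : ℕ) : ℤ) * mat g 0 0 := by
  rw [mat_mul, H39.mat_inv, mat_tLow]
  simp only [Matrix.mul_apply, Fin.sum_univ_two, Matrix.of_apply, Matrix.cons_val',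
    Matrix.cons_val_zero, Matrix.cons_val_one, Matrix.empty_val', Matrix.cons_val_fin_one]
  ring

lemma tLow_inj (hM : 0 < M) (i j : Fin q)
    (h : (tLow M q i)⁻¹ * tLow M q j ∈ (inclG M q).range) : i = j := by
  rw [mem_range_inclG_iff, mat10_tLow_inv_mul, mat_tLow] at h
  simp only [Matrix.of_apply, Matrix.cons_val', Matrix.cons_val_zero, Matrix.cons_val_one,
    Matrix.empty_val', Matrix.cons_val_fin_one] at h
  apply fin_eq_of_dvd_sub
  apply dvd_of_mul_dvd_mul hM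
  convert h using 1
  ring

lemma tLow_surj (hq : 0 < q) (hqM : q ∣ M) (g : Gamma0 M) :
    ∃ i : Fin q, (tLow M q i)⁻¹ * g ∈ (inclG M q).range := by
  have hq' : (0 : ℤ) < (q : ℤ) := by exact_mod_cast hq
  obtain ⟨c', hc'⟩ := mat_dvd g
  have hdet := mat_det' g
  set j0 : ℤ := (c' * mat g 1 1) % (q : ℤ) with hj0
  have h0 : 0 ≤ j0 := Int.emod_nonneg _ hq'.ne'
  have h1 : j0 < (q : ℤ) := Int.emod_lt_of_pos _ hq'
  have hlt : j0.toNat < q := by
    have : (j0.toNat : ℤ) < (q : ℤ) := by rw [Int.toNat_of_nonneg h0]; exact h1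
    exact_mod_cast this
  refine ⟨⟨j0.toNat, hlt⟩, ?_⟩
  rw [mem_range_inclG_iff, mat10_tLow_inv_mul]
  simp only [Int.toNat_of_nonneg h0]
  obtain ⟨m, hm⟩ := hqM
  have hj : j0 = c' * mat g 1 1 - (q : ℤ) * ((c' * mat g 1 1) / (q : ℤ)) := by
    rw [hj0, Int.emod_def]
  refine ⟨(c' * mat g 1 1) / (q : ℤ) * mat g 0 0 - c' * c' * (m : ℤ) * mat g 0 1, ?_⟩
  have hMq : (M : ℤ) = (q : ℤ) * (m : ℤ) := by exact_mod_cast hm
  rw [hj]
  push_cast
  have e : mat g 1 0 = (M : ℤ) * c' := hc'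
  rw [e] at hdet ⊢
  linear_combination (-(M : ℤ) * c') * hdet - ((M : ℤ) * c' * c' * mat g 0 1) * hMq

theorem isReps_tLow (hM : 0 < M) (hq : 0 < q) (hqM : q ∣ M) : IsReps (inclG M q) (tLow M q) :=
  ⟨tLow_inj hM, tLow_surj hq hqM⟩

/-- `[Γ₀(M) : Γ₀(M q)] = q` when `q ∣ M`. -/
theorem index_inclG_of_dvd (hM : 0 < M) (hq : 0 < q) (hqM : q ∣ M) :
    (inclG M q).range.index = q := by
  rw [index_of_isReps (isReps_tLow hM hq hqM), Fintype.card_fin]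

theorem finiteIndex_inclG_of_dvd (hM : 0 < M) (hq : 0 < q) (hqM : q ∣ M) :
    (inclG M q).range.FiniteIndex :=
  ⟨by rw [index_inclG_of_dvd hM hq hqM]; exact hq.ne'⟩

/-- `c₁ r₁ = q` at a level `M` divisible by `q`. -/
theorem cor1_res1_of_dvd (hM : 0 < M) (hq : 0 < q) (hqM : q ∣ M) {A : Type*} [AddCommGroup A]
    (φ : Additive (Gamma0 M) →+ A) : cor1 M q A (res1 M q A φ) = q • φ := by
  have := finiteIndex_inclG_of_dvd hM hq hqM
  unfold cor1 res1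
  rw [corAlong_resAlong _ (inclG_injective M q), index_inclG_of_dvd hM hq hqM]

end Low

/-! ### Representatives of `Γ₀(N) / Γ₀(N q)`, `q ∤ N`, adapted to `conjG` -/

section High

variable {N q : ℕ} {u v : ℤ} (huv : (q : ℤ) * u + (N : ℤ) * v = 1)

/-- `none ↦ g0 = [[q,v],[-N,u]]`, `some j ↦ [[1,0],[N j,1]]`. -/
def tHigh : Option (Fin q) → Gamma0 N
  | none => g0 huv
  | some j => tLow N q j

lemma tHigh_inj (hN : 0 < N) (hq : q.Prime) (i j : Option (Fin q))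
    (h : (tHigh huv i)⁻¹ * tHigh huv j ∈ (inclG N q).range) : i = j := by
  have hq1 : ¬ (q : ℤ) ∣ 1 := by
    intro hd
    have := Int.natAbs_dvd_natAbs.mpr hd
    simp at this
    exact hq.one_lt.ne' this
  rcases i with _ | i <;> rcases j with _ | j
  · rfl
  · exfalso
    rw [mem_range_inclG_iff] at h
    simp only [tHigh] at h
    rw [mat_mul, H39.mat_inv, mat_g0, mat_tLow] at h
    simp only [Matrix.mul_apply, Fin.sum_univ_two, Matrix.of_apply, Matrix.cons_val',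
      Matrix.cons_val_zero, Matrix.cons_val_one, Matrix.empty_val', Matrix.cons_val_fin_one] at h
    have h2 : (q : ℤ) ∣ 1 + (q : ℤ) * ((j : ℕ) : ℤ) :=
      dvd_of_mul_dvd_mul hN (by convert h using 1; ring)
    exact hq1 ((dvd_add_left (dvd_mul_right _ _)).mp h2)
  · exfalso
    rw [mem_range_inclG_iff] at h
    simp only [tHigh] at h
    rw [mat10_tLow_inv_mul, mat_g0] at h
    simp only [Matrix.of_apply, Matrix.cons_val', Matrix.cons_val_zero, Matrix.cons_val_one,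
      Matrix.empty_val', Matrix.cons_val_fin_one] at h
    have h2 : (q : ℤ) ∣ -(1 + (q : ℤ) * ((i : ℕ) : ℤ)) :=
      dvd_of_mul_dvd_mul hN (by convert h using 1; ring)
    exact hq1 ((dvd_add_left (dvd_mul_right _ _)).mp (dvd_neg.mp h2))
  · congr 1
    exact tLow_inj hN i j h

theorem isReps_tHigh (hN : 0 < N) (hq : q.Prime) (hqN : ¬ q ∣ N) :
    IsReps (inclG N q) (tHigh huv) := by
  have := finiteIndex_inclG hN hq hqN
  have hinj : Function.Injective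
      (fun i : Option (Fin q) => (tHigh huv i : Gamma0 N ⧸ (inclG N q).range)) := by
    intro i j hij
    exact tHigh_inj huv hN hq i j (QuotientGroup.eq.mp hij)
  have hcard : Nat.card (Gamma0 N ⧸ (inclG N q).range) ≤ Nat.card (Option (Fin q)) := by
    rw [← Subgroup.index_eq_card, index_inclG hN hq hqN, Nat.card_eq_fintype_card,
      Fintype.card_option, Fintype.card_fin]
  have hbij := hinj.bijective_of_nat_card_le hcard
  refine ⟨tHigh_inj huv hN hq, fun g => ?_⟩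
  obtain ⟨i, hi⟩ := hbij.2 (g : Gamma0 N ⧸ (inclG N q).range)
  exact ⟨i, QuotientGroup.eq.mp hi⟩

end High

/-! ### The relation `U† r₂ = r₂ T - r₁` -/

section Dag

variable {N q : ℕ}

theorem conjG_tLow (hq : q ≠ 0) (j : Fin q) : conjG N q (tLow (N * q) q j) = tLow N q j := by
  have hq' : (q : ℤ) ≠ 0 := by exact_mod_cast hq
  apply mat_injective
  rw [mat_conjG, mat_tLow, mat_tLow]
  have e : (N : ℤ) * (q : ℤ) * ((j : ℕ) : ℤ) / (q : ℤ) = (N : ℤ) * ((j : ℕ) : ℤ) := by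
    rw [show (N : ℤ) * (q : ℤ) * ((j : ℕ) : ℤ) = (q : ℤ) * ((N : ℤ) * ((j : ℕ) : ℤ)) by
      ring, Int.mul_ediv_cancel_left _ hq']
  ext a b
  fin_cases a <;> fin_cases b <;> simp [conjMat, e]

theorem conjG_inclG_comm (x : Gamma0 (N * q * q)) :
    conjG N q (inclG (N * q) q x) = inclG N q (conjG (N * q) q x) := rfl

/-- **`U† r₂ = r₂ T - r₁`** (`U† = c₁'' r₂''` at level `N q`): the non-transitive Mackey formula
for `r₂ c₁` (two double cosets), applied to `r₂ φ`. -/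
theorem Tdag_res2 (hN : 0 < N) (hq : q.Prime) (hqN : ¬ q ∣ N) {A : Type*} [AddCommGroup A]
    (φ : Additive (Gamma0 N) →+ A) :
    cor1 (N * q) q A (res2 (N * q) q A (res2 N q A φ))
      = res2 N q A (Tcoh N A q φ) - res1 N q A φ := by
  obtain ⟨u, v, huv⟩ := exists_bezout hq hqN
  have hNq : 0 < N * q := Nat.mul_pos hN hq.pos
  have htL := isReps_tLow hNq hq.pos (dvd_mul_left q N)
  have htH := isReps_tHigh huv hN hq hqN
  refine AddMonoidHom.ext fun x => ?_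
  obtain ⟨k, rfl⟩ : ∃ k : Gamma0 (N * q), Additive.ofMul k = x := ⟨Additive.toMul x, rfl⟩
  obtain ⟨σ', h', hh'⟩ := htL.exists_sol k
  obtain ⟨h₀, hh₀⟩ := AL_sub huv k
  have hsw := AL_swap huv hq.ne_zero h₀ k hh₀
  have e1 : cor1 (N * q) q A (res2 (N * q) q A (res2 N q A φ)) (Additive.ofMul k)
      = ∑ j, φ (Additive.ofMul (conjG N q (conjG (N * q) q (h' j)))) := by
    unfold cor1
    rw [corAlong_eq_sum (inclG (N * q) q) (inclG_injective _ _) _ htL _ k σ' h' hh']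
    rfl
  have e2 : Tcoh N A q φ (Additive.ofMul (conjG N q k))
      = φ (Additive.ofMul (conjG N q h₀))
        + ∑ j, φ (Additive.ofMul (conjG N q (conjG (N * q) q (h' j)))) := by
    unfold Tcoh cor1
    rw [corAlong_eq_sum (inclG N q) (inclG_injective _ _) (tHigh huv) htH _ (conjG N q k)
      (fun o => o.map σ')
      (fun o => match o with
        | none => h₀
        | some j => conjG (N * q) q (h' j)) ?_,
      Fintype.sum_option]
    · rfl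
    · intro o
      rcases o with _ | j
      · show conjG N q k * g0 huv = g0 huv * inclG N q h₀
        rw [hh₀]; group
      · show conjG N q k * tLow N q j = tLow N q (σ' j) * inclG N q (conjG (N * q) q (h' j))
        rw [← conjG_tLow (N := N) hq.ne_zero j, ← conjG_tLow (N := N) hq.ne_zero (σ' j), ← map_mul,
          hh' j, map_mul]
        rfl
  show _ = (Tcoh N A q φ) (Additive.ofMul (conjG N q k)) - φ (Additive.ofMul (inclG N q k))
  rw [e1, e2, hsw, hom_conj]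
  abel

end Dag

end Fermat.Agent.S59.NonMin.Geom.H72R

end
-- ==== END Fermat.Agent.S59.NonMin.Geom.H72_RelBase

-- ==== BEGIN Fermat.Agent.S59.NonMin.Geom.H78_Ihara3Defs
section

/-!
# S59 / NMGEOM, leaf IHARA3 (helper78): sub-leaves

Route (see `H78_Ihara3.lean`): `x : Γ₀(N) → k` cuspidal eigen, `F = Pfn x + κ` its normalised period
function on `X_N = {r : den r prime to N}`; `G(r) = c₁ F(r) + c₂ F(q r) + c₃ F(q² r)` is
`Γ₀(N q²)`-invariant, so (ORB3) `TT ℓ G = (ℓ + 1) G` for `ℓ ≡ 1 mod N q²`, so `G = 0`; hence `F` is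
`1/q`-periodic, hence `F(q² r) = F(r)` (explicit matrices), hence (IhCk, orbit sum) `F = 0`.

* `Stmt_ORB3` : a `Γ₀(N q²)`-invariant function on `X_N` is fixed by the `ℓ + 1` branches of
  `TT ℓ`, `ℓ ≡ 1 mod N q²` (the `q + 1` orbits of `Γ₀(N q²)` on `X_N`: `q ∤ den`, `q² ∣ den`,
  and `q ∥ den` with class `num · (den / q) mod q`).  Pure arithmetic of `ℚ` and `Γ₀`.
* `Stmt_IhCk` : `S41.Ihara.Stmt_IhC` with values in a field `k` of characteristic `p`.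
This file contains no `sorry`.
-/

set_option autoImplicit false

open scoped MatrixGroups
open CongruenceSubgroup Matrix

namespace Fermat.Agent.S59.NonMin.Geom.H78

open Fermat.Agent.S41 Fermat.Agent.S41.H19 Fermat.Agent.S41.Ihara

/-- **ORB3**: on a `Γ₀(N q²)`-invariant function on `X_N`, `TT ℓ` acts by `ℓ + 1` if
`ℓ ≡ 1 mod N q²`.  (Analogue of `S41.Ihara.TT_of_inv` at the level `N q²`.) -/
def Stmt_ORB3 : Prop :=
  ∀ (N q : ℕ), 2 ≤ N → q.Prime → ¬ q ∣ N →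
  ∀ (A : Type) [AddCommGroup A] (E : ℚ → A),
    (∀ (h : Gamma0 (N * q ^ 2)) (r : ℚ), InX N r → E (mob (mat h) r) = E r) →
  ∀ (ℓ : ℕ), ℓ.Prime → ¬ ℓ ∣ N * q → ℓ % (N * q ^ 2) = 1 % (N * q ^ 2) →
  ∀ r : ℚ, InX N r → TT ℓ E r = (ℓ + 1) • E r

/-- **IhC over `k`**: the orbit sum (`S41.Ihara.Stmt_IhC` with `ZMod p` replaced by a field of
characteristic `p`). -/
def Stmt_IhCk : Prop :=
  ∀ (k : Type) [Field k] (p : ℕ) [Fact p.Prime] [CharP k p] (N q : ℕ),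
    2 ≤ N → q.Prime → ¬ q ∣ N → q ≠ p →
    ∀ (F : ℚ → k),
    (∀ r, InX N r → F ((q : ℚ) ^ 2 * r) = F r) →
    (∀ r t, InX N r → InZq q t → F (r + t) = F r) →
    ∀ (ℓ : ℕ) (a : k), ℓ.Prime → ¬ ℓ ∣ N * q → ℓ ≠ p →
    (∀ r, InX N r → TT ℓ F r = a * F r) →
    ∀ (r : ℚ) (m j : ℕ), InX N r → 0 < m → InZq q ((m : ℚ) * r) → m.Coprime q →
      q ^ (2 * j) % m = 1 % m → ℓ % m = 1 % m →
      p ∣ orderOf ((q : ZMod ℓ) ^ (2 * j)) →
      (a - 2) * F r = 0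

end Fermat.Agent.S59.NonMin.Geom.H78

end
-- ==== END Fermat.Agent.S59.NonMin.Geom.H78_Ihara3Defs

-- ==== BEGIN Fermat.Agent.S59.NonMin.Geom.H80_SplitFld
section

set_option autoImplicit false

open CuspForm CongruenceSubgroup IsLocalRing

namespace Fermat.Agent.S59.NonMin.Geom.H80

open Fermat.Agent.S41 Fermat.Agent.Betti Fermat.Agent.S59 Fermat.Agent.S59.NonMin.Geom
open ModularCurve.Period

/-- An `𝒪`-linear endomorphism of `Hom(Γ₀(M), 𝒪)` which preserves parabolic homomorphisms and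
commutes with the `T_ℓ` and the `U_r`, `r ∈ Sig`, preserves the Betti lattice. -/
theorem inBetti_of_commute (hINB : Stmt_INBMAP) {𝒪 : Type} [CommRing 𝒪] [IsDomain 𝒪]
    [IsDiscreteValuationRing 𝒪] (M : ℕ) [NeZero M] (S : Set ℕ)
    (θ : CuspForm.heckeAlgebra M 2 S →+* ResidueField 𝒪) (Sig : Finset ℕ)
    (F : (Additive (Gamma0 M) →+ 𝒪) →+ (Additive (Gamma0 M) →+ 𝒪))
    (hlin : ∀ (c : 𝒪) φ, F (c • φ) = c • F φ)
    (hpar : ∀ φ, IsParabolicHom (Gamma0 M) φ → IsParabolicHom (Gamma0 M) (F φ))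
    (hU : ∀ r ∈ Sig, ∀ (hr : r ∣ M) φ, F (UB M 𝒪 hr φ) = UB M 𝒪 hr (F φ))
    (hT : ∀ (ℓ : ℕ) (hℓ : ℓ.Prime) (hℓM : ¬ ℓ ∣ M) φ,
      F (TB M 𝒪 hℓ hℓM φ) = TB M 𝒪 hℓ hℓM (F φ))
    (φ : Additive (Gamma0 M) →+ 𝒪) (hφ : InBetti 𝒪 M S θ Sig φ) :
    InBetti 𝒪 M S θ Sig (F φ) :=
  hINB 𝒪 M M S S θ θ Sig F hlin hpar
    (fun r hr hr' => ⟨hr', fun φ _ => (hU r hr hr' φ).symm⟩)
    (fun ℓ hℓ hℓM hℓS => ⟨hℓM, hℓS, rfl, fun φ _ => (hT ℓ hℓ hℓM φ).symm⟩) φ hφ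

/-- **SPLIT-FLD**. -/
theorem splitfld_of (hSPLIT : Stmt_RELSPLIT) (hINB : Stmt_INBMAP) : Stmt_SPLITFLD := by
  intro 𝒪 _ _ _ N q _ _ hq hqN hqu S' θ' Sig hSig hd ψ hψ
  obtain ⟨e, g, hlin, hUe, hsum, hpar, hT, hU⟩ := hSPLIT 𝒪 N q hq hqN hqu hd
  refine ⟨e ψ, g ψ, ?_, ?_, hsum ψ, hUe ψ⟩
  · exact inBetti_of_commute hINB (N * q ^ 2) S' θ' Sig e (fun c φ => (hlin c φ).1)
      (fun φ h => (hpar φ h).1)
      (fun r hr hr' φ => (hU r hr' (hSig r hr).1 (hSig r hr).2 φ).1)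
      (fun ℓ hℓ hℓM φ => (hT ℓ hℓ hℓM φ).1) ψ hψ
  · exact inBetti_of_commute hINB (N * q ^ 2) S' θ' Sig g (fun c φ => (hlin c φ).2)
      (fun φ h => (hpar φ h).2)
      (fun r hr hr' φ => (hU r hr' (hSig r hr).1 (hSig r hr).2 φ).2)
      (fun ℓ hℓ hℓM φ => (hT ℓ hℓ hℓM φ).2) ψ hψ

end Fermat.Agent.S59.NonMin.Geom.H80

end
-- ==== END Fermat.Agent.S59.NonMin.Geom.H80_SplitFld

-- ==== BEGIN Fermat.Agent.S59.NonMin.Geom.H92_B0Defs
section

set_option autoImplicit false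
set_option linter.unusedSectionVars false
set_option linter.style.haveILetI false

noncomputable section

open IsLocalRing TensorProduct CongruenceSubgroup

namespace Fermat.Agent.S59.NonMin.Geom.H92B

open Fermat.Agent.S59.Lim Fermat.Agent.Betti Fermat.Agent.S59.Asm Fermat.Agent.NEB.Geom
  Fermat.Agent.S59.NonMin.Geom

/-- **B0-COORD**: coordinates of `J₀(N)[p^∞]` in which `T_ℓ` has the matrix of the Betti
operator. -/
def Stmt_B0COORD : Prop :=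
  ∀ (N p : ℕ) [NeZero N] (S : Set ℕ), p.Prime →
    ∀ (r : ℕ) (b : Fin r → (Additive (Gamma0 N) →+ ℤ)), IsParBasis N b →
    ∀ Mat : CuspForm.heckeAlgebra N 2 S →+* Matrix (Fin r) (Fin r) ℤ,
      (∀ (ℓ : ℕ) (hℓ : ℓ.Prime) (hℓN : ¬ ℓ ∣ N) (hℓS : ℓ ∉ S) (j : Fin r),
        TB N ℤ hℓ hℓN (b j) = ∑ i, Mat (CuspForm.heckeAlgebra.T hℓ hℓN hℓS) i j • b i) →
      ∃ e : ℕ → Fin r → A0 N p, IsCoordSys p e ∧
        ∀ (ℓ : ℕ) (hℓ : ℓ.Prime) (hℓN : ¬ ℓ ∣ N) (hℓS : ℓ ∉ S) (k : ℕ) (j : Fin r),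
          Tz0 N p ℓ (e k j) = ∑ i, Mat (CuspForm.heckeAlgebra.T hℓ hℓN hℓS) i j • e k i

/-- **B0-BETTI**: the Tate module of the `θ`-part of `𝒪 ⊗ J₀(N)[p^∞]` is the Betti lattice. -/
def Stmt_B0BETTI : Prop :=
  ∀ (𝒪 : Type) [CommRing 𝒪] [IsDomain 𝒪] [IsDiscreteValuationRing 𝒪]
    [IsAdicComplete (maximalIdeal 𝒪) 𝒪] [Finite (ResidueField 𝒪)] [CharZero 𝒪]
    (ϖ : 𝒪) (hϖ : Irreducible ϖ) (p : ℕ) [Fact p.Prime], (p : 𝒪) ∈ maximalIdeal 𝒪 →
    ∀ (N : ℕ) [NeZero N] (S : Finset ℕ), (∀ q : ℕ, q.Prime → q ∣ N → q ∈ S) →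
    ∀ (θ : CuspForm.heckeAlgebra N 2 (↑S : Set ℕ) →+* ResidueField 𝒪)
      (Dm : MinSetup 𝒪 ϖ p N S θ),
      IsBetti (⟨N, S, θ, Dm.MD.toHMod hϖ⟩ : NMState 𝒪) ∅

/-- **B0-TOP**: the leaves of NEB-GEOM and `Stmt_B0BETTI` give B0. -/
def Stmt_B0TOP : Prop :=
  Stmt_A_MIN → Stmt_A_SETUP → Stmt_A_R0 → Stmt_A_GAL → Stmt_A_ES → Stmt_A_HSTEP → Stmt_A_PI →
    Stmt_A_FROBNIL → Stmt_A_LG → Stmt_B0BETTI → Stmt_TWGEOMB

end Fermat.Agent.S59.NonMin.Geom.H92B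

end
end
-- ==== END Fermat.Agent.S59.NonMin.Geom.H92_B0Defs

-- ==== BEGIN Fermat.Agent.S59.NonMin.Geom.H92_B0Psi
section

set_option autoImplicit false
set_option linter.unusedSectionVars false
set_option linter.style.haveILetI false
set_option linter.unusedVariables false

noncomputable section

open IsLocalRing TensorProduct

namespace Fermat.Agent.S59.NonMin.Geom.H92B

open Fermat.Agent.S59.Lim

/-! ### Coordinate systems -/

section CoordSys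

variable {A : Type} [AddCommGroup A] {r : ℕ}

variable {p : ℕ} {e : ℕ → Fin r → A}

variable {𝒪 : Type} [CommRing 𝒪]

/-- Independence of the coordinates after tensoring with a flat ring. -/
theorem tmul_indep [Module.Flat ℤ 𝒪] (he : IsCoordSys p e) (k : ℕ) (a : Fin r → 𝒪)
    (h : ∑ i, a i ⊗ₜ[ℤ] e k i = (0 : 𝒪 ⊗[ℤ] A)) :
    ∀ i, ∃ c : 𝒪, a i = (p : 𝒪) ^ k * c := by
  classical
  have hsum : ∑ i, e k i ⊗ₜ[ℤ] a i = (0 : A ⊗[ℤ] 𝒪) := by
    have := congrArg (TensorProduct.comm ℤ 𝒪 A) h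
    simpa using this
  have hinj : Function.Injective
      (LinearMap.rTensor 𝒪 (Submodule.span ℤ (Set.range (e k))).subtype) :=
    Module.Flat.rTensor_preserves_injective_linearMap _ (Submodule.injective_subtype _)
  obtain ⟨κ, α, y, h1, h2⟩ :=
    TensorProduct.vanishesTrivially_of_sum_tmul_eq_zero_of_rTensor_injective ℤ hinj hsum
  have hdvd : ∀ i j, ((p : ℤ) ^ k) ∣ α i j := fun i j =>
    he.indep k (fun i => α i j) (h2 j) i
  choose c hc using hdvd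
  intro i
  refine ⟨∑ j, (c i j : 𝒪) * y j, ?_⟩
  rw [h1 i, Finset.mul_sum]
  refine Finset.sum_congr rfl fun j _ => ?_
  rw [hc i j, zsmul_eq_mul]
  push_cast
  ring

/-- Every element of `𝒪 ⊗ A` killed by `p ^ k` is a combination of the `1 ⊗ e k i`. -/
theorem exists_tmul_of_pow_smul [Module.Flat ℤ 𝒪] (he : IsCoordSys p e) (k : ℕ)
    (y : 𝒪 ⊗[ℤ] A) (hy : ((p : 𝒪) ^ k) • y = 0) :
    ∃ a : Fin r → 𝒪, y = ∑ i, a i ⊗ₜ[ℤ] e k i := by
  classical
  let f : A →ₗ[ℤ] A := ((p : ℤ) ^ k) • (LinearMap.id : A →ₗ[ℤ] A)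
  have hf : ∀ z : 𝒪 ⊗[ℤ] A, f.baseChange 𝒪 z = ((p : 𝒪) ^ k) • z := by
    intro z
    induction z using TensorProduct.induction_on with
    | zero => simp
    | tmul b x =>
      rw [LinearMap.baseChange_tmul, TensorProduct.smul_tmul']
      show b ⊗ₜ[ℤ] (((p : ℤ) ^ k) • x) = _
      rw [TensorProduct.tmul_smul, TensorProduct.smul_tmul', zsmul_eq_mul, smul_eq_mul]
      congr 1
      push_cast
      ring
    | add z w hz hw => rw [map_add, hz, hw, smul_add]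
  have hker : f.baseChange 𝒪 y = 0 := by rw [hf, hy]
  have hmem : y ∈ LinearMap.ker (f.baseChange 𝒪) := hker
  have hex : Function.Exact (LinearMap.ker f).subtype f := fun x => by
    constructor
    · intro hx
      exact ⟨⟨x, hx⟩, rfl⟩
    · rintro ⟨z, rfl⟩
      exact z.2
  have hex' := Module.Flat.lTensor_exact 𝒪 hex
  have h2 := (hex' y).mp (by rw [← LinearMap.baseChange_eq_ltensor]; exact hker)
  have key : ∀ y' : 𝒪 ⊗[ℤ] ↥(LinearMap.ker f),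
      ∃ a : Fin r → 𝒪, (LinearMap.lTensor 𝒪 (LinearMap.ker f).subtype) y'
        = ∑ i, a i ⊗ₜ[ℤ] e k i := by
    intro y'
    induction y' using TensorProduct.induction_on with
    | zero => exact ⟨0, by simp⟩
    | tmul b x =>
      have hx : p ^ k • (x : A) = 0 := by
        have := x.2
        rw [LinearMap.mem_ker] at this
        have h3 : f (x : A) = ((p : ℤ) ^ k) • (x : A) := rfl
        rw [h3] at this
        rw [← this, ← Nat.cast_pow, natCast_zsmul]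
      obtain ⟨n, hn⟩ := he.span k (x : A) hx
      refine ⟨fun i => n i • b, ?_⟩
      show b ⊗ₜ[ℤ] (x : A) = _
      rw [hn, TensorProduct.tmul_sum]
      refine Finset.sum_congr rfl fun i _ => ?_
      rw [TensorProduct.tmul_smul, TensorProduct.smul_tmul']
    | add z w hz hw =>
      obtain ⟨a, ha⟩ := hz
      obtain ⟨a', ha'⟩ := hw
      refine ⟨a + a', ?_⟩
      rw [map_add, ha, ha', ← Finset.sum_add_distrib]
      refine Finset.sum_congr rfl fun i _ => ?_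
      rw [Pi.add_apply, TensorProduct.add_tmul]
  obtain ⟨y', hy'⟩ := h2
  obtain ⟨a, ha⟩ := key y'
  exact ⟨a, by rw [← hy', ha]⟩

end CoordSys

/-! ### The map `Ψ` -/

section Psi

variable {A : Type} [AddCommGroup A] {r : ℕ} {p : ℕ} {e : ℕ → Fin r → A}
variable {𝒪 : Type} [CommRing 𝒪]

/-- The `k`-th component of `Ψ d`. -/
def psiFun (π' : 𝒪) (e : ℕ → Fin r → A) (d : Fin r → 𝒪) (k : ℕ) : 𝒪 ⊗[ℤ] A :=
  ∑ i, (d i * π' ^ k) ⊗ₜ[ℤ] e k i

theorem psiFun_mem {ϖ π' : 𝒪} (hp : (p : 𝒪) = π' * ϖ) (he : IsCoordSys p e)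
    (d : Fin r → 𝒪) : psiFun π' e d ∈ H2.tate ϖ (𝒪 ⊗[ℤ] A) := by
  refine ⟨?_, fun k => ?_⟩
  · simp [psiFun, he.zero]
  · simp only [psiFun, Finset.smul_sum]
    refine Finset.sum_congr rfl fun i _ => ?_
    rw [TensorProduct.smul_tmul', smul_eq_mul, ← he.succ k i, TensorProduct.tmul_smul,
      TensorProduct.smul_tmul', nsmul_eq_mul, hp]
    congr 1
    ring

/-- **The coordinates of the Tate module**: `Ψ d = (∑ i, (d i π'^k) ⊗ e k i)_k`. -/
def psi {ϖ π' : 𝒪} (hp : (p : 𝒪) = π' * ϖ) (he : IsCoordSys p e) :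
    (Fin r → 𝒪) →ₗ[𝒪] H2.tate ϖ (𝒪 ⊗[ℤ] A) where
  toFun d := ⟨psiFun π' e d, psiFun_mem hp he d⟩
  map_add' d d' := by
    apply Subtype.ext
    funext k
    show psiFun π' e (d + d') k = psiFun π' e d k + psiFun π' e d' k
    simp only [psiFun, Pi.add_apply, add_mul, TensorProduct.add_tmul, Finset.sum_add_distrib]
  map_smul' c d := by
    apply Subtype.ext
    funext k
    show psiFun π' e (c • d) k = c • psiFun π' e d k
    simp only [psiFun, Pi.smul_apply, smul_eq_mul, Finset.smul_sum, TensorProduct.smul_tmul',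
      mul_assoc]

theorem ev_psi {ϖ π' : 𝒪} (hp : (p : 𝒪) = π' * ϖ) (he : IsCoordSys p e) (d : Fin r → 𝒪)
    (k : ℕ) : H2.ev ϖ (𝒪 ⊗[ℤ] A) k (psi hp he d) = ∑ i, (d i * π' ^ k) ⊗ₜ[ℤ] e k i := rfl

/-- `Ψ` intertwines an endomorphism of `A` with its matrix in the coordinates. -/
theorem psi_intertwine {ϖ π' : 𝒪} (hp : (p : 𝒪) = π' * ϖ) (he : IsCoordSys p e)
    (f : A →ₗ[ℤ] A) (M : Matrix (Fin r) (Fin r) ℤ)
    (hf : ∀ k j, f (e k j) = ∑ i, M i j • e k i) (d : Fin r → 𝒪) :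
    H2.map ϖ (f.baseChange 𝒪) (psi hp he d)
      = psi hp he ((M.map (Int.cast : ℤ → 𝒪)).mulVec d) := by
  apply H2.tate_ext
  intro k
  rw [H2.ev_map, ev_psi, ev_psi, map_sum]
  have h1 : ∀ j, (f.baseChange 𝒪) ((d j * π' ^ k) ⊗ₜ[ℤ] e k j)
      = ∑ i, (((M i j : ℤ) : 𝒪) * d j * π' ^ k) ⊗ₜ[ℤ] e k i := by
    intro j
    rw [LinearMap.baseChange_tmul, hf, TensorProduct.tmul_sum]
    refine Finset.sum_congr rfl fun i _ => ?_
    rw [TensorProduct.tmul_smul, TensorProduct.smul_tmul', zsmul_eq_mul, mul_assoc]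
  rw [Finset.sum_congr rfl fun j _ => h1 j, Finset.sum_comm]
  refine Finset.sum_congr rfl fun i _ => ?_
  rw [← TensorProduct.sum_tmul]
  congr 1
  rw [Matrix.mulVec, dotProduct, Finset.sum_mul]
  refine Finset.sum_congr rfl fun j _ => ?_
  rw [Matrix.map_apply]

variable [IsDomain 𝒪] [IsDiscreteValuationRing 𝒪] [IsAdicComplete (maximalIdeal 𝒪) 𝒪]
  [Module.Flat ℤ 𝒪]

theorem psi_injective {ϖ π' : 𝒪} (hϖ : Irreducible ϖ) (hp : (p : 𝒪) = π' * ϖ)
    (hp0 : (p : 𝒪) ≠ 0) (he : IsCoordSys p e) : Function.Injective (psi (ϖ := ϖ) hp he) := by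
  rw [injective_iff_map_eq_zero]
  intro d hd
  have hπ : π' ≠ 0 := fun h => hp0 (by rw [hp, h, zero_mul])
  funext i
  have hmem : ∀ k : ℕ, d i ∈ maximalIdeal 𝒪 ^ k := by
    intro k
    have h0 : ∑ j, (d j * π' ^ k) ⊗ₜ[ℤ] e k j = (0 : 𝒪 ⊗[ℤ] A) := by
      rw [← ev_psi (ϖ := ϖ) hp he d k, hd, map_zero]
    obtain ⟨c, hc⟩ := tmul_indep he k (fun j => d j * π' ^ k) h0 i
    have h1 : d i * π' ^ k = (ϖ ^ k * c) * π' ^ k := by
      rw [hc, hp, mul_pow]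
      ring
    have h2 : d i = ϖ ^ k * c := mul_right_cancel₀ (pow_ne_zero k hπ) h1
    rw [hϖ.maximalIdeal_eq, Ideal.span_singleton_pow, Ideal.mem_span_singleton]
    exact ⟨c, h2⟩
  have hH : IsHausdorff (maximalIdeal 𝒪) 𝒪 := inferInstance
  have := hH.haus (d i) (fun k => by
    rw [SModEq.zero, smul_eq_mul, Ideal.mul_top]
    exact hmem k)
  exact this

theorem psi_surjective {ϖ π' : 𝒪} (hϖ : Irreducible ϖ) (hp : (p : 𝒪) = π' * ϖ)
    (hp0 : (p : 𝒪) ≠ 0) (he : IsCoordSys p e) : Function.Surjective (psi (ϖ := ϖ) hp he) := by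
  classical
  have hϖ0 : ϖ ≠ 0 := hϖ.ne_zero
  haveI : IsPrecomplete (Ideal.span {ϖ}) 𝒪 := by
    rw [← hϖ.maximalIdeal_eq]
    infer_instance
  have hgen : ∀ x : H2.tate ϖ (𝒪 ⊗[ℤ] A), ∃ (a : Fin r → 𝒪) (y : H2.tate ϖ (𝒪 ⊗[ℤ] A)),
      x = ∑ i, a i • psi (ϖ := ϖ) hp he (Pi.single i 1) + ϖ • y := by
    intro x
    have h1 : ϖ • H2.ev ϖ (𝒪 ⊗[ℤ] A) 1 x = 0 := by
      have := H2.pow_smul_ev 1 x
      rwa [pow_one] at this
    have h2 : ((p : 𝒪) ^ 1) • H2.ev ϖ (𝒪 ⊗[ℤ] A) 1 x = 0 := by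
      rw [pow_one, hp, mul_smul, h1, smul_zero]
    obtain ⟨a, ha⟩ := exists_tmul_of_pow_smul he 1 _ h2
    have h3 : ∑ i, (ϖ * a i) ⊗ₜ[ℤ] e 1 i = (0 : 𝒪 ⊗[ℤ] A) := by
      rw [← h1, ha, Finset.smul_sum]
      refine Finset.sum_congr rfl fun i _ => ?_
      rw [TensorProduct.smul_tmul', smul_eq_mul]
    have h4 := tmul_indep he 1 (fun i => ϖ * a i) h3
    choose c hc using h4
    have h5 : ∀ i, a i = c i * π' ^ 1 := by
      intro i
      have := hc i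
      rw [pow_one, hp] at this
      have h6 : ϖ * a i = ϖ * (c i * π' ^ 1) := by rw [this]; ring
      exact mul_left_cancel₀ hϖ0 h6
    have h7 : H2.ev ϖ (𝒪 ⊗[ℤ] A) 1 (x - psi (ϖ := ϖ) hp he c) = 0 := by
      rw [map_sub, ev_psi, ha, sub_eq_zero]
      exact Finset.sum_congr rfl fun i _ => by rw [h5 i]
    obtain ⟨y, hy⟩ := (H2.ev_eq_zero_iff 1 _).mp h7
    refine ⟨c, y, ?_⟩
    have h8 : psi (ϖ := ϖ) hp he c = ∑ i, c i • psi (ϖ := ϖ) hp he (Pi.single i 1) := by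
      have : c = ∑ i, c i • (Pi.single i (1 : 𝒪) : Fin r → 𝒪) := by
        funext j
        simp [Finset.sum_apply, Pi.single_apply]
      conv_lhs => rw [this]
      rw [map_sum]
      exact Finset.sum_congr rfl fun i _ => by rw [map_smul]
    have hy' : x - psi (ϖ := ϖ) hp he c = ϖ • y := by rw [hy, pow_one]
    rw [← h8, ← hy']
    abel
  have hspan := H2.span_eq_top_of_complete ϖ (fun x hx => H2.tate_separated x hx)
    (fun i => psi (ϖ := ϖ) hp he (Pi.single i 1)) hgen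
  intro x
  have hx : x ∈ Submodule.span 𝒪 (Set.range fun i => psi (ϖ := ϖ) hp he (Pi.single i 1)) := by
    rw [hspan]
    exact Submodule.mem_top
  have hle : Submodule.span 𝒪 (Set.range fun i => psi (ϖ := ϖ) hp he (Pi.single i 1))
      ≤ LinearMap.range (psi (ϖ := ϖ) hp he) := by
    rw [Submodule.span_le]
    rintro _ ⟨i, rfl⟩
    exact ⟨_, rfl⟩
  exact hle hx

/-- **`Ψ : 𝒪^r ≃ T_ϖ(𝒪 ⊗ A)`**. -/
def psiEquiv {ϖ π' : 𝒪} (hϖ : Irreducible ϖ) (hp : (p : 𝒪) = π' * ϖ)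
    (hp0 : (p : 𝒪) ≠ 0) (he : IsCoordSys p e) :
    (Fin r → 𝒪) ≃ₗ[𝒪] H2.tate ϖ (𝒪 ⊗[ℤ] A) :=
  LinearEquiv.ofBijective (psi hp he) ⟨psi_injective hϖ hp hp0 he, psi_surjective hϖ hp hp0 he⟩

@[simp] theorem psiEquiv_apply {ϖ π' : 𝒪} (hϖ : Irreducible ϖ) (hp : (p : 𝒪) = π' * ϖ)
    (hp0 : (p : 𝒪) ≠ 0) (he : IsCoordSys p e) (d : Fin r → 𝒪) :
    psiEquiv hϖ hp hp0 he d = psi hp he d := rfl

end Psi

end Fermat.Agent.S59.NonMin.Geom.H92B

end
end
-- ==== END Fermat.Agent.S59.NonMin.Geom.H92_B0Psi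

-- ==== BEGIN Fermat.Agent.S59.NonMin.Geom.H94_Red
section

/-!
# S59 / NMGEOM, leaf DUAL (helper94): reduction modulo the maximal ideal

* `TB_redB`, `UB_redB`, `corC_redB`, `alphaB'_redB` : the operators commute with the reduction;
* `iterate_redB` : `(T - a)^n` reduces to `(T - θ)^n`;
* `redB_eq_zero_iff` : `redB φ = 0` iff `φ` has values in the maximal ideal;
* `cusp_of_par` : a parabolic homomorphism with values in a torsion free group is cuspidal;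
* `inBettik_redB` : **RED**, the reduction of a class of the Betti lattice is in the `k`-level
  lattice part.

No `sorry`.
-/

set_option autoImplicit false
set_option linter.unusedSectionVars false

open CuspForm CongruenceSubgroup IsLocalRing
open scoped MatrixGroups

namespace Fermat.Agent.S59.NonMin.Geom.H94

open Fermat.Agent.S41 Fermat.Agent.Betti Fermat.Agent.S59.NonMin.Geom
open ModularCurve.Period

section Red

variable {𝒪 : Type} [CommRing 𝒪] [IsLocalRing 𝒪] {N : ℕ}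

theorem redB_zero {G : Type} [AddZeroClass G] : redB 𝒪 (0 : G →+ 𝒪) = 0 := by
  refine AddMonoidHom.ext fun γ => ?_
  simp [redB]

theorem redB_add {G : Type} [AddZeroClass G] (φ ψ : G →+ 𝒪) :
    redB 𝒪 (φ + ψ) = redB 𝒪 φ + redB 𝒪 ψ := by
  refine AddMonoidHom.ext fun γ => ?_
  simp [redB]

theorem redB_sub {G : Type} [AddGroup G] (φ ψ : G →+ 𝒪) :
    redB 𝒪 (φ - ψ) = redB 𝒪 φ - redB 𝒪 ψ := by
  refine AddMonoidHom.ext fun γ => ?_
  simp [redB]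

theorem redB_smul {G : Type} [AddZeroClass G] (c : 𝒪) (φ : G →+ 𝒪) :
    redB 𝒪 (c • φ) = residue 𝒪 c • redB 𝒪 φ := by
  refine AddMonoidHom.ext fun γ => ?_
  simp [redB]

theorem redB_nsmul {G : Type} [AddZeroClass G] (n : ℕ) (φ : G →+ 𝒪) :
    redB 𝒪 (n • φ) = n • redB 𝒪 φ := by
  refine AddMonoidHom.ext fun γ => ?_
  simp [redB]

theorem redB_eq_zero_iff {G : Type} [AddZeroClass G] (φ : G →+ 𝒪) :
    redB 𝒪 φ = 0 ↔ ∀ γ, φ γ ∈ maximalIdeal 𝒪 := by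
  constructor
  · intro h γ
    have h1 : residue 𝒪 (φ γ) = 0 := congrArg (fun χ : G →+ ResidueField 𝒪 => χ γ) h
    exact (residue_eq_zero_iff _).mp h1
  · intro h
    refine AddMonoidHom.ext fun γ => ?_
    exact (residue_eq_zero_iff _).mpr (h γ)

theorem redB_eq_iff {G : Type} [AddGroup G] (φ ψ : G →+ 𝒪) :
    redB 𝒪 φ = redB 𝒪 ψ ↔ ∀ γ, (φ - ψ) γ ∈ maximalIdeal 𝒪 := by
  rw [← redB_eq_zero_iff, redB_sub, sub_eq_zero]

theorem TB_redB {ℓ : ℕ} (hℓ : ℓ.Prime) (hℓN : ¬ ℓ ∣ N) (φ : Additive (Gamma0 N) →+ 𝒪) :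
    TB N (ResidueField 𝒪) hℓ hℓN (redB 𝒪 φ) = redB 𝒪 (TB N 𝒪 hℓ hℓN φ) := by
  have : Fact ℓ.Prime := ⟨hℓ⟩
  exact (isHeckeFamily_T N hℓN).heckeOp_comp (incl_injective N) (residue 𝒪).toAddMonoidHom φ

theorem UB_redB [NeZero N] {q : ℕ} (hq : q ∣ N) (φ : Additive (Gamma0 N) →+ 𝒪) :
    UB N (ResidueField 𝒪) hq (redB 𝒪 φ) = redB 𝒪 (UB N 𝒪 hq φ) := by
  have : NeZero q := neZero_of_dvd hq
  exact (isHeckeFamily_U N hq).heckeOp_comp (incl_injective N) (residue 𝒪).toAddMonoidHom φ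

theorem TB_smul_O {ℓ : ℕ} (hℓ : ℓ.Prime) (hℓN : ¬ ℓ ∣ N) (c : 𝒪)
    (φ : Additive (Gamma0 N) →+ 𝒪) : TB N 𝒪 hℓ hℓN (c • φ) = c • TB N 𝒪 hℓ hℓN φ := by
  have : Fact ℓ.Prime := ⟨hℓ⟩
  exact ((isHeckeFamily_T N hℓN).heckeOpLin (incl_injective N) 𝒪).map_smul c φ

theorem UB_smul_O [NeZero N] {q : ℕ} (hq : q ∣ N) (c : 𝒪)
    (φ : Additive (Gamma0 N) →+ 𝒪) : UB N 𝒪 hq (c • φ) = c • UB N 𝒪 hq φ := by
  have : NeZero q := neZero_of_dvd hq
  exact ((isHeckeFamily_U N hq).heckeOpLin (incl_injective N) 𝒪).map_smul c φ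

/-- `(T - a)^n` reduces to `(T - θ)^n`. -/
theorem iterate_redB {ℓ : ℕ} (hℓ : ℓ.Prime) (hℓN : ¬ ℓ ∣ N) (a : 𝒪) (n : ℕ)
    (φ : Additive (Gamma0 N) →+ 𝒪) :
    (fun χ : Additive (Gamma0 N) →+ ResidueField 𝒪 =>
        TB N (ResidueField 𝒪) hℓ hℓN χ - residue 𝒪 a • χ)^[n] (redB 𝒪 φ)
      = redB 𝒪 ((fun χ : Additive (Gamma0 N) →+ 𝒪 => TB N 𝒪 hℓ hℓN χ - a • χ)^[n] φ) := by
  induction n with
  | zero => rfl
  | succ n ih =>
    rw [Function.iterate_succ_apply', ih, Function.iterate_succ_apply', redB_sub, redB_smul,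
      TB_redB]

theorem corC1_redB (q : ℕ) (ψ : Additive (Gamma0 (N * q ^ 2)) →+ 𝒪) :
    corC1 N q (ResidueField 𝒪) (redB 𝒪 ψ) = redB 𝒪 (corC1 N q 𝒪 ψ) :=
  Fermat.Agent.S41.H77.corAlong_map (j1 N q) (residue 𝒪).toAddMonoidHom ψ

theorem corC2_redB (q : ℕ) (ψ : Additive (Gamma0 (N * q ^ 2)) →+ 𝒪) :
    corC2 N q (ResidueField 𝒪) (redB 𝒪 ψ) = redB 𝒪 (corC2 N q 𝒪 ψ) :=
  Fermat.Agent.S41.H77.corAlong_map (j2 N q) (residue 𝒪).toAddMonoidHom ψ

theorem corC3_redB (q : ℕ) (ψ : Additive (Gamma0 (N * q ^ 2)) →+ 𝒪) :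
    corC3 N q (ResidueField 𝒪) (redB 𝒪 ψ) = redB 𝒪 (corC3 N q 𝒪 ψ) :=
  Fermat.Agent.S41.H77.corAlong_map (j3 N q) (residue 𝒪).toAddMonoidHom ψ

theorem alphaB'_redB {q : ℕ} (hq : q.Prime) (hqN : ¬ q ∣ N)
    (ψ : Additive (Gamma0 (N * q ^ 2)) →+ 𝒪) :
    alphaB' N (ResidueField 𝒪) hq hqN (redB 𝒪 ψ) = redB 𝒪 (alphaB' N 𝒪 hq hqN ψ) := by
  unfold alphaB'
  rw [redB_add, redB_sub, redB_nsmul, corC1_redB, corC2_redB, corC3_redB, TB_redB]

end Red

section Cusp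

variable {N : ℕ}

/-- A parabolic homomorphism with values in a torsion free group is cuspidal. -/
theorem cusp_of_par {A : Type*} [AddCommGroup A] [IsAddTorsionFree A]
    {φ : Additive (Gamma0 N) →+ A} (h : IsParabolicHom (Gamma0 N) φ) :
    IsCuspidalHom (Gamma0 N) φ := by
  intro γ hγ
  rcases hγ.lt_or_eq with hlt | heq
  · have h12 : (γ : SL(2, ℤ)) ^ 12 = 1 := Fermat.Agent.S16.H38.pow_twelve_eq_one_of_trace _ hlt
    have h12' : γ ^ 12 = 1 := Subtype.ext h12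
    have h1 : (12 : ℕ) • φ (Additive.ofMul γ) = 0 := by
      rw [← map_nsmul, ← ofMul_pow, h12', ofMul_one, map_zero]
    exact (nsmul_eq_zero_iff_right (by norm_num)).mp h1
  · exact h γ heq

theorem par_of_cusp {A : Type*} [AddCommGroup A] {φ : Additive (Gamma0 N) →+ A}
    (h : IsCuspidalHom (Gamma0 N) φ) : IsParabolicHom (Gamma0 N) φ :=
  fun γ hγ => h γ (le_of_eq hγ)

theorem cusp_redB {𝒪 : Type} [CommRing 𝒪] [IsLocalRing 𝒪] {φ : Additive (Gamma0 N) →+ 𝒪}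
    (h : IsCuspidalHom (Gamma0 N) φ) : IsCuspidalHom (Gamma0 N) (redB 𝒪 φ) := by
  intro γ hγ
  rw [redB_apply, h γ hγ, map_zero]

end Cusp

section RED

variable {𝒪 : Type} [CommRing 𝒪] [IsLocalRing 𝒪] [IsDomain 𝒪] [CharZero 𝒪]
  {N : ℕ} [NeZero N]

/-- **RED**: the reduction of a class of the Betti lattice. -/
theorem inBettik_redB {S : Set ℕ} {θ : CuspForm.heckeAlgebra N 2 S →+* ResidueField 𝒪}
    {Sig : Finset ℕ} {φ : Additive (Gamma0 N) →+ 𝒪} (h : InBetti 𝒪 N S θ Sig φ) :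
    InBettik (ResidueField 𝒪) N S θ Sig (redB 𝒪 φ) := by
  obtain ⟨hpar, hU, hloc⟩ := h
  refine ⟨cusp_redB (cusp_of_par hpar), ?_, ?_⟩
  · intro r hr hrN
    rw [UB_redB, hU r hr hrN, redB_zero]
  · intro ℓ hℓ hℓN hℓS
    obtain ⟨a, ha⟩ := residue_surjective (θ (CuspForm.heckeAlgebra.T hℓ hℓN hℓS))
    obtain ⟨n, hn⟩ := hloc ℓ hℓ hℓN hℓS a ha 1
    refine ⟨n, ?_⟩
    rw [← ha, iterate_redB, redB_eq_zero_iff]
    intro γ
    have := hn γ
    rwa [pow_one] at this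

end RED

end Fermat.Agent.S59.NonMin.Geom.H94

end
-- ==== END Fermat.Agent.S59.NonMin.Geom.H94_Red

-- ==== BEGIN Fermat.Agent.S59.NonMin.Geom.H98_Comm
section

/-!
# S59 / NMGEOM (helper98): the Betti Hecke operators commute

* `heckeOp_comm` : two Hecke families `rep₁`, `rep₂` for `Γ` whose products `rep₂ j * rep₁ i` have
  pairwise distinct cosets and satisfy `rep₁ i * rep₂ j = ε * rep₂ j' * rep₁ i'` for a bijection
  `(i, j) ↦ (j', i')` have commuting Hecke operators;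
* `UB_comm_UB` : `U_q U_r = U_r U_q` on `Hom(Γ₀(M), A)` (`q, r ∣ M`);
* `UB_comm_TB` : `U_q T_ℓ = T_ℓ U_q` on `Hom(Γ₀(M), A)` (`q ∣ M`, `ℓ ∤ M` prime).
-/

set_option autoImplicit false
set_option linter.style.haveILetI false
set_option linter.unusedSectionVars false

open scoped MatrixGroups
open CongruenceSubgroup Matrix ModularForm

namespace Fermat.Agent.S59.NonMin.Geom.H98

open Fermat.Agent.S41 Fermat.Agent.S41.H19 Fermat.Agent.S41.H39 Fermat.Agent.Betti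

/-! ### The abstract statement -/

section Abstract

variable {Γ G : Type*} [Group Γ] [Group G] {e : Γ →* G} {ι₁ ι₂ : Type*}
  {rep₁ : ι₁ → G} {rep₂ : ι₂ → G}

/-- The product of two Hecke families is a Hecke family as soon as its cosets are pairwise
distinct. -/
theorem isHeckeFamily_mul (H₁ : IsHeckeFamily e rep₁) (H₂ : IsHeckeFamily e rep₂)
    (hinj : ∀ (a b : ι₁ × ι₂) (ε : Γ),
      rep₁ a.1 * rep₂ a.2 = e ε * (rep₁ b.1 * rep₂ b.2) → a = b) :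
    IsHeckeFamily e (fun a : ι₁ × ι₂ => rep₁ a.1 * rep₂ a.2) where
  exists_mul γ a := by
    refine ⟨(H₁.perm (H₂.kap γ a.2) a.1, H₂.perm γ a.2), H₁.kap (H₂.kap γ a.2) a.1, ?_⟩
    show rep₁ a.1 * rep₂ a.2 * e γ = e _ * (rep₁ _ * rep₂ _)
    rw [mul_assoc, H₂.rep_mul γ a.2, ← mul_assoc, H₁.rep_mul, mul_assoc]
  inj := hinj

variable [Fintype ι₁] [Fintype ι₂] {A : Type*} [AddCommGroup A]

/-- The Hecke operator of the product family is the composite of the Hecke operators. -/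
theorem heckeOp_mul (he : Function.Injective e) (H₁ : IsHeckeFamily e rep₁)
    (H₂ : IsHeckeFamily e rep₂)
    (P : IsHeckeFamily e (fun a : ι₁ × ι₂ => rep₁ a.1 * rep₂ a.2)) (φ : Additive Γ →+ A) :
    P.heckeOp he φ = H₂.heckeOp he (H₁.heckeOp he φ) := by
  refine AddMonoidHom.ext fun γ' => ?_
  obtain ⟨γ, rfl⟩ : ∃ g : Γ, Additive.ofMul g = γ' := ⟨Additive.toMul γ', rfl⟩
  rw [IsHeckeFamily.heckeOp_apply, IsHeckeFamily.heckeOp_apply]
  simp only [IsHeckeFamily.heckeOp_apply]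
  rw [Fintype.sum_prod_type, Finset.sum_comm]
  refine Finset.sum_congr rfl fun j _ => Finset.sum_congr rfl fun i _ => ?_
  have h : rep₁ i * rep₂ j * e γ
      = e (H₁.kap (H₂.kap γ j) i) * (rep₁ (H₁.perm (H₂.kap γ j) i) * rep₂ (H₂.perm γ j)) := by
    rw [mul_assoc, H₂.rep_mul γ j, ← mul_assoc, H₁.rep_mul, mul_assoc]
  have h2 := (P.unique he (γ := γ) (i := (i, j))
    (j := (H₁.perm (H₂.kap γ j) i, H₂.perm γ j)) h).2
  rw [← h2]

/-- **Commutation of two Hecke operators.** -/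
theorem heckeOp_comm (he : Function.Injective e) (H₁ : IsHeckeFamily e rep₁)
    (H₂ : IsHeckeFamily e rep₂)
    (hinj : ∀ (a b : ι₂ × ι₁) (ε : Γ),
      rep₂ a.1 * rep₁ a.2 = e ε * (rep₂ b.1 * rep₁ b.2) → a = b)
    (π : ι₁ × ι₂ ≃ ι₂ × ι₁) (ε : ι₁ × ι₂ → Γ)
    (hswap : ∀ a, rep₁ a.1 * rep₂ a.2 = e (ε a) * (rep₂ (π a).1 * rep₁ (π a).2))
    (φ : Additive Γ →+ A) :
    H₂.heckeOp he (H₁.heckeOp he φ) = H₁.heckeOp he (H₂.heckeOp he φ) := by
  have P₂₁ := isHeckeFamily_mul H₂ H₁ hinj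
  have hinj' : ∀ (a b : ι₁ × ι₂) (g₀ : Γ),
      rep₁ a.1 * rep₂ a.2 = e g₀ * (rep₁ b.1 * rep₂ b.2) → a = b := by
    intro a b g₀ h
    rw [hswap a, hswap b] at h
    have h' : rep₂ (π a).1 * rep₁ (π a).2
        = e ((ε a)⁻¹ * g₀ * ε b) * (rep₂ (π b).1 * rep₁ (π b).2) := by
      rw [map_mul, map_mul, map_inv, mul_assoc, mul_assoc, ← h, inv_mul_cancel_left]
    exact π.injective (hinj _ _ _ h')
  have P₁₂ := isHeckeFamily_mul H₁ H₂ hinj'
  rw [← heckeOp_mul he H₁ H₂ P₁₂, ← heckeOp_mul he H₂ H₁ P₂₁]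
  have key := IsHeckeFamily.heckeOp_eq_of_twist P₁₂ P₂₁ he (MonoidHom.id G) (MonoidHom.id Γ)
    (fun _ => rfl) π ε hswap φ
  refine AddMonoidHom.ext fun γ => ?_
  have := congrArg (fun f : Additive Γ →+ A => f γ) key
  exact this.symm

end Abstract

end Fermat.Agent.S59.NonMin.Geom.H98

namespace Fermat.Agent.S59.NonMin.Geom.H98

open Fermat.Agent.S41 Fermat.Agent.S41.H19 Fermat.Agent.S41.H39 Fermat.Agent.S41.H20
open Fermat.Agent.Betti

/-! ### Integer matrices -/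

section Mat

/-- `X ∈ GL₂(ℝ)` is the integer matrix `Z`. -/
def IsInt (X : GL (Fin 2) ℝ) (Z : Matrix (Fin 2) (Fin 2) ℤ) : Prop :=
  (X : Matrix (Fin 2) (Fin 2) ℝ) = Z.map (Int.cast : ℤ → ℝ)

theorem IsInt.mul {X Y : GL (Fin 2) ℝ} {Z W : Matrix (Fin 2) (Fin 2) ℤ} (hX : IsInt X Z)
    (hY : IsInt Y W) : IsInt (X * Y) (Z * W) := by
  unfold IsInt at *
  rw [Units.val_mul, hX, hY, Matrix.map_mul_intCast]

theorem IsInt.eq_of_eq {X Y : GL (Fin 2) ℝ} {Z W : Matrix (Fin 2) (Fin 2) ℤ} (hX : IsInt X Z)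
    (hY : IsInt Y W) (h : Z = W) : X = Y := by
  apply Units.ext
  rw [hX, hY, h]

theorem IsInt.eq_of_eq' {X Y : GL (Fin 2) ℝ} {Z W : Matrix (Fin 2) (Fin 2) ℤ} (hX : IsInt X Z)
    (hY : IsInt Y W) (h : X = Y) : Z = W := by
  apply intCast_map_injective
  show Z.map (Int.cast : ℤ → ℝ) = W.map (Int.cast : ℤ → ℝ)
  rw [← hX, ← hY, h]

theorem isInt_incl (M : ℕ) (g : Gamma0 M) : IsInt (incl M g) (mat g) := val_incl M g

theorem isInt_repU {q : ℕ} (hq : q ≠ 0) (x : ZMod q) : IsInt (repU q x) (Bmat q (x.val : ℤ)) := by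
  show ((heckeMatrix q x.val : GL (Fin 2) ℝ) : Matrix (Fin 2) (Fin 2) ℝ) = _
  rw [val_heckeMatrix hq]
  ext i k
  fin_cases i <;> fin_cases k <;> simp [Bmat]

theorem isInt_repT_infty {ℓ : ℕ} (hℓ : ℓ ≠ 0) :
    IsInt (repT ℓ (OnePoint.infty : OnePoint (ZMod ℓ))) (Dq ℓ) := by
  show ((heckeDiagMatrix ℓ : GL (Fin 2) ℝ) : Matrix (Fin 2) (Fin 2) ℝ) = _
  rw [val_heckeDiagMatrix hℓ]
  ext i k
  fin_cases i <;> fin_cases k <;> simp [Dq]

theorem isInt_repT_coe {ℓ : ℕ} (hℓ : ℓ ≠ 0) (j : ZMod ℓ) :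
    IsInt (repT ℓ (j : OnePoint (ZMod ℓ))) (Bmat ℓ (j.val : ℤ)) :=
  isInt_repU hℓ j

/-- The unipotent element `[[1, m], [0, 1]]` of `Γ₀(M)`. -/
def tUp (M : ℕ) (m : ℤ) : Gamma0 M := mkG0 M 1 m 0 1 (by ring) (dvd_zero _)

theorem mat_tUp (M : ℕ) (m : ℤ) : mat (tUp M m) = !![1, m; 0, 1] := rfl

theorem Bmat_mul_Bmat (q r : ℕ) (x y : ℤ) :
    Bmat q x * Bmat r y = !![1, y + x * r; 0, (q : ℤ) * r] := by
  ext i k
  fin_cases i <;> fin_cases k <;> simp [Bmat, Matrix.mul_apply, Fin.sum_univ_two]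

theorem Bmat_mul_Dq (q ℓ : ℕ) (x : ℤ) : Bmat q x * Dq ℓ = !![(ℓ : ℤ), x; 0, (q : ℤ)] := by
  ext i k
  fin_cases i <;> fin_cases k <;> simp [Bmat, Dq, Matrix.mul_apply, Fin.sum_univ_two]

theorem Dq_mul_Bmat (q ℓ : ℕ) (x : ℤ) : Dq ℓ * Bmat q x = !![(ℓ : ℤ), ℓ * x; 0, (q : ℤ)] := by
  ext i k
  fin_cases i <;> fin_cases k <;> simp [Bmat, Dq, Matrix.mul_apply, Fin.sum_univ_two]

theorem Dq_Bmat_swap (q ℓ : ℕ) {x x' m : ℤ} (h : x' + q * m = ℓ * x) :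
    Dq ℓ * Bmat q x = !![1, m; 0, 1] * (Bmat q x' * Dq ℓ) := by
  rw [Dq_mul_Bmat, Bmat_mul_Dq]
  ext i k
  fin_cases i <;> fin_cases k <;> simp [Matrix.mul_apply, Fin.sum_univ_two]
  linarith

/-- Two upper triangular integer matrices with positive upper left entries in the same left
`SL₂(ℤ)`-coset. -/
theorem ut_of_eq {a b d a' b' d' : ℤ} (ha : 0 < a) (ha' : 0 < a')
    {E : Matrix (Fin 2) (Fin 2) ℤ} (hE : E.det = 1)
    (h : !![a, b; 0, d] = E * !![a', b'; 0, d']) : a = a' ∧ d = d' ∧ d ∣ b - b' := by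
  have h00 := congrFun (congrFun h 0) 0
  have h01 := congrFun (congrFun h 0) 1
  have h10 := congrFun (congrFun h 1) 0
  have h11 := congrFun (congrFun h 1) 1
  simp only [Matrix.mul_apply, Fin.sum_univ_two, Matrix.of_apply, Matrix.cons_val',
    Matrix.cons_val_zero, Matrix.cons_val_one, Matrix.empty_val', Matrix.cons_val_fin_one,
    mul_zero, add_zero] at h00 h01 h10 h11
  have e10 : E 1 0 = 0 := by
    rcases mul_eq_zero.mp h10.symm with h | h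
    · exact h
    · exact absurd h ha'.ne'
  rw [Matrix.det_fin_two, e10, mul_zero, sub_zero] at hE
  have e00 : E 0 0 = 1 := by
    rcases Int.eq_one_or_neg_one_of_mul_eq_one hE with h | h
    · exact h
    · exfalso
      rw [h] at h00
      linarith
  have e11 : E 1 1 = 1 := by rw [e00, one_mul] at hE; exact hE
  rw [e00, one_mul] at h00 h01
  rw [e10, e11, zero_mul, zero_add, one_mul] at h11
  refine ⟨h00, h11, ⟨E 0 1, ?_⟩⟩
  rw [h01, h11]
  ring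

end Mat

/-! ### Mixed radix -/

section Digits

theorem digits_unique {r x x' y y' : ℕ} (hy : y < r) (hy' : y' < r)
    (h : y + x * r = y' + x' * r) : x = x' ∧ y = y' := by
  have hr : 0 < r := lt_of_le_of_lt (Nat.zero_le _) hy
  have h1 : y = y' := by
    have := congrArg (· % r) h
    simpa [Nat.add_mul_mod_self_right, Nat.mod_eq_of_lt hy, Nat.mod_eq_of_lt hy'] using this
  subst h1
  exact ⟨Nat.eq_of_mul_eq_mul_right hr (Nat.add_left_cancel h), rfl⟩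

theorem digits_lt {q r x y : ℕ} (hx : x < q) (hy : y < r) : y + x * r < q * r := by
  have h1 : x + 1 ≤ q := hx
  calc y + x * r < r + x * r := by omega
    _ = (x + 1) * r := by ring
    _ ≤ q * r := Nat.mul_le_mul_right r h1

theorem digits_eq_of_dvd {q r x x' y y' : ℕ} (hx : x < q) (hx' : x' < q) (hy : y < r)
    (hy' : y' < r)
    (h : ((q : ℤ) * r) ∣ ((y : ℤ) + x * r) - ((y' : ℤ) + x' * r)) : x = x' ∧ y = y' := by
  have h1 := digits_lt hx hy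
  have h2 := digits_lt hx' hy'
  have h3 : ((y : ℤ) + x * r) - ((y' : ℤ) + x' * r) = 0 := by
    apply Int.eq_zero_of_abs_lt_dvd h
    rw [abs_lt]
    have e1 : ((y + x * r : ℕ) : ℤ) < ((q * r : ℕ) : ℤ) := by exact_mod_cast h1
    have e2 : ((y' + x' * r : ℕ) : ℤ) < ((q * r : ℕ) : ℤ) := by exact_mod_cast h2
    push_cast at e1 e2
    constructor <;> nlinarith [Int.natCast_nonneg y, Int.natCast_nonneg y',
      Int.natCast_nonneg (x * r), Int.natCast_nonneg (x' * r)]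
  apply digits_unique hy hy'
  have : ((y + x * r : ℕ) : ℤ) = ((y' + x' * r : ℕ) : ℤ) := by push_cast; linarith
  exact_mod_cast this

variable (q r : ℕ)

/-- `(y, x) ↦ (s / r, s % r)`, `s = x + y q`. -/
def swapFun (a : ZMod r × ZMod q) : ZMod q × ZMod r :=
  ((((a.2.val + a.1.val * q) / r : ℕ) : ZMod q), (((a.2.val + a.1.val * q) % r : ℕ) : ZMod r))

variable {q r}

theorem swapFun_val [NeZero q] [NeZero r] (a : ZMod r × ZMod q) :
    (swapFun q r a).2.val + (swapFun q r a).1.val * r = a.2.val + a.1.val * q := by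
  have hr : 0 < r := Nat.pos_of_ne_zero (NeZero.ne r)
  have hlt : a.2.val + a.1.val * q < r * q := digits_lt (ZMod.val_lt a.1) (ZMod.val_lt a.2)
  have h1 : (swapFun q r a).2.val = (a.2.val + a.1.val * q) % r := by
    show ((((a.2.val + a.1.val * q) % r : ℕ) : ZMod r)).val = _
    rw [ZMod.val_natCast, Nat.mod_mod]
  have h2 : (swapFun q r a).1.val = (a.2.val + a.1.val * q) / r := by
    show ((((a.2.val + a.1.val * q) / r : ℕ) : ZMod q)).val = _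
    rw [ZMod.val_natCast]
    apply Nat.mod_eq_of_lt
    rw [Nat.div_lt_iff_lt_mul hr]
    rwa [mul_comm r q] at hlt
  rw [h1, h2]
  exact Nat.mod_add_div' _ _

theorem swapFun_injective [NeZero q] [NeZero r] : Function.Injective (swapFun q r) := by
  intro a b h
  have h1 := swapFun_val a
  have h2 := swapFun_val b
  rw [h] at h1
  have h3 := digits_unique (ZMod.val_lt a.2) (ZMod.val_lt b.2) (h1.symm.trans h2)
  exact Prod.ext (ZMod.val_injective r h3.1) (ZMod.val_injective q h3.2)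

/-- The mixed radix bijection. -/
noncomputable def swapEquiv (q r : ℕ) [NeZero q] [NeZero r] : ZMod r × ZMod q ≃ ZMod q × ZMod r :=
  Equiv.ofBijective (swapFun q r)
    ((Fintype.bijective_iff_injective_and_card _).mpr
      ⟨swapFun_injective, by simp [ZMod.card, mul_comm]⟩)

theorem swapEquiv_apply [NeZero q] [NeZero r] (a : ZMod r × ZMod q) :
    swapEquiv q r a = swapFun q r a := rfl

end Digits

end Fermat.Agent.S59.NonMin.Geom.H98

namespace Fermat.Agent.S59.NonMin.Geom.H98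

open Fermat.Agent.S41 Fermat.Agent.S41.H19 Fermat.Agent.S41.H39 Fermat.Agent.S41.H20
open Fermat.Agent.Betti

/-! ### `U_q U_r = U_r U_q` -/

section UU

variable {M : ℕ} [NeZero M] {A : Type*} [AddCommGroup A]

theorem UB_comm_UB {q r : ℕ} (hq : q ∣ M) (hr : r ∣ M) (φ : Additive (Gamma0 M) →+ A) :
    UB M A hq (UB M A hr φ) = UB M A hr (UB M A hq φ) := by
  haveI : NeZero q := neZero_of_dvd hq
  haveI : NeZero r := neZero_of_dvd hr
  have hq0 := NeZero.ne q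
  have hr0 := NeZero.ne r
  refine heckeOp_comm (incl_injective M) (isHeckeFamily_U M hr) (isHeckeFamily_U M hq) ?_
    (swapEquiv q r) (fun _ => 1) ?_ φ
  · intro a b ε h
    have h1 := ((isInt_repU hq0 a.1).mul (isInt_repU hr0 a.2)).eq_of_eq'
      ((isInt_incl M ε).mul ((isInt_repU hq0 b.1).mul (isInt_repU hr0 b.2))) h
    rw [Bmat_mul_Bmat, Bmat_mul_Bmat] at h1
    have h2 := ut_of_eq one_pos one_pos (mat_det ε) h1
    have h3 := digits_eq_of_dvd (ZMod.val_lt a.1) (ZMod.val_lt b.1) (ZMod.val_lt a.2)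
      (ZMod.val_lt b.2) (by simpa using h2.2.2)
    exact Prod.ext (ZMod.val_injective q h3.1) (ZMod.val_injective r h3.2)
  · intro a
    rw [map_one, one_mul]
    apply ((isInt_repU hr0 a.1).mul (isInt_repU hq0 a.2)).eq_of_eq
      ((isInt_repU hq0 _).mul (isInt_repU hr0 _))
    rw [Bmat_mul_Bmat, Bmat_mul_Bmat, swapEquiv_apply]
    have h := swapFun_val a
    have h' : (((swapFun q r a).2.val : ℕ) : ℤ) + ((swapFun q r a).1.val : ℕ) * (r : ℤ)
        = ((a.2.val : ℕ) : ℤ) + ((a.1.val : ℕ) : ℤ) * (q : ℤ) := by exact_mod_cast h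
    rw [h', mul_comm (q : ℤ) (r : ℤ)]

end UU

/-! ### `U_q T_ℓ = T_ℓ U_q` -/

section UT

variable {M : ℕ} [NeZero M] {A : Type*} [AddCommGroup A]

/-- the bijection of the index sets -/
def piT (q ℓ : ℕ) (a : OnePoint (ZMod ℓ) × ZMod q) : ZMod q × OnePoint (ZMod ℓ) :=
  match a.1 with
  | none => (((ℓ * a.2.val : ℕ) : ZMod q), (OnePoint.infty : OnePoint (ZMod ℓ)))
  | some j => ((swapFun q ℓ (j, a.2)).1, (((swapFun q ℓ (j, a.2)).2 : ZMod ℓ) : OnePoint (ZMod ℓ)))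

/-- the unipotent corrections -/
def epsT (M q ℓ : ℕ) (a : OnePoint (ZMod ℓ) × ZMod q) : Gamma0 M :=
  match a.1 with
  | none => tUp M ((ℓ * a.2.val / q : ℕ) : ℤ)
  | some _ => 1

theorem piT_injective {q ℓ : ℕ} [NeZero q] [NeZero ℓ] (hcop : Nat.Coprime ℓ q) :
    Function.Injective (piT q ℓ) := by
  rintro ⟨y, x⟩ ⟨y', x'⟩ h
  rcases y with _ | j <;> rcases y' with _ | j'
  · have h1 : (((ℓ * x.val : ℕ) : ZMod q)) = ((ℓ * x'.val : ℕ) : ZMod q) := by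
      have := congrArg Prod.fst h
      exact this
    push_cast at h1
    rw [ZMod.natCast_zmod_val, ZMod.natCast_zmod_val] at h1
    have hu : IsUnit ((ℓ : ℕ) : ZMod q) := (ZMod.isUnit_iff_coprime ℓ q).mpr hcop
    rw [hu.mul_right_inj] at h1
    rw [h1]
  · exact absurd (congrArg Prod.snd h) (by simp [piT])
  · exact absurd (congrArg Prod.snd h) (by simp [piT])
  · have h1 : (swapFun q ℓ (j, x)).1 = (swapFun q ℓ (j', x')).1 := by
      have := congrArg Prod.fst h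
      exact this
    have h2 : (((swapFun q ℓ (j, x)).2 : ZMod ℓ) : OnePoint (ZMod ℓ))
        = (((swapFun q ℓ (j', x')).2 : ZMod ℓ) : OnePoint (ZMod ℓ)) := by
      have := congrArg Prod.snd h
      exact this
    have h3 := swapFun_injective (Prod.ext h1 (OnePoint.coe_injective h2))
    rw [Prod.mk.injEq] at h3
    rw [h3.1, h3.2]

/-- The bijection `(y, x) ↦ (x', y')`. -/
noncomputable def piTEquiv (q ℓ : ℕ) [NeZero q] [NeZero ℓ] (hcop : Nat.Coprime ℓ q) :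
    OnePoint (ZMod ℓ) × ZMod q ≃ ZMod q × OnePoint (ZMod ℓ) :=
  Equiv.ofBijective (piT q ℓ)
    ((Fintype.bijective_iff_injective_and_card _).mpr
      ⟨piT_injective hcop, by rw [Fintype.card_prod, Fintype.card_prod, mul_comm]⟩)

theorem UB_comm_TB {q ℓ : ℕ} (hq : q ∣ M) (hℓ : ℓ.Prime) (hℓM : ¬ ℓ ∣ M)
    (φ : Additive (Gamma0 M) →+ A) :
    UB M A hq (TB M A hℓ hℓM φ) = TB M A hℓ hℓM (UB M A hq φ) := by
  haveI : NeZero q := neZero_of_dvd hq
  haveI : Fact ℓ.Prime := ⟨hℓ⟩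
  haveI : NeZero ℓ := ⟨hℓ.ne_zero⟩
  have hq0 := NeZero.ne q
  have hℓ0 := hℓ.ne_zero
  have hℓ1 : (ℓ : ℤ) ≠ 1 := by exact_mod_cast hℓ.ne_one
  have hℓpos : (0 : ℤ) < ℓ := by exact_mod_cast hℓ.pos
  have hcop : Nat.Coprime ℓ q :=
    (Nat.Prime.coprime_iff_not_dvd hℓ).mpr fun h => hℓM (h.trans hq)
  refine heckeOp_comm (incl_injective M) (isHeckeFamily_T M hℓM) (isHeckeFamily_U M hq) ?_
    (piTEquiv q ℓ hcop) (epsT M q ℓ) ?_ φ
  · rintro ⟨x, y⟩ ⟨x', y'⟩ ε h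
    rcases y with _ | j <;> rcases y' with _ | j'
    · have h1 := ((isInt_repU hq0 x).mul (isInt_repT_infty hℓ0)).eq_of_eq'
        ((isInt_incl M ε).mul ((isInt_repU hq0 x').mul (isInt_repT_infty hℓ0))) h
      rw [Bmat_mul_Dq, Bmat_mul_Dq] at h1
      have h2 := ut_of_eq hℓpos hℓpos (mat_det ε) h1
      have h3 : x = x' := by
        have h4 := (ZMod.intCast_zmod_eq_zero_iff_dvd _ q).mpr h2.2.2
        push_cast at h4
        rw [ZMod.natCast_zmod_val, ZMod.natCast_zmod_val] at h4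
        exact sub_eq_zero.mp h4
      rw [h3]
    · exfalso
      have h1 := ((isInt_repU hq0 x).mul (isInt_repT_infty hℓ0)).eq_of_eq'
        ((isInt_incl M ε).mul ((isInt_repU hq0 x').mul (isInt_repT_coe hℓ0 j'))) h
      rw [Bmat_mul_Dq, Bmat_mul_Bmat] at h1
      exact hℓ1 (ut_of_eq hℓpos one_pos (mat_det ε) h1).1
    · exfalso
      have h1 := ((isInt_repU hq0 x).mul (isInt_repT_coe hℓ0 j)).eq_of_eq'
        ((isInt_incl M ε).mul ((isInt_repU hq0 x').mul (isInt_repT_infty hℓ0))) h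
      rw [Bmat_mul_Dq, Bmat_mul_Bmat] at h1
      exact hℓ1 (ut_of_eq one_pos hℓpos (mat_det ε) h1).1.symm
    · have h1 := ((isInt_repU hq0 x).mul (isInt_repT_coe hℓ0 j)).eq_of_eq'
        ((isInt_incl M ε).mul ((isInt_repU hq0 x').mul (isInt_repT_coe hℓ0 j'))) h
      rw [Bmat_mul_Bmat, Bmat_mul_Bmat] at h1
      have h2 := ut_of_eq one_pos one_pos (mat_det ε) h1
      have h3 := digits_eq_of_dvd (ZMod.val_lt x) (ZMod.val_lt x') (ZMod.val_lt j)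
        (ZMod.val_lt j') (by simpa using h2.2.2)
      rw [ZMod.val_injective q h3.1, ZMod.val_injective ℓ h3.2]
  · rintro ⟨y, x⟩
    rcases y with _ | j
    · show repT ℓ (OnePoint.infty : OnePoint (ZMod ℓ)) * repU q x
        = incl M (tUp M ((ℓ * x.val / q : ℕ) : ℤ))
          * (repU q (((ℓ * x.val : ℕ) : ZMod q)) * repT ℓ (OnePoint.infty : OnePoint (ZMod ℓ)))
      apply ((isInt_repT_infty hℓ0).mul (isInt_repU hq0 x)).eq_of_eq
        ((isInt_incl M _).mul ((isInt_repU hq0 _).mul (isInt_repT_infty hℓ0)))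
      rw [mat_tUp, ZMod.val_natCast]
      have h := Nat.mod_add_div (ℓ * x.val) q
      have h' : (((ℓ * x.val) % q : ℕ) : ℤ) + (q : ℤ) * ((ℓ * x.val / q : ℕ) : ℤ)
          = (ℓ : ℤ) * ((x.val : ℕ) : ℤ) := by exact_mod_cast h
      exact Dq_Bmat_swap q ℓ h'
    · show repT ℓ ((j : ZMod ℓ) : OnePoint (ZMod ℓ)) * repU q x
        = incl M 1 * (repU q (swapFun q ℓ (j, x)).1
          * repT ℓ (((swapFun q ℓ (j, x)).2 : ZMod ℓ) : OnePoint (ZMod ℓ)))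
      rw [map_one, one_mul]
      apply ((isInt_repT_coe hℓ0 j).mul (isInt_repU hq0 x)).eq_of_eq
        ((isInt_repU hq0 _).mul (isInt_repT_coe hℓ0 _))
      rw [Bmat_mul_Bmat, Bmat_mul_Bmat]
      have h := swapFun_val (q := q) (r := ℓ) (j, x)
      have h' : (((swapFun q ℓ (j, x)).2.val : ℕ) : ℤ)
            + ((swapFun q ℓ (j, x)).1.val : ℕ) * (ℓ : ℤ)
          = ((x.val : ℕ) : ℤ) + ((j.val : ℕ) : ℤ) * (q : ℤ) := by exact_mod_cast h
      rw [h', mul_comm (q : ℤ) (ℓ : ℤ)]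

end UT

end Fermat.Agent.S59.NonMin.Geom.H98

end
-- ==== END Fermat.Agent.S59.NonMin.Geom.H98_Comm
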