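-- GENERATED (merged mirror, NOTES/tools/trim/merge3_helper67.py): 27 modules of the originals, bodies verbatim.
import Mathlib
import Fermat.Prelude.Def_ModularForm_HeckeOperatorForms
import Fermat.Agent.Zm.S59_L01_004
import Fermat.Agent.Zm.S59_L01_002
import Fermat.Agent.Zm.S35_L06_003
import Fermat.Agent.Zm.S35_L09_001
import Fermat.Agent.Zm.S35_L01_001
import Fermat.Agent.Zm.S35_L03_002
import Fermat.Agent.Zm.S43_L01_004
import Fermat.Agent.Zm.S43_L02_003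
import Fermat.Agent.Zm.S58_L01_000
import Fermat.Agent.Zm.S35_L01_005
import Fermat.Agent.Zm.S35_L03_004
import Fermat.Agent.Zm.S35_L04_000
import Fermat.Agent.Zm.S35_L21_000
import Fermat.Agent.Zm.S43_L14_003
import Fermat.Agent.Zm.S43_L03_003
import Fermat.Agent.Zm.S59_L01_005
import Fermat.Agent.Zm.S43_L07_002
import Fermat.Agent.Zm.S59_L01_003
import Fermat.Agent.Zm.S35_L02_001
import Fermat.Agent.Zm.S43_L13_002
import Fermat.Agent.Zm.S43_L11_001
import Fermat.Agent.Zm.S43_L03_004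
import Fermat.Agent.Zm.S56_L12_001

-- ==== BEGIN Fermat.Agent.S59.NonMin.Geom.Rank.DefsP
section

/-!
# S59 / case C / PGEOM, leaf P-RANK (sub-planner helper27): interface

Plan: `NOTES/plan/S59_NMG_RANK.md` §5.  Target: `CaseC.Geom.Stmt_PRANK` (the eigenspaces do not
grow from the level `N` to the `U_p`-ordinary part of the level `N p`, `p ∤ N`).

Route.  `E' := EC (N p) S Sig (χ ∘ rest)` (no condition at `p`).
* cusp forms: `f ∈ E'`, `a₁(f) = 0` ⟹ `f = V_p G`, `G ∈ EC N` (`Stmt_PSTRUCT`); hence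
  `U_p² - a U_p + p = 0` on `E'`, `a` = the eigenvalue of `T_p` on `EC N` (`Stmt_PQUAD`), and the
  eigenspaces of `U_p` in `E'` have dimension `≤ 1` (`Stmt_PMULT1U`);
* transfer to the Betti lattice: `Stmt_ESU`, `Stmt_RELTR`, `Stmt_FIELDU`, `Stmt_EMBEDA`;
* algebra: on a separated `𝒪`-module with `U² - a U + p = 0` the `U`-divisible elements are
  eigenvectors for one `u` (`Stmt_PORDALG`);
* lattice: the eigenspace of the ordinary part consists of `U`-divisible eigenvectors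
  (`Stmt_UINJ`, `Stmt_PLAT`).

Conventions as in `Rank/Defs.lean`: leaf `X` in `S59/NonMin/Geom/Rank/H<seat>_<X>.lean`,
namespace `Fermat.Agent.S59.NonMin.Geom.Rank.H<seat>`.  Definitions only; no `sorry`.
-/

set_option autoImplicit false

open Polynomial CuspForm CongruenceSubgroup IsLocalRing ModularFormClass
open scoped MatrixGroups

namespace Fermat.Agent.S59.NonMin.Geom.Rank

open Fermat.Agent.Betti Fermat.Agent.S59 Fermat.Agent.S59.Asm Fermat.Agent.S41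
open ModularCurve.Period

/-! ## 1. Eigenspaces of `U_p` -/

section Eigenspaces

variable (N : ℕ) [NeZero N] (S : Set ℕ) (Sig : Finset ℕ)

/-- The `U_p = c` eigenspace of the Betti eigenspace `EB`. -/
def EBU (K : Type) [Field K] (χ : CuspForm.heckeAlgebra N 2 S →+* K) {p : ℕ} (hp : p ∣ N)
    (c : K) : Submodule K (Additive (Gamma0 N) →+ K) where
  carrier := {φ | φ ∈ EB N S Sig K χ ∧ UB N K hp φ = c • φ}
  zero_mem' := ⟨Submodule.zero_mem _, by rw [map_zero, smul_zero]⟩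
  add_mem' := by
    rintro φ ψ ⟨h1, h2⟩ ⟨k1, k2⟩
    exact ⟨Submodule.add_mem _ h1 k1, by rw [map_add, h2, k2, smul_add]⟩
  smul_mem' := by
    rintro d φ ⟨h1, h2⟩
    exact ⟨Submodule.smul_mem _ d h1, by rw [UB_smul, h2, smul_comm]⟩

/-- The `U_p = c` eigenspace of the cusp form eigenspace `EC`. -/
def ECU (χ : CuspForm.heckeAlgebra N 2 S →+* ℂ) {p : ℕ} (hp : p ∣ N) (c : ℂ) :
    Submodule ℂ (CuspForm (Gamma0 N) 2) where
  carrier := {f | f ∈ EC N S Sig χ ∧ CuspForm.heckeULin 2 hp f = c • f}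
  zero_mem' := ⟨Submodule.zero_mem _, by rw [map_zero, smul_zero]⟩
  add_mem' := by
    rintro f g ⟨h1, h2⟩ ⟨k1, k2⟩
    exact ⟨Submodule.add_mem _ h1 k1, by rw [map_add, h2, k2, smul_add]⟩
  smul_mem' := by
    rintro d f ⟨h1, h2⟩
    exact ⟨Submodule.smul_mem _ d h1, by rw [map_smul, h2, smul_comm]⟩

end Eigenspaces

/-- `Conj` with a field `F` which contains all the elements of `Frac 𝒪` integral over `ℤ`. -/
def ConjA {𝒪 : Type} [CommRing 𝒪] [IsDomain 𝒪] {H : Type} [CommRing H] (x : H →+* 𝒪)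
    (χ : H →+* ℂ) : Prop :=
  ∃ (F : Type) (_ : Field F) (x₀ : H →+* F) (jK : F →+* FractionRing 𝒪) (jC : F →+* ℂ),
    jK.comp x₀ = (algebraMap 𝒪 (FractionRing 𝒪)).comp x ∧ jC.comp x₀ = χ ∧
    ∀ y : FractionRing 𝒪, IsIntegral ℤ y → y ∈ Set.range jK

theorem ConjA.conj {𝒪 : Type} [CommRing 𝒪] [IsDomain 𝒪] {H : Type} [CommRing H] {x : H →+* 𝒪}
    {χ : H →+* ℂ} (h : ConjA x χ) : Conj x χ := by
  obtain ⟨F, i, x₀, jK, jC, h1, h2, -⟩ := h
  exact ⟨F, i, x₀, jK, jC, h1, h2⟩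

/-- The standing hypotheses of the step at `p`: a state of the class `G` of level `N` prime to
`p`, a character `x` lifting `θ`, a conjugate complex character `χ`, and the restriction map. -/
structure PHyp {𝒪 : Type} [CommRing 𝒪] [IsDomain 𝒪] [IsLocalRing 𝒪] (p : ℕ)
    (ρbar : ResidualGaloisRep (ResidueField 𝒪)) (Smin : Finset ℕ) (N₀ : ℕ) (Sig : Finset ℕ)
    (N : ℕ) [NeZero N] [NeZero (N * p)] (S : Finset ℕ)
    (θ : CuspForm.heckeAlgebra N 2 (↑S : Set ℕ) →+* ResidueField 𝒪)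
    (x : CuspForm.heckeAlgebra N 2 (↑S : Set ℕ) →+* 𝒪)
    (χ : CuspForm.heckeAlgebra N 2 (↑S : Set ℕ) →+* ℂ)
    (rest : CuspForm.heckeAlgebra (N * p) 2 (↑S : Set ℕ) →+*
      CuspForm.heckeAlgebra N 2 (↑S : Set ℕ)) : Prop where
  hp2 : p ≠ 2
  hp𝒪 : (p : 𝒪) ∈ maximalIdeal 𝒪
  hRes : ResHyp p ρbar Smin
  hG : GeomHyp p Smin N₀ Sig N S
  hpN : ¬ p ∣ N
  hFrob : Fermat.Agent.S59.Datum.FrobHyp ρbar N S θ
  hx : ∀ t, residue 𝒪 (x t) = θ t
  hχ : Conj x χ
  hrest : ∀ (ℓ : ℕ) (hℓ : ℓ.Prime) (hℓN' : ¬ ℓ ∣ N * p) (hℓS : ℓ ∉ (↑S : Set ℕ))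
    (hℓN : ¬ ℓ ∣ N),
    rest (CuspForm.heckeAlgebra.T hℓ hℓN' hℓS) = CuspForm.heckeAlgebra.T hℓ hℓN hℓS

/-! ## 2. Cusp forms -/

/-- **P-STRUCT**: a form of `E'` (level `N p`) with `a₁ = 0` is `V_p G`, `G ∈ EC` of level `N`.
[`Stmt_COEF` at the level `N p`: `a_n(f) = 0` for `n` prime to `Smin`.  Include `f` in the level
`N p²` and deplete at `p` (`Stmt_DEPL`): `f''` is an eigenvector with `a_n(f'') = 0` for `n`
prime to `Smin ∖ {p}`; `Stmt_CLAIM` with `P = Smin.erase p` (`NoLow r` from `Stmt_NOLOW`,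
`r ≠ p`: no flatness hypothesis) gives `f'' = 0`.  So `f` is supported on the multiples of `p`,
and `Stmt_MAIN` (`L = N p`, `r = p`, `L / gcd = N`) gives `G`; `G ∈ EC N` by the coefficient
formulas.] -/
def Stmt_PSTRUCT : Prop :=
  ∀ (𝒪 : Type) [CommRing 𝒪] [IsDomain 𝒪] [IsDiscreteValuationRing 𝒪]
    [IsAdicComplete (maximalIdeal 𝒪) 𝒪] [Finite (ResidueField 𝒪)] [CharZero 𝒪]
    (p : ℕ) [Fact p.Prime] (ρbar : ResidualGaloisRep (ResidueField 𝒪)) (Smin : Finset ℕ)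
    (N₀ : ℕ) (Sig : Finset ℕ) (N : ℕ) [NeZero N] [NeZero (N * p)] (S : Finset ℕ)
    (θ : CuspForm.heckeAlgebra N 2 (↑S : Set ℕ) →+* ResidueField 𝒪)
    (x : CuspForm.heckeAlgebra N 2 (↑S : Set ℕ) →+* 𝒪)
    (χ : CuspForm.heckeAlgebra N 2 (↑S : Set ℕ) →+* ℂ)
    (rest : CuspForm.heckeAlgebra (N * p) 2 (↑S : Set ℕ) →+*
      CuspForm.heckeAlgebra N 2 (↑S : Set ℕ)),
    PHyp p ρbar Smin N₀ Sig N S θ x χ rest →
    ∀ f ∈ EC (N * p) (↑S : Set ℕ) Sig (χ.comp rest), qCoeff f 1 = 0 →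
      (∀ n : ℕ, ¬ p ∣ n → qCoeff f n = 0) ∧
      ∃ G ∈ EC N (↑S : Set ℕ) Sig χ, ∀ n : ℕ, qCoeff G n = qCoeff f (p * n)

/-- the leaf P-STRUCT proves this -/
def Stmt_PSTRUCT_of : Prop :=
  Stmt_CLAIM → Stmt_COEF → Stmt_NOLOW → Stmt_DEPL → Stmt_MAIN → Stmt_PSTRUCT

/-- **P-QUAD**: `U_p² - a U_p + p = 0` on `E'`, with `a` an algebraic integer.
[`EC N` is a line (`Stmt_MULT1`, whose non-flatness hypothesis is empty as `p ∤ N₀`; `Stmt_NONVAN`)
stable under `T_p` (prelude `heckeTLin_comm`, `heckeTLin_heckeULin_comm`): `T_p = a` on it; `a` is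
integral (`S22.result`).  `G₀ ∈ EC N`, `a₁(G₀) = 1`.  For `f ∈ E'`: `f - a₁(f) G₀` has `a₁ = 0`,
so `f = a₁(f) G₀ + V_p G` (`Stmt_PSTRUCT`); the relation holds for `G₀` (`a a_{pn} = a_{p²n} +
p a_n` from `T_p G₀ = a G₀`) and for `V_p G` (`a_{pn}(G) - a a_n(G) + p a_{n/p}(G) = 0`);
conclude by `UpperHalfPlane.eq_of_forall_qCoeff_eq` and `qCoeff_heckeU`.] -/
def Stmt_PQUAD : Prop :=
  ∀ (𝒪 : Type) [CommRing 𝒪] [IsDomain 𝒪] [IsDiscreteValuationRing 𝒪]
    [IsAdicComplete (maximalIdeal 𝒪) 𝒪] [Finite (ResidueField 𝒪)] [CharZero 𝒪]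
    (p : ℕ) [Fact p.Prime] (ρbar : ResidualGaloisRep (ResidueField 𝒪)) (Smin : Finset ℕ)
    (N₀ : ℕ) (Sig : Finset ℕ) (N : ℕ) [NeZero N] [NeZero (N * p)] (S : Finset ℕ)
    (θ : CuspForm.heckeAlgebra N 2 (↑S : Set ℕ) →+* ResidueField 𝒪)
    (x : CuspForm.heckeAlgebra N 2 (↑S : Set ℕ) →+* 𝒪)
    (χ : CuspForm.heckeAlgebra N 2 (↑S : Set ℕ) →+* ℂ)
    (rest : CuspForm.heckeAlgebra (N * p) 2 (↑S : Set ℕ) →+*
      CuspForm.heckeAlgebra N 2 (↑S : Set ℕ)),
    PHyp p ρbar Smin N₀ Sig N S θ x χ rest → ∀ (hd : p ∣ N * p),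
    ∃ a : ℂ, IsIntegral ℤ a ∧ ∀ f ∈ EC (N * p) (↑S : Set ℕ) Sig (χ.comp rest),
      CuspForm.heckeULin 2 hd (CuspForm.heckeULin 2 hd f) - a • CuspForm.heckeULin 2 hd f
        + (p : ℂ) • f = 0

/-- the leaf P-QUAD proves this -/
def Stmt_PQUAD_of : Prop := Stmt_PSTRUCT → Stmt_MULT1 → Stmt_NONVAN → Stmt_PQUAD

/-- **P-MULT1U**: the eigenspaces of `U_p` in `E'` have dimension `≤ 1`.
[`a₁` is injective: `f ∈ ECU c`, `a₁(f) = 0` ⟹ `a_n(f) = 0` for `p ∤ n` (`Stmt_PSTRUCT`) and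
`a_{pn}(f) = c a_n(f)`, so all `a_n(f) = 0`.] -/
def Stmt_PMULT1U : Prop :=
  ∀ (𝒪 : Type) [CommRing 𝒪] [IsDomain 𝒪] [IsDiscreteValuationRing 𝒪]
    [IsAdicComplete (maximalIdeal 𝒪) 𝒪] [Finite (ResidueField 𝒪)] [CharZero 𝒪]
    (p : ℕ) [Fact p.Prime] (ρbar : ResidualGaloisRep (ResidueField 𝒪)) (Smin : Finset ℕ)
    (N₀ : ℕ) (Sig : Finset ℕ) (N : ℕ) [NeZero N] [NeZero (N * p)] (S : Finset ℕ)
    (θ : CuspForm.heckeAlgebra N 2 (↑S : Set ℕ) →+* ResidueField 𝒪)
    (x : CuspForm.heckeAlgebra N 2 (↑S : Set ℕ) →+* 𝒪)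
    (χ : CuspForm.heckeAlgebra N 2 (↑S : Set ℕ) →+* ℂ)
    (rest : CuspForm.heckeAlgebra (N * p) 2 (↑S : Set ℕ) →+*
      CuspForm.heckeAlgebra N 2 (↑S : Set ℕ)),
    PHyp p ρbar Smin N₀ Sig N S θ x χ rest → ∀ (hd : p ∣ N * p) (c : ℂ),
    Module.finrank ℂ ↥(ECU (N * p) (↑S : Set ℕ) Sig (χ.comp rest) hd c) ≤ 1

/-- the leaf P-MULT1U proves this -/
def Stmt_PMULT1U_of : Prop := Stmt_PSTRUCT → Stmt_PMULT1U

/-! ## 3. Transfer between `ℂ`, `F` and `Frac 𝒪` -/

/-- **ES-U**: Eichler–Shimura with the operator `U_p`: dimensions of the `U_p`-eigenspaces, and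
transfer of a quadratic relation for `U_p` from cusp forms to complex Betti classes.
[As `Stmt_ES`: `periodHomPair` intertwines `U_p × U_p` with `UB`.] -/
def Stmt_ESU : Prop :=
  ∀ (N : ℕ) [NeZero N] (S : Set ℕ) (Sig : Finset ℕ) (χ : CuspForm.heckeAlgebra N 2 S →+* ℂ)
    (p : ℕ) (hp : p ∣ N), p.Prime → (∀ r ∈ Sig, r.Prime) →
    (∀ c : ℂ, Module.finrank ℂ ↥(EBU N S Sig ℂ χ hp c) =
      2 * Module.finrank ℂ ↥(ECU N S Sig χ hp c)) ∧
    ∀ a : ℂ,
      (∀ f ∈ EC N S Sig χ, CuspForm.heckeULin 2 hp (CuspForm.heckeULin 2 hp f)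
        - a • CuspForm.heckeULin 2 hp f + (p : ℂ) • f = 0) →
      ∀ φ ∈ EB N S Sig ℂ χ, UB N ℂ hp (UB N ℂ hp φ) - a • UB N ℂ hp φ + (p : ℂ) • φ = 0

/-- **FIELD-U**: `Stmt_FIELD` for the eigenspaces of `U_p`. -/
def Stmt_FIELDU : Prop :=
  ∀ (N : ℕ) [NeZero N] (S : Set ℕ) (Sig : Finset ℕ) (F L : Type) [Field F] [Field L]
    [CharZero F] (j : F →+* L) (χ : CuspForm.heckeAlgebra N 2 S →+* F) (p : ℕ) (hp : p ∣ N)
    (c : F),
    Module.finrank L ↥(EBU N S Sig L (j.comp χ) hp (j c)) =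
      Module.finrank F ↥(EBU N S Sig F χ hp c)

/-- **REL-TR**: a quadratic relation for `U_p` on `EB` holds over `F` iff it holds over an
extension `L`; and its coefficient `a'` over `L` comes from `F` if `U_p ≠ 0` on `EB(F)`.
[`φ ↦ j ∘ φ` is injective, additive, commutes with `UB` (`heckeOp_comp`) and maps `EB(F)` into
`EB(L)`: this gives `⇐`.  `⇒`: `EB(L)` is the `L`-span of the image (it contains it, and the
dimensions agree by `Stmt_FIELD` since linearly independent families stay independent).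
Descent of `a'`: for `φ ∈ EB(F)`, `γ` with `(UB φ)(γ) ≠ 0`:
`a' = j (((UB (UB φ)) γ + p φ γ) / (UB φ) γ)`.] -/
def Stmt_RELTR : Prop :=
  Stmt_FIELD →
  ∀ (N : ℕ) [NeZero N] (S : Set ℕ) (Sig : Finset ℕ) (F L : Type) [Field F] [Field L]
    [CharZero F] (j : F →+* L) (χ : CuspForm.heckeAlgebra N 2 S →+* F) (p : ℕ) (hp : p ∣ N),
    (∀ a : F,
      (∀ φ ∈ EB N S Sig F χ, UB N F hp (UB N F hp φ) - a • UB N F hp φ + (p : F) • φ = 0) ↔
      (∀ φ ∈ EB N S Sig L (j.comp χ),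
        UB N L hp (UB N L hp φ) - (j a) • UB N L hp φ + (p : L) • φ = 0)) ∧
    ∀ a' : L,
      (∀ φ ∈ EB N S Sig L (j.comp χ),
        UB N L hp (UB N L hp φ) - a' • UB N L hp φ + (p : L) • φ = 0) →
      (∃ φ ∈ EB N S Sig F χ, UB N F hp φ ≠ 0) → ∃ a : F, j a = a'

/-- **EMBED-A**: `Stmt_EMBED` with `F` = the algebraic closure of `ℚ` in `Frac 𝒪`. -/
def Stmt_EMBEDA : Prop :=
  ∀ (𝒪 : Type) [CommRing 𝒪] [IsDomain 𝒪] [CharZero 𝒪] (N : ℕ) [NeZero N] (S : Set ℕ)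
    (x : CuspForm.heckeAlgebra N 2 S →+* 𝒪),
    ∃ χ : CuspForm.heckeAlgebra N 2 S →+* ℂ, ConjA x χ

/-! ## 4. The lattice -/

/-- **U-INJ**: `U_p` of level `N p` (`p ∤ N`) is injective on `Hom(Γ₀(N p), A)`, `A` without
`p`-torsion.  [`U φ = 0` ⟹ `p c₂ φ = c₁ U φ = 0` and `c₁ φ = T c₂ φ - c₂ U φ = 0`
(`CaseC.Geom.Stmt_PREL`), so `φ = U (U φ) = 0` by `S41.H39.al_main`.] -/
def Stmt_UINJ : Prop :=
  ∀ (N p : ℕ) [NeZero N] [NeZero (N * p)], p.Prime → ¬ p ∣ N → ∀ (hd : p ∣ N * p)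
    (A : Type) [AddCommGroup A], (∀ a : A, p • a = 0 → a = 0) →
    ∀ φ : Additive (Gamma0 (N * p)) →+ A, UB (N * p) A hd φ = 0 → φ = 0

/-- the leaf U-INJ proves this -/
def Stmt_UINJ_of : Prop := Fermat.Agent.S59.CaseC.Geom.Stmt_PREL → Stmt_UINJ

/-- **P-ORDALG** (pure algebra, Mathlib only): on a separated module over a complete discrete
valuation ring with `U² - a U + p = 0`, the infinitely `U`-divisible elements are eigenvectors
of `U` for one `u`.
[`a ∈ 𝔪`: `U² Λ ⊆ 𝔪 Λ`, the divisible elements are in `⋂ 𝔪ⁿ Λ = 0`; `u := 0`.  `a ∉ 𝔪`: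
`X² - a X + p ≡ X (X - a)` has a root `u ≡ a` (Hensel: `IsAdicComplete` ⟹ `HenselianLocalRing`),
`v := a - u ∈ 𝔪`, `(U - v)(U - u) = 0`; if `ψ = Uⁿ ψ'` then
`(U - u) ψ = Uⁿ (U - u) ψ' = vⁿ (U - u) ψ' ∈ 𝔪ⁿ Λ`.  `u` is integral over `ℤ[a]`.] -/
def Stmt_PORDALG : Prop :=
  ∀ (𝒪 : Type) [CommRing 𝒪] [IsDomain 𝒪] [IsDiscreteValuationRing 𝒪]
    [IsAdicComplete (maximalIdeal 𝒪) 𝒪] (p : ℕ), (p : 𝒪) ∈ maximalIdeal 𝒪 →
    ∀ (Λ : Type) [AddCommGroup Λ] [Module 𝒪 Λ],
    (∀ ψ : Λ, (∀ n : ℕ, ψ ∈ (maximalIdeal 𝒪 ^ n • ⊤ : Submodule 𝒪 Λ)) → ψ = 0) →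
    ∀ (U : Module.End 𝒪 Λ) (a : 𝒪), (∀ ψ : Λ, U (U ψ) - a • U ψ + (p : 𝒪) • ψ = 0) →
    ∃ u : 𝒪, (IsIntegral ℤ a → IsIntegral ℤ u) ∧
      ∀ ψ : Λ, (∀ n : ℕ, ∃ ψ' : Λ, (U ^ n) ψ' = ψ) → U ψ = u • ψ

/-- **P-ORDALG-R** (relative form of `Stmt_PORDALG`, the one used by the assembly; pure algebra):
`X` a separated `𝒪`-module, `U ∈ End X`, `P` a predicate on `X` such that
`U² ψ - a U ψ + p ψ = 0` for all `ψ` with `P ψ`.  Then there is `u ∈ 𝒪` such that every `ψ`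
which is `Uⁿ ψ'` with `P ψ'` for every `n` satisfies `U ψ = u ψ`.
[No stability of `P` under `U` is needed: `U^(2n) - (a U - p)ⁿ` is a multiple of
`U² - a U + p` in `𝒪[U]`, so `U^(2n) ψ' = (a U - p)ⁿ ψ' ∈ 𝔪ⁿ X` if `a ∈ 𝔪`; if `a ∉ 𝔪`: Hensel
gives `u`, `v = a - u ∈ 𝔪`, `w := U ψ' - u ψ'` has `U w = v w`, so
`U ψ - u ψ = Uⁿ w = vⁿ w ∈ 𝔪ⁿ X`.] -/
def Stmt_PORDALGR : Prop :=
  ∀ (𝒪 : Type) [CommRing 𝒪] [IsDomain 𝒪] [IsDiscreteValuationRing 𝒪]
    [IsAdicComplete (maximalIdeal 𝒪) 𝒪] (p : ℕ), (p : 𝒪) ∈ maximalIdeal 𝒪 →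
    ∀ (X : Type) [AddCommGroup X] [Module 𝒪 X],
    (∀ ψ : X, (∀ n : ℕ, ψ ∈ (maximalIdeal 𝒪 ^ n • ⊤ : Submodule 𝒪 X)) → ψ = 0) →
    ∀ (U : Module.End 𝒪 X) (P : X → Prop) (a : 𝒪),
    (∀ ψ : X, P ψ → U (U ψ) - a • U ψ + (p : 𝒪) • ψ = 0) →
    ∃ u : 𝒪, (IsIntegral ℤ a → IsIntegral ℤ u) ∧
      ∀ ψ : X, (∀ n : ℕ, ∃ ψ' : X, P ψ' ∧ (U ^ n) ψ' = ψ) → U ψ = u • ψ

/-- **P-LAT**: if the `U_p`-divisible elements of the lattice `{ψ : IsEB … 𝒪 x' ψ}` are
eigenvectors of `U_p` for `u`, then the rank of the eigenspace of the ordinary part is at most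
the dimension of the `U_p = u` eigenspace over `Frac 𝒪`.
[`ι'` maps `M'[x']` injectively to `{ψ : IsEB … ∧ ψ ordinary}` (as in `Stmt_LAT`); if
`ψ = Uⁿ ψ'`, `ψ'` in the lattice `InBetti`, then `Uⁿ (T_ℓ ψ' - x'(T_ℓ) ψ') = 0`
(`NonMin.Geom.H53.UB_TB_comm`), so `ψ'` is an eigenvector (`Stmt_UINJ`): `ψ` is `U`-divisible
in `{IsEB}`; hence `U ψ = u ψ`, and `ψ ↦ algebraMap ∘ ψ` maps `M'[x']` injectively and
`𝒪`-linearly into `EBU(Frac 𝒪, u)`.] -/
def Stmt_PLAT : Prop :=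
  Stmt_UINJ →
  ∀ (𝒪 : Type) [CommRing 𝒪] [IsDomain 𝒪] [IsDiscreteValuationRing 𝒪] [CharZero 𝒪]
    (N p : ℕ) [NeZero N] [NeZero (N * p)], p.Prime → ¬ p ∣ N → ∀ (hd : p ∣ N * p)
    (S : Finset ℕ), (∀ r : ℕ, r.Prime → r ∣ N * p → r ∈ S) →
    ∀ (θ' : CuspForm.heckeAlgebra (N * p) 2 (↑S : Set ℕ) →+* ResidueField 𝒪)
      (M' : HMod 𝒪 (N * p) (↑S : Set ℕ) θ') (Sig : Finset ℕ)
      (ι' : M'.V →ₗ[𝒪] (Additive (Gamma0 (N * p)) →+ 𝒪)), Function.Injective ι' →
    (∀ ψ, ψ ∈ Set.range ι' ↔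
      (InBetti 𝒪 (N * p) (↑S : Set ℕ) θ' Sig ψ ∧
        ∀ n : ℕ, ∃ ψ', InBetti 𝒪 (N * p) (↑S : Set ℕ) θ' Sig ψ' ∧
          (UB (N * p) 𝒪 hd)^[n] ψ' = ψ)) →
    (∀ (ℓ : ℕ) (hℓ : ℓ.Prime) (hℓN' : ¬ ℓ ∣ N * p) (hℓS : ℓ ∉ (↑S : Set ℕ)) (w : M'.V),
      ι' (M'.η (CuspForm.heckeAlgebra.T hℓ hℓN' hℓS) w) = TB (N * p) 𝒪 hℓ hℓN' (ι' w)) →
    ∀ (x' : CuspForm.heckeAlgebra (N * p) 2 (↑S : Set ℕ) →+* 𝒪),
    (∀ t, residue 𝒪 (x' t) = θ' t) →
    ∀ u : 𝒪,
    (∀ ψ : Additive (Gamma0 (N * p)) →+ 𝒪, IsEB (N * p) (↑S : Set ℕ) Sig 𝒪 x' ψ →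
      (∀ n : ℕ, ∃ ψ', IsEB (N * p) (↑S : Set ℕ) Sig 𝒪 x' ψ' ∧
        (UB (N * p) 𝒪 hd)^[n] ψ' = ψ) → UB (N * p) 𝒪 hd ψ = u • ψ) →
    Module.finrank 𝒪 ↥(NMState.eigen (⟨N * p, S, θ', M'⟩ : NMState 𝒪) x') ≤
      Module.finrank (FractionRing 𝒪)
        ↥(EBU (N * p) (↑S : Set ℕ) Sig (FractionRing 𝒪)
          ((algebraMap 𝒪 (FractionRing 𝒪)).comp x') hd (algebraMap 𝒪 (FractionRing 𝒪) u))

/-! ## 5. The assembly -/

/-- **PRANK-ASM**: the assembly.
[`χ`, `F` from `Stmt_EMBEDA`.  `rank M[x] = 2 dim EC N ≥ 2` (`H27.rank_eq`, `Stmt_NONVAN`).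
`Stmt_PQUAD` gives `a`; `Stmt_ESU` the relation on `EB(ℂ)`; if `EB(F) = 0` then
`EB(Frac 𝒪) = 0` and the left side is `0`; otherwise (`Stmt_UINJ`) `Stmt_RELTR` gives
`a = jC a_F`, the relation on `EB(F)` and on `EB(Frac 𝒪)` with `a_K = jK a_F`, integral over `ℤ`,
hence `a_K ∈ 𝒪` (integrally closed) and the relation on the lattice `{ψ : IsEB … 𝒪 ψ}`
(separated: the values lie in `𝒪`); `Stmt_PORDALG` gives `u`, integral over `ℤ`, so
`u = jK u_F`; `Stmt_PLAT`, `Stmt_FIELDU` (twice), `Stmt_ESU`, `Stmt_PMULT1U`: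
`rank M'[x ∘ rest] ≤ dim EBU(Frac 𝒪, u) = dim EBU(ℂ, jC u_F) = 2 dim ECU ≤ 2`.] -/
def Stmt_PRANKASM : Prop :=
  Stmt_LAT → Stmt_FIELD → Stmt_ES → Stmt_NONVAN → Stmt_EMBEDA → Stmt_PQUAD → Stmt_PMULT1U →
    Stmt_ESU → Stmt_FIELDU → Stmt_RELTR → Stmt_UINJ → Stmt_PORDALGR →
    Stmt_PLAT → Fermat.Agent.S59.CaseC.Geom.Stmt_PRANK

end Fermat.Agent.S59.NonMin.Geom.Rank

end
-- ==== END Fermat.Agent.S59.NonMin.Geom.Rank.DefsP

-- ==== BEGIN Fermat.Agent.S59.NonMin.Geom.Rank.H13_Embed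
section

/-!
# S59 / NMGEOM / RANK, leaf EMBED (helper13)

Every character of the Hecke algebra with values in a domain `𝒪` of characteristic zero is
conjugate to a complex one: its values are integral over `ℤ` (`S22`: the Hecke algebra is a
finite `ℤ`-module), so it factors through the algebraic closure `F` of `ℚ` in `Frac 𝒪`, and `F`
embeds in `ℂ` (`IsAlgClosed.lift`).
-/

set_option autoImplicit false

namespace Fermat.Agent.S59.NonMin.Geom.Rank.H13

open Fermat.Agent.S59.NonMin.Geom.Rank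

/-- A ring hom from a commutative ring which is a finite `ℤ`-module to a field `K` of
characteristic zero factors through a subfield of `K` which embeds in `ℂ`. -/
theorem factor_of_finite {K : Type} [Field K] [CharZero K] {H : Type} [CommRing H]
    [Module.Finite ℤ H] (y : H →+* K) :
    ∃ (F : Type) (_ : Field F) (x₀ : H →+* F) (jK : F →+* K) (_ : F →+* ℂ),
      jK.comp x₀ = y := by
  classical
  let F : IntermediateField ℚ K := algebraicClosure ℚ K
  have hmem : ∀ t : H, y t ∈ F := by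
    intro t
    have hint : IsIntegral ℤ t := Algebra.IsIntegral.isIntegral t
    have h2 : IsIntegral ℤ (y t) := hint.map y.toIntAlgHom
    have h3 : IsIntegral ℚ (y t) := h2.tower_top
    exact (mem_algebraicClosure_iff (F := ℚ) (E := K)).2 h3.isAlgebraic
  let x₀ : H →+* F := y.codRestrict F.toSubfield.toSubring hmem
  have halg : Algebra.IsAlgebraic ℚ F := algebraicClosure.isAlgebraic ℚ K
  let jC : F →ₐ[ℚ] ℂ := IsAlgClosed.lift
  refine ⟨F, inferInstance, x₀, (F.val : F →+* K), (jC : F →+* ℂ), ?_⟩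
  ext t
  rfl

/-- Abstract form of EMBED. -/
theorem conj_of_finite {𝒪 : Type} [CommRing 𝒪] [IsDomain 𝒪] [CharZero 𝒪] {H : Type} [CommRing H]
    [Module.Finite ℤ H] (x : H →+* 𝒪) : ∃ χ : H →+* ℂ, Conj x χ := by
  have hchar : CharZero (FractionRing 𝒪) :=
    charZero_of_injective_algebraMap (IsFractionRing.injective 𝒪 (FractionRing 𝒪))
  obtain ⟨F, hF, x₀, jK, jC, h⟩ :=
    factor_of_finite ((algebraMap 𝒪 (FractionRing 𝒪)).comp x)
  exact ⟨jC.comp x₀, F, hF, x₀, jK, jC, h, rfl⟩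

theorem stmt_EMBED : Stmt_EMBED := by
  intro 𝒪 _ _ _ N _ S x
  have hfin : Module.Finite ℤ (CuspForm.heckeAlgebra N 2 S) := Fermat.Agent.S22.result N 2 S
  exact conj_of_finite x

end Fermat.Agent.S59.NonMin.Geom.Rank.H13

end
-- ==== END Fermat.Agent.S59.NonMin.Geom.Rank.H13_Embed

-- ==== BEGIN Fermat.Agent.S59.NonMin.Geom.Rank.H21_SubExt
section

/-!
# S59 / NMGEOM / RANK, leaves FIELD and LAT, abstract part 2 (helper21)

* `finrank_sub_ext` : `F → L` an extension of fields, `UF ⊆ F^n`, `UL ⊆ L^n` subspaces such that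
  `UF` maps to `UL` and `l ∘ UL ⊆ UF` for every `F`-linear functional `l : L → F`; then
  `dim_L UL = dim_F UF`.
* `finrank_hom_ext` : the same for subspaces of `Hom(G, F)`, `Hom(G, L)`, `G` a finitely generated
  group.

Mathlib only.
-/

set_option autoImplicit false

open Module

namespace Fermat.Agent.S59.NonMin.Geom.Rank.H21

section FieldExt

variable {F L : Type*} [Field F] [Field L] [Algebra F L] {n : ℕ}

/-- **Field extension** for subspaces of `F^n`, `L^n`. -/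
theorem finrank_sub_ext (UF : Submodule F (Fin n → F)) (UL : Submodule L (Fin n → L))
    (h1 : ∀ v ∈ UF, extV F L n v ∈ UL) (h2 : ∀ (l : L →ₗ[F] F), ∀ v ∈ UL, coV n l v ∈ UF) :
    finrank L UL = finrank F UF := by
  classical
  let w := Module.finBasis F UF
  have hw : LinearIndependent F (fun a => ((w a : UF) : Fin n → F)) :=
    w.linearIndependent.map' UF.subtype (Submodule.ker_subtype _)
  have hli := linearIndependent_extV (K := L) hw
  have hspan : UL =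
      Submodule.span L (Set.range fun a => extV F L n ((w a : UF) : Fin n → F)) := by
    apply le_antisymm
    · intro v hv
      obtain ⟨T, hT⟩ := exists_decomp (F := F) v
      rw [hT]
      refine Submodule.sum_mem _ fun s _ => Submodule.smul_mem _ _ ?_
      have hu := h2 ((Basis.ofVectorSpace F L).coord s) v hv
      have h2' : (⟨_, hu⟩ : UF) ∈ Submodule.span F (Set.range w) := by
        rw [w.span_eq]; exact Submodule.mem_top
      have h3 : coV n ((Basis.ofVectorSpace F L).coord s) v ∈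
          Submodule.span F (Set.range fun a => ((w a : UF) : Fin n → F)) := by
        have := Submodule.apply_mem_span_image_of_mem_span UF.subtype h2'
        rwa [← Set.range_comp] at this
      have h4 : Submodule.span F (Set.range fun a => ((w a : UF) : Fin n → F)) ≤
          ((Submodule.span L (Set.range fun a =>
            extV F L n ((w a : UF) : Fin n → F))).restrictScalars F).comap (extV F L n) := by
        rw [Submodule.span_le]
        rintro _ ⟨a, rfl⟩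
        exact Submodule.subset_span ⟨a, rfl⟩
      exact h4 h3
    · rw [Submodule.span_le]
      rintro _ ⟨a, rfl⟩
      exact h1 _ (w a).2
  rw [hspan, finrank_span_eq_card hli, Fintype.card_fin]

end FieldExt

section Hom

variable {G : Type*} [AddGroup G]

/-- a finitely generated group has a finite generating family -/
theorem exists_gen (hG : AddGroup.FG G) :
    ∃ (m : ℕ) (g : Fin m → G), AddSubgroup.closure (Set.range g) = ⊤ := by
  classical
  obtain ⟨S, hS, hfin⟩ := AddGroup.fg_iff.mp hG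
  obtain ⟨m, g, hg⟩ : ∃ (m : ℕ) (g : Fin m → G), Set.range g = S := by
    obtain ⟨m, g, -, hg⟩ := hfin.fin_param
    exact ⟨m, g, hg⟩
  exact ⟨m, g, by rw [hg, hS]⟩

/-- evaluation at a family of elements -/
def evG {m : ℕ} (g : Fin m → G) (A : Type*) [CommRing A] : (G →+ A) →ₗ[A] (Fin m → A) where
  toFun φ i := φ (g i)
  map_add' _ _ := rfl
  map_smul' _ _ := rfl

@[simp] theorem evG_apply {m : ℕ} (g : Fin m → G) (A : Type*) [CommRing A] (φ : G →+ A)
    (i : Fin m) : evG g A φ i = φ (g i) := rfl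

theorem evG_injective {m : ℕ} {g : Fin m → G} (hg : AddSubgroup.closure (Set.range g) = ⊤)
    (A : Type*) [CommRing A] : Function.Injective (evG g A) := by
  intro φ ψ h
  refine AddMonoidHom.eq_of_eqOn_dense hg ?_
  rintro _ ⟨i, rfl⟩
  exact congrFun h i

variable {F L : Type*} [Field F] [Field L] [Algebra F L]

/-- **Field extension** for subspaces of `Hom(G, F)`, `Hom(G, L)`: if `WF` maps to `WL` under
`φ ↦ algebraMap ∘ φ` and `l ∘ WL ⊆ WF` for every `F`-linear functional `l`, the dimensions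
agree. -/
theorem finrank_hom_ext (hG : AddGroup.FG G) (WF : Submodule F (G →+ F))
    (WL : Submodule L (G →+ L))
    (h1 : ∀ φ ∈ WF, (algebraMap F L).toAddMonoidHom.comp φ ∈ WL)
    (h2 : ∀ (l : L →ₗ[F] F), ∀ φ ∈ WL, l.toAddMonoidHom.comp φ ∈ WF) :
    finrank L WL = finrank F WF := by
  obtain ⟨m, g, hg⟩ := exists_gen hG
  have e1 : finrank L WL = finrank L (WL.map (evG g L)) :=
    (Submodule.equivMapOfInjective (evG g L) (evG_injective hg L) WL).finrank_eq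
  have e2 : finrank F WF = finrank F (WF.map (evG g F)) :=
    (Submodule.equivMapOfInjective (evG g F) (evG_injective hg F) WF).finrank_eq
  rw [e1, e2]
  refine finrank_sub_ext _ _ ?_ ?_
  · rintro _ ⟨φ, hφ, rfl⟩
    exact ⟨_, h1 φ hφ, rfl⟩
  · rintro l _ ⟨φ, hφ, rfl⟩
    exact ⟨_, h2 l φ hφ, rfl⟩

end Hom

end Fermat.Agent.S59.NonMin.Geom.Rank.H21

end
-- ==== END Fermat.Agent.S59.NonMin.Geom.Rank.H21_SubExt

-- ==== BEGIN Fermat.Agent.S59.NonMin.Geom.Rank.H25_Depl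
section

set_option autoImplicit false

namespace Fermat.Agent.S59.NonMin.Geom.Rank.H25

/-- **DEPL**. -/
theorem stmt_DEPL : Fermat.Agent.S59.NonMin.Geom.Rank.Stmt_DEPL :=
  fun L r _ hr hr2 f => exists_depl L r hr hr2 f

end Fermat.Agent.S59.NonMin.Geom.Rank.H25

end
-- ==== END Fermat.Agent.S59.NonMin.Geom.Rank.H25_Depl

-- ==== BEGIN Fermat.Agent.S59.NonMin.Geom.Rank.H27_Asm
section

/-!
# S59 / NMGEOM / RANK: the assembly (helper27)

`stmt_RANKASM : Stmt_RANKASM`, i.e.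
`Stmt_LAT → Stmt_FIELD → Stmt_EMBED → Stmt_ES → Stmt_MULT1 → Stmt_NONVAN → Geom.Stmt_RANK`.
-/

set_option autoImplicit false

open Polynomial CuspForm CongruenceSubgroup IsLocalRing ModularFormClass
open scoped MatrixGroups

namespace Fermat.Agent.S59.NonMin.Geom.Rank.H27

open Fermat.Agent.Betti Fermat.Agent.S59 Fermat.Agent.S59.Asm
open ModularCurve.Period Fermat.Agent.S59.NonMin.Geom.Rank

/-- `GeomHyp` at the level `N q²`. -/
theorem geomHyp_step {p : ℕ} {Smin : Finset ℕ} {N₀ : ℕ} {Sig : Finset ℕ} {N : ℕ} {S : Finset ℕ}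
    (hG : GeomHyp p Smin N₀ Sig N S) {q : ℕ} (hq : q.Prime) (hqp : q ≠ p) (hqS : q ∉ S) :
    GeomHyp p Smin N₀ (insert q Sig) (N * q ^ 2) (insert q S) := by
  have hqSmin : q ∉ Smin := fun h => hqS (by rw [hG.hS]; exact Finset.mem_union_left _ h)
  have hqSig : q ∉ Sig := fun h => hqS (by rw [hG.hS]; exact Finset.mem_union_right _ h)
  refine ⟨?_, ?_, ?_, hG.hN₀, hG.hN₀S⟩
  · rw [Finset.prod_insert hqSig, hG.hN]; ring
  · rw [hG.hS, Finset.union_insert]
  · intro r hr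
    rcases Finset.mem_insert.mp hr with rfl | hr
    · exact ⟨hq, hqp, hqSmin⟩
    · exact hG.hSig r hr

/-- all primes of the level of a state of the class `G` lie in `S`. -/
theorem primes_mem {p : ℕ} {Smin : Finset ℕ} {N₀ : ℕ} {Sig : Finset ℕ} {N : ℕ} {S : Finset ℕ}
    (hG : GeomHyp p Smin N₀ Sig N S) : ∀ r : ℕ, r.Prime → r ∣ N → r ∈ S := by
  intro r hr hrN
  rw [hG.hN] at hrN
  rw [hG.hS]
  rcases (Nat.Prime.dvd_mul hr).mp hrN with h | h
  · exact Finset.mem_union_left _ (hG.hN₀S r hr h)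
  · obtain ⟨s, hs, hrs⟩ := (Prime.dvd_finsetProd_iff hr.prime _).mp h
    have hrs' : r ∣ s := hr.dvd_of_dvd_pow hrs
    have : r = s := (Nat.prime_dvd_prime_iff_eq hr (hG.hSig s hs).1).mp hrs'
    exact Finset.mem_union_right _ (this ▸ hs)

/-- the chain `rank M[x] = 2 dim EC`. -/
theorem rank_eq (hLAT : Stmt_LAT) (hFIELD : Stmt_FIELD) (hES : Stmt_ES)
    (𝒪 : Type) [CommRing 𝒪] [IsDomain 𝒪] [IsDiscreteValuationRing 𝒪]
    (s : NMState 𝒪) (Sig : Finset ℕ) (hS : ∀ r : ℕ, r.Prime → r ∣ s.N → r ∈ s.S)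
    (hSig : ∀ r ∈ Sig, r.Prime) (hB : IsBetti s Sig)
    (x : CuspForm.heckeAlgebra s.N 2 (↑s.S : Set ℕ) →+* 𝒪)
    (hx : ∀ t, residue 𝒪 (x t) = s.θ t)
    (F : Type) [Field F] (x₀ : CuspForm.heckeAlgebra s.N 2 (↑s.S : Set ℕ) →+* F)
    (jK : F →+* FractionRing 𝒪) (jC : F →+* ℂ)
    (hK : jK.comp x₀ = (algebraMap 𝒪 (FractionRing 𝒪)).comp x) :
    Module.finrank 𝒪 ↥(s.eigen x) =
      2 * Module.finrank ℂ ↥(EC s.N (↑s.S : Set ℕ) Sig (jC.comp x₀)) := by
  have : CharZero F := RingHom.charZero jC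
  rw [hLAT 𝒪 s Sig hS hB x hx, ← hK, hFIELD s.N (↑s.S : Set ℕ) Sig F (FractionRing 𝒪) jK x₀,
    ← hFIELD s.N (↑s.S : Set ℕ) Sig F ℂ jC x₀, hES s.N (↑s.S : Set ℕ) Sig (jC.comp x₀) hSig]

theorem stmt_RANKASM : Stmt_RANKASM := by
  intro hLAT hFIELD hEMBED hES hMULT1 hNONVAN 𝒪 _ _ _ _ _ _ p _ hp2 hp𝒪 ρbar Smin hRes N₀ hflat
    Sig s hG hFrob hB q hq hqp hqN hqS _ rest hrest M' hB' x hx
  obtain ⟨χ, F, _, x₀, jK, jC, hK, hC⟩ := hEMBED 𝒪 s.N (↑s.S : Set ℕ) x
  have hG' := geomHyp_step hG hq hqp (fun h => hqS (Finset.mem_coe.mpr h))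
  have hSigP : ∀ r ∈ Sig, r.Prime := fun r hr => (hG.hSig r hr).1
  have hSigP' : ∀ r ∈ insert q Sig, r.Prime := fun r hr => (hG'.hSig r hr).1
  -- the level `N`
  have h1 := rank_eq hLAT hFIELD hES 𝒪 s Sig (primes_mem hG) hSigP hB x hx F x₀ jK jC hK
  -- the level `N q²`
  have hx' : ∀ t, residue 𝒪 ((x.comp rest) t) = (s.θ.comp rest) t := fun t => hx (rest t)
  have hK' : jK.comp (x₀.comp rest) = (algebraMap 𝒪 (FractionRing 𝒪)).comp (x.comp rest) := by
    rw [← RingHom.comp_assoc, hK, RingHom.comp_assoc]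
  have h2 := rank_eq hLAT hFIELD hES 𝒪
    (⟨s.N * q ^ 2, insert q s.S, s.θ.comp rest, M'⟩ : NMState 𝒪) (insert q Sig)
    (primes_mem hG') hSigP' hB' (x.comp rest) hx' F (x₀.comp rest) jK jC hK'
  -- multiplicity one at the level `N q²`
  have hFrob' : Fermat.Agent.S59.Datum.FrobHyp ρbar (s.N * q ^ 2) (insert q s.S)
      (s.θ.comp rest) := by
    intro ℓ hℓ hℓN' hℓS' A hA σ hσ
    have hℓN : ¬ ℓ ∣ s.N := fun h => hℓN' (Dvd.dvd.mul_right h _)
    have hℓS : ℓ ∉ (↑s.S : Set ℕ) := fun h => hℓS' (by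
      rw [Finset.coe_insert]; exact Set.mem_insert_of_mem _ h)
    rw [hFrob ℓ hℓ hℓN hℓS A hA σ hσ, RingHom.comp_apply, hrest ℓ hℓ hℓN' hℓS' hℓN hℓS]
  have hConj' : Conj (x.comp rest) ((jC.comp x₀).comp rest) :=
    ⟨F, inferInstance, x₀.comp rest, jK, jC, hK', by rw [RingHom.comp_assoc]⟩
  have h3 := hMULT1 𝒪 p hp2 hp𝒪 ρbar Smin hRes N₀ hflat (insert q Sig) (s.N * q ^ 2)
    (insert q s.S) hG' (s.θ.comp rest) hFrob' (x.comp rest) hx' ((jC.comp x₀).comp rest) hConj'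
  rw [RingHom.comp_assoc] at h3
  -- non vanishing at the level `N`
  have h4 : EC s.N (↑s.S : Set ℕ) Sig (jC.comp x₀) ≠ ⊥ :=
    hNONVAN s.N (↑s.S : Set ℕ) Sig (jC.comp x₀) (fun r hr => ⟨(hG.hSig r hr).1, by
      rw [hG.hN]
      exact Dvd.dvd.mul_left (Finset.dvd_prod_of_mem (fun r => r ^ 2) hr) _⟩)
  have : FiniteDimensional ℂ (CuspForm (Gamma0 s.N) 2) :=
    Fermat.Agent.R.H99.finiteDimensional_cuspForm s.N
  have h5 : 1 ≤ Module.finrank ℂ ↥(EC s.N (↑s.S : Set ℕ) Sig (jC.comp x₀)) := by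
    rw [Nat.one_le_iff_ne_zero]
    intro h0
    exact h4 (Submodule.finrank_eq_zero.mp h0)
  rw [h1]
  calc Module.finrank 𝒪 ↥(NMState.eigen
        (⟨s.N * q ^ 2, insert q s.S, s.θ.comp rest, M'⟩ : NMState 𝒪) (x.comp rest))
      = 2 * Module.finrank ℂ ↥(EC (s.N * q ^ 2) (↑(insert q s.S) : Set ℕ) (insert q Sig)
          (jC.comp (x₀.comp rest))) := h2
    _ ≤ 2 * 1 := Nat.mul_le_mul_left 2 h3
    _ ≤ 2 * Module.finrank ℂ ↥(EC s.N (↑s.S : Set ℕ) Sig (jC.comp x₀)) :=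
        Nat.mul_le_mul_left 2 h5

end Fermat.Agent.S59.NonMin.Geom.Rank.H27

end
-- ==== END Fermat.Agent.S59.NonMin.Geom.Rank.H27_Asm

-- ==== BEGIN Fermat.Agent.S59.NonMin.Geom.Rank.H2_NoLow
section

/-!
# S59 / NMGEOM / RANK, leaf NOLOW (helper2)

`nolow_of : R.Stmt_S30 → R.Stmt_FlatPoint → Datum.Stmt_ResIrr → Datum.Stmt_FlatDesc → Stmt_NOLOW`.

A nonzero cusp form `f` of a level `L` prime to `r` with the eigenvalues of `χ` gives a character
`y₀` of the Hecke algebra of level `L` with values in `𝒪` (`exists_descent`, twice), hence a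
Galois representation (`S30`) whose reduction is `ρbar`; it is unramified at `r ≠ p`, resp. flat
at `r = p`: contradiction.
-/

set_option autoImplicit false
set_option linter.style.haveILetI false
set_option linter.unusedSectionVars false
set_option linter.unusedVariables false
set_option maxHeartbeats 1000000

open Polynomial CuspForm CongruenceSubgroup IsLocalRing ModularFormClass
open scoped TensorProduct

namespace Fermat.Agent.S59.NonMin.Geom.Rank.H2

open Fermat.Agent.S59 Fermat.Agent.S59.Asm Fermat.Agent.S59.NonMin.Geom.Rank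

/-- An anemic eigenvector is an eigenvector of the whole Hecke algebra away from `S` (all primes
of the level lie in `S`). -/
theorem exists_eigenvalue_of_isAnemic {L : ℕ} [NeZero L] {S : Set ℕ} {a : ℕ → ℂ}
    (hLS : ∀ s : ℕ, s.Prime → s ∣ L → s ∈ S) {f : CuspForm (Gamma0 L) 2}
    (hf : IsAnemic L S a f) (T : heckeAlgebra L 2 S) :
    ∃ c : ℂ, (T : Module.End ℂ (CuspForm (Gamma0 L) 2)) f = c • f := by
  obtain ⟨T, hT⟩ := T
  show ∃ c : ℂ, T f = c • f
  induction hT using Algebra.adjoin_induction with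
  | mem x hx =>
    rcases hx with ⟨ℓ, hℓ, hℓN, hℓS, rfl⟩ | ⟨q, hqN, hq, hqS, rfl⟩
    · exact ⟨_, hf ℓ hℓ hℓN hℓS⟩
    · exact absurd (hLS q hq hqN) hqS
  | algebraMap r =>
    refine ⟨(r : ℂ), ?_⟩
    rw [Algebra.algebraMap_eq_smul_one, LinearMap.smul_apply, Module.End.one_apply]
    exact (Int.cast_smul_eq_zsmul ℂ r f).symm
  | add x y _ _ hx hy =>
    obtain ⟨c, hc⟩ := hx
    obtain ⟨d, hd⟩ := hy
    exact ⟨c + d, by rw [LinearMap.add_apply, hc, hd, add_smul]⟩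
  | mul x y _ _ hx hy =>
    obtain ⟨c, hc⟩ := hx
    obtain ⟨d, hd⟩ := hy
    exact ⟨d * c, by rw [Module.End.mul_apply, hd, map_smul, hc, smul_smul]⟩

/-- Descent of a character of the anemic Hecke algebra along an injective ring homomorphism. -/
theorem exists_descent {L : ℕ} [NeZero L] {S : Set ℕ}
    (hLS : ∀ s : ℕ, s.Prime → s ∣ L → s ∈ S)
    {R R' : Type} [CommRing R] [CommRing R'] (ψ : heckeAlgebra L 2 S →+* R) (ι : R' →+* R)
    (hι : Function.Injective ι)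
    (hgen : ∀ (ℓ : ℕ) (hℓ : ℓ.Prime) (hℓL : ¬ ℓ ∣ L) (hℓS : ℓ ∉ S),
      ψ (heckeAlgebra.T hℓ hℓL hℓS) ∈ ι.range) :
    ∃ θ : heckeAlgebra L 2 S →+* R', ∀ T, ι (θ T) = ψ T := by
  have hrange : ∀ T : heckeAlgebra L 2 S, ψ T ∈ ι.range := by
    rintro ⟨T, hT⟩
    induction hT using Algebra.adjoin_induction with
    | mem x hx =>
      rcases hx with ⟨ℓ, hℓ, hℓN, hℓS, rfl⟩ | ⟨q, hqN, hq, hqS, rfl⟩
      · exact hgen ℓ hℓ hℓN hℓS
      · exact absurd (hLS q hq hqN) hqS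
    | algebraMap r =>
      refine ⟨(r : R'), ?_⟩
      rw [map_intCast]
      have : (⟨algebraMap ℤ _ r, Subalgebra.algebraMap_mem _ r⟩ : heckeAlgebra L 2 S) =
          ((r : ℤ) : heckeAlgebra L 2 S) := by
        apply Subtype.ext
        simp
      rw [this, map_intCast]
    | add x y hx hy ihx ihy =>
      have : (⟨x + y, Subalgebra.add_mem _ hx hy⟩ : heckeAlgebra L 2 S) =
          (⟨x, hx⟩ : heckeAlgebra L 2 S) + ⟨y, hy⟩ := rfl
      rw [this, map_add]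
      exact ι.range.add_mem ihx ihy
    | mul x y hx hy ihx ihy =>
      have : (⟨x * y, Subalgebra.mul_mem _ hx hy⟩ : heckeAlgebra L 2 S) =
          (⟨x, hx⟩ : heckeAlgebra L 2 S) * ⟨y, hy⟩ := rfl
      rw [this, map_mul]
      exact ι.range.mul_mem ihx ihy
  let e : R' ≃+* ι.range := RingEquiv.ofBijective ι.rangeRestrict
    ⟨fun x y hxy => hι (congrArg Subtype.val hxy), ι.rangeRestrict_surjective⟩
  let θ : heckeAlgebra L 2 S →+* R' :=
    (e.symm : ι.range →+* R').comp (ψ.codRestrict ι.range hrange)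
  have hθ : ∀ T, ι (θ T) = ψ T := by
    intro T
    have h1 : e (θ T) = ψ.codRestrict ι.range hrange T := by
      simp only [θ, RingHom.comp_apply, RingHom.coe_coe, RingEquiv.apply_symm_apply]
    exact congrArg Subtype.val h1
  exact ⟨θ, hθ⟩

/-- Characteristic polynomials of the residual representation. -/
theorem charpoly_resid {A : Type} [CommRing A] [IsLocalRing A] (ρ : GaloisRepAdic A)
    (σ : AlgebraicClosure ℚ ≃ₐ[ℚ] AlgebraicClosure ℚ) :
    LinearMap.charpoly (ρ.residual.ρ σ) = (LinearMap.charpoly (ρ.ρ σ)).map (residue A) :=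
  LinearMap.charpoly_baseChange (A := ResidueField A) (ρ.ρ σ)

/-- the reduction of an unramified representation is unramified -/
theorem residual_unramified {A : Type} [CommRing A] [IsLocalRing A] (ρ : GaloisRepAdic A)
    (q : ℕ) (h : ρ.IsUnramifiedAt q) : ρ.residual.IsUnramifiedAt q := by
  intro P hP σ hσ
  have h1 : ρ.residual.ρ σ = (ρ.ρ σ).baseChange (ResidueField A) := rfl
  rw [h1, h P hP σ hσ]
  exact LinearMap.baseChange_one (R := A) (A := ResidueField A) (M := ρ.V)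

/-- unramifiedness is invariant under equivalence of residual representations -/
theorem unramified_of_isEquiv {k : Type} [Field k] {ρ₁ ρ₂ : ResidualGaloisRep k}
    (he : ρ₁.IsEquiv ρ₂) (q : ℕ) (h : ρ₁.IsUnramifiedAt q) : ρ₂.IsUnramifiedAt q := by
  obtain ⟨e⟩ := he
  intro P hP σ hσ
  refine LinearMap.ext fun v => ?_
  obtain ⟨w, rfl⟩ := e.toLinearEquiv.surjective v
  rw [← e.map_apply, h P hP σ hσ]
  rfl

/-- unramifiedness descends along a change of the field of coefficients -/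
theorem unramified_of_baseChangeAlong {k k' : Type} [Field k] [Field k'] (φ : k →+* k')
    (ρbar : ResidualGaloisRep k) (q : ℕ) (h : (ρbar.baseChangeAlong φ).IsUnramifiedAt q) :
    ρbar.IsUnramifiedAt q := by
  letI : Algebra k k' := φ.toAlgebra
  intro P hP σ hσ
  have h1 : (ρbar.ρ σ).baseChange k' = 1 := h P hP σ hσ
  refine LinearMap.ext fun v => ?_
  apply Module.FaithfullyFlat.tensorProduct_mk_injective (A := k) (B := k') ρbar.V
  show (1 : k') ⊗ₜ[k] (ρbar.ρ σ v) = (1 : k') ⊗ₜ[k] ((1 : Module.End k ρbar.V) v)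
  rw [← LinearMap.baseChange_tmul, h1]
  rfl

/-- **NOLOW** from its inputs. -/
theorem nolow_of (hS30 : Fermat.Agent.R.Stmt_S30) (hFP : Fermat.Agent.R.Stmt_FlatPoint)
    (hRI : Fermat.Agent.S59.Datum.Stmt_ResIrr) (hFD : Fermat.Agent.S59.Datum.Stmt_FlatDesc) :
    Stmt_NOLOW := by
  intro 𝒪 _ _ _ _ _ _ p _ hp2 hp𝒪 ρbar Smin hyp N _ S hSS hNS θ hθ x hx χ hχ r hr hrflat
  intro L _ hrL hLS f hf
  by_contra hf0
  have hpP : p.Prime := Fact.out
  obtain ⟨F, _, x₀, jK, jC, hjK, hjC⟩ := hχ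
  have hLS' : ∀ s : ℕ, s.Prime → s ∣ L → s ∈ (↑S : Set ℕ) := hLS
  have hℓN : ∀ ℓ : ℕ, ℓ.Prime → ℓ ∉ (↑S : Set ℕ) → ¬ ℓ ∣ N :=
    fun ℓ hℓ hℓS h => hℓS (Finset.mem_coe.mpr (hNS ℓ hℓ h))
  -- the character of `f`
  obtain ⟨y, hy⟩ := Fermat.Agent.R.H99.exists_character_of_eigenvector (↑S : Set ℕ) f hf0
    (exists_eigenvalue_of_isAnemic hLS' hf)
  have hyT : ∀ (ℓ : ℕ) (hℓ : ℓ.Prime) (hℓL : ¬ ℓ ∣ L) (hℓS : ℓ ∉ (↑S : Set ℕ)),
      y (heckeAlgebra.T hℓ hℓL hℓS) =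
        jC (x₀ (heckeAlgebra.T hℓ (hℓN ℓ hℓ hℓS) hℓS)) := by
    intro ℓ hℓ hℓL hℓS
    have h1 := hy (heckeAlgebra.T hℓ hℓL hℓS)
    rw [heckeAlgebra.coe_T, hf ℓ hℓ hℓL hℓS, eigVal_eq χ hℓ (hℓN ℓ hℓ hℓS) hℓS, ← hjC] at h1
    exact (smul_left_injective ℂ hf0 h1).symm
  -- descent to `F`
  obtain ⟨y₁, hy₁⟩ := exists_descent hLS' y jC jC.injective
    (fun ℓ hℓ hℓL hℓS => ⟨_, (hyT ℓ hℓ hℓL hℓS).symm⟩)
  have hy₁T : ∀ (ℓ : ℕ) (hℓ : ℓ.Prime) (hℓL : ¬ ℓ ∣ L) (hℓS : ℓ ∉ (↑S : Set ℕ)),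
      y₁ (heckeAlgebra.T hℓ hℓL hℓS) = x₀ (heckeAlgebra.T hℓ (hℓN ℓ hℓ hℓS) hℓS) := by
    intro ℓ hℓ hℓL hℓS
    apply jC.injective
    rw [hy₁, hyT]
  -- descent to `𝒪`
  have hjK' : ∀ t, jK (x₀ t) = algebraMap 𝒪 (FractionRing 𝒪) (x t) := fun t =>
    RingHom.congr_fun hjK t
  obtain ⟨y₀, hy₀⟩ := exists_descent hLS' (jK.comp y₁) (algebraMap 𝒪 (FractionRing 𝒪))
    (IsFractionRing.injective 𝒪 (FractionRing 𝒪))
    (fun ℓ hℓ hℓL hℓS => ⟨x (heckeAlgebra.T hℓ (hℓN ℓ hℓ hℓS) hℓS), by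
      rw [RingHom.comp_apply, hy₁T, hjK']⟩)
  have hy₀T : ∀ (ℓ : ℕ) (hℓ : ℓ.Prime) (hℓL : ¬ ℓ ∣ L) (hℓS : ℓ ∉ (↑S : Set ℕ)),
      y₀ (heckeAlgebra.T hℓ hℓL hℓS) = x (heckeAlgebra.T hℓ (hℓN ℓ hℓ hℓS) hℓS) := by
    intro ℓ hℓ hℓL hℓS
    apply IsFractionRing.injective 𝒪 (FractionRing 𝒪)
    rw [hy₀, RingHom.comp_apply, hy₁T, hjK']
  -- the Galois representation
  have hpS : p ∈ S := hSS hyp.hpSmin
  obtain ⟨𝒪'', i1, i2, i3, i4, i5, i6, i7, i8, i9, hinj, ρ, hfrob, hunr⟩ :=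
    hS30 p L S hpS hLS 𝒪 hp𝒪 y₀
  have hℓL : ∀ ℓ : ℕ, ℓ.Prime → ℓ ∉ S → ¬ ℓ ∣ L := fun ℓ hℓ hℓS h => hℓS (hLS ℓ hℓ h)
  -- its reduction is `ρbar`
  have hres := hRI (ResidueField 𝒪) (ResidueField 𝒪'') (ResidueField.map (algebraMap 𝒪 𝒪''))
    ρbar ρ.residual S hyp.habs (by
      intro ℓ hℓ hℓS B hB σ hσ
      have hℓS' : ℓ ∉ (↑S : Set ℕ) := fun h => hℓS (Finset.mem_coe.mp h)
      rw [_root_.Fermat.Agent.S59.NonMin.Geom.Rank.H2.charpoly_resid, hfrob ℓ hℓ (hℓL ℓ hℓ hℓS) hℓS' B hB σ hσ,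
        hθ ℓ hℓ (hℓN ℓ hℓ hℓS') hℓS' B hB σ hσ, hy₀T ℓ hℓ (hℓL ℓ hℓ hℓS) hℓS', ← hx]
      simp only [Polynomial.map_add, Polynomial.map_sub, Polynomial.map_mul, Polynomial.map_pow,
        Polynomial.map_X, Polynomial.map_C, map_natCast, Polynomial.map_natCast,
        ResidueField.map_residue])
  obtain ⟨hirr, hequiv⟩ := hres
  by_cases hrp : r = p
  · -- flatness at `p`
    subst hrp
    have hp𝒪'' : ((r : ℕ) : 𝒪'') ∈ maximalIdeal 𝒪'' := by
      rw [mem_maximalIdeal, mem_nonunits_iff]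
      intro hu
      have h1 : IsUnit (algebraMap 𝒪 𝒪'' ((r : ℕ) : 𝒪)) := by
        rw [map_natCast]
        exact hu
      have h2 := (isUnit_map_iff (algebraMap 𝒪 𝒪'') _).mp h1
      exact (mem_nonunits_iff.mp ((mem_maximalIdeal _).mp hp𝒪)) h2
    have hflat : ρ.IsFlatAt r := hFP r L S 𝒪'' hpP hp2 hp𝒪'' hrL hpS hLS
      ((algebraMap 𝒪 𝒪'').comp y₀) ρ
      (fun ℓ hℓ hℓN hℓS B hB σ hσ => hfrob ℓ hℓ hℓN hℓS B hB σ hσ) hirr
    exact hrflat rfl (hFD r hpP (ResidueField 𝒪) ρbar 𝒪''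
      (ResidueField.map (algebraMap 𝒪 𝒪'')) ρ hequiv hflat)
  · -- unramified at `r`
    have hrP : r.Prime := hyp.hS r hr
    have h1 : ρ.IsUnramifiedAt r := hunr r hrP hrL hrp
    have h2 : ρbar.IsUnramifiedAt r :=
      unramified_of_baseChangeAlong _ ρbar r
        (unramified_of_isEquiv hequiv r (residual_unramified ρ r h1))
    exact ((hyp.hmin r hrP hrp).mp hr) h2

end Fermat.Agent.S59.NonMin.Geom.Rank.H2

end
-- ==== END Fermat.Agent.S59.NonMin.Geom.Rank.H2_NoLow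

-- ==== BEGIN Fermat.Agent.S59.NonMin.Geom.Rank.H2_POrdAlgCore
section

/-!
# S59 / NMGEOM / RANK, stage 2 (P-RANK), leaf P-ORDALG-R: the algebra (helper2)

`𝒪` a complete discrete valuation ring, `p ∈ 𝔪`, `X` a separated `𝒪`-module, `U ∈ End X`, `P` a
predicate on `X` with `U² ψ - a U ψ + p ψ = 0` for all `ψ` with `P ψ`.  Then there is `u ∈ 𝒪`
(integral over `ℤ` if `a` is) such that every `ψ` which is `Uⁿ ψ'` with `P ψ'` for every `n`
satisfies `U ψ = u ψ`  (`pordalgr_core`).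

[`a ∈ 𝔪`: `u = 0`; `U^(2n) ψ' = α ψ' + β U ψ'` with `α, β ∈ 𝔪ⁿ`, so `ψ ∈ ⋂ 𝔪ⁿ X = 0`.
`a` a unit: Hensel (`exists_unit_root`) gives `u`, `v = a - u ∈ 𝔪`, `u v = p`;
`w := U ψ' - u ψ'` has `U w = v w`, so `U ψ - u ψ = Uⁿ w = vⁿ w ∈ 𝔪ⁿ X`.]
-/

set_option autoImplicit false
set_option linter.style.haveILetI false
set_option linter.unusedSectionVars false
set_option linter.unusedVariables false
set_option linter.unusedSimpArgs false
set_option maxHeartbeats 1000000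

open IsLocalRing Polynomial Module

namespace Fermat.Agent.S59.NonMin.Geom.Rank.H2

section POrdAlg

variable {𝒪 : Type} [CommRing 𝒪]
variable {X : Type} [AddCommGroup X] [Module 𝒪 X]

/-- If `U² x = a U x - π x` with `a, π ∈ I`, then `U^(2n) x = α x + β U x` with `α, β ∈ Iⁿ`. -/
theorem pow_two_mul_apply_of_rel (I : Ideal 𝒪) (U : Module.End 𝒪 X) (a π : 𝒪) (ha : a ∈ I)
    (hπ : π ∈ I) (x : X) (hx : U (U x) - a • U x + π • x = 0) (n : ℕ) :
    ∃ α β : 𝒪, α ∈ I ^ n ∧ β ∈ I ^ n ∧ (U ^ (2 * n)) x = α • x + β • U x := by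
  have hUU : U (U x) = a • U x - π • x := by
    have h := hx
    rw [sub_add, sub_eq_zero] at h
    exact h
  induction n with
  | zero =>
    refine ⟨1, 0, ?_, ?_, ?_⟩
    · simp
    · simp
    · simp
  | succ n ih =>
    obtain ⟨α, β, hα, hβ, h⟩ := ih
    refine ⟨-(α * π) - β * (a * π), α * a + β * (a * a - π), ?_, ?_, ?_⟩
    · rw [pow_succ]
      refine sub_mem (neg_mem (Ideal.mul_mem_mul hα hπ)) (Ideal.mul_mem_mul hβ (I.mul_mem_left a hπ))
    · rw [pow_succ]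
      refine add_mem (Ideal.mul_mem_mul hα ha) (Ideal.mul_mem_mul hβ ?_)
      exact sub_mem (I.mul_mem_left a ha) hπ
    · have e : 2 * (n + 1) = 2 + 2 * n := by ring
      rw [e, pow_add, Module.End.mul_apply, h, pow_two, Module.End.mul_apply, map_add, map_add,
        map_smul, map_smul, map_smul, map_smul, hUU, map_sub, map_smul, map_smul, hUU]
      module

/-- Elements of `Iⁿ • x + Iⁿ • y` lie in `Iⁿ X`. -/
theorem smul_add_smul_mem_pow_smul_top (I : Ideal 𝒪) (n : ℕ) {α β : 𝒪} (hα : α ∈ I ^ n)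
    (hβ : β ∈ I ^ n) (x y : X) : α • x + β • y ∈ (I ^ n • ⊤ : Submodule 𝒪 X) :=
  add_mem (Submodule.smul_mem_smul hα Submodule.mem_top)
    (Submodule.smul_mem_smul hβ Submodule.mem_top)

/-- If `U w = v w` then `Uⁿ w = vⁿ w`. -/
theorem pow_apply_of_eigen (U : Module.End 𝒪 X) (v : 𝒪) (w : X) (hw : U w = v • w) (n : ℕ) :
    (U ^ n) w = v ^ n • w := by
  induction n with
  | zero => simp
  | succ n ih =>
    rw [pow_succ, Module.End.mul_apply, hw, map_smul, ih, smul_smul, pow_succ, mul_comm]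

/-- A root of `X² - a X + π` with `a` integral over `ℤ` (and `π` an integer) is integral. -/
theorem isIntegral_of_quadratic (u a : 𝒪) (p : ℕ) (hu : u * u - a * u + (p : 𝒪) = 0)
    (ha : IsIntegral ℤ a) : IsIntegral ℤ u := by
  let A := integralClosure ℤ 𝒪
  have hp : IsIntegral ℤ (p : 𝒪) := isIntegral_algebraMap (R := ℤ) (x := (p : ℤ)) |> fun h => by
    simpa using h
  let a' : A := ⟨a, ha⟩
  let p' : A := ⟨(p : 𝒪), hp⟩
  have hmonic : (Polynomial.X ^ 2 + (Polynomial.C (-a') * Polynomial.X + Polynomial.C p') :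
      A[X]).Monic := by
    apply Polynomial.monic_X_pow_add
    refine lt_of_le_of_lt (Polynomial.degree_add_le _ _) ?_
    refine max_lt ?_ ?_
    · refine lt_of_le_of_lt (Polynomial.degree_C_mul_X_le (-a')) ?_
      norm_num
    · refine lt_of_le_of_lt Polynomial.degree_C_le ?_
      norm_num
  have hint : IsIntegral A u := by
    refine ⟨_, hmonic, ?_⟩
    rw [← Polynomial.aeval_def]
    simp only [map_add, map_sub, map_mul, map_pow, map_neg, Polynomial.aeval_X,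
      Polynomial.aeval_C]
    have e1 : algebraMap A 𝒪 a' = a := rfl
    have e2 : algebraMap A 𝒪 p' = (p : 𝒪) := rfl
    rw [e1, e2, pow_two]
    rw [← hu]
    ring
  exact isIntegral_trans (R := ℤ) (A := A) u hint

end POrdAlg

section Core

variable (𝒪 : Type) [CommRing 𝒪] [IsDomain 𝒪] [IsDiscreteValuationRing 𝒪]
  [IsAdicComplete (maximalIdeal 𝒪) 𝒪]

/-- **P-ORDALG-R**, the algebra. -/
theorem pordalgr_core (p : ℕ) (hp : (p : 𝒪) ∈ maximalIdeal 𝒪)
    (X : Type) [AddCommGroup X] [Module 𝒪 X]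
    (hsep : ∀ ψ : X, (∀ n : ℕ, ψ ∈ (maximalIdeal 𝒪 ^ n • ⊤ : Submodule 𝒪 X)) → ψ = 0)
    (U : Module.End 𝒪 X) (P : X → Prop) (a : 𝒪)
    (hrel : ∀ ψ : X, P ψ → U (U ψ) - a • U ψ + (p : 𝒪) • ψ = 0) :
    ∃ u : 𝒪, (IsIntegral ℤ a → IsIntegral ℤ u) ∧
      ∀ ψ : X, (∀ n : ℕ, ∃ ψ' : X, P ψ' ∧ (U ^ n) ψ' = ψ) → U ψ = u • ψ := by
  by_cases ha : a ∈ maximalIdeal 𝒪
  · refine ⟨0, fun _ => isIntegral_zero, ?_⟩
    intro ψ hψ
    have h0 : ψ = 0 := by
      apply hsep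
      intro n
      obtain ⟨ψ', hP, hψ'⟩ := hψ (2 * n)
      obtain ⟨α, β, hα, hβ, h⟩ :=
        pow_two_mul_apply_of_rel (maximalIdeal 𝒪) U a (p : 𝒪) ha hp ψ' (hrel ψ' hP) n
      rw [← hψ', h]
      exact smul_add_smul_mem_pow_smul_top _ n hα hβ _ _
    rw [h0, map_zero, smul_zero]
  · have hau : IsUnit a := by
      by_contra h
      exact ha ((IsLocalRing.mem_maximalIdeal a).2 h)
    obtain ⟨u, v, huu, hv, huv, hmul⟩ := exists_unit_root a (p : 𝒪) hau hp
    refine ⟨u, ?_, ?_⟩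
    · intro hint
      refine isIntegral_of_quadratic u a p ?_ hint
      rw [← huv, ← hmul]
      ring
    · intro ψ hψ
      have h0 : U ψ - u • ψ = 0 := by
        apply hsep
        intro n
        obtain ⟨ψ', hP, hψ'⟩ := hψ n
        have hUU : U (U ψ') = a • U ψ' - (p : 𝒪) • ψ' := by
          have h := hrel ψ' hP
          rw [sub_add, sub_eq_zero] at h
          exact h
        have hw : U (U ψ' - u • ψ') = v • (U ψ' - u • ψ') := by
          rw [map_sub, map_smul, hUU, ← huv, ← hmul]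
          module
        have hpow := pow_apply_of_eigen U v (U ψ' - u • ψ') hw n
        have e : U ψ - u • ψ = (U ^ n) (U ψ' - u • ψ') := by
          rw [map_sub, map_smul, hψ', ← Module.End.mul_apply, ← pow_succ, pow_succ',
            Module.End.mul_apply, hψ']
        rw [e, hpow]
        exact Submodule.smul_mem_smul (Ideal.pow_mem_pow hv n) Submodule.mem_top
      exact sub_eq_zero.1 h0

end Core

end Fermat.Agent.S59.NonMin.Geom.Rank.H2

end
-- ==== END Fermat.Agent.S59.NonMin.Geom.Rank.H2_POrdAlgCore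

-- ==== BEGIN Fermat.Agent.S59.NonMin.Geom.Rank.H38_Claim
section

/-!
# S59 / NMGEOM / RANK, leaf CLAIM (helper38)

`claim_of : Stmt_CLAIM_of` (`= Stmt_DEPL → Stmt_MAIN → Stmt_MAINb → Stmt_CLAIM`): an eigenvector of
the `T_ℓ` (`ℓ ∉ S`) whose coefficients `a_n` vanish for all `n` prime to the primes of `P` is zero,
if every `r ∈ P` divides the level at most once and, when it does, `NoLow S a r` holds.

Induction on `P`.  For `r ∈ P`: the depletion of `f` at `r` (at the level `L r²`) is again an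
eigenvector, it vanishes by induction, so `f` is supported on the multiples of `r`; then
`Stmt_MAINb` (`r ∤ L`) resp. `Stmt_MAIN` and `NoLow` (`r ∣ L`).
-/

set_option autoImplicit false

open CuspForm CongruenceSubgroup ModularFormClass

namespace Fermat.Agent.S59.NonMin.Geom.Rank.H38

open Fermat.Agent.S59.H61

/-- The coefficient identity of an eigenvector of `T_ℓ`. -/
theorem anemic_coeff {L : ℕ} {S : Set ℕ} {a : ℕ → ℂ} {f : CuspForm (Gamma0 L) 2}
    (hf : IsAnemic L S a f) {ℓ : ℕ} (hℓ : ℓ.Prime) (hℓL : ¬ ℓ ∣ L) (hℓS : ℓ ∉ S) (n : ℕ) :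
    qCoeff ⇑f (n * ℓ) + (if ℓ ∣ n then (ℓ : ℂ) * qCoeff ⇑f (n / ℓ) else 0) =
      a ℓ * qCoeff ⇑f n := by
  have h : qCoeff ⇑(CuspForm.heckeTLin 2 hℓ hℓL f) n = qCoeff ⇑(a ℓ • f) n := by
    rw [hf ℓ hℓ hℓL hℓS]
  rw [Fermat.Agent.S49.qCoeff_heckeTLin, Fermat.Agent.S49.qCoeff_smul] at h
  have h2 : ((ℓ : ℂ)) ^ ((2 : ℤ) - 1) = (ℓ : ℂ) := by norm_num
  rw [h2] at h
  exact h

/-- A cusp form whose coefficients satisfy the identities of the `T_ℓ` is an eigenvector. -/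
theorem isAnemic_of_coeff {L : ℕ} {S : Set ℕ} {a : ℕ → ℂ} {g : CuspForm (Gamma0 L) 2}
    (h : ∀ ℓ : ℕ, ℓ.Prime → ¬ ℓ ∣ L → ℓ ∉ S → ∀ n : ℕ,
      qCoeff ⇑g (n * ℓ) + (if ℓ ∣ n then (ℓ : ℂ) * qCoeff ⇑g (n / ℓ) else 0) =
        a ℓ * qCoeff ⇑g n) :
    IsAnemic L S a g := by
  intro ℓ hℓ hℓL hℓS
  apply Fermat.Agent.S49.cuspForm_ext_qCoeff
  intro n
  rw [Fermat.Agent.S49.qCoeff_heckeTLin, Fermat.Agent.S49.qCoeff_smul]
  have h2 : ((ℓ : ℂ)) ^ ((2 : ℤ) - 1) = (ℓ : ℂ) := by norm_num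
  rw [h2]
  exact h ℓ hℓ hℓL hℓS n

/-- **CLAIM** from DEPL, MAIN, MAINb. -/
theorem claim_of : Stmt_CLAIM_of := by
  intro hDEPL hMAIN hMAINb S a P
  induction P using Finset.induction_on with
  | empty =>
    intro _ L _ _ _ _ f _ hcoef
    exact Fermat.Agent.S49.cuspForm_eq_zero_of_qCoeff
      (fun n => hcoef n (fun r hr => absurd hr (Finset.notMem_empty r)))
  | insert r P' hrP' ih =>
    intro hP L _ hLS hsq hNoLow f hf hcoef
    obtain ⟨hr, hrS⟩ := hP r (Finset.mem_insert_self r P')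
    have hP' : ∀ r' ∈ P', r'.Prime ∧ r' ∈ S :=
      fun r' hr' => hP r' (Finset.mem_insert_of_mem hr')
    have hne : ∀ r' ∈ P', r' ≠ r := by
      rintro r' hr' rfl
      exact hrP' hr'
    -- a prime `r' ≠ r` dividing `L r²` divides `L`
    have hdvdL : ∀ r' : ℕ, r'.Prime → r' ≠ r → ∀ m : ℕ, r' ^ m ∣ L * r ^ 2 → r' ^ m ∣ L := by
      intro r' hr' hr'r m hm
      have hcop : Nat.Coprime (r' ^ m) (r ^ 2) :=
        Nat.Coprime.pow m 2 ((Nat.coprime_primes hr' hr).2 hr'r)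
      exact hcop.dvd_of_dvd_mul_right hm
    have : NeZero (L * r ^ 2) := ⟨mul_ne_zero (NeZero.ne L) (pow_ne_zero 2 hr.ne_zero)⟩
    -- the depletion of `f` at `r`
    obtain ⟨g, hg⟩ := hDEPL (L * r ^ 2) r hr (dvd_mul_left (r ^ 2) L)
      (restrictCusp (Gamma0_mul_le_GL L (r ^ 2)) f)
    rw [coe_restrictCusp] at hg
    have hgan : IsAnemic (L * r ^ 2) S a g := by
      apply isAnemic_of_coeff
      intro ℓ hℓ hℓL hℓS n
      have hℓL' : ¬ ℓ ∣ L := fun h => hℓL (dvd_mul_of_dvd_left h _)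
      have hℓr : ℓ ≠ r := by
        rintro rfl
        exact hℓS hrS
      have hstar := anemic_coeff hf hℓ hℓL' hℓS n
      have hrℓ : ¬ r ∣ ℓ := fun h => hℓr ((Nat.prime_dvd_prime_iff_eq hr hℓ).1 h).symm
      have h1 : r ∣ n * ℓ ↔ r ∣ n := by
        constructor
        · intro h
          exact (hr.dvd_mul.1 h).resolve_right hrℓ
        · intro h
          exact dvd_mul_of_dvd_left h ℓ
      by_cases hrn : r ∣ n
      · rw [hg, hg n, if_pos (h1.2 hrn), if_pos hrn, mul_zero, zero_add]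
        split_ifs with hℓn
        · have h2 : r ∣ n / ℓ := by
            obtain ⟨k, hk⟩ := hℓn
            rw [hk, Nat.mul_div_cancel_left k hℓ.pos]
            rw [hk] at hrn
            exact (hr.dvd_mul.1 hrn).resolve_left hrℓ
          rw [hg, if_pos h2, mul_zero]
        · rfl
      · rw [hg, hg n, if_neg (fun h => hrn (h1.1 h)), if_neg hrn, ← hstar]
        congr 1
        split_ifs with hℓn
        · have h2 : ¬ r ∣ n / ℓ := fun h => hrn (h.trans (Nat.div_dvd_of_dvd hℓn))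
          rw [hg, if_neg h2]
        · rfl
    have hg0 : g = 0 := by
      refine ih hP' (L * r ^ 2) ?_ ?_ ?_ g hgan ?_
      · intro s hs hsL
        rcases (hs.dvd_mul.1 hsL) with h | h
        · exact hLS s hs h
        · have := (Nat.prime_dvd_prime_iff_eq hs hr).1 (hs.dvd_of_dvd_pow h)
          rw [this]
          exact hrS
      · intro r' hr' h
        exact hsq r' (Finset.mem_insert_of_mem hr')
          (hdvdL r' (hP' r' hr').1 (hne r' hr') 2 h)
      · intro r' hr' h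
        refine hNoLow r' (Finset.mem_insert_of_mem hr') ?_
        have := hdvdL r' (hP' r' hr').1 (hne r' hr') 1 (by rwa [pow_one])
        rwa [pow_one] at this
      · intro n hn
        rw [hg]
        split_ifs with hrn
        · rfl
        · refine hcoef n fun r' hr' => ?_
          rcases Finset.mem_insert.1 hr' with h | h
          · rw [h]
            exact hrn
          · exact hn r' h
    -- `f` is supported on the multiples of `r`
    have hsupp : ∀ n : ℕ, ¬ r ∣ n → qCoeff ⇑f n = 0 := by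
      intro n hn
      have := hg n
      rw [if_neg hn, hg0, Fermat.Agent.S49.qCoeff_zero_form] at this
      exact this.symm
    by_cases hrL : r ∣ L
    · obtain ⟨G, hG⟩ := hMAIN L r hr f hsupp
      have hgcd : Nat.gcd L r = r := Nat.gcd_eq_right hrL
      have hL' : L / Nat.gcd L r * r = L := by
        rw [hgcd]
        exact Nat.div_mul_cancel hrL
      have : NeZero (L / Nat.gcd L r) := ⟨fun h0 => NeZero.ne L (by rw [← hL', h0, zero_mul])⟩
      have hrL' : ¬ r ∣ L / Nat.gcd L r := by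
        intro h
        apply hsq r (Finset.mem_insert_self r P')
        rw [pow_two, ← hL']
        exact Nat.mul_dvd_mul h (dvd_refl r)
      have hGan : IsAnemic (L / Nat.gcd L r) S a G := by
        apply isAnemic_of_coeff
        intro ℓ hℓ hℓL hℓS n
        have hℓr : ℓ ≠ r := by
          rintro rfl
          exact hℓS hrS
        have hℓr' : ¬ ℓ ∣ r := fun h => hℓr ((Nat.prime_dvd_prime_iff_eq hℓ hr).1 h)
        have hℓL' : ¬ ℓ ∣ L := by
          intro h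
          rw [← hL'] at h
          rcases hℓ.dvd_mul.1 h with h | h
          · exact hℓL h
          · exact hℓr' h
        have hstar := anemic_coeff hf hℓ hℓL' hℓS (r * n)
        rw [hG, hG n, ← hstar, mul_assoc]
        congr 1
        have h1 : ℓ ∣ r * n ↔ ℓ ∣ n := by
          constructor
          · intro h
            exact (hℓ.dvd_mul.1 h).resolve_left hℓr'
          · intro h
            exact dvd_mul_of_dvd_right h r
        by_cases hℓn : ℓ ∣ n
        · rw [if_pos hℓn, if_pos (h1.2 hℓn), hG, Nat.mul_div_assoc r hℓn]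
        · rw [if_neg hℓn, if_neg (fun h => hℓn (h1.1 h))]
      have hG0 : G = 0 := by
        refine hNoLow r (Finset.mem_insert_self r P') hrL (L / Nat.gcd L r) hrL' ?_ G hGan
        intro s hs hsL
        refine hLS s hs ?_
        rw [← hL']
        exact dvd_mul_of_dvd_left hsL r
      apply Fermat.Agent.S49.cuspForm_eq_zero_of_qCoeff
      intro n
      by_cases hrn : r ∣ n
      · obtain ⟨m, rfl⟩ := hrn
        rw [← hG m, hG0, Fermat.Agent.S49.qCoeff_zero_form]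
      · exact hsupp n hrn
    · exact hMAINb L r hr hrL f hsupp

end Fermat.Agent.S59.NonMin.Geom.Rank.H38

end
-- ==== END Fermat.Agent.S59.NonMin.Geom.Rank.H38_Claim

-- ==== BEGIN Fermat.Agent.S59.NonMin.Geom.Rank.H38_Coef
section

/-!
# S59 / NMGEOM / RANK, leaf COEF (helper38)

`stmt_COEF : Stmt_COEF`: for `f ∈ EC N S Sig χ` with `a₁(f) = 0`, `a_n(f) = 0` for every `n` all of
whose prime factors in `S` lie in `Sig`.  Strong induction on `n`, with the coefficient formulas of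
`T_ℓ` and `U_r`.
-/

set_option autoImplicit false

open CuspForm CongruenceSubgroup ModularFormClass

namespace Fermat.Agent.S59.NonMin.Geom.Rank.H38

open Fermat.Agent.S59.H61

/-- The coefficients of the zero cusp form vanish. -/
theorem qCoeff_zero_cusp (N : ℕ) (n : ℕ) :
    qCoeff ⇑(0 : CuspForm (Gamma0 N) 2) n = 0 := by
  have h := qCoeff_cusp_smul (0 : ℂ) (0 : CuspForm (Gamma0 N) 2) n
  rw [zero_smul, zero_mul] at h
  exact h

/-- The coefficient formula of `U_r` on a cusp form killed by `U_r`. -/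
theorem qCoeff_mul_of_heckeU_eq_zero {N : ℕ} [NeZero N] {r : ℕ} (hr : r.Prime) (hrN : r ∣ N)
    (f : CuspForm (Gamma0 N) 2) (hU : CuspForm.heckeULin 2 hrN f = 0) (m : ℕ) :
    qCoeff ⇑f (m * r) = 0 := by
  have h := ModularFormClass.qCoeff_heckeU (k := 2) f (hper N) hr.ne_zero m
  rw [ModularForm.coeffHeckeU_apply, ← CuspForm.coe_heckeULin_apply 2 hrN f, hU,
    qCoeff_zero_cusp] at h
  exact h.symm

/-- The coefficient formula of `T_ℓ` on an eigenvector. -/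
theorem qCoeff_mul_of_heckeT_eq_smul {N : ℕ} {ℓ : ℕ} (hℓ : ℓ.Prime) (hℓN : ¬ ℓ ∣ N)
    (f : CuspForm (Gamma0 N) 2) (c : ℂ) (hT : CuspForm.heckeTLin 2 hℓ hℓN f = c • f) (m : ℕ) :
    qCoeff ⇑f (m * ℓ) =
      c * qCoeff ⇑f m - (if ℓ ∣ m then (ℓ : ℂ) * qCoeff ⇑f (m / ℓ) else 0) := by
  have h := ModularFormClass.qCoeff_heckeT (k := 2) f (hper N) hℓ.ne_zero m
  rw [ModularForm.coeffHeckeT_apply, ← CuspForm.coe_heckeTLin_apply 2 hℓ hℓN f, hT,
    qCoeff_cusp_smul] at h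
  have h2 : ((ℓ : ℂ)) ^ ((2 : ℤ) - 1) = (ℓ : ℂ) := by norm_num
  rw [h2] at h
  rw [h]
  ring

/-- **COEF**. -/
theorem stmt_COEF : Stmt_COEF := by
  intro N _ S Sig χ hS hSig f hf h1 n
  induction n using Nat.strong_induction_on with
  | _ n ih =>
    intro hn
    rcases Nat.lt_or_ge n 2 with h2 | h2
    · interval_cases n
      · exact CuspFormClass.qExpansion_coeff_zero f one_pos (hper N)
      · exact h1
    · obtain ⟨s, hs, hsn⟩ := Nat.exists_prime_and_dvd (show n ≠ 1 by omega)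
      obtain ⟨m, rfl⟩ := hsn
      have hm0 : m ≠ 0 := by
        rintro rfl
        omega
      have hmlt : m < s * m := by
        have := hs.two_le
        nlinarith [Nat.pos_of_ne_zero hm0]
      have hmcond : ∀ t : ℕ, t.Prime → t ∣ m → t ∈ S → t ∈ Sig :=
        fun t ht htm => hn t ht (dvd_mul_of_dvd_right htm s)
      have hm := ih m hmlt hmcond
      rw [mul_comm]
      by_cases hsS : s ∈ S
      · have hsSig := hn s hs (dvd_mul_right s m) hsS
        exact qCoeff_mul_of_heckeU_eq_zero hs (hSig s hsSig) f (hf.2 s hsSig (hSig s hsSig)) m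
      · have hsN : ¬ s ∣ N := fun h => hsS (hS s hs h)
        rw [qCoeff_mul_of_heckeT_eq_smul hs hsN f _ (hf.1 s hs hsN hsS) m, hm, mul_zero]
        split_ifs with hsm
        · have hlt : m / s < s * m := lt_of_le_of_lt (Nat.div_le_self m s) hmlt
          have hcond : ∀ t : ℕ, t.Prime → t ∣ m / s → t ∈ S → t ∈ Sig :=
            fun t ht htm => hmcond t ht (htm.trans (Nat.div_dvd_of_dvd hsm))
          rw [ih (m / s) hlt hcond, mul_zero, sub_zero]
        · rw [sub_zero]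

end Fermat.Agent.S59.NonMin.Geom.Rank.H38

end
-- ==== END Fermat.Agent.S59.NonMin.Geom.Rank.H38_Coef

-- ==== BEGIN Fermat.Agent.S59.NonMin.Geom.Rank.H56_MainBCore
section

/-!
# RANK leaf MAINb (helper56)

If `r ∤ L` is a prime and `f ∈ S₂(Γ₀(L))` has `q`-expansion supported on the multiples of `r`,
then `f = 0`.

Proof: on the space `W` of such forms, `V g = r⁻¹ (T_r g - U_r g)` (with `U_r g` of level `L` by
MAIN) is an injective endomorphism with `a_{rn}(V g) = a_n(g)`; by finite dimensionality it is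
surjective, so every element of `W` lies in the image of every `V ^ k`, hence vanishes.
-/

set_option autoImplicit false

open UpperHalfPlane ModularForm CongruenceSubgroup ModularFormClass Matrix.SpecialLinearGroup
open scoped MatrixGroups ModularForm

noncomputable section

namespace Fermat.Agent.S59.NonMin.Geom.Rank.H56

open Fermat.Agent.S49 (qCoeff_add qCoeff_smul qCoeff_sub qCoeff_zero_form qCoeff_at_zero
  cuspForm_eq_zero_of_qCoeff cuspForm_ext_qCoeff qCoeff_heckeTLin)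

/-- The space of cusp forms whose `q`-expansion is supported on the multiples of `r`. -/
def suppSub (L r : ℕ) : Submodule ℂ (CuspForm (Gamma0 L) 2) where
  carrier := {g | ∀ n : ℕ, ¬ r ∣ n → qCoeff g n = 0}
  add_mem' := by
    intro a b ha hb n hn
    rw [qCoeff_add, ha n hn, hb n hn, add_zero]
  zero_mem' := fun n _ => qCoeff_zero_form n
  smul_mem' := by
    intro c a ha n hn
    rw [qCoeff_smul, ha n hn, mul_zero]

theorem mem_suppSub {L r : ℕ} (g : CuspForm (Gamma0 L) 2) :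
    g ∈ suppSub L r ↔ ∀ n : ℕ, ¬ r ∣ n → qCoeff g n = 0 := Iff.rfl

theorem eq_of_forall_mul {L r : ℕ} {a b : CuspForm (Gamma0 L) 2} (ha : a ∈ suppSub L r)
    (hb : b ∈ suppSub L r) (h : ∀ n : ℕ, qCoeff a (r * n) = qCoeff b (r * n)) : a = b := by
  apply cuspForm_ext_qCoeff
  intro n
  by_cases hn : r ∣ n
  · obtain ⟨m, rfl⟩ := hn
    exact h m
  · rw [ha n hn, hb n hn]

/-- For `g` supported on the multiples of `r ∤ L`, the form `g(r z)` has level `L` again. -/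
theorem exists_raise {L r : ℕ} [NeZero L] (hr : r.Prime) (hrL : ¬ r ∣ L)
    (g : CuspForm (Gamma0 L) 2) (hg : g ∈ suppSub L r) :
    ∃ h ∈ suppSub L r, ∀ n : ℕ, qCoeff h (r * n) = qCoeff g n := by
  have hL : L ∣ r * L := dvd_mul_left L r
  have hr0 : (r : ℂ) ≠ 0 := by exact_mod_cast hr.ne_zero
  have hg' : ∀ n : ℕ, ¬ r ∣ n → qCoeff g n = 0 := hg
  refine ⟨(r : ℂ)⁻¹ • (CuspForm.heckeTLin 2 hr hrL g - descendCusp g L hr hL hg'), ?_, ?_⟩
  · intro n hn
    rw [qCoeff_smul, qCoeff_sub, qCoeff_heckeTLin, qCoeff_descendCusp, if_neg hn, add_zero,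
      mul_comm n r, sub_self, mul_zero]
  · intro n
    rw [qCoeff_smul, qCoeff_sub, qCoeff_heckeTLin, qCoeff_descendCusp,
      if_pos (dvd_mul_right r n), Nat.mul_div_cancel_left n hr.pos, mul_comm (r * n) r,
      add_sub_cancel_left]
    norm_num
    field_simp

/-- The underlying function of the operator `V : g(z) ↦ g(r z)` on `suppSub L r`. -/
def raiseFun {L r : ℕ} [NeZero L] (hr : r.Prime) (hrL : ¬ r ∣ L) (g : suppSub L r) :
    CuspForm (Gamma0 L) 2 :=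
  (exists_raise hr hrL g.1 g.2).choose

theorem raiseFun_mem {L r : ℕ} [NeZero L] (hr : r.Prime) (hrL : ¬ r ∣ L) (g : suppSub L r) :
    raiseFun hr hrL g ∈ suppSub L r :=
  (exists_raise hr hrL g.1 g.2).choose_spec.1

theorem qCoeff_raiseFun {L r : ℕ} [NeZero L] (hr : r.Prime) (hrL : ¬ r ∣ L) (g : suppSub L r)
    (n : ℕ) : qCoeff (raiseFun hr hrL g) (r * n) = qCoeff g.1 n :=
  (exists_raise hr hrL g.1 g.2).choose_spec.2 n

/-- The operator `V : g(z) ↦ g(r z)` on `suppSub L r`. -/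
def raise {L r : ℕ} [NeZero L] (hr : r.Prime) (hrL : ¬ r ∣ L) :
    suppSub L r →ₗ[ℂ] suppSub L r where
  toFun g := ⟨raiseFun hr hrL g, raiseFun_mem hr hrL g⟩
  map_add' a b := by
    apply Subtype.ext
    show raiseFun hr hrL (a + b) = raiseFun hr hrL a + raiseFun hr hrL b
    refine eq_of_forall_mul (raiseFun_mem hr hrL _)
      ((suppSub L r).add_mem (raiseFun_mem hr hrL a) (raiseFun_mem hr hrL b)) fun n => ?_
    rw [qCoeff_raiseFun, qCoeff_add, qCoeff_raiseFun, qCoeff_raiseFun, Submodule.coe_add,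
      qCoeff_add]
  map_smul' c a := by
    apply Subtype.ext
    show raiseFun hr hrL (c • a) = c • raiseFun hr hrL a
    refine eq_of_forall_mul (raiseFun_mem hr hrL _)
      ((suppSub L r).smul_mem c (raiseFun_mem hr hrL a)) fun n => ?_
    rw [qCoeff_raiseFun, qCoeff_smul, qCoeff_raiseFun, Submodule.coe_smul, qCoeff_smul]

theorem qCoeff_raise {L r : ℕ} [NeZero L] (hr : r.Prime) (hrL : ¬ r ∣ L) (g : suppSub L r)
    (n : ℕ) : qCoeff (raise hr hrL g).1 (r * n) = qCoeff g.1 n :=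
  qCoeff_raiseFun hr hrL g n

theorem raise_injective {L r : ℕ} [NeZero L] (hr : r.Prime) (hrL : ¬ r ∣ L) :
    Function.Injective (raise hr hrL) := by
  intro a b hab
  apply Subtype.ext
  apply cuspForm_ext_qCoeff
  intro n
  rw [← qCoeff_raise hr hrL a n, ← qCoeff_raise hr hrL b n, hab]

theorem qCoeff_eq_zero_of_not_pow_dvd {L r : ℕ} [NeZero L] (hr : r.Prime) (hrL : ¬ r ∣ L) :
    ∀ (k : ℕ) (g : suppSub L r) (n : ℕ), ¬ r ^ k ∣ n → qCoeff g.1 n = 0 := by
  have : FiniteDimensional ℂ (CuspForm (Gamma0 L) 2) :=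
    FiniteDimensional.of_injective (Fermat.Agent.S23.H77.truncC L 2)
      (Fermat.Agent.S23.H77.truncC_injective L 2)
  have hsurj : Function.Surjective (raise hr hrL) :=
    LinearMap.surjective_of_injective (raise_injective hr hrL)
  intro k
  induction k with
  | zero =>
    intro g n hn
    exact absurd (by simp) hn
  | succ k ih =>
    intro g n hn
    by_cases hrn : r ∣ n
    · obtain ⟨m, rfl⟩ := hrn
      obtain ⟨h, rfl⟩ := hsurj g
      rw [qCoeff_raise]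
      apply ih
      intro hm
      apply hn
      rw [pow_succ']
      exact Nat.mul_dvd_mul_left r hm
    · exact g.2 n hrn

/-- **MAINb**, unconditional. -/
theorem mainb (L r : ℕ) [NeZero L] (hr : r.Prime) (hrL : ¬ r ∣ L) (f : CuspForm (Gamma0 L) 2)
    (h : ∀ n : ℕ, ¬ r ∣ n → ModularFormClass.qCoeff f n = 0) : f = 0 := by
  apply cuspForm_eq_zero_of_qCoeff
  intro n
  rcases Nat.eq_zero_or_pos n with rfl | hn
  · exact qCoeff_at_zero f
  · refine qCoeff_eq_zero_of_not_pow_dvd hr hrL n ⟨f, h⟩ n fun hd => ?_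
    have h1 : r ^ n ≤ n := Nat.le_of_dvd hn hd
    have h2 : n < r ^ n := Nat.lt_pow_self hr.one_lt
    omega

end Fermat.Agent.S59.NonMin.Geom.Rank.H56

end

end
-- ==== END Fermat.Agent.S59.NonMin.Geom.Rank.H56_MainBCore

-- ==== BEGIN Fermat.Agent.S59.NonMin.Geom.Rank.H75_Lat
section

/-!
# S59 / RT-NONMIN / NMGEOM / RANK, leaf LAT (helper75, in parallel with helper21)

`stmt_LAT : Stmt_LAT`: the rank of the eigenspace `M[x]` of a Betti state is the dimension of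
the Betti eigenspace `EB` over `K = Frac 𝒪`.

* `LB N S Sig R χ` : the `R`-module `{φ : Γ₀(N) → R | IsEB N S Sig R χ φ}` (any commutative ring);
* `extMap` : `LB(R) → EB(K)`, `φ ↦ algebraMap ∘ φ`, is the localisation at the nonzero elements
  (`Γ₀(N)` is finitely generated: finitely many denominators), so the ranks agree;
* `eigenEquiv` : `ι` of `IsBetti` identifies `M[x]` with `LB(𝒪)` (an eigenvector of the `T_ℓ` is
  `θ`-local, and an eigenvector of the generators is an eigenvector of the whole Hecke algebra: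
  all the primes of `N` are in `S`, so there is no `U` among the generators).

No matrices, no basis, no hypothesis on the characteristic.
-/

set_option autoImplicit false
set_option linter.unusedSectionVars false

open Polynomial CuspForm CongruenceSubgroup IsLocalRing ModularFormClass Module
open scoped MatrixGroups

namespace Fermat.Agent.S59.NonMin.Geom.Rank.H75L

open Fermat.Agent.Betti Fermat.Agent.S59 Fermat.Agent.S59.Asm Fermat.Agent.S59.NonMin
open Fermat.Agent.S59.NonMin.Geom Fermat.Agent.S59.NonMin.Geom.Rank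
open ModularCurve.Period

/-! ## 1. Linearity of the Betti operators over any ring of coefficients -/

section Lin

variable {N : ℕ} {R : Type} [CommRing R]

theorem TB_smul_ring {p : ℕ} (hp : p.Prime) (hpN : ¬ p ∣ N) (c : R)
    (φ : Additive (Gamma0 N) →+ R) : TB N R hp hpN (c • φ) = c • TB N R hp hpN φ := by
  have : Fact p.Prime := ⟨hp⟩
  exact ((isHeckeFamily_T N hpN).heckeOpLin (incl_injective N) R).map_smul c φ

theorem UB_smul_ring [NeZero N] {p : ℕ} (hpN : p ∣ N) (c : R)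
    (φ : Additive (Gamma0 N) →+ R) : UB N R hpN (c • φ) = c • UB N R hpN φ := by
  have : NeZero p := neZero_of_dvd hpN
  exact ((isHeckeFamily_U N hpN).heckeOpLin (incl_injective N) R).map_smul c φ

end Lin

/-! ## 2. The lattice `LB` and the extension of scalars -/

section Lattice

variable (N : ℕ) [NeZero N] (S : Set ℕ) (Sig : Finset ℕ)

/-- The module `{φ : IsEB … R χ φ}` over any commutative ring `R`. -/
def LB (R : Type) [CommRing R] (χ : CuspForm.heckeAlgebra N 2 S →+* R) :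
    Submodule R (Additive (Gamma0 N) →+ R) where
  carrier := {φ | IsEB N S Sig R χ φ}
  zero_mem' := by
    refine ⟨fun _ _ => rfl, fun ℓ hℓ hℓN hℓS => ?_, fun r _ hr => ?_⟩
    · rw [map_zero, smul_zero]
    · rw [map_zero]
  add_mem' := by
    rintro φ ψ ⟨h1, h2, h3⟩ ⟨k1, k2, k3⟩
    refine ⟨(parabolicHoms R (Gamma0 N) R).add_mem h1 k1, fun ℓ hℓ hℓN hℓS => ?_,
      fun r hr hrN => ?_⟩
    · rw [map_add, h2, k2, smul_add]
    · rw [map_add, h3 r hr hrN, k3 r hr hrN, add_zero]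
  smul_mem' := by
    rintro c φ ⟨h1, h2, h3⟩
    refine ⟨(parabolicHoms R (Gamma0 N) R).smul_mem c h1, fun ℓ hℓ hℓN hℓS => ?_,
      fun r hr hrN => ?_⟩
    · rw [TB_smul_ring, h2, smul_comm]
    · rw [UB_smul_ring, h3 r hr hrN, smul_zero]

variable {N S Sig} in
theorem mem_LB {R : Type} [CommRing R] {χ : CuspForm.heckeAlgebra N 2 S →+* R}
    {φ : Additive (Gamma0 N) →+ R} : φ ∈ LB N S Sig R χ ↔ IsEB N S Sig R χ φ := Iff.rfl

variable (R K : Type) [CommRing R] [Field K] [Algebra R K]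

/-- Extension of scalars `φ ↦ algebraMap ∘ φ`. -/
def extHom : (Additive (Gamma0 N) →+ R) →ₗ[R] (Additive (Gamma0 N) →+ K) where
  toFun φ := (algebraMap R K).toAddMonoidHom.comp φ
  map_add' φ ψ := by
    refine AddMonoidHom.ext fun γ => ?_
    simp
  map_smul' c φ := by
    refine AddMonoidHom.ext fun γ => ?_
    simp [Algebra.smul_def]

variable {R K}

@[simp] theorem extHom_apply (φ : Additive (Gamma0 N) →+ R) (γ : Additive (Gamma0 N)) :
    extHom N R K φ γ = algebraMap R K (φ γ) := rfl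

theorem TB_extHom {p : ℕ} (hp : p.Prime) (hpN : ¬ p ∣ N) (φ : Additive (Gamma0 N) →+ R) :
    TB N K hp hpN (extHom N R K φ) = extHom N R K (TB N R hp hpN φ) := by
  have : Fact p.Prime := ⟨hp⟩
  exact (isHeckeFamily_T N hpN).heckeOp_comp (incl_injective N)
    (algebraMap R K).toAddMonoidHom φ

theorem UB_extHom {p : ℕ} (hpN : p ∣ N) (φ : Additive (Gamma0 N) →+ R) :
    UB N K hpN (extHom N R K φ) = extHom N R K (UB N R hpN φ) := by
  have : NeZero p := neZero_of_dvd hpN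
  exact (isHeckeFamily_U N hpN).heckeOp_comp (incl_injective N)
    (algebraMap R K).toAddMonoidHom φ

theorem extHom_smul_algebraMap (c : R) (φ : Additive (Gamma0 N) →+ R) :
    algebraMap R K c • extHom N R K φ = extHom N R K (c • φ) := by
  refine AddMonoidHom.ext fun γ => ?_
  simp

variable [IsFractionRing R K]

theorem extHom_injective : Function.Injective (extHom N R K) := by
  intro φ ψ h
  refine AddMonoidHom.ext fun γ => ?_
  have := DFunLike.congr_fun h γ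
  rw [extHom_apply, extHom_apply] at this
  exact IsFractionRing.injective R K this

theorem isEB_extHom_iff (χ : CuspForm.heckeAlgebra N 2 S →+* R)
    (φ : Additive (Gamma0 N) →+ R) :
    IsEB N S Sig K ((algebraMap R K).comp χ) (extHom N R K φ) ↔ IsEB N S Sig R χ φ := by
  have hinj := extHom_injective (R := R) (K := K) N
  constructor
  · rintro ⟨h1, h2, h3⟩
    refine ⟨fun γ hγ => ?_, fun ℓ hℓ hℓN hℓS => ?_, fun r hr hrN => ?_⟩
    · have := h1 γ hγ
      rw [extHom_apply] at this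
      exact (IsFractionRing.injective R K) (by rw [this, map_zero])
    · apply hinj
      rw [← TB_extHom, h2 ℓ hℓ hℓN hℓS, RingHom.comp_apply, extHom_smul_algebraMap]
    · apply hinj
      rw [← UB_extHom, h3 r hr hrN, map_zero]
  · rintro ⟨h1, h2, h3⟩
    refine ⟨fun γ hγ => ?_, fun ℓ hℓ hℓN hℓS => ?_, fun r hr hrN => ?_⟩
    · rw [extHom_apply, h1 γ hγ, map_zero]
    · rw [TB_extHom, h2 ℓ hℓ hℓN hℓS, RingHom.comp_apply, extHom_smul_algebraMap]
    · rw [UB_extHom, h3 r hr hrN, map_zero]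

/-- The map `LB(R) → EB(K)`. -/
def extMap (χ : CuspForm.heckeAlgebra N 2 S →+* R) :
    LB N S Sig R χ →ₗ[R] EB N S Sig K ((algebraMap R K).comp χ) where
  toFun φ := ⟨extHom N R K φ.1, (isEB_extHom_iff N S Sig χ φ.1).mpr φ.2⟩
  map_add' φ ψ := Subtype.ext (map_add (extHom N R K) φ.1 ψ.1)
  map_smul' c φ := Subtype.ext (map_smul (extHom N R K) c φ.1)

theorem extMap_coe (χ : CuspForm.heckeAlgebra N 2 S →+* R) (φ : LB N S Sig R χ) :
    ((extMap (K := K) N S Sig χ φ : EB N S Sig K ((algebraMap R K).comp χ)) :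
      Additive (Gamma0 N) →+ K) = extHom N R K φ.1 := rfl

theorem extMap_injective (χ : CuspForm.heckeAlgebra N 2 S →+* R) :
    Function.Injective (extMap (K := K) N S Sig χ) := by
  intro φ ψ h
  exact Subtype.ext (extHom_injective (R := R) (K := K) N (congrArg Subtype.val h))

/-- Every homomorphism `Γ₀(N) → K` has a nonzero multiple with values in `R`. -/
theorem exists_smul_eq_extHom (y : Additive (Gamma0 N) →+ K) :
    ∃ (d : nonZeroDivisors R) (φ : Additive (Gamma0 N) →+ R),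
      (d : R) • y = extHom N R K φ := by
  have hfg : Group.FG (Gamma0 N) := Fermat.Agent.Betti.fg_Gamma0 N
  obtain ⟨T, hT, hTfin⟩ := Group.fg_iff.mp hfg
  have : Finite ↥T := hTfin
  obtain ⟨d, hd⟩ := IsLocalization.exist_integer_multiples_of_finite (nonZeroDivisors R)
    (fun g : ↥T => y (Additive.ofMul (g : Gamma0 N)))
  have hall : ∀ g : Gamma0 N, ∃ a : R, algebraMap R K a = (d : R) • y (Additive.ofMul g) := by
    intro g
    have hg : g ∈ Subgroup.closure T := by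
      rw [hT]
      exact Subgroup.mem_top g
    induction hg using Subgroup.closure_induction with
    | mem x hx =>
      obtain ⟨a, ha⟩ := hd ⟨x, hx⟩
      exact ⟨a, ha⟩
    | one =>
      refine ⟨0, ?_⟩
      rw [map_zero, ofMul_one, map_zero, smul_zero]
    | mul x z _ _ hx hz =>
      obtain ⟨a, ha⟩ := hx
      obtain ⟨b, hb⟩ := hz
      refine ⟨a + b, ?_⟩
      rw [map_add, ha, hb, ofMul_mul, map_add, smul_add]
    | inv x _ hx =>
      obtain ⟨a, ha⟩ := hx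
      refine ⟨-a, ?_⟩
      rw [map_neg, ha, ofMul_inv, map_neg, smul_neg]
  choose v hv using hall
  have hw : ∀ γ : Additive (Gamma0 N),
      algebraMap R K (v (Additive.toMul γ)) = (d : R) • y γ := fun γ => hv (Additive.toMul γ)
  have hadd : ∀ a b : Additive (Gamma0 N),
      v (Additive.toMul (a + b)) = v (Additive.toMul a) + v (Additive.toMul b) := by
    intro a b
    apply IsFractionRing.injective R K
    rw [hw (a + b), (algebraMap R K).map_add, hw a, hw b, y.map_add, smul_add]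
  refine ⟨d, AddMonoidHom.mk' (fun γ => v (Additive.toMul γ)) hadd, ?_⟩
  refine AddMonoidHom.ext fun γ => ?_
  rw [extHom_apply]
  exact (hw γ).symm

theorem exists_smul_eq_extMap (χ : CuspForm.heckeAlgebra N 2 S →+* R)
    (y : EB N S Sig K ((algebraMap R K).comp χ)) :
    ∃ (d : nonZeroDivisors R) (φ : LB N S Sig R χ), d • y = extMap (K := K) N S Sig χ φ := by
  obtain ⟨d, φ, hφ⟩ := exists_smul_eq_extHom (R := R) N (y : Additive (Gamma0 N) →+ K)
  have hmem : φ ∈ LB N S Sig R χ := by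
    rw [mem_LB, ← isEB_extHom_iff (K := K) N S Sig χ φ, ← hφ]
    exact Submodule.smul_of_tower_mem _ _ y.2
  refine ⟨d, ⟨φ, hmem⟩, Subtype.ext ?_⟩
  rw [extMap_coe, ← hφ]
  rfl

variable [IsDomain R]

instance extMap_isLocalizedModule (χ : CuspForm.heckeAlgebra N 2 S →+* R) :
    IsLocalizedModule (nonZeroDivisors R) (extMap (K := K) N S Sig χ) where
  map_units d := by
    rw [Module.End.isUnit_iff]
    have hd : algebraMap R K d ≠ 0 :=
      IsFractionRing.to_map_ne_zero_of_mem_nonZeroDivisors d.2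
    constructor
    · intro y z h
      simp only [Module.algebraMap_end_apply] at h
      have h' : (algebraMap R K d) • y = (algebraMap R K d) • z := by
        rwa [algebraMap_smul, algebraMap_smul]
      exact smul_right_injective _ hd h'
    · intro y
      refine ⟨(algebraMap R K d)⁻¹ • y, ?_⟩
      simp only [Module.algebraMap_end_apply]
      rw [← algebraMap_smul K (d : R), smul_smul, mul_inv_cancel₀ hd, one_smul]
  surj y := by
    obtain ⟨d, v, h⟩ := exists_smul_eq_extMap N S Sig χ y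
    exact ⟨(v, d), h⟩
  exists_of_eq {v w} h := ⟨1, by rw [extMap_injective N S Sig χ h]⟩

/-- The rank of the lattice is the dimension of the eigenspace over the fraction field. -/
theorem finrank_EB_eq_finrank_LB (χ : CuspForm.heckeAlgebra N 2 S →+* R) :
    finrank K ↥(EB N S Sig K ((algebraMap R K).comp χ)) = finrank R ↥(LB N S Sig R χ) := by
  have h1 := IsFractionRing.finrank_right_eq R K ↥(EB N S Sig K ((algebraMap R K).comp χ))
  have h2 := IsLocalizedModule.finrank_eq (M := ↥(LB N S Sig R χ))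
    (N := ↥(EB N S Sig K ((algebraMap R K).comp χ))) (nonZeroDivisors R)
    (extMap (K := K) N S Sig χ) le_rfl
  exact h1.trans h2

end Lattice

/-! ## 3. The eigenspace of a Betti state is the lattice `LB` -/

section State

variable {𝒪 : Type} [CommRing 𝒪] [IsLocalRing 𝒪]

/-- An eigenvector of the `T_ℓ` with eigenvalues lifting `θ` is `θ`-local. -/
theorem inBetti_of_isEB (N : ℕ) [NeZero N] (S : Set ℕ) (Sig : Finset ℕ)
    (θ : CuspForm.heckeAlgebra N 2 S →+* ResidueField 𝒪)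
    (x : CuspForm.heckeAlgebra N 2 S →+* 𝒪) (hx : ∀ t, residue 𝒪 (x t) = θ t)
    (φ : Additive (Gamma0 N) →+ 𝒪) (hφ : IsEB N S Sig 𝒪 x φ) :
    InBetti 𝒪 N S θ Sig φ := by
  obtain ⟨h1, h2, h3⟩ := hφ
  refine ⟨h1, h3, fun ℓ hℓ hℓN hℓS a ha m => ⟨m, fun γ => ?_⟩⟩
  set c : 𝒪 := x (CuspForm.heckeAlgebra.T hℓ hℓN hℓS) - a with hc
  have hcm : c ∈ maximalIdeal 𝒪 := by
    rw [← residue_eq_zero_iff, hc, map_sub, hx, ha, sub_self]
  have hiter : ∀ n : ℕ,
      ((fun χ : Additive (Gamma0 N) →+ 𝒪 => TB N 𝒪 hℓ hℓN χ - a • χ)^[n] φ) = c ^ n • φ := by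
    intro n
    induction n with
    | zero => simp
    | succ n ih =>
      rw [Function.iterate_succ_apply', ih, TB_smul_ring, h2 ℓ hℓ hℓN hℓS, pow_succ, hc,
        smul_smul, smul_smul, ← sub_smul]
      congr 1
      ring
  rw [hiter m]
  show c ^ m • φ γ ∈ maximalIdeal 𝒪 ^ m
  rw [smul_eq_mul]
  exact Ideal.mul_mem_right _ _ (Ideal.pow_mem_pow hcm m)

/-- An eigenvector of the generators `T_ℓ` is an eigenvector of the whole Hecke algebra, when
all the primes of the level are in `S`. -/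
theorem eigen_of_generators (N : ℕ) [NeZero N] (S : Set ℕ)
    (hS : ∀ r : ℕ, r.Prime → r ∣ N → r ∈ S)
    {V : Type} [AddCommGroup V] [Module 𝒪 V]
    (η : CuspForm.heckeAlgebra N 2 S →+* Module.End 𝒪 V)
    (x : CuspForm.heckeAlgebra N 2 S →+* 𝒪) (v : V)
    (hv : ∀ (ℓ : ℕ) (hℓ : ℓ.Prime) (hℓN : ¬ ℓ ∣ N) (hℓS : ℓ ∉ S),
      η (CuspForm.heckeAlgebra.T hℓ hℓN hℓS) v = x (CuspForm.heckeAlgebra.T hℓ hℓN hℓS) • v)
    (t : CuspForm.heckeAlgebra N 2 S) : η t v = x t • v := by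
  obtain ⟨t', ht'⟩ := t
  induction ht' using Algebra.adjoin_induction with
  | mem u hu =>
    rcases hu with ⟨ℓ, hℓ, hℓN, hℓS, rfl⟩ | ⟨q, hqN, hq, hqS, rfl⟩
    · exact hv ℓ hℓ hℓN hℓS
    · exact absurd (hS q hq hqN) hqS
  | algebraMap r =>
    have e : (⟨algebraMap ℤ _ r, Subalgebra.algebraMap_mem _ r⟩ :
        CuspForm.heckeAlgebra N 2 S) = (r : CuspForm.heckeAlgebra N 2 S) := by
      apply Subtype.ext
      simp
    rw [e, map_intCast, map_intCast]
    exact (Int.cast_smul_eq_zsmul 𝒪 r v).symm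
  | add a b ha hb iha ihb =>
    have e : (⟨a + b, Subalgebra.add_mem _ ha hb⟩ : CuspForm.heckeAlgebra N 2 S) =
        ⟨a, ha⟩ + ⟨b, hb⟩ := rfl
    rw [e, map_add, map_add, LinearMap.add_apply, iha, ihb, add_smul]
  | mul a b ha hb iha ihb =>
    have e : (⟨a * b, Subalgebra.mul_mem _ ha hb⟩ : CuspForm.heckeAlgebra N 2 S) =
        ⟨a, ha⟩ * ⟨b, hb⟩ := rfl
    rw [e, map_mul, map_mul, Module.End.mul_apply, ihb, map_smul, iha, smul_smul, mul_comm]

variable [IsDomain 𝒪]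

/-- `ι` identifies the eigenspace `M[x]` with the lattice `LB`. -/
theorem finrank_eigen_eq_finrank_LB (s : NMState 𝒪) (Sig : Finset ℕ)
    (hS : ∀ r : ℕ, r.Prime → r ∣ s.N → r ∈ s.S) (hB : IsBetti s Sig)
    (x : CuspForm.heckeAlgebra s.N 2 (↑s.S : Set ℕ) →+* 𝒪)
    (hx : ∀ t, residue 𝒪 (x t) = s.θ t) :
    finrank 𝒪 ↥(s.eigen x) = finrank 𝒪 ↥(LB s.N (↑s.S : Set ℕ) Sig 𝒪 x) := by
  obtain ⟨ι, hinj, hrange, hT⟩ := hB
  have hmem : ∀ v : s.M.V, v ∈ s.eigen x → ι v ∈ LB s.N (↑s.S : Set ℕ) Sig 𝒪 x := by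
    intro v hv
    rw [NMState.mem_eigen] at hv
    obtain ⟨h1, h2, -⟩ := (hrange (ι v)).mp ⟨v, rfl⟩
    refine ⟨h1, fun ℓ hℓ hℓN hℓS => ?_, h2⟩
    rw [← hT ℓ hℓ hℓN hℓS v, hv, map_smul]
  let e : ↥(s.eigen x) →ₗ[𝒪] ↥(LB s.N (↑s.S : Set ℕ) Sig 𝒪 x) :=
    { toFun := fun v => ⟨ι v.1, hmem v.1 v.2⟩
      map_add' := fun v w => Subtype.ext (map_add ι v.1 w.1)
      map_smul' := fun c v => Subtype.ext (map_smul ι c v.1) }
  have hbij : Function.Bijective e := by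
    constructor
    · intro v w h
      exact Subtype.ext (hinj (congrArg Subtype.val h))
    · rintro ⟨φ, hφ⟩
      obtain ⟨v, rfl⟩ := (hrange φ).mpr
        (inBetti_of_isEB s.N (↑s.S : Set ℕ) Sig s.θ x hx φ hφ)
      have hv : v ∈ s.eigen x := by
        rw [NMState.mem_eigen]
        refine eigen_of_generators s.N (↑s.S : Set ℕ)
          (fun r hr hrN => Finset.mem_coe.mpr (hS r hr hrN)) s.M.η x v ?_
        intro ℓ hℓ hℓN hℓS
        apply hinj
        rw [hT ℓ hℓ hℓN hℓS v, hφ.2.1 ℓ hℓ hℓN hℓS, map_smul]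
      exact ⟨⟨v, hv⟩, rfl⟩
  exact (LinearEquiv.ofBijective e hbij).finrank_eq

end State

/-- **LAT**: the rank of the eigenspace of a Betti state is the dimension of the Betti
eigenspace over `Frac 𝒪`. -/
theorem stmt_LAT : Stmt_LAT := by
  intro 𝒪 _ _ _ s Sig hS hB x hx
  rw [finrank_eigen_eq_finrank_LB s Sig hS hB x hx]
  exact (finrank_EB_eq_finrank_LB (K := FractionRing 𝒪) s.N (↑s.S : Set ℕ) Sig x).symm

end Fermat.Agent.S59.NonMin.Geom.Rank.H75L

end
-- ==== END Fermat.Agent.S59.NonMin.Geom.Rank.H75_Lat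

-- ==== BEGIN Fermat.Agent.S59.NonMin.Geom.Rank.H75_NonVan
section

/-!
# S59 / RT-NONMIN / NMGEOM / RANK, leaf NONVAN (helper75)

`nonvan_of : Stmt_NONVAN_of`, i.e. `Stmt_DEPL → Stmt_NONVAN`: the cusp form eigenspace `EC` is
not zero, for every level `N`, every character `χ` of the Hecke algebra and every finite set
`Sig` of primes `r` with `r² ∣ N`.

Proof.  `X = {f : T_ℓ f = χ(T_ℓ) f, ℓ ∤ N, ℓ ∉ S}` is not zero
(`GTor.H81.exists_cusp_eigenvector`) and is stable under all the `T_p` (`p ∤ N`) and `U_p`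
(`p ∣ N`).  If `a₁` vanishes on `X`, then all the `a_n` vanish on `X` (strong induction on `n`:
for a prime factor `p` of `n = m p`, `a_n(f) = a_m(U_p f)` if `p ∣ N`, and
`a_n(f) = a_m(T_p f) - p a_{m/p}(f)` if `p ∤ N`), so `X = 0` by the `q`-expansion principle.
Hence there is `f ∈ X` with `a₁(f) ≠ 0`.  Deplete `f` at all the primes of `Sig` (`Stmt_DEPL`,
induction on the finite set): the result `g` has the coefficients `a_n(g) = a_n(f)` if no prime
of `Sig` divides `n`, and `0` otherwise; so `U_r g = 0` for `r ∈ Sig`, `T_ℓ g = χ(T_ℓ) g` for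
`ℓ ∤ N`, `ℓ ∉ S` (compare the coefficients: `ℓ ∉ Sig`), and `a₁(g) = a₁(f) ≠ 0`.
-/

set_option autoImplicit false

open CuspForm CongruenceSubgroup ModularFormClass

namespace Fermat.Agent.S59.NonMin.Geom.Rank.H75

open Fermat.Agent.S49 Fermat.Agent.S59.NonMin.Geom.Rank

section

variable (N : ℕ) [NeZero N] (S : Set ℕ)

/-- `f` is an eigenvector of the `T_ℓ` (`ℓ ∤ N`, `ℓ ∉ S`) for the character `χ`. -/
def IsX (χ : CuspForm.heckeAlgebra N 2 S →+* ℂ) (f : CuspForm (Gamma0 N) 2) : Prop :=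
  ∀ (ℓ : ℕ) (hℓ : ℓ.Prime) (hℓN : ¬ ℓ ∣ N) (hℓS : ℓ ∉ S),
    CuspForm.heckeTLin 2 hℓ hℓN f = χ (CuspForm.heckeAlgebra.T hℓ hℓN hℓS) • f

variable {N S}

theorem isX_heckeT {χ : CuspForm.heckeAlgebra N 2 S →+* ℂ} {f : CuspForm (Gamma0 N) 2}
    (hf : IsX N S χ f) {p : ℕ} (hp : p.Prime) (hpN : ¬ p ∣ N) :
    IsX N S χ (CuspForm.heckeTLin 2 hp hpN f) := by
  intro ℓ hℓ hℓN hℓS
  have hc := (CuspForm.heckeTLin_comm (N := N) 2 hℓ hℓN hp hpN).eq
  have h1 := LinearMap.congr_fun hc f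
  rw [Module.End.mul_apply, Module.End.mul_apply] at h1
  rw [h1, hf ℓ hℓ hℓN hℓS, map_smul]

theorem isX_heckeU {χ : CuspForm.heckeAlgebra N 2 S →+* ℂ} {f : CuspForm (Gamma0 N) 2}
    (hf : IsX N S χ f) {p : ℕ} (hpN : p ∣ N) :
    IsX N S χ (CuspForm.heckeULin 2 hpN f) := by
  intro ℓ hℓ hℓN hℓS
  have hc := (CuspForm.heckeTLin_heckeULin_comm (N := N) 2 hℓ hℓN hpN).eq
  have h1 := LinearMap.congr_fun hc f
  rw [Module.End.mul_apply, Module.End.mul_apply] at h1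
  rw [h1, hf ℓ hℓ hℓN hℓS, map_smul]

/-- If `a₁` vanishes on `X`, then every `a_n` vanishes on `X`. -/
theorem coeff_vanish {χ : CuspForm.heckeAlgebra N 2 S →+* ℂ}
    (h1 : ∀ f : CuspForm (Gamma0 N) 2, IsX N S χ f → qCoeff f 1 = 0) :
    ∀ (n : ℕ) (f : CuspForm (Gamma0 N) 2), IsX N S χ f → qCoeff f n = 0 := by
  intro n
  induction n using Nat.strong_induction_on with
  | _ n ih =>
    intro f hf
    rcases Nat.lt_or_ge n 2 with hn | hn
    · interval_cases n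
      · exact qCoeff_at_zero f
      · exact h1 f hf
    · have hn1 : n ≠ 1 := by omega
      obtain ⟨p, hp, hpn⟩ := Nat.exists_prime_and_dvd hn1
      obtain ⟨m, rfl⟩ := hpn
      have hm0 : 0 < m := by
        rcases Nat.eq_zero_or_pos m with h | h
        · subst h
          simp at hn
        · exact h
      have hmlt : m < p * m := by
        have := hp.two_le
        nlinarith
      by_cases hpN : p ∣ N
      · have h2 := ih m hmlt (CuspForm.heckeULin 2 hpN f) (isX_heckeU hf hpN)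
        rw [qCoeff_heckeULin hp.ne_zero hpN f m] at h2
        rw [mul_comm]
        exact h2
      · have h2 := ih m hmlt (CuspForm.heckeTLin 2 hp hpN f) (isX_heckeT hf hp hpN)
        rw [qCoeff_heckeTLin hp hpN f m] at h2
        have h3 : (if p ∣ m then (p : ℂ) ^ ((2 : ℤ) - 1) * qCoeff ⇑f (m / p) else 0) = 0 := by
          split_ifs with hpm
          · have hlt : m / p < p * m := lt_of_le_of_lt (Nat.div_le_self m p) hmlt
            rw [ih (m / p) hlt f hf, mul_zero]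
          · rfl
        rw [h3, add_zero] at h2
        rw [mul_comm]
        exact h2

/-- There is an eigenvector with `a₁ ≠ 0`. -/
theorem exists_a1_ne_zero (χ : CuspForm.heckeAlgebra N 2 S →+* ℂ) :
    ∃ f : CuspForm (Gamma0 N) 2, IsX N S χ f ∧ qCoeff f 1 ≠ 0 := by
  by_contra hcon
  push Not at hcon
  obtain ⟨v, hv0, hv⟩ := Fermat.Agent.GTor.H81.exists_cusp_eigenvector N S χ
  apply hv0
  apply cuspForm_eq_zero_of_qCoeff
  intro n
  exact coeff_vanish hcon n v hv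

/-- Depletion at all the primes of a finite set. -/
theorem deplete_finset (hD : Stmt_DEPL) (P : Finset ℕ) (hP : ∀ r ∈ P, r.Prime ∧ r ^ 2 ∣ N)
    (f : CuspForm (Gamma0 N) 2) :
    ∃ g : CuspForm (Gamma0 N) 2,
      (∀ n : ℕ, (∃ r ∈ P, r ∣ n) → qCoeff g n = 0) ∧
      ∀ n : ℕ, (¬ ∃ r ∈ P, r ∣ n) → qCoeff g n = qCoeff f n := by
  classical
  induction P using Finset.induction_on with
  | empty =>
    refine ⟨f, fun n hn => ?_, fun n _ => rfl⟩
    obtain ⟨r, hr, -⟩ := hn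
    exact absurd hr (Finset.notMem_empty r)
  | insert r P hr ih =>
    obtain ⟨g, hg0, hg1⟩ := ih (fun s hs => hP s (Finset.mem_insert_of_mem hs))
    obtain ⟨hrp, hrN⟩ := hP r (Finset.mem_insert_self r P)
    obtain ⟨g', hg'⟩ := hD N r hrp hrN g
    refine ⟨g', fun n hn => ?_, fun n hn => ?_⟩
    · rw [hg' n]
      by_cases hrn : r ∣ n
      · rw [if_pos hrn]
      · rw [if_neg hrn]
        obtain ⟨s, hs, hsn⟩ := hn
        rcases Finset.mem_insert.mp hs with rfl | hs'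
        · exact absurd hsn hrn
        · exact hg0 n ⟨s, hs', hsn⟩
    · rw [hg' n]
      have hrn : ¬ r ∣ n := fun h => hn ⟨r, Finset.mem_insert_self r P, h⟩
      rw [if_neg hrn]
      exact hg1 n (fun ⟨s, hs, hsn⟩ => hn ⟨s, Finset.mem_insert_of_mem hs, hsn⟩)

end

/-- **NONVAN**: the eigenspace `EC` is not zero. -/
theorem nonvan_of : Stmt_NONVAN_of := by
  intro hD N _ S Sig χ hSig
  obtain ⟨f, hfX, hf1⟩ := exists_a1_ne_zero (N := N) (S := S) χ
  obtain ⟨g, hg0, hg1⟩ := deplete_finset (N := N) hD Sig hSig f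
  have hgEC : g ∈ EC N S Sig χ := by
    rw [mem_EC]
    refine ⟨fun ℓ hℓ hℓN hℓS => ?_, fun r hr hrN => ?_⟩
    · apply cuspForm_ext_qCoeff
      intro n
      rw [qCoeff_heckeTLin hℓ hℓN g n, qCoeff_smul]
      have hf : qCoeff ⇑(CuspForm.heckeTLin 2 hℓ hℓN f) n =
          qCoeff ⇑(χ (CuspForm.heckeAlgebra.T hℓ hℓN hℓS) • f) n := by
        rw [hfX ℓ hℓ hℓN hℓS]
      rw [qCoeff_heckeTLin hℓ hℓN f n, qCoeff_smul] at hf
      have hndvd : ∀ r ∈ Sig, ¬ r ∣ ℓ := by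
        intro r hr hrℓ
        have hrp := (hSig r hr).1
        have hrN : r ∣ N := dvd_trans (dvd_pow_self r (by norm_num)) (hSig r hr).2
        rcases (Nat.dvd_prime hℓ).mp hrℓ with h | h
        · exact hrp.one_lt.ne' h
        · exact hℓN (h ▸ hrN)
      have hD1 : (∃ r ∈ Sig, r ∣ n * ℓ) ↔ (∃ r ∈ Sig, r ∣ n) := by
        constructor
        · rintro ⟨r, hr, hrn⟩
          rcases ((hSig r hr).1.dvd_mul).mp hrn with h | h
          · exact ⟨r, hr, h⟩
          · exact absurd h (hndvd r hr)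
        · rintro ⟨r, hr, hrn⟩
          exact ⟨r, hr, dvd_mul_of_dvd_left hrn ℓ⟩
      have hD2 : ℓ ∣ n → ((∃ r ∈ Sig, r ∣ n / ℓ) ↔ (∃ r ∈ Sig, r ∣ n)) := by
        intro hℓn
        constructor
        · rintro ⟨r, hr, hrn⟩
          exact ⟨r, hr, dvd_trans hrn (Nat.div_dvd_of_dvd hℓn)⟩
        · rintro ⟨r, hr, hrn⟩
          rw [← Nat.div_mul_cancel hℓn] at hrn
          rcases ((hSig r hr).1.dvd_mul).mp hrn with h | h
          · exact ⟨r, hr, h⟩
          · exact absurd h (hndvd r hr)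
      by_cases hex : ∃ r ∈ Sig, r ∣ n
      · rw [hg0 n hex, hg0 (n * ℓ) (hD1.mpr hex), mul_zero]
        split_ifs with hℓn
        · rw [hg0 (n / ℓ) ((hD2 hℓn).mpr hex), mul_zero, add_zero]
        · rw [add_zero]
      · rw [hg1 n hex, hg1 (n * ℓ) (fun h => hex (hD1.mp h)), ← hf]
        congr 1
        split_ifs with hℓn
        · rw [hg1 (n / ℓ) (fun h => hex ((hD2 hℓn).mp h))]
        · rfl
    · apply cuspForm_eq_zero_of_qCoeff
      intro n
      rw [qCoeff_heckeULin (hSig r hr).1.ne_zero hrN g n]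
      exact hg0 (n * r) ⟨r, hr, dvd_mul_left r n⟩
  intro hbot
  have hg : g = 0 := by
    rw [hbot] at hgEC
    exact (Submodule.mem_bot ℂ).mp hgEC
  apply hf1
  have h1 : ¬ ∃ r ∈ Sig, r ∣ 1 := by
    rintro ⟨r, hr, hr1⟩
    exact (hSig r hr).1.one_lt.ne' (Nat.dvd_one.mp hr1)
  rw [← hg1 1 h1, hg]
  exact qCoeff_zero_form 1

end Fermat.Agent.S59.NonMin.Geom.Rank.H75

end
-- ==== END Fermat.Agent.S59.NonMin.Geom.Rank.H75_NonVan

-- ==== BEGIN Fermat.Agent.S59.NonMin.Geom.Rank.H78_Mult1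
section

/-!
# S59 / NMGEOM / RANK, leaf MULT1 (helper78): multiplicity one from CLAIM, COEF, NOLOW

`mult1_of : Stmt_MULT1_of` (`= Stmt_CLAIM → Stmt_COEF → Stmt_NOLOW → Stmt_MULT1`): the linear form
`a₁ : EC → ℂ` is injective, so `dim EC ≤ 1`.
For `f ∈ EC` with `a₁(f) = 0`: `a_n(f) = 0` for `n` prime to `Smin` (COEF), then `f = 0` by CLAIM
with `P = Smin`, `L = N` (`N = N₀ ∏_{r ∈ Sig} r²`, `N₀` squarefree, `Sig ∩ Smin = ∅`, so `r² ∤ N`
for `r ∈ Smin`, and `r ∣ N ⟹ r ∣ N₀`: NOLOW).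
This file contains no `sorry`.
-/

set_option autoImplicit false

open CuspForm CongruenceSubgroup IsLocalRing ModularFormClass
open scoped MatrixGroups

namespace Fermat.Agent.S59.NonMin.Geom.Rank.H78

open Fermat.Agent.Betti Fermat.Agent.S59 Fermat.Agent.S59.Asm Fermat.Agent.S59.NonMin.Geom
  Fermat.Agent.S59.NonMin.Geom.Rank

/-- The linear form `a₁` on the eigenspace `EC`. -/
noncomputable def a1Lin (N : ℕ) [NeZero N] (S : Set ℕ) (Sig : Finset ℕ)
    (χ : CuspForm.heckeAlgebra N 2 S →+* ℂ) : ↥(EC N S Sig χ) →ₗ[ℂ] ℂ where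
  toFun f := qCoeff (f : CuspForm (Gamma0 N) 2) 1
  map_add' f g := Fermat.Agent.S49.qCoeff_add (f : CuspForm (Gamma0 N) 2) g 1
  map_smul' c f := by
    show qCoeff ⇑(c • (f : CuspForm (Gamma0 N) 2)) 1 = c • qCoeff ⇑(f : CuspForm (Gamma0 N) 2) 1
    rw [Fermat.Agent.S49.qCoeff_smul, smul_eq_mul]

theorem a1Lin_apply (N : ℕ) [NeZero N] (S : Set ℕ) (Sig : Finset ℕ)
    (χ : CuspForm.heckeAlgebra N 2 S →+* ℂ) (f : ↥(EC N S Sig χ)) :
    a1Lin N S Sig χ f = qCoeff (f : CuspForm (Gamma0 N) 2) 1 := rfl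

section Arith

variable {p : ℕ} {Smin : Finset ℕ} {N₀ : ℕ} {Sig : Finset ℕ} {N : ℕ} {S : Finset ℕ}

/-- A prime dividing the product `∏_{r ∈ Sig} r²` lies in `Sig`. -/
theorem mem_Sig_of_dvd_prod (hG : GeomHyp p Smin N₀ Sig N S) {s : ℕ} (hs : s.Prime)
    (h : s ∣ ∏ r ∈ Sig, r ^ 2) : s ∈ Sig := by
  obtain ⟨r, hr, hsr⟩ := (Prime.dvd_finsetProd_iff (Nat.prime_iff.mp hs) _).mp h
  have h1 : s ∣ r := hs.dvd_of_dvd_pow hsr
  have h2 : s = r := (Nat.prime_dvd_prime_iff_eq hs (hG.hSig r hr).1).mp h1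
  rw [h2]
  exact hr

/-- A prime of `Smin` is prime to `∏_{r ∈ Sig} r²`. -/
theorem coprime_prod_of_mem_Smin (hG : GeomHyp p Smin N₀ Sig N S) {s : ℕ} (hs : s.Prime)
    (hsm : s ∈ Smin) : s.Coprime (∏ r ∈ Sig, r ^ 2) := by
  rw [Nat.Prime.coprime_iff_not_dvd hs]
  intro h
  exact (hG.hSig s (mem_Sig_of_dvd_prod hG hs h)).2.2 hsm

theorem prime_dvd_mem_S (hG : GeomHyp p Smin N₀ Sig N S) {s : ℕ} (hs : s.Prime) (h : s ∣ N) :
    s ∈ S := by
  rw [hG.hS, Finset.mem_union]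
  rw [hG.hN] at h
  rcases (Nat.Prime.dvd_mul hs).mp h with h1 | h1
  · exact Or.inl (hG.hN₀S s hs h1)
  · exact Or.inr (mem_Sig_of_dvd_prod hG hs h1)

theorem Sig_dvd (hG : GeomHyp p Smin N₀ Sig N S) {r : ℕ} (hr : r ∈ Sig) : r ∣ N := by
  rw [hG.hN]
  have h1 : r ^ 2 ∣ ∏ r ∈ Sig, r ^ 2 := Finset.dvd_prod_of_mem (fun r => r ^ 2) hr
  exact Dvd.dvd.mul_left (dvd_trans (dvd_pow_self r two_ne_zero) h1) N₀

/-- A prime of `Smin` dividing `N` divides `N₀`. -/
theorem dvd_N₀_of_mem_Smin (hG : GeomHyp p Smin N₀ Sig N S) {s : ℕ} (hs : s.Prime)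
    (hsm : s ∈ Smin) (h : s ∣ N) : s ∣ N₀ := by
  rw [hG.hN] at h
  exact (coprime_prod_of_mem_Smin hG hs hsm).dvd_of_dvd_mul_right h

/-- The square of a prime of `Smin` does not divide `N`. -/
theorem sq_not_dvd_of_mem_Smin (hG : GeomHyp p Smin N₀ Sig N S) {s : ℕ} (hs : s.Prime)
    (hsm : s ∈ Smin) : ¬ s ^ 2 ∣ N := by
  intro h
  rw [hG.hN] at h
  have hc : (s ^ 2).Coprime (∏ r ∈ Sig, r ^ 2) :=
    Nat.Coprime.pow_left 2 (coprime_prod_of_mem_Smin hG hs hsm)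
  have h1 : s ^ 2 ∣ N₀ := hc.dvd_of_dvd_mul_right h
  have h2 : s * s ∣ N₀ := by rwa [pow_two] at h1
  have h3 : IsUnit s := hG.hN₀ s h2
  exact hs.one_lt.ne' (Nat.isUnit_iff.mp h3)

end Arith

/-- **MULT1** from CLAIM, COEF and NOLOW. -/
theorem mult1_of : Stmt_MULT1_of := by
  intro hCLAIM hCOEF hNOLOW 𝒪 _ _ _ _ _ _ p _ hp2 hpm ρbar Smin hres N₀ hflat Sig N _ S hG θ hFrob
    x hx χ hconj
  have hS_all : ∀ s : ℕ, s.Prime → s ∣ N → s ∈ (↑S : Set ℕ) :=
    fun s hs h => Finset.mem_coe.mpr (prime_dvd_mem_S hG hs h)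
  have hSminS : Smin ⊆ S := by
    rw [hG.hS]
    exact Finset.subset_union_left
  have hinj : Function.Injective (a1Lin N (↑S : Set ℕ) Sig χ) := by
    rw [injective_iff_map_eq_zero]
    rintro ⟨f, hf⟩ h0
    have h0' : qCoeff (f : CuspForm (Gamma0 N) 2) 1 = 0 := h0
    have hcoef := hCOEF N (↑S : Set ℕ) Sig χ hS_all (fun r hr => Sig_dvd hG hr) f hf h0'
    have hf0 : f = 0 := by
      refine hCLAIM (↑S : Set ℕ) (eigVal χ) Smin
        (fun r hr => ⟨hres.hS r hr, Finset.mem_coe.mpr (hSminS hr)⟩) N hS_all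
        (fun r hr => sq_not_dvd_of_mem_Smin hG (hres.hS r hr) hr) ?_ f ?_ ?_
      · intro r hr hrN
        refine hNOLOW 𝒪 p hp2 hpm ρbar Smin hres N S hSminS hS_all θ hFrob x hx χ hconj r hr ?_
        intro hrp
        apply hflat
        rw [← hrp]
        exact dvd_N₀_of_mem_Smin hG (hres.hS r hr) hr hrN
      · intro ℓ hℓ hℓN hℓS
        rw [eigVal_eq χ hℓ hℓN hℓS]
        exact hf.1 ℓ hℓ hℓN hℓS
      · intro n hn
        apply hcoef n
        intro s hs hsn hsS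
        have hsS' : s ∈ S := Finset.mem_coe.mp hsS
        rw [hG.hS, Finset.mem_union] at hsS'
        rcases hsS' with h1 | h1
        · exact absurd hsn (hn s h1)
        · exact h1
    exact Subtype.ext hf0
  have h1 := LinearMap.finrank_le_finrank_of_injective hinj
  rwa [Module.finrank_self] at h1

end Fermat.Agent.S59.NonMin.Geom.Rank.H78

end
-- ==== END Fermat.Agent.S59.NonMin.Geom.Rank.H78_Mult1

-- ==== BEGIN Fermat.Agent.S59.NonMin.H2_WireC
section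

/-!
# S59, package RT-NONMIN, case C: the wirings `WIREC`, `WIREall`, `RESFLAT` (helper2)

* `stmt_RESFLAT : Stmt_RESFLAT` (from `Datum.H78.stmt_FlatDesc`);
* `Stmt_RESORD` : the reduction of an ordinary representation is ordinary (the analogue of
  `Stmt_RESFLAT`; needed to feed `Stmt_NMGEOMC` and `Stmt_PSTEP`);
* `wirec_of : Stmt_RESORD → Stmt_WIREC`;
* `stmt_WIREall : Stmt_WIREall`.
-/

set_option autoImplicit false
set_option linter.style.haveILetI false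
set_option linter.unusedSectionVars false
set_option linter.unusedVariables false
set_option maxHeartbeats 1000000

open Polynomial CuspForm CongruenceSubgroup ModularFormClass IsLocalRing

namespace Fermat.Agent.S59.NonMin.H2

open Fermat.Agent.S59 Fermat.Agent.S59.Asm Fermat.Agent.S59.NonMin

/-- **RESFLAT**. -/
theorem stmt_RESFLAT : Stmt_RESFLAT := by
  intro 𝒪 _ _ _ _ _ p hp ρbar ρ hres hflat
  exact Fermat.Agent.S59.Datum.H78.stmt_FlatDesc p hp.out (ResidueField 𝒪) ρbar 𝒪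
    (ResidueField.map (algebraMap 𝒪 𝒪)) ρ hres hflat

/-- **RESORD**: the reduction of an ordinary representation is ordinary. -/
def Stmt_RESORD : Prop :=
  ∀ (𝒪 : Type) [CommRing 𝒪] [IsDomain 𝒪] [IsDiscreteValuationRing 𝒪]
    [IsAdicComplete (maximalIdeal 𝒪) 𝒪] [Finite (ResidueField 𝒪)]
    (p : ℕ) [Fact p.Prime] (ρbar : ResidualGaloisRep (ResidueField 𝒪)) (ρ : GaloisRepAdic 𝒪),
    ρ.residual.IsEquiv (ρbar.baseChangeAlong (ResidueField.map (algebraMap 𝒪 𝒪))) →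
    ρ.IsOrdinaryAt p → (GaloisRepAdic.ofResidualGaloisRep ρbar).IsOrdinaryAt p

/-- the level `N p` is cube-free and not divisible by `p²` -/
theorem level_mul_p {p N : ℕ} (hp : p.Prime) (hpN : ¬ p ∣ N)
    (hcube : ∀ q : ℕ, q.Prime → ¬ q ^ 3 ∣ N) :
    ¬ p ^ 2 ∣ N * p ∧ ∀ q : ℕ, q.Prime → ¬ q ^ 3 ∣ N * p := by
  constructor
  · intro h
    apply hpN
    have h4 : p * p ∣ p * N := by
      rw [← pow_two, mul_comm p N]
      exact h
    exact (Nat.mul_dvd_mul_iff_left hp.pos).mp h4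
  · intro q hq h
    by_cases hqp : q = p
    · rw [hqp] at h
      apply hpN
      have h4 : p * p ^ 2 ∣ p * N := by
        rw [← pow_succ', mul_comm p N]
        exact h
      exact (dvd_pow_self p (by norm_num : (2 : ℕ) ≠ 0)).trans
        ((Nat.mul_dvd_mul_iff_left hp.pos).mp h4)
    · have hcop : Nat.Coprime (q ^ 3) p :=
        Nat.Coprime.pow_left 3 ((Nat.coprime_primes hq hp).mpr hqp)
      exact hcube q hq (hcop.dvd_of_dvd_mul_right h)

/-- **WIREC** from RESORD. -/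
theorem wirec_of (hRESORD : Stmt_RESORD) : Stmt_WIREC := by
  intro hNMC hSTEP hBASE hPSTEP hCOND hDATUM hTWP hASM
  intro 𝒪 _ _ _ _ _ _ p _ hp2 hp𝒪 ρbar Smin hyp hbar N _ hN θ hθ x₀ hx₀ Sig hSig ρ hρ hres a
    hfrob
  have hpP : p.Prime := Fact.out
  have hord : (GaloisRepAdic.ofResidualGaloisRep ρbar).IsOrdinaryAt p :=
    hRESORD 𝒪 p ρbar ρ hres hρ.1.2.1
  haveI hI : Fact (CuspForm.HasIntegralStructure N 2) := ⟨Fermat.Agent.S23.result N⟩
  have hNS : ∀ q : ℕ, q.Prime → q ∣ N → q ∈ Smin := by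
    intro q hq hqN
    rw [hN] at hqN
    exact Asm.H2.prime_dvd_minLevel hpP true hyp.hS hyp.hpSmin hq hqN
  have hsqf : Squarefree N := by
    rw [hN]
    exact Asm.H2.squarefree_minLevel hpP true hyp.hS
  have hpN : ¬ p ∣ N := by
    rw [hN]
    exact Asm.H2.not_dvd_minLevel_of_fl hpP hyp.hS
  have hnf : true = false → ¬ (GaloisRepAdic.ofResidualGaloisRep ρbar).IsFlatAt p :=
    fun h => absurd h (by decide)
  obtain ⟨M, G, hMnt, hG, hG₀, hGstep, hGp⟩ :=
    hNMC 𝒪 p hp2 hp𝒪 ρbar Smin hyp hord N hNS hsqf hpN θ hθ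
  obtain ⟨d, hd, hRT₀⟩ := rtProp_base 𝒪 p hBASE hCOND hDATUM hTWP hASM hp2 hp𝒪 true ρbar Smin
    hyp hbar hnf N hN θ hθ x₀ hx₀ M hMnt hG
  obtain ⟨s, hIs, x, hGs, hLev, hF, hx, hRT⟩ := rtProp_of_step 𝒪 p hSTEP hp2 hp𝒪 true ρbar Smin
    hyp hbar hnf G hGstep d hd (⟨N, Smin, θ, M⟩ : NMState 𝒪) hI x₀ hG₀
    (levelHyp_base 𝒪 hpP true hyp.hS hyp.hpSmin hN θ M) hθ hx₀ hRT₀ Sig hSig
  haveI := hIs
  have hpsN : ¬ p ∣ s.N := hLev.hfl rfl
  haveI : NeZero (s.N * p) := ⟨mul_ne_zero (NeZero.ne s.N) hpP.ne_zero⟩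
  obtain ⟨st⟩ := hGp s hGs hpsN
  haveI hI' : Fact (CuspForm.HasIntegralStructure (s.N * p) 2) :=
    ⟨Fermat.Agent.S23.result (s.N * p)⟩
  have hRTC := hPSTEP 𝒪 p hp2 hp𝒪 ρbar Smin hyp hbar hord Sig s hLev hF x hx d hd hRT st
  obtain ⟨-, D, H, φ, hφ, ηhat, πx, hHπ, hφbij, hφe, -, -, -, -⟩ := hRTC
  have hmem : ∀ ℓ : ℕ, ℓ ∉ (↑s.S : Set ℕ) → ℓ ∉ Smin ∪ Sig := by
    intro ℓ hℓ h
    apply hℓ
    rw [Finset.mem_coe, hLev.hS]
    exact h
  have hmem' : ∀ ℓ : ℕ, ℓ ∉ Smin ∪ Sig → ℓ ∉ (↑s.S : Set ℕ) := by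
    intro ℓ hℓ h
    apply hℓ
    rw [Finset.mem_coe, hLev.hS] at h
    exact h
  obtain ⟨g, hg, hga⟩ := eigenform_of_RT D H φ hφbij.2 hφbij.1 hφ hφe ρ hρ hres a
    (fun ℓ hℓ hℓN hℓS A hA σ hσ => hfrob ℓ hℓ (hmem ℓ hℓS) A hA σ hσ)
  obtain ⟨h1, h2⟩ := level_mul_p hpP hpsN hLev.hcube
  exact ⟨s.N * p, h1, h2, g, hg, fun ℓ hℓ hℓN hℓS => hga ℓ hℓ hℓN (hmem' ℓ hℓS)⟩

/-- **WIREall**: the three cases. -/
theorem stmt_WIREall : Stmt_WIREall := by
  intro hnm hc hRESFLAT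
  intro 𝒪 _ _ _ _ _ _ p _ hp2 hp𝒪 fl ρbar Smin hyp hbar hnf N _ hN θ hθ x₀ hx₀ Sig hSig ρ hdet
    hunr huni hSiguni htype hres a hfrob
  have hunr' : ∀ q : ℕ, q.Prime → q ∉ Smin ∪ Sig → ρ.IsUnramifiedAt q := by
    intro q hq hqS
    exact hunr q hq (fun h => hqS (Finset.mem_union_left _ h))
      (fun h => hqS (Finset.mem_union_right _ h))
  have huni' : ∀ q ∈ Smin, q.Prime → q ≠ p → ρ.IsUnipotentOnInertiaAt q :=
    fun q hq _ hqp => huni q hq hqp
  have hfrob' : ∀ ℓ : ℕ, ℓ.Prime → ℓ ∉ Smin ∪ Sig →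
      ∀ A : ValuationSubring (AlgebraicClosure ℚ), A.LiesOverPrime ℓ →
        ∀ σ : AlgebraicClosure ℚ ≃ₐ[ℚ] AlgebraicClosure ℚ, A.IsFrobeniusAt σ ℓ →
          LinearMap.charpoly (ρ.ρ σ) = X ^ 2 - C (((a ℓ : ℤ) : 𝒪)) * X + C ((ℓ : 𝒪)) := by
    intro ℓ hℓ hℓS
    exact hfrob ℓ hℓ (fun h => hℓS (Finset.mem_union_left _ h))
      (fun h => hℓS (Finset.mem_union_right _ h))
  have hfin : ∀ (X : ∃ N' : ℕ, ¬ p ^ 2 ∣ N' ∧ (∀ q : ℕ, q.Prime → ¬ q ^ 3 ∣ N') ∧
      ∃ g : CuspForm (Gamma0 N') 2, g.IsNormalizedEigenform ∧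
        ∀ ℓ : ℕ, ℓ.Prime → ¬ ℓ ∣ N' → ℓ ∉ Smin ∪ Sig → qCoeff ⇑g ℓ = (a ℓ : ℂ)),
      ∃ N' : ℕ, ¬ p ^ 2 ∣ N' ∧ (∀ q : ℕ, q.Prime → ¬ q ^ 3 ∣ N') ∧
      ∃ g : CuspForm (Gamma0 N') 2, g.IsNormalizedEigenform ∧
        ∀ ℓ : ℕ, ℓ.Prime → ℓ ∉ Smin → ℓ ∉ Sig → ¬ ℓ ∣ N' → qCoeff ⇑g ℓ = (a ℓ : ℂ) := by
    rintro ⟨N', h1, h2, g, hg, hga⟩
    refine ⟨N', h1, h2, g, hg, fun ℓ hℓ hℓS hℓSig hℓN => hga ℓ hℓ hℓN ?_⟩
    intro h
    rcases Finset.mem_union.mp h with h | h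
    · exact hℓS h
    · exact hℓSig h
  rcases htype with hflat | hso
  · cases fl with
    | false => exact absurd (hRESFLAT 𝒪 p ρbar ρ hres hflat) (hnf rfl)
    | true =>
      have hcond : cond 𝒪 p true Smin Sig ρ := ⟨⟨hdet, hflat, hunr'⟩, huni'⟩
      exact hfin (hnm 𝒪 p hp2 hp𝒪 true ρbar Smin hyp hbar hnf N hN θ hθ x₀ hx₀ Sig hSig ρ hcond
        hres a hfrob')
  · cases fl with
    | false =>
      have hcond : cond 𝒪 p false Smin Sig ρ := ⟨⟨hdet, hso, hunr'⟩, huni'⟩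
      exact hfin (hnm 𝒪 p hp2 hp𝒪 false ρbar Smin hyp hbar hnf N hN θ hθ x₀ hx₀ Sig hSig ρ
        hcond hres a hfrob')
    | true =>
      have hcond : condOrd 𝒪 p Smin Sig ρ := ⟨⟨hdet, hso.isOrdinaryAt, hunr'⟩, huni'⟩
      exact hfin (hc 𝒪 p hp2 hp𝒪 ρbar Smin hyp hbar N hN θ hθ x₀ hx₀ Sig hSig ρ hcond hres a
        hfrob')

end Fermat.Agent.S59.NonMin.H2

end
-- ==== END Fermat.Agent.S59.NonMin.H2_WireC

-- ==== BEGIN Fermat.Agent.S59.NonMin.H47_DefOrd
section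

/-!
# S59, package RT-NONMIN, case C, leaf DEF-ord (helper47): the universal ordinary deformation ring

`stmt_DEFord : Stmt_DEFord` (`NonMin/Defs2.lean`).  As `S59/H99_Def.lean` (helper99):

* `isDeformationCondition_condOrdB` : `condOrd` is a deformation condition (the ordinary line is
  intrinsic: `NonMin/H47_OrdLine.lean`);
* `tangentFinite_condOrdB` : its tangent space is finite (dictionary with
  `H¹(G_{ℚ, Smin ∪ T}, ad⁰ ρbar)` and Hermite–Minkowski);
* `Fermat.Agent.S53.result`.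
-/

set_option autoImplicit false
set_option linter.unusedSectionVars false
set_option linter.style.haveILetI false
set_option linter.unusedVariables false

open IsLocalRing TensorProduct

namespace Fermat.Agent.S59.NonMin.H47

open Fermat.Agent.S59.H99 Fermat.Agent.S56.H92

section Cond

/-- The ordinary deformation condition, in the form `condJ ∧ IsOrdinaryAt`. -/
def condOrdB (𝒪 : Type) [CommRing 𝒪] (p : ℕ) (Smin T : Finset ℕ) :
    ∀ ⦃A : Type⦄ [CommRing A] [IsLocalRing A] [Algebra 𝒪 A], GaloisRepAdic A → Prop :=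
  fun _A _ _ _ ρ => condJ p Smin T ρ ∧ ρ.IsOrdinaryAt p

theorem condOrd_eq_condOrdB (𝒪 : Type) [CommRing 𝒪] (p : ℕ) (Smin T : Finset ℕ) :
    Fermat.Agent.S59.NonMin.condOrd 𝒪 p Smin T = condOrdB 𝒪 p Smin T := by
  funext A _ _ _ ρ
  exact propext ⟨fun h => ⟨⟨h.1.1, h.1.2.2, h.2⟩, h.1.2.1⟩,
    fun h => ⟨⟨h.1.1, h.2, h.1.2.1⟩, h.1.2.2⟩⟩

variable {A : Type} [CommRing A] [IsLocalRing A]

theorem ord_of_pair {P B : Type} [CommRing P] [IsLocalRing P] [CommRing B] [IsLocalRing B]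
    (p : ℕ) [Fact p.Prime] (hp2 : p ≠ 2) [Finite A] [Finite B]
    (pA : P →+* A) (hpA : IsLocalHom pA) (pB : P →+* B) (hpB : IsLocalHom pB)
    (hinj : ∀ x, pA x = 0 → pB x = 0 → x = 0) (ρ : GaloisRepAdic P)
    (hdA : (ρ.baseChangeAlong pA hpA).DetIsCyclotomic p)
    (hdB : (ρ.baseChangeAlong pB hpB).DetIsCyclotomic p)
    (hA : (ρ.baseChangeAlong pA hpA).IsOrdinaryAt p)
    (hB : (ρ.baseChangeAlong pB hpB).IsOrdinaryAt p) : ρ.IsOrdinaryAt p := by
  obtain ⟨MA, hMA⟩ := exists_pow_eq_zero_of_finite p hdA.1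
  obtain ⟨MB, hMB⟩ := exists_pow_eq_zero_of_finite p hdB.1
  let F := pairFam p pA hpA pB hpB hinj (MA + MB) (hMA _ (Nat.le_add_right _ _))
    (hMB _ (Nat.le_add_left _ _))
  refine jfam_isOrdinaryAt F ρ hp2 (fun i => ?_) fun i => ?_
  · cases i
    · exact hdB
    · exact hdA
  · cases i
    · exact hB
    · exact hA

/-- Descent of `condJ` and `IsOrdinaryAt` from the finite quotients of a noetherian local
ring. -/
theorem condOrd_of_quot [IsNoetherianRing A] (hres : Finite (ResidueField A))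
    (p : ℕ) [Fact p.Prime] (hp2 : p ≠ 2) (Smin T : Finset ℕ) (ρ : GaloisRepAdic A)
    (h : ∀ (J : Ideal A) (hJ : J ≠ ⊤), Finite (A ⧸ J) →
      letI := isLocalRing_quot_of_ne_top hJ
      ∀ hq : IsLocalHom (Ideal.Quotient.mk J),
        condJ p Smin T (ρ.baseChangeAlong (Ideal.Quotient.mk J) hq) ∧
          (ρ.baseChangeAlong (Ideal.Quotient.mk J) hq).IsOrdinaryAt p) :
    condJ p Smin T ρ ∧ ρ.IsOrdinaryAt p := by
  have hfin : ∀ m : ℕ, Finite (A ⧸ maximalIdeal A ^ (m + 1)) := fun m => by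
    have : Finite (A ⧸ maximalIdeal A) := hres
    exact Ideal.finite_quotient_pow (IsNoetherian.noetherian (maximalIdeal A)) (m + 1)
  have hpA : (p : A) ∈ maximalIdeal A := by
    letI := isLocalRing_quot_of_ne_top (pow_succ_ne_top (A := A) 0)
    have hq : IsLocalHom (Ideal.Quotient.mk (maximalIdeal A ^ (0 + 1))) :=
      IsLocalHom.of_surjective _ Ideal.Quotient.mk_surjective
    have := (h _ (pow_succ_ne_top (A := A) 0) (hfin 0) hq).1.1.1
    exact natCast_mem_of_map_mem (Ideal.Quotient.mk (maximalIdeal A ^ (0 + 1))) p this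
  let F : JFam A p := JFam.ofQuot p hpA
  have hF : ∀ i, condJ p Smin T (ρ.baseChangeAlong (F.φ i) (F.hφ i)) ∧
      (ρ.baseChangeAlong (F.φ i) (F.hφ i)).IsOrdinaryAt p := fun i =>
    h _ (pow_succ_ne_top (A := A) i) (hfin i) (F.hφ i)
  exact ⟨F.condJ ρ Smin T fun i => (hF i).1,
    jfam_isOrdinaryAt F ρ hp2 (fun i => (hF i).1.1) fun i => (hF i).2⟩

end Cond

section Main

variable (𝒪 : Type) [CommRing 𝒪] [IsLocalRing 𝒪] [Finite (ResidueField 𝒪)]

/-- **`condOrdB` is a deformation condition.** -/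
theorem isDeformationCondition_condOrdB (p : ℕ) [Fact p.Prime] (hp2 : p ≠ 2)
    (Smin T : Finset ℕ) : GaloisRep.IsDeformationCondition 𝒪 (condOrdB 𝒪 p Smin T) where
  of_isEquiv := by
    intro A _ _ _ _ ρ ρ' he h
    exact ⟨condJ_of_isEquiv he p Smin T h.1, isOrdinaryAt_of_isEquiv he p h.2⟩
  baseChangeAlong := by
    intro A B _ _ _ _ _ _ _ hB φ hφ ρ h
    exact ⟨condJ_baseChangeAlong _ hφ ρ p Smin T h.1,
      isOrdinaryAt_baseChangeAlong _ hφ ρ p h.2⟩
  of_baseChangeAlong_injective := by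
    intro A B _ _ _ _ _ _ hA hB φ hφ hinj ρ h
    have : Finite A := Fermat.Agent.S53.finite_of_isArtinianTestAlgebra hA
    have : Finite B := Fermat.Agent.S53.finite_of_isArtinianTestAlgebra hB
    have hinj' : ∀ x, (φ : A →+* B) x = 0 → (φ : A →+* B) x = 0 → x = 0 := fun x hx _ =>
      hinj (by rw [map_zero]; exact hx)
    exact ⟨condJ_of_pair p _ hφ _ hφ hinj' ρ Smin T h.1 h.1,
      ord_of_pair p hp2 _ hφ _ hφ hinj' ρ h.1.1 h.1.1 h.2 h.2⟩
  of_fibreProduct := by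
    intro A B C P _ _ _ _ _ _ _ _ _ _ _ _ hA hB _ hP f g pA pB hpA hpB _ hinj _ ρ h1 h2
    have : Finite A := Fermat.Agent.S53.finite_of_isArtinianTestAlgebra hA
    have : Finite B := Fermat.Agent.S53.finite_of_isArtinianTestAlgebra hB
    have : Finite P := Fermat.Agent.S53.finite_of_isArtinianTestAlgebra hP
    have hinj' : ∀ x, (pA : P →+* A) x = 0 → (pB : P →+* B) x = 0 → x = 0 := fun x hx hy =>
      hinj (by
        change (pA x, pB x) = (pA 0, pB 0)
        rw [map_zero, map_zero]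
        exact Prod.ext hx hy)
    exact ⟨condJ_of_pair p _ hpA _ hpB hinj' ρ Smin T h1.1 h2.1,
      ord_of_pair p hp2 _ hpA _ hpB hinj' ρ h1.1.1 h2.1.1 h1.2 h2.2⟩
  iff_forall_surjective := by
    intro A _ _ _ _ _ hloc hres ρ
    have hresA : Finite (ResidueField A) :=
      haveI := hloc
      Fermat.Agent.S53.H50.finite_residueField_of_surjective 𝒪 A hres
    constructor
    · intro h B _ _ _ hB q hq _
      exact ⟨condJ_baseChangeAlong _ hq ρ p Smin T h.1,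
        isOrdinaryAt_baseChangeAlong _ hq ρ p h.2⟩
    · intro h
      refine condOrd_of_quot hresA p hp2 Smin T ρ fun J hJ hJf => ?_
      letI := isLocalRing_quot_of_ne_top hJ
      intro hq
      have hlocJ : IsLocalHom (algebraMap 𝒪 (A ⧸ J)) := by
        refine ⟨fun a ha => ?_⟩
        have h1 : IsUnit (algebraMap 𝒪 A a) := by
          haveI := hq
          exact isUnit_of_map_unit (Ideal.Quotient.mk J) _ ha
        haveI := hloc
        exact isUnit_of_map_unit (algebraMap 𝒪 A) a h1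
      have hresJ : Function.Surjective (IsLocalRing.residue (A ⧸ J) ∘ algebraMap 𝒪 (A ⧸ J)) := by
        intro x
        obtain ⟨y, rfl⟩ := IsLocalRing.residue_surjective x
        obtain ⟨a, rfl⟩ := Ideal.Quotient.mk_surjective y
        obtain ⟨c, hc⟩ := Fermat.Agent.S53.exists_sub_mem_maximalIdeal hres a
        refine ⟨c, ?_⟩
        simp only [Function.comp_apply]
        rw [eq_comm, ← sub_eq_zero, ← map_sub, IsLocalRing.residue_eq_zero_iff]
        have h2 : Ideal.Quotient.mk J a - algebraMap 𝒪 (A ⧸ J) c =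
            Ideal.Quotient.mk J (a - algebraMap 𝒪 A c) := by
          rw [map_sub]
          rfl
        rw [h2]
        haveI := hq
        exact map_nonunit (Ideal.Quotient.mk J) _ hc
      have hT : GaloisRep.IsArtinianTestAlgebra 𝒪 (A ⧸ J) :=
        ⟨hlocJ, hresJ, isArtinian_of_finite⟩
      exact h hT (Ideal.Quotient.mkₐ 𝒪 J) hq Ideal.Quotient.mk_surjective

end Main

/-- The tangent space of `condOrdB` is finite. -/
theorem tangentFinite_condOrdB (𝒪 : Type) [CommRing 𝒪] [IsDomain 𝒪]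
    [IsDiscreteValuationRing 𝒪]
    [IsAdicComplete (maximalIdeal 𝒪) 𝒪] [Finite (ResidueField 𝒪)]
    (p : ℕ) [Fact p.Prime] (hp2 : p ≠ 2) (hp𝒪 : (p : 𝒪) ∈ maximalIdeal 𝒪)
    (ρbar : ResidualGaloisRep (ResidueField 𝒪)) (Smin T : Finset ℕ)
    (hbar : condOrdB 𝒪 p Smin T (GaloisRepAdic.ofResidualGaloisRep ρbar)) :
    GaloisRep.TangentFinite 𝒪 ρbar (condOrdB 𝒪 p Smin T) := by
  rw [Fermat.Agent.S53.tangentFinite_iff]
  obtain ⟨hfd, hsm, -⟩ := Fermat.Agent.S56.H47.ad0_basic (ResidueField 𝒪) ρbar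
  haveI := hfd
  have hWfin := Fermat.Agent.S56.H92.stmt_fin_glob (ResidueField 𝒪) (Fermat.Agent.S56.ad0 ρbar)
    hsm (Fermat.Agent.S56.primesOf (Smin ∪ T))
  refine (Fermat.Agent.S56.Dict.tangentLE_of_classes ρbar (condOrdB 𝒪 p Smin T)
    (Module.finrank (ResidueField 𝒪)
      (groupCohomology.continuousH1S (Fermat.Agent.S56.primesOf (Smin ∪ T))
        (Fermat.Agent.S56.ad0 ρbar)))
    (Fermat.Agent.S56.Dict.stmt_dict_exists 𝒪 p ρbar _ hp2 hp𝒪 hbar.1.1
      (fun A _ _ _ ρ h => h.1.1))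
    (Fermat.Agent.S56.Dict.H85.stmt_dict_inj 𝒪 ρbar _)
    (groupCohomology.continuousH1S (Fermat.Agent.S56.primesOf (Smin ∪ T))
      (Fermat.Agent.S56.ad0 ρbar)) hWfin ?_ le_rfl).1
  intro x ξ hx
  refine Fermat.Agent.S56.Dict.stmt_dict_cont 𝒪 ρbar _ _ x ξ ?_ hx
  intro q hq
  letI := Fermat.Agent.S53.dualNumberAlgebra 𝒪
  exact x.2.1.1.2.1 q q.2 (fun h => hq (Fermat.Agent.S56.mem_primesOf.2 h))

/-- **DEF-ord**: the universal deformation ring of `condOrd` exists. -/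
theorem stmt_DEFord : Fermat.Agent.S59.NonMin.Stmt_DEFord := by
  intro 𝒪 _ _ _ _ _ p _ hp2 hp𝒪 ρbar habs Smin T _ _ hbar
  rw [condOrd_eq_condOrdB] at hbar ⊢
  exact Fermat.Agent.S53.result 𝒪 ρbar _ habs (isDeformationCondition_condOrdB 𝒪 p hp2 Smin T)
    hbar (tangentFinite_condOrdB 𝒪 p hp2 hp𝒪 ρbar Smin T hbar)

/-- `condOrd` is a deformation condition. -/
theorem isDeformationCondition_condOrd (𝒪 : Type) [CommRing 𝒪] [IsLocalRing 𝒪]
    [Finite (ResidueField 𝒪)] (p : ℕ) [Fact p.Prime] (hp2 : p ≠ 2) (Smin T : Finset ℕ) :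
    GaloisRep.IsDeformationCondition 𝒪 (Fermat.Agent.S59.NonMin.condOrd 𝒪 p Smin T) := by
  rw [condOrd_eq_condOrdB]
  exact isDeformationCondition_condOrdB 𝒪 p hp2 Smin T

end Fermat.Agent.S59.NonMin.H47

end
-- ==== END Fermat.Agent.S59.NonMin.H47_DefOrd

-- ==== BEGIN Fermat.Agent.S59.NonMin.H47_TauOrd
section

/-!
# S59, package RT-NONMIN, case C, leaf TAU-ord (helper47): `R^{ord} ↠ R^{fl}`

As `NonMin.H92.stmt_TAU2`: the universal flat deformation is ordinary by hypothesis, hence of type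
`condOrd`; the universal property of the ordinary deformation ring gives `τ`, and
`Asm.H99.surjective_of_isEquiv` its surjectivity.
-/

set_option autoImplicit false
set_option linter.unusedSectionVars false
set_option linter.style.haveILetI false
set_option linter.unusedVariables false

namespace Fermat.Agent.S59.NonMin.H47

open IsLocalRing Fermat.Agent.S59 Fermat.Agent.S59.Asm

/-- **TAU-ord**. -/
theorem stmt_TAUord : Stmt_TAUord := by
  intro 𝒪 _ _ _ _ _ p _ hp2 _hp𝒪 ρbar Smin Sig _hpS _hprime D D' hord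
  have h𝒟 : GaloisRep.IsDeformationCondition 𝒪 (Fermat.Agent.S59.cond 𝒪 p true Smin Sig) := by
    rw [Fermat.Agent.S59.H99.cond_eq_condB]
    exact Fermat.Agent.S59.H99.isDeformationCondition_condB 𝒪 p hp2 true Smin Sig
  have hD : Fermat.Agent.S56.condFl 𝒪 p Smin Sig D.ρ := D.isOfType
  have hQ : condOrd 𝒪 p Smin Sig D.ρ := ⟨⟨hD.1.1, hord, hD.1.2.2⟩, hD.2⟩
  obtain ⟨τ, ⟨hτ, hτeq⟩, -⟩ := D'.universal D.R D.residue_surjective D.ρ hQ D.residual_isEquiv
  exact ⟨τ, Fermat.Agent.S59.Asm.H99.surjective_of_isEquiv h𝒟 D D'.ρ D'.residual_isEquiv τ hτ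
    hτeq, hτ, hτeq⟩

end Fermat.Agent.S59.NonMin.H47

end
-- ==== END Fermat.Agent.S59.NonMin.H47_TauOrd

-- ==== BEGIN Fermat.Agent.S59.NonMin.H56_CQNEAnalytic
section

set_option autoImplicit false

open UpperHalfPlane ModularForm CongruenceSubgroup Matrix.SpecialLinearGroup Filter
open scoped MatrixGroups ModularForm Modular Topology ComplexConjugate
open P2MW.S_ModularForm_heckeT_slash_eq_self_of_mem_Gamma0.ModularForm.HeckeSlashInvariance

noncomputable section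

namespace Fermat.Agent.S59.NonMin.H56

variable {N : ℕ}

/-- `cuspPhi f z = ‖f z‖ · Im z`. -/
def cuspPhi (f : CuspForm (Gamma0 N) 2) (z : ℍ) : ℝ := ‖f z‖ * z.im

theorem cuspPhi_nonneg (f : CuspForm (Gamma0 N) 2) (z : ℍ) : 0 ≤ cuspPhi f z :=
  mul_nonneg (norm_nonneg _) z.im_pos.le

theorem cuspPhi_sq (f : CuspForm (Gamma0 N) 2) (z : ℍ) :
    cuspPhi f z ^ 2 = ‖petersson 2 f f z‖ := by
  unfold cuspPhi petersson
  rw [norm_mul, norm_mul, Complex.norm_conj, norm_zpow, Complex.norm_real,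
    Real.norm_of_nonneg z.im_pos.le]
  norm_cast
  ring

theorem cuspPhi_eq_sqrt (f : CuspForm (Gamma0 N) 2) (z : ℍ) :
    cuspPhi f z = Real.sqrt ‖petersson 2 f f z‖ := by
  rw [← cuspPhi_sq, Real.sqrt_sq (cuspPhi_nonneg f z)]

variable [NeZero N]

theorem cuspPhi_bdd (f : CuspForm (Gamma0 N) 2) : ∃ C : ℝ, ∀ z, cuspPhi f z ≤ C := by
  obtain ⟨C, hC⟩ := CuspFormClass.petersson_bounded_left 2 (Gamma0 N : Subgroup (GL (Fin 2) ℝ)) f f
  refine ⟨Real.sqrt C, fun z => ?_⟩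
  rw [cuspPhi_eq_sqrt]
  exact Real.sqrt_le_sqrt (hC z)

theorem cuspPhi_smul_of_mem (f : CuspForm (Gamma0 N) 2) {j : SL(2, ℤ)} (hj : j ∈ Gamma0 N)
    (z : ℍ) : cuspPhi f (j • z) = cuspPhi f z := by
  rw [cuspPhi_eq_sqrt, cuspPhi_eq_sqrt, MulAction.compHom_smul_def (mapGL ℝ) j z]
  congr 1
  exact SlashInvariantFormClass.norm_petersson_smul (Subgroup.mem_map_of_mem (mapGL ℝ) hj)

open ConjAct Pointwise in
theorem tendsto_petersson_smul (f : CuspForm (Gamma0 N) 2) (g : SL(2, ℤ)) :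
    Tendsto (fun z : ℍ => ‖petersson 2 f f (g • z)‖) atImInfty (𝓝 0) := by
  rw [← tendsto_zero_iff_norm_tendsto_zero]
  simp_rw [← UpperHalfPlane.petersson_slash_SL]
  have : ((toConjAct (g : GL (Fin 2) ℝ)⁻¹) • (Gamma0 N : Subgroup (GL (Fin 2) ℝ))).IsArithmetic := by
    simpa [(show Rat.castHom ℝ = algebraMap ℚ ℝ by rfl), map_inv, map_mapGL]
      using! Subgroup.IsArithmetic.conj (Gamma0 N : Subgroup (GL (Fin 2) ℝ)) (mapGL ℚ g)⁻¹
  exact (CuspFormClass.zero_at_infty <| CuspForm.translate f g).petersson_isZeroAtImInfty_left 2 _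
    (ModularForm.translate f g)

theorem tendsto_cuspPhi_smul (f : CuspForm (Gamma0 N) 2) (g : SL(2, ℤ)) :
    Tendsto (fun z : ℍ => cuspPhi f (g • z)) atImInfty (𝓝 0) := by
  have h := (tendsto_petersson_smul f g).sqrt
  simp only [Real.sqrt_zero] at h
  refine h.congr fun z => ?_
  rw [cuspPhi_eq_sqrt]

/-- Uniform decay over all `SL(2, ℤ)`-translates. -/
theorem cuspPhi_decay (f : CuspForm (Gamma0 N) 2) (ε : ℝ) (hε : 0 < ε) :
    ∃ Y : ℝ, ∀ z : ℍ, Y ≤ z.im → ∀ γ : SL(2, ℤ), cuspPhi f (γ • z) ≤ ε := by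
  have : Fintype (SL(2, ℤ) ⧸ Gamma0 N) := Subgroup.fintypeQuotientOfFiniteIndex
  have hev : ∀ᶠ z in atImInfty, ∀ c : SL(2, ℤ) ⧸ Gamma0 N,
      cuspPhi f ((Quotient.out c : SL(2, ℤ))⁻¹ • z) ≤ ε := by
    rw [Filter.eventually_all]
    intro c
    exact (tendsto_cuspPhi_smul f (Quotient.out c : SL(2, ℤ))⁻¹).eventually_le_const hε
  obtain ⟨Y, hY⟩ := (UpperHalfPlane.atImInfty_mem _).mp hev
  refine ⟨Y, fun z hz γ => ?_⟩
  have h1 := hY z hz (QuotientGroup.mk γ⁻¹)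
  set g : SL(2, ℤ) := Quotient.out (QuotientGroup.mk γ⁻¹ : SL(2, ℤ) ⧸ Gamma0 N) with hg
  have hmem : g⁻¹ * γ⁻¹ ∈ Gamma0 N := by
    rw [← QuotientGroup.eq]
    exact QuotientGroup.out_eq' _
  have hmem' : γ * g ∈ Gamma0 N := by
    have := inv_mem hmem
    simpa [mul_inv_rev] using this
  have : γ • z = (γ * g) • (g⁻¹ • z) := by
    rw [← mul_smul, mul_assoc, mul_inv_cancel, mul_one]
  rw [this, cuspPhi_smul_of_mem f hmem']
  exact h1

omit [NeZero N] in
theorem im_heckeMatrix_smul' {q : ℕ} (hq : q ≠ 0) (j : ℕ) (z : ℍ) :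
    (heckeMatrix q j • z).im = z.im / q := by
  have h := congrArg Complex.im (coe_heckeMatrix_smul hq j z)
  rw [UpperHalfPlane.coe_im] at h
  rw [h]
  have : ((z : ℂ) + (j : ℂ)) / (q : ℂ) = (((z : ℂ) + (j : ℂ)) / ((q : ℝ) : ℂ)) := by
    push_cast; rfl
  rw [this, Complex.div_ofReal_im]
  simp

omit [NeZero N] in
theorem im_heckeDiagMatrix_smul' {q : ℕ} (hq : q ≠ 0) (z : ℍ) :
    (heckeDiagMatrix q • z).im = q * z.im := by
  have h := congrArg Complex.im (coe_heckeDiagMatrix_smul hq z)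
  rw [UpperHalfPlane.coe_im] at h
  rw [h]
  simp

omit [NeZero N] in
/-- The Hecke relation in absolute values (sum over `range q`). -/
theorem cuspPhi_hecke_range {q : ℕ} (hq : q.Prime) (hqN : ¬ q ∣ N)
    (f : CuspForm (Gamma0 N) 2) (c : ℂ) (h : CuspForm.heckeTLin 2 hq hqN f = c • f) (z : ℍ) :
    ‖c‖ * cuspPhi f z ≤
      (∑ j ∈ Finset.range q, cuspPhi f (heckeMatrix q j • z)) +
        cuspPhi f (heckeDiagMatrix q • z) := by
  have hq0 : q ≠ 0 := hq.ne_zero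
  have hqpos : (0 : ℝ) < q := by exact_mod_cast hq.pos
  have h1 : c * f z = (q : ℂ)⁻¹ * ∑ j ∈ Finset.range q, f (heckeMatrix q j • z)
      + (q : ℂ) ^ ((2 : ℤ) - 1) * f (heckeDiagMatrix q • z) := by
    have h2 : (CuspForm.heckeTLin 2 hq hqN f) z = (c • f) z := by rw [h]
    rw [CuspForm.heckeTLin_apply_apply, heckeT_apply 2 hq0] at h2
    rw [h2]
    rfl
  have h3 : ‖c‖ * cuspPhi f z = ‖c * f z‖ * z.im := by
    unfold cuspPhi; rw [norm_mul]; ring
  rw [h3, h1]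
  have hnq : ‖(q : ℂ)‖ = q := by simp
  calc ‖(q : ℂ)⁻¹ * ∑ j ∈ Finset.range q, f (heckeMatrix q j • z)
        + (q : ℂ) ^ ((2 : ℤ) - 1) * f (heckeDiagMatrix q • z)‖ * z.im
      ≤ ((q : ℝ)⁻¹ * ∑ j ∈ Finset.range q, ‖f (heckeMatrix q j • z)‖
        + (q : ℝ) * ‖f (heckeDiagMatrix q • z)‖) * z.im := by
        refine mul_le_mul_of_nonneg_right ?_ z.im_pos.le
        refine (norm_add_le _ _).trans ?_
        rw [norm_mul, norm_mul, norm_inv, hnq]
        have : ‖(q : ℂ) ^ ((2 : ℤ) - 1)‖ = q := by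
          rw [show (2 : ℤ) - 1 = 1 by norm_num, zpow_one, hnq]
        rw [this]
        gcongr
        exact norm_sum_le _ _
    _ = (∑ j ∈ Finset.range q, cuspPhi f (heckeMatrix q j • z)) +
        cuspPhi f (heckeDiagMatrix q • z) := by
        unfold cuspPhi
        rw [im_heckeDiagMatrix_smul' hq0]
        simp_rw [im_heckeMatrix_smul' hq0]
        rw [← Finset.sum_mul, add_mul]
        field_simp

omit [NeZero N] in
/-- The Hecke relation in absolute values (sum over `P¹(𝔽_q)`). -/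
theorem cuspPhi_hecke {q : ℕ} [Fact q.Prime] (hq : q.Prime) (hqN : ¬ q ∣ N)
    (f : CuspForm (Gamma0 N) 2) (c : ℂ) (h : CuspForm.heckeTLin 2 hq hqN f = c • f) (z : ℍ) :
    ‖c‖ * cuspPhi f z ≤ ∑ x : OnePoint (ZMod q), cuspPhi f (heckeRep q x • z) := by
  refine (cuspPhi_hecke_range hq hqN f c h z).trans (le_of_eq ?_)
  have hsplit : ∑ x : OnePoint (ZMod q), cuspPhi f (heckeRep q x • z) =
      cuspPhi f (heckeDiagMatrix q • z) +
        ∑ j : ZMod q, cuspPhi f (heckeMatrix q j.val • z) :=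
    Fintype.sum_option (fun x : OnePoint (ZMod q) => cuspPhi f (heckeRep q x • z))
  rw [hsplit, sum_range_eq_sum_zmod (p := q) (fun j => cuspPhi f (heckeMatrix q j • z)), add_comm]

/-- **CQNE, analytic core**: a `T_q`-eigenvalue on `S₂(Γ₀(N))`, `q ∤ N`, has absolute value
`< q + 1`. -/
theorem norm_lt_of_heckeTLin_eq_smul {q : ℕ} (hq : q.Prime) (hqN : ¬ q ∣ N)
    (f : CuspForm (Gamma0 N) 2) (hf : f ≠ 0) (c : ℂ)
    (h : CuspForm.heckeTLin 2 hq hqN f = c • f) : ‖c‖ < (q : ℝ) + 1 := by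
  by_contra hlt
  rw [not_lt] at hlt
  have : Fact q.Prime := ⟨hq⟩
  obtain ⟨C, hC⟩ := cuspPhi_bdd f
  have hh : ∀ z : ℍ, ((q : ℝ) + 1) * cuspPhi f z ≤
      ∑ x : OnePoint (ZMod q), cuspPhi f (heckeRep q x • z) := fun z =>
    (mul_le_mul_of_nonneg_right hlt (cuspPhi_nonneg f z)).trans (cuspPhi_hecke hq hqN f c h z)
  have hzero : ∀ z, cuspPhi f z = 0 :=
    phi_eq_zero (cuspPhi_nonneg f) hC (cuspPhi_decay f) hh
  apply hf
  refine DFunLike.ext _ _ fun z => ?_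
  have h0 := hzero z
  unfold cuspPhi at h0
  rcases mul_eq_zero.mp h0 with h1 | h1
  · simpa using h1
  · exact absurd h1 z.im_pos.ne'

end Fermat.Agent.S59.NonMin.H56

end

end
-- ==== END Fermat.Agent.S59.NonMin.H56_CQNEAnalytic

-- ==== BEGIN Fermat.Agent.S59.NonMin.H56_KExch
section

set_option autoImplicit false

namespace Fermat.Agent.S59.NonMin.H56K

/-! ### 1. The Kummer character and the exchange lemma -/

section exchange

variable (H : Subgroup GQ)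

/-- The Kummer character `σ ↦ σ x / x` of `x` on `H`. -/
noncomputable def kappa (x : Qb) (hx : x ≠ 0)
    (hfix : ∀ σ ∈ H, ∀ τ ∈ H, τ (σ x / x) = σ x / x) : H →* Qbˣ where
  toFun σ := Units.mk0 ((σ : GQ) x / x) (div_ne_zero ((map_ne_zero _).2 hx) hx)
  map_one' := by
    ext
    simp [div_self hx]
  map_mul' σ τ := by
    ext
    simp only [Units.val_mk0, Units.val_mul, Subgroup.coe_mul, AlgEquiv.mul_apply]
    have h := hfix τ τ.2 σ σ.2
    rw [map_div₀] at h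
    have hσx : (σ : GQ) x ≠ 0 := (map_ne_zero _).2 hx
    field_simp at h ⊢
    linear_combination h

theorem kappa_apply (x : Qb) (hx : x ≠ 0)
    (hfix : ∀ σ ∈ H, ∀ τ ∈ H, τ (σ x / x) = σ x / x) (σ : H) :
    ((kappa H x hx hfix σ : Qbˣ) : Qb) = (σ : GQ) x / x := rfl

theorem kappa_eq_one_iff (x : Qb) (hx : x ≠ 0)
    (hfix : ∀ σ ∈ H, ∀ τ ∈ H, τ (σ x / x) = σ x / x) (σ : H) :
    kappa H x hx hfix σ = 1 ↔ (σ : GQ) x = x := by
  rw [Units.ext_iff, kappa_apply, Units.val_one, div_eq_one_iff_eq hx]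

theorem div_pow_eq_one {N : ℕ} {x : Qb} (hx : x ≠ 0) {σ : GQ} (h : σ (x ^ N) = x ^ N) :
    (σ x / x) ^ N = 1 := by
  rw [div_pow, ← map_pow, h, div_self (pow_ne_zero _ hx)]

/-- **Exchange lemma** (Kummer theory for one radical). -/
theorem exchange (N : ℕ) (hN : 0 < N) (x y : Qb) (hx : x ≠ 0) (hy : y ≠ 0)
    (hroot : ∀ σ ∈ H, ∀ ξ : Qb, ξ ^ N = 1 → σ ξ = ξ)
    (hxN : ∀ σ ∈ H, σ (x ^ N) = x ^ N) (hyN : ∀ σ ∈ H, σ (y ^ N) = y ^ N)
    (hker : ∀ σ ∈ H, σ y = y → σ x = x) :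
    ∃ e : ℕ, ∀ σ ∈ H, σ (x / y ^ e) = x / y ^ e := by
  classical
  have fixx : ∀ σ ∈ H, ∀ τ ∈ H, τ (σ x / x) = σ x / x := fun σ hσ τ hτ =>
    hroot τ hτ _ (div_pow_eq_one hx (hxN σ hσ))
  have fixy : ∀ σ ∈ H, ∀ τ ∈ H, τ (σ y / y) = σ y / y := fun σ hσ τ hτ =>
    hroot τ hτ _ (div_pow_eq_one hy (hyN σ hσ))
  set f := kappa H y hy fixy with hf
  set g := kappa H x hx fixx with hg
  have hfN : ∀ σ : H, (f σ) ^ N = 1 := by
    intro σ
    rw [Units.ext_iff, Units.val_pow_eq_pow_val, kappa_apply, Units.val_one]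
    exact div_pow_eq_one hy (hyN σ σ.2)
  -- the range of `f` is finite, hence cyclic
  have hfin : Finite f.range := by
    have : NeZero N := ⟨hN.ne'⟩
    have hle : f.range ≤ rootsOfUnity N Qb := by
      rintro _ ⟨σ, rfl⟩
      rw [mem_rootsOfUnity]
      exact hfN σ
    exact Finite.of_injective (Subgroup.inclusion hle) (Subgroup.inclusion_injective hle)
  have : IsCyclic f.range := inferInstance
  obtain ⟨⟨ω, σ₀, rfl⟩, hgen⟩ := IsCyclic.exists_generator (α := f.range)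
  -- `θ = g σ₀` is a power of `ω = f σ₀`
  set d := orderOf (f σ₀) with hd
  have hdpos : 0 < d := by
    rw [hd, orderOf_pos_iff, isOfFinOrder_iff_pow_eq_one]
    exact ⟨N, hN, hfN σ₀⟩
  have hθ : (g σ₀) ^ d = 1 := by
    rw [← map_pow, kappa_eq_one_iff]
    apply hker _ (σ₀ ^ d).2
    rw [← kappa_eq_one_iff H y hy fixy, ← hf, map_pow, hd, pow_orderOf_eq_one]
  have hprim : IsPrimitiveRoot ((f σ₀ : Qbˣ) : Qb) d :=
    IsPrimitiveRoot.coe_units_iff.2 (IsPrimitiveRoot.orderOf (f σ₀))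
  have : NeZero d := ⟨hdpos.ne'⟩
  obtain ⟨e, -, he⟩ := hprim.eq_pow_of_pow_eq_one (ξ := ((g σ₀ : Qbˣ) : Qb)) (by
    rw [← Units.val_pow_eq_pow_val, hθ, Units.val_one])
  have he' : (f σ₀) ^ e = g σ₀ := by
    rw [Units.ext_iff, Units.val_pow_eq_pow_val]
    exact he
  refine ⟨e, fun σ hσ => ?_⟩
  -- `g σ = (f σ) ^ e`
  have key : g ⟨σ, hσ⟩ = (f ⟨σ, hσ⟩) ^ e := by
    have hmem := hgen ⟨f ⟨σ, hσ⟩, ⟨⟨σ, hσ⟩, rfl⟩⟩
    obtain ⟨k, hk⟩ := Subgroup.mem_zpowers_iff.1 hmem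
    have hk' : (f σ₀) ^ k = f ⟨σ, hσ⟩ := by
      have := congrArg (Subtype.val) hk
      simpa using this
    have h1 : f ((σ₀ ^ k)⁻¹ * ⟨σ, hσ⟩) = 1 := by
      rw [map_mul, map_inv, map_zpow, hk', inv_mul_cancel]
    have h2 : g ((σ₀ ^ k)⁻¹ * ⟨σ, hσ⟩) = 1 := by
      rw [kappa_eq_one_iff] at h1 ⊢
      exact hker _ ((σ₀ ^ k)⁻¹ * ⟨σ, hσ⟩).2 h1
    rw [map_mul, map_inv, map_zpow, inv_mul_eq_one] at h2
    rw [← h2, ← hk', ← he', ← zpow_natCast, ← zpow_natCast, ← zpow_mul, ← zpow_mul, mul_comm]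
  have key' : σ x / x = (σ y / y) ^ e := by
    have := congrArg (fun u : Qbˣ => (u : Qb)) key
    simp only [Units.val_pow_eq_pow_val] at this
    exact this
  have hσy : σ y ≠ 0 := (map_ne_zero _).2 hy
  rw [map_div₀, map_pow]
  rw [div_pow] at key'
  field_simp at key' ⊢
  linear_combination key'

end exchange

/-! ### 2. Finitely many radicals -/

section list

variable {Γ₀ : Type*} [LinearOrderedCommGroupWithZero Γ₀] (v : Valuation Qb Γ₀)

/-- The elements of `H` fixing a list pointwise. -/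
def fixList (H : Subgroup GQ) (Y : List Qb) : Subgroup GQ where
  carrier := {σ | σ ∈ H ∧ ∀ y ∈ Y, σ y = y}
  mul_mem' := by
    rintro a b ⟨ha, ha'⟩ ⟨hb, hb'⟩
    refine ⟨mul_mem ha hb, fun y hy => ?_⟩
    rw [AlgEquiv.mul_apply, hb' y hy, ha' y hy]
  one_mem' := ⟨one_mem _, fun _ _ => rfl⟩
  inv_mem' := by
    rintro a ⟨ha, ha'⟩
    refine ⟨inv_mem ha, fun y hy => ?_⟩
    have h := ha' y hy
    calc a⁻¹ y = a⁻¹ (a y) := by rw [h]
      _ = (a⁻¹ * a) y := rfl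
      _ = y := by rw [inv_mul_cancel]; rfl

theorem mem_fixList {H : Subgroup GQ} {Y : List Qb} {σ : GQ} :
    σ ∈ fixList H Y ↔ σ ∈ H ∧ ∀ y ∈ Y, σ y = y := Iff.rfl

/-- **Kummer theory for finitely many radicals.** -/
theorem exists_quot_fixed (I H : Subgroup GQ) (hHI : H ≤ I) (N : ℕ) (hN : 0 < N)
    (hroot : ∀ σ ∈ H, ∀ ξ : Qb, ξ ^ N = 1 → σ ξ = ξ) :
    ∀ (Y : List Qb), (∀ y ∈ Y, v y = 1 ∧ ∀ σ ∈ I, σ (y ^ N) = y ^ N) →
    ∀ x : Qb, x ≠ 0 → (∀ σ ∈ I, σ (x ^ N) = x ^ N) →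
      (∀ σ ∈ H, (∀ y ∈ Y, σ y = y) → σ x = x) →
      ∃ w : Qb, v w = 1 ∧ (∀ σ ∈ I, σ (w ^ N) = w ^ N) ∧ ∀ σ ∈ H, σ (x / w) = x / w := by
  intro Y
  induction Y with
  | nil =>
    intro _ x _ _ hx
    refine ⟨1, map_one _, fun σ _ => by simp, fun σ hσ => ?_⟩
    rw [div_one]
    exact hx σ hσ (by simp)
  | cons y Y ih =>
    intro hY x hx0 hxN hx
    have hy1 := (hY y (by simp)).1
    have hyN := (hY y (by simp)).2
    have hy0 : y ≠ 0 := by
      rintro rfl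
      rw [map_zero] at hy1
      exact zero_ne_one hy1
    obtain ⟨e, he⟩ := exchange (fixList H Y) N hN x y hx0 hy0
      (fun σ hσ => hroot σ hσ.1) (fun σ hσ => hxN σ (hHI hσ.1)) (fun σ hσ => hyN σ (hHI hσ.1))
      (fun σ hσ hσy => hx σ hσ.1 (by
        intro y' hy'
        rcases List.mem_cons.1 hy' with rfl | h
        · exact hσy
        · exact hσ.2 y' h))
    obtain ⟨w₁, hw1, hwN, hw⟩ := ih (fun y' hy' => hY y' (List.mem_cons_of_mem _ hy'))
      (x / y ^ e) (div_ne_zero hx0 (pow_ne_zero _ hy0))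
      (fun σ hσ => by
        rw [div_pow, map_div₀, hxN σ hσ, ← pow_mul, mul_comm, pow_mul, map_pow, hyN σ hσ])
      (fun σ hσ hσY => he σ ⟨hσ, hσY⟩)
    refine ⟨y ^ e * w₁, ?_, fun σ hσ => ?_, fun σ hσ => ?_⟩
    · rw [map_mul, map_pow, hy1, one_pow, one_mul, hw1]
    · rw [mul_pow, map_mul, hwN σ hσ, ← pow_mul, mul_comm e N, pow_mul, map_pow, hyN σ hσ]
    · rw [← div_div]
      exact hw σ hσ

end list

end Fermat.Agent.S59.NonMin.H56K

end
-- ==== END Fermat.Agent.S59.NonMin.H56_KExch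

-- ==== BEGIN Fermat.Agent.S59.NonMin.H56_KValB
section

set_option autoImplicit false

namespace Fermat.Agent.S59.NonMin.H56K

/-- **VAL**: an inertia-fixed `w ≠ 0` is a power of `p` times a unit of the inertia field. -/
theorem stmt_VAL (p : ℕ) (hp : p.Prime) (P : ValuationSubring (AlgebraicClosure ℚ))
    (hP : P.LiesOverPrime p) (w : AlgebraicClosure ℚ) (hw : w ≠ 0)
    (hfix : ∀ s ∈ P.inertiaSubgroupIn ℚ, s w = w) :
    ∃ k : ℤ, w * (p : AlgebraicClosure ℚ) ^ k ∈ Fermat.Agent.S59.NonMin.peuUnits P := by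
  obtain ⟨k, ⟨h1, h2, h3⟩, h4⟩ := val_fixed' P hp hP w hw hfix
  exact ⟨k, h1, h2, h3, h4⟩

/-- Membership in `peuUnits` in terms of the valuation. -/
theorem mem_peuUnits_iff (P : ValuationSubring (AlgebraicClosure ℚ)) (u : AlgebraicClosure ℚ) :
    u ∈ Fermat.Agent.S59.NonMin.peuUnits P ↔
      P.valuation u = 1 ∧ ∀ s ∈ P.inertiaSubgroupIn ℚ, s u = u := by
  constructor
  · rintro ⟨h1, h2, h3, h4⟩
    exact ⟨val_eq_one_of_mem P h1 h2 h3, h4⟩
  · rintro ⟨h1, h4⟩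
    obtain ⟨a, b, c⟩ := mem_of_val_eq_one P h1
    exact ⟨a, b, c, h4⟩

end Fermat.Agent.S59.NonMin.H56K

end
-- ==== END Fermat.Agent.S59.NonMin.H56_KValB

-- ==== BEGIN Fermat.Agent.S59.NonMin.H77_ExistsI
section

set_option autoImplicit false

namespace Fermat.Agent.S59.NonMin

/-- **EXISTS-i**: the cyclotomic character is onto on inertia at `p`, in the form needed for the
Selmer bridge: every element of the decomposition group at `P` can be moved into the kernel of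
the `p`-adic cyclotomic character by an element of the inertia group. -/
def Stmt_EXISTSi : Prop :=
  ∀ (p : ℕ), p.Prime →
  ∀ (P : ValuationSubring (AlgebraicClosure ℚ)), P.LiesOverPrime p →
  ∀ g ∈ P.decompositionSubgroup ℚ, ∃ i ∈ P.inertiaSubgroupIn ℚ, FixesPRoots p (g * i)

namespace H77

theorem stmt_EXISTSi : Stmt_EXISTSi :=
  fun p hp P hP g hg => exists_inertia_mul_fixes p hp P hP g hg

/-- Variant: the corrected element stays in the decomposition group and has the same action on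
the residue field (it differs from `g` by inertia). -/
theorem exists_mem_decomposition_fixes (p : ℕ) (hp : p.Prime)
    (P : ValuationSubring (AlgebraicClosure ℚ)) (hP : P.LiesOverPrime p)
    (g : AlgebraicClosure ℚ ≃ₐ[ℚ] AlgebraicClosure ℚ) (hg : g ∈ P.decompositionSubgroup ℚ) :
    ∃ g' ∈ P.decompositionSubgroup ℚ, FixesPRoots p g' ∧ g⁻¹ * g' ∈ P.inertiaSubgroupIn ℚ := by
  obtain ⟨i, hi, hfix⟩ := exists_inertia_mul_fixes p hp P hP g hg
  have hidec : i ∈ P.decompositionSubgroup ℚ := by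
    obtain ⟨j, -, rfl⟩ := hi
    exact j.2
  refine ⟨g * i, mul_mem hg hidec, hfix, ?_⟩
  rw [inv_mul_cancel_left]
  exact hi

/-- **EXISTS-g**: there is a Frobenius element at `P` fixing the `p`-power roots of unity. -/
theorem exists_isFrobeniusAt_fixes (p : ℕ) (hp : p.Prime)
    (P : ValuationSubring (AlgebraicClosure ℚ)) (hP : P.LiesOverPrime p) :
    ∃ g : AlgebraicClosure ℚ ≃ₐ[ℚ] AlgebraicClosure ℚ, P.IsFrobeniusAt g p ∧ FixesPRoots p g := by
  obtain ⟨g₀, hg₀⟩ := Fermat.Agent.Lib.FrobExists.exists_isFrobeniusAt p hp P hP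
  obtain ⟨hdec, hfrob⟩ := hg₀
  obtain ⟨i, hi, hfix⟩ := exists_inertia_mul_fixes p hp P hP g₀ hdec
  obtain ⟨j, hj, rfl⟩ := hi
  refine ⟨g₀ * (P.decompositionSubgroup ℚ).subtype j, ⟨mul_mem hdec j.2, fun x => ?_⟩, hfix⟩
  have h1 : (⟨g₀ * (P.decompositionSubgroup ℚ).subtype j, mul_mem hdec j.2⟩ :
      P.decompositionSubgroup ℚ) = ⟨g₀, hdec⟩ * j := rfl
  have h2 : j • x = x := by
    have h3 := MonoidHom.mem_ker.mp hj
    exact congrArg (fun e : RingAut (IsLocalRing.ResidueField P) => e x) h3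
  rw [h1, mul_smul, h2]
  exact hfrob x

end H77

end Fermat.Agent.S59.NonMin

end
-- ==== END Fermat.Agent.S59.NonMin.H77_ExistsI

-- ==== BEGIN Fermat.Agent.S59.NonMin.H92_PeuFlatLev
section

/-!
# S59, case C, leaf PEUFLAT (helper92): the finite levels of an ordinary peu ramifié representation

* `exists_pow_rootsOfUnity`, `mem_of_pow_eq_one`, `apply_eq_det_smul_of_basis`,
  `exists_maxpow_le`, `finite_level` : auxiliary facts.
* `hy_of_peuUnit` : the hypothesis `hy` of `flat_of_peu_abs` from `Stmt_PeuUnit`.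
* `flat_level` : `V / J V` is flat (`J` of finite index).
* `peuflat_of_peuUnit : Stmt_PeuUnit → Stmt_PEUFLAT`, `peuflat_of_kcore`.
-/

set_option autoImplicit false
set_option linter.unusedSectionVars false
set_option linter.style.haveILetI false
set_option linter.unusedVariables false

namespace Fermat.Agent.S59.NonMin.H92P

open IsLocalRing Fermat.Agent.S59.NonMin

local notation "Qbar" => AlgebraicClosure ℚ
local notation "Γℚ" => (AlgebraicClosure ℚ ≃ₐ[ℚ] AlgebraicClosure ℚ)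

section Cyc

/-- Every element of `G_ℚ` acts on the `N`-th roots of unity by a power map. -/
theorem exists_pow_rootsOfUnity (N : ℕ) [NeZero N] (σ : Γℚ) :
    ∃ a : ℕ, ∀ μ : Qbar, μ ^ N = 1 → σ μ = μ ^ a := by
  refine ⟨(modularCyclotomicCharacter.toFun N (σ : Qbar ≃+* Qbar)).val, fun μ hμ => ?_⟩
  have hμ0 : μ ≠ 0 := by
    rintro rfl
    rw [zero_pow (NeZero.ne N)] at hμ
    exact zero_ne_one hμ
  have ht : Units.mk0 μ hμ0 ∈ rootsOfUnity N Qbar := by
    rw [mem_rootsOfUnity]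
    ext
    simpa using hμ
  have := modularCyclotomicCharacter.toFun_spec' (σ : Qbar ≃+* Qbar) ht
  simpa using this

/-- Roots of unity lie in every valuation subring. -/
theorem mem_of_pow_eq_one (P : ValuationSubring Qbar) {x : Qbar} {N : ℕ} (hN : N ≠ 0)
    (hx : x ^ N = 1) : x ∈ P := by
  rw [← P.valuation_le_one_iff]
  have h1 : P.valuation x ^ N = 1 := by rw [← map_pow, hx, map_one]
  exact le_of_eq ((pow_eq_one_iff.mp h1).resolve_right hN)

end Cyc

section Det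

variable {A : Type} [CommRing A] {V : Type} [AddCommGroup V] [Module A V]

/-- An endomorphism of a free module of rank `2` which stabilises the line `L` spanned by the
first basis vector and is trivial modulo `L` acts on `L` through its determinant. -/
theorem apply_eq_det_smul_of_basis (b : Module.Basis (Fin 2) A V) (f : V →ₗ[A] V)
    (hL : f (b 0) ∈ Submodule.span A {b 0}) (hf : f (b 1) - b 1 ∈ Submodule.span A {b 0})
    {v : V} (hv : v ∈ Submodule.span A {b 0}) : f v = LinearMap.det f • v := by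
  obtain ⟨c, hc⟩ := Submodule.mem_span_singleton.mp hL
  obtain ⟨u, hu⟩ := Submodule.mem_span_singleton.mp hf
  obtain ⟨t, rfl⟩ := Submodule.mem_span_singleton.mp hv
  have hb1 : f (b 1) = b 1 + u • b 0 := by rw [hu]; abel
  have hdet : LinearMap.det f = c := by
    rw [← LinearMap.det_toMatrix b, Matrix.det_fin_two]
    have h00 : LinearMap.toMatrix b b f 0 0 = c := by
      rw [LinearMap.toMatrix_apply, ← hc, map_smul, Module.Basis.repr_self]
      simp
    have h10 : LinearMap.toMatrix b b f 1 0 = 0 := by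
      rw [LinearMap.toMatrix_apply, ← hc, map_smul, Module.Basis.repr_self]
      simp
    have h11 : LinearMap.toMatrix b b f 1 1 = 1 := by
      rw [LinearMap.toMatrix_apply, hb1, map_add, map_smul, Module.Basis.repr_self,
        Module.Basis.repr_self]
      simp
    rw [h00, h10, h11]
    ring
  rw [map_smul, ← hc, hdet, smul_comm]

end Det

section Level

variable {A : Type} [CommRing A] [IsLocalRing A]

/-- An ideal of finite index of a local ring contains a power of the maximal ideal. -/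
theorem exists_maxpow_le (J : Ideal A) (hfin : Finite (A ⧸ J)) :
    ∃ n : ℕ, maximalIdeal A ^ n ≤ J := by
  by_cases hJ : J = ⊤
  · exact ⟨0, by rw [hJ]; exact le_top⟩
  haveI := hfin
  haveI : IsArtinianRing (A ⧸ J) := inferInstance
  obtain ⟨n, hn⟩ := IsArtinianRing.isNilpotent_jacobson_bot (R := A ⧸ J)
  refine ⟨n, ?_⟩
  have h1 : (Ideal.jacobson (⊥ : Ideal (A ⧸ J))).comap (Ideal.Quotient.mk J) =
      maximalIdeal A := by
    rw [Ideal.comap_jacobson_of_surjective Ideal.Quotient.mk_surjective,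
      ← RingHom.ker_eq_comap_bot, Ideal.mk_ker, IsLocalRing.jacobson_eq_maximalIdeal J hJ]
  intro x hx
  rw [← h1] at hx
  have h2 := Ideal.le_comap_pow (Ideal.Quotient.mk J) n hx
  rw [Ideal.mem_comap, hn, Ideal.zero_eq_bot, Ideal.mem_bot] at h2
  exact Ideal.Quotient.eq_zero_iff_mem.mp h2

variable (ρ : GaloisRepAdic A) (J : Ideal A)

/-- The finite levels are finite. -/
theorem finite_level (hfin : Finite (A ⧸ J)) :
    Finite (ρ.V ⧸ (J • ⊤ : Submodule A ρ.V)) := by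
  haveI := hfin
  haveI : Module.Finite (A ⧸ J) (ρ.V ⧸ (J • ⊤ : Submodule A ρ.V)) :=
    Module.Finite.of_restrictScalars_finite A (A ⧸ J) _
  exact Module.finite_of_finite (A ⧸ J)

theorem levelAction_mk (σ : Γℚ) (v : ρ.V) :
    ρ.levelAction J σ (Submodule.Quotient.mk v) = Submodule.Quotient.mk (ρ.ρ σ v) := rfl

/-- `J` kills the level `J`. -/
theorem smul_level_eq_zero {j : A} (hj : j ∈ J) (x : ρ.V ⧸ (J • ⊤ : Submodule A ρ.V)) :
    j • x = 0 := by
  obtain ⟨v, rfl⟩ := Submodule.Quotient.mk_surjective _ x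
  rw [← Submodule.Quotient.mk_smul, Submodule.Quotient.mk_eq_zero]
  exact Submodule.smul_mem_smul hj Submodule.mem_top

end Level

section Hy

variable {M : Type} [AddCommGroup M] (p : ℕ) (P : ValuationSubring Qbar) (act : Γℚ → M → M)
  (M₀ : AddSubgroup M) {Λ : Type} (ev : Λ → M → Qbar)

/-- The hypothesis `hy` of `flat_of_peu_abs` from `Stmt_PeuUnit`. -/
theorem hy_of_peuUnit (hPU : Stmt_PeuUnit) (hp : p.Prime) (hp2 : p ≠ 2)
    (hP : P.LiesOverPrime p)
    (act_mul : ∀ σ τ x, act (σ * τ) x = act σ (act τ x))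
    (act_add : ∀ σ x y, act σ (x + y) = act σ x + act σ y)
    (act_cont : ∃ L : IntermediateField ℚ Qbar, FiniteDimensional ℚ L ∧
      ∀ σ ∈ L.fixingSubgroup, ∀ x, act σ x = x)
    (hD : ∀ σ ∈ P.decompositionSubgroup ℚ, ∀ w ∈ M₀, act σ w ∈ M₀)
    (hI : ∀ σ ∈ P.inertiaSubgroupIn ℚ, ∀ x, act σ x - x ∈ M₀)
    (ev_add : ∀ lam, ∀ w ∈ M₀, ∀ w' ∈ M₀, ev lam (w + w') = ev lam w * ev lam w')
    (ev_zero : ∀ lam, ev lam 0 = 1)
    (ev_I : ∀ σ ∈ P.inertiaSubgroupIn ℚ, ∀ lam, ∀ w ∈ M₀, ev lam (act σ w) = σ (ev lam w))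
    (n : ℕ) (ev_pow : ∀ lam, ∀ w ∈ M₀, ev lam w ^ p ^ n = 1)
    (hpeu : ∀ σ ∈ Ipeu p P, ∀ x, act σ x = x) :
    ∀ lam (r : M), ∃ y : Qbar, y ≠ 0 ∧ y ∈ P ∧ y⁻¹ ∈ P ∧
      ∀ σ ∈ P.inertiaSubgroupIn ℚ, σ y = ev lam (act σ r - r) * y := by
  intro lam r
  obtain ⟨L, hL, hLfix⟩ := act_cont
  have hID : ∀ σ ∈ P.inertiaSubgroupIn ℚ, σ ∈ P.decompositionSubgroup ℚ := fun σ hσ =>
    Fermat.Agent.S05.H95.mem_decomposition_of_mem_inertia P hσ
  refine hPU p hp hp2 P hP n (fun σ => ev lam (act σ r - r))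
    (fun σ hσ => ev_pow lam _ (hI σ hσ r)) ?_ ⟨L, hL, ?_⟩ ?_
  · intro σ hσ τ hτ
    show ev lam (act (σ * τ) r - r) = ev lam (act σ r - r) * σ (ev lam (act τ r - r))
    have h1 : act (σ * τ) r - r = act σ (act τ r - r) + (act σ r - r) := by
      rw [act_mul, act_sub act act_add]
      abel
    rw [h1, ev_add lam _ (hD σ (hID σ hσ) _ (hI τ hτ r)) _ (hI σ hσ r),
      ev_I σ hσ lam _ (hI τ hτ r), mul_comm]
  · intro σ hσ hσL
    show ev lam (act σ r - r) = 1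
    rw [hLfix σ hσL r, sub_self, ev_zero]
  · intro σ hσ
    show ev lam (act σ r - r) = 1
    rw [hpeu σ hσ r, sub_self, ev_zero]

end Hy

end Fermat.Agent.S59.NonMin.H92P

end
-- ==== END Fermat.Agent.S59.NonMin.H92_PeuFlatLev

-- ==== BEGIN Fermat.Agent.S59.NonMin.H92_Tau2
section

/-!
# S59, package RT-NONMIN, leaf TAU2 (helper92): `R_{Sig'} ↠ R_{Sig}` for `Sig ⊆ Sig'`

As `Asm.H99.stmt_TAU`, with `Asm.cond_mono` and `Asm.H99.surjective_of_isEquiv`.
-/

set_option autoImplicit false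
set_option linter.unusedSectionVars false
set_option linter.style.haveILetI false
set_option linter.unusedVariables false

namespace Fermat.Agent.S59.NonMin.H92

open IsLocalRing Fermat.Agent.S59 Fermat.Agent.S59.Asm

/-- **TAU2**. -/
theorem stmt_TAU2 : Stmt_TAU2 := by
  intro 𝒪 _ _ _ _ _ p _ hp2 _hp𝒪 fl ρbar Smin Sig Sig' hsub _hpS _hprime D D'
  have h𝒟 : GaloisRep.IsDeformationCondition 𝒪 (Fermat.Agent.S59.cond 𝒪 p fl Smin Sig) := by
    rw [Fermat.Agent.S59.H99.cond_eq_condB]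
    exact Fermat.Agent.S59.H99.isDeformationCondition_condB 𝒪 p hp2 fl Smin Sig
  have hQ : Fermat.Agent.S59.cond 𝒪 p fl Smin Sig' D.ρ :=
    Fermat.Agent.S59.Asm.cond_mono hsub D.isOfType
  obtain ⟨τ, ⟨hτ, hτeq⟩, -⟩ := D'.universal D.R D.residue_surjective D.ρ hQ D.residual_isEquiv
  exact ⟨τ, Fermat.Agent.S59.Asm.H99.surjective_of_isEquiv h𝒟 D D'.ρ D'.residual_isEquiv τ hτ
    hτeq, hτ, hτeq⟩

end Fermat.Agent.S59.NonMin.H92

end
-- ==== END Fermat.Agent.S59.NonMin.H92_Tau2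

-- ==== BEGIN Fermat.Agent.S59.NumCrit.H12_CardRows
section

/-!
# S59 NUMCRIT, leaf CARD' (helper12): the index of the row space of a square matrix

`𝒪` a discrete valuation ring, `B` an `n × n` matrix over `𝒪`.
* `card_quotient_span_rows`: if `det B ≠ 0` (and the residue field is finite) then
  `#(𝒪^n / rowspace B) = #(𝒪 / det B)`;
* `det_ne_zero_of_finite_quotient`: if `𝒪^n / rowspace B` is finite then `det B ≠ 0`.
The first from helper8's `H8.card_quotient_eq_card_det` (Smith normal form) and the comparison of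
two families of rows with the same span; the second from a vector `w ≠ 0` with `B w = 0`.
-/

set_option autoImplicit false
set_option linter.style.haveILetI false

open Module

namespace Fermat.Agent.S59.NumCrit.H12

variable {𝒪 : Type*} [CommRing 𝒪]

/-- If the rows of `b` lie in the row space of `B`, then `b = C * B`. -/
theorem exists_mul_eq_of_rows_mem (n : ℕ) (B b : Matrix (Fin n) (Fin n) 𝒪)
    (h : ∀ i, (fun j => b i j) ∈ Submodule.span 𝒪 (Set.range fun i => B i)) :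
    ∃ C : Matrix (Fin n) (Fin n) 𝒪, b = C * B := by
  have h' : ∀ i, ∃ c : Fin n → 𝒪, ∑ k, c k • B k = fun j => b i j := fun i =>
    (Submodule.mem_span_range_iff_exists_fun 𝒪).1 (h i)
  choose c hc using h'
  refine ⟨Matrix.of c, ?_⟩
  ext i j
  have := congrFun (hc i) j
  rw [Finset.sum_apply] at this
  rw [Matrix.mul_apply, ← this]
  refine Finset.sum_congr rfl (fun k _ => ?_)
  rw [Pi.smul_apply, smul_eq_mul, Matrix.of_apply]

/-- `det B • 𝒪^n` is contained in the row space of `B`. -/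
theorem det_smul_mem_span_rows (n : ℕ) (B : Matrix (Fin n) (Fin n) 𝒪) (x : Fin n → 𝒪) :
    B.det • x ∈ Submodule.span 𝒪 (Set.range fun i => B i) := by
  rw [Submodule.mem_span_range_iff_exists_fun]
  refine ⟨fun k => ∑ i, x i * B.adjugate i k, ?_⟩
  funext j
  have key : ∀ i, ∑ k, B.adjugate i k * B k j = if i = j then B.det else 0 := by
    intro i
    have := congrFun (congrFun (Matrix.adjugate_mul B) i) j
    rw [Matrix.mul_apply] at this
    rw [this, Matrix.smul_apply, Matrix.one_apply, smul_eq_mul]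
    split_ifs <;> simp
  rw [Finset.sum_apply]
  calc ∑ k, ((∑ i, x i * B.adjugate i k) • B k) j
      = ∑ k, ∑ i, x i * (B.adjugate i k * B k j) := by
        refine Finset.sum_congr rfl (fun k _ => ?_)
        rw [Pi.smul_apply, smul_eq_mul, Finset.sum_mul]
        exact Finset.sum_congr rfl (fun i _ => mul_assoc _ _ _)
    _ = ∑ i, x i * ∑ k, B.adjugate i k * B k j := by
        rw [Finset.sum_comm]
        exact Finset.sum_congr rfl (fun i _ => (Finset.mul_sum _ _ _).symm)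
    _ = ∑ i, x i * (if i = j then B.det else 0) := by
        exact Finset.sum_congr rfl (fun i _ => by rw [key i])
    _ = (B.det • x) j := by
        rw [Finset.sum_eq_single j]
        · rw [if_pos rfl, Pi.smul_apply, smul_eq_mul, mul_comm]
        · intro i _ hij
          rw [if_neg hij, mul_zero]
        · intro hj
          exact absurd (Finset.mem_univ j) hj

variable [IsDomain 𝒪] [IsDiscreteValuationRing 𝒪]

/-- **CARD'**, second part: if the row space of `B` has finite index then `det B ≠ 0`. -/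
theorem det_ne_zero_of_finite_quotient (n : ℕ) (B : Matrix (Fin n) (Fin n) 𝒪)
    (hfin : Finite ((Fin n → 𝒪) ⧸ Submodule.span 𝒪 (Set.range fun i => B i))) : B.det ≠ 0 := by
  classical
  intro hdet
  obtain ⟨w, hw0, hw⟩ := Matrix.exists_mulVec_eq_zero_iff.mpr hdet
  obtain ⟨j, hj⟩ : ∃ j, w j ≠ 0 := by
    by_contra h
    push Not at h
    exact hw0 (funext h)
  -- the functional `x ↦ x ⬝ᵥ w` vanishes on the row space
  let φ : (Fin n → 𝒪) →ₗ[𝒪] 𝒪 :=
    { toFun := fun x => x ⬝ᵥ w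
      map_add' := fun x y => add_dotProduct x y w
      map_smul' := fun c x => smul_dotProduct c x w }
  have hφ : Submodule.span 𝒪 (Set.range fun i => B i) ≤ LinearMap.ker φ := by
    rw [Submodule.span_le]
    rintro _ ⟨i, rfl⟩
    exact congrFun hw i
  let ψ := (Submodule.span 𝒪 (Set.range fun i => B i)).liftQ φ hφ
  obtain ⟨ϖ, hϖ⟩ := IsDiscreteValuationRing.exists_irreducible 𝒪
  have hinj : Function.Injective fun k : ℕ => ϖ ^ k :=
    pow_injective_of_not_isUnit hϖ.not_isUnit hϖ.ne_zero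
  obtain ⟨k, l, hkl, h⟩ := Finite.exists_ne_map_eq_of_infinite
    (fun k : ℕ => Submodule.Quotient.mk (p := Submodule.span 𝒪 (Set.range fun i => B i))
      (ϖ ^ k • (Pi.single j (1 : 𝒪) : Fin n → 𝒪)))
  have h1 := congrArg ψ h
  have h2 : ∀ k : ℕ, ψ (Submodule.Quotient.mk (ϖ ^ k • (Pi.single j (1 : 𝒪) : Fin n → 𝒪))) =
      ϖ ^ k * w j := by
    intro k
    change (ϖ ^ k • (Pi.single j (1 : 𝒪) : Fin n → 𝒪)) ⬝ᵥ w = _
    rw [smul_dotProduct, single_dotProduct, one_mul, smul_eq_mul]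
  rw [h2, h2] at h1
  exact hkl (hinj (mul_right_cancel₀ hj h1))

/-- **CARD'**, first part: `#(𝒪^n / rowspace B) = #(𝒪 / det B)` for `det B ≠ 0`. -/
theorem card_quotient_span_rows [Finite (IsLocalRing.ResidueField 𝒪)] (n : ℕ)
    (B : Matrix (Fin n) (Fin n) 𝒪) (hB : B.det ≠ 0) :
    Nat.card ((Fin n → 𝒪) ⧸ Submodule.span 𝒪 (Set.range fun i => B i))
      = Nat.card (𝒪 ⧸ Ideal.span {B.det}) := by
  classical
  set N := Submodule.span 𝒪 (Set.range fun i => B i) with hN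
  -- the quotient is finite
  have hfinI : Finite (𝒪 ⧸ Ideal.span {B.det}) := by
    obtain ⟨k, -, hk⟩ := H8.exists_card_span_singleton hB
    apply Nat.finite_of_card_ne_zero
    rw [hk]
    have h0 : Nat.card (𝒪 ⧸ IsLocalRing.maximalIdeal 𝒪) ≠ 0 := by
      haveI : Finite (𝒪 ⧸ IsLocalRing.maximalIdeal 𝒪) :=
        inferInstanceAs (Finite (IsLocalRing.ResidueField 𝒪))
      exact Nat.card_pos.ne'
    exact pow_ne_zero _ h0
  let N' : Submodule 𝒪 (Fin n → 𝒪) :=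
    Submodule.pi Set.univ (fun _ : Fin n => (Ideal.span {B.det} : Submodule 𝒪 𝒪))
  have hN' : N' ≤ N := by
    intro x hx
    have hx' : ∀ i, ∃ c : 𝒪, c * B.det = x i := fun i =>
      Ideal.mem_span_singleton'.1 ((Submodule.mem_pi.1 hx) i (Set.mem_univ i))
    choose c hc using hx'
    have : x = B.det • c := by
      funext i
      rw [Pi.smul_apply, smul_eq_mul, mul_comm, hc]
    rw [this]
    exact det_smul_mem_span_rows n B c
  haveI : Finite ((Fin n → 𝒪) ⧸ N') :=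
    Finite.of_equiv _ (Submodule.quotientPi (fun _ : Fin n => (Ideal.span {B.det} :
      Submodule 𝒪 𝒪))).symm.toEquiv
  haveI : Finite ((Fin n → 𝒪) ⧸ N) :=
    Finite.of_surjective (Submodule.factor hN') (Submodule.factor_surjective hN')
  obtain ⟨b, hbN, hbspan, hbdet, hcard⟩ := H8.card_quotient_eq_card_det n N
  rw [hcard]
  -- compare the determinants
  obtain ⟨C, hC⟩ := exists_mul_eq_of_rows_mem n B (Matrix.of b) (fun i => hbN i)
  obtain ⟨C', hC'⟩ := exists_mul_eq_of_rows_mem n (Matrix.of b) B (fun i => by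
    have : (fun j => B i j) ∈ N := Submodule.subset_span ⟨i, rfl⟩
    rw [← hbspan] at this
    exact this)
  have h1 : (Matrix.of b).det = C.det * B.det := by rw [hC, Matrix.det_mul]
  have h2 : B.det = C'.det * (Matrix.of b).det := by
    conv_lhs => rw [hC']
    rw [Matrix.det_mul]
  have h3 : C.det * C'.det = 1 := by
    have : (C.det * C'.det) * (Matrix.of b).det = 1 * (Matrix.of b).det := by
      rw [one_mul, mul_assoc, ← h2, ← h1]
    exact mul_right_cancel₀ hbdet this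
  have hu : IsUnit C.det := IsUnit.of_mul_eq_one _ h3
  rw [h1, mul_comm, Ideal.span_singleton_mul_right_unit hu]

end Fermat.Agent.S59.NumCrit.H12

end
-- ==== END Fermat.Agent.S59.NumCrit.H12_CardRows

-- ==== BEGIN Fermat.Agent.S59.NumCrit.H12_Omega
section

/-!
# S59 NUMCRIT, leaf OMEGA (helper12): Diamond's congruence module

`Ω(M) = M / (M[𝔭] + M[I])`, `𝔭 = ker π`, `I = Ann 𝔭`, `η = π(I) ≠ 0`, `M` finite free over
the discrete valuation ring `𝒪`.  Then `Ω(M)` is finite and `#Ω(M) ≤ #(𝒪/η)^d`,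
`d = rank_𝒪 M[𝔭]` (`card_omega_le`).

Proof: choose `i ∈ I` with `π i = e`, a generator of `η`.  Multiplication by `i` maps `M` to
`L = M[𝔭]`, is multiplication by `e` on `L`, and has kernel `M[I]` (`M` is torsion-free).  So
`m ↦ i • m` induces an injection `Ω(M) → L / e L`, and `#(L / e L) = #(𝒪/e)^d`.
-/

set_option autoImplicit false
set_option linter.style.haveILetI false

open Module

namespace Fermat.Agent.S59.NumCrit.H12

/-- the submodule `e N` of a module `N`. -/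
def smulTop {R : Type*} [CommRing R] (e : R) (N : Type*) [AddCommGroup N] [Module R N] :
    Submodule R N :=
  LinearMap.range (LinearMap.lsmul R N e)

theorem mem_smulTop {R : Type*} [CommRing R] {e : R} {N : Type*} [AddCommGroup N] [Module R N]
    {x : N} : x ∈ smulTop e N ↔ ∃ y : N, e • y = x := by
  unfold smulTop
  rw [LinearMap.mem_range]
  rfl

/-- `#(N / e N) = #(R / e)^rank N` for a finite free module `N`. -/
theorem card_quotient_smulTop {R : Type*} [CommRing R] [Nontrivial R] (e : R)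
    (N : Type*) [AddCommGroup N] [Module R N] [Module.Free R N] [Module.Finite R N] :
    Nat.card (N ⧸ smulTop e N) = Nat.card (R ⧸ Ideal.span {e}) ^ Module.finrank R N := by
  classical
  let f : N ≃ₗ[R] (Fin (Module.finrank R N) → R) := (Module.finBasis R N).equivFun
  have hmap : (smulTop e N).map (f : N →ₗ[R] (Fin (Module.finrank R N) → R))
      = Submodule.pi Set.univ fun _ : Fin (Module.finrank R N) =>
          (Ideal.span {e} : Submodule R R) := by
    ext x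
    rw [Submodule.mem_map, Submodule.mem_pi]
    constructor
    · rintro ⟨y, hy, rfl⟩ j _
      obtain ⟨z, rfl⟩ := mem_smulTop.mp hy
      show f (e • z) j ∈ Ideal.span {e}
      rw [map_smul, Pi.smul_apply, smul_eq_mul]
      exact Ideal.mul_mem_right _ _ (Ideal.subset_span rfl)
    · intro hx
      have h1 : ∀ j, ∃ c : R, c * e = x j := fun j =>
        Ideal.mem_span_singleton'.mp (hx j (Set.mem_univ j))
      choose c hc using h1
      refine ⟨f.symm (e • c), mem_smulTop.mpr ⟨f.symm c, by rw [map_smul]⟩, ?_⟩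
      show f (f.symm (e • c)) = x
      rw [f.apply_symm_apply]
      funext j
      rw [Pi.smul_apply, smul_eq_mul, mul_comm, hc j]
  have e1 := Submodule.Quotient.equiv _ _ f hmap
  have e3 := Submodule.quotientPi (R := R) (fun _ : Fin (Module.finrank R N) =>
    (Ideal.span {e} : Submodule R R))
  rw [Nat.card_congr e1.toEquiv, Nat.card_congr e3.toEquiv, Nat.card_pi, Finset.prod_const,
    Finset.card_univ, Fintype.card_fin]

section omega

variable {𝒪 : Type*} [CommRing 𝒪] {T : Type*} [CommRing T] [Algebra 𝒪 T] (π : T →ₐ[𝒪] 𝒪)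
  {M : Type*} [AddCommGroup M] [Module T M] [Module 𝒪 M] [IsScalarTower 𝒪 T M]

variable {π}

/-- `t - π t ∈ 𝔭`. -/
theorem sub_algebraMap_mem_ker (t : T) : t - algebraMap 𝒪 T (π t) ∈ RingHom.ker π := by
  rw [RingHom.mem_ker, map_sub, AlgHom.commutes]
  exact sub_self _

omit [Module 𝒪 M] [IsScalarTower 𝒪 T M] in
/-- `i M ⊆ M[𝔭]` for `i ∈ Ann 𝔭`. -/
theorem smul_mem_torsionBySet_ker {i : T} (hi : i ∈ (RingHom.ker π).annihilator) (m : M) :
    i • m ∈ Submodule.torsionBySet T M (RingHom.ker π : Set T) := by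
  rw [Submodule.mem_torsionBySet_iff]
  rintro ⟨a, ha⟩
  show a • i • m = 0
  have h := Submodule.mem_annihilator.mp hi a ha
  rw [smul_eq_mul] at h
  rw [smul_smul, mul_comm, h, zero_smul]

/-- on `M[𝔭]`, `t` acts as `π t`. -/
theorem smul_eq_of_mem_torsionBySet_ker (t : T) {m : M}
    (hm : m ∈ Submodule.torsionBySet T M (RingHom.ker π : Set T)) :
    t • m = π t • m := by
  have h := (Submodule.mem_torsionBySet_iff _ _).mp hm ⟨_, sub_algebraMap_mem_ker (π := π) t⟩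
  have h' : (t - algebraMap 𝒪 T (π t)) • m = 0 := h
  rw [sub_smul, algebraMap_smul, sub_eq_zero] at h'
  exact h'

omit [Module 𝒪 M] [IsScalarTower 𝒪 T M] in
/-- `i` kills `M[I]`. -/
theorem smul_eq_zero_of_mem_torsionBySet_ann {i : T} (hi : i ∈ (RingHom.ker π).annihilator)
    {m : M} (hm : m ∈ Submodule.torsionBySet T M ((RingHom.ker π).annihilator : Set T)) :
    i • m = 0 :=
  (Submodule.mem_torsionBySet_iff _ _).mp hm ⟨i, hi⟩

/-- if `i ∈ I`, `π i ≠ 0` and `i m = 0` then `m ∈ M[I]` (`M` torsion-free). -/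
theorem mem_torsionBySet_ann_of_smul_eq_zero [IsDomain 𝒪] [Module.Free 𝒪 M]
    {i : T} (hi0 : π i ≠ 0) {m : M} (hm : i • m = 0) :
    m ∈ Submodule.torsionBySet T M ((RingHom.ker π).annihilator : Set T) := by
  rw [Submodule.mem_torsionBySet_iff]
  rintro ⟨j, hj⟩
  show j • m = 0
  have h1 : j * (algebraMap 𝒪 T (π i) - i) = 0 := by
    have h := Submodule.mem_annihilator.mp hj (i - algebraMap 𝒪 T (π i))
      (sub_algebraMap_mem_ker (π := π) i)
    rw [smul_eq_mul] at h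
    rw [← neg_sub, mul_neg, h, neg_zero]
  have h2 : π i • (j • m) = 0 := by
    rw [← algebraMap_smul T (π i) (j • m), smul_smul]
    have h3 : algebraMap 𝒪 T (π i) * j = j * i := by
      have : j * (algebraMap 𝒪 T (π i) - i) = algebraMap 𝒪 T (π i) * j - j * i := by ring
      rw [this, sub_eq_zero] at h1
      exact h1
    rw [h3, mul_smul, hm, smul_zero]
  rcases smul_eq_zero.mp h2 with h | h
  · exact absurd h hi0
  · exact h

end omega

/-- **OMEGA** (Diamond's congruence module). -/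
theorem card_omega_le {𝒪 : Type*} [CommRing 𝒪] [IsDomain 𝒪] [IsDiscreteValuationRing 𝒪]
    [Finite (IsLocalRing.ResidueField 𝒪)]
    {T : Type*} [CommRing T] [Algebra 𝒪 T] (π : T →ₐ[𝒪] 𝒪)
    {M : Type*} [AddCommGroup M] [Module T M] [Module 𝒪 M] [IsScalarTower 𝒪 T M]
    [Module.Finite 𝒪 M] [Module.Free 𝒪 M]
    (hη : eta π ≠ ⊥) :
    Finite (M ⧸ (Submodule.torsionBySet T M (RingHom.ker π : Set T)
        ⊔ Submodule.torsionBySet T M ((RingHom.ker π).annihilator : Set T))) ∧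
    Nat.card (M ⧸ (Submodule.torsionBySet T M (RingHom.ker π : Set T)
        ⊔ Submodule.torsionBySet T M ((RingHom.ker π).annihilator : Set T)))
      ≤ Nat.card (𝒪 ⧸ eta π) ^ Module.finrank 𝒪
          ((Submodule.torsionBySet T M (RingHom.ker π : Set T)).restrictScalars 𝒪) := by
  classical
  -- a generator `e = π i` of `η`
  obtain ⟨e, he⟩ : ∃ e : 𝒪, eta π = Ideal.span {e} :=
    (IsPrincipalIdealRing.principal (eta π)).principal
  have he0 : e ≠ 0 := by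
    rintro rfl
    apply hη
    rw [he]
    exact Ideal.span_singleton_eq_bot.mpr rfl
  have hemem : e ∈ eta π := by
    rw [he]
    exact Ideal.subset_span rfl
  obtain ⟨i, hi, hie⟩ := H90.mem_eta_iff.mp hemem
  have hi0 : π i ≠ 0 := by rw [hie]; exact he0
  -- notation
  set L : Submodule T M := Submodule.torsionBySet T M (RingHom.ker π : Set T) with hL
  set L' : Submodule T M := Submodule.torsionBySet T M ((RingHom.ker π).annihilator : Set T)
    with hL'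
  set L𝒪 : Submodule 𝒪 M := L.restrictScalars 𝒪 with hL𝒪
  haveI : SMulCommClass 𝒪 T M := IsScalarTower.to_smulCommClass
  -- multiplication by `i`, as a map `M → L`
  let φ : M →ₗ[𝒪] L𝒪 :=
    { toFun := fun m => ⟨i • m, smul_mem_torsionBySet_ker hi m⟩
      map_add' := fun x y => Subtype.ext (smul_add i x y)
      map_smul' := fun a x => Subtype.ext (smul_comm i a x) }
  have hφ : ∀ m, ((φ m : L𝒪) : M) = i • m := fun _ => rfl
  let ψ : M →ₗ[𝒪] (L𝒪 ⧸ smulTop e L𝒪) := (smulTop e L𝒪).mkQ.comp φ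
  -- the kernel of `ψ` is `L + L'`
  have hker : LinearMap.ker ψ = (L ⊔ L').restrictScalars 𝒪 := by
    ext m
    rw [LinearMap.mem_ker, Submodule.restrictScalars_mem]
    show (smulTop e L𝒪).mkQ (φ m) = 0 ↔ _
    rw [Submodule.mkQ_apply, Submodule.Quotient.mk_eq_zero, mem_smulTop]
    constructor
    · rintro ⟨y, hy⟩
      have hyL : (y : M) ∈ L := y.2
      have h1 : i • (m - (y : M)) = 0 := by
        rw [smul_sub, smul_eq_of_mem_torsionBySet_ker i hyL, hie, sub_eq_zero, ← hφ m, ← hy]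
        rfl
      have h2 := mem_torsionBySet_ann_of_smul_eq_zero (π := π) hi0 h1
      have : m = (y : M) + (m - (y : M)) := by abel
      rw [this]
      exact Submodule.add_mem_sup hyL h2
    · intro hm
      obtain ⟨l, hl, l', hl', rfl⟩ := Submodule.mem_sup.mp hm
      refine ⟨⟨l, hl⟩, Subtype.ext ?_⟩
      show e • l = i • (l + l')
      rw [smul_add, smul_eq_zero_of_mem_torsionBySet_ann hi hl', add_zero,
        smul_eq_of_mem_torsionBySet_ker i hl, hie]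
  -- the induced injection `Ω → L / e L`
  let ψ' : (M ⧸ (L ⊔ L').restrictScalars 𝒪) →ₗ[𝒪] (L𝒪 ⧸ smulTop e L𝒪) :=
    ((L ⊔ L').restrictScalars 𝒪).liftQ ψ hker.ge
  have hψ' : Function.Injective ψ' := by
    rw [← LinearMap.ker_eq_bot]
    exact Submodule.ker_liftQ_eq_bot _ _ _ hker.le
  let ε := Submodule.Quotient.restrictScalarsEquiv 𝒪 (L ⊔ L')
  have hinj : Function.Injective (fun x : M ⧸ (L ⊔ L') => ψ' (ε.symm x)) :=
    hψ'.comp ε.symm.injective
  -- finiteness of `𝒪 / e` and of `L / e L`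
  have hfinI : Finite (𝒪 ⧸ Ideal.span {e}) := by
    obtain ⟨k, -, hk⟩ := H8.exists_card_span_singleton he0
    apply Nat.finite_of_card_ne_zero
    rw [hk]
    apply pow_ne_zero
    haveI : Finite (𝒪 ⧸ IsLocalRing.maximalIdeal 𝒪) :=
      inferInstanceAs (Finite (IsLocalRing.ResidueField 𝒪))
    exact Nat.card_pos.ne'
  have hcard := card_quotient_smulTop e L𝒪
  have hfinL : Finite (L𝒪 ⧸ smulTop e L𝒪) := by
    apply Nat.finite_of_card_ne_zero
    rw [hcard]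
    exact pow_ne_zero _ Nat.card_pos.ne'
  refine ⟨Finite.of_injective _ hinj, ?_⟩
  rw [he, ← hcard]
  exact Nat.card_le_card_of_injective _ hinj

end Fermat.Agent.S59.NumCrit.H12

end
-- ==== END Fermat.Agent.S59.NumCrit.H12_Omega

-- ==== BEGIN Fermat.Agent.S59.NumCrit.H90_CI
section

/-!
# S59 NUMCRIT: the complete-intersection lemma over `𝒪`

`ci_lemma`: `T = 𝒪⟦X⟧/I` finite free over the discrete valuation ring `𝒪`, with augmentation `π`;
if `c_1..c_n ∈ I` have linear parts with `η_T = (det ℓ(c))`, `det ℓ(c) ≠ 0`, then `I` is generated by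
`n` elements `g_i` with `ℓ(g_i) = ℓ(c_i)`.

The two inputs over the residue field `k` are the properties `RegProp k n` (regular lifts) and
`CoreProp k n` (an ideal containing a regular sequence `M X` but not `det M` is generated by it).
-/

set_option autoImplicit false

namespace Fermat.Agent.S59.NumCrit.H90

open MvPowerSeries

/-- (REG) for `k⟦X_1..X_n⟧`. -/
def RegProp (k : Type*) [Field k] (n : ℕ) : Prop :=
  ∀ 𝔞 : Ideal (MvPowerSeries (Fin n) k), 𝔞 ≠ ⊤ →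
    (∃ N : ℕ, ∀ i, (X i : MvPowerSeries (Fin n) k) ^ N ∈ 𝔞) →
    ∀ c : Fin n → MvPowerSeries (Fin n) k, (∀ i, c i ∈ 𝔞) →
    ∃ y : Fin n → MvPowerSeries (Fin n) k,
      (∀ i, y i - c i ∈ Ideal.span (Set.range fun j => (X j : MvPowerSeries (Fin n) k)) * 𝔞) ∧
      RingTheory.Sequence.IsWeaklyRegular (MvPowerSeries (Fin n) k) (List.ofFn y)

/-- (CORE) for `k⟦X_1..X_n⟧`. -/
def CoreProp (k : Type*) [Field k] (n : ℕ) : Prop :=
  ∀ 𝔞 : Ideal (MvPowerSeries (Fin n) k), 𝔞 ≠ ⊤ →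
    ∀ M : Matrix (Fin n) (Fin n) (MvPowerSeries (Fin n) k),
      (∀ i, M.mulVec (fun j => (X j : MvPowerSeries (Fin n) k)) i ∈ 𝔞) →
      RingTheory.Sequence.IsWeaklyRegular (MvPowerSeries (Fin n) k)
        (List.ofFn (M.mulVec fun j => (X j : MvPowerSeries (Fin n) k))) →
      M.det ∉ 𝔞 → 𝔞 = Ideal.span (Set.range (M.mulVec fun j => (X j : MvPowerSeries (Fin n) k)))

/-- reduction modulo the maximal ideal of `𝒪`. -/
noncomputable abbrev red (𝒪 : Type*) [CommRing 𝒪] [IsLocalRing 𝒪] (n : ℕ) :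
    MvPowerSeries (Fin n) 𝒪 →+* MvPowerSeries (Fin n) (IsLocalRing.ResidueField 𝒪) :=
  MvPowerSeries.map (IsLocalRing.residue 𝒪)

section general

variable {𝒪 : Type*} [CommRing 𝒪] [IsLocalRing 𝒪]
  {T : Type*} [CommRing T] [Algebra 𝒪 T] {n : ℕ}
  {ψ : MvPowerSeries (Fin n) 𝒪 →ₐ[𝒪] T} {π : T →ₐ[𝒪] 𝒪}

theorem red_surjective : Function.Surjective (red 𝒪 n) := map_residue_surjective _ _

theorem map_ker_ne_top (hπ : ∀ i, π (ψ (X i)) = 0) :
    Ideal.map (red 𝒪 n) (RingHom.ker ψ) ≠ ⊤ := by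
  intro h
  have h1 : (1 : MvPowerSeries (Fin n) (IsLocalRing.ResidueField 𝒪))
      ∈ Ideal.map (red 𝒪 n) (RingHom.ker ψ) := by rw [h]; trivial
  obtain ⟨f, hf, hf1⟩ := (Ideal.mem_map_iff_of_surjective _ red_surjective).mp h1
  have := congrArg constantCoeff hf1
  rw [constantCoeff_map, ker_psi_le hπ hf, map_zero, map_one] at this
  exact zero_ne_one this

theorem constantCoeff_eq_zero_of_mem_span_X {R : Type*} [CommRing R] {σ : Type*}
    {x : MvPowerSeries σ R}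
    (hx : x ∈ Ideal.span (Set.range fun j => (X j : MvPowerSeries σ R))) :
    constantCoeff x = 0 := by
  have : Ideal.span (Set.range fun j => (X j : MvPowerSeries σ R))
      ≤ RingHom.ker (constantCoeff (σ := σ) (R := R)) := by
    rw [Ideal.span_le]
    rintro _ ⟨j, rfl⟩
    exact constantCoeff_X j
  exact this hx

omit [IsLocalRing 𝒪] in
theorem linPart_eq_zero_of_mem_mul (hπ : ∀ i, π (ψ (X i)) = 0)
    {e : MvPowerSeries (Fin n) 𝒪}
    (he : e ∈ Ideal.span (Set.range fun j => (X j : MvPowerSeries (Fin n) 𝒪)) * RingHom.ker ψ) :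
    linPart n 𝒪 e = 0 := by
  refine Submodule.mul_induction_on he ?_ ?_
  · intro x hx u hu
    rw [linPart_mul x u (ker_psi_le hπ hu), constantCoeff_eq_zero_of_mem_span_X hx, zero_smul]
  · intro x y hx hy
    rw [map_add, hx, hy, add_zero]

theorem map_red_span_X_mul (I : Ideal (MvPowerSeries (Fin n) 𝒪)) :
    Ideal.map (red 𝒪 n) (Ideal.span (Set.range fun j => (X j : MvPowerSeries (Fin n) 𝒪)) * I)
      = Ideal.span (Set.range fun j =>
          (X j : MvPowerSeries (Fin n) (IsLocalRing.ResidueField 𝒪))) * Ideal.map (red 𝒪 n) I := by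
  rw [Ideal.map_mul, Ideal.map_span]
  congr 2
  ext x
  constructor
  · rintro ⟨_, ⟨j, rfl⟩, rfl⟩
    exact ⟨j, (map_X _ j).symm⟩
  · rintro ⟨j, rfl⟩
    exact ⟨X j, ⟨j, rfl⟩, map_X _ j⟩

theorem map_red_span_range (g : Fin n → MvPowerSeries (Fin n) 𝒪) :
    Ideal.map (red 𝒪 n) (Ideal.span (Set.range g))
      = Ideal.span (Set.range fun i => red 𝒪 n (g i)) := by
  rw [Ideal.map_span]
  congr 1
  ext x
  constructor
  · rintro ⟨_, ⟨j, rfl⟩, rfl⟩
    exact ⟨j, rfl⟩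
  · rintro ⟨j, rfl⟩
    exact ⟨g j, ⟨j, rfl⟩, rfl⟩

theorem red_mulVec (M : Matrix (Fin n) (Fin n) (MvPowerSeries (Fin n) 𝒪)) (i : Fin n) :
    (M.map (red 𝒪 n)).mulVec
        (fun j => (X j : MvPowerSeries (Fin n) (IsLocalRing.ResidueField 𝒪))) i
      = red 𝒪 n (M.mulVec (fun j => (X j : MvPowerSeries (Fin n) 𝒪)) i) := by
  simp only [Matrix.mulVec, dotProduct, Matrix.map_apply, map_sum, map_mul, map_X]

/-- lifting the regular modification. -/
theorem exists_lift_regular (hπ : ∀ i, π (ψ (X i)) = 0)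
    (c : Fin n → MvPowerSeries (Fin n) 𝒪) (hc : ∀ i, c i ∈ RingHom.ker ψ)
    (y : Fin n → MvPowerSeries (Fin n) (IsLocalRing.ResidueField 𝒪))
    (hy : ∀ i, y i - red 𝒪 n (c i)
      ∈ Ideal.span (Set.range fun j =>
          (X j : MvPowerSeries (Fin n) (IsLocalRing.ResidueField 𝒪)))
        * Ideal.map (red 𝒪 n) (RingHom.ker ψ)) :
    ∃ g : Fin n → MvPowerSeries (Fin n) 𝒪, (∀ i, g i ∈ RingHom.ker ψ) ∧
      (∀ i, linPart n 𝒪 (g i) = linPart n 𝒪 (c i)) ∧ ∀ i, red 𝒪 n (g i) = y i := by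
  have h1 : ∀ i, ∃ e ∈ Ideal.span (Set.range fun j => (X j : MvPowerSeries (Fin n) 𝒪))
      * RingHom.ker ψ, red 𝒪 n e = y i - red 𝒪 n (c i) := by
    intro i
    have := hy i
    rw [← map_red_span_X_mul] at this
    exact (Ideal.mem_map_iff_of_surjective _ red_surjective).mp this
  choose e he hey using h1
  refine ⟨fun i => c i + e i, fun i => ?_, fun i => ?_, fun i => ?_⟩
  · have h2 : Ideal.span (Set.range fun j => (X j : MvPowerSeries (Fin n) 𝒪)) * RingHom.ker ψ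
        ≤ RingHom.ker ψ := Ideal.mul_le_right
    have h3 : e i ∈ RingHom.ker ψ := h2 (he i)
    show c i + e i ∈ RingHom.ker ψ
    exact Ideal.add_mem _ (hc i) h3
  · show linPart n 𝒪 (c i + e i) = linPart n 𝒪 (c i)
    rw [map_add, linPart_eq_zero_of_mem_mul hπ (he i), add_zero]
  · show red 𝒪 n (c i + e i) = y i
    rw [map_add, hey i]
    ring

end general

section dvr

variable {𝒪 : Type*} [CommRing 𝒪] [IsDomain 𝒪] [IsDiscreteValuationRing 𝒪]
  {T : Type*} [CommRing T] [Algebra 𝒪 T] {n : ℕ}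
  {ψ : MvPowerSeries (Fin n) 𝒪 →ₐ[𝒪] T} {π : T →ₐ[𝒪] 𝒪}

omit [IsDomain 𝒪] [IsDiscreteValuationRing 𝒪] in
theorem psi_C_mul (a : 𝒪) (h : MvPowerSeries (Fin n) 𝒪) : ψ (C a * h) = a • ψ h := by
  rw [← smul_eq_C_mul, map_smul]

/-- (B1) -/
theorem exists_psi_eq_smul_of_red_mem {ϖ : 𝒪} (hϖ : IsLocalRing.maximalIdeal 𝒪 = Ideal.span {ϖ})
    {d : MvPowerSeries (Fin n) 𝒪}
    (hd : red 𝒪 n d ∈ Ideal.map (red 𝒪 n) (RingHom.ker ψ)) :
    ∃ t : T, ψ d = ϖ • t := by
  obtain ⟨f, hf, hfd⟩ := (Ideal.mem_map_iff_of_surjective _ red_surjective).mp hd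
  have h1 : d - f ∈ RingHom.ker (red 𝒪 n) := by
    rw [RingHom.mem_ker, map_sub, hfd, sub_self]
  rw [ker_map_residue (Fin n) hϖ, Ideal.mem_span_singleton'] at h1
  obtain ⟨h, hh⟩ := h1
  refine ⟨ψ h, ?_⟩
  have h2 : d = C ϖ * h + f := by
    rw [mul_comm, hh]; ring
  rw [h2, map_add, (RingHom.mem_ker).mp hf, add_zero, psi_C_mul]

/-- (B2) -/
theorem red_mem_of_psi_eq_smul (hψ : Function.Surjective ψ) {ϖ : 𝒪}
    (hϖ : IsLocalRing.maximalIdeal 𝒪 = Ideal.span {ϖ})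
    {d : MvPowerSeries (Fin n) 𝒪} {t : T} (hd : ψ d = ϖ • t) :
    red 𝒪 n d ∈ Ideal.map (red 𝒪 n) (RingHom.ker ψ) := by
  obtain ⟨h, rfl⟩ := hψ t
  have h1 : d - C ϖ * h ∈ RingHom.ker ψ := by
    rw [RingHom.mem_ker, map_sub, psi_C_mul, hd, sub_self]
  have h2 : red 𝒪 n (C ϖ * h) = 0 := by
    rw [← RingHom.mem_ker, ker_map_residue (Fin n) hϖ]
    exact Ideal.mul_mem_right _ _ (Ideal.mem_span_singleton_self _)
  have h3 := Ideal.mem_map_of_mem (red 𝒪 n) h1
  rwa [map_sub, h2, sub_zero] at h3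

/-- (B3): a generator of `Ann (ker π)` mapping to a generator of `η` is not divisible by `ϖ`. -/
theorem not_exists_eq_smul [Module.Free 𝒪 T] {ϖ : 𝒪}
    (hϖ : IsLocalRing.maximalIdeal 𝒪 = Ideal.span {ϖ}) {t₀ : T}
    (ht₀ : t₀ ∈ (RingHom.ker π).annihilator) {δ : 𝒪} (hδ : δ ≠ 0) (hπt : π t₀ = δ)
    (hη : eta π = Ideal.span {δ}) : ¬ ∃ t : T, t₀ = ϖ • t := by
  rintro ⟨t, rfl⟩
  have hϖ0 : ϖ ≠ 0 := by
    rintro rfl
    have : IsLocalRing.maximalIdeal 𝒪 = ⊥ := by rw [hϖ]; simp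
    exact IsDiscreteValuationRing.not_a_field 𝒪 this
  have ht : t ∈ (RingHom.ker π).annihilator := by
    rw [Submodule.mem_annihilator] at ht₀ ⊢
    intro x hx
    have := ht₀ x hx
    rw [smul_assoc] at this
    exact (smul_eq_zero.mp this).resolve_left hϖ0
  have h1 : π t ∈ eta π := mem_eta_iff.mpr ⟨t, ht, rfl⟩
  rw [hη, Ideal.mem_span_singleton'] at h1
  obtain ⟨a, ha⟩ := h1
  rw [map_smul, ← ha, smul_eq_mul] at hπt
  have h2 : δ * (ϖ * a - 1) = 0 := by
    linear_combination hπt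
  have h3 : ϖ * a = 1 := by
    rcases mul_eq_zero.mp h2 with h | h
    · exact absurd h hδ
    · exact sub_eq_zero.mp h
  have h4 : ϖ ∈ IsLocalRing.maximalIdeal 𝒪 := by
    rw [hϖ]; exact Ideal.mem_span_singleton_self _
  exact (IsLocalRing.mem_maximalIdeal ϖ).mp h4 (IsUnit.of_mul_eq_one a h3)

/-- (E): Nakayama step. -/
theorem ker_eq_span_of_map_eq [Module.Free 𝒪 T] {ϖ : 𝒪}
    (hϖ : IsLocalRing.maximalIdeal 𝒪 = Ideal.span {ϖ})
    (g : Fin n → MvPowerSeries (Fin n) 𝒪) (hg : ∀ i, g i ∈ RingHom.ker ψ)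
    (h : Ideal.map (red 𝒪 n) (RingHom.ker ψ) = Ideal.span (Set.range fun i => red 𝒪 n (g i))) :
    RingHom.ker ψ = Ideal.span (Set.range g) := by
  have hϖ0 : ϖ ≠ 0 := by
    rintro rfl
    have : IsLocalRing.maximalIdeal 𝒪 = ⊥ := by rw [hϖ]; simp
    exact IsDiscreteValuationRing.not_a_field 𝒪 this
  have hle : Ideal.span (Set.range g) ≤ RingHom.ker ψ := by
    rw [Ideal.span_le]
    rintro _ ⟨i, rfl⟩
    exact hg i
  refine le_antisymm ?_ hle
  have hfg : (RingHom.ker ψ : Ideal (MvPowerSeries (Fin n) 𝒪)).FG :=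
    (isNoetherianRing_iff_ideal_fg _).mp inferInstance _
  have hjac : Ideal.span {(C ϖ : MvPowerSeries (Fin n) 𝒪)}
      ≤ (⊥ : Ideal (MvPowerSeries (Fin n) 𝒪)).jacobson := by
    rw [IsLocalRing.jacobson_eq_maximalIdeal ⊥ bot_ne_top, Ideal.span_le,
      Set.singleton_subset_iff, SetLike.mem_coe, IsLocalRing.mem_maximalIdeal, mem_nonunits_iff,
      MvPowerSeries.isUnit_iff_constantCoeff, constantCoeff_C]
    have h4 : ϖ ∈ IsLocalRing.maximalIdeal 𝒪 := by
      rw [hϖ]; exact Ideal.mem_span_singleton_self _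
    exact (IsLocalRing.mem_maximalIdeal ϖ).mp h4
  refine Submodule.le_of_le_smul_of_le_jacobson_bot hfg hjac ?_
  intro f hf
  have h1 : red 𝒪 n f ∈ Ideal.map (red 𝒪 n) (Ideal.span (Set.range g)) := by
    rw [map_red_span_range, ← h]
    exact Ideal.mem_map_of_mem _ hf
  obtain ⟨u, hu, huf⟩ := (Ideal.mem_map_iff_of_surjective _ red_surjective).mp h1
  have h2 : f - u ∈ RingHom.ker (red 𝒪 n) := by
    rw [RingHom.mem_ker, map_sub, huf, sub_self]
  rw [ker_map_residue (Fin n) hϖ, Ideal.mem_span_singleton'] at h2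
  obtain ⟨v, hv⟩ := h2
  have hv' : v ∈ RingHom.ker ψ := by
    have h3 : ψ (C ϖ * v) = 0 := by
      rw [mul_comm, hv, map_sub, (RingHom.mem_ker).mp hf, (RingHom.mem_ker).mp (hle hu), sub_zero]
    rw [psi_C_mul] at h3
    exact (RingHom.mem_ker).mpr ((smul_eq_zero.mp h3).resolve_left hϖ0)
  have h4 : f = u + C ϖ * v := by rw [mul_comm, hv]; ring
  rw [h4]
  refine Submodule.add_mem_sup hu ?_
  rw [smul_eq_mul]
  exact Ideal.mul_mem_mul (Ideal.mem_span_singleton_self _) hv'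

/-- **the complete-intersection lemma**. -/
theorem ci_lemma [Module.Finite 𝒪 T] [Module.Free 𝒪 T]
    (hREG : RegProp (IsLocalRing.ResidueField 𝒪) n)
    (hCORE : CoreProp (IsLocalRing.ResidueField 𝒪) n)
    (hψ : Function.Surjective ψ) (hπ : ∀ i, π (ψ (X i)) = 0)
    (c : Fin n → MvPowerSeries (Fin n) 𝒪) (hc : ∀ i, c i ∈ RingHom.ker ψ)
    (hdet : (Matrix.of fun i => linPart n 𝒪 (c i)).det ≠ 0)
    (hη : eta π = Ideal.span {(Matrix.of fun i => linPart n 𝒪 (c i)).det}) :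
    ∃ g : Fin n → MvPowerSeries (Fin n) 𝒪, (∀ i, g i ∈ RingHom.ker ψ) ∧
      (∀ i, linPart n 𝒪 (g i) = linPart n 𝒪 (c i)) ∧
      RingHom.ker ψ = Ideal.span (Set.range g) := by
  obtain ⟨ϖ, hϖirr⟩ := IsDiscreteValuationRing.exists_irreducible 𝒪
  have hϖ : IsLocalRing.maximalIdeal 𝒪 = Ideal.span {ϖ} :=
    (IsDiscreteValuationRing.irreducible_iff_uniformizer ϖ).1 hϖirr
  have h𝔞 := map_ker_ne_top (ψ := ψ) hπ
  have hN := exists_X_pow_mem_map n ψ
  obtain ⟨y, hy, hyreg⟩ := hREG _ h𝔞 hN (fun i => red 𝒪 n (c i))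
    (fun i => Ideal.mem_map_of_mem _ (hc i))
  obtain ⟨g, hgker, hglin, hgy⟩ := exists_lift_regular hπ c hc y hy
  refine ⟨g, hgker, hglin, ?_⟩
  obtain ⟨M, hM⟩ := exists_matrix_mulVec g fun i => ker_psi_le hπ (hgker i)
  have hMy : (M.map (red 𝒪 n)).mulVec
      (fun j => (X j : MvPowerSeries (Fin n) (IsLocalRing.ResidueField 𝒪))) = y := by
    funext i
    rw [red_mulVec, hM, hgy]
  have hdetM : π (ψ M.det) = (Matrix.of fun i => linPart n 𝒪 (c i)).det := by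
    rw [pi_psi_det hπ, hM]
    congr 1
    ext i j
    rw [Matrix.of_apply, Matrix.of_apply, hglin]
  have hann : ψ M.det ∈ (RingHom.ker π).annihilator :=
    psi_det_mem_annihilator hψ hπ M (fun i => by rw [hM]; exact hgker i)
  have hnot : (M.map (red 𝒪 n)).det ∉ Ideal.map (red 𝒪 n) (RingHom.ker ψ) := by
    intro hmem
    have h1 : (M.map (red 𝒪 n)).det = red 𝒪 n M.det := by
      rw [RingHom.map_det]
      rfl
    rw [h1] at hmem
    exact not_exists_eq_smul hϖ hann hdet hdetM hη (exists_psi_eq_smul_of_red_mem hϖ hmem)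
  have hcore := hCORE _ h𝔞 (M.map (red 𝒪 n))
    (fun i => by rw [hMy, ← hgy]; exact Ideal.mem_map_of_mem _ (hgker i))
    (by rw [hMy]; exact hyreg) hnot
  rw [hMy] at hcore
  refine ker_eq_span_of_map_eq hϖ g hgker ?_
  rw [hcore]
  congr 2
  funext i
  exact (hgy i).symm

end dvr

end Fermat.Agent.S59.NumCrit.H90

end
-- ==== END Fermat.Agent.S59.NumCrit.H90_CI

-- ==== BEGIN Fermat.Agent.S59.TRes.Defs2
section

/-!
# S59, leaf TRES (helper49): statements of the sub-leaves of `Stmt_TRESloc`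

Plan: `NOTES/plan/S59_TRES.md` par. 2 (contraction route).  Model: the S05 model
`y² = x³ + a x² + b x` (`|a| = 1`, `|b| < 1`), `|x| := A.valuation x`.

* `Stmt_SMALL`  (E1): a point of order `p` with `|b| < |x| < 1` and `|x|^p = |b|^n`, `0 < n < p`.
* `Stmt_ADDEST` (E3): `|b| < |x₁| < 1 < |x₂|`  ⇒  `|x(P₁ + P₂) - x₁|² · |x₂| = |x₁|²`.
* `Stmt_GRP`    (K1): the normal subgroup `N` (trivial on the line `⟨T⟩` and on the quotient) and
  the additive map `ψ` with `n P = P + ψ(n) T`.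
* `Stmt_CORE`   (K2-K4): the field-theoretic contradiction.
* BIGROOT (E2) is `H49.stmt_BIGROOT` (`H49_BigRoot.lean`).

No `sorry`; definitions only.
-/

set_option autoImplicit false

open WeierstrassCurve WeierstrassCurve.Affine

namespace Fermat.Agent.S59.TRes

open Fermat.Agent.S56.FL
open Fermat.Agent.S05 (ModelHyp)

/-- **SMALL** (E1): a point of order `p` in the annulus `|b| < |x| < 1`, with
`|x|^p = |b|^n`, `0 < n < p`.
(ROOT `Tate.T6.H97.stmt_ROOT` gives `|x| < 1`; the component map `S05.compMap` is additive with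
values in `Γ/⟨|b|⟩`, `2 cls(b) = 0 ≠ cls(b)`.) -/
def Stmt_SMALL : Prop :=
  ∀ (L : Type) [Field L] [DecidableEq L] [IsAlgClosed L] [CharZero L] (A : ValuationSubring L)
    (p : ℕ), p.Prime → p ≠ 2 → A.valuation (p : L) < 1 →
  ∀ (W : Affine L), ModelHyp A W → A.valuation W.a₄ < 1 → W.Δ ≠ 0 →
    ∃ (x y : L) (h : W.Nonsingular x y) (n : ℕ), p • Point.some x y h = 0 ∧
      A.valuation W.a₄ < A.valuation x ∧ A.valuation x < 1 ∧ 0 < n ∧ n < p ∧
      A.valuation x ^ p = A.valuation W.a₄ ^ n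

/-- **ADDEST** (E3): adding a point of the kernel of reduction to a point of the annulus moves
the `x`-coordinate by exactly `|x₁| · |x₂|^(-1/2)`.
(Identity `(x₂-x₁)²(x₃-x₁) = -x₁³ + 3x₁²x₂ + 2a x₁x₂ + b(x₁+x₂) - 2y₁y₂`; the last term is
strictly dominant: `|y₁| = |x₁|`, `|y₂|² = |x₂|³`, `|2| = 1`.) -/
def Stmt_ADDEST : Prop :=
  ∀ (L : Type) [Field L] [DecidableEq L] (A : ValuationSubring L) (W : Affine L),
    ModelHyp A W → A.valuation W.a₄ < 1 →
  ∀ (x₁ y₁ x₂ y₂ : L) (h₁ : W.Nonsingular x₁ y₁) (h₂ : W.Nonsingular x₂ y₂),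
    A.valuation W.a₄ < A.valuation x₁ → A.valuation x₁ < 1 → 1 < A.valuation x₂ →
    ∃ (x₃ y₃ : L) (h₃ : W.Nonsingular x₃ y₃),
      Point.some x₁ y₁ h₁ + Point.some x₂ y₂ h₂ = Point.some x₃ y₃ h₃ ∧
      A.valuation (x₃ - x₁) ^ 2 * A.valuation x₂ = A.valuation x₁ ^ 2

/-- **GRP** (K1): `X` an abelian group with an action of `G`, `T`, `P` independent elements of
order `p` with `g T ∈ ⟨T⟩`, `g P ∈ ⟨P, T⟩`.  Then `N = {g | g T = T, g P - P ∈ ⟨T⟩}` is a normal
subgroup containing all `(p-1)`-th powers, and `n P = P + ψ(n) T` on `N` with `ψ` additive. -/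
def Stmt_GRP : Prop :=
  ∀ (p : ℕ) [Fact p.Prime] (G : Type) [Group G] (X : Type) [AddCommGroup X]
    (act : G →* AddMonoid.End X) (T P : X), p • T = 0 → p • P = 0 →
    (∀ a c : ℤ, a • P + c • T = 0 → (p : ℤ) ∣ a ∧ (p : ℤ) ∣ c) →
    (∀ g, ∃ a : ℤ, act g T = a • T) →
    (∀ g, ∃ a c : ℤ, act g P = a • P + c • T) →
    ∃ (N : Subgroup G) (ψ : G → ZMod p), N.Normal ∧ (∀ g : G, g ^ (p - 1) ∈ N) ∧
      (∀ n ∈ N, ∀ n' ∈ N, ψ (n * n') = ψ n + ψ n') ∧
      (∀ n ∈ N, act n T = T) ∧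
      (∀ n ∈ N, act n P = P + (ψ n).val • T) ∧
      (∀ n ∈ N, act n P = P → ψ n = 0)

/-- **CORE** (K2-K4): there is no bounded finite Galois extension `L/ℚ_p` containing a family
`γ : ℤ/p → L` of distinct elements which a normal subgroup `N ⊇ Gᵖ⁻¹` (fixing `μ_p`) permutes by
translation through `ψ`, with `‖γ 0‖^(p d) = p^(-M)`, `p ∤ M`, and
`‖γ 1 - γ 0‖² R ≤ ‖γ 0‖²`, `p ≤ R^((p-1)/2)`.
(Kummer witness `α` with `‖α‖ = 1` (`H15.exists_wit_bdd`), Lagrange interpolation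
`α = ∑ c_k (γ 0)^k` with `c_k ∈ K = L(μ_p)^N` tame, orthogonality, contraction.) -/
def Stmt_CORE : Prop :=
  ∀ (p : ℕ) [Fact p.Prime], p ≠ 2 →
  ∀ (L : IntermediateField ℚ_[p] (PadicAlgCl p)) [FiniteDimensional ℚ_[p] L],
    Normal ℚ_[p] L → IsBddField p L →
  ∀ (N : Subgroup (Gp p)), N.Normal → (∀ g : Gp p, g ^ (p - 1) ∈ N) →
    (∀ n ∈ N, ∀ ζ : PadicAlgCl p, ζ ^ p = 1 → n ζ = ζ) →
  ∀ (ψ : Gp p → ZMod p), (∀ n ∈ N, ∀ n' ∈ N, ψ (n * n') = ψ n + ψ n') →
    (∀ n ∈ N, n ∈ L.fixingSubgroup → ψ n = 0) →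
  ∀ (γ : ZMod p → PadicAlgCl p), Function.Injective γ → (∀ i, γ i ∈ L) →
    (∀ n ∈ N, ∀ i, n (γ i) = γ (i + ψ n)) →
  ∀ (M d : ℕ), 0 < d → ¬ p ∣ M → ‖γ 0‖ ^ (p * d) = ((p : ℝ)⁻¹) ^ M →
  ∀ (R : ℝ), 1 < R → (p : ℝ) ≤ R ^ ((p - 1) / 2) → ‖γ 1 - γ 0‖ ^ 2 * R ≤ ‖γ 0‖ ^ 2 → False

end Fermat.Agent.S59.TRes

end
-- ==== END Fermat.Agent.S59.TRes.Defs2

-- ==== BEGIN Fermat.Agent.S59.TRes.H8_Wire
section

set_option autoImplicit false

open Polynomial IsLocalRing WeierstrassCurve WeierstrassCurve.Affine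

namespace Fermat.Agent.S59.TRes.H8

open Fermat.Agent.S59 Fermat.Agent.S59.Asm Fermat.Agent.S56.FL Fermat.Agent.S52.H5

/-- `¬ p ∣ v_p(Δ)` forces `p ∣ Δ`. -/
theorem dvd_Δ_of_not_peu (p : ℕ) [Fact p.Prime] (W : WeierstrassCurve ℤ)
    (h : ¬ (W.map (Int.castRingHom ℚ)).IsPeuRamifieeAt p p) : (p : ℤ) ∣ W.Δ := by
  by_contra hndvd
  apply h
  show (p : ℤ) ∣ padicValRat p (W.map (Int.castRingHom ℚ)).Δ
  rw [WeierstrassCurve.map_Δ]
  have h1 : (Int.castRingHom ℚ) W.Δ = ((W.Δ : ℤ) : ℚ) := rfl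
  rw [h1, padicValRat.of_int, padicValInt.eq_zero_of_not_dvd hndvd]
  simp

/-- **TRES-W**. -/
theorem stmt_TRESwire : Stmt_TRESwire := by
  intro hloc p hpF hp2 W hΔ hss hirr hpeu 𝒪 _ _ _ _ _ _ ρ hdet habs hfrob hflat
  have hp : p.Prime := hpF.out
  obtain ⟨hcard₁, hker⟩ := Fermat.Agent.S59.Asm.H49.stmt_CARDKER p W hΔ
  have hchar : CharP (ResidueField 𝒪) p := by
    refine (CharP.charP_iff_prime_eq_zero hp).2 ?_
    have h := (residue_eq_zero_iff (p : 𝒪)).2 hdet.1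
    rwa [map_natCast] at h
  have hpΔ : (p : ℤ) ∣ W.Δ := dvd_Δ_of_not_peu p W hpeu
  have hc4 : ¬ (p : ℤ) ∣ W.c₄ := hss p hp hpΔ
  -- the flat Galois module
  have h1 := Fermat.Agent.S59.Asm.H8.isFlatGaloisModule_of_isFlatAt ρ.residual p hp hflat
  have hkill : ∀ m : ρ.residual.V, p • m = 0 := by
    intro m
    have h2 : ((p : ResidueField 𝒪)) • m = 0 := by
      rw [CharP.cast_eq_zero (ResidueField 𝒪) p, zero_smul]
    rwa [Nat.cast_smul_eq_nsmul] at h2
  obtain ⟨L, hfd, hN, hB, htriv⟩ := Fermat.Agent.S56.FL.H54.stmt_FL_A p hp2 ρ.residual.V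
    (fun σ => ρ.residual.ρ σ) hkill h1
  refine hloc p hp2 W hΔ hpΔ hc4 hpeu L hN hB ?_
  intro σ hσ P hP
  have h2 : ρ.residual.ρ (localGaloisToGlobal p σ) = 1 :=
    LinearMap.ext fun m => htriv σ hσ m
  let j : ZMod p →+* ResidueField 𝒪 := ZMod.castHom (dvd_refl p) (ResidueField 𝒪)
  have he := Fermat.Agent.S59.LL.H77.bridgeRes W hΔ p hcard₁ hker j ρ ∅
    (fun ℓ hℓ hℓp _ hgood A hA σ hσ => hfrob ℓ hℓ hℓp hgood A hA σ hσ) habs
  have h3 := Fermat.Agent.S59.Asm.eq_one_of_isEquiv_resid he (localGaloisToGlobal p σ) h2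
  have h4 := Fermat.Agent.S59.LL.H77.eq_one_of_bcAlong_resid_eq_one j _
    (localGaloisToGlobal p σ) h3
  have hP' : P ∈ Submodule.torsionBy ℤ (EQ W).Point p := by
    rw [Submodule.mem_torsionBy_iff]
    rw [Nat.cast_smul_eq_nsmul]
    exact hP
  have h5 := congrArg (fun F : Module.End (ZMod p) (Submodule.torsionBy ℤ (EQ W).Point p) =>
    ((F ⟨P, hP'⟩ : Submodule.torsionBy ℤ (EQ W).Point p) : (EQ W).Point)) h4
  exact h5

end Fermat.Agent.S59.TRes.H8

end
-- ==== END Fermat.Agent.S59.TRes.H8_Wire
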