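-- GENERATED (merged mirror, NOTES/tools/trim/merge3_helper67.py): 15 modules of the originals, bodies verbatim.
import Mathlib
import Fermat.Agent.Zm.S59_L02_000
import Fermat.Agent.Zm.S35_L11_001
import Fermat.Agent.Zm.S59_L02_002
import Fermat.Agent.Zm.S59_L01_002
import Fermat.Agent.Zm.S59_L02_005
import Fermat.Agent.Zm.S43_L06_001
import Fermat.Agent.Zm.S43_L05_000
import Fermat.Agent.Zm.S59_L02_004
import Fermat.Agent.Zm.S35_L03_003
import Fermat.Agent.Zm.S43_L01_004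
import Fermat.Agent.Zm.S43_L03_003
import Fermat.Agent.Zm.S35_L06_003
import Fermat.Agent.Zm.S59_L02_003
import Fermat.Agent.Zm.S35_L06_001
import Fermat.Agent.Zm.S35_L04_000
import Fermat.Agent.Zm.S35_L11_000
import Fermat.Agent.Zm.S43_L14_002
import Fermat.Agent.Zm.S33_L12_000
import Fermat.Agent.Zm.S33_L02_003
import Fermat.Agent.Zm.S59_L01_003
import Fermat.Agent.Zm.S58_L01_000
import Fermat.Agent.Zm.S35_L15_000
import Fermat.Agent.Zm.S36_L04_002
import Fermat.Agent.Zm.S36_L11_000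

-- ==== BEGIN Fermat.Agent.S27.Char0.Lift.H45_Coord
section

/-!
# S27 LIFT, leaf COORD (helper45): the chart of a good reduction

For `G : GoodRed K F k Ft`, `x = G.x`, `xt = G.S.rd G.x`:

* `zerosStmt_u`: the zeros theorem, universe polymorphic;
* `exists_poleDiv`: the exact divisor of poles, of degree `[F : K(x)]`;
* `push_poleDiv`: `r_* (x)_∞ = (xt)_∞` (no cancellation, because the degrees agree);
* `pole_of_pole`: a pole of `x` reduces to a pole of `xt`;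
* `exists_pole_over`: over a pole of `xt` there is a pole of `x`;
* `isCoord_sub`: on a disc over a simple `α`-point of `xt`, `x - a` is a coordinate;
* `exists_value_x`: the value of `x` at a place over a non-pole is integral and reduces to the
  value of `xt`.
-/

set_option autoImplicit false

noncomputable section

open AlgebraicCurve IntermediateField

namespace Fermat.Agent.S27.Char0.Lift.H45

open Fermat.Agent.RED.H17 Fermat.Agent.S27.Char0 Fermat.Agent.S24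

attribute [local instance] Classical.propDecidable

local notation "L" => riemannRochSpace

universe u v u' v'

section FF

variable {K : Type u} {F : Type v} [Field K] [Field F] [Algebra K F]

/-- The zeros theorem, universe polymorphic. -/
theorem zerosStmt_u [IsAlgClosed K] {x₀ : F} (hx₀ : Transcendental K x₀)
    [FiniteDimensional K⟮x₀⟯ F] : H59.ZerosStmt K F :=
  Fermat.Agent.RED.H42.zerosStmt_of_exists_zero_of_le hx₀
    (fun x hx => Fermat.Agent.RED.H12.exists_place_ord_pos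
      (fun y hy => ff_finite_of_transcendental x₀ hx₀ y hy) x hx)
    (Fermat.Agent.RED.H51.zerosLe K F)

/-- The exact divisor of poles of `x`, of degree `[F : K(x)]`. -/
theorem exists_poleDiv [IsAlgClosed K] {x : F} (hx : Transcendental K x)
    [FiniteDimensional K⟮x⟯ F] :
    ∃ B : Divisor K F, (∀ v, B v = max (-(v.ord x)) 0) ∧
      Divisor.degree B = (Module.finrank K⟮x⟯ F : ℤ) := by
  classical
  have hz : H59.ZerosStmt K F := zerosStmt_u hx
  have htr' : Transcendental K x⁻¹ := fun h => hx (IsAlgebraic.inv_iff.mp h)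
  have := ff_finite_of_transcendental x hx x⁻¹ htr'
  obtain ⟨hPfin, hPsum⟩ := hz x⁻¹ htr'
  rw [H59.finrank_adjoin_inv] at hPsum
  have hsupp : (Function.support fun v : Place K F => max (v.ord x⁻¹) 0).Finite := by
    refine hPfin.subset fun v hv => ?_
    simp only [Function.mem_support, ne_eq] at hv
    simp only [Set.mem_ofPred_eq]
    omega
  have h1 : ∀ v, (Finsupp.ofSupportFinite _ hsupp : Divisor K F) v = max (v.ord x⁻¹) 0 :=
    fun _ => rfl
  refine ⟨Finsupp.ofSupportFinite _ hsupp, fun v => ?_, ?_⟩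
  · rw [h1, Place.ord_inv]
  · rw [H59.degree_eq_sum_of_deg_eq_one (fun v => ff_deg_eq_one x hx v), ← hPsum,
      finsum_mem_eq_finite_toFinset_sum _ hPfin]
    have hs : (Finsupp.ofSupportFinite _ hsupp : Divisor K F).support = hPfin.toFinset := by
      ext v
      simp only [Finsupp.mem_support_iff, Set.Finite.mem_toFinset, Set.mem_ofPred_eq]
      rw [h1]
      omega
    rw [hs]
    refine Finset.sum_congr rfl fun v hv => ?_
    rw [h1]
    simp only [Set.Finite.mem_toFinset, Set.mem_ofPred_eq] at hv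
    omega

/-- A divisor `≥ 0` of degree `0` is zero. -/
theorem eq_zero_of_nonneg_of_degree (hdeg : ∀ v : Place K F, v.deg = 1) {D : Divisor K F}
    (hD : ∀ v, 0 ≤ D v) (h0 : Divisor.degree D = 0) : D = 0 := by
  rw [degree_eq_sum hdeg] at h0
  ext v
  by_cases hv : v ∈ D.support
  · exact (Finset.sum_eq_zero_iff_of_nonneg fun w _ => hD w).mp h0 v hv
  · rw [Finsupp.notMem_support_iff] at hv
    rw [hv]
    rfl

end FF

section GoodRed

variable {K : Type u} {F : Type v} {k : Type u'} {Ft : Type v'} [Field K] [Field F]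
  [Algebra K F] [Field k] [Field Ft] [Algebra k Ft] (G : GoodRed K F k Ft)

theorem xt_ne_zero : G.S.rd G.x ≠ 0 := fun h => G.transc (by rw [h]; exact isAlgebraic_zero)

theorem x_isGU : G.S.IsGU G.x := ⟨G.hx, xt_ne_zero G⟩

theorem x_transc [IsAlgClosed K] : Transcendental K G.x := by
  by_contra halg
  have hmem : G.x ∈ Set.range (algebraMap K F) := by
    by_contra hne
    exact halg (Fermat.Agent.RED.H42.transcendental_of_not_mem_range hne)
  obtain ⟨a, ha⟩ := hmem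
  have hV : algebraMap K F a ∈ G.S.V := by rw [ha]; exact G.hx
  obtain ⟨c', hc'⟩ := G.S.rd_const_eq a hV
  rw [ha] at hc'
  exact G.transc (by rw [hc']; exact isAlgebraic_algebraMap c')

/-- `r_* (x)_∞ = (xt)_∞`. -/
theorem push_poleDiv [IsAlgClosed K] [IsAlgClosed k] (H : FFHyp K F) (H' : FFHyp k Ft)
    {B : Divisor K F} (hB : ∀ v, B v = max (-(v.ord G.x)) 0)
    {B' : Divisor k Ft} (hB' : ∀ v, B' v = max (-(v.ord (G.S.rd G.x))) 0)
    (hdB : Divisor.degree B = (Module.finrank K⟮G.x⟯ F : ℤ))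
    (hdB' : Divisor.degree B' = (Module.finrank k⟮G.S.rd G.x⟯ Ft : ℤ)) :
    Finsupp.mapDomain G.S.r B = B' := by
  have hP := H.principal
  have hge : ∀ Q, B' Q ≤ Finsupp.mapDomain G.S.r B Q := by
    intro Q
    have h1 := G.S.mapDomain_dv hP (x_isGU G) Q
    have h2 := mapDomain_nonneg' G.S.r (D := dv hP G.x + B) (fun P => by
      rw [Finsupp.add_apply, dv_apply, hB]
      omega) Q
    have h3 := mapDomain_nonneg' G.S.r (D := B) (fun P => by
      rw [hB]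
      omega) Q
    rw [Finsupp.mapDomain_add, Finsupp.add_apply, h1] at h2
    rw [hB']
    omega
  have hdeg : Divisor.degree (Finsupp.mapDomain G.S.r B - B') = 0 := by
    rw [map_sub, degree_mapDomain H.deg_one H'.deg_one, hdB, hdB', G.deg]
    ring
  have h0 := eq_zero_of_nonneg_of_degree H'.deg_one (D := Finsupp.mapDomain G.S.r B - B')
    (fun Q => by rw [Finsupp.sub_apply]; have := hge Q; omega) hdeg
  exact sub_eq_zero.mp h0

/-- A pole of `x` reduces to a pole of `xt`. -/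
theorem pole_of_pole [IsAlgClosed K] [IsAlgClosed k] (H : FFHyp K F) (H' : FFHyp k Ft)
    {P : Place K F} (hP : P.ord G.x < 0) : (G.S.r P).ord (G.S.rd G.x) < 0 := by
  have := G.fin
  have := G.fin'
  obtain ⟨B, hB, hdB⟩ := exists_poleDiv (x_transc G)
  obtain ⟨B', hB', hdB'⟩ := exists_poleDiv G.transc
  have hpush := push_poleDiv G H H' hB hB' hdB hdB'
  have h1 : B P ≤ Finsupp.mapDomain G.S.r B (G.S.r P) := by
    rw [mapDomain_apply_eq_sum]
    have hmem : P ∈ B.support := by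
      rw [Finsupp.mem_support_iff, hB]
      omega
    have := Finset.single_le_sum (f := fun P' => if G.S.r P' = G.S.r P then B P' else 0)
      (fun P' _ => by
        show 0 ≤ (if G.S.r P' = G.S.r P then B P' else 0)
        split_ifs
        · rw [hB]; omega
        · exact le_rfl) hmem
    simpa using this
  rw [hpush, hB, hB'] at h1
  omega

/-- A place over a non-pole of `xt` is not a pole of `x`. -/
theorem ord_nonneg_of_ord_nonneg [IsAlgClosed K] [IsAlgClosed k] (H : FFHyp K F)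
    (H' : FFHyp k Ft) {P : Place K F} (hP : 0 ≤ (G.S.r P).ord (G.S.rd G.x)) :
    0 ≤ P.ord G.x := by
  by_contra h
  have := pole_of_pole G H H' (not_le.mp h)
  omega

/-- Over a pole of `xt` there is a pole of `x`. -/
theorem exists_pole_over [IsAlgClosed K] [IsAlgClosed k] (H : FFHyp K F) (H' : FFHyp k Ft)
    {Q : Place k Ft} (hQ : Q.ord (G.S.rd G.x) < 0) : ∃ P, G.S.r P = Q ∧ P.ord G.x < 0 := by
  have := G.fin
  have := G.fin'
  obtain ⟨B, hB, hdB⟩ := exists_poleDiv (x_transc G)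
  obtain ⟨B', hB', hdB'⟩ := exists_poleDiv G.transc
  have hpush := push_poleDiv G H H' hB hB' hdB hdB'
  have h1 : 0 < Finsupp.mapDomain G.S.r B Q := by
    rw [hpush, hB']
    omega
  rw [mapDomain_apply_eq_sum] at h1
  obtain ⟨P, hPs, hPpos⟩ := Finset.exists_lt_of_sum_lt (by simpa using h1 :
    ∑ P ∈ B.support, (0 : ℤ) < ∑ P ∈ B.support, if G.S.r P = Q then B P else 0)
  by_cases hPQ : G.S.r P = Q
  · rw [if_pos hPQ, hB] at hPpos
    exact ⟨P, hPQ, by omega⟩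
  · rw [if_neg hPQ] at hPpos
    exact absurd hPpos (lt_irrefl _)

/-- `xt` is regular at `Q` if `xt - α` vanishes at `Q`. -/
theorem xt_ord_nonneg {Q : Place k Ft} {α : k}
    (hQ : 0 < Q.ord (G.S.rd G.x - algebraMap k Ft α)) : 0 ≤ Q.ord (G.S.rd G.x) := by
  have h1 : RegAt Q (G.S.rd G.x - algebraMap k Ft α) := regAt_of_ord_nonneg hQ.le
  have h2 := h1.add (regAt_algebraMap Q α)
  rw [sub_add_cancel] at h2
  exact h2.ord_nonneg

/-- On the disc over a simple `α`-point of `xt`, `x - a` is a coordinate for every lift `a` of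
`α`. -/
theorem isCoord_sub [IsAlgClosed K] [IsAlgClosed k] (H : FFHyp K F) (H' : FFHyp k Ft)
    {Q : Place k Ft} {α : k} (hQ : Q.ord (G.S.rd G.x - algebraMap k Ft α) = 1)
    {a : K} (ha : algebraMap K F a ∈ G.S.V)
    (haα : G.S.rd (algebraMap K F a) = algebraMap k Ft α) :
    G.S.IsCoord (G.x - algebraMap K F a) Q := by
  have hrd : G.S.rd (G.x - algebraMap K F a) = G.S.rd G.x - algebraMap k Ft α := by
    rw [G.S.rd_sub G.hx ha, haα]
  refine ⟨⟨G.S.V.sub_mem G.hx ha, ?_⟩, fun P hPQ => ?_, by rw [hrd]; exact hQ⟩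
  · rw [hrd]
    intro h0
    rw [h0, Place.ord_zero] at hQ
    exact zero_ne_one hQ
  · have h1 : 0 ≤ (G.S.r P).ord (G.S.rd G.x) := by
      rw [hPQ]
      exact xt_ord_nonneg G (by rw [hQ]; exact one_pos)
    have h2 := ord_nonneg_of_ord_nonneg G H H' h1
    exact ((regAt_of_ord_nonneg h2).sub (regAt_algebraMap P a)).ord_nonneg

/-- The value of `x` at a place over a non-pole of `xt`: it is integral and its reduction is
the value of `xt`. -/
theorem exists_value_x [IsAlgClosed K] [IsAlgClosed k] (H : FFHyp K F) (H' : FFHyp k Ft)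
    {P : Place K F} (hP : 0 ≤ (G.S.r P).ord (G.S.rd G.x)) :
    ∃ b : K, VanAt P (G.x - algebraMap K F b) ∧ algebraMap K F b ∈ G.S.V ∧
      VanAt (G.S.r P) (G.S.rd G.x - G.S.rd (algebraMap K F b)) := by
  have h2 := ord_nonneg_of_ord_nonneg G H H' hP
  obtain ⟨b, hb⟩ := exists_value P (H.deg_one P) (regAt_of_ord_nonneg h2)
  have hreg : ∀ P', G.S.r P' = G.S.r P → 0 ≤ P'.ord G.x := fun P' hP' =>
    ord_nonneg_of_ord_nonneg G H H' (by rw [hP']; exact hP)
  obtain ⟨h3, h4⟩ := G.S.const_of_vanAt H.principal G.hx hreg rfl hb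
  exact ⟨b, hb, h3, h4⟩

end GoodRed

end Fermat.Agent.S27.Char0.Lift.H45

end
end
-- ==== END Fermat.Agent.S27.Char0.Lift.H45_Coord

-- ==== BEGIN Fermat.Agent.S41.H94_Pair
section

/-!
# S41, package P (Poincare duality), part P2b: the pairing via potentials

Abstract setting: a group `G` with two elements `S, T` (`ModularLike S T`: generation, `S²` central,
`S⁴ = 1`, `(T S⁻¹)³ = 1`), a homomorphism `j : H →* G` with `S² ∈ range j` and `G ⧸ range j` finite.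

* `PotTriple j S T φ`: three potentials of `φ`, left-invariant under `T`, `S`, `T S⁻¹`.
* `PotTriple.a`: the Manin function `Φ_τ - Φ_T` on `G ⧸ range j`.
* `pairing`: `Qform t a_φ a_ψ`; independent of the triples (`pairing_indep_left`).
* `eq_zero_of_boundary`: injectivity of `φ ↦ a_φ` modulo boundaries.
-/

set_option autoImplicit false

namespace Fermat.Agent.S41.H94

section Shapiro

variable {G : Type*} [Group G] {H : Type*} [Group H] {k : Type*} [Field k]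

/-- The abstract properties of `(SL(2,ℤ), S, T)` that we use. -/
structure ModularLike (S T : G) : Prop where
  gen : Subgroup.closure ({S, T} : Set G) = ⊤
  central : ∀ g : G, S ^ 2 * g = g * S ^ 2
  tau3 : (T * S⁻¹) ^ 3 = 1
  S4 : S ^ 4 = 1

/-- A function on `G` seen on `G ⧸ range j` (meaningful for right-invariant functions). -/
noncomputable def desc (j : H →* G) (f : G → k) : G ⧸ j.range → k := fun q => f q.out

theorem desc_mk (j : H →* G) {f : G → k} (hf : ∀ x y, f (x * j y) = f x) (x : G) :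
    desc j f (x : G ⧸ j.range) = f x := by
  unfold desc
  obtain ⟨h, hh⟩ := QuotientGroup.mk_out_eq_mul j.range x
  rw [hh]
  obtain ⟨y, hy⟩ := h.2
  rw [← hy, hf]

/-- A function invariant under left multiplication by `S` and `T` is constant. -/
theorem const_of_leftInv {S T : G} (hM : ModularLike S T) {α : Type*} (F : G → α)
    (hS : ∀ x, F (S * x) = F x) (hT : ∀ x, F (T * x) = F x) (g x : G) : F (g * x) = F x := by
  have hg : g ∈ Subgroup.closure ({S, T} : Set G) := by rw [hM.gen]; trivial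
  induction hg using Subgroup.closure_induction generalizing x with
  | mem y hy =>
    rcases hy with rfl | rfl
    · exact hS x
    · exact hT x
  | one => rw [one_mul]
  | mul a b _ _ iha ihb => rw [mul_assoc, iha, ihb]
  | inv a _ iha =>
    have := iha (a⁻¹ * x)
    rw [mul_inv_cancel_left] at this
    exact this.symm

/-- Three potentials of `φ`, left-invariant under `T`, `S` and `τ = T S⁻¹`. -/
structure PotTriple (j : H →* G) (S T : G) (φ : Additive H →+ k) where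
  /-- the `T`-invariant potential -/
  ΦT : G → k
  /-- the `S`-invariant potential -/
  ΦS : G → k
  /-- the `τ`-invariant potential -/
  Φτ : G → k
  potT : IsPot j φ ΦT
  potS : IsPot j φ ΦS
  potτ : IsPot j φ Φτ
  invT : ∀ x, ΦT (T * x) = ΦT x
  invS : ∀ x, ΦS (S * x) = ΦS x
  invτ : ∀ x, Φτ (T * S⁻¹ * x) = Φτ x

/-- Existence of potential triples for homs killing the conjugates of powers of `S`, `T`, `τ`. -/
theorem exists_potTriple (j : H →* G) (S T : G) (φ : Additive H →+ k)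
    (hS : KillsConj j φ S) (hT : KillsConj j φ T) (hτ : KillsConj j φ (T * S⁻¹)) :
    Nonempty (PotTriple j S T φ) := by
  obtain ⟨ΦT, h1, h2⟩ := exists_pot_leftInv j φ T hT
  obtain ⟨ΦS, h3, h4⟩ := exists_pot_leftInv j φ S hS
  obtain ⟨Φτ, h5, h6⟩ := exists_pot_leftInv j φ (T * S⁻¹) hτ
  exact ⟨⟨ΦT, ΦS, Φτ, h1, h3, h5, h2, h4, h6⟩⟩

namespace PotTriple

variable {j : H →* G} {S T : G} {φ ψ : Additive H →+ k}

theorem killsS (P : PotTriple j S T φ) : KillsConj j φ S := killsConj_of_pot P.potS P.invS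
theorem killsT (P : PotTriple j S T φ) : KillsConj j φ T := killsConj_of_pot P.potT P.invT
theorem killsτ (P : PotTriple j S T φ) : KillsConj j φ (T * S⁻¹) := killsConj_of_pot P.potτ P.invτ

/-- The Manin function `Φ_τ - Φ_T` on `G ⧸ range j`. -/
noncomputable def a (P : PotTriple j S T φ) : G ⧸ j.range → k :=
  desc j (fun x => P.Φτ x - P.ΦT x)

/-- The auxiliary function `Φ_S - Φ_T` on `G ⧸ range j`. -/
noncomputable def u (P : PotTriple j S T φ) : G ⧸ j.range → k :=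
  desc j (fun x => P.ΦS x - P.ΦT x)

theorem a_mk (P : PotTriple j S T φ) (x : G) : P.a (x : G ⧸ j.range) = P.Φτ x - P.ΦT x :=
  desc_mk j (fun x y => IsPot.sub_rightInv P.potτ P.potT x y) x

theorem u_mk (P : PotTriple j S T φ) (x : G) : P.u (x : G ⧸ j.range) = P.ΦS x - P.ΦT x :=
  desc_mk j (fun x y => IsPot.sub_rightInv P.potS P.potT x y) x

/-- `Φ_T (S⁻¹ x) = Φ_T (S x)`. -/
theorem ΦT_Sinv (hM : ModularLike S T) (hz : S ^ 2 ∈ j.range) (P : PotTriple j S T φ) (x : G) :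
    P.ΦT (S⁻¹ * x) = P.ΦT (S * x) := by
  obtain ⟨z, hz⟩ := hz
  have h1 : S⁻¹ * x = S * x * j z := by
    rw [hz, mul_assoc, ← hM.central x, ← mul_assoc]
    have : S⁻¹ = S * S ^ 2 := by
      rw [eq_comm, ← pow_succ', inv_eq_of_mul_eq_one_right]
      rw [← pow_succ']
      exact hM.S4
    rw [this]
  have h2 : φ (Additive.ofMul z) = 0 := P.killsS 1 2 z (by rw [hz]; simp)
  rw [h1, P.potT, h2, add_zero]

theorem ΦT_tau (hM : ModularLike S T) (hz : S ^ 2 ∈ j.range) (P : PotTriple j S T φ) (x : G) :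
    P.ΦT (T * S⁻¹ * x) = P.ΦT (S * x) := by
  rw [mul_assoc, P.invT, P.ΦT_Sinv hM hz]

/-- The function `a` is a Manin function. -/
theorem manin (hM : ModularLike S T) (hz : S ^ 2 ∈ j.range) (P : PotTriple j S T φ)
    (x : G ⧸ j.range) :
    P.a ((T * S⁻¹) • x) - P.a x = P.u (S • x) - P.u x := by
  induction x using QuotientGroup.induction_on with
  | H g =>
    rw [MulAction.Quotient.smul_mk, MulAction.Quotient.smul_mk, a_mk, a_mk, u_mk, u_mk]
    simp only [smul_eq_mul]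
    rw [P.invτ, P.invS, P.ΦT_tau hM hz]
    ring

/-- the increment of `a` in terms of `Φ_T` -/
theorem a_incr (hM : ModularLike S T) (hz : S ^ 2 ∈ j.range) (P : PotTriple j S T φ) (g : G) :
    P.a ((T * S⁻¹) • (g : G ⧸ j.range)) - P.a (g : G ⧸ j.range) = P.ΦT g - P.ΦT (S * g) := by
  rw [MulAction.Quotient.smul_mk, a_mk, a_mk]
  simp only [smul_eq_mul]
  rw [P.invτ, P.ΦT_tau hM hz]
  ring

/-- sum of potential triples -/
def add (P : PotTriple j S T φ) (Q : PotTriple j S T ψ) : PotTriple j S T (φ + ψ) where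
  ΦT := P.ΦT + Q.ΦT
  ΦS := P.ΦS + Q.ΦS
  Φτ := P.Φτ + Q.Φτ
  potT := P.potT.add Q.potT
  potS := P.potS.add Q.potS
  potτ := P.potτ.add Q.potτ
  invT x := by simp only [Pi.add_apply, P.invT, Q.invT]
  invS x := by simp only [Pi.add_apply, P.invS, Q.invS]
  invτ x := by simp only [Pi.add_apply, P.invτ, Q.invτ]

/-- scalar multiple of a potential triple -/
def smul (r : k) (P : PotTriple j S T φ) : PotTriple j S T (r • φ) where
  ΦT := r • P.ΦT
  ΦS := r • P.ΦS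
  Φτ := r • P.Φτ
  potT := P.potT.smul r
  potS := P.potS.smul r
  potτ := P.potτ.smul r
  invT x := by simp only [Pi.smul_apply, P.invT]
  invS x := by simp only [Pi.smul_apply, P.invS]
  invτ x := by simp only [Pi.smul_apply, P.invτ]

theorem add_a (P : PotTriple j S T φ) (Q : PotTriple j S T ψ) : (P.add Q).a = P.a + Q.a := by
  funext x
  induction x using QuotientGroup.induction_on with
  | H g =>
    rw [Pi.add_apply, a_mk, a_mk, a_mk]
    simp only [add, Pi.add_apply]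
    ring

theorem smul_a (r : k) (P : PotTriple j S T φ) : (P.smul r).a = r • P.a := by
  funext x
  induction x using QuotientGroup.induction_on with
  | H g =>
    rw [Pi.smul_apply, a_mk, a_mk]
    simp only [smul, Pi.smul_apply, smul_eq_mul]
    ring

end PotTriple

end Shapiro

section Boundary

variable {X : Type*} [Fintype X] {k : Type*} [Field k]

/-- Boundary functions (`c ∘ t ∘ s = c`) pair trivially with Manin functions. -/
theorem Qform_boundary_left (s t : Equiv.Perm X) (hs : ∀ x, s (s x) = x) (h2 : (2 : k) ≠ 0)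
    (c b : X → k) (hc : ∀ x, c (t (s x)) = c x) (hb : IsManin s t b) : Qform t c b = 0 := by
  obtain ⟨u, hu⟩ := hb
  have hc' : ∀ y, c (t y) = c (s y) := by
    intro y
    have := hc (s y)
    rwa [hs] at this
  have key : Qform t c b = ∑ x, (c x + c (s x)) * (b (t x) - b x) := by
    unfold Qform
    have e1 : ∑ x, c (s x) * b (t x) = ∑ x, c x * b x := by
      rw [← Equiv.sum_comp t (fun x => c x * b x)]
      exact Finset.sum_congr rfl (fun x _ => by rw [hc' x])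
    have e2 : ∑ x, c (t x) * b x = ∑ x, c (s x) * b x :=
      Finset.sum_congr rfl (fun x _ => by rw [hc' x])
    simp only [add_mul, mul_sub, Finset.sum_add_distrib, Finset.sum_sub_distrib]
    rw [e1, e2]
    ring
  have hanti : ∑ x, (c x + c (s x)) * (b (t x) - b x)
      = - ∑ x, (c x + c (s x)) * (b (t x) - b x) := by
    conv_lhs => rw [← Equiv.sum_comp s (fun x => (c x + c (s x)) * (b (t x) - b x))]
    rw [← Finset.sum_neg_distrib]
    refine Finset.sum_congr rfl (fun x _ => ?_)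
    rw [hs, hu (s x), hu x, hs]
    ring
  rw [key]
  have h3 : (2 : k) * ∑ x, (c x + c (s x)) * (b (t x) - b x) = 0 := by
    linear_combination hanti
  rcases mul_eq_zero.mp h3 with h | h
  · exact absurd h h2
  · exact h

theorem Qform_boundary_right (s t : Equiv.Perm X) (hs : ∀ x, s (s x) = x) (h2 : (2 : k) ≠ 0)
    (c b : X → k) (hc : ∀ x, c (t (s x)) = c x) (hb : IsManin s t b) : Qform t b c = 0 := by
  rw [Qform_skew, Qform_boundary_left s t hs h2 c b hc hb, neg_zero]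

end Boundary

section Pairing

variable {G : Type*} [Group G] {H : Type*} [Group H] {k : Type*} [Field k]
variable {j : H →* G} {S T : G}

theorem smul_smul_S (hM : ModularLike S T) (hz : S ^ 2 ∈ j.range) (x : G ⧸ j.range) :
    S • S • x = x := by
  induction x using QuotientGroup.induction_on with
  | H g =>
    rw [MulAction.Quotient.smul_mk, MulAction.Quotient.smul_mk]
    simp only [smul_eq_mul]
    rw [← mul_assoc, ← pow_two, hM.central, QuotientGroup.eq]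
    simpa using hz

theorem smul_smul_smul_tau (hM : ModularLike S T) (x : G ⧸ j.range) :
    (T * S⁻¹) • (T * S⁻¹) • (T * S⁻¹) • x = x := by
  rw [smul_smul, smul_smul, ← pow_two, ← pow_succ, hM.tau3, one_smul]

theorem tau_smul_S_smul (x : G ⧸ j.range) : (T * S⁻¹) • S • x = T • x := by
  rw [smul_smul, inv_mul_cancel_right]

theorem PotTriple.isManin (hM : ModularLike S T) (hz : S ^ 2 ∈ j.range) {φ : Additive H →+ k}
    (P : PotTriple j S T φ) :
    IsManin (MulAction.toPerm S : Equiv.Perm (G ⧸ j.range)) (MulAction.toPerm (T * S⁻¹)) P.a :=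
  ⟨P.u, fun x => P.manin hM hz x⟩

variable [Fintype (G ⧸ j.range)]

/-- The pairing computed with given potential triples. -/
noncomputable def pairingOf {φ ψ : Additive H →+ k} (P : PotTriple j S T φ) (Q : PotTriple j S T ψ) :
    k :=
  Qform (MulAction.toPerm (T * S⁻¹) : Equiv.Perm (G ⧸ j.range)) P.a Q.a

theorem pairingOf_indep_left (hM : ModularLike S T) (hz : S ^ 2 ∈ j.range) (h2 : (2 : k) ≠ 0)
    {φ ψ : Additive H →+ k} (P P' : PotTriple j S T φ) (Q : PotTriple j S T ψ) :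
    pairingOf P Q = pairingOf P' Q := by
  unfold pairingOf
  -- `P.a - P'.a = cτ - cT`
  set cτ : G ⧸ j.range → k := desc j (fun x => P.Φτ x - P'.Φτ x) with hcτ
  set cT : G ⧸ j.range → k := desc j (fun x => P.ΦT x - P'.ΦT x) with hcT
  have hcτ_mk : ∀ g : G, cτ (g : G ⧸ j.range) = P.Φτ g - P'.Φτ g :=
    fun g => desc_mk j (fun x y => IsPot.sub_rightInv P.potτ P'.potτ x y) g
  have hcT_mk : ∀ g : G, cT (g : G ⧸ j.range) = P.ΦT g - P'.ΦT g :=
    fun g => desc_mk j (fun x y => IsPot.sub_rightInv P.potT P'.potT x y) g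
  have hdiff : P.a = P'.a + (cτ - cT) := by
    funext x
    induction x using QuotientGroup.induction_on with
    | H g =>
      rw [Pi.add_apply, Pi.sub_apply, P.a_mk, P'.a_mk, hcτ_mk, hcT_mk]
      ring
  have h1 : ∀ x, cτ ((MulAction.toPerm (T * S⁻¹) : Equiv.Perm (G ⧸ j.range)) x) = cτ x := by
    intro x
    induction x using QuotientGroup.induction_on with
    | H g =>
      rw [MulAction.toPerm_apply, MulAction.Quotient.smul_mk, hcτ_mk, hcτ_mk]
      simp only [smul_eq_mul]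
      rw [P.invτ, P'.invτ]
  have h3 : ∀ x, cT ((MulAction.toPerm (T * S⁻¹) : Equiv.Perm (G ⧸ j.range))
      ((MulAction.toPerm S : Equiv.Perm (G ⧸ j.range)) x)) = cT x := by
    intro x
    rw [MulAction.toPerm_apply, MulAction.toPerm_apply, tau_smul_S_smul]
    induction x using QuotientGroup.induction_on with
    | H g =>
      rw [MulAction.Quotient.smul_mk, hcT_mk, hcT_mk]
      simp only [smul_eq_mul]
      rw [P.invT, P'.invT]
  rw [hdiff, Qform_add_left, Qform_sub_left, Qform_left_of_invariant _ cτ _ h1,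
    Qform_boundary_left (MulAction.toPerm S) _ (fun x => smul_smul_S hM hz x) h2 cT Q.a h3
      (Q.isManin hM hz)]
  ring

theorem pairingOf_skew {φ ψ : Additive H →+ k} (P : PotTriple j S T φ) (Q : PotTriple j S T ψ) :
    pairingOf P Q = - pairingOf Q P := Qform_skew _ _ _

theorem pairingOf_indep_right (hM : ModularLike S T) (hz : S ^ 2 ∈ j.range) (h2 : (2 : k) ≠ 0)
    {φ ψ : Additive H →+ k} (P : PotTriple j S T φ) (Q Q' : PotTriple j S T ψ) :
    pairingOf P Q = pairingOf P Q' := by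
  rw [pairingOf_skew P Q, pairingOf_skew P Q', pairingOf_indep_left hM hz h2 Q Q' P]

/-- **Injectivity**: if the class of `a_φ` is a boundary then `φ = 0`. -/
theorem eq_zero_of_boundary (hM : ModularLike S T) (hz : S ^ 2 ∈ j.range) {φ : Additive H →+ k}
    (P : PotTriple j S T φ) (c : G ⧸ j.range → k)
    (hc : ∀ x : G ⧸ j.range, c ((T * S⁻¹) • S • x) = c x)
    (h : ∀ x : G ⧸ j.range, P.a ((T * S⁻¹) • x) - P.a x = c (S • x) - c x) : φ = 0 := by
  set Φ' : G → k := fun g => P.ΦT g + c (g : G ⧸ j.range) with hΦ'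
  have hS : ∀ x, Φ' (S * x) = Φ' x := by
    intro g
    have h1 := h (g : G ⧸ j.range)
    rw [P.a_incr hM hz, MulAction.Quotient.smul_mk] at h1
    simp only [smul_eq_mul] at h1
    simp only [hΦ']
    linear_combination -h1
  have hT : ∀ x, Φ' (T * x) = Φ' x := by
    intro g
    have h1 := hc (g : G ⧸ j.range)
    rw [tau_smul_S_smul, MulAction.Quotient.smul_mk] at h1
    simp only [smul_eq_mul] at h1
    simp only [hΦ']
    rw [P.invT, h1]
  have hconst := const_of_leftInv hM Φ' hS hT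
  have hφ : ∀ y : H, φ (Additive.ofMul y) = 0 := by
    intro y
    have h1 : Φ' (j y) = Φ' 1 := by
      have := hconst (j y) 1
      rwa [mul_one] at this
    have h2 : ((j y : G) : G ⧸ j.range) = ((1 : G) : G ⧸ j.range) := by
      rw [QuotientGroup.eq]
      simp
    have h3 : P.ΦT (j y) = P.ΦT 1 + φ (Additive.ofMul y) := by
      have := P.potT 1 y
      rwa [one_mul] at this
    simp only [hΦ'] at h1
    rw [h2, h3] at h1
    linear_combination h1
  ext y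
  exact hφ (Additive.toMul y)

end Pairing

end Fermat.Agent.S41.H94

end
-- ==== END Fermat.Agent.S41.H94_Pair

-- ==== BEGIN Fermat.Agent.S59.Asm.H2_SelqAlg
section

/-!
# S59, RT-NONMIN, leaf SELq-ALG (helper2)

Entries of a vector `X` killed by a square matrix `A` with `det A ≠ 0` over a discrete valuation
ring with finite residue field span a finite module of cardinality at most `#(𝒪 / det A)`.

* `stmt_SELqALG : Stmt_SELqALG` (from helper12's `card_quotient_span_rows`).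

This file contains no `sorry`.
-/

set_option autoImplicit false
set_option linter.style.haveILetI false
set_option linter.unusedSectionVars false
set_option linter.unusedVariables false
set_option maxHeartbeats 1000000

noncomputable section

namespace Fermat.Agent.S59.Asm.H2

open Fermat.Agent.S59.Asm Fermat.Agent.S59.NumCrit

variable {𝒪 : Type*} [CommRing 𝒪] [IsDomain 𝒪] [IsDiscreteValuationRing 𝒪]
  [Finite (IsLocalRing.ResidueField 𝒪)]

theorem finite_quotient_span_singleton {a : 𝒪} (ha : a ≠ 0) :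
    Finite (𝒪 ⧸ Ideal.span {a}) := by
  obtain ⟨k, -, hk⟩ := H8.exists_card_span_singleton ha
  apply Nat.finite_of_card_ne_zero
  rw [hk]
  have h0 : Nat.card (𝒪 ⧸ IsLocalRing.maximalIdeal 𝒪) ≠ 0 := by
    haveI : Finite (𝒪 ⧸ IsLocalRing.maximalIdeal 𝒪) :=
      inferInstanceAs (Finite (IsLocalRing.ResidueField 𝒪))
    exact Nat.card_pos.ne'
  exact pow_ne_zero _ h0

/-- **SELq-ALG**, general universe. -/
theorem selq_alg (n : ℕ) (A : Matrix (Fin n) (Fin n) 𝒪) (hA : A.det ≠ 0)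
    {Φ : Type*} [AddCommGroup Φ] [Module 𝒪 Φ] (X : Fin n → Φ)
    (hX : ∀ i, ∑ j, A i j • X j = 0) :
    Finite (Submodule.span 𝒪 (Set.range X)) ∧
      Nat.card (Submodule.span 𝒪 (Set.range X)) ≤ Nat.card (𝒪 ⧸ Ideal.span {A.det}) := by
  classical
  set N : Submodule 𝒪 (Fin n → 𝒪) := Submodule.span 𝒪 (Set.range fun i => A i) with hN
  have hcard := H12.card_quotient_span_rows n A hA
  haveI hfinI : Finite (𝒪 ⧸ Ideal.span {A.det}) := finite_quotient_span_singleton hA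
  haveI hfinQ : Finite ((Fin n → 𝒪) ⧸ N) := by
    apply Nat.finite_of_card_ne_zero
    rw [hcard]
    exact Nat.card_pos.ne'
  -- the map `c ↦ ∑ c j • X j`
  let L : (Fin n → 𝒪) →ₗ[𝒪] Φ := Fintype.linearCombination 𝒪 X
  have hL : ∀ c : Fin n → 𝒪, L c = ∑ j, c j • X j := fun c =>
    Fintype.linearCombination_apply 𝒪 X c
  have hrange : LinearMap.range L = Submodule.span 𝒪 (Set.range X) :=
    Fintype.range_linearCombination 𝒪 X
  have hker : N ≤ LinearMap.ker L := by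
    rw [hN, Submodule.span_le]
    rintro _ ⟨i, rfl⟩
    show L (A i) = 0
    rw [hL]
    exact hX i
  let Lq : ((Fin n → 𝒪) ⧸ N) →ₗ[𝒪] Φ := Submodule.liftQ N L hker
  have hrange' : LinearMap.range Lq = Submodule.span 𝒪 (Set.range X) := by
    rw [← hrange]
    exact Submodule.range_liftQ N L hker
  -- the surjection onto the span
  let g : ((Fin n → 𝒪) ⧸ N) → Submodule.span 𝒪 (Set.range X) := fun x =>
    ⟨Lq x, by rw [← hrange']; exact LinearMap.mem_range_self _ x⟩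
  have hg : Function.Surjective g := by
    rintro ⟨y, hy⟩
    rw [← hrange'] at hy
    obtain ⟨x, rfl⟩ := hy
    exact ⟨x, rfl⟩
  haveI : Finite (Submodule.span 𝒪 (Set.range X)) := Finite.of_surjective g hg
  refine ⟨inferInstance, ?_⟩
  rw [← hcard]
  exact Nat.card_le_card_of_surjective g hg

/-- **SELq-ALG**. -/
theorem stmt_SELqALG : Stmt_SELqALG := by
  intro 𝒪 _ _ _ _ n A hA Φ _ _ X hX
  exact selq_alg n A hA X hX

end Fermat.Agent.S59.Asm.H2

end
end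
-- ==== END Fermat.Agent.S59.Asm.H2_SelqAlg

-- ==== BEGIN Fermat.Agent.S59.Asm.H80_SelmerKer
section

set_option autoImplicit false
set_option linter.unusedSectionVars false
set_option linter.style.haveILetI false

open IsLocalRing

namespace Fermat.Agent.S59.Asm.H80

open Fermat.Agent.S53 Fermat.Agent.S59

section kerC

variable {𝒪 : Type} [CommRing 𝒪] [IsDomain 𝒪] [IsDiscreteValuationRing 𝒪]
  [IsAdicComplete (maximalIdeal 𝒪) 𝒪] [Finite (ResidueField 𝒪)]
variable {ρbar : ResidualGaloisRep (ResidueField 𝒪)}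

omit [IsDomain 𝒪] [IsDiscreteValuationRing 𝒪] [IsAdicComplete (maximalIdeal 𝒪) 𝒪]
  [Finite (ResidueField 𝒪)] in
theorem cond_iff_condB (p : ℕ) (fl : Bool) (Smin T : Finset ℕ) {A : Type} [CommRing A]
    [IsLocalRing A] [Algebra 𝒪 A] (ρ : GaloisRepAdic A) :
    cond 𝒪 p fl Smin T ρ ↔ H99.condB 𝒪 p fl Smin T ρ := by
  rw [H99.cond_eq_condB]

/-- If `π_* D'.ρ` is trivial on an inertia group over `q`, then `π` factors through `τ`. -/
theorem ker_le_ker_of_inertia_one (p : ℕ) [Fact p.Prime] (fl : Bool) (Smin Sig : Finset ℕ)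
    (q : ℕ) (hq : q.Prime)
    (D : GaloisRep.DeformationRingData 𝒪 ρbar (cond 𝒪 p fl Smin Sig))
    (D' : GaloisRep.DeformationRingData 𝒪 ρbar (cond 𝒪 p fl Smin (insert q Sig)))
    (τ : D'.R →ₐ[𝒪] D.R) (hτ : IsLocalHom (τ : D'.R →+* D.R))
    (heq : (D'.ρ.baseChangeAlong (τ : D'.R →+* D.R) hτ).IsEquiv D.ρ)
    (P : ValuationSubring (AlgebraicClosure ℚ)) (hP : P.LiesOverPrime q)
    (C : Type) [CommRing C] [IsLocalRing C] [IsNoetherianRing C]
    [IsAdicComplete (maximalIdeal C) C] [Algebra 𝒪 C] [IsLocalHom (algebraMap 𝒪 C)]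
    (hres : Function.Surjective (residue C ∘ algebraMap 𝒪 C))
    (π : D'.R →ₐ[𝒪] C) (hπ : IsLocalHom (π : D'.R →+* C))
    (hone : ∀ σ ∈ P.inertiaSubgroupIn ℚ,
      (D'.ρ.baseChangeAlong (π : D'.R →+* C) hπ).ρ σ = 1) :
    RingHom.ker (τ : D'.R →+* D.R) ≤ RingHom.ker (π : D'.R →+* C) := by
  have hp : p.Prime := Fact.out
  have hD' : H99.condB 𝒪 p fl Smin (insert q Sig) D'.ρ :=
    (cond_iff_condB p fl Smin (insert q Sig) D'.ρ).1 D'.isOfType
  have hresC : Finite (ResidueField C) :=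
    Fermat.Agent.S53.H50.finite_residueField_of_surjective 𝒪 C hres
  have hJ' : H99.condJ p Smin (insert q Sig) (D'.ρ.baseChangeAlong (π : D'.R →+* C) hπ) :=
    H99.condJ_baseChangeAlong (π : D'.R →+* C) hπ D'.ρ p Smin (insert q Sig) hD'.1
  have hL' : H99.locP fl p (D'.ρ.baseChangeAlong (π : D'.R →+* C) hπ) :=
    H99.locP_baseChangeAlong (π : D'.R →+* C) hπ hresC D'.ρ fl p hp hD'.2
  have hunr : (D'.ρ.baseChangeAlong (π : D'.R →+* C) hπ).IsUnramifiedAt q :=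
    isUnramifiedAt_of_inertia_one _ q hq P hP hone
  have hC' : cond 𝒪 p fl Smin (insert q Sig) (D'.ρ.baseChangeAlong (π : D'.R →+* C) hπ) :=
    (cond_iff_condB p fl Smin (insert q Sig) _).2 ⟨hJ', hL'⟩
  have hC : cond 𝒪 p fl Smin Sig (D'.ρ.baseChangeAlong (π : D'.R →+* C) hπ) := by
    refine (cond_iff_condB p fl Smin Sig _).2 ⟨⟨hJ'.1, fun q' hq' hq'S => ?_, hJ'.2.2⟩, hL'⟩
    by_cases hqq : q' = q
    · rw [hqq]; exact hunr
    · refine hJ'.2.1 q' hq' fun hmem => hq'S ?_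
      rcases Finset.mem_union.1 hmem with h | h
      · exact Finset.mem_union_left _ h
      · rcases Finset.mem_insert.1 h with h | h
        · exact absurd h hqq
        · exact Finset.mem_union_right _ h
  exact ker_le_ker_of_isOfType D D' τ hτ heq C hres π hπ hC hC'

/-- If `D'.ρ(σ) ≡ 1 mod J` for `σ` in an inertia group over `q`, then `ker τ ≤ J`. -/
theorem ker_le_of_inertia_mem (p : ℕ) [Fact p.Prime] (fl : Bool) (Smin Sig : Finset ℕ)
    (q : ℕ) (hq : q.Prime)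
    (D : GaloisRep.DeformationRingData 𝒪 ρbar (cond 𝒪 p fl Smin Sig))
    (D' : GaloisRep.DeformationRingData 𝒪 ρbar (cond 𝒪 p fl Smin (insert q Sig)))
    (τ : D'.R →ₐ[𝒪] D.R) (hτ : IsLocalHom (τ : D'.R →+* D.R))
    (heq : (D'.ρ.baseChangeAlong (τ : D'.R →+* D.R) hτ).IsEquiv D.ρ)
    (P : ValuationSubring (AlgebraicClosure ℚ)) (hP : P.LiesOverPrime q)
    (J : Ideal D'.R) (hJ : J ≠ ⊤)
    (hJI : ∀ σ ∈ P.inertiaSubgroupIn ℚ, ∀ v : D'.ρ.V,
      D'.ρ.ρ σ v - v ∈ J • (⊤ : Submodule D'.R D'.ρ.V)) :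
    RingHom.ker (τ : D'.R →+* D.R) ≤ J := by
  classical
  letI : IsLocalRing (D'.R ⧸ J) := Fermat.Agent.L.Pivot.H52.isLocalRing_quotient J hJ
  haveI : IsAdicComplete (maximalIdeal (D'.R ⧸ J)) (D'.R ⧸ J) :=
    Fermat.Agent.L.Pivot.H52.isAdicComplete_quotient J hJ
  haveI hmk : IsLocalHom (Ideal.Quotient.mk J) :=
    Fermat.Agent.L.Pivot.H52.isLocalHom_quotient_mk J hJ
  haveI : IsLocalHom (algebraMap 𝒪 (D'.R ⧸ J)) := by
    refine ⟨fun a ha => ?_⟩
    have h1 : IsUnit (algebraMap 𝒪 D'.R a) := isUnit_of_map_unit (Ideal.Quotient.mk J) _ ha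
    exact isUnit_of_map_unit (algebraMap 𝒪 D'.R) a h1
  have hres : Function.Surjective (residue (D'.R ⧸ J) ∘ algebraMap 𝒪 (D'.R ⧸ J)) := by
    intro y
    obtain ⟨c, rfl⟩ := residue_surjective y
    obtain ⟨a, rfl⟩ := Ideal.Quotient.mk_surjective c
    obtain ⟨c0, hc0⟩ := exists_sub_mem_maximalIdeal D'.residue_surjective a
    refine ⟨c0, ?_⟩
    simp only [Function.comp_apply]
    rw [← sub_eq_zero, ← map_sub, residue_eq_zero_iff]
    have h2 := Fermat.Agent.L.Pivot.H52.mk_mem_maximalIdeal J hJ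
      ((maximalIdeal D'.R).neg_mem hc0)
    have e : Ideal.Quotient.mk J (-(a - algebraMap 𝒪 D'.R c0)) =
        algebraMap 𝒪 (D'.R ⧸ J) c0 - Ideal.Quotient.mk J a := by
      rw [neg_sub, map_sub]; rfl
    rw [e] at h2
    exact h2
  have hπ : IsLocalHom ((Ideal.Quotient.mkₐ 𝒪 J : D'.R →ₐ[𝒪] D'.R ⧸ J) : D'.R →+* D'.R ⧸ J) :=
    hmk
  have hone : ∀ σ ∈ P.inertiaSubgroupIn ℚ,
      (D'.ρ.baseChangeAlong ((Ideal.Quotient.mkₐ 𝒪 J : D'.R →ₐ[𝒪] D'.R ⧸ J) :
        D'.R →+* D'.R ⧸ J) hπ).ρ σ = 1 := by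
    intro σ hσ
    obtain ⟨r, b, hb⟩ := exists_isMatOf D'.ρ
    obtain ⟨bC, hbC⟩ := IsMatOf.baseChangeAlong
      ((Ideal.Quotient.mkₐ 𝒪 J : D'.R →ₐ[𝒪] D'.R ⧸ J) : D'.R →+* D'.R ⧸ J) hπ
      (⟨b, hb⟩ : IsMatOf D'.ρ r)
    apply (LinearMap.toMatrix bC bC).injective
    rw [hbC σ, LinearMap.toMatrix_one]
    ext i j
    have h1 : (Fermat.Agent.S59.TWGal.mat b (D'.ρ.ρ σ) - 1) i j ∈ J :=
      Fermat.Agent.S59.TWGal.mat_sub_one_mem b J (D'.ρ.ρ σ) (hJI σ hσ) i j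
    have h2 : Fermat.Agent.S59.TWGal.mat b (D'.ρ.ρ σ) = r σ := hb σ
    rw [h2] at h1
    have h3 : Ideal.Quotient.mk J ((r σ - 1) i j) = 0 := Ideal.Quotient.eq_zero_iff_mem.2 h1
    rw [Matrix.sub_apply, map_sub, sub_eq_zero] at h3
    change Ideal.Quotient.mk J (r σ i j) = _
    rw [h3]
    by_cases hij : i = j
    · rw [hij, Matrix.one_apply_eq, Matrix.one_apply_eq, map_one]
    · rw [Matrix.one_apply_ne hij, Matrix.one_apply_ne hij, map_zero]
  have key := ker_le_ker_of_inertia_one p fl Smin Sig q hq D D' τ hτ heq P hP (D'.R ⧸ J) hres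
    (Ideal.Quotient.mkₐ 𝒪 J) hπ hone
  intro y hy
  have h1 := key hy
  rw [RingHom.mem_ker] at h1
  exact Ideal.Quotient.eq_zero_iff_mem.1 h1

end kerC

end Fermat.Agent.S59.Asm.H80

end
-- ==== END Fermat.Agent.S59.Asm.H80_SelmerKer

-- ==== BEGIN Fermat.Agent.S59.CaseC.Geom.H13_PDeg2Mem
section

/-!
# S59 / case C / PGEOM, leaf P-DEG2 (helper13): the operators preserve the Betti lattices

* `inBetti_TB`, `inBetti_UB` : `T_q` (`q ∤ M`), `U_q` (`q ∣ M`) preserve `InBetti` at the level `M`;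
* `inBetti_res1/2`, `inBetti_cor1/2` : the degeneracy maps between the levels `N` and `N p`
  (from `Stmt_PRELT`);
* `via_mem`, `via_exists`, `via_val_iff` : for an embedding `ι` with `IsBettiVia`, `ι v` has values
  in `𝔪` iff `v ∈ 𝔪 V`;
* `isCuspidal_of_parabolic`, `isCuspidal_red` : reduction modulo `𝔪` of a parabolic homomorphism
  is cuspidal.
-/

set_option autoImplicit false
set_option linter.unusedSectionVars false

open Polynomial CuspForm CongruenceSubgroup IsLocalRing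
open scoped MatrixGroups

namespace Fermat.Agent.S59.CaseC.Geom.H13

open Fermat.Agent.S41 Fermat.Agent.Betti Fermat.Agent.S59 Fermat.Agent.S59.Asm
  Fermat.Agent.S59.NonMin Fermat.Agent.S59.NonMin.Geom Fermat.Agent.S59.CaseC
  Fermat.Agent.S59.CaseC.Geom
open ModularCurve.Period

section Mem

variable {𝒪 : Type} [CommRing 𝒪] [IsDomain 𝒪] [IsDiscreteValuationRing 𝒪] [CharZero 𝒪]

/-- `T_q` preserves the Betti lattice. -/
theorem inBetti_TB {M : ℕ} [NeZero M] {S : Set ℕ}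
    {θ : CuspForm.heckeAlgebra M 2 S →+* ResidueField 𝒪} {Sig : Finset ℕ}
    (hSig : ∀ r ∈ Sig, r.Prime) {q : ℕ} (hq : q.Prime) (hqM : ¬ q ∣ M)
    {φ : Additive (Gamma0 M) →+ 𝒪} (h : InBetti 𝒪 M S θ Sig φ) :
    InBetti 𝒪 M S θ Sig (TB M 𝒪 hq hqM φ) := by
  have := H48.inBetti_map (θ₁ := θ) (θ₂ := θ) (Sig := Sig) (H48.TBl 𝒪 M hq hqM)
    (fun φ hφ => H53.TB_par 𝒪 hq hqM φ hφ)
    (fun r hr hr₂ => ⟨hr₂, fun φ hφ => H53.UB_TB_comm 𝒪 (hSig r hr) hr₂ hq hqM φ hφ⟩)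
    (fun ℓ hℓ hℓN hℓS => ⟨hℓN, hℓS, rfl, fun φ hφ => H53.TB_TB_comm 𝒪 hℓ hℓN hq hqM φ hφ⟩) h
  exact this

/-- `U_q` preserves the Betti lattice. -/
theorem inBetti_UB {M : ℕ} [NeZero M] {S : Set ℕ}
    {θ : CuspForm.heckeAlgebra M 2 S →+* ResidueField 𝒪} {Sig : Finset ℕ}
    (hSig : ∀ r ∈ Sig, r.Prime) {q : ℕ} (hq : q.Prime) (hqM : q ∣ M)
    {φ : Additive (Gamma0 M) →+ 𝒪} (h : InBetti 𝒪 M S θ Sig φ) :
    InBetti 𝒪 M S θ Sig (UB M 𝒪 hqM φ) := by
  have := H48.inBetti_map (θ₁ := θ) (θ₂ := θ) (Sig := Sig) (H48.UBl 𝒪 M hqM)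
    (fun φ hφ => H53.UB_par 𝒪 hqM φ hφ)
    (fun r hr hr₂ => ⟨hr₂, fun φ hφ => H53.UB_UB_comm 𝒪 (hSig r hr) hr₂ hq hqM φ hφ⟩)
    (fun ℓ hℓ hℓN hℓS => ⟨hℓN, hℓS, rfl, fun φ hφ => H53.TB_UB_comm 𝒪 hq hqM hℓ hℓN φ hφ⟩) h
  exact this

variable {N p : ℕ} [NeZero N] [NeZero (N * p)] {S : Set ℕ}
  {θ : CuspForm.heckeAlgebra N 2 S →+* ResidueField 𝒪}
  {rest : CuspForm.heckeAlgebra (N * p) 2 S →+* CuspForm.heckeAlgebra N 2 S} {Sig : Finset ℕ}

theorem not_dvd_of_mul {ℓ : ℕ} (h : ¬ ℓ ∣ N * p) : ¬ ℓ ∣ N :=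
  fun h' => h (dvd_mul_of_dvd_left h' p)

theorem not_dvd_mul {ℓ : ℕ} (hℓ : ℓ.Prime) (hp : p.Prime) (h : ¬ ℓ ∣ N) (hne : ℓ ≠ p) :
    ¬ ℓ ∣ N * p := by
  intro h'
  rcases (Nat.Prime.dvd_mul hℓ).1 h' with h1 | h1
  · exact h h1
  · exact hne ((Nat.prime_dvd_prime_iff_eq hℓ hp).1 h1)

theorem inBetti_res1 (hRELT : Stmt_PRELT) (hp : p.Prime) (hpN : ¬ p ∣ N)
    (hSig : ∀ r ∈ Sig, r.Prime ∧ r ≠ p)
    (hrest : ∀ (ℓ : ℕ) (hℓ : ℓ.Prime) (hℓN' : ¬ ℓ ∣ N * p) (hℓS : ℓ ∉ S) (hℓN : ¬ ℓ ∣ N),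
      rest (CuspForm.heckeAlgebra.T hℓ hℓN' hℓS) = CuspForm.heckeAlgebra.T hℓ hℓN hℓS)
    {φ : Additive (Gamma0 N) →+ 𝒪} (h : InBetti 𝒪 N S θ Sig φ) :
    InBetti 𝒪 (N * p) S (θ.comp rest) Sig (res1 N p 𝒪 φ) := by
  obtain ⟨hT, hU, hparR, -⟩ := hRELT N p hp hpN 𝒪
  have := H48.inBetti_map (θ₁ := θ) (θ₂ := θ.comp rest) (Sig := Sig) (H48.resL 𝒪 (inclG N p))
    (fun φ hφ => (hparR φ hφ).1)
    (fun r hr hr₂ => by
      have hrN : r ∣ N := by
        rcases (Nat.Prime.dvd_mul (hSig r hr).1).1 hr₂ with h1 | h1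
        · exact h1
        · exact absurd ((Nat.prime_dvd_prime_iff_eq (hSig r hr).1 hp).1 h1) (hSig r hr).2
      exact ⟨hrN, fun φ _ => ((hU r (hSig r hr).1 hrN hr₂).1 φ).1⟩)
    (fun ℓ hℓ hℓN' hℓS => ⟨not_dvd_of_mul hℓN', hℓS, by
        rw [RingHom.comp_apply, hrest ℓ hℓ hℓN' hℓS (not_dvd_of_mul hℓN')],
      fun φ _ => ((hT ℓ hℓ (not_dvd_of_mul hℓN') hℓN').1 φ).1⟩) h
  exact this

theorem inBetti_res2 (hRELT : Stmt_PRELT) (hp : p.Prime) (hpN : ¬ p ∣ N)
    (hSig : ∀ r ∈ Sig, r.Prime ∧ r ≠ p)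
    (hrest : ∀ (ℓ : ℕ) (hℓ : ℓ.Prime) (hℓN' : ¬ ℓ ∣ N * p) (hℓS : ℓ ∉ S) (hℓN : ¬ ℓ ∣ N),
      rest (CuspForm.heckeAlgebra.T hℓ hℓN' hℓS) = CuspForm.heckeAlgebra.T hℓ hℓN hℓS)
    {φ : Additive (Gamma0 N) →+ 𝒪} (h : InBetti 𝒪 N S θ Sig φ) :
    InBetti 𝒪 (N * p) S (θ.comp rest) Sig (res2 N p 𝒪 φ) := by
  obtain ⟨hT, hU, hparR, -⟩ := hRELT N p hp hpN 𝒪
  have := H48.inBetti_map (θ₁ := θ) (θ₂ := θ.comp rest) (Sig := Sig) (H48.resL 𝒪 (conjG N p))
    (fun φ hφ => (hparR φ hφ).2.1)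
    (fun r hr hr₂ => by
      have hrN : r ∣ N := by
        rcases (Nat.Prime.dvd_mul (hSig r hr).1).1 hr₂ with h1 | h1
        · exact h1
        · exact absurd ((Nat.prime_dvd_prime_iff_eq (hSig r hr).1 hp).1 h1) (hSig r hr).2
      exact ⟨hrN, fun φ _ => ((hU r (hSig r hr).1 hrN hr₂).1 φ).2.1⟩)
    (fun ℓ hℓ hℓN' hℓS => ⟨not_dvd_of_mul hℓN', hℓS, by
        rw [RingHom.comp_apply, hrest ℓ hℓ hℓN' hℓS (not_dvd_of_mul hℓN')],
      fun φ _ => ((hT ℓ hℓ (not_dvd_of_mul hℓN') hℓN').1 φ).2.1⟩) h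
  exact this

theorem inBetti_cor1 (hRELT : Stmt_PRELT) (hp : p.Prime) (hpN : ¬ p ∣ N) (hpS : p ∈ S)
    (hSig : ∀ r ∈ Sig, r.Prime ∧ r ≠ p)
    (hrest : ∀ (ℓ : ℕ) (hℓ : ℓ.Prime) (hℓN' : ¬ ℓ ∣ N * p) (hℓS : ℓ ∉ S) (hℓN : ¬ ℓ ∣ N),
      rest (CuspForm.heckeAlgebra.T hℓ hℓN' hℓS) = CuspForm.heckeAlgebra.T hℓ hℓN hℓS)
    {ψ : Additive (Gamma0 (N * p)) →+ 𝒪} (h : InBetti 𝒪 (N * p) S (θ.comp rest) Sig ψ) :
    InBetti 𝒪 N S θ Sig (cor1 N p 𝒪 ψ) := by
  obtain ⟨hT, hU, -, hparC⟩ := hRELT N p hp hpN 𝒪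
  have := H48.inBetti_map (θ₁ := θ.comp rest) (θ₂ := θ) (Sig := Sig) (H48.corL 𝒪 (inclG N p))
    (fun ψ hψ => (hparC ψ hψ).1)
    (fun r hr hr₂ => ⟨dvd_mul_of_dvd_left hr₂ p, fun ψ _ =>
      (((hU r (hSig r hr).1 hr₂ (dvd_mul_of_dvd_left hr₂ p)).2 ψ).1).symm⟩)
    (fun ℓ hℓ hℓN hℓS => by
      have hne : ℓ ≠ p := fun h => hℓS (h ▸ hpS)
      have hℓN' : ¬ ℓ ∣ N * p := not_dvd_mul hℓ hp hℓN hne
      exact ⟨hℓN', hℓS, by rw [RingHom.comp_apply, hrest ℓ hℓ hℓN' hℓS hℓN],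
        fun ψ _ => (((hT ℓ hℓ hℓN hℓN').2 ψ).1).symm⟩) h
  exact this

theorem inBetti_cor2 (hRELT : Stmt_PRELT) (hp : p.Prime) (hpN : ¬ p ∣ N) (hpS : p ∈ S)
    (hSig : ∀ r ∈ Sig, r.Prime ∧ r ≠ p)
    (hrest : ∀ (ℓ : ℕ) (hℓ : ℓ.Prime) (hℓN' : ¬ ℓ ∣ N * p) (hℓS : ℓ ∉ S) (hℓN : ¬ ℓ ∣ N),
      rest (CuspForm.heckeAlgebra.T hℓ hℓN' hℓS) = CuspForm.heckeAlgebra.T hℓ hℓN hℓS)
    {ψ : Additive (Gamma0 (N * p)) →+ 𝒪} (h : InBetti 𝒪 (N * p) S (θ.comp rest) Sig ψ) :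
    InBetti 𝒪 N S θ Sig (cor2 N p 𝒪 ψ) := by
  obtain ⟨hT, hU, -, hparC⟩ := hRELT N p hp hpN 𝒪
  have := H48.inBetti_map (θ₁ := θ.comp rest) (θ₂ := θ) (Sig := Sig) (H48.corL 𝒪 (conjG N p))
    (fun ψ hψ => (hparC ψ hψ).2)
    (fun r hr hr₂ => ⟨dvd_mul_of_dvd_left hr₂ p, fun ψ _ =>
      (((hU r (hSig r hr).1 hr₂ (dvd_mul_of_dvd_left hr₂ p)).2 ψ).2).symm⟩)
    (fun ℓ hℓ hℓN hℓS => by
      have hne : ℓ ≠ p := fun h => hℓS (h ▸ hpS)
      have hℓN' : ¬ ℓ ∣ N * p := not_dvd_mul hℓ hp hℓN hne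
      exact ⟨hℓN', hℓS, by rw [RingHom.comp_apply, hrest ℓ hℓ hℓN' hℓS hℓN],
        fun ψ _ => (((hT ℓ hℓ hℓN hℓN').2 ψ).2).symm⟩) h
  exact this

end Mem

section Via

variable {𝒪 : Type} [CommRing 𝒪] [IsDomain 𝒪] [IsDiscreteValuationRing 𝒪]
  {M : ℕ} [NeZero M] {S : Set ℕ} {θ : CuspForm.heckeAlgebra M 2 S →+* ResidueField 𝒪}
  {Sig : Finset ℕ} {V : Type} [AddCommGroup V] [Module 𝒪 V]
  {ι : V →ₗ[𝒪] (Additive (Gamma0 M) →+ 𝒪)}

/-- `ι v` has values in `𝔪` iff `v ∈ 𝔪 V`. -/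
theorem via_val_iff (hinj : Function.Injective ι)
    (hrange : ∀ φ, φ ∈ Set.range ι ↔ InBetti 𝒪 M S θ Sig φ) (v : V) :
    (∀ γ, ι v γ ∈ maximalIdeal 𝒪) ↔ v ∈ (maximalIdeal 𝒪 • ⊤ : Submodule 𝒪 V) := by
  constructor
  · intro h
    obtain ⟨ϖ, hϖ⟩ := IsDiscreteValuationRing.exists_irreducible 𝒪
    have hm : ι v ∈ H48.Mval 𝒪 (Additive (Gamma0 M)) 1 := by
      intro γ
      rw [pow_one]
      exact h γ
    obtain ⟨φ', h1, h2⟩ := H48.exists_inBetti_smul hϖ ((hrange _).1 ⟨v, rfl⟩) hm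
    obtain ⟨v', rfl⟩ := (hrange _).2 h2
    rw [pow_one, ← map_smul] at h1
    rw [hinj h1]
    exact Submodule.smul_mem_smul
      ((mem_maximalIdeal ϖ).2 hϖ.not_isUnit) Submodule.mem_top
  · intro h γ
    refine Submodule.smul_induction_on (p := fun w => ι w γ ∈ maximalIdeal 𝒪) h ?_ ?_
    · intro a ha w _
      rw [map_smul]
      exact Ideal.mul_mem_right _ _ ha
    · intro x y hx hy
      rw [map_add]
      exact Ideal.add_mem _ hx hy

end Via

section Cusp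

/-- A parabolic homomorphism with values in a group without `12`-torsion is cuspidal. -/
theorem isCuspidal_of_parabolic {M : ℕ} {A : Type*} [AddCommGroup A]
    (hA : ∀ a : A, (12 : ℕ) • a = 0 → a = 0) {φ : Additive (Gamma0 M) →+ A}
    (h : IsParabolicHom (Gamma0 M) φ) : IsCuspidalHom (Gamma0 M) φ := by
  intro γ hγ
  rcases hγ.lt_or_eq with hlt | heq
  · have h12 : (γ : SL(2, ℤ)) ^ 12 = 1 := Fermat.Agent.S16.H38.pow_twelve_eq_one_of_trace _ hlt
    have h12' : γ ^ 12 = 1 := Subtype.ext h12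
    have : (12 : ℕ) • φ (Additive.ofMul γ) = 0 := by
      rw [← map_nsmul, ← ofMul_pow, h12', ofMul_one, map_zero]
    exact hA _ this
  · exact h γ heq

/-- reduction of a homomorphism modulo the maximal ideal -/
noncomputable def redk (𝒪 : Type) [CommRing 𝒪] [IsLocalRing 𝒪] {G : Type*} [AddGroup G] (φ : G →+ 𝒪) :
    G →+ ResidueField 𝒪 :=
  (residue 𝒪).toAddMonoidHom.comp φ

theorem redk_apply {𝒪 : Type} [CommRing 𝒪] [IsLocalRing 𝒪] {G : Type*} [AddGroup G]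
    (φ : G →+ 𝒪) (γ : G) : redk 𝒪 φ γ = residue 𝒪 (φ γ) := rfl

theorem redk_eq_zero_iff {𝒪 : Type} [CommRing 𝒪] [IsLocalRing 𝒪] {G : Type*} [AddGroup G]
    (φ : G →+ 𝒪) : redk 𝒪 φ = 0 ↔ ∀ γ, φ γ ∈ maximalIdeal 𝒪 := by
  constructor
  · intro h γ
    have := DFunLike.congr_fun h γ
    rw [redk_apply] at this
    exact (residue_eq_zero_iff _).1 this
  · intro h
    refine AddMonoidHom.ext fun γ => ?_
    rw [redk_apply]
    exact (residue_eq_zero_iff _).2 (h γ)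

theorem isCuspidal_redk {𝒪 : Type} [CommRing 𝒪] [IsLocalRing 𝒪] {M : ℕ}
    {φ : Additive (Gamma0 M) →+ 𝒪} (h : IsCuspidalHom (Gamma0 M) φ) :
    IsCuspidalHom (Gamma0 M) (redk 𝒪 φ) := by
  intro γ hγ
  rw [redk_apply, h γ hγ, map_zero]

end Cusp

end Fermat.Agent.S59.CaseC.Geom.H13

end
-- ==== END Fermat.Agent.S59.CaseC.Geom.H13_PDeg2Mem

-- ==== BEGIN Fermat.Agent.S59.CaseC.Geom.H53_PFin
section

/-!
# S59 / case C / PGEOM, assembly P-ASM, second half P-FIN (helper53)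

`stmt_PFIN : Stmt_PFIN` : from the package `Deg2Data` (`Stmt_PDEG2`), the algebra (`Stmt_PALG`),
the link with the Galois side (`Stmt_PLINK`) and multiplicity one (`Stmt_PRANK`) to the clause at
`p` (`Stmt_PSTEPB`).

No `sorry`.
-/

set_option autoImplicit false

open Polynomial CuspForm CongruenceSubgroup IsLocalRing
open scoped MatrixGroups

namespace Fermat.Agent.S59.CaseC.Geom.H53

open Fermat.Agent.S41 Fermat.Agent.Betti Fermat.Agent.S59 Fermat.Agent.S59.Asm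
  Fermat.Agent.S59.NonMin Fermat.Agent.S59.NonMin.Geom Fermat.Agent.S59.CaseC
  Fermat.Agent.S59.CaseC.Geom
open ModularCurve.Period

/-- The Galois group of `ℚ`. -/
local notation "Γℚ" => AlgebraicClosure ℚ ≃ₐ[ℚ] AlgebraicClosure ℚ

/-! ## 1. The eigenvalue on the quotient by the ordinary line is a unit -/

/-- The eigenvalue of `ρ(g)` on the quotient by a line is a unit. -/
theorem isUnit_of_isQuotEigen {A : Type} [CommRing A] [IsLocalRing A] {ρ : GaloisRepAdic A}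
    {P : ValuationSubring (AlgebraicClosure ℚ)} (ℒ : OrdLine ρ P) {g : Γℚ} {z : A}
    (hz : ℒ.IsQuotEigen g z) : IsUnit z := by
  obtain ⟨b, hb⟩ := ℒ.isLine
  have h1 := hz (ρ.ρ g⁻¹ (b 1))
  have h2 : ρ.ρ g (ρ.ρ g⁻¹ (b 1)) = b 1 := by
    rw [← Module.End.mul_apply, ← map_mul, mul_inv_cancel, map_one, Module.End.one_apply]
  rw [h2, hb, Submodule.mem_span_singleton] at h1
  obtain ⟨a, ha⟩ := h1
  have h3 := congrArg (fun v => b.repr v 1) ha
  simp only [map_smul, map_sub, Module.Basis.repr_self, Finsupp.smul_apply, Finsupp.sub_apply,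
    Finsupp.single_apply, smul_eq_mul] at h3
  simp only [Fin.isValue, zero_ne_one, ↓reduceIte, mul_zero] at h3
  refine IsUnit.of_mul_eq_one (b.repr (ρ.ρ g⁻¹ (b 1)) 1) ?_
  linear_combination h3

/-! ## 2. Two lemmas of linear algebra over a local ring -/

section Alg

variable {𝒪 : Type} [CommRing 𝒪] [IsLocalRing 𝒪] {L : Type} [AddCommGroup L] [Module 𝒪 L]
  [Module.Finite 𝒪 L]

/-- `1 - a X` is injective for `a` in the maximal ideal. -/
theorem injective_one_sub_smul (X : Module.End 𝒪 L) {a : 𝒪} (ha : a ∈ maximalIdeal 𝒪) :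
    Function.Injective ((1 : Module.End 𝒪 L) - a • X) := by
  have hsurj : Function.Surjective ((1 : Module.End 𝒪 L) - a • X) := by
    rw [← LinearMap.range_eq_top]
    apply top_le_iff.mp
    refine Submodule.le_of_le_smul_of_le_jacobson_bot (I := maximalIdeal 𝒪)
      (Module.Finite.fg_top) ?_ ?_
    · rw [IsLocalRing.jacobson_eq_maximalIdeal ⊥ bot_ne_top]
    · intro v _
      have : v = ((1 : Module.End 𝒪 L) - a • X) v + a • X v := by
        simp
      rw [this]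
      exact Submodule.add_mem _ (Submodule.mem_sup_left ⟨v, rfl⟩)
        (Submodule.mem_sup_right (Submodule.smul_mem_smul ha Submodule.mem_top))
  exact OrzechProperty.injective_of_surjective_endomorphism _ hsurj

end Alg

/-! ## 3. The arithmetic of the level -/

/-- The primes of the level of a state of the class `G` are in `S`. -/
theorem prime_dvd_mem {p : ℕ} {Smin : Finset ℕ} {N₀ : ℕ} {Sig : Finset ℕ} {N : ℕ} {S : Finset ℕ}
    (hG : GeomHyp p Smin N₀ Sig N S) {r : ℕ} (hr : r.Prime) (hrN : r ∣ N) : r ∈ S := by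
  rw [hG.hS, Finset.mem_union]
  rw [hG.hN] at hrN
  rcases (Nat.Prime.dvd_mul hr).mp hrN with h | h
  · exact Or.inl (hG.hN₀S r hr h)
  · obtain ⟨r', hr', hd⟩ := (Prime.dvd_finsetProd_iff hr.prime _).mp h
    have h1 : r ∣ r' := hr.dvd_of_dvd_pow hd
    have h2 : r = r' := (Nat.prime_dvd_prime_iff_eq hr (hG.hSig r' hr').1).mp h1
    exact Or.inr (h2 ▸ hr')

/-! ## 4. The second half of the assembly -/

section Main

variable {𝒪 : Type} [CommRing 𝒪] [IsDomain 𝒪] [IsDiscreteValuationRing 𝒪]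

/-- The computation of the unit root at a point: if `u T_p v = (u² + p) v` with `u` a unit, then
the unit root `Uu` of `X² - T_p X + p` acts on `v` by `u`. -/
theorem unitRoot_at_point {L : Type} [AddCommGroup L] [Module 𝒪 L] [Module.Finite 𝒪 L]
    {p : ℕ} (hp𝒪 : (p : 𝒪) ∈ maximalIdeal 𝒪)
    (Tp Uu Ui : Module.End 𝒪 L) (hUiUu : Ui * Uu = 1)
    (hroot : Uu * Uu - Tp * Uu + (p : 𝒪) • (1 : Module.End 𝒪 L) = 0)
    (hcomm : Commute Tp Uu) (u : 𝒪ˣ) (v : L)
    (hv : (u : 𝒪) • Tp v = ((u : 𝒪) ^ 2 + (p : 𝒪)) • v) :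
    Uu v = (u : 𝒪) • v ∧ Ui v = ((u⁻¹ : 𝒪ˣ) : 𝒪) • v := by
  have hUi : ∀ x : L, Ui (Uu x) = x := fun x => by
    have := congrArg (fun f : Module.End 𝒪 L => f x) hUiUu
    simpa [Module.End.mul_apply] using this
  have h1 : Uu (Uu v) - Tp (Uu v) + (p : 𝒪) • v = 0 := by
    have := congrArg (fun f : Module.End 𝒪 L => f v) hroot
    simpa [Module.End.mul_apply] using this
  have h2 : Tp (Uu v) = Uu (Tp v) := by
    have := congrArg (fun f : Module.End 𝒪 L => f v) hcomm.eq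
    simpa [Module.End.mul_apply] using this
  rw [h2] at h1
  have h4 : (u : 𝒪) • Uu (Tp v) = ((u : 𝒪) ^ 2 + (p : 𝒪)) • Uu v := by
    rw [← map_smul, hv, map_smul]
  have h3 : (u : 𝒪) • Uu (Uu v - (u : 𝒪) • v) = (p : 𝒪) • (Uu v - (u : 𝒪) • v) := by
    rw [map_sub, map_smul]
    linear_combination (norm := module) (u : 𝒪) • h1 + h4
  -- `y = a Ui y`, `a = u⁻¹ p`
  set y : L := Uu v - (u : 𝒪) • v with hy
  have ha : ((u⁻¹ : 𝒪ˣ) : 𝒪) * (p : 𝒪) ∈ maximalIdeal 𝒪 := Ideal.mul_mem_left _ _ hp𝒪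
  have h5 : Uu y = (((u⁻¹ : 𝒪ˣ) : 𝒪) * (p : 𝒪)) • y := by
    have := congrArg (fun x : L => ((u⁻¹ : 𝒪ˣ) : 𝒪) • x) h3
    simp only [smul_smul] at this
    rwa [Units.inv_mul, one_smul] at this
  have h6 : ((1 : Module.End 𝒪 L) - (((u⁻¹ : 𝒪ˣ) : 𝒪) * (p : 𝒪)) • Ui) y = 0 := by
    rw [LinearMap.sub_apply, Module.End.one_apply, LinearMap.smul_apply, ← map_smul, ← h5, hUi,
      sub_self]
  have hy0 : y = 0 := injective_one_sub_smul Ui ha (by rw [h6, map_zero])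
  have hUv : Uu v = (u : 𝒪) • v := sub_eq_zero.mp hy0
  refine ⟨hUv, ?_⟩
  have h7 : v = (u : 𝒪) • Ui v := by
    conv_lhs => rw [← hUi v, hUv, map_smul]
  calc Ui v = ((u⁻¹ : 𝒪ˣ) : 𝒪) • ((u : 𝒪) • Ui v) := by
        rw [smul_smul, Units.inv_mul, one_smul]
    _ = ((u⁻¹ : 𝒪ˣ) : 𝒪) • v := by rw [← h7]

end Main

set_option maxHeartbeats 1600000 in
/-- **P-FIN**: the second half of the assembly of the step at `p`. -/
theorem stmt_PFIN : Stmt_PFIN := by
  intro hDEG hBM hALG hLINK hRANK 𝒪 _ _ _ _ _ _ p hpF hp2 hp𝒪 ρbar Smin hyp hfl hord N₀ Sig s hG hF hB hpN _ _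
  have hp : p.Prime := hpF.out
  have hpS : p ∈ s.S := by rw [hG.hS]; exact Finset.mem_union_left _ hyp.hpSmin
  have hnew : ∀ q : ℕ, q.Prime → q ∣ s.N * p → ¬ q ∣ s.N → q ∈ (↑s.S : Set ℕ) := by
    intro q hq hqd hqN
    rcases (Nat.Prime.dvd_mul hq).mp hqd with h | h
    · exact absurd h hqN
    · rw [(Nat.prime_dvd_prime_iff_eq hq hp).mp h]; exact hpS
  obtain ⟨rest, hrest⟩ := Asm.H41.stmt_REST' s.N (s.N * p) (↑s.S : Set ℕ) (↑s.S : Set ℕ)
    (dvd_mul_right s.N p) (subset_refl _) hnew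
  have hrest_T : ∀ (ℓ : ℕ) (hℓ : ℓ.Prime) (hℓN' : ¬ ℓ ∣ s.N * p) (hℓS : ℓ ∉ (↑s.S : Set ℕ))
      (hℓN : ¬ ℓ ∣ s.N),
      rest (CuspForm.heckeAlgebra.T hℓ hℓN' hℓS) = CuspForm.heckeAlgebra.T hℓ hℓN hℓS :=
    fun ℓ hℓ hℓN' hℓS hℓN => hrest ℓ hℓ hℓN' hℓS hℓN hℓS
  obtain ⟨ι, hι⟩ := hB
  have hNpS : ∀ r : ℕ, r.Prime → r ∣ s.N * p → r ∈ s.S := by
    intro r hr hrd
    by_cases h : r ∣ s.N
    · exact prime_dvd_mem hG hr h
    · exact hnew r hr hrd h
  obtain ⟨M₀, ι', hι'⟩ :=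
    hBM 𝒪 (s.N * p) s.S hNpS (s.θ.comp rest) Sig (fun r hr => (hG.hSig r hr).1)
  have hh := hDEG 𝒪 p hp2 hp𝒪 ρbar Smin hyp hfl hord N₀ Sig s hG hF ι hι hpN
    rest hrest_T M₀ ι'
  have hh2 := hh hι'
  obtain ⟨d, hd12⟩ := hh2
  have hdT := hd12.1
  have hdU := hd12.2
  obtain ⟨Out⟩ := hALG 𝒪 rest s.θ d.toDeg2
  let _i1 := Out.iV1
  let _i2 := Out.iV2
  let _i3 := Out.iV3
  let _i4 := Out.iV4
  -- the ordinary part as a Hecke module
  let M' : HMod 𝒪 (s.N * p) (↑s.S : Set ℕ) (s.θ.comp rest) :=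
    { V := Out.V
      instAddCommGroup := Out.iV1
      instModule := Out.iV2
      instFinite := Out.iV3
      instFree := Out.iV4
      η := Out.η''
      η_local := Out.η''_local }
  let Uu : Module.End 𝒪 s.M.V := Out.Uu
  let Ui : Module.End 𝒪 s.M.V := Out.Ui
  let c : Module.End 𝒪 s.M.V :=
    Ui ∘ₗ (Uu ∘ₗ Uu - LinearMap.id) - (p : 𝒪) • (Ui ∘ₗ Ui ∘ₗ Ui ∘ₗ (Uu ∘ₗ Uu - LinearMap.id))
  have hd : p ∣ s.N * p := dvd_mul_left p s.N
  have hUpow : ∀ (n : ℕ) (w : M₀.V),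
      ι' ((d.U ^ n) w) = (UB (s.N * p) 𝒪 hd)^[n] (ι' w) := by
    intro n
    induction n with
    | zero => intro w; rfl
    | succ n ih =>
      intro w
      rw [pow_succ, Module.End.mul_apply, ih, hdU hd, Function.iterate_succ_apply]
  let ι'' : M'.V →ₗ[𝒪] (Additive (Gamma0 (s.N * p)) →+ 𝒪) := ι' ∘ₗ Out.ι
  have hinj : Function.Injective ι'' := hι'.1.comp Out.ι_inj
  have hrg : ∀ ψ, ψ ∈ Set.range ι'' ↔
      (InBetti 𝒪 (s.N * p) (↑s.S : Set ℕ) (s.θ.comp rest) Sig ψ ∧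
        ∀ n : ℕ, ∃ ψ', InBetti 𝒪 (s.N * p) (↑s.S : Set ℕ) (s.θ.comp rest) Sig ψ' ∧
          (UB (s.N * p) 𝒪 hd)^[n] ψ' = ψ) := by
    intro ψ
    constructor
    · rintro ⟨v, rfl⟩
      refine ⟨(hι'.2.1 _).mp ⟨Out.ι v, rfl⟩, fun n => ?_⟩
      obtain ⟨w', hw'⟩ := (Out.range_ι (Out.ι v)).mp ⟨v, rfl⟩ n
      exact ⟨ι' w', (hι'.2.1 _).mp ⟨w', rfl⟩, (hUpow n w').symm.trans (congrArg ι' hw')⟩
    · rintro ⟨h1, h2⟩
      obtain ⟨w, rfl⟩ := (hι'.2.1 _).mpr h1
      have h3 : w ∈ Set.range Out.ι := by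
        refine (Out.range_ι w).mpr fun n => ?_
        obtain ⟨ψ', hψ', hn⟩ := h2 n
        obtain ⟨w', rfl⟩ := (hι'.2.1 _).mpr hψ'
        exact ⟨w', hι'.1 ((hUpow n w').trans hn)⟩
      obtain ⟨v, rfl⟩ := h3
      exact ⟨v, rfl⟩
  have hT : ∀ (ℓ : ℕ) (hℓ : ℓ.Prime) (hℓN' : ¬ ℓ ∣ s.N * p) (hℓS : ℓ ∉ (↑s.S : Set ℕ))
      (w : M'.V), ι'' (M'.η (CuspForm.heckeAlgebra.T hℓ hℓN' hℓS) w)
        = TB (s.N * p) 𝒪 hℓ hℓN' (ι'' w) := by
    intro ℓ hℓ hℓN' hℓS w
    show ι' (Out.ι (Out.η'' (CuspForm.heckeAlgebra.T hℓ hℓN' hℓS) w)) = _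
    rw [Out.ι_η]
    exact hι'.2.2 ℓ hℓ hℓN' hℓS (Out.ι w)
  refine ⟨c, { rest := rest
               rest_T := hrest_T
               M' := M'
               α := Out.α
               α' := Out.α'
               α_η := Out.α_η
               α'_η := Out.α'_η
               α_inj := Out.α_inj
               α_sat := Out.α_sat
               α'_surj := Out.α'_surj
               comp := fun v => Out.comp v
               rank := fun x hx => hRANK 𝒪 p hp2 hp𝒪 ρbar Smin hyp N₀ Sig s hG hF ⟨ι, hι⟩ hpN hd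
                 rest hrest_T M' ι'' hinj hrg hT x hx }, ?_⟩
  -- the constant at a point
  intro H ηhat hπ hη hdet hres P hP ℒ g hg z hz πx
  obtain ⟨u, hu⟩ := (isUnit_of_isQuotEigen ℒ hz).map πx
  have hpu : ((u⁻¹ : 𝒪ˣ) : 𝒪) ^ 2 * (p : 𝒪) ∈ maximalIdeal 𝒪 := Ideal.mul_mem_left _ _ hp𝒪
  have hw : IsUnit (((u⁻¹ : 𝒪ˣ) : 𝒪) * (1 - ((u⁻¹ : 𝒪ˣ) : 𝒪) ^ 2 * (p : 𝒪))) :=
    (u⁻¹).isUnit.mul (IsLocalRing.isUnit_one_sub_self_of_mem_nonunits _ hpu)
  obtain ⟨w, hw⟩ := hw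
  refine ⟨w, fun v hv => ?_⟩
  have hlink := hLINK 𝒪 p hp2 hp𝒪 ρbar Smin hyp N₀ Sig s hG hF hp hpN ι hι.1 hι.2.1 hι.2.2
    H ηhat hπ hη hdet hres P hP ℒ g hg z hz πx v hv
  rw [← hu] at hlink ⊢
  have h1 : (u : 𝒪) • d.Tp v = ((u : 𝒪) ^ 2 + (p : 𝒪)) • v := by
    apply hι.1
    rw [map_smul, hdT hp hpN, hlink, map_smul]
  obtain ⟨hUu, hUi⟩ := unitRoot_at_point hp𝒪 d.Tp Uu Ui Out.Ui_Uu Out.Uu_root
    (Out.Uu_comm d.Tp (Commute.refl _)) u v h1
  have e1 : Uu (Uu v) - v = ((u : 𝒪) ^ 2 - 1) • v := by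
    rw [hUu, map_smul, hUu]
    module
  have e3 : ∀ a : 𝒪, Ui (a • v) = (a * ((u⁻¹ : 𝒪ˣ) : 𝒪)) • v := fun a => by
    rw [map_smul, hUi, smul_smul]
  show Ui (Uu (Uu v) - v) - (p : 𝒪) • Ui (Ui (Ui (Uu (Uu v) - v))) = _
  rw [e1, e3, e3, e3, smul_smul, ← sub_smul, hw]
  congr 1
  ring

end Fermat.Agent.S59.CaseC.Geom.H53

end
-- ==== END Fermat.Agent.S59.CaseC.Geom.H53_PFin

-- ==== BEGIN Fermat.Agent.S59.CaseC.Geom.H7_POrd
section

set_option autoImplicit false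
set_option linter.style.haveILetI false

open Polynomial IsLocalRing CuspForm CongruenceSubgroup
open scoped TensorProduct

namespace Fermat.Agent.S59.CaseC.Geom.H7

open Fermat.Agent.Betti Fermat.Agent.S59 Fermat.Agent.S59.NonMin Fermat.Agent.S59.NonMin.Geom
  Fermat.Agent.S59.CaseC Fermat.Agent.S59.CaseC.Geom

/-- The primes of the level of a state belong to `S`. -/
theorem geomHyp_mem {p : ℕ} {Smin : Finset ℕ} {N₀ : ℕ} {Sig : Finset ℕ} {N : ℕ} {S : Finset ℕ}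
    (hG : GeomHyp p Smin N₀ Sig N S) (q : ℕ) (hq : q.Prime) (hqN : q ∣ N) : q ∈ S := by
  rw [hG.hS]
  rw [hG.hN] at hqN
  rcases (Nat.Prime.dvd_mul hq).1 hqN with h | h
  · exact Finset.mem_union_left _ (hG.hN₀S q hq h)
  · obtain ⟨r, hr, hqr⟩ := (Prime.dvd_finsetProd_iff hq.prime _).1 h
    have h1 : q ∣ r := hq.dvd_of_dvd_pow hqr
    have h2 : q = r := (Nat.prime_dvd_prime_iff_eq hq (hG.hSig r hr).1).1 h1
    rw [h2]
    exact Finset.mem_union_right _ hr

/-- Base change of `FrobHyp` along an extension of the residue field. -/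
theorem frobHyp_baseChangeAlong {k k' : Type} [Field k] [Field k'] (φ : k →+* k')
    (ρbar : ResidualGaloisRep k) (N : ℕ) [NeZero N] (S : Finset ℕ)
    (θ : CuspForm.heckeAlgebra N 2 (↑S : Set ℕ) →+* k)
    (hθ : Fermat.Agent.S59.Datum.FrobHyp ρbar N S θ) :
    Fermat.Agent.S59.Datum.FrobHyp (ρbar.baseChangeAlong φ) N S (φ.comp θ) := by
  intro ℓ hℓ hℓN hℓS A hA σ hσ
  rw [Fermat.Agent.S59.Datum.H57.charpoly_baseChangeAlong, hθ ℓ hℓ hℓN hℓS A hA σ hσ]
  simp [Polynomial.map_sub, Polynomial.map_mul, Polynomial.map_pow]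

section Main

variable {𝒪 : Type} [CommRing 𝒪]

/-- The action of `𝒪 ⊗ H` on a stable lattice. -/
noncomputable def tensorAct {H : Type} [CommRing H] (L : Type) [AddCommGroup L] [Module 𝒪 L]
    (ρ₀ : H →+* Module.End 𝒪 L) : (𝒪 ⊗[ℤ] H) →ₐ[𝒪] Module.End 𝒪 L :=
  Algebra.TensorProduct.lift (Algebra.ofId 𝒪 (Module.End 𝒪 L)) ρ₀.toIntAlgHom
    (fun a t => (Algebra.commutes' a (ρ₀.toIntAlgHom t) :
      Commute (Algebra.ofId 𝒪 (Module.End 𝒪 L) a) (ρ₀.toIntAlgHom t)))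

theorem tensorAct_tmul {H : Type} [CommRing H] (L : Type) [AddCommGroup L] [Module 𝒪 L]
    (ρ₀ : H →+* Module.End 𝒪 L) (t : H) :
    tensorAct L ρ₀ ((1 : 𝒪) ⊗ₜ[ℤ] t) = ρ₀ t := by
  unfold tensorAct
  refine (Algebra.TensorProduct.lift_tmul _ _ _ 1 t).trans ?_
  rw [map_one, one_mul]
  rfl

end Main

/-- **P-ORD**: `T_p` is invertible on the Betti lattice of a state of level prime to `p`, if
`ρbar` is ordinary at `p` — from local–global compatibility at `p` at the points. -/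
theorem pord_of (hL : Stmt_LGCpt) : Stmt_PORD := by
  intro 𝒪 _ _ _ _ _ _ p _ hp2 hp𝒪 ρbar Smin hyp _ hord N₀ Sig N _ _ S hG θ hθ hp hpN φ hφ
  classical
  have hSig : ∀ q ∈ Sig, q.Prime := fun q hq => (hG.hSig q hq).1
  have hNS : ∀ q : ℕ, q.Prime → q ∣ N → q ∈ S := geomHyp_mem hG
  have hpS : p ∈ S := by
    rw [hG.hS]
    exact Finset.mem_union_left _ hyp.hpSmin
  have hpS' : p ∉ (↑(S.erase p) : Set ℕ) := by simp
  -- coordinates
  obtain ⟨r, b, hb⟩ := Fermat.Agent.Betti.stmt_basis N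
  obtain ⟨M, -, hMT, hMU⟩ := Fermat.Agent.Betti.H76.stmt_matrixRep N (∅ : Set ℕ) r b hb
  obtain ⟨ϖ, hϖ⟩ := IsDiscreteValuationRing.exists_irreducible 𝒪
  have htf : ∀ (a : 𝒪) (w : Fin r → 𝒪), a ≠ 0 → a • w = 0 → w = 0 := by
    intro a w ha h
    funext i
    have := congrFun h i
    simp only [Pi.smul_apply, smul_eq_mul, Pi.zero_apply] at this
    exact (mul_eq_zero.1 this).resolve_left ha
  -- the lattice
  set Lc : Submodule 𝒪 (Fin r → 𝒪) :=
    cutLattice (cutUs 𝒪 M Sig) (cutFs 𝒪 M (↑S : Set ℕ) θ) with hLc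
  have hst : ∀ (t : CuspForm.heckeAlgebra N 2 (∅ : Set ℕ)) (c : Fin r → 𝒪), c ∈ Lc →
      matEnd 𝒪 M t c ∈ Lc := by
    intro t c hc
    refine cutLattice_stable (matEnd 𝒪 M t) ?_ ?_ hc
    · rintro U ⟨q, hq, hqN, -, rfl⟩
      exact matEnd_commute 𝒪 M _ _
    · rintro F ⟨ℓ, hℓ, hℓN, hℓS, a, -, rfl⟩
      exact (matEnd_commute 𝒪 M _ _).sub_right (Algebra.commutes' a _).symm
  have hsat : ∀ c : Fin r → 𝒪, ϖ • c ∈ Lc → c ∈ Lc := fun c hc =>
    cutLattice_saturated htf hϖ hc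
  -- the action of the Hecke algebra
  let ρ₀ : CuspForm.heckeAlgebra N 2 (∅ : Set ℕ) →+* Module.End 𝒪 Lc :=
    restrictHom (matEnd 𝒪 M) Lc hst
  haveI : Module.Finite ℤ (CuspForm.heckeAlgebra N 2 (∅ : Set ℕ)) :=
    Fermat.Agent.S22.result N 2 ∅
  let Tp : CuspForm.heckeAlgebra N 2 (∅ : Set ℕ) :=
    CuspForm.heckeAlgebra.T hp hpN (Set.notMem_empty p)
  -- `T_p` is onto
  have hsurj : Function.Surjective (ρ₀ Tp) := by
    by_contra hns
    have hns' : ¬ Function.Surjective (tensorAct (𝒪 := 𝒪) Lc ρ₀ ((1 : 𝒪) ⊗ₜ[ℤ] Tp)) := by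
      rw [tensorAct_tmul]
      exact hns
    obtain ⟨𝒪', iCR, iD, iDVR, iAC, iFin, iCZ, iAlg, iLH, x, hxu, hxker⟩ :=
      exists_point_of_not_surjective 𝒪 (tensorAct (𝒪 := 𝒪) Lc ρ₀) _ hns'
    -- the character of the Hecke algebra away from `S ∖ {p}`
    let xh : CuspForm.heckeAlgebra N 2 (∅ : Set ℕ) →+* 𝒪' :=
      (x : (𝒪 ⊗[ℤ] CuspForm.heckeAlgebra N 2 (∅ : Set ℕ)) →+* 𝒪').comp
        (Algebra.TensorProduct.includeRight :
          CuspForm.heckeAlgebra N 2 (∅ : Set ℕ) →ₐ[ℤ]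
            𝒪 ⊗[ℤ] CuspForm.heckeAlgebra N 2 (∅ : Set ℕ)).toRingHom
    have hxh : ∀ t, xh t = x ((1 : 𝒪) ⊗ₜ[ℤ] t) := fun t => rfl
    let xt : CuspForm.heckeAlgebra N 2 (↑(S.erase p) : Set ℕ) →+* 𝒪' :=
      xh.comp (heckeIncl N (Set.empty_subset _))
    have hp𝒪' : (p : 𝒪') ∈ maximalIdeal 𝒪' := by
      have h1 : (p : 𝒪') = algebraMap 𝒪 𝒪' (p : 𝒪) := by rw [map_natCast]
      rw [h1]
      exact (mem_maximalIdeal _).2 (map_nonunit (algebraMap 𝒪 𝒪') _ ((mem_maximalIdeal _).1 hp𝒪))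
    have hunit := unit_Tp_of_lgc hL 𝒪' p hp2 hp𝒪'
      (ρbar.baseChangeAlong (ResidueField.map (algebraMap 𝒪 𝒪')))
      (Fermat.Agent.S59.Datum.H57.absIrr_baseChangeAlong _ ρbar hyp.habs)
      (Fermat.Agent.S59.NonMin.H7.resOrd_baseChangeAlong _ ρbar p hord)
      N S hpS hNS ((ResidueField.map (algebraMap 𝒪 𝒪')).comp θ)
      (frobHyp_baseChangeAlong _ ρbar N S θ hθ) hp hpN hpS' xt
      (by
        intro ℓ hℓ hℓN hℓS hℓS'
        obtain ⟨a, ha⟩ := residue_surjective (θ (CuspForm.heckeAlgebra.T hℓ hℓN hℓS))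
        have h1 : x ((1 : 𝒪) ⊗ₜ[ℤ] (CuspForm.heckeAlgebra.T hℓ hℓN (Set.notMem_empty ℓ) :
              CuspForm.heckeAlgebra N 2 (∅ : Set ℕ))) - algebraMap 𝒪 𝒪' a ∈ maximalIdeal 𝒪' := by
          refine point_sub_mem_of_nilp (tensorAct (𝒪 := 𝒪) Lc ρ₀) x hxker _ a ?_
          intro v
          obtain ⟨n, hn⟩ := v.2.2 _ ⟨ℓ, hℓ, hℓN, hℓS, a, ha, rfl⟩ 1
          refine ⟨n, mem_smul_top_of_saturated htf hϖ Lc hsat _ ?_⟩
          rw [tensorAct_tmul, restrictHom_sub_pow_coe]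
          rwa [pow_one] at hn
        have h2 : xt (CuspForm.heckeAlgebra.T hℓ hℓN hℓS') =
            x ((1 : 𝒪) ⊗ₜ[ℤ] (CuspForm.heckeAlgebra.T hℓ hℓN (Set.notMem_empty ℓ) :
              CuspForm.heckeAlgebra N 2 (∅ : Set ℕ))) := rfl
        rw [h2, RingHom.comp_apply, ← ha, ResidueField.map_residue]
        exact (Ideal.Quotient.eq).2 h1)
    have h3 : xt (CuspForm.heckeAlgebra.T hp hpN hpS') = x ((1 : 𝒪) ⊗ₜ[ℤ] Tp) := rfl
    rw [h3] at hunit
    exact (mem_maximalIdeal _).1 hxu hunit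
  -- conclusion
  obtain ⟨c, hc⟩ := exists_coord 𝒪 hb φ hφ.1
  have hcL : c ∈ Lc := by
    rw [hLc, ← inBetti_coord_iff 𝒪 hb M hMT hMU (↑S : Set ℕ) θ Sig hSig c, hc]
    exact hφ
  obtain ⟨v, hv⟩ := hsurj ⟨c, hcL⟩
  refine ⟨coord 𝒪 b (v : Fin r → 𝒪), ?_, ?_⟩
  · rw [inBetti_coord_iff 𝒪 hb M hMT hMU (↑S : Set ℕ) θ Sig hSig]
    exact v.2
  · rw [TB_coord 𝒪 M hMT hp hpN, ← hc]
    congr 1
    exact congrArg Subtype.val hv

end Fermat.Agent.S59.CaseC.Geom.H7

end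
-- ==== END Fermat.Agent.S59.CaseC.Geom.H7_POrd

-- ==== BEGIN Fermat.Agent.S59.CaseC.Geom.H90_PLinkFinal
section

/-!
# S59, case C, PGEOM, leaf P-LINK (helper90): final form

`stmt_PLINK_of : Stmt_LGCpt → Stmt_PLINK` (the Hecke algebra is reduced: `R.H58`; finite over
`ℤ`: `S22`; universal basis and matrix representation: `Betti`).
-/

set_option autoImplicit false

namespace Fermat.Agent.S59.CaseC.Geom.H90

open Fermat.Agent.S59.CaseC.Geom

/-- **P-LINK**, from the pointwise local–global compatibility at `p`. -/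
theorem stmt_PLINK_of (hLGC : Stmt_LGCpt) : Stmt_PLINK :=
  plink_of hLGC Fermat.Agent.R.H58.stmt_HeckeReduced
    (fun N _ S => Fermat.Agent.S22.result N 2 S)
    Fermat.Agent.Betti.stmt_basis Fermat.Agent.Betti.H76.stmt_matrixRep

end Fermat.Agent.S59.CaseC.Geom.H90

end
-- ==== END Fermat.Agent.S59.CaseC.Geom.H90_PLinkFinal

-- ==== BEGIN Fermat.Agent.S59.CaseC.H47_Bridge
section

/-!
# S59, case C (helper47): the leaves DEF-ord and TAU-p in the canonical (`CaseC`) interface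

`CaseC.condOrd` and `NonMin.condOrd` have the same body, so `NonMin.H47.stmt_DEFord` and
`NonMin.H47.stmt_TAUord` are `CaseC.Stmt_DEFord` and `CaseC.Stmt_TAUP`.
-/

set_option autoImplicit false

open IsLocalRing

namespace Fermat.Agent.S59.CaseC.H47

/-- the two definitions of the ordinary deformation condition agree -/
theorem condOrd_eq_nonMin : @Fermat.Agent.S59.CaseC.condOrd = @Fermat.Agent.S59.NonMin.condOrd :=
  rfl

/-- **DEF-ord**, canonical interface. -/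
theorem stmt_DEFord : Fermat.Agent.S59.CaseC.Stmt_DEFord :=
  Fermat.Agent.S59.NonMin.H47.stmt_DEFord

/-- **TAU-p**, canonical interface. -/
theorem stmt_TAUP : Fermat.Agent.S59.CaseC.Stmt_TAUP :=
  Fermat.Agent.S59.NonMin.H47.stmt_TAUord

end Fermat.Agent.S59.CaseC.H47

end
-- ==== END Fermat.Agent.S59.CaseC.H47_Bridge

-- ==== BEGIN Fermat.Agent.S59.LGC.H38_HopfK1
section

/-!
# S59, case C, LGC-p, leaf NUQ-a (helper38): the finite flat model with the reduction clause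

`hopfK1_of : Stmt_FLGenCoreK1 → Stmt_HopfK1`.

* `genRing_sub_lt` : the reduction clause passes from the generators `h j` to `genRing A h`.
* `exists_genData` : the proof of `Lib.HopfOrderLoc.localGen_of` with the global generators `F i`
  (elements of `genRing A h` fixed by `G_ℚ`) exposed.
* `exists_hopf_of_isHopfOrder` : the proof of `Lib.HopfOrder.absFlat_of_isHopfOrder` with
  `he : f.ofConv = ev (e f)` and `algebraMap (counit a) = ev 0 a` exposed.
-/

set_option autoImplicit false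
set_option linter.style.haveILetI false
set_option linter.unusedSectionVars false
set_option linter.unusedVariables false

open scoped TensorProduct
open WithConv

namespace Fermat.Agent.S59.LGC.H38

open Fermat.Agent.Lib.FrobExists Fermat.Agent.Lib.InertiaBridge Fermat.Agent.Lib.HopfOrder
open Fermat.Agent.Lib.InertiaLift Fermat.Agent.Lib.HopfOrderLoc Fermat.Agent.R.H54

attribute [local instance] qbar_isAlgebraic' qbar_isAlgClosure' qbar_isGalois'

local notation "K" => AlgebraicClosure ℚ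
local notation "GQ" => (AlgebraicClosure ℚ ≃ₐ[ℚ] AlgebraicClosure ℚ)

section Clause

variable {M ι : Type}

/-- The reduction clause passes from the generators to the ring they generate. -/
theorem genRing_sub_lt (A : ValuationSubring K) (h : ι → M → K)
    (integral : ∀ j x, h j x ∈ A) (x y : M) (hxy : ∀ j, A.valuation (h j x - h j y) < 1)
    {g : M → K} (hg : g ∈ genRing A.toSubring h) : A.valuation (g x - g y) < 1 := by
  induction hg using Subring.closure_induction with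
  | mem g hg =>
    rcases hg with ⟨a, ha, rfl⟩ | ⟨j, rfl⟩
    · rw [sub_self, map_zero]
      exact zero_lt_one
    · exact hxy j
  | zero =>
    show A.valuation ((0 : K) - 0) < 1
    rw [sub_self, map_zero]
    exact zero_lt_one
  | one =>
    show A.valuation ((1 : K) - 1) < 1
    rw [sub_self, map_zero]
    exact zero_lt_one
  | add g g' hg hg' ih ih' =>
    have : (g + g') x - (g + g') y = (g x - g y) + (g' x - g' y) := by
      simp only [Pi.add_apply]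
      ring
    rw [this]
    exact Valuation.map_add_lt _ ih ih'
  | neg g hg ih =>
    have : (-g) x - (-g) y = -(g x - g y) := by
      simp only [Pi.neg_apply]
      ring
    rw [this, Valuation.map_neg]
    exact ih
  | mul g g' hg hg' ih ih' =>
    have : (g * g') x - (g * g') y = (g x - g y) * g' x + g y * (g' x - g' y) := by
      simp only [Pi.mul_apply]
      ring
    rw [this]
    have h1 : A.valuation (g' x) ≤ 1 :=
      (A.valuation_le_one_iff _).2 (genRing_val_mem A.toSubring h integral hg' x)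
    have h2 : A.valuation (g y) ≤ 1 :=
      (A.valuation_le_one_iff _).2 (genRing_val_mem A.toSubring h integral hg y)
    refine Valuation.map_add_lt _ ?_ ?_
    · rw [map_mul]
      calc A.valuation (g x - g y) * A.valuation (g' x)
          ≤ A.valuation (g x - g y) * 1 := mul_le_mul_right h1 _
        _ = A.valuation (g x - g y) := mul_one _
        _ < 1 := ih
    · rw [map_mul]
      calc A.valuation (g y) * A.valuation (g' x - g' y)
          ≤ 1 * A.valuation (g' x - g' y) := mul_le_mul_left h2 _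
        _ = A.valuation (g' x - g' y) := one_mul _
        _ < 1 := ih'

end Clause

section Pair

variable {M ι κ : Type} [AddCommGroup M] [Finite M]

/-- **Explicit global generators** (the proof of `localGen_of`): under the hypotheses of the
local generator criterion there are `G_ℚ`-equivariant generators `F i ∈ genRing A h` satisfying
`GenData`. -/
theorem exists_genData [Finite ι] (ℓ : ℕ) (hℓ : ℓ.Prime)
    (A : ValuationSubring K) (hA : A.LiesOverPrime ℓ)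
    (act : GQ → M → M) (h : ι → M → K)
    (act_one : ∀ x, act 1 x = x) (act_mul : ∀ σ τ x, act (σ * τ) x = act σ (act τ x))
    (act_add : ∀ σ x y, act σ (x + y) = act σ x + act σ y)
    (hcont : ∃ L : IntermediateField ℚ K, FiniteDimensional ℚ L ∧
      ∀ σ ∈ L.fixingSubgroup, ∀ x, act σ x = x)
    (integral : ∀ j x, h j x ∈ A)
    (equivariant : ∀ j, ∀ σ ∈ A.inertiaSubgroupIn ℚ, ∀ x, h j (act σ x) = σ (h j x))
    (stable : ∀ j, ∀ σ ∈ A.decompositionSubgroup ℚ,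
      twist act σ (h j) ∈ genRing A.toSubring h)
    (separates : ∀ x y, x ≠ y → ∃ j, h j x ≠ h j y)
    (comul : ∀ j, (fun q : M × M => h j (q.1 + q.2)) ∈ pairRing A.toSubring h) :
    ∃ (κ : Type) (_ : Finite κ) (F : κ → M → K),
      GenData (GaloisRep.ratLocalizedAt ℓ) A.toSubring act F ∧
      ∀ i, F i ∈ genRing A.toSubring h := by
  classical
  have hF1 := H99.stmt_F1
  have hF2 := H99.stmt_F2
  obtain ⟨L₀, hL₀fin, hL₀⟩ := hcont
  -- the number field `L`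
  let S : Set K := Set.range (fun p : ι × M => h p.1 p.2)
  haveI : Finite ↑S := Set.finite_range _
  haveI : FiniteDimensional ℚ ↥(IntermediateField.adjoin ℚ S) :=
    IntermediateField.finiteDimensional_adjoin (fun x _ => Algebra.IsIntegral.isIntegral x)
  let L₁ : IntermediateField ℚ K := L₀ ⊔ IntermediateField.adjoin ℚ S
  haveI : FiniteDimensional ℚ ↥L₁ := IntermediateField.finiteDimensional_sup _ _
  let L : IntermediateField ℚ K := IntermediateField.normalClosure ℚ ↥L₁ K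
  have hLfin : FiniteDimensional ℚ ↥L := normalClosure.is_finiteDimensional ℚ ↥L₁ K
  have hLnorm : Normal ℚ ↥L := by
    haveI : Normal ℚ K := IsGalois.to_normal
    exact normalClosure.normal ℚ ↥L₁ K
  have hL₁L : L₁ ≤ L := IntermediateField.le_normalClosure L₁
  have hLact : ∀ σ ∈ L.fixingSubgroup, ∀ x, act σ x = x := fun σ hσ x =>
    hL₀ σ (IntermediateField.fixingSubgroup_le (le_trans le_sup_left hL₁L) hσ) x
  have hLval : ∀ j x, h j x ∈ L := fun j x =>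
    hL₁L ((le_sup_right : IntermediateField.adjoin ℚ S ≤ L₁)
      (IntermediateField.subset_adjoin ℚ S ⟨(j, x), rfl⟩))
  -- `genRing` is spanned by its fixed elements
  have hle := genMod_le_span_fixed hF1 hF2 ℓ hℓ A hA act h act_one act_mul integral equivariant
    stable separates L hLfin hLnorm hLact hLval
  have hge : Submodule.span ↥A (fixedGen A act h) ≤ genMod A h := by
    rw [Submodule.span_le]
    intro f hf
    exact (mem_genMod_iff A h f).mpr hf.1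
  have hspan : Submodule.span ↥A (fixedGen A act h) = genMod A h := le_antisymm hge hle
  have hfg : (Submodule.span ↥A (fixedGen A act h)).FG := by
    rw [hspan]
    exact genMod_fg A h integral
  obtain ⟨s, hs, hss⟩ := (Submodule.fg_span_iff_fg_span_finset_subset _).mp hfg
  -- the new generators
  let F : ↥s → M → K := fun i => (i : M → K)
  have hFrange : Set.range F = (↑s : Set (M → K)) := by
    ext g
    constructor
    · rintro ⟨i, rfl⟩
      exact i.2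
    · intro hg
      exact ⟨⟨g, hg⟩, rfl⟩
  have hFfix : ∀ i : ↥s, F i ∈ fixedGen A act h := fun i => hs i.2
  have hhspan : ∀ j, h j ∈ Submodule.span ↥A (Set.range F) := by
    intro j
    rw [hFrange, ← hss, hspan, mem_genMod_iff]
    exact gen_mem_genRing A.toSubring h j
  refine ⟨↥s, inferInstance, F, ?_, fun i => (hFfix i).1⟩
  refine
    { act_add := act_add
      act_inj := ?_
      equivariant := ?_
      integral := ?_
      separates := ?_
      base := base_of_liesOver A ℓ hA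
      fixed := fixed_of_liesOver A ℓ hℓ hA
      comul := ?_ }
  · -- injectivity of the action
    intro σ x y hxy
    have := congrArg (act σ⁻¹) hxy
    rwa [act_inv_act act act_one act_mul, act_inv_act act act_one act_mul] at this
  · -- equivariance
    intro i σ x
    exact (twist_eq_iff act act_one act_mul σ (F i)).mp ((hFfix i).2 σ) x
  · -- integrality
    intro i x
    exact genRing_val_mem A.toSubring h integral (hFfix i).1 x
  · -- separation
    intro x y hxy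
    by_contra hcon
    simp only [not_exists, not_not] at hcon
    obtain ⟨j, hj⟩ := separates x y hxy
    apply hj
    let N₀ : Submodule ↥A (M → K) :=
      { carrier := {g | g x = g y}
        add_mem' := fun {a b} ha hb => by
          show a x + b x = a y + b y
          rw [ha, hb]
        zero_mem' := rfl
        smul_mem' := fun c g hg => by
          show (c : K) * g x = (c : K) * g y
          rw [hg] }
    have h1 : Submodule.span ↥A (Set.range F) ≤ N₀ := by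
      rw [Submodule.span_le]
      rintro _ ⟨i, rfl⟩
      exact hcon i
    exact h1 (hhspan j)
  · -- comultiplication
    intro i
    exact pairRing_le_of_span A h F hhspan
      (comp_add_mem_pairRing A.toSubring h comul (hFfix i).1)

end Pair

section Abstract

variable {R K' G : Type} [CommRing R] [IsDomain R] [IsPrincipalIdealRing R] [Field K']
  [Algebra R K'] [Group G] [MulSemiringAction G K']
variable {M : Type} [AddCommGroup M] [Finite M]
variable {H : Type} [CommRing H] [Algebra R H]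
variable {act : G → M → M} {ev : M → (H →ₐ[R] K')}

/-- **Hopf orders are finite flat group schemes**, with the evaluation and the counit exposed
(the proof of `absFlat_of_isHopfOrder`): any property of the triple
`(x, ev x a, ev 0 a)` passes to `(e f, f a, counit a)`. -/
theorem exists_hopf_of_isHopfOrder (hD : DescentData R K' G) (hH : IsHopfOrder act ev)
    (P : M → K' → K' → Prop) (hP : ∀ (x : M) (a : H), P x (ev x a) (ev 0 a)) :
    ∃ (H' : Type) (_ : CommRing H') (_ : HopfAlgebra R H'),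
      Module.Finite R H' ∧ Module.Flat R H' ∧ Coalgebra.IsCocomm R H' ∧
      ∃ e : WithConv (H' →ₐ[R] K') ≃ M,
        (∀ f g : WithConv (H' →ₐ[R] K'), e (f * g) = e f + e g) ∧
        (∀ (σ : G) (f g : WithConv (H' →ₐ[R] K')),
          (∀ h : H', g h = σ • f h) → e g = act σ (e f)) ∧
        ∀ (f : WithConv (H' →ₐ[R] K')) (a : H'),
          P (e f) (f.ofConv a) (algebraMap R K' (Coalgebra.counit a)) := by
  have hint := fixedIntegral_of_descentData hD
  letI hopf := hopfAlgebra hD hH hint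
  haveI := hH.finite
  haveI := free_of_isHopfOrder hD hH
  let e₀ : M ≃ (H →ₐ[R] K') := Equiv.ofBijective ev (ev_bijective hD hH)
  let e : Pts R H K' ≃ M := (WithConv.equiv (H →ₐ[R] K')).trans e₀.symm
  have he : ∀ f : Pts R H K', f.ofConv = ev (e f) := fun f =>
    (e₀.apply_symm_apply f.ofConv).symm
  refine ⟨H, inferInstance, hopf, inferInstance, inferInstance, isCocomm hD hH hint, e,
    ?_, ?_, ?_⟩
  · intro f g
    apply ev_injective hH
    rw [← he]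
    refine AlgHom.ext fun h => ?_
    show (f * g) h = ev (e f + e g) h
    rw [convMul_apply', ← val₂_comulA hD hH, val₂_eq_mul', ← he, ← he]
    rfl
  · intro σ f g hfg
    apply ev_injective hH
    refine AlgHom.ext fun h => ?_
    rw [hH.equivariant, ← he, ← he]
    exact hfg h
  · intro f a
    have h1 : algebraMap R K' (Coalgebra.counit a) = ev 0 a :=
      algebraMap_counitA hD hH hint a
    rw [h1, he f]
    exact hP (e f) a

end Abstract

section Final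

open Fermat.Agent.S19 Fermat.Agent.S19.H32 GaloisRep ModularCurve

/-- Elements of the Hopf order generated by `F i ∈ genRing A h` lie in `genRing A h`. -/
theorem genAlg_le_genRing {M ι κ : Type} (ℓ : ℕ) (A : ValuationSubring K)
    (hA : A.LiesOverPrime ℓ) (h : ι → M → K) (F : κ → M → K)
    (hF : ∀ i, F i ∈ genRing A.toSubring h) {a : M → K}
    (ha : a ∈ genAlg (ratLocalizedAt ℓ) F) : a ∈ genRing A.toSubring h := by
  induction ha using Algebra.adjoin_induction with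
  | mem g hg =>
    obtain ⟨i, rfl⟩ := hg
    exact hF i
  | algebraMap r =>
    exact const_mem_genRing A.toSubring h (base_of_liesOver A ℓ hA r)
  | add g g' _ _ ih ih' => exact Subring.add_mem _ ih ih'
  | mul g g' _ _ ih ih' => exact Subring.mul_mem _ ih ih'

/-- **NUQ-a**: the finite flat model of `J₀(N)[ℓ^k]` with the reduction clause. -/
theorem hopfK1_of (hFL : Stmt_FLGenCoreK1) : Stmt_HopfK1 := by
  intro N _ ℓ _ hℓN k A hA
  have hℓ : ℓ.Prime := Fact.out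
  have hn : ((ℓ : ℤ) ^ k) ≠ 0 := pow_ne_zero _ (by exact_mod_cast hℓ.ne_zero)
  haveI := tors_finite N _ hn
  obtain ⟨ι, hι, h, hint, heq, hst, hsep, hcom, hcl⟩ := hFL N ℓ hℓN k A hA
  haveI := hι
  obtain ⟨κ, hκ, F, hG, hFgen⟩ :=
    exists_genData ℓ hℓ A hA (torsAct N ((ℓ : ℤ) ^ k)) h
      (torsAct_one N _) (torsAct_mul N _) (torsAct_add N _) (tors_act_cont N _ hn)
      hint heq hst hsep hcom
  haveI := hκ
  haveI := ratLocalizedAt_isPrincipalIdealRing ℓ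
  have hH : IsHopfOrder (torsAct N ((ℓ : ℤ) ^ k)) (evGen (ratLocalizedAt ℓ) F) :=
    isHopfOrder_of_genData (descentData_rat ℓ) hG
  obtain ⟨H', j1, j2, h1, h2, h3, e, he, hσ, hP⟩ :=
    exists_hopf_of_isHopfOrder (descentData_rat ℓ) hH
      (fun x u v => Fermat.Agent.BAD.InK1 A N (ℓ ^ k) ((x : Tors N ((ℓ : ℤ) ^ k)) : JZero N) →
        A.valuation (u - v) < 1)
      (by
        intro x a hx
        rw [evGen_apply, evGen_apply]
        refine genRing_sub_lt A h hint x 0 ?_ (genAlg_le_genRing ℓ A hA h F hFgen a.2)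
        refine hcl x 0 ?_
        simpa using hx)
  exact ⟨H', j1, j2, h1, h2, h3, e, he, hσ, fun f hf a => hP f a hf⟩

end Final

end Fermat.Agent.S59.LGC.H38

end
-- ==== END Fermat.Agent.S59.LGC.H38_HopfK1

-- ==== BEGIN Fermat.Agent.S59.LGC.H54_Vec
section

/-!
# S59, case C, LGC-p: from the torsion-level statements to the Tate limit  (helper54)

Level `N`, `p ∤ N`, `C : TateCoords N p S` (`p ∉ S`), `L : TateLimit C 𝒪 hp`,
`W_k = (𝒪 / 𝔪^k)^r`, `g` a Frobenius element at `padicPlace p`,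
`Φ = ρL(g)² - T_p ρL(g) + p`.

* `rho_ESp`   : (ES-p) in the coordinates of level `p^k`: `Φ_k x ∈ θ (K1(p^k))`;
* `cHom`, `actW`, `kSpan` : the map `J₀(N)[p^k] → W_k`, the Galois action on `W_k`, the
  `𝒪 / 𝔪^k`-span of the image of `K1(p^k)`;
* `nuq_kSpan` : (NUQ) for `kSpan`;
* `phi_mem_kSpan` : `Φ W_k ⊆ kSpan`.
-/

set_option autoImplicit false
set_option linter.unusedSectionVars false
set_option linter.unusedVariables false
set_option linter.style.haveILetI false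
set_option synthInstance.maxHeartbeats 400000
set_option maxHeartbeats 4000000

noncomputable section

namespace Fermat.Agent.S59.LGC.H54

open AlgebraicCurve ModularCurve Fermat.Agent.GTor Fermat.Agent.GTor.H81
  Fermat.Agent.GTor.H58T1 Fermat.Agent.BAD

section Level

variable {N p : ℕ} [NeZero N] [Fact p.Prime] {S : Set ℕ} (C : TateCoords N p S)

/-- the matrix of `g² - T_p g + p` at level `p^k`. -/
def phiK (hp : p.Prime) (hpN : ¬ p ∣ N) (hpS : p ∉ S) (g : GQ) (k : ℕ) :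
    Matrix (Fin C.r) (Fin C.r) (ZMod (p ^ k)) :=
  C.ρ k g * C.ρ k g - Mc (ZMod (p ^ k)) C.M (CuspForm.heckeAlgebra.T hp hpN hpS) * C.ρ k g
    + ((p : ℕ) : Matrix (Fin C.r) (Fin C.r) (ZMod (p ^ k)))

/-- **(ES-p) at level `p^k`**, in coordinates. -/
theorem rho_ESp (hES : Stmt_TorsESp N p) (hp : p.Prime) (hpN : ¬ p ∣ N) (hpS : p ∉ S)
    {A : ValuationSubring (AlgebraicClosure ℚ)} (hA : A.LiesOverPrime p) {g : GQ}
    (hg : A.IsFrobeniusAt g p) (k : ℕ) (x : Fin C.r → ZMod (p ^ k)) :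
    (C.θ k).symm ((phiK C hp hpN hpS g k).mulVec x) ∈ k1Sub A N (p ^ k) := by
  obtain ⟨X, rfl⟩ := (C.θ k).surjective x
  set f : AddMonoid.End (Jtor N (p ^ k)) :=
    TateCoords.galEnd k g * TateCoords.galEnd k g
      - TateCoords.heckeEnd k (⟨p, hp⟩ : Nat.Primes) * TateCoords.galEnd k g
      + ((p : ℕ) : AddMonoid.End (Jtor N (p ^ k))) with hf
  have hn : C.mat k ((p : ℕ) : AddMonoid.End (Jtor N (p ^ k))) =
      ((p : ℕ) : Matrix (Fin C.r) (Fin C.r) (ZMod (p ^ k))) := map_natCast (C.mat k) p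
  have hm : C.mat k f = phiK C hp hpN hpS g k := by
    rw [hf, map_add, map_sub, map_mul, map_mul, hn, C.mat_gal, C.mat_hecke k hp hpN hpS]
    rfl
  rw [← hm, C.mat_mulVec, AddEquiv.symm_apply_apply, mem_k1Sub]
  exact hES hp hpN A hA g hg (p ^ k) (X : JZero N) (pow_nsmul_coe X)

end Level

section Limit

variable {N p : ℕ} [NeZero N] [Fact p.Prime] {S : Set ℕ} {C : TateCoords N p S}
variable {𝒪 : Type} [CommRing 𝒪] [IsLocalRing 𝒪]
  [IsAdicComplete (IsLocalRing.maximalIdeal 𝒪) 𝒪]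
  {hp𝒪 : (p : 𝒪) ∈ IsLocalRing.maximalIdeal 𝒪} (L : TateLimit C 𝒪 hp𝒪)

/-- the reduction of vectors modulo `𝔪^k`. -/
def piVec (𝒪 : Type) [CommRing 𝒪] [IsLocalRing 𝒪] (r k : ℕ) :
    (Fin r → 𝒪) →+ (Fin r → 𝒪 ⧸ IsLocalRing.maximalIdeal 𝒪 ^ k) where
  toFun v := fun i => Ideal.Quotient.mk (IsLocalRing.maximalIdeal 𝒪 ^ k) (v i)
  map_zero' := by
    funext i
    simp
  map_add' v w := by
    funext i
    simp

@[simp] theorem piVec_apply (r k : ℕ) (v : Fin r → 𝒪) (i : Fin r) :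
    piVec 𝒪 r k v i = Ideal.Quotient.mk (IsLocalRing.maximalIdeal 𝒪 ^ k) (v i) := rfl

theorem piVec_mulVec (r k : ℕ) (X : Matrix (Fin r) (Fin r) 𝒪) (v : Fin r → 𝒪) :
    piVec 𝒪 r k (X.mulVec v) =
      ((piK (IsLocalRing.maximalIdeal 𝒪) k).mapMatrix X).mulVec (piVec 𝒪 r k v) := by
  funext i
  exact RingHom.map_mulVec (piK (IsLocalRing.maximalIdeal 𝒪) k) X v i

theorem piVec_smul (r k : ℕ) (a : 𝒪) (v : Fin r → 𝒪) :
    piVec 𝒪 r k (a • v) = (Ideal.Quotient.mk (IsLocalRing.maximalIdeal 𝒪 ^ k) a) •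
      piVec 𝒪 r k v := by
  funext i
  simp

/-- the map `J₀(N)[p^k] → W_k`. -/
def cHom (C : TateCoords N p S) (𝒪 : Type) [CommRing 𝒪] [IsLocalRing 𝒪]
    [IsAdicComplete (IsLocalRing.maximalIdeal 𝒪) 𝒪]
    (hp𝒪 : (p : 𝒪) ∈ IsLocalRing.maximalIdeal 𝒪) (k : ℕ) :
    Jtor N (p ^ k) →+ (Fin C.r → 𝒪 ⧸ IsLocalRing.maximalIdeal 𝒪 ^ k) where
  toFun x := fun i => cK (IsLocalRing.maximalIdeal 𝒪) p hp𝒪 k (C.θ k x i)
  map_zero' := by
    funext i
    simp
  map_add' x y := by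
    funext i
    simp

@[simp] theorem cHom_apply (k : ℕ) (x : Jtor N (p ^ k)) (i : Fin C.r) :
    cHom C 𝒪 hp𝒪 k x i = cK (IsLocalRing.maximalIdeal 𝒪) p hp𝒪 k (C.θ k x i) := rfl

/-- the Galois action on `W_k`. -/
def actW (k : ℕ) (σ : GQ) :
    (Fin C.r → 𝒪 ⧸ IsLocalRing.maximalIdeal 𝒪 ^ k) →+
      (Fin C.r → 𝒪 ⧸ IsLocalRing.maximalIdeal 𝒪 ^ k) :=
  (Matrix.mulVecLin ((piK (IsLocalRing.maximalIdeal 𝒪) k).mapMatrix (L.ρL σ))).toAddMonoidHom

@[simp] theorem actW_apply (k : ℕ) (σ : GQ)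
    (w : Fin C.r → 𝒪 ⧸ IsLocalRing.maximalIdeal 𝒪 ^ k) :
    actW L k σ w = ((piK (IsLocalRing.maximalIdeal 𝒪) k).mapMatrix (L.ρL σ)).mulVec w := rfl

theorem cHom_mulVec (k : ℕ) (X : Matrix (Fin C.r) (Fin C.r) (ZMod (p ^ k)))
    (x : Jtor N (p ^ k)) :
    cHom C 𝒪 hp𝒪 k ((C.θ k).symm (X.mulVec (C.θ k x))) =
      ((cK (IsLocalRing.maximalIdeal 𝒪) p hp𝒪 k).mapMatrix X).mulVec (cHom C 𝒪 hp𝒪 k x) := by
  funext i
  rw [cHom_apply, AddEquiv.apply_symm_apply]
  exact RingHom.map_mulVec (cK (IsLocalRing.maximalIdeal 𝒪) p hp𝒪 k) X (C.θ k x) i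

theorem cHom_gal (k : ℕ) (σ : GQ) (x : Jtor N (p ^ k)) :
    cHom C 𝒪 hp𝒪 k (galAct N p k σ x) = actW L k σ (cHom C 𝒪 hp𝒪 k x) := by
  have h1 : galAct N p k σ x = (C.θ k).symm ((C.ρ k σ).mulVec (C.θ k x)) := by
    apply (C.θ k).injective
    rw [AddEquiv.apply_symm_apply]
    exact C.gal k σ x
  rw [h1, cHom_mulVec, actW_apply, L.spec σ k]

end Limit

section Span

variable {N p : ℕ} [NeZero N] [Fact p.Prime] {S : Set ℕ} {C : TateCoords N p S}
variable {𝒪 : Type} [CommRing 𝒪] [IsDomain 𝒪] [IsDiscreteValuationRing 𝒪]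
  [IsAdicComplete (IsLocalRing.maximalIdeal 𝒪) 𝒪] [Finite (IsLocalRing.ResidueField 𝒪)]
  {hp𝒪 : (p : 𝒪) ∈ IsLocalRing.maximalIdeal 𝒪} (L : TateLimit C 𝒪 hp𝒪)

/-- `𝒪 / 𝔪^k` is finite. -/
theorem finite_quot_pow (𝒪 : Type) [CommRing 𝒪] [IsDomain 𝒪] [IsDiscreteValuationRing 𝒪]
    [Finite (IsLocalRing.ResidueField 𝒪)] (k : ℕ) :
    Finite (𝒪 ⧸ IsLocalRing.maximalIdeal 𝒪 ^ k) := by
  haveI : Finite (𝒪 ⧸ IsLocalRing.maximalIdeal 𝒪) :=
    inferInstanceAs (Finite (IsLocalRing.ResidueField 𝒪))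
  exact Ideal.finite_quotient_pow (IsNoetherian.noetherian _) k

/-- the `𝒪 / 𝔪^k`-span of the image of `K1(p^k)` in `W_k`. -/
def kSpan (C : TateCoords N p S) (𝒪 : Type) [CommRing 𝒪] [IsDomain 𝒪]
    [IsDiscreteValuationRing 𝒪] [IsAdicComplete (IsLocalRing.maximalIdeal 𝒪) 𝒪]
    [Finite (IsLocalRing.ResidueField 𝒪)]
    (hp𝒪 : (p : 𝒪) ∈ IsLocalRing.maximalIdeal 𝒪)
    (A : ValuationSubring (AlgebraicClosure ℚ)) (k : ℕ) :
    AddSubgroup (Fin C.r → 𝒪 ⧸ IsLocalRing.maximalIdeal 𝒪 ^ k) :=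
  haveI := finite_quot_pow 𝒪 k
  letI := Fintype.ofFinite (𝒪 ⧸ IsLocalRing.maximalIdeal 𝒪 ^ k)
  spanSup (R := 𝒪 ⧸ IsLocalRing.maximalIdeal 𝒪 ^ k) (cHom C 𝒪 hp𝒪 k) (k1Sub A N (p ^ k))

theorem smul_cHom_mem_kSpan (A : ValuationSubring (AlgebraicClosure ℚ)) (k : ℕ)
    (a : 𝒪 ⧸ IsLocalRing.maximalIdeal 𝒪 ^ k) {x : Jtor N (p ^ k)}
    (hx : x ∈ k1Sub A N (p ^ k)) : a • cHom C 𝒪 hp𝒪 k x ∈ kSpan C 𝒪 hp𝒪 A k := by
  haveI := finite_quot_pow 𝒪 k
  letI := Fintype.ofFinite (𝒪 ⧸ IsLocalRing.maximalIdeal 𝒪 ^ k)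
  exact smul_mem_spanSup (R := 𝒪 ⧸ IsLocalRing.maximalIdeal 𝒪 ^ k) (cHom C 𝒪 hp𝒪 k)
    (k1Sub A N (p ^ k)) a hx

theorem inertia_subset_decomposition (A : ValuationSubring (AlgebraicClosure ℚ)) :
    (A.inertiaSubgroupIn ℚ : Set GQ) ⊆ (A.decompositionSubgroup ℚ : Set GQ) := by
  intro σ hσ
  obtain ⟨g, -, rfl⟩ := hσ
  exact g.2

/-- **(NUQ) for the span.** -/
theorem nuq_kSpan (hNUQ : Stmt_K1NoUnr N p) (hp2 : p ≠ 2) (hpN : ¬ p ∣ N) (k : ℕ) :
    NUQ p (actW L k) ((padicPlace p).decompositionSubgroup ℚ : Set GQ)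
      ((padicPlace p).inertiaSubgroupIn ℚ : Set GQ) (kSpan C 𝒪 hp𝒪 (padicPlace p) k) := by
  haveI := finite_quot_pow 𝒪 k
  letI := Fintype.ofFinite (𝒪 ⧸ IsLocalRing.maximalIdeal 𝒪 ^ k)
  refine nuq_span (R := 𝒪 ⧸ IsLocalRing.maximalIdeal 𝒪 ^ k)
    (inertia_subset_decomposition (padicPlace p)) (cHom C 𝒪 hp𝒪 k)
    (fun σ _ x => cHom_gal L k σ x) (fun σ _ a w => ?_)
    (nuq_k1Sub hNUQ hp2 hpN k) (dStable_k1Sub (padicPlace p) k)
  rw [actW_apply, actW_apply, Matrix.mulVec_smul]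

/-- **(ES-p) in `W_k`**: `Φ W_k ⊆ kSpan`. -/
theorem phi_mem_kSpan (hES : Stmt_TorsESp N p) (hp : p.Prime) (hpN : ¬ p ∣ N) (hpS : p ∉ S)
    {A : ValuationSubring (AlgebraicClosure ℚ)} (hA : A.LiesOverPrime p) {g : GQ}
    (hg : A.IsFrobeniusAt g p) (k : ℕ)
    (y : Fin C.r → 𝒪 ⧸ IsLocalRing.maximalIdeal 𝒪 ^ k) :
    ((cK (IsLocalRing.maximalIdeal 𝒪) p hp𝒪 k).mapMatrix (phiK C hp hpN hpS g k)).mulVec y ∈
      kSpan C 𝒪 hp𝒪 A k := by
  classical
  have h1 : y = ∑ i, y i • (Pi.single i (1 : 𝒪 ⧸ IsLocalRing.maximalIdeal 𝒪 ^ k) :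
      Fin C.r → 𝒪 ⧸ IsLocalRing.maximalIdeal 𝒪 ^ k) := by
    funext j
    simp [Finset.sum_apply, Pi.single_apply]
  rw [h1, Matrix.mulVec_sum]
  refine AddSubgroup.sum_mem _ fun i _ => ?_
  rw [Matrix.mulVec_smul]
  -- the basis vector is the image of a torsion point
  set X : Jtor N (p ^ k) := (C.θ k).symm (Pi.single i (1 : ZMod (p ^ k))) with hX
  have hc : cHom C 𝒪 hp𝒪 k X = (Pi.single i (1 : 𝒪 ⧸ IsLocalRing.maximalIdeal 𝒪 ^ k) :
      Fin C.r → 𝒪 ⧸ IsLocalRing.maximalIdeal 𝒪 ^ k) := by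
    funext j
    rw [cHom_apply, hX, AddEquiv.apply_symm_apply]
    by_cases hij : j = i
    · subst hij
      simp
    · simp [Pi.single_apply, hij]
  rw [← hc, ← cHom_mulVec]
  refine smul_cHom_mem_kSpan A k (y i) ?_
  exact rho_ESp C hES hp hpN hpS hA hg k _

end Span

end Fermat.Agent.S59.LGC.H54

end
end
-- ==== END Fermat.Agent.S59.LGC.H54_Vec

-- ==== BEGIN Fermat.Agent.S59.LGC.H86_NUQb
section

/-!
# S59, case C, LGC-p, leaf NUQ-b (helper86): `K1` has no unramified quotient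

* `flatInf_core` : the second half of `S33.H86.flatInf_padicPlace` with the Hopf algebra `H` and
  the identification `e` of its points GIVEN: a point `x` which reduces to the identity at
  `padicPlace p` (`IsRed (toLoc (e.symm x))`), with `p x ∈ N` and inertia fixing `x` modulo the
  decomposition-stable subgroup `N`, lies in `N`  (`p` odd; `subq_gen`).
* `nsmul_eq_zero_of_inK1` : the classes of `K1(n)` are killed by `n`.
* `k1NoUnr_of_hopf : Stmt_HopfK1 → ∀ N p, Stmt_K1NoUnr N p`.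
-/

set_option autoImplicit false
set_option linter.unusedSectionVars false
set_option linter.style.haveILetI false
set_option linter.unusedVariables false

noncomputable section

namespace Fermat.Agent.S59.LGC.H86

open scoped NNReal TensorProduct Pointwise
open Fermat.Agent.S56.FL Fermat.Agent.S56.FL.H54 Fermat.Agent.R Fermat.Agent.R.H54 WithConv
open Fermat.Agent.Lib.InertiaBridge Fermat.Agent.Lib.FrobExists Fermat.Agent.S33.H86
open AlgebraicCurve ModularCurve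

section Core

variable {p : ℕ} [Fact p.Prime]
variable {H : Type} [CommRing H] [HopfAlgebra (Zloc p) H]

/-- **The explicit form of `Stmt_FlatInf` at `padicPlace p`**: `H` and `e` are given, the
infinitesimal points are the points reducing to the identity. -/
theorem flatInf_core (hp2 : p ≠ 2) [Module.Finite (Zloc p) H] [Module.Flat (Zloc p) H]
    [Coalgebra.IsCocomm (Zloc p) H] (M : Type) [AddCommGroup M]
    (act : (AlgebraicClosure ℚ ≃ₐ[ℚ] AlgebraicClosure ℚ) → M → M)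
    (e : WithConv (H →ₐ[Zloc p] AlgebraicClosure ℚ) ≃ M)
    (hmul : ∀ f g : WithConv (H →ₐ[Zloc p] AlgebraicClosure ℚ), e (f * g) = e f + e g)
    (hact : ∀ (σ : AlgebraicClosure ℚ ≃ₐ[ℚ] AlgebraicClosure ℚ)
      (f g : WithConv (H →ₐ[Zloc p] AlgebraicClosure ℚ)),
      (∀ h : H, g h = σ (f h)) → e g = act σ (e f))
    (N : AddSubgroup M)
    (hN : ∀ σ ∈ (padicPlace p).decompositionSubgroup ℚ, ∀ x ∈ N, act σ x ∈ N)
    (x : M) (hxInf : IsRed (toLoc (e.symm x))) (hpx : p • x ∈ N)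
    (hxI : ∀ σ ∈ (padicPlace p).inertiaSubgroupIn ℚ, act σ x - x ∈ N) : x ∈ N := by
  classical
  have hp : p.Prime := Fact.out
  have he1 : e 1 = 0 := by
    have := hmul 1 1
    rw [mul_one] at this
    exact left_eq_add.mp this
  have hact' : ∀ (σ : AlgebraicClosure ℚ ≃ₐ[ℚ] AlgebraicClosure ℚ)
      (f : WithConv (H →ₐ[Zloc p] AlgebraicClosure ℚ)), e (globConj σ f) = act σ (e f) :=
    fun σ f => hact σ f _ (fun h => rfl)
  have hsymm_add : ∀ a b : M, e.symm (a + b) = e.symm a * e.symm b := by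
    intro a b
    apply e.injective
    rw [e.apply_symm_apply, hmul, e.apply_symm_apply, e.apply_symm_apply]
  have hsymm_zero : e.symm 0 = 1 := by
    apply e.injective
    rw [e.apply_symm_apply, he1]
  -- the local equivalence
  let eL : WithConv (H →ₐ[Zloc p] PadicAlgCl p) ≃ M := locEquiv.symm.trans e
  have hL : ∀ f : WithConv (H →ₐ[Zloc p] AlgebraicClosure ℚ), eL (toLoc f) = e f := by
    intro f
    show e (locEquiv.symm (toLoc f)) = e f
    rw [← locEquiv_apply, Equiv.symm_apply_apply]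
  have hLsymm : ∀ m : M, eL.symm m = toLoc (e.symm m) := by
    intro m
    apply eL.injective
    rw [eL.apply_symm_apply, hL, e.apply_symm_apply]
  have hLmul : ∀ x y : WithConv (H →ₐ[Zloc p] PadicAlgCl p), eL (x * y) = eL x + eL y := by
    intro x y
    obtain ⟨f, rfl⟩ := toLoc_surjective x
    obtain ⟨g, rfl⟩ := toLoc_surjective y
    rw [← map_mul, hL, hL, hL, hmul]
  have hLact : ∀ (σ : Gp p) (x : WithConv (H →ₐ[Zloc p] PadicAlgCl p)),
      eL (pointAct σ x) = act (localGaloisToGlobal p σ) (eL x) := by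
    intro σ x
    obtain ⟨f, rfl⟩ := toLoc_surjective x
    rw [← toLoc_globConj, hL, hL, hact']
  have hL1 : eL 1 = 0 := by
    rw [← map_one (toLoc (H := H) (p := p)), hL, he1]
  have hLpow : ∀ (x : WithConv (H →ₐ[Zloc p] PadicAlgCl p)) (n : ℕ), eL (x ^ n) = n • eL x := by
    intro x n
    induction n with
    | zero => rw [pow_zero, zero_smul, hL1]
    | succ n ih => rw [pow_succ, hLmul, ih, succ_nsmul]
  -- the local action is additive
  have hadd : ∀ (σ : Gp p) (a b : M), act (localGaloisToGlobal p σ) (a + b) =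
      act (localGaloisToGlobal p σ) a + act (localGaloisToGlobal p σ) b := by
    intro σ a b
    have h1 : a + b = eL (eL.symm a * eL.symm b) := by
      rw [hLmul, eL.apply_symm_apply, eL.apply_symm_apply]
    rw [h1, ← hLact, pointAct_mul_eq, hLmul, hLact, hLact, eL.apply_symm_apply,
      eL.apply_symm_apply]
  have hsub : ∀ (σ : Gp p) (a b : M), act (localGaloisToGlobal p σ) (a - b) =
      act (localGaloisToGlobal p σ) a - act (localGaloisToGlobal p σ) b := by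
    intro σ a b
    have h1 := hadd σ (a - b) b
    rw [sub_add_cancel] at h1
    rw [h1, add_sub_cancel_right]
  have hcomp : ∀ (σ τ : Gp p) (a : M), act (localGaloisToGlobal p (σ * τ)) a =
      act (localGaloisToGlobal p σ) (act (localGaloisToGlobal p τ) a) := by
    intro σ τ a
    have h1 : a = eL (eL.symm a) := (eL.apply_symm_apply a).symm
    rw [h1, ← hLact, pointAct_comp_eq, hLact, hLact]
  have hNloc : ∀ (σ : Gp p), ∀ m ∈ N, act (localGaloisToGlobal p σ) m ∈ N :=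
    fun σ m hm => hN _ (localGaloisToGlobal_mem_decompositionSubgroup p σ) m hm
  let E₁ : Submonoid (WithConv (H →ₐ[Zloc p] PadicAlgCl p)) :=
    { carrier := {y | eL y ∈ N}
      mul_mem' := fun {a b} ha hb => by
        show eL (a * b) ∈ N
        rw [hLmul]
        exact N.add_mem ha hb
      one_mem' := by
        show eL 1 ∈ N
        rw [hL1]
        exact N.zero_mem }
  let E₂ : Submonoid (WithConv (H →ₐ[Zloc p] PadicAlgCl p)) :=
    { carrier := {y | ∀ τ ∈ inertiaP p, act (localGaloisToGlobal p τ) (eL y) - eL y ∈ N}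
      mul_mem' := fun {a b} ha hb => by
        intro τ hτ
        show act (localGaloisToGlobal p τ) (eL (a * b)) - eL (a * b) ∈ N
        rw [hLmul, hadd]
        have h1 : act (localGaloisToGlobal p τ) (eL a) + act (localGaloisToGlobal p τ) (eL b) -
            (eL a + eL b) = (act (localGaloisToGlobal p τ) (eL a) - eL a) +
              (act (localGaloisToGlobal p τ) (eL b) - eL b) := by abel
        rw [h1]
        exact N.add_mem (ha τ hτ) (hb τ hτ)
      one_mem' := by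
        intro τ hτ
        show act (localGaloisToGlobal p τ) (eL 1) - eL 1 ∈ N
        rw [hL1]
        exact N.sub_mem (hNloc τ 0 N.zero_mem) N.zero_mem }
  have h12 : E₁ ≤ E₂ := by
    intro y hy τ hτ
    exact N.sub_mem (hNloc τ _ hy) hy
  have hinvL : ∀ x y : WithConv (H →ₐ[Zloc p] PadicAlgCl p), y * x = 1 → eL y = - eL x := by
    intro x y hyx
    have h1 : eL y + eL x = 0 := by rw [← hLmul, hyx, hL1]
    exact eq_neg_of_add_eq_zero_left h1
  have hinv₁ : ∀ x ∈ E₁, ∀ y : WithConv (H →ₐ[Zloc p] PadicAlgCl p), y * x = 1 → y ∈ E₁ := by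
    intro x hx y hyx
    show eL y ∈ N
    rw [hinvL x y hyx]
    exact N.neg_mem hx
  have hinv₂ : ∀ x ∈ E₂, ∀ y : WithConv (H →ₐ[Zloc p] PadicAlgCl p), y * x = 1 → y ∈ E₂ := by
    intro x hx y hyx τ hτ
    show act (localGaloisToGlobal p τ) (eL y) - eL y ∈ N
    rw [hinvL x y hyx]
    have h1 : act (localGaloisToGlobal p τ) (- eL x) = - act (localGaloisToGlobal p τ) (eL x) := by
      have h2 := hsub τ 0 (eL x)
      have h3 := hsub τ 0 0
      rw [sub_zero] at h3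
      have h4 : act (localGaloisToGlobal p τ) 0 = 0 := by
        have h5 := hadd τ 0 0
        rw [add_zero] at h5
        exact left_eq_add.mp h5
      rw [zero_sub, h4, zero_sub] at h2
      exact h2
    rw [h1]
    have h5 : - act (localGaloisToGlobal p τ) (eL x) - - eL x =
        - (act (localGaloisToGlobal p τ) (eL x) - eL x) := by abel
    rw [h5]
    exact N.neg_mem (hx τ hτ)
  have hE₁ : ∀ (σ : Gp p), ∀ x ∈ E₁, pointAct σ x ∈ E₁ := by
    intro σ x hx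
    show eL (pointAct σ x) ∈ N
    rw [hLact]
    exact hNloc σ _ hx
  have hE₂ : ∀ (σ : Gp p), ∀ x ∈ E₂, pointAct σ x ∈ E₂ := by
    intro g x hx τ hτ
    show act (localGaloisToGlobal p τ) (eL (pointAct g x)) - eL (pointAct g x) ∈ N
    rw [hLact, ← hcomp]
    have h1 : τ * g = g * (g⁻¹ * τ * g) := by group
    rw [h1, hcomp, ← hsub]
    exact hNloc g _ (hx _ (conj_mem_inertiaP hτ g))
  have hin : ∀ σ ∈ inertiaP p, ∀ x ∈ E₂, ∃ y ∈ E₁, pointAct σ x = x * y := by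
    intro σ hσ x hx
    refine ⟨eL.symm (act (localGaloisToGlobal p σ) (eL x) - eL x), ?_, ?_⟩
    · show eL (eL.symm (act (localGaloisToGlobal p σ) (eL x) - eL x)) ∈ N
      rw [eL.apply_symm_apply]
      exact hx σ hσ
    · apply eL.injective
      rw [hLmul, eL.apply_symm_apply, hLact]
      abel
  have hx2 : eL.symm x ∈ E₂ := by
    intro τ hτ
    show act (localGaloisToGlobal p τ) (eL (eL.symm x)) - eL (eL.symm x) ∈ N
    rw [eL.apply_symm_apply]
    exact hxI _ (localGaloisToGlobal_mem_inertia hτ)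
  have hxp : (eL.symm x) ^ p ∈ E₁ := by
    show eL ((eL.symm x) ^ p) ∈ N
    rw [hLpow, eL.apply_symm_apply]
    exact hpx
  have hred : ∀ h : H, ‖(eL.symm x).ofConv h -
      algebraMap (Zloc p) (PadicAlgCl p) (Coalgebra.counit h)‖ < 1 := by
    rw [hLsymm]
    exact hxInf
  have hmain := subq_gen hp2 H E₁ E₂ h12 hinv₁ hinv₂ hE₁ hE₂ hin (eL.symm x) hx2 hxp hred
  have : eL (eL.symm x) ∈ N := hmain
  rwa [eL.apply_symm_apply] at this


end Core

section Tors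

open Fermat.Agent.BAD Fermat.Agent.S19 Fermat.Agent.S19.H32

/-- The classes of `K1(n)` are killed by `n`. -/
theorem nsmul_eq_zero_of_inK1 (A : ValuationSubring (AlgebraicClosure ℚ)) (N n : ℕ)
    (x : JZero N) (hx : InK1 A N n x) : n • x = 0 := by
  obtain ⟨D, f, rfl, hres, hD⟩ := hx
  have hf0 : ((f : ↥(gaussV A N)) : ↥(FNbar N)) ≠ 0 := by
    intro h0
    have h1 : f = 0 := Subtype.ext h0
    rw [h1, map_zero] at hres
    exact zero_ne_one hres
  have h1 : (n • (Pic0.mk D : JZero N)) = Pic0.mk (n • D) := rfl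
  rw [h1]
  refine (QuotientAddGroup.eq_zero_iff _).2 (AddSubgroup.mem_addSubgroupOf.2 ?_)
  refine ⟨((f : ↥(gaussV A N)) : ↥(FNbar N)), hf0, fun P => ?_⟩
  rw [← hD P]
  simp

variable {p : ℕ} [Fact p.Prime]

/-- **NUQ-b**: the kernel of reduction `K1(p^k)` of `J₀(N)` has no unramified quotient, from the
finite flat model with the reduction clause. -/
theorem k1NoUnr_of_hopf (hH : Stmt_HopfK1) (N p : ℕ) [NeZero N] [Fact p.Prime] :
    Stmt_K1NoUnr N p := by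
  intro hp2 hpN k Nsub hNsub x hxK hpx hxI
  obtain ⟨H, _, _, hfin, hflat, hcoc, e, hmul, hact, hcl⟩ :=
    hH N p hpN k (padicPlace p) padicPlace_liesOverPrime
  haveI := hfin
  haveI := hflat
  haveI := hcoc
  -- the torsion point
  have hx0 : (p ^ k) • x = 0 := nsmul_eq_zero_of_inK1 (padicPlace p) N (p ^ k) x hxK
  have hxT : x ∈ Submodule.torsionBy ℤ (JZero N) ((p : ℤ) ^ k) := by
    rw [Submodule.mem_torsionBy_iff]
    have h1 : ((p : ℤ) ^ k) = ((p ^ k : ℕ) : ℤ) := by push_cast; rfl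
    rw [h1, natCast_zsmul]
    exact hx0
  let x' : Tors N ((p : ℤ) ^ k) := ⟨x, hxT⟩
  let N' : AddSubgroup (Tors N ((p : ℤ) ^ k)) :=
    Nsub.comap ((Submodule.torsionBy ℤ (JZero N) ((p : ℤ) ^ k)).subtype.toAddMonoidHom)
  have hmem : ∀ y : Tors N ((p : ℤ) ^ k), y ∈ N' ↔ (y : JZero N) ∈ Nsub := fun y => Iff.rfl
  have hx' : x' ∈ N' := by
    refine flatInf_core (p := p) (H := H) hp2 (Tors N ((p : ℤ) ^ k))
      (torsAct N ((p : ℤ) ^ k)) e hmul hact N' ?_ x' ?_ ?_ ?_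
    · intro σ hσ y hy
      rw [hmem] at hy ⊢
      exact hNsub σ hσ _ hy
    · -- `K1 ⊆ Inf`
      intro a
      have h1 := hcl (e.symm x') (by rw [e.apply_symm_apply]; exact hxK) a
      rw [valuation_padicPlace_lt_one_iff, map_sub] at h1
      rw [toLoc_apply]
      have h2 : padicEmbedding p (algebraMap (GaloisRep.ratLocalizedAt p) (AlgebraicClosure ℚ)
          (Coalgebra.counit a)) = algebraMap (Zloc p) (PadicAlgCl p) (Coalgebra.counit a) :=
        (embZ p).commutes _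
      rw [h2] at h1
      exact h1
    · rw [hmem]
      exact hpx
    · intro σ hσ
      rw [hmem]
      exact hxI σ hσ
  exact (hmem x').1 hx'

end Tors

end Fermat.Agent.S59.LGC.H86

end

end
-- ==== END Fermat.Agent.S59.LGC.H86_NUQb

-- ==== BEGIN Fermat.Agent.S59.LL.H40_LLec0
section

/-!
# S59, package LL (helper40): level optimisation with AUXILIARY LEVEL RAISING (`LLec0`)

The conclusion `N ∣ M₀` of `LL.Stmt_LLec` is never used (`S59/Asm/H71_LiftWire.lean`).  Without it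
the level may be RAISED by old forms before the squares are removed, and the geometric package SQ
is only needed at the TAME levels of NU-B (`4 ∣ M`, `q` odd) and at `q = 2`:

* `LLec0At p`      : `Stmt_LLec` at the prime `p`, without `N ∣ M₀`;
* `SqNewTameAt p`  : "BAD at `q²`" for the `q`-new points of `J₀(M q)[p]`, `q` odd, `q ∥ M`, `4 ∣ M`;
* `SqNewTwoAt p`   : the same at `q = 2`, `2 ∥ M` (for `p ≥ 5` a corollary of `Stmt_TorsNU`, for
                     `p = 3` the package SQ23: the `S₃`-cover `X₀(4M') → X₀(M')`);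
* `sqPart_of_new_at`, `sq_at` : the pointwise forms of `SQ.H40.sqQ_of_new` and of `LL.sq_of`;
* `resMod_mul_of_dvd`, `resMod_mul_of_not_dvd` : old forms (`q ∣ M`: the same `q`-expansion;
  `q ∤ M`: `S59.H61.stmt_Stab`);
* `llec0_at : SqNewTameAt p → SqNewTwoAt p → Stmt_S38 → Stmt_S39ss → LLec0At p`.

Induction: (i) raise the level to `4 ∥ M`; (ii) remove the odd squares `q² ∥ M`, `q ≠ p`
(`4 ∣ M` is kept); (iii) remove one `2` (the level is now squarefree); (iv) `S38` and `S39ss` on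
squarefree levels.  Plan: `NOTES/plan/S59_LL.md` §8, tested by lead (`lead_SQ23_test.md`).
-/

set_option autoImplicit false
set_option linter.unusedVariables false
set_option linter.style.haveILetI false

noncomputable section

open WeierstrassCurve WeierstrassCurve.Affine WeierstrassCurve.Affine.Point
open scoped WeierstrassCurve.Affine

namespace Fermat.Agent.S59.LL.H40

open Fermat.Agent.S59.LL Fermat.Agent.S44 Fermat.Agent.S59.LL.SQ.H40 ModularCurve
  Fermat.Agent.S35.H89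

/-! ## The statements -/

/-- **LL at `p`, without `N ∣ M₀`.** -/
def LLec0At (p : ℕ) : Prop :=
  ∀ [Fact p.Prime] (_hp2 : p ≠ 2) (W : WeierstrassCurve ℤ) (_hΔ : W.Δ ≠ 0)
    (_hW : W.IsSemistableModel)
    (hcard₁ : Nat.card (Submodule.torsionBy ℤ
      ((W.map (Int.castRingHom ℚ))⁄(AlgebraicClosure ℚ)).Point p) = p ^ 2)
    (hker : GaloisFactorsThroughFiniteLevel
      (WeierstrassCurve.Affine.Point.galoisRepModuleEnd (K := AlgebraicClosure ℚ) ℚ
        (W.map (Int.castRingHom ℚ)) p))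
    (_hirr : W.ModRepIsIrreducible p) (M₀ : ℕ) (_hM₀ : M₀ ≠ 0) (_hpM₀ : ¬ p ^ 2 ∣ M₀)
    (_hcube : ∀ q : ℕ, q.Prime → q ≠ p → ¬ q ^ 3 ∣ M₀)
    (_hres : W.IsResiduallyModularOfLevel p M₀),
    ∃ N : ℕ, Squarefree N ∧ W.IsResiduallyModularOfLevel p N ∧
      (∀ q : ℕ, q.Prime → q ≠ p → q ∣ N →
        ¬ ((W.map (Int.castRingHom ℚ)).residualGaloisRepOf p hcard₁ hker).IsUnramifiedAt q) ∧
      (p ∣ N → ¬ (W.map (Int.castRingHom ℚ)).IsPeuRamifieeAt p p)

/-- **SQ at the tame levels**: `q` odd, `q ∥ M`, `4 ∣ M` (level `M q`). -/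
def SqNewTameAt (p : ℕ) : Prop :=
  ∀ (M q : ℕ) [NeZero M] [NeZero q], q.Prime → q ≠ p → q ≠ 2 → q ∣ M → ¬ q ^ 2 ∣ M → 4 ∣ M →
    ∀ A : ValuationSubring (AlgebraicClosure ℚ), A.LiesOverPrime q → HasSqNewPartAt p M q A

/-- **SQ at `q = 2`**: `2 ∥ M` (level `2 M`). -/
def SqNewTwoAt (p : ℕ) : Prop :=
  ∀ (M : ℕ) [NeZero M], 2 ∣ M → ¬ 4 ∣ M →
    ∀ A : ValuationSubring (AlgebraicClosure ℚ), A.LiesOverPrime 2 → HasSqNewPartAt p M 2 A

/-! ## Pointwise forms of `sqQ_of_new` and `sq_of` -/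

/-- **STEP 0 at one level** (`SQ.H40.sqQ_of_new`, pointwise). -/
theorem sqPart_of_new_at (p : ℕ) (hp : p.Prime) (M q : ℕ) [NeZero M] [NeZero q] [NeZero (M * q)]
    (hq : q.Prime) (A : ValuationSubring (AlgebraicClosure ℚ))
    (h : HasSqNewPartAt p M q A) : HasSqPartAt (jzModule (M * q) p) (M * q) q A := by
  have hdiv : M * q / q = M := Nat.mul_div_cancel M hq.pos
  intro S t x hx0 hI hT hNE
  have hx0' : jzModule.pt (M * q) p x ≠ 0 := fun h0 =>
    hx0 (jzModule.pt_injective (M * q) p (by rw [h0]; rfl))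
  have hxp : (p : ℤ) • jzModule.pt (M * q) p x = 0 := jzModule.pt_torsion (M * q) p x
  have hxT : ∀ ℓ : Nat.Primes, (ℓ : ℕ) ∉ S → ¬ (ℓ : ℕ) ∣ M * q → (ℓ : ℕ) ≠ p →
      heckeOperatorBar (M * q) ℓ (jzModule.pt (M * q) p x) = t ℓ • jzModule.pt (M * q) p x := by
    intro ℓ hℓS hℓN hℓp
    have h1 := jzModule.pt_T (M * q) p ℓ.2 hℓN x
    have h2 : heckeOperatorBar (M * q) ℓ (jzModule.pt (M * q) p x)
        = jzModule.pt (M * q) p ((jzModule (M * q) p).T ℓ x) := h1.symm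
    rw [h2, hT ℓ ℓ.2 hℓS hℓN hℓp, pt_intCast_smul]
  have hconcl : ∃ (g : CuspForm (CongruenceSubgroup.Gamma0 M) 2)
      (𝔪 : Ideal (integralClosure ℤ ℂ)),
      g.IsNormalizedEigenform ∧ 𝔪.IsMaximal ∧ (p : integralClosure ℤ ℂ) ∈ 𝔪 ∧
      ∀ ℓ : ℕ, ℓ.Prime → ℓ ∉ S → ¬ ℓ ∣ M * q → ℓ ≠ p →
        ∃ a : integralClosure ℤ ℂ, (a : ℂ) = ModularFormClass.qCoeff g ℓ ∧
          a - ((t ℓ : ℤ) : integralClosure ℤ ℂ) ∈ 𝔪 := by
    by_cases hnew : IsQNew M q (jzModule.pt (M * q) p x)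
    · refine h S t (jzModule.pt (M * q) p x) hx0' hxp hnew (fun σ hσ => ?_) hxT hNE
      rw [← jzModule.pt_gal, hI σ hσ]
    · exact step0 p hp M q hq S t (jzModule.pt (M * q) p x) hxp hxT hnew
  rw [hdiv]
  exact hconcl

/-- **SQUARE removal at one level** (`LL.sq_of`, pointwise; `Stmt_SQFix` is `stmt_SQFix`). -/
theorem sq_at (p : ℕ) [hpF : Fact p.Prime] (hp2 : p ≠ 2) (W : WeierstrassCurve ℤ) (hΔ : W.Δ ≠ 0)
    (hW : W.IsSemistableModel) (hirr : W.ModRepIsIrreducible p) (M q : ℕ) (hq : q.Prime)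
    (hqp : q ≠ p) (hq2 : q ^ 2 ∣ M) (hM0 : M ≠ 0)
    (h1 : ∀ [NeZero M] (A : ValuationSubring (AlgebraicClosure ℚ)), A.LiesOverPrime q →
      HasSqPartAt (jzModule M p) M q A)
    (hres : W.IsResiduallyModularOfLevel p M) : W.IsResiduallyModularOfLevel p (M / q) := by
  have hp : p.Prime := hpF.out
  obtain ⟨f, 𝔪, hf, h𝔪, hp𝔪, hcong⟩ := hres
  have hMpos : 0 < M := Nat.pos_of_ne_zero hM0
  haveI : NeZero M := ⟨hM0⟩
  set E : WeierstrassCurve ℚ := W.map (Int.castRingHom ℚ) with hE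
  have hWE : W.IsIntegralModelOf E := ⟨1, one_smul _ _⟩
  have : E.IsElliptic := by
    refine ⟨isUnit_iff_ne_zero.mpr ?_⟩
    rw [hE, WeierstrassCurve.map_Δ]
    simpa using hΔ
  obtain ⟨A, hAq⟩ := stmt_PlaceOver q hq
  obtain ⟨hcont, hES, hsupp⟩ := stmt_TateModP p hp hp2 M
  set S : Finset ℕ := W.Δ.natAbs.primeFactors with hS
  have hnat : W.Δ.natAbs ≠ 0 := Int.natAbs_ne_zero.mpr hΔ
  have hgood : ∀ ℓ : ℕ, ℓ.Prime → ℓ ∉ S → W.IsGoodPrimeFor ℓ := by
    intro ℓ hℓ hℓS hdvd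
    apply hℓS
    rw [hS, Nat.mem_primeFactors]
    exact ⟨hℓ, Int.natCast_dvd.mp hdvd, hnat⟩
  have hbad : ∀ ℓ : ℕ, W.IsGoodPrimeFor ℓ → ℓ ∉ S := by
    intro ℓ hg hmem
    rw [hS, Nat.mem_primeFactors] at hmem
    exact hg (Int.natCast_dvd.mpr hmem.2.1)
  obtain ⟨x, hx0, hx⟩ := hsupp f 𝔪 S (fun ℓ => W.apOfModel ℓ) hf h𝔪 hp𝔪
    (fun ℓ hℓ hℓS hℓN hℓp => hcong ℓ hℓ (hgood ℓ hℓ hℓS) hℓN hℓp)
  obtain ⟨ι, hinj, hequiv, hT⟩ := Fermat.Agent.L.H52.recovery p hp hp2 M hMpos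
    (jzModule M p) hcont hES E W hWE hirr S hgood x hx0 hx
  obtain ⟨v, hv0, hvfix⟩ := stmt_SQFix p hp W hΔ hW q hq hqp A hAq
  have hNE : ∃ ℓ : ℕ, ℓ.Prime ∧ ℓ ∉ S ∧ ¬ ℓ ∣ M ∧ ℓ ≠ p ∧
      ((W.apOfModel ℓ : ℤ) : ZMod p) ≠ 1 + (ℓ : ZMod p) := by
    have h := Fermat.Agent.S41.H19.stmt_I3 E W hWE p M hp hMpos hirr
    by_contra hcon
    apply h
    intro ℓ hℓ hℓW hℓN hℓp
    by_contra hne
    exact hcon ⟨ℓ, hℓ, hbad ℓ hℓW, hℓN, hℓp, hne⟩
  obtain ⟨g, 𝔪', hg, h𝔪', hp𝔪', hgc⟩ := h1 A hAq S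
    (fun ℓ => W.apOfModel ℓ) (ι v)
    (fun h => hv0 (hinj (by rw [h, _root_.map_zero])))
    (fun σ hσ => by rw [← hequiv, hvfix σ hσ])
    (fun ℓ hℓ hℓS hℓN hℓp => hT ℓ hℓ hℓS hℓN hℓp v) hNE
  refine ⟨g, 𝔪', hg, h𝔪', hp𝔪', fun ℓ hℓ hℓgood hℓMq hℓp => ?_⟩
  have hqMq : q ∣ M / q := by
    obtain ⟨k, hk⟩ := hq2
    refine ⟨k, ?_⟩
    rw [hk, pow_two, mul_assoc, Nat.mul_div_cancel_left _ hq.pos]
  have hℓM : ¬ ℓ ∣ M := by
    intro hd
    have hqM : q ∣ M := (dvd_pow_self q two_ne_zero).trans hq2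
    rw [← Nat.div_mul_cancel hqM] at hd
    rcases (Nat.Prime.dvd_mul hℓ).1 hd with h | h
    · exact hℓMq h
    · have : ℓ = q := (Nat.prime_dvd_prime_iff_eq hℓ hq).1 h
      exact hℓMq (this ▸ hqMq)
  exact hgc ℓ hℓ (hbad ℓ hℓgood) hℓM hℓp

/-- **SQUARE removal at one level from the `q`-new part.** -/
theorem sq_at_of_new (p : ℕ) [hpF : Fact p.Prime] (hp2 : p ≠ 2) (W : WeierstrassCurve ℤ)
    (hΔ : W.Δ ≠ 0) (hW : W.IsSemistableModel) (hirr : W.ModRepIsIrreducible p) (M q : ℕ)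
    (hq : q.Prime) (hqp : q ≠ p) (hM0 : M ≠ 0)
    (h1 : ∀ [NeZero M] [NeZero q] (A : ValuationSubring (AlgebraicClosure ℚ)),
      A.LiesOverPrime q → HasSqNewPartAt p M q A)
    (hqM : q ∣ M)
    (hres : W.IsResiduallyModularOfLevel p (M * q)) : W.IsResiduallyModularOfLevel p M := by
  haveI : NeZero M := ⟨hM0⟩
  haveI : NeZero q := ⟨hq.ne_zero⟩
  have hMq0 : M * q ≠ 0 := mul_ne_zero hM0 hq.ne_zero
  haveI : NeZero (M * q) := ⟨hMq0⟩
  have hq2 : q ^ 2 ∣ M * q := by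
    rw [pow_two]
    exact Nat.mul_dvd_mul hqM dvd_rfl
  have h := sq_at p hp2 W hΔ hW hirr (M * q) q hq hqp hq2 hMq0
    (fun A hA => sqPart_of_new_at p hpF.out M q hq A (h1 A hA)) hres
  rwa [Nat.mul_div_cancel M hq.pos] at h

/-! ## Old forms -/

/-- **Old forms, `q ∣ M`**: the same `q`-expansion is a normalised eigenform of level `M q`. -/
theorem resMod_mul_of_dvd (W : WeierstrassCurve ℤ) (p M q : ℕ) (hq : q.Prime) (hqM : q ∣ M)
    (h : W.IsResiduallyModularOfLevel p M) : W.IsResiduallyModularOfLevel p (M * q) := by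
  obtain ⟨f, 𝔪, hf, h𝔪, hp𝔪, hc⟩ := h
  refine ⟨Fermat.Agent.S59.H61.restrictCusp (Fermat.Agent.S59.H61.Gamma0_mul_le_GL M q) f, 𝔪,
    ⟨?_, ?_, ?_, ?_⟩, h𝔪, hp𝔪, fun ℓ hℓ hg hℓM hℓp => ?_⟩
  · exact hf.qCoeff_one
  · exact hf.qCoeff_mul_of_coprime
  · intro r k hr hrM
    exact hf.qCoeff_prime_pow_of_not_dvd r k hr (fun hd => hrM (hd.mul_right q))
  · intro r k hr hrM
    refine hf.qCoeff_prime_pow_of_dvd r k hr ?_
    rcases (Nat.Prime.dvd_mul hr).1 hrM with hd | hd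
    · exact hd
    · exact ((Nat.prime_dvd_prime_iff_eq hr hq).1 hd) ▸ hqM
  · exact hc ℓ hℓ hg (fun hd => hℓM (hd.mul_right q)) hℓp

/-- **Old forms, `q ∤ M`**: stabilisation (`S59.H61.stmt_Stab`). -/
theorem resMod_mul_of_not_dvd (W : WeierstrassCurve ℤ) (p M q : ℕ) (hq : q.Prime) (hqM : ¬ q ∣ M)
    (h : W.IsResiduallyModularOfLevel p M) : W.IsResiduallyModularOfLevel p (M * q) := by
  obtain ⟨f, 𝔪, hf, h𝔪, hp𝔪, hc⟩ := h
  obtain ⟨g, hg, hgf⟩ := Fermat.Agent.S59.H61.stmt_Stab M q hq hqM f hf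
  refine ⟨g, 𝔪, hg, h𝔪, hp𝔪, fun ℓ hℓ hgood hℓM hℓp => ?_⟩
  have hℓq : ℓ ≠ q := by
    rintro rfl
    exact hℓM (dvd_mul_left _ _)
  rw [hgf ℓ hℓ hℓq]
  exact hc ℓ hℓ hgood (fun hd => hℓM (hd.mul_right q)) hℓp

/-! ## The squarefree levels: `S38` and `S39ss` -/

/-- **LL on the squarefree levels.** -/
theorem llec_sqfree (h38 : Stmt_S38) (h39 : Stmt_S39ss) (p : ℕ) [hpF : Fact p.Prime]
    (hp2 : p ≠ 2) (W : WeierstrassCurve ℤ) (hΔ : W.Δ ≠ 0) (hW : W.IsSemistableModel)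
    (hcard₁ : Nat.card (Submodule.torsionBy ℤ
      ((W.map (Int.castRingHom ℚ))⁄(AlgebraicClosure ℚ)).Point p) = p ^ 2)
    (hker : GaloisFactorsThroughFiniteLevel
      (WeierstrassCurve.Affine.Point.galoisRepModuleEnd (K := AlgebraicClosure ℚ) ℚ
        (W.map (Int.castRingHom ℚ)) p))
    (hirr : W.ModRepIsIrreducible p) :
    ∀ n : ℕ, ∀ M : ℕ, M ≤ n → Squarefree M → W.IsResiduallyModularOfLevel p M →
      ∃ N : ℕ, Squarefree N ∧ W.IsResiduallyModularOfLevel p N ∧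
        (∀ q : ℕ, q.Prime → q ≠ p → q ∣ N →
          ¬ ((W.map (Int.castRingHom ℚ)).residualGaloisRepOf p hcard₁ hker).IsUnramifiedAt q) ∧
        (p ∣ N → ¬ (W.map (Int.castRingHom ℚ)).IsPeuRamifieeAt p p) := by
  classical
  have hp : p.Prime := hpF.out
  intro n
  induction n with
  | zero =>
    intro M hM hsq
    have : M = 0 := Nat.le_zero.mp hM
    subst this
    exact absurd hsq not_squarefree_zero
  | succ n ih =>
    intro M hMn hMsq hres
    have hM0 : M ≠ 0 := fun h => not_squarefree_zero (h ▸ hMsq)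
    have step : ∀ q : ℕ, q.Prime → q ∣ M → W.IsResiduallyModularOfLevel p (M / q) →
        ∃ N : ℕ, Squarefree N ∧ W.IsResiduallyModularOfLevel p N ∧
          (∀ q : ℕ, q.Prime → q ≠ p → q ∣ N →
            ¬ ((W.map (Int.castRingHom ℚ)).residualGaloisRepOf p hcard₁ hker).IsUnramifiedAt q) ∧
          (p ∣ N → ¬ (W.map (Int.castRingHom ℚ)).IsPeuRamifieeAt p p) := by
      intro q hq hqM hres'
      have hdvd : M / q ∣ M := Nat.div_dvd_of_dvd hqM
      have hlt : M / q < M := Nat.div_lt_self (Nat.pos_of_ne_zero hM0) hq.one_lt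
      exact ih (M / q) (by omega) (hMsq.squarefree_of_dvd hdvd) hres'
    have hnsq : ∀ q : ℕ, q.Prime → ¬ q ^ 2 ∣ M := by
      intro q hq hd
      rw [pow_two] at hd
      exact hq.not_isUnit (hMsq q hd)
    by_cases hunr : ∃ q : ℕ, q.Prime ∧ q ≠ p ∧ q ∣ M ∧
        ((W.map (Int.castRingHom ℚ)).residualGaloisRepOf p hcard₁ hker).IsUnramifiedAt q
    · obtain ⟨q, hq, hqp, hqM, hu⟩ := hunr
      exact step q hq hqM
        (h38 p hp2 W hΔ hW hcard₁ hker hirr M q hq hqp hqM (hnsq q hq) hMsq hu hres)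
    · push Not at hunr
      by_cases hpp : p ∣ M ∧ (W.map (Int.castRingHom ℚ)).IsPeuRamifieeAt p p
      · obtain ⟨hpdvd, hfin⟩ := hpp
        exact step p hp hpdvd
          (h39 p hp2 W hΔ hW hcard₁ hker hirr hfin M (Nat.pos_of_ne_zero hM0) hMsq hpdvd
            (fun q hq hqp hqM => hunr q hq hqp hqM) hres)
      · exact ⟨M, hMsq, hres, fun q hq hqp hqM => hunr q hq hqp hqM, fun hpdvd hfin =>
          hpp ⟨hpdvd, hfin⟩⟩

/-! ## The odd squares at the levels divisible by `4` -/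

/-- **Removal of the odd squares** (`4 ∣ M` is kept). -/
theorem odd_squares (p : ℕ) [hpF : Fact p.Prime] (hp2 : p ≠ 2) (hT : SqNewTameAt p)
    (W : WeierstrassCurve ℤ) (hΔ : W.Δ ≠ 0) (hW : W.IsSemistableModel)
    (hirr : W.ModRepIsIrreducible p) :
    ∀ n : ℕ, ∀ M : ℕ, M ≤ n → M ≠ 0 → 4 ∣ M → ¬ 8 ∣ M → ¬ p ^ 2 ∣ M →
      (∀ q : ℕ, q.Prime → q ≠ p → ¬ q ^ 3 ∣ M) → W.IsResiduallyModularOfLevel p M →
      ∃ M₂ : ℕ, M₂ ≠ 0 ∧ 4 ∣ M₂ ∧ ¬ 8 ∣ M₂ ∧ ¬ p ^ 2 ∣ M₂ ∧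
        (∀ q : ℕ, q.Prime → q ≠ 2 → ¬ q ^ 2 ∣ M₂) ∧ W.IsResiduallyModularOfLevel p M₂ := by
  classical
  have hp : p.Prime := hpF.out
  intro n
  induction n with
  | zero =>
    intro M hM hM0
    exact absurd (Nat.le_zero.mp hM) hM0
  | succ n ih =>
    intro M hMn hM0 h4 h8 hpM hcube hres
    by_cases hsq : ∃ q : ℕ, q.Prime ∧ q ≠ 2 ∧ q ^ 2 ∣ M
    · obtain ⟨q, hq, hq2, hqsq⟩ := hsq
      have hqp : q ≠ p := by
        rintro rfl
        exact hpM hqsq
      have hqM : q ∣ M := (dvd_pow_self q two_ne_zero).trans hqsq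
      obtain ⟨M', rfl⟩ : ∃ M', M = M' * q := ⟨M / q, (Nat.div_mul_cancel hqM).symm⟩
      have hM'0 : M' ≠ 0 := by
        rintro rfl
        exact hM0 (zero_mul q)
      have hqM' : q ∣ M' := by
        rw [pow_two] at hqsq
        exact (Nat.mul_dvd_mul_iff_right hq.pos).1 hqsq
      have hq2M' : ¬ q ^ 2 ∣ M' := by
        intro hd
        apply hcube q hq hqp
        rw [pow_succ]
        exact Nat.mul_dvd_mul hd dvd_rfl
      have hcop : Nat.Coprime 4 q := by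
        have h2q : Nat.Coprime 2 q :=
          (Nat.coprime_primes Nat.prime_two hq).2 (fun h => hq2 h.symm)
        have : Nat.Coprime (2 ^ 2) q := Nat.Coprime.pow_left 2 h2q
        simpa using this
      have h4M' : 4 ∣ M' := hcop.dvd_of_dvd_mul_right h4
      have hres' : W.IsResiduallyModularOfLevel p M' :=
        sq_at_of_new p hp2 W hΔ hW hirr M' q hq hqp hM'0
          (fun A hA => hT M' q hq hqp hq2 hqM' hq2M' h4M' A hA) hqM' hres
      have hlt : M' < M' * q := by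
        have := hq.one_lt
        have hpos : 0 < M' := Nat.pos_of_ne_zero hM'0
        nlinarith
      exact ih M' (by omega) hM'0 h4M' (fun h => h8 (h.mul_right q)) (fun h => hpM (h.mul_right q))
        (fun r hr hrp h => hcube r hr hrp (h.mul_right q)) hres'
    · push Not at hsq
      exact ⟨M, hM0, h4, h8, hpM, fun q hq hq2 => hsq q hq hq2, hres⟩

/-! ## The induction -/

/-- **LL at `p` with auxiliary level raising**: the squares are removed at the levels divisible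
by `4` (odd `q`) and at `q = 2`. -/
theorem llec0_at (p : ℕ) (hT : SqNewTameAt p) (h2 : SqNewTwoAt p) (h38 : Stmt_S38)
    (h39 : Stmt_S39ss) : LLec0At p := by
  classical
  intro hpF hp2 W hΔ hW hcard₁ hker hirr M₀ hM₀ hpM₀ hcube hres
  have hp : p.Prime := hpF.out
  have h2p : (2 : ℕ) ≠ p := fun h => hp2 h.symm
  have hpodd : Nat.Coprime (p ^ 2) 2 := by
    have : Nat.Coprime p 2 := (Nat.coprime_primes hp Nat.prime_two).2 hp2
    exact Nat.Coprime.pow_left 2 this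
  have h8M₀ : ¬ 8 ∣ M₀ := fun h => hcube 2 Nat.prime_two h2p (by norm_num; exact h)
  -- (i) raise the level to `4 ∥ M₁`
  obtain ⟨M₁, hM₁0, h4, h8, hpM₁, hcube₁, hres₁⟩ : ∃ M₁ : ℕ, M₁ ≠ 0 ∧ 4 ∣ M₁ ∧ ¬ 8 ∣ M₁ ∧
      ¬ p ^ 2 ∣ M₁ ∧ (∀ q : ℕ, q.Prime → q ≠ p → ¬ q ^ 3 ∣ M₁) ∧
      W.IsResiduallyModularOfLevel p M₁ := by
    -- multiplication by `2` keeps the conditions away from `2`
    have key : ∀ M : ℕ, M ≠ 0 → ¬ 4 ∣ M → ¬ p ^ 2 ∣ M →
        (∀ q : ℕ, q.Prime → q ≠ p → q ≠ 2 → ¬ q ^ 3 ∣ M) →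
        M * 2 ≠ 0 ∧ ¬ 8 ∣ M * 2 ∧ ¬ p ^ 2 ∣ M * 2 ∧
          (∀ q : ℕ, q.Prime → q ≠ p → q ≠ 2 → ¬ q ^ 3 ∣ M * 2) := by
      intro M hM0 h4M hpM hc
      refine ⟨mul_ne_zero hM0 two_ne_zero, ?_, ?_, ?_⟩
      · intro h
        apply h4M
        have : (4 : ℕ) * 2 ∣ M * 2 := by simpa using h
        exact (Nat.mul_dvd_mul_iff_right (by norm_num)).1 this
      · intro h
        exact hpM (hpodd.dvd_of_dvd_mul_right h)
      · intro q hq hqp hq2 h
        have hc3 : Nat.Coprime (q ^ 3) 2 := by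
          have : Nat.Coprime q 2 := (Nat.coprime_primes hq Nat.prime_two).2 hq2
          exact Nat.Coprime.pow_left 3 this
        exact hc q hq hqp hq2 (hc3.dvd_of_dvd_mul_right h)
    have cubeOf : ∀ M : ℕ, ¬ 8 ∣ M → (∀ q : ℕ, q.Prime → q ≠ p → q ≠ 2 → ¬ q ^ 3 ∣ M) →
        ∀ q : ℕ, q.Prime → q ≠ p → ¬ q ^ 3 ∣ M := by
      intro M h8 hc q hq hqp
      by_cases hq2 : q = 2
      · subst hq2
        norm_num
        exact h8
      · exact hc q hq hqp hq2
    have hc₀ : ∀ q : ℕ, q.Prime → q ≠ p → q ≠ 2 → ¬ q ^ 3 ∣ M₀ := fun q hq hqp _ => hcube q hq hqp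
    by_cases h4M₀ : 4 ∣ M₀
    · exact ⟨M₀, hM₀, h4M₀, h8M₀, hpM₀, hcube, hres⟩
    · by_cases h2M₀ : 2 ∣ M₀
      · obtain ⟨k1, k2, k3, k4⟩ := key M₀ hM₀ h4M₀ hpM₀ hc₀
        refine ⟨M₀ * 2, k1, ?_, k2, k3, cubeOf _ k2 k4,
          resMod_mul_of_dvd W p M₀ 2 Nat.prime_two h2M₀ hres⟩
        obtain ⟨c, rfl⟩ := h2M₀
        exact ⟨c, by ring⟩
      · have h4' : ¬ 4 ∣ M₀ * 2 := by
          intro h
          apply h2M₀
          have : (2 : ℕ) * 2 ∣ M₀ * 2 := by simpa using h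
          exact (Nat.mul_dvd_mul_iff_right (by norm_num)).1 this
        obtain ⟨k1, k2, k3, k4⟩ := key M₀ hM₀ h4M₀ hpM₀ hc₀
        obtain ⟨l1, l2, l3, l4⟩ := key (M₀ * 2) k1 h4' k3 k4
        refine ⟨M₀ * 2 * 2, l1, ⟨M₀, by ring⟩, l2, l3, cubeOf _ l2 l4, ?_⟩
        exact resMod_mul_of_dvd W p (M₀ * 2) 2 Nat.prime_two (dvd_mul_left 2 M₀)
          (resMod_mul_of_not_dvd W p M₀ 2 Nat.prime_two h2M₀ hres)
  -- (ii) the odd squares
  obtain ⟨M₂, hM₂0, h4₂, h8₂, hpM₂, hsq₂, hres₂⟩ :=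
    odd_squares p hp2 hT W hΔ hW hirr M₁ M₁ le_rfl hM₁0 h4 h8 hpM₁ hcube₁ hres₁
  -- (iii) one `2`
  obtain ⟨M₃, rfl⟩ : ∃ M₃, M₂ = M₃ * 2 := by
    obtain ⟨c, hc⟩ := h4₂
    exact ⟨2 * c, by rw [hc]; ring⟩
  have hM₃0 : M₃ ≠ 0 := by
    rintro rfl
    exact hM₂0 (zero_mul 2)
  have h2M₃ : 2 ∣ M₃ := by
    have : (2 : ℕ) * 2 ∣ M₃ * 2 := by simpa using h4₂
    exact (Nat.mul_dvd_mul_iff_right (by norm_num)).1 this
  have h4M₃ : ¬ 4 ∣ M₃ := by
    intro h
    apply h8₂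
    have : (4 : ℕ) * 2 ∣ M₃ * 2 := Nat.mul_dvd_mul h dvd_rfl
    simpa using this
  have hres₃ : W.IsResiduallyModularOfLevel p M₃ :=
    sq_at_of_new p hp2 W hΔ hW hirr M₃ 2 Nat.prime_two h2p hM₃0
      (fun A hA => h2 M₃ h2M₃ h4M₃ A hA) h2M₃ hres₂
  have hMsq : Squarefree M₃ := by
    rw [Nat.squarefree_iff_prime_squarefree]
    intro r hr hrr
    by_cases hr2 : r = 2
    · subst hr2
      exact h4M₃ (by simpa using hrr)
    · exact hsq₂ r hr hr2 (by rw [pow_two]; exact hrr.mul_right 2)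
  -- (iv) the squarefree levels
  exact llec_sqfree h38 h39 p hp2 W hΔ hW hcard₁ hker hirr M₃ M₃ le_rfl hMsq hres₃

end Fermat.Agent.S59.LL.H40

end
end
-- ==== END Fermat.Agent.S59.LL.H40_LLec0

-- ==== BEGIN Fermat.Agent.S59.LL.SQ.H20_StRankFam
section

/-!
# S59 / LL / SQ, leaf ST-RANK (owner helper20): the toric family and the abstract assembly

`S : BAD.SSD K F k F₁ F₂` a semistable Deuring datum, `L` a subfield of `F`, `n = p ^ e`.
`T = {x | InTA S L n x}` (helper69): the classes with a Kummer function `f ∈ L`, a unit for the two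
valuations, with reductions `φ₁ ^ n`, `φ₂ ^ n`.

* `isKumA_mul_pow`, `eq_of_isKumA_pow` : Kummer functions modulo `n`-th powers;
* `torMonoid S L n` : the functions `f y ^ n`, `f ∈ L` a unit for the two valuations;
* `exists_isTor_of_toric` : the moving lemma puts a toric Kummer function in good position:
  `f y ^ n` is as in `S15.Desc.H83.IsTor`;
* `exists_isTor_of_inTA` : the same for a class of `T`;
* `exists_glue_of_card` : if `p ^ (2 e (δ - 1)) ≤ p ^ (e + c') · #T ^ 2` with `c' < e`, every vector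
  `θ : nodes → μ_p` is the glue vector of `f y ^ n`, `f ∈ L` (helper83's `exists_tor_of_count`);
* `card_chain` : the arithmetic of the counts (a), (b), (d), (f);
* `exists_glue_of_counts` : the abstract assembly.

This file contains no unproved statement.
-/

set_option autoImplicit false
set_option linter.style.haveILetI false
set_option linter.unusedSectionVars false
set_option linter.unusedVariables false
set_option maxHeartbeats 1000000

noncomputable section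

open AlgebraicCurve

attribute [local instance] Classical.propDecidable

namespace Fermat.Agent.S59.LL.SQ.H20

open Fermat.Agent.RED.H17 Fermat.Agent.RED Fermat.Agent.BAD Fermat.Agent.S15.Desc.H83
open Fermat.Agent.S59.LL.SQ.H69

/-! ### Kummer functions modulo `n`-th powers -/

section Kum

variable {K F : Type*} [Field K] [Field F] [Algebra K F]

/-- `y ^ n` is a Kummer function of the class `0`. -/
theorem isKumA_zero_pow (hP : HasPrincipalDivisors K F) (n : ℕ) {y : F} (hy : y ≠ 0) :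
    IsKumA n (0 : Pic0 K F) (y ^ n) := by
  refine ⟨⟨dv hP y, Divisor.mem_degZero.mpr (degree_dv hP y)⟩, ?_, fun P => ?_⟩
  · symm
    rw [Pic0.mk, QuotientAddGroup.eq_zero_iff, AddSubgroup.mem_addSubgroupOf]
    exact dv_mem_principal hP hy
  · show (n : ℤ) * dv hP y P = _
    rw [dv_apply, ord_pow]

/-- The product of two Kummer functions. -/
theorem isKumA_mul {n : ℕ} {x x' : Pic0 K F} {f f' : F} (h : IsKumA n x f)
    (h' : IsKumA n x' f') (hf : f ≠ 0) (hf' : f' ≠ 0) : IsKumA n (x + x') (f * f') := by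
  obtain ⟨D, rfl, hD⟩ := h
  obtain ⟨D', rfl, hD'⟩ := h'
  refine ⟨D + D', rfl, fun P => ?_⟩
  rw [P.ord_mul hf hf', ← hD P, ← hD' P]
  show (n : ℤ) * ((D : Divisor K F) + (D' : Divisor K F)) P = _
  rw [Finsupp.add_apply]
  ring

/-- A Kummer function may be multiplied by an `n`-th power. -/
theorem isKumA_mul_pow (hP : HasPrincipalDivisors K F) {n : ℕ} {x : Pic0 K F} {f : F}
    (h : IsKumA n x f) (hf : f ≠ 0) {y : F} (hy : y ≠ 0) : IsKumA n x (f * y ^ n) := by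
  have h1 := isKumA_mul h (isKumA_zero_pow hP n hy) hf (pow_ne_zero n hy)
  rwa [add_zero] at h1

/-- A class with an `n`-th power as Kummer function is `0`. -/
theorem eq_zero_of_isKumA_pow {n : ℕ} (hn : n ≠ 0) {z : Pic0 K F} {w : F} (hw : w ≠ 0)
    (h : IsKumA n z (w ^ n)) : z = 0 := by
  obtain ⟨D, rfl, hD⟩ := h
  rw [Pic0.mk, QuotientAddGroup.eq_zero_iff, AddSubgroup.mem_addSubgroupOf]
  refine ⟨w, hw, fun P => ?_⟩
  have hnZ : (n : ℤ) ≠ 0 := by exact_mod_cast hn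
  have h1 := hD P
  rw [ord_pow] at h1
  exact mul_left_cancel₀ hnZ h1

/-- Two classes whose Kummer functions differ by an `n`-th power are equal. -/
theorem eq_of_isKumA_pow {n : ℕ} (hn : n ≠ 0) {x x' : Pic0 K F} {f f' : F} (h : IsKumA n x f)
    (h' : IsKumA n x' f') (hf : f ≠ 0) (hf' : f' ≠ 0) (hw : ∃ w : F, w ^ n * f' = f) :
    x = x' := by
  obtain ⟨w, hw⟩ := hw
  have hw0 : w ≠ 0 := by
    rintro rfl
    rw [zero_pow hn, zero_mul] at hw
    exact hf hw.symm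
  have h1 := h.div h' hf hf'
  have e : f / f' = w ^ n := by
    rw [← hw]
    field_simp
  rw [e] at h1
  exact sub_eq_zero.mp (eq_zero_of_isKumA_pow hn hw0 h1)

end Kum

/-! ### The toric family -/

section Fam

variable {K F k F₁ F₂ : Type} [Field K] [Field F] [Algebra K F] [Field k] [Field F₁]
  [Algebra k F₁] [Field F₂] [Algebra k F₂]

/-- The functions `f y ^ n`, `f ∈ L` a unit for the two valuations. -/
def torMonoid (S : SSD K F k F₁ F₂) (L : Subfield F) (n : ℕ) : Submonoid F where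
  carrier := {g | ∃ f ∈ L, S.c₁.IsGU f ∧ S.c₂.IsGU f ∧ ∃ y : F, g = f * y ^ n}
  one_mem' := ⟨1, L.one_mem, S.c₁.isGU_one, S.c₂.isGU_one, 1, by rw [one_pow, mul_one]⟩
  mul_mem' := by
    rintro a b ⟨f, hf, h₁, h₂, y, rfl⟩ ⟨f', hf', h₁', h₂', y', rfl⟩
    exact ⟨f * f', L.mul_mem hf hf', h₁.mul h₁', h₂.mul h₂', y * y', by ring⟩

theorem mem_torMonoid {S : SSD K F k F₁ F₂} {L : Subfield F} {n : ℕ} {g : F} :
    g ∈ torMonoid S L n ↔
      ∃ f ∈ L, S.c₁.IsGU f ∧ S.c₂.IsGU f ∧ ∃ y : F, g = f * y ^ n := Iff.rfl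

/-- **Moving a toric Kummer function to good position.**  If `f` is a unit for the two
valuations with reductions `φ₁ ^ n`, `φ₂ ^ n` and `n ∣ div f`, then for some `y ≠ 0` the function
`f y ^ n` is toric in good position. -/
theorem exists_isTor_of_toric [Infinite k] (S : SSD K F k F₁ F₂)
    (H : FFHyp K F) (H₁ : FFHyp k F₁) (H₂ : FFHyp k F₂)
    (g g₁ g₂ : ℕ) (c c₁ c₂ : ℤ) (hR : IsGenus K F g c) (hR₁ : IsGenus k F₁ g₁ c₁)
    (hR₂ : IsGenus k F₂ g₂ c₂) (hnum : g + 1 ≤ g₁ + g₂ + S.nodes.card)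
    (n : ℕ) (hn : (n : k) ≠ 0) {f : F} (G₁ : S.c₁.IsGU f) (G₂ : S.c₂.IsGU f)
    {φ₁ : F₁} {φ₂ : F₂} (e₁ : S.c₁.rd f = φ₁ ^ n) (e₂ : S.c₂.rd f = φ₂ ^ n)
    (hdiv : ∀ P : Place K F, (n : ℤ) ∣ P.ord f) :
    ∃ (y : F) (ψ₁ : F₁) (ψ₂ : F₂), y ≠ 0 ∧ IsTor S n (f * y ^ n) ψ₁ ψ₂ := by
  have hn0 : n ≠ 0 := by
    rintro rfl
    exact hn Nat.cast_zero
  have hφ₁ : φ₁ ≠ 0 := by
    rintro rfl
    rw [zero_pow hn0] at e₁
    exact G₁.rd_ne_zero e₁
  have hφ₂ : φ₂ ≠ 0 := by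
    rintro rfl
    rw [zero_pow hn0] at e₂
    exact G₂.rd_ne_zero e₂
  obtain ⟨X₁, hX₁m, hX₁r⟩ := S.c₁.exists_rd_eq φ₁
  obtain ⟨X₂, hX₂m, hX₂r⟩ := S.c₂.exists_rd_eq φ₂
  have hX₁ : S.c₁.IsGU X₁ := ⟨hX₁m, by rw [hX₁r]; exact hφ₁⟩
  have hX₂ : S.c₂.IsGU X₂ := ⟨hX₂m, by rw [hX₂r]; exact hφ₂⟩
  have hX₁0 : X₁ ≠ 0 := hX₁.ne_zero
  have hX₂0 : X₂ ≠ 0 := hX₂.ne_zero
  have hf0 : f ≠ 0 := G₁.ne_zero
  set f' : F := f / X₁ ^ n with hf'
  set ϑ : F := X₂ / X₁ with hϑ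
  have hϑ0 : ϑ ≠ 0 := div_ne_zero hX₂0 hX₁0
  have hf'GU : S.c₁.IsGU f' := G₁.div (hX₁.pow n)
  have hf'rd : S.c₁.rd f' = 1 := by
    rw [hf', G₁.rd_div (hX₁.pow n), e₁, S.c₁.rd_pow hX₁m, hX₁r, div_self (pow_ne_zero _ hφ₁)]
  have key : f' / ϑ ^ n = f / X₂ ^ n := by
    rw [hf', hϑ, div_pow]
    have h1 : X₁ ^ n ≠ 0 := pow_ne_zero _ hX₁0
    have h2 : X₂ ^ n ≠ 0 := pow_ne_zero _ hX₂0
    field_simp
  have hf'₂ : S.c₂.IsGU (f' / ϑ ^ n) := by
    rw [key]
    exact G₂.div (hX₂.pow n)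
  have hf'₂rd : S.c₂.rd (f' / ϑ ^ n) = 1 := by
    rw [key, G₂.rd_div (hX₂.pow n), e₂, S.c₂.rd_pow hX₂m, hX₂r, div_self (pow_ne_zero _ hφ₂)]
  have hf'0 : f' ≠ 0 := hf'GU.ne_zero
  have hdiv' : ∀ P : Place K F, (n : ℤ) ∣ P.ord f' := by
    intro P
    rw [hf', ord_div P hf0 (pow_ne_zero _ hX₁0), ord_pow]
    exact dvd_sub (hdiv P) (dvd_mul_right _ _)
  let x : S.Twist n :=
    { f := f'
      ϑ := ϑ
      hϑ := hϑ0
      hf₁ := hf'GU.1
      hrd₁ := hf'rd
      hf₂ := hf'₂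
      hdiv := hdiv'
      hγ := fun s _ => by rw [hf'₂rd, Place.ord_one] }
  obtain ⟨h, hhG₁, hhG₂, hnode⟩ :=
    stmt_Moving K F k F₁ F₂ S H H₁ H₂ g g₁ g₂ c c₁ c₂ hR hR₁ hR₂ hnum n hn x
  change S.c₂.IsGU (ϑ * h) at hhG₂
  change ∀ P : Place K F, S.IsNodeP P → P.ord (f' * h ^ n) = 0 at hnode
  have hh0 : h ≠ 0 := hhG₁.ne_zero
  have hy0 : h / X₁ ≠ 0 := div_ne_zero hh0 hX₁0
  have hFy : f * (h / X₁) ^ n = f' * h ^ n := by
    rw [hf', div_pow]
    have h1 : X₁ ^ n ≠ 0 := pow_ne_zero _ hX₁0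
    field_simp
  have eFh : f' * h ^ n = (f' / ϑ ^ n) * (ϑ * h) ^ n := by
    have hϑn : ϑ ^ n ≠ 0 := pow_ne_zero _ hϑ0
    rw [mul_pow]
    field_simp
  refine ⟨h / X₁, S.c₁.rd h, S.c₂.rd (ϑ * h), hy0, ?_⟩
  rw [hFy]
  exact
    { gu₁ := hf'GU.mul (hhG₁.pow n)
      gu₂ := by
        rw [eFh]
        exact hf'₂.mul (hhG₂.pow n)
      rd₁ := by
        rw [S.c₁.rd_mul hf'GU.1 (hhG₁.pow n).1, hf'rd, one_mul, S.c₁.rd_pow hhG₁.1]
      rd₂ := by
        rw [eFh, S.c₂.rd_mul hf'₂.1 (hhG₂.pow n).1, hf'₂rd, one_mul, S.c₂.rd_pow hhG₂.1]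
      node := hnode
      dvd := fun P => by
        rw [P.ord_mul hf'0 (pow_ne_zero _ hh0), ord_pow]
        exact dvd_add (hdiv' P) (dvd_mul_right _ _) }

/-- A class of the toric part has a toric Kummer function in good position of the form
`f y ^ n`, `f ∈ L`. -/
theorem exists_isTor_of_inTA [Infinite k] (S : SSD K F k F₁ F₂)
    (H : FFHyp K F) (H₁ : FFHyp k F₁) (H₂ : FFHyp k F₂)
    (g g₁ g₂ : ℕ) (c c₁ c₂ : ℤ) (hR : IsGenus K F g c) (hR₁ : IsGenus k F₁ g₁ c₁)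
    (hR₂ : IsGenus k F₂ g₂ c₂) (hnum : g + 1 ≤ g₁ + g₂ + S.nodes.card)
    (n : ℕ) (hn : (n : k) ≠ 0) (L : Subfield F) {x : Pic0 K F} (hx : InTA S L n x) :
    ∃ (G : F) (ψ₁ : F₁) (ψ₂ : F₂), G ∈ torMonoid S L n ∧ IsKumA n x G ∧ IsTor S n G ψ₁ ψ₂ := by
  obtain ⟨f, hfL, hK, G₁, G₂, φ₁, φ₂, e₁, e₂⟩ := hx
  obtain ⟨y, ψ₁, ψ₂, hy0, hT⟩ := exists_isTor_of_toric S H H₁ H₂ g g₁ g₂ c c₁ c₂ hR hR₁ hR₂ hnum
    n hn G₁ G₂ e₁ e₂ hK.dvd
  exact ⟨f * y ^ n, ψ₁, ψ₂, ⟨f, hfL, G₁, G₂, y, rfl⟩,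
    isKumA_mul_pow H.principal hK G₁.ne_zero hy0, hT⟩

/-- **ST-RANK from the count of the toric part.**  If
`p ^ (2 e (δ - 1)) ≤ p ^ (e + c') · #T ^ 2` with `c' < e`, then every vector `θ : nodes → μ_p` is
the glue vector of a toric function `f y ^ (p ^ e)` in good position, `f ∈ L`. -/
theorem exists_glue_of_card (S : SSD K F k F₁ F₂) [IsAlgClosed K] [IsAlgClosed k]
    (H : FFHyp K F) (H₁ : FFHyp k F₁) (H₂ : FFHyp k F₂)
    (g g₁ g₂ : ℕ) (c c₁ c₂ : ℤ) (hR : IsGenus K F g c) (hR₁ : IsGenus k F₁ g₁ c₁)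
    (hR₂ : IsGenus k F₂ g₂ c₂) (hnum : g + 1 ≤ g₁ + g₂ + S.nodes.card)
    (p e c' : ℕ) (hp : p.Prime) (hpk : (p : k) ≠ 0) (hce : c' < e) (L : Subfield F)
    (hfin : {x : Pic0 K F | InTA S L (p ^ e) x}.Finite)
    (hcard : p ^ (2 * e * (S.nodes.card - 1)) ≤
      p ^ (e + c') * Nat.card ↥{x : Pic0 K F | InTA S L (p ^ e) x} ^ 2)
    (θ : Place k F₁ × Place k F₂ → k) (hθ : ∀ s ∈ S.nodes, θ s ^ p = 1) :
    ∃ (f y : F) (ψ₁ : F₁) (ψ₂ : F₂), f ∈ L ∧ S.c₁.IsGU f ∧ S.c₂.IsGU f ∧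
      IsTor S (p ^ e) (f * y ^ (p ^ e)) ψ₁ ψ₂ ∧
      ∀ s ∈ S.nodes, ∃ a b : k, b ≠ 0 ∧ VanAt s.1 (ψ₁ - algebraMap k F₁ a) ∧
        VanAt s.2 (ψ₂ - algebraMap k F₂ b) ∧ a = θ s * b := by
  haveI : Infinite k := IsAlgClosed.instInfinite
  letI : Fintype ↥{x : Pic0 K F | InTA S L (p ^ e) x} := hfin.fintype
  have hn0 : p ^ e ≠ 0 := pow_ne_zero _ hp.ne_zero
  have hnk : ((p ^ e : ℕ) : k) ≠ 0 := by
    rw [Nat.cast_pow]
    exact pow_ne_zero _ hpk
  have hex : ∀ t : ↥{x : Pic0 K F | InTA S L (p ^ e) x}, ∃ (G : F) (ψ₁ : F₁) (ψ₂ : F₂),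
      G ∈ torMonoid S L (p ^ e) ∧ IsKumA (p ^ e) (t : Pic0 K F) G ∧ IsTor S (p ^ e) G ψ₁ ψ₂ :=
    fun t => exists_isTor_of_inTA S H H₁ H₂ g g₁ g₂ c c₁ c₂ hR hR₁ hR₂ hnum (p ^ e) hnk L t.2
  choose G ψ₁ ψ₂ hGM hGK hGT using hex
  have hinj : ∀ t t' : ↥{x : Pic0 K F | InTA S L (p ^ e) x},
      (∃ h : F, h ^ (p ^ e) * G t' = G t) → t = t' := fun t t' hw =>
    Subtype.ext (eq_of_isKumA_pow hn0 (hGK t) (hGK t') (hGT t).gu₁.ne_zero
      (hGT t').gu₁.ne_zero hw)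
  have hcard' : p ^ (2 * e * (S.nodes.card - 1)) ≤
      p ^ (e + c') * Fintype.card ↥{x : Pic0 K F | InTA S L (p ^ e) x} ^ 2 := by
    rwa [Nat.card_eq_fintype_card] at hcard
  obtain ⟨G', ψ₁', ψ₂', hM', hT', hv⟩ := Fermat.Agent.S59.LL.SQ.H83.exists_tor_of_count S H H₁ H₂
    g g₁ g₂ c c₁ c₂ hR hR₁ hR₂ hnum p e c' hp hpk hce (torMonoid S L (p ^ e))
    ↥{x : Pic0 K F | InTA S L (p ^ e) x} G ψ₁ ψ₂ hGM hGT hinj hcard' θ hθ
  obtain ⟨f, hfL, hf₁, hf₂, y, rfl⟩ := hM'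
  exact ⟨f, y, ψ₁', ψ₂', hfL, hf₁, hf₂, hT', hv⟩

/-- **The arithmetic of the counts.** -/
theorem card_chain (p e δ g g₁ g₂ NT NVI NG : ℕ) (hp : p.Prime)
    (hnum : g + 1 = g₁ + g₂ + δ)
    (h1 : p ^ (2 * g * e) ≤ NT * NVI) (h2 : NVI ≤ p ^ e * NG)
    (h3 : NG ≤ p ^ δ * (p ^ (2 * g₁ * e) * p ^ (2 * g₂ * e) * NT)) :
    p ^ (2 * e * (δ - 1)) ≤ p ^ (e + δ) * NT ^ 2 := by
  have hpos : 0 < p := hp.pos
  have hNT : 0 < NT := by
    rcases Nat.eq_zero_or_pos NT with h0 | h0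
    · rw [h0, zero_mul] at h1
      have := pow_pos hpos (2 * g * e)
      omega
    · exact h0
  rcases Nat.eq_zero_or_pos δ with hδ | hδ
  · subst hδ
    have h4 : 0 < p ^ (e + 0) * NT ^ 2 := Nat.mul_pos (pow_pos hpos _) (pow_pos hNT 2)
    have h5 : p ^ (2 * e * (0 - 1)) = 1 := by
      rw [Nat.zero_sub, Nat.mul_zero, pow_zero]
    rw [h5]
    exact h4
  have h5 : p ^ (2 * g * e) ≤
      p ^ (2 * g₁ * e + 2 * g₂ * e) * (p ^ (e + δ) * NT ^ 2) := by
    calc p ^ (2 * g * e) ≤ NT * NVI := h1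
      _ ≤ NT * (p ^ e * NG) := Nat.mul_le_mul_left _ h2
      _ ≤ NT * (p ^ e * (p ^ δ * (p ^ (2 * g₁ * e) * p ^ (2 * g₂ * e) * NT))) :=
          Nat.mul_le_mul_left _ (Nat.mul_le_mul_left _ h3)
      _ = p ^ (2 * g₁ * e + 2 * g₂ * e) * (p ^ (e + δ) * NT ^ 2) := by
          rw [pow_add, pow_add]
          ring
  have h6 : 2 * g * e = (2 * g₁ * e + 2 * g₂ * e) + 2 * e * (δ - 1) := by
    obtain ⟨d, rfl⟩ : ∃ d, δ = d + 1 := ⟨δ - 1, by omega⟩
    have hg : g = g₁ + g₂ + d := by omega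
    subst hg
    simp only [Nat.add_sub_cancel]
    ring
  rw [h6, pow_add] at h5
  exact Nat.le_of_mul_le_mul_left h5 (pow_pos hpos _)

/-- **ST-RANK, abstract assembly**: the counts (a) `#V = p ^ (2 g e)`, (b)+(c) `#V ≤ #T · #V^I`,
(d) `#V^I ≤ p ^ e · #G`, (f) `#G ≤ p ^ δ · #Pic⁰(F₁)[n] · #Pic⁰(F₂)[n] · #T`, the counts on the
components and `g + 1 = g₁ + g₂ + δ` give: every vector `θ : nodes → μ_p` is the glue vector of a
toric function `f y ^ (p ^ e)` in good position, `f ∈ L`, if `δ < e`. -/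
theorem exists_glue_of_counts (S : SSD K F k F₁ F₂) [IsAlgClosed K] [IsAlgClosed k]
    (H : FFHyp K F) (H₁ : FFHyp k F₁) (H₂ : FFHyp k F₂)
    (g g₁ g₂ : ℕ) (c c₁ c₂ : ℤ) (hR : IsGenus K F g c) (hR₁ : IsGenus k F₁ g₁ c₁)
    (hR₂ : IsGenus k F₂ g₂ c₂) (hnum : g + 1 = g₁ + g₂ + S.nodes.card)
    (p e : ℕ) (hp : p.Prime) (hpk : (p : k) ≠ 0) (he : S.nodes.card < e) (L : Subfield F)
    (hfin : {x : Pic0 K F | InTA S L (p ^ e) x}.Finite)
    (NVI NG : ℕ)
    (h1 : p ^ (2 * g * e) ≤ Nat.card ↥{x : Pic0 K F | InTA S L (p ^ e) x} * NVI)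
    (h2 : NVI ≤ p ^ e * NG)
    (h3 : NG ≤ p ^ S.nodes.card * (p ^ (2 * g₁ * e) * p ^ (2 * g₂ * e) *
      Nat.card ↥{x : Pic0 K F | InTA S L (p ^ e) x}))
    (θ : Place k F₁ × Place k F₂ → k) (hθ : ∀ s ∈ S.nodes, θ s ^ p = 1) :
    ∃ (f y : F) (ψ₁ : F₁) (ψ₂ : F₂), f ∈ L ∧ S.c₁.IsGU f ∧ S.c₂.IsGU f ∧
      IsTor S (p ^ e) (f * y ^ (p ^ e)) ψ₁ ψ₂ ∧
      ∀ s ∈ S.nodes, ∃ a b : k, b ≠ 0 ∧ VanAt s.1 (ψ₁ - algebraMap k F₁ a) ∧
        VanAt s.2 (ψ₂ - algebraMap k F₂ b) ∧ a = θ s * b :=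
  exists_glue_of_card S H H₁ H₂ g g₁ g₂ c c₁ c₂ hR hR₁ hR₂ hnum.le p e S.nodes.card hp hpk he L
    hfin (card_chain p e S.nodes.card g g₁ g₂ _ NVI NG hp hnum h1 h2 h3) θ hθ

end Fam

end Fermat.Agent.S59.LL.SQ.H20

end
end
-- ==== END Fermat.Agent.S59.LL.SQ.H20_StRankFam

-- ==== BEGIN Fermat.Agent.S59.LL.SQ.H35_Scale20
section

/-!
# S59 / LL / SQ, leaf OLD-RED at `q²` (helper35): the scaling at `V₂₀`

Level `N = M q²`, `q ∤ M`, `A` over `q`, `L₀ = L0 A N`.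

* `val_res_eq_one_iff` : units of the restriction of a valuation ring to a subfield;
* `exact20` : the value group of `V₂₀` on `L₀` is generated by the value of `q`;
* `exists_scale20_L0` : every non-zero `h ∈ L₀` is a power of `q` times a unit of `V₂₀`;
* `const_unit_of_val20` : a constant of value `1` for `V₂₀` is a unit of `A`, hence of value `1`
  for `V₁₁`.
-/

set_option autoImplicit false
set_option linter.style.haveILetI false
set_option linter.unusedSectionVars false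
set_option synthInstance.maxHeartbeats 400000
set_option maxHeartbeats 1000000

noncomputable section

open AlgebraicCurve ModularCurve
open Fermat.Agent.S24 Fermat.Agent.BAD Fermat.Agent.BAD.H88
open Fermat.Agent.S28 Fermat.Agent.S28.H73 Fermat.Agent.RED.H73 Fermat.Agent.RED.H17
open Fermat.Agent.S36.NU.H88 Fermat.Agent.S36.NU.H23

namespace Fermat.Agent.S59.LL.SQ.H35

section Res

variable {F : Type} [Field F] (L₀ : Subfield F) (V : ValuationSubring F)

theorem val_res_eq_one_iff (x : ↥L₀) :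
    (resV0 L₀ V).valuation x = 1 ↔ V.valuation (x : F) = 1 := by
  have h := valuation_resV0_eq_iff L₀ V x 1
  rw [map_one, Subfield.coe_one, map_one] at h
  exact h

end Res

section Scale

variable (A : ValuationSubring Kbar) (q M : ℕ) (B k : ℤ) (hB : B * M + k * q = 1) (hq : q.Prime)
  [NeZero M] [NeZero q] [NeZero (M * q * q)] (hqM : ¬ q ∣ M) (hA : A.LiesOverPrime q)

include B k hB hq hqM hA in
/-- **EXACT** at `V₂₀`: the value group of `V₂₀` on `L₀` is generated by the value of `q`. -/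
theorem exact20 (x : ↥(L0 A (M * q * q))) (hx : x ≠ 0) :
    ∃ j : ℤ, (V20o A q M).valuation x
      = (V20o A q M).valuation ((q : ℕ) : ↥(L0 A (M * q * q))) ^ j := by
  letI := algL0 A (hleMN q M)
  letI := algM A q M hq hqM hA
  haveI : Module.Finite ↥(L0 A M) ↥(L0 A (M * q * q)) := finite_L0_NU A q M
  obtain ⟨j, hj⟩ := Fermat.Agent.S36.NU.H79.nv_exists_val_eq_zpow
    (nrM A q M B k hB hq hqM hA) (nrM_hdeg A q M B k hB hq hqM hA) 0 x hx
  refine ⟨j, ?_⟩
  have hπ : (nrM A q M B k hB hq hqM hA).π 0 = ((q : ℕ) : ↥(L0 A (M * q * q))) := by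
    show algebraMap ↥(L0 A M) ↥(L0 A (M * q * q)) (piE A q M) = _
    rw [piE, map_natCast]
  rw [← hπ]
  exact hj

include B k hB hq hqM hA in
/-- Every non-zero inertia-fixed function is a power of `q` times a unit of `V₂₀`. -/
theorem exists_scale20_L0 (x : FN (M * q * q)) (hx0 : x ≠ 0) (hx : x ∈ L0 A (M * q * q)) :
    ∃ (j : ℤ) (y : FN (M * q * q)), y ∈ L0 A (M * q * q) ∧
      (V20 A (M * q * q)).valuation y = 1 ∧
      x = algebraMap Kbar (FN (M * q * q)) (((q : ℕ) : Kbar) ^ j) * y := by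
  have hxL0 : (⟨x, hx⟩ : ↥(L0 A (M * q * q))) ≠ 0 := fun h => hx0 (congrArg Subtype.val h)
  obtain ⟨j, hj⟩ := exact20 A q M B k hB hq hqM hA ⟨x, hx⟩ hxL0
  set qL : ↥(L0 A (M * q * q)) := ((q : ℕ) : ↥(L0 A (M * q * q))) with hqL
  have hq0 : qL ≠ 0 := by
    rw [hqL]
    exact_mod_cast hq.ne_zero
  set u : ↥(L0 A (M * q * q)) := qL ^ j with hu
  have hu0 : u ≠ 0 := zpow_ne_zero j hq0
  set y : ↥(L0 A (M * q * q)) := ⟨x, hx⟩ * u⁻¹ with hy
  have hvy : (V20o A q M).valuation y = 1 := by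
    rw [hy, map_mul, map_inv₀, hu, map_zpow₀, hj]
    exact mul_inv_cancel₀ (zpow_ne_zero j ((Valuation.ne_zero_iff _).2 hq0))
  have hucoe : (u : FN (M * q * q)) = algebraMap Kbar (FN (M * q * q)) (((q : ℕ) : Kbar) ^ j) := by
    have h1 : (u : FN (M * q * q)) = (L0 A (M * q * q)).subtype (qL ^ j) := rfl
    rw [h1, map_zpow₀, map_zpow₀, hqL, map_natCast, map_natCast]
  refine ⟨j, (y : FN (M * q * q)), y.2, ?_, ?_⟩
  · exact (val_res_eq_one_iff (L0 A (M * q * q)) (V20 A (M * q * q)) y).1 hvy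
  · rw [← hucoe]
    have h2 : (y : FN (M * q * q)) = x * (u : FN (M * q * q))⁻¹ := by
      rw [hy]
      rfl
    rw [h2, mul_comm x, ← mul_assoc, mul_inv_cancel₀ (fun h => hu0 (Subtype.ext h)), one_mul]

/-- A constant of value `1` for `V₂₀` is a unit of `A`. -/
theorem const_unit_of_val20 (c : Kbar)
    (h : (V20 A (M * q * q)).valuation (algebraMap Kbar (FN (M * q * q)) c) = 1) :
    c ∈ A ∧ c⁻¹ ∈ A := by
  obtain ⟨-, h1, h2⟩ := (isVU_iff_val _ _).2 h
  rw [← map_inv₀] at h2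
  exact ⟨(const_mem20 A (M * q * q) c).1 h1, (const_mem20 A (M * q * q) c⁻¹).1 h2⟩

/-- A unit of `A` has value `1` for `V₁₁`. -/
theorem val11_const (c : Kbar) (hc0 : c ≠ 0) (hc : c ∈ A) (hc' : c⁻¹ ∈ A) :
    (V11 A (M * q * q) q M B k (lvl q M) hB hq).valuation
      (algebraMap Kbar (FN (M * q * q)) c) = 1 := by
  apply (isVU_iff_val _ _).1
  refine ⟨(map_ne_zero_iff _ (algebraMap Kbar (FN (M * q * q))).injective).2 hc0, ?_, ?_⟩
  · exact (const_mem11 A (M * q * q) q M B k (lvl q M) hB hq c).2 hc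
  · rw [← map_inv₀]
    exact (const_mem11 A (M * q * q) q M B k (lvl q M) hB hq c⁻¹).2 hc'

end Scale

end Fermat.Agent.S59.LL.SQ.H35

end
end
-- ==== END Fermat.Agent.S59.LL.SQ.H35_Scale20
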