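-- GENERATED (merged mirror, NOTES/tools/trim/merge3_helper67.py): 20 modules of the originals, bodies verbatim.
import Mathlib
import Fermat.Agent.S27.REDu.Defs
import Fermat.Agent.Zm.S35_L03_004
import Fermat.Agent.Zm.S59_L02_002
import Fermat.Agent.Zm.S43_L14_003
import Fermat.Agent.Zm.S59_L02_004
import Fermat.Agent.Zm.S43_L08_002
import Fermat.Agent.Zm.S59_L01_004
import Fermat.Agent.Zm.S59_L02_005
import Fermat.Agent.Zm.S35_L06_003
import Fermat.Agent.Zm.S35_L04_000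
import Fermat.Agent.Zm.S35_L21_000
import Fermat.Agent.Zm.S33_L04_001
import Fermat.Agent.Zm.S33_L12_000
import Fermat.Agent.Zm.S43_L03_003
import Fermat.Agent.Zm.S35_L08_004
import Fermat.Agent.Zm.S35_L03_000
import Fermat.Agent.Zm.S35_L09_001
import Fermat.Agent.Zm.S43_L01_004

-- ==== BEGIN Fermat.Agent.S27.REDu.H42_RiemannStmt
section

/-!
# G-RED, package FF-R (helper42): the interface statements `Stmt_FFR_*` from the zeros theorem

The only input is the zeros theorem (S24 FF1b / FF-B `stmt_FFB_zeros`) in the shape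
`Fermat.Agent.S24.H59.ZerosStmt K F`.
-/

set_option autoImplicit false

universe uC uCf uK uR uF uL uE uk ukap uFp uFt uFtp uiot uEp uKp ux3b1

noncomputable section

open AlgebraicCurve IntermediateField WithZero Polynomial

namespace Fermat.Agent.S27.REDu.H42

open Fermat.Agent.S24

variable {K F : Type*} [Field K] [Field F] [Algebra K F]

local notation "L" => riemannRochSpace

/-- Over an algebraically closed field, an element outside `K` is transcendental. -/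
theorem transcendental_of_not_mem_range [IsAlgClosed K] {f : F}
    (hf : f ∉ Set.range (algebraMap K F)) : Transcendental K f := by
  intro halg
  have hint : IsIntegral K f := halg.isIntegral
  have hdeg1 : (minpoly K f).degree = 1 :=
    IsAlgClosed.degree_eq_one_of_irreducible K (minpoly.irreducible hint)
  obtain ⟨a, ha⟩ := minpoly.mem_range_of_degree_eq_one K f hdeg1
  exact hf ⟨a, ha⟩

/-- The zeros theorem implies that a transcendental element has a zero. -/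
theorem exists_zero_of_zeros (hz : H59.ZerosStmt K F) {f : F} (hf : Transcendental K f)
    [FiniteDimensional K⟮f⟯ F] : ∃ v : Place K F, 0 < v.ord f := by
  obtain ⟨-, hsum⟩ := hz f hf
  by_contra hne
  push Not at hne
  have hempty : {v : Place K F | 0 < v.ord f} = ∅ := by
    ext v
    simp only [Set.mem_ofPred_eq, Set.mem_empty_iff_false, iff_false, not_lt]
    exact hne v
  rw [hempty, finsum_mem_empty] at hsum
  have hpos : 0 < Module.finrank K⟮f⟯ F := Module.finrank_pos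
  omega

/-- The hypotheses of Riemann's theorem follow from the zeros theorem. -/
theorem hyp_of_zeros [IsAlgClosed K] (hz : H59.ZerosStmt K F) {x : F}
    (hx : Transcendental K x) [FiniteDimensional K⟮x⟯ F] : Hyp K F where
  principal f hf := by
    obtain ⟨hfin, hdeg⟩ := ff_degree_principal_of hz x hx f hf
    refine ⟨Finsupp.ofSupportFinite (fun v => v.ord f) hfin, fun v => rfl, hdeg _ fun v => rfl⟩
  deg_one v := ff_deg_eq_one x hx v
  exists_pole f hf := by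
    have htr : Transcendental K f := transcendental_of_not_mem_range hf
    have htr' : Transcendental K f⁻¹ := fun h => htr (IsAlgebraic.inv_iff.mp h)
    have := ff_finite_of_transcendental x hx f⁻¹ htr'
    obtain ⟨v, hv⟩ := exists_zero_of_zeros hz htr'
    refine ⟨v, ?_⟩
    rw [Place.ord_inv] at hv
    omega

/-- The pole divisor of `x` has degree `[F : K(x)]`. -/
theorem exists_pole_divisor [IsAlgClosed K] (hz : H59.ZerosStmt K F) {x : F}
    (hx : Transcendental K x) [FiniteDimensional K⟮x⟯ F] :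
    ∃ B : Divisor K F, 0 ≤ B ∧ x ∈ L B ∧
      Divisor.degree B = (Module.finrank K⟮x⟯ F : ℤ) := by
  classical
  have htr' : Transcendental K x⁻¹ := fun h => hx (IsAlgebraic.inv_iff.mp h)
  have := ff_finite_of_transcendental x hx x⁻¹ htr'
  obtain ⟨hPfin, hPsum⟩ := hz x⁻¹ htr'
  rw [H59.finrank_adjoin_inv] at hPsum
  have hsupp : (Function.support fun v : Place K F => max (v.ord x⁻¹) 0).Finite := by
    refine hPfin.subset fun v hv => ?_
    simp only [Function.mem_support, ne_eq] at hv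
    simp only [Set.mem_ofPred_eq]
    omega
  refine ⟨Finsupp.ofSupportFinite _ hsupp, ?_, ?_, ?_⟩
  · rw [Finsupp.le_def]
    intro v
    exact le_max_right _ _
  · rw [mem_riemannRochSpace_iff]
    intro v
    right
    have h1 : (Finsupp.ofSupportFinite _ hsupp : Divisor K F) v = max (v.ord x⁻¹) 0 := rfl
    rw [h1, Place.ord_inv]
    omega
  · rw [H59.degree_eq_sum_of_deg_eq_one (fun v => ff_deg_eq_one x hx v), ← hPsum,
      finsum_mem_eq_finite_toFinset_sum _ hPfin]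
    have hs : (Finsupp.ofSupportFinite _ hsupp : Divisor K F).support = hPfin.toFinset := by
      ext v
      simp only [Finsupp.mem_support_iff, Set.Finite.mem_toFinset, Set.mem_ofPred_eq]
      have h1 : (Finsupp.ofSupportFinite _ hsupp : Divisor K F) v = max (v.ord x⁻¹) 0 := rfl
      rw [h1]
      omega
    rw [hs]
    refine Finset.sum_congr rfl fun v hv => ?_
    have h1 : (Finsupp.ofSupportFinite _ hsupp : Divisor K F) v = max (v.ord x⁻¹) 0 := rfl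
    rw [h1]
    simp only [Set.Finite.mem_toFinset, Set.mem_ofPred_eq] at hv
    omega

/-! ## The interface statements -/

/-- The zeros theorem for all function fields over algebraically closed fields (FF-B). -/
def ZerosAll : Prop :=
  ∀ (K : Type uK) (F : Type uF) [Field K] [Field F] [Algebra K F] [IsAlgClosed K], IsFF K F →
    H59.ZerosStmt K F

theorem stmt_FFR_finite_of (hz : ZerosAll.{uK, uF}) : Stmt_FFR_finite.{uK, uF} := by
  intro K F _ _ _ _ hFF D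
  obtain ⟨x, hx, hfin⟩ := hFF
  exact finite_L (hyp_of_zeros (hz K F ⟨x, hx, hfin⟩) hx) D

theorem stmt_FFR_le_of (hz : ZerosAll.{uK, uF}) : Stmt_FFR_le.{uK, uF} := by
  intro K F _ _ _ _ hFF D
  obtain ⟨x, hx, hfin⟩ := hFF
  have H := hyp_of_zeros (hz K F ⟨x, hx, hfin⟩) hx
  exact ⟨fun h => L_eq_bot_of_degree_neg H h, fun h => finrank_L_le H h⟩

theorem stmt_FFR_riemann_of (hz : ZerosAll.{uK, uF}) : Stmt_FFR_riemann.{uK, uF} := by
  intro K F _ _ _ _ hFF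
  obtain ⟨x, hx, hfin⟩ := hFF
  have hzKF := hz K F ⟨x, hx, hfin⟩
  have H := hyp_of_zeros hzKF hx
  obtain ⟨B, hB, hxB, hdeg⟩ := exists_pole_divisor hzKF hx
  exact riemann H hx hB hxB hdeg.le

end Fermat.Agent.S27.REDu.H42

end
end
-- ==== END Fermat.Agent.S27.REDu.H42_RiemannStmt

-- ==== BEGIN Fermat.Agent.S59.NonMin.Geom.H72_Rel3
section

/-!
# S59 / NMGEOM leaf REL3 (helper72)

`C₁ A₁ = q (q + 1)`, `C₁ A₂ = q T_q`, `C₁ A₃ = T_q² - (q + 1)`.

Reusable pieces (for REL1, REL2, ...):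
* `kap1 = inclG (N q) q ∘ castG`, `kap2 = conjG (N q) q ∘ castG : Γ₀(N q²) → Γ₀(N q)`;
  `j1_eq, j2_eq, j3_eq`; `kap1_injective`, `finiteIndex_kap1`, `index_kap1`;
* `resA1_eq, resA2_eq, resA3_eq` : `A₁ = r₁'' r₁`, `A₂ = r₁'' r₂`, `A₃ = r₂'' r₂` (with `castG`);
* `corC1_eq : C₁ = c₁ ∘ corAlong kap1`;
* `cor_kap1_res_kap1 : corAlong kap1 ∘ resAlong kap1 = q`,
  `cor_kap1_res_kap2 : corAlong kap1 ∘ resAlong kap2 = c₁'' r₂''`.
-/

set_option autoImplicit false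

open scoped MatrixGroups
open CongruenceSubgroup Matrix

namespace Fermat.Agent.S59.NonMin.Geom.H72R

open Fermat.Agent.S41 Fermat.Agent.S41.H19 Fermat.Agent.S41.H77 Fermat.Agent.S41.H39
open Fermat.Agent.S41.H20 Fermat.Agent.Betti Fermat.Agent.S59.NonMin.Geom

section Tower

variable (N q : ℕ)

/-- `Γ₀(N q²) → Γ₀(N q)`, the inclusion. -/
def kap1 : Gamma0 (N * q ^ 2) →* Gamma0 (N * q) := (inclG (N * q) q).comp (castG N q)

/-- `Γ₀(N q²) → Γ₀(N q)`, conjugation by `diag(q, 1)`. -/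
def kap2 : Gamma0 (N * q ^ 2) →* Gamma0 (N * q) := (conjG (N * q) q).comp (castG N q)

theorem j1_eq : j1 N q = (inclG N q).comp (kap1 N q) := rfl
theorem j2_eq : j2 N q = (conjG N q).comp (kap1 N q) := rfl
theorem j3_eq : j3 N q = (conjG N q).comp (kap2 N q) := rfl

theorem castG_injective : Function.Injective (castG N q) := Subgroup.inclusion_injective _

theorem castG_surjective : Function.Surjective (castG N q) := by
  intro x
  refine ⟨⟨(x : SL(2, ℤ)), ?_⟩, rfl⟩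
  have h : Gamma0 (N * q * q) = Gamma0 (N * q ^ 2) := congrArg (fun M => Gamma0 M) (by ring)
  rw [← h]
  exact x.2

theorem range_castG : (castG N q).range = ⊤ := MonoidHom.range_eq_top.mpr (castG_surjective N q)

theorem finiteIndex_castG : (castG N q).range.FiniteIndex := by
  rw [range_castG]; infer_instance

theorem kap1_injective : Function.Injective (kap1 N q) :=
  (inclG_injective (N * q) q).comp (castG_injective N q)

theorem kap2_injective (hq : q ≠ 0) : Function.Injective (kap2 N q) :=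
  (conjG_injective (N * q) q hq).comp (castG_injective N q)

theorem range_kap1 : (kap1 N q).range = (inclG (N * q) q).range := by
  unfold kap1
  rw [MonoidHom.range_comp, range_castG, ← MonoidHom.range_eq_map]

variable {N q}

theorem isReps_kap1 (hN : 0 < N) (hq : 0 < q) : IsReps (kap1 N q) (tLow (N * q) q) :=
  isReps_of_range_eq (range_kap1 N q).symm
    (isReps_tLow (Nat.mul_pos hN hq) hq (dvd_mul_left q N))

theorem index_kap1 (hN : 0 < N) (hq : 0 < q) : (kap1 N q).range.index = q := by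
  rw [range_kap1]; exact index_inclG_of_dvd (Nat.mul_pos hN hq) hq (dvd_mul_left q N)

theorem finiteIndex_kap1 (hN : 0 < N) (hq : 0 < q) : (kap1 N q).range.FiniteIndex := by
  rw [range_kap1]; exact finiteIndex_inclG_of_dvd (Nat.mul_pos hN hq) hq (dvd_mul_left q N)

variable {A : Type*} [AddCommGroup A]

theorem resA1_eq (φ : Additive (Gamma0 N) →+ A) :
    resA1 N q A φ = resAlong A (kap1 N q) (res1 N q A φ) := rfl

theorem resA2_eq (φ : Additive (Gamma0 N) →+ A) :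
    resA2 N q A φ = resAlong A (kap1 N q) (res2 N q A φ) := rfl

theorem resA3_eq (φ : Additive (Gamma0 N) →+ A) :
    resA3 N q A φ = resAlong A (kap2 N q) (res2 N q A φ) := rfl

/-- `C₁ = c₁ ∘ (transfer from level N q² to level N q)`. -/
theorem corC1_eq (hN : 0 < N) (hq : q.Prime) (hqN : ¬ q ∣ N)
    (ψ : Additive (Gamma0 (N * q ^ 2)) →+ A) :
    corC1 N q A ψ = cor1 N q A (corAlong A (kap1 N q) ψ) := by
  have := finiteIndex_kap1 hN hq.pos
  have := finiteIndex_inclG hN hq hqN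
  unfold corC1 cor1
  rw [j1_eq, corAlong_comp (kap1 N q) (inclG N q) (kap1_injective N q) (inclG_injective N q)]

/-- transfer ∘ restriction along the inclusion `Γ₀(N q²) → Γ₀(N q)` is `q`. -/
theorem cor_kap1_res_kap1 (hN : 0 < N) (hq : 0 < q) (ψ : Additive (Gamma0 (N * q)) →+ A) :
    corAlong A (kap1 N q) (resAlong A (kap1 N q) ψ) = q • ψ := by
  have := finiteIndex_kap1 hN hq
  rw [corAlong_resAlong _ (kap1_injective N q), index_kap1 hN hq]

theorem cor_castG_res_castG (ψ : Additive (Gamma0 (N * q * q)) →+ A) :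
    corAlong A (castG N q) (resAlong A (castG N q) ψ) = ψ := by
  have := finiteIndex_castG N q
  rw [corAlong_resAlong _ (castG_injective N q), range_castG, Subgroup.index_top, one_smul]

/-- transfer along the inclusion ∘ restriction along the conjugation is `c₁'' r₂''`. -/
theorem cor_kap1_res_kap2 (hN : 0 < N) (hq : 0 < q) (ψ : Additive (Gamma0 (N * q)) →+ A) :
    corAlong A (kap1 N q) (resAlong A (kap2 N q) ψ)
      = cor1 (N * q) q A (res2 (N * q) q A ψ) := by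
  have := finiteIndex_castG N q
  have := finiteIndex_inclG_of_dvd (Nat.mul_pos hN hq) hq (dvd_mul_left q N)
  unfold kap1 cor1
  rw [corAlong_comp (castG N q) (inclG (N * q) q) (castG_injective N q)
    (inclG_injective (N * q) q)]
  congr 1
  exact cor_castG_res_castG (res2 (N * q) q A ψ)

end Tower

/-! ### REL3 -/

theorem stmt_REL3 : Stmt_REL3 := by
  intro N q _ hq hqN A _ φ
  have hN : 0 < N := Nat.pos_of_ne_zero (NeZero.ne N)
  refine ⟨?_, ?_, ?_⟩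
  · rw [corC1_eq hN hq hqN, resA1_eq, cor_kap1_res_kap1 hN hq.pos]
    unfold cor1
    rw [corAlong_smul]
    change q • cor1 N q A (res1 N q A φ) = _
    rw [cor1_res1 hN hq hqN, smul_smul]
  · rw [corC1_eq hN hq hqN, resA2_eq, cor_kap1_res_kap1 hN hq.pos]
    unfold cor1
    rw [corAlong_smul]
    change q • Tcoh N A q φ = _
    rw [Tcoh_eq_TB hN hq hqN]
  · rw [corC1_eq hN hq hqN, resA3_eq, cor_kap1_res_kap2 hN hq.pos, Tdag_res2 hN hq hqN]
    unfold cor1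
    rw [corAlong_sub]
    change Tcoh N A q (Tcoh N A q φ) - cor1 N q A (res1 N q A φ) = _
    rw [cor1_res1 hN hq hqN, Tcoh_eq_TB hN hq hqN, Tcoh_eq_TB hN hq hqN]

end Fermat.Agent.S59.NonMin.Geom.H72R

end
-- ==== END Fermat.Agent.S59.NonMin.Geom.H72_Rel3

-- ==== BEGIN Fermat.Agent.S59.NonMin.Geom.H78_IhCk
section

/-!
# S59 / NMGEOM, leaf IHARA3 (helper78): the orbit sum over a field of characteristic `p`

`stmt_IhCk : Stmt_IhCk` — port of `S41.H37.stmt_IhC` (helper37) from `ZMod p` to a field `k` of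
characteristic `p`: for `F : ℚ → k` invariant under `r ↦ q² r` and under translations by `ℤ[1/q]`,
an eigenfunction of `TT ℓ` with eigenvalue `a`, and an auxiliary prime `ℓ`: `(a - 2) F(r) = 0`.
This file contains no `sorry`.
-/

set_option autoImplicit false

open Finset
open scoped MatrixGroups
open CongruenceSubgroup Matrix

namespace Fermat.Agent.S59.NonMin.Geom.H78

open Fermat.Agent.S41 Fermat.Agent.S41.H19 Fermat.Agent.S41.Ihara Fermat.Agent.S41.H37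

/-- The shift lemma: modulo `ℤ[1/q]`, the point `r + s/ℓ` (`s ∈ ℤ[1/q]`) only depends on the class of
`s` in `ℤ[1/q]/ℓ = ZMod ℓ`. -/
theorem shiftk {k : Type*} {N q ℓ : ℕ} (hq : q.Prime) (_hqN : ¬ q ∣ N) (hℓ : ℓ.Prime) (hℓN : ¬ ℓ ∣ N)
    (F : ℚ → k) (hper : ∀ r t, InX N r → InZq q t → F (r + t) = F r)
    (r : ℚ) (hr : InX N r) (n : ℕ) (z : ℤ) (i : ZMod ℓ)
    (hz : (z : ZMod ℓ) = i * (q : ZMod ℓ) ^ n) :
    F (r + ((z : ℚ) / (q : ℚ) ^ n) / ℓ) = F (r + (i.val : ℚ) / ℓ) := by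
  have : NeZero ℓ := ⟨hℓ.ne_zero⟩
  have hdvd : (ℓ : ℤ) ∣ z - (i.val : ℤ) * (q : ℤ) ^ n := by
    rw [← ZMod.intCast_zmod_eq_zero_iff_dvd]
    push_cast
    rw [hz, ZMod.natCast_zmod_val]
    ring
  obtain ⟨y, hy⟩ := hdvd
  have hq0 : (q : ℚ) ≠ 0 := by exact_mod_cast hq.ne_zero
  have hℓ0 : (ℓ : ℚ) ≠ 0 := by exact_mod_cast hℓ.ne_zero
  have hqn : ((q : ℚ) ^ n) ≠ 0 := pow_ne_zero _ hq0
  have hzq : (z : ℚ) = (i.val : ℚ) * (q : ℚ) ^ n + (ℓ : ℚ) * y := by
    have : ((z - (i.val : ℤ) * (q : ℤ) ^ n : ℤ) : ℚ) = (((ℓ : ℤ) * y : ℤ) : ℚ) := by rw [hy]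
    push_cast at this
    linarith
  have key : r + ((z : ℚ) / (q : ℚ) ^ n) / ℓ = (r + (i.val : ℚ) / ℓ) + (y : ℚ) / (q : ℚ) ^ n := by
    rw [hzq]; field_simp; ring
  rw [key]
  refine hper _ _ ?_ (inZq_of_eq_div hq.ne_zero y n)
  refine inX_add hr ?_
  rw [div_eq_mul_inv]
  exact inX_mul (inX_natCast N _) (inX_inv_natCast ((Nat.Prime.coprime_iff_not_dvd hℓ).2 hℓN))

/-- In characteristic `p`, the sum over a finite commutative group of a function invariant under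
multiplication by an element whose order is divisible by `p` vanishes. -/
theorem sum_eq_zero_of_mul_invariantk {k : Type*} [Field k] {G : Type*} [CommGroup G]
    [Fintype G] {p : ℕ} [CharP k p]
    (v : G) (hv : p ∣ orderOf v) (f : G → k) (hf : ∀ g, f (v * g) = f g) :
    ∑ g, f g = 0 := by
  classical
  set H : Subgroup G := Subgroup.zpowers v with hH
  have hpow : ∀ n : ℕ, ∀ g, f (v ^ n * g) = f g := by
    intro n
    induction n with
    | zero => intro g; simp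
    | succ n ih =>
      intro g
      rw [pow_succ, mul_assoc, ih, hf]
  have hinv : ∀ h ∈ H, ∀ g, f (h * g) = f g := by
    intro h hh g
    obtain ⟨n, rfl⟩ := (Subgroup.mem_zpowers_iff (g := v)).1 hh
    have hfin : IsOfFinOrder v := isOfFinOrder_of_finite v
    obtain ⟨k, hk⟩ : ∃ k : ℕ, v ^ n = v ^ k := by
      obtain ⟨k, hk⟩ := (hfin.mem_powers_iff_mem_zpowers (y := v ^ n)).2 ⟨n, rfl⟩
      exact ⟨k, hk.symm⟩
    rw [hk]
    exact hpow k g
  have hconst : ∀ g g' : G, (g : G ⧸ H) = (g' : G ⧸ H) → f g = f g' := by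
    intro g g' h
    have h1 : g⁻¹ * g' ∈ H := QuotientGroup.eq.1 h
    have h2 := hinv _ h1 g
    rw [← h2]
    congr 1
    rw [mul_comm g⁻¹ g', mul_assoc, inv_mul_cancel, mul_one]
  let e := Subgroup.groupEquivQuotientProdSubgroup (s := H)
  have hmk : ∀ x : (G ⧸ H) × H, ((e.symm x : G) : G ⧸ H) = x.1 := by
    intro x
    have : (e (e.symm x)).1 = ((e.symm x : G) : G ⧸ H) := rfl
    rw [← this, Equiv.apply_symm_apply]
  have hcard : (Fintype.card H : k) = 0 := by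
    rw [Fintype.card_zpowers]
    exact (CharP.cast_eq_zero_iff k p _).2 hv
  calc ∑ g, f g = ∑ x : (G ⧸ H) × H, f (e.symm x) := (Equiv.sum_comp e.symm f).symm
    _ = ∑ x : (G ⧸ H) × H, f (Quotient.out x.1) := by
        refine Finset.sum_congr rfl (fun x _ => hconst _ _ ?_)
        rw [hmk]
        exact (QuotientGroup.out_eq' x.1).symm
    _ = ∑ c : G ⧸ H, ∑ _h : H, f (Quotient.out c) := by
        rw [Fintype.sum_prod_type]
    _ = 0 := by
        refine Finset.sum_eq_zero (fun c _ => ?_)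
        rw [Finset.sum_const, Finset.card_univ, nsmul_eq_mul, hcard, zero_mul]

/-- Iterating the `q²`-invariance. -/
theorem inv_powk {k : Type*} {N q : ℕ} (hqN : q.Coprime N) (F : ℚ → k)
    (hq2 : ∀ r, InX N r → F ((q : ℚ) ^ 2 * r) = F r) (k : ℕ) :
    ∀ r, InX N r → F ((q : ℚ) ^ (2 * k) * r) = F r := by
  induction k with
  | zero => intro r _; simp
  | succ k ih =>
    intro r hr
    have h1 : (q : ℚ) ^ (2 * (k + 1)) * r = (q : ℚ) ^ 2 * ((q : ℚ) ^ (2 * k) * r) := by ring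
    rw [h1, hq2 _ ?_, ih r hr]
    refine inX_mul ?_ hr
    have := inX_natCast N (q ^ (2 * k))
    simpa using this

/-- **Leaf C** (Step 4 of the Kummer–Hecke proof of Ihara's lemma): the orbit sum, without the
hypothesis `q ≠ p`. -/
theorem ihCk_gen (k : Type) [Field k] (p : ℕ) [Fact p.Prime] [CharP k p] (N q : ℕ)
    (_hN : 2 ≤ N) (hq : q.Prime) (hqN : ¬ q ∣ N) (F : ℚ → k)
    (hq2 : ∀ r, InX N r → F ((q : ℚ) ^ 2 * r) = F r)
    (hper : ∀ r t, InX N r → InZq q t → F (r + t) = F r)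
    (ℓ : ℕ) (a : k) (hℓ : ℓ.Prime) (hℓNq : ¬ ℓ ∣ N * q)
    (heig : ∀ r, InX N r → TT ℓ F r = a * F r)
    (r : ℚ) (m j : ℕ) (hr : InX N r) (_hm : 0 < m) (hmr : InZq q ((m : ℚ) * r))
    (_hmq : m.Coprime q) (hqk : q ^ (2 * j) % m = 1 % m) (hℓm : ℓ % m = 1 % m)
    (hord : p ∣ orderOf ((q : ZMod ℓ) ^ (2 * j))) :
    (a - 2) * F r = 0 := by
  have : Fact ℓ.Prime := ⟨hℓ⟩
  have : NeZero ℓ := ⟨hℓ.ne_zero⟩
  have hℓN : ¬ ℓ ∣ N := fun h => hℓNq (Dvd.dvd.mul_right h q)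
  have hℓq : ¬ ℓ ∣ q := fun h => hℓNq (Dvd.dvd.mul_left h N)
  have hqNc : q.Coprime N := (Nat.Prime.coprime_iff_not_dvd hq).2 hqN
  have hℓNc : ℓ.Coprime N := (Nat.Prime.coprime_iff_not_dvd hℓ).2 hℓN
  have hq0 : (q : ℚ) ≠ 0 := by exact_mod_cast hq.ne_zero
  have hℓ0 : (ℓ : ℚ) ≠ 0 := by exact_mod_cast hℓ.ne_zero
  have hqℓ : (q : ZMod ℓ) ≠ 0 := by
    intro h
    exact hℓq ((ZMod.natCast_eq_zero_iff q ℓ).1 h)
  -- `(ℓ - 1) r ∈ ℤ[1/q]`
  obtain ⟨c, hc⟩ : ∃ c : ℤ, (ℓ : ℤ) - 1 = (m : ℤ) * c := by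
    have : (1 : ℕ) ≡ ℓ [MOD m] := hℓm.symm
    exact (Nat.modEq_iff_dvd.1 this)
  obtain ⟨c', hc'⟩ : ∃ c' : ℤ, ((q ^ (2 * j) : ℕ) : ℤ) - 1 = (m : ℤ) * c' := by
    have : (1 : ℕ) ≡ q ^ (2 * j) [MOD m] := hqk.symm
    exact (Nat.modEq_iff_dvd.1 this)
  have ht : InZq q (((ℓ : ℚ) - 1) * r) := by
    have h1 : ((ℓ : ℚ) - 1) * r = (c : ℚ) * ((m : ℚ) * r) := by
      have : ((ℓ : ℚ) - 1) = (m : ℚ) * c := by exact_mod_cast hc
      rw [this]; ring
    rw [h1]
    exact inZq_intCast_mul c hmr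
  have ht' : InZq q ((((q : ℚ) ^ (2 * j)) - 1) * r) := by
    have h1 : (((q : ℚ) ^ (2 * j)) - 1) * r = (c' : ℚ) * ((m : ℚ) * r) := by
      have : (((q : ℚ) ^ (2 * j)) - 1) = (m : ℚ) * c' := by exact_mod_cast hc'
      rw [this]; ring
    rw [h1]
    exact inZq_intCast_mul c' hmr
  -- the term `F (ℓ r)`
  have hℓr : F ((ℓ : ℚ) * r) = F r := by
    have : (ℓ : ℚ) * r = r + ((ℓ : ℚ) - 1) * r := by ring
    rw [this]
    exact hper r _ hr ht
  -- the function on `ZMod ℓ`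
  set g : ZMod ℓ → k := fun i => F (r + (i.val : ℚ) / ℓ) with hg
  have hg0 : g 0 = F r := by
    simp [hg]
  -- the terms `F ((r + j)/ℓ)`
  obtain ⟨n, z, hz⟩ := inZq_exists hq.ne_zero ht
  have hqn : ((q : ℚ) ^ n) ≠ 0 := pow_ne_zero _ hq0
  set τ : ZMod ℓ := (z : ZMod ℓ) * ((q : ZMod ℓ) ^ n)⁻¹ with hτ
  have hterm : ∀ j : ℕ, F ((r + (j : ℚ)) / ℓ) = g ((j : ZMod ℓ) - τ) := by
    intro j
    have h1 : (r + (j : ℚ)) / ℓ
        = r + (((j * (q : ℤ) ^ n - z : ℤ) : ℚ) / (q : ℚ) ^ n) / ℓ := by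
      have h2 : r = (r + (j : ℚ)) / ℓ + (((ℓ : ℚ) - 1) * r - j) / ℓ := by
        field_simp; ring
      push_cast
      rw [hz] at h2
      have h3 : ((j : ℚ) * (q : ℚ) ^ n - z) / (q : ℚ) ^ n = j - (z : ℚ) / (q : ℚ) ^ n := by
        field_simp
      rw [h3]
      linear_combination (-1 : ℚ) * h2
    rw [h1]
    refine shiftk hq hqN hℓ hℓN F hper r hr n _ _ ?_
    push_cast
    rw [hτ, sub_mul, mul_assoc, inv_mul_cancel₀ (pow_ne_zero _ hqℓ), mul_one]
  have hsum : ∑ j ∈ Finset.range ℓ, F ((r + (j : ℚ)) / ℓ) = ∑ i : ZMod ℓ, g i := by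
    rw [Finset.sum_congr rfl (fun j _ => hterm j)]
    rw [Fermat.Agent.S41.H37.sum_range_zmod (fun i => g (i - τ))]
    exact Equiv.sum_comp (Equiv.subRight τ) g
  -- invariance of `g` under multiplication by `v = q^(2k)`
  have hginv : ∀ i : ZMod ℓ, g ((q : ZMod ℓ) ^ (2 * j) * i) = g i := by
    intro i
    obtain ⟨n', z', hz'⟩ := inZq_exists hq.ne_zero ht'
    have hqn' : ((q : ℚ) ^ n') ≠ 0 := pow_ne_zero _ hq0
    have hri : InX N (r + (i.val : ℚ) / ℓ) := by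
      refine inX_add hr ?_
      rw [div_eq_mul_inv]
      exact inX_mul (inX_natCast N _) (inX_inv_natCast hℓNc)
    have h1 : g i = F ((q : ℚ) ^ (2 * j) * (r + (i.val : ℚ) / ℓ)) :=
      (inv_powk hqNc F hq2 j _ hri).symm
    have h2 : (q : ℚ) ^ (2 * j) * (r + (i.val : ℚ) / ℓ)
        = r + ((((ℓ : ℤ) * z' + (q : ℤ) ^ (2 * j) * (q : ℤ) ^ n' * (i.val : ℤ) : ℤ) : ℚ)
            / (q : ℚ) ^ n') / ℓ := by
      have h3 : (q : ℚ) ^ (2 * j) * r = r + (z' : ℚ) / (q : ℚ) ^ n' := by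
        rw [← hz']; ring
      push_cast
      rw [mul_add, h3]
      field_simp
      ring
    rw [h1, h2]
    symm
    refine shiftk hq hqN hℓ hℓN F hper r hr n' _ _ ?_
    push_cast
    rw [ZMod.natCast_self, zero_mul, zero_add, ZMod.natCast_zmod_val]
    ring
  have hunits : ∑ u : (ZMod ℓ)ˣ, g (u : ZMod ℓ) = 0 := by
    set v : (ZMod ℓ)ˣ := Units.mk0 ((q : ZMod ℓ) ^ (2 * j)) (pow_ne_zero _ hqℓ) with hv
    have hov : p ∣ orderOf v := by
      have : orderOf (v : ZMod ℓ) = orderOf v := orderOf_units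
      rw [← this]
      exact hord
    refine sum_eq_zero_of_mul_invariantk (p := p) v hov (fun u => g (u : ZMod ℓ)) ?_
    intro u
    have : ((v * u : (ZMod ℓ)ˣ) : ZMod ℓ) = (q : ZMod ℓ) ^ (2 * j) * (u : ZMod ℓ) := by
      simp [hv]
    show g ((v * u : (ZMod ℓ)ˣ) : ZMod ℓ) = g (u : ZMod ℓ)
    rw [this]
    exact hginv _
  have hTT := heig r hr
  unfold TT at hTT
  rw [hsum, Fermat.Agent.S41.H37.sum_zmod_eq, hunits, add_zero, hg0, hℓr] at hTT
  have : (a - 2) * F r = a * F r - (F r + F r) := by ring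
  rw [this, ← hTT, sub_self]

/-- **Leaf C** (Step 4 of the Kummer–Hecke proof of Ihara's lemma): the orbit sum. -/
theorem stmt_IhCk : Stmt_IhCk := by
  intro k _ p _ _ N q hN hq hqN _hqp F hq2 hper ℓ a hℓ hℓNq _hℓp heig r m j hr hm hmr hmq hqk hℓm
    hord
  exact ihCk_gen k p N q hN hq hqN F hq2 hper ℓ a hℓ hℓNq heig r m j hr hm hmr hmq hqk hℓm hord

end Fermat.Agent.S59.NonMin.Geom.H78

end
-- ==== END Fermat.Agent.S59.NonMin.Geom.H78_IhCk

-- ==== BEGIN Fermat.Agent.S59.NonMin.Geom.H92_B0Alg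
section

set_option autoImplicit false
set_option linter.unusedSectionVars false
set_option linter.style.haveILetI false
set_option linter.unusedVariables false

noncomputable section

open IsLocalRing TensorProduct

namespace Fermat.Agent.S59.NonMin.Geom.H92B

open Fermat.Agent.S59.Lim Fermat.Agent.S59.NonMin.Geom.H61

/-! ### Matrices: from the generators to the ring -/

section Mat

variable {A : Type} [AddCommGroup A] {r : ℕ} {e : ℕ → Fin r → A}
  {𝕋 : Type} [CommRing 𝕋]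

theorem mat_of_gen (η : 𝕋 →+* Module.End ℤ A) (Mat : 𝕋 →+* Matrix (Fin r) (Fin r) ℤ)
    {G : Set 𝕋} (hG : Algebra.adjoin ℤ G = ⊤)
    (h : ∀ g ∈ G, ∀ k j, η g (e k j) = ∑ i, Mat g i j • e k i) (t : 𝕋) :
    ∀ k j, η t (e k j) = ∑ i, Mat t i j • e k i := by
  classical
  have ht : t ∈ Algebra.adjoin ℤ G := by rw [hG]; exact Algebra.mem_top
  induction ht using Algebra.adjoin_induction with
  | mem x hx => exact h x hx
  | algebraMap n =>
    intro k j
    rw [eq_intCast (algebraMap ℤ 𝕋) n, map_intCast, map_intCast]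
    have h1 : ((n : Module.End ℤ A)) (e k j) = n • e k j := by
      rw [← zsmul_one, LinearMap.smul_apply, Module.End.one_apply]
    rw [h1]
    have h2 : ∀ i, ((n : Matrix (Fin r) (Fin r) ℤ)) i j • e k i
        = if i = j then n • e k j else 0 := by
      intro i
      rw [← zsmul_one, Matrix.smul_apply, Matrix.one_apply]
      split_ifs with hij
      · rw [hij]
        simp
      · simp
    rw [Finset.sum_congr rfl fun i _ => h2 i, Finset.sum_ite_eq' Finset.univ j]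
    simp
  | add x y _ _ hx hy =>
    intro k j
    rw [map_add, map_add, LinearMap.add_apply, hx, hy, ← Finset.sum_add_distrib]
    refine Finset.sum_congr rfl fun i _ => ?_
    rw [Matrix.add_apply, add_smul]
  | mul x y _ _ hx hy =>
    intro k j
    rw [map_mul, map_mul, Module.End.mul_apply, hy, map_sum]
    have h1 : ∀ i, η x (Mat y i j • e k i) = ∑ l, (Mat x l i * Mat y i j) • e k l := by
      intro i
      rw [map_zsmul, hx, Finset.smul_sum]
      refine Finset.sum_congr rfl fun l _ => ?_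
      rw [smul_smul, mul_comm]
    rw [Finset.sum_congr rfl fun i _ => h1 i, Finset.sum_comm]
    refine Finset.sum_congr rfl fun l _ => ?_
    rw [← Finset.sum_smul, Matrix.mul_apply]

end Mat

/-! ### Powers -/

section Pow

variable {𝒪 : Type} [CommRing 𝒪] [IsDomain 𝒪] [IsDiscreteValuationRing 𝒪]
  {P : Type*} [AddCommGroup P] [Module 𝒪 P]

/-- An operator which is nilpotent modulo `𝔪` is topologically nilpotent. -/
theorem pow_mem_pow_smul_top {ϖ : 𝒪} (hϖ : Irreducible ϖ) {F : Module.End 𝒪 P} {m₀ : ℕ}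
    (h : ∀ v : P, (F ^ m₀) v ∈ (maximalIdeal 𝒪 • ⊤ : Submodule 𝒪 P)) (k : ℕ) :
    ∀ v : P, (F ^ (m₀ * k)) v ∈ (maximalIdeal 𝒪 ^ k • ⊤ : Submodule 𝒪 P) := by
  induction k with
  | zero =>
    intro v
    rw [mem_pow_smul_top_iff hϖ]
    exact ⟨v, by simp⟩
  | succ k ih =>
    intro v
    have h1 := h v
    rw [mem_smul_top_iff hϖ] at h1
    obtain ⟨y, hy⟩ := h1
    have h2 := ih y
    rw [mem_pow_smul_top_iff hϖ] at h2 ⊢
    obtain ⟨z, hz⟩ := h2
    refine ⟨z, ?_⟩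
    have hF : (F ^ (m₀ * (k + 1))) v = (F ^ (m₀ * k)) ((F ^ m₀) v) := by
      rw [mul_add, mul_one, pow_add, Module.End.mul_apply]
    rw [hF, ← hy, map_smul, ← hz, smul_smul, pow_succ']

end Pow

/-! ### The map `J` -/

section J

variable {𝒪 : Type} [CommRing 𝒪] [IsDomain 𝒪] [IsDiscreteValuationRing 𝒪]
  [IsAdicComplete (maximalIdeal 𝒪) 𝒪] [Module.Flat ℤ 𝒪]
  {A : Type} [AddCommGroup A] {r : ℕ} {p : ℕ} {e : ℕ → Fin r → A}
  {𝕋 : Type} [CommRing 𝕋]
  (η : 𝕋 →+* Module.End ℤ A) (Mat : 𝕋 →+* Matrix (Fin r) (Fin r) ℤ)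
  (θ : 𝕋 →+* ResidueField 𝒪)
  {ϖ π' : 𝒪}

/-- `Ψ` intertwines `T_ϖ(η t)` with the matrix of `t`. -/
theorem psi_eta (hp : (p : 𝒪) = π' * ϖ) (he : IsCoordSys p e)
    (hall : ∀ t k j, η t (e k j) = ∑ i, Mat t i j • e k i) (t : 𝕋) (d : Fin r → 𝒪) :
    H2.map ϖ ((η t).baseChange 𝒪) (psi (ϖ := ϖ) hp he d)
      = psi (ϖ := ϖ) hp he (bmEta 𝒪 Mat t d) :=
  psi_intertwine hp he (η t) (Mat t) (hall t) d

theorem psi_eta_sub (hp : (p : 𝒪) = π' * ϖ) (he : IsCoordSys p e)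
    (hall : ∀ t k j, η t (e k j) = ∑ i, Mat t i j • e k i) (t : 𝕋) (a : 𝒪)
    (d : Fin r → 𝒪) :
    H2.mapEnd ϖ (𝒪 ⊗[ℤ] A) ((η t).baseChange 𝒪 - a • (1 : Module.End 𝒪 (𝒪 ⊗[ℤ] A)))
        (psi (ϖ := ϖ) hp he d)
      = psi (ϖ := ϖ) hp he ((bmEta 𝒪 Mat t - a • (1 : Module.End 𝒪 (Fin r → 𝒪))) d) := by
  rw [map_sub, map_smul, map_one, LinearMap.sub_apply, LinearMap.smul_apply,
    Module.End.one_apply, H2.mapEnd_apply, psi_eta η Mat hp he hall, LinearMap.sub_apply,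
    LinearMap.smul_apply, Module.End.one_apply, map_sub, map_smul]

theorem psi_eta_pow (hp : (p : 𝒪) = π' * ϖ) (he : IsCoordSys p e)
    (hall : ∀ t k j, η t (e k j) = ∑ i, Mat t i j • e k i) (t : 𝕋) (a : 𝒪) (n : ℕ)
    (d : Fin r → 𝒪) :
    H2.mapEnd ϖ (𝒪 ⊗[ℤ] A)
        (((η t).baseChange 𝒪 - a • (1 : Module.End 𝒪 (𝒪 ⊗[ℤ] A))) ^ n) (psi (ϖ := ϖ) hp he d)
      = psi (ϖ := ϖ) hp he
          (((bmEta 𝒪 Mat t - a • (1 : Module.End 𝒪 (Fin r → 𝒪))) ^ n) d) := by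
  induction n generalizing d with
  | zero =>
    rw [pow_zero, pow_zero, map_one]
    rfl
  | succ n ih =>
    rw [pow_succ, map_mul, Module.End.mul_apply, psi_eta_sub η Mat hp he hall, ih, pow_succ,
      Module.End.mul_apply]

/-- The `k`-th component of `Ψ d` after `(η t - a)^n`. -/
theorem pow_ev_psi (hp : (p : 𝒪) = π' * ϖ) (he : IsCoordSys p e)
    (hall : ∀ t k j, η t (e k j) = ∑ i, Mat t i j • e k i) (t : 𝕋) (a : 𝒪) (n k : ℕ)
    (d : Fin r → 𝒪) :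
    (((η t).baseChange 𝒪 - a • (1 : Module.End 𝒪 (𝒪 ⊗[ℤ] A))) ^ n)
        (H2.ev ϖ (𝒪 ⊗[ℤ] A) k (psi (ϖ := ϖ) hp he d))
      = H2.ev ϖ (𝒪 ⊗[ℤ] A) k (psi (ϖ := ϖ) hp he
          (((bmEta 𝒪 Mat t - a • (1 : Module.End 𝒪 (Fin r → 𝒪))) ^ n) d)) := by
  rw [← psi_eta_pow η Mat hp he hall, H2.ev_mapEnd]

/-- `ev k (Ψ d) = 0` iff `d ∈ 𝔪^k 𝒪^r`. -/
theorem ev_psi_eq_zero_iff (hϖ : Irreducible ϖ) (hp : (p : 𝒪) = π' * ϖ) (hp0 : (p : 𝒪) ≠ 0)
    (he : IsCoordSys p e) (k : ℕ) (d : Fin r → 𝒪) :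
    H2.ev ϖ (𝒪 ⊗[ℤ] A) k (psi (ϖ := ϖ) hp he d) = 0 ↔
      d ∈ (maximalIdeal 𝒪 ^ k • ⊤ : Submodule 𝒪 (Fin r → 𝒪)) := by
  rw [mem_pow_smul_top_iff hϖ, H2.ev_eq_zero_iff]
  constructor
  · rintro ⟨y, hy⟩
    obtain ⟨d', rfl⟩ := psi_surjective hϖ hp hp0 he y
    refine ⟨d', psi_injective hϖ hp hp0 he ?_⟩
    rw [map_smul, hy]
  · rintro ⟨d', rfl⟩
    exact ⟨psi (ϖ := ϖ) hp he d', by rw [map_smul]⟩

/-- The components of `Ψ d` are in the `θ`-part iff `d` is `θ`-local. -/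
theorem ev_psi_mem_thetaPart_iff (hϖ : Irreducible ϖ) (hp : (p : 𝒪) = π' * ϖ)
    (hp0 : (p : 𝒪) ≠ 0) (he : IsCoordSys p e) {G : Set 𝕋} (hG : Algebra.adjoin ℤ G = ⊤)
    (hall : ∀ t k j, η t (e k j) = ∑ i, Mat t i j • e k i) (d : Fin r → 𝒪) :
    (∀ k, H2.ev ϖ (𝒪 ⊗[ℤ] A) k (psi (ϖ := ϖ) hp he d) ∈ H2.thetaPart η θ) ↔
      d ∈ locSub (⊤ : Submodule 𝒪 (Fin r → 𝒪)) (bmEta 𝒪 Mat) θ G := by
  constructor
  · intro h
    refine ⟨Submodule.mem_top, fun g hg a ha m => ?_⟩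
    obtain ⟨n, hn⟩ := H2.mem_thetaPart.mp (h m) g a ha
    refine ⟨n, ?_⟩
    rw [pow_ev_psi η Mat hp he hall, ev_psi_eq_zero_iff hϖ hp hp0 he] at hn
    exact hn
  · intro hd k
    rw [H2.mem_thetaPart]
    intro t a ha
    have hKst : ∀ t, ∀ v ∈ (⊤ : Submodule 𝒪 (Fin r → 𝒪)), bmEta 𝒪 Mat t v ∈
        (⊤ : Submodule 𝒪 (Fin r → 𝒪)) := fun _ _ _ => Submodule.mem_top
    have hKsat : ∀ v : Fin r → 𝒪, ϖ • v ∈ (⊤ : Submodule 𝒪 (Fin r → 𝒪)) →
        v ∈ (⊤ : Submodule 𝒪 (Fin r → 𝒪)) := fun _ _ => Submodule.mem_top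
    obtain ⟨m₀, hm₀⟩ := locSub_local (θ := θ) hG hϖ hKst hKsat t a ha
    refine ⟨m₀ * k, ?_⟩
    have h1 := pow_mem_pow_smul_top hϖ hm₀ k ⟨d, hd⟩
    rw [mem_pow_smul_top_iff hϖ] at h1
    obtain ⟨y, hy⟩ := h1
    have h2 := congrArg (Subtype.val :
      ↥(locSub (⊤ : Submodule 𝒪 (Fin r → 𝒪)) (bmEta 𝒪 Mat) θ G) → (Fin r → 𝒪)) hy
    rw [coe_pow_of_coe _ (bmEta 𝒪 Mat t - a • (1 : Module.End 𝒪 (Fin r → 𝒪)))
      (fun v => rfl) (m₀ * k) ⟨d, hd⟩, Submodule.coe_smul] at h2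
    rw [pow_ev_psi η Mat hp he hall, ev_psi_eq_zero_iff hϖ hp hp0 he, mem_pow_smul_top_iff hϖ]
    exact ⟨(y : Fin r → 𝒪), h2⟩

/-- `T_ϖ` of the inclusion of the `θ`-part. -/
def tateIncl (ϖ : 𝒪) : H2.tate ϖ ↥(H2.thetaPart η θ) →ₗ[𝒪] H2.tate ϖ (𝒪 ⊗[ℤ] A) :=
  H2.map ϖ (H2.thetaPart η θ).subtype

theorem ev_tateIncl (k : ℕ) (x : H2.tate ϖ ↥(H2.thetaPart η θ)) :
    H2.ev ϖ (𝒪 ⊗[ℤ] A) k (tateIncl η θ ϖ x)
      = ((H2.ev ϖ ↥(H2.thetaPart η θ) k x : ↥(H2.thetaPart η θ)) : 𝒪 ⊗[ℤ] A) := rfl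

theorem tateIncl_injective : Function.Injective (tateIncl η θ ϖ) :=
  H2.map_injective _ (Submodule.injective_subtype _)

theorem mem_range_tateIncl (x : H2.tate ϖ (𝒪 ⊗[ℤ] A)) :
    x ∈ Set.range (tateIncl η θ ϖ) ↔ ∀ k, H2.ev ϖ (𝒪 ⊗[ℤ] A) k x ∈ H2.thetaPart η θ := by
  constructor
  · rintro ⟨y, rfl⟩ k
    rw [ev_tateIncl]
    exact Subtype.property _
  · intro h
    refine ⟨⟨fun k => ⟨H2.ev ϖ (𝒪 ⊗[ℤ] A) k x, h k⟩, ?_, fun k => ?_⟩, ?_⟩
    · exact Subtype.ext (H2.ev_zero x)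
    · exact Subtype.ext (H2.smul_ev_succ k x)
    · exact H2.tate_ext fun k => rfl

theorem tateIncl_eta (t : 𝕋) (x : H2.tate ϖ ↥(H2.thetaPart η θ)) :
    tateIncl η θ ϖ (H2.mapEnd ϖ ↥(H2.thetaPart η θ) (H2.thetaEta η θ t) x)
      = H2.map ϖ ((η t).baseChange 𝒪) (tateIncl η θ ϖ x) :=
  H2.tate_ext fun k => rfl

/-- **The Tate module of the `θ`-part in coordinates.** -/
theorem exists_J (hϖ : Irreducible ϖ) (hp : (p : 𝒪) = π' * ϖ) (hp0 : (p : 𝒪) ≠ 0)
    (he : IsCoordSys p e) {G : Set 𝕋} (hG : Algebra.adjoin ℤ G = ⊤)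
    (hMat : ∀ g ∈ G, ∀ k j, η g (e k j) = ∑ i, Mat g i j • e k i) :
    ∃ J : H2.tate ϖ ↥(H2.thetaPart η θ) →ₗ[𝒪] (Fin r → 𝒪), Function.Injective J ∧
      (∀ d, d ∈ Set.range J ↔
        d ∈ locSub (⊤ : Submodule 𝒪 (Fin r → 𝒪)) (bmEta 𝒪 Mat) θ G) ∧
      ∀ (t : 𝕋) (x : H2.tate ϖ ↥(H2.thetaPart η θ)),
        J (H2.mapEnd ϖ ↥(H2.thetaPart η θ) (H2.thetaEta η θ t) x) = bmEta 𝒪 Mat t (J x) := by
  have hall := mat_of_gen η Mat hG hMat
  set Ψ := psiEquiv (ϖ := ϖ) hϖ hp hp0 he with hΨ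
  have hΨa : ∀ d, Ψ d = psi (ϖ := ϖ) hp he d := fun d => rfl
  refine ⟨Ψ.symm.toLinearMap ∘ₗ tateIncl η θ ϖ, ?_, ?_, ?_⟩
  · exact Ψ.symm.injective.comp (tateIncl_injective η θ)
  · intro d
    rw [← ev_psi_mem_thetaPart_iff η Mat θ hϖ hp hp0 he hG hall d, ← mem_range_tateIncl]
    constructor
    · rintro ⟨x, hx⟩
      refine ⟨x, ?_⟩
      rw [← hΨa, ← hx]
      simp
    · rintro ⟨x, hx⟩
      refine ⟨x, ?_⟩
      show Ψ.symm (tateIncl η θ ϖ x) = d
      rw [hx, ← hΨa, LinearEquiv.symm_apply_apply]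
  · intro t x
    show Ψ.symm (tateIncl η θ ϖ _) = bmEta 𝒪 Mat t (Ψ.symm (tateIncl η θ ϖ x))
    rw [tateIncl_eta, LinearEquiv.symm_apply_eq, hΨa, ← psi_eta η Mat hp he hall, ← hΨa,
      LinearEquiv.apply_symm_apply]

end J

end Fermat.Agent.S59.NonMin.Geom.H92B

end
end
-- ==== END Fermat.Agent.S59.NonMin.Geom.H92_B0Alg

-- ==== BEGIN Fermat.Agent.S59.NonMin.Geom.H92_RelBase2
section

set_option autoImplicit false
set_option linter.style.haveILetI false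
set_option linter.unusedSectionVars false

open scoped MatrixGroups
open CongruenceSubgroup Matrix ModularForm

namespace Fermat.Agent.S59.NonMin.Geom.H92

open Fermat.Agent.S41 Fermat.Agent.S41.H19 Fermat.Agent.S41.H77 Fermat.Agent.S41.H39
open Fermat.Agent.S41.H20 Fermat.Agent.Betti Fermat.Agent.S59.NonMin.Geom.H72R

/-! ### Matrices -/

section Mat

/-- The unipotent matrix `[[1, j], [0, 1]]`. -/
def Um (j : ℤ) : Matrix (Fin 2) (Fin 2) ℤ := !![1, j; 0, 1]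

/-- The unipotent element `[[1, j], [0, 1]]` of `Γ₀(M)`. -/
def uG (M : ℕ) (j : ℤ) : Gamma0 M := mkG0 M 1 j 0 1 (by ring) (dvd_zero _)

theorem mat_uG (M : ℕ) (j : ℤ) : mat (uG M j) = Um j := rfl

theorem Dq_Bmat_eq (q : ℕ) (j : ℤ) : Dq q * Bmat q j = (q : ℤ) • Um j := by
  ext i k
  fin_cases i <;> fin_cases k <;>
    simp [Dq, Bmat, Um, Matrix.mul_apply, Fin.sum_univ_two]

/-- The lower left entry of `K` when `B_x G = K B_x'`. -/
theorem entry_of_rel {q : ℕ} {G K : Matrix (Fin 2) (Fin 2) ℤ} {x x' : ℤ}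
    (h : Bmat q x * G = K * Bmat q x') : K 1 0 = (q : ℤ) * G 1 0 := by
  have h10 := congrFun (congrFun h 1) 0
  simp only [Bmat, Matrix.mul_apply, Fin.sum_univ_two, Matrix.of_apply, Matrix.cons_val',
    Matrix.cons_val_zero, Matrix.cons_val_one, Matrix.empty_val', Matrix.cons_val_fin_one,
    zero_mul, zero_add, mul_one, mul_zero, add_zero] at h10
  exact h10.symm

/-- `conj(K) t_x' = t_x G` when `B_x G = K B_x'`. -/
theorem conj_rel_mat {q : ℕ} (hq : q ≠ 0) {G K : Matrix (Fin 2) (Fin 2) ℤ} {x x' : ℤ}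
    (h : Bmat q x * G = K * Bmat q x') :
    conjMat q K * Um x' = Um x * G := by
  have hK : (q : ℤ) ∣ K 1 0 := ⟨G 1 0, entry_of_rel h⟩
  apply smul_mat_cancel hq
  calc (q : ℤ) • (conjMat q K * Um x')
      = conjMat q K * (Dq q * Bmat q x') := by rw [Dq_Bmat_eq, Matrix.mul_smul]
    _ = (conjMat q K * Dq q) * Bmat q x' := by rw [Matrix.mul_assoc]
    _ = Dq q * (K * Bmat q x') := by rw [conjMat_Dq hK, Matrix.mul_assoc]
    _ = Dq q * (Bmat q x * G) := by rw [h]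
    _ = (Dq q * Bmat q x) * G := by rw [Matrix.mul_assoc]
    _ = (q : ℤ) • (Um x * G) := by rw [Dq_Bmat_eq, Matrix.smul_mul]

end Mat

/-! ### Representatives of `Γ₀(M) / conjG(Γ₀(M q))`, `q ∣ M` -/

section Reps

variable {M q : ℕ}

/-- The representatives `[[1, j], [0, 1]]⁻¹`. -/
def tInv (M q : ℕ) (j : ZMod q) : Gamma0 M := (uG M (j.val : ℤ))⁻¹

theorem mem_range_conjG_iff (hq : q ≠ 0) (g : Gamma0 M) :
    g ∈ (conjG M q).range ↔ (q : ℤ) ∣ mat g 0 1 := by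
  constructor
  · rintro ⟨h, rfl⟩
    rw [mat_conjG]
    simp only [conjMat, Matrix.of_apply, Matrix.cons_val', Matrix.cons_val_zero,
      Matrix.cons_val_one, Matrix.empty_val', Matrix.cons_val_fin_one]
    exact dvd_mul_right _ _
  · intro hd
    exact exists_conjG_eq hq g hd

theorem mat_uG_mul (j : ℤ) (g : Gamma0 M) :
    mat (uG M j * g) 0 1 = mat g 0 1 + j * mat g 1 1 := by
  rw [mat_mul, mat_uG]
  simp [Um, Matrix.mul_apply, Fin.sum_univ_two]

theorem isReps_tInv [NeZero q] (hqM : q ∣ M) : IsReps (conjG M q) (tInv M q) := by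
  have hq : q ≠ 0 := NeZero.ne q
  constructor
  · intro i j h
    rw [mem_range_conjG_iff hq] at h
    have e : mat ((tInv M q i)⁻¹ * tInv M q j) 0 1 = (i.val : ℤ) - (j.val : ℤ) := by
      simp only [tInv, inv_inv]
      rw [mat_uG_mul, H39.mat_inv, mat_uG]
      simp [Um]
      ring
    rw [e] at h
    exact zmod_eq_of_dvd_val_sub h
  · intro g
    refine ⟨((-(mat g 0 1 * mat g 0 0) : ℤ) : ZMod q), ?_⟩
    rw [mem_range_conjG_iff hq]
    simp only [tInv, inv_inv]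
    rw [mat_uG_mul, ← ZMod.intCast_zmod_eq_zero_iff_dvd]
    have hdet := mat_det' g
    have h10 : ((mat g 1 0 : ℤ) : ZMod q) = 0 :=
      (ZMod.intCast_zmod_eq_zero_iff_dvd _ _).mpr
        ((Int.natCast_dvd_natCast.mpr hqM).trans (mat_dvd g))
    have hdet' : ((mat g 0 0 : ℤ) : ZMod q) * ((mat g 1 1 : ℤ) : ZMod q) = 1 := by
      have := congrArg (Int.cast : ℤ → ZMod q) hdet
      push_cast at this
      rw [h10, mul_zero, sub_zero] at this
      exact this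
    push_cast
    rw [ZMod.natCast_zmod_val]
    linear_combination (-((mat g 0 1 : ℤ) : ZMod q)) * hdet'

end Reps

/-! ### `U_q` as `res ∘ cor` and as `cor ∘ res` -/

section UB

variable {M q M' : ℕ} {A : Type*} [AddCommGroup A]

/-- **`U_q = res ∘ cor`** through the lower level: `a` is "the inclusion" and `b` is "the
conjugation by `diag(q, 1)`" from `Γ₀(M')` to `Γ₀(M)`, `q ∣ M`. -/
theorem UB_eq_res_cor [NeZero M'] [NeZero q] (hqM : q ∣ M) (hd : q ∣ M')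
    (a b : Gamma0 M' →* Gamma0 M) (ha : ∀ γ, mat (a γ) = mat γ)
    (hb : ∀ γ, mat (b γ) = conjMat q (mat γ)) (hbinj : Function.Injective b)
    (hrange : b.range = (conjG M q).range) (ψ : Additive (Gamma0 M') →+ A) :
    UB M' A hd ψ = resAlong A a (corAlong A b ψ) := by
  have hq : q ≠ 0 := NeZero.ne q
  have ht : IsReps b (tInv M q) := isReps_of_range_eq hrange.symm (isReps_tInv hqM)
  refine AddMonoidHom.ext fun γ' => ?_
  obtain ⟨γ, rfl⟩ : ∃ g : Gamma0 M', Additive.ofMul g = γ' := ⟨Additive.toMul γ', rfl⟩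
  set H := isHeckeFamily_U M' hd with hH
  have hrel : ∀ x : ZMod q,
      b (H.kap γ x) * uG M ((H.perm γ x).val : ℤ) = uG M (x.val : ℤ) * a γ := by
    intro x
    apply mat_injective
    rw [mat_mul, mat_mul, hb, ha, mat_uG, mat_uG]
    exact conj_rel_mat hq (Bmat_rel hq (H.rep_mul γ x))
  have key := corAlong_eq_sum (A := A) b hbinj (tInv M q) ht ψ ((a γ)⁻¹) (H.perm γ)
    (fun x => (H.kap γ x)⁻¹) (by
      intro x
      have h2 := congrArg (fun z => z⁻¹) (hrel x)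
      simp only [_root_.mul_inv_rev] at h2
      rw [map_inv]
      exact h2.symm)
  show _ = corAlong A b ψ (Additive.ofMul (a γ))
  have e1 : corAlong A b ψ (Additive.ofMul (a γ))
      = - corAlong A b ψ (Additive.ofMul (a γ)⁻¹) := by
    rw [ofMul_inv, map_neg, neg_neg]
  rw [e1, key, UB_apply_apply]
  simp only [ofMul_inv, map_neg, Finset.sum_neg_distrib, neg_neg]

/-- **`U_q = cor ∘ res`** through the higher level `M' = M q`, `q ∣ M`. -/
theorem cor_res_eq_UB [NeZero M] [NeZero q] (hqM : q ∣ M) (hM' : M' = M * q)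
    (a b : Gamma0 M' →* Gamma0 M) (ha : ∀ γ, mat (a γ) = mat γ)
    (hb : ∀ γ, mat (b γ) = conjMat q (mat γ)) (hbinj : Function.Injective b)
    (hrange : b.range = (conjG M q).range)
    (hasurj : ∀ κ : Gamma0 M, ((M' : ℕ) : ℤ) ∣ mat κ 1 0 → ∃ κ' : Gamma0 M', a κ' = κ)
    (χ : Additive (Gamma0 M) →+ A) :
    corAlong A b (resAlong A a χ) = UB M A hqM χ := by
  have hq : q ≠ 0 := NeZero.ne q
  have ht : IsReps b (tInv M q) := isReps_of_range_eq hrange.symm (isReps_tInv hqM)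
  refine AddMonoidHom.ext fun g' => ?_
  obtain ⟨g, rfl⟩ : ∃ g : Gamma0 M, Additive.ofMul g = g' := ⟨Additive.toMul g', rfl⟩
  set H := isHeckeFamily_U M hqM with hH
  have hex : ∀ x : ZMod q, ∃ κ' : Gamma0 M', a κ' = H.kap g x := by
    intro x
    apply hasurj
    rw [entry_of_rel (Bmat_rel hq (H.rep_mul g x)), hM']
    obtain ⟨c, hc⟩ := mat_dvd g
    exact ⟨c, by rw [hc]; push_cast; ring⟩
  choose κ' hκ' using hex
  have hrel : ∀ x : ZMod q,
      b (κ' x) * uG M ((H.perm g x).val : ℤ) = uG M (x.val : ℤ) * g := by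
    intro x
    apply mat_injective
    have hmat : mat (κ' x) = mat (H.kap g x) := by rw [← ha, hκ']
    rw [mat_mul, mat_mul, hb, hmat, mat_uG, mat_uG]
    exact conj_rel_mat hq (Bmat_rel hq (H.rep_mul g x))
  have key := corAlong_eq_sum (A := A) b hbinj (tInv M q) ht (resAlong A a χ) (g⁻¹) (H.perm g)
    (fun x => (κ' x)⁻¹) (by
      intro x
      have h2 := congrArg (fun z => z⁻¹) (hrel x)
      simp only [_root_.mul_inv_rev] at h2
      rw [map_inv]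
      exact h2.symm)
  have e1 : corAlong A b (resAlong A a χ) (Additive.ofMul g)
      = - corAlong A b (resAlong A a χ) (Additive.ofMul g⁻¹) := by
    rw [ofMul_inv, map_neg, neg_neg]
  rw [e1, key, UB_apply_apply]
  simp only [ofMul_inv, map_neg, Finset.sum_neg_distrib, neg_neg, resAlong_apply]
  exact Finset.sum_congr rfl fun x _ => by rw [hκ']

end UB

/-! ### The levels `N`, `N q` with `q ∤ N` -/

section Level

variable {N q : ℕ} {A : Type*} [AddCommGroup A]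

theorem finiteIndex_conjG (hN : 0 < N) (hq : q.Prime) (hqN : ¬ q ∣ N) :
    (conjG N q).range.FiniteIndex := by
  obtain ⟨u, v, huv⟩ := exists_bezout hq hqN
  have hfin := finiteIndex_inclG hN hq hqN
  have h : (conjG N q).range
      = (inclG N q).range.map ((MulAut.conj (g0 huv) : Gamma0 N ≃* Gamma0 N) :
          Gamma0 N →* Gamma0 N) := by
    ext x
    constructor
    · rintro ⟨h', rfl⟩
      obtain ⟨h, hh⟩ := AL_sub huv h'
      exact ⟨inclG N q h, ⟨h, rfl⟩, by rw [hh]; rfl⟩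
    · rintro ⟨y, ⟨h, rfl⟩, rfl⟩
      obtain ⟨h', hh'⟩ := AL_surj huv hq.ne_zero h
      exact ⟨h', by rw [hh']; rfl⟩
  rw [h]
  exact ⟨by rw [Subgroup.index_map_equiv]; exact hfin.index_ne_zero⟩

/-- `c₂ U_q = T_q c₂ - c₁` (levels `N`, `N q`). -/
theorem cor2_UB [NeZero (N * q)] (hN : 0 < N) (hq : q.Prime) (hqN : ¬ q ∣ N) (hd : q ∣ N * q)
    (χ : Additive (Gamma0 (N * q)) →+ A) :
    cor2 N q A (UB (N * q) A hd χ) = TB N A hq hqN (cor2 N q A χ) - cor1 N q A χ := by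
  obtain ⟨u, v, huv⟩ := exists_bezout hq hqN
  have hw2 : ∀ φ : Additive (Gamma0 (N * q)) →+ A,
      resAlong A (alG huv hq.ne_zero) (resAlong A (alG huv hq.ne_zero) φ) = φ :=
    res_alG_alG huv hq.ne_zero
  have hc2 : ∀ φ : Additive (Gamma0 (N * q)) →+ A,
      cor2 N q A φ = cor1 N q A (resAlong A (alG huv hq.ne_zero) φ) :=
    cor2_eq_cor1_alG huv hN hq hqN
  have hr1c1 : ∀ ψ : Additive (Gamma0 (N * q)) →+ A,
      res1 N q A (cor1 N q A ψ)
        = ψ + UB (N * q) A hd (resAlong A (alG huv hq.ne_zero) ψ) := by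
    intro ψ
    refine AddMonoidHom.ext fun x => ?_
    exact cor1_incl huv hN hq hqN ψ (Additive.toMul x)
  have hwr2 : ∀ Φ : Additive (Gamma0 N) →+ A,
      resAlong A (alG huv hq.ne_zero) (res2 N q A Φ) = res1 N q A Φ := by
    intro Φ
    refine AddMonoidHom.ext fun x => ?_
    show Φ (Additive.ofMul (conjG N q (alG huv hq.ne_zero (Additive.toMul x))))
      = Φ (Additive.ofMul (inclG N q (Additive.toMul x)))
    rw [conjG_alG, hom_conj]
  have hr2 : ∀ Φ : Additive (Gamma0 N) →+ A,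
      res2 N q A Φ = resAlong A (alG huv hq.ne_zero) (res1 N q A Φ) := by
    intro Φ
    rw [← hwr2, hw2]
  have hwadd : ∀ φ ψ : Additive (Gamma0 (N * q)) →+ A,
      resAlong A (alG huv hq.ne_zero) (φ + ψ)
        = resAlong A (alG huv hq.ne_zero) φ + resAlong A (alG huv hq.ne_zero) ψ :=
    fun φ ψ => rfl
  have hT : TB N A hq hqN (cor2 N q A χ) = cor1 N q A χ + cor2 N q A (UB (N * q) A hd χ) := by
    rw [← Tcoh_eq_TB hN hq hqN]
    show cor1 N q A (res2 N q A (cor2 N q A χ)) = _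
    rw [hr2, hc2 χ, hr1c1, hw2, hwadd, hw2, hc2 (UB (N * q) A hd χ)]
    unfold cor1
    rw [corAlong_add]
  rw [hT]
  abel

/-- `c₁ U_q = q c₂` (levels `N`, `N q`). -/
theorem cor1_UB [NeZero (N * q)] (hN : 0 < N) (hq : q.Prime) (hqN : ¬ q ∣ N) (hd : q ∣ N * q)
    (χ : Additive (Gamma0 (N * q)) →+ A) :
    cor1 N q A (UB (N * q) A hd χ) = q • cor2 N q A χ := by
  haveI : NeZero q := ⟨hq.ne_zero⟩
  have hNq : 0 < N * q := Nat.mul_pos hN hq.pos
  have hqNq : q ∣ N * q := dvd_mul_left q N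
  have hreps : IsReps (conjG (N * q) q) (tInv (N * q) q) := isReps_tInv hqNq
  haveI hf1 : (conjG (N * q) q).range.FiniteIndex := hreps.finiteIndex
  haveI hf2 : (inclG N q).range.FiniteIndex := finiteIndex_inclG hN hq hqN
  haveI hf3 : (inclG (N * q) q).range.FiniteIndex := finiteIndex_inclG_of_dvd hNq hq.pos hqNq
  haveI hf4 : (conjG N q).range.FiniteIndex := finiteIndex_conjG hN hq hqN
  have hU : UB (N * q) A hd χ = cor2 (N * q) q A (res1 (N * q) q A χ) := by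
    refine (cor_res_eq_UB hqNq rfl (inclG (N * q) q) (conjG (N * q) q) (fun _ => rfl)
      (fun _ => rfl) (conjG_injective _ _ hq.ne_zero) rfl ?_ χ).symm
    intro κ hκ
    exact (mem_range_inclG_iff κ).mpr hκ
  have hcomm : (inclG N q).comp (conjG (N * q) q) = (conjG N q).comp (inclG (N * q) q) :=
    MonoidHom.ext fun x => (conjG_inclG_comm x).symm
  rw [hU]
  unfold cor1 cor2
  rw [← corAlong_comp (conjG (N * q) q) (inclG N q) (conjG_injective _ _ hq.ne_zero)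
    (inclG_injective N q), hcomm,
    corAlong_comp (inclG (N * q) q) (conjG N q) (inclG_injective _ _)
      (conjG_injective _ _ hq.ne_zero)]
  have h1 : corAlong A (inclG (N * q) q) (res1 (N * q) q A χ) = q • χ :=
    cor1_res1_of_dvd hNq hq.pos hqNq χ
  rw [h1, corAlong_smul]

end Level

end Fermat.Agent.S59.NonMin.Geom.H92

end
-- ==== END Fermat.Agent.S59.NonMin.Geom.H92_RelBase2

-- ==== BEGIN Fermat.Agent.S59.NonMin.Geom.H94_DualAsm
section

/-!
# S59 / NMGEOM, leaf DUAL (helper94): the assembly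

`dual_of : Stmt_DUALk → Stmt_LIFTB → Stmt_DUAL`: reduce `φ` (`H94.inBettik_redB`), solve over the
residue field (`Stmt_DUALk`), lift the solution (`Stmt_LIFTB`); `α'` commutes with the reduction.

* `sig_level` : under `GeomHyp`, every `r ∈ Sig` divides `N q²` exactly twice.

No `sorry`.
-/

set_option autoImplicit false

open CuspForm CongruenceSubgroup IsLocalRing
open scoped MatrixGroups

namespace Fermat.Agent.S59.NonMin.Geom.H94

open Fermat.Agent.S41 Fermat.Agent.Betti Fermat.Agent.S59.NonMin.Geom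
open ModularCurve.Period

/-- Under `GeomHyp`, every `r ∈ Sig` divides the level `N` exactly twice. -/
theorem sig_level_base {p : ℕ} {Smin : Finset ℕ} {N₀ : ℕ} {Sig : Finset ℕ} {N : ℕ} {S : Finset ℕ}
    (hG : GeomHyp p Smin N₀ Sig N S) {r : ℕ} (hr : r ∈ Sig) :
    r.Prime ∧ r ≠ p ∧ ∃ M₀ : ℕ, N = M₀ * r ^ 2 ∧ ¬ r ∣ M₀ := by
  obtain ⟨hrp, hrne, hrS⟩ := hG.hSig r hr
  refine ⟨hrp, hrne, N₀ * ∏ r' ∈ Sig.erase r, r' ^ 2, ?_, ?_⟩
  · rw [hG.hN, ← Finset.mul_prod_erase Sig (fun r' => r' ^ 2) hr]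
    ring
  · intro hdvd
    rcases (Nat.Prime.dvd_mul hrp).mp hdvd with h | h
    · exact hrS (hG.hN₀S r hrp h)
    · obtain ⟨r', hr', hdv⟩ := (Prime.dvd_finsetProd_iff hrp.prime _).mp h
      have h1 : r ∣ r' := hrp.dvd_of_dvd_pow hdv
      have hr'p : r'.Prime := (hG.hSig r' (Finset.mem_of_mem_erase hr')).1
      have h2 : r = r' := (Nat.prime_dvd_prime_iff_eq hrp hr'p).mp h1
      exact (Finset.ne_of_mem_erase hr') h2.symm

/-- Under `GeomHyp`, every `r ∈ Sig` divides the level `N q²` exactly twice (`q ∉ S`). -/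
theorem sig_level {p : ℕ} {Smin : Finset ℕ} {N₀ : ℕ} {Sig : Finset ℕ} {N : ℕ} {S : Finset ℕ}
    (hG : GeomHyp p Smin N₀ Sig N S) {q : ℕ} (hq : q.Prime) (hqS : q ∉ (↑S : Set ℕ))
    {r : ℕ} (hr : r ∈ Sig) :
    r.Prime ∧ r ≠ p ∧ ∃ M₀ : ℕ, N * q ^ 2 = M₀ * r ^ 2 ∧ ¬ r ∣ M₀ := by
  obtain ⟨hrp, hrne, M₀, hM₀, hrM₀⟩ := sig_level_base hG hr
  refine ⟨hrp, hrne, M₀ * q ^ 2, ?_, ?_⟩
  · rw [hM₀]
    ring
  · intro hdvd
    rcases (Nat.Prime.dvd_mul hrp).mp hdvd with h | h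
    · exact hrM₀ h
    · have h1 : r ∣ q := hrp.dvd_of_dvd_pow h
      have h2 : r = q := (Nat.prime_dvd_prime_iff_eq hrp hq).mp h1
      apply hqS
      rw [hG.hS, ← h2]
      exact Finset.mem_coe.mpr (Finset.mem_union_right _ hr)

/-- **DUAL** from its `k`-level form and the lifting. -/
theorem dual_of (hk : Stmt_DUALk) (hL : Stmt_LIFTB) : Stmt_DUAL := by
  intro 𝒪 _ _ _ _ _ _ p _ hp2 hpm ρbar Smin hres N₀ Sig N _ S hG θ hF q hq hqp hqN hqS _ rest
    hrest φ hφ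
  obtain ⟨ψb, hψb, hα⟩ := hk 𝒪 p hp2 hpm ρbar Smin hres N₀ Sig N S hG θ hF q hq hqp hqN hqS
    rest hrest (redB 𝒪 φ) (inBettik_redB hφ)
  obtain ⟨ψ, hψ, hred⟩ := hL 𝒪 p hpm (N * q ^ 2) (↑(insert q S) : Set ℕ) (θ.comp rest) Sig
    (fun r hr => sig_level hG hq hqS hr) ψb hψb
  refine ⟨ψ, hψ, ?_⟩
  rw [← redB_eq_iff, ← alphaB'_redB, hred, hα]

end Fermat.Agent.S59.NonMin.Geom.H94

end
-- ==== END Fermat.Agent.S59.NonMin.Geom.H94_DualAsm

-- ==== BEGIN Fermat.Agent.S59.NonMin.Geom.H94_LiftTheta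
section

/-!
# S59 / NMGEOM, leaf DUAL, part LIFT-B (helper94): the `θ`-limit step

`exists_theta_lift` : a parabolic `φ₀ : Γ₀(N) → 𝒪` on which every `T_ℓ - a` (`a` a lift of
`θ(T_ℓ)`) is nilpotent modulo `𝔪` is congruent modulo `𝔪` to a `θ`-local parabolic `φ`
(`InBetti 𝒪 N S θ ∅ φ`).
[`H94.abs_lift` for `X = 𝒪^r` in the coordinates `H61.bmPhi` of a universal basis, with the action
of the monoid algebra `𝒪[𝕋]` of the Hecke algebra through `Betti.H76.stmt_matrixRep`.]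

No `sorry`.
-/

set_option autoImplicit false
set_option linter.unusedSectionVars false
set_option linter.style.haveILetI false

open CuspForm CongruenceSubgroup IsLocalRing
open scoped MatrixGroups

namespace Fermat.Agent.S59.NonMin.Geom.H94

open Fermat.Agent.S41 Fermat.Agent.Betti Fermat.Agent.S59.NonMin.Geom
open ModularCurve.Period

variable {𝒪 : Type} [CommRing 𝒪] [IsDomain 𝒪] [IsDiscreteValuationRing 𝒪]
  [IsAdicComplete (maximalIdeal 𝒪) 𝒪] [Finite (ResidueField 𝒪)] [CharZero 𝒪]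

/-- The `θ`-limit step. -/
theorem exists_theta_lift (N : ℕ) [NeZero N] (S : Set ℕ)
    (θ : CuspForm.heckeAlgebra N 2 S →+* ResidueField 𝒪)
    (φ₀ : Additive (Gamma0 N) →+ 𝒪) (hpar : IsParabolicHom (Gamma0 N) φ₀)
    (hnil : ∀ (ℓ : ℕ) (hℓ : ℓ.Prime) (hℓN : ¬ ℓ ∣ N) (hℓS : ℓ ∉ S) (a : 𝒪),
      residue 𝒪 a = θ (CuspForm.heckeAlgebra.T hℓ hℓN hℓS) →
      ∃ n : ℕ, ∀ γ : Additive (Gamma0 N),
        ((fun χ : Additive (Gamma0 N) →+ 𝒪 => TB N 𝒪 hℓ hℓN χ - a • χ)^[n] φ₀) γ ∈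
          maximalIdeal 𝒪) :
    ∃ φ : Additive (Gamma0 N) →+ 𝒪, InBetti 𝒪 N S θ ∅ φ ∧ redB 𝒪 φ = redB 𝒪 φ₀ := by
  classical
  obtain ⟨r, b, hb⟩ := stmt_basis N
  obtain ⟨Mat, -, hT, -⟩ := Fermat.Agent.Betti.H76.stmt_matrixRep N S r b hb
  obtain ⟨v₀, rfl⟩ := H61.bmPhi_surj hb φ₀ hpar
  -- the action of the monoid algebra of the Hecke algebra
  let E := Module.End 𝒪 (Fin r → 𝒪)
  let η : CuspForm.heckeAlgebra N 2 S →+* E := H61.bmEta 𝒪 Mat
  let R := MonoidAlgebra 𝒪 (CuspForm.heckeAlgebra N 2 S)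
  let Φ : R →+* E :=
    (MonoidAlgebra.lift 𝒪 E (CuspForm.heckeAlgebra N 2 S)
      (η : CuspForm.heckeAlgebra N 2 S →* E)).toRingHom
  have hΦ : ∀ (g : CuspForm.heckeAlgebra N 2 S) (a : 𝒪),
      Φ (MonoidAlgebra.of 𝒪 (CuspForm.heckeAlgebra N 2 S) g - algebraMap 𝒪 R a)
        = η g - a • (1 : E) := by
    intro g a
    show (MonoidAlgebra.lift 𝒪 E (CuspForm.heckeAlgebra N 2 S)
      (η : CuspForm.heckeAlgebra N 2 S →* E))
        (MonoidAlgebra.of 𝒪 (CuspForm.heckeAlgebra N 2 S) g - algebraMap 𝒪 R a) = _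
    rw [map_sub, MonoidAlgebra.lift_of, AlgHom.commutes, Algebra.algebraMap_eq_smul_one]
    rfl
  let s : Set R := {ρ | ∃ (ℓ : ℕ) (hℓ : ℓ.Prime) (hℓN : ¬ ℓ ∣ N) (hℓS : ℓ ∉ S) (a : 𝒪),
    residue 𝒪 a = θ (CuspForm.heckeAlgebra.T hℓ hℓN hℓS) ∧
    ρ = MonoidAlgebra.of 𝒪 (CuspForm.heckeAlgebra N 2 S) (CuspForm.heckeAlgebra.T hℓ hℓN hℓS)
      - algebraMap 𝒪 R a}
  have h₀ : ∀ t ∈ s, ∃ n : ℕ, (Φ t ^ n) v₀ ∈
      (maximalIdeal 𝒪 • ⊤ : Submodule 𝒪 (Fin r → 𝒪)) := by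
    rintro t ⟨ℓ, hℓ, hℓN, hℓS, a, ha, rfl⟩
    obtain ⟨n, hn⟩ := hnil ℓ hℓ hℓN hℓS a ha
    refine ⟨n, ?_⟩
    have h3 := H61.iterate_bmPhi (b := b) (TB N 𝒪 hℓ hℓN)
      (H61.bmEta 𝒪 Mat (CuspForm.heckeAlgebra.T hℓ hℓN hℓS)) a
      (H61.bm_TB hT ℓ hℓ hℓN hℓS) n v₀
    rw [h3] at hn
    have h4 := (H61.bmPhi_mem_iff hb 1
      (((H61.bmEta 𝒪 Mat (CuspForm.heckeAlgebra.T hℓ hℓN hℓS) - a • (1 : E)) ^ n) v₀)).mp
      (fun γ => by rw [pow_one]; exact hn γ)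
    rw [pow_one] at h4
    rw [hΦ]
    exact h4
  obtain ⟨v, hv0, hv⟩ := abs_lift Φ s v₀ h₀
  refine ⟨H61.bmPhi 𝒪 b v, (H61.bmV_iff hb hT θ ∅ _).mp ⟨⟨v, ?_⟩, rfl⟩, ?_⟩
  · refine ⟨fun q hq => absurd hq (Finset.notMem_empty q), ?_⟩
    rintro g ⟨ℓ, hℓ, hℓN, hℓS, rfl⟩ a ha m
    obtain ⟨n, hn⟩ := hv _ ⟨ℓ, hℓ, hℓN, hℓS, a, ha, rfl⟩ m
    rw [hΦ] at hn
    exact ⟨n, hn⟩
  · rw [redB_eq_iff]
    intro γ
    rw [← map_sub]
    have h5 := (H61.bmPhi_mem_iff hb 1 (v - v₀)).mpr (by rw [pow_one]; exact hv0) γ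
    rwa [pow_one] at h5

end Fermat.Agent.S59.NonMin.Geom.H94

end
-- ==== END Fermat.Agent.S59.NonMin.Geom.H94_LiftTheta

-- ==== BEGIN Fermat.Agent.S59.NonMin.Geom.H98_CommT
section

/-!
# S59 / NMGEOM (helper98): `T_ℓ T_ℓ' = T_ℓ' T_ℓ` on `Hom(Γ₀(M), A)`, any coefficient group

`TB_comm_TB` : for primes `ℓ, ℓ' ∤ M`, `TB ℓ (TB ℓ' φ) = TB ℓ' (TB ℓ φ)`.
Together with `H98.UB_comm_UB`, `H98.UB_comm_TB` all the Betti Hecke operators of a level commute.
-/

set_option autoImplicit false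
set_option linter.style.haveILetI false
set_option linter.unusedSectionVars false

open scoped MatrixGroups
open CongruenceSubgroup Matrix ModularForm

namespace Fermat.Agent.S59.NonMin.Geom.H98

open Fermat.Agent.S41 Fermat.Agent.S41.H19 Fermat.Agent.S41.H39 Fermat.Agent.S41.H20
open Fermat.Agent.Betti

section Mat

theorem Dq_mul_Dq (ℓ ℓ' : ℕ) : Dq ℓ * Dq ℓ' = !![(ℓ : ℤ) * ℓ', 0; 0, 1] := by
  ext i k
  fin_cases i <;> fin_cases k <;> simp [Dq, Matrix.mul_apply, Fin.sum_univ_two]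

theorem Bmat_Dq_swap (q ℓ : ℕ) {x x' m : ℤ} (h : ℓ * x' + q * m = x) :
    Bmat q x * Dq ℓ = !![1, m; 0, 1] * (Dq ℓ * Bmat q x') := by
  rw [Dq_mul_Bmat, Bmat_mul_Dq]
  ext i k
  fin_cases i <;> fin_cases k <;> simp [Matrix.mul_apply, Fin.sum_univ_two]
  linarith

end Mat

section TT

variable {M : ℕ} [NeZero M] {A : Type*} [AddCommGroup A]

/-- the bijection of the index sets -/
noncomputable def piTT (ℓ ℓ' : ℕ) (a : OnePoint (ZMod ℓ') × OnePoint (ZMod ℓ)) :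
    OnePoint (ZMod ℓ) × OnePoint (ZMod ℓ') :=
  match a.1, a.2 with
  | none, none => ((OnePoint.infty : OnePoint (ZMod ℓ)), (OnePoint.infty : OnePoint (ZMod ℓ')))
  | none, some j =>
      ((((ℓ' * j.val : ℕ) : ZMod ℓ) : OnePoint (ZMod ℓ)), (OnePoint.infty : OnePoint (ZMod ℓ')))
  | some j', none =>
      ((OnePoint.infty : OnePoint (ZMod ℓ)), ((((ℓ : ZMod ℓ')⁻¹ * j' : ZMod ℓ')) : OnePoint (ZMod ℓ')))
  | some j', some j =>
      ((((swapFun ℓ ℓ' (j', j)).1 : ZMod ℓ) : OnePoint (ZMod ℓ)),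
        (((swapFun ℓ ℓ' (j', j)).2 : ZMod ℓ') : OnePoint (ZMod ℓ')))

/-- the unipotent corrections -/
noncomputable def epsTT (M ℓ ℓ' : ℕ) (a : OnePoint (ZMod ℓ') × OnePoint (ZMod ℓ)) : Gamma0 M :=
  match a.1, a.2 with
  | none, none => 1
  | none, some j => tUp M ((ℓ' * j.val / ℓ : ℕ) : ℤ)
  | some j', none =>
      tUp M (((j'.val : ℤ) - (ℓ : ℤ) * ((((ℓ : ZMod ℓ')⁻¹ * j' : ZMod ℓ')).val : ℤ)) / (ℓ' : ℤ))
  | some _, some _ => 1

theorem piTT_injective {ℓ ℓ' : ℕ} [NeZero ℓ] [NeZero ℓ'] (hcop : Nat.Coprime ℓ ℓ') :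
    Function.Injective (piTT ℓ ℓ') := by
  have hu : IsUnit ((ℓ' : ℕ) : ZMod ℓ) := (ZMod.isUnit_iff_coprime ℓ' ℓ).mpr hcop.symm
  have hu' : IsUnit ((ℓ : ℕ) : ZMod ℓ') := (ZMod.isUnit_iff_coprime ℓ ℓ').mpr hcop
  rintro ⟨y', y⟩ ⟨z', z⟩ h
  have g1 : (piTT ℓ ℓ' (y', y)).1 = (piTT ℓ ℓ' (z', z)).1 := congrArg Prod.fst h
  have g2 : (piTT ℓ ℓ' (y', y)).2 = (piTT ℓ ℓ' (z', z)).2 := congrArg Prod.snd h
  rcases y' with _ | j' <;> rcases y with _ | j <;> rcases z' with _ | k' <;> rcases z with _ | k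
  all_goals first
    | rfl
    | exact absurd g1 (OnePoint.infty_ne_coe _)
    | exact absurd g1 (OnePoint.coe_ne_infty _)
    | exact absurd g2 (OnePoint.infty_ne_coe _)
    | exact absurd g2 (OnePoint.coe_ne_infty _)
    | skip
  · -- (∞, j), (∞, k)
    have h1 : ((((ℓ' * j.val : ℕ) : ZMod ℓ) : OnePoint (ZMod ℓ)))
        = (((ℓ' * k.val : ℕ) : ZMod ℓ) : OnePoint (ZMod ℓ)) := by
      have := congrArg Prod.fst h
      exact this
    have h2 := OnePoint.coe_injective h1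
    push_cast at h2
    rw [ZMod.natCast_zmod_val, ZMod.natCast_zmod_val, hu.mul_right_inj] at h2
    rw [h2]
  · -- (j', ∞), (k', ∞)
    have h1 : ((((ℓ : ZMod ℓ')⁻¹ * j' : ZMod ℓ')) : OnePoint (ZMod ℓ'))
        = ((((ℓ : ZMod ℓ')⁻¹ * k' : ZMod ℓ')) : OnePoint (ZMod ℓ')) := by
      have := congrArg Prod.snd h
      exact this
    have h2 := OnePoint.coe_injective h1
    have h3 : IsUnit ((ℓ : ZMod ℓ')⁻¹) := by
      have := ZMod.coe_mul_inv_eq_one ℓ hcop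
      exact IsUnit.of_mul_eq_one_right _ this
    rw [h3.mul_right_inj] at h2
    rw [h2]
  · -- (j', j), (k', k)
    have h1 : (((swapFun ℓ ℓ' (j', j)).1 : ZMod ℓ) : OnePoint (ZMod ℓ))
        = (((swapFun ℓ ℓ' (k', k)).1 : ZMod ℓ) : OnePoint (ZMod ℓ)) := by
      have := congrArg Prod.fst h
      exact this
    have h2 : (((swapFun ℓ ℓ' (j', j)).2 : ZMod ℓ') : OnePoint (ZMod ℓ'))
        = (((swapFun ℓ ℓ' (k', k)).2 : ZMod ℓ') : OnePoint (ZMod ℓ')) := by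
      have := congrArg Prod.snd h
      exact this
    have h3 := swapFun_injective
      (Prod.ext (OnePoint.coe_injective h1) (OnePoint.coe_injective h2))
    rw [Prod.mk.injEq] at h3
    rw [h3.1, h3.2]

/-- The bijection of the index sets. -/
noncomputable def piTTEquiv (ℓ ℓ' : ℕ) [NeZero ℓ] [NeZero ℓ'] (hcop : Nat.Coprime ℓ ℓ') :
    OnePoint (ZMod ℓ') × OnePoint (ZMod ℓ) ≃ OnePoint (ZMod ℓ) × OnePoint (ZMod ℓ') :=
  Equiv.ofBijective (piTT ℓ ℓ')
    ((Fintype.bijective_iff_injective_and_card _).mpr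
      ⟨piTT_injective hcop, by rw [Fintype.card_prod, Fintype.card_prod, mul_comm]⟩)

/-- the upper triangular matrix of a product `rep_ℓ y * rep_ℓ' y'` -/
def abd (ℓ ℓ' : ℕ) (a : OnePoint (ZMod ℓ) × OnePoint (ZMod ℓ')) : ℤ × ℤ × ℤ :=
  match a.1, a.2 with
  | none, none => ((ℓ : ℤ) * ℓ', 0, 1)
  | none, some j' => ((ℓ : ℤ), (ℓ : ℤ) * (j'.val : ℤ), (ℓ' : ℤ))
  | some j, none => ((ℓ' : ℤ), (j.val : ℤ), (ℓ : ℤ))
  | some j, some j' => (1, (j'.val : ℤ) + (j.val : ℤ) * ℓ', (ℓ : ℤ) * ℓ')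

theorem isInt_prod {ℓ ℓ' : ℕ} (hℓ : ℓ ≠ 0) (hℓ' : ℓ' ≠ 0)
    (a : OnePoint (ZMod ℓ) × OnePoint (ZMod ℓ')) :
    IsInt (repT ℓ a.1 * repT ℓ' a.2)
      !![(abd ℓ ℓ' a).1, (abd ℓ ℓ' a).2.1; 0, (abd ℓ ℓ' a).2.2] := by
  obtain ⟨y, y'⟩ := a
  rcases y with _ | j <;> rcases y' with _ | j'
  · have := (isInt_repT_infty hℓ).mul (isInt_repT_infty hℓ')
    rwa [Dq_mul_Dq] at this
  · have := (isInt_repT_infty hℓ).mul (isInt_repT_coe hℓ' j')
    rwa [Dq_mul_Bmat] at this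
  · have := (isInt_repT_coe hℓ j).mul (isInt_repT_infty hℓ')
    rwa [Bmat_mul_Dq] at this
  · have := (isInt_repT_coe hℓ j).mul (isInt_repT_coe hℓ' j')
    rwa [Bmat_mul_Bmat] at this

theorem abd_pos {ℓ ℓ' : ℕ} (hℓ : 0 < ℓ) (hℓ' : 0 < ℓ')
    (a : OnePoint (ZMod ℓ) × OnePoint (ZMod ℓ')) : 0 < (abd ℓ ℓ' a).1 := by
  have h1 : (0 : ℤ) < ℓ := by exact_mod_cast hℓ
  have h2 : (0 : ℤ) < ℓ' := by exact_mod_cast hℓ'
  obtain ⟨y, y'⟩ := a
  rcases y with _ | j <;> rcases y' with _ | j'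
  · exact mul_pos h1 h2
  · exact h1
  · exact h2
  · exact one_pos

theorem zmod_eq_of_dvd {n : ℕ} [NeZero n] {i j : ZMod n} (h : (n : ℤ) ∣ (i.val : ℤ) - (j.val : ℤ)) :
    i = j := by
  have h4 := (ZMod.intCast_zmod_eq_zero_iff_dvd _ n).mpr h
  push_cast at h4
  rw [ZMod.natCast_zmod_val, ZMod.natCast_zmod_val] at h4
  exact sub_eq_zero.mp h4

theorem abd_inj {ℓ ℓ' : ℕ} (hℓ : ℓ.Prime) (hℓ' : ℓ'.Prime) (hne : ℓ ≠ ℓ')
    (a b : OnePoint (ZMod ℓ) × OnePoint (ZMod ℓ'))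
    (h1 : (abd ℓ ℓ' a).1 = (abd ℓ ℓ' b).1)
    (h2 : (abd ℓ ℓ' a).2.2 ∣ (abd ℓ ℓ' a).2.1 - (abd ℓ ℓ' b).2.1) : a = b := by
  haveI : NeZero ℓ := ⟨hℓ.ne_zero⟩
  haveI : NeZero ℓ' := ⟨hℓ'.ne_zero⟩
  have t1 := hℓ.two_le
  have t2 := hℓ'.two_le
  have hcop : IsCoprime (ℓ' : ℤ) (ℓ : ℤ) :=
    Nat.isCoprime_iff_coprime.mpr ((Nat.coprime_primes hℓ' hℓ).mpr hne.symm)
  have P1 : (ℓ : ℤ) * ℓ' ≠ ℓ := by
    intro h
    have h3 : ℓ * ℓ' = ℓ := by exact_mod_cast h
    nlinarith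
  have P2 : (ℓ : ℤ) * ℓ' ≠ ℓ' := by
    intro h
    have h3 : ℓ * ℓ' = ℓ' := by exact_mod_cast h
    nlinarith
  have P3 : (ℓ : ℤ) * ℓ' ≠ 1 := by
    intro h
    have h3 : ℓ * ℓ' = 1 := by exact_mod_cast h
    nlinarith
  have P4 : (ℓ : ℤ) ≠ ℓ' := by
    intro h
    exact hne (by exact_mod_cast h)
  have P5 : (ℓ : ℤ) ≠ 1 := by
    intro h
    have h3 : ℓ = 1 := by exact_mod_cast h
    omega
  have P6 : (ℓ' : ℤ) ≠ 1 := by
    intro h
    have h3 : ℓ' = 1 := by exact_mod_cast h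
    omega
  obtain ⟨y, y'⟩ := a
  obtain ⟨z, z'⟩ := b
  rcases y with _ | j <;> rcases y' with _ | j' <;> rcases z with _ | k <;> rcases z' with _ | k'
  all_goals first
    | rfl
    | exact absurd h1 P1
    | exact absurd h1.symm P1
    | exact absurd h1 P2
    | exact absurd h1.symm P2
    | exact absurd h1 P3
    | exact absurd h1.symm P3
    | exact absurd h1 P4
    | exact absurd h1.symm P4
    | exact absurd h1 P5
    | exact absurd h1.symm P5
    | exact absurd h1 P6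
    | exact absurd h1.symm P6
    | skip
  · -- (∞, j'), (∞, k')
    have h3 : (ℓ' : ℤ) ∣ (ℓ : ℤ) * ((j'.val : ℤ) - (k'.val : ℤ)) := by
      have : (ℓ' : ℤ) ∣ (ℓ : ℤ) * (j'.val : ℤ) - (ℓ : ℤ) * (k'.val : ℤ) := h2
      rwa [← mul_sub] at this
    rw [zmod_eq_of_dvd (hcop.dvd_of_dvd_mul_left h3)]
  · -- (j, ∞), (k, ∞)
    have h3 : (ℓ : ℤ) ∣ (j.val : ℤ) - (k.val : ℤ) := h2
    rw [zmod_eq_of_dvd h3]
  · -- (j, j'), (k, k')
    have h3 : ((ℓ : ℤ) * ℓ') ∣ ((j'.val : ℤ) + (j.val : ℤ) * ℓ') - ((k'.val : ℤ) + (k.val : ℤ) * ℓ') :=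
      h2
    have h4 := digits_eq_of_dvd (ZMod.val_lt j) (ZMod.val_lt k) (ZMod.val_lt j')
      (ZMod.val_lt k') h3
    rw [ZMod.val_injective ℓ h4.1, ZMod.val_injective ℓ' h4.2]

theorem TB_comm_TB_of_ne {ℓ ℓ' : ℕ} (hℓ : ℓ.Prime) (hℓM : ¬ ℓ ∣ M) (hℓ' : ℓ'.Prime)
    (hℓ'M : ¬ ℓ' ∣ M) (hne : ℓ ≠ ℓ') (φ : Additive (Gamma0 M) →+ A) :
    TB M A hℓ hℓM (TB M A hℓ' hℓ'M φ) = TB M A hℓ' hℓ'M (TB M A hℓ hℓM φ) := by
  haveI : Fact ℓ.Prime := ⟨hℓ⟩
  haveI : Fact ℓ'.Prime := ⟨hℓ'⟩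
  haveI : NeZero ℓ := ⟨hℓ.ne_zero⟩
  haveI : NeZero ℓ' := ⟨hℓ'.ne_zero⟩
  have hℓ0 := hℓ.ne_zero
  have hℓ'0 := hℓ'.ne_zero
  have hcop : Nat.Coprime ℓ ℓ' := (Nat.coprime_primes hℓ hℓ').mpr hne
  refine heckeOp_comm (incl_injective M) (isHeckeFamily_T M hℓ'M) (isHeckeFamily_T M hℓM) ?_
    (piTTEquiv ℓ ℓ' hcop) (epsTT M ℓ ℓ') ?_ φ
  · intro a b ε h
    have h1 := (isInt_prod hℓ0 hℓ'0 a).eq_of_eq'
      ((isInt_incl M ε).mul (isInt_prod hℓ0 hℓ'0 b)) h
    have h2 := ut_of_eq (abd_pos hℓ.pos hℓ'.pos a) (abd_pos hℓ.pos hℓ'.pos b) (mat_det ε) h1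
    exact abd_inj hℓ hℓ' hne a b h2.1 h2.2.2
  · rintro ⟨y', y⟩
    rcases y' with _ | j' <;> rcases y with _ | j
    · show repT ℓ' (OnePoint.infty : OnePoint (ZMod ℓ')) * repT ℓ (OnePoint.infty : OnePoint (ZMod ℓ))
        = incl M 1 * (repT ℓ (OnePoint.infty : OnePoint (ZMod ℓ))
          * repT ℓ' (OnePoint.infty : OnePoint (ZMod ℓ')))
      rw [map_one, one_mul]
      apply ((isInt_repT_infty hℓ'0).mul (isInt_repT_infty hℓ0)).eq_of_eq
        ((isInt_repT_infty hℓ0).mul (isInt_repT_infty hℓ'0))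
      rw [Dq_mul_Dq, Dq_mul_Dq, mul_comm]
    · show repT ℓ' (OnePoint.infty : OnePoint (ZMod ℓ')) * repT ℓ ((j : ZMod ℓ) : OnePoint (ZMod ℓ))
        = incl M (tUp M ((ℓ' * j.val / ℓ : ℕ) : ℤ))
          * (repT ℓ ((((ℓ' * j.val : ℕ) : ZMod ℓ)) : OnePoint (ZMod ℓ))
            * repT ℓ' (OnePoint.infty : OnePoint (ZMod ℓ')))
      apply ((isInt_repT_infty hℓ'0).mul (isInt_repT_coe hℓ0 j)).eq_of_eq
        ((isInt_incl M _).mul ((isInt_repT_coe hℓ0 _).mul (isInt_repT_infty hℓ'0)))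
      rw [mat_tUp, ZMod.val_natCast]
      have h := Nat.mod_add_div (ℓ' * j.val) ℓ
      have h' : (((ℓ' * j.val) % ℓ : ℕ) : ℤ) + (ℓ : ℤ) * ((ℓ' * j.val / ℓ : ℕ) : ℤ)
          = (ℓ' : ℤ) * ((j.val : ℕ) : ℤ) := by exact_mod_cast h
      exact Dq_Bmat_swap ℓ ℓ' h'
    · show repT ℓ' ((j' : ZMod ℓ') : OnePoint (ZMod ℓ')) * repT ℓ (OnePoint.infty : OnePoint (ZMod ℓ))
        = incl M (tUp M (((j'.val : ℤ)
            - (ℓ : ℤ) * ((((ℓ : ZMod ℓ')⁻¹ * j' : ZMod ℓ')).val : ℤ)) / (ℓ' : ℤ)))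
          * (repT ℓ (OnePoint.infty : OnePoint (ZMod ℓ))
            * repT ℓ' (((((ℓ : ZMod ℓ')⁻¹ * j' : ZMod ℓ'))) : OnePoint (ZMod ℓ')))
      apply ((isInt_repT_coe hℓ'0 j').mul (isInt_repT_infty hℓ0)).eq_of_eq
        ((isInt_incl M _).mul ((isInt_repT_infty hℓ0).mul (isInt_repT_coe hℓ'0 _)))
      rw [mat_tUp]
      have hd : (ℓ' : ℤ) ∣ (j'.val : ℤ)
          - (ℓ : ℤ) * ((((ℓ : ZMod ℓ')⁻¹ * j' : ZMod ℓ')).val : ℤ) := by
        rw [← ZMod.intCast_zmod_eq_zero_iff_dvd]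
        push_cast
        rw [ZMod.natCast_zmod_val, ZMod.natCast_zmod_val, ← mul_assoc,
          ZMod.coe_mul_inv_eq_one ℓ hcop, one_mul, sub_self]
      have h' : (ℓ : ℤ) * ((((ℓ : ZMod ℓ')⁻¹ * j' : ZMod ℓ')).val : ℤ)
          + (ℓ' : ℤ) * (((j'.val : ℤ)
            - (ℓ : ℤ) * ((((ℓ : ZMod ℓ')⁻¹ * j' : ZMod ℓ')).val : ℤ)) / (ℓ' : ℤ))
          = (j'.val : ℤ) := by
        rw [Int.mul_ediv_cancel' hd]
        ring
      exact Bmat_Dq_swap ℓ' ℓ h'
    · show repT ℓ' ((j' : ZMod ℓ') : OnePoint (ZMod ℓ')) * repT ℓ ((j : ZMod ℓ) : OnePoint (ZMod ℓ))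
        = incl M 1 * (repT ℓ (((swapFun ℓ ℓ' (j', j)).1 : ZMod ℓ) : OnePoint (ZMod ℓ))
          * repT ℓ' (((swapFun ℓ ℓ' (j', j)).2 : ZMod ℓ') : OnePoint (ZMod ℓ')))
      rw [map_one, one_mul]
      apply ((isInt_repT_coe hℓ'0 j').mul (isInt_repT_coe hℓ0 j)).eq_of_eq
        ((isInt_repT_coe hℓ0 _).mul (isInt_repT_coe hℓ'0 _))
      rw [Bmat_mul_Bmat, Bmat_mul_Bmat]
      have h := swapFun_val (q := ℓ) (r := ℓ') (j', j)
      have h' : (((swapFun ℓ ℓ' (j', j)).2.val : ℕ) : ℤ)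
            + ((swapFun ℓ ℓ' (j', j)).1.val : ℕ) * (ℓ' : ℤ)
          = ((j.val : ℕ) : ℤ) + ((j'.val : ℕ) : ℤ) * (ℓ : ℤ) := by exact_mod_cast h
      rw [h', mul_comm (ℓ : ℤ) (ℓ' : ℤ)]

/-- **`T_ℓ T_ℓ' = T_ℓ' T_ℓ`** on `Hom(Γ₀(M), A)`. -/
theorem TB_comm_TB {ℓ ℓ' : ℕ} (hℓ : ℓ.Prime) (hℓM : ¬ ℓ ∣ M) (hℓ' : ℓ'.Prime)
    (hℓ'M : ¬ ℓ' ∣ M) (φ : Additive (Gamma0 M) →+ A) :
    TB M A hℓ hℓM (TB M A hℓ' hℓ'M φ) = TB M A hℓ' hℓ'M (TB M A hℓ hℓM φ) := by
  by_cases hne : ℓ = ℓ'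
  · subst hne
    rfl
  · exact TB_comm_TB_of_ne hℓ hℓM hℓ' hℓ'M hne φ

end TT

end Fermat.Agent.S59.NonMin.Geom.H98

end
-- ==== END Fermat.Agent.S59.NonMin.Geom.H98_CommT

-- ==== BEGIN Fermat.Agent.S59.NonMin.Geom.Rank.H13_EmbedA
section

/-!
# S59 / NMGEOM / P-RANK, leaf EMBED-A (helper13)

`Stmt_EMBED` with `F` = the algebraic closure of `ℚ` in `Frac 𝒪`: every element of `Frac 𝒪`
which is integral over `ℤ` lies in the image of `F`.
-/

set_option autoImplicit false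

namespace Fermat.Agent.S59.NonMin.Geom.Rank.H13

open Fermat.Agent.S59.NonMin.Geom.Rank

/-- A ring hom from a commutative ring which is a finite `ℤ`-module to a field `K` of
characteristic zero factors through a subfield `F` of `K` which embeds in `ℂ` and contains all
the elements of `K` which are algebraic over `ℚ`. -/
theorem factor_of_finite_alg {K : Type} [Field K] [CharZero K] {H : Type} [CommRing H]
    [Module.Finite ℤ H] (y : H →+* K) :
    ∃ (F : Type) (_ : Field F) (x₀ : H →+* F) (jK : F →+* K) (_ : F →+* ℂ),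
      jK.comp x₀ = y ∧ ∀ z : K, IsAlgebraic ℚ z → z ∈ Set.range jK := by
  classical
  let F : IntermediateField ℚ K := algebraicClosure ℚ K
  have hmem : ∀ t : H, y t ∈ F := by
    intro t
    have hint : IsIntegral ℤ t := Algebra.IsIntegral.isIntegral t
    have h2 : IsIntegral ℤ (y t) := hint.map y.toIntAlgHom
    have h3 : IsIntegral ℚ (y t) := h2.tower_top
    exact (mem_algebraicClosure_iff (F := ℚ) (E := K)).2 h3.isAlgebraic
  let x₀ : H →+* F := y.codRestrict F.toSubfield.toSubring hmem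
  have halg : Algebra.IsAlgebraic ℚ F := algebraicClosure.isAlgebraic ℚ K
  let jC : F →ₐ[ℚ] ℂ := IsAlgClosed.lift
  refine ⟨F, inferInstance, x₀, (F.val : F →+* K), (jC : F →+* ℂ), ?_, ?_⟩
  · ext t
    rfl
  · intro z hz
    exact ⟨⟨z, (mem_algebraicClosure_iff (F := ℚ) (E := K)).2 hz⟩, rfl⟩

/-- an element of a field of characteristic zero which is integral over `ℤ` (for any
`ℤ`-algebra structure) is algebraic over `ℚ` -/
theorem isAlgebraic_of_isIntegral_int {K : Type} [Field K] [CharZero K] (I : Algebra ℤ K)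
    {z : K} (hz : @IsIntegral ℤ K _ _ I z) : IsAlgebraic ℚ z := by
  have hI : I = Ring.toIntAlgebra K := Subsingleton.elim _ _
  subst hI
  have h3 : IsIntegral ℚ z := hz.tower_top
  exact h3.isAlgebraic

/-- Abstract form of EMBED-A. -/
theorem conjA_of_finite {𝒪 : Type} [CommRing 𝒪] [IsDomain 𝒪] [CharZero 𝒪] {H : Type}
    [CommRing H] [Module.Finite ℤ H] (x : H →+* 𝒪) : ∃ χ : H →+* ℂ, ConjA x χ := by
  have hchar : CharZero (FractionRing 𝒪) :=
    charZero_of_injective_algebraMap (IsFractionRing.injective 𝒪 (FractionRing 𝒪))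
  obtain ⟨F, hF, x₀, jK, jC, h, hall⟩ :=
    factor_of_finite_alg ((algebraMap 𝒪 (FractionRing 𝒪)).comp x)
  exact ⟨jC.comp x₀, F, hF, x₀, jK, jC, h, rfl,
    fun z hz => hall z (isAlgebraic_of_isIntegral_int _ hz)⟩

theorem stmt_EMBEDA : Stmt_EMBEDA := by
  intro 𝒪 _ _ _ N _ S x
  have hfin : Module.Finite ℤ (CuspForm.heckeAlgebra N 2 S) := Fermat.Agent.S22.result N 2 S
  exact conjA_of_finite x

end Fermat.Agent.S59.NonMin.Geom.Rank.H13

end
-- ==== END Fermat.Agent.S59.NonMin.Geom.Rank.H13_EmbedA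

-- ==== BEGIN Fermat.Agent.S59.NonMin.Geom.Rank.H21_Field
section

/-!
# S59 / NMGEOM / RANK, leaf FIELD (helper21)

`stmt_FIELD : Stmt_FIELD`: the dimension of the Betti eigenspace `EB` does not depend on the
field of coefficients.

Route: `Γ₀(N)` is finitely generated, so `Hom(Γ₀(N), F)` embeds in `F^m` (values on generators);
the Betti operators commute with post-composition by additive maps, so `EB(F)` maps to `EB(L)`
and `l ∘ EB(L) ⊆ EB(F)` for every `F`-linear functional `l : L → F`; then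
`H21.finrank_hom_ext` (coordinates in a basis of `L / F`).  No universal basis, no `CharZero`.
-/

set_option autoImplicit false

open Module CuspForm CongruenceSubgroup
open scoped MatrixGroups

namespace Fermat.Agent.S59.NonMin.Geom.Rank.H21

open Fermat.Agent.Betti ModularCurve.Period

section Comp

variable {N : ℕ} {A B : Type*} [AddCommGroup A] [AddCommGroup B]

/-- `TB` commutes with post-composition by an additive map -/
theorem TB_comp (u : A →+ B) {p : ℕ} (hp : p.Prime) (hpN : ¬ p ∣ N)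
    (φ : Additive (Gamma0 N) →+ A) :
    TB N B hp hpN (u.comp φ) = u.comp (TB N A hp hpN φ) := by
  have : Fact p.Prime := ⟨hp⟩
  exact (isHeckeFamily_T N hpN).heckeOp_comp (incl_injective N) u φ

/-- `UB` commutes with post-composition by an additive map -/
theorem UB_comp [NeZero N] (u : A →+ B) {p : ℕ} (hpN : p ∣ N)
    (φ : Additive (Gamma0 N) →+ A) :
    UB N B hpN (u.comp φ) = u.comp (UB N A hpN φ) := by
  have : NeZero p := neZero_of_dvd hpN
  exact (isHeckeFamily_U N hpN).heckeOp_comp (incl_injective N) u φ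

theorem isParabolicHom_comp (u : A →+ B) {φ : Additive (Gamma0 N) →+ A}
    (h : IsParabolicHom (Gamma0 N) φ) : IsParabolicHom (Gamma0 N) (u.comp φ) := by
  intro γ hγ
  show u (φ (Additive.ofMul γ)) = 0
  rw [h γ hγ, map_zero]

end Comp

section EB

variable {N : ℕ} [NeZero N] {S : Set ℕ} {Sig : Finset ℕ}

/-- `IsEB` is preserved by post-composition with an additive map which is semilinear for the
two characters. -/
theorem isEB_comp {R R' : Type} [CommRing R] [CommRing R'] (u : R →+ R')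
    (χ : CuspForm.heckeAlgebra N 2 S →+* R) (χ' : CuspForm.heckeAlgebra N 2 S →+* R')
    (hu : ∀ t a, u (χ t * a) = χ' t * u a) {φ : Additive (Gamma0 N) →+ R}
    (h : IsEB N S Sig R χ φ) : IsEB N S Sig R' χ' (u.comp φ) := by
  obtain ⟨h1, h2, h3⟩ := h
  refine ⟨isParabolicHom_comp u h1, fun ℓ hℓ hℓN hℓS => ?_, fun r hr hrN => ?_⟩
  · rw [TB_comp, h2 ℓ hℓ hℓN hℓS]
    refine AddMonoidHom.ext fun γ => ?_
    show u (χ _ • φ γ) = χ' _ • u (φ γ)
    rw [smul_eq_mul, smul_eq_mul, hu]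
  · rw [UB_comp, h3 r hr hrN]
    exact AddMonoidHom.comp_zero u

end EB

/-- **FIELD**: the dimension of the Betti eigenspace is invariant under extension of the field
of coefficients. -/
theorem stmt_FIELD : Stmt_FIELD := by
  intro N _ S Sig F L _ _ _ j χ
  letI : Algebra F L := j.toAlgebra
  have hG : AddGroup.FG (Additive (Gamma0 N)) := GroupFG.iff_add_fg.mp (fg_Gamma0 N)
  refine finrank_hom_ext hG (EB N S Sig F χ) (EB N S Sig L (j.comp χ)) ?_ ?_
  · intro φ hφ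
    exact isEB_comp (algebraMap F L).toAddMonoidHom χ (j.comp χ)
      (fun t a => map_mul j (χ t) a) hφ
  · intro l φ hφ
    refine isEB_comp l.toAddMonoidHom (j.comp χ) χ (fun t a => ?_) hφ
    show l (j (χ t) * a) = χ t * l a
    have : j (χ t) * a = χ t • a := (Algebra.smul_def (χ t) a).symm
    rw [this, map_smul, smul_eq_mul]

end Fermat.Agent.S59.NonMin.Geom.Rank.H21

end
-- ==== END Fermat.Agent.S59.NonMin.Geom.Rank.H21_Field

-- ==== BEGIN Fermat.Agent.S59.NonMin.Geom.Rank.H26_RelTr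
section

set_option autoImplicit false

open CuspForm CongruenceSubgroup
open scoped MatrixGroups

namespace Fermat.Agent.S59.NonMin.Geom.Rank.H26

open Fermat.Agent.Betti Fermat.Agent.S59.NonMin.Geom.Rank
open ModularCurve.Period

section Naturality

variable {N : ℕ} {A B : Type*} [AddCommGroup A] [AddCommGroup B]

theorem UB_comp [NeZero N] (f : A →+ B) {p : ℕ} (hp : p ∣ N) (φ : Additive (Gamma0 N) →+ A) :
    UB N B hp (f.comp φ) = f.comp (UB N A hp φ) := by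
  have : NeZero p := neZero_of_dvd hp
  exact (isHeckeFamily_U N hp).heckeOp_comp (incl_injective N) f φ

theorem TB_comp (f : A →+ B) {p : ℕ} (hp : p.Prime) (hpN : ¬ p ∣ N)
    (φ : Additive (Gamma0 N) →+ A) :
    TB N B hp hpN (f.comp φ) = f.comp (TB N A hp hpN φ) := by
  have : Fact p.Prime := ⟨hp⟩
  exact (isHeckeFamily_T N hpN).heckeOp_comp (incl_injective N) f φ

end Naturality

section Transfer

variable {N : ℕ} [NeZero N] {S : Set ℕ} {Sig : Finset ℕ}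

/-- `IsEB` is preserved by post-composition with an additive map of the coefficients which is
semilinear for the characters. -/
theorem isEB_comp {R R' : Type} [CommRing R] [CommRing R'] (g : R →+ R')
    {χ : CuspForm.heckeAlgebra N 2 S →+* R} {χ' : CuspForm.heckeAlgebra N 2 S →+* R'}
    (hg : ∀ t x, g (χ t * x) = χ' t * g x) {φ : Additive (Gamma0 N) →+ R}
    (h : IsEB N S Sig R χ φ) : IsEB N S Sig R' χ' (g.comp φ) := by
  obtain ⟨h1, h2, h3⟩ := h
  refine ⟨fun γ hγ => ?_, fun ℓ hℓ hℓN hℓS => ?_, fun r hr hrN => ?_⟩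
  · rw [AddMonoidHom.comp_apply, h1 γ hγ, map_zero]
  · rw [TB_comp, h2 ℓ hℓ hℓN hℓS]
    refine AddMonoidHom.ext fun γ => ?_
    rw [AddMonoidHom.comp_apply, AddMonoidHom.smul_apply, AddMonoidHom.smul_apply,
      AddMonoidHom.comp_apply, smul_eq_mul, smul_eq_mul, hg]
  · rw [UB_comp, h3 r hr hrN, AddMonoidHom.comp_zero]

/-- The quadratic expression is natural for additive maps of the coefficients which are
semilinear for `a ↦ a'`, `p ↦ p`. -/
theorem quad_comp {R R' : Type} [CommRing R] [CommRing R'] (g : R →+ R') {p : ℕ} (hp : p ∣ N)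
    (a : R) (a' : R') (ha : ∀ x, g (a * x) = a' * g x) (hpg : ∀ x, g ((p : R) * x) = (p : R') * g x)
    (φ : Additive (Gamma0 N) →+ R) :
    UB N R' hp (UB N R' hp (g.comp φ)) - a' • UB N R' hp (g.comp φ) + (p : R') • (g.comp φ) =
      g.comp (UB N R hp (UB N R hp φ) - a • UB N R hp φ + (p : R) • φ) := by
  rw [UB_comp, UB_comp]
  refine AddMonoidHom.ext fun γ => ?_
  simp only [AddMonoidHom.comp_apply, AddMonoidHom.add_apply, AddMonoidHom.sub_apply,
    AddMonoidHom.smul_apply, smul_eq_mul, map_add, map_sub, ha, hpg]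

end Transfer

/-- **REL-TR**. -/
theorem stmt_RELTR : Stmt_RELTR := by
  intro _ N _ S Sig F L _ _ _ j χ p hp
  let _ : Algebra F L := j.toAlgebra
  have hsmul : ∀ (c : F) (x : L), c • x = j c * x := fun c x => Algebra.smul_def c x
  -- the two families of maps of coefficients
  have hjEB : ∀ φ, φ ∈ EB N S Sig F χ → (j.toAddMonoidHom.comp φ) ∈ EB N S Sig L (j.comp χ) :=
    fun φ hφ => isEB_comp (j : F →+* L).toAddMonoidHom (fun t x => by
      show j (χ t * x) = j (χ t) * j x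
      rw [map_mul]) hφ
  have hlEB : ∀ (l : L →ₗ[F] F) ψ, ψ ∈ EB N S Sig L (j.comp χ) →
      (l.toAddMonoidHom.comp ψ) ∈ EB N S Sig F χ :=
    fun l ψ hψ => isEB_comp l.toAddMonoidHom (fun t x => by
      show l (j (χ t) * x) = χ t * l x
      rw [← hsmul, map_smul, smul_eq_mul]) hψ
  have hjp : j (p : F) = (p : L) := map_natCast j p
  refine ⟨fun a => ⟨fun hF ψ hψ => ?_, fun hL φ hφ => ?_⟩, fun a' hL hex => ?_⟩
  · -- descent by functionals
    refine AddMonoidHom.ext fun γ => ?_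
    rw [AddMonoidHom.zero_apply]
    refine (Module.forall_dual_apply_eq_zero_iff F _).1 fun l => ?_
    have hq := quad_comp (N := N) l.toAddMonoidHom hp (j a) a
      (fun x => by
        show l (j a * x) = a * l x
        rw [← hsmul, map_smul, smul_eq_mul])
      (fun x => by
        show l ((p : L) * x) = (p : F) * l x
        rw [← hjp, ← hsmul, map_smul, smul_eq_mul]) ψ
    rw [hF _ (hlEB l ψ hψ)] at hq
    have := congrArg (fun f : Additive (Gamma0 N) →+ F => f γ) hq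
    simp only [AddMonoidHom.zero_apply, AddMonoidHom.comp_apply] at this
    exact this.symm
  · -- injectivity of `j`
    have hq := quad_comp (N := N) (j : F →+* L).toAddMonoidHom hp a (j a)
      (fun x => by
        show j (a * x) = j a * j x
        rw [map_mul])
      (fun x => by
        show j ((p : F) * x) = (p : L) * j x
        rw [map_mul, hjp]) φ
    rw [hL _ (hjEB φ hφ)] at hq
    refine AddMonoidHom.ext fun γ => ?_
    have := congrArg (fun f : Additive (Gamma0 N) →+ L => f γ) hq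
    simp only [AddMonoidHom.zero_apply, AddMonoidHom.comp_apply] at this
    exact j.injective (by rw [AddMonoidHom.zero_apply, map_zero]; exact this.symm)
  · -- descent of the coefficient
    obtain ⟨φ, hφ, hne⟩ := hex
    obtain ⟨γ, hγ⟩ : ∃ γ, UB N F hp φ γ ≠ 0 := by
      by_contra hcon
      exact hne (AddMonoidHom.ext fun γ => by
        by_contra h
        exact hcon ⟨γ, h⟩)
    have h := hL _ (hjEB φ hφ)
    rw [UB_comp, UB_comp] at h
    have h' := congrArg (fun f : Additive (Gamma0 N) →+ L => f γ) h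
    simp only [AddMonoidHom.zero_apply, AddMonoidHom.comp_apply, AddMonoidHom.add_apply,
      AddMonoidHom.sub_apply, AddMonoidHom.smul_apply, smul_eq_mul] at h'
    have hjγ : j (UB N F hp φ γ) ≠ 0 := fun h0 => hγ (j.injective (by rw [h0, map_zero]))
    refine ⟨(UB N F hp (UB N F hp φ) γ + (p : F) * φ γ) / UB N F hp φ γ, ?_⟩
    rw [map_div₀, map_add, map_mul, hjp, div_eq_iff hjγ]
    have h'' : j (UB N F hp (UB N F hp φ) γ) - a' * j (UB N F hp φ γ) + (p : L) * j (φ γ) = 0 :=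
      h'
    linear_combination h''

end Fermat.Agent.S59.NonMin.Geom.Rank.H26

end
-- ==== END Fermat.Agent.S59.NonMin.Geom.Rank.H26_RelTr

-- ==== BEGIN Fermat.Agent.S59.NonMin.Geom.Rank.H27_PAsm
section

/-!
# S59 / PGEOM / P-RANK: the assembly (helper27)

`stmt_PRANKASM : Stmt_PRANKASM`, i.e. the leaves of `Rank/DefsP.lean` imply
`CaseC.Geom.Stmt_PRANK`.
-/

set_option autoImplicit false

open Polynomial CuspForm CongruenceSubgroup IsLocalRing ModularFormClass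
open scoped MatrixGroups

namespace Fermat.Agent.S59.NonMin.Geom.Rank.H27

open Fermat.Agent.Betti Fermat.Agent.S59 Fermat.Agent.S59.Asm
open ModularCurve.Period Fermat.Agent.S59.NonMin.Geom.Rank

/-! ### Change of coefficients -/

section Coeff

variable {N : ℕ} {A B : Type} [AddCommGroup A] [AddCommGroup B]

theorem TB_compHom (u : A →+ B) {p : ℕ} (hp : p.Prime) (hpN : ¬ p ∣ N)
    (φ : Additive (Gamma0 N) →+ A) :
    TB N B hp hpN (u.comp φ) = u.comp (TB N A hp hpN φ) := by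
  have : Fact p.Prime := ⟨hp⟩
  exact (isHeckeFamily_T N hpN).heckeOp_comp (incl_injective N) u φ

theorem UB_compHom [NeZero N] (u : A →+ B) {p : ℕ} (hpN : p ∣ N)
    (φ : Additive (Gamma0 N) →+ A) :
    UB N B hpN (u.comp φ) = u.comp (UB N A hpN φ) := by
  have : NeZero p := neZero_of_dvd hpN
  exact (isHeckeFamily_U N hpN).heckeOp_comp (incl_injective N) u φ

end Coeff

/-- `IsEB` is preserved by a change of coefficients. -/
theorem isEB_comp {N : ℕ} [NeZero N] {S : Set ℕ} {Sig : Finset ℕ} {R R' : Type} [CommRing R]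
    [CommRing R'] (j : R →+* R') {χ : CuspForm.heckeAlgebra N 2 S →+* R}
    {φ : Additive (Gamma0 N) →+ R} (h : IsEB N S Sig R χ φ) :
    IsEB N S Sig R' (j.comp χ) (j.toAddMonoidHom.comp φ) := by
  obtain ⟨h1, h2, h3⟩ := h
  refine ⟨fun γ hγ => ?_, fun ℓ hℓ hℓN hℓS => ?_, fun r hr hrN => ?_⟩
  · show j (φ (Additive.ofMul γ)) = 0
    rw [h1 γ hγ, map_zero]
  · rw [TB_compHom, h2 ℓ hℓ hℓN hℓS]
    refine AddMonoidHom.ext fun γ => ?_
    show j (χ (CuspForm.heckeAlgebra.T hℓ hℓN hℓS) • φ γ) = _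
    rw [smul_eq_mul, map_mul]
    rfl
  · rw [UB_compHom, h3 r hr hrN, AddMonoidHom.comp_zero]

/-- `U_p` as an `R`-linear endomorphism. -/
noncomputable def UBlin (N : ℕ) [NeZero N] (R : Type) [CommRing R] {p : ℕ} (hp : p ∣ N) :
    Module.End R (Additive (Gamma0 N) →+ R) :=
  haveI : NeZero p := neZero_of_dvd hp
  (isHeckeFamily_U N hp).heckeOpLin (incl_injective N) R

theorem UBlin_apply (N : ℕ) [NeZero N] (R : Type) [CommRing R] {p : ℕ} (hp : p ∣ N)
    (φ : Additive (Gamma0 N) →+ R) : UBlin N R hp φ = UB N R hp φ := rfl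

theorem UBlin_pow_apply (N : ℕ) [NeZero N] (R : Type) [CommRing R] {p : ℕ} (hp : p ∣ N) (n : ℕ)
    (φ : Additive (Gamma0 N) →+ R) : (UBlin N R hp ^ n) φ = (UB N R hp)^[n] φ := by
  induction n generalizing φ with
  | zero => rfl
  | succ n ih =>
    rw [pow_succ, Module.End.mul_apply, ih, Function.iterate_succ_apply, UBlin_apply]

/-- The values of an element of `I • ⊤` lie in `I`. -/
theorem apply_mem_of_mem_smul_top {Γ R : Type} [AddGroup Γ] [CommRing R] {I : Ideal R}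
    {ψ : Γ →+ R} (h : ψ ∈ (I • ⊤ : Submodule R (Γ →+ R))) (γ : Γ) : ψ γ ∈ I := by
  refine Submodule.smul_induction_on (p := fun ψ => ψ γ ∈ I) h (fun c hc φ _ => ?_)
    (fun φ₁ φ₂ h₁ h₂ => ?_)
  · exact I.mul_mem_right _ hc
  · exact I.add_mem h₁ h₂

/-- `Hom(Γ, 𝒪)` is separated. -/
theorem separated_hom {Γ 𝒪 : Type} [AddGroup Γ] [CommRing 𝒪] [IsDomain 𝒪]
    [IsDiscreteValuationRing 𝒪] (ψ : Γ →+ 𝒪)
    (h : ∀ n : ℕ, ψ ∈ (maximalIdeal 𝒪 ^ n • ⊤ : Submodule 𝒪 (Γ →+ 𝒪))) : ψ = 0 := by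
  refine AddMonoidHom.ext fun γ => ?_
  have h1 : ψ γ ∈ ⨅ n : ℕ, maximalIdeal 𝒪 ^ n :=
    (Ideal.mem_iInf).mpr fun n => apply_mem_of_mem_smul_top (h n) γ
  rw [Ideal.iInf_pow_eq_bot_of_isLocalRing _ (Ideal.IsPrime.ne_top inferInstance)] at h1
  exact h1

/-- Integrality over `ℤ` in terms of polynomials (independent of the `ℤ`-algebra instance). -/
theorem isIntegral_int_iff {R : Type} [CommRing R] {i : Algebra ℤ R} (y : R) :
    @IsIntegral ℤ R _ _ i y ↔ ∃ P : ℤ[X], P.Monic ∧ P.eval₂ (Int.castRingHom R) y = 0 := by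
  have h : @algebraMap ℤ R _ _ i = Int.castRingHom R := RingHom.ext_int _ _
  constructor
  · rintro ⟨P, hP, h0⟩
    exact ⟨P, hP, by rw [← h]; exact h0⟩
  · rintro ⟨P, hP, h0⟩
    exact ⟨P, hP, by rw [h]; exact h0⟩

theorem eval₂_int_map {A B : Type} [CommRing A] [CommRing B] (j : A →+* B) (P : ℤ[X]) (y : A) :
    P.eval₂ (Int.castRingHom B) (j y) = j (P.eval₂ (Int.castRingHom A) y) := by
  rw [Polynomial.hom_eval₂]
  congr 1
  exact RingHom.ext_int _ _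

theorem isIntegral_int_map {A B : Type} [CommRing A] [CommRing B] {iA : Algebra ℤ A}
    {iB : Algebra ℤ B} (j : A →+* B) {y : A} (h : @IsIntegral ℤ A _ _ iA y) :
    @IsIntegral ℤ B _ _ iB (j y) := by
  obtain ⟨P, hP, h0⟩ := (isIntegral_int_iff y).mp h
  exact (isIntegral_int_iff (j y)).mpr ⟨P, hP, by rw [eval₂_int_map, h0, map_zero]⟩

theorem isIntegral_int_of_map {A B : Type} [CommRing A] [CommRing B] {iA : Algebra ℤ A}
    {iB : Algebra ℤ B} (j : A →+* B) (hj : Function.Injective j) {y : A}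
    (h : @IsIntegral ℤ B _ _ iB (j y)) : @IsIntegral ℤ A _ _ iA y := by
  obtain ⟨P, hP, h0⟩ := (isIntegral_int_iff (j y)).mp h
  refine (isIntegral_int_iff y).mpr ⟨P, hP, hj ?_⟩
  rw [← eval₂_int_map, h0, map_zero]

/-- An element of the fraction field of an integrally closed domain which is integral over `ℤ`
lies in the domain. -/
theorem exists_of_isIntegral_int {𝒪 K : Type} [CommRing 𝒪] [IsDomain 𝒪] [Field K] [Algebra 𝒪 K]
    [IsFractionRing 𝒪 K] [IsIntegrallyClosed 𝒪] {iK : Algebra ℤ K} {y : K}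
    (h : @IsIntegral ℤ K _ _ iK y) : ∃ b : 𝒪, algebraMap 𝒪 K b = y := by
  obtain ⟨P, hP, h0⟩ := (isIntegral_int_iff y).mp h
  refine IsIntegrallyClosed.isIntegral_iff.mp ⟨P.map (Int.castRingHom 𝒪), hP.map _, ?_⟩
  rw [Polynomial.eval₂_map]
  have : (algebraMap 𝒪 K).comp (Int.castRingHom 𝒪) = Int.castRingHom K := RingHom.ext_int _ _
  rw [this, h0]

theorem stmt_PRANKASM : Stmt_PRANKASM := by
  intro hLAT hFIELD hES hNONVAN hEMBEDA hPQUAD hPMULT1U hESU hFIELDU hRELTR hUINJ hPORD hPLAT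
    𝒪 _ _ _ _ _ _ p _ hp2 hp𝒪 ρbar Smin hRes N₀ Sig s hG hFrob hB hpN _ hd rest hrest M' ι' hι'
    hrange hequiv x hx
  have hp : p.Prime := Fact.out
  obtain ⟨χ, F, _, x₀, jK, jC, hK, hC, hint⟩ := hEMBEDA 𝒪 s.N (↑s.S : Set ℕ) x
  subst hC
  have : CharZero F := RingHom.charZero jC
  set K := FractionRing 𝒪 with hKdef
  set ιK : 𝒪 →+* K := algebraMap 𝒪 K with hιK
  have hιinj : Function.Injective ιK := IsFractionRing.injective 𝒪 K
  have hSigP : ∀ r ∈ Sig, r.Prime := fun r hr => (hG.hSig r hr).1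
  have hprimes := primes_mem hG
  -- the level `N`: `rank M[x] = 2 dim EC ≥ 2`
  have h1 := rank_eq hLAT hFIELD hES 𝒪 s Sig hprimes hSigP hB x hx F x₀ jK jC hK
  have h4 : EC s.N (↑s.S : Set ℕ) Sig (jC.comp x₀) ≠ ⊥ :=
    hNONVAN s.N (↑s.S : Set ℕ) Sig (jC.comp x₀) (fun r hr => ⟨(hG.hSig r hr).1, by
      rw [hG.hN]
      exact Dvd.dvd.mul_left (Finset.dvd_prod_of_mem (fun r => r ^ 2) hr) _⟩)
  have hfd : FiniteDimensional ℂ (CuspForm (Gamma0 s.N) 2) :=
    Fermat.Agent.R.H99.finiteDimensional_cuspForm s.N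
  have h5 : 1 ≤ Module.finrank ℂ ↥(EC s.N (↑s.S : Set ℕ) Sig (jC.comp x₀)) := by
    rw [Nat.one_le_iff_ne_zero]
    intro h0
    exact h4 (Submodule.finrank_eq_zero.mp h0)
  -- the characters at the level `N p`
  set x₀' : CuspForm.heckeAlgebra (s.N * p) 2 (↑s.S : Set ℕ) →+* F := x₀.comp rest with hx₀'
  have hK' : jK.comp x₀' = ιK.comp (x.comp rest) := by
    rw [hx₀', ← RingHom.comp_assoc, hK, RingHom.comp_assoc]
  have hC' : (jC.comp x₀).comp rest = jC.comp x₀' := by rw [hx₀', RingHom.comp_assoc]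
  have hPH : PHyp p ρbar Smin N₀ Sig s.N s.S s.θ x (jC.comp x₀) rest :=
    ⟨hp2, hp𝒪, hRes, hG, hpN, hFrob, hx, ⟨F, inferInstance, x₀, jK, jC, hK, rfl⟩, hrest⟩
  -- the quadratic relation over `ℂ`
  obtain ⟨a, ha_int, hrelC⟩ := hPQUAD 𝒪 p ρbar Smin N₀ Sig s.N s.S s.θ x (jC.comp x₀) rest hPH hd
  obtain ⟨hdimU, hrelB⟩ := hESU (s.N * p) (↑s.S : Set ℕ) Sig ((jC.comp x₀).comp rest) p hd hp
    hSigP
  have hrelB' := hrelB a hrelC
  rw [hC'] at hrelB' hdimU
  -- a nonzero element of `EB(F)` at the level `N p`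
  have hSig2 : ∀ r ∈ Sig, r.Prime ∧ r ^ 2 ∣ s.N * p := fun r hr => ⟨(hG.hSig r hr).1, by
    rw [hG.hN]
    exact Dvd.dvd.mul_right (Dvd.dvd.mul_left (Finset.dvd_prod_of_mem (fun r => r ^ 2) hr) _) _⟩
  have h6 : EC (s.N * p) (↑s.S : Set ℕ) Sig (jC.comp x₀') ≠ ⊥ :=
    hNONVAN (s.N * p) (↑s.S : Set ℕ) Sig (jC.comp x₀') hSig2
  have hfd' : FiniteDimensional ℂ (CuspForm (Gamma0 (s.N * p)) 2) :=
    Fermat.Agent.R.H99.finiteDimensional_cuspForm (s.N * p)
  have h7 : 0 < Module.finrank F ↥(EB (s.N * p) (↑s.S : Set ℕ) Sig F x₀') := by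
    rw [← hFIELD (s.N * p) (↑s.S : Set ℕ) Sig F ℂ jC x₀',
      hES (s.N * p) (↑s.S : Set ℕ) Sig (jC.comp x₀') hSigP]
    have : Module.finrank ℂ ↥(EC (s.N * p) (↑s.S : Set ℕ) Sig (jC.comp x₀')) ≠ 0 :=
      fun h0 => h6 (Submodule.finrank_eq_zero.mp h0)
    omega
  have hnt : Nontrivial ↥(EB (s.N * p) (↑s.S : Set ℕ) Sig F x₀') :=
    Module.nontrivial_of_finrank_pos h7
  obtain ⟨⟨φF, hφF⟩, hφF0⟩ := exists_ne (0 : ↥(EB (s.N * p) (↑s.S : Set ℕ) Sig F x₀'))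
  have hφF0' : φF ≠ 0 := fun h => hφF0 (Subtype.ext h)
  have hpF : ∀ c : F, p • c = 0 → c = 0 := by
    intro c hc
    rw [nsmul_eq_mul] at hc
    rcases mul_eq_zero.mp hc with h | h
    · exact absurd (Nat.cast_eq_zero.mp h) hp.ne_zero
    · exact h
  have hUφF : UB (s.N * p) F hd φF ≠ 0 := fun h =>
    hφF0' (hUINJ s.N p hp hpN hd F hpF φF h)
  -- descent of `a` to `F`, the relation over `F` and over `K`
  obtain ⟨hiffC, hdescC⟩ := hRELTR hFIELD (s.N * p) (↑s.S : Set ℕ) Sig F ℂ jC x₀' p hd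
  obtain ⟨aF, haF⟩ := hdescC a hrelB' ⟨φF, hφF, hUφF⟩
  have hrelF := (hiffC aF).mpr (by rw [haF]; exact hrelB')
  obtain ⟨hiffK, -⟩ := hRELTR hFIELD (s.N * p) (↑s.S : Set ℕ) Sig F K jK x₀' p hd
  have hrelK := (hiffK aF).mp hrelF
  -- integrality
  have haF_int : IsIntegral ℤ aF := by
    have := ha_int
    rw [← haF] at this
    exact isIntegral_int_of_map jC jC.injective this
  have haK_int : IsIntegral ℤ (jK aF) := isIntegral_int_map jK haF_int
  obtain ⟨a𝒪, ha𝒪⟩ : ∃ a𝒪 : 𝒪, ιK a𝒪 = jK aF := exists_of_isIntegral_int haK_int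
  have ha𝒪_int : IsIntegral ℤ a𝒪 := by
    have h := haK_int
    rw [← ha𝒪] at h
    exact isIntegral_int_of_map ιK hιinj h
  -- the relation on the lattice
  have hrel𝒪 : ∀ ψ : Additive (Gamma0 (s.N * p)) →+ 𝒪,
      IsEB (s.N * p) (↑s.S : Set ℕ) Sig 𝒪 (x.comp rest) ψ →
      UBlin (s.N * p) 𝒪 hd (UBlin (s.N * p) 𝒪 hd ψ) - a𝒪 • UBlin (s.N * p) 𝒪 hd ψ
        + (p : 𝒪) • ψ = 0 := by
    intro ψ hψ
    have hψK : ιK.toAddMonoidHom.comp ψ ∈ EB (s.N * p) (↑s.S : Set ℕ) Sig K (jK.comp x₀') := by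
      rw [hK']
      exact isEB_comp ιK hψ
    have h := hrelK _ hψK
    rw [UB_compHom, UB_compHom, ← ha𝒪] at h
    refine AddMonoidHom.ext fun γ => hιinj ?_
    have h' := DFunLike.congr_fun h γ
    simp only [AddMonoidHom.add_apply, AddMonoidHom.sub_apply, AddMonoidHom.smul_apply,
      AddMonoidHom.comp_apply, AddMonoidHom.zero_apply, RingHom.toAddMonoidHom_eq_coe,
      AddMonoidHom.coe_coe, smul_eq_mul, UBlin_apply] at h' ⊢
    rw [map_zero, map_add, map_sub, map_mul, map_mul, map_natCast]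
    exact h'
  -- the algebra
  obtain ⟨u, hu_int, hu⟩ := hPORD 𝒪 p hp𝒪 (Additive (Gamma0 (s.N * p)) →+ 𝒪)
    (fun ψ h => separated_hom ψ h) (UBlin (s.N * p) 𝒪 hd)
    (IsEB (s.N * p) (↑s.S : Set ℕ) Sig 𝒪 (x.comp rest)) a𝒪 hrel𝒪
  obtain ⟨uF, huF⟩ := hint (ιK u) (isIntegral_int_map ιK (hu_int ha𝒪_int))
  -- the lattice
  have hprimes' : ∀ r : ℕ, r.Prime → r ∣ s.N * p → r ∈ s.S := by
    intro r hr hrN
    rcases (Nat.Prime.dvd_mul hr).mp hrN with h | h
    · exact hprimes r hr h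
    · have : r = p := (Nat.prime_dvd_prime_iff_eq hr hp).mp h
      rw [this, hG.hS]
      exact Finset.mem_union_left _ hRes.hpSmin
  have hx' : ∀ t, residue 𝒪 ((x.comp rest) t) = (s.θ.comp rest) t := fun t => hx (rest t)
  have h8 := hPLAT hUINJ 𝒪 s.N p hp hpN hd s.S hprimes' (s.θ.comp rest) M' Sig ι' hι' hrange
    hequiv (x.comp rest) hx' u (by
      intro ψ _ hdiv
      have := hu ψ (fun n => by
        obtain ⟨ψ', hψ', h⟩ := hdiv n
        exact ⟨ψ', hψ', by rw [UBlin_pow_apply]; exact h⟩)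
      rw [UBlin_apply] at this
      exact this)
  -- the chain
  have h9 : Module.finrank K ↥(EBU (s.N * p) (↑s.S : Set ℕ) Sig K (ιK.comp (x.comp rest)) hd
      (ιK u)) ≤ 2 := by
    rw [← hK', ← huF, hFIELDU (s.N * p) (↑s.S : Set ℕ) Sig F K jK x₀' p hd uF,
      ← hFIELDU (s.N * p) (↑s.S : Set ℕ) Sig F ℂ jC x₀' p hd uF, hdimU (jC uF)]
    have h10 := hPMULT1U 𝒪 p ρbar Smin N₀ Sig s.N s.S s.θ x (jC.comp x₀) rest hPH hd (jC uF)
    rw [hC'] at h10
    omega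
  calc Module.finrank 𝒪 ↥(NMState.eigen
        (⟨s.N * p, s.S, s.θ.comp rest, M'⟩ : NMState 𝒪) (x.comp rest))
      ≤ Module.finrank K ↥(EBU (s.N * p) (↑s.S : Set ℕ) Sig K (ιK.comp (x.comp rest)) hd
          (ιK u)) := h8
    _ ≤ 2 := h9
    _ ≤ Module.finrank 𝒪 ↥(s.eigen x) := by rw [h1]; omega

end Fermat.Agent.S59.NonMin.Geom.Rank.H27

end
-- ==== END Fermat.Agent.S59.NonMin.Geom.Rank.H27_PAsm

-- ==== BEGIN Fermat.Agent.S59.NonMin.Geom.Rank.H2_NoLowFinal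
section

/-!
# S59 / NMGEOM / RANK, leaf NOLOW (helper2): final form

`stmt_NOLOW : Stmt_NOLOW`, unconditional (`R.H33.stmt_S30`, S32 at the points from the frozen S19,
`Datum.H57.stmt_ResIrr`, `Datum.H78.stmt_FlatDesc`).
-/

set_option autoImplicit false

namespace Fermat.Agent.S59.NonMin.Geom.Rank.H2

/-- **NOLOW**. -/
theorem stmt_NOLOW : Fermat.Agent.S59.NonMin.Geom.Rank.Stmt_NOLOW :=
  nolow_of Fermat.Agent.R.H33.stmt_S30
    (Fermat.Agent.S32.H86.stmt_FlatPoint_of_S19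
      (fun N _ ℓ _ hℓN k => Fermat.Agent.S19.result N ℓ hℓN k))
    Fermat.Agent.S59.Datum.H57.stmt_ResIrr Fermat.Agent.S59.Datum.H78.stmt_FlatDesc

end Fermat.Agent.S59.NonMin.Geom.Rank.H2

end
-- ==== END Fermat.Agent.S59.NonMin.Geom.Rank.H2_NoLowFinal

-- ==== BEGIN Fermat.Agent.S59.NonMin.Geom.Rank.H2_POrdAlgR
section

/-!
# S59 / NMGEOM / RANK, stage 2 (P-RANK), leaves P-ORDALG-R and P-ORDALG (helper2)

`stmt_PORDALGR : Stmt_PORDALGR`, `stmt_PORDALG : Stmt_PORDALG`; the algebra is in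
`H2_POrdAlgCore.lean` (`pordalgr_core`).
-/

set_option autoImplicit false
set_option linter.style.haveILetI false
set_option linter.unusedSectionVars false
set_option linter.unusedVariables false

namespace Fermat.Agent.S59.NonMin.Geom.Rank.H2

/-- **P-ORDALG-R**. -/
theorem stmt_PORDALGR : Fermat.Agent.S59.NonMin.Geom.Rank.Stmt_PORDALGR := by
  intro 𝒪 _ _ _ _ p hp X _ _ hsep U P a hrel
  exact pordalgr_core 𝒪 p hp X hsep U P a hrel

/-- **P-ORDALG**. -/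
theorem stmt_PORDALG : Fermat.Agent.S59.NonMin.Geom.Rank.Stmt_PORDALG := by
  intro 𝒪 _ _ _ _ p hp Λ _ _ hsep U a hrel
  obtain ⟨u, hu, h⟩ :=
    pordalgr_core 𝒪 p hp Λ hsep U (fun _ => True) a (fun ψ _ => hrel ψ)
  refine ⟨u, hu, fun ψ hψ => h ψ (fun n => ?_)⟩
  obtain ⟨ψ', h'⟩ := hψ n
  exact ⟨ψ', trivial, h'⟩

end Fermat.Agent.S59.NonMin.Geom.Rank.H2

end
-- ==== END Fermat.Agent.S59.NonMin.Geom.Rank.H2_POrdAlgR

-- ==== BEGIN Fermat.Agent.S59.NonMin.Geom.Rank.H34_ESU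
section

set_option autoImplicit false
set_option linter.unusedSectionVars false
set_option linter.style.haveILetI false

namespace Fermat.Agent.S59.NonMin.Geom.Rank.H34

open CongruenceSubgroup ModularCurve ModularCurve.Period
open Fermat.Agent.Betti Fermat.Agent.Betti.H76

section Pair

variable (N : ℕ) [NeZero N]

/-- The explicit formula for the period pair. -/
theorem periodHomPair_apply (f g : CuspForm (Gamma0 N) 2) :
    periodHomPair N (f, g) =
      (periodMap N f + charInvolution N ℂ ℂ (periodMap N f)) +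
        (periodMap N g - charInvolution N ℂ ℂ (periodMap N g)) := by
  obtain ⟨pml, hpml, hdef⟩ := periodHomPair_def N
    (Fermat.Agent.S21.existsPeriodMapLinear_of_partA (Fermat.Agent.S21.partA N))
  rw [hdef]
  simp only [LinearMap.coprod_apply, LinearMap.comp_apply, LinearMap.add_apply,
    LinearMap.sub_apply, LinearMap.id_apply, hpml]

/-- The period pair intertwines `T_ℓ × T_ℓ` with `TB`. -/
theorem periodHomPair_TB {ℓ : ℕ} (hℓ : ℓ.Prime) (hℓN : ¬ ℓ ∣ N) (f g : CuspForm (Gamma0 N) 2) :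
    TB N ℂ hℓ hℓN (periodHomPair N (f, g)) =
      periodHomPair N (CuspForm.heckeTLin 2 hℓ hℓN f, CuspForm.heckeTLin 2 hℓ hℓN g) := by
  rw [periodHomPair_apply, periodHomPair_apply, map_add, map_add, map_sub,
    stmt_period_TB N hℓ hℓN f, stmt_period_TB N hℓ hℓN g, charInvolution_TB, charInvolution_TB]

/-- The period pair intertwines `U_p × U_p` with `UB`. -/
theorem periodHomPair_UB {p : ℕ} (hp : p ∣ N) (f g : CuspForm (Gamma0 N) 2) :
    UB N ℂ hp (periodHomPair N (f, g)) =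
      periodHomPair N (CuspForm.heckeULin 2 hp f, CuspForm.heckeULin 2 hp g) := by
  rw [periodHomPair_apply, periodHomPair_apply, map_add, map_add, map_sub,
    stmt_period_UB N hp f, stmt_period_UB N hp g, charInvolution_UB, charInvolution_UB]

end Pair

section Eigen

variable (N : ℕ) [NeZero N] (S : Set ℕ) (Sig : Finset ℕ)
  (χ : CuspForm.heckeAlgebra N 2 S →+* ℂ)

/-- injectivity of the period pair, componentwise -/
theorem pair_eq_of {f g f' g' : CuspForm (Gamma0 N) 2}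
    (h : periodHomPair N (f, g) = periodHomPair N (f', g')) : f = f' ∧ g = g' := by
  have := (Fermat.Agent.S21.result N).1 h
  exact ⟨congrArg Prod.fst this, congrArg Prod.snd this⟩

/-- the period pair maps `EC × EC` into `EB` -/
theorem periodHomPair_mem_EB {f g : CuspForm (Gamma0 N) 2} (hf : f ∈ EC N S Sig χ)
    (hg : g ∈ EC N S Sig χ) : periodHomPair N (f, g) ∈ EB N S Sig ℂ χ := by
  refine ⟨?_, fun ℓ hℓ hℓN hℓS => ?_, fun r hr hrN => ?_⟩
  · have : periodHomPair N (f, g) ∈ LinearMap.range (periodHomPair N) := ⟨_, rfl⟩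
    rw [(Fermat.Agent.S21.result N).2] at this
    exact this
  · rw [periodHomPair_TB, hf.1 ℓ hℓ hℓN hℓS, hg.1 ℓ hℓ hℓN hℓS, ← Prod.smul_mk, map_smul]
  · rw [periodHomPair_UB, hf.2 r hr hrN, hg.2 r hr hrN]
    exact map_zero _

/-- every element of `EB` is the period pair of an element of `EC × EC` -/
theorem exists_of_mem_EB {φ : Additive (Gamma0 N) →+ ℂ} (hφ : φ ∈ EB N S Sig ℂ χ) :
    ∃ f g : CuspForm (Gamma0 N) 2, f ∈ EC N S Sig χ ∧ g ∈ EC N S Sig χ ∧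
      periodHomPair N (f, g) = φ := by
  obtain ⟨h1, h2, h3⟩ := hφ
  have hmem : φ ∈ parabolicHoms ℂ (Gamma0 N) ℂ := h1
  rw [← (Fermat.Agent.S21.result N).2] at hmem
  obtain ⟨⟨f, g⟩, rfl⟩ := hmem
  have hT : ∀ (ℓ : ℕ) (hℓ : ℓ.Prime) (hℓN : ¬ ℓ ∣ N) (hℓS : ℓ ∉ S),
      CuspForm.heckeTLin 2 hℓ hℓN f = χ (CuspForm.heckeAlgebra.T hℓ hℓN hℓS) • f ∧
      CuspForm.heckeTLin 2 hℓ hℓN g = χ (CuspForm.heckeAlgebra.T hℓ hℓN hℓS) • g := by
    intro ℓ hℓ hℓN hℓS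
    apply pair_eq_of N
    rw [← periodHomPair_TB, h2 ℓ hℓ hℓN hℓS, ← Prod.smul_mk, map_smul]
  have hU : ∀ r ∈ Sig, ∀ hr : r ∣ N,
      CuspForm.heckeULin 2 hr f = 0 ∧ CuspForm.heckeULin 2 hr g = 0 := by
    intro r hr hrN
    apply pair_eq_of N
    rw [← periodHomPair_UB, h3 r hr hrN]
    exact (map_zero _).symm
  exact ⟨f, g, ⟨fun ℓ hℓ hℓN hℓS => (hT ℓ hℓ hℓN hℓS).1, fun r hr hrN => (hU r hr hrN).1⟩,
    ⟨fun ℓ hℓ hℓN hℓS => (hT ℓ hℓ hℓN hℓS).2, fun r hr hrN => (hU r hr hrN).2⟩, rfl⟩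

variable {p : ℕ} (hp : p ∣ N) (c : ℂ)

/-- the period pair, from `ECU × ECU` to `EBU` -/
noncomputable def pairU :
    (↥(ECU N S Sig χ hp c) × ↥(ECU N S Sig χ hp c)) →ₗ[ℂ] ↥(EBU N S Sig ℂ χ hp c) where
  toFun x := ⟨periodHomPair N ((x.1 : CuspForm (Gamma0 N) 2), (x.2 : CuspForm (Gamma0 N) 2)),
    periodHomPair_mem_EB N S Sig χ x.1.2.1 x.2.2.1, by
      rw [periodHomPair_UB, x.1.2.2, x.2.2.2, ← Prod.smul_mk, map_smul]⟩
  map_add' x y := by
    apply Subtype.ext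
    show periodHomPair N (((x + y).1 : CuspForm (Gamma0 N) 2), ((x + y).2 : CuspForm (Gamma0 N) 2))
      = periodHomPair N ((x.1 : CuspForm (Gamma0 N) 2), (x.2 : CuspForm (Gamma0 N) 2)) +
        periodHomPair N ((y.1 : CuspForm (Gamma0 N) 2), (y.2 : CuspForm (Gamma0 N) 2))
    rw [← map_add]
    rfl
  map_smul' a x := by
    apply Subtype.ext
    show periodHomPair N (((a • x).1 : CuspForm (Gamma0 N) 2),
        ((a • x).2 : CuspForm (Gamma0 N) 2))
      = a • periodHomPair N ((x.1 : CuspForm (Gamma0 N) 2), (x.2 : CuspForm (Gamma0 N) 2))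
    rw [← map_smul]
    rfl

theorem pairU_injective : Function.Injective (pairU N S Sig χ hp c) := by
  intro x y h
  have h1 := pair_eq_of N (congrArg Subtype.val h)
  exact Prod.ext (Subtype.ext h1.1) (Subtype.ext h1.2)

theorem pairU_surjective : Function.Surjective (pairU N S Sig χ hp c) := by
  rintro ⟨φ, hφ, hφU⟩
  obtain ⟨f, g, hf, hg, rfl⟩ := exists_of_mem_EB N S Sig χ hφ
  have hU : CuspForm.heckeULin 2 hp f = c • f ∧ CuspForm.heckeULin 2 hp g = c • g := by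
    apply pair_eq_of N
    rw [← periodHomPair_UB, hφU, ← Prod.smul_mk, map_smul]
  exact ⟨(⟨f, hf, hU.1⟩, ⟨g, hg, hU.2⟩), rfl⟩

end Eigen

/-- **ES-U.** -/
theorem stmt_ESU : Stmt_ESU := by
  intro N _ S Sig χ p hp _ _
  refine ⟨fun c => ?_, fun a ha φ hφ => ?_⟩
  · haveI := Fermat.Agent.R.H99.finiteDimensional_cuspForm N
    have e := LinearEquiv.ofBijective (pairU N S Sig χ hp c)
      ⟨pairU_injective N S Sig χ hp c, pairU_surjective N S Sig χ hp c⟩
    rw [← e.finrank_eq, Module.finrank_prod, two_mul]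
  · obtain ⟨f, g, hf, hg, rfl⟩ := exists_of_mem_EB N S Sig χ hφ
    rw [periodHomPair_UB, periodHomPair_UB, ← map_smul, ← map_smul, ← map_sub, ← map_add]
    have h1 := ha f hf
    have h2 := ha g hg
    have : (CuspForm.heckeULin 2 hp (CuspForm.heckeULin 2 hp f),
          CuspForm.heckeULin 2 hp (CuspForm.heckeULin 2 hp g)) -
        a • (CuspForm.heckeULin 2 hp f, CuspForm.heckeULin 2 hp g) + (p : ℂ) • (f, g) = 0 := by
      rw [Prod.smul_mk, Prod.smul_mk, Prod.mk_sub_mk, Prod.mk_add_mk, h1, h2]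
      rfl
    rw [this, map_zero]

end Fermat.Agent.S59.NonMin.Geom.Rank.H34

end
-- ==== END Fermat.Agent.S59.NonMin.Geom.Rank.H34_ESU

-- ==== BEGIN Fermat.Agent.S59.NonMin.Geom.Rank.H38_PStruct
section

/-!
# S59 / case C / P-RANK, leaf P-STRUCT (helper38)

`pstruct_of : Stmt_PSTRUCT_of`
(`= Stmt_CLAIM → Stmt_COEF → Stmt_NOLOW → Stmt_DEPL → Stmt_MAIN → Stmt_PSTRUCT`):
a form `f` of `E' = EC (N p)` with `a₁(f) = 0` is supported on the multiples of `p`, and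
`f = V_p G` with `G ∈ EC N`.

Reusable: `isAnemic_depl` (the depletion of an eigenvector is an eigenvector),
`isAnemic_main` (`G` with `a_n(G) = a_{rn}(f)` is an eigenvector), `geomHyp_*` (bookkeeping).
-/

set_option autoImplicit false

open CuspForm CongruenceSubgroup ModularFormClass IsLocalRing

namespace Fermat.Agent.S59.NonMin.Geom.Rank.H38

open Fermat.Agent.S59 Fermat.Agent.S59.H61 Fermat.Agent.S59.Asm

/-- The depletion at `r ∈ S` of an eigenvector (at any higher level) is an eigenvector. -/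
theorem isAnemic_depl {L L2 : ℕ} {S : Set ℕ} {a : ℕ → ℂ} {f : CuspForm (Gamma0 L) 2}
    (hf : IsAnemic L S a f) (hLL2 : L ∣ L2) {r : ℕ} (hr : r.Prime) (hrS : r ∈ S)
    (g : CuspForm (Gamma0 L2) 2)
    (hg : ∀ n : ℕ, qCoeff ⇑g n = if r ∣ n then 0 else qCoeff ⇑f n) : IsAnemic L2 S a g := by
  apply isAnemic_of_coeff
  intro ℓ hℓ hℓL hℓS n
  have hℓL' : ¬ ℓ ∣ L := fun h => hℓL (h.trans hLL2)
  have hℓr : ℓ ≠ r := by
    rintro rfl
    exact hℓS hrS
  have hstar := anemic_coeff hf hℓ hℓL' hℓS n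
  have hrℓ : ¬ r ∣ ℓ := fun h => hℓr ((Nat.prime_dvd_prime_iff_eq hr hℓ).1 h).symm
  have h1 : r ∣ n * ℓ ↔ r ∣ n := by
    constructor
    · intro h
      exact (hr.dvd_mul.1 h).resolve_right hrℓ
    · intro h
      exact dvd_mul_of_dvd_left h ℓ
  by_cases hrn : r ∣ n
  · rw [hg, hg n, if_pos (h1.2 hrn), if_pos hrn, mul_zero, zero_add]
    split_ifs with hℓn
    · have h2 : r ∣ n / ℓ := by
        obtain ⟨k, hk⟩ := hℓn
        rw [hk, Nat.mul_div_cancel_left k hℓ.pos]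
        rw [hk] at hrn
        exact (hr.dvd_mul.1 hrn).resolve_left hrℓ
      rw [hg, if_pos h2, mul_zero]
    · rfl
  · rw [hg, hg n, if_neg (fun h => hrn (h1.1 h)), if_neg hrn, ← hstar]
    congr 1
    split_ifs with hℓn
    · have h2 : ¬ r ∣ n / ℓ := fun h => hrn (h.trans (Nat.div_dvd_of_dvd hℓn))
      rw [hg, if_neg h2]
    · rfl

/-- A form `G` with `a_n(G) = a_{rn}(f)`, `f` an eigenvector, `r ∈ S`, is an eigenvector. -/
theorem isAnemic_main {L L' : ℕ} {S : Set ℕ} {a : ℕ → ℂ} {f : CuspForm (Gamma0 L) 2}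
    (hf : IsAnemic L S a f) {r : ℕ} (hr : r.Prime) (hrS : r ∈ S)
    (hLL' : ∀ ℓ : ℕ, ℓ.Prime → ℓ ∣ L → ℓ ∣ L' ∨ ℓ = r)
    (G : CuspForm (Gamma0 L') 2) (hG : ∀ n : ℕ, qCoeff ⇑G n = qCoeff ⇑f (r * n)) :
    IsAnemic L' S a G := by
  apply isAnemic_of_coeff
  intro ℓ hℓ hℓL hℓS n
  have hℓr : ℓ ≠ r := by
    rintro rfl
    exact hℓS hrS
  have hℓr' : ¬ ℓ ∣ r := fun h => hℓr ((Nat.prime_dvd_prime_iff_eq hℓ hr).1 h)
  have hℓL' : ¬ ℓ ∣ L := by
    intro h
    rcases hLL' ℓ hℓ h with h | h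
    · exact hℓL h
    · exact hℓr h
  have hstar := anemic_coeff hf hℓ hℓL' hℓS (r * n)
  rw [hG, hG n, ← hstar, mul_assoc]
  congr 1
  have h1 : ℓ ∣ r * n ↔ ℓ ∣ n := by
    constructor
    · intro h
      exact (hℓ.dvd_mul.1 h).resolve_left hℓr'
    · intro h
      exact dvd_mul_of_dvd_right h r
  by_cases hℓn : ℓ ∣ n
  · rw [if_pos hℓn, if_pos (h1.2 hℓn), hG, Nat.mul_div_assoc r hℓn]
  · rw [if_neg hℓn, if_neg (fun h => hℓn (h1.1 h))]

section GeomHyp

variable {p : ℕ} {Smin : Finset ℕ} {N₀ : ℕ} {Sig : Finset ℕ} {N : ℕ} {S : Finset ℕ}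

/-- The primes of `N` lie in `S`. -/
theorem geomHyp_prime_mem (hG : GeomHyp p Smin N₀ Sig N S) {s : ℕ} (hs : s.Prime)
    (hsN : s ∣ N) : s ∈ S := by
  rw [hG.hS, Finset.mem_union]
  rw [hG.hN] at hsN
  rcases hs.dvd_mul.1 hsN with h | h
  · exact Or.inl (hG.hN₀S s hs h)
  · obtain ⟨r, hr, hsr⟩ := (Prime.dvd_finsetProd_iff (Nat.Prime.prime hs) _).1 h
    have := (Nat.prime_dvd_prime_iff_eq hs (hG.hSig r hr).1).1 (hs.dvd_of_dvd_pow hsr)
    rw [this]
    exact Or.inr hr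

/-- The elements of `Sig` divide `N`. -/
theorem geomHyp_sig_dvd (hG : GeomHyp p Smin N₀ Sig N S) {r : ℕ} (hr : r ∈ Sig) : r ∣ N := by
  rw [hG.hN]
  exact dvd_mul_of_dvd_right
    ((dvd_pow_self r two_ne_zero).trans (Finset.dvd_prod_of_mem (fun r => r ^ 2) hr)) _

/-- The primes of `Smin` divide `N` at most once. -/
theorem geomHyp_not_sq_dvd (hG : GeomHyp p Smin N₀ Sig N S) {r : ℕ} (hr : r.Prime)
    (hrS : r ∈ Smin) : ¬ r ^ 2 ∣ N := by
  intro h
  rw [hG.hN] at h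
  have hcop : Nat.Coprime (r ^ 2) (∏ r' ∈ Sig, r' ^ 2) := by
    apply Nat.Coprime.prod_right
    intro r' hr'
    apply Nat.Coprime.pow
    rw [Nat.coprime_primes hr (hG.hSig r' hr').1]
    rintro rfl
    exact (hG.hSig r hr').2.2 hrS
  have h2 : r ^ 2 ∣ N₀ := hcop.dvd_of_dvd_mul_right h
  rw [pow_two] at h2
  exact hr.not_isUnit (hG.hN₀ r h2)

end GeomHyp

/-- **P-STRUCT** from CLAIM, COEF, NOLOW, DEPL, MAIN. -/
theorem pstruct_of : Stmt_PSTRUCT_of := by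
  intro hCLAIM hCOEF hNOLOW hDEPL hMAIN 𝒪 _ _ _ _ _ _ p _ ρbar Smin N₀ Sig N _ _ S θ x χ rest
    hP f hf h1
  have hp : p.Prime := Fact.out
  have hpS : p ∈ S := by
    rw [hP.hG.hS, Finset.mem_union]
    exact Or.inl hP.hRes.hpSmin
  have hSminS : Smin ⊆ S := by
    rw [hP.hG.hS]
    exact Finset.subset_union_left
  have hNS : ∀ s : ℕ, s.Prime → s ∣ N → s ∈ (↑S : Set ℕ) :=
    fun s hs hsN => geomHyp_prime_mem hP.hG hs hsN
  have hNpS : ∀ s : ℕ, s.Prime → s ∣ N * p → s ∈ (↑S : Set ℕ) := by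
    intro s hs hsN
    rcases hs.dvd_mul.1 hsN with h | h
    · exact hNS s hs h
    · rw [(Nat.prime_dvd_prime_iff_eq hs hp).1 h]
      exact hpS
  -- `f` is an eigenvector with the eigenvalues of `χ`
  have hfan : IsAnemic (N * p) (↑S : Set ℕ) (eigVal χ) f := by
    intro ℓ hℓ hℓL hℓS
    have hℓN : ¬ ℓ ∣ N := fun h => hℓL (dvd_mul_of_dvd_left h p)
    rw [hf.1 ℓ hℓ hℓL hℓS, RingHom.comp_apply, hP.hrest ℓ hℓ hℓL hℓS hℓN,
      eigVal_eq χ hℓ hℓN hℓS]
  -- COEF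
  have hcoef := hCOEF (N * p) (↑S : Set ℕ) Sig (χ.comp rest) hNpS
    (fun r hr => dvd_mul_of_dvd_left (geomHyp_sig_dvd hP.hG hr) p) f hf h1
  -- the depletion at `p`, at the level `N p²`
  have : NeZero (N * p * p) := ⟨mul_ne_zero (NeZero.ne (N * p)) hp.ne_zero⟩
  have hpp : p ^ 2 ∣ N * p * p := by
    rw [pow_two, mul_assoc]
    exact dvd_mul_left _ _
  obtain ⟨g, hg⟩ := hDEPL (N * p * p) p hp hpp (restrictCusp (Gamma0_mul_le_GL (N * p) p) f)
  rw [coe_restrictCusp] at hg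
  have hgan : IsAnemic (N * p * p) (↑S : Set ℕ) (eigVal χ) g :=
    isAnemic_depl hfan (dvd_mul_right (N * p) p) hp hpS g hg
  have hg0 : g = 0 := by
    refine hCLAIM (↑S : Set ℕ) (eigVal χ) (Smin.erase p) ?_ (N * p * p) ?_ ?_ ?_ g hgan ?_
    · intro r hr
      have hr' := Finset.mem_of_mem_erase hr
      exact ⟨hP.hRes.hS r hr', hSminS hr'⟩
    · intro s hs hsL
      rcases hs.dvd_mul.1 hsL with h | h
      · exact hNpS s hs h
      · rw [(Nat.prime_dvd_prime_iff_eq hs hp).1 h]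
        exact hpS
    · intro r hr h
      have hr' := Finset.mem_of_mem_erase hr
      have hrp : r ≠ p := Finset.ne_of_mem_erase hr
      have hrpr := hP.hRes.hS r hr'
      have hcop : Nat.Coprime (r ^ 2) (p * p) :=
        Nat.Coprime.mul_right
          (Nat.Coprime.pow_left 2 ((Nat.coprime_primes hrpr hp).2 hrp))
          (Nat.Coprime.pow_left 2 ((Nat.coprime_primes hrpr hp).2 hrp))
      rw [mul_assoc] at h
      exact geomHyp_not_sq_dvd hP.hG hrpr hr' (hcop.dvd_of_dvd_mul_right h)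
    · intro r hr _
      have hr' := Finset.mem_of_mem_erase hr
      have hrp : r ≠ p := Finset.ne_of_mem_erase hr
      exact hNOLOW 𝒪 p hP.hp2 hP.hp𝒪 ρbar Smin hP.hRes N S hSminS hNS θ hP.hFrob x hP.hx χ
        hP.hχ r hr' (fun h => absurd h hrp)
    · intro n hn
      rw [hg]
      split_ifs with hpn
      · rfl
      · apply hcoef n
        intro s hs hsn hsS
        have hsS' : s ∈ S := hsS
        rw [hP.hG.hS, Finset.mem_union] at hsS'
        rcases hsS' with h | h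
        · exfalso
          by_cases hsp : s = p
          · rw [hsp] at hsn
            exact hpn hsn
          · exact hn s (Finset.mem_erase.2 ⟨hsp, h⟩) hsn
        · exact h
  -- `f` is supported on the multiples of `p`
  have hsupp : ∀ n : ℕ, ¬ p ∣ n → qCoeff ⇑f n = 0 := by
    intro n hn
    have := hg n
    rw [if_neg hn, hg0, Fermat.Agent.S49.qCoeff_zero_form] at this
    exact this.symm
  refine ⟨hsupp, ?_⟩
  -- MAIN
  have hN' : N * p / Nat.gcd (N * p) p = N := by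
    rw [Nat.gcd_eq_right (dvd_mul_left p N)]
    exact Nat.mul_div_cancel N hp.pos
  have hex : ∃ G : CuspForm (Gamma0 N) 2, ∀ n : ℕ, qCoeff ⇑G n = qCoeff ⇑f (p * n) := by
    obtain ⟨G, hG⟩ := hMAIN (N * p) p hp f hsupp
    revert G
    rw [hN']
    intro G hG
    exact ⟨G, hG⟩
  obtain ⟨G, hG⟩ := hex
  refine ⟨G, ⟨?_, ?_⟩, hG⟩
  · have hGan : IsAnemic N (↑S : Set ℕ) (eigVal χ) G := by
      refine isAnemic_main hfan hp hpS ?_ G hG
      intro ℓ hℓ hℓL
      rcases hℓ.dvd_mul.1 hℓL with h | h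
      · exact Or.inl h
      · exact Or.inr ((Nat.prime_dvd_prime_iff_eq hℓ hp).1 h)
    intro ℓ hℓ hℓN hℓS
    rw [hGan ℓ hℓ hℓN hℓS, eigVal_eq χ hℓ hℓN hℓS]
  · intro r hr hrN
    apply Fermat.Agent.S49.cuspForm_eq_zero_of_qCoeff
    intro n
    rw [Fermat.Agent.S49.qCoeff_heckeULin (hP.hG.hSig r hr).1.ne_zero hrN G n, hG]
    have hU := hf.2 r hr (dvd_mul_of_dvd_left hrN p)
    have h2 := Fermat.Agent.S49.qCoeff_heckeULin (hP.hG.hSig r hr).1.ne_zero
      (dvd_mul_of_dvd_left hrN p) f (p * n)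
    rw [hU, Fermat.Agent.S49.qCoeff_zero_form] at h2
    rw [← mul_assoc]
    exact h2.symm

end Fermat.Agent.S59.NonMin.Geom.Rank.H38

end
-- ==== END Fermat.Agent.S59.NonMin.Geom.Rank.H38_PStruct

-- ==== BEGIN Fermat.Agent.S59.NonMin.Geom.Rank.H55_PLat
section

/-!
# S59 / case C / PGEOM, P-RANK, leaf P-LAT (helper55)

`stmt_PLAT : Stmt_PLAT`.

* `finrank_le_of_injective` : an injective `𝒪`-linear map from a finite free `𝒪`-module to a
  finite dimensional vector space over `K = Frac 𝒪` gives `rank_𝒪 ≤ dim_K`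
  (`LinearIndependent.localization`);
* `finiteDimensional_hom` : `Hom(Γ₀(N), K)` is finite dimensional (`Betti.fg_Gamma0`);
* the elements of the lattice eigenspace `M'[x']` are `U`-divisible eigenvectors (the witnesses
  of divisibility are eigenvectors because `U` commutes with the `T_ℓ` and is injective), so
  `U = u` on them; extension of scalars `𝒪 → K` maps `M'[x']` injectively into `EBU(K, u)`.
-/

set_option autoImplicit false
set_option linter.unusedSectionVars false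
set_option linter.unusedVariables false

open Polynomial CuspForm CongruenceSubgroup IsLocalRing ModularFormClass
open scoped MatrixGroups

noncomputable section

namespace Fermat.Agent.S59.NonMin.Geom.Rank.H55

open Fermat.Agent.Betti Fermat.Agent.S59 Fermat.Agent.S59.Asm Fermat.Agent.S41
open Fermat.Agent.S59.NonMin Fermat.Agent.S59.NonMin.Geom
open ModularCurve.Period

/-! ## 1. Generic linear algebra -/

section Gen

theorem finrank_le_of_injective {R K X Y : Type*} [CommRing R] [IsDomain R] [Field K]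
    [Algebra R K] [IsFractionRing R K] [AddCommGroup X] [Module R X] [Module.Free R X]
    [Module.Finite R X] [AddCommGroup Y] [Module K Y] [Module R Y] [IsScalarTower R K Y]
    [FiniteDimensional K Y] (f : X →ₗ[R] Y) (hf : Function.Injective f) :
    Module.finrank R X ≤ Module.finrank K Y := by
  classical
  let b := Module.Free.chooseBasis R X
  have h1 : LinearIndependent R (fun i => f (b i)) :=
    b.linearIndependent.map' f (LinearMap.ker_eq_bot.mpr hf)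
  have h2 : LinearIndependent K (fun i => f (b i)) :=
    LinearIndependent.localization (S := nonZeroDivisors R) K h1
  have h3 := h2.fintype_card_le_finrank
  rwa [← Module.finrank_eq_card_chooseBasisIndex] at h3

/-- The same for an additive map which is semilinear for `algebraMap R K`. -/
theorem finrank_le_of_injective_semi {R K X Y : Type*} [CommRing R] [IsDomain R] [Field K]
    [Algebra R K] [IsFractionRing R K] [AddCommGroup X] [Module R X] [Module.Free R X]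
    [Module.Finite R X] [AddCommGroup Y] [Module K Y] [FiniteDimensional K Y] (f : X →+ Y)
    (hsmul : ∀ (r : R) (x : X), f (r • x) = algebraMap R K r • f x)
    (hf : Function.Injective f) : Module.finrank R X ≤ Module.finrank K Y := by
  let _ : Module R Y := Module.compHom Y (algebraMap R K)
  have : IsScalarTower R K Y := IsScalarTower.of_algebraMap_smul fun r y => rfl
  let g : X →ₗ[R] Y :=
    { toFun := f
      map_add' := f.map_add
      map_smul' := fun r x => hsmul r x }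
  exact finrank_le_of_injective g hf

end Gen

/-! ## 2. Finite dimensionality of `Hom(Γ₀(N), K)` -/

theorem finiteDimensional_hom (N : ℕ) [NeZero N] (K : Type) [Field K] :
    FiniteDimensional K (Additive (Gamma0 N) →+ K) := by
  obtain ⟨S, hS⟩ := (fg_Gamma0 N).out
  let Ψ : (Additive (Gamma0 N) →+ K) →ₗ[K] ((↥S : Type) → K) :=
    { toFun := fun φ s => φ (Additive.ofMul s.1)
      map_add' := fun φ ψ => rfl
      map_smul' := fun c φ => rfl }
  have hΨ : Function.Injective Ψ := by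
    rw [injective_iff_map_eq_zero]
    intro φ hφ
    have key : ∀ g : Gamma0 N, g ∈ Subgroup.closure (↑S : Set (Gamma0 N)) →
        φ (Additive.ofMul g) = 0 := by
      intro g hg
      induction hg using Subgroup.closure_induction with
      | mem x hx => exact congrFun hφ ⟨x, hx⟩
      | one => exact map_zero φ
      | mul x y _ _ hx hy => rw [ofMul_mul, map_add, hx, hy, add_zero]
      | inv x _ hx => rw [ofMul_inv, map_neg, hx, neg_zero]
    refine AddMonoidHom.ext fun γ => ?_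
    have hmem : Additive.toMul γ ∈ Subgroup.closure (↑S : Set (Gamma0 N)) := by
      rw [hS]; exact Subgroup.mem_top _
    exact key _ hmem
  exact FiniteDimensional.of_injective Ψ hΨ

/-! ## 3. The operators on `Hom(Γ₀(M), 𝒪)` -/

section Ops

variable {𝒪 : Type} [CommRing 𝒪] {M : ℕ} [NeZero M]

theorem UB_smul_ring {p : ℕ} (hp : p ∣ M) (c : 𝒪) (φ : Additive (Gamma0 M) →+ 𝒪) :
    UB M 𝒪 hp (c • φ) = c • UB M 𝒪 hp φ := by
  have : NeZero p := neZero_of_dvd hp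
  exact ((isHeckeFamily_U M hp).heckeOpLin (incl_injective M) 𝒪).map_smul c φ

theorem TB_smul_ring {ℓ : ℕ} (hℓ : ℓ.Prime) (hℓM : ¬ ℓ ∣ M) (c : 𝒪)
    (φ : Additive (Gamma0 M) →+ 𝒪) :
    TB M 𝒪 hℓ hℓM (c • φ) = c • TB M 𝒪 hℓ hℓM φ := by
  have : Fact ℓ.Prime := ⟨hℓ⟩
  exact ((isHeckeFamily_T M hℓM).heckeOpLin (incl_injective M) 𝒪).map_smul c φ

theorem UB_iter_par {p : ℕ} (hp : p ∣ M) (n : ℕ) (φ : Additive (Gamma0 M) →+ 𝒪)
    (hφ : IsParabolicHom (Gamma0 M) φ) :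
    IsParabolicHom (Gamma0 M) ((UB M 𝒪 hp)^[n] φ) := by
  induction n with
  | zero => exact hφ
  | succ n ih =>
    rw [Function.iterate_succ_apply']
    exact H53.UB_par 𝒪 hp _ ih

theorem UB_iter_zero {p : ℕ} (hp : p ∣ M) (n : ℕ) :
    (UB M 𝒪 hp)^[n] (0 : Additive (Gamma0 M) →+ 𝒪) = 0 := by
  induction n with
  | zero => rfl
  | succ n ih => rw [Function.iterate_succ_apply', ih, map_zero]

theorem UB_iter_sub {p : ℕ} (hp : p ∣ M) (n : ℕ) (φ ψ : Additive (Gamma0 M) →+ 𝒪) :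
    (UB M 𝒪 hp)^[n] (φ - ψ) = (UB M 𝒪 hp)^[n] φ - (UB M 𝒪 hp)^[n] ψ := by
  induction n with
  | zero => rfl
  | succ n ih => rw [Function.iterate_succ_apply', Function.iterate_succ_apply',
      Function.iterate_succ_apply', ih, map_sub]

theorem UB_iter_smul {p : ℕ} (hp : p ∣ M) (n : ℕ) (c : 𝒪) (φ : Additive (Gamma0 M) →+ 𝒪) :
    (UB M 𝒪 hp)^[n] (c • φ) = c • (UB M 𝒪 hp)^[n] φ := by
  induction n with
  | zero => rfl
  | succ n ih => rw [Function.iterate_succ_apply', Function.iterate_succ_apply', ih,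
      UB_smul_ring]

theorem UB_iter_TB [IsAddTorsionFree 𝒪] {p ℓ : ℕ} (hpp : p.Prime) (hp : p ∣ M) (hℓ : ℓ.Prime)
    (hℓM : ¬ ℓ ∣ M) (n : ℕ) (φ : Additive (Gamma0 M) →+ 𝒪)
    (hφ : IsParabolicHom (Gamma0 M) φ) :
    (UB M 𝒪 hp)^[n] (TB M 𝒪 hℓ hℓM φ) = TB M 𝒪 hℓ hℓM ((UB M 𝒪 hp)^[n] φ) := by
  induction n with
  | zero => rfl
  | succ n ih =>
    rw [Function.iterate_succ_apply', Function.iterate_succ_apply', ih]
    exact H53.UB_TB_comm 𝒪 hpp hp hℓ hℓM _ (UB_iter_par hp n φ hφ)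

end Ops

/-! ## 4. Extension of scalars to the fraction field -/

section Ext

variable {𝒪 : Type} [CommRing 𝒪] [IsDomain 𝒪] {M : ℕ} [NeZero M]

/-- extension of scalars `𝒪 → Frac 𝒪` -/
def extK (φ : Additive (Gamma0 M) →+ 𝒪) : Additive (Gamma0 M) →+ FractionRing 𝒪 :=
  (algebraMap 𝒪 (FractionRing 𝒪)).toAddMonoidHom.comp φ

theorem extK_apply (φ : Additive (Gamma0 M) →+ 𝒪) (γ : Additive (Gamma0 M)) :
    extK φ γ = algebraMap 𝒪 (FractionRing 𝒪) (φ γ) := rfl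

theorem extK_zero : extK (0 : Additive (Gamma0 M) →+ 𝒪) = 0 := by
  refine AddMonoidHom.ext fun γ => ?_
  rw [extK_apply, AddMonoidHom.zero_apply, map_zero, AddMonoidHom.zero_apply]

theorem extK_add (φ ψ : Additive (Gamma0 M) →+ 𝒪) : extK (φ + ψ) = extK φ + extK ψ := by
  refine AddMonoidHom.ext fun γ => ?_
  rw [extK_apply, AddMonoidHom.add_apply, map_add, AddMonoidHom.add_apply, extK_apply,
    extK_apply]

theorem extK_smul (c : 𝒪) (φ : Additive (Gamma0 M) →+ 𝒪) :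
    extK (c • φ) = algebraMap 𝒪 (FractionRing 𝒪) c • extK φ := by
  refine AddMonoidHom.ext fun γ => ?_
  rw [extK_apply, AddMonoidHom.smul_apply, AddMonoidHom.smul_apply, extK_apply, smul_eq_mul,
    smul_eq_mul, map_mul]

theorem extK_injective : Function.Injective (extK : (Additive (Gamma0 M) →+ 𝒪) → _) := by
  intro φ ψ h
  refine AddMonoidHom.ext fun γ => ?_
  have h1 := DFunLike.congr_fun h γ
  rw [extK_apply, extK_apply] at h1
  exact IsFractionRing.injective 𝒪 (FractionRing 𝒪) h1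

theorem extK_par {φ : Additive (Gamma0 M) →+ 𝒪} (hφ : IsParabolicHom (Gamma0 M) φ) :
    IsParabolicHom (Gamma0 M) (extK φ) := by
  intro γ hγ
  have h := hφ γ hγ
  show algebraMap 𝒪 (FractionRing 𝒪) (φ _) = 0
  rw [h, map_zero]

theorem TB_extK {ℓ : ℕ} (hℓ : ℓ.Prime) (hℓM : ¬ ℓ ∣ M) (φ : Additive (Gamma0 M) →+ 𝒪) :
    TB M (FractionRing 𝒪) hℓ hℓM (extK φ) = extK (TB M 𝒪 hℓ hℓM φ) := by
  have : Fact ℓ.Prime := ⟨hℓ⟩
  exact (isHeckeFamily_T M hℓM).heckeOp_comp (incl_injective M)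
    (algebraMap 𝒪 (FractionRing 𝒪)).toAddMonoidHom φ

theorem UB_extK {p : ℕ} (hp : p ∣ M) (φ : Additive (Gamma0 M) →+ 𝒪) :
    UB M (FractionRing 𝒪) hp (extK φ) = extK (UB M 𝒪 hp φ) := by
  have : NeZero p := neZero_of_dvd hp
  exact (isHeckeFamily_U M hp).heckeOp_comp (incl_injective M)
    (algebraMap 𝒪 (FractionRing 𝒪)).toAddMonoidHom φ

end Ext

/-! ## 5. The witnesses of divisibility are eigenvectors -/

section Core

variable {𝒪 : Type} [CommRing 𝒪] [IsDomain 𝒪] [CharZero 𝒪]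

theorem UB_iter_injective (hU : Stmt_UINJ) {N p : ℕ} [NeZero N] [NeZero (N * p)]
    (hp : p.Prime) (hpN : ¬ p ∣ N) (hd : p ∣ N * p) (n : ℕ)
    (φ : Additive (Gamma0 (N * p)) →+ 𝒪) (h : (UB (N * p) 𝒪 hd)^[n] φ = 0) : φ = 0 := by
  have hA : ∀ a : 𝒪, p • a = 0 → a = 0 := by
    intro a ha
    rw [nsmul_eq_mul] at ha
    rcases mul_eq_zero.mp ha with h0 | h0
    · exact absurd (Nat.cast_eq_zero.mp h0) hp.ne_zero
    · exact h0
  induction n generalizing φ with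
  | zero => exact h
  | succ n ih =>
    rw [Function.iterate_succ_apply] at h
    exact hU N p hp hpN hd 𝒪 hA φ (ih _ h)

theorem isEB_of_iter (hU : Stmt_UINJ) {N p : ℕ} [NeZero N] [NeZero (N * p)]
    (hp : p.Prime) (hpN : ¬ p ∣ N) (hd : p ∣ N * p) (S : Set ℕ) (Sig : Finset ℕ)
    (x' : CuspForm.heckeAlgebra (N * p) 2 S →+* 𝒪) (n : ℕ)
    {ψ ψ' : Additive (Gamma0 (N * p)) →+ 𝒪} (hpar : IsParabolicHom (Gamma0 (N * p)) ψ')
    (hSig : ∀ r ∈ Sig, ∀ hr : r ∣ N * p, UB (N * p) 𝒪 hr ψ' = 0)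
    (hiter : (UB (N * p) 𝒪 hd)^[n] ψ' = ψ)
    (hψ : ∀ (ℓ : ℕ) (hℓ : ℓ.Prime) (hℓN : ¬ ℓ ∣ N * p) (hℓS : ℓ ∉ S),
      TB (N * p) 𝒪 hℓ hℓN ψ = x' (CuspForm.heckeAlgebra.T hℓ hℓN hℓS) • ψ) :
    IsEB (N * p) S Sig 𝒪 x' ψ' := by
  refine ⟨hpar, fun ℓ hℓ hℓN hℓS => ?_, hSig⟩
  have h0 : (UB (N * p) 𝒪 hd)^[n]
      (TB (N * p) 𝒪 hℓ hℓN ψ' - x' (CuspForm.heckeAlgebra.T hℓ hℓN hℓS) • ψ') = 0 := by
    rw [UB_iter_sub, UB_iter_smul, UB_iter_TB hp hd hℓ hℓN n ψ' hpar, hiter,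
      hψ ℓ hℓ hℓN hℓS, sub_self]
  exact sub_eq_zero.mp (UB_iter_injective hU hp hpN hd n _ h0)

end Core

/-! ## 6. The leaf -/

/-- **P-LAT**. -/
theorem stmt_PLAT : Stmt_PLAT := by
  intro hU 𝒪 _ _ _ _ N p _ _ hp hpN hd S hS θ' M' Sig ι' hι hrange hT x' hx' u Hu
  have hfd : FiniteDimensional (FractionRing 𝒪)
      (Additive (Gamma0 (N * p)) →+ FractionRing 𝒪) :=
    finiteDimensional_hom (N * p) (FractionRing 𝒪)
  -- the elements of the eigenspace go to `EBU`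
  have hmem : ∀ w : M'.V, w ∈ NMState.eigen (⟨N * p, S, θ', M'⟩ : NMState 𝒪) x' →
      extK (ι' w) ∈ EBU (N * p) (↑S : Set ℕ) Sig (FractionRing 𝒪)
        ((algebraMap 𝒪 (FractionRing 𝒪)).comp x') hd (algebraMap 𝒪 (FractionRing 𝒪) u) := by
    intro w hw
    have hw' : ∀ t : CuspForm.heckeAlgebra (N * p) 2 (↑S : Set ℕ), M'.η t w = x' t • w :=
      (NMState.mem_eigen (⟨N * p, S, θ', M'⟩ : NMState 𝒪) x' w).mp hw
    obtain ⟨hIn, hdiv⟩ := (hrange (ι' w)).mp ⟨w, rfl⟩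
    have hTψ : ∀ (ℓ : ℕ) (hℓ : ℓ.Prime) (hℓN : ¬ ℓ ∣ N * p) (hℓS : ℓ ∉ (↑S : Set ℕ)),
        TB (N * p) 𝒪 hℓ hℓN (ι' w) = x' (CuspForm.heckeAlgebra.T hℓ hℓN hℓS) • ι' w := by
      intro ℓ hℓ hℓN hℓS
      rw [← hT ℓ hℓ hℓN hℓS w, hw', map_smul]
    have hEB : IsEB (N * p) (↑S : Set ℕ) Sig 𝒪 x' (ι' w) := ⟨hIn.1, hTψ, hIn.2.1⟩
    have hdiv' : ∀ n : ℕ, ∃ ψ', IsEB (N * p) (↑S : Set ℕ) Sig 𝒪 x' ψ' ∧
        (UB (N * p) 𝒪 hd)^[n] ψ' = ι' w := by
      intro n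
      obtain ⟨ψ', h1, h2⟩ := hdiv n
      exact ⟨ψ', isEB_of_iter hU hp hpN hd (↑S : Set ℕ) Sig x' n h1.1 h1.2.1 h2 hTψ, h2⟩
    have hUψ := Hu (ι' w) hEB hdiv'
    refine ⟨⟨extK_par hIn.1, fun ℓ hℓ hℓN hℓS => ?_, fun r hr hrN => ?_⟩, ?_⟩
    · rw [TB_extK, hTψ ℓ hℓ hℓN hℓS, extK_smul]
      rfl
    · rw [UB_extK, hIn.2.1 r hr hrN, extK_zero]
    · rw [UB_extK, hUψ, extK_smul]
  let Φ : ↥(NMState.eigen (⟨N * p, S, θ', M'⟩ : NMState 𝒪) x') →+
      ↥(EBU (N * p) (↑S : Set ℕ) Sig (FractionRing 𝒪)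
        ((algebraMap 𝒪 (FractionRing 𝒪)).comp x') hd (algebraMap 𝒪 (FractionRing 𝒪) u)) :=
    { toFun := fun w => ⟨extK (ι' w.1), hmem w.1 w.2⟩
      map_zero' := by
        apply Subtype.ext
        show extK (ι' (0 : M'.V)) = 0
        rw [map_zero, extK_zero]
      map_add' := by
        intro a b
        apply Subtype.ext
        show extK (ι' (a.1 + b.1)) = extK (ι' a.1) + extK (ι' b.1)
        rw [map_add, extK_add] }
  refine finrank_le_of_injective_semi Φ ?_ ?_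
  · intro r w
    apply Subtype.ext
    show extK (ι' (r • w.1)) = algebraMap 𝒪 (FractionRing 𝒪) r • extK (ι' w.1)
    rw [map_smul, extK_smul]
  · intro a b hab
    apply Subtype.ext
    have h1 : extK (ι' a.1) = extK (ι' b.1) := congrArg Subtype.val hab
    exact hι (extK_injective h1)

end Fermat.Agent.S59.NonMin.Geom.Rank.H55

end
end
-- ==== END Fermat.Agent.S59.NonMin.Geom.Rank.H55_PLat

-- ==== BEGIN Fermat.Agent.S59.NonMin.Geom.Rank.H56_Main
section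

/-!
# RANK leaves MAIN and MAINb (helper56): the statements of `Rank/Defs.lean`

* `stmt_MAIN : Stmt_MAIN` (single-prime main lemma of Atkin–Lehner), unconditional;
* `stmt_MAINb : Stmt_MAINb`, unconditional, and `mainb_of : Stmt_MAINb_of`.

The proofs are in `H56_MainCore.lean` (`H56.main`, `H56.descendCusp`) and `H56_MainBCore.lean`
(`H56.mainb`).
-/

set_option autoImplicit false

namespace Fermat.Agent.S59.NonMin.Geom.Rank.H56

/-- **MAIN**, unconditional. -/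
theorem stmt_MAIN : Stmt_MAIN := fun L r _ hr f h => main L r hr f h

/-- **MAINb**, unconditional. -/
theorem stmt_MAINb : Stmt_MAINb := fun L r _ hr hrL f h => mainb L r hr hrL f h

/-- **MAINb** in the form of the plan (`Stmt_MAIN → Stmt_MAINb`). -/
theorem mainb_of : Stmt_MAINb_of := fun _ => stmt_MAINb

end Fermat.Agent.S59.NonMin.Geom.Rank.H56

end
-- ==== END Fermat.Agent.S59.NonMin.Geom.Rank.H56_Main

-- ==== BEGIN Fermat.Agent.S59.NonMin.Geom.Rank.H56_PQuad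
section

/-!
# P-RANK leaves P-QUAD and P-MULT1U (helper56)

* `pmult1u_of : Stmt_PMULT1U_of` (`Stmt_PSTRUCT → Stmt_PMULT1U`);
* `pquad_of : Stmt_PQUAD_of` (`Stmt_PSTRUCT → Stmt_MULT1 → Stmt_NONVAN → Stmt_PQUAD`).

Remark: `Stmt_MULT1` is not used.  `a₁` is injective on `EC N` by `Stmt_PSTRUCT` applied to the
inclusion in the level `N p` and `H56.mainb` (a form of level `N` prime to `p` supported on the
multiples of `p` is zero).
-/

set_option autoImplicit false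

open Polynomial CuspForm CongruenceSubgroup IsLocalRing ModularFormClass
open scoped MatrixGroups

noncomputable section

namespace Fermat.Agent.S59.NonMin.Geom.Rank.H56

open Fermat.Agent.Betti Fermat.Agent.S59 Fermat.Agent.S59.Asm Fermat.Agent.S41
open Fermat.Agent.S59.Asm.H41 (levelIncl coe_levelIncl heckeTLin_levelIncl heckeULin_levelIncl)
open Fermat.Agent.S49 (qCoeff_add qCoeff_smul qCoeff_sub qCoeff_zero_form qCoeff_at_zero
  cuspForm_eq_zero_of_qCoeff cuspForm_ext_qCoeff)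

/-! ### Generalities -/

section General

/-- `a₁` as a linear form. -/
def aOne (N : ℕ) : CuspForm (Gamma0 N) 2 →ₗ[ℂ] ℂ where
  toFun f := qCoeff f 1
  map_add' f g := qCoeff_add f g 1
  map_smul' c f := qCoeff_smul c f 1

@[simp] theorem aOne_apply {N : ℕ} (f : CuspForm (Gamma0 N) 2) : aOne N f = qCoeff f 1 := rfl

theorem qCoeff_levelIncl {N N' : ℕ} (h : N ∣ N') (f : CuspForm (Gamma0 N) 2) (n : ℕ) :
    qCoeff (levelIncl h 2 f) n = qCoeff f n := by
  rw [coe_levelIncl]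

end General

/-! ### The inclusion of `EC N` in `EC (N p)` -/

section Incl

variable {𝒪 : Type} [CommRing 𝒪] [IsDomain 𝒪] [IsLocalRing 𝒪]
  {p : ℕ} {ρbar : ResidualGaloisRep (ResidueField 𝒪)} {Smin : Finset ℕ}
  {N₀ : ℕ} {Sig : Finset ℕ} {N : ℕ} [NeZero N] [NeZero (N * p)] {S : Finset ℕ}
  {θ : CuspForm.heckeAlgebra N 2 (↑S : Set ℕ) →+* ResidueField 𝒪}
  {x : CuspForm.heckeAlgebra N 2 (↑S : Set ℕ) →+* 𝒪}
  {χ : CuspForm.heckeAlgebra N 2 (↑S : Set ℕ) →+* ℂ}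
  {rest : CuspForm.heckeAlgebra (N * p) 2 (↑S : Set ℕ) →+*
    CuspForm.heckeAlgebra N 2 (↑S : Set ℕ)}

theorem phyp_sq_dvd (h : PHyp p ρbar Smin N₀ Sig N S θ x χ rest) {r : ℕ} (hr : r ∈ Sig) :
    r ^ 2 ∣ N := by
  rw [h.hG.hN]
  exact Dvd.dvd.mul_left (Finset.dvd_prod_of_mem (fun r => r ^ 2) hr) _

theorem phyp_dvd_of_mem_Sig (h : PHyp p ρbar Smin N₀ Sig N S θ x χ rest) {r : ℕ}
    (hr : r ∈ Sig) : r ∣ N :=
  (dvd_pow_self r two_ne_zero).trans (phyp_sq_dvd h hr)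

theorem phyp_p_mem (h : PHyp p ρbar Smin N₀ Sig N S θ x χ rest) : p ∈ (↑S : Set ℕ) := by
  rw [Finset.mem_coe, h.hG.hS]
  exact Finset.mem_union_left _ h.hRes.hpSmin

/-- The inclusion of the level `N` in the level `N p` maps `EC N` to `E'`. -/
theorem levelIncl_mem_EC (h : PHyp p ρbar Smin N₀ Sig N S θ x χ rest)
    {H : CuspForm (Gamma0 N) 2} (hH : H ∈ EC N (↑S : Set ℕ) Sig χ) :
    levelIncl (Dvd.intro p rfl : N ∣ N * p) 2 H ∈ EC (N * p) (↑S : Set ℕ) Sig (χ.comp rest) := by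
  obtain ⟨h1, h2⟩ := hH
  refine ⟨fun ℓ hℓ hℓN' hℓS => ?_, fun r hr hrN' => ?_⟩
  · have hℓN : ¬ ℓ ∣ N := fun hd => hℓN' (Dvd.dvd.mul_right hd p)
    rw [heckeTLin_levelIncl _ 2 hℓ hℓN' hℓN, h1 ℓ hℓ hℓN hℓS, map_smul, RingHom.comp_apply,
      h.hrest ℓ hℓ hℓN' hℓS hℓN]
  · have hrN : r ∣ N := phyp_dvd_of_mem_Sig h hr
    rw [heckeULin_levelIncl _ 2 hrN' hrN, h2 r hr hrN, map_zero]

end Incl

/-! ### The leaves -/

/-- Under `Stmt_PSTRUCT`, `a₁` is injective on `EC N`. -/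
theorem eq_zero_of_aOne (hPS : Stmt_PSTRUCT)
    {𝒪 : Type} [CommRing 𝒪] [IsDomain 𝒪] [IsDiscreteValuationRing 𝒪]
    [IsAdicComplete (maximalIdeal 𝒪) 𝒪] [Finite (ResidueField 𝒪)] [CharZero 𝒪]
    {p : ℕ} [Fact p.Prime] {ρbar : ResidualGaloisRep (ResidueField 𝒪)} {Smin : Finset ℕ}
    {N₀ : ℕ} {Sig : Finset ℕ} {N : ℕ} [NeZero N] [NeZero (N * p)] {S : Finset ℕ}
    {θ : CuspForm.heckeAlgebra N 2 (↑S : Set ℕ) →+* ResidueField 𝒪}
    {x : CuspForm.heckeAlgebra N 2 (↑S : Set ℕ) →+* 𝒪}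
    {χ : CuspForm.heckeAlgebra N 2 (↑S : Set ℕ) →+* ℂ}
    {rest : CuspForm.heckeAlgebra (N * p) 2 (↑S : Set ℕ) →+*
      CuspForm.heckeAlgebra N 2 (↑S : Set ℕ)}
    (h : PHyp p ρbar Smin N₀ Sig N S θ x χ rest)
    {H : CuspForm (Gamma0 N) 2} (hH : H ∈ EC N (↑S : Set ℕ) Sig χ) (h1 : qCoeff H 1 = 0) :
    H = 0 := by
  obtain ⟨hsupp, -⟩ := hPS 𝒪 p ρbar Smin N₀ Sig N S θ x χ rest h _ (levelIncl_mem_EC h hH)
    (by rw [qCoeff_levelIncl]; exact h1)
  refine mainb N p (Fact.out) h.hpN H fun n hn => ?_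
  have := hsupp n hn
  rwa [qCoeff_levelIncl] at this

/-- **P-MULT1U**. -/
theorem pmult1u_of : Stmt_PMULT1U_of := by
  intro hPS 𝒪 _ _ _ _ _ _ p _ ρbar Smin N₀ Sig N _ _ S θ x χ rest h hd c
  have hp : p.Prime := Fact.out
  -- `a₁` is injective on the eigenspace
  let φ : ↥(ECU (N * p) (↑S : Set ℕ) Sig (χ.comp rest) hd c) →ₗ[ℂ] ℂ :=
    (aOne (N * p)).comp (Submodule.subtype _)
  have hφ : Function.Injective φ := by
    rw [← LinearMap.ker_eq_bot, LinearMap.ker_eq_bot']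
    rintro ⟨f, hfE, hfU⟩ hf0
    have hf1 : qCoeff f 1 = 0 := hf0
    apply Subtype.ext
    show f = 0
    obtain ⟨hsupp, -⟩ := hPS 𝒪 p ρbar Smin N₀ Sig N S θ x χ rest h f hfE hf1
    have hU : ∀ n : ℕ, qCoeff f (n * p) = c * qCoeff f n := by
      intro n
      rw [← qCoeff_smul, ← hfU, Fermat.Agent.S49.qCoeff_heckeULin hp.ne_zero hd]
    apply cuspForm_eq_zero_of_qCoeff
    intro n
    induction n using Nat.strong_induction_on with
    | _ n ih =>
      by_cases hn : p ∣ n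
      · rcases Nat.eq_zero_or_pos n with rfl | hpos
        · exact qCoeff_at_zero f
        · obtain ⟨m, rfl⟩ := hn
          have hm : m < p * m := by
            have hm0 : 0 < m := Nat.pos_of_mul_pos_left hpos
            calc m = 1 * m := (one_mul m).symm
              _ < p * m := Nat.mul_lt_mul_of_pos_right hp.one_lt hm0
          rw [mul_comm p m, hU, ih m hm, mul_zero]
      · exact hsupp n hn
  have := LinearMap.finrank_le_finrank_of_injective hφ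
  simpa using this

/-- **P-QUAD**. -/
theorem pquad_of : Stmt_PQUAD_of := by
  intro hPS _ hNV 𝒪 _ _ _ _ _ _ p _ ρbar Smin N₀ Sig N _ _ S θ x χ rest h hd
  have hp : p.Prime := Fact.out
  have hpN : ¬ p ∣ N := h.hpN
  have hdvd : N ∣ N * p := Dvd.intro p rfl
  -- a normalised generator of `EC N`
  obtain ⟨G₀, hG₀, hG₀1⟩ : ∃ G₀ ∈ EC N (↑S : Set ℕ) Sig χ, qCoeff G₀ 1 = 1 := by
    have hne : EC N (↑S : Set ℕ) Sig χ ≠ ⊥ :=
      hNV N (↑S : Set ℕ) Sig χ fun r hr => ⟨(h.hG.hSig r hr).1, phyp_sq_dvd h hr⟩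
    obtain ⟨G, hG, hG0⟩ := Submodule.exists_mem_ne_zero_of_ne_bot hne
    have ha : qCoeff G 1 ≠ 0 := fun h0 => hG0 (eq_zero_of_aOne hPS h hG h0)
    refine ⟨(qCoeff G 1)⁻¹ • G, Submodule.smul_mem _ _ hG, ?_⟩
    rw [qCoeff_smul, inv_mul_cancel₀ ha]
  -- every element of `EC N` is a multiple of `G₀`
  have hline : ∀ H ∈ EC N (↑S : Set ℕ) Sig χ, H = qCoeff H 1 • G₀ := by
    intro H hH
    have h0 : H - qCoeff H 1 • G₀ = 0 := by
      refine eq_zero_of_aOne hPS h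
        (Submodule.sub_mem _ hH (Submodule.smul_mem _ _ hG₀)) ?_
      rw [qCoeff_sub, qCoeff_smul, hG₀1, mul_one, sub_self]
    exact sub_eq_zero.1 h0
  -- `T_p` on `EC N`
  have hTG : CuspForm.heckeTLin 2 hp hpN G₀ ∈ EC N (↑S : Set ℕ) Sig χ := by
    obtain ⟨h1, h2⟩ := hG₀
    refine ⟨fun ℓ hℓ hℓN hℓS => ?_, fun r hr hrN => ?_⟩
    · have hc := (CuspForm.heckeTLin_comm 2 hℓ hℓN hp hpN).eq
      have := congrArg (fun T : Module.End ℂ (CuspForm (Gamma0 N) 2) => T G₀) hc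
      simp only [Module.End.mul_apply] at this
      rw [this, h1 ℓ hℓ hℓN hℓS, map_smul]
    · have hc := (CuspForm.heckeTLin_heckeULin_comm 2 hp hpN hrN).eq
      have := congrArg (fun T : Module.End ℂ (CuspForm (Gamma0 N) 2) => T G₀) hc
      simp only [Module.End.mul_apply] at this
      rw [← this, h2 r hr hrN, map_zero]
  set a : ℂ := qCoeff (CuspForm.heckeTLin 2 hp hpN G₀) 1 with ha
  have hTa : CuspForm.heckeTLin 2 hp hpN G₀ = a • G₀ := hline _ hTG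
  have hG₀ne : G₀ ≠ 0 := by
    intro h0
    rw [h0, qCoeff_zero_form] at hG₀1
    exact zero_ne_one hG₀1
  -- integrality
  have haint : IsIntegral ℤ a := by
    have : Module.Finite ℤ (CuspForm.heckeAlgebra N 2 (∅ : Set ℕ)) :=
      Fermat.Agent.S22.result N 2 ∅
    have hint : IsIntegral ℤ
        (CuspForm.heckeAlgebra.T hp hpN (Set.notMem_empty p) : CuspForm.heckeAlgebra N 2 ∅) :=
      IsIntegral.of_finite ℤ _
    obtain ⟨P, hP, hP0⟩ := hint
    refine ⟨P, hP, ?_⟩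
    have h1 : Polynomial.aeval (CuspForm.heckeTLin 2 hp hpN) P = 0 := by
      have := congrArg (CuspForm.heckeAlgebra N 2 (∅ : Set ℕ)).val
        ((Polynomial.aeval_def _ P).trans hP0)
      rw [← Polynomial.aeval_algHom_apply, map_zero] at this
      exact this
    have h2 : Polynomial.aeval (CuspForm.heckeTLin 2 hp hpN) (P.map (algebraMap ℤ ℂ)) G₀
        = (P.map (algebraMap ℤ ℂ)).eval a • G₀ :=
      Module.End.aeval_apply_of_mem_apply_eq_smul hTa
    rw [Polynomial.aeval_map_algebraMap, h1, LinearMap.zero_apply] at h2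
    have h3 : (P.map (algebraMap ℤ ℂ)).eval a = 0 :=
      (smul_eq_zero.1 h2.symm).resolve_right hG₀ne
    rwa [Polynomial.eval_map] at h3
  refine ⟨a, haint, fun f hf => ?_⟩
  -- the coefficients of `G₀`
  have hg : ∀ n : ℕ, qCoeff G₀ (n * p) + (if p ∣ n then (p : ℂ) * qCoeff G₀ (n / p) else 0)
      = a * qCoeff G₀ n := by
    intro n
    have := Fermat.Agent.S49.qCoeff_heckeTLin hp hpN G₀ n
    rw [hTa, qCoeff_smul] at this
    rw [this]
    norm_num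
  -- decomposition of `f`
  set α : ℂ := qCoeff f 1 with hα
  set f₁ : CuspForm (Gamma0 (N * p)) 2 := f - α • levelIncl hdvd 2 G₀ with hf₁
  have hf₁E : f₁ ∈ EC (N * p) (↑S : Set ℕ) Sig (χ.comp rest) :=
    Submodule.sub_mem _ hf (Submodule.smul_mem _ _ (levelIncl_mem_EC h hG₀))
  have hf₁1 : qCoeff f₁ 1 = 0 := by
    rw [hf₁, qCoeff_sub, qCoeff_smul, qCoeff_levelIncl, hG₀1, mul_one, sub_self]
  obtain ⟨hsupp, G, hGE, hGf⟩ := hPS 𝒪 p ρbar Smin N₀ Sig N S θ x χ rest h f₁ hf₁E hf₁1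
  set b : ℂ := qCoeff G 1 with hb
  have hGb : ∀ n : ℕ, qCoeff f₁ (p * n) = b * qCoeff G₀ n := by
    intro n
    rw [← hGf n, ← qCoeff_smul, ← hline G hGE]
  have hfn : ∀ n : ℕ, qCoeff f n = qCoeff f₁ n + α * qCoeff G₀ n := by
    intro n
    rw [hf₁, qCoeff_sub, qCoeff_smul, qCoeff_levelIncl]
    ring
  apply cuspForm_eq_zero_of_qCoeff
  intro n
  rw [qCoeff_add, qCoeff_sub, qCoeff_smul, qCoeff_smul,
    Fermat.Agent.S49.qCoeff_heckeULin hp.ne_zero hd,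
    Fermat.Agent.S49.qCoeff_heckeULin hp.ne_zero hd,
    Fermat.Agent.S49.qCoeff_heckeULin hp.ne_zero hd, hfn (n * p * p), hfn (n * p), hfn n]
  have e1 : qCoeff f₁ (n * p * p) = b * qCoeff G₀ (n * p) := by
    rw [mul_comm (n * p) p, hGb]
  have e2 : qCoeff f₁ (n * p) = b * qCoeff G₀ n := by
    rw [mul_comm n p, hGb]
  have e3 : qCoeff G₀ (n * p * p) = a * qCoeff G₀ (n * p) - (p : ℂ) * qCoeff G₀ n := by
    have := hg (n * p)
    rw [if_pos (Dvd.intro_left n rfl), Nat.mul_div_cancel n hp.pos] at this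
    rw [← this]
    ring
  have e4 : qCoeff G₀ (n * p) = a * qCoeff G₀ n -
      (if p ∣ n then (p : ℂ) * qCoeff G₀ (n / p) else 0) := by
    rw [← hg n]
    ring
  have e5 : qCoeff f₁ n = if p ∣ n then b * qCoeff G₀ (n / p) else 0 := by
    by_cases hn : p ∣ n
    · rw [if_pos hn]
      obtain ⟨m, rfl⟩ := hn
      rw [hGb, Nat.mul_div_cancel_left m hp.pos]
    · rw [if_neg hn, hsupp n hn]
  rw [e1, e2, e3, e5, e4]
  by_cases hn : p ∣ n
  · simp only [if_pos hn]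
    ring
  · simp only [if_neg hn]
    ring

end Fermat.Agent.S59.NonMin.Geom.Rank.H56

end

end
-- ==== END Fermat.Agent.S59.NonMin.Geom.Rank.H56_PQuad

-- ==== BEGIN Fermat.Agent.S59.NonMin.Geom.Rank.H75_NonVanDone
section

/-!
# S59 / RT-NONMIN / NMGEOM / RANK, leaf NONVAN: unconditional (helper75)

`stmt_NONVAN : Stmt_NONVAN`, from `H75.nonvan_of` and helper25's `H25.stmt_DEPL`.
-/

set_option autoImplicit false

namespace Fermat.Agent.S59.NonMin.Geom.Rank.H75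

/-- **NONVAN**, unconditional. -/
theorem stmt_NONVAN : Fermat.Agent.S59.NonMin.Geom.Rank.Stmt_NONVAN :=
  nonvan_of Fermat.Agent.S59.NonMin.Geom.Rank.H25.stmt_DEPL

end Fermat.Agent.S59.NonMin.Geom.Rank.H75

end
-- ==== END Fermat.Agent.S59.NonMin.Geom.Rank.H75_NonVanDone
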