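-- GENERATED (merged mirror, NOTES/tools/trim/merge3_helper67.py): 18 modules of the originals, bodies verbatim.
import Mathlib
import Fermat.Agent.Zm.S59_L02_000
import Fermat.Agent.Zm.S59_L02_002
import Fermat.Agent.Zm.S33_L02_003
import Fermat.Agent.Zm.S35_L03_001
import Fermat.Agent.Zm.S48_L01_000
import Fermat.Agent.Zm.S35_L02_001
import Fermat.Agent.Zm.S59_L01_003
import Fermat.Agent.Zm.S59_L02_003
import Fermat.Agent.Zm.S44_L01_003
import Fermat.Agent.Zm.S36_L13_000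
import Fermat.Agent.Zm.S35_L11_001
import Fermat.Agent.Zm.S59_L02_004
import Fermat.Agent.Zm.S43_L03_002
import Fermat.Agent.Zm.S36_L18_000
import Fermat.Agent.Zm.S36_L14_001
import Fermat.Agent.Zm.S36_L15_001
import Fermat.Agent.Zm.S36_L15_000
import Fermat.Agent.Zm.S43_L02_002
import Fermat.Agent.Zm.S36_L09_001
import Fermat.Agent.Zm.S43_L12_000
import Fermat.Agent.Zm.S43_L06_002
import Fermat.Agent.Zm.S59_L01_004

-- ==== BEGIN Fermat.Agent.S27.Char0.Lift.H68_SolveDefs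
section

/-!
# S27 LIFT, leaf SOLVE (helper68): sub-leaves

`Stmt_Solve` is proved in `H68_Solve.lean` from the pure algebra of
`Fermat/Agent/S27/Lift/H68_*.lean` (multivariate Hensel `solveAlg`, Jacobi's formula, the
interpolation lemma), the Gauss-valuation toolkit `S27/REDu` and the following sub-leaves.

* **POLY-CRIT** (`Stmt_PolyCrit`, on `F / K` only): an element of `K(x)` without poles at the
  finite places of `F`, with `ord_P y ≥ M ord_P x` at the poles of `x`, is a polynomial of degree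
  `≤ M` in `x`.
* **NORM-ORD** (`Stmt_NormOrd`, on `F / K` only): the orders of `Dfin(x) · N_{F/K(x)}(h)` for
  `h ∈ L(n E')`.
* **RESID-ORD** (`Stmt_ResidOrd`): `Dfin(x)` is a Gauss unit and
  `rd(Dfin)(xt) · N_{Ft/k(xt)}(ht)` vanishes to order `≥ n` at the points of `A`.
* **ORD-ROOT** (`Stmt_OrdRoot`, on `Ft / k` only): the order of a polynomial in `xt` at a simple
  zero of `xt - α` bounds the multiplicity of the root `α`.
* **JAC-CONST** (`Stmt_JacConst`, on `Ft / k` only, from TRACEPOLE): if `dh ∈ L(n Et')` and the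
  trace of `dh / ht` has at most simple poles at the points of `A`, then `dh` is a constant
  multiple of `ht`.
This file contains no unproved statement.
-/

set_option autoImplicit false

noncomputable section

open AlgebraicCurve IntermediateField

namespace Fermat.Agent.S27.Char0.Lift.Solve

open Fermat.Agent.RED.H17 Fermat.Agent.S27.Char0 Fermat.Agent.S27.Char0.Lift

attribute [local instance] Classical.propDecidable

local notation "L" => riemannRochSpace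

universe u v u' v'

section Setting

variable {K : Type u} {F : Type v} [Field K] [Field F] [Algebra K F]

/-- The polynomial `Dfin(x)` (as an element of `F`), without reference to the reduction. -/
def dfinX (x : F) (n : ℕ) (E' : Divisor K F) (b : Place K F → K) : F :=
  ∏ P ∈ E'.support.filter (fun P => 0 ≤ P.ord x),
    (x - algebraMap K F (b P)) ^ (n * (E' P).toNat)

theorem dfin_eq_dfinX {k : Type u'} {Ft : Type v'} [Field k] [Field Ft] [Algebra k Ft]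
    (G : GoodRed K F k Ft) (n : ℕ) (E' : Divisor K F) (b : Place K F → K) :
    dfin G n E' b = dfinX G.x n E' b := rfl

end Setting

/-- **POLY-CRIT**. -/
def Stmt_PolyCrit : Prop :=
  ∀ (K : Type u) (F : Type v) [Field K] [Field F] [Algebra K F] [IsAlgClosed K],
    FFHyp K F → ∀ x : F, Transcendental K x → Module.Finite K⟮x⟯ F →
    ∀ (y : F) (M : ℕ), y ∈ K⟮x⟯ →
      (∀ P : Place K F, 0 ≤ P.ord x → 0 ≤ P.ord y) →
      (∀ P : Place K F, P.ord x < 0 → (M : ℤ) * P.ord x ≤ P.ord y) →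
      ∃ p : Polynomial K, p.natDegree ≤ M ∧ y = Polynomial.aeval x p

/-- **NORM-ORD**. -/
def Stmt_NormOrd : Prop :=
  ∀ (K : Type u) (F : Type v) [Field K] [Field F] [Algebra K F] [IsAlgClosed K],
    FFHyp K F → ∀ x : F, Transcendental K x → Module.Finite K⟮x⟯ F →
    ∀ (n : ℕ) (E' : Divisor K F) (b : Place K F → K), (∀ P, 0 ≤ E' P) →
      (∀ P ∈ E'.support, 0 ≤ P.ord x → 0 < P.ord (x - algebraMap K F (b P))) →
      ∀ h ∈ L ((n : ℤ) • E'),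
        (∀ P : Place K F, 0 ≤ P.ord x →
          0 ≤ P.ord (dfinX x n E' b * algebraMap K⟮x⟯ F (Algebra.norm K⟮x⟯ h))) ∧
        (∀ P : Place K F, P.ord x < 0 →
          ((n : ℤ) * Divisor.degree E') * P.ord x ≤
            P.ord (dfinX x n E' b * algebraMap K⟮x⟯ F (Algebra.norm K⟮x⟯ h)))

/-- **RESID-ORD**. -/
def Stmt_ResidOrd : Prop :=
  ∀ (K : Type u) (F : Type v) (k : Type u') (Ft : Type v') [Field K] [Field F] [Algebra K F]
    [Field k] [Field Ft] [Algebra k Ft] [IsAlgClosed K] [IsAlgClosed k]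
    (G : GoodRed K F k Ft), FFHyp K F → FFHyp k Ft →
    ∀ (g n : ℕ) (E : Divisor k Ft) (Gd : GenericData k Ft (G.S.rd G.x) g n E)
      (N : ℕ) (Ld : LatticeData G n Gd.Et' N),
      G.S.IsGU (dfin G n Ld.E' Ld.b) ∧
      ∀ Q ∈ Gd.A, (n : ℤ) ≤ Q.ord (G.S.rd (dfin G n Ld.E' Ld.b) *
        algebraMap k⟮G.S.rd G.x⟯ Ft (Algebra.norm k⟮G.S.rd G.x⟯ Gd.ht))

/-- **ORD-ROOT**. -/
def Stmt_OrdRoot : Prop :=
  ∀ (k : Type u') (Ft : Type v') [Field k] [Field Ft] [Algebra k Ft] (xt : Ft),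
    Transcendental k xt → ∀ (Q : Place k Ft) (α : k), Q.ord (xt - algebraMap k Ft α) = 1 →
    ∀ (p : Polynomial k) (m : ℕ), p ≠ 0 → (m : ℤ) ≤ Q.ord (Polynomial.aeval xt p) →
      (Polynomial.X - Polynomial.C α) ^ m ∣ p

/-- **JAC-CONST**. -/
def Stmt_JacConst : Prop :=
  ∀ (k : Type u') (Ft : Type v') [Field k] [Field Ft] [Algebra k Ft] [IsAlgClosed k],
    FFHyp k Ft → ∀ xt : Ft, Transcendental k xt → Module.Finite k⟮xt⟯ Ft →
    Algebra.IsSeparable k⟮xt⟯ Ft →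
    ∀ (g n : ℕ) (E : Divisor k Ft) (Gd : GenericData k Ft xt g n E) (dh : Ft),
      dh ∈ L ((n : ℤ) • Gd.Et') →
      (∀ Q ∈ Gd.A, -1 ≤ Q.ord (algebraMap k⟮xt⟯ Ft (Algebra.trace k⟮xt⟯ Ft (dh * Gd.ht⁻¹)))) →
      ∃ γ : k, dh = algebraMap k Ft γ * Gd.ht

end Fermat.Agent.S27.Char0.Lift.Solve

end
end
-- ==== END Fermat.Agent.S27.Char0.Lift.H68_SolveDefs

-- ==== BEGIN Fermat.Agent.S59.LGC.H5_Conj
section

/-!
# S59, case C, LGC-p, leaf CONJ (helper5)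

`lgcpt_of_padicPlace : Stmt_LGCpt0 → CaseC.Geom.Stmt_LGCpt`.

All places over `p` are conjugate: `primeUnder P = τ • primeUnder (padicPlace p)`.
`ℒ' := ρ(τ)⁻¹ ℒ` is an ordinary line at `padicPlace p`.  For ANY Frobenius element `φ` at
`padicPlace p` (`Lib.FrobExists.exists_isFrobeniusAt`), `(τ φ τ⁻¹)⁻¹ g` lies in the inertia group
of `P`, and inertia acts trivially on `V / ℒ`, so `φ` has the same eigenvalue `z` on `V / ℒ'`.

* `frob_conj_mem_inertia` : Frobenius elements at conjugate places are conjugate modulo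
  inertia, with the SAME conjugating element as for the primes.
* `ordLineConj` : the conjugate ordinary line.
* `isQuotEigen_conj`.
* `lgcpt_of_padicPlace`.

No `sorry`.
-/

set_option autoImplicit false
set_option linter.unusedSectionVars false
set_option linter.style.haveILetI false
set_option linter.unusedVariables false

open scoped Pointwise

noncomputable section

namespace Fermat.Agent.S59.LGC.H5

open Fermat.Agent.S59 Fermat.Agent.S59.CaseC Fermat.Agent.S59.LGC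
open Fermat.Agent.Lib.FrobIntegers Fermat.Agent.Lib.FrobExists Fermat.Agent.Lib.InertiaBridge
open Fermat.Agent.Lib.InertiaConj

attribute [local instance] qbar_isAlgebraic qbar_isAlgClosure qbar_isGalois zbar_isInvariant
  zbarTopologicalSpace zbar_discreteTopology zbar_continuousSMul

/-- The Galois group of `ℚ`. -/
local notation "Γℚ" => AlgebraicClosure ℚ ≃ₐ[ℚ] AlgebraicClosure ℚ

/-- The Frobenius congruence on algebraic integers. -/
theorem frob_sub_pow_mem_primeUnder' (ℓ : ℕ) (A : ValuationSubring (AlgebraicClosure ℚ)) (φ : Γℚ)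
    (hφ : A.IsFrobeniusAt φ ℓ) (b : ZBar) : φ • b - b ^ ℓ ∈ primeUnder A := by
  rw [mem_primeUnder]
  have hb : (b : AlgebraicClosure ℚ) ∈ A :=
    (A.valuation_le_one_iff _).1 (valuation_le_one_of_isIntegral A _ b.2)
  exact Fermat.Agent.Lib.FrobDensity.H97.valuation_frob_sub_pow_lt_one A φ ℓ hφ _ hb

/-- Frobenius elements at places over the same prime are conjugate modulo inertia, with the same
conjugating element as for the primes. -/
theorem frob_conj_mem_inertia (ℓ : ℕ) (hℓ : ℓ.Prime)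
    (A P : ValuationSubring (AlgebraicClosure ℚ)) (hA : A.LiesOverPrime ℓ)
    (hP : P.LiesOverPrime ℓ) (g : Γℚ) (hg : primeUnder P = g • primeUnder A)
    (φ φ' : Γℚ) (hφ : A.IsFrobeniusAt φ ℓ) (hφ' : P.IsFrobeniusAt φ' ℓ) :
    (g * φ * g⁻¹)⁻¹ * φ' ∈ P.inertiaSubgroupIn ℚ := by
  have hφstab : φ • primeUnder A = primeUnder A :=
    (mem_decompositionSubgroup_iff ℓ hℓ A hA φ).1 hφ.mem_decompositionSubgroup
  set ψ : Γℚ := g * φ * g⁻¹ with hψ
  have hψstab : ψ • primeUnder P = primeUnder P := by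
    rw [hg, hψ, mul_smul, mul_smul, inv_smul_smul, hφstab]
  have hψinv : ψ⁻¹ • primeUnder P = primeUnder P := by
    conv_lhs => rw [← hψstab]
    rw [inv_smul_smul]
  rw [mem_inertiaSubgroupIn_iff ℓ hℓ P hP]
  intro b
  have h1 : φ' • b - b ^ ℓ ∈ primeUnder P := frob_sub_pow_mem_primeUnder' ℓ P φ' hφ' b
  have h2 : ψ • b - b ^ ℓ ∈ primeUnder P := by
    have h3 : φ • (g⁻¹ • b) - (g⁻¹ • b) ^ ℓ ∈ primeUnder A :=
      frob_sub_pow_mem_primeUnder' ℓ A φ hφ _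
    have h4 : g • (φ • (g⁻¹ • b) - (g⁻¹ • b) ^ ℓ) ∈ g • primeUnder A :=
      Ideal.smul_mem_pointwise_smul_iff.2 h3
    rw [← hg] at h4
    have h5 : g • (φ • (g⁻¹ • b) - (g⁻¹ • b) ^ ℓ) = ψ • b - b ^ ℓ := by
      rw [smul_sub, smul_pow', smul_inv_smul, hψ, mul_smul, mul_smul]
    rw [h5] at h4
    exact h4
  have h6 : φ' • b - ψ • b ∈ primeUnder P := by
    have := (primeUnder P).sub_mem h1 h2
    rwa [sub_sub_sub_cancel_right] at this
  have h7 : ψ⁻¹ • (φ' • b - ψ • b) ∈ ψ⁻¹ • primeUnder P :=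
    Ideal.smul_mem_pointwise_smul_iff.2 h6
  rw [hψinv, smul_sub, inv_smul_smul, ← mul_smul] at h7
  exact h7

section Line

variable {A : Type} [CommRing A] [IsLocalRing A] (ρ : GaloisRepAdic A)

theorem rho_mul_apply (σ τ : Γℚ) (v : ρ.V) : ρ.ρ (σ * τ) v = ρ.ρ σ (ρ.ρ τ v) := by
  rw [map_mul]; rfl

theorem rho_inv_apply (τ : Γℚ) (v : ρ.V) : ρ.ρ τ⁻¹ (ρ.ρ τ v) = v := by
  rw [← rho_mul_apply, inv_mul_cancel, map_one]; rfl

theorem rho_apply_inv (τ : Γℚ) (v : ρ.V) : ρ.ρ τ (ρ.ρ τ⁻¹ v) = v := by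
  rw [← rho_mul_apply, mul_inv_cancel, map_one]; rfl

/-- `ρ(τ)` as a linear equivalence. -/
def rhoEquiv (τ : Γℚ) : ρ.V ≃ₗ[A] ρ.V :=
  LinearEquiv.ofLinearMap (ρ.ρ τ) (ρ.ρ τ⁻¹)
    (LinearMap.ext fun v => rho_apply_inv ρ τ v) (LinearMap.ext fun v => rho_inv_apply ρ τ v)

theorem rhoEquiv_apply (τ : Γℚ) (v : ρ.V) : rhoEquiv ρ τ v = ρ.ρ τ v := rfl

theorem rhoEquiv_symm_apply (τ : Γℚ) (v : ρ.V) : (rhoEquiv ρ τ).symm v = ρ.ρ τ⁻¹ v := rfl

theorem rho_conj_apply (τ σ : Γℚ) (v : ρ.V) :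
    ρ.ρ τ (ρ.ρ σ v) = ρ.ρ (τ * σ * τ⁻¹) (ρ.ρ τ v) := by
  rw [rho_mul_apply, rho_mul_apply, rho_inv_apply]

/-- **The conjugate ordinary line**: if `primeUnder P = τ • primeUnder P₀` and `ℒ` is an
ordinary line at `P`, then `ρ(τ)⁻¹ ℒ` is an ordinary line at `P₀`. -/
def ordLineConj (ℓ : ℕ) (hℓ : ℓ.Prime) (P₀ P : ValuationSubring (AlgebraicClosure ℚ))
    (hP₀ : P₀.LiesOverPrime ℓ) (hP : P.LiesOverPrime ℓ) (τ : Γℚ)
    (hτ : primeUnder P = τ • primeUnder P₀) (ℒ : OrdLine ρ P) : OrdLine ρ P₀ where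
  L := ℒ.L.comap (ρ.ρ τ)
  isLine := by
    obtain ⟨b, hb⟩ := ℒ.isLine
    refine ⟨b.map (rhoEquiv ρ τ).symm, ?_⟩
    have h1 : ℒ.L.comap (ρ.ρ τ) = ℒ.L.map ((rhoEquiv ρ τ).symm : ρ.V →ₗ[A] ρ.V) := by
      ext v
      rw [Submodule.mem_comap, Submodule.mem_map]
      constructor
      · intro hv
        exact ⟨ρ.ρ τ v, hv, rho_inv_apply ρ τ v⟩
      · rintro ⟨w, hw, rfl⟩
        show ρ.ρ τ (ρ.ρ τ⁻¹ w) ∈ ℒ.L
        rw [rho_apply_inv]
        exact hw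
    rw [h1, hb, Submodule.map_span, Set.image_singleton]
    rfl
  stable := by
    intro σ hσ v hv
    rw [Submodule.mem_comap] at hv ⊢
    rw [rho_conj_apply]
    refine ℒ.stable _ ?_ _ hv
    rw [Fermat.Agent.S33.H86.mem_decomposition_conj ℓ hℓ P₀ P hP₀ hP τ hτ]
    have : τ⁻¹ * (τ * σ * τ⁻¹) * τ = σ := by group
    rw [this]
    exact hσ
  inertia := by
    intro σ hσ v
    rw [Submodule.mem_comap, map_sub, rho_conj_apply]
    refine ℒ.inertia _ ?_ _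
    rw [Fermat.Agent.S33.H86.mem_inertia_conj ℓ hℓ P₀ P hP₀ hP τ hτ]
    have : τ⁻¹ * (τ * σ * τ⁻¹) * τ = σ := by group
    rw [this]
    exact hσ

/-- An element which differs from `g` by inertia has the same eigenvalue on the quotient. -/
theorem isQuotEigen_of_inertia {P : ValuationSubring (AlgebraicClosure ℚ)} (ℒ : OrdLine ρ P)
    (g ψ : Γℚ) (hg : g ∈ P.decompositionSubgroup ℚ) (hi : g⁻¹ * ψ ∈ P.inertiaSubgroupIn ℚ)
    (z : A) (hz : ℒ.IsQuotEigen g z) (w : ρ.V) : ρ.ρ ψ w - z • w ∈ ℒ.L := by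
  have e : ρ.ρ ψ w = ρ.ρ g (ρ.ρ (g⁻¹ * ψ) w) := by
    rw [← rho_mul_apply, mul_inv_cancel_left]
  have h1 : ρ.ρ ψ w - z • w =
      ρ.ρ g (ρ.ρ (g⁻¹ * ψ) w - w) + (ρ.ρ g w - z • w) := by
    rw [map_sub, ← e]
    abel
  rw [h1]
  exact ℒ.L.add_mem (ℒ.stable g hg _ (ℒ.inertia _ hi w)) (hz w)

/-- The eigenvalue on the quotient is the same for every Frobenius element at the conjugate
place. -/
theorem isQuotEigen_conj (ℓ : ℕ) (hℓ : ℓ.Prime) (P₀ P : ValuationSubring (AlgebraicClosure ℚ))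
    (hP₀ : P₀.LiesOverPrime ℓ) (hP : P.LiesOverPrime ℓ) (τ : Γℚ)
    (hτ : primeUnder P = τ • primeUnder P₀) (ℒ : OrdLine ρ P)
    (g φ : Γℚ) (hg : P.IsFrobeniusAt g ℓ) (hφ : P₀.IsFrobeniusAt φ ℓ) (z : A)
    (hz : ℒ.IsQuotEigen g z) :
    (ordLineConj ρ ℓ hℓ P₀ P hP₀ hP τ hτ ℒ).IsQuotEigen φ z := by
  intro v
  show ρ.ρ φ v - z • v ∈ ℒ.L.comap (ρ.ρ τ)
  rw [Submodule.mem_comap, map_sub, map_smul, rho_conj_apply]
  have hi : (τ * φ * τ⁻¹)⁻¹ * g ∈ P.inertiaSubgroupIn ℚ :=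
    frob_conj_mem_inertia ℓ hℓ P₀ P hP₀ hP τ hτ φ g hφ hg
  have hi' : g⁻¹ * (τ * φ * τ⁻¹) ∈ P.inertiaSubgroupIn ℚ := by
    have := inv_mem hi
    rwa [mul_inv_rev, inv_inv] at this
  exact isQuotEigen_of_inertia ρ ℒ g _ hg.mem_decompositionSubgroup hi' z hz _

end Line

/-- **CONJ**: the statement at `padicPlace p` gives the statement at every place over `p`. -/
theorem lgcpt_of_padicPlace (h0 : Stmt_LGCpt0) : CaseC.Geom.Stmt_LGCpt := by
  intro 𝒪 _ _ _ _ _ _ p _ hp2 hp𝔪 N _ S hpS' hNS hp hpN hpS xt ρ hchar hdet hirr P hP ℒ g hg z hz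
  have hP₀ : (padicPlace p).LiesOverPrime p := Fermat.Agent.S33.H86.padicPlace_liesOverPrime
  obtain ⟨τ, hτ⟩ := exists_smul_primeUnder p hp (padicPlace p) P hP₀ hP
  obtain ⟨φ, hφ⟩ := exists_isFrobeniusAt p hp (padicPlace p) hP₀
  exact h0 𝒪 p hp2 hp𝔪 N S hpS' hNS hp hpN hpS xt ρ hchar hdet hirr
    (ordLineConj ρ p hp (padicPlace p) P hP₀ hP τ hτ ℒ) φ hφ z
    (isQuotEigen_conj ρ p hp (padicPlace p) P hP₀ hP τ hτ ℒ g φ hg hφ z hz)

end Fermat.Agent.S59.LGC.H5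

end
end
-- ==== END Fermat.Agent.S59.LGC.H5_Conj

-- ==== BEGIN Fermat.Agent.S59.LL.SQ.H40_PullAsm
section

/-!
# S59, package LL / SQ, leaf PB-ASM (helper40): eigenvectors in the span of two pull-backs

* `eig_of_span` : `π₁, π₂ : J₀(M) → J₀(N)` additive, commuting with the good Hecke operators;
  if a nonzero eigenvector `x ∈ J₀(N)[p]` is `π₁ y + π₂ y'` with `y, y' ∈ J₀(M)[p]`, its system of
  eigenvalues occurs at level `M` (abstract algebra `exists_eigen_of_map_eigen` + SUPP-CONV).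
* `HasSqSpanAt`, `Stmt_SqSpan` : the GEOMETRIC content of package SQ: a nonzero `q`-new,
  inertia-fixed, non-Eisenstein eigenvector of `J₀(M q)[p]`, `q ∥ M`, lies in
  `α^* J₀(M)[p] + β^* J₀(M)[p]`.
* `sqNew_of_span : Stmt_SqSpan → Stmt_SqNew`.
-/

set_option autoImplicit false
set_option linter.style.haveILetI false
set_option synthInstance.maxHeartbeats 400000
set_option maxHeartbeats 1000000

noncomputable section

open AlgebraicCurve ModularCurve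

namespace Fermat.Agent.S59.LL.SQ.H40

open Fermat.Agent.S44 Fermat.Agent.S59.LL Fermat.Agent.S35.H89

/-- **Eigenvectors in the span of two equivariant maps come from the lower level.** -/
theorem eig_of_span (p : ℕ) (hp : p.Prime) (hp2 : p ≠ 2) (M N : ℕ) [NeZero M] [NeZero N]
    (π₁ π₂ : JZero M →+ JZero N)
    (hπ₁ : ∀ ℓ : Nat.Primes, ¬ (ℓ : ℕ) ∣ N → ¬ (ℓ : ℕ) ∣ M → ∀ y : JZero M,
      π₁ (heckeOperatorBar M ℓ y) = heckeOperatorBar N ℓ (π₁ y))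
    (hπ₂ : ∀ ℓ : Nat.Primes, ¬ (ℓ : ℕ) ∣ N → ¬ (ℓ : ℕ) ∣ M → ∀ y : JZero M,
      π₂ (heckeOperatorBar M ℓ y) = heckeOperatorBar N ℓ (π₂ y))
    (hMN : ∀ ℓ : ℕ, ¬ ℓ ∣ N → ¬ ℓ ∣ M)
    (S : Finset ℕ) (t : ℕ → ℤ) (x : JZero N) (hx0 : x ≠ 0)
    (hxT : ∀ ℓ : Nat.Primes, (ℓ : ℕ) ∉ S → ¬ (ℓ : ℕ) ∣ N → (ℓ : ℕ) ≠ p →
      heckeOperatorBar N ℓ x = t ℓ • x)
    (y y' : JZero M) (hy : (p : ℤ) • y = 0) (hy' : (p : ℤ) • y' = 0)
    (hx : x = π₁ y + π₂ y') :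
    ∃ (g : CuspForm (CongruenceSubgroup.Gamma0 M) 2) (𝔪 : Ideal (integralClosure ℤ ℂ)),
      g.IsNormalizedEigenform ∧ 𝔪.IsMaximal ∧ (p : integralClosure ℤ ℂ) ∈ 𝔪 ∧
      ∀ ℓ : ℕ, ℓ.Prime → ℓ ∉ S → ¬ ℓ ∣ N → ℓ ≠ p →
        ∃ a : integralClosure ℤ ℂ, (a : ℂ) = ModularFormClass.qCoeff g ℓ ∧
          a - ((t ℓ : ℤ) : integralClosure ℤ ℂ) ∈ 𝔪 := by
  classical
  haveI : Fact p.Prime := ⟨hp⟩
  obtain ⟨⟨hfinJ, -, hTcomm, -⟩, -, -⟩ := stmt_TateModP p hp hp2 M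
  haveI : Finite (JTors M p) := hfinJ
  haveI : Module.Finite (ZMod p) (JTors M p) := Module.Finite.of_finite
  -- the index set of good primes
  let ι : Type := {ℓ : Nat.Primes // (ℓ : ℕ) ∉ S ∧ ¬ (ℓ : ℕ) ∣ N ∧ (ℓ : ℕ) ≠ p}
  let TY : ι → Module.End (ZMod p) (JTors M p × JTors M p) := fun i =>
    (heckeTors M p i.1).prodMap (heckeTors M p i.1)
  let TJ : ι → Module.End (ZMod p) (JTors N p) := fun i => heckeTors N p i.1
  have hcommM : ∀ i j : ι, heckeTors M p i.1 * heckeTors M p j.1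
      = heckeTors M p j.1 * heckeTors M p i.1 := by
    intro i j
    have h := hTcomm (i.1 : ℕ) (j.1 : ℕ)
    rw [jzModule.T_eq M p i.1.2 (hMN _ i.2.2.1), jzModule.T_eq M p j.1.2 (hMN _ j.2.2.1)] at h
    exact h
  have hcomm : ∀ i j, Commute (TY i) (TY j) := by
    intro i j
    apply LinearMap.ext
    rintro ⟨a, b⟩
    have h1 := LinearMap.congr_fun (hcommM i j) a
    have h2 := LinearMap.congr_fun (hcommM i j) b
    exact Prod.ext h1 h2
  -- the map `(a, b) ↦ π₁ a + π₂ b`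
  let φ₀ : JTors M p × JTors M p →+ JTors N p :=
    { toFun := fun ab => ⟨π₁ (ab.1 : JZero M) + π₂ (ab.2 : JZero M), by
        rw [Pic0.mem_torsion, zsmul_add, ← map_zsmul, ← map_zsmul,
          Pic0.mem_torsion.mp ab.1.property, Pic0.mem_torsion.mp ab.2.property, map_zero,
          map_zero, add_zero]⟩
      map_zero' := by
        apply Subtype.ext
        simp
      map_add' := fun ab cd => by
        apply Subtype.ext
        simp only [Prod.fst_add, Prod.snd_add, AddSubgroup.coe_add, map_add]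
        abel }
  let φ : JTors M p × JTors M p →ₗ[ZMod p] JTors N p := φ₀.toZModLinearMap p
  have hφ : ∀ i z, φ (TY i z) = TJ i (φ z) := by
    rintro i ⟨a, b⟩
    apply Subtype.ext
    show π₁ (heckeOperatorBar M i.1 (a : JZero M)) + π₂ (heckeOperatorBar M i.1 (b : JZero M))
      = heckeOperatorBar N i.1 (π₁ (a : JZero M) + π₂ (b : JZero M))
    rw [hπ₁ i.1 i.2.2.1 (hMN _ i.2.2.1), hπ₂ i.1 i.2.2.1 (hMN _ i.2.2.1), map_add]
  let y₀ : JTors M p × JTors M p :=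
    (⟨y, Pic0.mem_torsion.mpr hy⟩, ⟨y', Pic0.mem_torsion.mpr hy'⟩)
  have hφy : ((φ y₀ : JTors N p) : JZero N) = x := hx.symm
  have hφ0 : φ y₀ ≠ 0 := by
    intro h0
    apply hx0
    rw [← hφy, h0]
    rfl
  have hcoe_smul : ∀ (L : ℕ) [NeZero L] (k : ℤ) (v : JTors L p),
      (((((k : ℤ) : ZMod p) • v : JTors L p)) : JZero L) = k • (v : JZero L) := by
    intro L _ k v
    rw [Int.cast_smul_eq_zsmul]
    rfl
  have hxe : ∀ i : ι, TJ i (φ y₀) = ((t (i.1 : ℕ) : ℤ) : ZMod p) • φ y₀ := by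
    intro i
    apply Subtype.ext
    rw [hcoe_smul N, hφy]
    show heckeOperatorBar N i.1 ((φ y₀ : JTors N p) : JZero N) = _
    rw [hφy]
    exact hxT i.1 i.2.1 i.2.2.1 i.2.2.2
  obtain ⟨z, hz0, hz⟩ := exists_eigen_of_map_eigen TY TJ hcomm φ hφ
    (fun i : ι => ((t (i.1 : ℕ) : ℤ) : ZMod p)) y₀ hφ0 hxe
  -- a nonzero component of `z`
  obtain ⟨w, hw0, hw⟩ : ∃ w : JTors M p, w ≠ 0 ∧
      ∀ i : ι, heckeTors M p i.1 w = ((t (i.1 : ℕ) : ℤ) : ZMod p) • w := by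
    by_cases h1 : z.1 = 0
    · refine ⟨z.2, fun h2 => hz0 (Prod.ext h1 h2), fun i => ?_⟩
      exact congrArg Prod.snd (hz i)
    · exact ⟨z.1, h1, fun i => congrArg Prod.fst (hz i)⟩
  -- SUPP-CONV at level `M`
  set S' : Finset ℕ := insert p (S ∪ N.primeFactors) with hS'
  have hN0 : N ≠ 0 := NeZero.ne N
  have hw0' : (w : JZero M) ≠ 0 := fun h0 => hw0 (Subtype.ext h0)
  have hwp : (p : ℤ) • (w : JZero M) = 0 := Pic0.mem_torsion.mp w.property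
  obtain ⟨g, 𝔪, hg, h𝔪, hp𝔪, hc⟩ := suppConv p hp M S' t (w : JZero M) hw0' hwp (by
    intro ℓ hℓS' hℓM
    rw [hS', Finset.mem_insert, Finset.mem_union, Nat.mem_primeFactors] at hℓS'
    push Not at hℓS'
    obtain ⟨hℓp, hℓS, hℓN⟩ := hℓS'
    have hℓN' : ¬ (ℓ : ℕ) ∣ N := fun hd => hN0 (hℓN ℓ.2 hd)
    have h := hw ⟨ℓ, hℓS, hℓN', hℓp⟩
    have h2 := congrArg (fun v : JTors M p => (v : JZero M)) h
    simp only [hcoe_smul M] at h2
    exact h2)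
  refine ⟨g, 𝔪, hg, h𝔪, hp𝔪, fun ℓ hℓ hℓS hℓN hℓp => ?_⟩
  refine hc ℓ hℓ ?_ (hMN ℓ hℓN)
  rw [hS', Finset.mem_insert, Finset.mem_union, Nat.mem_primeFactors]
  push Not
  exact ⟨hℓp, hℓS, fun _ hd => absurd hd hℓN⟩

/-- **The geometric content of package SQ** at a place over `q`, level `M q`, `q ∥ M`: a nonzero
`q`-new `p`-torsion point, fixed by the inertia group of `A`, eigenvector of the good Hecke
operators with a non-Eisenstein system of eigenvalues, lies in `α^* J₀(M)[p] + β^* J₀(M)[p]`. -/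
def HasSqSpanAt (p M q : ℕ) [NeZero M] [NeZero q]
    (A : ValuationSubring (AlgebraicClosure ℚ)) : Prop :=
  ∀ (S : Finset ℕ) (t : ℕ → ℤ) (x : JZero (M * q)), x ≠ 0 → (p : ℤ) • x = 0 →
    IsQNew M q x →
    (∀ σ ∈ A.inertiaSubgroupIn ℚ, σ • x = x) →
    (∀ ℓ : Nat.Primes, (ℓ : ℕ) ∉ S → ¬ (ℓ : ℕ) ∣ M * q → (ℓ : ℕ) ≠ p →
      heckeOperatorBar (M * q) ℓ x = t ℓ • x) →
    (∃ ℓ : ℕ, ℓ.Prime ∧ ℓ ∉ S ∧ ¬ ℓ ∣ M * q ∧ ℓ ≠ p ∧
      ((t ℓ : ℤ) : ZMod p) ≠ 1 + (ℓ : ZMod p)) →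
    ∃ y y' : JZero M, (p : ℤ) • y = 0 ∧ (p : ℤ) • y' = 0 ∧
      x = alphaPull M q y + betaPull M q y'

/-- **Package SQ, geometric form.** -/
def Stmt_SqSpan : Prop :=
  ∀ (p : ℕ), p.Prime → p ≠ 2 → ∀ (M q : ℕ) [NeZero M] [NeZero q], q.Prime → q ≠ p →
    q ∣ M → ¬ q ^ 2 ∣ M →
    ∀ A : ValuationSubring (AlgebraicClosure ℚ), A.LiesOverPrime q → HasSqSpanAt p M q A

/-- **PB-ASM**: the span statement gives the package SQ for `q`-new points. -/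
theorem sqNew_of_span (h : Stmt_SqSpan) : Stmt_SqNew := by
  intro p hp hp2 M q _ _ hq hqp hqM hq2M A hA S t x hx0 hxp hnew hI hT hNE
  obtain ⟨y, y', hy, hy', hx⟩ := h p hp hp2 M q hq hqp hqM hq2M A hA S t x hx0 hxp hnew hI hT hNE
  exact eig_of_span p hp hp2 M (M * q) (alphaPull M q) (betaPull M q)
    (fun ℓ hℓ _ y => alphaPull_hecke M q ℓ hℓ y) (fun ℓ hℓ _ y => betaPull_hecke M q ℓ hℓ y)
    (fun ℓ hℓ hd => hℓ (hd.mul_right q)) S t x hx0 hT y y' hy hy' hx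

/-- **Package SQ from its geometric form.** -/
theorem sqQ_of_span (h : Stmt_SqSpan) : Stmt_SqQ := sqQ_of_new (sqNew_of_span h)

end Fermat.Agent.S59.LL.SQ.H40

end
end
-- ==== END Fermat.Agent.S59.LL.SQ.H40_PullAsm

-- ==== BEGIN Fermat.Agent.S59.LL.SQ.H56_StRankDMod
section
attribute [local instance 10000] SubalgebraClass.toAlgebra
attribute [local instance 10000] HahnSeries.powerSeriesAlgebra

/-!
# S59 / LL / SQ, leaf ST-RANK (d) (helper56): the component map at level `M q`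

`A` a valuation ring of `ℚ̄` over the prime `q`, `I = A.inertiaSubgroupIn ℚ`, level `M q`,
`S` a semistable Deuring datum of `F_{M q} · ℚ̄` whose two valuation rings are `V1 A q M` (Gauss)
and `V2 A q M a b hab hq` (`= V₁ ∘ w_q`) — for instance `S43.H91.modSSD` (`modSSD_c₁_V`,
`modSSD_c₂_V` are `rfl`) —, `L = L0 A (M q)` the inertia-fixed functions, `n > 0`.

* `intScale_mod : IntScale S (L0 A (M q)) q` (helper51's `IsLowVal`, helper82's value group);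
* `fixTors A (M q) n` : the inertia-fixed `n`-torsion `V^I` of `J₀(M q)`;
* `inGA_mem_fixTors` : the finite part lies in `V^I`;
* `stRankD` : **ST-RANK (d)**: `#V^I ≤ n · #G`, `G = {x | H69.InGA S L n x}`.

Inputs: `S36.H61.stmt_NUB0` (Hilbert 90), `H56.card_le_of_intScale` (the component map).
This file contains no unproved statement.
-/

set_option autoImplicit false
set_option linter.style.haveILetI false
set_option linter.unusedSectionVars false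
set_option synthInstance.maxHeartbeats 400000
set_option maxHeartbeats 1000000

noncomputable section

open ModularCurve AlgebraicCurve
open Fermat.Agent.S24 Fermat.Agent.BAD.H88 Fermat.Agent.S28 Fermat.Agent.S28.H73
open Fermat.Agent.RED.H73 Fermat.Agent.RED.H17 Fermat.Agent.S36.NU.H88
open Fermat.Agent.S36.NU.H23 Fermat.Agent.BAD Fermat.Agent.S36.NU.H82
open Fermat.Agent.S36.NU.H51 Fermat.Agent.S59.LL.SQ.H69

attribute [local instance] Classical.propDecidable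

namespace Fermat.Agent.S59.LL.SQ.H56

section Fix

variable (A : ValuationSubring Kbar) (N : ℕ)

/-- The inertia-fixed `n`-torsion of `J₀(N)`. -/
def fixTors (n : ℕ) : AddSubgroup (JZero N) where
  carrier := {y | n • y = 0 ∧ ∀ σ ∈ A.inertiaSubgroupIn ℚ, σ • y = y}
  zero_mem' := ⟨smul_zero _, fun σ _ => smul_zero σ⟩
  add_mem' := by
    rintro x y ⟨hx, hx'⟩ ⟨hy, hy'⟩
    exact ⟨by rw [nsmul_add, hx, hy, add_zero], fun σ hσ => by rw [smul_add, hx' σ hσ, hy' σ hσ]⟩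
  neg_mem' := by
    rintro x ⟨hx, hx'⟩
    exact ⟨by rw [neg_nsmul, hx, neg_zero], fun σ hσ => by rw [smul_neg, hx' σ hσ]⟩

theorem mem_fixTors {n : ℕ} {y : JZero N} :
    y ∈ fixTors A N n ↔ n • y = 0 ∧ ∀ σ ∈ A.inertiaSubgroupIn ℚ, σ • y = y := Iff.rfl

end Fix

section Mod

variable (A : ValuationSubring Kbar) (q M : ℕ) (a b : ℤ) (hab : a * q + b * M = 1)
  (hq : q.Prime) [NeZero (M * q)] (hA : A.LiesOverPrime q)
  {k F₁ F₂ : Type} [Field k] [Field F₁] [Algebra k F₁] [Field F₂] [Algebra k F₂]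
  (S : SSD Kbar (FN (M * q)) k F₁ F₂)
  (hV₁ : S.c₁.V = V1 A q M) (hV₂ : S.c₂.V = V2 A q M a b hab hq)

include hq hA hV₁ hV₂ in
/-- **Integral scales** at level `M q`. -/
theorem intScale_mod : IntScale S (L0 A (M * q)) q := by
  have h1 : IsLowVal A (M * q) q (V1 A q M) := isLowVal_V20 A (M * q) q hq hA
  have h2 : IsLowVal A (M * q) q (V2 A q M a b hab hq) := isLowVal_V2 A q M a b hab hq hA
  have e : algebraMap Kbar (FN (M * q)) ((q : ℕ) : Kbar) = ((q : ℕ) : FN (M * q)) :=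
    map_natCast _ q
  have hne : algebraMap Kbar (FN (M * q)) ((q : ℕ) : Kbar) ≠ 0 := by
    rw [e]
    exact Nat.cast_ne_zero.2 hq.ne_zero
  refine intScale_of_val S (L0 A (M * q)) q ?_ ?_ ?_ ?_ hne
  · intro x hx hx0
    rw [hV₁, e]
    exact h1.exact x hx hx0
  · intro x hx hx0
    rw [hV₂, e]
    exact h2.exact x hx hx0
  · rw [hV₁, e]
    exact h1.val_q_lt_one hA
  · rw [hV₂, e]
    exact h2.val_q_lt_one hA

omit [NeZero (M * q)] in
/-- The finite part lies in the inertia-fixed `n`-torsion. -/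
theorem inGA_mem_fixTors {n : ℕ} (hn : 0 < n) {x : JZero (M * q)}
    (h : InGA S (L0 A (M * q)) n x) : x ∈ fixTors A (M * q) n := by
  obtain ⟨f, hfL, hK, h₁, -⟩ := h
  refine ⟨?_, fun σ hσ => ?_⟩
  · have h0 := hK.zsmul_eq_zero h₁.ne_zero
    rwa [natCast_zsmul] at h0
  · rw [galois_smul_pic0_def]
    exact smul_eq_of_isKumA _ hn hK (hfL σ hσ)

include hq hA hV₁ hV₂ in
/-- **ST-RANK (d)**: the inertia-fixed `n`-torsion of `J₀(M q)` has at most `n` times as many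
elements as the finite part. -/
theorem stRankD_fixTors (n : ℕ) (hn : 0 < n) :
    Nat.card (fixTors A (M * q) n)
      ≤ n * Nat.card {x : JZero (M * q) | InGA S (L0 A (M * q)) n x} := by
  have hP : HasPrincipalDivisors Kbar (FN (M * q)) :=
    Fermat.Agent.GTor.H33.hasPrincipalDivisors_FN (M * q)
  have hq0 : ((q : ℕ) : Kbar) ≠ 0 := Nat.cast_ne_zero.2 hq.ne_zero
  refine card_le_of_intScale S hP (L0 A (M * q)) q hq0
    (intScale_mod A q M a b hab hq hA S hV₁ hV₂) ?_ (fixTors A (M * q) n) n hn ?_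
    (fun x hx => inGA_mem_fixTors A q M S hn hx)
  · rw [map_natCast]
    exact natCast_mem _ q
  · intro y hy
    obtain ⟨D, h, h0, hyD, hord, -, hfix, -, -⟩ :=
      Fermat.Agent.S36.H61.stmt_NUB0 (M * q) (A.inertiaSubgroupIn ℚ) n y hy.1 hy.2
    exact ⟨h, fun σ hσ => hfix σ hσ, h0, D, hyD, hord⟩

include hq hA hV₁ hV₂ in
/-- **ST-RANK (d)**, with the sets of the plan: `#V^I ≤ n · #G`. -/
theorem stRankD (n : ℕ) (hn : 0 < n) :
    Nat.card {y : JZero (M * q) | n • y = 0 ∧ ∀ σ ∈ A.inertiaSubgroupIn ℚ, σ • y = y}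
      ≤ n * Nat.card {x : JZero (M * q) | InGA S (L0 A (M * q)) n x} :=
  stRankD_fixTors A q M a b hab hq hA S hV₁ hV₂ n hn

end Mod

end Fermat.Agent.S59.LL.SQ.H56

end

end
-- ==== END Fermat.Agent.S59.LL.SQ.H56_StRankDMod

-- ==== BEGIN Fermat.Agent.S59.LL.SQ.H58_TorAbs
section

/-!
# S59, package LL / SQ, step (T′): the abstract core of the assembly (helper58)

Setting: helper79's `NUData` `D`, helper40's `GlueData`, helper86's `PullTable` and `GlueLow`.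

* `trivRed_of_pull` : if `H` has gluing invariants `(a, b)`, `f` has the gluing vector `θ` along
  `zα`, `f'` has the gluing vector `θ'` along `zβ`, and `θ' = a`, `θ θ' = b` on the triple points,
  then `H / (α^* f · β^* f')` has TRIVIAL reduction data (the input of TI3);
* `GlueData.pow_exp` : the gluing invariants do not change when `(n, H)` is replaced by
  `(n m, H ^ m)`.
-/

set_option autoImplicit false
set_option linter.style.haveILetI false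
set_option linter.unusedSectionVars false

noncomputable section

open AlgebraicCurve

attribute [local instance] Classical.propDecidable

namespace Fermat.Agent.S59.LL.SQ.H58

open Fermat.Agent.RED.H17 Fermat.Agent.RED Fermat.Agent.BAD.H79 Fermat.Agent.BAD
  Fermat.Agent.S36.NU.H79 Fermat.Agent.S59.LL.SQ.H40 Fermat.Agent.S59.LL.SQ.H86

variable {K L₀ L k ι Z : Type*} {E : ι → Type*} {K' L' L₁ L₂ : Type*}
  [Field K] [Field L₀] [Field L] [Algebra K L] [Algebra L₀ L] [Field k] [Fintype ι]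
  [∀ i, Field (E i)] [∀ i, Algebra k (E i)] [Field K'] [Field L'] [Algebra K' L']
  [Field L₁] [Algebra k L₁] [Field L₂] [Algebra k L₂]
  {L₀' : Type*} [Field L₀'] [Algebra L₀' L']

variable (D : NUData K L₀ L k ι Z E K' L' L₁ L₂)

/-- The gluing invariants of `H / (α^* f · β^* f')`. -/
theorem glueData_of_pull [Infinite k] (hP : HasPrincipalDivisors K L) {pα pβ : L₀' →+* L₀}
    (PT : PullTable D pα pβ) {n : ℕ} (hn : n ≠ 0) {H : L₀} {a b : Z → k}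
    (hH : GlueData D n H a b) {f f' : L₀'} {θ θ' : Z → k}
    (hf : GlueLow D D.zα n f θ) (hf' : GlueLow D D.zβ n f' θ') :
    GlueData D n (H * (pα f * pβ f')⁻¹) (a * ((fun _ => 1) * θ')⁻¹) (b * (θ * θ')⁻¹) :=
  hH.mul ((glueData_pullA hP PT hn hf).mul (glueData_pullB hP PT hn hf')).inv

/-- **(T′), abstract core.**  The gluing invariants of `α^* f` are `(1, θ)`, those of `β^* f'` are
`(θ', θ')`; if `θ' = a` and `θ θ' = b` on the triple points, the quotient of `H` by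
`α^* f · β^* f'` has trivial reduction data. -/
theorem trivRed_of_pull [Infinite k] (hP : HasPrincipalDivisors K L) {pα pβ : L₀' →+* L₀}
    (PT : PullTable D pα pβ) {n : ℕ} (hn : n ≠ 0) {H : L₀} {a b : Z → k}
    (hH : GlueData D n H a b) {f f' : L₀'} {θ θ' : Z → k}
    (hf : GlueLow D D.zα n f θ) (hf' : GlueLow D D.zβ n f' θ')
    (h1 : ∀ z ∈ D.SS, θ' z = a z) (h2 : ∀ z ∈ D.SS, θ z * θ' z = b z) :
    D.TrivRed n (H * (pα f * pβ f')⁻¹) := by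
  refine (glueData_of_pull D hP PT hn hH hf hf').trivRed (fun z hz => ?_) (fun z hz => ?_)
  · simp only [Pi.mul_apply, Pi.inv_apply, one_mul]
    rw [h1 z hz]
    exact mul_inv_cancel₀ (hH.ne z hz).1
  · simp only [Pi.mul_apply, Pi.inv_apply]
    rw [h2 z hz]
    exact mul_inv_cancel₀ (hH.ne z hz).2

/-- The quotient of `H` by `α^* f · β^* f'` is a unit for the three valuations. -/
theorem unit_of_pull [Infinite k] (hP : HasPrincipalDivisors K L) {pα pβ : L₀' →+* L₀}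
    (PT : PullTable D pα pβ) {n : ℕ} (hn : n ≠ 0) {H : L₀} {a b : Z → k}
    (hH : GlueData D n H a b) {f f' : L₀'} {θ θ' : Z → k}
    (hf : GlueLow D D.zα n f θ) (hf' : GlueLow D D.zβ n f' θ') :
    ∀ i, D.T.rdN i (H * (pα f * pβ f')⁻¹) ≠ 0 :=
  (glueData_of_pull D hP PT hn hH hf hf').unit

end Fermat.Agent.S59.LL.SQ.H58

end
end
-- ==== END Fermat.Agent.S59.LL.SQ.H58_TorAbs

-- ==== BEGIN Fermat.Agent.S59.LL.SQ.H69_StRankFReg
section
attribute [local instance 10000] SubalgebraClass.toAlgebra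
attribute [local instance 10000] HahnSeries.powerSeriesAlgebra

/-!
# S59 / LL / SQ, leaf ST-RANK (f), REG (helper69)

Level `M q`, `A` a valuation ring of `ℚ̄` over `q`, `S` a semistable Deuring datum of
`F = F_{M q} · ℚ̄` whose first valuation ring is the Gauss valuation ring, on which the inertia
group acts inertially.

* `slope_dvd` : for an inertia-fixed function `f` which is a unit for the two valuations with
  `n ∣ div f`, at a node `s` with an inertia-fixed annulus coordinate of thickness `q ^ e`: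
  `n ∣ e · ord_{s.1} (rd₁ f)`  (`S43.CompEis.H60.slope_node` with slope `0`);
* `reg_of_coord` : **REG**: if `p ∤ e` at all nodes and `p ^ j ∣ div f`, then
  `p ^ j ∣ div (rd₁ f)` and `p ^ j ∣ div (rd₂ f)`;
* `weak_of_coord` : **REG12**: if `e ∣ 12` at all nodes, `p` odd and `p ^ j ∣ div f`, then
  `p ^ (j - 1)` divides the orders of `rd₁ f` at the first branches of the nodes.

This file contains no unproved statement.
-/

set_option autoImplicit false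
set_option synthInstance.maxHeartbeats 400000
set_option maxHeartbeats 1000000
set_option linter.style.haveILetI false
set_option linter.unusedSectionVars false

noncomputable section

open AlgebraicCurve ModularCurve

attribute [local instance] Classical.propDecidable

namespace Fermat.Agent.S59.LL.SQ.H69

open Fermat.Agent.BAD Fermat.Agent.S44 Fermat.Agent.S28.H73 Fermat.Agent.RED.H73
open Fermat.Agent.S43.BadQ Fermat.Agent.RED.H17 Fermat.Agent.RED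
open Fermat.Agent.S43.CompEis.H60

section Reg

variable {A : ValuationSubring (AlgebraicClosure ℚ)}
variable {q M : ℕ} [NeZero (M * q)]
variable {k F₁ F₂ : Type*} [Field k] [Field F₁] [Algebra k F₁] [Field F₂] [Algebra k F₂]
variable (S : SSD (AlgebraicClosure ℚ) ↥(FNbar (M * q)) k F₁ F₂)

/-- **The slope formula with slope `0`.** -/
theorem slope_dvd (hq' : q.Prime) (hA : A.LiesOverPrime q)
    (hV₁ : ∀ f : ↥(FNbar (M * q)), f ∈ S.c₁.V ↔ f ∈ gaussV A (M * q))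
    (hin : ∀ σ ∈ A.inertiaSubgroupIn ℚ, S.IsInertial (galF (M * q) σ))
    {s : Place k F₁ × Place k F₂} (hs : s ∈ S.nodes) {e : ℕ} {t : ↥(FNbar (M * q))}
    (ht : S.IsAnnCoord s t ((q : AlgebraicClosure ℚ) ^ e))
    (htfix : ∀ σ ∈ A.inertiaSubgroupIn ℚ, galF (M * q) σ • t = t)
    (n : ℕ) {f : ↥(FNbar (M * q))}
    (hfix : ∀ σ ∈ A.inertiaSubgroupIn ℚ, galF (M * q) σ • f = f)
    (G₁ : S.c₁.IsGU f) (G₂ : S.c₂.IsGU f)
    (hdiv : ∀ P : Place (AlgebraicClosure ℚ) ↥(FNbar (M * q)), (n : ℤ) ∣ P.ord f) :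
    (n : ℤ) ∣ (e : ℤ) * s.1.ord (S.c₁.rd f) := by
  have hP := hP_FN (M * q)
  have G₁' : S.c₁.IsGU (algebraMap (AlgebraicClosure ℚ) ↥(FNbar (M * q)) 1 * f) := by
    rw [map_one, one_mul]
    exact G₁
  have G₂' : S.c₂.IsGU (algebraMap (AlgebraicClosure ℚ) ↥(FNbar (M * q)) 1 * f) := by
    rw [map_one, one_mul]
    exact G₂
  obtain ⟨k', hk'⟩ := slope_node S hq' hA hP (hdeg_FN (M * q)) hV₁ hin hs ht htfix
    hfix G₁' G₂' n (fun P => P.ord f / (n : ℤ))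
    (fun P _ => (Int.mul_ediv_cancel' (hdiv P)).symm)
  rw [map_one, one_mul, map_one, one_mul] at hk'
  have hq0 := valuation_q_ne_zero (A := A) hq'
  have h4 : (0 : ℤ) = (e : ℤ) * s.1.ord (S.c₁.rd f) + (n : ℤ) * k' := by
    apply zpow_right_injective₀ (zero_lt_iff.mpr hq0) (valuation_q_lt_one hA).ne
    show A.valuation (q : AlgebraicClosure ℚ) ^ (0 : ℤ) = _
    rw [zpow_zero]
    exact hk'
  have : (e : ℤ) * s.1.ord (S.c₁.rd f) = -((n : ℤ) * k') := by linarith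
  rw [this]
  exact (dvd_neg).mpr (dvd_mul_right _ _)

/-- **REG** at a level with inertia-fixed annulus coordinates of thickness prime to `p`. -/
theorem reg_of_coord (hq' : q.Prime) (hA : A.LiesOverPrime q)
    (hV₁ : ∀ f : ↥(FNbar (M * q)), f ∈ S.c₁.V ↔ f ∈ gaussV A (M * q))
    (hin : ∀ σ ∈ A.inertiaSubgroupIn ℚ, S.IsInertial (galF (M * q) σ))
    (p : ℕ) (hp : p.Prime)
    (hcoord : ∀ s ∈ S.nodes, ∃ (e : ℕ) (t : ↥(FNbar (M * q))), ¬ p ∣ e ∧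
      S.IsAnnCoord s t ((q : AlgebraicClosure ℚ) ^ e) ∧
      ∀ σ ∈ A.inertiaSubgroupIn ℚ, galF (M * q) σ • t = t)
    (j : ℕ) {f : ↥(FNbar (M * q))}
    (hfix : ∀ σ ∈ A.inertiaSubgroupIn ℚ, galF (M * q) σ • f = f)
    (G₁ : S.c₁.IsGU f) (G₂ : S.c₂.IsGU f)
    (hdiv : ∀ P : Place (AlgebraicClosure ℚ) ↥(FNbar (M * q)), ((p ^ j : ℕ) : ℤ) ∣ P.ord f) :
    (∀ Q : Place k F₁, ((p ^ j : ℕ) : ℤ) ∣ Q.ord (S.c₁.rd f)) ∧
      (∀ Q : Place k F₂, ((p ^ j : ℕ) : ℤ) ∣ Q.ord (S.c₂.rd f)) := by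
  refine reg_of_nodes S (hP_FN (M * q)) (p ^ j) G₁ G₂ hdiv (fun s hs => ?_)
  obtain ⟨e, t, hpe, ht, htfix⟩ := hcoord s hs
  have h5 := slope_dvd S hq' hA hV₁ hin hs ht htfix (p ^ j) hfix G₁ G₂ hdiv
  have hcop : IsCoprime (((p ^ j : ℕ) : ℤ)) (e : ℤ) := by
    rw [Nat.isCoprime_iff_coprime]
    exact Nat.Coprime.pow_left j ((Nat.Prime.coprime_iff_not_dvd hp).mpr hpe)
  exact hcop.dvd_of_dvd_mul_left h5

/-- **REG12**: at a level with inertia-fixed annulus coordinates of thickness `q ^ e`, `e ∣ 12`,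
for `p` odd. -/
theorem weak_of_coord (hq' : q.Prime) (hA : A.LiesOverPrime q)
    (hV₁ : ∀ f : ↥(FNbar (M * q)), f ∈ S.c₁.V ↔ f ∈ gaussV A (M * q))
    (hin : ∀ σ ∈ A.inertiaSubgroupIn ℚ, S.IsInertial (galF (M * q) σ))
    (p : ℕ) (hp : p.Prime) (hp2 : p ≠ 2)
    (hcoord : ∀ s ∈ S.nodes, ∃ (e : ℕ) (t : ↥(FNbar (M * q))), 0 < e ∧ e ∣ 12 ∧
      S.IsAnnCoord s t ((q : AlgebraicClosure ℚ) ^ e) ∧
      ∀ σ ∈ A.inertiaSubgroupIn ℚ, galF (M * q) σ • t = t)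
    (j : ℕ) {f : ↥(FNbar (M * q))}
    (hfix : ∀ σ ∈ A.inertiaSubgroupIn ℚ, galF (M * q) σ • f = f)
    (G₁ : S.c₁.IsGU f) (G₂ : S.c₂.IsGU f)
    (hdiv : ∀ P : Place (AlgebraicClosure ℚ) ↥(FNbar (M * q)), ((p ^ j : ℕ) : ℤ) ∣ P.ord f) :
    ∀ s ∈ S.nodes, ((p ^ (j - 1) : ℕ) : ℤ) ∣ s.1.ord (S.c₁.rd f) := by
  intro s hs
  obtain ⟨e, t, he0, he12, ht, htfix⟩ := hcoord s hs
  have h5 := slope_dvd S hq' hA hV₁ hin hs ht htfix (p ^ j) hfix G₁ G₂ hdiv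
  -- `p ^ j ∣ 12 · ord`
  have h12 : ((p ^ j : ℕ) : ℤ) ∣ 12 * s.1.ord (S.c₁.rd f) := by
    obtain ⟨d, hd⟩ := he12
    have : (12 : ℤ) * s.1.ord (S.c₁.rd f) = (d : ℤ) * ((e : ℤ) * s.1.ord (S.c₁.rd f)) := by
      have h12' : (12 : ℤ) = (e : ℤ) * (d : ℤ) := by exact_mod_cast hd
      rw [h12']
      ring
    rw [this]
    exact Dvd.dvd.mul_left h5 _
  rcases Nat.eq_zero_or_pos j with h0 | hpos
  · subst h0
    simp
  -- `p ^ j = p ^ (j - 1) · p`, and `p ^ (j - 1)` is prime to `4`, `p ∣ 3 · …`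
  have e1 : ((p ^ j : ℕ) : ℤ) = ((p ^ (j - 1) : ℕ) : ℤ) * (p : ℤ) := by
    rw [← Nat.cast_mul, ← pow_succ]
    congr 2
    omega
  have h3 : ((p ^ (j - 1) : ℕ) : ℤ) ∣ 12 * s.1.ord (S.c₁.rd f) :=
    Dvd.dvd.trans ⟨(p : ℤ), e1⟩ h12
  by_cases hp3 : p = 3
  · -- `3 ^ j ∣ 12 a` gives `3 ^ (j - 1) ∣ 4 a`, and `3 ^ (j - 1)` is prime to `4`
    subst hp3
    have h4 : (3 : ℤ) * ((3 ^ (j - 1) : ℕ) : ℤ) ∣ 3 * (4 * s.1.ord (S.c₁.rd f)) := by
      have e2 : (3 : ℤ) * ((3 ^ (j - 1) : ℕ) : ℤ) = ((3 ^ j : ℕ) : ℤ) := by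
        rw [e1]
        push_cast
        ring
      have e3 : (3 : ℤ) * (4 * s.1.ord (S.c₁.rd f)) = 12 * s.1.ord (S.c₁.rd f) := by ring
      rw [e2, e3]
      exact h12
    have h5' : ((3 ^ (j - 1) : ℕ) : ℤ) ∣ 4 * s.1.ord (S.c₁.rd f) :=
      (mul_dvd_mul_iff_left (by norm_num : (3 : ℤ) ≠ 0)).mp h4
    have hcop : IsCoprime (((3 ^ (j - 1) : ℕ) : ℤ)) ((4 : ℕ) : ℤ) := by
      rw [Nat.isCoprime_iff_coprime]
      exact Nat.Coprime.pow_left _ (by norm_num)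
    exact hcop.dvd_of_dvd_mul_left (by exact_mod_cast h5')
  · have hcop : IsCoprime (((p ^ (j - 1) : ℕ) : ℤ)) ((12 : ℕ) : ℤ) := by
      rw [Nat.isCoprime_iff_coprime]
      apply Nat.Coprime.pow_left
      rw [Nat.Prime.coprime_iff_not_dvd hp]
      intro hd
      have hle : p ≤ 12 := Nat.le_of_dvd (by norm_num) hd
      interval_cases p <;> simp_all (config := { decide := true })
    exact hcop.dvd_of_dvd_mul_left (by exact_mod_cast h3)

end Reg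

end Fermat.Agent.S59.LL.SQ.H69

end
end
-- ==== END Fermat.Agent.S59.LL.SQ.H69_StRankFReg

-- ==== BEGIN Fermat.Agent.S59.LL.SQ.H86_PBGlueMod
section
attribute [local instance 10000] SubalgebraClass.toAlgebra
attribute [local instance 10000] HahnSeries.powerSeriesAlgebra

/-!
# S59, package LL / SQ, step (T), leaf PB-GLUE, modular part (helper86)

Level `N = M q²`, `q ∤ M` tame, `A` over `q`; `D = H79.nuMod` the modular `NUData`;
`pα = inclL0 A (hleA q M)` (`= α` on the inertia-fixed functions), `pβ = bL0 A q M` (`= β`).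

* `rowA20`, `rowA11`, `rowA02`, `rowB20`, `rowB11`, `rowB02` : the six rows of the pull-back table
  (`rd3 i (α g)`, `rd3 i (β g)` in terms of the two reductions of `g` of level `M q`);
* `rho_alpha_conv`, `rho_beta_conv` : `ρ P = z → ρ' (P | α) = zA z`, `ρ' (P | β) = zB z` (the
  converses of helper23's `rho_alpha`, `rho_beta`; the second for supersingular `z`);
* `pullTable_mod : PullTable (nuMod ..) (inclL0 ..) (bL0 ..)`;
* `glueData_alpha_mod`, `glueData_beta_mod` : PB-GLUE for the modular datum.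
-/

set_option autoImplicit false
set_option synthInstance.maxHeartbeats 400000
set_option maxHeartbeats 1000000
set_option linter.style.haveILetI false
set_option linter.unusedSectionVars false

noncomputable section

open ModularCurve AlgebraicCurve
open Fermat.Agent.S24 Fermat.Agent.BAD.H88 Fermat.Agent.S28 Fermat.Agent.S28.H73
open Fermat.Agent.RED.H73 Fermat.Agent.RED.H17 Fermat.Agent.S36.NU.H88
open Fermat.Agent.Lib.HeckeComm Fermat.Agent.S36.NU.H23 Fermat.Agent.S36.NU.H74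
open Fermat.Agent.S36.NU.H89 Fermat.Agent.S36.NU.H79

namespace Fermat.Agent.S59.LL.SQ.H86

open Fermat.Agent.BAD Fermat.Agent.RED Fermat.Agent.BAD.H79

section Rows

variable (A : ValuationSubring Kbar) (q M : ℕ) (B k : ℤ) (hB : B * M + k * q = 1) (hq : q.Prime)
  [NeZero M] [NeZero q] [NeZero (M * q)] [NeZero (M * q * q)]
  (hqM : ¬ q ∣ M) (hA : A.LiesOverPrime q) (ht : H91.TameAt M q)

/-- a function with non-zero first reduction is integral for the first valuation. -/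
theorem mem_V1_of_rd {g : FN (M * q)}
    (hg : (TL A q M B k hB hq hqM hA ht).p₁.rd g ≠ 0) : g ∈ V1 A q M := by
  by_contra h
  exact hg ((TL A q M B k hB hq hqM hA ht).p₁.rd_of_not_mem h)

/-- a function with non-zero second reduction is integral for the second valuation. -/
theorem mem_V2_of_rd {g : FN (M * q)}
    (hg : (TL A q M B k hB hq hqM hA ht).p₂.rd g ≠ 0) :
    g ∈ V2 A q M k B (hab_of_hB q M B k hB) hq := by
  by_contra h
  exact hg ((TL A q M B k hB hq hqM hA ht).p₂.rd_of_not_mem h)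

/-- The first reduction, as a series. -/
theorem coe_rd1 {g : FN (M * q)} (hm : g ∈ V1 A q M) :
    (((TL A q M B k hB hq hqM hA ht).p₁.rd g : F1 A q M) : LaurentSeries (kV A))
      = ((red1 A q M ⟨g, hm⟩ : F1 A q M) : LaurentSeries (kV A)) := by
  have hm' : g ∈ (TL A q M B k hB hq hqM hA ht).p₁.V := hm
  rw [(TL A q M B k hB hq hqM hA ht).p₁.rd_of_mem hm']
  rfl

/-- The second reduction, as a series. -/
theorem coe_rd2 {g : FN (M * q)} (hm : g ∈ V2 A q M k B (hab_of_hB q M B k hB) hq) :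
    (((TL A q M B k hB hq hqM hA ht).p₂.rd g : F1 A q M) : LaurentSeries (kV A))
      = ((red2 A q M k B (hab_of_hB q M B k hB) hq ⟨g, hm⟩ : F1 A q M) :
          LaurentSeries (kV A)) := by
  have hm' : g ∈ (TL A q M B k hB hq hqM hA ht).p₂.V := hm
  rw [(TL A q M B k hB hq hqM hA ht).p₂.rd_of_mem hm']
  rfl

/-- **Row `α`, `V₂₀`**: `red₂₀ (α g) = red₁ g`. -/
theorem rowA20 (g : ↥(L0 A (M * q)))
    (hg : (TL A q M B k hB hq hqM hA ht).p₁.rd (g : FN (M * q)) ≠ 0) :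
    rd3 A q M B k hB hq hqM hA ht 0 (inclL0 A (Fermat.Agent.S36.NU.H87.hleA q M) g)
      = (resId A q M B k hB hq hA).j
          ((TL A q M B k hB hq hqM hA ht).p₁.rd (g : FN (M * q))) := by
  have hm : (g : FN (M * q)) ∈ V1 A q M := mem_V1_of_rd A q M B k hB hq hqM hA ht hg
  have hE : g ∈ VE0 A (M * q) := hm
  have h20 : inclL0 A (Fermat.Agent.S36.NU.H87.hleA q M) g ∈ V20o A q M :=
    Fermat.Agent.S36.NU.H87.hVE20A A q M g hE
  rw [rd3_zero A q M B k hB hq hqM hA ht h20]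
  apply Subtype.ext
  rw [coe_r20, coe_resId_j, coe_rd1 A q M B k hB hq hqM hA ht hm]
  exact Fermat.Agent.S36.NU.H87.s20_inclA A q M ⟨g, hE⟩ h20

include hB hq in
/-- **Row `α`, `V₁₁`**: `red₁₁ (α g) = red₁ g`. -/
theorem rowA11 (g : ↥(L0 A (M * q)))
    (hg : (TL A q M B k hB hq hqM hA ht).p₁.rd (g : FN (M * q)) ≠ 0) :
    rd3 A q M B k hB hq hqM hA ht 1 (inclL0 A (Fermat.Agent.S36.NU.H87.hleA q M) g)
      = (resId A q M B k hB hq hA).j
          ((TL A q M B k hB hq hqM hA ht).p₁.rd (g : FN (M * q))) := by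
  have hm : (g : FN (M * q)) ∈ V1 A q M := mem_V1_of_rd A q M B k hB hq hqM hA ht hg
  have hE : g ∈ VE0 A (M * q) := hm
  have h11 : inclL0 A (Fermat.Agent.S36.NU.H87.hleA q M) g ∈ V11o A q M B k hB hq :=
    Fermat.Agent.S36.NU.H87.hVE11A A q M B k hB hq g hE
  rw [rd3_one A q M B k hB hq hqM hA ht h11]
  apply Subtype.ext
  rw [coe_r11, coe_resId_j, coe_rd1 A q M B k hB hq hqM hA ht hm]
  exact Fermat.Agent.S36.NU.H87.s11_inclA A q M B k hB hq ⟨g, hE⟩ h11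

/-- **Row `α`, `V₀₂`**: `red₀₂ (α g) = Fr (red₂ g)`. -/
theorem rowA02 (g : ↥(L0 A (M * q)))
    (hg : (TL A q M B k hB hq hqM hA ht).p₂.rd (g : FN (M * q)) ≠ 0) :
    rd3 A q M B k hB hq hqM hA ht 2 (inclL0 A (Fermat.Agent.S36.NU.H87.hleA q M) g)
      = (resFr A q M B k hB hq hqM hA).j
          ((TL A q M B k hB hq hqM hA ht).p₂.rd (g : FN (M * q))) := by
  have hm : (g : FN (M * q)) ∈ V2 A q M k B (hab_of_hB q M B k hB) hq :=
    mem_V2_of_rd A q M B k hB hq hqM hA ht hg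
  have hE : g ∈ Fermat.Agent.S36.NU.H69.VE2 A q M B k hB hq := hm
  have h02 : inclL0 A (Fermat.Agent.S36.NU.H87.hleA q M) g ∈ V02o A q M B k hB :=
    Fermat.Agent.S36.NU.H69.hVA2 A q M B k hB hq g hE
  rw [rd3_two A q M B k hB hq hqM hA ht h02]
  apply Subtype.ext
  rw [coe_r02, coe_resFr_j, coe_rd2 A q M B k hB hq hqM hA ht hm]
  exact Fermat.Agent.S36.NU.H69.s02_inclA A q M B k hB hq ⟨g, hE⟩ h02

/-- **Row `β`, `V₂₀`**: `red₂₀ (β g) = Fr (red₁ g)`. -/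
theorem rowB20 (g : ↥(L0 A (M * q)))
    (hg : (TL A q M B k hB hq hqM hA ht).p₁.rd (g : FN (M * q)) ≠ 0) :
    rd3 A q M B k hB hq hqM hA ht 0 (Fermat.Agent.S36.NU.H69.bL0 A q M g)
      = (resFr A q M B k hB hq hqM hA).j
          ((TL A q M B k hB hq hqM hA ht).p₁.rd (g : FN (M * q))) := by
  have hm : (g : FN (M * q)) ∈ V1 A q M := mem_V1_of_rd A q M B k hB hq hqM hA ht hg
  have hE : g ∈ VE0 A (M * q) := hm
  have h20 : Fermat.Agent.S36.NU.H69.bL0 A q M g ∈ V20o A q M :=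
    Fermat.Agent.S36.NU.H69.hVB1 A q M g hE
  rw [rd3_zero A q M B k hB hq hqM hA ht h20]
  apply Subtype.ext
  rw [coe_r20, coe_resFr_j, coe_rd1 A q M B k hB hq hqM hA ht hm]
  have e := congrArg (fun y : FM A (M * q) => (y : LaurentSeries (kV A)))
    (Fermat.Agent.S36.NU.H69.r20A_bL0 A q M hq hqM hA ⟨g, hE⟩ h20)
  exact e

include hA in
/-- **Row `β`, `V₁₁`**: `red₁₁ (β g) = red₂ g`. -/
theorem rowB11 (g : ↥(L0 A (M * q)))
    (hg : (TL A q M B k hB hq hqM hA ht).p₂.rd (g : FN (M * q)) ≠ 0) :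
    rd3 A q M B k hB hq hqM hA ht 1 (Fermat.Agent.S36.NU.H69.bL0 A q M g)
      = (resId A q M B k hB hq hA).j
          ((TL A q M B k hB hq hqM hA ht).p₂.rd (g : FN (M * q))) := by
  have hm : (g : FN (M * q)) ∈ V2 A q M k B (hab_of_hB q M B k hB) hq :=
    mem_V2_of_rd A q M B k hB hq hqM hA ht hg
  have hE : g ∈ Fermat.Agent.S36.NU.H51.V2o A q M B k hB hq := hm
  have h11 : Fermat.Agent.S36.NU.H87.mapB A q M g ∈ V11o A q M B k hB hq :=
    Fermat.Agent.S36.NU.H87.hVE11B A q M B k hB hq g hE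
  have h11' : Fermat.Agent.S36.NU.H69.bL0 A q M g ∈ V11o A q M B k hB hq := h11
  rw [rd3_one A q M B k hB hq hqM hA ht h11']
  apply Subtype.ext
  rw [coe_r11, coe_resId_j, coe_rd2 A q M B k hB hq hqM hA ht hm]
  exact Fermat.Agent.S36.NU.H87.s11_mapB A q M B k hB hq hA ⟨g, hE⟩ h11

/-- **Row `β`, `V₀₂`**: `red₀₂ (β g) = red₂ g`. -/
theorem rowB02 (g : ↥(L0 A (M * q)))
    (hg : (TL A q M B k hB hq hqM hA ht).p₂.rd (g : FN (M * q)) ≠ 0) :
    rd3 A q M B k hB hq hqM hA ht 2 (Fermat.Agent.S36.NU.H69.bL0 A q M g)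
      = (resId A q M B k hB hq hA).j
          ((TL A q M B k hB hq hqM hA ht).p₂.rd (g : FN (M * q))) := by
  have hm : (g : FN (M * q)) ∈ V2 A q M k B (hab_of_hB q M B k hB) hq :=
    mem_V2_of_rd A q M B k hB hq hqM hA ht hg
  have hE : g ∈ Fermat.Agent.S36.NU.H51.V2o A q M B k hB hq := hm
  have h02 : Fermat.Agent.S36.NU.H87.mapB A q M g ∈ V02o A q M B k hB :=
    Fermat.Agent.S36.NU.H87.hVE02B A q M B k hB hq g hE
  have h02' : Fermat.Agent.S36.NU.H69.bL0 A q M g ∈ V02o A q M B k hB := h02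
  rw [rd3_two A q M B k hB hq hqM hA ht h02']
  apply Subtype.ext
  rw [coe_r02, coe_resId_j, coe_rd2 A q M B k hB hq hqM hA ht hm]
  exact Fermat.Agent.S36.NU.H87.s02_mapB A q M B k hB hq ⟨g, hE⟩ h02

end Rows

section Fib

variable (A : ValuationSubring Kbar) (q M : ℕ) (B k : ℤ) (hB : B * M + k * q = 1) (hq : q.Prime)
  [NeZero M] [NeZero q] [NeZero (M * q)] [NeZero (M * q * q)]
  (hqM : ¬ q ∣ M) (hA : A.LiesOverPrime q) (ht : H91.TameAt M q)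

/-- **`ρ P = z → ρ' (P | α) = zA z`** (the converse of helper23's `rho_alpha`). -/
theorem rho_alpha_conv (z : Place (kV A) (FM A M)) (P : Place Kbar (FN (M * q * q)))
    (h : rhoM A q M hq hqM hA ht P = z) :
    (modTM A q M B k hB hq hqM hA ht).ρ
        (P.restrictAlong (heckeAlphaBar Kbar (M * q) q)
          (Fermat.Agent.S36.H44.alpha_integral (M * q) q))
      = zA A q M B k hB hq hA z := by
  rw [modTM_rho, zA_def]
  have h1 : Fermat.Agent.BAD.H91.rhoM hq hqM ht hA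
      (P.restrictAlong (heckeAlphaBar Kbar (M * q) q)
        (Fermat.Agent.S36.H44.alpha_integral (M * q) q)) = z := by
    unfold Fermat.Agent.BAD.H91.rhoM
    rw [restrictAlong_alpha_incl q M P]
    exact h
  exact congrArg (kapM A q M B k hB hq hA).symm h1

/-- **`ρ P = z → ρ' (P | β) = zB z`** for the supersingular points (the converse of helper23's
`rho_beta`). -/
theorem rho_beta_conv (z : Place (kV A) (FM A M)) (hz : z ∈ Fermat.Agent.S36.NU.H74.ssM A q M)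
    (P : Place Kbar (FN (M * q * q))) (h : rhoM A q M hq hqM hA ht P = z) :
    (modTM A q M B k hB hq hqM hA ht).ρ
        (P.restrictAlong (heckeBetaBar Kbar (M * q) q)
          (Fermat.Agent.S36.H44.beta_integral (M * q) q))
      = zB A q M B k hB hq hqM hA z := by
  have hα := rho_alpha_conv A q M B k hB hq hqM hA ht z P h
  rw [modTM_rho] at hα ⊢
  -- `ρ' (P | β) = ρ' (w⁻¹ (P | α))`
  have e2 : Fermat.Agent.BAD.H91.rhoF1 k B (hab_kB q M B k hB) hq hA hqM ht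
      (P.restrictAlong (heckeBetaBar Kbar (M * q) q)
        (Fermat.Agent.S36.H44.beta_integral (M * q) q))
      = Fermat.Agent.BAD.H91.rhoF1 k B (hab_kB q M B k hB) hq hA hqM ht
        ((Fermat.Agent.BAD.H91.wSemi k B (hab_kB q M B k hB) hq)⁻¹ •
          P.restrictAlong (heckeAlphaBar Kbar (M * q) q)
            (Fermat.Agent.S36.H44.alpha_integral (M * q) q)) := by
    unfold Fermat.Agent.BAD.H91.rhoF1 Fermat.Agent.BAD.H91.rhoM
    rw [restrictAlong_beta_incl q M P, ← Fermat.Agent.BAD.H91.restrictAlong_wSemi]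
  have hnode : (Fermat.Agent.BAD.H91.modT k B (hab_kB q M B k hB) hq hA hqM ht
      (Fermat.Agent.S35.H89.betaMod A q M k B (hab_kB q M B k hB) hq hA)
      (Fermat.Agent.BAD.H23.tot_mod A q M k B (hab_kB q M B k hB) hq hA hqM ht
        (Fermat.Agent.BAD.H82.redField_eq_fullC q M k B (hab_kB q M B k hB) hq A hA))).IsNode
      (Fermat.Agent.BAD.H91.rhoF1 k B (hab_kB q M B k hB) hq hA hqM ht
        (P.restrictAlong (heckeAlphaBar Kbar (M * q) q)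
            (Fermat.Agent.S36.H44.alpha_integral (M * q) q))) := by
    rw [hα]
    exact nodeA A q M B k hB hq hqM hA ht z hz
  have h3 := Fermat.Agent.BAD.H91.rhoW_eq_beta_mod k B (hab_kB q M B k hB) hq hA hqM ht
    (Fermat.Agent.S35.H89.betaMod A q M k B (hab_kB q M B k hB) hq hA)
    (Fermat.Agent.BAD.H23.tot_mod A q M k B (hab_kB q M B k hB) hq hA hqM ht
      (Fermat.Agent.BAD.H82.redField_eq_fullC q M k B (hab_kB q M B k hB) hq A hA))
    (betaL_ord_jRed A q M B k hB hq hA) hnode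
  rw [e2, h3, hα]
  have e4 : betaL A q M B k hB hq hA (zA A q M B k hB hq hA z)
      = zB A q M B k hB hq hqM hA z := by
    rw [betaL_zA A q M B k hB hq hqM hA z, zB_def]
    congr 1
    rw [Equiv.eq_symm_apply]
    exact betaM_betaM A q M B k hB hq hqM hA ht z hz
  exact e4

end Fib

section Table

variable (A : ValuationSubring Kbar) (q M : ℕ) (B k : ℤ) (hB : B * M + k * q = 1) (hq : q.Prime)
  [NeZero M] [NeZero q] [NeZero (M * q)] [NeZero (M * q * q)]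
  (hqM : ¬ q ∣ M) (hA : A.LiesOverPrime q) (ht : H91.TameAt M q)

/-- **The pull-back table of the modular datum.** -/
theorem pullTable_mod :
    letI := algkM A M
    PullTable (nuMod A q M B k hB hq hqM hA ht)
      (inclL0 A (Fermat.Agent.S36.NU.H87.hleA q M)) (Fermat.Agent.S36.NU.H69.bL0 A q M) := by
  letI := algkM A M
  exact
  { α₂₀ := fun g hg => rowA20 A q M B k hB hq hqM hA ht g hg
    α₁₁ := fun g hg => rowA11 A q M B k hB hq hqM hA ht g hg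
    α₀₂ := fun g hg => rowA02 A q M B k hB hq hqM hA ht g hg
    β₂₀ := fun g hg => rowB20 A q M B k hB hq hqM hA ht g hg
    β₁₁ := fun g hg => rowB11 A q M B k hB hq hqM hA ht g hg
    β₀₂ := fun g hg => rowB02 A q M B k hB hq hqM hA ht g hg
    fibα := fun z hz g hg P hP => by
      have e : algebraMap ↥(L0 A (M * q * q)) (FN (M * q * q))
          (inclL0 A (Fermat.Agent.S36.NU.H87.hleA q M) g)
          = heckeAlphaBar Kbar (M * q) q (g : FN (M * q)) :=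
        Fermat.Agent.S36.NU.H87.coe_inclL0_alphaA A q M g
      have h0 : (P.restrictAlong (heckeAlphaBar Kbar (M * q) q)
          (Fermat.Agent.S36.H44.alpha_integral (M * q) q)).ord (g : FN (M * q)) = 0 :=
        hg _ (rho_alpha_conv A q M B k hB hq hqM hA ht z P hP)
      rw [e, Place.ord_restrictAlong _ (Fermat.Agent.S36.H44.alpha_integral (M * q) q),
        h0, mul_zero]
    fibβ := fun z hz g hg P hP => by
      have e : algebraMap ↥(L0 A (M * q * q)) (FN (M * q * q))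
          (Fermat.Agent.S36.NU.H69.bL0 A q M g)
          = heckeBetaBar Kbar (M * q) q (g : FN (M * q)) :=
        Fermat.Agent.S36.NU.H69.coe_bL0 A q M g
      have h0 : (P.restrictAlong (heckeBetaBar Kbar (M * q) q)
          (Fermat.Agent.S36.H44.beta_integral (M * q) q)).ord (g : FN (M * q)) = 0 :=
        hg _ (rho_beta_conv A q M B k hB hq hqM hA ht z hz P hP)
      rw [e, Place.ord_restrictAlong _ (Fermat.Agent.S36.H44.beta_integral (M * q) q),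
        h0, mul_zero] }

/-- **PB-GLUE along `α`, modular**: the gluing invariants of `α^* f` are `(1, θ)`. -/
theorem glueData_alpha_mod {n : ℕ} (hn : n ≠ 0) {f : ↥(L0 A (M * q))}
    {θ : Place (kV A) (FM A M) → kV A}
    (h : letI := algkM A M
      GlueLow (nuMod A q M B k hB hq hqM hA ht) (zA A q M B k hB hq hA) n f θ) :
    letI := algkM A M
    Fermat.Agent.S59.LL.SQ.H40.GlueData (nuMod A q M B k hB hq hqM hA ht) n
      (inclL0 A (Fermat.Agent.S36.NU.H87.hleA q M) f) (fun _ => 1) θ := by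
  letI := algkM A M
  haveI : IsAlgClosed (kV A) := isAlgClosed_kV A
  haveI : Infinite (kV A) := IsAlgClosed.instInfinite
  exact glueData_pullA (Fermat.Agent.S36.NU.H74.hasPrincipalDivisors_FN (M * q * q))
    (pullTable_mod A q M B k hB hq hqM hA ht) hn h

/-- **PB-GLUE along `β`, modular**: the gluing invariants of `β^* f` are `(θ, θ)`. -/
theorem glueData_beta_mod {n : ℕ} (hn : n ≠ 0) {f : ↥(L0 A (M * q))}
    {θ : Place (kV A) (FM A M) → kV A}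
    (h : letI := algkM A M
      GlueLow (nuMod A q M B k hB hq hqM hA ht) (zB A q M B k hB hq hqM hA) n f θ) :
    letI := algkM A M
    Fermat.Agent.S59.LL.SQ.H40.GlueData (nuMod A q M B k hB hq hqM hA ht) n
      (Fermat.Agent.S36.NU.H69.bL0 A q M f) θ θ := by
  letI := algkM A M
  haveI : IsAlgClosed (kV A) := isAlgClosed_kV A
  haveI : Infinite (kV A) := IsAlgClosed.instInfinite
  exact glueData_pullB (Fermat.Agent.S36.NU.H74.hasPrincipalDivisors_FN (M * q * q))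
    (pullTable_mod A q M B k hB hq hqM hA ht) hn h

end Table

end Fermat.Agent.S59.LL.SQ.H86

end

end
-- ==== END Fermat.Agent.S59.LL.SQ.H86_PBGlueMod

-- ==== BEGIN Fermat.Agent.S59.LL.SQ.H87_NV11
section
attribute [local instance 10000] SubalgebraClass.toAlgebra
attribute [local instance 10000] HahnSeries.powerSeriesAlgebra

/-!
# S59 / LL / SQ, leaf (E), sub-leaf NV11 (helper87): NORM-RED and NORM-VAL for `V₁₁`

Level `N = M q²`, `q ∤ M`, `ℓ ∤ N` a prime, `A` over `q`.  On the inertia-fixed functions the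
valuation `V₁₁` has the residue field `Ft A M` (helper23), and by helper35's tower
(`H35_MidTower`, `H35_MidRed`) the degeneracy maps `α, β : F_N → F_{N ℓ}` are compatible with
`V₁₁` and induce `α~, β~ : Ft A M → Ft A (M ℓ)` on the residue fields.  As
`[L0 (N ℓ) : L0 N] = ℓ + 1 = [Ft (M ℓ) : Ft M]`, the norm commutes with the reduction
(`RED.H10.stmt_NormRedAbs`):

* `heckeL0`  : `T_ℓ f = N_α (β f)` as an element of `L0 A N`;
* `hnorm11`  : **NORM-RED for `V₁₁`**: `T_ℓ f ∈ V₁₁` and `r₁₁ (T_ℓ f) = N_{α~} (β~ (r₁₁ f))`;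
* `stmt_NV11` : `H33.Stmt_NV11` (`T_ℓ` maps inertia-fixed `V₁₁`-units to `V₁₁`-units).

This file contains no `sorry`.
-/

set_option autoImplicit false
set_option linter.style.haveILetI false
set_option linter.unusedSectionVars false
set_option synthInstance.maxHeartbeats 400000
set_option maxHeartbeats 1000000

noncomputable section

open AlgebraicCurve ModularCurve
open Fermat.Agent.S24 Fermat.Agent.BAD Fermat.Agent.BAD.H88
open Fermat.Agent.S28 Fermat.Agent.S28.H73 Fermat.Agent.RED.H73 Fermat.Agent.RED.H17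
open Fermat.Agent.S36.NU.H88 Fermat.Agent.S36.NU.H23 Fermat.Agent.S36.NU.H26
open Fermat.Agent.S43.Old.H35 Fermat.Agent.Lib.HeckeComm Fermat.Agent.S59.LL.SQ.H35

namespace Fermat.Agent.S59.LL.SQ.H87

section Hecke

variable (A : ValuationSubring Kbar) (N ℓ : ℕ) [NeZero N] [NeZero ℓ] [NeZero (N * ℓ)]

/-- `β f` as an element of `L0 A (N ℓ)`. -/
def betaL0 : ↥(L0 A N) →+* ↥(L0 A (N * ℓ)) :=
  mapL0 A (heckeBetaBar Kbar N ℓ) (arithEquivariant_beta N ℓ)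

theorem coe_betaL0 (f : ↥(L0 A N)) :
    ((betaL0 A N ℓ f : ↥(L0 A (N * ℓ))) : FN (N * ℓ)) = heckeBetaBar Kbar N ℓ (f : FN N) := rfl

/-- `L0 A (N ℓ)` as an algebra over `L0 A N` along `α`. -/
@[reducible] def algAlphaL0 : Algebra ↥(L0 A N) ↥(L0 A (N * ℓ)) :=
  algL0Along A (heckeAlphaBar Kbar N ℓ) (arithEquivariant_alpha N ℓ)

theorem coe_algebraMap_algAlphaL0 (a : ↥(L0 A N)) :
    ((@algebraMap ↥(L0 A N) ↥(L0 A (N * ℓ)) _ _ (algAlphaL0 A N ℓ) a : ↥(L0 A (N * ℓ))) :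
      FN (N * ℓ)) = heckeAlphaBar Kbar N ℓ (a : FN N) := rfl

/-- `T_ℓ f = N_α (β f)` on the inertia-fixed functions. -/
def heckeL0 (f : ↥(L0 A N)) : ↥(L0 A N) :=
  letI := algAlphaL0 A N ℓ
  Algebra.norm ↥(L0 A N) (betaL0 A N ℓ f)

theorem finiteAlong_alpha : FiniteAlong Kbar (heckeAlphaBar Kbar N ℓ) :=
  (Fermat.Agent.RED.H51.stmt_HKA N ℓ).2.2.2.1

/-- `heckeL0` is `heckeNormFn`. -/
theorem coe_heckeL0 (f : ↥(L0 A N)) :
    ((heckeL0 A N ℓ f : ↥(L0 A N)) : FN N)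
      = Fermat.Agent.GTor.H2.heckeNormFn Kbar N ℓ (f : FN N) :=
  (norm_L0_along A (heckeAlphaBar Kbar N ℓ) (arithEquivariant_alpha N ℓ)
    (finiteAlong_alpha N ℓ) (betaL0 A N ℓ f)).symm

theorem heckeL0_mul (f g : ↥(L0 A N)) :
    heckeL0 A N ℓ (f * g) = heckeL0 A N ℓ f * heckeL0 A N ℓ g := by
  letI := algAlphaL0 A N ℓ
  show Algebra.norm ↥(L0 A N) (betaL0 A N ℓ (f * g)) = _
  rw [map_mul, map_mul]
  rfl

theorem heckeL0_one : heckeL0 A N ℓ 1 = 1 := by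
  letI := algAlphaL0 A N ℓ
  show Algebra.norm ↥(L0 A N) (betaL0 A N ℓ 1) = _
  rw [map_one, map_one]

end Hecke

/-! ## NORM-RED for `V₁₁` -/

section NormRed

variable (A : ValuationSubring Kbar) (q M ℓ : ℕ) (B k B' k' : ℤ) (hB : B * M + k * q = 1)
  (hB' : B' * ((M * ℓ : ℕ) : ℤ) + k' * q = 1) (hq : q.Prime) (hℓ : ℓ.Prime)
  [NeZero M] [NeZero q] [NeZero ℓ] [NeZero (M * q * q)] [NeZero (M * q * q * ℓ)]
  [NeZero (M * ℓ)]
  (hqM : ¬ q ∣ M) (hℓN : ¬ ℓ ∣ M * q * q) (hA : A.LiesOverPrime q)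

omit [NeZero M] [NeZero q] [NeZero ℓ] [NeZero (M * q * q)] [NeZero (M * q * q * ℓ)]
  [NeZero (M * ℓ)] in
theorem lvlUp2 : M * q * q * ℓ = M * ℓ * q * q := by ring

omit [NeZero M] [NeZero q] [NeZero ℓ] [NeZero (M * q * q)] [NeZero (M * q * q * ℓ)]
  [NeZero (M * ℓ)] in
include hq hℓ hqM hℓN in
theorem not_dvd_up : ¬ q ∣ M * ℓ := by
  have hqℓ : q ≠ ℓ := by
    rintro rfl
    exact hℓN (Dvd.intro_left (M * q) rfl)
  intro hd
  rcases (Nat.Prime.dvd_mul hq).mp hd with hd | hd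
  · exact hqM hd
  · exact hqℓ ((Nat.prime_dvd_prime_iff_eq hq hℓ).mp hd)

omit [NeZero M] [NeZero q] [NeZero ℓ] [NeZero (M * q * q)] [NeZero (M * q * q * ℓ)]
  [NeZero (M * ℓ)] in
include hq hℓ hℓN in
theorem coprime_up : Nat.Coprime ℓ q := by
  rw [Nat.coprime_primes hℓ hq]
  rintro rfl
  exact hℓN (Dvd.intro_left (M * ℓ) rfl)

/-- The valuation ring `V₁₁` of `L0 A N`. -/
abbrev VLow : ValuationSubring ↥(L0 A (M * q * q)) :=
  V11g A (M * q * q) q M B k (lvl q M) hB hq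

/-- The valuation ring `V₁₁` of `L0 A (N ℓ)`. -/
abbrev VUp : ValuationSubring ↥(L0 A (M * q * q * ℓ)) :=
  V11g A (M * q * q * ℓ) q (M * ℓ) B' k' (lvlUp q M ℓ) hB' hq

/-- The residue map of `V₁₁` at level `N`. -/
abbrev rLow : ↥(VLow A q M B k hB hq) →+* ↥(Ft A M) :=
  r11g A (M * q * q) q M B k (lvl q M) hB hq hqM hA rfl

/-- The residue map of `V₁₁` at level `N ℓ`. -/
abbrev rUp : ↥(VUp A q M ℓ B' k' hB' hq) →+* ↥(Ft A (M * ℓ)) :=
  r11g A (M * q * q * ℓ) q (M * ℓ) B' k' (lvlUp q M ℓ) hB' hq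
    (not_dvd_up q M ℓ hq hℓ hqM hℓN) hA (lvlUp2 q M ℓ)

include hB hℓ hℓN hA in
theorem mem_VUp_alpha_iff (a : ↥(L0 A (M * q * q))) :
    a ∈ VLow A q M B k hB hq
      ↔ @algebraMap ↥(L0 A (M * q * q)) ↥(L0 A (M * q * q * ℓ)) _ _
          (algAlphaL0 A (M * q * q) ℓ) a ∈ VUp A q M ℓ B' k' hB' hq :=
  (_root_.Fermat.Agent.S59.LL.SQ.H35.alpha_mem_V11_iff A q M ℓ B k B' k' hB hB' hq hA (coprime_up q M ℓ hq hℓ hℓN)
    (a : FN (M * q * q)) a.2).symm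

include hB in
theorem betaL0_mem_VUp (f : ↥(L0 A (M * q * q))) (hf : f ∈ VLow A q M B k hB hq) :
    betaL0 A (M * q * q) ℓ f ∈ VUp A q M ℓ B' k' hB' hq :=
  beta_mem_V11 A q M ℓ B k B' k' hB hB' hq (f : FN (M * q * q)) hf

/-- `r' (α a) = α~ (r a)`. -/
theorem rUp_alpha (a : ↥(VLow A q M B k hB hq))
    (ha : @algebraMap ↥(L0 A (M * q * q)) ↥(L0 A (M * q * q * ℓ)) _ _
      (algAlphaL0 A (M * q * q) ℓ) (a : ↥(L0 A (M * q * q))) ∈ VUp A q M ℓ B' k' hB' hq) :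
    rUp A q M ℓ B' k' hB' hq hℓ hqM hℓN hA ⟨_, ha⟩
      = alphaT A M ℓ (rLow A q M B k hB hq hqM hA a) := by
  apply Subtype.ext
  rw [coe_alphaT, coe_r11g, coe_r11g]
  exact red_alpha A q M ℓ B k B' k' hB hB' hq hA (coprime_up q M ℓ hq hℓ hℓN)
    ((a : ↥(L0 A (M * q * q))) : FN (M * q * q)) (a : ↥(L0 A (M * q * q))).2 a.2 ha

/-- `r' (β f) = β~ (r f)`. -/
theorem rUp_beta (f : ↥(VLow A q M B k hB hq))
    (hf : betaL0 A (M * q * q) ℓ (f : ↥(L0 A (M * q * q))) ∈ VUp A q M ℓ B' k' hB' hq) :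
    rUp A q M ℓ B' k' hB' hq hℓ hqM hℓN hA ⟨_, hf⟩
      = betaT A M ℓ (rLow A q M B k hB hq hqM hA f) := by
  apply Subtype.ext
  rw [coe_betaT, coe_r11g, coe_r11g]
  exact red_beta A q M ℓ B k B' k' hB hB' hq
    ((f : ↥(L0 A (M * q * q))) : FN (M * q * q)) f.2 hf

include hℓ hℓN in
theorem finrank_algAlphaL0 :
    @Module.finrank ↥(L0 A (M * q * q)) ↥(L0 A (M * q * q * ℓ)) _ _
      (algAlphaL0 A (M * q * q) ℓ).toModule = ℓ + 1 :=
  (finrank_L0_along A (heckeAlphaBar Kbar (M * q * q) ℓ) (arithEquivariant_alpha (M * q * q) ℓ)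
    (finiteAlong_alpha (M * q * q) ℓ)).trans (finrank_alpha_bar (M * q * q) ℓ hℓ hℓN)

include hq hℓ hqM hℓN hA in
theorem finrank_alphaT' :
    @Module.finrank ↥(Ft A M) ↥(Ft A (M * ℓ)) _ _ (algebraAlong (alphaT A M ℓ)).toModule
      = ℓ + 1 :=
  finrank_alphaT A M ℓ q hℓ (fun hd => hℓN (Dvd.dvd.mul_right (Dvd.dvd.mul_right hd q) q)) hq
    (not_dvd_up q M ℓ hq hℓ hqM hℓN) hA

include hB' hℓ hℓN in
/-- **NORM-RED for `V₁₁`**, with the Bezout data of level `M ℓ`. -/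
theorem hnorm11_aux (f : ↥(VLow A q M B k hB hq)) :
    ∃ h : heckeL0 A (M * q * q) ℓ (f : ↥(L0 A (M * q * q))) ∈ VLow A q M B k hB hq,
      rLow A q M B k hB hq hqM hA ⟨_, h⟩
        = normAlong (alphaT A M ℓ) (betaT A M ℓ (rLow A q M B k hB hq hqM hA f)) := by
  letI iA : Algebra ↥(L0 A (M * q * q)) ↥(L0 A (M * q * q * ℓ)) := algAlphaL0 A (M * q * q) ℓ
  letI iA' : Algebra ↥(Ft A M) ↥(Ft A (M * ℓ)) := algebraAlong (alphaT A M ℓ)
  haveI : Module.Finite ↥(L0 A (M * q * q)) ↥(L0 A (M * q * q * ℓ)) :=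
    finite_L0_along A (heckeAlphaBar Kbar (M * q * q) ℓ) (arithEquivariant_alpha (M * q * q) ℓ)
      (finiteAlong_alpha (M * q * q) ℓ)
  have hβ := betaL0_mem_VUp A q M ℓ B k B' k' hB hB' hq (f : ↥(L0 A (M * q * q))) f.2
  obtain ⟨hN, hNeq⟩ := Fermat.Agent.RED.H10.stmt_NormRedAbs ↥(L0 A (M * q * q))
    ↥(L0 A (M * q * q * ℓ)) ↥(Ft A M) ↥(Ft A (M * ℓ))
    (VLow A q M B k hB hq) (VUp A q M ℓ B' k' hB' hq)
    (rLow A q M B k hB hq hqM hA) (rUp A q M ℓ B' k' hB' hq hℓ hqM hℓN hA)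
    (mem_VUp_alpha_iff A q M ℓ B k B' k' hB hB' hq hℓ hℓN hA)
    (r11g_surjective A (M * q * q * ℓ) q (M * ℓ) B' k' (lvlUp q M ℓ) hB' hq
      (not_dvd_up q M ℓ hq hℓ hqM hℓN) hA (lvlUp2 q M ℓ))
    (r11g_eq_zero_iff A (M * q * q * ℓ) q (M * ℓ) B' k' (lvlUp q M ℓ) hB' hq
      (not_dvd_up q M ℓ hq hℓ hqM hℓN) hA (lvlUp2 q M ℓ))
    (rUp_alpha A q M ℓ B k B' k' hB hB' hq hℓ hqM hℓN hA)
    ((finrank_algAlphaL0 A q M ℓ hℓ hℓN).trans
      (finrank_alphaT' A q M ℓ hq hℓ hqM hℓN hA).symm)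
    ⟨_, hβ⟩
  refine ⟨hN, hNeq.trans ?_⟩
  rw [rUp_beta A q M ℓ B k B' k' hB hB' hq hℓ hqM hℓN hA f hβ]
  rfl

include hq hℓ hqM hℓN in
omit [NeZero M] [NeZero q] [NeZero ℓ] [NeZero (M * q * q)] [NeZero (M * q * q * ℓ)]
  [NeZero (M * ℓ)] in
theorem exists_bezout_up : ∃ B' k' : ℤ, B' * ((M * ℓ : ℕ) : ℤ) + k' * q = 1 := by
  have hcop : Nat.Coprime (M * ℓ) q :=
    ((Nat.Prime.coprime_iff_not_dvd hq).mpr (not_dvd_up q M ℓ hq hℓ hqM hℓN)).symm
  obtain ⟨u, v, huv⟩ := Nat.isCoprime_iff_coprime.mpr hcop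
  exact ⟨u, v, huv⟩

include hℓ hℓN in
/-- **NORM-RED for `V₁₁`** (helper35's `hnorm11`): for `f ∈ V₁₁ ∩ L0 A N`, `T_ℓ f = N_α (β f)`
lies in `V₁₁` and `r₁₁ (T_ℓ f) = N_{α~} (β~ (r₁₁ f))`. -/
theorem hnorm11 (f : ↥(VLow A q M B k hB hq)) :
    ∃ h : heckeL0 A (M * q * q) ℓ (f : ↥(L0 A (M * q * q))) ∈ VLow A q M B k hB hq,
      rLow A q M B k hB hq hqM hA ⟨_, h⟩
        = normAlong (alphaT A M ℓ) (betaT A M ℓ (rLow A q M B k hB hq hqM hA f)) := by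
  obtain ⟨B', k', hB'⟩ := exists_bezout_up q M ℓ hq hℓ hqM hℓN
  exact hnorm11_aux A q M ℓ B k B' k' hB hB' hq hℓ hqM hℓN hA f

include hℓ hqM hℓN hA in
/-- `T_ℓ` maps `V₁₁ ∩ L0` into itself. -/
theorem heckeL0_mem (f : ↥(L0 A (M * q * q))) (hf : f ∈ VLow A q M B k hB hq) :
    heckeL0 A (M * q * q) ℓ f ∈ VLow A q M B k hB hq :=
  (hnorm11 A q M ℓ B k hB hq hℓ hqM hℓN hA ⟨f, hf⟩).1

end NormRed

/-! ## NORM-VAL for `V₁₁` -/

/-- **NV11** (helper33's interface): `T_ℓ` maps the inertia-fixed `V₁₁`-units to `V₁₁`-units. -/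
theorem stmt_NV11 : Fermat.Agent.S59.LL.SQ.H33.Stmt_NV11 := by
  intro A q M B k hB hq _ _ _ hqM hA ℓ _ hℓ hℓN f hf hU
  obtain ⟨hf0, hfV, hfV'⟩ := hU
  haveI : NeZero (M * q * q * ℓ) := ⟨Nat.mul_ne_zero (NeZero.ne (M * q * q)) (NeZero.ne ℓ)⟩
  haveI : NeZero (M * ℓ) := ⟨Nat.mul_ne_zero (NeZero.ne M) (NeZero.ne ℓ)⟩
  set F : ↥(L0 A (M * q * q)) := ⟨f, hf⟩ with hF
  have hF0 : F ≠ 0 := fun h => hf0 (congrArg Subtype.val h)
  have h1 : heckeL0 A (M * q * q) ℓ F ∈ VLow A q M B k hB hq :=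
    heckeL0_mem A q M ℓ B k hB hq hℓ hqM hℓN hA F hfV
  have h2 : heckeL0 A (M * q * q) ℓ F⁻¹ ∈ VLow A q M B k hB hq :=
    heckeL0_mem A q M ℓ B k hB hq hℓ hqM hℓN hA F⁻¹ hfV'
  have hinv : heckeL0 A (M * q * q) ℓ F⁻¹ = (heckeL0 A (M * q * q) ℓ F)⁻¹ := by
    have h3 : heckeL0 A (M * q * q) ℓ F * heckeL0 A (M * q * q) ℓ F⁻¹ = 1 := by
      rw [← heckeL0_mul, mul_inv_cancel₀ hF0, heckeL0_one]
    exact eq_inv_of_mul_eq_one_right h3
  have e : ((heckeL0 A (M * q * q) ℓ F : ↥(L0 A (M * q * q))) : FN (M * q * q))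
      = Fermat.Agent.GTor.H2.heckeNormFn Kbar (M * q * q) ℓ f := coe_heckeL0 A (M * q * q) ℓ F
  refine ⟨Fermat.Agent.GTor.H2.heckeNormFn_ne_zero Kbar (M * q * q) ℓ
    (finiteAlong_alpha (M * q * q) ℓ) hf0, ?_, ?_⟩
  · rw [← e]
    exact h1
  · rw [← e, ← Subfield.coe_inv, ← hinv]
    exact h2

end Fermat.Agent.S59.LL.SQ.H87

end
end
-- ==== END Fermat.Agent.S59.LL.SQ.H87_NV11

-- ==== BEGIN Fermat.Agent.S59.LL.SQ.H89_LowGlue
section

/-!
# S59 / LL / SQ, step (T'), leaf G5 (ii) (helper89): LOW → GLUE, abstract part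

Setting: helper79's `NUData` `D`, its lower level `D.T'` (two valuations `p₁`, `p₂`, the
reduction map `ρ`, the bijection `β` of the two components), `L₀' ⊂ L'` the inertia-fixed
functions of the lower level, helper86's `GlueLow`.

* `exists_common_value_low` : a unit for both valuations without zero or pole on the fibre of a
  node takes the same non-zero value on the two branches;
* `glueLow_of_tor` : **G5 (ii)**.  If `f ∈ L₀'`, `h ∈ L'` a unit for both valuations, the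
  reductions of `f hⁿ` are `ψ₁ⁿ`, `ψ₂ⁿ`, `f hⁿ` has no zero or pole on the fibres of the nodes
  `zz z` (`z ∈ SS`), the values of `ψ₁`, `ψ₂` at the two branches are `a`, `θ z · a`, and `f` has
  local generators in `L₀'` (GENLOW), then `GlueLow D zz n f θ`.

The value ratio does not depend on the generator: for a local generator `s ∈ L₀'`, `s / h` is a
unit of `R_{zz z}`, so it takes the same value on both branches (relation of the node).
-/

set_option autoImplicit false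
set_option linter.style.haveILetI false
set_option linter.unusedSectionVars false

noncomputable section

open AlgebraicCurve

attribute [local instance] Classical.propDecidable

namespace Fermat.Agent.S59.LL.SQ.H89LG

open Fermat.Agent.RED.H17 Fermat.Agent.RED Fermat.Agent.BAD.H79 Fermat.Agent.BAD
  Fermat.Agent.S36.NU.H79 Fermat.Agent.S59.LL.SQ.H40 Fermat.Agent.S59.LL.SQ.H86

section Low

variable {K' L' k L₁ L₂ : Type*} [Field K'] [Field L'] [Algebra K' L'] [Field k]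
  [Field L₁] [Algebra k L₁] [Field L₂] [Algebra k L₂]

/-- A unit for both valuations without zero or pole on the fibre of a node takes the same
non-zero value on the two branches. -/
theorem exists_common_value_low [Infinite k] (hP : HasPrincipalDivisors K' L')
    (T' : TotData K' L' k L₁ L₂) {z' : Place k L₁} (hnode : T'.IsNode z') (hd₁ : z'.deg = 1)
    {w : L'} (hw₁ : T'.p₁.IsGU w) (hw₂ : T'.p₂.IsGU w)
    (hord : ∀ Q, T'.ρ Q = z' → Q.ord w = 0) :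
    ∃ τ : k, τ ≠ 0 ∧ HasValue z' (T'.p₁.rd w) τ ∧ HasValue (T'.β z') (T'.p₂.rd w) τ := by
  have hR : T'.InR z' w :=
    ⟨hw₁.mem, hw₂.mem, fun Q hQ => regAt_of_ord_nonneg (hord Q hQ).ge⟩
  obtain ⟨τ, hτ⟩ := exists_value z' hd₁ (hR.regAt₁ hP)
  have hτ₁ : HasValue z' (T'.p₁.rd w) τ := hτ
  have hτ₂ : HasValue (T'.β z') (T'.p₂.rd w) τ := (hnode w hR τ).mp hτ
  refine ⟨τ, ?_, hτ₁, hτ₂⟩
  rintro rfl
  have hRi : T'.InR z' w⁻¹ := ⟨hw₁.inv_mem, hw₂.inv_mem, fun Q hQ =>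
    regAt_of_ord_nonneg (by rw [Place.ord_inv, hord Q hQ, neg_zero])⟩
  obtain ⟨σ, hσ⟩ := exists_value z' hd₁ (hRi.regAt₁ hP)
  have hσ₁ : HasValue z' (T'.p₁.rd w⁻¹) σ := hσ
  have h1 : HasValue z' (T'.p₁.rd w * T'.p₁.rd w⁻¹) (0 * σ) := hτ₁.mul hσ₁
  rw [← T'.p₁.rd_mul hw₁.mem hw₁.inv_mem, mul_inv_cancel₀ hw₁.ne_zero, T'.p₁.rd_one,
    zero_mul] at h1
  exact one_ne_zero ((hasValue_one z').unique h1)

end Low

variable {K L₀ L k ι Z : Type*} {E : ι → Type*} {K' L' L₁ L₂ : Type*}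
  [Field K] [Field L₀] [Field L] [Algebra K L] [Algebra L₀ L] [Field k] [Fintype ι]
  [∀ i, Field (E i)] [∀ i, Algebra k (E i)] [Field K'] [Field L'] [Algebra K' L']
  [Field L₁] [Algebra k L₁] [Field L₂] [Algebra k L₂]
  {L₀' : Type*} [Field L₀'] [Algebra L₀' L']

variable (D : NUData K L₀ L k ι Z E K' L' L₁ L₂)

/-- The quotient of a local generator (in `L₀'`) of `f` by a global root `h` of `f hⁿ` has no
zero or pole on the fibre. -/
theorem ord_quot_eq_zero {n : ℕ} (hn : n ≠ 0) {z' : Place k L₁} {f s : L₀'} {h : L'}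
    (hf0 : f ≠ 0) (hs0 : s ≠ 0) (hh0 : h ≠ 0)
    (hs : ∀ Q, D.T'.ρ Q = z' → Q.ord (algebraMap L₀' L' (f * s ^ n)) = 0)
    (hord : ∀ Q, D.T'.ρ Q = z' → Q.ord (algebraMap L₀' L' f * h ^ n) = 0)
    (Q : Place K' L') (hQ : D.T'.ρ Q = z') : Q.ord (algebraMap L₀' L' s / h) = 0 := by
  have hF0 : algebraMap L₀' L' f ≠ 0 := (map_ne_zero (algebraMap L₀' L')).2 hf0
  have hS0 : algebraMap L₀' L' s ≠ 0 := (map_ne_zero (algebraMap L₀' L')).2 hs0
  have e : (algebraMap L₀' L' s / h) ^ n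
      = algebraMap L₀' L' (f * s ^ n) * (algebraMap L₀' L' f * h ^ n)⁻¹ := by
    rw [map_mul, map_pow, div_pow]
    have hX : h ^ n ≠ 0 := pow_ne_zero n hh0
    generalize h ^ n = X at hX ⊢
    generalize algebraMap L₀' L' s ^ n = Y
    field_simp
  have h1 : algebraMap L₀' L' (f * s ^ n) ≠ 0 :=
    (map_ne_zero (algebraMap L₀' L')).2 (mul_ne_zero hf0 (pow_ne_zero n hs0))
  have h2 : (algebraMap L₀' L' f * h ^ n)⁻¹ ≠ 0 :=
    inv_ne_zero (mul_ne_zero hF0 (pow_ne_zero n hh0))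
  have h3 : Q.ord ((algebraMap L₀' L' s / h) ^ n) = 0 := by
    rw [e, Place.ord_mul _ h1 h2, Place.ord_inv, hs Q hQ, hord Q hQ]
    simp
  rw [ord_pow] at h3
  rcases mul_eq_zero.mp h3 with h4 | h4
  · exact absurd (by exact_mod_cast h4) hn
  · exact h4

/-- **G5 (ii), abstract form**: gluing data of the lower level from a torsion triple
`(f hⁿ, ψ₁, ψ₂)` with prescribed value ratio at the nodes and local generators in `L₀'`. -/
theorem glueLow_of_tor [Infinite k] (hP : HasPrincipalDivisors K' L')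
    {zz : Z → Place k L₁} (hnode : ∀ z ∈ D.SS, D.T'.IsNode (zz z))
    (hd₁ : ∀ z ∈ D.SS, (zz z).deg = 1)
    {n : ℕ} (hn : n ≠ 0) {f : L₀'} {h : L'} {ψ₁ : L₁} {ψ₂ : L₂} {θ : Z → k}
    (hh₁ : D.T'.p₁.IsGU h) (hh₂ : D.T'.p₂.IsGU h)
    (hG₁ : D.T'.p₁.IsGU (algebraMap L₀' L' f * h ^ n))
    (hG₂ : D.T'.p₂.IsGU (algebraMap L₀' L' f * h ^ n))
    (hrd₁ : D.T'.p₁.rd (algebraMap L₀' L' f * h ^ n) = ψ₁ ^ n)
    (hrd₂ : D.T'.p₂.rd (algebraMap L₀' L' f * h ^ n) = ψ₂ ^ n)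
    (hord : ∀ z ∈ D.SS, ∀ Q, D.T'.ρ Q = zz z → Q.ord (algebraMap L₀' L' f * h ^ n) = 0)
    (hval : ∀ z ∈ D.SS, ∃ a b : k, a ≠ 0 ∧ b ≠ 0 ∧ HasValue (zz z) ψ₁ a ∧
      HasValue (D.T'.β (zz z)) ψ₂ b ∧ b = θ z * a)
    (hgen : ∀ z ∈ D.SS, ∃ s : L₀', IsGenLow D n (zz z) f s) :
    GlueLow D zz n f θ := by
  have hh0 : h ≠ 0 := hh₁.ne_zero
  have hX : h ^ n ≠ 0 := pow_ne_zero n hh0
  have eF : algebraMap L₀' L' f = (algebraMap L₀' L' f * h ^ n) / h ^ n := by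
    rw [mul_div_assoc, div_self hX, mul_one]
  have hF₁ : D.T'.p₁.IsGU (algebraMap L₀' L' f) := by
    rw [eF]; exact hG₁.div (hh₁.pow n)
  have hF₂ : D.T'.p₂.IsGU (algebraMap L₀' L' f) := by
    rw [eF]; exact hG₂.div (hh₂.pow n)
  have hF0 : algebraMap L₀' L' f ≠ 0 := hF₁.ne_zero
  have hf0 : f ≠ 0 := fun h0 => hF0 (by rw [h0, map_zero])
  have hr₁ : D.T'.p₁.rd (algebraMap L₀' L' f) = (ψ₁ / D.T'.p₁.rd h) ^ n := by
    conv_lhs => rw [eF]
    rw [hG₁.rd_div (hh₁.pow n), hrd₁, D.T'.p₁.rd_pow hh₁.mem, div_pow]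
  have hr₂ : D.T'.p₂.rd (algebraMap L₀' L' f) = (ψ₂ / D.T'.p₂.rd h) ^ n := by
    conv_lhs => rw [eF]
    rw [hG₂.rd_div (hh₂.pow n), hrd₂, D.T'.p₂.rd_pow hh₂.mem, div_pow]
  refine ⟨hF₁.rd_ne_zero, hF₂.rd_ne_zero, fun z hz => ?_, 1, ψ₁ / D.T'.p₁.rd h,
    ψ₂ / D.T'.p₂.rd h, one_ne_zero, ?_, ?_, fun z hz => ?_⟩
  · obtain ⟨a, b, ha, hb, -, -, hab⟩ := hval z hz
    intro h0
    rw [h0, zero_mul] at hab
    exact hb hab
  · rw [map_one, one_mul, hr₁]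
  · rw [map_one, one_mul, hr₂]
  · obtain ⟨s, hs⟩ := hgen z hz
    obtain ⟨a, b, ha, hb, hva, hvb, hab⟩ := hval z hz
    have hS₁ : D.T'.p₁.IsGU (algebraMap L₀' L' s) := isGU_of_rd_ne_zero _ hs.1
    have hS₂ : D.T'.p₂.IsGU (algebraMap L₀' L' s) := isGU_of_rd_ne_zero _ hs.2.1
    have hs0 : s ≠ 0 := fun h0 => hS₁.ne_zero (by rw [h0, map_zero])
    have hw₁ : D.T'.p₁.IsGU (algebraMap L₀' L' s / h) := hS₁.div hh₁
    have hw₂ : D.T'.p₂.IsGU (algebraMap L₀' L' s / h) := hS₂.div hh₂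
    obtain ⟨τ, hτ0, hτ₁, hτ₂⟩ := exists_common_value_low hP D.T' (hnode z hz) (hd₁ z hz)
      hw₁ hw₂ (ord_quot_eq_zero D hn hf0 hs0 hh0 hs.2.2 (hord z hz))
    refine ⟨s, a * τ, hs, mul_ne_zero ha hτ0, ?_, ?_⟩
    · have e : ψ₁ / D.T'.p₁.rd h * D.T'.p₁.rd (algebraMap L₀' L' s)
          = ψ₁ * D.T'.p₁.rd (algebraMap L₀' L' s / h) := by
        rw [hS₁.rd_div hh₁]; ring
      rw [e]
      exact hva.mul hτ₁
    · have e : ψ₂ / D.T'.p₂.rd h * D.T'.p₂.rd (algebraMap L₀' L' s)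
          = ψ₂ * D.T'.p₂.rd (algebraMap L₀' L' s / h) := by
        rw [hS₂.rd_div hh₂]; ring
      have e' : θ z * (a * τ) = b * τ := by rw [hab]; ring
      rw [e, e']
      exact hvb.mul hτ₂

/-- `GlueLow` only depends on the values of `θ` on the triple points. -/
theorem glueLow_congr {zz : Z → Place k L₁} {n : ℕ} {f : L₀'} {θ θ' : Z → k}
    (h : GlueLow D zz n f θ) (hθ : ∀ z ∈ D.SS, θ z = θ' z) : GlueLow D zz n f θ' := by
  obtain ⟨c, G₁, G₂, hc, hG₁, hG₂, hgl⟩ := h.glue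
  refine ⟨h.unit₁, h.unit₂, fun z hz => ?_, c, G₁, G₂, hc, hG₁, hG₂, fun z hz => ?_⟩
  · rw [← hθ z hz]; exact h.ne z hz
  · rw [← hθ z hz]; exact hgl z hz

/-- **G5 (ii), abstract form, second version**: `f` (instead of `h`) is a unit for both
valuations. -/
theorem glueLow_of_tor' [Infinite k] (hP : HasPrincipalDivisors K' L')
    {zz : Z → Place k L₁} (hnode : ∀ z ∈ D.SS, D.T'.IsNode (zz z))
    (hd₁ : ∀ z ∈ D.SS, (zz z).deg = 1)
    {n : ℕ} (hn : n ≠ 0) {f : L₀'} {h : L'} {ψ₁ : L₁} {ψ₂ : L₂} {θ : Z → k}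
    (hF₁ : D.T'.p₁.IsGU (algebraMap L₀' L' f)) (hF₂ : D.T'.p₂.IsGU (algebraMap L₀' L' f))
    (hG₁ : D.T'.p₁.IsGU (algebraMap L₀' L' f * h ^ n))
    (hG₂ : D.T'.p₂.IsGU (algebraMap L₀' L' f * h ^ n))
    (hrd₁ : D.T'.p₁.rd (algebraMap L₀' L' f * h ^ n) = ψ₁ ^ n)
    (hrd₂ : D.T'.p₂.rd (algebraMap L₀' L' f * h ^ n) = ψ₂ ^ n)
    (hord : ∀ z ∈ D.SS, ∀ Q, D.T'.ρ Q = zz z → Q.ord (algebraMap L₀' L' f * h ^ n) = 0)
    (hval : ∀ z ∈ D.SS, ∃ a b : k, a ≠ 0 ∧ b ≠ 0 ∧ HasValue (zz z) ψ₁ a ∧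
      HasValue (D.T'.β (zz z)) ψ₂ b ∧ b = θ z * a)
    (hgen : ∀ z ∈ D.SS, ∃ s : L₀', IsGenLow D n (zz z) f s) :
    GlueLow D zz n f θ := by
  have hF0 : algebraMap L₀' L' f ≠ 0 := hF₁.ne_zero
  have e : h ^ n = (algebraMap L₀' L' f * h ^ n) / algebraMap L₀' L' f := by
    rw [mul_comm, mul_div_assoc, div_self hF0, mul_one]
  have hh₁ : D.T'.p₁.IsGU h := isGU_of_pow _ hn (by rw [e]; exact hG₁.div hF₁)
  have hh₂ : D.T'.p₂.IsGU h := isGU_of_pow _ hn (by rw [e]; exact hG₂.div hF₂)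
  exact glueLow_of_tor D hP hnode hd₁ hn hh₁ hh₂ hG₁ hG₂ hrd₁ hrd₂ hord hval hgen

/-- The orders of `f` are divisible by `n` if those of `f hⁿ` are. -/
theorem dvd_ord_of_mul_pow {n : ℕ} {f : L₀'} {h : L'} (hf0 : algebraMap L₀' L' f ≠ 0)
    (hh0 : h ≠ 0) (hdvd : ∀ Q : Place K' L', (n : ℤ) ∣ Q.ord (algebraMap L₀' L' f * h ^ n))
    (Q : Place K' L') : (n : ℤ) ∣ Q.ord (algebraMap L₀' L' f) := by
  have h1 := hdvd Q
  rw [Place.ord_mul _ hf0 (pow_ne_zero n hh0), ord_pow] at h1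
  exact (Int.dvd_add_left (Dvd.intro _ rfl)).mp h1

end Fermat.Agent.S59.LL.SQ.H89LG

end
end
-- ==== END Fermat.Agent.S59.LL.SQ.H89_LowGlue

-- ==== BEGIN Fermat.Agent.S59.LL.SQ.H92_GenLow
section

set_option autoImplicit false
set_option linter.style.haveILetI false
set_option linter.unusedSectionVars false

noncomputable section

open AlgebraicCurve

namespace Fermat.Agent.S59.LL.SQ.H92

open Fermat.Agent.RED.H17 Fermat.Agent.RED Fermat.Agent.BAD.H79 Fermat.Agent.BAD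
  Fermat.Agent.S36.NU.H79 Fermat.Agent.S59.LL.SQ.H40 Fermat.Agent.S59.LL.SQ.H86

variable {K L₀ L k ι Z : Type*} {E : ι → Type*} {K' L' L₁ L₂ : Type*}
  [Field K] [Field L₀] [Field L] [Algebra K L] [Algebra L₀ L] [Field k] [Fintype ι]
  [∀ i, Field (E i)] [∀ i, Algebra k (E i)] [Field K'] [Field L'] [Algebra K' L']
  [Field L₁] [Algebra k L₁] [Field L₂] [Algebra k L₂]
  {L₀' : Type*} [Field L₀'] [Algebra L₀' L']

/-- Integral powers of Gauss units are Gauss units. -/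
theorem isGU_zpow_gl {F' : Type*} [Field F'] [Algebra k F'] {S : PRed K' L' k F'} {f : L'}
    (h : S.IsGU f) (n : ℤ) : S.IsGU (f ^ n) := by
  rcases Int.eq_nat_or_neg n with ⟨m, rfl | rfl⟩
  · rw [zpow_natCast]
    exact h.pow m
  · rw [zpow_neg, zpow_natCast]
    exact (h.pow m).inv

variable {D : NUData K L₀ L k ι Z E K' L' L₁ L₂}

/-- The abstract core: descent of a local generator along a norm `Nm` of degree `q`. -/
theorem isGenLow_of_norm (Nm : L₀ →* L') (p : L₀' →+* L₀) (z' : Place k L₁)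
    (hN : ∀ g : L₀', Nm (p g) = algebraMap L₀' L' g ^ D.q)
    (hmem : ∀ h : L₀, ∃ t : L₀', algebraMap L₀' L' t = Nm h)
    (hu₁ : ∀ h : L₀, (∀ i, D.T.rdN i h ≠ 0) → D.T'.p₁.rd (Nm h) ≠ 0)
    (hu₂ : ∀ h : L₀, (∀ i, D.T.rdN i h ≠ 0) → D.T'.p₂.rd (Nm h) ≠ 0)
    {z : Z}
    (hfib : ∀ h : L₀, (∀ P, D.T.ρ P = z → P.ord (algebraMap L₀ L h) = 0) →
      ∀ Q, D.T'.ρ Q = z' → Q.ord (Nm h) = 0)
    {n : ℕ} (hcop : Nat.Coprime D.q n) {f : L₀'}
    (hf₁ : D.T'.p₁.rd (algebraMap L₀' L' f) ≠ 0) (hf₂ : D.T'.p₂.rd (algebraMap L₀' L' f) ≠ 0)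
    {s' : L₀} (hs : D.IsGen n z (p f) s') :
    ∃ s : L₀', IsGenLow D n z' f s := by
  obtain ⟨t, ht⟩ := hmem s'
  -- Bezout
  have hb : (D.q : ℤ) * Nat.gcdA D.q n + (n : ℤ) * Nat.gcdB D.q n = 1 := by
    have := Nat.gcd_eq_gcd_ab D.q n
    rw [hcop.gcd_eq_one] at this
    rw [← this]
    simp
  set u : ℤ := Nat.gcdA D.q n with hu
  set v : ℤ := Nat.gcdB D.q n with hv
  have hGf₁ : D.T'.p₁.IsGU (algebraMap L₀' L' f) := isGU_of_rd_ne_zero _ hf₁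
  have hGf₂ : D.T'.p₂.IsGU (algebraMap L₀' L' f) := isGU_of_rd_ne_zero _ hf₂
  have hGt₁ : D.T'.p₁.IsGU (algebraMap L₀' L' t) := by
    have h := isGU_of_rd_ne_zero D.T'.p₁ (hu₁ s' hs.1)
    rwa [← ht] at h
  have hGt₂ : D.T'.p₂.IsGU (algebraMap L₀' L' t) := by
    have h := isGU_of_rd_ne_zero D.T'.p₂ (hu₂ s' hs.1)
    rwa [← ht] at h
  have hf0' : algebraMap L₀' L' f ≠ 0 := hGf₁.ne_zero
  have ht0' : algebraMap L₀' L' t ≠ 0 := hGt₁.ne_zero
  have hf0 : f ≠ 0 := fun h => hf0' (by rw [h, map_zero])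
  have ht0 : t ≠ 0 := fun h => ht0' (by rw [h, map_zero])
  refine ⟨t ^ u * f ^ (-v), ?_, ?_, ?_⟩
  · have e : algebraMap L₀' L' (t ^ u * f ^ (-v))
        = algebraMap L₀' L' t ^ u * algebraMap L₀' L' f ^ (-v) := by
      rw [map_mul, map_zpow₀, map_zpow₀]
    rw [e]
    exact ((isGU_zpow_gl hGt₁ u).mul (isGU_zpow_gl hGf₁ (-v))).rd_ne_zero
  · have e : algebraMap L₀' L' (t ^ u * f ^ (-v))
        = algebraMap L₀' L' t ^ u * algebraMap L₀' L' f ^ (-v) := by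
      rw [map_mul, map_zpow₀, map_zpow₀]
    rw [e]
    exact ((isGU_zpow_gl hGt₂ u).mul (isGU_zpow_gl hGf₂ (-v))).rd_ne_zero
  · intro Q hQ
    -- `f s ^ n = (f ^ q t ^ n) ^ u`
    have e1 : f * (t ^ u * f ^ (-v)) ^ n = (f ^ D.q * t ^ n) ^ u := by
      have h1 : (t ^ u * f ^ (-v)) ^ n = t ^ (u * n) * f ^ (-v * n) := by
        rw [mul_pow, ← zpow_natCast (t ^ u) n, ← zpow_natCast (f ^ (-v)) n, ← zpow_mul,
          ← zpow_mul]
      have h2 : (f ^ D.q * t ^ n) ^ u = f ^ ((D.q : ℤ) * u) * t ^ ((n : ℤ) * u) := by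
        rw [mul_zpow, ← zpow_natCast f D.q, ← zpow_natCast t n, ← zpow_mul, ← zpow_mul]
      rw [h1, h2]
      have h3 : f * (t ^ (u * n) * f ^ (-v * n)) = f ^ (1 + -v * (n : ℤ)) * t ^ (u * n) := by
        rw [zpow_add₀ hf0, zpow_one]
        ring
      rw [h3]
      have h4 : (1 : ℤ) + -v * n = (D.q : ℤ) * u := by
        have := hb
        linarith
      rw [h4, mul_comm u (n : ℤ)]
    have e2 : algebraMap L₀' L' (f * (t ^ u * f ^ (-v)) ^ n) = Nm (p f * s' ^ n) ^ u := by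
      rw [e1, map_zpow₀, map_mul, map_pow, map_pow, map_mul, map_pow, hN, ht]
    rw [e2, Place.ord_zpow, hfib _ hs.2 Q hQ, mul_zero]

/-- **GENLOW along `α`**. -/
theorem isGenLow_of_pullA {pα : L₀' →+* L₀}
    (hN : ∀ g : L₀', D.Nα (pα g) = algebraMap L₀' L' g ^ D.q)
    (hmem : ∀ h : L₀, ∃ t : L₀', algebraMap L₀' L' t = D.Nα h)
    {n : ℕ} (hcop : Nat.Coprime D.q n) {z : Z} (hz : z ∈ D.SS) {f : L₀'}
    (hf₁ : D.T'.p₁.rd (algebraMap L₀' L' f) ≠ 0) (hf₂ : D.T'.p₂.rd (algebraMap L₀' L' f) ≠ 0)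
    {s' : L₀} (hs : D.IsGen n z (pα f) s') :
    ∃ s : L₀', IsGenLow D n (D.zα z) f s := by
  refine isGenLow_of_norm (D := D) D.Nα pα (D.zα z) hN hmem (fun h hh => ?_) (fun h hh => ?_)
    (D.fibα z hz) hcop hf₁ hf₂ hs
  · rw [D.normα₁ h hh]
    exact mul_ne_zero (D.A₂₀.N_ne_zero (hh _)) (pow_ne_zero _ (D.A₁₁.N_ne_zero (hh _)))
  · rw [D.normα₂ h hh]
    exact D.A₀₂.N_ne_zero (hh _)

/-- **GENLOW along `β`**. -/
theorem isGenLow_of_pullB {pβ : L₀' →+* L₀}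
    (hN : ∀ g : L₀', D.Nβ (pβ g) = algebraMap L₀' L' g ^ D.q)
    (hmem : ∀ h : L₀, ∃ t : L₀', algebraMap L₀' L' t = D.Nβ h)
    {n : ℕ} (hcop : Nat.Coprime D.q n) {z : Z} (hz : z ∈ D.SS) {f : L₀'}
    (hf₁ : D.T'.p₁.rd (algebraMap L₀' L' f) ≠ 0) (hf₂ : D.T'.p₂.rd (algebraMap L₀' L' f) ≠ 0)
    {s' : L₀} (hs : D.IsGen n z (pβ f) s') :
    ∃ s : L₀', IsGenLow D n (D.zβ z) f s := by
  refine isGenLow_of_norm (D := D) D.Nβ pβ (D.zβ z) hN hmem (fun h hh => ?_) (fun h hh => ?_)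
    (D.fibβ z hz) hcop hf₁ hf₂ hs
  · rw [D.normβ₁ h hh]
    exact D.B₂₀.N_ne_zero (hh _)
  · rw [D.normβ₂ h hh]
    exact mul_ne_zero (pow_ne_zero _ (D.B₁₁.N_ne_zero (hh _))) (D.B₀₂.N_ne_zero (hh _))

end Fermat.Agent.S59.LL.SQ.H92

end
end
-- ==== END Fermat.Agent.S59.LL.SQ.H92_GenLow

-- ==== BEGIN Fermat.Agent.S59.LL.SQ.H94_RegUp
section

/-!
# S59 / LL / SQ, leaf U3 REG-UP (helper94)

Level `N = M q²`, `q ∤ M`, `ℓ ≠ q` prime, `A` a valuation ring of `ℚ̄` over `q`.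

* `Reg11 … p U` : **REG at `V₁₁`** (R1), for a level `N = M' q²` given up to equality (helper35's
  `V11g`, `r11g`) and relative to a condition `U` on the inertia-fixed functions (in the
  application `U = IsUnit3`): if `p` divides all the orders of `h ∈ L0 A N` and `U h`, then `p`
  divides all the orders of the reduction `r₁₁ h` on the reduced field `Ft A M'`;
* `reg11_up` : `Reg11` at the level `(M ℓ) q²` implies `Reg11` at the level `M q²`, if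
  `[F~_{M ℓ} : F~_M] < p` and `U h → U' (α h)`;
* `reg11_up_of_lt` : the same for `ℓ + 1 < p`.

[`H35.alpha_mem_V11_iff`, `H35.red_alpha` (the reduction of `α h` is that of `h`),
`Place.ord_restrictAlong`, and the descent `S43.CompEis.H57.dvd_ord_intermediate`.]

No `sorry`.
-/

set_option autoImplicit false
set_option linter.style.haveILetI false
set_option linter.unusedSectionVars false
set_option synthInstance.maxHeartbeats 400000
set_option maxHeartbeats 1000000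

noncomputable section

open AlgebraicCurve ModularCurve
open Fermat.Agent.S24 Fermat.Agent.BAD Fermat.Agent.BAD.H88
open Fermat.Agent.S28 Fermat.Agent.S28.H73 Fermat.Agent.RED.H73 Fermat.Agent.RED.H17
open Fermat.Agent.S36.NU.H88 Fermat.Agent.S36.NU.H23 Fermat.Agent.S36.NU.H26
open Fermat.Agent.S43.Old.H35 Fermat.Agent.Lib.HeckeComm

namespace Fermat.Agent.S59.LL.SQ.H94

open Fermat.Agent.S59.LL.SQ.H35

section Def

variable (A : ValuationSubring Kbar) (N q M' : ℕ) (B' k' : ℤ) (hN : N = M' * (q * q))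
  (hB' : B' * M' + k' * q = 1) (hq : q.Prime) [NeZero N] [NeZero q] [NeZero M']
  (hqM' : ¬ q ∣ M') (hA : A.LiesOverPrime q) (hN2 : N = M' * q * q)

/-- **REG at `V₁₁`**, relative to a condition `U`. -/
def Reg11 (p : ℕ) (U : ↥(L0 A N) → Prop) : Prop :=
  ∀ h : ↥(L0 A N),
    (∀ P : Place Kbar ↥(modularFunctionFieldBar N), (p : ℤ) ∣ P.ord (h : FN N)) → U h →
    ∀ h11 : h ∈ V11g A N q M' B' k' hN hB' hq,
    ∀ Q : Place (kV A) ↥(Ft A M'),
      (p : ℤ) ∣ Q.ord (r11g A N q M' B' k' hN hB' hq hqM' hA hN2 ⟨h, h11⟩)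

end Def

section Up

variable (A : ValuationSubring Kbar) (q M ℓ : ℕ) (B k B' k' : ℤ) (hB : B * M + k * q = 1)
  (hB' : B' * ((M * ℓ : ℕ) : ℤ) + k' * q = 1) (hq : q.Prime)
  [NeZero M] [NeZero q] [NeZero ℓ] [NeZero (M * q * q)] [NeZero (M * q * q * ℓ)]
  [NeZero (M * ℓ)]
  (hqM : ¬ q ∣ M) (hqMℓ : ¬ q ∣ M * ℓ) (hA : A.LiesOverPrime q)

omit [NeZero M] [NeZero q] [NeZero ℓ] [NeZero (M * q * q)] [NeZero (M * q * q * ℓ)]
  [NeZero (M * ℓ)] in
theorem lvlUp2 : M * q * q * ℓ = M * ℓ * q * q := by ring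

/-- `α h` as an element of `L0`. -/
def alphaL0 (h : ↥(L0 A (M * q * q))) : ↥(L0 A (M * q * q * ℓ)) :=
  ⟨heckeAlphaBar Kbar (M * q * q) ℓ (h : FN (M * q * q)),
    Fermat.Agent.S36.NU.H82.alpha_mem_L0 A (M * q * q) ℓ _ h.2⟩

/-- **REG-UP.** -/
theorem reg11_up (hℓq : Nat.Coprime ℓ q) (p : ℕ) (hp : p.Prime)
    (hdeg : (Ft A M).relfinrank (Ft A (M * ℓ)) < p)
    (U : ↥(L0 A (M * q * q)) → Prop) (U' : ↥(L0 A (M * q * q * ℓ)) → Prop)
    (hU : ∀ h : ↥(L0 A (M * q * q)), U h → U' (alphaL0 A q M ℓ h))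
    (hup : Reg11 A (M * q * q * ℓ) q (M * ℓ) B' k' (lvlUp q M ℓ) hB' hq hqMℓ hA
      (lvlUp2 q M ℓ) p U') :
    Reg11 A (M * q * q) q M B k (lvl q M) hB hq hqM hA rfl p U := by
  intro h hord hUh h11 Q
  haveI : IsAlgClosed (kV A) := isAlgClosed_kV A
  have hE : Fermat.Agent.RED.IsFF Kbar (FN (M * q * q)) := Fermat.Agent.RED.H95.isFF_FN _
  have hL : Fermat.Agent.RED.IsFF Kbar (FN (M * q * q * ℓ)) := Fermat.Agent.RED.H95.isFF_FN _
  -- the orders of `α h`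
  have hord' : ∀ P : Place Kbar ↥(modularFunctionFieldBar (M * q * q * ℓ)),
      (p : ℤ) ∣ P.ord ((alphaL0 A q M ℓ h : ↥(L0 A (M * q * q * ℓ))) : FN (M * q * q * ℓ)) := by
    intro P
    have h1 := Place.ord_restrictAlong (heckeAlphaBar Kbar (M * q * q) ℓ)
      (Fermat.Agent.NEB.H14.isIntegral_hom hE hL _) P (h : FN (M * q * q))
    show (p : ℤ) ∣ P.ord (heckeAlphaBar Kbar (M * q * q) ℓ (h : FN (M * q * q)))
    rw [h1]
    exact Dvd.dvd.mul_left (hord _) _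
  -- `α h ∈ V₁₁`
  have h11c : cM q M B k hB hq (h : FN (M * q * q)) ∈ gaussRingV A := h11
  have h11' : alphaL0 A q M ℓ h ∈ V11g A (M * q * q * ℓ) q (M * ℓ) B' k' (lvlUp q M ℓ) hB' hq :=
    (_root_.Fermat.Agent.S59.LL.SQ.H35.alpha_mem_V11_iff A q M ℓ B k B' k' hB hB' hq hA hℓq _ h.2).mpr h11c
  have key := hup (alphaL0 A q M ℓ h) hord' (hU h hUh) h11'
  -- the reductions agree
  have hg : ((r11g A (M * q * q * ℓ) q (M * ℓ) B' k' (lvlUp q M ℓ) hB' hq hqMℓ hA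
        (lvlUp2 q M ℓ) ⟨alphaL0 A q M ℓ h, h11'⟩ : ↥(Ft A (M * ℓ))) : LaurentSeries (kV A))
      = ((r11g A (M * q * q) q M B k (lvl q M) hB hq hqM hA rfl ⟨h, h11⟩ : ↥(Ft A M)) :
          LaurentSeries (kV A)) := by
    rw [coe_r11g, coe_r11g, s11g_mk, s11g_mk]
    exact red_alpha A q M ℓ B k B' k' hB hB' hq hA hℓq _ h.2 h11c h11'
  have hqℓ' : ¬ q ∣ M * ℓ := hqMℓ
  exact Fermat.Agent.S43.CompEis.H57.dvd_ord_intermediate (ft_le A (dvd_mul_right M ℓ))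
    (Fermat.Agent.S43.CompEis.H57.isFF_redN_of_not_dvd hq hqM hA)
    (Fermat.Agent.S43.CompEis.H57.isFF_redN_of_not_dvd hq hqℓ' hA) p hp hdeg _ _ hg key Q

/-- **REG-UP** for `ℓ + 1 < p`. -/
theorem reg11_up_of_lt (hℓ : ℓ.Prime) (hℓq : ℓ ≠ q) (p : ℕ) (hp : p.Prime) (hlt : ℓ + 1 < p)
    (U : ↥(L0 A (M * q * q)) → Prop) (U' : ↥(L0 A (M * q * q * ℓ)) → Prop)
    (hU : ∀ h : ↥(L0 A (M * q * q)), U h → U' (alphaL0 A q M ℓ h))
    (hup : Reg11 A (M * q * q * ℓ) q (M * ℓ) B' k' (lvlUp q M ℓ) hB' hq hqMℓ hA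
      (lvlUp2 q M ℓ) p U') :
    Reg11 A (M * q * q) q M B k (lvl q M) hB hq hqM hA rfl p U := by
  have hcop : Nat.Coprime ℓ q := (Nat.coprime_primes hℓ hq).mpr hℓq
  have hdeg := Fermat.Agent.S43.CompEis.H57.relfinrank_redN_le (A := A) (M := M) hq hℓ hℓq hqM hA
  exact reg11_up A q M ℓ B k B' k' hB hB' hq hqM hqMℓ hA hcop p hp
    (lt_of_le_of_lt hdeg hlt) U U' hU hup

end Up

end Fermat.Agent.S59.LL.SQ.H94

end
end
-- ==== END Fermat.Agent.S59.LL.SQ.H94_RegUp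

-- ==== BEGIN Fermat.Agent.S59.NonMin.Geom.H12_B0Coord
section

set_option autoImplicit false
set_option linter.unusedSectionVars false
set_option linter.style.haveILetI false
set_option linter.unusedVariables false

noncomputable section

open ModularCurve AlgebraicCurve CongruenceSubgroup

namespace Fermat.Agent.S59.NonMin.Geom.H12C

open Fermat.Agent.NEB Fermat.Agent.NEB.JH Fermat.Agent.GTor Fermat.Agent.GTor.H81
  Fermat.Agent.Betti Fermat.Agent.NEB.Geom Fermat.Agent.NEB.Geom.H26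
  Fermat.Agent.S59.NonMin.Geom.H92B

/-- The standard basis vector of `(ℤ/n)^r`. -/
def stdVec {r : ℕ} (n : ℕ) (i : Fin r) : Fin r → ZMod n := Pi.single i 1

theorem sum_zsmul_stdVec {r : ℕ} (n : ℕ) (c : Fin r → ℤ) :
    ∑ i, c i • stdVec n i = fun j => ((c j : ℤ) : ZMod n) := by
  funext j
  rw [Finset.sum_apply]
  rw [Finset.sum_eq_single j]
  · rw [Pi.smul_apply, stdVec, Pi.single_eq_same, zsmul_eq_mul, mul_one]
  · intro i _ hij
    rw [Pi.smul_apply, stdVec, Pi.single_eq_of_ne (Ne.symm hij), smul_zero]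
  · intro h
    exact absurd (Finset.mem_univ j) h

/-- Expansion of the inverse image of a vector with integral representatives. -/
theorem symm_eq_sum {X : Type*} [AddCommGroup X] {r n : ℕ} (θ : X ≃+ (Fin r → ZMod n))
    (v : Fin r → ZMod n) (c : Fin r → ℤ) (hc : ∀ j, v j = ((c j : ℤ) : ZMod n)) :
    θ.symm v = ∑ i, c i • θ.symm (stdVec n i) := by
  apply θ.injective
  rw [AddEquiv.apply_symm_apply, map_sum]
  simp only [map_zsmul, AddEquiv.apply_symm_apply]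
  rw [sum_zsmul_stdVec]
  funext j
  exact hc j

/-- A vanishing combination has coefficients divisible by `n`. -/
theorem dvd_of_sum_eq_zero {X : Type*} [AddCommGroup X] {r n : ℕ} (θ : X ≃+ (Fin r → ZMod n))
    (c : Fin r → ℤ) (h : ∑ i, c i • θ.symm (stdVec n i) = 0) (j : Fin r) : (n : ℤ) ∣ c j := by
  have h1 := congrArg θ h
  rw [map_sum, map_zero] at h1
  simp only [map_zsmul, AddEquiv.apply_symm_apply] at h1
  rw [sum_zsmul_stdVec] at h1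
  have h2 := congrFun h1 j
  exact (ZMod.intCast_zmod_eq_zero_iff_dvd (c j) n).mp h2

/-- **B0-COORD**. -/
theorem stmt_B0COORD : Stmt_B0COORD := by
  intro N p _ S hp r b hb Mat hMat
  have hTOR : ∀ k : ℕ, Stmt_TORc N (p ^ k) :=
    fun k => stmt_TORc_uncond N (p ^ k) (pow_ne_zero k hp.ne_zero)
  have hHK : ∀ k : ℕ, Stmt_HK N (p ^ k) := fun k => H44.stmt_HK N (p ^ k)
  have hLift : Stmt_torsLift N := H77.stmt_torsLift N
  have halg : Algebra.IsAlgebraic ℚ (AlgebraicClosure ℚ) := AlgebraicClosure.isAlgebraic ℚ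
  obtain ⟨ι⟩ : Nonempty (AlgebraicClosure ℚ →+* ℂ) :=
    ⟨((IsAlgClosed.lift : AlgebraicClosure ℚ →ₐ[ℚ] ℂ) : AlgebraicClosure ℚ →+* ℂ)⟩
  have hE : ∀ k : ℕ, Nonempty (TorIso N (p ^ k) ι) := fun k => nonempty_torIso (hTOR k) ι
  have hn : ∀ k : ℕ, p ^ k ≠ 0 := fun k => pow_ne_zero k hp.ne_zero
  let E : ∀ k : ℕ, TorIso N (p ^ k) ι := fun k => Classical.choice (hE k)
  let θ : ∀ k : ℕ, Jtor N (p ^ k) ≃+ (Fin r → ZMod (p ^ k)) :=
    fun k => theta hb hLift (hn k) (E k)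
  let e : ℕ → Fin r → A0 N p := fun k i => incK N p k ((θ k).symm (stdVec (p ^ k) i))
  have hsurj : ∀ (k : ℕ) (v : Fin r → ZMod (p ^ k)),
      ∃ c : Fin r → ℤ, ∀ j, v j = ((c j : ℤ) : ZMod (p ^ k)) := by
    intro k v
    haveI : NeZero (p ^ k) := ⟨hn k⟩
    exact ⟨fun j => ((v j).val : ℤ), fun j => by
      rw [Int.cast_natCast, ZMod.natCast_zmod_val]⟩
  refine ⟨e, ⟨?_, ?_, ?_, ?_⟩, ?_⟩
  · -- zero
    intro i
    apply Subtype.ext
    have h := pow_nsmul_coe ((θ 0).symm (stdVec (p ^ 0) i))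
    have h2 : ∀ (m : ℕ) (y : JZero N), m = 1 → m • y = y := fun m y hm => by
      rw [hm, one_smul]
    exact (h2 _ _ (pow_zero p)).symm.trans h
  · -- succ
    intro k i
    have h := theta_mulTor hb hLift (hn (k + 1)) (hn k) (pow_dvd_pow p (Nat.le_succ k))
      (E (k + 1)) (E k) ((θ (k + 1)).symm (stdVec (p ^ (k + 1)) i))
    have h1 : (fun j => ZMod.castHom (pow_dvd_pow p (Nat.le_succ k)) (ZMod (p ^ k))
        (theta hb hLift (hn (k + 1)) (E (k + 1))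
          ((θ (k + 1)).symm (stdVec (p ^ (k + 1)) i)) j)) = stdVec (p ^ k) i := by
      have h2 : theta hb hLift (hn (k + 1)) (E (k + 1))
          ((θ (k + 1)).symm (stdVec (p ^ (k + 1)) i)) = stdVec (p ^ (k + 1)) i :=
        (θ (k + 1)).apply_symm_apply _
      rw [h2]
      funext j
      by_cases hij : j = i
      · subst hij
        rw [stdVec, stdVec, Pi.single_eq_same, Pi.single_eq_same, map_one]
      · rw [stdVec, stdVec, Pi.single_eq_of_ne hij, Pi.single_eq_of_ne hij, map_zero]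
    rw [h1] at h
    have h3 : mulTor (pow_dvd_pow p (Nat.le_succ k)) ((θ (k + 1)).symm (stdVec (p ^ (k + 1)) i))
        = (θ k).symm (stdVec (p ^ k) i) := by
      apply (θ k).injective
      rw [AddEquiv.apply_symm_apply]
      exact h
    apply Subtype.ext
    have h4 := congrArg (fun u : Jtor N (p ^ k) => (u : JZero N)) h3
    simp only [coe_mulTor] at h4
    have h5 : p ^ (k + 1) / p ^ k = p := by
      rw [pow_succ, Nat.mul_div_cancel_left _ (pow_pos hp.pos k)]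
    rw [h5] at h4
    exact h4
  · -- span
    intro k x hx
    have hx' : p ^ k • (x : JZero N) = 0 := congrArg (fun u : A0 N p => (u : JZero N)) hx
    set y : Jtor N (p ^ k) := ⟨(x : JZero N), mem_Jtor_of_pow_smul N p hx'⟩ with hy
    obtain ⟨c, hc⟩ := hsurj k (θ k y)
    refine ⟨c, ?_⟩
    have h1 : y = ∑ i, c i • (θ k).symm (stdVec (p ^ k) i) := by
      rw [← symm_eq_sum (θ k) (θ k y) c hc, AddEquiv.symm_apply_apply]
    have h2 : incK N p k y = x := Subtype.ext rfl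
    rw [← h2, h1, map_sum]
    simp only [map_zsmul]
    rfl
  · -- indep
    intro k c h j
    have h1 : incK N p k (∑ i, c i • (θ k).symm (stdVec (p ^ k) i)) = 0 := by
      rw [map_sum]
      simp only [map_zsmul]
      exact h
    have h2 : ∑ i, c i • (θ k).symm (stdVec (p ^ k) i) = 0 :=
      incK_injective N p k (h1.trans (map_zero _).symm)
    have h3 := dvd_of_sum_eq_zero (θ k) c h2 j
    have h4 : ((p ^ k : ℕ) : ℤ) = (p : ℤ) ^ k := Nat.cast_pow p k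
    rw [h4] at h3
    exact h3
  · -- Hecke matrices
    intro ℓ hℓ hℓN hℓS k j
    haveI : NeZero ℓ := ⟨hℓ.ne_zero⟩
    have h := theta_heckeTor hb hLift (hn k) (E k) hℓ hℓN (hHK k)
      (Mat (CuspForm.heckeAlgebra.T hℓ hℓN hℓS)) (hMat ℓ hℓ hℓN hℓS)
      ((θ k).symm (stdVec (p ^ k) j))
    have h0 : theta hb hLift (hn k) (E k) ((θ k).symm (stdVec (p ^ k) j)) = stdVec (p ^ k) j :=
      (θ k).apply_symm_apply _
    rw [h0] at h
    have h1 : heckeTor (p ^ k) (⟨ℓ, hℓ⟩ : Nat.Primes) ((θ k).symm (stdVec (p ^ k) j))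
        = ∑ i, Mat (CuspForm.heckeAlgebra.T hℓ hℓN hℓS) i j • (θ k).symm (stdVec (p ^ k) i) := by
      rw [← symm_eq_sum (θ k)
        (((Mat (CuspForm.heckeAlgebra.T hℓ hℓN hℓS)).map (Int.cast : ℤ → ZMod (p ^ k))).mulVec
          (stdVec (p ^ k) j))
        (fun i => Mat (CuspForm.heckeAlgebra.T hℓ hℓN hℓS) i j)]
      · apply (θ k).injective
        rw [AddEquiv.apply_symm_apply]
        exact h
      · intro i
        rw [stdVec, Matrix.mulVec_single_one]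
        rfl
    have h2 : Tz0 N p ℓ (incK N p k ((θ k).symm (stdVec (p ^ k) j)))
        = incK N p k (heckeTor (p ^ k) (⟨ℓ, hℓ⟩ : Nat.Primes)
            ((θ k).symm (stdVec (p ^ k) j))) := by
      apply Subtype.ext
      rw [Tz0_apply, coe_incK, ← T0_eq]
      exact (heckeOperatorBar_apply N (⟨ℓ, hℓ⟩ : Nat.Primes) _).symm
    show Tz0 N p ℓ (incK N p k ((θ k).symm (stdVec (p ^ k) j))) = _
    rw [h2, h1, map_sum]
    simp only [map_zsmul]
    rfl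

end Fermat.Agent.S59.NonMin.Geom.H12C

end
end
-- ==== END Fermat.Agent.S59.NonMin.Geom.H12_B0Coord

-- ==== BEGIN Fermat.Agent.S59.NonMin.Geom.H12_RelU
section

set_option autoImplicit false
set_option linter.style.haveILetI false
set_option linter.unusedSectionVars false

open scoped MatrixGroups
open CongruenceSubgroup Matrix ModularForm

namespace Fermat.Agent.S59.NonMin.Geom.H12

open Fermat.Agent.S41 Fermat.Agent.S41.H19 Fermat.Agent.S41.H39 Fermat.Agent.Betti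
open Fermat.Agent.S59.NonMin.Geom

/-! ### Integer matrices and `GL₂(ℝ)` -/

section Conv

theorem map_Bmat (p : ℕ) (j : ℕ) :
    (Bmat p (j : ℤ)).map (Int.cast : ℤ → ℝ) = !![(1 : ℝ), (j : ℝ); 0, (p : ℝ)] := by
  ext i k
  fin_cases i <;> fin_cases k <;> simp [Bmat]

/-- The relation of a family of upper triangular representatives, in integer matrices. -/
theorem heckeMatrix_rel_iff {p : ℕ} (hp : p ≠ 0) {M : ℕ} (g κ : Gamma0 M) (j j' : ℕ) :
    heckeMatrix p j * incl M g = incl M κ * heckeMatrix p j' ↔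
      Bmat p (j : ℤ) * mat g = mat κ * Bmat p (j' : ℤ) := by
  constructor
  · intro h
    have h2 := congrArg (fun X : GL (Fin 2) ℝ => (X : Matrix (Fin 2) (Fin 2) ℝ)) h
    simp only [Units.val_mul] at h2
    rw [val_incl', val_incl', ModularForm.val_heckeMatrix hp, ModularForm.val_heckeMatrix hp,
      ← map_Bmat, ← map_Bmat, ← Matrix.map_mul_intCast, ← Matrix.map_mul_intCast] at h2
    exact Matrix.map_injective (Int.cast_injective (α := ℝ)) h2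
  · intro h
    apply Units.ext
    simp only [Units.val_mul]
    rw [val_incl', val_incl', ModularForm.val_heckeMatrix hp, ModularForm.val_heckeMatrix hp,
      ← map_Bmat, ← map_Bmat, ← Matrix.map_mul_intCast, ← Matrix.map_mul_intCast, h]

theorem Bmat_mul_Dq (p c : ℕ) (j : ℤ) : Bmat p ((c : ℤ) * j) * Dq c = Dq c * Bmat p j := by
  ext i k
  fin_cases i <;> fin_cases k <;>
    simp [Dq, Bmat, Matrix.mul_apply, Fin.sum_univ_two]

theorem Tm_mul_Bmat (p : ℕ) (m v : ℤ) : Tm m * Bmat p v = Bmat p (v + (p : ℤ) * m) := by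
  ext i k
  fin_cases i <;> fin_cases k <;>
    simp [Tm, Bmat, Matrix.mul_apply, Fin.sum_univ_two]
  ring

end Conv

/-! ### Degeneracy maps as conjugations -/

section Deg

variable {N M' : ℕ}

/-- `j : Γ₀(M') → Γ₀(N)` is the conjugation by `diag(c, 1)`. -/
def IsDeg (j : Gamma0 M' →* Gamma0 N) (c : ℕ) : Prop :=
  ∀ γ : Gamma0 M', mat (j γ) * Dq c = Dq c * mat γ

theorem Dq_one : Dq 1 = 1 := by
  ext i k
  fin_cases i <;> fin_cases k <;> simp [Dq]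

theorem Dq_mul (a b : ℕ) : Dq a * Dq b = Dq (a * b) := by
  ext i k
  fin_cases i <;> fin_cases k <;> simp [Dq, Matrix.mul_apply, Fin.sum_univ_two]

theorem isDeg_j1 (N q : ℕ) : IsDeg (j1 N q) 1 := by
  intro γ
  rw [Dq_one, mul_one, one_mul, mat_j1]

theorem isDeg_j2 (N q : ℕ) : IsDeg (j2 N q) q := by
  intro γ
  rw [mat_j2, conjMat_Dq (q_dvd_mat γ)]

theorem isDeg_j3 (N : ℕ) {q : ℕ} (hq : q ≠ 0) : IsDeg (j3 N q) (q ^ 2) := by
  intro γ
  have e : Dq (q ^ 2) = Dq q * Dq q := by rw [Dq_mul, pow_two]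
  rw [mat_j3, e, ← Matrix.mul_assoc, conjMat_Dq (q_dvd_conjMat hq γ),
    Matrix.mul_assoc, conjMat_Dq (q_dvd_mat γ), Matrix.mul_assoc]

theorem IsDeg.injective {j : Gamma0 M' →* Gamma0 N} {c : ℕ} (hj : IsDeg j c) (hc : c ≠ 0) :
    Function.Injective j := by
  intro γ₁ γ₂ h
  apply mat_injective
  apply Dq_cancel_left hc
  rw [← hj γ₁, ← hj γ₂, h]

end Deg

/-! ### The twisted representatives of `U_p` -/

section Twist

variable {N M' : ℕ} (p c : ℕ)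

/-- The representatives `[[1, c x], [0, p]]`. -/
noncomputable def repUc : ZMod p → GL (Fin 2) ℝ := fun x => heckeMatrix p (c * x.val)

variable {p c}

/-- `rep̃_x = [[1, m], [0, 1]] · rep_{c x}`. -/
theorem repUc_eq [NeZero p] (N : ℕ) (hcp : Nat.Coprime c p) (x : ZMod p) :
    repUc p c x = incl N (tU N ((c * x.val / p : ℕ) : ℤ)) *
      repU p ((ZMod.unitOfCoprime c hcp).mulLeft x) := by
  have hp : p ≠ 0 := NeZero.ne p
  have hval : ((ZMod.unitOfCoprime c hcp).mulLeft x).val = c * x.val % p := by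
    show (((ZMod.unitOfCoprime c hcp : (ZMod p)ˣ) : ZMod p) * x).val = _
    rw [ZMod.coe_unitOfCoprime, ZMod.val_mul, ZMod.val_natCast, Nat.mod_mul_mod]
  have h := (heckeMatrix_rel_iff hp (1 : Gamma0 N) (tU N ((c * x.val / p : ℕ) : ℤ))
    (c * x.val) (c * x.val % p)).mpr (by
      rw [mat_one, mul_one, mat_tU, Tm_mul_Bmat]
      congr 1
      have := Nat.mod_add_div (c * x.val) p
      exact_mod_cast this.symm)
  rw [map_one, mul_one] at h
  show heckeMatrix p (c * x.val) = _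
  rw [h]
  show _ = _ * heckeMatrix p ((ZMod.unitOfCoprime c hcp).mulLeft x).val
  rw [hval]

/-- The twisted family is a Hecke family for `Γ₀(N)`, `p ∣ N`. -/
theorem isHeckeFamily_Uc [NeZero p] (hcp : Nat.Coprime c p) (hpN : p ∣ N) :
    IsHeckeFamily (incl N) (repUc p c) :=
  isHeckeFamily_of_twist (isHeckeFamily_U N hpN) ((ZMod.unitOfCoprime c hcp).mulLeft)
    (fun x => tU N ((c * x.val / p : ℕ) : ℤ)) (repUc_eq N hcp)

/-- The twisted family defines the operator `U_p`. -/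
theorem heckeOp_Uc [NeZero N] {A : Type*} [AddCommGroup A] (hcp : Nat.Coprime c p)
    (hpN : p ∣ N) (φ : Additive (Gamma0 N) →+ A) :
    haveI : NeZero p := neZero_of_dvd hpN
    (isHeckeFamily_Uc hcp hpN).heckeOp (incl_injective N) φ = UB N A hpN φ := by
  haveI : NeZero p := neZero_of_dvd hpN
  exact heckeOp_of_twist (incl_injective N) (isHeckeFamily_U N hpN) (isHeckeFamily_Uc hcp hpN)
    ((ZMod.unitOfCoprime c hcp).mulLeft) (fun x => tU N ((c * x.val / p : ℕ) : ℤ))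
    (repUc_eq N hcp) φ

/-- Transport of the relations of `repU` at the level `M'` along a degeneracy map. -/
theorem repUc_rel {j : Gamma0 M' →* Gamma0 N} (hj : IsDeg j c) (hc : c ≠ 0) (hp : p ≠ 0)
    {γ κ : Gamma0 M'} {x x' : ZMod p}
    (h : repU p x * incl M' γ = incl M' κ * repU p x') :
    repUc p c x * (incl N).comp j γ = (incl N).comp j κ * repUc p c x' := by
  have h1 := (heckeMatrix_rel_iff hp γ κ x.val x'.val).mp h
  show heckeMatrix p (c * x.val) * incl N (j γ) = incl N (j κ) * heckeMatrix p (c * x'.val)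
  rw [heckeMatrix_rel_iff hp]
  apply Dq_cancel_right hc
  push_cast
  calc Bmat p ((c : ℤ) * (x.val : ℤ)) * mat (j γ) * Dq c
      = Bmat p ((c : ℤ) * (x.val : ℤ)) * (mat (j γ) * Dq c) := by rw [Matrix.mul_assoc]
    _ = (Bmat p ((c : ℤ) * (x.val : ℤ)) * Dq c) * mat γ := by rw [hj γ, Matrix.mul_assoc]
    _ = Dq c * (Bmat p (x.val : ℤ) * mat γ) := by rw [Bmat_mul_Dq, Matrix.mul_assoc]
    _ = Dq c * (mat κ * Bmat p (x'.val : ℤ)) := by rw [h1]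
    _ = (mat (j κ) * Dq c) * Bmat p (x'.val : ℤ) := by rw [hj κ, Matrix.mul_assoc]
    _ = mat (j κ) * (Bmat p ((c : ℤ) * (x'.val : ℤ)) * Dq c) := by
        rw [Bmat_mul_Dq, Matrix.mul_assoc]
    _ = mat (j κ) * Bmat p ((c : ℤ) * (x'.val : ℤ)) * Dq c := by rw [Matrix.mul_assoc]

/-- The twisted family is a Hecke family for `(Γ₀(M'), incl ∘ j)`. -/
theorem isHeckeFamily_Uc' [NeZero p] {j : Gamma0 M' →* Gamma0 N} (hj : IsDeg j c) (hc : c ≠ 0)
    (hcp : Nat.Coprime c p) (hpN : p ∣ N) (hpM : p ∣ M') :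
    IsHeckeFamily ((incl N).comp j) (repUc p c) where
  exists_mul γ x :=
    ⟨(isHeckeFamily_U M' hpM).perm γ x, (isHeckeFamily_U M' hpM).kap γ x,
      repUc_rel hj hc (NeZero.ne p) ((isHeckeFamily_U M' hpM).rep_mul γ x)⟩
  inj x x' ε h := (isHeckeFamily_Uc (N := N) hcp hpN).inj x x' (j ε) h

/-- The operator of the twisted family for `(Γ₀(M'), incl ∘ j)` is `U_p` of the level `M'`. -/
theorem heckeOp_Uc' [NeZero M'] [NeZero p] {A : Type*} [AddCommGroup A]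
    {j : Gamma0 M' →* Gamma0 N}
    (hj : IsDeg j c) (hc : c ≠ 0) (hcp : Nat.Coprime c p) (hpN : p ∣ N) (hpM : p ∣ M')
    (he' : Function.Injective ((incl N).comp j)) (ψ : Additive (Gamma0 M') →+ A) :
    (isHeckeFamily_Uc' hj hc hcp hpN hpM).heckeOp he' ψ = UB M' A hpM ψ := by
  refine AddMonoidHom.ext fun γ' => ?_
  obtain ⟨γ, rfl⟩ : ∃ g : Gamma0 M', Additive.ofMul g = γ' := ⟨Additive.toMul γ', rfl⟩
  rw [UB_apply_apply]
  show ∑ x, ψ (Additive.ofMul ((isHeckeFamily_Uc' hj hc hcp hpN hpM).kap γ x)) = _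
  refine Finset.sum_congr rfl fun x _ => ?_
  have h := repUc_rel hj hc (NeZero.ne p) ((isHeckeFamily_U M' hpM).rep_mul γ x)
  rw [((isHeckeFamily_Uc' hj hc hcp hpN hpM).unique he' h).2]

end Twist

/-! ### The coset condition -/

section CosetCond

variable {N M' : ℕ} {p c : ℕ}

/-- The condition (C) of `corAlong_heckeOp` for the twisted family. -/
theorem cosetCond_Uc {j : Gamma0 M' →* Gamma0 N} (hj : IsDeg j c) (hc : c ≠ 0) (hp : p ≠ 0)
    (hM : ∀ z : ℤ, (N : ℤ) ∣ z → (M' : ℤ) ∣ (p : ℤ) * ((c : ℤ) * z) → (M' : ℤ) ∣ (c : ℤ) * z)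
    (x x' : ZMod p) (γ : Gamma0 N) (ε : Gamma0 M')
    (h : repUc p c x * incl N γ = (incl N) (j ε) * repUc p c x') : γ ∈ j.range := by
  have hc' : (c : ℤ) ≠ 0 := by exact_mod_cast hc
  have h1 : Bmat p ((c * x.val : ℕ) : ℤ) * mat γ = mat (j ε) * Bmat p ((c * x'.val : ℕ) : ℤ) :=
    (heckeMatrix_rel_iff hp γ (j ε) (c * x.val) (c * x'.val)).mp h
  push_cast at h1
  have h2 : Bmat p ((c : ℤ) * (x.val : ℤ)) * (mat γ * Dq c)
      = Dq c * (mat ε * Bmat p (x'.val : ℤ)) := by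
    calc Bmat p ((c : ℤ) * (x.val : ℤ)) * (mat γ * Dq c)
        = (Bmat p ((c : ℤ) * (x.val : ℤ)) * mat γ) * Dq c := by rw [Matrix.mul_assoc]
      _ = mat (j ε) * (Bmat p ((c : ℤ) * (x'.val : ℤ)) * Dq c) := by
          rw [h1, Matrix.mul_assoc]
      _ = (mat (j ε) * Dq c) * Bmat p (x'.val : ℤ) := by rw [Bmat_mul_Dq, Matrix.mul_assoc]
      _ = Dq c * (mat ε * Bmat p (x'.val : ℤ)) := by rw [hj ε, Matrix.mul_assoc]
  have e01 := congrFun (congrFun h2 0) 1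
  have e10 := congrFun (congrFun h2 1) 0
  simp only [Bmat, Dq, Matrix.mul_apply, Fin.sum_univ_two, Matrix.of_apply, Matrix.cons_val',
    Matrix.cons_val_zero, Matrix.cons_val_one, Matrix.empty_val', Matrix.cons_val_fin_one,
    mul_zero, add_zero, zero_add, mul_one, one_mul, zero_mul] at e01 e10
  -- `c ∣ γ₀₁`
  -- `c ∣ γ₀₁`
  obtain ⟨β', hβ'⟩ : (c : ℤ) ∣ mat γ 0 1 :=
    ⟨mat ε 0 0 * (x'.val : ℤ) + mat ε 0 1 * (p : ℤ) - (x.val : ℤ) * mat γ 1 1, by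
      linear_combination e01⟩
  -- `M' ∣ c γ₁₀`
  have hd10 : (M' : ℤ) ∣ (c : ℤ) * mat γ 1 0 := by
    apply hM _ (mat_dvd γ)
    have : (p : ℤ) * ((c : ℤ) * mat γ 1 0) = mat ε 1 0 := by linear_combination e10
    rw [this]
    exact mat_dvd ε
  -- the preimage
  have hdet := mat_det' γ
  refine ⟨mkG0 M' (mat γ 0 0) β' ((c : ℤ) * mat γ 1 0) (mat γ 1 1)
    (by rw [hβ'] at hdet; linear_combination hdet) hd10, ?_⟩
  apply mat_injective
  apply Dq_cancel_right hc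
  rw [hj, mat_mkG0]
  ext i k
  fin_cases i <;> fin_cases k <;>
    simp [Dq, Matrix.mul_apply, Fin.sum_univ_two, hβ'] <;> ring

end CosetCond

/-! ### `U_p` commutes with a degeneracy map -/

section General

variable {N M' : ℕ} [NeZero N] [NeZero M'] {p c : ℕ} {A : Type*} [AddCommGroup A]

/-- `U_p (j^* φ) = j^* (U_p φ)`. -/
theorem UB_resAlong {j : Gamma0 M' →* Gamma0 N} (hj : IsDeg j c) (hc : c ≠ 0)
    (hcp : Nat.Coprime c p) (hpN : p ∣ N) (hpM : p ∣ M') (φ : Additive (Gamma0 N) →+ A) :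
    UB M' A hpM (resAlong A j φ) = resAlong A j (UB N A hpN φ) := by
  haveI : NeZero p := neZero_of_dvd hpN
  have he' : Function.Injective ((incl N).comp j) :=
    (incl_injective N).comp (hj.injective hc)
  have h := heckeOp_resAlong (A := A) (incl N) (incl_injective N) j he'
    (isHeckeFamily_Uc hcp hpN) (isHeckeFamily_Uc' hj hc hcp hpN hpM) φ
  rw [heckeOp_Uc' hj hc hcp hpN hpM he', heckeOp_Uc hcp hpN] at h
  exact h

/-- `j_* (U_p ψ) = U_p (j_* ψ)`. -/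
theorem corAlong_UB {j : Gamma0 M' →* Gamma0 N} (hj : IsDeg j c) (hc : c ≠ 0)
    (hcp : Nat.Coprime c p) (hpN : p ∣ N) (hpM : p ∣ M')
    (hM : ∀ z : ℤ, (N : ℤ) ∣ z → (M' : ℤ) ∣ (p : ℤ) * ((c : ℤ) * z) → (M' : ℤ) ∣ (c : ℤ) * z)
    (ψ : Additive (Gamma0 M') →+ A) :
    corAlong A j (UB M' A hpM ψ) = UB N A hpN (corAlong A j ψ) := by
  haveI : NeZero p := neZero_of_dvd hpN
  have he' : Function.Injective ((incl N).comp j) :=
    (incl_injective N).comp (hj.injective hc)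
  have h := corAlong_heckeOp (A := A) (incl N) (incl_injective N) j (hj.injective hc) he'
    (isHeckeFamily_Uc hcp hpN) (isHeckeFamily_Uc' hj hc hcp hpN hpM)
    (cosetCond_Uc hj hc (NeZero.ne p) hM) ψ
  rw [heckeOp_Uc' hj hc hcp hpN hpM he', heckeOp_Uc hcp hpN] at h
  exact h

end General

/-! ### RELU -/

section Main

variable {N q r : ℕ}

/-- The arithmetic of the coset condition at the level `N q²`. -/
theorem hM_aux (hq : q.Prime) (hqN : ¬ q ∣ N) (hr : r.Prime) (hrN : r ∣ N) (c : ℕ) (z : ℤ)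
    (hz : (N : ℤ) ∣ z)
    (h : ((N * q ^ 2 : ℕ) : ℤ) ∣ (r : ℤ) * ((c : ℤ) * z)) :
    ((N * q ^ 2 : ℕ) : ℤ) ∣ (c : ℤ) * z := by
  have hrq : r ≠ q := fun e => hqN (e ▸ hrN)
  have hcop1 : IsCoprime ((q : ℤ) ^ 2) (r : ℤ) := by
    apply IsCoprime.pow_left
    exact Nat.isCoprime_iff_coprime.mpr ((Nat.coprime_primes hq hr).mpr (Ne.symm hrq))
  have hcop2 : IsCoprime (N : ℤ) ((q : ℤ) ^ 2) := by
    apply IsCoprime.pow_right
    exact Nat.isCoprime_iff_coprime.mpr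
      (Nat.Coprime.symm ((Nat.Prime.coprime_iff_not_dvd hq).mpr hqN))
  have h1 : ((q : ℤ) ^ 2) ∣ (r : ℤ) * ((c : ℤ) * z) := by
    refine Dvd.dvd.trans ?_ h
    exact ⟨(N : ℤ), by push_cast; ring⟩
  have h2 : ((q : ℤ) ^ 2) ∣ (c : ℤ) * z := hcop1.dvd_of_dvd_mul_left h1
  have h3 : (N : ℤ) ∣ (c : ℤ) * z := Dvd.dvd.mul_left hz _
  have := hcop2.mul_dvd h3 h2
  push_cast
  exact this

theorem coprime_aux (hq : q.Prime) (hqN : ¬ q ∣ N) (hr : r.Prime) (hrN : r ∣ N) :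
    Nat.Coprime q r :=
  (Nat.coprime_primes hq hr).mpr (fun e => hqN (e ▸ hrN))

/-- **RELU**. -/
theorem stmt_RELU : Stmt_RELU := by
  intro N q _ _ hq hqN r hr hrN hrN' A _
  have hc1 : Nat.Coprime 1 r := Nat.coprime_one_left r
  have hcq : Nat.Coprime q r := coprime_aux hq hqN hr hrN
  have hcq2 : Nat.Coprime (q ^ 2) r := Nat.Coprime.pow_left 2 hcq
  have hq0 : q ≠ 0 := hq.ne_zero
  have hq20 : q ^ 2 ≠ 0 := pow_ne_zero 2 hq0
  refine ⟨fun φ => ⟨?_, ?_, ?_⟩, fun ψ => ⟨?_, ?_, ?_⟩⟩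
  · exact UB_resAlong (isDeg_j1 N q) one_ne_zero hc1 hrN hrN' φ
  · exact UB_resAlong (isDeg_j2 N q) hq0 hcq hrN hrN' φ
  · exact UB_resAlong (isDeg_j3 N hq0) hq20 hcq2 hrN hrN' φ
  · exact corAlong_UB (isDeg_j1 N q) one_ne_zero hc1 hrN hrN'
      (fun z hz h => hM_aux hq hqN hr hrN 1 z hz h) ψ
  · exact corAlong_UB (isDeg_j2 N q) hq0 hcq hrN hrN'
      (fun z hz h => hM_aux hq hqN hr hrN q z hz h) ψ
  · exact corAlong_UB (isDeg_j3 N hq0) hq20 hcq2 hrN hrN'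
      (fun z hz h => hM_aux hq hqN hr hrN (q ^ 2) z hz h) ψ

end Main

end Fermat.Agent.S59.NonMin.Geom.H12

end
-- ==== END Fermat.Agent.S59.NonMin.Geom.H12_RelU

-- ==== BEGIN Fermat.Agent.S59.NonMin.Geom.H30_AsmG
section

/-!
# S59 / NMGEOM, assembly ASM-G, second half (helper30): the induction

`nmgeomb_of : H48.Stmt_DEG3 → Stmt_BM → Stmt_ALG → Stmt_RANK → Stmt_TWGEOMB →
  CaseC.Geom.Stmt_NMGEOMB`
(and `nmgeom2_of_nmgeomb` for `Geom.Stmt_NMGEOM2`).  The class is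
`G s := ∃ Sig, GeomHyp p Smin N Sig s.N s.S ∧ FrobHyp ρbar s.N s.S s.θ ∧ IsBetti s Sig`.

Step at a state `s` of the class and a prime `q ≠ p`, `q ∤ N`, `q ∉ S`:
`rest := Asm.H41.rest`; `M''` := the Betti lattice of `(N q², insert q S, θ ∘ rest, Sig)`
(`Stmt_BM`); `d : Deg3Data` by `Stmt_DEG3` (first half, helper48); `O : Deg3Out d.toDeg3` by
`Stmt_ALG`; the next module is `O.V = ker U_q`, a Betti lattice for `insert q Sig`
(`isBetti_out`); `rank` from `Stmt_RANK`.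
-/

set_option autoImplicit false

open Polynomial CuspForm CongruenceSubgroup IsLocalRing
open scoped MatrixGroups

namespace Fermat.Agent.S59.NonMin.Geom.H30

open Fermat.Agent.S41 Fermat.Agent.Betti Fermat.Agent.S59 Fermat.Agent.S59.Asm
  Fermat.Agent.S59.NonMin Fermat.Agent.S59.NonMin.Geom
open ModularCurve.Period

/-- the new primes of the level `N q²` lie in `insert q S` -/
theorem new_prime_mem {N q : ℕ} (hq : q.Prime) (S : Finset ℕ) :
    ∀ r : ℕ, r.Prime → r ∣ N * q ^ 2 → ¬ r ∣ N → r ∈ (↑(insert q S) : Set ℕ) := by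
  intro r hr hrd hrN
  rcases (Nat.Prime.dvd_mul hr).mp hrd with h | h
  · exact absurd h hrN
  · have hrq : r ∣ q := Nat.Prime.dvd_of_dvd_pow hr h
    have : r = q := (Nat.prime_dvd_prime_iff_eq hr hq).mp hrq
    rw [this]
    exact Finset.mem_coe.mpr (Finset.mem_insert_self q S)

/-- The step at a Betti state, with a given restriction map `rest`. -/
theorem step_rest (hD3 : H48.Stmt_DEG3) (hBM : Stmt_BM) (hALG : Stmt_ALG) (hRANK : Stmt_RANK)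
    (𝒪 : Type) [CommRing 𝒪] [IsDomain 𝒪] [IsDiscreteValuationRing 𝒪]
    [IsAdicComplete (maximalIdeal 𝒪) 𝒪] [Finite (ResidueField 𝒪)] [CharZero 𝒪]
    (p : ℕ) [Fact p.Prime] (hp2 : p ≠ 2) (hpm : (p : 𝒪) ∈ maximalIdeal 𝒪)
    (ρbar : ResidualGaloisRep (ResidueField 𝒪)) (Smin : Finset ℕ) (hRes : ResHyp p ρbar Smin)
    (N₀ : ℕ) (hflat : p ∣ N₀ → ¬ (GaloisRepAdic.ofResidualGaloisRep ρbar).IsFlatAt p)
    (Sig : Finset ℕ) (s : NMState 𝒪) (hG : GeomHyp p Smin N₀ Sig s.N s.S)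
    (hF : Fermat.Agent.S59.Datum.FrobHyp ρbar s.N s.S s.θ) (hIBs : IsBetti s Sig)
    (q : ℕ) (hq : q.Prime) (hqp : q ≠ p) (hqN : ¬ q ∣ s.N) (hqS : q ∉ (↑s.S : Set ℕ))
    [NeZero (s.N * q ^ 2)]
    (rest : CuspForm.heckeAlgebra (s.N * q ^ 2) 2 (↑(insert q s.S) : Set ℕ) →+*
      CuspForm.heckeAlgebra s.N 2 (↑s.S : Set ℕ))
    (hrest_T : ∀ (ℓ : ℕ) (hℓ : ℓ.Prime) (hℓN' : ¬ ℓ ∣ s.N * q ^ 2)
      (hℓS' : ℓ ∉ (↑(insert q s.S) : Set ℕ)) (hℓN : ¬ ℓ ∣ s.N) (hℓS : ℓ ∉ (↑s.S : Set ℕ)),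
      rest (CuspForm.heckeAlgebra.T hℓ hℓN' hℓS') = CuspForm.heckeAlgebra.T hℓ hℓN hℓS) :
    ∃ st : NMStep s hq hqN hqS, IsBetti st.next (insert q Sig) ∧ st.rest = rest := by
  -- the Betti lattice of level `N q²` before cutting by `U_q`
  obtain ⟨M'', ι'', hι''⟩ := hBM 𝒪 (s.N * q ^ 2) (insert q s.S)
    (fun r hr hrN => geomHyp_prime_mem_next hG hq hr hrN)
    (s.θ.comp rest) Sig (fun r hr => (hG.hSig r hr).1)
  obtain ⟨ι, hι⟩ := hIBs
  have h1 := hD3 𝒪 p hp2 hpm ρbar Smin hRes N₀ Sig s hG hF ι hι q hq hqp hqN hqS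
    rest hrest_T M'' ι'' hι''
  obtain ⟨d, hU⟩ := h1
  have h2 : Nonempty (Deg3Out d.toDeg3) := hALG 𝒪 rest s.θ d.toDeg3
  have O : Deg3Out d.toDeg3 := Classical.choice h2
  have hIBn := isBetti_out d O Sig ι'' hι'' hU
  have hrank := hRANK 𝒪 p hp2 hpm ρbar Smin hRes N₀ hflat Sig s hG hF ⟨ι, hι⟩ q hq hqp hqN hqS
    rest hrest_T (outHMod d O) hIBn
  exact ⟨outStep d O hrest_T hrank, hIBn, rfl⟩

/-- The step at a state of the class `G`. -/
theorem step_G (hD3 : H48.Stmt_DEG3) (hBM : Stmt_BM) (hALG : Stmt_ALG) (hRANK : Stmt_RANK)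
    (𝒪 : Type) [CommRing 𝒪] [IsDomain 𝒪] [IsDiscreteValuationRing 𝒪]
    [IsAdicComplete (maximalIdeal 𝒪) 𝒪] [Finite (ResidueField 𝒪)] [CharZero 𝒪]
    (p : ℕ) [Fact p.Prime] (hp2 : p ≠ 2) (hpm : (p : 𝒪) ∈ maximalIdeal 𝒪)
    (ρbar : ResidualGaloisRep (ResidueField 𝒪)) (Smin : Finset ℕ) (hRes : ResHyp p ρbar Smin)
    (N₀ : ℕ) (hflat : p ∣ N₀ → ¬ (GaloisRepAdic.ofResidualGaloisRep ρbar).IsFlatAt p)
    (Sig : Finset ℕ) (s : NMState 𝒪) (hG : GeomHyp p Smin N₀ Sig s.N s.S)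
    (hF : Fermat.Agent.S59.Datum.FrobHyp ρbar s.N s.S s.θ) (hIBs : IsBetti s Sig)
    (q : ℕ) (hq : q.Prime) (hqp : q ≠ p) (hqN : ¬ q ∣ s.N) (hqS : q ∉ (↑s.S : Set ℕ))
    [NeZero (s.N * q ^ 2)] :
    ∃ st : NMStep s hq hqN hqS, GeomHyp p Smin N₀ (insert q Sig) st.next.N st.next.S ∧
      Fermat.Agent.S59.Datum.FrobHyp ρbar st.next.N st.next.S st.next.θ ∧
      IsBetti st.next (insert q Sig) := by
  have hsub : (↑s.S : Set ℕ) ⊆ (↑(insert q s.S) : Set ℕ) := fun x hx =>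
    Finset.mem_coe.mpr (Finset.mem_insert_of_mem (Finset.mem_coe.mp hx))
  have hdvd : s.N ∣ s.N * q ^ 2 := Dvd.intro _ rfl
  obtain ⟨st, hst, -⟩ := step_rest hD3 hBM hALG hRANK 𝒪 p hp2 hpm ρbar Smin hRes N₀ hflat Sig s
    hG hF hIBs q hq hqp hqN hqS
    (Fermat.Agent.S59.Asm.H41.rest hdvd 2 hsub (new_prime_mem hq s.S))
    (fun ℓ hℓ hℓN' hℓS' hℓN hℓS =>
      Fermat.Agent.S59.Asm.H41.rest_T hdvd 2 hsub (new_prime_mem hq s.S) hℓ hℓN' hℓS' hℓN hℓS)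
  refine ⟨st, ?_, ?_, hst⟩
  · exact geomHyp_next hG hq hqp (fun h => hqS (Finset.mem_coe.mpr h))
  · exact frobHyp_next ρbar hF st.rest st.rest_T

/-- **ASM-G, second half**: the induction. -/
theorem nmgeomb_of (hD3 : H48.Stmt_DEG3) (hBM : Stmt_BM) (hALG : Stmt_ALG) (hRANK : Stmt_RANK)
    (hB0 : Stmt_TWGEOMB) : Fermat.Agent.S59.CaseC.Geom.Stmt_NMGEOMB := by
  intro 𝒪 _ _ _ _ _ _ p _ hp2 hpm ρbar Smin hRes N _ _ hNS hsq hflat θ hFrob
  obtain ⟨M, hnt, hIB, hTW⟩ := hB0 𝒪 p hp2 hpm ρbar Smin hRes N hNS hsq θ hFrob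
  refine ⟨M, fun s => ∃ Sig : Finset ℕ, GeomHyp p Smin N Sig s.N s.S ∧
    Fermat.Agent.S59.Datum.FrobHyp ρbar s.N s.S s.θ ∧ IsBetti s Sig, hnt, hTW,
    ⟨∅, geomHyp_base p Smin N hsq hNS, hFrob, hIB⟩, ?_, fun s hs => hs⟩
  rintro s ⟨Sig, hG, hF, hIBs⟩ q hq hqp hqN hqS _
  obtain ⟨st, h1, h2, h3⟩ := step_G hD3 hBM hALG hRANK 𝒪 p hp2 hpm ρbar Smin hRes N hflat Sig s
    hG hF hIBs q hq hqp hqN hqS
  exact ⟨st, insert q Sig, h1, h2, h3⟩

/-- `Geom.Stmt_NMGEOM2` is a projection of `CaseC.Geom.Stmt_NMGEOMB`. -/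
theorem nmgeom2_of_nmgeomb (h : Fermat.Agent.S59.CaseC.Geom.Stmt_NMGEOMB) : Stmt_NMGEOM2 := by
  intro 𝒪 _ _ _ _ _ _ p _ hp2 hpm ρbar Smin hRes N _ _ hNS hsq hflat θ hFrob
  obtain ⟨M, G, h1, h2, h3, h4, -⟩ := h 𝒪 p hp2 hpm ρbar Smin hRes N hNS hsq hflat θ hFrob
  exact ⟨M, G, h1, h2, h3, h4⟩

end Fermat.Agent.S59.NonMin.Geom.H30

end
-- ==== END Fermat.Agent.S59.NonMin.Geom.H30_AsmG

-- ==== BEGIN Fermat.Agent.S59.NonMin.Geom.H30_B0Top
section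

/-!
# S59 / NMGEOM, leaf B0, slice (1) (helper30): `stmt_B0TOP : H92B.Stmt_B0TOP`

The leaves of NEB-GEOM and `H92B.Stmt_B0BETTI` give `Geom.Stmt_TWGEOMB`: the module of the
minimal level is `M := Dm.MD.toHMod hϖ` (`Dm : NEB.Geom.MinSetup` from `Stmt_A_MIN`), the Tate
module of the `θ`-part of `𝒪 ⊗ J₀(N)[p^∞]`; `TWGeom` for this `M` is `Lim.twGeom_of_twDiv` (with
`Lim.H2.stmt_KERNM`), `IsBetti` is `Stmt_B0BETTI`.  (Copy of `NEB.Geom.stmt_TWGEOM_of` with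
`Lim.stmt_LIM_A` opened.)
-/

set_option autoImplicit false
set_option linter.unusedSectionVars false
set_option linter.style.haveILetI false
set_option linter.unusedVariables false

noncomputable section

open ModularCurve AlgebraicCurve IsLocalRing TensorProduct Polynomial

namespace Fermat.Agent.S59.NonMin.Geom.H30B

open Fermat.Agent.NEB Fermat.Agent.NEB.JH Fermat.Agent.NEB.Geom Fermat.Agent.S59
  Fermat.Agent.S59.Asm Fermat.Agent.S59.Lim Fermat.Agent.S59.Lim.H2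
  Fermat.Agent.S59.NonMin Fermat.Agent.S59.NonMin.Geom

/-- **B0-TOP**. -/
theorem stmt_B0TOP : H92B.Stmt_B0TOP := by
  intro hMIN hSETUP hR0 hGAL hES hHSTEP hPI hFN hLG hB 𝒪 _ _ _ _ _ _ p _ hp2 hpm ρbar Smin hres
    N _ hint hNS hsq θ hfrob
  obtain ⟨ϖ, hϖ⟩ := IsDiscreteValuationRing.exists_irreducible 𝒪
  have hstd : StdHyp 𝒪 ϖ p N Smin θ ρbar := ⟨hϖ, hp2, hpm, hres, hNS, hsq, hfrob, hint.out⟩
  obtain ⟨Dm⟩ := hMIN 𝒪 ϖ p N Smin θ ρbar hstd
  refine ⟨Dm.MD.toHMod hϖ, ?_, hB 𝒪 ϖ hϖ p hpm N Smin hNS θ Dm, ?_⟩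
  · haveI : Nontrivial Dm.MD.W := Dm.nontriv
    exact Dm.MD.isDiv.nontrivial_tate
  intro r n qv hfam _ hint'
  have key : Nonempty (TWDiv 𝒪 ϖ p ρbar N Smin θ Dm.MD n qv) := by
    rcases Nat.eq_zero_or_pos r with hr | hr
    · subst hr
      exact hR0 𝒪 ϖ p N Smin θ ρbar hstd Dm n qv
    · have hprime : ∀ j, (qv j).Prime := fun j => (hfam.2.1 j).1
      have hc0 : twC qv ≠ 0 := Finset.prod_ne_zero_iff.mpr fun j _ => (hprime j).ne_zero
      haveI : NeZero (twC qv) := ⟨hc0⟩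
      haveI : NeZero (N * twC qv) := ⟨mul_ne_zero (NeZero.ne N) hc0⟩
      obtain ⟨D⟩ := hSETUP 𝒪 ϖ p N Smin θ ρbar hstd n r qv hr hfam hint'.out
      exact H84.nonempty_twDiv Dm D
        (hGAL 𝒪 ϖ p N Smin θ ρbar hstd Dm n r qv D)
        (hES 𝒪 ϖ p N Smin θ ρbar hstd Dm n r qv D)
        (hHSTEP 𝒪 ϖ p N Smin θ ρbar hstd Dm n r qv D)
        (hPI 𝒪 ϖ p N Smin θ ρbar hstd Dm n r qv D)
        (hFN 𝒪 ϖ p N Smin θ ρbar hstd Dm n r qv D)
        (hLG 𝒪 ϖ p N Smin θ ρbar hstd Dm n r qv D)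
  obtain ⟨T⟩ := key
  exact twGeom_of_twDiv H2.stmt_KERNM hϖ p hpm ρbar N Smin θ Dm.MD n qv T

/-- B0 from the leaves of NEB-GEOM and `Stmt_B0BETTI` (unfolded form of `stmt_B0TOP`). -/
theorem twgeomb_of (hMIN : Stmt_A_MIN) (hSETUP : Stmt_A_SETUP) (hR0 : Stmt_A_R0)
    (hGAL : Stmt_A_GAL) (hES : Stmt_A_ES) (hHSTEP : Stmt_A_HSTEP) (hPI : Stmt_A_PI)
    (hFN : Stmt_A_FROBNIL) (hLG : Stmt_A_LG) (hB : H92B.Stmt_B0BETTI) : Stmt_TWGEOMB :=
  stmt_B0TOP hMIN hSETUP hR0 hGAL hES hHSTEP hPI hFN hLG hB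

end Fermat.Agent.S59.NonMin.Geom.H30B

end
end
-- ==== END Fermat.Agent.S59.NonMin.Geom.H30_B0Top

-- ==== BEGIN Fermat.Agent.S59.NonMin.Geom.H30_ProjQ
section

/-!
# S59 / NMGEOM, assembly ASM-G / DEG3, sub-leaf PROJQ (helper30)

`stmt_PROJQ : Geom.Stmt_PROJQ`: the projector of the anemic lattice
`X = InBetti 𝒪 N (insert q S) θ' Sig` (no condition at `T_q`) onto the lattice
`L = InBetti 𝒪 N S θ Sig`.

Proof: `Stmt_BM` at `(N, insert q S, θ', Sig)` realises `X` as a finite free module; the `T_ℓ`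
(`ℓ ∤ N`) act on `X` (`H48.inBetti_map`, `H53.TB_TB_comm`, `H53.UB_TB_comm`); `H12.fit` for
`f := T_q - a₀` gives an idempotent `π₀` commuting with the `T_ℓ` whose fixed points are the
vectors local at `q`; the lattice is saturated (`H48.exists_inBetti_smul`), so
`𝔪^m X = X ∩ Mval m`.

* `exists_lift_end` : lift of an operator along an injective linear map with stable range;
* `projq_core`      : the strong form for a given realisation `ι : X → Hom(Γ₀(N), 𝒪)`;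
* `projq_strong`    : the strong form (commutation with `T_ℓ` for ALL `ℓ ∤ N`, values in `𝔪^m`
                      are preserved for all `m`);
* `stmt_PROJQ`      : the leaf;
* `projq_rest`      : the form with a restriction map `rest₀` (`θ' = θ ∘ rest₀`).
-/

set_option autoImplicit false

open Polynomial CuspForm CongruenceSubgroup IsLocalRing
open scoped MatrixGroups

namespace Fermat.Agent.S59.NonMin.Geom.H30P

open Fermat.Agent.S41 Fermat.Agent.Betti Fermat.Agent.S59 Fermat.Agent.S59.Asm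
  Fermat.Agent.S59.NonMin Fermat.Agent.S59.NonMin.Geom
open ModularCurve.Period

/-! ## 1. Abstract lemmas -/

section Abs

variable {𝒪 : Type} [CommRing 𝒪] {X Y : Type} [AddCommGroup X] [Module 𝒪 X]
  [AddCommGroup Y] [Module 𝒪 Y]

/-- Lift of an operator along an injective linear map with stable range. -/
theorem exists_lift_end (ι : X →ₗ[𝒪] Y) (hinj : Function.Injective ι) (Φ : Module.End 𝒪 Y)
    (h : ∀ x, ∃ y, ι y = Φ (ι x)) : ∃ Ψ : Module.End 𝒪 X, ∀ x, ι (Ψ x) = Φ (ι x) := by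
  choose g hg using h
  refine ⟨{ toFun := g, map_add' := ?_, map_smul' := ?_ }, fun x => hg x⟩
  · intro x y
    apply hinj
    rw [hg, map_add, map_add, map_add, hg, hg]
  · intro c x
    apply hinj
    rw [RingHom.id_apply, hg, map_smul, map_smul, map_smul, hg]

/-- The lift of a power. -/
theorem lift_pow (ι : X →ₗ[𝒪] Y) (Φ : Module.End 𝒪 Y) (Ψ : Module.End 𝒪 X)
    (h : ∀ x, ι (Ψ x) = Φ (ι x)) (n : ℕ) (x : X) : ι ((Ψ ^ n) x) = (Φ ^ n) (ι x) := by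
  induction n with
  | zero => rfl
  | succ n ih => rw [pow_succ', Module.End.mul_apply, h, ih, pow_succ', Module.End.mul_apply]

end Abs

/-! ## 2. The core -/

section Core

variable {𝒪 : Type} [CommRing 𝒪] [IsDomain 𝒪] [IsDiscreteValuationRing 𝒪]
  [IsAdicComplete (maximalIdeal 𝒪) 𝒪] [Finite (ResidueField 𝒪)] [CharZero 𝒪]
  {N : ℕ} [NeZero N]

omit [IsAdicComplete (maximalIdeal 𝒪) 𝒪] [Finite (ResidueField 𝒪)] [CharZero 𝒪] [NeZero N] in
/-- `𝔪^m X ⊆ X ∩ Mval m`. -/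
theorem map_mem_Mval_of_mem {X : Type} [AddCommGroup X] [Module 𝒪 X]
    (ι : X →ₗ[𝒪] (Additive (Gamma0 N) →+ 𝒪)) (m : ℕ) {x : X}
    (hx : x ∈ (maximalIdeal 𝒪 ^ m • ⊤ : Submodule 𝒪 X)) :
    ι x ∈ H48.Mval 𝒪 (Additive (Gamma0 N)) m := by
  refine Submodule.smul_induction_on hx (fun c hc y _ => ?_) (fun a b ha hb => ?_)
  · rw [map_smul]
    exact H48.smul_mem_Mval hc _
  · rw [map_add]
    exact Submodule.add_mem _ ha hb


omit [IsDomain 𝒪] [IsDiscreteValuationRing 𝒪] [IsAdicComplete (maximalIdeal 𝒪) 𝒪]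
  [Finite (ResidueField 𝒪)] [CharZero 𝒪] [NeZero N] in
theorem loc_transport [IsLocalRing 𝒪] {ℓ q : ℕ} (h : ℓ = q) (hℓ : ℓ.Prime) (hℓN : ¬ ℓ ∣ N)
    (hq : q.Prime) (hqN : ¬ q ∣ N) (a : 𝒪) (φ : Additive (Gamma0 N) →+ 𝒪)
    (hl : H48.Loc N hq hqN a φ) : H48.Loc N hℓ hℓN a φ := by
  subst h
  exact hl

omit [IsDomain 𝒪] [IsDiscreteValuationRing 𝒪] [IsAdicComplete (maximalIdeal 𝒪) 𝒪]
  [Finite (ResidueField 𝒪)] [CharZero 𝒪] in
theorem T_transport {S : Set ℕ} {ℓ q : ℕ} (h : ℓ = q) (hℓ : ℓ.Prime) (hℓN : ¬ ℓ ∣ N)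
    (hℓS : ℓ ∉ S) (hq : q.Prime) (hqN : ¬ q ∣ N) (hqS : q ∉ S) :
    (CuspForm.heckeAlgebra.T hℓ hℓN hℓS : CuspForm.heckeAlgebra N 2 S) =
      CuspForm.heckeAlgebra.T hq hqN hqS := by
  subst h
  rfl

/-- **PROJQ**, strong form, for a given realisation `ι` of the anemic lattice. -/
theorem projq_core (S : Finset ℕ)
    (θ : CuspForm.heckeAlgebra N 2 (↑S : Set ℕ) →+* ResidueField 𝒪) (Sig : Finset ℕ)
    (hSig : ∀ r ∈ Sig, r.Prime) {q : ℕ} (hq : q.Prime) (hqN : ¬ q ∣ N) (hqS : q ∉ (↑S : Set ℕ))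
    (θ' : CuspForm.heckeAlgebra N 2 (↑(insert q S) : Set ℕ) →+* ResidueField 𝒪)
    (hθ' : ∀ (ℓ : ℕ) (hℓ : ℓ.Prime) (hℓN : ¬ ℓ ∣ N) (hℓS' : ℓ ∉ (↑(insert q S) : Set ℕ))
      (hℓS : ℓ ∉ (↑S : Set ℕ)),
      θ' (CuspForm.heckeAlgebra.T hℓ hℓN hℓS') = θ (CuspForm.heckeAlgebra.T hℓ hℓN hℓS))
    {X : Type} [AddCommGroup X] [Module 𝒪 X] [Module.Finite 𝒪 X]
    (ι : X →ₗ[𝒪] (Additive (Gamma0 N) →+ 𝒪)) (hinj : Function.Injective ι)
    (hrange : ∀ φ, φ ∈ Set.range ι ↔ InBetti 𝒪 N (↑(insert q S) : Set ℕ) θ' Sig φ) :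
    ∃ P : (Additive (Gamma0 N) →+ 𝒪) → (Additive (Gamma0 N) →+ 𝒪),
      (∀ φ, InBetti 𝒪 N (↑(insert q S) : Set ℕ) θ' Sig φ →
        InBetti 𝒪 N (↑S : Set ℕ) θ Sig (P φ)) ∧
      (∀ φ, InBetti 𝒪 N (↑S : Set ℕ) θ Sig φ → P φ = φ) ∧
      (∀ φ ψ, InBetti 𝒪 N (↑(insert q S) : Set ℕ) θ' Sig φ →
        InBetti 𝒪 N (↑(insert q S) : Set ℕ) θ' Sig ψ → P (φ + ψ) = P φ + P ψ) ∧
      (∀ (c : 𝒪) φ, InBetti 𝒪 N (↑(insert q S) : Set ℕ) θ' Sig φ → P (c • φ) = c • P φ) ∧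
      (∀ (ℓ : ℕ) (hℓ : ℓ.Prime) (hℓN : ¬ ℓ ∣ N) φ,
        InBetti 𝒪 N (↑(insert q S) : Set ℕ) θ' Sig φ →
          InBetti 𝒪 N (↑(insert q S) : Set ℕ) θ' Sig (TB N 𝒪 hℓ hℓN φ) ∧
          P (TB N 𝒪 hℓ hℓN φ) = TB N 𝒪 hℓ hℓN (P φ)) ∧
      (∀ (m : ℕ) φ, InBetti 𝒪 N (↑(insert q S) : Set ℕ) θ' Sig φ →
        φ ∈ H48.Mval 𝒪 (Additive (Gamma0 N)) m → P φ ∈ H48.Mval 𝒪 (Additive (Gamma0 N)) m) ∧
      (∀ φ, InBetti 𝒪 N (↑S : Set ℕ) θ Sig φ →
        InBetti 𝒪 N (↑(insert q S) : Set ℕ) θ' Sig φ) := by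
  classical
  obtain ⟨ϖ, hϖ⟩ := IsDiscreteValuationRing.exists_irreducible 𝒪
  have hS_of : ∀ ℓ : ℕ, ℓ ∉ (↑(insert q S) : Set ℕ) → ℓ ∉ (↑S : Set ℕ) := fun ℓ h hmem =>
    h (Finset.mem_coe.mpr (Finset.mem_insert_of_mem (Finset.mem_coe.mp hmem)))
  have hX : ∀ x, InBetti 𝒪 N (↑(insert q S) : Set ℕ) θ' Sig (ι x) :=
    fun x => (hrange _).mp ⟨x, rfl⟩
  have hXinv : ∀ φ, InBetti 𝒪 N (↑(insert q S) : Set ℕ) θ' Sig φ → ∃ x, ι x = φ :=
    fun φ h => (hrange φ).mpr h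
  -- the lattice of `(N, S)` lies in the anemic lattice
  have hLX : ∀ φ, InBetti 𝒪 N (↑S : Set ℕ) θ Sig φ →
      InBetti 𝒪 N (↑(insert q S) : Set ℕ) θ' Sig φ := fun φ hφ =>
    ⟨hφ.1, hφ.2.1, fun ℓ hℓ hℓN hℓS' a ha =>
      hφ.2.2 ℓ hℓ hℓN (hS_of ℓ hℓS') a (ha.trans (hθ' ℓ hℓ hℓN hℓS' (hS_of ℓ hℓS')))⟩
  -- stability under the `T_ℓ`
  have hst : ∀ (ℓ : ℕ) (hℓ : ℓ.Prime) (hℓN : ¬ ℓ ∣ N) φ,
      InBetti 𝒪 N (↑(insert q S) : Set ℕ) θ' Sig φ →
      InBetti 𝒪 N (↑(insert q S) : Set ℕ) θ' Sig (TB N 𝒪 hℓ hℓN φ) := by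
    intro ℓ hℓ hℓN φ hφ
    exact H48.inBetti_map (H48.TBl 𝒪 N hℓ hℓN) (fun φ hφ => H53.TB_par 𝒪 hℓ hℓN φ hφ)
      (fun r hr hr₂ => ⟨hr₂, fun φ hφ => H53.UB_TB_comm 𝒪 (hSig r hr) hr₂ hℓ hℓN φ hφ⟩)
      (fun ℓ' hℓ' hℓ'N hℓ'S => ⟨hℓ'N, hℓ'S, rfl,
        fun φ hφ => H53.TB_TB_comm 𝒪 hℓ' hℓ'N hℓ hℓN φ hφ⟩) hφ
  -- the lifts of the `T_ℓ`
  have hlift : ∀ (ℓ : ℕ) (hℓ : ℓ.Prime) (hℓN : ¬ ℓ ∣ N),
      ∃ Ψ : Module.End 𝒪 X, ∀ x, ι (Ψ x) = TB N 𝒪 hℓ hℓN (ι x) :=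
    fun ℓ hℓ hℓN => exists_lift_end ι hinj (H48.TBl 𝒪 N hℓ hℓN)
      (fun x => hXinv _ (hst ℓ hℓ hℓN _ (hX x)))
  obtain ⟨Tq, hTq⟩ := hlift q hq hqN
  obtain ⟨a₀, ha₀⟩ := IsLocalRing.residue_surjective (θ (CuspForm.heckeAlgebra.T hq hqN hqS))
  have hfι : ∀ x, ι ((Tq - a₀ • (1 : Module.End 𝒪 X)) x) = H48.Dl 𝒪 N hq hqN a₀ (ι x) := by
    intro x
    rw [LinearMap.sub_apply, LinearMap.smul_apply, Module.End.one_apply, map_sub, map_smul,
      hTq, H48.Dl_apply]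
  have hfpow : ∀ (n : ℕ) (x : X), ι (((Tq - a₀ • (1 : Module.End 𝒪 X)) ^ n) x) =
      (H48.Dl 𝒪 N hq hqN a₀ ^ n) (ι x) :=
    fun n x => lift_pow ι _ _ hfι n x
  obtain ⟨π₀, hidem, hcomm, hfix⟩ := H12.fit (Tq - a₀ • (1 : Module.End 𝒪 X))
  -- saturation
  have hsat : ∀ (m : ℕ) (x : X), ι x ∈ H48.Mval 𝒪 (Additive (Gamma0 N)) m →
      x ∈ (maximalIdeal 𝒪 ^ m • ⊤ : Submodule 𝒪 X) := by
    intro m x hx
    obtain ⟨φ', h1, h2⟩ := H48.exists_inBetti_smul hϖ (hX x) hx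
    obtain ⟨x', rfl⟩ := hXinv φ' h2
    have hxx : x = ϖ ^ m • x' := hinj (by rw [h1, map_smul])
    rw [hxx]
    refine Submodule.smul_mem_smul ?_ Submodule.mem_top
    rw [H48.maxPow_eq hϖ]
    exact Ideal.mem_span_singleton_self _
  have hfix' : ∀ x, π₀ x = x ↔ H48.Loc N hq hqN a₀ (ι x) := by
    intro x
    rw [hfix]
    constructor
    · intro h m
      obtain ⟨n, hn⟩ := h m
      refine ⟨n, ?_⟩
      rw [← hfpow]
      exact map_mem_Mval_of_mem ι m hn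
    · intro h m
      obtain ⟨n, hn⟩ := h m
      refine ⟨n, hsat m _ ?_⟩
      rw [hfpow]
      exact hn
  -- the inverse of `ι`
  obtain ⟨inv, hinv⟩ : ∃ inv : (Additive (Gamma0 N) →+ 𝒪) → X,
      ∀ φ, InBetti 𝒪 N (↑(insert q S) : Set ℕ) θ' Sig φ → ι (inv φ) = φ := by
    refine ⟨fun φ => if h : ∃ x, ι x = φ then h.choose else 0, fun φ hφ => ?_⟩
    have h := hXinv φ hφ
    show ι (if h : ∃ x, ι x = φ then h.choose else 0) = φ
    rw [dif_pos h]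
    exact h.choose_spec
  have hinv_add : ∀ φ ψ, InBetti 𝒪 N (↑(insert q S) : Set ℕ) θ' Sig φ →
      InBetti 𝒪 N (↑(insert q S) : Set ℕ) θ' Sig ψ → inv (φ + ψ) = inv φ + inv ψ := by
    intro φ ψ hφ hψ
    have h1 : InBetti 𝒪 N (↑(insert q S) : Set ℕ) θ' Sig (φ + ψ) :=
      (hrange _).mp ⟨inv φ + inv ψ, by rw [map_add, hinv φ hφ, hinv ψ hψ]⟩
    apply hinj
    rw [hinv _ h1, map_add, hinv φ hφ, hinv ψ hψ]
  have hinv_smul : ∀ (c : 𝒪) φ, InBetti 𝒪 N (↑(insert q S) : Set ℕ) θ' Sig φ →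
      inv (c • φ) = c • inv φ := by
    intro c φ hφ
    have h1 : InBetti 𝒪 N (↑(insert q S) : Set ℕ) θ' Sig (c • φ) :=
      (hrange _).mp ⟨c • inv φ, by rw [map_smul, hinv φ hφ]⟩
    apply hinj
    rw [hinv _ h1, map_smul, hinv φ hφ]
  refine ⟨fun φ => ι (π₀ (inv φ)), ?_, ?_, ?_, ?_, ?_, ?_, hLX⟩
  · -- the image lies in the lattice of `(N, S)`
    intro φ hφ
    show InBetti 𝒪 N (↑S : Set ℕ) θ Sig (ι (π₀ (inv φ)))
    have h1 := hX (π₀ (inv φ))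
    rw [H48.inBetti_iff] at h1 ⊢
    obtain ⟨hp, hu, hl⟩ := h1
    refine ⟨hp, hu, ?_⟩
    intro ℓ hℓ hℓN hℓS a ha
    by_cases hℓq : ℓ = q
    · have h2 : H48.Loc N hq hqN a₀ (ι (π₀ (inv φ))) :=
        (hfix' _).mp (by rw [← Module.End.mul_apply, hidem])
      have h3 : residue 𝒪 a = residue 𝒪 a₀ := by
        rw [ha, ha₀, T_transport hℓq hℓ hℓN hℓS hq hqN hqS]
      have h4 : a₀ - a ∈ maximalIdeal 𝒪 := by
        rw [← IsLocalRing.residue_eq_zero_iff, map_sub, h3, sub_self]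
      exact loc_transport hℓq hℓ hℓN hq hqN a _ (H48.loc_of_loc hq hqN h4 h2)
    · have hℓS' : ℓ ∉ (↑(insert q S) : Set ℕ) := fun hmem => by
        rcases Finset.mem_insert.mp (Finset.mem_coe.mp hmem) with h | h
        · exact hℓq h
        · exact hℓS (Finset.mem_coe.mpr h)
      exact hl ℓ hℓ hℓN hℓS' a (ha.trans (hθ' ℓ hℓ hℓN hℓS' hℓS).symm)
  · -- the lattice of `(N, S)` is fixed
    intro φ hφ
    show ι (π₀ (inv φ)) = φ
    have hφX := hLX φ hφ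
    have h2 : π₀ (inv φ) = inv φ := by
      rw [hfix', hinv φ hφX]
      exact (H48.inBetti_iff.mp hφ).2.2 q hq hqN hqS a₀ ha₀
    rw [h2, hinv φ hφX]
  · intro φ ψ hφ hψ
    show ι (π₀ (inv (φ + ψ))) = ι (π₀ (inv φ)) + ι (π₀ (inv ψ))
    rw [hinv_add φ ψ hφ hψ, map_add, map_add]
  · intro c φ hφ
    show ι (π₀ (inv (c • φ))) = c • ι (π₀ (inv φ))
    rw [hinv_smul c φ hφ, map_smul, map_smul]
  · intro ℓ hℓ hℓN φ hφ
    refine ⟨hst ℓ hℓ hℓN φ hφ, ?_⟩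
    show ι (π₀ (inv (TB N 𝒪 hℓ hℓN φ))) = TB N 𝒪 hℓ hℓN (ι (π₀ (inv φ)))
    obtain ⟨Tℓ, hTℓ⟩ := hlift ℓ hℓ hℓN
    have hTT : Commute Tℓ Tq := by
      apply LinearMap.ext
      intro x
      apply hinj
      rw [Module.End.mul_apply, Module.End.mul_apply, hTℓ, hTq, hTq, hTℓ]
      exact H53.TB_TB_comm 𝒪 hℓ hℓN hq hqN (ι x) (hX x).1
    have hc : Commute Tℓ (Tq - a₀ • (1 : Module.End 𝒪 X)) :=
      hTT.sub_right ((Commute.one_right Tℓ).smul_right a₀)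
    have hcπ := hcomm Tℓ hc
    have h1 : inv (TB N 𝒪 hℓ hℓN φ) = Tℓ (inv φ) := by
      apply hinj
      rw [hinv _ (hst ℓ hℓ hℓN φ hφ), hTℓ, hinv φ hφ]
    have h2 : π₀ (Tℓ (inv φ)) = Tℓ (π₀ (inv φ)) := by
      have := LinearMap.congr_fun hcπ.eq (inv φ)
      rw [Module.End.mul_apply, Module.End.mul_apply] at this
      exact this.symm
    rw [h1, h2, hTℓ]
  · intro m φ hφ hm
    show ι (π₀ (inv φ)) ∈ H48.Mval 𝒪 (Additive (Gamma0 N)) m
    apply map_mem_Mval_of_mem ι m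
    refine H12.map_mem_Sm π₀ m (hsat m _ ?_)
    rw [hinv φ hφ]
    exact hm

end Core

/-! ## 3. The leaf -/

/-- **PROJQ**, strong form: the projector commutes with `T_ℓ` for ALL `ℓ ∤ N` (including
`ℓ = q` and `ℓ ∈ S`), preserves the homomorphisms with values in `𝔪^m` for every `m`, and the
lattice of `(N, S)` lies in the anemic lattice. -/
theorem projq_strong (𝒪 : Type) [CommRing 𝒪] [IsDomain 𝒪] [IsDiscreteValuationRing 𝒪]
    [IsAdicComplete (maximalIdeal 𝒪) 𝒪] [Finite (ResidueField 𝒪)] [CharZero 𝒪]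
    (N : ℕ) [NeZero N] (S : Finset ℕ) (hNS : ∀ r : ℕ, r.Prime → r ∣ N → r ∈ S)
    (θ : CuspForm.heckeAlgebra N 2 (↑S : Set ℕ) →+* ResidueField 𝒪) (Sig : Finset ℕ)
    (hSig : ∀ r ∈ Sig, r.Prime) {q : ℕ} (hq : q.Prime) (hqN : ¬ q ∣ N) (hqS : q ∉ (↑S : Set ℕ))
    (θ' : CuspForm.heckeAlgebra N 2 (↑(insert q S) : Set ℕ) →+* ResidueField 𝒪)
    (hθ' : ∀ (ℓ : ℕ) (hℓ : ℓ.Prime) (hℓN : ¬ ℓ ∣ N) (hℓS' : ℓ ∉ (↑(insert q S) : Set ℕ))
      (hℓS : ℓ ∉ (↑S : Set ℕ)),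
      θ' (CuspForm.heckeAlgebra.T hℓ hℓN hℓS') = θ (CuspForm.heckeAlgebra.T hℓ hℓN hℓS)) :
    ∃ P : (Additive (Gamma0 N) →+ 𝒪) → (Additive (Gamma0 N) →+ 𝒪),
      (∀ φ, InBetti 𝒪 N (↑(insert q S) : Set ℕ) θ' Sig φ →
        InBetti 𝒪 N (↑S : Set ℕ) θ Sig (P φ)) ∧
      (∀ φ, InBetti 𝒪 N (↑S : Set ℕ) θ Sig φ → P φ = φ) ∧
      (∀ φ ψ, InBetti 𝒪 N (↑(insert q S) : Set ℕ) θ' Sig φ →
        InBetti 𝒪 N (↑(insert q S) : Set ℕ) θ' Sig ψ → P (φ + ψ) = P φ + P ψ) ∧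
      (∀ (c : 𝒪) φ, InBetti 𝒪 N (↑(insert q S) : Set ℕ) θ' Sig φ → P (c • φ) = c • P φ) ∧
      (∀ (ℓ : ℕ) (hℓ : ℓ.Prime) (hℓN : ¬ ℓ ∣ N) φ,
        InBetti 𝒪 N (↑(insert q S) : Set ℕ) θ' Sig φ →
          InBetti 𝒪 N (↑(insert q S) : Set ℕ) θ' Sig (TB N 𝒪 hℓ hℓN φ) ∧
          P (TB N 𝒪 hℓ hℓN φ) = TB N 𝒪 hℓ hℓN (P φ)) ∧
      (∀ (m : ℕ) φ, InBetti 𝒪 N (↑(insert q S) : Set ℕ) θ' Sig φ →
        φ ∈ H48.Mval 𝒪 (Additive (Gamma0 N)) m → P φ ∈ H48.Mval 𝒪 (Additive (Gamma0 N)) m) ∧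
      (∀ φ, InBetti 𝒪 N (↑S : Set ℕ) θ Sig φ →
        InBetti 𝒪 N (↑(insert q S) : Set ℕ) θ' Sig φ) := by
  obtain ⟨MX, ι, hinj, hrange, -⟩ := H61.stmt_BM 𝒪 N (insert q S)
    (fun r hr hrN => Finset.mem_insert_of_mem (hNS r hr hrN)) θ' Sig hSig
  exact projq_core S θ Sig hSig hq hqN hqS θ' hθ' ι hinj hrange

/-- **PROJQ**. -/
theorem stmt_PROJQ : Stmt_PROJQ := by
  intro 𝒪 _ _ _ _ _ _ N _ S hNS θ Sig hSig q hq hqN hqS θ' hθ'
  obtain ⟨P, h1, h2, h3, h4, h5, h6, -⟩ :=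
    projq_strong 𝒪 N S hNS θ Sig hSig hq hqN hqS θ' hθ'
  refine ⟨P, h1, h2, h3, h4, fun ℓ hℓ hℓN _ φ hφ => h5 ℓ hℓ hℓN φ hφ, fun φ hφ hm γ => ?_⟩
  have h7 := h6 1 φ hφ (fun γ => by rw [pow_one]; exact hm γ) γ
  rwa [pow_one] at h7

/-- **PROJQ** with a restriction map `rest₀` of the Hecke algebras (`θ' = θ ∘ rest₀`);
the form asked for by the assembly `deg3_of` (helper48). -/
theorem projq_rest (𝒪 : Type) [CommRing 𝒪] [IsDomain 𝒪] [IsDiscreteValuationRing 𝒪]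
    [IsAdicComplete (maximalIdeal 𝒪) 𝒪] [Finite (ResidueField 𝒪)] [CharZero 𝒪]
    (N : ℕ) [NeZero N] (S : Finset ℕ) (hNS : ∀ r : ℕ, r.Prime → r ∣ N → r ∈ S)
    (θ : CuspForm.heckeAlgebra N 2 (↑S : Set ℕ) →+* ResidueField 𝒪) (Sig : Finset ℕ)
    (hSig : ∀ r ∈ Sig, r.Prime) {q : ℕ} (hq : q.Prime) (hqN : ¬ q ∣ N) (hqS : q ∉ (↑S : Set ℕ))
    (rest₀ : CuspForm.heckeAlgebra N 2 (↑(insert q S) : Set ℕ) →+*
      CuspForm.heckeAlgebra N 2 (↑S : Set ℕ))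
    (hrest : ∀ (ℓ : ℕ) (hℓ : ℓ.Prime) (hℓN : ¬ ℓ ∣ N) (hℓS' : ℓ ∉ (↑(insert q S) : Set ℕ))
      (hℓS : ℓ ∉ (↑S : Set ℕ)),
      rest₀ (CuspForm.heckeAlgebra.T hℓ hℓN hℓS') = CuspForm.heckeAlgebra.T hℓ hℓN hℓS) :
    ∃ P : (Additive (Gamma0 N) →+ 𝒪) → (Additive (Gamma0 N) →+ 𝒪),
      (∀ φ, InBetti 𝒪 N (↑(insert q S) : Set ℕ) (θ.comp rest₀) Sig φ →
        InBetti 𝒪 N (↑S : Set ℕ) θ Sig (P φ)) ∧
      (∀ φ, InBetti 𝒪 N (↑S : Set ℕ) θ Sig φ → P φ = φ) ∧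
      (∀ φ ψ, InBetti 𝒪 N (↑(insert q S) : Set ℕ) (θ.comp rest₀) Sig φ →
        InBetti 𝒪 N (↑(insert q S) : Set ℕ) (θ.comp rest₀) Sig ψ → P (φ + ψ) = P φ + P ψ) ∧
      (∀ (c : 𝒪) φ, InBetti 𝒪 N (↑(insert q S) : Set ℕ) (θ.comp rest₀) Sig φ →
        P (c • φ) = c • P φ) ∧
      (∀ (ℓ : ℕ) (hℓ : ℓ.Prime) (hℓN : ¬ ℓ ∣ N) φ,
        InBetti 𝒪 N (↑(insert q S) : Set ℕ) (θ.comp rest₀) Sig φ →
          InBetti 𝒪 N (↑(insert q S) : Set ℕ) (θ.comp rest₀) Sig (TB N 𝒪 hℓ hℓN φ) ∧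
          P (TB N 𝒪 hℓ hℓN φ) = TB N 𝒪 hℓ hℓN (P φ)) ∧
      (∀ (m : ℕ) φ, InBetti 𝒪 N (↑(insert q S) : Set ℕ) (θ.comp rest₀) Sig φ →
        φ ∈ H48.Mval 𝒪 (Additive (Gamma0 N)) m → P φ ∈ H48.Mval 𝒪 (Additive (Gamma0 N)) m) ∧
      (∀ φ, InBetti 𝒪 N (↑S : Set ℕ) θ Sig φ →
        InBetti 𝒪 N (↑(insert q S) : Set ℕ) (θ.comp rest₀) Sig φ) :=
  projq_strong 𝒪 N S hNS θ Sig hSig hq hqN hqS (θ.comp rest₀)
    (fun ℓ hℓ hℓN hℓS' hℓS => by rw [RingHom.comp_apply, hrest ℓ hℓ hℓN hℓS' hℓS])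

end Fermat.Agent.S59.NonMin.Geom.H30P

end
-- ==== END Fermat.Agent.S59.NonMin.Geom.H30_ProjQ

-- ==== BEGIN Fermat.Agent.S59.NonMin.Geom.H48_AsmGTools
section

/-!
# S59 / NMGEOM, assembly ASM-G, first half (helper48): tools

* `InBetti` is closed under `+`, `•`, `-` (`inBetti_add`, `inBetti_smul`, `inBetti_sub`);
* `exists_lift` : lifting of an additive homogeneous map through an injective linear map;
* `intertwine_all` : a linear map which intertwines the generators `T_ℓ` of the Hecke algebra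
  intertwines the Hecke algebra (when all the primes of the level lie in `S`);
* `map_mem_Mval_of_mem`, `mem_smul_top_of_mem_Mval` : `𝔪 • ⊤` versus values in `𝔪`;
* the membership lemmas `mem_res`, `mem_cor`, `mem_UBq`.

No `sorry`.
-/

set_option autoImplicit false

open Polynomial CuspForm CongruenceSubgroup IsLocalRing
open scoped MatrixGroups

namespace Fermat.Agent.S59.NonMin.Geom.H48

open Fermat.Agent.S41 Fermat.Agent.Betti Fermat.Agent.S59 Fermat.Agent.S59.Asm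
  Fermat.Agent.S59.NonMin Fermat.Agent.S59.NonMin.Geom
open ModularCurve.Period

/-! ## 1. Closure properties of the lattice -/

section Closure

variable {𝒪 : Type} [CommRing 𝒪] [IsDomain 𝒪] [IsDiscreteValuationRing 𝒪]
  {N : ℕ} [NeZero N] {S : Set ℕ} {θ : CuspForm.heckeAlgebra N 2 S →+* ResidueField 𝒪}
  {Sig : Finset ℕ}

theorem Loc.mono {ℓ : ℕ} {hℓ : ℓ.Prime} {hℓN : ¬ ℓ ∣ N} {a : 𝒪}
    {φ : Additive (Gamma0 N) →+ 𝒪} {m n n' : ℕ} (hnn' : n ≤ n')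
    (h : (Dl 𝒪 N hℓ hℓN a ^ n) φ ∈ Mval 𝒪 (Additive (Gamma0 N)) m) :
    (Dl 𝒪 N hℓ hℓN a ^ n') φ ∈ Mval 𝒪 (Additive (Gamma0 N)) m := by
  have : n' = (n' - n) + n := (Nat.sub_add_cancel hnn').symm
  rw [this, pow_add, Module.End.mul_apply]
  exact map_mem_Mval _ h

theorem inBetti_add {φ ψ : Additive (Gamma0 N) →+ 𝒪} (hφ : InBetti 𝒪 N S θ Sig φ)
    (hψ : InBetti 𝒪 N S θ Sig ψ) : InBetti 𝒪 N S θ Sig (φ + ψ) := by
  rw [inBetti_iff] at hφ hψ ⊢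
  refine ⟨(parabolicHoms 𝒪 (Gamma0 N) 𝒪).add_mem hφ.1 hψ.1, ?_, ?_⟩
  · intro r hr hrN
    rw [map_add, hφ.2.1 r hr hrN, hψ.2.1 r hr hrN, add_zero]
  · intro ℓ hℓ hℓN hℓS a ha m
    obtain ⟨n₁, h₁⟩ := hφ.2.2 ℓ hℓ hℓN hℓS a ha m
    obtain ⟨n₂, h₂⟩ := hψ.2.2 ℓ hℓ hℓN hℓS a ha m
    refine ⟨max n₁ n₂, ?_⟩
    rw [map_add]
    exact Submodule.add_mem _ (Loc.mono (le_max_left _ _) h₁) (Loc.mono (le_max_right _ _) h₂)

theorem inBetti_smul (c : 𝒪) {φ : Additive (Gamma0 N) →+ 𝒪} (hφ : InBetti 𝒪 N S θ Sig φ) :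
    InBetti 𝒪 N S θ Sig (c • φ) := by
  rw [inBetti_iff] at hφ ⊢
  refine ⟨(parabolicHoms 𝒪 (Gamma0 N) 𝒪).smul_mem c hφ.1, ?_, ?_⟩
  · intro r hr hrN
    rw [← UBl_apply, map_smul, UBl_apply, hφ.2.1 r hr hrN, smul_zero]
  · intro ℓ hℓ hℓN hℓS a ha m
    obtain ⟨n, hn⟩ := hφ.2.2 ℓ hℓ hℓN hℓS a ha m
    refine ⟨n, ?_⟩
    rw [map_smul]
    exact Submodule.smul_mem _ _ hn

theorem inBetti_neg {φ : Additive (Gamma0 N) →+ 𝒪} (hφ : InBetti 𝒪 N S θ Sig φ) :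
    InBetti 𝒪 N S θ Sig (-φ) := by
  have := inBetti_smul (-1 : 𝒪) hφ
  rwa [neg_one_smul] at this

theorem inBetti_sub {φ ψ : Additive (Gamma0 N) →+ 𝒪} (hφ : InBetti 𝒪 N S θ Sig φ)
    (hψ : InBetti 𝒪 N S θ Sig ψ) : InBetti 𝒪 N S θ Sig (φ - ψ) := by
  rw [sub_eq_add_neg]
  exact inBetti_add hφ (inBetti_neg hψ)

theorem inBetti_nsmul (n : ℕ) {φ : Additive (Gamma0 N) →+ 𝒪} (hφ : InBetti 𝒪 N S θ Sig φ) :
    InBetti 𝒪 N S θ Sig (n • φ) := by
  have := inBetti_smul (n : 𝒪) hφ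
  rwa [Nat.cast_smul_eq_nsmul] at this

end Closure

/-! ## 2. Lifting through an injective linear map -/

section Lift

variable {𝒪 : Type*} [CommRing 𝒪] {V₁ V₂ F₂ : Type*} [AddCommGroup V₁] [Module 𝒪 V₁]
  [AddCommGroup V₂] [Module 𝒪 V₂] [AddCommGroup F₂] [Module 𝒪 F₂]

theorem exists_lift (ι₂ : V₂ →ₗ[𝒪] F₂) (hι₂ : Function.Injective ι₂) (Ψ : V₁ → F₂)
    (hadd : ∀ v w, Ψ (v + w) = Ψ v + Ψ w) (hsmul : ∀ (c : 𝒪) v, Ψ (c • v) = c • Ψ v)
    (h : ∀ v, Ψ v ∈ Set.range ι₂) : ∃ Ψ' : V₁ →ₗ[𝒪] V₂, ∀ v, ι₂ (Ψ' v) = Ψ v := by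
  choose f hf using h
  refine ⟨{ toFun := f, map_add' := ?_, map_smul' := ?_ }, hf⟩
  · intro v w
    apply hι₂
    rw [map_add, hf, hf, hf, hadd]
  · intro c v
    apply hι₂
    rw [RingHom.id_apply, map_smul, hf, hf, hsmul]

end Lift

/-! ## 3. Induction over the Hecke algebra -/

section Ind

variable {𝒪 : Type*} [CommRing 𝒪] {V₁ V₂ : Type*} [AddCommGroup V₁] [Module 𝒪 V₁]
  [AddCommGroup V₂] [Module 𝒪 V₂]

theorem intCast_end_apply {W : Type*} [AddCommGroup W] [Module 𝒪 W] (n : ℤ) (w : W) :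
    ((n : Module.End 𝒪 W)) w = n • w := by
  have : ((n : ℤ) : Module.End 𝒪 W) = n • (1 : Module.End 𝒪 W) := by
    rw [zsmul_eq_mul, mul_one]
  rw [this, LinearMap.smul_apply, Module.End.one_apply]

theorem intertwine_all {N : ℕ} [NeZero N] {S : Set ℕ}
    (hNS : ∀ r : ℕ, r.Prime → r ∣ N → r ∈ S)
    (f : CuspForm.heckeAlgebra N 2 S →+* Module.End 𝒪 V₁)
    (g : CuspForm.heckeAlgebra N 2 S →+* Module.End 𝒪 V₂) (B : V₁ →ₗ[𝒪] V₂)
    (h : ∀ (ℓ : ℕ) (hℓ : ℓ.Prime) (hℓN : ¬ ℓ ∣ N) (hℓS : ℓ ∉ S) (v : V₁),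
      B (f (CuspForm.heckeAlgebra.T hℓ hℓN hℓS) v) = g (CuspForm.heckeAlgebra.T hℓ hℓN hℓS) (B v))
    (t : CuspForm.heckeAlgebra N 2 S) (v : V₁) : B (f t v) = g t (B v) := by
  obtain ⟨x, hx⟩ := t
  revert v
  induction hx using Algebra.adjoin_induction with
  | mem x hx =>
    intro v
    rcases hx with ⟨ℓ, hℓ, hℓN, hℓS, rfl⟩ | ⟨r, hrN, hr, hrS, rfl⟩
    · exact h ℓ hℓ hℓN hℓS v
    · exact absurd (hNS r hr hrN) hrS
  | algebraMap n =>
    intro v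
    have h1 : (⟨algebraMap ℤ _ n, Subalgebra.algebraMap_mem _ n⟩ :
        CuspForm.heckeAlgebra N 2 S) = (n : CuspForm.heckeAlgebra N 2 S) := by
      apply Subtype.ext
      simp
    calc B (f ⟨algebraMap ℤ _ n, Subalgebra.algebraMap_mem _ n⟩ v)
        = B ((n : Module.End 𝒪 V₁) v) := by rw [h1, map_intCast]
      _ = B (n • v) := by rw [intCast_end_apply]
      _ = n • B v := map_zsmul B n v
      _ = (n : Module.End 𝒪 V₂) (B v) := (intCast_end_apply n (B v)).symm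
      _ = g ⟨algebraMap ℤ _ n, Subalgebra.algebraMap_mem _ n⟩ (B v) := by rw [h1, map_intCast]
  | add x y hx hy ihx ihy =>
    intro v
    have h1 : (⟨x + y, Subalgebra.add_mem _ hx hy⟩ : CuspForm.heckeAlgebra N 2 S) =
        ⟨x, hx⟩ + ⟨y, hy⟩ := rfl
    rw [h1, map_add, map_add, LinearMap.add_apply, LinearMap.add_apply, map_add, ihx, ihy]
  | mul x y hx hy ihx ihy =>
    intro v
    have h1 : (⟨x * y, Subalgebra.mul_mem _ hx hy⟩ : CuspForm.heckeAlgebra N 2 S) =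
        ⟨x, hx⟩ * ⟨y, hy⟩ := rfl
    rw [h1, map_mul, map_mul, Module.End.mul_apply, Module.End.mul_apply, ihx, ihy]

end Ind

/-! ## 4. `𝔪 • ⊤` versus values in `𝔪` -/

section Top

variable {𝒪 : Type} [CommRing 𝒪] [IsDomain 𝒪] [IsDiscreteValuationRing 𝒪]
  {V : Type*} [AddCommGroup V] [Module 𝒪 V]

theorem map_mem_Mval_of_mem {G : Type*} [AddGroup G] (ι : V →ₗ[𝒪] (G →+ 𝒪)) {v : V}
    (hv : v ∈ (maximalIdeal 𝒪 • ⊤ : Submodule 𝒪 V)) : ι v ∈ Mval 𝒪 G 1 := by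
  refine Submodule.smul_induction_on hv ?_ ?_
  · intro r hr n _
    rw [map_smul]
    exact smul_mem_Mval (by rwa [pow_one]) _
  · intro x y hx hy
    rw [map_add]
    exact Submodule.add_mem _ hx hy

theorem mem_smul_top_of_mem_Mval {N : ℕ} [NeZero N] {S : Set ℕ}
    {θ : CuspForm.heckeAlgebra N 2 S →+* ResidueField 𝒪} {Sig : Finset ℕ}
    (ι : V →ₗ[𝒪] (Additive (Gamma0 N) →+ 𝒪)) (hinj : Function.Injective ι)
    (hrange : ∀ φ, φ ∈ Set.range ι ↔ InBetti 𝒪 N S θ Sig φ) {v : V}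
    (hv : ι v ∈ Mval 𝒪 (Additive (Gamma0 N)) 1) :
    v ∈ (maximalIdeal 𝒪 • ⊤ : Submodule 𝒪 V) := by
  obtain ⟨ϖ, hϖ⟩ := IsDiscreteValuationRing.exists_irreducible 𝒪
  obtain ⟨φ', h1, h2⟩ := exists_inBetti_smul hϖ ((hrange _).mp ⟨v, rfl⟩) hv
  obtain ⟨v', rfl⟩ := (hrange φ').mpr h2
  rw [← map_smul] at h1
  rw [hinj h1, pow_one]
  exact Submodule.smul_mem_smul ((mem_maximalIdeal _).mpr hϖ.not_isUnit) Submodule.mem_top

end Top

end Fermat.Agent.S59.NonMin.Geom.H48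

end
-- ==== END Fermat.Agent.S59.NonMin.Geom.H48_AsmGTools

-- ==== BEGIN Fermat.Agent.S59.NonMin.Geom.H61_InBetti
section

/-!
# S59 NMGEOM, DEG3 sub-leaf INB-MAP (helper61) and the basic properties of the Betti lattice

* `stmt_INBMAP : Stmt_INBMAP`;
* `inBetti_zero`, `inBetti_add`, `inBetti_smul`, `inBetti_neg`, `inBetti_sub` : `InBetti` is a
  submodule;
* `inBetti_sat` : it is saturated;
* `inBetti_TB`, `inBetti_UB` : it is stable under all `T_ℓ` (`ℓ ∤ N`) and all `U_r` (`r ∣ N`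
  prime);
* `inBetti_mem_max` : a lattice element with values in `𝔪` is `ϖ` times a lattice element.
-/

set_option autoImplicit false

open Polynomial CuspForm CongruenceSubgroup IsLocalRing
open scoped MatrixGroups

namespace Fermat.Agent.S59.NonMin.Geom.H61

open Fermat.Agent.S41 Fermat.Agent.Betti Fermat.Agent.S59 Fermat.Agent.S59.Asm
open ModularCurve.Period
open Fermat.Agent.S59.NonMin.Geom

section

variable {𝒪 : Type} [CommRing 𝒪] [IsDomain 𝒪] [IsDiscreteValuationRing 𝒪]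

theorem par_sub_smul {N : ℕ} {χ₁ χ₂ : Additive (Gamma0 N) →+ 𝒪} (a : 𝒪)
    (h₁ : IsParabolicHom (Gamma0 N) χ₁) (h₂ : IsParabolicHom (Gamma0 N) χ₂) :
    IsParabolicHom (Gamma0 N) (χ₁ - a • χ₂) := by
  intro γ hγ
  show χ₁ (Additive.ofMul γ) - a • χ₂ (Additive.ofMul γ) = 0
  rw [h₁ γ hγ, h₂ γ hγ, smul_zero, sub_zero]

/-- a multiple of `ϖ^m` has values in `𝔪^m` -/
theorem smul_pow_mem {G : Type} [AddZeroClass G] {ϖ : 𝒪} (hϖ : Irreducible ϖ) (m : ℕ)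
    (ψ : G →+ 𝒪) (γ : G) : (ϖ ^ m • ψ) γ ∈ maximalIdeal 𝒪 ^ m := by
  show ϖ ^ m • ψ γ ∈ _
  rw [smul_eq_mul]
  exact Ideal.mul_mem_right _ _ (Ideal.pow_mem_pow (hϖ.maximalIdeal_eq ▸
    Ideal.mem_span_singleton_self ϖ) m)

/-- **INB-MAP**. -/
theorem stmt_INBMAP : Stmt_INBMAP := by
  intro 𝒪 _ _ _ N N' _ _ S S' θ θ' Sig F hlin hpar hU hT φ hφ
  obtain ⟨hφpar, hφU, hφloc⟩ := hφ
  obtain ⟨ϖ, hϖ⟩ := IsDiscreteValuationRing.exists_irreducible 𝒪
  refine ⟨hpar φ hφpar, ?_, ?_⟩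
  · intro r hr hr'
    obtain ⟨hrN, h⟩ := hU r hr hr'
    rw [h φ hφpar, hφU r hr hrN, map_zero]
  · intro ℓ hℓ hℓN' hℓS' a ha m
    obtain ⟨hℓN, hℓS, hθ, hcomm⟩ := hT ℓ hℓ hℓN' hℓS'
    obtain ⟨n, hn⟩ := hφloc ℓ hℓ hℓN hℓS a (ha.trans hθ) m
    refine ⟨n, ?_⟩
    have hit : ∀ k : ℕ,
        IsParabolicHom (Gamma0 N)
          ((fun χ : Additive (Gamma0 N) →+ 𝒪 => TB N 𝒪 hℓ hℓN χ - a • χ)^[k] φ) ∧
        (fun χ : Additive (Gamma0 N') →+ 𝒪 => TB N' 𝒪 hℓ hℓN' χ - a • χ)^[k] (F φ)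
          = F ((fun χ : Additive (Gamma0 N) →+ 𝒪 => TB N 𝒪 hℓ hℓN χ - a • χ)^[k] φ) := by
      intro k
      induction k with
      | zero => exact ⟨hφpar, rfl⟩
      | succ k ih =>
        rw [Function.iterate_succ_apply', Function.iterate_succ_apply']
        refine ⟨par_sub_smul a (Fermat.Agent.S59.NonMin.Geom.H53.TB_par 𝒪 hℓ hℓN _ ih.1) ih.1, ?_⟩
        rw [ih.2, hcomm _ ih.1, map_sub, hlin]
    rw [(hit n).2]
    obtain ⟨ψ, hψ⟩ := hom_div hϖ m _ hn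
    intro γ
    rw [← hψ, hlin]
    exact smul_pow_mem hϖ m _ γ

end

end Fermat.Agent.S59.NonMin.Geom.H61

end
-- ==== END Fermat.Agent.S59.NonMin.Geom.H61_InBetti
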