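-- GENERATED (merged mirror, NOTES/tools/trim/merge3_helper67.py): 14 modules of the originals, bodies verbatim.
import Mathlib
import Fermat.Agent.Zm.S59_L02_003
import Fermat.Agent.Zm.S59_L02_005
import Fermat.Agent.Zm.S33_L01_002
import Fermat.Agent.Zm.S59_L01_005
import Fermat.Agent.Zm.S59_L02_004
import Fermat.Agent.Zm.S33_L03_001
import Fermat.Agent.Zm.S43_L01_001
import Fermat.Agent.Zm.S43_L04_002
import Fermat.Agent.Zm.S56_L12_001
import Fermat.Agent.Zm.S56_L06_004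
import Fermat.Agent.Zm.S56_L10_002
import Fermat.Agent.Zm.S44_L12_000
import Fermat.Agent.Zm.S44_L04_000
import Fermat.Agent.Zm.S44_L03_001

-- ==== BEGIN Fermat.Agent.S27.RR.H52_Weil
section

/-!
# S27, package RR-DUAL (helper52), part 3: Weil differentials

`F / K` with `FFHyp K F` and Riemann's theorem `IsGenus K F g c`.  Stichtenoth 1.5.6 - 1.5.10:

* `Om D` : the `K`-space of Weil differentials vanishing on `A(D) + F`; `finrank_Om` : its
  dimension is `l(D) - deg D - 1 + g`;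
* `actW ω x` : the differential `x ω`; `actW_mem_Om_iff` : `x ω ∈ Ω(D) ↔ ω ∈ Ω(D - (x))`;
* `exists_actW_eq` : the Weil differentials form a one-dimensional `F`-space;
* `exists_canonical` : a nonzero differential `ω` has a divisor `W`: `ω ∈ Ω(D) ↔ D ≤ W`.
-/

set_option autoImplicit false
set_option linter.style.haveILetI false
set_option linter.unusedSectionVars false

noncomputable section

open AlgebraicCurve

attribute [local instance] Classical.propDecidable

namespace Fermat.Agent.S27.RR.H52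

open Fermat.Agent.RED Fermat.Agent.RED.H51 Fermat.Agent.RED.H17

local notation "L" => riemannRochSpace

variable {K F : Type*} [Field K] [Field F] [Algebra K F]

/-! ### The spaces `Ω(D)` -/

/-- The Weil differentials vanishing on `A(D) + F`. -/
def Om (D : Divisor K F) : Submodule K (Module.Dual K (Adele K F)) := (NN D).dualAnnihilator

theorem mem_Om_iff {D : Divisor K F} {ω : Module.Dual K (Adele K F)} :
    ω ∈ Om D ↔ (∀ α ∈ repartitionsOf D, ω α = 0) ∧ ∀ f : F, ω (cst f) = 0 := by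
  unfold Om NN
  rw [Submodule.dualAnnihilator_sup_eq, Submodule.mem_inf, Submodule.mem_dualAnnihilator,
    Submodule.mem_dualAnnihilator]
  refine and_congr Iff.rfl ⟨fun h f => h _ (cst_mem_principal f), fun h φ hφ => ?_⟩
  obtain ⟨f, rfl⟩ := exists_cst_of_mem_principal hφ
  exact h f

theorem Om_anti {D D' : Divisor K F} (h : D ≤ D') : Om D' ≤ Om D :=
  Submodule.dualAnnihilator_anti (sup_le_sup_right (repartitionsOf_mono h) _)

/-- **`dim Ω(D) = l(D) - deg D - 1 + g`**. -/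
theorem finrank_Om (H : FFHyp K F) {g : ℕ} {c : ℤ} (hg : IsGenus K F g c) (D : Divisor K F) :
    Module.Finite K (Om D) ∧ (Module.finrank K (Om D) : ℤ) = idx g D := by
  obtain ⟨hfin, hrk⟩ := finrank_H1 H hg D
  haveI := hfin
  have e : Module.Dual K (H1 D) ≃ₗ[K] Om D := Submodule.dualQuotEquivDualAnnihilator (NN D)
  refine ⟨Module.Finite.equiv e, ?_⟩
  rw [← LinearEquiv.finrank_eq e, Subspace.dual_finrank_eq, hrk]
  rfl

/-! ### The action of `F` -/

/-- Multiplication by `x ∈ F` on the adeles. -/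
def mulA (x : F) : Adele K F →ₗ[K] Adele K F := LinearMap.mulLeft K (cst x)

theorem mulA_apply (x : F) (α : Adele K F) (v : Place K F) :
    ((mulA x α : Adele K F) : Place K F → F) v = x * (α : Place K F → F) v := rfl

theorem mulA_mulA (x y : F) (α : Adele K F) : mulA x (mulA y α) = mulA (x * y) α := by
  apply Subtype.ext
  funext v
  rw [mulA_apply, mulA_apply, mulA_apply, mul_assoc]

theorem mulA_one (α : Adele K F) : mulA (1 : F) α = α := by
  apply Subtype.ext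
  funext v
  rw [mulA_apply, one_mul]

theorem mulA_inv_cancel {x : F} (hx : x ≠ 0) (α : Adele K F) : mulA x (mulA x⁻¹ α) = α := by
  rw [mulA_mulA, mul_inv_cancel₀ hx, mulA_one]

theorem mulA_cst (x f : F) : mulA x (cst f : Adele K F) = cst (x * f) := by
  apply Subtype.ext
  funext v
  rw [mulA_apply, cst_apply, cst_apply]

theorem mulA_add (x y : F) (α : Adele K F) : mulA (x + y) α = mulA x α + mulA y α := by
  apply Subtype.ext
  funext v
  rw [coe_add', mulA_apply, mulA_apply, mulA_apply, add_mul]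

theorem mulA_smul (c : K) (x : F) (α : Adele K F) : mulA (c • x) α = c • mulA x α := by
  apply Subtype.ext
  funext v
  show (c • x) * (α : Place K F → F) v = c • (x * (α : Place K F → F) v)
  rw [smul_mul_assoc]

/-- If `ord_v x ≥ D(v) - D'(v)` for all `v`, then `x A(D) ⊆ A(D')`. -/
theorem mulA_mem_AD {x : F} {D D' : Divisor K F} (h : ∀ v, OrdGe v (D v - D' v) x)
    {α : Adele K F} (hα : α ∈ repartitionsOf D) : mulA x α ∈ repartitionsOf D' := by
  rw [mem_AD_iff] at hα ⊢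
  intro v
  rw [mulA_apply]
  have := (h v).mul (hα v)
  rwa [show D v - D' v + -D v = -D' v by ring] at this

/-- The differential `x ω`, as a `K`-linear map in `x`. -/
def actW (ω : Module.Dual K (Adele K F)) : F →ₗ[K] Module.Dual K (Adele K F) where
  toFun x := ω ∘ₗ mulA x
  map_add' x y := by
    apply LinearMap.ext
    intro α
    rw [LinearMap.add_apply, LinearMap.comp_apply, LinearMap.comp_apply, LinearMap.comp_apply,
      mulA_add, map_add]
  map_smul' c x := by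
    apply LinearMap.ext
    intro α
    rw [RingHom.id_apply, LinearMap.smul_apply, LinearMap.comp_apply, LinearMap.comp_apply,
      mulA_smul, map_smul]

theorem actW_apply (ω : Module.Dual K (Adele K F)) (x : F) (α : Adele K F) :
    actW ω x α = ω (mulA x α) := rfl

theorem actW_actW (ω : Module.Dual K (Adele K F)) (x y : F) :
    actW (actW ω x) y = actW ω (x * y) := by
  apply LinearMap.ext
  intro α
  rw [actW_apply, actW_apply, actW_apply, mulA_mulA]

theorem actW_one (ω : Module.Dual K (Adele K F)) : actW ω 1 = ω := by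
  apply LinearMap.ext
  intro α
  rw [actW_apply, mulA_one]

theorem actW_mem_Om {x : F} {E : Divisor K F} (hE : ∀ v, E v = v.ord x)
    {D : Divisor K F} {ω : Module.Dual K (Adele K F)} (h : ω ∈ Om (D - E)) :
    actW ω x ∈ Om D := by
  rw [mem_Om_iff] at h ⊢
  refine ⟨fun α hα => ?_, fun f => ?_⟩
  · rw [actW_apply]
    refine h.1 _ (mulA_mem_AD (D := D) (fun v => ?_) hα)
    right
    rw [Finsupp.sub_apply, hE v]
    omega
  · rw [actW_apply, mulA_cst]
    exact h.2 _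

/-- **`x ω ∈ Ω(D) ↔ ω ∈ Ω(D - (x))`**. -/
theorem actW_mem_Om_iff {x : F} (hx : x ≠ 0) {E : Divisor K F} (hE : ∀ v, E v = v.ord x)
    {D : Divisor K F} {ω : Module.Dual K (Adele K F)} :
    actW ω x ∈ Om D ↔ ω ∈ Om (D - E) := by
  refine ⟨fun h => ?_, actW_mem_Om hE⟩
  have hE' : ∀ v, (-E) v = v.ord x⁻¹ := by
    intro v
    rw [Finsupp.neg_apply, hE v, Place.ord_inv]
  have h1 := actW_mem_Om (D := D - E) hE' (ω := actW ω x)
    (by rwa [sub_neg_eq_add, sub_add_cancel])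
  rwa [actW_actW, mul_inv_cancel₀ hx, actW_one] at h1

theorem actW_injective {ω : Module.Dual K (Adele K F)} (hω : ω ≠ 0) :
    Function.Injective (actW ω) := by
  rw [← LinearMap.ker_eq_bot, LinearMap.ker_eq_bot']
  intro x hx
  by_contra hx0
  apply hω
  apply LinearMap.ext
  intro α
  have := LinearMap.congr_fun hx (mulA x⁻¹ α)
  rw [actW_apply, mulA_inv_cancel hx0] at this
  rw [this]
  rfl

/-! ### The differentials form a one-dimensional `F`-space -/

theorem hyp42 (H : FFHyp K F) : H42.Hyp K F where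
  principal := fun f hf => H.principal.exists_divisor f hf
  deg_one := H.deg_one
  exists_pole := fun f hf => by
    by_contra hcon
    push Not at hcon
    obtain ⟨c, hc⟩ := H.const_of_regular hcon
    exact hf ⟨c, hc.symm⟩

theorem L_eq_bot_of_neg (H : FFHyp K F) {D : Divisor K F} (hD : Divisor.degree D < 0) :
    L D = ⊥ :=
  H42.L_eq_bot_of_degree_neg (hyp42 H) hD

theorem finrank_L_of_neg (H : FFHyp K F) {D : Divisor K F} (hD : Divisor.degree D < 0) :
    Module.finrank K (L D) = 0 := by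
  rw [L_eq_bot_of_neg H hD, finrank_bot]

/-- `x ω ∈ Ω(D)` for `x ∈ L(A - D)` and `ω ∈ Ω(A)`. -/
theorem actW_mem_Om_of_L (H : FFHyp K F) {A D : Divisor K F}
    {ω : Module.Dual K (Adele K F)} (hω : ω ∈ Om A) {x : F} (hx : x ∈ L (A - D)) :
    actW ω x ∈ Om D := by
  by_cases hx0 : x = 0
  · rw [hx0, map_zero]
    exact Submodule.zero_mem _
  · obtain ⟨E, hE, -⟩ := H.principal.exists_divisor x hx0
    refine actW_mem_Om hE (Om_anti ?_ hω)
    rw [Finsupp.le_def]
    intro v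
    have := ord_ge_of_mem_L hx hx0 v
    rw [Finsupp.sub_apply] at this ⊢
    rw [hE v]
    omega

theorem map_actW_le_Om (H : FFHyp K F) {A D : Divisor K F}
    {ω : Module.Dual K (Adele K F)} (hω : ω ∈ Om A) :
    (L (A - D)).map (actW ω) ≤ Om D := by
  rintro η ⟨x, hx, rfl⟩
  exact actW_mem_Om_of_L H hω hx

theorem finrank_map_actW (H : FFHyp K F) {ω : Module.Dual K (Adele K F)} (hω : ω ≠ 0)
    (D : Divisor K F) :
    Module.Finite K ((L D).map (actW ω)) ∧
      Module.finrank K ((L D).map (actW ω)) = Module.finrank K (L D) := by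
  haveI := H.finite D
  have e := Submodule.equivMapOfInjective (actW ω) (actW_injective hω) (L D)
  exact ⟨Module.Finite.equiv e, (LinearEquiv.finrank_eq e).symm⟩

/-- **The Weil differentials form a one-dimensional `F`-space** (Stichtenoth 1.5.9). -/
theorem exists_actW_eq (H : FFHyp K F) {g : ℕ} {c : ℤ} (hg : IsGenus K F g c)
    {ω₁ ω₂ : Module.Dual K (Adele K F)} {A₁ A₂ : Divisor K F} (hω₁ : ω₁ ≠ 0)
    (h₁ : ω₁ ∈ Om A₁) (h₂ : ω₂ ∈ Om A₂) : ∃ z : F, ω₂ = actW ω₁ z := by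
  by_cases hω₂ : ω₂ = 0
  · exact ⟨0, by rw [hω₂, map_zero]⟩
  obtain ⟨v₀⟩ := exists_place H
  set n : ℕ := (3 * (g : ℤ) - 2 - Divisor.degree A₁ - Divisor.degree A₂).toNat + 1 with hn
  have hn1 : 3 * (g : ℤ) - 2 - Divisor.degree A₁ - Divisor.degree A₂ < n := by
    have := Int.self_le_toNat (3 * (g : ℤ) - 2 - Divisor.degree A₁ - Divisor.degree A₂)
    rw [hn]
    push_cast
    omega
  have hn0 : (0 : ℤ) < n := by
    rw [hn]
    push_cast
    omega
  set B : Divisor K F := Finsupp.single v₀ (n : ℤ) with hB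
  have hdegB : Divisor.degree B = n := by
    rw [hB, Divisor.degree_single, H.deg_one v₀]
    simp
  -- the two subspaces
  set U₁ : Submodule K (Module.Dual K (Adele K F)) := (L (A₁ - (-B))).map (actW ω₁) with hU₁
  set U₂ : Submodule K (Module.Dual K (Adele K F)) := (L (A₂ - (-B))).map (actW ω₂) with hU₂
  have hle₁ : U₁ ≤ Om (-B) := map_actW_le_Om H h₁
  have hle₂ : U₂ ≤ Om (-B) := map_actW_le_Om H h₂
  obtain ⟨hf₁, hr₁⟩ := finrank_map_actW H hω₁ (A₁ - (-B))
  obtain ⟨hf₂, hr₂⟩ := finrank_map_actW H hω₂ (A₂ - (-B))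
  obtain ⟨hfO, hrO⟩ := finrank_Om H hg (-B)
  haveI : FiniteDimensional K U₁ := hf₁
  haveI : FiniteDimensional K U₂ := hf₂
  haveI := hfO
  have hsum := Submodule.finrank_sup_add_finrank_inf_eq U₁ U₂
  have hsup : Module.finrank K ↥(U₁ ⊔ U₂) ≤ Module.finrank K (Om (-B)) :=
    Submodule.finrank_mono (sup_le hle₁ hle₂)
  have hl₁ := (hg (A₁ - (-B))).1
  have hl₂ := (hg (A₂ - (-B))).1
  have hd₁ : Divisor.degree (A₁ - (-B)) = Divisor.degree A₁ + n := by
    rw [map_sub, map_neg, hdegB]; ring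
  have hd₂ : Divisor.degree (A₂ - (-B)) = Divisor.degree A₂ + n := by
    rw [map_sub, map_neg, hdegB]; ring
  have hO : (Module.finrank K (Om (-B)) : ℤ) = n - 1 + g := by
    rw [hrO]
    unfold idx
    rw [finrank_L_of_neg H (by rw [map_neg, hdegB]; omega), map_neg, hdegB]
    push_cast
    ring
  rw [hd₁] at hl₁
  rw [hd₂] at hl₂
  rw [← hU₁] at hr₁
  rw [← hU₂] at hr₂
  have hpos : 0 < Module.finrank K ↥(U₁ ⊓ U₂) := by
    have e1 : (Module.finrank K ↥(U₁ ⊔ U₂) : ℤ) + Module.finrank K ↥(U₁ ⊓ U₂)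
        = Module.finrank K U₁ + Module.finrank K U₂ := by exact_mod_cast hsum
    have e2 : (Module.finrank K ↥(U₁ ⊔ U₂) : ℤ) ≤ Module.finrank K (Om (-B)) := by
      exact_mod_cast hsup
    rw [hr₁, hr₂] at e1
    have : (0 : ℤ) < Module.finrank K ↥(U₁ ⊓ U₂) := by omega
    exact_mod_cast this
  have hne : U₁ ⊓ U₂ ≠ ⊥ := by
    intro hbot
    rw [hbot, finrank_bot] at hpos
    exact lt_irrefl _ hpos
  obtain ⟨η, hη, hη0'⟩ := (Submodule.ne_bot_iff _).mp hne
  obtain ⟨⟨x₁, -, hx₁⟩, ⟨x₂, -, hx₂⟩⟩ := Submodule.mem_inf.mp hη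
  have hx₂0 : x₂ ≠ 0 := by
    rintro rfl
    rw [map_zero] at hx₂
    exact hη0' hx₂.symm
  refine ⟨x₁ * x₂⁻¹, ?_⟩
  rw [← actW_actW, hx₁, ← hx₂, actW_actW, mul_inv_cancel₀ hx₂0, actW_one]

/-! ### The divisor of a differential -/

/-- A nonzero differential does not vanish on `A(D) + F` if `deg D ≥ c`. -/
theorem degree_lt_of_mem_Om (H : FFHyp K F) {g : ℕ} {c : ℤ} (hg : IsGenus K F g c)
    {ω : Module.Dual K (Adele K F)} (hω : ω ≠ 0) {D : Divisor K F} (h : ω ∈ Om D) :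
    Divisor.degree D < c := by
  by_contra hcon
  rw [not_lt] at hcon
  have htop : NN D = ⊤ := sup_eq_top_of_idx_zero H hg (idx_eq_zero hg hcon)
  apply hω
  apply LinearMap.ext
  intro α
  have hα : α ∈ NN D := by rw [htop]; exact Submodule.mem_top
  exact (Submodule.mem_dualAnnihilator ω).mp h α hα

/-- One more point: if `ω ∈ Ω(W)` and `ω ∈ Ω(D)` with `D(Q) > W(Q)`, then `ω ∈ Ω(W + Q)`. -/
theorem mem_Om_succ {ω : Module.Dual K (Adele K F)} {W D : Divisor K F} (hW : ω ∈ Om W)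
    (hD : ω ∈ Om D) {Q : Place K F} (hQ : W Q < D Q) : ω ∈ Om (W + Finsupp.single Q 1) := by
  rw [mem_Om_iff] at hW hD ⊢
  refine ⟨fun α hα => ?_, hW.2⟩
  rw [mem_AD_iff] at hα
  set a : F := (α : Place K F → F) Q with ha
  have h1 : α - sgl Q a ∈ repartitionsOf W := by
    rw [mem_AD_iff]
    intro v
    rw [coe_sub']
    by_cases hv : v = Q
    · subst hv
      rw [sgl_apply_self, ha, sub_self]
      exact ordGe_zero _ _
    · rw [sgl_apply_ne hv, sub_zero]
      have := hα v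
      rwa [add_single_apply_ne W hv] at this
  have h2 : sgl Q a ∈ repartitionsOf D := by
    rw [sgl_mem_AD_iff]
    have := hα Q
    rw [add_single_apply_self] at this
    exact this.mono (by omega)
  have e : α = (α - sgl Q a) + sgl Q a := by abel
  rw [e, map_add, hW.1 _ h1, hD.1 _ h2, add_zero]

/-- **The divisor of a nonzero Weil differential** (Stichtenoth 1.5.10). -/
theorem exists_canonical (H : FFHyp K F) {g : ℕ} {c : ℤ} (hg : IsGenus K F g c)
    {ω : Module.Dual K (Adele K F)} (hω : ω ≠ 0) {D₀ : Divisor K F} (h₀ : ω ∈ Om D₀) :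
    ∃ W : Divisor K F, ∀ D : Divisor K F, ω ∈ Om D ↔ D ≤ W := by
  have hbdd : ∃ b : ℤ, ∀ z : ℤ, (∃ D : Divisor K F, ω ∈ Om D ∧ Divisor.degree D = z) → z ≤ b := by
    refine ⟨c, ?_⟩
    rintro z ⟨D, hD, rfl⟩
    exact (degree_lt_of_mem_Om H hg hω hD).le
  obtain ⟨z, ⟨W, hW, rfl⟩, hmax⟩ := Int.exists_greatest_of_bdd hbdd ⟨_, D₀, h₀, rfl⟩
  refine ⟨W, fun D => ⟨fun hD => ?_, fun hD => Om_anti hD hW⟩⟩
  by_contra hcon
  rw [Finsupp.le_def] at hcon
  push Not at hcon
  obtain ⟨Q, hQ⟩ := hcon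
  have h1 := mem_Om_succ hW hD hQ
  have h2 := hmax _ ⟨_, h1, rfl⟩
  rw [degree_add_single H W Q] at h2
  omega

end Fermat.Agent.S27.RR.H52

end
end
-- ==== END Fermat.Agent.S27.RR.H52_Weil

-- ==== BEGIN Fermat.Agent.S59.NonMin.H2_ResOrd
section

/-!
# S59, package RT-NONMIN, case C: `RESORD` and the wiring `WIREC` (helper2)

* `residual_isOrdinaryAt` : an ordinary representation has ordinary reduction;
* `ofResidual_isOrdinaryAt_of_isEquiv` : ordinarity of residual representations is invariant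
  under equivalence;
* `isOrdinaryAt_of_baseChange` : descent of ordinarity along a bijective change of coefficients;
* `stmt_RESORD : Stmt_RESORD`, `stmt_WIREC : Stmt_WIREC`.
-/

set_option autoImplicit false
set_option linter.style.haveILetI false
set_option linter.unusedSectionVars false
set_option linter.unusedVariables false
set_option maxHeartbeats 1000000

open Polynomial IsLocalRing
open scoped TensorProduct

namespace Fermat.Agent.S59.NonMin.H2

open Fermat.Agent.S59 Fermat.Agent.S59.Asm Fermat.Agent.S59.NonMin Fermat.Agent.R.H86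

/-- Ordinarity at `P` of a family of endomorphisms of a module. -/
def OrdLine {A V : Type} [CommRing A] [AddCommGroup V] [Module A V]
    (r : (AlgebraicClosure ℚ ≃ₐ[ℚ] AlgebraicClosure ℚ) → Module.End A V)
    (P : ValuationSubring (AlgebraicClosure ℚ)) : Prop :=
  ∃ L : Submodule A V,
    (∃ b : Module.Basis (Fin 2) A V, L = A ∙ b 0) ∧
    (∀ σ ∈ P.decompositionSubgroup ℚ, ∀ v ∈ L, r σ v ∈ L) ∧
    (∀ σ ∈ P.inertiaSubgroupIn ℚ, ∀ v : V, r σ v - v ∈ L)

lemma isOrdinaryAt_iff_ordLine {A : Type} [CommRing A] [IsLocalRing A] (ρ : GaloisRepAdic A)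
    (p : ℕ) :
    ρ.IsOrdinaryAt p ↔ ∀ P : ValuationSubring (AlgebraicClosure ℚ), P.LiesOverPrime p →
      OrdLine (fun σ => ρ.ρ σ) P :=
  Iff.rfl

lemma ofResidual_isOrdinaryAt_iff {k : Type} [Field k] (ρ : ResidualGaloisRep k) (p : ℕ) :
    (GaloisRepAdic.ofResidualGaloisRep ρ).IsOrdinaryAt p ↔
      ∀ P : ValuationSubring (AlgebraicClosure ℚ), P.LiesOverPrime p →
        OrdLine (fun σ => ρ.ρ σ) P :=
  Iff.rfl

lemma ofResidual_baseChange_isOrdinaryAt_iff {k k' : Type} [Field k] [Field k'] [Algebra k k']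
    (ρ : ResidualGaloisRep k) (p : ℕ) :
    (GaloisRepAdic.ofResidualGaloisRep (ρ.baseChange k')).IsOrdinaryAt p ↔
      ∀ P : ValuationSubring (AlgebraicClosure ℚ), P.LiesOverPrime p →
        OrdLine (A := k') (V := k' ⊗[k] ρ.V) (fun σ => (ρ.ρ σ).baseChange k') P :=
  Iff.rfl

/-- An ordinary representation has ordinary reduction. -/
theorem residual_isOrdinaryAt {A : Type} [CommRing A] [IsLocalRing A] (ρ : GaloisRepAdic A)
    (p : ℕ) (h : ρ.IsOrdinaryAt p) :
    (GaloisRepAdic.ofResidualGaloisRep ρ.residual).IsOrdinaryAt p := by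
  rw [residual_isOrdinaryAt_iff]
  intro P hP
  obtain ⟨L, ⟨b, rfl⟩, hD, hI⟩ := h P hP
  refine resOrdLine_of_resOrdAt _ P b ⟨?_, ?_⟩
  · intro τ hτ
    have h1 := hD τ hτ (b 0) (Submodule.mem_span_singleton_self _)
    rw [mem_span_basis_zero_iff] at h1
    rw [h1]
    exact zero_mem _
  · intro σ hσ v
    have h1 := hI σ hσ v
    rw [mem_span_basis_zero_iff] at h1
    rw [h1]
    exact zero_mem _

/-- Transfer of `OrdLine` along an intertwining linear equivalence. -/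
theorem ordLine_of_equiv {A V W : Type} [CommRing A] [AddCommGroup V] [Module A V]
    [AddCommGroup W] [Module A W]
    (r : (AlgebraicClosure ℚ ≃ₐ[ℚ] AlgebraicClosure ℚ) → Module.End A V)
    (r' : (AlgebraicClosure ℚ ≃ₐ[ℚ] AlgebraicClosure ℚ) → Module.End A W)
    (e : V ≃ₗ[A] W) (he : ∀ σ x, e (r σ x) = r' σ (e x))
    (P : ValuationSubring (AlgebraicClosure ℚ)) (h : OrdLine r P) : OrdLine r' P := by
  obtain ⟨L, ⟨b, hb⟩, hD, hI⟩ := h
  refine ⟨L.map (e : V →ₗ[A] W), ⟨b.map e, ?_⟩, ?_, ?_⟩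
  · rw [hb, Submodule.map_span, Set.image_singleton]
    rfl
  · intro σ hσ v hv
    obtain ⟨w, hw, rfl⟩ := hv
    refine ⟨r σ w, hD σ hσ w hw, ?_⟩
    exact he σ w
  · intro σ hσ v
    obtain ⟨w, rfl⟩ := e.surjective v
    refine ⟨r σ w - w, hI σ hσ w, ?_⟩
    change e (r σ w - w) = _
    rw [map_sub, he]

/-- Ordinarity of residual representations is invariant under equivalence. -/
theorem ofResidual_isOrdinaryAt_of_isEquiv {k : Type} [Field k] {ρ₁ ρ₂ : ResidualGaloisRep k}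
    (he : ρ₁.IsEquiv ρ₂) (p : ℕ)
    (h : (GaloisRepAdic.ofResidualGaloisRep ρ₁).IsOrdinaryAt p) :
    (GaloisRepAdic.ofResidualGaloisRep ρ₂).IsOrdinaryAt p := by
  obtain ⟨e⟩ := he
  rw [ofResidual_isOrdinaryAt_iff] at h ⊢
  intro P hP
  exact ordLine_of_equiv _ _ e.toLinearEquiv (fun σ x => e.map_apply σ x) P (h P hP)

/-- Descent of `OrdLine` along a bijective change of coefficients. -/
theorem ordLine_of_baseChange {k k' V : Type} [Field k] [Field k'] [Algebra k k']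
    [AddCommGroup V] [Module k V]
    (hφ : Function.Surjective (algebraMap k k'))
    (r : (AlgebraicClosure ℚ ≃ₐ[ℚ] AlgebraicClosure ℚ) → Module.End k V)
    (P : ValuationSubring (AlgebraicClosure ℚ))
    (h : OrdLine (A := k') (V := k' ⊗[k] V) (fun σ => (r σ).baseChange k') P) :
    OrdLine r P := by
  have hbij : Function.Bijective (algebraMap k k') := ⟨(algebraMap k k').injective, hφ⟩
  let f : k ≃+* k' := RingEquiv.ofBijective (algebraMap k k') hbij
  have hf : ∀ c : k, f c = algebraMap k k' c := fun c => rfl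
  let a : k ≃ₗ[k] k' := LinearEquiv.ofBijective (Algebra.linearMap k k') hbij
  have ha : ∀ c : k, a c = algebraMap k k' c := fun c => rfl
  let e : V ≃ₗ[k] k' ⊗[k] V :=
    (TensorProduct.lid k V).symm ≪≫ₗ TensorProduct.congr a (LinearEquiv.refl k V)
  have he : ∀ v, e v = (1 : k') ⊗ₜ[k] v := by
    intro v
    show TensorProduct.congr a (LinearEquiv.refl k V)
      ((TensorProduct.lid k V).symm v) = _
    rw [TensorProduct.lid_symm_apply, TensorProduct.congr_tmul, ha, map_one]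
    rfl
  have hsm : ∀ (c : k') (x : k' ⊗[k] V), f.symm c • x = c • x := by
    intro c x
    rw [algebra_compatible_smul k' (f.symm c) x, ← hf, f.apply_symm_apply]
  have heρ : ∀ (σ : AlgebraicClosure ℚ ≃ₐ[ℚ] AlgebraicClosure ℚ) (v : V),
      e (r σ v) = (r σ).baseChange k' (e v) := by
    intro σ v
    rw [he, he, LinearMap.baseChange_tmul]
  obtain ⟨L', ⟨b', hb'⟩, hD, hI⟩ := h
  let bk : Module.Basis (Fin 2) k (k' ⊗[k] V) := b'.mapCoeffs f.symm hsm
  let b : Module.Basis (Fin 2) k V := bk.map e.symm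
  have hb0 : b 0 = e.symm (b' 0) := by
    show (bk.map e.symm) 0 = _
    rw [Module.Basis.map_apply]
    show e.symm ((b'.mapCoeffs f.symm hsm) 0) = _
    rw [Module.Basis.mapCoeffs_apply]
  have hmemL : ∀ v : V, e v ∈ L' ↔ v ∈ Submodule.span k {b 0} := by
    intro v
    rw [hb', Submodule.mem_span_singleton, Submodule.mem_span_singleton, hb0]
    constructor
    · rintro ⟨c', hc'⟩
      refine ⟨f.symm c', ?_⟩
      rw [← map_smul, hsm, hc', LinearEquiv.symm_apply_apply]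
    · rintro ⟨c, hc⟩
      refine ⟨f c, ?_⟩
      rw [← hc, map_smul, LinearEquiv.apply_symm_apply, hf, ← algebra_compatible_smul]
  refine ⟨Submodule.span k {b 0}, ⟨b, rfl⟩, ?_, ?_⟩
  · intro σ hσ v hv
    rw [← hmemL] at hv ⊢
    have h1 := hD σ hσ (e v) hv
    rw [heρ]
    exact h1
  · intro σ hσ v
    rw [← hmemL]
    have h1 := hI σ hσ (e v)
    rw [map_sub, heρ]
    exact h1

/-- Descent of ordinarity along a surjective `φ`. -/
theorem isOrdinaryAt_of_baseChangeAlong {k k' : Type} [Field k] [Field k'] (φ : k →+* k')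
    (hφ : Function.Surjective φ) (ρbar : ResidualGaloisRep k) (p : ℕ)
    (h : (GaloisRepAdic.ofResidualGaloisRep (ρbar.baseChangeAlong φ)).IsOrdinaryAt p) :
    (GaloisRepAdic.ofResidualGaloisRep ρbar).IsOrdinaryAt p := by
  letI : Algebra k k' := φ.toAlgebra
  have h' : (GaloisRepAdic.ofResidualGaloisRep (ρbar.baseChange k')).IsOrdinaryAt p := h
  rw [ofResidual_baseChange_isOrdinaryAt_iff] at h'
  rw [ofResidual_isOrdinaryAt_iff]
  intro P hP
  exact ordLine_of_baseChange (k' := k') hφ _ P (h' P hP)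

/-- **RESORD**: the reduction of an ordinary representation is ordinary. -/
theorem stmt_RESORD : Stmt_RESORD := by
  intro 𝒪 _ _ _ _ _ p hp ρbar ρ hres hord
  have h1 := residual_isOrdinaryAt ρ p hord
  have h2 := ofResidual_isOrdinaryAt_of_isEquiv hres p h1
  refine isOrdinaryAt_of_baseChangeAlong (ResidueField.map (algebraMap 𝒪 𝒪)) ?_ ρbar p h2
  intro y
  obtain ⟨x, rfl⟩ := IsLocalRing.residue_surjective y
  exact ⟨residue 𝒪 x, rfl⟩

/-- **WIREC**. -/
theorem stmt_WIREC : Stmt_WIREC := wirec_of stmt_RESORD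

end Fermat.Agent.S59.NonMin.H2

end
-- ==== END Fermat.Agent.S59.NonMin.H2_ResOrd

-- ==== BEGIN Fermat.Agent.S59.NonMin.H48_KumCore
section

/-!
# S59, case C, leaf KUM-p (helper48): the cocycle form

* `kum_char` : a continuous cocycle `c : I_P → μ_{p^n}` is, on the peu ramifié inertia `Ipeu p P`,
  a power of the Kummer character of `p`: `c h = (h π₀ / π₀) ^ (-k)` for all `h ∈ Ipeu`
  (Hilbert 90 over the inertia field + `H56K.stmt_VAL`).
* `kum_core` : a continuous cocycle `b : I_P → A(1)` with values in an abelian group killed by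
  `p ^ n`: if `h₀, h ∈ Ipeu`, `h₀ π₀ = ξ π₀` and `h π₀ = ξ ^ m π₀`, then `b h = m • b h₀`
  (characters of the finite group generated by the values of `b`).
  NO hypothesis on `ξ` (it need not be primitive).
-/

set_option autoImplicit false

namespace Fermat.Agent.S59.NonMin.H48

/-- The Galois group of `ℚ`. -/
local notation "Γℚ" => AlgebraicClosure ℚ ≃ₐ[ℚ] AlgebraicClosure ℚ

/-- Every automorphism acts on the `N`-th roots of unity by a power. -/
theorem exists_pow_action (g : Γℚ) (N : ℕ) (hN : 0 < N) :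
    ∃ a : ℕ, ∀ μ : AlgebraicClosure ℚ, μ ^ N = 1 → g μ = μ ^ a := by
  haveI : NeZero N := ⟨hN.ne'⟩
  obtain ⟨ζ₁, hζ₁⟩ := HasEnoughRootsOfUnity.exists_primitiveRoot (AlgebraicClosure ℚ) N
  have h1 : (g ζ₁) ^ N = 1 := by rw [← map_pow, hζ₁.pow_eq_one, map_one]
  obtain ⟨a, -, ha⟩ := hζ₁.eq_pow_of_pow_eq_one h1
  refine ⟨a, fun μ hμ => ?_⟩
  obtain ⟨j, -, rfl⟩ := hζ₁.eq_pow_of_pow_eq_one hμ
  rw [map_pow, ← ha, ← pow_mul, ← pow_mul, mul_comm]

/-- **The Kummer class of a cocycle with values in `μ_{p^n}` on the inertia group**: on the peu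
ramifié inertia it is a power of the Kummer character of `p`. -/
theorem kum_char (p : ℕ) (hp : p.Prime)
    (P : ValuationSubring (AlgebraicClosure ℚ)) (hP : P.LiesOverPrime p) (n : ℕ)
    (c : Γℚ → AlgebraicClosure ℚ)
    (hc1 : ∀ g ∈ P.inertiaSubgroupIn ℚ, c g ^ p ^ n = 1)
    (hcoc : ∀ g ∈ P.inertiaSubgroupIn ℚ, ∀ h ∈ P.inertiaSubgroupIn ℚ, c (g * h) = c g * g (c h))
    (F : IntermediateField ℚ (AlgebraicClosure ℚ)) [FiniteDimensional ℚ F]
    (hF : ∀ g ∈ P.inertiaSubgroupIn ℚ, (∀ x ∈ F, g x = x) → c g = 1) :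
    ∃ k : ℤ, ∀ π₀ : AlgebraicClosure ℚ, π₀ ^ p ^ n = (p : AlgebraicClosure ℚ) →
      ∀ h ∈ Ipeu p P, c h * (h π₀) ^ k = π₀ ^ k := by
  have hc0 : ∀ g ∈ P.inertiaSubgroupIn ℚ, c g ≠ 0 := by
    intro g hg h0
    have := hc1 g hg
    rw [h0, zero_pow (pow_ne_zero n hp.ne_zero)] at this
    exact zero_ne_one this
  obtain ⟨y, hy0, hy⟩ := hilbert90_sub (P.inertiaSubgroupIn ℚ) c hc0 hcoc F hF
  have hw0 : y ^ p ^ n ≠ 0 := pow_ne_zero _ hy0
  have hwfix : ∀ s ∈ P.inertiaSubgroupIn ℚ, s (y ^ p ^ n) = y ^ p ^ n := by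
    intro s hs
    rw [map_pow, hy s hs, mul_pow, hc1 s hs, one_mul]
  obtain ⟨k, hk⟩ := H56K.stmt_VAL p hp P hP _ hw0 hwfix
  refine ⟨k, fun π₀ hπ₀ h hh => ?_⟩
  have hpow : (y * π₀ ^ k) ^ p ^ n = y ^ p ^ n * (p : AlgebraicClosure ℚ) ^ k := by
    rw [mul_pow, ← zpow_natCast (π₀ ^ k), ← zpow_mul, mul_comm k, zpow_mul, zpow_natCast, hπ₀]
  have hfix := hh.2 (y * π₀ ^ k) n (by rw [hpow]; exact hk)
  rw [map_mul, hy h hh.1, map_zpow₀] at hfix
  have h1 : c h * (h π₀) ^ k * y = π₀ ^ k * y := by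
    rw [mul_comm (π₀ ^ k) y, ← hfix]
    ring
  exact mul_right_cancel₀ hy0 h1

/-- **KUM-p, cocycle form.**  `A` an abelian group killed by `p ^ n`, `b : I_P → A` a continuous
cocycle for the cyclotomic action.  If `h₀, h` are in the peu ramifié inertia, `π₀ ^ (p ^ n) = p`,
`h₀ π₀ = ξ π₀` and `h π₀ = ξ ^ m π₀`, then `b h = m • b h₀`. -/
theorem kum_core (p : ℕ) (hp : p.Prime)
    (P : ValuationSubring (AlgebraicClosure ℚ)) (hP : P.LiesOverPrime p)
    (A : Type) [AddCommGroup A] (n : ℕ) (hA : ∀ x : A, (p ^ n) • x = 0) (b : Γℚ → A)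
    (F : IntermediateField ℚ (AlgebraicClosure ℚ)) [FiniteDimensional ℚ F]
    (hF : ∀ σ ∈ P.inertiaSubgroupIn ℚ, (∀ x ∈ F, σ x = x) → b σ = 0)
    (hcoc : ∀ σ ∈ P.inertiaSubgroupIn ℚ, ∀ τ ∈ P.inertiaSubgroupIn ℚ, ∀ a : ℕ,
      (∀ μ : AlgebraicClosure ℚ, μ ^ p ^ n = 1 → σ μ = μ ^ a) → b (σ * τ) = b σ + a • b τ)
    (π₀ ξ : AlgebraicClosure ℚ) (hπ₀ : π₀ ^ p ^ n = (p : AlgebraicClosure ℚ))
    (h₀ : Γℚ) (hh₀ : h₀ ∈ Ipeu p P) (hξ : h₀ π₀ = ξ * π₀)
    (h : Γℚ) (hh : h ∈ Ipeu p P) (m : ℕ) (hm : h π₀ = ξ ^ m * π₀) :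
    b h = m • b h₀ := by
  classical
  have hpn : 0 < p ^ n := pow_pos hp.pos n
  have hπ0 : π₀ ≠ 0 := by
    intro h0
    rw [h0, zero_pow hpn.ne'] at hπ₀
    exact (Nat.cast_ne_zero.2 hp.ne_zero) hπ₀.symm
  -- `b` only depends on the restriction to `F`
  have hwd : ∀ σ ∈ P.inertiaSubgroupIn ℚ, ∀ σ' ∈ P.inertiaSubgroupIn ℚ,
      resH90 F σ = resH90 F σ' → b σ = b σ' := by
    intro g hg g' hg' hres
    have ht : g⁻¹ * g' ∈ P.inertiaSubgroupIn ℚ := mul_mem (inv_mem hg) hg'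
    have hfix : ∀ x ∈ F, (g⁻¹ * g') x = x := by
      intro x hx
      have h1 : g (⟨x, hx⟩ : F) = g' (⟨x, hx⟩ : F) := by
        have := congrArg (fun φ : F →ₐ[ℚ] AlgebraicClosure ℚ => φ ⟨x, hx⟩) hres
        exact this
      show g⁻¹ (g' x) = x
      have h2 : g' x = g x := h1.symm
      rw [h2]
      show (g⁻¹ * g) x = x
      rw [inv_mul_cancel]
      rfl
    obtain ⟨a, ha⟩ := exists_pow_action g (p ^ n) hpn
    have h1 := hcoc g hg _ ht a ha
    rw [mul_inv_cancel_left, hF _ ht hfix, smul_zero, add_zero] at h1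
    exact h1.symm
  -- the finite group generated by the values
  let f : (F →ₐ[ℚ] AlgebraicClosure ℚ) → A := fun φ =>
    if h : ∃ r ∈ P.inertiaSubgroupIn ℚ, resH90 F r = φ then b h.choose else 0
  have hf : ∀ σ ∈ P.inertiaSubgroupIn ℚ, b σ = f (resH90 F σ) := by
    intro r hr
    have h : ∃ r' ∈ P.inertiaSubgroupIn ℚ, resH90 F r' = resH90 F r := ⟨r, hr, rfl⟩
    show b r = (if h : ∃ r' ∈ P.inertiaSubgroupIn ℚ, resH90 F r' = resH90 F r
      then b h.choose else 0)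
    rw [dif_pos h]
    exact (hwd _ h.choose_spec.1 _ hr h.choose_spec.2).symm
  let B : AddSubgroup A := AddSubgroup.closure (Set.range f)
  have hbB : ∀ σ ∈ P.inertiaSubgroupIn ℚ, b σ ∈ B := fun σ hσ => by
    rw [hf σ hσ]
    exact AddSubgroup.subset_closure (Set.mem_range_self _)
  haveI hfg : AddGroup.FG B := AddGroup.closure_finite_fg (Set.range f)
  haveI hfin : Finite B := by
    refine AddCommGroup.finite_of_fg_isAddTorsion B (fun x => ?_)
    rw [isOfFinAddOrder_iff_nsmul_eq_zero]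
    exact ⟨p ^ n, hpn, Subtype.ext (hA x)⟩
  by_contra hne
  have hxB : b h - m • b h₀ ∈ B := B.sub_mem (hbB h hh.1) (B.nsmul_mem (hbB h₀ hh₀.1) m)
  have hx1 : Multiplicative.ofAdd (⟨b h - m • b h₀, hxB⟩ : B) ≠ 1 := by
    intro h1
    have h2 : (⟨b h - m • b h₀, hxB⟩ : B) = 0 := h1
    have h3 := congrArg Subtype.val h2
    exact hne (sub_eq_zero.1 h3)
  haveI : NeZero (Monoid.exponent (Multiplicative B)) :=
    ⟨Monoid.exponent_ne_zero_of_finite⟩
  obtain ⟨lam, hlam⟩ := CommGroup.exists_apply_ne_one_of_hasEnoughRootsOfUnity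
    (Multiplicative B) (AlgebraicClosure ℚ) hx1
  -- the cocycle with values in `μ_{p^n}`
  let L : B → AlgebraicClosure ℚ := fun x => ((lam (Multiplicative.ofAdd x) : (AlgebraicClosure ℚ)ˣ) :
    AlgebraicClosure ℚ)
  have hL_add : ∀ x y : B, L (x + y) = L x * L y := by
    intro x y
    show ((lam (Multiplicative.ofAdd (x + y)) : (AlgebraicClosure ℚ)ˣ) : AlgebraicClosure ℚ) = _
    rw [ofAdd_add, map_mul, Units.val_mul]
  have hL_zero : L 0 = 1 := by
    show ((lam (Multiplicative.ofAdd (0 : B)) : (AlgebraicClosure ℚ)ˣ) : AlgebraicClosure ℚ) = 1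
    rw [ofAdd_zero, map_one, Units.val_one]
  have hL_nsmul : ∀ (a : ℕ) (x : B), L (a • x) = L x ^ a := by
    intro a x
    induction a with
    | zero => rw [zero_smul, pow_zero, hL_zero]
    | succ a ih => rw [succ_nsmul, hL_add, ih, pow_succ]
  have hL_pow : ∀ x : B, L x ^ p ^ n = 1 := by
    intro x
    rw [← hL_nsmul, show (p ^ n) • x = 0 from Subtype.ext (hA x), hL_zero]
  let c : Γℚ → AlgebraicClosure ℚ := fun g => if hg : b g ∈ B then L ⟨b g, hg⟩ else 1
  have hc : ∀ g (hg : g ∈ P.inertiaSubgroupIn ℚ), c g = L ⟨b g, hbB g hg⟩ := by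
    intro g hg
    show (if hg : b g ∈ B then L ⟨b g, hg⟩ else 1) = _
    rw [dif_pos (hbB g hg)]
  have hc1 : ∀ g ∈ P.inertiaSubgroupIn ℚ, c g ^ p ^ n = 1 := by
    intro g hg
    rw [hc g hg]
    exact hL_pow _
  have hccoc : ∀ g ∈ P.inertiaSubgroupIn ℚ, ∀ h ∈ P.inertiaSubgroupIn ℚ,
      c (g * h) = c g * g (c h) := by
    intro g hg t ht
    obtain ⟨a, ha⟩ := exists_pow_action g (p ^ n) hpn
    rw [hc _ (mul_mem hg ht), hc g hg, hc t ht, ha _ (hL_pow _), ← hL_nsmul, ← hL_add]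
    congr 1
    exact Subtype.ext (hcoc g hg t ht a ha)
  have hcF : ∀ g ∈ P.inertiaSubgroupIn ℚ, (∀ x ∈ F, g x = x) → c g = 1 := by
    intro g hg hfix
    rw [hc g hg, show (⟨b g, hbB g hg⟩ : B) = 0 from Subtype.ext (hF g hg hfix), hL_zero]
  obtain ⟨k, hk⟩ := kum_char p hp P hP n c hc1 hccoc F hcF
  have e1 := hk π₀ hπ₀ h hh
  have e0 := hk π₀ hπ₀ h₀ hh₀
  -- `ξ ≠ 0`
  have hξ0 : ξ ≠ 0 := by
    intro h0
    rw [h0, zero_mul] at hξ
    exact hπ0 ((map_eq_zero_iff h₀ h₀.injective).1 hξ)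
  have hπk : π₀ ^ k ≠ 0 := zpow_ne_zero k hπ0
  have hξk : ξ ^ k ≠ 0 := zpow_ne_zero k hξ0
  -- `c h₀ = ξ ^ (-k)`, `c h = (ξ ^ m) ^ (-k)`
  have e0' : c h₀ * ξ ^ k = 1 := by
    rw [hξ, mul_zpow, ← mul_assoc] at e0
    exact mul_right_cancel₀ hπk (by rw [e0, one_mul])
  have e1' : c h * (ξ ^ k) ^ m = 1 := by
    rw [hm, mul_zpow, ← mul_assoc, ← zpow_natCast ξ m, ← zpow_mul, mul_comm (m : ℤ) k,
      zpow_mul, zpow_natCast] at e1
    exact mul_right_cancel₀ hπk (by rw [e1, one_mul])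
  have e2 : c h = c h₀ ^ m := by
    have h3 : c h₀ ^ m * (ξ ^ k) ^ m = 1 := by rw [← mul_pow, e0', one_pow]
    have h4 : (ξ ^ k) ^ m ≠ 0 := pow_ne_zero m hξk
    exact mul_right_cancel₀ h4 (by rw [e1', h3])
  -- contradiction
  apply hlam
  have h5 : L ⟨b h - m • b h₀, hxB⟩ = 1 := by
    have h6 : (⟨b h, hbB h hh.1⟩ : B) = ⟨b h - m • b h₀, hxB⟩ + m • ⟨b h₀, hbB h₀ hh₀.1⟩ := by
      apply Subtype.ext
      show b h = b h - m • b h₀ + m • b h₀
      abel
    have h7 : L ⟨b h, hbB h hh.1⟩ = L ⟨b h₀, hbB h₀ hh₀.1⟩ ^ m := by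
      rw [← hc h hh.1, ← hc h₀ hh₀.1]
      exact e2
    rw [h6, hL_add, hL_nsmul] at h7
    have h8 : L ⟨b h₀, hbB h₀ hh₀.1⟩ ^ m ≠ 0 := by
      apply pow_ne_zero
      exact Units.ne_zero _
    exact mul_right_cancel₀ h8 (by rw [h7, one_mul])
  exact Units.ext h5

end Fermat.Agent.S59.NonMin.H48

end
-- ==== END Fermat.Agent.S59.NonMin.H48_KumCore

-- ==== BEGIN Fermat.Agent.S59.NonMin.H56_CQNE
section

set_option autoImplicit false

open UpperHalfPlane ModularForm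

namespace Fermat.Agent.S59.NonMin.H56

theorem stmt_NormLt : Fermat.Agent.S59.NonMin.CQNE.Stmt_NormLt :=
  fun _N _ _q hq hqN f hf c h => norm_lt_of_heckeTLin_eq_smul hq hqN f hf c h

theorem stmt_HeckeIneq : Fermat.Agent.S59.NonMin.CQNE.Stmt_HeckeIneq :=
  fun _N _ _q hq hqN f a h z => cuspPhi_hecke_range hq hqN f a h z

theorem stmt_Decay : Fermat.Agent.S59.NonMin.CQNE.Stmt_Decay := by
  intro N _ f ε hε
  obtain ⟨Y, hY⟩ := cuspPhi_decay f (ε / 2) (by positivity)
  refine ⟨Y, fun z hz => ?_⟩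
  have h := hY z hz 1
  rw [one_smul] at h
  have h' : ‖f z‖ * z.im ≤ ε / 2 := h
  linarith

/-- **CQNE**. -/
theorem stmt_CQNE : Fermat.Agent.S59.NonMin.Stmt_CQNE :=
  Fermat.Agent.S59.NonMin.CQNE.H7.stmt_CQNE_of_normLt
    Fermat.Agent.S59.NonMin.CQNE.H7.stmt_EigOfChar stmt_NormLt

end Fermat.Agent.S59.NonMin.H56

end
-- ==== END Fermat.Agent.S59.NonMin.H56_CQNE

-- ==== BEGIN Fermat.Agent.S59.NonMin.H56_KCore
section

set_option autoImplicit false

namespace Fermat.Agent.S59.NonMin.H56K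

variable {p : ℕ} (P : ValuationSubring Qb)

/-! ### 3. An element of inertia moving the `p`-th roots of unity -/

theorem exists_primitive_root_qb (n : ℕ) [NeZero n] : ∃ ζ : Qb, IsPrimitiveRoot ζ n :=
  HasEnoughRootsOfUnity.exists_primitiveRoot Qb n

/-- Some element of the inertia group at `p` (odd) fixes no nontrivial `p`-th root of unity. -/
theorem exists_moving (hp : p.Prime) (hp2 : p ≠ 2) (hP : P.LiesOverPrime p) :
    ∃ γ₀ ∈ P.inertiaSubgroupIn ℚ, ∀ ξ : Qb, ξ ^ p = 1 → γ₀ ξ = ξ → ξ = 1 := by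
  have : NeZero p := ⟨hp.ne_zero⟩
  obtain ⟨ζ, hζ⟩ := exists_primitive_root_qb p
  have hmove : ∃ γ₀ ∈ P.inertiaSubgroupIn ℚ, γ₀ ζ ≠ ζ := by
    by_contra hcon
    push Not at hcon
    have hfix : ∀ s ∈ P.inertiaSubgroupIn ℚ, s (ζ - 1) = ζ - 1 := fun s hs => by
      rw [map_sub, hcon s hs, map_one]
    have hne : ζ - 1 ≠ 0 := sub_ne_zero.2 (hζ.ne_one hp.one_lt)
    obtain ⟨k, hk⟩ := Fermat.Agent.R.H6.stmt_UnrFix p hp P hP (ζ - 1) hne hfix
    have h1 := Fermat.Agent.BADP.H97.val_root_sub_one_pow P.valuation hp hζ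
    rw [hk, ← zpow_natCast, ← zpow_mul] at h1
    have h2 : k * ((p - 1 : ℕ) : ℤ) = 1 :=
      zpow_val_p_injective P hp hP (by rw [h1, zpow_one])
    have h3 : ((p - 1 : ℕ) : ℤ) ∣ 1 := Dvd.intro_left k h2
    have h4 : ((p - 1 : ℕ) : ℤ) = 1 := Int.eq_one_of_dvd_one (by positivity) h3
    have h5 := hp.two_le
    omega
  obtain ⟨γ₀, hγ₀, hne⟩ := hmove
  refine ⟨γ₀, hγ₀, fun ξ hξ hfix => ?_⟩
  by_contra hξ1
  have hord : orderOf ξ = p := by
    have : Fact p.Prime := ⟨hp⟩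
    exact orderOf_eq_prime hξ hξ1
  have hprim : IsPrimitiveRoot ξ p := hord ▸ IsPrimitiveRoot.orderOf ξ
  obtain ⟨i, -, hi⟩ := hprim.eq_pow_of_pow_eq_one hζ.pow_eq_one
  apply hne
  rw [← hi, map_pow, hfix]

/-! ### 4. Descent -/

/-- An automorphism fixing no nontrivial `p`-th root of unity fixes no nontrivial `p`-power root
of unity. -/
theorem eq_one_of_fixed {γ₀ : GQ} (h : ∀ ξ : Qb, ξ ^ p = 1 → γ₀ ξ = ξ → ξ = 1) :
    ∀ (m : ℕ) (ξ : Qb), ξ ^ p ^ m = 1 → γ₀ ξ = ξ → ξ = 1 := by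
  intro m
  induction m with
  | zero => intro ξ hξ _; simpa using hξ
  | succ m ih =>
    intro ξ hξ hfix
    have h1 : ξ ^ p = 1 := ih (ξ ^ p) (by rw [← pow_mul, ← pow_succ']; exact hξ)
      (by rw [map_pow, hfix])
    exact h ξ h1 hfix

/-- `ξ ↦ γ₀ ξ / ξ` is onto the `N`-th roots of unity if `γ₀` fixes none of them but `1`. -/
theorem exists_root_div (N : ℕ) (hN : 0 < N) (γ₀ : GQ)
    (h : ∀ ξ : Qb, ξ ^ N = 1 → γ₀ ξ = ξ → ξ = 1) (c : Qb) (hc : c ^ N = 1) :
    ∃ η : Qb, η ^ N = 1 ∧ γ₀ η / η = c := by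
  classical
  set μ : Finset Qb := Polynomial.nthRootsFinset N (1 : Qb) with hμ
  have hmem : ∀ ξ : Qb, ξ ∈ μ ↔ ξ ^ N = 1 := fun ξ => Polynomial.mem_nthRootsFinset hN _
  have hne : ∀ ξ ∈ μ, ξ ≠ 0 := by
    intro ξ hξ h0
    have := (hmem ξ).1 hξ
    rw [h0, zero_pow hN.ne'] at this
    exact zero_ne_one this
  have hinj : Set.InjOn (fun ξ : Qb => γ₀ ξ / ξ) μ := by
    intro a ha b hb hab
    have ha0 := hne a ha
    have hb0 := hne b hb
    have hγb : γ₀ b ≠ 0 := (map_ne_zero _).2 hb0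
    have h1 : γ₀ (a / b) = a / b := by
      rw [map_div₀]
      simp only at hab
      field_simp at hab ⊢
      linear_combination hab
    have h2 := h (a / b) (by rw [div_pow, (hmem a).1 ha, (hmem b).1 hb, div_one]) h1
    exact (div_eq_one_iff_eq hb0).1 h2
  have hsub : μ.image (fun ξ : Qb => γ₀ ξ / ξ) ⊆ μ := by
    intro y hy
    obtain ⟨ξ, hξ, rfl⟩ := Finset.mem_image.1 hy
    rw [hmem, div_pow, ← map_pow, (hmem ξ).1 hξ, map_one, div_one]
  have heq : μ.image (fun ξ : Qb => γ₀ ξ / ξ) = μ :=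
    Finset.eq_of_subset_of_card_le hsub (by rw [Finset.card_image_of_injOn hinj])
  have hcμ : c ∈ μ.image (fun ξ : Qb => γ₀ ξ / ξ) := by rw [heq, hmem]; exact hc
  obtain ⟨η, hη, hηc⟩ := Finset.mem_image.1 hcμ
  exact ⟨η, (hmem η).1 hη, hηc⟩

/-- **Descent** from `E(μ_{p^m})` to the inertia field `E`. -/
theorem descent (I : Subgroup GQ) (hp : p.Prime) (m : ℕ) (ζ : Qb)
    (hζ : IsPrimitiveRoot ζ (p ^ m))
    (γ₀ : GQ) (hγ₀I : γ₀ ∈ I) (hγ₀ : ∀ ξ : Qb, ξ ^ p = 1 → γ₀ ξ = ξ → ξ = 1)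
    (x : Qb) (hx0 : x ≠ 0) (hxN : ∀ σ ∈ I, σ (x ^ p ^ m) = x ^ p ^ m)
    (hx : ∀ σ ∈ I, σ ζ = ζ → σ x = x) :
    ∃ η : Qb, η ^ p ^ m = 1 ∧ ∀ σ ∈ I, σ (x / η) = x / η := by
  have hN : 0 < p ^ m := pow_pos hp.pos m
  have : NeZero (p ^ m) := ⟨hN.ne'⟩
  have hfix0 := eq_one_of_fixed hγ₀ m
  obtain ⟨η, hη, hηc⟩ := exists_root_div (p ^ m) hN γ₀ hfix0 (γ₀ x / x)
    (div_pow_eq_one hx0 (hxN γ₀ hγ₀I))
  have hη0 : η ≠ 0 := by
    rintro rfl
    rw [zero_pow hN.ne'] at hη
    exact zero_ne_one hη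
  refine ⟨η, hη, ?_⟩
  set x' := x / η with hx'
  have hx'0 : x' ≠ 0 := div_ne_zero hx0 hη0
  have hγx' : γ₀ x' = x' := by
    have hγη : γ₀ η ≠ 0 := (map_ne_zero _).2 hη0
    rw [hx', map_div₀]
    field_simp at hηc ⊢
    linear_combination -hηc
  have hx'N : ∀ σ ∈ I, σ (x' ^ p ^ m) = x' ^ p ^ m := by
    intro σ hσ
    rw [hx', div_pow, hη, div_one]
    exact hxN σ hσ
  intro σ hσ
  -- `σ` and `γ₀` commute on `ζ`
  obtain ⟨a, -, ha⟩ := hζ.eq_pow_of_pow_eq_one (ξ := γ₀ ζ) (by rw [← map_pow, hζ.pow_eq_one, map_one])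
  obtain ⟨b, -, hb⟩ := hζ.eq_pow_of_pow_eq_one (ξ := σ ζ) (by rw [← map_pow, hζ.pow_eq_one, map_one])
  have hcomm : σ (γ₀ ζ) = γ₀ (σ ζ) := by
    rw [← ha, ← hb, map_pow, map_pow, ← ha, ← hb, ← pow_mul, ← pow_mul, mul_comm]
  set τ : GQ := (γ₀ * σ)⁻¹ * (σ * γ₀) with hτ
  have hτI : τ ∈ I := mul_mem (inv_mem (mul_mem hγ₀I hσ)) (mul_mem hσ hγ₀I)
  have hτζ : τ ζ = ζ := by
    have h1 : τ ζ = (γ₀ * σ)⁻¹ ((γ₀ * σ) ζ) := by
      rw [hτ, AlgEquiv.mul_apply, AlgEquiv.mul_apply, AlgEquiv.mul_apply, hcomm]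
    rw [h1]
    change ((γ₀ * σ)⁻¹ * (γ₀ * σ)) ζ = ζ
    rw [inv_mul_cancel]
    rfl
  have hτx : τ x = x := hx τ hτI hτζ
  have hτη : τ η = η := by
    obtain ⟨i, -, hi⟩ := hζ.eq_pow_of_pow_eq_one hη
    rw [← hi, map_pow, hτζ]
  have hτx' : τ x' = x' := by rw [hx', map_div₀, hτx, hτη]
  have hcomm' : σ (γ₀ x') = γ₀ (σ x') := by
    have h1 : (γ₀ * σ) (τ x') = (γ₀ * σ) x' := by rw [hτx']
    have h2 : (γ₀ * σ) (τ x') = ((γ₀ * σ) * τ) x' := rfl
    rw [h2, hτ, mul_inv_cancel_left] at h1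
    exact h1
  rw [hγx'] at hcomm'
  -- `c = σ x' / x'` is a root of unity fixed by `γ₀`
  have hc1 : (σ x' / x') ^ p ^ m = 1 := div_pow_eq_one hx'0 (hx'N σ hσ)
  have hc2 : γ₀ (σ x' / x') = σ x' / x' := by
    rw [map_div₀, ← hcomm', hγx']
  have hc := hfix0 _ hc1 hc2
  exact (div_eq_one_iff_eq hx'0).1 hc

/-! ### 5. The key lemma at a finite level -/

/-- The radicals of inertia-fixed units. -/
def IsPeuRad (p : ℕ) (P : ValuationSubring Qb) (y : Qb) : Prop :=
  ∃ n : ℕ, P.valuation (y ^ p ^ n) = 1 ∧ ∀ s ∈ P.inertiaSubgroupIn ℚ, s (y ^ p ^ n) = y ^ p ^ n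

theorem IsPeuRad.val {y : Qb} (h : IsPeuRad p P y) (hp : p.Prime) : P.valuation y = 1 := by
  obtain ⟨n, h1, -⟩ := h
  rw [map_pow] at h1
  exact (pow_eq_one_iff.1 h1).resolve_right (pow_ne_zero n hp.ne_zero)

theorem IsPeuRad.fixed_of_le {y : Qb} {n m : ℕ} (hnm : n ≤ m)
    (h : ∀ s ∈ P.inertiaSubgroupIn ℚ, s (y ^ p ^ n) = y ^ p ^ n) :
    ∀ s ∈ P.inertiaSubgroupIn ℚ, s (y ^ p ^ m) = y ^ p ^ m := by
  intro s hs
  obtain ⟨d, rfl⟩ := Nat.exists_eq_add_of_le hnm
  rw [pow_add, pow_mul, map_pow, h s hs]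

/-- A common exponent for a finite list of radicals. -/
theorem exists_common_exp (Y : List Qb) (hY : ∀ y ∈ Y, IsPeuRad p P y) :
    ∃ m : ℕ, 1 ≤ m ∧ ∀ y ∈ Y, ∀ s ∈ P.inertiaSubgroupIn ℚ, s (y ^ p ^ m) = y ^ p ^ m := by
  induction Y with
  | nil => exact ⟨1, le_rfl, fun y hy => by simp at hy⟩
  | cons y Y ih =>
    obtain ⟨m, hm1, hm⟩ := ih (fun y' hy' => hY y' (List.mem_cons_of_mem _ hy'))
    obtain ⟨n, -, hn⟩ := hY y (by simp)
    refine ⟨max m n, le_trans hm1 (le_max_left _ _), fun y' hy' => ?_⟩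
    rcases List.mem_cons.1 hy' with rfl | h
    · exact IsPeuRad.fixed_of_le P (le_max_right _ _) hn
    · exact IsPeuRad.fixed_of_le P (le_max_left _ _) (hm y' h)

/-- **Finite key lemma**: a `p`-th root of `p` is moved by some element of inertia fixing a given
finite list of radicals of inertia-fixed units. -/
theorem finite_key (hp : p.Prime) (hp2 : p ≠ 2) (hP : P.LiesOverPrime p) (π : Qb)
    (hπ : π ^ p = (p : Qb)) (Y : List Qb) (hY : ∀ y ∈ Y, IsPeuRad p P y) :
    ∃ σ ∈ P.inertiaSubgroupIn ℚ, (∀ y ∈ Y, σ y = y) ∧ σ π ≠ π := by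
  by_contra hcon
  push Not at hcon
  set I := P.inertiaSubgroupIn ℚ with hI
  obtain ⟨m, hm1, hm⟩ := exists_common_exp P Y hY
  have hN : 0 < p ^ m := pow_pos hp.pos m
  have : NeZero (p ^ m) := ⟨hN.ne'⟩
  obtain ⟨ζ, hζ⟩ := HasEnoughRootsOfUnity.exists_primitiveRoot Qb (p ^ m)
  have hp0 : (p : Qb) ≠ 0 := by exact_mod_cast hp.ne_zero
  have hπ0 : π ≠ 0 := by
    rintro rfl
    rw [zero_pow hp.ne_zero] at hπ
    exact hp0 hπ.symm
  have hπN : π ^ p ^ m = (p : Qb) ^ p ^ (m - 1) := by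
    obtain ⟨m', rfl⟩ := Nat.exists_eq_add_of_le hm1
    rw [pow_add, pow_one, pow_mul, hπ, Nat.add_sub_cancel_left]
  -- Kummer theory over `E(μ_{p^m})`
  obtain ⟨w, hw1, hwN, hw⟩ := exists_quot_fixed P.valuation I (fixList I [ζ])
    (fun σ hσ => hσ.1) (p ^ m) hN
    (fun σ hσ ξ hξ => by
      obtain ⟨i, -, hi⟩ := hζ.eq_pow_of_pow_eq_one hξ
      rw [← hi, map_pow, hσ.2 ζ (by simp)])
    Y (fun y hy => ⟨(hY y hy).val P hp, hm y hy⟩) π hπ0
    (fun σ _ => by rw [hπN, map_pow, map_natCast])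
    (fun σ hσ hσY => hcon σ hσ.1 hσY)
  have hw0 : w ≠ 0 := by
    rintro rfl
    rw [map_zero] at hw1
    exact zero_ne_one hw1
  -- descent to the inertia field
  obtain ⟨γ₀, hγ₀I, hγ₀⟩ := exists_moving P hp hp2 hP
  obtain ⟨η, hη, hfix⟩ := descent I hp m ζ hζ γ₀ hγ₀I hγ₀ (π / w) (div_ne_zero hπ0 hw0)
    (fun σ hσ => by rw [div_pow, map_div₀, hwN σ hσ, hπN, map_pow, map_natCast])
    (fun σ hσ hσζ => hw σ ⟨hσ, fun y hy => by
      rw [List.mem_singleton] at hy
      rw [hy]; exact hσζ⟩)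
  have hη0 : η ≠ 0 := by
    rintro rfl
    rw [zero_pow hN.ne'] at hη
    exact zero_ne_one hη
  -- valuations
  obtain ⟨k, hk⟩ := Fermat.Agent.R.H6.stmt_UnrFix p hp P hP (π / w / η)
    (div_ne_zero (div_ne_zero hπ0 hw0) hη0) hfix
  have hvη : P.valuation η = 1 := by
    have h1 : P.valuation η ^ p ^ m = 1 := by rw [← map_pow, hη, map_one]
    exact (pow_eq_one_iff.1 h1).resolve_right hN.ne'
  have h1 : P.valuation (π / w / η) ^ p ^ m = P.valuation (p : Qb) ^ p ^ (m - 1) := by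
    rw [map_div₀, map_div₀, hw1, hvη, div_one, div_one, ← map_pow, hπN, map_pow]
  rw [hk, ← zpow_natCast, ← zpow_natCast, ← zpow_mul] at h1
  have h2 := zpow_val_p_injective P hp hP h1
  obtain ⟨m', rfl⟩ := Nat.exists_eq_add_of_le hm1
  rw [Nat.add_sub_cancel_left, pow_add, pow_one] at h2
  push_cast at h2
  have hpm : ((p : ℤ) ^ m') ≠ 0 := pow_ne_zero _ (by exact_mod_cast hp.ne_zero)
  have h3 : k * (p : ℤ) = 1 := by
    have : (k * (p : ℤ)) * (p : ℤ) ^ m' = 1 * (p : ℤ) ^ m' := by linear_combination h2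
    exact mul_right_cancel₀ hpm this
  have h4 : (p : ℤ) ∣ 1 := Dvd.intro_left k h3
  have h5 : (p : ℤ) = 1 := Int.eq_one_of_dvd_one (by positivity) h4
  have h6 := hp.two_le
  omega

/-! ### 6. The key lemma (compactness) -/

/-- **Key lemma**: some element of the inertia group at `p` fixes all radicals of inertia-fixed
units and moves a given `p`-th root of `p`. -/
theorem key (hp : p.Prime) (hp2 : p ≠ 2) (hP : P.LiesOverPrime p) (π : Qb)
    (hπ : π ^ p = (p : Qb)) :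
    ∃ σ ∈ P.inertiaSubgroupIn ℚ, (∀ y, IsPeuRad p P y → σ y = y) ∧ σ π ≠ π := by
  classical
  have : IsGalois ℚ Qb := Fermat.Agent.Lib.InertiaLift.qbar_isGalois'
  let ι := {y : Qb // IsPeuRad p P y}
  let t : ι → Set GQ := fun y => {σ | σ y.1 ∈ ({y.1} : Set Qb)}
  have hclosed : ∀ y, IsClosed (t y) := fun y =>
    Fermat.Agent.L.Pivot.H59.isClosed_setOf_apply_mem y.1 _
  have hs : IsCompact ((P.inertiaSubgroupIn ℚ : Set GQ) ∩ {σ | σ π ∈ ({π}ᶜ : Set Qb)}) :=
    ((Fermat.Agent.L.Pivot.H59.isClosed_inertiaSubgroupIn P).inter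
      (Fermat.Agent.L.Pivot.H59.isClosed_setOf_apply_mem π _)).isCompact
  have hfin : ∀ u : Finset ι,
      (((P.inertiaSubgroupIn ℚ : Set GQ) ∩ {σ | σ π ∈ ({π}ᶜ : Set Qb)}) ∩
        ⋂ i ∈ u, t i).Nonempty := by
    intro u
    obtain ⟨σ, hσI, hσY, hσπ⟩ := finite_key P hp hp2 hP π hπ (u.toList.map Subtype.val) (by
      intro y hy
      obtain ⟨⟨y', hy'⟩, -, rfl⟩ := List.mem_map.1 hy
      exact hy')
    refine ⟨σ, ⟨hσI, hσπ⟩, ?_⟩
    simp only [Set.mem_iInter]
    intro i hi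
    exact hσY i.1 (List.mem_map.2 ⟨i, Finset.mem_toList.2 hi, rfl⟩)
  obtain ⟨σ, ⟨hσI, hσπ⟩, hσ⟩ := hs.inter_iInter_nonempty t hclosed hfin
  exact ⟨σ, hσI, fun y hy => Set.mem_iInter.1 hσ ⟨y, hy⟩, hσπ⟩

/-- An element as in `key` acts on every `p ^ n`-th root of `p` through a PRIMITIVE `p ^ n`-th
root of unity. -/
theorem key_primitive (hp : p.Prime) {σ : GQ} (hσ : ∀ y, IsPeuRad p P y → σ y = y) {π : Qb}
    (hπ : π ^ p = (p : Qb)) (hσπ : σ π ≠ π) (n : ℕ) (π₀ : Qb) (hπ₀ : π₀ ^ p ^ n = (p : Qb)) :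
    IsPrimitiveRoot (σ π₀ / π₀) (p ^ n) := by
  have hp0 : (p : Qb) ≠ 0 := by exact_mod_cast hp.ne_zero
  have hπ₀0 : π₀ ≠ 0 := by
    rintro rfl
    rw [zero_pow (pow_ne_zero n hp.ne_zero)] at hπ₀
    exact hp0 hπ₀.symm
  have hπ0 : π ≠ 0 := by
    rintro rfl
    rw [zero_pow hp.ne_zero] at hπ
    exact hp0 hπ.symm
  have hζN : (σ π₀ / π₀) ^ p ^ n = 1 :=
    div_pow_eq_one hπ₀0 (by rw [hπ₀, map_natCast])
  cases n with
  | zero =>
    simp only [pow_zero, pow_one] at hπ₀ ⊢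
    rw [hπ₀, map_natCast, div_self hp0]
    exact IsPrimitiveRoot.one
  | succ n =>
    -- `π' = π₀ ^ (p ^ n)` is a `p`-th root of `p`
    have hπ' : (π₀ ^ p ^ n) ^ p = (p : Qb) := by rw [← pow_mul, ← pow_succ]; exact hπ₀
    have hrad : IsPeuRad p P (π₀ ^ p ^ n / π) :=
      ⟨1, by rw [pow_one, div_pow, hπ', hπ, div_self hp0, map_one],
        fun s _ => by rw [pow_one, div_pow, hπ', hπ, div_self hp0, map_one]⟩
    have h1 := hσ _ hrad
    have hne : (σ π₀ / π₀) ^ p ^ n ≠ 1 := by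
      intro h
      apply hσπ
      rw [div_pow, ← map_pow, div_eq_one_iff_eq (pow_ne_zero _ hπ₀0)] at h
      rw [map_div₀, h] at h1
      have hσπ0 : σ π ≠ 0 := (map_ne_zero _).2 hπ0
      have hpow : π₀ ^ p ^ n ≠ 0 := pow_ne_zero _ hπ₀0
      field_simp at h1
      exact h1.symm
    have hord : orderOf (σ π₀ / π₀) = p ^ (n + 1) := by
      have hdvd : orderOf (σ π₀ / π₀) ∣ p ^ (n + 1) := orderOf_dvd_of_pow_eq_one hζN
      obtain ⟨j, hj, hjeq⟩ := (Nat.dvd_prime_pow hp).1 hdvd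
      rcases Nat.lt_or_ge j (n + 1) with hlt | hge
      · exfalso
        apply hne
        apply orderOf_dvd_iff_pow_eq_one.1
        rw [hjeq]
        exact pow_dvd_pow p (Nat.lt_succ_iff.1 hlt)
      · rw [hjeq, le_antisymm hj hge]
    rw [← hord]
    exact IsPrimitiveRoot.orderOf _

/-! ### 7. K-CORE -/

/-- **K-CORE**, valuation form. -/
theorem kcore (hp : p.Prime) (hp2 : p ≠ 2) (hP : P.LiesOverPrime p) (y : Qb) (n : ℕ)
    (hy0 : y ≠ 0) (hyN : ∀ s ∈ P.inertiaSubgroupIn ℚ, s (y ^ p ^ n) = y ^ p ^ n)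
    (hy : ∀ σ ∈ P.inertiaSubgroupIn ℚ, (∀ z, IsPeuRad p P z → σ z = z) → σ y = y) :
    ∃ b : Qb, b ≠ 0 ∧ (∀ s ∈ P.inertiaSubgroupIn ℚ, s b = b) ∧ P.valuation (y / b) = 1 := by
  have hp0 : (p : Qb) ≠ 0 := by exact_mod_cast hp.ne_zero
  obtain ⟨π, hπ⟩ := IsAlgClosed.exists_pow_nat_eq (p : Qb) hp.pos
  obtain ⟨σ, hσI, hσ, hσπ⟩ := key P hp hp2 hP π hπ
  obtain ⟨π₀, hπ₀⟩ := IsAlgClosed.exists_pow_nat_eq (p : Qb) (pow_pos hp.pos n)
  have hprim := key_primitive P hp hσ hπ hσπ n π₀ hπ₀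
  have hπ₀0 : π₀ ≠ 0 := by
    rintro rfl
    rw [zero_pow (pow_ne_zero n hp.ne_zero)] at hπ₀
    exact hp0 hπ₀.symm
  obtain ⟨k, hk1, hkfix⟩ := val_fixed P hp hP (y ^ p ^ n) (pow_ne_zero _ hy0) hyN
  -- `t = y π₀ ^ k` is a radical of a unit
  have ht : (y * π₀ ^ k) ^ p ^ n = y ^ p ^ n * (p : Qb) ^ k := by
    rw [mul_pow, ← zpow_natCast (π₀ ^ k), ← zpow_mul, mul_comm k, zpow_mul, zpow_natCast, hπ₀]
  have hrad : IsPeuRad p P (y * π₀ ^ k) := ⟨n, by rw [ht]; exact hk1, by rw [ht]; exact hkfix⟩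
  have h1 := hσ _ hrad
  have h2 := hy σ hσI hσ
  rw [map_mul, h2, map_zpow₀] at h1
  have h3 : (σ π₀ / π₀) ^ k = 1 := by
    rw [div_zpow, div_eq_one_iff_eq (zpow_ne_zero _ hπ₀0)]
    exact mul_left_cancel₀ hy0 h1
  obtain ⟨j, hj⟩ := (hprim.zpow_eq_one_iff_dvd k).1 h3
  refine ⟨(p : Qb) ^ (-j), zpow_ne_zero _ hp0, fun s _ => by rw [map_zpow₀, map_natCast], ?_⟩
  have h4 : P.valuation (y / (p : Qb) ^ (-j)) ^ p ^ n = 1 := by
    have h5 : (y / (p : Qb) ^ (-j)) ^ p ^ n = y ^ p ^ n * (p : Qb) ^ k := by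
      rw [div_pow, ← zpow_natCast ((p : Qb) ^ (-j)), ← zpow_mul, hj, neg_mul, zpow_neg,
        div_inv_eq_mul, mul_comm j]
    rw [← map_pow, h5]
    exact hk1
  exact (pow_eq_one_iff.1 h4).resolve_right (pow_ne_zero n hp.ne_zero)

end Fermat.Agent.S59.NonMin.H56K

end
-- ==== END Fermat.Agent.S59.NonMin.H56_KCore

-- ==== BEGIN Fermat.Agent.S59.NumCrit.H85_NC2
section

/-!
# S59 NUMCRIT (helper85): NC2 (Tate)

`nc2_of_card` : for a complete intersection `A = 𝒪⟦X_1..X_n⟧/(g_1..g_n)`, finite free over the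
discrete valuation ring `𝒪`, with augmentation `π`:  `#Φ_A = #(𝒪/η_A)`
(the hypothesis `hcard` is CARD', the cardinality of `𝒪^n / rowspace B` for `det B ≠ 0`).
-/

set_option autoImplicit false
set_option linter.style.haveILetI false
set_option linter.unusedSectionVars false

namespace Fermat.Agent.S59.NumCrit.H85

open MvPowerSeries Fermat.Agent.S59.NumCrit.H90

section lin

variable {𝒪 : Type*} [CommRing 𝒪] {A : Type*} [CommRing A] [Algebra 𝒪 A] {n : ℕ}
  {ψ : MvPowerSeries (Fin n) 𝒪 →ₐ[𝒪] A} {π : A →ₐ[𝒪] 𝒪}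

/-- Step 1: the linear parts of the relations are the row space of `B = (ℓ(g_i))`. -/
theorem map_linPart_ker (hπ : ∀ i, π (ψ (X i)) = 0) (g : Fin n → MvPowerSeries (Fin n) 𝒪)
    (hg : RingHom.ker ψ = Ideal.span (Set.range g)) :
    Submodule.map (linPart n 𝒪) ((RingHom.ker ψ).restrictScalars 𝒪)
      = Submodule.span 𝒪 (Set.range fun i =>
          (Matrix.of fun i => linPart n 𝒪 (g i) : Matrix (Fin n) (Fin n) 𝒪) i) := by
  have hgk : ∀ i, g i ∈ RingHom.ker ψ := fun i => by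
    rw [hg]; exact Ideal.subset_span ⟨i, rfl⟩
  apply le_antisymm
  · rintro _ ⟨f, hf, rfl⟩
    have hf' : f ∈ Ideal.span (Set.range g) := by rw [← hg]; exact hf
    obtain ⟨c, rfl⟩ := (Ideal.mem_span_range_iff_exists_fun
      (R := MvPowerSeries (Fin n) 𝒪)).mp hf'
    rw [map_sum]
    refine Submodule.sum_mem _ fun i _ => ?_
    rw [linPart_mul _ _ (ker_psi_le hπ (hgk i))]
    exact Submodule.smul_mem _ _ (Submodule.subset_span ⟨i, rfl⟩)
  · rw [Submodule.span_le]
    rintro _ ⟨i, rfl⟩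
    exact ⟨g i, hgk i, rfl⟩

/-- an element of `η` kills the cotangent space. -/
theorem smul_mem_sq_of_mem_annihilator {t : A} (ht : t ∈ (RingHom.ker π).annihilator)
    {a : A} (ha : a ∈ RingHom.ker π) : (π t) • a ∈ (RingHom.ker π) ^ 2 := by
  have h1 : (π t) • a = (algebraMap 𝒪 A (π t) - t) * a + t * a := by
    rw [Algebra.smul_def]; ring
  have h2 : t * a = 0 := by
    have := (Submodule.mem_annihilator.mp ht) a ha
    rwa [smul_eq_mul] at this
  have h3 : algebraMap 𝒪 A (π t) - t ∈ RingHom.ker π := by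
    rw [RingHom.mem_ker, map_sub, AlgHom.commutes, Algebra.algebraMap_self, RingHom.id_apply,
      sub_self]
  rw [h1, h2, add_zero, pow_two]
  exact Ideal.mul_mem_mul h3 ha

end lin

section rows

variable {𝒪 : Type*} [CommRing 𝒪] [IsDomain 𝒪] {n : ℕ}

/-- if a nonzero scalar multiple of the whole space lies in the row space, `det B ≠ 0`. -/
theorem det_ne_zero_of_smul_mem (B : Matrix (Fin n) (Fin n) 𝒪) {e : 𝒪} (he : e ≠ 0)
    (h : ∀ c : Fin n → 𝒪, e • c ∈ Submodule.span 𝒪 (Set.range fun i => B i)) : B.det ≠ 0 := by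
  classical
  have h1 : ∀ i : Fin n, ∃ c : Fin n → 𝒪, ∑ j, c j • B j = e • (Pi.single i (1 : 𝒪)) := fun i =>
    (Submodule.mem_span_range_iff_exists_fun 𝒪).mp (h (Pi.single i 1))
  choose C hC using h1
  have h2 : (Matrix.of C) * B = e • (1 : Matrix (Fin n) (Fin n) 𝒪) := by
    ext i j
    have := congrFun (hC i) j
    rw [Finset.sum_apply] at this
    rw [Matrix.mul_apply, Matrix.smul_apply, Matrix.one_apply]
    simp only [Pi.smul_apply, smul_eq_mul, Matrix.of_apply] at this ⊢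
    rw [this, Pi.single_apply]
    by_cases hij : i = j
    · rw [if_pos hij, if_pos hij.symm]
    · rw [if_neg hij, if_neg (Ne.symm hij)]
  intro hB
  have h3 := congrArg Matrix.det h2
  rw [Matrix.det_mul, hB, mul_zero, Matrix.det_smul, Matrix.det_one, mul_one] at h3
  exact pow_ne_zero _ he h3.symm

/-- if `det B = 0` the quotient by the row space is infinite (`𝒪` an infinite domain). -/
theorem infinite_quotient_of_det_eq_zero [Infinite 𝒪] (B : Matrix (Fin n) (Fin n) 𝒪)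
    (hB : B.det = 0) :
    Infinite ((Fin n → 𝒪) ⧸ Submodule.span 𝒪 (Set.range fun i => B i)) := by
  classical
  obtain ⟨v, hv, hBv⟩ := Matrix.exists_mulVec_eq_zero_iff.mpr hB
  -- the functional `x ↦ x ⬝ v`
  let φ : (Fin n → 𝒪) →ₗ[𝒪] 𝒪 :=
    { toFun := fun x => x ⬝ᵥ v
      map_add' := fun x y => add_dotProduct x y v
      map_smul' := fun a x => by rw [smul_dotProduct]; rfl }
  have hφ : Submodule.span 𝒪 (Set.range fun i => B i) ≤ LinearMap.ker φ := by
    rw [Submodule.span_le]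
    rintro _ ⟨i, rfl⟩
    exact congrFun hBv i
  obtain ⟨i, hi⟩ : ∃ i, v i ≠ 0 := by
    by_contra hcon
    push Not at hcon
    exact hv (funext hcon)
  let φ' := (Submodule.span 𝒪 (Set.range fun i => B i)).liftQ φ hφ
  have hinj : Function.Injective (fun a : 𝒪 =>
      (Submodule.Quotient.mk (a • (Pi.single i (1 : 𝒪) : Fin n → 𝒪)) :
        (Fin n → 𝒪) ⧸ Submodule.span 𝒪 (Set.range fun i => B i))) := by
    intro a b hab
    have h1 := congrArg φ' hab
    simp only [φ', Submodule.liftQ_apply] at h1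
    have h2 : ∀ a : 𝒪, φ (a • (Pi.single i (1 : 𝒪) : Fin n → 𝒪)) = a * v i := by
      intro a
      show (a • (Pi.single i (1 : 𝒪) : Fin n → 𝒪)) ⬝ᵥ v = a * v i
      rw [smul_dotProduct, single_dotProduct, one_mul, smul_eq_mul]
    rw [h2, h2] at h1
    exact mul_right_cancel₀ hi h1
  exact Infinite.of_injective _ hinj

end rows

section main

variable {𝒪 : Type*} [CommRing 𝒪] [IsDomain 𝒪] [IsDiscreteValuationRing 𝒪]
  {A : Type*} [CommRing A] [Algebra 𝒪 A] [Module.Finite 𝒪 A] [Module.Free 𝒪 A] {n : ℕ}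

/-- the element `ψ (det M)` is not divisible by a uniformiser. -/
theorem psi_det_not_smul (ψ : MvPowerSeries (Fin n) 𝒪 →ₐ[𝒪] A) (hψ : Function.Surjective ψ)
    (M : Matrix (Fin n) (Fin n) (MvPowerSeries (Fin n) 𝒪))
    (hM : RingHom.ker ψ = Ideal.span (Set.range
      (M.mulVec fun k => (X k : MvPowerSeries (Fin n) 𝒪))))
    {ϖ : 𝒪} (hϖ : IsLocalRing.maximalIdeal 𝒪 = Ideal.span {ϖ}) :
    ¬ ∃ t : A, ψ M.det = ϖ • t := by
  rintro ⟨t, ht⟩
  have h1 := red_mem_of_psi_eq_smul hψ hϖ ht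
  have h2 : Ideal.map (red 𝒪 n) (RingHom.ker ψ)
      = Ideal.span (Set.range ((M.map (red 𝒪 n)).mulVec
          fun j => (X j : MvPowerSeries (Fin n) (IsLocalRing.ResidueField 𝒪)))) := by
    rw [hM, map_red_span_range]
    congr 2
    funext i
    exact (red_mulVec M i).symm
  obtain ⟨N, hN⟩ := exists_X_pow_mem_map n ψ
  have h3 : ∀ i, (X i : MvPowerSeries (Fin n) (IsLocalRing.ResidueField 𝒪)) ^ N
      ∈ Ideal.span (Set.range ((M.map (red 𝒪 n)).mulVec
          fun j => (X j : MvPowerSeries (Fin n) (IsLocalRing.ResidueField 𝒪)))) := by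
    intro i
    rw [← h2]
    exact hN i
  have h4 := det_notMem_span N (M.map (red 𝒪 n)) h3
  apply h4
  rw [← h2]
  have h5 : (M.map (red 𝒪 n)).det = red 𝒪 n M.det := by
    rw [RingHom.map_det]
    rfl
  rw [h5]
  exact h1

/-- **NC2 (Tate)**, modulo CARD'. -/
theorem nc2_of_card [Finite (IsLocalRing.ResidueField 𝒪)]
    (hcard : ∀ B : Matrix (Fin n) (Fin n) 𝒪, B.det ≠ 0 →
      Nat.card ((Fin n → 𝒪) ⧸ Submodule.span 𝒪 (Set.range fun i => B i))
        = Nat.card (𝒪 ⧸ Ideal.span {B.det}))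
    (ψ : MvPowerSeries (Fin n) 𝒪 →ₐ[𝒪] A) (hψ : Function.Surjective ψ) (π : A →ₐ[𝒪] 𝒪)
    (hπ : ∀ i, π (ψ (X i)) = 0)
    (g : Fin n → MvPowerSeries (Fin n) 𝒪) (hg : RingHom.ker ψ = Ideal.span (Set.range g)) :
    Nat.card (RingHom.ker π).Cotangent = Nat.card (𝒪 ⧸ eta π) := by
  classical
  have hgk : ∀ i, g i ∈ RingHom.ker ψ := fun i => by
    rw [hg]; exact Ideal.subset_span ⟨i, rfl⟩
  obtain ⟨M, hM⟩ := exists_matrix_mulVec g fun i => ker_psi_le hπ (hgk i)
  obtain ⟨B, hB⟩ : ∃ B : Matrix (Fin n) (Fin n) 𝒪, B = Matrix.of fun i => linPart n 𝒪 (g i) :=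
    ⟨_, rfl⟩
  have hδ : π (ψ M.det) = B.det := by
    rw [pi_psi_det hπ, hM, hB]
  -- the cotangent space
  obtain ⟨e⟩ := cotangent_linearEquiv n ψ hψ π hπ
  have hrow : Submodule.map (linPart n 𝒪) ((RingHom.ker ψ).restrictScalars 𝒪)
      = Submodule.span 𝒪 (Set.range fun i => B i) := by
    rw [hB]; exact map_linPart_ker hπ g hg
  have hcot : Nat.card (RingHom.ker π).Cotangent
      = Nat.card ((Fin n → 𝒪) ⧸ Submodule.span 𝒪 (Set.range fun i => B i)) :=
    Nat.card_congr (e.trans (Submodule.quotEquivOfEq _ _ hrow)).toEquiv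
  have hann : ψ M.det ∈ (RingHom.ker π).annihilator :=
    psi_det_mem_annihilator hψ hπ M (fun i => by rw [hM]; exact hgk i)
  -- `𝒪` is infinite
  haveI : Infinite 𝒪 := by
    by_contra hfin
    rw [not_infinite_iff_finite] at hfin
    exact IsDiscreteValuationRing.not_isField 𝒪 (Finite.isField_of_domain 𝒪)
  by_cases hdet : B.det = 0
  · -- both cardinalities vanish
    haveI := infinite_quotient_of_det_eq_zero B hdet
    rw [hcot, Nat.card_eq_zero_of_infinite]
    have heta : eta π = ⊥ := by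
      rw [eq_bot_iff]
      intro a ha
      rw [mem_eta_iff] at ha
      obtain ⟨t, ht, rfl⟩ := ha
      rw [Ideal.mem_bot]
      by_contra hne
      refine det_ne_zero_of_smul_mem B hne (fun c => ?_) hdet
      -- `π t • c` dies in the cotangent space
      have h1 : (e.trans (Submodule.quotEquivOfEq _ _ hrow)).symm
          (Submodule.Quotient.mk (π t • c)) = 0 := by
        rw [Submodule.Quotient.mk_smul, map_smul]
        obtain ⟨⟨a, ha⟩, hx⟩ := Ideal.toCotangent_surjective _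
          ((e.trans (Submodule.quotEquivOfEq _ _ hrow)).symm (Submodule.Quotient.mk c))
        rw [← hx, ← LinearMap.map_smul_of_tower, Ideal.toCotangent_eq_zero]
        exact smul_mem_sq_of_mem_annihilator ht ha
      have h2 := (LinearEquiv.map_eq_zero_iff _).mp h1
      exact (Submodule.Quotient.mk_eq_zero _).mp h2
    rw [heta]
    haveI : Infinite (𝒪 ⧸ (⊥ : Ideal 𝒪)) :=
      Infinite.of_injective _ (RingEquiv.quotientBot 𝒪).symm.injective
    rw [Nat.card_eq_zero_of_infinite]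
  · -- `η = (δ)`
    rw [hcot, hcard B hdet]
    obtain ⟨ϖ, hϖ⟩ := IsDiscreteValuationRing.exists_irreducible 𝒪
    have hϖ' : IsLocalRing.maximalIdeal 𝒪 = Ideal.span {ϖ} := hϖ.maximalIdeal_eq
    have hnot := psi_det_not_smul ψ hψ M (by rw [hM]; exact hg) hϖ'
    -- `π` is injective on the annihilator
    have hinj : ∀ t ∈ (RingHom.ker π).annihilator, π t = 0 → t = 0 := by
      intro t ht ht0
      have h1 : t * ψ M.det = 0 := by
        have := (Submodule.mem_annihilator.mp hann) t ((RingHom.mem_ker).mpr ht0)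
        rwa [smul_eq_mul, mul_comm] at this
      have h2 : t * (ψ M.det - algebraMap 𝒪 A B.det) = 0 := by
        have h3 : ψ M.det - algebraMap 𝒪 A B.det ∈ RingHom.ker π := by
          rw [RingHom.mem_ker, map_sub, hδ, AlgHom.commutes, Algebra.algebraMap_self,
            RingHom.id_apply, sub_self]
        have := (Submodule.mem_annihilator.mp ht) _ h3
        rwa [smul_eq_mul] at this
      have h4 : B.det • t = 0 := by
        rw [Algebra.smul_def, mul_comm]
        rw [mul_sub, h1, zero_sub, neg_eq_zero] at h2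
        exact h2
      rcases smul_eq_zero.mp h4 with h | h
      · exact absurd h hdet
      · exact h
    have heta : eta π = Ideal.span {B.det} := by
      apply le_antisymm
      · intro a ha
        rw [mem_eta_iff] at ha
        obtain ⟨t, ht, rfl⟩ := ha
        rw [Ideal.mem_span_singleton]
        rcases ValuationRing.dvd_total B.det (π t) with h | h
        · exact h
        · obtain ⟨c, hc⟩ := h
          by_cases hcu : IsUnit c
          · obtain ⟨u, rfl⟩ := hcu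
            exact ⟨(u⁻¹ : 𝒪ˣ), by rw [hc, mul_assoc, Units.mul_inv, mul_one]⟩
          · exfalso
            have hcm : c ∈ IsLocalRing.maximalIdeal 𝒪 := (IsLocalRing.mem_maximalIdeal c).mpr hcu
            rw [hϖ', Ideal.mem_span_singleton] at hcm
            obtain ⟨a', rfl⟩ := hcm
            apply hnot
            refine ⟨a' • t, ?_⟩
            have h5 : ψ M.det - (ϖ * a') • t = 0 := by
              apply hinj
              · exact Submodule.sub_mem _ hann (Submodule.smul_of_tower_mem _ _ ht)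
              · rw [map_sub, hδ, map_smul, smul_eq_mul, hc]
                ring
            rw [smul_smul]
            exact sub_eq_zero.mp h5
      · rw [Ideal.span_le, Set.singleton_subset_iff, SetLike.mem_coe, hB]
        exact det_linPart_mem_eta hψ hπ g hgk
    rw [heta]

end main

end Fermat.Agent.S59.NumCrit.H85

end
-- ==== END Fermat.Agent.S59.NumCrit.H85_NC2

-- ==== BEGIN Fermat.Agent.S59.NumCrit.H90_Growth
section

/-!
# S59 NUMCRIT / RT-NONMIN, leaf GROWTH: the congruence module grows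

Diamond / Wiles (Ch. 2), pure algebra.  `θ : T' → T`, augmentations `π : T → 𝒪`, `π' = π ∘ θ`,
modules `M` over `T` and `M'` over `T'` (finite free over the discrete valuation ring `𝒪`),
`α : M → M'` injective with saturated image, `α' : M' → M` onto, both `T'`-linear, and
`α' ∘ α = c` for some `c : T`.  If `rank M'[𝔭'] ≤ rank M[𝔭]` then
`#Ω(M) · #(𝒪/π(c))^d ≤ #Ω(M')`, `d = rank M[𝔭]` (`card_omega_growth`).
-/

set_option autoImplicit false
set_option linter.style.haveILetI false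

open Module

namespace Fermat.Agent.S59.NumCrit.H90

/-- Lagrange for a surjective linear map, in terms of `Nat.card`. -/
theorem card_eq_card_mul_card_ker {𝒪 : Type*} [CommRing 𝒪] {G H : Type*} [AddCommGroup G]
    [AddCommGroup H] [Module 𝒪 G] [Module 𝒪 H] (f : G →ₗ[𝒪] H) (hf : Function.Surjective f) :
    Nat.card G = Nat.card H * Nat.card (LinearMap.ker f) := by
  have h1 := AddSubgroup.card_eq_card_quotient_mul_card_addSubgroup (LinearMap.ker f).toAddSubgroup
  have h2 : Nat.card (G ⧸ (LinearMap.ker f).toAddSubgroup) = Nat.card H :=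
    Nat.card_congr (f.quotKerEquivOfSurjective hf).toEquiv
  rw [h2] at h1
  exact h1

/-- the cardinality of the range is that of the quotient by the kernel. -/
theorem card_range_eq_card_quotient_ker {𝒪 : Type*} [CommRing 𝒪] {G H : Type*} [AddCommGroup G]
    [AddCommGroup H] [Module 𝒪 G] [Module 𝒪 H] (f : G →ₗ[𝒪] H) :
    Nat.card (LinearMap.range f) = Nat.card (G ⧸ LinearMap.ker f) :=
  Nat.card_congr f.quotKerEquivRange.symm.toEquiv

section growth

variable {𝒪 : Type*} [CommRing 𝒪] [IsDomain 𝒪]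
  {T : Type*} [CommRing T] [Algebra 𝒪 T] {π : T →ₐ[𝒪] 𝒪}
  {M : Type*} [AddCommGroup M] [Module T M] [Module 𝒪 M] [IsScalarTower 𝒪 T M]
  [Module.Free 𝒪 M]

/-- `M[𝔭] ∩ M[I] = 0` when `η ≠ 0` and `M` is torsion-free. -/
theorem torsionBySet_ker_inf_ann (hη : eta π ≠ ⊥) {x : M}
    (hx : x ∈ Submodule.torsionBySet T M (RingHom.ker π : Set T))
    (hx' : x ∈ Submodule.torsionBySet T M ((RingHom.ker π).annihilator : Set T)) : x = 0 := by
  obtain ⟨e, he, he0⟩ := Submodule.exists_mem_ne_zero_of_ne_bot hη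
  obtain ⟨i, hi, rfl⟩ := mem_eta_iff.mp he
  have h1 : i • x = 0 := H12.smul_eq_zero_of_mem_torsionBySet_ann hi hx'
  rw [H12.smul_eq_of_mem_torsionBySet_ker i hx] at h1
  rcases smul_eq_zero.mp h1 with h | h
  · exact absurd h he0
  · exact h

/-- `M[𝔭]` is saturated in `M`. -/
theorem mem_torsionBySet_of_smul_mem {s : Set T} {a : 𝒪} (ha : a ≠ 0) {m : M}
    (hm : a • m ∈ Submodule.torsionBySet T M s) : m ∈ Submodule.torsionBySet T M s := by
  haveI : SMulCommClass 𝒪 T M := IsScalarTower.to_smulCommClass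
  rw [Submodule.mem_torsionBySet_iff] at hm ⊢
  intro t
  have h := hm t
  have h' : (t : T) • a • m = 0 := h
  rw [smul_comm] at h'
  rcases smul_eq_zero.mp h' with h0 | h0
  · exact absurd h0 ha
  · exact h0

end growth

section growth2

variable {𝒪 : Type*} [CommRing 𝒪] [IsDomain 𝒪]
  {T T' : Type*} [CommRing T] [Algebra 𝒪 T] [CommRing T'] [Algebra 𝒪 T']
  {θ : T' →ₐ[𝒪] T} {π : T →ₐ[𝒪] 𝒪}
  {M M' : Type*} [AddCommGroup M] [Module T M] [Module 𝒪 M] [IsScalarTower 𝒪 T M]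
  [AddCommGroup M'] [Module T' M'] [Module 𝒪 M'] [IsScalarTower 𝒪 T' M']

omit [IsDomain 𝒪] [IsScalarTower 𝒪 T M] [IsScalarTower 𝒪 T' M'] in
/-- `α (M[𝔭]) ⊆ M'[𝔭']`. -/
theorem map_mem_torsionBySet_ker {α : M →ₗ[𝒪] M'}
    (hα : ∀ (t : T') (m : M), α (θ t • m) = t • α m) {l : M}
    (hl : l ∈ Submodule.torsionBySet T M (RingHom.ker π : Set T)) :
    α l ∈ Submodule.torsionBySet T' M' (RingHom.ker (π.comp θ) : Set T') := by
  rw [Submodule.mem_torsionBySet_iff] at hl ⊢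
  rintro ⟨t, ht⟩
  show t • α l = 0
  have h1 : θ t ∈ RingHom.ker π := by
    have ht' : t ∈ RingHom.ker (π.comp θ) := ht
    rw [RingHom.mem_ker] at ht' ⊢
    exact ht'
  have h2 : θ t • l = 0 := hl ⟨θ t, h1⟩
  rw [← hα, h2, map_zero]

/-- `α' (M'[I']) ⊆ M[I]` (automatic, as `η' ≠ 0` and `M` is torsion-free). -/
theorem map_mem_torsionBySet_ann [Module.Free 𝒪 M] (hη' : eta (π.comp θ) ≠ ⊥)
    {α' : M' →ₗ[𝒪] M} (hα' : ∀ (t : T') (m : M'), α' (t • m) = θ t • α' m) {k : M'}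
    (hk : k ∈ Submodule.torsionBySet T' M' ((RingHom.ker (π.comp θ)).annihilator : Set T')) :
    α' k ∈ Submodule.torsionBySet T M ((RingHom.ker π).annihilator : Set T) := by
  haveI : SMulCommClass 𝒪 T M := IsScalarTower.to_smulCommClass
  obtain ⟨e, he, he0⟩ := Submodule.exists_mem_ne_zero_of_ne_bot hη'
  obtain ⟨i, hi, rfl⟩ := mem_eta_iff.mp he
  rw [Submodule.mem_torsionBySet_iff]
  rintro ⟨j, hj⟩
  show j • α' k = 0
  -- `i • k = 0`
  have h1 : i • k = 0 := H12.smul_eq_zero_of_mem_torsionBySet_ann hi hk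
  -- `t := i - π' i ∈ 𝔭'`, so `θ t ∈ 𝔭` and `j * θ t = 0`
  have h2 : θ (i - algebraMap 𝒪 T' ((π.comp θ) i)) ∈ RingHom.ker π := by
    have := H12.sub_algebraMap_mem_ker (π := π.comp θ) i
    rw [RingHom.mem_ker] at this ⊢
    exact this
  have h3 : j * θ (i - algebraMap 𝒪 T' ((π.comp θ) i)) = 0 := by
    have := Submodule.mem_annihilator.mp hj _ h2
    rwa [smul_eq_mul] at this
  have h4 : θ (i - algebraMap 𝒪 T' ((π.comp θ) i)) • α' k = - ((π.comp θ) i • α' k) := by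
    rw [← hα', sub_smul, h1, zero_sub, algebraMap_smul, map_neg, map_smul]
  have h5 : (π.comp θ) i • (j • α' k) = 0 := by
    rw [smul_comm, ← neg_eq_zero, ← smul_neg, ← h4, smul_smul, h3, zero_smul]
  rcases smul_eq_zero.mp h5 with h | h
  · exact absurd h he0
  · exact h

/-- `M'[𝔭'] ⊆ α (M[𝔭])`: the image of `M[𝔭]` is saturated of full rank. -/
theorem exists_map_eq_of_mem_torsionBySet_ker [IsDiscreteValuationRing 𝒪]
    [Module.Free 𝒪 M] [Module.Finite 𝒪 M'] [Module.Free 𝒪 M']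
    {α : M →ₗ[𝒪] M'} (hα : ∀ (t : T') (m : M), α (θ t • m) = t • α m)
    (hinj : Function.Injective α)
    (hsat : ∀ (a : 𝒪) (m : M'), a ≠ 0 → a • m ∈ LinearMap.range α → m ∈ LinearMap.range α)
    (hrank : Module.finrank 𝒪
        ((Submodule.torsionBySet T' M' (RingHom.ker (π.comp θ) : Set T')).restrictScalars 𝒪)
      ≤ Module.finrank 𝒪
        ((Submodule.torsionBySet T M (RingHom.ker π : Set T)).restrictScalars 𝒪))
    {l' : M'} (hl' : l' ∈ Submodule.torsionBySet T' M' (RingHom.ker (π.comp θ) : Set T')) :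
    ∃ l ∈ Submodule.torsionBySet T M (RingHom.ker π : Set T), α l = l' := by
  set L : Submodule 𝒪 M :=
    (Submodule.torsionBySet T M (RingHom.ker π : Set T)).restrictScalars 𝒪 with hL
  set L' : Submodule 𝒪 M' :=
    (Submodule.torsionBySet T' M' (RingHom.ker (π.comp θ) : Set T')).restrictScalars 𝒪 with hL'
  set N : Submodule 𝒪 M' := L.map α with hN
  have hNL : N ≤ L' := by
    rintro _ ⟨l, hl, rfl⟩
    exact map_mem_torsionBySet_ker hα hl
  have h1 : Module.finrank 𝒪 N = Module.finrank 𝒪 L :=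
    (Submodule.equivMapOfInjective α hinj L).finrank_eq.symm
  set N' : Submodule 𝒪 L' := N.comap L'.subtype with hN'
  have h2 : Module.finrank 𝒪 N' = Module.finrank 𝒪 N :=
    (Submodule.comapSubtypeEquivOfLe hNL).finrank_eq
  have h3 := Submodule.finrank_quotient_add_finrank N'
  have h4 : Module.finrank 𝒪 (L' ⧸ N') = 0 := by omega
  obtain ⟨a, ha, hax⟩ := Module.finrank_eq_zero_iff.mp h4 (N'.mkQ ⟨l', hl'⟩)
  rw [← map_smul, Submodule.mkQ_apply, Submodule.Quotient.mk_eq_zero] at hax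
  obtain ⟨l, hl, hlα⟩ : ∃ l ∈ L, α l = a • l' := hax
  obtain ⟨m, hm⟩ := hsat a l' ha ⟨l, hlα⟩
  refine ⟨m, ?_, hm⟩
  have h5 : a • m = l := by
    apply hinj
    rw [map_smul, hm, hlα]
  have h6 : a • m ∈ Submodule.torsionBySet T M (RingHom.ker π : Set T) := by
    rw [h5]
    exact hl
  exact mem_torsionBySet_of_smul_mem ha h6

end growth2

/-- **GROWTH** (Diamond / Wiles Ch. 2, pure algebra): the congruence module grows by
`π(c)^d`, `d = rank M[𝔭]`. -/
theorem card_omega_growth {𝒪 : Type*} [CommRing 𝒪] [IsDomain 𝒪] [IsDiscreteValuationRing 𝒪]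
    [Finite (IsLocalRing.ResidueField 𝒪)]
    {T T' : Type*} [CommRing T] [Algebra 𝒪 T] [CommRing T'] [Algebra 𝒪 T']
    (θ : T' →ₐ[𝒪] T) (π : T →ₐ[𝒪] 𝒪)
    {M M' : Type*} [AddCommGroup M] [Module T M] [Module 𝒪 M] [IsScalarTower 𝒪 T M]
    [Module.Finite 𝒪 M] [Module.Free 𝒪 M]
    [AddCommGroup M'] [Module T' M'] [Module 𝒪 M'] [IsScalarTower 𝒪 T' M']
    [Module.Finite 𝒪 M'] [Module.Free 𝒪 M']
    (hη : eta π ≠ ⊥) (hη' : eta (π.comp θ) ≠ ⊥)
    (α : M →ₗ[𝒪] M') (hα : ∀ (t : T') (m : M), α (θ t • m) = t • α m)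
    (α' : M' →ₗ[𝒪] M) (hα' : ∀ (t : T') (m : M'), α' (t • m) = θ t • α' m)
    (hinj : Function.Injective α)
    (hsat : ∀ (a : 𝒪) (m : M'), a ≠ 0 → a • m ∈ LinearMap.range α → m ∈ LinearMap.range α)
    (hsurj : Function.Surjective α')
    (c : T) (hc : ∀ m : M, α' (α m) = c • m)
    (hrank : Module.finrank 𝒪
        ((Submodule.torsionBySet T' M' (RingHom.ker (π.comp θ) : Set T')).restrictScalars 𝒪)
      ≤ Module.finrank 𝒪
        ((Submodule.torsionBySet T M (RingHom.ker π : Set T)).restrictScalars 𝒪)) :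
    Nat.card (M ⧸ omegaSub π M) * Nat.card (𝒪 ⧸ Ideal.span {π c}) ^ Module.finrank 𝒪
        ((Submodule.torsionBySet T M (RingHom.ker π : Set T)).restrictScalars 𝒪)
      ≤ Nat.card (M' ⧸ omegaSub (π.comp θ) M') := by
  classical
  set L : Submodule T M := Submodule.torsionBySet T M (RingHom.ker π : Set T) with hL
  set K : Submodule T M := Submodule.torsionBySet T M ((RingHom.ker π).annihilator : Set T)
    with hK
  set L' : Submodule T' M' := Submodule.torsionBySet T' M' (RingHom.ker (π.comp θ) : Set T')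
    with hL'
  set K' : Submodule T' M' :=
    Submodule.torsionBySet T' M' ((RingHom.ker (π.comp θ)).annihilator : Set T') with hK'
  set L𝒪 : Submodule 𝒪 M := L.restrictScalars 𝒪 with hL𝒪
  set K𝒪 : Submodule 𝒪 M := K.restrictScalars 𝒪 with hK𝒪
  -- the submodules `A = π(c) L + K ≤ B = L + K` of `M` and `B' = L' + K'` of `M'`
  set A : Submodule 𝒪 M := L𝒪.map (LinearMap.lsmul 𝒪 M (π c)) ⊔ K𝒪 with hA
  set B : Submodule 𝒪 M := (L ⊔ K).restrictScalars 𝒪 with hB
  set B' : Submodule 𝒪 M' := (L' ⊔ K').restrictScalars 𝒪 with hB'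
  have hLB : ∀ {x : M}, x ∈ L → x ∈ B := fun hx =>
    (Submodule.restrictScalars_mem 𝒪 (L ⊔ K) _).mpr (Submodule.mem_sup_left hx)
  have hKB : ∀ {x : M}, x ∈ K → x ∈ B := fun hx =>
    (Submodule.restrictScalars_mem 𝒪 (L ⊔ K) _).mpr (Submodule.mem_sup_right hx)
  have hKA : ∀ {x : M}, x ∈ K → x ∈ A := fun hx => Submodule.mem_sup_right hx
  have hcLA : ∀ {x : M}, x ∈ L → π c • x ∈ A := fun {x} hx =>
    Submodule.mem_sup_left ⟨x, hx, rfl⟩
  have hAB : A ≤ B := by
    refine sup_le ?_ ?_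
    · rintro _ ⟨l, hl, rfl⟩
      exact hLB (L𝒪.smul_mem (π c) hl)
    · intro x hx
      exact hKB hx
  -- `α'` maps `B'` into `A`
  have hα'B' : B' ≤ A.comap α' := by
    intro m hm
    obtain ⟨l', hl', k', hk', rfl⟩ := Submodule.mem_sup.mp
      ((Submodule.restrictScalars_mem 𝒪 (L' ⊔ K') _).mp hm)
    rw [Submodule.mem_comap, map_add]
    refine A.add_mem ?_ ?_
    · obtain ⟨l, hl, rfl⟩ := exists_map_eq_of_mem_torsionBySet_ker hα hinj hsat hrank hl'
      rw [hc, H12.smul_eq_of_mem_torsionBySet_ker c hl]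
      exact hcLA hl
    · exact hKA (map_mem_torsionBySet_ann hη' hα' hk')
  -- the induced surjection `Ω(M') → M / A`
  let g : (M' ⧸ B') →ₗ[𝒪] (M ⧸ A) := Submodule.mapQ B' A α' hα'B'
  have hg : Function.Surjective g := by
    intro x
    obtain ⟨m, rfl⟩ := A.mkQ_surjective x
    obtain ⟨m', rfl⟩ := hsurj m
    exact ⟨B'.mkQ m', rfl⟩
  obtain ⟨hfin, -⟩ := H12.card_omega_le (π.comp θ) (M := M') hη'
  haveI : Finite (M' ⧸ B') :=
    Finite.of_equiv _ (Submodule.Quotient.restrictScalarsEquiv 𝒪 (L' ⊔ K')).symm.toEquiv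
  have h1 : Nat.card (M ⧸ A) ≤ Nat.card (M' ⧸ B') := Nat.card_le_card_of_surjective g hg
  -- the surjection `M / A → M / B` and its kernel
  let f : (M ⧸ A) →ₗ[𝒪] (M ⧸ B) := Submodule.factor hAB
  have hf : Function.Surjective f := Submodule.factor_surjective hAB
  have h2 := card_eq_card_mul_card_ker f hf
  let u : L𝒪 →ₗ[𝒪] (M ⧸ A) := A.mkQ.comp L𝒪.subtype
  have hku : LinearMap.ker u = H12.smulTop (π c) L𝒪 := by
    ext x
    rw [LinearMap.mem_ker, H12.mem_smulTop]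
    show A.mkQ (x : M) = 0 ↔ _
    rw [Submodule.mkQ_apply, Submodule.Quotient.mk_eq_zero]
    constructor
    · intro hx
      obtain ⟨y, ⟨l₁, hl₁, rfl⟩, k, hk, hyk⟩ := Submodule.mem_sup.mp hx
      have hk0 : k = 0 := by
        refine torsionBySet_ker_inf_ann hη ?_ hk
        have : k = (x : M) - π c • l₁ := by
          rw [← hyk]
          show k = (π c • l₁ + k) - π c • l₁
          abel
        rw [this]
        exact L𝒪.sub_mem x.2 (L𝒪.smul_mem (π c) hl₁)
      refine ⟨⟨l₁, hl₁⟩, Subtype.ext ?_⟩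
      rw [← hyk, hk0, add_zero]
      rfl
    · rintro ⟨y, rfl⟩
      exact hcLA y.2
  have hru : LinearMap.range u = LinearMap.ker f := by
    ext x
    rw [LinearMap.mem_range, LinearMap.mem_ker]
    constructor
    · rintro ⟨l, rfl⟩
      show Submodule.factor hAB (A.mkQ (l : M)) = 0
      rw [Submodule.factor_mk, Submodule.mkQ_apply, Submodule.Quotient.mk_eq_zero]
      exact hLB l.2
    · intro hx
      obtain ⟨m, rfl⟩ := A.mkQ_surjective x
      have hm : m ∈ B := by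
        have : Submodule.factor hAB (A.mkQ m) = 0 := hx
        rwa [Submodule.factor_mk, Submodule.mkQ_apply, Submodule.Quotient.mk_eq_zero] at this
      obtain ⟨l, hl, k, hk, rfl⟩ := Submodule.mem_sup.mp
        ((Submodule.restrictScalars_mem 𝒪 (L ⊔ K) _).mp hm)
      refine ⟨⟨l, hl⟩, ?_⟩
      show A.mkQ l = A.mkQ (l + k)
      have hk0 : A.mkQ k = 0 := by
        rw [Submodule.mkQ_apply, Submodule.Quotient.mk_eq_zero]
        exact hKA hk
      rw [map_add, hk0, add_zero]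
  have h3 : Nat.card (LinearMap.ker f)
      = Nat.card (𝒪 ⧸ Ideal.span {π c}) ^ Module.finrank 𝒪 L𝒪 := by
    rw [← hru, card_range_eq_card_quotient_ker, hku, H12.card_quotient_smulTop]
  -- conclusion
  have h4 : Nat.card (M ⧸ omegaSub π M) = Nat.card (M ⧸ B) :=
    Nat.card_congr (Submodule.Quotient.restrictScalarsEquiv 𝒪 (L ⊔ K)).symm.toEquiv
  have h5 : Nat.card (M' ⧸ omegaSub (π.comp θ) M') = Nat.card (M' ⧸ B') :=
    Nat.card_congr (Submodule.Quotient.restrictScalarsEquiv 𝒪 (L' ⊔ K')).symm.toEquiv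
  rw [h4, h5, ← h3, ← h2]
  exact h1

end Fermat.Agent.S59.NumCrit.H90

end
-- ==== END Fermat.Agent.S59.NumCrit.H90_Growth

-- ==== BEGIN Fermat.Agent.S59.NumCrit.H90_KSide
section

/-!
# S59 NUMCRIT: the two properties over the residue field

`regProp_of : KapProp k⟦X⟧ 𝔪 → RegProp k n` (regular lifts by coset prime avoidance) and
`coreProp_of : KapProp k⟦X⟧ 𝔪 → DimProp k n → CoreProp k n` (an ideal containing a regular sequence
`M X` of length `n` but not `det M` is generated by it).  Here `KapProp` is the statement of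
Kaplansky's theorem on socles (leaf KAP) and `DimProp` the statement of leaf DIM.
-/

set_option autoImplicit false

namespace Fermat.Agent.S59.NumCrit.H90

open MvPowerSeries RingTheory.Sequence

section vars

variable (n : ℕ) (R : Type*) [CommRing R]

/-- the list of variables. -/
noncomputable def varSeq : List (MvPowerSeries (Fin n) R) :=
  List.ofFn fun i : Fin n => (X i : MvPowerSeries (Fin n) R)

@[simp] theorem length_varSeq : (varSeq n R).length = n := by simp [varSeq]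

variable {n R}

theorem getElem_varSeq (i : ℕ) (hi : i < (varSeq n R).length) :
    (varSeq n R)[i] = (X ⟨i, by simpa using hi⟩ : MvPowerSeries (Fin n) R) := by
  simp [varSeq]

theorem ofList_take_varSeq (m : ℕ) :
    Ideal.ofList ((varSeq n R).take m)
      = powIdeal 1 ((Finset.univ.filter fun j : Fin n => (j : ℕ) < m : Finset (Fin n)) : Set (Fin n)) := by
  unfold Ideal.ofList powIdeal
  congr 1
  ext g
  simp only [Set.mem_ofPred_eq, Set.mem_image, Finset.coe_filter, Finset.mem_univ, true_and, pow_one]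
  rw [List.mem_take_iff_getElem]
  constructor
  · rintro ⟨k, hk, rfl⟩
    simp only [length_varSeq, lt_inf_iff] at hk
    refine ⟨⟨k, hk.2⟩, hk.1, ?_⟩
    rw [getElem_varSeq]
  · rintro ⟨j, hj, rfl⟩
    refine ⟨j, ?_, ?_⟩
    · simp only [length_varSeq, lt_inf_iff]
      exact ⟨hj, j.2⟩
    · rw [getElem_varSeq]

theorem isWeaklyRegular_varSeq : IsWeaklyRegular (MvPowerSeries (Fin n) R) (varSeq n R) := by
  classical
  rw [isWeaklyRegular_iff_Fin]
  intro i
  rw [isSMulRegular_quotient_iff_mem_of_smul_mem]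
  intro f hf
  rw [smul_eq_mul, Ideal.mul_top] at hf ⊢
  rw [ofList_take_varSeq] at hf ⊢
  have hi : (i : ℕ) < n := by
    have := i.2
    simpa using this
  have hget : (varSeq n R)[i] = (X (⟨i, hi⟩ : Fin n) : MvPowerSeries (Fin n) R) := by
    rw [Fin.getElem_fin, getElem_varSeq]
  rw [hget, smul_eq_mul] at hf
  refine mem_powIdeal_of_X_pow_mul_mem 1 _ ⟨i, hi⟩ (by simp) f ?_
  rw [pow_one]
  exact hf

theorem ofList_varSeq :
    Ideal.ofList (varSeq n R) = Ideal.span (Set.range fun j => (X j : MvPowerSeries (Fin n) R)) := by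
  unfold Ideal.ofList varSeq
  congr 1
  ext g
  simp [List.mem_ofFn]

theorem ofList_ofFn {A : Type*} [CommRing A] (y : Fin n → A) :
    Ideal.ofList (List.ofFn y) = Ideal.span (Set.range y) := by
  unfold Ideal.ofList
  congr 1
  ext g
  simp [List.mem_ofFn]

theorem mem_span_X_iff (f : MvPowerSeries (Fin n) R) :
    f ∈ Ideal.span (Set.range fun j => (X j : MvPowerSeries (Fin n) R)) ↔ constantCoeff f = 0 := by
  constructor
  · exact constantCoeff_eq_zero_of_mem_span_X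
  · intro h
    obtain ⟨c, rfl⟩ := exists_eq_sum_mul_X f h
    exact Ideal.sum_mem _ fun i _ => Ideal.mul_mem_left _ _ (Ideal.subset_span ⟨i, rfl⟩)

end vars

section field

variable {n : ℕ} {k : Type*} [Field k]

theorem maximalIdeal_eq_span_X :
    IsLocalRing.maximalIdeal (MvPowerSeries (Fin n) k)
      = Ideal.span (Set.range fun j => (X j : MvPowerSeries (Fin n) k)) := by
  ext f
  rw [mem_span_X_iff, IsLocalRing.mem_maximalIdeal, mem_nonunits_iff,
    MvPowerSeries.isUnit_iff_constantCoeff, isUnit_iff_ne_zero, not_not]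

end field

section kside

variable {n : ℕ} {k : Type*} [Field k]

/-- the statement of Kaplansky's theorem for the ring itself. -/
def KapProp (R : Type*) [CommRing R] (I : Ideal R) : Prop :=
  ∀ xs ys : List R, xs.length = ys.length → (∀ x ∈ xs, x ∈ I) → (∀ y ∈ ys, y ∈ I) →
    IsWeaklyRegular R xs → IsWeaklyRegular R ys →
    Nonempty (Submodule.torsionBySet R (R ⧸ (Ideal.ofList xs • (⊤ : Submodule R R))) (I : Set R)
      ≃ₗ[R] Submodule.torsionBySet R (R ⧸ (Ideal.ofList ys • (⊤ : Submodule R R))) (I : Set R))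

/-- the statement (DIM). -/
def DimProp (k : Type*) [Field k] (n : ℕ) : Prop :=
  ∀ ys : List (MvPowerSeries (Fin n) k), ys.length = n → (∀ y ∈ ys, constantCoeff y = 0) →
    IsWeaklyRegular (MvPowerSeries (Fin n) k) ys →
    ∃ N : ℕ, ∀ i, (X i : MvPowerSeries (Fin n) k) ^ N ∈ Ideal.ofList ys

theorem mem_maximalIdeal_of_mem_varSeq {x : MvPowerSeries (Fin n) k} (hx : x ∈ varSeq n k) :
    x ∈ IsLocalRing.maximalIdeal (MvPowerSeries (Fin n) k) := by
  unfold varSeq at hx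
  rw [List.mem_ofFn] at hx
  obtain ⟨j, rfl⟩ := hx
  rw [maximalIdeal_eq_span_X]
  exact Ideal.subset_span ⟨j, rfl⟩

/-- (DEPTH): the socle of the quotient by a regular sequence of length `< n` vanishes. -/
theorem soc_eq_bot_of_length_lt
    (hKAP : KapProp (MvPowerSeries (Fin n) k) (IsLocalRing.maximalIdeal _))
    (ys : List (MvPowerSeries (Fin n) k)) (hlen : ys.length < n)
    (hmem : ∀ y ∈ ys, y ∈ IsLocalRing.maximalIdeal (MvPowerSeries (Fin n) k))
    (hreg : IsWeaklyRegular (MvPowerSeries (Fin n) k) ys) :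
    Submodule.torsionBySet (MvPowerSeries (Fin n) k)
      (MvPowerSeries (Fin n) k ⧸
        (Ideal.ofList ys • (⊤ : Submodule (MvPowerSeries (Fin n) k) (MvPowerSeries (Fin n) k))))
      (IsLocalRing.maximalIdeal (MvPowerSeries (Fin n) k) : Set (MvPowerSeries (Fin n) k)) = ⊥ := by
  set m := ys.length with hm
  have hxlen : ((varSeq n k).take m).length = ys.length := by
    rw [List.length_take, length_varSeq]
    omega
  have hxreg : IsWeaklyRegular (MvPowerSeries (Fin n) k) ((varSeq n k).take m) := by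
    have h := isWeaklyRegular_varSeq (n := n) (R := k)
    rw [← List.take_append_drop m (varSeq n k), isWeaklyRegular_append_iff] at h
    exact h.1
  obtain ⟨e⟩ := hKAP ((varSeq n k).take m) ys hxlen
    (fun x hx => mem_maximalIdeal_of_mem_varSeq (List.mem_of_mem_take hx)) hmem hxreg hreg
  have hmlt : m < (varSeq n k).length := by rw [length_varSeq]; exact hlen
  have hXreg := (isWeaklyRegular_varSeq (n := n) (R := k)).regular_mod_prev m hmlt
  have hXmem : (varSeq n k)[m] ∈ IsLocalRing.maximalIdeal (MvPowerSeries (Fin n) k) :=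
    mem_maximalIdeal_of_mem_varSeq (List.getElem_mem hmlt)
  have hsub : ∀ u : Submodule.torsionBySet (MvPowerSeries (Fin n) k)
      (MvPowerSeries (Fin n) k ⧸ (Ideal.ofList ((varSeq n k).take m) •
        (⊤ : Submodule (MvPowerSeries (Fin n) k) (MvPowerSeries (Fin n) k))))
      (IsLocalRing.maximalIdeal (MvPowerSeries (Fin n) k) : Set (MvPowerSeries (Fin n) k)),
      u = 0 := by
    rintro ⟨u, hu⟩
    rw [Submodule.mem_torsionBySet_iff] at hu
    have h1 := hu ⟨_, hXmem⟩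
    have h2 : (varSeq n k)[m] • u = (varSeq n k)[m] • 0 := by rw [smul_zero]; exact h1
    have h3 := hXreg h2
    exact Subtype.ext h3
  rw [eq_bot_iff]
  intro v hv
  have h4 := hsub (e.symm ⟨v, hv⟩)
  have h5 : (⟨v, hv⟩ : Submodule.torsionBySet _ _ _) = 0 := by
    rw [← e.apply_symm_apply ⟨v, hv⟩, h4, map_zero]
  have := congrArg Subtype.val h5
  simpa using this

end kside

section reg

variable {n : ℕ} {k : Type*} [Field k]

/-- one step of (REG): a regular element in a coset of `𝔪 𝔞`. -/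
theorem exists_regular_in_coset
    (hKAP : KapProp (MvPowerSeries (Fin n) k) (IsLocalRing.maximalIdeal _))
    (𝔞 : Ideal (MvPowerSeries (Fin n) k))
    (hN : ∃ N : ℕ, ∀ i, (X i : MvPowerSeries (Fin n) k) ^ N ∈ 𝔞)
    (L : List (MvPowerSeries (Fin n) k)) (hlen : L.length < n)
    (hmem : ∀ y ∈ L, y ∈ IsLocalRing.maximalIdeal (MvPowerSeries (Fin n) k))
    (hreg : IsWeaklyRegular (MvPowerSeries (Fin n) k) L) (c : MvPowerSeries (Fin n) k) :
    ∃ x ∈ Ideal.span (Set.range fun j => (X j : MvPowerSeries (Fin n) k)) * 𝔞,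
      IsSMulRegular (MvPowerSeries (Fin n) k ⧸ (Ideal.ofList L •
        (⊤ : Submodule (MvPowerSeries (Fin n) k) (MvPowerSeries (Fin n) k)))) (c + x) := by
  classical
  obtain ⟨N, hN⟩ := hN
  set Q := MvPowerSeries (Fin n) k ⧸ (Ideal.ofList L •
        (⊤ : Submodule (MvPowerSeries (Fin n) k) (MvPowerSeries (Fin n) k))) with hQ
  have hsoc := soc_eq_bot_of_length_lt hKAP L hlen hmem hreg
  have hfin : (associatedPrimes (MvPowerSeries (Fin n) k) Q).Finite := associatedPrimes.finite _ _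
  have hprime : ∀ q ∈ hfin.toFinset, q.IsPrime := by
    intro q hq
    rw [Set.Finite.mem_toFinset] at hq
    exact hq.isPrime
  have hnot : ∀ q ∈ hfin.toFinset,
      ¬ Ideal.span (Set.range fun j => (X j : MvPowerSeries (Fin n) k)) * 𝔞 ≤ q := by
    intro q hq hle
    have hqp := hprime q hq
    rw [Set.Finite.mem_toFinset] at hq
    have hm : Ideal.span (Set.range fun j => (X j : MvPowerSeries (Fin n) k)) ≤ q := by
      rcases (Ideal.IsPrime.mul_le hqp).mp hle with h | h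
      · exact h
      · rw [Ideal.span_le]
        rintro _ ⟨j, rfl⟩
        exact hqp.mem_of_pow_mem N (h (hN j))
    rw [← maximalIdeal_eq_span_X] at hm
    obtain ⟨_, u, hu⟩ := (isAssociatedPrime_iff).mp hq
    have hu' : u ∈ Submodule.torsionBySet (MvPowerSeries (Fin n) k) Q
        (IsLocalRing.maximalIdeal (MvPowerSeries (Fin n) k) : Set (MvPowerSeries (Fin n) k)) := by
      rw [Submodule.mem_torsionBySet_iff]
      rintro ⟨a, ha⟩
      have : a ∈ q := hm ha
      rw [hu, Submodule.mem_colon_singleton] at this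
      exact this
    rw [hsoc, Submodule.mem_bot] at hu'
    apply hqp.ne_top
    rw [hu, hu', Ideal.eq_top_iff_one, Submodule.mem_colon_singleton, smul_zero]
    exact Submodule.zero_mem _
  obtain ⟨x, hx, hxq⟩ := H8.coset_prime_avoidance _ c hfin.toFinset hprime hnot
  refine ⟨x, hx, ?_⟩
  have hcompl := biUnion_associatedPrimes_eq_compl_regular (MvPowerSeries (Fin n) k) Q
  by_contra hreg'
  have : c + x ∈ ⋃ p ∈ associatedPrimes (MvPowerSeries (Fin n) k) Q, (p : Set _) := by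
    rw [hcompl]
    exact hreg'
  rw [Set.mem_iUnion₂] at this
  obtain ⟨q, hq, hcq⟩ := this
  exact hxq q (by rw [Set.Finite.mem_toFinset]; exact hq) hcq

/-- **(REG)**. -/
theorem regProp_of (hKAP : KapProp (MvPowerSeries (Fin n) k) (IsLocalRing.maximalIdeal _)) :
    RegProp k n := by
  intro 𝔞 h𝔞 hN c hc
  have h𝔞m : 𝔞 ≤ IsLocalRing.maximalIdeal (MvPowerSeries (Fin n) k) :=
    IsLocalRing.le_maximalIdeal h𝔞
  have hmul : Ideal.span (Set.range fun j => (X j : MvPowerSeries (Fin n) k)) * 𝔞 ≤ 𝔞 :=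
    Ideal.mul_le_right
  have key : ∀ m, m ≤ n → ∃ L : List (MvPowerSeries (Fin n) k), L.length = m ∧
      (∀ y ∈ L, y ∈ 𝔞) ∧
      (∀ (j : ℕ) (hj : j < L.length) (hjn : j < n), L[j] - c ⟨j, hjn⟩
        ∈ Ideal.span (Set.range fun j => (X j : MvPowerSeries (Fin n) k)) * 𝔞) ∧
      IsWeaklyRegular (MvPowerSeries (Fin n) k) L := by
    intro m
    induction m with
    | zero =>
      intro _
      exact ⟨[], rfl, by simp, by simp, IsWeaklyRegular.nil _ _⟩
    | succ m ih =>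
      intro hm
      obtain ⟨L, hLlen, hLmem, hLc, hLreg⟩ := ih (by omega)
      have hmn : m < n := by omega
      obtain ⟨x, hx, hxreg⟩ := exists_regular_in_coset hKAP 𝔞 hN L (by omega)
        (fun y hy => h𝔞m (hLmem y hy)) hLreg (c ⟨m, hmn⟩)
      refine ⟨L ++ [c ⟨m, hmn⟩ + x], by simp [hLlen], ?_, ?_, ?_⟩
      · intro y hy
        rw [List.mem_append, List.mem_singleton] at hy
        rcases hy with hy | rfl
        · exact hLmem y hy
        · exact Ideal.add_mem _ (hc _) (hmul hx)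
      · intro j hj hjn
        by_cases hjm : j < L.length
        · rw [List.getElem_append_left hjm]
          exact hLc j hjm hjn
        · have hjeq : j = m := by
            simp only [List.length_append, List.length_singleton] at hj
            omega
          subst hjeq
          rw [List.getElem_append_right (by omega)]
          simp only [hLlen, Nat.sub_self, List.getElem_singleton, add_sub_cancel_left]
          exact hx
      · rw [isWeaklyRegular_append_iff]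
        exact ⟨hLreg, (isWeaklyRegular_singleton_iff _ _).mpr hxreg⟩
  obtain ⟨L, hLlen, hLmem, hLc, hLreg⟩ := key n le_rfl
  refine ⟨fun i => L[(i : ℕ)]'(by rw [hLlen]; exact i.2), fun i => ?_, ?_⟩
  · exact hLc i _ i.2
  · have : List.ofFn (fun i : Fin n => L[(i : ℕ)]'(by rw [hLlen]; exact i.2)) = L := by
      apply List.ext_getElem
      · simp [hLlen]
      · intro j h1 h2
        simp
    rw [this]
    exact hLreg

end reg

section core

variable {n : ℕ} {k : Type*} [Field k]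

theorem smul_top_eq_self {A : Type*} [CommRing A] (I : Ideal A) :
    (I • (⊤ : Submodule A A)) = I := by
  rw [smul_eq_mul, Ideal.mul_top]

/-- in `k⟦X⟧/(X)` every element is a multiple of any non-zero element. -/
theorem exists_smul_eq_of_ne_zero
    (w w' : MvPowerSeries (Fin n) k ⧸ (Ideal.ofList (varSeq n k) •
        (⊤ : Submodule (MvPowerSeries (Fin n) k) (MvPowerSeries (Fin n) k)))) (hw : w ≠ 0) :
    ∃ a : MvPowerSeries (Fin n) k, w' = a • w := by
  obtain ⟨f, rfl⟩ := Submodule.Quotient.mk_surjective _ w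
  obtain ⟨f', rfl⟩ := Submodule.Quotient.mk_surjective _ w'
  have hf : f ∉ IsLocalRing.maximalIdeal (MvPowerSeries (Fin n) k) := by
    intro h
    apply hw
    rw [Submodule.Quotient.mk_eq_zero, smul_top_eq_self, ofList_varSeq, ← maximalIdeal_eq_span_X]
    exact h
  rw [IsLocalRing.mem_maximalIdeal, mem_nonunits_iff, not_not] at hf
  obtain ⟨g, hg⟩ := hf.exists_right_inv
  refine ⟨f' * g, ?_⟩
  have h1 : (f' * g) • f = f' := by
    rw [smul_eq_mul, mul_assoc, mul_comm g f, hg, mul_one]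
  rw [← Submodule.Quotient.mk_smul, h1]

/-- (SOC): the socle of the quotient by a regular sequence of length `n` is simple. -/
theorem soc_simple (hKAP : KapProp (MvPowerSeries (Fin n) k) (IsLocalRing.maximalIdeal _))
    (ys : List (MvPowerSeries (Fin n) k)) (hlen : ys.length = n)
    (hmem : ∀ y ∈ ys, y ∈ IsLocalRing.maximalIdeal (MvPowerSeries (Fin n) k))
    (hreg : IsWeaklyRegular (MvPowerSeries (Fin n) k) ys)
    (u v : MvPowerSeries (Fin n) k)
    (hu : ∀ a ∈ IsLocalRing.maximalIdeal (MvPowerSeries (Fin n) k), a * u ∈ Ideal.ofList ys)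
    (hv : ∀ a ∈ IsLocalRing.maximalIdeal (MvPowerSeries (Fin n) k), a * v ∈ Ideal.ofList ys)
    (hu0 : u ∉ Ideal.ofList ys) :
    ∃ a : MvPowerSeries (Fin n) k, v - a * u ∈ Ideal.ofList ys := by
  obtain ⟨e⟩ := hKAP (varSeq n k) ys (by rw [length_varSeq, hlen])
    (fun x hx => mem_maximalIdeal_of_mem_varSeq hx) hmem isWeaklyRegular_varSeq hreg
  have hsoc : ∀ z : MvPowerSeries (Fin n) k,
      (∀ a ∈ IsLocalRing.maximalIdeal (MvPowerSeries (Fin n) k), a * z ∈ Ideal.ofList ys) →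
      (Submodule.Quotient.mk z : MvPowerSeries (Fin n) k ⧸ (Ideal.ofList ys •
        (⊤ : Submodule (MvPowerSeries (Fin n) k) (MvPowerSeries (Fin n) k))))
        ∈ Submodule.torsionBySet (MvPowerSeries (Fin n) k) _
          (IsLocalRing.maximalIdeal (MvPowerSeries (Fin n) k) : Set (MvPowerSeries (Fin n) k)) := by
    intro z hz
    rw [Submodule.mem_torsionBySet_iff]
    rintro ⟨a, ha⟩
    rw [← Submodule.Quotient.mk_smul, Submodule.Quotient.mk_eq_zero, smul_top_eq_self, smul_eq_mul]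
    exact hz a ha
  set U : Submodule.torsionBySet (MvPowerSeries (Fin n) k) (MvPowerSeries (Fin n) k ⧸
      (Ideal.ofList ys • (⊤ : Submodule (MvPowerSeries (Fin n) k) (MvPowerSeries (Fin n) k))))
      (IsLocalRing.maximalIdeal (MvPowerSeries (Fin n) k) : Set (MvPowerSeries (Fin n) k)) :=
    ⟨_, hsoc u hu⟩ with hU
  set V : Submodule.torsionBySet (MvPowerSeries (Fin n) k) (MvPowerSeries (Fin n) k ⧸
      (Ideal.ofList ys • (⊤ : Submodule (MvPowerSeries (Fin n) k) (MvPowerSeries (Fin n) k))))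
      (IsLocalRing.maximalIdeal (MvPowerSeries (Fin n) k) : Set (MvPowerSeries (Fin n) k)) :=
    ⟨_, hsoc v hv⟩ with hV
  have hU0 : U ≠ 0 := by
    intro h
    apply hu0
    have := congrArg Subtype.val h
    rw [hU] at this
    simp only [Submodule.coe_zero] at this
    rwa [Submodule.Quotient.mk_eq_zero, smul_top_eq_self] at this
  have hU1 : ((e.symm U : _) : MvPowerSeries (Fin n) k ⧸ (Ideal.ofList (varSeq n k) •
        (⊤ : Submodule (MvPowerSeries (Fin n) k) (MvPowerSeries (Fin n) k)))) ≠ 0 := by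
    intro h
    apply hU0
    have : e.symm U = 0 := Subtype.ext h
    rw [← e.apply_symm_apply U, this, map_zero]
  obtain ⟨a, ha⟩ := exists_smul_eq_of_ne_zero _ ((e.symm V : _) : MvPowerSeries (Fin n) k ⧸ _) hU1
  have h1 : e.symm V = a • e.symm U := Subtype.ext ha
  have h2 : V = a • U := by
    rw [← e.apply_symm_apply V, h1, map_smul, e.apply_symm_apply]
  refine ⟨a, ?_⟩
  have h3 := congrArg Subtype.val h2
  rw [hU, hV] at h3
  simp only [Submodule.coe_smul] at h3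
  rw [← Submodule.Quotient.mk_smul, ← sub_eq_zero, ← Submodule.Quotient.mk_sub,
    Submodule.Quotient.mk_eq_zero, smul_top_eq_self, smul_eq_mul] at h3
  exact h3

/-- **(CORE)**. -/
theorem coreProp_of (hKAP : KapProp (MvPowerSeries (Fin n) k) (IsLocalRing.maximalIdeal _))
    (hDIM : DimProp k n) : CoreProp k n := by
  classical
  intro 𝔞 h𝔞 M hy hreg hdet
  set y := M.mulVec (fun j => (X j : MvPowerSeries (Fin n) k)) with hydef
  have h𝔞m : 𝔞 ≤ IsLocalRing.maximalIdeal (MvPowerSeries (Fin n) k) :=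
    IsLocalRing.le_maximalIdeal h𝔞
  have hofList : Ideal.ofList (List.ofFn y) = Ideal.span (Set.range y) := ofList_ofFn y
  have hmem : ∀ z ∈ List.ofFn y, z ∈ IsLocalRing.maximalIdeal (MvPowerSeries (Fin n) k) := by
    intro z hz
    rw [List.mem_ofFn] at hz
    obtain ⟨i, rfl⟩ := hz
    exact h𝔞m (hy i)
  have hconst : ∀ z ∈ List.ofFn y, constantCoeff z = 0 := by
    intro z hz
    have := hmem z hz
    rwa [maximalIdeal_eq_span_X, mem_span_X_iff] at this
  obtain ⟨N, hN⟩ := hDIM (List.ofFn y) (by simp) hconst hreg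
  rw [hofList] at hN
  have hdetJ : M.det ∉ Ideal.span (Set.range y) := det_notMem_span N M hN
  have hle : Ideal.span (Set.range y) ≤ 𝔞 := by
    rw [Ideal.span_le]
    rintro _ ⟨i, rfl⟩
    exact hy i
  refine le_antisymm ?_ hle
  by_contra hnle
  obtain ⟨w, hw𝔞, hwJ⟩ := SetLike.not_le_iff_exists.mp hnle
  -- the determinant is in the socle
  have hdetsoc : ∀ a ∈ IsLocalRing.maximalIdeal (MvPowerSeries (Fin n) k),
      a * M.det ∈ Ideal.ofList (List.ofFn y) := by
    intro a ha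
    rw [hofList]
    rw [maximalIdeal_eq_span_X, mem_span_X_iff] at ha
    obtain ⟨c, rfl⟩ := exists_eq_sum_mul_X a ha
    rw [Finset.sum_mul]
    refine Ideal.sum_mem _ fun j _ => ?_
    have : c j * X j * M.det = c j * (M.det * X j) := by ring
    rw [this]
    exact Ideal.mul_mem_left _ _
      (det_mul_mem_span M _ j _ fun i => Ideal.subset_span ⟨i, rfl⟩)
  -- a power of the maximal ideal lies in `(y)`
  have hrad : IsLocalRing.maximalIdeal (MvPowerSeries (Fin n) k)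
      ≤ (Ideal.span (Set.range y)).radical := by
    rw [maximalIdeal_eq_span_X, Ideal.span_le]
    rintro _ ⟨j, rfl⟩
    exact ⟨N, hN j⟩
  obtain ⟨K, hK⟩ := Ideal.exists_pow_le_of_le_radical_of_fg hrad
    ((isNoetherianRing_iff_ideal_fg _).mp inferInstance _)
  -- an element of the socle in `𝔞`
  have hex : ∃ t, ∀ m ∈ IsLocalRing.maximalIdeal (MvPowerSeries (Fin n) k) ^ t,
      m * w ∈ Ideal.span (Set.range y) :=
    ⟨K, fun m hm => Ideal.mul_mem_right _ _ (hK hm)⟩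
  have hfind := Nat.find_spec hex
  have hmin := fun t => Nat.find_min hex (m := t)
  set t₀ := Nat.find hex with ht₀
  have ht₀pos : t₀ ≠ 0 := by
    intro h0
    rw [h0] at hfind
    apply hwJ
    have := hfind 1 (by rw [pow_zero, Ideal.one_eq_top]; trivial)
    rwa [one_mul] at this
  obtain ⟨t, ht⟩ := Nat.exists_eq_succ_of_ne_zero ht₀pos
  have hnot := hmin t (by omega)
  obtain ⟨m, hnot'⟩ := not_forall.mp hnot
  obtain ⟨hm, hmw⟩ := Classical.not_imp.mp hnot'
  have hw'soc : ∀ a ∈ IsLocalRing.maximalIdeal (MvPowerSeries (Fin n) k),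
      a * (m * w) ∈ Ideal.ofList (List.ofFn y) := by
    intro a ha
    rw [hofList, ← mul_assoc]
    apply hfind
    rw [ht, pow_succ']
    exact Ideal.mul_mem_mul ha hm
  obtain ⟨a, ha⟩ := soc_simple hKAP (List.ofFn y) (by simp) hmem hreg (m * w) M.det hw'soc hdetsoc
    (by rw [hofList]; exact hmw)
  rw [hofList] at ha
  apply hdet
  have h1 : M.det - a * (m * w) ∈ 𝔞 := hle ha
  have h2 : a * (m * w) ∈ 𝔞 := Ideal.mul_mem_left _ _ (Ideal.mul_mem_left _ _ hw𝔞)
  have := Ideal.add_mem _ h1 h2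
  rwa [sub_add_cancel] at this

end core

end Fermat.Agent.S59.NumCrit.H90

end
-- ==== END Fermat.Agent.S59.NumCrit.H90_KSide

-- ==== BEGIN Fermat.Agent.S59.NumCrit.H90_NC1
section

/-!
# S59 NUMCRIT: the numerical criterion NC1 (Wiles, Lenstra), modulo the two `k`-side properties

`nc1_of`: `ψ : 𝒪⟦X_1..X_n⟧ ↠ R`, `φ : R ↠ T`, `π : T → 𝒪`, `T` finite free over `𝒪`,
`#Φ_R ≤ #(𝒪/η_T)` (finite)  ⟹  `φ` is bijective and `ker (φ ∘ ψ)` is generated by `n` elements.
-/

set_option autoImplicit false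

namespace Fermat.Agent.S59.NumCrit.H90

open MvPowerSeries

section nc1

variable {𝒪 : Type*} [CommRing 𝒪] [IsDomain 𝒪] [IsDiscreteValuationRing 𝒪]
  [Finite (IsLocalRing.ResidueField 𝒪)]
  {R T : Type*} [CommRing R] [Algebra 𝒪 R] [CommRing T] [Algebra 𝒪 T] {n : ℕ}

/-- the lattice of linear parts of the relations. -/
noncomputable abbrev relLattice {A : Type*} [CommRing A] [Algebra 𝒪 A]
    (ψ : MvPowerSeries (Fin n) 𝒪 →ₐ[𝒪] A) : Submodule 𝒪 (Fin n → 𝒪) :=
  Submodule.map (linPart n 𝒪) ((RingHom.ker ψ).restrictScalars 𝒪)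

omit [IsDomain 𝒪] [IsDiscreteValuationRing 𝒪] [Finite (IsLocalRing.ResidueField 𝒪)] in
theorem exists_mem_ker_linPart_eq {A : Type*} [CommRing A] [Algebra 𝒪 A]
    (ψ : MvPowerSeries (Fin n) 𝒪 →ₐ[𝒪] A) {v : Fin n → 𝒪} (hv : v ∈ relLattice ψ) :
    ∃ f ∈ RingHom.ker ψ, linPart n 𝒪 f = v := by
  obtain ⟨f, hf, rfl⟩ := hv
  exact ⟨f, hf, rfl⟩

omit [IsDomain 𝒪] [IsDiscreteValuationRing 𝒪] [Finite (IsLocalRing.ResidueField 𝒪)] in
/-- a surjection of finite sets which does not decrease the cardinality is injective. -/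
theorem factor_injective_of_card_le {M : Type*} [AddCommGroup M] [Module 𝒪 M]
    {N N' : Submodule 𝒪 M} (h : N ≤ N') [Finite (M ⧸ N)]
    (hc : Nat.card (M ⧸ N) ≤ Nat.card (M ⧸ N')) : N' ≤ N := by
  have hsurj : Function.Surjective (Submodule.factor h) := by
    intro x
    obtain ⟨m, rfl⟩ := Submodule.Quotient.mk_surjective _ x
    exact ⟨Submodule.Quotient.mk m, rfl⟩
  have hbij := hsurj.bijective_of_nat_card_le hc
  intro x hx
  have h1 : Submodule.factor h (Submodule.Quotient.mk x) = 0 := by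
    show (Submodule.Quotient.mk x : M ⧸ N') = 0
    rw [Submodule.Quotient.mk_eq_zero]
    exact hx
  have h2 : (Submodule.Quotient.mk x : M ⧸ N) = 0 := hbij.1 (by rw [h1, map_zero])
  rwa [Submodule.Quotient.mk_eq_zero] at h2

omit [IsDomain 𝒪] [IsDiscreteValuationRing 𝒪] [Finite (IsLocalRing.ResidueField 𝒪)] in
theorem card_quotient_le_of_le {M : Type*} [AddCommGroup M] [Module 𝒪 M]
    {N N' : Submodule 𝒪 M} (h : N ≤ N') [Finite (M ⧸ N)] :
    Finite (M ⧸ N') ∧ Nat.card (M ⧸ N') ≤ Nat.card (M ⧸ N) := by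
  have hsurj : Function.Surjective (Submodule.factor h) := by
    intro x
    obtain ⟨m, rfl⟩ := Submodule.Quotient.mk_surjective _ x
    exact ⟨Submodule.Quotient.mk m, rfl⟩
  exact ⟨Finite.of_surjective _ hsurj, Nat.card_le_card_of_surjective _ hsurj⟩

/-- **NC1**, modulo (REG) and (CORE). -/
theorem nc1_of [Module.Finite 𝒪 T] [Module.Free 𝒪 T]
    (hREG : RegProp (IsLocalRing.ResidueField 𝒪) n)
    (hCORE : CoreProp (IsLocalRing.ResidueField 𝒪) n)
    (ψ : MvPowerSeries (Fin n) 𝒪 →ₐ[𝒪] R) (hψ : Function.Surjective ψ)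
    (φ : R →ₐ[𝒪] T) (hφ : Function.Surjective φ) (π : T →ₐ[𝒪] 𝒪)
    (hπ : ∀ i, π (φ (ψ (X i))) = 0)
    [Finite (RingHom.ker (π.comp φ)).Cotangent]
    (hcard : Nat.card (RingHom.ker (π.comp φ)).Cotangent ≤ Nat.card (𝒪 ⧸ eta π)) :
    Function.Bijective φ ∧
      (∃ g : Fin n → MvPowerSeries (Fin n) 𝒪,
        RingHom.ker (φ.comp ψ) = Ideal.span (Set.range g)) ∧
      Nat.card (RingHom.ker π).Cotangent = Nat.card (𝒪 ⧸ eta π) ∧
      Nat.card (RingHom.ker (π.comp φ)).Cotangent = Nat.card (𝒪 ⧸ eta π) := by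
  classical
  have hψT : Function.Surjective (φ.comp ψ) := hφ.comp hψ
  have hπR : ∀ i, (π.comp φ) (ψ (X i)) = 0 := hπ
  have hπT : ∀ i, π ((φ.comp ψ) (X i)) = 0 := hπ
  obtain ⟨eR⟩ := cotangent_linearEquiv n ψ hψ (π.comp φ) hπR
  obtain ⟨eT⟩ := cotangent_linearEquiv n (φ.comp ψ) hψT π hπT
  have hle : relLattice ψ ≤ relLattice (φ.comp ψ) := by
    rintro _ ⟨f, hf, rfl⟩
    refine ⟨f, ?_, rfl⟩
    have hf' : ψ f = 0 := hf
    show (φ.comp ψ) f = 0
    rw [AlgHom.comp_apply, hf', map_zero]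
  have hfinR : Finite ((Fin n → 𝒪) ⧸ relLattice ψ) := Finite.of_equiv _ eR.toEquiv
  obtain ⟨hfinT, hcardTR⟩ := card_quotient_le_of_le hle
  have := hfinT
  obtain ⟨b, hbN, hbspan, hbdet, hbcard⟩ :=
    H8.card_quotient_eq_card_det n (relLattice (φ.comp ψ))
  -- relations with linear parts `b`
  have hc : ∀ i, ∃ f ∈ RingHom.ker (φ.comp ψ), linPart n 𝒪 f = b i := fun i =>
    exists_mem_ker_linPart_eq _ (hbN i)
  choose c hcker hclin using hc
  have hdeteq : (Matrix.of fun i => linPart n 𝒪 (c i)) = Matrix.of b := by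
    ext i j
    rw [Matrix.of_apply, Matrix.of_apply, hclin]
  have hmem : (Matrix.of b).det ∈ eta π := by
    rw [← hdeteq]
    exact det_linPart_mem_eta hψT hπT c hcker
  have hspanle : Ideal.span {(Matrix.of b).det} ≤ eta π := by
    rw [Ideal.span_le, Set.singleton_subset_iff]
    exact hmem
  -- finiteness of `𝒪 / (det b)`
  have hpos : 0 < Nat.card ((Fin n → 𝒪) ⧸ relLattice (φ.comp ψ)) := Nat.card_pos
  have hfindet : Finite (𝒪 ⧸ Ideal.span {(Matrix.of b).det}) := by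
    apply Nat.finite_of_card_ne_zero
    rw [← hbcard]
    exact hpos.ne'
  obtain ⟨hfinη, hcardη⟩ := card_quotient_le_of_le (𝒪 := 𝒪) (M := 𝒪) hspanle
  -- the chain of inequalities
  have e1 : Nat.card (RingHom.ker (π.comp φ)).Cotangent
      = Nat.card ((Fin n → 𝒪) ⧸ relLattice ψ) := Nat.card_congr eR.toEquiv
  have e2 : Nat.card (RingHom.ker π).Cotangent
      = Nat.card ((Fin n → 𝒪) ⧸ relLattice (φ.comp ψ)) := Nat.card_congr eT.toEquiv
  have hη : eta π = Ideal.span {(Matrix.of b).det} := by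
    refine le_antisymm ?_ hspanle
    refine factor_injective_of_card_le (𝒪 := 𝒪) (M := 𝒪) hspanle ?_
    omega
  have hNle : relLattice (φ.comp ψ) ≤ relLattice ψ :=
    factor_injective_of_card_le hle (by omega)
  have hdet' : (Matrix.of fun i => linPart n 𝒪 (c i)).det ≠ 0 := by rw [hdeteq]; exact hbdet
  have hη' : eta π = Ideal.span {(Matrix.of fun i => linPart n 𝒪 (c i)).det} := by
    rw [hdeteq]; exact hη
  obtain ⟨g, hgker, hglin, hgspan⟩ := ci_lemma hREG hCORE hψT hπT c hcker hdet' hη'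
  -- relations of `R` with the same linear parts
  have hc' : ∀ i, ∃ f ∈ RingHom.ker ψ, linPart n 𝒪 f = b i := fun i =>
    exists_mem_ker_linPart_eq _ (hNle (hbN i))
  choose g' hg'ker hg'lin using hc'
  have hkerle : RingHom.ker ψ ≤ RingHom.ker (φ.comp ψ) := by
    intro f hf
    have hf' : ψ f = 0 := hf
    show (φ.comp ψ) f = 0
    rw [AlgHom.comp_apply, hf', map_zero]
  have hgg' : ∀ j, g j ∈ Ideal.span (Set.range g') := by
    intro j
    refine mem_span_of_linPart_eq g g' (fun i => ker_psi_le hπT (hgker i)) ?_ ?_ ?_ j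
    · have : (Matrix.of fun i => linPart n 𝒪 (g i)) = Matrix.of fun i => linPart n 𝒪 (c i) := by
        ext i j
        rw [Matrix.of_apply, Matrix.of_apply, hglin]
      rw [this]
      exact hdet'
    · intro i
      rw [← hgspan]
      exact hkerle (hg'ker i)
    · intro i
      rw [hg'lin, hglin, hclin]
  have hkerge : RingHom.ker (φ.comp ψ) ≤ RingHom.ker ψ := by
    rw [hgspan, Ideal.span_le]
    rintro _ ⟨j, rfl⟩
    have : Ideal.span (Set.range g') ≤ RingHom.ker ψ := by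
      rw [Ideal.span_le]
      rintro _ ⟨i, rfl⟩
      exact hg'ker i
    exact this (hgg' j)
  refine ⟨⟨?_, hφ⟩, ⟨g, hgspan⟩, ?_, ?_⟩
  · rw [injective_iff_map_eq_zero]
    intro r hr
    obtain ⟨f, rfl⟩ := hψ r
    have : f ∈ RingHom.ker (φ.comp ψ) := hr
    exact hkerge this
  · rw [e2, hbcard, hη]
  · omega

end nc1

end Fermat.Agent.S59.NumCrit.H90

end
-- ==== END Fermat.Agent.S59.NumCrit.H90_NC1

-- ==== BEGIN Fermat.Agent.S59.TRes.Defs3
section

/-!
# S59, leaf TRES (helper49): two more sub-leaves of `Stmt_TRESloc`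

* `Stmt_TORS` (pure group theory): `#X[p] = p²`, `S` a subgroup, `T ∈ S`, `P ∉ S` of order `p`:
  `P`, `T` are independent and generate `X[p]`, and `X[p] ∩ S = ⟨T⟩`.
* `Stmt_X0` (valuations): `e` a root of `ψ₂²` at the node (`|trB4 e| < 1`, `|c₄| = 1`, `|2| = 1`),
  `S` a set of valuation preserving endomorphisms fixing the coefficients, closed under
  composition: there is `x₀` fixed by `S` with `|x₀ - e| ≤ |trB4 e|`.
  (Every `σ ∈ S` has `σ e = e` or `σ e = e + δ` with `δ` THE nonzero root of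
  `4X² + trB2·X + 2·trB4` of absolute value `< 1`: `S05`-style, see
  `S52.H5.val_shift_root_odd_of_val`; `x₀ := e + δ/2`, or `e` if all `σ` fix `e`.)

No `sorry`; definitions only.
-/

set_option autoImplicit false

open WeierstrassCurve WeierstrassCurve.Affine

namespace Fermat.Agent.S59.TRes

open Fermat.Agent.S52.H5

/-- **TORS**: the structure of `X[p]` (`#X[p] = p²`) relative to a subgroup `S` containing a
nonzero `T ∈ X[p]` but not `P ∈ X[p]`. -/
def Stmt_TORS : Prop :=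
  ∀ (p : ℕ) [Fact p.Prime] (X : Type) [AddCommGroup X],
    Nat.card (Submodule.torsionBy ℤ X (p : ℤ)) = p ^ 2 →
  ∀ (S : AddSubgroup X) (P T : X), p • P = 0 → p • T = 0 → T ≠ 0 → T ∈ S → P ∉ S →
    (∀ a c : ℤ, a • P + c • T = 0 → (p : ℤ) ∣ a ∧ (p : ℤ) ∣ c) ∧
    (∀ Q : X, p • Q = 0 → ∃ a c : ℤ, Q = a • P + c • T) ∧
    (∀ Q : X, p • Q = 0 → Q ∈ S → ∃ c : ℤ, Q = c • T)

/-- **X0**: a point near the node fixed by all valuation preserving endomorphisms fixing the
coefficients. -/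
def Stmt_X0 : Prop :=
  ∀ (L : Type) [Field L] (A : ValuationSubring L) (E : Affine L),
    A.valuation (2 : L) = 1 → A.valuation E.c₄ = 1 →
  ∀ e : L, psi2sq E e = 0 → A.valuation (trB4 E e) < 1 →
  ∀ (S : Set (L →+* L)), (∀ σ ∈ S, ∀ τ ∈ S, σ.comp τ ∈ S) →
    (∀ σ ∈ S, (∀ x, A.valuation (σ x) = A.valuation x) ∧ σ E.a₁ = E.a₁ ∧ σ E.a₂ = E.a₂ ∧
      σ E.a₃ = E.a₃ ∧ σ E.a₄ = E.a₄ ∧ σ E.a₆ = E.a₆) →
    ∃ x₀ : L, (∀ σ ∈ S, σ x₀ = x₀) ∧ A.valuation (x₀ - e) ≤ A.valuation (trB4 E e)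

end Fermat.Agent.S59.TRes

end
-- ==== END Fermat.Agent.S59.TRes.Defs3

-- ==== BEGIN Fermat.Agent.S59.TRes.H49_Core
section

/-!
# S59, leaf TRES (helper49): CORE (K2-K4 of `NOTES/plan/S59_TRES.md`)

`stmt_CORE : Stmt_CORE`: the field-theoretic contradiction.  A bounded finite Galois extension
`L/ℚ_p` cannot contain a family `γ : ℤ/p → L` of distinct elements, permuted by translation
through an additive `ψ` on a normal subgroup `N ⊇ Gᵖ⁻¹` fixing `μ_p`, with
`‖γ 0‖^(p d) = p^(-M)`, `p ∤ M`, and `‖γ 1 - γ 0‖² R ≤ ‖γ 0‖²`, `p ≤ R^((p-1)/2)`.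
-/

set_option autoImplicit false

noncomputable section

namespace Fermat.Agent.S59.TRes.H49

open Fermat.Agent.S56.FL Fermat.Agent.Lib.LocalKummer

/-- Powers of real numbers whose powers are powers of `p`. -/
theorem pow_mul_pow_eq_zpow {p : ℕ} {A G : ℝ} {D d M i : ℕ} {e : ℤ} (hp0 : (p : ℝ) ≠ 0)
    (hA : A ^ D = (p : ℝ) ^ e) (hG : G ^ (p * d) = ((p : ℝ)⁻¹) ^ M) :
    (A * G ^ i) ^ (p * d * D) = (p : ℝ) ^ (e * ((p * d : ℕ) : ℤ) - ((M * i * D : ℕ) : ℤ)) := by
  have e1 : (A * G ^ i) ^ (p * d * D) = (A ^ D) ^ (p * d) * (G ^ (p * d)) ^ (i * D) := by ring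
  rw [e1, hA, hG, zpow_sub₀ hp0, ← zpow_natCast ((p : ℝ) ^ e), ← zpow_mul, zpow_natCast,
    div_eq_mul_inv, ← inv_pow, ← pow_mul]
  congr 2
  ring

variable {p : ℕ} [Fact p.Prime]

/-- The value-group obstruction: `‖g‖ ∉ |K^×|^{1/k}` for `0 < k < p`. -/
theorem norm_ne_of_tame {K : IntermediateField ℚ_[p] (PadicAlgCl p)} (hK : IsTameField p K)
    {g : PadicAlgCl p} {M d : ℕ} (hM : ¬ p ∣ M)
    (hg : ‖g‖ ^ (p * d) = ((p : ℝ)⁻¹) ^ M)
    {c₁ c₂ : PadicAlgCl p} (h₁ : c₁ ∈ K) (h₂ : c₂ ∈ K) (h₁0 : c₁ ≠ 0) (h₂0 : c₂ ≠ 0)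
    {i j : ℕ} (hij : i < j) (hj : j < p) : ‖c₁ * g ^ i‖ ≠ ‖c₂ * g ^ j‖ := by
  have hp : p.Prime := Fact.out
  have hp1 : (1 : ℝ) < p := by exact_mod_cast hp.one_lt
  have hp0 : (p : ℝ) ≠ 0 := by positivity
  obtain ⟨D, hD0, hpD, hval⟩ := hK
  obtain ⟨e₁, he₁⟩ := hval c₁ h₁ h₁0
  obtain ⟨e₂, he₂⟩ := hval c₂ h₂ h₂0
  intro heq
  rw [norm_mul, norm_mul, norm_pow, norm_pow] at heq
  have k1 := pow_mul_pow_eq_zpow (i := i) hp0 he₁ hg
  have k2 := pow_mul_pow_eq_zpow (i := j) hp0 he₂ hg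
  rw [heq, k2] at k1
  have k3 := zpow_right_injective₀ (by positivity : (0 : ℝ) < p) (ne_of_gt hp1) k1
  -- `M (j - i) D = (e₂ - e₁) p d`
  have k4 : ((M * (j - i) * D : ℕ) : ℤ) = (e₂ - e₁) * ((p * d : ℕ) : ℤ) := by
    have hji : ((j - i : ℕ) : ℤ) = (j : ℤ) - i := by
      rw [Nat.cast_sub hij.le]
    push_cast at k3 ⊢
    rw [hji]
    linear_combination -k3
  have k5 : (p : ℤ) ∣ ((M * (j - i) * D : ℕ) : ℤ) := by
    rw [k4]
    exact ⟨(e₂ - e₁) * d, by push_cast; ring⟩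
  have k6 : p ∣ M * (j - i) * D := by exact_mod_cast k5
  rcases (Nat.Prime.dvd_mul hp).1 k6 with h | h
  · rcases (Nat.Prime.dvd_mul hp).1 h with h | h
    · exact hM h
    · have := Nat.le_of_dvd (by omega) h
      omega
  · exact hpD h

/-- `ψ` is additive on powers. -/
theorem psi_pow {N : Subgroup (Gp p)} {ψ : Gp p → ZMod p}
    (hadd : ∀ n ∈ N, ∀ n' ∈ N, ψ (n * n') = ψ n + ψ n') {n : Gp p} (hn : n ∈ N) (t : ℕ) :
    ψ (n ^ t) = (t : ZMod p) * ψ n := by
  have h1 : ψ 1 = 0 := by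
    have := hadd 1 N.one_mem 1 N.one_mem
    rw [mul_one] at this
    exact left_eq_add.1 this
  induction t with
  | zero => simp [h1]
  | succ t ih =>
    rw [pow_succ, hadd _ (N.pow_mem hn t) _ hn, ih]
    push_cast
    ring

/-- CORE when `μ_p ⊆ L`. -/
theorem core_aux (hp2 : p ≠ 2) (L : IntermediateField ℚ_[p] (PadicAlgCl p))
    [FiniteDimensional ℚ_[p] L] (hNL : Normal ℚ_[p] L) (hbdd : IsBddField p L)
    (hμ : ∀ ζ : PadicAlgCl p, ζ ^ p = 1 → ζ ∈ L)
    (N : Subgroup (Gp p)) (hN : N.Normal) (hexp : ∀ g : Gp p, g ^ (p - 1) ∈ N)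
    (hNζ : ∀ n ∈ N, ∀ ζ : PadicAlgCl p, ζ ^ p = 1 → n ζ = ζ)
    (ψ : Gp p → ZMod p) (hadd : ∀ n ∈ N, ∀ n' ∈ N, ψ (n * n') = ψ n + ψ n')
    (hL : ∀ n ∈ N, n ∈ L.fixingSubgroup → ψ n = 0)
    (γ : ZMod p → PadicAlgCl p) (hγ : Function.Injective γ) (hγL : ∀ i, γ i ∈ L)
    (hperm : ∀ n ∈ N, ∀ i, n (γ i) = γ (i + ψ n))
    (M d : ℕ) (hd : 0 < d) (hM : ¬ p ∣ M) (hg : ‖γ 0‖ ^ (p * d) = ((p : ℝ)⁻¹) ^ M)
    (R : ℝ) (hR : 1 < R) (hRp : (p : ℝ) ≤ R ^ ((p - 1) / 2))
    (hstep : ‖γ 1 - γ 0‖ ^ 2 * R ≤ ‖γ 0‖ ^ 2) : False := by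
  classical
  have hp : p.Prime := Fact.out
  have hp1 : (1 : ℝ) < p := by exact_mod_cast hp.one_lt
  have hppos : (0 : ℝ) < p := by positivity
  have := hNL
  obtain ⟨ζ, hζ1, hζp⟩ := H15.exists_zeta (p := p)
  have hζ : IsPrimitiveRoot ζ p := by
    rw [IsPrimitiveRoot.iff_orderOf]
    exact orderOf_eq_prime hζp hζ1
  have hm : ¬ p ∣ (p - 1) := by
    intro h
    have h2 := hp.two_le
    have := Nat.le_of_dvd (by omega) h
    omega
  obtain ⟨α, hα, hαp⟩ := H15.exists_wit_bdd hp2 hbdd hN hm hexp hζ (hμ ζ hζp)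
    (fun n hn => hNζ n hn ζ hζp) ψ hadd hL
  have htame : IsTameField p (H15.kField L N) := H15.isTame_kField hN hm hexp
  -- `‖α‖ = 1`
  have hα1 : ‖α‖ = 1 := by
    have h1 : ‖α ^ p - 1‖ < ‖(1 : PadicAlgCl p)‖ := by
      rw [norm_one]
      exact lt_of_le_of_lt hαp (inv_lt_one_of_one_lt₀ hp1)
    have h2 : ‖α ^ p‖ = 1 := by
      have e : α ^ p = (α ^ p - 1) + 1 := by ring
      rw [e, H15.norm_add_eq_right h1, norm_one]
    rw [norm_pow] at h2
    exact (pow_eq_one_iff_of_nonneg (norm_nonneg _) hp.ne_zero).mp h2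
  -- `g = γ 0 ≠ 0`
  have hgne : γ 0 ≠ 0 := by
    intro h
    rw [h, norm_zero, zero_pow (Nat.mul_ne_zero hp.ne_zero hd.ne')] at hg
    have : ((p : ℝ)⁻¹) ^ M ≠ 0 := by positivity
    exact this hg.symm
  -- `ψ ≠ 0` on `N`
  have hψ : ∃ n ∈ N, ψ n ≠ 0 := by
    by_contra hcon
    have hcon : ∀ n ∈ N, ψ n = 0 := fun n hn => by
      by_contra h
      exact hcon ⟨n, hn, h⟩
    have hgK : γ 0 ∈ H15.kField L N :=
      H15.mem_kField.mpr ⟨hγL 0, fun n hn => by rw [hperm n hn 0, hcon n hn, add_zero]⟩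
    have h1K : (1 : PadicAlgCl p) ∈ H15.kField L N := one_mem _
    refine norm_ne_of_tame htame hM hg hgK h1K hgne one_ne_zero (i := 0) (j := 1)
      Nat.zero_lt_one hp.one_lt ?_
    rw [pow_zero, mul_one, pow_one, one_mul]
  obtain ⟨n₀, hn₀, hψn₀⟩ := hψ
  -- `σ₀ ∈ N` with `ψ σ₀ = 1`
  obtain ⟨σ₀, hσ₀N, hψσ₀⟩ : ∃ σ₀ ∈ N, ψ σ₀ = 1 := by
    refine ⟨n₀ ^ ((ψ n₀)⁻¹).val, N.pow_mem hn₀ _, ?_⟩
    rw [psi_pow hadd hn₀, ZMod.natCast_zmod_val, inv_mul_cancel₀ hψn₀]
  -- interpolation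
  set v : ZMod p → PadicAlgCl p := fun i => zpowZ ζ i * α with hv
  have hvL : ∀ i, v i ∈ L := fun i => by
    rw [hv]
    exact mul_mem (by unfold zpowZ; exact pow_mem (hμ ζ hζp) _) hα.mem
  have hvN : ∀ n ∈ N, ∀ i, n (v i) = v (i + ψ n) := by
    intro n hn i
    simp only [hv]
    rw [map_mul, hα.map hn, zpowZ_add hζp, mul_assoc]
    congr 1
    unfold zpowZ
    rw [map_pow, hNζ n hn ζ hζp]
  set c : ℕ → PadicAlgCl p := fun k => (Lagrange.interpolate Finset.univ γ v).coeff k with hc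
  have hcN : ∀ n ∈ N, ∀ k, n (c k) = c k := by
    intro n hn k
    exact coeff_interp_fixed γ v hγ ((n : PadicAlgCl p ≃ₐ[ℚ_[p]] PadicAlgCl p) :
      PadicAlgCl p →+* PadicAlgCl p) (fun i => i + ψ n)
      (fun j => ⟨j - ψ n, sub_add_cancel j (ψ n)⟩) (fun i => hperm n hn i) (fun i => hvN n hn i) k
  have hcL : ∀ k, c k ∈ L := by
    intro k
    apply H38.mem_of_fixed_by_fixingSubgroup
    intro σ hσ
    rw [IntermediateField.mem_fixingSubgroup_iff] at hσ
    exact coeff_interp_fixed γ v hγ ((σ : PadicAlgCl p ≃ₐ[ℚ_[p]] PadicAlgCl p) :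
      PadicAlgCl p →+* PadicAlgCl p) id Function.surjective_id
      (fun i => hσ _ (hγL i)) (fun i => hσ _ (hvL i)) k
  have hcK : ∀ k, c k ∈ H15.kField L N :=
    fun k => H15.mem_kField.mpr ⟨hcL k, fun n hn => hcN n hn k⟩
  have hαsum : α = ∑ k ∈ Finset.range p, c k * γ 0 ^ k := by
    have h := interp_eval_eq_sum γ v hγ 0
    rw [ZMod.card] at h
    have hv0 : v 0 = α := by
      simp only [hv]
      rw [zpowZ_zero, one_mul]
    rw [hv0] at h
    exact h
  -- orthogonality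
  have horth : ∀ i ∈ Finset.range p, ∀ j ∈ Finset.range p, i ≠ j → c i * γ 0 ^ i ≠ 0 →
      c j * γ 0 ^ j ≠ 0 → ‖c i * γ 0 ^ i‖ ≠ ‖c j * γ 0 ^ j‖ := by
    intro i hi j hj hij hi0 hj0
    have hci : c i ≠ 0 := left_ne_zero_of_mul hi0
    have hcj : c j ≠ 0 := left_ne_zero_of_mul hj0
    rcases lt_or_gt_of_ne hij with h | h
    · exact norm_ne_of_tame htame hM hg (hcK i) (hcK j) hci hcj h (Finset.mem_range.1 hj)
    · exact (norm_ne_of_tame htame hM hg (hcK j) (hcK i) hcj hci h (Finset.mem_range.1 hi)).symm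
  have hfrac : ∀ k ∈ Finset.range p, 0 < k → ‖c k * γ 0 ^ k‖ ≠ 1 := by
    intro k hk hk0
    by_cases hck : c k = 0
    · rw [hck, zero_mul, norm_zero]
      exact zero_ne_one
    · have h1K : (1 : PadicAlgCl p) ∈ H15.kField L N := one_mem _
      have := norm_ne_of_tame htame hM hg h1K (hcK k) one_ne_zero hck hk0 (Finset.mem_range.1 hk)
      rw [pow_zero, mul_one, norm_one] at this
      exact this.symm
  -- the contraction constant
  have hR0 : 0 < R := by linarith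
  set ρ : ℝ := (Real.sqrt R)⁻¹ with hρdef
  have hsq : 0 < Real.sqrt R := Real.sqrt_pos.2 hR0
  have hρ : 0 < ρ := inv_pos.2 hsq
  have hρ2 : ρ ^ 2 = R⁻¹ := by
    rw [hρdef, inv_pow, Real.sq_sqrt hR0.le]
  have hstep' : ‖(σ₀ : PadicAlgCl p →+* PadicAlgCl p) (γ 0) - γ 0‖ ≤ ρ * ‖γ 0‖ := by
    have e : (σ₀ : PadicAlgCl p →+* PadicAlgCl p) (γ 0) = γ 1 := by
      have := hperm σ₀ hσ₀N 0
      rw [hψσ₀, zero_add] at this
      exact this
    rw [e, ← pow_le_pow_iff_left₀ (norm_nonneg _) (mul_nonneg hρ.le (norm_nonneg _)) two_ne_zero,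
      mul_pow, hρ2, inv_mul_eq_div, le_div_iff₀ hR0]
    exact hstep
  have hcontr := contraction (σ₀ : PadicAlgCl p →+* PadicAlgCl p) (fun x => norm_gal p σ₀ x) p c
    (fun k => hcN σ₀ hσ₀N k) (γ 0) α hαsum hα1 horth hfrac hρ hstep'
  -- `σ₀ α - α = (ζ - 1) α`
  have hσα : (σ₀ : PadicAlgCl p →+* PadicAlgCl p) α = ζ * α := by
    have := hα.map hσ₀N
    rw [hψσ₀] at this
    have h1 : zpowZ ζ (1 : ZMod p) = ζ := by
      have := zpowZ_natCast (ℓ := p) hζp 1
      rwa [Nat.cast_one, pow_one] at this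
    rw [h1] at this
    exact this
  have hnorm : ‖(σ₀ : PadicAlgCl p →+* PadicAlgCl p) α - α‖ = ‖ζ - 1‖ := by
    rw [hσα, ← sub_one_mul, norm_mul, hα1, mul_one]
  have hz := H15.norm_zeta_sub_one hζ1 hζp
  have hodd : p - 1 = 2 * ((p - 1) / 2) := by
    rcases hp.eq_two_or_odd with h | h
    · exact absurd h hp2
    · omega
  have hρp : ρ ^ (p - 1) ≤ (p : ℝ)⁻¹ := by
    rw [hodd, pow_mul, hρ2, inv_pow]
    exact inv_anti₀ hppos hRp
  have hle : ρ ≤ ‖ζ - 1‖ := by
    rw [← hz] at hρp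
    have h2 := hp.two_le
    exact (pow_le_pow_iff_left₀ hρ.le (norm_nonneg _) (by omega : p - 1 ≠ 0)).1 hρp
  rw [hnorm] at hcontr
  linarith

/-- **CORE**. -/
theorem stmt_CORE : Stmt_CORE := by
  intro p _ hp2 L _ hNL hbdd N hN hexp hNζ ψ hadd hL γ hγ hγL hperm M d hd hM hg R hR hRp hstep
  have := hNL
  have : Normal ℚ_[p] (H15.cycloField p) := H15.normal_cycloField
  refine core_aux hp2 (L ⊔ H15.cycloField p) inferInstance
    (H15.isBdd_sup hp2 hNL H15.normal_cycloField hbdd H15.isBdd_cycloField)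
    (fun ζ hζ => (le_sup_right : H15.cycloField p ≤ L ⊔ H15.cycloField p)
      (H15.mem_cycloField_of_pow_eq_one hζ))
    N hN hexp hNζ ψ hadd ?_ γ hγ (fun i => (le_sup_left : L ≤ L ⊔ H15.cycloField p) (hγL i))
    hperm M d hd hM hg R hR hRp hstep
  intro n hn hfix
  refine hL n hn ?_
  rw [IntermediateField.mem_fixingSubgroup_iff] at hfix ⊢
  exact fun x hx => hfix x ((le_sup_left : L ≤ L ⊔ H15.cycloField p) hx)

end Fermat.Agent.S59.TRes.H49

end

end
-- ==== END Fermat.Agent.S59.TRes.H49_Core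

-- ==== BEGIN Fermat.Agent.S59.TRes.H77_Grp
section

set_option autoImplicit false

namespace Fermat.Agent.S59.TRes.H77

section

variable {p : ℕ} [hp : Fact p.Prime] {G : Type} [Group G] {X : Type} [AddCommGroup X]
  (act : G →* AddMonoid.End X) (T P : X)

/-- multiples of an element killed by `p` only depend on the class modulo `p` -/
theorem zsmul_congr_of_cast_eq {Y : X} (hY : p • Y = 0) {a a' : ℤ}
    (h : (a : ZMod p) = (a' : ZMod p)) : a • Y = a' • Y := by
  have h1 : (p : ℤ) ∣ a - a' := by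
    rw [← ZMod.intCast_zmod_eq_zero_iff_dvd]
    push_cast
    rw [h, sub_self]
  obtain ⟨k, hk⟩ := h1
  have h2 : a = a' + k * p := by linarith
  rw [h2, add_smul, mul_smul, natCast_zsmul, hY, smul_zero, add_zero]

variable {T P}

/-- uniqueness of the coordinates -/
theorem cast_eq_of_comb_eq
    (hind : ∀ a c : ℤ, a • P + c • T = 0 → (p : ℤ) ∣ a ∧ (p : ℤ) ∣ c)
    {a c a' c' : ℤ} (h : a • P + c • T = a' • P + c' • T) :
    (a : ZMod p) = (a' : ZMod p) ∧ (c : ZMod p) = (c' : ZMod p) := by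
  have h1 : (a - a') • P + (c - c') • T = 0 := by
    rw [sub_smul, sub_smul]
    have : a • P - a' • P + (c • T - c' • T) = (a • P + c • T) - (a' • P + c' • T) := by abel
    rw [this, h, sub_self]
  obtain ⟨h2, h3⟩ := hind _ _ h1
  rw [← ZMod.intCast_zmod_eq_zero_iff_dvd] at h2 h3
  push_cast at h2 h3
  exact ⟨sub_eq_zero.1 h2, sub_eq_zero.1 h3⟩

theorem act_inv_act (g : G) (x : X) : act g⁻¹ (act g x) = x := by
  have h : act (g⁻¹ * g) x = x := by rw [inv_mul_cancel, map_one]; rfl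
  rwa [map_mul] at h

theorem act_act_inv (g : G) (x : X) : act g (act g⁻¹ x) = x := by
  have h := act_inv_act act g⁻¹ x
  rwa [inv_inv] at h

theorem act_zsmul (g : G) (a : ℤ) (x : X) : act g (a • x) = a • act g x :=
  map_zsmul (act g) a x

/-- the subgroup `N` -/
def grpN (act : G →* AddMonoid.End X) (T P : X) : Subgroup G where
  carrier := {g | act g T = T ∧ ∃ c : ℤ, act g P = P + c • T}
  one_mem' := ⟨by rw [map_one]; rfl, 0, by rw [map_one, zero_smul, add_zero]; rfl⟩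
  mul_mem' := by
    rintro g g' ⟨hg, c, hc⟩ ⟨hg', c', hc'⟩
    refine ⟨?_, c + c', ?_⟩
    · rw [map_mul]
      show act g (act g' T) = T
      rw [hg', hg]
    · rw [map_mul]
      show act g (act g' P) = _
      rw [hc', map_add, act_zsmul, hg, hc, add_smul, add_assoc]
  inv_mem' := by
    rintro g ⟨hg, c, hc⟩
    have h1 : act g⁻¹ T = T := by
      have := act_inv_act act g T
      rwa [hg] at this
    refine ⟨h1, -c, ?_⟩
    have h2 := act_inv_act act g P
    rw [hc, map_add, act_zsmul, h1] at h2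
    rw [neg_smul, ← sub_eq_add_neg, eq_sub_iff_add_eq]
    exact h2

theorem mem_grpN {g : G} :
    g ∈ grpN act T P ↔ act g T = T ∧ ∃ c : ℤ, act g P = P + c • T := Iff.rfl

end

/-- **GRP** (K1). -/
theorem stmt_GRP : Stmt_GRP := by
  classical
  intro p hp G _ X _ act T P hT hP hind hgT hgP
  have hpp : p.Prime := hp.out
  -- `T ≠ 0`, `P ∉ ⟨T⟩`
  have h1not : ¬ (p : ℤ) ∣ 1 := by
    intro h
    have := Int.eq_one_of_dvd_one (Int.natCast_nonneg p) h
    have h2 : p = 1 := by exact_mod_cast this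
    exact hpp.one_lt.ne' h2
  have hPT : ∀ c : ℤ, P ≠ c • T := by
    intro c h
    have h2 : (1 : ℤ) • P + (-c) • T = 0 := by
      rw [one_smul, neg_smul, ← h, add_neg_cancel]
    exact h1not (hind _ _ h2).1
  have hT0 : T ≠ 0 := by
    intro h
    have h2 : (0 : ℤ) • P + (1 : ℤ) • T = 0 := by rw [zero_smul, one_smul, h, add_zero]
    exact h1not (hind _ _ h2).2
  -- the diagonal coefficients are units modulo `p`
  have hdiagT : ∀ g, ∃ a : ℤ, act g T = a • T ∧ (a : ZMod p) ≠ 0 := by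
    intro g
    obtain ⟨a, ha⟩ := hgT g
    refine ⟨a, ha, fun h0 => hT0 ?_⟩
    have h2 : a • T = (0 : ℤ) • T := zsmul_congr_of_cast_eq hT (by rw [h0]; simp)
    rw [zero_smul] at h2
    have h3 := act_inv_act act g T
    rw [ha, h2, map_zero] at h3
    exact h3.symm
  have hdiagP : ∀ g, ∃ a c : ℤ, act g P = a • P + c • T ∧ (a : ZMod p) ≠ 0 := by
    intro g
    obtain ⟨a, c, hac⟩ := hgP g
    refine ⟨a, c, hac, fun h0 => ?_⟩
    have h2 : a • P = (0 : ℤ) • P := zsmul_congr_of_cast_eq hP (by rw [h0]; simp)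
    rw [zero_smul] at h2
    obtain ⟨a', ha'⟩ := hgT g⁻¹
    have h3 := act_inv_act act g P
    rw [hac, h2, zero_add, act_zsmul, ha', ← mul_smul] at h3
    exact hPT _ h3.symm
  -- powers
  have hpow : ∀ (g : G) (a b c : ℤ), act g T = a • T → act g P = b • P + c • T →
      ∀ k : ℕ, act (g ^ k) T = (a ^ k) • T ∧ ∃ c' : ℤ, act (g ^ k) P = (b ^ k) • P + c' • T := by
    intro g a b c ha hb k
    induction k with
    | zero =>
      refine ⟨by rw [pow_zero, map_one, pow_zero, one_smul]; rfl, 0, ?_⟩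
      rw [pow_zero, map_one, pow_zero, one_smul, zero_smul, add_zero]
      rfl
    | succ k ih =>
      obtain ⟨ih1, c', ih2⟩ := ih
      refine ⟨?_, b * c' + c * a ^ k, ?_⟩
      · rw [pow_succ, map_mul]
        show act (g ^ k) (act g T) = _
        rw [ha, act_zsmul, ih1, ← mul_smul, pow_succ, mul_comm]
      · rw [pow_succ, map_mul]
        show act (g ^ k) (act g P) = _
        rw [hb, map_add, act_zsmul, act_zsmul, ih2, ih1, smul_add, ← mul_smul, ← mul_smul,
          ← mul_smul, add_smul, pow_succ, mul_comm (b ^ k) b, add_assoc]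
  -- the subgroup and the map
  have hNpow : ∀ g : G, g ^ (p - 1) ∈ grpN act T P := by
    intro g
    obtain ⟨a, ha, ha0⟩ := hdiagT g
    obtain ⟨b, c, hb, hb0⟩ := hdiagP g
    obtain ⟨h1, c', h2⟩ := hpow g a b c ha hb (p - 1)
    have ea : ((a ^ (p - 1) : ℤ) : ZMod p) = ((1 : ℤ) : ZMod p) := by
      push_cast
      exact ZMod.pow_card_sub_one_eq_one ha0
    have eb : ((b ^ (p - 1) : ℤ) : ZMod p) = ((1 : ℤ) : ZMod p) := by
      push_cast
      exact ZMod.pow_card_sub_one_eq_one hb0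
    refine ⟨?_, c', ?_⟩
    · rw [h1, zsmul_congr_of_cast_eq hT ea, one_smul]
    · rw [h2, zsmul_congr_of_cast_eq hP eb, one_smul]
  have hNnormal : (grpN act T P).Normal := by
    refine ⟨fun n hn g => ?_⟩
    obtain ⟨hnT, c, hnP⟩ := hn
    obtain ⟨a', ha'⟩ := hgT g⁻¹
    obtain ⟨b', c', hb'⟩ := hgP g⁻¹
    obtain ⟨a, ha⟩ := hgT g
    refine ⟨?_, b' * c * a, ?_⟩
    · rw [map_mul, map_mul]
      show act g (act n (act g⁻¹ T)) = T
      rw [ha', act_zsmul, hnT, ← ha']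
      exact act_act_inv act g T
    · rw [map_mul, map_mul]
      show act g (act n (act g⁻¹ P)) = _
      have e1 : act n (act g⁻¹ P) = act g⁻¹ P + (b' * c) • T := by
        rw [hb', map_add, act_zsmul, act_zsmul, hnT, hnP, smul_add, mul_smul]
        abel
      rw [e1, map_add, act_act_inv, act_zsmul, ha, ← mul_smul]
  -- the map `ψ`
  let ψ : G → ZMod p := fun g =>
    if h : ∃ c : ℤ, act g P = P + c • T then ((Classical.choose h : ℤ) : ZMod p) else 0
  have hψ : ∀ (g : G) (c : ℤ), act g P = P + c • T → ψ g = (c : ZMod p) := by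
    intro g c hc
    have h : ∃ c : ℤ, act g P = P + c • T := ⟨c, hc⟩
    have h1 : ψ g = ((Classical.choose h : ℤ) : ZMod p) := dif_pos h
    rw [h1]
    have h2 := Classical.choose_spec h
    have h3 : (1 : ℤ) • P + (Classical.choose h) • T = (1 : ℤ) • P + c • T := by
      rw [one_smul, ← h2, hc]
    exact (cast_eq_of_comb_eq hind h3).2
  refine ⟨grpN act T P, ψ, hNnormal, hNpow, ?_, ?_, ?_, ?_⟩
  · rintro n ⟨hnT, c, hc⟩ n' ⟨hn'T, c', hc'⟩
    have h1 : act (n * n') P = P + (c + c') • T := by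
      rw [map_mul]
      show act n (act n' P) = _
      rw [hc', map_add, act_zsmul, hnT, hc, add_smul, add_assoc]
    rw [hψ _ _ h1, hψ _ _ hc, hψ _ _ hc']
    push_cast
    rfl
  · rintro n ⟨hnT, -⟩
    exact hnT
  · rintro n ⟨hnT, c, hc⟩
    rw [hc, hψ _ _ hc, ← natCast_zsmul]
    congr 1
    apply zsmul_congr_of_cast_eq hT
    push_cast
    rw [ZMod.natCast_val, ZMod.cast_id', id]
  · rintro n ⟨hnT, c, hc⟩ hnP
    rw [hψ _ _ hc]
    have h1 : (0 : ℤ) • P + c • T = 0 := by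
      rw [zero_smul, zero_add]
      rw [hnP] at hc
      exact (left_eq_add.1 hc)
    have h2 := (hind _ _ h1).2
    rwa [← ZMod.intCast_zmod_eq_zero_iff_dvd] at h2

end Fermat.Agent.S59.TRes.H77

end
-- ==== END Fermat.Agent.S59.TRes.H77_Grp

-- ==== BEGIN Fermat.Agent.S59.TRes.H77_Small
section

set_option autoImplicit false

open WeierstrassCurve WeierstrassCurve.Affine

namespace Fermat.Agent.S59.TRes.H77

open Fermat.Agent.S05 Fermat.Agent.S05.M1

/-- **SMALL** (E1). -/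
theorem stmt_SMALL : Stmt_SMALL := by
  classical
  intro L _ _ _ _ A p hp hp2 hpv W hyp hb hΔ
  obtain ⟨x, y, h, hpP, hx1⟩ := Fermat.Agent.Tate.T6.H97.stmt_ROOT L A p hp hp2 hpv W hyp hb hΔ
  obtain ⟨β, hβ⟩ : ∃ β : L, β ^ 2 = W.a₂ := IsAlgClosed.exists_pow_nat_eq _ (by norm_num)
  let φ : W.Point →+ Additive (CompGroup hyp) :=
    AddMonoidHom.mk' (M1.compMap hyp β) (M1.compMap_add hyp H6.M1_E0E0 H6.M1_E0Cp hb hβ)
  have hφ : ∀ Q, φ Q = M1.compMap hyp β Q := fun _ => rfl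
  have hφP : p • φ (Point.some x y h) = 0 := by
    rw [← map_nsmul, hpP, map_zero]
  have hodd : Odd p := hp.odd_of_ne_two hp2
  -- the class of `|b|` is not killed by `p`
  have hclsb : p • cls hyp (bUnit hyp) ≠ 0 := by
    obtain ⟨k, hk⟩ := hodd
    intro h0
    rw [hk, add_smul, one_smul, mul_comm, mul_smul, two_smul, cls_b_add_cls_b, nsmul_zero,
      zero_add] at h0
    exact cls_b_ne_zero hyp hb h0
  -- `|b| < |x|`
  have hxb : A.valuation W.a₄ < A.valuation x := by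
    by_contra hcon
    rw [not_lt] at hcon
    rw [hφ, compMap_of_le_b hyp β hb h hcon] at hφP
    exact hclsb hφP
  have hx0 : x ≠ 0 := by
    rintro rfl
    rw [map_zero] at hxb
    exact absurd hxb (not_lt.2 zero_le)
  -- `p • cls |x| = 0`
  have hcls : p • cls hyp (valUnit A x hx0) = 0 := by
    by_cases ht : A.valuation (y - β * x) < A.valuation x
    · rw [hφ, compMap_of_Cp hyp β h hx0 hxb hx1 ht] at hφP
      exact hφP
    · rw [hφ, compMap_of_not_Cp hyp β h hx0 hxb hx1 ht, neg_nsmul, neg_eq_zero] at hφP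
      exact hφP
  have hmem : (valUnit A x hx0) ^ p ∈ Subgroup.zpowers (bUnit hyp ^ 2) := by
    rw [← cls_eq_zero_iff]
    exact hcls
  obtain ⟨k, hk⟩ := Subgroup.mem_zpowers_iff.1 hmem
  have hk' : A.valuation W.a₄ ^ (2 * k) = A.valuation x ^ p := by
    have h1 := congrArg (fun u : (A.ValueGroup)ˣ => (u : A.ValueGroup)) hk
    simp only [Units.val_zpow_eq_zpow_val, Units.val_pow_eq_pow_val, val_bUnit, val_valUnit] at h1
    rw [← h1, zpow_mul, zpow_ofNat]
  have hb0 : (0 : A.ValueGroup) < A.valuation W.a₄ := zero_lt_iff.2 (by simpa using hyp.b_ne)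
  have hp0 : p ≠ 0 := hp.ne_zero
  have hlt1 : A.valuation x ^ p < 1 := pow_lt_one₀ zero_le hx1 hp0
  have hgt : A.valuation W.a₄ ^ p < A.valuation x ^ p := pow_lt_pow_left₀ hxb zero_le hp0
  have hkpos : 0 < 2 * k := by
    by_contra hcon
    rw [not_lt] at hcon
    have := one_le_zpow_of_nonpos₀ hb0 hb.le hcon
    rw [hk'] at this
    exact absurd hlt1 (not_lt.2 this)
  have hklt : 2 * k < p := by
    by_contra hcon
    rw [not_lt] at hcon
    have := zpow_le_zpow_right_of_le_one₀ hb0 hb.le hcon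
    rw [hk', zpow_natCast] at this
    exact absurd hgt (not_lt.2 this)
  refine ⟨x, y, h, (2 * k).toNat, hpP, hxb, hx1, ?_, ?_, ?_⟩
  · omega
  · omega
  · rw [← hk', ← zpow_natCast, Int.toNat_of_nonneg hkpos.le]

end Fermat.Agent.S59.TRes.H77

end
-- ==== END Fermat.Agent.S59.TRes.H77_Small

-- ==== BEGIN Fermat.Agent.S59.TRes.H8_AddEst
section

set_option autoImplicit false

open WeierstrassCurve WeierstrassCurve.Affine

namespace Fermat.Agent.S59.TRes.H8

open Fermat.Agent.S05 (ModelHyp)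

section

variable {L : Type} [Field L] {A : ValuationSubring L}

/-- In a linearly ordered commutative group with zero: `a² < b²` implies `a < b`. -/
theorem lt_of_sq_lt_sq {Γ : Type*} [LinearOrderedCommGroupWithZero Γ] {a b : Γ}
    (h : a ^ 2 < b ^ 2) : a < b := by
  by_contra hle
  rw [not_lt] at hle
  have h1 : b ^ 2 ≤ a ^ 2 := pow_le_pow_left' hle 2
  exact absurd h (not_lt.2 h1)

/-- The equation of the model. -/
theorem model_eq {W : Affine L} (hyp : ModelHyp A W) {x y : L} (h : W.Nonsingular x y) :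
    y ^ 2 = x ^ 3 + W.a₂ * x ^ 2 + W.a₄ * x := by
  have h1 := (W.equation_iff x y).1 h.1
  rw [hyp.a₁, hyp.a₃, hyp.a₆] at h1
  linear_combination h1

/-- `|y|² = |x|²` on the annulus `|b| < |x| < 1`. -/
theorem val_y_sq_small {W : Affine L} (hyp : ModelHyp A W) (hb : A.valuation W.a₄ < 1)
    {x y : L} (h : W.Nonsingular x y) (hbx : A.valuation W.a₄ < A.valuation x)
    (hx1 : A.valuation x < 1) : A.valuation y ^ 2 = A.valuation x ^ 2 := by
  have hx0 : A.valuation x ≠ 0 := fun h0 => by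
    rw [h0] at hbx
    exact absurd hbx (not_lt.2 zero_le)
  have hxpos : 0 < A.valuation x := zero_lt_iff.2 hx0
  have va : A.valuation W.a₂ = 1 := Fermat.Agent.S05.M1.val_a hyp hb
  have e := model_eq hyp h
  have e' : y ^ 2 = W.a₂ * x ^ 2 + (x ^ 3 + W.a₄ * x) := by rw [e]; ring
  have h1 : A.valuation (W.a₂ * x ^ 2) = A.valuation x ^ 2 := by
    rw [map_mul, va, one_mul, map_pow]
  have h2 : A.valuation (x ^ 3) < A.valuation x ^ 2 := by
    rw [map_pow, pow_succ (A.valuation x) 2]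
    calc A.valuation x ^ 2 * A.valuation x < A.valuation x ^ 2 * 1 :=
          mul_lt_mul_of_pos_left hx1 (pow_pos hxpos 2)
      _ = A.valuation x ^ 2 := mul_one _
  have h3 : A.valuation (W.a₄ * x) < A.valuation x ^ 2 := by
    rw [map_mul, pow_two]
    exact mul_lt_mul_of_pos_right hbx hxpos
  have h4 : A.valuation (x ^ 3 + W.a₄ * x) < A.valuation (W.a₂ * x ^ 2) := by
    rw [h1]
    exact lt_of_le_of_lt (A.valuation.map_add _ _) (max_lt h2 h3)
  rw [← map_pow, e', Valuation.map_add_eq_of_lt_left _ h4, h1]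

/-- `|y|² = |x|³` for `|x| > 1`. -/
theorem val_y_sq_big {W : Affine L} (hyp : ModelHyp A W)
    {x y : L} (h : W.Nonsingular x y) (hx1 : 1 < A.valuation x) :
    A.valuation y ^ 2 = A.valuation x ^ 3 := by
  have hxpos : 0 < A.valuation x := lt_trans zero_lt_one hx1
  have e := model_eq hyp h
  have h2 : A.valuation (W.a₂ * x ^ 2) < A.valuation x ^ 3 := by
    rw [map_mul, map_pow, pow_succ (A.valuation x) 2, mul_comm]
    calc A.valuation x ^ 2 * A.valuation W.a₂ ≤ A.valuation x ^ 2 * 1 :=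
          mul_le_mul_right hyp.a_le _
      _ < A.valuation x ^ 2 * A.valuation x := mul_lt_mul_of_pos_left hx1 (pow_pos hxpos 2)
  have h3 : A.valuation (W.a₄ * x) < A.valuation x ^ 3 := by
    rw [map_mul]
    calc A.valuation W.a₄ * A.valuation x ≤ 1 * A.valuation x := mul_le_mul_left hyp.b_le _
      _ = A.valuation x ^ 1 := by rw [one_mul, pow_one]
      _ < A.valuation x ^ 3 := pow_lt_pow_right₀ hx1 (by norm_num)
  have e' : y ^ 2 = x ^ 3 + (W.a₂ * x ^ 2 + W.a₄ * x) := by rw [e]; ring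
  have h4 : A.valuation (W.a₂ * x ^ 2 + W.a₄ * x) < A.valuation (x ^ 3) := by
    rw [map_pow]
    exact lt_of_le_of_lt (A.valuation.map_add _ _) (max_lt h2 h3)
  rw [← map_pow, e', Valuation.map_add_eq_of_lt_left _ h4, map_pow]

end

/-- **ADDEST** (E3). -/
theorem stmt_ADDEST : Stmt_ADDEST := by
  intro L _ _ A W hyp hb x₁ y₁ x₂ y₂ h₁ h₂ hbx hx1 hx2
  have hne : x₁ ≠ x₂ := by
    intro h
    rw [h] at hx1
    exact lt_asymm hx1 hx2
  have hx1ne : A.valuation x₁ ≠ 0 := fun h0 => by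
    rw [h0] at hbx
    exact absurd hbx (not_lt.2 zero_le)
  have hx1pos : 0 < A.valuation x₁ := zero_lt_iff.2 hx1ne
  have hx2pos : 0 < A.valuation x₂ := lt_trans zero_lt_one hx2
  have hx2ne : A.valuation x₂ ≠ 0 := ne_of_gt hx2pos
  have va : A.valuation W.a₂ = 1 := Fermat.Agent.S05.M1.val_a hyp hb
  refine ⟨_, _, _, Point.add_of_X_ne (h₁ := h₁) (h₂ := h₂) hne, ?_⟩
  rw [slope_of_X_ne hne]
  have e₁ := model_eq hyp h₁
  have e₂ := model_eq hyp h₂
  have hD : x₁ - x₂ ≠ 0 := sub_ne_zero.2 hne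
  -- the identity
  have hℓ : (x₂ - x₁) ^ 2 * ((y₁ - y₂) / (x₁ - x₂)) ^ 2 = (y₁ - y₂) ^ 2 := by
    field_simp
    ring
  have hid : (x₂ - x₁) ^ 2 * (W.addX x₁ x₂ ((y₁ - y₂) / (x₁ - x₂)) - x₁) =
      (-x₁ ^ 3 + 3 * x₁ ^ 2 * x₂ + 2 * W.a₂ * x₁ * x₂ + W.a₄ * (x₁ + x₂)) + (-(2 * y₁ * y₂)) := by
    rw [addX, hyp.a₁]
    linear_combination hℓ + e₁ + e₂
  -- sizes
  have hy1 := val_y_sq_small hyp hb h₁ hbx hx1
  have hy2 := val_y_sq_big hyp h₂ hx2
  have hT2 : A.valuation (-(2 * y₁ * y₂)) ^ 2 = A.valuation x₁ ^ 2 * A.valuation x₂ ^ 3 := by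
    rw [Valuation.map_neg, map_mul, map_mul, hyp.two, one_mul, mul_pow, hy1, hy2]
  have hvD : A.valuation (x₂ - x₁) = A.valuation x₂ :=
    Valuation.map_sub_eq_of_lt_left _ (lt_trans hx1 hx2)
  have hsum : A.valuation (x₁ + x₂) = A.valuation x₂ :=
    Valuation.map_add_eq_of_lt_right _ (lt_trans hx1 hx2)
  have h3 : A.valuation (3 : L) ≤ 1 := by
    rw [A.valuation_le_one_iff]
    exact ofNat_mem A 3
  set B := A.valuation x₁ * A.valuation x₂ with hB
  have hx1le : A.valuation x₁ ≤ 1 := le_of_lt hx1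
  have hx2le : 1 ≤ A.valuation x₂ := le_of_lt hx2
  -- the four terms of `S`
  have t1 : A.valuation (-x₁ ^ 3) ≤ B := by
    rw [Valuation.map_neg, map_pow, hB, pow_succ' (A.valuation x₁) 2]
    refine mul_le_mul_right ?_ _
    calc A.valuation x₁ ^ 2 ≤ 1 := pow_le_one₀ zero_le hx1le
      _ ≤ A.valuation x₂ := hx2le
  have t2 : A.valuation (3 * x₁ ^ 2 * x₂) ≤ B := by
    rw [map_mul, map_mul, map_pow, hB]
    refine mul_le_mul_left ?_ _
    calc A.valuation 3 * A.valuation x₁ ^ 2 ≤ 1 * A.valuation x₁ ^ 2 := mul_le_mul_left h3 _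
      _ = A.valuation x₁ * A.valuation x₁ := by rw [one_mul, pow_two]
      _ ≤ A.valuation x₁ * 1 := mul_le_mul_right hx1le _
      _ = A.valuation x₁ := mul_one _
  have t3 : A.valuation (2 * W.a₂ * x₁ * x₂) ≤ B := by
    rw [map_mul, map_mul, map_mul, hyp.two, va, one_mul, one_mul]
  have t4 : A.valuation (W.a₄ * (x₁ + x₂)) ≤ B := by
    rw [map_mul, hsum, hB]
    exact mul_le_mul_left (le_of_lt hbx) _
  have hS : A.valuation (-x₁ ^ 3 + 3 * x₁ ^ 2 * x₂ + 2 * W.a₂ * x₁ * x₂ + W.a₄ * (x₁ + x₂)) ≤ B :=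
    le_trans (A.valuation.map_add _ _) (max_le (le_trans (A.valuation.map_add _ _)
      (max_le (le_trans (A.valuation.map_add _ _) (max_le t1 t2)) t3)) t4)
  have hBT : B < A.valuation (-(2 * y₁ * y₂)) := by
    apply lt_of_sq_lt_sq
    rw [hT2, hB, mul_pow, pow_succ (A.valuation x₂) 2]
    calc A.valuation x₁ ^ 2 * A.valuation x₂ ^ 2
        = A.valuation x₁ ^ 2 * A.valuation x₂ ^ 2 * 1 := (mul_one _).symm
      _ < A.valuation x₁ ^ 2 * A.valuation x₂ ^ 2 * A.valuation x₂ :=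
          mul_lt_mul_of_pos_left hx2 (mul_pos (pow_pos hx1pos 2) (pow_pos hx2pos 2))
      _ = A.valuation x₁ ^ 2 * (A.valuation x₂ ^ 2 * A.valuation x₂) := mul_assoc _ _ _
  have hval : A.valuation ((x₂ - x₁) ^ 2 * (W.addX x₁ x₂ ((y₁ - y₂) / (x₁ - x₂)) - x₁)) =
      A.valuation (-(2 * y₁ * y₂)) := by
    rw [hid]
    exact Valuation.map_add_eq_of_lt_right _ (lt_of_le_of_lt hS hBT)
  rw [map_mul, map_pow, hvD] at hval
  have hsq : (A.valuation x₂ ^ 2 *
      A.valuation (W.addX x₁ x₂ ((y₁ - y₂) / (x₁ - x₂)) - x₁)) ^ 2 =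
      A.valuation x₁ ^ 2 * A.valuation x₂ ^ 3 := by
    rw [hval, hT2]
  have hx2c : A.valuation x₂ ^ 3 ≠ 0 := pow_ne_zero 3 hx2ne
  apply mul_right_cancel₀ hx2c
  rw [← hsq, mul_pow, ← pow_mul, mul_assoc, ← pow_succ', mul_comm]

end Fermat.Agent.S59.TRes.H8

end
-- ==== END Fermat.Agent.S59.TRes.H8_AddEst
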