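-- GENERATED (merged mirror, NOTES/tools/trim/merge3_helper67.py): 6 modules of the originals, bodies verbatim.
import Mathlib
import Fermat.Agent.Zm.S59_L03_005
import Fermat.Agent.Zm.S59_L02_002
import Fermat.Agent.Zm.S59_L03_002
import Fermat.Agent.Zm.S59_L02_004
import Fermat.Agent.Zm.S59_L03_003
import Fermat.Agent.Zm.S59_L01_002
import Fermat.Agent.Zm.S59_L03_004
import Fermat.Agent.Zm.S43_L14_002

-- ==== BEGIN Fermat.Agent.S27.RR.H52_RR
section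

/-!
# S27, package RR-DUAL (helper52), part 4: duality and the Riemann-Roch theorem

`F / K` with `FFHyp K F` and Riemann's theorem `IsGenus K F g c`.  Stichtenoth 1.5.14 - 1.5.17:

* `Om_eq_map` : `Ω(D) = L(W - D) ω` for the divisor `W` of `ω ≠ 0` (duality);
* `IsCanonical g W` : `deg W = 2g - 2`, `l(W) = g` and `l(D) = deg D + 1 - g + l(W - D)`;
* **`riemann_roch`** : a canonical divisor exists;
* **`rr_sharp`** : `l(D) = deg D + 1 - g` if `deg D ≥ 2g - 1`;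
* `isGenus_sharp` : `IsGenus K F g (2g - 1)`;
* `stmt_GFF_holds` : `Char0.Stmt_GFF`-shaped statement (without the superfluous `IsAlgClosed`).
-/

set_option autoImplicit false
set_option linter.style.haveILetI false
set_option linter.unusedSectionVars false

noncomputable section

open AlgebraicCurve

attribute [local instance] Classical.propDecidable

namespace Fermat.Agent.S27.RR.H52

open Fermat.Agent.RED Fermat.Agent.RED.H51 Fermat.Agent.RED.H17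

local notation "L" => riemannRochSpace

variable {K F : Type*} [Field K] [Field F] [Algebra K F]

/-- There is a nonzero Weil differential. -/
theorem exists_ne_zero_Om (H : FFHyp K F) {g : ℕ} {c : ℤ} (hg : IsGenus K F g c) :
    ∃ (D : Divisor K F) (ω : Module.Dual K (Adele K F)), ω ∈ Om D ∧ ω ≠ 0 := by
  obtain ⟨v₀⟩ := exists_place H
  set D : Divisor K F := -Finsupp.single v₀ 2 with hD
  have hdeg : Divisor.degree D = -2 := by
    rw [hD, map_neg, Divisor.degree_single, H.deg_one v₀]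
    simp
  obtain ⟨hfin, hrk⟩ := finrank_Om H hg D
  haveI := hfin
  have hpos : 0 < Module.finrank K (Om D) := by
    have : (0 : ℤ) < Module.finrank K (Om D) := by
      rw [hrk]
      unfold idx
      rw [finrank_L_of_neg H (by rw [hdeg]; omega), hdeg]
      push_cast
      omega
    exact_mod_cast this
  have hne : Om D ≠ ⊥ := by
    intro hbot
    rw [hbot, finrank_bot] at hpos
    exact lt_irrefl _ hpos
  obtain ⟨ω, hω, hω0⟩ := (Submodule.ne_bot_iff _).mp hne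
  exact ⟨D, ω, hω, hω0⟩

/-- **Duality** (Stichtenoth 1.5.14): `Ω(D) = L(W - D) ω`. -/
theorem Om_eq_map (H : FFHyp K F) {g : ℕ} {c : ℤ} (hg : IsGenus K F g c)
    {ω : Module.Dual K (Adele K F)} (hω : ω ≠ 0) {W : Divisor K F}
    (hW : ∀ D : Divisor K F, ω ∈ Om D ↔ D ≤ W) (D : Divisor K F) :
    Om D = (L (W - D)).map (actW ω) := by
  have hωW : ω ∈ Om W := (hW W).mpr le_rfl
  apply le_antisymm
  · intro η hη
    obtain ⟨z, rfl⟩ := exists_actW_eq H hg hω hωW hη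
    refine Submodule.mem_map_of_mem ?_
    by_cases hz : z = 0
    · rw [hz]
      exact Submodule.zero_mem _
    · obtain ⟨E, hE, -⟩ := H.principal.exists_divisor z hz
      have h1 := (hW _).mp ((actW_mem_Om_iff hz hE).mp hη)
      rw [mem_L_iff']
      intro v
      right
      have h2 := Finsupp.le_def.mp h1 v
      rw [Finsupp.sub_apply, hE v] at h2
      rw [Finsupp.sub_apply]
      omega
  · exact map_actW_le_Om H hωW

/-- `dim Ω(D) = l(W - D)`. -/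
theorem idx_eq_finrank (H : FFHyp K F) {g : ℕ} {c : ℤ} (hg : IsGenus K F g c)
    {ω : Module.Dual K (Adele K F)} (hω : ω ≠ 0) {W : Divisor K F}
    (hW : ∀ D : Divisor K F, ω ∈ Om D ↔ D ≤ W) (D : Divisor K F) :
    idx g D = Module.finrank K (L (W - D)) := by
  rw [← (finrank_Om H hg D).2, Om_eq_map H hg hω hW D, (finrank_map_actW H hω (W - D)).2]

/-- `W` is a canonical divisor of `F / K` (of genus `g`). -/
def IsCanonical (g : ℕ) (W : Divisor K F) : Prop :=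
  Divisor.degree W = 2 * (g : ℤ) - 2 ∧ Module.finrank K (L W) = g ∧
    ∀ D : Divisor K F, (Module.finrank K (L D) : ℤ)
      = Divisor.degree D + 1 - g + Module.finrank K (L (W - D))

/-- **The Riemann-Roch theorem** (Stichtenoth 1.5.15). -/
theorem riemann_roch (H : FFHyp K F) {g : ℕ} {c : ℤ} (hg : IsGenus K F g c) :
    ∃ W : Divisor K F, IsCanonical g W := by
  obtain ⟨D₀, ω, hω, hω0⟩ := exists_ne_zero_Om H hg
  obtain ⟨W, hW⟩ := exists_canonical H hg hω0 hω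
  have key : ∀ D : Divisor K F, (Module.finrank K (L D) : ℤ)
      = Divisor.degree D + 1 - g + Module.finrank K (L (W - D)) := by
    intro D
    have := idx_eq_finrank H hg hω0 hW D
    unfold idx at this
    omega
  have h0 := key 0
  rw [finrank_L_zero H, map_zero, sub_zero] at h0
  have hlW : (Module.finrank K (L W) : ℤ) = g := by
    push_cast at h0
    omega
  have h1 := key W
  rw [sub_self, finrank_L_zero H, hlW] at h1
  refine ⟨W, ?_, by exact_mod_cast hlW, key⟩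
  push_cast at h1
  omega

/-- **Riemann-Roch, sharp form** (Stichtenoth 1.5.17): `l(D) = deg D + 1 - g` if
`deg D ≥ 2g - 1`. -/
theorem rr_sharp (H : FFHyp K F) {g : ℕ} {c : ℤ} (hg : IsGenus K F g c) {D : Divisor K F}
    (hD : 2 * (g : ℤ) - 1 ≤ Divisor.degree D) :
    (Module.finrank K (L D) : ℤ) = Divisor.degree D + 1 - g := by
  obtain ⟨W, hdeg, -, key⟩ := riemann_roch H hg
  have h := key D
  have h0 : Module.finrank K (L (W - D)) = 0 :=
    finrank_L_of_neg H (by rw [map_sub, hdeg]; omega)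
  rw [h, h0]
  simp

/-- Riemann's theorem holds with the sharp bound `2g - 1`. -/
theorem isGenus_sharp (H : FFHyp K F) {g : ℕ} {c : ℤ} (hg : IsGenus K F g c) :
    IsGenus K F g (2 * (g : ℤ) - 1) :=
  fun D => ⟨(hg D).1, fun hD => rr_sharp H hg hD⟩

/-- The genus is unique. -/
theorem isGenus_unique (H : FFHyp K F) {g g' : ℕ} {c c' : ℤ} (hg : IsGenus K F g c)
    (hg' : IsGenus K F g' c') : g = g' := by
  rw [← genusFF_eq H hg, genusFF_eq H hg']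

/-- `l(W - D) = 0` for `deg D > 2g - 2`; `l(D) ≥ deg D + 1 - g`; the index of speciality is
`l(W - D)`: the package in one statement. -/
theorem finrank_L_canonical_sub (H : FFHyp K F) {g : ℕ} {W : Divisor K F}
    (hW : IsCanonical g W) {D : Divisor K F} (hD : 2 * (g : ℤ) - 2 < Divisor.degree D) :
    Module.finrank K (L (W - D)) = 0 :=
  finrank_L_of_neg H (by rw [map_sub, hW.1]; omega)

end Fermat.Agent.S27.RR.H52

end
end
-- ==== END Fermat.Agent.S27.RR.H52_RR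

-- ==== BEGIN Fermat.Agent.S59.Asm.H80_SelmerMat
section

set_option autoImplicit false
set_option linter.unusedSectionVars false

open IsLocalRing Matrix

noncomputable section

namespace Fermat.Agent.S59.Asm.H80

section sq

variable {B : Type} [CommRing B]

/-- `(1 + X)^n = 1 + n X` if `X² = 0`. -/
theorem one_add_pow_of_sq_zero (X : Matrix (Fin 2) (Fin 2) B) (h : X * X = 0) (n : ℕ) :
    (1 + X) ^ n = 1 + (n : B) • X := by
  induction n with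
  | zero => rw [pow_zero, Nat.cast_zero, zero_smul, add_zero]
  | succ m ih =>
    rw [pow_succ, ih]
    simp only [add_mul, mul_add, one_mul, mul_one, smul_mul_assoc, h, smul_zero, add_zero]
    rw [Nat.cast_succ, add_smul, one_smul]
    abel

/-- The relations in a ring `B` in which the products of the entries of `X` vanish. -/
theorem mulVec_eq_zero_of_rel (q : B) (F X : Matrix (Fin 2) (Fin 2) B)
    (hXX : ∀ i j k l, X i j * X k l = 0) (hdetF : F.det = q)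
    (hT : (1 + X).det = 1) (n : ℕ) (hn : (n : B) = q) (hFT : F * (1 + X) = (1 + X) ^ n * F)
    (A : Matrix (Fin 3) (Fin 3) B)
    (hA : ∀ v : Fin 3 → B, F * tl v * F.adjugate - q ^ 2 • tl v = tl (A.mulVec v)) :
    X 1 1 = - X 0 0 ∧ A.mulVec ![X 0 1, X 1 0, X 0 0] = 0 := by
  have hsq : X * X = 0 := by
    ext i j
    rw [Matrix.mul_apply, Fin.sum_univ_two, hXX, hXX, add_zero]
    rfl
  have htr : X 1 1 = - X 0 0 := by
    rw [Matrix.det_fin_two] at hT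
    simp only [Matrix.add_apply, Matrix.one_apply_eq, Matrix.one_apply_ne, ne_eq,
      zero_ne_one, one_ne_zero, not_false_eq_true, zero_add] at hT
    have h1 := hXX 0 0 1 1
    have h2 := hXX 0 1 1 0
    linear_combination hT - h1 + h2
  refine ⟨htr, ?_⟩
  have hX : X = tl ![X 0 1, X 1 0, X 0 0] := by
    ext i j
    fin_cases i <;> fin_cases j <;> simp [tl, htr]
  have hrel : F * X = q • (X * F) := by
    rw [one_add_pow_of_sq_zero X hsq, hn, mul_add, mul_one, add_mul, one_mul, smul_mul_assoc]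
      at hFT
    exact add_left_cancel hFT
  have h3 : F * X * F.adjugate = q ^ 2 • X := by
    rw [hrel, smul_mul_assoc, Matrix.mul_assoc, Matrix.mul_adjugate, hdetF, Matrix.mul_smul,
      Matrix.mul_one, smul_smul, pow_two]
  have h4 := hA ![X 0 1, X 1 0, X 0 0]
  rw [← hX, h3, sub_self] at h4
  have h5 : ∀ w : Fin 3 → B, tl w = 0 → w = 0 := by
    intro w hw
    funext k
    fin_cases k
    · exact congrFun (congrFun hw 0) 1
    · exact congrFun (congrFun hw 1) 0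
    · exact congrFun (congrFun hw 0) 0
  exact h5 _ h4.symm

end sq

section cot

variable (𝒪 : Type) [CommRing 𝒪] [IsDomain 𝒪] [IsDiscreteValuationRing 𝒪]
  [Finite (ResidueField 𝒪)] {R' : Type} [CommRing R'] [Algebra 𝒪 R'] (x' : R' →ₐ[𝒪] 𝒪)

omit [IsDomain 𝒪] [IsDiscreteValuationRing 𝒪] [Finite (ResidueField 𝒪)] in
theorem sub_algebraMap_mem_ker (r : R') :
    r - algebraMap 𝒪 R' (x' r) ∈ RingHom.ker (x' : R' →+* 𝒪) := by
  rw [RingHom.mem_ker]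
  change x' (r - algebraMap 𝒪 R' (x' r)) = 0
  rw [map_sub, x'.commutes, Algebra.algebraMap_self_apply, sub_self]

omit [IsDomain 𝒪] [IsDiscreteValuationRing 𝒪] [Finite (ResidueField 𝒪)] in
/-- On the cotangent space of `ker x'`, `R'` acts through `x'`. -/
theorem smul_cotangent_eq (r : R') (m : (RingHom.ker (x' : R' →+* 𝒪)).Cotangent) :
    r • m = (x' r) • m := by
  have h1 : r = algebraMap 𝒪 R' (x' r) + (r - algebraMap 𝒪 R' (x' r)) := by ring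
  conv_lhs => rw [h1]
  rw [add_smul, Ideal.Cotangent.smul_eq_zero_of_mem (sub_algebraMap_mem_ker 𝒪 x' r) m, add_zero,
    algebraMap_smul]

/-- **The matrix computation modulo `𝔭'²`.** -/
theorem entries_span_card_le (q : ℕ) (hq : IsUnit (q : 𝒪)) (T F : Matrix (Fin 2) (Fin 2) R')
    (hT : ∀ i j, (T - 1) i j ∈ RingHom.ker (x' : R' →+* 𝒪)) (hdetT : T.det = 1)
    (hdetF : F.det = (q : R')) (hFT : F * T = T ^ q * F)
    (hc : ((q : 𝒪) - 1) * (x' F.trace ^ 2 - ((q : 𝒪) + 1) ^ 2) ≠ 0) :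
    ∃ E : Submodule 𝒪 (RingHom.ker (x' : R' →+* 𝒪)).Cotangent,
      (∀ i j, (RingHom.ker (x' : R' →+* 𝒪)).toCotangent ⟨(T - 1) i j, hT i j⟩ ∈ E) ∧
      Finite E ∧ Nat.card E ≤ Nat.card
        (𝒪 ⧸ Ideal.span {((q : 𝒪) - 1) * (x' F.trace ^ 2 - ((q : 𝒪) + 1) ^ 2)}) := by
  classical
  set I : Ideal R' := RingHom.ker (x' : R' →+* 𝒪) with hI
  have hle : I ^ 2 ≤ RingHom.ker (x' : R' →+* 𝒪) := Ideal.pow_le_self two_ne_zero
  set mk : R' →+* R' ⧸ I ^ 2 := Ideal.Quotient.mk (I ^ 2) with hmk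
  set xb : R' ⧸ I ^ 2 →+* 𝒪 :=
    Ideal.Quotient.lift (I ^ 2) (x' : R' →+* 𝒪) (fun a ha => hle ha) with hxbdef
  have hxb : ∀ r, xb (mk r) = x' r := fun r => Ideal.Quotient.lift_mk _ _ _
  set X : Matrix (Fin 2) (Fin 2) R' := T - 1 with hX
  set XB : Matrix (Fin 2) (Fin 2) (R' ⧸ I ^ 2) := X.map mk with hXB
  set FB : Matrix (Fin 2) (Fin 2) (R' ⧸ I ^ 2) := F.map mk with hFB
  have hmul0 : ∀ a b : R', a ∈ I → b ∈ I → mk a * mk b = 0 := by
    intro a b ha hb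
    rw [← map_mul, hmk, Ideal.Quotient.eq_zero_iff_mem, pow_two]
    exact Ideal.mul_mem_mul ha hb
  have hXX : ∀ i j k l, XB i j * XB k l = 0 := fun i j k l => hmul0 _ _ (hT i j) (hT k l)
  have hTB : T.map mk = 1 + XB := by
    have h1 : T = 1 + X := by rw [hX, add_sub_cancel]
    conv_lhs => rw [h1]
    rw [Matrix.map_add _ (fun a b => map_add mk a b), Matrix.map_one _ (map_zero mk) (map_one mk)]
  have hdetFB : FB.det = ((q : ℕ) : R' ⧸ I ^ 2) := by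
    rw [hFB, ← RingHom.mapMatrix_apply, ← RingHom.map_det, hdetF, map_natCast]
  have hdetTB : (1 + XB).det = 1 := by
    rw [← hTB, ← RingHom.mapMatrix_apply, ← RingHom.map_det, hdetT, map_one]
  have hFTB : FB * (1 + XB) = (1 + XB) ^ q * FB := by
    rw [← hTB]
    have h1 := congrArg (RingHom.mapMatrix mk) hFT
    rw [map_mul, map_mul, map_pow] at h1
    exact h1
  obtain ⟨AB, hAB, hdetAB⟩ := H2.stmt_SELqAD (R' ⧸ I ^ 2) FB ((q : ℕ) : R' ⧸ I ^ 2) hdetFB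
  obtain ⟨htr, hmv⟩ := mulVec_eq_zero_of_rel ((q : ℕ) : R' ⧸ I ^ 2) FB XB hXX hdetFB hdetTB q rfl
    hFTB AB hAB
  -- the matrix over `𝒪`
  set A : Matrix (Fin 3) (Fin 3) 𝒪 := AB.map xb with hA
  have htrF : xb FB.trace = x' F.trace := by
    rw [Matrix.trace_fin_two, Matrix.trace_fin_two, map_add]
    change xb (mk (F 0 0)) + xb (mk (F 1 1)) = _
    rw [hxb, hxb, map_add]
  have hdetA : A.det = (q : 𝒪) ^ 3 *
      (((q : 𝒪) - 1) * (x' F.trace ^ 2 - ((q : 𝒪) + 1) ^ 2)) := by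
    rw [hA, ← RingHom.mapMatrix_apply, ← RingHom.map_det, hdetAB]
    simp only [map_mul, map_pow, map_sub, map_add, map_natCast, map_one, htrF]
    ring
  have hq0 : (q : 𝒪) ^ 3 ≠ 0 := pow_ne_zero 3 hq.ne_zero
  have hdetA0 : A.det ≠ 0 := by
    rw [hdetA]
    exact mul_ne_zero hq0 hc
  -- the vector in the cotangent space
  set v' : Fin 3 → I.Cotangent :=
    ![I.toCotangent ⟨X 0 1, hT 0 1⟩, I.toCotangent ⟨X 1 0, hT 1 0⟩,
      I.toCotangent ⟨X 0 0, hT 0 0⟩] with hv'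
  have hι : ∀ j, I.cotangentToQuotientSquare (v' j) = ![XB 0 1, XB 1 0, XB 0 0] j := by
    intro j
    fin_cases j <;> rfl
  have hvI : ∀ j, ∃ a ∈ I, ![XB 0 1, XB 1 0, XB 0 0] j = mk a := by
    intro j
    fin_cases j
    · exact ⟨X 0 1, hT 0 1, rfl⟩
    · exact ⟨X 1 0, hT 1 0, rfl⟩
    · exact ⟨X 0 0, hT 0 0, rfl⟩
  have hrel : ∀ i, ∑ j, A i j • v' j = 0 := by
    intro i
    apply I.cotangentToQuotientSquare_injective
    rw [map_zero, map_sum]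
    have h1 : ∀ j, I.cotangentToQuotientSquare (A i j • v' j) =
        AB i j * ![XB 0 1, XB 1 0, XB 0 0] j := by
      intro j
      rw [← algebraMap_smul R' (A i j) (v' j), map_smul, hι]
      obtain ⟨a, ha, hva⟩ := hvI j
      obtain ⟨r, hr⟩ := Ideal.Quotient.mk_surjective (AB i j)
      rw [hva]
      have h2 : A i j = x' r := by
        change xb (AB i j) = _
        rw [← hr]
        exact hxb r
      rw [h2, ← hr]
      change mk (algebraMap 𝒪 R' (x' r)) * mk a = mk r * mk a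
      rw [← sub_eq_zero, ← sub_mul, ← map_sub]
      apply hmul0 _ _ _ ha
      have h3 := sub_algebraMap_mem_ker 𝒪 x' r
      have h4 : algebraMap 𝒪 R' (x' r) - r = -(r - algebraMap 𝒪 R' (x' r)) := by ring
      rw [h4]
      exact I.neg_mem h3
    rw [Finset.sum_congr rfl (fun j _ => h1 j)]
    exact congrFun hmv i
  obtain ⟨hfin, hcard⟩ := H2.stmt_SELqALG 𝒪 3 A hdetA0 I.Cotangent v' hrel
  refine ⟨Submodule.span 𝒪 (Set.range v'), ?_, hfin, ?_⟩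
  · have hmem : ∀ j, v' j ∈ Submodule.span 𝒪 (Set.range v') :=
      fun j => Submodule.subset_span ⟨j, rfl⟩
    have h11 : I.toCotangent ⟨X 1 1, hT 1 1⟩ = - I.toCotangent ⟨X 0 0, hT 0 0⟩ := by
      rw [← map_neg, Ideal.toCotangent_eq]
      have h5 : mk (X 1 1 + X 0 0) = 0 := by
        rw [map_add]
        change XB 1 1 + XB 0 0 = 0
        rw [htr, neg_add_cancel]
      rw [hmk, Ideal.Quotient.eq_zero_iff_mem] at h5
      have h6 : ((⟨X 1 1, hT 1 1⟩ : I) : R') - ((-(⟨X 0 0, hT 0 0⟩ : I) : I) : R') =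
          X 1 1 + X 0 0 := by
        simp
      rw [h6]
      exact h5
    intro i j
    fin_cases i <;> fin_cases j
    · exact hmem 2
    · exact hmem 0
    · exact hmem 1
    · change I.toCotangent ⟨X 1 1, hT 1 1⟩ ∈ _
      rw [h11]
      exact Submodule.neg_mem _ (hmem 2)
  · rw [hdetA, Ideal.span_singleton_mul_left_unit (hq.pow 3)] at hcard
    exact hcard

end cot

end Fermat.Agent.S59.Asm.H80

end
end
-- ==== END Fermat.Agent.S59.Asm.H80_SelmerMat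

-- ==== BEGIN Fermat.Agent.S59.CaseC.Geom.H13_PDeg2
section

/-!
# S59 / case C / PGEOM, leaf P-DEG2 (helper13): the wiring of the first half of P-ASM

`stmt_PDEG2WIRE : H53.Stmt_PDEG2WIRE`, i.e.
`Stmt_PREL → Stmt_PRELT → Stmt_IHARA2k → Stmt_CHEBkp → Stmt_PDUAL → Stmt_PORD → Stmt_PDEG2`.

The operators `T_p`, `U_p`, `res_i`, `cor_i` preserve the Betti lattices (`H13_PDeg2Mem.lean`) and
are lifted to the modules of the states along the embeddings (`liftL`); the relations come from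
`Stmt_PREL`; the compatibility with the Hecke action is checked on the generators `T_ℓ`;
`T_p` is a unit by `Stmt_PORD`; Ihara's lemma on the lattice by a common eigenvector modulo `𝔪`
(`H53.exists_common_eigen_mod`), `Stmt_IHARA2k` and `Stmt_CHEBkp`; the dual by `Stmt_PDUAL`.
-/

set_option autoImplicit false
set_option linter.unusedSectionVars false

open Polynomial CuspForm CongruenceSubgroup IsLocalRing
open scoped MatrixGroups

namespace Fermat.Agent.S59.CaseC.Geom.H13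

open Fermat.Agent.S41 Fermat.Agent.Betti Fermat.Agent.S59 Fermat.Agent.S59.Asm
  Fermat.Agent.S59.NonMin Fermat.Agent.S59.NonMin.Geom Fermat.Agent.S59.CaseC
  Fermat.Agent.S59.CaseC.Geom
open ModularCurve.Period

section Core

variable {𝒪 : Type} [CommRing 𝒪] [IsDomain 𝒪] [IsDiscreteValuationRing 𝒪] [CharZero 𝒪]
variable {N p : ℕ} [NeZero N] [NeZero (N * p)] {S : Finset ℕ}
  {θ : CuspForm.heckeAlgebra N 2 (↑S : Set ℕ) →+* ResidueField 𝒪}
  {rest : CuspForm.heckeAlgebra (N * p) 2 (↑S : Set ℕ) →+*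
    CuspForm.heckeAlgebra N 2 (↑S : Set ℕ)}

/-- The standing hypotheses of the construction. -/
structure Setup (Sig : Finset ℕ) (M : HMod 𝒪 N (↑S : Set ℕ) θ)
    (M' : HMod 𝒪 (N * p) (↑S : Set ℕ) (θ.comp rest))
    (ι : M.V →ₗ[𝒪] (Additive (Gamma0 N) →+ 𝒪))
    (ι' : M'.V →ₗ[𝒪] (Additive (Gamma0 (N * p)) →+ 𝒪)) : Prop where
  hinj : Function.Injective ι
  hrange : ∀ φ, φ ∈ Set.range ι ↔ InBetti 𝒪 N (↑S : Set ℕ) θ Sig φ
  hT : ∀ (ℓ : ℕ) (hℓ : ℓ.Prime) (hℓN : ¬ ℓ ∣ N) (hℓS : ℓ ∉ (↑S : Set ℕ)) (v : M.V),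
    ι (M.η (CuspForm.heckeAlgebra.T hℓ hℓN hℓS) v) = TB N 𝒪 hℓ hℓN (ι v)
  hinj' : Function.Injective ι'
  hrange' : ∀ ψ, ψ ∈ Set.range ι' ↔ InBetti 𝒪 (N * p) (↑S : Set ℕ) (θ.comp rest) Sig ψ
  hT' : ∀ (ℓ : ℕ) (hℓ : ℓ.Prime) (hℓN : ¬ ℓ ∣ N * p) (hℓS : ℓ ∉ (↑S : Set ℕ)) (w : M'.V),
    ι' (M'.η (CuspForm.heckeAlgebra.T hℓ hℓN hℓS) w) = TB (N * p) 𝒪 hℓ hℓN (ι' w)
  hp : p.Prime
  hpN : ¬ p ∣ N
  hpS : p ∈ (↑S : Set ℕ)
  hSig : ∀ r ∈ Sig, r.Prime ∧ r ≠ p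
  hNS : ∀ r : ℕ, r.Prime → r ∣ N → r ∈ (↑S : Set ℕ)
  hrest : ∀ (ℓ : ℕ) (hℓ : ℓ.Prime) (hℓN' : ¬ ℓ ∣ N * p) (hℓS : ℓ ∉ (↑S : Set ℕ))
    (hℓN : ¬ ℓ ∣ N),
    rest (CuspForm.heckeAlgebra.T hℓ hℓN' hℓS) = CuspForm.heckeAlgebra.T hℓ hℓN hℓS
  hREL : Stmt_PREL
  hRELT : Stmt_PRELT

variable {Sig : Finset ℕ} {M : HMod 𝒪 N (↑S : Set ℕ) θ}
  {M' : HMod 𝒪 (N * p) (↑S : Set ℕ) (θ.comp rest)}
  {ι : M.V →ₗ[𝒪] (Additive (Gamma0 N) →+ 𝒪)}
  {ι' : M'.V →ₗ[𝒪] (Additive (Gamma0 (N * p)) →+ 𝒪)}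

namespace Setup

variable (h : Setup Sig M M' ι ι')
include h

theorem hd : p ∣ N * p := dvd_mul_left p N

theorem hSigP : ∀ r ∈ Sig, r.Prime := fun r hr => (h.hSig r hr).1

theorem mem (v : M.V) : InBetti 𝒪 N (↑S : Set ℕ) θ Sig (ι v) := (h.hrange _).1 ⟨v, rfl⟩

theorem mem' (w : M'.V) : InBetti 𝒪 (N * p) (↑S : Set ℕ) (θ.comp rest) Sig (ι' w) :=
  (h.hrange' _).1 ⟨w, rfl⟩

theorem hNS' : ∀ r : ℕ, r.Prime → r ∣ N * p → r ∈ (↑S : Set ℕ) := by
  intro r hr hrd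
  rcases (Nat.Prime.dvd_mul hr).1 hrd with h1 | h1
  · exact h.hNS r hr h1
  · rw [(Nat.prime_dvd_prime_iff_eq hr h.hp).1 h1]
    exact h.hpS

/-- `T_p` on the module of level `N` -/
noncomputable def opTp : Module.End 𝒪 M.V :=
  liftL ι ι h.hinj (H48.TBl 𝒪 N h.hp h.hpN)
    (fun v => (h.hrange _).2 (inBetti_TB h.hSigP h.hp h.hpN (h.mem v)))

theorem opTp_spec (v : M.V) : ι (h.opTp v) = TB N 𝒪 h.hp h.hpN (ι v) :=
  liftL_spec ι ι h.hinj (H48.TBl 𝒪 N h.hp h.hpN) _ v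

/-- `U_p` on the module of level `N p` -/
noncomputable def opU : Module.End 𝒪 M'.V :=
  liftL ι' ι' h.hinj' (H48.UBl 𝒪 (N * p) h.hd)
    (fun w => (h.hrange' _).2 (inBetti_UB h.hSigP h.hp h.hd (h.mem' w)))

theorem opU_spec (w : M'.V) : ι' (h.opU w) = UB (N * p) 𝒪 h.hd (ι' w) :=
  liftL_spec ι' ι' h.hinj' (H48.UBl 𝒪 (N * p) h.hd) _ w

noncomputable def opr1 : M.V →ₗ[𝒪] M'.V :=
  liftL ι ι' h.hinj' (H48.resL 𝒪 (inclG N p))
    (fun v => (h.hrange' _).2 (inBetti_res1 h.hRELT h.hp h.hpN h.hSig h.hrest (h.mem v)))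

theorem opr1_spec (v : M.V) : ι' (h.opr1 v) = res1 N p 𝒪 (ι v) :=
  liftL_spec ι ι' h.hinj' (H48.resL 𝒪 (inclG N p)) _ v

noncomputable def opr2 : M.V →ₗ[𝒪] M'.V :=
  liftL ι ι' h.hinj' (H48.resL 𝒪 (conjG N p))
    (fun v => (h.hrange' _).2 (inBetti_res2 h.hRELT h.hp h.hpN h.hSig h.hrest (h.mem v)))

theorem opr2_spec (v : M.V) : ι' (h.opr2 v) = res2 N p 𝒪 (ι v) :=
  liftL_spec ι ι' h.hinj' (H48.resL 𝒪 (conjG N p)) _ v

noncomputable def opc1 : M'.V →ₗ[𝒪] M.V :=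
  liftL ι' ι h.hinj (H48.corL 𝒪 (inclG N p))
    (fun w => (h.hrange _).2
      (inBetti_cor1 h.hRELT h.hp h.hpN h.hpS h.hSig h.hrest (h.mem' w)))

theorem opc1_spec (w : M'.V) : ι (h.opc1 w) = cor1 N p 𝒪 (ι' w) :=
  liftL_spec ι' ι h.hinj (H48.corL 𝒪 (inclG N p)) _ w

noncomputable def opc2 : M'.V →ₗ[𝒪] M.V :=
  liftL ι' ι h.hinj (H48.corL 𝒪 (conjG N p))
    (fun w => (h.hrange _).2
      (inBetti_cor2 h.hRELT h.hp h.hpN h.hpS h.hSig h.hrest (h.mem' w)))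

theorem opc2_spec (w : M'.V) : ι (h.opc2 w) = cor2 N p 𝒪 (ι' w) :=
  liftL_spec ι' ι h.hinj (H48.corL 𝒪 (conjG N p)) _ w

/-! ### the relations -/

theorem R1a (v : M.V) : h.opU (h.opr1 v) = h.opr1 (h.opTp v) - h.opr2 v := by
  apply h.hinj'
  rw [opU_spec, opr1_spec, map_sub, opr1_spec, opr2_spec, opTp_spec]
  exact ((h.hREL N p h.hp h.hpN h.hd 𝒪).1 (ι v)).1

theorem R1b (v : M.V) : h.opU (h.opr2 v) = p • h.opr1 v := by
  apply h.hinj'
  rw [opU_spec, opr2_spec, map_nsmul, opr1_spec]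
  exact ((h.hREL N p h.hp h.hpN h.hd 𝒪).1 (ι v)).2.1

theorem R2a (w : M'.V) : h.opc1 (h.opU w) = p • h.opc2 w := by
  apply h.hinj
  rw [opc1_spec, opU_spec, map_nsmul, opc2_spec]
  exact ((h.hREL N p h.hp h.hpN h.hd 𝒪).2 (ι' w)).1

theorem R2b (w : M'.V) : h.opc2 (h.opU w) = h.opTp (h.opc2 w) - h.opc1 w := by
  apply h.hinj
  rw [opc2_spec, opU_spec, map_sub, opTp_spec, opc2_spec, opc1_spec]
  exact ((h.hREL N p h.hp h.hpN h.hd 𝒪).2 (ι' w)).2

theorem R3a (v : M.V) : h.opc1 (h.opr1 v) = (p + 1) • v := by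
  apply h.hinj
  rw [opc1_spec, opr1_spec, map_nsmul]
  exact ((h.hREL N p h.hp h.hpN h.hd 𝒪).1 (ι v)).2.2.1

theorem R3b (v : M.V) : h.opc2 (h.opr2 v) = (p + 1) • v := by
  apply h.hinj
  rw [opc2_spec, opr2_spec, map_nsmul]
  exact ((h.hREL N p h.hp h.hpN h.hd 𝒪).1 (ι v)).2.2.2.1

theorem R3c (v : M.V) : h.opc1 (h.opr2 v) = h.opTp v := by
  apply h.hinj
  rw [opc1_spec, opr2_spec, opTp_spec]
  exact ((h.hREL N p h.hp h.hpN h.hd 𝒪).1 (ι v)).2.2.2.2.1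

theorem R3d (v : M.V) : h.opc2 (h.opr1 v) = h.opTp v := by
  apply h.hinj
  rw [opc2_spec, opr1_spec, opTp_spec]
  exact ((h.hREL N p h.hp h.hpN h.hd 𝒪).1 (ι v)).2.2.2.2.2

/-! ### compatibility with the Hecke action -/

theorem Tp_η (t : CuspForm.heckeAlgebra N 2 (↑S : Set ℕ)) : Commute h.opTp (M.η t) := by
  refine commute_of_gen M.η h.opTp (H61.adjoin_bmG (↑S : Set ℕ) h.hNS) ?_ t
  rintro g ⟨ℓ, hℓ, hℓN, hℓS, rfl⟩ v
  apply h.hinj
  rw [opTp_spec, h.hT, h.hT, opTp_spec]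
  exact H53.TB_TB_comm 𝒪 h.hp h.hpN hℓ hℓN (ι v) (h.mem v).1

theorem U_η' (t : CuspForm.heckeAlgebra (N * p) 2 (↑S : Set ℕ)) :
    Commute h.opU (M'.η t) := by
  refine commute_of_gen M'.η h.opU (H61.adjoin_bmG (↑S : Set ℕ) h.hNS') ?_ t
  rintro g ⟨ℓ, hℓ, hℓN, hℓS, rfl⟩ w
  apply h.hinj'
  rw [opU_spec, h.hT', h.hT', opU_spec]
  exact H53.UB_TB_comm 𝒪 h.hp h.hd hℓ hℓN (ι' w) (h.mem' w).1

theorem r₁_η (t : CuspForm.heckeAlgebra (N * p) 2 (↑S : Set ℕ)) (v : M.V) :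
    h.opr1 (M.η (rest t) v) = M'.η t (h.opr1 v) := by
  refine intertwine_of_gen rest (H61.adjoin_bmG (↑S : Set ℕ) h.hNS') M.η M'.η h.opr1 ?_ t v
  rintro g ⟨ℓ, hℓ, hℓN', hℓS, rfl⟩ v
  apply h.hinj'
  rw [h.hrest ℓ hℓ hℓN' hℓS (not_dvd_of_mul hℓN'), opr1_spec, h.hT, h.hT', opr1_spec]
  exact ((((h.hRELT N p h.hp h.hpN 𝒪).1 ℓ hℓ (not_dvd_of_mul hℓN') hℓN').1 (ι v)).1).symm

theorem r₂_η (t : CuspForm.heckeAlgebra (N * p) 2 (↑S : Set ℕ)) (v : M.V) :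
    h.opr2 (M.η (rest t) v) = M'.η t (h.opr2 v) := by
  refine intertwine_of_gen rest (H61.adjoin_bmG (↑S : Set ℕ) h.hNS') M.η M'.η h.opr2 ?_ t v
  rintro g ⟨ℓ, hℓ, hℓN', hℓS, rfl⟩ v
  apply h.hinj'
  rw [h.hrest ℓ hℓ hℓN' hℓS (not_dvd_of_mul hℓN'), opr2_spec, h.hT, h.hT', opr2_spec]
  exact ((((h.hRELT N p h.hp h.hpN 𝒪).1 ℓ hℓ (not_dvd_of_mul hℓN') hℓN').1 (ι v)).2.1).symm

theorem c₁_η (t : CuspForm.heckeAlgebra (N * p) 2 (↑S : Set ℕ)) (w : M'.V) :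
    h.opc1 (M'.η t w) = M.η (rest t) (h.opc1 w) := by
  refine intertwine_of_gen' rest (H61.adjoin_bmG (↑S : Set ℕ) h.hNS') M.η M'.η h.opc1 ?_ t w
  rintro g ⟨ℓ, hℓ, hℓN', hℓS, rfl⟩ w
  apply h.hinj
  rw [h.hrest ℓ hℓ hℓN' hℓS (not_dvd_of_mul hℓN'), opc1_spec, h.hT, h.hT', opc1_spec]
  exact (((h.hRELT N p h.hp h.hpN 𝒪).1 ℓ hℓ (not_dvd_of_mul hℓN') hℓN').2 (ι' w)).1

theorem c₂_η (t : CuspForm.heckeAlgebra (N * p) 2 (↑S : Set ℕ)) (w : M'.V) :
    h.opc2 (M'.η t w) = M.η (rest t) (h.opc2 w) := by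
  refine intertwine_of_gen' rest (H61.adjoin_bmG (↑S : Set ℕ) h.hNS') M.η M'.η h.opc2 ?_ t w
  rintro g ⟨ℓ, hℓ, hℓN', hℓS, rfl⟩ w
  apply h.hinj
  rw [h.hrest ℓ hℓ hℓN' hℓS (not_dvd_of_mul hℓN'), opc2_spec, h.hT, h.hT', opc2_spec]
  exact (((h.hRELT N p h.hp h.hpN 𝒪).1 ℓ hℓ (not_dvd_of_mul hℓN') hℓN').2 (ι' w)).2

/-! ### ordinarity -/

theorem Tp_unit
    (hord : ∀ φ : Additive (Gamma0 N) →+ 𝒪, InBetti 𝒪 N (↑S : Set ℕ) θ Sig φ →
      ∃ φ' : Additive (Gamma0 N) →+ 𝒪, InBetti 𝒪 N (↑S : Set ℕ) θ Sig φ' ∧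
        TB N 𝒪 h.hp h.hpN φ' = φ) : IsUnit h.opTp := by
  refine isUnit_of_surjective h.opTp fun v => ?_
  obtain ⟨φ', hφ', hTφ⟩ := hord (ι v) (h.mem v)
  obtain ⟨v', rfl⟩ := (h.hrange _).2 hφ'
  exact ⟨v', h.hinj (by rw [opTp_spec, hTφ])⟩

/-! ### the dual of Ihara's lemma -/

theorem dual
    (hdual : ∀ φ₁ φ₂ : Additive (Gamma0 N) →+ 𝒪,
      InBetti 𝒪 N (↑S : Set ℕ) θ Sig φ₁ → InBetti 𝒪 N (↑S : Set ℕ) θ Sig φ₂ →
      ∃ ψ : Additive (Gamma0 (N * p)) →+ 𝒪,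
        InBetti 𝒪 (N * p) (↑S : Set ℕ) (θ.comp rest) Sig ψ ∧
        ∀ γ, (cor1 N p 𝒪 ψ - φ₁) γ ∈ maximalIdeal 𝒪 ∧ (cor2 N p 𝒪 ψ - φ₂) γ ∈ maximalIdeal 𝒪)
    (v₁ v₂ : M.V) :
    ∃ w : M'.V, h.opc1 w - v₁ ∈ (maximalIdeal 𝒪 • ⊤ : Submodule 𝒪 M.V) ∧
      h.opc2 w - v₂ ∈ (maximalIdeal 𝒪 • ⊤ : Submodule 𝒪 M.V) := by
  obtain ⟨ψ, hψ, hγ⟩ := hdual (ι v₁) (ι v₂) (h.mem v₁) (h.mem v₂)
  obtain ⟨w, rfl⟩ := (h.hrange' _).2 hψ
  refine ⟨w, (via_val_iff h.hinj h.hrange _).1 fun γ => ?_,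
    (via_val_iff h.hinj h.hrange _).1 fun γ => ?_⟩
  · rw [map_sub, opc1_spec]
    exact (hγ γ).1
  · rw [map_sub, opc2_spec]
    exact (hγ γ).2

/-! ### Ihara's lemma on the lattice -/

omit h in
/-- the operator `η t - a` -/
noncomputable def Dop {L : ℕ} [NeZero L] {S' : Set ℕ}
    {θ' : CuspForm.heckeAlgebra L 2 S' →+* ResidueField 𝒪} (M₀ : HMod 𝒪 L S' θ')
    (t : CuspForm.heckeAlgebra L 2 S') (a : 𝒪) : Module.End 𝒪 M₀.V :=
  M₀.η t - a • 1

omit h in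
theorem Dop_apply {L : ℕ} [NeZero L] {S' : Set ℕ}
    {θ' : CuspForm.heckeAlgebra L 2 S' →+* ResidueField 𝒪} (M₀ : HMod 𝒪 L S' θ')
    (t : CuspForm.heckeAlgebra L 2 S') (a : 𝒪) (x : M₀.V) :
    Dop M₀ t a x = M₀.η t x - a • x := rfl

omit h in
theorem Dop_comm {L : ℕ} [NeZero L] {S' : Set ℕ}
    {θ' : CuspForm.heckeAlgebra L 2 S' →+* ResidueField 𝒪} (M₀ : HMod 𝒪 L S' θ')
    (t t' : CuspForm.heckeAlgebra L 2 S') (a a' : 𝒪) (x : M₀.V) :
    Dop M₀ t a (Dop M₀ t' a' x) = Dop M₀ t' a' (Dop M₀ t a x) := by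
  have h1 : Commute (M₀.η t) (M₀.η t') := (Commute.all _ _).map M₀.η
  have h1' : M₀.η t (M₀.η t' x) = M₀.η t' (M₀.η t x) :=
    congrArg (fun F : Module.End 𝒪 M₀.V => F x) h1.eq
  rw [Dop_apply, Dop_apply, Dop_apply, Dop_apply, map_sub, map_sub, map_smul, map_smul,
    smul_sub, smul_sub, h1', smul_comm a a']
  abel

omit h in
/-- the primes `ℓ ∤ N p`, `ℓ ∉ S` -/
def Pidx (N p : ℕ) (S : Finset ℕ) (ℓ : ℕ) : Prop :=
  ℓ.Prime ∧ ¬ ℓ ∣ N * p ∧ ℓ ∉ (↑S : Set ℕ)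

omit h in
/-- the index set: the primes `ℓ ∤ N p`, `ℓ ∉ S` -/
abbrev Idx (N p : ℕ) (S : Finset ℕ) : Type :=
  {ℓ : ℕ // Pidx N p S ℓ}

omit h in
/-- `T_ℓ` at the level `N` -/
noncomputable def IdxT (i : Idx N p S) : CuspForm.heckeAlgebra N 2 (↑S : Set ℕ) :=
  CuspForm.heckeAlgebra.T i.2.1 (not_dvd_of_mul i.2.2.1) i.2.2.2

omit h in
/-- `T_ℓ` at the level `N p` -/
noncomputable def IdxT' (i : Idx N p S) : CuspForm.heckeAlgebra (N * p) 2 (↑S : Set ℕ) :=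
  CuspForm.heckeAlgebra.T i.2.1 i.2.2.1 i.2.2.2

open Classical in
omit h in
/-- the eigenvalues modulo `𝔪` -/
noncomputable def aaθ (θ : CuspForm.heckeAlgebra N 2 (↑S : Set ℕ) →+* ResidueField 𝒪)
    (ℓ : ℕ) : ResidueField 𝒪 :=
  if hP : Pidx N p S ℓ then θ (IdxT (⟨ℓ, hP⟩ : Idx N p S)) else 0

omit h in
theorem aaθ_eq (i : Idx N p S) : aaθ (p := p) θ i.1 = θ (IdxT i) := by
  unfold aaθ
  exact dif_pos i.2

theorem rest_IdxT' (i : Idx N p S) : rest (IdxT' i) = IdxT i := h.hrest _ _ _ _ _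

theorem r1_Dop (i : Idx N p S) (a : 𝒪) (x : M.V) :
    h.opr1 (Dop M (IdxT i) a x) = Dop M' (IdxT' i) a (h.opr1 x) := by
  have e := h.r₁_η (IdxT' i) x
  have e2 : M.η (rest (IdxT' i)) x = M.η (IdxT i) x :=
    congrArg (fun t => M.η t x) (h.rest_IdxT' i)
  have e3 : h.opr1 (M.η (IdxT i) x) = M'.η (IdxT' i) (h.opr1 x) :=
    (congrArg h.opr1 e2).symm.trans e
  calc h.opr1 (Dop M (IdxT i) a x)
      = h.opr1 (M.η (IdxT i) x) - a • h.opr1 x := by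
        rw [Dop_apply, map_sub, map_smul]
    _ = M'.η (IdxT' i) (h.opr1 x) - a • h.opr1 x :=
        congrArg (fun z => z - a • h.opr1 x) e3
    _ = Dop M' (IdxT' i) a (h.opr1 x) := rfl

theorem r2_Dop (i : Idx N p S) (a : 𝒪) (x : M.V) :
    h.opr2 (Dop M (IdxT i) a x) = Dop M' (IdxT' i) a (h.opr2 x) := by
  have e := h.r₂_η (IdxT' i) x
  have e2 : M.η (rest (IdxT' i)) x = M.η (IdxT i) x :=
    congrArg (fun t => M.η t x) (h.rest_IdxT' i)
  have e3 : h.opr2 (M.η (IdxT i) x) = M'.η (IdxT' i) (h.opr2 x) :=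
    (congrArg h.opr2 e2).symm.trans e
  calc h.opr2 (Dop M (IdxT i) a x)
      = h.opr2 (M.η (IdxT i) x) - a • h.opr2 x := by
        rw [Dop_apply, map_sub, map_smul]
    _ = M'.η (IdxT' i) (h.opr2 x) - a • h.opr2 x :=
        congrArg (fun z => z - a • h.opr2 x) e3
    _ = Dop M' (IdxT' i) a (h.opr2 x) := rfl

theorem ι_Dop (i : Idx N p S) (a : 𝒪) (x : M.V) :
    ι (Dop M (IdxT i) a x) =
      TB N 𝒪 i.2.1 (not_dvd_of_mul i.2.2.1) (ι x) - a • ι x := by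
  rw [Dop_apply, map_sub, map_smul]
  exact congrArg (fun z => z - a • ι x) (h.hT i.1 i.2.1 (not_dvd_of_mul i.2.2.1) i.2.2.2 x)

omit h in
/-- the diagonal operator on `V × V` -/
noncomputable def Uop (M : HMod 𝒪 N (↑S : Set ℕ) θ) (a : Idx N p S → 𝒪) (i : Idx N p S) :
    Module.End 𝒪 (M.V × M.V) :=
  LinearMap.prodMap (Dop M (IdxT i) (a i)) (Dop M (IdxT i) (a i))

omit h in
theorem Uop_apply (a : Idx N p S → 𝒪) (i : Idx N p S) (w : M.V × M.V) :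
    Uop M a i w = (Dop M (IdxT i) (a i) w.1, Dop M (IdxT i) (a i) w.2) := rfl

/-- `(v₁, v₂) ↦ r₁ v₁ + r₂ v₂` -/
noncomputable def Rop : M.V × M.V →ₗ[𝒪] M'.V := LinearMap.coprod h.opr1 h.opr2

theorem Rop_apply (w : M.V × M.V) : h.Rop w = h.opr1 w.1 + h.opr2 w.2 := rfl

/-- the kernel of `Rop` modulo `𝔪` -/
noncomputable def Kop : Submodule 𝒪 (M.V × M.V) :=
  (maximalIdeal 𝒪 • ⊤ : Submodule 𝒪 M'.V).comap h.Rop

theorem mem_Kop (w : M.V × M.V) :
    w ∈ h.Kop ↔ h.opr1 w.1 + h.opr2 w.2 ∈ (maximalIdeal 𝒪 • ⊤ : Submodule 𝒪 M'.V) := Iff.rfl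

theorem Kop_stable (a : Idx N p S → 𝒪) (i : Idx N p S) (w : M.V × M.V) (hw : w ∈ h.Kop) :
    Uop M a i w ∈ h.Kop := by
  rw [mem_Kop] at hw ⊢
  rw [Uop_apply]
  show h.opr1 (Dop M (IdxT i) (a i) w.1) + h.opr2 (Dop M (IdxT i) (a i) w.2) ∈ _
  rw [h.r1_Dop, h.r2_Dop, ← map_add]
  exact Submodule.smul_top_le_comap_smul_top _ (Dop M' (IdxT' i) (a i)) hw

omit h in
theorem Uop_comm (a : Idx N p S → 𝒪) (i j : Idx N p S) (w : M.V × M.V) :
    Uop M a i (Uop M a j w) - Uop M a j (Uop M a i w) ∈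
      (maximalIdeal 𝒪 • ⊤ : Submodule 𝒪 (M.V × M.V)) := by
  have : Uop M a i (Uop M a j w) = Uop M a j (Uop M a i w) := by
    rw [Uop_apply, Uop_apply, Uop_apply, Uop_apply]
    show (Dop M (IdxT i) (a i) (Dop M (IdxT j) (a j) w.1),
        Dop M (IdxT i) (a i) (Dop M (IdxT j) (a j) w.2)) =
      (Dop M (IdxT j) (a j) (Dop M (IdxT i) (a i) w.1),
        Dop M (IdxT j) (a j) (Dop M (IdxT i) (a i) w.2))
    rw [Dop_comm M (IdxT i) (IdxT j) (a i) (a j) w.1,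
      Dop_comm M (IdxT i) (IdxT j) (a i) (a j) w.2]
  rw [this, sub_self]
  exact Submodule.zero_mem _

omit h in
theorem Uop_nil (a : Idx N p S → 𝒪) (ha : ∀ i : Idx N p S, residue 𝒪 (a i) = θ (IdxT i))
    (i : Idx N p S) : ∃ m : ℕ, ∀ w, ((Uop M a i) ^ m) w ∈
      (maximalIdeal 𝒪 • ⊤ : Submodule 𝒪 (M.V × M.V)) := by
  obtain ⟨m, hm⟩ := M.η_local (IdxT i) (a i) (ha i)
  refine ⟨m, fun w => ?_⟩
  have e : ((Uop M a i) ^ m) w =
      ((Dop M (IdxT i) (a i) ^ m) w.1, (Dop M (IdxT i) (a i) ^ m) w.2) :=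
    prodMap_pow_apply _ m w
  rw [e]
  exact (prod_mem_smul_top_iff _ _ _).2 ⟨hm w.1, hm w.2⟩

omit h in
theorem twelve_tf : ∀ c : 𝒪, (12 : ℕ) • c = 0 → c = 0 := by
  intro c hc
  rw [nsmul_eq_mul] at hc
  rcases mul_eq_zero.1 hc with h0 | h0
  · exact absurd h0 (by exact_mod_cast (by norm_num : (12 : ℕ) ≠ 0))
  · exact h0

/-- A common eigenvector modulo `𝔪` in `Kop` is zero modulo `𝔪`. -/
theorem eigen_zero (hp2 : p ≠ 2) (hp𝒪 : (p : 𝒪) ∈ maximalIdeal 𝒪) (hIH : Stmt_IHARA2k)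
    (hcheb : ∀ M₀ : ℕ, 0 < M₀ → p ∣ M₀ →
      ∃ (ℓ : ℕ) (hℓ : ℓ.Prime) (hℓN : ¬ ℓ ∣ N) (hℓS : ℓ ∉ (↑S : Set ℕ)),
        ℓ % M₀ = 1 % M₀ ∧ (p : ZMod ℓ) ^ ((ℓ - 1) / p) ≠ 1 ∧
        θ (CuspForm.heckeAlgebra.T hℓ hℓN hℓS) ≠ 2)
    (a : Idx N p S → 𝒪) (ha : ∀ i : Idx N p S, residue 𝒪 (a i) = θ (IdxT i))
    (w : M.V × M.V) (hwK : w ∈ h.Kop)
    (hwU : ∀ i, Uop M a i w ∈ (maximalIdeal 𝒪 • ⊤ : Submodule 𝒪 (M.V × M.V))) :
    w ∈ (maximalIdeal 𝒪 • ⊤ : Submodule 𝒪 (M.V × M.V)) := by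
  classical
  have hc₁ : IsCuspidalHom (Gamma0 N) (redk 𝒪 (ι w.1)) :=
    isCuspidal_redk (isCuspidal_of_parabolic twelve_tf (h.mem w.1).1)
  have hc₂ : IsCuspidalHom (Gamma0 N) (redk 𝒪 (ι w.2)) :=
    isCuspidal_redk (isCuspidal_of_parabolic twelve_tf (h.mem w.2).1)
  have hchar : CharP (ResidueField 𝒪) p := charP_residue h.hp hp𝒪
  have hfact : Fact p.Prime := ⟨h.hp⟩
  have hP1 : ∀ ℓ, Pidx N p S ℓ → ℓ.Prime ∧ ¬ ℓ ∣ N * p ∧ ℓ ≠ p := fun ℓ hℓ =>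
    ⟨hℓ.1, hℓ.2.1, fun e => hℓ.2.1 (by rw [e]; exact dvd_mul_left p N)⟩
  have hP2 : ∀ M₀ : ℕ, 0 < M₀ → p ∣ M₀ → ∃ ℓ, Pidx N p S ℓ ∧ ℓ % M₀ = 1 % M₀ ∧
      (p : ZMod ℓ) ^ ((ℓ - 1) / p) ≠ 1 ∧ aaθ (p := p) θ ℓ ≠ 2 := by
    intro M₀ hM₀ hpM₀
    obtain ⟨ℓ, hℓ, hℓN, hℓS, h1, h2, h3⟩ := hcheb M₀ hM₀ hpM₀
    have hne : ℓ ≠ p := fun e => hℓS (e ▸ h.hpS)
    have hPℓ : Pidx N p S ℓ := ⟨hℓ, not_dvd_mul hℓ h.hp hℓN hne, hℓS⟩
    refine ⟨ℓ, hPℓ, h1, h2, ?_⟩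
    have e := aaθ_eq (θ := θ) (⟨ℓ, hPℓ⟩ : Idx N p S)
    intro hcon
    exact h3 (e.symm.trans hcon)
  have heig : ∀ (ℓ : ℕ) (hℓ : ℓ.Prime) (hℓN : ¬ ℓ ∣ N), Pidx N p S ℓ →
      TB N (ResidueField 𝒪) hℓ hℓN (redk 𝒪 (ι w.1)) = aaθ (p := p) θ ℓ • redk 𝒪 (ι w.1) := by
    intro ℓ hℓ hℓN hPℓ
    have h0 : (Dop M (IdxT (⟨ℓ, hPℓ⟩ : Idx N p S)) (a ⟨ℓ, hPℓ⟩) w.1,
        Dop M (IdxT (⟨ℓ, hPℓ⟩ : Idx N p S)) (a ⟨ℓ, hPℓ⟩) w.2) ∈
        (maximalIdeal 𝒪 • ⊤ : Submodule 𝒪 (M.V × M.V)) := hwU ⟨ℓ, hPℓ⟩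
    have h1 := ((prod_mem_smul_top_iff _ _ _).1 h0).1
    have h2 := (via_val_iff h.hinj h.hrange _).2 h1
    have h3 : ι (Dop M (IdxT (⟨ℓ, hPℓ⟩ : Idx N p S)) (a ⟨ℓ, hPℓ⟩) w.1) =
        TB N 𝒪 hℓ hℓN (ι w.1) - a ⟨ℓ, hPℓ⟩ • ι w.1 := h.ι_Dop ⟨ℓ, hPℓ⟩ (a ⟨ℓ, hPℓ⟩) w.1
    rw [h3] at h2
    have h4 : TB N (ResidueField 𝒪) hℓ hℓN (redk 𝒪 (ι w.1)) =
        redk 𝒪 (TB N 𝒪 hℓ hℓN (ι w.1)) :=
      H48.TB_nat (residue 𝒪).toAddMonoidHom hℓ hℓN (ι w.1)
    rw [h4, aaθ_eq (θ := θ) (⟨ℓ, hPℓ⟩ : Idx N p S)]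
    refine AddMonoidHom.ext fun γ => ?_
    have h5 := (residue_eq_zero_iff _).2 (h2 γ)
    rw [AddMonoidHom.sub_apply, map_sub, sub_eq_zero] at h5
    rw [redk_apply, h5]
    show residue 𝒪 (a ⟨ℓ, hPℓ⟩ * ι w.1 γ) =
      θ (IdxT (⟨ℓ, hPℓ⟩ : Idx N p S)) * residue 𝒪 (ι w.1 γ)
    rw [map_mul, ha]
  have hres : res1 N p (ResidueField 𝒪) (redk 𝒪 (ι w.1)) +
      res2 N p (ResidueField 𝒪) (redk 𝒪 (ι w.2)) = 0 := by
    have h1 := (h.mem_Kop w).1 hwK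
    have h2 := (via_val_iff h.hinj' h.hrange' _).2 h1
    rw [map_add, opr1_spec, opr2_spec] at h2
    refine AddMonoidHom.ext fun γ => ?_
    have h5 := (residue_eq_zero_iff _).2 (h2 γ)
    rw [AddMonoidHom.add_apply, map_add] at h5
    exact h5
  obtain ⟨e₁, e₂⟩ := @hIH (ResidueField 𝒪) _ p hfact hchar hp2 N p
    (Nat.pos_of_ne_zero (NeZero.ne N)) h.hp h.hpN (Pidx N p S) (aaθ (p := p) θ) hP1 hP2 _ _ hc₁ hc₂
    heig hres
  have f₁ := (via_val_iff h.hinj h.hrange _).1 ((redk_eq_zero_iff _).1 e₁)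
  have f₂ := (via_val_iff h.hinj h.hrange _).1 ((redk_eq_zero_iff _).1 e₂)
  exact (prod_mem_smul_top_iff _ w.1 w.2).2 ⟨f₁, f₂⟩

theorem ihara (hp2 : p ≠ 2) (hp𝒪 : (p : 𝒪) ∈ maximalIdeal 𝒪) (hIH : Stmt_IHARA2k)
    (hcheb : ∀ M₀ : ℕ, 0 < M₀ → p ∣ M₀ →
      ∃ (ℓ : ℕ) (hℓ : ℓ.Prime) (hℓN : ¬ ℓ ∣ N) (hℓS : ℓ ∉ (↑S : Set ℕ)),
        ℓ % M₀ = 1 % M₀ ∧ (p : ZMod ℓ) ^ ((ℓ - 1) / p) ≠ 1 ∧
        θ (CuspForm.heckeAlgebra.T hℓ hℓN hℓS) ≠ 2)
    (v₁ v₂ : M.V)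
    (hv : h.opr1 v₁ + h.opr2 v₂ ∈ (maximalIdeal 𝒪 • ⊤ : Submodule 𝒪 M'.V)) :
    v₁ ∈ (maximalIdeal 𝒪 • ⊤ : Submodule 𝒪 M.V) ∧
      v₂ ∈ (maximalIdeal 𝒪 • ⊤ : Submodule 𝒪 M.V) := by
  classical
  choose a ha using fun i : Idx N p S => residue_surjective (θ (IdxT i))
  have hKle : h.Kop ≤ (maximalIdeal 𝒪 • ⊤ : Submodule 𝒪 (M.V × M.V)) := by
    by_contra hne
    obtain ⟨w, hwK, hwn, hwU⟩ := H53.exists_common_eigen_mod (Uop M a) (Uop_comm a)
      (Uop_nil a ha) h.Kop (h.Kop_stable a) hne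
    exact hwn (h.eigen_zero hp2 hp𝒪 hIH hcheb a ha w hwK hwU)
  have hmem : ((v₁, v₂) : M.V × M.V) ∈ h.Kop := (h.mem_Kop _).2 hv
  exact (prod_mem_smul_top_iff _ _ _).1 (hKle hmem)

end Setup

end Core

/-- **P-DEG2, the wiring.** -/
theorem stmt_PDEG2WIRE : H53.Stmt_PDEG2WIRE := by
  intro hREL hRELT hIH hCHEB hDUAL hORD
  intro 𝒪 _ _ _ _ _ _ p _ hp2 hp𝒪 ρbar Smin hRes hcond hordi N₀ Sig s hG hFrob ι hι hpN _ _
    rest hrest M' ι' hι'
  have hp : p.Prime := Fact.out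
  have hpS : p ∈ (↑s.S : Set ℕ) := by
    rw [hG.hS]
    exact Finset.mem_coe.2 (Finset.mem_union_left _ hRes.hpSmin)
  have hNS : ∀ r : ℕ, r.Prime → r ∣ s.N → r ∈ (↑s.S : Set ℕ) := by
    intro r hr hrN
    rw [hG.hN] at hrN
    rw [hG.hS, Finset.mem_coe, Finset.mem_union]
    rcases (Nat.Prime.dvd_mul hr).1 hrN with h1 | h1
    · exact Or.inl (hG.hN₀S r hr h1)
    · right
      obtain ⟨r', hr', hd⟩ := (Prime.dvd_finsetProd_iff hr.prime _).1 h1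
      have h2 := hr.dvd_of_dvd_pow hd
      rw [(Nat.prime_dvd_prime_iff_eq hr (hG.hSig r' hr').1).1 h2]
      exact hr'
  have hS : Setup Sig s.M M' ι ι' :=
    { hinj := hι.1
      hrange := hι.2.1
      hT := hι.2.2
      hinj' := hι'.1
      hrange' := hι'.2.1
      hT' := hι'.2.2
      hp := hp
      hpN := hpN
      hpS := hpS
      hSig := fun r hr => ⟨(hG.hSig r hr).1, (hG.hSig r hr).2.1⟩
      hNS := hNS
      hrest := hrest
      hREL := hREL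
      hRELT := hRELT }
  refine ⟨{ p_mem := hp𝒪
            Tp := hS.opTp
            Tp_η := hS.Tp_η
            Tp_unit := hS.Tp_unit (fun φ hφ => hORD 𝒪 p hp2 hp𝒪 ρbar Smin hRes hcond hordi N₀
              Sig s.N s.S hG s.θ hFrob hp hpN φ hφ)
            U := hS.opU
            U_η' := hS.U_η'
            r₁ := hS.opr1
            r₂ := hS.opr2
            c₁ := hS.opc1
            c₂ := hS.opc2
            r₁_η := hS.r₁_η
            r₂_η := hS.r₂_η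
            c₁_η := hS.c₁_η
            c₂_η := hS.c₂_η
            R1a := hS.R1a
            R1b := hS.R1b
            R2a := hS.R2a
            R2b := hS.R2b
            R3a := hS.R3a
            R3b := hS.R3b
            R3c := hS.R3c
            R3d := hS.R3d
            ihara := hS.ihara hp2 hp𝒪 hIH (fun M₀ hM₀ hpM₀ => by
              obtain ⟨ℓ, hℓ, hℓN, hℓS, -, h1, h2, h3⟩ :=
                hCHEB 𝒪 p hp2 hp𝒪 ρbar Smin hRes s.N s.S s.θ hFrob M₀ hM₀ hpM₀ ∅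
              exact ⟨ℓ, hℓ, hℓN, hℓS, h1, h2, h3⟩)
            dual := hS.dual (hDUAL 𝒪 p hp2 hp𝒪 ρbar Smin hRes N₀ Sig s.N s.S hG hpN s.θ hFrob
              rest hrest) }, ?_, ?_⟩
  · intro hp' hpN' v
    exact hS.opTp_spec v
  · intro hd w
    exact hS.opU_spec w

end Fermat.Agent.S59.CaseC.Geom.H13

end
-- ==== END Fermat.Agent.S59.CaseC.Geom.H13_PDeg2

-- ==== BEGIN Fermat.Agent.S59.CaseC.Geom.H80_TwistT
section

set_option autoImplicit false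
set_option linter.style.haveILetI false
set_option linter.unusedSectionVars false

open scoped MatrixGroups
open CongruenceSubgroup Matrix ModularForm

namespace Fermat.Agent.S59.CaseC.Geom.H80

open Fermat.Agent.S41 Fermat.Agent.S41.H19 Fermat.Agent.S41.H39 Fermat.Agent.Betti
open Fermat.Agent.S59.NonMin.Geom Fermat.Agent.S59.NonMin.Geom.H12

/-! ### Integer matrices of the representatives -/

section Mat

variable (p c : ℕ)

/-- The twisted representatives of `T_p`: `∞ ↦ diag(p, 1)`, `x ↦ [[1, c x], [0, p]]`. -/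
noncomputable def repTc : OnePoint (ZMod p) → GL (Fin 2) ℝ :=
  fun x => x.elim (heckeDiagMatrix p) (fun j => heckeMatrix p (c * j.val))

/-- The integer matrices of the twisted representatives. -/
def aTc : OnePoint (ZMod p) → Matrix (Fin 2) (Fin 2) ℤ :=
  fun x => x.elim (Dq p) (fun j => Bmat p (((c * j.val : ℕ)) : ℤ))

@[simp] theorem repTc_infty : repTc p c OnePoint.infty = heckeDiagMatrix p := rfl

@[simp] theorem repTc_coe (j : ZMod p) : repTc p c (j : OnePoint (ZMod p)) =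
    heckeMatrix p (c * j.val) := rfl

@[simp] theorem aTc_infty : aTc p c OnePoint.infty = Dq p := rfl

@[simp] theorem aTc_coe (j : ZMod p) : aTc p c (j : OnePoint (ZMod p)) =
    Bmat p (((c * j.val : ℕ)) : ℤ) := rfl

theorem map_Dq (p : ℕ) :
    (Dq p).map (Int.cast : ℤ → ℝ) = !![(p : ℝ), 0; 0, 1] := by
  ext i k
  fin_cases i <;> fin_cases k <;> simp [Dq]

variable {p c}

theorem val_repTc (hp : p ≠ 0) (x : OnePoint (ZMod p)) :
    ((repTc p c x : GL (Fin 2) ℝ) : Matrix (Fin 2) (Fin 2) ℝ)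
      = (aTc p c x).map (Int.cast : ℤ → ℝ) := by
  induction x using OnePoint.rec with
  | infty => rw [repTc_infty, aTc_infty, ModularForm.val_heckeDiagMatrix hp, map_Dq]
  | coe j => rw [repTc_coe, aTc_coe, ModularForm.val_heckeMatrix hp, map_Bmat]

theorem repTc_one (x : OnePoint (ZMod p)) : repTc p 1 x = repT p x := by
  induction x using OnePoint.rec with
  | infty => rfl
  | coe j => rw [repTc_coe, one_mul]; rfl

/-- A relation between the twisted representatives, in integer matrices. -/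
theorem repTc_rel_iff (hp : p ≠ 0) {M : ℕ} (g κ : Gamma0 M) (x x' : OnePoint (ZMod p)) :
    repTc p c x * incl M g = incl M κ * repTc p c x' ↔
      aTc p c x * mat g = mat κ * aTc p c x' := by
  constructor
  · intro h
    have h2 := congrArg (fun X : GL (Fin 2) ℝ => (X : Matrix (Fin 2) (Fin 2) ℝ)) h
    simp only [Units.val_mul] at h2
    rw [val_incl', val_incl', val_repTc hp, val_repTc hp,
      ← Matrix.map_mul_intCast, ← Matrix.map_mul_intCast] at h2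
    exact Matrix.map_injective (Int.cast_injective (α := ℝ)) h2
  · intro h
    apply Units.ext
    simp only [Units.val_mul]
    rw [val_incl', val_incl', val_repTc hp, val_repTc hp,
      ← Matrix.map_mul_intCast, ← Matrix.map_mul_intCast, h]

theorem Dq_comm (a b : ℕ) : Dq a * Dq b = Dq b * Dq a := by
  rw [Dq_mul, Dq_mul, mul_comm]

/-- `ã_x D_c = D_c a_x`. -/
theorem aTc_mul_Dq (p c : ℕ) (x : OnePoint (ZMod p)) :
    aTc p c x * Dq c = Dq c * aTc p 1 x := by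
  induction x using OnePoint.rec with
  | infty => rw [aTc_infty, aTc_infty, Dq_comm]
  | coe j =>
    rw [aTc_coe, aTc_coe]
    have := Bmat_mul_Dq p c ((j.val : ℕ) : ℤ)
    push_cast
    rw [one_mul]
    exact this

theorem aTc_one_zero (x : OnePoint (ZMod p)) : aTc p c x 1 0 = 0 := by
  induction x using OnePoint.rec with
  | infty => simp [Dq]
  | coe j => simp [Bmat]

end Mat

/-! ### The twisted family for `Γ₀(N)` -/

section Twist

variable {N M' : ℕ} {p c : ℕ}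

/-- The permutation `∞ ↦ ∞`, `x ↦ c x` of `ℙ¹(𝔽_p)`. -/
noncomputable def piT (hcp : Nat.Coprime c p) : OnePoint (ZMod p) ≃ OnePoint (ZMod p) :=
  Equiv.optionCongr ((ZMod.unitOfCoprime c hcp).mulLeft)

theorem piT_infty (hcp : Nat.Coprime c p) : piT hcp OnePoint.infty = OnePoint.infty := rfl

theorem piT_coe (hcp : Nat.Coprime c p) (j : ZMod p) :
    piT hcp (j : OnePoint (ZMod p)) = (((ZMod.unitOfCoprime c hcp).mulLeft j : ZMod p) :
      OnePoint (ZMod p)) := rfl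

/-- The unipotent corrections. -/
def epsT (N p c : ℕ) : OnePoint (ZMod p) → Gamma0 N :=
  fun x => x.elim 1 (fun j => tU N ((c * j.val / p : ℕ) : ℤ))

/-- `rep̃_x = ε_x · rep_{π x}`. -/
theorem repTc_eq [NeZero p] (N : ℕ) (hcp : Nat.Coprime c p) (x : OnePoint (ZMod p)) :
    repTc p c x = incl N (epsT N p c x) * repT p (piT hcp x) := by
  induction x using OnePoint.rec with
  | infty =>
    rw [piT_infty]
    show heckeDiagMatrix p = incl N 1 * heckeDiagMatrix p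
    rw [map_one, one_mul]
  | coe j => exact repUc_eq N hcp j

/-- The twisted family is a Hecke family for `Γ₀(N)`, `p ∤ N`. -/
theorem isHeckeFamily_Tc [Fact p.Prime] (hcp : Nat.Coprime c p) (hpN : ¬ p ∣ N) :
    IsHeckeFamily (incl N) (repTc p c) :=
  haveI : NeZero p := ⟨(Fact.out : p.Prime).ne_zero⟩
  isHeckeFamily_of_twist (isHeckeFamily_T N hpN) (piT hcp) (epsT N p c) (repTc_eq N hcp)

/-- The twisted family defines the operator `T_p`. -/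
theorem heckeOp_Tc {A : Type*} [AddCommGroup A] (hp : p.Prime) (hcp : Nat.Coprime c p)
    (hpN : ¬ p ∣ N) (φ : Additive (Gamma0 N) →+ A) :
    haveI : Fact p.Prime := ⟨hp⟩
    (isHeckeFamily_Tc hcp hpN).heckeOp (incl_injective N) φ = TB N A hp hpN φ := by
  haveI : Fact p.Prime := ⟨hp⟩
  haveI : NeZero p := ⟨hp.ne_zero⟩
  exact heckeOp_of_twist (incl_injective N) (isHeckeFamily_T N hpN) (isHeckeFamily_Tc hcp hpN)
    (piT hcp) (epsT N p c) (repTc_eq N hcp) φ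

/-- Transport of the relations of `repT` at the level `M'` along a degeneracy map. -/
theorem repTc_rel {j : Gamma0 M' →* Gamma0 N} (hj : IsDeg j c) (hc : c ≠ 0) (hp : p ≠ 0)
    {γ κ : Gamma0 M'} {x x' : OnePoint (ZMod p)}
    (h : repT p x * incl M' γ = incl M' κ * repT p x') :
    repTc p c x * (incl N).comp j γ = (incl N).comp j κ * repTc p c x' := by
  rw [← repTc_one, ← repTc_one] at h
  have h1 := (repTc_rel_iff hp γ κ x x').mp h
  show repTc p c x * incl N (j γ) = incl N (j κ) * repTc p c x'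
  rw [repTc_rel_iff hp]
  apply Dq_cancel_right hc
  calc aTc p c x * mat (j γ) * Dq c
      = aTc p c x * (mat (j γ) * Dq c) := by rw [Matrix.mul_assoc]
    _ = (aTc p c x * Dq c) * mat γ := by rw [hj γ, Matrix.mul_assoc]
    _ = Dq c * (aTc p 1 x * mat γ) := by rw [aTc_mul_Dq, Matrix.mul_assoc]
    _ = Dq c * (mat κ * aTc p 1 x') := by rw [h1]
    _ = (mat (j κ) * Dq c) * aTc p 1 x' := by rw [hj κ, Matrix.mul_assoc]
    _ = mat (j κ) * (aTc p c x' * Dq c) := by rw [aTc_mul_Dq, Matrix.mul_assoc]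
    _ = mat (j κ) * aTc p c x' * Dq c := by rw [Matrix.mul_assoc]

/-- The twisted family is a Hecke family for `(Γ₀(M'), incl ∘ j)`. -/
theorem isHeckeFamily_Tc' [Fact p.Prime] {j : Gamma0 M' →* Gamma0 N} (hj : IsDeg j c)
    (hc : c ≠ 0) (hcp : Nat.Coprime c p) (hpN : ¬ p ∣ N) (hpM : ¬ p ∣ M') :
    IsHeckeFamily ((incl N).comp j) (repTc p c) where
  exists_mul γ x :=
    ⟨(isHeckeFamily_T M' hpM).perm γ x, (isHeckeFamily_T M' hpM).kap γ x,
      repTc_rel hj hc (Fact.out : p.Prime).ne_zero ((isHeckeFamily_T M' hpM).rep_mul γ x)⟩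
  inj x x' ε h := (isHeckeFamily_Tc (N := N) hcp hpN).inj x x' (j ε) h

/-- The operator of the twisted family for `(Γ₀(M'), incl ∘ j)` is `T_p` of the level `M'`. -/
theorem heckeOp_Tc' {A : Type*} [AddCommGroup A] (hp : p.Prime)
    {j : Gamma0 M' →* Gamma0 N}
    (hj : IsDeg j c) (hc : c ≠ 0) (hcp : Nat.Coprime c p) (hpN : ¬ p ∣ N) (hpM : ¬ p ∣ M')
    (he' : Function.Injective ((incl N).comp j)) (ψ : Additive (Gamma0 M') →+ A) :
    haveI : Fact p.Prime := ⟨hp⟩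
    (isHeckeFamily_Tc' hj hc hcp hpN hpM).heckeOp he' ψ = TB M' A hp hpM ψ := by
  haveI : Fact p.Prime := ⟨hp⟩
  refine AddMonoidHom.ext fun γ' => ?_
  obtain ⟨γ, rfl⟩ : ∃ g : Gamma0 M', Additive.ofMul g = γ' := ⟨Additive.toMul γ', rfl⟩
  rw [TB_apply_apply]
  show ∑ x, ψ (Additive.ofMul ((isHeckeFamily_Tc' hj hc hcp hpN hpM).kap γ x)) = _
  refine Finset.sum_congr rfl fun x _ => ?_
  have h := repTc_rel hj hc hp.ne_zero ((isHeckeFamily_T M' hpM).rep_mul γ x)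
  rw [((isHeckeFamily_Tc' hj hc hcp hpN hpM).unique he' h).2]

end Twist

/-! ### The coset condition -/

section CosetCond

variable {N M' : ℕ} {p c : ℕ}

/-- The entries of the twisted representatives which matter for the coset condition. -/
theorem aTc_entries (hcp : Nat.Coprime c p) (x : OnePoint (ZMod p)) :
    IsCoprime (aTc p c x 0 0) (c : ℤ) ∧ (c : ℤ) ∣ aTc p c x 0 1 ∧
      (aTc p c x 1 1 = 1 ∨ aTc p c x 1 1 = (p : ℤ)) := by
  induction x using OnePoint.rec with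
  | infty =>
    refine ⟨?_, ?_, Or.inl ?_⟩
    · have : aTc p c OnePoint.infty 0 0 = (p : ℤ) := by simp [Dq]
      rw [this]
      exact (Nat.isCoprime_iff_coprime.mpr hcp).symm
    · have : aTc p c OnePoint.infty 0 1 = 0 := by simp [Dq]
      rw [this]
      exact dvd_zero _
    · simp [Dq]
  | coe j =>
    refine ⟨?_, ?_, Or.inr ?_⟩
    · have : aTc p c (j : OnePoint (ZMod p)) 0 0 = 1 := by simp [Bmat]
      rw [this]
      exact isCoprime_one_left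
    · have : aTc p c (j : OnePoint (ZMod p)) 0 1 = (c : ℤ) * (j.val : ℤ) := by
        simp [Bmat]
      rw [this]
      exact dvd_mul_right _ _
    · simp [Bmat]

/-- The condition (C) of `corAlong_heckeOp` for the twisted family. -/
theorem cosetCond_Tc {j : Gamma0 M' →* Gamma0 N} (hj : IsDeg j c) (hc : c ≠ 0) (hp : p ≠ 0)
    (hcp : Nat.Coprime c p)
    (hM : ∀ z : ℤ, (N : ℤ) ∣ z → (M' : ℤ) ∣ (p : ℤ) * ((c : ℤ) * z) → (M' : ℤ) ∣ (c : ℤ) * z)
    (x x' : OnePoint (ZMod p)) (γ : Gamma0 N) (ε : Gamma0 M')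
    (h : repTc p c x * incl N γ = (incl N) (j ε) * repTc p c x') : γ ∈ j.range := by
  have hc' : (c : ℤ) ≠ 0 := by exact_mod_cast hc
  have h1 : aTc p c x * mat γ = mat (j ε) * aTc p c x' :=
    (repTc_rel_iff hp γ (j ε) x x').mp h
  have h2 : aTc p c x * (mat γ * Dq c) = Dq c * (mat ε * aTc p 1 x') := by
    calc aTc p c x * (mat γ * Dq c)
        = (aTc p c x * mat γ) * Dq c := by rw [Matrix.mul_assoc]
      _ = mat (j ε) * (aTc p c x' * Dq c) := by rw [h1, Matrix.mul_assoc]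
      _ = (mat (j ε) * Dq c) * aTc p 1 x' := by rw [aTc_mul_Dq, Matrix.mul_assoc]
      _ = Dq c * (mat ε * aTc p 1 x') := by rw [hj ε, Matrix.mul_assoc]
  have e01 := congrFun (congrFun h2 0) 1
  have e10 := congrFun (congrFun h2 1) 0
  simp only [Dq, Matrix.mul_apply, Fin.sum_univ_two, Matrix.of_apply, Matrix.cons_val',
    Matrix.cons_val_zero, Matrix.cons_val_one, Matrix.empty_val', Matrix.cons_val_fin_one,
    mul_zero, add_zero, zero_add, mul_one, one_mul, zero_mul, aTc_one_zero] at e01 e10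
  obtain ⟨hcop, ⟨b, hb⟩, h11⟩ := aTc_entries hcp x
  -- `c ∣ γ₀₁`
  obtain ⟨β', hβ'⟩ : (c : ℤ) ∣ mat γ 0 1 := by
    apply hcop.symm.dvd_of_dvd_mul_left
    refine ⟨mat ε 0 0 * aTc p 1 x' 0 1 + mat ε 0 1 * aTc p 1 x' 1 1 - b * mat γ 1 1, ?_⟩
    rw [hb] at e01
    linear_combination e01
  -- `M' ∣ c γ₁₀`
  have hd10 : (M' : ℤ) ∣ (c : ℤ) * mat γ 1 0 := by
    have hdvd : (M' : ℤ) ∣ aTc p c x 1 1 * ((c : ℤ) * mat γ 1 0) := by
      have : aTc p c x 1 1 * ((c : ℤ) * mat γ 1 0) = mat ε 1 0 * aTc p 1 x' 0 0 := by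
        linear_combination e10
      rw [this]
      exact Dvd.dvd.mul_right (mat_dvd ε) _
    rcases h11 with h11 | h11
    · rw [h11, one_mul] at hdvd
      exact hdvd
    · rw [h11] at hdvd
      exact hM _ (mat_dvd γ) hdvd
  -- the preimage
  have hdet := mat_det' γ
  refine ⟨mkG0 M' (mat γ 0 0) β' ((c : ℤ) * mat γ 1 0) (mat γ 1 1)
    (by rw [hβ'] at hdet; linear_combination hdet) hd10, ?_⟩
  apply mat_injective
  apply Dq_cancel_right hc
  rw [hj, mat_mkG0]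
  ext i k
  fin_cases i <;> fin_cases k <;>
    simp [Dq, Matrix.mul_apply, Fin.sum_univ_two, hβ'] <;> ring

end CosetCond

/-! ### `T_p` commutes with a degeneracy map -/

section General

variable {N M' : ℕ} {p c : ℕ} {A : Type*} [AddCommGroup A]

/-- `T_p (j^* φ) = j^* (T_p φ)`. -/
theorem TB_resAlong {j : Gamma0 M' →* Gamma0 N} (hj : IsDeg j c) (hc : c ≠ 0)
    (hp : p.Prime) (hcp : Nat.Coprime c p) (hpN : ¬ p ∣ N) (hpM : ¬ p ∣ M')
    (φ : Additive (Gamma0 N) →+ A) :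
    TB M' A hp hpM (resAlong A j φ) = resAlong A j (TB N A hp hpN φ) := by
  haveI : Fact p.Prime := ⟨hp⟩
  have he' : Function.Injective ((incl N).comp j) :=
    (incl_injective N).comp (hj.injective hc)
  have h := heckeOp_resAlong (A := A) (incl N) (incl_injective N) j he'
    (isHeckeFamily_Tc hcp hpN) (isHeckeFamily_Tc' hj hc hcp hpN hpM) φ
  rw [heckeOp_Tc' hp hj hc hcp hpN hpM he', heckeOp_Tc hp hcp hpN] at h
  exact h

/-- `j_* (T_p ψ) = T_p (j_* ψ)`. -/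
theorem corAlong_TB {j : Gamma0 M' →* Gamma0 N} (hj : IsDeg j c) (hc : c ≠ 0)
    (hp : p.Prime) (hcp : Nat.Coprime c p) (hpN : ¬ p ∣ N) (hpM : ¬ p ∣ M')
    (hM : ∀ z : ℤ, (N : ℤ) ∣ z → (M' : ℤ) ∣ (p : ℤ) * ((c : ℤ) * z) → (M' : ℤ) ∣ (c : ℤ) * z)
    (ψ : Additive (Gamma0 M') →+ A) :
    corAlong A j (TB M' A hp hpM ψ) = TB N A hp hpN (corAlong A j ψ) := by
  haveI : Fact p.Prime := ⟨hp⟩
  have he' : Function.Injective ((incl N).comp j) :=
    (incl_injective N).comp (hj.injective hc)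
  have h := corAlong_heckeOp (A := A) (incl N) (incl_injective N) j (hj.injective hc) he'
    (isHeckeFamily_Tc hcp hpN) (isHeckeFamily_Tc' hj hc hcp hpN hpM)
    (cosetCond_Tc hj hc hp.ne_zero hcp hM) ψ
  rw [heckeOp_Tc' hp hj hc hcp hpN hpM he', heckeOp_Tc hp hcp hpN] at h
  exact h

end General

end Fermat.Agent.S59.CaseC.Geom.H80

end
-- ==== END Fermat.Agent.S59.CaseC.Geom.H80_TwistT

-- ==== BEGIN Fermat.Agent.S59.CaseC.Geom.H92_PRel
section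

set_option autoImplicit false
set_option linter.style.haveILetI false
set_option linter.unusedSectionVars false

open scoped MatrixGroups
open CongruenceSubgroup Matrix ModularForm

namespace Fermat.Agent.S59.CaseC.Geom.H92

open Fermat.Agent.S41 Fermat.Agent.S41.H19 Fermat.Agent.S41.H77 Fermat.Agent.S41.H39
open Fermat.Agent.S41.H20 Fermat.Agent.Betti Fermat.Agent.S59.NonMin.Geom
open Fermat.Agent.S59.NonMin.Geom.H92

section Rel

variable {N q : ℕ}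

/-- The diagonal representative: `D γ = conj(γ) D`. -/
theorem repT_infty_rel2 (hq : q ≠ 0) (γ : Gamma0 (N * q)) :
    repT q (OnePoint.infty) * incl N (inclG N q γ)
      = incl N (conjG N q γ) * repT q (OnePoint.infty) := by
  apply Units.ext
  show ((heckeDiagMatrix q : GL (Fin 2) ℝ) : Matrix (Fin 2) (Fin 2) ℝ) *
      ((incl N (inclG N q γ) : GL (Fin 2) ℝ) : Matrix (Fin 2) (Fin 2) ℝ) =
    ((incl N (conjG N q γ) : GL (Fin 2) ℝ) : Matrix (Fin 2) (Fin 2) ℝ) *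
      ((heckeDiagMatrix q : GL (Fin 2) ℝ) : Matrix (Fin 2) (Fin 2) ℝ)
  rw [val_incl, val_incl, ModularForm.val_heckeDiagMatrix hq, mat_inclG, mat_conjG]
  have e : (Dq q).map (Int.cast : ℤ → ℝ) = !![(q : ℝ), 0; 0, 1] := by
    ext i k
    fin_cases i <;> fin_cases k <;> simp [Dq]
  rw [← e, ← Matrix.map_mul_intCast, ← Matrix.map_mul_intCast,
    conjMat_Dq (q_dvd_of_mem_gamma0_mul γ.2)]

end Rel

section Main

variable {N q : ℕ} [NeZero N] [NeZero (N * q)] {A : Type*} [AddCommGroup A]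

/-- `U_q r₁ = r₁ T_q - r₂`. -/
theorem UB_res1 (hq : q.Prime) (hqN : ¬ q ∣ N) (hd : q ∣ N * q)
    (φ : Additive (Gamma0 N) →+ A) :
    UB (N * q) A hd (res1 N q A φ) = res1 N q A (TB N A hq hqN φ) - res2 N q A φ := by
  haveI : Fact q.Prime := ⟨hq⟩
  haveI : NeZero q := ⟨hq.ne_zero⟩
  refine AddMonoidHom.ext fun γ' => ?_
  obtain ⟨γ, rfl⟩ : ∃ g : Gamma0 (N * q), Additive.ofMul g = γ' := ⟨Additive.toMul γ', rfl⟩
  set HU := isHeckeFamily_U (N * q) hd with hHU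
  set HT := isHeckeFamily_T N hqN with hHT
  have hx : ∀ x : ZMod q,
      HT.kap (inclG N q γ) (x : OnePoint (ZMod q)) = inclG N q (HU.kap γ x) := by
    intro x
    have h := HU.rep_mul γ x
    have h' : repT q (x : OnePoint (ZMod q)) * incl N (inclG N q γ)
        = incl N (inclG N q (HU.kap γ x))
          * repT q ((HU.perm γ x : ZMod q) : OnePoint (ZMod q)) := h
    exact ((HT.unique (incl_injective N) h').2).symm
  have hinf : HT.kap (inclG N q γ) (OnePoint.infty) = conjG N q γ :=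
    ((HT.unique (incl_injective N) (repT_infty_rel2 hq.ne_zero γ)).2).symm
  have hT : TB N A hq hqN φ (Additive.ofMul (inclG N q γ))
      = φ (Additive.ofMul (conjG N q γ))
        + ∑ x : ZMod q, φ (Additive.ofMul (inclG N q (HU.kap γ x))) := by
    rw [TB_apply_apply]
    refine (Fintype.sum_option
      (fun y : OnePoint (ZMod q) => φ (Additive.ofMul (HT.kap (inclG N q γ) y)))).trans ?_
    congr 1
    · exact congrArg (fun g => φ (Additive.ofMul g)) hinf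
    · exact Finset.sum_congr rfl fun x _ => congrArg (fun g => φ (Additive.ofMul g)) (hx x)
  have hU : UB (N * q) A hd (res1 N q A φ) (Additive.ofMul γ)
      = ∑ x : ZMod q, φ (Additive.ofMul (inclG N q (HU.kap γ x))) := by
    rw [UB_apply_apply]
    rfl
  rw [hU, AddMonoidHom.sub_apply]
  show _ = TB N A hq hqN φ (Additive.ofMul (inclG N q γ)) - φ (Additive.ofMul (conjG N q γ))
  rw [hT]
  abel

/-- `U_q r₂ = q r₁`. -/
theorem UB_res2 (hq : q.Prime) (hd : q ∣ N * q) (φ : Additive (Gamma0 N) →+ A) :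
    UB (N * q) A hd (res2 N q A φ) = q • res1 N q A φ := by
  haveI : NeZero q := ⟨hq.ne_zero⟩
  refine AddMonoidHom.ext fun γ' => ?_
  obtain ⟨γ, rfl⟩ : ∃ g : Gamma0 (N * q), Additive.ofMul g = γ' := ⟨Additive.toMul γ', rfl⟩
  set HU := isHeckeFamily_U (N * q) hd with hHU
  have hU : UB (N * q) A hd (res2 N q A φ) (Additive.ofMul γ)
      = ∑ x : ZMod q, φ (Additive.ofMul (conjG N q (HU.kap γ x))) := by
    rw [UB_apply_apply]
    rfl
  rw [hU]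
  have hrel : ∀ x : ZMod q,
      conjG N q (HU.kap γ x) * uG N (((HU.permEquiv (incl_injective _) γ) x).val : ℤ)
        = uG N (x.val : ℤ) * inclG N q γ := by
    intro x
    apply mat_injective
    rw [mat_mul, mat_mul, mat_conjG, mat_inclG, mat_uG, mat_uG]
    exact conj_rel_mat hq.ne_zero (Bmat_rel hq.ne_zero (HU.rep_mul γ x))
  have hterm : ∀ x : ZMod q, φ (Additive.ofMul (conjG N q (HU.kap γ x)))
      = φ (Additive.ofMul (uG N (x.val : ℤ))) + φ (Additive.ofMul (inclG N q γ))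
        - φ (Additive.ofMul (uG N (((HU.permEquiv (incl_injective _) γ) x).val : ℤ))) :=
    fun x => H12.hom_of_mul_eq φ (hrel x)
  rw [Finset.sum_congr rfl fun x _ => hterm x]
  rw [H12.sum_conj_eq (HU.permEquiv (incl_injective _) γ)
    (fun x : ZMod q => φ (Additive.ofMul (uG N (x.val : ℤ)))), ZMod.card]
  rfl

end Main

/-- **PREL**. -/
theorem stmt_PREL : Stmt_PREL := by
  intro N q _ _ hq hqN hd A _
  have hN : 0 < N := Nat.pos_of_ne_zero (NeZero.ne N)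
  refine ⟨fun φ => ⟨UB_res1 hq hqN hd φ, UB_res2 hq hd φ, cor1_res1 hN hq hqN φ,
    cor2_res2 hN hq hqN φ, ?_, ?_⟩, fun ψ => ⟨cor1_UB hN hq hqN hd ψ, cor2_UB hN hq hqN hd ψ⟩⟩
  · exact Tcoh_eq_TB hN hq hqN φ
  · rw [cor2_res1 hN hq hqN φ]
    exact Tcoh_eq_TB hN hq hqN φ

end Fermat.Agent.S59.CaseC.Geom.H92

end
-- ==== END Fermat.Agent.S59.CaseC.Geom.H92_PRel

-- ==== BEGIN Fermat.Agent.S59.CaseC.H12_CPNE
section

set_option autoImplicit false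

open Polynomial CuspForm CongruenceSubgroup ModularFormClass IsLocalRing

namespace Fermat.Agent.S59.CaseC.H12

open Fermat.Agent.S59 Fermat.Agent.S59.Asm Fermat.Agent.S59.NonMin Fermat.Agent.S59.CaseC

/-- The prime `p` is not in `S ∖ {p}`. -/
theorem not_mem_erase (S : Finset ℕ) (p : ℕ) : p ∉ (↑(S.erase p) : Set ℕ) := by
  simp

/-- **LGC-pt**: pointwise local–global compatibility at `p` for a Hecke–Galois datum over the
full local Hecke ring of a level `N` prime to `p`.  Same hypotheses as `CaseC.Stmt_CPNE`.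
Conclusion: there are a field `K` of characteristic zero, a ring homomorphism `i : 𝒪 → K` and a
character `x'` of the Hecke algebra of level `N` away from `S ∖ {p}` such that, with
`u := i (πx z)` and `a_p := x' T_p`,   `a_p u = u² + p`   or   `a_p u = 1 + p u²`.
[Eichler–Shimura at `p` on the étale quotient of the `p`-divisible group of `J₀(N)`:
`T_p = F + p F⁻¹`.] -/
def Stmt_LGCpt : Prop :=
  ∀ (𝒪 : Type) [CommRing 𝒪] [IsDomain 𝒪] [IsDiscreteValuationRing 𝒪]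
    [IsAdicComplete (maximalIdeal 𝒪) 𝒪] [Finite (ResidueField 𝒪)] [CharZero 𝒪]
    (p : ℕ) [hpF : Fact p.Prime], p ≠ 2 → (p : 𝒪) ∈ maximalIdeal 𝒪 →
    ∀ (N : ℕ) [NeZero N] [Fact (CuspForm.HasIntegralStructure N 2)] (S : Finset ℕ), p ∈ S →
    (∀ q : ℕ, q.Prime → q ∣ N → q ∈ S) → ∀ (hpN : ¬ p ∣ N),
    ∀ (θ : CuspForm.heckeAlgebra N 2 (↑S : Set ℕ) →+* ResidueField 𝒪)
      (H : CuspForm.HeckeGaloisRepDatum N (↑S : Set ℕ) 𝒪 θ
        (CuspForm.heckeLocal N (↑S : Set ℕ) 𝒪 θ)),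
    H.π = CuspForm.heckeLocal.π N (↑S : Set ℕ) 𝒪 θ →
    H.ρ.DetIsCyclotomic p → H.ρ.residual.IsAbsolutelyIrreducible →
    ∀ (P : ValuationSubring (AlgebraicClosure ℚ)), P.LiesOverPrime p →
    ∀ (ℒ : OrdLine H.ρ P) (g : AlgebraicClosure ℚ ≃ₐ[ℚ] AlgebraicClosure ℚ),
      P.IsFrobeniusAt g p →
    ∀ z : CuspForm.heckeLocal N (↑S : Set ℕ) 𝒪 θ, ℒ.IsQuotEigen g z →
    ∀ πx : CuspForm.heckeLocal N (↑S : Set ℕ) 𝒪 θ →ₐ[𝒪] 𝒪,
    ∃ (K : Type) (_ : Field K) (_ : CharZero K) (i : 𝒪 →+* K)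
      (x' : CuspForm.heckeAlgebra N 2 (↑(S.erase p) : Set ℕ) →+* K),
      x' (CuspForm.heckeAlgebra.T hpF.out hpN (not_mem_erase S p)) * i (πx z) =
          i (πx z) ^ 2 + (p : K) ∨
      x' (CuspForm.heckeAlgebra.T hpF.out hpN (not_mem_erase S p)) * i (πx z) =
          1 + (p : K) * i (πx z) ^ 2

/-- The algebra behind CP-NE: `u² = 1` and `a u = u² + p` or `a u = 1 + p u²` give
`a² = (p + 1)²`. -/
theorem sq_eq_of_root {K : Type} [Field K] (a u c : K) (hu : u ^ 2 = 1)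
    (h : a * u = u ^ 2 + c ∨ a * u = 1 + c * u ^ 2) : a ^ 2 = (c + 1) ^ 2 := by
  have h1 : a * u = c + 1 := by
    rcases h with h | h
    · rw [h, hu]; ring
    · rw [h, hu]; ring
  calc a ^ 2 = a ^ 2 * u ^ 2 := by rw [hu, mul_one]
    _ = (a * u) ^ 2 := by ring
    _ = (c + 1) ^ 2 := by rw [h1]

/-- **CP-NE** from the pointwise local–global compatibility at `p`. -/
theorem cpne_of (hL : Stmt_LGCpt) : Stmt_CPNE := by
  intro 𝒪 _ _ _ _ _ _ p hpF hp2 hp𝒪 N _ _ S hpS hNS hpN θ H hπ hdet hirr P hP ℒ g hg z hz πx h0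
  obtain ⟨K, _, _, i, x', hx⟩ :=
    hL 𝒪 p hp2 hp𝒪 N S hpS hNS hpN θ H hπ hdet hirr P hP ℒ g hg z hz πx
  have hu : i (πx z) ^ 2 = 1 := by
    have h1 : πx z ^ 2 = 1 := sub_eq_zero.mp h0
    rw [← map_pow, h1, map_one]
  exact Fermat.Agent.S59.NonMin.H56.stmt_CQNE N (↑(S.erase p) : Set ℕ) p hpF.out hpN
    (not_mem_erase S p) K x' (sq_eq_of_root _ _ _ hu hx)

end Fermat.Agent.S59.CaseC.H12

end
-- ==== END Fermat.Agent.S59.CaseC.H12_CPNE
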