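-- GENERATED (merged mirror, NOTES/tools/trim/merge3_helper67.py): 8 modules of the originals, bodies verbatim.
import Mathlib
import Fermat.Agent.Zm.S43_L14_002
import Fermat.Agent.Zm.S59_L03_005
import Fermat.Agent.Zm.S59_L03_002
import Fermat.Agent.Zm.S59_L02_002
import Fermat.Agent.Zm.S33_L07_001
import Fermat.Agent.Zm.S59_L02_003
import Fermat.Agent.Zm.S44_L03_003
import Fermat.Agent.Zm.S59_L03_003
import Fermat.Agent.Zm.S43_L02_003
import Fermat.Agent.Zm.S36_L18_000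
import Fermat.Agent.Zm.S15_L03_000
import Fermat.Agent.Zm.S36_L02_001
import Fermat.Agent.Zm.S36_L04_001
import Fermat.Agent.Zm.S59_L01_004
import Fermat.Agent.Zm.S59_L02_004

-- ==== BEGIN Fermat.Agent.S59.CaseC.H2_Wire
section

/-!
# S59, package CASE-C: the top wirings (helper2)

* `rtall_of : Stmt_STEP → Stmt_BASE → Asm.Stmt_COND → Datum.Stmt_DATUM → Stmt_TWprimes →
    Asm.Stmt_ASM → Stmt_RTALL`;
* `stmt_CWIRE : Stmt_CWIRE`;
* `stmt_GENPTWIRE : Stmt_GENPTWIRE`.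
-/

set_option autoImplicit false
set_option linter.style.haveILetI false
set_option linter.unusedSectionVars false
set_option linter.unusedVariables false
set_option maxHeartbeats 1000000

open Polynomial CuspForm CongruenceSubgroup ModularFormClass IsLocalRing

namespace Fermat.Agent.S59.CaseC.H2

open Fermat.Agent.S59 Fermat.Agent.S59.Asm Fermat.Agent.S59.NonMin

/-- **RT-ALL** from the leaves of RT-NONMIN. -/
theorem rtall_of (hSTEP : Stmt_STEP) (hBASE : Stmt_BASE)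
    (hCOND : Asm.Stmt_COND) (hDATUM : Fermat.Agent.S59.Datum.Stmt_DATUM)
    (hTWP : Stmt_TWprimes) (hASM : Asm.Stmt_ASM) : Fermat.Agent.S59.CaseC.Stmt_RTALL := by
  intro 𝒪 _ _ _ _ _ _ p _ hp2 hp𝒪 fl ρbar Smin hyp hbar hnf N _ hN θ hθ x₀ hx₀ G M hMnt hG hG₀
    hGstep Sig hSig
  have hpP : p.Prime := Fact.out
  haveI hI : Fact (CuspForm.HasIntegralStructure N 2) := ⟨Fermat.Agent.S23.result N⟩
  obtain ⟨d, hd, hRT₀⟩ := NonMin.H2.rtProp_base 𝒪 p hBASE hCOND hDATUM hTWP hASM hp2 hp𝒪 fl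
    ρbar Smin hyp hbar hnf N hN θ hθ x₀ hx₀ M hMnt hG
  obtain ⟨s, hIs, x, hGs, hLev, hF, hx, hRT⟩ := NonMin.H2.rtProp_of_step 𝒪 p hSTEP hp2 hp𝒪 fl
    ρbar Smin hyp hbar hnf G hGstep d hd (⟨N, Smin, θ, M⟩ : NMState 𝒪) hI x₀ hG₀
    (NonMin.H2.levelHyp_base 𝒪 hpP fl hyp.hS hyp.hpSmin hN θ M) hθ hx₀ hRT₀ Sig hSig
  exact ⟨s, hIs, x, d, hGs, hLev, hF, hx, hd, hRT⟩

/-- **CWIRE**. -/
theorem stmt_CWIRE : Fermat.Agent.S59.CaseC.Stmt_CWIRE := by
  intro hNM2 hRTALL hSTEPP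
  intro 𝒪 _ _ _ _ _ _ p _ hp2 hp𝒪 ρbar Smin hyp hbar hord N _ hN θ hθ x₀ hx₀ Sig hSig ρ hρ hres a
    hfrob
  have hpP : p.Prime := Fact.out
  haveI hI : Fact (CuspForm.HasIntegralStructure N 2) := ⟨Fermat.Agent.S23.result N⟩
  have hNS : ∀ q : ℕ, q.Prime → q ∣ N → q ∈ Smin := by
    intro q hq hqN
    rw [hN] at hqN
    exact Asm.H2.prime_dvd_minLevel hpP true hyp.hS hyp.hpSmin hq hqN
  have hsqf : Squarefree N := by
    rw [hN]
    exact Asm.H2.squarefree_minLevel hpP true hyp.hS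
  have hnf : true = false → ¬ (GaloisRepAdic.ofResidualGaloisRep ρbar).IsFlatAt p :=
    fun h => absurd h (by decide)
  obtain ⟨M, G, hMnt, hG, hG₀, hGstep, hGp⟩ := hNM2 𝒪 p hp2 hp𝒪 ρbar Smin hyp N hNS hsqf θ hθ
  obtain ⟨s, hIs, x, d, hGs, hLev, hF, hx, hd, hRT⟩ := hRTALL 𝒪 p hp2 hp𝒪 true ρbar Smin hyp
    hbar hnf N hN θ hθ x₀ hx₀ G M hMnt hG hG₀ hGstep Sig hSig
  haveI := hIs
  have hpsN : ¬ p ∣ s.N := hLev.hfl rfl
  have hpS : p ∈ s.S := by
    rw [hLev.hS]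
    exact Finset.mem_union_left _ hyp.hpSmin
  haveI : NeZero (s.N * p) := ⟨mul_ne_zero (NeZero.ne s.N) hpP.ne_zero⟩
  haveI hI' : Fact (CuspForm.HasIntegralStructure (s.N * p) 2) :=
    ⟨Fermat.Agent.S23.result (s.N * p)⟩
  obtain ⟨g, hg, hga⟩ := hSTEPP 𝒪 p hp2 hp𝒪 ρbar Smin hyp hbar hord Sig s hLev hF x hx d hd hRT
    (hGp s hGs hpsN hpS) ρ hρ hres a hfrob
  obtain ⟨h1, h2⟩ := NonMin.H2.level_mul_p hpP hpsN hLev.hcube
  exact ⟨s.N * p, h1, h2, g, hg, hga⟩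

/-- **GENPTWIRE**: the three cases. -/
theorem stmt_GENPTWIRE : Fermat.Agent.S59.CaseC.Stmt_GENPTWIRE := by
  intro hnm hc
  intro 𝒪 _ _ _ _ _ _ p _ hp2 hp𝒪 fl ρbar Smin hyp hbar hnf N _ hN θ hθ x₀ hx₀ Sig hSig ρ hdet
    hunr huni hSiguni htype hres a hfrob
  have hunr' : ∀ q : ℕ, q.Prime → q ∉ Smin ∪ Sig → ρ.IsUnramifiedAt q := by
    intro q hq hqS
    exact hunr q hq (fun h => hqS (Finset.mem_union_left _ h))
      (fun h => hqS (Finset.mem_union_right _ h))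
  have huni' : ∀ q ∈ Smin, q.Prime → q ≠ p → ρ.IsUnipotentOnInertiaAt q :=
    fun q hq _ hqp => huni q hq hqp
  have hfrob' : ∀ ℓ : ℕ, ℓ.Prime → ℓ ∉ Smin ∪ Sig →
      ∀ A : ValuationSubring (AlgebraicClosure ℚ), A.LiesOverPrime ℓ →
        ∀ σ : AlgebraicClosure ℚ ≃ₐ[ℚ] AlgebraicClosure ℚ, A.IsFrobeniusAt σ ℓ →
          LinearMap.charpoly (ρ.ρ σ) = X ^ 2 - C (((a ℓ : ℤ) : 𝒪)) * X + C ((ℓ : 𝒪)) := by
    intro ℓ hℓ hℓS
    exact hfrob ℓ hℓ (fun h => hℓS (Finset.mem_union_left _ h))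
      (fun h => hℓS (Finset.mem_union_right _ h))
  have hfin : ∀ (X : ∃ N' : ℕ, ¬ p ^ 2 ∣ N' ∧ (∀ q : ℕ, q.Prime → ¬ q ^ 3 ∣ N') ∧
      ∃ g : CuspForm (Gamma0 N') 2, g.IsNormalizedEigenform ∧
        ∀ ℓ : ℕ, ℓ.Prime → ¬ ℓ ∣ N' → ℓ ∉ Smin ∪ Sig → qCoeff ⇑g ℓ = (a ℓ : ℂ)),
      ∃ N' : ℕ, ¬ p ^ 2 ∣ N' ∧ (∀ q : ℕ, q.Prime → ¬ q ^ 3 ∣ N') ∧
      ∃ g : CuspForm (Gamma0 N') 2, g.IsNormalizedEigenform ∧
        ∀ ℓ : ℕ, ℓ.Prime → ℓ ∉ Smin → ℓ ∉ Sig → ¬ ℓ ∣ N' → qCoeff ⇑g ℓ = (a ℓ : ℂ) := by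
    rintro ⟨N', h1, h2, g, hg, hga⟩
    refine ⟨N', h1, h2, g, hg, fun ℓ hℓ hℓS hℓSig hℓN => hga ℓ hℓ hℓN ?_⟩
    intro h
    rcases Finset.mem_union.mp h with h | h
    · exact hℓS h
    · exact hℓSig h
  rcases htype with hflat | hso
  · cases fl with
    | false => exact absurd (NonMin.H2.stmt_RESFLAT 𝒪 p ρbar ρ hres hflat) (hnf rfl)
    | true =>
      have hcond : cond 𝒪 p true Smin Sig ρ := ⟨⟨hdet, hflat, hunr'⟩, huni'⟩
      exact hfin (hnm 𝒪 p hp2 hp𝒪 true ρbar Smin hyp hbar hnf N hN θ hθ x₀ hx₀ Sig hSig ρ hcond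
        hres a hfrob')
  · cases fl with
    | false =>
      have hcond : cond 𝒪 p false Smin Sig ρ := ⟨⟨hdet, hso, hunr'⟩, huni'⟩
      exact hfin (hnm 𝒪 p hp2 hp𝒪 false ρbar Smin hyp hbar hnf N hN θ hθ x₀ hx₀ Sig hSig ρ
        hcond hres a hfrob')
    | true =>
      have hcond : Fermat.Agent.S59.CaseC.condOrd 𝒪 p Smin Sig ρ :=
        ⟨⟨hdet, hso.isOrdinaryAt, hunr'⟩, huni'⟩
      have hord : (GaloisRepAdic.ofResidualGaloisRep ρbar).IsOrdinaryAt p :=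
        NonMin.H2.stmt_RESORD 𝒪 p ρbar ρ hres hso.isOrdinaryAt
      exact hfin (hc 𝒪 p hp2 hp𝒪 ρbar Smin hyp hbar hord N hN θ hθ x₀ hx₀ Sig hSig ρ hcond hres a
        hfrob')

end Fermat.Agent.S59.CaseC.H2

end
-- ==== END Fermat.Agent.S59.CaseC.H2_Wire

-- ==== BEGIN Fermat.Agent.S59.LGC.H54_LGC
section

/-!
# S59, case C, LGC-p: the vector-level statement at `padicPlace p`  (helper54)

* `lgcpt0_of : (∀ N p, Stmt_TorsESp N p) → (∀ N p, Stmt_K1NoUnr N p) → Stmt_LGCpt0`.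

`V` the given representation, `G : V → 𝒪^r` the split equivariant embedding into the Tate limit
of `J₀(N)` (`p ∤ N`), `ℒ` the ordinary line, `g` a Frobenius element at `padicPlace p` with
eigenvalue `z` on `V / ℒ`, `Φ = ρL(g)² - T_p ρL(g) + p`, `e = z² - a_p z + p`.  For `v ∈ V`:
`Φ (G v) = G (φ v)` with `φ v ≡ e v` modulo `ℒ`.  Modulo `𝔪^k`: `κ = Φ (G v)` lies in the span
of `K1(p^k)` (ES-p), inertia fixes it modulo `Nsub = G(ℒ)`, which is stable under the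
decomposition group, and `p^k κ = 0`; so `κ ∈ Nsub` by (NUQ), i.e. `e v ∈ ℒ + 𝔪^k V` for all
`k`; for `v = b 1` (`ℒ = 𝒪 b 0`) this gives `e ∈ 𝔪^k` for all `k`, so `e = 0`.
-/

set_option autoImplicit false
set_option linter.unusedSectionVars false
set_option linter.unusedVariables false
set_option linter.style.haveILetI false
set_option synthInstance.maxHeartbeats 400000
set_option maxHeartbeats 4000000

open Polynomial IsLocalRing

noncomputable section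

namespace Fermat.Agent.S59.LGC.H54

open AlgebraicCurve ModularCurve Fermat.Agent.GTor Fermat.Agent.GTor.H81
  Fermat.Agent.GTor.H58T1 Fermat.Agent.Betti.H76 Fermat.Agent.R Fermat.Agent.R.H86
  Fermat.Agent.S32.H86 Fermat.Agent.S59 Fermat.Agent.S59.CaseC

/-- the coordinates of an element of `I • ⊤` lie in `I`. -/
theorem repr_mem_of_mem_smul_top {𝒪 V ι : Type} [CommRing 𝒪] [AddCommGroup V] [Module 𝒪 V]
    (b : Module.Basis ι 𝒪 V) (I : Ideal 𝒪) {x : V} (hx : x ∈ I • (⊤ : Submodule 𝒪 V))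
    (i : ι) : b.repr x i ∈ I := by
  induction hx using Submodule.smul_induction_on' with
  | smul r hr m _ =>
    rw [map_smul, Finsupp.smul_apply, smul_eq_mul]
    exact Ideal.mul_mem_right _ _ hr
  | add x _ y _ hx hy =>
    rw [map_add, Finsupp.add_apply]
    exact Ideal.add_mem _ hx hy

/-- the final step: `e b₁ ∈ 𝒪 b₀ + 𝔪^k V` for all `k` implies `e = 0`. -/
theorem eq_zero_of_forall_mem_line {𝒪 V : Type} [CommRing 𝒪] [IsLocalRing 𝒪]
    [IsNoetherianRing 𝒪] [AddCommGroup V] [Module 𝒪 V] (b : Module.Basis (Fin 2) 𝒪 V) (e : 𝒪)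
    (h : ∀ k : ℕ, ∃ l ∈ Submodule.span 𝒪 {b 0},
      e • b 1 - l ∈ (maximalIdeal 𝒪 ^ k) • (⊤ : Submodule 𝒪 V)) : e = 0 := by
  have h1 : ∀ k : ℕ, e ∈ maximalIdeal 𝒪 ^ k := by
    intro k
    obtain ⟨l, hl, hk⟩ := h k
    have h2 := repr_mem_of_mem_smul_top b _ hk 1
    obtain ⟨c, rfl⟩ := Submodule.mem_span_singleton.1 hl
    simpa using h2
  have h3 : e ∈ ⨅ k : ℕ, maximalIdeal 𝒪 ^ k := by
    rw [Ideal.mem_iInf]
    exact h1
  rw [Ideal.iInf_pow_eq_bot_of_isLocalRing _ (Ideal.IsPrime.ne_top inferInstance)] at h3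
  exact h3

/-- **LGC-VEC**: the vector-level statement at `padicPlace p` from (ES-p) and (NUQ). -/
theorem lgcpt0_of
    (hESp : ∀ (N p : ℕ) [NeZero N], Stmt_TorsESp N p)
    (hNUQ : ∀ (N p : ℕ) [NeZero N] [Fact p.Prime], Stmt_K1NoUnr N p) : Stmt_LGCpt0 := by
  intro 𝒪 _ _ _ _ _ _ p _ hp2 hp𝒪 N _ S hpSmem hNS hp hpN hpS xt ρ hρ hdet habs ℒ g hg z hz
  classical
  have hNS' : ∀ q : ℕ, q.Prime → q ∣ N → q ∈ (↑(S.erase p) : Set ℕ) := fun q hq hqN => by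
    have hqp : q ≠ p := by
      rintro rfl
      exact hpN hqN
    exact Finset.mem_coe.2 (Finset.mem_erase.2 ⟨hqp, hNS q hq hqN⟩)
  obtain ⟨C⟩ := tateCoords N p (↑(S.erase p) : Set ℕ) hp hNS'
  obtain ⟨L⟩ := exists_tateLimit C 𝒪 hp𝒪
  obtain ⟨Pc, hPc⟩ := exists_piece_eig L xt
  have hES : Stmt_TorsES N p := torsES_of_red hp (Fermat.Agent.R.H33.allRed N p)
  -- the Frobenius relation on the piece
  have hFrob : ∀ ℓ : ℕ, ℓ.Prime → ℓ ∉ S →
      ∀ A : ValuationSubring (AlgebraicClosure ℚ), A.LiesOverPrime ℓ →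
        ∀ σ : Fermat.Agent.S30.GQ, A.IsFrobeniusAt σ ℓ →
          Pc.rep σ * Pc.rep σ - (LinearMap.trace 𝒪 ρ.V (ρ.ρ σ)) • Pc.rep σ
            + (LinearMap.det (ρ.ρ σ)) • (1 : Matrix (Fin Pc.d) (Fin Pc.d) 𝒪) = 0 := by
    intro ℓ hℓ hℓS A hA σ hσ
    have hℓN : ¬ ℓ ∣ N := fun h => hℓS (hNS ℓ hℓ h)
    have hℓp : ℓ ≠ p := by
      rintro rfl
      exact hℓS hpSmem
    have hℓS' : ℓ ∉ (↑(S.erase p) : Set ℕ) := fun h =>
      hℓS (Finset.mem_of_mem_erase (Finset.mem_coe.1 h))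
    have h1 := piece_ES L Pc hES hℓ hℓN hℓp hℓS' (xt (CuspForm.heckeAlgebra.T hℓ hℓN hℓS'))
      (hPc _) A hA σ hσ
    obtain ⟨htr, hdet⟩ := trace_det_of_charpoly ρ.finrank_eq (ρ.ρ σ)
      (hρ ℓ hℓ hℓN hℓS' hℓp A hA σ hσ)
    rw [htr, hdet]
    exact h1
  have hCH := ch_all Fermat.Agent.Lib.FrobDensity.stmt_FD ρ Pc.rep (L.cont_piece Pc) S hFrob
  obtain ⟨G, R, hRG, hGeq, hGP⟩ := Fermat.Agent.S33.New.H54.exists_embedding_of_piece ρ habs
    Pc.pos L.ρL Pc.P Pc.Q Pc.QP Pc.rep (fun σ => Pc.rel_rep σ) hCH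
  -- `T_p` acts as the scalar `a_p` on the image of `G`
  set ap : 𝒪 := xt (CuspForm.heckeAlgebra.T hp hpN hpS) with hap
  have hTG : ∀ v, (Mc 𝒪 C.M (CuspForm.heckeAlgebra.T hp hpN hpS)).mulVec (G v) = ap • G v := by
    intro v
    obtain ⟨u, hu⟩ := hGP v
    rw [hu, Matrix.mulVec_mulVec, hPc, Matrix.smul_mulVec]
  -- the operator `Φ`
  set Φ : Matrix (Fin C.r) (Fin C.r) 𝒪 :=
    L.ρL g * L.ρL g - Mc 𝒪 C.M (CuspForm.heckeAlgebra.T hp hpN hpS) * L.ρL g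
      + ((p : ℕ) : Matrix (Fin C.r) (Fin C.r) 𝒪) with hΦ
  have hΦc : ∀ k : ℕ, (piK (maximalIdeal 𝒪) k).mapMatrix Φ =
      (cK (maximalIdeal 𝒪) p hp𝒪 k).mapMatrix (phiK C hp hpN hpS g k) := fun k =>
    ((((L.spec g).mul (L.spec g)).sub ((compat_Mc C.M _).mul (L.spec g))).add
      (compat_natCast p)) k
  have hΦG : ∀ v, Φ.mulVec (G v) =
      G (ρ.ρ g (ρ.ρ g v) - ap • ρ.ρ g v + (p : 𝒪) • v) := by
    intro v
    rw [hΦ, Matrix.add_mulVec, Matrix.sub_mulVec, ← Matrix.mulVec_mulVec,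
      ← Matrix.mulVec_mulVec, ← hGeq, ← hGeq, hTG, Matrix.natCast_mulVec, map_add, map_sub,
      map_smul, map_smul]
  -- `φ v ≡ e v` modulo the line
  set e : 𝒪 := z ^ 2 - ap * z + (p : 𝒪) with he
  have hφ : ∀ v, (ρ.ρ g (ρ.ρ g v) - ap • ρ.ρ g v + (p : 𝒪) • v) - e • v ∈ ℒ.L := by
    intro v
    have h1 := hz v
    have h2 := hz (ρ.ρ g v)
    have h3 : (ρ.ρ g (ρ.ρ g v) - ap • ρ.ρ g v + (p : 𝒪) • v) - e • v =
        (ρ.ρ g (ρ.ρ g v) - z • ρ.ρ g v) + (z - ap) • (ρ.ρ g v - z • v) := by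
      rw [he]
      module
    rw [h3]
    exact ℒ.L.add_mem h2 (ℒ.L.smul_mem _ h1)
  obtain ⟨b, hb⟩ := ℒ.isLine
  show e = 0
  apply eq_zero_of_forall_mem_line b e
  intro k
  -- the subgroup `Nsub` of `W_k`
  set f : ρ.V →+ (Fin C.r → 𝒪 ⧸ maximalIdeal 𝒪 ^ k) :=
    (piVec 𝒪 C.r k).comp G.toAddMonoidHom with hf
  have hfapp : ∀ v, f v = piVec 𝒪 C.r k (G v) := fun v => rfl
  have hfact : ∀ σ v, actW L k σ (f v) = f (ρ.ρ σ v) := by
    intro σ v
    rw [hfapp, hfapp, actW_apply, ← piVec_mulVec, hGeq]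
  set Nsub : AddSubgroup (Fin C.r → 𝒪 ⧸ maximalIdeal 𝒪 ^ k) :=
    ℒ.L.toAddSubgroup.map f with hNsub
  have hNst : DStable (actW L k) ((padicPlace p).decompositionSubgroup ℚ : Set GQ) Nsub := by
    rintro σ hσ _ ⟨l, hl, rfl⟩
    rw [hfact]
    exact ⟨_, ℒ.stable σ hσ l hl, rfl⟩
  set v : ρ.V := b 1 with hv
  set φv : ρ.V := ρ.ρ g (ρ.ρ g v) - ap • ρ.ρ g v + (p : 𝒪) • v with hφv
  have hκ : f φv ∈ kSpan C 𝒪 hp𝒪 (padicPlace p) k := by
    rw [hfapp, hφv, ← hΦG, piVec_mulVec, hΦc]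
    exact phi_mem_kSpan (hESp N p) hp hpN hpS Fermat.Agent.S33.H86.padicPlace_liesOverPrime hg k _
  have hpk : p ^ k • f φv ∈ Nsub := by
    have h0 : p ^ k • f φv = 0 := by
      rw [← map_nsmul, hfapp]
      funext i
      rw [piVec_apply, Pi.zero_apply, Ideal.Quotient.eq_zero_iff_mem, map_nsmul, Pi.smul_apply,
        nsmul_eq_mul, Nat.cast_pow]
      exact Ideal.mul_mem_right _ _ (Ideal.pow_mem_pow hp𝒪 k)
    rw [h0]
    exact Nsub.zero_mem
  have hin : ∀ σ ∈ ((padicPlace p).inertiaSubgroupIn ℚ : Set GQ),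
      actW L k σ (f φv) - f φv ∈ Nsub := by
    intro σ hσ
    rw [hfact, ← map_sub]
    exact ⟨_, ℒ.inertia σ hσ φv, rfl⟩
  obtain ⟨l, hl, hlκ⟩ := (nuq_kSpan L (hNUQ N p) hp2 hpN k).pow Nsub hNst k (f φv) hκ hpk hin
  -- back to `V`
  have hent : ∀ i, G (φv - l) i ∈ maximalIdeal 𝒪 ^ k := by
    intro i
    have h1 : f (φv - l) = 0 := by
      rw [map_sub, hlκ, sub_self]
    have h2 := congrFun h1 i
    rw [hfapp, piVec_apply, Pi.zero_apply, Ideal.Quotient.eq_zero_iff_mem] at h2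
    exact h2
  have hmem := Fermat.Agent.S33.New.H54.map_mem_smul_top_of_entries R (maximalIdeal 𝒪 ^ k) _ hent
  rw [hRG] at hmem
  refine ⟨l - (φv - e • v), ?_, ?_⟩
  · rw [← hb]
    exact ℒ.L.sub_mem hl (hφ v)
  · have h4 : e • b 1 - (l - (φv - e • v)) = φv - l := by
      rw [hv]
      abel
    rw [h4]
    exact hmem

end Fermat.Agent.S59.LGC.H54

end
end
-- ==== END Fermat.Agent.S59.LGC.H54_LGC

-- ==== BEGIN Fermat.Agent.S59.LL.SQ.H35_EigRed11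
section
attribute [local instance 10000] SubalgebraClass.toAlgebra
attribute [local instance 10000] HahnSeries.powerSeriesAlgebra

/-!
# S59 / LL / SQ, leaf OLD-RED at `q²` (helper35): HECKE-RED for the component `11`

Level `N = M q²`, `q ∤ M`, `A` over `q`, `ℓ ∤ N` a prime, `L₀ = L0 A N`.

* `NormRed11At` : **NORM-RED** for `V₁₁` on `L₀` (helper87):
  `r₁₁ (N_α (β f)) = N_α~ (β~ (r₁₁ f))`;
* `eigRed11` : **HECKE-RED11**.  If `p D = div f` with `f ∈ L₀` a unit for `V₂₀` and `V₁₁`,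
  `p D' = div (r₁₁ f)` on the reduced field of level `M` and `T_ℓ D - t D` is principal, then
  `T~_ℓ D' - t D'` is principal.

Proof: `N_α (β f) f ^ b = c f ^ a h ^ p` (`t = a - b`) with `h ∈ L₀` and `c` a constant fixed by
inertia (`root_L0`); scaling `h` by a power of `q` makes it a unit for `V₂₀` (`exact20`); then
`c` is a unit of `A` (NORM-VAL at `V₂₀`, helper33), hence `h` is a unit for `V₁₁`
(NORM-RED at `V₁₁`, value groups are torsion-free); reduce by `r₁₁`.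
-/

set_option autoImplicit false
set_option linter.style.haveILetI false
set_option linter.unusedSectionVars false
set_option synthInstance.maxHeartbeats 400000
set_option maxHeartbeats 1000000

noncomputable section

open AlgebraicCurve ModularCurve
open Fermat.Agent.S24 Fermat.Agent.BAD Fermat.Agent.BAD.H88
open Fermat.Agent.S28 Fermat.Agent.S28.H73 Fermat.Agent.RED.H73 Fermat.Agent.RED.H17
open Fermat.Agent.S36.NU.H88 Fermat.Agent.S36.NU.H23 Fermat.Agent.S36.NU.H26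
open Fermat.Agent.S43.Old.H35 Fermat.Agent.RED

namespace Fermat.Agent.S59.LL.SQ.H35

section EigRed

variable (A : ValuationSubring Kbar) (q M : ℕ) (B k : ℤ) (hB : B * M + k * q = 1) (hq : q.Prime)
  [NeZero M] [NeZero q] [NeZero (M * q * q)] (hqM : ¬ q ∣ M) (hA : A.LiesOverPrime q)

/-- **NORM-RED for `V₁₁`** on the inertia-fixed functions, at `ℓ`. -/
def NormRed11At (ℓ : ℕ) [NeZero ℓ] : Prop :=
  ∀ (f : ↥(L0 A (M * q * q))) (h11 : f ∈ V11o A q M B k hB hq) (nf : ↥(L0 A (M * q * q))),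
    (nf : FN (M * q * q))
      = Fermat.Agent.GTor.H2.heckeNormFn Kbar (M * q * q) ℓ (f : FN (M * q * q)) →
    ∃ hn : nf ∈ V11o A q M B k hB hq,
      r11 A q M B k hB hq hqM hA ⟨nf, hn⟩
        = normAlong (alphaT A M ℓ) (betaT A M ℓ (r11 A q M B k hB hq hqM hA ⟨f, h11⟩))

/-! ### Units -/

theorem val20_of_s20 (f : ↥(L0 A (M * q * q))) (h20 : f ∈ V20o A q M)
    (hs : s20 A q M ⟨f, h20⟩ ≠ 0) :
    (V20 A (M * q * q)).valuation (f : FN (M * q * q)) = 1 := by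
  have hu : IsUnit (⟨f, h20⟩ : ↥(V20o A q M)) := by
    by_contra hcon
    exact hs (s20_eq_zero_of_not_isUnit A q M _ hcon)
  exact (val_res_eq_one_iff (L0 A (M * q * q)) (V20 A (M * q * q)) f).1
    (val_one_of_isUnit (V20o A q M) ⟨f, h20⟩ hu)

theorem val11_of_s11 (f : ↥(L0 A (M * q * q))) (h11 : f ∈ V11o A q M B k hB hq)
    (hs : s11 A q M B k hB hq ⟨f, h11⟩ ≠ 0) :
    (V11 A (M * q * q) q M B k (lvl q M) hB hq).valuation (f : FN (M * q * q)) = 1 := by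
  have hu : IsUnit (⟨f, h11⟩ : ↥(V11o A q M B k hB hq)) := by
    by_contra hcon
    exact hs (s11_eq_zero_of_not_isUnit A q M B k hB hq _ hcon)
  exact (val_res_eq_one_iff (L0 A (M * q * q))
    (V11 A (M * q * q) q M B k (lvl q M) hB hq) f).1
    (val_one_of_isUnit (V11o A q M B k hB hq) ⟨f, h11⟩ hu)

theorem s11_ne_zero_of_r11 (x : ↥(V11o A q M B k hB hq))
    (h : r11 A q M B k hB hq hqM hA x ≠ 0) : s11 A q M B k hB hq x ≠ 0 := by
  intro h0
  apply h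
  apply Subtype.ext
  rw [coe_r11, h0]
  rfl

theorem r11_ne_zero_of_s11 (x : ↥(V11o A q M B k hB hq))
    (h : s11 A q M B k hB hq x ≠ 0) : r11 A q M B k hB hq hqM hA x ≠ 0 := by
  intro h0
  apply h
  rw [← coe_r11 A q M B k hB hq hqM hA, h0]
  rfl

theorem r11_ne_zero_of_val (y : ↥(L0 A (M * q * q)))
    (hv : (V11 A (M * q * q) q M B k (lvl q M) hB hq).valuation (y : FN (M * q * q)) = 1) :
    ∃ hm : y ∈ V11o A q M B k hB hq, r11 A q M B k hB hq hqM hA ⟨y, hm⟩ ≠ 0 := by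
  have hm : y ∈ V11o A q M B k hB hq :=
    val_one_mem (V11 A (M * q * q) q M B k (lvl q M) hB hq) hv
  have hv' : (V11o A q M B k hB hq).valuation y = 1 :=
    (val_res_eq_one_iff (L0 A (M * q * q)) (V11 A (M * q * q) q M B k (lvl q M) hB hq) y).2 hv
  have hu : IsUnit (⟨y, hm⟩ : ↥(V11o A q M B k hB hq)) :=
    val_one_isUnit (V11o A q M B k hB hq) hv' hm
  exact ⟨hm, (hu.map (r11 A q M B k hB hq hqM hA)).ne_zero⟩

/-- The reduction at `V₁₁` of a constant. -/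
theorem r11_const (c : Kbar) (hcA : c ∈ A)
    (hcL : algebraMap Kbar (FN (M * q * q)) c ∈ L0 A (M * q * q))
    (h11 : (⟨algebraMap Kbar (FN (M * q * q)) c, hcL⟩ : ↥(L0 A (M * q * q)))
      ∈ V11o A q M B k hB hq) :
    ∃ c' : kV A, r11 A q M B k hB hq hqM hA ⟨⟨algebraMap Kbar (FN (M * q * q)) c, hcL⟩, h11⟩
      = algebraMap (kV A) (FM A M) c' := by
  refine ⟨resV A ⟨c, hcA⟩, Subtype.ext ?_⟩
  rw [coe_r11]
  show ((red11 A (M * q * q) q M B k (lvl q M) hB hq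
    ⟨algebraMap Kbar (FN (M * q * q)) ((⟨c, hcA⟩ : ↥A) : Kbar), h11⟩ :
      F11 A (M * q * q) q M B k (lvl q M) hB hq) : LaurentSeries (kV A)) = _
  rw [red11_const A (M * q * q) q M B k (lvl q M) hB hq ⟨c, hcA⟩ h11]
  rfl

/-- The inclusion of `V₁₁ ∩ L₀` in `F_N`. -/
def iota11 : ↥(V11o A q M B k hB hq) →+* FN (M * q * q) :=
  (L0 A (M * q * q)).subtype.comp (V11o A q M B k hB hq).subtype

theorem iota11_mk (x : FN (M * q * q)) (hL : x ∈ L0 A (M * q * q))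
    (hV : (⟨x, hL⟩ : ↥(L0 A (M * q * q))) ∈ V11o A q M B k hB hq) :
    iota11 A q M B k hB hq ⟨⟨x, hL⟩, hV⟩ = x := rfl

theorem iota11_injective : Function.Injective (iota11 A q M B k hB hq) := fun _ _ h =>
  Subtype.ext (Subtype.ext h)

/-! ### HECKE-RED11 -/

include hqM hA in
/-- **HECKE-RED11.** -/
theorem eigRed11 (p : ℕ) (hp : p ≠ 0) (ℓ : ℕ) [NeZero ℓ] (hℓ : ℓ.Prime)
    (hℓN : ¬ ℓ ∣ M * q * q)
    (hnorm : NormRed11At A q M B k hB hq hqM hA ℓ)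
    (hα : HeckeAlphaBarIntegral Kbar (M * q * q) ℓ)
    (hβ : HeckeBetaBarIntegral Kbar (M * q * q) ℓ)
    [HasPrincipalDivisors Kbar ↥(modularFunctionFieldBar (M * q * q * ℓ))]
    (hα' : (alphaT A M ℓ).toRingHom.IsIntegral) (hβ' : (betaT A M ℓ).toRingHom.IsIntegral)
    [HasPrincipalDivisors (kV A) ↥(Ft A (M * ℓ))]
    (D : Divisor Kbar (FN (M * q * q))) (f : ↥(L0 A (M * q * q)))
    (h20 : f ∈ V20o A q M) (hs20 : s20 A q M ⟨f, h20⟩ ≠ 0)
    (h11 : f ∈ V11o A q M B k hB hq) (hs11 : s11 A q M B k hB hq ⟨f, h11⟩ ≠ 0)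
    (hD : ∀ P : Place Kbar (FN (M * q * q)), (p : ℤ) * D P = P.ord (f : FN (M * q * q)))
    (D' : Divisor (kV A) ↥(Ft A M))
    (hD' : ∀ Q : Place (kV A) ↥(Ft A M),
      (p : ℤ) * D' Q = Q.ord (r11 A q M B k hB hq hqM hA ⟨f, h11⟩))
    (t : ℤ) (heig : Divisor.IsPrincipal (heckeDivBar hα hβ D - t • D)) :
    Divisor.IsPrincipal (K := kV A) (F := ↥(Ft A M))
      (Divisor.correspondence (betaT A M ℓ) (alphaT A M ℓ) hβ' hα' D' - t • D') := by
  classical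
  have hℓq : ℓ ≠ q := fun h => hℓN (h ▸ dvd_mul_left ℓ (M * q))
  have hqMℓ : ¬ q ∣ M * ℓ := by
    intro h
    rcases (Nat.Prime.dvd_mul hq).1 h with h1 | h1
    · exact hqM h1
    · exact hℓq ((Nat.prime_dvd_prime_iff_eq hq hℓ).1 h1).symm
  obtain ⟨-, -, -, hfin, -, hNF⟩ := RED.H51.stmt_HKA (M * q * q) ℓ
  have TI := towerInputs (A := A) (M := M) (ℓ := ℓ) hq hA hqMℓ
  -- the units `f`
  have hv20f := val20_of_s20 A q M f h20 hs20
  have hv11f := val11_of_s11 A q M B k hB hq f h11 hs11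
  have hf0 : (f : FN (M * q * q)) ≠ 0 := val_one_ne_zero _ hv20f
  have hg0 : r11 A q M B k hB hq hqM hA ⟨f, h11⟩ ≠ 0 :=
    r11_ne_zero_of_s11 A q M B k hB hq hqM hA _ hs11
  -- the norm
  obtain ⟨nfF, hnfF⟩ : ∃ nfF : FN (M * q * q), nfF
      = Fermat.Agent.GTor.H2.heckeNormFn Kbar (M * q * q) ℓ (f : FN (M * q * q)) := ⟨_, rfl⟩
  have hnfF' : nfF = normAlong (heckeAlphaBar Kbar (M * q * q) ℓ)
      (heckeBetaBar Kbar (M * q * q) ℓ (f : FN (M * q * q))) := hnfF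
  have hnfL : nfF ∈ L0 A (M * q * q) := by
    rw [hnfF']
    exact norm_mem_L0 A (heckeAlphaBar Kbar (M * q * q) ℓ)
      (arithEquivariant_alpha (M * q * q) ℓ) hfin _
      (map_mem_L0 A (heckeBetaBar Kbar (M * q * q) ℓ) (arithEquivariant_beta (M * q * q) ℓ) _ f.2)
  have hv20nf : (V20 A (M * q * q)).valuation nfF = 1 := by
    rw [hnfF]
    exact (isVU_iff_val _ _).1 (H33.nv20 q M hq hqM ℓ hℓ hℓN A hA (f : FN (M * q * q))
      ((isVU_iff_val _ _).2 hv20f))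
  obtain ⟨hn11, hnred⟩ := hnorm f h11 ⟨nfF, hnfL⟩ hnfF
  have hβg : betaT A M ℓ (r11 A q M B k hB hq hqM hA ⟨f, h11⟩) ≠ 0 := by
    intro h0
    exact hg0 ((betaT A M ℓ).toRingHom.injective (by simpa using h0))
  have hnred0 : r11 A q M B k hB hq hqM hA ⟨⟨nfF, hnfL⟩, hn11⟩ ≠ 0 := by
    rw [hnred]
    exact normAlong_ne_zero (alphaT A M ℓ) TI.hfin hβg
  have hv11nf : (V11 A (M * q * q) q M B k (lvl q M) hB hq).valuation nfF = 1 :=
    val11_of_s11 A q M B k hB hq ⟨nfF, hnfL⟩ hn11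
      (s11_ne_zero_of_r11 A q M B k hB hq hqM hA _ hnred0)
  have hnf0 : nfF ≠ 0 := val_one_ne_zero _ hv20nf
  have hordnf : ∀ P : Place Kbar (FN (M * q * q)), P.ord nfF
      = (p : ℤ) * Divisor.correspondence (heckeBetaBar Kbar (M * q * q) ℓ)
        (heckeAlphaBar Kbar (M * q * q) ℓ) hβ hα D P := fun P => by
    rw [hnfF']
    exact (corr_ord (heckeBetaBar Kbar (M * q * q) ℓ) (heckeAlphaBar Kbar (M * q * q) ℓ) hβ hα
      hfin hNF (p : ℤ) D hf0 hD P).symm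
  -- the eigen-equation
  obtain ⟨h, hh0, hh⟩ := heig
  obtain ⟨a, b, hab⟩ : ∃ a b : ℕ, t = (a : ℤ) - (b : ℤ) :=
    ⟨t.toNat, (-t).toNat, by omega⟩
  have hfa0 : (f : FN (M * q * q)) ^ a ≠ 0 := pow_ne_zero _ hf0
  have hfb0 : (f : FN (M * q * q)) ^ b ≠ 0 := pow_ne_zero _ hf0
  obtain ⟨G, hG⟩ : ∃ G : FN (M * q * q), G
      = nfF * (f : FN (M * q * q)) ^ b * ((f : FN (M * q * q)) ^ a)⁻¹ := ⟨_, rfl⟩
  have hG0 : G ≠ 0 := by
    rw [hG]
    exact mul_ne_zero (mul_ne_zero hnf0 hfb0) (inv_ne_zero hfa0)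
  have hGL : G ∈ L0 A (M * q * q) := by
    rw [hG]
    exact (L0 A (M * q * q)).mul_mem ((L0 A (M * q * q)).mul_mem hnfL
      ((L0 A (M * q * q)).pow_mem f.2 b)) ((L0 A (M * q * q)).inv_mem
      ((L0 A (M * q * q)).pow_mem f.2 a))
  have hordG : ∀ P : Place Kbar (FN (M * q * q)), P.ord G = (p : ℤ) * P.ord h := by
    intro P
    have h1 : P.ord h = Divisor.correspondence (heckeBetaBar Kbar (M * q * q) ℓ)
        (heckeAlphaBar Kbar (M * q * q) ℓ) hβ hα D P - t * D P := by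
      rw [← hh P, Finsupp.sub_apply, Finsupp.smul_apply, smul_eq_mul]
      rfl
    rw [hG, P.ord_mul (mul_ne_zero hnf0 hfb0) (inv_ne_zero hfa0), P.ord_mul hnf0 hfb0,
      P.ord_inv, ord_pow, ord_pow, hordnf P, h1, ← hD P, hab]
    ring
  obtain ⟨c0, h₀, hc0, hc0fix, hh₀0, hh₀L, -, hGeq⟩ := root_L0 A p hp G hG0 hGL h hh0 hordG
  -- the scaling at `V₂₀`
  obtain ⟨j, y, hyL, hv20y, hh₀y⟩ := exists_scale20_L0 A q M B k hB hq hqM hA h₀ hh₀0 hh₀L
  obtain ⟨c1, hc1⟩ : ∃ c1 : Kbar, c1 = c0 * (((q : ℕ) : Kbar) ^ j) ^ p := ⟨_, rfl⟩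
  have hGeq' : G = algebraMap Kbar (FN (M * q * q)) c1 * y ^ p := by
    rw [hGeq, hh₀y, mul_pow, hc1, map_mul, map_pow]
    ring
  have hv20G : (V20 A (M * q * q)).valuation G = 1 := by
    rw [hG, map_mul, map_mul, map_inv₀, map_pow, map_pow, hv20nf, hv20f, one_pow, one_pow,
      inv_one, mul_one, mul_one]
  have hv20c : (V20 A (M * q * q)).valuation (algebraMap Kbar (FN (M * q * q)) c1) = 1 := by
    have h1 := hv20G
    rw [hGeq', map_mul, map_pow, hv20y, one_pow, mul_one] at h1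
    exact h1
  obtain ⟨hcA, hcA'⟩ := const_unit_of_val20 A q M c1 hv20c
  have hc10 : c1 ≠ 0 := by
    intro h0
    have h1 := val_one_ne_zero _ hv20c
    rw [h0, map_zero] at h1
    exact h1 rfl
  have hv11c := val11_const A q M B k hB hq c1 hc10 hcA hcA'
  have hv11G : (V11 A (M * q * q) q M B k (lvl q M) hB hq).valuation G = 1 := by
    rw [hG, map_mul, map_mul, map_inv₀, map_pow, map_pow, hv11nf, hv11f, one_pow, one_pow,
      inv_one, mul_one, mul_one]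
  have hv11y : (V11 A (M * q * q) q M B k (lvl q M) hB hq).valuation y = 1 := by
    apply val_eq_one_of_pow _ y p hp
    have h1 := hv11G
    rw [hGeq', map_mul, map_pow, hv11c, one_mul] at h1
    exact h1
  obtain ⟨hy11, hyred⟩ := r11_ne_zero_of_val A q M B k hB hq hqM hA ⟨y, hyL⟩ hv11y
  -- the constant
  have hc1fix : ∀ σ ∈ A.inertiaSubgroupIn ℚ, σ c1 = c1 := by
    intro σ hσ
    rw [hc1, map_mul, map_pow, map_zpow₀, map_natCast, hc0fix σ hσ]
  have hcL : algebraMap Kbar (FN (M * q * q)) c1 ∈ L0 A (M * q * q) :=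
    (const_mem_L0_iff A c1).2 hc1fix
  have hc11 : (⟨algebraMap Kbar (FN (M * q * q)) c1, hcL⟩ : ↥(L0 A (M * q * q)))
      ∈ V11o A q M B k hB hq :=
    val_one_mem (V11 A (M * q * q) q M B k (lvl q M) hB hq) hv11c
  obtain ⟨c', hc'⟩ := r11_const A q M B k hB hq hqM hA c1 hcA hcL hc11
  -- the relation in `V₁₁ ∩ L₀`
  have hrelV : (⟨⟨nfF, hnfL⟩, hn11⟩ : ↥(V11o A q M B k hB hq)) * ⟨f, h11⟩ ^ b
      = ⟨⟨algebraMap Kbar (FN (M * q * q)) c1, hcL⟩, hc11⟩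
        * (⟨f, h11⟩ ^ a * ⟨⟨y, hyL⟩, hy11⟩ ^ p) := by
    apply iota11_injective A q M B k hB hq
    rw [map_mul, map_pow, map_mul, map_mul, map_pow, map_pow, iota11_mk, iota11_mk, iota11_mk]
    show nfF * (f : FN (M * q * q)) ^ b
      = algebraMap Kbar (FN (M * q * q)) c1 * ((f : FN (M * q * q)) ^ a * y ^ p)
    have h1 : nfF * (f : FN (M * q * q)) ^ b = G * (f : FN (M * q * q)) ^ a := by
      rw [hG, inv_mul_cancel_right₀ hfa0]
    rw [h1, hGeq']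
    ring
  have hrel := congrArg (r11 A q M B k hB hq hqM hA) hrelV
  rw [map_mul, map_pow, map_mul, map_mul, map_pow, map_pow, hnred, hc'] at hrel
  have hc'0 : c' ≠ 0 := by
    rintro rfl
    rw [map_zero, zero_mul] at hrel
    exact mul_ne_zero (normAlong_ne_zero (alphaT A M ℓ) TI.hfin hβg) (pow_ne_zero _ hg0) hrel
  rw [hab]
  exact eig_of_rel (alphaT A M ℓ) (betaT A M ℓ) hα' hβ' TI.hfin TI.hNF p hp a b D'
    (r11 A q M B k hB hq hqM hA ⟨f, h11⟩) hg0 hD' c' hc'0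
    (r11 A q M B k hB hq hqM hA ⟨⟨y, hyL⟩, hy11⟩) hyred hrel

end EigRed

end Fermat.Agent.S59.LL.SQ.H35

end
end
-- ==== END Fermat.Agent.S59.LL.SQ.H35_EigRed11

-- ==== BEGIN Fermat.Agent.S59.LL.SQ.H40_SpanTors
section

/-!
# S59, package LL / SQ, leaf PB-ASM, general form (helper40)

`eig_of_span_tors` : the same as `eig_of_span` with TORSION points `y, y'` of ANY order (the
points found by ST-RANK live in `T₁[p^{c+1}]`): TORS-REL kills all torsion, so every relation `P`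
of level `M` satisfies `P(T) x = π₁ (P(T) y) + π₂ (P(T) y') = 0`, hence `p ∣ P(t)`, and CHAR-M
gives the eigenform of level `M`.  No finiteness, no `p ≠ 2`.

* `lift_map_comm` : an additive map which intertwines two families of operators intertwines
  their noncommutative polynomials;
* `eig_of_span_tors`;
* `HasSqSpanTorsAt`, `Stmt_SqSpanTors`, `sqNew_of_spanTors` : the interface for the toric part:
  conclusion `x = α^* y + β^* y'` with `y, y'` torsion, OR the eigenform of level `M` directly.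
-/

set_option autoImplicit false
set_option linter.style.haveILetI false
set_option synthInstance.maxHeartbeats 400000
set_option maxHeartbeats 1000000

noncomputable section

open AlgebraicCurve ModularCurve

namespace Fermat.Agent.S59.LL.SQ.H40

open Fermat.Agent.S44 Fermat.Agent.S59.LL Fermat.Agent.S35.H89 Fermat.Agent.L.LiftEig

/-- An additive map intertwining two families of operators intertwines their polynomials. -/
theorem lift_map_comm {ι J J' : Type*} [AddCommGroup J] [AddCommGroup J'] (π : J →+ J')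
    (T : ι → Module.End ℤ J) (T' : ι → Module.End ℤ J')
    (hπ : ∀ (i : ι) (y : J), π (T i y) = T' i (π y)) (P : FreeAlgebra ℤ ι) :
    ∀ y : J, π (FreeAlgebra.lift ℤ T P y) = FreeAlgebra.lift ℤ T' P (π y) := by
  induction P using FreeAlgebra.induction with
  | grade0 a =>
    intro y
    rw [AlgHom.commutes, AlgHom.commutes, Module.algebraMap_end_apply,
      Module.algebraMap_end_apply, map_zsmul]
  | grade1 i =>
    intro y
    rw [FreeAlgebra.lift_ι_apply, FreeAlgebra.lift_ι_apply]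
    exact hπ i y
  | mul a b iha ihb =>
    intro y
    rw [map_mul, map_mul, Module.End.mul_apply, Module.End.mul_apply, iha, ihb]
  | add a b iha ihb =>
    intro y
    rw [map_add, map_add, LinearMap.add_apply, LinearMap.add_apply, map_add, iha, ihb]

/-- **Eigenvectors in the span of two equivariant maps, torsion form.** -/
theorem eig_of_span_tors (p : ℕ) (hp : p.Prime) (M N : ℕ) [NeZero M] [NeZero N]
    (π₁ π₂ : JZero M →+ JZero N)
    (hπ₁ : ∀ ℓ : Nat.Primes, ¬ (ℓ : ℕ) ∣ N → ¬ (ℓ : ℕ) ∣ M → ∀ y : JZero M,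
      π₁ (heckeOperatorBar M ℓ y) = heckeOperatorBar N ℓ (π₁ y))
    (hπ₂ : ∀ ℓ : Nat.Primes, ¬ (ℓ : ℕ) ∣ N → ¬ (ℓ : ℕ) ∣ M → ∀ y : JZero M,
      π₂ (heckeOperatorBar M ℓ y) = heckeOperatorBar N ℓ (π₂ y))
    (hMN : ∀ ℓ : ℕ, ¬ ℓ ∣ N → ¬ ℓ ∣ M)
    (S : Finset ℕ) (t : ℕ → ℤ) (x : JZero N) (hx0 : x ≠ 0) (hxp : (p : ℤ) • x = 0)
    (hxT : ∀ ℓ : Nat.Primes, (ℓ : ℕ) ∉ S → ¬ (ℓ : ℕ) ∣ N → (ℓ : ℕ) ≠ p →
      heckeOperatorBar N ℓ x = t ℓ • x)
    (y y' : JZero M) (n n' : ℕ) (hn : n ≠ 0) (hn' : n' ≠ 0) (hy : n • y = 0) (hy' : n' • y' = 0)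
    (hx : x = π₁ y + π₂ y') :
    ∃ (g : CuspForm (CongruenceSubgroup.Gamma0 M) 2) (𝔪 : Ideal (integralClosure ℤ ℂ)),
      g.IsNormalizedEigenform ∧ 𝔪.IsMaximal ∧ (p : integralClosure ℤ ℂ) ∈ 𝔪 ∧
      ∀ ℓ : ℕ, ℓ.Prime → ℓ ∉ S → ¬ ℓ ∣ N → ℓ ≠ p →
        ∃ a : integralClosure ℤ ℂ, (a : ℂ) = ModularFormClass.qCoeff g ℓ ∧
          a - ((t ℓ : ℤ) : integralClosure ℤ ℂ) ∈ 𝔪 := by
  classical
  obtain ⟨S', hS'⟩ : ∃ S' : Finset ℕ, S' = insert p (S ∪ N.primeFactors) := ⟨_, rfl⟩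
  have hN0 : N ≠ 0 := NeZero.ne N
  have hgood : ∀ ℓ : GoodPrime M (↑S' : Set ℕ),
      (ℓ : ℕ) ∉ S ∧ ¬ (ℓ : ℕ) ∣ N ∧ (ℓ : ℕ) ≠ p := by
    rintro ⟨ℓ, hℓ, -, h⟩
    rw [Finset.mem_coe, hS', Finset.mem_insert, Finset.mem_union, Nat.mem_primeFactors] at h
    push Not at h
    exact ⟨h.2.1, fun hd => hN0 (h.2.2 hℓ hd), h.1⟩
  -- the operators of level `N` indexed by the good primes of level `M`
  let T' : GoodPrime M (↑S' : Set ℕ) → Module.End ℤ (JZero N) :=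
    fun ℓ => heckeOperatorBar N ⟨ℓ.1, ℓ.2.1⟩
  obtain ⟨g, 𝔪, hg, h𝔪, hp𝔪, hc⟩ := H46.stmt_CharM p hp M S' t (fun P hP => by
    have h1 : evalJ M ↑S' P y = 0 := H37.stmt_TorsRel M ↑S' P hP n hn y hy
    have h1' : evalJ M ↑S' P y' = 0 := H37.stmt_TorsRel M ↑S' P hP n' hn' y' hy'
    have e1 := lift_map_comm π₁
      (fun ℓ : GoodPrime M (↑S' : Set ℕ) => heckeOperatorBar M ⟨ℓ.1, ℓ.2.1⟩) T'
      (fun ℓ u => hπ₁ ⟨ℓ.1, ℓ.2.1⟩ (hgood ℓ).2.1 ℓ.2.2.1 u) P y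
    have e2 := lift_map_comm π₂
      (fun ℓ : GoodPrime M (↑S' : Set ℕ) => heckeOperatorBar M ⟨ℓ.1, ℓ.2.1⟩) T'
      (fun ℓ u => hπ₂ ⟨ℓ.1, ℓ.2.1⟩ (hgood ℓ).2.1 ℓ.2.2.1 u) P y'
    have h2 : FreeAlgebra.lift ℤ T' P x = 0 := by
      rw [hx, map_add, ← e1, ← e2]
      have h1a : FreeAlgebra.lift ℤ
          (fun ℓ : GoodPrime M (↑S' : Set ℕ) => heckeOperatorBar M ⟨ℓ.1, ℓ.2.1⟩) P y = 0 := h1
      have h1b : FreeAlgebra.lift ℤ
          (fun ℓ : GoodPrime M (↑S' : Set ℕ) => heckeOperatorBar M ⟨ℓ.1, ℓ.2.1⟩) P y' = 0 := h1'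
      rw [h1a, h1b, map_zero, map_zero, add_zero]
    have h3 := Fermat.Agent.S43.Old.H75.red_lift_eq (AddMonoidHom.id (JZero N)) T'
      (fun ℓ : GoodPrime M (↑S' : Set ℕ) => t ℓ.1)
      (fun ℓ u hu => by
        have hu' : u = 0 := hu
        rw [hu', map_zero]
        rfl)
      x
      (fun ℓ => hxT ⟨ℓ.1, ℓ.2.1⟩ (hgood ℓ).1 (hgood ℓ).2.1 (hgood ℓ).2.2)
      P x 1 (one_smul ℤ _).symm
    have h4 : evalt M ↑S' t P • x = 0 := by
      have h5 : FreeAlgebra.lift ℤ T' P x = (evalt M ↑S' t P * 1) • x := h3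
      rw [h2, mul_one] at h5
      exact h5.symm
    exact Fermat.Agent.S43.Old.H75.dvd_of_smul_eq_zero hp hx0 hxp h4)
  refine ⟨g, 𝔪, hg, h𝔪, hp𝔪, fun ℓ hℓ hℓS hℓN hℓp => ?_⟩
  refine hc ℓ hℓ ?_ (hMN ℓ hℓN)
  rw [hS', Finset.mem_insert, Finset.mem_union, Nat.mem_primeFactors]
  push Not
  exact ⟨hℓp, hℓS, fun _ hd => absurd hd hℓN⟩

/-- **The geometric content of package SQ, torsion form with alternative**: a nonzero `q`-new
`p`-torsion point of `J₀(M q)`, `q ∥ M`, fixed by the inertia group of `A`, eigenvector of the good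
Hecke operators with a non-Eisenstein system of eigenvalues, EITHER lies in
`α^* J₀(M)_tors + β^* J₀(M)_tors` OR its system of eigenvalues comes from level `M`. -/
def HasSqSpanTorsAt (p M q : ℕ) [NeZero M] [NeZero q]
    (A : ValuationSubring (AlgebraicClosure ℚ)) : Prop :=
  ∀ (S : Finset ℕ) (t : ℕ → ℤ) (x : JZero (M * q)), x ≠ 0 → (p : ℤ) • x = 0 →
    IsQNew M q x →
    (∀ σ ∈ A.inertiaSubgroupIn ℚ, σ • x = x) →
    (∀ ℓ : Nat.Primes, (ℓ : ℕ) ∉ S → ¬ (ℓ : ℕ) ∣ M * q → (ℓ : ℕ) ≠ p →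
      heckeOperatorBar (M * q) ℓ x = t ℓ • x) →
    (∃ ℓ : ℕ, ℓ.Prime ∧ ℓ ∉ S ∧ ¬ ℓ ∣ M * q ∧ ℓ ≠ p ∧
      ((t ℓ : ℤ) : ZMod p) ≠ 1 + (ℓ : ZMod p)) →
    (∃ (y y' : JZero M) (n n' : ℕ), n ≠ 0 ∧ n' ≠ 0 ∧ n • y = 0 ∧ n' • y' = 0 ∧
      x = alphaPull M q y + betaPull M q y') ∨
    (∃ (g : CuspForm (CongruenceSubgroup.Gamma0 M) 2) (𝔪 : Ideal (integralClosure ℤ ℂ)),
      g.IsNormalizedEigenform ∧ 𝔪.IsMaximal ∧ (p : integralClosure ℤ ℂ) ∈ 𝔪 ∧
      ∀ ℓ : ℕ, ℓ.Prime → ℓ ∉ S → ¬ ℓ ∣ M * q → ℓ ≠ p →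
        ∃ a : integralClosure ℤ ℂ, (a : ℂ) = ModularFormClass.qCoeff g ℓ ∧
          a - ((t ℓ : ℤ) : integralClosure ℤ ℂ) ∈ 𝔪)

/-- **Package SQ, geometric form (torsion span or old).** -/
def Stmt_SqSpanTors : Prop :=
  ∀ (p : ℕ), p.Prime → p ≠ 2 → ∀ (M q : ℕ) [NeZero M] [NeZero q], q.Prime → q ≠ p →
    q ∣ M → ¬ q ^ 2 ∣ M →
    ∀ A : ValuationSubring (AlgebraicClosure ℚ), A.LiesOverPrime q → HasSqSpanTorsAt p M q A

/-- The span `α^* y + β^* y'` of two torsion points of level `M`: the system of eigenvalues of a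
nonzero `p`-torsion eigenvector in it comes from level `M`. -/
theorem eig_of_pull_span (p : ℕ) (hp : p.Prime) (M q : ℕ) [NeZero M] [NeZero q]
    (S : Finset ℕ) (t : ℕ → ℤ) (x : JZero (M * q)) (hx0 : x ≠ 0) (hxp : (p : ℤ) • x = 0)
    (hxT : ∀ ℓ : Nat.Primes, (ℓ : ℕ) ∉ S → ¬ (ℓ : ℕ) ∣ M * q → (ℓ : ℕ) ≠ p →
      heckeOperatorBar (M * q) ℓ x = t ℓ • x)
    (y y' : JZero M) (n n' : ℕ) (hn : n ≠ 0) (hn' : n' ≠ 0) (hy : n • y = 0) (hy' : n' • y' = 0)
    (hx : x = alphaPull M q y + betaPull M q y') :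
    ∃ (g : CuspForm (CongruenceSubgroup.Gamma0 M) 2) (𝔪 : Ideal (integralClosure ℤ ℂ)),
      g.IsNormalizedEigenform ∧ 𝔪.IsMaximal ∧ (p : integralClosure ℤ ℂ) ∈ 𝔪 ∧
      ∀ ℓ : ℕ, ℓ.Prime → ℓ ∉ S → ¬ ℓ ∣ M * q → ℓ ≠ p →
        ∃ a : integralClosure ℤ ℂ, (a : ℂ) = ModularFormClass.qCoeff g ℓ ∧
          a - ((t ℓ : ℤ) : integralClosure ℤ ℂ) ∈ 𝔪 :=
  eig_of_span_tors p hp M (M * q) (alphaPull M q) (betaPull M q)
    (fun ℓ hℓ _ y => alphaPull_hecke M q ℓ hℓ y) (fun ℓ hℓ _ y => betaPull_hecke M q ℓ hℓ y)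
    (fun _ hℓ hd => hℓ (hd.mul_right q)) S t x hx0 hxp hxT y y' n n' hn hn' hy hy' hx

/-- **PB-ASM, general form.** -/
theorem sqNew_of_spanTors (h : Stmt_SqSpanTors) : Stmt_SqNew := by
  intro p hp hp2 M q _ _ hq hqp hqM hq2M A hA S t x hx0 hxp hnew hI hT hNE
  rcases h p hp hp2 M q hq hqp hqM hq2M A hA S t x hx0 hxp hnew hI hT hNE with
    ⟨y, y', n, n', hn, hn', hy, hy', hx⟩ | hold
  · exact eig_of_pull_span p hp M q S t x hx0 hxp hT y y' n n' hn hn' hy hy' hx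
  · exact hold

/-- **Package SQ from its geometric form.** -/
theorem sqQ_of_spanTors (h : Stmt_SqSpanTors) : Stmt_SqQ := sqQ_of_new (sqNew_of_spanTors h)

end Fermat.Agent.S59.LL.SQ.H40

end
end
-- ==== END Fermat.Agent.S59.LL.SQ.H40_SpanTors

-- ==== BEGIN Fermat.Agent.S59.LL.SQ.H56_LowVal
section

/-!
# S59 / LL / SQ, ST-RANK (c), input M2 LOWVAL (helper56)

`A` over the prime `q`, level `M q`, `S` a semistable Deuring datum of `F_{M q} · ℚ̄` whose two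
valuation rings are `V1 A q M` and `V2 A q M a b hab hq` (for `S43.H91.modSSD`: `modSSD_c₁_V`,
`modSSD_c₂_V`, both `rfl`), `p = algebraMap ℚ̄ F (q : ℚ̄)`.

* `lowVal₁`, `lowVal₂` : every `f ≠ 0` of `L0 A (M q)` is `p ^ m` times a unit, for the first and
  for the second valuation;
* `isGU_zpow_q_imp₁`, `isGU_zpow_q_imp₂` : `p ^ m` is a unit only for `m = 0`.

This file contains no unproved statement.
-/

set_option autoImplicit false
set_option linter.style.haveILetI false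
set_option linter.unusedSectionVars false
set_option synthInstance.maxHeartbeats 400000
set_option maxHeartbeats 1000000

noncomputable section

open ModularCurve AlgebraicCurve
open Fermat.Agent.S24 Fermat.Agent.BAD.H88 Fermat.Agent.S28 Fermat.Agent.S28.H73
open Fermat.Agent.RED.H73 Fermat.Agent.RED.H17 Fermat.Agent.S36.NU.H88
open Fermat.Agent.S36.NU.H23 Fermat.Agent.BAD Fermat.Agent.S36.NU.H82
open Fermat.Agent.S36.NU.H51 Fermat.Agent.S59.LL.SQ.H69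

attribute [local instance] Classical.propDecidable

namespace Fermat.Agent.S59.LL.SQ.H56

section Mod

variable (A : ValuationSubring Kbar) (q M : ℕ) (a b : ℤ) (hab : a * q + b * M = 1)
  (hq : q.Prime) [NeZero (M * q)] (hA : A.LiesOverPrime q)
  {k F₁ F₂ : Type} [Field k] [Field F₁] [Algebra k F₁] [Field F₂] [Algebra k F₂]
  (S : SSD Kbar (FN (M * q)) k F₁ F₂)
  (hV₁ : S.c₁.V = V1 A q M) (hV₂ : S.c₂.V = V2 A q M a b hab hq)

omit [NeZero (M * q)] in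
theorem qc_eq_zpow (m : ℤ) :
    qc Kbar (FN (M * q)) q m = algebraMap Kbar (FN (M * q)) (q : Kbar) ^ m := by
  unfold qc
  rw [map_zpow₀]

include hq hA hV₁ hV₂ in
/-- **M2 LOWVAL**, first valuation. -/
theorem lowVal₁ (f : FN (M * q)) (hf : f ∈ L0 A (M * q)) (hf0 : f ≠ 0) :
    ∃ m : ℤ, S.c₁.IsGU (f / algebraMap Kbar (FN (M * q)) (q : Kbar) ^ m) := by
  obtain ⟨m, hm⟩ := ((intScale_mod A q M a b hab hq hA S hV₁ hV₂).1 f hf hf0).1
  refine ⟨-m, ?_⟩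
  rw [qc_eq_zpow] at hm
  rwa [zpow_neg, div_inv_eq_mul, mul_comm f]

include hq hA hV₁ hV₂ in
/-- **M2 LOWVAL**, second valuation. -/
theorem lowVal₂ (f : FN (M * q)) (hf : f ∈ L0 A (M * q)) (hf0 : f ≠ 0) :
    ∃ m : ℤ, S.c₂.IsGU (f / algebraMap Kbar (FN (M * q)) (q : Kbar) ^ m) := by
  obtain ⟨m, hm⟩ := ((intScale_mod A q M a b hab hq hA S hV₁ hV₂).1 f hf hf0).2
  refine ⟨-m, ?_⟩
  rw [qc_eq_zpow] at hm
  rwa [zpow_neg, div_inv_eq_mul, mul_comm f]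

include hq hA hV₁ hV₂ in
/-- `p ^ m` is a unit for the first valuation only for `m = 0`. -/
theorem isGU_zpow_q_imp₁ (m : ℤ)
    (h : S.c₁.IsGU (algebraMap Kbar (FN (M * q)) (q : Kbar) ^ m)) : m = 0 := by
  rw [← qc_eq_zpow] at h
  exact (intScale_mod A q M a b hab hq hA S hV₁ hV₂).2.1 m h

include hq hA hV₁ hV₂ in
/-- `p ^ m` is a unit for the second valuation only for `m = 0`. -/
theorem isGU_zpow_q_imp₂ (m : ℤ)
    (h : S.c₂.IsGU (algebraMap Kbar (FN (M * q)) (q : Kbar) ^ m)) : m = 0 := by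
  rw [← qc_eq_zpow] at h
  exact (intScale_mod A q M a b hab hq hA S hV₁ hV₂).2.2 m h

end Mod

end Fermat.Agent.S59.LL.SQ.H56

end

end
-- ==== END Fermat.Agent.S59.LL.SQ.H56_LowVal

-- ==== BEGIN Fermat.Agent.S59.LL.SQ.H89_LowGlueMod
section
attribute [local instance 10000] SubalgebraClass.toAlgebra
attribute [local instance 10000] HahnSeries.powerSeriesAlgebra

/-!
# S59 / LL / SQ, step (T'), leaf G5 (ii) (helper89): LOW → GLUE from the output of ST-RANK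

* `glueLow_of_isTor` (abstract): for a `NUData` `D` whose lower level `D.T'` is `T'`, the
  semistable datum `S = T'.toSSD ..`, a triple `IsTor S n (f yⁿ) ψ₁ ψ₂` (`f ∈ L₀'` a unit for
  both valuations) with values `a = Θ s · b` of `ψ₁`, `ψ₂` at the branches of the nodes `s`
  (this is the OUTPUT of ST-RANK, `H83.exists_tor_of_count`), and local generators of `f` in `L₀'`
  at the nodes `zz z` (GENLOW), give
  `GlueLow D zz n f (fun z => (Θ (zz z, β (zz z)))⁻¹)`;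
* `exists_glueLow_of_out` (abstract): if every `Θ : nodes → μ_p` is realised (ST-RANK) and `zz` is
  injective on the triple points, every `θ : SS → μ_p` is the invariant of some `GlueLow`;
* `glueLow_mod`, `glueLowA_mod`, `glueLowB_mod` : the modular instances, `D = nuMod`,
  `S = modSSD` (level `M q`, parameters `a = k`, `b = B`), `zz = zA` and `zz = zB`;
* `StRankOutAt`, `GenLowAt` : the two inputs as `Prop`s; `exists_glueLowA_mod`,
  `exists_glueLowB_mod` : **every `θ : ssM → μ_p` is the gluing invariant of some `f ∈ L0 (M q)`**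
  along `α` and along `β`.
-/

set_option autoImplicit false
set_option synthInstance.maxHeartbeats 400000
set_option maxHeartbeats 1000000
set_option linter.style.haveILetI false
set_option linter.unusedSectionVars false

noncomputable section

open AlgebraicCurve

attribute [local instance] Classical.propDecidable

namespace Fermat.Agent.S59.LL.SQ.H89LG

open Fermat.Agent.RED.H17 Fermat.Agent.RED Fermat.Agent.BAD.H79 Fermat.Agent.BAD
  Fermat.Agent.S36.NU.H79 Fermat.Agent.S59.LL.SQ.H40 Fermat.Agent.S59.LL.SQ.H86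
  Fermat.Agent.S15.Desc.H83

section Tor

variable {K L₀ L k ι Z : Type*} {E : ι → Type*} {K' L' E₁ : Type*}
  [Field K] [Field L₀] [Field L] [Algebra K L] [Algebra L₀ L] [Field k] [Fintype ι]
  [∀ i, Field (E i)] [∀ i, Algebra k (E i)] [Field K'] [Field L'] [Algebra K' L']
  [Field E₁] [Algebra k E₁]
  {L₀' : Type*} [Field L₀'] [Algebra L₀' L']

/-- **G5 (ii)**: gluing data of the lower level from the output of ST-RANK. -/
theorem glueLow_of_isTor [Infinite k] [IsAlgClosed K']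
    (D : NUData K L₀ L k ι Z E K' L' E₁ E₁) (T' : TotData K' L' k E₁ E₁) (hT' : D.T' = T')
    (hP : HasPrincipalDivisors K' L') (hd : ∀ v : Place K' L', v.deg = 1)
    (hP₁ : HasPrincipalDivisors k E₁) (hd₁ : ∀ v : Place k E₁, v.deg = 1)
    (hne : ∃ z, T'.IsNode z)
    {zz : Z → Place k E₁} (hnode : ∀ z ∈ D.SS, D.T'.IsNode (zz z))
    {n : ℕ} (hn : n ≠ 0) {f : L₀'} {y : L'} {ψ₁ ψ₂ : E₁}
    {Θ : Place k E₁ × Place k E₁ → k}
    (hf₁ : (T'.toSSD hP hd hP₁ hd₁ hd₁ hne).c₁.IsGU (algebraMap L₀' L' f))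
    (hf₂ : (T'.toSSD hP hd hP₁ hd₁ hd₁ hne).c₂.IsGU (algebraMap L₀' L' f))
    (hT : IsTor (T'.toSSD hP hd hP₁ hd₁ hd₁ hne) n (algebraMap L₀' L' f * y ^ n) ψ₁ ψ₂)
    (hval : ∀ s ∈ (T'.toSSD hP hd hP₁ hd₁ hd₁ hne).nodes, ∃ a b : k, b ≠ 0 ∧
      VanAt s.1 (ψ₁ - algebraMap k E₁ a) ∧ VanAt s.2 (ψ₂ - algebraMap k E₁ b) ∧ a = Θ s * b)
    (hgen : ∀ z ∈ D.SS, ∃ s : L₀', IsGenLow D n (zz z) f s) :
    GlueLow D zz n f (fun z => (Θ (zz z, D.T'.β (zz z)))⁻¹) := by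
  subst hT'
  have hmem : ∀ z ∈ D.SS,
      (zz z, D.T'.β (zz z)) ∈ (D.T'.toSSD hP hd hP₁ hd₁ hd₁ hne).nodes := by
    intro z hz
    rw [TotData.toSSD_nodes, TotData.mem_nodes]
    exact ⟨hnode z hz, rfl⟩
  refine glueLow_of_tor' D hP hnode (fun z _ => hd₁ _) hn hf₁ hf₂ hT.gu₁ hT.gu₂ hT.rd₁ hT.rd₂
    ?_ ?_ hgen
  · intro z hz Q hQ
    apply hT.node Q
    rw [Fermat.Agent.S43.H37.isNodeP_toSSD_iff, hQ]
    exact hnode z hz
  · intro z hz
    obtain ⟨a, b, hb, hva, hvb, hab⟩ := hval _ (hmem z hz)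
    have hord := (hT.ord_eq_zero hn hP (hmem z hz)).1
    have hψ₁ : ψ₁ ≠ 0 := hT.ne₁ hn
    have ha : a ≠ 0 := by
      rintro rfl
      rw [map_zero, sub_zero] at hva
      have := hva.ord_pos hψ₁
      change 0 < (zz z).ord ψ₁ at this
      change (zz z).ord ψ₁ = 0 at hord
      omega
    have hθ : Θ (zz z, D.T'.β (zz z)) ≠ 0 := by
      intro h0
      rw [h0, zero_mul] at hab
      exact ha hab
    refine ⟨a, b, ha, hb, hva, hvb, ?_⟩
    show b = (Θ (zz z, D.T'.β (zz z)))⁻¹ * a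
    rw [hab, ← mul_assoc, inv_mul_cancel₀ hθ, one_mul]

/-- **Every invariant is realised**: if every vector `Θ` of `p`-th roots of unity on the nodes is
the glue vector of a triple `IsTor S n (f yⁿ) ψ₁ ψ₂` (ST-RANK), the functions of `L₀'` which are
units with divisor divisible by `n` have local generators in `L₀'` (GENLOW) and `zz` is injective
on the triple points, then every `θ : SS → μ_p` is the invariant of some `GlueLow D zz n f θ`. -/
theorem exists_glueLow_of_out [Infinite k] [IsAlgClosed K']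
    (D : NUData K L₀ L k ι Z E K' L' E₁ E₁) (T' : TotData K' L' k E₁ E₁) (hT' : D.T' = T')
    (hP : HasPrincipalDivisors K' L') (hd : ∀ v : Place K' L', v.deg = 1)
    (hP₁ : HasPrincipalDivisors k E₁) (hd₁ : ∀ v : Place k E₁, v.deg = 1)
    (hne : ∃ z, T'.IsNode z)
    {zz : Z → Place k E₁} (hnode : ∀ z ∈ D.SS, D.T'.IsNode (zz z))
    (hinj : ∀ z ∈ D.SS, ∀ z' ∈ D.SS, zz z = zz z' → z = z')
    {n p : ℕ} (hn : n ≠ 0)
    (hout : ∀ Θ : Place k E₁ × Place k E₁ → k,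
      (∀ s ∈ (T'.toSSD hP hd hP₁ hd₁ hd₁ hne).nodes, Θ s ^ p = 1) →
      ∃ (f : L₀') (y : L') (ψ₁ ψ₂ : E₁),
        (T'.toSSD hP hd hP₁ hd₁ hd₁ hne).c₁.IsGU (algebraMap L₀' L' f) ∧
        (T'.toSSD hP hd hP₁ hd₁ hd₁ hne).c₂.IsGU (algebraMap L₀' L' f) ∧
        IsTor (T'.toSSD hP hd hP₁ hd₁ hd₁ hne) n (algebraMap L₀' L' f * y ^ n) ψ₁ ψ₂ ∧
        ∀ s ∈ (T'.toSSD hP hd hP₁ hd₁ hd₁ hne).nodes, ∃ a b : k, b ≠ 0 ∧
          VanAt s.1 (ψ₁ - algebraMap k E₁ a) ∧ VanAt s.2 (ψ₂ - algebraMap k E₁ b) ∧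
          a = Θ s * b)
    (hgen : ∀ f : L₀', D.T'.p₁.rd (algebraMap L₀' L' f) ≠ 0 →
      D.T'.p₂.rd (algebraMap L₀' L' f) ≠ 0 →
      (∀ Q : Place K' L', (n : ℤ) ∣ Q.ord (algebraMap L₀' L' f)) →
      ∀ z ∈ D.SS, ∃ s : L₀', IsGenLow D n (zz z) f s)
    (θ : Z → k) (hθ : ∀ z ∈ D.SS, θ z ^ p = 1) :
    ∃ f : L₀', D.T'.p₁.rd (algebraMap L₀' L' f) ≠ 0 ∧ D.T'.p₂.rd (algebraMap L₀' L' f) ≠ 0 ∧
      (∀ Q : Place K' L', (n : ℤ) ∣ Q.ord (algebraMap L₀' L' f)) ∧ GlueLow D zz n f θ := by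
  -- the vector on the nodes
  let Θ : Place k E₁ × Place k E₁ → k := fun s =>
    if h : ∃ z, z ∈ D.SS ∧ zz z = s.1 then (θ (Classical.choose h))⁻¹ else 1
  have hΘ : ∀ z ∈ D.SS, ∀ w : Place k E₁, Θ (zz z, w) = (θ z)⁻¹ := by
    intro z hz w
    have h : ∃ z', z' ∈ D.SS ∧ zz z' = (zz z, w).1 := ⟨z, hz, rfl⟩
    show (if h : ∃ z', z' ∈ D.SS ∧ zz z' = (zz z, w).1 then (θ (Classical.choose h))⁻¹ else 1)
      = _
    rw [dif_pos h]
    have h2 := Classical.choose_spec h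
    rw [hinj _ h2.1 z hz h2.2]
  have hΘp : ∀ s : Place k E₁ × Place k E₁, Θ s ^ p = 1 := by
    intro s
    show (if h : ∃ z, z ∈ D.SS ∧ zz z = s.1 then (θ (Classical.choose h))⁻¹ else 1) ^ p = 1
    split_ifs with h
    · rw [inv_pow, hθ _ (Classical.choose_spec h).1, inv_one]
    · exact one_pow p
  obtain ⟨f, y, ψ₁, ψ₂, hf₁, hf₂, hT, hval⟩ := hout Θ fun s _ => hΘp s
  have hf₁' : D.T'.p₁.IsGU (algebraMap L₀' L' f) := by rw [hT']; exact hf₁
  have hf₂' : D.T'.p₂.IsGU (algebraMap L₀' L' f) := by rw [hT']; exact hf₂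
  have hy0 : y ≠ 0 := by
    rintro rfl
    have := hT.gu₁.ne_zero
    rw [zero_pow hn, mul_zero] at this
    exact this rfl
  have hdvd : ∀ Q : Place K' L', (n : ℤ) ∣ Q.ord (algebraMap L₀' L' f) :=
    dvd_ord_of_mul_pow hf₁.ne_zero hy0 hT.dvd
  have hg := glueLow_of_isTor D T' hT' hP hd hP₁ hd₁ hne hnode hn hf₁ hf₂ hT hval
    (hgen f hf₁'.rd_ne_zero hf₂'.rd_ne_zero hdvd)
  refine ⟨f, hf₁'.rd_ne_zero, hf₂'.rd_ne_zero, hdvd, glueLow_congr D hg fun z hz => ?_⟩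
  show (Θ (zz z, D.T'.β (zz z)))⁻¹ = θ z
  rw [hΘ z hz, inv_inv]

end Tor

/-! ## The modular instances -/

section Mod

open ModularCurve
open Fermat.Agent.S24 Fermat.Agent.BAD.H88 Fermat.Agent.S28 Fermat.Agent.S28.H73
open Fermat.Agent.RED.H73 Fermat.Agent.S36.NU.H88
open Fermat.Agent.Lib.HeckeComm Fermat.Agent.S36.NU.H23 Fermat.Agent.S36.NU.H74
open Fermat.Agent.S43.H91

variable (A : ValuationSubring Kbar) (q M : ℕ) (B k : ℤ) (hB : B * M + k * q = 1) (hq : q.Prime)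
  [NeZero M] [NeZero q] [NeZero (M * q)] [NeZero (M * q * q)]
  (hqM : ¬ q ∣ M) (hA : A.LiesOverPrime q) (ht : H91.TameAt M q)

/-- The lower level of `nuMod` is `TlowM`. -/
theorem nuMod_T' : letI := algkM A M
    (nuMod A q M B k hB hq hqM hA ht).T' = TlowM A q M B k hB hq hqM hA ht := rfl

/-- **G5 (ii), modular form**, for an arbitrary family of nodes `zz z`, `z ∈ ssM`. -/
theorem glueLow_mod (zz : Place (kV A) (FM A M) → Place (kV A) (F1 A q M))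
    (hnode : letI := algkM A M
      ∀ z ∈ (nuMod A q M B k hB hq hqM hA ht).SS,
        (nuMod A q M B k hB hq hqM hA ht).T'.IsNode (zz z))
    {n : ℕ} (hn : n ≠ 0) {f : ↥(L0 A (M * q))} {y : FN (M * q)} {ψ₁ ψ₂ : F1 A q M}
    {Θ : Place (kV A) (F1 A q M) × Place (kV A) (F1 A q M) → kV A}
    (hf₁ : (modSSD A q M k B (hab_nuM q M B k hB) hq hA hqM ht).c₁.IsGU (f : FN (M * q)))
    (hf₂ : (modSSD A q M k B (hab_nuM q M B k hB) hq hA hqM ht).c₂.IsGU (f : FN (M * q)))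
    (hT : IsTor (modSSD A q M k B (hab_nuM q M B k hB) hq hA hqM ht) n
      ((f : FN (M * q)) * y ^ n) ψ₁ ψ₂)
    (hval : ∀ s ∈ (modSSD A q M k B (hab_nuM q M B k hB) hq hA hqM ht).nodes, ∃ a b : kV A,
      b ≠ 0 ∧ VanAt s.1 (ψ₁ - algebraMap (kV A) (F1 A q M) a) ∧
        VanAt s.2 (ψ₂ - algebraMap (kV A) (F1 A q M) b) ∧ a = Θ s * b)
    (hgen : letI := algkM A M
      ∀ z ∈ (nuMod A q M B k hB hq hqM hA ht).SS, ∃ s : ↥(L0 A (M * q)),
        IsGenLow (nuMod A q M B k hB hq hqM hA ht) n (zz z) f s) :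
    letI := algkM A M
    GlueLow (nuMod A q M B k hB hq hqM hA ht) zz n f
      (fun z => (Θ (zz z, (nuMod A q M B k hB hq hqM hA ht).T'.β (zz z)))⁻¹) := by
  letI := algkM A M
  haveI : IsAlgClosed (kV A) := isAlgClosed_kV A
  haveI : Infinite (kV A) := IsAlgClosed.instInfinite
  exact glueLow_of_isTor (nuMod A q M B k hB hq hqM hA ht) (TlowM A q M B k hB hq hqM hA ht)
    (nuMod_T' A q M B k hB hq hqM hA ht) (ffHyp_FN q M).principal (ffHyp_FN q M).deg_one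
    (ffHyp_F1 A q M k B (hab_nuM q M B k hB) hq hA hqM ht).principal
    (ffHyp_F1 A q M k B (hab_nuM q M B k hB) hq hA hqM ht).deg_one
    (exists_node_modTot A q M k B (hab_nuM q M B k hB) hq hA hqM ht) hnode hn hf₁ hf₂ hT hval
    hgen

/-- **G5 (ii), modular form, along `α`.** -/
theorem glueLowA_mod {n : ℕ} (hn : n ≠ 0) {f : ↥(L0 A (M * q))} {y : FN (M * q)}
    {ψ₁ ψ₂ : F1 A q M} {Θ : Place (kV A) (F1 A q M) × Place (kV A) (F1 A q M) → kV A}
    (hf₁ : (modSSD A q M k B (hab_nuM q M B k hB) hq hA hqM ht).c₁.IsGU (f : FN (M * q)))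
    (hf₂ : (modSSD A q M k B (hab_nuM q M B k hB) hq hA hqM ht).c₂.IsGU (f : FN (M * q)))
    (hT : IsTor (modSSD A q M k B (hab_nuM q M B k hB) hq hA hqM ht) n
      ((f : FN (M * q)) * y ^ n) ψ₁ ψ₂)
    (hval : ∀ s ∈ (modSSD A q M k B (hab_nuM q M B k hB) hq hA hqM ht).nodes, ∃ a b : kV A,
      b ≠ 0 ∧ VanAt s.1 (ψ₁ - algebraMap (kV A) (F1 A q M) a) ∧
        VanAt s.2 (ψ₂ - algebraMap (kV A) (F1 A q M) b) ∧ a = Θ s * b)
    (hgen : letI := algkM A M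
      ∀ z ∈ ssM A q M, ∃ s : ↥(L0 A (M * q)),
        IsGenLow (nuMod A q M B k hB hq hqM hA ht) n (zA A q M B k hB hq hA z) f s) :
    letI := algkM A M
    GlueLow (nuMod A q M B k hB hq hqM hA ht) (zA A q M B k hB hq hA) n f
      (fun z => (Θ (zA A q M B k hB hq hA z,
        (TlowM A q M B k hB hq hqM hA ht).β (zA A q M B k hB hq hA z)))⁻¹) := by
  letI := algkM A M
  exact glueLow_mod A q M B k hB hq hqM hA ht _
    (nuMod A q M B k hB hq hqM hA ht).nodeα hn hf₁ hf₂ hT hval hgen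

/-- **G5 (ii), modular form, along `β`.** -/
theorem glueLowB_mod {n : ℕ} (hn : n ≠ 0) {f : ↥(L0 A (M * q))} {y : FN (M * q)}
    {ψ₁ ψ₂ : F1 A q M} {Θ : Place (kV A) (F1 A q M) × Place (kV A) (F1 A q M) → kV A}
    (hf₁ : (modSSD A q M k B (hab_nuM q M B k hB) hq hA hqM ht).c₁.IsGU (f : FN (M * q)))
    (hf₂ : (modSSD A q M k B (hab_nuM q M B k hB) hq hA hqM ht).c₂.IsGU (f : FN (M * q)))
    (hT : IsTor (modSSD A q M k B (hab_nuM q M B k hB) hq hA hqM ht) n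
      ((f : FN (M * q)) * y ^ n) ψ₁ ψ₂)
    (hval : ∀ s ∈ (modSSD A q M k B (hab_nuM q M B k hB) hq hA hqM ht).nodes, ∃ a b : kV A,
      b ≠ 0 ∧ VanAt s.1 (ψ₁ - algebraMap (kV A) (F1 A q M) a) ∧
        VanAt s.2 (ψ₂ - algebraMap (kV A) (F1 A q M) b) ∧ a = Θ s * b)
    (hgen : letI := algkM A M
      ∀ z ∈ ssM A q M, ∃ s : ↥(L0 A (M * q)),
        IsGenLow (nuMod A q M B k hB hq hqM hA ht) n (zB A q M B k hB hq hqM hA z) f s) :
    letI := algkM A M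
    GlueLow (nuMod A q M B k hB hq hqM hA ht) (zB A q M B k hB hq hqM hA) n f
      (fun z => (Θ (zB A q M B k hB hq hqM hA z,
        (TlowM A q M B k hB hq hqM hA ht).β (zB A q M B k hB hq hqM hA z)))⁻¹) := by
  letI := algkM A M
  exact glueLow_mod A q M B k hB hq hqM hA ht _
    (nuMod A q M B k hB hq hqM hA ht).nodeβ hn hf₁ hf₂ hT hval hgen

/-! ### Every invariant is realised -/

/-- **The output of ST-RANK** (helper20) at the exponent `n`: every vector `Θ` of `p`-th roots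
of unity on the nodes of `modSSD` is the glue vector of a triple `IsTor S n (f yⁿ) ψ₁ ψ₂` with
`f ∈ L0 A (M q)` a unit for both valuations. -/
def StRankOutAt (p n : ℕ) : Prop :=
  ∀ Θ : Place (kV A) (F1 A q M) × Place (kV A) (F1 A q M) → kV A,
    (∀ s ∈ (modSSD A q M k B (hab_nuM q M B k hB) hq hA hqM ht).nodes, Θ s ^ p = 1) →
    ∃ (f y : FN (M * q)) (ψ₁ ψ₂ : F1 A q M), f ∈ L0 A (M * q) ∧
      (modSSD A q M k B (hab_nuM q M B k hB) hq hA hqM ht).c₁.IsGU f ∧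
      (modSSD A q M k B (hab_nuM q M B k hB) hq hA hqM ht).c₂.IsGU f ∧
      IsTor (modSSD A q M k B (hab_nuM q M B k hB) hq hA hqM ht) n (f * y ^ n) ψ₁ ψ₂ ∧
      ∀ s ∈ (modSSD A q M k B (hab_nuM q M B k hB) hq hA hqM ht).nodes, ∃ a b : kV A,
        b ≠ 0 ∧ VanAt s.1 (ψ₁ - algebraMap (kV A) (F1 A q M) a) ∧
          VanAt s.2 (ψ₂ - algebraMap (kV A) (F1 A q M) b) ∧ a = Θ s * b

/-- **GENLOW + GEN-MOD** at the exponent `n`, along the family of nodes `zz` (`D = nuMod`): the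
units of `L0 A (M q)` with divisor divisible by `n` have local generators in `L0 A (M q)` at the
nodes `zz z`, `z ∈ D.SS`. -/
def GenLowAt (zz : Place (kV A) (FM A M) → Place (kV A) (F1 A q M)) (n : ℕ) : Prop :=
  letI := algkM A M
  ∀ f : ↥(L0 A (M * q)),
    (nuMod A q M B k hB hq hqM hA ht).T'.p₁.rd
      (algebraMap ↥(L0 A (M * q)) (FN (M * q)) f) ≠ 0 →
    (nuMod A q M B k hB hq hqM hA ht).T'.p₂.rd
      (algebraMap ↥(L0 A (M * q)) (FN (M * q)) f) ≠ 0 →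
    (∀ Q : Place Kbar (FN (M * q)),
      (n : ℤ) ∣ Q.ord (algebraMap ↥(L0 A (M * q)) (FN (M * q)) f)) →
    ∀ z ∈ (nuMod A q M B k hB hq hqM hA ht).SS, ∃ s : ↥(L0 A (M * q)),
      IsGenLow (nuMod A q M B k hB hq hqM hA ht) n (zz z) f s

/-- **Every invariant is realised, modular form**, for an injective family of nodes. -/
theorem exists_glueLow_mod (zz : Place (kV A) (FM A M) → Place (kV A) (F1 A q M))
    (hnode : letI := algkM A M
      ∀ z ∈ (nuMod A q M B k hB hq hqM hA ht).SS,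
        (nuMod A q M B k hB hq hqM hA ht).T'.IsNode (zz z))
    (hinj : Function.Injective zz) {n p : ℕ} (hn : n ≠ 0)
    (hout : StRankOutAt A q M B k hB hq hqM hA ht p n)
    (hgen : GenLowAt A q M B k hB hq hqM hA ht zz n)
    (θ : Place (kV A) (FM A M) → kV A)
    (hθ : letI := algkM A M
      ∀ z ∈ (nuMod A q M B k hB hq hqM hA ht).SS, θ z ^ p = 1) :
    letI := algkM A M
    ∃ f : ↥(L0 A (M * q)),
      (nuMod A q M B k hB hq hqM hA ht).T'.p₁.rd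
        (algebraMap ↥(L0 A (M * q)) (FN (M * q)) f) ≠ 0 ∧
      (nuMod A q M B k hB hq hqM hA ht).T'.p₂.rd
        (algebraMap ↥(L0 A (M * q)) (FN (M * q)) f) ≠ 0 ∧
      (∀ Q : Place Kbar (FN (M * q)),
        (n : ℤ) ∣ Q.ord (algebraMap ↥(L0 A (M * q)) (FN (M * q)) f)) ∧
      GlueLow (nuMod A q M B k hB hq hqM hA ht) zz n f θ := by
  letI := algkM A M
  haveI : IsAlgClosed (kV A) := isAlgClosed_kV A
  haveI : Infinite (kV A) := IsAlgClosed.instInfinite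
  have hout' : ∀ Θ : Place (kV A) (F1 A q M) × Place (kV A) (F1 A q M) → kV A,
      (∀ s ∈ ((TlowM A q M B k hB hq hqM hA ht).toSSD (ffHyp_FN q M).principal
          (ffHyp_FN q M).deg_one
          (ffHyp_F1 A q M k B (hab_nuM q M B k hB) hq hA hqM ht).principal
          (ffHyp_F1 A q M k B (hab_nuM q M B k hB) hq hA hqM ht).deg_one
          (ffHyp_F1 A q M k B (hab_nuM q M B k hB) hq hA hqM ht).deg_one
          (exists_node_modTot A q M k B (hab_nuM q M B k hB) hq hA hqM ht)).nodes,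
        Θ s ^ p = 1) →
      ∃ (f : ↥(L0 A (M * q))) (y : FN (M * q)) (ψ₁ ψ₂ : F1 A q M),
        ((TlowM A q M B k hB hq hqM hA ht).toSSD (ffHyp_FN q M).principal
          (ffHyp_FN q M).deg_one
          (ffHyp_F1 A q M k B (hab_nuM q M B k hB) hq hA hqM ht).principal
          (ffHyp_F1 A q M k B (hab_nuM q M B k hB) hq hA hqM ht).deg_one
          (ffHyp_F1 A q M k B (hab_nuM q M B k hB) hq hA hqM ht).deg_one
          (exists_node_modTot A q M k B (hab_nuM q M B k hB) hq hA hqM ht)).c₁.IsGU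
            (algebraMap ↥(L0 A (M * q)) (FN (M * q)) f) ∧
        ((TlowM A q M B k hB hq hqM hA ht).toSSD (ffHyp_FN q M).principal
          (ffHyp_FN q M).deg_one
          (ffHyp_F1 A q M k B (hab_nuM q M B k hB) hq hA hqM ht).principal
          (ffHyp_F1 A q M k B (hab_nuM q M B k hB) hq hA hqM ht).deg_one
          (ffHyp_F1 A q M k B (hab_nuM q M B k hB) hq hA hqM ht).deg_one
          (exists_node_modTot A q M k B (hab_nuM q M B k hB) hq hA hqM ht)).c₂.IsGU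
            (algebraMap ↥(L0 A (M * q)) (FN (M * q)) f) ∧
        IsTor ((TlowM A q M B k hB hq hqM hA ht).toSSD (ffHyp_FN q M).principal
          (ffHyp_FN q M).deg_one
          (ffHyp_F1 A q M k B (hab_nuM q M B k hB) hq hA hqM ht).principal
          (ffHyp_F1 A q M k B (hab_nuM q M B k hB) hq hA hqM ht).deg_one
          (ffHyp_F1 A q M k B (hab_nuM q M B k hB) hq hA hqM ht).deg_one
          (exists_node_modTot A q M k B (hab_nuM q M B k hB) hq hA hqM ht)) n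
            (algebraMap ↥(L0 A (M * q)) (FN (M * q)) f * y ^ n) ψ₁ ψ₂ ∧
        ∀ s ∈ ((TlowM A q M B k hB hq hqM hA ht).toSSD (ffHyp_FN q M).principal
          (ffHyp_FN q M).deg_one
          (ffHyp_F1 A q M k B (hab_nuM q M B k hB) hq hA hqM ht).principal
          (ffHyp_F1 A q M k B (hab_nuM q M B k hB) hq hA hqM ht).deg_one
          (ffHyp_F1 A q M k B (hab_nuM q M B k hB) hq hA hqM ht).deg_one
          (exists_node_modTot A q M k B (hab_nuM q M B k hB) hq hA hqM ht)).nodes,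
          ∃ a b : kV A, b ≠ 0 ∧ VanAt s.1 (ψ₁ - algebraMap (kV A) (F1 A q M) a) ∧
            VanAt s.2 (ψ₂ - algebraMap (kV A) (F1 A q M) b) ∧ a = Θ s * b := by
    intro Θ hΘ
    obtain ⟨f, y, ψ₁, ψ₂, hfL, hf₁, hf₂, hT, hval⟩ := hout Θ hΘ
    exact ⟨⟨f, hfL⟩, y, ψ₁, ψ₂, hf₁, hf₂, hT, hval⟩
  exact exists_glueLow_of_out (nuMod A q M B k hB hq hqM hA ht)
    (TlowM A q M B k hB hq hqM hA ht) (nuMod_T' A q M B k hB hq hqM hA ht)
    (ffHyp_FN q M).principal (ffHyp_FN q M).deg_one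
    (ffHyp_F1 A q M k B (hab_nuM q M B k hB) hq hA hqM ht).principal
    (ffHyp_F1 A q M k B (hab_nuM q M B k hB) hq hA hqM ht).deg_one
    (exists_node_modTot A q M k B (hab_nuM q M B k hB) hq hA hqM ht) hnode
    (fun z _ z' _ h => hinj h) hn hout' hgen θ hθ

/-- `zA` is injective. -/
theorem zA_injective : Function.Injective (zA A q M B k hB hq hA) := by
  intro z z' h
  rw [zA_def, zA_def] at h
  exact (kapM A q M B k hB hq hA).symm.injective h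

/-- `zB` is injective. -/
theorem zB_injective : Function.Injective (zB A q M B k hB hq hqM hA) := by
  intro z z' h
  rw [zB_def, zB_def] at h
  exact (betaM A q M hq hqM hA).symm.injective ((kapM A q M B k hB hq hA).symm.injective h)

/-- **Every `θ : ssM → μ_p` is the gluing invariant of some `f ∈ L0 (M q)`, along `α`.** -/
theorem exists_glueLowA_mod {n p : ℕ} (hn : n ≠ 0)
    (hout : StRankOutAt A q M B k hB hq hqM hA ht p n)
    (hgen : GenLowAt A q M B k hB hq hqM hA ht (zA A q M B k hB hq hA) n)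
    (θ : Place (kV A) (FM A M) → kV A)
    (hθ : letI := algkM A M
      ∀ z ∈ (nuMod A q M B k hB hq hqM hA ht).SS, θ z ^ p = 1) :
    letI := algkM A M
    ∃ f : ↥(L0 A (M * q)),
      (nuMod A q M B k hB hq hqM hA ht).T'.p₁.rd
        (algebraMap ↥(L0 A (M * q)) (FN (M * q)) f) ≠ 0 ∧
      (nuMod A q M B k hB hq hqM hA ht).T'.p₂.rd
        (algebraMap ↥(L0 A (M * q)) (FN (M * q)) f) ≠ 0 ∧
      (∀ Q : Place Kbar (FN (M * q)),
        (n : ℤ) ∣ Q.ord (algebraMap ↥(L0 A (M * q)) (FN (M * q)) f)) ∧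
      GlueLow (nuMod A q M B k hB hq hqM hA ht) (zA A q M B k hB hq hA) n f θ := by
  letI := algkM A M
  exact exists_glueLow_mod A q M B k hB hq hqM hA ht _
    (nuMod A q M B k hB hq hqM hA ht).nodeα (zA_injective A q M B k hB hq hA) hn hout hgen θ hθ

/-- **Every `θ : ssM → μ_p` is the gluing invariant of some `f ∈ L0 (M q)`, along `β`.** -/
theorem exists_glueLowB_mod {n p : ℕ} (hn : n ≠ 0)
    (hout : StRankOutAt A q M B k hB hq hqM hA ht p n)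
    (hgen : GenLowAt A q M B k hB hq hqM hA ht (zB A q M B k hB hq hqM hA) n)
    (θ : Place (kV A) (FM A M) → kV A)
    (hθ : letI := algkM A M
      ∀ z ∈ (nuMod A q M B k hB hq hqM hA ht).SS, θ z ^ p = 1) :
    letI := algkM A M
    ∃ f : ↥(L0 A (M * q)),
      (nuMod A q M B k hB hq hqM hA ht).T'.p₁.rd
        (algebraMap ↥(L0 A (M * q)) (FN (M * q)) f) ≠ 0 ∧
      (nuMod A q M B k hB hq hqM hA ht).T'.p₂.rd
        (algebraMap ↥(L0 A (M * q)) (FN (M * q)) f) ≠ 0 ∧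
      (∀ Q : Place Kbar (FN (M * q)),
        (n : ℤ) ∣ Q.ord (algebraMap ↥(L0 A (M * q)) (FN (M * q)) f)) ∧
      GlueLow (nuMod A q M B k hB hq hqM hA ht) (zB A q M B k hB hq hqM hA) n f θ := by
  letI := algkM A M
  exact exists_glueLow_mod A q M B k hB hq hqM hA ht _
    (nuMod A q M B k hB hq hqM hA ht).nodeβ (zB_injective A q M B k hB hq hqM hA) hn hout hgen
    θ hθ

end Mod

end Fermat.Agent.S59.LL.SQ.H89LG

end
end
-- ==== END Fermat.Agent.S59.LL.SQ.H89_LowGlueMod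

-- ==== BEGIN Fermat.Agent.S59.LL.SQ.H92_GenLowMod
section
attribute [local instance 10000] SubalgebraClass.toAlgebra
attribute [local instance 10000] HahnSeries.powerSeriesAlgebra

set_option autoImplicit false
set_option synthInstance.maxHeartbeats 400000
set_option maxHeartbeats 1000000
set_option linter.style.haveILetI false
set_option linter.unusedSectionVars false

noncomputable section

open ModularCurve AlgebraicCurve
open Fermat.Agent.S24 Fermat.Agent.BAD.H88 Fermat.Agent.S28 Fermat.Agent.S28.H73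
open Fermat.Agent.RED.H73 Fermat.Agent.RED.H17 Fermat.Agent.S36.NU.H88
open Fermat.Agent.Lib.HeckeComm Fermat.Agent.S36.NU.H23 Fermat.Agent.S36.NU.H74
open Fermat.Agent.S36.NU.H89 Fermat.Agent.S36.NU.H79

namespace Fermat.Agent.S59.LL.SQ.H92

open Fermat.Agent.BAD Fermat.Agent.RED Fermat.Agent.BAD.H79 Fermat.Agent.S59.LL.SQ.H86

section Mod

variable (A : ValuationSubring Kbar) (q M : ℕ) (B k : ℤ) (hB : B * M + k * q = 1) (hq : q.Prime)
  [NeZero M] [NeZero q] [NeZero (M * q)] [NeZero (M * q * q)]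
  (hqM : ¬ q ∣ M) (hA : A.LiesOverPrime q) (ht : H91.TameAt M q)

include hq in
/-- `N_α (α g) = g ^ q`. -/
theorem nalpha_pull (g : ↥(L0 A (M * q))) :
    NalphaM A q M (inclL0 A (Fermat.Agent.S36.NU.H87.hleA q M) g) = (g : FN (M * q)) ^ q := by
  rw [NalphaM_apply, Fermat.Agent.S36.NU.H87.coe_inclL0_alphaA A q M g]
  have h1 := Fermat.Agent.S36.NU.H10.normAlongHom_apply
    (heckeAlphaBar Kbar (M * q) q).toRingHom (g : FN (M * q))
  have h2 : (letI := (heckeAlphaBar Kbar (M * q) q).toRingHom.toAlgebra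
      Module.finrank (FN (M * q)) (FN (M * q * q))) = q :=
    Fermat.Agent.NEB.OLD.H6.finrankAlong_alpha_of_dvd (M * q) q hq (dvd_mul_left q M)
  rw [h2] at h1
  exact h1

include hq hqM in
/-- `N_β (β g) = g ^ q`. -/
theorem nbeta_pull (g : ↥(L0 A (M * q))) :
    NbetaM A q M (Fermat.Agent.S36.NU.H69.bL0 A q M g) = (g : FN (M * q)) ^ q := by
  rw [NbetaM_apply, Fermat.Agent.S36.NU.H69.coe_bL0]
  have h1 := Fermat.Agent.S36.NU.H10.normAlongHom_apply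
    (heckeBetaBar Kbar (M * q) q).toRingHom (g : FN (M * q))
  have h2 : (letI := (heckeBetaBar Kbar (M * q) q).toRingHom.toAlgebra
      Module.finrank (FN (M * q)) (FN (M * q * q))) = q :=
    Fermat.Agent.NEB.OLD.H6.stmt_DegBeta M q hq hqM
  rw [h2] at h1
  exact h1

/-- The norm along `α` of an inertia-fixed function is inertia-fixed. -/
theorem nalpha_mem (h : ↥(L0 A (M * q * q))) :
    ∃ t : ↥(L0 A (M * q)), (t : FN (M * q)) = NalphaM A q M h :=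
  ⟨⟨_, Fermat.Agent.S36.NU.H26.norm_mem_L0 A (heckeAlphaBar Kbar (M * q) q)
    (Fermat.Agent.S36.NU.H26.arithEquivariant_alpha (M * q) q)
    (Fermat.Agent.S36.H44.alpha_finite (M * q) q) (h : FN (M * q * q)) h.2⟩, rfl⟩

/-- The norm along `β` of an inertia-fixed function is inertia-fixed. -/
theorem nbeta_mem (h : ↥(L0 A (M * q * q))) :
    ∃ t : ↥(L0 A (M * q)), (t : FN (M * q)) = NbetaM A q M h :=
  ⟨⟨_, Fermat.Agent.S36.NU.H26.norm_mem_L0 A (heckeBetaBar Kbar (M * q) q)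
    (Fermat.Agent.S36.NU.H26.arithEquivariant_beta (M * q) q)
    (Fermat.Agent.S36.H44.beta_finite (M * q) q) (h : FN (M * q * q)) h.2⟩, rfl⟩

/-- **GENLOW along `α` for the modular datum.** -/
theorem isGenLow_alpha_mod {n : ℕ} (hcop : Nat.Coprime q n) {z : Place (kV A) (FM A M)}
    (hz : z ∈ ssM A q M) {f : ↥(L0 A (M * q))}
    (hf₁ : letI := algkM A M
      (nuMod A q M B k hB hq hqM hA ht).T'.p₁.rd
        (algebraMap ↥(L0 A (M * q)) (FN (M * q)) f) ≠ 0)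
    (hf₂ : letI := algkM A M
      (nuMod A q M B k hB hq hqM hA ht).T'.p₂.rd
        (algebraMap ↥(L0 A (M * q)) (FN (M * q)) f) ≠ 0)
    {s' : ↥(L0 A (M * q * q))}
    (hs : letI := algkM A M
      (nuMod A q M B k hB hq hqM hA ht).IsGen n z
        (inclL0 A (Fermat.Agent.S36.NU.H87.hleA q M) f) s') :
    letI := algkM A M
    ∃ s : ↥(L0 A (M * q)),
      IsGenLow (nuMod A q M B k hB hq hqM hA ht) n (zA A q M B k hB hq hA z) f s := by
  letI := algkM A M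
  exact isGenLow_of_pullA (D := nuMod A q M B k hB hq hqM hA ht)
    (pα := inclL0 A (Fermat.Agent.S36.NU.H87.hleA q M))
    (fun g => nalpha_pull A q M hq g) (fun h => nalpha_mem A q M h) hcop hz hf₁ hf₂ hs

/-- **GENLOW along `β` for the modular datum.** -/
theorem isGenLow_beta_mod {n : ℕ} (hcop : Nat.Coprime q n) {z : Place (kV A) (FM A M)}
    (hz : z ∈ ssM A q M) {f : ↥(L0 A (M * q))}
    (hf₁ : letI := algkM A M
      (nuMod A q M B k hB hq hqM hA ht).T'.p₁.rd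
        (algebraMap ↥(L0 A (M * q)) (FN (M * q)) f) ≠ 0)
    (hf₂ : letI := algkM A M
      (nuMod A q M B k hB hq hqM hA ht).T'.p₂.rd
        (algebraMap ↥(L0 A (M * q)) (FN (M * q)) f) ≠ 0)
    {s' : ↥(L0 A (M * q * q))}
    (hs : letI := algkM A M
      (nuMod A q M B k hB hq hqM hA ht).IsGen n z (Fermat.Agent.S36.NU.H69.bL0 A q M f) s') :
    letI := algkM A M
    ∃ s : ↥(L0 A (M * q)),
      IsGenLow (nuMod A q M B k hB hq hqM hA ht) n (zB A q M B k hB hq hqM hA z) f s := by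
  letI := algkM A M
  exact isGenLow_of_pullB (D := nuMod A q M B k hB hq hqM hA ht)
    (pβ := Fermat.Agent.S36.NU.H69.bL0 A q M)
    (fun g => nbeta_pull A q M hq hqM g) (fun h => nbeta_mem A q M h) hcop hz hf₁ hf₂ hs

end Mod

end Fermat.Agent.S59.LL.SQ.H92

end
end
-- ==== END Fermat.Agent.S59.LL.SQ.H92_GenLowMod

-- ==== BEGIN Fermat.Agent.S59.NonMin.Geom.H30_AsmG3
section

/-!
# S59 / NMGEOM, assembly ASM-G (helper30): the target from the three open inputs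

`nmgeomb_of3 : H48.Stmt_DEG3 → Stmt_RANK → Stmt_TWGEOMB → CaseC.Geom.Stmt_NMGEOMB`
(`Stmt_BM` by helper61 and `Stmt_ALG` by helper72 are plugged in), and the corollary for
`Geom.Stmt_NMGEOM2`.
-/

set_option autoImplicit false

namespace Fermat.Agent.S59.NonMin.Geom.H30

open Fermat.Agent.S59.NonMin.Geom

/-- **ASM-G** with `BM` and `ALG` plugged in. -/
theorem nmgeomb_of3 (hD3 : H48.Stmt_DEG3) (hRANK : Stmt_RANK) (hB0 : Stmt_TWGEOMB) :
    Fermat.Agent.S59.CaseC.Geom.Stmt_NMGEOMB :=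
  nmgeomb_of hD3 H61.stmt_BM H72.stmt_ALG hRANK hB0

theorem nmgeom2_of3 (hD3 : H48.Stmt_DEG3) (hRANK : Stmt_RANK) (hB0 : Stmt_TWGEOMB) :
    Stmt_NMGEOM2 :=
  nmgeom2_of_nmgeomb (nmgeomb_of3 hD3 hRANK hB0)

end Fermat.Agent.S59.NonMin.Geom.H30

end
-- ==== END Fermat.Agent.S59.NonMin.Geom.H30_AsmG3
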