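-- GENERATED (merged mirror, NOTES/tools/trim/merge3_helper67.py): 11 modules of the originals, bodies verbatim.
import Mathlib
import Fermat.Agent.Zm.S59_L03_003
import Fermat.Agent.Zm.S59_L02_004
import Fermat.Agent.Zm.S59_L03_004
import Fermat.Agent.Zm.S43_L07_002
import Fermat.Agent.Zm.S59_L02_005
import Fermat.Agent.Zm.S59_L03_005
import Fermat.Agent.Zm.S59_L01_004
import Fermat.Agent.Zm.S43_L02_001
import Fermat.Agent.Zm.S59_L01_005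
import Fermat.Agent.Zm.S43_L14_002
import Fermat.Agent.Zm.S44_L10_000

-- ==== BEGIN Fermat.Agent.S59.NonMin.Geom.H48_AsmG
section

/-!
# S59 / NMGEOM, assembly ASM-G, first half (helper48): `deg3_of`

`deg3_of : Stmt_IHARAFLD → Stmt_PROJQ → Stmt_SPLITFLD → Stmt_DUAL → Stmt_REL1 → Stmt_REL2 →
  Stmt_REL3 → Stmt_RELT → Stmt_RELU → Stmt_RELPAR → Stmt_DEG3`.

The operators of `Deg3Data` are the lifts of `U_q`, `res_a`, `π ∘ cor_a` to the modules of the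
two lattices (`π` the projector of `Stmt_PROJQ`).  No `sorry`.
-/

set_option autoImplicit false

open Polynomial CuspForm CongruenceSubgroup IsLocalRing
open scoped MatrixGroups

namespace Fermat.Agent.S59.NonMin.Geom.H48

open Fermat.Agent.S41 Fermat.Agent.Betti Fermat.Agent.S59 Fermat.Agent.S59.Asm
  Fermat.Agent.S59.NonMin Fermat.Agent.S59.NonMin.Geom
open ModularCurve.Period

/-! ## 1. Membership -/

section Mem

variable {𝒪 : Type} [CommRing 𝒪] [IsDomain 𝒪] [IsDiscreteValuationRing 𝒪]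
  {N : ℕ} [NeZero N] {S : Finset ℕ}
  {θ : CuspForm.heckeAlgebra N 2 (↑S : Set ℕ) →+* ResidueField 𝒪} {Sig : Finset ℕ}
  {q : ℕ} [NeZero (N * q ^ 2)]

omit [NeZero N] [NeZero (N * q ^ 2)] in
theorem not_dvd_level (hq : q.Prime) {ℓ : ℕ} (hℓ : ℓ.Prime) (hℓN : ¬ ℓ ∣ N)
    (hℓS : ℓ ∉ (↑(insert q S) : Set ℕ)) : ¬ ℓ ∣ N * q ^ 2 := by
  intro h
  rcases (Nat.Prime.dvd_mul hℓ).mp h with h1 | h1
  · exact hℓN h1
  · have h2 : ℓ ∣ q := Nat.Prime.dvd_of_dvd_pow hℓ h1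
    have : ℓ = q := (Nat.prime_dvd_prime_iff_eq hℓ hq).mp h2
    exact hℓS (by rw [this]; exact Finset.mem_coe.mpr (Finset.mem_insert_self q S))

omit [NeZero N] [NeZero (N * q ^ 2)] in
theorem not_mem_of_not_mem_insert {ℓ : ℕ} (hℓS : ℓ ∉ (↑(insert q S) : Set ℕ)) :
    ℓ ∉ (↑S : Set ℕ) :=
  fun h => hℓS (Finset.mem_coe.mpr (Finset.mem_insert_of_mem (Finset.mem_coe.mp h)))

/-- a linear map of level `N → N q²` commuting with the Hecke operators maps the lattice of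
`(N, S, θ)` to the lattice of `(N q², S ∪ {q}, θ ∘ rest)` -/
theorem mem_up (hSig : ∀ r ∈ Sig, r.Prime ∧ r ∣ N)
    (rest : CuspForm.heckeAlgebra (N * q ^ 2) 2 (↑(insert q S) : Set ℕ) →+*
      CuspForm.heckeAlgebra N 2 (↑S : Set ℕ))
    (hrest : ∀ (ℓ : ℕ) (hℓ : ℓ.Prime) (hℓN' : ¬ ℓ ∣ N * q ^ 2)
      (hℓS' : ℓ ∉ (↑(insert q S) : Set ℕ)) (hℓN : ¬ ℓ ∣ N) (hℓS : ℓ ∉ (↑S : Set ℕ)),
      rest (CuspForm.heckeAlgebra.T hℓ hℓN' hℓS') = CuspForm.heckeAlgebra.T hℓ hℓN hℓS)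
    (Φ : (Additive (Gamma0 N) →+ 𝒪) →ₗ[𝒪] (Additive (Gamma0 (N * q ^ (2 : ℕ))) →+ 𝒪))
    (hpar : ∀ φ, IsParabolicHom (Gamma0 N) φ → IsParabolicHom (Gamma0 (N * q ^ 2)) (Φ φ))
    (hU : ∀ (r : ℕ), r.Prime → ∀ (hrN : r ∣ N) (hrN' : r ∣ N * q ^ 2)
      (φ : Additive (Gamma0 N) →+ 𝒪), UB (N * q ^ 2) 𝒪 hrN' (Φ φ) = Φ (UB N 𝒪 hrN φ))
    (hT : ∀ (ℓ : ℕ) (hℓ : ℓ.Prime) (hℓN : ¬ ℓ ∣ N) (hℓN' : ¬ ℓ ∣ N * q ^ 2)
      (φ : Additive (Gamma0 N) →+ 𝒪),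
      TB (N * q ^ 2) 𝒪 hℓ hℓN' (Φ φ) = Φ (TB N 𝒪 hℓ hℓN φ))
    {φ : Additive (Gamma0 N) →+ 𝒪} (hφ : InBetti 𝒪 N (↑S : Set ℕ) θ Sig φ) :
    InBetti 𝒪 (N * q ^ 2) (↑(insert q S) : Set ℕ) (θ.comp rest) Sig (Φ φ) := by
  refine inBetti_map Φ hpar ?_ ?_ hφ
  · intro r hr hr₂
    exact ⟨(hSig r hr).2, fun φ _ => hU r (hSig r hr).1 (hSig r hr).2 hr₂ φ⟩
  · intro ℓ hℓ hℓN₂ hℓS₂
    have hℓN : ¬ ℓ ∣ N := fun h => hℓN₂ (Dvd.dvd.mul_right h _)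
    refine ⟨hℓN, not_mem_of_not_mem_insert hℓS₂, ?_, fun φ _ => hT ℓ hℓ hℓN hℓN₂ φ⟩
    rw [RingHom.comp_apply, hrest]

/-- a linear map of level `N q² → N` commuting with the Hecke operators maps the lattice of
`(N q², S ∪ {q}, θ ∘ rest)` to the anemic lattice of `(N, S ∪ {q}, θ')` -/
theorem mem_down (hq : q.Prime)
    (rest : CuspForm.heckeAlgebra (N * q ^ 2) 2 (↑(insert q S) : Set ℕ) →+*
      CuspForm.heckeAlgebra N 2 (↑S : Set ℕ))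
    (hrest : ∀ (ℓ : ℕ) (hℓ : ℓ.Prime) (hℓN' : ¬ ℓ ∣ N * q ^ 2)
      (hℓS' : ℓ ∉ (↑(insert q S) : Set ℕ)) (hℓN : ¬ ℓ ∣ N) (hℓS : ℓ ∉ (↑S : Set ℕ)),
      rest (CuspForm.heckeAlgebra.T hℓ hℓN' hℓS') = CuspForm.heckeAlgebra.T hℓ hℓN hℓS)
    (θ' : CuspForm.heckeAlgebra N 2 (↑(insert q S) : Set ℕ) →+* ResidueField 𝒪)
    (hθ' : ∀ (ℓ : ℕ) (hℓ : ℓ.Prime) (hℓN : ¬ ℓ ∣ N) (hℓS' : ℓ ∉ (↑(insert q S) : Set ℕ))
      (hℓS : ℓ ∉ (↑S : Set ℕ)),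
      θ' (CuspForm.heckeAlgebra.T hℓ hℓN hℓS') = θ (CuspForm.heckeAlgebra.T hℓ hℓN hℓS))
    (Φ : (Additive (Gamma0 (N * q ^ (2 : ℕ))) →+ 𝒪) →ₗ[𝒪] (Additive (Gamma0 N) →+ 𝒪))
    (hpar : ∀ φ, IsParabolicHom (Gamma0 (N * q ^ 2)) φ → IsParabolicHom (Gamma0 N) (Φ φ))
    (hU : ∀ (r : ℕ), r.Prime → ∀ (hrN : r ∣ N) (hrN' : r ∣ N * q ^ 2)
      (ψ : Additive (Gamma0 (N * q ^ 2)) →+ 𝒪),
      Φ (UB (N * q ^ 2) 𝒪 hrN' ψ) = UB N 𝒪 hrN (Φ ψ))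
    (hT : ∀ (ℓ : ℕ) (hℓ : ℓ.Prime) (hℓN : ¬ ℓ ∣ N) (hℓN' : ¬ ℓ ∣ N * q ^ 2)
      (ψ : Additive (Gamma0 (N * q ^ 2)) →+ 𝒪),
      Φ (TB (N * q ^ 2) 𝒪 hℓ hℓN' ψ) = TB N 𝒪 hℓ hℓN (Φ ψ))
    (hSigP : ∀ r ∈ Sig, r.Prime)
    {ψ : Additive (Gamma0 (N * q ^ 2)) →+ 𝒪}
    (hψ : InBetti 𝒪 (N * q ^ 2) (↑(insert q S) : Set ℕ) (θ.comp rest) Sig ψ) :
    InBetti 𝒪 N (↑(insert q S) : Set ℕ) θ' Sig (Φ ψ) := by
  refine inBetti_map Φ hpar ?_ ?_ hψ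
  · intro r hr hr₂
    exact ⟨Dvd.dvd.mul_right hr₂ _, fun ψ _ => (hU r (hSigP r hr) hr₂ _ ψ).symm⟩
  · intro ℓ hℓ hℓN₂ hℓS₂
    have hℓN' : ¬ ℓ ∣ N * q ^ 2 := not_dvd_level hq hℓ hℓN₂ hℓS₂
    refine ⟨hℓN', hℓS₂, ?_, fun ψ _ => (hT ℓ hℓ hℓN₂ hℓN' ψ).symm⟩
    rw [RingHom.comp_apply, hrest ℓ hℓ hℓN' hℓS₂ hℓN₂ (not_mem_of_not_mem_insert hℓS₂),
      hθ' ℓ hℓ hℓN₂ hℓS₂ (not_mem_of_not_mem_insert hℓS₂)]

/-- the lattice of `(N, S, θ)` lies in the anemic lattice of `(N, S ∪ {q}, θ')` -/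
theorem mem_incl
    (θ' : CuspForm.heckeAlgebra N 2 (↑(insert q S) : Set ℕ) →+* ResidueField 𝒪)
    (hθ' : ∀ (ℓ : ℕ) (hℓ : ℓ.Prime) (hℓN : ¬ ℓ ∣ N) (hℓS' : ℓ ∉ (↑(insert q S) : Set ℕ))
      (hℓS : ℓ ∉ (↑S : Set ℕ)),
      θ' (CuspForm.heckeAlgebra.T hℓ hℓN hℓS') = θ (CuspForm.heckeAlgebra.T hℓ hℓN hℓS))
    {φ : Additive (Gamma0 N) →+ 𝒪} (hφ : InBetti 𝒪 N (↑S : Set ℕ) θ Sig φ) :
    InBetti 𝒪 N (↑(insert q S) : Set ℕ) θ' Sig φ := by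
  have := inBetti_map (θ₁ := θ) (θ₂ := θ') (Sig := Sig)
    (LinearMap.id : (Additive (Gamma0 N) →+ 𝒪) →ₗ[𝒪] (Additive (Gamma0 N) →+ 𝒪))
    (fun φ h => h) (fun r _ hr₂ => ⟨hr₂, fun φ _ => rfl⟩)
    (fun ℓ hℓ hℓN₂ hℓS₂ => ⟨hℓN₂, not_mem_of_not_mem_insert hℓS₂,
      hθ' ℓ hℓ hℓN₂ hℓS₂ (not_mem_of_not_mem_insert hℓS₂), fun φ _ => rfl⟩) hφ
  exact this

/-- `U_q` preserves the lattice of level `M` (`q ∣ M`) -/
theorem mem_UBq [CharZero 𝒪] {M : ℕ} [NeZero M] {S' : Set ℕ}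
    {θ' : CuspForm.heckeAlgebra M 2 S' →+* ResidueField 𝒪}
    (hq : q.Prime) (hd : q ∣ M) (hSigP : ∀ r ∈ Sig, r.Prime)
    {ψ : Additive (Gamma0 M) →+ 𝒪} (hψ : InBetti 𝒪 M S' θ' Sig ψ) :
    InBetti 𝒪 M S' θ' Sig (UB M 𝒪 hd ψ) := by
  have := inBetti_map (θ₁ := θ') (θ₂ := θ') (Sig := Sig) (UBl 𝒪 M hd)
    (fun φ h => H53.UB_par 𝒪 hd φ h)
    (fun r hr hr₂ => ⟨hr₂, fun φ hφ => H53.UB_UB_comm 𝒪 (hSigP r hr) hr₂ hq hd φ hφ⟩)
    (fun ℓ hℓ hℓN₂ hℓS₂ => ⟨hℓN₂, hℓS₂, rfl, fun φ hφ => H53.TB_UB_comm 𝒪 hq hd hℓ hℓN₂ φ hφ⟩)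
    hψ
  exact this

end Mem

/-! ## 2. Small facts -/

theorem isUnit_natCast_of_ne {𝒪 : Type} [CommRing 𝒪] [IsLocalRing 𝒪] {p q : ℕ} (hp : p.Prime)
    (hq : q.Prime) (hqp : q ≠ p) (h : (p : 𝒪) ∈ maximalIdeal 𝒪) : IsUnit (q : 𝒪) := by
  by_contra hu
  have hqm : (q : 𝒪) ∈ maximalIdeal 𝒪 := (mem_maximalIdeal _).mpr hu
  have hc : Nat.Coprime p q := (Nat.coprime_primes hp hq).mpr (Ne.symm hqp)
  have h1 : ((Nat.gcd p q : ℕ) : 𝒪) ∈ maximalIdeal 𝒪 := by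
    have := Nat.gcd_eq_gcd_ab p q
    have h2 : ((Nat.gcd p q : ℕ) : 𝒪) =
        (p : 𝒪) * ((Nat.gcdA p q : ℤ) : 𝒪) + (q : 𝒪) * ((Nat.gcdB p q : ℤ) : 𝒪) := by
      have h3 := congrArg (fun z : ℤ => (z : 𝒪)) this
      simpa using h3
    rw [h2]
    exact Ideal.add_mem _ (Ideal.mul_mem_right _ _ h) (Ideal.mul_mem_right _ _ hqm)
  rw [hc, Nat.cast_one] at h1
  exact (mem_maximalIdeal _).mp h1 isUnit_one

theorem geomHyp_sig_dvd {p : ℕ} {Smin : Finset ℕ} {N₀ : ℕ} {Sig : Finset ℕ} {N : ℕ}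
    {S : Finset ℕ} (h : GeomHyp p Smin N₀ Sig N S) {r : ℕ} (hr : r ∈ Sig) : r ∣ N := by
  rw [h.hN]
  refine Dvd.dvd.mul_left ?_ _
  exact dvd_trans (dvd_pow_self r (by norm_num)) (Finset.dvd_prod_of_mem (fun r => r ^ 2) hr)

theorem geomHyp_sig_mem {p : ℕ} {Smin : Finset ℕ} {N₀ : ℕ} {Sig : Finset ℕ} {N : ℕ}
    {S : Finset ℕ} (h : GeomHyp p Smin N₀ Sig N S) {r : ℕ} (hr : r ∈ Sig) : r ∈ S := by
  rw [h.hS]
  exact Finset.mem_union_right _ hr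

/-! ## 3. The assembly -/

/-- **DEG3** from the function-level leaves. -/
theorem deg3_of (hIH : Stmt_IHARAFLD) (hPJ : Stmt_PROJQ) (hSP : Stmt_SPLITFLD)
    (hDU : Stmt_DUAL) (hR1 : Stmt_REL1) (hR2 : Stmt_REL2) (hR3 : Stmt_REL3) (hRT : Stmt_RELT)
    (hRU : Stmt_RELU) (hRP : Stmt_RELPAR) : Stmt_DEG3 := by
  intro 𝒪 _ _ _ _ _ _ p _ hp2 hp𝒪 ρbar Smin hres N₀ Sig s hG hF ι hι q hq hqp hqN hqS _ rest
    hrest M' ι' hι'
  obtain ⟨hιi, hιr, hιT⟩ := hι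
  obtain ⟨hι'i, hι'r, hι'T⟩ := hι'
  change ∀ φ, φ ∈ Set.range ι' ↔
    InBetti 𝒪 (s.N * q ^ 2) (↑(insert q s.S) : Set ℕ) (s.θ.comp rest) Sig φ at hι'r
  change ∀ (ℓ : ℕ) (hℓ : ℓ.Prime) (hℓN : ¬ ℓ ∣ s.N * q ^ 2)
    (hℓS : ℓ ∉ (↑(insert q s.S) : Set ℕ)) (v : M'.V),
    ι' (M'.η (CuspForm.heckeAlgebra.T hℓ hℓN hℓS) v) = TB (s.N * q ^ 2) 𝒪 hℓ hℓN (ι' v) at hι'T
  -- arithmetic
  have hd : q ∣ s.N * q ^ 2 := H30.q_dvd_level s.N q
  have hSigP : ∀ r ∈ Sig, r.Prime := fun r hr => (hG.hSig r hr).1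
  have hSigN : ∀ r ∈ Sig, r.Prime ∧ r ∣ s.N := fun r hr => ⟨hSigP r hr, geomHyp_sig_dvd hG hr⟩
  have hSigq : ∀ r ∈ Sig, r.Prime ∧ r ≠ q := fun r hr =>
    ⟨hSigP r hr, fun h => hqS (Finset.mem_coe.mpr (h ▸ geomHyp_sig_mem hG hr))⟩
  have hNS : ∀ r : ℕ, r.Prime → r ∣ s.N → r ∈ s.S := fun r hr hrN =>
    H30.geomHyp_prime_mem hG hr hrN
  have hN'S' : ∀ r : ℕ, r.Prime → r ∣ s.N * q ^ 2 → r ∈ (↑(insert q s.S) : Set ℕ) :=
    fun r hr hrN => Finset.mem_coe.mpr (H30.geomHyp_prime_mem_next hG hq hr hrN)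
  have hqu : IsUnit (q : 𝒪) := isUnit_natCast_of_ne (Fact.out : p.Prime) hq hqp hp𝒪
  -- the anemic lattice `X` of level `N` and the projector
  have hsub : (↑s.S : Set ℕ) ⊆ (↑(insert q s.S) : Set ℕ) := fun x hx =>
    Finset.mem_coe.mpr (Finset.mem_insert_of_mem (Finset.mem_coe.mp hx))
  have hnew0 : ∀ r : ℕ, r.Prime → r ∣ s.N → ¬ r ∣ s.N → r ∈ (↑(insert q s.S) : Set ℕ) :=
    fun r _ h1 h2 => absurd h1 h2
  set rest₀ : CuspForm.heckeAlgebra s.N 2 (↑(insert q s.S) : Set ℕ) →+*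
      CuspForm.heckeAlgebra s.N 2 (↑s.S : Set ℕ) :=
    Fermat.Agent.S59.Asm.H41.rest (dvd_refl s.N) 2 hsub hnew0 with hrest₀
  set θ' : CuspForm.heckeAlgebra s.N 2 (↑(insert q s.S) : Set ℕ) →+* ResidueField 𝒪 :=
    s.θ.comp rest₀ with hθ'def
  have hθ' : ∀ (ℓ : ℕ) (hℓ : ℓ.Prime) (hℓN : ¬ ℓ ∣ s.N)
      (hℓS' : ℓ ∉ (↑(insert q s.S) : Set ℕ)) (hℓS : ℓ ∉ (↑s.S : Set ℕ)),
      θ' (CuspForm.heckeAlgebra.T hℓ hℓN hℓS') = s.θ (CuspForm.heckeAlgebra.T hℓ hℓN hℓS) := by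
    intro ℓ hℓ hℓN hℓS' hℓS
    rw [hθ'def, RingHom.comp_apply, hrest₀,
      Fermat.Agent.S59.Asm.H41.rest_T (dvd_refl s.N) 2 hsub hnew0 hℓ hℓN hℓS' hℓN hℓS]
  obtain ⟨π, hπ1, hπ2, hπ3, hπ4, hπ5, hπ6⟩ :=
    hPJ 𝒪 s.N s.S hNS s.θ Sig hSigP q hq hqN hqS θ' hθ'
  -- abbreviations for the three lattices
  have hL : ∀ v : s.M.V, InBetti 𝒪 s.N (↑s.S : Set ℕ) s.θ Sig (ι v) :=
    fun v => (hιr _).mp ⟨v, rfl⟩
  have hL' : ∀ w : M'.V,
      InBetti 𝒪 (s.N * q ^ 2) (↑(insert q s.S) : Set ℕ) (s.θ.comp rest) Sig (ι' w) :=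
    fun w => (hι'r _).mp ⟨w, rfl⟩
  have hLX : ∀ v : s.M.V, InBetti 𝒪 s.N (↑(insert q s.S) : Set ℕ) θ' Sig (ι v) :=
    fun v => mem_incl θ' hθ' (hL v)
  -- membership
  have hA1 : ∀ φ, InBetti 𝒪 s.N (↑s.S : Set ℕ) s.θ Sig φ →
      InBetti 𝒪 (s.N * q ^ 2) (↑(insert q s.S) : Set ℕ) (s.θ.comp rest) Sig
        (resA1 s.N q 𝒪 φ) := fun φ hφ =>
    mem_up hSigN rest hrest (resL 𝒪 (j1 s.N q))
      (fun φ h => ((hRP s.N q hq hqN 𝒪).1 φ h).1)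
      (fun r hr hrN hrN' φ => ((hRU s.N q hq hqN r hr hrN hrN' 𝒪).1 φ).1)
      (fun ℓ hℓ hℓN hℓN' φ => ((hRT s.N q hq hqN ℓ hℓ hℓN hℓN' 𝒪).1 φ).1) hφ
  have hA2 : ∀ φ, InBetti 𝒪 s.N (↑s.S : Set ℕ) s.θ Sig φ →
      InBetti 𝒪 (s.N * q ^ 2) (↑(insert q s.S) : Set ℕ) (s.θ.comp rest) Sig
        (resA2 s.N q 𝒪 φ) := fun φ hφ =>
    mem_up hSigN rest hrest (resL 𝒪 (j2 s.N q))
      (fun φ h => ((hRP s.N q hq hqN 𝒪).1 φ h).2.1)
      (fun r hr hrN hrN' φ => ((hRU s.N q hq hqN r hr hrN hrN' 𝒪).1 φ).2.1)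
      (fun ℓ hℓ hℓN hℓN' φ => ((hRT s.N q hq hqN ℓ hℓ hℓN hℓN' 𝒪).1 φ).2.1) hφ
  have hA3 : ∀ φ, InBetti 𝒪 s.N (↑s.S : Set ℕ) s.θ Sig φ →
      InBetti 𝒪 (s.N * q ^ 2) (↑(insert q s.S) : Set ℕ) (s.θ.comp rest) Sig
        (resA3 s.N q 𝒪 φ) := fun φ hφ =>
    mem_up hSigN rest hrest (resL 𝒪 (j3 s.N q))
      (fun φ h => ((hRP s.N q hq hqN 𝒪).1 φ h).2.2)
      (fun r hr hrN hrN' φ => ((hRU s.N q hq hqN r hr hrN hrN' 𝒪).1 φ).2.2)
      (fun ℓ hℓ hℓN hℓN' φ => ((hRT s.N q hq hqN ℓ hℓ hℓN hℓN' 𝒪).1 φ).2.2) hφ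
  have hC1 : ∀ ψ, InBetti 𝒪 (s.N * q ^ 2) (↑(insert q s.S) : Set ℕ) (s.θ.comp rest) Sig ψ →
      InBetti 𝒪 s.N (↑(insert q s.S) : Set ℕ) θ' Sig (corC1 s.N q 𝒪 ψ) := fun ψ hψ =>
    mem_down hq rest hrest θ' hθ' (corL 𝒪 (j1 s.N q))
      (fun φ h => ((hRP s.N q hq hqN 𝒪).2.1 φ h).1)
      (fun r hr hrN hrN' ψ => ((hRU s.N q hq hqN r hr hrN hrN' 𝒪).2 ψ).1)
      (fun ℓ hℓ hℓN hℓN' ψ => ((hRT s.N q hq hqN ℓ hℓ hℓN hℓN' 𝒪).2 ψ).1) hSigP hψ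
  have hC2 : ∀ ψ, InBetti 𝒪 (s.N * q ^ 2) (↑(insert q s.S) : Set ℕ) (s.θ.comp rest) Sig ψ →
      InBetti 𝒪 s.N (↑(insert q s.S) : Set ℕ) θ' Sig (corC2 s.N q 𝒪 ψ) := fun ψ hψ =>
    mem_down hq rest hrest θ' hθ' (corL 𝒪 (j2 s.N q))
      (fun φ h => ((hRP s.N q hq hqN 𝒪).2.1 φ h).2.1)
      (fun r hr hrN hrN' ψ => ((hRU s.N q hq hqN r hr hrN hrN' 𝒪).2 ψ).2.1)
      (fun ℓ hℓ hℓN hℓN' ψ => ((hRT s.N q hq hqN ℓ hℓ hℓN hℓN' 𝒪).2 ψ).2.1) hSigP hψ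
  have hC3 : ∀ ψ, InBetti 𝒪 (s.N * q ^ 2) (↑(insert q s.S) : Set ℕ) (s.θ.comp rest) Sig ψ →
      InBetti 𝒪 s.N (↑(insert q s.S) : Set ℕ) θ' Sig (corC3 s.N q 𝒪 ψ) := fun ψ hψ =>
    mem_down hq rest hrest θ' hθ' (corL 𝒪 (j3 s.N q))
      (fun φ h => ((hRP s.N q hq hqN 𝒪).2.1 φ h).2.2)
      (fun r hr hrN hrN' ψ => ((hRU s.N q hq hqN r hr hrN hrN' 𝒪).2 ψ).2.2)
      (fun ℓ hℓ hℓN hℓN' ψ => ((hRT s.N q hq hqN ℓ hℓ hℓN hℓN' 𝒪).2 ψ).2.2) hSigP hψ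
  have hUq : ∀ ψ, InBetti 𝒪 (s.N * q ^ 2) (↑(insert q s.S) : Set ℕ) (s.θ.comp rest) Sig ψ →
      InBetti 𝒪 (s.N * q ^ 2) (↑(insert q s.S) : Set ℕ) (s.θ.comp rest) Sig
        (UB (s.N * q ^ 2) 𝒪 hd ψ) := fun ψ hψ => mem_UBq hq hd hSigP hψ
  have hLT : ∀ v : s.M.V, (InBetti 𝒪 s.N (↑s.S : Set ℕ) s.θ Sig) (TB s.N 𝒪 hq hqN (ι v)) := fun v => by
    rw [← hιT q hq hqN hqS]
    exact hL _
  -- linearity of `π` on `X`
  have hπneg : ∀ φ, (InBetti 𝒪 s.N (↑(insert q s.S) : Set ℕ) θ' Sig) φ → π (-φ) = -π φ := fun φ hφ => by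
    have := hπ4 (-1 : 𝒪) φ hφ
    rwa [neg_one_smul, neg_one_smul] at this
  have hπsub : ∀ φ ψ, (InBetti 𝒪 s.N (↑(insert q s.S) : Set ℕ) θ' Sig) φ → (InBetti 𝒪 s.N (↑(insert q s.S) : Set ℕ) θ' Sig) ψ → π (φ - ψ) = π φ - π ψ := fun φ ψ hφ hψ => by
    rw [sub_eq_add_neg, hπ3 φ (-ψ) hφ (inBetti_neg hψ), hπneg ψ hψ, ← sub_eq_add_neg]
  have hπnsmul : ∀ (n : ℕ) φ, (InBetti 𝒪 s.N (↑(insert q s.S) : Set ℕ) θ' Sig) φ → π (n • φ) = n • π φ := fun n φ hφ => by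
    have := hπ4 (n : 𝒪) φ hφ
    rwa [Nat.cast_smul_eq_nsmul, Nat.cast_smul_eq_nsmul] at this
  have hπTq : ∀ φ, (InBetti 𝒪 s.N (↑(insert q s.S) : Set ℕ) θ' Sig) φ → (InBetti 𝒪 s.N (↑(insert q s.S) : Set ℕ) θ' Sig) (TB s.N 𝒪 hq hqN φ) ∧
      π (TB s.N 𝒪 hq hqN φ) = TB s.N 𝒪 hq hqN (π φ) := fun φ hφ => hπ5 q hq hqN hqS φ hφ
  -- the lifts
  obtain ⟨U, hU⟩ : ∃ U : M'.V →ₗ[𝒪] M'.V, ∀ w, ι' (U w) = UB (s.N * q ^ 2) 𝒪 hd (ι' w) :=
    exists_lift ι' hι'i (fun w => UBl 𝒪 (s.N * q ^ 2) hd (ι' w))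
      (fun v w => by simp only [map_add]) (fun c v => by simp only [map_smul])
      (fun w => (hι'r _).mpr (hUq _ (hL' w)))
  obtain ⟨A₁, hA₁⟩ : ∃ A : s.M.V →ₗ[𝒪] M'.V, ∀ v, ι' (A v) = resA1 s.N q 𝒪 (ι v) :=
    exists_lift ι' hι'i (fun v => resL 𝒪 (j1 s.N q) (ι v))
      (fun v w => by simp only [map_add]) (fun c v => by simp only [map_smul])
      (fun v => (hι'r _).mpr (hA1 _ (hL v)))
  obtain ⟨A₂, hA₂⟩ : ∃ A : s.M.V →ₗ[𝒪] M'.V, ∀ v, ι' (A v) = resA2 s.N q 𝒪 (ι v) :=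
    exists_lift ι' hι'i (fun v => resL 𝒪 (j2 s.N q) (ι v))
      (fun v w => by simp only [map_add]) (fun c v => by simp only [map_smul])
      (fun v => (hι'r _).mpr (hA2 _ (hL v)))
  obtain ⟨A₃, hA₃⟩ : ∃ A : s.M.V →ₗ[𝒪] M'.V, ∀ v, ι' (A v) = resA3 s.N q 𝒪 (ι v) :=
    exists_lift ι' hι'i (fun v => resL 𝒪 (j3 s.N q) (ι v))
      (fun v w => by simp only [map_add]) (fun c v => by simp only [map_smul])
      (fun v => (hι'r _).mpr (hA3 _ (hL v)))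
  obtain ⟨C₁, hC₁⟩ : ∃ C : M'.V →ₗ[𝒪] s.M.V, ∀ w, ι (C w) = π (corC1 s.N q 𝒪 (ι' w)) :=
    exists_lift ι hιi (fun w => π (corL 𝒪 (j1 s.N q) (ι' w)))
      (fun v w => by
        simp only [map_add]
        exact hπ3 _ _ (hC1 _ (hL' v)) (hC1 _ (hL' w)))
      (fun c v => by
        simp only [map_smul]
        exact hπ4 c _ (hC1 _ (hL' v)))
      (fun w => (hιr _).mpr (hπ1 _ (hC1 _ (hL' w))))
  obtain ⟨C₂, hC₂⟩ : ∃ C : M'.V →ₗ[𝒪] s.M.V, ∀ w, ι (C w) = π (corC2 s.N q 𝒪 (ι' w)) :=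
    exists_lift ι hιi (fun w => π (corL 𝒪 (j2 s.N q) (ι' w)))
      (fun v w => by
        simp only [map_add]
        exact hπ3 _ _ (hC2 _ (hL' v)) (hC2 _ (hL' w)))
      (fun c v => by
        simp only [map_smul]
        exact hπ4 c _ (hC2 _ (hL' v)))
      (fun w => (hιr _).mpr (hπ1 _ (hC2 _ (hL' w))))
  obtain ⟨C₃, hC₃⟩ : ∃ C : M'.V →ₗ[𝒪] s.M.V, ∀ w, ι (C w) = π (corC3 s.N q 𝒪 (ι' w)) :=
    exists_lift ι hιi (fun w => π (corL 𝒪 (j3 s.N q) (ι' w)))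
      (fun v w => by
        simp only [map_add]
        exact hπ3 _ _ (hC3 _ (hL' v)) (hC3 _ (hL' w)))
      (fun c v => by
        simp only [map_smul]
        exact hπ4 c _ (hC3 _ (hL' v)))
      (fun w => (hιr _).mpr (hπ1 _ (hC3 _ (hL' w))))
  -- the operators commute with the Hecke algebra
  have hUη : ∀ t (w : M'.V), U (M'.η t w) = M'.η t (U w) :=
    intertwine_all hN'S' M'.η M'.η U (fun ℓ hℓ hℓN hℓS v => by
      apply hι'i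
      rw [hU, hι'T, hι'T, hU]
      exact H53.UB_TB_comm 𝒪 hq hd hℓ hℓN (ι' v) (hL' v).1)
  have hAη : ∀ (A : s.M.V →ₗ[𝒪] M'.V)
      (R : (Additive (Gamma0 s.N) →+ 𝒪) → (Additive (Gamma0 (s.N * q ^ 2)) →+ 𝒪)),
      (∀ v, ι' (A v) = R (ι v)) →
      (∀ (ℓ : ℕ) (hℓ : ℓ.Prime) (hℓN : ¬ ℓ ∣ s.N) (hℓN' : ¬ ℓ ∣ s.N * q ^ 2)
        (φ : Additive (Gamma0 s.N) →+ 𝒪),
        TB (s.N * q ^ 2) 𝒪 hℓ hℓN' (R φ) = R (TB s.N 𝒪 hℓ hℓN φ)) →
      ∀ t (v : s.M.V), A (s.M.η (rest t) v) = M'.η t (A v) := by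
    intro A R hA hR
    refine intertwine_all hN'S' (s.M.η.comp rest) M'.η A (fun ℓ hℓ hℓN' hℓS' v => ?_)
    have hℓN : ¬ ℓ ∣ s.N := fun h => hℓN' (Dvd.dvd.mul_right h _)
    apply hι'i
    rw [hA, hι'T, hA, RingHom.comp_apply,
      hrest ℓ hℓ hℓN' hℓS' hℓN (not_mem_of_not_mem_insert hℓS'), hιT, hR ℓ hℓ hℓN hℓN']
  have hCη : ∀ (C : M'.V →ₗ[𝒪] s.M.V)
      (R : (Additive (Gamma0 (s.N * q ^ 2)) →+ 𝒪) → (Additive (Gamma0 s.N) →+ 𝒪)),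
      (∀ w, ι (C w) = π (R (ι' w))) → (∀ w, (InBetti 𝒪 s.N (↑(insert q s.S) : Set ℕ) θ' Sig) (R (ι' w))) →
      (∀ (ℓ : ℕ) (hℓ : ℓ.Prime) (hℓN : ¬ ℓ ∣ s.N) (hℓN' : ¬ ℓ ∣ s.N * q ^ 2)
        (ψ : Additive (Gamma0 (s.N * q ^ 2)) →+ 𝒪),
        R (TB (s.N * q ^ 2) 𝒪 hℓ hℓN' ψ) = TB s.N 𝒪 hℓ hℓN (R ψ)) →
      ∀ t (w : M'.V), C (M'.η t w) = s.M.η (rest t) (C w) := by
    intro C R hC hX hR
    refine intertwine_all hN'S' M'.η (s.M.η.comp rest) C (fun ℓ hℓ hℓN' hℓS' w => ?_)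
    have hℓN : ¬ ℓ ∣ s.N := fun h => hℓN' (Dvd.dvd.mul_right h _)
    have hℓS : ℓ ∉ (↑s.S : Set ℕ) := not_mem_of_not_mem_insert hℓS'
    apply hιi
    rw [hC, hι'T, RingHom.comp_apply, hrest ℓ hℓ hℓN' hℓS' hℓN hℓS, hιT, hC,
      hR ℓ hℓ hℓN hℓN']
    exact (hπ5 ℓ hℓ hℓN hℓS _ (hX w)).2
  refine ⟨{
    q_unit := hqu
    U := U
    U_η' := fun t => LinearMap.ext fun w => hUη t w
    A₁ := A₁
    A₂ := A₂
    A₃ := A₃
    C₁ := C₁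
    C₂ := C₂
    C₃ := C₃
    A₁_η := hAη A₁ _ hA₁ (fun ℓ hℓ hℓN hℓN' φ => ((hRT s.N q hq hqN ℓ hℓ hℓN hℓN' 𝒪).1 φ).1)
    A₂_η := hAη A₂ _ hA₂ (fun ℓ hℓ hℓN hℓN' φ => ((hRT s.N q hq hqN ℓ hℓ hℓN hℓN' 𝒪).1 φ).2.1)
    A₃_η := hAη A₃ _ hA₃ (fun ℓ hℓ hℓN hℓN' φ => ((hRT s.N q hq hqN ℓ hℓ hℓN hℓN' 𝒪).1 φ).2.2)
    C₁_η := hCη C₁ _ hC₁ (fun w => hC1 _ (hL' w))
      (fun ℓ hℓ hℓN hℓN' ψ => ((hRT s.N q hq hqN ℓ hℓ hℓN hℓN' 𝒪).2 ψ).1)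
    C₂_η := hCη C₂ _ hC₂ (fun w => hC2 _ (hL' w))
      (fun ℓ hℓ hℓN hℓN' ψ => ((hRT s.N q hq hqN ℓ hℓ hℓN hℓN' 𝒪).2 ψ).2.1)
    C₃_η := hCη C₃ _ hC₃ (fun w => hC3 _ (hL' w))
      (fun ℓ hℓ hℓN hℓN' ψ => ((hRT s.N q hq hqN ℓ hℓ hℓN hℓN' 𝒪).2 ψ).2.2)
    R1a := fun v => by
      apply hι'i
      rw [hU, hA₁, map_sub, hA₁, hA₂, hιT]
      exact (hR1 s.N q hq hqN hd 𝒪 (ι v)).1
    R1b := fun v => by
      apply hι'i
      rw [hU, hA₂, map_nsmul, hA₁]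
      exact (hR1 s.N q hq hqN hd 𝒪 (ι v)).2.1
    R1c := fun v => by
      apply hι'i
      rw [hU, hA₃, map_nsmul, hA₂]
      exact (hR1 s.N q hq hqN hd 𝒪 (ι v)).2.2
    R2a := fun w => by
      apply hιi
      rw [hC₁, hU, map_nsmul, hC₂, (hR2 s.N q hq hqN hd 𝒪 (ι' w)).1]
      exact hπnsmul q _ (hC2 _ (hL' w))
    R2b := fun w => by
      apply hιi
      rw [hC₂, hU, map_nsmul, hC₃, (hR2 s.N q hq hqN hd 𝒪 (ι' w)).2.1]
      exact hπnsmul q _ (hC3 _ (hL' w))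
    R2c := fun w => by
      apply hιi
      rw [hC₃, hU, map_sub, hιT, hC₃, hC₂, (hR2 s.N q hq hqN hd 𝒪 (ι' w)).2.2,
        hπsub _ _ (hπTq _ (hC3 _ (hL' w))).1 (hC2 _ (hL' w)), (hπTq _ (hC3 _ (hL' w))).2]
    R3a := fun v => by
      apply hιi
      rw [hC₁, hA₁, map_nsmul, (hR3 s.N q hq hqN 𝒪 (ι v)).1]
      exact hπ2 _ (inBetti_nsmul _ (hL v))
    R3b := fun v => by
      apply hιi
      rw [hC₁, hA₂, map_nsmul, hιT, (hR3 s.N q hq hqN 𝒪 (ι v)).2.1]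
      exact hπ2 _ (inBetti_nsmul _ (hLT v))
    R3c := fun v => by
      apply hιi
      rw [hC₁, hA₃, map_sub, hιT, hιT, map_nsmul, (hR3 s.N q hq hqN 𝒪 (ι v)).2.2]
      refine hπ2 _ (inBetti_sub ?_ (inBetti_nsmul _ (hL v)))
      rw [← hιT q hq hqN hqS, ← hιT q hq hqN hqS]
      exact hL _
    split := fun w => by
      obtain ⟨ψ₀, ψ₁, h0, h1, h2, h3⟩ :=
        hSP 𝒪 s.N q hq hqN hqu _ (s.θ.comp rest) Sig hSigq hd (ι' w) (hL' w)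
      obtain ⟨w₀, rfl⟩ := (hι'r ψ₀).mpr h0
      obtain ⟨w₁, rfl⟩ := (hι'r ψ₁).mpr h1
      refine ⟨w₀, w₁, hι'i ?_, hι'i ?_⟩
      · rw [map_add, hU]
        exact h2
      · rw [hU, map_zero]
        exact h3
    ihara := fun v hv => by
      have h1 := map_mem_Mval_of_mem ι' hv
      rw [map_add, map_sub, map_nsmul, hA₁, hA₂, hA₃, hιT] at h1
      have h2 := hIH 𝒪 p hp2 hp𝒪 ρbar Smin hres N₀ Sig s.N s.S hG s.θ hF q hq hqp hqN hqS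
        (q • ι v) (-(TB s.N 𝒪 hq hqN (ι v))) (ι v) (inBetti_nsmul _ (hL v))
        (inBetti_neg (hLT v)) (hL v) (fun γ => by
          have h3 := h1 γ
          rw [pow_one] at h3
          have h4 : resA1 s.N q 𝒪 (q • ι v) + resA2 s.N q 𝒪 (-(TB s.N 𝒪 hq hqN (ι v))) +
              resA3 s.N q 𝒪 (ι v) = q • resA1 s.N q 𝒪 (ι v) -
                resA2 s.N q 𝒪 (TB s.N 𝒪 hq hqN (ι v)) + resA3 s.N q 𝒪 (ι v) := by
            show resL 𝒪 (j1 s.N q) (q • ι v) + resL 𝒪 (j2 s.N q) (-(TB s.N 𝒪 hq hqN (ι v))) +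
              resL 𝒪 (j3 s.N q) (ι v) = q • resL 𝒪 (j1 s.N q) (ι v) -
                resL 𝒪 (j2 s.N q) (TB s.N 𝒪 hq hqN (ι v)) + resL 𝒪 (j3 s.N q) (ι v)
            rw [map_nsmul, map_neg, sub_eq_add_neg]
          rw [h4]
          exact h3)
      exact mem_smul_top_of_mem_Mval ι hιi hιr (fun γ => by
        rw [pow_one]
        exact (h2 γ).2.2)
    dual := fun v => by
      obtain ⟨ψ, hψ, hval⟩ := hDU 𝒪 p hp2 hp𝒪 ρbar Smin hres N₀ Sig s.N s.S hG s.θ hF q hq hqp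
        hqN hqS rest hrest (ι v) (hL v)
      obtain ⟨w, rfl⟩ := (hι'r ψ).mpr hψ
      refine ⟨w, mem_smul_top_of_mem_Mval ι hιi hιr ?_⟩
      have hX1 := hC1 _ (hL' w)
      have hX2 := hC2 _ (hL' w)
      have hX3 := hC3 _ (hL' w)
      have hXα : (InBetti 𝒪 s.N (↑(insert q s.S) : Set ℕ) θ' Sig) (alphaB' s.N 𝒪 hq hqN (ι' w) - ι v) :=
        inBetti_sub (inBetti_add (inBetti_sub hX1 (hπTq _ hX2).1) (inBetti_nsmul _ hX3)) (hLX v)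
      have h5 : ι (C₁ w - s.M.η (CuspForm.heckeAlgebra.T hq hqN hqS) (C₂ w) + q • C₃ w - v) =
          π (alphaB' s.N 𝒪 hq hqN (ι' w) - ι v) := by
        rw [map_sub, map_add, map_sub, map_nsmul, hιT, hC₁, hC₂, hC₃]
        unfold alphaB'
        rw [hπsub _ _ (inBetti_add (inBetti_sub hX1 (hπTq _ hX2).1) (inBetti_nsmul _ hX3))
            (hLX v),
          hπ3 _ _ (inBetti_sub hX1 (hπTq _ hX2).1) (inBetti_nsmul _ hX3),
          hπsub _ _ hX1 (hπTq _ hX2).1, (hπTq _ hX2).2, hπnsmul q _ hX3, hπ2 _ (hL v)]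
      rw [h5]
      intro γ
      rw [pow_one]
      exact hπ6 _ hXα hval γ }, fun _ w => hU w⟩

end Fermat.Agent.S59.NonMin.Geom.H48

end
-- ==== END Fermat.Agent.S59.NonMin.Geom.H48_AsmG

-- ==== BEGIN Fermat.Agent.S59.NonMin.Geom.H92_B0Betti
section

set_option autoImplicit false
set_option linter.unusedSectionVars false
set_option linter.style.haveILetI false
set_option linter.unusedVariables false

noncomputable section

open IsLocalRing TensorProduct CongruenceSubgroup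

namespace Fermat.Agent.S59.NonMin.Geom.H92B

open Fermat.Agent.S59.Lim Fermat.Agent.Betti Fermat.Agent.S59.Asm Fermat.Agent.NEB.Geom
  Fermat.Agent.S59.NonMin.Geom Fermat.Agent.S59.NonMin.Geom.H61

/-- **B0-BETTI** from the coordinates. -/
theorem stmt_B0BETTI_of (hC : Stmt_B0COORD) : Stmt_B0BETTI := by
  intro 𝒪 _ _ _ _ _ _ ϖ hϖ p _ hpm N _ S hNS θ Dm
  classical
  have hpp : p.Prime := Fact.out
  obtain ⟨r, b, hb⟩ := stmt_basis N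
  obtain ⟨Mat, -, hT, -⟩ := Fermat.Agent.Betti.H76.stmt_matrixRep N (↑S : Set ℕ) r b hb
  obtain ⟨e, he, hTe⟩ := hC N p (↑S : Set ℕ) hpp r b hb Mat hT
  haveI : Module.Flat ℤ 𝒪 := H2.flat_int
  have hp0 : (p : 𝒪) ≠ 0 := Nat.cast_ne_zero.mpr hpp.ne_zero
  obtain ⟨π', hπ'⟩ : ∃ π' : 𝒪, (p : 𝒪) = π' * ϖ := by
    have := hpm
    rw [hϖ.maximalIdeal_eq, Ideal.mem_span_singleton'] at this
    obtain ⟨a, ha⟩ := this
    exact ⟨a, ha.symm⟩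
  have hG := adjoin_bmG (N := N) (↑S : Set ℕ) hNS
  have hMat : ∀ g ∈ bmG N (↑S : Set ℕ), ∀ k j,
      Dm.ηC g (e k j) = ∑ i, Mat g i j • e k i := by
    rintro g ⟨ℓ, hℓ, hℓN, hℓS, rfl⟩ k j
    rw [Dm.ηC_T ℓ hℓ hℓN hℓS]
    exact hTe ℓ hℓ hℓN hℓS k j
  obtain ⟨J, hJinj, hJrange, hJeta⟩ := exists_J Dm.ηC Mat θ hϖ hπ' hp0 he hG hMat
  refine ⟨(bmPhi 𝒪 b).comp J, (bmPhi_injective hb).comp hJinj, ?_, ?_⟩
  · intro φ
    rw [← bmV_iff (𝒪 := 𝒪) hb hT θ ∅ φ]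
    constructor
    · rintro ⟨x, rfl⟩
      have h1 := (hJrange (J x)).mp ⟨x, rfl⟩
      exact ⟨⟨J x, ⟨fun q hq => absurd hq (Finset.notMem_empty q), h1.2⟩⟩, rfl⟩
    · rintro ⟨⟨v, hv⟩, rfl⟩
      obtain ⟨x, hx⟩ := (hJrange v).mpr ⟨Submodule.mem_top, hv.2⟩
      refine ⟨x, ?_⟩
      show bmPhi 𝒪 b (J x) = _
      rw [hx]
  · intro ℓ hℓ hℓN hℓS v
    have h1 := hJeta (CuspForm.heckeAlgebra.T hℓ hℓN hℓS) v
    have h2 := bm_TB (𝒪 := 𝒪) hT ℓ hℓ hℓN hℓS (J v)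
    exact (congrArg (bmPhi 𝒪 b) h1).trans h2.symm

end Fermat.Agent.S59.NonMin.Geom.H92B

end
end
-- ==== END Fermat.Agent.S59.NonMin.Geom.H92_B0Betti

-- ==== BEGIN Fermat.Agent.S59.NonMin.Geom.H92_Rel2
section

set_option autoImplicit false
set_option linter.style.haveILetI false
set_option linter.unusedSectionVars false

open scoped MatrixGroups
open CongruenceSubgroup Matrix ModularForm

namespace Fermat.Agent.S59.NonMin.Geom.H92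

open Fermat.Agent.S41 Fermat.Agent.S41.H19 Fermat.Agent.S41.H77 Fermat.Agent.S41.H39
open Fermat.Agent.S41.H20 Fermat.Agent.Betti Fermat.Agent.S59.NonMin.Geom
open Fermat.Agent.S59.NonMin.Geom.H72R

section Tower

variable {N q : ℕ} {A : Type*} [AddCommGroup A]

theorem range_kap2 (N q : ℕ) : (kap2 N q).range = (conjG (N * q) q).range := by
  unfold kap2
  rw [MonoidHom.range_comp, range_castG, ← MonoidHom.range_eq_map]

theorem j2_eq' (N q : ℕ) : j2 N q = (inclG N q).comp (kap2 N q) := rfl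

theorem finiteIndex_kap2 [NeZero q] (N : ℕ) : (kap2 N q).range.FiniteIndex := by
  rw [range_kap2]
  exact (isReps_tInv (dvd_mul_left q N)).finiteIndex

theorem kap1_surj (κ : Gamma0 (N * q)) (h : ((N * q ^ 2 : ℕ) : ℤ) ∣ mat κ 1 0) :
    ∃ κ' : Gamma0 (N * q ^ 2), kap1 N q κ' = κ := by
  refine ⟨⟨(κ : SL(2, ℤ)), ?_⟩, rfl⟩
  rw [Gamma0_mem, ZMod.intCast_zmod_eq_zero_iff_dvd]
  exact h

/-- `U_q` of level `N q²` is `κ₁^* ∘ κ₂_*`. -/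
theorem UB_eq_kap [NeZero (N * q ^ 2)] [NeZero q] (hd : q ∣ N * q ^ 2)
    (ψ : Additive (Gamma0 (N * q ^ 2)) →+ A) :
    UB (N * q ^ 2) A hd ψ = resAlong A (kap1 N q) (corAlong A (kap2 N q) ψ) :=
  UB_eq_res_cor (dvd_mul_left q N) hd (kap1 N q) (kap2 N q) (fun _ => rfl) (fun _ => rfl)
    (kap2_injective N q (NeZero.ne q)) (range_kap2 N q) ψ

/-- `κ₂_* ∘ κ₁^*` is `U_q` of level `N q`. -/
theorem kap_eq_UB [NeZero (N * q)] [NeZero q] (hd : q ∣ N * q)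
    (χ : Additive (Gamma0 (N * q)) →+ A) :
    corAlong A (kap2 N q) (resAlong A (kap1 N q) χ) = UB (N * q) A hd χ :=
  cor_res_eq_UB hd (by ring) (kap1 N q) (kap2 N q) (fun _ => rfl) (fun _ => rfl)
    (kap2_injective N q (NeZero.ne q)) (range_kap2 N q) kap1_surj χ

/-- `C₂ = c₂ ∘ κ₁_*`. -/
theorem corC2_eq (hN : 0 < N) (hq : q.Prime) (hqN : ¬ q ∣ N)
    (ψ : Additive (Gamma0 (N * q ^ 2)) →+ A) :
    corC2 N q A ψ = cor2 N q A (corAlong A (kap1 N q) ψ) := by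
  have := finiteIndex_kap1 hN hq.pos
  have := finiteIndex_conjG hN hq hqN
  unfold corC2 cor2
  rw [j2_eq, corAlong_comp (kap1 N q) (conjG N q) (kap1_injective N q)
    (conjG_injective N q hq.ne_zero)]

/-- `C₂ = c₁ ∘ κ₂_*`. -/
theorem corC2_eq' (hN : 0 < N) (hq : q.Prime) (hqN : ¬ q ∣ N)
    (ψ : Additive (Gamma0 (N * q ^ 2)) →+ A) :
    corC2 N q A ψ = cor1 N q A (corAlong A (kap2 N q) ψ) := by
  haveI : NeZero q := ⟨hq.ne_zero⟩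
  have := finiteIndex_kap2 (q := q) N
  have := finiteIndex_inclG hN hq hqN
  unfold corC2 cor1
  rw [j2_eq', corAlong_comp (kap2 N q) (inclG N q) (kap2_injective N q hq.ne_zero)
    (inclG_injective N q)]

/-- `C₃ = c₂ ∘ κ₂_*`. -/
theorem corC3_eq (hN : 0 < N) (hq : q.Prime) (hqN : ¬ q ∣ N)
    (ψ : Additive (Gamma0 (N * q ^ 2)) →+ A) :
    corC3 N q A ψ = cor2 N q A (corAlong A (kap2 N q) ψ) := by
  haveI : NeZero q := ⟨hq.ne_zero⟩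
  have := finiteIndex_kap2 (q := q) N
  have := finiteIndex_conjG hN hq hqN
  unfold corC3 cor2
  rw [j3_eq, corAlong_comp (kap2 N q) (conjG N q) (kap2_injective N q hq.ne_zero)
    (conjG_injective N q hq.ne_zero)]

end Tower

/-! ### REL2 -/

theorem stmt_REL2 : Stmt_REL2 := by
  intro N q _ _ hq hqN hd A _ ψ
  have hN : 0 < N := Nat.pos_of_ne_zero (NeZero.ne N)
  haveI : NeZero q := ⟨hq.ne_zero⟩
  haveI : NeZero (N * q) := ⟨(Nat.mul_pos hN hq.pos).ne'⟩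
  have hd' : q ∣ N * q := dvd_mul_left q N
  refine ⟨?_, ?_, ?_⟩
  · rw [corC1_eq hN hq hqN, UB_eq_kap hd ψ, cor_kap1_res_kap1 hN hq.pos, corC2_eq' hN hq hqN]
    unfold cor1
    rw [corAlong_smul]
  · rw [corC2_eq hN hq hqN, UB_eq_kap hd ψ, cor_kap1_res_kap1 hN hq.pos, corC3_eq hN hq hqN]
    unfold cor2
    rw [corAlong_smul]
  · rw [corC3_eq hN hq hqN, UB_eq_kap hd ψ, kap_eq_UB hd', cor2_UB hN hq hqN hd',
      corC3_eq hN hq hqN, corC2_eq' hN hq hqN]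

end Fermat.Agent.S59.NonMin.Geom.H92

end
-- ==== END Fermat.Agent.S59.NonMin.Geom.H92_Rel2

-- ==== BEGIN Fermat.Agent.S59.NonMin.Geom.Rank.H25_FieldU
section

set_option autoImplicit false

open CuspForm CongruenceSubgroup Module
open scoped MatrixGroups

namespace Fermat.Agent.S59.NonMin.Geom.Rank.H25F

open Fermat.Agent.Betti Fermat.Agent.S59.NonMin.Geom.Rank
open ModularCurve.Period

/-- **FIELD-U**. -/
theorem stmt_FIELDU : Stmt_FIELDU := by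
  intro N _ S Sig F L _ _ _ j χ p hp c
  let _ : Algebra F L := j.toAlgebra
  have hsmul : ∀ (d : F) (x : L), j d * x = d • x := fun d x => (Algebra.smul_def d x).symm
  have hG : AddGroup.FG (Additive (Gamma0 N)) := GroupFG.iff_add_fg.mp (fg_Gamma0 N)
  refine H21.finrank_hom_ext hG (EBU N S Sig F χ hp c) (EBU N S Sig L (j.comp χ) hp (j c))
    (fun φ hφ => ⟨?_, ?_⟩) (fun l ψ hψ => ⟨?_, ?_⟩)
  · exact H21.isEB_comp (algebraMap F L).toAddMonoidHom χ (j.comp χ)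
      (fun t a => map_mul j (χ t) a) hφ.1
  · rw [H21.UB_comp, hφ.2]
    refine AddMonoidHom.ext fun γ => ?_
    show j (c * φ γ) = j c * j (φ γ)
    rw [map_mul]
  · refine H21.isEB_comp l.toAddMonoidHom (j.comp χ) χ (fun t a => ?_) hψ.1
    show l (j (χ t) * a) = χ t * l a
    rw [hsmul, map_smul, smul_eq_mul]
  · rw [H21.UB_comp, hψ.2]
    refine AddMonoidHom.ext fun γ => ?_
    show l (j c * ψ γ) = c * l (ψ γ)
    rw [hsmul, map_smul, smul_eq_mul]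

end Fermat.Agent.S59.NonMin.Geom.Rank.H25F

end
-- ==== END Fermat.Agent.S59.NonMin.Geom.Rank.H25_FieldU

-- ==== BEGIN Fermat.Agent.S59.NonMin.Geom.Rank.H34_ES
section

set_option autoImplicit false
set_option linter.unusedSectionVars false
set_option linter.style.haveILetI false

namespace Fermat.Agent.S59.NonMin.Geom.Rank.H34

open CongruenceSubgroup ModularCurve ModularCurve.Period
open Fermat.Agent.Betti Fermat.Agent.Betti.H76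

section Eigen

variable (N : ℕ) [NeZero N] (S : Set ℕ) (Sig : Finset ℕ)
  (χ : CuspForm.heckeAlgebra N 2 S →+* ℂ)

/-- the period pair, from `EC × EC` to `EB` -/
noncomputable def pairE :
    (↥(EC N S Sig χ) × ↥(EC N S Sig χ)) →ₗ[ℂ] ↥(EB N S Sig ℂ χ) where
  toFun x := ⟨periodHomPair N ((x.1 : CuspForm (Gamma0 N) 2), (x.2 : CuspForm (Gamma0 N) 2)),
    periodHomPair_mem_EB N S Sig χ x.1.2 x.2.2⟩
  map_add' x y := by
    apply Subtype.ext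
    show periodHomPair N (((x + y).1 : CuspForm (Gamma0 N) 2), ((x + y).2 : CuspForm (Gamma0 N) 2))
      = periodHomPair N ((x.1 : CuspForm (Gamma0 N) 2), (x.2 : CuspForm (Gamma0 N) 2)) +
        periodHomPair N ((y.1 : CuspForm (Gamma0 N) 2), (y.2 : CuspForm (Gamma0 N) 2))
    rw [← map_add]
    rfl
  map_smul' a x := by
    apply Subtype.ext
    show periodHomPair N (((a • x).1 : CuspForm (Gamma0 N) 2),
        ((a • x).2 : CuspForm (Gamma0 N) 2))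
      = a • periodHomPair N ((x.1 : CuspForm (Gamma0 N) 2), (x.2 : CuspForm (Gamma0 N) 2))
    rw [← map_smul]
    rfl

theorem pairE_injective : Function.Injective (pairE N S Sig χ) := by
  intro x y h
  have h1 := pair_eq_of N (congrArg Subtype.val h)
  exact Prod.ext (Subtype.ext h1.1) (Subtype.ext h1.2)

theorem pairE_surjective : Function.Surjective (pairE N S Sig χ) := by
  rintro ⟨φ, hφ⟩
  obtain ⟨f, g, hf, hg, rfl⟩ := exists_of_mem_EB N S Sig χ hφ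
  exact ⟨(⟨f, hf⟩, ⟨g, hg⟩), rfl⟩

end Eigen

/-- **ES.** -/
theorem stmt_ES : Stmt_ES := by
  intro N _ S Sig χ _
  haveI := Fermat.Agent.R.H99.finiteDimensional_cuspForm N
  have e := LinearEquiv.ofBijective (pairE N S Sig χ)
    ⟨pairE_injective N S Sig χ, pairE_surjective N S Sig χ⟩
  rw [← e.finrank_eq, Module.finrank_prod, two_mul]

end Fermat.Agent.S59.NonMin.Geom.Rank.H34

end
-- ==== END Fermat.Agent.S59.NonMin.Geom.Rank.H34_ES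

-- ==== BEGIN Fermat.Agent.S59.NonMin.H48_KumP
section

/-!
# S59, case C, leaf KUM-p (helper48): `stmt_KUMp : Stmt_KUMp`

There is ONE element `τ₀` of the peu ramifié inertia at `P` such that for every ordinary
representation `ρ` with cyclotomic determinant over a noetherian local ring of residue
characteristic `p`:
1. `ρ(τ₀)` commutes with `ρ(g)` for `g` in the decomposition group fixing `μ_{p^∞}`;
2. `ρ(τ₀) ≡ 1 mod J` implies `ρ(σ) ≡ 1 mod J` for all `σ` in the peu ramifié inertia.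

Proof: `τ₀` := a uniform generator of the image of the Kummer character of `p` on `Ipeu`
(`exists_kum_generator`); in an ordinary basis `ρ(σ) = [[χ σ, β σ], [0, 1]]` on inertia, `β` is a
cocycle, and modulo `𝔪 ^ N` the cocycle form `kum_core` gives `β σ ≡ m β τ₀` when the Kummer
character of `σ` is the `m`-th power of that of `τ₀`; Krull.
-/

set_option autoImplicit false
set_option linter.style.haveILetI false

namespace Fermat.Agent.S59.NonMin.H48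

open Fermat.Agent.L.Pivot Fermat.Agent.S59.TWGal IsLocalRing
open Fermat.Agent.Lib.InertiaBridge

/-- The Galois group of `ℚ`. -/
local notation "Γℚ" => AlgebraicClosure ℚ ≃ₐ[ℚ] AlgebraicClosure ℚ

variable {p : ℕ} {P : ValuationSubring (AlgebraicClosure ℚ)}

/-! ### The peu ramifié inertia is normalised by the decomposition group -/

theorem conj_mem_inertia_of_dec {g τ : Γℚ} (hg : g ∈ P.decompositionSubgroup ℚ)
    (hτ : τ ∈ P.inertiaSubgroupIn ℚ) : g * τ * g⁻¹ ∈ P.inertiaSubgroupIn ℚ := by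
  rw [mem_inertiaSubgroupIn_iff_forall] at hτ ⊢
  refine ⟨mul_mem (mul_mem hg hτ.1) (inv_mem hg), fun a ha => ?_⟩
  have hginv : g⁻¹ ∈ P.decompositionSubgroup ℚ := inv_mem hg
  have h1 : g⁻¹ a ∈ P := ((mem_decompositionSubgroup_iff_forall P g⁻¹).1 hginv a).2 ha
  have h2 := hτ.2 _ h1
  have h3 : (g * τ * g⁻¹) a - a = g (τ (g⁻¹ a) - g⁻¹ a) := by
    rw [map_sub]
    have e : g (g⁻¹ a) = a := AlgEquiv.apply_symm_apply g a
    rw [e]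
    rfl
  rw [h3, valuation_map_lt_one_iff P g hg]
  exact h2

theorem map_mem_peuUnits {g : Γℚ} (hg : g ∈ P.decompositionSubgroup ℚ)
    {u : AlgebraicClosure ℚ} (hu : u ∈ peuUnits P) : g u ∈ peuUnits P := by
  obtain ⟨h1, h2, h3, h4⟩ := hu
  have hd := (mem_decompositionSubgroup_iff_forall P g).1 hg
  refine ⟨(hd u).2 h1, ?_, (map_ne_zero_iff g g.injective).2 h3, fun s hs => ?_⟩
  · rw [← map_inv₀]
    exact (hd _).2 h2
  · have hs' : g⁻¹ * s * (g⁻¹)⁻¹ ∈ P.inertiaSubgroupIn ℚ :=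
      conj_mem_inertia_of_dec (inv_mem hg) hs
    have h5 := h4 _ hs'
    have h6 : (g⁻¹ * s * (g⁻¹)⁻¹) u = g⁻¹ (s (g u)) := by
      rw [inv_inv]
      rfl
    rw [h6] at h5
    have h7 := congrArg g h5
    have e : g (g⁻¹ (s (g u))) = s (g u) := AlgEquiv.apply_symm_apply g _
    rw [e] at h7
    exact h7

theorem conj_mem_Ipeu {g τ : Γℚ} (hg : g ∈ P.decompositionSubgroup ℚ) (hτ : τ ∈ Ipeu p P) :
    g * τ * g⁻¹ ∈ Ipeu p P := by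
  refine ⟨conj_mem_inertia_of_dec hg hτ.1, fun y n hy => ?_⟩
  have h1 : (g⁻¹ y) ^ p ^ n ∈ peuUnits P := by
    rw [← map_pow]
    exact map_mem_peuUnits (inv_mem hg) hy
  have h2 := hτ.2 _ n h1
  show g (τ (g⁻¹ y)) = y
  rw [h2]
  exact AlgEquiv.apply_symm_apply g y

/-- The Kummer character of `p` is invariant under conjugation by the elements of the
decomposition group which fix the `p`-power roots of unity. -/
theorem kum_conj (hp : p.Prime) {g τ : Γℚ} (hg : FixesPRoots p g) (hτ : τ ∈ Ipeu p P) {n : ℕ}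
    {π₀ : AlgebraicClosure ℚ} (hπ₀ : π₀ ^ p ^ n = (p : AlgebraicClosure ℚ)) :
    (g * τ * g⁻¹) π₀ = (τ π₀ / π₀) * π₀ := by
  have h0 := root_ne_zero hp hπ₀
  -- `g⁻¹ π₀ = ζ' π₀`
  have hζ' : (g⁻¹ π₀ / π₀) ^ p ^ n = 1 := kum_pow hp hπ₀ g⁻¹
  have h1 : g⁻¹ π₀ = (g⁻¹ π₀ / π₀) * π₀ := by field_simp
  have h2 : τ (g⁻¹ π₀ / π₀) = g⁻¹ π₀ / π₀ := Ipeu_fix_root hτ n _ hζ'
  have h3 : τ π₀ = (τ π₀ / π₀) * π₀ := by field_simp
  have h4 : g (τ π₀ / π₀) = τ π₀ / π₀ := hg n _ (kum_pow hp hπ₀ τ)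
  show g (τ (g⁻¹ π₀)) = _
  have h5 : τ (g⁻¹ π₀) = (τ π₀ / π₀) * g⁻¹ π₀ := by
    conv_lhs => rw [h1, map_mul, h2, h3]
    conv_rhs => rw [h1]
    ring
  rw [h5, map_mul, h4]
  congr 1
  exact AlgEquiv.apply_symm_apply g π₀

/-! ### The shape of an ordinary representation on inertia -/

section shape

variable {A : Type} [CommRing A] [IsLocalRing A]

/-- In an ordinary basis the matrices of the inertia group are `[[χ, β], [0, 1]]`. -/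
theorem ord_shape (ρ : GaloisRepAdic A) (bas : Module.Basis (Fin 2) A ρ.V)
    (hD : ∀ σ ∈ P.decompositionSubgroup ℚ, ∀ v ∈ A ∙ bas 0, ρ.ρ σ v ∈ A ∙ bas 0)
    (hI : ∀ σ ∈ P.inertiaSubgroupIn ℚ, ∀ v : ρ.V, ρ.ρ σ v - v ∈ A ∙ bas 0)
    (σ : Γℚ) (hσ : σ ∈ P.inertiaSubgroupIn ℚ) :
    mat bas (ρ.ρ σ) 1 0 = 0 ∧ mat bas (ρ.ρ σ) 1 1 = 1 := by
  have hσD : σ ∈ P.decompositionSubgroup ℚ := ((mem_inertiaSubgroupIn_iff_forall P σ).1 hσ).1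
  have h01 : (0 : Fin 2) ≠ 1 := by decide
  constructor
  · obtain ⟨x, hx⟩ := Submodule.mem_span_singleton.1
      (hD σ hσD (bas 0) (Submodule.mem_span_singleton_self _))
    rw [mat_apply, ← hx, map_smul, Module.Basis.repr_self, Finsupp.smul_apply,
      Finsupp.single_eq_of_ne' h01, smul_zero]
  · obtain ⟨y, hy⟩ := Submodule.mem_span_singleton.1 (hI σ hσ (bas 1))
    have h1 : ρ.ρ σ (bas 1) = bas 1 + y • bas 0 := by
      rw [hy]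
      abel
    rw [mat_apply, h1, map_add, map_smul, Module.Basis.repr_self, Module.Basis.repr_self,
      Finsupp.add_apply, Finsupp.smul_apply, Finsupp.single_eq_same,
      Finsupp.single_eq_of_ne' h01, smul_zero, add_zero]

/-- The determinant of such a matrix. -/
theorem det_of_shape (ρ : GaloisRepAdic A) (bas : Module.Basis (Fin 2) A ρ.V) (σ : Γℚ)
    (h : mat bas (ρ.ρ σ) 1 0 = 0 ∧ mat bas (ρ.ρ σ) 1 1 = 1) :
    LinearMap.det (ρ.ρ σ) = mat bas (ρ.ρ σ) 0 0 := by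
  have h1 : LinearMap.det (ρ.ρ σ) = (mat bas (ρ.ρ σ)).det :=
    (LinearMap.det_toMatrix bas (ρ.ρ σ)).symm
  rw [h1, Matrix.det_fin_two, h.1, h.2, mul_one, mul_zero, sub_zero]

/-- The cocycle relation. -/
theorem shape_mul (ρ : GaloisRepAdic A) (bas : Module.Basis (Fin 2) A ρ.V) (σ τ : Γℚ)
    (hτ : mat bas (ρ.ρ τ) 1 0 = 0 ∧ mat bas (ρ.ρ τ) 1 1 = 1) :
    mat bas (ρ.ρ (σ * τ)) 0 1 =
      mat bas (ρ.ρ σ) 0 1 + mat bas (ρ.ρ σ) 0 0 * mat bas (ρ.ρ τ) 0 1 := by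
  have h1 : mat bas (ρ.ρ (σ * τ)) = mat bas (ρ.ρ σ) * mat bas (ρ.ρ τ) := by
    rw [map_mul, mat, map_mul]
  rw [h1, Matrix.mul_apply, Fin.sum_univ_two, hτ.2, mul_one]
  ring

end shape

/-! ### The determinant on the peu ramifié inertia -/

/-- Krull: an element divisible by all powers of `p ∈ 𝔪` vanishes. -/
theorem eq_zero_of_forall_mem_span_ppow {A : Type} [CommRing A] [IsLocalRing A]
    [IsNoetherianRing A] (p : ℕ) (hpA : (p : A) ∈ maximalIdeal A) (x : A)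
    (h : ∀ n : ℕ, x ∈ Ideal.span {((p ^ n : ℕ) : A)}) : x = 0 := by
  have hmem : x ∈ (⊥ : Ideal A) := by
    refine H59.mem_of_forall_mem_sup_pow ⊥ x fun n => ?_
    obtain ⟨c, hc⟩ := Ideal.mem_span_singleton.1 (h n)
    rw [hc, Nat.cast_pow]
    exact Ideal.mem_sup_right (Ideal.mul_mem_right _ _ (Ideal.pow_mem_pow hpA n))
  exact (Submodule.mem_bot A).1 hmem

theorem det_eq_one_of_mem_Ipeu {A : Type} [CommRing A] [IsLocalRing A] [IsNoetherianRing A]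
    (ρ : GaloisRepAdic A) (hdet : ρ.DetIsCyclotomic p) {σ : Γℚ} (hσ : σ ∈ Ipeu p P) :
    LinearMap.det (ρ.ρ σ) = 1 := by
  rw [← sub_eq_zero]
  refine eq_zero_of_forall_mem_span_ppow p hdet.1 _ fun n => ?_
  have h := hdet.2 n σ 1 (fun μ hμ => by
    rw [pow_one]
    exact Ipeu_fix_root hσ n μ hμ)
  rwa [Nat.cast_one] at h

/-! ### The cocycle modulo `𝔪 ^ N` -/

/-- The off-diagonal coefficient of an ordinary representation on the peu ramifié inertia,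
modulo `𝔪 ^ N`, is proportional to the Kummer character of `p`. -/
theorem ord_coeff_mod (hp : p.Prime) (hP : P.LiesOverPrime p)
    {A : Type} [CommRing A] [IsLocalRing A] [IsNoetherianRing A]
    (ρ : GaloisRepAdic A) (hdet : ρ.DetIsCyclotomic p) (bas : Module.Basis (Fin 2) A ρ.V)
    (hshape : ∀ σ ∈ P.inertiaSubgroupIn ℚ,
      mat bas (ρ.ρ σ) 1 0 = 0 ∧ mat bas (ρ.ρ σ) 1 1 = 1)
    (N : ℕ) (π₀ ξ : AlgebraicClosure ℚ) (hπ₀ : π₀ ^ p ^ N = (p : AlgebraicClosure ℚ))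
    (h₀ : Γℚ) (hh₀ : h₀ ∈ Ipeu p P) (hξ : h₀ π₀ = ξ * π₀)
    (h : Γℚ) (hh : h ∈ Ipeu p P) (m : ℕ) (hm : h π₀ = ξ ^ m * π₀) :
    mat bas (ρ.ρ h) 0 1 - m * mat bas (ρ.ρ h₀) 0 1 ∈ maximalIdeal A ^ N := by
  obtain ⟨F, hFfin, hcont⟩ := ρ.isAdicContinuous N
  haveI := hFfin
  have h01 : (0 : Fin 2) ≠ 1 := by decide
  have hpN : ((p ^ N : ℕ) : A) ∈ maximalIdeal A ^ N := by
    rw [Nat.cast_pow]
    exact Ideal.pow_mem_pow hdet.1 N
  let b : Γℚ → A ⧸ maximalIdeal A ^ N := fun σ =>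
    Ideal.Quotient.mk (maximalIdeal A ^ N) (mat bas (ρ.ρ σ) 0 1)
  have hA : ∀ x : A ⧸ maximalIdeal A ^ N, (p ^ N) • x = 0 := by
    intro x
    rw [nsmul_eq_mul]
    have : ((p ^ N : ℕ) : A ⧸ maximalIdeal A ^ N) = 0 := by
      have e : ((p ^ N : ℕ) : A ⧸ maximalIdeal A ^ N) =
          Ideal.Quotient.mk (maximalIdeal A ^ N) ((p ^ N : ℕ) : A) := by
        rw [map_natCast]
      rw [e]
      exact Ideal.Quotient.eq_zero_iff_mem.2 hpN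
    rw [this, zero_mul]
  have hF : ∀ σ ∈ P.inertiaSubgroupIn ℚ, (∀ x ∈ F, σ x = x) → b σ = 0 := by
    intro σ _ hfix
    have h1 := mat_sub_one_mem bas _ (ρ.ρ σ) (hcont σ hfix) 0 1
    rw [Matrix.sub_apply, Matrix.one_apply_ne h01, sub_zero] at h1
    exact Ideal.Quotient.eq_zero_iff_mem.2 h1
  have hcoc : ∀ σ ∈ P.inertiaSubgroupIn ℚ, ∀ τ ∈ P.inertiaSubgroupIn ℚ, ∀ a : ℕ,
      (∀ μ : AlgebraicClosure ℚ, μ ^ p ^ N = 1 → σ μ = μ ^ a) → b (σ * τ) = b σ + a • b τ := by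
    intro σ hσ τ hτ a ha
    have h1 := hdet.2 N σ a ha
    rw [det_of_shape ρ bas σ (hshape σ hσ)] at h1
    have h2 : mat bas (ρ.ρ σ) 0 0 - (a : A) ∈ maximalIdeal A ^ N := by
      obtain ⟨c, hc⟩ := Ideal.mem_span_singleton.1 h1
      rw [hc]
      exact Ideal.mul_mem_right _ _ hpN
    have h3 : Ideal.Quotient.mk (maximalIdeal A ^ N) (mat bas (ρ.ρ σ) 0 0) =
        ((a : ℕ) : A ⧸ maximalIdeal A ^ N) := by
      rw [← sub_eq_zero, ← map_natCast (Ideal.Quotient.mk (maximalIdeal A ^ N)), ← map_sub]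
      exact Ideal.Quotient.eq_zero_iff_mem.2 h2
    show Ideal.Quotient.mk _ (mat bas (ρ.ρ (σ * τ)) 0 1) = _
    rw [shape_mul ρ bas σ τ (hshape τ hτ), map_add, map_mul, h3, nsmul_eq_mul]
  have key := kum_core p hp P hP (A ⧸ maximalIdeal A ^ N) N hA b F hF hcoc π₀ ξ hπ₀ h₀ hh₀ hξ
    h hh m hm
  have h4 : Ideal.Quotient.mk (maximalIdeal A ^ N)
      (mat bas (ρ.ρ h) 0 1 - m * mat bas (ρ.ρ h₀) 0 1) = 0 := by
    rw [map_sub, map_mul, map_natCast, sub_eq_zero, ← nsmul_eq_mul]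
    exact key
  exact Ideal.Quotient.eq_zero_iff_mem.1 h4

/-! ### KUM-p -/

/-- **`Stmt_KUMp`.** -/
theorem stmt_KUMp : Stmt_KUMp := by
  intro p hp _ P hP
  obtain ⟨τ₀, hτ₀, hgen⟩ := exists_kum_generator hp P
  refine ⟨τ₀, hτ₀, ?_⟩
  intro A _ _ _ hpA ρ hdet hord
  classical
  obtain ⟨L, ⟨bas, hL⟩, hD, hI⟩ := hord P hP
  subst hL
  have h01 : (0 : Fin 2) ≠ 1 := by decide
  have hshape := ord_shape (P := P) ρ bas hD hI
  -- the matrix on `Ipeu`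
  have hone : ∀ σ ∈ Ipeu p P, mat bas (ρ.ρ σ) 0 0 = 1 := by
    intro σ hσ
    rw [← det_of_shape ρ bas σ (hshape σ hσ.1)]
    exact det_eq_one_of_mem_Ipeu ρ hdet hσ
  -- proportionality modulo `𝔪 ^ N`
  have hprop : ∀ σ ∈ Ipeu p P, ∀ N : ℕ, ∃ m : ℕ,
      mat bas (ρ.ρ σ) 0 1 - m * mat bas (ρ.ρ τ₀) 0 1 ∈ maximalIdeal A ^ N := by
    intro σ hσ N
    obtain ⟨π₀, hπ₀⟩ := IsAlgClosed.exists_pow_nat_eq (p : AlgebraicClosure ℚ)
      (pow_pos hp.pos N)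
    have h0 := root_ne_zero hp hπ₀
    obtain ⟨m, hm⟩ := hgen N π₀ hπ₀ σ hσ
    refine ⟨m, ord_coeff_mod hp hP ρ hdet bas hshape N π₀ (τ₀ π₀ / π₀) hπ₀ τ₀ hτ₀ ?_ σ hσ m ?_⟩
    · field_simp
    · rw [← hm]
      field_simp
  refine ⟨fun g hg hgfix => ?_, fun J hJ σ hσ v => ?_⟩
  · -- (1)
    have hτ₁ : g * τ₀ * g⁻¹ ∈ Ipeu p P := conj_mem_Ipeu hg hτ₀
    have hcoef : mat bas (ρ.ρ (g * τ₀ * g⁻¹)) 0 1 = mat bas (ρ.ρ τ₀) 0 1 := by
      rw [← sub_eq_zero]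
      have hmem : mat bas (ρ.ρ (g * τ₀ * g⁻¹)) 0 1 - mat bas (ρ.ρ τ₀) 0 1 ∈ (⊥ : Ideal A) := by
        refine H59.mem_of_forall_mem_sup_pow ⊥ _ fun N => ?_
        obtain ⟨π₀, hπ₀⟩ := IsAlgClosed.exists_pow_nat_eq (p : AlgebraicClosure ℚ)
          (pow_pos hp.pos N)
        have h0 := root_ne_zero hp hπ₀
        have h1 := ord_coeff_mod hp hP ρ hdet bas hshape N π₀ (τ₀ π₀ / π₀) hπ₀ τ₀ hτ₀
          (by field_simp) (g * τ₀ * g⁻¹) hτ₁ 1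
          (by rw [pow_one]; exact kum_conj hp hgfix hτ₀ hπ₀)
        rw [Nat.cast_one, one_mul] at h1
        exact Ideal.mem_sup_right h1
      exact (Submodule.mem_bot A).1 hmem
    have hmat : mat bas (ρ.ρ (g * τ₀ * g⁻¹)) = mat bas (ρ.ρ τ₀) := by
      ext i j
      fin_cases i <;> fin_cases j
      · exact (hone _ hτ₁).trans (hone _ hτ₀).symm
      · exact hcoef
      · exact (hshape _ hτ₁.1).1.trans (hshape _ hτ₀.1).1.symm
      · exact (hshape _ hτ₁.1).2.trans (hshape _ hτ₀.1).2.symm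
    have heq : ρ.ρ (g * τ₀ * g⁻¹) = ρ.ρ τ₀ :=
      (LinearMap.toMatrixAlgEquiv bas).injective hmat
    have e : g * τ₀ = (g * τ₀ * g⁻¹) * g := by group
    rw [← map_mul, e, map_mul, heq]
  · -- (2)
    have hτJ : mat bas (ρ.ρ τ₀) 0 1 ∈ J := by
      have h1 := mat_sub_one_mem bas J (ρ.ρ τ₀) hJ 0 1
      rwa [Matrix.sub_apply, Matrix.one_apply_ne h01, sub_zero] at h1
    have hσJ : mat bas (ρ.ρ σ) 0 1 ∈ J := by
      refine H59.mem_of_forall_mem_sup_pow J _ fun N => ?_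
      obtain ⟨m, hm⟩ := hprop σ hσ N
      have e : mat bas (ρ.ρ σ) 0 1 = m * mat bas (ρ.ρ τ₀) 0 1 +
          (mat bas (ρ.ρ σ) 0 1 - m * mat bas (ρ.ρ τ₀) 0 1) := by ring
      rw [e]
      exact Submodule.add_mem_sup (J.mul_mem_left _ hτJ) hm
    refine H59.sub_mem_smul_top_of_mat bas J (ρ.ρ σ) (fun i j => ?_) v
    rw [Matrix.sub_apply]
    fin_cases i <;> fin_cases j
    · show mat bas (ρ.ρ σ) 0 0 - (1 : Matrix (Fin 2) (Fin 2) A) 0 0 ∈ J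
      rw [hone σ hσ, Matrix.one_apply_eq, sub_self]
      exact J.zero_mem
    · show mat bas (ρ.ρ σ) 0 1 - (1 : Matrix (Fin 2) (Fin 2) A) 0 1 ∈ J
      rw [Matrix.one_apply_ne h01, sub_zero]
      exact hσJ
    · show mat bas (ρ.ρ σ) 1 0 - (1 : Matrix (Fin 2) (Fin 2) A) 1 0 ∈ J
      rw [(hshape σ hσ.1).1, Matrix.one_apply_ne h01.symm, sub_zero]
      exact J.zero_mem
    · show mat bas (ρ.ρ σ) 1 1 - (1 : Matrix (Fin 2) (Fin 2) A) 1 1 ∈ J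
      rw [(hshape σ hσ.1).2, Matrix.one_apply_eq, sub_self]
      exact J.zero_mem

end Fermat.Agent.S59.NonMin.H48

end
-- ==== END Fermat.Agent.S59.NonMin.H48_KumP

-- ==== BEGIN Fermat.Agent.S59.NonMin.H56_KCoreB
section

set_option autoImplicit false

namespace Fermat.Agent.S59.NonMin.H56K

open Fermat.Agent.S59.NonMin

variable {p : ℕ} (P : ValuationSubring (AlgebraicClosure ℚ))

theorem isPeuRad_of_mem_peuUnits {y : AlgebraicClosure ℚ} {n : ℕ}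
    (h : y ^ p ^ n ∈ peuUnits P) : IsPeuRad p P y := by
  obtain ⟨h1, h2, h3, h4⟩ := h
  exact ⟨n, val_eq_one_of_mem P h1 h2 h3, h4⟩

theorem mem_Ipeu_iff {σ : AlgebraicClosure ℚ ≃ₐ[ℚ] AlgebraicClosure ℚ} :
    σ ∈ Ipeu p P ↔ σ ∈ P.inertiaSubgroupIn ℚ ∧ ∀ y, IsPeuRad p P y → σ y = y := by
  constructor
  · rintro ⟨h1, h2⟩
    refine ⟨h1, fun y hy => ?_⟩
    obtain ⟨n, hn1, hn2⟩ := hy
    obtain ⟨a, b, c⟩ := mem_of_val_eq_one P hn1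
    exact h2 y n ⟨a, b, c, hn2⟩
  · rintro ⟨h1, h2⟩
    exact ⟨h1, fun y n hy => h2 y (isPeuRad_of_mem_peuUnits P hy)⟩

theorem mem_peuSubgroup_iff {σ : AlgebraicClosure ℚ ≃ₐ[ℚ] AlgebraicClosure ℚ} :
    σ ∈ Fermat.Agent.S59.CaseC.peuSubgroup p P ↔ σ ∈ Ipeu p P := by
  constructor
  · rintro ⟨h1, h2⟩
    exact ⟨h1, fun y n hy => h2 y n hy.1 hy.2.1 hy.2.2.2⟩
  · rintro ⟨h1, h2⟩
    refine ⟨h1, fun w n a b c => ?_⟩
    by_cases hw : w ^ p ^ n = 0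
    · -- then `w = 0`
      have hw0 : w = 0 := by
        by_contra hw0
        exact pow_ne_zero _ hw0 hw
      rw [hw0, map_zero]
    · exact h2 w n ⟨a, b, hw, c⟩

/-- **K-CORE** (`H92P.Stmt_KCore`). -/
theorem stmt_KCore : Fermat.Agent.S59.NonMin.H92P.Stmt_KCore := by
  intro p hp hp2 P hP y n hy0 hyN hy
  obtain ⟨b, hb0, hbfix, hval⟩ := kcore P hp hp2 hP y n hy0 hyN
    (fun σ hσ hσrad => hy σ ((mem_Ipeu_iff P).2 ⟨hσ, hσrad⟩))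
  obtain ⟨h1, h2, -⟩ := mem_of_val_eq_one P hval
  refine ⟨b, hb0, hbfix, h1, ?_⟩
  rwa [inv_div] at h2

/-- **K-CORE** for `CaseC.peuSubgroup`. -/
theorem stmt_KCore_peu (p : ℕ) (hp : p.Prime) (hp2 : p ≠ 2)
    (P : ValuationSubring (AlgebraicClosure ℚ)) (hP : P.LiesOverPrime p)
    (y : AlgebraicClosure ℚ) (n : ℕ) (hy0 : y ≠ 0)
    (hyN : ∀ s ∈ P.inertiaSubgroupIn ℚ, s (y ^ p ^ n) = y ^ p ^ n)
    (hy : ∀ σ ∈ Fermat.Agent.S59.CaseC.peuSubgroup p P, σ y = y) :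
    ∃ b : AlgebraicClosure ℚ, b ≠ 0 ∧ (∀ s ∈ P.inertiaSubgroupIn ℚ, s b = b) ∧
      y / b ∈ P ∧ b / y ∈ P :=
  stmt_KCore p hp hp2 P hP y n hy0 hyN (fun σ hσ => hy σ ((mem_peuSubgroup_iff P).2 hσ))

/-- **H0-GEN**, uniform form: one element of the peu ramifié inertia acts on every `p ^ n`-th
root of `p` through a primitive `p ^ n`-th root of unity. -/
theorem exists_h0 (p : ℕ) (hp : p.Prime) (hp2 : p ≠ 2)
    (P : ValuationSubring (AlgebraicClosure ℚ)) (hP : P.LiesOverPrime p) :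
    ∃ h₀ ∈ Ipeu p P, ∀ (n : ℕ) (π₀ : AlgebraicClosure ℚ),
      π₀ ^ p ^ n = (p : AlgebraicClosure ℚ) → IsPrimitiveRoot (h₀ π₀ / π₀) (p ^ n) := by
  obtain ⟨π, hπ⟩ := IsAlgClosed.exists_pow_nat_eq (p : AlgebraicClosure ℚ) hp.pos
  obtain ⟨σ, hσI, hσ, hσπ⟩ := key P hp hp2 hP π hπ
  exact ⟨σ, (mem_Ipeu_iff P).2 ⟨hσI, hσ⟩, fun n π₀ hπ₀ => key_primitive P hp hσ hπ hσπ n π₀ hπ₀⟩

/-- **H0-GEN** for `NonMin.Ipeu`. -/
theorem stmt_H0GEN (p : ℕ) (hp : p.Prime) (hp2 : p ≠ 2)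
    (P : ValuationSubring (AlgebraicClosure ℚ)) (hP : P.LiesOverPrime p) (n : ℕ) :
    ∃ h₀ ∈ Ipeu p P, ∃ π₀ ζ : AlgebraicClosure ℚ, π₀ ^ p ^ n = (p : AlgebraicClosure ℚ) ∧
      IsPrimitiveRoot ζ (p ^ n) ∧ h₀ π₀ = ζ * π₀ := by
  obtain ⟨h₀, hh₀, h⟩ := exists_h0 p hp hp2 P hP
  obtain ⟨π₀, hπ₀⟩ := IsAlgClosed.exists_pow_nat_eq (p : AlgebraicClosure ℚ) (pow_pos hp.pos n)
  have hπ₀0 : π₀ ≠ 0 := by
    rintro rfl
    rw [zero_pow (pow_ne_zero n hp.ne_zero)] at hπ₀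
    exact (by exact_mod_cast hp.ne_zero : (p : AlgebraicClosure ℚ) ≠ 0) hπ₀.symm
  exact ⟨h₀, hh₀, π₀, h₀ π₀ / π₀, hπ₀, h n π₀ hπ₀, (div_mul_cancel₀ _ hπ₀0).symm⟩

/-- **H0-GEN** for `CaseC.peuSubgroup`. -/
theorem stmt_H0GEN_peu (p : ℕ) (hp : p.Prime) (hp2 : p ≠ 2)
    (P : ValuationSubring (AlgebraicClosure ℚ)) (hP : P.LiesOverPrime p) (n : ℕ) :
    ∃ h₀ ∈ Fermat.Agent.S59.CaseC.peuSubgroup p P, ∃ π₀ ζ : AlgebraicClosure ℚ,
      π₀ ^ p ^ n = (p : AlgebraicClosure ℚ) ∧ IsPrimitiveRoot ζ (p ^ n) ∧ h₀ π₀ = ζ * π₀ := by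
  obtain ⟨h₀, hh₀, h⟩ := stmt_H0GEN p hp hp2 P hP n
  exact ⟨h₀, (mem_peuSubgroup_iff P).2 hh₀, h⟩

/-- **H0-GEN**, uniform, for `CaseC.peuSubgroup`. -/
theorem exists_h0_peu (p : ℕ) (hp : p.Prime) (hp2 : p ≠ 2)
    (P : ValuationSubring (AlgebraicClosure ℚ)) (hP : P.LiesOverPrime p) :
    ∃ h₀ ∈ Fermat.Agent.S59.CaseC.peuSubgroup p P, ∀ (n : ℕ) (π₀ : AlgebraicClosure ℚ),
      π₀ ^ p ^ n = (p : AlgebraicClosure ℚ) → IsPrimitiveRoot (h₀ π₀ / π₀) (p ^ n) := by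
  obtain ⟨h₀, hh₀, h⟩ := exists_h0 p hp hp2 P hP
  exact ⟨h₀, (mem_peuSubgroup_iff P).2 hh₀, h⟩

end Fermat.Agent.S59.NonMin.H56K

end
-- ==== END Fermat.Agent.S59.NonMin.H56_KCoreB

-- ==== BEGIN Fermat.Agent.S59.NumCrit.H90_Growth2
section

/-!
# S59 NUMCRIT / RT-NONMIN, leaf GROWTH, second form

`card_omega_growth_tors`: as `card_omega_growth`, but the relation `α' ∘ α = e` (`e : 𝒪`) is
required on `M[𝔭]` only (needed for the step at `p`, where `α' ∘ α = u (A² - 1)` and `A` is a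
scalar on the eigenspace only).
-/

set_option autoImplicit false
set_option linter.style.haveILetI false

open Module

namespace Fermat.Agent.S59.NumCrit.H90

/-- **GROWTH**, with the relation `α' ∘ α = e` required on `M[𝔭]` only: the congruence module
grows by `e^d`, `d = rank M[𝔭]`. -/
theorem card_omega_growth_tors {𝒪 : Type*} [CommRing 𝒪] [IsDomain 𝒪] [IsDiscreteValuationRing 𝒪]
    [Finite (IsLocalRing.ResidueField 𝒪)]
    {T T' : Type*} [CommRing T] [Algebra 𝒪 T] [CommRing T'] [Algebra 𝒪 T']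
    (θ : T' →ₐ[𝒪] T) (π : T →ₐ[𝒪] 𝒪)
    {M M' : Type*} [AddCommGroup M] [Module T M] [Module 𝒪 M] [IsScalarTower 𝒪 T M]
    [Module.Finite 𝒪 M] [Module.Free 𝒪 M]
    [AddCommGroup M'] [Module T' M'] [Module 𝒪 M'] [IsScalarTower 𝒪 T' M']
    [Module.Finite 𝒪 M'] [Module.Free 𝒪 M']
    (hη : eta π ≠ ⊥) (hη' : eta (π.comp θ) ≠ ⊥)
    (α : M →ₗ[𝒪] M') (hα : ∀ (t : T') (m : M), α (θ t • m) = t • α m)
    (α' : M' →ₗ[𝒪] M) (hα' : ∀ (t : T') (m : M'), α' (t • m) = θ t • α' m)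
    (hinj : Function.Injective α)
    (hsat : ∀ (a : 𝒪) (m : M'), a ≠ 0 → a • m ∈ LinearMap.range α → m ∈ LinearMap.range α)
    (hsurj : Function.Surjective α')
    (e : 𝒪) (hc : ∀ m ∈ Submodule.torsionBySet T M (RingHom.ker π : Set T), α' (α m) = e • m)
    (hrank : Module.finrank 𝒪
        ((Submodule.torsionBySet T' M' (RingHom.ker (π.comp θ) : Set T')).restrictScalars 𝒪)
      ≤ Module.finrank 𝒪
        ((Submodule.torsionBySet T M (RingHom.ker π : Set T)).restrictScalars 𝒪)) :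
    Nat.card (M ⧸ omegaSub π M) * Nat.card (𝒪 ⧸ Ideal.span {e}) ^ Module.finrank 𝒪
        ((Submodule.torsionBySet T M (RingHom.ker π : Set T)).restrictScalars 𝒪)
      ≤ Nat.card (M' ⧸ omegaSub (π.comp θ) M') := by
  classical
  set L : Submodule T M := Submodule.torsionBySet T M (RingHom.ker π : Set T) with hL
  set K : Submodule T M := Submodule.torsionBySet T M ((RingHom.ker π).annihilator : Set T)
    with hK
  set L' : Submodule T' M' := Submodule.torsionBySet T' M' (RingHom.ker (π.comp θ) : Set T')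
    with hL'
  set K' : Submodule T' M' :=
    Submodule.torsionBySet T' M' ((RingHom.ker (π.comp θ)).annihilator : Set T') with hK'
  set L𝒪 : Submodule 𝒪 M := L.restrictScalars 𝒪 with hL𝒪
  set K𝒪 : Submodule 𝒪 M := K.restrictScalars 𝒪 with hK𝒪
  -- the submodules `A = e L + K ≤ B = L + K` of `M` and `B' = L' + K'` of `M'`
  set A : Submodule 𝒪 M := L𝒪.map (LinearMap.lsmul 𝒪 M e) ⊔ K𝒪 with hA
  set B : Submodule 𝒪 M := (L ⊔ K).restrictScalars 𝒪 with hB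
  set B' : Submodule 𝒪 M' := (L' ⊔ K').restrictScalars 𝒪 with hB'
  have hLB : ∀ {x : M}, x ∈ L → x ∈ B := fun hx =>
    (Submodule.restrictScalars_mem 𝒪 (L ⊔ K) _).mpr (Submodule.mem_sup_left hx)
  have hKB : ∀ {x : M}, x ∈ K → x ∈ B := fun hx =>
    (Submodule.restrictScalars_mem 𝒪 (L ⊔ K) _).mpr (Submodule.mem_sup_right hx)
  have hKA : ∀ {x : M}, x ∈ K → x ∈ A := fun hx => Submodule.mem_sup_right hx
  have hcLA : ∀ {x : M}, x ∈ L → e • x ∈ A := fun {x} hx =>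
    Submodule.mem_sup_left ⟨x, hx, rfl⟩
  have hAB : A ≤ B := by
    refine sup_le ?_ ?_
    · rintro _ ⟨l, hl, rfl⟩
      exact hLB (L𝒪.smul_mem e hl)
    · intro x hx
      exact hKB hx
  -- `α'` maps `B'` into `A`
  have hα'B' : B' ≤ A.comap α' := by
    intro m hm
    obtain ⟨l', hl', k', hk', rfl⟩ := Submodule.mem_sup.mp
      ((Submodule.restrictScalars_mem 𝒪 (L' ⊔ K') _).mp hm)
    rw [Submodule.mem_comap, map_add]
    refine A.add_mem ?_ ?_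
    · obtain ⟨l, hl, rfl⟩ := exists_map_eq_of_mem_torsionBySet_ker hα hinj hsat hrank hl'
      rw [hc l hl]
      exact hcLA hl
    · exact hKA (map_mem_torsionBySet_ann hη' hα' hk')
  -- the induced surjection `Ω(M') → M / A`
  let g : (M' ⧸ B') →ₗ[𝒪] (M ⧸ A) := Submodule.mapQ B' A α' hα'B'
  have hg : Function.Surjective g := by
    intro x
    obtain ⟨m, rfl⟩ := A.mkQ_surjective x
    obtain ⟨m', rfl⟩ := hsurj m
    exact ⟨B'.mkQ m', rfl⟩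
  obtain ⟨hfin, -⟩ := H12.card_omega_le (π.comp θ) (M := M') hη'
  haveI : Finite (M' ⧸ B') :=
    Finite.of_equiv _ (Submodule.Quotient.restrictScalarsEquiv 𝒪 (L' ⊔ K')).symm.toEquiv
  have h1 : Nat.card (M ⧸ A) ≤ Nat.card (M' ⧸ B') := Nat.card_le_card_of_surjective g hg
  -- the surjection `M / A → M / B` and its kernel
  let f : (M ⧸ A) →ₗ[𝒪] (M ⧸ B) := Submodule.factor hAB
  have hf : Function.Surjective f := Submodule.factor_surjective hAB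
  have h2 := card_eq_card_mul_card_ker f hf
  let u : L𝒪 →ₗ[𝒪] (M ⧸ A) := A.mkQ.comp L𝒪.subtype
  have hku : LinearMap.ker u = H12.smulTop e L𝒪 := by
    ext x
    rw [LinearMap.mem_ker, H12.mem_smulTop]
    show A.mkQ (x : M) = 0 ↔ _
    rw [Submodule.mkQ_apply, Submodule.Quotient.mk_eq_zero]
    constructor
    · intro hx
      obtain ⟨y, ⟨l₁, hl₁, rfl⟩, k, hk, hyk⟩ := Submodule.mem_sup.mp hx
      have hk0 : k = 0 := by
        refine torsionBySet_ker_inf_ann hη ?_ hk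
        have : k = (x : M) - e • l₁ := by
          rw [← hyk]
          show k = (e • l₁ + k) - e • l₁
          abel
        rw [this]
        exact L𝒪.sub_mem x.2 (L𝒪.smul_mem e hl₁)
      refine ⟨⟨l₁, hl₁⟩, Subtype.ext ?_⟩
      rw [← hyk, hk0, add_zero]
      rfl
    · rintro ⟨y, rfl⟩
      exact hcLA y.2
  have hru : LinearMap.range u = LinearMap.ker f := by
    ext x
    rw [LinearMap.mem_range, LinearMap.mem_ker]
    constructor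
    · rintro ⟨l, rfl⟩
      show Submodule.factor hAB (A.mkQ (l : M)) = 0
      rw [Submodule.factor_mk, Submodule.mkQ_apply, Submodule.Quotient.mk_eq_zero]
      exact hLB l.2
    · intro hx
      obtain ⟨m, rfl⟩ := A.mkQ_surjective x
      have hm : m ∈ B := by
        have : Submodule.factor hAB (A.mkQ m) = 0 := hx
        rwa [Submodule.factor_mk, Submodule.mkQ_apply, Submodule.Quotient.mk_eq_zero] at this
      obtain ⟨l, hl, k, hk, rfl⟩ := Submodule.mem_sup.mp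
        ((Submodule.restrictScalars_mem 𝒪 (L ⊔ K) _).mp hm)
      refine ⟨⟨l, hl⟩, ?_⟩
      show A.mkQ l = A.mkQ (l + k)
      have hk0 : A.mkQ k = 0 := by
        rw [Submodule.mkQ_apply, Submodule.Quotient.mk_eq_zero]
        exact hKA hk
      rw [map_add, hk0, add_zero]
  have h3 : Nat.card (LinearMap.ker f)
      = Nat.card (𝒪 ⧸ Ideal.span {e}) ^ Module.finrank 𝒪 L𝒪 := by
    rw [← hru, card_range_eq_card_quotient_ker, hku, H12.card_quotient_smulTop]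
  -- conclusion
  have h4 : Nat.card (M ⧸ omegaSub π M) = Nat.card (M ⧸ B) :=
    Nat.card_congr (Submodule.Quotient.restrictScalarsEquiv 𝒪 (L ⊔ K)).symm.toEquiv
  have h5 : Nat.card (M' ⧸ omegaSub (π.comp θ) M') = Nat.card (M' ⧸ B') :=
    Nat.card_congr (Submodule.Quotient.restrictScalarsEquiv 𝒪 (L' ⊔ K')).symm.toEquiv
  rw [h4, h5, ← h3, ← h2]
  exact h1

end Fermat.Agent.S59.NumCrit.H90

end
-- ==== END Fermat.Agent.S59.NumCrit.H90_Growth2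

-- ==== BEGIN Fermat.Agent.S59.NumCrit.H90_NC2
section

/-!
# S59 NUMCRIT: NC2 (Tate), final forms

* `nc2`: `A = 𝒪⟦X_1..X_n⟧/(g_1..g_n)` finite free over the discrete valuation ring `𝒪` (finite
  residue field), presentation `ψ` with `π (ψ X_i) = 0`: `#Φ_A = #(𝒪/η_A)`.
* `nc2_complete`: the same for an arbitrary presentation `γ` when `𝒪` is complete.
-/

set_option autoImplicit false

namespace Fermat.Agent.S59.NumCrit.H90

open MvPowerSeries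

variable {𝒪 : Type*} [CommRing 𝒪] [IsDomain 𝒪] [IsDiscreteValuationRing 𝒪]
  [Finite (IsLocalRing.ResidueField 𝒪)]
  {A : Type*} [CommRing A] [Algebra 𝒪 A] [Module.Finite 𝒪 A] [Module.Free 𝒪 A] {n : ℕ}

/-- **NC2 (Tate)**. -/
theorem nc2 (ψ : MvPowerSeries (Fin n) 𝒪 →ₐ[𝒪] A) (hψ : Function.Surjective ψ) (π : A →ₐ[𝒪] 𝒪)
    (hπ : ∀ i, π (ψ (X i)) = 0)
    (g : Fin n → MvPowerSeries (Fin n) 𝒪) (hg : RingHom.ker ψ = Ideal.span (Set.range g)) :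
    Nat.card (RingHom.ker π).Cotangent = Nat.card (𝒪 ⧸ eta π) :=
  H85.nc2_of_card (fun B hB => H12.card_quotient_span_rows n B hB) ψ hψ π hπ g hg

/-- **NC2 (Tate)** for an arbitrary presentation, `𝒪` complete. -/
theorem nc2_complete [IsAdicComplete (IsLocalRing.maximalIdeal 𝒪) 𝒪]
    (γ : MvPowerSeries (Fin n) 𝒪 →ₐ[𝒪] A) (hγ : Function.Surjective γ) (π : A →ₐ[𝒪] 𝒪)
    (g : Fin n → MvPowerSeries (Fin n) 𝒪) (hg : RingHom.ker γ = Ideal.span (Set.range g)) :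
    Nat.card (RingHom.ker π).Cotangent = Nat.card (𝒪 ⧸ eta π) := by
  obtain ⟨τ, hτ⟩ := exists_normalized γ π
  exact nc2 (γ.comp (τ : MvPowerSeries (Fin n) 𝒪 →ₐ[𝒪] MvPowerSeries (Fin n) 𝒪))
    (hγ.comp τ.surjective) π hτ (fun i => τ.symm (g i)) (ker_comp_algEquiv γ τ g hg)

end Fermat.Agent.S59.NumCrit.H90

end
-- ==== END Fermat.Agent.S59.NumCrit.H90_NC2

-- ==== BEGIN Fermat.Agent.S59.TRes.Defs4
section

/-!
# S59, leaf TRES (helper49): three small leaves of the assembly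

* `Stmt_CYC`    : the kernel of the mod `p` cyclotomic character of `Gal(K̄/ℚ_p)` is a normal
  subgroup containing all `(p-1)`-th powers (`S56.FL.H85.omg`, `omg_spec'`).
* `Stmt_DISC`   : on the S05 model with `|b| < 1`: `|Δ| = |b|²`
  (`Δ = 16 b² (a² - 4b)`, `|2| = 1`, `|a² - 4b| = 1`).
* `Stmt_E1STAB` : a shifted valuation preserving map (`S52.H5.ShiftedVal`) preserves the kernel
  of reduction `E₁` (`|x| > 1`), when `|b| < 1`.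

No `sorry`; definitions only.
-/

set_option autoImplicit false

open WeierstrassCurve WeierstrassCurve.Affine

namespace Fermat.Agent.S59.TRes

open Fermat.Agent.S56.FL Fermat.Agent.S52.H5
open Fermat.Agent.S05 (ModelHyp InE1)

/-- **CYC**: the kernel of the mod `p` cyclotomic character. -/
def Stmt_CYC : Prop :=
  ∀ (p : ℕ) [Fact p.Prime], ∃ Nc : Subgroup (Gp p), Nc.Normal ∧ (∀ g : Gp p, g ^ (p - 1) ∈ Nc) ∧
    ∀ n ∈ Nc, ∀ ζ : PadicAlgCl p, ζ ^ p = 1 → n ζ = ζ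

/-- **DISC**: `|Δ| = |b|²` on the model. -/
def Stmt_DISC : Prop :=
  ∀ (L : Type) [Field L] (A : ValuationSubring L) (W : Affine L),
    ModelHyp A W → A.valuation W.a₄ < 1 → A.valuation W.Δ = A.valuation W.a₄ ^ 2

/-- **E1STAB**: shifted valuation preserving maps preserve `E₁`. -/
def Stmt_E1STAB : Prop :=
  ∀ (L : Type) [Field L] [DecidableEq L] (A : ValuationSubring L) (W : Affine L),
    ModelHyp A W → A.valuation W.a₄ < 1 →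
  ∀ (σ : L →+* L) (s : W.Point →+ W.Point), ShiftedVal A W σ s →
    ∀ Q : W.Point, InE1 A Q → InE1 A (s Q)

end Fermat.Agent.S59.TRes

end
-- ==== END Fermat.Agent.S59.TRes.Defs4

-- ==== BEGIN Fermat.Agent.S59.TRes.H26_X0
section

set_option autoImplicit false

open WeierstrassCurve WeierstrassCurve.Affine

namespace Fermat.Agent.S59.TRes.H26

open Fermat.Agent.S52.H5

section

variable {L : Type} [Field L] {A : ValuationSubring L}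

/-- `|trB2| = 1` at a root at the node. -/
lemma val_trB2_eq_one {E : Affine L} (hc₄ : A.valuation E.c₄ = 1) {e : L}
    (hb : A.valuation (trB4 E e) < 1) : A.valuation (trB2 E e) = 1 := by
  have h := congrArg A.valuation (c₄_eq_tr E e)
  rw [hc₄] at h
  have hsm : A.valuation (24 * trB4 E e) < 1 := by
    rw [map_mul]
    calc A.valuation (24 : L) * A.valuation (trB4 E e) ≤ 1 * A.valuation (trB4 E e) := by
          gcongr; exact val_ofNat_le 24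
      _ = A.valuation (trB4 E e) := one_mul _
      _ < 1 := hb
  have e1 : trB2 E e ^ 2 = (trB2 E e ^ 2 - 24 * trB4 E e) + 24 * trB4 E e := by ring
  have : A.valuation (trB2 E e ^ 2) = 1 := by
    rw [e1, Valuation.map_add_eq_of_lt_left _ (by rw [← h]; exact hsm), ← h]
  rw [map_pow] at this
  exact val_eq_one_of_sq_eq_one this

/-- The small root of `4X² + trB2·X + 2·trB4` is unique. -/
lemma small_root_unique {E : Affine L} (h2 : A.valuation (2 : L) = 1)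
    (hc₄ : A.valuation E.c₄ = 1) {e : L} (hb : A.valuation (trB4 E e) < 1) {x y : L}
    (hx : 4 * x ^ 2 + trB2 E e * x + 2 * trB4 E e = 0)
    (hy : 4 * y ^ 2 + trB2 E e * y + 2 * trB4 E e = 0)
    (hxv : A.valuation x < 1) (hyv : A.valuation y < 1) : x = y := by
  have h4 := val_four_of_two h2
  have hB2 := val_trB2_eq_one hc₄ hb
  have hprod : (x - y) * (4 * (x + y) + trB2 E e) = 0 := by
    linear_combination hx - hy
  rcases mul_eq_zero.1 hprod with h | h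
  · exact sub_eq_zero.1 h
  · exfalso
    have hsm : A.valuation (4 * (x + y)) < 1 := by
      rw [map_mul, h4, one_mul]
      exact Valuation.map_add_lt _ hxv hyv
    have h1 : A.valuation (4 * (x + y) + trB2 E e) = 1 := by
      rw [Valuation.map_add_eq_of_lt_right _ (by rw [hB2]; exact hsm), hB2]
    rw [h, map_zero] at h1
    exact zero_ne_one h1

/-- A valuation preserving `σ` fixing the coefficients moves `e` by `0` or by a small root of the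
quadratic. -/
lemma shift_root_cases {E : Affine L} (h2 : A.valuation (2 : L) = 1)
    (hc₄ : A.valuation E.c₄ = 1) {e : L} (he : psi2sq E e = 0)
    (hb : A.valuation (trB4 E e) < 1) (σ : L →+* L)
    (hσv : ∀ x, A.valuation (σ x) = A.valuation x)
    (h₁ : σ E.a₁ = E.a₁) (h₂ : σ E.a₂ = E.a₂) (h₃ : σ E.a₃ = E.a₃) (h₄ : σ E.a₄ = E.a₄)
    (h₆ : σ E.a₆ = E.a₆) :
    σ e = e ∨ (4 * (σ e - e) ^ 2 + trB2 E e * (σ e - e) + 2 * trB4 E e = 0 ∧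
      A.valuation (σ e - e) < 1) := by
  have hv := val_shift_root_odd_of_val h2 hc₄ he hb σ hσv h₁ h₂ h₃ h₄ h₆
  have hσe : e + (σ e - e) = σ e := by ring
  have hroot : psi2sq E (e + (σ e - e)) = 0 := by
    rw [hσe, psi2sq_map E σ h₁ h₂ h₃ h₄ h₆, he, map_zero]
  rw [psi2sq_add, he, zero_add] at hroot
  rcases mul_eq_zero.1 hroot with h0 | h0
  · exact Or.inl (sub_eq_zero.1 h0)
  · exact Or.inr ⟨h0, lt_of_le_of_lt hv hb⟩

end

/-- **X0**. -/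
theorem stmt_X0 : Stmt_X0 := by
  intro L _ A E h2 hc₄ e he hb S hcomp hS
  by_cases hall : ∀ σ ∈ S, σ e = e
  · exact ⟨e, hall, by rw [sub_self, map_zero]; exact zero_le⟩
  · have hex : ∃ σ₀ ∈ S, σ₀ e ≠ e := by
      by_contra hcon
      exact hall fun σ hσ => by
        by_contra h
        exact hcon ⟨σ, hσ, h⟩
    obtain ⟨σ₀, hσ₀, hne⟩ := hex
    set δ := σ₀ e - e with hδ
    have hδ0 : δ ≠ 0 := sub_ne_zero.2 hne
    obtain ⟨hv₀, h₁, h₂, h₃, h₄, h₆⟩ := hS σ₀ hσ₀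
    have hδroot : 4 * δ ^ 2 + trB2 E e * δ + 2 * trB4 E e = 0 ∧ A.valuation δ < 1 := by
      rcases shift_root_cases h2 hc₄ he hb σ₀ hv₀ h₁ h₂ h₃ h₄ h₆ with h | h
      · exact absurd h hne
      · exact h
    have hδv : A.valuation δ ≤ A.valuation (trB4 E e) :=
      val_shift_root_odd_of_val h2 hc₄ he hb σ₀ hv₀ h₁ h₂ h₃ h₄ h₆
    -- every `σ ∈ S` moves `e` by `0` or `δ`
    have hcases : ∀ σ ∈ S, σ e = e ∨ σ e = e + δ := by
      intro σ hσ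
      obtain ⟨hv, g₁, g₂, g₃, g₄, g₆⟩ := hS σ hσ
      rcases shift_root_cases h2 hc₄ he hb σ hv g₁ g₂ g₃ g₄ g₆ with h | h
      · exact Or.inl h
      · right
        have := small_root_unique h2 hc₄ hb h.1 hδroot.1 h.2 hδroot.2
        rw [← this]; ring
    have h20 : (2 : L) ≠ 0 := by
      intro h
      rw [h, map_zero] at h2
      exact zero_ne_one h2
    refine ⟨e + δ / 2, ?_, ?_⟩
    · intro σ hσ
      have hσσ₀ := hcases (σ.comp σ₀) (hcomp σ hσ σ₀ hσ₀)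
      have hσe := hcases σ hσ
      have hinj : σ (σ₀ e) ≠ σ e := fun h => hne (σ.injective h)
      have hσ₀e : σ₀ e = e + δ := by rw [hδ]; ring
      have hσδ : σ δ = σ (σ₀ e) - σ e := by rw [hδ, map_sub]
      rw [RingHom.comp_apply] at hσσ₀
      rw [map_add, map_div₀, map_ofNat, hσδ]
      rcases hσe with h | h <;> rcases hσσ₀ with h' | h'
      · exact absurd (h'.trans h.symm) hinj
      · rw [h, h']; ring
      · rw [h, h']; field_simp; ring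
      · exact absurd (h'.trans h.symm) hinj
    · have : e + δ / 2 - e = δ / 2 := by ring
      rw [this, map_div₀, h2, div_one]
      exact hδv

end Fermat.Agent.S59.TRes.H26

end
-- ==== END Fermat.Agent.S59.TRes.H26_X0
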