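-- GENERATED (merged mirror, NOTES/tools/trim/merge3_helper67.py): 9 modules of the originals, bodies verbatim.
import Mathlib
import Fermat.Agent.Zm.S59_L04_003
import Fermat.Agent.Zm.S59_L01_002
import Fermat.Agent.Zm.S43_L15_001
import Fermat.Agent.Zm.S44_L05_001
import Fermat.Agent.Zm.S43_L09_001
import Fermat.Agent.Zm.S35_L02_001
import Fermat.Agent.Zm.S33_L01_002
import Fermat.Agent.Zm.S56_L07_005
import Fermat.Agent.Zm.S59_L04_004
import Fermat.Agent.Zm.S59_L02_003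
import Fermat.Agent.Zm.S59_L02_004
import Fermat.Agent.Zm.S59_L03_002
import Fermat.Agent.Zm.S59_L03_003
import Fermat.Agent.Zm.S36_L09_000
import Fermat.Agent.Zm.S58_L01_000
import Fermat.Agent.Zm.S44_L02_001
import Fermat.Agent.Zm.S33_L01_000
import Fermat.Agent.S05.H37_Inertia

-- ==== BEGIN Fermat.Agent.S27.RR.H52_Canon
section

/-!
# S27, package RR-DUAL (helper52), part 5: divisors of degree `0` and the canonical class

* `principal_of_mem_L` : `deg D = 0`, `0 ≠ x ∈ L(D)` implies `D = - div x`;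
* `finrank_L_deg_zero` : `deg D = 0` implies `l(D) = 1` if `D` is principal, `l(D) = 0` otherwise;
* `finrank_L_principal_add` : `l(D + div f) = l(D)`;
* `canonical_class` : for `deg C = 2g - 2`: `l(C) = g` if `W - C` is principal, `l(C) = g - 1`
  otherwise (`W` canonical);
* `canonical_unique` : `deg W' = 2g - 2`, `l(W') ≥ g` implies `W - W'` principal;
* `isCanonical_of_principal_sub` : a divisor linearly equivalent to a canonical one is canonical.
-/

set_option autoImplicit false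
set_option linter.style.haveILetI false
set_option linter.unusedSectionVars false

noncomputable section

open AlgebraicCurve

attribute [local instance] Classical.propDecidable

namespace Fermat.Agent.S27.RR.H52

open Fermat.Agent.RED Fermat.Agent.RED.H51 Fermat.Agent.RED.H17

local notation "L" => riemannRochSpace

variable {K F : Type*} [Field K] [Field F] [Algebra K F]

/-- A divisor `E ≥ 0` of degree `0` is `0`. -/
theorem eq_zero_of_nonneg_of_degree (H : FFHyp K F) {E : Divisor K F} (hE : 0 ≤ E)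
    (hdeg : Divisor.degree E = 0) : E = 0 := by
  by_contra hne
  rcases H42.eq_or_exists_lt hE with h | ⟨v, hv⟩
  · exact hne h.symm
  · have h1 := H42.degree_mono (H42.le_sub_single hE hv)
    rw [map_zero, map_sub, Divisor.degree_single, H.deg_one v, hdeg] at h1
    simp at h1

/-- `deg D = 0` and `0 ≠ x ∈ L(D)`: then `D = - div x`. -/
theorem eq_neg_div_of_mem_L (H : FFHyp K F) {D : Divisor K F} (hdeg : Divisor.degree D = 0)
    {x : F} (hx : x ∈ L D) (hx0 : x ≠ 0) : ∀ v : Place K F, D v = -v.ord x := by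
  obtain ⟨E, hE, hE0⟩ := H.principal.exists_divisor x hx0
  have h1 : 0 ≤ D + E := by
    rw [Finsupp.le_def]
    intro v
    have := ord_ge_of_mem_L hx hx0 v
    rw [Finsupp.add_apply, hE v]
    simp only [Finsupp.coe_zero, Pi.zero_apply]
    omega
  have h2 := eq_zero_of_nonneg_of_degree H h1 (by rw [map_add, hdeg, hE0, add_zero])
  intro v
  have h3 := DFunLike.congr_fun h2 v
  rw [Finsupp.add_apply, hE v] at h3
  simp only [Finsupp.coe_zero, Pi.zero_apply] at h3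
  omega

theorem principal_of_mem_L (H : FFHyp K F) {D : Divisor K F} (hdeg : Divisor.degree D = 0)
    {x : F} (hx : x ∈ L D) (hx0 : x ≠ 0) : D ∈ Divisor.principal (K := K) (F := F) :=
  ⟨x⁻¹, inv_ne_zero hx0, fun v => by rw [Place.ord_inv, eq_neg_div_of_mem_L H hdeg hx hx0 v]⟩

/-- `l(D + div f) = l(D)`. -/
theorem finrank_L_add_principal (H : FFHyp K F) {D E : Divisor K F}
    (hE : E ∈ Divisor.principal (K := K) (F := F)) :
    Module.finrank K (L (D + E)) = Module.finrank K (L D) := by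
  obtain ⟨f, hf, hEf⟩ := hE
  exact H42.finrank_L_add_principal (hyp42 H) hf hEf

/-- `l(D) = 1` for a principal divisor `D`. -/
theorem finrank_L_principal (H : FFHyp K F) {D : Divisor K F}
    (hD : D ∈ Divisor.principal (K := K) (F := F)) : Module.finrank K (L D) = 1 := by
  have := finrank_L_add_principal H (D := 0) hD
  rwa [zero_add, finrank_L_zero H] at this

theorem degree_principal (H : FFHyp K F) {D : Divisor K F}
    (hD : D ∈ Divisor.principal (K := K) (F := F)) : Divisor.degree D = 0 := by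
  obtain ⟨f, hf, hDf⟩ := hD
  obtain ⟨E, hE, hE0⟩ := H.principal.exists_divisor f hf
  have : D = E := by
    ext v
    rw [hDf v, hE v]
  rw [this, hE0]

/-- `deg D = 0`: `l(D) = 0` unless `D` is principal. -/
theorem finrank_L_deg_zero (H : FFHyp K F) {D : Divisor K F} (hdeg : Divisor.degree D = 0)
    (hD : D ∉ Divisor.principal (K := K) (F := F)) : Module.finrank K (L D) = 0 := by
  have hbot : L D = ⊥ := by
    rw [eq_bot_iff]
    intro x hx
    rw [Submodule.mem_bot]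
    by_contra hx0
    exact hD (principal_of_mem_L H hdeg hx hx0)
  rw [hbot, finrank_bot]

/-- The divisors of degree `2g - 2`: `l(C) = g` for `C ~ W`, `l(C) = g - 1` otherwise. -/
theorem canonical_class (H : FFHyp K F) {g : ℕ} {W : Divisor K F} (hW : IsCanonical g W)
    {C : Divisor K F} (hC : Divisor.degree C = 2 * (g : ℤ) - 2) :
    (W - C ∈ Divisor.principal (K := K) (F := F) ∧ Module.finrank K (L C) = g) ∨
      (W - C ∉ Divisor.principal (K := K) (F := F) ∧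
        (Module.finrank K (L C) : ℤ) = (g : ℤ) - 1) := by
  have h := hW.2.2 C
  have hdeg : Divisor.degree (W - C) = 0 := by rw [map_sub, hW.1, hC, sub_self]
  by_cases hp : W - C ∈ Divisor.principal (K := K) (F := F)
  · left
    refine ⟨hp, ?_⟩
    rw [finrank_L_principal H hp, hC] at h
    have : (Module.finrank K (L C) : ℤ) = g := by push_cast at h; omega
    exact_mod_cast this
  · right
    refine ⟨hp, ?_⟩
    rw [finrank_L_deg_zero H hdeg hp, hC] at h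
    push_cast at h
    omega

/-- **Uniqueness of the canonical class** (Stichtenoth 1.6.2). -/
theorem canonical_unique (H : FFHyp K F) {g : ℕ} {W : Divisor K F} (hW : IsCanonical g W)
    {W' : Divisor K F} (hdeg : Divisor.degree W' = 2 * (g : ℤ) - 2)
    (hl : g ≤ Module.finrank K (L W')) : W - W' ∈ Divisor.principal (K := K) (F := F) := by
  rcases canonical_class H hW hdeg with ⟨hp, -⟩ | ⟨-, h⟩
  · exact hp
  · exfalso
    have : (g : ℤ) ≤ Module.finrank K (L W') := by exact_mod_cast hl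
    omega

/-- A divisor linearly equivalent to a canonical divisor is canonical. -/
theorem isCanonical_of_principal_sub (H : FFHyp K F) {g : ℕ} {W : Divisor K F}
    (hW : IsCanonical g W) {W' : Divisor K F}
    (hp : W - W' ∈ Divisor.principal (K := K) (F := F)) : IsCanonical g W' := by
  have hdeg : Divisor.degree W' = 2 * (g : ℤ) - 2 := by
    have := degree_principal H hp
    rw [map_sub, hW.1] at this
    omega
  have key : ∀ D : Divisor K F,
      Module.finrank K (L (W' - D)) = Module.finrank K (L (W - D)) := by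
    intro D
    have := finrank_L_add_principal H (D := W' - D) hp
    rw [← this, show W' - D + (W - W') = W - D by abel]
  refine ⟨hdeg, ?_, fun D => ?_⟩
  · have := key 0
    rwa [sub_zero, sub_zero, hW.2.1] at this
  · rw [key D]
    exact hW.2.2 D

end Fermat.Agent.S27.RR.H52

end
end
-- ==== END Fermat.Agent.S27.RR.H52_Canon

-- ==== BEGIN Fermat.Agent.S59.Asm.H80_SelmerCot
section

set_option autoImplicit false
set_option linter.unusedSectionVars false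

noncomputable section

namespace Fermat.Agent.S59.Asm.H80

section cotB

variable {𝒪 : Type} [CommRing 𝒪] {R' R : Type} [CommRing R'] [CommRing R] [Algebra 𝒪 R']
  [Algebra 𝒪 R] (τ : R' →ₐ[𝒪] R) (x : R →ₐ[𝒪] 𝒪)

theorem ker_comp_le_comap :
    RingHom.ker ((x.comp τ : R' →ₐ[𝒪] 𝒪) : R' →+* 𝒪) ≤
      (RingHom.ker (x : R →+* 𝒪)).comap τ := by
  intro a ha
  rw [Ideal.mem_comap, RingHom.mem_ker]
  exact ha

/-- The classes of the elements of `Ideal.span S` lie in `E` if those of `S` do. -/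
theorem toCotangent_mem_of_span (x' : R' →ₐ[𝒪] 𝒪) (S : Set R')
    (hS : ∀ s ∈ S, s ∈ RingHom.ker (x' : R' →+* 𝒪))
    (E : Submodule 𝒪 (RingHom.ker (x' : R' →+* 𝒪)).Cotangent)
    (hE : ∀ s (hs : s ∈ S), (RingHom.ker (x' : R' →+* 𝒪)).toCotangent ⟨s, hS s hs⟩ ∈ E)
    (y : R') (hy : y ∈ Ideal.span S) (hy' : y ∈ RingHom.ker (x' : R' →+* 𝒪)) :
    (RingHom.ker (x' : R' →+* 𝒪)).toCotangent ⟨y, hy'⟩ ∈ E := by
  have hle : Ideal.span S ≤ RingHom.ker (x' : R' →+* 𝒪) := Ideal.span_le.2 hS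
  have key : ∀ y (hy : y ∈ Ideal.span S),
      (RingHom.ker (x' : R' →+* 𝒪)).toCotangent ⟨y, hle hy⟩ ∈ E := by
    intro y hy
    induction hy using Submodule.span_induction with
    | mem s hs => exact hE s hs
    | zero =>
      have h0 : (⟨0, hle (Ideal.span S).zero_mem⟩ : RingHom.ker (x' : R' →+* 𝒪)) = 0 := rfl
      rw [h0, map_zero]
      exact E.zero_mem
    | add a b ha hb iha ihb =>
      have h1 : (⟨a + b, hle ((Ideal.span S).add_mem ha hb)⟩ : RingHom.ker (x' : R' →+* 𝒪)) =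
          ⟨a, hle ha⟩ + ⟨b, hle hb⟩ := rfl
      rw [h1, map_add]
      exact E.add_mem iha ihb
    | smul r a ha iha =>
      have h1 : (⟨r • a, hle ((Ideal.span S).smul_mem r ha)⟩ : RingHom.ker (x' : R' →+* 𝒪)) =
          r • ⟨a, hle ha⟩ := rfl
      rw [h1, map_smul, smul_cotangent_eq]
      exact E.smul_mem _ iha
  exact key y hy

/-- **Cotangent bookkeeping.** -/
theorem card_cotangent_le (hτ : Function.Surjective τ) (x' : R' →ₐ[𝒪] 𝒪) (hx' : x' = x.comp τ)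
    (S : Set R') (hS : ∀ s ∈ S, s ∈ RingHom.ker (x' : R' →+* 𝒪))
    (hker : RingHom.ker (τ : R' →+* R) ≤ Ideal.span S ⊔ RingHom.ker (x' : R' →+* 𝒪) ^ 2)
    (E : Submodule 𝒪 (RingHom.ker (x' : R' →+* 𝒪)).Cotangent)
    (hE : ∀ s (hs : s ∈ S), (RingHom.ker (x' : R' →+* 𝒪)).toCotangent ⟨s, hS s hs⟩ ∈ E)
    (hEfin : Finite E) (hfin : Finite (RingHom.ker (x : R →+* 𝒪)).Cotangent) :
    Finite (RingHom.ker (x' : R' →+* 𝒪)).Cotangent ∧
      Nat.card (RingHom.ker (x' : R' →+* 𝒪)).Cotangent ≤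
        Nat.card (RingHom.ker (x : R →+* 𝒪)).Cotangent * Nat.card E := by
  classical
  have hcomap : RingHom.ker (x' : R' →+* 𝒪) ≤ (RingHom.ker (x : R →+* 𝒪)).comap τ := by
    rw [hx']
    exact ker_comp_le_comap τ x
  have hf : ∃ f : (RingHom.ker (x' : R' →+* 𝒪)).Cotangent →ₗ[𝒪]
      (RingHom.ker (x : R →+* 𝒪)).Cotangent,
      f = Ideal.mapCotangent (RingHom.ker (x' : R' →+* 𝒪)) (RingHom.ker (x : R →+* 𝒪)) τ
        hcomap := ⟨_, rfl⟩
  obtain ⟨f, hf⟩ := hf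
  -- the kernel of `f` lies in `E`
  have hkerf : ∀ u : (RingHom.ker (x' : R' →+* 𝒪)).Cotangent, f u = 0 → u ∈ E := by
    intro u hu
    obtain ⟨⟨y, hy⟩, rfl⟩ := (RingHom.ker (x' : R' →+* 𝒪)).toCotangent_surjective u
    rw [hf, Ideal.mapCotangent_toCotangent, Ideal.toCotangent_eq_zero] at hu
    -- `τ y ∈ I ^ 2 = τ (I' ^ 2)`
    have hmap : (RingHom.ker (x' : R' →+* 𝒪)).map (τ : R' →+* R) =
        RingHom.ker (x : R →+* 𝒪) := by
      have h1 : RingHom.ker (x' : R' →+* 𝒪) =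
          (RingHom.ker (x : R →+* 𝒪)).comap (τ : R' →+* R) := by
        ext a
        rw [Ideal.mem_comap, hx']
        exact Iff.rfl
      rw [h1]
      exact Ideal.map_comap_of_surjective (τ : R' →+* R) hτ _
    have h2 : τ y ∈ (RingHom.ker (x' : R' →+* 𝒪) ^ 2).map (τ : R' →+* R) := by
      rw [Ideal.map_pow, hmap]
      exact hu
    obtain ⟨y', hy', hyy'⟩ := (Ideal.mem_map_iff_of_surjective (τ : R' →+* R) hτ).1 h2
    have h3 : y - y' ∈ RingHom.ker (τ : R' →+* R) := by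
      rw [RingHom.mem_ker, map_sub, sub_eq_zero]
      exact hyy'.symm
    have h4 : y ∈ Ideal.span S ⊔ RingHom.ker (x' : R' →+* 𝒪) ^ 2 := by
      have h5 : y = (y - y') + y' := by ring
      rw [h5]
      exact Ideal.add_mem _ (hker h3) (Ideal.mem_sup_right hy')
    obtain ⟨j, hj, w, hw, hjw⟩ := Submodule.mem_sup.1 h4
    have hjI : j ∈ RingHom.ker (x' : R' →+* 𝒪) := (Ideal.span_le.2 hS) hj
    have h6 : (RingHom.ker (x' : R' →+* 𝒪)).toCotangent ⟨y, hy⟩ =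
        (RingHom.ker (x' : R' →+* 𝒪)).toCotangent ⟨j, hjI⟩ := by
      rw [Ideal.toCotangent_eq]
      have h7 : ((⟨y, hy⟩ : RingHom.ker (x' : R' →+* 𝒪)) : R') -
          ((⟨j, hjI⟩ : RingHom.ker (x' : R' →+* 𝒪)) : R') = w := by
        change y - j = w
        rw [← hjw]
        ring
      rw [h7]
      exact hw
    rw [h6]
    exact toCotangent_mem_of_span x' S hS E hE j hj hjI
  -- a section of `f` on its range
  have hsec : ∀ z : (RingHom.ker (x : R →+* 𝒪)).Cotangent,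
      ∃ u : (RingHom.ker (x' : R' →+* 𝒪)).Cotangent, (∃ u', f u' = z) → f u = z := by
    intro z
    by_cases h : ∃ u', f u' = z
    · obtain ⟨u', hu'⟩ := h
      exact ⟨u', fun _ => hu'⟩
    · exact ⟨0, fun h' => absurd h' h⟩
  choose s hs using hsec
  let g : (RingHom.ker (x' : R' →+* 𝒪)).Cotangent →
      (RingHom.ker (x : R →+* 𝒪)).Cotangent × E := fun u =>
    (f u, ⟨u - s (f u), hkerf _ (by rw [map_sub, hs (f u) ⟨u, rfl⟩, sub_self])⟩)
  have hg : Function.Injective g := by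
    intro u u' huu'
    have h1 : f u = f u' := congrArg Prod.fst huu'
    have h2 : u - s (f u) = u' - s (f u') :=
      congrArg (fun t => ((t.2 : E) : (RingHom.ker (x' : R' →+* 𝒪)).Cotangent)) huu'
    rw [h1] at h2
    exact sub_left_injective h2
  have : Finite ((RingHom.ker (x : R →+* 𝒪)).Cotangent × E) := inferInstance
  refine ⟨Finite.of_injective g hg, ?_⟩
  have h3 := Nat.card_le_card_of_injective g hg
  rw [Nat.card_prod] at h3
  exact h3

end cotB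

end Fermat.Agent.S59.Asm.H80

end
end
-- ==== END Fermat.Agent.S59.Asm.H80_SelmerCot

-- ==== BEGIN Fermat.Agent.S59.CaseC.Geom.H80_PRelT
section

set_option autoImplicit false
set_option linter.style.haveILetI false
set_option linter.unusedSectionVars false

open scoped MatrixGroups
open CongruenceSubgroup Matrix ModularForm

namespace Fermat.Agent.S59.CaseC.Geom.H80

open Fermat.Agent.S41 Fermat.Agent.S41.H19 Fermat.Agent.S41.H39 Fermat.Agent.Betti
open Fermat.Agent.S59.NonMin.Geom Fermat.Agent.S59.NonMin.Geom.H12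
open Fermat.Agent.S59.NonMin.Geom.H94

/-! ### The two degeneracy maps as conjugations -/

theorem isDeg_inclG (N q : ℕ) : IsDeg (inclG N q) 1 := by
  intro γ
  rw [Dq_one, mul_one, one_mul, mat_inclG]

theorem isDeg_conjG (N q : ℕ) : IsDeg (conjG N q) q := by
  intro γ
  rw [mat_conjG, conjMat_Dq (q_dvd_of_mem_gamma0_mul γ.2)]

theorem trG_inclG (N q : ℕ) (h : Gamma0 (N * q)) : trG (inclG N q h) = trG h := rfl

theorem trG_conjG (N q : ℕ) (h : Gamma0 (N * q)) : trG (conjG N q h) = trG h :=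
  trace_conjMat' q _

/-- The arithmetic of the coset condition at the level `N q`. -/
theorem hM_one {N q s : ℕ} (hq : q.Prime) (hqN : ¬ q ∣ N) (hs : s.Prime) (hsq : s ≠ q)
    (c : ℕ) (z : ℤ) (hz : (N : ℤ) ∣ z)
    (h : ((N * q : ℕ) : ℤ) ∣ (s : ℤ) * ((c : ℤ) * z)) :
    ((N * q : ℕ) : ℤ) ∣ (c : ℤ) * z := by
  have hcop1 : IsCoprime (q : ℤ) (s : ℤ) :=
    Nat.isCoprime_iff_coprime.mpr ((Nat.coprime_primes hq hs).mpr (Ne.symm hsq))
  have hcop2 : IsCoprime (N : ℤ) (q : ℤ) :=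
    Nat.isCoprime_iff_coprime.mpr
      (Nat.Coprime.symm ((Nat.Prime.coprime_iff_not_dvd hq).mpr hqN))
  have h1 : (q : ℤ) ∣ (s : ℤ) * ((c : ℤ) * z) := by
    refine Dvd.dvd.trans ?_ h
    exact ⟨(N : ℤ), by push_cast; ring⟩
  have h2 : (q : ℤ) ∣ (c : ℤ) * z := hcop1.dvd_of_dvd_mul_left h1
  have h3 : (N : ℤ) ∣ (c : ℤ) * z := Dvd.dvd.mul_left hz _
  have := hcop2.mul_dvd h3 h2
  push_cast
  exact this

section Main

variable {N q : ℕ} {A : Type*} [AddCommGroup A]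

/-! ### `T_ℓ`, `ℓ ∤ N q` -/

theorem TB_res1 {ℓ : ℕ} (hℓ : ℓ.Prime) (hℓN : ¬ ℓ ∣ N) (hℓN' : ¬ ℓ ∣ N * q)
    (φ : Additive (Gamma0 N) →+ A) :
    TB (N * q) A hℓ hℓN' (res1 N q A φ) = res1 N q A (TB N A hℓ hℓN φ) :=
  TB_resAlong (isDeg_inclG N q) one_ne_zero hℓ (Nat.coprime_one_left ℓ) hℓN hℓN' φ

theorem ne_of_not_dvd_mul {ℓ : ℕ} (hℓN' : ¬ ℓ ∣ N * q) : ℓ ≠ q :=
  fun e => hℓN' (e ▸ dvd_mul_left q N)

theorem TB_res2 (hq : q.Prime) {ℓ : ℕ} (hℓ : ℓ.Prime) (hℓN : ¬ ℓ ∣ N) (hℓN' : ¬ ℓ ∣ N * q)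
    (φ : Additive (Gamma0 N) →+ A) :
    TB (N * q) A hℓ hℓN' (res2 N q A φ) = res2 N q A (TB N A hℓ hℓN φ) :=
  TB_resAlong (isDeg_conjG N q) hq.ne_zero hℓ
    ((Nat.coprime_primes hq hℓ).mpr (Ne.symm (ne_of_not_dvd_mul hℓN'))) hℓN hℓN' φ

theorem cor1_TB (hq : q.Prime) (hqN : ¬ q ∣ N) {ℓ : ℕ} (hℓ : ℓ.Prime) (hℓN : ¬ ℓ ∣ N)
    (hℓN' : ¬ ℓ ∣ N * q) (ψ : Additive (Gamma0 (N * q)) →+ A) :
    cor1 N q A (TB (N * q) A hℓ hℓN' ψ) = TB N A hℓ hℓN (cor1 N q A ψ) :=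
  corAlong_TB (isDeg_inclG N q) one_ne_zero hℓ (Nat.coprime_one_left ℓ) hℓN hℓN'
    (fun z hz h => hM_one hq hqN hℓ (ne_of_not_dvd_mul hℓN') 1 z hz h) ψ

theorem cor2_TB (hq : q.Prime) (hqN : ¬ q ∣ N) {ℓ : ℕ} (hℓ : ℓ.Prime) (hℓN : ¬ ℓ ∣ N)
    (hℓN' : ¬ ℓ ∣ N * q) (ψ : Additive (Gamma0 (N * q)) →+ A) :
    cor2 N q A (TB (N * q) A hℓ hℓN' ψ) = TB N A hℓ hℓN (cor2 N q A ψ) :=
  corAlong_TB (isDeg_conjG N q) hq.ne_zero hℓ
    ((Nat.coprime_primes hq hℓ).mpr (Ne.symm (ne_of_not_dvd_mul hℓN'))) hℓN hℓN'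
    (fun z hz h => hM_one hq hqN hℓ (ne_of_not_dvd_mul hℓN') q z hz h) ψ

/-- `T_q = cor1 ∘ res2`. -/
theorem TB_eq_cor1_res2 (hN : 0 < N) (hq : q.Prime) (hqN : ¬ q ∣ N)
    (φ : Additive (Gamma0 N) →+ A) :
    TB N A hq hqN φ = cor1 N q A (res2 N q A φ) :=
  (Fermat.Agent.S41.H20.Tcoh_eq_TB hN hq hqN φ).symm

theorem TB_TB (hN : 0 < N) (hq : q.Prime) (hqN : ¬ q ∣ N) {ℓ : ℕ} (hℓ : ℓ.Prime)
    (hℓN : ¬ ℓ ∣ N) (hℓN' : ¬ ℓ ∣ N * q) (φ : Additive (Gamma0 N) →+ A) :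
    TB N A hℓ hℓN (TB N A hq hqN φ) = TB N A hq hqN (TB N A hℓ hℓN φ) := by
  rw [TB_eq_cor1_res2 hN hq hqN, TB_eq_cor1_res2 hN hq hqN, ← cor1_TB hq hqN hℓ hℓN hℓN',
    TB_res2 hq hℓ hℓN hℓN']

/-! ### `U_r`, `r ∣ N` -/

variable [NeZero N] [NeZero (N * q)]

theorem ne_of_dvd {r : ℕ} (hqN : ¬ q ∣ N) (hrN : r ∣ N) : r ≠ q :=
  fun e => hqN (e ▸ hrN)

theorem UB_res1 {r : ℕ} (hrN : r ∣ N) (hrN' : r ∣ N * q) (φ : Additive (Gamma0 N) →+ A) :
    UB (N * q) A hrN' (res1 N q A φ) = res1 N q A (UB N A hrN φ) :=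
  UB_resAlong (isDeg_inclG N q) one_ne_zero (Nat.coprime_one_left r) hrN hrN' φ

theorem UB_res2 (hq : q.Prime) (hqN : ¬ q ∣ N) {r : ℕ} (hr : r.Prime) (hrN : r ∣ N)
    (hrN' : r ∣ N * q) (φ : Additive (Gamma0 N) →+ A) :
    UB (N * q) A hrN' (res2 N q A φ) = res2 N q A (UB N A hrN φ) :=
  UB_resAlong (isDeg_conjG N q) hq.ne_zero
    ((Nat.coprime_primes hq hr).mpr (Ne.symm (ne_of_dvd hqN hrN))) hrN hrN' φ

theorem cor1_UB (hq : q.Prime) (hqN : ¬ q ∣ N) {r : ℕ} (hr : r.Prime) (hrN : r ∣ N)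
    (hrN' : r ∣ N * q) (ψ : Additive (Gamma0 (N * q)) →+ A) :
    cor1 N q A (UB (N * q) A hrN' ψ) = UB N A hrN (cor1 N q A ψ) :=
  corAlong_UB (isDeg_inclG N q) one_ne_zero (Nat.coprime_one_left r) hrN hrN'
    (fun z hz h => hM_one hq hqN hr (ne_of_dvd hqN hrN) 1 z hz h) ψ

theorem cor2_UB (hq : q.Prime) (hqN : ¬ q ∣ N) {r : ℕ} (hr : r.Prime) (hrN : r ∣ N)
    (hrN' : r ∣ N * q) (ψ : Additive (Gamma0 (N * q)) →+ A) :
    cor2 N q A (UB (N * q) A hrN' ψ) = UB N A hrN (cor2 N q A ψ) :=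
  corAlong_UB (isDeg_conjG N q) hq.ne_zero
    ((Nat.coprime_primes hq hr).mpr (Ne.symm (ne_of_dvd hqN hrN))) hrN hrN'
    (fun z hz h => hM_one hq hqN hr (ne_of_dvd hqN hrN) q z hz h) ψ

theorem UB_TB (hq : q.Prime) (hqN : ¬ q ∣ N) {r : ℕ} (hr : r.Prime) (hrN : r ∣ N)
    (hrN' : r ∣ N * q) (φ : Additive (Gamma0 N) →+ A) :
    UB N A hrN (TB N A hq hqN φ) = TB N A hq hqN (UB N A hrN φ) := by
  have hN : 0 < N := Nat.pos_of_ne_zero (NeZero.ne N)
  rw [TB_eq_cor1_res2 hN hq hqN, TB_eq_cor1_res2 hN hq hqN, ← cor1_UB hq hqN hr hrN hrN',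
    UB_res2 hq hqN hr hrN hrN']

end Main

/-! ### P-RELT -/

/-- **P-RELT**. -/
theorem stmt_PRELT : Stmt_PRELT := by
  intro N q _ _ hq hqN A _
  have hN : 0 < N := Nat.pos_of_ne_zero (NeZero.ne N)
  refine ⟨fun ℓ hℓ hℓN hℓN' => ⟨fun φ => ⟨?_, ?_, ?_⟩, fun ψ => ⟨?_, ?_⟩⟩,
    fun r hr hrN hrN' => ⟨fun φ => ⟨?_, ?_, ?_⟩, fun ψ => ⟨?_, ?_⟩⟩,
    fun φ hφ => ⟨?_, ?_, ?_⟩, fun ψ hψ => ⟨?_, ?_⟩⟩
  · exact TB_res1 hℓ hℓN hℓN' φ
  · exact TB_res2 hq hℓ hℓN hℓN' φ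
  · exact TB_TB hN hq hqN hℓ hℓN hℓN' φ
  · exact cor1_TB hq hqN hℓ hℓN hℓN' ψ
  · exact cor2_TB hq hqN hℓ hℓN hℓN' ψ
  · exact UB_res1 hrN hrN' φ
  · exact UB_res2 hq hqN hr hrN hrN' φ
  · exact UB_TB hq hqN hr hrN hrN' φ
  · exact cor1_UB hq hqN hr hrN hrN' ψ
  · exact cor2_UB hq hqN hr hrN hrN' ψ
  · exact resAlong_par (inclG N q) (trG_inclG N q) hφ
  · exact resAlong_par (conjG N q) (trG_conjG N q) hφ
  · rw [TB_eq_cor1_res2 hN hq hqN]
    exact corAlong_par (inclG N q) (trG_inclG N q)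
      (resAlong_par (conjG N q) (trG_conjG N q) hφ)
  · exact corAlong_par (inclG N q) (trG_inclG N q) hψ
  · exact corAlong_par (conjG N q) (trG_conjG N q) hψ

end Fermat.Agent.S59.CaseC.Geom.H80

end
-- ==== END Fermat.Agent.S59.CaseC.Geom.H80_PRelT

-- ==== BEGIN Fermat.Agent.S59.CaseC.H12_CPNEBridge
section

set_option autoImplicit false
set_option linter.style.haveILetI false
set_option linter.unusedSectionVars false
set_option linter.unusedVariables false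

open Polynomial CuspForm CongruenceSubgroup ModularFormClass IsLocalRing
open scoped TensorProduct

namespace Fermat.Agent.S59.CaseC.H12

open Fermat.Agent.S59 Fermat.Agent.S59.Asm Fermat.Agent.S59.NonMin Fermat.Agent.S59.CaseC

section OrdLine

variable {A : Type} [CommRing A] [IsLocalRing A] {B : Type} [CommRing B] [IsLocalRing B]

/-- Core of `ordLine_baseChange`, stated on `B ⊗[A] V` directly. -/
theorem ordLine_core (φ : A →+* B) (ρ : GaloisRepAdic A)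
    (P : ValuationSubring (AlgebraicClosure ℚ)) (ℒ : OrdLine ρ P)
    (g : AlgebraicClosure ℚ ≃ₐ[ℚ] AlgebraicClosure ℚ) (z : A)
    (hz : ℒ.IsQuotEigen g z) :
    letI : Algebra A B := φ.toAlgebra
    ∃ L : Submodule B (B ⊗[A] ρ.V),
      (∃ b : Module.Basis (Fin 2) B (B ⊗[A] ρ.V), L = Submodule.span B {b 0}) ∧
      (∀ σ ∈ P.decompositionSubgroup ℚ, ∀ v ∈ L, (ρ.ρ σ).baseChange B v ∈ L) ∧
      (∀ σ ∈ P.inertiaSubgroupIn ℚ, ∀ v : B ⊗[A] ρ.V, (ρ.ρ σ).baseChange B v - v ∈ L) ∧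
      (∀ v : B ⊗[A] ρ.V, (ρ.ρ g).baseChange B v - φ z • v ∈ L) := by
  letI : Algebra A B := φ.toAlgebra
  obtain ⟨b, hb⟩ := ℒ.isLine
  have hb0 : b 0 ∈ ℒ.L := by rw [hb]; exact Submodule.mem_span_singleton_self _
  have hD := ℒ.stable
  have hI := ℒ.inertia
  refine ⟨Submodule.span B {(1 : B) ⊗ₜ[A] b 0}, ⟨b.baseChange B, ?_⟩, ?_, ?_, ?_⟩
  · rw [Module.Basis.baseChange_apply]
  · intro σ hσ v hv
    obtain ⟨c, rfl⟩ := Submodule.mem_span_singleton.1 hv
    rw [map_smul, LinearMap.baseChange_tmul]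
    refine Submodule.smul_mem _ _ ?_
    have := hD σ hσ (b 0) hb0
    rw [hb] at this
    exact Fermat.Agent.S56.H92.tmul_mem_span φ 1 this
  · intro σ hσ v
    induction v using TensorProduct.induction_on with
    | zero => rw [LinearMap.map_zero, sub_zero]; exact Submodule.zero_mem _
    | tmul c v =>
      rw [LinearMap.baseChange_tmul, ← TensorProduct.tmul_sub]
      have := hI σ hσ v
      rw [hb] at this
      exact Fermat.Agent.S56.H92.tmul_mem_span φ c this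
    | add x y hx hy =>
      rw [map_add, add_sub_add_comm]
      exact Submodule.add_mem _ hx hy
  · intro v
    induction v using TensorProduct.induction_on with
    | zero => rw [LinearMap.map_zero, smul_zero, sub_zero]; exact Submodule.zero_mem _
    | tmul c v =>
      have h1 : φ z • (c ⊗ₜ[A] v : B ⊗[A] ρ.V) = c ⊗ₜ[A] (z • v) := by
        rw [TensorProduct.tmul_smul, TensorProduct.smul_tmul', TensorProduct.smul_tmul']
        rfl
      rw [LinearMap.baseChange_tmul, h1, ← TensorProduct.tmul_sub]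
      have := hz v
      rw [hb] at this
      exact Fermat.Agent.S56.H92.tmul_mem_span φ c this
    | add x y hx hy =>
      rw [map_add, smul_add, add_sub_add_comm]
      exact Submodule.add_mem _ hx hy

/-- An ordinary line, with the eigenvalue of `g` on the quotient, base changes along a local
homomorphism. -/
theorem ordLine_baseChange (φ : A →+* B) (hφ : IsLocalHom φ) (ρ : GaloisRepAdic A)
    (P : ValuationSubring (AlgebraicClosure ℚ)) (ℒ : OrdLine ρ P)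
    (g : AlgebraicClosure ℚ ≃ₐ[ℚ] AlgebraicClosure ℚ) (z : A)
    (hz : ℒ.IsQuotEigen g z) :
    ∃ ℒ' : OrdLine (ρ.baseChangeAlong φ hφ) P, ℒ'.IsQuotEigen g (φ z) := by
  obtain ⟨L, h1, h2, h3, h4⟩ := ordLine_core φ ρ P ℒ g z hz
  exact ⟨⟨L, h1, h2, h3⟩, h4⟩

end OrdLine

section Ext

/-- A ring homomorphism to an algebraically closed field extends along an injective integral
extension. -/
theorem exists_ext_algClosed {A₀ A₁ : Type*} [CommRing A₀] [CommRing A₁] [Algebra A₀ A₁]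
    [Algebra.IsIntegral A₀ A₁] (hinj : Function.Injective (algebraMap A₀ A₁))
    {Ω : Type*} [Field Ω] [IsAlgClosed Ω] (x : A₀ →+* Ω) :
    ∃ y : A₁ →+* Ω, ∀ a, y (algebraMap A₀ A₁ a) = x a := by
  haveI : (RingHom.ker x).IsPrime := RingHom.ker_isPrime x
  have hcomap : (⊥ : Ideal A₁).comap (algebraMap A₀ A₁) ≤ RingHom.ker x := by
    intro a ha
    rw [Ideal.mem_comap, Ideal.mem_bot] at ha
    have h0 : a = 0 := hinj (ha.trans (map_zero _).symm)
    rw [h0]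
    exact Ideal.zero_mem _
  obtain ⟨𝔓, -, h𝔓prime, h𝔓⟩ :=
    Ideal.exists_ideal_over_prime_of_isIntegral (RingHom.ker x) (⊥ : Ideal A₁) hcomap
  haveI := h𝔓prime
  haveI : (𝔓.comap (algebraMap A₀ A₁)).IsPrime := Ideal.comap_isPrime _ _
  let xbar : A₀ ⧸ 𝔓.comap (algebraMap A₀ A₁) →+* Ω :=
    Ideal.Quotient.lift _ x (fun a ha => by rw [h𝔓] at ha; exact ha)
  have hxbar_inj : Function.Injective xbar := by
    rw [injective_iff_map_eq_zero]
    intro a ha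
    obtain ⟨a, rfl⟩ := Ideal.Quotient.mk_surjective a
    have ha' : x a = 0 := ha
    rw [Ideal.Quotient.eq_zero_iff_mem, h𝔓]
    exact ha'
  letI : Algebra (A₀ ⧸ 𝔓.comap (algebraMap A₀ A₁)) Ω := xbar.toAlgebra
  haveI : Module.IsTorsionFree (A₀ ⧸ 𝔓.comap (algebraMap A₀ A₁)) Ω :=
    Module.isTorsionFree_iff_algebraMap_injective.mpr hxbar_inj
  haveI : Module.IsTorsionFree (A₀ ⧸ 𝔓.comap (algebraMap A₀ A₁)) (A₁ ⧸ 𝔓) :=
    Module.isTorsionFree_iff_algebraMap_injective.mpr Ideal.algebraMap_quotient_injective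
  haveI : Algebra.IsAlgebraic (A₀ ⧸ 𝔓.comap (algebraMap A₀ A₁)) (A₁ ⧸ 𝔓) :=
    Algebra.IsIntegral.isAlgebraic
  let l : (A₁ ⧸ 𝔓) →ₐ[A₀ ⧸ 𝔓.comap (algebraMap A₀ A₁)] Ω := IsAlgClosed.lift
  refine ⟨(l : (A₁ ⧸ 𝔓) →+* Ω).comp (Ideal.Quotient.mk 𝔓), fun a => ?_⟩
  have h1 : Ideal.Quotient.mk 𝔓 (algebraMap A₀ A₁ a) =
      algebraMap (A₀ ⧸ 𝔓.comap (algebraMap A₀ A₁)) (A₁ ⧸ 𝔓) (Ideal.Quotient.mk _ a) := rfl
  rw [RingHom.comp_apply, h1]
  exact (l.commutes _).trans (Ideal.Quotient.lift_mk _ _ _)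

/-- `exists_ext_char` with a given algebraically closed field containing `𝒪`. -/
theorem exists_ext_char_of {A₀ A₁ : Type*} [CommRing A₀] [CommRing A₁] [Algebra A₀ A₁]
    [Module.Finite ℤ A₁] (hinj : Function.Injective (algebraMap A₀ A₁))
    (𝒪 : Type) [CommRing 𝒪] [IsDomain 𝒪] [IsDiscreteValuationRing 𝒪]
    [IsAdicComplete (maximalIdeal 𝒪) 𝒪] [Finite (ResidueField 𝒪)] [CharZero 𝒪]
    (Ω : Type) [Field Ω] [IsAlgClosed Ω] [Algebra 𝒪 Ω]
    (hιinj : Function.Injective (algebraMap 𝒪 Ω))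
    (x : A₀ →+* 𝒪) :
    ∃ (O' : Type) (_ : CommRing O') (_ : IsDomain O') (_ : IsDiscreteValuationRing O')
      (_ : IsAdicComplete (maximalIdeal O') O') (_ : Finite (ResidueField O'))
      (_ : CharZero O') (_ : Algebra 𝒪 O') (_ : Module.Finite 𝒪 O')
      (_ : IsLocalHom (algebraMap 𝒪 O')) (xt : A₁ →+* O'),
      Function.Injective (algebraMap 𝒪 O') ∧
      ∀ a, xt (algebraMap A₀ A₁ a) = algebraMap 𝒪 O' (x a) := by
  haveI : Algebra.IsIntegral ℤ A₁ := Algebra.IsIntegral.of_finite ℤ A₁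
  haveI : Algebra.IsIntegral A₀ A₁ :=
    ⟨fun b => (Algebra.IsIntegral.isIntegral (R := ℤ) b).tower_top⟩
  obtain ⟨y, hy⟩ := exists_ext_algClosed hinj ((algebraMap 𝒪 Ω).comp x)
  -- the image of `𝒪 ⊗ A₁`
  let f : 𝒪 ⊗[ℤ] A₁ →ₐ[𝒪] Ω :=
    Algebra.TensorProduct.lift (Algebra.ofId 𝒪 _) y.toIntAlgHom (fun _ _ => Commute.all _ _)
  have hf1 : ∀ a : A₁, f (1 ⊗ₜ[ℤ] a) = y a := by
    intro a
    simp [f]
  haveI : Module.Finite 𝒪 f.range :=
    Module.Finite.of_surjective f.rangeRestrict.toLinearMap f.rangeRestrict_surjective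
  haveI : FaithfulSMul 𝒪 f.range := by
    rw [faithfulSMul_iff_algebraMap_injective]
    intro a b hab
    exact hιinj (congrArg Subtype.val hab)
  obtain ⟨O', iCR, iD, iDVR, iAC, iFin, iCZ, iAlg, iMF, iLH, j, hO'inj, hjinj, hjO, -⟩ :=
    Fermat.Agent.R.H2.exists_dvr_of_finite_domain 𝒪 f.range
  refine ⟨O', iCR, iD, iDVR, iAC, iFin, iCZ, iAlg, iMF, iLH,
    j.comp ((f.rangeRestrict : 𝒪 ⊗[ℤ] A₁ →+* f.range).comp
      (Algebra.TensorProduct.includeRight : A₁ →ₐ[ℤ] 𝒪 ⊗[ℤ] A₁).toRingHom), hO'inj, fun a => ?_⟩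
  rw [← hjO]
  show j (f.rangeRestrict ((1 : 𝒪) ⊗ₜ[ℤ] algebraMap A₀ A₁ a)) = _
  congr 1
  apply Subtype.ext
  show f ((1 : 𝒪) ⊗ₜ[ℤ] algebraMap A₀ A₁ a) = algebraMap 𝒪 _ (x a)
  rw [hf1, hy]
  rfl

/-- **EXT**: a character `x : A₀ → 𝒪` of a subring `A₀` of a ring `A₁` which is a finitely
generated `ℤ`-module extends to a character of `A₁` with values in a complete discrete valuation
ring `O'` finite over `𝒪`. -/
theorem exists_ext_char {A₀ A₁ : Type*} [CommRing A₀] [CommRing A₁] [Algebra A₀ A₁]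
    [Module.Finite ℤ A₁] (hinj : Function.Injective (algebraMap A₀ A₁))
    (𝒪 : Type) [CommRing 𝒪] [IsDomain 𝒪] [IsDiscreteValuationRing 𝒪]
    [IsAdicComplete (maximalIdeal 𝒪) 𝒪] [Finite (ResidueField 𝒪)] [CharZero 𝒪]
    (x : A₀ →+* 𝒪) :
    ∃ (O' : Type) (_ : CommRing O') (_ : IsDomain O') (_ : IsDiscreteValuationRing O')
      (_ : IsAdicComplete (maximalIdeal O') O') (_ : Finite (ResidueField O'))
      (_ : CharZero O') (_ : Algebra 𝒪 O') (_ : Module.Finite 𝒪 O')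
      (_ : IsLocalHom (algebraMap 𝒪 O')) (xt : A₁ →+* O'),
      Function.Injective (algebraMap 𝒪 O') ∧
      ∀ a, xt (algebraMap A₀ A₁ a) = algebraMap 𝒪 O' (x a) := by
  have hιinj : Function.Injective (algebraMap 𝒪 (AlgebraicClosure (FractionRing 𝒪))) := by
    rw [IsScalarTower.algebraMap_eq 𝒪 (FractionRing 𝒪) (AlgebraicClosure (FractionRing 𝒪))]
    exact (algebraMap (FractionRing 𝒪) (AlgebraicClosure (FractionRing 𝒪))).injective.comp
      (IsFractionRing.injective 𝒪 (FractionRing 𝒪))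
  exact exists_ext_char_of hinj 𝒪 (AlgebraicClosure (FractionRing 𝒪)) hιinj x

end Ext

section Assembly

/-- The inclusion of the Hecke algebra away from `S` into the Hecke algebra away from
`S ∖ {p}`. -/
noncomputable def eraseIncl (N : ℕ) [NeZero N] (S : Finset ℕ) (p : ℕ) :
    CuspForm.heckeAlgebra N 2 (↑S : Set ℕ) →+*
      CuspForm.heckeAlgebra N 2 (↑(S.erase p) : Set ℕ) :=
  (Subalgebra.inclusion (CuspForm.heckeAlgebra_mono
    (by exact_mod_cast Finset.erase_subset p S))).toRingHom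

theorem eraseIncl_injective (N : ℕ) [NeZero N] (S : Finset ℕ) (p : ℕ) :
    Function.Injective (eraseIncl N S p) :=
  Subalgebra.inclusion_injective _

theorem eraseIncl_T (N : ℕ) [NeZero N] (S : Finset ℕ) (p : ℕ) {ℓ : ℕ} (hℓ : ℓ.Prime)
    (hℓN : ¬ ℓ ∣ N) (hℓS : ℓ ∉ (↑S : Set ℕ)) (hℓS' : ℓ ∉ (↑(S.erase p) : Set ℕ)) :
    eraseIncl N S p (CuspForm.heckeAlgebra.T hℓ hℓN hℓS) =
      CuspForm.heckeAlgebra.T hℓ hℓN hℓS' := rfl

variable (𝒪 : Type) [CommRing 𝒪] [IsDomain 𝒪] [IsDiscreteValuationRing 𝒪]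
  [IsAdicComplete (maximalIdeal 𝒪) 𝒪] [Finite (ResidueField 𝒪)] [CharZero 𝒪]

/-- **LGC at a point** of the local Hecke ring away from `S` (level prime to `p`): there are a
complete discrete valuation ring `O'` finite over `𝒪` and a character `xt` of the Hecke algebra
away from `S ∖ {p}` extending the character `πx ∘ π`, such that the eigenvalue `u = πx z` of
Frobenius on the unramified quotient satisfies `u² - xt(T_p) u + p = 0` in `O'`. -/
theorem lgc_at_point (hG : Fermat.Agent.S59.CaseC.Geom.Stmt_LGCpt)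
    (p : ℕ) [hpF : Fact p.Prime] (hp2 : p ≠ 2) (hp𝒪 : (p : 𝒪) ∈ maximalIdeal 𝒪)
    (N : ℕ) [NeZero N] [Fact (CuspForm.HasIntegralStructure N 2)] (S : Finset ℕ) (hpS : p ∈ S)
    (hNS : ∀ q : ℕ, q.Prime → q ∣ N → q ∈ S) (hpN : ¬ p ∣ N)
    (θ : CuspForm.heckeAlgebra N 2 (↑S : Set ℕ) →+* ResidueField 𝒪)
    (H : CuspForm.HeckeGaloisRepDatum N (↑S : Set ℕ) 𝒪 θ
      (CuspForm.heckeLocal N (↑S : Set ℕ) 𝒪 θ))
    (hdet : H.ρ.DetIsCyclotomic p)
    (P : ValuationSubring (AlgebraicClosure ℚ)) (hP : P.LiesOverPrime p)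
    (ℒ : OrdLine H.ρ P) (g : AlgebraicClosure ℚ ≃ₐ[ℚ] AlgebraicClosure ℚ)
    (hg : P.IsFrobeniusAt g p)
    (z : CuspForm.heckeLocal N (↑S : Set ℕ) 𝒪 θ) (hz : ℒ.IsQuotEigen g z)
    (πx : CuspForm.heckeLocal N (↑S : Set ℕ) 𝒪 θ →ₐ[𝒪] 𝒪) :
    ∃ (O' : Type) (_ : CommRing O') (_ : IsDomain O') (_ : IsDiscreteValuationRing O')
      (_ : IsAdicComplete (maximalIdeal O') O') (_ : Finite (ResidueField O'))
      (_ : CharZero O') (_ : Algebra 𝒪 O') (_ : Module.Finite 𝒪 O')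
      (_ : IsLocalHom (algebraMap 𝒪 O'))
      (xt : CuspForm.heckeAlgebra N 2 (↑(S.erase p) : Set ℕ) →+* O'),
      Function.Injective (algebraMap 𝒪 O') ∧
      (∀ t : CuspForm.heckeAlgebra N 2 (↑S : Set ℕ),
        xt (eraseIncl N S p t) = algebraMap 𝒪 O' (πx (H.π t))) ∧
      algebraMap 𝒪 O' (πx z) ^ 2 -
        xt (CuspForm.heckeAlgebra.T hpF.out hpN (not_mem_erase S p)) * algebraMap 𝒪 O' (πx z) +
        (p : O') = 0 := by
  haveI : Module.Finite ℤ (CuspForm.heckeAlgebra N 2 (↑(S.erase p) : Set ℕ)) :=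
    Fermat.Agent.S22.result N 2 _
  letI : Algebra (CuspForm.heckeAlgebra N 2 (↑S : Set ℕ))
      (CuspForm.heckeAlgebra N 2 (↑(S.erase p) : Set ℕ)) := (eraseIncl N S p).toAlgebra
  obtain ⟨O', iCR, iD, iDVR, iAC, iFin, iCZ, iAlg, iMF, iLH, xt, hO'inj, hxt⟩ :=
    exists_ext_char (A₀ := CuspForm.heckeAlgebra N 2 (↑S : Set ℕ))
      (A₁ := CuspForm.heckeAlgebra N 2 (↑(S.erase p) : Set ℕ))
      (eraseIncl_injective N S p) 𝒪
      ((πx : CuspForm.heckeLocal N (↑S : Set ℕ) 𝒪 θ →+* 𝒪).comp H.π)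
  refine ⟨O', iCR, iD, iDVR, iAC, iFin, iCZ, iAlg, iMF, iLH, xt, hO'inj, fun t => hxt t, ?_⟩
  -- the point with values in `O'`
  let ψ : CuspForm.heckeLocal N (↑S : Set ℕ) 𝒪 θ →ₐ[𝒪] O' := (Algebra.ofId 𝒪 O').comp πx
  have hψ : IsLocalHom (ψ : CuspForm.heckeLocal N (↑S : Set ℕ) 𝒪 θ →+* O') :=
    Fermat.Agent.S59.Asm.isLocalHom_of_finite (𝒪 := 𝒪) ψ
  have hψa : ∀ t, (ψ : CuspForm.heckeLocal N (↑S : Set ℕ) 𝒪 θ →+* O') t =
      algebraMap 𝒪 O' (πx t) := fun t => rfl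
  have hpO' : (p : O') ∈ maximalIdeal O' := by
    have := Fermat.Agent.S56.H92.map_mem_maximalIdeal (algebraMap 𝒪 O') iLH hp𝒪
    rwa [map_natCast] at this
  obtain ⟨ℒ', hz'⟩ := ordLine_baseChange
    (ψ : CuspForm.heckeLocal N (↑S : Set ℕ) 𝒪 θ →+* O') hψ H.ρ P ℒ g z hz
  have key := hG O' p hp2 hpO' N S hpS hNS hpF.out hpN (not_mem_erase S p) xt
    (H.ρ.baseChangeAlong (ψ : CuspForm.heckeLocal N (↑S : Set ℕ) 𝒪 θ →+* O') hψ) ?_
    (Fermat.Agent.S56.H92.detIsCyclotomic_baseChangeAlong _ hψ H.ρ p hdet)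
    (Fermat.Agent.R.H86.residual_absIrr_baseChangeAlong _ hψ H.ρ H.residual_absIrr)
    P hP ℒ' g hg _ hz'
  · rw [hψa] at key
    exact key
  · intro ℓ hℓ hℓN hℓS hℓp B hB σ hσ
    have hℓS' : ℓ ∉ (↑S : Set ℕ) := by
      intro h
      apply hℓS
      rw [Finset.mem_coe] at h ⊢
      exact Finset.mem_erase.mpr ⟨hℓp, h⟩
    rw [Fermat.Agent.R.H86.baseChangeAlong_charpoly, H.charpoly_frob ℓ hℓ hℓN hℓS' B hB σ hσ]
    have h1 : (ψ : CuspForm.heckeLocal N (↑S : Set ℕ) 𝒪 θ →+* O')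
        (H.π (CuspForm.heckeAlgebra.T hℓ hℓN hℓS')) =
        xt (CuspForm.heckeAlgebra.T hℓ hℓN hℓS) := by
      rw [hψa, ← eraseIncl_T N S p hℓ hℓN hℓS' hℓS]
      exact (hxt _).symm
    simp only [Polynomial.map_sub, Polynomial.map_add, Polynomial.map_mul, Polynomial.map_pow,
      Polynomial.map_X, Polynomial.map_C, map_natCast, Polynomial.map_natCast, h1]

end Assembly

/-- `Geom.Stmt_LGCpt` gives the pointwise form `H12.Stmt_LGCpt`. -/
theorem lgcpt_bridge (hG : Fermat.Agent.S59.CaseC.Geom.Stmt_LGCpt) : Stmt_LGCpt := by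
  intro 𝒪 _ _ _ _ _ _ p hpF hp2 hp𝒪 N _ _ S hpS hNS hpN θ H hπ hdet hirr P hP ℒ g hg z hz πx
  obtain ⟨O', iCR, iD, iDVR, iAC, iFin, iCZ, iAlg, iMF, iLH, xt, hO'inj, hxt, hroot⟩ :=
    lgc_at_point 𝒪 hG p hp2 hp𝒪 N S hpS hNS hpN θ H hdet P hP ℒ g hg z hz πx
  refine ⟨FractionRing O', inferInstance, inferInstance,
    (algebraMap O' (FractionRing O')).comp (algebraMap 𝒪 O'),
    (algebraMap O' (FractionRing O')).comp xt, Or.inl ?_⟩
  have h1 := congrArg (algebraMap O' (FractionRing O')) hroot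
  simp only [map_add, map_sub, map_mul, map_pow, map_natCast, map_zero] at h1
  simp only [RingHom.comp_apply]
  linear_combination -h1

/-- **CP-NE** from `Geom.Stmt_LGCpt` (LGC-pt in helper53's form). -/
theorem cpne_of_geom (hG : Fermat.Agent.S59.CaseC.Geom.Stmt_LGCpt) : Stmt_CPNE :=
  cpne_of (lgcpt_bridge hG)

end Fermat.Agent.S59.CaseC.H12

end
-- ==== END Fermat.Agent.S59.CaseC.H12_CPNEBridge

-- ==== BEGIN Fermat.Agent.S59.CaseC.H2_WireP
section

/-!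
# S59: the top wirings for the final interfaces (helper2)

* `mltnm_of_geom2 : Geom.Stmt_NMGEOM2 → Stmt_STEP → Stmt_BASE → Asm.Stmt_COND →
    Datum.Stmt_DATUM → Stmt_TWprimes → Asm.Stmt_ASM → Stmt_MLTnm`
  (the wiring of RT-NONMIN for helper61's `NonMin.Geom.Stmt_NMGEOM2`);
* `stmt_CWIREp : CaseC.Geom.Stmt_CWIREp` (the wiring of case C, pointwise form).
-/

set_option autoImplicit false
set_option linter.style.haveILetI false
set_option linter.unusedSectionVars false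
set_option linter.unusedVariables false
set_option maxHeartbeats 1000000

open Polynomial CuspForm CongruenceSubgroup ModularFormClass IsLocalRing

namespace Fermat.Agent.S59.CaseC.H2

open Fermat.Agent.S59 Fermat.Agent.S59.Asm Fermat.Agent.S59.NonMin

/-- `NonMin.Geom.Stmt_NMGEOM2` gives what the wiring of RT-NONMIN uses of `Stmt_NMGEOM`. -/
theorem mltnm_of_geom2 (hNM : Fermat.Agent.S59.NonMin.Geom.Stmt_NMGEOM2) (hSTEP : Stmt_STEP)
    (hBASE : Stmt_BASE) (hCOND : Asm.Stmt_COND)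
    (hDATUM : Fermat.Agent.S59.Datum.Stmt_DATUM)
    (hTWP : Stmt_TWprimes) (hASM : Asm.Stmt_ASM) : Stmt_MLTnm := by
  intro 𝒪 _ _ _ _ _ _ p _ hp2 hp𝒪 fl ρbar Smin hyp hbar hnf N _ hN θ hθ x₀ hx₀ Sig hSig ρ hρ
    hres a hfrob
  have hpP : p.Prime := Fact.out
  haveI hI : Fact (CuspForm.HasIntegralStructure N 2) := ⟨Fermat.Agent.S23.result N⟩
  have hNS : ∀ q : ℕ, q.Prime → q ∣ N → q ∈ Smin := by
    intro q hq hqN
    rw [hN] at hqN
    exact Asm.H2.prime_dvd_minLevel hpP fl hyp.hS hyp.hpSmin hq hqN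
  have hsqf : Squarefree N := by
    rw [hN]
    exact Asm.H2.squarefree_minLevel hpP fl hyp.hS
  have hpNflat : p ∣ N → ¬ (GaloisRepAdic.ofResidualGaloisRep ρbar).IsFlatAt p := by
    intro hpN
    apply hnf
    cases hfl : fl with
    | false => rfl
    | true =>
      exfalso
      rw [hN, hfl] at hpN
      exact Asm.H2.not_dvd_minLevel_of_fl hpP hyp.hS hpN
  obtain ⟨M, G, hMnt, hG, hG₀, hGstep⟩ :=
    hNM 𝒪 p hp2 hp𝒪 ρbar Smin hyp N hNS hsqf hpNflat θ hθ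
  obtain ⟨s, hIs, x, d, -, hLev, -, -, hd, hRT⟩ :=
    rtall_of hSTEP hBASE hCOND hDATUM hTWP hASM 𝒪 p hp2 hp𝒪 fl ρbar Smin hyp hbar hnf N hN θ hθ
      x₀ hx₀ G M hMnt hG hG₀ hGstep Sig hSig
  haveI := hIs
  obtain ⟨-, D, H, φ, hφ, ηhat, πx, hHπ, hφbij, hφe, -, -, -, -⟩ := hRT
  have hmem : ∀ ℓ : ℕ, ℓ ∉ (↑s.S : Set ℕ) → ℓ ∉ Smin ∪ Sig := by
    intro ℓ hℓ h
    apply hℓ
    rw [Finset.mem_coe, hLev.hS]
    exact h
  have hmem' : ∀ ℓ : ℕ, ℓ ∉ Smin ∪ Sig → ℓ ∉ (↑s.S : Set ℕ) := by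
    intro ℓ hℓ h
    apply hℓ
    rw [Finset.mem_coe, hLev.hS] at h
    exact h
  obtain ⟨g, hg, hga⟩ := eigenform_of_RT D H φ hφbij.2 hφbij.1 hφ hφe ρ hρ hres a
    (fun ℓ hℓ hℓN hℓS A hA σ hσ => hfrob ℓ hℓ (hmem ℓ hℓS) A hA σ hσ)
  refine ⟨s.N, ?_, hLev.hcube, g, hg, fun ℓ hℓ hℓN hℓS => hga ℓ hℓ hℓN (hmem' ℓ hℓS)⟩
  cases hfl : fl with
  | false => exact (hLev.hso hfl).2
  | true =>
    intro h
    exact hLev.hfl hfl ((dvd_pow_self p (by norm_num : (2 : ℕ) ≠ 0)).trans h)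

/-- **CWIREp**: the wiring of case C, pointwise form. -/
theorem stmt_CWIREp : Fermat.Agent.S59.CaseC.Geom.Stmt_CWIREp := by
  intro hNMp hRTALL hSTEPP 𝒪 _ _ _ _ _ _ p _ hp2 hp𝒪 ρbar Smin hyp hbar hord N _ hN θ hθ x₀ hx₀
    Sig hSig ρ hρ hres a hfrob
  have hpP : p.Prime := Fact.out
  haveI hI : Fact (CuspForm.HasIntegralStructure N 2) := ⟨Fermat.Agent.S23.result N⟩
  have hNS : ∀ q : ℕ, q.Prime → q ∣ N → q ∈ Smin := by
    intro q hq hqN
    rw [hN] at hqN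
    exact Asm.H2.prime_dvd_minLevel hpP true hyp.hS hyp.hpSmin hq hqN
  have hsqf : Squarefree N := by
    rw [hN]
    exact Asm.H2.squarefree_minLevel hpP true hyp.hS
  have hpN : ¬ p ∣ N := by
    rw [hN]
    exact Asm.H2.not_dvd_minLevel_of_fl hpP hyp.hS
  have hnf : true = false → ¬ (GaloisRepAdic.ofResidualGaloisRep ρbar).IsFlatAt p :=
    fun h => absurd h (by decide)
  obtain ⟨M, G, hMnt, hG, hG₀, hGstep, hGp⟩ :=
    hNMp 𝒪 p hp2 hp𝒪 ρbar Smin hyp hbar hord N hNS hsqf hpN θ hθ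
  obtain ⟨s, hIs, x, d, hGs, hLev, hF, hx, hd, hRT⟩ := hRTALL 𝒪 p hp2 hp𝒪 true ρbar Smin hyp
    hbar hnf N hN θ hθ x₀ hx₀ G M hMnt hG hG₀ hGstep Sig hSig
  haveI := hIs
  have hpsN : ¬ p ∣ s.N := hLev.hfl rfl
  have hpS : p ∈ s.S := by
    rw [hLev.hS]
    exact Finset.mem_union_left _ hyp.hpSmin
  haveI : NeZero (s.N * p) := ⟨mul_ne_zero (NeZero.ne s.N) hpP.ne_zero⟩
  haveI hI' : Fact (CuspForm.HasIntegralStructure (s.N * p) 2) :=
    ⟨Fermat.Agent.S23.result (s.N * p)⟩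
  obtain ⟨g, hg, hga⟩ := hSTEPP 𝒪 p hp2 hp𝒪 ρbar Smin hyp hbar hord Sig s hLev hF x hx d hd hRT
    (hGp s hGs hpsN hpS) ρ hρ hres a hfrob
  obtain ⟨h1, h2⟩ := NonMin.H2.level_mul_p hpP hpsN hLev.hcube
  exact ⟨s.N * p, h1, h2, g, hg, hga⟩

end Fermat.Agent.S59.CaseC.H2

end
-- ==== END Fermat.Agent.S59.CaseC.H2_WireP

-- ==== BEGIN Fermat.Agent.S59.LGC.H54_Final
section

/-!
# S59, case C, LGC-p: `CaseC.Geom.Stmt_LGCpt`, unconditionally  (helper54)

Assembly of the leaves: (ES-p) `H54.stmt_TorsESp`, (FL) `H36.stmt_FLGenCoreK1`,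
(NUQ-a) `H38.hopfK1_of`, (NUQ-b) `H86.k1NoUnr_of_hopf`, (VEC) `H54.lgcpt0_of`,
(CONJ) `H5.lgcpt_of_padicPlace`.
-/

set_option autoImplicit false

namespace Fermat.Agent.S59.LGC.H54

/-- **(NUQ)**, unconditionally. -/
theorem stmt_K1NoUnr (N p : ℕ) [NeZero N] [Fact p.Prime] : Stmt_K1NoUnr N p :=
  Fermat.Agent.S59.LGC.H86.k1NoUnr_of_hopf
    (Fermat.Agent.S59.LGC.H38.hopfK1_of Fermat.Agent.S59.LGC.H36.stmt_FLGenCoreK1) N p

/-- **LGC at the place `padicPlace p`**, unconditionally. -/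
theorem stmt_LGCpt0 : Stmt_LGCpt0 :=
  lgcpt0_of (fun N p _ => stmt_TorsESp N p) (fun N p _ _ => stmt_K1NoUnr N p)

/-- **LGC-pt** (`S59.CaseC.Geom.Stmt_LGCpt`), unconditionally: the eigenvalue `z` of a Frobenius
element at `P ∣ p` on the unramified quotient `V / ℒ` satisfies `z² - a_p z + p = 0`. -/
theorem stmt_LGCpt : Fermat.Agent.S59.CaseC.Geom.Stmt_LGCpt :=
  Fermat.Agent.S59.LGC.H5.lgcpt_of_padicPlace stmt_LGCpt0

end Fermat.Agent.S59.LGC.H54

end
-- ==== END Fermat.Agent.S59.LGC.H54_Final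

-- ==== BEGIN Fermat.Agent.S59.LL.SQ.Defs
section
attribute [local instance 10000] SubalgebraClass.toAlgebra
attribute [local instance 10000] HahnSeries.powerSeriesAlgebra

/-!
# S59, package LL, piece SQ (coordinator helper58): interface of the geometric leaves

Target: `SQ.H40.Stmt_SqNew` (`S59/LL/SQ/H40_Step0.lean`, helper40), hence `LL.Stmt_SqQ`.
Plan: `NOTES/plan/S59_LL.md` §7 (SQ v3).

Level `N = M q²`, `q ∤ M`, `A` a valuation ring of `ℚ̄` over `q`, `I` its inertia group,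
`L₀ = L0 A N` the functions of level `N` with coefficients fixed by `I` (helper23), and the three
valuation rings `V₂₀`, `V₁₁`, `V₀₂` of `L₀` over `q` (`H23.V20o`, `H23.V11o`, `H23.V02o`) with
their residue maps `s₂₀`, `s₁₁`, `s₀₂` (values in `k((t))`, `k = kV A`).

* `IsKum n x h`   : `h ∈ L₀` is a Kummer function of the class `x` for the exponent `n`
                    (`x = [D]`, `n D = div h`);
* `IsUnit3 h`     : `h` is a unit for the three valuations;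
* `IsCPow3 n h`   : the three reductions of `h` are constants times `n`-th powers of reductions;
* `InG3 n x`      : the FINITE part: `x` has a Kummer function in `L₀` which is a unit for the
                    three valuations (trivial class in the group of components);
* `InT3 n x`      : the TORIC part: `x` has a Kummer function in `L₀` whose three reductions are
                    constants times `n`-th powers.

Leaves (per level; the point `x` is `q`-new, `p`-torsion, fixed by `I`):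
* `CompEisSqAt`   **(E)** an eigenvector which is not Eisenstein is in the finite part;
* `OldRedSqAt`    **(R)** an eigenvector of the finite part outside the toric part gives a class
                    `z` of level `M` with non-zero reduction killed by `p` and
                    `red (T_ℓ z) = t_ℓ red z` (the input of `S43.Old.liftEig_of`);
* `TorSqAt`       **(T)** a non-zero eigenvector of the toric part comes from level `M q`;
* `TorSpanSqAt`   **(T′)** a point of the toric part is `α^* y + β^* y'` with `y`, `y'` torsion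
                    points of level `M q` (gives **(T)** by `H40.eig_of_pull_span`).

Wiring: `torSqAt_of_span`, `hasSqNewPartAt_of`, `sqNew_of_leaves`,
`sqQ_of_leaves : HRcore → (E) → (R) → (T) → LL.Stmt_SqQ`, `sqQ_of_leaves' ` with **(T′)**.
-/

set_option autoImplicit false
set_option synthInstance.maxHeartbeats 400000
set_option maxHeartbeats 1000000
set_option linter.unusedSectionVars false
set_option linter.unusedVariables false
set_option linter.style.haveILetI false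

noncomputable section

open ModularCurve AlgebraicCurve
open Fermat.Agent.S24 Fermat.Agent.S28 Fermat.Agent.S28.H73 Fermat.Agent.RED.H73
open Fermat.Agent.RED Fermat.Agent.S36.NU.H23 Fermat.Agent.S44 Fermat.Agent.S35.H89

namespace Fermat.Agent.S59.LL.SQ

section Defs

variable (A : ValuationSubring Kbar) (q M : ℕ) (B k : ℤ) (hB : B * M + k * q = 1) (hq : q.Prime)
  [NeZero M] [NeZero q] [NeZero (M * q)] [NeZero (M * q * q)]

/-- `h` is a **Kummer function** of the class `x` for the exponent `n`, with coefficients fixed by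
the inertia group of `A`. -/
def IsKum (n : ℕ) (x : JZero (M * q * q)) (h : ↥(L0 A (M * q * q))) : Prop :=
  ∃ D : Divisor.degZero (K := Kbar) (F := ↥(modularFunctionFieldBar (M * q * q))),
    x = Pic0.mk D ∧
    ∀ P : Place Kbar ↥(modularFunctionFieldBar (M * q * q)),
      (n : ℤ) * (D : Divisor Kbar ↥(modularFunctionFieldBar (M * q * q))) P
        = P.ord ((h : FN (M * q * q)))

/-- `h` is a **unit for the three valuations** `V₂₀`, `V₁₁`, `V₀₂`. -/
def IsUnit3 (h : ↥(L0 A (M * q * q))) : Prop :=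
  (∃ h20 : h ∈ V20o A q M, s20 A q M ⟨h, h20⟩ ≠ 0) ∧
  (∃ h11 : h ∈ V11o A q M B k hB hq, s11 A q M B k hB hq ⟨h, h11⟩ ≠ 0) ∧
  (∃ h02 : h ∈ V02o A q M B k hB, s02 A q M B k hB ⟨h, h02⟩ ≠ 0)

/-- The three reductions of `h` are **constants times `n`-th powers** (of reductions of functions
of `L₀`; in particular `h` is a unit for the three valuations). -/
def IsCPow3 (n : ℕ) (h : ↥(L0 A (M * q * q))) : Prop :=
  (∃ (h20 : h ∈ V20o A q M) (c : kV A) (g : ↥(V20o A q M)), c ≠ 0 ∧ s20 A q M g ≠ 0 ∧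
    s20 A q M ⟨h, h20⟩ = algebraMap (kV A) (LaurentSeries (kV A)) c * s20 A q M g ^ n) ∧
  (∃ (h11 : h ∈ V11o A q M B k hB hq) (c : kV A) (g : ↥(V11o A q M B k hB hq)), c ≠ 0 ∧
    s11 A q M B k hB hq g ≠ 0 ∧
    s11 A q M B k hB hq ⟨h, h11⟩
      = algebraMap (kV A) (LaurentSeries (kV A)) c * s11 A q M B k hB hq g ^ n) ∧
  (∃ (h02 : h ∈ V02o A q M B k hB) (c : kV A) (g : ↥(V02o A q M B k hB)), c ≠ 0 ∧
    s02 A q M B k hB g ≠ 0 ∧
    s02 A q M B k hB ⟨h, h02⟩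
      = algebraMap (kV A) (LaurentSeries (kV A)) c * s02 A q M B k hB g ^ n)

/-- **The finite part** `G₃` (exponent `n`). -/
def InG3 (n : ℕ) (x : JZero (M * q * q)) : Prop :=
  ∃ h : ↥(L0 A (M * q * q)), IsKum A q M n x h ∧ IsUnit3 A q M B k hB hq h

/-- **The toric part** `T₃` (exponent `n`). -/
def InT3 (n : ℕ) (x : JZero (M * q * q)) : Prop :=
  ∃ h : ↥(L0 A (M * q * q)), IsKum A q M n x h ∧ IsCPow3 A q M B k hB hq n h

theorem IsCPow3.isUnit3 {n : ℕ} {h : ↥(L0 A (M * q * q))}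
    (H : IsCPow3 A q M B k hB hq n h) : IsUnit3 A q M B k hB hq h := by
  obtain ⟨⟨h20, c, g, hc, hg, e⟩, ⟨h11, c', g', hc', hg', e'⟩, ⟨h02, c'', g'', hc'', hg'', e''⟩⟩ := H
  refine ⟨⟨h20, ?_⟩, ⟨h11, ?_⟩, ⟨h02, ?_⟩⟩
  · rw [e]
    exact mul_ne_zero ((map_ne_zero _).2 hc) (pow_ne_zero _ hg)
  · rw [e']
    exact mul_ne_zero ((map_ne_zero _).2 hc') (pow_ne_zero _ hg')
  · rw [e'']
    exact mul_ne_zero ((map_ne_zero _).2 hc'') (pow_ne_zero _ hg'')

theorem InT3.inG3 {n : ℕ} {x : JZero (M * q * q)} (H : InT3 A q M B k hB hq n x) :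
    InG3 A q M B k hB hq n x := by
  obtain ⟨h, h1, h2⟩ := H
  exact ⟨h, h1, h2.isUnit3⟩

/-! ## The leaves, per level -/

/-- **(E) COMP-EIS at `q²`.**  A `q`-new inertia-fixed common eigenvector of the Hecke operators in
`J₀(M q²)[p]` which is not Eisenstein lies in the finite part. -/
def CompEisSqAt (p : ℕ) : Prop :=
  ∀ (S : Finset ℕ) (t : ℕ → ℤ) (x : JZero (M * q * q)), (p : ℤ) • x = 0 →
    IsQNew (M * q) q x →
    (∀ σ ∈ A.inertiaSubgroupIn ℚ, σ • x = x) →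
    (∀ ℓ : Nat.Primes, (ℓ : ℕ) ∉ S → ¬ (ℓ : ℕ) ∣ M * q * q → (ℓ : ℕ) ≠ p →
      heckeOperatorBar (M * q * q) ℓ x = t ℓ • x) →
    (∃ ℓ : ℕ, ℓ.Prime ∧ ℓ ∉ S ∧ ¬ ℓ ∣ M * q * q ∧ ℓ ≠ p ∧
      ((t ℓ : ℤ) : ZMod p) ≠ 1 + (ℓ : ZMod p)) →
    InG3 A q M B k hB hq p x

/-- **(R) OLD-RED at `q²`.**  A `q`-new inertia-fixed common eigenvector in the finite part,
outside the toric part, gives a class `z` of level `M` whose reduction is a non-zero class killed
by `p` with `red (T_ℓ z) = t_ℓ red z` (the class of `div (s_i h) / p` on one of the three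
components; for a `q`-new point only the component `11` can occur, and only if `p ∣ q - 1`). -/
def OldRedSqAt (p : ℕ) : Prop :=
  ∀ (r : Place Kbar ↥(modularFunctionFieldBar M) →
      Place (kV A) ↥(redField A (modularFunctionFieldBar M) (hasScale_laurentBaseChange A M)))
    (hr : IsRed A (hasScale_laurentBaseChange A M) r),
    HasMove A (hasScale_laurentBaseChange A M) r →
  ∀ (S : Finset ℕ) (t : ℕ → ℤ) (x : JZero (M * q * q)), (p : ℤ) • x = 0 →
    IsQNew (M * q) q x →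
    (∀ σ ∈ A.inertiaSubgroupIn ℚ, σ • x = x) →
    InG3 A q M B k hB hq p x → ¬ InT3 A q M B k hB hq p x →
    (∀ ℓ : Nat.Primes, (ℓ : ℕ) ∉ S → ¬ (ℓ : ℕ) ∣ M * q * q → (ℓ : ℕ) ≠ p →
      heckeOperatorBar (M * q * q) ℓ x = t ℓ • x) →
    ∃ z : JZero M,
      H36.redPic A (hasScale_laurentBaseChange A M) hr z ≠ 0 ∧
      (p : ℤ) • H36.redPic A (hasScale_laurentBaseChange A M) hr z = 0 ∧
      ∀ ℓ : Nat.Primes, (ℓ : ℕ) ∉ S → ¬ (ℓ : ℕ) ∣ M * q * q → (ℓ : ℕ) ≠ p →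
        H36.redPic A (hasScale_laurentBaseChange A M) hr (heckeOperatorBar M ℓ z)
          = t ℓ • H36.redPic A (hasScale_laurentBaseChange A M) hr z

/-- **(T) TOR at `q²`.**  A non-zero `q`-new inertia-fixed common eigenvector in the toric part
of `J₀(M q²)[p]` comes from level `M q`. -/
def TorSqAt (p : ℕ) : Prop :=
  ∀ (S : Finset ℕ) (t : ℕ → ℤ) (x : JZero (M * q * q)), x ≠ 0 → (p : ℤ) • x = 0 →
    IsQNew (M * q) q x →
    (∀ σ ∈ A.inertiaSubgroupIn ℚ, σ • x = x) →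
    InT3 A q M B k hB hq p x →
    (∀ ℓ : Nat.Primes, (ℓ : ℕ) ∉ S → ¬ (ℓ : ℕ) ∣ M * q * q → (ℓ : ℕ) ≠ p →
      heckeOperatorBar (M * q * q) ℓ x = t ℓ • x) →
    ∃ (g : CuspForm (CongruenceSubgroup.Gamma0 (M * q)) 2) (𝔪 : Ideal (integralClosure ℤ ℂ)),
      g.IsNormalizedEigenform ∧ 𝔪.IsMaximal ∧ (p : integralClosure ℤ ℂ) ∈ 𝔪 ∧
      ∀ ℓ : ℕ, ℓ.Prime → ℓ ∉ S → ¬ ℓ ∣ M * q * q → ℓ ≠ p →
        ∃ a : integralClosure ℤ ℂ, (a : ℂ) = ModularFormClass.qCoeff g ℓ ∧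
          a - ((t ℓ : ℤ) : integralClosure ℤ ℂ) ∈ 𝔪

/-- **(T′) TOR-SPAN at `q²`.**  A non-zero `q`-new inertia-fixed point of the toric part of
`J₀(M q²)[p]` is `α^* y + β^* y'` with torsion points `y`, `y'` of level `M q` (of any order). -/
def TorSpanSqAt (p : ℕ) : Prop :=
  ∀ (x : JZero (M * q * q)), x ≠ 0 → (p : ℤ) • x = 0 →
    IsQNew (M * q) q x →
    (∀ σ ∈ A.inertiaSubgroupIn ℚ, σ • x = x) →
    InT3 A q M B k hB hq p x →
    ∃ (y y' : JZero (M * q)) (n n' : ℕ), n ≠ 0 ∧ n' ≠ 0 ∧ n • y = 0 ∧ n' • y' = 0 ∧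
      x = H40.alphaPull (M * q) q y + H40.betaPull (M * q) q y'

theorem torSqAt_of_span {p : ℕ} (hp : p.Prime) (h : TorSpanSqAt A q M B k hB hq p) :
    TorSqAt A q M B k hB hq p := by
  intro S t x hx0 hxp hnew hI hT3 hxT
  obtain ⟨y, y', n, n', hn, hn', hy, hy', hx⟩ := h x hx0 hxp hnew hI hT3
  exact H40.eig_of_pull_span p hp (M * q) q S t x hx0 hxp hxT y y' n n' hn hn' hy hy' hx

end Defs

/-! ## The leaves -/

/-- **(E)** at all levels `M q²`, `q ∤ M`, `p ≠ q` odd. -/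
def Stmt_CompEisSq : Prop :=
  ∀ (p : ℕ), p.Prime → p ≠ 2 → ∀ (q M : ℕ) (B k : ℤ) (hB : B * M + k * q = 1) (hq : q.Prime)
    [NeZero M] [NeZero q] [NeZero (M * q)] [NeZero (M * q * q)], q ≠ p → ¬ q ∣ M →
    ∀ A : ValuationSubring Kbar, A.LiesOverPrime q → CompEisSqAt A q M B k hB hq p

/-- **(R)** at all levels `M q²`, `q ∤ M`, `p ≠ q` odd. -/
def Stmt_OldRedSq : Prop :=
  ∀ (p : ℕ), p.Prime → p ≠ 2 → ∀ (q M : ℕ) (B k : ℤ) (hB : B * M + k * q = 1) (hq : q.Prime)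
    [NeZero M] [NeZero q] [NeZero (M * q)] [NeZero (M * q * q)], q ≠ p → ¬ q ∣ M →
    ∀ A : ValuationSubring Kbar, A.LiesOverPrime q → OldRedSqAt A q M B k hB hq p

/-- **(T)** at all levels `M q²`, `q ∤ M`, `p ≠ q` odd. -/
def Stmt_TorSq : Prop :=
  ∀ (p : ℕ), p.Prime → p ≠ 2 → ∀ (q M : ℕ) (B k : ℤ) (hB : B * M + k * q = 1) (hq : q.Prime)
    [NeZero M] [NeZero q] [NeZero (M * q)] [NeZero (M * q * q)], q ≠ p → ¬ q ∣ M →
    ∀ A : ValuationSubring Kbar, A.LiesOverPrime q → TorSqAt A q M B k hB hq p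

/-- **(T′)** at all levels `M q²`, `q ∤ M`, `p ≠ q` odd. -/
def Stmt_TorSpanSq : Prop :=
  ∀ (p : ℕ), p.Prime → p ≠ 2 → ∀ (q M : ℕ) (B k : ℤ) (hB : B * M + k * q = 1) (hq : q.Prime)
    [NeZero M] [NeZero q] [NeZero (M * q)] [NeZero (M * q * q)], q ≠ p → ¬ q ∣ M →
    ∀ A : ValuationSubring Kbar, A.LiesOverPrime q → TorSpanSqAt A q M B k hB hq p

theorem torSq_of_span (h : Stmt_TorSpanSq) : Stmt_TorSq := by
  intro p hp hp2 q M B k hB hq _ _ _ _ hqp hqM A hA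
  exact torSqAt_of_span A q M B k hB hq hp (h p hp hp2 q M B k hB hq hqp hqM A hA)

/-! ## The wiring -/

/-- **The assembly at one level**: `(E)`, `(R)`, `(T)` and the stability of the kernel of the
reduction under the Hecke operators (`HRcore`) give "BAD at `q²`" for the `q`-new points of
`J₀(M q²)[p]`. -/
theorem hasSqNewPartAt_of (hcore : H51.Stmt_HRcore) (p : ℕ) (hp : p.Prime)
    (q M : ℕ) (B k : ℤ) (hB : B * M + k * q = 1) (hq : q.Prime)
    [NeZero M] [NeZero q] [NeZero (M * q)] [NeZero (M * q * q)] (hqM : ¬ q ∣ M)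
    (A : ValuationSubring Kbar) (hA : A.LiesOverPrime q)
    (hE : CompEisSqAt A q M B k hB hq p) (hR : OldRedSqAt A q M B k hB hq p)
    (hT : TorSqAt A q M B k hB hq p) :
    H40.HasSqNewPartAt p (M * q) q A := by
  classical
  intro S t x hx0 hxp hnew hI hxT hNE
  have hG := hE S t x hxp hnew hI hxT hNE
  by_cases hT3 : InT3 A q M B k hB hq p x
  · exact hT S t x hx0 hxp hnew hI hT3 hxT
  · obtain ⟨r, hr, hmove⟩ := H36.stmt_RM M q hq hqM A hA
    obtain ⟨z, hz0, hzp, hzT⟩ := hR r hr hmove S t x hxp hnew hI hG hT3 hxT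
    set S' : Finset ℕ := insert p (insert q S) with hS'
    have hS'1 : ∀ ℓ : ℕ, ℓ ∉ S' → ℓ ∉ S ∧ ℓ ≠ p ∧ ℓ ≠ q := by
      intro ℓ hℓ
      rw [hS', Finset.mem_insert, Finset.mem_insert] at hℓ
      push Not at hℓ
      exact ⟨hℓ.2.2, hℓ.1, hℓ.2.1⟩
    have hdvd : ∀ ℓ : ℕ, ℓ.Prime → ℓ ≠ q → ¬ ℓ ∣ M → ¬ ℓ ∣ M * q * q := by
      intro ℓ hℓ hℓq hℓM h
      rcases (Nat.Prime.dvd_mul hℓ).1 h with h | h
      · rcases (Nat.Prime.dvd_mul hℓ).1 h with h | h
        · exact hℓM h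
        · exact hℓq ((Nat.prime_dvd_prime_iff_eq hℓ hq).1 h)
      · exact hℓq ((Nat.prime_dvd_prime_iff_eq hℓ hq).1 h)
    obtain ⟨g₀, 𝔪, hg₀, h𝔪, hp𝔪, hc⟩ := Fermat.Agent.S43.Old.liftEig_of hcore p hp M q hq hqM A hA
      r hr hmove S' t z hz0 hzp (by
        intro ℓ hℓS' hℓM
        obtain ⟨hℓS, hℓp, hℓq⟩ := hS'1 ℓ hℓS'
        exact hzT ℓ hℓS (hdvd ℓ ℓ.2 hℓq hℓM) hℓp)
    obtain ⟨g, hg, hgc⟩ := Fermat.Agent.S59.H61.stmt_Stab M q hq hqM g₀ hg₀
    refine ⟨g, 𝔪, hg, h𝔪, hp𝔪, fun ℓ hℓ hℓS hℓN hℓp => ?_⟩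
    have hℓq : ℓ ≠ q := by
      rintro rfl
      exact hℓN (dvd_mul_left _ _)
    have hℓM : ¬ ℓ ∣ M := fun h => hℓN ((h.mul_right q).mul_right q)
    obtain ⟨a, ha, hac⟩ := hc ℓ hℓ (by
      rw [hS', Finset.mem_insert, Finset.mem_insert]
      push Not
      exact ⟨hℓp, hℓq, hℓS⟩) hℓM
    exact ⟨a, by rw [ha, hgc ℓ hℓ hℓq], hac⟩

/-- **`Stmt_SqNew` from the three leaves** and `HRcore`. -/
theorem sqNew_of_leaves (hcore : H51.Stmt_HRcore) (hE : Stmt_CompEisSq) (hR : Stmt_OldRedSq)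
    (hT : Stmt_TorSq) : H40.Stmt_SqNew := by
  intro p hp hp2 M q _ _ hq hqp hqM hq2M A hA
  obtain ⟨M', rfl⟩ : ∃ M', M = M' * q := ⟨M / q, (Nat.div_mul_cancel hqM).symm⟩
  have hqM' : ¬ q ∣ M' := by
    rintro ⟨c, rfl⟩
    exact hq2M ⟨c, by ring⟩
  have hM'0 : M' ≠ 0 := by
    rintro rfl
    exact hqM' (dvd_zero q)
  haveI : NeZero M' := ⟨hM'0⟩
  haveI : NeZero (M' * q * q) := ⟨mul_ne_zero (mul_ne_zero hM'0 hq.ne_zero) hq.ne_zero⟩
  have hcop : IsCoprime (M' : ℤ) (q : ℤ) :=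
    Nat.isCoprime_iff_coprime.2 ((Nat.Prime.coprime_iff_not_dvd hq).2 hqM').symm
  obtain ⟨B, k, hB⟩ := hcop
  exact hasSqNewPartAt_of hcore p hp q M' B k hB hq hqM' A hA
    (hE p hp hp2 q M' B k hB hq hqp hqM' A hA) (hR p hp hp2 q M' B k hB hq hqp hqM' A hA)
    (hT p hp hp2 q M' B k hB hq hqp hqM' A hA)

/-- **The package SQ from the three leaves** and `HRcore`. -/
theorem sqQ_of_leaves (hcore : H51.Stmt_HRcore) (hE : Stmt_CompEisSq) (hR : Stmt_OldRedSq)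
    (hT : Stmt_TorSq) : Stmt_SqQ :=
  H40.sqQ_of_new (sqNew_of_leaves hcore hE hR hT)

/-- **The package SQ from `(E)`, `(R)`, `(T′)`** and `HRcore`. -/
theorem sqQ_of_leaves' (hcore : H51.Stmt_HRcore) (hE : Stmt_CompEisSq) (hR : Stmt_OldRedSq)
    (hT : Stmt_TorSpanSq) : Stmt_SqQ :=
  sqQ_of_leaves hcore hE hR (torSq_of_span hT)

end Fermat.Agent.S59.LL.SQ

end
end
-- ==== END Fermat.Agent.S59.LL.SQ.Defs

-- ==== BEGIN Fermat.Agent.S59.LL.SQ.H56_StRankCConst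
section

/-!
# S59 / LL / SQ, ST-RANK (c), input M3 CONST (helper56)

`A` over the prime `q`, level `M q`, `I = A.inertiaSubgroupIn ℚ`, `S` a semistable Deuring datum
of `F_{M q} · ℚ̄` whose first valuation ring is `V1 A q M` (for `S43.H91.modSSD`: `modSSD_c₁_V`,
`rfl`).  `S.IsCU c` : the constant `c` is a unit (`BAD.SSD.IsCU`).

* `isCU_of_mem` : a unit of `A` is a unit constant;
* `m3a` : `σ a / a` is a unit constant for `σ ∈ I`, `a ≠ 0`;
* `m3b` : an `I`-fixed constant `Y ≠ 0` is `q ^ m` times a unit constant;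
* `m3c` : `q ^ m` is a unit constant only for `m = 0`.

This file contains no unproved statement.
-/

set_option autoImplicit false
set_option linter.style.haveILetI false
set_option linter.unusedSectionVars false
set_option synthInstance.maxHeartbeats 400000
set_option maxHeartbeats 1000000

noncomputable section

open ModularCurve AlgebraicCurve
open Fermat.Agent.S24 Fermat.Agent.BAD.H88 Fermat.Agent.S28 Fermat.Agent.S28.H73
open Fermat.Agent.RED.H73 Fermat.Agent.RED.H17 Fermat.Agent.S36.NU.H88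
open Fermat.Agent.S36.NU.H23 Fermat.Agent.BAD Fermat.Agent.S36.NU.H82
open Fermat.Agent.S36.NU.H51

attribute [local instance] Classical.propDecidable

namespace Fermat.Agent.S59.LL.SQ.H56

section Abs

variable {K F k F' : Type*} [Field K] [Field F] [Algebra K F] [Field k] [Field F']
  [Algebra k F']

/-- A function which is integral with integral inverse is a unit. -/
theorem isGU_of_mem_of_inv_mem (c : PRed K F k F') {f : F} (hf : f ∈ c.V) (hf' : f⁻¹ ∈ c.V)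
    (hf0 : f ≠ 0) : c.IsGU f := by
  rw [c.isGU_iff_isUnit hf]
  exact isUnit_iff_exists_inv.2 ⟨⟨f⁻¹, hf'⟩, Subtype.ext (mul_inv_cancel₀ hf0)⟩

end Abs

section Mod

variable (A : ValuationSubring Kbar) (q M : ℕ) [NeZero (M * q)]
  {k F₁ F₂ : Type} [Field k] [Field F₁] [Algebra k F₁] [Field F₂] [Algebra k F₂]
  (S : SSD Kbar (FN (M * q)) k F₁ F₂) (hV₁ : S.c₁.V = V1 A q M)

include hV₁ in
/-- A unit of `A` is a unit constant. -/
theorem isCU_of_mem {c : Kbar} (hc : c ∈ A) (hc' : c⁻¹ ∈ A) (hc0 : c ≠ 0) : S.IsCU c := by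
  have h1 : algebraMap Kbar (FN (M * q)) c ∈ S.c₁.V := by
    rw [hV₁]
    exact (const_mem1 A q M c).2 hc
  have h2 : (algebraMap Kbar (FN (M * q)) c)⁻¹ ∈ S.c₁.V := by
    rw [hV₁, ← map_inv₀]
    exact (const_mem1 A q M c⁻¹).2 hc'
  exact isGU_of_mem_of_inv_mem S.c₁ h1 h2
    ((map_ne_zero_iff _ (algebraMap Kbar (FN (M * q))).injective).mpr hc0)

include hV₁ in
/-- A constant of valuation `1` is a unit constant. -/
theorem isCU_of_val_eq_one {c : Kbar} (hc : A.valuation c = 1) : S.IsCU c := by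
  have hc0 : c ≠ 0 := by
    rintro rfl
    rw [map_zero] at hc
    exact zero_ne_one hc
  have h2 : A.valuation c⁻¹ = 1 := by rw [map_inv₀, hc, inv_one]
  exact isCU_of_mem A q M S hV₁ ((A.valuation_le_one_iff _).mp hc.le)
    ((A.valuation_le_one_iff _).mp h2.le) hc0

include hV₁ in
/-- **M3a**: `σ a / a` is a unit constant for `σ` in the inertia group. -/
theorem m3a (σ : Kbar ≃ₐ[ℚ] Kbar) (hσ : σ ∈ A.inertiaSubgroupIn ℚ) (a : Kbar) (ha : a ≠ 0) :
    S.IsCU (σ a / a) := by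
  haveI : Algebra.IsAlgebraic ℚ Kbar := AlgebraicClosure.isAlgebraic ℚ
  have hdec := Fermat.Agent.S05.H37.mem_decomposition_of_mem_inertiaIn A hσ
  have hv := Fermat.Agent.S05.H37.valuation_apply_eq_of_mem_decomposition A hdec a
  refine isCU_of_val_eq_one A q M S hV₁ ?_
  rw [map_div₀, hv]
  exact div_self ((map_ne_zero _).mpr ha)

include hV₁ in
/-- **M3b**: an inertia-fixed constant is `q ^ m` times a unit constant. -/
theorem m3b (hq : q.Prime) (hA : A.LiesOverPrime q) (Y : Kbar) (hY : Y ≠ 0)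
    (hfix : ∀ σ ∈ A.inertiaSubgroupIn ℚ, σ Y = Y) :
    ∃ m : ℤ, S.IsCU (Y / (q : Kbar) ^ m) := by
  obtain ⟨m, hm⟩ := valuation_Kur A hq hA Y hfix hY
  refine ⟨m, isCU_of_val_eq_one A q M S hV₁ ?_⟩
  have hq0 : (q : Kbar) ≠ 0 := Nat.cast_ne_zero.2 hq.ne_zero
  rw [map_div₀, map_zpow₀, hm]
  exact div_self (zpow_ne_zero _ ((map_ne_zero _).mpr hq0))

end Mod

section Mod2

variable (A : ValuationSubring Kbar) (q M : ℕ) (a b : ℤ) (hab : a * q + b * M = 1)
  (hq : q.Prime) [NeZero (M * q)] (hA : A.LiesOverPrime q)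
  {k F₁ F₂ : Type} [Field k] [Field F₁] [Algebra k F₁] [Field F₂] [Algebra k F₂]
  (S : SSD Kbar (FN (M * q)) k F₁ F₂)
  (hV₁ : S.c₁.V = V1 A q M) (hV₂ : S.c₂.V = V2 A q M a b hab hq)

include hq hA hV₁ hV₂ in
/-- **M3c**: `q ^ m` is a unit constant only for `m = 0`. -/
theorem m3c (m : ℤ) (h : S.IsCU ((q : Kbar) ^ m)) : m = 0 := by
  have h1 : S.c₁.IsGU (algebraMap Kbar (FN (M * q)) ((q : Kbar) ^ m)) := h
  rw [map_zpow₀] at h1
  exact isGU_zpow_q_imp₁ A q M a b hab hq hA S hV₁ hV₂ m h1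

end Mod2

end Fermat.Agent.S59.LL.SQ.H56

end

end
-- ==== END Fermat.Agent.S59.LL.SQ.H56_StRankCConst

-- ==== BEGIN Fermat.Agent.S59.LL.SQ.H89_GenLowAt
section
attribute [local instance 10000] SubalgebraClass.toAlgebra
attribute [local instance 10000] HahnSeries.powerSeriesAlgebra

/-!
# S59 / LL / SQ, step (T'), wiring of GENLOW (helper89): `GenLowAt` from G2 + G5 (i) + G4

* `dvd_ord_map` : if all orders of `g` are divisible by `n`, so are those of `φ g`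
  (`ord_w (φ g) = e_w · ord_{w | F} g`);
* `genLowA_of_gen`, `genLowB_of_gen` (abstract on `NUData`): local generators at the triple
  points for the units of the higher level with divisor divisible by `n` (G2, GEN-MOD), the
  pull-back table (G4) and helper92's descent along the norm (G5 (i), with its two inputs `hN`,
  `hmem`) give local generators in `L₀'` at the nodes `zα z`, `zβ z`;
* `genLowAtA_mod`, `genLowAtB_mod` : the modular instances, `D = nuMod`, `pα = inclL0 ..`,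
  `pβ = bL0 ..` (helper86's `pullTable_mod`): `H89LG.GenLowAt .. (zA ..) n`,
  `H89LG.GenLowAt .. (zB ..) n`.
-/

set_option autoImplicit false
set_option synthInstance.maxHeartbeats 400000
set_option maxHeartbeats 1000000
set_option linter.style.haveILetI false
set_option linter.unusedSectionVars false

noncomputable section

open AlgebraicCurve

attribute [local instance] Classical.propDecidable

namespace Fermat.Agent.S59.LL.SQ.H89LG

open Fermat.Agent.RED.H17 Fermat.Agent.RED Fermat.Agent.BAD.H79 Fermat.Agent.BAD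
  Fermat.Agent.S36.NU.H79 Fermat.Agent.S59.LL.SQ.H40 Fermat.Agent.S59.LL.SQ.H86

/-! ## Orders of a pull-back -/

section Ord

variable {K F F' : Type*} [Field K] [Field F] [Field F'] [Algebra K F] [Algebra K F']

/-- If all orders of `g` are divisible by `n`, so are those of `φ g`. -/
theorem dvd_ord_map (φ : F →ₐ[K] F') (hint : φ.toRingHom.IsIntegral) {n : ℕ} {g : F}
    (h : ∀ Q : Place K F, (n : ℤ) ∣ Q.ord g) (P : Place K F') : (n : ℤ) ∣ P.ord (φ g) := by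
  letI := algebraAlong φ
  haveI := isScalarTower_along φ
  haveI := isIntegral_along φ hint
  have e : φ g = algebraMap F F' g := rfl
  rw [e, P.ord_restrict g]
  exact Dvd.dvd.mul_left (h _) _

end Ord

/-! ## The abstract wiring -/

section Abs

variable {K L₀ L k ι Z : Type*} {E : ι → Type*} {K' L' L₁ L₂ : Type*}
  [Field K] [Field L₀] [Field L] [Algebra K L] [Algebra L₀ L] [Field k] [Fintype ι]
  [∀ i, Field (E i)] [∀ i, Algebra k (E i)] [Field K'] [Field L'] [Algebra K' L']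
  [Field L₁] [Algebra k L₁] [Field L₂] [Algebra k L₂]
  {L₀' : Type*} [Field L₀'] [Algebra L₀' L']

variable (D : NUData K L₀ L k ι Z E K' L' L₁ L₂)

/-- **GENLOW along `α`** from GEN-MOD, the pull-back table and the descent along the norm. -/
theorem genLowA_of_gen {pα pβ : L₀' →+* L₀} (PT : PullTable D pα pβ)
    (hN : ∀ g : L₀', D.Nα (pα g) = algebraMap L₀' L' g ^ D.q)
    (hmem : ∀ h : L₀, ∃ t : L₀', algebraMap L₀' L' t = D.Nα h)
    {n : ℕ} (hcop : Nat.Coprime D.q n)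
    (hgen : ∀ H : L₀, (∀ i, D.T.rdN i H ≠ 0) →
      (∀ P : Place K L, (n : ℤ) ∣ P.ord (algebraMap L₀ L H)) → ∀ z ∈ D.SS, ∃ s, D.IsGen n z H s)
    (hdiv : ∀ g : L₀', (∀ Q : Place K' L', (n : ℤ) ∣ Q.ord (algebraMap L₀' L' g)) →
      ∀ P : Place K L, (n : ℤ) ∣ P.ord (algebraMap L₀ L (pα g)))
    (f : L₀') (hf₁ : D.T'.p₁.rd (algebraMap L₀' L' f) ≠ 0)
    (hf₂ : D.T'.p₂.rd (algebraMap L₀' L' f) ≠ 0)
    (hfd : ∀ Q : Place K' L', (n : ℤ) ∣ Q.ord (algebraMap L₀' L' f)) (z : Z) (hz : z ∈ D.SS) :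
    ∃ s : L₀', IsGenLow D n (D.zα z) f s := by
  have hu : ∀ i, D.T.rdN i (pα f) ≠ 0 := by
    intro i
    rcases D.cases i with rfl | rfl | rfl
    · rw [PT.α₂₀ f hf₁]
      exact (map_ne_zero D.A₂₀.j).2 hf₁
    · rw [PT.α₁₁ f hf₁]
      exact (map_ne_zero D.A₁₁.j).2 hf₁
    · rw [PT.α₀₂ f hf₂]
      exact (map_ne_zero D.A₀₂.j).2 hf₂
  obtain ⟨s', hs'⟩ := hgen (pα f) hu (hdiv f hfd) z hz
  exact Fermat.Agent.S59.LL.SQ.H92.isGenLow_of_pullA hN hmem hcop hz hf₁ hf₂ hs'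

/-- **GENLOW along `β`** from GEN-MOD, the pull-back table and the descent along the norm. -/
theorem genLowB_of_gen {pα pβ : L₀' →+* L₀} (PT : PullTable D pα pβ)
    (hN : ∀ g : L₀', D.Nβ (pβ g) = algebraMap L₀' L' g ^ D.q)
    (hmem : ∀ h : L₀, ∃ t : L₀', algebraMap L₀' L' t = D.Nβ h)
    {n : ℕ} (hcop : Nat.Coprime D.q n)
    (hgen : ∀ H : L₀, (∀ i, D.T.rdN i H ≠ 0) →
      (∀ P : Place K L, (n : ℤ) ∣ P.ord (algebraMap L₀ L H)) → ∀ z ∈ D.SS, ∃ s, D.IsGen n z H s)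
    (hdiv : ∀ g : L₀', (∀ Q : Place K' L', (n : ℤ) ∣ Q.ord (algebraMap L₀' L' g)) →
      ∀ P : Place K L, (n : ℤ) ∣ P.ord (algebraMap L₀ L (pβ g)))
    (f : L₀') (hf₁ : D.T'.p₁.rd (algebraMap L₀' L' f) ≠ 0)
    (hf₂ : D.T'.p₂.rd (algebraMap L₀' L' f) ≠ 0)
    (hfd : ∀ Q : Place K' L', (n : ℤ) ∣ Q.ord (algebraMap L₀' L' f)) (z : Z) (hz : z ∈ D.SS) :
    ∃ s : L₀', IsGenLow D n (D.zβ z) f s := by
  have hu : ∀ i, D.T.rdN i (pβ f) ≠ 0 := by
    intro i
    rcases D.cases i with rfl | rfl | rfl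
    · rw [PT.β₂₀ f hf₁]
      exact (map_ne_zero D.B₂₀.j).2 hf₁
    · rw [PT.β₁₁ f hf₂]
      exact (map_ne_zero D.B₁₁.j).2 hf₂
    · rw [PT.β₀₂ f hf₂]
      exact (map_ne_zero D.B₀₂.j).2 hf₂
  obtain ⟨s', hs'⟩ := hgen (pβ f) hu (hdiv f hfd) z hz
  exact Fermat.Agent.S59.LL.SQ.H92.isGenLow_of_pullB hN hmem hcop hz hf₁ hf₂ hs'

end Abs

/-! ## The modular instances -/

section Mod

open ModularCurve
open Fermat.Agent.S24 Fermat.Agent.BAD.H88 Fermat.Agent.S28 Fermat.Agent.S28.H73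
open Fermat.Agent.RED.H73 Fermat.Agent.S36.NU.H88
open Fermat.Agent.Lib.HeckeComm Fermat.Agent.S36.NU.H23 Fermat.Agent.S36.NU.H74

variable (A : ValuationSubring Kbar) (q M : ℕ) (B k : ℤ) (hB : B * M + k * q = 1) (hq : q.Prime)
  [NeZero M] [NeZero q] [NeZero (M * q)] [NeZero (M * q * q)]
  (hqM : ¬ q ∣ M) (hA : A.LiesOverPrime q) (ht : H91.TameAt M q)

/-- The divisor of `α^* g` is divisible by `n` if the divisor of `g` is. -/
theorem dvd_ord_inclL0 {n : ℕ} (g : ↥(L0 A (M * q)))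
    (h : ∀ Q : Place Kbar (FN (M * q)),
      (n : ℤ) ∣ Q.ord (algebraMap ↥(L0 A (M * q)) (FN (M * q)) g))
    (P : Place Kbar (FN (M * q * q))) :
    (n : ℤ) ∣ P.ord (algebraMap ↥(L0 A (M * q * q)) (FN (M * q * q))
      (inclL0 A (Fermat.Agent.S36.NU.H87.hleA q M) g)) := by
  have e : algebraMap ↥(L0 A (M * q * q)) (FN (M * q * q))
      (inclL0 A (Fermat.Agent.S36.NU.H87.hleA q M) g)
      = heckeAlphaBar Kbar (M * q) q (g : FN (M * q)) :=
    Fermat.Agent.S36.NU.H87.coe_inclL0_alphaA A q M g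
  rw [e]
  exact dvd_ord_map (heckeAlphaBar Kbar (M * q) q)
    (Fermat.Agent.S36.H44.alpha_integral (M * q) q) h P

/-- The divisor of `β^* g` is divisible by `n` if the divisor of `g` is. -/
theorem dvd_ord_bL0 {n : ℕ} (g : ↥(L0 A (M * q)))
    (h : ∀ Q : Place Kbar (FN (M * q)),
      (n : ℤ) ∣ Q.ord (algebraMap ↥(L0 A (M * q)) (FN (M * q)) g))
    (P : Place Kbar (FN (M * q * q))) :
    (n : ℤ) ∣ P.ord (algebraMap ↥(L0 A (M * q * q)) (FN (M * q * q))
      (Fermat.Agent.S36.NU.H69.bL0 A q M g)) := by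
  have e : algebraMap ↥(L0 A (M * q * q)) (FN (M * q * q))
      (Fermat.Agent.S36.NU.H69.bL0 A q M g)
      = heckeBetaBar Kbar (M * q) q (g : FN (M * q)) :=
    Fermat.Agent.S36.NU.H69.coe_bL0 A q M g
  rw [e]
  exact dvd_ord_map (heckeBetaBar Kbar (M * q) q)
    (Fermat.Agent.S36.H44.beta_integral (M * q) q) h P

/-- **`GenLowAt` along `α`**, modular form: from GEN-MOD (G2) at the exponent `n` and the two
inputs `hN`, `hmem` of helper92's GENLOW. -/
theorem genLowAtA_mod {n : ℕ} (hcop : Nat.Coprime q n)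
    (hN : letI := algkM A M
      ∀ g : ↥(L0 A (M * q)),
        (nuMod A q M B k hB hq hqM hA ht).Nα (inclL0 A (Fermat.Agent.S36.NU.H87.hleA q M) g)
          = algebraMap ↥(L0 A (M * q)) (FN (M * q)) g ^ (nuMod A q M B k hB hq hqM hA ht).q)
    (hmem : letI := algkM A M
      ∀ h : ↥(L0 A (M * q * q)), ∃ t : ↥(L0 A (M * q)),
        algebraMap ↥(L0 A (M * q)) (FN (M * q)) t = (nuMod A q M B k hB hq hqM hA ht).Nα h)
    (hgen : letI := algkM A M
      ∀ H : ↥(L0 A (M * q * q)), (∀ i, (nuMod A q M B k hB hq hqM hA ht).T.rdN i H ≠ 0) →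
        (∀ P : Place Kbar (FN (M * q * q)),
          (n : ℤ) ∣ P.ord (algebraMap ↥(L0 A (M * q * q)) (FN (M * q * q)) H)) →
        ∀ z ∈ (nuMod A q M B k hB hq hqM hA ht).SS,
          ∃ s, (nuMod A q M B k hB hq hqM hA ht).IsGen n z H s) :
    GenLowAt A q M B k hB hq hqM hA ht (zA A q M B k hB hq hA) n := by
  letI := algkM A M
  intro f hf₁ hf₂ hfd z hz
  exact genLowA_of_gen (nuMod A q M B k hB hq hqM hA ht)
    (pullTable_mod A q M B k hB hq hqM hA ht) hN hmem hcop hgen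
    (fun g hg P => dvd_ord_inclL0 A q M g hg P) f hf₁ hf₂ hfd z hz

/-- **`GenLowAt` along `β`**, modular form. -/
theorem genLowAtB_mod {n : ℕ} (hcop : Nat.Coprime q n)
    (hN : letI := algkM A M
      ∀ g : ↥(L0 A (M * q)),
        (nuMod A q M B k hB hq hqM hA ht).Nβ (Fermat.Agent.S36.NU.H69.bL0 A q M g)
          = algebraMap ↥(L0 A (M * q)) (FN (M * q)) g ^ (nuMod A q M B k hB hq hqM hA ht).q)
    (hmem : letI := algkM A M
      ∀ h : ↥(L0 A (M * q * q)), ∃ t : ↥(L0 A (M * q)),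
        algebraMap ↥(L0 A (M * q)) (FN (M * q)) t = (nuMod A q M B k hB hq hqM hA ht).Nβ h)
    (hgen : letI := algkM A M
      ∀ H : ↥(L0 A (M * q * q)), (∀ i, (nuMod A q M B k hB hq hqM hA ht).T.rdN i H ≠ 0) →
        (∀ P : Place Kbar (FN (M * q * q)),
          (n : ℤ) ∣ P.ord (algebraMap ↥(L0 A (M * q * q)) (FN (M * q * q)) H)) →
        ∀ z ∈ (nuMod A q M B k hB hq hqM hA ht).SS,
          ∃ s, (nuMod A q M B k hB hq hqM hA ht).IsGen n z H s) :
    GenLowAt A q M B k hB hq hqM hA ht (zB A q M B k hB hq hqM hA) n := by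
  letI := algkM A M
  intro f hf₁ hf₂ hfd z hz
  exact genLowB_of_gen (nuMod A q M B k hB hq hqM hA ht)
    (pullTable_mod A q M B k hB hq hqM hA ht) hN hmem hcop hgen
    (fun g hg P => dvd_ord_bL0 A q M g hg P) f hf₁ hf₂ hfd z hz

end Mod

end Fermat.Agent.S59.LL.SQ.H89LG

end
end
-- ==== END Fermat.Agent.S59.LL.SQ.H89_GenLowAt
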