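-- GENERATED (merged mirror, NOTES/tools/trim/merge3_helper67.py): 18 modules of the originals, bodies verbatim.
import Fermat.Prelude.Def_AlgebraicCurve_BaseChangeGalois
import Mathlib
import Fermat.Prelude.Def_AlgebraicCurve_DivisorClassGroup
import Fermat.Agent.Zm.S35_L03_002
import Fermat.Agent.Zm.S59_L01_001
import Fermat.Agent.Zm.S59_L01_000
import Fermat.Agent.S36.NU.H41_DvrUrB
import Fermat.Agent.Zm.S44_L16_000
import Fermat.Agent.S38.Complete.Defs
import Fermat.Agent.Zm.S58_L01_000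
import Fermat.Agent.Zm.S43_L09_001
import Fermat.Agent.Zm.S35_L02_001
import Fermat.Agent.Zm.S35_L20_000
import Fermat.Agent.Zm.S43_L04_003
import Fermat.Agent.Zm.S44_L03_003
import Fermat.Agent.Zm.S44_L05_000
import Fermat.Agent.Zm.S44_L04_000
import Fermat.Agent.Zm.S44_L12_000
import Fermat.Agent.S05.H15_Val

-- ==== BEGIN Fermat.Agent.S27.CharP.Defs
section

set_option autoImplicit false

noncomputable section

open AlgebraicCurve IntermediateField

namespace Fermat.Agent.S27.CharP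

open Fermat.Agent.RED.H17

universe u v

local notation "L" => riemannRochSpace

/-- A **Frobenius structure** on `F / k` for the prime `p` and `Q = p^a`: a semilinear automorphism
`φ` of `F` which is `a ↦ a^Q` on `k` and has finite orbits on `F`
(`F = F₀ ⊗_{𝔽_Q} k`, `φ = id ⊗ Frob_Q`; `F^φ = F₀`). -/
structure IsFrob {k : Type u} {F : Type v} [Field k] [Field F] [Algebra k F]
    (p Q : ℕ) (φ : SemilinearAut k F) : Prop where
  pow : ∃ a : ℕ, 0 < a ∧ Q = p ^ a
  base : ∀ a : k, SemilinearAut.baseAut φ a = a ^ Q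
  orbit : ∀ x : F, ∃ n : ℕ, 0 < n ∧ (φ ^ n) • x = x

/-- **FROB-EX** (field theory): a function field over an algebraic closure of `𝔽_p` has a
Frobenius structure.
(`F = k(x, y₁..y_r)`; the coefficients of the relations lie in a finite field `𝔽_q ⊂ k`;
`F₀ := 𝔽_q(x, y₁..y_r)`, `k₀ := F₀ ∩ k` is finite (`F₀` is finitely generated), `F = F₀ k` is
Galois over `F₀`, and restriction `Aut(F/F₀) → Aut(k/k₀)` is onto at every finite level
`F₀ 𝔽_{Q^n}`, `Q = #k₀`: glue the automorphisms of the finite levels restricting to `Frob_Q`.) -/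
def Stmt_FrobEx : Prop :=
  ∀ (k : Type u) (F : Type v) [Field k] [Field F] [Algebra k F] [IsAlgClosed k]
    (p : ℕ) [CharP k p], p.Prime → (∀ a : k, ∃ n : ℕ, 0 < n ∧ a ^ (p ^ n) = a) →
    (∃ x : F, Transcendental k x ∧ Module.Finite k⟮x⟯ F) →
    ∃ (Q : ℕ) (φ : SemilinearAut k F), IsFrob p Q φ

/-- **PHI-ORB**: every place has a finite `φ`-orbit, and every power of `φ` fixes only finitely
many places.
(Take `x ∈ F` transcendental and `n` with `φ^n x = x`.  A place `P` is a pole of `x` or a zero of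
`x - a`, `a ∈ k`; `φ^(n j)` with `a^(Q^(n j)) = a` permutes the finitely many zeros of `x - a`
(poles of `x`).  If `φ^m P = P` then `φ^(m n) P = P` is a zero of `x - a` and of
`x - a^(Q^(m n))`, so `a` is among the `Q^(m n)` roots of `T^(Q^(m n)) = T`.) -/
def Stmt_PhiOrb : Prop :=
  ∀ (k : Type u) (F : Type v) [Field k] [Field F] [Algebra k F] [IsAlgClosed k]
    (p : ℕ) [CharP k p], p.Prime → FFHyp k F →
    ∀ (Q : ℕ) (φ : SemilinearAut k F), IsFrob p Q φ →
      (∀ P : Place k F, ∃ m : ℕ, 0 < m ∧ (φ ^ m) • P = P) ∧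
      (∀ m : ℕ, 0 < m → {P : Place k F | (φ ^ m) • P = P}.Finite)

/-- **L-INV**: `l(φ D) = l(D)` for a semilinear automorphism (`f ↦ φ f` is a semilinear
bijection `L(D) → L(φ D)`; it maps a basis to a basis). -/
def Stmt_LInv : Prop :=
  ∀ (k : Type u) (F : Type v) [Field k] [Field F] [Algebra k F]
    (φ : SemilinearAut k F) (D : Divisor k F),
    Module.finrank k (L (φ • D)) = Module.finrank k (L D)

/-- **H90A**: an invariant divisor class contains an invariant divisor.
(`φ D - D = div f`; `φ^n D = D` and `φ^n f = f` for some `n` (PHI-ORB), so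
`N f = ∏_{i<n} φ^i f` has divisor `0`, `N f = a ∈ kˣ`; replace `f` by `c f` with `N c = a⁻¹`
(`k` algebraically closed); Hilbert 90: `h := ∑_{i<n} (∏_{j<i} φ^j f) φ^i θ ≠ 0` for some
`θ ∈ k` with `φ^n θ = θ` (independence of the characters `φ^i` on `𝔽_{Q^n}`), and
`f φ(h) = h`; `D₁ := D + div h`.) -/
def Stmt_H90A : Prop :=
  ∀ (k : Type u) (F : Type v) [Field k] [Field F] [Algebra k F] [IsAlgClosed k]
    (p : ℕ) [CharP k p], p.Prime → FFHyp k F →
    ∀ (Q : ℕ) (φ : SemilinearAut k F), IsFrob p Q φ →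
    ∀ D : Divisor k F, φ • D - D ∈ Divisor.principal (K := k) (F := F) →
      ∃ D₁ : Divisor k F, φ • D₁ = D₁ ∧ D₁ - D ∈ Divisor.principal (K := k) (F := F)

/-- **H90B**: a function with `φ`-invariant divisor is a constant times a `φ`-invariant function.
(`φ f / f` has no zeros and poles, so `φ f = a f`, `a ∈ kˣ`; take `c` with `c^(Q-1) = a⁻¹`.) -/
def Stmt_H90B : Prop :=
  ∀ (k : Type u) (F : Type v) [Field k] [Field F] [Algebra k F] [IsAlgClosed k]
    (p : ℕ) [CharP k p], p.Prime → FFHyp k F →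
    ∀ (Q : ℕ) (φ : SemilinearAut k F), IsFrob p Q φ →
    ∀ f : F, f ≠ 0 → (∀ v : Place k F, v.ord (φ • f) = v.ord f) →
      ∃ c : k, c ≠ 0 ∧ φ • (algebraMap k F c * f) = algebraMap k F c * f

/-- **DESC-L** (Galois descent for a semilinear bijection with finite orbits): for a
`φ`-invariant divisor `D`, `L(D)` has exactly `Q^(l(D))` `φ`-invariant elements.
(`V = L(D)` is stable under `φ`; `V^φ` is an `𝔽_Q`-vector space, `𝔽_Q = k^φ`;
`V^φ ⊗_{𝔽_Q} k → V` is injective (Artin) and onto: for `v` with `φ^n v = v` the vectors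
`∑_{i<n} φ^i(a v)`, `a ∈ 𝔽_{Q^n}`, are invariant and span `v` (the matrix `(φ^i a_j)` is
invertible).) -/
def Stmt_DescL : Prop :=
  ∀ (k : Type u) (F : Type v) [Field k] [Field F] [Algebra k F] [IsAlgClosed k]
    (p : ℕ) [CharP k p], p.Prime → FFHyp k F →
    ∀ (Q : ℕ) (φ : SemilinearAut k F), IsFrob p Q φ →
    ∀ D : Divisor k F, φ • D = D →
      Nat.card {f : F // f ∈ L D ∧ φ • f = f} = Q ^ Module.finrank k (L D)

/-- **CNT** (the counting axiom; assembly of H90A, H90B, DESC-L): an invariant class `[D]`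
contains exactly `(Q^(l(D)) - 1)/(Q - 1)` invariant effective divisors.
(By H90A and `l(D + div h) = l(D)` we may take `D` invariant; `E = D + div f`, `f ∈ L(D) ∖ 0`
with `div f` invariant; by H90B `f` is unique up to `kˣ` and can be taken `φ`-invariant, then
unique up to `𝔽_Qˣ`; `#𝔽_Qˣ = Q - 1` as `T^Q - T` is separable.) -/
def Stmt_Cnt : Prop :=
  ∀ (k : Type u) (F : Type v) [Field k] [Field F] [Algebra k F] [IsAlgClosed k]
    (p : ℕ) [CharP k p], p.Prime → FFHyp k F →
    ∀ (Q : ℕ) (φ : SemilinearAut k F), IsFrob p Q φ →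
    ∀ D : Divisor k F, φ • D - D ∈ Divisor.principal (K := k) (F := F) →
      Nat.card {E : Divisor k F // 0 ≤ E ∧ φ • E = E ∧
          E - D ∈ Divisor.principal (K := k) (F := F)} * (Q - 1)
        = Q ^ Module.finrank k (L D) - 1

/-- **SYS** (assembly): the zeta system of a Frobenius structure with a fixed place.
Inputs: PHI-ORB, CNT for all powers `φ^m` (`IsFrob p (Q^m) (φ^m)`), L-INV, Riemann–Roch
(`RR.H52.riemann_roch`), and the basic facts of `FFHyp` (`l(0) = 1`, `L(D) = 0` for `deg D < 0`,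
`deg(div f) = 0`, `l(D + div h) = l(D)`). -/
def Stmt_Sys : Prop :=
  ∀ (k : Type u) (F : Type v) [Field k] [Field F] [Algebra k F] [IsAlgClosed k]
    (p : ℕ) [CharP k p], p.Prime → FFHyp k F → ∀ (g : ℕ) (c : ℤ), IsGenus k F g c →
    ∀ (Q : ℕ) (φ : SemilinearAut k F), IsFrob p Q φ → (∃ P₀ : Place k F, φ • P₀ = P₀) →
      ∃ S : Zeta.ZSys (Place k F),
        S.φ = MulAction.toPerm φ ∧ S.degree = Divisor.degree ∧
        S.Princ = Divisor.principal (K := k) (F := F) ∧ S.Q = Q ∧ S.g = g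

/-- **COUNT-P, with `FFHyp` as a hypothesis** (assembly: FROB-EX, PHI-ORB to get a fixed place of
a power of `φ`, SYS, `Zeta.Stmt_Z_Main`; `S.Cl0 = Pic0 k F` by the three equations of SYS).
`Char0.Stmt_CountPu` follows with `Char0.Stmt_FFH`. -/
def Stmt_CountP : Prop :=
  ∀ (k : Type u) (F : Type v) [Field k] [Field F] [Algebra k F] [IsAlgClosed k]
    (p : ℕ) [CharP k p], p.Prime → (∀ a : k, ∃ n : ℕ, 0 < n ∧ a ^ (p ^ n) = a) →
    (∃ x : F, Transcendental k x ∧ Module.Finite k⟮x⟯ F) → FFHyp k F →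
    ∀ (g : ℕ) (c : ℤ), IsGenus k F g c →
    ∀ ℓ : ℕ, ℓ.Prime → ℓ ≠ p → ∀ j : ℕ,
      Nat.card (Pic0.torsion k F (ℓ ^ j)) = ℓ ^ (2 * g * j)

end Fermat.Agent.S27.CharP

end
end
-- ==== END Fermat.Agent.S27.CharP.Defs

-- ==== BEGIN Fermat.Agent.S27.REDu.H51_Approx
section

/-!
# FF-B, piece P2 (helper51): the weak approximation theorem

For finitely many pairwise distinct places of a field `F` (discrete valuation rings of `F`
containing `K`) and elements `y v` of `F`, there is `z` with `v (z - y v) ≥ N` for all of them.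
No hypothesis on `K` or `F`.
-/

set_option autoImplicit false
set_option linter.style.haveILetI false

universe uC uCf uK uR uF uL uE uk ukap uFp uFt uFtp uiot uEp uKp ux3b1

noncomputable section

open AlgebraicCurve

namespace Fermat.Agent.S27.REDu.H51

variable {K F : Type*} [Field K] [Field F] [Algebra K F]

/-- Distinct places are incomparable: there is an element integral at `v` and not at `w`. -/
theorem exists_mem_not_mem {v w : Place K F} (h : v ≠ w) :
    ∃ y : F, y ∈ v.toValuationSubring ∧ y ∉ w.toValuationSubring := by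
  by_contra hcon
  push Not at hcon
  -- `O_v ⊆ O_w`
  apply h
  apply Place.ext
  refine le_antisymm (fun y hy => hcon y hy) ?_
  intro z hz
  by_contra hzv
  -- `v z < 0`, so every `f` is `z ^ k` times an element of `O_v`
  have hzneg : v.ord z < 0 := (not_mem_iff_ord_neg v).mp hzv
  apply w.ne_top'
  rw [eq_top_iff]
  intro f _
  rcases eq_or_ne f 0 with rfl | hf
  · exact zero_mem _
  have hz0 : z ≠ 0 := ne_zero_of_ord_ne_zero v hzneg.ne
  -- choose `k` with `v f ≥ k * v z`
  obtain ⟨k, hk⟩ : ∃ k : ℕ, (k : ℤ) * v.ord z ≤ v.ord f := by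
    refine ⟨(v.ord f).natAbs, ?_⟩
    have h1 : ((v.ord f).natAbs : ℤ) * v.ord z ≤ ((v.ord f).natAbs : ℤ) * (-1) :=
      mul_le_mul_of_nonneg_left (by omega) (Int.natCast_nonneg _)
    have h2 : (((v.ord f).natAbs : ℕ) : ℤ) = |v.ord f| := Int.natCast_natAbs _
    have h3 : -|v.ord f| ≤ v.ord f := neg_abs_le _
    linarith
  have hmem : f / z ^ k ∈ v.toValuationSubring := by
    rw [mem_iff_ord_nonneg v (div_ne_zero hf (pow_ne_zero k hz0)),
      ord_div v hf (pow_ne_zero k hz0), ord_pow]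
    omega
  have hfz : f = f / z ^ k * z ^ k := by
    field_simp
  rw [hfz]
  exact mul_mem (hcon _ hmem) (pow_mem hz k)

/-- Two distinct places are separated by a function. -/
theorem exists_pos_neg_pair {v w : Place K F} (h : v ≠ w) :
    ∃ u : F, 0 < v.ord u ∧ w.ord u < 0 := by
  obtain ⟨y₁, hy₁v, hy₁w⟩ := exists_mem_not_mem h
  obtain ⟨y₂, hy₂w, hy₂v⟩ := exists_mem_not_mem h.symm
  have h1 : w.ord y₁ < 0 := (not_mem_iff_ord_neg w).mp hy₁w
  have h2 : v.ord y₂ < 0 := (not_mem_iff_ord_neg v).mp hy₂v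
  have hy₁0 : y₁ ≠ 0 := ne_zero_of_ord_ne_zero w h1.ne
  have hy₂0 : y₂ ≠ 0 := ne_zero_of_ord_ne_zero v h2.ne
  have h3 : 0 ≤ v.ord y₁ := (mem_iff_ord_nonneg v hy₁0).mp hy₁v
  have h4 : 0 ≤ w.ord y₂ := (mem_iff_ord_nonneg w hy₂0).mp hy₂w
  refine ⟨y₁ / y₂, ?_, ?_⟩
  · rw [ord_div v hy₁0 hy₂0]; omega
  · rw [ord_div w hy₁0 hy₂0]; omega

/-- Step 1: a function with a zero at `v₀` and poles at all places of `S`. -/
theorem exists_pos_neg (v₀ : Place K F) (S : Finset (Place K F)) (hS : v₀ ∉ S) :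
    ∃ u : F, 0 < v₀.ord u ∧ ∀ w ∈ S, w.ord u < 0 := by
  classical
  induction S using Finset.induction_on with
  | empty =>
    obtain ⟨t, -, ht⟩ := exists_uniformizer v₀
    exact ⟨t, by omega, by simp⟩
  | insert w S hw ih =>
    have hv₀S : v₀ ∉ S := fun h => hS (Finset.mem_insert_of_mem h)
    have hv₀w : v₀ ≠ w := fun h => hS (h ▸ Finset.mem_insert_self _ S)
    obtain ⟨y, hy₀, hyS⟩ := ih hv₀S
    by_cases hwy : w.ord y < 0
    · refine ⟨y, hy₀, fun w' hw' => ?_⟩
      rcases Finset.mem_insert.mp hw' with rfl | hw'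
      · exact hwy
      · exact hyS w' hw'
    · have hwy' : 0 ≤ w.ord y := not_lt.mp hwy
      obtain ⟨z, hz₀, hzw⟩ := exists_pos_neg_pair hv₀w
      have hy0 : y ≠ 0 := ne_zero_of_ord_ne_zero v₀ hy₀.ne'
      have hz0 : z ≠ 0 := ne_zero_of_ord_ne_zero v₀ hz₀.ne'
      -- the exponent
      set r : ℕ := 1 + ∑ w' ∈ S, (w'.ord y).natAbs with hr
      have hr1 : 1 ≤ r := by omega
      have hzr0 : z ^ r ≠ 0 := pow_ne_zero r hz0
      -- order of `y + z ^ r` at `w`
      have hw1 : y + z ^ r ≠ 0 ∧ w.ord (y + z ^ r) = w.ord (z ^ r) := by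
        refine ord_add_eq' w hzr0 (Or.inr ?_)
        rw [ord_pow]
        have : (r : ℤ) * w.ord z ≤ (r : ℤ) * (-1) :=
          mul_le_mul_of_nonneg_left (by omega) (Int.natCast_nonneg _)
        have hr1' : (1 : ℤ) ≤ (r : ℤ) := by exact_mod_cast hr1
        linarith
      refine ⟨y + z ^ r, ?_, fun w' hw' => ?_⟩
      · have h1 : OrdGe v₀ 1 (y + z ^ r) := by
          refine OrdGe.add (Or.inr (by omega)) (Or.inr ?_)
          rw [ord_pow]
          have hr1' : (1 : ℤ) ≤ (r : ℤ) := by exact_mod_cast hr1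
          nlinarith
        exact h1.pos_of_ne hw1.1
      · rcases Finset.mem_insert.mp hw' with rfl | hw'
        · rw [hw1.2, ord_pow]
          have hr1' : (1 : ℤ) ≤ (r : ℤ) := by exact_mod_cast hr1
          nlinarith
        · have hyw' : w'.ord y < 0 := hyS w' hw'
          -- `r > |w' y|`
          have hrgt : ((w'.ord y).natAbs : ℤ) < (r : ℤ) := by
            have : (w'.ord y).natAbs ≤ ∑ w'' ∈ S, (w''.ord y).natAbs :=
              Finset.single_le_sum (f := fun w'' : Place K F => (w''.ord y).natAbs)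
                (fun _ _ => Nat.zero_le _) hw'
            have h2 : (w'.ord y).natAbs < r := by omega
            exact_mod_cast h2
          have habs : (((w'.ord y).natAbs : ℕ) : ℤ) = -w'.ord y := by
            rw [Int.natCast_natAbs, abs_of_neg hyw']
          rcases lt_trichotomy (w'.ord z) 0 with hz | hz | hz
          · -- `w' (z^r) = r w' z ≤ -r < w' y`
            have h3 : (r : ℤ) * w'.ord z ≤ (r : ℤ) * (-1) :=
              mul_le_mul_of_nonneg_left (by omega) (Int.natCast_nonneg _)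
            have h4 := ord_add_eq' w' hzr0 (g := y) (Or.inr (by rw [ord_pow]; omega))
            rw [h4.2, ord_pow]
            omega
          · -- `w' (z^r) = 0 > w' y`
            have h4 := ord_add_eq w' hy0 (g := z ^ r)
              (Or.inr (by rw [ord_pow, hz, mul_zero]; omega))
            rw [h4.2]
            exact hyw'
          · -- `w' (z^r) > 0 > w' y`
            have h3 : 0 ≤ (r : ℤ) * w'.ord z :=
              mul_nonneg (Int.natCast_nonneg _) hz.le
            have h4 := ord_add_eq w' hy0 (g := z ^ r) (Or.inr (by rw [ord_pow]; omega))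
            rw [h4.2]
            exact hyw'

/-- Step 2: a function close to `1` at `v₀` and close to `0` at the places of `S`. -/
theorem exists_near_one (v₀ : Place K F) (S : Finset (Place K F)) (hS : v₀ ∉ S) (N : ℤ) :
    ∃ h : F, OrdGe v₀ N (h - 1) ∧ ∀ w ∈ S, OrdGe w N h := by
  obtain ⟨u, hu₀, huS⟩ := exists_pos_neg v₀ S hS
  have hu0 : u ≠ 0 := ne_zero_of_ord_ne_zero v₀ hu₀.ne'
  set s : ℕ := 1 + N.natAbs with hs
  have hs1 : (1 : ℤ) ≤ (s : ℤ) := by
    have : 1 ≤ s := by omega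
    exact_mod_cast this
  have hsN : N ≤ (s : ℤ) := by
    have h1 : N ≤ |N| := le_abs_self N
    have h2 : ((N.natAbs : ℕ) : ℤ) = |N| := Int.natCast_natAbs _
    have h3 : (s : ℤ) = 1 + ((N.natAbs : ℕ) : ℤ) := by rw [hs]; push_cast; ring
    omega
  have hus0 : u ^ s ≠ 0 := pow_ne_zero s hu0
  -- at `v₀`
  have h0 : (1 : F) + u ^ s ≠ 0 ∧ v₀.ord (1 + u ^ s) = v₀.ord 1 := by
    refine ord_add_eq v₀ one_ne_zero (Or.inr ?_)
    rw [Place.ord_one, ord_pow]
    nlinarith
  have hden : (1 : F) + u ^ s ≠ 0 := h0.1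
  refine ⟨(1 + u ^ s)⁻¹, ?_, fun w hw => ?_⟩
  · have hsub : (1 + u ^ s)⁻¹ - 1 = -(u ^ s) / (1 + u ^ s) := by
      field_simp
      ring
    rw [hsub]
    refine Or.inr ?_
    rw [ord_div v₀ (neg_ne_zero.mpr hus0) hden, ord_neg, h0.2, Place.ord_one, ord_pow]
    nlinarith
  · have hw1 : w.ord u < 0 := huS w hw
    have h1 : (1 : F) + u ^ s ≠ 0 ∧ w.ord (1 + u ^ s) = w.ord (u ^ s) := by
      refine ord_add_eq' w hus0 (Or.inr ?_)
      rw [Place.ord_one, ord_pow]
      nlinarith
    refine Or.inr ?_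
    rw [Place.ord_inv, h1.2, ord_pow]
    nlinarith

/-- Step 3, **weak approximation**: for a finite set `S` of places and prescribed elements `y v`
there is `z` with `v (z - y v) ≥ N` for all `v ∈ S`. -/
theorem exists_approx (S : Finset (Place K F)) (y : Place K F → F) (N : ℤ) :
    ∃ z : F, ∀ v ∈ S, OrdGe v N (z - y v) := by
  classical
  -- a common lower bound `-m` for the orders of the `y w` at the `v`
  set m : ℕ := ∑ v ∈ S, ∑ w ∈ S, ((v.ord (y w)).natAbs) with hm
  have hlow : ∀ v ∈ S, ∀ w ∈ S, OrdGe v (-(m : ℤ)) (y w) := by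
    intro v hv w hw
    refine Or.inr ?_
    have h1 : (v.ord (y w)).natAbs ≤ ∑ w' ∈ S, (v.ord (y w')).natAbs :=
      Finset.single_le_sum (f := fun w' : Place K F => (v.ord (y w')).natAbs)
        (fun _ _ => Nat.zero_le _) hw
    have h2 : ∑ w' ∈ S, (v.ord (y w')).natAbs ≤ m :=
      Finset.single_le_sum (f := fun v' : Place K F => ∑ w' ∈ S, (v'.ord (y w')).natAbs)
        (fun _ _ => Nat.zero_le _) hv
    have h3 : ((v.ord (y w)).natAbs : ℤ) ≤ (m : ℤ) := by exact_mod_cast h1.trans h2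
    have h4 : (((v.ord (y w)).natAbs : ℕ) : ℤ) = |v.ord (y w)| := Int.natCast_natAbs _
    have h5 : -|v.ord (y w)| ≤ v.ord (y w) := neg_abs_le _
    omega
  -- the partition of unity
  have hex : ∀ w : Place K F, ∃ h : F, OrdGe w (N + m) (h - 1) ∧
      ∀ v ∈ S.erase w, OrdGe v (N + m) h := fun w =>
    exists_near_one w (S.erase w) (Finset.notMem_erase w S) (N + m)
  choose h hh1 hh2 using hex
  refine ⟨∑ w ∈ S, y w * h w, fun v hv => ?_⟩
  have hsplit : ∑ w ∈ S, y w * h w - y v
      = y v * (h v - 1) + ∑ w ∈ S.erase v, y w * h w := by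
    rw [← Finset.add_sum_erase S (fun w => y w * h w) hv]
    ring
  rw [hsplit]
  refine OrdGe.add ?_ (ordGe_sum v N _ _ fun w hw => ?_)
  · have := (hlow v hv v hv).mul (hh1 v)
    exact this.mono (by omega)
  · have hwS : w ∈ S := Finset.mem_of_mem_erase hw
    have hvw : v ∈ S.erase w := Finset.mem_erase.mpr ⟨(Finset.ne_of_mem_erase hw).symm, hv⟩
    have := (hlow v hv w hwS).mul (hh2 w v hvw)
    exact this.mono (by omega)

/-- Weak approximation for an injective finite family of places. -/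
theorem exists_approx_family {ι : Type*} [Finite ι] (v : ι → Place K F)
    (hv : Function.Injective v) (y : ι → F) (N : ℤ) :
    ∃ z : F, ∀ i, OrdGe (v i) N (z - y i) := by
  classical
  have := Fintype.ofFinite ι
  obtain ⟨z, hz⟩ := exists_approx (Finset.univ.image v)
    (fun p => if h : ∃ i, v i = p then y h.choose else 0) N
  refine ⟨z, fun i => ?_⟩
  have := hz (v i) (Finset.mem_image_of_mem v (Finset.mem_univ i))
  have hex : ∃ j, v j = v i := ⟨i, rfl⟩
  rw [dif_pos hex] at this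
  rwa [hv hex.choose_spec] at this

/-- Weak approximation with exact orders: for a finite set `S` of places and integers `n v` there
is `z ≠ 0` with `v z = n v` for all `v ∈ S`. -/
theorem exists_ord_eq_family (S : Finset (Place K F)) (n : Place K F → ℤ) :
    ∃ z : F, z ≠ 0 ∧ ∀ v ∈ S, v.ord z = n v := by
  classical
  have hex : ∀ v : Place K F, ∃ t : F, t ≠ 0 ∧ v.ord t = n v := fun v => exists_ord_eq v (n v)
  choose t ht0 ht using hex
  by_cases hS : S.Nonempty
  · obtain ⟨z, hz⟩ := exists_approx S t (∑ v ∈ S, (n v).natAbs + 1)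
    have key : ∀ v ∈ S, z ≠ 0 ∧ v.ord z = n v := by
      intro v hv
      have h1 : z = t v + (z - t v) := by ring
      have h2 := ord_add_eq v (ht0 v) (g := z - t v) ((hz v hv).mono (by
        rw [ht]
        have h3 : (n v).natAbs ≤ ∑ v' ∈ S, (n v').natAbs :=
          Finset.single_le_sum (f := fun v' : Place K F => (n v').natAbs)
            (fun _ _ => Nat.zero_le _) hv
        have h4 : (((n v).natAbs : ℕ) : ℤ) = |n v| := Int.natCast_natAbs _
        have h5 : n v ≤ |n v| := le_abs_self _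
        have h6 : ((n v).natAbs : ℤ) ≤ ((∑ v' ∈ S, (n v').natAbs : ℕ) : ℤ) := by
          exact_mod_cast h3
        push_cast at h6 ⊢
        omega))
      rw [← h1] at h2
      exact ⟨h2.1, h2.2.trans (ht v)⟩
    obtain ⟨v, hv⟩ := hS
    exact ⟨z, (key v hv).1, fun v hv => (key v hv).2⟩
  · rw [Finset.not_nonempty_iff_eq_empty] at hS
    exact ⟨1, one_ne_zero, by simp [hS]⟩

end Fermat.Agent.S27.REDu.H51

end
end
-- ==== END Fermat.Agent.S27.REDu.H51_Approx

-- ==== BEGIN Fermat.Agent.S27.REDu.H51_Det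
section

/-!
# FF-B, piece P8b (helper51): determinants modulo the maximal ideal of a place

`det_cong`: a matrix with entries integral at `v` which is, modulo the maximal ideal, lower
triangular inside blocks and zero outside of the diagonal blocks, has determinant congruent to
the product of its diagonal entries.
-/

set_option autoImplicit false
set_option linter.style.haveILetI false

universe uC uCf uK uR uF uL uE uk ukap uFp uFt uFtp uiot uEp uKp ux3b1

noncomputable section

open AlgebraicCurve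

namespace Fermat.Agent.S27.REDu.H51

variable {K F : Type*} [Field K] [Field F] [Algebra K F]

theorem ordGe_prod {ι : Type*} (v : Place K F) (s : Finset ι) (a : ι → F)
    (h : ∀ i ∈ s, OrdGe v 0 (a i)) : OrdGe v 0 (∏ i ∈ s, a i) := by
  classical
  induction s using Finset.induction_on with
  | empty => simpa using ordGe_one v
  | insert x s hx ih =>
    rw [Finset.prod_insert hx]
    have := (h x (Finset.mem_insert_self x s)).mul
      (ih fun i hi => h i (Finset.mem_insert_of_mem hi))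
    simpa using this

/-- A product of integral elements, one of which is divisible, is divisible. -/
theorem ordGe_prod_of_mem {ι : Type*} (v : Place K F) (s : Finset ι) (a : ι → F)
    (h : ∀ i ∈ s, OrdGe v 0 (a i)) {i₀ : ι} (hi₀ : i₀ ∈ s) (h1 : OrdGe v 1 (a i₀)) :
    OrdGe v 1 (∏ i ∈ s, a i) := by
  classical
  rw [← Finset.mul_prod_erase s a hi₀]
  have := h1.mul (ordGe_prod v (s.erase i₀) a fun i hi => h i (Finset.mem_of_mem_erase hi))
  simpa using this

/-- Products of congruent integral elements are congruent. -/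
theorem ordGe_prod_sub_prod {ι : Type*} (v : Place K F) (s : Finset ι) (a a' : ι → F)
    (h : ∀ i ∈ s, OrdGe v 0 (a i)) (h' : ∀ i ∈ s, OrdGe v 1 (a' i - a i)) :
    OrdGe v 1 (∏ i ∈ s, a' i - ∏ i ∈ s, a i) := by
  classical
  induction s using Finset.induction_on with
  | empty => simp
  | insert x s hx ih =>
    rw [Finset.prod_insert hx, Finset.prod_insert hx]
    have hs : ∀ i ∈ s, OrdGe v 0 (a i) := fun i hi => h i (Finset.mem_insert_of_mem hi)
    have hs' : ∀ i ∈ s, OrdGe v 1 (a' i - a i) := fun i hi => h' i (Finset.mem_insert_of_mem hi)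
    have hx0 : OrdGe v 0 (a x) := h x (Finset.mem_insert_self x s)
    have hx1 : OrdGe v 1 (a' x - a x) := h' x (Finset.mem_insert_self x s)
    have ha' : ∀ i ∈ s, OrdGe v 0 (a' i) := fun i hi => by
      have h1 : a' i = a i + (a' i - a i) := by ring
      rw [h1]
      exact (hs i hi).add ((hs' i hi).mono (by omega))
    have hdecomp : a' x * ∏ i ∈ s, a' i - a x * ∏ i ∈ s, a i
        = (a' x - a x) * ∏ i ∈ s, a' i + a x * (∏ i ∈ s, a' i - ∏ i ∈ s, a i) := by ring
    rw [hdecomp]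
    refine OrdGe.add ?_ ?_
    · have := hx1.mul (ordGe_prod v s a' ha')
      simpa using this
    · have := hx0.mul (ih hs hs')
      simpa using this

/-- A permutation which does not decrease a rank function is the identity; here in the form
needed for determinants. -/
theorem exists_of_perm_ne_one {I β : Type*} [Fintype I] (blk : I → β) (rk : I → ℕ)
    (σ : Equiv.Perm I) (hσ : σ ≠ 1) :
    ∃ i, σ i ≠ i ∧ (blk (σ i) ≠ blk i ∨ rk (σ i) ≤ rk i) := by
  classical
  by_contra hcon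
  push Not at hcon
  apply hσ
  have hle : ∀ i, rk i ≤ rk (σ i) := by
    intro i
    by_cases hi : σ i = i
    · rw [hi]
    · exact (hcon i hi).2.le
  have hsum : ∑ i, rk (σ i) = ∑ i, rk i := Equiv.sum_comp σ rk
  ext i
  by_contra hi
  have hi' : σ i ≠ i := hi
  have : ∑ i, rk i < ∑ i, rk (σ i) :=
    Finset.sum_lt_sum (fun i _ => hle i) ⟨i, Finset.mem_univ i, (hcon i hi').2⟩
  omega

/-- The determinant of a matrix which is block lower triangular modulo the maximal ideal of `v`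
is congruent to the product of the diagonal entries. -/
theorem det_cong {I β : Type*} [Fintype I] [DecidableEq I] (v : Place K F) (blk : I → β)
    (rk : I → ℕ) (M : Matrix I I F) (d : I → F)
    (h0 : ∀ i j, OrdGe v 0 (M i j))
    (h1 : ∀ i j, i ≠ j → (blk i ≠ blk j ∨ rk i ≤ rk j) → OrdGe v 1 (M i j))
    (h2 : ∀ i, OrdGe v 1 (M i i - d i)) (hd : ∀ i, OrdGe v 0 (d i)) :
    OrdGe v 1 (M.det - ∏ i, d i) := by
  rw [Matrix.det_apply', ← Finset.add_sum_erase Finset.univ _ (Finset.mem_univ (1 : Equiv.Perm I))]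
  have hone : ((((Equiv.Perm.sign (1 : Equiv.Perm I) : ℤˣ) : ℤ) : F)) *
      ∏ i, M ((1 : Equiv.Perm I) i) i = ∏ i, M i i := by
    simp
  rw [hone, add_sub_right_comm]
  refine OrdGe.add (ordGe_prod_sub_prod v Finset.univ d (fun i => M i i) (fun i _ => hd i)
    fun i _ => h2 i) ?_
  refine ordGe_sum v 1 _ _ fun σ hσ => ?_
  have hσ1 : σ ≠ 1 := Finset.ne_of_mem_erase hσ
  obtain ⟨i, hi, hcase⟩ := exists_of_perm_ne_one blk rk σ hσ1
  have hprod : OrdGe v 1 (∏ i', M (σ i') i') :=
    ordGe_prod_of_mem v Finset.univ (fun i' => M (σ i') i') (fun i' _ => h0 _ _)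
      (Finset.mem_univ i) (h1 (σ i) i hi hcase)
  rcases Int.units_eq_one_or (Equiv.Perm.sign σ) with hs | hs
  · rw [hs]
    simpa using hprod
  · rw [hs]
    simpa using hprod.neg

/-- The order of a finite product. -/
theorem ord_prod {ι : Type*} (v : Place K F) (s : Finset ι) (a : ι → F)
    (h : ∀ i ∈ s, a i ≠ 0) : v.ord (∏ i ∈ s, a i) = ∑ i ∈ s, v.ord (a i) := by
  classical
  induction s using Finset.induction_on with
  | empty => simp
  | insert x s hx ih =>
    rw [Finset.prod_insert hx, Finset.sum_insert hx,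
      v.ord_mul (h x (Finset.mem_insert_self x s))
        (Finset.prod_ne_zero_iff.mpr fun i hi => h i (Finset.mem_insert_of_mem hi)),
      ih fun i hi => h i (Finset.mem_insert_of_mem hi)]

/-- An integral element has a value in the residue field `K`, at a place of degree one. -/
theorem exists_value (v : Place K F) (hdeg : v.deg = 1) {h : F} (hh : OrdGe v 0 h) :
    ∃ c : K, OrdGe v 1 (h - algebraMap K F c) := by
  have hmem : h ∈ v.toValuationSubring := (ordGe_zero_iff_mem v h).mp hh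
  have hbij : Function.Bijective (algebraMap K v.ResidueField) :=
    Algebra.finrank_eq_one_iff_bijective_algebraMap.mp hdeg
  obtain ⟨c, hc⟩ := hbij.2 (IsLocalRing.residue v.toValuationSubring ⟨h, hmem⟩)
  refine ⟨c, ?_⟩
  set a : v.toValuationSubring := ⟨h, hmem⟩ - algebraMap K v.toValuationSubring c with ha
  have hres : IsLocalRing.residue v.toValuationSubring a = 0 := by
    rw [ha, map_sub, ← hc]
    exact sub_eq_zero.mpr rfl
  have hnu : ¬ IsUnit a := (IsLocalRing.residue_eq_zero_iff _).mp hres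
  have hcoe : (a : F) = h - algebraMap K F c := rfl
  rw [← hcoe]
  by_contra hcon
  apply hnu
  rw [← v.adicValuation_coe_eq_one_iff]
  have ha0 : (a : F) ≠ 0 := fun h0 => hcon (Or.inl h0)
  have h0 : 0 ≤ v.ord (a : F) := ((ordGe_zero_iff_mem v _).mpr a.2).le ha0
  have h1 : ¬ (1 ≤ v.ord (a : F)) := fun h1 => hcon (Or.inr h1)
  have h2 : v.ord (a : F) = 0 := by omega
  rw [v.adicValuation_eq_exp_neg_ord ha0, h2, neg_zero, WithZero.exp_zero]

end Fermat.Agent.S27.REDu.H51

end
end
-- ==== END Fermat.Agent.S27.REDu.H51_Det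

-- ==== BEGIN Fermat.Agent.S27.REDu.H82_RootRed
section

/-!
# G-RED leaf IG-P1: reduction of roots over a valuation ring (helper82)

`O` a valuation ring of an algebraically closed field `C`, `res : O → k` the residue map,
`D ∈ O[X]` with nonzero reduction.  Then `D = u · ∏ (X - r_i) · ∏ (1 - s_j X)` with `u` a unit,
`r_i ∈ O`, `s_j` non-units; so the roots of the reduction are the reductions of the roots of `D`
lying in `O`, with multiplicities.  We prove this by induction on the degree, splitting off one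
factor at a time.
-/

set_option autoImplicit false

universe uC uCf uK uR uF uL uE uk ukap uFp uFt uFtp uiot uEp uKp ux3b1

noncomputable section

open Polynomial

namespace Fermat.Agent.S27.REDu.H82

variable {Cf : Type uCf} {k : Type uk} [Field Cf] [IsAlgClosed Cf] [Field k] (O : ValuationSubring Cf)

/-- Splitting off one linear factor: either `X - r` with `r ∈ O`, or `1 - s X` with `s` a nonzero
non-unit of `O`. -/
theorem exists_factor (D : Polynomial ↥O) (hdeg : 0 < D.natDegree) :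
    (∃ (r : ↥O) (D₁ : Polynomial ↥O), D = (X - C r) * D₁) ∨
    (∃ (s : ↥O) (D₁ : Polynomial ↥O), ¬ IsUnit s ∧ s ≠ 0 ∧ D = (1 - C s * X) * D₁) := by
  classical
  have hinj : Function.Injective (O.subtype : ↥O →+* Cf) := Subtype.val_injective
  set Dc : Polynomial Cf := D.map O.subtype with hDc
  have hDcdeg : Dc.degree ≠ 0 := by
    rw [hDc, Polynomial.degree_map_eq_of_injective hinj]
    intro h
    have h' : D.natDegree = 0 := Polynomial.natDegree_eq_of_degree_eq_some h
    omega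
  obtain ⟨r, hr⟩ := IsAlgClosed.exists_root Dc hDcdeg
  by_cases hrO : r ∈ O
  · left
    refine ⟨⟨r, hrO⟩, D /ₘ (X - C ⟨r, hrO⟩), ?_⟩
    symm
    rw [Polynomial.mul_divByMonic_eq_iff_isRoot]
    have h1 : (D.map O.subtype).eval (O.subtype ⟨r, hrO⟩) = 0 := hr
    rw [Polynomial.eval_map, Polynomial.eval₂_at_apply] at h1
    have h2 : O.subtype (D.eval ⟨r, hrO⟩) = O.subtype 0 := by
      rw [h1, map_zero]
    exact hinj h2
  · right
    have hr0 : r ≠ 0 := fun h => hrO (h ▸ zero_mem _)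
    have hsO : r⁻¹ ∈ O := (O.mem_or_inv_mem r).resolve_left hrO
    set s : ↥O := ⟨r⁻¹, hsO⟩ with hs
    have hs0 : s ≠ 0 := by
      intro h
      have : (s : Cf) = 0 := by rw [h]; rfl
      exact inv_ne_zero hr0 this
    have hsnu : ¬ IsUnit s := by
      intro hu
      obtain ⟨t, ht⟩ := hu.exists_right_inv
      have h1 : (s : Cf) * (t : Cf) = 1 := by
        have := congrArg (fun x : ↥O => (x : Cf)) ht
        simpa using this
      have h2 : (t : Cf) = r := by
        have : r⁻¹ * (t : Cf) = 1 := h1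
        field_simp at this
        exact this
      exact hrO (h2 ▸ t.2)
    -- the cofactor over `C`
    set E : Polynomial Cf := Dc /ₘ (X - C r) with hE
    have hDE : (X - C r) * E = Dc := Polynomial.mul_divByMonic_eq_iff_isRoot.mpr hr
    obtain ⟨D₁c, hD₁c⟩ : ∃ p : Polynomial Cf, p = C (-r) * E := ⟨_, rfl⟩
    have hfac : (1 - C (r⁻¹) * X) * D₁c = Dc := by
      rw [← hDE, hD₁c]
      have : (1 - C (r⁻¹) * X) * (C (-r) * E) = ((1 - C (r⁻¹) * X) * C (-r)) * E := by ring
      rw [this]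
      congr 1
      have h1 : (C (r⁻¹) : Polynomial Cf) * C r = 1 := by
        rw [← C_mul, inv_mul_cancel₀ hr0, C_1]
      calc (1 - C (r⁻¹) * X) * C (-r) = -(C r) + (C (r⁻¹) * C r) * X := by
            rw [C_neg]; ring
        _ = X - C r := by rw [h1]; ring
    -- coefficients of the cofactor lie in `O`
    have hcoef : ∀ n, D₁c.coeff n ∈ O := by
      intro n
      induction n with
      | zero =>
        have h := congrArg (fun p => Polynomial.coeff p 0) hfac
        simp only [Polynomial.mul_coeff_zero, Polynomial.coeff_sub, Polynomial.coeff_one_zero,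
          Polynomial.coeff_X_zero, mul_zero, sub_zero, one_mul] at h
        rw [h, hDc, Polynomial.coeff_map]
        exact (D.coeff 0).2
      | succ n ih =>
        have h := congrArg (fun p => Polynomial.coeff p (n + 1)) hfac
        have h2 : ((1 - C (r⁻¹) * X) * D₁c).coeff (n + 1) =
            D₁c.coeff (n + 1) - r⁻¹ * D₁c.coeff n := by
          rw [sub_mul, one_mul, Polynomial.coeff_sub, mul_assoc, Polynomial.coeff_C_mul,
            Polynomial.coeff_X_mul]
        simp only [h2] at h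
        have h3 : D₁c.coeff (n + 1) = Dc.coeff (n + 1) + r⁻¹ * D₁c.coeff n := by
          rw [← h]; ring
        rw [h3]
        refine O.add_mem _ _ ?_ (O.mul_mem _ _ hsO ih)
        rw [hDc, Polynomial.coeff_map]
        exact (D.coeff (n + 1)).2
    have hlift : D₁c ∈ Polynomial.lifts (O.subtype : ↥O →+* Cf) := by
      rw [Polynomial.lifts_iff_coeff_lifts]
      intro n
      exact ⟨⟨D₁c.coeff n, hcoef n⟩, rfl⟩
    obtain ⟨D₁, hD₁⟩ := hlift
    rw [Polynomial.coe_mapRingHom] at hD₁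
    refine ⟨s, D₁, hsnu, hs0, ?_⟩
    apply Polynomial.map_injective _ hinj
    rw [Polynomial.map_mul, hD₁]
    show Dc = _
    rw [← hfac]
    congr 1
    simp only [Polynomial.map_sub, Polynomial.map_one, Polynomial.map_mul, Polynomial.map_C,
      Polynomial.map_X]
    rfl


variable (res : ↥O →+* k)

theorem rootRed_aux (hker : ∀ a : ↥O, res a = 0 ↔ ¬ IsUnit a) :
    ∀ (n : ℕ) (D : Polynomial ↥O), D.natDegree = n → D.map res ≠ 0 →
      (∀ γ : k, (D.map res).IsRoot γ → ∃ ρ : ↥O, res ρ = γ ∧ D.IsRoot ρ) ∧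
      (∀ ρ : ↥O, (∀ ρ' : ↥O, res ρ' = res ρ → D.IsRoot ρ' → ρ' = ρ) →
        (D.map res).rootMultiplicity (res ρ) = D.rootMultiplicity ρ) := by
  classical
  intro n
  induction n using Nat.strong_induction_on with
  | _ n ih =>
  intro D hn hD
  have hD0 : D ≠ 0 := fun h => hD (by rw [h, Polynomial.map_zero])
  by_cases hdeg : 0 < D.natDegree
  · rcases exists_factor O D hdeg with ⟨r, D₁, hfac⟩ | ⟨s, D₁, hsnu, hs0, hfac⟩
    · -- `D = (X - C r) * D₁`
      have hD₁0 : D₁ ≠ 0 := right_ne_zero_of_mul (hfac ▸ hD0)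
      have hmap : D.map res = (X - C (res r)) * D₁.map res := by
        rw [hfac]; simp
      have hD₁map : D₁.map res ≠ 0 := right_ne_zero_of_mul (hmap ▸ hD)
      have hdeg₁ : D₁.natDegree < n := by
        rw [← hn, hfac, Polynomial.natDegree_mul (Polynomial.X_sub_C_ne_zero r) hD₁0,
          Polynomial.natDegree_X_sub_C]
        omega
      obtain ⟨ih1, ih2⟩ := ih _ hdeg₁ D₁ rfl hD₁map
      have hroot : ∀ ρ' : ↥O, D₁.IsRoot ρ' → D.IsRoot ρ' := by
        intro ρ' h
        rw [hfac]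
        exact Polynomial.root_mul_left_of_isRoot _ h
      have hrroot : D.IsRoot r := by
        rw [hfac]
        exact Polynomial.root_mul_right_of_isRoot _ (Polynomial.root_X_sub_C.mpr rfl)
      constructor
      · intro γ hγ
        rw [hmap, Polynomial.IsRoot.def, Polynomial.eval_mul, mul_eq_zero] at hγ
        rcases hγ with h | h
        · refine ⟨r, ?_, hrroot⟩
          simp only [Polynomial.eval_sub, Polynomial.eval_X, Polynomial.eval_C] at h
          exact (sub_eq_zero.mp h).symm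
        · obtain ⟨ρ, hρ, hρr⟩ := ih1 γ h
          exact ⟨ρ, hρ, hroot ρ hρr⟩
      · intro ρ huniq
        have h2 := ih2 ρ (fun ρ' h1 h2 => huniq ρ' h1 (hroot ρ' h2))
        have e1 : (D.map res).rootMultiplicity (res ρ) =
            (X - C (res r) : Polynomial k).rootMultiplicity (res ρ) +
              (D₁.map res).rootMultiplicity (res ρ) := by
          rw [hmap]
          exact Polynomial.rootMultiplicity_mul (hmap ▸ hD)
        have e2 : D.rootMultiplicity ρ =
            (X - C r : Polynomial ↥O).rootMultiplicity ρ + D₁.rootMultiplicity ρ := by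
          conv_lhs => rw [hfac]
          exact Polynomial.rootMultiplicity_mul (hfac ▸ hD0)
        rw [e1, e2, h2, Polynomial.rootMultiplicity_X_sub_C, Polynomial.rootMultiplicity_X_sub_C]
        congr 1
        by_cases hρr : ρ = r
        · rw [if_pos hρr, if_pos (by rw [hρr])]
        · have : res ρ ≠ res r := fun h => hρr (huniq r h.symm hrroot).symm
          rw [if_neg hρr, if_neg this]
    · -- `D = (1 - C s * X) * D₁`
      have hD₁0 : D₁ ≠ 0 := right_ne_zero_of_mul (hfac ▸ hD0)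
      have hs : res s = 0 := (hker s).mpr hsnu
      have hmap : D.map res = D₁.map res := by
        rw [hfac]; simp [hs]
      have hD₁map : D₁.map res ≠ 0 := hmap ▸ hD
      have hlin0 : (1 - C s * X : Polynomial ↥O) ≠ 0 := left_ne_zero_of_mul (hfac ▸ hD0)
      have hlindeg : (1 - C s * X : Polynomial ↥O).natDegree = 1 := by
        have h1 : (1 - C s * X : Polynomial ↥O) = C (-s) * X + C 1 := by
          rw [C_neg, C_1]; ring
        rw [h1]
        exact Polynomial.natDegree_linear (neg_ne_zero.mpr hs0)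
      have hdeg₁ : D₁.natDegree < n := by
        rw [← hn, hfac, Polynomial.natDegree_mul hlin0 hD₁0, hlindeg]
        omega
      obtain ⟨ih1, ih2⟩ := ih _ hdeg₁ D₁ rfl hD₁map
      have hroot : ∀ ρ' : ↥O, D₁.IsRoot ρ' → D.IsRoot ρ' := by
        intro ρ' h
        rw [hfac]
        exact Polynomial.root_mul_left_of_isRoot _ h
      constructor
      · intro γ hγ
        rw [hmap] at hγ
        obtain ⟨ρ, hρ, hρr⟩ := ih1 γ hγ
        exact ⟨ρ, hρ, hroot ρ hρr⟩
      · intro ρ huniq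
        have h2 := ih2 ρ (fun ρ' h1 h2 => huniq ρ' h1 (hroot ρ' h2))
        have e2 : D.rootMultiplicity ρ =
            (1 - C s * X : Polynomial ↥O).rootMultiplicity ρ + D₁.rootMultiplicity ρ := by
          conv_lhs => rw [hfac]
          exact Polynomial.rootMultiplicity_mul (hfac ▸ hD0)
        have e3 : (1 - C s * X : Polynomial ↥O).rootMultiplicity ρ = 0 := by
          apply Polynomial.rootMultiplicity_eq_zero
          rw [Polynomial.IsRoot.def]
          simp only [Polynomial.eval_sub, Polynomial.eval_one, Polynomial.eval_mul,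
            Polynomial.eval_C, Polynomial.eval_X]
          intro h
          -- `1 = s ρ` would make `s` a unit
          apply hsnu
          exact IsUnit.of_mul_eq_one ρ (sub_eq_zero.mp h).symm
        rw [hmap, h2, e2, e3, zero_add]
  · -- degree zero
    have hdeg0 : D.natDegree = 0 := by omega
    obtain ⟨d, hd⟩ : ∃ d : ↥O, D = C d := ⟨_, Polynomial.eq_C_of_natDegree_eq_zero hdeg0⟩
    have hmap : D.map res = C (res d) := by rw [hd]; simp
    have hd0 : res d ≠ 0 := by
      intro h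
      apply hD
      rw [hmap, h, C_0]
    constructor
    · intro γ hγ
      rw [hmap, Polynomial.IsRoot.def, Polynomial.eval_C] at hγ
      exact absurd hγ hd0
    · intro ρ _
      rw [hmap, hd, Polynomial.rootMultiplicity_C, Polynomial.rootMultiplicity_C]

/-- **IG-P1**: reduction of roots. -/
theorem stmt_rootRed : H34.Stmt_rootRed.{uC, uk} := by
  intro Cf k _ _ _ O res _ hker D hD γ hγ
  obtain ⟨h1, h2⟩ := rootRed_aux O res hker D.natDegree D rfl hD
  obtain ⟨ρ, hρ, hρr⟩ := h1 γ hγ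
  refine ⟨ρ, hρ, hρr, fun huniq => ?_⟩
  have := h2 ρ (fun ρ' h1' h2' => huniq ρ' (h1'.trans hρ) h2')
  rw [hρ] at this
  exact this

end Fermat.Agent.S27.REDu.H82

end
end
-- ==== END Fermat.Agent.S27.REDu.H82_RootRed

-- ==== BEGIN Fermat.Agent.S27.REDu.H82_TameDiscr
section

/-!
# G-RED package IG-P2 (helper82): the tame discriminant bound `Stmt_tameDiscr.{uK, uR, uL, uiot}`

`R` a PID, `B` the integral closure of `R` in a finite separable extension `L` of `K = Frac R`,
`c` an `R`-basis of `B` (`n` elements), `π` a prime of `R` of residue characteristic `0`.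
Then `ord_π disc(c) ≤ n - r`, `r` the number of maximal ideals of `B` containing `π`.
(The residue-degree hypothesis of the statement is not used.)

Proof.  Let `J` be the radical of `π B`.
* `h82_F1`: if `π ∣ Tr(z b)` for all `b` then `z ∈ J` (matrices over the residue field of
  characteristic zero: vanishing traces of all positive powers force nilpotency).
* `h82_F2`: if `π ^ 2 ∣ Tr(y w)` for all `w ∈ J` then `π ∣ y` (descending induction on `J ^ i`,
  using that `B` is integrally closed).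
* Smith normal form of the trace pairing `B → Rⁿ`: a basis `b'` of `B` and a basis `bM` of `Rⁿ`
  with `Tr(b'_i ·) = a_i • bM_i`, so `disc = unit * ∏ a_i`.  By `F2` no `a_i` is divisible by
  `π ^ 2`; by `F1` the `b'_i` with `π ∣ a_i` lie in `J`, and there are at most `n - r` of them
  (`h82_count`).
-/

universe uC uCf uK uR uF uL uE uk ukap uFp uFt uFtp uiot uEp uKp ux3b1

namespace Fermat.Agent.S27.REDu.H82

open Polynomial

/-- The trace of `aeval M (X * r)` vanishes when the traces of all positive powers vanish. -/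
theorem h82_trace_aeval_X_mul {κ ι : Type*} [Field κ] [Fintype ι] [DecidableEq ι]
    (M : Matrix ι ι κ) (h : ∀ k : ℕ, (M ^ (k + 1)).trace = 0) (r : κ[X]) :
    (aeval M (X * r)).trace = 0 := by
  induction r using Polynomial.induction_on' with
  | add p q hp hq => rw [mul_add, map_add, Matrix.trace_add, hp, hq, add_zero]
  | monomial n a =>
    have : (X : κ[X]) * monomial n a = monomial (n + 1) a := by
      rw [← C_mul_X_pow_eq_monomial, ← C_mul_X_pow_eq_monomial, pow_succ]; ring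
    rw [this, aeval_monomial, ← Algebra.smul_def, Matrix.trace_smul, h, smul_zero]

/-- Over a field of characteristic zero, a square matrix all of whose positive powers have
trace zero is nilpotent. -/
theorem h82_isNilpotent_of_trace_pow {κ ι : Type*} [Field κ] [CharZero κ] [Fintype ι]
    [DecidableEq ι] (M : Matrix ι ι κ) (h : ∀ k : ℕ, (M ^ (k + 1)).trace = 0) :
    IsNilpotent M := by
  have hint : IsIntegral κ M := Algebra.IsIntegral.isIntegral M
  have hp0 : minpoly κ M ≠ 0 := minpoly.ne_zero hint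
  obtain ⟨q, hq, hXq⟩ :=
    Polynomial.exists_eq_pow_rootMultiplicity_mul_and_not_dvd (minpoly κ M) hp0 0
  set m := (minpoly κ M).rootMultiplicity 0 with hm
  rw [C_0, sub_zero] at hq hXq
  have hq0 : q.coeff 0 ≠ 0 := fun h0 => hXq (X_dvd_iff.mpr h0)
  set r : κ[X] := C (-(q.coeff 0)⁻¹) * q.divX with hr
  set P : κ[X] := X * r with hP
  -- X^m * (P - 1) = - C q₀⁻¹ * minpoly
  have key : X ^ m * (P - 1) = C (-(q.coeff 0)⁻¹) * minpoly κ M := by
    have aux : ∀ (D : κ[X]) (c0 : κ), c0 ≠ 0 →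
        X ^ m * (X * (C (-c0⁻¹) * D) - 1) = C (-c0⁻¹) * (X ^ m * (D * X + C c0)) := by
      intro D c0 hc0
      have hC : C (-c0⁻¹) * C c0 = (-1 : κ[X]) := by
        rw [← C_mul, neg_mul, inv_mul_cancel₀ hc0]; simp
      have : C (-c0⁻¹) * (X ^ m * (D * X + C c0))
          = X ^ m * (X * (C (-c0⁻¹) * D)) + X ^ m * (C (-c0⁻¹) * C c0) := by
        ring
      rw [this, hC]; ring
    rw [hP, hr, aux q.divX (q.coeff 0) hq0, divX_mul_X_add, ← hq]
  have hdiv1 : minpoly κ M ∣ X ^ (m + 1) * (P - 1) := by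
    have : X ^ (m + 1) * (P - 1) = X * (X ^ m * (P - 1)) := by ring
    rw [this, key]
    exact (Dvd.intro_left _ rfl).mul_left _
  set Q : κ[X] := P ^ (m + 1) with hQ
  have hPQ : P - 1 ∣ Q - 1 := by
    have := sub_dvd_pow_sub_pow P 1 (m + 1)
    rwa [one_pow] at this
  have hdiv2 : minpoly κ M ∣ X ^ (m + 1) * (Q - 1) :=
    hdiv1.trans (mul_dvd_mul_left _ hPQ)
  have hdiv3 : minpoly κ M ∣ Q * Q - Q := by
    have : Q * Q - Q = r ^ (m + 1) * (X ^ (m + 1) * (Q - 1)) := by
      rw [hQ, hP]; ring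
    rw [this]
    exact hdiv2.mul_left _
  set e : Matrix ι ι κ := aeval M Q with he
  have hee : e * e = e := by
    have := minpoly.dvd_iff.mp hdiv3
    rw [map_sub, map_mul, sub_eq_zero] at this
    exact this
  have hMe : M ^ (m + 1) * e = M ^ (m + 1) := by
    have := minpoly.dvd_iff.mp hdiv2
    rw [map_mul, map_sub, map_pow, aeval_X, map_one, mul_sub, mul_one, sub_eq_zero] at this
    exact this
  have htr : e.trace = 0 := by
    have : Q = X * (X ^ m * r ^ (m + 1)) := by rw [hQ, hP]; ring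
    rw [he, this]
    exact h82_trace_aeval_X_mul M h _
  -- idempotent of trace zero vanishes
  have he0 : e = 0 := by
    have hid : IsIdempotentElem (Matrix.toLin' e) := by
      unfold IsIdempotentElem
      rw [Module.End.mul_eq_comp, ← Matrix.toLin'_mul, hee]
    have htr' : LinearMap.trace κ (ι → κ) (Matrix.toLin' e) = 0 := by
      rw [LinearMap.trace_eq_matrix_trace κ (Pi.basisFun κ ι), LinearMap.toMatrix_eq_toMatrix',
        LinearMap.toMatrix'_toLin', htr]
    have := LinearMap.IsIdempotentElem.eq_zero_of_trace_eq_zero hid htr'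
    exact Matrix.toLin'.injective (by rw [this, map_zero])
  refine ⟨m + 1, ?_⟩
  rw [← hMe, he0, mul_zero]


section F1

variable {R B ι : Type*} [CommRing R] [IsDomain R] [IsPrincipalIdealRing R] [CommRing B]
  [Algebra R B] [Fintype ι] [DecidableEq ι]

/-- Coordinatewise divisibility implies divisibility. -/
theorem h82_dvd_of_repr (c : Module.Basis ι R B) (π : R) (x : B)
    (h : ∀ i, π ∣ c.repr x i) : algebraMap R B π ∣ x := by
  choose t ht using h
  refine ⟨∑ i, t i • c i, ?_⟩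
  conv_lhs => rw [← c.sum_repr x]
  rw [Finset.mul_sum]
  refine Finset.sum_congr rfl fun i _ => ?_
  rw [ht i, mul_smul, Algebra.smul_def π]

/-- Divisibility implies coordinatewise divisibility. -/
theorem h82_repr_dvd (c : Module.Basis ι R B) (π : R) (x : B)
    (h : algebraMap R B π ∣ x) (i : ι) : π ∣ c.repr x i := by
  obtain ⟨y, rfl⟩ := h
  rw [← Algebra.smul_def, map_smul]
  exact ⟨c.repr y i, by simp⟩

theorem h82_dvd_smul (π : R) (r : R) (x : B) (h : algebraMap R B π ∣ x) :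
    algebraMap R B π ∣ r • x := by
  rw [Algebra.smul_def]; exact h.mul_left _

/-- **F1**: an element whose trace form against everything is divisible by `π` is nilpotent
modulo `π` (residue characteristic zero). -/
theorem h82_F1 (c : Module.Basis ι R B) (π : R) (hπ : Prime π)
    (hchar : ∀ m : ℕ, m ≠ 0 → ¬ π ∣ (m : R)) (z : B)
    (hz : ∀ b : B, π ∣ Algebra.trace R B (z * b)) : ∃ k, algebraMap R B π ∣ z ^ k := by
  haveI hmax : (Ideal.span {π}).IsMaximal :=
    PrincipalIdealRing.isMaximal_of_irreducible hπ.irreducible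
  letI := Ideal.Quotient.field (Ideal.span {π})
  haveI : CharZero (R ⧸ Ideal.span {π}) := charZero_of_inj_zero (by
    intro n hn
    by_contra h0
    apply hchar n h0
    have : (Ideal.Quotient.mk (Ideal.span {π})) (n : R) = 0 := by
      rw [map_natCast]; exact hn
    rwa [Ideal.Quotient.eq_zero_iff_mem, Ideal.mem_span_singleton] at this)
  set φ : B →+* Matrix ι ι (R ⧸ Ideal.span {π}) :=
    (Ideal.Quotient.mk (Ideal.span {π})).mapMatrix.comp (Algebra.leftMulMatrix c).toRingHom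
    with hφ
  have hφa : ∀ x : B, ∀ i j, φ x i j = Ideal.Quotient.mk (Ideal.span {π}) (c.repr (x * c j) i) := by
    intro x i j
    simp [hφ, Algebra.leftMulMatrix_eq_repr_mul]
  have htr : ∀ x : B, (φ x).trace = Ideal.Quotient.mk (Ideal.span {π}) (Algebra.trace R B x) := by
    intro x
    rw [Algebra.trace_eq_matrix_trace c, AddMonoidHom.map_trace]; rfl
  have hnil : IsNilpotent (φ z) := by
    apply h82_isNilpotent_of_trace_pow
    intro k
    rw [← map_pow, htr, pow_succ', Ideal.Quotient.eq_zero_iff_mem, Ideal.mem_span_singleton]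
    exact hz _
  obtain ⟨k, hk⟩ := hnil
  refine ⟨k, ?_⟩
  rw [← map_pow] at hk
  have hent : ∀ i j, π ∣ c.repr (z ^ k * c j) i := by
    intro i j
    have := congrFun (congrFun hk i) j
    rw [hφa, Matrix.zero_apply, Ideal.Quotient.eq_zero_iff_mem, Ideal.mem_span_singleton] at this
    exact this
  have h1 : ∀ j, algebraMap R B π ∣ z ^ k * c j :=
    fun j => h82_dvd_of_repr c π _ (fun i => hent i j)
  have : z ^ k = ∑ j, c.repr 1 j • (z ^ k * c j) := by
    conv_lhs => rw [← mul_one (z ^ k), ← c.sum_repr 1, Finset.mul_sum]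
    refine Finset.sum_congr rfl fun j _ => ?_
    rw [mul_smul_comm]
  rw [this]
  exact Finset.dvd_sum fun j _ => h82_dvd_smul π _ _ (h1 j)

end F1

section F2

variable {R L ι : Type*} [CommRing R] [IsDomain R] [IsPrincipalIdealRing R] [Field L]
  [Algebra R L] [Fintype ι] [DecidableEq ι]

/-- The radical of `π B`. -/
def h82J (R L : Type*) [CommRing R] [Field L] [Algebra R L] (π : R) :
    Ideal ↥(integralClosure R L) :=
  (Ideal.span {algebraMap R ↥(integralClosure R L) π}).radical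

theorem h82_mem_J (π : R) (w : ↥(integralClosure R L)) :
    w ∈ h82J R L π ↔ ∃ k, algebraMap R ↥(integralClosure R L) π ∣ w ^ k := by
  unfold h82J
  constructor
  · rintro ⟨k, hk⟩
    exact ⟨k, Ideal.mem_span_singleton.mp hk⟩
  · rintro ⟨k, hk⟩
    exact ⟨k, Ideal.mem_span_singleton.mpr hk⟩

/-- The integrality step of F2. -/
theorem h82_F2_step (hinj : Function.Injective (algebraMap R L))
    (c : Module.Basis ι R ↥(integralClosure R L)) (π : R) (hπ : Prime π)
    (hchar : ∀ m : ℕ, m ≠ 0 → ¬ π ∣ (m : R)) (y : ↥(integralClosure R L))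
    (hy : ∀ w ∈ h82J R L π, π ^ 2 ∣ Algebra.trace R ↥(integralClosure R L) (y * w))
    (I : Ideal ↥(integralClosure R L))
    (hI : ∀ u ∈ I, ∀ w ∈ h82J R L π, algebraMap R ↥(integralClosure R L) π ∣ y * (u * w))
    (u : ↥(integralClosure R L)) (hu : u ∈ I) :
    algebraMap R ↥(integralClosure R L) π ∣ y * u := by
  have hπ0 : π ≠ 0 := hπ.ne_zero
  have hπL : algebraMap R L π ≠ 0 := fun h => hπ0 (hinj (by rw [h, map_zero]))
  haveI : Module.Finite R ↥(integralClosure R L) := Module.Finite.of_basis c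
  haveI hnoeth : IsNoetherian R ↥(integralClosure R L) :=
    isNoetherian_of_isNoetherianRing_of_finite R _
  -- the submodule N
  set N : Submodule R L :=
    Submodule.map ((integralClosure R L).val.toLinearMap) ((h82J R L π).restrictScalars R)
    with hN
  have hNmem : ∀ n : L, n ∈ N ↔ ∃ w ∈ h82J R L π, (w : L) = n := by
    intro n
    rw [hN, Submodule.mem_map]
    rfl
  have hπJ : algebraMap R ↥(integralClosure R L) π ∈ h82J R L π :=
    (h82_mem_J π _).mpr ⟨1, by rw [pow_one]⟩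
  have hNbot : N ≠ ⊥ := by
    intro h
    have : algebraMap R L π ∈ N := (hNmem _).mpr ⟨_, hπJ, rfl⟩
    rw [h, Submodule.mem_bot] at this
    exact hπL this
  have hNfg : N.FG := (IsNoetherian.noetherian _).map _
  set x : L := (algebraMap R L π)⁻¹ * ((y * u : ↥(integralClosure R L)) : L) with hx
  have hxN : ∀ n ∈ N, x • n ∈ N := by
    intro n hn
    obtain ⟨w, hw, rfl⟩ := (hNmem n).mp hn
    obtain ⟨v, hv⟩ := hI u hu w hw
    have hvJ : v ∈ h82J R L π := by
      rw [h82_mem_J]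
      apply h82_F1 c π hπ hchar
      intro b
      have huwb : u * w * b ∈ h82J R L π :=
        Ideal.mul_mem_right _ _ (Ideal.mul_mem_left _ _ hw)
      obtain ⟨s, hs⟩ := hy _ huwb
      have h1 : π * Algebra.trace R ↥(integralClosure R L) (v * b) = π * (π * s) := by
        rw [← smul_eq_mul, ← map_smul, Algebra.smul_def, ← mul_assoc, ← hv,
          show y * (u * w) * b = y * (u * w * b) by ring, hs]
        ring
      exact ⟨s, mul_left_cancel₀ hπ0 h1⟩
    refine (hNmem _).mpr ⟨v, hvJ, ?_⟩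
    have hv' : ((y * u : ↥(integralClosure R L)) : L) * (w : L) = algebraMap R L π * (v : L) := by
      have := congrArg (fun z : ↥(integralClosure R L) => (z : L)) hv
      simpa [mul_assoc] using this
    rw [smul_eq_mul, hx, mul_assoc, hv', inv_mul_cancel_left₀ hπL]
  have hxint : IsIntegral R x := isIntegral_of_smul_mem_submodule N hNbot hNfg x hxN
  refine ⟨⟨x, hxint⟩, ?_⟩
  apply Subtype.ext
  show ((y * u : ↥(integralClosure R L)) : L) = algebraMap R L π * x
  rw [hx, mul_inv_cancel_left₀ hπL]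

/-- **F2**: an element whose trace form against the radical `J` of `π B` is divisible by `π ^ 2`
is divisible by `π`. -/
theorem h82_F2 (hinj : Function.Injective (algebraMap R L))
    (c : Module.Basis ι R ↥(integralClosure R L)) (π : R) (hπ : Prime π)
    (hchar : ∀ m : ℕ, m ≠ 0 → ¬ π ∣ (m : R)) (y : ↥(integralClosure R L))
    (hy : ∀ w ∈ h82J R L π, π ^ 2 ∣ Algebra.trace R ↥(integralClosure R L) (y * w)) :
    algebraMap R ↥(integralClosure R L) π ∣ y := by
  haveI : Module.Finite R ↥(integralClosure R L) := Module.Finite.of_basis c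
  haveI hnoeth : IsNoetherian R ↥(integralClosure R L) :=
    isNoetherian_of_isNoetherianRing_of_finite R _
  haveI : IsNoetherianRing ↥(integralClosure R L) := isNoetherian_of_tower R hnoeth
  obtain ⟨m, hm⟩ := Ideal.exists_radical_pow_le_of_fg
    (Ideal.span {algebraMap R ↥(integralClosure R L) π}) (IsNoetherian.noetherian _)
  have hP : ∀ j, j ≤ m → ∀ u ∈ (h82J R L π) ^ (m - j),
      algebraMap R ↥(integralClosure R L) π ∣ y * u := by
    intro j
    induction j with
    | zero =>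
      intro _ u hu
      have := hm hu
      rw [Ideal.mem_span_singleton] at this
      exact this.mul_left y
    | succ j ih =>
      intro hj u hu
      have ih' := ih (by omega)
      have hmj : m - j = (m - (j + 1)) + 1 := by omega
      rw [hmj] at ih'
      refine h82_F2_step hinj c π hπ hchar y hy _ ?_ u hu
      intro u' hu' w hw
      apply ih'
      rw [pow_succ]
      exact Ideal.mul_mem_mul hu' hw
  have := hP m le_rfl 1 (by simp)
  rwa [mul_one] at this

end F2

section Prod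

variable {R ι : Type*} [CommRing R] [IsDomain R] [DecidableEq ι]

open Classical in
/-- If no factor is divisible by `π ^ 2`, the order of `π` in a product is at most the number of
factors divisible by `π`. -/
theorem h82_pow_dvd_prod (π : R) (hπ : Prime π) (a : ι → R) (ha : ∀ i, ¬ π ^ 2 ∣ a i)
    (s : Finset ι) : ∀ k : ℕ, π ^ k ∣ ∏ i ∈ s, a i → k ≤ (s.filter (fun i => π ∣ a i)).card := by
  classical
  induction s using Finset.induction_on with
  | empty =>
    intro k hk
    rcases Nat.eq_zero_or_pos k with h0 | h0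
    · simp [h0]
    · exfalso
      rw [Finset.prod_empty] at hk
      exact hπ.not_isUnit (isUnit_of_dvd_one ((dvd_pow_self π h0.ne').trans hk))
  | insert i s his ih =>
    intro k hk
    rw [Finset.prod_insert his] at hk
    by_cases hi : π ∣ a i
    · rw [Finset.filter_insert, if_pos hi, Finset.card_insert_of_notMem (by simp [his])]
      rcases Nat.eq_zero_or_pos k with h0 | h0
      · omega
      · obtain ⟨k', rfl⟩ : ∃ k', k = k' + 1 := ⟨k - 1, by omega⟩
        obtain ⟨a', ha'⟩ := hi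
        have hna' : ¬ π ∣ a' := by
          rintro ⟨a'', rfl⟩
          exact ha i ⟨a'', by rw [ha']; ring⟩
        have h1 : π ^ k' ∣ a' * ∏ i ∈ s, a i := by
          rw [ha', pow_succ', mul_assoc] at hk
          exact (mul_dvd_mul_iff_left hπ.ne_zero).mp hk
        have h2 := hπ.pow_dvd_of_dvd_mul_left k' hna' h1
        have := ih k' h2
        omega
    · rw [Finset.filter_insert, if_neg hi]
      exact ih k (hπ.pow_dvd_of_dvd_mul_left k hi hk)

end Prod

section Count

variable {R B ι : Type*} [CommRing R] [IsDomain R] [IsPrincipalIdealRing R] [CommRing B]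
  [Algebra R B] [Fintype ι] [DecidableEq ι]

/-- Counting: basis vectors that are nilpotent modulo `π`, plus maximal ideals over `π`, number at
most the rank. -/
theorem h82_count (b' : Module.Basis ι R B) (π : R) (hπ : Prime π) (T : Finset ι)
    (hT : ∀ i ∈ T, ∃ k, algebraMap R B π ∣ (b' i) ^ k)
    (Ps : Finset (Ideal B)) (hPs : ∀ P ∈ Ps, P.IsMaximal ∧ algebraMap R B π ∈ P) :
    T.card + Ps.card ≤ Fintype.card ι := by
  classical
  haveI hmax : (Ideal.span {π}).IsMaximal :=
    PrincipalIdealRing.isMaximal_of_irreducible hπ.irreducible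
  letI := Ideal.Quotient.field (Ideal.span {π})
  -- the elements ε_P
  have hε : ∀ P ∈ Ps, ∃ ε : B, ε ∉ P ∧ ∀ P' ∈ Ps, P' ≠ P → ε ∈ P' := by
    intro P hP
    have hnle : ¬ (∏ P' ∈ Ps.erase P, P') ≤ P := by
      intro hle
      obtain ⟨P', hP', hle'⟩ := ((hPs P hP).1.isPrime.prod_le).mp hle
      have hP'mem := Finset.mem_erase.mp hP'
      exact hP'mem.1 ((hPs P' hP'mem.2).1.eq_of_le (hPs P hP).1.ne_top hle')
    obtain ⟨ε, hε1, hε2⟩ := SetLike.not_le_iff_exists.mp hnle
    refine ⟨ε, hε2, fun P' hP' hne => ?_⟩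
    have h1 : (∏ P'' ∈ Ps.erase P, P'') ≤ P' :=
      Ideal.prod_le_inf.trans (Finset.inf_le (Finset.mem_erase.mpr ⟨hne, hP'⟩))
    exact h1 hε1
  choose! ε hε1 hε2 using hε
  -- the family of vectors
  set v : Ps → ((↥(Tᶜ : Finset ι)) → R ⧸ Ideal.span {π}) :=
    fun P j => Ideal.Quotient.mk (Ideal.span {π}) (b'.repr (ε P.1) j.1) with hv
  have hli : LinearIndependent (R ⧸ Ideal.span {π}) v := by
    rw [Fintype.linearIndependent_iff]
    intro g hg P₀
    -- lift g
    have hsurj := Ideal.Quotient.mk_surjective (I := Ideal.span {π})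
    choose β hβ using fun P => hsurj (g P)
    set x : B := ∑ P : Ps, β P • ε P.1 with hx
    have hxc : ∀ j ∉ T, π ∣ b'.repr x j := by
      intro j hj
      have := congrFun hg ⟨j, Finset.mem_compl.mpr hj⟩
      rw [Finset.sum_apply] at this
      simp only [Pi.smul_apply, hv, smul_eq_mul, Pi.zero_apply] at this
      rw [← Ideal.mem_span_singleton, ← Ideal.Quotient.eq_zero_iff_mem, hx, map_sum,
        Finsupp.coe_finsetSum, Finset.sum_apply, map_sum, ← this]
      refine Finset.sum_congr rfl fun P _ => ?_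
      rw [map_smul, Finsupp.smul_apply, smul_eq_mul, map_mul, hβ]
    -- x lies in every P ∈ Ps
    have hxP : ∀ P ∈ Ps, x ∈ P := by
      intro P hP
      rw [← b'.sum_repr x]
      refine Ideal.sum_mem _ fun j _ => ?_
      by_cases hj : j ∈ T
      · obtain ⟨k, hk⟩ := hT j hj
        have : (b' j) ^ k ∈ P := Ideal.mem_of_dvd _ hk (hPs P hP).2
        have := (hPs P hP).1.isPrime.mem_of_pow_mem k this
        rw [Algebra.smul_def]
        exact Ideal.mul_mem_left _ _ this
      · obtain ⟨t, ht⟩ := hxc j hj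
        rw [ht, mul_smul, Algebra.smul_def]
        exact Ideal.mul_mem_right _ _ (hPs P hP).2
    -- isolate P₀
    have hP₀ := hPs P₀.1 P₀.2
    have hsplit : β P₀ • ε P₀.1 ∈ P₀.1 := by
      have h1 : x = β P₀ • ε P₀.1 + ∑ P ∈ Finset.univ.erase P₀, β P • ε P.1 := by
        rw [hx, ← Finset.add_sum_erase _ _ (Finset.mem_univ P₀)]
      have h2 : ∑ P ∈ Finset.univ.erase P₀, β P • ε P.1 ∈ P₀.1 := by
        refine Ideal.sum_mem _ fun P hP => ?_
        rw [Algebra.smul_def]
        refine Ideal.mul_mem_left _ _ (hε2 P.1 P.2 P₀.1 P₀.2 ?_)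
        intro h
        exact (Finset.mem_erase.mp hP).1 (Subtype.ext h.symm)
      have h3 := hxP P₀.1 P₀.2
      rw [h1] at h3
      exact (Ideal.add_mem_iff_left _ h2).mp h3
    rw [Algebra.smul_def] at hsplit
    have hβP : algebraMap R B (β P₀) ∈ P₀.1 :=
      (hP₀.1.isPrime.mem_or_mem hsplit).resolve_right (hε1 P₀.1 P₀.2)
    -- comap is span π
    have hcomap : Ideal.span {π} = Ideal.comap (algebraMap R B) P₀.1 := by
      apply hmax.eq_of_le
      · exact (Ideal.comap_ne_top _ hP₀.1.ne_top)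
      · rw [Ideal.span_singleton_le_iff_mem]
        exact hP₀.2
    have : β P₀ ∈ Ideal.span {π} := by rw [hcomap]; exact hβP
    rw [← hβ P₀]
    exact Ideal.Quotient.eq_zero_iff_mem.mpr this
  have h1 := hli.fintype_card_le_finrank
  rw [Module.finrank_fintype_fun_eq_card, Fintype.card_coe, Fintype.card_coe,
    Finset.card_compl] at h1
  have h2 : T.card ≤ Fintype.card ι := Finset.card_le_univ T
  omega

end Count

section Main

/-- The discriminant of an integral basis is nonzero. -/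
theorem h82_discr_ne_zero (R : Type uR) (K : Type uK) (L : Type uL) [CommRing R] [IsDomain R]
    [Field K] [Field L]
    [Algebra R K] [IsFractionRing R K] [Algebra K L] [Algebra R L] [IsScalarTower R K L]
    [FiniteDimensional K L] [Algebra.IsSeparable K L]
    (ι : Type uiot) [Fintype ι] [DecidableEq ι] (c : Module.Basis ι R ↥(integralClosure R L)) :
    Algebra.discr R c ≠ 0 := by
  haveI : IsLocalization (Algebra.algebraMapSubmonoid ↥(integralClosure R L) (nonZeroDivisors R)) L :=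
    IsIntegralClosure.isLocalization R K L ↥(integralClosure R L)
  have h1 := Algebra.discr_localizationLocalization R (Rₘ := K) (nonZeroDivisors R) L c
  have h2 := Algebra.discr_not_zero_of_basis K
    (Module.Basis.localizationLocalization K (nonZeroDivisors R) L c)
  intro h0
  rw [h1, h0, map_zero] at h2
  exact h2 rfl

open Classical in
/-- **Tame discriminant bound**, the residue-degree hypothesis is not needed. -/
theorem h82_tameDiscr (R : Type uR) (K : Type uK) (L : Type uL) [CommRing R] [IsDomain R] [IsPrincipalIdealRing R]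
    [Field K] [Field L]
    [Algebra R K] [IsFractionRing R K] [Algebra K L] [Algebra R L] [IsScalarTower R K L]
    [FiniteDimensional K L] [Algebra.IsSeparable K L]
    (ι : Type uiot) [Fintype ι] [DecidableEq ι] (c : Module.Basis ι R ↥(integralClosure R L))
    (π : R) (hπ : Prime π) (hchar : ∀ m : ℕ, m ≠ 0 → ¬ π ∣ (m : R)) :
    ¬ π ^ (Fintype.card ι -
        Set.ncard {P : Ideal ↥(integralClosure R L) |
          P.IsMaximal ∧ algebraMap R ↥(integralClosure R L) π ∈ P} + 1) ∣ Algebra.discr R c := by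
  have hinj : Function.Injective (algebraMap R L) := by
    rw [IsScalarTower.algebraMap_eq R K L]
    exact (algebraMap K L).injective.comp (IsFractionRing.injective R K)
  have hd : Algebra.discr R c ≠ 0 := h82_discr_ne_zero R K L ι c
  -- the linear map g
  set g : ↥(integralClosure R L) →ₗ[R] (ι → R) :=
    LinearMap.pi fun i => (Algebra.traceForm R ↥(integralClosure R L)) (c i) with hg
  have hgapp : ∀ b i, g b i = Algebra.trace R ↥(integralClosure R L) (c i * b) := by
    intro b i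
    rfl
  have hGmat : LinearMap.toMatrix c (Pi.basisFun R ι) g = Algebra.traceMatrix R c := by
    ext i j
    rw [LinearMap.toMatrix_apply, Pi.basisFun_repr, hgapp, Algebra.traceMatrix_apply,
      Algebra.traceForm_apply]
  have hdet : (LinearMap.toMatrix c (Pi.basisFun R ι) g).det ≠ 0 := by
    rw [hGmat, ← Algebra.discr_def]; exact hd
  have hginj : Function.Injective g := by
    rw [injective_iff_map_eq_zero]
    intro b hb
    have h1 := LinearMap.toMatrix_mulVec_repr c (Pi.basisFun R ι) g b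
    rw [hb, map_zero] at h1
    have h2 := Matrix.eq_zero_of_mulVec_eq_zero hdet h1
    exact c.repr.map_eq_zero_iff.mp (by ext i; rw [h2]; rfl)
  have hrank : Module.finrank R ↥(LinearMap.range g) = Module.finrank R (ι → R) := by
    rw [LinearMap.finrank_range_of_inj hginj, Module.finrank_eq_card_basis c,
      Module.finrank_fintype_fun_eq_card]
  obtain ⟨bM, a, bN, hsnf⟩ :=
    Submodule.exists_smith_normal_form_of_rank_eq (Pi.basisFun R ι) hrank
  set e : ↥(integralClosure R L) ≃ₗ[R] ↥(LinearMap.range g) :=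
    LinearEquiv.ofInjective g hginj with he
  set b' : Module.Basis ι R ↥(integralClosure R L) := bN.map e.symm with hb'
  have hgb' : ∀ i, g (b' i) = a i • bM i := by
    intro i
    rw [← hsnf i, hb', Module.Basis.map_apply]
    have := LinearEquiv.ofInjective_apply g (h := hginj) (e.symm (bN i))
    rw [← this, ← he, LinearEquiv.apply_symm_apply]
  -- matrix identity
  have hdiag : LinearMap.toMatrix b' bM g = Matrix.diagonal a := by
    ext i j
    rw [LinearMap.toMatrix_apply, hgb', map_smul, Module.Basis.repr_self, Finsupp.smul_apply,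
      Finsupp.single_apply, Matrix.diagonal_apply]
    by_cases hij : i = j
    · subst hij; simp
    · rw [if_neg (Ne.symm hij), if_neg hij, smul_zero]
  have hfact := basis_toMatrix_mul_linearMap_toMatrix_mul_basis_toMatrix
    c b' (Pi.basisFun R ι) bM g
  have hdvd : Algebra.discr R c ∣ ∏ i, a i := by
    have h1 : Algebra.discr R c
        = (Pi.basisFun R ι).det bM * (∏ i, a i) * b'.det c := by
      rw [Algebra.discr_def, ← hGmat, ← hfact, hdiag, Matrix.det_mul, Matrix.det_mul,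
        Matrix.det_diagonal, Module.Basis.det_apply, Module.Basis.det_apply]
    rw [h1]
    exact ((Module.Basis.isUnit_det b' c).mul_right_dvd).mpr
      (((Module.Basis.isUnit_det (Pi.basisFun R ι) bM).mul_left_dvd).mpr dvd_rfl)
  -- trace divisibility
  have htr : ∀ i b, a i ∣ Algebra.trace R ↥(integralClosure R L) (b' i * b) := by
    intro i b
    have h1 : ∀ j, Algebra.trace R ↥(integralClosure R L) (c j * b' i) = a i * bM i j := by
      intro j
      rw [← hgapp, hgb', Pi.smul_apply, smul_eq_mul]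
    rw [← c.sum_repr b, Finset.mul_sum, map_sum]
    refine Finset.dvd_sum fun j _ => ?_
    rw [mul_smul_comm, map_smul, smul_eq_mul, mul_comm (b' i) (c j), h1]
    exact ⟨(c.repr b) j * bM i j, by ring⟩
  -- Claim 1
  have hcl1 : ∀ i, ¬ π ^ 2 ∣ a i := by
    intro i hi
    have h1 : ∀ b, π ^ 2 ∣ Algebra.trace R ↥(integralClosure R L) (b' i * b) :=
      fun b => hi.trans (htr i b)
    have h2 : algebraMap R ↥(integralClosure R L) π ∣ b' i :=
      h82_F2 hinj c π hπ hchar (b' i) (fun w _ => h1 w)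
    have h3 := h82_repr_dvd b' π (b' i) h2 i
    rw [Module.Basis.repr_self, Finsupp.single_eq_same] at h3
    exact hπ.not_isUnit (isUnit_of_dvd_one h3)
  -- the set T
  set T : Finset ι := Finset.univ.filter (fun i => π ∣ a i) with hT
  have hTJ : ∀ i ∈ T, ∃ k, algebraMap R ↥(integralClosure R L) π ∣ (b' i) ^ k := by
    intro i hi
    have hi' : π ∣ a i := (Finset.mem_filter.mp hi).2
    exact h82_F1 c π hπ hchar (b' i) (fun b => hi'.trans (htr i b))
  -- counting
  have hcount : T.card + Set.ncard {P : Ideal ↥(integralClosure R L) |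
          P.IsMaximal ∧ algebraMap R ↥(integralClosure R L) π ∈ P} ≤ Fintype.card ι := by
    by_cases hfin : Set.Finite {P : Ideal ↥(integralClosure R L) |
          P.IsMaximal ∧ algebraMap R ↥(integralClosure R L) π ∈ P}
    · rw [Set.ncard_eq_toFinset_card _ hfin]
      apply h82_count b' π hπ T hTJ
      intro P hP
      exact (Set.Finite.mem_toFinset hfin).mp hP
    · rw [Set.Infinite.ncard hfin, add_zero]
      exact Finset.card_le_univ T
  intro hdiv
  have h1 := h82_pow_dvd_prod π hπ a hcl1 Finset.univ _ (hdiv.trans hdvd)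
  rw [← hT] at h1
  omega

end Main

/-- **IG-P2**: the tame discriminant bound. -/
theorem stmt_tameDiscr : H34.Stmt_tameDiscr.{uK, uR, uL, uiot} := by
  intro R K L _ _ _ _ _ _ _ _ _ _ _ _ ι _ _ c π hπ hchar _
  exact h82_tameDiscr R K L ι c π hπ hchar

end Fermat.Agent.S27.REDu.H82

end
-- ==== END Fermat.Agent.S27.REDu.H82_TameDiscr

-- ==== BEGIN Fermat.Agent.S27.Zeta.H30_NormCls
section

set_option autoImplicit false

noncomputable section

namespace Fermat.Agent.S27.Zeta.H30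

open Fermat.Agent.S27.Zeta

universe u

variable {Pl : Type u}

/-! ### generalities on `act`, `orbSum`, `effInv` -/

theorem act_orbSum (σ : Equiv.Perm Pl) (s : ℕ) (P : Pl) (h : (σ ^ s) P = P) :
    act σ (orbSum σ s P) = orbSum σ s P := by
  unfold orbSum
  rw [map_sum]
  have e1 : ∀ i ∈ Finset.range s, act σ (Finsupp.single ((σ ^ i) P) (1 : ℤ))
      = Finsupp.single ((σ ^ (i + 1)) P) (1 : ℤ) := by
    intro i _
    rw [act_single, pow_succ', Equiv.Perm.mul_apply]
  rw [Finset.sum_congr rfl e1]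
  have e2 := Finset.sum_range_succ' (fun i => Finsupp.single ((σ ^ i) P) (1 : ℤ)) s
  have e3 := Finset.sum_range_succ (fun i => Finsupp.single ((σ ^ i) P) (1 : ℤ)) s
  rw [e2] at e3
  simp only [h, pow_zero, Equiv.Perm.coe_one, id_eq] at e3
  exact add_right_cancel e3

theorem orbSum_nonneg (σ : Equiv.Perm Pl) (s : ℕ) (P : Pl) : 0 ≤ orbSum σ s P := by
  unfold orbSum
  refine Finset.sum_nonneg fun i _ => ?_
  intro Q
  rw [Finsupp.coe_zero, Pi.zero_apply]
  classical
  rw [Finsupp.single_apply]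
  split_ifs <;> norm_num

theorem deg_orbSum (σ : Equiv.Perm Pl) (s : ℕ) (P : Pl) : deg (orbSum σ s P) = s := by
  unfold orbSum
  rw [map_sum]
  simp only [deg_single, Finset.sum_const, Finset.card_range, nsmul_eq_mul, mul_one]

/-- `P + φP + … + φ^(ms-1)P = ∑_{a<m} φ^a (P + φ^m P + … + φ^(m(s-1)) P)` -/
theorem orbSum_mul (σ : Equiv.Perm Pl) (m s : ℕ) (P : Pl) :
    orbSum σ (m * s) P = ∑ a ∈ Finset.range m, act (σ ^ a) (orbSum (σ ^ m) s P) := by
  induction s with
  | zero =>
    simp only [mul_zero, orbSum, Finset.range_zero, Finset.sum_empty, map_zero,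
      Finset.sum_const_zero]
  | succ s ih =>
    have e1 : orbSum σ (m * (s + 1)) P
        = orbSum σ (m * s) P + ∑ a ∈ Finset.range m, Finsupp.single ((σ ^ (m * s + a)) P) 1 := by
      unfold orbSum
      rw [mul_add, mul_one, Finset.sum_range_add]
    have e2 : orbSum (σ ^ m) (s + 1) P
        = orbSum (σ ^ m) s P + Finsupp.single (((σ ^ m) ^ s) P) 1 := by
      unfold orbSum
      rw [Finset.sum_range_succ]
    rw [e1, e2, ih]
    simp only [map_add, Finset.sum_add_distrib, act_single]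
    congr 1
    refine Finset.sum_congr rfl fun a _ => ?_
    congr 1
    rw [← pow_mul, ← Equiv.Perm.mul_apply, ← pow_add, add_comm]

theorem effInv_zero (σ : Equiv.Perm Pl) : effInv σ 0 = {0} := by
  ext E
  simp only [effInv, Set.mem_ofPred_eq, Set.mem_singleton_iff]
  constructor
  · rintro ⟨h0, -, hd⟩
    have hd' : E.sum (fun _ n => n) = 0 := by
      have : deg E = E.sum (fun _ n => n) := by
        simp only [deg, Finsupp.liftAddHom_apply]
        rfl
      rw [← this]
      exact_mod_cast hd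
    ext P
    rw [Finsupp.coe_zero, Pi.zero_apply]
    by_contra hP
    have hPs : P ∈ E.support := Finsupp.mem_support_iff.mpr hP
    have hnn : ∀ Q ∈ E.support, (0 : ℤ) ≤ E Q := fun Q _ => h0 Q
    have := (Finset.sum_eq_zero_iff_of_nonneg hnn).mp hd' P hPs
    exact hP this
  · rintro rfl
    refine ⟨le_refl _, map_zero _, ?_⟩
    rw [map_zero]
    rfl

theorem smul_single_mem_effInv (σ : Equiv.Perm Pl) (P₀ : Pl) (h : σ P₀ = P₀) (r : ℕ) :
    Finsupp.single P₀ (r : ℤ) ∈ effInv σ r := by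
  refine ⟨?_, ?_, ?_⟩
  · intro Q
    rw [Finsupp.coe_zero, Pi.zero_apply]
    classical
    rw [Finsupp.single_apply]
    split_ifs
    · exact Int.natCast_nonneg r
    · exact le_refl _
  · rw [act_single, h]
  · rw [deg_single]

theorem fixPts_pow (σ : Equiv.Perm Pl) (m i : ℕ) : fixPts (σ ^ m) i = fixPts σ (m * i) := by
  unfold fixPts
  rw [← pow_mul]

theorem pow_fixed (σ : Equiv.Perm Pl) (P₀ : Pl) (h : σ P₀ = P₀) (j : ℕ) : (σ ^ j) P₀ = P₀ := by
  induction j with
  | zero => rfl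
  | succ j ih => rw [pow_succ, Equiv.Perm.mul_apply, h, ih]

/-! ### the class map -/

variable (S : ZSys Pl)

/-- `D ↦ D - deg(D) P₀`, a divisor of degree `0` -/
def toDegZero (P₀ : Pl) : (Pl →₀ ℤ) →+ S.degZero :=
  AddMonoidHom.codRestrict (AddMonoidHom.id _ - (Finsupp.singleAddHom P₀).comp S.degree) S.degZero
    (fun D => by
      show S.degree (D - Finsupp.single P₀ (S.degree D)) = 0
      rw [map_sub, S.degree_single, sub_self])

theorem coe_toDegZero (P₀ : Pl) (D : Pl →₀ ℤ) :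
    ((toDegZero S P₀ D : S.degZero) : Pl →₀ ℤ) = D - Finsupp.single P₀ (S.degree D) := rfl

/-- the class `[D - deg(D) P₀]` -/
def cls (P₀ : Pl) : (Pl →₀ ℤ) →+ S.Cl0 :=
  (QuotientAddGroup.mk' (S.Princ.addSubgroupOf S.degZero)).comp (toDegZero S P₀)

theorem cls_apply (P₀ : Pl) (D : Pl →₀ ℤ) :
    cls S P₀ D = QuotientAddGroup.mk (toDegZero S P₀ D) := rfl

theorem cls_act (P₀ : Pl) (hP₀ : S.φ P₀ = P₀) (D : Pl →₀ ℤ) :
    cls S P₀ (act S.φ D) = S.frob (cls S P₀ D) := by
  rw [cls_apply, cls_apply, S.frob_mk]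
  congr 1
  apply Subtype.ext
  rw [coe_toDegZero, ZSys.coe_frobDegZero, coe_toDegZero, map_sub, act_single, hP₀, S.degree_act]

theorem cls_act_pow (P₀ : Pl) (hP₀ : S.φ P₀ = P₀) (i : ℕ) (D : Pl →₀ ℤ) :
    cls S P₀ (act (S.φ ^ i) D) = (⇑S.frob)^[i] (cls S P₀ D) := by
  induction i with
  | zero => rw [pow_zero, act_one, Function.iterate_zero, id_eq]
  | succ i ih => rw [pow_succ', act_mul, cls_act S P₀ hP₀, ih, Function.iterate_succ_apply']

theorem cls_mk (P₀ : Pl) (D : S.degZero) :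
    cls S P₀ (D : Pl →₀ ℤ) = QuotientAddGroup.mk D := by
  rw [cls_apply]
  congr 1
  apply Subtype.ext
  rw [coe_toDegZero]
  have : S.degree (D : Pl →₀ ℤ) = 0 := D.2
  rw [this, Finsupp.single_zero, sub_zero]

theorem cls_eq_zero_iff (P₀ : Pl) (D : Pl →₀ ℤ) (hD : S.degree D = 0) :
    cls S P₀ D = 0 ↔ D ∈ S.Princ := by
  rw [cls_apply, QuotientAddGroup.eq_zero_iff, AddSubgroup.mem_addSubgroupOf, coe_toDegZero, hD,
    Finsupp.single_zero, sub_zero]

theorem cls_eq_iff (P₀ : Pl) (D D' : Pl →₀ ℤ) (h : S.degree D = S.degree D') :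
    cls S P₀ D = cls S P₀ D' ↔ D - D' ∈ S.Princ := by
  rw [← sub_eq_zero, ← map_sub, cls_eq_zero_iff S P₀ (D - D') (by rw [map_sub, h, sub_self])]

theorem cls_single (P₀ : Pl) (n : ℤ) : cls S P₀ (Finsupp.single P₀ n) = 0 := by
  rw [cls_apply]
  have : toDegZero S P₀ (Finsupp.single P₀ n) = 0 := by
    apply Subtype.ext
    rw [coe_toDegZero, S.degree_single, sub_self]
    rfl
  rw [this]
  rfl

/-! ### Riemann–Roch in large degree and the count -/

theorem degree_W : S.degree S.W = 2 * (S.g : ℤ) - 2 := by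
  have h0 := S.rr 0
  have hW := S.rr S.W
  rw [map_zero, sub_zero, S.l_zero] at h0
  rw [sub_self, S.l_zero] at hW
  push_cast at h0 hW
  omega

theorem l_large (D : Pl →₀ ℤ) (hD : 2 * (S.g : ℤ) - 1 ≤ S.degree D) :
    (S.l D : ℤ) = S.degree D + 1 - S.g := by
  have h := S.rr D
  have hneg : S.degree (S.W - D) < 0 := by
    rw [map_sub, degree_W]
    omega
  rw [S.l_neg _ hneg] at h
  push_cast at h
  omega

/-- the invariant effective divisors of degree `n` in the class `c` -/
def effCls (P₀ : Pl) (n : ℕ) (c : S.Cl0) : Set (Pl →₀ ℤ) :=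
  {E | E ∈ effInv S.φ n ∧ cls S P₀ E = c}

theorem effCls_eq (P₀ : Pl) (n : ℕ) (D : Pl →₀ ℤ) (hD : S.degree D = n) :
    effCls S P₀ n (cls S P₀ D)
      = {E | 0 ≤ E ∧ act (S.φ ^ 1) E = E ∧ E - D ∈ S.Princ} := by
  ext E
  simp only [effCls, effInv, Set.mem_ofPred_eq, pow_one]
  rw [← S.degree_eq]
  constructor
  · rintro ⟨⟨h0, hact, hdeg⟩, hc⟩
    exact ⟨h0, hact, (cls_eq_iff S P₀ E D (by rw [hdeg, hD])).mp hc⟩
  · rintro ⟨h0, hact, hp⟩
    have hdeg : S.degree E = S.degree D := by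
      have := S.princ_deg _ hp
      rw [map_sub] at this
      exact sub_eq_zero.mp this
    exact ⟨⟨h0, hact, by rw [hdeg, hD]⟩, (cls_eq_iff S P₀ E D hdeg).mpr hp⟩

/-- the count in large degree: it does not depend on the (invariant) class -/
theorem effCls_count (P₀ : Pl) (hP₀ : S.φ P₀ = P₀) (n : ℕ) (hn : 2 * (S.g : ℤ) - 1 ≤ n)
    (D₀ : S.degZero) (hD₀ : act S.φ (D₀ : Pl →₀ ℤ) = D₀) :
    (effCls S P₀ n (QuotientAddGroup.mk D₀)).ncard * (S.Q - 1)
      = S.Q ^ ((n : ℤ) + 1 - S.g).toNat - 1 := by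
  set D : Pl →₀ ℤ := (D₀ : Pl →₀ ℤ) + Finsupp.single P₀ (n : ℤ) with hDdef
  have hdeg : S.degree D = n := by
    rw [hDdef, map_add, S.degree_single]
    have : S.degree (D₀ : Pl →₀ ℤ) = 0 := D₀.2
    rw [this, zero_add]
  have hact : act S.φ D = D := by
    rw [hDdef, map_add, hD₀, act_single, hP₀]
  have hcls : cls S P₀ D = QuotientAddGroup.mk D₀ := by
    rw [hDdef, map_add, cls_single, add_zero, cls_mk]
  have hl : S.l D = ((n : ℤ) + 1 - S.g).toNat := by
    have := l_large S D (by rw [hdeg]; exact hn)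
    rw [hdeg] at this
    omega
  have hcnt := S.cnt 1 Nat.one_pos D (by rw [pow_one, hact, sub_self]; exact S.Princ.zero_mem)
  have hQ1 : S.Q ^ 1 = S.Q := pow_one _
  rw [one_mul, hl, hQ1] at hcnt
  rw [← hcls, effCls_eq S P₀ n D hdeg, ← hcnt]
  congr 1

theorem effCls_ncard_eq (P₀ : Pl) (hP₀ : S.φ P₀ = P₀) (n : ℕ) (hn : 2 * (S.g : ℤ) - 1 ≤ n)
    (D₀ D₁ : S.degZero) (hD₀ : act S.φ (D₀ : Pl →₀ ℤ) = D₀) (hD₁ : act S.φ (D₁ : Pl →₀ ℤ) = D₁) :
    (effCls S P₀ n (QuotientAddGroup.mk D₀)).ncard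
      = (effCls S P₀ n (QuotientAddGroup.mk D₁)).ncard := by
  have h0 := effCls_count S P₀ hP₀ n hn D₀ hD₀
  have h1 := effCls_count S P₀ hP₀ n hn D₁ hD₁
  have hQ : 0 < S.Q - 1 := by have := S.two_le; omega
  exact Nat.eq_of_mul_eq_mul_right hQ (h0.trans h1.symm)

end Fermat.Agent.S27.Zeta.H30

end
end
-- ==== END Fermat.Agent.S27.Zeta.H30_NormCls

-- ==== BEGIN Fermat.Agent.S27.Zeta.H52_Basic
section

/-!
# S27, package ZETA-ABS (helper52): basic consequences of the axioms of a `ZSys`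

* `eq_zero_of_nonneg_of_degree` : `E ≥ 0`, `deg E = 0` implies `E = 0`;
* `exists_pow_fix` : every divisor is fixed by a power of `φ`;
* `l_W`, `degree_W` : `l(W) = g`, `deg W = 2g - 2`;
* `l_of_large` : `l(D) = deg D + 1 - g` for `deg D ≥ 2g - 1`;
* `mem_princ_of_l_pos`, `l_of_princ`, `l_degree_zero` : divisors of degree `0`;
* `l_canonical` : divisors of degree `2g - 2`;
* `W_sub_act_mem` : the class of `W` is invariant;
* `cnt_int` : the counting axiom for `m = 1` in `ℤ`.
-/

set_option autoImplicit false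
set_option linter.style.haveILetI false
set_option linter.unusedSectionVars false

noncomputable section

namespace Fermat.Agent.S27.Zeta.H52

universe u

variable {Pl : Type u}

theorem deg_eq_sum (E : Pl →₀ ℤ) : deg E = ∑ P ∈ E.support, E P := by
  unfold deg
  rw [Finsupp.liftAddHom_apply, Finsupp.sum]
  rfl

theorem deg_nonneg {E : Pl →₀ ℤ} (hE : 0 ≤ E) : 0 ≤ deg E := by
  rw [deg_eq_sum]
  exact Finset.sum_nonneg fun P _ => hE P

theorem eq_zero_of_nonneg_of_deg {E : Pl →₀ ℤ} (hE : 0 ≤ E) (hdeg : deg E = 0) : E = 0 := by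
  rw [deg_eq_sum] at hdeg
  have h := (Finset.sum_eq_zero_iff_of_nonneg fun P _ => hE P).mp hdeg
  ext P
  by_cases hP : P ∈ E.support
  · exact h P hP
  · exact Finsupp.notMem_support_iff.mp hP

theorem act_pow_of_fix (σ : Equiv.Perm Pl) {D : Pl →₀ ℤ} (h : act σ D = D) (j : ℕ) :
    act (σ ^ j) D = D := by
  induction j with
  | zero => rw [pow_zero, act_one]
  | succ j ih => rw [pow_succ', act_mul, ih, h]

theorem pow_apply_of_fix (σ : Equiv.Perm Pl) {P : Pl} (h : σ P = P) (j : ℕ) :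
    (σ ^ j) P = P := by
  induction j with
  | zero => rfl
  | succ j ih => rw [pow_succ', Equiv.Perm.mul_apply, ih, h]

variable (S : ZSys Pl)

theorem eq_zero_of_nonneg_of_degree {E : Pl →₀ ℤ} (hE : 0 ≤ E) (hdeg : S.degree E = 0) :
    E = 0 := by
  rw [S.degree_eq] at hdeg
  exact eq_zero_of_nonneg_of_deg hE hdeg

/-- Every divisor is fixed by a power of `φ`. -/
theorem exists_pow_fix (D : Pl →₀ ℤ) : ∃ m : ℕ, 0 < m ∧ act (S.φ ^ m) D = D := by
  induction D using Finsupp.induction with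
  | zero => exact ⟨1, one_pos, map_zero _⟩
  | single_add P n D _ _ ih =>
    obtain ⟨m₁, hm₁, h₁⟩ := S.orbit P
    obtain ⟨m₂, hm₂, h₂⟩ := ih
    refine ⟨m₁ * m₂, Nat.mul_pos hm₁ hm₂, ?_⟩
    rw [map_add, act_single]
    congr 1
    · rw [pow_mul, pow_apply_of_fix _ h₁]
    · rw [mul_comm, pow_mul]
      exact act_pow_of_fix _ h₂ m₁

theorem l_W : S.l S.W = S.g := by
  have h := S.rr 0
  rw [S.l_zero, map_zero, sub_zero] at h
  have : (S.l S.W : ℤ) = S.g := by push_cast at h; omega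
  exact_mod_cast this

theorem degree_W : S.degree S.W = 2 * (S.g : ℤ) - 2 := by
  have h := S.rr S.W
  rw [sub_self, S.l_zero, l_W S] at h
  push_cast at h
  omega

/-- `l(D) = deg D + 1 - g` for `deg D ≥ 2g - 1`. -/
theorem l_of_large {D : Pl →₀ ℤ} (hD : 2 * (S.g : ℤ) - 1 ≤ S.degree D) :
    (S.l D : ℤ) = S.degree D + 1 - S.g := by
  have h := S.rr D
  rw [S.l_neg (S.W - D) (by rw [map_sub, degree_W S]; omega)] at h
  rw [h]
  simp

theorem one_le_Q_pow (j : ℕ) : 1 ≤ S.Q ^ j := Nat.one_le_pow _ _ (by have := S.two_le; omega)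

/-- A divisor of degree `0` with `l ≥ 1` is principal. -/
theorem mem_princ_of_l_pos {D : Pl →₀ ℤ} (hdeg : S.degree D = 0) (hl : 0 < S.l D) :
    D ∈ S.Princ := by
  obtain ⟨m, hm, hfix⟩ := exists_pow_fix S D
  have hc := S.cnt m hm D (by rw [hfix, sub_self]; exact S.Princ.zero_mem)
  have hpos : 0 < S.Q ^ (m * S.l D) - 1 := by
    have h2 : 2 ≤ S.Q ^ (m * S.l D) := by
      calc 2 ≤ S.Q := S.two_le
        _ = S.Q ^ 1 := (pow_one _).symm
        _ ≤ S.Q ^ (m * S.l D) :=
          Nat.pow_le_pow_right (by have := S.two_le; omega) (Nat.mul_pos hm hl)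
    omega
  have hne : Nat.card {E : Pl →₀ ℤ // 0 ≤ E ∧ act (S.φ ^ m) E = E ∧ E - D ∈ S.Princ} ≠ 0 := by
    intro h0
    rw [h0, zero_mul] at hc
    omega
  obtain ⟨⟨E, hE0, -, hED⟩⟩ := (Nat.card_ne_zero.mp hne).1
  have hdE : S.degree E = 0 := by
    have := S.princ_deg _ hED
    rw [map_sub, hdeg] at this
    omega
  have hE : E = 0 := eq_zero_of_nonneg_of_degree S hE0 hdE
  rw [hE, zero_sub] at hED
  have := S.Princ.neg_mem hED
  rwa [neg_neg] at this

theorem l_of_princ {D : Pl →₀ ℤ} (hD : D ∈ S.Princ) : S.l D = 1 := by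
  have := S.l_princ 0 D hD
  rwa [zero_add, S.l_zero] at this

/-- The divisors of degree `0`. -/
theorem l_degree_zero {D : Pl →₀ ℤ} (hdeg : S.degree D = 0) :
    (D ∈ S.Princ ∧ S.l D = 1) ∨ (D ∉ S.Princ ∧ S.l D = 0) := by
  by_cases hD : D ∈ S.Princ
  · exact Or.inl ⟨hD, l_of_princ S hD⟩
  · refine Or.inr ⟨hD, ?_⟩
    by_contra hl
    exact hD (mem_princ_of_l_pos S hdeg (Nat.pos_of_ne_zero hl))

/-- The divisors of degree `2g - 2`. -/
theorem l_canonical {D : Pl →₀ ℤ} (hdeg : S.degree D = 2 * (S.g : ℤ) - 2) :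
    (S.W - D ∈ S.Princ ∧ (S.l D : ℤ) = S.g) ∨ (S.W - D ∉ S.Princ ∧ (S.l D : ℤ) = S.g - 1) := by
  have h := S.rr D
  have hd : S.degree (S.W - D) = 0 := by rw [map_sub, degree_W S, hdeg, sub_self]
  rcases l_degree_zero S hd with ⟨hp, hl⟩ | ⟨hp, hl⟩
  · left
    refine ⟨hp, ?_⟩
    rw [hl, hdeg] at h
    push_cast at h
    omega
  · right
    refine ⟨hp, ?_⟩
    rw [hl, hdeg] at h
    push_cast at h
    omega

/-- The class of `W` is invariant. -/
theorem W_sub_act_mem : S.W - act S.φ S.W ∈ S.Princ := by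
  have hdeg : S.degree (act S.φ S.W) = 2 * (S.g : ℤ) - 2 := by
    rw [S.degree_act, degree_W S]
  rcases l_canonical S hdeg with ⟨hp, -⟩ | ⟨-, hl⟩
  · exact hp
  · exfalso
    rw [S.l_act, l_W S] at hl
    omega

/-- The counting axiom for `m = 1`, in `ℤ`. -/
theorem cnt_int {D : Pl →₀ ℤ} (hD : act S.φ D - D ∈ S.Princ) :
    (Nat.card {E : Pl →₀ ℤ // 0 ≤ E ∧ act S.φ E = E ∧ E - D ∈ S.Princ} : ℤ) * ((S.Q : ℤ) - 1)
      = (S.Q : ℤ) ^ S.l D - 1 := by
  have h := S.cnt 1 one_pos D (by rwa [pow_one])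
  rw [pow_one, one_mul, pow_one] at h
  have h1 : (1 : ℕ) ≤ S.Q := by have := S.two_le; omega
  have h2 := one_le_Q_pow S (S.l D)
  have h3 : ((Nat.card {E : Pl →₀ ℤ // 0 ≤ E ∧ act S.φ E = E ∧ E - D ∈ S.Princ} *
      (S.Q - 1) : ℕ) : ℤ) = ((S.Q ^ S.l D - 1 : ℕ) : ℤ) := by rw [h]
  rw [Nat.cast_mul, Nat.cast_sub h1, Nat.cast_sub h2] at h3
  push_cast at h3
  exact h3

end Fermat.Agent.S27.Zeta.H52

end
end
-- ==== END Fermat.Agent.S27.Zeta.H52_Basic

-- ==== BEGIN Fermat.Agent.S27.Zeta.H57_DivP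
section

/-!
# S27, char-p half, leaf Z-DIVP (helper57): surjective norms + finite `ℓ`-torsion ⇒ `ℓ`-divisible

`G` an abelian group, `φ : G →+ G` such that every element is fixed by a power of `φ`, the fixed
points of every power are finite, `G[ℓ]` is finite and every `x` fixed by `φ^m` is a norm
`∑_{i<ℓ} φ^(m i) y` of some `y` fixed by `φ^(m ℓ)`.  Then `G = ℓ G`.

* `index_range_nsmul` : in a finite abelian group `#(A / ℓ A) = #A[ℓ]`;
* `card_le_of_not_mem` : a finite set of elements of `G` which are pairwise incongruent modulo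
  `ℓ G` has at most `#G[ℓ]` elements;
* `finite_quotient` : `G / ℓ G` is finite;
* `exists_period` : some power `φ^m₀` is the identity on `G / ℓ G`.
-/

set_option autoImplicit false
set_option linter.style.haveILetI false

noncomputable section

namespace Fermat.Agent.S27.Zeta.H57

universe u

section Finite

variable (A : Type*) [AddCommGroup A] [Finite A]

/-- In a finite abelian group `#(A / ℓ A) = #A[ℓ]`. -/
theorem index_range_nsmul (ℓ : ℕ) :
    (nsmulAddMonoidHom ℓ : A →+ A).range.index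
      = Nat.card (nsmulAddMonoidHom ℓ : A →+ A).ker := by
  set ψ : A →+ A := nsmulAddMonoidHom ℓ with hψ
  have h1 := AddSubgroup.card_mul_index ψ.range
  have h2 := AddSubgroup.card_mul_index ψ.ker
  have h3 : ψ.ker.index = Nat.card ψ.range := by
    rw [AddSubgroup.index_eq_card]
    exact Nat.card_congr (QuotientAddGroup.quotientKerEquivRange ψ).toEquiv
  rw [h3] at h2
  have hpos : 0 < Nat.card ψ.range := Nat.card_pos
  have h4 : Nat.card ψ.range * ψ.range.index = Nat.card ψ.range * Nat.card ψ.ker := by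
    rw [h1, ← h2, mul_comm]
  exact Nat.eq_of_mul_eq_mul_left hpos h4

end Finite

variable {G : Type u} [AddCommGroup G] (φ : G →+ G)

/-- The fixed points of `φ^m`. -/
def fixSub (m : ℕ) : AddSubgroup G where
  carrier := {x | (⇑φ)^[m] x = x}
  zero_mem' := iterate_map_zero φ m
  add_mem' := by
    intro a b ha hb
    show (⇑φ)^[m] (a + b) = a + b
    rw [iterate_map_add, ha, hb]
  neg_mem' := by
    intro a ha
    show (⇑φ)^[m] (-a) = -a
    rw [iterate_map_neg, ha]

theorem mem_fixSub {m : ℕ} {x : G} : x ∈ fixSub φ m ↔ (⇑φ)^[m] x = x := Iff.rfl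

theorem iterate_mul_fixed {m : ℕ} {x : G} (h : (⇑φ)^[m] x = x) (k : ℕ) :
    (⇑φ)^[m * k] x = x := by
  rw [Function.iterate_mul]
  exact Function.iterate_fixed h k

theorem iterate_fixed_of_dvd {m n : ℕ} (hmn : m ∣ n) {x : G} (h : (⇑φ)^[m] x = x) :
    (⇑φ)^[n] x = x := by
  obtain ⟨k, rfl⟩ := hmn
  exact iterate_mul_fixed φ h k

variable (ℓ : ℕ)

/-- The subgroup `ℓ G`. -/
abbrev mulSub (G : Type u) [AddCommGroup G] (ℓ : ℕ) : AddSubgroup G :=
  (nsmulAddMonoidHom ℓ : G →+ G).range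

theorem mem_mulSub {x : G} : x ∈ mulSub G ℓ ↔ ∃ y : G, ℓ • y = x := Iff.rfl

variable {φ ℓ}

/-- A finite set of elements which are pairwise incongruent modulo `ℓ G` has at most `#G[ℓ]`
elements. -/
theorem card_le_of_not_mem
    (hper : ∀ x : G, ∃ m : ℕ, 0 < m ∧ (⇑φ)^[m] x = x)
    (hfin : ∀ m : ℕ, 0 < m → Finite {x : G // (⇑φ)^[m] x = x})
    (htors : Finite {x : G // ℓ • x = 0})
    (s : Finset G) (hs : ∀ x ∈ s, ∀ y ∈ s, x ≠ y → x - y ∉ mulSub G ℓ) :
    s.card ≤ Nat.card {x : G // ℓ • x = 0} := by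
  classical
  choose per hper0 hperx using hper
  set m : ℕ := ∏ x ∈ s, per x with hm
  have hm0 : 0 < m := Finset.prod_pos fun x _ => hper0 x
  have hsm : ∀ x ∈ s, x ∈ fixSub φ m := fun x hx =>
    iterate_fixed_of_dvd φ (Finset.dvd_prod_of_mem per hx) (hperx x)
  haveI : Finite ↥(fixSub φ m) := hfin m hm0
  set ψ : ↥(fixSub φ m) →+ ↥(fixSub φ m) := nsmulAddMonoidHom ℓ with hψ
  haveI : Finite (↥(fixSub φ m) ⧸ ψ.range) := inferInstance
  haveI : Fintype (↥(fixSub φ m) ⧸ ψ.range) := Fintype.ofFinite _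
  -- the map to the quotient
  let f : G → ↥(fixSub φ m) ⧸ ψ.range := fun x =>
    if hx : x ∈ fixSub φ m then QuotientAddGroup.mk ⟨x, hx⟩ else 0
  have hinj : Set.InjOn f (s : Set G) := by
    intro x hx y hy hxy
    by_contra hne
    have hx' := hsm x hx
    have hy' := hsm y hy
    simp only [f, dif_pos hx', dif_pos hy'] at hxy
    rw [QuotientAddGroup.eq] at hxy
    obtain ⟨a, ha⟩ := hxy
    apply hs y hy x hx (fun h => hne h.symm)
    refine ⟨(a : G), ?_⟩
    have h1 := congrArg (fun z : ↥(fixSub φ m) => (z : G)) ha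
    simp only [hψ, nsmulAddMonoidHom_apply, AddSubgroup.coe_nsmul, AddSubgroup.coe_add,
      AddSubgroup.coe_neg] at h1
    rw [nsmulAddMonoidHom_apply, h1]
    abel
  have h1 : s.card ≤ Fintype.card (↥(fixSub φ m) ⧸ ψ.range) := by
    have := Finset.card_le_card_of_injOn f (fun x _ => Finset.mem_univ (f x)) hinj
    simpa using this
  have h2 : Fintype.card (↥(fixSub φ m) ⧸ ψ.range) = Nat.card ψ.ker := by
    rw [← Nat.card_eq_fintype_card, ← AddSubgroup.index_eq_card]
    exact index_range_nsmul ↥(fixSub φ m) ℓ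
  have h3 : Nat.card ψ.ker ≤ Nat.card {x : G // ℓ • x = 0} := by
    refine Nat.card_le_card_of_injective
      (fun a : ψ.ker => (⟨((a : ↥(fixSub φ m)) : G), ?_⟩ : {x : G // ℓ • x = 0})) ?_
    · have h : (nsmulAddMonoidHom ℓ : ↥(fixSub φ m) →+ ↥(fixSub φ m)) (a : ↥(fixSub φ m)) = 0 :=
        a.2
      rw [nsmulAddMonoidHom_apply] at h
      have h' : ((ℓ • (a : ↥(fixSub φ m)) : ↥(fixSub φ m)) : G) = ((0 : ↥(fixSub φ m)) : G) :=
        congrArg (fun z : ↥(fixSub φ m) => (z : G)) h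
      rw [AddSubgroup.coe_nsmul, AddSubgroup.coe_zero] at h'
      exact h'
    · intro a b hab
      have h := congrArg (fun z : {x : G // ℓ • x = 0} => (z : G)) hab
      exact Subtype.ext (Subtype.ext h)
  omega

/-- `G / ℓ G` is finite. -/
theorem finite_quotient
    (hper : ∀ x : G, ∃ m : ℕ, 0 < m ∧ (⇑φ)^[m] x = x)
    (hfin : ∀ m : ℕ, 0 < m → Finite {x : G // (⇑φ)^[m] x = x})
    (htors : Finite {x : G // ℓ • x = 0}) :
    Finite (G ⧸ mulSub G ℓ) := by
  classical
  by_contra hinf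
  rw [not_finite_iff_infinite] at hinf
  obtain ⟨T, hT⟩ := Infinite.exists_subset_card_eq (G ⧸ mulSub G ℓ)
    (Nat.card {x : G // ℓ • x = 0} + 1)
  have hout : Function.Injective (Quotient.out : G ⧸ mulSub G ℓ → G) := Quotient.out_injective
  have h1 := card_le_of_not_mem hper hfin htors (T.image Quotient.out) (by
    intro x hx y hy hne hmem
    rw [Finset.mem_image] at hx hy
    obtain ⟨a, -, rfl⟩ := hx
    obtain ⟨b, -, rfl⟩ := hy
    apply hne
    have h2 : (QuotientAddGroup.mk (Quotient.out a) : G ⧸ mulSub G ℓ)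
        = QuotientAddGroup.mk (Quotient.out b) := by
      rw [QuotientAddGroup.eq]
      have h3 : -Quotient.out a + Quotient.out b = -(Quotient.out a - Quotient.out b) := by abel
      rw [h3]
      exact neg_mem hmem
    have ha : (QuotientAddGroup.mk (Quotient.out a) : G ⧸ mulSub G ℓ) = a := Quotient.out_eq a
    have hb : (QuotientAddGroup.mk (Quotient.out b) : G ⧸ mulSub G ℓ) = b := Quotient.out_eq b
    rw [ha, hb] at h2
    rw [h2])
  rw [Finset.card_image_of_injective T hout, hT] at h1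
  omega

/-- Some power of `φ` is the identity modulo `ℓ G`. -/
theorem exists_period
    (hper : ∀ x : G, ∃ m : ℕ, 0 < m ∧ (⇑φ)^[m] x = x)
    (hfin : ∀ m : ℕ, 0 < m → Finite {x : G // (⇑φ)^[m] x = x})
    (htors : Finite {x : G // ℓ • x = 0}) :
    ∃ m₀ : ℕ, 0 < m₀ ∧ ∀ z : G, (⇑φ)^[m₀] z - z ∈ mulSub G ℓ := by
  classical
  haveI := finite_quotient hper hfin htors
  haveI : Fintype (G ⧸ mulSub G ℓ) := Fintype.ofFinite _
  choose per hper0 hperx using hper
  refine ⟨∏ a : G ⧸ mulSub G ℓ, per (Quotient.out a), Finset.prod_pos fun a _ => hper0 _, ?_⟩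
  intro z
  set m₀ : ℕ := ∏ a : G ⧸ mulSub G ℓ, per (Quotient.out a) with hm₀
  set r : G := Quotient.out (QuotientAddGroup.mk z : G ⧸ mulSub G ℓ) with hr
  have hrfix : (⇑φ)^[m₀] r = r :=
    iterate_fixed_of_dvd φ (Finset.dvd_prod_of_mem (fun a => per (Quotient.out a))
      (Finset.mem_univ (QuotientAddGroup.mk z : G ⧸ mulSub G ℓ))) (hperx r)
  have hzr : -r + z ∈ mulSub G ℓ := by
    rw [← QuotientAddGroup.eq]
    exact Quotient.out_eq _
  obtain ⟨w, hw⟩ := hzr
  rw [nsmulAddMonoidHom_apply] at hw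
  have hz : z = r + ℓ • w := by rw [hw]; abel
  refine ⟨(⇑φ)^[m₀] w - w, ?_⟩
  rw [nsmulAddMonoidHom_apply]
  conv_rhs => rw [hz]
  rw [iterate_map_add, hrfix, iterate_map_nsmul, smul_sub]
  abel

theorem iterate_mul_sub_mem {m₀ : ℕ} (h : ∀ z : G, (⇑φ)^[m₀] z - z ∈ mulSub G ℓ) (k : ℕ)
    (z : G) : (⇑φ)^[m₀ * k] z - z ∈ mulSub G ℓ := by
  induction k with
  | zero =>
    rw [Nat.mul_zero, Function.iterate_zero, id_eq, sub_self]
    exact zero_mem _
  | succ k ih =>
    have e : (⇑φ)^[m₀ * (k + 1)] z - z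
        = ((⇑φ)^[m₀] ((⇑φ)^[m₀ * k] z) - (⇑φ)^[m₀ * k] z) + ((⇑φ)^[m₀ * k] z - z) := by
      rw [Nat.mul_succ, Nat.add_comm, Function.iterate_add_apply]
      abel
    rw [e]
    exact add_mem (h _) ih

/-- **Z-DIVP.** -/
theorem stmt_Z_DivP : Stmt_Z_DivP.{u} := by
  intro ℓ _ G _ φ hper hfin htors hnorm x
  obtain ⟨m₀, hm₀, hm₀z⟩ := exists_period hper hfin htors
  obtain ⟨m₁, hm₁, hm₁x⟩ := hper x
  have hmx : (⇑φ)^[m₁ * m₀] x = x := iterate_mul_fixed φ hm₁x m₀
  obtain ⟨y, -, hy⟩ := hnorm (m₁ * m₀) (Nat.mul_pos hm₁ hm₀) x hmx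
  have hmem : ∀ i : ℕ, (⇑φ)^[m₁ * m₀ * i] y - y ∈ mulSub G ℓ := by
    intro i
    have e : m₁ * m₀ * i = m₀ * (m₁ * i) := by ring
    rw [e]
    exact iterate_mul_sub_mem hm₀z (m₁ * i) y
  have hx : x = ℓ • y + ∑ i ∈ Finset.range ℓ, ((⇑φ)^[m₁ * m₀ * i] y - y) := by
    rw [Finset.sum_sub_distrib, hy, Finset.sum_const, Finset.card_range]
    abel
  have hxmem : x ∈ mulSub G ℓ := by
    rw [hx]
    exact add_mem ⟨y, rfl⟩ (sum_mem fun i _ => hmem i)
  exact hxmem

end Fermat.Agent.S27.Zeta.H57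

end
end
-- ==== END Fermat.Agent.S27.Zeta.H57_DivP

-- ==== BEGIN Fermat.Agent.S27.Zeta.H62_Main
section

set_option autoImplicit false

namespace Fermat.Agent.S27.Zeta.H62

open Fermat.Agent.S27 Fermat.Agent.S27.Zeta

universe u

theorem iterate_pow_frob {Pl : Type u} (S : ZSys Pl) (m : ℕ) (hm : 0 < m) (i : ℕ) (y : S.Cl0) :
    (⇑(S.pow m hm).frob)^[i] y = (⇑S.frob)^[m * i] y := by
  have h : (⇑(S.pow m hm).frob : S.Cl0 → S.Cl0) = (⇑S.frob)^[m] := by
    funext x
    exact S.pow_frob m hm x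
  rw [Function.iterate_mul]
  exact congrFun (congrArg (fun f : S.Cl0 → S.Cl0 => f^[i]) h) y

theorem stmt_Z_Main_of (hFin : Stmt_Z_Fin.{u}) (hExt : Stmt_Z_Ext.{u})
    (hNorm : Stmt_Z_Norm.{u}) (hDivP : Stmt_Z_DivP.{u})
    (hIWFin : IW.Stmt_IW_Fin.{u}) (hIWCard : IW.Stmt_IW_Card.{u}) :
    Stmt_Z_Main.{u} := by
  intro Pl S ℓ hℓF hℓ n
  have hℓp : ℓ.Prime := hℓF.out
  obtain ⟨-, hfix, hfin, -⟩ := hFin Pl S
  obtain ⟨A, hdet, hcard⟩ := hExt Pl S
  have hyp : IW.Hyp ℓ S.frob A :=
    { det := by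
        rw [hdet]
        intro h
        have h1 : (ℓ : ℤ) ∣ (S.Q : ℤ) := (Nat.prime_iff_prime_int.mp hℓp).dvd_of_dvd_pow h
        exact hℓ (Int.natCast_dvd_natCast.mp h1)
      fix := hfix
      fin := hfin
      card := fun m hm => by
        have h := hcard m hm
        rw [← h, Int.natAbs_natCast] }
  have htors : Finite {x : S.Cl0 // ℓ • x = 0} := by
    have h := hIWFin ℓ S.Cl0 S.frob _ A hyp 1
    simpa only [pow_one] using h
  have hdiv : ∀ x : S.Cl0, ∃ y : S.Cl0, ℓ • y = x := by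
    apply hDivP ℓ S.Cl0 S.frob hfix hfin htors
    intro m hm x hx
    obtain ⟨y, hy1, hy2⟩ := hNorm Pl (S.pow m hm) ℓ hℓp.pos x
      (by rw [S.pow_frob]; exact hx)
    refine ⟨y, ?_, ?_⟩
    · rw [← iterate_pow_frob S m hm ℓ y]
      exact hy1
    · rw [← hy2]
      refine Finset.sum_congr rfl fun i _ => ?_
      exact (iterate_pow_frob S m hm i y).symm
  exact hIWCard ℓ S.Cl0 S.frob _ A hyp hdiv n

end Fermat.Agent.S27.Zeta.H62

end
-- ==== END Fermat.Agent.S27.Zeta.H62_Main

-- ==== BEGIN Fermat.Agent.S27.Zeta.H63_LogDer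
section

set_option autoImplicit false

noncomputable section

namespace Fermat.Agent.S27.Zeta.H63

open Finset

universe u v

variable {Pl : Type u}

/-! ### Basic facts on `orbSum` -/

theorem orbSum_nonneg (φ : Equiv.Perm Pl) (j : ℕ) (P : Pl) : 0 ≤ orbSum φ j P := by
  unfold orbSum
  refine Finset.sum_nonneg fun i _ => ?_
  exact Finsupp.single_nonneg.2 zero_le_one

theorem orbSum_add (φ : Equiv.Perm Pl) (a b : ℕ) (P : Pl) :
    orbSum φ (a + b) P = orbSum φ a P + orbSum φ b ((φ ^ a) P) := by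
  unfold orbSum
  rw [Finset.sum_range_add]
  congr 1
  refine Finset.sum_congr rfl fun i _ => ?_
  rw [add_comm a i, pow_add, Equiv.Perm.mul_apply]

theorem orbSum_mul (φ : Equiv.Perm Pl) (e r : ℕ) (P : Pl) (h : (φ ^ e) P = P) :
    orbSum φ (e * r) P = r • orbSum φ e P := by
  induction r with
  | zero => simp [orbSum]
  | succ r ih =>
    have hr : (φ ^ (e * r)) P = P := by
      rw [pow_mul]
      exact Function.IsFixedPt.perm_pow (show Function.IsFixedPt (⇑(φ ^ e)) P from h) r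
    rw [Nat.mul_succ, orbSum_add, ih, hr, succ_nsmul]

theorem deg_orbSum (φ : Equiv.Perm Pl) (j : ℕ) (P : Pl) : deg (orbSum φ j P) = j := by
  unfold orbSum
  rw [map_sum]
  simp

theorem act_orbSum (φ : Equiv.Perm Pl) (j : ℕ) (P : Pl) (h : (φ ^ j) P = P) :
    act φ (orbSum φ j P) = orbSum φ j P := by
  cases j with
  | zero => simp [orbSum]
  | succ j =>
    have h1 : orbSum φ (j + 1) P = orbSum φ j P + Finsupp.single ((φ ^ j) P) 1 := by
      rw [orbSum_add]
      simp [orbSum]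
    have h2 : orbSum φ (1 + j) P = Finsupp.single P 1 + orbSum φ j (φ P) := by
      rw [orbSum_add]
      simp [orbSum]
    have h3 : act φ (orbSum φ j P) = orbSum φ j (φ P) := by
      unfold orbSum
      rw [map_sum]
      refine Finset.sum_congr rfl fun i _ => ?_
      rw [act_single, ← Equiv.Perm.mul_apply, ← pow_succ', pow_succ, Equiv.Perm.mul_apply]
    rw [h1, map_add, h3, act_single, ← Equiv.Perm.mul_apply, ← pow_succ', h, add_comm,
      ← h2, add_comm 1 j, h1]

open scoped Classical in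
theorem orbSum_apply (φ : Equiv.Perm Pl) (j : ℕ) (P Q : Pl) :
    (orbSum φ j P) Q = (((range j).filter (fun i => (φ ^ i) P = Q)).card : ℤ) := by
  unfold orbSum
  rw [Finsupp.finsetSum_apply]
  simp only [Finsupp.single_apply]
  rw [Finset.sum_boole]

theorem orbSum_one (φ : Equiv.Perm Pl) (P : Pl) : orbSum φ 1 P = Finsupp.single P 1 := by
  simp [orbSum]

theorem single_le_orbSum (φ : Equiv.Perm Pl) {e : ℕ} (he : 0 < e) (P : Pl) :
    Finsupp.single P 1 ≤ orbSum φ e P := by
  obtain ⟨k, rfl⟩ : ∃ k, e = 1 + k := ⟨e - 1, by omega⟩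
  rw [orbSum_add, orbSum_one]
  exact le_add_of_nonneg_right (orbSum_nonneg φ k _)

/-! ### Degree -/

theorem deg_apply (D : Pl →₀ ℤ) : deg D = D.sum fun _ n => n := by
  unfold deg
  rw [Finsupp.liftAddHom_apply]
  rfl

theorem deg_nonneg {D : Pl →₀ ℤ} (hD : 0 ≤ D) : 0 ≤ deg D := by
  rw [deg_apply]
  exact Finset.sum_nonneg fun P _ => hD P

theorem deg_mono {D E : Pl →₀ ℤ} (h : D ≤ E) : deg D ≤ deg E := by
  have h1 : 0 ≤ E - D := sub_nonneg.2 h
  have h2 := deg_nonneg h1
  rw [map_sub] at h2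
  linarith

theorem deg_eq_sum {D : Pl →₀ ℤ} (s : Finset Pl) (hs : D.support ⊆ s) :
    deg D = ∑ P ∈ s, D P := by
  rw [deg_apply]
  exact Finsupp.sum_of_support_subset D hs (fun _ n => n) (fun _ _ => rfl)

theorem apply_le_deg {D : Pl →₀ ℤ} (hD : 0 ≤ D) (P : Pl) : D P ≤ deg D := by
  by_cases hP : P ∈ D.support
  · rw [deg_apply]
    exact Finset.single_le_sum (f := fun Q => D Q) (fun Q _ => hD Q) hP
  · rw [Finsupp.notMem_support_iff.1 hP]
    exact deg_nonneg hD

/-! ### Invariant divisors are constant on orbits -/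

theorem inv_apply {φ : Equiv.Perm Pl} {D : Pl →₀ ℤ} (hD : act φ D = D) (Q : Pl) :
    D (φ Q) = D Q := by
  conv_lhs => rw [← hD, act_apply]
  exact Finsupp.mapDomain_apply φ.injective D Q

theorem inv_apply_pow {φ : Equiv.Perm Pl} {D : Pl →₀ ℤ} (hD : act φ D = D) (i : ℕ) (Q : Pl) :
    D ((φ ^ i) Q) = D Q := by
  induction i with
  | zero => simp
  | succ i ih => rw [pow_succ', Equiv.Perm.mul_apply, inv_apply hD, ih]

/-! ### The minimal period -/

theorem pow_minimalPeriod (φ : Equiv.Perm Pl) (P : Pl) :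
    (φ ^ Function.minimalPeriod φ P) P = P := by
  have h := Function.isPeriodicPt_minimalPeriod (⇑φ) P
  rw [Function.IsPeriodicPt, Function.IsFixedPt, Equiv.Perm.iterate_eq_pow] at h
  exact h

theorem minimalPeriod_pos {φ : Equiv.Perm Pl} {P : Pl} {m : ℕ} (hm : 0 < m)
    (h : (φ ^ m) P = P) : 0 < Function.minimalPeriod φ P := by
  apply Function.minimalPeriod_pos_of_mem_periodicPts
  refine Function.mk_mem_periodicPts hm ?_
  rw [Function.IsPeriodicPt, Function.IsFixedPt, Equiv.Perm.iterate_eq_pow]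
  exact h

theorem minimalPeriod_dvd {φ : Equiv.Perm Pl} {P : Pl} {m : ℕ}
    (h : (φ ^ m) P = P) : Function.minimalPeriod φ P ∣ m := by
  apply Function.IsPeriodicPt.minimalPeriod_dvd
  rw [Function.IsPeriodicPt, Function.IsFixedPt, Equiv.Perm.iterate_eq_pow]
  exact h

/-- the orbit divisor has multiplicities `≤ 1` -/
theorem orbSum_minimalPeriod_le_one (φ : Equiv.Perm Pl) (P Q : Pl) :
    (orbSum φ (Function.minimalPeriod φ P) P) Q ≤ 1 := by
  classical
  rw [orbSum_apply]
  have : ((range (Function.minimalPeriod φ P)).filter (fun i => (φ ^ i) P = Q)).card ≤ 1 := by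
    rw [Finset.card_le_one]
    intro a ha b hb
    rw [Finset.mem_filter, Finset.mem_range] at ha hb
    have hinj := Function.iterate_injOn_Iio_minimalPeriod (f := ⇑φ) (x := P)
    apply hinj (Set.mem_Iio.2 ha.1) (Set.mem_Iio.2 hb.1)
    show (⇑φ)^[a] P = (⇑φ)^[b] P
    rw [Equiv.Perm.iterate_eq_pow, Equiv.Perm.iterate_eq_pow, ha.2, hb.2]
  exact_mod_cast this

theorem orbSum_ne_zero {φ : Equiv.Perm Pl} {j : ℕ} {P Q : Pl} (h : (orbSum φ j P) Q ≠ 0) :
    ∃ i, (φ ^ i) P = Q := by
  classical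
  rw [orbSum_apply] at h
  have h' : ((range j).filter (fun i => (φ ^ i) P = Q)).card ≠ 0 := by
    intro h0
    apply h
    rw [h0]
    rfl
  obtain ⟨i, hi⟩ := Finset.card_pos.1 (Nat.pos_of_ne_zero h')
  exact ⟨i, (Finset.mem_filter.1 hi).2⟩

/-- `r` times the orbit divisor of `P` is below an invariant effective divisor `D` with
`r ≤ D(P)` -/
theorem nsmul_orbSum_le {φ : Equiv.Perm Pl} {D : Pl →₀ ℤ} (hD0 : 0 ≤ D) (hD : act φ D = D)
    (P : Pl) {r : ℕ} (hr : (r : ℤ) ≤ D P) :
    r • orbSum φ (Function.minimalPeriod φ P) P ≤ D := by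
  intro Q
  rw [Finsupp.smul_apply, nsmul_eq_mul]
  by_cases h0 : (orbSum φ (Function.minimalPeriod φ P) P) Q = 0
  · rw [h0, mul_zero]
    exact hD0 Q
  · obtain ⟨i, rfl⟩ := orbSum_ne_zero h0
    rw [inv_apply_pow hD]
    have h1 := orbSum_minimalPeriod_le_one φ P ((φ ^ i) P)
    have h2 : (0 : ℤ) ≤ r := Int.natCast_nonneg r
    calc (r : ℤ) * _ ≤ r * 1 := mul_le_mul_of_nonneg_left h1 h2
      _ = r := mul_one _
      _ ≤ D P := hr

open scoped Classical in
/-- the count behind the double counting -/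
theorem card_filter_orb {φ : Equiv.Perm Pl} {n : ℕ} {D : Pl →₀ ℤ} (hD : D ∈ effInv φ n)
    {P : Pl} (hP : ∃ m : ℕ, 0 < m ∧ (φ ^ m) P = P) :
    ((Icc 1 n).filter (fun j => (φ ^ j) P = P ∧ orbSum φ j P ≤ D)).card = (D P).toNat := by
  obtain ⟨hD0, hDinv, hDdeg⟩ := hD
  obtain ⟨m, hm, hmP⟩ := hP
  have he : 0 < Function.minimalPeriod φ P := minimalPeriod_pos hm hmP
  have hPe := pow_minimalPeriod φ P
  have key : (Icc 1 n).filter (fun j => (φ ^ j) P = P ∧ orbSum φ j P ≤ D) =
      (Icc 1 (D P).toNat).image (fun r => Function.minimalPeriod φ P * r) := by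
    ext j
    simp only [Finset.mem_filter, Finset.mem_Icc, Finset.mem_image]
    constructor
    · rintro ⟨⟨hj1, hjn⟩, hjP, hle⟩
      obtain ⟨r, rfl⟩ := minimalPeriod_dvd hjP
      refine ⟨r, ⟨?_, ?_⟩, rfl⟩
      · rcases Nat.eq_zero_or_pos r with h | h
        · rw [h, mul_zero] at hj1; omega
        · exact h
      · rw [orbSum_mul φ _ r P hPe] at hle
        have h1 := hle P
        rw [Finsupp.smul_apply, nsmul_eq_mul] at h1
        have h2 := single_le_orbSum φ he P P
        rw [Finsupp.single_eq_same] at h2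
        have h3 : (r : ℤ) ≤ D P := by
          calc (r : ℤ) = r * 1 := (mul_one _).symm
            _ ≤ r * (orbSum φ (Function.minimalPeriod φ P) P) P :=
                mul_le_mul_of_nonneg_left h2 (Int.natCast_nonneg r)
            _ ≤ D P := h1
        omega
    · rintro ⟨r, ⟨hr1, hr2⟩, rfl⟩
      have hr : (r : ℤ) ≤ D P := by omega
      have hle : orbSum φ (Function.minimalPeriod φ P * r) P ≤ D := by
        rw [orbSum_mul φ _ r P hPe]
        exact nsmul_orbSum_le hD0 hDinv P hr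
      refine ⟨⟨Nat.mul_pos he hr1, ?_⟩, ?_, hle⟩
      · have h1 := deg_mono hle
        rw [deg_orbSum, hDdeg] at h1
        exact_mod_cast h1
      · rw [pow_mul]
        exact Function.IsFixedPt.perm_pow (show Function.IsFixedPt (⇑(φ ^ _)) P from hPe) r
  rw [key, Finset.card_image_of_injective _ (mul_right_injective₀ he.ne'), Nat.card_Icc]
  omega

/-! ### Finiteness -/

/-- the places of period `≤ n` -/
def perLe (φ : Equiv.Perm Pl) (n : ℕ) : Set Pl := {P | ∃ j ∈ Finset.Icc 1 n, (φ ^ j) P = P}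

theorem perLe_finite {φ : Equiv.Perm Pl} (hfix : ∀ m : ℕ, 0 < m → (fixPts φ m).Finite) (n : ℕ) :
    (perLe φ n).Finite := by
  have h : perLe φ n = ⋃ j ∈ (Finset.Icc 1 n : Set ℕ), fixPts φ j := by
    ext P
    simp only [perLe, fixPts, Set.mem_ofPred_eq, Set.mem_iUnion, Finset.mem_coe, exists_prop]
  rw [h]
  refine Set.Finite.biUnion (Finset.finite_toSet _) fun j hj => ?_
  exact hfix j (Finset.mem_Icc.1 hj).1

/-- the support of an invariant effective divisor of degree `n` consists of places of period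
`≤ n` -/
theorem support_subset_perLe {φ : Equiv.Perm Pl}
    (hper : ∀ P : Pl, ∃ m : ℕ, 0 < m ∧ (φ ^ m) P = P) {n : ℕ} {D : Pl →₀ ℤ}
    (hD : D ∈ effInv φ n) {P : Pl} (hP : D P ≠ 0) : P ∈ perLe φ n := by
  obtain ⟨hD0, hDinv, hDdeg⟩ := hD
  obtain ⟨m, hm, hmP⟩ := hper P
  have he : 0 < Function.minimalPeriod φ P := minimalPeriod_pos hm hmP
  have h1 : (1 : ℤ) ≤ D P := by
    have := hD0 P
    rw [Finsupp.zero_apply] at this
    omega
  have h2 : (1 : ℕ) • orbSum φ (Function.minimalPeriod φ P) P ≤ D :=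
    nsmul_orbSum_le hD0 hDinv P (by exact_mod_cast h1)
  rw [one_nsmul] at h2
  have h3 := deg_mono h2
  rw [deg_orbSum, hDdeg] at h3
  exact ⟨Function.minimalPeriod φ P, Finset.mem_Icc.2 ⟨he, by exact_mod_cast h3⟩,
    pow_minimalPeriod φ P⟩

theorem effInv_finite {φ : Equiv.Perm Pl}
    (hper : ∀ P : Pl, ∃ m : ℕ, 0 < m ∧ (φ ^ m) P = P)
    (hfix : ∀ m : ℕ, 0 < m → (fixPts φ m).Finite) (n : ℕ) : (effInv φ n).Finite := by
  classical
  set F : Finset Pl := (perLe_finite hfix n).toFinset with hF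
  set B : Pl →₀ ℤ := ∑ P ∈ F, Finsupp.single P (n : ℤ) with hB
  have hBapp : ∀ P, B P = if P ∈ F then (n : ℤ) else 0 := by
    intro P
    rw [hB, Finsupp.finsetSum_apply]
    simp only [Finsupp.single_apply]
    rw [Finset.sum_ite_eq' F P]
  refine (Set.finite_Icc (0 : Pl →₀ ℤ) B).subset ?_
  intro D hD
  refine ⟨hD.1, ?_⟩
  intro P
  rw [hBapp]
  split_ifs with hPF
  · have := apply_le_deg hD.1 P
    rw [hD.2.2] at this
    exact this
  · by_contra hne
    have hP0 : D P ≠ 0 := by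
      intro h0
      rw [h0] at hne
      exact hne le_rfl
    exact hPF ((Set.Finite.mem_toFinset _).2 (support_subset_perLe hper hD hP0))

/-! ### The double counting -/

theorem add_mem_effInv {φ : Equiv.Perm Pl} {a b : ℕ} {D E : Pl →₀ ℤ} (hD : D ∈ effInv φ a)
    (hE : E ∈ effInv φ b) : D + E ∈ effInv φ (a + b) := by
  refine ⟨add_nonneg hD.1 hE.1, ?_, ?_⟩
  · rw [map_add, hD.2.1, hE.2.1]
  · rw [map_add, hD.2.2, hE.2.2, Nat.cast_add]

theorem orbSum_mem_effInv {φ : Equiv.Perm Pl} {j : ℕ} {P : Pl} (h : (φ ^ j) P = P) :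
    orbSum φ j P ∈ effInv φ j :=
  ⟨orbSum_nonneg φ j P, act_orbSum φ j P h, deg_orbSum φ j P⟩

theorem sub_mem_effInv {φ : Equiv.Perm Pl} {a b : ℕ} {D E : Pl →₀ ℤ} (hD : D ∈ effInv φ a)
    (hE : E ∈ effInv φ b) (hle : E ≤ D) : D - E ∈ effInv φ (a - b) := by
  have hba : b ≤ a := by
    have := deg_mono hle
    rw [hD.2.2, hE.2.2] at this
    exact_mod_cast this
  refine ⟨sub_nonneg.2 hle, ?_, ?_⟩
  · rw [map_sub, hD.2.1, hE.2.1]
  · rw [map_sub, hD.2.2, hE.2.2, Nat.cast_sub hba]

open scoped Classical in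
/-- the inner sum, re-indexed by `D = orbSum + E` -/
theorem sum_shift {φ : Equiv.Perm Pl} (hA : ∀ n : ℕ, (effInv φ n).Finite)
    {R : Type v} [CommRing R] (χ : (Pl →₀ ℤ) → R) {n j : ℕ} (hjn : j ≤ n) {P : Pl}
    (hP : (φ ^ j) P = P) :
    ∑ E ∈ (hA (n - j)).toFinset, χ (orbSum φ j P + E) =
      ∑ D ∈ (hA n).toFinset, if orbSum φ j P ≤ D then χ D else 0 := by
  rw [← Finset.sum_filter]
  refine Finset.sum_nbij' (fun E => orbSum φ j P + E) (fun D => D - orbSum φ j P) ?_ ?_ ?_ ?_ ?_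
  · intro E hE
    rw [Set.Finite.mem_toFinset] at hE
    rw [Finset.mem_filter, Set.Finite.mem_toFinset]
    refine ⟨?_, le_add_of_nonneg_right hE.1⟩
    have := add_mem_effInv (orbSum_mem_effInv hP) hE
    rwa [Nat.add_sub_cancel' hjn] at this
  · intro D hD
    rw [Finset.mem_filter, Set.Finite.mem_toFinset] at hD
    rw [Set.Finite.mem_toFinset]
    exact sub_mem_effInv hD.1 (orbSum_mem_effInv hP) hD.2
  · intro E _
    exact add_sub_cancel_left _ _
  · intro D _
    exact add_sub_cancel _ _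
  · intro E _
    rfl

/-- **Z-LOGDER**, with explicit finite sets. -/
theorem logDer_finset {φ : Equiv.Perm Pl}
    (hper : ∀ P : Pl, ∃ m : ℕ, 0 < m ∧ (φ ^ m) P = P)
    (hfix : ∀ m : ℕ, 0 < m → (fixPts φ m).Finite)
    {R : Type v} [CommRing R] (χ : (Pl →₀ ℤ) → R)
    (hχ : ∀ D E : Pl →₀ ℤ, 0 ≤ D → 0 ≤ E → act φ D = D → act φ E = E → χ (D + E) = χ D * χ E)
    (n : ℕ) :
    (n : R) * (∑ᶠ E ∈ effInv φ n, χ E) =
      ∑ j ∈ Finset.Icc 1 n,
        (∑ᶠ P ∈ fixPts φ j, χ (orbSum φ j P)) * (∑ᶠ E ∈ effInv φ (n - j), χ E) := by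
  classical
  have hA := effInv_finite hper hfix
  set F : Finset Pl := (perLe_finite hfix n).toFinset with hF
  have hterm : ∀ j ∈ Finset.Icc 1 n,
      (∑ᶠ P ∈ fixPts φ j, χ (orbSum φ j P)) * (∑ᶠ E ∈ effInv φ (n - j), χ E) =
        ∑ P ∈ F, ∑ D ∈ (hA n).toFinset,
          if (φ ^ j) P = P ∧ orbSum φ j P ≤ D then χ D else 0 := by
    intro j hj
    obtain ⟨hj1, hjn⟩ := Finset.mem_Icc.1 hj
    rw [finsum_mem_eq_finite_toFinset_sum _ (hfix j hj1),
      finsum_mem_eq_finite_toFinset_sum _ (hA (n - j))]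
    have hFj : (hfix j hj1).toFinset = F.filter (fun P => (φ ^ j) P = P) := by
      ext P
      rw [Set.Finite.mem_toFinset, Finset.mem_filter, hF, Set.Finite.mem_toFinset]
      constructor
      · intro h
        exact ⟨⟨j, hj, h⟩, h⟩
      · intro h
        exact h.2
    rw [hFj, Finset.sum_mul_sum, Finset.sum_filter]
    refine Finset.sum_congr rfl fun P _ => ?_
    split_ifs with hP
    · have h1 : ∀ E ∈ (hA (n - j)).toFinset,
          χ (orbSum φ j P) * χ E = χ (orbSum φ j P + E) := by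
        intro E hE
        rw [Set.Finite.mem_toFinset] at hE
        exact (hχ _ _ (orbSum_nonneg φ j P) hE.1 (act_orbSum φ j P hP) hE.2.1).symm
      rw [Finset.sum_congr rfl h1, sum_shift hA χ hjn hP]
      refine Finset.sum_congr rfl fun D _ => ?_
      simp only [hP, true_and]
    · symm
      refine Finset.sum_eq_zero fun D _ => ?_
      rw [if_neg]
      exact fun h => hP h.1
  rw [Finset.sum_congr rfl hterm, finsum_mem_eq_finite_toFinset_sum _ (hA n), Finset.mul_sum]
  -- swap the sums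
  have hswap : ∑ j ∈ Finset.Icc 1 n, ∑ P ∈ F, ∑ D ∈ (hA n).toFinset,
      (if (φ ^ j) P = P ∧ orbSum φ j P ≤ D then χ D else 0) =
      ∑ D ∈ (hA n).toFinset, ∑ P ∈ F, ∑ j ∈ Finset.Icc 1 n,
        (if (φ ^ j) P = P ∧ orbSum φ j P ≤ D then χ D else 0) := by
    rw [Finset.sum_comm]
    rw [Finset.sum_congr rfl fun P _ => Finset.sum_comm]
    rw [Finset.sum_comm]
  rw [hswap]
  refine Finset.sum_congr rfl fun D hD => ?_
  rw [Set.Finite.mem_toFinset] at hD
  have hcount : ∀ P ∈ F, ∑ j ∈ Finset.Icc 1 n,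
      (if (φ ^ j) P = P ∧ orbSum φ j P ≤ D then χ D else 0) = ((D P).toNat : R) * χ D := by
    intro P _
    rw [← Finset.sum_filter, Finset.sum_const, card_filter_orb hD (hper P), nsmul_eq_mul]
  rw [Finset.sum_congr rfl hcount, ← Finset.sum_mul]
  congr 1
  have hsupp : D.support ⊆ F := by
    intro P hP
    rw [hF, Set.Finite.mem_toFinset]
    exact support_subset_perLe hper hD (Finsupp.mem_support_iff.1 hP)
  have hdeg := deg_eq_sum F hsupp
  rw [hD.2.2] at hdeg
  have hnat : (n : ℤ) = ((∑ P ∈ F, (D P).toNat : ℕ) : ℤ) := by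
    rw [hdeg, Nat.cast_sum]
    refine Finset.sum_congr rfl fun P _ => ?_
    have := hD.1 P
    rw [Finsupp.zero_apply] at this
    omega
  have hnat' : n = ∑ P ∈ F, (D P).toNat := by exact_mod_cast hnat
  conv_lhs => rw [hnat']
  rw [Nat.cast_sum]

theorem stmt_Z_LogDer : Stmt_Z_LogDer.{u, v} := by
  intro Pl φ hper hfix R _ χ _ hχ n
  exact logDer_finset hper hfix χ hχ n

/-- the first clause of Z-FIN: finitely many invariant effective divisors of given degree -/
theorem invEff_finite (S : ZSys Pl) (n : ℕ) : (S.invEff n).Finite := by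
  rw [S.invEff_eq]
  exact effInv_finite S.orbit S.fixfin n

theorem finsum_mem_one_eq_ncard {α : Type u} {s : Set α} (hs : s.Finite) :
    (∑ᶠ _a ∈ s, (1 : ℤ)) = (s.ncard : ℤ) := by
  rw [finsum_mem_eq_finite_toFinset_sum _ hs, Finset.sum_const, Set.ncard_eq_toFinset_card s hs]
  simp

/-- **Z-LOGDER** for the trivial character: `n A_n = ∑_{j=1}^n #Fix(φ^j) A_{n-j}`. -/
theorem logDer_card {φ : Equiv.Perm Pl}
    (hper : ∀ P : Pl, ∃ m : ℕ, 0 < m ∧ (φ ^ m) P = P)
    (hfix : ∀ m : ℕ, 0 < m → (fixPts φ m).Finite) (n : ℕ) :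
    (n : ℤ) * ((effInv φ n).ncard : ℤ) =
      ∑ j ∈ Finset.Icc 1 n, ((fixPts φ j).ncard : ℤ) * ((effInv φ (n - j)).ncard : ℤ) := by
  have h := logDer_finset hper hfix (R := ℤ) (fun _ => (1 : ℤ)) (fun _ _ _ _ _ _ => (mul_one _).symm) n
  have hA := effInv_finite hper hfix
  rw [finsum_mem_one_eq_ncard (hA n)] at h
  rw [h]
  refine Finset.sum_congr rfl fun j hj => ?_
  rw [finsum_mem_one_eq_ncard (hA (n - j)),
    finsum_mem_one_eq_ncard (hfix j (Finset.mem_Icc.1 hj).1)]

end Fermat.Agent.S27.Zeta.H63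

end
end
-- ==== END Fermat.Agent.S27.Zeta.H63_LogDer

-- ==== BEGIN Fermat.Agent.S27.Zeta.H97_ZFin
section

set_option autoImplicit false

noncomputable section

namespace Fermat.Agent.S27.Zeta.H97

open Fermat.Agent.S27.Zeta

universe u

variable {Pl : Type u}

/-- an invariant divisor has the same coefficient at `P` and at `σ P` -/
theorem act_fix_apply (σ : Equiv.Perm Pl) (E : Pl →₀ ℤ) (h : act σ E = E) (P : Pl) :
    E (σ P) = E P := by
  conv_lhs => rw [← h]
  rw [act_apply, Finsupp.mapDomain_apply σ.injective]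

theorem act_fix_apply_pow (σ : Equiv.Perm Pl) (E : Pl →₀ ℤ) (h : act σ E = E) (P : Pl) (i : ℕ) :
    E ((σ ^ i) P) = E P := by
  induction i with
  | zero => rfl
  | succ i ih => rw [pow_succ', Equiv.Perm.mul_apply, act_fix_apply σ E h, ih]

theorem deg_eq_sum (E : Pl →₀ ℤ) : deg E = ∑ P ∈ E.support, E P := by
  simp [deg, Finsupp.sum]

theorem apply_le_deg (E : Pl →₀ ℤ) (h0 : 0 ≤ E) (P : Pl) : E P ≤ deg E := by
  rw [deg_eq_sum]
  by_cases hP : P ∈ E.support
  · exact Finset.single_le_sum (f := fun P => E P) (fun Q _ => h0 Q) hP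
  · rw [Finsupp.notMem_support_iff.mp hP]
    exact Finset.sum_nonneg (fun Q _ => h0 Q)

theorem card_support_le_deg (E : Pl →₀ ℤ) (h0 : 0 ≤ E) : (E.support.card : ℤ) ≤ deg E := by
  rw [deg_eq_sum]
  have : ∀ P ∈ E.support, (1 : ℤ) ≤ E P := by
    intro P hP
    have h1 : E P ≠ 0 := Finsupp.mem_support_iff.mp hP
    have h2 : (0 : ℤ) ≤ E P := h0 P
    omega
  calc (E.support.card : ℤ) = ∑ _P ∈ E.support, (1 : ℤ) := by simp
    _ ≤ ∑ P ∈ E.support, E P := Finset.sum_le_sum this

theorem perm_pow_fix (σ : Equiv.Perm Pl) (P : Pl) (h : σ P = P) (j : ℕ) : (σ ^ j) P = P := by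
  induction j with
  | zero => rfl
  | succ j ih => rw [pow_succ, Equiv.Perm.mul_apply, h, ih]

/-- a place in the support of an invariant effective divisor of degree `n` is fixed by `φ^j` for
some `1 ≤ j ≤ n` -/
theorem exists_fix_of_mem_support (φ : Equiv.Perm Pl) (n : ℕ) (E : Pl →₀ ℤ) (hE : E ∈ effInv φ n)
    (P : Pl) (hP : P ∈ E.support) : ∃ j ∈ Finset.Icc 1 n, P ∈ fixPts φ j := by
  obtain ⟨h0, hφ, hdeg⟩ := hE
  have hcard : E.support.card < (Finset.range (n + 1)).card := by
    rw [Finset.card_range]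
    have := card_support_le_deg E h0
    rw [hdeg] at this
    have : E.support.card ≤ n := by exact_mod_cast this
    omega
  have hmaps : ∀ i ∈ Finset.range (n + 1), (φ ^ i) P ∈ E.support := by
    intro i _
    rw [Finsupp.mem_support_iff, act_fix_apply_pow φ E hφ]
    exact Finsupp.mem_support_iff.mp hP
  obtain ⟨i, hi, j, hj, hij, hPij⟩ :=
    Finset.exists_ne_map_eq_of_card_lt_of_maps_to hcard hmaps
  rw [Finset.mem_range] at hi hj
  have key : ∀ a b : ℕ, a < b → b < n + 1 → (φ ^ a) P = (φ ^ b) P →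
      ∃ j ∈ Finset.Icc 1 n, P ∈ fixPts φ j := by
    intro a b hab hb h
    refine ⟨b - a, Finset.mem_Icc.mpr ⟨by omega, by omega⟩, ?_⟩
    show (φ ^ (b - a)) P = P
    have hb' : b = a + (b - a) := by omega
    rw [hb', pow_add, Equiv.Perm.mul_apply] at h
    exact ((φ ^ a).injective h).symm
  rcases lt_or_gt_of_ne hij with h | h
  · exact key i j h hj hPij
  · exact key j i h hi hPij.symm

theorem effInv_finite (φ : Equiv.Perm Pl) (hfix : ∀ m : ℕ, 0 < m → (fixPts φ m).Finite) (n : ℕ) :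
    (effInv φ n).Finite := by
  classical
  have hT : (⋃ j ∈ Finset.Icc 1 n, fixPts φ j).Finite :=
    Set.Finite.biUnion (Finset.finite_toSet _) fun j hj =>
      hfix j (by have := (Finset.mem_Icc.mp hj).1; omega)
  refine (Finset.finite_toSet (hT.toFinset.finsupp fun _ => Finset.Icc (0 : ℤ) n)).subset ?_
  intro E hE
  rw [Finset.mem_coe, Finset.mem_finsupp_iff]
  refine ⟨?_, ?_⟩
  · intro P hP
    rw [Set.Finite.mem_toFinset]
    obtain ⟨j, hj, hPj⟩ := exists_fix_of_mem_support φ n E hE P hP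
    exact Set.mem_biUnion hj hPj
  · intro P _
    rw [Finset.mem_Icc]
    refine ⟨hE.1 P, ?_⟩
    have := apply_le_deg E hE.1 P
    rw [hE.2.2] at this
    exact this

theorem exists_pow_fix_finset (φ : Equiv.Perm Pl) (horb : ∀ P : Pl, ∃ m : ℕ, 0 < m ∧ (φ ^ m) P = P)
    (s : Finset Pl) : ∃ m : ℕ, 0 < m ∧ ∀ P ∈ s, (φ ^ m) P = P := by
  classical
  induction s using Finset.induction_on with
  | empty => exact ⟨1, one_pos, by simp⟩
  | insert a s ha ih =>
    obtain ⟨m, hm, h⟩ := ih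
    obtain ⟨k, hk, h'⟩ := horb a
    refine ⟨m * k, Nat.mul_pos hm hk, ?_⟩
    intro P hP
    rcases Finset.mem_insert.mp hP with rfl | hP
    · rw [mul_comm, pow_mul]
      exact perm_pow_fix _ _ h' m
    · rw [pow_mul]
      exact perm_pow_fix _ _ (h P hP) k

theorem act_eq_self_of_fix (σ : Equiv.Perm Pl) (D : Pl →₀ ℤ) (h : ∀ P ∈ D.support, σ P = P) :
    act σ D = D := by
  rw [act_apply]
  conv_rhs => rw [← Finsupp.mapDomain_id (v := D)]
  exact Finsupp.mapDomain_congr h

variable (S : ZSys Pl)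

theorem invEff_finite (n : ℕ) : (S.invEff n).Finite := by
  rw [S.invEff_eq]
  exact effInv_finite S.φ S.fixfin n

theorem exists_iterate_frob_eq (x : S.Cl0) : ∃ m : ℕ, 0 < m ∧ (⇑S.frob)^[m] x = x := by
  obtain ⟨D, rfl⟩ := QuotientAddGroup.mk_surjective x
  obtain ⟨m, hm, h⟩ := exists_pow_fix_finset S.φ S.orbit (D : Pl →₀ ℤ).support
  refine ⟨m, hm, ?_⟩
  rw [S.iterate_frob_mk m D]
  congr 1
  exact Subtype.ext (act_eq_self_of_fix _ _ h)

theorem mk_eq_mk_iff (D D' : S.degZero) :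
    (QuotientAddGroup.mk D : S.Cl0) = QuotientAddGroup.mk D' ↔
      (D' : Pl →₀ ℤ) - D ∈ S.Princ := by
  rw [QuotientAddGroup.eq, AddSubgroup.mem_addSubgroupOf]
  have : ((-D + D' : S.degZero) : Pl →₀ ℤ) = (D' : Pl →₀ ℤ) - D := by
    push_cast
    abel
  rw [this]

open Classical in
/-- the class of `E - g P₀` (or `0` if this is not of degree `0`) -/
def clsOf (P₀ : Pl) (E : Pl →₀ ℤ) : S.Cl0 :=
  if h : E - Finsupp.single P₀ (S.g : ℤ) ∈ S.degZero then
    QuotientAddGroup.mk (⟨E - Finsupp.single P₀ (S.g : ℤ), h⟩ : S.degZero) else 0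

/-- an invariant class of degree `0` is the class of `E - g P₀` with `E` invariant effective of
degree `g` -/
theorem exists_invEff_rep (P₀ : Pl) (hP₀ : S.φ P₀ = P₀) (x : S.Cl0) (hx : S.frob x = x) :
    ∃ E ∈ S.invEff S.g, ∃ h : E - Finsupp.single P₀ (S.g : ℤ) ∈ S.degZero,
      (QuotientAddGroup.mk (⟨E - Finsupp.single P₀ (S.g : ℤ), h⟩ : S.degZero) : S.Cl0) = x := by
  obtain ⟨D₀, rfl⟩ := QuotientAddGroup.mk_surjective x
  rw [S.frob_mk, mk_eq_mk_iff, S.coe_frobDegZero] at hx
  have hD₀ : S.degree (D₀ : Pl →₀ ℤ) = 0 := D₀.2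
  obtain ⟨D', hD'⟩ : ∃ D' : Pl →₀ ℤ, D' = (D₀ : Pl →₀ ℤ) + Finsupp.single P₀ (S.g : ℤ) :=
    ⟨_, rfl⟩
  have hdegD' : S.degree D' = S.g := by
    rw [hD', map_add, hD₀, S.degree_single, zero_add]
  have hactD' : act (S.φ ^ 1) D' - D' ∈ S.Princ := by
    rw [pow_one, hD', map_add, act_single, hP₀, add_sub_add_right_eq_sub]
    have := S.Princ.neg_mem hx
    rwa [neg_sub] at this
  have hl : 1 ≤ S.l D' := by
    have := S.rr D'
    rw [hdegD'] at this
    omega
  have hcnt := S.cnt 1 one_pos D' hactD'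
  have hpos : 0 < Nat.card {E : Pl →₀ ℤ // 0 ≤ E ∧ act (S.φ ^ 1) E = E ∧ E - D' ∈ S.Princ} := by
    rcases Nat.eq_zero_or_pos
      (Nat.card {E : Pl →₀ ℤ // 0 ≤ E ∧ act (S.φ ^ 1) E = E ∧ E - D' ∈ S.Princ}) with h | h
    · rw [h, zero_mul] at hcnt
      exfalso
      have : 2 ≤ S.Q ^ (1 * S.l D') := by
        calc 2 ≤ S.Q := S.two_le
          _ = S.Q ^ 1 := (pow_one _).symm
          _ ≤ S.Q ^ (1 * S.l D') :=
            Nat.pow_le_pow_right (by have := S.two_le; omega) (by omega)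
      omega
    · exact h
  obtain ⟨⟨E, hE0, hEφ, hEP⟩⟩ := (Nat.card_pos_iff.mp hpos).1
  rw [pow_one] at hEφ
  have hdegE : S.degree E = S.g := by
    have := S.princ_deg _ hEP
    rw [map_sub, hdegD'] at this
    omega
  refine ⟨E, ⟨hE0, hEφ, hdegE⟩, ?_, ?_⟩
  · show S.degree (E - Finsupp.single P₀ (S.g : ℤ)) = 0
    rw [map_sub, hdegE, S.degree_single, sub_self]
  · rw [mk_eq_mk_iff]
    have : (D₀ : Pl →₀ ℤ) - (E - Finsupp.single P₀ (S.g : ℤ)) = -(E - D') := by
      rw [hD']
      abel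
    show (D₀ : Pl →₀ ℤ) - (E - Finsupp.single P₀ (S.g : ℤ)) ∈ S.Princ
    rw [this]
    exact S.Princ.neg_mem hEP

theorem exists_inv_rep (x : S.Cl0) (hx : S.frob x = x) :
    ∃ D : S.degZero, act S.φ (D : Pl →₀ ℤ) = D ∧ QuotientAddGroup.mk D = x := by
  obtain ⟨P₀, hP₀⟩ := S.fixed
  obtain ⟨E, hE, h, hEx⟩ := exists_invEff_rep S P₀ hP₀ x hx
  refine ⟨⟨E - Finsupp.single P₀ (S.g : ℤ), h⟩, ?_, hEx⟩
  show act S.φ (E - Finsupp.single P₀ (S.g : ℤ)) = E - Finsupp.single P₀ (S.g : ℤ)
  rw [map_sub, act_single, hP₀, hE.2.1]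

theorem finite_fixed (m : ℕ) (hm : 0 < m) : Finite {x : S.Cl0 // (⇑S.frob)^[m] x = x} := by
  obtain ⟨P₀, hP₀⟩ := (S.pow m hm).fixed
  have hfin := invEff_finite (S.pow m hm) S.g
  have hsub : {x : S.Cl0 | (⇑S.frob)^[m] x = x} ⊆
      (clsOf S P₀) '' ((S.pow m hm).invEff S.g) := by
    intro x hx
    have hx' : (S.pow m hm).frob x = x := by
      rw [S.pow_frob]
      exact hx
    obtain ⟨E, hE, h, hEx⟩ := exists_invEff_rep (S.pow m hm) P₀ hP₀ x hx'
    refine ⟨E, hE, ?_⟩
    have h' : E - Finsupp.single P₀ (S.g : ℤ) ∈ S.degZero := h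
    unfold clsOf
    rw [dif_pos h']
    exact hEx
  exact ((hfin.image _).subset hsub).to_subtype

/-- **Z-FIN** -/
theorem stmt_Z_Fin : Stmt_Z_Fin.{u} := by
  intro Pl S
  exact ⟨invEff_finite S, exists_iterate_frob_eq S, finite_fixed S, exists_inv_rep S⟩

end Fermat.Agent.S27.Zeta.H97

end
end
-- ==== END Fermat.Agent.S27.Zeta.H97_ZFin

-- ==== BEGIN Fermat.Agent.S36.NU.H41_UnramA
section

/-!
# S36 NU-B, leaf UNRAM-CONST, part A (helper41): extensions generated by constants are unramified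

`F₁ / F₀` a finite Galois extension of fields of characteristic `0`, `w` a place of `F₁`,
`C ⊆ F₁` a Galois-stable set of "constants" (integral over a field `K₀ ⊆ F₀` contained in the
valuation ring, pairwise differences units at `w`) generating `F₁` over `F₀`.  Then `F₀`
contains a uniformiser of `w`: the inertia group of `w` is trivial.
-/

set_option autoImplicit false
set_option linter.style.haveILetI false

noncomputable section

namespace Fermat.Agent.S36.NU.H41

open AlgebraicCurve MulAction Pointwise Ideal IsDedekindDomain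

section

variable {K₀ K F₀ F₁ : Type*} [Field K₀] [CharZero K₀] [Field K] [Field F₀] [Field F₁]
  [Algebra K F₁] [Algebra K₀ F₀] [Algebra F₀ F₁] [Algebra K₀ F₁] [IsScalarTower K₀ F₀ F₁]
  [FiniteDimensional F₀ F₁] [IsGalois F₀ F₁]

/-- Elements of `F₁` integral over a subring of the valuation ring lie in the valuation ring. -/
theorem mem_of_isIntegral_of_le (V : ValuationSubring F₁) {R : Type*} [CommRing R]
    [Algebra R F₁] (hR : ∀ r : R, algebraMap R F₁ r ∈ V) (x : F₁) (hx : IsIntegral R x) :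
    x ∈ V := by
  letI : Algebra R V := ((algebraMap R F₁).codRestrict V.toSubring hR).toAlgebra
  haveI : IsScalarTower R V F₁ := IsScalarTower.of_algebraMap_eq fun r => rfl
  have h1 : IsIntegral V x := hx.tower_top
  obtain ⟨y, hy⟩ := (IsIntegrallyClosed.isIntegral_iff (R := V) (K := F₁)).1 h1
  rw [← hy]
  exact y.2

/-- **UNRAM-CONST, abstract form.** -/
theorem exists_ord_eq_one_of_galois (w : Place K F₁)
    (hK₀ : ∀ a : K₀, algebraMap K₀ F₁ a ∈ w.toValuationSubring)
    (C : Set F₁) (hCint : ∀ c ∈ C, IsIntegral K₀ c)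
    (hCunit : ∀ c ∈ C, ∀ c' ∈ C, c ≠ c' → (c - c')⁻¹ ∈ w.toValuationSubring)
    (hstab : ∀ σ : F₁ ≃ₐ[F₀] F₁, ∀ c ∈ C, σ c ∈ C)
    (hgen : IntermediateField.adjoin F₀ C = ⊤) :
    ∃ t : F₀, w.ord (algebraMap F₀ F₁ t) = 1 := by
  classical
  -- a uniformiser of `w`
  obtain ⟨πw, hπw⟩ := IsDiscreteValuationRing.exists_irreducible w.toValuationSubring
  have hπw1 : w.ord (πw : F₁) = 1 := w.ord_coe_irreducible hπw
  have hπw0 : (πw : F₁) ≠ 0 := by
    intro h
    rw [h, Place.ord_zero] at hπw1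
    exact zero_ne_one hπw1
  -- `w` is not trivial on `F₀`
  have hnt : ∃ g : F₀, g ≠ 0 ∧ w.ord (algebraMap F₀ F₁ g) ≠ 0 := by
    by_contra hcon
    push Not at hcon
    have hF₀ : ∀ g : F₀, algebraMap F₀ F₁ g ∈ w.toValuationSubring := by
      intro g
      rcases eq_or_ne g 0 with rfl | hg
      · rw [map_zero]; exact w.toValuationSubring.zero_mem
      · rw [mem_iff_ord_nonneg, hcon g hg]
    have h1 : (πw : F₁)⁻¹ ∈ w.toValuationSubring :=
      mem_of_isIntegral_of_le w.toValuationSubring hF₀ _ (Algebra.IsIntegral.isIntegral _)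
    rw [mem_iff_ord_nonneg, w.ord_inv, hπw1] at h1
    omega
  have hk : ∀ c : K₀, algebraMap F₀ F₁ (algebraMap K₀ F₀ c) ∈ w.toValuationSubring := by
    intro c
    rw [← IsScalarTower.algebraMap_apply]
    exact hK₀ c
  obtain ⟨v, e, he, hvV, hord⟩ := exists_place_restrict (k := K₀) (algebraMap F₀ F₁) w hk hnt
  -- the rings
  have hAF : ∀ a : v.toValuationSubring,
      algebraMap v.toValuationSubring F₁ a = algebraMap F₀ F₁ (a : F₀) := fun a => rfl
  have hA𝒪 : ∀ a : v.toValuationSubring,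
      algebraMap v.toValuationSubring F₁ a ∈ w.toValuationSubring := by
    intro a
    rw [hAF, mem_iff_ord_nonneg, hord]
    have := ord_nonneg_of_mem v a.2
    positivity
  have hB𝒪 : ∀ b : integralClosure v.toValuationSubring F₁,
      (b : F₁) ∈ w.toValuationSubring := fun b =>
    mem_of_isIntegral_of_le w.toValuationSubring hA𝒪 _ b.2
  -- the prime of `B` cut out by `w`
  let ψ : integralClosure v.toValuationSubring F₁ →+* w.toValuationSubring :=
    (algebraMap (integralClosure v.toValuationSubring F₁) F₁).codRestrict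
      w.toValuationSubring.toSubring hB𝒪
  have hψ : ∀ b, ((ψ b : w.toValuationSubring) : F₁) = (b : F₁) := fun b => rfl
  set P₁ : Ideal (integralClosure v.toValuationSubring F₁) :=
    (IsLocalRing.maximalIdeal w.toValuationSubring).comap ψ with hP₁
  have hP₁prime : P₁.IsPrime := Ideal.comap_isPrime ψ _
  have hmemP₁ : ∀ b : integralClosure v.toValuationSubring F₁, (b : F₁) ≠ 0 →
      (b ∈ P₁ ↔ 0 < w.ord (b : F₁)) := by
    intro b hb
    rw [hP₁, Ideal.mem_comap, mem_maximalIdeal_iff_ord_pos w (ψ b) (by rw [hψ]; exact hb), hψ]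
  -- a uniformiser of `v`
  obtain ⟨πv, hπv⟩ := IsDiscreteValuationRing.exists_irreducible v.toValuationSubring
  have hπv1 : v.ord (πv : F₀) = 1 := v.ord_coe_irreducible hπv
  have hπv0 : (πv : F₀) ≠ 0 := by
    intro h
    rw [h, Place.ord_zero] at hπv1
    exact zero_ne_one hπv1
  have hπvw : w.ord (algebraMap F₀ F₁ (πv : F₀)) = e := by
    rw [hord, hπv1, mul_one]
  refine ⟨(πv : F₀), ?_⟩
  rw [hπvw]
  -- it suffices to show `e = 1`
  suffices hsuff : e = 1 by rw [hsuff]; rfl
  have hp0 : IsLocalRing.maximalIdeal v.toValuationSubring ≠ ⊥ :=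
    IsDiscreteValuationRing.not_a_field _
  -- `P₁` lies over the maximal ideal of `A`
  have hlies : P₁.LiesOver (IsLocalRing.maximalIdeal v.toValuationSubring) := by
    refine ⟨Ideal.ext fun a => ?_⟩
    rw [Ideal.under_def, Ideal.mem_comap]
    rcases eq_or_ne (a : F₀) 0 with h0 | h0
    · have ha : a = 0 := Subtype.ext h0
      rw [ha, map_zero]
      exact ⟨fun _ => P₁.zero_mem, fun _ => Ideal.zero_mem _⟩
    · have h1 : ((algebraMap v.toValuationSubring
          (integralClosure v.toValuationSubring F₁) a :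
            integralClosure v.toValuationSubring F₁) : F₁) = algebraMap F₀ F₁ (a : F₀) := rfl
      have h2 : ((algebraMap v.toValuationSubring
          (integralClosure v.toValuationSubring F₁) a :
            integralClosure v.toValuationSubring F₁) : F₁) ≠ 0 := by
        rw [h1]
        exact (map_ne_zero _).mpr h0
      rw [hmemP₁ _ h2, h1, hord, mem_maximalIdeal_iff_ord_pos v a h0]
      constructor
      · intro h
        positivity
      · intro h
        by_contra hcon
        have h3 : v.ord (a : F₀) ≤ 0 := not_lt.mp hcon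
        have h4 : (e : ℤ) * v.ord (a : F₀) ≤ 0 :=
          mul_nonpos_of_nonneg_of_nonpos (by positivity) h3
        omega
  haveI : IsFractionRing (integralClosure v.toValuationSubring F₁) F₁ :=
    integralClosure.isFractionRing_of_finite_extension F₀ F₁
  haveI : IsDedekindDomain (integralClosure v.toValuationSubring F₁) :=
    integralClosure.isDedekindDomain v.toValuationSubring F₀ F₁
  haveI : Module.Finite v.toValuationSubring (integralClosure v.toValuationSubring F₁) :=
    IsIntegralClosure.finite v.toValuationSubring F₀ F₁ _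
  haveI : IsGaloisGroup Gal(F₁/F₀) v.toValuationSubring
      (integralClosure v.toValuationSubring F₁) := .of_isFractionRing _ _ _ F₀ F₁
  haveI : FaithfulSMul v.toValuationSubring (integralClosure v.toValuationSubring F₁) := by
    rw [faithfulSMul_iff_algebraMap_injective]
    intro x y hxy
    have h1 := congrArg (fun b : integralClosure v.toValuationSubring F₁ => (b : F₁)) hxy
    have h2 : algebraMap F₀ F₁ (x : F₀) = algebraMap F₀ F₁ (y : F₀) := h1
    exact Subtype.ext ((algebraMap F₀ F₁).injective h2)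
  haveI : Module.IsTorsionFree v.toValuationSubring
      (integralClosure v.toValuationSubring F₁) := by
    rw [Module.isTorsionFree_iff_faithfulSMul]
    infer_instance
  have hP₁0 : P₁ ≠ ⊥ := Ideal.ne_bot_of_liesOver_of_ne_bot hp0 P₁
  haveI : P₁.IsMaximal := Ring.DimensionLEOne.maximalOfPrime hP₁0 hP₁prime
  -- the residue field of `A` has characteristic zero
  haveI : CharZero (IsLocalRing.maximalIdeal v.toValuationSubring).ResidueField :=
    charZero_of_injective_ringHom
      (((algebraMap v.toValuationSubring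
        (IsLocalRing.maximalIdeal v.toValuationSubring).ResidueField).comp
          (algebraMap K₀ v.toValuationSubring)).injective)
  -- the inertia group is trivial
  have hinert : P₁.inertia Gal(F₁/F₀) = ⊥ := by
    rw [eq_bot_iff]
    intro σ hσ
    rw [Subgroup.mem_bot]
    have hfixC : ∀ c ∈ C, σ c = c := by
      intro c hc
      have hcint : IsIntegral v.toValuationSubring c := by
        have h1 : IsIntegral K₀ c := hCint c hc
        letI : Algebra K₀ (integralClosure v.toValuationSubring F₁) :=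
          ((algebraMap v.toValuationSubring (integralClosure v.toValuationSubring F₁)).comp
            (algebraMap K₀ v.toValuationSubring)).toAlgebra
        haveI : IsScalarTower K₀ v.toValuationSubring F₁ :=
          IsScalarTower.of_algebraMap_eq fun r => by
            rw [IsScalarTower.algebraMap_apply K₀ F₀ F₁]
            rfl
        exact h1.tower_top
      by_contra hne
      have h1 : σ • (⟨c, hcint⟩ : integralClosure v.toValuationSubring F₁) - ⟨c, hcint⟩ ∈ P₁ :=
        hσ ⟨c, hcint⟩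
      have h2 : ((σ • (⟨c, hcint⟩ : integralClosure v.toValuationSubring F₁) - ⟨c, hcint⟩ :
          integralClosure v.toValuationSubring F₁) : F₁) = σ c - c := rfl
      have h3 : σ c - c ≠ 0 := sub_ne_zero.mpr hne
      rw [hmemP₁ _ (by rw [h2]; exact h3), h2] at h1
      have h4 := hCunit (σ c) (hstab σ c hc) c hc hne
      rw [mem_iff_ord_nonneg, w.ord_inv] at h4
      omega
    -- `σ` fixes `adjoin F₀ C = ⊤`
    have hle : IntermediateField.adjoin F₀ C ≤ IntermediateField.fixedField (Subgroup.zpowers σ) := by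
      rw [IntermediateField.adjoin_le_iff]
      intro c hc
      rw [SetLike.mem_coe, IntermediateField.mem_fixedField_iff]
      rintro τ ⟨n, rfl⟩
      have h1 : σ c = c := hfixC c hc
      have h2 : ∀ m : ℕ, (σ ^ m) c = c := by
        intro m
        induction m with
        | zero => rfl
        | succ m ih => rw [pow_succ, AlgEquiv.mul_apply, h1, ih]
      have h3 : σ⁻¹ c = c := by
        show σ.symm c = c
        rw [AlgEquiv.symm_apply_eq]
        exact h1.symm
      have h4 : ∀ m : ℕ, (σ⁻¹ ^ m) c = c := by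
        intro m
        induction m with
        | zero => rfl
        | succ m ih => rw [pow_succ, AlgEquiv.mul_apply, h3, ih]
      rcases Int.eq_nat_or_neg n with ⟨m, rfl | rfl⟩
      · show (σ ^ (m : ℤ)) c = c
        rw [zpow_natCast]; exact h2 m
      · show (σ ^ (-(m : ℤ))) c = c
        rw [zpow_neg, zpow_natCast, ← inv_pow]; exact h4 m
    ext x
    have hx : x ∈ IntermediateField.fixedField (Subgroup.zpowers σ) := hle (hgen ▸ IntermediateField.mem_top)
    rw [IntermediateField.mem_fixedField_iff] at hx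
    exact hx σ (Subgroup.mem_zpowers σ)
  have hcard : Nat.card (P₁.inertia Gal(F₁/F₀))
      = (IsLocalRing.maximalIdeal v.toValuationSubring).ramificationIdxIn
          (integralClosure v.toValuationSubring F₁) :=
    card_inertia_eq_ramificationIdxIn (IsLocalRing.maximalIdeal v.toValuationSubring) P₁
  rw [hinert, Subgroup.card_bot,
    ramificationIdxIn_eq_ramificationIdx (IsLocalRing.maximalIdeal v.toValuationSubring) P₁
      Gal(F₁/F₀)] at hcard
  have he1 : P₁.ramificationIdx v.toValuationSubring = 1 := hcard.symm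
  -- the uniformiser of `A` is not in `P₁ ^ 2`
  have hπB0 : ((algebraMap v.toValuationSubring (integralClosure v.toValuationSubring F₁) πv :
      integralClosure v.toValuationSubring F₁) : F₁) = algebraMap F₀ F₁ (πv : F₀) := rfl
  have hπwne : algebraMap F₀ F₁ (πv : F₀) ≠ 0 := (map_ne_zero _).mpr hπv0
  have hπB : algebraMap v.toValuationSubring (integralClosure v.toValuationSubring F₁) πv
      ∈ P₁ := by
    rw [hmemP₁ _ (by rw [hπB0]; exact hπwne), hπB0, hπvw]
    exact_mod_cast he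
  have hnot : algebraMap v.toValuationSubring (integralClosure v.toValuationSubring F₁) πv
      ∉ P₁ ^ 2 := by
    intro h2
    have he' : (IsLocalRing.maximalIdeal v.toValuationSubring).ramificationIdx' P₁ = 1 := by
      rw [Ideal.ramificationIdx'_eq_ramificationIdx _ _ hp0, he1]
    have hle : (IsLocalRing.maximalIdeal v.toValuationSubring).map
        (algebraMap v.toValuationSubring (integralClosure v.toValuationSubring F₁)) ≤ P₁ := by
      rw [Ideal.map_le_iff_le_comap]
      exact (Ideal.over_def P₁ (IsLocalRing.maximalIdeal v.toValuationSubring)).le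
    have := (Ideal.ramificationIdx'_ne_one_iff hle).mpr (by
      rw [hπv.maximalIdeal_eq, Ideal.map_span, Ideal.span_le]
      rintro _ ⟨_, rfl, rfl⟩
      exact h2)
    exact this he'
  -- the height one prime
  set v₁ : HeightOneSpectrum (integralClosure v.toValuationSubring F₁) :=
    ⟨P₁, hP₁prime, hP₁0⟩ with hv₁
  have hv₁π : v₁.valuation F₁ (algebraMap F₀ F₁ (πv : F₀)) = WithZero.exp (-1 : ℤ) := by
    have hB0 : algebraMap v.toValuationSubring (integralClosure v.toValuationSubring F₁) πv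
        ≠ 0 := by
      intro h
      apply hπwne
      rw [← hπB0, h]
      rfl
    have h0 : v₁.intValuation
        (algebraMap v.toValuationSubring (integralClosure v.toValuationSubring F₁) πv) ≠ 0 :=
      HeightOneSpectrum.intValuation_ne_zero _ _ hB0
    have h1 : v₁.intValuation
        (algebraMap v.toValuationSubring (integralClosure v.toValuationSubring F₁) πv)
          ≤ WithZero.exp (-((1 : ℕ) : ℤ)) := by
      rw [HeightOneSpectrum.intValuation_le_pow_iff_mem, pow_one]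
      exact hπB
    have h2 : ¬ v₁.intValuation
        (algebraMap v.toValuationSubring (integralClosure v.toValuationSubring F₁) πv)
          ≤ WithZero.exp (-((2 : ℕ) : ℤ)) := by
      rw [HeightOneSpectrum.intValuation_le_pow_iff_mem]
      exact hnot
    have hcast : algebraMap F₀ F₁ (πv : F₀)
        = algebraMap (integralClosure v.toValuationSubring F₁) F₁
          (algebraMap v.toValuationSubring (integralClosure v.toValuationSubring F₁) πv) := rfl
    rw [hcast, HeightOneSpectrum.valuation_of_algebraMap]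
    rw [← WithZero.exp_log h0] at h1 h2 ⊢
    rw [WithZero.exp_le_exp] at h1 h2
    congr 1
    push_cast at h1 h2
    omega
  have hunits : ∀ b : integralClosure v.toValuationSubring F₁, b ∉ v₁.asIdeal →
      w.toValuationSubring.valuation
        ((RingHom.id F₁) (algebraMap (integralClosure v.toValuationSubring F₁) F₁ b)) = 1 := by
    intro b hb
    have hb' : ψ b ∉ IsLocalRing.maximalIdeal w.toValuationSubring := hb
    have hu : IsUnit (ψ b) := by
      rw [IsLocalRing.mem_maximalIdeal, mem_nonunits_iff, not_not] at hb'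
      exact hb'
    have := (w.toValuationSubring.valuation_eq_one_iff (ψ b)).mp hu
    exact this
  obtain ⟨k, hk⟩ := val_eq_zpow_of_adic (RingHom.id F₁) w.toValuationSubring v₁ hunits
    (algebraMap F₀ F₁ (πv : F₀)) hv₁π (πw : F₁) hπw0
  rw [RingHom.id_apply, RingHom.id_apply] at hk
  -- `πw / πv ^ k` is a unit of the valuation ring of `w`
  have hval1 : w.toValuationSubring.valuation
      ((πw : F₁) * ((algebraMap F₀ F₁ (πv : F₀)) ^ k)⁻¹) = 1 := by
    rw [map_mul, map_inv₀, map_zpow₀, hk]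
    exact mul_inv_cancel₀ (zpow_ne_zero _
      ((Valuation.ne_zero_iff _).mpr hπwne))
  have hmem1 : (πw : F₁) * ((algebraMap F₀ F₁ (πv : F₀)) ^ k)⁻¹ ∈ w.toValuationSubring := by
    rw [← ValuationSubring.valuation_le_one_iff, hval1]
  have hmem2 : ((πw : F₁) * ((algebraMap F₀ F₁ (πv : F₀)) ^ k)⁻¹)⁻¹ ∈ w.toValuationSubring := by
    rw [← ValuationSubring.valuation_le_one_iff, map_inv₀, hval1, inv_one]
  have hne1 : (πw : F₁) * ((algebraMap F₀ F₁ (πv : F₀)) ^ k)⁻¹ ≠ 0 :=
    mul_ne_zero hπw0 (inv_ne_zero (zpow_ne_zero _ hπwne))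
  have ho1 := ord_nonneg_of_mem w hmem1
  have ho2 := ord_nonneg_of_mem w hmem2
  rw [w.ord_inv] at ho2
  have ho : w.ord ((πw : F₁) * ((algebraMap F₀ F₁ (πv : F₀)) ^ k)⁻¹) = 0 := by omega
  rw [w.ord_mul hπw0 (inv_ne_zero (zpow_ne_zero _ hπwne)), w.ord_inv, w.ord_zpow, hπw1,
    hπvw] at ho
  -- `1 = k * e`
  have hke : k * (e : ℤ) = 1 := by omega
  have he2 : (e : ℤ) ∣ 1 := Dvd.intro_left k hke
  have he3 : (e : ℤ) = 1 := by
    have h1 : (e : ℤ) ≤ 1 := Int.le_of_dvd one_pos he2
    omega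
  exact_mod_cast he3

end

end Fermat.Agent.S36.NU.H41

end
end
-- ==== END Fermat.Agent.S36.NU.H41_UnramA

-- ==== BEGIN Fermat.Agent.S38.BadQGen
section

set_option autoImplicit false
set_option synthInstance.maxHeartbeats 400000
set_option maxHeartbeats 1000000

noncomputable section

open AlgebraicCurve ModularCurve
open WeierstrassCurve WeierstrassCurve.Affine WeierstrassCurve.Affine.Point
open scoped WeierstrassCurve.Affine

namespace Fermat.Agent.S38

open Fermat.Agent.BAD Fermat.Agent.S44 Fermat.Agent.L Fermat.Agent.S43 Fermat.Agent.S43.BadQ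
open Fermat.Agent.RED

/-- FROB-T for the prime `p` at the tame levels. -/
def FrobToricTameAt (p : ℕ) : Prop :=
  ∀ (q M : ℕ) (a b : ℤ) (hab : a * q + b * M = 1) (hq : q.Prime) [NeZero (M * q)], q ≠ p →
    ¬ q ∣ M → (5 ≤ q ∨ (q = 3 ∧ 2 ∣ M) ∨ (q = 2 ∧ 3 ∣ M)) →
    ∀ A : ValuationSubring (AlgebraicClosure ℚ), A.LiesOverPrime q →
      FrobToricAt (-1) p q M a b hab hq A

/-- The modular datum at the tame levels gives FROB-T there, for every prime `p`. -/
theorem frobToricTameAt_of (h : Stmt_ModSSDW_tame) (p : ℕ) (hp : p.Prime) : FrobToricTameAt p :=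
  fun q M a b hab hq _ hqp hqM ht A hA =>
    frobToricAt_of hp q M a b hab hq hqp A hA (h q M a b hab hq hqM ht A hA)

/-- **FROB-DESC at `p`**: FROB-T at the two non-tame cases `q = 3`, `M` odd and `q = 2`, `3 ∤ M`
from FROB-T at the tame levels (in fact from the level `M · 2 · 3` resp. `M · 3 · 2`).

Proof (Kummer form, as `BAD.H91.b1core_descend`; `r = 2` resp. `3` the auxiliary prime):
`x = [D]`, `p D = div f`, `w x = [D']`, `p D' = div f'`, `f, f'` Gauss units with residue `1` in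
`F_{Mq} ⊆ F_{Mrq}`.  The same functions define classes `x₂, w x₂ ∈ K1` at level `M r q` (orders are
multiplied by the ramification indices; the Gauss valuation and `w_q` of level `M r q` restrict to
those of level `M q`: `S43.CompEis.H80.stmt_CE_WUp`).  FROB-T at level `M r q` gives
`t₂ ∈ F_{Mrq}` with `t₂ ^ p = c (σ f) (w f) ^ q`; Kummer descent (`RED.KD.H22.stmt_KD`,
`M r q ∣ 36 · M q`, every exponent) gives `t ∈ F_{Mq}`, i.e. `σ x + q w x = 0`. -/
def FrobDescAt (p : ℕ) : Prop :=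
  FrobToricTameAt p →
    ∀ (q M : ℕ) (a b : ℤ) (hab : a * q + b * M = 1) (hq : q.Prime) [NeZero (M * q)], q ≠ p →
      ¬ q ∣ M → ((q = 3 ∧ ¬ 2 ∣ M) ∨ (q = 2 ∧ ¬ 3 ∣ M)) →
      ∀ A : ValuationSubring (AlgebraicClosure ℚ), A.LiesOverPrime q →
        FrobToricAt (-1) p q M a b hab hq A

/-- **FROB-DESC, general form.** -/
def Stmt_FrobDescGen : Prop := ∀ (p : ℕ), p.Prime → FrobDescAt p

/-- FROB-T at every level `M q`, `q ∤ M`, from the tame levels and the descent. -/
theorem frobToricAt_gen (p : ℕ) (ht : FrobToricTameAt p) (hd : FrobDescAt p)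
    (q M : ℕ) (a b : ℤ) (hab : a * q + b * M = 1) (hq : q.Prime) [NeZero (M * q)]
    (hqp : q ≠ p) (hqM : ¬ q ∣ M)
    (A : ValuationSubring (AlgebraicClosure ℚ)) (hA : A.LiesOverPrime q) :
    FrobToricAt (-1) p q M a b hab hq A := by
  by_cases h5 : 5 ≤ q
  · exact ht q M a b hab hq hqp hqM (Or.inl h5) A hA
  have hq23 : q = 2 ∨ q = 3 := by
    have h2 := hq.two_le
    have h4 : q ≠ 4 := by
      rintro rfl
      exact absurd hq (by decide)
    omega
  rcases hq23 with rfl | rfl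
  · by_cases h3M : 3 ∣ M
    · exact ht 2 M a b hab hq hqp hqM (Or.inr (Or.inr ⟨rfl, h3M⟩)) A hA
    · exact hd ht 2 M a b hab hq hqp hqM (Or.inr ⟨rfl, h3M⟩) A hA
  · by_cases h2M : 2 ∣ M
    · exact ht 3 M a b hab hq hqp hqM (Or.inr (Or.inl ⟨rfl, h2M⟩)) A hA
    · exact hd ht 3 M a b hab hq hqp hqM (Or.inl ⟨rfl, h2M⟩) A hA

theorem frobToricGen_of (h : Stmt_ModSSDW_tame) (hd : Stmt_FrobDescGen) : Stmt_FrobToricGen := by
  intro p hp _ q M a b hab hq _ hqp hsq A hA
  have hqM : ¬ q ∣ M := by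
    rintro ⟨k, rfl⟩
    exact hq.not_isUnit (hsq q ⟨k, by ring⟩)
  exact frobToricAt_gen p (frobToricTameAt_of h p hp) (hd p hp) q M a b hab hq hqp hqM A hA

/-- The descent leaf of S43 (`q = 3`, `M` odd, `p ≥ 5`) is a special case. -/
theorem frobDesc_of_gen (hd : Stmt_FrobDescGen) : Stmt_FrobDesc := by
  intro ht p hp hp5 M a b hab hq _ hqp h2M hsq A hA
  have hqM : ¬ 3 ∣ M := by
    rintro ⟨k, rfl⟩
    exact hq.not_isUnit (hsq 3 ⟨k, by ring⟩)
  refine hd p hp ?_ 3 M a b hab hq hqp hqM (Or.inl ⟨rfl, h2M⟩) A hA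
  intro q' M' a' b' hab' hq' _ hq'p hq'M' ht' A' hA'
  exact ht p hp hp5 q' M' a' b' hab' hq' hq'p hq'M' ht' A' hA'

/-- **COMP-EIS at `p = 3`** (new leaf): thickness `3` at the supersingular points with `j = 0`
(`q ≡ 2 mod 3`) is divisible by `p`; see the plan. -/
def Stmt_CompEis3 : Prop :=
  ∀ (N : ℕ) [NeZero N] (q : ℕ), q.Prime → q ≠ 3 → q ∣ N → Squarefree N →
    ∀ A : ValuationSubring (AlgebraicClosure ℚ), A.LiesOverPrime q → CompEisAt 3 N A

theorem compEisGen_of (h : Stmt_CompEis) (h3 : Stmt_CompEis3) : Stmt_CompEisGen := by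
  intro p hp hp2 N _ q hq hqp hqN hsq A hA
  by_cases hp5 : 5 ≤ p
  · exact h p hp hp5 N q hq hqp hqN
      (fun h2 => hq.not_isUnit ((hsq q) (by rwa [pow_two] at h2))) A hA
  have hp3 : p = 3 := by
    have h2 := hp.two_le
    have h4 : p ≠ 4 := by
      rintro rfl
      exact absurd hp (by decide)
    omega
  subst hp3
  exact h3 N q hq hqp hqN hsq A hA

theorem oldGen_of (hOR : Old.Stmt_OldRed) (hcore : H51.Stmt_HRcore) : Stmt_OldGen :=
  fun p hp _ N _ q hq _ hqN hsq A hA S t x hF hK hT =>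
    Old.old_of hOR hcore p hp N q hq hqN
      (fun h2 => hq.not_isUnit ((hsq q) (by rwa [pow_two] at h2))) A hA S t x hF hK hT

/-- **S38 from the open leaves.**  The conclusion is the frozen statement S38. -/
theorem result_of_open (hS : Stmt_ModSSDW_tame) (hd : Stmt_FrobDescGen) (hC : Stmt_CompEis)
    (hC3 : Stmt_CompEis3) (hOR : Old.Stmt_OldRed) (hcore : H51.Stmt_HRcore)
    (h3 : Stmt_PivotW) (hK : Stmt_Complete)
    (p : ℕ) [Fact p.Prime] (_hp2 : p ≠ 2) (W : WeierstrassCurve ℤ) (_hΔ : W.Δ ≠ 0)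
    (_hW : W.IsSemistableModel)
    (hcard₁ : Nat.card (Submodule.torsionBy ℤ
      ((W.map (Int.castRingHom ℚ))⁄(AlgebraicClosure ℚ)).Point p) = p ^ 2)
    (hker : GaloisFactorsThroughFiniteLevel
      (WeierstrassCurve.Affine.Point.galoisRepModuleEnd (K := AlgebraicClosure ℚ) ℚ
        (W.map (Int.castRingHom ℚ)) p))
    (_hirr : W.ModRepIsIrreducible p) (M q : ℕ) (hq : q.Prime) (hqp : q ≠ p)
    (hqM : q ∣ M) (hq2 : ¬ q ^ 2 ∣ M) (hM : Squarefree M)
    (hunr : ((W.map (Int.castRingHom ℚ)).residualGaloisRepOf p hcard₁ hker).IsUnramifiedAt q)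
    (hres : W.IsResiduallyModularOfLevel p M) :
    W.IsResiduallyModularOfLevel p (M / q) :=
  _root_.Fermat.Agent.S38.result_of_leaves (frobToricGen_of hS hd) (compEisGen_of hC hC3) (oldGen_of hOR hcore) h3 hK
    p _hp2 W _hΔ _hW hcard₁ hker _hirr M q hq hqp hqM hq2 hM hunr hres

end Fermat.Agent.S38

end
end
-- ==== END Fermat.Agent.S38.BadQGen

-- ==== BEGIN Fermat.Agent.S38.Complete.H49_Complete
section

/-!
# S38 / S39 / S59-LL, leaf COMPLETE (helper49)

`stmt_Complete : Fermat.Agent.S38.Stmt_Complete`: the congruence between an eigenform `g` and an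
integral Weierstrass curve `W` at almost all good primes gives the congruence at all good primes
`ℓ ∤ M p`.

Proof: `k = ℤ̄ / 𝔪`; `ρ_g` over `k` from S29; `ρ_W = E[p] ⊗ k`.  Their Frobenius characteristic
polynomials agree outside a finite set of primes, hence everywhere by Frobenius density
(`R.H91.charpoly_eq_of_frobenius`); compare the coefficients of `X` at a Frobenius element at `ℓ`.
-/

set_option autoImplicit false

open Polynomial WeierstrassCurve

namespace Fermat.Agent.S38.H49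

open Fermat.Agent.S58 Fermat.Agent.S58.H99

/-- The characteristic polynomial of `E[p] ⊗ k` at a Frobenius element at a good prime. -/
theorem charpoly_torsRes_baseChange (W : WeierstrassCurve ℤ) (hΔ : W.Δ ≠ 0) (p : ℕ)
    [Fact p.Prime] (k : Type) [Field k] [Algebra (ZMod p) k]
    (ℓ : ℕ) (hℓ : ℓ.Prime) (hℓp : ℓ ≠ p) (hgood : W.IsGoodPrimeFor ℓ)
    (P : ValuationSubring (AlgebraicClosure ℚ)) (hP : P.LiesOverPrime ℓ) (σ : GQ)
    (hσ : P.IsFrobeniusAt σ ℓ) :
    LinearMap.charpoly (((torsRes W hΔ p).baseChange k).ρ σ) =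
      X ^ 2 - C (((W.apOfModel ℓ : ℤ) : k)) * X + C ((ℓ : k)) := by
  have h1 := torsAdic_charpoly W hΔ p ℓ hℓ hℓp hgood P hP σ hσ
  have h2 : LinearMap.charpoly (((torsRes W hΔ p).baseChange k).ρ σ) =
      (LinearMap.charpoly ((torsRes W hΔ p).ρ σ)).map (algebraMap (ZMod p) k) := by
    have : Module.Finite (ZMod p) (torsRes W hΔ p).V :=
      Module.finite_of_finrank_eq_succ (torsRes W hΔ p).finrank_eq
    exact LinearMap.charpoly_baseChange (A := k) ((torsRes W hΔ p).ρ σ)
  rw [h2]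
  have h3 : LinearMap.charpoly ((torsRes W hΔ p).ρ σ) =
      X ^ 2 - C (((W.apOfModel ℓ : ℤ) : ZMod p)) * X + C ((ℓ : ZMod p)) := h1
  rw [h3]
  simp [Polynomial.map_sub, Polynomial.map_add, Polynomial.map_mul, Polynomial.map_pow]

/-- The coefficient of `X` of `X² - a X + b`. -/
theorem coeff_one_quad {R : Type*} [CommRing R] (a b : R) :
    (X ^ 2 - C a * X + C b : R[X]).coeff 1 = -a := by
  simp [coeff_X_pow, coeff_C]

/-- COMPLETE over an arbitrary field `k` of characteristic `p` with a ring homomorphism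
`φ : ℤ̄ → k`: the congruences `φ (a_ℓ(g)) = a_ℓ(W)` at almost all good primes give them at all
good primes `ℓ ∤ M p`. -/
theorem complete_field (p : ℕ) (hp : p.Prime) (W : WeierstrassCurve ℤ) (hΔ : W.Δ ≠ 0)
    (M : ℕ) (hM : 0 < M) (g : CuspForm (CongruenceSubgroup.Gamma0 M) 2)
    (hg : g.IsNormalizedEigenform) (S : Finset ℕ)
    (k : Type) [Field k] [CharP k p] (φ : integralClosure ℤ ℂ →+* k)
    (hcong : ∀ ℓ : ℕ, ℓ.Prime → ℓ ∉ S → W.IsGoodPrimeFor ℓ → ¬ ℓ ∣ M → ℓ ≠ p →
      ∃ a : integralClosure ℤ ℂ, (a : ℂ) = ModularFormClass.qCoeff g ℓ ∧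
        φ a = ((W.apOfModel ℓ : ℤ) : k))
    (ℓ : ℕ) (hℓ : ℓ.Prime) (hgood : W.IsGoodPrimeFor ℓ) (hℓM : ¬ ℓ ∣ M) (hℓp : ℓ ≠ p) :
    ∃ a : integralClosure ℤ ℂ, (a : ℂ) = ModularFormClass.qCoeff g ℓ ∧
      φ a = ((W.apOfModel ℓ : ℤ) : k) := by
  have : Fact p.Prime := ⟨hp⟩
  letI : Algebra (ZMod p) k := ZMod.algebra k p
  obtain ⟨ρg, hatt, -⟩ := Fermat.Agent.S29.result hg hp φ
  have hℓk : ∀ ℓ' : ℕ, ℓ'.Prime → ℓ' ≠ p → ((ℓ' : ℕ) : k) ≠ 0 := by
    intro ℓ' hℓ' hne h0
    have h1 : p ∣ ℓ' := (CharP.cast_eq_zero_iff k p ℓ').1 h0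
    exact hne ((Nat.prime_dvd_prime_iff_eq hp hℓ').1 h1).symm
  -- the finite set of excluded primes
  have hfrob : ∀ ℓ' : ℕ, ℓ'.Prime → ℓ' ∉ S ∪ badSet W p ∪ M.primeFactors →
      ∀ A : ValuationSubring (AlgebraicClosure ℚ),
      A.LiesOverPrime ℓ' → ∀ σ : GQ, A.IsFrobeniusAt σ ℓ' →
        LinearMap.charpoly ((GaloisRepAdic.ofResidualGaloisRep ρg).ρ σ) =
          LinearMap.charpoly
            ((GaloisRepAdic.ofResidualGaloisRep ((torsRes W hΔ p).baseChange k)).ρ σ) := by
    intro ℓ' hℓ' hℓT A hA σ hσ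
    have hS : ℓ' ∉ S := fun h => hℓT (Finset.mem_union_left _ (Finset.mem_union_left _ h))
    have hbad : ℓ' ∉ badSet W p :=
      fun h => hℓT (Finset.mem_union_left _ (Finset.mem_union_right _ h))
    have hM' : ¬ ℓ' ∣ M := fun h => hℓT (Finset.mem_union_right _
      (Nat.mem_primeFactors.2 ⟨hℓ', h, hM.ne'⟩))
    obtain ⟨hne, hgood'⟩ := not_mem_badSet hΔ hℓ' hbad
    obtain ⟨a, ha, hch⟩ := hatt ℓ' hℓ' hM' (hℓk ℓ' hℓ' hne) A hA σ hσ
    obtain ⟨a', ha', hφ'⟩ := hcong ℓ' hℓ' hS hgood' hM' hne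
    have haa : a = a' := Subtype.ext (ha.trans ha'.symm)
    have h2 := charpoly_torsRes_baseChange W hΔ p k ℓ' hℓ' hne hgood' A hA σ hσ
    show LinearMap.charpoly (ρg.ρ σ) = LinearMap.charpoly (((torsRes W hΔ p).baseChange k).ρ σ)
    rw [hch, h2, haa, hφ']
  have hTk : ∀ x : k, (∀ n : ℕ, x ∈ IsLocalRing.maximalIdeal k ^ n) → x = 0 := by
    intro x hx
    have h1 := hx 1
    rw [pow_one, IsLocalRing.maximalIdeal_eq_bot, Ideal.mem_bot] at h1
    exact h1
  have hall := Fermat.Agent.R.H91.charpoly_eq_of_frobenius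
    Fermat.Agent.Lib.FrobDensity.stmt_FD hTk _ _ _ hfrob
  -- a Frobenius element at `ℓ`
  obtain ⟨A, σ, hA, hσ⟩ := Fermat.Agent.Lib.FrobExists.exists_place_and_frobenius ℓ hℓ
  obtain ⟨a, ha, hch⟩ := hatt ℓ hℓ hℓM (hℓk ℓ hℓ hℓp) A hA σ hσ
  have h2 := charpoly_torsRes_baseChange W hΔ p k ℓ hℓ hℓp hgood A hA σ hσ
  have h3 : LinearMap.charpoly (ρg.ρ σ) =
      LinearMap.charpoly (((torsRes W hΔ p).baseChange k).ρ σ) := hall σ
  rw [hch, h2] at h3
  have h4 := congrArg (fun q : k[X] => q.coeff 1) h3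
  simp only [coeff_one_quad, neg_inj] at h4
  exact ⟨a, ha, h4⟩

/-- **COMPLETE.** -/
theorem stmt_Complete : Fermat.Agent.S38.Stmt_Complete := by
  intro p hp W hΔ M hM g 𝔪 S hg h𝔪 hp𝔪 hcong ℓ hℓ hgood hℓM hℓp
  have := h𝔪
  letI : Field (integralClosure ℤ ℂ ⧸ 𝔪) := Ideal.Quotient.field 𝔪
  have hpk : ((p : ℕ) : integralClosure ℤ ℂ ⧸ 𝔪) = 0 := by
    have : Ideal.Quotient.mk 𝔪 (p : integralClosure ℤ ℂ) = 0 :=
      Ideal.Quotient.eq_zero_iff_mem.2 hp𝔪
    simpa using this
  have : CharP (integralClosure ℤ ℂ ⧸ 𝔪) p := (CharP.charP_iff_prime_eq_zero hp).2 hpk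
  have key : ∀ (a : integralClosure ℤ ℂ) (n : ℤ),
      (Ideal.Quotient.mk 𝔪 a = ((n : ℤ) : integralClosure ℤ ℂ ⧸ 𝔪)) ↔
        a - ((n : ℤ) : integralClosure ℤ ℂ) ∈ 𝔪 := by
    intro a n
    rw [← Ideal.Quotient.eq_zero_iff_mem, map_sub, map_intCast, sub_eq_zero]
  obtain ⟨a, ha, hφ⟩ := complete_field p hp W hΔ M hM g hg S (integralClosure ℤ ℂ ⧸ 𝔪)
    (Ideal.Quotient.mk 𝔪)
    (fun ℓ' hℓ' hS hgood' hM' hne => by
      obtain ⟨a, ha, hmem⟩ := hcong ℓ' hℓ' hS hgood' hM' hne
      exact ⟨a, ha, (key a _).2 hmem⟩)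
    ℓ hℓ hgood hℓM hℓp
  exact ⟨a, ha, (key a _).1 hφ⟩

end Fermat.Agent.S38.H49

end
-- ==== END Fermat.Agent.S38.Complete.H49_Complete

-- ==== BEGIN Fermat.Agent.S38.P3.Defs
section

set_option autoImplicit false
set_option synthInstance.maxHeartbeats 400000
set_option maxHeartbeats 1000000

noncomputable section

open AlgebraicCurve ModularCurve
open WeierstrassCurve WeierstrassCurve.Affine WeierstrassCurve.Affine.Point
open scoped WeierstrassCurve.Affine

namespace Fermat.Agent.S38.P3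

open Fermat.Agent.BAD Fermat.Agent.S44 Fermat.Agent.L Fermat.Agent.S43 Fermat.Agent.S43.BadQ
open Fermat.Agent.S28.H73 Fermat.Agent.RED.H73 Fermat.Agent.RED

/-- The STRONG witness for the eigensystem `t` outside `S` at the level `N`. -/
def StrongAt (N : ℕ) (S : Finset ℕ) (t : ℕ → ℤ) : Prop :=
  ∃ r r' : ℕ, r.Prime ∧ r'.Prime ∧ r ≠ r' ∧ 5 ≤ r ∧ 5 ≤ r' ∧ r % 3 = 2 ∧ r' % 3 = 2 ∧
    r ∉ S ∧ r' ∉ S ∧ ¬ r ∣ N ∧ ¬ r' ∣ N ∧
    ((t r : ℤ) : ZMod 3) ≠ 0 ∧ ((t r' : ℤ) : ZMod 3) ≠ 0

/-- **COMP-EIS at `(3, N, A)`, strong form.** -/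
def CompEisAt3S (N : ℕ) [NeZero N] (A : ValuationSubring (AlgebraicClosure ℚ)) : Prop :=
  ∀ (S : Finset ℕ) (t : ℕ → ℤ) (x : (jzModule N 3).J),
    (∀ σ ∈ A.inertiaSubgroupIn ℚ, (jzModule N 3).gal σ x = x) →
    (∀ ℓ : ℕ, ℓ.Prime → ℓ ∉ S → ¬ ℓ ∣ N → ℓ ≠ 3 →
      (jzModule N 3).T ℓ x = ((t ℓ : ℤ) : ZMod 3) • x) →
    StrongAt N S t →
    Fin1 A N 3 (jzModule.pt N 3 x)

/-- **COMP-EIS3, strong form**: every level `N`, `q ‖ N`, `q ≠ 3`. -/
def Stmt_CompEis3S : Prop :=
  ∀ (N : ℕ) [NeZero N] (q : ℕ), q.Prime → q ≠ 3 → q ∣ N → ¬ q ^ 2 ∣ N →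
    ∀ A : ValuationSubring (AlgebraicClosure ℚ), A.LiesOverPrime q → CompEisAt3S N A

/-- **NE** (no elliptic point of order `3` at a level divisible by a prime `r ≡ 2 mod 3`,
characteristic `q ∤ M`): every zero of `j~` in the reduced field of level `M` has order divisible
by `3`. -/
def Stmt_NE : Prop :=
  ∀ (q M r : ℕ) [NeZero M], q.Prime → ¬ q ∣ M → r.Prime → r % 3 = 2 → r ∣ M →
    ∀ A : ValuationSubring (AlgebraicClosure ℚ), A.LiesOverPrime q →
    ∀ z : Place (kV A) ↥(redField A (FNbar M) (hasScale_laurentBaseChange A M)),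
      0 < z.ord (H91.jRed A M) → (3 : ℤ) ∣ z.ord (H91.jRed A M)

/-- **NE0**: the same in characteristic `0`: at a level `M` divisible by a prime `r ≡ 2 mod 3`
every zero of `j` has order divisible by `3` (in fact `= 3`). -/
def Stmt_NE0 : Prop :=
  ∀ (M r : ℕ) [NeZero M], r.Prime → r % 3 = 2 → r ∣ M →
    ∀ P : Place (AlgebraicClosure ℚ) ↥(FNbar M),
      0 < P.ord (RED.H73.jF (L := AlgebraicClosure ℚ) M) →
      (3 : ℤ) ∣ P.ord (RED.H73.jF (L := AlgebraicClosure ℚ) M)

/-- **STRONG**: for a semistable curve with `E[3]` irreducible there are primes `r ≡ 2 mod 3`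
outside any finite set with `a_r ≢ 0 mod 3`. -/
def Stmt_Strong : Prop :=
  ∀ (W : WeierstrassCurve ℤ), W.Δ ≠ 0 → W.IsSemistableModel →
    GaloisRepIsIrreducible (K := AlgebraicClosure ℚ) ℚ (W.map (Int.castRingHom ℚ)).toAffine 3 →
    ∀ S : Finset ℕ, ∃ r : ℕ, r.Prime ∧ r ∉ S ∧ r % 3 = 2 ∧
      ((W.apOfModel r : ℤ) : ZMod 3) ≠ 0

/-- The STRONG witness at every level and outside every finite set, from STRONG. -/
theorem strongAt_of_strong (h : Stmt_Strong) (W : WeierstrassCurve ℤ) (hΔ : W.Δ ≠ 0)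
    (hW : W.IsSemistableModel)
    (hirr : GaloisRepIsIrreducible (K := AlgebraicClosure ℚ) ℚ
      (W.map (Int.castRingHom ℚ)).toAffine 3)
    (N : ℕ) (hN : N ≠ 0) (S : Finset ℕ) : StrongAt N S (fun ℓ => W.apOfModel ℓ) := by
  obtain ⟨r, hr, hrS, hr3, hrt⟩ := h W hΔ hW hirr (S ∪ N.primeFactors ∪ {2})
  obtain ⟨r', hr', hr'S, hr'3, hr't⟩ := h W hΔ hW hirr (S ∪ N.primeFactors ∪ {2} ∪ {r})
  simp only [Finset.mem_union, Finset.mem_singleton, Nat.mem_primeFactors, not_or] at hrS hr'S
  have h5 : ∀ x : ℕ, x.Prime → x ≠ 2 → x % 3 = 2 → 5 ≤ x := by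
    intro x hx hx2 hx3
    have h2 := hx.two_le
    by_contra hlt
    have : x = 2 ∨ x = 3 ∨ x = 4 := by omega
    rcases this with rfl | rfl | rfl
    · exact hx2 rfl
    · omega
    · omega
  refine ⟨r, r', hr, hr', fun h => hr'S.2 h.symm, h5 r hr hrS.2 hr3, h5 r' hr' hr'S.1.2 hr'3,
    hr3, hr'3, hrS.1.1, hr'S.1.1.1, ?_, ?_, hrt, hr't⟩
  · intro hd
    exact hrS.1.2 ⟨hr, hd, hN⟩
  · intro hd
    exact hr'S.1.1.2 ⟨hr', hd, hN⟩

end Fermat.Agent.S38.P3

end
end
-- ==== END Fermat.Agent.S38.P3.Defs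

-- ==== BEGIN Fermat.Agent.S38.P3.H57_Strong
section

/-!
# S38 at `p = 3`: the STRONG non-Eisenstein witness (helper57)

For a semistable curve `W` with `W[3]` irreducible and every finite set `S` of primes there is a
good prime `ℓ ∉ S`, `ℓ ≡ 2 mod 3`, with `a_ℓ(W) ≢ 0 mod 3`.

This is the input of the `T_ℓ` trick of COMP-EIS at `p = 3` (the level `N ℓ` has no elliptic
point of order `3`, and `T_ℓ` acts invertibly on the eigenvector).  Note that such an `ℓ` is in
particular a non-Eisenstein witness: `1 + ℓ ≡ 0 ≢ a_ℓ`.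

Proof: `Tate.T7.stmt_TWT` (the image of every subgroup of index two spans `End W[3]`) applied to
`H = ker (det ρ)`, the linear algebra core `exists_det_neg_one_trace_ne_zero`, the existence form
of Frobenius density (`Lib.FrobDensity.stmt_FD`) and `Lib.EllFinite.stmt_main`.
-/

set_option autoImplicit false

open WeierstrassCurve WeierstrassCurve.Affine WeierstrassCurve.Affine.Point

namespace Fermat.Agent.S38.P3.H57

open Fermat.Agent.S58.H99 (TorsW torsRho finrank_torsW)

/-- **STRONG witness at `p = 3`.** -/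
def Stmt_Strong3 : Prop :=
  ∀ (W : WeierstrassCurve ℤ), W.Δ ≠ 0 → W.IsSemistableModel → W.ModRepIsIrreducible 3 →
    ∀ S : Finset ℕ, ∃ ℓ : ℕ, ℓ.Prime ∧ ℓ ∉ S ∧ W.IsGoodPrimeFor ℓ ∧ ℓ ≠ 3 ∧
      (ℓ : ZMod 3) = -1 ∧ ((W.apOfModel ℓ : ℤ) : ZMod 3) ≠ 0

theorem neg_one_pow_zmod3 (d : ZMod 3) (j : ℕ) (h : d ^ j = -1) : d = -1 ∧ Odd j := by
  rcases zmod3_cases d with rfl | rfl | rfl
  · exfalso
    rcases Nat.eq_zero_or_pos j with rfl | hj
    · revert h; decide
    · rw [zero_pow hj.ne'] at h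
      revert h; decide
  · exfalso
    rw [one_pow] at h
    revert h; decide
  · refine ⟨rfl, ?_⟩
    rcases Nat.even_or_odd j with hj | hj
    · exfalso
      rw [hj.neg_one_pow] at h
      revert h; decide
    · exact hj

theorem stmt_Strong3 : Stmt_Strong3 := by
  intro W hΔ hss hirr S
  have hfr := finrank_torsW W hΔ 3
  have : Module.Finite (ZMod 3) (TorsW W 3) := Module.finite_of_finrank_eq_succ hfr
  have : Finite (TorsW W 3) := Module.finite_of_finite (ZMod 3)
  have halg : Algebra.IsAlgebraic ℚ (AlgebraicClosure ℚ) := AlgebraicClosure.isAlgebraic ℚ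
  obtain ⟨L, hL, hLg⟩ := Fermat.Agent.L.H19.exists_finite_level (F := ℚ)
    (K := AlgebraicClosure ℚ) (W.map (Int.castRingHom ℚ)) 3
  have hΔpos : 0 < W.Δ.natAbs := Nat.pos_of_ne_zero (Int.natAbs_ne_zero.mpr hΔ)
  -- an element of determinant `-1`: a Frobenius at a prime `≡ 2 mod 3`
  obtain ⟨ℓ₁, hℓ₁gt, hℓ₁, hℓ₁mod⟩ := Nat.forall_exists_prime_gt_and_eq_mod (q := 3)
    (a := -1) isUnit_one.neg (max 3 W.Δ.natAbs)
  obtain ⟨A₁, σ₁, hA₁, hσ₁⟩ := Fermat.Agent.Lib.FrobExists.exists_place_and_frobenius ℓ₁ hℓ₁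
  have hgood₁ : W.IsGoodPrimeFor ℓ₁ := by
    intro hdvd
    have h1 : ℓ₁ ∣ W.Δ.natAbs := Int.natCast_dvd.mp hdvd
    have h2 : ℓ₁ ≤ W.Δ.natAbs := Nat.le_of_dvd hΔpos h1
    have := le_max_right 3 W.Δ.natAbs
    omega
  have h3ℓ₁ : 3 ≠ ℓ₁ := by
    have := le_max_left 3 W.Δ.natAbs
    omega
  obtain ⟨-, -, hdet₁⟩ := Fermat.Agent.Lib.EllFinite.stmt_main W 3 ℓ₁ hℓ₁ h3ℓ₁ hgood₁ A₁ hA₁
    σ₁ hσ₁
  have hdet₁' : LinearMap.det (torsRho W 3 σ₁) = -1 := by
    rw [← hℓ₁mod]
    exact hdet₁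
  -- the Taylor–Wiles condition for `H = ker det`
  have hidx := index_detKer (torsRho W 3) hdet₁'
  have hspan := Fermat.Agent.Tate.T7.stmt_TWT W hΔ hss 3 (by norm_num) hirr
    (detKer (torsRho W 3)) hidx
  obtain ⟨g₀, hg₀d, hg₀t⟩ := exists_det_neg_one_trace_ne_zero hfr (torsRho W 3) hdet₁' hspan
  -- Frobenius density
  obtain ⟨ℓ, A, σ, j, hℓ, hℓS, hA, hσ, hj⟩ :=
    Fermat.Agent.Lib.FrobDensity.stmt_FD (S ∪ (3 * W.Δ.natAbs).primeFactors) L hL g₀
  have hℓS1 : ℓ ∉ S := fun h => hℓS (Finset.mem_union_left _ h)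
  have hnd : ¬ ℓ ∣ 3 * W.Δ.natAbs := fun hd =>
    hℓS (Finset.mem_union_right _ (Nat.mem_primeFactors.mpr
      ⟨hℓ, hd, mul_ne_zero (by norm_num) hΔpos.ne'⟩))
  have hℓ3 : ℓ ≠ 3 := by
    rintro rfl
    exact hnd (dvd_mul_right _ _)
  have hgood : W.IsGoodPrimeFor ℓ := by
    intro hdvd
    exact hnd (Dvd.dvd.mul_left (Int.natCast_dvd.mp hdvd) _)
  obtain ⟨-, htrσ, hdetσ⟩ := Fermat.Agent.Lib.EllFinite.stmt_main W 3 ℓ hℓ hℓ3.symm hgood A hA
    σ hσ
  have hρ : torsRho W 3 g₀ = (torsRho W 3 σ) ^ j := by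
    rw [← map_pow]
    apply LinearMap.ext
    intro v
    exact (hLg (σ ^ j) g₀ hj v).symm
  have hdetσ' : LinearMap.det (torsRho W 3 σ) = (ℓ : ZMod 3) := hdetσ
  have htrσ' : LinearMap.trace (ZMod 3) (TorsW W 3) (torsRho W 3 σ)
      = ((W.apOfModel ℓ : ℤ) : ZMod 3) := by
    rw [← htrσ]
    rfl
  have hpow : (ℓ : ZMod 3) ^ j = -1 := by
    rw [← hdetσ', ← map_pow, ← hρ]
    exact hg₀d
  obtain ⟨hℓmod, hjodd⟩ := neg_one_pow_zmod3 _ _ hpow
  refine ⟨ℓ, hℓ, hℓS1, hgood, hℓ3, hℓmod, ?_⟩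
  intro h0
  apply hg₀t
  have hsq : torsRho W 3 σ * torsRho W 3 σ = 1 :=
    sq_eq_one_of_trace_zero hfr _ (by rw [htrσ', h0]) (by rw [hdetσ', hℓmod])
  rw [hρ, pow_odd_of_sq_eq_one _ hsq j hjodd, htrσ', h0]

end Fermat.Agent.S38.P3.H57

end
-- ==== END Fermat.Agent.S38.P3.H57_Strong

-- ==== BEGIN Fermat.Agent.S39.FinMult.H33_Struct
section

set_option autoImplicit false

namespace Fermat.Agent.S39.FinMult.H33

open WeierstrassCurve WeierstrassCurve.Affine Polynomial
open Fermat.Agent.S05 (ModelHyp InE0 InE1 valUnit bUnit CompGroup)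
open Fermat.Agent.S05.H14 (IsVarChange fx fy)

section shift

variable {L : Type*} [Field L]

/-- The cubic `x³ + a x² + b x + c` of the node model. -/
def cub (W : Affine L) (x : L) : L := x ^ 3 + W.a₂ * x ^ 2 + W.a₄ * x + W.a₆

/-- The S05 model obtained from the node model by the shift `x ↦ x - e`. -/
def shiftModel (W : Affine L) (e : L) : Affine L :=
  ⟨0, W.a₂ + 3 * e, 0, 3 * e ^ 2 + 2 * W.a₂ * e + W.a₄, 0⟩

@[simp] lemma shiftModel_a₁ (W : Affine L) (e : L) : (shiftModel W e).a₁ = 0 := rfl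
@[simp] lemma shiftModel_a₃ (W : Affine L) (e : L) : (shiftModel W e).a₃ = 0 := rfl
@[simp] lemma shiftModel_a₆ (W : Affine L) (e : L) : (shiftModel W e).a₆ = 0 := rfl
lemma shiftModel_a₂ (W : Affine L) (e : L) : (shiftModel W e).a₂ = W.a₂ + 3 * e := rfl
lemma shiftModel_a₄ (W : Affine L) (e : L) :
    (shiftModel W e).a₄ = 3 * e ^ 2 + 2 * W.a₂ * e + W.a₄ := rfl

/-- The shift is a change of variables. -/
lemma isVarChange_shift (W : Affine L) (h₁ : W.a₁ = 0) (h₃ : W.a₃ = 0) (e : L)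
    (he : cub W e = 0) : IsVarChange W (shiftModel W e) 1 (-e) 0 0 := by
  unfold cub at he
  refine ⟨one_ne_zero, ?_, ?_, ?_, ?_, ?_⟩
  · simp [h₁]
  · simp only [shiftModel_a₂, shiftModel_a₁]; ring
  · simp [h₃]
  · simp only [shiftModel_a₂, shiftModel_a₁, shiftModel_a₃, shiftModel_a₄]; ring
  · simp only [shiftModel_a₂, shiftModel_a₁, shiftModel_a₃, shiftModel_a₄, shiftModel_a₆]
    linear_combination he

/-- The discriminant of a curve with `a₁ = a₃ = 0`. -/
lemma Δ_of_a₁_a₃ (W : Affine L) (h₁ : W.a₁ = 0) (h₃ : W.a₃ = 0) :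
    W.Δ = 16 * (-4 * W.a₂ ^ 3 * W.a₆ + W.a₂ ^ 2 * W.a₄ ^ 2 - 4 * W.a₄ ^ 3 - 27 * W.a₆ ^ 2
      + 18 * W.a₂ * W.a₄ * W.a₆) := by
  simp only [WeierstrassCurve.Δ, WeierstrassCurve.b₂, WeierstrassCurve.b₄, WeierstrassCurve.b₆,
    WeierstrassCurve.b₈, h₁, h₃]
  ring

/-- The discriminant of the shifted model. -/
lemma Δ_shiftModel' (W : Affine L) (e : L) :
    (shiftModel W e).Δ = 16 * (shiftModel W e).a₄ ^ 2 *
      ((shiftModel W e).a₂ ^ 2 - 4 * (shiftModel W e).a₄) := by
  rw [Δ_of_a₁_a₃ _ (shiftModel_a₁ W e) (shiftModel_a₃ W e), shiftModel_a₆]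
  ring

/-- The shift does not change the discriminant. -/
lemma Δ_shiftModel (W : Affine L) (h₁ : W.a₁ = 0) (h₃ : W.a₃ = 0) (e : L)
    (he : cub W e = 0) : (shiftModel W e).Δ = W.Δ := by
  unfold cub at he
  have hc : W.a₆ = -(e ^ 3 + W.a₂ * e ^ 2 + W.a₄ * e) := by linear_combination he
  rw [Δ_shiftModel', Δ_of_a₁_a₃ W h₁ h₃, shiftModel_a₂, shiftModel_a₄, hc]
  ring

end shift

section val

variable {L : Type*} [Field L] {A : ValuationSubring L} {W : Affine L}

lemma val_three_le (hyp : NodeHyp A W) : A.valuation (3 : L) ≤ 1 := by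
  have e : (3 : L) = 2 + 1 := by norm_num
  rw [e]
  exact (A.valuation.map_add _ _).trans (max_le hyp.two.le (by rw [map_one]))

lemma val_four (hyp : NodeHyp A W) : A.valuation (4 : L) = 1 := by
  have : (4 : L) = 2 * 2 := by norm_num
  rw [this, map_mul, hyp.two, one_mul]

lemma val_sixteen (hyp : NodeHyp A W) : A.valuation (16 : L) = 1 := by
  have : (16 : L) = 4 * 4 := by norm_num
  rw [this, map_mul, val_four hyp, one_mul]

lemma val_b_lt (hyp : NodeHyp A W) : A.valuation W.a₄ < 1 := lt_of_le_of_lt hyp.b_le hyp.Δ_lt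

lemma val_c_lt (hyp : NodeHyp A W) : A.valuation W.a₆ < 1 := lt_of_le_of_lt hyp.c_le hyp.Δ_lt

/-- A small root of the cubic. -/
lemma exists_small_root [IsAlgClosed L] (hyp : NodeHyp A W) :
    ∃ e : L, cub W e = 0 ∧ A.valuation e < 1 := by
  set g : L[X] := (Cubic.mk 1 W.a₂ W.a₄ W.a₆).toPoly with hg
  have hg0 : g ≠ 0 := Cubic.ne_zero_of_a_ne_zero (P := Cubic.mk 1 W.a₂ W.a₄ W.a₆) one_ne_zero
  by_contra hcon
  push Not at hcon
  have hroots : ∀ ξ ∈ g.roots, 1 ≤ A.valuation ξ := by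
    intro ξ hξ
    apply hcon ξ
    have := (mem_roots hg0).1 hξ
    rw [IsRoot.def, hg, Cubic.toPoly] at this
    simp only [eval_add, eval_mul, eval_C, eval_pow, eval_X] at this
    unfold cub
    linear_combination this
  have h := Fermat.Agent.Tate.T6.H97.coeff_le_coeff_zero_of_roots A g hroots 3
  rw [hg, Cubic.coeff_eq_a, Cubic.coeff_eq_d, map_one] at h
  exact absurd (val_c_lt hyp) (not_lt.2 h)

variable {e : L}

/-- `|a + 3e| = 1`. -/
lemma val_a_shift (hyp : NodeHyp A W) (he1 : A.valuation e < 1) :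
    A.valuation (shiftModel W e).a₂ = 1 := by
  rw [shiftModel_a₂, Valuation.map_add_eq_of_lt_left, hyp.a_one]
  rw [hyp.a_one, map_mul]
  calc A.valuation 3 * A.valuation e ≤ 1 * A.valuation e := by
        gcongr
        exact val_three_le hyp
    _ = A.valuation e := one_mul _
    _ < 1 := he1

/-- `|b'| < 1`. -/
lemma val_b_shift_lt (hyp : NodeHyp A W) (he1 : A.valuation e < 1) :
    A.valuation (shiftModel W e).a₄ < 1 := by
  rw [shiftModel_a₄]
  refine Valuation.map_add_lt _ (Valuation.map_add_lt _ ?_ ?_) (val_b_lt hyp)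
  · rw [map_mul, map_pow]
    calc A.valuation 3 * A.valuation e ^ 2 ≤ 1 * A.valuation e ^ 2 := by
          gcongr
          exact val_three_le hyp
      _ = A.valuation e ^ 2 := one_mul _
      _ < 1 := pow_lt_one₀ zero_le he1 two_ne_zero
  · rw [map_mul, map_mul, hyp.two, hyp.a_one, one_mul, one_mul]
    exact he1

/-- `|a'² - 4 b'| = 1`. -/
lemma val_disc_shift (hyp : NodeHyp A W) (he1 : A.valuation e < 1) :
    A.valuation ((shiftModel W e).a₂ ^ 2 - 4 * (shiftModel W e).a₄) = 1 := by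
  have h1 : A.valuation ((shiftModel W e).a₂ ^ 2) = 1 := by
    rw [map_pow, val_a_shift hyp he1, one_pow]
  rw [Valuation.map_sub_eq_of_lt_left, h1]
  rw [h1, map_mul, val_four hyp, one_mul]
  exact val_b_shift_lt hyp he1

/-- `|b'|² = |Δ|`. -/
lemma val_b_shift_sq (hyp : NodeHyp A W) (he : cub W e = 0) (he1 : A.valuation e < 1) :
    A.valuation (shiftModel W e).a₄ ^ 2 = A.valuation W.Δ := by
  rw [← Δ_shiftModel W hyp.a₁ hyp.a₃ e he, Δ_shiftModel', map_mul, map_mul, val_sixteen hyp,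
    val_disc_shift hyp he1, one_mul, mul_one, map_pow]

lemma b_shift_ne_zero (hyp : NodeHyp A W) (he : cub W e = 0) (he1 : A.valuation e < 1) :
    (shiftModel W e).a₄ ≠ 0 := by
  intro h
  have := val_b_shift_sq hyp he he1
  rw [h, map_zero, zero_pow two_ne_zero] at this
  exact hyp.Δ_ne ((map_eq_zero _).1 this.symm)

/-- The shifted model satisfies the hypotheses of S05. -/
lemma modelHyp_shift (hyp : NodeHyp A W) (he : cub W e = 0) (he1 : A.valuation e < 1) :
    ModelHyp A (shiftModel W e) :=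
  ⟨rfl, rfl, rfl, (val_a_shift hyp he1).le, (val_b_shift_lt hyp he1).le,
    b_shift_ne_zero hyp he he1, hyp.two, val_disc_shift hyp he1⟩

/-- `|e| ≤ |b'|`. -/
lemma val_e_le (hyp : NodeHyp A W) (he : cub W e = 0) (he1 : A.valuation e < 1) :
    A.valuation e ≤ A.valuation (shiftModel W e).a₄ := by
  by_contra hcon
  push Not at hcon
  have hsq := val_b_shift_sq hyp he he1
  have hb1 := val_b_shift_lt hyp he1
  have he0 : 0 < A.valuation e := lt_of_le_of_lt zero_le hcon
  -- `2 a e = b' - 3 e² - b`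
  have hid : 2 * W.a₂ * e = (shiftModel W e).a₄ - 3 * e ^ 2 - W.a₄ := by
    rw [shiftModel_a₄]; ring
  have h1 : A.valuation (2 * W.a₂ * e) = A.valuation e := by
    rw [map_mul, map_mul, hyp.two, hyp.a_one, one_mul, one_mul]
  have h2 : A.valuation (3 * e ^ 2) < A.valuation e := by
    rw [map_mul, map_pow]
    calc A.valuation 3 * A.valuation e ^ 2 ≤ 1 * A.valuation e ^ 2 := by
          gcongr
          exact val_three_le hyp
      _ = A.valuation e * A.valuation e := by rw [one_mul, sq]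
      _ < A.valuation e * 1 := mul_lt_mul_of_pos_left he1 he0
      _ = A.valuation e := mul_one _
  have h3 : A.valuation W.a₄ < A.valuation e := by
    refine lt_of_le_of_lt ?_ hcon
    calc A.valuation W.a₄ ≤ A.valuation W.Δ := hyp.b_le
      _ = A.valuation (shiftModel W e).a₄ ^ 2 := hsq.symm
      _ ≤ A.valuation (shiftModel W e).a₄ := by
        rw [sq]
        exact mul_le_of_le_one_right' hb1.le
  have h4 : A.valuation ((shiftModel W e).a₄ - 3 * e ^ 2 - W.a₄) < A.valuation e :=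
    Valuation.map_sub_lt _ (Valuation.map_sub_lt _ hcon h2) h3
  rw [← hid, h1] at h4
  exact lt_irrefl _ h4

end val

section transport

variable {L : Type*} [Field L] {A : ValuationSubring L} {W : Affine L}

lemma one_le_val_sub_iff {e : L} (he1 : A.valuation e < 1) (x : L) :
    1 ≤ A.valuation (x - e) ↔ 1 ≤ A.valuation x := by
  constructor
  · intro h
    have e1 : x = (x - e) + e := by ring
    rw [e1, Valuation.map_add_eq_of_lt_left _ (lt_of_lt_of_le he1 h)]
    exact h
  · intro h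
    rw [Valuation.map_sub_eq_of_lt_left _ (lt_of_lt_of_le he1 h)]
    exact h

lemma one_lt_val_sub_iff {e : L} (he1 : A.valuation e < 1) (x : L) :
    1 < A.valuation (x - e) ↔ 1 < A.valuation x := by
  constructor
  · intro h
    have e1 : x = (x - e) + e := by ring
    rw [e1, Valuation.map_add_eq_of_lt_left _ (lt_trans he1 h)]
    exact h
  · intro h
    rw [Valuation.map_sub_eq_of_lt_left _ (lt_trans he1 h)]
    exact h

variable [DecidableEq L]

/-- The shift on points. -/
noncomputable def shiftEquiv (hyp : NodeHyp A W) {e : L} (he : cub W e = 0) :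
    W.Point ≃+ (shiftModel W e).Point :=
  (isVarChange_shift W hyp.a₁ hyp.a₃ e he).addEquiv

omit [DecidableEq L] in
lemma fx_shift (e x : L) : fx (1 : L) (-e) x = x - e := by
  simp only [fx]; ring

omit [DecidableEq L] in
lemma fy_shift (x y : L) : fy (1 : L) 0 0 x y = y := by
  simp only [fy]; ring

lemma shiftEquiv_some (hyp : NodeHyp A W) {e : L} (he : cub W e = 0) {x y : L}
    (h : W.Nonsingular x y) :
    ∃ h' : (shiftModel W e).Nonsingular (x - e) y,
      shiftEquiv hyp he (Point.some x y h) = Point.some (x - e) y h' := by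
  have hvc := isVarChange_shift W hyp.a₁ hyp.a₃ e he
  have hn := (hvc.nonsingular_iff x y).2 h
  have hn' : (shiftModel W e).Nonsingular (x - e) y := by
    rw [fx_shift, fy_shift] at hn
    exact hn
  refine ⟨hn', ?_⟩
  show hvc.addEquiv (Point.some x y h) = _
  rw [hvc.addEquiv_some]
  exact IsVarChange.some_congr (fx_shift e x) (fy_shift x y) _ _

lemma shiftEquiv_zero (hyp : NodeHyp A W) {e : L} (he : cub W e = 0) :
    shiftEquiv hyp he (0 : W.Point) = 0 := map_zero _

lemma inE0_shift_iff (hyp : NodeHyp A W) {e : L} (he : cub W e = 0) (he1 : A.valuation e < 1)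
    (P : W.Point) : InE0 A (shiftEquiv hyp he P) ↔ InE0 A P := by
  rcases P with _ | ⟨x, y, h⟩
  · exact Iff.rfl
  · obtain ⟨h', heq⟩ := shiftEquiv_some hyp he h
    rw [heq]
    exact one_le_val_sub_iff he1 x

lemma inE1_shift_iff (hyp : NodeHyp A W) {e : L} (he : cub W e = 0) (he1 : A.valuation e < 1)
    (P : W.Point) : InE1 A (shiftEquiv hyp he P) ↔ InE1 A P := by
  rcases P with _ | ⟨x, y, h⟩
  · exact Iff.rfl
  · obtain ⟨h', heq⟩ := shiftEquiv_some hyp he h
    rw [heq]
    exact one_lt_val_sub_iff he1 x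

end transport

/-- **NODE-E1**. -/
theorem stmt_NodeE1 : Stmt_NodeE1 := by
  intro L _ _ _ A W hyp P Q hP hQ
  obtain ⟨e, he, he1⟩ := exists_small_root hyp
  have h := Fermat.Agent.S05.H5.E1_add A (shiftModel W e) (modelHyp_shift hyp he he1)
    (shiftEquiv hyp he P) (shiftEquiv hyp he Q) ((inE1_shift_iff hyp he he1 P).2 hP)
    ((inE1_shift_iff hyp he he1 Q).2 hQ)
  rw [← map_add] at h
  exact (inE1_shift_iff hyp he he1 _).1 h

/-- **NODE-ROOT**. -/
theorem stmt_NodeRoot : Stmt_NodeRoot := by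
  intro L _ _ _ _ A p hp hp2 hpA W hyp
  obtain ⟨e, he, he1⟩ := exists_small_root hyp
  have hyp' := modelHyp_shift hyp he he1
  obtain ⟨x, y, h, hpt, hx⟩ := Fermat.Agent.Tate.T6.H97.stmt_ROOT L A p hp hp2 hpA
    (shiftModel W e) hyp' (val_b_shift_lt hyp he1) hyp'.Δ_ne_zero
  obtain ⟨P, hPdef⟩ : ∃ P, P = (shiftEquiv hyp he).symm (Point.some x y h) := ⟨_, rfl⟩
  have hΦP : shiftEquiv hyp he P = Point.some x y h := by
    rw [hPdef, AddEquiv.apply_symm_apply]
  have hpP : p • P = 0 := by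
    apply (shiftEquiv hyp he).injective
    rw [map_nsmul, hΦP, hpt, map_zero]
  rcases P with _ | ⟨x', y', h'⟩
  · exfalso
    have : shiftEquiv hyp he (0 : W.Point) = Point.some x y h := hΦP
    rw [shiftEquiv_zero] at this
    exact Point.some_ne_zero h this.symm
  · refine ⟨x', y', h', hpP, ?_⟩
    obtain ⟨h'', heq⟩ := shiftEquiv_some hyp he h'
    rw [heq] at hΦP
    have hx' : x' - e = x := by injection hΦP
    have e1 : x' = x + e := by rw [← hx']; ring
    rw [e1]
    exact Valuation.map_add_lt _ hx he1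

/-- **NODE-M1**. -/
theorem stmt_NodeM1 : Stmt_NodeM1 := by
  intro L _ _ _ A W hyp β hβ
  obtain ⟨e, he, he1⟩ := exists_small_root hyp
  have hyp' := modelHyp_shift hyp he he1
  have hb' := val_b_shift_lt hyp he1
  have h3e : A.valuation (3 * e) < 1 := by
    rw [map_mul]
    calc A.valuation 3 * A.valuation e ≤ 1 * A.valuation e := by
          gcongr
          exact val_three_le hyp
      _ = A.valuation e := one_mul _
      _ < 1 := he1
  -- `β'` with `β'² = a + 3e` and `|β' - β| < 1`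
  obtain ⟨γ, hγ⟩ := IsAlgClosed.exists_pow_nat_eq ((shiftModel W e).a₂) (n := 2) (by norm_num)
  obtain ⟨β', hβ', hββ'⟩ : ∃ β' : L, β' ^ 2 = (shiftModel W e).a₂ ∧
      A.valuation (β' - β) < 1 := by
    have hprod : (γ - β) * (γ + β) = 3 * e := by
      have : γ ^ 2 - β ^ 2 = 3 * e := by rw [hγ, hβ, shiftModel_a₂]; ring
      linear_combination this
    by_cases h1 : A.valuation (γ - β) < 1
    · exact ⟨γ, hγ, h1⟩
    · refine ⟨-γ, by rw [neg_sq, hγ], ?_⟩
      have h2 : A.valuation (γ + β) < 1 := by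
        by_contra h2
        push Not at h1 h2
        have : (1 : A.ValueGroup) ≤ A.valuation (γ - β) * A.valuation (γ + β) := by
          calc (1 : A.ValueGroup) = 1 * 1 := (one_mul 1).symm
            _ ≤ A.valuation (γ - β) * A.valuation (γ + β) := mul_le_mul' h1 h2
        rw [← map_mul, hprod] at this
        exact absurd h3e (not_lt.2 this)
      have : -γ - β = -(γ + β) := by ring
      rw [this, Valuation.map_neg]
      exact h2
  have hvβ' : A.valuation β' = 1 := by
    have : A.valuation β' ^ 2 = 1 := by rw [← map_pow, hβ', val_a_shift hyp he1]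
    exact (pow_eq_one_iff_left two_ne_zero).mp this
  obtain ⟨φ', hker', hφ'⟩ := Fermat.Agent.S05.M1 A (shiftModel W e) hyp' hb' β' hβ'
  -- identification of the component groups
  have hU : bUnit hyp' ^ 2 = dUnit hyp := by
    apply Units.ext
    simp only [bUnit, dUnit, Units.val_pow_eq_pow_val, Units.val_mk0]
    exact val_b_shift_sq hyp he he1
  have hsub : Subgroup.zpowers (bUnit hyp' ^ 2) = Subgroup.zpowers (dUnit hyp) := by rw [hU]
  let τ : Additive (CompGroup hyp') →+ Additive (NodeComp hyp) :=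
    MonoidHom.toAdditive (QuotientGroup.quotientMulEquivOfEq hsub).toMonoidHom
  have hτinj : Function.Injective τ := by
    intro a b hab
    exact (QuotientGroup.quotientMulEquivOfEq hsub).injective hab
  have hτmk : ∀ g : (A.ValueGroup)ˣ, τ (Additive.ofMul (QuotientGroup.mk g)) =
      Additive.ofMul (QuotientGroup.mk g) := fun g => rfl
  refine ⟨τ.comp (φ'.comp (shiftEquiv hyp he).toAddMonoidHom), ?_, ?_⟩
  · intro P
    show τ (φ' (shiftEquiv hyp he P)) = 0 ↔ _
    rw [← inE0_shift_iff hyp he he1 P, ← hker']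
    constructor
    · intro h
      exact hτinj (by rw [h, map_zero])
    · intro h
      rw [h, map_zero]
  · intro x y h hx0 hΔx hx1 hbr
    show τ (φ' (shiftEquiv hyp he (Point.some x y h))) = _
    obtain ⟨h', heq⟩ := shiftEquiv_some hyp he h
    rw [heq]
    have hbx : A.valuation (shiftModel W e).a₄ < A.valuation x := by
      by_contra hcon
      push Not at hcon
      have := pow_le_pow_left₀ zero_le hcon 2
      rw [val_b_shift_sq hyp he he1] at this
      exact absurd hΔx (not_lt.2 this)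
    have hex : A.valuation e < A.valuation x := lt_of_le_of_lt (val_e_le hyp he he1) hbx
    have hvx : A.valuation (x - e) = A.valuation x := Valuation.map_sub_eq_of_lt_left _ hex
    have hxe0 : x - e ≠ 0 := by
      intro h0
      rw [h0, map_zero] at hvx
      exact hx0 ((map_eq_zero _).1 hvx.symm)
    have hbr' : A.valuation (y - β' * (x - e)) < A.valuation (x - e) := by
      rw [hvx]
      have e1 : y - β' * (x - e) = (y - β * x) - (β' - β) * x + β' * e := by ring
      rw [e1]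
      refine Valuation.map_add_lt _ (Valuation.map_sub_lt _ hbr ?_) ?_
      · rw [map_mul]
        calc A.valuation (β' - β) * A.valuation x < 1 * A.valuation x :=
              mul_lt_mul_of_pos_right hββ' (lt_of_le_of_lt zero_le hex)
          _ = A.valuation x := one_mul _
      · rw [map_mul, hvβ', one_mul]
        exact hex
    rw [hφ' (x - e) y h' hxe0 (by rw [hvx]; exact hbx) (by rw [hvx]; exact hx1) hbr', hτmk]
    congr 2
    apply Units.ext
    simp only [valUnit, Units.val_mk0]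
    exact hvx

end Fermat.Agent.S39.FinMult.H33

end
-- ==== END Fermat.Agent.S39.FinMult.H33_Struct

-- ==== BEGIN Fermat.Agent.S39.FinMult.H67_NodeArith
section

/-!
# S39 leaf FinMult, NODE-ARITH (helper67): the node model of an integral Weierstrass curve

* `stmt_NodePeu : Stmt_NodePeu` : if `p ∣ v_p(Δ)`, `p ∣ Δ`, `p` odd, then `|Δ| = |c₀| ^ p` for a
  rational `c₀` (a power of `p`), and `|Δ| ≤ |p|²`;
* `stmt_NodeArith : Stmt_NodeArith` : the node model
  `y² = x³ + a x² + b x + c`, `a = 3 x₀ + b₂/4 = -c₆/(4 c₄)`,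
  `b = 3 x₀² + b₂ x₀/2 + b₄/2 = -36 Δ/c₄²`, `c = x₀³ + b₂ x₀²/4 + b₄ x₀/2 + b₆/4 = Δ c₆/c₄³`,
  `x₀ = (18 b₆ - b₂ b₄)/c₄`, obtained from `W` by `x = X - x₀`, `y = Y + (a₁ X + a₃)/2`.

This file contains no `sorry`.
-/

set_option autoImplicit false
set_option maxHeartbeats 1000000
set_option linter.style.haveILetI false

namespace Fermat.Agent.S39.FinMult.H67

open WeierstrassCurve WeierstrassCurve.Affine
open Fermat.Agent.S05.H15 Fermat.Agent.S05.H14

/-! ## NODE-PEU -/

/-- An integer `n ≠ 0` is `p ^ v * m` with `v = v_p(n)` and `p ∤ m`. -/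
theorem exists_eq_pow_mul (p : ℕ) (hp : p.Prime) (n : ℤ) (hn : n ≠ 0) :
    ∃ m : ℤ, n = (p : ℤ) ^ padicValInt p n * m ∧ ¬ (p : ℤ) ∣ m := by
  haveI : Fact p.Prime := ⟨hp⟩
  obtain ⟨m, hm⟩ := padicValInt_dvd (p := p) n
  refine ⟨m, hm, fun hdvd => ?_⟩
  obtain ⟨m', rfl⟩ := hdvd
  have h1 : (p : ℤ) ^ (padicValInt p n + 1) ∣ n := by
    refine ⟨m', ?_⟩
    rw [pow_succ, mul_assoc]
    exact hm
  rcases (padicValInt_dvd_iff (p := p) _ n).1 h1 with h | h
  · exact hn h
  · omega

theorem stmt_NodePeu : Stmt_NodePeu := by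
  intro W hΔ p hp hp2 hpΔ hpeu A hA
  haveI : Fact p.Prime := ⟨hp⟩
  have hq : ((p : ℕ) : AlgebraicClosure ℚ) ∈ A.nonunits := hA
  have hΔq : (W.map (Int.castRingHom ℚ)).Δ = ((W.Δ : ℤ) : ℚ) := by
    rw [WeierstrassCurve.map_Δ]
    rfl
  unfold WeierstrassCurve.IsPeuRamifieeAt at hpeu
  rw [hΔq, padicValRat.of_int] at hpeu
  obtain ⟨k, hk⟩ : p ∣ padicValInt p W.Δ := Int.natCast_dvd_natCast.mp hpeu
  obtain ⟨m, hm, hpm⟩ := exists_eq_pow_mul p hp W.Δ hΔ
  have hv1 : 1 ≤ padicValInt p W.Δ := by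
    by_contra h
    have h0 : padicValInt p W.Δ = 0 := by omega
    rw [h0, pow_zero, one_mul] at hm
    exact hpm (hm ▸ hpΔ)
  have hp3 : 3 ≤ p := by
    have := hp.two_le
    omega
  have hk1 : 1 ≤ k := by
    by_contra h
    have h0 : k = 0 := by omega
    rw [h0, mul_zero] at hk
    omega
  have hv2 : 2 ≤ padicValInt p W.Δ := by
    rw [hk]
    nlinarith
  have hpl : A.valuation ((p : ℕ) : AlgebraicClosure ℚ) < 1 := valuation_lt_one_of_mem_nonunits hq
  have hmval : A.valuation ((m : ℤ) : AlgebraicClosure ℚ) = 1 :=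
    valuation_intCast_eq_one_of_not_dvd hp hq hpm
  have hcast : ((((W.Δ : ℤ) : ℚ)) : AlgebraicClosure ℚ)
      = ((p : ℕ) : AlgebraicClosure ℚ) ^ padicValInt p W.Δ * ((m : ℤ) : AlgebraicClosure ℚ) := by
    rw [Rat.cast_intCast]
    conv_lhs => rw [hm]
    push_cast
    rfl
  have hval : A.valuation ((((W.Δ : ℤ) : ℚ)) : AlgebraicClosure ℚ)
      = A.valuation ((p : ℕ) : AlgebraicClosure ℚ) ^ padicValInt p W.Δ := by
    rw [hcast, map_mul, map_pow, hmval, mul_one]
  refine ⟨(p : ℚ) ^ k, ?_, ?_⟩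
  · rw [hval, map_pow, map_natCast, map_pow, ← pow_mul, hk, mul_comm]
  · rw [hval]
    exact pow_le_pow_right_of_le_one' hpl.le hv2

/-! ## NODE-ARITH -/

/-- A change of variables is preserved by a homomorphism of fields. -/
theorem isVarChange_map {F K : Type*} [Field F] [Field K] (φ : F →+* K)
    {E G : WeierstrassCurve F} {u r s t : F} (h : IsVarChange E G u r s t) :
    IsVarChange (E.map φ) (G.map φ) (φ u) (φ r) (φ s) (φ t) where
  hu := (map_ne_zero φ).2 h.hu
  h₁ := by simpa [map_ofNat] using congrArg φ h.h₁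
  h₂ := by simpa [map_ofNat] using congrArg φ h.h₂
  h₃ := by simpa [map_ofNat] using congrArg φ h.h₃
  h₄ := by simpa [map_ofNat] using congrArg φ h.h₄
  h₆ := by simpa [map_ofNat] using congrArg φ h.h₆

/-- The node model with parameter `x₀` of a Weierstrass curve over a field in which `2` is
invertible. -/
def nodeModel {F : Type*} [Field F] (W : WeierstrassCurve F) (x₀ : F) : WeierstrassCurve F :=
  ⟨0, 3 * x₀ + W.b₂ / 4, 0, 3 * x₀ ^ 2 + W.b₂ * x₀ / 2 + W.b₄ / 2,
    x₀ ^ 3 + W.b₂ * x₀ ^ 2 / 4 + W.b₄ * x₀ / 2 + W.b₆ / 4⟩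

theorem four_ne_zero_of_two {F : Type*} [Field F] (h2 : (2 : F) ≠ 0) : (4 : F) ≠ 0 := by
  have h : (4 : F) = 2 * 2 := by norm_num
  rw [h]
  exact mul_ne_zero h2 h2

theorem isVarChange_nodeModel {F : Type*} [Field F] (h2 : (2 : F) ≠ 0) (W : WeierstrassCurve F)
    (x₀ : F) : IsVarChange W (nodeModel W x₀) 1 (-x₀) (W.a₁ / 2) (W.a₃ / 2) := by
  have h4 : (4 : F) ≠ 0 := four_ne_zero_of_two h2
  refine ⟨one_ne_zero, ?_, ?_, ?_, ?_, ?_⟩
  · simp only [nodeModel]; field_simp; ring
  · simp only [nodeModel, WeierstrassCurve.b₂]; field_simp; ring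
  · simp only [nodeModel]; field_simp; ring
  · simp only [nodeModel, WeierstrassCurve.b₂, WeierstrassCurve.b₄]; field_simp; ring
  · simp only [nodeModel, WeierstrassCurve.b₂, WeierstrassCurve.b₄, WeierstrassCurve.b₆]
    field_simp
    ring

theorem nodeModel_Δ {F : Type*} [Field F] (h2 : (2 : F) ≠ 0) (W : WeierstrassCurve F)
    (x₀ : F) : (nodeModel W x₀).Δ = W.Δ := by
  have h4 : (4 : F) ≠ 0 := four_ne_zero_of_two h2
  simp only [nodeModel, WeierstrassCurve.Δ, WeierstrassCurve.b₂, WeierstrassCurve.b₄,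
    WeierstrassCurve.b₆, WeierstrassCurve.b₈]
  field_simp
  ring

/-- The centre of the node. -/
def nodeX {F : Type*} [Field F] (W : WeierstrassCurve F) : F :=
  (18 * W.b₆ - W.b₂ * W.b₄) / W.c₄

theorem nodeModel_a₂ {F : Type*} [Field F] (h2 : (2 : F) ≠ 0) (W : WeierstrassCurve F)
    (hc : W.c₄ ≠ 0) : (nodeModel W (nodeX W)).a₂ = -W.c₆ / (4 * W.c₄) := by
  have h4 : (4 : F) ≠ 0 := four_ne_zero_of_two h2
  simp only [nodeModel, nodeX]
  field_simp
  simp only [WeierstrassCurve.c₄, WeierstrassCurve.c₆, WeierstrassCurve.b₂,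
    WeierstrassCurve.b₄, WeierstrassCurve.b₆]
  ring

theorem nodeModel_a₄ {F : Type*} [Field F] (h2 : (2 : F) ≠ 0) (W : WeierstrassCurve F)
    (hc : W.c₄ ≠ 0) : (nodeModel W (nodeX W)).a₄ = -36 * W.Δ / W.c₄ ^ 2 := by
  have h4 : (4 : F) ≠ 0 := four_ne_zero_of_two h2
  simp only [nodeModel, nodeX]
  field_simp
  simp only [WeierstrassCurve.c₄, WeierstrassCurve.Δ, WeierstrassCurve.b₂,
    WeierstrassCurve.b₄, WeierstrassCurve.b₆, WeierstrassCurve.b₈]
  ring

theorem nodeModel_a₆ {F : Type*} [Field F] (h2 : (2 : F) ≠ 0) (W : WeierstrassCurve F)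
    (hc : W.c₄ ≠ 0) : (nodeModel W (nodeX W)).a₆ = W.Δ * W.c₆ / W.c₄ ^ 3 := by
  have h4 : (4 : F) ≠ 0 := four_ne_zero_of_two h2
  simp only [nodeModel, nodeX]
  field_simp
  simp only [WeierstrassCurve.c₄, WeierstrassCurve.c₆, WeierstrassCurve.Δ,
    WeierstrassCurve.b₂, WeierstrassCurve.b₄, WeierstrassCurve.b₆, WeierstrassCurve.b₈]
  ring

theorem stmt_NodeArith : Stmt_NodeArith := by
  intro W hΔ p hp hp2 hpΔ hpc4 A hA
  have hq : ((p : ℕ) : AlgebraicClosure ℚ) ∈ A.nonunits := hA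
  set φ : ℚ →+* AlgebraicClosure ℚ := algebraMap ℚ (AlgebraicClosure ℚ) with hφ
  set W₀ : WeierstrassCurve ℚ := W.map (Int.castRingHom ℚ) with hW₀
  have h2 : (2 : ℚ) ≠ 0 := two_ne_zero
  have hc4 : W₀.c₄ = ((W.c₄ : ℤ) : ℚ) := by
    rw [hW₀, WeierstrassCurve.map_c₄]
    rfl
  have hc6 : W₀.c₆ = ((W.c₆ : ℤ) : ℚ) := by
    rw [hW₀, WeierstrassCurve.map_c₆]
    rfl
  have hΔ0 : W₀.Δ = ((W.Δ : ℤ) : ℚ) := by
    rw [hW₀, WeierstrassCurve.map_Δ]
    rfl
  have hc4z : W.c₄ ≠ 0 := fun h => hpc4 (h ▸ dvd_zero _)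
  have hc4ne : W₀.c₄ ≠ 0 := by
    rw [hc4]
    exact_mod_cast hc4z
  -- `p ∤ c₆`
  have hpc6 : ¬ (p : ℤ) ∣ W.c₆ := by
    intro h
    have hrel := W.c_relation
    have h3 : (p : ℤ) ∣ W.c₄ ^ 3 := by
      have : W.c₄ ^ 3 = 1728 * W.Δ + W.c₆ ^ 2 := by rw [hrel]; ring
      rw [this]
      exact dvd_add (Dvd.dvd.mul_left hpΔ _) (Dvd.dvd.pow h two_ne_zero)
    exact hpc4 ((Nat.prime_iff_prime_int.mp hp).dvd_of_dvd_pow h3)
  have hp2' : ¬ (p : ℤ) ∣ 2 := by
    intro h
    have := (Nat.prime_dvd_prime_iff_eq hp Nat.prime_two).1 (by exact_mod_cast h)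
    exact hp2 this
  have hp4 : ¬ (p : ℤ) ∣ 4 := by
    intro h
    have h4 : (4 : ℤ) = 2 ^ 2 := by norm_num
    rw [h4] at h
    exact hp2' ((Nat.prime_iff_prime_int.mp hp).dvd_of_dvd_pow h)
  -- valuations
  have v2 : A.valuation (2 : AlgebraicClosure ℚ) = 1 := by
    have := valuation_intCast_eq_one_of_not_dvd (A := A) hp hq hp2'
    simpa using this
  have v4 : A.valuation (4 : AlgebraicClosure ℚ) = 1 := by
    have := valuation_intCast_eq_one_of_not_dvd (A := A) hp hq hp4
    simpa using this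
  have v36 : A.valuation (36 : AlgebraicClosure ℚ) ≤ 1 := by
    have := valuation_intCast_le_one A (36 : ℤ)
    rwa [Int.cast_ofNat] at this
  have vc4 : A.valuation ((W.c₄ : ℤ) : AlgebraicClosure ℚ) = 1 :=
    valuation_intCast_eq_one_of_not_dvd hp hq hpc4
  have vc6 : A.valuation ((W.c₆ : ℤ) : AlgebraicClosure ℚ) = 1 :=
    valuation_intCast_eq_one_of_not_dvd hp hq hpc6
  have vΔ : A.valuation ((W.Δ : ℤ) : AlgebraicClosure ℚ) < 1 :=
    valuation_intCast_lt_one_of_dvd hq hpΔ
  have hΔK : ((W.Δ : ℤ) : AlgebraicClosure ℚ) ≠ 0 := by exact_mod_cast hΔ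
  have hGΔ : (nodeModel W₀ (nodeX W₀)).Δ = ((W.Δ : ℤ) : ℚ) := by
    rw [nodeModel_Δ h2, hΔ0]
  have hGΔK : ((nodeModel W₀ (nodeX W₀))⁄(AlgebraicClosure ℚ)).Δ
      = ((W.Δ : ℤ) : AlgebraicClosure ℚ) := by
    show ((nodeModel W₀ (nodeX W₀)).map φ).Δ = _
    rw [WeierstrassCurve.map_Δ, hGΔ]
    exact map_intCast _ _
  refine ⟨nodeModel W₀ (nodeX W₀), -nodeX W₀, W₀.a₁ / 2, W₀.a₃ / 2, ?_, ?_, hGΔ⟩
  · have h := isVarChange_map φ (isVarChange_nodeModel h2 W₀ (nodeX W₀))
    rw [map_one] at h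
    exact h
  · refine ⟨?_, ?_, v2, ?_, ?_, ?_, ?_, ?_⟩
    · show φ (nodeModel W₀ (nodeX W₀)).a₁ = 0
      simp [nodeModel]
    · show φ (nodeModel W₀ (nodeX W₀)).a₃ = 0
      simp [nodeModel]
    · show A.valuation (φ (nodeModel W₀ (nodeX W₀)).a₂) = 1
      rw [nodeModel_a₂ h2 W₀ hc4ne, hc4, hc6, map_div₀, map_neg, map_mul, map_intCast,
        map_intCast, map_ofNat, map_div₀, Valuation.map_neg, map_mul, vc4, vc6, v4, mul_one,
        div_one]
    · show A.valuation (φ (nodeModel W₀ (nodeX W₀)).a₄) ≤ _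
      rw [hGΔK, nodeModel_a₄ h2 W₀ hc4ne, hc4, hΔ0, map_div₀, map_mul, map_neg, map_pow,
        map_intCast, map_intCast, map_ofNat, map_div₀, map_mul, Valuation.map_neg, map_pow, vc4,
        one_pow, div_one]
      calc A.valuation (36 : AlgebraicClosure ℚ) * A.valuation ((W.Δ : ℤ) : AlgebraicClosure ℚ)
          ≤ 1 * A.valuation ((W.Δ : ℤ) : AlgebraicClosure ℚ) := by gcongr
        _ = _ := one_mul _
    · show A.valuation (φ (nodeModel W₀ (nodeX W₀)).a₆) ≤ _
      rw [hGΔK, nodeModel_a₆ h2 W₀ hc4ne, hc4, hc6, hΔ0, map_div₀, map_mul, map_pow,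
        map_intCast, map_intCast, map_intCast, map_div₀, map_mul, map_pow, vc4, vc6,
        one_pow, div_one, mul_one]
    · rw [hGΔK]
      exact vΔ
    · rw [hGΔK]
      exact hΔK

end Fermat.Agent.S39.FinMult.H67

end
-- ==== END Fermat.Agent.S39.FinMult.H67_NodeArith
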