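-- GENERATED (merged mirror, NOTES/tools/trim/merge3_helper67.py): 24 modules of the originals, bodies verbatim.
import Mathlib
import Fermat.Agent.Zm.S59_L02_000
import Fermat.Agent.Zm.S44_L15_000
import Fermat.Agent.Zm.S44_L01_000
import Fermat.Agent.Zm.S59_L02_001
import Fermat.Agent.Zm.S43_L11_001
import Fermat.Agent.Zm.S43_L02_003
import Fermat.Agent.Zm.S58_L02_000
import Fermat.Agent.Zm.S58_L01_000
import Fermat.Agent.Zm.S43_L01_001
import Fermat.Agent.Zm.S59_L01_000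
import Fermat.Agent.Zm.S44_L12_000
import Fermat.Agent.Zm.S44_L10_000
import Fermat.Agent.Zm.S43_L07_001
import Fermat.Agent.Zm.S43_L08_000
import Fermat.Agent.Zm.S43_L13_002
import Fermat.Agent.Zm.S43_L12_001
import Fermat.Agent.Zm.S43_L06_002
import Fermat.Agent.Zm.S43_L14_001
import Fermat.Agent.Zm.S43_L15_001
import Fermat.Agent.Zm.S43_L18_001
import Fermat.Agent.Zm.S43_L17_001
import Fermat.Agent.Zm.S59_L02_003
import Fermat.Agent.S27.REDu.Defs
import Fermat.Agent.Zm.S35_L02_004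

-- ==== BEGIN Fermat.Agent.BADP3.H33_ModU
section

set_option autoImplicit false
set_option linter.style.haveILetI false
set_option synthInstance.maxHeartbeats 400000
set_option maxHeartbeats 1000000

noncomputable section

open HahnSeries IntermediateField AlgebraicCurve ModularCurve
open Fermat.Agent.S28.H73 Fermat.Agent.RED.H73 Fermat.Agent.RED Fermat.Agent.S24
open Fermat.Agent.BAD.H88

namespace Fermat.Agent.BADP3.H33

open Fermat.Agent.BADP

open Fermat.Agent.BAD Fermat.Agent.BAD.H91 Fermat.Agent.S43.BadQ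

/-- speed: shortcut for an instance which is synthesised many times in this file. -/
local instance (priority := 100000) speedH93U_kV_F1 (A : ValuationSubring (AlgebraicClosure ℚ))
    (q M : ℕ) [NeZero (M * q)] : Algebra (kV A) (F1 A q M) := inferInstance

/-- speed: shortcut for an instance which is synthesised many times in this file. -/
local instance (priority := 100000) speedH93U_kV_RedF (A : ValuationSubring (AlgebraicClosure ℚ))
    (N : ℕ) [NeZero N] : Algebra (kV A) (RedF A N) := inferInstance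

section Unit

variable (A : ValuationSubring (AlgebraicClosure ℚ)) (p M : ℕ) (a b : ℤ)
  (hab : a * p + b * M = 1) (hp : p.Prime) [NeZero (M * p)] [NeZero p] (ht : Fermat.Agent.BAD.H91.TameAt M p)
  (hA : A.LiesOverPrime p)

/-- The modular unit is fixed by the coefficientwise Galois action. -/
theorem unit_fixed (σ : GalQ) (hd : p ∣ M * p) :
    galF (M * p) σ • Fermat.Agent.BAD.H30.unitF (M * p) p hd =
      Fermat.Agent.BAD.H30.unitF (M * p) p hd := by
  apply Subtype.ext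
  rw [coe_arithmeticGalois_smul]
  show coeffMap _ (coeffEmb (AlgebraicClosure ℚ) _) = coeffEmb (AlgebraicClosure ℚ) _
  exact coeffMap_coeffEmb σ _

/-- The modular unit is a unit of the Gauss valuation ring. -/
theorem unit_inv_mem (hd : p ∣ M * p) :
    (Fermat.Agent.BAD.H30.unitF (M * p) p hd)⁻¹ ∈ V1 A p M ∧
      ∀ h : (Fermat.Agent.BAD.H30.unitF (M * p) p hd)⁻¹ ∈ V1 A p M,
        red1 A p M ⟨_, h⟩ ≠ 0 := by
  have hu : Fermat.Agent.BAD.H30.unitF (M * p) p hd ∈ V1 A p M :=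
    Fermat.Agent.BAD.H30.unitF_mem_gaussV A (M * p) p hd
  have hne : red1 A p M ⟨_, hu⟩ ≠ 0 :=
    Fermat.Agent.BAD.H30.gaussRes_unitF_ne_zero A (M * p) p hd
  have hnm : (⟨_, hu⟩ : ↥(V1 A p M)) ∉ IsLocalRing.maximalIdeal ↥(V1 A p M) := fun h =>
    hne ((red1_eq_zero_iff A p M _).2 h)
  have hunit : IsUnit (⟨_, hu⟩ : ↥(V1 A p M)) := by
    by_contra h
    exact hnm ((IsLocalRing.mem_maximalIdeal _).2 h)
  obtain ⟨v, hv⟩ := hunit
  have hinv : (((v⁻¹ : (↥(V1 A p M))ˣ) : ↥(V1 A p M)) : FN (M * p)) =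
      (Fermat.Agent.BAD.H30.unitF (M * p) p hd)⁻¹ := by
    have h3 : (((v⁻¹ : (↥(V1 A p M))ˣ) : ↥(V1 A p M)) : FN (M * p)) *
        Fermat.Agent.BAD.H30.unitF (M * p) p hd = 1 := by
      have h4 := congrArg (fun z : ↥(V1 A p M) => (z : FN (M * p))) (Units.inv_mul v)
      rw [hv] at h4
      exact h4
    exact eq_inv_of_mul_eq_one_left h3
  have hmem : (Fermat.Agent.BAD.H30.unitF (M * p) p hd)⁻¹ ∈ V1 A p M := by
    rw [← hinv]
    exact ((v⁻¹ : (↥(V1 A p M))ˣ) : ↥(V1 A p M)).2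
  refine ⟨hmem, fun h h0 => ?_⟩
  have h1 : (⟨_, h⟩ : ↥(V1 A p M)) * ⟨_, hu⟩ = 1 := by
    apply Subtype.ext
    show (Fermat.Agent.BAD.H30.unitF (M * p) p hd)⁻¹ * Fermat.Agent.BAD.H30.unitF (M * p) p hd
      = 1
    exact inv_mul_cancel₀ (Fermat.Agent.BAD.H30.unitF_ne_zero (M * p) p hd)
  have h2 := congrArg (red1 A p M) h1
  rw [map_mul, h0, zero_mul, map_one] at h2
  exact zero_ne_one h2

/-- `w_p (U / p ^ 12) = U⁻¹`. -/
theorem wq_unit_div (hd : p ∣ M * p) :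
    wq p M a b hab hp (Fermat.Agent.BAD.H30.unitF (M * p) p hd /
      algebraMap (AlgebraicClosure ℚ) ↥(FNbar (M * p)) ((p : AlgebraicClosure ℚ) ^ 12))
      = (Fermat.Agent.BAD.H30.unitF (M * p) p hd)⁻¹ := by
  have hp0 : ((p : AlgebraicClosure ℚ) ^ 12) ≠ 0 :=
    pow_ne_zero _ (Nat.cast_ne_zero.2 hp.ne_zero)
  have hc0 : algebraMap (AlgebraicClosure ℚ) ↥(FNbar (M * p)) ((p : AlgebraicClosure ℚ) ^ 12)
      ≠ 0 := by
    intro h
    exact hp0 ((map_eq_zero _).1 h)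
  rw [map_div₀, Fermat.Agent.BAD.H21.wq_unitF p M a b hab hp hd, AlgEquiv.commutes]
  field_simp

end Unit

section Datum

variable (A : ValuationSubring (AlgebraicClosure ℚ)) (p M : ℕ) (a b : ℤ)
  (hab : a * p + b * M = 1) (hp : p.Prime) [NeZero (M * p)] [NeZero p] (ht : Fermat.Agent.BAD.H91.TameAt M p)
  (hA : A.LiesOverPrime p)

/-- `unit_fixed` for the modular datum. -/
theorem unit_fixed_modS : ∀ σ ∈ A.inertiaSubgroupIn ℚ,
    galF (M * p) σ • Fermat.Agent.BAD.H30.unitF (M * p) p (Dvd.intro_left M rfl) =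
      Fermat.Agent.BAD.H30.unitF (M * p) p (Dvd.intro_left M rfl) :=
  fun σ _ => unit_fixed p M σ _

/-- `unit_two` for the modular datum: `U / p ^ 12` is a unit for the second valuation. -/
theorem unit_two_modS :
    (modS A p M a b hab hp ht hA).c₂.IsGU
      (Fermat.Agent.BAD.H30.unitF (M * p) p (Dvd.intro_left M rfl) /
        algebraMap (AlgebraicClosure ℚ) ↥(FNbar (M * p)) ((p : AlgebraicClosure ℚ) ^ 12)) := by
  obtain ⟨hmem, hne⟩ := unit_inv_mem A p M (Dvd.intro_left M rfl)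
  have hw := wq_unit_div p M a b hab hp (Dvd.intro_left M rfl)
  have hV : Fermat.Agent.BAD.H30.unitF (M * p) p (Dvd.intro_left M rfl) /
      algebraMap (AlgebraicClosure ℚ) ↥(FNbar (M * p)) ((p : AlgebraicClosure ℚ) ^ 12) ∈
        V2 A p M a b hab hp := by
    rw [mem_V2_iff, hw]
    exact hmem
  refine ⟨hV, ?_⟩
  rw [(modS A p M a b hab hp ht hA).c₂.rd_of_mem hV]
  show red1 A p M ⟨wq p M a b hab hp
    (Fermat.Agent.BAD.H30.unitF (M * p) p (Dvd.intro_left M rfl) /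
      algebraMap (AlgebraicClosure ℚ) ↥(FNbar (M * p)) ((p : AlgebraicClosure ℚ) ^ 12)), hV⟩ ≠ 0
  have e : (⟨wq p M a b hab hp (Fermat.Agent.BAD.H30.unitF (M * p) p (Dvd.intro_left M rfl) /
      algebraMap (AlgebraicClosure ℚ) ↥(FNbar (M * p)) ((p : AlgebraicClosure ℚ) ^ 12)), hV⟩ :
        ↥(V1 A p M)) = ⟨_, hmem⟩ := Subtype.ext hw
  rw [e]
  exact hne hmem

/-- `unit_ord` for the modular datum: the modular unit has neither zero nor pole on the fibres
of the non-cuspidal places of the first component. -/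
theorem unit_ord_modS (P : Place (AlgebraicClosure ℚ) ↥(FNbar (M * p)))
    (Q : Place (kV A) (RedF A (M * p)))
    (hr : (modS A p M a b hab hp ht hA).c₁.r P = some Q)
    (hQ : 0 ≤ Q.ord (Fermat.Agent.BAD.H91.jRed A (M * p))) :
    P.ord (Fermat.Agent.BAD.H30.unitF (M * p) p (Dvd.intro_left M rfl)) = 0 := by
  have hqM : ¬ p ∣ M := not_dvd_of_bezout hab hp
  haveI : NeZero M := neZero_left M p
  have hr' : (modTot A p M a b hab hp ht hA).r₁ P = some Q := hr
  obtain ⟨hρ, -⟩ := H79.TotData.r₁_eq_some_iff.1 hr'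
  have hρ' : rhoF1 a b hab hp hA hqM ht P = Q := hρ
  apply ord_unitF_eq_zero_of_rhoM hp hqM ht hA (Dvd.intro_left M rfl) P
  have hk : kappa A p M a b hab hp hA Q = rhoM hp hqM ht hA P := by
    rw [← hρ']
    exact kappa_rhoF1 a b hab hp hA hqM ht P
  rw [← hk]
  have hcoe : ((Fermat.Agent.BAD.H91.jRed A (M * p) : F1 A p M) : LaurentSeries (kV A))
      = ((Fermat.Agent.BAD.H91.jRed A M : ↥(Fermat.Agent.BAD.H91.redM A M)) :
          LaurentSeries (kV A)) := by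
    rw [show ((Fermat.Agent.BAD.H91.jRed A M : ↥(Fermat.Agent.BAD.H91.redM A M)) :
        LaurentSeries (kV A)) = jqModC (kV A) from RED.H73.red_jF A M]
    exact RED.H73.red_jF A (M * p)
  rw [kappa_ord A p M a b hab hp hA Q (Fermat.Agent.BAD.H91.jRed A (M * p))
    (Fermat.Agent.BAD.H91.jRed A M) hcoe]
  exact hQ

end Datum

/-- **(CUSP), general level, for the fixed modular datum**: the cusps of the reduction (the poles
of `j~`) are not nodes. -/
def Stmt_CuspNotNode : Prop :=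
  ∀ (p M : ℕ) (ht : Fermat.Agent.BAD.H91.TameAt M p) (a b : ℤ) (hab : a * p + b * M = 1) (hp : p.Prime)
    [NeZero (M * p)],
    ∀ (A : ValuationSubring (AlgebraicClosure ℚ)) (hA : A.LiesOverPrime p),
    ∀ Q : Place (kV A) (RedF A (M * p)),
      Q.ord (Fermat.Agent.BAD.H91.jRed A (M * p)) < 0 →
        ¬ (modTot A p M a b hab hp ht hA).IsNode Q

/-- `cusp_good` for the modular datum, from (CUSP). -/
theorem cusp_good_modS (hC : Stmt_CuspNotNode) (A : ValuationSubring (AlgebraicClosure ℚ))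
    (p M : ℕ) (a b : ℤ) (hab : a * p + b * M = 1) (hp : p.Prime) [NeZero (M * p)] (ht : Fermat.Agent.BAD.H91.TameAt M p)
    (hA : A.LiesOverPrime p) (Q : Place (kV A) (RedF A (M * p)))
    (hQ : Q.ord (Fermat.Agent.BAD.H91.jRed A (M * p)) < 0) :
    Q ∈ (modS A p M a b hab hp ht hA).c₁.good := by
  haveI : IsAlgClosed (kV A) := isAlgClosed_kV A
  rw [(modS A p M a b hab hp ht hA).good₁]
  intro s hs hsQ
  have hs' : s ∈ (modTot A p M a b hab hp ht hA).nodes (ffHyp p M).principal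
      (ffHyp₁ A p M a b hab hp ht hA).principal := hs
  obtain ⟨hnode, -⟩ := (H79.TotData.mem_nodes _ _).1 hs'
  rw [hsQ] at hnode
  exact hC p M ht a b hab hp A hA Q hQ hnode

/-- **(MOD-P+)** from (CUSP). -/
theorem stmt_ModPlusT_of (hC : Stmt_CuspNotNode) : Stmt_ModPlusT := by
  intro p _ M ht a b hab hp _ A hA
  exact ⟨modS A p M a b hab hp ht hA,
    { datum := isModDatum_modS A p M a b hab hp ht hA
      cusp_good := fun Q hQ => cusp_good_modS hC A p M a b hab hp ht hA Q hQ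
      unit_ord := fun P Q hr hQ => unit_ord_modS A p M a b hab hp ht hA P Q hr hQ
      unit_two := unit_two_modS A p M a b hab hp ht hA
      unit_fixed := unit_fixed_modS A p M }⟩

end Fermat.Agent.BADP3.H33

end
end
-- ==== END Fermat.Agent.BADP3.H33_ModU

-- ==== BEGIN Fermat.Agent.BADP3.H45_UnrOut
section

/-!
# BAD_3 / S39, leaf UNR-OUT (helper45)

`unrOut`: if `E[p]` (`p` odd) is irreducible and residually modular of level `M`, then `E[p]` is
unramified at every prime `q ∤ M p`.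

Proof: `ρ_g` over `k = ℤ̄ / 𝔪` from S29 (unramified outside `M p`); `E[p] ⊗ k` has the same
Frobenius characteristic polynomials at almost all primes, hence the same characteristic
polynomials everywhere (Frobenius density); `ρ_g` is absolutely irreducible (Gram determinant of
`E[p]`, which is irreducible and odd); so `E[p] ⊗ k ≅ ρ_g` and `E[p]` is unramified at `q`.
-/

set_option autoImplicit false
set_option linter.style.haveILetI false

open Polynomial WeierstrassCurve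

namespace Fermat.Agent.BADP3.H45

open Fermat.Agent.S58 Fermat.Agent.S58.H99

/-- **UNR-OUT** as a statement. -/
def Stmt_UnrOut : Prop :=
  ∀ (p : ℕ), p.Prime → p ≠ 2 → ∀ (W : WeierstrassCurve ℤ), W.Δ ≠ 0 →
    W.ModRepIsIrreducible p → ∀ (M : ℕ), 0 < M → W.IsResiduallyModularOfLevel p M →
    ∀ (q : ℕ), q.Prime → q ≠ p → ¬ q ∣ M → Fermat.Agent.L.Pivot.H76.UnrW W p q

/-- `E[p]` is unramified at `q` as a residual representation, for `q ∤ M p`. -/
theorem torsRes_unramified (p : ℕ) (hp : p.Prime) (hp2 : p ≠ 2) (W : WeierstrassCurve ℤ)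
    (hΔ : W.Δ ≠ 0) (hirr : W.ModRepIsIrreducible p) (M : ℕ) (hM : 0 < M)
    (hmod : W.IsResiduallyModularOfLevel p M) (q : ℕ) (hq : q.Prime) (hqp : q ≠ p)
    (hqM : ¬ q ∣ M) :
    haveI : Fact p.Prime := ⟨hp⟩
    (torsRes W hΔ p).IsUnramifiedAt q := by
  have : Fact p.Prime := ⟨hp⟩
  obtain ⟨g, 𝔪, hg, h𝔪, hp𝔪, hcong⟩ := hmod
  have := h𝔪
  letI : Field (integralClosure ℤ ℂ ⧸ 𝔪) := Ideal.Quotient.field 𝔪
  have hpk : ((p : ℕ) : integralClosure ℤ ℂ ⧸ 𝔪) = 0 := by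
    have : Ideal.Quotient.mk 𝔪 (p : integralClosure ℤ ℂ) = 0 :=
      Ideal.Quotient.eq_zero_iff_mem.2 hp𝔪
    simpa using this
  have : CharP (integralClosure ℤ ℂ ⧸ 𝔪) p := (CharP.charP_iff_prime_eq_zero hp).2 hpk
  obtain ⟨k, hk⟩ : ∃ k : Type, k = (integralClosure ℤ ℂ ⧸ 𝔪) := ⟨_, rfl⟩
  subst hk
  set φ : integralClosure ℤ ℂ →+* (integralClosure ℤ ℂ ⧸ 𝔪) := Ideal.Quotient.mk 𝔪 with hφ
  letI : Algebra (ZMod p) (integralClosure ℤ ℂ ⧸ 𝔪) := ZMod.algebra _ p
  have key : ∀ (a : integralClosure ℤ ℂ) (n : ℤ),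
      a - ((n : ℤ) : integralClosure ℤ ℂ) ∈ 𝔪 →
        φ a = ((n : ℤ) : integralClosure ℤ ℂ ⧸ 𝔪) := by
    intro a n h
    rw [← Ideal.Quotient.eq_zero_iff_mem, map_sub, map_intCast, sub_eq_zero] at h
    exact h
  obtain ⟨ρg, hatt, hunr⟩ := Fermat.Agent.S29.result hg hp φ
  have hℓk : ∀ ℓ' : ℕ, ℓ'.Prime → ℓ' ≠ p → ((ℓ' : ℕ) : integralClosure ℤ ℂ ⧸ 𝔪) ≠ 0 := by
    intro ℓ' hℓ' hne h0
    have h1 : p ∣ ℓ' := (CharP.cast_eq_zero_iff (integralClosure ℤ ℂ ⧸ 𝔪) p ℓ').1 h0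
    exact hne ((Nat.prime_dvd_prime_iff_eq hp hℓ').1 h1).symm
  -- the two representations over `k`
  set ρ₁ : ResidualGaloisRep (integralClosure ℤ ℂ ⧸ 𝔪) :=
    (torsRes W hΔ p).baseChangeAlong (algebraMap (ZMod p) (integralClosure ℤ ℂ ⧸ 𝔪)) with hρ₁
  have hch₁ : ∀ σ : GQ, LinearMap.charpoly (ρ₁.ρ σ) =
      (LinearMap.charpoly ((torsRes W hΔ p).ρ σ)).map
        (algebraMap (ZMod p) (integralClosure ℤ ℂ ⧸ 𝔪)) := fun σ =>
    Fermat.Agent.S59.Asm.charpoly_bcAlong_resid _ (torsRes W hΔ p) σ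
  have hfrob : ∀ ℓ' : ℕ, ℓ'.Prime → ℓ' ∉ badSet W p ∪ M.primeFactors →
      ∀ A : ValuationSubring (AlgebraicClosure ℚ),
      A.LiesOverPrime ℓ' → ∀ σ : GQ, A.IsFrobeniusAt σ ℓ' →
        LinearMap.charpoly (ρg.ρ σ) = LinearMap.charpoly (ρ₁.ρ σ) := by
    intro ℓ' hℓ' hℓT A hA σ hσ
    have hbad : ℓ' ∉ badSet W p := fun h => hℓT (Finset.mem_union_left _ h)
    have hM' : ¬ ℓ' ∣ M := fun h => hℓT (Finset.mem_union_right _
      (Nat.mem_primeFactors.2 ⟨hℓ', h, hM.ne'⟩))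
    obtain ⟨hne, hgood'⟩ := not_mem_badSet hΔ hℓ' hbad
    obtain ⟨a, ha, hch⟩ := hatt ℓ' hℓ' hM' (hℓk ℓ' hℓ' hne) A hA σ hσ
    obtain ⟨a', ha', hφ'⟩ := hcong ℓ' hℓ' hgood' hM' hne
    have haa : a = a' := Subtype.ext (ha.trans ha'.symm)
    have h3 : LinearMap.charpoly ((torsRes W hΔ p).ρ σ) =
        X ^ 2 - C (((W.apOfModel ℓ' : ℤ) : ZMod p)) * X + C ((ℓ' : ZMod p)) :=
      torsAdic_charpoly W hΔ p ℓ' hℓ' hne hgood' A hA σ hσ
    rw [hch, hch₁, h3, haa, key a' _ hφ']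
    simp [Polynomial.map_sub, Polynomial.map_add, Polynomial.map_mul, Polynomial.map_pow]
  have hcp : ∀ σ : GQ, LinearMap.charpoly (ρg.ρ σ) = LinearMap.charpoly (ρ₁.ρ σ) :=
    Fermat.Agent.S59.Datum.H57.charpoly_eq_of_frob ρg ρ₁ _ hfrob
  -- traces
  have htr : ∀ σ : GQ,
      LinearMap.trace (integralClosure ℤ ℂ ⧸ 𝔪) ρg.V (ρg.ρ σ) =
        algebraMap (ZMod p) (integralClosure ℤ ℂ ⧸ 𝔪)
          (LinearMap.trace (ZMod p) (TorsW W p) (torsRho W p σ)) := by
    intro σ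
    obtain ⟨h1, -⟩ := Fermat.Agent.R.trace_det_eq_of_charpoly_eq ρg.finrank_eq
      ρ₁.finrank_eq _ _ (hcp σ)
    refine h1.trans ?_
    exact LinearMap.trace_baseChange ((torsRes W hΔ p).ρ σ) (integralClosure ℤ ℂ ⧸ 𝔪)
  -- absolute irreducibility
  have habs : ρg.IsAbsolutelyIrreducible := by
    obtain ⟨γ, hγ⟩ := exists_gram_ne_zero_of_span (finrank_torsW W hΔ p) (torsRho W p)
      (span_torsRho W hΔ p hp2 hirr)
    apply isAbsolutelyIrreducible_of_gram ρg γ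
    have hmap : (Matrix.of fun a b =>
          LinearMap.trace (integralClosure ℤ ℂ ⧸ 𝔪) ρg.V (ρg.ρ (γ a * γ b))) =
        (Matrix.of fun a b =>
          LinearMap.trace (ZMod p) (TorsW W p) (torsRho W p (γ a * γ b))).map
            (algebraMap (ZMod p) (integralClosure ℤ ℂ ⧸ 𝔪)) := by
      ext a b
      simp only [Matrix.of_apply, Matrix.map_apply]
      exact htr (γ a * γ b)
    rw [hmap, ← RingHom.mapMatrix_apply, ← RingHom.map_det]
    exact fun h0 => hγ ((map_eq_zero _).mp h0)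
  have hE : ρ₁.IsEquiv ρg :=
    Fermat.Agent.S59.Datum.H57.isEquiv_of_charpoly_eq ρ₁ ρg habs (fun σ => (hcp σ).symm)
  have hqMp : ¬ q ∣ M * p := by
    intro h
    rcases (Nat.Prime.dvd_mul hq).1 h with h1 | h1
    · exact hqM h1
    · exact hqp ((Nat.prime_dvd_prime_iff_eq hq hp).1 h1)
  exact (Fermat.Agent.S59.LL.H77.unramified_iff_of_isEquiv _ (torsRes W hΔ p) ρg hE q).1
    (hunr q hq hqMp)

/-- **UNR-OUT.** -/
theorem stmt_UnrOut : Stmt_UnrOut := by
  intro p hp hp2 W hΔ hirr M hM hmod q hq hqp hqM A hA σ hσ v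
  have : Fact p.Prime := ⟨hp⟩
  have h := torsRes_unramified p hp hp2 W hΔ hirr M hM hmod q hq hqp hqM A hA σ hσ
  have h2 := congrArg (fun F : Module.End (ZMod p) (TorsW W p) => F v) h
  exact h2

end Fermat.Agent.BADP3.H45

end
-- ==== END Fermat.Agent.BADP3.H45_UnrOut

-- ==== BEGIN Fermat.Agent.BADP3.H57_RayModT
section

/-!
# BAD_3, leaf RAY-MOD-T (helper57)

* `stmt_RayModT : Stmt_RayModT` (`BADP3/Defs.lean`): the modular assembly of (e) at the tame
  levels, every odd prime `p`;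
* `stmt_RayK3xT : Stmt_RayK3xT` : the same, unconditional (datum `BADP.H21.theS`, ARITH-0
  `BADP.H11.isK0Lift_mod`, KUM `BADP.H57`);
* `stmt_RayT : Stmt_RayT` : (e) RAYNAUD at the tame levels, unconditional (with GOOD-ROOT
  `S44.H66.stmt_GoodRoot`).
-/

set_option autoImplicit false
set_option linter.style.haveILetI false
set_option linter.unusedSectionVars false
set_option synthInstance.maxHeartbeats 400000
set_option maxHeartbeats 1000000

noncomputable section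

open AlgebraicCurve ModularCurve

namespace Fermat.Agent.BADP3.H57

open Fermat.Agent.BAD Fermat.Agent.S44 Fermat.Agent.S43.BadQ Fermat.Agent.S28.H73
  Fermat.Agent.RED.H73 Fermat.Agent.S24 Fermat.Agent.BADP Fermat.Agent.BADP3

/-- **(RAY-MOD-T)**. -/
theorem stmt_RayModT : Stmt_RayModT := by
  intro hMod hK0 hKumFix hKumW p hp2 M ht a b hab hp _ A hA x u ω hx hwx hu hgood hfix
  obtain ⟨S, hS⟩ := hMod p M ht a b hab hp A hA
  exact rayMod_at_of hKumFix hKumW p hp2 M a b hab hp A hA S hS (hK0 p M a b hab hp A hA S hS)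
    x u ω hx hwx hu hgood hfix

/-- `a p + b M = 1` gives `p ∤ M`. -/
theorem not_dvd_of_bezout {p M : ℕ} {a b : ℤ} (hab : a * p + b * M = 1) (hp : p.Prime) :
    ¬ p ∣ M := by
  intro hd
  have h1 : (p : ℤ) ∣ a * p + b * M :=
    dvd_add (dvd_mul_left _ _) (Dvd.dvd.mul_left (Int.natCast_dvd_natCast.2 hd) _)
  rw [hab] at h1
  have h2 : p ∣ 1 := by exact_mod_cast h1
  exact hp.one_lt.ne' (Nat.dvd_one.1 h2)

/-- **(RAY-K3x) at the tame levels**, unconditional. -/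
theorem stmt_RayK3xT : Stmt_RayK3xT := by
  intro p hp2 M ht a b hab hp hN A hA x u ω hx hwx hu hgood hfix
  haveI : NeZero M := ⟨fun h0 => NeZero.ne (M * p) (by rw [h0, zero_mul])⟩
  haveI : NeZero p := ⟨hp.ne_zero⟩
  exact rayK3x_tame p hp2 M a b hab hp A hA (not_dvd_of_bezout hab hp) ht x u ω hx hwx hu
    hgood hfix

/-- **(e) RAYNAUD at the tame levels**, unconditional. -/
theorem stmt_RayT : Stmt_RayT :=
  stmt_RayT_of_rayK3xT stmt_RayK3xT Fermat.Agent.S44.H66.stmt_GoodRoot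

end Fermat.Agent.BADP3.H57

end
end
-- ==== END Fermat.Agent.BADP3.H57_RayModT

-- ==== BEGIN Fermat.Agent.BADP3.H97_EisAbs2
section

set_option autoImplicit false
set_option linter.style.haveILetI false
set_option linter.unusedSectionVars false
set_option maxHeartbeats 1000000

noncomputable section

open AlgebraicCurve

attribute [local instance] Classical.propDecidable

namespace Fermat.Agent.BADP3.H97

open Fermat.Agent.RED.H17 Fermat.Agent.RED Fermat.Agent.BAD Fermat.Agent.BADP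
  Fermat.Agent.BADP.H97 Fermat.Agent.BADP3

/-! ### The final arithmetic modulo `p ^ 2` -/

/-- From `e_s n_s ≡ e_s' n_s'` modulo `p`, `e_s a_s = w`, `p ∤ e_s`, `p ^ 2 ∤ w`: the vector
`p n` is proportional to the vector `a` modulo `p ^ 2`. -/
theorem eis_concl2 {ι : Type*} {p : ℕ} (hp : p.Prime) {nodes : Finset ι}
    {e a n : ι → ℤ} {w : ℤ} (hw : ¬ (p : ℤ) ^ 2 ∣ w)
    (hea : ∀ s ∈ nodes, e s * a s = w)
    (hthick : ∀ s ∈ nodes, ¬ (p : ℤ) ∣ e s)
    (hcong : ∀ s ∈ nodes, ∀ s' ∈ nodes, (p : ℤ) ∣ e s * n s - e s' * n s') :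
    ∃ m : ℤ, ∀ s ∈ nodes, (p : ℤ) ^ 2 ∣ p * n s - m * a s := by
  have hpZ : Prime (p : ℤ) := Nat.prime_iff_prime_int.mp hp
  rcases nodes.eq_empty_or_nonempty with hemp | ⟨s₀, hs₀⟩
  · exact ⟨0, fun s hs => absurd hs (by rw [hemp]; exact Finset.notMem_empty s)⟩
  by_cases hpw : (p : ℤ) ∣ w
  · obtain ⟨w', hw'⟩ := hpw
    have hw'p : ¬ (p : ℤ) ∣ w' := by
      rintro ⟨t, ht⟩
      exact hw ⟨t, by rw [hw', ht]; ring⟩
    have hcop : IsCoprime w' (p : ℤ) := by
      rw [isCoprime_comm]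
      exact (Prime.coprime_iff_not_dvd hpZ).2 hw'p
    obtain ⟨x, y, hxy⟩ := hcop
    have ha' : ∀ s ∈ nodes, ∃ a' : ℤ, a s = p * a' ∧ e s * a' = w' := by
      intro s hs
      have h1 : (p : ℤ) ∣ e s * a s := by
        rw [hea s hs, hw']
        exact Dvd.intro _ rfl
      rcases hpZ.dvd_or_dvd h1 with h2 | h2
      · exact absurd h2 (hthick s hs)
      · obtain ⟨a', ha'⟩ := h2
        refine ⟨a', ha', ?_⟩
        have h3 := hea s hs
        rw [ha', hw'] at h3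
        apply mul_left_cancel₀ hpZ.ne_zero
        linear_combination h3
    refine ⟨e s₀ * n s₀ * x, fun s hs => ?_⟩
    obtain ⟨a', has, hea'⟩ := ha' s hs
    have h1 : (p : ℤ) ∣ e s * (n s - e s₀ * n s₀ * x * a') := by
      have e1 : e s * (n s - e s₀ * n s₀ * x * a') =
          (e s * n s - e s₀ * n s₀) + e s₀ * n s₀ * y * p := by
        linear_combination (-(e s₀ * n s₀ * x)) * hea' - (e s₀ * n s₀) * hxy
      rw [e1]
      exact dvd_add (hcong s hs s₀ hs₀) (Dvd.intro_left _ rfl)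
    rcases hpZ.dvd_or_dvd h1 with h2 | h2
    · exact absurd h2 (hthick s hs)
    · obtain ⟨t, ht⟩ := h2
      refine ⟨t, ?_⟩
      rw [has]
      linear_combination (p : ℤ) * ht
  · have hcop : IsCoprime w (p : ℤ) := by
      rw [isCoprime_comm]
      exact (Prime.coprime_iff_not_dvd hpZ).2 hpw
    obtain ⟨x, y, hxy⟩ := hcop
    refine ⟨p * (e s₀ * n s₀ * x), fun s hs => ?_⟩
    have h1 : (p : ℤ) ∣ e s * (n s - e s₀ * n s₀ * x * a s) := by
      have e1 : e s * (n s - e s₀ * n s₀ * x * a s) =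
          (e s * n s - e s₀ * n s₀) + e s₀ * n s₀ * y * p := by
        have hw' := hea s hs
        linear_combination (-(e s₀ * n s₀ * x)) * hw' - (e s₀ * n s₀) * hxy
      rw [e1]
      exact dvd_add (hcong s hs s₀ hs₀) (Dvd.intro_left _ rfl)
    rcases hpZ.dvd_or_dvd h1 with h2 | h2
    · exact absurd h2 (hthick s hs)
    · obtain ⟨t, ht⟩ := h2
      exact ⟨t, by linear_combination (p : ℤ) * ht⟩

/-- **EIS-ABS2** (wild case), from NODE-VAL2. -/
theorem stmt_EisAbs2_of_nodeVal2 (hNV : Stmt_NodeVal2) : Stmt_EisAbs2 := by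
  intro K F k F₁ F₂ _ _ _ _ _ _ _ _ _ _ S H H₁ H₂ g g₁ g₂ c c₁ c₂ hR hR₁ hR₂ hnum p hp hp2 hchar
    hpK 𝓘 𝓘1 𝓘2 h𝓘 h1 h2 hK0 F0 hF0 ζ ω σ hσ hKD₁ hKD₂ hdesc2 hdesc1 hfix2 hfix1 hnorm U w hU
    hUfix hUnode hU₂ hw0 hw2 hthick f hf hdiv hffix f₀ f₀' h₀ T a e hf₀ hf₀r hf₀div hf₀' hf₀'r hff hcls hσf
  -- NODE-VAL
  obtain ⟨en, G, d, hN⟩ := hNV K F k F₁ F₂ S H H₁ H₂ g g₁ g₂ c c₁ c₂ hR hR₁ hR₂ hnum p hp hchar
    hpK 𝓘 𝓘2 h𝓘 (h2.trans h1) hK0 F0 hF0 hKD₂.val0 U w hU hUfix hUnode hU₂ hw0 f hf hdiv hffix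
  -- `θ`
  have hθF : algebraMap K F (theta ζ ω) = theta (algebraMap K F ζ) (algebraMap K F ω) :=
    (theta_algebraMap ζ ω).symm
  have hθlt₁ : S.c₁.V.valuation (algebraMap K F (theta ζ ω)) < 1 := by
    rw [hθF]; exact hKD₁.val_theta_lt
  have hθ : S.IsCM (theta ζ ω) := ⟨(pv_mem_iff _).2 hθlt₁.le, pv_rd_eq_zero hθlt₁⟩
  have hθne : theta ζ ω ≠ 0 := by
    intro h0
    have := hKD₁.theta_ne_zero
    rw [← hθF, h0, map_zero] at this
    exact this rfl
  have hθfix : ∀ τ ∈ 𝓘2, SemilinearAut.baseAut τ (theta ζ ω) = theta ζ ω := fun τ hτ =>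
    baseAut_theta τ (hfix2 τ hτ).1 (hfix2 τ hτ).2
  -- the main line
  obtain ⟨m, hmv, hmc⟩ := eis_wild_core S H H₁ H₂ hR hR₁ hR₂ hnum p hp hchar h𝓘 h1 h2 hK0 hσ
    hnorm hθ hθne hθfix
    (fun y hy hy0 => by
      obtain ⟨m, h1', h2'⟩ := hKD₁.val_sigma_div_adjoin (hdesc2 y hy) hy0
      rw [toRingAut_coe_apply, ← hθF] at h2'
      rw [← hθF] at h1'
      exact ⟨m, h1', h2'⟩)
    (fun y hy hy0 => by
      obtain ⟨m, h1', h2'⟩ := hKD₂.val_sigma_div_adjoin (hdesc2 y hy) hy0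
      rw [toRingAut_coe_apply, ← hθF] at h2'
      rw [← hθF] at h1'
      exact ⟨m, h1', h2'⟩)
    (fun y hy hle => by
      have := hKD₁.val_sigma_sub_adjoin (hdesc2 y hy) hle
      rwa [toRingAut_coe_apply, ← hθF] at this)
    (fun y hy hle => by
      have := hKD₂.val_sigma_sub_adjoin (hdesc2 y hy) hle
      rwa [toRingAut_coe_apply, ← hθF] at this)
    (fun b hb hbm => by
      rw [hθF]
      refine val_le_theta_sq hKD₁ (hdesc1 _ fun τ hτ => ?_) (pv_lt_of_rd hbm.mem₁ hbm.rd₁)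
      rw [SemilinearAut.smul_algebraMap, hb τ hτ])
    (fun b hb hbm => by
      rw [hθF]
      refine val_le_theta_sq hKD₂ (hdesc1 _ fun τ hτ => ?_) (pv_lt_of_rd hbm.mem₂ hbm.rd₂)
      rw [SemilinearAut.smul_algebraMap, hb τ hτ])
    hf hdiv hffix hf₀ hf₀r hf₀div hf₀' hf₀'r hff hcls hσf G
    (fun s hs => ⟨(hN s hs).2.1, (hN s hs).2.2.1, (hN s hs).2.2.2.1⟩)
  -- the exponent of `v₂ f`
  have hp0 : (p : ℤ) ≠ 0 := by exact_mod_cast hp.ne_zero
  have hexp : ∀ s ∈ S.nodes, S.c₂.V.valuation f =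
      S.c₂.V.valuation (algebraMap K F (theta ζ ω)) ^
        ((p : ℤ) * ((p : ℤ) - 1) * ((en s : ℤ) * (s.1.ord (S.c₁.rd f) - p * d s)) +
          p * m s) := by
    intro s hs
    have hθ0 : S.c₂.V.valuation (algebraMap K F (theta ζ ω)) ≠ 0 := by
      rw [hθF]; exact hKD₂.val_theta_ne_zero
    have hvp : S.c₂.V.valuation (p : F) =
        S.c₂.V.valuation (algebraMap K F (theta ζ ω)) ^ ((p : ℤ) * ((p : ℤ) - 1)) := by
      rw [hθF, ← hKD₂.val_theta_pow, ← zpow_natCast]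
      congr 1
      push_cast [Nat.cast_sub hp.one_le]
      ring
    rw [(hN s hs).2.2.2.2, hvp, hmv s hs, ← zpow_mul, ← zpow_natCast, ← zpow_mul,
      ← zpow_add₀ hθ0]
    congr 1
    ring
  have hcong : ∀ s ∈ S.nodes, ∀ s' ∈ S.nodes,
      (p : ℤ) ∣ (en s : ℤ) * s.1.ord (S.c₁.rd f) - (en s' : ℤ) * s'.1.ord (S.c₁.rd f) := by
    intro s hs s' hs'
    have h3 := (hexp s hs).symm.trans (hexp s' hs')
    rw [hθF] at h3
    have h4 := hKD₂.zpow_theta_inj h3
    exact eis_cong h4 hp0 (hmc s hs s' hs')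
  exact eis_concl2 hp (fun h => hw2 (by exact_mod_cast h)) (fun s hs => (hN s hs).1)
    (fun s hs => hthick s hs (en s) (hN s hs).1) hcong

/-- **EIS-ABS2** (wild case). -/
theorem stmt_EisAbs2 : Stmt_EisAbs2 := stmt_EisAbs2_of_nodeVal2 stmt_NodeVal2

end Fermat.Agent.BADP3.H97

end
end
-- ==== END Fermat.Agent.BADP3.H97_EisAbs2

-- ==== BEGIN Fermat.Agent.L.Pivot3.H11_Wire1A
section

set_option autoImplicit false
set_option linter.style.haveILetI false
set_option linter.unusedSectionVars false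
set_option linter.unusedVariables false
set_option maxHeartbeats 1000000

open Polynomial CuspForm IsLocalRing

namespace Fermat.Agent.L.Pivot3.H11

open Fermat.Agent.S56 Fermat.Agent.S59 Fermat.Agent.S59.Asm Fermat.Agent.L.Pivot
  Fermat.Agent.L.Pivot3

/-! ### COND with auxiliary primes -/

/-- **COND with auxiliary primes `R` in the level** (COND-aux, helper24): the text of
`S59.Asm.Stmt_COND` with `S' = Smin ∪ Q ∪ R` and the hypothesis `∀ r ∈ R, H24.AuxAt p ρbar r`;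
the conclusion is unchanged (the deformation condition does not see the auxiliary primes, by
AUTO-UNR).  This is the form consumed by the wiring below. -/
def Stmt_CONDauxD : Prop :=
  ∀ (𝒪 : Type) [CommRing 𝒪] [IsDomain 𝒪] [IsDiscreteValuationRing 𝒪]
    [IsAdicComplete (maximalIdeal 𝒪) 𝒪] [Finite (ResidueField 𝒪)] [CharZero 𝒪]
    (p : ℕ) [Fact p.Prime], p ≠ 2 → (p : 𝒪) ∈ maximalIdeal 𝒪 →
    ∀ (fl : Bool) (ρbar : ResidualGaloisRep (ResidueField 𝒪)) (Smin : Finset ℕ),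
    ResHyp p ρbar Smin →
    cond 𝒪 p fl Smin ∅ (GaloisRepAdic.ofResidualGaloisRep ρbar) →
    (fl = false → ¬ (GaloisRepAdic.ofResidualGaloisRep ρbar).IsFlatAt p) →
    ∀ (Q R : Finset ℕ) (N' : ℕ) [NeZero N'] [Fact (CuspForm.HasIntegralStructure N' 2)]
      (S' : Finset ℕ),
    S' = Smin ∪ Q ∪ R →
    (∀ r ∈ R, H24.AuxAt p ρbar r) →
    (∀ q : ℕ, q.Prime → q ∣ N' → q ∈ S') →
    (∀ q ∈ Smin, q ≠ p → q ∣ N' ∧ ¬ q ^ 2 ∣ N') →
    (fl = true → ¬ p ∣ N') → (fl = false → p ∣ N' ∧ ¬ p ^ 2 ∣ N') →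
    ∀ (θ : CuspForm.heckeAlgebra N' 2 (↑S' : Set ℕ) →+* ResidueField 𝒪),
    Fermat.Agent.S59.Datum.FrobHyp ρbar N' S' θ →
    ∀ (H : CuspForm.HeckeGaloisRepDatum N' (↑S' : Set ℕ) 𝒪 θ
        (CuspForm.heckeLocal N' (↑S' : Set ℕ) 𝒪 θ)),
    H.π = CuspForm.heckeLocal.π N' (↑S' : Set ℕ) 𝒪 θ →
    H.ρ.DetIsCyclotomic p →
    H.ρ.residual.IsEquiv (ρbar.baseChangeAlong
      (ResidueField.map (algebraMap 𝒪 (CuspForm.heckeLocal N' (↑S' : Set ℕ) 𝒪 θ)))) →
    cond 𝒪 p fl Smin Q H.ρ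

/-- COND-aux with `R = ∅` is COND. -/
theorem stmt_COND_of_auxD (h : Stmt_CONDauxD) : Stmt_COND := by
  intro 𝒪 _ _ _ _ _ _ p _ hp2 hp𝒪 fl ρbar Smin hres hbar hnfl Q N' _ _ S' hS' hNS hSmin hfl1
    hfl2 θ hθ H hHπ hHdet hHres
  exact h 𝒪 p hp2 hp𝒪 fl ρbar Smin hres hbar hnfl Q ∅ N' S'
    (by rw [hS', Finset.union_empty]) (fun r hr => absurd hr (Finset.notMem_empty r)) hNS hSmin
    hfl1 hfl2 θ hθ H hHπ hHdet hHres

/-! ### Arithmetic of the level -/

section Level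

variable {N1 k r : ℕ} {qP : Fin k → ℕ} {qv : Fin r → ℕ}

theorem pvLevel_ne_zero (hN : N1 ≠ 0) (hqv : ∀ i, (qv i).Prime) (hqP : ∀ j, (qP j).Prime) :
    pvLevel N1 qP qv ≠ 0 := by
  unfold pvLevel
  exact mul_ne_zero (H2.twLevel_ne_zero hN hqv)
    (Finset.prod_ne_zero_iff.mpr fun j _ => (hqP j).ne_zero)

/-- a prime dividing `∏ q_j` is one of the `q_j` -/
theorem prime_dvd_prod_pv (hqP : ∀ j, (qP j).Prime) {q : ℕ} (hq : q.Prime)
    (h : q ∣ ∏ j, qP j) : ∃ j, q = qP j := by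
  obtain ⟨j, -, hj⟩ := (Prime.dvd_finsetProd_iff hq.prime _).mp h
  exact ⟨j, (Nat.prime_dvd_prime_iff_eq hq (hqP j)).mp hj⟩

theorem prime_dvd_pvLevel {S : Finset ℕ} (hNS : ∀ q : ℕ, q.Prime → q ∣ N1 → q ∈ S)
    (hqv : ∀ i, (qv i).Prime) (hqP : ∀ j, (qP j).Prime) (hPS : ∀ j, qP j ∈ S)
    {q : ℕ} (hq : q.Prime) (h : q ∣ pvLevel N1 qP qv) : q ∈ twSet S qv := by
  unfold pvLevel at h
  rcases (Nat.Prime.dvd_mul hq).mp h with h1 | h1
  · exact H2.prime_dvd_twLevel hNS hqv hq h1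
  · obtain ⟨j, rfl⟩ := prime_dvd_prod_pv hqP hq h1
    unfold twSet
    exact Finset.mem_union_left _ (hPS j)

/-- a prime different from the Taylor–Wiles primes and from the pivot primes divides
`pvLevel N1 qP qv` exactly as it divides `N1` -/
theorem pow_dvd_pvLevel_iff (hqv : ∀ i, (qv i).Prime) (hqP : ∀ j, (qP j).Prime) {q : ℕ}
    (hq : q.Prime) (h1 : ∀ i, q ≠ qv i) (h2 : ∀ j, q ≠ qP j) (m : ℕ) :
    q ^ m ∣ pvLevel N1 qP qv ↔ q ^ m ∣ N1 := by
  unfold pvLevel twLevel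
  have hc1 : Nat.Coprime (q ^ m) (∏ j, qv j ^ 2) := by
    refine Nat.Coprime.pow_left m ?_
    rw [Nat.Prime.coprime_iff_not_dvd hq]
    intro h
    obtain ⟨j, hj⟩ := H2.prime_dvd_prod_sq hqv hq h
    exact h1 j hj
  have hc2 : Nat.Coprime (q ^ m) (∏ j, qP j) := by
    refine Nat.Coprime.pow_left m ?_
    rw [Nat.Prime.coprime_iff_not_dvd hq]
    intro h
    obtain ⟨j, hj⟩ := prime_dvd_prod_pv hqP hq h
    exact h2 j hj
  constructor
  · intro h
    exact hc1.dvd_of_dvd_mul_right (hc2.dvd_of_dvd_mul_right h)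
  · intro h
    exact Dvd.dvd.mul_right (Dvd.dvd.mul_right h _) _

end Level

/-! ### The Frobenius hypothesis at the level `pvLevel` -/

theorem frobHyp_pv {κ : Type} [Field κ] {ρbar : ResidualGaloisRep κ} {N1 : ℕ} [NeZero N1]
    {S : Finset ℕ} {θ : CuspForm.heckeAlgebra N1 2 (↑S : Set ℕ) →+* κ}
    (hθ : Fermat.Agent.S59.Datum.FrobHyp ρbar N1 S θ) {k r : ℕ} {qP : Fin k → ℕ}
    {qv : Fin r → ℕ} [NeZero (twLevel N1 qv)] [NeZero (pvLevel N1 qP qv)]
    (rest1 : CuspForm.heckeAlgebra (twLevel N1 qv) 2 (↑(twSet S qv) : Set ℕ) →+*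
      CuspForm.heckeAlgebra N1 2 (↑S : Set ℕ))
    (rest1_T : ∀ (ℓ : ℕ) (hℓ : ℓ.Prime) (hℓN' : ¬ ℓ ∣ twLevel N1 qv)
      (hℓS' : ℓ ∉ (↑(twSet S qv) : Set ℕ)) (hℓN : ¬ ℓ ∣ N1) (hℓS : ℓ ∉ (↑S : Set ℕ)),
      rest1 (CuspForm.heckeAlgebra.T hℓ hℓN' hℓS') = CuspForm.heckeAlgebra.T hℓ hℓN hℓS)
    (rest : CuspForm.heckeAlgebra (pvLevel N1 qP qv) 2 (↑(twSet S qv) : Set ℕ) →+*
      CuspForm.heckeAlgebra (twLevel N1 qv) 2 (↑(twSet S qv) : Set ℕ))
    (rest_T : ∀ (ℓ : ℕ) (hℓ : ℓ.Prime) (hℓN' : ¬ ℓ ∣ pvLevel N1 qP qv)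
      (hℓS : ℓ ∉ (↑(twSet S qv) : Set ℕ)) (hℓN : ¬ ℓ ∣ twLevel N1 qv),
      rest (CuspForm.heckeAlgebra.T hℓ hℓN' hℓS) = CuspForm.heckeAlgebra.T hℓ hℓN hℓS) :
    Fermat.Agent.S59.Datum.FrobHyp ρbar (pvLevel N1 qP qv) (twSet S qv)
      ((θ.comp rest1).comp rest) := by
  intro ℓ hℓ hℓN' hℓS' A hA σ hσ
  have hℓN : ¬ ℓ ∣ twLevel N1 qv := fun h =>
    hℓN' (show ℓ ∣ pvLevel N1 qP qv from Dvd.dvd.mul_right h _)
  have h1 := H2.frobHyp_comp_rest hθ rest1 rest1_T ℓ hℓ hℓN hℓS' A hA σ hσ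
  rw [RingHom.comp_apply, rest_T ℓ hℓ hℓN' hℓS' hℓN]
  exact h1

/-! ### Roots of unity of `p`-power order -/

section Roots

/-- `x ^ (p ^ e) = 1` implies `x ≡ 1` in a local ring of residue characteristic `p`. -/
theorem sub_one_mem_of_pow_eq_one {A : Type*} [CommRing A] [IsLocalRing A] {p : ℕ}
    (hp : p.Prime) (hpA : (p : A) ∈ maximalIdeal A) {e : ℕ} {x : A} (hx : x ^ (p ^ e) = 1) :
    x - 1 ∈ maximalIdeal A := by
  have h0 : ((p : ℕ) : ResidueField A) = 0 := by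
    have := (residue_eq_zero_iff (p : A)).mpr hpA
    rwa [map_natCast] at this
  have hchar : ringChar (ResidueField A) = p := CharP.ringChar_of_prime_eq_zero hp h0
  have hCP : CharP (ResidueField A) p := hchar ▸ ringChar.charP (ResidueField A)
  have hF : Fact p.Prime := ⟨hp⟩
  rw [← residue_eq_zero_iff, map_sub, map_one]
  have h1 : (residue A x - 1) ^ (p ^ e) = 0 := by
    rw [sub_pow_char_pow, one_pow, ← map_pow, hx, map_one, sub_self]
  exact pow_eq_zero_iff (pow_ne_zero e hp.ne_zero) |>.mp h1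

theorem pow_sub_one_mem {A : Type*} [CommRing A] (I : Ideal A) {x : A} (hx : x - 1 ∈ I)
    (n : ℕ) : x ^ n - 1 ∈ I := by
  have h := sub_dvd_pow_sub_pow x 1 n
  rw [one_pow] at h
  exact Ideal.mem_of_dvd I h hx

/-- the types `ζ ^ i - ζ ^ (p ^ e - i)`, `0 < i < p ^ e`, are not zero (`p` odd) -/
theorem type_ne_zero {A : Type*} [CommRing A] [IsDomain A] {p e : ℕ} (hp : p.Prime)
    (hp2 : p ≠ 2) {ζ : A} (hζ : IsPrimitiveRoot ζ (p ^ e)) {i : ℕ} (hi : i < p ^ e)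
    (hi0 : i ≠ 0) : ζ ^ i - ζ ^ (p ^ e - i) ≠ 0 := by
  intro h
  rw [sub_eq_zero] at h
  have h1 : ζ ^ (2 * i) = 1 := by
    rw [two_mul, pow_add]
    nth_rewrite 2 [h]
    rw [← pow_add, Nat.add_sub_cancel' hi.le, hζ.pow_eq_one]
  have h2 : p ^ e ∣ 2 * i := hζ.dvd_of_pow_eq_one _ h1
  have hcop : Nat.Coprime (p ^ e) 2 := by
    refine Nat.Coprime.pow_left e ?_
    rw [Nat.coprime_primes hp Nat.prime_two]
    exact hp2
  have h3 : p ^ e ∣ i := hcop.dvd_of_dvd_mul_left h2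
  have := Nat.le_of_dvd (Nat.pos_of_ne_zero hi0) h3
  omega

/-- the types lie in the maximal ideal -/
theorem type_mem {A : Type*} [CommRing A] [IsLocalRing A] {p e : ℕ} (hp : p.Prime)
    (hpA : (p : A) ∈ maximalIdeal A) {ζ : A} (hζ : ζ ^ (p ^ e) = 1) (i j : ℕ) :
    ζ ^ i - ζ ^ j ∈ maximalIdeal A := by
  have h := sub_one_mem_of_pow_eq_one hp hpA hζ
  have h1 := pow_sub_one_mem _ h i
  have h2 := pow_sub_one_mem _ h j
  have : ζ ^ i - ζ ^ j = (ζ ^ i - 1) - (ζ ^ j - 1) := by ring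
  rw [this]
  exact Ideal.sub_mem _ h1 h2

end Roots

/-! ### The kernel of `G1.π ∘ κ` -/

theorem ker_comp_κ {𝒪 : Type} [CommRing 𝒪] [IsLocalRing 𝒪] {p : ℕ}
    {ρbar : ResidualGaloisRep (ResidueField 𝒪)} {N1 : ℕ} [NeZero N1] {S : Finset ℕ}
    {θ : CuspForm.heckeAlgebra N1 2 (↑S : Set ℕ) →+* ResidueField 𝒪}
    {M : HMod 𝒪 N1 (↑S : Set ℕ) θ} {k : ℕ} {qP : Fin k → ℕ} {eP : Fin k → ℕ}
    {r : ℕ} {n : ℕ} {qv : Fin r → ℕ}
    [NeZero (twLevel N1 qv)] [NeZero (pvLevel N1 qP qv)]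
    (G : PVGeom 𝒪 p ρbar N1 S θ M qP eP n qv) :
    LinearMap.ker (G.G1.π ∘ₗ G.κ) =
      typeSub G.c (fun _ => (1 : 𝒪)) ⊔ ⨆ i, LinearMap.range (G.d i - 1) := by
  rw [LinearMap.ker_comp, G.G1.ker_π, ← G.ker_κ]
  have h1 : ∀ i, LinearMap.range (G.G1.d i - 1) =
      Submodule.map G.κ (LinearMap.range (G.d i - 1)) := by
    intro i
    rw [← LinearMap.range_comp]
    have h2 : G.κ ∘ₗ (G.d i - 1) = (G.G1.d i - 1) ∘ₗ G.κ := by
      ext v
      simp only [LinearMap.comp_apply, LinearMap.sub_apply, Module.End.one_apply, map_sub,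
        G.κ_d]
    rw [h2, LinearMap.range_comp_of_range_eq_top _ (LinearMap.range_eq_top.mpr G.κ_surjective)]
  simp only [h1]
  rw [← Submodule.map_iSup, Submodule.comap_map_eq, sup_comm]

/-! ### The wiring -/

section Wire

variable (𝒪 : Type) [CommRing 𝒪] [IsDomain 𝒪] [IsDiscreteValuationRing 𝒪]
  [IsAdicComplete (maximalIdeal 𝒪) 𝒪] [Finite (ResidueField 𝒪)] [CharZero 𝒪]
  (p : ℕ) [Fact p.Prime]

/-- the standing hypotheses on the residual representation, from those of S56 -/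
theorem resHyp_of_hyp {ρbar : ResidualGaloisRep (ResidueField 𝒪)} {S Smin : Finset ℕ}
    (hyp : Hyp 𝒪 p ρbar S Smin) : ResHyp p ρbar Smin :=
  ⟨hyp.habs, hyp.hdet, hyp.hsplit, hyp.hTW, hyp.hpSmin, fun q hq => hyp.hS q (hyp.hSmin hq),
    hyp.hmin⟩

/-- the pivot primes lie in `S` -/
theorem pv_mem_S {ρbar : ResidualGaloisRep (ResidueField 𝒪)} {N1 : ℕ} {S Smin : Finset ℕ}
    {k : ℕ} {Pv : PivotPrimes k} {eP : Fin k → ℕ} (hPV : PVHypA p ρbar N1 S Smin Pv eP)
    (j : Fin k) : Pv.q j ∈ S :=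
  hPV.pv_subset (Finset.mem_image_of_mem _ (Finset.mem_univ j))

/-- the pivot primes do not lie in `Smin` -/
theorem pv_notMem_Smin {ρbar : ResidualGaloisRep (ResidueField 𝒪)} {N1 : ℕ} {S Smin : Finset ℕ}
    {k : ℕ} {Pv : PivotPrimes k} {eP : Fin k → ℕ} (hPV : PVHypA p ρbar N1 S Smin Pv eP)
    (j : Fin k) : Pv.q j ∉ Smin := fun h =>
  (hPV.hyp.hmin (Pv.q j) (Pv.q_prime j) (hPV.hex j).2.1).mp h (hPV.hex j).2.2.1

/-- **The context of a Taylor–Wiles family** (DEF + PV-GAL + DATUM + COND + S54 + LOCMOD). -/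
theorem exists_ctx (hDatum : Fermat.Agent.S59.Datum.Stmt_DATUM) (hCond : Stmt_CONDauxD)
    (fl : Bool) (ρbar : ResidualGaloisRep (ResidueField 𝒪)) (S Smin : Finset ℕ)
    (hbar : cond 𝒪 p fl Smin ∅ (GaloisRepAdic.ofResidualGaloisRep ρbar))
    (hnfl : fl = false → ¬ (GaloisRepAdic.ofResidualGaloisRep ρbar).IsFlatAt p)
    (N1 : ℕ) [NeZero N1] (hpN : fl = true → ¬ p ∣ N1) (hpN' : fl = false → p ∣ N1)
    (θ : CuspForm.heckeAlgebra N1 2 (↑S : Set ℕ) →+* ResidueField 𝒪)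
    (hθ : Fermat.Agent.S59.Datum.FrobHyp ρbar N1 S θ)
    (k : ℕ) (Pv : PivotPrimes k) (eP : Fin k → ℕ) (hPV : PVHypA p ρbar N1 S Smin Pv eP)
    (M : HMod 𝒪 N1 (↑S : Set ℕ) θ) (g r n : ℕ) (qv : Fin r → ℕ)
    (hqv : IsTWFamily ρbar p n S qv)
    (hγ : ∀ DQ : GaloisRep.DeformationRingData 𝒪 ρbar
        (cond 𝒪 p fl Smin (Pv.set ∪ Finset.univ.image qv)),
      ∀ b : Module.Basis (Fin 2) DQ.R DQ.ρ.V,
        ∃ γ : PRing 𝒪 k g →ₐ[𝒪] DQ.R, Function.Surjective γ ∧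
          IsCoordHom γ (fun j => LinearMap.toMatrix b b (DQ.ρ.ρ (Pv.τ j)))
            (fun j => LinearMap.toMatrix b b (DQ.ρ.ρ (Pv.frob j))))
    [NeZero (twLevel N1 qv)] [NeZero (pvLevel N1 Pv.q qv)]
    [Fact (CuspForm.HasIntegralStructure (pvLevel N1 Pv.q qv) 2)]
    (G : PVGeom2 𝒪 p ρbar N1 S θ M Pv.q eP n qv) :
    Nonempty (PVCtx 𝒪 p fl ρbar N1 S Smin θ M Pv eP g n qv) := by
  have hpP : p.Prime := Fact.out
  have hyp := hPV.hyp
  have hp2 := hyp.hp2
  have hp𝒪 := hyp.hp𝒪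
  have hres : ResHyp p ρbar Smin := resHyp_of_hyp 𝒪 p hyp
  have hpS : p ∈ S := hyp.hSmin hyp.hpSmin
  have hqvP : ∀ i, (qv i).Prime := fun i => (hqv.2.1 i).1
  have hqvS : ∀ i, qv i ∉ S := fun i => (hqv.2.1 i).2.1
  have hPvS : ∀ j, Pv.q j ∈ S := pv_mem_S 𝒪 p hPV
  have hPvSmin : ∀ j, Pv.q j ∉ Smin := pv_notMem_Smin 𝒪 p hPV
  -- the universal ring
  have hbarQ : cond 𝒪 p fl Smin (Pv.set ∪ Finset.univ.image qv)
      (GaloisRepAdic.ofResidualGaloisRep ρbar) :=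
    Fermat.Agent.S59.Asm.cond_mono (Finset.empty_subset _) hbar
  obtain ⟨DQ⟩ := Fermat.Agent.S59.H99.stmt_DEF 𝒪 p hp2 hp𝒪 fl ρbar hyp.habs Smin
    (Pv.set ∪ Finset.univ.image qv) hyp.hpSmin
    (fun q hq => by
      rcases Finset.mem_union.mp hq with h | h
      · exact hres.hS q h
      · rcases Finset.mem_union.mp h with h | h
        · obtain ⟨j, -, rfl⟩ := Finset.mem_image.mp h
          exact Pv.q_prime j
        · obtain ⟨i, -, rfl⟩ := Finset.mem_image.mp h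
          exact hqvP i) hbarQ
  let bQ : Module.Basis (Fin 2) DQ.R DQ.ρ.V :=
    Module.finBasisOfFinrankEq DQ.R DQ.ρ.V DQ.ρ.finrank_eq
  obtain ⟨γ, hγs, hγc⟩ := hγ DQ bQ
  -- the Hecke–Galois datum of the level `pvLevel`
  have hN''S : ∀ q : ℕ, q.Prime → q ∣ pvLevel N1 Pv.q qv → q ∈ twSet S qv :=
    fun q hq h => prime_dvd_pvLevel hPV.hNS hqvP Pv.q_prime hPvS hq h
  have hθQ : Fermat.Agent.S59.Datum.FrobHyp ρbar (pvLevel N1 Pv.q qv) (twSet S qv)
      ((θ.comp G.G1.rest).comp G.rest) :=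
    frobHyp_pv hθ G.G1.rest G.G1.rest_T G.rest G.rest_T
  obtain ⟨HQ, hHQπ, hHQdet, hHQres⟩ :=
    hDatum 𝒪 p hp2 hp𝒪 (pvLevel N1 Pv.q qv) (twSet S qv)
      (Finset.mem_union_left _ hpS) hN''S ρbar hyp.habs ((θ.comp G.G1.rest).comp G.rest) hθQ
  obtain ⟨R, hSR, hR⟩ := hPV.hR
  have hS' : twSet S qv = Smin ∪ (Pv.set ∪ Finset.univ.image qv) ∪ R := by
    unfold twSet
    rw [hSR]
    ext q
    simp only [Finset.mem_union]
    tauto
  have hne1 : ∀ q ∈ Smin, ∀ i, q ≠ qv i := fun q hq i h => hqvS i (h ▸ hyp.hSmin hq)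
  have hne2 : ∀ q ∈ Smin, ∀ j, q ≠ Pv.q j := fun q hq j h => hPvSmin j (h ▸ hq)
  have hHQcond : cond 𝒪 p fl Smin (Pv.set ∪ Finset.univ.image qv) HQ.ρ := by
    refine hCond 𝒪 p hp2 hp𝒪 fl ρbar Smin hres hbar hnfl (Pv.set ∪ Finset.univ.image qv) R
      (pvLevel N1 Pv.q qv) (twSet S qv) hS' (fun r hr => (hR r hr).1) hN''S ?_ ?_ ?_
      ((θ.comp G.G1.rest).comp G.rest) hθQ HQ hHQπ hHQdet hHQres
    · intro q hq hqp
      have h1 := pow_dvd_pvLevel_iff (N1 := N1) hqvP Pv.q_prime (hres.hS q hq) (hne1 q hq)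
        (hne2 q hq) 1
      have h2 := pow_dvd_pvLevel_iff (N1 := N1) hqvP Pv.q_prime (hres.hS q hq) (hne1 q hq)
        (hne2 q hq) 2
      rw [pow_one] at h1
      exact ⟨h1.mpr (hPV.hSminN q hq hqp),
        fun h => H2.not_sq_dvd_of_squarefree hPV.hsq (hres.hS q hq) (h2.mp h)⟩
    · intro hfl h
      have h1 := pow_dvd_pvLevel_iff (N1 := N1) hqvP Pv.q_prime hpP (hne1 p hyp.hpSmin)
        (hne2 p hyp.hpSmin) 1
      rw [pow_one] at h1
      exact hpN hfl (h1.mp h)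
    · intro hfl
      have h1 := pow_dvd_pvLevel_iff (N1 := N1) hqvP Pv.q_prime hpP (hne1 p hyp.hpSmin)
        (hne2 p hyp.hpSmin) 1
      have h2 := pow_dvd_pvLevel_iff (N1 := N1) hqvP Pv.q_prime hpP (hne1 p hyp.hpSmin)
        (hne2 p hyp.hpSmin) 2
      rw [pow_one] at h1
      exact ⟨h1.mpr (hpN' hfl), fun h => H2.not_sq_dvd_of_squarefree hPV.hsq hpP (h2.mp h)⟩
  obtain ⟨φQ, -, hφQl, hφQe⟩ := Fermat.Agent.S54.result DQ HQ
    (fun q hq hqN => Finset.mem_coe.mpr (hN''S q hq hqN)) hHQcond hHQres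
  obtain ⟨ηW, hηW⟩ := Fermat.Agent.S59.Asm.H85.stmt_LOCMOD 𝒪 (pvLevel N1 Pv.q qv)
    (↑(twSet S qv) : Set ℕ) ((θ.comp G.G1.rest).comp G.rest) G.W
  exact ⟨⟨G, DQ, bQ, γ, hγs, hγc, HQ, hHQπ, hHQdet, φQ, hφQl, hφQe, ηW, hηW⟩⟩

/-- **The level from a context** (DATUM, S34, S54 and the leaves A, B, C; RANK). -/
theorem level_of_ctx (hDatum : Fermat.Agent.S59.Datum.Stmt_DATUM)
    (hAsm : Stmt_PVAsmA) (hUnip : Stmt_PVUnipA) (hNU : Stmt_PVNUA)
    (fl : Bool) (ρbar : ResidualGaloisRep (ResidueField 𝒪)) (S Smin : Finset ℕ)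
    (N1 : ℕ) [NeZero N1] [Fact (CuspForm.HasIntegralStructure N1 2)]
    (θ : CuspForm.heckeAlgebra N1 2 (↑S : Set ℕ) →+* ResidueField 𝒪)
    (hθ : Fermat.Agent.S59.Datum.FrobHyp ρbar N1 S θ)
    (k : ℕ) (Pv : PivotPrimes k) (eP : Fin k → ℕ) (hPV : PVHypA p ρbar N1 S Smin Pv eP)
    (ζ : Fin k → 𝒪) (hζ : ∀ j, IsPrimitiveRoot (ζ j) (p ^ eP j))
    (hζ1 : ∀ j, ζ j ≠ 1)
    (ϖ : 𝒪) (hϖ : maximalIdeal 𝒪 = Ideal.span {ϖ})
    (M : HMod 𝒪 N1 (↑S : Set ℕ) θ)
    (H : CuspForm.HeckeGaloisRepDatum N1 (↑S : Set ℕ) 𝒪 θ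
      (CuspForm.heckeLocal N1 (↑S : Set ℕ) 𝒪 θ))
    (hHπ : H.π = CuspForm.heckeLocal.π N1 (↑S : Set ℕ) 𝒪 θ)
    (hHres : H.ρ.residual.IsEquiv (ρbar.baseChangeAlong
      (ResidueField.map (algebraMap 𝒪 (CuspForm.heckeLocal N1 (↑S : Set ℕ) 𝒪 θ)))))
    (hHcond : cond 𝒪 p fl Smin Pv.set H.ρ)
    (ηM : CuspForm.heckeLocal N1 (↑S : Set ℕ) 𝒪 θ →ₐ[𝒪] Module.End 𝒪 M.V)
    (hηM : ∀ t : CuspForm.heckeAlgebra N1 2 (↑S : Set ℕ),
      ηM (CuspForm.heckeLocal.π N1 (↑S : Set ℕ) 𝒪 θ t) = M.η t)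
    (b : Module.Basis (Fin 2) (CuspForm.heckeLocal N1 (↑S : Set ℕ) 𝒪 θ) H.ρ.V)
    (g r n : ℕ) (qv : Fin r → ℕ) (hqv : IsTWFamily ρbar p n S qv)
    [NeZero (twLevel N1 qv)] [NeZero (pvLevel N1 Pv.q qv)]
    [Fact (CuspForm.HasIntegralStructure (twLevel N1 qv) 2)]
    [Fact (CuspForm.HasIntegralStructure (pvLevel N1 Pv.q qv) 2)]
    (X : PVCtx 𝒪 p fl ρbar N1 S Smin θ M Pv eP g n qv)
    (𝔞 : (Fin k → 𝒪) → Ideal (PRing 𝒪 k g))
    (h𝔞 : ∀ δ ∈ pvTypes p eP ζ, KilledByType g δ (𝔞 δ)) :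
    Nonempty (@PivotLevel 𝒪 _ r (6 * k + g) (CuspForm.heckeLocal N1 (↑S : Set ℕ) 𝒪 θ) _ _
      M.V _ (Module.compHom M.V
        ((ηM : CuspForm.heckeLocal N1 (↑S : Set ℕ) 𝒪 θ →ₐ[𝒪] Module.End 𝒪 M.V) :
          CuspForm.heckeLocal N1 (↑S : Set ℕ) 𝒪 θ →+* Module.End 𝒪 M.V))
      ϖ (idealUnip g (fun j => ((Pv.q j : ℕ) : 𝒪))) ((pvTypes p eP ζ).inf 𝔞)
      (idealX 𝒪 k g) (pvXi H.ρ b Pv) (twIdealP 𝒪 r p n) (Module.finrank 𝒪 M.V)) := by
  have hpP : p.Prime := Fact.out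
  have hyp := hPV.hyp
  have hp2 := hyp.hp2
  have hp𝒪 := hyp.hp𝒪
  have hpS : p ∈ S := hyp.hSmin hyp.hpSmin
  have hqvP : ∀ i, (qv i).Prime := fun i => (hqv.2.1 i).1
  have hqvS : ∀ i, qv i ∉ S := fun i => (hqv.2.1 i).2.1
  have hPvS : ∀ j, Pv.q j ∈ S := pv_mem_S 𝒪 p hPV
  -- the Hecke–Galois datum of the level `twLevel`
  have hN'S : ∀ q : ℕ, q.Prime → q ∣ twLevel N1 qv → q ∈ twSet S qv :=
    fun q hq h => H2.prime_dvd_twLevel hPV.hNS hqvP hq h
  have hθQ1 : Fermat.Agent.S59.Datum.FrobHyp ρbar (twLevel N1 qv) (twSet S qv)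
      (θ.comp X.G.G1.rest) := H2.frobHyp_comp_rest hθ X.G.G1.rest X.G.G1.rest_T
  obtain ⟨HQ1, hHQ1π, hHQ1det, -⟩ :=
    hDatum 𝒪 p hp2 hp𝒪 (twLevel N1 qv) (twSet S qv)
      (Finset.mem_union_left _ hpS) hN'S ρbar hyp.habs (θ.comp X.G.G1.rest) hθQ1
  have hunip : ∀ j, HQ1.ρ.IsUnipotentOnInertiaAt (Pv.q j) := by
    intro j
    have h1 := H2.pow_dvd_twLevel_iff (N := N1) hqvP hqvS (Pv.q_prime j) (hPvS j) 1
    have h2 := H2.pow_dvd_twLevel_iff (N := N1) hqvP hqvS (Pv.q_prime j) (hPvS j) 2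
    rw [pow_one] at h1
    exact Fermat.Agent.S34.result (S := twSet S qv) hpP hp𝒪 (Finset.mem_union_left _ hpS) hN'S
      HQ1 (Pv.q j)
      (Pv.q_prime j) (hPV.hex j).2.1 (h1.mpr (hPV.hPvN j))
      (fun h => H2.not_sq_dvd_of_squarefree hPV.hsq (Pv.q_prime j) (h2.mp h))
  -- the map from the universal ring to the Hecke ring of level `N1`
  have hHcondQ : cond 𝒪 p fl Smin (Pv.set ∪ Finset.univ.image qv) H.ρ :=
    Fermat.Agent.S59.Asm.cond_mono Finset.subset_union_left hHcond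
  obtain ⟨τ, hτs, hτl, hτe⟩ := Fermat.Agent.S54.result X.DQ H
    (fun q hq hqN => Finset.mem_coe.mpr (hPV.hNS q hq hqN)) hHcondQ hHres
  -- the relations
  have hrel1 := hUnip 𝒪 p fl ρbar N1 S Smin θ M k Pv eP hPV g r n qv hqv X HQ1 hHQ1π hHQ1det
    hunip
  have hrelχ := hNU 𝒪 p fl ρbar N1 S Smin θ M k Pv eP hPV g r n qv hqv X ζ hζ ζ
    (fun j => ⟨(hζ j).pow_eq_one, hζ1 j⟩) 𝔞 h𝔞
  have hψ1 : ∀ j, ζ j - 1 ∈ Ideal.span {ϖ} := fun j =>
    hϖ ▸ sub_one_mem_of_pow_eq_one hpP hp𝒪 (hζ j).pow_eq_one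
  -- the rank
  have hrk : Module.finrank 𝒪 M.V = X.G.rk :=
    Fermat.Agent.L.Pivot.H76.finrank_eq_rk hpP.pos X.G.d_pow X.G.d_comm X.G.c_pow X.G.c_comm
      X.G.c_d X.G.b_basis (X.G.G1.π ∘ₗ X.G.κ)
      (X.G.G1.π_surjective.comp X.G.κ_surjective) (ker_comp_κ X.G.toPVGeom)
  rw [hrk]
  exact hAsm 𝒪 p fl ρbar N1 S Smin θ M k Pv eP hPV H hHπ hHcond ηM hηM g r n qv hqv X τ hτs
    hτl hτe ϖ hϖ ζ (fun j => (hζ j).pow_eq_one) hψ1 _ _ hrel1 hrelχ b

end Wire

/-- **PV-WIRE1**: the levels of the patching datum of PIVOT from the leaves and the landed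
results. -/
theorem pvLevelsBA_of (hIS : ∀ (N : ℕ) [NeZero N], CuspForm.HasIntegralStructure N 2)
    (hGal : Stmt_PVGalB) (hGeom : Stmt_PVGeom2A)
    (hDatum : Fermat.Agent.S59.Datum.Stmt_DATUM) (hCond : Stmt_CONDauxD)
    (hAsm : Stmt_PVAsmA) (hUnip : Stmt_PVUnipA) (hNU : Stmt_PVNUA) : Stmt_PVLevelsBA := by
  intro 𝒪 _ _ _ _ _ _ p _ fl ρbar S Smin hbar hnfl N1 _ hpN hpN' θ hθ k Pv eP hPV hζex ϖ hϖ
  have hpP : p.Prime := Fact.out
  haveI : Fact (CuspForm.HasIntegralStructure N1 2) := ⟨hIS N1⟩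
  have hyp := hPV.hyp
  have hp2 := hyp.hp2
  have hp𝒪 := hyp.hp𝒪
  have hres : ResHyp p ρbar Smin := resHyp_of_hyp 𝒪 p hyp
  have hpS : p ∈ S := hyp.hSmin hyp.hpSmin
  have hPvS : ∀ j, Pv.q j ∈ S := pv_mem_S 𝒪 p hPV
  have hPvset : Pv.set ⊆ S := by
    intro q hq
    obtain ⟨j, -, rfl⟩ := Finset.mem_image.mp hq
    exact hPvS j
  -- the Hecke–Galois datum of the level `N1`
  obtain ⟨H, hHπ, hHdet, hHres⟩ :=
    hDatum 𝒪 p hp2 hp𝒪 N1 S hpS hPV.hNS ρbar hyp.habs θ hθ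
  obtain ⟨R, hSR, hR⟩ := hPV.hR
  have hHcond : cond 𝒪 p fl Smin Pv.set H.ρ :=
    hCond 𝒪 p hp2 hp𝒪 fl ρbar Smin hres hbar hnfl Pv.set R N1 S hSR
      (fun r hr => (hR r hr).1) hPV.hNS
      (fun q hq hqp => ⟨hPV.hSminN q hq hqp,
        H2.not_sq_dvd_of_squarefree hPV.hsq (hres.hS q hq)⟩)
      hpN (fun h => ⟨hpN' h, H2.not_sq_dvd_of_squarefree hPV.hsq hpP⟩)
      θ hθ H hHπ hHdet hHres
  -- the module, the Taylor–Wiles families
  obtain ⟨M, hMnt, hG⟩ := hGeom 𝒪 p ρbar S Smin hyp N1 hPV.hNS hPV.hsq hPV.hU θ hθ k Pv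
    hPV.hk hPV.hex hPV.hPvN eP hPV.heP
  obtain ⟨ηM, hηM⟩ := Fermat.Agent.S59.Asm.H85.stmt_LOCMOD 𝒪 N1 (↑S : Set ℕ) θ M
  obtain ⟨r, g, hrg, hfam⟩ := hGal 𝒪 p fl ρbar S Smin hyp k Pv hPV.hex hPvset
  -- the types
  choose ζ hζ using hζex
  have heP0 : ∀ j, eP j ≠ 0 := by
    intro j h0
    have h1 := (hPV.heP j).2
    rw [h0, zero_add, pow_one] at h1
    exact h1 (hPV.hex j).1
  have hζ1 : ∀ j, ζ j ≠ 1 := fun j =>
    (hζ j).ne_one (Nat.one_lt_pow (heP0 j) hpP.one_lt)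
  have ht0 : ∀ δ ∈ pvTypes p eP ζ, ∀ j, δ j ≠ 0 := by
    intro δ hδ j
    obtain ⟨i, hi1, hi2, rfl⟩ := mem_pvTypes.mp hδ
    exact type_ne_zero hpP hp2 (hζ j) (hi1 j) (hi2 j)
  have htm : ∀ δ ∈ pvTypes p eP ζ, ∀ j, δ j ∈ maximalIdeal 𝒪 := by
    intro δ hδ j
    obtain ⟨i, hi1, hi2, rfl⟩ := mem_pvTypes.mp hδ
    exact type_mem hpP hp𝒪 (hζ j).pow_eq_one _ _
  have hunr : ∀ j, H.ρ.residual.IsUnramifiedAt (Pv.q j) := fun j A hA σ hσ =>
    Fermat.Agent.S59.Asm.H77.resid_eq_one_of_isEquiv ρbar H.ρ hHres σ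
      ((hPV.hex j).2.2.1 A hA σ hσ)
  let b : Module.Basis (Fin 2) (CuspForm.heckeLocal N1 (↑S : Set ℕ) 𝒪 θ) H.ρ.V :=
    Module.finBasisOfFinrankEq _ _ H.ρ.finrank_eq
  refine ⟨CuspForm.heckeLocal N1 (↑S : Set ℕ) 𝒪 θ, inferInstance, inferInstance, inferInstance,
    inferInstance, inferInstance, inferInstance, inferInstance, inferInstance, H, b, M.V,
    inferInstance, Module.compHom M.V
      ((ηM : CuspForm.heckeLocal N1 (↑S : Set ℕ) 𝒪 θ →ₐ[𝒪] Module.End 𝒪 M.V) :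
        CuspForm.heckeLocal N1 (↑S : Set ℕ) 𝒪 θ →+* Module.End 𝒪 M.V), hMnt, r, g,
    Module.finrank 𝒪 M.V, pvTypes p eP ζ, hHdet, hunr, by omega, ht0, htm, ?_⟩
  intro 𝔞 h𝔞 n
  obtain ⟨qv, hqv, hγ⟩ := hfam n
  have hqvP : ∀ i, (qv i).Prime := fun i => (hqv.2.1 i).1
  haveI : NeZero (twLevel N1 qv) := ⟨H2.twLevel_ne_zero (NeZero.ne N1) hqvP⟩
  haveI : NeZero (pvLevel N1 Pv.q qv) := ⟨pvLevel_ne_zero (NeZero.ne N1) hqvP Pv.q_prime⟩
  haveI : Fact (CuspForm.HasIntegralStructure (twLevel N1 qv) 2) := ⟨hIS _⟩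
  haveI : Fact (CuspForm.HasIntegralStructure (pvLevel N1 Pv.q qv) 2) := ⟨hIS _⟩
  obtain ⟨G⟩ := hG r n qv hqv
  obtain ⟨X⟩ := exists_ctx 𝒪 p hDatum hCond fl ρbar S Smin hbar hnfl N1 hpN hpN' θ hθ k Pv eP
    hPV M g r n qv hqv hγ G
  exact level_of_ctx 𝒪 p hDatum hAsm hUnip hNU fl ρbar S Smin N1 θ hθ k Pv eP hPV ζ hζ hζ1 ϖ
    hϖ M H hHπ hHres hHcond ηM hηM b g r n qv hqv X 𝔞 h𝔞

/-- **PV-WIRE1 with auxiliary primes**, statement. -/
def Stmt_PVWire1A : Prop :=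
  Stmt_PVGalB → Stmt_PVGeom2A → Fermat.Agent.S59.Datum.Stmt_DATUM → Stmt_CONDauxD →
    Stmt_PVAsmA → Stmt_PVUnipA → Stmt_PVNUA → Stmt_PVLevelsBA

/-- **PV-WIRE1 with auxiliary primes.** -/
theorem stmt_PVWire1A : Stmt_PVWire1A := fun hGal hGeom hDatum hCond hAsm hUnip hNU =>
  pvLevelsBA_of (fun N _ => Fermat.Agent.S23.result N) hGal hGeom hDatum hCond hAsm hUnip hNU

end Fermat.Agent.L.Pivot3.H11

end
-- ==== END Fermat.Agent.L.Pivot3.H11_Wire1A

-- ==== BEGIN Fermat.Agent.L.Pivot3.H13_GAux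
section

set_option autoImplicit false
set_option linter.style.haveILetI false
set_option linter.unusedVariables false

open Polynomial IsLocalRing CuspForm CongruenceSubgroup ModularFormClass

namespace Fermat.Agent.L.Pivot3.H13

open Fermat.Agent.L.Pivot Fermat.Agent.S56 Fermat.Agent.S59 Fermat.Agent.S59.Asm
  Fermat.Agent.L.Pivot.H76 Fermat.Agent.L.Pivot3 Fermat.Agent.L.Pivot3.H24
  Fermat.Agent.L.Pivot3.H75

set_option maxHeartbeats 1000000 in
set_option synthInstance.maxHeartbeats 400000 in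
/-- **Layer G of PIVOT3**: the Galois form with auxiliary primes from the Hecke–Galois form. -/
theorem pivotGalAux_of (hTM : Stmt_THETAMIN) (hEX : Stmt_EXACTb) (hPC : Stmt_PivotCoreBA) :
    Stmt_PivotGalAux := by
  classical
  intro 𝒪 _ _ _ _ _ _ p _ hp2 hp𝒪 fl ρbar habs hdet hsplit hTW N hsq hflT hflF R hR hU hunip
    hexc hζ f 𝔪 a Sig hf h𝔪 hp𝔪 hcong hfrob q hq hqN hqp hqR hunrq
  have hpp : p.Prime := Fact.out
  have hN0 : N ≠ 0 := hsq.ne_zero
  haveI : NeZero N := ⟨hN0⟩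
  -- the residue field has characteristic `p`
  haveI hchar : CharP (ResidueField 𝒪) p := by
    refine (CharP.charP_iff_prime_eq_zero hpp).mpr ?_
    have : residue 𝒪 (p : 𝒪) = 0 := (residue_eq_zero_iff _).mpr hp𝒪
    rwa [map_natCast] at this
  -- THETA-MIN
  obtain ⟨hunrout, hθex⟩ := hTM p hp2 (ResidueField 𝒪) ρbar habs N f 𝔪 hf h𝔪 hp𝔪 a Sig hcong
    hfrob
  -- the sets
  set Smin : Finset ℕ := insert p (N.primeFactors.filter (fun q' => ¬ ρbar.IsUnramifiedAt q'))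
    with hSmin
  set Sg : Finset ℕ :=
    N.primeFactors.filter (fun q' => q' ≠ p ∧ ρbar.IsUnramifiedAt q' ∧ q' ∉ R) with hSg
  have hSgmem : ∀ q', q' ∈ Sg ↔
      q'.Prime ∧ q' ∣ N ∧ q' ≠ p ∧ ρbar.IsUnramifiedAt q' ∧ q' ∉ R := by
    intro q'
    rw [hSg, Finset.mem_filter, Nat.mem_primeFactors]
    constructor
    · rintro ⟨⟨h1, h2, -⟩, h3, h4, h5⟩
      exact ⟨h1, h2, h3, h4, h5⟩
    · rintro ⟨h1, h2, h3, h4, h5⟩
      exact ⟨⟨h1, h2, hN0⟩, h3, h4, h5⟩
  have hSminmem : ∀ q', q' ∈ Smin ↔ q' = p ∨ (q'.Prime ∧ q' ∣ N ∧ ¬ ρbar.IsUnramifiedAt q') := by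
    intro q'
    rw [hSmin, Finset.mem_insert, Finset.mem_filter, Nat.mem_primeFactors]
    constructor
    · rintro (h | ⟨⟨h1, h2, -⟩, h3⟩)
      · exact Or.inl h
      · exact Or.inr ⟨h1, h2, h3⟩
    · rintro (h | ⟨h1, h2, h3⟩)
      · exact Or.inl h
      · exact Or.inr ⟨⟨h1, h2, hN0⟩, h3⟩
  -- the pivot primes
  obtain ⟨Pv, hPvset, hPvmem, hPvsurj, hPvC⟩ := exists_pivotPrimes_finset Sg
    (fun q' hq' => ((hSgmem q').mp hq').1)
    (fun q' A σ => ∃ c : ResidueField 𝒪,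
      ρbar.ρ σ = c • (1 : Module.End (ResidueField 𝒪) ρbar.V))
    (fun q' hq' => by
      obtain ⟨h1, h2, h3, h4, h5⟩ := (hSgmem q').mp hq'
      exact (hexc q' h1 h2 h3 h5 h4).2)
  set S : Finset ℕ := Smin ∪ Pv.set ∪ R with hS
  have hpSmin : p ∈ Smin := (hSminmem p).mpr (Or.inl rfl)
  have hpS : p ∈ S := Finset.mem_union_left _ (Finset.mem_union_left _ hpSmin)
  have hNS : ∀ q' : ℕ, q'.Prime → q' ∣ N → q' ∈ S := by
    intro q' hq' hq'N
    by_cases hq'p : q' = p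
    · rw [hq'p]; exact hpS
    by_cases hu : ρbar.IsUnramifiedAt q'
    · by_cases hq'R : q' ∈ R
      · exact Finset.mem_union_right _ hq'R
      · refine Finset.mem_union_left _ (Finset.mem_union_right _ ?_)
        rw [hPvset]
        exact (hSgmem q').mpr ⟨hq', hq'N, hq'p, hu, hq'R⟩
    · exact Finset.mem_union_left _ (Finset.mem_union_left _
        ((hSminmem q').mpr (Or.inr ⟨hq', hq'N, hu⟩)))
  have hSprime : ∀ q' ∈ S, q'.Prime := by
    intro q' hq'
    rcases Finset.mem_union.mp hq' with h | h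
    · rcases Finset.mem_union.mp h with h | h
      · rcases (hSminmem q').mp h with h1 | h1
        · rw [h1]; exact hpp
        · exact h1.1
      · rw [hPvset] at h
        exact ((hSgmem q').mp h).1
    · exact (hR q' h).1.1
  -- `θ`
  obtain ⟨θ, hθ⟩ := hθex S hpS hNS
  -- the exponents
  set eP : Fin Sg.card → ℕ := fun j => padicValNat p (Pv.q j - 1) with heP
  have hq1 : ∀ j, Pv.q j - 1 ≠ 0 := by
    intro j
    have := (Pv.q_prime j).two_le
    omega
  have hePspec : ∀ j, p ^ eP j ∣ Pv.q j - 1 ∧ ¬ p ^ (eP j + 1) ∣ Pv.q j - 1 := by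
    intro j
    exact ⟨pow_padicValNat_dvd, pow_succ_padicValNat_not_dvd (hq1 j)⟩
  -- the standing hypotheses
  have hmin : ∀ q' : ℕ, q'.Prime → q' ≠ p → (q' ∈ Smin ↔ ¬ ρbar.IsUnramifiedAt q') := by
    intro q' hq' hq'p
    rw [hSminmem]
    constructor
    · rintro (h | h)
      · exact absurd h hq'p
      · exact h.2.2
    · intro hram
      refine Or.inr ⟨hq', ?_, hram⟩
      by_contra hq'N
      exact hram (hunrout q' hq' hq'N hq'p)
  have hyp : Hyp 𝒪 p ρbar S Smin :=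
    { hp2 := hp2
      hp𝒪 := hp𝒪
      habs := habs
      hdet := hdet
      hsplit := hsplit
      hTW := hTW
      hpSmin := hpSmin
      hSmin := fun x hx => Finset.mem_union_left _ (Finset.mem_union_left _ hx)
      hS := hSprime
      hmin := hmin }
  have hqSg : q ∈ Sg := (hSgmem q).mpr ⟨hq, hqN, hqp, hunrq, hqR⟩
  have hPV : PVHypA p ρbar N S Smin Pv eP :=
    { hyp := hyp
      hU := hU
      hk := Finset.card_pos.mpr ⟨q, hqSg⟩
      hsq := hsq
      hNS := hNS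
      hex := fun j => by
        obtain ⟨h1, h2, h3, h4, h5⟩ := (hSgmem (Pv.q j)).mp (hPvmem j)
        exact ⟨(hexc (Pv.q j) h1 h2 h3 h5 h4).1, h3, h4, hPvC j⟩
      hPvN := fun j => ((hSgmem (Pv.q j)).mp (hPvmem j)).2.1
      hR := ⟨R, rfl, hR⟩
      hSminN := fun q' hq' hq'p => by
        rcases (hSminmem q').mp hq' with h | h
        · exact absurd h hq'p
        · exact h.2.1
      heP := hePspec }
  -- unramified outside `Smin`
  have hunrS : ∀ q' : ℕ, q'.Prime → q' ∉ Smin ∪ ∅ →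
      (GaloisRepAdic.ofResidualGaloisRep ρbar).IsUnramifiedAt q' := by
    intro q' hq' hq'S
    have hq'S' : q' ∉ Smin := fun h => hq'S (Finset.mem_union_left _ h)
    have hq'p : q' ≠ p := fun h => hq'S' (h ▸ hpSmin)
    by_contra hram
    exact hq'S' ((hmin q' hq' hq'p).mpr hram)
  have hunipS : ∀ q' ∈ Smin, q'.Prime → q' ≠ p →
      (GaloisRepAdic.ofResidualGaloisRep ρbar).IsUnipotentOnInertiaAt q' := by
    intro q' hq' hq'pr hq'p
    rcases (hSminmem q').mp hq' with h | h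
    · exact absurd h hq'p
    · exact hunip q' hq'pr h.2.1 hq'p
  -- the condition at `p`
  have hcond : cond 𝒪 p fl Smin ∅ (GaloisRepAdic.ofResidualGaloisRep ρbar) := by
    cases fl with
    | true =>
      have hflat := hEX 𝒪 p hp2 hp𝒪 ρbar habs N S hpS hNS (hflT rfl) θ hθ
      exact ⟨⟨hdet, hflat, hunrS⟩, hunipS⟩
    | false =>
      exact ⟨⟨hdet, (hflF rfl).2.1, hunrS⟩, hunipS⟩
  have hnfl : fl = false → ¬ (GaloisRepAdic.ofResidualGaloisRep ρbar).IsFlatAt p :=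
    fun h => (hflF h).2.2
  have hζ' : ∀ j, ∃ ζ : 𝒪, IsPrimitiveRoot ζ (p ^ eP j) := fun j =>
    hζ (Pv.q j) (Pv.q_prime j) ((hSgmem (Pv.q j)).mp (hPvmem j)).2.1 (eP j) (hePspec j).1
  -- the index of `q`
  obtain ⟨j, hj⟩ := hPvsurj q hqSg
  subst hj
  have hNq0 : N / Pv.q j ≠ 0 := by
    intro h0
    have h1 : N / Pv.q j * Pv.q j = N := Nat.div_mul_cancel hqN
    rw [h0, zero_mul] at h1
    exact hN0 h1.symm
  haveI : NeZero (N / Pv.q j) := ⟨hNq0⟩
  obtain ⟨θ', hθ'⟩ := hPC 𝒪 p fl ρbar S Smin hcond hnfl N hflT (fun h => (hflF h).1) θ hθ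
    Sg.card Pv eP hPV hζ' j
  -- `θ (T_ℓ) = a ℓ`
  have hθa : ∀ (ℓ : ℕ) (hℓ : ℓ.Prime) (hℓN : ¬ ℓ ∣ N) (hℓS : ℓ ∉ (↑S : Set ℕ)), ℓ ∉ Sig →
      θ (heckeAlgebra.T hℓ hℓN hℓS) = ((a ℓ : ℤ) : ResidueField 𝒪) := by
    intro ℓ hℓ hℓN hℓS hℓSig
    have hℓp : ℓ ≠ p := fun h => hℓS (Finset.mem_coe.mpr (h ▸ hpS))
    obtain ⟨A, σ, hA, hσ⟩ := Fermat.Agent.Lib.FrobExists.exists_place_and_frobenius ℓ hℓ
    have h1 := hθ ℓ hℓ hℓN hℓS A hA σ hσ
    have h2 := hfrob ℓ hℓ hℓSig hℓp A hA σ hσ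
    exact eq_of_quadratic_eq (h1.symm.trans h2)
  -- lifting
  have hdiv : N / Pv.q j ∣ N := Nat.div_dvd_of_dvd hqN
  obtain ⟨g, 𝔪', hg, h𝔪', hp𝔪', hgc⟩ := exists_eigenform_of_residual_point (N / Pv.q j) hpp
    (↑S : Set ℕ) θ' a (↑Sig : Set ℕ) (fun ℓ hℓ hℓM hℓS hℓSig => by
      have hℓN : ¬ ℓ ∣ N := fun h => hℓS (Finset.mem_coe.mpr (hNS ℓ hℓ h))
      rw [hθ' ℓ hℓ hℓN hℓS hℓM]
      exact hθa ℓ hℓ hℓN hℓS (fun h => hℓSig (Finset.mem_coe.mpr h)))
  refine ⟨g, 𝔪', S ∪ Sig, hg, h𝔪', hp𝔪', fun ℓ hℓ hℓS hℓN hℓp => ?_⟩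
  have h1 : ℓ ∉ (↑S : Set ℕ) := fun h => hℓS (Finset.mem_union_left _ (Finset.mem_coe.mp h))
  have h2 : ℓ ∉ (↑Sig : Set ℕ) := fun h => hℓS (Finset.mem_union_right _ (Finset.mem_coe.mp h))
  exact hgc ℓ hℓ (fun h => hℓN (h.trans hdiv)) h1 h2

end Fermat.Agent.L.Pivot3.H13

end
-- ==== END Fermat.Agent.L.Pivot3.H13_GAux

-- ==== BEGIN Fermat.Agent.L.Pivot3.H34_WSOAux
section

set_option autoImplicit false
set_option linter.style.haveILetI false
set_option linter.unusedVariables false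
set_option linter.unusedSectionVars false

open Polynomial IsLocalRing CuspForm CongruenceSubgroup ModularFormClass
open WeierstrassCurve WeierstrassCurve.Affine WeierstrassCurve.Affine.Point
open scoped WeierstrassCurve.Affine TensorProduct

namespace Fermat.Agent.L.Pivot3.H34

open Fermat.Agent.L.Pivot Fermat.Agent.S59 Fermat.Agent.S59.Asm Fermat.Agent.S44
  Fermat.Agent.S43 Fermat.Agent.L.Pivot.H76 Fermat.Agent.L.Pivot3.H24
  Fermat.Agent.L.Pivot3.H75

/-- Determinant and trace of an endomorphism of a free module of rank `2` from its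
characteristic polynomial. -/
theorem det_trace_of_charpoly {k : Type} [Field k] {V : Type} [AddCommGroup V] [Module k V]
    [Module.Finite k V] (hV : Module.finrank k V = 2) (f : Module.End k V) (t d : k)
    (h : LinearMap.charpoly f = X ^ 2 - C t * X + C d) :
    LinearMap.det f = d ∧ LinearMap.trace k V f = t := by
  have b : Module.Basis (Fin 2) k V := Module.finBasisOfFinrankEq k V hV
  have h1 : (LinearMap.toMatrix b b f).charpoly = X ^ 2 - C t * X + C d := by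
    rw [LinearMap.charpoly_toMatrix f b, h]
  rw [Matrix.charpoly_fin_two] at h1
  have hd : (LinearMap.toMatrix b b f).det = d := by
    have := congrArg (fun P : k[X] => P.coeff 0) h1
    simpa using this
  have ht : (LinearMap.toMatrix b b f).trace = t := by
    have := congrArg (fun P : k[X] => P.coeff 1) h1
    simpa using this
  refine ⟨?_, ?_⟩
  · rw [← LinearMap.det_toMatrix b f, hd]
  · rw [LinearMap.trace_eq_matrix_trace k b f, ht]

/-- **`AuxAt` at `p = 3`** from the Frobenius characteristic polynomials. -/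
theorem auxAt_residual_of_charpoly {k : Type} [Field k] [CharP k 3]
    (ρbar : ResidualGaloisRep k) (r : ℕ) (hr : r.Prime) (hr2 : r % 3 = 2) (a : ℤ)
    (ha : ((a : ℤ) : ZMod 3) ≠ 0) (hunr : ρbar.IsUnramifiedAt r)
    (hchar : ∀ P : ValuationSubring (AlgebraicClosure ℚ), P.LiesOverPrime r →
      ∀ σ : AlgebraicClosure ℚ ≃ₐ[ℚ] AlgebraicClosure ℚ, P.IsFrobeniusAt σ r →
        LinearMap.charpoly (ρbar.ρ σ) = X ^ 2 - C ((a : ℤ) : k) * X + C ((r : k))) :
    AuxAt 3 ρbar r := by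
  refine ⟨hr, ?_, ?_, hunr, fun P hP σ hσ => ?_⟩
  · rintro rfl
    omega
  · intro h
    omega
  · obtain ⟨hd, ht⟩ := det_trace_of_charpoly ρbar.finrank_eq (ρbar.ρ σ) _ _ (hchar P hP σ hσ)
    refine ⟨hd, ?_⟩
    rw [ht]
    have h1 : ((r : k) + 1) = 0 := by
      have h2 : ((r + 1 : ℕ) : k) = 0 := by
        rw [CharP.cast_eq_zero_iff k 3]
        omega
      rw [← h2]
      push_cast
      rfl
    rw [h1]
    have h3 : ((a : ℤ) : k) ≠ 0 := by
      intro h0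
      apply ha
      rw [CharP.intCast_eq_zero_iff k 3] at h0
      rw [ZMod.intCast_zmod_eq_zero_iff_dvd]
      exact_mod_cast h0
    intro h4
    rw [zero_pow (by norm_num)] at h4
    exact h3 (pow_eq_zero_iff (by norm_num) |>.mp h4)

set_option maxHeartbeats 1000000 in
set_option synthInstance.maxHeartbeats 400000 in
/-- **Leaf WSO3 of PIVOT3** (`3 ∥ N`, `E[3]` très ramifiée at `3`, auxiliary prime `r`). -/
theorem pivotWCoreSOAux3_of (hCYC : Stmt_CYC) (hTRES : Stmt_TRES) (hG : Stmt_PivotGalAux) :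
    Stmt_PivotWCoreSOAux3 := by
  classical
  intro W hΔ hss hirr N q r hsq hpN hpΔ hpeu hq hqp hqN hunrq hr hrN hrq hr2 hgoodr hunrr
    har hexc f 𝔪 S hf h𝔪 hp𝔪 hcong
  have hp : (3 : ℕ).Prime := Nat.prime_three
  have hp2 : (3 : ℕ) ≠ 2 := by norm_num
  haveI : Fact (3 : ℕ).Prime := ⟨hp⟩
  have hN0 : 0 < N := Nat.pos_of_ne_zero hsq.ne_zero
  have hr3 : r ≠ 3 := by
    rintro rfl
    omega
  obtain ⟨𝒪, _, _, _, _, _, _, ρ, hdet, hunip, hSO, hfrob, habs, hTW, hsplit, ζ, hζ⟩ :=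
    exists_coeff_rep hCYC 3 hp2 W hΔ hss hirr N
  have hp𝒪 : ((3 : ℕ) : 𝒪) ∈ maximalIdeal 𝒪 := hdet.1
  haveI hchar : CharP (ResidueField 𝒪) 3 := by
    refine (CharP.charP_iff_prime_eq_zero hp).mpr ?_
    have : residue 𝒪 ((3 : ℕ) : 𝒪) = 0 := (residue_eq_zero_iff _).mpr hp𝒪
    rwa [map_natCast] at this
  let j : ZMod 3 →+* ResidueField 𝒪 := ZMod.castHom (dvd_refl 3) (ResidueField 𝒪)
  have hbr : ((torsRes W hΔ 3).baseChangeAlong j).IsEquiv ρ.residual :=
    Fermat.Agent.S59.LL.H77.bridgeRes W hΔ 3 _ _ j ρ ∅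
      (fun ℓ hℓ hℓp _ hg A hA σ hσ => hfrob ℓ hℓ hℓp hg A hA σ hσ) habs
  have hunr_iff : ∀ q' : ℕ, ρ.residual.IsUnramifiedAt q' ↔ UnrW W 3 q' := fun q' =>
    (Fermat.Agent.S59.LL.H77.unramified_iff_of_isEquiv j _ _ hbr q').trans
      (torsRes_isUnramifiedAt_iff W hΔ 3 q')
  have hbad : ¬ W.IsGoodPrimeFor 3 := fun h => h hpΔ
  have hnflat : ¬ (GaloisRepAdic.ofResidualGaloisRep ρ.residual).IsFlatAt 3 :=
    hTRES 3 hp2 W hΔ hss hirr hpeu 𝒪 ρ hdet habs hfrob
  have hgoodS : ∀ ℓ : ℕ, ℓ.Prime → ℓ ∉ S ∪ W.Δ.natAbs.primeFactors → W.IsGoodPrimeFor ℓ := by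
    intro ℓ hℓ hℓS hdvd
    refine hℓS (Finset.mem_union_right _ (Nat.mem_primeFactors.2 ⟨hℓ, ?_, ?_⟩))
    · exact Int.natCast_dvd.1 hdvd
    · exact Int.natAbs_ne_zero.2 hΔ
  -- the auxiliary prime
  have haux : AuxAt 3 ρ.residual r :=
    auxAt_residual_of_charpoly ρ.residual r hr hr2 (W.apOfModel r) har ((hunr_iff r).mpr hunrr)
      (fun P hP σ hσ => charpoly_frob_residual ρ σ _ r (hfrob r hr hr3 hgoodr P hP σ hσ))
  obtain ⟨g, 𝔪', S', hg, h𝔪', hp𝔪', hgc⟩ := hG 𝒪 3 hp2 hp𝒪 false ρ.residual habs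
    (detIsCyclotomic_residual ρ 3 hdet) hsplit hTW N hsq (fun h => by cases h)
    (fun _ => ⟨hpN, isStrictOrdinaryAt_residual ρ 3 (hSO hbad), hnflat⟩)
    {r} (fun r' hr' => by
      rw [Finset.mem_singleton] at hr'
      subst hr'
      exact ⟨haux, hrN⟩)
    (Or.inr ⟨r, hr, hrN, hr2⟩)
    (fun q' hq' _ hq'p => isUnipotentOnInertiaAt_residual ρ q' (hunip q' hq' hq'p))
    (fun q' hq' hq'N hq'p hq'R hu => by
      have hq'r : q' ≠ r := fun h => hq'R (Finset.mem_singleton.mpr h)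
      obtain ⟨hdvd, A, hA, c, hc⟩ := hexc q' hq' hq'p hq'N hq'r ((hunr_iff q').mp hu)
      refine ⟨hdvd, A, hA, fun σ hσ => ⟨j c, ?_⟩⟩
      have h1 : (torsRes W hΔ 3).ρ σ = c • (1 : Module.End (ZMod 3) (torsRes W hΔ 3).V) :=
        LinearMap.ext fun v => hc σ hσ v
      exact scalar_of_isEquiv_resid hbr σ (j c) (scalar_bcAlong_resid j _ σ c h1))
    (fun q' hq' hq'N e he => by
      have h1 : 0 < q' - 1 := by have := hq'.two_le; omega
      have h2 : q' - 1 ≤ N := by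
        have := Nat.le_of_dvd hN0 hq'N
        omega
      exact exists_primitiveRoot_of_le hp hζ (le_of_pow_dvd hp he h1 h2))
    f 𝔪 (fun ℓ => W.apOfModel ℓ) (S ∪ W.Δ.natAbs.primeFactors) hf h𝔪 hp𝔪
    (fun ℓ hℓ hℓS hℓN hℓp =>
      hcong ℓ hℓ (fun h => hℓS (Finset.mem_union_left _ h)) (hgoodS ℓ hℓ hℓS) hℓN hℓp)
    (fun ℓ hℓ hℓS hℓp A hA σ hσ =>
      charpoly_frob_residual ρ σ _ ℓ (hfrob ℓ hℓ hℓp (hgoodS ℓ hℓ hℓS) A hA σ hσ))
    q hq hqN hqp (fun h => hrq (Finset.mem_singleton.mp h).symm) ((hunr_iff q).mpr hunrq)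
  exact ⟨g, 𝔪', S', hg, h𝔪', hp𝔪', fun ℓ hℓ hℓS hℓN hℓp _ => hgc ℓ hℓ hℓS hℓN hℓp⟩

end Fermat.Agent.L.Pivot3.H34

end
-- ==== END Fermat.Agent.L.Pivot3.H34_WSOAux

-- ==== BEGIN Fermat.Agent.L.Pivot3.H60_PVA
section

set_option autoImplicit false

namespace Fermat.Agent.L.Pivot3.H60

open Polynomial IsLocalRing CuspForm Fermat.Agent.S56 Fermat.Agent.S59 Fermat.Agent.S59.Asm
  Fermat.Agent.L.Pivot

/-- `Smin ∪ Pv.set ⊆ S` under `PVHypA`. -/
theorem PVHypA_union_subset {𝒪 : Type} [CommRing 𝒪] [IsLocalRing 𝒪] {p : ℕ}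
    {ρbar : ResidualGaloisRep (ResidueField 𝒪)} {N1 : ℕ} {S Smin : Finset ℕ} {k : ℕ}
    {Pv : PivotPrimes k} {eP : Fin k → ℕ} (h : PVHypA p ρbar N1 S Smin Pv eP) :
    Smin ∪ Pv.set ⊆ S := by
  obtain ⟨R, hS, -⟩ := h.hR
  rw [hS]
  exact Finset.subset_union_left

/-- **B3 = PV-UNIP for `PVHypA`.** -/
theorem stmt_PVUnipA : Stmt_PVUnipA := by
  intro 𝒪 _ _ _ _ _ _ p _ fl ρbar N1 _ S Smin θ M k Pv eP hPV
  exact stmt_PVUnipG 𝒪 p fl ρbar N1 S Smin θ M k Pv eP hPV.hex hPV.hNS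

/-- **C3 = PV-NU for `PVHypA`**, from PV-NU-POINT. -/
theorem stmt_PVNUA_of (hpt : Stmt_PVNUPoint) : Stmt_PVNUA := by
  intro 𝒪 _ _ _ _ _ _ p _ fl ρbar N1 _ S Smin θ M k Pv eP hPV
  exact stmt_PVNUG_of hpt 𝒪 p fl ρbar N1 S Smin θ M k Pv eP hPV.hyp hPV.hsq hPV.hNS hPV.hex
    hPV.hPvN hPV.heP

/-- **A3 = PV-ASM for `PVHypA`.** -/
theorem stmt_PVAsmA : Stmt_PVAsmA := by
  intro 𝒪 _ _ _ _ _ _ p _ fl ρbar N1 _ _ S Smin θ M k Pv eP hPV
  exact stmt_PVAsmG 𝒪 p fl ρbar N1 S Smin θ M k Pv eP hPV.hyp hPV.hex (PVHypA_union_subset hPV)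

end Fermat.Agent.L.Pivot3.H60

end
-- ==== END Fermat.Agent.L.Pivot3.H60_PVA

-- ==== BEGIN Fermat.Agent.L.Pivot3.H80_AutoUnrFinal
section

/-!
# PIVOT at `p = 3` (package PIVOT3), leaf AUTO-UNR, the DATUM FORM, unconditional (helper80)

* `stmt_AutoUnr : Stmt_AutoUnrH` (= helper24's `Stmt_AutoUnr`, verbatim): for `AuxAt p ρbar r`,
  every lift `ρ` of `ρbar` (`ρ.residual ≅ ρbar.baseChangeAlong φ`) is unramified at `r`;
* `autoUnr` : the same with all hypotheses unfolded.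

From helper34's inertia form `H34.stmt_AutoUnrMain` and `H80.stmt_AutoUnr_of`.
-/

set_option autoImplicit false
set_option linter.unusedSectionVars false
set_option linter.unusedVariables false

noncomputable section

open IsLocalRing TensorProduct

namespace Fermat.Agent.L.Pivot3.H80

/-- helper34's inertia form, in the shape of `H80.Stmt_AutoUnrMain`. -/
theorem stmt_AutoUnrMain_h34 : Stmt_AutoUnrMain :=
  fun A _ _ _ p hp hpA ρ q hq hqp P hP hur φ hφ hne =>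
    Fermat.Agent.L.Pivot3.H34.stmt_AutoUnrMain A p hp hpA ρ q hq hqp P hP hur φ hφ hne

/-- **AUTO-UNR, datum form** (unconditional). -/
theorem stmt_AutoUnr : Stmt_AutoUnrH := stmt_AutoUnr_of stmt_AutoUnrMain_h34

/-- **AUTO-UNR, datum form**, all hypotheses unfolded (unconditional). -/
theorem autoUnr (A : Type) [CommRing A] [IsLocalRing A] [IsNoetherianRing A]
    (p : ℕ) (hp : p.Prime) (hpA : (p : A) ∈ maximalIdeal A)
    (k : Type) [Field k] (ρbar : ResidualGaloisRep k) (φ : k →+* ResidueField A)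
    (ρ : GaloisRepAdic A) (hres : ρ.residual.IsEquiv (ρbar.baseChangeAlong φ))
    (r : ℕ) (hr : r.Prime) (hrp : r ≠ p) (hpr : ¬ p ∣ r - 1)
    (hunr : ρbar.IsUnramifiedAt r)
    (hfrob : ∀ P : ValuationSubring (AlgebraicClosure ℚ), P.LiesOverPrime r →
      ∀ σ, P.IsFrobeniusAt σ r →
        LinearMap.det (ρbar.ρ σ) = (r : k) ∧
          LinearMap.trace k _ (ρbar.ρ σ) ^ 2 ≠ ((r : k) + 1) ^ 2) :
    ρ.IsUnramifiedAt r :=
  autoUnr_datum stmt_AutoUnrMain_h34 A p hp hpA k ρbar φ ρ hres r hr hrp hpr hunr hfrob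

end Fermat.Agent.L.Pivot3.H80

end
end
-- ==== END Fermat.Agent.L.Pivot3.H80_AutoUnrFinal

-- ==== BEGIN Fermat.Agent.L.Pivot3.H80_WAux
section

/-!
# PIVOT at `p = 3` (package PIVOT3, owner helper75), leaf W3 (helper80)

`pivotWCoreAux3_of : H76.Stmt_CYC → H75.Stmt_PivotGalAux → H75.Stmt_PivotWCoreAux3`:
the curve form of the pivot at `p = 3` with one auxiliary prime `r ≡ 2 mod 3` in the level, from
the Galois form with the set `R = {r}` of auxiliary primes.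

Clone of `H76.pivotWCore_of` (`L/Pivot/H76_Wire2W.lean`, helper76): the same coefficient ring and
`3`-adic representation (`exists_coeff_rep`), the same bridge `E[3] ⊗ k ≅ ρ.residual`;
`AuxAt 3 ρ.residual r` is `H80.auxAt_residual_of_curve`.
-/

set_option autoImplicit false
set_option linter.style.haveILetI false
set_option linter.unusedVariables false

open Polynomial IsLocalRing CuspForm CongruenceSubgroup ModularFormClass
open WeierstrassCurve WeierstrassCurve.Affine WeierstrassCurve.Affine.Point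
open scoped WeierstrassCurve.Affine

namespace Fermat.Agent.L.Pivot3.H80

open Fermat.Agent.L.Pivot Fermat.Agent.S59 Fermat.Agent.S59.Asm Fermat.Agent.S44
  Fermat.Agent.S43 Fermat.Agent.L.Pivot.H76 Fermat.Agent.L.Pivot3.H24
  Fermat.Agent.L.Pivot3.H75

set_option maxHeartbeats 1000000 in
set_option synthInstance.maxHeartbeats 400000 in
/-- **Leaf W3 of PIVOT3** (level prime to `3`, one auxiliary prime `r ≡ 2 mod 3`). -/
theorem pivotWCoreAux3_of (hCYC : Stmt_CYC) (hG : Stmt_PivotGalAux) : Stmt_PivotWCoreAux3 := by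
  classical
  intro W hΔ hss hirr N q r hsq hpN hq hqN hunrq hr hrN hrq hr3 hgoodr hunrr har hexc
    f 𝔪 S hf h𝔪 hp𝔪 hcong
  have hp : (3 : ℕ).Prime := Nat.prime_three
  have hp2 : (3 : ℕ) ≠ 2 := by norm_num
  haveI : Fact (3 : ℕ).Prime := ⟨hp⟩
  have hN0 : 0 < N := Nat.pos_of_ne_zero hsq.ne_zero
  obtain ⟨𝒪, _, _, _, _, _, _, ρ, hdet, hunip, -, hfrob, habs, hTW, hsplit, ζ, hζ⟩ :=
    exists_coeff_rep hCYC 3 hp2 W hΔ hss hirr N
  have hp𝒪 : ((3 : ℕ) : 𝒪) ∈ maximalIdeal 𝒪 := hdet.1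
  haveI hchar : CharP (ResidueField 𝒪) 3 := by
    refine (CharP.charP_iff_prime_eq_zero hp).mpr ?_
    have : residue 𝒪 ((3 : ℕ) : 𝒪) = 0 := (residue_eq_zero_iff _).mpr hp𝒪
    rwa [map_natCast] at this
  let j : ZMod 3 →+* ResidueField 𝒪 := ZMod.castHom (dvd_refl 3) (ResidueField 𝒪)
  have hbr : ((torsRes W hΔ 3).baseChangeAlong j).IsEquiv ρ.residual :=
    Fermat.Agent.S59.LL.H77.bridgeRes W hΔ 3 _ _ j ρ ∅
      (fun ℓ hℓ hℓp _ hg A hA σ hσ => hfrob ℓ hℓ hℓp hg A hA σ hσ) habs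
  have hunr_iff : ∀ q' : ℕ, ρ.residual.IsUnramifiedAt q' ↔ UnrW W 3 q' := fun q' =>
    (Fermat.Agent.S59.LL.H77.unramified_iff_of_isEquiv j _ _ hbr q').trans
      (torsRes_isUnramifiedAt_iff W hΔ 3 q')
  have hqp : q ≠ 3 := fun h => hpN (h ▸ hqN)
  have hr3' : r ≠ 3 := by
    intro h
    rw [h] at hr3
    norm_num at hr3
  have hgoodS : ∀ ℓ : ℕ, ℓ.Prime → ℓ ∉ S ∪ W.Δ.natAbs.primeFactors → W.IsGoodPrimeFor ℓ := by
    intro ℓ hℓ hℓS hdvd
    refine hℓS (Finset.mem_union_right _ (Nat.mem_primeFactors.2 ⟨hℓ, ?_, ?_⟩))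
    · exact Int.natCast_dvd.1 hdvd
    · exact Int.natAbs_ne_zero.2 hΔ
  -- the auxiliary prime
  have haux : AuxAt 3 ρ.residual r :=
    auxAt_residual_of_curve ρ hp𝒪 W r hr hr3 har ((hunr_iff r).mpr hunrr)
      (fun A hA σ hσ => hfrob r hr hr3' hgoodr A hA σ hσ)
  obtain ⟨g, 𝔪', S', hg, h𝔪', hp𝔪', hgc⟩ := hG 𝒪 3 hp2 hp𝒪 true ρ.residual habs
    (detIsCyclotomic_residual ρ 3 hdet) hsplit hTW N hsq (fun _ => hpN)
    (fun h => by cases h)
    ({r} : Finset ℕ)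
    (fun r' hr' => by
      rw [Finset.mem_singleton] at hr'
      subst hr'
      exact ⟨haux, hrN⟩)
    (Or.inr ⟨r, hr, hrN, hr3⟩)
    (fun q' hq' _ hq'p => isUnipotentOnInertiaAt_residual ρ q' (hunip q' hq' hq'p))
    (fun q' hq' hq'N hq'p hq'R hu => by
      have hq'r : q' ≠ r := fun h => hq'R (Finset.mem_singleton.2 h)
      obtain ⟨hdvd, A, hA, c, hc⟩ := hexc q' hq' hq'N hq'r ((hunr_iff q').mp hu)
      refine ⟨hdvd, A, hA, fun σ hσ => ⟨j c, ?_⟩⟩
      have h1 : (torsRes W hΔ 3).ρ σ = c • (1 : Module.End (ZMod 3) (torsRes W hΔ 3).V) :=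
        LinearMap.ext fun v => hc σ hσ v
      exact scalar_of_isEquiv_resid hbr σ (j c) (scalar_bcAlong_resid j _ σ c h1))
    (fun q' hq' hq'N e he => by
      have h1 : 0 < q' - 1 := by have := hq'.two_le; omega
      have h2 : q' - 1 ≤ N := by
        have := Nat.le_of_dvd hN0 hq'N
        omega
      exact exists_primitiveRoot_of_le hp hζ (le_of_pow_dvd hp he h1 h2))
    f 𝔪 (fun ℓ => W.apOfModel ℓ) (S ∪ W.Δ.natAbs.primeFactors) hf h𝔪 hp𝔪
    (fun ℓ hℓ hℓS hℓN hℓp =>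
      hcong ℓ hℓ (fun h => hℓS (Finset.mem_union_left _ h)) (hgoodS ℓ hℓ hℓS) hℓN hℓp)
    (fun ℓ hℓ hℓS hℓp A hA σ hσ =>
      charpoly_frob_residual ρ σ _ ℓ (hfrob ℓ hℓ hℓp (hgoodS ℓ hℓ hℓS) A hA σ hσ))
    q hq hqN hqp (fun h => hrq (Finset.mem_singleton.1 h).symm) ((hunr_iff q).mpr hunrq)
  exact ⟨g, 𝔪', S', hg, h𝔪', hp𝔪', fun ℓ hℓ hℓS hℓN hℓp _ => hgc ℓ hℓ hℓS hℓN hℓp⟩

end Fermat.Agent.L.Pivot3.H80

end
-- ==== END Fermat.Agent.L.Pivot3.H80_WAux

-- ==== BEGIN Fermat.Agent.NEB.Geom.H84_Final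
section

/-!
# Item 72 (LG-NEB), package NEB-GEOM (helper84): **`Asm.Stmt_TWGEOM`, unconditional**

* `stmt_A_PI      : Stmt_A_PI`   (`H15.stmt_A_PI_of` + `H14.stmt_PI_WIRE`);
* `stmt_A_SETUP   : Stmt_A_SETUP`, `stmt_A_FROBNIL : Stmt_A_FROBNIL`, `stmt_A_LG : Stmt_A_LG`;
* `nonempty_twDiv` : the Taylor–Wiles data `TWDiv` over the divisible module of an arbitrary
  level-`N` setup `Dm : MinSetup`;
* `stmt_TWGEOM    : Fermat.Agent.S59.Asm.Stmt_TWGEOM`.
-/

set_option autoImplicit false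
set_option linter.unusedSectionVars false
set_option linter.style.haveILetI false
set_option linter.unusedVariables false

noncomputable section

open ModularCurve AlgebraicCurve IsLocalRing TensorProduct Polynomial

namespace Fermat.Agent.NEB.Geom

open Fermat.Agent.NEB Fermat.Agent.NEB.JH Fermat.Agent.S59 Fermat.Agent.S59.Asm
  Fermat.Agent.S59.Lim Fermat.Agent.S59.Lim.H2

/-- **A-PI**. -/
theorem stmt_A_PI : Stmt_A_PI :=
  Fermat.Agent.NEB.Geom.H15.stmt_A_PI_of Fermat.Agent.NEB.Geom.H14.stmt_PI_WIRE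

/-- **A-SETUP**. -/
theorem stmt_A_SETUP : Stmt_A_SETUP :=
  stmt_A_SETUP_of_eta Fermat.Agent.NEB.Geom.H39.stmt_A_ETA

/-- **A-FROBNIL**. -/
theorem stmt_A_FROBNIL : Stmt_A_FROBNIL := stmt_A_FROBNIL_of_pi stmt_A_PI

/-- **A-LG**. -/
theorem stmt_A_LG : Stmt_A_LG := stmt_A_LG_of_pi stmt_A_PI

/-- The Taylor–Wiles data `TWDiv` over the divisible module of an ARBITRARY level-`N` setup. -/
theorem nonempty_twDiv_final
    (𝒪 : Type) [CommRing 𝒪] [IsDomain 𝒪] [IsDiscreteValuationRing 𝒪]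
    [IsAdicComplete (maximalIdeal 𝒪) 𝒪] [Finite (ResidueField 𝒪)] [CharZero 𝒪]
    (ϖ : 𝒪) (p : ℕ) [Fact p.Prime] (N : ℕ) [NeZero N] (S : Finset ℕ)
    (θ : CuspForm.heckeAlgebra N 2 (↑S : Set ℕ) →+* ResidueField 𝒪)
    (ρbar : ResidualGaloisRep (ResidueField 𝒪)) (hstd : StdHyp 𝒪 ϖ p N S θ ρbar)
    (Dm : MinSetup 𝒪 ϖ p N S θ) (r n : ℕ) (qv : Fin r → ℕ)
    (hfam : Fermat.Agent.S56.IsTWFamily ρbar p n S qv) [NeZero (twLevel N qv)]
    (hint' : CuspForm.HasIntegralStructure (twLevel N qv) 2) :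
    Nonempty (TWDiv 𝒪 ϖ p ρbar N S θ Dm.MD n qv) :=
  nonempty_twDiv_of_eta_pi Fermat.Agent.NEB.Geom.H39.stmt_A_ETA stmt_A_PI
    𝒪 ϖ p N S θ ρbar hstd Dm r n qv hfam hint'

/-- **NEB-GEOM**: `Asm.Stmt_TWGEOM`, unconditionally. -/
theorem stmt_TWGEOM : Fermat.Agent.S59.Asm.Stmt_TWGEOM :=
  stmt_TWGEOM_of_eta_pi Fermat.Agent.NEB.Geom.H39.stmt_A_ETA stmt_A_PI

end Fermat.Agent.NEB.Geom

end
end
-- ==== END Fermat.Agent.NEB.Geom.H84_Final

-- ==== BEGIN Fermat.Agent.S27.Char0.H52_TIPic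
section

/-!
# S27, characteristic-0 half, package TI-PIC (helper52)

For abstract reduction data `S : RedSetup K F k Ft` (helper17) between function fields with
`FFHyp`:

* `stmt_DegPush` : the push-forward of divisors preserves the degree;
* `stmt_GenusEq` : the two Riemann genera agree if the genus does not drop;
* `principal_of_torsion` : a divisor `D` with `m D` principal and `r_* D` principal is principal
  (`m` invertible in `k`) -- from `RedSetup.ticore`;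
* `stmt_TIPic` : `r_*` induces a surjective homomorphism `Pic0 F → Pic0 Ft`, injective on the
  torsion prime to the residue characteristic;
* `stmt_GFF` : the genus of the prelude is Riemann's genus.
-/

set_option autoImplicit false
set_option linter.style.haveILetI false
set_option linter.unusedSectionVars false

noncomputable section

open AlgebraicCurve

attribute [local instance] Classical.propDecidable

namespace Fermat.Agent.S27.Char0.H52

open Fermat.Agent.RED Fermat.Agent.RED.H17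

local notation "L" => riemannRochSpace

universe u v u' v'

/-- **GFF**. -/
theorem stmt_GFF : Stmt_GFF.{u, v} := fun _ _ _ _ _ _ H _ _ hg =>
  Fermat.Agent.S27.RR.H52.genusFF_eq H hg

/-- **DEG-PUSH**. -/
theorem stmt_DegPush : Stmt_DegPush.{u, v, u', v'} := fun _ _ _ _ _ _ _ _ _ _ S H H' D =>
  degree_mapDomain H.deg_one H'.deg_one S.r D

section

variable {K : Type u} {F : Type v} {k : Type u'} {Ft : Type v'} [Field K] [Field F]
  [Algebra K F] [Field k] [Field Ft] [Algebra k Ft]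

/-- The genus does not drop (the other inequality is `RedSetup.genus_le`). -/
theorem genus_ge (S : RedSetup K F k Ft) (H : FFHyp K F) (H' : FFHyp k Ft) [Infinite k] {g : ℕ} {c : ℤ}
    (hR : IsGenus K F g c) {g' : ℕ} {c' : ℤ} (hR' : IsGenus k Ft g' c') : g' ≤ g := by
  obtain ⟨P₀⟩ := Fermat.Agent.S27.RR.H52.exists_place H
  set N : ℕ := (max c c').toNat with hN
  set D : Divisor K F := Finsupp.single P₀ (N : ℤ) with hD
  have hdeg : Divisor.degree D = N := by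
    rw [hD, Divisor.degree_single, H.deg_one, Nat.cast_one, mul_one]
  have h1 := (hR D).2 (by rw [hdeg]; omega)
  have h2 := (hR' (Finsupp.mapDomain S.r D)).2 (by
    rw [degree_mapDomain H.deg_one H'.deg_one, hdeg]; omega)
  rw [degree_mapDomain H.deg_one H'.deg_one] at h2
  rw [hdeg] at h1 h2
  have h3 := S.le_finrank_Rsub H H' _ D rfl
  haveI : Module.Finite k (L (Finsupp.mapDomain S.r D)) := H'.finite _
  have h4 := Submodule.finrank_mono (S.Rsub_le H.principal D)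
  have h5 : (Module.finrank K (L D) : ℤ) ≤ Module.finrank k (L (Finsupp.mapDomain S.r D)) := by
    exact_mod_cast h3.trans h4
  omega

/-- **A torsion divisor class with trivial reduction is trivial** (divisor form). -/
theorem principal_of_torsion (S : RedSetup K F k Ft) (H : FFHyp K F) (H' : FFHyp k Ft) [IsAlgClosed K] [Infinite k]
    {g : ℕ} {c : ℤ} (hR : IsGenus K F g c) {g' : ℕ} {c' : ℤ} (hR' : IsGenus k Ft g' c')
    (hG : S.GenusLE') (m : ℕ) (hm : (m : k) ≠ 0) (D : Divisor K F)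
    (hD : (m : ℤ) • D ∈ Divisor.principal (K := K) (F := F))
    (hrD : Finsupp.mapDomain S.r D ∈ Divisor.principal (K := k) (F := Ft)) :
    D ∈ Divisor.principal (K := K) (F := F) := by
  have hP := H.principal
  have hm0 : m ≠ 0 := by
    rintro rfl
    exact hm Nat.cast_zero
  have hmZ : (m : ℤ) ≠ 0 := by exact_mod_cast hm0
  obtain ⟨f, hf0, hf⟩ := hD
  obtain ⟨h', hh'0, hh'⟩ := hrD
  obtain ⟨h, hhV, hrd⟩ := S.exists_rd_eq h'
  have hGU : S.IsGU h := ⟨hhV, by rw [hrd]; exact hh'0⟩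
  have hh0 : h ≠ 0 := hGU.ne_zero
  have hf1 : f / h ^ m ≠ 0 := div_ne_zero hf0 (pow_ne_zero _ hh0)
  obtain ⟨c₁, hc₁, huGU⟩ := S.exists_isGU_scale hf1
  set u : F := algebraMap K F c₁ * (f / h ^ m) with hu
  have hord_u : ∀ P : Place K F, P.ord u = (m : ℤ) * (D P - P.ord h) := by
    intro P
    rw [hu, ord_algebraMap_mul P hc₁, H17.ord_div P hf0 (pow_ne_zero _ hh0), H17.ord_pow, ← hf P,
      Finsupp.smul_apply, smul_eq_mul]
    ring
  -- the reduction of `u` has no zeros and no poles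
  have hrdu : ∀ Q : Place k Ft, Q.ord (S.rd u) = 0 := by
    intro Q
    have e1 : dv hP u = (m : ℤ) • (D - dv hP h) := by
      ext P
      rw [dv_apply, hord_u, Finsupp.smul_apply, Finsupp.sub_apply, dv_apply, smul_eq_mul]
    rw [← S.mapDomain_dv hP huGU Q, e1, Finsupp.mapDomain_smul, Finsupp.smul_apply,
      Finsupp.mapDomain_sub, Finsupp.sub_apply, S.mapDomain_dv hP hGU Q, hh' Q, hrd, sub_self,
      smul_zero]
  obtain ⟨c', hc'⟩ := H'.const_of_regular (fun Q => (hrdu Q).ge)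
  obtain ⟨c₀, hc₀V, hc₀⟩ := S.exists_const_lift c'
  have hc₀GU : S.IsGU (algebraMap K F c₀) := ⟨hc₀V, by rw [hc₀, ← hc']; exact huGU.2⟩
  have hc₀0 : c₀ ≠ 0 := by
    rintro rfl
    rw [map_zero] at hc₀GU
    exact hc₀GU.ne_zero rfl
  set u₁ : F := u / algebraMap K F c₀ with hu₁
  have hu₁GU : S.IsGU u₁ := huGU.div hc₀GU
  have hu₁rd : S.rd u₁ = 1 := by
    rw [hu₁, huGU.rd_div hc₀GU, hc₀, ← hc', div_self huGU.2]
  have hord_u₁ : ∀ P : Place K F, P.ord u₁ = (m : ℤ) * (D P - P.ord h) := by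
    intro P
    rw [hu₁, H17.ord_div P huGU.ne_zero hc₀GU.ne_zero, H17.ord_algebraMap, sub_zero, hord_u]
  obtain ⟨t, ht⟩ := S.ticore H H' hR hR' hG m hm u₁ hu₁GU.1 hu₁rd
    (fun P => ⟨_, hord_u₁ P⟩)
  have ht0 : t ≠ 0 := by
    rintro rfl
    rw [zero_pow hm0] at ht
    exact hu₁GU.ne_zero ht.symm
  refine ⟨t * h, mul_ne_zero ht0 hh0, fun P => ?_⟩
  have h1 := hord_u₁ P
  rw [← ht, H17.ord_pow] at h1
  have h2 : P.ord t = D P - P.ord h := mul_left_cancel₀ hmZ h1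
  rw [P.ord_mul ht0 hh0, h2]
  ring

/-- The push-forward of a principal divisor is principal. -/
theorem mapDomain_mem_principal (S : RedSetup K F k Ft) (H : FFHyp K F) {D : Divisor K F}
    (hD : D ∈ Divisor.principal (K := K) (F := F)) :
    Finsupp.mapDomain S.r D ∈ Divisor.principal (K := k) (F := Ft) := by
  have hP := H.principal
  obtain ⟨f, hf0, hf⟩ := hD
  obtain ⟨c₁, hc₁, huGU⟩ := S.exists_isGU_scale hf0
  have e : D = dv hP (algebraMap K F c₁ * f) := by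
    ext P
    rw [dv_apply, ord_algebraMap_mul P hc₁, hf P]
  refine ⟨S.rd (algebraMap K F c₁ * f), huGU.2, fun Q => ?_⟩
  rw [e, S.mapDomain_dv hP huGU Q]

/-- The push-forward on divisors of degree `0`. -/
def pushZero (S : RedSetup K F k Ft) (H : FFHyp K F) (H' : FFHyp k Ft) :
    Divisor.degZero (K := K) (F := F) →+ Divisor.degZero (K := k) (F := Ft) :=
  ((Finsupp.mapDomain.addMonoidHom S.r).comp
      (Divisor.degZero (K := K) (F := F)).subtype).codRestrict _ (fun D => by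
    rw [Divisor.mem_degZero]
    show Divisor.degree (Finsupp.mapDomain S.r (D : Divisor K F)) = 0
    rw [degree_mapDomain H.deg_one H'.deg_one]
    exact D.2)

theorem pushZero_coe (S : RedSetup K F k Ft) (H : FFHyp K F) (H' : FFHyp k Ft)
    (D : Divisor.degZero (K := K) (F := F)) :
    ((pushZero S H H' D : Divisor.degZero (K := k) (F := Ft)) : Divisor k Ft)
      = Finsupp.mapDomain S.r (D : Divisor K F) := rfl

/-- The push-forward on `Pic0`. -/
def pushPic (S : RedSetup K F k Ft) (H : FFHyp K F) (H' : FFHyp k Ft) :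
    Pic0 K F →+ Pic0 k Ft :=
  QuotientAddGroup.map _ _ (pushZero S H H') (by
    intro D hD
    rw [AddSubgroup.mem_comap, AddSubgroup.mem_addSubgroupOf, pushZero_coe]
    exact mapDomain_mem_principal S H (AddSubgroup.mem_addSubgroupOf.mp hD))

theorem pushPic_mk (S : RedSetup K F k Ft) (H : FFHyp K F) (H' : FFHyp k Ft)
    (D : Divisor.degZero (K := K) (F := F)) :
    pushPic S H H' (Pic0.mk D) = Pic0.mk (pushZero S H H' D) := rfl

theorem pic0_mk_eq_zero_iff {K : Type u} {F : Type v} [Field K] [Field F] [Algebra K F]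
    (D : Divisor.degZero (K := K) (F := F)) :
    Pic0.mk D = 0 ↔ (D : Divisor K F) ∈ Divisor.principal (K := K) (F := F) := by
  unfold Pic0.mk
  rw [QuotientAddGroup.eq_zero_iff, AddSubgroup.mem_addSubgroupOf]

theorem pushPic_surjective (S : RedSetup K F k Ft) (H : FFHyp K F) (H' : FFHyp k Ft) :
    Function.Surjective (pushPic S H H') := by
  intro y
  obtain ⟨⟨E, hE⟩, rfl⟩ := Pic0.mk_surjective y
  have hsur := S.r_surjective H.principal
  choose σ hσ using hsur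
  have hrD : Finsupp.mapDomain S.r (Finsupp.mapDomain σ E) = E := by
    rw [← Finsupp.mapDomain_comp]
    have : S.r ∘ σ = id := funext hσ
    rw [this, Finsupp.mapDomain_id]
  have hdeg : Finsupp.mapDomain σ E ∈ Divisor.degZero (K := K) (F := F) := by
    rw [Divisor.mem_degZero, ← degree_mapDomain H.deg_one H'.deg_one S.r, hrD]
    exact hE
  refine ⟨Pic0.mk ⟨Finsupp.mapDomain σ E, hdeg⟩, ?_⟩
  rw [pushPic_mk]
  congr 1
  exact Subtype.ext hrD

end

/-- **GENUS-EQ**. -/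
theorem stmt_GenusEq : Stmt_GenusEq.{u, v, u', v'} := by
  intro K F k Ft _ _ _ _ _ _ _ _ S H H' g c g' c' hR hR' hG
  haveI : Infinite k := IsAlgClosed.instInfinite
  exact le_antisymm (genus_ge S H H' hR hR') (S.genus_le H H' hR hR' hG)

/-- **TI-PIC**. -/
theorem stmt_TIPic : Stmt_TIPic.{u, v, u', v'} := by
  intro K F k Ft _ _ _ _ _ _ _ _ S H H' g c g' c' hR hR' hG
  haveI : Infinite k := IsAlgClosed.instInfinite
  refine ⟨pushPic S H H', ?_, pushPic_surjective S H H', ?_⟩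
  · intro D hD
    exact ⟨(pushZero S H H' ⟨D, hD⟩).2, rfl⟩
  · intro m hm x hx hρ
    obtain ⟨D, rfl⟩ := Pic0.mk_surjective x
    rw [pic0_mk_eq_zero_iff]
    rw [pushPic_mk, pic0_mk_eq_zero_iff, pushZero_coe] at hρ
    have hx' : Pic0.mk ((m : ℤ) • D) = 0 := hx
    rw [pic0_mk_eq_zero_iff] at hx'
    exact principal_of_torsion S H H' hR hR' hG m hm D hx' hρ

end Fermat.Agent.S27.Char0.H52

end
end
-- ==== END Fermat.Agent.S27.Char0.H52_TIPic

-- ==== BEGIN Fermat.Agent.S27.Char0.Lift.Defs2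
section

/-!
# S27 LIFT (owner helper45): sub-leaves of GENERIC

* **RAMFIN** (`Stmt_RamFin`): for `Ft / k(xt)` finite separable, all but finitely many places
  `Q` of `Ft` are simple `α`-points of `xt` for some `α ∈ k` (i.e. `xt` is regular and
  unramified at `Q`).

Route for RAMFIN (no differentials): a primitive element `y`, integral over `k[xt]`, with
minimal polynomial `f ∈ k[xt][Y]` of degree `N = [Ft : k(xt)]`; Bezout `U f + V f' = d` with
`0 ≠ d ∈ k[xt]`.  For `α` with `d(α) ≠ 0` the polynomial `f(α, Y)` has `N` distinct roots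
`β_i`; `N(y - β_i) = ± f(xt, β_i)` vanishes at `xt = α`, so by the norm formula there is a place
`Q_i` over `α` with `y(Q_i) = β_i`; these are `N` distinct zeros of `xt - α`, and the zeros
theorem (`∑ ord = N`) shows that they are all the zeros and that they are simple.  The bad set
is: poles of `xt`, zeros of `d(xt)`.
-/

set_option autoImplicit false

noncomputable section

open AlgebraicCurve IntermediateField

namespace Fermat.Agent.S27.Char0.Lift

open Fermat.Agent.RED.H17 Fermat.Agent.S27.Char0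

universe u' v'

/-- **RAMFIN**: all but finitely many places are simple `α`-points of `xt`. -/
def Stmt_RamFin : Prop :=
  ∀ (k : Type u') (Ft : Type v') [Field k] [Field Ft] [Algebra k Ft] [IsAlgClosed k],
    FFHyp k Ft → ∀ (xt : Ft), Transcendental k xt → Module.Finite k⟮xt⟯ Ft →
    Algebra.IsSeparable k⟮xt⟯ Ft →
    ∃ T : Finset (Place k Ft), ∀ Q : Place k Ft, Q ∉ T →
      ∃ α : k, Q.ord (xt - algebraMap k Ft α) = 1

end Fermat.Agent.S27.Char0.Lift

end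
end
-- ==== END Fermat.Agent.S27.Char0.Lift.Defs2

-- ==== BEGIN Fermat.Agent.S27.Char0.Lift.H64_EvalID
section

/-!
# S27 LIFT / SOLVE, sub-leaf EVAL-ID (helper64)

`stmt_EvalID : Solve.Stmt_EvalID`: values and partial derivatives of the reduced norm system.
-/

set_option autoImplicit false

noncomputable section

namespace Fermat.Agent.S27.Char0.Lift.H64

open Fermat.Agent.S27.Lift.H68 MvPolynomial

universe u u' v'

/-- Evaluation of a base-changed polynomial at a base-changed point. -/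
theorem eval_map_comp {R S : Type*} [CommRing R] [CommRing S] {σ : Type*} (φ : R →+* S)
    (t : σ → R) (p : MvPolynomial σ R) :
    eval (fun j => φ (t j)) (map φ p) = φ (eval t p) := by
  rw [eval_map, ← coe_eval₂Hom, eval₂Hom]
  change eval₂ φ (fun j => φ (t j)) p = φ (eval t p)
  rw [eval, coe_eval₂Hom]
  exact (eval₂_comp_left φ (RingHom.id R) t p).symm ▸ by
    simp [Function.comp_def]

theorem pderiv_C_mul' {R : Type*} [CommRing R] {σ : Type*} (j : σ) (a : R)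
    (p : MvPolynomial σ R) : pderiv j (C a * p) = C a * pderiv j p := by
  rw [Derivation.leibniz, pderiv_C, smul_zero, add_zero, smul_eq_mul]

/-- **EVAL-ID**. -/
theorem stmt_EvalID : Solve.Stmt_EvalID.{u, u', v'} := by
  intro k Ft _ _ _ E O _ res N M d Φ xt rD βt rf hid τ
  classical
  set τF : Fin N → Ft := fun j => algebraMap k Ft (τ j) with hτF
  set τE : Fin N → ↥E := fun j => algebraMap k ↥E (τ j) with hτE
  have hτEF : τF = fun j => algebraMap ↥E Ft (τE j) := by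
    funext j
    rw [hτF, hτE]
    exact IsScalarTower.algebraMap_apply k ↥E Ft (τ j)
  have hsum : ∑ j, τE j • rf j = ∑ j, algebraMap k Ft (τ j) * rf j := by
    refine Finset.sum_congr rfl fun j _ => ?_
    rw [Algebra.smul_def, hτE, ← IsScalarTower.algebraMap_apply]
  have hmap : ∀ e, map ((algebraMap k Ft).comp res) (Φ e) =
      map (algebraMap k Ft) (map res (Φ e)) := fun e => (map_map _ _ _).symm
  refine ⟨?_, fun hinv hh j => ?_⟩
  · have h1 := congrArg (eval τF) hid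
    rw [map_sum, map_mul, eval_C] at h1
    simp only [map_mul, eval_C, hmap] at h1
    rw [hτEF, eval_map_comp (algebraMap ↥E Ft) τE, eval_normFormAlg, hsum, ← hτEF] at h1
    rw [← h1]
    refine Finset.sum_congr rfl fun e _ => ?_
    rw [hτF, eval_map_comp (algebraMap k Ft) τ, mul_comm]
  · have h1 := congrArg (fun p => eval τF (pderiv j p)) hid
    simp only [map_sum, pderiv_C_mul', hmap, pderiv_map, map_mul, eval_C] at h1
    rw [hτEF, eval_map_comp (algebraMap ↥E Ft) τE,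
      eval_pderiv_normFormAlg βt rf τE hinv (by rw [hsum]; exact hh) j, hsum, ← hτEF,
      map_mul, ← mul_assoc] at h1
    rw [← h1]
    refine Finset.sum_congr rfl fun e _ => ?_
    rw [hτF, eval_map_comp (algebraMap k Ft) τ, mul_comm, pderiv_map]

end Fermat.Agent.S27.Char0.Lift.H64

end
end
-- ==== END Fermat.Agent.S27.Char0.Lift.H64_EvalID

-- ==== BEGIN Fermat.Agent.S27.CharP.H38_PhiOrb
section

set_option autoImplicit false
set_option linter.style.haveILetI false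

noncomputable section

open AlgebraicCurve Polynomial

attribute [local instance] Classical.propDecidable

namespace Fermat.Agent.S27.CharP.H38

open Fermat.Agent.RED.H17 Fermat.Agent.RED Fermat.Agent.S27.CharP

universe u v

section Basic

variable {k : Type u} {F : Type v} [Field k] [Field F] [Algebra k F]
  {p Q : ℕ} {φ : SemilinearAut k F}

/-- `φ ^ n` is `a ↦ a ^ (Q ^ n)` on the constants. -/
theorem baseAut_pow_apply (hφ : IsFrob p Q φ) (n : ℕ) (a : k) :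
    SemilinearAut.baseAut (φ ^ n) a = a ^ (Q ^ n) := by
  induction n generalizing a with
  | zero => simp
  | succ n ih =>
    rw [pow_succ, SemilinearAut.baseAut_mul, RingAut.mul_apply, hφ.base, ih, ← pow_mul,
      pow_succ, mul_comm]

theorem smul_pow_algebraMap (hφ : IsFrob p Q φ) (n : ℕ) (a : k) :
    (φ ^ n) • algebraMap k F a = algebraMap k F (a ^ (Q ^ n)) := by
  rw [SemilinearAut.smul_algebraMap, baseAut_pow_apply hφ]

theorem two_le_Q (hp : p.Prime) (hφ : IsFrob p Q φ) : 2 ≤ Q := by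
  obtain ⟨a, ha, rfl⟩ := hφ.pow
  calc 2 ≤ p := hp.two_le
    _ = p ^ 1 := (pow_one p).symm
    _ ≤ p ^ a := Nat.pow_le_pow_right hp.pos ha

/-- If `ψ x = x` then `ψ ^ j x = x`. -/
theorem pow_smul_eq_of_smul_eq {X : Type*} [MulAction (SemilinearAut k F) X]
    {ψ : SemilinearAut k F} {x : X} (h : ψ • x = x) (j : ℕ) : (ψ ^ j) • x = x := by
  induction j with
  | zero => simp
  | succ j ih => rw [pow_succ, mul_smul, h, ih]

/-- The constants are fixed by a power of `φ`. -/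
theorem exists_pow_eq (hφ : IsFrob p Q φ) (a : k) : ∃ n : ℕ, 0 < n ∧ a ^ (Q ^ n) = a := by
  obtain ⟨n, hn, h⟩ := hφ.orbit (algebraMap k F a)
  rw [smul_pow_algebraMap hφ] at h
  exact ⟨n, hn, (algebraMap k F).injective h⟩

/-- `φ ^ m` is a Frobenius structure for `Q ^ m`. -/
theorem isFrob_pow (hφ : IsFrob p Q φ) {m : ℕ} (hm : 0 < m) : IsFrob p (Q ^ m) (φ ^ m) := by
  refine ⟨?_, fun a => baseAut_pow_apply hφ m a, fun x => ?_⟩
  · obtain ⟨a, ha, rfl⟩ := hφ.pow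
    exact ⟨a * m, Nat.mul_pos ha hm, by rw [pow_mul]⟩
  · obtain ⟨n, hn, h⟩ := hφ.orbit x
    refine ⟨n, hn, ?_⟩
    rw [← pow_mul, mul_comm, pow_mul]
    exact pow_smul_eq_of_smul_eq h m

end Basic

section Orbits

variable {k : Type u} {F : Type v} [Field k] [Field F] [Algebra k F]
  {p Q : ℕ} {φ : SemilinearAut k F}

/-- The places at which a non-zero function has a zero or a pole form a finite set. -/
theorem finite_ord_ne_zero (hP : HasPrincipalDivisors k F) {y : F} (hy : y ≠ 0) :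
    {v : Place k F | v.ord y ≠ 0}.Finite := by
  obtain ⟨D, hD, -⟩ := hP.exists_divisor y hy
  refine D.support.finite_toSet.subset fun v hv => ?_
  rw [Finset.mem_coe, Finsupp.mem_support_iff, hD v]
  exact hv

/-- **PHI-ORB, first half**: every place has a finite orbit. -/
theorem exists_pow_smul_place_eq (hP : HasPrincipalDivisors k F) (hφ : IsFrob p Q φ)
    (P : Place k F) : ∃ m : ℕ, 0 < m ∧ (φ ^ m) • P = P := by
  obtain ⟨π, hπ⟩ := IsDiscreteValuationRing.exists_irreducible P.toValuationSubring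
  have hord : P.ord (π : F) = 1 := P.ord_coe_irreducible hπ
  have hy0 : (π : F) ≠ 0 := by
    intro h0
    rw [h0, Place.ord_zero] at hord
    exact zero_ne_one hord
  obtain ⟨n, hn, hfix⟩ := hφ.orbit (π : F)
  set ψ : SemilinearAut k F := φ ^ n with hψ
  have hfin := _root_.Fermat.Agent.S27.CharP.H38.finite_ord_ne_zero hP hy0
  -- `ψ` preserves the zero set
  have hmem : ∀ j : ℕ, (ψ ^ j) • P ∈ {v : Place k F | v.ord (π : F) ≠ 0} := by
    intro j
    have h1 : ((ψ ^ j) • P).ord ((ψ ^ j) • (π : F)) = P.ord (π : F) :=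
      SemilinearAut.ord_smul (ψ ^ j) P (π : F)
    rw [pow_smul_eq_of_smul_eq hfix j] at h1
    show ((ψ ^ j) • P).ord (π : F) ≠ 0
    rw [h1, hord]
    exact one_ne_zero
  haveI : Finite {v : Place k F | v.ord (π : F) ≠ 0} := hfin.to_subtype
  obtain ⟨i, j, hij, heq⟩ := Finite.exists_ne_map_eq_of_infinite
    (fun j : ℕ => (⟨(ψ ^ j) • P, hmem j⟩ : {v : Place k F | v.ord (π : F) ≠ 0}))
  have heq' : (ψ ^ i) • P = (ψ ^ j) • P := congrArg Subtype.val heq
  -- cancel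
  have key : ∀ a b : ℕ, a < b → (ψ ^ a) • P = (ψ ^ b) • P → (ψ ^ (b - a)) • P = P := by
    intro a b hab h
    have e : ψ ^ b = ψ ^ a * ψ ^ (b - a) := by
      rw [← pow_add, Nat.add_sub_cancel' hab.le]
    rw [e, mul_smul] at h
    exact (smul_left_cancel _ h).symm
  rcases Nat.lt_or_gt_of_ne hij with h | h
  · refine ⟨n * (j - i), Nat.mul_pos hn (Nat.sub_pos_of_lt h), ?_⟩
    rw [pow_mul]
    exact key i j h heq'
  · refine ⟨n * (i - j), Nat.mul_pos hn (Nat.sub_pos_of_lt h), ?_⟩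
    rw [pow_mul]
    exact key j i h heq'.symm

/-- Every divisor is fixed by a power of `φ`. -/
theorem exists_pow_smul_divisor_eq (hP : HasPrincipalDivisors k F) (hφ : IsFrob p Q φ)
    (D : Divisor k F) : ∃ m : ℕ, 0 < m ∧ (φ ^ m) • D = D := by
  induction D using Finsupp.induction with
  | zero => exact ⟨1, one_pos, smul_zero _⟩
  | single_add v c D _ _ ih =>
    obtain ⟨m₁, hm₁, h₁⟩ := ih
    obtain ⟨m₂, hm₂, h₂⟩ := exists_pow_smul_place_eq hP hφ v
    refine ⟨m₂ * m₁, Nat.mul_pos hm₂ hm₁, ?_⟩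
    rw [smul_add, SemilinearAut.smul_single]
    congr 1
    · rw [pow_mul]
      rw [pow_smul_eq_of_smul_eq h₂ m₁]
    · rw [mul_comm, pow_mul]
      exact pow_smul_eq_of_smul_eq h₁ m₂

/-- **PHI-ORB, second half**: a power of `φ` fixes finitely many places. -/
theorem finite_fixed_places (H : FFHyp k F) (hp : p.Prime) (hφ : IsFrob p Q φ) {m : ℕ}
    (hm : 0 < m) : {P : Place k F | (φ ^ m) • P = P}.Finite := by
  obtain ⟨x, hx⟩ := H.transc
  obtain ⟨n, hn, hfix⟩ := hφ.orbit x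
  have hQ := two_le_Q hp hφ
  set q : ℕ := Q ^ (n * m) with hq
  have hq2 : 2 ≤ q := by
    have h1 : 0 < n * m := Nat.mul_pos hn hm
    calc 2 ≤ Q := hQ
      _ = Q ^ 1 := (pow_one Q).symm
      _ ≤ Q ^ (n * m) := Nat.pow_le_pow_right (by omega) h1
  -- `x - a` is not zero
  have hxa : ∀ a : k, x - algebraMap k F a ≠ 0 := by
    intro a h0
    apply hx
    rw [sub_eq_zero] at h0
    rw [h0]
    exact isAlgebraic_algebraMap a
  have hx0 : x ≠ 0 := by
    have := hxa 0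
    rwa [map_zero, sub_zero] at this
  -- the finite set of constants
  have hpoly : (X ^ q - X : k[X]) ≠ 0 := by
    intro h0
    have h1 := congrArg (fun f : k[X] => f.coeff 1) h0
    have hq1 : ¬ (1 = q) := by omega
    simp only [coeff_sub, coeff_X_pow, if_neg hq1, coeff_X_one, coeff_zero, zero_sub,
      neg_eq_zero] at h1
    exact one_ne_zero h1
  have hE : {a : k | a ^ q = a}.Finite := by
    refine (Polynomial.finite_setOfPred_isRoot hpoly).subset fun a ha => ?_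
    show IsRoot (X ^ q - X : k[X]) a
    rw [IsRoot.def, eval_sub, eval_pow, eval_X, sub_eq_zero]
    exact ha
  -- the finite set of places
  have hfinS : ({v : Place k F | v.ord x ≠ 0} ∪
      ⋃ a ∈ {a : k | a ^ q = a}, {v : Place k F | v.ord (x - algebraMap k F a) ≠ 0}).Finite :=
    (_root_.Fermat.Agent.S27.CharP.H38.finite_ord_ne_zero H.principal hx0).union
      (hE.biUnion fun a _ => _root_.Fermat.Agent.S27.CharP.H38.finite_ord_ne_zero H.principal (hxa a))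
  refine hfinS.subset fun P hP => ?_
  have hP' : (φ ^ m) • P = P := hP
  -- `ψ = φ ^ (n m)` fixes `x` and `P`
  have hψP : (φ ^ (n * m)) • P = P := by
    rw [mul_comm, pow_mul]
    exact pow_smul_eq_of_smul_eq hP' n
  have hψx : (φ ^ (n * m)) • x = x := by
    rw [pow_mul]
    exact pow_smul_eq_of_smul_eq hfix m
  by_cases hreg : 0 ≤ P.ord x
  · right
    obtain ⟨a, ha⟩ := exists_value P (H.deg_one P) (regAt_of_ord_nonneg hreg)
    -- apply `ψ`
    have h1 : ((φ ^ (n * m)) • P).ord ((φ ^ (n * m)) • (x - algebraMap k F a)) =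
        P.ord (x - algebraMap k F a) := SemilinearAut.ord_smul _ P _
    rw [hψP, smul_sub, hψx, smul_pow_algebraMap hφ] at h1
    have hpos : 0 < P.ord (x - algebraMap k F a) := ha.ord_pos (hxa a)
    have ha' : VanAt P (x - algebraMap k F (a ^ Q ^ (n * m))) :=
      vanAt_of_ord_pos (by rw [h1]; exact hpos)
    have haq : a ^ q = a := value_unique P ha' ha
    refine Set.mem_iUnion₂.2 ⟨a, haq, ?_⟩
    show P.ord (x - algebraMap k F a) ≠ 0
    omega
  · left
    show P.ord x ≠ 0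
    omega

end Orbits

/-- Leaf **PHI-ORB**. -/
theorem stmt_PhiOrb : Stmt_PhiOrb.{u, v} := by
  intro k F _ _ _ _ p _ hp H Q φ hφ
  exact ⟨fun P => exists_pow_smul_place_eq H.principal hφ P,
    fun m hm => finite_fixed_places H hp hφ hm⟩

end Fermat.Agent.S27.CharP.H38

end
end
-- ==== END Fermat.Agent.S27.CharP.H38_PhiOrb

-- ==== BEGIN Fermat.Agent.S27.CharP.H41_FrobEx
section

/-!
# S27 char-p half, leaf FROB-EX (helper41): existence of a Frobenius structure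

`k` algebraically closed of characteristic `p`, algebraic over `𝔽_p`; `F / k` a function field
(finite over `k(x)`, `x` transcendental).  Then `F` has a Frobenius structure: a ring
automorphism `Φ` with `Φ a = a ^ Q` on `k` (`Q = p ^ a`, `a > 0`) and finite orbits.

Proof: Frobenius on the coefficients of `k(x) ≅ RatFunc k` has finite orbits (part B); a power of
it fixes the structure constants of a basis of `F / k(x)` and extends to `F` coordinatewise
(part A).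
-/

set_option autoImplicit false
set_option linter.style.haveILetI false

noncomputable section

open AlgebraicCurve IntermediateField

namespace Fermat.Agent.S27.CharP.H41

universe u v

/-- **FROB-EX.** -/
theorem stmt_FrobEx : Stmt_FrobEx.{u, v} := by
  intro k F _ _ _ _ p _ hp hk hx
  obtain ⟨x, hx, hfin⟩ := hx
  haveI : Fact p.Prime := ⟨hp⟩
  haveI : ExpChar k p := ExpChar.prime hp
  haveI : PerfectRing k p := inferInstance
  let e : RatFunc k ≃ₐ[k] k⟮x⟯ := RatFunc.algEquivOfTranscendental x hx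
  letI a1 : Algebra (RatFunc k) k⟮x⟯ := (e : RatFunc k →+* k⟮x⟯).toAlgebra
  letI a2 : Algebra (RatFunc k) F :=
    ((algebraMap k⟮x⟯ F).comp (algebraMap (RatFunc k) k⟮x⟯)).toAlgebra
  haveI : IsScalarTower (RatFunc k) k⟮x⟯ F := IsScalarTower.of_algebraMap_eq fun _ => rfl
  haveI : Module.Finite (RatFunc k) k⟮x⟯ :=
    Module.Finite.of_surjective (Algebra.linearMap (RatFunc k) k⟮x⟯) e.surjective
  haveI : Module.Finite (RatFunc k) F := Module.Finite.trans k⟮x⟯ F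
  have hconst : ∀ c : k, algebraMap k F c
      = algebraMap (RatFunc k) F (algebraMap k (RatFunc k) c) := by
    intro c
    have h1 : algebraMap (RatFunc k) F (algebraMap k (RatFunc k) c)
        = algebraMap k⟮x⟯ F (e (algebraMap k (RatFunc k) c)) := rfl
    rw [h1, e.commutes, ← IsScalarTower.algebraMap_apply]
  obtain ⟨a, Φ, ha, hΦ, hper⟩ := exists_periodic_extension (E := RatFunc k) (F := F)
    (ratFrob k p) (ratFrob_periodic hk)
  have hmem : ((Φ, iterateFrobeniusEquiv k p a) : RingAut F × RingAut k)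
      ∈ SemilinearAut k F := by
    intro c
    show Φ (algebraMap k F c) = algebraMap k F (c ^ p ^ a)
    rw [hconst, hΦ, ratFrob_pow_const, ← hconst]
  refine ⟨p ^ a, ⟨_, hmem⟩, ⟨a, ha, rfl⟩, fun c => rfl, fun y => ?_⟩
  obtain ⟨n, hn, h⟩ := hper y
  refine ⟨n, hn, ?_⟩
  have h1 : ∀ (m : ℕ) (z : F),
      ((⟨_, hmem⟩ : SemilinearAut k F) ^ m) • z = (Φ ^ m) z := by
    intro m
    induction m with
    | zero => intro z; rfl
    | succ m ih =>
      intro z
      rw [pow_succ', mul_smul, ih, pow_succ', RingAut.mul_apply]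
      rfl
  rw [h1, h]

end Fermat.Agent.S27.CharP.H41

end
end
-- ==== END Fermat.Agent.S27.CharP.H41_FrobEx

-- ==== BEGIN Fermat.Agent.S27.CharP.H62_CountP
section

set_option autoImplicit false

noncomputable section

open AlgebraicCurve IntermediateField

namespace Fermat.Agent.S27.CharP.H62

open Fermat.Agent.RED.H17 Fermat.Agent.S27 Fermat.Agent.S27.CharP

universe u v

variable {k : Type u} {F : Type v} [Field k] [Field F] [Algebra k F]

theorem baseAut_pow (φ : SemilinearAut k F) (m : ℕ) :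
    SemilinearAut.baseAut (φ ^ m) = (SemilinearAut.baseAut φ) ^ m := by
  induction m with
  | zero => rfl
  | succ m ih => rw [pow_succ, SemilinearAut.baseAut_mul, ih, pow_succ]

theorem pow_smul_of_fixed {α : Type*} [MulAction (SemilinearAut k F) α]
    (ψ : SemilinearAut k F) {x : α} (h : ψ • x = x) (m : ℕ) : (ψ ^ m) • x = x := by
  induction m with
  | zero => rw [pow_zero, one_smul]
  | succ m ih => rw [pow_succ, mul_smul, h, ih]

/-- the powers of a Frobenius structure are Frobenius structures -/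
theorem isFrob_pow {p Q : ℕ} {φ : SemilinearAut k F} (h : IsFrob p Q φ) (m : ℕ) (hm : 0 < m) :
    IsFrob p (Q ^ m) (φ ^ m) where
  pow := by
    obtain ⟨a, ha, rfl⟩ := h.pow
    exact ⟨a * m, Nat.mul_pos ha hm, (pow_mul p a m).symm⟩
  base := by
    rw [baseAut_pow]
    have key : ∀ j : ℕ, ∀ a : k, ((SemilinearAut.baseAut φ) ^ j) a = a ^ (Q ^ j) := by
      intro j
      induction j with
      | zero => intro a; simp
      | succ j ih =>
        intro a
        rw [pow_succ, RingAut.mul_apply, h.base, ih, ← pow_mul, pow_succ, mul_comm]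
    exact key m
  orbit := fun x => by
    obtain ⟨n, hn, hx⟩ := h.orbit x
    refine ⟨n, hn, ?_⟩
    rw [← pow_mul, mul_comm, pow_mul]
    exact pow_smul_of_fixed (φ ^ n) hx m

theorem stmt_CountP_of (hFrob : Stmt_FrobEx.{u, v}) (hOrb : Stmt_PhiOrb.{u, v})
    (hSys : Stmt_Sys.{u, v}) (hMain : Zeta.Stmt_Z_Main.{v}) : Stmt_CountP.{u, v} := by
  intro k F _ _ _ _ p _ hp halg hFF H g c hg ℓ hℓ hℓp j
  obtain ⟨Q, φ, hφ⟩ := hFrob k F p hp halg hFF
  have : Infinite k := IsAlgClosed.instInfinite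
  have : Infinite (Place k F) := H.infinite_place
  obtain ⟨P⟩ : Nonempty (Place k F) := inferInstance
  obtain ⟨horb, -⟩ := hOrb k F p hp H Q φ hφ
  obtain ⟨m, hm, hP⟩ := horb P
  have hφm : IsFrob p (Q ^ m) (φ ^ m) := isFrob_pow hφ m hm
  obtain ⟨S, -, h2, h3, h4, h5⟩ := hSys k F p hp H g c hg (Q ^ m) (φ ^ m) hφm ⟨P, hP⟩
  have : Fact ℓ.Prime := ⟨hℓ⟩
  have hnd : ¬ ℓ ∣ S.Q := by
    rw [h4]
    obtain ⟨a, -, rfl⟩ := hφ.pow
    intro h
    have h1 : ℓ ∣ p := hℓ.dvd_of_dvd_pow (hℓ.dvd_of_dvd_pow h)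
    exact hℓp ((Nat.prime_dvd_prime_iff_eq hℓ hp).mp h1)
  have key := hMain (Place k F) S ℓ hnd j
  obtain ⟨φS, degS, PrS, lS, QS, gS, WS, a1, a2, a3, a4, a5, a6, a7, a8, a9, a10, a11, a12, a13⟩ := S
  simp only at h2 h3 h5
  subst h2 h3 h5
  have key' : Nat.card {x : Pic0 k F // (ℓ ^ j) • x = 0} = ℓ ^ (2 * gS * j) := key
  rw [← key']
  refine Nat.card_congr (Equiv.subtypeEquivRight fun x => ?_)
  rw [Pic0.mem_torsion, natCast_zsmul]

end Fermat.Agent.S27.CharP.H62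

end
end
-- ==== END Fermat.Agent.S27.CharP.H62_CountP

-- ==== BEGIN Fermat.Agent.S27.IW.H68_Growth
section

set_option autoImplicit false
set_option linter.unusedSectionVars false
set_option linter.unusedVariables false
set_option linter.style.haveILetI false

namespace Fermat.Agent.S27.IW.H68

variable {G : Type*} [AddCommGroup G]

/-- `T_j`: the `ℓ`-primary elements fixed by `Φ^(ℓ^j)` -/
def Tj (ℓ : ℕ) (Φ : Module.End ℤ G) (j : ℕ) : AddSubgroup G :=
  fixE (Φ ^ (ℓ ^ j)) ⊓ prim G ℓ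

theorem mem_Tj {ℓ : ℕ} {Φ : Module.End ℤ G} {j : ℕ} {x : G} :
    x ∈ Tj ℓ Φ j ↔ (Φ ^ (ℓ ^ j)) x = x ∧ ∃ k : ℕ, (ℓ ^ k) • x = 0 := Iff.rfl

/-- the growth hypothesis -/
structure Growth (ℓ : ℕ) (Φ : Module.End ℤ G) (n c₀ : ℕ) : Prop where
  fin : ∀ j, Finite ↥(Tj ℓ Φ j)
  card : ∀ j, Nat.card ↥(Tj ℓ Φ j) = ℓ ^ (c₀ + n * j)
  cover : ∀ x ∈ prim G ℓ, ∃ j, x ∈ fixE (Φ ^ (ℓ ^ j))

theorem fixE_mono (ℓ : ℕ) (Φ : Module.End ℤ G) {j j' : ℕ} (h : j ≤ j') :
    fixE (Φ ^ (ℓ ^ j)) ≤ fixE (Φ ^ (ℓ ^ j')) := by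
  obtain ⟨d, rfl⟩ := Nat.exists_eq_add_of_le h
  rw [pow_add]
  exact fixE_pow_le Φ _ _

theorem Tj_mono (ℓ : ℕ) (Φ : Module.End ℤ G) {j j' : ℕ} (h : j ≤ j') :
    Tj ℓ Φ j ≤ Tj ℓ Φ j' :=
  inf_le_inf_right _ (fixE_mono ℓ Φ h)

/-- the filtration of `G[ℓ]` by the kernels of `(Φ - 1)^i` -/
def Kf (ℓ : ℕ) (Φ : Module.End ℤ G) (i : ℕ) : AddSubgroup G where
  carrier := {x | ℓ • x = 0 ∧ ((Φ - 1) ^ i) x = 0}
  zero_mem' := ⟨smul_zero _, map_zero _⟩
  add_mem' := by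
    rintro a b ⟨ha, ha'⟩ ⟨hb, hb'⟩
    exact ⟨by rw [smul_add, ha, hb, add_zero], by rw [map_add, ha', hb', add_zero]⟩
  neg_mem' := by
    rintro a ⟨ha, ha'⟩
    exact ⟨by rw [smul_neg, ha, neg_zero], by rw [map_neg, ha', neg_zero]⟩

theorem mem_Kf {ℓ : ℕ} {Φ : Module.End ℤ G} {i : ℕ} {x : G} :
    x ∈ Kf ℓ Φ i ↔ ℓ • x = 0 ∧ ((Φ - 1) ^ i) x = 0 := Iff.rfl

theorem Kf_succ_le (ℓ : ℕ) (Φ : Module.End ℤ G) (i : ℕ) : Kf ℓ Φ i ≤ Kf ℓ Φ (i + 1) := by
  rintro x ⟨h1, h2⟩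
  refine ⟨h1, ?_⟩
  rw [pow_succ', Module.End.mul_apply, h2, map_zero]

theorem Kf_mono (ℓ : ℕ) (Φ : Module.End ℤ G) {i i' : ℕ} (h : i ≤ i') :
    Kf ℓ Φ i ≤ Kf ℓ Φ i' := by
  induction h with
  | refl => exact le_rfl
  | step _ ih => exact ih.trans (Kf_succ_le ℓ Φ _)

theorem Kf_pow (ℓ : ℕ) (hℓ : ℓ.Prime) (Φ : Module.End ℤ G) (j : ℕ) (x : G) :
    x ∈ Kf ℓ Φ (ℓ ^ j) ↔ ℓ • x = 0 ∧ (Φ ^ (ℓ ^ j)) x = x := by
  constructor
  · rintro ⟨h1, h2⟩
    refine ⟨h1, ?_⟩
    rw [pow_prime_pow_apply ℓ hℓ Φ j x h1, h2, add_zero]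
  · rintro ⟨h1, h2⟩
    refine ⟨h1, ?_⟩
    have h3 := pow_prime_pow_apply ℓ hℓ Φ j x h1
    rw [h2] at h3
    have h4 : x + 0 = x + ((Φ - 1) ^ (ℓ ^ j)) x := by rw [add_zero]; exact h3
    exact (add_left_cancel h4).symm

theorem Kf_pow_le_Tj (ℓ : ℕ) (hℓ : ℓ.Prime) (Φ : Module.End ℤ G) (j : ℕ) :
    Kf ℓ Φ (ℓ ^ j) ≤ Tj ℓ Φ j := by
  intro x hx
  obtain ⟨h1, h2⟩ := (Kf_pow ℓ hℓ Φ j x).1 hx
  exact ⟨h2, 1, by rw [pow_one]; exact h1⟩

theorem Kf_stab (ℓ : ℕ) (Φ : Module.End ℤ G) (i : ℕ) (h : Kf ℓ Φ (i + 1) = Kf ℓ Φ i) :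
    Kf ℓ Φ (i + 2) = Kf ℓ Φ (i + 1) := by
  apply le_antisymm _ (Kf_succ_le ℓ Φ (i + 1))
  rintro x ⟨h1, h2⟩
  have h3 : (Φ - 1) x ∈ Kf ℓ Φ (i + 1) := by
    refine ⟨?_, ?_⟩
    · rw [← end_nsmul, h1, map_zero]
    · rw [← Module.End.mul_apply, ← pow_succ]
      exact h2
  rw [h] at h3
  refine ⟨h1, ?_⟩
  rw [pow_succ, Module.End.mul_apply]
  exact h3.2

theorem Kf_stab_all (ℓ : ℕ) (Φ : Module.End ℤ G) (i : ℕ) (h : Kf ℓ Φ (i + 1) = Kf ℓ Φ i) :
    ∀ d, Kf ℓ Φ (i + d) = Kf ℓ Φ i := by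
  have key : ∀ d, Kf ℓ Φ (i + d + 1) = Kf ℓ Φ (i + d) := by
    intro d
    induction d with
    | zero => exact h
    | succ d ih => exact Kf_stab ℓ Φ (i + d) ih
  intro d
  induction d with
  | zero => rfl
  | succ d ih =>
    rw [← add_assoc, key d, ih]

variable {ℓ : ℕ} {Φ : Module.End ℤ G} {n c₀ : ℕ}

theorem Growth.Kf_finite (hℓ : ℓ.Prime) (h : Growth ℓ Φ n c₀) (i : ℕ) : Finite ↥(Kf ℓ Φ i) := by
  haveI := h.fin i
  have h1 : Kf ℓ Φ i ≤ Tj ℓ Φ i :=
    (Kf_mono ℓ Φ (Nat.lt_pow_self hℓ.one_lt).le).trans (Kf_pow_le_Tj ℓ hℓ Φ i)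
  exact Finite.of_injective (AddSubgroup.inclusion h1) (AddSubgroup.inclusion_injective h1)

theorem Growth.Kf_card_le (hℓ : ℓ.Prime) (h : Growth ℓ Φ n c₀) (j : ℕ) :
    Nat.card ↥(Kf ℓ Φ (ℓ ^ j)) ≤ ℓ ^ (c₀ + n * j) := by
  haveI := h.fin j
  rw [← h.card j]
  exact AddSubgroup.card_le_of_le (Kf_pow_le_Tj ℓ hℓ Φ j)

/-- strict growth forces `2^N ≤ #K_N` -/
theorem Growth.Kf_card_ge (hℓ : ℓ.Prime) (h : Growth ℓ Φ n c₀) (N : ℕ)
    (hne : ∀ i < N, Kf ℓ Φ (i + 1) ≠ Kf ℓ Φ i) : 2 ^ N ≤ Nat.card ↥(Kf ℓ Φ N) := by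
  induction N with
  | zero =>
    haveI := h.Kf_finite hℓ 0
    rw [pow_zero]
    exact Nat.card_pos
  | succ N ih =>
    have ih' := ih (fun i hi => hne i (Nat.lt_succ_of_lt hi))
    haveI := h.Kf_finite hℓ (N + 1)
    haveI := h.Kf_finite hℓ N
    have hle := Kf_succ_le ℓ Φ N
    obtain ⟨d, hd⟩ := AddSubgroup.card_dvd_of_le hle
    have hpos : 0 < Nat.card ↥(Kf ℓ Φ (N + 1)) := Nat.card_pos
    have hd2 : 2 ≤ d := by
      by_contra hlt
      have hd1 : d = 0 ∨ d = 1 := by omega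
      rcases hd1 with rfl | rfl
      · rw [mul_zero] at hd
        omega
      · rw [mul_one] at hd
        exact hne N (Nat.lt_succ_self N)
          (AddSubgroup.eq_of_le_of_card_ge hle hd.le).symm
    rw [hd, pow_succ]
    calc 2 ^ N * 2 ≤ Nat.card ↥(Kf ℓ Φ N) * d := Nat.mul_le_mul ih' hd2

/-- an exponential beats a linear function -/
theorem exists_lin_lt_two_pow (a b : ℕ) : ∃ j, a + b * j < 2 ^ j := by
  have key : ∀ s : ℕ, 1 ≤ s → 3 * s ^ 2 < 4 ^ s := by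
    intro s hs
    induction s with
    | zero => omega
    | succ s ih =>
      rcases Nat.eq_zero_or_pos s with rfl | hs'
      · norm_num
      · have := ih hs'
        rw [pow_succ 4]
        nlinarith
  refine ⟨2 * (a + b + 1), ?_⟩
  have h1 := key (a + b + 1) (by omega)
  have h2 : (2 : ℕ) ^ (2 * (a + b + 1)) = 4 ^ (a + b + 1) := by
    rw [pow_mul]
    norm_num
  rw [h2]
  nlinarith

theorem exists_pow_lt_two_pow (hℓ : ℓ.Prime) (c₀ n : ℕ) :
    ∃ j, ℓ ^ (c₀ + n * j) < 2 ^ (ℓ ^ j) := by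
  obtain ⟨j, hj⟩ := exists_lin_lt_two_pow (ℓ * c₀) (ℓ * n)
  refine ⟨j, ?_⟩
  have h1 : ℓ ^ (c₀ + n * j) ≤ (2 ^ ℓ) ^ (c₀ + n * j) :=
    Nat.pow_le_pow_left Nat.lt_two_pow_self.le _
  have h2 : (2 ^ ℓ) ^ (c₀ + n * j) = 2 ^ (ℓ * c₀ + ℓ * n * j) := by
    rw [← pow_mul]
    congr 1
    ring
  have h3 : 2 ^ j ≤ ℓ ^ j := Nat.pow_le_pow_left hℓ.two_le j
  have h4 : (2 : ℕ) ^ (ℓ * c₀ + ℓ * n * j) < 2 ^ (ℓ ^ j) :=
    Nat.pow_lt_pow_right (by norm_num) (lt_of_lt_of_le hj h3)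
  calc ℓ ^ (c₀ + n * j) ≤ (2 ^ ℓ) ^ (c₀ + n * j) := h1
    _ = 2 ^ (ℓ * c₀ + ℓ * n * j) := h2
    _ < 2 ^ (ℓ ^ j) := h4

/-- the filtration stabilises -/
theorem Growth.exists_stab (hℓ : ℓ.Prime) (h : Growth ℓ Φ n c₀) :
    ∃ i, Kf ℓ Φ (i + 1) = Kf ℓ Φ i := by
  by_contra hcon
  push Not at hcon
  obtain ⟨j, hj⟩ := exists_pow_lt_two_pow hℓ c₀ n
  have h1 := h.Kf_card_ge hℓ (ℓ ^ j) (fun i _ => hcon i)
  have h2 := h.Kf_card_le hℓ j
  omega

/-- **IW-FIN**, `k = 1`, with the level -/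
theorem Growth.tors_le (hℓ : ℓ.Prime) (h : Growth ℓ Φ n c₀) :
    ∃ j₁, tors G ℓ ≤ fixE (Φ ^ (ℓ ^ j₁)) := by
  obtain ⟨i, hi⟩ := h.exists_stab hℓ
  refine ⟨i, ?_⟩
  intro x hx
  have hx' : x ∈ prim G ℓ := ⟨1, by rw [pow_one]; exact hx⟩
  obtain ⟨j, hj⟩ := h.cover x hx'
  have h1 : x ∈ Kf ℓ Φ (ℓ ^ j) := (Kf_pow ℓ hℓ Φ j x).2 ⟨hx, hj⟩
  have h2 : x ∈ Kf ℓ Φ (i + ℓ ^ j) := Kf_mono ℓ Φ (Nat.le_add_left _ _) h1
  rw [Kf_stab_all ℓ Φ i hi] at h2
  have h3 : x ∈ Kf ℓ Φ (ℓ ^ i) := Kf_mono ℓ Φ (Nat.lt_pow_self hℓ.one_lt).le h2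
  exact ((Kf_pow ℓ hℓ Φ i x).1 h3).2

end Fermat.Agent.S27.IW.H68

end
-- ==== END Fermat.Agent.S27.IW.H68_Growth

-- ==== BEGIN Fermat.Agent.S27.Lift.H68_HenselInj
section

/-!
# S27 / LIFT (helper68): MV-HENSEL with an injective reduced Jacobian

`mvHensel_of_injective`: `O` the valuation ring of an algebraically closed field `K`,
`res : O → k` a residue map (surjective, kernel = non-units).  A system `F : Eq → O[X_U]` with as
many equations as unknowns, an approximate solution `a` (`res F(a) = 0`) and INJECTIVE reduced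
Jacobian (as a `k`-linear map `k^U → k^Eq`) has an exact solution `b` with `res b = res a`.
-/

set_option linter.style.haveILetI false
set_option linter.unusedSectionVars false

namespace Fermat.Agent.S27.Lift.H68

open MvPolynomial

universe u v w

variable {O : Type u} [CommRing O] [IsDomain O] [ValuationRing O]
  {k : Type*} [Field k]

/-- A residue map: a surjective ring homomorphism onto a field whose kernel is the maximal
ideal. -/
structure IsResidueMap (res : O →+* k) : Prop where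
  surj : Function.Surjective res
  ker : ∀ c : O, res c = 0 ↔ c ∈ IsLocalRing.maximalIdeal O

lemma IsResidueMap.isUnit_iff {res : O →+* k} (h : IsResidueMap res) (c : O) :
    IsUnit c ↔ res c ≠ 0 := by
  rw [Ne, h.ker, IsLocalRing.mem_maximalIdeal, mem_nonunits_iff, not_not]

lemma IsResidueMap.sub_mem_iff {res : O →+* k} (h : IsResidueMap res) (b a : O) :
    b - a ∈ IsLocalRing.maximalIdeal O ↔ res b = res a := by
  rw [← h.ker, map_sub, sub_eq_zero]

theorem mvHensel_of_injective (K : Type v) [Field K] [Algebra O K] [IsFractionRing O K]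
    [IsAlgClosed K] {res : O →+* k} (hres : IsResidueMap res)
    {U Eq : Type w} [Fintype U] [DecidableEq U] [Fintype Eq] [DecidableEq Eq]
    (hcard : Fintype.card U = Fintype.card Eq)
    (F : Eq → MvPolynomial U O) (a : U → O)
    (h0 : ∀ e, res (eval a (F e)) = 0)
    (hinj : ∀ dv : U → k, (∀ e, ∑ v, res (eval a (pderiv v (F e))) * dv v = 0) → dv = 0) :
    ∃ b : U → O, (∀ v, res (b v) = res (a v)) ∧ ∀ e, eval b (F e) = 0 := by
  classical
  let ε : U ≃ Eq := Fintype.equivOfCardEq hcard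
  let f : U → MvPolynomial U O := fun u => F (ε u)
  let J : Matrix U U O := Matrix.of fun i j => eval a (pderiv j (f i))
  have hJ : IsUnit J.det := by
    rw [hres.isUnit_iff, RingHom.map_det]
    intro hdet
    obtain ⟨dv, hdv0, hdv⟩ := Matrix.exists_mulVec_eq_zero_iff.mpr hdet
    apply hdv0
    apply hinj dv
    intro e
    have := congrFun hdv (ε.symm e)
    simpa [Matrix.mulVec, dotProduct, J, f] using this
  obtain ⟨b, ⟨hb1, hb2⟩, -⟩ := mvHensel' K f a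
    (fun i => (hres.ker _).mp (h0 (ε i))) hJ
  refine ⟨b, fun v => (hres.sub_mem_iff _ _).mp (hb1 v), fun e => ?_⟩
  have := hb2 (ε.symm e)
  simpa [f] using this

end Fermat.Agent.S27.Lift.H68

end
-- ==== END Fermat.Agent.S27.Lift.H68_HenselInj

-- ==== BEGIN Fermat.Agent.S27.REDu.H10_ConsRoots
section

/-!
# G-RED package CONS (helper10): counting roots modulo the maximal ideal

`O` a valuation ring of an algebraically closed field, `res : O → k` the residue map,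
`D ∈ O[X]` with nonzero reduction.  Then the roots of the reduction are the reductions of the
roots of `D` in `O`, as multisets:  `(D.map res).roots = D.roots.map res`.
-/

set_option autoImplicit false

universe uC uCf uK uR uF uL uE uk ukap uFp uFt uFtp uiot uEp uKp ux3b1

noncomputable section

open Polynomial

namespace Fermat.Agent.S27.REDu.H10

variable {Cf : Type uCf} {k : Type uk} [Field Cf] [IsAlgClosed Cf] [Field k] (O : ValuationSubring Cf)
variable (res : ↥O →+* k)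

theorem roots_map_res_aux (hker : ∀ a : ↥O, res a = 0 ↔ ¬ IsUnit a) :
    ∀ (n : ℕ) (D : Polynomial ↥O), D.natDegree = n → D.map res ≠ 0 →
      (D.map res).roots = D.roots.map res := by
  classical
  intro n
  induction n using Nat.strong_induction_on with
  | _ n ih =>
  intro D hn hD
  have hD0 : D ≠ 0 := fun h => hD (by rw [h, Polynomial.map_zero])
  by_cases hdeg : 0 < D.natDegree
  · rcases H82.exists_factor O D hdeg with ⟨r, D₁, hfac⟩ | ⟨s, D₁, hsnu, hs0, hfac⟩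
    · -- `D = (X - C r) * D₁`
      have hD₁0 : D₁ ≠ 0 := fun h => hD0 (by rw [hfac, h, mul_zero])
      have hD₁ : D₁.map res ≠ 0 := by
        intro h
        apply hD
        rw [hfac, Polynomial.map_mul, h, mul_zero]
      have hdeg₁ : D₁.natDegree < n := by
        rw [← hn, hfac, Polynomial.natDegree_mul (Polynomial.X_sub_C_ne_zero r) hD₁0,
          Polynomial.natDegree_X_sub_C]
        omega
      have ih₁ := ih D₁.natDegree hdeg₁ D₁ rfl hD₁
      have hmap : D.map res = (X - C (res r)) * D₁.map res := by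
        rw [hfac, Polynomial.map_mul, Polynomial.map_sub, Polynomial.map_X, Polynomial.map_C]
      have h1 : (D.map res).roots = (X - C (res r)).roots + (D₁.map res).roots := by
        rw [hmap]
        exact Polynomial.roots_mul (by rw [← hmap]; exact hD)
      have h2 : D.roots = (X - C r).roots + D₁.roots := by
        rw [hfac]
        exact Polynomial.roots_mul (by rw [← hfac]; exact hD0)
      rw [h1, h2, Polynomial.roots_X_sub_C, Polynomial.roots_X_sub_C, Multiset.map_add,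
        Multiset.map_singleton, ih₁]
    · -- `D = (1 - C s * X) * D₁`
      have hD₁0 : D₁ ≠ 0 := fun h => hD0 (by rw [hfac, h, mul_zero])
      have hres : res s = 0 := (hker s).2 hsnu
      have hmap : D.map res = D₁.map res := by
        rw [hfac, Polynomial.map_mul, Polynomial.map_sub, Polynomial.map_one, Polynomial.map_mul,
          Polynomial.map_C, Polynomial.map_X, hres, Polynomial.C_0, zero_mul, sub_zero, one_mul]
      have hD₁ : D₁.map res ≠ 0 := by rw [← hmap]; exact hD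
      have hlin0 : (1 - C s * X : Polynomial ↥O) ≠ 0 := fun h => hD0 (by rw [hfac, h, zero_mul])
      have hlindeg : (1 - C s * X : Polynomial ↥O).natDegree = 1 := by
        have h1 : (1 - C s * X : Polynomial ↥O) = C (-s) * X + C 1 := by
          rw [Polynomial.C_neg, Polynomial.C_1]
          ring
        rw [h1]
        exact Polynomial.natDegree_linear (neg_ne_zero.mpr hs0)
      have hdeg₁ : D₁.natDegree < n := by
        rw [← hn, hfac, Polynomial.natDegree_mul hlin0 hD₁0, hlindeg]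
        omega
      have ih₁ := ih D₁.natDegree hdeg₁ D₁ rfl hD₁
      have hnoroot : (1 - C s * X : Polynomial ↥O).roots = 0 := by
        apply Multiset.eq_zero_of_forall_notMem
        intro ρ hρ
        rw [Polynomial.mem_roots hlin0, Polynomial.IsRoot.def] at hρ
        simp only [Polynomial.eval_sub, Polynomial.eval_one, Polynomial.eval_mul,
          Polynomial.eval_C, Polynomial.eval_X] at hρ
        apply hsnu
        exact IsUnit.of_mul_eq_one ρ (sub_eq_zero.mp hρ).symm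
      have h2 : D.roots = (1 - C s * X : Polynomial ↥O).roots + D₁.roots := by
        rw [hfac]
        exact Polynomial.roots_mul (by rw [← hfac]; exact hD0)
      rw [hmap, h2, hnoroot, zero_add, ih₁]
  · -- constant polynomial
    have h0 : D.natDegree = 0 := by omega
    obtain ⟨c, hc⟩ := Polynomial.natDegree_eq_zero.mp h0
    rw [← hc, Polynomial.map_C, Polynomial.roots_C, Polynomial.roots_C, Multiset.map_zero]

/-- The roots of the reduction are the reductions of the roots in `O`. -/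
theorem roots_map_res (hker : ∀ a : ↥O, res a = 0 ↔ ¬ IsUnit a) (D : Polynomial ↥O)
    (hD : D.map res ≠ 0) : (D.map res).roots = D.roots.map res :=
  roots_map_res_aux O res hker D.natDegree D rfl hD

/-- Counting form: the multiplicity of `γ` in the reduction is the sum of the multiplicities of
the roots of `D` in `O` reducing to `γ`. -/
theorem rootMultiplicity_map_res (hker : ∀ a : ↥O, res a = 0 ↔ ¬ IsUnit a) (D : Polynomial ↥O)
    (hD : D.map res ≠ 0) (γ : k) [DecidableEq ↥O] [DecidablePred fun ρ : ↥O => res ρ = γ] :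
    ((D.map res).rootMultiplicity γ : ℤ) =
      ∑ ρ ∈ D.roots.toFinset.filter (fun ρ => res ρ = γ), (D.rootMultiplicity ρ : ℤ) := by
  classical
  rw [← Polynomial.count_roots, roots_map_res O res hker D hD, Multiset.count_map]
  have h1 : (Multiset.filter (fun a => γ = res a) D.roots).card =
      ∑ ρ ∈ D.roots.toFinset.filter (fun ρ => res ρ = γ), D.roots.count ρ := by
    rw [← Multiset.toFinset_sum_count_eq (Multiset.filter (fun a => γ = res a) D.roots)]
    have hsub : (Multiset.filter (fun a => γ = res a) D.roots).toFinset =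
        D.roots.toFinset.filter (fun ρ => res ρ = γ) := by
      ext ρ
      simp only [Multiset.mem_toFinset, Multiset.mem_filter, Finset.mem_filter]
      exact ⟨fun h => ⟨h.1, h.2.symm⟩, fun h => ⟨h.1, h.2.symm⟩⟩
    rw [hsub]
    refine Finset.sum_congr rfl fun ρ hρ => ?_
    rw [Finset.mem_filter] at hρ
    rw [Multiset.count_filter, if_pos hρ.2.symm]
  rw [h1]
  push_cast
  refine Finset.sum_congr rfl fun ρ _ => ?_
  rw [Polynomial.count_roots]

end Fermat.Agent.S27.REDu.H10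

end
end
-- ==== END Fermat.Agent.S27.REDu.H10_ConsRoots

-- ==== BEGIN Fermat.Agent.S27.REDu.H34_Adjoin
section

/-!
# G-RED package IG (helper34): the ring `C[x]` for a transcendental `x`

`x : F` transcendental over the field `C`.  `C[x] = Algebra.adjoin C {x}` is a PID, isomorphic to
the polynomial ring; evaluation at `ρ`; primes are associated to `x - ρ` if `C` is algebraically
closed.
-/

set_option autoImplicit false

universe uC uCf uK uR uF uL uE uk ukap uFp uFt uFtp uiot uEp uKp ux3b1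

noncomputable section

open Polynomial IntermediateField

namespace Fermat.Agent.S27.REDu.H34

variable {C : Type uC} {F : Type uF} [Field C] [Field F] [Algebra C F] {x : F}

/-- `C[X] ≃ C[x]`. -/
abbrev polyEquiv (hx : Transcendental C x) : C[X] ≃ₐ[C] ↥(Algebra.adjoin C {x}) :=
  Polynomial.algEquivOfTranscendental C x hx

theorem polyEquiv_X (hx : Transcendental C x) : polyEquiv hx Polynomial.X = genX x := by
  simp [polyEquiv, genX]

theorem polyEquiv_C (hx : Transcendental C x) (c : C) :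
    polyEquiv hx (Polynomial.C c) = algebraMap C _ c := by
  simp [polyEquiv]

theorem polyEquiv_X_sub_C (hx : Transcendental C x) (ρ : C) :
    polyEquiv hx (Polynomial.X - Polynomial.C ρ) = piRho x ρ := by
  rw [map_sub, polyEquiv_X, polyEquiv_C, piRho_eq]

theorem coe_polyEquiv (hx : Transcendental C x) (p : C[X]) :
    ((polyEquiv hx p : ↥(Algebra.adjoin C {x})) : F) = Polynomial.aeval x p := by
  have : (polyEquiv hx p : ↥(Algebra.adjoin C {x})) = Polynomial.aeval (genX x) p := rfl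
  rw [this, ← Subalgebra.coe_val, ← Polynomial.aeval_algHom_apply]
  rfl

theorem isPrincipalIdealRing_adjoin (hx : Transcendental C x) :
    IsPrincipalIdealRing ↥(Algebra.adjoin C {x}) :=
  IsPrincipalIdealRing.of_surjective (polyEquiv hx).toRingEquiv.toRingHom
    (polyEquiv hx).surjective

/-- Evaluation at `ρ`. -/
def evAt (hx : Transcendental C x) (ρ : C) : ↥(Algebra.adjoin C {x}) →+* C :=
  (Polynomial.evalRingHom ρ).comp (polyEquiv hx).symm.toRingEquiv.toRingHom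

theorem evAt_polyEquiv (hx : Transcendental C x) (ρ : C) (p : C[X]) :
    evAt hx ρ (polyEquiv hx p) = p.eval ρ := by
  simp [evAt]

theorem pow_dvd_polyEquiv_iff (hx : Transcendental C x) (ρ : C) (m : ℕ) (p : C[X]) :
    piRho x ρ ^ m ∣ polyEquiv hx p ↔ (Polynomial.X - Polynomial.C ρ) ^ m ∣ p := by
  rw [← polyEquiv_X_sub_C hx, ← map_pow]
  exact map_dvd_iff (polyEquiv hx)

theorem dvd_polyEquiv_iff (hx : Transcendental C x) (ρ : C) (p : C[X]) :
    piRho x ρ ∣ polyEquiv hx p ↔ p.IsRoot ρ := by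
  have := pow_dvd_polyEquiv_iff hx ρ 1 p
  rw [pow_one, pow_one] at this
  rw [this, Polynomial.dvd_iff_isRoot]

theorem evAt_eq_zero_iff (hx : Transcendental C x) (ρ : C) (r : ↥(Algebra.adjoin C {x})) :
    evAt hx ρ r = 0 ↔ piRho x ρ ∣ r := by
  obtain ⟨p, rfl⟩ := (polyEquiv hx).surjective r
  rw [evAt_polyEquiv, dvd_polyEquiv_iff]
  rfl

theorem prime_piRho (hx : Transcendental C x) (ρ : C) : Prime (piRho x ρ) := by
  rw [← polyEquiv_X_sub_C hx]
  exact (MulEquiv.prime_iff (polyEquiv hx).toMulEquiv).2 (Polynomial.prime_X_sub_C ρ)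

/-- Primes of `C[x]` are associated to `x - γ` (`C` algebraically closed). -/
theorem exists_eq_of_prime [IsAlgClosed C] (hx : Transcendental C x)
    (π : ↥(Algebra.adjoin C {x})) (hπ : Prime π) :
    ∃ (γ : C) (a : C), a ≠ 0 ∧ π = algebraMap C _ a * piRho x γ := by
  obtain ⟨p, rfl⟩ := (polyEquiv hx).surjective π
  have hp : Prime p := (MulEquiv.prime_iff (polyEquiv hx).toMulEquiv).1 hπ
  have hdeg : p.degree = 1 := IsAlgClosed.degree_eq_one_of_irreducible C hp.irreducible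
  have hp2 := Polynomial.eq_X_add_C_of_degree_eq_one hdeg
  have ha : p.leadingCoeff ≠ 0 := Polynomial.leadingCoeff_ne_zero.2 hp.ne_zero
  refine ⟨-(p.coeff 0 / p.leadingCoeff), p.leadingCoeff, ha, ?_⟩
  rw [← polyEquiv_X_sub_C hx, ← polyEquiv_C hx, ← map_mul]
  congr 1
  conv_lhs => rw [hp2]
  rw [Polynomial.C_neg, sub_neg_eq_add, mul_add, ← Polynomial.C_mul, mul_div_cancel₀ _ ha]

end Fermat.Agent.S27.REDu.H34

end
end
-- ==== END Fermat.Agent.S27.REDu.H34_Adjoin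

-- ==== BEGIN Fermat.Agent.S27.REDu.H34_Ortho
section

/-!
# G-RED package IG (helper34): orthonormality of lifts

`S : RedSetting C F k Ft`, `x ∈ V` with transcendental reduction `xt`.  If `b i ∈ V` and the
reductions of the `b i` are linearly independent over `k(xt)`, then for `a i ∈ C(x)`:
`v (a i) ≤ v (∑ a j • b j)` for all `i` (`v` the valuation of `V`).
-/

set_option autoImplicit false

universe uC uCf uK uR uF uL uE uk ukap uFp uFt uFtp uiot uEp uKp ux3b1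

noncomputable section

open Polynomial IntermediateField

namespace Fermat.Agent.S27.REDu.H34

variable {C : Type uC} {F : Type uF} {k : Type uk} {Ft : Type uFt} [Field C] [Field F] [Algebra C F] [Field k] [Field Ft] [Algebra k Ft]

namespace RedSetting

variable {S : RedSetting C F k Ft} {x : F} (hx : x ∈ S.V)
variable {ι : Type uiot} [Fintype ι] (b : ι → F) (hbV : ∀ i, b i ∈ S.V)

theorem mem_V_iff_val (f : F) : f ∈ S.V ↔ S.V.valuation f ≤ 1 :=
  (S.V.valuation_le_one_iff f).symm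

theorem red_eq_zero_iff_val (f : ↥S.V) : S.red f = 0 ↔ S.V.valuation (f : F) < 1 := by
  rw [S.red_eq_zero_iff, ← S.V.valuation_lt_one_iff, IsLocalRing.mem_maximalIdeal,
    mem_nonunits_iff]

/-- (ON0) a relation with coefficients in `V ∩ C(x)` reduces to a relation over `k(xt)`. -/
theorem red_coeff_eq_zero (hxt : Transcendental k (S.red ⟨x, hx⟩))
    (hlin : LinearIndependent ↥k⟮S.red ⟨x, hx⟩⟯ (fun i => S.red ⟨b i, hbV i⟩))
    (a : ι → ↥S.V) (ha : ∀ i, ((a i : ↥S.V) : F) ∈ C⟮x⟯)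
    (h0 : S.red (∑ i, a i * ⟨b i, hbV i⟩) = 0) (i : ι) : S.red (a i) = 0 := by
  rw [map_sum] at h0
  have h1 : ∑ j, (⟨S.red (a j), red_mem_adjoin hx hxt _ (ha j) (a j).2⟩ : ↥k⟮S.red ⟨x, hx⟩⟯) •
      S.red ⟨b j, hbV j⟩ = 0 := by
    rw [← h0]
    refine Finset.sum_congr rfl fun j _ => ?_
    rw [map_mul]
    rfl
  have := (Fintype.linearIndependent_iff.1 hlin) _ h1 i
  exact congrArg Subtype.val this

/-- (ON) orthonormality: the valuation of a combination dominates that of each coefficient. -/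
theorem val_coeff_le (hxt : Transcendental k (S.red ⟨x, hx⟩))
    (hlin : LinearIndependent ↥k⟮S.red ⟨x, hx⟩⟯ (fun i => S.red ⟨b i, hbV i⟩))
    (a : ι → ↥C⟮x⟯) (i : ι) :
    S.V.valuation ((a i : ↥C⟮x⟯) : F) ≤ S.V.valuation (∑ j, a j • b j) := by
  classical
  obtain ⟨i₀, -, hmax⟩ := Finset.exists_max_image (Finset.univ : Finset ι)
    (fun j => S.V.valuation ((a j : ↥C⟮x⟯) : F)) ⟨i, Finset.mem_univ i⟩
  refine (hmax i (Finset.mem_univ i)).trans ?_
  by_cases h0 : ((a i₀ : ↥C⟮x⟯) : F) = 0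
  · rw [h0, map_zero]
    exact zero_le
  have hv0 : S.V.valuation ((a i₀ : ↥C⟮x⟯) : F) ≠ 0 := (Valuation.ne_zero_iff _).2 h0
  -- normalised coefficients
  have haV : ∀ j, ((a j : ↥C⟮x⟯) : F) / ((a i₀ : ↥C⟮x⟯) : F) ∈ S.V := by
    intro j
    rw [mem_V_iff_val, map_div₀, div_le_one₀ (zero_lt_iff.2 hv0)]
    exact hmax j (Finset.mem_univ j)
  let a' : ι → ↥S.V := fun j => ⟨_, haV j⟩
  have ha' : ∀ j, ((a' j : ↥S.V) : F) ∈ C⟮x⟯ := fun j =>
    div_mem (a j).2 (a i₀).2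
  have hsum : ((∑ j, a' j * ⟨b j, hbV j⟩ : ↥S.V) : F) =
      (∑ j, a j • b j) / ((a i₀ : ↥C⟮x⟯) : F) := by
    rw [Finset.sum_div, AddSubmonoidClass.coe_finsetSum]
    refine Finset.sum_congr rfl fun j _ => ?_
    rw [IntermediateField.smul_def, smul_eq_mul]
    show ((a j : ↥C⟮x⟯) : F) / ((a i₀ : ↥C⟮x⟯) : F) * b j = _
    ring
  by_contra hlt
  rw [not_le] at hlt
  have hred : S.red (∑ j, a' j * ⟨b j, hbV j⟩) = 0 := by
    rw [red_eq_zero_iff_val, hsum, map_div₀, div_lt_one₀ (zero_lt_iff.2 hv0)]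
    exact hlt
  have h1 := red_coeff_eq_zero hx b hbV hxt hlin a' ha' hred i₀
  have h2 : a' i₀ = 1 := by
    apply Subtype.ext
    simp only [a']
    exact div_self h0
  rw [h2, map_one] at h1
  exact one_ne_zero h1

/-- The lifts are linearly independent over `C(x)`. -/
theorem linearIndependent_lift (hxt : Transcendental k (S.red ⟨x, hx⟩))
    (hlin : LinearIndependent ↥k⟮S.red ⟨x, hx⟩⟯ (fun i => S.red ⟨b i, hbV i⟩)) :
    LinearIndependent ↥C⟮x⟯ b := by
  rw [Fintype.linearIndependent_iff]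
  intro a h0 i
  have := val_coeff_le hx b hbV hxt hlin a i
  rw [h0, map_zero] at this
  have h1 : S.V.valuation ((a i : ↥C⟮x⟯) : F) = 0 := le_antisymm this zero_le
  exact Subtype.ext ((Valuation.zero_iff _).1 h1)

/-- Coefficients of an element of `V` lie in `V`. -/
theorem coeff_mem_V (hxt : Transcendental k (S.red ⟨x, hx⟩))
    (hlin : LinearIndependent ↥k⟮S.red ⟨x, hx⟩⟯ (fun i => S.red ⟨b i, hbV i⟩))
    (a : ι → ↥C⟮x⟯) (h : ∑ j, a j • b j ∈ S.V) (i : ι) : ((a i : ↥C⟮x⟯) : F) ∈ S.V := by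
  rw [mem_V_iff_val] at h ⊢
  exact (val_coeff_le hx b hbV hxt hlin a i).trans h

end RedSetting

end Fermat.Agent.S27.REDu.H34

end
end
-- ==== END Fermat.Agent.S27.REDu.H34_Ortho

-- ==== BEGIN Fermat.Agent.S27.REDu.H51_Basic
section

/-!
# FF-B (helper51): the three immediate statements

* `stmt_FFB_deg` : every place has degree one (helper72's `ff_deg_eq_one`);
* `stmt_FFB_finite` : a `K`-algebra hom between function fields is finite;
* `stmt_FFB_separate` : weak approximation for constants.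
-/

set_option autoImplicit false
set_option linter.style.haveILetI false

universe uC uCf uK uR uF uL uE uk ukap uFp uFt uFtp uiot uEp uKp ux3b1

noncomputable section

open AlgebraicCurve IntermediateField

namespace Fermat.Agent.S27.REDu.H51

/-- Every place of a function field over an algebraically closed field has degree one. -/
theorem stmt_FFB_deg : Fermat.Agent.S27.REDu.Stmt_FFB_deg.{uK, uF} := by
  intro K F _ _ _ _ hFF v
  obtain ⟨x, hx, hfin⟩ := hFF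
  haveI : FiniteDimensional K⟮x⟯ F := hfin
  exact Fermat.Agent.S24.ff_deg_eq_one x hx v

/-- `F'` is finite over `F` along a `K`-hom `φ`, if `F'` is finite over `K(φ x)`. -/
theorem finiteAlong_of_finite_adjoin {K F F' : Type*} [Field K] [Field F] [Field F'] [Algebra K F]
    [Algebra K F'] (φ : F →ₐ[K] F') (x : F) [FiniteDimensional K⟮φ x⟯ F'] :
    FiniteAlong K φ := by
  letI := algebraAlong φ
  have hle : K⟮φ x⟯ ≤ φ.fieldRange := by
    rw [adjoin_simple_le_iff]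
    exact ⟨x, rfl⟩
  let e : F ≃ₐ[K] φ.fieldRange := AlgEquiv.ofInjectiveField φ
  let ψ : K⟮φ x⟯ →+* F := (e.symm : φ.fieldRange →+* F).comp
    ((IntermediateField.inclusion hle : K⟮φ x⟯ →ₐ[K] φ.fieldRange) : K⟮φ x⟯ →+* φ.fieldRange)
  letI : Algebra K⟮φ x⟯ F := ψ.toAlgebra
  haveI : IsScalarTower K⟮φ x⟯ F F' := by
    refine IsScalarTower.of_algebraMap_eq fun c => ?_
    show (c : F') = φ (e.symm (IntermediateField.inclusion hle c))
    have h1 : φ (e.symm (IntermediateField.inclusion hle c))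
        = ((e (e.symm (IntermediateField.inclusion hle c)) : φ.fieldRange) : F') := rfl
    rw [h1, AlgEquiv.apply_symm_apply]
    rfl
  show Module.Finite F F'
  exact Module.Finite.of_restrictScalars_finite K⟮φ x⟯ F F'

/-- A `K`-algebra hom between function fields is finite. -/
theorem stmt_FFB_finite : Fermat.Agent.S27.REDu.Stmt_FFB_finite.{uK, uF, uFp} := by
  intro K F F' _ _ _ _ _ _ hFF hFF' φ
  obtain ⟨x, hx, -⟩ := hFF
  obtain ⟨x', hx', hfin'⟩ := hFF'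
  haveI : FiniteDimensional K⟮x'⟯ F' := hfin'
  have hφx : Transcendental K (φ x) := fun h =>
    hx ((isAlgebraic_algHom_iff φ φ.injective).mp h)
  haveI : FiniteDimensional K⟮φ x⟯ F' :=
    Fermat.Agent.S24.ff_finite_of_transcendental x' hx' (φ x) hφx
  have hfin : FiniteAlong K φ := finiteAlong_of_finite_adjoin φ x
  refine ⟨?_, hfin⟩
  letI := algebraAlong φ
  haveI : Module.Finite F F' := hfin
  have hint : Algebra.IsIntegral F F' := Algebra.IsIntegral.of_finite F F'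
  exact hint.isIntegral

/-- Functions separate finitely many places, with prescribed constant values. -/
theorem stmt_FFB_separate : Fermat.Agent.S27.REDu.Stmt_FFB_separate.{uK, uF, uiot} := by
  intro K F _ _ _ _ _ ι _ v hv c
  obtain ⟨f, hf⟩ := exists_approx_family v hv (fun i => algebraMap K F (c i)) 1
  refine ⟨f, fun i => ?_⟩
  rcases hf i with h | h
  · exact Or.inr (sub_eq_zero.mp h)
  · exact Or.inl (by omega)

end Fermat.Agent.S27.REDu.H51

end
end
-- ==== END Fermat.Agent.S27.REDu.H51_Basic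

-- ==== BEGIN Fermat.Agent.S27.REDu.H51_Core
section

/-!
# FF-B, piece P3 (helper51): the core independence lemma

Let `w k` (`k : ι`, finite) be places of `F'` and `e k : ℕ`.  A *local basis* is a family
`y ⟨k, a⟩` (`a < e k`) of elements of `F'` with `w k (y ⟨k, a⟩) = a` and
`w j (y ⟨k, a⟩) ≥ e j` for `j ≠ k`.  It exists if the `w k` are pairwise distinct (weak
approximation).  If `E` is a subfield such that the orders of its elements at the `w j` are
`e j * m` for a common `m` (`Compat`), then a local basis is linearly independent over `E`, and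
the order of a linear combination is computed by its coefficients (`coords`).
-/

set_option autoImplicit false
set_option linter.style.haveILetI false

universe uC uCf uK uR uF uL uE uk ukap uFp uFt uFtp uiot uEp uKp ux3b1

noncomputable section

open AlgebraicCurve

namespace Fermat.Agent.S27.REDu.H51

variable {K F' : Type*} [Field K] [Field F'] [Algebra K F']
variable {ι : Type*} [Fintype ι] (w : ι → Place K F') (e : ι → ℕ)

/-- A family of functions with prescribed orders at the places `w k`. -/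
structure LocalBasis (y : (Σ k : ι, Fin (e k)) → F') : Prop where
  ne_zero : ∀ i, y i ≠ 0
  ord_self : ∀ i, (w i.1).ord (y i) = ((i.2 : ℕ) : ℤ)
  ordGe_other : ∀ i j, j ≠ i.1 → OrdGe (w j) (e j) (y i)

/-- Local bases exist for pairwise distinct places. -/
theorem exists_localBasis (hw : Function.Injective w) :
    ∃ y : (Σ k : ι, Fin (e k)) → F', LocalBasis w e y := by
  classical
  have hex : ∀ i : (Σ k : ι, Fin (e k)), ∃ z : F', z ≠ 0 ∧
      (w i.1).ord z = ((i.2 : ℕ) : ℤ) ∧ ∀ j, j ≠ i.1 → OrdGe (w j) (e j) z := by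
    intro i
    obtain ⟨t, ht0, ht⟩ := exists_ord_eq (w i.1) ((i.2 : ℕ) : ℤ)
    set N : ℤ := ((i.2 : ℕ) : ℤ) + 1 + ∑ j, (e j : ℤ) with hN
    obtain ⟨z, hz⟩ := exists_approx_family w hw (fun j => if j = i.1 then t else 0) N
    have hsum : ∀ j, (e j : ℤ) ≤ ∑ j', (e j' : ℤ) := fun j =>
      Finset.single_le_sum (f := fun j' : ι => (e j' : ℤ))
        (fun _ _ => Int.natCast_nonneg _) (Finset.mem_univ j)
    have hpos : (0 : ℤ) ≤ ∑ j', (e j' : ℤ) :=
      Finset.sum_nonneg fun _ _ => Int.natCast_nonneg _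
    have h1 := hz i.1
    rw [if_pos rfl] at h1
    have h2 := ord_add_eq (w i.1) ht0 (g := z - t) (h1.mono (by rw [ht]; omega))
    rw [add_sub_cancel] at h2
    refine ⟨z, h2.1, h2.2.trans ht, fun j hj => ?_⟩
    have h3 := hz j
    rw [if_neg hj, sub_zero] at h3
    exact h3.mono (by have := hsum j; have := Int.natCast_nonneg (i.2 : ℕ); omega)
  choose y hy0 hy1 hy2 using hex
  exact ⟨y, ⟨hy0, hy1, hy2⟩⟩

variable {w e}

/-- The core computation: a combination of a local basis with coefficients that are either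
units at all `w j` or divisible (order `≥ e j` at all `w j`), not all divisible, has order
`a < e k` at some `w k`; in particular it is not zero. -/
theorem core {y : (Σ k : ι, Fin (e k)) → F'} (hy : LocalBasis w e y)
    (c : (Σ k : ι, Fin (e k)) → F')
    (hc : ∀ i, (c i ≠ 0 ∧ ∀ j, (w j).ord (c i) = 0) ∨ (∀ j, OrdGe (w j) (e j) (c i)))
    (hc1 : ∃ i, c i ≠ 0 ∧ ∀ j, (w j).ord (c i) = 0) :
    ∃ i : (Σ k : ι, Fin (e k)), (∑ i', c i' * y i') ≠ 0 ∧
      (w i.1).ord (∑ i', c i' * y i') = ((i.2 : ℕ) : ℤ) := by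
  classical
  obtain ⟨⟨k, a₁⟩, ha₁⟩ := hc1
  -- the minimal `a` with `c ⟨k, a⟩` a unit
  let P : ℕ → Prop := fun a => ∃ h : a < e k, (c ⟨k, ⟨a, h⟩⟩ ≠ 0 ∧
    ∀ j, (w j).ord (c ⟨k, ⟨a, h⟩⟩) = 0)
  have hP : ∃ a, P a := ⟨a₁, a₁.2, ha₁⟩
  obtain ⟨ha₀lt, ha₀⟩ := Nat.find_spec hP
  set a₀ : ℕ := Nat.find hP with ha₀def
  have hmin : ∀ b, b < a₀ → ¬ P b := fun b hb => Nat.find_min hP hb
  set i₀ : (Σ k : ι, Fin (e k)) := ⟨k, ⟨a₀, ha₀lt⟩⟩ with hi₀
  refine ⟨i₀, ?_⟩
  have hterm0 : c i₀ * y i₀ ≠ 0 := mul_ne_zero ha₀.1 (hy.ne_zero i₀)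
  have hterm : (w k).ord (c i₀ * y i₀) = (a₀ : ℤ) := by
    rw [(w k).ord_mul ha₀.1 (hy.ne_zero i₀), ha₀.2 k, zero_add]
    exact hy.ord_self i₀
  -- every coefficient is integral at `w k`
  have hc0 : ∀ i, OrdGe (w k) 0 (c i) := by
    intro i
    rcases hc i with h | h
    · exact Or.inr (h.2 k).ge
    · exact (h k).mono (Int.natCast_nonneg _)
  have hrest : OrdGe (w k) ((a₀ : ℤ) + 1) (∑ i ∈ Finset.univ.erase i₀, c i * y i) := by
    refine ordGe_sum _ _ _ _ fun i hi => ?_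
    have hne : i ≠ i₀ := Finset.ne_of_mem_erase hi
    obtain ⟨j, b⟩ := i
    by_cases hjk : j = k
    · subst hjk
      have hba : (b : ℕ) ≠ a₀ := by
        intro h
        apply hne
        rw [hi₀]
        congr 1
        exact Fin.ext h
      have hyb : OrdGe (w j) ((b : ℕ) : ℤ) (y ⟨j, b⟩) := Or.inr (hy.ord_self ⟨j, b⟩).ge
      rcases lt_or_gt_of_ne hba with hlt | hgt
      · -- `b < a₀`: the coefficient is divisible
        have hdiv : OrdGe (w j) (e j) (c ⟨j, b⟩) := by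
          rcases hc ⟨j, b⟩ with h | h
          · exact absurd ⟨b.2, h⟩ (hmin b hlt)
          · exact h j
        have := hdiv.mul hyb
        exact this.mono (by have := Int.natCast_nonneg (b : ℕ); omega)
      · have := (hc0 ⟨j, b⟩).mul hyb
        exact this.mono (by omega)
    · have hyj : OrdGe (w k) (e k) (y ⟨j, b⟩) :=
        hy.ordGe_other ⟨j, b⟩ k (fun h => hjk h.symm)
      have := (hc0 ⟨j, b⟩).mul hyj
      exact this.mono (by omega)
  have hsplit : ∑ i', c i' * y i' = c i₀ * y i₀ + ∑ i ∈ Finset.univ.erase i₀, c i * y i :=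
    (Finset.add_sum_erase Finset.univ (fun i => c i * y i) (Finset.mem_univ i₀)).symm
  rw [hsplit]
  have key := ord_add_eq (w k) hterm0 (g := ∑ i ∈ Finset.univ.erase i₀, c i * y i)
    (by rw [hterm]; exact hrest)
  exact ⟨key.1, key.2.trans hterm⟩

section Base

variable {E : Type*} [Field E] [Algebra E F']

variable (E w e) in
/-- The orders at the `w j` of an element of the subfield `E` are `e j * m` with a common `m`,
and `m = 1` occurs. -/
def Compat : Prop :=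
  (∃ t : E, t ≠ 0 ∧ ∀ j, (w j).ord (algebraMap E F' t) = (e j : ℤ)) ∧
    ∀ c : E, c ≠ 0 → ∃ m : ℤ, ∀ j, (w j).ord (algebraMap E F' c) = (e j : ℤ) * m

/-- The order of a linear combination of a local basis with coefficients in `E`: if `m` is the
minimal normalized order of the coefficients, the combination has order `a + e k * m` at some
`w k`, with `a < e k`. -/
theorem coords (H : Compat w e E) {y : (Σ k : ι, Fin (e k)) → F'} (hy : LocalBasis w e y)
    (g : (Σ k : ι, Fin (e k)) → E) (m : ℤ)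
    (hg : ∀ i, g i = 0 ∨ ∃ m' : ℤ, m ≤ m' ∧
      ∀ j, (w j).ord (algebraMap E F' (g i)) = (e j : ℤ) * m')
    (hg1 : ∃ i, g i ≠ 0 ∧ ∀ j, (w j).ord (algebraMap E F' (g i)) = (e j : ℤ) * m) :
    ∃ i : (Σ k : ι, Fin (e k)), (∑ i', g i' • y i') ≠ 0 ∧
      (w i.1).ord (∑ i', g i' • y i') = ((i.2 : ℕ) : ℤ) + (e i.1 : ℤ) * m := by
  obtain ⟨⟨t, ht0, ht⟩, -⟩ := H
  set τ : F' := algebraMap E F' t with hτ
  have hτ0 : τ ≠ 0 := by
    rw [hτ]
    exact (map_ne_zero (algebraMap E F')).mpr ht0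
  have hτm0 : τ ^ (-m) ≠ 0 := zpow_ne_zero _ hτ0
  have hτm : ∀ j, (w j).ord (τ ^ (-m)) = -((e j : ℤ) * m) := fun j => by
    rw [(w j).ord_zpow, ht j]
    ring
  -- the normalized coefficients
  set c : (Σ k : ι, Fin (e k)) → F' := fun i => τ ^ (-m) * algebraMap E F' (g i) with hcdef
  have hc : ∀ i, (c i ≠ 0 ∧ ∀ j, (w j).ord (c i) = 0) ∨ (∀ j, OrdGe (w j) (e j) (c i)) := by
    intro i
    rcases hg i with h0 | ⟨m', hm', hord⟩
    · right
      intro j
      simp only [hcdef, h0, map_zero, mul_zero]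
      exact ordGe_zero _ _
    · rcases eq_or_ne (g i) 0 with h0 | h0
      · right
        intro j
        simp only [hcdef, h0, map_zero, mul_zero]
        exact ordGe_zero _ _
      have hgi0 : algebraMap E F' (g i) ≠ 0 := (map_ne_zero (algebraMap E F')).mpr h0
      have hci : ∀ j, (w j).ord (c i) = (e j : ℤ) * (m' - m) := fun j => by
        simp only [hcdef]
        rw [(w j).ord_mul hτm0 hgi0, hτm j, hord j]
        ring
      rcases eq_or_lt_of_le hm' with heq | hlt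
      · left
        refine ⟨mul_ne_zero hτm0 hgi0, fun j => ?_⟩
        rw [hci j, ← heq, sub_self, mul_zero]
      · right
        intro j
        refine Or.inr ?_
        rw [hci j]
        have h1 : (1 : ℤ) ≤ m' - m := by omega
        have := mul_le_mul_of_nonneg_left h1 (Int.natCast_nonneg (e j))
        linarith
  have hc1 : ∃ i, c i ≠ 0 ∧ ∀ j, (w j).ord (c i) = 0 := by
    obtain ⟨i, hi0, hi⟩ := hg1
    have hgi0 : algebraMap E F' (g i) ≠ 0 := (map_ne_zero (algebraMap E F')).mpr hi0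
    refine ⟨i, mul_ne_zero hτm0 hgi0, fun j => ?_⟩
    simp only [hcdef]
    rw [(w j).ord_mul hτm0 hgi0, hτm j, hi j]
    ring
  obtain ⟨i, hne, hord⟩ := core hy c hc hc1
  have hsum : ∑ i', c i' * y i' = τ ^ (-m) * ∑ i', g i' • y i' := by
    rw [Finset.mul_sum]
    refine Finset.sum_congr rfl fun i' _ => ?_
    simp only [hcdef]
    rw [Algebra.smul_def, mul_assoc]
  rw [hsum] at hne hord
  have hz0 : (∑ i', g i' • y i') ≠ 0 := right_ne_zero_of_mul hne
  refine ⟨i, hz0, ?_⟩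
  rw [(w i.1).ord_mul hτm0 hz0, hτm] at hord
  omega

/-- A nonzero family of coefficients has a minimal normalized order. -/
theorem exists_min_order (H : Compat w e E) (g : (Σ k : ι, Fin (e k)) → E)
    (hg0 : ∃ i, g i ≠ 0) :
    ∃ m : ℤ, (∀ i, g i = 0 ∨ ∃ m' : ℤ, m ≤ m' ∧
        ∀ j, (w j).ord (algebraMap E F' (g i)) = (e j : ℤ) * m') ∧
      ∃ i, g i ≠ 0 ∧ ∀ j, (w j).ord (algebraMap E F' (g i)) = (e j : ℤ) * m := by
  classical
  have hex : ∀ i, ∃ m : ℤ, g i ≠ 0 →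
      ∀ j, (w j).ord (algebraMap E F' (g i)) = (e j : ℤ) * m := by
    intro i
    by_cases h : g i = 0
    · exact ⟨0, fun h' => absurd h h'⟩
    · obtain ⟨m, hm⟩ := H.2 (g i) h
      exact ⟨m, fun _ => hm⟩
  choose μ hμ using hex
  obtain ⟨i₁, hi₁⟩ := hg0
  have hne : (Finset.univ.filter fun i => g i ≠ 0).Nonempty :=
    ⟨i₁, Finset.mem_filter.mpr ⟨Finset.mem_univ _, hi₁⟩⟩
  obtain ⟨i₀, hi₀mem, hi₀⟩ := Finset.exists_min_image _ μ hne
  have hi₀ne : g i₀ ≠ 0 := (Finset.mem_filter.mp hi₀mem).2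
  refine ⟨μ i₀, fun i => ?_, i₀, hi₀ne, hμ i₀ hi₀ne⟩
  by_cases h : g i = 0
  · exact Or.inl h
  · exact Or.inr ⟨μ i, hi₀ i (Finset.mem_filter.mpr ⟨Finset.mem_univ _, h⟩), hμ i h⟩

/-- A local basis is linearly independent over a compatible subfield. -/
theorem linearIndependent_localBasis (H : Compat w e E) {y : (Σ k : ι, Fin (e k)) → F'}
    (hy : LocalBasis w e y) : LinearIndependent E y := by
  rw [Fintype.linearIndependent_iff]
  intro g hg
  by_contra hcon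
  push Not at hcon
  obtain ⟨m, hm, hm1⟩ := exists_min_order H g hcon
  obtain ⟨i, hne, -⟩ := coords H hy g m hm hm1
  exact hne hg

/-- The sum of the `e k` is at most the degree. -/
theorem sum_le_finrank [Module.Finite E F'] (H : Compat w e E) (hw : Function.Injective w) :
    ∑ k, e k ≤ Module.finrank E F' := by
  obtain ⟨y, hy⟩ := exists_localBasis w e hw
  have := (linearIndependent_localBasis H hy).fintype_card_le_finrank
  rwa [Fintype.card_sigma, Finset.sum_congr rfl fun k _ => Fintype.card_fin (e k)] at this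

end Base

end Fermat.Agent.S27.REDu.H51

end
end
-- ==== END Fermat.Agent.S27.REDu.H51_Core
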