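-- GENERATED (merged mirror, NOTES/tools/trim/merge3_helper67.py): 21 modules of the originals, bodies verbatim.
import Mathlib
import Fermat.Prelude.Def_AlgebraicCurve_DivisorClassGroup
import Fermat.Prelude.Def_GaloisRep_CompletionBridge
import Fermat.Prelude.Def_GaloisRep_StrictOrdinary
import Fermat.Agent.Zm.S59_L02_000
import Fermat.Agent.Zm.S59_L01_001
import Fermat.Agent.Zm.S59_L02_001
import Fermat.Agent.Zm.S43_L03_003
import Fermat.Agent.Zm.S43_L01_001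
import Fermat.Agent.Zm.S43_L03_001
import Fermat.Agent.Zm.S58_L01_000
import Fermat.Agent.Zm.S43_L01_004
import Fermat.Agent.Zm.S44_L02_001
import Fermat.Agent.Zm.S43_L03_002
import Fermat.Agent.Zm.S59_L01_000
import Fermat.Agent.Zm.S35_L18_000
import Fermat.Agent.Zm.S36_L02_002
import Fermat.Agent.Zm.S59_L02_002
import Fermat.Agent.Zm.S56_L01_005
import Fermat.Agent.Zm.S56_L02_003
import Fermat.Agent.Zm.S44_L05_000
import Fermat.Agent.Zm.S44_L04_001
import Fermat.Agent.Zm.S44_L01_004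
import Fermat.Agent.Zm.S59_L01_002
import Fermat.Agent.Zm.S44_L04_000
import Fermat.Agent.Zm.S44_L01_001
import Fermat.Agent.Zm.S56_L01_000
import Fermat.Agent.Lib.EllFinite.Main
import Fermat.Agent.Zm.S59_L02_005

-- ==== BEGIN Fermat.Agent.S27.Char0.Lift.H45_Asm
section

/-!
# S27 LIFT, assembly (helper45)

`stmt_LIFT_of : Stmt_Generic → Stmt_Lattice → Stmt_Solve → Stmt_Concl → Char0.Stmt_LIFT`.

Given a solution `h` all of whose orders are divisible by `n`, put `D := div(h) / n`.  Then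
`n D = div h` is principal, `deg D = 0`, and by the divisor identity
`n r_* D = div (rd h) = div ht = n (Et - Et')`, so `r_* D = Et - Et' ∼ E`.
-/

set_option autoImplicit false

noncomputable section

open AlgebraicCurve IntermediateField

namespace Fermat.Agent.S27.Char0.Lift.H45

open Fermat.Agent.RED.H17 Fermat.Agent.S27.Char0

attribute [local instance] Classical.propDecidable

local notation "L" => riemannRochSpace

universe u v u' v'

section Quot

variable {K : Type u} {F : Type v} [Field K] [Field F] [Algebra K F]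

/-- The divisor `div(h) / n`. -/
def divQuot (hP : HasPrincipalDivisors K F) (h : F) (n : ℕ) : Divisor K F :=
  (dv hP h).mapRange (fun m : ℤ => m / (n : ℤ)) (by simp)

theorem divQuot_apply (hP : HasPrincipalDivisors K F) (h : F) (n : ℕ) (P : Place K F) :
    divQuot hP h n P = P.ord h / (n : ℤ) := by
  rw [divQuot, Finsupp.mapRange_apply, dv_apply]

theorem smul_divQuot (hP : HasPrincipalDivisors K F) (h : F) (n : ℕ)
    (hdiv : ∀ P : Place K F, (n : ℤ) ∣ P.ord h) : (n : ℤ) • divQuot hP h n = dv hP h := by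
  ext P
  rw [Finsupp.smul_apply, divQuot_apply, dv_apply, smul_eq_mul]
  exact Int.mul_ediv_cancel' (hdiv P)

end Quot

/-- **Assembly of package LIFT.** -/
theorem stmt_LIFT_of (hGen : Stmt_Generic.{u', v'}) (hLat : Stmt_Lattice.{u, v, u', v'})
    (hSol : Stmt_Solve.{u, v, u', v'}) (hCon : Stmt_Concl.{u, v, u', v'}) :
    Stmt_LIFT.{u, v, u', v'} := by
  intro K F k Ft _ _ _ _ _ _ _ _ _ G H H' g c c' hg hg' n hn E hE hnE
  have hn0 : n ≠ 0 := by
    rintro rfl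
    exact hn Nat.cast_zero
  have hnZ : (n : ℤ) ≠ 0 := Nat.cast_ne_zero.mpr hn0
  obtain ⟨Gd⟩ := hGen k Ft H' g c' hg' (G.S.rd G.x) G.transc G.fin' G.sep' n
    (Nat.pos_of_ne_zero hn0) E hE hnE
  -- the number of unknowns
  have hNpos : (0 : ℤ) ≤ n * g + 1 - g := by
    have h1 : (1 : ℤ) ≤ n := by exact_mod_cast Nat.pos_of_ne_zero hn0
    have h2 : (0 : ℤ) ≤ g := Int.natCast_nonneg g
    nlinarith
  obtain ⟨N, hN⟩ := Int.eq_ofNat_of_zero_le hNpos
  have hrank : Module.finrank k (L ((n : ℤ) • Gd.Et')) = N := by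
    have := Gd.rank
    rw [hN] at this
    exact_mod_cast this
  obtain ⟨Ld⟩ := hLat K F k Ft G H H' g c c' hg hg' n Gd.Et' Gd.eff Gd.deg N hN.symm hrank
  obtain ⟨h, hsol⟩ := hSol K F k Ft G H H' g c c' hg hg' n hn E Gd N hN.symm Ld
  have hdiv := hCon K F k Ft G H H' g c c' hg hg' n hn E Gd N Ld h hsol
  have hP := H.principal
  have hGU : G.S.IsGU h := ⟨hsol.mem_V, by rw [hsol.rd_eq]; exact Gd.ht_ne⟩
  have hh0 : h ≠ 0 := hGU.ne_zero
  have hsm := smul_divQuot hP h n hdiv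
  refine ⟨divQuot hP h n, ?_, ?_, ?_⟩
  · -- degree
    have h1 : (n : ℤ) • Divisor.degree (divQuot hP h n) = 0 := by
      rw [← map_zsmul, hsm, degree_dv]
    rw [smul_eq_mul] at h1
    exact (mul_eq_zero.mp h1).resolve_left hnZ
  · rw [hsm]
    exact dv_mem_principal hP hh0
  · have h2 : Finsupp.mapDomain G.S.r (divQuot hP h n) = ptsDiv Gd.A - Gd.Et' := by
      have h3 : (n : ℤ) • Finsupp.mapDomain G.S.r (divQuot hP h n)
          = (n : ℤ) • (ptsDiv Gd.A - Gd.Et') := by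
        rw [← Finsupp.mapDomain_smul, hsm]
        ext Q
        rw [G.S.mapDomain_dv hP hGU Q, hsol.rd_eq, Gd.div_ht Q, Finsupp.smul_apply,
          Finsupp.sub_apply, smul_eq_mul]
      ext Q
      have h4 := DFunLike.congr_fun h3 Q
      rw [Finsupp.smul_apply, Finsupp.smul_apply, smul_eq_mul, smul_eq_mul] at h4
      exact mul_left_cancel₀ hnZ h4
    rw [h2]
    exact Gd.equiv

end Fermat.Agent.S27.Char0.Lift.H45

end
end
-- ==== END Fermat.Agent.S27.Char0.Lift.H45_Asm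

-- ==== BEGIN Fermat.Agent.S27.Zeta.H30_Norm
section

set_option autoImplicit false

noncomputable section

namespace Fermat.Agent.S27.Zeta.H30

open Fermat.Agent.S27.Zeta

universe u

variable {Pl : Type u} (S : ZSys Pl)

/-- the iterates of Frobenius on the classes, as homomorphisms -/
def frobIter : ℕ → (S.Cl0 →+ S.Cl0)
  | 0 => AddMonoidHom.id _
  | (i + 1) => S.frob.comp (frobIter i)

theorem frobIter_apply (i : ℕ) (y : S.Cl0) : frobIter S i y = (⇑S.frob)^[i] y := by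
  induction i with
  | zero => rfl
  | succ i ih =>
    rw [Function.iterate_succ_apply', ← ih]
    rfl

/-- the norm `y ↦ y + φy + … + φ^(m-1) y` -/
def nmHom (m : ℕ) : S.Cl0 →+ S.Cl0 := ∑ i ∈ Finset.range m, frobIter S i

theorem nmHom_apply (m : ℕ) (y : S.Cl0) :
    nmHom S m y = ∑ i ∈ Finset.range m, (⇑S.frob)^[i] y := by
  unfold nmHom
  rw [AddMonoidHom.finsetSum_apply]
  exact Finset.sum_congr rfl fun i _ => frobIter_apply S i y

theorem cls_fixed (P₀ : Pl) (hP₀ : S.φ P₀ = P₀) (D : Pl →₀ ℤ) (hD : act S.φ D = D) :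
    cls S P₀ D ∈ fixSub S.frob := by
  rw [mem_fixSub, ← cls_act S P₀ hP₀, hD]

/-- the class of an orbit sum `P + φP + … + φ^(ms-1) P` is a norm -/
theorem cls_orbSum_norm (P₀ : Pl) (hP₀ : S.φ P₀ = P₀) (m s : ℕ) (P : Pl)
    (hP : (S.φ ^ (m * s)) P = P) :
    cls S P₀ (orbSum S.φ (m * s) P)
      ∈ AddSubgroup.map (nmHom S m) (fixSub (frobIter S m)) := by
  refine ⟨cls S P₀ (orbSum (S.φ ^ m) s P), ?_, ?_⟩
  · show frobIter S m _ = _
    rw [frobIter_apply, ← cls_act_pow S P₀ hP₀,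
      act_orbSum (S.φ ^ m) s P (by rw [← pow_mul]; exact hP)]
  · rw [nmHom_apply, orbSum_mul, map_sum]
    exact Finset.sum_congr rfl fun a _ => (cls_act_pow S P₀ hP₀ a _).symm

/-- `A_n(χ) = 0` in large degree -/
theorem twisted_sum_zero (P₀ : Pl) (hP₀ : S.φ P₀ = P₀)
    (hrep : ∀ x : S.Cl0, S.frob x = x →
      ∃ D : S.degZero, act S.φ (D : Pl →₀ ℤ) = D ∧ QuotientAddGroup.mk D = x)
    (hHfin : ((fixSub S.frob : AddSubgroup S.Cl0) : Set S.Cl0).Finite)
    (ψ : S.Cl0 → ℂ) (hsum : ∑ c ∈ hHfin.toFinset, ψ c = 0)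
    (n : ℕ) (hn : 2 * (S.g : ℤ) - 1 ≤ n) (hfin : (effInv S.φ n).Finite) :
    ∑ᶠ E ∈ effInv S.φ n, ψ (cls S P₀ E) = 0 := by
  classical
  rw [finsum_mem_eq_finite_toFinset_sum _ hfin]
  have hmaps : ∀ E ∈ hfin.toFinset, cls S P₀ E ∈ hHfin.toFinset := by
    intro E hE
    rw [Set.Finite.mem_toFinset] at hE ⊢
    exact cls_fixed S P₀ hP₀ E hE.2.1
  rw [← Finset.sum_fiberwise_of_maps_to hmaps]
  have hfib : ∀ c ∈ hHfin.toFinset,
      ∑ E ∈ hfin.toFinset with cls S P₀ E = c, ψ (cls S P₀ E)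
        = ((effCls S P₀ n 0).ncard : ℂ) * ψ c := by
    intro c hc
    rw [Set.Finite.mem_toFinset] at hc
    have hc' : S.frob c = c := hc
    have e1 : ∑ E ∈ hfin.toFinset with cls S P₀ E = c, ψ (cls S P₀ E)
        = ∑ E ∈ hfin.toFinset with cls S P₀ E = c, ψ c := by
      refine Finset.sum_congr rfl fun E hE => ?_
      rw [(Finset.mem_filter.mp hE).2]
    rw [e1, Finset.sum_const, nsmul_eq_mul]
    congr 2
    have e2 : (((hfin.toFinset.filter fun E => cls S P₀ E = c) : Finset (Pl →₀ ℤ)) :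
        Set (Pl →₀ ℤ)) = effCls S P₀ n c := by
      ext E
      simp only [Finset.coe_filter, Set.Finite.mem_toFinset, effCls, Set.mem_ofPred_eq]
    rw [← Set.ncard_coe_finset, e2]
    obtain ⟨D₀, hD₀, hD₀c⟩ := hrep c hc'
    rw [← hD₀c]
    have h0 : (0 : S.Cl0) = QuotientAddGroup.mk (0 : S.degZero) := rfl
    rw [h0]
    exact effCls_ncard_eq S P₀ hP₀ n hn D₀ 0 hD₀ (map_zero _)
  rw [Finset.sum_congr rfl hfib, ← Finset.mul_sum, hsum, mul_zero]

/-- the number of invariant effective divisors of degree `r` is not `0` -/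
theorem count_ne_zero (σ : Equiv.Perm Pl) (P₀ : Pl) (hP₀ : σ P₀ = P₀) (r : ℕ)
    (hfin : (effInv σ r).Finite) : ∑ᶠ _E ∈ effInv σ r, (1 : ℂ) ≠ 0 := by
  rw [finsum_mem_eq_finite_toFinset_sum _ hfin, Finset.sum_const, nsmul_eq_mul, mul_one]
  have hmem : Finsupp.single P₀ (r : ℤ) ∈ hfin.toFinset := by
    rw [Set.Finite.mem_toFinset]
    exact smul_single_mem_effInv σ P₀ hP₀ r
  have : hfin.toFinset.card ≠ 0 := Finset.card_ne_zero_of_mem hmem
  exact_mod_cast this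

/-- **Z-NORM** from Z-FIN and Z-LOGDER. -/
theorem z_norm_of (hFin : Stmt_Z_Fin.{u}) (hLog : Stmt_Z_LogDer.{u, 0}) : Stmt_Z_Norm.{u} := by
  intro Pl S m hm x hx
  by_contra hcon
  obtain ⟨P₀, hP₀⟩ := S.fixed
  obtain ⟨hfinE, -, hfinFix, hrep⟩ := hFin Pl S
  obtain ⟨hfinEm, -, -, -⟩ := hFin Pl (S.pow m hm)
  have hfinE' : ∀ n : ℕ, (effInv S.φ n).Finite := fun n => by
    rw [← S.invEff_eq]; exact hfinE n
  have hfinEm' : ∀ n : ℕ, (effInv (S.φ ^ m) n).Finite := fun n => by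
    have := hfinEm n
    rw [(S.pow m hm).invEff_eq] at this
    exact this
  have hHfin : ((fixSub S.frob : AddSubgroup S.Cl0) : Set S.Cl0).Finite := by
    have h1 : Finite {y : S.Cl0 // (⇑S.frob)^[1] y = y} := hfinFix 1 Nat.one_pos
    exact Set.finite_coe_iff.mp h1
  have hxH : x ∈ fixSub S.frob := hx
  have hxN : x ∉ AddSubgroup.map (nmHom S m) (fixSub (frobIter S m)) := by
    rintro ⟨y, hy, hyx⟩
    apply hcon
    refine ⟨y, ?_, ?_⟩
    · rw [← frobIter_apply]; exact hy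
    · rw [← nmHom_apply]; exact hyx
  obtain ⟨ψ, hψ0, hψmul, hψN, hψx⟩ := norm_char_exists (fixSub S.frob)
    (AddSubgroup.map (nmHom S m) (fixSub (frobIter S m))) hHfin x hxH hxN
  have hsum := norm_char_sum_zero (fixSub S.frob) hHfin ψ hψmul x hxH hψx
  have hχ0 : ψ (cls S P₀ 0) = 1 := by rw [map_zero]; exact hψ0
  have hχmul : ∀ D E : Pl →₀ ℤ, 0 ≤ D → 0 ≤ E → act S.φ D = D → act S.φ E = E →
      ψ (cls S P₀ (D + E)) = ψ (cls S P₀ D) * ψ (cls S P₀ E) := by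
    intro D E _ _ hD hE
    rw [map_add]
    exact hψmul _ (cls_fixed S P₀ hP₀ D hD) _ (cls_fixed S P₀ hP₀ E hE)
  refine norm_ps_contra m hm (fun n => ∑ᶠ E ∈ effInv S.φ n, ψ (cls S P₀ E))
    (fun j => ∑ᶠ P ∈ fixPts S.φ j, ψ (cls S P₀ (orbSum S.φ j P)))
    (fun r => ∑ᶠ _E ∈ effInv (S.φ ^ m) r, (1 : ℂ))
    (fun j => ∑ᶠ _P ∈ fixPts S.φ j, (1 : ℂ)) ?_ ?_ ?_ ?_ ?_ ?_ ?_
  · intro n
    exact hLog Pl S.φ S.orbit S.fixfin ℂ (fun D => ψ (cls S P₀ D)) hχ0 hχmul n
  · intro r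
    have := hLog Pl (S.φ ^ m) (S.pow m hm).orbit (S.pow m hm).fixfin ℂ (fun _ => (1 : ℂ)) rfl
      (fun _ _ _ _ _ _ => (one_mul (1 : ℂ)).symm) r
    simp only [fixPts_pow] at this
    exact this
  · intro j hj hmj
    obtain ⟨s, rfl⟩ := hmj
    refine finsum_mem_congr rfl fun P hP => ?_
    exact hψN _ (cls_fixed S P₀ hP₀ _ (act_orbSum S.φ (m * s) P hP))
      (cls_orbSum_norm S P₀ hP₀ m s P hP)
  · show ∑ᶠ E ∈ effInv S.φ 0, ψ (cls S P₀ E) = 1
    rw [effInv_zero, finsum_mem_singleton]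
    exact hχ0
  · show ∑ᶠ _E ∈ effInv (S.φ ^ m) 0, (1 : ℂ) = 1
    rw [effInv_zero, finsum_mem_singleton]
  · refine ⟨(2 * (S.g : ℤ) - 1).toNat, fun n hn => ?_⟩
    exact twisted_sum_zero S P₀ hP₀ hrep hHfin ψ hsum n (by omega) (hfinE' n)
  · intro r
    exact count_ne_zero (S.φ ^ m) P₀ (pow_fixed S.φ P₀ hP₀ m) r (hfinEm' r)

end Fermat.Agent.S27.Zeta.H30

end
end
-- ==== END Fermat.Agent.S27.Zeta.H30_Norm

-- ==== BEGIN Fermat.Agent.S27.Zeta.H52_Count
section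

/-!
# S27, package ZETA-ABS (helper52): counting invariant effective divisors by classes

For a `ZSys` with a fixed place `P₀`:

* `FixCl S` : the invariant classes of degree `0`; `Dn S P₀ n x` : a divisor of degree `n` in the
  class `x + n P₀`;
* `card_invEff` : `(Q - 1) #invEff n = ∑_{x ∈ FixCl} (Q ^ l(x + n P₀) - 1)`;
* `card_invEff_large` : `(Q - 1) #invEff n = h (Q ^ (n + 1 - g) - 1)` for `n ≥ 2g - 1`;
* `card_invEff_canonical` : `(Q - 1) #invEff (2g - 2) = (h - 1)(Q ^ (g - 1) - 1) + (Q ^ g - 1)`;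
* `card_invEff_zero` : `#invEff 0 = 1`.
-/

set_option autoImplicit false
set_option linter.style.haveILetI false
set_option linter.unusedSectionVars false

noncomputable section

namespace Fermat.Agent.S27.Zeta.H52

universe u

variable {Pl : Type u} (S : ZSys Pl)

/-- The invariant classes of degree `0`. -/
abbrev FixCl : Type u := {x : S.Cl0 // S.frob x = x}

/-- A representative of a class. -/
def rep (x : S.Cl0) : S.degZero := (QuotientAddGroup.mk_surjective x).choose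

theorem mk_rep (x : S.Cl0) : (QuotientAddGroup.mk (rep S x) : S.Cl0) = x :=
  (QuotientAddGroup.mk_surjective x).choose_spec

theorem mk_eq_mk_iff (D E : S.degZero) :
    (QuotientAddGroup.mk D : S.Cl0) = QuotientAddGroup.mk E ↔
      (D : Pl →₀ ℤ) - E ∈ S.Princ := by
  rw [QuotientAddGroup.eq, AddSubgroup.mem_addSubgroupOf]
  have e : (D : Pl →₀ ℤ) - E = -(((-D + E : S.degZero) : Pl →₀ ℤ)) := by
    push_cast
    abel
  rw [e, neg_mem_iff]

theorem degree_rep (x : S.Cl0) : S.degree (rep S x : Pl →₀ ℤ) = 0 := (rep S x).2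

theorem act_rep_sub_mem (x : FixCl S) :
    act S.φ (rep S x.1 : Pl →₀ ℤ) - rep S x.1 ∈ S.Princ := by
  have h := x.2
  rw [← mk_rep S x.1, ZSys.frob_mk, mk_eq_mk_iff, ZSys.coe_frobDegZero] at h
  exact h

/-- A divisor of degree `n` in the class `x + n P₀`. -/
def Dn (P₀ : Pl) (n : ℕ) (x : S.Cl0) : Pl →₀ ℤ :=
  (rep S x : Pl →₀ ℤ) + Finsupp.single P₀ (n : ℤ)

theorem degree_Dn (P₀ : Pl) (n : ℕ) (x : S.Cl0) : S.degree (Dn S P₀ n x) = n := by
  unfold Dn
  rw [map_add, degree_rep, S.degree_single, zero_add]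

theorem act_Dn_sub_mem {P₀ : Pl} (hP₀ : S.φ P₀ = P₀) (n : ℕ) (x : FixCl S) :
    act S.φ (Dn S P₀ n x.1) - Dn S P₀ n x.1 ∈ S.Princ := by
  unfold Dn
  rw [map_add, act_single, hP₀, add_sub_add_right_eq_sub]
  exact act_rep_sub_mem S x

theorem sub_single_mem_degZero (P₀ : Pl) {n : ℕ} {E : Pl →₀ ℤ} (hE : S.degree E = n) :
    E - Finsupp.single P₀ (n : ℤ) ∈ S.degZero := by
  show S.degree (E - Finsupp.single P₀ (n : ℤ)) = 0
  rw [map_sub, S.degree_single, hE, sub_self]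

/-- The class of an invariant effective divisor of degree `n`, shifted to degree `0`. -/
def cls {P₀ : Pl} (hP₀ : S.φ P₀ = P₀) (n : ℕ) (E : S.invEff n) : FixCl S :=
  ⟨QuotientAddGroup.mk ⟨(E : Pl →₀ ℤ) - Finsupp.single P₀ (n : ℤ),
      sub_single_mem_degZero S P₀ E.2.2.2⟩, by
    rw [ZSys.frob_mk]
    congr 1
    apply Subtype.ext
    rw [ZSys.coe_frobDegZero]
    show act S.φ ((E : Pl →₀ ℤ) - Finsupp.single P₀ (n : ℤ))
      = (E : Pl →₀ ℤ) - Finsupp.single P₀ (n : ℤ)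
    have hE : act S.φ (E : Pl →₀ ℤ) = E := E.2.2.1
    rw [map_sub, act_single, hP₀, hE]⟩

theorem cls_eq_iff {P₀ : Pl} (hP₀ : S.φ P₀ = P₀) (n : ℕ) (E : S.invEff n) (x : FixCl S) :
    cls S hP₀ n E = x ↔ (E : Pl →₀ ℤ) - Dn S P₀ n x.1 ∈ S.Princ := by
  rw [Subtype.ext_iff]
  show (QuotientAddGroup.mk _ : S.Cl0) = x.1 ↔ _
  conv_lhs => rw [← mk_rep S x.1]
  rw [mk_eq_mk_iff]
  unfold Dn
  have e : (E : Pl →₀ ℤ) - ((rep S x.1 : Pl →₀ ℤ) + Finsupp.single P₀ (n : ℤ))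
      = ((E : Pl →₀ ℤ) - Finsupp.single P₀ (n : ℤ)) - (rep S x.1 : Pl →₀ ℤ) := by abel
  rw [e]

/-- The fibre of `cls` over `x` is the set of the counting axiom. -/
def fiberEquiv {P₀ : Pl} (hP₀ : S.φ P₀ = P₀) (n : ℕ) (x : FixCl S) :
    {E : S.invEff n // cls S hP₀ n E = x} ≃
      {E : Pl →₀ ℤ // 0 ≤ E ∧ act S.φ E = E ∧ E - Dn S P₀ n x.1 ∈ S.Princ} where
  toFun E := ⟨E.1.1, E.1.2.1, E.1.2.2.1, (cls_eq_iff S hP₀ n E.1 x).mp E.2⟩
  invFun E := ⟨⟨E.1, E.2.1, E.2.2.1, by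
      have h := S.princ_deg _ E.2.2.2
      rw [map_sub, degree_Dn] at h
      exact sub_eq_zero.mp h⟩, (cls_eq_iff S hP₀ n _ x).mpr E.2.2.2⟩
  left_inv E := Subtype.ext (Subtype.ext rfl)
  right_inv E := Subtype.ext rfl

/-- **Counting by classes.** -/
theorem card_invEff {P₀ : Pl} (hP₀ : S.φ P₀ = P₀) (n : ℕ) (hfin : (S.invEff n).Finite)
    [Fintype (FixCl S)] :
    ((S.invEff n).ncard : ℤ) * ((S.Q : ℤ) - 1)
      = ∑ x : FixCl S, ((S.Q : ℤ) ^ S.l (Dn S P₀ n x.1) - 1) := by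
  haveI : Finite (S.invEff n) := hfin.to_subtype
  have h1 : (S.invEff n).ncard = ∑ x : FixCl S,
      Nat.card {E : Pl →₀ ℤ // 0 ≤ E ∧ act S.φ E = E ∧ E - Dn S P₀ n x.1 ∈ S.Princ} := by
    rw [← Nat.card_coe_set_eq, Nat.card_congr (Equiv.sigmaFiberEquiv (cls S hP₀ n)).symm,
      Nat.card_sigma]
    exact Finset.sum_congr rfl fun x _ => Nat.card_congr (fiberEquiv S hP₀ n x)
  rw [h1, Nat.cast_sum, Finset.sum_mul]
  exact Finset.sum_congr rfl fun x _ => cnt_int S (act_Dn_sub_mem S hP₀ n x)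

/-- `#invEff 0 = 1`. -/
theorem card_invEff_zero : (S.invEff 0).ncard = 1 := by
  have h : S.invEff 0 = {0} := by
    ext E
    rw [Set.mem_singleton_iff]
    constructor
    · rintro ⟨h0, -, hd⟩
      exact eq_zero_of_nonneg_of_degree S h0 (by simpa using hd)
    · rintro rfl
      exact ⟨le_rfl, map_zero _, by simp⟩
  rw [h, Set.ncard_singleton]

/-- `(Q - 1) #invEff n = h (Q ^ (n + 1 - g) - 1)` for `n ≥ 2g - 1`. -/
theorem card_invEff_large {P₀ : Pl} (hP₀ : S.φ P₀ = P₀) (n : ℕ) (hfin : (S.invEff n).Finite)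
    [Fintype (FixCl S)] (hn : 2 * S.g ≤ n + 1) :
    ((S.invEff n).ncard : ℤ) * ((S.Q : ℤ) - 1)
      = (Fintype.card (FixCl S) : ℤ) * ((S.Q : ℤ) ^ (n + 1 - S.g) - 1) := by
  rw [card_invEff S hP₀ n hfin]
  have hl : ∀ x : FixCl S, S.l (Dn S P₀ n x.1) = n + 1 - S.g := by
    intro x
    have h := l_of_large S (D := Dn S P₀ n x.1) (by rw [degree_Dn]; omega)
    rw [degree_Dn] at h
    omega
  rw [Finset.sum_congr rfl fun x _ => by rw [hl x], Finset.sum_const, Finset.card_univ,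
    nsmul_eq_mul]

/-- The class of `W`, shifted to degree `0`. -/
def clsW {P₀ : Pl} (hP₀ : S.φ P₀ = P₀) (hg : 1 ≤ S.g) : FixCl S :=
  ⟨QuotientAddGroup.mk ⟨S.W - Finsupp.single P₀ ((2 * S.g - 2 : ℕ) : ℤ),
      sub_single_mem_degZero S P₀ (by rw [degree_W]; omega)⟩, by
    rw [ZSys.frob_mk, mk_eq_mk_iff, ZSys.coe_frobDegZero]
    show act S.φ (S.W - Finsupp.single P₀ ((2 * S.g - 2 : ℕ) : ℤ))
      - (S.W - Finsupp.single P₀ ((2 * S.g - 2 : ℕ) : ℤ)) ∈ S.Princ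
    rw [map_sub, act_single, hP₀, sub_sub_sub_cancel_right, ← neg_sub]
    exact S.Princ.neg_mem (W_sub_act_mem S)⟩

theorem eq_clsW_iff {P₀ : Pl} (hP₀ : S.φ P₀ = P₀) (hg : 1 ≤ S.g) (x : FixCl S) :
    x = clsW S hP₀ hg ↔ S.W - Dn S P₀ (2 * S.g - 2) x.1 ∈ S.Princ := by
  rw [eq_comm, Subtype.ext_iff]
  show (QuotientAddGroup.mk _ : S.Cl0) = x.1 ↔ _
  conv_lhs => rw [← mk_rep S x.1]
  rw [mk_eq_mk_iff]
  unfold Dn
  have e : S.W - ((rep S x.1 : Pl →₀ ℤ) + Finsupp.single P₀ ((2 * S.g - 2 : ℕ) : ℤ))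
      = (S.W - Finsupp.single P₀ ((2 * S.g - 2 : ℕ) : ℤ)) - (rep S x.1 : Pl →₀ ℤ) := by abel
  rw [e]

/-- `(Q - 1) #invEff (2g - 2) = h (Q ^ (g - 1) - 1) + (Q ^ g - Q ^ (g - 1))`. -/
theorem card_invEff_canonical {P₀ : Pl} (hP₀ : S.φ P₀ = P₀) (hg : 1 ≤ S.g)
    (hfin : (S.invEff (2 * S.g - 2)).Finite) [Fintype (FixCl S)] :
    ((S.invEff (2 * S.g - 2)).ncard : ℤ) * ((S.Q : ℤ) - 1)
      = (Fintype.card (FixCl S) : ℤ) * ((S.Q : ℤ) ^ (S.g - 1) - 1)
        + ((S.Q : ℤ) ^ S.g - (S.Q : ℤ) ^ (S.g - 1)) := by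
  classical
  rw [card_invEff S hP₀ _ hfin]
  have hl : ∀ x : FixCl S, (S.Q : ℤ) ^ S.l (Dn S P₀ (2 * S.g - 2) x.1) - 1
      = ((S.Q : ℤ) ^ (S.g - 1) - 1)
        + (if x = clsW S hP₀ hg then (S.Q : ℤ) ^ S.g - (S.Q : ℤ) ^ (S.g - 1) else 0) := by
    intro x
    have hdeg : S.degree (Dn S P₀ (2 * S.g - 2) x.1) = 2 * (S.g : ℤ) - 2 := by
      rw [degree_Dn]; omega
    rcases l_canonical S hdeg with ⟨hp, h⟩ | ⟨hp, h⟩
    · rw [if_pos ((eq_clsW_iff S hP₀ hg x).mpr hp)]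
      have : S.l (Dn S P₀ (2 * S.g - 2) x.1) = S.g := by exact_mod_cast h
      rw [this]
      ring
    · rw [if_neg (fun hx => hp ((eq_clsW_iff S hP₀ hg x).mp hx)), add_zero]
      have : S.l (Dn S P₀ (2 * S.g - 2) x.1) = S.g - 1 := by omega
      rw [this]
  rw [Finset.sum_congr rfl fun x _ => hl x, Finset.sum_add_distrib, Finset.sum_const,
    Finset.card_univ, nsmul_eq_mul, Finset.sum_ite_eq' Finset.univ (clsW S hP₀ hg),
    if_pos (Finset.mem_univ _)]

end Fermat.Agent.S27.Zeta.H52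

end
end
-- ==== END Fermat.Agent.S27.Zeta.H52_Count

-- ==== BEGIN Fermat.Agent.S27.Zeta.H8_Ext
section

set_option autoImplicit false

namespace Fermat.Agent.S27.Zeta.H8

open Fermat.Agent.S27 Fermat.Agent.S27.Zeta

universe u

/-- `∑ᶠ a ∈ s, 1 = #s` (both sides are `0` if `s` is infinite). -/
theorem finsum_mem_one_eq_ncard {α : Type*} (s : Set α) :
    (∑ᶠ a ∈ s, (1 : ℤ)) = (s.ncard : ℤ) := by
  by_cases hs : s.Finite
  · rw [finsum_mem_eq_finite_toFinset_sum _ hs, Finset.sum_const, Set.ncard_eq_toFinset_card s hs,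
      nsmul_eq_mul, mul_one]
  · rw [finsum_mem_eq_zero_of_infinite, Set.Infinite.ncard hs, Nat.cast_zero]
    have h : Function.support (fun _ : α => (1 : ℤ)) = Set.univ := by
      ext a
      simp
    rw [h, Set.inter_univ]
    exact hs

section Series

open PowerSeries

/-- From the logarithmic derivative of `Z = ∑ a_n X^n` to the Newton recursion for
`L = (1 - X)(1 - Q X) Z`. -/
theorem newton_of_logder (Q : ℤ) (a N : ℕ → ℤ) (L : PowerSeries ℤ)
    (hlog : ∀ n : ℕ, (n : ℤ) * a n = ∑ j ∈ Finset.Icc 1 n, N j * a (n - j))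
    (hL : L = (1 - X) * (1 - C Q * X) * PowerSeries.mk a) :
    ∀ j : ℕ, ((j : ℤ) + 1) * coeff (j + 1) L =
      - ∑ m ∈ Finset.range (j + 1), (1 + Q ^ (m + 1) - N (m + 1)) * coeff (j - m) L := by
  set Z : PowerSeries ℤ := PowerSeries.mk a with hZdef
  set NN : PowerSeries ℤ := PowerSeries.mk (fun j => if j = 0 then 0 else N j) with hNN
  set E1 : PowerSeries ℤ := PowerSeries.mk 1 with hE1
  set EQ : PowerSeries ℤ := PowerSeries.mk (fun n => Q ^ n) with hEQ
  have h1 : E1 * (1 - X) = 1 := mk_one_mul_one_sub_eq_one ℤ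
  have hQ : EQ * (1 - C Q * X) = 1 := by
    have h := congrArg (rescale Q) h1
    rw [map_mul, map_sub, map_one, rescale_X, hE1, rescale_mk] at h
    simpa only [Pi.one_apply, mul_one] using h
  -- the logarithmic derivative of `Z`
  have hZ : X * d⁄dX ℤ Z = NN * Z := by
    ext n
    rcases n with _ | n
    · rw [coeff_zero_X_mul, coeff_mul, Finset.Nat.antidiagonal_zero, Finset.sum_singleton,
        coeff_mk]
      simp
    · rw [coeff_succ_X_mul, coeff_derivative, coeff_mk, coeff_mul,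
        Finset.Nat.sum_antidiagonal_eq_sum_range_succ (fun i k => coeff i NN * coeff k Z),
        Finset.sum_range_succ']
      have h0 : coeff 0 NN = 0 := by rw [coeff_mk]; simp
      rw [h0, zero_mul, add_zero]
      have h2 := hlog (n + 1)
      rw [← Finset.Ico_add_one_right_eq_Icc, Finset.sum_Ico_eq_sum_range] at h2
      have h3 : (n + 1 + 1 - 1) = n + 1 := by omega
      rw [h3] at h2
      push_cast at h2
      rw [mul_comm, h2]
      refine Finset.sum_congr rfl fun i _ => ?_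
      rw [coeff_mk, coeff_mk, if_neg (Nat.succ_ne_zero i), add_comm 1 i]
  -- the derivative of `L`
  have hd : d⁄dX ℤ L = (-(1 - C Q * X) - C Q * (1 - X)) * Z + (1 - X) * (1 - C Q * X) * d⁄dX ℤ Z := by
    rw [hL, Derivation.leibniz, Derivation.leibniz]
    simp only [map_sub, derivative_one, Derivation.leibniz, derivative_C, derivative_X, smul_eq_mul,
      zero_sub, mul_zero, mul_one, add_zero, mul_neg]
    ring
  set TT : PowerSeries ℤ := X * E1 + C Q * X * EQ - NN with hTT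
  have hmain : X * d⁄dX ℤ L = - (TT * L) := by
    rw [hd, hL, hTT]
    linear_combination (X * (1 - C Q * X) * Z) * h1 + (C Q * X * (1 - X) * Z) * hQ +
      ((1 - X) * (1 - C Q * X)) * hZ
  intro j
  have hj := congrArg (coeff (j + 1)) hmain
  rw [coeff_succ_X_mul, coeff_derivative, map_neg, coeff_mul,
    Finset.Nat.sum_antidiagonal_eq_sum_range_succ (fun i k => coeff i TT * coeff k L),
    Finset.sum_range_succ'] at hj
  have h0 : coeff 0 TT = 0 := by
    rw [hTT, map_sub, map_add, coeff_zero_X_mul, mul_assoc, mul_comm (C Q), mul_assoc,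
      coeff_zero_X_mul, coeff_mk]
    simp
  have hT : ∀ m : ℕ, coeff (m + 1) TT = 1 + Q ^ (m + 1) - N (m + 1) := by
    intro m
    rw [hTT, map_sub, map_add, coeff_succ_X_mul, mul_comm (C Q) X, mul_assoc, coeff_succ_X_mul,
      coeff_C_mul, coeff_mk, coeff_mk, coeff_mk, if_neg (Nat.succ_ne_zero m), pow_succ']
    rfl
  rw [h0, zero_mul, add_zero] at hj
  rw [mul_comm, hj]
  congr 1
  refine Finset.sum_congr rfl fun m _ => ?_
  rw [hT, Nat.add_sub_add_right]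

end Series

section Matrix

open Polynomial Matrix

variable {n : Type*} [Fintype n] [DecidableEq n]

/-- `det (1 - X A)` at `X = 1`. -/
theorem eval_one_charpolyRev (B : Matrix n n ℤ) : B.charpolyRev.eval 1 = (1 - B).det := by
  unfold Matrix.charpolyRev
  rw [← Polynomial.coe_evalRingHom, RingHom.map_det]
  congr 1
  ext i j
  simp [Matrix.one_apply, apply_ite]

/-- The traces of the powers of `A` are determined by the Newton recursion for
`det (1 - X A)`. -/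
theorem trace_pow_eq_of_newton (A : Matrix n n ℤ) (t : ℕ → ℤ)
    (hrec : ∀ j : ℕ, ((j : ℤ) + 1) * A.charpolyRev.coeff (j + 1) =
      - ∑ m ∈ Finset.range (j + 1), t (m + 1) * A.charpolyRev.coeff (j - m)) :
    ∀ i : ℕ, (A ^ (i + 1)).trace = t (i + 1) := by
  intro i
  induction i using Nat.strong_induction_on with
  | _ i ih =>
    have h1 := hrec i
    have h2 := Fermat.Agent.S27.Lift.H68.succ_mul_coeff_charpolyRev A i
    rw [h2, neg_inj, Finset.sum_range_succ, Finset.sum_range_succ, Nat.sub_self] at h1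
    have h3 : ∑ m ∈ Finset.range i, (A ^ (m + 1)).trace * A.charpolyRev.coeff (i - m) =
        ∑ m ∈ Finset.range i, t (m + 1) * A.charpolyRev.coeff (i - m) := by
      refine Finset.sum_congr rfl fun m hm => ?_
      rw [ih m (Finset.mem_range.1 hm)]
    have h0 : A.charpolyRev.coeff 0 = 1 := by
      rw [Polynomial.coeff_zero_eq_eval_zero, Matrix.eval_charpolyRev]
    rw [h3, h0, mul_one, mul_one] at h1
    exact add_left_cancel h1

end Matrix

/-- Z-RAT and Z-LOGDER for one system: the polynomial `L` with its Newton recursion. -/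
theorem exists_L_newton (hRat : Stmt_Z_Rat.{u}) (hLog : Stmt_Z_LogDer.{u, 0}) {Pl : Type u}
    (S : ZSys Pl) :
    ∃ L : Polynomial ℤ, L.natDegree ≤ 2 * S.g ∧ L.coeff (2 * S.g) = (S.Q : ℤ) ^ S.g ∧
      L.coeff 0 = 1 ∧ L.eval 1 = (Nat.card {x : S.Cl0 // S.frob x = x} : ℤ) ∧
      ∀ j : ℕ, ((j : ℤ) + 1) * L.coeff (j + 1) =
        - ∑ m ∈ Finset.range (j + 1),
            (1 + (S.Q : ℤ) ^ (m + 1) - ((fixPts S.φ (m + 1)).ncard : ℤ)) * L.coeff (j - m) := by
  obtain ⟨L, hdeg, htop, h0, h1, hL⟩ := hRat Pl S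
  refine ⟨L, hdeg, htop, h0, h1, ?_⟩
  have hlog : ∀ k : ℕ, (k : ℤ) * ((S.invEff k).ncard : ℤ) =
      ∑ j ∈ Finset.Icc 1 k, ((fixPts S.φ j).ncard : ℤ) * ((S.invEff (k - j)).ncard : ℤ) := by
    intro k
    have h := hLog Pl S.φ S.orbit S.fixfin ℤ (fun _ => 1) rfl (fun _ _ _ _ _ _ => (mul_one 1).symm) k
    rw [finsum_mem_one_eq_ncard, ← S.invEff_eq] at h
    rw [h]
    refine Finset.sum_congr rfl fun j _ => ?_
    rw [finsum_mem_one_eq_ncard, finsum_mem_one_eq_ncard, ← S.invEff_eq]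
  have key := newton_of_logder (S.Q : ℤ) (fun k => ((S.invEff k).ncard : ℤ))
    (fun j => ((fixPts S.φ j).ncard : ℤ)) (L : PowerSeries ℤ) hlog hL
  intro j
  have hj := key j
  rw [Polynomial.coeff_coe] at hj
  rw [hj]
  congr 1
  refine Finset.sum_congr rfl fun m _ => ?_
  rw [Polynomial.coeff_coe]

/-- **Z-EXT** from Z-RAT and Z-LOGDER. -/
theorem z_ext_of (hRat : Stmt_Z_Rat.{u}) (hLog : Stmt_Z_LogDer.{u, 0}) : Stmt_Z_Ext.{u} := by
  intro Pl S
  obtain ⟨L, hdeg, htop, h0, -, hrec⟩ := exists_L_newton hRat hLog S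
  have hQ0 : (S.Q : ℤ) ^ S.g ≠ 0 := by
    have := S.two_le
    positivity
  have hnat : L.natDegree = 2 * S.g := by
    refine le_antisymm hdeg (Polynomial.le_natDegree_of_ne_zero ?_)
    rw [htop]
    exact hQ0
  obtain ⟨A, hA, hdet⟩ := Fermat.Agent.S27.Lift.H68.exists_matrix_charpolyRev_eq L h0 (2 * S.g) hnat
  have hlead : L.leadingCoeff = (S.Q : ℤ) ^ S.g := by
    rw [Polynomial.leadingCoeff, hnat, htop]
  refine ⟨A, ?_, ?_⟩
  · rw [hdet, hlead, pow_mul, neg_one_sq, one_pow, one_mul]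
  -- the traces of the powers of `A`
  have htr : ∀ i : ℕ, (A ^ (i + 1)).trace =
      1 + (S.Q : ℤ) ^ (i + 1) - ((fixPts S.φ (i + 1)).ncard : ℤ) := by
    refine trace_pow_eq_of_newton A
      (fun i => 1 + (S.Q : ℤ) ^ i - ((fixPts S.φ i).ncard : ℤ)) ?_
    intro j
    rw [hA]
    exact hrec j
  intro m hm
  obtain ⟨Lm, -, -, hm0, hm1, hmrec⟩ := exists_L_newton hRat hLog (S.pow m hm)
  have hfix : ∀ i : ℕ, fixPts (S.pow m hm).φ i = fixPts S.φ (m * i) := by
    intro i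
    unfold fixPts
    rw [ZSys.pow_φ, ← pow_mul]
  have hcoef : ∀ j, Lm.coeff j = (A ^ m).charpolyRev.coeff j := by
    refine Fermat.Agent.S27.Lift.H68.coeff_eq_of_newton (A ^ m) (fun j => Lm.coeff j) hm0 ?_
    intro j
    rw [hmrec j]
    congr 1
    refine Finset.sum_congr rfl fun i _ => ?_
    congr 1
    rw [← pow_mul, hfix, ZSys.pow_Q]
    obtain ⟨k, hk⟩ : ∃ k, m * (i + 1) = k + 1 := by
      have hpos : 0 < m * (i + 1) := Nat.mul_pos hm (Nat.succ_pos i)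
      exact ⟨m * (i + 1) - 1, by omega⟩
    rw [hk, htr k]
    push_cast
    rw [← pow_mul, hk]
  have hLm : Lm = (A ^ m).charpolyRev := Polynomial.ext hcoef
  rw [← eval_one_charpolyRev, ← hLm, hm1]
  congr 1
  refine Nat.card_congr (Equiv.subtypeEquivRight fun x => ?_)
  rw [S.pow_frob m hm x]
  exact Iff.rfl

end Fermat.Agent.S27.Zeta.H8

end
-- ==== END Fermat.Agent.S27.Zeta.H8_Ext

-- ==== BEGIN Fermat.Agent.S36.NU.H41_UnramB
section

/-!
# S36 NU-B, leaf UNRAM-CONST, part B (helper41): constant field extensions are unramified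

`k ⊆ K` fields of characteristic `0`, `K` algebraically closed and algebraic over `k`;
`F₀ / k` a field, `F / K` a field containing `F₀` and generated over `F₀` by `K`.
Then for every place `P` of `F / K` the field `F₀` contains a uniformiser of `P`.
-/

set_option autoImplicit false
set_option linter.style.haveILetI false

noncomputable section

namespace Fermat.Agent.S36.NU.H41

open AlgebraicCurve Polynomial

section

/-- **UNRAM-CONST, abstract form.** -/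
theorem exists_ord_eq_one_of_adjoin_constants (k : Type*) {K F₀ F : Type*} [Field k]
    [CharZero k] [Field K] [Field F₀] [Field F]
    [Algebra k K] [Algebra K F] [Algebra k F₀] [Algebra F₀ F] [Algebra k F]
    [IsScalarTower k K F] [IsScalarTower k F₀ F] [Algebra.IsAlgebraic k K] [IsAlgClosed K]
    (P : Place K F)
    (hgen : IntermediateField.adjoin F₀ (Set.range (algebraMap K F)) = ⊤) :
    ∃ t : F₀, P.ord (algebraMap F₀ F t) = 1 := by
  classical
  haveI : CharZero F₀ := charZero_of_injective_algebraMap (algebraMap k F₀).injective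
  -- a uniformiser
  obtain ⟨π, hπ⟩ := IsDiscreteValuationRing.exists_irreducible P.toValuationSubring
  have hπ1 : P.ord (π : F) = 1 := P.ord_coe_irreducible hπ
  have hπ0 : (π : F) ≠ 0 := by
    intro h
    rw [h, Place.ord_zero] at hπ1
    exact zero_ne_one hπ1
  -- finitely many constants
  obtain ⟨T, hTsub, hπT⟩ := IntermediateField.exists_finset_of_mem_adjoin
    (show (π : F) ∈ IntermediateField.adjoin F₀ (Set.range (algebraMap K F)) by
      rw [hgen]; exact IntermediateField.mem_top)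
  choose! r hr using fun c (hc : c ∈ (T : Set F)) => hTsub hc
  -- the polynomial
  set g : k[X] := ∏ c ∈ T, minpoly k (r c) with hg
  have hgne : g ≠ 0 := by
    rw [hg, Finset.prod_ne_zero_iff]
    intro c _
    exact minpoly.ne_zero (Algebra.IsIntegral.isIntegral _)
  set g₀ : F₀[X] := g.map (algebraMap k F₀) with hg₀
  have hg₀ne : g₀ ≠ 0 := (Polynomial.map_ne_zero_iff (algebraMap k F₀).injective).mpr hgne
  have hsplitK : (g.map (algebraMap k K)).Splits := IsAlgClosed.splits _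
  have hsplitF : (g₀.map (algebraMap F₀ F)).Splits := by
    rw [hg₀, Polynomial.map_map, ← IsScalarTower.algebraMap_eq,
      IsScalarTower.algebraMap_eq k K F, ← Polynomial.map_map]
    exact hsplitK.map _
  -- roots of `g₀` in `F` are constants
  have hroots : ∀ x : F, aeval x g₀ = 0 → x ∈ Set.range (algebraMap K F) := by
    intro x hx
    have h1 : x ∈ g.rootSet F := by
      rw [Polynomial.mem_rootSet]
      refine ⟨hgne, ?_⟩
      rw [hg₀, Polynomial.aeval_map_algebraMap] at hx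
      exact hx
    rw [← hsplitK.image_rootSet_algebraMap (B := F)] at h1
    obtain ⟨y, -, rfl⟩ := h1
    exact ⟨y, rfl⟩
  -- the splitting field
  set F₁ : IntermediateField F₀ F := IntermediateField.adjoin F₀ (g₀.rootSet F) with hF₁
  haveI hsf : IsSplittingField F₀ F₁ g₀ :=
    IntermediateField.adjoin_rootSet_isSplittingField hsplitF
  haveI : FiniteDimensional F₀ F₁ := Polynomial.IsSplittingField.finiteDimensional F₁ g₀
  haveI : Normal F₀ F₁ := Normal.of_isSplittingField g₀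
  haveI : IsGalois F₀ F₁ := ⟨⟩
  -- `T ⊆ rootSet`, hence `π ∈ F₁`
  have hTroot : (T : Set F) ⊆ g₀.rootSet F := by
    intro c hc
    rw [Polynomial.mem_rootSet]
    refine ⟨hg₀ne, ?_⟩
    rw [hg₀, Polynomial.aeval_map_algebraMap, hg, map_prod]
    refine Finset.prod_eq_zero (Finset.mem_coe.1 hc) ?_
    have h1 : c = algebraMap K F (r c) := (hr c hc).symm
    calc aeval c (minpoly k (r c))
        = aeval (algebraMap K F (r c)) (minpoly k (r c)) :=
          congrArg (fun x => aeval x (minpoly k (r c))) h1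
      _ = algebraMap K F (aeval (r c) (minpoly k (r c))) :=
          Polynomial.aeval_algebraMap_apply F (r c) (minpoly k (r c))
      _ = 0 := by rw [minpoly.aeval, map_zero]
  have hπF₁ : (π : F) ∈ F₁ := IntermediateField.adjoin.mono F₀ _ _ hTroot hπT
  -- the restriction of `P` to `F₁`
  letI : Algebra k F₁ := ((algebraMap F₀ F₁).comp (algebraMap k F₀)).toAlgebra
  haveI : IsScalarTower k F₀ F₁ := IsScalarTower.of_algebraMap_eq fun _ => rfl
  have hkF : ∀ c : k, ((algebraMap k F₁ c : F₁) : F) = algebraMap K F (algebraMap k K c) := by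
    intro c
    rw [← IsScalarTower.algebraMap_apply k K F, IsScalarTower.algebraMap_apply k F₀ F]
    rfl
  have hk : ∀ c : k, (algebraMap F₁ F) (algebraMap k F₁ c) ∈ P.toValuationSubring := by
    intro c
    have h1 : (algebraMap F₁ F) (algebraMap k F₁ c) = ((algebraMap k F₁ c : F₁) : F) := rfl
    rw [h1, hkF]
    exact P.algebraMap_mem' _
  have hnt : ∃ g₁ : F₁, g₁ ≠ 0 ∧ P.ord ((algebraMap F₁ F) g₁) ≠ 0 := by
    refine ⟨⟨π, hπF₁⟩, fun h => hπ0 (congrArg Subtype.val h), ?_⟩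
    show P.ord (π : F) ≠ 0
    rw [hπ1]
    exact one_ne_zero
  obtain ⟨w, e, he, hwV, hord⟩ := exists_place_restrict (k := k) (algebraMap F₁ F) P hk hnt
  have he1 : e = 1 := by
    have h1 := hord ⟨π, hπF₁⟩
    have h2 : P.ord ((algebraMap F₁ F) ⟨π, hπF₁⟩) = 1 := hπ1
    rw [h2] at h1
    have h3 : (e : ℤ) ∣ 1 := Dvd.intro _ h1.symm
    have h4 : (e : ℤ) ≤ 1 := Int.le_of_dvd one_pos h3
    omega
  have hordw : ∀ g₁ : F₁, P.ord ((g₁ : F)) = w.ord g₁ := by
    intro g₁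
    have := hord g₁
    rw [he1, Nat.cast_one, one_mul] at this
    exact this
  have hmemw : ∀ g₁ : F₁, g₁ ∈ w.toValuationSubring ↔ (g₁ : F) ∈ P.toValuationSubring := by
    intro g₁
    rw [hwV, ValuationSubring.mem_comap]
    rfl
  -- apply the Galois form
  have hmain := exists_ord_eq_one_of_galois (K₀ := k) (K := k) (F₀ := F₀) (F₁ := F₁) w
    (fun a => w.algebraMap_mem' a) (g₀.rootSet F₁)
    (by
      intro c hc
      rw [Polynomial.mem_rootSet] at hc
      have h1 : aeval c g = 0 := by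
        have := hc.2
        rw [hg₀, Polynomial.aeval_map_algebraMap] at this
        exact this
      exact (isAlgebraic_iff_isIntegral).1 ⟨g, hgne, h1⟩)
    (by
      intro c hc c' hc' hne
      rw [Polynomial.mem_rootSet] at hc hc'
      have h1 : aeval (c : F) g₀ = 0 := by
        have h := Polynomial.aeval_algebraMap_apply (A := F₁) F c g₀
        rw [hc.2, map_zero] at h
        exact h
      have h1' : aeval (c' : F) g₀ = 0 := by
        have h := Polynomial.aeval_algebraMap_apply (A := F₁) F c' g₀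
        rw [hc'.2, map_zero] at h
        exact h
      obtain ⟨y, hy⟩ := hroots _ h1
      obtain ⟨y', hy'⟩ := hroots _ h1'
      have hyy : y ≠ y' := by
        intro h
        apply hne
        apply Subtype.ext
        rw [← hy, ← hy', h]
      rw [hmemw]
      have h2 : (((c - c')⁻¹ : F₁) : F) = algebraMap K F ((y - y')⁻¹) := by
        rw [map_inv₀, map_sub, hy, hy']
        rfl
      rw [h2]
      exact P.algebraMap_mem' _)
    (by
      intro σ c hc
      rw [Polynomial.mem_rootSet] at hc ⊢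
      refine ⟨hc.1, ?_⟩
      rw [Polynomial.aeval_algEquiv, AlgHom.coe_comp, Function.comp_apply, hc.2]
      exact map_zero _)
    (by
      rw [eq_top_iff]
      have h1 := Polynomial.IsSplittingField.adjoin_rootSet (F₁ : Type _) g₀
      intro x _
      have h2 : x ∈ Algebra.adjoin F₀ (g₀.rootSet F₁) := by rw [h1]; exact Algebra.mem_top
      exact IntermediateField.algebra_adjoin_le_adjoin F₀ _ h2)
  obtain ⟨t, ht⟩ := hmain
  refine ⟨t, ?_⟩
  have h1 : algebraMap F₀ F t = ((algebraMap F₀ F₁ t : F₁) : F) := rfl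
  rw [h1, hordw, ht]

end

end Fermat.Agent.S36.NU.H41

end
end
-- ==== END Fermat.Agent.S36.NU.H41_UnramB

-- ==== BEGIN Fermat.Agent.S38.H13_FrobDescGen
section

/-!
# S38, leaf FROB-DESC-GEN (helper13)

`stmt_FrobDescGen : Stmt_FrobDescGen`: for every prime `p`, FROB-T at the two non-tame cases
(`q = 3`, `M` odd; `q = 2`, `3 ∤ M`) from FROB-T at the tame levels, by the descent
`S43.H13.frobToricAt_descend` from the level `(r M) q`, `r = 2` resp. `3`.
-/

set_option autoImplicit false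
set_option linter.style.haveILetI false
set_option synthInstance.maxHeartbeats 400000
set_option maxHeartbeats 1000000

noncomputable section

open AlgebraicCurve ModularCurve

namespace Fermat.Agent.S38.H13

open Fermat.Agent.S43.BadQ

/-- **FROB-DESC, general form.** -/
theorem stmt_FrobDescGen : Fermat.Agent.S38.Stmt_FrobDescGen := by
  intro p hp hT q M a b hab hq _ hqp hqM hcase A hA
  rcases hcase with ⟨rfl, h2M⟩ | ⟨rfl, h3M⟩
  · have h3M₂ : ¬ 3 ∣ 2 * M := by omega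
    obtain ⟨hne, a₂, b₂, hab₂⟩ :=
      Fermat.Agent.S43.H13.exists_upper 3 2 M hq (by norm_num) h3M₂
    haveI := hne
    exact Fermat.Agent.S43.H13.frobToricAt_descend hp 3 2 M a b a₂ b₂ hab hab₂ hq (by norm_num) A
      (hT 3 (2 * M) a₂ b₂ hab₂ hq hqp h3M₂ (Or.inr (Or.inl ⟨rfl, ⟨M, rfl⟩⟩)) A hA)
  · have h2M₂ : ¬ 2 ∣ 3 * M := by omega
    obtain ⟨hne, a₂, b₂, hab₂⟩ :=
      Fermat.Agent.S43.H13.exists_upper 2 3 M hq (by norm_num) h2M₂
    haveI := hne
    exact Fermat.Agent.S43.H13.frobToricAt_descend hp 2 3 M a b a₂ b₂ hab hab₂ hq (by norm_num) A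
      (hT 2 (3 * M) a₂ b₂ hab₂ hq hqp h2M₂ (Or.inr (Or.inr ⟨rfl, ⟨M, rfl⟩⟩)) A hA)

end Fermat.Agent.S38.H13

end
end
-- ==== END Fermat.Agent.S38.H13_FrobDescGen

-- ==== BEGIN Fermat.Agent.S38.H75_Wire2
section

set_option autoImplicit false
set_option linter.style.haveILetI false
set_option synthInstance.maxHeartbeats 400000
set_option maxHeartbeats 1000000

noncomputable section

open AlgebraicCurve ModularCurve
open WeierstrassCurve WeierstrassCurve.Affine WeierstrassCurve.Affine.Point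
open scoped WeierstrassCurve.Affine

namespace Fermat.Agent.S38.H75

open Fermat.Agent.BAD Fermat.Agent.S44 Fermat.Agent.L Fermat.Agent.S43 Fermat.Agent.S43.BadQ
open Fermat.Agent.S38 Fermat.Agent.L.Pivot.H76

/-- **Mazur's principle at a prime which is not exceptional**, curve form. -/
theorem lowerConcl_nonexc (h2 : Stmt_BadQsf)
    (p : ℕ) (hp : p.Prime) (hp2 : p ≠ 2) (W : WeierstrassCurve ℤ) (hΔ : W.Δ ≠ 0)
    (hirr : GaloisRepIsIrreducible (K := AlgebraicClosure ℚ) ℚ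
      (W.map (Int.castRingHom ℚ)).toAffine p)
    (N q : ℕ) (hN : Squarefree N) (hq : q.Prime) (hqp : q ≠ p) (hqN : q ∣ N)
    (hunr : UnrW W p q) (hne : ¬ IsExcW W p q)
    (f : CuspForm (CongruenceSubgroup.Gamma0 N) 2)
    (𝔪 : Ideal (integralClosure ℤ ℂ)) (hf : f.IsNormalizedEigenform)
    (h𝔪 : 𝔪.IsMaximal) (hp𝔪 : (p : integralClosure ℤ ℂ) ∈ 𝔪)
    (hcong : ∀ ℓ : ℕ, ℓ.Prime → W.IsGoodPrimeFor ℓ → ¬ ℓ ∣ N → ℓ ≠ p →
      ∃ a : integralClosure ℤ ℂ, (a : ℂ) = ModularFormClass.qCoeff f ℓ ∧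
        a - ((W.apOfModel ℓ : ℤ) : integralClosure ℤ ℂ) ∈ 𝔪) :
    LowerConcl p N q W := by
  have hNpos : 0 < N := Nat.pos_of_ne_zero hN.ne_zero
  have : NeZero N := ⟨hN.ne_zero⟩
  have : Fact p.Prime := ⟨hp⟩
  have hWE := isIntegralModelOf_map W
  have : (W.map (Int.castRingHom ℚ)).IsElliptic :=
    ⟨isUnit_iff_ne_zero.mpr (by
      rw [WeierstrassCurve.map_Δ]
      simpa using hΔ)⟩
  obtain ⟨A, hAq⟩ := stmt_PlaceOver q hq
  have hnsc : ¬ ∃ ε : ZMod p, ε * ε = 1 ∧ ∀ σ : GQ, A.IsFrobeniusAt σ q →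
      ∀ v : Tors (W.map (Int.castRingHom ℚ)) p,
        galoisRepModuleEnd (S := ℚ) (K := AlgebraicClosure ℚ)
          (W.map (Int.castRingHom ℚ)).toAffine p σ v = ((q : ZMod p) * ε) • v := by
    rintro ⟨ε, hε, h⟩
    exact hne ⟨dvd_sub_one_of_scalar hWE hΔ hq hqp A hAq ε hε h, A, hAq, (q : ZMod p) * ε, h⟩
  obtain ⟨hcont, hES, hsupp⟩ := stmt_TateModP p hp hp2 N
  set S : Finset ℕ := W.Δ.natAbs.primeFactors with hS
  have hgood : ∀ ℓ : ℕ, ℓ.Prime → ℓ ∉ S → W.IsGoodPrimeFor ℓ := fun ℓ hℓ h =>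
    prime_not_mem_of_good hℓ hΔ h
  obtain ⟨x, hx0, hx⟩ := hsupp f 𝔪 S (fun ℓ => W.apOfModel ℓ) hf h𝔪 hp𝔪
    (fun ℓ hℓ hℓS hℓN hℓp => hcong ℓ hℓ (hgood ℓ hℓ hℓS) hℓN hℓp)
  obtain ⟨ι, hinj, hequiv, hT⟩ := Fermat.Agent.L.H52.recovery p hp hp2 N hNpos
    (jzModule N p) hcont hES (W.map (Int.castRingHom ℚ)) W hWE hirr S hgood x hx0 hx
  have hNE : ∃ ℓ : ℕ, ℓ.Prime ∧ ℓ ∉ S ∧ ¬ ℓ ∣ N ∧ ℓ ≠ p ∧
      ((W.apOfModel ℓ : ℤ) : ZMod p) ≠ 1 + (ℓ : ZMod p) := by
    have h := Fermat.Agent.S41.H19.stmt_I3 (W.map (Int.castRingHom ℚ)) W hWE p N hp hNpos hirr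
    by_contra hcon
    apply h
    intro ℓ hℓ hℓW hℓN hℓp
    by_contra hne'
    refine hcon ⟨ℓ, hℓ, ?_, hℓN, hℓp, hne'⟩
    intro hmem
    rw [hS, Nat.mem_primeFactors] at hmem
    exact hℓW (Int.natCast_dvd.mpr hmem.2.1)
  have hrem := removesQ2_of_toric hp hp2 (jzModule N p) N q A
    (h2 p hp hp2 N q hq hqp hqN hN A hAq)
  obtain ⟨g, 𝔪', hg, h𝔪', hp𝔪', hgc⟩ := hrem (Tors (W.map (Int.castRingHom ℚ)) p)
    (galoisRepModuleEnd (S := ℚ) (K := AlgebraicClosure ℚ)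
      (W.map (Int.castRingHom ℚ)).toAffine p)
    ι S (fun ℓ => W.apOfModel ℓ)
    (fun W' hW' => hirr.2 W' (fun σ x hx => hW' σ x hx))
    (fun σ hσ v => hunr A hAq σ hσ v)
    hnsc hinj (fun σ v => hequiv σ v) hT hNE
  exact ⟨g, 𝔪', S, hg, h𝔪', hp𝔪', fun ℓ hℓ hℓS hℓN hℓp _ => hgc ℓ hℓ hℓS hℓN hℓp⟩

/-- Good reduction at `p` is peu ramifiée at `p` (`v_p(Δ) = 0`). -/
theorem isPeuRamifieeAt_of_not_dvd (W : WeierstrassCurve ℤ) (p : ℕ)
    (h : ¬ (p : ℤ) ∣ W.Δ) : (W.map (Int.castRingHom ℚ)).IsPeuRamifieeAt p p := by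
  unfold WeierstrassCurve.IsPeuRamifieeAt
  rw [WeierstrassCurve.map_Δ]
  have h1 : padicValRat p ((Int.castRingHom ℚ) W.Δ) = 0 := by
    have h2 : ((Int.castRingHom ℚ) W.Δ) = ((W.Δ : ℤ) : ℚ) := rfl
    rw [h2, padicValRat.of_int]
    exact_mod_cast padicValInt.eq_zero_of_not_dvd h
  rw [h1]
  exact dvd_zero _

/-- **Lowering to a level prime to `q`** (induction on the level). -/
theorem lower_to_prime_to_q (h39 : Fermat.Agent.S59.LL.Stmt_S39) (hB : Stmt_BadQsf)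
    (hPV : Fermat.Agent.S38.P3.Stmt_PivotWCoreAll)
    (hSO : Fermat.Agent.S38.P3.Stmt_PivotWCoreSOAll)
    (p : ℕ) (hp : p.Prime) (hp2 : p ≠ 2) (W : WeierstrassCurve ℤ) (hΔ : W.Δ ≠ 0)
    (hW : W.IsSemistableModel) (hirr : W.ModRepIsIrreducible p)
    (q : ℕ) (hq : q.Prime) (hqp : q ≠ p) (hunr : UnrW W p q) :
    ∀ n : ℕ, ∀ N : ℕ, N ≤ n → Squarefree N → W.IsResiduallyModularOfLevel p N →
      ∃ N' : ℕ, N' ∣ N ∧ ¬ q ∣ N' ∧ W.IsResiduallyModularOfLevel p N' := by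
  intro n
  induction n with
  | zero =>
    intro N hN hsq _
    exact absurd (Nat.le_zero.mp hN) hsq.ne_zero
  | succ n ih =>
    intro N hNle hsq hres
    have hNpos : 0 < N := Nat.pos_of_ne_zero hsq.ne_zero
    by_cases hqN : q ∣ N
    swap
    · exact ⟨N, dvd_rfl, hqN, hres⟩
    -- a smaller level suffices
    have step : ∀ r : ℕ, r.Prime → r ∣ N → W.IsResiduallyModularOfLevel p (N / r) →
        ∃ N' : ℕ, N' ∣ N ∧ ¬ q ∣ N' ∧ W.IsResiduallyModularOfLevel p N' := by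
      intro r hr hrN hM
      have hdvd : N / r ∣ N := Nat.div_dvd_of_dvd hrN
      have hlt : N / r < N := Nat.div_lt_self hNpos hr.one_lt
      obtain ⟨N', hN'M, hqN', hN'⟩ := ih (N / r) (by omega) (hsq.squarefree_of_dvd hdvd) hM
      exact ⟨N', hN'M.trans hdvd, hqN', hN'⟩
    -- the conclusion of the core at a prime `r` gives the level `N / r`
    have ofLC : ∀ r : ℕ, r.Prime → r ∣ N → LowerConcl p N r W →
        W.IsResiduallyModularOfLevel p (N / r) := fun r hr hrN h =>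
      isResiduallyModular_of_lowerConcl Fermat.Agent.S38.H49.stmt_Complete p hp W hΔ N r hsq hr
        hrN h
    obtain ⟨f, 𝔪, hf, h𝔪, hp𝔪, hcong⟩ := hres
    have hres' : W.IsResiduallyModularOfLevel p N := ⟨f, 𝔪, hf, h𝔪, hp𝔪, hcong⟩
    by_cases hpeu : p ∣ N ∧ (W.map (Int.castRingHom ℚ)).IsPeuRamifieeAt p p
    · -- remove `p`
      obtain ⟨hpN, hfin⟩ := hpeu
      have hp2N : ¬ p ^ 2 ∣ N := fun h =>
        hp.not_isUnit (hsq p (by rwa [pow_two] at h))
      exact step p hp hpN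
        (h39 W hΔ hp hp2 (fun h => hW p hp h) hirr hfin hNpos hpN hp2N hres')
    · by_cases hall : ∀ q' : ℕ, q'.Prime → q' ≠ p → q' ∣ N → UnrW W p q' → IsExcW W p q'
      · -- PIVOT
        have hLC : LowerConcl p N q W := by
          by_cases hpN : p ∣ N
          · have hnpeu : ¬ (W.map (Int.castRingHom ℚ)).IsPeuRamifieeAt p p :=
              fun h => hpeu ⟨hpN, h⟩
            have hpΔ : (p : ℤ) ∣ W.Δ := by
              by_contra h
              exact hnpeu (isPeuRamifieeAt_of_not_dvd W p h)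
            exact hSO p hp hp2 W hΔ hW hirr N q hsq hpN hpΔ hnpeu hq hqp hqN hunr hall f 𝔪 ∅
              hf h𝔪 hp𝔪 (fun ℓ hℓ _ hg hℓN hℓp => hcong ℓ hℓ hg hℓN hℓp)
          · exact hPV p hp hp2 W hΔ hW hirr N q hsq hpN hq hqN hunr
              (fun q' hq' hq'N hu => hall q' hq' (fun h => hpN (h ▸ hq'N)) hq'N hu) f 𝔪 ∅
              hf h𝔪 hp𝔪 (fun ℓ hℓ _ hg hℓN hℓp => hcong ℓ hℓ hg hℓN hℓp)
        refine ⟨N / q, Nat.div_dvd_of_dvd hqN, ?_, ofLC q hq hqN hLC⟩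
        intro hqq
        obtain ⟨k, hk⟩ := hqq
        have h2 : q * q ∣ N := by
          have h3 : N = q * (N / q) := (Nat.mul_div_cancel' hqN).symm
          rw [h3, hk]
          exact ⟨k, by ring⟩
        exact hq.not_isUnit (hsq q h2)
      · -- Mazur's principle at a prime which is not exceptional
        push Not at hall
        obtain ⟨q', hq', hq'p, hq'N, hu', hne⟩ := hall
        exact step q' hq' hq'N (ofLC q' hq' hq'N
          (lowerConcl_nonexc hB p hp hp2 W hΔ hirr N q' hsq hq' hq'p hq'N hu' hne f 𝔪 hf h𝔪 hp𝔪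
            hcong))

/-- **Raising the level** (stabilisation): residually modular of level `N'`, `N' ∣ L`,
`L` squarefree  ⟹  residually modular of level `L`. -/
theorem raise_level (W : WeierstrassCurve ℤ) (p : ℕ) {N' L : ℕ} (hL : Squarefree L)
    (hdvd : N' ∣ L) (h : W.IsResiduallyModularOfLevel p N') :
    W.IsResiduallyModularOfLevel p L := by
  classical
  obtain ⟨k, rfl⟩ := hdvd
  obtain ⟨f, 𝔪, hf, h𝔪, hp𝔪, hcong⟩ := h
  have hk : Squarefree k := hL.squarefree_of_dvd (dvd_mul_left k N')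
  have hs : ∀ r ∈ k.primeFactors, r.Prime ∧ ¬ r ∣ N' := by
    intro r hr
    have hrp : r.Prime := Nat.prime_of_mem_primeFactors hr
    have hrk : r ∣ k := Nat.dvd_of_mem_primeFactors hr
    refine ⟨hrp, fun hrN => ?_⟩
    exact hrp.not_isUnit (hL r (mul_dvd_mul hrN hrk))
  have H := Fermat.Agent.S59.stab_finset Fermat.Agent.S59.H61.stmt_Stab k.primeFactors N' f hf hs
  rw [Nat.prod_primeFactors_of_squarefree hk] at H
  obtain ⟨g, hg, hgf⟩ := H
  refine ⟨g, 𝔪, hg, h𝔪, hp𝔪, fun ℓ hℓ hgood hℓL hℓp => ?_⟩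
  have hℓN' : ¬ ℓ ∣ N' := fun h => hℓL (h.mul_right k)
  have hℓk : ℓ ∉ k.primeFactors := fun h =>
    hℓL ((Nat.dvd_of_mem_primeFactors h).mul_left N')
  obtain ⟨a, ha, ha𝔪⟩ := hcong ℓ hℓ hgood hℓN' hℓp
  exact ⟨a, by rw [ha, hgf ℓ hℓ hℓk], ha𝔪⟩

/-- **S38-WIRE2**: the frozen S38 from the frozen S39, BAD_q at squarefree levels and the two
PIVOT cores. -/
theorem s38_of_wire2 (h39 : Fermat.Agent.S59.LL.Stmt_S39) (hB : Stmt_BadQsf)
    (hPV : Fermat.Agent.S38.P3.Stmt_PivotWCoreAll)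
    (hSO : Fermat.Agent.S38.P3.Stmt_PivotWCoreSOAll) : Fermat.Agent.S59.LL.Stmt_S38 := by
  intro p hpF hp2 W hΔ hW hcard₁ hker hirr M q hq hqp hqM hq2 hM hunr hres
  have hp : p.Prime := hpF.out
  have hunr' : UnrW W p q := by
    intro A hA σ hσ v
    have h1 := hunr A hA σ hσ
    have h2 : galoisRepModuleEnd (S := ℚ) (K := AlgebraicClosure ℚ)
        (W.map (Int.castRingHom ℚ)).toAffine p σ = 1 := h1
    rw [h2]
    rfl
  obtain ⟨N', hN'M, hqN', hN'⟩ := lower_to_prime_to_q h39 hB hPV hSO p hp hp2 W hΔ hW hirr q hq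
    hqp hunr' M M le_rfl hM hres
  have hMq : M / q ∣ M := Nat.div_dvd_of_dvd hqM
  have hdvd : N' ∣ M / q := by
    have h3 : M = q * (M / q) := (Nat.mul_div_cancel' hqM).symm
    rw [h3] at hN'M
    exact (Nat.Coprime.dvd_mul_left
      ((Nat.Prime.coprime_iff_not_dvd hq).2 hqN').symm).1 hN'M
  exact raise_level W p (hM.squarefree_of_dvd hMq) hdvd hN'

/-- **The frozen statement S38** from the four inputs. -/
theorem result_of_wire2 (h39 : Fermat.Agent.S59.LL.Stmt_S39) (hB : Stmt_BadQsf)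
    (hPV : Fermat.Agent.S38.P3.Stmt_PivotWCoreAll)
    (hSO : Fermat.Agent.S38.P3.Stmt_PivotWCoreSOAll)
    (p : ℕ) [Fact p.Prime] (_hp2 : p ≠ 2) (W : WeierstrassCurve ℤ) (_hΔ : W.Δ ≠ 0)
    (_hW : W.IsSemistableModel)
    (hcard₁ : Nat.card (Submodule.torsionBy ℤ
      ((W.map (Int.castRingHom ℚ))⁄(AlgebraicClosure ℚ)).Point p) = p ^ 2)
    (hker : GaloisFactorsThroughFiniteLevel
      (WeierstrassCurve.Affine.Point.galoisRepModuleEnd (K := AlgebraicClosure ℚ) ℚ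
        (W.map (Int.castRingHom ℚ)) p))
    (_hirr : W.ModRepIsIrreducible p) (M q : ℕ) (hq : q.Prime) (hqp : q ≠ p)
    (hqM : q ∣ M) (hq2 : ¬ q ^ 2 ∣ M) (hM : Squarefree M)
    (hunr : ((W.map (Int.castRingHom ℚ)).residualGaloisRepOf p hcard₁ hker).IsUnramifiedAt q)
    (hres : W.IsResiduallyModularOfLevel p M) :
    W.IsResiduallyModularOfLevel p (M / q) :=
  s38_of_wire2 h39 hB hPV hSO p _hp2 W _hΔ _hW hcard₁ hker _hirr M q hq hqp hqM hq2 hM hunr hres

end Fermat.Agent.S38.H75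

end
end
-- ==== END Fermat.Agent.S38.H75_Wire2

-- ==== BEGIN Fermat.Agent.S38.P3.Defs2
section
attribute [local instance 10000] SubalgebraClass.toAlgebra
attribute [local instance 10000] HahnSeries.powerSeriesAlgebra

set_option autoImplicit false
set_option synthInstance.maxHeartbeats 400000
set_option maxHeartbeats 1000000

noncomputable section

open AlgebraicCurve ModularCurve

namespace Fermat.Agent.S38.P3

open Fermat.Agent.BAD Fermat.Agent.S28.H73 Fermat.Agent.RED.H73 Fermat.Agent.RED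
open Fermat.Agent.S43.BadQ Fermat.Agent.S44

/-- **NE-BOUND**: in characteristic `0`, at every level, the zeros of `j` have order at most
`3`. -/
def Stmt_NEB : Prop :=
  ∀ (M : ℕ) [NeZero M] (P : Place (AlgebraicClosure ℚ) ↥(FNbar M)),
    P.ord (RED.H73.jF (L := AlgebraicClosure ℚ) M) ≤ 3

/-- **DESC3**: descent of the divisibility by `3` of the orders of a reduced function from the
level `N' = 3 N` to the level `N`, `3 ∤ N`, at a place `A` of residue characteristic `q ≠ 3`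
(the reduced fields have relative degree `4`: `4 ord_Q φ = ord_Q (Norm φ) = ∑_{Q' ∣ Q} ord_{Q'} φ`,
`BADP.H74.dvd_ord_normAlong` with `RED.H51.stmt_FFB_norm`; compare `S43.CompEis.H57.stmt_CE_Desc'`
for `p ≥ 5`). -/
def Stmt_CE_Desc3 : Prop :=
  ∀ (q : ℕ), q.Prime → q ≠ 3 →
    ∀ (N N' : ℕ) [NeZero N] [NeZero N'], N' = 3 * N → ¬ 3 ∣ N → ¬ q ^ 2 ∣ N →
    ∀ A : ValuationSubring (AlgebraicClosure ℚ), A.LiesOverPrime q →
    ∀ (f : ↥(gaussV A N)) (f' : ↥(gaussV A N')),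
      (((f' : ↥(gaussV A N')) : ↥(FNbar N')) : LaurentSeries (AlgebraicClosure ℚ)) =
        (((f : ↥(gaussV A N)) : ↥(FNbar N)) : LaurentSeries (AlgebraicClosure ℚ)) →
      (∀ Q' : Place (kV A) ↥(redField A (FNbar N') (hasScale_laurentBaseChange A N')),
        (3 : ℤ) ∣ Q'.ord (gaussRes A N' f')) →
      ∀ Q : Place (kV A) ↥(redField A (FNbar N) (hasScale_laurentBaseChange A N)),
        (3 : ℤ) ∣ Q.ord (gaussRes A N f)

end Fermat.Agent.S38.P3

end
end
-- ==== END Fermat.Agent.S38.P3.Defs2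

-- ==== BEGIN Fermat.Agent.S38.P3.H57_NE
section

/-!
# S38 at `p = 3`, leaf NE (helper57): `stmt_NE_of : Stmt_NE0 → Stmt_NE`

`q ∤ M`, `r ≡ 2 mod 3` a prime divisor of `M`, `z` a zero of `j~` in the reduced field of level
`M` (characteristic `q`).  By the conservation law (`RED.H36.stmt_RM`, every level prime to `q`)
`ord_z j~ = Σ_{P ↦ z} ord_P j`; every `P` in the fibre of `z` is a non-cusp
(`BAD.H91.ord_jF_nonneg_aux`), so `ord_P j ≥ 0`, and `3 ∣ ord_P j` by NE0.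
-/

set_option autoImplicit false
set_option linter.style.haveILetI false
set_option synthInstance.maxHeartbeats 400000
set_option maxHeartbeats 1000000

noncomputable section

open AlgebraicCurve ModularCurve
open Fermat.Agent.S28.H73 Fermat.Agent.RED.H73 Fermat.Agent.RED

namespace Fermat.Agent.S38.P3.H57

open Fermat.Agent.BAD Fermat.Agent.S38.P3

/-- **NE from NE0.** -/
theorem stmt_NE_of (h0 : Stmt_NE0) : Stmt_NE := by
  intro q M r _ hq hqM hr hr3 hrM A hA z hz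
  haveI : IsAlgClosed (kV A) := isAlgClosed_kV A
  obtain ⟨rr, hrr, -⟩ := Fermat.Agent.RED.H36.stmt_RM M q hq hqM A hA
  have hFF : IsFF (AlgebraicClosure ℚ) ↥(FNbar M) := H95.stmt_HKA_isFF M
  have hFF' := isFF_redField_bar M q hq hqM A hA
  have hP := (RED.H17.ffHyp_of_isFF _ _ hFF).principal
  have hmem : RED.H73.jF (L := AlgebraicClosure ℚ) M ∈
      (RED.H17.redSetupOf A (hasScale_laurentBaseChange A M) rr hrr).V := jF_mem A M
  have hrd : (RED.H17.redSetupOf A (hasScale_laurentBaseChange A M) rr hrr).rd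
      (RED.H73.jF (L := AlgebraicClosure ℚ) M) = H91.jRed A M :=
    (RED.H17.redSetupOf A (hasScale_laurentBaseChange A M) rr hrr).rd_of_mem hmem
  have htr := (goodChart_pre M q hq hqM A hA).1
  have hGU : (RED.H17.redSetupOf A (hasScale_laurentBaseChange A M) rr hrr).IsGU
      (RED.H73.jF (L := AlgebraicClosure ℚ) M) := by
    refine ⟨hmem, ?_⟩
    rw [hrd]
    intro h
    have h' : (redSetting A (hasScale_laurentBaseChange A M)).red
        ⟨RED.H73.jF (L := AlgebraicClosure ℚ) M, jF_mem A M⟩ = 0 := h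
    rw [h'] at htr
    exact htr isAlgebraic_zero
  have hsum := (RED.H17.redSetupOf A (hasScale_laurentBaseChange A M) rr hrr).ord_rd_eq_sum
    hP hGU z
  rw [hrd] at hsum
  rw [hsum]
  apply Finset.dvd_sum
  intro P _
  split_ifs with hPz
  · have hnn : 0 ≤ P.ord (RED.H73.jF (L := AlgebraicClosure ℚ) M) :=
      H91.ord_jF_nonneg_aux hq hqM hA
        (RED.H17.redSetupOf A (hasScale_laurentBaseChange A M) rr hrr) hmem rfl hFF' P
        (by rw [hPz]; exact hz.le)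
    rcases hnn.eq_or_lt with h | h
    · rw [← h]
      exact dvd_zero _
    · exact h0 M r hr hr3 hrM P h
  · exact dvd_zero _

end Fermat.Agent.S38.P3.H57

end
end
-- ==== END Fermat.Agent.S38.P3.H57_NE

-- ==== BEGIN Fermat.Agent.S38.P3.H57_StrongFinal
section

/-!
# S38 at `p = 3`, leaf STRONG (helper57): `stmt_Strong : Fermat.Agent.S38.P3.Stmt_Strong`

The statement of `S38/P3/Defs.lean` from `H57.stmt_Strong3` (`S38/P3/H57_Strong.lean`).
-/

set_option autoImplicit false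

namespace Fermat.Agent.S38.P3.H57

/-- **STRONG**: for a semistable curve with `E[3]` irreducible there are primes `r ≡ 2 mod 3`
outside any finite set with `a_r ≢ 0 mod 3`. -/
theorem stmt_Strong : Fermat.Agent.S38.P3.Stmt_Strong := by
  intro W hΔ hW hirr S
  obtain ⟨ℓ, hℓ, hℓS, -, -, hmod, ht⟩ := stmt_Strong3 W hΔ hW hirr S
  refine ⟨ℓ, hℓ, hℓS, ?_, ht⟩
  have h2 : ((ℓ : ℕ) : ZMod 3) = ((2 : ℕ) : ZMod 3) := by
    rw [hmod]
    decide
  have h3 := (ZMod.natCast_eq_natCast_iff' ℓ 2 3).1 h2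
  simpa using h3

end Fermat.Agent.S38.P3.H57

end
-- ==== END Fermat.Agent.S38.P3.H57_StrongFinal

-- ==== BEGIN Fermat.Agent.S38.P3.H60_Coord3
section

set_option autoImplicit false
set_option synthInstance.maxHeartbeats 400000
set_option maxHeartbeats 1000000
set_option linter.style.haveILetI false
set_option linter.unusedSectionVars false

noncomputable section

open HahnSeries IntermediateField AlgebraicCurve ModularCurve Polynomial
open Fermat.Agent.S28.H73 Fermat.Agent.RED.H73 Fermat.Agent.RED Fermat.Agent.S24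
open Fermat.Agent.BAD.H88

namespace Fermat.Agent.S38.P3.H60

open Fermat.Agent.BAD Fermat.Agent.BAD.H91 Fermat.Agent.S15.Desc.H67
open Fermat.Agent.BADP Fermat.Agent.BADP.H21 Fermat.Agent.BAD.H21

attribute [local instance 5000] SubalgebraClass.toAlgebra
attribute [local instance 10000] SubalgebraClass.toAlgebra
attribute [local instance 10000] HahnSeries.powerSeriesAlgebra

section Twelve

variable (A : ValuationSubring Kbar) (q M : ℕ) (a b : ℤ) (hab : a * q + b * M = 1)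
  (hq : q.Prime) [NeZero M] [NeZero (M * q)] [NeZero q] (hA : A.LiesOverPrime q)
  (hqM : ¬ q ∣ M) (ht : TameAt M q)

/-- **COORD with the thickness**: at every node `s` of the modular datum of level `M q` there is
an inertia-fixed annulus coordinate of thickness `q ^ n` with `n · ord_s (rd unitF) = 12`. -/
theorem coord_twelve {s : Place (kV A) (F1 A q M) × Place (kV A) (F1 A q M)}
    (hs : s ∈ (theS A q M a b hab hq hA hqM ht).nodes) :
    ∃ (n a' : ℕ) (t : FN (M * q)), 0 < n ∧ n * a' = 12 ∧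
      s.1.ord (red1 A q M ⟨Fermat.Agent.BAD.H30.unitF (M * q) q (Dvd.intro_left M rfl),
        Fermat.Agent.BAD.H30.unitF_mem_gaussV A (M * q) q (Dvd.intro_left M rfl)⟩) = a' ∧
      (theS A q M a b hab hq hA hqM ht).IsAnnCoord s t ((q : Kbar) ^ n) ∧
      ∀ σ ∈ A.inertiaSubgroupIn ℚ, galF (M * q) σ • t = t := by
  haveI : IsAlgClosed (kV A) := isAlgClosed_kV A
  have hd : q ∣ M * q := Dvd.intro_left M rfl
  have htot := totModAt A q M a b hab hq hA hqM ht
  have hCusp := cuspHyp A q M a b hab hq hA hqM ht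
  have hK0' := k0At_of_isK0Lift A q M a b hab hq hA hqM ht
    (isK0Lift_theS A q M a b hab hq hA hqM ht) s
  obtain ⟨g, g₁, c, c₁, hg, hg₁, hnum⟩ := modS_genus A q M a b hab hq hA hqM ht htot
  obtain ⟨hU, hUzf, hU₂, hpos⟩ := modS_unit A q M a b hab hq hA hqM ht htot hCusp hd hs
  obtain ⟨a', ha'⟩ : ∃ a' : ℕ, s.1.ord ((modS A q M a b hab hq hA hqM ht htot).c₁.rd
      (Fermat.Agent.BAD.H30.unitF (M * q) q hd)) = a' :=
    ⟨_, (Int.toNat_of_nonneg hpos.le).symm⟩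
  have ha0 : 0 < a' := by
    rw [ha'] at hpos
    exact_mod_cast hpos
  have hq0 : (q : Kbar) ≠ 0 := Nat.cast_ne_zero.2 hq.ne_zero
  have hqV : algebraMap Kbar (FN (M * q)) (q : Kbar)
      ∈ (modS A q M a b hab hq hA hqM ht htot).c₁.V := q_mem_V1 A q M
  have hqr : (modS A q M a b hab hq hA hqM ht htot).c₁.rd
      (algebraMap Kbar (FN (M * q)) (q : Kbar)) = 0 := by
    rw [modS_rd₁ A q M a b hab hq hA hqM ht htot (q_mem_V1 A q M)]
    exact red1_q A q M hA _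
  have hdisc : ∀ f ∈ H15.fixF (M * q) (inertiaI A),
      f ∈ (modS A q M a b hab hq hA hqM ht htot).c₂.V →
      (modS A q M a b hab hq hA hqM ht htot).c₂.rd f = 0 →
      f / algebraMap Kbar (FN (M * q)) (q : Kbar)
        ∈ (modS A q M a b hab hq hA hqM ht htot).c₂.V := by
    intro f hf h h0
    refine disc_fix A q M a b hab hq hA hf h ?_
    rw [← modS_rd₂ A q M a b hab hq hA hqM ht htot h]
    exact h0
  obtain ⟨t, htF, n, hn, hcoord, hna⟩ :=
    exists_isAnnCoord_of_goodLift (modS A q M a b hab hq hA hqM ht htot) (ffL q M)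
      (ff1 A q M a b hab hq hA hqM ht) (ff1 A q M a b hab hq hA hqM ht) hg hg₁ hg₁ hnum hs
      hq0 hqV hqr (H15.fixF (M * q) (inertiaI A)) (q_mem_fix A q M) hK0' hdisc hU hUzf hU₂
      ha0 ha'
  refine ⟨n, a', t, hn, hna, ?_, hcoord, fun σ hσ => htF σ hσ⟩
  rw [← ha', modS_rd₁ A q M a b hab hq hA hqM ht htot hU.1]

end Twelve

/-! ### The modular unit at the zeros of `j~` -/

section Unit

variable (A : ValuationSubring Kbar) (q M : ℕ) [NeZero M] [NeZero (M * q)] [NeZero q]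

/-- The Gauss reduction of the modular unit `Δ(t)/Δ(t^q)` of level `M q`. -/
abbrev Ubar : F1 A q M :=
  red1 A q M ⟨Fermat.Agent.BAD.H30.unitF (M * q) q (Dvd.intro_left M rfl),
    Fermat.Agent.BAD.H30.unitF_mem_gaussV A (M * q) q (Dvd.intro_left M rfl)⟩

/-- `j~` in the reduced field of level `M q`. -/
abbrev jb : F1 A q M := H21_jt (M * q) A

theorem Ubar_ne_zero : Ubar A q M ≠ 0 :=
  Fermat.Agent.BAD.H30.gaussRes_unitF_ne_zero A (M * q) q (Dvd.intro_left M rfl)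

variable (hq : q.Prime) (hA : A.LiesOverPrime q)

include hq hA in
/-- `q ≥ 5`: `rd unitF = H(j~)`, `H = X^{4a} (X - 1728)^{6b} g^{12}` the supersingular
polynomial. -/
theorem Ubar_eq_aeval (h5 : 5 ≤ q) :
    ∃ d : H21_SSData (kV A) (H21_ssM q) (H21_ssA q) (H21_ssB q),
      Ubar A q M = aeval (jb A q M) d.H := by
  haveI : Fact q.Prime := ⟨hq⟩
  haveI : CharP (kV A) q := Fermat.Agent.BAD.H82.charP_kV A hq hA
  haveI : IsAlgClosed (kV A) := isAlgClosed_kV A
  obtain ⟨d⟩ := H21_exists_ssData (F := kV A) (ℓ := q) h5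
  have hw := H21_ss_weight hq h5
  refine ⟨d, Subtype.ext ?_⟩
  rw [H21_coe_aeval_jt]
  have h1 := Fermat.Agent.BAD.H30.gaussRes_unitF_char A (M * q) q hA (Dvd.intro_left M rfl)
  have h2 := H21_aeval_jqModC d.natDegree_H_le d.hev_H_series
  rw [← hw] at h2
  rw [h2, ← Fermat.Agent.BAD.H30.deltaR_eq_DL]
  exact h1

include hq hA in
/-- `q = 2`: `rd unitF = j~`. -/
theorem Ubar_eq_two (h2 : q = 2) : Ubar A q M = jb A q M := by
  haveI : Fact q.Prime := ⟨hq⟩
  apply Subtype.ext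
  have h1 := Fermat.Agent.BAD.H30.gaussRes_unitF_small A (M * q) q hA (Dvd.intro_left M rfl)
    (Or.inl h2)
  have h3 : q - 1 = 1 := by omega
  rw [h3, pow_one] at h1
  rw [show ((jb A q M : F1 A q M) : LaurentSeries (kV A)) = jqModC (kV A) from red_jF A (M * q)]
  exact h1

include hq hA in
/-- `q ≥ 5`, `q ≡ 2 mod 3`: at a zero `z` of `j~`, `ord_z (rd unitF) = 4 ord_z (j~)`. -/
theorem ord_unit_of_zero (h5 : 5 ≤ q) (h3 : q % 3 = 2) (z : Place (kV A) (F1 A q M))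
    (hz : 0 < z.ord (jb A q M)) : z.ord (Ubar A q M) = 4 * z.ord (jb A q M) := by
  obtain ⟨d, hd⟩ := Ubar_eq_aeval A q M hq hA h5
  have ha : H21_ssA q = 1 := by
    unfold H21_ssA
    rw [if_pos h3]
  set Q : (kV A)[X] := (X - Polynomial.C (1728 : kV A)) ^ (6 * H21_ssB q) * d.g ^ 12 with hQ
  have h4 : 4 * H21_ssA q = 4 := by rw [ha]
  have hH : d.H = X ^ 4 * Q := by
    rw [H21_SSData.H, h4, hQ, mul_assoc]
  have hQ0 : Q.coeff 0 ≠ 0 := by
    rw [coeff_zero_eq_eval_zero, hQ, eval_mul, eval_pow, eval_pow, eval_sub, eval_X, eval_C,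
      zero_sub]
    refine mul_ne_zero (pow_ne_zero _ (neg_ne_zero.mpr d.h1728)) (pow_ne_zero _ ?_)
    exact d.not_isRoot_zero
  obtain ⟨h1, h2⟩ := Fermat.Agent.RED.H51.ord_aeval_of_coeff_zero_ne z hz hQ0
  have hj0 : jb A q M ≠ 0 := Fermat.Agent.RED.H51.ne_zero_of_ord_ne_zero z hz.ne'
  rw [hd, hH, map_mul, map_pow, aeval_X, z.ord_mul (pow_ne_zero _ hj0) h1,
    Fermat.Agent.RED.H51.ord_pow, h2, add_zero]
  norm_num

include hq hA in
/-- **`3 ∣ ord_z (rd unitF)`** at a place `z` which is not a pole of `j~`, if the zeros of `j~`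
have orders divisible by `3`; `q ≠ 3` tame. -/
theorem three_dvd_ord_unit (hq3 : q ≠ 3) (ht : TameAt M q) (z : Place (kV A) (F1 A q M))
    (hz0 : 0 ≤ z.ord (jb A q M))
    (hNE : 0 < z.ord (jb A q M) → (3 : ℤ) ∣ z.ord (jb A q M)) :
    (3 : ℤ) ∣ z.ord (Ubar A q M) := by
  have hj : (3 : ℤ) ∣ z.ord (jb A q M) := by
    rcases hz0.lt_or_eq with h | h
    · exact hNE h
    · rw [← h]
      exact dvd_zero _
  rcases ht with h5 | ⟨h3, -⟩ | ⟨h2, -⟩
  · obtain ⟨d, hd⟩ := Ubar_eq_aeval A q M hq hA h5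
    have hU0 := Ubar_ne_zero A q M
    rw [hd, H21_SSData.H, map_mul, map_mul, map_pow, map_pow, map_pow, aeval_X, map_sub,
      aeval_X, aeval_C] at hU0
    have f1 := left_ne_zero_of_mul (left_ne_zero_of_mul hU0)
    have f2 := right_ne_zero_of_mul (left_ne_zero_of_mul hU0)
    have f3 := right_ne_zero_of_mul hU0
    rw [hd, H21_SSData.H, map_mul, map_mul, map_pow, map_pow, map_pow, aeval_X, map_sub,
      aeval_X, aeval_C, z.ord_mul (mul_ne_zero f1 f2) f3, z.ord_mul f1 f2,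
      Fermat.Agent.RED.H51.ord_pow, Fermat.Agent.RED.H51.ord_pow, Fermat.Agent.RED.H51.ord_pow]
    refine dvd_add (dvd_add ?_ ?_) ?_
    · exact Dvd.dvd.mul_left hj _
    · push_cast
      exact ⟨2 * H21_ssB q * z.ord (jb A q M - algebraMap (kV A) (F1 A q M) 1728), by ring⟩
    · push_cast
      exact ⟨4 * z.ord (aeval (jb A q M) d.g), by ring⟩
  · exact absurd h3 hq3
  · rw [Ubar_eq_two A q M hq hA h2]
    exact hj

end Unit

/-! ### COORD at `p = 3` -/

theorem not_three_dvd_of_mul_eq {n a' : ℕ} (h : n * a' = 12) (h3 : (3 : ℤ) ∣ (a' : ℤ)) :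
    ¬ 3 ∣ n := by
  intro hn
  have h3' : 3 ∣ a' := by exact_mod_cast h3
  obtain ⟨k, rfl⟩ := hn
  obtain ⟨l, rfl⟩ := h3'
  have : 9 * (k * l) = 12 := by rw [← h]; ring
  omega

/-- **COORD at `p = 3`**, at a tame level `M q`, `q ≠ 3`, at which the zeros of `j~` have orders
divisible by `3`. -/
theorem stmt_CE_Coord3_of (q M : ℕ) (a b : ℤ) (hab : a * q + b * M = 1) (hq : q.Prime)
    [NeZero (M * q)] (hq3 : q ≠ 3) (hqM : ¬ q ∣ M) (ht : TameAt M q)
    (hNE : ∀ A : ValuationSubring (AlgebraicClosure ℚ), A.LiesOverPrime q →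
      ∀ z : Place (kV A) ↥(redField A (FNbar M) (hasScale_laurentBaseChange A M)),
        haveI : NeZero M := ⟨fun h => NeZero.ne (M * q) (by rw [h, zero_mul])⟩
        0 < z.ord (H91.jRed A M) → (3 : ℤ) ∣ z.ord (H91.jRed A M)) :
    Fermat.Agent.S43.CompEis.H60.Stmt_CE_Coord 3 q M a b hab hq := by
  intro A hA
  haveI : NeZero M := ⟨fun h => NeZero.ne (M * q) (by rw [h, zero_mul])⟩
  haveI : NeZero q := ⟨hq.ne_zero⟩
  have hS := Fermat.Agent.S43.CompEis.H60.isModDatum_theS A q M a b hab hq hA hqM ht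
  refine ⟨F1 A q M, inferInstance, inferInstance,
    Fermat.Agent.BADP.H21.theS A q M a b hab hq hA hqM ht,
    hS.mem₁, hS.red₁, hS.mem₂, hS.inertial, ?_⟩
  intro s hs
  obtain ⟨n, a', t, -, hna, ha', hcoord, hfix⟩ := coord_twelve A q M a b hab hq hA hqM ht hs
  refine ⟨n, t, not_three_dvd_of_mul_eq hna ?_, hcoord, hfix⟩
  rw [← ha']
  have hnode := ((modS_mem_nodes A q M a b hab hq hA hqM ht
    (totModAt A q M a b hab hq hA hqM ht)).mp hs).1
  have hz0 := _root_.Fermat.Agent.BADP.H21.ord_jRed_nonneg_of_isNode A q M a b hab hq hA hqM ht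
    (totModAt A q M a b hab hq hA hqM ht) (cuspHyp A q M a b hab hq hA hqM ht) hnode
  refine three_dvd_ord_unit A q M hq hA hq3 ht s.1 hz0 ?_
  intro hpos
  have e := kappa_ord_jRed A q M a b hab hq hA s.1
  have h1 := hNE A hA (kappa A q M a b hab hq hA s.1) (by rw [e]; exact hpos)
  rw [e] at h1
  exact h1

/-- **COORD3**: COORD at `p = 3` from NE, at a tame level `M q`, `q ≠ 3`, with a prime
`r ≡ 2 mod 3` dividing `M`. -/
theorem stmt_CE_Coord3 (hNE : Stmt_NE) (q M : ℕ) (a b : ℤ) (hab : a * q + b * M = 1)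
    (hq : q.Prime) [NeZero (M * q)] (hq3 : q ≠ 3) (hqM : ¬ q ∣ M) (ht : TameAt M q)
    (r : ℕ) (hr : r.Prime) (hr3 : r % 3 = 2) (hrM : r ∣ M) :
    Fermat.Agent.S43.CompEis.H60.Stmt_CE_Coord 3 q M a b hab hq :=
  stmt_CE_Coord3_of q M a b hab hq hq3 hqM ht fun A hA z hz =>
    haveI : NeZero M := ⟨fun h => NeZero.ne (M * q) (by rw [h, zero_mul])⟩
    hNE q M r hq hqM hr hr3 hrM A hA z hz

end Fermat.Agent.S38.P3.H60

end
end
-- ==== END Fermat.Agent.S38.P3.H60_Coord3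

-- ==== BEGIN Fermat.Agent.S38.P3.H66_NE0
section

/-!
# S38 at `p = 3`, leaf NE0 (helper66)

`stmt_NE0 : Stmt_NE0` : at a level `M` divisible by a prime `r ≡ 2 mod 3` every zero of `j`
(in characteristic `0`) has order `3`.

* `nuThree_eq_zero_of_prime_dvd` : `ν₃(M) = 0` if a prime `r ≡ 2 mod 3` divides `M`;
* `ord_jF_eq_three` : the order is exactly `3` (from helper30's `ram_char0_zero`).
-/

set_option autoImplicit false
set_option linter.style.haveILetI false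
set_option linter.unusedSectionVars false
set_option synthInstance.maxHeartbeats 400000
set_option maxHeartbeats 1000000

noncomputable section

open AlgebraicCurve ModularCurve

namespace Fermat.Agent.S38.P3.H66

/-- `ν₃(M) = 0` if a prime `r ≡ 2 mod 3` divides `M`. -/
theorem nuThree_eq_zero_of_prime_dvd {M r : ℕ} (hr : r.Prime) (hr3 : r % 3 = 2) (h : r ∣ M) :
    nuThree M = 0 := by
  unfold nuThree
  have : IsEmpty {x : ZMod M // x ^ 2 + x + 1 = 0} := by
    refine ⟨fun x => ?_⟩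
    haveI : Fact r.Prime := ⟨hr⟩
    have h1 := congrArg (ZMod.castHom h (ZMod r)) x.2
    rw [map_add, map_add, map_pow, map_one, map_zero] at h1
    generalize (ZMod.castHom h (ZMod r)) x.1 = y at h1
    have h3 : y ^ 3 = 1 := by linear_combination (y - 1) * h1
    have hy1 : y ≠ 1 := by
      intro hy
      rw [hy] at h1
      have h4 : ((3 : ℕ) : ZMod r) = 0 := by
        push_cast
        linear_combination h1
      rw [ZMod.natCast_eq_zero_iff] at h4
      have h5 := (Nat.prime_dvd_prime_iff_eq hr Nat.prime_three).1 h4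
      omega
    haveI : Fact (Nat.Prime 3) := ⟨Nat.prime_three⟩
    have hord : orderOf y = 3 := orderOf_eq_prime h3 hy1
    have hy0 : y ≠ 0 := by
      intro h0
      rw [h0] at h3
      simp at h3
    have h6 : orderOf y ∣ r - 1 := ZMod.orderOf_dvd_card_sub_one hy0
    rw [hord] at h6
    have hr2 := hr.two_le
    omega
  exact Nat.card_of_isEmpty

/-- At a level divisible by a prime `r ≡ 2 mod 3` every zero of `j` has order exactly `3`. -/
theorem ord_jF_eq_three (M r : ℕ) [NeZero M] (hr : r.Prime) (hr3 : r % 3 = 2) (hrM : r ∣ M)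
    (P : Place (AlgebraicClosure ℚ) ↥(Fermat.Agent.BAD.FNbar M))
    (hP : 0 < P.ord (RED.H73.jF (L := AlgebraicClosure ℚ) M)) :
    P.ord (RED.H73.jF (L := AlgebraicClosure ℚ) M) = 3 := by
  have h3 := nuThree_eq_zero_of_prime_dvd hr hr3 hrM
  have key := Fermat.Agent.S36.NU.H30.ram_char0_zero M h3 P (by rwa [map_zero, sub_zero])
  rwa [map_zero, sub_zero] at key

/-- **NE0**. -/
theorem stmt_NE0 : Stmt_NE0 := by
  intro M r _ hr hr3 hrM P hP
  rw [ord_jF_eq_three M r hr hr3 hrM P hP]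

end Fermat.Agent.S38.P3.H66

end
end
-- ==== END Fermat.Agent.S38.P3.H66_NE0

-- ==== BEGIN Fermat.Agent.S38.P3.H8_NE0
section

set_option autoImplicit false

noncomputable section

open AlgebraicCurve ModularCurve

namespace Fermat.Agent.S38.P3.H8

/-- **NE0**. -/
theorem stmt_NE0 : Stmt_NE0 := by
  intro M r _ hr h2 hd P hP
  exact Fermat.Agent.S38.CE3.H8.three_dvd_ord_j M hr h2 hd P hP.le

/-- NE0 in the sharp form: the order is exactly `3`. -/
theorem ne0_eq_three (M r : ℕ) [NeZero M] (hr : r.Prime) (h2 : r % 3 = 2) (hd : r ∣ M)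
    (P : Place (AlgebraicClosure ℚ) ↥(Fermat.Agent.BAD.FNbar M))
    (hP : 0 < P.ord (Fermat.Agent.RED.H73.jF (L := AlgebraicClosure ℚ) M)) :
    P.ord (Fermat.Agent.RED.H73.jF (L := AlgebraicClosure ℚ) M) = 3 :=
  Fermat.Agent.S38.CE3.H8.ram0 M hr h2 hd P hP

end Fermat.Agent.S38.P3.H8

end
end
-- ==== END Fermat.Agent.S38.P3.H8_NE0

-- ==== BEGIN Fermat.Agent.S39.FinGood.Defs
section

set_option autoImplicit false
set_option synthInstance.maxHeartbeats 400000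
set_option maxHeartbeats 1000000

noncomputable section

open WeierstrassCurve WeierstrassCurve.Affine WeierstrassCurve.Affine.Point
open scoped WeierstrassCurve.Affine

namespace Fermat.Agent.S39.FinGood

open Fermat.Agent.S39 Fermat.Agent.S44 Fermat.Agent.S56.FL

/-- A representation of `G_ℚ` is trivial on `Gal(K̄/L)` (through `localGaloisToGlobal`) for a
finite Galois extension `L/ℚ_p` of bounded ramification. -/
def IsBddRep (p : ℕ) [Fact p.Prime] {V : Type} [AddCommGroup V] [Module (ZMod p) V]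
    (ρ : GQ →* Module.End (ZMod p) V) : Prop :=
  ∃ (L : IntermediateField ℚ_[p] (PadicAlgCl p)) (_ : FiniteDimensional ℚ_[p] L),
    Normal ℚ_[p] L ∧ IsBddField p L ∧
      ∀ σ : Gp p, σ ∈ L.fixingSubgroup → ρ (localGaloisToGlobal p σ) = 1

/-- **L1** (FLAT-BDD): Fontaine's bound for `E[p]`, `p` odd and good. -/
def Stmt_FlatBdd : Prop :=
  ∀ (W : WeierstrassCurve ℤ), W.Δ ≠ 0 → ∀ (p : ℕ) [Fact p.Prime], p ≠ 2 →
    W.IsGoodPrimeFor p → IsBddRep p (rhoTors W p)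

/-- **L2a** (CONJ-SHAPE): the Steinberg shape does not depend on the place over `p`. -/
def Stmt_ConjShape : Prop :=
  ∀ (p : ℕ), p.Prime →
    ∀ A A' : ValuationSubring (AlgebraicClosure ℚ), A.LiesOverPrime p → A'.LiesOverPrime p →
    ∀ (V : Type) [AddCommGroup V] [Module (ZMod p) V] (ρ : GQ →* Module.End (ZMod p) V),
      SteinbergShapeD p A ρ → SteinbergShapeD p A' ρ

/-- **L2b** (CONJ-FIN): finiteness at `p` does not depend on the place over `p`. -/
def Stmt_ConjFin : Prop :=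
  ∀ (p : ℕ), p.Prime →
    ∀ A A' : ValuationSubring (AlgebraicClosure ℚ), A.LiesOverPrime p → A'.LiesOverPrime p →
    ∀ (V : Type) [AddCommGroup V] [Module (ZMod p) V] (ρ : GQ →* Module.End (ZMod p) V),
      IsFiniteAt p A ρ → IsFiniteAt p A' ρ

/-- **L3** (FIN-LOC): the local core, at the place `padicPlace p`. -/
def Stmt_FinLoc : Prop :=
  ∀ (p : ℕ) [Fact p.Prime], p ≠ 2 →
    ∀ (V : Type) [AddCommGroup V] [Module (ZMod p) V] (ρ : GQ →* Module.End (ZMod p) V),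
      Module.finrank (ZMod p) V = 2 →
      GaloisFactorsThroughFiniteLevel ρ →
      (∀ (σ : GQ) (a : ℕ), (∀ μ : AlgebraicClosure ℚ, μ ^ p = 1 → σ μ = μ ^ a) →
        LinearMap.det (ρ σ) = (a : ZMod p)) →
      IsBddRep p ρ →
      SteinbergShapeD p (padicPlace p) ρ → IsFiniteAt p (padicPlace p) ρ

/-- `padicPlace p` lies over `p`. -/
theorem padicPlace_liesOver (p : ℕ) [Fact p.Prime] : (padicPlace p).LiesOverPrime p := by
  show (p : AlgebraicClosure ℚ) ∈ (padicPlace p).nonunits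
  have hp : p.Prime := Fact.out
  have hp0 : (p : AlgebraicClosure ℚ) ≠ 0 := by exact_mod_cast hp.ne_zero
  rw [ValuationSubring.mem_nonunits_iff_or, or_iff_right hp0, mem_padicPlace_iff, map_inv₀,
    map_natCast, nnnorm_inv, ← NNReal.coe_le_coe, NNReal.coe_inv, coe_nnnorm, NNReal.coe_one,
    not_le]
  have h1 : ‖(p : PadicAlgCl p)‖ = (p : ℝ)⁻¹ := by
    have h2 : ((p : ℚ_[p]) : PadicAlgCl p) = (p : PadicAlgCl p) := map_natCast _ _
    rw [← h2]
    have h3 : ‖algebraMap ℚ_[p] (PadicAlgCl p) (p : ℚ_[p])‖ = ‖(p : ℚ_[p])‖ :=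
      norm_algebraMap' (PadicAlgCl p) (p : ℚ_[p])
    rw [show ((p : ℚ_[p]) : PadicAlgCl p) = algebraMap ℚ_[p] (PadicAlgCl p) (p : ℚ_[p]) from
      rfl, h3, Padic.norm_p]
  rw [h1, inv_inv]
  exact_mod_cast hp.one_lt

/-- **FIN-GOOD from the leaves.** -/
theorem finGoodD_of (h1 : Stmt_FlatBdd) (h2a : Stmt_ConjShape) (h2b : Stmt_ConjFin)
    (h3 : Stmt_FinLoc) : Stmt_FinGoodD := by
  intro W hΔ p hp hp2 hgood _ A hA hshape
  have : Fact p.Prime := ⟨hp⟩
  have hA₀ := padicPlace_liesOver p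
  refine h2b p hp (padicPlace p) A hA₀ hA _ (rhoTors W p) ?_
  refine h3 p hp2 _ (rhoTors W p) (Fermat.Agent.S58.H99.finrank_torsW W hΔ p)
    (Fermat.Agent.S58.H99.torsW_finiteLevel W hΔ p)
    (fun σ a ha => Fermat.Agent.L.H52.det_rhoW_eq_natCast hΔ σ a ha)
    (h1 W hΔ p hp2 hgood) (h2a p hp A (padicPlace p) hA hA₀ _ (rhoTors W p) hshape)

end Fermat.Agent.S39.FinGood

end
end
-- ==== END Fermat.Agent.S39.FinGood.Defs

-- ==== BEGIN Fermat.Agent.S39.FinMult.H33_M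
section

set_option autoImplicit false

namespace Fermat.Agent.S39.FinMult.H33

open WeierstrassCurve WeierstrassCurve.Affine
open Fermat.Agent.S05 (InE0 InE1)
open Fermat.Agent.S44.C (lam lam_zero lam_some)
open Fermat.Agent.S44.C.H38 (le_of_sq_le_sq_g eq_of_sq_eq_sq_g)

/-! ### Valuations of `y ± β x` on `E₀` -/

section Val

variable {L : Type*} [Field L] {Γ : Type*} [LinearOrderedCommGroupWithZero Γ] (v : Valuation L Γ)

/-- If `s d = x³ + r`, `s - d = c x` with `|c| = 1`, `|r| < |x|³`, `1 ≤ |x|` then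
`|s| = |d|` and `|s|² = |x|³`. -/
lemma val_sd_node {x r s d c : L} (hx : 1 ≤ v x) (hr : v r < v x ^ 3) (hc : v c = 1)
    (hprod : s * d = x ^ 3 + r) (hdiff : s - d = c * x) :
    v s = v d ∧ v s ^ 2 = v x ^ 3 := by
  have hx0 : 0 < v x := lt_of_lt_of_le zero_lt_one hx
  have h1 : v (x ^ 3 + r) = v x ^ 3 := by
    rw [← map_pow]
    refine Valuation.map_add_eq_of_lt_left v ?_
    rw [map_pow]
    exact hr
  have hp : v s * v d = v x ^ 3 := by
    rw [← map_mul, hprod, h1]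
  have hd : v (s - d) = v x := by rw [hdiff, map_mul, hc, one_mul]
  have hlt : v x ^ 2 < v x → False := by
    intro h
    have : v x ^ 1 ≤ v x ^ 2 := pow_le_pow_right₀ hx (by norm_num)
    rw [pow_one] at this
    exact absurd h (not_lt.2 this)
  have heq : v s = v d := by
    rcases lt_trichotomy (v s) (v d) with h | h | h
    · exfalso
      have h2 : v (s - d) = v d := Valuation.map_sub_eq_of_lt_right v h
      have h3 : v d = v x := by rw [← h2, hd]
      have h4 : v s = v x ^ 2 := by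
        rw [h3] at hp
        have : v s * v x = v x ^ 2 * v x := by rw [hp]; exact pow_succ (v x) 2
        exact mul_right_cancel₀ hx0.ne' this
      rw [h4, h3] at h
      exact hlt h
    · exact h
    · exfalso
      have h2 : v (s - d) = v s := Valuation.map_sub_eq_of_lt_left v h
      have h3 : v s = v x := by rw [← h2, hd]
      have h4 : v d = v x ^ 2 := by
        rw [h3] at hp
        have : v x * v d = v x * v x ^ 2 := by rw [hp]; exact pow_succ' (v x) 2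
        exact mul_left_cancel₀ hx0.ne' this
      rw [h4, h3] at h
      exact hlt h
  refine ⟨heq, ?_⟩
  rw [sq, ← hp, heq]

end Val

/-! ### The model -/

section Model

variable {L : Type*} [Field L] {A : ValuationSubring L} {W : Affine L}

lemma node_equation_iff (h₁ : W.a₁ = 0) (h₃ : W.a₃ = 0) (x y : L) :
    W.Equation x y ↔ y ^ 2 = x ^ 3 + W.a₂ * x ^ 2 + W.a₄ * x + W.a₆ := by
  rw [Affine.equation_iff, h₁, h₃]
  constructor <;> intro h <;> linear_combination h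

lemma node_eqn (hyp : NodeHyp A W) {x y : L} (h : W.Nonsingular x y) :
    y ^ 2 = x ^ 3 + W.a₂ * x ^ 2 + W.a₄ * x + W.a₆ :=
  (node_equation_iff hyp.a₁ hyp.a₃ x y).1 h.1

lemma node_negY (h₁ : W.a₁ = 0) (h₃ : W.a₃ = 0) (x y : L) : W.negY x y = -y := by
  simp [Affine.negY, h₁, h₃]

lemma val_beta (hyp : NodeHyp A W) {β : L} (hβ : β ^ 2 = W.a₂) : A.valuation β = 1 := by
  have h1 : A.valuation β ^ 2 = 1 := by rw [← map_pow, hβ, hyp.a_one]
  exact eq_of_sq_eq_sq_g (by rw [h1, one_pow])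

lemma val_two_beta (hyp : NodeHyp A W) {β : L} (hβ : β ^ 2 = W.a₂) :
    A.valuation (2 * β) = 1 := by
  rw [map_mul, hyp.two, val_beta hyp hβ, one_mul]

/-- `|b x + c| < |x|³` for `1 ≤ |x|`. -/
lemma val_bx_c_lt (hyp : NodeHyp A W) {x : L} (hx : 1 ≤ A.valuation x) :
    A.valuation (W.a₄ * x + W.a₆) < A.valuation x ^ 3 := by
  have hx0 : 0 < A.valuation x := lt_of_lt_of_le zero_lt_one hx
  have hx2 : 1 ≤ A.valuation x ^ 2 := one_le_pow₀ hx
  have hx3 : 1 ≤ A.valuation x ^ 3 := one_le_pow₀ hx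
  refine Valuation.map_add_lt _ ?_ (lt_of_lt_of_le (val_c_lt hyp) hx3)
  rw [map_mul]
  calc A.valuation W.a₄ * A.valuation x < 1 * A.valuation x :=
        mul_lt_mul_of_pos_right (val_b_lt hyp) hx0
    _ = A.valuation x := one_mul _
    _ = A.valuation x * 1 := (mul_one _).symm
    _ ≤ A.valuation x * A.valuation x ^ 2 := by gcongr
    _ = A.valuation x ^ 3 := (pow_succ' _ 2).symm

/-- On `E₀`: `|y + β x| = |y - β x|` and `|y + β x|² = |x|³`. -/
lemma val_s_d (hyp : NodeHyp A W) {β : L} (hβ : β ^ 2 = W.a₂) {x y : L}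
    (h : W.Nonsingular x y) (hx : 1 ≤ A.valuation x) :
    A.valuation (y + β * x) = A.valuation (y - β * x) ∧
      A.valuation (y + β * x) ^ 2 = A.valuation x ^ 3 := by
  refine val_sd_node A.valuation hx (val_bx_c_lt hyp hx) (_root_.Fermat.Agent.S39.FinMult.H33.val_two_beta hyp hβ) ?_ (by ring)
  have e := node_eqn hyp h
  linear_combination e - x ^ 2 * hβ

lemma s_ne_zero (hyp : NodeHyp A W) {β : L} (hβ : β ^ 2 = W.a₂) {x y : L}
    (h : W.Nonsingular x y) (hx : 1 ≤ A.valuation x) : y + β * x ≠ 0 := by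
  intro h0
  have h1 := (_root_.Fermat.Agent.S39.FinMult.H33.val_s_d hyp hβ h hx).2
  rw [h0, map_zero] at h1
  have hx0 : 0 < A.valuation x := lt_of_lt_of_le zero_lt_one hx
  have : (0 : A.ValueGroup) < A.valuation x ^ 3 := pow_pos hx0 3
  rw [← h1] at this
  simp at this

lemma d_ne_zero (hyp : NodeHyp A W) {β : L} (hβ : β ^ 2 = W.a₂) {x y : L}
    (h : W.Nonsingular x y) (hx : 1 ≤ A.valuation x) : y - β * x ≠ 0 := by
  intro h0
  have h1 := _root_.Fermat.Agent.S39.FinMult.H33.val_s_d hyp hβ h hx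
  rw [h0, map_zero] at h1
  have := _root_.Fermat.Agent.S39.FinMult.H33.s_ne_zero hyp hβ h hx
  exact this ((map_eq_zero _).1 h1.1)

/-- `lam` is a unit on `E₀`. -/
theorem val_lam_eq_one (hyp : NodeHyp A W) {β : L} (hβ : β ^ 2 = W.a₂) (P : W.Point)
    (hP : InE0 A P) : A.valuation (lam β P) = 1 := by
  rcases P with _ | ⟨x, y, h⟩
  · show A.valuation (1 : L) = 1
    exact map_one _
  · have hx : 1 ≤ A.valuation x := hP
    have h1 := _root_.Fermat.Agent.S39.FinMult.H33.val_s_d hyp hβ h hx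
    have hs := _root_.Fermat.Agent.S39.FinMult.H33.s_ne_zero hyp hβ h hx
    rw [lam_some, map_div₀, ← h1.1]
    exact div_self ((map_ne_zero _).2 hs)

/-- `lam (-P) = (lam P)⁻¹`. -/
theorem lam_neg (hyp : NodeHyp A W) (β : L) (P : W.Point) : lam β (-P) = (lam β P)⁻¹ := by
  rcases P with _ | ⟨x, y, h⟩
  · show lam β (-(0 : W.Point)) = (lam β (0 : W.Point))⁻¹
    simp
  · rw [Point.neg_some, lam_some, lam_some, node_negY hyp.a₁ hyp.a₃, inv_div]
    have e1 : -y - β * x = -(y + β * x) := by ring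
    have e2 : -y + β * x = -(y - β * x) := by ring
    rw [e1, e2, neg_div_neg_eq]

/-- `lam P - 1 = -(2 β x)/(y + β x)`. -/
lemma lam_sub_one (hyp : NodeHyp A W) {β : L} (hβ : β ^ 2 = W.a₂) {x y : L}
    (h : W.Nonsingular x y) (hx : 1 ≤ A.valuation x) :
    lam β (Point.some x y h) - 1 = -(2 * β * x) / (y + β * x) := by
  have hs := _root_.Fermat.Agent.S39.FinMult.H33.s_ne_zero hyp hβ h hx
  rw [lam_some]
  field_simp
  ring

/-- On `E₀ \ 0`: `|lam P - 1|² |x| = 1`. -/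
lemma val_lam_sub_one_sq (hyp : NodeHyp A W) {β : L} (hβ : β ^ 2 = W.a₂) {x y : L}
    (h : W.Nonsingular x y) (hx : 1 ≤ A.valuation x) :
    A.valuation (lam β (Point.some x y h) - 1) ^ 2 * A.valuation x = 1 := by
  have h1 := (_root_.Fermat.Agent.S39.FinMult.H33.val_s_d hyp hβ h hx).2
  have hs := _root_.Fermat.Agent.S39.FinMult.H33.s_ne_zero hyp hβ h hx
  have hx0 : 0 < A.valuation x := lt_of_lt_of_le zero_lt_one hx
  have hs0 : A.valuation (y + β * x) ≠ 0 := (map_ne_zero _).2 hs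
  rw [_root_.Fermat.Agent.S39.FinMult.H33.lam_sub_one hyp hβ h hx, map_div₀, Valuation.map_neg, map_mul, _root_.Fermat.Agent.S39.FinMult.H33.val_two_beta hyp hβ,
    one_mul, div_pow, h1, div_mul_eq_mul_div, ← pow_succ]
  exact div_self (pow_ne_zero _ hx0.ne')

/-- `|lam - 1| < 1` on `E₁`. -/
theorem val_lam_sub_one_lt (hyp : NodeHyp A W) {β : L} (hβ : β ^ 2 = W.a₂) (P : W.Point)
    (hP : InE1 A P) : A.valuation (lam β P - 1) < 1 := by
  rcases P with _ | ⟨x, y, h⟩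
  · show A.valuation ((1 : L) - 1) < 1
    rw [sub_self, map_zero]; exact zero_lt_one
  · have hx : 1 < A.valuation x := hP
    have h1 := _root_.Fermat.Agent.S39.FinMult.H33.val_lam_sub_one_sq hyp hβ h hx.le
    by_contra hc
    have hc := not_lt.1 hc
    have h2 : 1 ≤ A.valuation (lam β (Point.some x y h) - 1) ^ 2 := one_le_pow₀ hc
    have h3 : 1 < A.valuation (lam β (Point.some x y h) - 1) ^ 2 * A.valuation x := by
      calc (1 : A.ValueGroup) < A.valuation x := hx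
        _ = 1 * A.valuation x := (one_mul _).symm
        _ ≤ _ := mul_le_mul_left h2 _
    rw [h1] at h3
    exact lt_irrefl _ h3

/-- Converse: a point of `E₀` with `|lam - 1| < 1` lies in `E₁`. -/
theorem inE1_of_val_lam_sub_one_lt (hyp : NodeHyp A W) {β : L} (hβ : β ^ 2 = W.a₂)
    (P : W.Point) (hP : InE0 A P) (h : A.valuation (lam β P - 1) < 1) : InE1 A P := by
  rcases P with _ | ⟨x, y, hxy⟩
  · trivial
  · have hx : 1 ≤ A.valuation x := hP
    have h1 := _root_.Fermat.Agent.S39.FinMult.H33.val_lam_sub_one_sq hyp hβ hxy hx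
    show 1 < A.valuation x
    by_contra hc
    have hx1 : A.valuation x = 1 := le_antisymm (not_lt.1 hc) hx
    rw [hx1, mul_one] at h1
    have : A.valuation (lam β (Point.some x y hxy) - 1) ^ 2 < 1 :=
      pow_lt_one₀ zero_le h two_ne_zero
    rw [h1] at this
    exact lt_irrefl _ this

end Model

/-! ### The line through `P₁`, `P₂`, `-P₃` -/

section Line

variable {L : Type*} [Field L] [DecidableEq L]

/-- Line data (Vieta relations) for the sum of two affine points on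
`y² = x³ + a x² + b x + c`. -/
theorem node_line (W : Affine L) (h₁ : W.a₁ = 0) (h₃ : W.a₃ = 0)
    (x₁ y₁ x₂ y₂ x₃ y₃ : L) (hP₁ : W.Nonsingular x₁ y₁) (hP₂ : W.Nonsingular x₂ y₂)
    (hP₃ : W.Nonsingular x₃ y₃)
    (hadd : Point.some x₁ y₁ hP₁ + Point.some x₂ y₂ hP₂ = Point.some x₃ y₃ hP₃) :
    ∃ ℓ μ : L, y₁ = ℓ * x₁ + μ ∧ y₂ = ℓ * x₂ + μ ∧ -y₃ = ℓ * x₃ + μ ∧
      x₁ + x₂ + x₃ = ℓ ^ 2 - W.a₂ ∧ x₁ * x₂ + x₁ * x₃ + x₂ * x₃ = W.a₄ - 2 * ℓ * μ ∧
      x₁ * x₂ * x₃ = μ ^ 2 - W.a₆ := by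
  have e₁ := (node_equation_iff h₁ h₃ x₁ y₁).1 hP₁.1
  have e₂ := (node_equation_iff h₁ h₃ x₂ y₂).1 hP₂.1
  by_cases hxy : x₁ = x₂ ∧ y₁ = W.negY x₂ y₂
  · rw [Point.add_of_Y_eq hxy.1 hxy.2] at hadd
    exact absurd hadd.symm (Point.some_ne_zero hP₃)
  rw [Point.add_some hxy] at hadd
  have hx₃ : W.addX x₁ x₂ (W.slope x₁ x₂ y₁ y₂) = x₃ := by
    injection hadd
  have hy₃ : W.addY x₁ x₂ y₁ (W.slope x₁ x₂ y₁ y₂) = y₃ := by
    injection hadd
  obtain ⟨ℓ, hℓ⟩ : ∃ ℓ, ℓ = W.slope x₁ x₂ y₁ y₂ := ⟨_, rfl⟩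
  rw [← hℓ] at hx₃ hy₃
  simp only [addX, h₁] at hx₃
  simp only [addY, negAddY, addX, node_negY h₁ h₃, h₁] at hy₃
  -- the key relation: divided difference of the cubic along the line
  have key : x₁ ^ 2 + x₁ * x₂ + x₂ ^ 2 + W.a₂ * (x₁ + x₂) + W.a₄ - ℓ ^ 2 * (x₁ + x₂)
      - 2 * ℓ * (y₁ - ℓ * x₁) = 0 ∧ y₂ = ℓ * x₂ + (y₁ - ℓ * x₁) := by
    by_cases hx : x₁ = x₂
    · have hy : y₁ ≠ W.negY x₂ y₂ := fun h => hxy ⟨hx, h⟩
      have hyy := Y_eq_of_Y_ne hP₁.1 hP₂.1 hx hy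
      subst hx; subst hyy
      have hd : y₁ - W.negY x₁ y₁ ≠ 0 := sub_ne_zero.2 hy
      have hℓ' : ℓ * (y₁ - W.negY x₁ y₁) = 3 * x₁ ^ 2 + 2 * W.a₂ * x₁ + W.a₄ - W.a₁ * y₁ := by
        rw [hℓ, slope_of_Y_ne rfl hy, div_mul_cancel₀ _ hd]
      rw [node_negY h₁ h₃, h₁] at hℓ'
      refine ⟨?_, by ring⟩
      linear_combination (-1 : L) * hℓ'
    · have hd : x₁ - x₂ ≠ 0 := sub_ne_zero.2 hx
      have hℓ' : ℓ * (x₁ - x₂) = y₁ - y₂ := by
        rw [hℓ, slope_of_X_ne hx, div_mul_cancel₀ _ hd]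
      refine ⟨?_, by linear_combination hℓ'⟩
      apply mul_left_cancel₀ hd
      linear_combination (-1 : L) * e₁ + e₂ + (ℓ * (x₁ - x₂) - y₁ - y₂) * hℓ'
  obtain ⟨key, hy₂⟩ := key
  refine ⟨ℓ, y₁ - ℓ * x₁, by ring, hy₂, ?_, ?_, ?_, ?_⟩
  · rw [← hy₃, ← hx₃]; ring
  · rw [← hx₃]; ring
  · -- Vieta 2
    rw [← hx₃]
    linear_combination (-1 : L) * key
  · -- Vieta 3
    rw [← hx₃]
    linear_combination (-1 : L) * e₁ - x₁ * key

omit [DecidableEq L] in
/-- The exact identity behind the multiplicativity of `lam` (line `y = ℓ x + μ`). -/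
lemma node_key_id (a b c β ℓ μ x₁ x₂ x₃ y₁ y₂ y₃ : L) (hβ : β ^ 2 = a)
    (e₁ : y₁ = ℓ * x₁ + μ) (e₂ : y₂ = ℓ * x₂ + μ) (e₃ : -y₃ = ℓ * x₃ + μ)
    (V₁ : x₁ + x₂ + x₃ = ℓ ^ 2 - a) (V₂ : x₁ * x₂ + x₁ * x₃ + x₂ * x₃ = b - 2 * ℓ * μ)
    (V₃ : x₁ * x₂ * x₃ = μ ^ 2 - c) :
    (y₃ - β * x₃) * ((y₁ + β * x₁) * (y₂ + β * x₂))
        - (y₁ - β * x₁) * (y₂ - β * x₂) * (y₃ + β * x₃) =
      -(4 * b * β * ℓ * μ) + 2 * β * c * (3 * ℓ ^ 2 + a) := by
  have e₃' : y₃ = -(ℓ * x₃ + μ) := by linear_combination -e₃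
  subst e₁ e₂ e₃'
  linear_combination (-(6 * ℓ ^ 2 * β + 2 * β ^ 3)) * V₃ + (-(4 * ℓ * β * μ)) * V₂
    + (-(2 * β * μ ^ 2)) * V₁ + (-(2 * β * μ ^ 2) + 2 * β * c) * hβ

end Line

/-! ### The main estimate -/

section Est

variable {L : Type*} [Field L] [DecidableEq L] {A : ValuationSubring L} {W : Affine L}

/-- The affine case of the main estimate. -/
lemma val_lam_add_some (hyp : NodeHyp A W) {β : L} (hβ : β ^ 2 = W.a₂)
    {x₁ y₁ x₂ y₂ x₃ y₃ : L} (h₁ : W.Nonsingular x₁ y₁)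
    (h₂ : W.Nonsingular x₂ y₂) (h₃ : W.Nonsingular x₃ y₃)
    (hx₁ : 1 ≤ A.valuation x₁) (hx₂ : 1 ≤ A.valuation x₂) (hx₃ : 1 ≤ A.valuation x₃)
    (hadd : Point.some x₁ y₁ h₁ + Point.some x₂ y₂ h₂ = Point.some x₃ y₃ h₃) :
    A.valuation (lam β (Point.some x₃ y₃ h₃)
        - lam β (Point.some x₁ y₁ h₁) * lam β (Point.some x₂ y₂ h₂)) ≤
      A.valuation W.Δ * A.valuation (lam β (Point.some x₂ y₂ h₂) - 1) := by
  obtain ⟨ℓ, μ, e₁, e₂, e₃, V₁, V₂, V₃⟩ :=
    node_line W hyp.a₁ hyp.a₃ x₁ y₁ x₂ y₂ x₃ y₃ h₁ h₂ h₃ hadd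
  have hs₁ := _root_.Fermat.Agent.S39.FinMult.H33.s_ne_zero hyp hβ h₁ hx₁
  have hs₂ := _root_.Fermat.Agent.S39.FinMult.H33.s_ne_zero hyp hβ h₂ hx₂
  have hs₃ := _root_.Fermat.Agent.S39.FinMult.H33.s_ne_zero hyp hβ h₃ hx₃
  have S₁ := (_root_.Fermat.Agent.S39.FinMult.H33.val_s_d hyp hβ h₁ hx₁).2
  have S₂ := (_root_.Fermat.Agent.S39.FinMult.H33.val_s_d hyp hβ h₂ hx₂).2
  have S₃ := (_root_.Fermat.Agent.S39.FinMult.H33.val_s_d hyp hβ h₃ hx₃).2
  have hU := _root_.Fermat.Agent.S39.FinMult.H33.val_lam_sub_one_sq hyp hβ h₂ hx₂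
  set E : L := lam β (Point.some x₃ y₃ h₃)
        - lam β (Point.some x₁ y₁ h₁) * lam β (Point.some x₂ y₂ h₂) with hE
  set U : A.ValueGroup := A.valuation (lam β (Point.some x₂ y₂ h₂) - 1) with hUdef
  set R : L := -(4 * W.a₄ * β * ℓ * μ) + 2 * β * W.a₆ * (3 * ℓ ^ 2 + W.a₂) with hR
  -- the exact identity
  have hid : E * ((y₁ + β * x₁) * (y₂ + β * x₂) * (y₃ + β * x₃)) = R := by
    rw [hR, ← node_key_id W.a₂ W.a₄ W.a₆ β ℓ μ x₁ x₂ x₃ y₁ y₂ y₃ hβ e₁ e₂ e₃ V₁ V₂ V₃, hE,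
      lam_some, lam_some, lam_some]
    field_simp
  -- notation
  set X₁ := A.valuation x₁
  set X₂ := A.valuation x₂
  set X₃ := A.valuation x₃
  set T₁ := A.valuation (y₁ + β * x₁)
  set T₂ := A.valuation (y₂ + β * x₂)
  set T₃ := A.valuation (y₃ + β * x₃)
  set D := A.valuation W.Δ
  have hX₁ : 0 < X₁ := lt_of_lt_of_le zero_lt_one hx₁
  have hX₂ : 0 < X₂ := lt_of_lt_of_le zero_lt_one hx₂
  have hX₃ : 0 < X₃ := lt_of_lt_of_le zero_lt_one hx₃
  have hB1 : (1 : A.ValueGroup) ≤ X₁ ^ 2 := one_le_pow₀ hx₁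
  have hB3 : (1 : A.ValueGroup) ≤ X₃ ^ 2 := one_le_pow₀ hx₃
  have hPi1 : (1 : A.ValueGroup) ≤ X₁ * X₂ * X₃ :=
    one_le_mul_of_one_le_of_one_le (one_le_mul_of_one_le_of_one_le hx₁ hx₂) hx₃
  have p1 : X₁ ≤ X₁ * X₂ * X₃ :=
    (le_mul_of_one_le_right' hx₂).trans (le_mul_of_one_le_right' hx₃)
  have p2 : X₂ ≤ X₁ * X₂ * X₃ :=
    (le_mul_of_one_le_left' hx₁).trans (le_mul_of_one_le_right' hx₃)
  have p3 : X₃ ≤ X₁ * X₂ * X₃ :=
    le_mul_of_one_le_left' (one_le_mul_of_one_le_of_one_le hx₁ hx₂)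
  have c1 : A.valuation E * (T₁ * T₂ * T₃) = A.valuation R := by
    rw [← hid, map_mul, map_mul, map_mul]
  -- `|μ|² ≤ |x₁ x₂ x₃|`
  have c3 : A.valuation μ ^ 2 ≤ X₁ * X₂ * X₃ := by
    have : μ ^ 2 = x₁ * x₂ * x₃ + W.a₆ := by linear_combination -V₃
    rw [← map_pow, this]
    refine (A.valuation.map_add _ _).trans (max_le ?_ ((val_c_lt hyp).le.trans hPi1))
    rw [map_mul, map_mul]
  -- `|ℓ|² ≤ |x₁|² |x₂| |x₃|²`
  have c4 : A.valuation ℓ ^ 2 ≤ X₁ ^ 2 * X₂ * X₃ ^ 2 := by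
    have b1 : X₁ ≤ X₁ ^ 2 * X₂ * X₃ ^ 2 := by
      calc X₁ = X₁ ^ 1 := (pow_one _).symm
        _ ≤ X₁ ^ 2 := pow_le_pow_right₀ hx₁ (by norm_num)
        _ ≤ X₁ ^ 2 * X₂ := le_mul_of_one_le_right' hx₂
        _ ≤ X₁ ^ 2 * X₂ * X₃ ^ 2 := le_mul_of_one_le_right' hB3
    have b2 : X₂ ≤ X₁ ^ 2 * X₂ * X₃ ^ 2 := by
      calc X₂ ≤ X₁ ^ 2 * X₂ := le_mul_of_one_le_left' hB1
        _ ≤ X₁ ^ 2 * X₂ * X₃ ^ 2 := le_mul_of_one_le_right' hB3
    have b3 : X₃ ≤ X₁ ^ 2 * X₂ * X₃ ^ 2 := by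
      calc X₃ = X₃ ^ 1 := (pow_one _).symm
        _ ≤ X₃ ^ 2 := pow_le_pow_right₀ hx₃ (by norm_num)
        _ ≤ X₁ ^ 2 * X₂ * X₃ ^ 2 := le_mul_of_one_le_left' (one_le_mul_of_one_le_of_one_le hB1 hx₂)
    have b0 : A.valuation W.a₂ ≤ X₁ ^ 2 * X₂ * X₃ ^ 2 :=
      le_trans hyp.a_one.le (le_trans hx₂ b2)
    have : ℓ ^ 2 = x₁ + x₂ + x₃ + W.a₂ := by linear_combination -V₁
    rw [← map_pow, this]
    exact Valuation.map_add_le _ (Valuation.map_add_le _ (Valuation.map_add_le _ b1 b2) b3) b0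
  -- `|ℓ|² ≤ |x₁ x₂ x₃|`
  have c5 : A.valuation ℓ ^ 2 ≤ X₁ * X₂ * X₃ := by
    have : ℓ ^ 2 = x₁ + x₂ + x₃ + W.a₂ := by linear_combination -V₁
    rw [← map_pow, this]
    exact Valuation.map_add_le _ (Valuation.map_add_le _ (Valuation.map_add_le _ p1 p2) p3)
      (hyp.a_one.le.trans hPi1)
  -- `|3 ℓ² + a| ≤ |x₁ x₂ x₃|`
  have c6 : A.valuation (3 * ℓ ^ 2 + W.a₂) ≤ X₁ * X₂ * X₃ := by
    refine Valuation.map_add_le _ ?_ (hyp.a_one.le.trans hPi1)
    rw [map_mul, map_pow]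
    calc A.valuation 3 * A.valuation ℓ ^ 2 ≤ 1 * A.valuation ℓ ^ 2 :=
          mul_le_mul' (val_three_le hyp) le_rfl
      _ = A.valuation ℓ ^ 2 := one_mul _
      _ ≤ X₁ * X₂ * X₃ := c5
  -- the first term
  have t1 : A.valuation (-(4 * W.a₄ * β * ℓ * μ)) ^ 2 * X₂ ≤ D ^ 2 * (X₁ * X₂ * X₃) ^ 3 := by
    have e1 : A.valuation (-(4 * W.a₄ * β * ℓ * μ)) ^ 2 =
        A.valuation W.a₄ ^ 2 * (A.valuation ℓ ^ 2 * A.valuation μ ^ 2) := by
      rw [Valuation.map_neg, map_mul, map_mul, map_mul, map_mul, _root_.Fermat.Agent.S39.FinMult.H33.val_four hyp, val_beta hyp hβ,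
        one_mul, mul_one, mul_pow, mul_pow, mul_assoc]
    have e2 : D ^ 2 * (X₁ * X₂ * X₃) ^ 3 =
        D ^ 2 * ((X₁ ^ 2 * X₂ * X₃ ^ 2) * (X₁ * X₂ * X₃)) * X₂ := by
      simp only [pow_succ, pow_zero, one_mul]
      ac_rfl
    rw [e1, e2]
    exact mul_le_mul' (mul_le_mul' (pow_le_pow_left₀ zero_le hyp.b_le 2) (mul_le_mul' c4 c3))
      le_rfl
  -- the second term
  have t2 : A.valuation (2 * β * W.a₆ * (3 * ℓ ^ 2 + W.a₂)) ^ 2 * X₂ ≤
      D ^ 2 * (X₁ * X₂ * X₃) ^ 3 := by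
    have e1 : A.valuation (2 * β * W.a₆ * (3 * ℓ ^ 2 + W.a₂)) ^ 2 =
        A.valuation W.a₆ ^ 2 * (A.valuation (3 * ℓ ^ 2 + W.a₂) * A.valuation (3 * ℓ ^ 2 + W.a₂)) := by
      rw [map_mul, map_mul, _root_.Fermat.Agent.S39.FinMult.H33.val_two_beta hyp hβ, one_mul, mul_pow, sq (A.valuation (3 * ℓ ^ 2 + W.a₂))]
    have e2 : D ^ 2 * (X₁ * X₂ * X₃) ^ 3 =
        D ^ 2 * ((X₁ * X₂ * X₃) * (X₁ * X₂ * X₃)) * (X₁ * X₂ * X₃) := by
      simp only [pow_succ, pow_zero, one_mul]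
      ac_rfl
    rw [e1, e2]
    exact mul_le_mul' (mul_le_mul' (pow_le_pow_left₀ zero_le hyp.c_le 2) (mul_le_mul' c6 c6)) p2
  have hRle : A.valuation R ^ 2 * X₂ ≤ D ^ 2 * (X₁ * X₂ * X₃) ^ 3 := by
    rcases le_max_iff.1 (A.valuation.map_add (-(4 * W.a₄ * β * ℓ * μ))
        (2 * β * W.a₆ * (3 * ℓ ^ 2 + W.a₂))) with h | h
    · exact (mul_le_mul' (pow_le_pow_left₀ zero_le h 2) le_rfl).trans t1
    · exact (mul_le_mul' (pow_le_pow_left₀ zero_le h 2) le_rfl).trans t2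
  -- squares
  have hPi : 0 < (X₁ * X₂ * X₃) ^ 3 * X₂ := mul_pos (pow_pos (mul_pos (mul_pos hX₁ hX₂) hX₃) 3) hX₂
  refine le_of_sq_le_sq_g ((mul_le_mul_iff_left₀ hPi).1 ?_)
  have l1 : A.valuation E ^ 2 * ((X₁ * X₂ * X₃) ^ 3 * X₂) = A.valuation R ^ 2 * X₂ := by
    have e : (T₁ * T₂ * T₃) ^ 2 = (X₁ * X₂ * X₃) ^ 3 := by
      rw [mul_pow, mul_pow, S₁, S₂, S₃, mul_pow, mul_pow]
    have e' : A.valuation R ^ 2 = A.valuation E ^ 2 * (X₁ * X₂ * X₃) ^ 3 := by
      rw [← c1, mul_pow (A.valuation E), e]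
    rw [e', ← mul_assoc]
  have l2 : (D * U) ^ 2 * ((X₁ * X₂ * X₃) ^ 3 * X₂) = D ^ 2 * (X₁ * X₂ * X₃) ^ 3 := by
    have : (D * U) ^ 2 * ((X₁ * X₂ * X₃) ^ 3 * X₂) =
        D ^ 2 * (X₁ * X₂ * X₃) ^ 3 * (U ^ 2 * X₂) := by
      rw [mul_pow]; ac_rfl
    rw [this, hU, mul_one]
  rw [l1, l2]
  exact hRle

omit [DecidableEq L] in
/-- `lam` is nonzero on `E₀`. -/
lemma lam_ne_zero (hyp : NodeHyp A W) {β : L} (hβ : β ^ 2 = W.a₂) (P : W.Point)
    (hP : InE0 A P) : lam β P ≠ 0 := by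
  intro h0
  have := _root_.Fermat.Agent.S39.FinMult.H33.val_lam_eq_one hyp hβ P hP
  rw [h0, map_zero] at this
  exact zero_ne_one this

/-- **Main estimate**: `|lam (P + Q) - lam P · lam Q| ≤ |Δ| · |lam Q - 1|` on `E₀`. -/
theorem val_lam_add (hyp : NodeHyp A W) {β : L} (hβ : β ^ 2 = W.a₂) (P Q : W.Point)
    (hP : InE0 A P) (hQ : InE0 A Q) (hPQ : InE0 A (P + Q)) :
    A.valuation (lam β (P + Q) - lam β P * lam β Q) ≤
      A.valuation W.Δ * A.valuation (lam β Q - 1) := by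
  by_cases hP0 : P = 0
  · subst hP0
    rw [zero_add, lam_zero, one_mul, sub_self, map_zero]
    exact zero_le
  by_cases hQ0 : Q = 0
  · subst hQ0
    rw [add_zero, lam_zero, mul_one, sub_self, map_zero]
    exact zero_le
  by_cases hS0 : P + Q = 0
  · have hQ' : Q = -P := (neg_eq_of_add_eq_zero_right hS0).symm
    rw [hS0, hQ', _root_.Fermat.Agent.S39.FinMult.H33.lam_neg hyp β P, lam_zero, mul_inv_cancel₀ (_root_.Fermat.Agent.S39.FinMult.H33.lam_ne_zero hyp hβ P hP), sub_self,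
      map_zero]
    exact zero_le
  rcases P with _ | ⟨x₁, y₁, h₁⟩
  · exact absurd rfl hP0
  rcases Q with _ | ⟨x₂, y₂, h₂⟩
  · exact absurd rfl hQ0
  rcases hS : Point.some x₁ y₁ h₁ + Point.some x₂ y₂ h₂ with _ | ⟨x₃, y₃, h₃⟩
  · exact absurd hS hS0
  rw [hS] at hPQ
  exact _root_.Fermat.Agent.S39.FinMult.H33.val_lam_add_some hyp hβ h₁ h₂ h₃ hP hQ hPQ hS

end Est

/-- Leaf **NODE-M**. -/
theorem stmt_NodeM : Stmt_NodeM := by
  intro L _ _ A W hyp β hβ
  exact ⟨fun P hP => _root_.Fermat.Agent.S39.FinMult.H33.val_lam_eq_one hyp hβ P hP, fun P => _root_.Fermat.Agent.S39.FinMult.H33.lam_neg hyp β P,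
    fun x y h hx => _root_.Fermat.Agent.S39.FinMult.H33.val_lam_sub_one_sq hyp hβ h hx,
    fun P Q hP hQ hPQ => _root_.Fermat.Agent.S39.FinMult.H33.val_lam_add hyp hβ P Q hP hQ hPQ⟩

end Fermat.Agent.S39.FinMult.H33

end
-- ==== END Fermat.Agent.S39.FinMult.H33_M

-- ==== BEGIN Fermat.Agent.S39.H71_Shape
section

/-!
# S39 / S40, leaf OLD-NEW at `p`: the linear algebra of the Steinberg shape (helper71)

* `residual_line_of_strictOrdinary` : the reduction of the strictly ordinary line of a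
  representation over a local ring.
* `det_eq_mul_of_line` : the determinant of an endomorphism of a plane which is `x` on a line
  and `z` modulo the line.
* `steinbergShapeD_of_residual` (and `steinbergShape_of_residual`) : a representation `r₀` over `ZMod p` whose base change to a field
  `k` is equivalent to a representation with a residual strictly ordinary line has the Steinberg
  shape, if some element of the inertia group acts non-trivially and the determinant of `r₀` is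
  the cyclotomic character.
-/

set_option autoImplicit false
set_option linter.unusedSectionVars false
set_option linter.unusedVariables false
set_option linter.style.haveILetI false

open IsLocalRing
open scoped TensorProduct

namespace Fermat.Agent.S39.H71

open Fermat.Agent.S39 Fermat.Agent.S44

/-- A residual strictly ordinary line at the place `P` (over the field `k`, for a representation
`r` on `V`). -/
def ResLine (p : ℕ) (P : ValuationSubring (AlgebraicClosure ℚ)) {k V : Type} [Field k]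
    [AddCommGroup V] [Module k V] (r : GQ →* Module.End k V) (L : Submodule k V) : Prop :=
  (∃ b : Module.Basis (Fin 2) k V, L = Submodule.span k {b 0}) ∧
  (∀ σ ∈ P.inertiaSubgroupIn ℚ, ∀ v : V, r σ v - v ∈ L) ∧
  (∀ σ ∈ P.decompositionSubgroup ℚ, ∃ x z : k,
    (∀ w ∈ L, r σ w = x • w) ∧ (∀ v : V, r σ v - z • v ∈ L) ∧
    ∀ a : ℕ, (∀ μ : AlgebraicClosure ℚ, μ ^ p = 1 → σ μ = μ ^ a) → x = (a : k) * z)

/-- The reduction of a strictly ordinary line, for a base change `k ⊗[A] V`. -/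
theorem resLine_of_baseChange {A : Type} [CommRing A] {V : Type} [AddCommGroup V] [Module A V]
    (r : GQ →* Module.End A V) {k : Type} [Field k] [Algebra A k] {p : ℕ} (hpk : (p : k) = 0)
    (r' : GQ →* Module.End k (k ⊗[A] V))
    (hact : ∀ (σ : GQ) (c : k) (w : V), r' σ (c ⊗ₜ[A] w) = c ⊗ₜ[A] (r σ w))
    (P : ValuationSubring (AlgebraicClosure ℚ))
    (L : Submodule A V) (b : Module.Basis (Fin 2) A V) (hL : L = Submodule.span A {b 0})
    (hI : ∀ σ ∈ P.inertiaSubgroupIn ℚ, ∀ v : V, r σ v - v ∈ L)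
    (hS : ∀ σ ∈ P.decompositionSubgroup ℚ, ∃ x z : A,
        (∀ w ∈ L, r σ w = x • w) ∧ (∀ v : V, r σ v - z • v ∈ L) ∧
        ∀ (n a : ℕ), (∀ μ : AlgebraicClosure ℚ, μ ^ p ^ n = 1 → σ μ = μ ^ a) →
          x - (a : A) * z ∈ Ideal.span {((p ^ n : ℕ) : A)}) :
    ∃ L' : Submodule k (k ⊗[A] V), ResLine p P r' L' := by
  classical
  let b' : Module.Basis (Fin 2) k (k ⊗[A] V) := b.baseChange k
  have hb' : ∀ i, b' i = (1 : k) ⊗ₜ[A] b i := fun i => Module.Basis.baseChange_apply _ _ _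
  let L' : Submodule k (k ⊗[A] V) := Submodule.span k {b' 0}
  have hsm : ∀ (c : k) (t : A) (w : V), c ⊗ₜ[A] (t • w) = (c * algebraMap A k t) • ((1 : k) ⊗ₜ[A] w) := by
    intro c t w
    rw [TensorProduct.smul_tmul', smul_eq_mul, mul_one, TensorProduct.tmul_smul,
      TensorProduct.smul_tmul', Algebra.smul_def, mul_comm]
  have hkey : ∀ u ∈ L, ∀ c : k, c ⊗ₜ[A] u ∈ L' := by
    intro u hu c
    rw [hL] at hu
    obtain ⟨t, rfl⟩ := Submodule.mem_span_singleton.1 hu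
    rw [hsm, ← hb']
    exact Submodule.smul_mem _ _ (Submodule.mem_span_singleton_self _)
  refine ⟨L', ⟨b', rfl⟩, ?_, ?_⟩
  · intro σ hσ v
    induction v using TensorProduct.induction_on with
    | zero => rw [map_zero, sub_zero]; exact Submodule.zero_mem _
    | tmul c w =>
      rw [hact, ← TensorProduct.tmul_sub]
      exact hkey _ (hI σ hσ w) c
    | add x y hx hy =>
      rw [map_add, add_sub_add_comm]
      exact Submodule.add_mem _ hx hy
  · intro σ hσ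
    obtain ⟨x, z, hx, hz, hxz⟩ := hS σ hσ
    refine ⟨algebraMap A k x, algebraMap A k z, ?_, ?_, ?_⟩
    · intro w hw
      obtain ⟨c, rfl⟩ := Submodule.mem_span_singleton.1 hw
      have hb0 : b 0 ∈ L := by rw [hL]; exact Submodule.mem_span_singleton_self _
      rw [map_smul, hb', hact, hx (b 0) hb0, hsm, one_mul, smul_smul, smul_smul, mul_comm]
    · intro v
      induction v using TensorProduct.induction_on with
      | zero => rw [map_zero, smul_zero, sub_zero]; exact Submodule.zero_mem _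
      | tmul c w =>
        have e : r' σ (c ⊗ₜ[A] w) - algebraMap A k z • (c ⊗ₜ[A] w) =
            c ⊗ₜ[A] (r σ w - z • w) := by
          rw [hact, TensorProduct.tmul_sub, hsm, TensorProduct.smul_tmul', smul_eq_mul,
            TensorProduct.smul_tmul', smul_eq_mul, mul_one, mul_comm]
        rw [e]
        exact hkey _ (hz w) c
      | add x y hx hy =>
        rw [map_add, smul_add, add_sub_add_comm]
        exact Submodule.add_mem _ hx hy
    · intro a ha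
      have h1 := hxz 1 a (fun μ hμ => ha μ (by rwa [pow_one] at hμ))
      rw [pow_one] at h1
      obtain ⟨y, hy⟩ := Ideal.mem_span_singleton'.1 h1
      have h4 := congrArg (algebraMap A k) hy
      rw [map_mul, map_natCast, hpk, mul_zero, map_sub, map_mul, map_natCast] at h4
      exact (sub_eq_zero.1 h4.symm)

/-- The reduction of the strictly ordinary line. -/
theorem residual_line_of_strictOrdinary {A : Type} [CommRing A] [IsLocalRing A]
    (ρ : GaloisRepAdic A) {p : ℕ} (h : ρ.IsStrictOrdinaryAt p)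
    (P : ValuationSubring (AlgebraicClosure ℚ)) (hP : P.LiesOverPrime p) :
    ∃ L : Submodule (ResidueField A) ρ.residual.V, ResLine p P ρ.residual.ρ L := by
  obtain ⟨hpA, h2⟩ := h
  obtain ⟨L, ⟨b, hL⟩, hD, hI, hS⟩ := h2 P hP
  have hpk : ((p : ℕ) : ResidueField A) = 0 := by
    have := (residue_eq_zero_iff (p : A)).2 hpA
    rwa [map_natCast] at this
  exact resLine_of_baseChange ρ.ρ (k := ResidueField A) hpk ρ.residual.ρ
    (fun σ c w => LinearMap.baseChange_tmul _ _ _) P L b hL hI hS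

/-- The determinant of an endomorphism of a plane which is `x` on the line spanned by `b 0` and
`z` modulo this line. -/
theorem det_eq_mul_of_line {k V : Type*} [Field k] [AddCommGroup V] [Module k V]
    (b : Module.Basis (Fin 2) k V) (T : Module.End k V) (x z : k)
    (hx : T (b 0) = x • b 0) (hz : ∀ v, T v - z • v ∈ Submodule.span k {b 0}) :
    LinearMap.det T = x * z := by
  classical
  rw [← LinearMap.det_toMatrix b, Matrix.det_fin_two]
  have h00 : LinearMap.toMatrix b b T 0 0 = x := by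
    rw [LinearMap.toMatrix_apply, hx, map_smul, Finsupp.smul_apply, Module.Basis.repr_self,
      Finsupp.single_eq_same, smul_eq_mul, mul_one]
  have h10 : LinearMap.toMatrix b b T 1 0 = 0 := by
    rw [LinearMap.toMatrix_apply, hx, map_smul, Finsupp.smul_apply, Module.Basis.repr_self,
      Finsupp.single_eq_of_ne (by decide), smul_eq_mul, mul_zero]
  have h11 : LinearMap.toMatrix b b T 1 1 = z := by
    rw [LinearMap.toMatrix_apply]
    obtain ⟨c, hc⟩ := Submodule.mem_span_singleton.1 (hz (b 1))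
    have e : T (b 1) = z • b 1 + c • b 0 := by rw [hc]; abel
    rw [e, map_add, map_smul, map_smul, Finsupp.add_apply, Finsupp.smul_apply,
      Finsupp.smul_apply, Module.Basis.repr_self, Module.Basis.repr_self,
      Finsupp.single_eq_same, Finsupp.single_eq_of_ne (by decide), smul_eq_mul, smul_eq_mul,
      mul_one, mul_zero, add_zero]
  rw [h00, h10, h11, mul_zero, sub_zero]

/-- The square of an element of the decomposition group acts trivially modulo a residual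
strictly ordinary line, if the determinant is the cyclotomic character. -/
theorem sq_sub_mem_of_resLine {p : ℕ} {P : ValuationSubring (AlgebraicClosure ℚ)} {k V : Type}
    [Field k] [AddCommGroup V] [Module k V] (r : GQ →* Module.End k V) (L : Submodule k V)
    (hL : ResLine p P r L)
    (hdet : ∀ (σ : GQ) (a : ℕ), (∀ μ : AlgebraicClosure ℚ, μ ^ p = 1 → σ μ = μ ^ a) →
      LinearMap.det (r σ) = (a : k))
    (hp : 0 < p) (σ : GQ) (hσ : σ ∈ P.decompositionSubgroup ℚ) (v : V) :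
    r (σ * σ) v - v ∈ L := by
  obtain ⟨⟨b, hb⟩, hI, hD⟩ := hL
  obtain ⟨x, z, hx, hz, hxz⟩ := hD σ hσ
  obtain ⟨a, ha⟩ := exists_pow_on_roots p hp σ
  have hb0 : b 0 ∈ L := by rw [hb]; exact Submodule.mem_span_singleton_self _
  have h1 : LinearMap.det (r σ) = x * z :=
    det_eq_mul_of_line b (r σ) x z (hx _ hb0) (fun v => hb ▸ hz v)
  have h2 : LinearMap.det (r σ) = (a : k) := hdet σ a ha
  have h3 : x = (a : k) * z := hxz a ha
  -- the determinant is a unit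
  have hunit : LinearMap.det (r σ) ≠ 0 := by
    have h4 : r σ * r σ⁻¹ = 1 := by rw [← map_mul, mul_inv_cancel, map_one]
    have h5 := congrArg LinearMap.det h4
    rw [map_mul, map_one] at h5
    exact left_ne_zero_of_mul_eq_one h5
  have ha0 : (a : k) ≠ 0 := h2 ▸ hunit
  have hz2 : z * z = 1 := by
    have h6 : (a : k) * (z * z) = (a : k) * 1 := by
      rw [mul_one, ← mul_assoc, ← h3, ← h1, h2]
    exact mul_left_cancel₀ ha0 h6
  have e : r (σ * σ) v - v = r σ (r σ v - z • v) + z • (r σ v - z • v) := by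
    rw [map_mul, Module.End.mul_apply, map_sub, map_smul, smul_sub, smul_smul, hz2, one_smul]
    abel
  rw [e]
  refine Submodule.add_mem _ ?_ (Submodule.smul_mem _ _ (hz v))
  rw [hx _ (hz v)]
  exact Submodule.smul_mem _ _ (hz v)

/-- **Descent of the Steinberg shape.**  `r₀` a representation over `ZMod p` on a plane, `j` an
embedding of `ZMod p` into a field `k`, `r₂` a representation over `k` equivalent to the base
change of `r₀`, with a residual strictly ordinary line.  If the determinant of `r₀` is the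
cyclotomic character and some element of the inertia group moves a `p`-th root of unity, then
`r₀` has the Steinberg shape. -/
theorem steinbergShapeD_of_residual {p : ℕ} (hp : p.Prime)
    (P : ValuationSubring (AlgebraicClosure ℚ))
    {V₀ : Type} [AddCommGroup V₀] [Module (ZMod p) V₀] (r₀ : GQ →* Module.End (ZMod p) V₀)
    {k : Type} [Field k] [Algebra (ZMod p) k]
    {V₂ : Type} [AddCommGroup V₂] [Module k V₂] (r₂ : GQ →* Module.End k V₂)
    (e : (k ⊗[ZMod p] V₀) ≃ₗ[k] V₂)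
    (he : ∀ (σ : GQ) (c : k) (v : V₀), e (c ⊗ₜ[ZMod p] (r₀ σ v)) = r₂ σ (e (c ⊗ₜ[ZMod p] v)))
    (L : Submodule k V₂) (hL : ResLine p P r₂ L)
    (hdet₀ : ∀ (σ : GQ) (a : ℕ), (∀ μ : AlgebraicClosure ℚ, μ ^ p = 1 → σ μ = μ ^ a) →
      LinearMap.det (r₀ σ) = (a : ZMod p))
    (hdet₂ : ∀ σ : GQ, LinearMap.det (r₂ σ) = algebraMap (ZMod p) k (LinearMap.det (r₀ σ)))
    (hcyc : ∃ σ ∈ P.inertiaSubgroupIn ℚ, ∃ ζ : AlgebraicClosure ℚ, ζ ^ p = 1 ∧ σ ζ ≠ ζ) :
    SteinbergShapeD p P r₀ := by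
  classical
  have hdet : ∀ (σ : GQ) (a : ℕ), (∀ μ : AlgebraicClosure ℚ, μ ^ p = 1 → σ μ = μ ^ a) →
      LinearMap.det (r₂ σ) = (a : k) := by
    intro σ a ha
    rw [hdet₂ σ, hdet₀ σ a ha, map_natCast]
  have hsq := sq_sub_mem_of_resLine r₂ L hL hdet hp.pos
  obtain ⟨⟨b, hb⟩, hI, hD⟩ := hL
  -- the line over `ZMod p`
  let ι : V₀ → V₂ := fun v => e ((1 : k) ⊗ₜ[ZMod p] v)
  have hι : ∀ v, ι v = e ((1 : k) ⊗ₜ[ZMod p] v) := fun v => rfl
  have hιadd : ∀ v w, ι (v + w) = ι v + ι w := fun v w => by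
    rw [hι, hι, hι, TensorProduct.tmul_add, map_add]
  have hιsub : ∀ v w, ι (v - w) = ι v - ι w := fun v w => by
    rw [hι, hι, hι, TensorProduct.tmul_sub, map_sub]
  have hιzero : ι 0 = 0 := by rw [hι, TensorProduct.tmul_zero, map_zero]
  have hιsmul : ∀ (c : ZMod p) (v : V₀), ι (c • v) = algebraMap (ZMod p) k c • ι v := by
    intro c v
    rw [hι, hι, ← TensorProduct.smul_tmul, Algebra.smul_def, mul_one, ← map_smul,
      TensorProduct.smul_tmul', smul_eq_mul, mul_one]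
  have hιr : ∀ σ v, ι (r₀ σ v) = r₂ σ (ι v) := fun σ v => by rw [hι, hι, he]
  let L₀ : Submodule (ZMod p) V₀ :=
    { carrier := {v | ι v ∈ L}
      add_mem' := fun {v w} hv hw => by
        show ι (v + w) ∈ L
        rw [hιadd]
        exact Submodule.add_mem _ hv hw
      zero_mem' := by
        show ι 0 ∈ L
        rw [hιzero]
        exact Submodule.zero_mem _
      smul_mem' := fun c v hv => by
        show ι (c • v) ∈ L
        rw [hιsmul]
        exact Submodule.smul_mem _ _ hv }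
  have hmem : ∀ v, v ∈ L₀ ↔ ι v ∈ L := fun v => Iff.rfl
  refine ⟨L₀, ?_, ?_, ?_, ?_, ?_⟩
  · -- `L₀ ≠ ⊥`
    obtain ⟨σ₀, hσ₀, ζ, hζ, hne⟩ := hcyc
    obtain ⟨a, ha⟩ := exists_pow_on_roots p hp.pos σ₀
    have hr : r₀ σ₀ ≠ 1 := by
      intro h1
      have h2 := hdet₀ σ₀ a ha
      rw [h1, map_one] at h2
      -- `a ≡ 1 mod p`, so `σ₀ ζ = ζ`
      apply hne
      rw [ha ζ hζ]
      have h3 : ((a : ℕ) : ZMod p) = ((1 : ℕ) : ZMod p) := by rw [← h2, Nat.cast_one]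
      have h4 : a ≡ 1 [MOD p] := (ZMod.natCast_eq_natCast_iff _ _ _).1 h3
      have h5 : ζ ^ a = ζ ^ 1 := by
        have hfo : IsOfFinOrder ζ := isOfFinOrder_iff_pow_eq_one.2 ⟨p, hp.pos, hζ⟩
        rw [hfo.pow_eq_pow_iff_modEq]
        exact h4.of_dvd (orderOf_dvd_of_pow_eq_one hζ)
      rw [h5, pow_one]
    intro hbot
    apply hr
    refine LinearMap.ext fun v => ?_
    have h1 : r₀ σ₀ v - v ∈ L₀ := by
      rw [hmem, hιsub, hιr]
      exact hI σ₀ hσ₀ _
    rw [hbot, Submodule.mem_bot, sub_eq_zero] at h1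
    rw [h1]
    rfl
  · -- `L₀ ≠ ⊤`
    intro htop
    have hall : ∀ v : V₀, ι v ∈ L := fun v => (hmem v).1 (htop ▸ Submodule.mem_top)
    have hLtop : L = ⊤ := by
      rw [eq_top_iff]
      intro w _
      obtain ⟨t, rfl⟩ := e.surjective w
      induction t using TensorProduct.induction_on with
      | zero => rw [map_zero]; exact Submodule.zero_mem _
      | tmul c v =>
        have h1 : c ⊗ₜ[ZMod p] v = c • ((1 : k) ⊗ₜ[ZMod p] v) := by
          rw [TensorProduct.smul_tmul', smul_eq_mul, mul_one]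
        rw [h1, map_smul]
        exact Submodule.smul_mem _ _ (hall v)
      | add x y hx hy =>
        rw [map_add]
        exact Submodule.add_mem _ (hx Submodule.mem_top) (hy Submodule.mem_top)
    have h1 : b 1 ∈ Submodule.span k {b 0} := by
      rw [← hb, hLtop]; exact Submodule.mem_top
    obtain ⟨c, hc⟩ := Submodule.mem_span_singleton.1 h1
    have h2 := congrArg (fun w => b.repr w 1) hc
    simp only [map_smul, Module.Basis.repr_self, Finsupp.smul_apply, Finsupp.single_eq_same,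
      smul_eq_mul, mul_one] at h2
    rw [Finsupp.single_eq_of_ne (by decide), mul_zero] at h2
    exact zero_ne_one h2
  · intro σ hσ x hx
    rw [hmem] at hx ⊢
    rw [hιr]
    obtain ⟨x', z', hx', -, -⟩ := hD σ hσ
    rw [hx' _ hx]
    exact Submodule.smul_mem _ _ hx
  · intro σ hσ x
    rw [hmem, hιsub, hιr]
    exact hI σ hσ _
  · intro σ hσ x
    rw [hmem, hιsub, hιr]
    exact hsq σ hσ _

/-- The same with the weak form of the Steinberg shape. -/
theorem steinbergShape_of_residual {p : ℕ} (hp : p.Prime)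
    (P : ValuationSubring (AlgebraicClosure ℚ))
    {V₀ : Type} [AddCommGroup V₀] [Module (ZMod p) V₀] (r₀ : GQ →* Module.End (ZMod p) V₀)
    {k : Type} [Field k] [Algebra (ZMod p) k]
    {V₂ : Type} [AddCommGroup V₂] [Module k V₂] (r₂ : GQ →* Module.End k V₂)
    (e : (k ⊗[ZMod p] V₀) ≃ₗ[k] V₂)
    (he : ∀ (σ : GQ) (c : k) (v : V₀), e (c ⊗ₜ[ZMod p] (r₀ σ v)) = r₂ σ (e (c ⊗ₜ[ZMod p] v)))
    (L : Submodule k V₂) (hL : ResLine p P r₂ L)
    (hdet₀ : ∀ (σ : GQ) (a : ℕ), (∀ μ : AlgebraicClosure ℚ, μ ^ p = 1 → σ μ = μ ^ a) →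
      LinearMap.det (r₀ σ) = (a : ZMod p))
    (hdet₂ : ∀ σ : GQ, LinearMap.det (r₂ σ) = algebraMap (ZMod p) k (LinearMap.det (r₀ σ)))
    (hcyc : ∃ σ ∈ P.inertiaSubgroupIn ℚ, ∃ ζ : AlgebraicClosure ℚ, ζ ^ p = 1 ∧ σ ζ ≠ ζ) :
    SteinbergShapeAt p P r₀ :=
  (steinbergShapeD_of_residual hp P r₀ r₂ e he L hL hdet₀ hdet₂ hcyc).toAt

end Fermat.Agent.S39.H71

end
-- ==== END Fermat.Agent.S39.H71_Shape

-- ==== BEGIN Fermat.Agent.S41.H19_IharaTT
section

/-!
# S41, Ihara leaf A (helper19): the Hecke operator `TT ℓ` on period functions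

* `TT_eq_sum_aMat` : `TT ℓ f r = ∑ j, f (mob (aMat ℓ j) r)`;
* `TT_Pfn` : for a cuspidal `x` with `Tcoh N ℓ x = a • x`:
  `TT ℓ (Pfn x) r = a • Pfn x r + TT ℓ (Pfn x) 0` on `X`.
-/

set_option autoImplicit false

open scoped MatrixGroups
open CongruenceSubgroup Matrix

namespace Fermat.Agent.S41.Ihara

open Fermat.Agent.S41 Fermat.Agent.S41.H19

section TT

variable {A : Type*} [AddCommGroup A]

lemma mob_aMat_some (ℓ : ℕ) (j : Fin ℓ) (r : ℚ) :
    mob (aMat ℓ (some j)) r = (r + ((j : ℕ) : ℚ)) / (ℓ : ℚ) := by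
  simp [mob, aMat]

lemma mob_aMat_none (ℓ : ℕ) (r : ℚ) : mob (aMat ℓ none) r = (ℓ : ℚ) * r := by
  simp [mob, aMat]

lemma TT_eq_sum_aMat (ℓ : ℕ) (f : ℚ → A) (r : ℚ) :
    TT ℓ f r = ∑ j : Option (Fin ℓ), f (mob (aMat ℓ j) r) := by
  rw [Fintype.sum_option, mob_aMat_none, TT, Finset.sum_range, add_comm]
  congr 1
  exact Finset.sum_congr rfl fun j _ => by rw [mob_aMat_some]

lemma aMat_denom_ne_zero {ℓ : ℕ} (hℓ : ℓ ≠ 0) (j : Option (Fin ℓ)) (r : ℚ) :
    ((aMat ℓ j) 1 0 : ℚ) * r + ((aMat ℓ j) 1 1 : ℚ) ≠ 0 := by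
  rcases j with _ | j <;> simp [aMat, hℓ]

lemma inX_mob_aMat {N ℓ : ℕ} (hℓ : ℓ.Coprime N) (j : Option (Fin ℓ)) {r : ℚ} (hr : InX N r) :
    InX N (mob (aMat ℓ j) r) := by
  have hc : IsCoprime ((ℓ : ℤ) * r.den) (N : ℤ) :=
    (Nat.isCoprime_iff_coprime.mpr hℓ).mul_left hr.isCoprime
  rcases j with _ | j
  · rw [mob_aMat_none]
    refine inX_of_eq_div ((ℓ : ℤ) * r.num) r.den hr.isCoprime ?_
    push_cast
    rw [mul_div_assoc, Rat.num_div_den]
  · rw [mob_aMat_some]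
    refine inX_of_eq_div (r.num + ((j : ℕ) : ℤ) * r.den) ((ℓ : ℤ) * r.den) hc ?_
    have hd : (r.den : ℚ) ≠ 0 := by exact_mod_cast r.den_nz
    have hr' : (r.num : ℚ) = r * r.den := (Rat.mul_den_eq_num r).symm
    push_cast
    rw [hr']
    by_cases hℓ0 : (ℓ : ℚ) = 0
    · simp [hℓ0]
    · field_simp

end TT

section TTP

variable {N ℓ : ℕ} {A : Type*} [AddCommGroup A] {R : Type*} [Semiring R] [Module R A]

/-- **The Hecke relation for period functions.** -/
theorem TT_Pfn (hN : 2 ≤ N) (hℓ : ℓ.Prime) (hℓN : ¬ ℓ ∣ N) (x : Additive (Gamma0 N) →+ A)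
    (hx : IsCuspidalHom (Gamma0 N) x) (a : R) (hxa : Tcoh N A ℓ x = a • x) {r : ℚ}
    (hr : InX N r) :
    TT ℓ (Pfn x) r = a • Pfn x r + TT ℓ (Pfn x) 0 := by
  have hN0 : 0 < N := by omega
  have hcop : ℓ.Coprime N := (Nat.Prime.coprime_iff_not_dvd hℓ).mpr hℓN
  obtain ⟨g, rfl⟩ := exists_mob_zero hr
  obtain ⟨s, γ, hsγ⟩ := exists_hecke_sol hN0 hℓ hℓN g
  have hs : Function.Bijective s :=
    Finite.injective_iff_bijective.mp (hecke_sol_injective hℓ.two_le g s γ hsγ)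
  have hterm : ∀ j : Option (Fin ℓ), Pfn x (mob (aMat ℓ j) (mob (mat g) 0))
      = Pfn x (mob (aMat ℓ (s j)) 0) + x (Additive.ofMul (γ j)) := by
    intro j
    have h1 : mob (aMat ℓ j) (mob (mat g) 0) = mob (mat (γ j)) (mob (aMat ℓ (s j)) 0) := by
      rw [← mob_mul _ _ _ (denom_ne_zero hN g (inX_zero N)), hsγ j,
        mob_mul _ _ _ (aMat_denom_ne_zero hℓ.ne_zero _ _)]
    rw [h1, Pfn_mob hN x hx (γ j) (inX_mob_aMat hcop _ (inX_zero N))]
  have hperm : ∑ j : Option (Fin ℓ), Pfn x (mob (aMat ℓ (s j)) 0)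
      = ∑ j : Option (Fin ℓ), Pfn x (mob (aMat ℓ j) 0) :=
    Equiv.sum_comp (Equiv.ofBijective s hs) (fun j => Pfn x (mob (aMat ℓ j) 0))
  rw [TT_eq_sum_aMat, TT_eq_sum_aMat, Finset.sum_congr rfl (fun j _ => hterm j),
    Finset.sum_add_distrib, hperm, ← Tcoh_eq_sum hN0 hℓ hℓN x g s γ hsγ, hxa,
    Pfn_mob_zero hN x hx, add_comm]
  rfl

end TTP

end Fermat.Agent.S41.Ihara

end
-- ==== END Fermat.Agent.S41.H19_IharaTT

-- ==== BEGIN Fermat.Agent.S41.H37_IharaInv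
section

/-!
# S41, Ihara's lemma by the Kummer–Hecke route: leaf B (Step 3)

`stmt_IhB : Ihara.Stmt_IhB`: for period functions `F₁, F₂` of cuspidal classes `x₁, x₂` on `Γ₀(N)`
with `F₁(r) + F₂(q r) = 0` on `X = {r : den r prime to N}`, the function `F₁` is invariant under
`r ↦ q² r` and under all translations by `ℤ[1/q]`.

Proof: with `q² u + N w = 1`, `g₂ = [q², w; -N, u]`, `a₁ = [q u, -w; N, q]` one has
`a₁ (g₂ (q r) / q) = q² r`, whence `F₁(q² r) = F₁(r) + τ`, `τ = x₁(a₁) - x₂(g₂)`; `r = 0` gives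
`τ = 0`.  Translations: `F₁(r + z/q^k) = F₁(q^{2k} r + q^k z) = F₁(q^{2k} r) = F₁(r)`.
-/

set_option autoImplicit false

open Finset
open scoped MatrixGroups
open CongruenceSubgroup Matrix

namespace Fermat.Agent.S41.H37

open Fermat.Agent.S41 Fermat.Agent.S41.H19 Fermat.Agent.S41.Ihara

/-- For `g ∈ Gamma0 N`, `N ≥ 2` and `r` with denominator prime to `N`: the denominator `c r + d`
does not vanish and `g r` has denominator prime to `N`. -/
theorem mob_inX {N : ℕ} (hN : 2 ≤ N) (g : Gamma0 N) {r : ℚ} (hr : InX N r) :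
    ((mat g 1 0 : ℚ) * r + (mat g 1 1 : ℚ)) ≠ 0 ∧ InX N (mob (mat g) r) := by
  set a := mat g 0 0 with ha
  set b := mat g 0 1 with hb
  set c := mat g 1 0 with hc
  set d := mat g 1 1 with hd
  have hdet : a * d - b * c = 1 := mat_det' g
  obtain ⟨c', hc'⟩ : (N : ℤ) ∣ c := mat_dvd g
  set D : ℤ := c * r.num + d * r.den with hD
  set A : ℤ := a * r.num + b * r.den with hA
  have hdN : IsCoprime d (N : ℤ) := ⟨a, -b * c', by rw [hc'] at hdet; linear_combination hdet⟩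
  have hrN : IsCoprime (r.den : ℤ) (N : ℤ) := by
    have : Nat.Coprime r.den N := hr
    exact Nat.isCoprime_iff_coprime.2 this
  have hDN : IsCoprime D (N : ℤ) := by
    have h1 : IsCoprime (d * r.den) (N : ℤ) := hdN.mul_left hrN
    have h2 : D = d * r.den + (c' * r.num) * N := by rw [hD, hc']; ring
    rw [h2]
    exact h1.add_mul_right_left _
  have hD0 : D ≠ 0 := by
    intro h0
    rw [h0] at hDN
    have hu : IsUnit (N : ℤ) := isCoprime_zero_left.1 hDN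
    have : (N : ℤ) = 1 ∨ (N : ℤ) = -1 := Int.isUnit_iff.1 hu
    omega
  have hden0 : (r.den : ℚ) ≠ 0 := by exact_mod_cast r.den_nz
  have hrd : r * (r.den : ℚ) = (r.num : ℚ) := Rat.mul_den_eq_num r
  have hcd : (c : ℚ) * r + (d : ℚ) = (D : ℚ) / (r.den : ℚ) := by
    rw [hD, eq_div_iff hden0]; push_cast
    linear_combination (c : ℚ) * hrd
  constructor
  · rw [hcd]
    exact div_ne_zero (by exact_mod_cast hD0) hden0
  · have hmob : mob (mat g) r = (A : ℚ) / (D : ℚ) := by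
      unfold mob
      rw [← ha, ← hb, ← hc, ← hd, hcd]
      have : (a : ℚ) * r + (b : ℚ) = (A : ℚ) / (r.den : ℚ) := by
        rw [hA, eq_div_iff hden0]; push_cast
        linear_combination (a : ℚ) * hrd
      rw [this]
      have hDq : (D : ℚ) ≠ 0 := by exact_mod_cast hD0
      field_simp
    unfold InX
    rw [hmob]
    have h1 : (((A : ℚ) / (D : ℚ)).den : ℤ) ∣ D := by
      have := Rat.den_dvd A D
      rwa [Rat.divInt_eq_div] at this
    have h2 : IsCoprime ((((A : ℚ) / (D : ℚ)).den : ℤ)) (N : ℤ) := hDN.of_isCoprime_of_dvd_left h1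
    exact Nat.isCoprime_iff_coprime.1 h2

/-- A period function of a cuspidal class is invariant under integer translations. -/
theorem periodFn_add_int {p N : ℕ} (x : Additive (Gamma0 N) →+ ZMod p) (F : ℚ → ZMod p)
    (hx : IsCuspidalHom (Gamma0 N) x) (hF : IsPeriodFn x F) (r : ℚ) (hr : InX N r) (z : ℤ) :
    F (r + z) = F r := by
  set g : Gamma0 N := mkG0 N 1 z 0 1 (by ring) (dvd_zero _) with hg
  have h1 := hF g r hr
  have h2 : x (Additive.ofMul g) = 0 := by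
    apply hx g
    show (mat g).trace ^ 2 ≤ 4
    rw [hg, mat_mkG0, Matrix.trace_fin_two_of]
    norm_num
  have h3 : mob (mat g) r = r + z := by
    unfold mob
    rw [hg, mat_mkG0]
    simp
  rw [h3, h2, add_zero] at h1
  exact h1

/-- Step 3 of the Kummer–Hecke proof: `F₁(q² r) = F₁(r) + τ` with `τ` independent of `r`. -/
theorem exists_tau {p N q : ℕ} (hN : 2 ≤ N) (hqN : q.Coprime N) (hq0 : q ≠ 0)
    (x₁ x₂ : Additive (Gamma0 N) →+ ZMod p) (F₁ F₂ : ℚ → ZMod p)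
    (hF₁ : IsPeriodFn x₁ F₁) (hF₂ : IsPeriodFn x₂ F₂)
    (hrel : ∀ r, InX N r → F₁ r + F₂ ((q : ℚ) * r) = 0) :
    ∃ τ : ZMod p, ∀ r, InX N r → F₁ ((q : ℚ) ^ 2 * r) = F₁ r + τ := by
  have hcop : IsCoprime ((q : ℤ) ^ 2) (N : ℤ) := (Nat.isCoprime_iff_coprime.2 hqN).pow_left
  obtain ⟨u, w, huw⟩ := hcop
  set g₂ : Gamma0 N :=
    mkG0 N ((q : ℤ) ^ 2) w (-(N : ℤ)) u (by linear_combination huw) (dvd_neg.mpr dvd_rfl) with hg₂
  set a₁ : Gamma0 N := mkG0 N ((q : ℤ) * u) (-w) N q (by linear_combination huw) dvd_rfl with ha₁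
  refine ⟨x₁ (Additive.ofMul a₁) - x₂ (Additive.ofMul g₂), fun r hr => ?_⟩
  have hq0' : (q : ℚ) ≠ 0 := by exact_mod_cast hq0
  have hN0 : (N : ℚ) ≠ 0 := by
    have : N ≠ 0 := by omega
    exact_mod_cast this
  have huwQ : (u : ℚ) * (q : ℚ) ^ 2 + (w : ℚ) * (N : ℚ) = 1 := by exact_mod_cast huw
  have hw : (w : ℚ) = (1 - (u : ℚ) * (q : ℚ) ^ 2) / (N : ℚ) := by
    rw [eq_div_iff hN0]; linear_combination huwQ
  have hqr : InX N ((q : ℚ) * r) := inX_mul (inX_natCast N q) hr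
  obtain ⟨hD, hs₂⟩ := mob_inX hN g₂ hqr
  have e1 : F₂ (mob (mat g₂) ((q : ℚ) * r)) = F₂ ((q : ℚ) * r) + x₂ (Additive.ofMul g₂) :=
    hF₂ g₂ _ hqr
  set s₂ : ℚ := mob (mat g₂) ((q : ℚ) * r) with hs₂def
  set s : ℚ := s₂ / (q : ℚ) with hsdef
  have hs : InX N s := by
    rw [hsdef, div_eq_mul_inv]; exact inX_mul hs₂ (inX_inv_natCast hqN)
  have e2 : F₁ s + F₂ ((q : ℚ) * s) = 0 := hrel s hs
  have e3 : (q : ℚ) * s = s₂ := by rw [hsdef]; field_simp
  have e4 := hrel r hr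
  obtain ⟨hD', -⟩ := mob_inX hN a₁ hs
  have e6 : F₁ (mob (mat a₁) s) = F₁ s + x₁ (Additive.ofMul a₁) := hF₁ a₁ s hs
  have hDq : (-(N : ℚ)) * ((q : ℚ) * r) + (u : ℚ) ≠ 0 := by
    have := hD
    rw [hg₂, mat_mkG0] at this
    simpa using this
  have hs₂v : s₂ = ((q : ℚ) ^ 2 * ((q : ℚ) * r) + (w : ℚ)) / ((-(N : ℚ)) * ((q : ℚ) * r) + (u : ℚ)) := by
    rw [hs₂def]; unfold mob; rw [hg₂, mat_mkG0]; simp
  have hD'q : (N : ℚ) * s + (q : ℚ) ≠ 0 := by
    have := hD'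
    rw [ha₁, mat_mkG0] at this
    simpa using this
  have e5 : mob (mat a₁) s = (q : ℚ) ^ 2 * r := by
    unfold mob
    rw [ha₁, mat_mkG0]
    simp only [Matrix.of_apply, Matrix.cons_val', Matrix.cons_val_zero, Matrix.cons_val_one,
      Matrix.empty_val', Matrix.cons_val_fin_one, Int.cast_mul, Int.cast_natCast, Int.cast_neg]
    rw [div_eq_iff hD'q]
    have hDq' : (u : ℚ) - (q : ℚ) * r * (N : ℚ) ≠ 0 := by
      intro h; apply hDq; linear_combination h
    have hs₂v' : s₂ = ((q : ℚ) ^ 3 * r + (w : ℚ)) / ((u : ℚ) - (q : ℚ) * r * (N : ℚ)) := by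
      rw [hs₂v]; congr 1 <;> ring
    rw [hsdef, hs₂v', hw]
    field_simp
    ring
  rw [e5] at e6
  rw [e6]
  have e7 : F₁ s = F₁ r - x₂ (Additive.ofMul g₂) := by
    rw [e3, e1] at e2
    linear_combination e2 - e4
  rw [e7]; ring

/-- **Leaf B** of the Kummer–Hecke proof of Ihara's lemma (Step 3): `F₁` is invariant under
`r ↦ q² r` and under translations by `ℤ[1/q]`. -/
theorem stmt_IhB : Stmt_IhB := by
  intro p N q _hp _hp2 hN hq hqN _hqp _es _ℓ₀ _hℓ₀ _ha x₁ x₂ F₁ F₂ hx₁ _hx₂ hF₁ hF₂ _hE₁ _hE₂ hrel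
  have hqNc : q.Coprime N := (Nat.Prime.coprime_iff_not_dvd hq).2 hqN
  have hper₁ := _root_.Fermat.Agent.S41.H37.periodFn_add_int x₁ F₁ hx₁ hF₁
  obtain ⟨τ, hτ⟩ := exists_tau hN hqNc hq.ne_zero x₁ x₂ F₁ F₂ hF₁ hF₂ hrel
  have h0 : InX N 0 := by unfold InX; simp
  have hτ0 : τ = 0 := by
    have := hτ 0 h0
    simpa using this
  have hq2 : ∀ r, InX N r → F₁ ((q : ℚ) ^ 2 * r) = F₁ r := fun r hr => by
    rw [hτ r hr, hτ0, add_zero]
  refine ⟨hq2, ?_⟩
  intro r t hr ht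
  have htX : InX N t := inZq_inX hq.ne_zero hqNc ht
  obtain ⟨k, z, rfl⟩ := inZq_exists hq.ne_zero ht
  have hq0' : (q : ℚ) ≠ 0 := by exact_mod_cast hq.ne_zero
  have hpow := inv_pow hqNc F₁ hq2 k
  have h1 : (q : ℚ) ^ (2 * k) * (r + (z : ℚ) / (q : ℚ) ^ k)
      = (q : ℚ) ^ (2 * k) * r + (((q : ℤ) ^ k * z : ℤ) : ℚ) := by
    push_cast
    have hqk : (q : ℚ) ^ k ≠ 0 := pow_ne_zero _ hq0'
    rw [two_mul, pow_add]
    field_simp
  have hX : InX N ((q : ℚ) ^ (2 * k) * r) := by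
    have : InX N (((q ^ (2 * k) : ℕ) : ℚ)) := inX_natCast N _
    rw [Nat.cast_pow] at this
    exact inX_mul this hr
  rw [← hpow (r + (z : ℚ) / (q : ℚ) ^ k) (inX_add hr htX), h1, hper₁ _ hX, hpow r hr]

end Fermat.Agent.S41.H37

end
-- ==== END Fermat.Agent.S41.H37_IharaInv

-- ==== BEGIN Fermat.Agent.S41.H41_KumHom
section

/-!
# D-KUM (hom): the Kummer character (helper41)

`stmt_KumHom`: for `y ^ p = q` and a subgroup `H` of the absolute Galois group fixing a primitive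
`M`-th root of unity (`p ∣ M`), the map `g ↦ g y / y` is a homomorphism
`H →* Multiplicative (ZMod p)` with kernel `{g | g y = y}`.
-/

set_option autoImplicit false
set_option linter.style.haveILetI false

namespace Fermat.Agent.S41.H41

/-- The exponent (in `ZMod p`) of a power of `ω`; `0` for junk input. -/
noncomputable def rootIdx (p : ℕ) (ω u : AlgebraicClosure ℚ) : ZMod p :=
  open Classical in
  if h : ∃ i : ℕ, ω ^ i = u then ((Classical.choose h : ℕ) : ZMod p) else 0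

theorem rootIdx_pow {p : ℕ} (hp : 0 < p) {ω : AlgebraicClosure ℚ} (hω : IsPrimitiveRoot ω p)
    (n : ℕ) : rootIdx p ω (ω ^ n) = (n : ZMod p) := by
  have h : ∃ i : ℕ, ω ^ i = ω ^ n := ⟨n, rfl⟩
  rw [rootIdx, dif_pos h]
  have h1 := Classical.choose_spec h
  have hfin : IsOfFinOrder ω := isOfFinOrder_iff_pow_eq_one.2 ⟨p, hp, hω.pow_eq_one⟩
  have h2 := hfin.pow_eq_pow_iff_modEq.1 h1
  rw [← hω.eq_orderOf] at h2
  exact (ZMod.natCast_eq_natCast_iff _ _ _).2 h2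

/-- **D-KUM (hom).** -/
theorem stmt_KumHom : Stmt_KumHom := by
  intro p q M hp hq hM hpM ζ y hζ hy H hH
  have hq0 : (q : AlgebraicClosure ℚ) ≠ 0 := by exact_mod_cast hq.ne_zero
  have hy0 : y ≠ 0 := by
    rintro rfl
    rw [zero_pow hp.ne_zero] at hy
    exact hq0 hy.symm
  obtain ⟨d, hd⟩ := hpM
  have hω : IsPrimitiveRoot (ζ ^ d) p := IsPrimitiveRoot.pow hM hζ (by rw [hd, mul_comm])
  have hHroot : ∀ g ∈ H, ∀ u : AlgebraicClosure ℚ, u ^ p = 1 → g u = u := by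
    intro g hg u hu
    obtain ⟨i, rfl⟩ := exists_pow_eq_of_pow_eq_one hp.pos hω hu
    rw [map_pow, map_pow, hH g hg]
  have hβp : ∀ h : AlgebraicClosure ℚ ≃ₐ[ℚ] AlgebraicClosure ℚ, (h y * y⁻¹) ^ p = 1 := by
    intro h
    rw [mul_pow, inv_pow, ← map_pow, hy, map_natCast]
    exact mul_inv_cancel₀ hq0
  have hβmul : ∀ g h : AlgebraicClosure ℚ ≃ₐ[ℚ] AlgebraicClosure ℚ, g ∈ H →
      (g * h) y * y⁻¹ = (g y * y⁻¹) * (h y * y⁻¹) := by
    intro g h hg
    have h1 : h y = (h y * y⁻¹) * y := by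
      rw [mul_assoc, inv_mul_cancel₀ hy0, mul_one]
    rw [AlgEquiv.mul_apply]
    conv_lhs => rw [h1, map_mul, hHroot g hg _ (hβp h)]
    ring
  refine ⟨{ toFun := fun g => Multiplicative.ofAdd (rootIdx p (ζ ^ d)
              ((g : AlgebraicClosure ℚ ≃ₐ[ℚ] AlgebraicClosure ℚ) y * y⁻¹))
            map_one' := ?_
            map_mul' := ?_ }, ?_⟩
  · show Multiplicative.ofAdd (rootIdx p (ζ ^ d)
      ((1 : AlgebraicClosure ℚ ≃ₐ[ℚ] AlgebraicClosure ℚ) y * y⁻¹)) = 1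
    rw [AlgEquiv.one_apply, mul_inv_cancel₀ hy0, ← pow_zero (ζ ^ d), rootIdx_pow hp.pos hω,
      Nat.cast_zero, ofAdd_zero]
  · intro g h
    obtain ⟨i, hi⟩ := exists_pow_eq_of_pow_eq_one hp.pos hω (hβp g)
    obtain ⟨j, hj⟩ := exists_pow_eq_of_pow_eq_one hp.pos hω (hβp h)
    show Multiplicative.ofAdd (rootIdx p (ζ ^ d)
      (((g * h : H) : AlgebraicClosure ℚ ≃ₐ[ℚ] AlgebraicClosure ℚ) y * y⁻¹)) =
      Multiplicative.ofAdd (rootIdx p (ζ ^ d)
        ((g : AlgebraicClosure ℚ ≃ₐ[ℚ] AlgebraicClosure ℚ) y * y⁻¹)) *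
      Multiplicative.ofAdd (rootIdx p (ζ ^ d)
        ((h : AlgebraicClosure ℚ ≃ₐ[ℚ] AlgebraicClosure ℚ) y * y⁻¹))
    rw [Subgroup.coe_mul, hβmul _ _ g.2, ← hi, ← hj, ← pow_add, rootIdx_pow hp.pos hω,
      rootIdx_pow hp.pos hω, rootIdx_pow hp.pos hω, Nat.cast_add, ofAdd_add]
  · intro g
    obtain ⟨i, hi⟩ := exists_pow_eq_of_pow_eq_one hp.pos hω (hβp g)
    show Multiplicative.ofAdd (rootIdx p (ζ ^ d)
      ((g : AlgebraicClosure ℚ ≃ₐ[ℚ] AlgebraicClosure ℚ) y * y⁻¹)) = 1 ↔ _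
    rw [← hi, rootIdx_pow hp.pos hω, ofAdd_eq_one, ZMod.natCast_eq_zero_iff,
      ← hω.pow_eq_one_iff_dvd, hi]
    constructor
    · intro h1
      have h2 : (g : AlgebraicClosure ℚ ≃ₐ[ℚ] AlgebraicClosure ℚ) y =
          ((g : AlgebraicClosure ℚ ≃ₐ[ℚ] AlgebraicClosure ℚ) y * y⁻¹) * y := by
        rw [mul_assoc, inv_mul_cancel₀ hy0, mul_one]
      rw [h2, h1, one_mul]
    · intro h1
      rw [h1, mul_inv_cancel₀ hy0]

end Fermat.Agent.S41.H41

end
-- ==== END Fermat.Agent.S41.H41_KumHom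

-- ==== BEGIN Fermat.Agent.S41.H61_Cheb
section

/-!
# S41, I2 leaf D (Step 5, auxiliary primes): assembly (helper61)

`stmt_IhD_of`: `Stmt_IhD` from

* D-KUM (helper41): `Stmt_KumA`, `Stmt_KumHom`, `Stmt_KumB1`, `Stmt_KumB2`,
* D-GRP (helper78): `Stmt_DGRP`,
* two-sided Frobenius density `Stmt_FD2` and item 62 (`EllFinite.Stmt_main`).

Proof.  Suppose that every good prime `ℓ ∉ S` with `ℓ ≡ 1 mod M` and `q ^ ((ℓ-1)/p) ≠ 1` in
`ZMod ℓ` has `a_ℓ ≡ 2 mod p`.  Let `ζ` be a primitive `M`-th root of unity, `y ^ p = q`,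
`H = Stab(ζ)` and `κ` the Kummer character of `H`.  For `g ∈ H` with `κ g ≠ 1`, Frobenius density
in `L = L₀(ζ, y)` (`L₀` a level of `E[p]`) gives a Frobenius element `σ` at a good `ℓ` with
`σ ^ j = g` and `g ^ j' = σ` on `L`; then `σ` fixes `ζ` and moves `y`, so `ℓ` is one of the primes
above and `ρ(σ)` has trace `2` and determinant `ℓ = 1`, hence so has `ρ(g) = ρ(σ) ^ j`.  By D-GRP
there is a stable line, contradicting irreducibility.
-/

set_option autoImplicit false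
set_option linter.style.haveILetI false

open WeierstrassCurve WeierstrassCurve.Affine WeierstrassCurve.Affine.Point

namespace Fermat.Agent.S41.H61

/-- `ℚ̄`. -/
local notation "Qb" => AlgebraicClosure ℚ
/-- the absolute Galois group of `ℚ`. -/
local notation "GQ" => (AlgebraicClosure ℚ ≃ₐ[ℚ] AlgebraicClosure ℚ)

/-- commutators fix roots of unity. -/
theorem commutator_fix_root {M : ℕ} (hM : 0 < M) {ζ : Qb} (hζ : IsPrimitiveRoot ζ M)
    (g h : GQ) : (g * h * g⁻¹ * h⁻¹) ζ = ζ := by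
  have h1 : g⁻¹ (h⁻¹ ζ) = h⁻¹ (g⁻¹ ζ) := Fermat.Agent.S41.H41.map_map_root_comm hM hζ g⁻¹ h⁻¹
  rw [AlgEquiv.mul_apply, AlgEquiv.mul_apply, AlgEquiv.mul_apply, h1]
  have h2 : h (h⁻¹ (g⁻¹ ζ)) = g⁻¹ ζ := by
    rw [← AlgEquiv.mul_apply, mul_inv_cancel, AlgEquiv.one_apply]
  rw [h2, ← AlgEquiv.mul_apply, mul_inv_cancel, AlgEquiv.one_apply]

/-- powers of an automorphism fixing a point fix it. -/
theorem pow_apply_of_fix (g : GQ) (x : Qb) (h : g x = x) (n : ℕ) : (g ^ n) x = x := by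
  induction n with
  | zero => simp
  | succ n ih => rw [pow_succ, AlgEquiv.mul_apply, h, ih]

/-- a unipotent endomorphism of a plane: all powers have trace `2` and determinant `1`. -/
theorem unip_pow_end {F : Type*} [Field F] {V : Type*} [AddCommGroup V] [Module F V]
    (hV : Module.finrank F V = 2) (u : V →ₗ[F] V) (ht : LinearMap.trace F V u = 2)
    (hd : LinearMap.det u = 1) (j : ℕ) :
    LinearMap.trace F V (u ^ j) = 2 ∧ LinearMap.det (u ^ j) = 1 := by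
  have hdj : LinearMap.det (u ^ j) = 1 := by rw [map_pow, hd, one_pow]
  refine ⟨?_, hdj⟩
  rw [Fermat.Agent.S41.H19.trace_pow_of_trace_eq hV u (by rw [ht, hd]; norm_num) j, hdj]
  norm_num

/-- no elements of order two in `Multiplicative (ZMod p)`, `p` odd. -/
theorem mul_self_eq_one_zmod {p : ℕ} [Fact p.Prime] (hp2 : p ≠ 2) (x : Multiplicative (ZMod p))
    (h : x * x = 1) : x = 1 := by
  have h1 : Multiplicative.toAdd x + Multiplicative.toAdd x = 0 := by
    have := congrArg Multiplicative.toAdd h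
    simpa using this
  have h2 : (2 : ZMod p) * Multiplicative.toAdd x = 0 := by rw [two_mul]; exact h1
  have h3 : Multiplicative.toAdd x = 0 := by
    rcases mul_eq_zero.mp h2 with h | h
    · exact absurd h (Fermat.Agent.L.H52.two_ne_zero_zmod hp2)
    · exact h
  exact Multiplicative.toAdd.injective (by rw [h3]; rfl)

/-- **Leaf D from its inputs.** -/
theorem stmt_IhD_of (hKA : Fermat.Agent.S41.H41.Stmt_KumA)
    (hKH : Fermat.Agent.S41.H41.Stmt_KumHom) (hB1 : Fermat.Agent.S41.H41.Stmt_KumB1)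
    (hB2 : Fermat.Agent.S41.H41.Stmt_KumB2) (hG : Fermat.Agent.S41.H78.Stmt_DGRP)
    (hFD : Fermat.Agent.Lib.FrobDensity.H47.Stmt_FD2)
    (hmain : Fermat.Agent.Lib.EllFinite.Stmt_main) :
    Fermat.Agent.S41.Ihara.Stmt_IhD := by
  intro E _ W hW p q hp hp2 hq hqp hirr M hM hpM S
  classical
  by_contra hcon
  simp only [not_exists, not_and, not_not] at hcon
  haveI : Fact p.Prime := ⟨hp⟩
  obtain ⟨C, hC⟩ := hW
  -- the discriminant
  have hΔ : W.Δ ≠ 0 := by
    have h1 : E.Δ ≠ 0 := E.isUnit_Δ.ne_zero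
    have h2 : (C • E).Δ ≠ 0 := by
      rw [WeierstrassCurve.variableChange_Δ]
      exact mul_ne_zero (pow_ne_zero _ (Units.ne_zero _)) h1
    rw [hC, WeierstrassCurve.map_Δ] at h2
    intro h0
    exact h2 (by rw [h0, _root_.map_zero])
  -- irreducibility for the integral model
  have hirr' : GaloisRepIsIrreducible (K := AlgebraicClosure ℚ) ℚ
      (W.map (Int.castRingHom ℚ)).toAffine p :=
    Fermat.Agent.L.H19.irreducible_of_variableChange hC p hirr
  -- dimension two, level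
  have hfr : Module.finrank (ZMod p) (Fermat.Agent.L.H52.TorsQ (Fermat.Agent.L.H52.WQ W) p) = 2 :=
    Fermat.Agent.L.H52.finrank_tors_main hΔ
  haveI : Module.Finite (ZMod p) (Fermat.Agent.L.H52.TorsQ (Fermat.Agent.L.H52.WQ W) p) :=
    Module.finite_of_finrank_eq_succ hfr
  haveI : Finite (Fermat.Agent.L.H52.TorsQ (Fermat.Agent.L.H52.WQ W) p) :=
    Module.finite_of_finite (ZMod p)
  obtain ⟨L₀, hL₀, hfix⟩ := Fermat.Agent.L.H52.exists_level (Fermat.Agent.L.H52.WQ W) p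
  set ρ := Fermat.Agent.L.H52.rhoW W p with hρdef
  have hρ1 : ∀ τ : GQ, (∀ x ∈ L₀, τ x = x) → ρ τ = 1 := by
    intro τ hτ
    refine LinearMap.ext fun v => ?_
    rw [hρdef, galoisRepModuleEnd_apply, Module.End.one_apply]
    exact hfix τ hτ v
  -- roots
  haveI : NeZero M := ⟨hM.ne'⟩
  obtain ⟨ζ, hζ⟩ := HasEnoughRootsOfUnity.exists_primitiveRoot Qb M
  obtain ⟨y, hy⟩ := IsAlgClosed.exists_pow_nat_eq ((q : ℕ) : Qb) (n := p) hp.pos
  -- the subgroup `H`
  set H : Subgroup GQ := MulAction.stabilizer GQ ζ with hH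
  have hHmem : ∀ g : GQ, g ∈ H ↔ g ζ = ζ := fun g => by
    rw [hH, MulAction.mem_stabilizer_iff, AlgEquiv.smul_def]
  have hHcomm : ∀ g g' : GQ, g * g' * g⁻¹ * g'⁻¹ ∈ H := fun g g' =>
    (hHmem _).mpr (commutator_fix_root hM hζ g g')
  obtain ⟨κ, hκ⟩ := hKH p q M hp hq hM hpM ζ y hζ hy H (fun g hg => (hHmem g).mp hg)
  -- the field `L`
  set L₁ : IntermediateField ℚ Qb := IntermediateField.adjoin ℚ ({ζ, y} : Set Qb) with hL₁
  haveI halg : Algebra.IsAlgebraic ℚ Qb := AlgebraicClosure.isAlgebraic ℚ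
  have hL₁fd : FiniteDimensional ℚ L₁ :=
    IntermediateField.finiteDimensional_adjoin
      (fun x _ => (Algebra.IsAlgebraic.isAlgebraic x).isIntegral)
  haveI := hL₀
  haveI := hL₁fd
  have hζL : ζ ∈ L₀ ⊔ L₁ :=
    (le_sup_right : L₁ ≤ L₀ ⊔ L₁) (IntermediateField.subset_adjoin ℚ _ (by simp))
  have hyL : y ∈ L₀ ⊔ L₁ :=
    (le_sup_right : L₁ ≤ L₀ ⊔ L₁) (IntermediateField.subset_adjoin ℚ _ (by simp))
  -- the bad set
  set S' : Finset ℕ := S ∪ (M * p * q * W.Δ.natAbs).primeFactors with hS'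
  have hne : M * p * q * W.Δ.natAbs ≠ 0 :=
    mul_ne_zero (mul_ne_zero (mul_ne_zero hM.ne' hp.ne_zero) hq.ne_zero)
      (Int.natAbs_ne_zero.mpr hΔ)
  have hgood : ∀ ℓ : ℕ, ℓ.Prime → ℓ ∉ S' →
      ℓ ∉ S ∧ W.IsGoodPrimeFor ℓ ∧ ¬ ℓ ∣ M ∧ ℓ ≠ p ∧ ℓ ≠ q := by
    intro ℓ hℓ hℓS
    rw [hS', Finset.mem_union, not_or] at hℓS
    have hnd : ¬ ℓ ∣ M * p * q * W.Δ.natAbs := fun hd =>
      hℓS.2 (by rw [Nat.mem_primeFactors]; exact ⟨hℓ, hd, hne⟩)
    refine ⟨hℓS.1, ?_, ?_, ?_, ?_⟩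
    · intro hd
      apply hnd
      exact Dvd.dvd.mul_left (Int.natCast_dvd.mp hd) _
    · intro hd
      exact hnd (Dvd.dvd.mul_right (Dvd.dvd.mul_right (Dvd.dvd.mul_right hd p) q) _)
    · intro hd
      apply hnd
      rw [hd]
      exact Dvd.dvd.mul_right (Dvd.dvd.mul_right (dvd_mul_left p M) q) _
    · intro hd
      apply hnd
      rw [hd]
      exact Dvd.dvd.mul_right (dvd_mul_left q (M * p)) _
  -- unipotence on `D`
  have hunip : ∀ g : H, κ g ≠ 1 →
      LinearMap.trace (ZMod p) _ (ρ g) = 2 ∧ LinearMap.det (ρ (g : GQ)) = 1 := by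
    intro g hg
    have hgy : (g : GQ) y ≠ y := fun h => hg ((hκ g).mpr h)
    have hgζ : (g : GQ) ζ = ζ := (hHmem _).mp g.2
    obtain ⟨ℓ, A, σ, j, j', hℓ, hℓS, hA, hσ, hσj, hgj⟩ := hFD S' (L₀ ⊔ L₁) inferInstance g
    obtain ⟨hℓS0, hℓgood, hℓM, hℓp, hℓq⟩ := hgood ℓ hℓ hℓS
    have hσζ : σ ζ = ζ := by
      rw [← hgj ζ hζL]
      exact pow_apply_of_fix _ _ hgζ j'
    have hσy : σ y ≠ y := by
      intro h
      apply hgy
      rw [← hσj y hyL]
      exact pow_apply_of_fix _ _ h j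
    have hmod : ℓ % M = 1 % M := hB1 ℓ M hℓ hM hℓM A σ hA hσ ζ hζ hσζ
    have hMdvd : M ∣ ℓ - 1 := (Nat.modEq_iff_dvd' hℓ.one_le).mp (Nat.ModEq.symm hmod)
    have hpdvd : p ∣ ℓ - 1 := dvd_trans hpM hMdvd
    have hkum : (q : ZMod ℓ) ^ ((ℓ - 1) / p) ≠ 1 :=
      hB2 ℓ p q hℓ hp hq hℓp hℓq hpdvd A σ hA hσ y hy hσy
    have hap : ((W.apOfModel ℓ : ℤ) : ZMod p) = 2 := hcon ℓ hℓ hℓS0 hℓgood hmod hkum
    obtain ⟨-, htr, hdet⟩ := hmain W p ℓ hℓ (Ne.symm hℓp) hℓgood A hA σ hσ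
    have hℓ1 : (ℓ : ZMod p) = 1 := by
      have h1 : ((ℓ - 1 : ℕ) : ZMod p) = 0 := (ZMod.natCast_eq_zero_iff _ _).mpr hpdvd
      rw [Nat.cast_sub hℓ.one_le, Nat.cast_one, sub_eq_zero] at h1
      exact h1
    have hρg : ρ (g : GQ) = ρ σ ^ j := by
      rw [← map_pow]
      exact (Fermat.Agent.L.H52.map_eq_of_agree ρ L₀ hρ1
        (fun x hx => hσj x ((le_sup_left : L₀ ≤ L₀ ⊔ L₁) hx))).symm
    rw [hρg]
    apply unip_pow_end hfr
    · rw [← galoisTrace_def, htr, hap]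
    · rw [hdet, hℓ1]
  -- `D` is not empty
  obtain ⟨s₀, hs₀ζ, hs₀y⟩ := hKA p q M hp hp2 hq hM hpM ζ y hζ hy
  have hex : ∃ s : H, κ s ≠ 1 :=
    ⟨⟨s₀, (hHmem _).mpr hs₀ζ⟩, fun h => hs₀y ((hκ ⟨s₀, (hHmem _).mpr hs₀ζ⟩).mp h)⟩
  -- the stable line
  obtain ⟨v, hv0, hv⟩ := hG (ZMod p) (Fermat.Agent.L.H52.two_ne_zero_zmod hp2) _ hfr GQ ρ H hHcomm
    (Multiplicative (ZMod p)) κ (fun g hg => mul_self_eq_one_zmod hp2 _ hg) hex hunip
    ⟨complexConjugation, complexConjugation_mul_self,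
      Fermat.Agent.L.H52.det_complexConjugation_main hΔ⟩
  have hst : IsGaloisStable ℚ (Submodule.span (ZMod p) {v}) := by
    intro σ x hx
    obtain ⟨a, rfl⟩ := Submodule.mem_span_singleton.mp hx
    obtain ⟨c, hc⟩ := hv σ
    rw [hρdef, galoisRepModuleEnd_apply] at hc
    rw [smul_comm, hc, smul_smul]
    exact Submodule.smul_mem _ _ (Submodule.mem_span_singleton_self v)
  rcases hirr'.2 _ hst with h0 | h1
  · apply hv0
    have : v ∈ Submodule.span (ZMod p) {v} := Submodule.mem_span_singleton_self v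
    rw [h0] at this
    exact (Submodule.mem_bot _).mp this
  · have h2 : Module.finrank (ZMod p) (Submodule.span (ZMod p) {v}) = 1 :=
      finrank_span_singleton hv0
    rw [h1, finrank_top, hfr] at h2
    exact absurd h2 (by norm_num)

end Fermat.Agent.S41.H61

end
-- ==== END Fermat.Agent.S41.H61_Cheb

-- ==== BEGIN Fermat.Agent.S59.NonMin.H92_PeuFlat
section

/-!
# S59, case C, leaf PEUFLAT (helper92): an ordinary peu ramifié representation is flat

* `M0`, `evc` : the image of the ordinary line in `V / J V` and its characters.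
* `flat_level` : `V / J V` is flat at `p` (`flat_of_peu_abs`).
* `peuflat_of_peuUnit : Stmt_PeuUnit → Stmt_PEUFLAT`.
* `peuflat_of_kcore : Stmt_KCore → Stmt_PEUFLAT`.
-/

set_option autoImplicit false
set_option linter.unusedSectionVars false
set_option linter.style.haveILetI false
set_option linter.unusedVariables false

namespace Fermat.Agent.S59.NonMin.H92P

open IsLocalRing Fermat.Agent.S59.NonMin

local notation "Qbar" => AlgebraicClosure ℚ
local notation "Γℚ" => (AlgebraicClosure ℚ ≃ₐ[ℚ] AlgebraicClosure ℚ)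

section Main

variable {A : Type} [CommRing A] [IsLocalRing A] (ρ : GaloisRepAdic A) (J : Ideal A)
  (L : Submodule A ρ.V)

/-- The image of the ordinary line in the level `J`. -/
def M0 : AddSubgroup (ρ.V ⧸ (J • ⊤ : Submodule A ρ.V)) :=
  (L.map (J • ⊤ : Submodule A ρ.V).mkQ).toAddSubgroup

theorem mem_M0 {x : ρ.V ⧸ (J • ⊤ : Submodule A ρ.V)} :
    x ∈ M0 ρ J L ↔ ∃ v ∈ L, Submodule.Quotient.mk v = x := by
  show x ∈ L.map (J • ⊤ : Submodule A ρ.V).mkQ ↔ _
  rw [Submodule.mem_map]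
  rfl

/-- The value of a character of `M0`, extended by `1`. -/
noncomputable def evc (lam : Multiplicative ↥(M0 ρ J L) →* Qbarˣ)
    (x : ρ.V ⧸ (J • ⊤ : Submodule A ρ.V)) : Qbar := by
  classical
  exact if hx : x ∈ M0 ρ J L then ((lam (Multiplicative.ofAdd ⟨x, hx⟩) : Qbarˣ) : Qbar) else 1

theorem evc_of_mem (lam : Multiplicative ↥(M0 ρ J L) →* Qbarˣ)
    {x : ρ.V ⧸ (J • ⊤ : Submodule A ρ.V)} (hx : x ∈ M0 ρ J L) :
    evc ρ J L lam x = ((lam (Multiplicative.ofAdd ⟨x, hx⟩) : Qbarˣ) : Qbar) := by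
  classical
  unfold evc
  rw [dif_pos hx]

theorem evc_add (lam : Multiplicative ↥(M0 ρ J L) →* Qbarˣ)
    {w w' : ρ.V ⧸ (J • ⊤ : Submodule A ρ.V)} (hw : w ∈ M0 ρ J L) (hw' : w' ∈ M0 ρ J L) :
    evc ρ J L lam (w + w') = evc ρ J L lam w * evc ρ J L lam w' := by
  rw [evc_of_mem ρ J L lam hw, evc_of_mem ρ J L lam hw',
    evc_of_mem ρ J L lam ((M0 ρ J L).add_mem hw hw'), ← Units.val_mul, ← map_mul]
  rfl

theorem evc_ne (lam : Multiplicative ↥(M0 ρ J L) →* Qbarˣ)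
    {w : ρ.V ⧸ (J • ⊤ : Submodule A ρ.V)} (hw : w ∈ M0 ρ J L) : evc ρ J L lam w ≠ 0 := by
  rw [evc_of_mem ρ J L lam hw]
  exact Units.ne_zero _

theorem evc_zero (lam : Multiplicative ↥(M0 ρ J L) →* Qbarˣ) : evc ρ J L lam 0 = 1 := by
  have h1 := evc_add ρ J L lam (M0 ρ J L).zero_mem (M0 ρ J L).zero_mem
  rw [add_zero] at h1
  have h2 := evc_ne ρ J L lam (M0 ρ J L).zero_mem
  have h3 : evc ρ J L lam 0 * (evc ρ J L lam 0 - 1) = 0 := by
    rw [mul_sub, mul_one, ← h1, sub_self]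
  rcases mul_eq_zero.mp h3 with h | h
  · exact absurd h h2
  · exact sub_eq_zero.mp h

theorem evc_nsmul (lam : Multiplicative ↥(M0 ρ J L) →* Qbarˣ) (k : ℕ)
    {w : ρ.V ⧸ (J • ⊤ : Submodule A ρ.V)} (hw : w ∈ M0 ρ J L) :
    evc ρ J L lam (k • w) = evc ρ J L lam w ^ k := by
  induction k with
  | zero => rw [zero_smul, pow_zero, evc_zero]
  | succ k ih => rw [succ_nsmul, evc_add ρ J L lam ((M0 ρ J L).nsmul_mem hw k) hw, ih, pow_succ]

/-- **The level `J` of an ordinary peu ramifié representation is flat.** -/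
theorem flat_level (hPU : Stmt_PeuUnit) (p : ℕ) (hp : p.Prime) (hp2 : p ≠ 2)
    [Finite (ρ.V ⧸ (J • ⊤ : Submodule A ρ.V))]
    (P : ValuationSubring Qbar) (hP : P.LiesOverPrime p)
    (b : Module.Basis (Fin 2) A ρ.V) (hLb : L = Submodule.span A {b 0})
    (hLD : ∀ σ ∈ P.decompositionSubgroup ℚ, ∀ v ∈ L, ρ.ρ σ v ∈ L)
    (hLI : ∀ σ ∈ P.inertiaSubgroupIn ℚ, ∀ v : ρ.V, ρ.ρ σ v - v ∈ L)
    (n : ℕ) (hmn : maximalIdeal A ^ n ≤ J)
    (hdet : ρ.DetIsCyclotomic p) (hpeu : ∀ σ ∈ Ipeu p P, ρ.ρ σ = 1) :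
    ∃ (H' : Type) (_ : CommRing H') (_ : HopfAlgebra (GaloisRep.ratLocalizedAt p) H'),
      Module.Finite (GaloisRep.ratLocalizedAt p) H' ∧
      Module.Flat (GaloisRep.ratLocalizedAt p) H' ∧
      Coalgebra.IsCocomm (GaloisRep.ratLocalizedAt p) H' ∧
      ∃ e : WithConv (H' →ₐ[GaloisRep.ratLocalizedAt p] AlgebraicClosure ℚ) ≃
          (ρ.V ⧸ (J • ⊤ : Submodule A ρ.V)),
        (∀ f g : WithConv (H' →ₐ[GaloisRep.ratLocalizedAt p] AlgebraicClosure ℚ),
          e (f * g) = e f + e g) ∧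
        ∀ (σ : AlgebraicClosure ℚ ≃ₐ[ℚ] AlgebraicClosure ℚ)
          (f g : WithConv (H' →ₐ[GaloisRep.ratLocalizedAt p] AlgebraicClosure ℚ)),
          (∀ h : H', g h = σ (f h)) → e g = ρ.levelAction J σ (e f) := by
  classical
  have hpn : ((p ^ n : ℕ) : A) ∈ J := by
    apply hmn
    rw [Nat.cast_pow]
    exact Ideal.pow_mem_pow hdet.1 n
  have hpn0 : p ^ n ≠ 0 := pow_ne_zero n hp.ne_zero
  haveI : NeZero (p ^ n) := ⟨hpn0⟩
  have hID : ∀ σ ∈ P.inertiaSubgroupIn ℚ, σ ∈ P.decompositionSubgroup ℚ := fun σ hσ =>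
    Fermat.Agent.S05.H95.mem_decomposition_of_mem_inertia P hσ
  -- the action
  have act_one : ∀ x : ρ.V ⧸ (J • ⊤ : Submodule A ρ.V), ρ.levelAction J 1 x = x := by
    intro x
    obtain ⟨v, rfl⟩ := Submodule.Quotient.mk_surjective _ x
    rw [levelAction_mk, map_one, Module.End.one_apply]
  have act_mul : ∀ (σ τ : Γℚ) (x : ρ.V ⧸ (J • ⊤ : Submodule A ρ.V)),
      ρ.levelAction J (σ * τ) x = ρ.levelAction J σ (ρ.levelAction J τ x) := by
    intro σ τ x
    obtain ⟨v, rfl⟩ := Submodule.Quotient.mk_surjective _ x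
    rw [levelAction_mk, levelAction_mk, levelAction_mk, map_mul, Module.End.mul_apply]
  have act_add : ∀ (σ : Γℚ) (x y : ρ.V ⧸ (J • ⊤ : Submodule A ρ.V)),
      ρ.levelAction J σ (x + y) = ρ.levelAction J σ x + ρ.levelAction J σ y :=
    fun σ x y => map_add _ x y
  have act_cont : ∃ L' : IntermediateField ℚ Qbar, FiniteDimensional ℚ L' ∧
      ∀ σ ∈ L'.fixingSubgroup, ∀ x : ρ.V ⧸ (J • ⊤ : Submodule A ρ.V),
        ρ.levelAction J σ x = x := by
    obtain ⟨L', hL', h1⟩ := ρ.isAdicContinuous n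
    refine ⟨L', hL', fun σ hσ x => ?_⟩
    obtain ⟨v, rfl⟩ := Submodule.Quotient.mk_surjective _ x
    rw [levelAction_mk, ← sub_eq_zero, ← Submodule.Quotient.mk_sub,
      Submodule.Quotient.mk_eq_zero]
    rw [IntermediateField.mem_fixingSubgroup_iff] at hσ
    exact Submodule.smul_mono_left hmn (h1 σ hσ v)
  -- the subgroup
  have hD : ∀ σ ∈ P.decompositionSubgroup ℚ, ∀ w ∈ M0 ρ J L,
      ρ.levelAction J σ w ∈ M0 ρ J L := by
    intro σ hσ w hw
    obtain ⟨v, hv, rfl⟩ := (mem_M0 ρ J L).mp hw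
    exact (mem_M0 ρ J L).mpr ⟨ρ.ρ σ v, hLD σ hσ v hv, rfl⟩
  have hI : ∀ σ ∈ P.inertiaSubgroupIn ℚ, ∀ x : ρ.V ⧸ (J • ⊤ : Submodule A ρ.V),
      ρ.levelAction J σ x - x ∈ M0 ρ J L := by
    intro σ hσ x
    obtain ⟨v, rfl⟩ := Submodule.Quotient.mk_surjective _ x
    exact (mem_M0 ρ J L).mpr ⟨ρ.ρ σ v - v, hLI σ hσ v, rfl⟩
  -- the characters
  have hkill : ∀ x : ρ.V ⧸ (J • ⊤ : Submodule A ρ.V), (p ^ n) • x = 0 := by
    intro x
    rw [← Nat.cast_smul_eq_nsmul A]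
    exact smul_level_eq_zero ρ J hpn x
  have ev_pow : ∀ lam, ∀ w ∈ M0 ρ J L, evc ρ J L lam w ^ p ^ n = 1 := by
    intro lam w hw
    rw [← evc_nsmul ρ J L lam _ hw, hkill, evc_zero]
  have ev_I : ∀ σ ∈ P.inertiaSubgroupIn ℚ, ∀ lam, ∀ w ∈ M0 ρ J L,
      evc ρ J L lam (ρ.levelAction J σ w) = σ (evc ρ J L lam w) := by
    intro σ hσ lam w hw
    obtain ⟨a, ha⟩ := exists_pow_rootsOfUnity (p ^ n) σ
    have h1 : LinearMap.det (ρ.ρ σ) - (a : A) ∈ J :=
      (Ideal.span_singleton_le_iff_mem J).mpr hpn (hdet.2 n σ a ha)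
    have h2 : ρ.levelAction J σ w = a • w := by
      obtain ⟨v, hv, rfl⟩ := (mem_M0 ρ J L).mp hw
      have hb0 : b 0 ∈ L := by rw [hLb]; exact Submodule.mem_span_singleton_self _
      have h3 : ρ.ρ σ v = LinearMap.det (ρ.ρ σ) • v := by
        apply apply_eq_det_smul_of_basis b (ρ.ρ σ)
        · rw [← hLb]; exact hLD σ (hID σ hσ) _ hb0
        · rw [← hLb]; exact hLI σ hσ _
        · rw [← hLb]; exact hv
      rw [levelAction_mk, h3, Submodule.Quotient.mk_smul, ← Nat.cast_smul_eq_nsmul A,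
        ← sub_eq_zero, ← sub_smul]
      exact smul_level_eq_zero ρ J h1 _
    rw [h2, evc_nsmul ρ J L lam _ hw, ha _ (ev_pow lam w hw)]
  have ev_sep : ∀ w ∈ M0 ρ J L, w ≠ 0 → ∃ lam, evc ρ J L lam w ≠ 1 := by
    intro w hw hw0
    haveI : NeZero ((Monoid.exponent (Multiplicative ↥(M0 ρ J L)) : ℕ) : ℚ) :=
      ⟨by exact_mod_cast Monoid.exponent_ne_zero_of_finite⟩
    have ha : (Multiplicative.ofAdd (⟨w, hw⟩ : ↥(M0 ρ J L))) ≠ 1 := by
      intro h
      apply hw0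
      have h1 : (⟨w, hw⟩ : ↥(M0 ρ J L)) = 0 := h
      exact congrArg Subtype.val h1
    obtain ⟨lam, hlam⟩ := CommGroup.exists_apply_ne_one_of_hasEnoughRootsOfUnity
      (Multiplicative ↥(M0 ρ J L)) Qbar ha
    refine ⟨lam, ?_⟩
    rw [evc_of_mem ρ J L lam hw]
    intro h
    exact hlam (Units.ext h)
  have ev_D : ∀ σ ∈ P.decompositionSubgroup ℚ, ∀ lam, ∃ lam', ∀ w ∈ M0 ρ J L,
      evc ρ J L lam' w = σ (evc ρ J L lam (ρ.levelAction J σ⁻¹ w)) := by
    intro σ hσ lam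
    have hσ' : σ⁻¹ ∈ P.decompositionSubgroup ℚ := inv_mem hσ
    let φ : ↥(M0 ρ J L) →+ ↥(M0 ρ J L) :=
      (((ρ.levelAction J σ⁻¹ : _ →ₗ[A] _).toAddMonoidHom).comp (M0 ρ J L).subtype).codRestrict
        (M0 ρ J L) (fun w => hD σ⁻¹ hσ' w.1 w.2)
    refine ⟨(Units.map ((σ : Qbar →+* Qbar) : Qbar →* Qbar)).comp
      (lam.comp (AddMonoidHom.toMultiplicative φ)), fun w hw => ?_⟩
    rw [evc_of_mem ρ J L _ hw, evc_of_mem ρ J L lam (hD σ⁻¹ hσ' w hw)]
    rfl
  have hpeu' : ∀ σ ∈ Ipeu p P, ∀ x : ρ.V ⧸ (J • ⊤ : Submodule A ρ.V),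
      ρ.levelAction J σ x = x := by
    intro σ hσ x
    obtain ⟨v, rfl⟩ := Submodule.Quotient.mk_surjective _ x
    rw [levelAction_mk, hpeu σ hσ, Module.End.one_apply]
  have hy := hy_of_peuUnit p P (fun σ x => ρ.levelAction J σ x) (M0 ρ J L) (evc ρ J L) hPU hp hp2
    hP act_mul act_add act_cont hD hI (fun lam w hw w' hw' => evc_add ρ J L lam hw hw')
    (evc_zero ρ J L) ev_I n ev_pow hpeu'
  exact flat_of_peu_abs p P (fun σ x => ρ.levelAction J σ x) (M0 ρ J L) (evc ρ J L) hp hP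
    act_one act_mul act_add act_cont hD hI (fun lam w hw w' hw' => evc_add ρ J L lam hw hw')
    (fun lam w hw => evc_ne ρ J L lam hw)
    (fun lam w hw => mem_of_pow_eq_one P hpn0 (ev_pow lam w hw)) ev_sep ev_I ev_D hy

end Main

/-- **PEUFLAT** from **PEU-UNIT**. -/
theorem peuflat_of_peuUnit (hPU : Stmt_PeuUnit) : Stmt_PEUFLAT := by
  intro p hp hp2 A _ _ _ hres hpA ρ hdet hord hpeu
  refine ⟨hres, fun J hJ => ?_⟩
  obtain ⟨P, hP⟩ := Fermat.Agent.Lib.FrobExists.exists_liesOverPrime p hp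
  obtain ⟨L, ⟨b, hLb⟩, hLD, hLI⟩ := hord P hP
  haveI : Finite (ρ.V ⧸ (J • ⊤ : Submodule A ρ.V)) := finite_level ρ J hJ
  obtain ⟨n, hn⟩ := exists_maxpow_le J hJ
  exact flat_level ρ J L hPU p hp hp2 P hP b hLb hLD hLI n hn hdet (hpeu P hP)

/-- **PEUFLAT** from **K-CORE**. -/
theorem peuflat_of_kcore (hK : Stmt_KCore) : Stmt_PEUFLAT :=
  peuflat_of_peuUnit (peuUnit_of_kcore hK)

end Fermat.Agent.S59.NonMin.H92P

end
-- ==== END Fermat.Agent.S59.NonMin.H92_PeuFlat
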