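-- GENERATED (merged mirror, NOTES/tools/trim/merge3_helper67.py): 13 modules of the originals, bodies verbatim.
import Mathlib
import Fermat.Agent.Zm.S59_L03_004
import Fermat.Agent.Zm.S59_L03_001
import Fermat.Agent.Zm.S43_L02_002
import Fermat.Agent.BADP.H74_HDropAbs
import Fermat.Agent.Zm.S56_L11_002
import Fermat.Agent.Zm.S48_L01_000
import Fermat.Agent.Zm.S58_L01_000
import Fermat.Agent.Zm.S43_L03_005
import Fermat.Agent.Zm.S56_L12_001
import Fermat.Agent.Zm.S44_L02_004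
import Fermat.Agent.Zm.S59_L01_001
import Fermat.Agent.Zm.S43_L07_001
import Fermat.Agent.Zm.S43_L11_001
import Fermat.Agent.Zm.S58_L02_000
import Fermat.Agent.Zm.S35_L21_000
import Fermat.Agent.Zm.S35_L03_001
import Fermat.Agent.Zm.S44_L05_000
import Fermat.Agent.Zm.S59_L02_002
import Fermat.Agent.Zm.S48_L01_002
import Fermat.Agent.Zm.S59_L01_002
import Fermat.Agent.Zm.S59_L03_002

-- ==== BEGIN Fermat.Agent.S27.REDu.H42_PoleDegree
section

/-!
# G-RED, FF-R/FF-B (helper42): the lower bound `[F : K(x)] ≤ deg (x)_∞` from `L`-spaces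

No principal divisors are used: the inputs are `deg v = 1`, "non-constant functions have a pole",
and finiteness of the set of poles.  Consequently the zeros theorem (`H59.ZerosStmt`) follows
from its `≤` half (`ZerosLe`, which is what weak approximation gives).
-/

set_option autoImplicit false

universe uC uCf uK uR uF uL uE uk ukap uFp uFt uFtp uiot uEp uKp ux3b1

noncomputable section

open AlgebraicCurve IntermediateField WithZero Polynomial

namespace Fermat.Agent.S27.REDu.H42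

open Fermat.Agent.S24

variable {K F : Type*} [Field K] [Field F] [Algebra K F]

local notation "L" => riemannRochSpace

/-- The hypotheses on places that do not involve principal divisors. -/
structure Hyp0 (K F : Type*) [Field K] [Field F] [Algebra K F] : Prop where
  deg_one : ∀ v : Place K F, v.deg = 1
  exists_pole : ∀ f : F, f ∉ Set.range (algebraMap K F) → ∃ v : Place K F, v.ord f < 0

theorem Hyp.toHyp0 (H : Hyp K F) : Hyp0 K F := ⟨H.deg_one, H.exists_pole⟩

section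

variable (H : Hyp0 K F)
include H

theorem L_zero_eq0 : L (0 : Divisor K F) = Submodule.span K {(1 : F)} := by
  apply le_antisymm
  · intro f hf
    by_cases hfr : f ∈ Set.range (algebraMap K F)
    · obtain ⟨c, rfl⟩ := hfr
      rw [Submodule.mem_span_singleton]
      exact ⟨c, by rw [Algebra.smul_def, mul_one]⟩
    · exfalso
      obtain ⟨v, hv⟩ := H.exists_pole f hfr
      have h1 := (mem_riemannRochSpace_iff.mp hf) v
      rcases h1 with rfl | h1
      · simp at hv
      · simp only [Finsupp.coe_zero, Pi.zero_apply, neg_zero] at h1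
        omega
  · rw [Submodule.span_singleton_le_iff_mem]
    intro v
    simp

theorem finite_L_zero0 : Module.Finite K (L (0 : Divisor K F)) := by
  rw [L_zero_eq0 H]
  infer_instance

theorem finrank_L_zero0 : Module.finrank K (L (0 : Divisor K F)) = 1 := by
  rw [L_zero_eq0 H]
  exact finrank_span_singleton one_ne_zero

theorem finite_L0 (D : Divisor K F) : Module.Finite K (L D) := by
  have h1 : Module.Finite K (L (D ⊔ 0)) := finite_of_le H.deg_one le_sup_right (finite_L_zero0 H)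
  exact Submodule.finiteDimensional_of_le (L_mono (le_sup_left : D ≤ D ⊔ 0))

/-- `l(D) ≤ deg D + 1` for `D ≥ 0` (no principal divisors needed). -/
theorem finrank_L_le0 {D : Divisor K F} (hD : 0 ≤ D) :
    (Module.finrank K (L D) : ℤ) ≤ Divisor.degree D + 1 := by
  have h := finrank_le_add H.deg_one hD (finite_L_zero0 H)
  rw [finrank_L_zero0 H, map_zero] at h
  simp only [Nat.cast_one, sub_zero] at h
  omega

/-- **Lower bound for the degree of the pole divisor**: if `x ∈ L(B)`, `B ≥ 0`, then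
`[F : K(x)] ≤ deg B`. -/
theorem finrank_le_degree_of_mem_L {x : F} (hxt : Transcendental K x) [Module.Finite K⟮x⟯ F]
    {B : Divisor K F} (hB : 0 ≤ B) (hx : x ∈ L B)
    (hpoles : ∀ f : F, ∃ C : Divisor K F, 0 ≤ C ∧ f ∈ L C) :
    (Module.finrank K⟮x⟯ F : ℤ) ≤ Divisor.degree B := by
  set n := Module.finrank K⟮x⟯ F with hn
  let b := Module.finBasis K⟮x⟯ F
  -- a common pole bound for the basis
  obtain ⟨C, hC, hb⟩ : ∃ C : Divisor K F, 0 ≤ C ∧ ∀ j, b j ∈ L C := by
    choose C hC0 hC using fun j => hpoles (b j)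
    refine ⟨∑ j, C j, Finset.sum_nonneg fun j _ => hC0 j, fun j => ?_⟩
    exact L_mono (Finset.single_le_sum (fun i _ => hC0 i) (Finset.mem_univ j)) (hC j)
  by_contra hlt
  push Not at hlt
  have hdC : 0 ≤ Divisor.degree C := degree_nonneg hC
  set l : ℕ := (Divisor.degree C + 1).toNat with hl
  have hl' : (l : ℤ) = Divisor.degree C + 1 := Int.toNat_of_nonneg (by omega)
  have h1 := le_finrank_L hB hx hxt b.linearIndependent hb l (finite_L0 H _)
  have h2 : (0 : Divisor K F) ≤ l • B + C := add_nonneg (nsmul_nonneg hB l) hC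
  have h3 := finrank_L_le0 H h2
  rw [map_add, map_nsmul, nsmul_eq_mul] at h3
  have h1' : ((n * (l + 1) : ℕ) : ℤ) ≤ Module.finrank K (L (l • B + C)) := by exact_mod_cast h1
  push_cast at h1'
  have h4 : (l : ℤ) * (Divisor.degree B + 1) ≤ l * n :=
    mul_le_mul_of_nonneg_left (by omega) (by positivity)
  have hn1 : (1 : ℤ) ≤ n := by
    have : 0 < Module.finrank K⟮x⟯ F := Module.finrank_pos
    rw [hn]
    exact_mod_cast this
  nlinarith

end

/-! ## The zeros theorem from its `≤` half -/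

/-- The `≤` half of the zeros theorem (this is what weak approximation gives). -/
def ZerosLe (K F : Type*) [Field K] [Field F] [Algebra K F] : Prop :=
  ∀ (x : F), Transcendental K x → ∀ [FiniteDimensional K⟮x⟯ F],
    {v : Place K F | 0 < v.ord x}.Finite ∧
      ∑ᶠ v ∈ {v : Place K F | 0 < v.ord x}, v.ord x ≤ (Module.finrank K⟮x⟯ F : ℤ)

/-- The zero divisor of `x`, given that `x` has finitely many zeros. -/
def zeroDivisor (x : F) (h : {v : Place K F | 0 < v.ord x}.Finite) : Divisor K F :=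
  Finsupp.ofSupportFinite (fun v => max (v.ord x) 0) (h.subset fun v hv => by
    simp only [Function.mem_support, ne_eq] at hv
    simp only [Set.mem_ofPred_eq]
    omega)

theorem zeroDivisor_apply (x : F) (h : {v : Place K F | 0 < v.ord x}.Finite) (v : Place K F) :
    zeroDivisor x h v = max (v.ord x) 0 := rfl

theorem zeroDivisor_nonneg (x : F) (h : {v : Place K F | 0 < v.ord x}.Finite) :
    0 ≤ zeroDivisor x h := by
  rw [Finsupp.le_def]
  intro v
  exact le_max_right _ _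

theorem inv_mem_L_zeroDivisor (x : F) (h : {v : Place K F | 0 < v.ord x}.Finite) :
    x⁻¹ ∈ L (zeroDivisor x h) := by
  rw [mem_riemannRochSpace_iff]
  intro v
  right
  rw [zeroDivisor_apply, Place.ord_inv]
  omega

theorem degree_zeroDivisor (hdeg : ∀ v : Place K F, v.deg = 1) (x : F)
    (h : {v : Place K F | 0 < v.ord x}.Finite) :
    Divisor.degree (zeroDivisor x h) = ∑ᶠ v ∈ {v : Place K F | 0 < v.ord x}, v.ord x := by
  classical
  rw [H59.degree_eq_sum_of_deg_eq_one hdeg, finsum_mem_eq_finite_toFinset_sum _ h]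
  have hs : (zeroDivisor x h).support = h.toFinset := by
    ext v
    simp only [Finsupp.mem_support_iff, Set.Finite.mem_toFinset, Set.mem_ofPred_eq,
      zeroDivisor_apply]
    omega
  rw [hs]
  refine Finset.sum_congr rfl fun v hv => ?_
  rw [zeroDivisor_apply]
  simp only [Set.Finite.mem_toFinset, Set.mem_ofPred_eq] at hv
  omega

/-- The zeros theorem follows from its `≤` half, `deg v = 1` and the existence of poles. -/
theorem zerosStmt_of_le [IsAlgClosed K] {x₀ : F} (hx₀ : Transcendental K x₀)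
    [FiniteDimensional K⟮x₀⟯ F]
    (hpole : ∀ f : F, f ∉ Set.range (algebraMap K F) → ∃ v : Place K F, v.ord f < 0)
    (hle : ZerosLe K F) : H59.ZerosStmt K F := by
  have H : Hyp0 K F := ⟨fun v => ff_deg_eq_one x₀ hx₀ v, hpole⟩
  have hpoles : ∀ f : F, ∃ C : Divisor K F, 0 ≤ C ∧ f ∈ L C := by
    intro f
    by_cases hfr : f ∈ Set.range (algebraMap K F)
    · obtain ⟨c, rfl⟩ := hfr
      exact ⟨0, le_rfl, algebraMap_mem_L le_rfl c⟩
    · have htr : Transcendental K f := transcendental_of_not_mem_range hfr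
      have htr' : Transcendental K f⁻¹ := fun h => htr (IsAlgebraic.inv_iff.mp h)
      have := ff_finite_of_transcendental x₀ hx₀ f⁻¹ htr'
      obtain ⟨hfin, -⟩ := hle f⁻¹ htr'
      refine ⟨zeroDivisor f⁻¹ hfin, zeroDivisor_nonneg _ _, ?_⟩
      have := inv_mem_L_zeroDivisor f⁻¹ hfin
      rwa [inv_inv] at this
  intro x hx _
  obtain ⟨hfin, hsum⟩ := hle x hx
  refine ⟨hfin, le_antisymm hsum ?_⟩
  have htr' : Transcendental K x⁻¹ := fun h => hx (IsAlgebraic.inv_iff.mp h)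
  have := ff_finite_of_transcendental x₀ hx₀ x⁻¹ htr'
  have h1 := finrank_le_degree_of_mem_L H htr' (zeroDivisor_nonneg x hfin)
    (inv_mem_L_zeroDivisor x hfin) hpoles
  rw [H59.finrank_adjoin_inv, degree_zeroDivisor H.deg_one] at h1
  exact h1

/-- Existence of poles from existence of zeros (the shape of FF-B piece P1). -/
theorem exists_pole_of_exists_zero [IsAlgClosed K]
    (hzero : ∀ x : F, Transcendental K x → ∃ v : Place K F, 0 < v.ord x) :
    ∀ f : F, f ∉ Set.range (algebraMap K F) → ∃ v : Place K F, v.ord f < 0 := by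
  intro f hf
  have htr : Transcendental K f := transcendental_of_not_mem_range hf
  have htr' : Transcendental K f⁻¹ := fun h => htr (IsAlgebraic.inv_iff.mp h)
  obtain ⟨v, hv⟩ := hzero f⁻¹ htr'
  refine ⟨v, ?_⟩
  rw [Place.ord_inv] at hv
  omega

/-- The zeros theorem from existence of zeros (P1) and the `≤` half (P4). -/
theorem zerosStmt_of_exists_zero_of_le [IsAlgClosed K] {x₀ : F} (hx₀ : Transcendental K x₀)
    [FiniteDimensional K⟮x₀⟯ F]
    (hzero : ∀ x : F, Transcendental K x → ∃ v : Place K F, 0 < v.ord x)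
    (hle : ZerosLe K F) : H59.ZerosStmt K F :=
  zerosStmt_of_le hx₀ (exists_pole_of_exists_zero hzero) hle

/-- `Hyp0` from existence of zeros. -/
theorem hyp0_of_exists_zero [IsAlgClosed K] {x₀ : F} (hx₀ : Transcendental K x₀)
    [FiniteDimensional K⟮x₀⟯ F]
    (hzero : ∀ x : F, Transcendental K x → ∃ v : Place K F, 0 < v.ord x) : Hyp0 K F :=
  ⟨fun v => ff_deg_eq_one x₀ hx₀ v, exists_pole_of_exists_zero hzero⟩

/-- Existence of zeros for all function fields over algebraically closed fields (FF-B, P1). -/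
def ExistsZeroAll : Prop :=
  ∀ (K : Type uK) (F : Type uF) [Field K] [Field F] [Algebra K F] [IsAlgClosed K], IsFF K F →
    ∀ x : F, Transcendental K x → ∃ v : Place K F, 0 < v.ord x

/-- The `≤` half of the zeros theorem for all function fields (FF-B, P4). -/
def ZerosLeAll : Prop :=
  ∀ (K : Type uK) (F : Type uF) [Field K] [Field F] [Algebra K F] [IsAlgClosed K], IsFF K F → ZerosLe K F

theorem zerosAll_of (h1 : ExistsZeroAll.{uK, uF}) (h4 : ZerosLeAll.{uK, uF}) : ZerosAll.{uK, uF} := by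
  intro K F _ _ _ _ hFF
  obtain ⟨x, hx, hfin⟩ := hFF
  exact zerosStmt_of_exists_zero_of_le hx (h1 K F ⟨x, hx, hfin⟩) (h4 K F ⟨x, hx, hfin⟩)

/-- `Stmt_FFB_principal.{uK, uF}` from the zeros theorem. -/
theorem stmt_FFB_principal_of (hz : ZerosAll.{uK, uF}) : Stmt_FFB_principal.{uK, uF} := by
  intro K F _ _ _ _ hFF
  obtain ⟨x, hx, hfin⟩ := hFF
  exact ⟨(hyp_of_zeros (hz K F ⟨x, hx, hfin⟩) hx).principal⟩

end Fermat.Agent.S27.REDu.H42

end
end
-- ==== END Fermat.Agent.S27.REDu.H42_PoleDegree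

-- ==== BEGIN Fermat.Agent.S38.P3.Defs3
section

set_option autoImplicit false
set_option synthInstance.maxHeartbeats 400000
set_option maxHeartbeats 1000000

noncomputable section

open AlgebraicCurve ModularCurve

namespace Fermat.Agent.S38.P3

open Fermat.Agent.BAD Fermat.Agent.S28.H73 Fermat.Agent.RED.H73 Fermat.Agent.RED
open Fermat.Agent.S43.BadQ Fermat.Agent.S44

/-- **PUSH-NORM.** -/
def Stmt_PushNorm : Prop :=
  ∀ (q M r : ℕ) [NeZero (M * q)] [NeZero r] [NeZero (M * q * r)] (_ : q.Prime) (_ : ¬ q ∣ M)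
    (hr : r.Prime) (_ : ¬ r ∣ M * q)
    (A : ValuationSubring (AlgebraicClosure ℚ)) (_ : A.LiesOverPrime q),
    ∀ (u : ↥(gaussV A (M * q)))
      (D : Divisor.degZero (K := AlgebraicClosure ℚ) (F := ↥(FNbar (M * q)))) (t : ℤ),
      gaussRes A (M * q) u ≠ 0 →
      (∀ P : Place (AlgebraicClosure ℚ) ↥(FNbar (M * q)),
        (3 : ℤ) * (D : Divisor (AlgebraicClosure ℚ) ↥(FNbar (M * q))) P
          = P.ord (u : ↥(FNbar (M * q)))) →
      heckeOperatorBar (M * q) ⟨r, hr⟩ (Pic0.mk D) = t • (Pic0.mk D : JZero (M * q)) →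
      ¬ (3 : ℤ) ∣ t →
      ∀ hβ : heckeBetaBar (AlgebraicClosure ℚ) (M * q) r (u : ↥(FNbar (M * q)))
          ∈ gaussV A (M * q * r),
      (∀ Q' : Place (kV A)
          ↥(redField A (FNbar (M * q * r)) (hasScale_laurentBaseChange A (M * q * r))),
        (3 : ℤ) ∣ Q'.ord (gaussRes A (M * q * r) ⟨_, hβ⟩)) →
      ∀ Q : Place (kV A) ↥(redField A (FNbar (M * q)) (hasScale_laurentBaseChange A (M * q))),
        (3 : ℤ) ∣ Q.ord (gaussRes A (M * q) u)

end Fermat.Agent.S38.P3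

end
end
-- ==== END Fermat.Agent.S38.P3.Defs3

-- ==== BEGIN Fermat.Agent.S38.P3.H57_NEFinal
section

/-!
# S38 at `p = 3`, leaf NE, unconditional (helper57): `stmt_NE : Stmt_NE`

From `H57.stmt_NE_of` and helper66's `H66.stmt_NE0`.
-/

set_option autoImplicit false

namespace Fermat.Agent.S38.P3.H57

/-- **NE**, unconditional: at a level `M` divisible by a prime `r ≡ 2 mod 3`, in characteristic
`q ∤ M`, every zero of `j~` has order divisible by `3`. -/
theorem stmt_NE : Fermat.Agent.S38.P3.Stmt_NE :=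
  stmt_NE_of Fermat.Agent.S38.P3.H66.stmt_NE0

end Fermat.Agent.S38.P3.H57

end
-- ==== END Fermat.Agent.S38.P3.H57_NEFinal

-- ==== BEGIN Fermat.Agent.S38.P3.H66_Desc3
section
attribute [local instance 10000] HahnSeries.powerSeriesAlgebra

/-!
# S38 at `p = 3`, leaf DESC3 (helper66)

`stmt_CE_Desc3 : Stmt_CE_Desc3` : descent of the divisibility by `3` of the orders of a reduced
function from the level `3 N` to the level `N` (`3 ∤ N`), at a place of residue characteristic
`q ≠ 3`.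

* `dvd_ord_of_not_dvd_degree` : for function fields `E ⊆ L` over an algebraically closed field
  and a prime `p ∤ [L : E]` : if `p ∣ ord_w (φ g)` for all places `w` of `L` then `p ∣ ord_v g`
  for all places `v` of `E`  (norm: `[L : E] · ord_v g = ord_v (N (φ g))`);
* `dvd_ord_intermediate'` : the same for two intermediate fields;
* `relfinrank_redN_three` : `[F~_{3M} : F~_M] = 4` for `3 ∤ M`, `q ∤ M`.
-/

set_option autoImplicit false
set_option linter.style.haveILetI false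
set_option linter.unusedSectionVars false
set_option synthInstance.maxHeartbeats 400000
set_option maxHeartbeats 1000000

noncomputable section

open AlgebraicCurve ModularCurve

namespace Fermat.Agent.S38.P3.H66D

open Fermat.Agent.RED Fermat.Agent.NEB.H14 Fermat.Agent.NEB.H29

section Abs

variable {k E L : Type} [Field k] [Field E] [Field L] [Algebra k E] [Algebra k L] [IsAlgClosed k]

/-- Divisibility of all orders by a prime `p ∤ [L : E]` descends from `L` to `E`. -/
theorem dvd_ord_of_not_dvd_degree (hE : IsFF k E) (hL : IsFF k L) (φ : E →ₐ[k] L)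
    (p : ℕ) (hp : p.Prime) (hdeg : ¬ p ∣ finrankAlong k φ)
    (g : E) (h : ∀ w : Place k L, (p : ℤ) ∣ w.ord (φ g)) (v : Place k E) :
    (p : ℤ) ∣ v.ord g := by
  by_cases hg : g = 0
  · rw [hg, Place.ord_zero]
    exact dvd_zero _
  have hφg : φ g ≠ 0 := fun h0 => hg ((map_eq_zero φ).1 h0)
  haveI : HasPrincipalDivisors k L := hasPD hL
  have hint := isIntegral_hom hE hL φ
  have hfin := finiteAlong_hom hE hL φ
  have hN := Fermat.Agent.RED.H51.stmt_FFB_norm k E L hE hL φ hfin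
  have h1 := Fermat.Agent.BADP.H74.dvd_ord_normAlong φ hint hfin hN (p : ℤ) hφg v
    (fun w _ => h w)
  rw [Fermat.Agent.BADP.H74.normAlong_apply, ← zpow_natCast, Place.ord_zpow] at h1
  have hpZ : Prime (p : ℤ) := Nat.prime_iff_prime_int.mp hp
  rcases hpZ.dvd_or_dvd h1 with h3 | h3
  · exfalso
    apply hdeg
    exact_mod_cast h3
  · exact h3

end Abs

section Inter

variable {k 𝕃 : Type} [Field k] [Field 𝕃] [Algebra k 𝕃] [IsAlgClosed k]

/-- Descent of divisibility of orders for two intermediate fields `K₁ ≤ K₂` of relative degree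
prime to `p`. -/
theorem dvd_ord_intermediate' {K₁ K₂ : IntermediateField k 𝕃} (hle : K₁ ≤ K₂)
    (h₁ : IsFF k ↥K₁) (h₂ : IsFF k ↥K₂) (p : ℕ) (hp : p.Prime)
    (hdeg : ¬ p ∣ K₁.relfinrank K₂) (g₁ : ↥K₁) (g₂ : ↥K₂) (hg : (g₂ : 𝕃) = (g₁ : 𝕃))
    (h : ∀ Q' : Place k ↥K₂, (p : ℤ) ∣ Q'.ord g₂) (Q : Place k ↥K₁) :
    (p : ℤ) ∣ Q.ord g₁ := by
  have e : IntermediateField.inclusion hle g₁ = g₂ := Subtype.ext hg.symm
  refine dvd_ord_of_not_dvd_degree h₁ h₂ (IntermediateField.inclusion hle) p hp ?_ g₁ ?_ Q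
  · have h3 : finrankAlong k (IntermediateField.inclusion hle) = K₁.relfinrank K₂ :=
      Fermat.Agent.RED.H51.finrank_along_inclusion hle
    rw [h3]
    exact hdeg
  · intro w
    rw [e]
    exact h w

end Inter

/-! ## The modular part -/

section Modular

open Fermat.Agent.BAD Fermat.Agent.S28.H73 Fermat.Agent.RED.H73
open Fermat.Agent.S43.CompEis.H57

variable {A : ValuationSubring (AlgebraicClosure ℚ)}

/-- `[F~_{3M} : F~_M] = 4` at levels prime to `q` and to `3`. -/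
theorem relfinrank_redN_three {q M : ℕ} [NeZero M] [NeZero (M * 3)] (hq : q.Prime)
    (hq3 : q ≠ 3) (hqM : ¬ q ∣ M) (h3M : ¬ 3 ∣ M) (hA : A.LiesOverPrime q) :
    (redN A M).relfinrank (redN A (M * 3)) = 4 := by
  have hqMr : ¬ q ∣ M * 3 := not_dvd_mul_of_ne hq Nat.prime_three (Ne.symm hq3) hqM
  have h1 := Fermat.Agent.RED.H36.relfinrank_level_eq (N := M) (M := M * 3) (Dvd.intro 3 rfl) hq
    hqMr A hA
  show (redField A (modularFunctionFieldBar M) (hasScale_laurentBaseChange A M)).relfinrank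
    (redField A (modularFunctionFieldBar (M * 3)) (hasScale_laurentBaseChange A (M * 3))) = 4
  rw [← h1, Fermat.Agent.BAD.H82.relfinrank_FM_FN 3 M Nat.prime_three h3M]

/-- **DESC3**. -/
theorem stmt_CE_Desc3 : Stmt_CE_Desc3 := by
  intro q hq hq3 N N' _ _ hN' h3N hq2 A hA f f' hff' h Q
  haveI : IsAlgClosed (kV A) := isAlgClosed_kV A
  have hNN' : N ∣ N' := ⟨3, by rw [hN', mul_comm]⟩
  have hle : redN A N ≤ redN A N' :=
    Fermat.Agent.RED.H51.redField_mono A (S18.modularFunctionFieldBar_mono hNN') _ _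
  have hg : ((gaussRes A N' f' : ↥(redN A N')) : LaurentSeries (kV A))
      = ((gaussRes A N f : ↥(redN A N)) : LaurentSeries (kV A)) := by
    show gaussResF A (hasScale_laurentBaseChange A N') f'
      = gaussResF A (hasScale_laurentBaseChange A N) f
    rw [gaussResF_apply, gaussResF_apply]
    congr 1
    exact Subtype.ext hff'
  obtain ⟨h₁, h₂, hdeg⟩ : IsFF (kV A) ↥(redN A N) ∧ IsFF (kV A) ↥(redN A N') ∧
      (redN A N).relfinrank (redN A N') = 4 := by
    by_cases hqN : q ∣ N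
    · obtain ⟨M, hM⟩ := hqN
      have hNM : N = M * q := by rw [hM, mul_comm]
      have hN'M : N' = M * 3 * q := by rw [hN', hNM]; ring
      subst hNM
      subst hN'M
      have hqM : ¬ q ∣ M := by
        intro hd
        apply hq2
        rw [pow_two]
        exact Nat.mul_dvd_mul hd (dvd_refl q)
      have h3M : ¬ 3 ∣ M := fun hd => h3N (hd.mul_right q)
      have hM0 : NeZero M := ⟨fun h0 => NeZero.ne (M * q) (by rw [h0, zero_mul])⟩
      have hMr0 : NeZero (M * 3) := ⟨Nat.mul_ne_zero (NeZero.ne M) (by norm_num)⟩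
      have hqMr : ¬ q ∣ M * 3 := not_dvd_mul_of_ne hq Nat.prime_three (Ne.symm hq3) hqM
      rw [redN_mul_eq hq hqM hA, redN_mul_eq hq hqMr hA]
      exact ⟨isFF_redN_of_not_dvd hq hqM hA, isFF_redN_of_not_dvd hq hqMr hA,
        relfinrank_redN_three hq hq3 hqM h3M hA⟩
    · have hN'' : N' = N * 3 := by rw [hN', mul_comm]
      subst hN''
      have hqNr : ¬ q ∣ N * 3 := not_dvd_mul_of_ne hq Nat.prime_three (Ne.symm hq3) hqN
      exact ⟨isFF_redN_of_not_dvd hq hqN hA, isFF_redN_of_not_dvd hq hqNr hA,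
        relfinrank_redN_three hq hq3 hqN h3N hA⟩
  exact dvd_ord_intermediate' hle h₁ h₂ 3 Nat.prime_three (by rw [hdeg]; norm_num)
    (gaussRes A N f) (gaussRes A N' f') hg h Q

end Modular

end Fermat.Agent.S38.P3.H66D

end
end
-- ==== END Fermat.Agent.S38.P3.H66_Desc3

-- ==== BEGIN Fermat.Agent.S39.FinGood.Defs2
section

set_option autoImplicit false

noncomputable section

namespace Fermat.Agent.S39.FinGood

open Fermat.Agent.S56.FL

/-- **KUM-INT.**  `f` a cocycle on `G_p = Gal(K̄/ℚ_p)` for the cyclotomic character `ω`, with values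
in `ZMod p`, trivial on `Gal(K̄/L)` for a finite Galois `L/ℚ_p` of bounded ramification.  Then there
is an integer `n` such that `f σ = 0` for every `σ` which fixes `ζ` and all `p`-th roots of
`1 + p n`.
[`L' = L ⊔ ℚ_p(ζ)` is bounded (`H15.isBdd_sup`); `H85.exists_kumRel` with `H = ⊤`: `u` fixed by
`G_p` (so `u ∈ ℚ_p`), `‖u‖ ≤ 1`, `α ^ p = 1 + p u`, `s α = ζ ^ (f s) α`; `n ≡ u mod p`;
`(1 + p u) / (1 + p n) ∈ 1 + p² ℤ_p` is the `p`-th power of some `b ∈ ℚ_p`
(`LocalKummer.exists_root_near_one`, `root_near_one_fixed`, as in `H85.KumRel.ker`); `α / b` is a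
`p`-th root of `1 + p n`.] -/
def Stmt_KumInt : Prop :=
  ∀ (p : ℕ) [Fact p.Prime], p ≠ 2 →
    ∀ (ζ : PadicAlgCl p) (hζ : IsPrimitiveRoot ζ p)
      (L : IntermediateField ℚ_[p] (PadicAlgCl p)) [FiniteDimensional ℚ_[p] L],
      Normal ℚ_[p] L → IsBddField p L →
      ∀ f : Gp p → ZMod p,
        (∀ s t : Gp p, f (s * t) = f s + ((H85.omg hζ s : (ZMod p)ˣ) : ZMod p) * f t) →
        (∀ s ∈ L.fixingSubgroup, f s = 0) →
        ∃ n : ℤ, ∀ σ : Gp p, σ ζ = ζ →
          (∀ z : PadicAlgCl p, z ^ p = ((1 + (p : ℤ) * n : ℤ) : PadicAlgCl p) → σ z = z) →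
            f σ = 0

end Fermat.Agent.S39.FinGood

end
end
-- ==== END Fermat.Agent.S39.FinGood.Defs2

-- ==== BEGIN Fermat.Agent.S39.FinGood.H71_Conj
section

set_option autoImplicit false
set_option synthInstance.maxHeartbeats 400000
set_option maxHeartbeats 1000000

open scoped Pointwise

noncomputable section

namespace Fermat.Agent.S39.FinGood.H71

open Fermat.Agent.S39 Fermat.Agent.S44
open Fermat.Agent.Lib.FrobIntegers Fermat.Agent.Lib.FrobExists Fermat.Agent.Lib.InertiaBridge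
  Fermat.Agent.Lib.InertiaConj

/-- Decomposition and inertia groups over the same prime are conjugate (by the same element). -/
theorem exists_conj_dec_inertia (ℓ : ℕ) (hℓ : ℓ.Prime)
    (A A' : ValuationSubring (AlgebraicClosure ℚ)) (hA : A.LiesOverPrime ℓ)
    (hA' : A'.LiesOverPrime ℓ) :
    ∃ g : GQ, (∀ s : GQ, s ∈ A'.decompositionSubgroup ℚ ↔
        g⁻¹ * s * g ∈ A.decompositionSubgroup ℚ) ∧
      ∀ s : GQ, s ∈ A'.inertiaSubgroupIn ℚ ↔ g⁻¹ * s * g ∈ A.inertiaSubgroupIn ℚ := by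
  obtain ⟨g, hg⟩ := exists_smul_primeUnder ℓ hℓ A A' hA hA'
  refine ⟨g, fun s => ?_, fun s => ?_⟩
  · rw [mem_decompositionSubgroup_iff ℓ hℓ A' hA', mem_decompositionSubgroup_iff ℓ hℓ A hA, hg,
      mul_smul, mul_smul]
    constructor
    · intro h
      rw [h, inv_smul_smul]
    · intro h
      have h1 := congrArg (fun I => g • I) h
      simp only [smul_inv_smul] at h1
      exact h1
  · rw [mem_inertiaSubgroupIn_iff ℓ hℓ A' hA', mem_inertiaSubgroupIn_iff ℓ hℓ A hA, hg]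
    constructor
    · intro h b
      have h1 := h (g • b)
      rw [Ideal.mem_pointwise_smul_iff_inv_smul_mem, smul_sub, inv_smul_smul] at h1
      rw [mul_smul, mul_smul]
      exact h1
    · intro h b
      have h1 := h (g⁻¹ • b)
      rw [Ideal.mem_pointwise_smul_iff_inv_smul_mem, smul_sub]
      rw [mul_smul, mul_smul, smul_inv_smul] at h1
      exact h1

section Rep

variable {p : ℕ} {V : Type} [AddCommGroup V] [Module (ZMod p) V]
  (ρ : GQ →* Module.End (ZMod p) V)

theorem rho_inv_apply (g : GQ) (x : V) : ρ g⁻¹ (ρ g x) = x := by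
  rw [← Module.End.mul_apply, ← map_mul, inv_mul_cancel, map_one, Module.End.one_apply]

theorem rho_apply_inv (g : GQ) (x : V) : ρ g (ρ g⁻¹ x) = x := by
  rw [← Module.End.mul_apply, ← map_mul, mul_inv_cancel, map_one, Module.End.one_apply]

/-- `ρ g⁻¹ ∘ ρ s = ρ (g⁻¹ s g) ∘ ρ g⁻¹`. -/
theorem rho_conj_apply (g s : GQ) (x : V) : ρ g⁻¹ (ρ s x) = ρ (g⁻¹ * s * g) (ρ g⁻¹ x) := by
  rw [← Module.End.mul_apply, ← Module.End.mul_apply, ← map_mul, ← map_mul,
    mul_inv_cancel_right]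

theorem conjLine_ne_top (g : GQ) (L : Submodule (ZMod p) V) (hL : L ≠ ⊤) :
    L.comap (ρ g⁻¹) ≠ ⊤ := by
  intro h
  apply hL
  rw [eq_top_iff]
  intro x _
  have h1 : ρ g x ∈ L.comap (ρ g⁻¹) := by rw [h]; trivial
  rw [Submodule.mem_comap, rho_inv_apply] at h1
  exact h1

theorem conjLine_ne_bot (g : GQ) (L : Submodule (ZMod p) V) (hL : L ≠ ⊥) :
    L.comap (ρ g⁻¹) ≠ ⊥ := by
  intro h
  obtain ⟨x, hx, hx0⟩ := Submodule.exists_mem_ne_zero_of_ne_bot hL
  have h1 : ρ g x ∈ L.comap (ρ g⁻¹) := by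
    rw [Submodule.mem_comap, rho_inv_apply]
    exact hx
  rw [h, Submodule.mem_bot] at h1
  apply hx0
  rw [← rho_inv_apply ρ g x, h1, map_zero]

end Rep

/-- **L2a** (CONJ-SHAPE). -/
theorem stmt_ConjShape : Stmt_ConjShape := by
  intro p hp A A' hA hA' V _ _ ρ hshape
  obtain ⟨L, hL0, hLtop, hLD, hLI, hLsq⟩ := hshape
  obtain ⟨g, hgD, hgI⟩ := exists_conj_dec_inertia p hp A A' hA hA'
  refine ⟨L.comap (ρ g⁻¹), conjLine_ne_bot ρ g L hL0, conjLine_ne_top ρ g L hLtop,
    fun s hs x hx => ?_, fun s hs x => ?_, fun s hs x => ?_⟩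
  · rw [Submodule.mem_comap, rho_conj_apply]
    exact hLD _ ((hgD s).mp hs) _ hx
  · rw [Submodule.mem_comap, map_sub, rho_conj_apply]
    exact hLI _ ((hgI s).mp hs) _
  · rw [Submodule.mem_comap, map_sub, rho_conj_apply]
    have h1 : g⁻¹ * (s * s) * g = (g⁻¹ * s * g) * (g⁻¹ * s * g) := by group
    rw [h1]
    exact hLsq _ ((hgD s).mp hs) _

/-- **L2b** (CONJ-FIN). -/
theorem stmt_ConjFin : Stmt_ConjFin := by
  intro p hp A A' hA hA' V _ _ ρ hfin
  obtain ⟨L, hLtop, hLcyc, hLI, u, hu, hLu⟩ := hfin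
  obtain ⟨g, hgD, hgI⟩ := exists_conj_dec_inertia p hp A A' hA hA'
  have hginv : ∀ x : AlgebraicClosure ℚ, g⁻¹ (g x) = x := fun x => g.symm_apply_apply x
  refine ⟨L.comap (ρ g⁻¹), conjLine_ne_top ρ g L hLtop, fun s hs n hn x hx => ?_,
    fun s hs x => ?_, u, hu, fun s hs hμ hroots x => ?_⟩
  · have h1 : ∀ ζ : AlgebraicClosure ℚ, ζ ^ p = 1 → (g⁻¹ * s * g) ζ = ζ ^ n := by
      intro ζ hζ
      show g⁻¹ (s (g ζ)) = ζ ^ n
      rw [hn (g ζ) (by rw [← map_pow, hζ, map_one]), map_pow, hginv]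
    have h2 := hLcyc _ ((hgI s).mp hs) n h1 (ρ g⁻¹ x) hx
    rw [← rho_conj_apply] at h2
    have h3 := congrArg (ρ g) h2
    rw [rho_apply_inv, map_smul, rho_apply_inv] at h3
    exact h3
  · rw [Submodule.mem_comap, map_sub, rho_conj_apply]
    exact hLI _ ((hgI s).mp hs) _
  · have h1 : ∀ ζ : AlgebraicClosure ℚ, ζ ^ p = 1 → (g⁻¹ * s * g) ζ = ζ := by
      intro ζ hζ
      show g⁻¹ (s (g ζ)) = ζ
      rw [hμ (g ζ) (by rw [← map_pow, hζ, map_one]), hginv]
    have h2 : ∀ z : AlgebraicClosure ℚ, z ^ p = (u : AlgebraicClosure ℚ) →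
        (g⁻¹ * s * g) z = z := by
      intro z hz
      show g⁻¹ (s (g z)) = z
      rw [hroots (g z) (by rw [← map_pow, hz, map_intCast]), hginv]
    have h3 := hLu _ ((hgI s).mp hs) h1 h2 (ρ g⁻¹ x)
    rw [← rho_conj_apply] at h3
    have h4 := congrArg (ρ g) h3
    rw [rho_apply_inv, rho_apply_inv] at h4
    exact h4

end Fermat.Agent.S39.FinGood.H71

end
end
-- ==== END Fermat.Agent.S39.FinGood.H71_Conj

-- ==== BEGIN Fermat.Agent.S39.FinGood.H97_FlatBdd
section

set_option autoImplicit false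
set_option linter.style.haveILetI false
set_option linter.unusedSectionVars false
set_option synthInstance.maxHeartbeats 400000
set_option maxHeartbeats 1000000

noncomputable section

namespace Fermat.Agent.S39.FinGood.H97

open Fermat.Agent.S39 Fermat.Agent.S39.FinGood Fermat.Agent.Tate Fermat.Agent.S56.FL
  Fermat.Agent.R

theorem finite_quot_span_p (p : ℕ) [Fact p.Prime] :
    Finite (ℤ_[p] ⧸ Ideal.span {(p : ℤ_[p])}) := by
  rw [← PadicInt.maximalIdeal_eq_span_p]
  exact (inferInstance : Finite (IsLocalRing.ResidueField ℤ_[p]))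

/-- an element of `(p) V` is `p w` -/
theorem exists_eq_smul_of_mem {p : ℕ} [Fact p.Prime] {V : Type} [AddCommGroup V]
    [Module ℤ_[p] V] {v : V}
    (hv : v ∈ Ideal.span {(p : ℤ_[p])} • (⊤ : Submodule ℤ_[p] V)) :
    ∃ w : V, v = p • w := by
  rw [Submodule.ideal_span_singleton_smul] at hv
  obtain ⟨w, -, hw⟩ := (Submodule.mem_smul_pointwise_iff_exists _ _ _).1 hv
  exact ⟨w, by rw [← hw, Nat.cast_smul_eq_nsmul]⟩

/-- **L1** (FLAT-BDD). -/
theorem stmt_FlatBdd : Stmt_FlatBdd := by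
  intro W hΔ p _ hp2 hgood
  obtain ⟨D⟩ := Fermat.Agent.Tate.H46.stmt_T1 W hΔ p
  have hflat : D.ρ.IsFlatAt p := Fermat.Agent.Tate.T5.H4.stmt_T5odd W hΔ p hp2 D hgood
  have hI : Finite (ℤ_[p] ⧸ Ideal.span {(p : ℤ_[p])}) := finite_quot_span_p p
  have hfm : IsFlatGaloisModule p
      (D.ρ.V ⧸ (Ideal.span {(p : ℤ_[p])} • (⊤ : Submodule ℤ_[p] D.ρ.V)))
      (fun σ => D.ρ.levelAction (Ideal.span {(p : ℤ_[p])}) σ) :=
    hflat.2 (Ideal.span {(p : ℤ_[p])}) hI
  have hkill : ∀ m : D.ρ.V ⧸ (Ideal.span {(p : ℤ_[p])} • (⊤ : Submodule ℤ_[p] D.ρ.V)),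
      p • m = 0 := by
    intro m
    obtain ⟨v, rfl⟩ := Submodule.Quotient.mk_surjective _ m
    rw [← Nat.cast_smul_eq_nsmul ℤ_[p], ← Submodule.Quotient.mk_smul,
      Submodule.Quotient.mk_eq_zero]
    exact Submodule.smul_mem_smul (Ideal.subset_span rfl) Submodule.mem_top
  obtain ⟨L, hfd, hN, hB, hfix⟩ := Fermat.Agent.S56.FL.H54.stmt_FL_A p hp2 _
    (fun σ => D.ρ.levelAction (Ideal.span {(p : ℤ_[p])}) σ) hkill hfm
  refine ⟨L, hfd, hN, hB, ?_⟩
  intro σ hσ
  apply LinearMap.ext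
  intro P
  rw [Module.End.one_apply]
  apply Subtype.ext
  have hP : p • (P : EQbar W) = 0 := by
    have := P.2
    rw [Submodule.mem_torsionBy_iff] at this
    rw [← this, natCast_zsmul]
  obtain ⟨v, hv⟩ := D.lev_surj 1 (P : EQbar W) (by rw [pow_one]; exact hP)
  have h1 := hfix σ hσ (Submodule.Quotient.mk v)
  have h2 : D.ρ.ρ (localGaloisToGlobal p σ) v - v ∈
      Ideal.span {(p : ℤ_[p])} • (⊤ : Submodule ℤ_[p] D.ρ.V) := by
    rw [← Submodule.Quotient.mk_eq_zero, Submodule.Quotient.mk_sub, sub_eq_zero]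
    exact h1
  obtain ⟨w, hw⟩ := exists_eq_smul_of_mem h2
  have h3 : D.lev 1 (D.ρ.ρ (localGaloisToGlobal p σ) v) = D.lev 1 v := by
    have h4 : D.lev 1 (D.ρ.ρ (localGaloisToGlobal p σ) v - v) = 0 := by
      rw [hw, map_nsmul]
      have := D.lev_tors 1 w
      rwa [pow_one] at this
    rw [map_sub, sub_eq_zero] at h4
    exact h4
  rw [D.lev_equiv, hv] at h3
  exact h3

end Fermat.Agent.S39.FinGood.H97

end
end
-- ==== END Fermat.Agent.S39.FinGood.H97_FlatBdd

-- ==== BEGIN Fermat.Agent.S39.FinMult.H33_L4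
section

set_option autoImplicit false

namespace Fermat.Agent.S39.FinMult.H33

open WeierstrassCurve WeierstrassCurve.Affine
open Fermat.Agent.S05 (InE0 InE1)
open Fermat.Agent.S44.C (lam lam_zero lam_some Stmt_V2)

section L4

variable {L : Type} [Field L] [DecidableEq L] [IsAlgClosed L] {A : ValuationSubring L}
  {W : Affine L}

omit [DecidableEq L] [IsAlgClosed L] in
lemma node_inE0_of_inE1 {P : W.Point} (h : InE1 A P) : InE0 A P := by
  rcases P with _ | ⟨x, y, hxy⟩
  · trivial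
  · exact le_of_lt (show 1 < A.valuation x from h)

/-- `E₁` is closed under `k • ·`. -/
lemma node_inE1_nsmul (hyp : NodeHyp A W) {S : W.Point} (hS : InE1 A S) (k : ℕ) :
    InE1 A (k • S) := by
  induction k with
  | zero => rw [zero_smul]; trivial
  | succ k ih =>
    rw [succ_nsmul]
    exact stmt_NodeE1 L A W hyp _ _ ih hS

omit [DecidableEq L] [IsAlgClosed L] in
/-- `E₁` is closed under negation. -/
lemma node_inE1_neg {S : W.Point} (hS : InE1 A S) : InE1 A (-S) := by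
  rcases S with _ | ⟨x, y, h⟩
  · exact hS
  · exact hS

/-- `|lam (k S) - lam(S)^k| ≤ |Δ| |lam S - 1|` for `S ∈ E₁`. -/
lemma node_val_lam_nsmul (hyp : NodeHyp A W) {β : L} (hβ : β ^ 2 = W.a₂) {S : W.Point}
    (hS : InE1 A S) (k : ℕ) :
    A.valuation (lam β (k • S) - lam β S ^ k) ≤ A.valuation W.Δ * A.valuation (lam β S - 1) := by
  induction k with
  | zero =>
    rw [zero_smul, lam_zero, pow_zero, sub_self, map_zero]
    exact zero_le
  | succ k ih =>
    have hk1 : InE0 A (k • S + S) := by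
      have := node_inE1_nsmul hyp hS (k + 1)
      rw [succ_nsmul] at this
      exact node_inE0_of_inE1 this
    have h1 := val_lam_add hyp hβ (k • S) S (node_inE0_of_inE1 (node_inE1_nsmul hyp hS k))
      (node_inE0_of_inE1 hS) hk1
    have h2 : A.valuation ((lam β (k • S) - lam β S ^ k) * lam β S) ≤
        A.valuation W.Δ * A.valuation (lam β S - 1) := by
      rw [map_mul, val_lam_eq_one hyp hβ S (node_inE0_of_inE1 hS), mul_one]
      exact ih
    have e : lam β ((k + 1) • S) - lam β S ^ (k + 1) =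
        (lam β (k • S + S) - lam β (k • S) * lam β S) +
          (lam β (k • S) - lam β S ^ k) * lam β S := by
      rw [succ_nsmul, pow_succ]; ring
    rw [e]
    exact Valuation.map_add_le _ h1 h2

omit [DecidableEq L] [IsAlgClosed L] in
/-- `lam S ≠ 1` for `S ∈ E₀`, `S ≠ O`. -/
lemma node_lam_sub_one_ne_zero (hyp : NodeHyp A W) {β : L} (hβ : β ^ 2 = W.a₂) {S : W.Point}
    (hS : InE0 A S) (hS0 : S ≠ 0) : lam β S - 1 ≠ 0 := by
  rcases S with _ | ⟨x, y, h⟩
  · exact absurd rfl hS0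
  · have hx : 1 ≤ A.valuation x := hS
    have h1 := val_lam_sub_one_sq hyp hβ h hx
    intro h0
    rw [h0, map_zero, zero_pow (by norm_num), zero_mul] at h1
    exact zero_ne_one h1

end L4

/-- Leaf **NODE-L4**, from leaf V2 of S44 package C. -/
theorem stmt_NodeL4_of (hV2 : Stmt_V2) : Stmt_NodeL4 := by
  intro L _ _ _ A W hyp β hβ p hp hp1 hbp S hS hpS hsmall
  by_contra hS0
  set δ : L := lam β S - 1 with hδ
  have hδ0 : δ ≠ 0 := node_lam_sub_one_ne_zero hyp hβ (node_inE0_of_inE1 hS) hS0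
  have hδ1 : A.valuation δ < 1 := val_lam_sub_one_lt hyp hβ S hS
  have h1 := node_val_lam_nsmul hyp hβ hS p
  rw [hpS, lam_zero] at h1
  have e : lam β S = 1 + δ := by rw [hδ]; ring
  rw [e, Valuation.map_sub_swap, add_sub_cancel_left] at h1
  rw [hV2 L A.ValueGroup A.valuation p hp δ hδ1 hsmall] at h1
  have hδpos : 0 < A.valuation δ := by
    rw [Valuation.pos_iff]; exact hδ0
  have := (mul_le_mul_iff_left₀ hδpos).1 h1
  exact absurd hbp (not_lt.2 this)

/-- Leaf **NODE-L4**. -/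
theorem stmt_NodeL4 : Stmt_NodeL4 := stmt_NodeL4_of Fermat.Agent.S44.C.H01.stmt_V2

end Fermat.Agent.S39.FinMult.H33

end
-- ==== END Fermat.Agent.S39.FinMult.H33_L4

-- ==== BEGIN Fermat.Agent.S39.H71_OldNewP
section

/-!
# S39 / S40, leaf OLD-NEW at `p` (helper71)

`oldNewPD_of : S59.Asm.Stmt_OrdNewStrict → S39.Stmt_OldNewPD` (strong form of the Steinberg
shape, `S39/WiringD.lean`) and `oldNewP_of : S59.Asm.Stmt_OrdNewStrict → S39.Stmt_OldNewP`.

`W` good at `p`, `E[p]` irreducible, `(f, 𝔪)` of level `M`, `p ∥ M`, congruent to `W`.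
* `χ_f : 𝕋_M^S → ℤ̄` (`S` the primes of `M`), `R = χ_f(𝕋)`, `P = R ∩ 𝔪`, `R ↪ 𝒪'` (`stmt_PDVR`),
  `ρ` over `𝒪''` with the Frobenius characteristic polynomials of `χ` (S30).
* If `χ` occurs at level `M / p`: `H71.residuallyModular_of_occurs`.
* Otherwise `ρ` is strictly ordinary at `p` (`Stmt_OrdNewStrict`); its residual representation is
  `E[p] ⊗ k` (Frobenius density, Carayol over a field); `H71.steinbergShape_of_residual`.
-/

set_option autoImplicit false
set_option linter.unusedSectionVars false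
set_option linter.unusedVariables false
set_option linter.style.haveILetI false
set_option maxHeartbeats 1000000
set_option synthInstance.maxHeartbeats 400000

open Polynomial IsLocalRing CuspForm
open WeierstrassCurve WeierstrassCurve.Affine
open scoped TensorProduct WeierstrassCurve.Affine

namespace Fermat.Agent.S39.H71

open Fermat.Agent.S39 Fermat.Agent.S44 Fermat.Agent.R

/-- **OLD-NEW at `p`** from the `p`-new case of S33 (strict form). -/
theorem oldNewPD_of (hON : Fermat.Agent.S59.Asm.Stmt_OrdNewStrict) : Stmt_OldNewPD := by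
  intro W hΔ p hp hp2 hgoodp hirr M hM hpM hp2M hmod
  classical
  haveI : Fact p.Prime := ⟨hp⟩
  haveI : NeZero M := ⟨hM.ne'⟩
  obtain ⟨f, 𝔪, hf, h𝔪, hp𝔪, hcong⟩ := hmod
  -- the set `S`
  set S : Finset ℕ := M.primeFactors with hS
  have hNS : ∀ q : ℕ, q.Prime → q ∣ M → q ∈ S := fun q hq hqM =>
    Nat.mem_primeFactors.mpr ⟨hq, hqM, hM.ne'⟩
  have hpS : p ∈ S := hNS p hp hpM
  have hSM : ∀ ℓ : ℕ, ℓ.Prime → ¬ ℓ ∣ M → ℓ ∉ (↑S : Set ℕ) := fun ℓ hℓ hℓM h =>
    hℓM (Nat.dvd_of_mem_primeFactors (Finset.mem_coe.1 h))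
  -- the eigen-character
  obtain ⟨χg, hχg⟩ := Fermat.Agent.R.H99.stmt_eigenChar M (↑S : Set ℕ) f hf
  let R : Subring (integralClosure ℤ ℂ) := χg.range
  haveI hfinT : Module.Finite ℤ (CuspForm.heckeAlgebra M 2 (↑S : Set ℕ)) :=
    Fermat.Agent.S22.result M 2 _
  haveI hfinR : Module.Finite ℤ R :=
    Module.Finite.of_surjective (χg.rangeRestrict.toIntAlgHom.toLinearMap)
      χg.rangeRestrict_surjective
  let P : Ideal R := 𝔪.comap R.subtype
  have hsubint : R.subtype.IsIntegral := by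
    intro x
    have hx : IsIntegral ℤ x := Algebra.IsIntegral.isIntegral x
    obtain ⟨q, hq, hqx⟩ := hx
    refine ⟨q.map (Int.castRingHom R), hq.map _, ?_⟩
    rw [Polynomial.eval₂_map]
    have : R.subtype.comp (Int.castRingHom R) = algebraMap ℤ (integralClosure ℤ ℂ) :=
      RingHom.ext_int _ _
    rw [this]
    exact hqx
  haveI := h𝔪
  haveI hPmax : P.IsMaximal :=
    Ideal.isMaximal_comap_of_isIntegral_of_isMaximal' R.subtype hsubint 𝔪
  obtain ⟨𝒪', iCR, iD, iDVR, iAC, iFin, iCZ, ι, hιinj, hιcomap⟩ :=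
    Fermat.Agent.R.H2.stmt_PDVR R P
  have hPmem : ∀ r : R, r ∈ P → ι r ∈ maximalIdeal 𝒪' := by
    intro r hr
    have : r ∈ (maximalIdeal 𝒪').comap ι := hιcomap ▸ hr
    exact this
  have hp𝒪' : (p : 𝒪') ∈ maximalIdeal 𝒪' := by
    have hpP : (p : R) ∈ P := by
      show R.subtype (p : R) ∈ 𝔪
      rw [map_natCast]; exact hp𝔪
    have := hPmem _ hpP
    rwa [map_natCast] at this
  let χ : CuspForm.heckeAlgebra M 2 (↑S : Set ℕ) →+* 𝒪' := ι.comp χg.rangeRestrict
  -- the Galois representation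
  obtain ⟨𝒪'', iCR'', iD'', iDVR'', iAC'', iFin'', iCZ'', iAlg, iMF, iLH, hinj'', ρ, hchar, hunr⟩ :=
    Fermat.Agent.R.H33.stmt_S30 p M S hpS hNS 𝒪' hp𝒪' χ
  have hloc : ∀ x : 𝒪', x ∈ maximalIdeal 𝒪' → algebraMap 𝒪' 𝒪'' x ∈ maximalIdeal 𝒪'' := by
    intro x hx
    rw [mem_maximalIdeal, mem_nonunits_iff] at hx ⊢
    exact fun hu => hx (isUnit_of_map_unit (algebraMap 𝒪' 𝒪'') _ hu)
  have hp𝒪'' : (p : 𝒪'') ∈ maximalIdeal 𝒪'' := by
    have := hloc _ hp𝒪'
    rwa [map_natCast] at this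
  let χ'' : CuspForm.heckeAlgebra M 2 (↑S : Set ℕ) →+* 𝒪'' := (algebraMap 𝒪' 𝒪'').comp χ
  have hρ : HasFrobCharpoly χ'' ρ := fun ℓ hℓ hℓN hℓS B hB σ hσ =>
    hchar ℓ hℓ hℓN hℓS B hB σ hσ
  -- the congruence
  have hχW : ∀ (ℓ : ℕ) (hℓ : ℓ.Prime) (hℓM : ¬ ℓ ∣ M) (hℓS : ℓ ∉ (↑S : Set ℕ)),
      W.IsGoodPrimeFor ℓ →
        χ'' (heckeAlgebra.T hℓ hℓM hℓS) - ((W.apOfModel ℓ : ℤ) : 𝒪'') ∈ maximalIdeal 𝒪'' := by
    intro ℓ hℓ hℓM hℓS hgood
    have hℓp : ℓ ≠ p := fun h => hℓS (Finset.mem_coe.2 (h ▸ hpS))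
    obtain ⟨a, ha, ham⟩ := hcong ℓ hℓ hgood hℓM hℓp
    have hae : a = χg (heckeAlgebra.T hℓ hℓM hℓS) :=
      Subtype.ext (ha.trans (hχg ℓ hℓ hℓM hℓS).symm)
    have h1 : χg.rangeRestrict (heckeAlgebra.T hℓ hℓM hℓS) - ((W.apOfModel ℓ : ℤ) : R) ∈ P := by
      show R.subtype (χg.rangeRestrict (heckeAlgebra.T hℓ hℓM hℓS) -
        ((W.apOfModel ℓ : ℤ) : R)) ∈ 𝔪
      rw [map_sub, map_intCast]
      rw [hae] at ham
      exact ham
    have h2 := hloc _ (hPmem _ h1)
    rwa [map_sub, map_intCast, map_sub, map_intCast] at h2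
  -- the level
  have hMM' : M = M / p * p := (Nat.div_mul_cancel hpM).symm
  have hpM' : ¬ p ∣ M / p := by
    rintro ⟨c, hc⟩
    apply hp2M
    refine ⟨c, ?_⟩
    rw [hMM', hc]
    ring
  have hM'pos : 0 < M / p := Nat.div_pos (Nat.le_of_dvd hM hpM) hp.pos
  haveI : NeZero (M / p) := ⟨hM'pos.ne'⟩
  by_cases hocc : OccursAtLevel χ'' (M / p)
  · left
    refine residuallyModular_of_occurs W hp S hp𝒪'' χ'' hχW hocc ?_
    intro ℓ hℓ hℓM' hℓp
    have hℓM : ¬ ℓ ∣ M := by
      intro hd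
      rw [hMM'] at hd
      rcases (Nat.Prime.dvd_mul hℓ).1 hd with h | h
      · exact hℓM' h
      · exact hℓp ((Nat.prime_dvd_prime_iff_eq hℓ hp).1 h)
    exact ⟨hℓM, hSM ℓ hℓ hℓM⟩
  · right
    intro A hA
    -- the residue field
    have hchar' : CharP (ResidueField 𝒪'') p :=
      Fermat.Agent.S58.H99.charP_residueField hp hp𝒪''
    let j : ZMod p →+* ResidueField 𝒪'' := ZMod.castHom (dvd_refl p) (ResidueField 𝒪'')
    letI : Algebra (ZMod p) (ResidueField 𝒪'') := j.toAlgebra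
    -- `E[p]`
    have hker := Fermat.Agent.S58.H99.torsW_finiteLevel W hΔ p
    have hfr := Fermat.Agent.S58.H99.finrank_torsW W hΔ p
    have hcard₁ : Nat.card (Submodule.torsionBy ℤ
        ((W.map (Int.castRingHom ℚ))⁄(AlgebraicClosure ℚ)).Point p) = p ^ 2 := by
      have : Module.Finite (ZMod p) (Fermat.Agent.S58.H99.TorsW W p) :=
        Module.finite_of_finrank_eq_succ hfr
      have h := Module.natCard_eq_pow_finrank (K := ZMod p)
        (V := Fermat.Agent.S58.H99.TorsW W p)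
      rw [hfr, Nat.card_zmod] at h
      exact h
    let ρ₀ : ResidualGaloisRep (ZMod p) := Fermat.Agent.S59.LL.H77.torsRep W p hcard₁ hker
    let ρ₁ : ResidualGaloisRep (ResidueField 𝒪'') := ρ₀.baseChangeAlong j
    -- equal Frobenius characteristic polynomials
    have hfrob : ∀ ℓ : ℕ, ℓ.Prime → ℓ ∉ S ∪ W.Δ.natAbs.primeFactors →
        ∀ B : ValuationSubring (AlgebraicClosure ℚ), B.LiesOverPrime ℓ →
          ∀ σ : GQ, B.IsFrobeniusAt σ ℓ →
            LinearMap.charpoly (ρ.residual.ρ σ) = LinearMap.charpoly (ρ₁.ρ σ) := by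
      intro ℓ hℓ hℓS' B hB σ hσ
      have hℓS : ℓ ∉ (↑S : Set ℕ) := fun h => hℓS' (Finset.mem_union_left _ (Finset.mem_coe.1 h))
      have hℓM : ¬ ℓ ∣ M := fun h => hℓS (Finset.mem_coe.2 (hNS ℓ hℓ h))
      have hℓp : ℓ ≠ p := fun h => hℓS (Finset.mem_coe.2 (h ▸ hpS))
      have hgood : W.IsGoodPrimeFor ℓ := by
        intro hdvd
        refine hℓS' (Finset.mem_union_right _ (Nat.mem_primeFactors.2 ⟨hℓ, ?_, ?_⟩))
        · exact Int.natCast_dvd.1 hdvd
        · exact Int.natAbs_ne_zero.2 hΔ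
      have hres : residue 𝒪'' (χ'' (heckeAlgebra.T hℓ hℓM hℓS)) =
          j (((W.apOfModel ℓ : ℤ) : ZMod p)) := by
        have h1 := (residue_eq_zero_iff _).2 (hχW ℓ hℓ hℓM hℓS hgood)
        rw [map_sub, sub_eq_zero, map_intCast] at h1
        rw [h1, map_intCast]
      rw [Fermat.Agent.S59.Asm.charpoly_resid, hρ ℓ hℓ hℓM hℓS B hB σ hσ,
        Fermat.Agent.S59.Asm.charpoly_bcAlong_resid,
        Fermat.Agent.S59.LL.H77.charpoly_residualGaloisRepOf W p hcard₁ hker ℓ hℓ hℓp.symm hgood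
          B hB σ hσ]
      simp only [Polynomial.map_add, Polynomial.map_sub, Polynomial.map_mul, Polynomial.map_pow,
        Polynomial.map_X, Polynomial.map_C, hres, map_natCast, Polynomial.map_natCast]
    have hcp : ∀ g : GQ, LinearMap.charpoly (ρ.residual.ρ g) = LinearMap.charpoly (ρ₁.ρ g) :=
      Fermat.Agent.S59.Datum.H57.charpoly_eq_of_frob ρ.residual ρ₁ _ hfrob
    have htd : ∀ g : GQ,
        LinearMap.trace (ResidueField 𝒪'') ρ.residual.V (ρ.residual.ρ g) =
          j (LinearMap.trace (ZMod p) ρ₀.V (ρ₀.ρ g)) ∧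
        LinearMap.det (ρ.residual.ρ g) = j (LinearMap.det (ρ₀.ρ g)) := by
      intro g
      obtain ⟨h1, h2⟩ := Fermat.Agent.R.trace_det_eq_of_charpoly_eq ρ.residual.finrank_eq
        ρ₁.finrank_eq _ _ (hcp g)
      refine ⟨h1.trans ?_, h2.trans ?_⟩
      · exact LinearMap.trace_baseChange (ρ₀.ρ g) (ResidueField 𝒪'')
      · exact LinearMap.det_baseChange (ρ₀.ρ g)
    -- absolute irreducibility
    have habs : ρ.residual.IsAbsolutelyIrreducible := by
      obtain ⟨g, hg⟩ := Fermat.Agent.S58.H99.exists_gram_ne_zero_of_span hfr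
        (Fermat.Agent.S58.H99.torsRho W p)
        (Fermat.Agent.S58.H99.span_torsRho W hΔ p hp2 hirr)
      apply Fermat.Agent.S58.H99.isAbsolutelyIrreducible_of_gram ρ.residual g
      have hmap : (Matrix.of fun a b =>
            LinearMap.trace (ResidueField 𝒪'') ρ.residual.V (ρ.residual.ρ (g a * g b))) =
          (Matrix.of fun a b =>
            LinearMap.trace (ZMod p) (Fermat.Agent.S58.H99.TorsW W p)
              (Fermat.Agent.S58.H99.torsRho W p (g a * g b))).map j := by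
        ext a b
        simp only [Matrix.of_apply, Matrix.map_apply]
        exact (htd (g a * g b)).1
      rw [hmap, ← RingHom.mapMatrix_apply, ← RingHom.map_det]
      exact fun h0 => hg ((map_eq_zero _).mp h0)
    -- the strictly ordinary line
    have hso : ρ.IsStrictOrdinaryAt p :=
      hON p M (M / p) S 𝒪'' hp hp2 hp𝒪'' hMM' hpM' hNS χ'' ρ hρ habs hocc
    obtain ⟨L, hL⟩ := residual_line_of_strictOrdinary ρ hso A hA
    -- the equivalence
    obtain ⟨E⟩ := Fermat.Agent.S59.Datum.H57.isEquiv_of_charpoly_eq ρ₁ ρ.residual habs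
      (fun σ => (hcp σ).symm)
    refine steinbergShapeD_of_residual hp A (rhoTors W p) ρ.residual.ρ E.toLinearEquiv ?_ L hL
      ?_ ?_ (Fermat.Agent.S44.stmt_CycRam p hp hp2 A hA)
    · intro σ c v
      exact E.map_apply σ (c ⊗ₜ[ZMod p] v)
    · intro σ a ha
      exact Fermat.Agent.L.H52.det_rhoW_eq_natCast hΔ σ a ha
    · intro σ
      exact (htd σ).2

/-- **OLD-NEW at `p`** (weak form of the Steinberg shape). -/
theorem oldNewP_of (hON : Fermat.Agent.S59.Asm.Stmt_OrdNewStrict) : Stmt_OldNewP :=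
  (oldNewPD_of hON).toOldNewP

end Fermat.Agent.S39.H71

end
-- ==== END Fermat.Agent.S39.H71_OldNewP

-- ==== BEGIN Fermat.Agent.S41.H19_IharaStep0
section

/-!
# S41, Ihara leaf A (helper19): Step 0 — `x₂` is an eigenvector too

If `res1 x₁ + res2 x₂ = 0` and `T_ℓ x₁ = a x₁` then `T_ℓ x₂ = a x₂` (`ℓ ∤ N` prime, `ℓ ≠ q`,
`q ≠ p`).  No cuspidality is needed: `z = T_ℓ x₂ - a x₂` vanishes on the range of `conjG`, which
contains `u(q) = u(1)^q`, and `Gamma0 N` is generated by this range and `u(1)`.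
-/

set_option autoImplicit false

open scoped MatrixGroups
open CongruenceSubgroup Matrix

namespace Fermat.Agent.S41.Ihara

open Fermat.Agent.S41 Fermat.Agent.S41.H19

/-- The translation `u(n) = [[1, n], [0, 1]]`. -/
def uMat (N : ℕ) (n : ℤ) : Gamma0 N := mkG0 N 1 n 0 1 (by ring) (dvd_zero _)

lemma mat_uMat (N : ℕ) (n : ℤ) : mat (uMat N n) = !![1, n; 0, 1] := rfl

lemma uMat_add (N : ℕ) (n m : ℤ) : uMat N (n + m) = uMat N n * uMat N m := by
  apply mat_injective
  rw [mat_mul, mat_uMat, mat_uMat, mat_uMat]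
  ext i j
  fin_cases i <;> fin_cases j <;> simp [Matrix.mul_apply, Fin.sum_univ_two, add_comm]

lemma mob_uMat (N : ℕ) (n : ℤ) (r : ℚ) : mob (mat (uMat N n)) r = r + (n : ℚ) := by
  simp [mob, mat_uMat]

lemma trace_uMat (N : ℕ) (n : ℤ) : (mat (uMat N n)).trace ^ 2 ≤ 4 := by
  rw [mat_uMat, Matrix.trace_fin_two]
  norm_num

section Hom

variable {N : ℕ} {A : Type*} [AddCommGroup A]

/-- `n ↦ z (u(n))` is additive. -/
lemma hom_uMat (z : Additive (Gamma0 N) →+ A) (n : ℤ) :
    z (Additive.ofMul (uMat N n)) = n • z (Additive.ofMul (uMat N 1)) := by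
  let f : ℤ →+ A :=
    { toFun := fun n => z (Additive.ofMul (uMat N n))
      map_zero' := by
        have : uMat N 0 = 1 := by
          apply mat_injective
          rw [mat_uMat, mat_one]
          ext i j
          fin_cases i <;> fin_cases j <;> simp
        rw [this]
        exact map_zero z
      map_add' := fun n m => by
        rw [uMat_add]
        exact map_add z _ _ }
  have := map_zsmul f n 1
  simpa [f] using this

/-- A hom vanishing on the range of `conjG` and on `u(1)` vanishes. -/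
theorem eq_zero_of_conjG {q : ℕ} (hq : q.Prime) (z : Additive (Gamma0 N) →+ A)
    (h1 : ∀ h : Gamma0 (N * q), z (Additive.ofMul (conjG N q h)) = 0)
    (h2 : z (Additive.ofMul (uMat N 1)) = 0) : z = 0 := by
  have hu : ∀ n : ℤ, z (Additive.ofMul (uMat N n)) = 0 := fun n => by
    rw [hom_uMat, h2, smul_zero]
  have hβ : ∀ β : Gamma0 N, (q : ℤ) ∣ mat β 0 1 → z (Additive.ofMul β) = 0 := by
    intro β hβ
    obtain ⟨h', rfl⟩ := exists_conjG_eq hq.ne_zero β hβ
    exact h1 h'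
  have hq' : Prime (q : ℤ) := Nat.prime_iff_prime_int.mp hq
  -- the case `q ∤ a`
  have hcase : ∀ g : Gamma0 N, ¬ (q : ℤ) ∣ mat g 0 0 → z (Additive.ofMul g) = 0 := by
    intro g hg
    have hcop : IsCoprime (mat g 0 0) (q : ℤ) :=
      ((Prime.coprime_iff_not_dvd hq').mpr hg).symm
    obtain ⟨s, t, hst⟩ := hcop
    have hb : (q : ℤ) ∣ mat (g * uMat N (-(s * mat g 0 1))) 0 1 := by
      rw [mat_mul, mat_uMat]
      simp only [Matrix.mul_apply, Fin.sum_univ_two, Matrix.of_apply, Matrix.cons_val',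
        Matrix.cons_val_zero, Matrix.cons_val_one, Matrix.empty_val', Matrix.cons_val_fin_one]
      exact ⟨t * mat g 0 1, by linear_combination (-(mat g 0 1)) * hst⟩
    have := hβ _ hb
    change z (Additive.ofMul g + Additive.ofMul (uMat N (-(s * mat g 0 1)))) = 0 at this
    rw [map_add, hu, add_zero] at this
    exact this
  apply AddMonoidHom.ext
  intro g
  change z (Additive.ofMul (Additive.toMul g)) = 0
  obtain ⟨g, rfl⟩ : ∃ g' : Gamma0 N, Additive.ofMul g' = g := ⟨Additive.toMul g, rfl⟩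
  by_cases hg : (q : ℤ) ∣ mat g 0 0
  · have hc : ¬ (q : ℤ) ∣ mat g 1 0 := by
      intro hc
      have hdet := mat_det' g
      have : (q : ℤ) ∣ 1 := by
        rw [← hdet]
        exact dvd_sub (Dvd.dvd.mul_right hg _) (Dvd.dvd.mul_left hc _)
      exact hq'.not_dvd_one this
    have hg' : ¬ (q : ℤ) ∣ mat (uMat N 1 * g) 0 0 := by
      rw [mat_mul, mat_uMat]
      simp only [Matrix.mul_apply, Fin.sum_univ_two, Matrix.of_apply, Matrix.cons_val',
        Matrix.cons_val_zero, Matrix.cons_val_one, Matrix.empty_val', Matrix.cons_val_fin_one,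
        one_mul]
      intro h
      exact hc ((dvd_add_right hg).mp h)
    have := hcase _ hg'
    change z (Additive.ofMul (uMat N 1) + Additive.ofMul g) = 0 at this
    rw [map_add, h2, zero_add] at this
    exact this
  · exact hcase g hg

end Hom

section Step0

variable {N q ℓ p : ℕ}

lemma Tcoh_neg {A : Type*} [AddCommGroup A] (N ℓ : ℕ) (φ : Additive (Gamma0 N) →+ A) :
    Tcoh N A ℓ (-φ) = - Tcoh N A ℓ φ := by
  have := Tcoh_sub (A := A) N ℓ 0 φ
  have h0 : Tcoh N A ℓ (0 : Additive (Gamma0 N) →+ A) = 0 := by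
    have := Tcoh_sub (A := A) N ℓ 0 0
    rw [sub_zero, sub_self] at this
    exact this
  rw [zero_sub, h0, zero_sub] at this
  exact this

/-- **Step 0**: `x₂` is an eigenvector with the same eigenvalue. -/
theorem eigen_x2 (hN : 0 < N) (hq : q.Prime) (hp : p.Prime) (hqp : q ≠ p)
    (hℓ : ℓ.Prime) (hℓN : ¬ ℓ ∣ N) (hℓq : ℓ ≠ q)
    (x₁ x₂ : Additive (Gamma0 N) →+ ZMod p) (a : ZMod p)
    (h1 : Tcoh N (ZMod p) ℓ x₁ = a • x₁)
    (hrel : res1 N q (ZMod p) x₁ + res2 N q (ZMod p) x₂ = 0) :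
    Tcoh N (ZMod p) ℓ x₂ = a • x₂ := by
  have : Fact p.Prime := ⟨hp⟩
  have hx2 : res2 N q (ZMod p) x₂ = - res1 N q (ZMod p) x₁ := by
    rw [eq_neg_iff_add_eq_zero, add_comm]
    exact hrel
  have hres : res2 N q (ZMod p) (Tcoh N (ZMod p) ℓ x₂ - a • x₂) = 0 := by
    have e1 : res2 N q (ZMod p) (Tcoh N (ZMod p) ℓ x₂ - a • x₂)
        = res2 N q (ZMod p) (Tcoh N (ZMod p) ℓ x₂) - a • res2 N q (ZMod p) x₂ := rfl
    have e2 : res1 N q (ZMod p) (a • x₁) = a • res1 N q (ZMod p) x₁ := rfl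
    rw [e1, ← Tcoh_res2 hN hq hℓ hℓN hℓq, hx2, Tcoh_neg, Tcoh_res1 hN hq hℓ hℓN hℓq, h1, e2,
      smul_neg, sub_neg_eq_add, neg_add_cancel]
  rw [← sub_eq_zero]
  apply eq_zero_of_conjG hq
  · intro h
    have := congrArg (fun φ => φ (Additive.ofMul h)) hres
    exact this
  · -- `u(q)` is in the range of `conjG`
    have hq0 : ((q : ℕ) : ZMod p) ≠ 0 := by
      intro h0
      have := (ZMod.natCast_eq_zero_iff q p).mp h0
      exact hqp ((Nat.prime_dvd_prime_iff_eq hp hq).mp this).symm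
    obtain ⟨h', hh'⟩ := exists_conjG_eq (N := N) hq.ne_zero (uMat N q) (by
      rw [mat_uMat]; simp)
    have hz : (Tcoh N (ZMod p) ℓ x₂ - a • x₂) (Additive.ofMul (uMat N q)) = 0 := by
      rw [← hh']
      have := congrArg (fun φ => φ (Additive.ofMul h')) hres
      exact this
    rw [hom_uMat, zsmul_eq_mul] at hz
    have hq0' : ((q : ℤ) : ZMod p) ≠ 0 := by
      rw [Int.cast_natCast]; exact hq0
    exact (mul_eq_zero.mp hz).resolve_left hq0'

end Step0

end Fermat.Agent.S41.Ihara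

end
-- ==== END Fermat.Agent.S41.H19_IharaStep0

-- ==== BEGIN Fermat.Agent.S41.H61_ChebFinal
section

/-!
# S41, I2 leaf D (Step 5, auxiliary primes): `stmt_IhD : Stmt_IhD`, unconditional

Inputs: D-KUM (helper41), D-GRP (helper78), two-sided Frobenius density (item 61, helper47),
item 62 (`Lib/EllFinite`), assembly `H61_Cheb.lean` (helper61).
-/

set_option autoImplicit false

namespace Fermat.Agent.S41.H61

/-- **I2 leaf D** (auxiliary primes for the Kummer–Hecke proof of Ihara's lemma). -/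
theorem stmt_IhD : Fermat.Agent.S41.Ihara.Stmt_IhD :=
  stmt_IhD_of Fermat.Agent.S41.H41.stmt_KumA Fermat.Agent.S41.H41.stmt_KumHom
    Fermat.Agent.S41.H41.stmt_KumB1 Fermat.Agent.S41.H41.stmt_KumB2
    Fermat.Agent.S41.H78.stmt_DGRP Fermat.Agent.Lib.FrobDensity.H47.stmt_FD2
    Fermat.Agent.Lib.EllFinite.stmt_main

end Fermat.Agent.S41.H61

end
-- ==== END Fermat.Agent.S41.H61_ChebFinal

-- ==== BEGIN Fermat.Agent.S41.H94_PDStmts
section

/-!
# S41, package P (Poincare duality): interfaces of the remaining leaves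

See `NOTES/plan/L_S41_PD.md`.  Abstract leaves are stated for a group `G` with `ModularLike S T`
(`Fermat/Agent/S41/H94_Pair.lean`); the `SL(2,ℤ)`-specific leaves use `ModularGroup.S`, `ModularGroup.T`.

* `Stmt_SURJ` : every Manin function is the Manin function of a potential triple.
* `Stmt_ADJ1` : restriction and corestriction are adjoint for the pairing.
* `Stmt_B1`   : the pairing is `-2 ×` the sum over the cusps of a primitive `b` of the cup product.
* `Stmt_B2`   : a normalised primitive `b` of the cup product exists.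
* `Stmt_B3`   : the sum over the `T`-orbits is the sum over the conjugacy classes of primitive positive
                parabolic elements.
* `Stmt_CUSP` : cuspidal (trace condition) ↔ kills the conjugates of powers of `S`, `T`, `T S⁻¹`.
-/

set_option autoImplicit false

open scoped MatrixGroups

namespace Fermat.Agent.S41.H94

/-- The universal property of `PSL(2,ℤ) = C₂ * C₃`, for an abstract `(G, S, T)`. -/
def PSLProp {G : Type} [Group G] (S T : G) : Prop :=
  ∀ (K : Type) [Group K] (s t : K), s ^ 2 = 1 → t ^ 3 = 1 →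
    ∃ θ : G →* K, θ S = s ∧ θ (T * S⁻¹) = t

/-- `b` is a primitive of the cup product `φ ∪ ψ`. -/
def IsCupPrim {H : Type*} [Group H] {k : Type*} [Field k] (φ ψ : Additive H →+ k) (b : H → k) :
    Prop :=
  ∀ h h' : H, b (h * h') = b h + b h' - φ (Additive.ofMul h) * ψ (Additive.ofMul h')

/-- **SURJ**: every Manin function on `G ⧸ range j` is `P.a` for a potential triple `P` of some `ψ`. -/
def Stmt_SURJ : Prop :=
  ∀ (G : Type) [Group G] (H : Type) [Group H] (k : Type) [Field k] (S T : G) (j : H →* G),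
    PSLProp S T → ModularLike S T → S ^ 2 ∈ j.range →
    ∀ a : G ⧸ j.range → k,
      IsManin (MulAction.toPerm S : Equiv.Perm (G ⧸ j.range)) (MulAction.toPerm (T * S⁻¹)) a →
      ∃ (ψ : Additive H →+ k) (P : PotTriple j S T ψ), P.a = a

/-- **ADJ1**: `pairing_{j ∘ ι}(φ ∘ ι, ψ) = pairing_j(φ, cor_ι ψ)`. -/
def Stmt_ADJ1 : Prop :=
  ∀ (G : Type) [Group G] (H H' : Type) [Group H] [Group H'] (k : Type) [Field k] (S T : G)
    (j : H →* G) (ι : H' →* H) [Fintype (G ⧸ j.range)] [Fintype (G ⧸ (j.comp ι).range)],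
    Function.Injective j → Function.Injective ι → ι.range.FiniteIndex →
    ModularLike S T → S ^ 2 ∈ (j.comp ι).range → (2 : k) ≠ 0 →
    ∀ (φ : Additive H →+ k) (ψ : Additive H' →+ k)
      (P : PotTriple j S T φ) (Q : PotTriple (j.comp ι) S T ψ),
      ∃ (P' : PotTriple (j.comp ι) S T (resAlong k ι φ)) (Q' : PotTriple j S T (corAlong k ι ψ)),
        pairingOf P' Q = pairingOf P Q'

/-- **B1**: for a normalised primitive `b` of `φ ∪ ψ`, the sum of `b` over the `T`-orbits (cusps) is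
`-1/2` times the pairing. -/
def Stmt_B1 : Prop :=
  ∀ (G : Type) [Group G] (H : Type) [Group H] (k : Type) [Field k] (S T : G) (j : H →* G)
    [Fintype (G ⧸ j.range)]
    [Fintype (MulAction.orbitRel.Quotient (Subgroup.zpowers T) (G ⧸ j.range))],
    ModularLike S T → S ^ 2 ∈ j.range → (2 : k) ≠ 0 →
    ∀ (φ ψ : Additive H →+ k) (P : PotTriple j S T φ) (Q : PotTriple j S T ψ) (b : H → k),
      IsCupPrim φ ψ b →
      (∀ (h : H) (x : G) (n : ℤ), j h = x⁻¹ * (T * S⁻¹) ^ n * x → b h = 0) →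
      ∀ c : MulAction.orbitRel.Quotient (Subgroup.zpowers T) (G ⧸ j.range) → H,
        (∀ q, j (c q) = q.out.out⁻¹ * T ^ Function.minimalPeriod (T • ·) q.out * q.out.out) →
        ∑ q, b (c q) = -(1 / 2) * pairingOf P Q

/-- **B2**: a normalised primitive of the cup product exists. -/
def Stmt_B2 : Prop :=
  ∀ (G : Type) [Group G] (H : Type) [Group H] (k : Type) [Field k] (S T : G) (j : H →* G),
    PSLProp S T → ModularLike S T → S ^ 2 ∈ j.range →
    ∀ (φ ψ : Additive H →+ k), PotTriple j S T φ → PotTriple j S T ψ →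
      ∃ b : H → k, IsCupPrim φ ψ b ∧
        ∀ (h : H) (x : G) (n : ℤ), j h = x⁻¹ * (T * S⁻¹) ^ n * x → b h = 0

/-- A positive parabolic element of `SL(2,ℤ)` (a conjugate of `T ^ n`, `n ≥ 1`). -/
def IsPosPar (g : SL(2, ℤ)) : Prop :=
  (g : Matrix (Fin 2) (Fin 2) ℤ).trace = 2 ∧ g ≠ 1 ∧ 0 ≤ g 0 1 ∧ g 1 0 ≤ 0

/-- A primitive positive parabolic element of `H` (along `j`). -/
def IsPrimPosPar {H : Type*} [Group H] (j : H →* SL(2, ℤ)) (h : H) : Prop :=
  IsPosPar (j h) ∧ ∀ (h' : H) (m : ℕ), IsPosPar (j h') → h' ^ m = h → m = 1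

/-- Conjugacy on the elements satisfying `P`. -/
def conjSetoid {H : Type*} [Group H] (P : H → Prop) : Setoid {h : H // P h} where
  r a b := ∃ γ : H, γ * a.1 * γ⁻¹ = b.1
  iseqv :=
    { refl := fun a => ⟨1, by simp⟩
      symm := fun {a b} ⟨γ, h⟩ => ⟨γ⁻¹, by rw [← h]; group⟩
      trans := fun {a b c} ⟨γ, h⟩ ⟨γ', h'⟩ => ⟨γ' * γ, by rw [← h', ← h]; group⟩ }

/-- The sum of `b` over the conjugacy classes of elements satisfying `P`. -/
noncomputable def classSum {H : Type*} [Group H] {k : Type*} [AddCommMonoid k] (P : H → Prop)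
    (b : H → k) : k :=
  ∑ᶠ C : Quotient (conjSetoid P), b C.out.1

/-- **B3**: the sum over the `T`-orbits on `SL(2,ℤ) ⧸ range j` equals the sum over the conjugacy classes
of primitive positive parabolic elements. -/
def Stmt_B3 : Prop :=
  ∀ (H : Type) [Group H] (k : Type) [Field k] (j : H →* SL(2, ℤ))
    [Fintype (MulAction.orbitRel.Quotient (Subgroup.zpowers ModularGroup.T) (SL(2, ℤ) ⧸ j.range))],
    Function.Injective j → j.range.FiniteIndex → (-1 : SL(2, ℤ)) ∈ j.range →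
    ∀ (b : H → k), (∀ (γ h : H), IsPosPar (j h) → b (γ * h * γ⁻¹) = b h) →
    ∀ c : MulAction.orbitRel.Quotient (Subgroup.zpowers ModularGroup.T) (SL(2, ℤ) ⧸ j.range) → H,
      (∀ q, j (c q) = q.out.out⁻¹ *
        ModularGroup.T ^ Function.minimalPeriod (ModularGroup.T • ·) q.out * q.out.out) →
      ∑ q, b (c q) = classSum (IsPrimPosPar j) b

/-- cuspidality along an embedding `j : H →* SL(2,ℤ)` -/
def IsCuspVia {H : Type*} [Group H] {k : Type*} [Field k] (j : H →* SL(2, ℤ))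
    (φ : Additive H →+ k) : Prop :=
  ∀ h : H, ((j h : SL(2, ℤ)) : Matrix (Fin 2) (Fin 2) ℤ).trace ^ 2 ≤ 4 → φ (Additive.ofMul h) = 0

/-- **CUSP**: cuspidal ↔ kills the conjugates of the powers of `S`, `T`, `T S⁻¹`. -/
def Stmt_CUSP : Prop :=
  ∀ (H : Type) [Group H] (k : Type) [Field k] (j : H →* SL(2, ℤ)),
    (2 : k) ≠ 0 → (-1 : SL(2, ℤ)) ∈ j.range →
    ∀ φ : Additive H →+ k,
      IsCuspVia j φ ↔ (KillsConj j φ ModularGroup.S ∧ KillsConj j φ ModularGroup.T ∧
        KillsConj j φ (ModularGroup.T * ModularGroup.S⁻¹))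

/-- **ML**: `(SL(2,ℤ), S, T)` is `ModularLike`. -/
def Stmt_ML : Prop := ModularLike ModularGroup.S ModularGroup.T

end Fermat.Agent.S41.H94

end
-- ==== END Fermat.Agent.S41.H94_PDStmts

-- ==== BEGIN Fermat.Agent.S59.Asm.H40_LiftWire0
section

/-!
# S59: the wiring `LIFTWIRE0` (helper40) — `stmt_LIFTWIRE` of helper71 with `LLec0At`

`Asm.H71.stmt_LIFTWIRE` never uses the conclusion `N ∣ M₀` of `LL.Stmt_LLec`.  Here the same
wiring with `LL.H40.LLec0At p` (`p = 3, 5`), the level optimisation WITH auxiliary level raising: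

`stmt_LIFTWIRE0 : Stmt_Tate → (∀ p, p = 3 ∨ p = 5 → LLec0At p) → Stmt_CARDKER → Stmt_BRIDGERES →
    Stmt_TRES → Stmt_MLTred → Stmt_Stab → Stmt_Lift`.

The proof is the one of helper71 (`S59/Asm/H71_LiftWire.lean`).
-/

set_option autoImplicit false

open WeierstrassCurve Polynomial IsLocalRing

namespace Fermat.Agent.S59.Asm.H40

open Fermat.Agent.S59 Fermat.Agent.S59.Asm Fermat.Agent.S59.Asm.H71

/-- **LIFT-WIRE with `LLec0`.** -/
theorem stmt_LIFTWIRE0 (hT : Stmt_Tate)
    (hLL : ∀ p : ℕ, p = 3 ∨ p = 5 → Fermat.Agent.S59.LL.H40.LLec0At p)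
    (hCK : Stmt_CARDKER) (hB : Stmt_BRIDGERES) (hTR : Stmt_TRES) (hM : Stmt_MLTred)
    (hS : Stmt_Stab) : Stmt_Lift := by
  classical
  intro p hp W hΔ hW hirr M₀ hM₀ne hres hM₀ hM₀3
  have hpp : p.Prime := by
    rcases hp with rfl | rfl
    · exact Nat.prime_three
    · exact Nat.prime_five
  have : Fact p.Prime := ⟨hpp⟩
  have hp2 : p ≠ 2 := by
    rcases hp with rfl | rfl <;> norm_num
  -- level optimisation
  obtain ⟨hcard₁, hker⟩ := hCK p W hΔ
  obtain ⟨N, hNsq, hresN, hram, hpN⟩ :=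
    hLL p hp hp2 W hΔ hW hcard₁ hker hirr M₀ hM₀ne hM₀ hM₀3 hres
  have hNne : N ≠ 0 := fun h => by
    rw [h] at hNsq
    exact not_squarefree_zero hNsq
  -- the Tate module
  obtain ⟨𝒪, i1, i2, i3, i4, i5, i6, ρ, hdet, hunr, hunip, hflat, hord, hfrob, hres'⟩ :=
    hT p hp2 W hΔ hW
  obtain ⟨habs, hTW⟩ := hres' hirr
  -- the set of bad primes different from `p`
  set Sig : Finset ℕ := (W.Δ.natAbs.primeFactors).erase p with hSig
  have hnat : W.Δ.natAbs ≠ 0 := Int.natAbs_ne_zero.mpr hΔ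
  have hmemSig : ∀ q : ℕ, q ∈ Sig ↔ q.Prime ∧ q ≠ p ∧ (q : ℤ) ∣ W.Δ := by
    intro q
    rw [hSig, Finset.mem_erase, Nat.mem_primeFactors]
    constructor
    · rintro ⟨h1, h2, h3, -⟩
      exact ⟨h2, h1, Int.natCast_dvd.mpr h3⟩
    · rintro ⟨h1, h2, h3⟩
      exact ⟨h2, h1, Int.natCast_dvd.mp h3, hnat⟩
  have hgood : ∀ q : ℕ, q.Prime → q ≠ p → q ∉ Sig → W.IsGoodPrimeFor q := by
    intro q hq hqp hqS hdvd
    exact hqS ((hmemSig q).2 ⟨hq, hqp, hdvd⟩)
  have hloc : ρ.IsFlatAt p ∨ ρ.IsStrictOrdinaryAt p := by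
    by_cases hg : W.IsGoodPrimeFor p
    · exact Or.inl (hflat hg)
    · exact Or.inr (hord hg)
  obtain ⟨f₀, 𝔪, hf₀, h𝔪, hp𝔪, hcong⟩ := hresN
  obtain ⟨N₁, hN₁p, hN₁3, f₁, hf₁, hf₁a⟩ :=
    hM p hp2 𝒪 ρ (fun ℓ => W.apOfModel ℓ) Sig
      (fun q hq => ⟨((hmemSig q).1 hq).1, ((hmemSig q).1 hq).2.1⟩)
      hdet
      (fun q hq hqp hqS => hunr q hq hqp (hgood q hq hqp hqS))
      (fun q hq => hunip q ((hmemSig q).1 hq).1 ((hmemSig q).1 hq).2.1)
      hloc
      (fun ℓ hℓ hℓp hℓS A hA σ hσ => hfrob ℓ hℓ hℓp (hgood ℓ hℓ hℓp hℓS) A hA σ hσ)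
      habs hTW (fun h => h.elim) N hNne hNsq
      (fun q hq hqp hqN =>
        hB p hp2 W hΔ hcard₁ hker 𝒪 ρ hdet habs hfrob q hq (hram q hq hqp hqN))
      (fun hpdvd => hTR p hp2 W hΔ hW hirr (hpN hpdvd) 𝒪 ρ hdet habs hfrob)
      f₀ 𝔪 hf₀ h𝔪 hp𝔪
      (fun ℓ hℓ hℓS hℓM hℓp => hcong ℓ hℓ (hgood ℓ hℓ hℓp hℓS) hℓM hℓp)
  refine lift_of_eigenform hS p hpp W hΔ N₁ hN₁p hN₁3 f₁ hf₁ ?_
  intro ℓ hℓ hℓp hℓg hℓN
  exact hf₁a ℓ hℓ hℓp (fun h => hℓg ((hmemSig ℓ).1 h).2.2) hℓN

end Fermat.Agent.S59.Asm.H40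

end
-- ==== END Fermat.Agent.S59.Asm.H40_LiftWire0
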