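-- GENERATED (merged mirror, NOTES/tools/trim/merge3_helper67.py): 10 modules of the originals, bodies verbatim.
import Mathlib
import Fermat.Prelude.Def_GaloisRep_LocalConditions
import Fermat.Agent.Zm.S59_L04_004
import Fermat.Agent.Zm.S43_L14_003
import Fermat.Agent.Zm.S59_L04_002
import Fermat.Agent.Zm.S56_L09_004
import Fermat.Agent.R.H91_Lucas
import Fermat.Agent.Zm.S59_L03_000
import Fermat.Agent.Zm.S59_L03_003
import Fermat.Agent.Zm.S59_L04_005
import Fermat.Agent.Zm.S59_L02_005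
import Fermat.Agent.Zm.S59_L04_003
import Fermat.Agent.Zm.S59_L01_002
import Fermat.Agent.Zm.S43_L04_002
import Fermat.Agent.Zm.S59_L03_001
import Fermat.Agent.Zm.S56_L02_000
import Fermat.Agent.Zm.S59_L03_005
import Fermat.Agent.Zm.S59_L01_005
import Fermat.Agent.Zm.S56_L06_004
import Fermat.Agent.Zm.S56_L12_001
import Fermat.Agent.Zm.S56_L10_002

-- ==== BEGIN Fermat.Agent.S59.LL.SQ23.Defs
section

/-!
# S59 / LL / SQ23 (owner helper40): SQUARE removal at `q = 2`, `p = 3`, by the `S₃`-cover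

Level `N = 2 M`, `M = 2 M'`, `M'` odd.  `X₀(4M')` is Galois over `X₀(M')` (middle map `τ ↦ 2τ`) with
group `S₃ = ⟨s₀, s₁⟩`: `s₀` = deck involution of `β : X₀(4M') → X₀(2M')`, `s₁` = the one of `α`,
`c = s₀ s₁` of order `3`.  Everything is in characteristic `0` (no reduction mod `2`).
Plan and proof: note of helper40 (05:17Z), tested by lead (`NOTES/plan/lead_SQ23_test.md`).

## Interface (this file)
* `S3Gal M`   : the two field automorphisms of `F_{2M}` (leaf **S3-GAL**);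
* `S3Act M`   : the two automorphisms of `J₀(2M)`, with `β^*β_* = 1 + s₀`, `α^*α_* = 1 + s₁`,
                `(s₀ s₁)³ = 1` (leaf **S3-PIC**, from `S3Gal`);
* `S3Act.HasH90` : Hilbert 90 on `J₀(2M)` for `c`: a `3`-torsion eigenvector with a
                non-Eisenstein system, fixed by `c`, is `c k₀ - k₀` (leaves **S3-H90** + **S3-HECKE**);
* `Stmt_S3`   : at every level `M = 2M'` there is an `S3Act` with `HasH90`.
* target (proved in `H40_Alg.lean`): `sqNewTwo3_of : Stmt_S3 → LL.H40.SqNewTwoAt 3`.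
-/

set_option autoImplicit false
set_option linter.unusedVariables false
set_option linter.style.haveILetI false

noncomputable section

namespace Fermat.Agent.S59.LL.SQ23

open AlgebraicCurve ModularCurve Fermat.Agent.S24 Fermat.Agent.S36.H44
  Fermat.Agent.S59.LL.SQ.H40

local notation "Kb" => AlgebraicClosure ℚ

variable (M : ℕ) [NeZero M]

/-- **S3-GAL.**  The two deck involutions of `F_{2M}` (`M = 2M'`, `M'` odd): `s0` fixes exactly
`β^* F_M`, `s1` fixes exactly `α^* F_M`, and `(s0 s1)³ = 1`. -/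
structure S3Gal where
  /-- the deck involution of `β` -/
  s0 : FN (M * 2) ≃ₐ[Kb] FN (M * 2)
  /-- the deck involution of `α` -/
  s1 : FN (M * 2) ≃ₐ[Kb] FN (M * 2)
  s0_s0 : ∀ f, s0 (s0 f) = f
  s1_s1 : ∀ f, s1 (s1 f) = f
  s0_beta : ∀ f : FN M, s0 (heckeBetaBar Kb M 2 f) = heckeBetaBar Kb M 2 f
  s1_alpha : ∀ f : FN M, s1 (heckeAlphaBar Kb M 2 f) = heckeAlphaBar Kb M 2 f
  s0_fixed : ∀ f, s0 f = f → ∃ g : FN M, heckeBetaBar Kb M 2 g = f
  s1_fixed : ∀ f, s1 f = f → ∃ g : FN M, heckeAlphaBar Kb M 2 g = f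
  c3 : ∀ f, s0 (s1 (s0 (s1 (s0 (s1 f))))) = f

/-- **S3-PIC.**  The action of `s₀`, `s₁` on `J₀(2M)`. -/
structure S3Act where
  /-- the action of the deck involution of `β` -/
  s0 : JZero (M * 2) →+ JZero (M * 2)
  /-- the action of the deck involution of `α` -/
  s1 : JZero (M * 2) →+ JZero (M * 2)
  s0_s0 : ∀ x, s0 (s0 x) = x
  s1_s1 : ∀ x, s1 (s1 x) = x
  c3 : ∀ x, s0 (s1 (s0 (s1 (s0 (s1 x))))) = x
  beta : ∀ x, betaPull M 2 (betaPush M 2 x) = x + s0 x
  alpha : ∀ x, alphaPull M 2 (alphaPush M 2 x) = x + s1 x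

variable {M}

/-- `c = s₀ s₁`, of order `3`. -/
def S3Act.c (D : S3Act M) : JZero (M * 2) →+ JZero (M * 2) := D.s0.comp D.s1

theorem S3Act.c_apply (D : S3Act M) (x : JZero (M * 2)) : D.c x = D.s0 (D.s1 x) := rfl

/-- **S3-H90** (with **S3-HECKE**): Hilbert 90 for `c` on the non-Eisenstein eigenvectors. -/
def S3Act.HasH90 (D : S3Act M) : Prop :=
  ∀ (S : Finset ℕ) (t : ℕ → ℤ) (x : JZero (M * 2)), (3 : ℤ) • x = 0 → D.c x = x →
    (∀ ℓ : Nat.Primes, (ℓ : ℕ) ∉ S → ¬ (ℓ : ℕ) ∣ M * 2 → (ℓ : ℕ) ≠ 3 →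
      heckeOperatorBar (M * 2) ℓ x = t ℓ • x) →
    (∃ ℓ : ℕ, ℓ.Prime ∧ ℓ ∉ S ∧ ¬ ℓ ∣ M * 2 ∧ ℓ ≠ 3 ∧
      ((t ℓ : ℤ) : ZMod 3) ≠ 1 + (ℓ : ZMod 3)) →
    ∃ k₀ : JZero (M * 2), D.c k₀ - k₀ = x

variable (M)

/-- **The geometric content of SQ23.** -/
def Stmt_S3 : Prop :=
  ∀ (M : ℕ) [NeZero M], 2 ∣ M → ¬ 4 ∣ M → ∃ D : S3Act M, D.HasH90

/-- **S3-GAL** at every level. -/
def Stmt_S3Gal : Prop :=
  ∀ (M : ℕ) [NeZero M], 2 ∣ M → ¬ 4 ∣ M → Nonempty (S3Gal M)

end Fermat.Agent.S59.LL.SQ23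

end
end
-- ==== END Fermat.Agent.S59.LL.SQ23.Defs

-- ==== BEGIN Fermat.Agent.S59.NonMin.Geom.H61_CHEBk
section

/-!
# S59, NMGEOM, leaf CHEB-k (helper61): the auxiliary primes for `ρbar`

`stmt_CHEBk : Stmt_CHEBk`: for an absolutely irreducible `ρbar` with cyclotomic determinant whose
Frobenius characteristic polynomials are given by `θ`, every modulus `M` divisible by `p` and every
finite set `S'` admit a prime `ℓ ∉ S'` in the Hecke algebra with `ℓ ≡ 1 mod M`, `q` not a `p`-th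
power mod `ℓ` and `θ(T_ℓ) ≠ 2`.

Port of `S41.H61.stmt_IhD_of` from `E[p]` to `ρbar`: Kummer theory (`S41.H41`), two-sided
Frobenius density (`Lib.FrobDensity.H47.stmt_FD2`), the group lemma D-GRP (`S41.H78`, any field
with `2 ≠ 0`), `det ρbar(c) = -1` (`S56.H13.det_complexConjugation`).
-/

set_option autoImplicit false

open Polynomial CuspForm CongruenceSubgroup IsLocalRing TensorProduct

namespace Fermat.Agent.S59.NonMin.Geom.H61

open Fermat.Agent.S59 Fermat.Agent.S59.NonMin.Geom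

/-- `ℚ̄`. -/
local notation "Qb" => AlgebraicClosure ℚ
/-- the absolute Galois group of `ℚ`. -/
local notation "GQ" => (AlgebraicClosure ℚ ≃ₐ[ℚ] AlgebraicClosure ℚ)

/-- Trace and determinant from the characteristic polynomial in rank 2. -/
theorem trace_det_of_charpoly2 {K V : Type*} [Field K] [AddCommGroup V] [Module K V]
    [Module.Finite K V] (hV : Module.finrank K V = 2) (f : Module.End K V)
    {t d : K} (h : f.charpoly = X ^ 2 - C t * X + C d) :
    LinearMap.trace K V f = t ∧ LinearMap.det f = d := by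
  rw [Fermat.Agent.R.H91.charpoly_eq_of_finrank_two hV f] at h
  have h0 := congrArg (fun q : K[X] => q.coeff 0) h
  have h1 := congrArg (fun q : K[X] => q.coeff 1) h
  simp only [coeff_add, coeff_sub, coeff_X_pow, coeff_C_mul, coeff_X_zero, coeff_X_one,
    coeff_C_zero, coeff_C_succ, mul_zero, mul_one, sub_zero, add_zero] at h0 h1
  norm_num at h0 h1
  exact ⟨h1, h0⟩

/-- An absolutely irreducible residual representation has no stable line. -/
theorem no_stable_line {k : Type} [Field k] (ρbar : ResidualGaloisRep k)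
    (habs : ρbar.IsAbsolutelyIrreducible) (v : ρbar.V) (hv0 : v ≠ 0)
    (hv : ∀ g : GQ, ∃ a : k, ρbar.ρ g v = a • v) : False := by
  set K := AlgebraicClosure k
  set w : K ⊗[k] ρbar.V := (1 : K) ⊗ₜ[k] v with hw
  have hw0 : w ≠ 0 := by
    intro h0
    have hinj : Function.Injective (TensorProduct.mk k K ρbar.V 1) :=
      Module.Flat.tensorProduct_mk_injective (R := k) (S := K) (M := ρbar.V)
    exact hv0 (hinj (by simpa [hw] using h0))
  have hst : ∀ σ : GQ, ∀ x ∈ Submodule.span K {w}, (ρbar.baseChange K).ρ σ x ∈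
      Submodule.span K {w} := by
    intro σ x hx
    obtain ⟨c, rfl⟩ := Submodule.mem_span_singleton.mp hx
    obtain ⟨a, ha⟩ := hv σ
    have h1 : (ρbar.baseChange K).ρ σ w = (algebraMap k K a) • w := by
      show (ρbar.ρ σ).baseChange K ((1 : K) ⊗ₜ[k] v) = _
      rw [LinearMap.baseChange_tmul, ha, hw, TensorProduct.tmul_smul, algebraMap_smul]
    rw [map_smul, h1, smul_smul]
    exact Submodule.smul_mem _ _ (Submodule.mem_span_singleton_self w)
  rcases habs _ hst with h0 | h1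
  · apply hw0
    have : w ∈ Submodule.span K {w} := Submodule.mem_span_singleton_self w
    rw [h0] at this
    exact (Submodule.mem_bot _).mp this
  · have h2 : Module.finrank K (Submodule.span K {w}) = 1 := finrank_span_singleton hw0
    rw [h1, finrank_top, (ρbar.baseChange K).finrank_eq] at h2
    exact absurd h2 (by norm_num)

/-- **CHEB-k**, core: the prime `q` may be equal to `p`. -/
theorem chebk_core (𝒪 : Type) [CommRing 𝒪] [IsDomain 𝒪] [IsDiscreteValuationRing 𝒪]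
    [Finite (ResidueField 𝒪)] (p : ℕ) [Fact p.Prime] (hp2 : p ≠ 2)
    (ρbar : ResidualGaloisRep (ResidueField 𝒪)) (Smin : Finset ℕ) (hres : ResHyp p ρbar Smin)
    (N : ℕ) [NeZero N] (S : Finset ℕ)
    (θ : CuspForm.heckeAlgebra N 2 (↑S : Set ℕ) →+* ResidueField 𝒪)
    (hθ : Fermat.Agent.S59.Datum.FrobHyp ρbar N S θ)
    (q : ℕ) (hq : q.Prime) (M : ℕ) (hM : 0 < M) (hpM : p ∣ M) (S' : Finset ℕ) :
    ∃ (ℓ : ℕ) (hℓ : ℓ.Prime) (hℓN : ¬ ℓ ∣ N) (hℓS : ℓ ∉ (↑S : Set ℕ)), ℓ ∉ S' ∧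
      ℓ % M = 1 % M ∧ (q : ZMod ℓ) ^ ((ℓ - 1) / p) ≠ 1 ∧
      θ (CuspForm.heckeAlgebra.T hℓ hℓN hℓS) ≠ 2 := by
  classical
  by_contra hcon
  have hcon' : ∀ (ℓ : ℕ) (hℓ : ℓ.Prime) (hℓN : ¬ ℓ ∣ N) (hℓS : ℓ ∉ (↑S : Set ℕ)), ℓ ∉ S' →
      ℓ % M = 1 % M → (q : ZMod ℓ) ^ ((ℓ - 1) / p) ≠ 1 →
      θ (CuspForm.heckeAlgebra.T hℓ hℓN hℓS) = 2 := by
    intro ℓ hℓ hℓN hℓS h1 h2 h3
    by_contra h4
    exact hcon ⟨ℓ, hℓ, hℓN, hℓS, h1, h2, h3, h4⟩
  have hp : p.Prime := Fact.out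
  have hpk : (p : ResidueField 𝒪) = 0 := by
    have := hres.hdet.1
    rwa [IsLocalRing.maximalIdeal_eq_bot, Ideal.mem_bot] at this
  have h2k : (2 : ResidueField 𝒪) ≠ 0 := Fermat.Agent.S56.H13.two_ne_zero_of p hp2 hpk
  have hfr : Module.finrank (ResidueField 𝒪) ρbar.V = 2 := ρbar.finrank_eq
  obtain ⟨L₀, hL₀, hρ1⟩ := ρbar.factorsThroughFiniteLevel
  -- roots
  have : NeZero M := ⟨hM.ne'⟩
  obtain ⟨ζ, hζ⟩ := HasEnoughRootsOfUnity.exists_primitiveRoot Qb M
  obtain ⟨y, hy⟩ := IsAlgClosed.exists_pow_nat_eq ((q : ℕ) : Qb) (n := p) hp.pos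
  -- the subgroup `H`
  set H : Subgroup GQ := MulAction.stabilizer GQ ζ with hH
  have hHmem : ∀ g : GQ, g ∈ H ↔ g ζ = ζ := fun g => by
    rw [hH, MulAction.mem_stabilizer_iff, AlgEquiv.smul_def]
  have hHcomm : ∀ g g' : GQ, g * g' * g⁻¹ * g'⁻¹ ∈ H := fun g g' =>
    (hHmem _).mpr (Fermat.Agent.S41.H61.commutator_fix_root hM hζ g g')
  obtain ⟨κ, hκ⟩ := Fermat.Agent.S41.H41.stmt_KumHom p q M hp hq hM hpM ζ y hζ hy H
    (fun g hg => (hHmem g).mp hg)
  -- the field `L`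
  set L₁ : IntermediateField ℚ Qb := IntermediateField.adjoin ℚ ({ζ, y} : Set Qb) with hL₁
  have halg : Algebra.IsAlgebraic ℚ Qb := AlgebraicClosure.isAlgebraic ℚ
  have hL₁fd : FiniteDimensional ℚ L₁ :=
    IntermediateField.finiteDimensional_adjoin
      (fun x _ => (Algebra.IsAlgebraic.isAlgebraic x).isIntegral)
  have hζL : ζ ∈ L₀ ⊔ L₁ :=
    (le_sup_right : L₁ ≤ L₀ ⊔ L₁) (IntermediateField.subset_adjoin ℚ _ (by simp))
  have hyL : y ∈ L₀ ⊔ L₁ :=
    (le_sup_right : L₁ ≤ L₀ ⊔ L₁) (IntermediateField.subset_adjoin ℚ _ (by simp))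
  have hLfd : FiniteDimensional ℚ ↥(L₀ ⊔ L₁) := by
    have := hL₀
    have := hL₁fd
    infer_instance
  -- the bad set
  have hN0 : N ≠ 0 := NeZero.ne N
  set S'' : Finset ℕ := S' ∪ S ∪ (M * p * q * N).primeFactors with hS''
  have hne : M * p * q * N ≠ 0 :=
    mul_ne_zero (mul_ne_zero (mul_ne_zero hM.ne' hp.ne_zero) hq.ne_zero) hN0
  have hgood : ∀ ℓ : ℕ, ℓ.Prime → ℓ ∉ S'' →
      ℓ ∉ S' ∧ ℓ ∉ (↑S : Set ℕ) ∧ ¬ ℓ ∣ N ∧ ¬ ℓ ∣ M ∧ ℓ ≠ p ∧ ℓ ≠ q := by
    intro ℓ hℓ hℓS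
    rw [hS'', Finset.mem_union, Finset.mem_union, not_or, not_or] at hℓS
    have hnd : ¬ ℓ ∣ M * p * q * N := fun hd =>
      hℓS.2 (by rw [Nat.mem_primeFactors]; exact ⟨hℓ, hd, hne⟩)
    refine ⟨hℓS.1.1, fun h => hℓS.1.2 (Finset.mem_coe.mp h), ?_, ?_, ?_, ?_⟩
    · intro hd
      exact hnd (Dvd.dvd.mul_left hd _)
    · intro hd
      exact hnd (Dvd.dvd.mul_right (Dvd.dvd.mul_right (Dvd.dvd.mul_right hd p) q) _)
    · intro hd
      apply hnd
      rw [hd]
      exact Dvd.dvd.mul_right (Dvd.dvd.mul_right (dvd_mul_left p M) q) _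
    · intro hd
      apply hnd
      rw [hd]
      exact Dvd.dvd.mul_right (dvd_mul_left q (M * p)) _
  -- unipotence on `D`
  have hunip : ∀ g : H, κ g ≠ 1 →
      LinearMap.trace (ResidueField 𝒪) ρbar.V (ρbar.ρ g) = 2 ∧
        LinearMap.det (ρbar.ρ (g : GQ)) = 1 := by
    intro g hg
    have hgy : (g : GQ) y ≠ y := fun h => hg ((hκ g).mpr h)
    have hgζ : (g : GQ) ζ = ζ := (hHmem _).mp g.2
    obtain ⟨ℓ, A, σ, j, j', hℓ, hℓS, hA, hσ, hσj, hgj⟩ :=
      Fermat.Agent.Lib.FrobDensity.H47.stmt_FD2 S'' (L₀ ⊔ L₁) hLfd g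
    obtain ⟨hℓS', hℓS0, hℓN, hℓM, hℓp, hℓq⟩ := hgood ℓ hℓ hℓS
    have hσζ : σ ζ = ζ := by
      rw [← hgj ζ hζL]
      exact Fermat.Agent.S41.H61.pow_apply_of_fix _ _ hgζ j'
    have hσy : σ y ≠ y := by
      intro h
      apply hgy
      rw [← hσj y hyL]
      exact Fermat.Agent.S41.H61.pow_apply_of_fix _ _ h j
    have hmod : ℓ % M = 1 % M :=
      Fermat.Agent.S41.H41.stmt_KumB1 ℓ M hℓ hM hℓM A σ hA hσ ζ hζ hσζ
    have hMdvd : M ∣ ℓ - 1 := (Nat.modEq_iff_dvd' hℓ.one_le).mp (Nat.ModEq.symm hmod)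
    have hpdvd : p ∣ ℓ - 1 := dvd_trans hpM hMdvd
    have hkum : (q : ZMod ℓ) ^ ((ℓ - 1) / p) ≠ 1 :=
      Fermat.Agent.S41.H41.stmt_KumB2 ℓ p q hℓ hp hq hℓp hℓq hpdvd A σ hA hσ y hy hσy
    have hap : θ (CuspForm.heckeAlgebra.T hℓ hℓN hℓS0) = 2 :=
      hcon' ℓ hℓ hℓN hℓS0 hℓS' hmod hkum
    have hchar := hθ ℓ hℓ hℓN hℓS0 A hA σ hσ
    obtain ⟨htr, hdet⟩ := trace_det_of_charpoly2 hfr (ρbar.ρ σ) hchar
    have hℓ1 : (ℓ : ResidueField 𝒪) = 1 := by
      obtain ⟨c, hc⟩ := hpdvd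
      have h1 : ℓ = p * c + 1 := by
        have := hℓ.one_le
        omega
      rw [h1]
      push_cast
      rw [hpk]
      ring
    have hρg : ρbar.ρ (g : GQ) = ρbar.ρ σ ^ j := by
      rw [← map_pow]
      exact (Fermat.Agent.L.H52.map_eq_of_agree ρbar.ρ L₀ hρ1
        (fun x hx => hσj x ((le_sup_left : L₀ ≤ L₀ ⊔ L₁) hx))).symm
    rw [hρg]
    apply Fermat.Agent.S41.H61.unip_pow_end hfr
    · rw [htr, hap]
    · rw [hdet, hℓ1]
  -- `D` is not empty
  obtain ⟨s₀, hs₀ζ, hs₀y⟩ := Fermat.Agent.S41.H41.stmt_KumA p q M hp hp2 hq hM hpM ζ y hζ hy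
  have hex : ∃ s : H, κ s ≠ 1 :=
    ⟨⟨s₀, (hHmem _).mpr hs₀ζ⟩, fun h => hs₀y ((hκ ⟨s₀, (hHmem _).mpr hs₀ζ⟩).mp h)⟩
  -- the stable line
  obtain ⟨v, hv0, hv⟩ := Fermat.Agent.S41.H78.stmt_DGRP (ResidueField 𝒪) h2k ρbar.V hfr GQ
    ρbar.ρ H hHcomm (Multiplicative (ZMod p)) κ
    (fun g hg => Fermat.Agent.S41.H61.mul_self_eq_one_zmod hp2 _ hg) hex hunip
    ⟨complexConjugation, complexConjugation_mul_self,
      Fermat.Agent.S56.H13.det_complexConjugation p ρbar hres.hdet⟩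
  exact no_stable_line ρbar hres.habs v hv0 hv

/-- **CHEB-k**. -/
theorem stmt_CHEBk : Stmt_CHEBk := by
  intro 𝒪 _ _ _ _ p _ hp2 _ ρbar Smin hres N _ S θ hθ q hq _ M hM hpM S'
  exact chebk_core 𝒪 p hp2 ρbar Smin hres N S θ hθ q hq M hM hpM S'

end Fermat.Agent.S59.NonMin.Geom.H61

end
-- ==== END Fermat.Agent.S59.NonMin.Geom.H61_CHEBk

-- ==== BEGIN Fermat.Agent.S59.NonMin.Geom.H92_B0Final
section

set_option autoImplicit false

namespace Fermat.Agent.S59.NonMin.Geom.H92B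

open Fermat.Agent.NEB.Geom

/-- **B0** from the coordinates of `J₀(N)[p^∞]`. -/
theorem stmt_TWGEOMB_of_coord (hC : Stmt_B0COORD) : Fermat.Agent.S59.NonMin.Geom.Stmt_TWGEOMB :=
  Fermat.Agent.S59.NonMin.Geom.H30B.stmt_B0TOP stmt_A_MIN stmt_A_SETUP H84.stmt_A_R0
    Fermat.Agent.NEB.Geom.H9.stmt_A_GAL Fermat.Agent.NEB.Geom.H29.stmt_A_ES stmt_A_HSTEP
    stmt_A_PI stmt_A_FROBNIL stmt_A_LG (stmt_B0BETTI_of hC)

end Fermat.Agent.S59.NonMin.Geom.H92B

end
-- ==== END Fermat.Agent.S59.NonMin.Geom.H92_B0Final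

-- ==== BEGIN Fermat.Agent.S59.NonMin.Geom.Rank.H11_UInj
section

/-!
# S59 / NMGEOM / RANK, stage 2 (P-RANK), leaf U-INJ (helper11)

`U_p` of level `N p` (`p ∤ N`) is injective on `Hom(Γ₀(N p), A)` for every abelian group `A`
without `p`-torsion.

Proof: if `U φ = 0` then `p • c₂ φ = c₁ (U φ) = 0`, so `c₂ φ = 0`, and
`c₁ φ = T (c₂ φ) - c₂ (U φ) = 0` (the two relations of `CaseC.Geom.Stmt_PREL` for `ψ`); a class
killed by both trace maps satisfies `U (U φ) = φ` (`S41.H39.al_main`), hence `φ = U 0 = 0`.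

* `uinj_of   : Stmt_UINJ_of` (from `Stmt_PREL`);
* `stmt_UINJ : Stmt_UINJ` (unconditional, with helper92's `stmt_PREL`).
-/

set_option autoImplicit false

open CongruenceSubgroup

namespace Fermat.Agent.S59.NonMin.Geom.Rank.H11

open Fermat.Agent.Betti Fermat.Agent.S41 Fermat.Agent.S59.NonMin.Geom.Rank

/-- The trace maps kill `0`. -/
theorem cor1_zero_h11 (N q : ℕ) (A : Type*) [AddCommGroup A] :
    cor1 N q A (0 : Additive (Gamma0 (N * q)) →+ A) = 0 := by
  have h := Fermat.Agent.S41.H19.corAlong_add (A := A) (inclG N q) 0 0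
  rw [add_zero] at h
  exact left_eq_add.mp h

/-- The trace maps kill `0`. -/
theorem cor2_zero_h11 (N q : ℕ) (A : Type*) [AddCommGroup A] :
    cor2 N q A (0 : Additive (Gamma0 (N * q)) →+ A) = 0 := by
  have h := Fermat.Agent.S41.H19.corAlong_add (A := A) (conjG N q) 0 0
  rw [add_zero] at h
  exact left_eq_add.mp h

/-- **U-INJ** from the relations P-REL. -/
theorem uinj_of : Stmt_UINJ_of := by
  intro hPREL N p _ _ hp hpN hd A _ hA φ hU
  obtain ⟨-, hψ⟩ := hPREL N p hp hpN hd A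
  obtain ⟨h1, h2⟩ := hψ φ
  have hN : 0 < N := Nat.pos_of_ne_zero (NeZero.ne N)
  rw [hU, cor1_zero_h11] at h1
  rw [hU, cor2_zero_h11] at h2
  -- `c₂ φ = 0`
  have hc2 : cor2 N p A φ = 0 := by
    refine AddMonoidHom.ext fun x => hA _ ?_
    have h := DFunLike.congr_fun h1 x
    exact h.symm
  -- `c₁ φ = 0`
  have hc1 : cor1 N p A φ = 0 := by
    rw [hc2, map_zero, zero_sub] at h2
    exact neg_eq_zero.mp h2.symm
  have h := Fermat.Agent.S41.H39.al_main hN hp hpN hd φ hc1 hc2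
  rw [hU, map_zero] at h
  exact h.symm

/-- **U-INJ**, unconditional. -/
theorem stmt_UINJ : Stmt_UINJ :=
  uinj_of Fermat.Agent.S59.CaseC.Geom.H92.stmt_PREL

end Fermat.Agent.S59.NonMin.Geom.Rank.H11

end
-- ==== END Fermat.Agent.S59.NonMin.Geom.Rank.H11_UInj

-- ==== BEGIN Fermat.Agent.S59.NonMin.H12_BaseCore
section

/-!
# S59 RT-NONMIN, leaf BASE (helper12): the abstract core

`φ : R ↠ T`, `T` finite free over the complete discrete valuation ring `𝒪`, `V` a `T`-module,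
finite free over `𝒪`, and free and nontrivial over `R`; `R = 𝒪⟦X_1..X_r⟧/(g_1..g_r)`;
`π : T → 𝒪` with `η = π (Ann (ker π)) ≠ 0`.  Then (`base_core`)

* `φ` is bijective;
* with `d = rank_R V > 0`: `rank_𝒪 V[𝔭] = d`, `Φ_R` is finite and `(#Φ_R)^d = #Ω(V)`.
-/

set_option autoImplicit false
set_option linter.style.haveILetI false
set_option linter.unusedSectionVars false

open Module

namespace Fermat.Agent.S59.NonMin.H12

open Fermat.Agent.S59.NumCrit

/-- a free nontrivial module is faithful. -/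
theorem eq_zero_of_forall_smul_eq_zero {R V : Type*} [CommRing R] [AddCommGroup V] [Module R V]
    [Module.Free R V] [Nontrivial V] (a : R) (h : ∀ v : V, a • v = 0) : a = 0 := by
  classical
  let b := Module.Free.chooseBasis R V
  obtain ⟨i⟩ := b.index_nonempty
  have h1 := congrArg (fun x => b.repr x i) (h (b i))
  simp only [map_smul, Module.Basis.repr_self, Finsupp.smul_apply, Finsupp.single_eq_same,
    smul_eq_mul, mul_one, map_zero, Finsupp.zero_apply] at h1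
  exact h1

section eta

variable {𝒪 R T : Type*} [CommRing 𝒪] [CommRing R] [Algebra 𝒪 R] [CommRing T] [Algebra 𝒪 T]

/-- the congruence ideal is invariant under isomorphisms. -/
theorem eta_comp_of_bijective (φ : R →ₐ[𝒪] T) (hφ : Function.Bijective φ) (π : T →ₐ[𝒪] 𝒪) :
    eta (π.comp φ) = eta π := by
  ext a
  rw [H90.mem_eta_iff, H90.mem_eta_iff]
  constructor
  · rintro ⟨x, hx, rfl⟩
    refine ⟨φ x, ?_, rfl⟩
    rw [Submodule.mem_annihilator]
    intro t ht
    obtain ⟨y, rfl⟩ := hφ.2 t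
    have hy : y ∈ RingHom.ker (π.comp φ) := by
      rw [RingHom.mem_ker] at ht ⊢
      exact ht
    have := Submodule.mem_annihilator.mp hx y hy
    rw [smul_eq_mul] at this ⊢
    rw [← map_mul, this, map_zero]
  · rintro ⟨t, ht, rfl⟩
    obtain ⟨x, rfl⟩ := hφ.2 t
    refine ⟨x, ?_, rfl⟩
    rw [Submodule.mem_annihilator]
    intro y hy
    have hy' : φ y ∈ RingHom.ker π := by
      rw [RingHom.mem_ker] at hy ⊢
      exact hy
    have := Submodule.mem_annihilator.mp ht (φ y) hy'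
    rw [smul_eq_mul] at this ⊢
    apply hφ.1
    rw [map_mul, this, map_zero]

end eta

section rank

variable {𝒪 T V : Type*} [CommRing 𝒪] [IsDomain 𝒪] [CommRing T] [Algebra 𝒪 T]
  [Module.Free 𝒪 T] [AddCommGroup V] [Module 𝒪 V] [Module T V] [IsScalarTower 𝒪 T V]
  {π : T →ₐ[𝒪] 𝒪}

/-- `𝔭 ∩ Ann 𝔭 = 0` when `η ≠ 0` and `T` is torsion-free. -/
theorem eq_zero_of_mem_ann_of_mem_ker {i : T} (hi : i ∈ (RingHom.ker π).annihilator)
    (hi0 : π i ≠ 0) {t : T} (ht : t ∈ (RingHom.ker π).annihilator) (ht0 : π t = 0) : t = 0 := by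
  have h1 : (algebraMap 𝒪 T (π i) - i) * t = 0 := by
    have h := Submodule.mem_annihilator.mp ht (i - algebraMap 𝒪 T (π i))
      (H12.sub_algebraMap_mem_ker (π := π) i)
    rw [smul_eq_mul] at h
    rw [← neg_sub, neg_mul, mul_comm, h, neg_zero]
  have h2 : i * t = 0 := by
    have h := Submodule.mem_annihilator.mp hi t (RingHom.mem_ker.mpr ht0)
    rw [smul_eq_mul] at h
    exact h
  have h3 : π i • t = 0 := by
    rw [Algebra.smul_def]
    have : algebraMap 𝒪 T (π i) * t = (algebraMap 𝒪 T (π i) - i) * t + i * t := by ring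
    rw [this, h1, h2, add_zero]
  rcases smul_eq_zero.mp h3 with h | h
  · exact absurd h hi0
  · exact h

/-- for `i ∈ Ann 𝔭`: `t i = π(t) i`. -/
theorem mul_eq_smul_of_mem_ann {i : T} (hi : i ∈ (RingHom.ker π).annihilator) (t : T) :
    t * i = π t • i := by
  have h := Submodule.mem_annihilator.mp hi (t - algebraMap 𝒪 T (π t))
    (H12.sub_algebraMap_mem_ker (π := π) t)
  rw [smul_eq_mul, mul_sub, sub_eq_zero] at h
  rw [Algebra.smul_def, mul_comm, h, mul_comm]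

/-- the rank of `V[𝔭]` for `V ≅ T^d`. -/
theorem finrank_torsionBySet_ker [Module.Finite 𝒪 V] [IsNoetherianRing 𝒪] (hη : eta π ≠ ⊥)
    (d : ℕ) (E : V ≃ₗ[T] (Fin d → T)) :
    Module.finrank 𝒪
      ((Submodule.torsionBySet T V (RingHom.ker π : Set T)).restrictScalars 𝒪) = d := by
  classical
  obtain ⟨e, he, he0⟩ := Submodule.exists_mem_ne_zero_of_ne_bot hη
  obtain ⟨i, hi, rfl⟩ := H90.mem_eta_iff.mp he
  set N : Submodule 𝒪 V :=
    (Submodule.torsionBySet T V (RingHom.ker π : Set T)).restrictScalars 𝒪 with hN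
  have hmemN : ∀ v : V, v ∈ N ↔ ∀ t ∈ RingHom.ker π, t • v = 0 := by
    intro v
    rw [hN, Submodule.restrictScalars_mem, Submodule.mem_torsionBySet_iff]
    exact ⟨fun h t ht => h ⟨t, ht⟩, fun h t => h t.1 t.2⟩
  let E𝒪 : V ≃ₗ[𝒪] (Fin d → T) := E.restrictScalars 𝒪
  have hE𝒪 : ∀ v, E𝒪 v = E v := fun _ => rfl
  -- `N → 𝒪^d`
  let g : N →ₗ[𝒪] (Fin d → 𝒪) :=
    (LinearMap.pi fun j => (π.toLinearMap).comp (LinearMap.proj j)).comp
      (E𝒪.toLinearMap.comp N.subtype)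
  have hg : ∀ (v : N) (j : Fin d), g v j = π (E v j) := fun _ _ => rfl
  have hginj : Function.Injective g := by
    rw [← LinearMap.ker_eq_bot, LinearMap.ker_eq_bot']
    intro v hv
    apply Subtype.ext
    apply E.injective
    rw [ZeroMemClass.coe_zero, map_zero]
    funext j
    have h1 : π (E v j) = 0 := by rw [← hg, hv]; rfl
    have h2 : E (v : V) j ∈ (RingHom.ker π).annihilator := by
      rw [Submodule.mem_annihilator]
      intro t ht
      have h3 := (hmemN v).mp v.2 t ht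
      have h4 : t • E (v : V) = 0 := by rw [← map_smul, h3, map_zero]
      have h5 := congrFun h4 j
      rw [Pi.smul_apply] at h5
      rw [smul_eq_mul, mul_comm]
      rw [smul_eq_mul, mul_comm] at h5
      rw [mul_comm]
      exact h5
    exact eq_zero_of_mem_ann_of_mem_ker hi he0 h2 h1
  -- `𝒪^d → N`
  have hmem : ∀ c : Fin d → 𝒪, E.symm (fun j => c j • i) ∈ N := by
    intro c
    rw [hmemN]
    intro t ht
    rw [← map_smul]
    have : t • (fun j => c j • i) = (0 : Fin d → T) := by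
      funext j
      rw [Pi.smul_apply, smul_eq_mul, Pi.zero_apply, mul_smul_comm, mul_eq_smul_of_mem_ann hi t,
        RingHom.mem_ker.mp ht, zero_smul, smul_zero]
    rw [this, map_zero]
  let h : (Fin d → 𝒪) →ₗ[𝒪] N :=
    { toFun := fun c => ⟨E.symm (fun j => c j • i), hmem c⟩
      map_add' := fun c c' => by
        apply Subtype.ext
        show E.symm (fun j => (c + c') j • i) = E.symm (fun j => c j • i) + E.symm (fun j => c' j • i)
        rw [← map_add]
        congr 1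
        funext j
        rw [Pi.add_apply, Pi.add_apply, add_smul]
      map_smul' := fun a c => by
        apply Subtype.ext
        show E.symm (fun j => (a • c) j • i) = a • E.symm (fun j => c j • i)
        have h1 : (fun j => (a • c) j • i) = a • (fun j => c j • i) := by
          funext j
          rw [Pi.smul_apply, Pi.smul_apply, smul_eq_mul, mul_smul]
        rw [h1]
        exact (E𝒪.symm.map_smul a _) }
  have hh : ∀ c, ((h c : N) : V) = E.symm (fun j => c j • i) := fun _ => rfl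
  have hhinj : Function.Injective h := by
    rw [← LinearMap.ker_eq_bot, LinearMap.ker_eq_bot']
    intro c hc
    have h1 : E.symm (fun j => c j • i) = 0 := by rw [← hh, hc]; rfl
    have h2 : (fun j => c j • i) = (0 : Fin d → T) := by
      apply E.symm.injective
      rw [h1, map_zero]
    funext j
    have h3 := congrArg π (congrFun h2 j)
    rw [Pi.zero_apply, map_zero, map_smul, smul_eq_mul] at h3
    rcases mul_eq_zero.mp h3 with h4 | h4
    · exact h4
    · exact absurd h4 he0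
  apply le_antisymm
  · have := LinearMap.finrank_le_finrank_of_injective hginj
    rwa [Module.finrank_fin_fun] at this
  · have := LinearMap.finrank_le_finrank_of_injective hhinj
    rwa [Module.finrank_fin_fun] at this

end rank

end Fermat.Agent.S59.NonMin.H12

namespace Fermat.Agent.S59.NonMin.H12

open Fermat.Agent.S59.NumCrit

/-- **BASE, abstract core.** -/
theorem base_core {𝒪 R T V : Type*} [CommRing 𝒪] [IsDomain 𝒪] [IsDiscreteValuationRing 𝒪]
    [IsAdicComplete (IsLocalRing.maximalIdeal 𝒪) 𝒪] [Finite (IsLocalRing.ResidueField 𝒪)]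
    [CommRing R] [Algebra 𝒪 R] [CommRing T] [Algebra 𝒪 T] [Module.Finite 𝒪 T] [Module.Free 𝒪 T]
    [AddCommGroup V] [Module 𝒪 V] [Module.Finite 𝒪 V]
    [Module T V] [IsScalarTower 𝒪 T V] [Module R V] [Module.Free R V] [Nontrivial V]
    (φ : R →ₐ[𝒪] T) (hφ : Function.Surjective φ) (hRT : ∀ (a : R) (v : V), a • v = φ a • v)
    (π : T →ₐ[𝒪] 𝒪) (hη : eta π ≠ ⊥)
    (r : ℕ) (γ : MvPowerSeries (Fin r) 𝒪 →ₐ[𝒪] R) (g : Fin r → MvPowerSeries (Fin r) 𝒪)
    (hγ : Function.Surjective γ) (hg : RingHom.ker γ = Ideal.span (Set.range g)) :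
    Function.Bijective φ ∧ ∃ d : ℕ, 0 < d ∧
      Module.finrank 𝒪
        ((Submodule.torsionBySet T V (RingHom.ker π : Set T)).restrictScalars 𝒪) = d ∧
      Finite (RingHom.ker (π.comp φ)).Cotangent ∧
      Nat.card (RingHom.ker (π.comp φ)).Cotangent ^ d = Nat.card (V ⧸ H90.omegaSub π V) := by
  classical
  -- `φ` is injective
  have hinj : Function.Injective φ := by
    rw [injective_iff_map_eq_zero]
    intro a ha
    apply eq_zero_of_forall_smul_eq_zero (V := V) a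
    intro v
    rw [hRT, ha, zero_smul]
  have hbij : Function.Bijective φ := ⟨hinj, hφ⟩
  refine ⟨hbij, ?_⟩
  -- `R` is finite free over `𝒪`
  let eφ : R ≃ₐ[𝒪] T := AlgEquiv.ofBijective φ hbij
  haveI : Module.Finite 𝒪 R := Module.Finite.equiv eφ.symm.toLinearEquiv
  haveI : Module.Free 𝒪 R := Module.Free.of_equiv eφ.symm.toLinearEquiv
  -- NC2
  have hnc2 := H90.nc2_complete γ hγ (π.comp φ) g hg
  rw [eta_comp_of_bijective φ hbij π] at hnc2
  -- `𝒪 / η` is finite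
  have hfinI : Finite (𝒪 ⧸ eta π) := by
    obtain ⟨e, he⟩ : ∃ e : 𝒪, eta π = Ideal.span {e} :=
      (IsPrincipalIdealRing.principal (eta π)).principal
    have he0 : e ≠ 0 := by
      rintro rfl
      apply hη
      rw [he]
      exact Ideal.span_singleton_eq_bot.mpr rfl
    obtain ⟨k, -, hk⟩ := H8.exists_card_span_singleton he0
    apply Nat.finite_of_card_ne_zero
    rw [he, hk]
    apply pow_ne_zero
    haveI : Finite (𝒪 ⧸ IsLocalRing.maximalIdeal 𝒪) :=
      inferInstanceAs (Finite (IsLocalRing.ResidueField 𝒪))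
    exact Nat.card_pos.ne'
  have hfinΦ : Finite (RingHom.ker (π.comp φ)).Cotangent := by
    apply Nat.finite_of_card_ne_zero
    rw [hnc2]
    exact Nat.card_pos.ne'
  -- a basis of `V` over `T`
  haveI : IsScalarTower 𝒪 R V := ⟨fun a x v => by
    rw [hRT, map_smul, smul_assoc, ← hRT]⟩
  haveI : Module.Finite R V := Module.Finite.of_restrictScalars_finite 𝒪 R V
  let ι := Module.Free.ChooseBasisIndex R V
  let b : Module.Basis ι R V := Module.Free.chooseBasis R V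
  let d := Fintype.card ι
  let b' : Module.Basis (Fin d) R V := b.reindex (Fintype.equivFin ι)
  let bT : Module.Basis (Fin d) T V := b'.mapCoeffs (RingEquiv.ofBijective φ hbij)
    (fun c x => (hRT c x).symm)
  let E : V ≃ₗ[T] (Fin d → T) := bT.equivFun
  have hd : 0 < d := by
    obtain ⟨i⟩ := b.index_nonempty
    exact Fintype.card_pos_iff.mpr ⟨i⟩
  refine ⟨d, hd, finrank_torsionBySet_ker hη d E, hfinΦ, ?_⟩
  rw [hnc2]
  exact (H90.card_omega_of_free d E hη).symm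

end Fermat.Agent.S59.NonMin.H12

end
-- ==== END Fermat.Agent.S59.NonMin.H12_BaseCore

-- ==== BEGIN Fermat.Agent.S59.NonMin.H56_PeuFlat
section

set_option autoImplicit false

namespace Fermat.Agent.S59.NonMin.H56K

/-- **PEUFLAT**: an ordinary representation with cyclotomic determinant which is trivial on the
peu ramifié inertia is flat at `p`. -/
theorem stmt_PEUFLAT : Fermat.Agent.S59.NonMin.Stmt_PEUFLAT :=
  Fermat.Agent.S59.NonMin.H92P.peuflat_of_kcore stmt_KCore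

end Fermat.Agent.S59.NonMin.H56K

end
-- ==== END Fermat.Agent.S59.NonMin.H56_PeuFlat

-- ==== BEGIN Fermat.Agent.S59.NonMin.H80_SelmerPMat
section

set_option autoImplicit false
set_option linter.unusedSectionVars false
set_option linter.style.haveILetI false

open IsLocalRing

namespace Fermat.Agent.S59.NonMin.H80

open Fermat.Agent.S53

section line

variable {A : Type} [CommRing A] {V : Type} [AddCommGroup V] [Module A V]
  (b : Module.Basis (Fin 2) A V)

theorem mem_span_iff (v : V) : v ∈ Submodule.span A {b 0} ↔ b.repr v 1 = 0 := by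
  constructor
  · intro hv
    obtain ⟨a, rfl⟩ := Submodule.mem_span_singleton.1 hv
    rw [map_smul, Finsupp.smul_apply, Module.Basis.repr_self, Finsupp.single_apply,
      if_neg (by decide), smul_zero]
  · intro hv
    have h1 := b.sum_repr v
    rw [Fin.sum_univ_two, hv, zero_smul, add_zero] at h1
    rw [← h1]
    exact Submodule.smul_mem _ _ (Submodule.mem_span_singleton_self _)

theorem repr_apply_one (f : Module.End A V) (v : V) :
    b.repr (f v) 1 = LinearMap.toMatrix b b f 1 0 * b.repr v 0 +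
      LinearMap.toMatrix b b f 1 1 * b.repr v 1 := by
  have h := congrFun (LinearMap.toMatrix_mulVec_repr b b f v) 1
  rw [← h, Matrix.mulVec, dotProduct, Fin.sum_univ_two]

theorem stable_iff (f : Module.End A V) :
    (∀ v ∈ Submodule.span A {b 0}, f v ∈ Submodule.span A {b 0}) ↔
      LinearMap.toMatrix b b f 1 0 = 0 := by
  constructor
  · intro h
    have h1 := (mem_span_iff b _).1 (h (b 0) (Submodule.mem_span_singleton_self _))
    rw [LinearMap.toMatrix_apply]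
    exact h1
  · intro h v hv
    rw [mem_span_iff] at hv ⊢
    rw [repr_apply_one, h, hv, zero_mul, mul_zero, add_zero]

theorem unip_iff (f : Module.End A V) :
    (∀ v, f v - v ∈ Submodule.span A {b 0}) ↔
      LinearMap.toMatrix b b f 1 0 = 0 ∧ LinearMap.toMatrix b b f 1 1 = 1 := by
  constructor
  · intro h
    have h0 := (mem_span_iff b _).1 (h (b 0))
    have h1 := (mem_span_iff b _).1 (h (b 1))
    rw [map_sub, Finsupp.sub_apply, Module.Basis.repr_self, Finsupp.single_apply,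
      if_neg (by decide), sub_zero] at h0
    rw [map_sub, Finsupp.sub_apply, Module.Basis.repr_self, Finsupp.single_apply,
      if_pos rfl, sub_eq_zero] at h1
    exact ⟨by rw [LinearMap.toMatrix_apply]; exact h0, by rw [LinearMap.toMatrix_apply]; exact h1⟩
  · rintro ⟨h0, h1⟩ v
    rw [mem_span_iff, map_sub, Finsupp.sub_apply, repr_apply_one, h0, h1, zero_mul, zero_add,
      one_mul, sub_self]

end line

/-- Ordinary representations are stable under base change. -/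
theorem isOrdinaryAt_baseChangeAlong {A B : Type} [CommRing A] [IsLocalRing A] [CommRing B]
    [IsLocalRing B] (φ : A →+* B) (hφ : IsLocalHom φ) (ρ : GaloisRepAdic A) (p : ℕ)
    (h : ρ.IsOrdinaryAt p) : (ρ.baseChangeAlong φ hφ).IsOrdinaryAt p := by
  intro P hP
  obtain ⟨L, ⟨b, hL⟩, hstab, hin⟩ := h P hP
  subst hL
  obtain ⟨bB, hbB⟩ := IsMatOf.baseChangeAlong φ hφ
    (⟨b, fun σ => rfl⟩ : IsMatOf ρ (fun σ => LinearMap.toMatrix b b (ρ.ρ σ)))
  have hbB' : ∀ σ i j, LinearMap.toMatrix bB bB ((ρ.baseChangeAlong φ hφ).ρ σ) i j =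
      φ (LinearMap.toMatrix b b (ρ.ρ σ) i j) := fun σ i j => by
    rw [hbB σ]; rfl
  refine ⟨Submodule.span B {bB 0}, ⟨bB, rfl⟩, fun σ hσ => ?_, fun σ hσ => ?_⟩
  · rw [stable_iff bB, hbB', (stable_iff b _).1 (hstab σ hσ), map_zero]
  · obtain ⟨h1, h2⟩ := (unip_iff b _).1 (hin σ hσ)
    rw [unip_iff bB, hbB', hbB', h1, h2, map_zero, map_one]
    exact ⟨rfl, rfl⟩

/-- The matrix computation. -/
theorem ord_rel {R : Type} [CommRing R] (T G : Matrix (Fin 2) (Fin 2) R)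
    (hT10 : T 1 0 = 0) (hT11 : T 1 1 = 1) (hdetT : T.det = 1) (hG10 : G 1 0 = 0)
    (hdetG : G.det = 1) (hcomm : G * T = T * G) :
    T 0 0 = 1 ∧ G 0 0 * G 1 1 = 1 ∧ (G 0 0 - G 1 1) * T 0 1 = 0 := by
  rw [Matrix.det_fin_two] at hdetT hdetG
  rw [hT10, hT11, mul_zero, sub_zero, mul_one] at hdetT
  rw [hG10, mul_zero, sub_zero] at hdetG
  refine ⟨hdetT, hdetG, ?_⟩
  have h := congrFun (congrFun hcomm 0) 1
  rw [Matrix.mul_apply, Matrix.mul_apply, Fin.sum_univ_two, Fin.sum_univ_two, hT11, hdetT] at h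
  linear_combination h

section cot

variable (𝒪 : Type) [CommRing 𝒪] [IsDomain 𝒪] [IsDiscreteValuationRing 𝒪]
  [Finite (ResidueField 𝒪)] {R' : Type} [CommRing R'] [Algebra 𝒪 R'] (x' : R' →ₐ[𝒪] 𝒪)

/-- The span of the class of `w` in the cotangent space. -/
theorem span_w_card_le (w d : R') (hd : d * w = 0) (c : 𝒪) (hc : c ^ 2 = (x' d) ^ 2)
    (hc0 : c ≠ 0) :
    ∃ hw : w ∈ RingHom.ker (x' : R' →+* 𝒪),
      ∃ E : Submodule 𝒪 (RingHom.ker (x' : R' →+* 𝒪)).Cotangent,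
        (RingHom.ker (x' : R' →+* 𝒪)).toCotangent ⟨w, hw⟩ ∈ E ∧ Finite E ∧
          Nat.card E ≤ Nat.card (𝒪 ⧸ Ideal.span {c}) := by
  classical
  have hd0 : x' d ≠ 0 := by
    intro h0
    rw [h0, zero_pow two_ne_zero] at hc
    exact hc0 (pow_eq_zero_iff two_ne_zero |>.1 hc)
  have hw : w ∈ RingHom.ker (x' : R' →+* 𝒪) := by
    rw [RingHom.mem_ker]
    have h1 : x' d * x' w = 0 := by rw [← map_mul, hd, map_zero]
    exact (mul_eq_zero.1 h1).resolve_left hd0
  refine ⟨hw, ?_⟩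
  set m := (RingHom.ker (x' : R' →+* 𝒪)).toCotangent ⟨w, hw⟩ with hm
  have hkill : x' d • m = 0 := by
    rw [← Fermat.Agent.S59.Asm.H80.smul_cotangent_eq 𝒪 x' d m, hm, ← map_smul]
    have e : d • (⟨w, hw⟩ : RingHom.ker (x' : R' →+* 𝒪)) = 0 := by
      apply Subtype.ext
      change d * w = 0
      exact hd
    rw [e, map_zero]
  have hspan : Ideal.span {x' d} = Ideal.span {c} := by
    rcases sq_eq_sq_iff_eq_or_eq_neg.1 hc with h | h
    · rw [h]
    · rw [h, Ideal.span_singleton_neg]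
  have hdet : (Matrix.of (fun _ _ : Fin 1 => x' d)).det = x' d := by
    rw [Matrix.det_unique]; rfl
  obtain ⟨hfin, hcard⟩ := Fermat.Agent.S59.Asm.H2.stmt_SELqALG 𝒪 1
    (Matrix.of (fun _ _ : Fin 1 => x' d)) (by rw [hdet]; exact hd0)
    (RingHom.ker (x' : R' →+* 𝒪)).Cotangent (fun _ => m) (fun i => by
      rw [Fin.sum_univ_one]
      exact hkill)
  rw [hdet, hspan] at hcard
  exact ⟨Submodule.span 𝒪 (Set.range fun _ : Fin 1 => m),
    Submodule.subset_span ⟨(0 : Fin 1), rfl⟩, hfin, hcard⟩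

end cot

end Fermat.Agent.S59.NonMin.H80

end
-- ==== END Fermat.Agent.S59.NonMin.H80_SelmerPMat

-- ==== BEGIN Fermat.Agent.S59.NumCrit.NumCrit
section

/-!
# S59 NUMCRIT: the Wiles–Lenstra numerical criterion, consumer face

`𝒪` a discrete valuation ring with finite residue field, `P = 𝒪⟦X_1..X_n⟧`.  For an augmented
`𝒪`-algebra `π : A → 𝒪`: `Φ_A = (ker π)/(ker π)²` (`Ideal.Cotangent`), `η_A = eta π = π (Ann (ker π))`.

* `nc1` (criterion): `ψ : P ↠ R`, `φ : R ↠ T`, `π : T → 𝒪`, `π (φ (ψ X_i)) = 0`, `T` finite free over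
  `𝒪`, `Φ_R` finite and `#Φ_R ≤ #(𝒪/η_T)`  ⟹  `φ` bijective, `ker (φ ∘ ψ)` is generated by `n`
  elements, and `#Φ_T = #(𝒪/η_T)`.
* `nc1_complete`: the same for an arbitrary presentation `γ : P ↠ R` when `𝒪` is complete.
* `nc2`, `nc2_complete` (Tate; in `H90_NC2.lean`): if `ker ψ` is generated by `n` elements and `A` is
  finite free over `𝒪`, then `#Φ_A = #(𝒪/η_A)`.
* `card_eta_le_card_cotangent`: always `#(𝒪/η_T) ≤ #Φ_T` when `Φ_T` is finite.
-/

set_option autoImplicit false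

namespace Fermat.Agent.S59.NumCrit

open MvPowerSeries

section

variable {𝒪 : Type*} [CommRing 𝒪] [IsDomain 𝒪] [IsDiscreteValuationRing 𝒪]
  [Finite (IsLocalRing.ResidueField 𝒪)]
  {R T : Type*} [CommRing R] [Algebra 𝒪 R] [CommRing T] [Algebra 𝒪 T]
  [Module.Finite 𝒪 T] [Module.Free 𝒪 T] {n : ℕ}

theorem kapProp (k : Type*) [Field k] (n : ℕ) :
    H90.KapProp (MvPowerSeries (Fin n) k) (IsLocalRing.maximalIdeal _) :=
  fun xs ys hlen hx hy hxr hyr => H8.kaplansky_socle_equiv _ xs ys hlen hx hy hxr hyr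

theorem dimProp (k : Type*) [Field k] (n : ℕ) : H90.DimProp k n :=
  fun ys hlen hmem hreg => H85.exists_X_pow_mem_ofList n ys hlen hmem hreg

theorem regProp (k : Type*) [Field k] (n : ℕ) : H90.RegProp k n :=
  H90.regProp_of (kapProp k n)

theorem coreProp (k : Type*) [Field k] (n : ℕ) : H90.CoreProp k n :=
  H90.coreProp_of (kapProp k n) (dimProp k n)

/-- **NC1**, the numerical criterion of Wiles and Lenstra. -/
theorem nc1 (ψ : MvPowerSeries (Fin n) 𝒪 →ₐ[𝒪] R) (hψ : Function.Surjective ψ)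
    (φ : R →ₐ[𝒪] T) (hφ : Function.Surjective φ) (π : T →ₐ[𝒪] 𝒪)
    (hπ : ∀ i, π (φ (ψ (X i))) = 0)
    [Finite (RingHom.ker (π.comp φ)).Cotangent]
    (hcard : Nat.card (RingHom.ker (π.comp φ)).Cotangent ≤ Nat.card (𝒪 ⧸ eta π)) :
    Function.Bijective φ ∧
      (∃ g : Fin n → MvPowerSeries (Fin n) 𝒪,
        RingHom.ker (φ.comp ψ) = Ideal.span (Set.range g)) ∧
      Nat.card (RingHom.ker π).Cotangent = Nat.card (𝒪 ⧸ eta π) ∧
      Nat.card (RingHom.ker (π.comp φ)).Cotangent = Nat.card (𝒪 ⧸ eta π) :=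
  H90.nc1_of (regProp _ n) (coreProp _ n) ψ hψ φ hφ π hπ hcard

/-- **NC1** for an arbitrary presentation, `𝒪` complete. -/
theorem nc1_complete [IsAdicComplete (IsLocalRing.maximalIdeal 𝒪) 𝒪]
    (γ : MvPowerSeries (Fin n) 𝒪 →ₐ[𝒪] R) (hγ : Function.Surjective γ)
    (φ : R →ₐ[𝒪] T) (hφ : Function.Surjective φ) (π : T →ₐ[𝒪] 𝒪)
    [Finite (RingHom.ker (π.comp φ)).Cotangent]
    (hcard : Nat.card (RingHom.ker (π.comp φ)).Cotangent ≤ Nat.card (𝒪 ⧸ eta π)) :
    Function.Bijective φ ∧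
      (∃ g : Fin n → MvPowerSeries (Fin n) 𝒪,
        RingHom.ker (φ.comp γ) = Ideal.span (Set.range g)) ∧
      Nat.card (RingHom.ker π).Cotangent = Nat.card (𝒪 ⧸ eta π) ∧
      Nat.card (RingHom.ker (π.comp φ)).Cotangent = Nat.card (𝒪 ⧸ eta π) := by
  obtain ⟨τ, hτ⟩ := H90.exists_normalized γ (π.comp φ)
  obtain ⟨h1, ⟨g, hg⟩, h3⟩ :=
    nc1 (γ.comp (τ : MvPowerSeries (Fin n) 𝒪 →ₐ[𝒪] MvPowerSeries (Fin n) 𝒪))
      (hγ.comp τ.surjective) φ hφ π hτ hcard
  refine ⟨h1, ⟨fun i => τ (g i), ?_⟩, h3⟩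
  have h4 := H90.ker_comp_algEquiv
    (φ.comp (γ.comp (τ : MvPowerSeries (Fin n) 𝒪 →ₐ[𝒪] MvPowerSeries (Fin n) 𝒪))) τ.symm g hg
  have h5 : (φ.comp (γ.comp (τ : MvPowerSeries (Fin n) 𝒪 →ₐ[𝒪] MvPowerSeries (Fin n) 𝒪))).comp
      (τ.symm : MvPowerSeries (Fin n) 𝒪 →ₐ[𝒪] MvPowerSeries (Fin n) 𝒪) = φ.comp γ := by
    ext f
    simp
  rw [h5] at h4
  rw [h4]
  rfl

end

section ineq

variable {𝒪 : Type*} [CommRing 𝒪] [IsDomain 𝒪] [IsDiscreteValuationRing 𝒪]
  [Finite (IsLocalRing.ResidueField 𝒪)]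
  {T : Type*} [CommRing T] [Algebra 𝒪 T] {n : ℕ}

/-- the general inequality `#(𝒪/η_T) ≤ #Φ_T` (Fitting ideal of `Φ_T` is contained in `η_T`). -/
theorem card_eta_le_card_cotangent (ψ : MvPowerSeries (Fin n) 𝒪 →ₐ[𝒪] T)
    (hψ : Function.Surjective ψ) (π : T →ₐ[𝒪] 𝒪) (hπ : ∀ i, π (ψ (X i)) = 0)
    [Finite (RingHom.ker π).Cotangent] :
    Finite (𝒪 ⧸ eta π) ∧ Nat.card (𝒪 ⧸ eta π) ≤ Nat.card (RingHom.ker π).Cotangent := by
  classical
  obtain ⟨eT⟩ := H90.cotangent_linearEquiv n ψ hψ π hπ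
  have hfinT : Finite ((Fin n → 𝒪) ⧸ H90.relLattice ψ) := Finite.of_equiv _ eT.toEquiv
  obtain ⟨b, hbN, hbspan, hbdet, hbcard⟩ := H8.card_quotient_eq_card_det n (H90.relLattice ψ)
  have hc : ∀ i, ∃ f ∈ RingHom.ker ψ, linPart n 𝒪 f = b i := fun i =>
    H90.exists_mem_ker_linPart_eq _ (hbN i)
  choose c hcker hclin using hc
  have hdeteq : (Matrix.of fun i => linPart n 𝒪 (c i)) = Matrix.of b := by
    ext i j
    rw [Matrix.of_apply, Matrix.of_apply, hclin]
  have hmem : (Matrix.of b).det ∈ eta π := by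
    rw [← hdeteq]
    exact H90.det_linPart_mem_eta hψ hπ c hcker
  have hspanle : Ideal.span {(Matrix.of b).det} ≤ eta π := by
    rw [Ideal.span_le, Set.singleton_subset_iff]
    exact hmem
  have hpos : 0 < Nat.card ((Fin n → 𝒪) ⧸ H90.relLattice ψ) := Nat.card_pos
  have hfindet : Finite (𝒪 ⧸ Ideal.span {(Matrix.of b).det}) := by
    apply Nat.finite_of_card_ne_zero
    rw [← hbcard]
    exact hpos.ne'
  obtain ⟨hfinη, hcardη⟩ := H90.card_quotient_le_of_le (𝒪 := 𝒪) (M := 𝒪) hspanle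
  refine ⟨hfinη, ?_⟩
  rw [Nat.card_congr eT.toEquiv, hbcard]
  exact hcardη

end ineq

end Fermat.Agent.S59.NumCrit

end
-- ==== END Fermat.Agent.S59.NumCrit.NumCrit

-- ==== BEGIN Fermat.Agent.S59.TRes.H49_Leaves3
section

/-!
# S59, leaf TRES (helper49): the three small leaves `CYC`, `DISC`, `E1STAB`
-/

set_option autoImplicit false

open WeierstrassCurve WeierstrassCurve.Affine

namespace Fermat.Agent.S59.TRes.H49

open Fermat.Agent.S56.FL Fermat.Agent.S52.H5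
open Fermat.Agent.S05 (ModelHyp InE1)

/-- **CYC**. -/
theorem stmt_CYC : Stmt_CYC := by
  intro p _
  have hp : p.Prime := Fact.out
  obtain ⟨ζ, hζ1, hζp⟩ := H15.exists_zeta (p := p)
  have hζ : IsPrimitiveRoot ζ p := by
    rw [IsPrimitiveRoot.iff_orderOf]
    exact orderOf_eq_prime hζp hζ1
  refine ⟨(H85.omg hζ).ker, MonoidHom.normal_ker _, fun g => ?_, fun n hn ξ hξ => ?_⟩
  · rw [MonoidHom.mem_ker, map_pow]
    exact ZMod.units_pow_card_sub_one_eq_one p _
  · rw [H85.omg_spec' hζ n hξ, MonoidHom.mem_ker.1 hn, Units.val_one, ZMod.val_one'' hp.ne_one,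
      pow_one]

/-- **DISC**. -/
theorem stmt_DISC : Stmt_DISC := by
  intro L _ A W hyp _
  have e : W.Δ = 16 * W.a₄ ^ 2 * (W.a₂ ^ 2 - 4 * W.a₄) := by
    simp only [WeierstrassCurve.Δ, WeierstrassCurve.b₂, WeierstrassCurve.b₄, WeierstrassCurve.b₆,
      WeierstrassCurve.b₈, hyp.a₁, hyp.a₃, hyp.a₆]
    ring
  have h16 : A.valuation (16 : L) = 1 := by
    have : (16 : L) = 2 ^ 4 := by norm_num
    rw [this, map_pow, hyp.two, one_pow]
  rw [e, map_mul, map_mul, h16, one_mul, hyp.disc, mul_one, map_pow]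

/-- **E1STAB**. -/
theorem stmt_E1STAB : Stmt_E1STAB := by
  intro L _ _ A W _ hb σ s hs Q hQ
  rcases Q with _ | ⟨x, y, h⟩
  · have : s (Point.zero : W.Point) = 0 := map_zero s
    rw [this]
    trivial
  · obtain ⟨x', y', h', hsQ, hx', -⟩ := hs.map_some x y h
    rw [hsQ]
    show 1 < A.valuation x'
    have hσx : 1 < A.valuation (σ x) := by
      rw [hs.val_eq]; exact hQ
    have e : x' = σ x + (x' - σ x) := by ring
    rw [e, Valuation.map_add_eq_of_lt_left]
    · exact hσx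
    · exact lt_of_le_of_lt hx' (hb.trans hσx)

end Fermat.Agent.S59.TRes.H49

end
-- ==== END Fermat.Agent.S59.TRes.H49_Leaves3

-- ==== BEGIN Fermat.Agent.S59.TRes.H49_LocB
section

/-!
# S59, leaf TRES (helper49): assembly, part B (from the elliptic data to the contradiction)

Given two independent points `P`, `T` of order `p` on `E = EQ W` on which `Gal(K̄/ℚ_p)` acts by
upper triangular matrices, a `D`-fixed `x₀`, and the norm data of `g = x(P) - x₀` and
`x(P + T) - x(P)`: the field of `E[p]` is not contained in a bounded `L`.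
(`H77.stmt_GRP`, `Stmt_CYC`, `H49.stmt_CORE`.)
-/

set_option autoImplicit false

open WeierstrassCurve WeierstrassCurve.Affine

namespace Fermat.Agent.S59.TRes.H49

open Fermat.Agent.S56.FL Fermat.Agent.S52.H5

/-- `(k % p) • T = k • T` when `p • T = 0`. -/
theorem mod_nsmul_of {X : Type*} [AddCommGroup X] {p : ℕ} {T : X} (hT : p • T = 0) (k : ℕ) :
    (k % p) • T = k • T := by
  conv_rhs => rw [← Nat.mod_add_div k p]
  rw [add_nsmul, mul_nsmul, hT, nsmul_zero, add_zero]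

section

variable {p : ℕ} [Fact p.Prime] (W : WeierstrassCurve ℤ)

/-- The action of the local Galois group on the points, as a monoid homomorphism. -/
noncomputable def locAct (p : ℕ) [Fact p.Prime] (W : WeierstrassCurve ℤ) :
    Gp p →* AddMonoid.End (EQ W).Point :=
  (DistribMulAction.toAddMonoidEnd (Qb ≃ₐ[ℚ] Qb) (EQ W).Point).comp (localGaloisToGlobal p)

lemma locAct_apply (τ : Gp p) (Q : (EQ W).Point) :
    locAct p W τ Q = localGaloisToGlobal p τ • Q := rfl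

lemma loc_smul_add (τ : Gp p) (Q₁ Q₂ : (EQ W).Point) :
    localGaloisToGlobal p τ • (Q₁ + Q₂) =
      localGaloisToGlobal p τ • Q₁ + localGaloisToGlobal p τ • Q₂ :=
  map_add (galAdd W (localGaloisToGlobal p τ)) Q₁ Q₂

lemma loc_smul_nsmul (τ : Gp p) (k : ℕ) (Q : (EQ W).Point) :
    localGaloisToGlobal p τ • (k • Q) = k • (localGaloisToGlobal p τ • Q) :=
  map_nsmul (galAdd W (localGaloisToGlobal p τ)) k Q

/-- The Galois action on `ι (x(Q) - x₀)`. -/
lemma gal_emb_xc (τ : Gp p) (x₀ : Qb) (hx₀ : localGaloisToGlobal p τ x₀ = x₀)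
    (Q : (EQ W).Point) :
    τ (padicEmbedding p (xc Q - x₀)) =
      padicEmbedding p (xc (localGaloisToGlobal p τ • Q) - x₀) := by
  rw [← padicEmbedding_localGaloisToGlobal, map_sub, hx₀, xc_smul]

/-- **Assembly, part B.** -/
theorem false_of_data (hp2 : p ≠ 2)
    (L : IntermediateField ℚ_[p] (PadicAlgCl p)) [FiniteDimensional ℚ_[p] L]
    (hNL : Normal ℚ_[p] L) (hbdd : IsBddField p L)
    (htriv : ∀ σ : Gp p, σ ∈ L.fixingSubgroup →
      ∀ P : (EQ W).Point, p • P = 0 → localGaloisToGlobal p σ • P = P)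
    (hCYC : Stmt_CYC)
    (P T : (EQ W).Point) (hP : p • P = 0) (hT : p • T = 0)
    (hind : ∀ a c : ℤ, a • P + c • T = 0 → (p : ℤ) ∣ a ∧ (p : ℤ) ∣ c)
    (h1 : ∀ τ : Gp p, ∃ a : ℤ, localGaloisToGlobal p τ • T = a • T)
    (h2 : ∀ τ : Gp p, ∃ a c : ℤ, localGaloisToGlobal p τ • P = a • P + c • T)
    (x₀ : Qb) (hx₀ : ∀ τ : Gp p, localGaloisToGlobal p τ x₀ = x₀)
    (M d : ℕ) (hd : 0 < d) (hM : ¬ p ∣ M)
    (hg : ‖padicEmbedding p (xc P - x₀)‖ ^ (p * d) = ((p : ℝ)⁻¹) ^ M)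
    (R : ℝ) (hR : 1 < R) (hRp : (p : ℝ) ≤ R ^ ((p - 1) / 2))
    (hstep : ‖padicEmbedding p (xc (P + T) - xc P)‖ ^ 2 * R ≤
      ‖padicEmbedding p (xc P - x₀)‖ ^ 2) : False := by
  have hp : p.Prime := Fact.out
  have hp3 : 3 ≤ p := by
    have := hp.two_le
    omega
  obtain ⟨N₀, ψ, hN₀, hexp₀, hadd, hNT, hNP, hψ0⟩ :=
    H77.stmt_GRP p (Gp p) (EQ W).Point (locAct p W) T P hT hP hind h1 h2
  obtain ⟨Nc, hNc, hexpc, hζc⟩ := hCYC p
  -- the points `P + k T`
  have hQp : ∀ k : ℕ, p • (P + k • T) = 0 := by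
    intro k
    rw [nsmul_add, hP, zero_add, ← mul_nsmul, mul_comm, mul_nsmul, hT, nsmul_zero]
  have hQ0 : ∀ k : ℕ, P + k • T ≠ 0 := by
    intro k h0
    have := (hind 1 k (by rw [one_smul, natCast_zsmul]; exact h0)).1
    have h1' : (p : ℤ) ≤ 1 := Int.le_of_dvd one_pos this
    have : (3 : ℤ) ≤ p := by exact_mod_cast hp3
    omega
  -- the family `γ`
  set γ : ZMod p → PadicAlgCl p := fun i => padicEmbedding p (xc (P + i.val • T) - x₀) with hγdef
  have hγ0 : γ 0 = padicEmbedding p (xc P - x₀) := by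
    simp only [hγdef]
    rw [ZMod.val_zero, zero_nsmul, add_zero]
  have hval1 : (1 : ZMod p).val = 1 := ZMod.val_one'' hp.ne_one
  have hγ1 : γ 1 - γ 0 = padicEmbedding p (xc (P + T) - xc P) := by
    rw [hγ0]
    simp only [hγdef]
    rw [hval1, one_nsmul, ← map_sub]
    congr 1
    ring
  refine stmt_CORE p hp2 L hNL hbdd (N₀ ⊓ Nc) ?_ ?_ ?_ ψ ?_ ?_ γ ?_ ?_ ?_ M d hd hM
    (by rw [hγ0]; exact hg) R hR hRp (by rw [hγ1, hγ0]; exact hstep)
  · -- normal
    exact ⟨fun n hn g => ⟨hN₀.conj_mem n hn.1 g, hNc.conj_mem n hn.2 g⟩⟩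
  · exact fun g => ⟨hexp₀ g, hexpc g⟩
  · exact fun n hn ζ hζ => hζc n hn.2 ζ hζ
  · exact fun n hn n' hn' => hadd n hn.1 n' hn'.1
  · intro n hn hfix
    exact hψ0 n hn.1 (htriv n hfix P hP)
  · -- injectivity
    intro i j hij
    simp only [hγdef] at hij
    have h3 := (padicEmbedding p).toRingHom.injective hij
    have h4 : xc (P + i.val • T) = xc (P + j.val • T) := by
      have := sub_left_injective h3
      exact this
    rcases eq_or_eq_neg_of_xc_eq (hQ0 _) (hQ0 _) h4 with h5 | h5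
    · have h6 : (0 : ℤ) • P + ((i.val : ℤ) - (j.val : ℤ)) • T = 0 := by
        rw [zero_zsmul, zero_add, sub_zsmul, natCast_zsmul, natCast_zsmul, add_neg_eq_zero]
        exact add_left_cancel h5
      have h7 := (hind _ _ h6).2
      have h8 : ((i.val : ℤ) : ZMod p) = ((j.val : ℤ) : ZMod p) := by
        rw [← sub_eq_zero, ← Int.cast_sub]
        exact (ZMod.intCast_zmod_eq_zero_iff_dvd _ p).2 h7
      simpa using h8
    · exfalso
      have h6 : (2 : ℤ) • P + ((i.val : ℤ) + (j.val : ℤ)) • T = 0 := by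
        have h7 : (P + i.val • T) + (P + j.val • T) = 0 := by
          rw [h5]
          exact neg_add_cancel _
        rw [add_zsmul, natCast_zsmul, natCast_zsmul, ← h7]
        abel
      have h7 := (hind _ _ h6).1
      have h8 : (p : ℤ) ≤ 2 := Int.le_of_dvd two_pos h7
      have : (3 : ℤ) ≤ p := by exact_mod_cast hp3
      omega
  · -- `γ i ∈ L`
    intro i
    apply H38.mem_of_fixed_by_fixingSubgroup
    intro σ hσ
    simp only [hγdef]
    rw [gal_emb_xc W σ x₀ (hx₀ σ), htriv σ hσ _ (hQp _)]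
  · -- permutation
    intro n hn i
    simp only [hγdef]
    rw [gal_emb_xc W n x₀ (hx₀ n), loc_smul_add, loc_smul_nsmul]
    have e1 : localGaloisToGlobal p n • P = P + (ψ n).val • T := hNP n hn.1
    have e2 : localGaloisToGlobal p n • T = T := hNT n hn.1
    have e3 : P + (ψ n).val • T + i.val • T = P + (i + ψ n).val • T := by
      rw [add_assoc, ← add_nsmul, ZMod.val_add, mod_nsmul_of hT, add_comm (ψ n).val]
    rw [e1, e2, e3]

end

end Fermat.Agent.S59.TRes.H49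

end
-- ==== END Fermat.Agent.S59.TRes.H49_LocB
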