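-- GENERATED (merged mirror, NOTES/tools/trim/merge3_helper67.py): 10 modules of the originals, bodies verbatim.
import Fermat.Agent.Zm.S59_L03_000
import Fermat.Agent.Zm.S44_L05_001
import Fermat.Agent.Zm.S59_L01_000
import Fermat.Agent.Zm.S59_L03_001
import Fermat.Agent.Zm.S35_L18_000
import Fermat.Agent.Zm.S44_L02_004
import Fermat.Agent.Zm.S44_L04_000
import Fermat.Agent.Zm.S43_L07_000
import Fermat.Agent.Zm.S43_L02_001
import Fermat.Agent.Zm.S43_L06_002
import Fermat.Agent.Zm.S43_L10_000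
import Fermat.Agent.Zm.S43_L05_002
import Fermat.Agent.Zm.S35_L08_004
import Fermat.Agent.Zm.S59_L03_002
import Fermat.Agent.Zm.S35_L10_003
import Fermat.Agent.Zm.S59_L03_003

-- ==== BEGIN Fermat.Agent.BADP3.H33_ModFinal
section

set_option autoImplicit false
set_option linter.style.haveILetI false
set_option synthInstance.maxHeartbeats 400000
set_option maxHeartbeats 1000000

noncomputable section

open HahnSeries IntermediateField AlgebraicCurve ModularCurve
open Fermat.Agent.S28.H73 Fermat.Agent.RED.H73 Fermat.Agent.RED Fermat.Agent.S24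
open Fermat.Agent.BAD.H88

namespace Fermat.Agent.BADP3.H33

open Fermat.Agent.BADP

open Fermat.Agent.BAD Fermat.Agent.BAD.H91 Fermat.Agent.S43.BadQ

/-- **(CUSP)** for the fixed modular datum: the poles of `j~` are not nodes. -/
theorem stmt_CuspNotNode : Stmt_CuspNotNode := by
  intro p M ht a b hab hp _ A hA Q hQ hnode
  have hqM : ¬ p ∣ M := not_dvd_of_bezout hab hp
  haveI : NeZero M := neZero_left M p
  haveI : NeZero p := ⟨hp.ne_zero⟩
  have hcoe : ((Fermat.Agent.BAD.H91.jRed A (M * p) : F1 A p M) : LaurentSeries (kV A))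
      = ((Fermat.Agent.BAD.H91.jRed A M : ↥(Fermat.Agent.BAD.H91.redM A M)) :
          LaurentSeries (kV A)) := by
    rw [show ((Fermat.Agent.BAD.H91.jRed A M : ↥(Fermat.Agent.BAD.H91.redM A M)) :
        LaurentSeries (kV A)) = jqModC (kV A) from RED.H73.red_jF A M]
    exact RED.H73.red_jF A (M * p)
  have hz₀ : (kappa A p M a b hab hp hA Q).ord (Fermat.Agent.BAD.H91.jRed A M) < 0 := by
    rw [kappa_ord A p M a b hab hp hA Q (Fermat.Agent.BAD.H91.jRed A (M * p))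
      (Fermat.Agent.BAD.H91.jRed A M) hcoe]
    exact hQ
  have h := Fermat.Agent.S15.Desc.H69C.coordCusp_gen a b hab hp hA hqM ht
    (totMod A p M a b hab hp hA hqM ht) (kappa A p M a b hab hp hA Q) hz₀
  rw [Equiv.symm_apply_apply] at h
  exact h hnode

/-- **(MOD-P+)**: the modular datum with the cusps and the modular unit exists. -/
theorem stmt_ModPlusT : Stmt_ModPlusT := stmt_ModPlusT_of stmt_CuspNotNode

end Fermat.Agent.BADP3.H33

end
end
-- ==== END Fermat.Agent.BADP3.H33_ModFinal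

-- ==== BEGIN Fermat.Agent.BADP3.H52_Thick
section
attribute [local instance 10000] SubalgebraClass.toAlgebra
attribute [local instance 10000] HahnSeries.powerSeriesAlgebra

set_option autoImplicit false
set_option linter.style.haveILetI false
set_option linter.unusedSectionVars false
set_option synthInstance.maxHeartbeats 400000
set_option maxHeartbeats 1000000

noncomputable section

open AlgebraicCurve ModularCurve

namespace Fermat.Agent.BADP3.H52

open Fermat.Agent.BAD Fermat.Agent.S44 Fermat.Agent.S43.BadQ Fermat.Agent.S28.H73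
  Fermat.Agent.RED.H73 Fermat.Agent.BADP
open Fermat.Agent.RED.H17 Fermat.Agent.RED Fermat.Agent.S43.Old.H35

/-- **THICK**, corrected form: at the zeros of the reduction of the modular unit. -/
def Stmt_ThickPos : Prop :=
  ∀ (p : ℕ) [NeZero p], p.Prime → p ≠ 2 → ∀ (M : ℕ), ¬ p ∣ M →
    Fermat.Agent.BAD.H91.TameAt M p → ∀ [NeZero (M * p)],
    ∀ A : ValuationSubring (AlgebraicClosure ℚ), A.LiesOverPrime p →
    ∀ (Q : Place (kV A) (RedF A (M * p))) (e : ℤ),
      0 < Q.ord (unitRed A (M * p) p (Dvd.intro_left M rfl)) →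
      e * Q.ord (unitRed A (M * p) p (Dvd.intro_left M rfl)) = 12 → ¬ (p : ℤ) ∣ e

section Transport

variable {k : Type} [Field k]

/-- A property of the orders of a function does not depend on the name of the field. -/
theorem forall_ord_congr {E₁ E₂ : IntermediateField k (LaurentSeries k)} (hE : E₁ = E₂)
    (x₁ : ↥E₁) (x₂ : ↥E₂) (hx : (x₁ : LaurentSeries k) = (x₂ : LaurentSeries k))
    (P : ℤ → Prop) (h : ∀ Q : Place k ↥E₂, P (Q.ord x₂)) : ∀ Q : Place k ↥E₁, P (Q.ord x₁) := by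
  subst hE
  have h1 : x₁ = x₂ := Subtype.ext hx
  subst h1
  exact h

end Transport

section Arith

theorem not_dvd_of_mul_eq_twelve {p : ℕ} (hp : p.Prime) (h5 : 5 ≤ p) {e n : ℤ}
    (h : e * n = 12) : ¬ (p : ℤ) ∣ e := by
  intro hd
  have h12 : (p : ℤ) ∣ 12 := by
    rw [← h]
    exact Dvd.dvd.mul_right hd n
  have h12' : p ∣ 12 := by exact_mod_cast h12
  have hle : p ≤ 12 := Nat.le_of_dvd (by norm_num) h12'
  interval_cases p <;> revert hp h12' <;> decide

theorem not_three_dvd_of_thick {e n : ℤ} (h : e * (2 * n) = 12) (h3 : (3 : ℤ) ∣ n) :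
    ¬ (3 : ℤ) ∣ e := by
  rintro ⟨a, rfl⟩
  obtain ⟨b, rfl⟩ := h3
  obtain ⟨c, hc⟩ : ∃ c : ℤ, c = a * b := ⟨_, rfl⟩
  have h1 : 18 * c = 12 := by
    rw [hc]
    linear_combination h
  omega

end Arith

/-- The reduction of the modular unit is `j~ ^ 2` in characteristic `3`. -/
theorem unitRed_three (A : ValuationSubring (AlgebraicClosure ℚ)) (N : ℕ) [NeZero N]
    [NeZero 3] (hA : A.LiesOverPrime 3) (hd : 3 ∣ N) :
    unitRed A N 3 hd = Fermat.Agent.BAD.H91.jRed A N ^ 2 := by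
  haveI : Fact (Nat.Prime 3) := ⟨Nat.prime_three⟩
  apply Subtype.ext
  have h1 := Fermat.Agent.BAD.H30.gaussRes_unitF_small A N 3 hA hd (Or.inr rfl)
  have h2 : ((Fermat.Agent.BAD.H91.jRed A N : RedF A N) : LaurentSeries (kV A))
      = jqModC (kV A) := red_jF A N
  have h3 : ((Fermat.Agent.BAD.H91.jRed A N ^ 2 : RedF A N) : LaurentSeries (kV A))
      = ((Fermat.Agent.BAD.H91.jRed A N : RedF A N) : LaurentSeries (kV A)) ^ 2 := rfl
  rw [h3, h2]
  exact h1

/-- **THICK**, corrected form. -/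
theorem stmt_ThickPos : Stmt_ThickPos := by
  intro p _ hp hp2 M hpM ht _ A hA Q e hpos he
  rcases ht with h5 | ⟨rfl, h2M⟩ | ⟨rfl, -⟩
  · exact not_dvd_of_mul_eq_twelve hp h5 he
  · -- `p = 3`, `2 ∣ M`
    haveI : NeZero M := ⟨fun h => NeZero.ne (M * 3) (by rw [h, zero_mul])⟩
    have hU := unitRed_three A (M * 3) hA (Dvd.intro_left M rfl)
    rw [hU, ord_pow] at hpos he
    have hjpos : 0 < Q.ord (Fermat.Agent.BAD.H91.jRed A (M * 3)) := by
      push_cast at hpos
      omega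
    have hNE := Fermat.Agent.S38.P3.H57.stmt_NE_of Fermat.Agent.S38.P3.H8.stmt_NE0 3 M 2 hp hpM
      Nat.prime_two (by norm_num) h2M A hA
    have heq : Ft A (M * 3) = Ft A M := ft_mul_eq A 3 M hp hpM hA
    have h3 := forall_ord_congr heq (Fermat.Agent.BAD.H91.jRed A (M * 3))
      (Fermat.Agent.BAD.H91.jRed A M)
      ((red_jF A (M * 3)).trans (red_jF A M).symm)
      (fun n => 0 < n → (3 : ℤ) ∣ n) hNE Q hjpos
    have he' : e * (2 * Q.ord (Fermat.Agent.BAD.H91.jRed A (M * 3))) = 12 := by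
      rw [← he]
      push_cast
      ring
    exact_mod_cast not_three_dvd_of_thick he' h3
  · exact absurd rfl hp2

/-- THICK for positive thickness exponents. -/
theorem thick_of_pos (p : ℕ) [NeZero p] (hp : p.Prime) (hp2 : p ≠ 2) (M : ℕ) (hpM : ¬ p ∣ M)
    (ht : Fermat.Agent.BAD.H91.TameAt M p) [NeZero (M * p)]
    (A : ValuationSubring (AlgebraicClosure ℚ)) (hA : A.LiesOverPrime p)
    (Q : Place (kV A) (RedF A (M * p))) (e : ℤ) (he0 : 0 < e)
    (he : e * Q.ord (unitRed A (M * p) p (Dvd.intro_left M rfl)) = 12) : ¬ (p : ℤ) ∣ e := by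
  refine stmt_ThickPos p hp hp2 M hpM ht A hA Q e ?_ he
  by_contra hneg
  rw [not_lt] at hneg
  have := mul_nonpos_of_nonneg_of_nonpos he0.le hneg
  omega

/-- THICK at the non-cuspidal places. -/
theorem thick_of_noncusp (p : ℕ) [NeZero p] (hp : p.Prime) (hp2 : p ≠ 2) (M : ℕ)
    (hpM : ¬ p ∣ M) (ht : Fermat.Agent.BAD.H91.TameAt M p) [NeZero (M * p)]
    (A : ValuationSubring (AlgebraicClosure ℚ)) (hA : A.LiesOverPrime p)
    (Q : Place (kV A) (RedF A (M * p))) (e : ℤ)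
    (hj : 0 ≤ Q.ord (Fermat.Agent.BAD.H91.jRed A (M * p)))
    (he : e * Q.ord (unitRed A (M * p) p (Dvd.intro_left M rfl)) = 12) : ¬ (p : ℤ) ∣ e := by
  rcases ht with h5 | ⟨rfl, h2M⟩ | ⟨rfl, -⟩
  · exact not_dvd_of_mul_eq_twelve hp h5 he
  · refine stmt_ThickPos 3 hp hp2 M hpM (Or.inr (Or.inl ⟨rfl, h2M⟩)) A hA Q e ?_ he
    have hU := unitRed_three A (M * 3) hA (Dvd.intro_left M rfl)
    rw [hU, ord_pow] at he ⊢
    push_cast at he ⊢
    rcases hj.eq_or_lt with h0 | h0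
    · rw [← h0] at he
      omega
    · omega
  · exact absurd rfl hp2

/-- **THICK.** -/
theorem stmt_Thick : Stmt_Thick := by
  intro p _ hp hp2 M hpM ht _ A hA Q e hj he
  exact thick_of_noncusp p hp hp2 M hpM ht A hA Q e hj he

end Fermat.Agent.BADP3.H52

end
end
-- ==== END Fermat.Agent.BADP3.H52_Thick

-- ==== BEGIN Fermat.Agent.BADP3.H97_EisTame2
section

set_option autoImplicit false
set_option linter.style.haveILetI false
set_option linter.unusedSectionVars false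

noncomputable section

open AlgebraicCurve

namespace Fermat.Agent.BADP3.H97

open Fermat.Agent.RED.H17 Fermat.Agent.RED Fermat.Agent.BAD Fermat.Agent.BADP
  Fermat.Agent.BADP3

/-- **Arithmetic core of (T), congruence.**  As in `BADP.H66.eisTame_arith`: the integers
`e s · nf s` are congruent modulo `p`. -/
theorem eisTame_cong {Γ₀ : Type*} [LinearOrderedCommGroupWithZero Γ₀] {ι : Type*}
    (nodes : Finset ι) {p : ℕ} (hp : p.Prime)
    {π X : Γ₀} (hπ0 : 0 < π) (hπ1 : π < 1)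
    (e : ι → ℕ) (nf d j : ι → ℤ)
    (hX : ∀ s ∈ nodes, X = (π ^ (p - 1)) ^ ((e s : ℤ) * (nf s - p * d s)) * (π ^ j s) ^ p) :
    ∀ s ∈ nodes, ∀ s' ∈ nodes, (p : ℤ) ∣ (e s : ℤ) * nf s - (e s' : ℤ) * nf s' := by
  have hA : ∀ s ∈ nodes,
      X = π ^ (((p : ℤ) - 1) * ((e s : ℤ) * (nf s - p * d s)) + p * j s) := by
    intro s hs
    rw [hX s hs, ← zpow_natCast π (p - 1), ← zpow_mul, ← zpow_natCast (π ^ j s) p, ← zpow_mul,
      ← zpow_add₀ hπ0.ne']
    congr 1
    push_cast [Nat.cast_sub hp.one_le]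
    ring
  intro s hs s' hs'
  have hAeq : ((p : ℤ) - 1) * ((e s : ℤ) * (nf s - p * d s)) + p * j s =
      ((p : ℤ) - 1) * ((e s' : ℤ) * (nf s' - p * d s')) + p * j s' :=
    zpow_right_injective₀ hπ0 hπ1.ne ((hA s hs).symm.trans (hA s' hs'))
  refine ⟨(e s : ℤ) * nf s - ((p : ℤ) - 1) * ((e s : ℤ) * d s) + j s - (e s' : ℤ) * nf s'
    + ((p : ℤ) - 1) * ((e s' : ℤ) * d s') - j s', ?_⟩
  linear_combination (-1 : ℤ) * hAeq

section Core

variable {K F k F₁ F₂ : Type} [Field K] [Field F] [Algebra K F] [Field k] [Field F₁]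
  [Algebra k F₁] [Field F₂] [Algebra k F₂]

/-- **(T) for one datum, modulo `p ^ 2`**, from the conclusion of (N) for the functions fixed by
`𝓘1`. -/
theorem eisTame_core2 (S : SSD K F k F₁ F₂) {p : ℕ} (hp : p.Prime) [CharP k p]
    (hpK : (p : K) ≠ 0) (𝓘1 : Set (SemilinearAut K F)) (F0 : Subfield F)
    {ζ : K} (hζ : IsPrimitiveRoot ζ p)
    (hval₂ : ∀ y ∈ F0, y ≠ 0 → ∃ n : ℤ, S.c₂.V.valuation y = S.c₂.V.valuation (p : F) ^ n)
    (hdesc : ∀ y : F, (∀ τ ∈ 𝓘1, τ • y = y) →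
      y ∈ IntermediateField.adjoin F0 ({algebraMap K F ζ} : Set F))
    (U : F) {w : ℕ} (hw2 : ¬ p ^ 2 ∣ w)
    (hthick : ∀ s ∈ S.nodes, ∀ e : ℤ, e * s.1.ord (S.c₁.rd U) = w → ¬ (p : ℤ) ∣ e) (f : F)
    (hN : ∃ (e : Place k F₁ × Place k F₂ → ℕ) (G : Place k F₁ × Place k F₂ → F)
        (d : Place k F₁ × Place k F₂ → ℤ), ∀ s ∈ S.nodes,
        (e s : ℤ) * s.1.ord (S.c₁.rd U) = w ∧
        (∀ τ ∈ 𝓘1, τ • G s = G s) ∧ S.c₁.IsGU (G s) ∧
        (∀ P : Place K F, S.c₁.r P = some s.1 → (p : ℤ) * P.ord (G s) = P.ord f) ∧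
        S.c₂.V.valuation f =
          S.c₂.V.valuation (p : F) ^ ((e s : ℤ) * (s.1.ord (S.c₁.rd f) - p * d s)) *
            S.c₂.V.valuation (G s) ^ p) :
    ∃ m : ℤ, ∀ s ∈ S.nodes,
      (p : ℤ) ^ 2 ∣ p * s.1.ord (S.c₁.rd f) - m * s.1.ord (S.c₁.rd U) := by
  classical
  obtain ⟨e, G, d, hN⟩ := hN
  have hζF : IsPrimitiveRoot (algebraMap K F ζ) p :=
    hζ.map_of_injective (algebraMap K F).injective
  have hv : S.c₂.V.valuation (p : F) < 1 := Fermat.Agent.BADP.H66.val₂_natCast_lt_one S p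
  have hpF : (p : F) ≠ 0 := by
    have h : ((p : ℕ) : F) = algebraMap K F (p : K) := (map_natCast (algebraMap K F) p).symm
    rw [h]
    exact (map_ne_zero (algebraMap K F)).2 hpK
  have hv0 : S.c₂.V.valuation (p : F) ≠ 0 := (Valuation.ne_zero_iff _).2 hpF
  have hπpow := Fermat.Agent.BADP.H97.val_root_sub_one_pow S.c₂.V.valuation hp hζF
  have hp1 : p - 1 ≠ 0 := Nat.sub_ne_zero_of_lt hp.one_lt
  have hπ0 : S.c₂.V.valuation (algebraMap K F ζ - 1) ≠ 0 := by
    intro h0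
    rw [h0, zero_pow hp1] at hπpow
    exact hv0 hπpow.symm
  have hπ1 : S.c₂.V.valuation (algebraMap K F ζ - 1) < 1 := by
    by_contra hge
    rw [not_lt] at hge
    have h1 : (1 : S.c₂.V.ValueGroup) ≤ S.c₂.V.valuation (algebraMap K F ζ - 1) ^ (p - 1) :=
      one_le_pow₀ hge
    rw [hπpow] at h1
    exact absurd hv (not_lt.2 h1)
  -- the values of the `G s`
  have hj : ∀ s : Place k F₁ × Place k F₂, ∃ j : ℤ, s ∈ S.nodes →
      S.c₂.V.valuation (G s) = S.c₂.V.valuation (algebraMap K F ζ - 1) ^ j := by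
    intro s
    by_cases hs : s ∈ S.nodes
    · obtain ⟨-, hfix, hGU, -, -⟩ := hN s hs
      obtain ⟨j, hj⟩ := Fermat.Agent.BADP.H97.val_k1 S.c₂.V.valuation hp hζF hv hv0 hval₂
        (hdesc (G s) hfix) hGU.ne_zero
      exact ⟨j, fun _ => hj⟩
    · exact ⟨0, fun h => absurd h hs⟩
  choose j hj using hj
  have hcong := eisTame_cong S.nodes hp (zero_lt_iff.2 hπ0) hπ1 e
    (fun s => s.1.ord (S.c₁.rd f)) d j (X := S.c₂.V.valuation f) (fun s hs => by
      obtain ⟨-, -, -, -, hval⟩ := hN s hs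
      rw [hval, hπpow, hj s hs])
  exact eis_concl2 hp (w := (w : ℤ)) (fun h => hw2 (by exact_mod_cast h))
    (fun s hs => (hN s hs).1) (fun s hs => hthick s hs (e s) (hN s hs).1) hcong

end Core

/-- **EIS-ABS-TAME2** from **NODE-VAL2**. -/
theorem stmt_EisAbsTame2_of (hN : Stmt_NodeVal2) : Stmt_EisAbsTame2 := by
  intro K F k F₁ F₂ _ _ _ _ _ _ _ _ _ _ S H H₁ H₂ g g₁ g₂ c c₁ c₂ hR hR₁ hR₂ hnum p hp _hp2
    hchar hpK 𝓘 𝓘1 hI h1 hK0 F0 hF0 ζ hζ _hval₁ hval₂ hdesc _hζfix U w hU hUfix hUnode hU₂ hw0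
    hw2 hthick f hf hfdiv hffix
  haveI : CharP k p := hchar
  exact eisTame_core2 S hp hpK 𝓘1 F0 hζ hval₂ hdesc U hw2 hthick f
    (hN K F k F₁ F₂ S H H₁ H₂ g g₁ g₂ c c₁ c₂ hR hR₁ hR₂ hnum p hp hchar hpK 𝓘 𝓘1 hI h1 hK0 F0
      hF0 hval₂ U w hU hUfix hUnode hU₂ hw0 f hf hfdiv hffix)

/-- **EIS-ABS-TAME2**. -/
theorem stmt_EisAbsTame2 : Stmt_EisAbsTame2 := stmt_EisAbsTame2_of stmt_NodeVal2

end Fermat.Agent.BADP3.H97

end
end
-- ==== END Fermat.Agent.BADP3.H97_EisTame2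

-- ==== BEGIN Fermat.Agent.L.Pivot3.H11_ChainA
section

set_option autoImplicit false

namespace Fermat.Agent.L.Pivot3.H11

open Fermat.Agent.L.Pivot Fermat.Agent.L.Pivot3

/-- **PIVOT3 core from the levels** (LOC, PATCH, TAME, OLD plugged). -/
theorem pivotCoreBA_of_levels (hLev : Stmt_PVLevelsBA) : Stmt_PivotCoreBA :=
  pivotCoreBA_of Fermat.Agent.L.Pivot.H52.stmt_PVLoc_type
    Fermat.Agent.L.Pivot.H52.stmt_PVLoc_unr Fermat.Agent.L.Pivot.H52.stmt_PVLoc_dimS
    Fermat.Agent.L.Pivot.H76.stmt_PVPatch hLev Fermat.Agent.L.Pivot.H59.stmt_PVTame1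
    Fermat.Agent.L.Pivot.H50.stmt_PVOld

/-- **The levels of PIVOT3** from PV-GAL, PV-NU-POINT, PV-GEOM with auxiliary primes and COND-aux
(S23, DATUM and the leaves A3, B3, C3 plugged). -/
theorem pvLevelsBA_of_open (hGal : Stmt_PVGalB) (hpt : Stmt_PVNUPoint)
    (hGeom : Stmt_PVGeom2A) (hCond : Stmt_CONDauxD) : Stmt_PVLevelsBA :=
  pvLevelsBA_of (fun N _ => Fermat.Agent.S23.result N) hGal hGeom
    Fermat.Agent.S59.Datum.stmt_DATUM hCond Fermat.Agent.L.Pivot3.H60.stmt_PVAsmA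
    Fermat.Agent.L.Pivot3.H60.stmt_PVUnipA (Fermat.Agent.L.Pivot3.H60.stmt_PVNUA_of hpt)

/-- **PIVOT3, Hecke–Galois form**, from PV-GAL, PV-NU-POINT, PV-GEOM with auxiliary primes and
COND-aux. -/
theorem pivotCoreBA_of_open (hGal : Stmt_PVGalB) (hpt : Stmt_PVNUPoint)
    (hGeom : Stmt_PVGeom2A) (hCond : Stmt_CONDauxD) : Stmt_PivotCoreBA :=
  pivotCoreBA_of_levels (pvLevelsBA_of_open hGal hpt hGeom hCond)

end Fermat.Agent.L.Pivot3.H11

end
-- ==== END Fermat.Agent.L.Pivot3.H11_ChainA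

-- ==== BEGIN Fermat.Agent.L.Pivot3.H80_AutoUnr24
section

/-!
# PIVOT at `p = 3` (package PIVOT3), leaf AUTO-UNR: helper24's interface, unconditional (helper80)

`stmt_AutoUnr24 : H24.Stmt_AutoUnr` — every lift of `ρbar` to a complete noetherian local ring
is unramified at an auxiliary prime `r` (`H24.AuxAt p ρbar r`).
-/

set_option autoImplicit false

noncomputable section

open IsLocalRing

namespace Fermat.Agent.L.Pivot3.H80

/-- **AUTO-UNR** in helper24's interface (`L/Pivot3/H24_AuxDefs.lean`), unconditional. -/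
theorem stmt_AutoUnr24 : Fermat.Agent.L.Pivot3.H24.Stmt_AutoUnr := by
  intro A _ _ _ _ p hp hpA k _ ρbar φ ρ hres r haux
  exact autoUnr A p hp hpA k ρbar φ ρ hres r haux.1 haux.2.1 haux.2.2.1 haux.2.2.2.1
    haux.2.2.2.2

end Fermat.Agent.L.Pivot3.H80

end
end
-- ==== END Fermat.Agent.L.Pivot3.H80_AutoUnr24

-- ==== BEGIN Fermat.Agent.S27.Char0.Lift.H45_Fibre
section

/-!
# S27 LIFT (helper45): the norm formula on the fibre of a simple point

Universe polymorphic version of helper10's `RED.H10.fibre_norm`, in the form used by CONCL: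
if `X` is a simple zero of `x - a`, then for every `f ≠ 0`
`∑_{P : x(P) = a} ord_P f = ord_X (N_{F/K(x)} f)`.
-/

set_option autoImplicit false

noncomputable section

open AlgebraicCurve IntermediateField

namespace Fermat.Agent.S27.Char0.Lift.H45

open Fermat.Agent.RED.H17 Fermat.Agent.RED.H51 Fermat.Agent.S24

attribute [local instance] Classical.propDecidable

universe u v

variable {K : Type u} {F : Type v} [Field K] [Field F] [Algebra K F]

theorem adjoin_gen_eq_top_u (x : F) :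
    K⟮AdjoinSimple.gen K x⟯ = (⊤ : IntermediateField K ↥K⟮x⟯) := by
  have h1 : (K⟮AdjoinSimple.gen K x⟯ : IntermediateField K ↥K⟮x⟯).map (K⟮x⟯.val) =
      (⊤ : IntermediateField K ↥K⟮x⟯).map (K⟮x⟯.val) := by
    rw [IntermediateField.adjoin_map, Set.image_singleton]
    rw [← AlgHom.fieldRange_eq_map, IntermediateField.fieldRange_val]
    rfl
  exact IntermediateField.map_injective _ h1

theorem finrank_of_eq_top_u (S : IntermediateField K F) (hS : S = ⊤) :
    FiniteDimensional ↥S F ∧ Module.finrank ↥S F = 1 := by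
  subst hS
  exact ⟨Module.finite_of_finrank_pos (by rw [IntermediateField.finrank_top]; exact one_pos),
    IntermediateField.finrank_top⟩

/-- A generator of a rational function field has exactly one zero, and it is simple. -/
theorem exists_unique_zero_of_top_u (hz : H59.ZerosStmt K F) (y : F) (hy : Transcendental K y)
    (htop : K⟮y⟯ = ⊤) :
    ∃ v : Place K F, v.ord y = 1 ∧ ∀ v' : Place K F, 0 < v'.ord y → v' = v := by
  classical
  obtain ⟨hfd, hrank⟩ := finrank_of_eq_top_u K⟮y⟯ htop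
  obtain ⟨hfin, hsum⟩ := hz y hy
  rw [hrank, finsum_mem_eq_finite_toFinset_sum _ hfin] at hsum
  have hpos : ∀ v ∈ hfin.toFinset, 0 < v.ord y := fun v hv => by
    simpa using hv
  have hne : hfin.toFinset.Nonempty := by
    by_contra hemp
    rw [Finset.not_nonempty_iff_eq_empty] at hemp
    rw [hemp, Finset.sum_empty] at hsum
    norm_num at hsum
  obtain ⟨v, hv⟩ := hne
  have hle : ∀ v' ∈ hfin.toFinset, v' ≠ v → False := by
    intro v' hv' hne'
    have h2 : v.ord y + v'.ord y ≤ ∑ u ∈ hfin.toFinset, u.ord y := by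
      have hsub : ({v, v'} : Finset (Place K F)) ⊆ hfin.toFinset := by
        intro u hu
        rcases Finset.mem_insert.mp hu with rfl | hu
        · exact hv
        · rw [Finset.mem_singleton.mp hu]; exact hv'
      calc v.ord y + v'.ord y = ∑ u ∈ ({v, v'} : Finset (Place K F)), u.ord y := by
            rw [Finset.sum_pair (Ne.symm hne')]
        _ ≤ ∑ u ∈ hfin.toFinset, u.ord y :=
            Finset.sum_le_sum_of_subset_of_nonneg hsub
              (fun u hu _ => (hpos u hu).le)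
    have := hpos v hv
    have := hpos v' hv'
    rw [hsum] at h2
    push_cast at h2
    omega
  refine ⟨v, ?_, ?_⟩
  · have h1 : v.ord y ≤ ∑ u ∈ hfin.toFinset, u.ord y :=
      Finset.single_le_sum (f := fun u : Place K F => u.ord y)
        (fun u hu => (hpos u hu).le) hv
    have := hpos v hv
    rw [hsum] at h1
    push_cast at h1
    omega
  · intro v' hv'
    by_contra hne'
    exact hle v' (by simpa using hv') hne'

/-- **The norm formula on the fibre of a simple point.** -/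
theorem norm_at_simple [IsAlgClosed K] (hP : HasPrincipalDivisors K F) (x : F)
    (hx : Transcendental K x) [FiniteDimensional ↥K⟮x⟯ F] (a : K) (X : Place K F)
    (hX : X.ord (x - algebraMap K F a) = 1) :
    ∃ T : Finset (Place K F), (∀ P, P ∈ T ↔ 0 < P.ord (x - algebraMap K F a)) ∧
      ∀ f : F, f ≠ 0 →
        ∑ P ∈ T, P.ord f = X.ord (algebraMap ↥K⟮x⟯ F (Algebra.norm ↥K⟮x⟯ f)) := by
  classical
  have := hP
  set g : ↥K⟮x⟯ := AdjoinSimple.gen K x with hg
  have hgx : algebraMap ↥K⟮x⟯ F g = x := rfl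
  have hgtr : Transcendental K g :=
    (transcendental_algebraMap_iff (algebraMap ↥K⟮x⟯ F).injective).mp (by rw [hgx]; exact hx)
  have hgtop : K⟮g⟯ = (⊤ : IntermediateField K ↥K⟮x⟯) := adjoin_gen_eq_top_u x
  have hfinE : FiniteDimensional ↥K⟮g⟯ ↥K⟮x⟯ := (finrank_of_eq_top_u K⟮g⟯ hgtop).1
  have hzE : H59.ZerosStmt K ↥K⟮x⟯ := zerosStmt_u hgtr
  have hzF : H59.ZerosStmt K F := zerosStmt_u hx
  set y : ↥K⟮x⟯ := g - algebraMap K ↥K⟮x⟯ a with hy
  have hytr : Transcendental K y := by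
    intro halg
    apply hgtr
    have h1 : g = y + algebraMap K ↥K⟮x⟯ a := by rw [hy]; ring
    rw [h1]
    exact halg.add (isAlgebraic_algebraMap a)
  have hytop : K⟮y⟯ = (⊤ : IntermediateField K ↥K⟮x⟯) := by
    rw [eq_top_iff, ← hgtop, adjoin_simple_le_iff]
    have h1 : g = y + algebraMap K ↥K⟮x⟯ a := by rw [hy]; ring
    rw [h1]
    exact add_mem (mem_adjoin_simple_self K y) (IntermediateField.algebraMap_mem _ a)
  obtain ⟨v₀, hv₀, huniq⟩ := exists_unique_zero_of_top_u hzE y hytr hytop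
  have hyx : algebraMap ↥K⟮x⟯ F y = x - algebraMap K F a := by
    rw [hy, map_sub, hgx, ← IsScalarTower.algebraMap_apply]
  -- `X` lies over `v₀` and is unramified
  have hXv : X.restrict ↥K⟮x⟯ = v₀ := by
    apply huniq
    have h1 := X.ord_restrict y
    rw [hyx, hX] at h1
    have hepos := X.ramificationIndex_pos (F := ↥K⟮x⟯)
    by_contra hneg
    rw [not_lt] at hneg
    have : (X.ramificationIndex ↥K⟮x⟯ : ℤ) * (X.restrict ↥K⟮x⟯).ord y ≤ 0 :=
      mul_nonpos_of_nonneg_of_nonpos (by omega) hneg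
    omega
  have heX : (X.ramificationIndex ↥K⟮x⟯ : ℤ) = 1 := by
    have h1 := X.ord_restrict y
    rw [hyx, hX, hXv, hv₀, mul_one] at h1
    exact h1.symm
  refine ⟨v₀.fiber F, ?_, ?_⟩
  · intro P
    rw [Place.mem_fiber]
    constructor
    · intro hPv
      rw [← hyx, P.ord_restrict y, hPv, hv₀, mul_one]
      have := P.ramificationIndex_pos (F := ↥K⟮x⟯)
      omega
    · intro h1
      apply huniq
      rw [← hyx, P.ord_restrict y] at h1
      have hepos := P.ramificationIndex_pos (F := ↥K⟮x⟯)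
      by_contra hneg
      rw [not_lt] at hneg
      have : (P.ramificationIndex ↥K⟮x⟯ : ℤ) * (P.restrict ↥K⟮x⟯).ord y ≤ 0 :=
        mul_nonpos_of_nonneg_of_nonpos (by omega) hneg
      omega
  · intro f hf
    have hdegF : ∀ w : Place K F, w.deg = 1 := fun w => ff_deg_eq_one x hx w
    have hsum := sum_ramificationIndex_eq hzE hzF hgtr hx v₀ (v₀.fiber F)
      (fun w => Place.mem_fiber)
    rw [← norm_ord v₀ (v₀.fiber F) (fun w hw => Place.mem_fiber.mp hw) hsum hdegF hf,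
      X.ord_restrict, hXv, heX, one_mul]

end Fermat.Agent.S27.Char0.Lift.H45

end
end
-- ==== END Fermat.Agent.S27.Char0.Lift.H45_Fibre

-- ==== BEGIN Fermat.Agent.S27.Char0.Lift.H45_JacConst
section

/-!
# S27 LIFT / SOLVE, leaf JAC-CONST (helper45)

`stmt_JacConst_of : Stmt_TracePole → Solve.Stmt_JacConst`.

`w := dh / ht ∈ L(n · ptsDiv A)`.  If `w` had a pole of order `m ≥ 2` at some `Q ∈ A`, then by
TRACEPOLE (the other zeros of `xt - α_Q` are outside `A`, where `w` is regular) the trace of `w`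
would have a pole of order `m` at `Q`.  So `w ∈ L(ptsDiv A) = k`.
-/

set_option autoImplicit false

noncomputable section

open AlgebraicCurve IntermediateField

namespace Fermat.Agent.S27.Char0.Lift.H45

open Fermat.Agent.RED.H17 Fermat.Agent.S27.Char0

attribute [local instance] Classical.propDecidable

local notation "L" => riemannRochSpace

universe u' v'

theorem stmt_JacConst_of (hTP : Stmt_TracePole.{u', v'}) : Solve.Stmt_JacConst.{u', v'} := by
  intro k Ft _ _ _ _ H' xt hxt hfin hsep g n E Gd dh hdh htr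
  by_cases hdh0 : dh = 0
  · exact ⟨0, by rw [hdh0, map_zero, zero_mul]⟩
  have hht0 := Gd.ht_ne
  have hw0 : dh * Gd.ht⁻¹ ≠ 0 := mul_ne_zero hdh0 (inv_ne_zero hht0)
  have hordw : ∀ Q : Place k Ft, Q.ord (dh * Gd.ht⁻¹) = Q.ord dh - Q.ord Gd.ht := by
    intro Q
    rw [Q.ord_mul hdh0 (inv_ne_zero hht0), Place.ord_inv]
    ring
  have hge : ∀ Q : Place k Ft, -((n : ℤ) * ptsDiv Gd.A Q) ≤ Q.ord (dh * Gd.ht⁻¹) := by
    intro Q
    have h1 := ord_ge_of_mem_L hdh hdh0 Q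
    rw [Finsupp.smul_apply, smul_eq_mul] at h1
    rw [hordw, Gd.div_ht Q]
    linarith
  -- outside `A` the function `w` is regular
  have hout : ∀ Q : Place k Ft, Q ∉ Gd.A → 0 ≤ Q.ord (dh * Gd.ht⁻¹) := by
    intro Q hQ
    have := hge Q
    rw [ptsDiv_apply, if_neg hQ, mul_zero, neg_zero] at this
    exact this
  -- at the points of `A` the poles are at most simple
  have hin : ∀ Q ∈ Gd.A, -1 ≤ Q.ord (dh * Gd.ht⁻¹) := by
    intro Q hQ
    by_contra hlt
    rw [not_le] at hlt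
    obtain ⟨m, hm⟩ : ∃ m : ℕ, Q.ord (dh * Gd.ht⁻¹) = -(m : ℤ) :=
      ⟨(-Q.ord (dh * Gd.ht⁻¹)).toNat, by rw [Int.toNat_of_nonneg (by omega)]; ring⟩
    have hmpos : 0 < m := by omega
    have hother : ∀ R : Place k Ft, R ≠ Q → 0 < R.ord (xt - algebraMap k Ft (Gd.α Q)) →
        0 ≤ R.ord (dh * Gd.ht⁻¹) := by
      intro R hRQ hR
      apply hout
      intro hRA
      apply hRQ
      have h1 : Gd.α R = Gd.α Q :=
        value_unique R (vanAt_of_ord_pos (by rw [Gd.simple R hRA]; exact one_pos))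
          (vanAt_of_ord_pos hR)
      exact Gd.inj R hRA Q hQ h1
    have h2 := hTP k Ft H' xt hxt hfin hsep (dh * Gd.ht⁻¹) (Gd.α Q) Q m hmpos
      (Gd.simple Q hQ) hm hother
    have h3 := htr Q hQ
    omega
  have hmem : dh * Gd.ht⁻¹ ∈ L (ptsDiv Gd.A) := by
    rw [mem_L_iff_ord]
    intro Q
    right
    by_cases hQ : Q ∈ Gd.A
    · rw [ptsDiv_apply, if_pos hQ]
      exact hin Q hQ
    · rw [ptsDiv_apply, if_neg hQ, neg_zero]
      exact hout Q hQ
  obtain ⟨γ, hγ⟩ := H'.const_of_mem_L (ptsDiv_nonneg Gd.A) (le_of_eq Gd.nonspecial) hmem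
  refine ⟨γ, ?_⟩
  rw [← hγ, mul_assoc, inv_mul_cancel₀ hht0, mul_one]

end Fermat.Agent.S27.Char0.Lift.H45

end
end
-- ==== END Fermat.Agent.S27.Char0.Lift.H45_JacConst

-- ==== BEGIN Fermat.Agent.S27.CharP.H38_H90
section

set_option autoImplicit false
set_option linter.style.haveILetI false

noncomputable section

open AlgebraicCurve Polynomial

attribute [local instance] Classical.propDecidable

namespace Fermat.Agent.S27.CharP.H38

open Fermat.Agent.RED.H17 Fermat.Agent.RED Fermat.Agent.S27.CharP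

universe u v

/-! ### H90B -/

section H90B

variable {k : Type u} {F : Type v} [Field k] [Field F] [Algebra k F] [IsAlgClosed k]
  {p Q : ℕ} {φ : SemilinearAut k F}

omit [IsAlgClosed k] in
theorem smul_ne_zero' (ψ : SemilinearAut k F) {f : F} (hf : f ≠ 0) : ψ • f ≠ 0 := by
  rw [SemilinearAut.smul_def]
  exact (map_ne_zero_iff _ (SemilinearAut.toRingAut ψ).injective).mpr hf

omit [IsAlgClosed k] in
theorem ord_finprod {ι : Type*} (v : Place k F) (s : Finset ι) (f : ι → F)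
    (hf : ∀ i ∈ s, f i ≠ 0) : v.ord (∏ i ∈ s, f i) = ∑ i ∈ s, v.ord (f i) := by
  induction s using Finset.induction_on with
  | empty => simp
  | insert i s hi ih =>
    rw [Finset.prod_insert hi, Finset.sum_insert hi,
      v.ord_mul (hf i (Finset.mem_insert_self i s))
        (Finset.prod_ne_zero_iff.mpr fun j hj => hf j (Finset.mem_insert_of_mem hj)),
      ih fun j hj => hf j (Finset.mem_insert_of_mem hj)]

/-- **H90B**. -/
theorem h90B (H : FFHyp k F) (hp : p.Prime) (hφ : IsFrob p Q φ) {f : F} (hf : f ≠ 0)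
    (hord : ∀ v : Place k F, v.ord (φ • f) = v.ord f) :
    ∃ c : k, c ≠ 0 ∧ φ • (algebraMap k F c * f) = algebraMap k F c * f := by
  have hφf : φ • f ≠ 0 := smul_ne_zero' φ hf
  have hu : ∀ v : Place k F, 0 ≤ v.ord ((φ • f) / f) := by
    intro v
    rw [ord_div v hφf hf, hord v, sub_self]
  obtain ⟨a, ha⟩ := H.const_of_regular hu
  have ha0 : a ≠ 0 := by
    rintro rfl
    rw [map_zero] at ha
    exact div_ne_zero hφf hf ha
  have hφf' : φ • f = algebraMap k F a * f := by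
    rw [← ha, div_mul_cancel₀ _ hf]
  have hQ := two_le_Q hp hφ
  obtain ⟨c, hc⟩ := IsAlgClosed.exists_pow_nat_eq a⁻¹ (show 0 < Q - 1 by omega)
  have hc0 : c ≠ 0 := by
    rintro rfl
    rw [zero_pow (by omega)] at hc
    exact inv_ne_zero ha0 hc.symm
  refine ⟨c, hc0, ?_⟩
  have hcQ : c ^ Q * a = c := by
    have e : c ^ Q = c ^ (Q - 1) * c := by
      rw [← pow_succ]
      congr 1
      omega
    rw [e, hc, mul_comm a⁻¹ c, mul_assoc, inv_mul_cancel₀ ha0, mul_one]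
  rw [smul_mul', SemilinearAut.smul_algebraMap, hφ.base, hφf', ← mul_assoc, ← map_mul, hcQ]

end H90B

/-! ### The resolvent -/

section Resolvent

variable {k : Type u} {F : Type v} [Field k] [Field F] [Algebra k F] [IsAlgClosed k]

/-- The equation `X ^ q = X` has `q` solutions in an algebraically closed field of
characteristic `p ∣ q`. -/
theorem card_roots_pow_sub (p : ℕ) [CharP k p] {q : ℕ} (hpq : p ∣ q) (hq : 1 < q) :
    ((X ^ q - X : k[X]).roots.toFinset).card = q := by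
  have hsep : (X ^ q - X : k[X]).Separable := galois_poly_separable p q hpq
  rw [Multiset.toFinset_card_of_nodup (nodup_roots hsep), IsAlgClosed.card_roots_eq_natDegree,
    FiniteField.X_pow_card_sub_X_natDegree_eq k hq]

/-- **The resolvent is not identically zero**: for `b 0 = 1` there is `θ` with
`θ ^ (Q ^ n) = θ` and `∑_{i<n} b i θ ^ (Q ^ i) ≠ 0`. -/
theorem exists_resolvent_ne_zero (p : ℕ) [CharP k p] {Q n : ℕ} (hQ : 2 ≤ Q) (hpQ : p ∣ Q)
    (hn : 0 < n) (b : ℕ → F) (hb0 : b 0 = 1) :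
    ∃ θ : k, θ ^ (Q ^ n) = θ ∧
      ∑ i ∈ Finset.range n, b i * algebraMap k F (θ ^ (Q ^ i)) ≠ 0 := by
  set P : F[X] := ∑ i ∈ Finset.range n, C (b i) * X ^ (Q ^ i) with hPdef
  have heval : ∀ θ : k, eval (algebraMap k F θ) P =
      ∑ i ∈ Finset.range n, b i * algebraMap k F (θ ^ (Q ^ i)) := by
    intro θ
    rw [hPdef, eval_finsetSum]
    refine Finset.sum_congr rfl fun i _ => ?_
    rw [eval_mul, eval_C, eval_pow, eval_X, map_pow]
  -- `P ≠ 0`
  have hQi : ∀ i : ℕ, Q ^ i = 1 ↔ i = 0 := by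
    intro i
    constructor
    · intro h
      by_contra hi
      have h1 : Q ^ 1 ≤ Q ^ i := Nat.pow_le_pow_right (by omega) (Nat.pos_of_ne_zero hi)
      rw [pow_one] at h1
      omega
    · rintro rfl
      exact pow_zero Q
  have hcoeff : P.coeff 1 = 1 := by
    rw [hPdef, finsetSum_coeff]
    rw [Finset.sum_eq_single 0]
    · rw [coeff_C_mul, pow_zero, pow_one, coeff_X_one, mul_one, hb0]
    · intro i _ hi
      rw [coeff_C_mul, coeff_X_pow, if_neg, mul_zero]
      intro h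
      exact hi ((hQi i).1 h.symm)
    · intro h
      exact absurd (Finset.mem_range.2 hn) h
  have hP0 : P ≠ 0 := by
    intro h0
    rw [h0, coeff_zero] at hcoeff
    exact zero_ne_one hcoeff
  -- degree
  have hdeg : P.natDegree ≤ Q ^ (n - 1) := by
    rw [hPdef]
    refine natDegree_sum_le_of_forall_le _ _ fun i hi => ?_
    refine (natDegree_C_mul_X_pow_le (b i) (Q ^ i)).trans ?_
    exact Nat.pow_le_pow_right (by omega) (by have := Finset.mem_range.1 hi; omega)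
  -- counting
  by_contra hcon
  push Not at hcon
  set E : Finset k := (X ^ (Q ^ n) - X : k[X]).roots.toFinset with hE
  have hqn : 1 < Q ^ n := by
    calc 1 < Q := by omega
      _ = Q ^ 1 := (pow_one Q).symm
      _ ≤ Q ^ n := Nat.pow_le_pow_right (by omega) hn
  have hpoly : (X ^ (Q ^ n) - X : k[X]) ≠ 0 := by
    intro h0
    have := FiniteField.X_pow_card_sub_X_natDegree_eq k hqn
    rw [h0, natDegree_zero] at this
    omega
  have hEcard : E.card = Q ^ n :=
    card_roots_pow_sub p (dvd_pow hpQ (by omega)) hqn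
  have hEmem : ∀ θ ∈ E, θ ^ (Q ^ n) = θ := by
    intro θ hθ
    rw [hE, Multiset.mem_toFinset, mem_roots hpoly, IsRoot.def, eval_sub, eval_pow, eval_X,
      sub_eq_zero] at hθ
    exact hθ
  set Z : Finset F := E.image (algebraMap k F) with hZ
  have hZcard : Z.card = Q ^ n := by
    rw [hZ, Finset.card_image_of_injective _ (algebraMap k F).injective, hEcard]
  have hsub : Z.val ⊆ P.roots := by
    intro z hz
    rw [Finset.mem_val, hZ, Finset.mem_image] at hz
    obtain ⟨θ, hθ, rfl⟩ := hz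
    rw [mem_roots hP0, IsRoot.def, heval]
    exact hcon θ (hEmem θ hθ)
  have h1 := card_le_degree_of_subset_roots hsub
  rw [hZcard] at h1
  have h2 : Q ^ (n - 1) < Q ^ n := Nat.pow_lt_pow_right (by omega) (by omega)
  omega

end Resolvent

/-! ### H90A -/

section H90A

variable {k : Type u} {F : Type v} [Field k] [Field F] [Algebra k F] [IsAlgClosed k]
  {p Q : ℕ} {φ : SemilinearAut k F}

omit [IsAlgClosed k] in
/-- The order of `φ ^ i • f` when `div f = φ D - D`. -/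
theorem ord_pow_smul_of_div (D : Divisor k F) {f : F}
    (hf : ∀ v : Place k F, (φ • D - D) v = v.ord f) (i : ℕ) (v : Place k F) :
    v.ord ((φ ^ i) • f) = D ((φ ^ (i + 1))⁻¹ • v) - D ((φ ^ i)⁻¹ • v) := by
  have h1 := SemilinearAut.ord_smul (φ ^ i) ((φ ^ i)⁻¹ • v) f
  rw [smul_inv_smul] at h1
  rw [h1, ← hf, Finsupp.sub_apply, SemilinearAut.divisor_smul_apply, smul_smul, ← mul_inv_rev,
    ← pow_succ]

/-- **H90A**. -/
theorem h90A (H : FFHyp k F) (hp : p.Prime) [CharP k p] (hφ : IsFrob p Q φ) (D : Divisor k F)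
    (hD : φ • D - D ∈ Divisor.principal (K := k) (F := F)) :
    ∃ D₁ : Divisor k F, φ • D₁ = D₁ ∧ D₁ - D ∈ Divisor.principal (K := k) (F := F) := by
  obtain ⟨f, hf0, hf⟩ := hD
  obtain ⟨n, hn, hnD⟩ := exists_pow_smul_divisor_eq H.principal hφ D
  have hQ := two_le_Q hp hφ
  have hpQ : p ∣ Q := by
    obtain ⟨a, ha, rfl⟩ := hφ.pow
    exact dvd_pow_self p (by omega)
  -- the norm of `f` is a constant
  have hfi : ∀ i : ℕ, (φ ^ i) • f ≠ 0 := fun i => smul_ne_zero' _ hf0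
  have hN0 : ∏ i ∈ Finset.range n, (φ ^ i) • f ≠ 0 :=
    Finset.prod_ne_zero_iff.mpr fun i _ => hfi i
  have hNord : ∀ v : Place k F, v.ord (∏ i ∈ Finset.range n, (φ ^ i) • f) = 0 := by
    intro v
    rw [ord_finprod v _ _ fun i _ => hfi i]
    rw [Finset.sum_congr rfl fun i _ => ord_pow_smul_of_div D hf i v]
    rw [Finset.sum_range_sub (fun i => D ((φ ^ i)⁻¹ • v)) n, pow_zero, inv_one, one_smul,
      ← SemilinearAut.divisor_smul_apply, hnD, sub_self]
  obtain ⟨a, ha⟩ := H.const_of_regular fun v => (hNord v).ge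
  have ha0 : a ≠ 0 := by
    rintro rfl
    rw [map_zero] at ha
    exact hN0 ha
  -- the scale
  set M : ℕ := ∑ i ∈ Finset.range n, Q ^ i with hM
  have hMpos : 0 < M := by
    rw [hM]
    refine Finset.sum_pos (fun i _ => Nat.pos_of_ne_zero (pow_ne_zero i (by omega))) ?_
    exact ⟨0, Finset.mem_range.2 hn⟩
  obtain ⟨c, hc⟩ := IsAlgClosed.exists_pow_nat_eq a⁻¹ hMpos
  have hc0 : c ≠ 0 := by
    rintro rfl
    rw [zero_pow hMpos.ne'] at hc
    exact inv_ne_zero ha0 hc.symm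
  set f' : F := algebraMap k F c * f with hf'
  have hf'0 : f' ≠ 0 :=
    mul_ne_zero ((map_ne_zero_iff _ (algebraMap k F).injective).mpr hc0) hf0
  have hf'ord : ∀ v : Place k F, v.ord f' = v.ord f := fun v => ord_algebraMap_mul v hc0 f
  have hf'i : ∀ i : ℕ, (φ ^ i) • f' = algebraMap k F (c ^ (Q ^ i)) * (φ ^ i) • f := by
    intro i
    rw [hf', smul_mul', smul_pow_algebraMap hφ]
  -- the partial norms
  set b : ℕ → F := fun i => ∏ j ∈ Finset.range i, (φ ^ j) • f' with hb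
  have hb0 : b 0 = 1 := by
    rw [hb]
    exact Finset.prod_range_zero _
  have hbn : b n = 1 := by
    show ∏ j ∈ Finset.range n, (φ ^ j) • f' = 1
    rw [Finset.prod_congr rfl fun i _ => hf'i i, Finset.prod_mul_distrib, ha, ← map_prod,
      Finset.prod_pow_eq_pow_sum, ← hM, hc, ← map_mul, inv_mul_cancel₀ ha0, map_one]
  have hbstep : ∀ i : ℕ, f' * φ • (b i) = b (i + 1) := by
    intro i
    show f' * φ • (∏ j ∈ Finset.range i, (φ ^ j) • f') = ∏ j ∈ Finset.range (i + 1), (φ ^ j) • f'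
    rw [Finset.prod_range_succ', pow_zero, one_smul, mul_comm]
    congr 1
    rw [SemilinearAut.smul_def, map_prod]
    refine Finset.prod_congr rfl fun j _ => ?_
    rw [← SemilinearAut.smul_def, smul_smul, ← pow_succ']
  -- the resolvent
  obtain ⟨θ, hθ, hh0⟩ := exists_resolvent_ne_zero (k := k) (F := F) p hQ hpQ hn b hb0
  set g : ℕ → F := fun i => b i * algebraMap k F (θ ^ (Q ^ i)) with hg
  set h : F := ∑ i ∈ Finset.range n, g i with hh
  have hgstep : ∀ i : ℕ, f' * φ • (g i) = g (i + 1) := by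
    intro i
    show f' * φ • (b i * algebraMap k F (θ ^ (Q ^ i))) =
      b (i + 1) * algebraMap k F (θ ^ (Q ^ (i + 1)))
    rw [smul_mul', ← mul_assoc, hbstep i, SemilinearAut.smul_algebraMap, hφ.base, ← pow_mul,
      ← pow_succ]
  have hgn : g n = g 0 := by
    show b n * algebraMap k F (θ ^ (Q ^ n)) = b 0 * algebraMap k F (θ ^ (Q ^ 0))
    rw [hbn, hb0, hθ, pow_zero, pow_one]
  have hkey : f' * φ • h = h := by
    rw [hh, Finset.smul_sum, Finset.mul_sum, Finset.sum_congr rfl fun i _ => hgstep i]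
    have e1 := Finset.sum_range_succ' g n
    have e2 := Finset.sum_range_succ g n
    rw [e2, hgn] at e1
    exact (add_right_cancel e1).symm
  -- the divisor
  obtain ⟨Dh, hDh, -⟩ := H.principal.exists_divisor h hh0
  refine ⟨D + Dh, ?_, ⟨h, hh0, fun v => by rw [add_sub_cancel_left, hDh v]⟩⟩
  ext v
  have h1 : (φ • D) v = D v + v.ord f' := by
    rw [hf'ord v, ← hf v, Finsupp.sub_apply]
    ring
  have h2 : (φ • Dh) v = v.ord (φ • h) := by
    rw [SemilinearAut.divisor_smul_apply, hDh]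
    have := SemilinearAut.ord_smul φ (φ⁻¹ • v) h
    rw [smul_inv_smul] at this
    exact this.symm
  have h3 : v.ord f' + v.ord (φ • h) = v.ord h := by
    rw [← v.ord_mul hf'0 (smul_ne_zero' φ hh0), hkey]
  rw [smul_add, Finsupp.add_apply, Finsupp.add_apply, h1, h2, hDh v]
  omega

end H90A

/-- Leaf **H90A**. -/
theorem stmt_H90A : Stmt_H90A.{u, v} := by
  intro k F _ _ _ _ p _ hp H Q φ hφ D hD
  exact h90A H hp hφ D hD

/-- Leaf **H90B**. -/
theorem stmt_H90B : Stmt_H90B.{u, v} := by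
  intro k F _ _ _ _ p _ hp H Q φ hφ f hf hord
  exact h90B H hp hφ hf hord

end Fermat.Agent.S27.CharP.H38

end
end
-- ==== END Fermat.Agent.S27.CharP.H38_H90

-- ==== BEGIN Fermat.Agent.S27.IW.H68_Defs2
section

set_option autoImplicit false

namespace Fermat.Agent.S27.IW

/-- **IW-GROWTH** -/
def Stmt_IW_Growth.{u} : Prop :=
  ∀ (ℓ : ℕ) [Fact ℓ.Prime] (G : Type u) [AddCommGroup G] (φ : G →+ G) (n : ℕ)
    (A : Matrix (Fin n) (Fin n) ℤ), Hyp ℓ φ A →
    ∃ e c₀ : ℕ, 0 < e ∧ H68.Growth ℓ (φ.toIntLinearMap ^ e) n c₀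

end Fermat.Agent.S27.IW

end
-- ==== END Fermat.Agent.S27.IW.H68_Defs2

-- ==== BEGIN Fermat.Agent.S27.IW.H68_Tors
section

set_option autoImplicit false
set_option linter.unusedSectionVars false
set_option linter.unusedVariables false
set_option linter.style.haveILetI false

open Finset

namespace Fermat.Agent.S27.IW.H68

variable {G : Type*} [AddCommGroup G] {ℓ : ℕ} {Φ : Module.End ℤ G} {n c₀ : ℕ}

theorem sub_one_apply_eq_zero (Ψ : Module.End ℤ G) (x : G) : (Ψ - 1) x = 0 ↔ Ψ x = x := by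
  rw [LinearMap.sub_apply, Module.End.one_apply, sub_eq_zero]

/-- the step of the lower sandwich -/
theorem tors_step (hℓ : ℓ.Prime) (Ψ : Module.End ℤ G) (k : ℕ)
    (h : tors G (ℓ ^ (k + 1)) ≤ fixE Ψ) : tors G (ℓ ^ (k + 2)) ≤ fixE (Ψ ^ ℓ) := by
  intro x hx
  rw [mem_tors] at hx
  rw [mem_fixE]
  have h1 : ℓ • x ∈ tors G (ℓ ^ (k + 1)) := by
    rw [mem_tors, ← mul_smul, ← pow_succ]
    exact hx
  have h2 : ℓ • (Ψ - 1) x = 0 := by
    rw [← end_nsmul, sub_one_apply_eq_zero]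
    exact h h1
  have h3 : (Ψ - 1) x ∈ tors G (ℓ ^ (k + 1)) := by
    have h4 : (Ψ - 1) x ∈ tors G (ℓ ^ 1) := by
      rw [mem_tors, pow_one]
      exact h2
    exact tors_mono ℓ (Nat.succ_le_succ (Nat.zero_le k)) h4
  have h5 : (Ψ - 1) ((Ψ - 1) x) = 0 := (sub_one_apply_eq_zero Ψ _).2 (h h3)
  rw [pow_prime_apply ℓ hℓ Ψ x h2]
  obtain ⟨d, hd⟩ := Nat.exists_eq_add_of_le hℓ.two_le
  have h6 : ((Ψ - 1) ^ ℓ) x = 0 := by
    rw [hd, add_comm, pow_add, pow_two, Module.End.mul_apply, Module.End.mul_apply, h5, map_zero]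
  rw [h6, add_zero]

/-- the lower sandwich -/
theorem Growth.tors_pow_le (hℓ : ℓ.Prime) (h : Growth ℓ Φ n c₀) :
    ∃ j₁, ∀ k, tors G (ℓ ^ (k + 1)) ≤ fixE (Φ ^ (ℓ ^ (j₁ + k))) := by
  obtain ⟨j₁, hj₁⟩ := h.tors_le hℓ
  refine ⟨j₁, ?_⟩
  intro k
  induction k with
  | zero =>
    intro x hx
    apply hj₁
    rw [mem_tors] at hx ⊢
    rw [zero_add, pow_one] at hx
    exact hx
  | succ k ih =>
    have h1 := tors_step hℓ _ k ih
    rw [← pow_mul, ← pow_succ] at h1
    exact h1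

theorem Growth.tors_pow_le_Tj (hℓ : ℓ.Prime) (h : Growth ℓ Φ n c₀) :
    ∃ j₁, ∀ k, tors G (ℓ ^ (k + 1)) ≤ Tj ℓ Φ (j₁ + k) := by
  obtain ⟨j₁, hj₁⟩ := h.tors_pow_le hℓ
  exact ⟨j₁, fun k => le_inf (hj₁ k) (tors_le_prim ℓ (k + 1))⟩

/-- **IW-FIN** from the growth -/
theorem Growth.tors_finite (hℓ : ℓ.Prime) (h : Growth ℓ Φ n c₀) (k : ℕ) :
    Finite ↥(tors G (ℓ ^ k)) := by
  obtain ⟨j₁, hj₁⟩ := h.tors_pow_le_Tj hℓ
  haveI := h.fin (j₁ + k)
  have h1 : tors G (ℓ ^ k) ≤ Tj ℓ Φ (j₁ + k) := (tors_mono ℓ (Nat.le_succ k)).trans (hj₁ k)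
  exact Finite.of_injective (AddSubgroup.inclusion h1) (AddSubgroup.inclusion_injective h1)

/-- **IW-BOUND** from the growth -/
theorem Growth.tors_card_le (hℓ : ℓ.Prime) (h : Growth ℓ Φ n c₀) :
    ∃ C : ℕ, ∀ k, Nat.card ↥(tors G (ℓ ^ k)) ≤ C * ℓ ^ (n * k) := by
  obtain ⟨j₁, hj₁⟩ := h.tors_pow_le_Tj hℓ
  refine ⟨ℓ ^ (c₀ + n * j₁), ?_⟩
  intro k
  haveI := h.fin (j₁ + k)
  have h1 : tors G (ℓ ^ k) ≤ Tj ℓ Φ (j₁ + k) := (tors_mono ℓ (Nat.le_succ k)).trans (hj₁ k)
  have h2 := AddSubgroup.card_le_of_le h1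
  rw [h.card] at h2
  rw [← pow_add]
  have h3 : c₀ + n * (j₁ + k) = c₀ + n * j₁ + n * k := by ring
  rw [← h3]
  exact h2

/-- the key step of the upper sandwich -/
theorem smul_fix (hℓ : ℓ.Prime) (Ψ : Module.End ℤ G) (h2 : tors G (ℓ ^ 2) ≤ fixE Ψ)
    (x : G) (hx : x ∈ prim G ℓ) (hfix : (Ψ ^ ℓ) x = x) : Ψ (ℓ • x) = ℓ • x := by
  set D := Ψ - 1 with hD
  set Q : Module.End ℤ G := ∑ i ∈ range ℓ, ∑ k ∈ range i, Ψ ^ k with hQ
  have hN : (∑ i ∈ range ℓ, Ψ ^ i) = (ℓ : Module.End ℤ G) + Q * D := by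
    have h1 : (∑ i ∈ range ℓ, Ψ ^ i) - (ℓ : Module.End ℤ G) = Q * D := by
      have h3 : (ℓ : Module.End ℤ G) = ∑ i ∈ range ℓ, (1 : Module.End ℤ G) := by
        rw [sum_const, card_range, nsmul_one]
      rw [h3, ← sum_sub_distrib, hQ, sum_mul]
      apply sum_congr rfl
      intro i _
      rw [hD, geom_sum_mul]
    rw [← h1]
    abel
  have hND : (∑ i ∈ range ℓ, Ψ ^ i) * D = Ψ ^ ℓ - 1 := geom_sum_mul Ψ ℓ
  set z := D x with hz
  have hz0 : (ℓ : Module.End ℤ G) z + Q (D z) = 0 := by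
    have h3 : ((∑ i ∈ range ℓ, Ψ ^ i) * D) x = 0 := by
      rw [hND, sub_one_apply_eq_zero]
      exact hfix
    rw [Module.End.mul_apply, hN, LinearMap.add_apply, Module.End.mul_apply] at h3
    exact h3
  have hcast : ∀ y : G, (ℓ : Module.End ℤ G) y = ℓ • y := by
    intro y
    rw [← Nat.cast_smul_eq_nsmul ℤ]
    simp
  rw [hcast] at hz0
  have hzl : ℓ • z = -Q (D z) := eq_neg_of_add_eq_zero_left hz0
  have key : ∀ b : ℕ, (ℓ ^ b) • z = 0 → ℓ • z = 0 := by
    intro b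
    induction b with
    | zero =>
      intro hb
      rw [pow_zero, one_smul] at hb
      rw [hb, smul_zero]
    | succ b ih =>
      intro hb
      rcases Nat.eq_zero_or_pos b with rfl | hbpos
      · rw [zero_add, pow_one] at hb
        exact hb
      · obtain ⟨b', rfl⟩ := Nat.exists_eq_succ_of_ne_zero hbpos.ne'
        apply ih
        have h3 : (ℓ ^ b') • z ∈ tors G (ℓ ^ 2) := by
          rw [mem_tors, ← mul_smul, ← pow_add, add_comm]
          exact hb
        have h4 : D ((ℓ ^ b') • z) = 0 := (sub_one_apply_eq_zero Ψ _).2 (h2 h3)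
        rw [end_nsmul] at h4
        have h5 : (ℓ ^ b') • Q (D z) = 0 := by
          rw [← end_nsmul, h4, map_zero]
        rw [pow_succ, mul_smul, hzl, smul_neg, h5, neg_zero]
  obtain ⟨b, hb⟩ := hx
  have hzb : (ℓ ^ b) • z = 0 := by
    rw [hz, ← end_nsmul, hb, map_zero]
  have h6 := key b hzb
  rw [hz, ← end_nsmul] at h6
  exact (sub_one_apply_eq_zero Ψ _).1 h6

theorem smul_mem_Tj (hℓ : ℓ.Prime) (j : ℕ) (h2 : tors G (ℓ ^ 2) ≤ fixE (Φ ^ (ℓ ^ j)))
    (x : G) (hx : x ∈ Tj ℓ Φ (j + 1)) : ℓ • x ∈ Tj ℓ Φ j := by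
  obtain ⟨h3, h4⟩ := hx
  refine ⟨?_, ?_⟩
  · apply smul_fix hℓ _ h2 x h4
    rw [← pow_mul, ← pow_succ]
    exact h3
  · exact (prim G ℓ).nsmul_mem h4 ℓ

/-- the upper sandwich -/
theorem Growth.Tj_le_tors (hℓ : ℓ.Prime) (h : Growth ℓ Φ n c₀) :
    ∃ j₂ a₀, ∀ i, Tj ℓ Φ (j₂ + i) ≤ tors G (ℓ ^ (a₀ + i)) := by
  obtain ⟨j₁, hj₁⟩ := h.tors_pow_le hℓ
  refine ⟨j₁ + 1, c₀ + n * (j₁ + 1), ?_⟩
  intro i
  induction i with
  | zero =>
    intro x hx
    haveI := h.fin (j₁ + 1)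
    have h1 : Nat.card ↥(Tj ℓ Φ (j₁ + 1)) • (⟨x, hx⟩ : ↥(Tj ℓ Φ (j₁ + 1))) = 0 :=
      card_nsmul_eq_zero'
    rw [h.card] at h1
    have h2 := congrArg (Subtype.val : ↥(Tj ℓ Φ (j₁ + 1)) → G) h1
    rw [AddSubgroup.coe_nsmul] at h2
    exact h2
  | succ i ih =>
    intro x hx
    have h2 : tors G (ℓ ^ 2) ≤ fixE (Φ ^ (ℓ ^ (j₁ + 1 + i))) :=
      (hj₁ 1).trans (fixE_mono ℓ Φ (Nat.le_add_right _ _))
    have h3 := ih (smul_mem_Tj hℓ _ h2 x hx)
    rw [mem_tors] at h3 ⊢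
    rw [← add_assoc, pow_succ, mul_smul]
    exact h3

/-- multiplication by `ℓ` from `G[ℓ^(k+1)]` to `G[ℓ^k]` -/
def mulL (G : Type*) [AddCommGroup G] (ℓ k : ℕ) : ↥(tors G (ℓ ^ (k + 1))) →+ ↥(tors G (ℓ ^ k)) where
  toFun x := ⟨ℓ • (x : G), by
    rw [mem_tors, ← mul_smul, ← pow_succ]
    exact x.2⟩
  map_zero' := by
    apply Subtype.ext
    simp
  map_add' := by
    intro a b
    apply Subtype.ext
    simp

theorem mulL_surjective (hdiv : ∀ x : G, ∃ y : G, ℓ • y = x) (k : ℕ) :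
    Function.Surjective (mulL G ℓ k) := by
  rintro ⟨y, hy⟩
  obtain ⟨x, hx⟩ := hdiv y
  refine ⟨⟨x, ?_⟩, Subtype.ext hx⟩
  rw [mem_tors, pow_succ, mul_smul, hx]
  exact hy

/-- the kernel of `mulL` is `G[ℓ]` -/
def kerEquiv (G : Type*) [AddCommGroup G] (ℓ k : ℕ) : ↥(mulL G ℓ k).ker ≃ ↥(tors G ℓ) where
  toFun x := ⟨((x : ↥(tors G (ℓ ^ (k + 1)))) : G), by
    have h := x.2
    rw [AddMonoidHom.mem_ker] at h
    exact congrArg Subtype.val h⟩
  invFun y := ⟨⟨(y : G), by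
    have h : tors G (ℓ ^ 1) ≤ tors G (ℓ ^ (k + 1)) := tors_mono ℓ (Nat.succ_le_succ (Nat.zero_le k))
    apply h
    rw [mem_tors, pow_one]
    exact y.2⟩, by
    rw [AddMonoidHom.mem_ker]
    apply Subtype.ext
    exact y.2⟩
  left_inv x := rfl
  right_inv y := rfl

theorem card_tors_succ (hdiv : ∀ x : G, ∃ y : G, ℓ • y = x) (k : ℕ) :
    Nat.card ↥(tors G (ℓ ^ (k + 1))) = Nat.card ↥(tors G (ℓ ^ k)) * Nat.card ↥(tors G ℓ) := by
  rw [AddSubgroup.card_eq_card_quotient_mul_card_addSubgroup (mulL G ℓ k).ker,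
    Nat.card_congr (kerEquiv G ℓ k),
    Nat.card_congr (QuotientAddGroup.quotientKerEquivOfSurjective (mulL G ℓ k)
      (mulL_surjective hdiv k)).toEquiv]

theorem card_tors_pow (hdiv : ∀ x : G, ∃ y : G, ℓ • y = x) (k : ℕ) :
    Nat.card ↥(tors G (ℓ ^ k)) = Nat.card ↥(tors G ℓ) ^ k := by
  induction k with
  | zero =>
    rw [pow_zero, pow_zero]
    have h1 : ∀ x : ↥(tors G 1), x = 0 := by
      rintro ⟨x, hx⟩
      apply Subtype.ext
      rw [mem_tors, one_smul] at hx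
      exact hx
    haveI : Subsingleton ↥(tors G 1) := ⟨fun a b => (h1 a).trans (h1 b).symm⟩
    exact Nat.card_unique
  | succ k ih =>
    rw [card_tors_succ hdiv k, ih, pow_succ]

/-- **IW-CARD** from the growth -/
theorem Growth.tors_card (hℓ : ℓ.Prime) (h : Growth ℓ Φ n c₀)
    (hdiv : ∀ x : G, ∃ y : G, ℓ • y = x) (k : ℕ) :
    Nat.card ↥(tors G (ℓ ^ k)) = ℓ ^ (n * k) := by
  obtain ⟨j₁, hj₁⟩ := h.tors_pow_le_Tj hℓ
  obtain ⟨j₂, a₀, hj₂⟩ := h.Tj_le_tors hℓ
  -- `#G[ℓ]` is a power of `ℓ`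
  have hR : ∃ r, Nat.card ↥(tors G ℓ) = ℓ ^ r := by
    haveI := h.fin (j₁ + 0)
    have h1 : tors G ℓ ≤ Tj ℓ Φ (j₁ + 0) := by
      intro x hx
      apply hj₁ 0
      rw [mem_tors] at hx ⊢
      rw [zero_add, pow_one]
      exact hx
    have h2 := AddSubgroup.card_dvd_of_le h1
    rw [h.card] at h2
    obtain ⟨r, _, hr⟩ := (Nat.dvd_prime_pow hℓ).1 h2
    exact ⟨r, hr⟩
  obtain ⟨r, hr⟩ := hR
  have hcard : ∀ k, Nat.card ↥(tors G (ℓ ^ k)) = ℓ ^ (r * k) := by
    intro k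
    rw [card_tors_pow hdiv k, hr, ← pow_mul]
  -- upper inequality
  have hup : ∀ k, r * (k + 1) ≤ c₀ + n * (j₁ + k) := by
    intro k
    haveI := h.fin (j₁ + k)
    have h2 := AddSubgroup.card_le_of_le (hj₁ k)
    rw [h.card, hcard] at h2
    exact (Nat.pow_le_pow_iff_right hℓ.one_lt).1 h2
  -- lower inequality
  have hlow : ∀ i, c₀ + n * (j₂ + i) ≤ r * (a₀ + i) := by
    intro i
    haveI := h.tors_finite hℓ (a₀ + i)
    have h2 := AddSubgroup.card_le_of_le (hj₂ i)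
    rw [h.card, hcard] at h2
    exact (Nat.pow_le_pow_iff_right hℓ.one_lt).1 h2
  have hrn : r = n := by
    apply le_antisymm
    · by_contra hcon
      have h1 : n + 1 ≤ r := by omega
      have h2 := hup (c₀ + n * j₁)
      have h3 : (n + 1) * (c₀ + n * j₁ + 1) ≤ r * (c₀ + n * j₁ + 1) :=
        Nat.mul_le_mul_right _ h1
      nlinarith
    · by_contra hcon
      have h1 : r + 1 ≤ n := by omega
      have h2 := hlow (r * a₀ + 1)
      have h3 : (r + 1) * (j₂ + (r * a₀ + 1)) ≤ n * (j₂ + (r * a₀ + 1)) :=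
        Nat.mul_le_mul_right _ h1
      nlinarith
  rw [hcard, hrn]

end Fermat.Agent.S27.IW.H68

end
-- ==== END Fermat.Agent.S27.IW.H68_Tors
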