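-- GENERATED (merged mirror, NOTES/tools/trim/merge3_helper67.py): 6 modules of the originals, bodies verbatim.
import Mathlib
import Fermat.Prelude.Def_AlgebraicCurve_DivisorClassGroup
import Fermat.Prelude.Def_ModularCurve_LaurentCoeff
import Fermat.Agent.Zm.S59_L03_002
import Fermat.Agent.Zm.S59_L03_000
import Fermat.Agent.Zm.S59_L01_000
import Fermat.Agent.Zm.S59_L03_001
import Fermat.Agent.Zm.S59_L02_001

-- ==== BEGIN Fermat.Agent.S27.Char0.Lift.H45_Lattice
section

/-!
# S27 LIFT, leaf LATTICE (helper45)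

`stmt_Lattice : Stmt_Lattice`.  `E' := σ_* Et'` for a section `σ` of `r` which lifts the poles of
`xt` to poles of `x`; `b P` is the value of `x` at `P`; the `f_j` are lifts to `L(n E') ∩ V` of
a basis of `L(n Et')` (helper17's `exists_lift`, as `l(n Et') = n g + 1 - g ≤ l(n E')` by
Riemann's inequality on `F`).
-/

set_option autoImplicit false

noncomputable section

open AlgebraicCurve IntermediateField

namespace Fermat.Agent.S27.Char0.Lift.H45

open Fermat.Agent.RED.H17 Fermat.Agent.S27.Char0 Fermat.Agent.S24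

attribute [local instance] Classical.propDecidable

local notation "L" => riemannRochSpace

universe u v u' v'

theorem stmt_Lattice : Stmt_Lattice.{u, v, u', v'} := by
  intro K F k Ft _ _ _ _ _ _ _ _ G H H' g c c' hg hg' n Et' heff hdeg N hN hrank
  have hP := H.principal
  have hinf : Infinite k := IsAlgClosed.instInfinite
  -- the section
  have hsec : ∀ Q : Place k Ft, ∃ P : Place K F, G.S.r P = Q ∧
      ((Q.ord (G.S.rd G.x) < 0) → P.ord G.x < 0) := by
    intro Q
    by_cases hQ : Q.ord (G.S.rd G.x) < 0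
    · obtain ⟨P, hPQ, hPx⟩ := exists_pole_over G H H' hQ
      exact ⟨P, hPQ, fun _ => hPx⟩
    · obtain ⟨P, hPQ⟩ := G.S.r_surjective hP Q
      exact ⟨P, hPQ, fun h => absurd h hQ⟩
  choose σ hσ hσpole using hsec
  have hσinj : Function.Injective σ := fun a b hab => by
    rw [← hσ a, ← hσ b, hab]
  set E' : Divisor K F := Finsupp.mapDomain σ Et' with hE'
  have hsupp : ∀ P ∈ E'.support, ∃ Q, σ Q = P := by
    intro P hPs
    have := Finsupp.mapDomain_support hPs
    obtain ⟨Q, -, hQ⟩ := Finset.mem_image.mp this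
    exact ⟨Q, hQ⟩
  have hpush : Finsupp.mapDomain G.S.r E' = Et' := by
    rw [hE', ← Finsupp.mapDomain_comp]
    have : G.S.r ∘ σ = id := funext hσ
    rw [this, Finsupp.mapDomain_id]
  have hE'nn : ∀ P, 0 ≤ E' P := fun P => mapDomain_nonneg' σ heff P
  -- the values
  have hvalue : ∀ P : Place K F, ∃ b : K, 0 ≤ (G.S.r P).ord (G.S.rd G.x) →
      (0 < P.ord (G.x - algebraMap K F b) ∧ algebraMap K F b ∈ G.S.V) := by
    intro P
    by_cases hPr : 0 ≤ (G.S.r P).ord (G.S.rd G.x)
    · obtain ⟨b, hb1, hb2, -⟩ := exists_value_x G H H' hPr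
      refine ⟨b, fun _ => ⟨hb1.ord_pos ?_, hb2⟩⟩
      intro h0
      apply x_transc G
      rw [sub_eq_zero.mp h0]
      exact isAlgebraic_algebraMap b
    · exact ⟨0, fun h => absurd h hPr⟩
  choose b hb using hvalue
  -- the lattice
  have hfinL : Module.Finite k (L ((n : ℤ) • Et')) := H'.finite _
  have hdegE' : Divisor.degree ((n : ℤ) • E') = n * g := by
    rw [map_zsmul, hE', degree_mapDomain H'.deg_one H.deg_one, hdeg, smul_eq_mul]
  have hpushn : Finsupp.mapDomain G.S.r ((n : ℤ) • E') = (n : ℤ) • Et' := by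
    rw [Finsupp.mapDomain_smul, hpush]
  have hle : Module.finrank k (L (Finsupp.mapDomain G.S.r ((n : ℤ) • E')))
      ≤ Module.finrank K (L ((n : ℤ) • E')) := by
    rw [hpushn, hrank]
    have h1 := (hg ((n : ℤ) • E')).1
    rw [hdegE'] at h1
    have h2 : (N : ℤ) ≤ (Module.finrank K (L ((n : ℤ) • E')) : ℤ) := by
      rw [hN]
      exact h1
    exact_mod_cast h2
  let bas : Module.Basis (Fin N) k (L ((n : ℤ) • Et')) := Module.finBasisOfFinrankEq k _ hrank
  have hlift : ∀ j : Fin N, ∃ u : F, u ∈ G.S.V ∧ u ∈ L ((n : ℤ) • E') ∧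
      G.S.rd u = (bas j : Ft) := by
    intro j
    have hy : (bas j : Ft) ∈ L (Finsupp.mapDomain G.S.r ((n : ℤ) • E')) := by
      rw [hpushn]
      exact (bas j).2
    exact G.S.exists_lift H H' hle hy
  choose f hfV hfL hfrd using hlift
  have hfeq : (fun j => G.S.rd (f j)) = fun j => (L ((n : ℤ) • Et')).subtype (bas j) := by
    funext j
    rw [hfrd j]
    rfl
  refine ⟨{
    E' := E'
    b := b
    f := f
    eff := hE'nn
    push := hpush
    one_per_disc := ?_
    pole := ?_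
    value := fun P _ hPr => (hb P hPr).1
    b_int := fun P _ hPr => (hb P hPr).2
    f_mem_V := hfV
    f_mem_L := hfL
    f_li := ?_
    f_span := ?_ }⟩
  · intro P hPs P' hPs' hrr
    obtain ⟨Q, rfl⟩ := hsupp P hPs
    obtain ⟨Q', rfl⟩ := hsupp P' hPs'
    rw [hσ, hσ] at hrr
    rw [hrr]
  · intro P hPs hPr
    obtain ⟨Q, rfl⟩ := hsupp P hPs
    rw [hσ] at hPr
    exact hσpole Q hPr
  · rw [hfeq]
    exact bas.linearIndependent.map' _ (Submodule.ker_subtype _)
  · intro y hy
    rw [hfeq]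
    have h1 : Submodule.span k (Set.range fun j => (L ((n : ℤ) • Et')).subtype (bas j))
        = Submodule.map (L ((n : ℤ) • Et')).subtype (Submodule.span k (Set.range bas)) := by
      rw [Submodule.map_span, ← Set.range_comp]
      rfl
    rw [h1, bas.span_eq, Submodule.map_top, Submodule.range_subtype]
    exact hy

end Fermat.Agent.S27.Char0.Lift.H45

end
end
-- ==== END Fermat.Agent.S27.Char0.Lift.H45_Lattice

-- ==== BEGIN Fermat.Agent.S27.Lift.H68_SolveAlg
section

/-!
# S27 / LIFT / SOLVE (helper68): the abstract norm system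

Pure algebra.  `O` valuation ring of the algebraically closed field `K`, residue map
`res : O → k`.  Given polynomials `Φ_e ∈ O[t_1..t_N]` (`e ≤ M = n g`, `N + g = M + 1`), a residual
solution `∑_e Φ~_e(τ) X^e = c~ ∏_i (X - α_i)^n` with distinct `α_i`, and injectivity of the
`t`-part of the linearised residual system, there is an exact solution
`∑_e Φ_e(t) X^e = c ∏_i (X - a_i)^n` over `O` lifting it.
-/

set_option linter.style.haveILetI false
set_option linter.unusedSectionVars false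
set_option linter.unusedSimpArgs false

namespace Fermat.Agent.S27.Lift.H68

open MvPolynomial

universe u v

section defs

variable {R : Type*} [CommRing R]

/-- The polynomial `∑_e c_e X^e`. -/
noncomputable def polyOfCoeffs (M : ℕ) (c : Fin (M + 1) → R) : Polynomial R :=
  ∑ e, Polynomial.C (c e) * Polynomial.X ^ (e : ℕ)

/-- `Π = ∏_i (X - a_i)^n`. -/
noncomputable def rootProd {g : ℕ} (n : ℕ) (a : Fin g → R) : Polynomial R :=
  ∏ i, (Polynomial.X - Polynomial.C (a i)) ^ n

/-- `Π_i = (X - a_i)^(n-1) ∏_{i' ≠ i} (X - a_i')^n`. -/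
noncomputable def rootProdErase {g : ℕ} (n : ℕ) (a : Fin g → R) (i : Fin g) : Polynomial R :=
  (Polynomial.X - Polynomial.C (a i)) ^ (n - 1) *
    ∏ i' ∈ Finset.univ.erase i, (Polynomial.X - Polynomial.C (a i')) ^ n

lemma eval_polyOfCoeffs (M : ℕ) (c : Fin (M + 1) → R) (x : R) :
    (polyOfCoeffs M c).eval x = ∑ e, c e * x ^ (e : ℕ) := by
  simp [polyOfCoeffs, Polynomial.eval_finsetSum]

lemma natDegree_polyOfCoeffs_le (M : ℕ) (c : Fin (M + 1) → R) :
    (polyOfCoeffs M c).natDegree ≤ M := by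
  refine Polynomial.natDegree_sum_le_of_forall_le _ _ fun e _ => ?_
  refine (Polynomial.natDegree_C_mul_X_pow_le _ _).trans ?_
  have := e.2
  omega

lemma map_polyOfCoeffs {S : Type*} [CommRing S] (φ : R →+* S) (M : ℕ) (c : Fin (M + 1) → R) :
    (polyOfCoeffs M c).map φ = polyOfCoeffs M fun e => φ (c e) := by
  simp [polyOfCoeffs, Polynomial.map_sum]

lemma eval_rootProd {g : ℕ} (n : ℕ) (a : Fin g → R) (x : R) :
    (rootProd n a).eval x = ∏ i, (x - a i) ^ n := by
  simp [rootProd, Polynomial.eval_prod]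

lemma eval_rootProdErase {g : ℕ} (n : ℕ) (a : Fin g → R) (i : Fin g) (x : R) :
    (rootProdErase n a i).eval x =
      (x - a i) ^ (n - 1) * ∏ i' ∈ Finset.univ.erase i, (x - a i') ^ n := by
  simp [rootProdErase, Polynomial.eval_prod]

lemma map_rootProd {S : Type*} [CommRing S] (φ : R →+* S) {g : ℕ} (n : ℕ) (a : Fin g → R) :
    (rootProd n a).map φ = rootProd n fun i => φ (a i) := by
  simp [rootProd, Polynomial.map_prod]

lemma rootProd_monic {g : ℕ} (n : ℕ) (a : Fin g → R) : (rootProd n a).Monic :=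
  Polynomial.monic_prod_of_monic _ _ fun i _ => (Polynomial.monic_X_sub_C (a i)).pow n

lemma natDegree_rootProd [Nontrivial R] {g : ℕ} (n : ℕ) (a : Fin g → R) :
    (rootProd n a).natDegree = n * g := by
  rw [rootProd, Polynomial.natDegree_prod_of_monic _ _
    (fun i _ => (Polynomial.monic_X_sub_C (a i)).pow n)]
  simp [(Polynomial.monic_X_sub_C _).natDegree_pow, mul_comm]

end defs

section system

variable {O : Type u} [CommRing O]

abbrev UnkS (N g : ℕ) : Type := Fin N ⊕ (Fin g ⊕ Unit)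
abbrev EqS (M : ℕ) : Type := Fin (M + 1) ⊕ Unit

/-- the product `∏_i (ξ - a_i)^n` in the unknowns -/
noncomputable def prodU (N : ℕ) {g : ℕ} (n : ℕ) (x : O) : MvPolynomial (UnkS N g) O :=
  ∏ i : Fin g, (C x - X (Sum.inr (Sum.inl i))) ^ n

/-- the product `(ξ - a_i)^(n-1) ∏_{i' ≠ i} (ξ - a_i')^n` in the unknowns -/
noncomputable def prodUErase (N : ℕ) {g : ℕ} (n : ℕ) (x : O) (i : Fin g) :
    MvPolynomial (UnkS N g) O :=
  (C x - X (Sum.inr (Sum.inl i))) ^ (n - 1) *
    ∏ i' ∈ Finset.univ.erase i, (C x - X (Sum.inr (Sum.inl i'))) ^ n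

lemma pderiv_inl_prodU (N : ℕ) {g : ℕ} (n : ℕ) (x : O) (j : Fin N) :
    pderiv (Sum.inl j) (prodU N (g := g) n x) = 0 := by
  classical
  rw [prodU, derivation_prod]
  refine Finset.sum_eq_zero fun i _ => ?_
  rw [Derivation.leibniz_pow, map_sub, pderiv_C, pderiv_X_of_ne (by simp)]
  simp

lemma pderiv_c_prodU (N : ℕ) {g : ℕ} (n : ℕ) (x : O) :
    pderiv (Sum.inr (Sum.inr ())) (prodU N (g := g) n x) = 0 := by
  classical
  rw [prodU, derivation_prod]
  refine Finset.sum_eq_zero fun i _ => ?_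
  rw [Derivation.leibniz_pow, map_sub, pderiv_C, pderiv_X_of_ne (by simp)]
  simp

lemma pderiv_a_prodU (N : ℕ) {g : ℕ} (n : ℕ) (x : O) (i : Fin g) :
    pderiv (Sum.inr (Sum.inl i)) (prodU N (g := g) n x) =
      - (n : MvPolynomial (UnkS N g) O) * prodUErase N n x i := by
  classical
  rw [prodU, derivation_prod, Finset.sum_eq_single i]
  · rw [Derivation.leibniz_pow, map_sub, pderiv_C, pderiv_X_self, prodUErase]
    simp only [zero_sub, smul_eq_mul, nsmul_eq_mul, mul_neg, mul_one]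
    ring
  · intro i' _ hi'
    rw [Derivation.leibniz_pow, map_sub, pderiv_C, pderiv_X_of_ne (by simpa using hi')]
    simp
  · intro h
    exact absurd (Finset.mem_univ i) h

lemma pderiv_inr_rename_inl {N g : ℕ} (p : MvPolynomial (Fin N) O) (w : Fin g ⊕ Unit) :
    pderiv (Sum.inr w : UnkS N g) (rename Sum.inl p) = 0 := by
  induction p using MvPolynomial.induction_on with
  | C a => simp
  | add p q hp hq => simp [hp, hq]
  | mul_X p i hp =>
    simp only [map_mul, rename_X, Derivation.leibniz, hp, smul_zero, add_zero]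
    rw [pderiv_X_of_ne (by simp)]
    simp

lemma pderiv_inl_rename_inl {N g : ℕ} (p : MvPolynomial (Fin N) O) (j : Fin N) :
    pderiv (Sum.inl j : UnkS N g) (rename Sum.inl p) = rename Sum.inl (pderiv j p) :=
  pderiv_rename (f := (Sum.inl : Fin N → UnkS N g)) Sum.inl_injective j p

/-- The system. -/
noncomputable def sysF {N g M : ℕ} (n : ℕ) (Φ : Fin (M + 1) → MvPolynomial (Fin N) O)
    (ξ : Fin (M + 1) → O) (j0 : Fin N) (T : O) : EqS M → MvPolynomial (UnkS N g) O :=
  Sum.elim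
    (fun l => (∑ e : Fin (M + 1), C (ξ l ^ (e : ℕ)) * rename Sum.inl (Φ e)) -
      X (Sum.inr (Sum.inr ())) * prodU N n (ξ l))
    (fun _ => X (Sum.inl j0) - C T)

/-- a point of the unknowns -/
def ptS {N g : ℕ} {R : Type*} (t : Fin N → R) (a : Fin g → R) (c : R) : UnkS N g → R :=
  Sum.elim t (Sum.elim a fun _ => c)

lemma ptS_eta {N g : ℕ} {R : Type*} (b : UnkS N g → R) :
    ptS (fun j => b (Sum.inl j)) (fun i => b (Sum.inr (Sum.inl i)))
      (b (Sum.inr (Sum.inr ()))) = b := by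
  funext v
  rcases v with j | i | u <;> rfl

lemma eval_prodU {N g : ℕ} (n : ℕ) (x : O) (t : Fin N → O) (a : Fin g → O) (c : O) :
    eval (ptS t a c) (prodU N n x) = (rootProd n a).eval x := by
  simp [prodU, ptS, eval_rootProd]

lemma eval_prodUErase {N g : ℕ} (n : ℕ) (x : O) (t : Fin N → O) (a : Fin g → O) (c : O)
    (i : Fin g) :
    eval (ptS t a c) (prodUErase N n x i) = (rootProdErase n a i).eval x := by
  simp [prodUErase, ptS, eval_rootProdErase]

lemma eval_rename_inl {N g : ℕ} (p : MvPolynomial (Fin N) O) (t : Fin N → O) (a : Fin g → O)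
    (c : O) : eval (ptS t a c) (rename Sum.inl p) = eval t p := by
  rw [eval_rename]
  rfl

lemma eval_sysF_inl {N g M : ℕ} (n : ℕ) (Φ : Fin (M + 1) → MvPolynomial (Fin N) O)
    (ξ : Fin (M + 1) → O) (j0 : Fin N) (T : O) (t : Fin N → O) (a : Fin g → O) (c : O)
    (l : Fin (M + 1)) :
    eval (ptS t a c) (sysF n Φ ξ j0 T (Sum.inl l)) =
      (polyOfCoeffs M fun e => eval t (Φ e)).eval (ξ l) -
        (Polynomial.C c * rootProd n a).eval (ξ l) := by
  simp only [sysF, Sum.elim_inl, map_sub, map_sum, map_mul, eval_C, eval_rename_inl, eval_prodU,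
    eval_X, eval_polyOfCoeffs, Polynomial.eval_mul, Polynomial.eval_C]
  congr 1
  refine Finset.sum_congr rfl fun e _ => ?_
  rw [mul_comm]

lemma eval_sysF_inr {N g M : ℕ} (n : ℕ) (Φ : Fin (M + 1) → MvPolynomial (Fin N) O)
    (ξ : Fin (M + 1) → O) (j0 : Fin N) (T : O) (t : Fin N → O) (a : Fin g → O) (c : O)
    (u : Unit) :
    eval (ptS t a c) (sysF (g := g) n Φ ξ j0 T (Sum.inr u)) = t j0 - T := by
  simp [sysF, ptS]

/-! ### the partial derivatives of the system -/

lemma pderiv_t_sysF_inl {N g M : ℕ} (n : ℕ) (Φ : Fin (M + 1) → MvPolynomial (Fin N) O)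
    (ξ : Fin (M + 1) → O) (j0 : Fin N) (T : O) (l : Fin (M + 1)) (j : Fin N) :
    pderiv (Sum.inl j) (sysF (g := g) n Φ ξ j0 T (Sum.inl l)) =
      ∑ e : Fin (M + 1), C (ξ l ^ (e : ℕ)) * rename Sum.inl (pderiv j (Φ e)) := by
  simp only [sysF, Sum.elim_inl, map_sub, map_sum, Derivation.leibniz, pderiv_C, smul_zero,
    add_zero, pderiv_inl_rename_inl, pderiv_inl_prodU, smul_eq_mul]
  rw [pderiv_X_of_ne (by simp)]
  simp

lemma pderiv_a_sysF_inl {N g M : ℕ} (n : ℕ) (Φ : Fin (M + 1) → MvPolynomial (Fin N) O)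
    (ξ : Fin (M + 1) → O) (j0 : Fin N) (T : O) (l : Fin (M + 1)) (i : Fin g) :
    pderiv (Sum.inr (Sum.inl i)) (sysF (g := g) n Φ ξ j0 T (Sum.inl l)) =
      X (Sum.inr (Sum.inr ())) * ((n : MvPolynomial (UnkS N g) O) * prodUErase N n (ξ l) i) := by
  simp only [sysF, Sum.elim_inl, map_sub, map_sum, Derivation.leibniz, pderiv_C, smul_zero,
    add_zero, pderiv_inr_rename_inl, pderiv_a_prodU, smul_eq_mul]
  rw [pderiv_X_of_ne (by simp)]
  simp

lemma pderiv_c_sysF_inl {N g M : ℕ} (n : ℕ) (Φ : Fin (M + 1) → MvPolynomial (Fin N) O)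
    (ξ : Fin (M + 1) → O) (j0 : Fin N) (T : O) (l : Fin (M + 1)) :
    pderiv (Sum.inr (Sum.inr ())) (sysF (g := g) n Φ ξ j0 T (Sum.inl l)) =
      - prodU N n (ξ l) := by
  simp only [sysF, Sum.elim_inl, map_sub, map_sum, Derivation.leibniz, pderiv_C, smul_zero,
    add_zero, pderiv_inr_rename_inl, pderiv_c_prodU, smul_eq_mul, pderiv_X_self]
  simp

lemma pderiv_sysF_inr {N g M : ℕ} (n : ℕ) (Φ : Fin (M + 1) → MvPolynomial (Fin N) O)
    (ξ : Fin (M + 1) → O) (j0 : Fin N) (T : O) (u : Unit) (v : UnkS N g) :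
    pderiv v (sysF (g := g) n Φ ξ j0 T (Sum.inr u)) = if v = Sum.inl j0 then 1 else 0 := by
  classical
  simp only [sysF, Sum.elim_inr, map_sub, pderiv_C, sub_zero, pderiv_X, Pi.single_apply]
  by_cases h : v = Sum.inl j0
  · simp [h]
  · rw [if_neg h, if_neg (fun h' => h h'.symm)]

end system


section main

variable {O : Type u} [CommRing O] [IsDomain O] [ValuationRing O] {k : Type*} [Field k]

lemma res_eval {σ : Type*} (res : O →+* k) (a : σ → O) (q : MvPolynomial σ O) :
    res (eval a q) = eval (fun v => res (a v)) (map res q) := by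
  rw [MvPolynomial.eval₂_comp, eval_map]
  rfl

/-- elements of `O` with pairwise distinct residues -/
lemma exists_distinct_res [Infinite k] {res : O →+* k} (hres : IsResidueMap res) (n : ℕ) :
    ∃ ξ : Fin n → O, Function.Injective fun l => res (ξ l) := by
  obtain ⟨s, hs⟩ : ∃ s : Fin n → k, Function.Injective s :=
    ⟨_, (Infinite.natEmbedding k).injective.comp Fin.val_injective⟩
  choose ξ hξ using fun l => hres.surj (s l)
  refine ⟨ξ, ?_⟩
  intro l l' h
  simp only [hξ] at h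
  exact hs h

/-- the differential of the system at the residual point, applied to `dv` -/
lemma sum_pderiv_sysF_inl {N g M : ℕ} (n : ℕ) (Φ : Fin (M + 1) → MvPolynomial (Fin N) O)
    (ξ : Fin (M + 1) → O) (j0 : Fin N) (T : O) (res : O →+* k)
    (t : Fin N → O) (a : Fin g → O) (c : O) (dv : UnkS N g → k) (l : Fin (M + 1)) :
    ∑ v, res (eval (ptS t a c) (pderiv v (sysF n Φ ξ j0 T (Sum.inl l)))) * dv v =
      (polyOfCoeffs M fun e => ∑ j, dv (Sum.inl j) *
          eval (fun j => res (t j)) (pderiv j (map res (Φ e)))).eval (res (ξ l)) +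
        (Polynomial.C (res c * n) * ∑ i, Polynomial.C (dv (Sum.inr (Sum.inl i))) *
          rootProdErase n (fun i => res (a i)) i).eval (res (ξ l)) -
        (Polynomial.C (dv (Sum.inr (Sum.inr ()))) *
          rootProd n (fun i => res (a i))).eval (res (ξ l)) := by
  have e1 : ∀ q : MvPolynomial (Fin N) O, res (eval t q) =
      eval (fun j => res (t j)) (map res q) := fun q => res_eval res t q
  have e2 : ∀ (P : Polynomial O) (x : O), res (P.eval x) = (P.map res).eval (res x) := by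
    intro P x
    rw [Polynomial.eval_map, Polynomial.eval₂_hom]
  have e3 : ∀ i, (rootProdErase n a i).map res = rootProdErase n (fun i => res (a i)) i := by
    intro i
    simp [rootProdErase, Polynomial.map_prod]
  -- the three groups of unknowns
  have hT : ∑ j, res (eval (ptS t a c) (pderiv (Sum.inl j) (sysF n Φ ξ j0 T (Sum.inl l)))) *
        dv (Sum.inl j) =
      (polyOfCoeffs M fun e => ∑ j, dv (Sum.inl j) *
          eval (fun j => res (t j)) (pderiv j (map res (Φ e)))).eval (res (ξ l)) := by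
    simp only [pderiv_t_sysF_inl, map_sum, map_mul, eval_C, eval_rename_inl, map_pow, e1,
      pderiv_map, eval_polyOfCoeffs]
    simp_rw [Finset.sum_mul]
    rw [Finset.sum_comm]
    refine Finset.sum_congr rfl fun e _ => Finset.sum_congr rfl fun j _ => ?_
    ring
  have hA : ∑ i, res (eval (ptS t a c)
        (pderiv (Sum.inr (Sum.inl i)) (sysF n Φ ξ j0 T (Sum.inl l)))) *
        dv (Sum.inr (Sum.inl i)) =
      (Polynomial.C (res c * n) * ∑ i, Polynomial.C (dv (Sum.inr (Sum.inl i))) *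
          rootProdErase n (fun i => res (a i)) i).eval (res (ξ l)) := by
    simp only [pderiv_a_sysF_inl, map_mul, eval_X, map_natCast, eval_prodUErase, e2, e3,
      Polynomial.eval_mul, Polynomial.eval_C, Polynomial.eval_finsetSum]
    rw [Finset.mul_sum]
    refine Finset.sum_congr rfl fun i _ => ?_
    have : ptS t a c (Sum.inr (Sum.inr ())) = c := rfl
    rw [this]
    simp only [Polynomial.eval_natCast]
    ring
  have hC : res (eval (ptS t a c)
        (pderiv (Sum.inr (Sum.inr ())) (sysF n Φ ξ j0 T (Sum.inl l)))) *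
        dv (Sum.inr (Sum.inr ())) =
      - (Polynomial.C (dv (Sum.inr (Sum.inr ()))) *
          rootProd n (fun i => res (a i))).eval (res (ξ l)) := by
    simp only [pderiv_c_sysF_inl, map_neg, eval_prodU, e2, map_rootProd, Polynomial.eval_mul,
      Polynomial.eval_C]
    ring
  rw [Fintype.sum_sum_type, Fintype.sum_sum_type, hT, hA]
  have hU : ∑ u : Unit, res (eval (ptS t a c)
        (pderiv (Sum.inr (Sum.inr u)) (sysF n Φ ξ j0 T (Sum.inl l)))) *
        dv (Sum.inr (Sum.inr u)) =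
      - (Polynomial.C (dv (Sum.inr (Sum.inr ()))) *
          rootProd n (fun i => res (a i))).eval (res (ξ l)) := by
    rw [Fintype.sum_unique]
    exact hC
  rw [hU]
  ring

end main


end Fermat.Agent.S27.Lift.H68

namespace Fermat.Agent.S27.Lift.H68

open Polynomial

section pf

variable {k : Type*} [Field k]

/-- Partial fractions: `dc Π = cn ∑ da_i Π_i` with distinct `α_i` forces `da = 0`, `dc = 0`. -/
lemma partialFrac_zero {g : ℕ} (n : ℕ) (hn0 : n ≠ 0) (α : Fin g → k) (hα : Function.Injective α)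
    (cn : k) (hcn : cn ≠ 0) (da : Fin g → k) (dc : k)
    (h : C dc * rootProd n α = C cn * ∑ i, C (da i) * rootProdErase n α i) :
    da = 0 ∧ dc = 0 := by
  classical
  set Pq : k[X] := ∏ i, (X - C (α i)) ^ (n - 1) with hPq
  set A : k[X] := ∏ i, (X - C (α i)) with hA
  have hPq0 : Pq ≠ 0 :=
    (Polynomial.monic_prod_of_monic _ _ fun i _ => (monic_X_sub_C (α i)).pow (n - 1)).ne_zero
  have hA0 : A ≠ 0 := (Polynomial.monic_prod_of_monic _ _ fun i _ => monic_X_sub_C (α i)).ne_zero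
  have h1 : rootProd n α = Pq * A := by
    rw [rootProd, hPq, hA, ← Finset.prod_mul_distrib]
    refine Finset.prod_congr rfl fun i _ => ?_
    rw [← pow_succ, Nat.sub_add_cancel (Nat.pos_of_ne_zero hn0)]
  have h2 : ∀ i, rootProdErase n α i = Pq * ∏ i' ∈ Finset.univ.erase i, (X - C (α i')) := by
    intro i
    rw [rootProdErase, hPq, ← Finset.mul_prod_erase Finset.univ _ (Finset.mem_univ i), mul_assoc,
      ← Finset.prod_mul_distrib]
    congr 1
    refine Finset.prod_congr rfl fun i' _ => ?_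
    rw [← pow_succ, Nat.sub_add_cancel (Nat.pos_of_ne_zero hn0)]
  have h3 : C dc * A = C cn * ∑ i, C (da i) * ∏ i' ∈ Finset.univ.erase i, (X - C (α i')) := by
    apply mul_left_cancel₀ hPq0
    rw [h1] at h
    simp_rw [h2] at h
    calc Pq * (C dc * A) = C dc * (Pq * A) := by ring
      _ = C cn * ∑ i, C (da i) * (Pq * ∏ i' ∈ Finset.univ.erase i, (X - C (α i'))) := h
      _ = Pq * (C cn * ∑ i, C (da i) * ∏ i' ∈ Finset.univ.erase i, (X - C (α i'))) := by
        rw [Finset.mul_sum, Finset.mul_sum, Finset.mul_sum]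
        refine Finset.sum_congr rfl fun i _ => ?_
        ring
  have hda : ∀ i, da i = 0 := by
    intro i
    have h4 := congrArg (Polynomial.eval (α i)) h3
    simp only [eval_mul, eval_C, hA, eval_prod, eval_sub, eval_X, eval_finsetSum] at h4
    rw [Finset.prod_eq_zero (Finset.mem_univ i) (sub_self _), mul_zero,
      Finset.sum_eq_single i] at h4
    · have hprod : ∏ i' ∈ Finset.univ.erase i, (α i - α i') ≠ 0 := by
        rw [Finset.prod_ne_zero_iff]
        intro i' hi'
        exact sub_ne_zero.mpr fun h' => (Finset.ne_of_mem_erase hi') (hα h').symm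
      rcases mul_eq_zero.mp h4.symm with h5 | h5
      · exact absurd h5 hcn
      · rcases mul_eq_zero.mp h5 with h6 | h6
        · exact h6
        · exact absurd h6 hprod
    · intro i' _ hi'
      rw [Finset.prod_eq_zero (Finset.mem_erase.mpr ⟨hi'.symm, Finset.mem_univ i⟩) (sub_self _),
        mul_zero]
    · intro hni
      exact absurd (Finset.mem_univ i) hni
  refine ⟨funext hda, ?_⟩
  simp only [hda, map_zero, zero_mul, Finset.sum_const_zero, mul_zero] at h3
  rcases mul_eq_zero.mp h3 with h5 | h5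
  · simpa using h5
  · exact absurd h5 hA0

end pf

end Fermat.Agent.S27.Lift.H68

namespace Fermat.Agent.S27.Lift.H68

open MvPolynomial

universe u v

section solve

variable {O : Type u} [CommRing O] [IsDomain O] [ValuationRing O] {k : Type*} [Field k]

lemma natDegree_rootProdErase_le {g : ℕ} (n : ℕ) (a : Fin g → k) (i : Fin g) :
    (rootProdErase n a i).natDegree ≤ n * g := by
  classical
  rw [rootProdErase]
  refine (Polynomial.natDegree_mul_le).trans ?_
  have h1 : ((Polynomial.X - Polynomial.C (a i)) ^ (n - 1)).natDegree ≤ n - 1 := by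
    refine (Polynomial.natDegree_pow_le).trans ?_
    rw [Polynomial.natDegree_X_sub_C, mul_one]
  have h2 : (∏ i' ∈ Finset.univ.erase i, (Polynomial.X - Polynomial.C (a i')) ^ n).natDegree
      ≤ n * (g - 1) := by
    refine (Polynomial.natDegree_prod_le _ _).trans ?_
    have : ∀ i' ∈ Finset.univ.erase i,
        ((Polynomial.X - Polynomial.C (a i')) ^ n).natDegree ≤ n := by
      intro i' _
      refine (Polynomial.natDegree_pow_le).trans ?_
      rw [Polynomial.natDegree_X_sub_C, mul_one]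
    refine (Finset.sum_le_sum this).trans ?_
    rw [Finset.sum_const, Finset.card_erase_of_mem (Finset.mem_univ i), Finset.card_univ,
      Fintype.card_fin, smul_eq_mul, mul_comm]
  have hg : 1 ≤ g := Nat.one_le_iff_ne_zero.mpr (by
    rintro rfl
    exact i.elim0)
  calc _ ≤ (n - 1) + n * (g - 1) := Nat.add_le_add h1 h2
    _ ≤ n + n * (g - 1) := Nat.add_le_add_right (Nat.sub_le _ _) _
    _ = n * g := by
      obtain ⟨g', rfl⟩ : ∃ g', g = g' + 1 := ⟨g - 1, by omega⟩
      simp only [Nat.add_sub_cancel]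
      ring

/-- **The abstract norm system** (SOLVE-ALG). -/
theorem solveAlg (K : Type v) [Field K] [Algebra O K] [IsFractionRing O K] [IsAlgClosed K]
    [Infinite k] {res : O →+* k} (hres : IsResidueMap res)
    {N g n M : ℕ} (hn : (n : k) ≠ 0) (hM : M = n * g) (hN : N + g = M + 1)
    (Φ : Fin (M + 1) → MvPolynomial (Fin N) O) (j0 : Fin N) (τ : Fin N → k)
    (α : Fin g → k) (hα : Function.Injective α) (ct : k) (hct : ct ≠ 0)
    (hresid : polyOfCoeffs M (fun e => eval τ (map res (Φ e))) = Polynomial.C ct * rootProd n α)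
    (hjac : ∀ (dt : Fin N → k) (da : Fin g → k) (dc : k), dt j0 = 0 →
      polyOfCoeffs M (fun e => ∑ j, dt j * eval τ (pderiv j (map res (Φ e)))) =
        Polynomial.C dc * rootProd n α -
          Polynomial.C (ct * n) * ∑ i, Polynomial.C (da i) * rootProdErase n α i → dt = 0) :
    ∃ (t : Fin N → O) (a : Fin g → O) (c : O), (∀ j, res (t j) = τ j) ∧
      (∀ i, res (a i) = α i) ∧ res c = ct ∧
      polyOfCoeffs M (fun e => eval t (Φ e)) = Polynomial.C c * rootProd n a := by
  classical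
  have hn0 : n ≠ 0 := by
    rintro rfl
    exact hn Nat.cast_zero
  obtain ⟨ξ, hξ⟩ := exists_distinct_res (O := O) hres (M + 1)
  choose T0 hT0 using fun j => hres.surj (τ j)
  choose A0 hA0 using fun i => hres.surj (α i)
  obtain ⟨C0, hC0⟩ := hres.surj ct
  have hτ : (fun j => res (T0 j)) = τ := funext hT0
  have hαe : (fun i => res (A0 i)) = α := funext hA0
  have hcard : Fintype.card (UnkS N g) = Fintype.card (EqS M) := by
    simp only [Fintype.card_sum, Fintype.card_fin, Fintype.card_unit]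
    omega
  have e2 : ∀ (P : Polynomial O) (x : O), res (P.eval x) = (P.map res).eval (res x) := by
    intro P x
    rw [Polynomial.eval_map, Polynomial.eval₂_hom]
  have h0 : ∀ e, res (eval (ptS T0 A0 C0) (sysF n Φ ξ j0 (T0 j0) e)) = 0 := by
    rintro (l | u)
    · rw [eval_sysF_inl, map_sub, e2, e2, map_polyOfCoeffs, Polynomial.map_mul,
        Polynomial.map_C, map_rootProd, hαe, hC0]
      have : (fun e => res (eval T0 (Φ e))) = fun e => eval τ (map res (Φ e)) := by
        funext e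
        rw [res_eval, hτ]
      rw [this, hresid, sub_self]
    · rw [eval_sysF_inr, sub_self, map_zero]
  have hinj : ∀ dv : UnkS N g → k,
      (∀ e, ∑ v, res (eval (ptS T0 A0 C0) (pderiv v (sysF n Φ ξ j0 (T0 j0) e))) * dv v = 0) →
      dv = 0 := by
    intro dv hdv
    have hj0 : dv (Sum.inl j0) = 0 := by
      have := hdv (Sum.inr ())
      simp only [pderiv_sysF_inr] at this
      rw [Finset.sum_eq_single (Sum.inl j0)] at this
      · simpa using this
      · intro v _ hv
        rw [if_neg hv]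
        simp
      · intro h
        exact absurd (Finset.mem_univ _) h
    set dt : Fin N → k := fun j => dv (Sum.inl j) with hdt
    set da : Fin g → k := fun i => dv (Sum.inr (Sum.inl i)) with hda
    set dc : k := dv (Sum.inr (Sum.inr ())) with hdc
    set Λ : Polynomial k :=
      polyOfCoeffs M (fun e => ∑ j, dt j * eval τ (pderiv j (map res (Φ e)))) with hΛ
    set Δ : Polynomial k := Λ + Polynomial.C (ct * n) * ∑ i, Polynomial.C (da i) *
      rootProdErase n α i - Polynomial.C dc * rootProd n α with hΔ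
    have hΔeval : ∀ l, Δ.eval (res (ξ l)) = 0 := by
      intro l
      have := hdv (Sum.inl l)
      rw [sum_pderiv_sysF_inl, hτ, hαe, hC0] at this
      rw [hΔ, Polynomial.eval_sub, Polynomial.eval_add]
      exact this
    have hΔdeg : Δ.natDegree ≤ M := by
      rw [hΔ]
      refine (Polynomial.natDegree_sub_le _ _).trans (max_le ?_ ?_)
      · refine (Polynomial.natDegree_add_le _ _).trans (max_le ?_ ?_)
        · exact natDegree_polyOfCoeffs_le _ _
        · refine (Polynomial.natDegree_C_mul_le _ _).trans ?_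
          refine Polynomial.natDegree_sum_le_of_forall_le _ _ fun i _ => ?_
          refine (Polynomial.natDegree_C_mul_le _ _).trans ?_
          rw [hM]
          exact natDegree_rootProdErase_le n α i
      · refine (Polynomial.natDegree_C_mul_le _ _).trans ?_
        rw [natDegree_rootProd, hM]
    have hΔ0 : Δ = 0 :=
      Polynomial.eq_zero_of_natDegree_lt_card_of_eval_eq_zero Δ hξ hΔeval (by
        rw [Fintype.card_fin]
        omega)
    have hΛeq : Λ = Polynomial.C dc * rootProd n α -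
        Polynomial.C (ct * n) * ∑ i, Polynomial.C (da i) * rootProdErase n α i := by
      have := hΔ0
      rw [hΔ] at this
      linear_combination this
    have hdt0 : dt = 0 := hjac dt da dc hj0 hΛeq
    have hΛ0 : Λ = 0 := by
      rw [hΛ, hdt0]
      simp [polyOfCoeffs]
    rw [hΛ0] at hΛeq
    have hpf := partialFrac_zero n hn0 α hα (ct * n) (mul_ne_zero hct hn) da dc
      (by linear_combination -hΛeq)
    funext v
    rcases v with j | i | u
    · exact congrFun hdt0 j
    · exact congrFun hpf.1 i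
    · exact hpf.2
  obtain ⟨b, hb1, hb2⟩ := mvHensel_of_injective K hres hcard (sysF n Φ ξ j0 (T0 j0))
    (ptS T0 A0 C0) h0 hinj
  refine ⟨fun j => b (Sum.inl j), fun i => b (Sum.inr (Sum.inl i)), b (Sum.inr (Sum.inr ())),
    fun j => ?_, fun i => ?_, ?_, ?_⟩
  · rw [hb1, ← hT0 j]; rfl
  · rw [hb1, ← hA0 i]; rfl
  · rw [hb1, ← hC0]; rfl
  · have hξO : Function.Injective ξ := fun l l' h => hξ (by simp only [h])
    set t : Fin N → O := fun j => b (Sum.inl j) with ht
    set a : Fin g → O := fun i => b (Sum.inr (Sum.inl i)) with ha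
    set c : O := b (Sum.inr (Sum.inr ())) with hc
    set D : Polynomial O := polyOfCoeffs M (fun e => eval t (Φ e)) -
      Polynomial.C c * rootProd n a with hD
    have hDeval : ∀ l, D.eval (ξ l) = 0 := by
      intro l
      have := hb2 (Sum.inl l)
      rw [← ptS_eta b, eval_sysF_inl] at this
      rw [hD, Polynomial.eval_sub]
      exact this
    have hDdeg : D.natDegree ≤ M := by
      rw [hD]
      refine (Polynomial.natDegree_sub_le _ _).trans (max_le ?_ ?_)
      · exact natDegree_polyOfCoeffs_le _ _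
      · refine (Polynomial.natDegree_C_mul_le _ _).trans ?_
        rw [natDegree_rootProd, hM]
    have hD0 : D = 0 :=
      Polynomial.eq_zero_of_natDegree_lt_card_of_eval_eq_zero D hξO hDeval (by
        rw [Fintype.card_fin]
        omega)
    rw [hD] at hD0
    exact sub_eq_zero.mp hD0

end solve

end Fermat.Agent.S27.Lift.H68

end
-- ==== END Fermat.Agent.S27.Lift.H68_SolveAlg

-- ==== BEGIN Fermat.Agent.S27.REDu.H34_Lattice
section

/-!
# G-RED package IG (helper34): trace and discriminant commute with reduction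

`bF` a `C(x)`-basis of `F` contained in `V` whose reduction `bt` is a `k(xt)`-basis of `Ft`.
Then coordinates of elements of `V` lie in `Vx = V ∩ C(x)`, and `red ∘ Tr = Tr ∘ red`,
`red (disc bF) = disc bt`.
-/

set_option autoImplicit false

universe uC uCf uK uR uF uL uE uk ukap uFp uFt uFtp uiot uEp uKp ux3b1

noncomputable section

open Polynomial IntermediateField

namespace Fermat.Agent.S27.REDu.H34

variable {C : Type uC} {F : Type uF} {k : Type uk} {Ft : Type uFt} [Field C] [Field F] [Algebra C F] [Field k] [Field Ft] [Algebra k Ft]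

namespace RedSetting

variable {S : RedSetting C F k Ft} {x : F} (hx : x ∈ S.V)

/-- `Vx = V ∩ C(x)` as a subring of `C(x)`. -/
def Vx (S : RedSetting C F k Ft) (x : F) : Subring ↥C⟮x⟯ :=
  S.V.toSubring.comap (algebraMap ↥C⟮x⟯ F)

theorem mem_Vx (a : ↥C⟮x⟯) : a ∈ S.Vx x ↔ ((a : ↥C⟮x⟯) : F) ∈ S.V := Iff.rfl

/-- The reduction map `Vx → k(xt)`. -/
def redx (hxt : Transcendental k (S.red ⟨x, hx⟩)) : ↥(S.Vx x) →+* ↥k⟮S.red ⟨x, hx⟩⟯ where
  toFun a := ⟨S.red ⟨((a : ↥C⟮x⟯) : F), a.2⟩, red_mem_adjoin hx hxt _ (a : ↥C⟮x⟯).2 a.2⟩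
  map_one' := by
    apply Subtype.ext
    exact map_one S.red
  map_mul' a b := by
    apply Subtype.ext
    exact map_mul S.red ⟨_, a.2⟩ ⟨_, b.2⟩
  map_zero' := by
    apply Subtype.ext
    exact map_zero S.red
  map_add' a b := by
    apply Subtype.ext
    exact map_add S.red ⟨_, a.2⟩ ⟨_, b.2⟩

theorem coe_redx (hxt : Transcendental k (S.red ⟨x, hx⟩)) (a : ↥(S.Vx x)) :
    ((redx hx hxt a : ↥k⟮S.red ⟨x, hx⟩⟯) : Ft) = S.red ⟨((a : ↥C⟮x⟯) : F), a.2⟩ := rfl

variable {ι : Type uiot}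
variable (bF : Module.Basis ι ↥C⟮x⟯ F) (hbV : ∀ i, bF i ∈ S.V)
variable (bt : Module.Basis ι ↥k⟮S.red ⟨x, hx⟩⟯ Ft) (hbt : ∀ i, bt i = S.red ⟨bF i, hbV i⟩)

include hbt in
theorem linearIndependent_red : LinearIndependent ↥k⟮S.red ⟨x, hx⟩⟯
    (fun i => S.red ⟨bF i, hbV i⟩) := by
  have : (fun i => S.red ⟨bF i, hbV i⟩) = bt := by
    funext i
    exact (hbt i).symm
  rw [this]
  exact bt.linearIndependent

variable [Fintype ι]

include hbt in
/-- Coordinates of elements of `V` lie in `V`. -/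
theorem repr_mem_V (hxt : Transcendental k (S.red ⟨x, hx⟩)) (f : F) (hf : f ∈ S.V) (i : ι) :
    bF.repr f i ∈ S.Vx x := by
  rw [mem_Vx]
  refine coeff_mem_V hx bF hbV hxt (linearIndependent_red hx bF hbV bt hbt) (fun j => bF.repr f j)
    ?_ i
  rw [bF.sum_repr]
  exact hf

include hbt in
/-- Coordinates commute with reduction. -/
theorem repr_red (hxt : Transcendental k (S.red ⟨x, hx⟩)) (f : F) (hf : f ∈ S.V) (i : ι) :
    bt.repr (S.red ⟨f, hf⟩) i = redx hx hxt ⟨bF.repr f i, repr_mem_V hx bF hbV bt hbt hxt f hf i⟩ := by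
  have h1 : S.red ⟨f, hf⟩ = ∑ j, (redx hx hxt ⟨bF.repr f j,
      repr_mem_V hx bF hbV bt hbt hxt f hf j⟩) • bt j := by
    have h2 : (⟨f, hf⟩ : ↥S.V) = ∑ j, (⟨((bF.repr f j : ↥C⟮x⟯) : F),
        repr_mem_V hx bF hbV bt hbt hxt f hf j⟩ : ↥S.V) * ⟨bF j, hbV j⟩ := by
      apply Subtype.ext
      rw [AddSubmonoidClass.coe_finsetSum]
      show f = _
      conv_lhs => rw [← bF.sum_repr f]
      refine Finset.sum_congr rfl fun j _ => ?_
      rw [IntermediateField.smul_def, smul_eq_mul]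
      rfl
    rw [h2, map_sum]
    refine Finset.sum_congr rfl fun j _ => ?_
    rw [map_mul, hbt j, IntermediateField.smul_def, smul_eq_mul]
    rfl
  conv_lhs => rw [h1]
  rw [bt.repr_sum_self]

variable [DecidableEq ι]

include hbt in
/-- The trace of an element of `V` lies in `Vx`, and reduces to the trace of the reduction. -/
theorem trace_red (hxt : Transcendental k (S.red ⟨x, hx⟩)) (f : F) (hf : f ∈ S.V) :
    ∃ t : ↥(S.Vx x), (t : ↥C⟮x⟯) = Algebra.trace ↥C⟮x⟯ F f ∧
      redx hx hxt t = Algebra.trace ↥k⟮S.red ⟨x, hx⟩⟯ Ft (S.red ⟨f, hf⟩) := by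
  have hmem : ∀ i, f * bF i ∈ S.V := fun i => mul_mem hf (hbV i)
  refine ⟨∑ i, ⟨bF.repr (f * bF i) i, repr_mem_V hx bF hbV bt hbt hxt _ (hmem i) i⟩, ?_, ?_⟩
  · rw [Algebra.trace_eq_matrix_trace bF, Matrix.trace, AddSubmonoidClass.coe_finsetSum]
    refine Finset.sum_congr rfl fun i _ => ?_
    rw [Matrix.diag_apply, Algebra.leftMulMatrix_eq_repr_mul]
  · rw [Algebra.trace_eq_matrix_trace bt, Matrix.trace, map_sum]
    refine Finset.sum_congr rfl fun i _ => ?_
    rw [Matrix.diag_apply, Algebra.leftMulMatrix_eq_repr_mul, hbt i, ← map_mul,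
      ← repr_red hx bF hbV bt hbt hxt (f * bF i) (hmem i) i]
    rfl

include hbt in
/-- The discriminant of `bF` lies in `Vx` and reduces to the discriminant of `bt`. -/
theorem discr_red (hxt : Transcendental k (S.red ⟨x, hx⟩)) :
    ∃ δ : ↥(S.Vx x), (δ : ↥C⟮x⟯) = Algebra.discr ↥C⟮x⟯ bF ∧
      redx hx hxt δ = Algebra.discr ↥k⟮S.red ⟨x, hx⟩⟯ bt := by
  have hmem : ∀ i j, bF i * bF j ∈ S.V := fun i j => mul_mem (hbV i) (hbV j)
  choose t ht1 ht2 using fun i j => trace_red hx bF hbV bt hbt hxt (bF i * bF j) (hmem i j)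
  let M : Matrix ι ι ↥(S.Vx x) := Matrix.of t
  refine ⟨M.det, ?_, ?_⟩
  · rw [Algebra.discr_def]
    have : Algebra.traceMatrix ↥C⟮x⟯ bF = (S.Vx x).subtype.mapMatrix M := by
      ext i j
      simp [M, Algebra.traceMatrix_apply, Algebra.traceForm_apply, ht1]
    rw [this, ← RingHom.map_det]
    rfl
  · rw [Algebra.discr_def]
    have : Algebra.traceMatrix ↥k⟮S.red ⟨x, hx⟩⟯ bt = (redx hx hxt).mapMatrix M := by
      ext i j
      simp only [M, Algebra.traceMatrix_apply, Algebra.traceForm_apply, RingHom.mapMatrix_apply,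
        Matrix.map_apply, Matrix.of_apply, ht2, hbt, ← map_mul]
      rfl
    rw [this, ← RingHom.map_det]

end RedSetting

end Fermat.Agent.S27.REDu.H34

end
end
-- ==== END Fermat.Agent.S27.REDu.H34_Lattice

-- ==== BEGIN Fermat.Agent.S27.Zeta.H52_Rat
section

/-!
# S27, package ZETA-ABS, leaf Z-RAT (helper52): rationality of the zeta function

`stmt_Z_Rat_of : Stmt_Z_Fin → Stmt_Z_Rat`:
`(1 - t)(1 - Q t) ∑ #invEff n tⁿ = L(t)` is a polynomial of degree `≤ 2g` with `L(0) = 1`,
coefficient `Q ^ g` at `t ^ (2g)` and `L(1) = h`.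
-/

set_option autoImplicit false
set_option linter.style.haveILetI false
set_option linter.unusedSectionVars false

noncomputable section

namespace Fermat.Agent.S27.Zeta.H52

universe u

open PowerSeries

section PS

variable (Q : ℤ) (A : ℕ → ℤ)

/-- `(1 - Q t) ∑ A_n tⁿ`. -/
def ser1 : PowerSeries ℤ := (1 - PowerSeries.C Q * PowerSeries.X) * PowerSeries.mk A

/-- `(1 - t)(1 - Q t) ∑ A_n tⁿ`. -/
def ser2 : PowerSeries ℤ := (1 - PowerSeries.X) * ser1 Q A

theorem ser2_eq :
    (1 - PowerSeries.X) * (1 - PowerSeries.C Q * PowerSeries.X) * PowerSeries.mk A = ser2 Q A :=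
  mul_assoc _ _ _

theorem coeff_zero_ser1 : PowerSeries.coeff 0 (ser1 Q A) = A 0 := by
  unfold ser1
  rw [sub_mul, one_mul, map_sub, mul_assoc, coeff_C_mul, coeff_zero_X_mul, mul_zero, sub_zero,
    coeff_mk]

theorem coeff_succ_ser1 (n : ℕ) :
    PowerSeries.coeff (n + 1) (ser1 Q A) = A (n + 1) - Q * A n := by
  unfold ser1
  rw [sub_mul, one_mul, map_sub, mul_assoc, coeff_C_mul, coeff_succ_X_mul, coeff_mk, coeff_mk]

theorem coeff_zero_ser2 : PowerSeries.coeff 0 (ser2 Q A) = A 0 := by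
  unfold ser2
  rw [sub_mul, one_mul, map_sub, coeff_zero_X_mul, sub_zero, coeff_zero_ser1]

theorem coeff_succ_ser2 (n : ℕ) :
    PowerSeries.coeff (n + 1) (ser2 Q A)
      = PowerSeries.coeff (n + 1) (ser1 Q A) - PowerSeries.coeff n (ser1 Q A) := by
  unfold ser2
  rw [sub_mul, one_mul, map_sub, coeff_succ_X_mul]

theorem sum_coeff_ser2 (N : ℕ) :
    ∑ i ∈ Finset.range (N + 1), PowerSeries.coeff i (ser2 Q A)
      = PowerSeries.coeff N (ser1 Q A) := by
  induction N with
  | zero =>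
    rw [Finset.sum_range_one, coeff_zero_ser2, coeff_zero_ser1]
  | succ N ih =>
    rw [Finset.sum_range_succ, ih, coeff_succ_ser2]
    ring

end PS

/-- **Z-RAT** from Z-FIN. -/
theorem stmt_Z_Rat_of (hFin : Stmt_Z_Fin.{u}) : Stmt_Z_Rat.{u} := by
  intro Pl S
  obtain ⟨hfin, -, hfix, -⟩ := hFin Pl S
  obtain ⟨P₀, hP₀⟩ := S.fixed
  haveI : Finite (FixCl S) := by
    have := hfix 1 one_pos
    simpa only [Function.iterate_one] using this
  haveI : Fintype (FixCl S) := Fintype.ofFinite _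
  have hh : (Nat.card {x : S.Cl0 // S.frob x = x} : ℤ) = (Fintype.card (FixCl S) : ℤ) := by
    rw [Nat.card_eq_fintype_card]
  set h : ℤ := (Fintype.card (FixCl S) : ℤ) with hh'
  set g : ℕ := S.g with hg'
  set A : ℕ → ℤ := fun n => ((S.invEff n).ncard : ℤ) with hA
  set Q : ℤ := (S.Q : ℤ) with hQ'
  have hQ2 : (2 : ℤ) ≤ Q := by
    rw [hQ']
    exact_mod_cast S.two_le
  have hQ1 : Q - 1 ≠ 0 := by omega
  have hA0 : A 0 = 1 := by
    rw [hA]
    show ((S.invEff 0).ncard : ℤ) = 1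
    rw [card_invEff_zero]
    rfl
  have hAL : ∀ n : ℕ, 2 * g ≤ n + 1 → A n * (Q - 1) = h * (Q ^ (n + 1 - g) - 1) :=
    fun n hn => card_invEff_large S hP₀ n (hfin n) hn
  -- the values of `(1 - Q t) ∑ A_n tⁿ`
  have hB : ∀ N : ℕ, 2 * g ≤ N → PowerSeries.coeff N (ser1 Q A) = h := by
    intro N hN
    apply mul_right_cancel₀ hQ1
    rcases Nat.eq_zero_or_pos N with rfl | hpos
    · have hg0 : g = 0 := by omega
      rw [coeff_zero_ser1, hAL 0 (by omega), hg0]
      ring
    · obtain ⟨n, rfl⟩ : ∃ n, N = n + 1 := ⟨N - 1, by omega⟩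
      rw [coeff_succ_ser1, sub_mul, mul_assoc, hAL (n + 1) (by omega), hAL n (by omega)]
      have e : n + 1 + 1 - g = (n + 1 - g) + 1 := by omega
      rw [e, pow_succ]
      ring
  have hBc : 1 ≤ g → PowerSeries.coeff (2 * g - 1) (ser1 Q A) = h - Q ^ g := by
    intro hg
    apply mul_right_cancel₀ hQ1
    have hcan := card_invEff_canonical S hP₀ hg (hfin _)
    obtain ⟨n, hn⟩ : ∃ n, 2 * g - 1 = n + 1 ∨ (g = 1 ∧ n = 0) := ⟨2 * g - 2, by omega⟩
    by_cases hg1 : g = 1
    · -- `2g - 1 = 1`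
      have e1 : 2 * g - 1 = 0 + 1 := by omega
      have e2 : 2 * S.g - 2 = 0 := by omega
      rw [e2] at hcan
      rw [e1, coeff_succ_ser1, sub_mul, mul_assoc, hAL 1 (by omega)]
      have hA0' : A 0 * (Q - 1) = h * (Q ^ (S.g - 1) - 1) + (Q ^ S.g - Q ^ (S.g - 1)) := hcan
      rw [hA0']
      have e3 : S.g = 1 := hg1
      rw [e3, hg1]
      norm_num
      ring
    · have e1 : 2 * g - 1 = (2 * g - 2) + 1 := by omega
      rw [e1, coeff_succ_ser1, sub_mul, mul_assoc, hAL (2 * g - 2 + 1) (by omega)]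
      have hA' : A (2 * g - 2) * (Q - 1)
          = h * (Q ^ (g - 1) - 1) + (Q ^ g - Q ^ (g - 1)) := hcan
      rw [hA']
      have e4 : 2 * g - 2 + 1 + 1 - g = (g - 1) + 1 := by omega
      have e5 : Q ^ g = Q ^ (g - 1) * Q := by
        rw [← pow_succ]
        congr 1
        omega
      rw [e4, pow_succ, e5]
      ring
  -- the coefficients of `L`
  have hc_top : PowerSeries.coeff (2 * g) (ser2 Q A) = Q ^ g := by
    rcases Nat.eq_zero_or_pos g with hg0 | hg
    · rw [hg0, mul_zero, coeff_zero_ser2, hA0, pow_zero]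
    · have e1 : 2 * g = (2 * g - 1) + 1 := by omega
      rw [e1, coeff_succ_ser2, ← e1, hB (2 * g) le_rfl, hBc hg]
      ring
  have hc_high : ∀ n : ℕ, 2 * g + 1 ≤ n → PowerSeries.coeff n (ser2 Q A) = 0 := by
    intro n hn
    obtain ⟨n, rfl⟩ : ∃ n', n = n' + 1 := ⟨n - 1, by omega⟩
    rw [coeff_succ_ser2, hB (n + 1) (by omega), hB n (by omega), sub_self]
  refine ⟨PowerSeries.trunc (2 * g + 1) (ser2 Q A), ?_, ?_, ?_, ?_, ?_⟩
  · have := natDegree_trunc_lt (ser2 Q A) (2 * g)
    omega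
  · rw [coeff_trunc, if_pos (by omega), hc_top]
  · rw [coeff_trunc, if_pos (by omega), coeff_zero_ser2, hA0]
  · rw [hh, Polynomial.eval_eq_sum_range' (natDegree_trunc_lt (ser2 Q A) (2 * g))]
    rw [Finset.sum_congr rfl fun i hi => by
      rw [coeff_trunc, if_pos (Finset.mem_range.mp hi), one_pow, mul_one]]
    rw [sum_coeff_ser2, hB (2 * g) le_rfl]
  · rw [ser2_eq]
    ext n
    rw [Polynomial.coeff_coe, coeff_trunc]
    split_ifs with hn
    · rfl
    · rw [hc_high n (by omega)]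

end Fermat.Agent.S27.Zeta.H52

end
end
-- ==== END Fermat.Agent.S27.Zeta.H52_Rat

-- ==== BEGIN Fermat.Agent.S36.NU.H41_UnramConst
section

/-!
# S36 NU-B, leaf UNRAM-CONST (helper41): the constant field extension `F₀ ⊗ L / F₀` is unramified

For a field `F₀ ⊆ ℚ((q))` and an algebraically closed field `L` algebraic over `ℚ`
(e.g. `L = ℚ̄`), every place `P` of `laurentBaseChange L F₀` over `L` has a uniformiser of the
form `coeffEmb L t` with `t ∈ F₀` (rational coefficients).  In particular every intermediate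
field of `laurentBaseChange L F₀ / coeffEmb F₀` contains a uniformiser of `P`.

* `constIncl L F₀ : F₀ →+* laurentBaseChange L F₀`;
* `adjoin_constants_eq_top`;
* `stmt_UnramConst`.
-/

set_option autoImplicit false
set_option linter.style.haveILetI false

noncomputable section

namespace Fermat.Agent.S36.NU.H41

open AlgebraicCurve ModularCurve

section

variable (L : Type*) [Field L] [Algebra ℚ L] (F₀ : IntermediateField ℚ (LaurentSeries ℚ))

/-- The inclusion of the rational function field into its base change. -/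
def constIncl : F₀ →+* laurentBaseChange L F₀ :=
  RingHom.codRestrict ((coeffEmb L).comp (algebraMap F₀ (LaurentSeries ℚ)))
    (laurentBaseChange L F₀) (fun x => coeffEmb_mem_laurentBaseChange L x.2)

theorem coe_constIncl (x : F₀) :
    ((constIncl L F₀ x : laurentBaseChange L F₀) : LaurentSeries L)
      = coeffEmb L (x : LaurentSeries ℚ) := rfl

theorem constIncl_mk (t : LaurentSeries ℚ) (ht : t ∈ F₀) :
    constIncl L F₀ ⟨t, ht⟩ = ⟨coeffEmb L t, coeffEmb_mem_laurentBaseChange L ht⟩ := rfl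

/-- `laurentBaseChange L F₀` is generated over `F₀` by the constants `L`. -/
theorem adjoin_constants_eq_top :
    letI : Algebra F₀ (laurentBaseChange L F₀) := (constIncl L F₀).toAlgebra
    IntermediateField.adjoin F₀
      (Set.range (algebraMap L (laurentBaseChange L F₀))) = ⊤ := by
  letI : Algebra F₀ (laurentBaseChange L F₀) := (constIncl L F₀).toAlgebra
  rw [eq_top_iff]
  intro x _
  set E : IntermediateField F₀ (laurentBaseChange L F₀) := IntermediateField.adjoin F₀
      (Set.range (algebraMap L (laurentBaseChange L F₀))) with hE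
  set S : Subfield (LaurentSeries L) :=
    E.toSubfield.map ((laurentBaseChange L F₀).val : laurentBaseChange L F₀ →+* LaurentSeries L)
    with hS
  have hle : Subfield.closure
        (Set.range (algebraMap L (LaurentSeries L)) ∪
          (⇑(coeffEmb L) '' (F₀ : Set (LaurentSeries ℚ)))) ≤ S := by
    rw [Subfield.closure_le]
    rintro y (⟨a, rfl⟩ | ⟨z, hz, rfl⟩)
    · refine ⟨algebraMap L (laurentBaseChange L F₀) a, ?_, rfl⟩
      exact IntermediateField.subset_adjoin F₀ _ ⟨a, rfl⟩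
    · refine ⟨algebraMap F₀ (laurentBaseChange L F₀) ⟨z, hz⟩, ?_, rfl⟩
      exact E.algebraMap_mem _
  have hx : (x : LaurentSeries L) ∈ S := hle (mem_laurentBaseChange_iff.1 x.2)
  obtain ⟨y, hy, hyx⟩ := hx
  have hyx' : y = x := Subtype.ext hyx
  rw [← hyx']
  exact hy

variable [IsAlgClosed L] [Algebra.IsAlgebraic ℚ L]

/-- **UNRAM-CONST.**  Every place of `laurentBaseChange L F₀ / L` has a uniformiser with
rational coefficients lying in `F₀`. -/
theorem stmt_UnramConst (P : Place L (laurentBaseChange L F₀)) :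
    ∃ t : LaurentSeries ℚ, ∃ ht : t ∈ F₀,
      P.ord ⟨coeffEmb L t, coeffEmb_mem_laurentBaseChange L ht⟩ = 1 := by
  letI : Algebra F₀ (laurentBaseChange L F₀) := (constIncl L F₀).toAlgebra
  letI algQ : Algebra ℚ (laurentBaseChange L F₀) :=
    ((algebraMap L (laurentBaseChange L F₀)).comp (algebraMap ℚ L)).toAlgebra
  haveI h1 : @IsScalarTower ℚ L (laurentBaseChange L F₀)
      Algebra.toSMul Algebra.toSMul Algebra.toSMul :=
    IsScalarTower.of_algebraMap_eq' rfl
  haveI h2 : @IsScalarTower ℚ F₀ (laurentBaseChange L F₀)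
      Algebra.toSMul Algebra.toSMul Algebra.toSMul :=
    IsScalarTower.of_algebraMap_eq' (Subsingleton.elim _ _)
  obtain ⟨t, ht⟩ := exists_ord_eq_one_of_adjoin_constants ℚ (K := L) (F₀ := F₀)
    (F := laurentBaseChange L F₀) P (adjoin_constants_eq_top L F₀)
  exact ⟨t.1, t.2, ht⟩

end

end Fermat.Agent.S36.NU.H41

end
end
-- ==== END Fermat.Agent.S36.NU.H41_UnramConst

-- ==== BEGIN Fermat.Agent.S38.H37_Wire3
section

set_option autoImplicit false
set_option linter.style.haveILetI false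
set_option linter.unusedSectionVars false
set_option synthInstance.maxHeartbeats 400000
set_option maxHeartbeats 1000000

noncomputable section

open AlgebraicCurve ModularCurve
open WeierstrassCurve WeierstrassCurve.Affine WeierstrassCurve.Affine.Point
open scoped WeierstrassCurve.Affine

namespace Fermat.Agent.S38.H37

open Fermat.Agent.BAD Fermat.Agent.S44 Fermat.Agent.L Fermat.Agent.S43 Fermat.Agent.S43.BadQ
open Fermat.Agent.S38 Fermat.Agent.L.Pivot.H76 Fermat.Agent.S38.H75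

/-! ## The witnesses -/

/-- The usual witness: the system `t` is not Eisenstein. -/
def WeakWit (p N : ℕ) (S : Finset ℕ) (t : ℕ → ℤ) : Prop :=
  ∃ ℓ : ℕ, ℓ.Prime ∧ ℓ ∉ S ∧ ¬ ℓ ∣ N ∧ ℓ ≠ p ∧ ((t ℓ : ℤ) : ZMod p) ≠ 1 + (ℓ : ZMod p)

/-- The strong witness gives the usual one. -/
theorem weakWit_of_strongAt {N : ℕ} {S : Finset ℕ} {t : ℕ → ℤ}
    (h : Fermat.Agent.S38.P3.StrongAt N S t) : WeakWit 3 N S t := by
  obtain ⟨r, -, hr, -, -, h5, -, hr3, -, hrS, -, hrN, -, h2, -⟩ := h
  refine ⟨r, hr, hrS, hrN, ?_, ?_⟩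
  · rintro rfl
    omega
  · have h1 : (r : ZMod 3) = 2 := by
      have h3 : ((r % 3 : ℕ) : ZMod 3) = (r : ZMod 3) := ZMod.natCast_mod r 3
      rw [← h3, hr3]
      rfl
    rw [h1]
    have h4 : (1 : ZMod 3) + 2 = 0 := by decide
    rw [h4]
    exact h2

/-! ## Mazur's principle with the witness as a parameter -/

/-- **BAD_q, abstract form**, with the witness as a parameter. -/
def HasToricPartAtG {p : ℕ} (H : HeckeGaloisModule p)
    (N q : ℕ) (A : ValuationSubring (AlgebraicClosure ℚ))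
    (Wit : Finset ℕ → (ℕ → ℤ) → Prop) : Prop :=
  ∃ (T : Submodule (ZMod p) H.J) (U : Module.End (ZMod p) H.J),
    (∀ σ : GQ, U * H.gal σ = H.gal σ * U) ∧
    (∀ x ∈ T, U x ∈ T ∧ U (U x) = x) ∧
    (∀ σ : GQ, A.IsFrobeniusAt σ q → ∀ x ∈ T, H.gal σ x = (q : ZMod p) • U x) ∧
    (∀ (S : Finset ℕ) (t : ℕ → ℤ) (x : H.J), x ∉ T →
      (∀ σ ∈ A.inertiaSubgroupIn ℚ, H.gal σ x = x) →
      (∀ ℓ : ℕ, ℓ.Prime → ℓ ∉ S → ¬ ℓ ∣ N → ℓ ≠ p → H.T ℓ x = ((t ℓ : ℤ) : ZMod p) • x) →
      Wit S t →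
      ∃ (g : CuspForm (CongruenceSubgroup.Gamma0 (N / q)) 2) (𝔪 : Ideal ZBar),
        g.IsNormalizedEigenform ∧ 𝔪.IsMaximal ∧ (p : ZBar) ∈ 𝔪 ∧
        ∀ ℓ : ℕ, ℓ.Prime → ℓ ∉ S → ¬ ℓ ∣ N → ℓ ≠ p →
          ∃ a : ZBar, (a : ℂ) = ModularFormClass.qCoeff g ℓ ∧ a - ((t ℓ : ℤ) : ZBar) ∈ 𝔪)

/-- The usual structure is the case of the weak witness. -/
theorem hasToricPartAtG_of {p : ℕ} (H : HeckeGaloisModule p)
    (N q : ℕ) (A : ValuationSubring (AlgebraicClosure ℚ)) (h : H.HasToricPartAt N q A) :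
    HasToricPartAtG H N q A (WeakWit p N) := h

/-- **Mazur's principle at `q`, module form**, with the witness as a parameter. -/
def RemovesQ2G {p : ℕ} (H : HeckeGaloisModule p)
    (N q : ℕ) (A : ValuationSubring (AlgebraicClosure ℚ))
    (Wit : Finset ℕ → (ℕ → ℤ) → Prop) : Prop :=
  ∀ (V : Type) [AddCommGroup V] [Module (ZMod p) V] (ρ : GQ →* Module.End (ZMod p) V)
    (ι : V →ₗ[ZMod p] H.J) (S : Finset ℕ) (t : ℕ → ℤ),
    (∀ W : Submodule (ZMod p) V, (∀ σ : GQ, ∀ x ∈ W, ρ σ x ∈ W) → W = ⊥ ∨ W = ⊤) →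
    (∀ σ ∈ A.inertiaSubgroupIn ℚ, ∀ v : V, ρ σ v = v) →
    (¬ ∃ ε : ZMod p, ε * ε = 1 ∧ ∀ σ : GQ, A.IsFrobeniusAt σ q → ∀ v : V,
      ρ σ v = ((q : ZMod p) * ε) • v) →
    Function.Injective ι →
    (∀ (σ : GQ) (v : V), ι (ρ σ v) = H.gal σ (ι v)) →
    (∀ ℓ : ℕ, ℓ.Prime → ℓ ∉ S → ¬ ℓ ∣ N → ℓ ≠ p →
      ∀ v : V, H.T ℓ (ι v) = ((t ℓ : ℤ) : ZMod p) • ι v) →
    Wit S t →
    ∃ (g : CuspForm (CongruenceSubgroup.Gamma0 (N / q)) 2) (𝔪 : Ideal ZBar),
      g.IsNormalizedEigenform ∧ 𝔪.IsMaximal ∧ (p : ZBar) ∈ 𝔪 ∧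
      ∀ ℓ : ℕ, ℓ.Prime → ℓ ∉ S → ¬ ℓ ∣ N → ℓ ≠ p →
        ∃ a : ZBar, (a : ℂ) = ModularFormClass.qCoeff g ℓ ∧ a - ((t ℓ : ℤ) : ZBar) ∈ 𝔪

/-- **Mazur's principle at `q`** from the abstract structure, with the witness as a parameter
(the proof of `H76.removesQ2_of_toric`). -/
theorem removesQ2G_of_toric {p : ℕ} (hp : p.Prime) (hp2 : p ≠ 2) (H : HeckeGaloisModule p)
    (N q : ℕ) (A : ValuationSubring (AlgebraicClosure ℚ))
    (Wit : Finset ℕ → (ℕ → ℤ) → Prop)
    (hbad : HasToricPartAtG H N q A Wit) : RemovesQ2G H N q A Wit := by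
  have : Fact p.Prime := ⟨hp⟩
  intro V _ _ ρ ι S t hirr hunr hnexc hinj hequiv hT hNE
  obtain ⟨T, U, hUgal, hUT, hFrob, hlow⟩ := hbad
  by_cases hcase : ∃ v : V, ι v ∉ T
  · obtain ⟨v, hv⟩ := hcase
    refine hlow S t (ι v) hv (fun σ hσ => ?_) (fun ℓ hℓ hℓS hℓN hℓp => hT ℓ hℓ hℓS hℓN hℓp v) hNE
    rw [← hequiv, hunr σ hσ v]
  · exfalso
    push Not at hcase
    have h2 : (2 : ZMod p) ≠ 0 := by
      intro h
      have h' : ((2 : ℕ) : ZMod p) = 0 := by exact_mod_cast h
      rw [ZMod.natCast_eq_zero_iff] at h'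
      exact hp2 ((Nat.prime_dvd_prime_iff_eq hp Nat.prime_two).mp h')
    -- the two eigen-components of `ι` for `U`
    have key : ∀ ε : ZMod p, ε * ε = 1 → (∃ v, ι v + ε • U (ι v) ≠ 0) →
        ∀ σ : GQ, A.IsFrobeniusAt σ q → ∀ v : V, ρ σ v = ((q : ZMod p) * ε) • v := by
      intro ε hε hne σ hσ v
      set κ : V →ₗ[ZMod p] H.J := ι + ε • (U ∘ₗ ι) with hκ
      have hκv : ∀ w, κ w = ι w + ε • U (ι w) := fun w => rfl
      have hκeq : ∀ (τ : GQ) (w : V), κ (ρ τ w) = H.gal τ (κ w) := by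
        intro τ w
        rw [hκv, hκv, hequiv, map_add, map_smul]
        congr 2
        have := congrArg (fun f : Module.End (ZMod p) H.J => f (ι w)) (hUgal τ)
        simpa using this
      have hκinj : Function.Injective κ := injective_of_irreducible ρ H.gal hirr κ hκeq hne
      have hκT : ∀ w, κ w ∈ T := fun w => by
        rw [hκv]
        exact T.add_mem (hcase w) (T.smul_mem _ (hUT _ (hcase w)).1)
      have hUκ : ∀ w, U (κ w) = ε • κ w := by
        intro w
        rw [hκv, map_add, map_smul, (hUT _ (hcase w)).2, smul_add, smul_smul, hε, one_smul, add_comm]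
      apply hκinj
      rw [hκeq, hFrob σ hσ _ (hκT v), hUκ, smul_smul, map_smul]
    apply hnexc
    by_cases hplus : ∃ v, ι v + (1 : ZMod p) • U (ι v) ≠ 0
    · exact ⟨1, by ring, key 1 (by ring) hplus⟩
    · push Not at hplus
      have hminus : ∃ v, ι v + (-1 : ZMod p) • U (ι v) ≠ 0 := by
        by_contra hcon
        push Not at hcon
        have hι0 : ∀ v, ι v = 0 := by
          intro v
          have h1 := hplus v
          have h3 := hcon v
          have h4 : (2 : ZMod p) • ι v = 0 := by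
            have : (2 : ZMod p) • ι v
                = (ι v + (1 : ZMod p) • U (ι v)) + (ι v + (-1 : ZMod p) • U (ι v)) := by
              rw [two_smul]; module
            rw [this, h1, h3, add_zero]
          rcases smul_eq_zero.mp h4 with h | h
          · exact absurd h h2
          · exact h
        have hV0 : ∀ v : V, v = 0 := fun v => hinj (by rw [hι0 v, _root_.map_zero])
        exact hnexc ⟨1, by ring, fun σ _ v => by rw [hV0 v]; simp⟩
      exact ⟨-1, by ring, key (-1) (by ring) hminus⟩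

/-! ## BAD_q with the witness as a parameter -/

/-- **COMP-EIS at `(p, N, A)`** with the witness as a parameter. -/
def CompEisAtG (p N : ℕ) [NeZero N] (A : ValuationSubring (AlgebraicClosure ℚ))
    (Wit : Finset ℕ → (ℕ → ℤ) → Prop) : Prop :=
  ∀ (S : Finset ℕ) (t : ℕ → ℤ) (x : (jzModule N p).J),
    (∀ σ ∈ A.inertiaSubgroupIn ℚ, (jzModule N p).gal σ x = x) →
    (∀ ℓ : ℕ, ℓ.Prime → ℓ ∉ S → ¬ ℓ ∣ N → ℓ ≠ p →
      (jzModule N p).T ℓ x = ((t ℓ : ℤ) : ZMod p) • x) →
    Wit S t →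
    Fin1 A N p (jzModule.pt N p x)

/-- The usual COMP-EIS is the case of the weak witness. -/
theorem compEisAtG_of {p N : ℕ} [NeZero N] {A : ValuationSubring (AlgebraicClosure ℚ)}
    (h : CompEisAt p N A) : CompEisAtG p N A (WeakWit p N) := h

section Wiring

variable (q M : ℕ) (a b : ℤ) (hab : a * q + b * M = 1) (hq : q.Prime) [NeZero (M * q)] (p : ℕ)
  (A : ValuationSubring (AlgebraicClosure ℚ))

include hab hq in
/-- **The wiring at level `M q`, per-level form**, with the witness as a parameter (the proof of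
`S43.BadQ.hasToricAt_of`). -/
theorem hasToricAtG_of (Wit : Finset ℕ → (ℕ → ℤ) → Prop)
    (hW : Stmt_WHecke) {ε : ℤ} (hε : ε = 1 ∨ ε = -1)
    (hF : FrobToricAt ε p q M a b hab hq A) (hC : CompEisAtG p (M * q) A Wit)
    (hO : OldAt p (M * q) q A) :
    HasToricPartAtG (jzModule (M * q) p) (M * q) q A Wit := by
  have hε2 : (((ε : ℤ) : ZMod p)) * ((ε : ℤ) : ZMod p) = 1 := by
    rcases hε with rfl | rfl <;> simp
  set w : Module.End (ZMod p) (JTors (M * q) p) := wTors q M a b hab hq p with hw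
  refine ⟨toric q M a b hab hq p A, ((ε : ℤ) : ZMod p) • w, ?_, ?_, ?_, ?_⟩
  · intro σ
    show (((ε : ℤ) : ZMod p) • w) * JZero.torsionGaloisRep (M * q) p σ =
      JZero.torsionGaloisRep (M * q) p σ * (((ε : ℤ) : ZMod p) • w)
    rw [smul_mul_assoc, mul_smul_comm, hw, wTors_comm_gal]
  · intro (x : JTors (M * q) p) hx
    have hx' := (mem_toric_iff q M a b hab hq p A x).1 hx
    have hwx : w x ∈ toric q M a b hab hq p A := by
      refine (mem_toric_iff q M a b hab hq p A (w x)).2 ⟨hx'.2, ?_⟩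
      have h1 : wS q M a b hab hq • ((w x : JTors (M * q) p) : JZero (M * q)) =
          ((w (w x) : JTors (M * q) p) : JZero (M * q)) := rfl
      rw [h1, hw, wTors_wTors]
      exact hx'.1
    constructor
    · exact (toric q M a b hab hq p A).smul_mem _ hwx
    · show ((ε : ℤ) : ZMod p) • w (((ε : ℤ) : ZMod p) • w x) = x
      rw [map_smul, smul_smul, hε2, one_smul, hw, wTors_wTors]
  · intro σ hσ (x : JTors (M * q) p) hx
    have hx' := (mem_toric_iff q M a b hab hq p A x).1 hx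
    have hx0 : (p : ℤ) • ((x : JTors (M * q) p) : JZero (M * q)) = 0 :=
      Pic0.mem_torsion.mp x.property
    have h := hF σ hσ _ hx0 hx'.1 hx'.2
    show JZero.torsionGaloisRep (M * q) p σ x = (q : ZMod p) • (((ε : ℤ) : ZMod p) • w x)
    apply Subtype.ext
    rw [JZero.coe_torsionGaloisRep_apply, h, smul_smul]
    have h2 : (q : ZMod p) * ((ε : ℤ) : ZMod p) = (((ε * (q : ℤ) : ℤ)) : ZMod p) := by
      push_cast
      ring
    rw [h2, coe_intCast_smul]
    rfl
  · intro S t x hxT hI hT hNE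
    have hFx := hC S t x hI hT hNE
    by_cases h1 : InK1 A (M * q) p (jzModule.pt (M * q) p x)
    · -- then `w x ∉ K1`
      have h2 : ¬ InK1 A (M * q) p (jzModule.pt (M * q) p (w x)) := by
        intro h2
        exact hxT ((mem_toric_iff q M a b hab hq p A x).2 ⟨h1, h2⟩)
      have hI' : ∀ σ ∈ A.inertiaSubgroupIn ℚ, (jzModule (M * q) p).gal σ (w x) = w x := by
        intro σ hσ
        rw [hw, wTors_gal, hI σ hσ]
      have hT' : ∀ ℓ : ℕ, ℓ.Prime → ℓ ∉ S → ¬ ℓ ∣ M * q → ℓ ≠ p →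
          (jzModule (M * q) p).T ℓ (w x) = ((t ℓ : ℤ) : ZMod p) • w x := by
        intro ℓ hℓ hℓS hℓN hℓp
        rw [hw, wTors_T q M a b hab hq p hW hℓ hℓN, hT ℓ hℓ hℓS hℓN hℓp]
        exact map_smul (wTors q M a b hab hq p) _ _
      have hFw := hC S t (w x) hI' hT' hNE
      exact hO S t (w x) hFw h2 hT'
    · exact hO S t x hFx h1 hT

end Wiring

/-! ## Mazur's principle at a prime which is not exceptional, curve form -/

/-- **Mazur's principle at a prime which is not exceptional**, curve form, from the abstract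
structure at the level `N` and a witness for the system of `W`. -/
theorem lowerConcl_nonexcG (Wit : Finset ℕ → (ℕ → ℤ) → Prop)
    (p : ℕ) (hp : p.Prime) (hp2 : p ≠ 2) (W : WeierstrassCurve ℤ) (hΔ : W.Δ ≠ 0)
    (hirr : GaloisRepIsIrreducible (K := AlgebraicClosure ℚ) ℚ
      (W.map (Int.castRingHom ℚ)).toAffine p)
    (N q : ℕ) [NeZero N] (hN : Squarefree N) (hq : q.Prime) (hqp : q ≠ p)
    (hunr : UnrW W p q) (hne : ¬ IsExcW W p q)
    (hbad : ∀ A : ValuationSubring (AlgebraicClosure ℚ), A.LiesOverPrime q →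
      HasToricPartAtG (jzModule N p) N q A Wit)
    (hWit : Wit W.Δ.natAbs.primeFactors (fun ℓ => W.apOfModel ℓ))
    (f : CuspForm (CongruenceSubgroup.Gamma0 N) 2)
    (𝔪 : Ideal (integralClosure ℤ ℂ)) (hf : f.IsNormalizedEigenform)
    (h𝔪 : 𝔪.IsMaximal) (hp𝔪 : (p : integralClosure ℤ ℂ) ∈ 𝔪)
    (hcong : ∀ ℓ : ℕ, ℓ.Prime → W.IsGoodPrimeFor ℓ → ¬ ℓ ∣ N → ℓ ≠ p →
      ∃ a : integralClosure ℤ ℂ, (a : ℂ) = ModularFormClass.qCoeff f ℓ ∧
        a - ((W.apOfModel ℓ : ℤ) : integralClosure ℤ ℂ) ∈ 𝔪) :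
    LowerConcl p N q W := by
  have hNpos : 0 < N := Nat.pos_of_ne_zero hN.ne_zero
  have : NeZero N := ⟨hN.ne_zero⟩
  have : Fact p.Prime := ⟨hp⟩
  have hWE := isIntegralModelOf_map W
  have : (W.map (Int.castRingHom ℚ)).IsElliptic :=
    ⟨isUnit_iff_ne_zero.mpr (by
      rw [WeierstrassCurve.map_Δ]
      simpa using hΔ)⟩
  obtain ⟨A, hAq⟩ := stmt_PlaceOver q hq
  have hnsc : ¬ ∃ ε : ZMod p, ε * ε = 1 ∧ ∀ σ : GQ, A.IsFrobeniusAt σ q →
      ∀ v : Tors (W.map (Int.castRingHom ℚ)) p,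
        galoisRepModuleEnd (S := ℚ) (K := AlgebraicClosure ℚ)
          (W.map (Int.castRingHom ℚ)).toAffine p σ v = ((q : ZMod p) * ε) • v := by
    rintro ⟨ε, hε, h⟩
    exact hne ⟨dvd_sub_one_of_scalar hWE hΔ hq hqp A hAq ε hε h, A, hAq, (q : ZMod p) * ε, h⟩
  obtain ⟨hcont, hES, hsupp⟩ := stmt_TateModP p hp hp2 N
  set S : Finset ℕ := W.Δ.natAbs.primeFactors with hS
  have hgood : ∀ ℓ : ℕ, ℓ.Prime → ℓ ∉ S → W.IsGoodPrimeFor ℓ := fun ℓ hℓ h =>
    prime_not_mem_of_good hℓ hΔ h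
  obtain ⟨x, hx0, hx⟩ := hsupp f 𝔪 S (fun ℓ => W.apOfModel ℓ) hf h𝔪 hp𝔪
    (fun ℓ hℓ hℓS hℓN hℓp => hcong ℓ hℓ (hgood ℓ hℓ hℓS) hℓN hℓp)
  obtain ⟨ι, hinj, hequiv, hT⟩ := Fermat.Agent.L.H52.recovery p hp hp2 N hNpos
    (jzModule N p) hcont hES (W.map (Int.castRingHom ℚ)) W hWE hirr S hgood x hx0 hx
  have hrem := removesQ2G_of_toric hp hp2 (jzModule N p) N q A Wit (hbad A hAq)
  obtain ⟨g, 𝔪', hg, h𝔪', hp𝔪', hgc⟩ := hrem (Tors (W.map (Int.castRingHom ℚ)) p)
    (galoisRepModuleEnd (S := ℚ) (K := AlgebraicClosure ℚ)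
      (W.map (Int.castRingHom ℚ)).toAffine p)
    ι S (fun ℓ => W.apOfModel ℓ)
    (fun W' hW' => hirr.2 W' (fun σ x hx => hW' σ x hx))
    (fun σ hσ v => hunr A hAq σ hσ v)
    hnsc hinj (fun σ v => hequiv σ v) hT hWit
  exact ⟨g, 𝔪', S, hg, h𝔪', hp𝔪', fun ℓ hℓ hℓS hℓN hℓp _ => hgc ℓ hℓ hℓS hℓN hℓp⟩

/-- **Mazur's principle at a prime which is not exceptional**, curve form (statement). -/
def Stmt_NonExcW : Prop :=
  ∀ (p : ℕ), p.Prime → p ≠ 2 → ∀ (W : WeierstrassCurve ℤ), W.Δ ≠ 0 → W.IsSemistableModel →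
    W.ModRepIsIrreducible p →
    ∀ (N q : ℕ), Squarefree N → q.Prime → q ≠ p → q ∣ N → UnrW W p q → ¬ IsExcW W p q →
    ∀ (f : CuspForm (CongruenceSubgroup.Gamma0 N) 2) (𝔪 : Ideal (integralClosure ℤ ℂ)),
      f.IsNormalizedEigenform → 𝔪.IsMaximal → (p : integralClosure ℤ ℂ) ∈ 𝔪 →
      (∀ ℓ : ℕ, ℓ.Prime → W.IsGoodPrimeFor ℓ → ¬ ℓ ∣ N → ℓ ≠ p →
        ∃ a : integralClosure ℤ ℂ, (a : ℂ) = ModularFormClass.qCoeff f ℓ ∧
          a - ((W.apOfModel ℓ : ℤ) : integralClosure ℤ ℂ) ∈ 𝔪) →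
      LowerConcl p N q W

/-- `Stmt_BadQsf` (all odd `p`) gives the Mazur step: helper75's `lowerConcl_nonexc`. -/
theorem nonExcW_of_badQsf (h2 : Stmt_BadQsf) : Stmt_NonExcW :=
  fun p hp hp2 W hΔ _ hirr N q hN hq hqp hqN hunr hne f 𝔪 hf h𝔪 hp𝔪 hcong =>
    lowerConcl_nonexc h2 p hp hp2 W hΔ hirr N q hN hq hqp hqN hunr hne f 𝔪 hf h𝔪 hp𝔪 hcong

/-- An odd prime is `3` or at least `5`. -/
theorem eq_three_or_five_le {p : ℕ} (hp : p.Prime) (hp2 : p ≠ 2) : p = 3 ∨ 5 ≤ p := by
  have h2 := hp.two_le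
  have h4 : p ≠ 4 := by
    rintro rfl
    exact absurd hp (by decide)
  omega

/-- **The Mazur step from the leaves**: FROB-T and OLD (all odd `p`), COMP-EIS (`p ≥ 5`),
COMP-EIS3 in the strong form and STRONG (`p = 3`). -/
theorem nonExcW_of (hF : Stmt_FrobToricGen) (hC : Stmt_CompEis)
    (hC3 : Fermat.Agent.S38.P3.Stmt_CompEis3S)
    (hO : Stmt_OldGen) (hWit : Fermat.Agent.S38.P3.Stmt_Strong) : Stmt_NonExcW := by
  intro p hp hp2 W hΔ hW hirr N q hN hq hqp hqN hunr hne f 𝔪 hf h𝔪 hp𝔪 hcong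
  have : NeZero N := ⟨hN.ne_zero⟩
  have hq2 : ¬ q ^ 2 ∣ N := fun h => hq.not_isUnit (hN q (by rwa [pow_two] at h))
  -- the abstract structure at the level `N = M q`
  have hstr : ∀ (Wit : Finset ℕ → (ℕ → ℤ) → Prop),
      (∀ A : ValuationSubring (AlgebraicClosure ℚ), A.LiesOverPrime q →
        CompEisAtG p N A Wit) →
      ∀ A : ValuationSubring (AlgebraicClosure ℚ), A.LiesOverPrime q →
        HasToricPartAtG (jzModule N p) N q A Wit := by
    intro Wit hCW A hA
    obtain ⟨M, rfl⟩ : ∃ M, N = M * q := ⟨N / q, (Nat.div_mul_cancel hqN).symm⟩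
    have hqM : ¬ q ∣ M := by
      rintro ⟨k, rfl⟩
      exact hq.not_isUnit (hN q ⟨k, by ring⟩)
    have hcop : IsCoprime (q : ℤ) (M : ℤ) :=
      Nat.isCoprime_iff_coprime.2 ((Nat.Prime.coprime_iff_not_dvd hq).2 hqM)
    obtain ⟨a, b, hab⟩ := hcop
    exact hasToricAtG_of q M a b hab hq p A Wit Fermat.Agent.S43.H88.stmt_WHecke (Or.inr rfl)
      (hF p hp hp2 q M a b hab hq hqp hN A hA) (hCW A hA)
      (hO p hp hp2 (M * q) q hq hqp hqN hN A hA)
  rcases eq_three_or_five_le hp hp2 with rfl | hp5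
  · -- `p = 3`: the strong witness
    refine lowerConcl_nonexcG (Fermat.Agent.S38.P3.StrongAt N) 3 hp hp2 W hΔ hirr N q hN hq hqp
      hunr hne (hstr _ (fun A hA => hC3 N q hq hqp hqN hq2 A hA))
      (Fermat.Agent.S38.P3.strongAt_of_strong hWit W hΔ hW hirr N hN.ne_zero _)
      f 𝔪 hf h𝔪 hp𝔪 hcong
  · -- `p ≥ 5`: the weak witness
    have hNpos : 0 < N := Nat.pos_of_ne_zero hN.ne_zero
    have hWE := isIntegralModelOf_map W
    have : (W.map (Int.castRingHom ℚ)).IsElliptic :=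
      ⟨isUnit_iff_ne_zero.mpr (by
        rw [WeierstrassCurve.map_Δ]
        simpa using hΔ)⟩
    have hNE : WeakWit p N W.Δ.natAbs.primeFactors (fun ℓ => W.apOfModel ℓ) := by
      have h := Fermat.Agent.S41.H19.stmt_I3 (W.map (Int.castRingHom ℚ)) W hWE p N hp hNpos hirr
      by_contra hcon
      apply h
      intro ℓ hℓ hℓW hℓN hℓp
      by_contra hne'
      refine hcon ⟨ℓ, hℓ, ?_, hℓN, hℓp, hne'⟩
      intro hmem
      rw [Nat.mem_primeFactors] at hmem
      exact hℓW (Int.natCast_dvd.mpr hmem.2.1)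
    refine lowerConcl_nonexcG (WeakWit p N) p hp hp2 W hΔ hirr N q hN hq hqp hunr hne
      (hstr _ (fun A hA => compEisAtG_of
        ((stmt_CompEis_iff.mp hC) p hp hp5 N q hq hqp hqN hq2 A hA)))
      hNE f 𝔪 hf h𝔪 hp𝔪 hcong

/-! ## The induction on the level (helper75), with the Mazur step as a hypothesis -/

/-- **Lowering to a level prime to `q`** (induction on the level; the proof of
`H75.lower_to_prime_to_q`). -/
theorem lower_to_prime_to_q' (h39 : Fermat.Agent.S59.LL.Stmt_S39) (hB : Stmt_NonExcW)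
    (hPV : Fermat.Agent.S38.P3.Stmt_PivotWCoreAll)
    (hSO : Fermat.Agent.S38.P3.Stmt_PivotWCoreSOAll)
    (p : ℕ) (hp : p.Prime) (hp2 : p ≠ 2) (W : WeierstrassCurve ℤ) (hΔ : W.Δ ≠ 0)
    (hW : W.IsSemistableModel) (hirr : W.ModRepIsIrreducible p)
    (q : ℕ) (hq : q.Prime) (hqp : q ≠ p) (hunr : UnrW W p q) :
    ∀ n : ℕ, ∀ N : ℕ, N ≤ n → Squarefree N → W.IsResiduallyModularOfLevel p N →
      ∃ N' : ℕ, N' ∣ N ∧ ¬ q ∣ N' ∧ W.IsResiduallyModularOfLevel p N' := by
  intro n
  induction n with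
  | zero =>
    intro N hN hsq _
    exact absurd (Nat.le_zero.mp hN) hsq.ne_zero
  | succ n ih =>
    intro N hNle hsq hres
    have hNpos : 0 < N := Nat.pos_of_ne_zero hsq.ne_zero
    by_cases hqN : q ∣ N
    swap
    · exact ⟨N, dvd_rfl, hqN, hres⟩
    -- a smaller level suffices
    have step : ∀ r : ℕ, r.Prime → r ∣ N → W.IsResiduallyModularOfLevel p (N / r) →
        ∃ N' : ℕ, N' ∣ N ∧ ¬ q ∣ N' ∧ W.IsResiduallyModularOfLevel p N' := by
      intro r hr hrN hM
      have hdvd : N / r ∣ N := Nat.div_dvd_of_dvd hrN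
      have hlt : N / r < N := Nat.div_lt_self hNpos hr.one_lt
      obtain ⟨N', hN'M, hqN', hN'⟩ := ih (N / r) (by omega) (hsq.squarefree_of_dvd hdvd) hM
      exact ⟨N', hN'M.trans hdvd, hqN', hN'⟩
    -- the conclusion of the core at a prime `r` gives the level `N / r`
    have ofLC : ∀ r : ℕ, r.Prime → r ∣ N → LowerConcl p N r W →
        W.IsResiduallyModularOfLevel p (N / r) := fun r hr hrN h =>
      isResiduallyModular_of_lowerConcl Fermat.Agent.S38.H49.stmt_Complete p hp W hΔ N r hsq hr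
        hrN h
    obtain ⟨f, 𝔪, hf, h𝔪, hp𝔪, hcong⟩ := hres
    have hres' : W.IsResiduallyModularOfLevel p N := ⟨f, 𝔪, hf, h𝔪, hp𝔪, hcong⟩
    by_cases hpeu : p ∣ N ∧ (W.map (Int.castRingHom ℚ)).IsPeuRamifieeAt p p
    · -- remove `p`
      obtain ⟨hpN, hfin⟩ := hpeu
      have hp2N : ¬ p ^ 2 ∣ N := fun h =>
        hp.not_isUnit (hsq p (by rwa [pow_two] at h))
      exact step p hp hpN
        (h39 W hΔ hp hp2 (fun h => hW p hp h) hirr hfin hNpos hpN hp2N hres')
    · by_cases hall : ∀ q' : ℕ, q'.Prime → q' ≠ p → q' ∣ N → UnrW W p q' → IsExcW W p q'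
      · -- PIVOT
        have hLC : LowerConcl p N q W := by
          by_cases hpN : p ∣ N
          · have hnpeu : ¬ (W.map (Int.castRingHom ℚ)).IsPeuRamifieeAt p p :=
              fun h => hpeu ⟨hpN, h⟩
            have hpΔ : (p : ℤ) ∣ W.Δ := by
              by_contra h
              exact hnpeu (isPeuRamifieeAt_of_not_dvd W p h)
            exact hSO p hp hp2 W hΔ hW hirr N q hsq hpN hpΔ hnpeu hq hqp hqN hunr hall f 𝔪 ∅
              hf h𝔪 hp𝔪 (fun ℓ hℓ _ hg hℓN hℓp => hcong ℓ hℓ hg hℓN hℓp)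
          · exact hPV p hp hp2 W hΔ hW hirr N q hsq hpN hq hqN hunr
              (fun q' hq' hq'N hu => hall q' hq' (fun h => hpN (h ▸ hq'N)) hq'N hu) f 𝔪 ∅
              hf h𝔪 hp𝔪 (fun ℓ hℓ _ hg hℓN hℓp => hcong ℓ hℓ hg hℓN hℓp)
        refine ⟨N / q, Nat.div_dvd_of_dvd hqN, ?_, ofLC q hq hqN hLC⟩
        intro hqq
        obtain ⟨k, hk⟩ := hqq
        have h2 : q * q ∣ N := by
          have h3 : N = q * (N / q) := (Nat.mul_div_cancel' hqN).symm
          rw [h3, hk]
          exact ⟨k, by ring⟩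
        exact hq.not_isUnit (hsq q h2)
      · -- Mazur's principle at a prime which is not exceptional
        push Not at hall
        obtain ⟨q', hq', hq'p, hq'N, hu', hne⟩ := hall
        exact step q' hq' hq'N (ofLC q' hq' hq'N
          (hB p hp hp2 W hΔ hW hirr N q' hsq hq' hq'p hq'N hu' hne f 𝔪 hf h𝔪 hp𝔪 hcong))

/-- **S38 from the frozen S39, the Mazur step and the two PIVOT cores.** -/
theorem s38_of_nonExcW (h39 : Fermat.Agent.S59.LL.Stmt_S39) (hB : Stmt_NonExcW)
    (hPV : Fermat.Agent.S38.P3.Stmt_PivotWCoreAll)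
    (hSO : Fermat.Agent.S38.P3.Stmt_PivotWCoreSOAll) : Fermat.Agent.S59.LL.Stmt_S38 := by
  intro p hpF hp2 W hΔ hW hcard₁ hker hirr M q hq hqp hqM hq2 hM hunr hres
  have hp : p.Prime := hpF.out
  have hunr' : UnrW W p q := by
    intro A hA σ hσ v
    have h1 := hunr A hA σ hσ
    have h2 : galoisRepModuleEnd (S := ℚ) (K := AlgebraicClosure ℚ)
        (W.map (Int.castRingHom ℚ)).toAffine p σ = 1 := h1
    rw [h2]
    rfl
  obtain ⟨N', hN'M, hqN', hN'⟩ := lower_to_prime_to_q' h39 hB hPV hSO p hp hp2 W hΔ hW hirr q hq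
    hqp hunr' M M le_rfl hM hres
  have hMq : M / q ∣ M := Nat.div_dvd_of_dvd hqM
  have hdvd : N' ∣ M / q := by
    have h3 : M = q * (M / q) := (Nat.mul_div_cancel' hqM).symm
    rw [h3] at hN'M
    exact (Nat.Coprime.dvd_mul_left
      ((Nat.Prime.coprime_iff_not_dvd hq).2 hqN').symm).1 hN'M
  exact raise_level W p (hM.squarefree_of_dvd hMq) hdvd hN'

/-- **S38-WIRE3**: the frozen S38 from the frozen S39, the BAD_q leaves (with COMP-EIS3 in the
strong form and STRONG at `p = 3`) and the two PIVOT cores. -/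
theorem s38_of_wire3 (h39 : Fermat.Agent.S59.LL.Stmt_S39)
    (hF : Stmt_FrobToricGen) (hC : Stmt_CompEis) (hC3 : Fermat.Agent.S38.P3.Stmt_CompEis3S)
    (hO : Stmt_OldGen)
    (hWit : Fermat.Agent.S38.P3.Stmt_Strong) (hPV : Fermat.Agent.S38.P3.Stmt_PivotWCoreAll)
    (hSO : Fermat.Agent.S38.P3.Stmt_PivotWCoreSOAll) :
    Fermat.Agent.S59.LL.Stmt_S38 :=
  s38_of_nonExcW h39 (nonExcW_of hF hC hC3 hO hWit) hPV hSO

end Fermat.Agent.S38.H37

end
end
-- ==== END Fermat.Agent.S38.H37_Wire3
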