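-- GENERATED (merged mirror, NOTES/tools/trim/merge3_helper67.py): 9 modules of the originals, bodies verbatim.
import Fermat.Agent.Zm.S59_L03_003
import Fermat.Agent.Zm.S59_L04_000
import Fermat.Agent.Zm.S59_L04_001
import Fermat.Agent.Zm.S59_L01_001
import Fermat.Agent.Zm.S36_L02_002
import Fermat.Agent.Zm.S59_L03_001
import Fermat.Agent.Zm.S43_L02_003
import Fermat.Agent.Zm.S43_L06_002
import Fermat.Agent.Zm.S59_L01_002
import Fermat.Agent.Zm.S15_L02_000
import Fermat.Agent.Zm.S59_L04_002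
import Fermat.Agent.Zm.S44_L14_000
import Fermat.Agent.Zm.S43_L03_003
import Fermat.Agent.Zm.S43_L02_002
import Fermat.Agent.Zm.S56_L11_002
import Fermat.Agent.Zm.S56_L11_001
import Fermat.Agent.Zm.S56_L12_001
import Fermat.Agent.Zm.S56_L10_002
import Fermat.Agent.Zm.S56_L01_000
import Fermat.Agent.Zm.S44_L05_001
import Fermat.Agent.Zm.S44_L02_004
import Fermat.Agent.S05.H15_Val

-- ==== BEGIN Fermat.Agent.S27.Char0.Lift.H64_NormOrd
section

/-!
# S27 LIFT / SOLVE, leaf NORM-ORD (helper64)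

`stmt_NormOrd : Solve.Stmt_NormOrd`: the orders of `Dfin(x) · N_{F/K(x)}(h)` for `h ∈ L(n E')`.

For a place `P` of `F` over the place `v` of `K(x)`, with `e = e(P | v)`:
`ord_P N(h) = e · ∑_{w | v} ord_w h ≥ - e n ∑_{w | v} E'(w)`, and the factors
`(x - b_w) ^ (n E'(w))` of `Dfin(x)` for the finite `w | v` have order `≥ e n E'(w)` at `P`.
-/

set_option autoImplicit false

noncomputable section

open AlgebraicCurve IntermediateField

namespace Fermat.Agent.S27.Char0.Lift.H64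

open Fermat.Agent.RED.H17 Fermat.Agent.RED.H51 Fermat.Agent.S24 Fermat.Agent.S27.Char0
  Fermat.Agent.S27.Char0.Lift

attribute [local instance] Classical.propDecidable

local notation "L" => riemannRochSpace

universe u v

variable {K : Type u} {F : Type v} [Field K] [Field F] [Algebra K F]

/-- `ord_P N(f) = e(P | v) · ∑_{w | v} ord_w f`. -/
theorem ord_norm_eq_fiber [IsAlgClosed K] (hP : HasPrincipalDivisors K F) (x : F)
    (hx : Transcendental K x) [FiniteDimensional ↥K⟮x⟯ F] (P : Place K F) {f : F}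
    (hf : f ≠ 0) :
    P.ord (algebraMap ↥K⟮x⟯ F (Algebra.norm ↥K⟮x⟯ f)) =
      (P.ramificationIndex ↥K⟮x⟯ : ℤ) * ∑ w ∈ (P.restrict ↥K⟮x⟯).fiber F, w.ord f := by
  classical
  have := hP
  set g : ↥K⟮x⟯ := AdjoinSimple.gen K x with hg
  have hgx : algebraMap ↥K⟮x⟯ F g = x := rfl
  have hgtr : Transcendental K g :=
    (transcendental_algebraMap_iff (algebraMap ↥K⟮x⟯ F).injective).mp (by rw [hgx]; exact hx)
  have hgtop : K⟮g⟯ = (⊤ : IntermediateField K ↥K⟮x⟯) := H45.adjoin_gen_eq_top_u x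
  have hfinE : FiniteDimensional ↥K⟮g⟯ ↥K⟮x⟯ := (H45.finrank_of_eq_top_u K⟮g⟯ hgtop).1
  have hzE : H59.ZerosStmt K ↥K⟮x⟯ := H45.zerosStmt_u hgtr
  have hzF : H59.ZerosStmt K F := H45.zerosStmt_u hx
  have hdegF : ∀ w : Place K F, w.deg = 1 := fun w => ff_deg_eq_one x hx w
  have hsum := sum_ramificationIndex_eq hzE hzF hgtr hx (P.restrict ↥K⟮x⟯)
    ((P.restrict ↥K⟮x⟯).fiber F) (fun w => Place.mem_fiber)
  rw [P.ord_restrict,
    norm_ord (P.restrict ↥K⟮x⟯) ((P.restrict ↥K⟮x⟯).fiber F)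
      (fun w hw => Place.mem_fiber.mp hw) hsum hdegF hf]

/-- The order of `x - b` at a place where `x` is regular is nonnegative. -/
theorem ord_sub_const_nonneg {x : F} (hx : Transcendental K x) (P : Place K F)
    (hPx : 0 ≤ P.ord x) (c : K) : 0 ≤ P.ord (x - algebraMap K F c) := by
  have hx0 : x ≠ 0 := fun h => hx (h ▸ isAlgebraic_zero)
  have h1 := le_ord_add P (f := x) (g := -algebraMap K F c) (n := 0) (Or.inr hPx)
    (Or.inr (by rw [RED.H51.ord_neg, RED.H17.ord_algebraMap]))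
  rw [← sub_eq_add_neg] at h1
  rcases h1 with h0 | h1
  · rw [h0, Place.ord_zero]
  · exact h1

/-- The order of `x - b` at a pole of `x`. -/
theorem ord_sub_const_of_neg {x : F} (hx : Transcendental K x) (P : Place K F)
    (hPx : P.ord x < 0) (c : K) : P.ord (x - algebraMap K F c) = P.ord x := by
  have hx0 : x ≠ 0 := fun h => hx (h ▸ isAlgebraic_zero)
  rw [sub_eq_add_neg]
  refine ord_add_of_lt P hx0 (Or.inr ?_)
  rw [RED.H51.ord_neg, RED.H17.ord_algebraMap]
  exact hPx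

theorem sub_const_ne_zero {x : F} (hx : Transcendental K x) (c : K) :
    x - algebraMap K F c ≠ 0 := by
  intro h0
  apply hx
  rw [sub_eq_zero.mp h0]
  exact isAlgebraic_algebraMap c

/-- The orders of `x` and `x - c` at the places of a fibre of `F / K(x)`. -/
theorem ord_fiber_eq (x : F) [FiniteDimensional ↥K⟮x⟯ F] (P : Place K F) (c : K) :
    P.ord (x - algebraMap K F c) = (P.ramificationIndex ↥K⟮x⟯ : ℤ) *
      (P.restrict ↥K⟮x⟯).ord (AdjoinSimple.gen K x - algebraMap K ↥K⟮x⟯ c) := by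
  rw [← P.ord_restrict (F := ↥K⟮x⟯) (AdjoinSimple.gen K x - algebraMap K ↥K⟮x⟯ c)]
  congr 1

theorem ord_fiber_eq' (x : F) [FiniteDimensional ↥K⟮x⟯ F] (P : Place K F) :
    P.ord x = (P.ramificationIndex ↥K⟮x⟯ : ℤ) *
      (P.restrict ↥K⟮x⟯).ord (AdjoinSimple.gen K x) := by
  rw [← P.ord_restrict (F := ↥K⟮x⟯) (AdjoinSimple.gen K x)]
  congr 1

/-- **NORM-ORD**. -/
theorem stmt_NormOrd : Solve.Stmt_NormOrd.{u, v} := by
  intro K F _ _ _ _ H x hx hfin n E' b hE' hb h hh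
  classical
  have : FiniteDimensional ↥K⟮x⟯ F := hfin
  have hP : HasPrincipalDivisors K F := H.principal
  rcases eq_or_ne h 0 with rfl | hh0
  · simp only [Algebra.norm_zero, map_zero, mul_zero, Place.ord_zero, le_refl, implies_true,
      true_and]
    intro P hPx
    have hdeg : 0 ≤ Divisor.degree E' := by
      rw [_root_.Fermat.Agent.RED.H17.degree_eq_sum H.deg_one]
      exact Finset.sum_nonneg fun P _ => hE' P
    have : 0 ≤ (n : ℤ) * Divisor.degree E' := mul_nonneg (by positivity) hdeg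
    nlinarith
  -- general facts
  have hN0 : algebraMap ↥K⟮x⟯ F (Algebra.norm ↥K⟮x⟯ h) ≠ 0 := by
    rw [Ne, map_eq_zero]
    exact Algebra.norm_ne_zero_iff.mpr hh0
  set S : Finset (Place K F) := E'.support.filter (fun P => 0 ≤ P.ord x) with hS
  have hfac0 : ∀ P' ∈ S, (x - algebraMap K F (b P')) ^ (n * (E' P').toNat) ≠ 0 :=
    fun P' _ => pow_ne_zero _ (sub_const_ne_zero hx _)
  have hD0 : Solve.dfinX x n E' b ≠ 0 := Finset.prod_ne_zero_iff.mpr hfac0
  have hDord : ∀ P : Place K F, P.ord (Solve.dfinX x n E' b) =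
      ∑ P' ∈ S, ((n : ℤ) * E' P') * P.ord (x - algebraMap K F (b P')) := by
    intro P
    unfold Solve.dfinX
    rw [RED.H17.ord_prod P _ _ hfac0]
    refine Finset.sum_congr rfl fun P' _ => ?_
    rw [RED.H17.ord_pow]
    push_cast
    rw [Int.toNat_of_nonneg (hE' P')]
  have hordh : ∀ w : Place K F, -((n : ℤ) * E' w) ≤ w.ord h := by
    intro w
    have := ord_ge_of_mem_L hh hh0 w
    simpa using this
  -- the data at a place `P`
  have key : ∀ P : Place K F,
      -((P.ramificationIndex ↥K⟮x⟯ : ℤ) * ((n : ℤ) * ∑ w ∈ (P.restrict ↥K⟮x⟯).fiber F, E' w)) ≤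
        P.ord (algebraMap ↥K⟮x⟯ F (Algebra.norm ↥K⟮x⟯ h)) := by
    intro P
    rw [ord_norm_eq_fiber hP x hx P hh0, ← mul_neg, Finset.mul_sum, ← Finset.sum_neg_distrib]
    refine mul_le_mul_of_nonneg_left (Finset.sum_le_sum fun w _ => hordh w) (by positivity)
  refine ⟨fun P hPx => ?_, fun P hPx => ?_⟩
  · -- finite places
    rw [P.ord_mul hD0 hN0, hDord]
    set e : ℤ := (P.ramificationIndex ↥K⟮x⟯ : ℤ) with he
    have hepos : 0 < e := by
      have := P.ramificationIndex_pos (F := ↥K⟮x⟯)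
      rw [he]; exact_mod_cast this
    set T := (P.restrict ↥K⟮x⟯).fiber F with hT
    have hterm : ∀ P' ∈ S, 0 ≤ ((n : ℤ) * E' P') * P.ord (x - algebraMap K F (b P')) :=
      fun P' _ => mul_nonneg (mul_nonneg (by positivity) (hE' P'))
        (ord_sub_const_nonneg hx P hPx _)
    have hvx : 0 ≤ (P.restrict ↥K⟮x⟯).ord (AdjoinSimple.gen K x) := by
      have h1 : P.ord x = e * (P.restrict ↥K⟮x⟯).ord (AdjoinSimple.gen K x) :=
        ord_fiber_eq' x P
      by_contra hneg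
      rw [not_le] at hneg
      have := mul_neg_of_pos_of_neg hepos hneg
      linarith
    have hTfin : ∀ w ∈ T, 0 ≤ w.ord x := by
      intro w hw
      rw [ord_fiber_eq' x w, Place.mem_fiber.mp hw]
      exact mul_nonneg (by positivity) hvx
    have hstep : e * ((n : ℤ) * ∑ w ∈ T, E' w) ≤
        ∑ P' ∈ S, ((n : ℤ) * E' P') * P.ord (x - algebraMap K F (b P')) := by
      have hA : ∑ w ∈ T.filter (fun w => w ∈ S), E' w = ∑ w ∈ T, E' w := by
        refine Finset.sum_filter_of_ne fun w hw hne => ?_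
        rw [hS, Finset.mem_filter, Finsupp.mem_support_iff]
        exact ⟨hne, hTfin w hw⟩
      rw [← hA, Finset.mul_sum, Finset.mul_sum]
      refine le_trans (Finset.sum_le_sum (g := fun P' =>
        ((n : ℤ) * E' P') * P.ord (x - algebraMap K F (b P'))) fun w hw => ?_)
        (Finset.sum_le_sum_of_subset_of_nonneg (fun w hw => (Finset.mem_filter.mp hw).2)
          fun P' hP' _ => hterm P' hP')
      · obtain ⟨hwT, hwS⟩ := Finset.mem_filter.mp hw
        have hwsupp : w ∈ E'.support := (Finset.mem_filter.mp hwS).1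
        have hwx : 0 ≤ w.ord x := (Finset.mem_filter.mp hwS).2
        have h1 := hb w hwsupp hwx
        rw [ord_fiber_eq x w, Place.mem_fiber.mp hwT] at h1
        have hvpos : 1 ≤ (P.restrict ↥K⟮x⟯).ord
            (AdjoinSimple.gen K x - algebraMap K ↥K⟮x⟯ (b w)) := by
          by_contra hneg
          rw [not_le] at hneg
          have : (w.ramificationIndex ↥K⟮x⟯ : ℤ) * (P.restrict ↥K⟮x⟯).ord
              (AdjoinSimple.gen K x - algebraMap K ↥K⟮x⟯ (b w)) ≤ 0 :=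
            mul_nonpos_of_nonneg_of_nonpos (by positivity) (by omega)
          omega
        rw [ord_fiber_eq x P]
        have hnE : 0 ≤ (n : ℤ) * E' w := mul_nonneg (by positivity) (hE' w)
        nlinarith [mul_nonneg hnE hepos.le]
    have hk := key P
    rw [← he, ← hT] at hk
    linarith
  · -- poles of `x`
    rw [P.ord_mul hD0 hN0, hDord]
    set e : ℤ := (P.ramificationIndex ↥K⟮x⟯ : ℤ) with he
    have hepos : 0 < e := by
      have := P.ramificationIndex_pos (F := ↥K⟮x⟯)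
      rw [he]; exact_mod_cast this
    set T := (P.restrict ↥K⟮x⟯).fiber F with hT
    set o : ℤ := (P.restrict ↥K⟮x⟯).ord (AdjoinSimple.gen K x) with ho
    have hPxe : P.ord x = e * o := ord_fiber_eq' x P
    have hvx : o ≤ -1 := by
      by_contra hneg
      rw [not_le] at hneg
      have := mul_nonneg hepos.le (show 0 ≤ o by omega)
      linarith
    have hTpole : ∀ w ∈ T, w.ord x < 0 := by
      intro w hw
      rw [ord_fiber_eq' x w, Place.mem_fiber.mp hw]
      have := w.ramificationIndex_pos (F := ↥K⟮x⟯)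
      exact mul_neg_of_pos_of_neg (by exact_mod_cast this) (by omega)
    have hDexact : ∑ P' ∈ S, ((n : ℤ) * E' P') * P.ord (x - algebraMap K F (b P')) =
        (n : ℤ) * P.ord x * ∑ P' ∈ S, E' P' := by
      rw [Finset.mul_sum]
      refine Finset.sum_congr rfl fun P' _ => ?_
      rw [ord_sub_const_of_neg hx P hPx]
      ring
    set Spole : Finset (Place K F) := E'.support.filter (fun P => ¬ 0 ≤ P.ord x) with hSp
    have hdeg : Divisor.degree E' = ∑ P' ∈ S, E' P' + ∑ P' ∈ Spole, E' P' := by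
      rw [_root_.Fermat.Agent.RED.H17.degree_eq_sum H.deg_one, Finsupp.sum, hS, hSp,
        Finset.sum_filter_add_sum_filter_not]
    have hA : ∑ w ∈ T, E' w ≤ ∑ P' ∈ Spole, E' P' := by
      have hA' : ∑ w ∈ T.filter (fun w => w ∈ Spole), E' w = ∑ w ∈ T, E' w := by
        refine Finset.sum_filter_of_ne fun w hw hne => ?_
        rw [hSp, Finset.mem_filter, Finsupp.mem_support_iff]
        exact ⟨hne, not_le.mpr (hTpole w hw)⟩
      rw [← hA']
      exact Finset.sum_le_sum_of_subset_of_nonneg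
        (fun w hw => (Finset.mem_filter.mp hw).2) fun P' _ _ => hE' P'
    have hA0 : 0 ≤ ∑ w ∈ T, E' w := Finset.sum_nonneg fun w _ => hE' w
    have hk := key P
    rw [← he, ← hT] at hk
    rw [hDexact, hdeg, hPxe]
    have hn0 : (0 : ℤ) ≤ n := by positivity
    set A := ∑ w ∈ T, E' w
    set B := ∑ P' ∈ Spole, E' P'
    set C := ∑ P' ∈ S, E' P'
    have h1 : 0 ≤ e * ((n : ℤ) * B) := mul_nonneg hepos.le (mul_nonneg hn0 (hA0.trans hA))
    have h2 : e * ((n : ℤ) * A) ≤ e * ((n : ℤ) * B) :=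
      mul_le_mul_of_nonneg_left (mul_le_mul_of_nonneg_left hA hn0) hepos.le
    nlinarith [mul_nonneg h1 (show (0 : ℤ) ≤ -1 - o by omega)]

end Fermat.Agent.S27.Char0.Lift.H64

end
end
-- ==== END Fermat.Agent.S27.Char0.Lift.H64_NormOrd

-- ==== BEGIN Fermat.Agent.S27.REDu.H79_ConsDefs
section

/-!
# G-RED package CONS (helper79 + helper10): shared definitions

Setting: helper34's `RedSetting C F k Ft` (`S.V` valuation ring of `F`, `S.red : S.V → Ft`,
`S.O = S.V ∩ C`, `S.resO : S.O → k`).  A **chart** is `x ∈ S.V` with transcendental reduction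
`xt = S.red x` such that `[Ft : k(xt)] = [F : C(x)]` and the chart is normal
(`ChartNormal` = conclusion of helper34's `Stmt_chartNormal.{uC, uF, uk, uFt}`).
`B` = integral closure of `C[x]` in `F`, `R = B ∩ V`, `Bt` = integral closure of `k[xt]` in `Ft`.

* `InChart S x P` : the place `P` lies in the closed unit disc of the chart: `x(P) ∈ O`.
* `RedTo S x hx P Q` : `Q` is finite over `xt` and evaluation at `Q` is the reduction of the
  evaluation at `P` on `R` (`f(P) = a ∈ O ⇒ (red f)(Q) = a mod m`).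
* `ChartIntegral` (C2, helper10) : for `f ∈ R`: `red f ∈ Bt`, and `f(P) ∈ O` for `P` in the chart.
* `Stmt_C4.{uC, uF, uk, uFt}` (helper79) : every `P` in the chart reduces to some `Q`.
* `Stmt_C5.{uC, uF, uk, uFt}` (helper79) : `ord_Q (red f) ≤ Σ_{P in chart, r P = Q} ord_P f` for Gauss units `f ∈ R`.

Route (helper10's note "CONS via FF-B norm formula"): C3 (fibre-wise conservation from the norm
formula) + C5 ⇒ conservation on the chart; two charts `x`, `1/x` ⇒ `IsRed`.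
This file contains no `sorry`.
-/

set_option autoImplicit false

universe uC uCf uK uR uF uL uE uk ukap uFp uFt uFtp uiot uEp uKp ux3b1

noncomputable section

open AlgebraicCurve IntermediateField

namespace Fermat.Agent.S27.REDu.H79

open Fermat.Agent.S27.REDu.H34 Fermat.Agent.S27.REDu.H51

variable {C : Type uC} {F : Type uF} {k : Type uk} {Ft : Type uFt} [Field C] [Field F] [Algebra C F] [Field k] [Field Ft] [Algebra k Ft]

/-- **(N)** the chart `x` is normal: every element of `Ft` integral over `k[xt]` is the reduction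
of an element of `V` integral over `C[x]`. -/
def ChartNormal (S : RedSetting C F k Ft) (x : F) (hx : x ∈ S.V) : Prop :=
  ∀ y : Ft, IsIntegral ↥(Algebra.adjoin k {S.red ⟨x, hx⟩}) y →
    ∃ f : ↥S.V, IsIntegral ↥(Algebra.adjoin C {x}) (f : F) ∧ S.red f = y

/-- The standing hypotheses on a chart. -/
structure GoodChart (S : RedSetting C F k Ft) (x : F) (hx : x ∈ S.V) : Prop where
  transc : Transcendental k (S.red ⟨x, hx⟩)
  fin : FiniteDimensional C⟮x⟯ F
  sep : Algebra.IsSeparable C⟮x⟯ F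
  deg : Module.finrank k⟮S.red ⟨x, hx⟩⟯ Ft = Module.finrank C⟮x⟯ F
  sept : Algebra.IsSeparable k⟮S.red ⟨x, hx⟩⟯ Ft
  normal : ChartNormal S x hx

/-- The place `P` lies in the closed unit disc of the chart `x`: `x(P) = a` with `a ∈ O`. -/
def InChart (S : RedSetting C F k Ft) (x : F) (P : Place C F) : Prop :=
  ∃ a : C, algebraMap C F a ∈ S.V ∧ OrdGe P 1 (x - algebraMap C F a)

/-- `Q` is a reduction of `P` on the chart `x` (evaluation form): `Q` is finite over `xt`, and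
for `f ∈ R = B ∩ V` with `f(P) = a ∈ O` the reduction `red f` has the value `a mod m` at `Q`. -/
def RedTo (S : RedSetting C F k Ft) (x : F) (hx : x ∈ S.V) (P : Place C F) (Q : Place k Ft) :
    Prop :=
  S.red ⟨x, hx⟩ ∈ Q.toValuationSubring ∧
  ∀ f : ↥S.V, IsIntegral ↥(Algebra.adjoin C {x}) (f : F) → ∀ a : ↥S.O,
    OrdGe P 1 ((f : F) - algebraMap C F (a : C)) →
    OrdGe Q 1 (S.red f - algebraMap k Ft (S.resO a))

/-- **(C2)** integrality on the chart (helper10): for `f ∈ R = B ∩ V` the reduction is integral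
over `k[xt]`, and `f` has a value in `O` at every place of the chart. -/
def ChartIntegral (S : RedSetting C F k Ft) (x : F) (hx : x ∈ S.V) : Prop :=
  ∀ f : ↥S.V, IsIntegral ↥(Algebra.adjoin C {x}) (f : F) →
    IsIntegral ↥(Algebra.adjoin k {S.red ⟨x, hx⟩}) (S.red f) ∧
    ∀ P : Place C F, InChart S x P →
      ∃ a : ↥S.O, OrdGe P 1 ((f : F) - algebraMap C F (a : C))

/-- **(C4)** every place of the chart has a reduction. -/
def Stmt_C4 : Prop :=
  ∀ (C : Type uC) (F : Type uF) (k : Type uk) (Ft : Type uFt) [Field C] [Field F] [Algebra C F] [Field k] [Field Ft] [Algebra k Ft]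
    [IsAlgClosed C] [IsAlgClosed k] (S : RedSetting C F k Ft) (x : F) (hx : x ∈ S.V),
    GoodChart S x hx → ChartIntegral S x hx →
    ∀ P : Place C F, InChart S x P → ∃ Q : Place k Ft, RedTo S x hx P Q

open Classical in
/-- **(C5)** the pointwise inequality: for a Gauss unit `f ∈ R` with divisor `D` and a place `Q`
of `Ft` finite over `xt`: `ord_Q (red f) ≤ Σ_{P in the chart, r P = Q} ord_P f`. -/
def Stmt_C5 : Prop :=
  ∀ (C : Type uC) (F : Type uF) (k : Type uk) (Ft : Type uFt) [Field C] [Field F] [Algebra C F] [Field k] [Field Ft] [Algebra k Ft]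
    [IsAlgClosed C] [IsAlgClosed k] (S : RedSetting C F k Ft) (x : F) (hx : x ∈ S.V),
    GoodChart S x hx → ChartIntegral S x hx →
    ∀ r : Place C F → Place k Ft, (∀ P, InChart S x P → RedTo S x hx P (r P)) →
    ∀ f : ↥S.V, IsUnit f → IsIntegral ↥(Algebra.adjoin C {x}) (f : F) →
    ∀ D : Divisor C F, (∀ P, D P = P.ord (f : F)) →
    ∀ Q : Place k Ft, S.red ⟨x, hx⟩ ∈ Q.toValuationSubring →
      Q.ord (S.red f) ≤ ∑ P ∈ D.support.filter (fun P => InChart S x P ∧ r P = Q), D P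

end Fermat.Agent.S27.REDu.H79

end
end
-- ==== END Fermat.Agent.S27.REDu.H79_ConsDefs

-- ==== BEGIN Fermat.Agent.S36.NU.H41_UnramL0
section
attribute [local instance 10000] SubalgebraClass.toAlgebra
attribute [local instance 10000] HahnSeries.powerSeriesAlgebra

/-!
# S36 NU-B, leaf UNRAM-CONST, modular instance (helper41)

Every place `P` of `F_N / ℚ̄` has a uniformiser `t` with rational `q`-expansion coefficients;
such a `t` is fixed by the whole arithmetic Galois action, in particular it lies in the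
inertia-fixed field `L0 A N` of helper23: `e(P | P ∩ L0 A N) = 1`.
-/

set_option autoImplicit false
set_option synthInstance.maxHeartbeats 400000
set_option maxHeartbeats 1000000
set_option linter.style.haveILetI false

noncomputable section

open ModularCurve AlgebraicCurve Fermat.Agent.S24 Fermat.Agent.S36.NU.H23

namespace Fermat.Agent.S36.NU.H41

/-- A function with rational coefficients is fixed by the arithmetic Galois action. -/
theorem arithmeticRingAut_coeffEmb (F₀ : IntermediateField ℚ (LaurentSeries ℚ))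
    (σ : Kbar ≃ₐ[ℚ] Kbar) (t : LaurentSeries ℚ) (ht : t ∈ F₀) :
    arithmeticRingAut F₀ σ ⟨coeffEmb Kbar t, coeffEmb_mem_laurentBaseChange Kbar ht⟩
      = ⟨coeffEmb Kbar t, coeffEmb_mem_laurentBaseChange Kbar ht⟩ := by
  apply Subtype.ext
  rw [coe_arithmeticRingAut_apply]
  exact coeffMap_coeffEmb σ t

/-- **UNRAM-CONST for `F_N`**: a uniformiser with rational coefficients, fixed by all of
`Gal(ℚ̄/ℚ)`. -/
theorem exists_uniformizer_fixed (N : ℕ) (P : Place Kbar (FN N)) :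
    ∃ t : FN N, P.ord t = 1 ∧
      ∀ σ : Kbar ≃ₐ[ℚ] Kbar, arithmeticRingAut (modularFunctionFieldFull N) σ t = t := by
  haveI : Algebra.IsAlgebraic ℚ Kbar := AlgebraicClosure.isAlgebraic ℚ
  obtain ⟨t, ht, h⟩ := stmt_UnramConst Kbar (modularFunctionFieldFull N) P
  exact ⟨_, h, fun σ => arithmeticRingAut_coeffEmb _ σ t ht⟩

/-- **UNRAM-CONST for `L0 A N`**: `e(P | P ∩ L0 A N) = 1`. -/
theorem exists_uniformizer_mem_L0 (A : ValuationSubring Kbar) (N : ℕ)
    (P : Place Kbar (FN N)) : ∃ t : ↥(L0 A N), P.ord (t : FN N) = 1 := by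
  obtain ⟨t, h, hfix⟩ := exists_uniformizer_fixed N P
  exact ⟨⟨t, fun σ _ => hfix σ⟩, h⟩

/-- For every `g ≠ 0` in `F_N` there is `s ∈ L0 A N` with `ord_P (g s) = 0`. -/
theorem exists_L0_mul_ord_eq_zero (A : ValuationSubring Kbar) (N : ℕ)
    (P : Place Kbar (FN N)) (g : FN N) (hg : g ≠ 0) :
    ∃ s : ↥(L0 A N), s ≠ 0 ∧ P.ord (g * (s : FN N)) = 0 := by
  obtain ⟨t, ht⟩ := exists_uniformizer_mem_L0 A N P
  have ht0 : (t : FN N) ≠ 0 := by
    intro h
    rw [h, Place.ord_zero] at ht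
    exact zero_ne_one ht
  have ht0' : t ≠ 0 := fun h => ht0 (by rw [h]; rfl)
  refine ⟨t ^ (-(P.ord g)), zpow_ne_zero _ ht0', ?_⟩
  have h1 : ((t ^ (-(P.ord g)) : ↥(L0 A N)) : FN N) = (t : FN N) ^ (-(P.ord g)) :=
    map_zpow₀ (L0 A N).subtype t _
  rw [h1, P.ord_mul hg (zpow_ne_zero _ ht0), Place.ord_zpow, ht]
  ring

end Fermat.Agent.S36.NU.H41

end
end
-- ==== END Fermat.Agent.S36.NU.H41_UnramL0

-- ==== BEGIN Fermat.Agent.S38.H37_Final3
section

set_option autoImplicit false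

open WeierstrassCurve WeierstrassCurve.Affine WeierstrassCurve.Affine.Point
open scoped WeierstrassCurve.Affine

namespace Fermat.Agent.S38.H37

open Fermat.Agent.S43.BadQ Fermat.Agent.S38 Fermat.Agent.L.Pivot.H76

/-- FROB-T at all squarefree levels, all odd `p`: DONE. -/
theorem stmt_FrobToricGen_done : Stmt_FrobToricGen :=
  frobToricGen_of Fermat.Agent.S43.H91.stmt_ModSSDW_tame Fermat.Agent.S38.H13.stmt_FrobDescGen

/-- OLD at all squarefree levels, all odd `p`: DONE. -/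
theorem stmt_OldGen_done : Stmt_OldGen :=
  oldGen_of Fermat.Agent.S43.Old.H35.stmt_OldRed Fermat.Agent.RED.H78.stmt_HRcore

/-- **S38 from the open packages (version 3).**  The conclusion is the frozen statement S38. -/
theorem result_of_open3 (h39 : Fermat.Agent.S59.LL.Stmt_S39)
    (hC3 : Fermat.Agent.S38.P3.Stmt_CompEis3S)
    (hPV : Fermat.Agent.S38.P3.Stmt_PivotWCoreAll)
    (hSO : Fermat.Agent.S38.P3.Stmt_PivotWCoreSOAll)
    (p : ℕ) [Fact p.Prime] (_hp2 : p ≠ 2) (W : WeierstrassCurve ℤ) (_hΔ : W.Δ ≠ 0)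
    (_hW : W.IsSemistableModel)
    (hcard₁ : Nat.card (Submodule.torsionBy ℤ
      ((W.map (Int.castRingHom ℚ))⁄(AlgebraicClosure ℚ)).Point p) = p ^ 2)
    (hker : GaloisFactorsThroughFiniteLevel
      (WeierstrassCurve.Affine.Point.galoisRepModuleEnd (K := AlgebraicClosure ℚ) ℚ
        (W.map (Int.castRingHom ℚ)) p))
    (_hirr : W.ModRepIsIrreducible p) (M q : ℕ) (hq : q.Prime) (hqp : q ≠ p)
    (hqM : q ∣ M) (hq2 : ¬ q ^ 2 ∣ M) (hM : Squarefree M)
    (hunr : ((W.map (Int.castRingHom ℚ)).residualGaloisRepOf p hcard₁ hker).IsUnramifiedAt q)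
    (hres : W.IsResiduallyModularOfLevel p M) :
    W.IsResiduallyModularOfLevel p (M / q) :=
  s38_of_wire3 h39 stmt_FrobToricGen_done Fermat.Agent.S43.CompEis.H60.stmt_CompEis hC3
    stmt_OldGen_done Fermat.Agent.S38.P3.H57.stmt_Strong hPV hSO p _hp2 W _hΔ _hW hcard₁ hker _hirr M q hq hqp hqM hq2 hM
    hunr hres

/-- **S38 from the open packages (version 3, PIVOT split into `p ≥ 5` and `p = 3`).**  The
conclusion is the frozen statement S38. -/
theorem result_of_open3_split (h39 : Fermat.Agent.S59.LL.Stmt_S39)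
    (hC3 : Fermat.Agent.S38.P3.Stmt_CompEis3S)
    (hPV5 : Fermat.Agent.S38.P3.Stmt_PivotWCore5)
    (hSO5 : Fermat.Agent.S38.P3.Stmt_PivotWCoreSO5)
    (hPV3 : Fermat.Agent.S38.P3.Stmt_PivotWCore3)
    (hSO3 : Fermat.Agent.S38.P3.Stmt_PivotWCoreSO3)
    (p : ℕ) [Fact p.Prime] (_hp2 : p ≠ 2) (W : WeierstrassCurve ℤ) (_hΔ : W.Δ ≠ 0)
    (_hW : W.IsSemistableModel)
    (hcard₁ : Nat.card (Submodule.torsionBy ℤ
      ((W.map (Int.castRingHom ℚ))⁄(AlgebraicClosure ℚ)).Point p) = p ^ 2)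
    (hker : GaloisFactorsThroughFiniteLevel
      (WeierstrassCurve.Affine.Point.galoisRepModuleEnd (K := AlgebraicClosure ℚ) ℚ
        (W.map (Int.castRingHom ℚ)) p))
    (_hirr : W.ModRepIsIrreducible p) (M q : ℕ) (hq : q.Prime) (hqp : q ≠ p)
    (hqM : q ∣ M) (hq2 : ¬ q ^ 2 ∣ M) (hM : Squarefree M)
    (hunr : ((W.map (Int.castRingHom ℚ)).residualGaloisRepOf p hcard₁ hker).IsUnramifiedAt q)
    (hres : W.IsResiduallyModularOfLevel p M) :
    W.IsResiduallyModularOfLevel p (M / q) :=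
  _root_.Fermat.Agent.S38.H37.result_of_open3 h39 hC3 (Fermat.Agent.S38.P3.pivotWCoreAll_of hPV5 hPV3)
    (Fermat.Agent.S38.P3.pivotWCoreSOAll_of hSO5 hSO3) p _hp2 W _hΔ _hW hcard₁ hker _hirr M q hq
    hqp hqM hq2 hM hunr hres

end Fermat.Agent.S38.H37

end
-- ==== END Fermat.Agent.S38.H37_Final3

-- ==== BEGIN Fermat.Agent.S38.P3.H52_PushNorm
section
attribute [local instance 10000] SubalgebraClass.toAlgebra
attribute [local instance 10000] HahnSeries.powerSeriesAlgebra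

set_option autoImplicit false
set_option linter.style.haveILetI false
set_option linter.unusedSectionVars false
set_option synthInstance.maxHeartbeats 400000
set_option maxHeartbeats 1000000

noncomputable section

open AlgebraicCurve ModularCurve Fermat.Agent.S28.H73 Fermat.Agent.RED.H73 Fermat.Agent.RED
open Fermat.Agent.BAD Fermat.Agent.S43.Old.H35 Fermat.Agent.BADP.H74

namespace Fermat.Agent.S38.P3.H52

section Transport

variable (A : ValuationSubring (AlgebraicClosure ℚ))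

/-- Divisibility of the orders of the reduction does not depend on the name of the reduced
field. -/
theorem dvd_ord_resTo_iff (N' : ℕ) (E : IntermediateField (kV A) (LaurentSeries (kV A)))
    (hE : Ft A N' = E) (hle : Ft A N' ≤ E) (x : ↥(gaussV A N')) (n : ℤ) :
    (∀ Q : Place (kV A) ↥E, n ∣ Q.ord (resTo A N' E hle x)) ↔
      ∀ Q : Place (kV A) ↥(Ft A N'), n ∣ Q.ord (gaussRes A N' x) := by
  subst hE
  have h : resTo A N' (Ft A N') hle x = gaussRes A N' x := Subtype.ext rfl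
  rw [h]

theorem resTo_ne_zero_of_gaussRes (N' : ℕ) (E : IntermediateField (kV A) (LaurentSeries (kV A)))
    (hle : Ft A N' ≤ E) (x : ↥(gaussV A N')) (hx : gaussRes A N' x ≠ 0) :
    resTo A N' E hle x ≠ 0 := by
  intro h0
  apply hx
  have h1 := congrArg (Subtype.val) h0
  rw [coe_resTo] at h1
  apply Subtype.ext
  have h2 : ((gaussRes A N' x : ↥(Ft A N')) : LaurentSeries (kV A))
      = gaussResF A (hasScale_laurentBaseChange A N') x := rfl
  rw [h2, h1]
  rfl

end Transport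

section Core

variable (A : ValuationSubring (AlgebraicClosure ℚ)) (M q r : ℕ) [NeZero M] [NeZero (M * q)]
  [NeZero r]

/-- **PUSH-NORM with values in `Ft A M`.** -/
theorem pushNorm_core (hq : q.Prime) (hqM : ¬ q ∣ M) (hr : r.Prime) (hrN : ¬ r ∣ M * q)
    (hA : A.LiesOverPrime q) (hle : Ft A (M * q) ≤ Ft A M)
    (t : ℤ) (ht : ¬ (3 : ℤ) ∣ t)
    (D : Divisor.degZero (K := AlgebraicClosure ℚ) (F := ↥(FNbar (M * q))))
    (u : ↥(gaussV A (M * q)))
    (hu : resTo A (M * q) (Ft A M) hle u ≠ 0)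
    (hD : ∀ P : Place (AlgebraicClosure ℚ) ↥(FNbar (M * q)),
      (3 : ℤ) * (D : Divisor (AlgebraicClosure ℚ) ↥(FNbar (M * q))) P
        = P.ord ((u : ↥(FNbar (M * q)))))
    (hT : heckeOperatorBar (M * q) ⟨r, hr⟩ (Pic0.mk D) = t • Pic0.mk D)
    (hβ3 : ∀ Q' : Place (kV A) ↥(Ft A (M * r)),
      (3 : ℤ) ∣ Q'.ord (betaT A M r (resTo A (M * q) (Ft A M) hle u))) :
    ∀ Q : Place (kV A) ↥(Ft A M), (3 : ℤ) ∣ Q.ord (resTo A (M * q) (Ft A M) hle u) := by
  have hrq : r ≠ q := fun h => hrN (h ▸ dvd_mul_left r M)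
  have hqr : ¬ q ∣ r := fun h => hrq ((Nat.prime_dvd_prime_iff_eq hq hr).1 h).symm
  have hqMr : ¬ q ∣ M * r := by
    intro h
    rcases (Nat.Prime.dvd_mul hq).1 h with h1 | h1
    · exact hqM h1
    · exact hqr h1
  obtain ⟨hα, hβ, hP, hfin, hFI, hNF⟩ := RED.H51.stmt_HKA (M * q) r
  haveI := hP
  have hTI := towerInputs (A := A) (M := M) (ℓ := r) hq hA hqMr
  haveI := hTI.hP
  have heig := heig_of_eigen (M * q) r hr hα hβ hfin hFI hNF D t hT
  have hD' : ∀ P : Place (AlgebraicClosure ℚ) ↥(FNbar (M * q)),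
      ((3 : ℕ) : ℤ) * (D : Divisor (AlgebraicClosure ℚ) ↥(FNbar (M * q))) P
        = P.ord ((u : ↥(FNbar (M * q)))) := fun P => by
    have := hD P
    exact_mod_cast this
  obtain ⟨-, h', -, hrel⟩ := ord_norm_red_eq
    (fun g hg h => by
      obtain ⟨c', hc'⟩ := Fermat.Agent.GTor.H33.exists_algebraMap_eq_FN (M * q) g hg h
      exact ⟨c', hc'.symm⟩)
    (heckeAlphaBar (AlgebraicClosure ℚ) (M * q) r) (heckeBetaBar (AlgebraicClosure ℚ) (M * q) r)
    hα hβ hfin hNF (alphaT A M r) (betaT A M r) hTI.hfin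
    (gaussV A (M * q)) (resTo A (M * q) (Ft A M) hle)
    (fun g => resTo_eq_zero_iff A (M * q) (Ft A M) hle g)
    (fun g hg => resTo_scale A (M * q) (Ft A M) hle g hg)
    (fun c' h => resTo_const A (M * q) (Ft A M) hle c' h)
    (fun g => hnorm_levelN A q M r hq hqM hr hrN hA hle g)
    3 t (D : Divisor (AlgebraicClosure ℚ) ↥(FNbar (M * q))) u hu hD' heig
  intro Q
  have hβu0 : betaT A M r (resTo A (M * q) (Ft A M) hle u) ≠ 0 := by
    intro h0
    exact hu ((betaT A M r).toRingHom.injective (by simpa using h0))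
  have h4 := dvd_ord_normAlong (alphaT A M r) hTI.hα hTI.hfin hTI.hNF (3 : ℤ) hβu0 Q
    (fun w _ => hβ3 w)
  rw [hrel Q] at h4
  have h5 : (3 : ℤ) ∣ t * Q.ord (resTo A (M * q) (Ft A M) hle u) := by
    have h6 : (3 : ℤ) ∣ ((3 : ℕ) : ℤ) * Q.ord h' := ⟨Q.ord h', by push_cast; ring⟩
    exact (dvd_add_left h6).mp h4
  exact (Int.prime_three.dvd_or_dvd h5).resolve_left ht

end Core

/-- **PUSH-NORM.** -/
theorem stmt_PushNorm : Stmt_PushNorm := by
  intro q M r _ _ _ hq hqM hr hrN A hA u D t hu hD hT ht hβ hQ'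
  haveI : NeZero M := ⟨fun h => NeZero.ne (M * q) (by rw [h, zero_mul])⟩
  have hrq : r ≠ q := fun h => hrN (h ▸ dvd_mul_left r M)
  have hqr : ¬ q ∣ r := fun h => hrq ((Nat.prime_dvd_prime_iff_eq hq hr).1 h).symm
  have hqMr : ¬ q ∣ M * r := by
    intro h
    rcases (Nat.Prime.dvd_mul hq).1 h with h1 | h1
    · exact hqM h1
    · exact hqr h1
  haveI : NeZero (M * r) := ⟨Nat.mul_ne_zero (NeZero.ne M) (NeZero.ne r)⟩
  haveI : NeZero (M * r * q) := ⟨Nat.mul_ne_zero (NeZero.ne (M * r)) hq.ne_zero⟩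
  have heq : Ft A (M * q) = Ft A M := ft_mul_eq A q M hq hqM hA
  have heq' : Ft A (M * q * r) = Ft A (M * r) :=
    (_root_.Fermat.Agent.S43.Old.H35.redField_congr A (Nat.mul_right_comm M q r)).trans (ft_mul_eq A q (M * r) hq hqMr hA)
  -- the `β` side
  have h1 := (dvd_ord_resTo_iff A (M * q * r) (Ft A (M * r)) heq' heq'.le ⟨_, hβ⟩ 3).mpr hQ'
  have h2 : resTo A (M * q * r) (Ft A (M * r)) heq'.le ⟨_, hβ⟩
      = betaT A M r (resTo A (M * q) (Ft A M) heq.le u) := by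
    apply Subtype.ext
    rw [coe_resTo, coe_betaT, coe_resTo, gaussResF_apply, gaussResF_apply]
    exact gaussRedV_qExpand A r ⟨_, u.2⟩ _
  rw [h2] at h1
  -- the core
  have h3 := pushNorm_core A M q r hq hqM hr hrN hA heq.le t ht D u
    (resTo_ne_zero_of_gaussRes A (M * q) (Ft A M) heq.le u hu) hD hT h1
  exact (dvd_ord_resTo_iff A (M * q) (Ft A M) heq heq.le u 3).mp h3

end Fermat.Agent.S38.P3.H52

end
end
-- ==== END Fermat.Agent.S38.P3.H52_PushNorm

-- ==== BEGIN Fermat.Agent.S38.P3.H60_Push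
section
attribute [local instance 10000] SubalgebraClass.toAlgebra
attribute [local instance 10000] HahnSeries.powerSeriesAlgebra

set_option autoImplicit false
set_option synthInstance.maxHeartbeats 400000
set_option maxHeartbeats 1000000
set_option linter.unusedSectionVars false
set_option linter.style.haveILetI false

noncomputable section

open AlgebraicCurve ModularCurve

namespace Fermat.Agent.S38.P3.H60

open Fermat.Agent.BAD Fermat.Agent.S24 Fermat.Agent.BAD.H88 Fermat.Agent.S43.BadQ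
open Fermat.Agent.S28.H73 Fermat.Agent.RED.H73 Fermat.Agent.RED Fermat.Agent.S44
open Fermat.Agent.S43.CompEis.H60 Fermat.Agent.S43.CompEis

section PushUp

variable {A : ValuationSubring (AlgebraicClosure ℚ)}
variable {q M R r : ℕ} [NeZero (M * q)] [NeZero r] [NeZero (M * R * q)] (hrR : r ∣ R)
variable {a b : ℤ} {hab : a * q + b * M = 1} {a' b' : ℤ}
  {hab' : a' * q + b' * ((M * R : ℕ) : ℤ) = 1} {hq : q.Prime}

include hab hrR in
/-- **PUSH-UP**: slope `≡ 0 mod 3` at the level `M q` gives orders `≡ 0 mod 3` of the reduction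
of `β_r f` at the level `M R q` with coordinates. -/
theorem pushUp_core (hA : A.LiesOverPrime q)
    (hC : Stmt_CE_Coord 3 q (M * R) a' b' hab' hq) {f : FN (M * q)}
    (hffix : ∀ σ ∈ A.inertiaSubgroupIn ℚ, galF (M * q) σ • f = f)
    (hdiv : ∀ P : Place (AlgebraicClosure ℚ) ↥(FNbar (M * q)), (3 : ℤ) ∣ P.ord f)
    {k : ℤ} (hk : HasSlope A q M a b hab hq f k) (h3k : (3 : ℤ) ∣ k) :
    ∃ c : AlgebraicClosure ℚ, c ≠ 0 ∧
      IsGaussUnit A (M * q) (algebraMap (AlgebraicClosure ℚ) ↥(FNbar (M * q)) c * f) ∧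
      ∀ y : ↥(gaussV A (M * R * q)),
        (((y : ↥(gaussV A (M * R * q))) : ↥(FNbar (M * R * q))) :
            LaurentSeries (AlgebraicClosure ℚ))
          = qExpand (AlgebraicClosure ℚ) r
            ((algebraMap (AlgebraicClosure ℚ) ↥(FNbar (M * q)) c * f : ↥(FNbar (M * q))) :
              LaurentSeries (AlgebraicClosure ℚ)) →
        ∀ Q' : Place (kV A)
            ↥(redField A (FNbar (M * R * q)) (hasScale_laurentBaseChange A (M * R * q))),
          (3 : ℤ) ∣ Q'.ord (gaussRes A (M * R * q) y) := by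
  have hkB := hasSlope_betaUp q M R r hrR a b hab a' b' hab' hq A hk
  have hfixB : ∀ σ ∈ A.inertiaSubgroupIn ℚ,
      galF (M * R * q) σ • betaUp q M R r hrR f = betaUp q M R r hrR f :=
    fun σ hσ => galF_betaUp_fixed q M R r hrR σ (hffix σ hσ)
  have hdivB := dvd_ord_betaUp q M R r hrR 3 hdiv
  obtain ⟨c, hcu, hc0, hQ⟩ := fin_of_coord 3 Nat.prime_three hA hC hfixB hdivB hkB h3k
  obtain ⟨c₁, c₂, h1, -, -⟩ := hk
  have h1B := isGaussUnit_betaUp q M R r hrR A h1
  rw [map_mul, AlgHom.commutes] at h1B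
  have hval := hcu.valuation_eq h1B
  have hc₁0 : c₁ ≠ 0 := by
    rintro rfl
    exact h1.1 (by rw [map_zero, zero_mul])
  have hcu0 : IsGaussUnit A (M * q)
      (algebraMap (AlgebraicClosure ℚ) ↥(FNbar (M * q)) c * f) := by
    have h2 : IsGaussUnit A (M * q)
        (algebraMap (AlgebraicClosure ℚ) ↥(FNbar (M * q)) (c / c₁)) := by
      rw [isGaussUnit_const_iff, map_div₀, hval]
      exact div_self ((Valuation.ne_zero_iff _).mpr hc₁0)
    have h3 := h2.mul h1
    have e : algebraMap (AlgebraicClosure ℚ) ↥(FNbar (M * q)) (c / c₁)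
        * (algebraMap (AlgebraicClosure ℚ) ↥(FNbar (M * q)) c₁ * f)
        = algebraMap (AlgebraicClosure ℚ) ↥(FNbar (M * q)) c * f := by
      rw [← mul_assoc, ← map_mul, div_mul_cancel₀ c hc₁0]
    rwa [e] at h3
  refine ⟨c, hc0, hcu0, ?_⟩
  intro y hy Q'
  have e : y = ⟨_, hcu.mem⟩ := by
    apply Subtype.ext
    apply Subtype.ext
    rw [hy, MulMemClass.coe_mul, MulMemClass.coe_mul, IntermediateField.coe_algebraMap_apply,
      IntermediateField.coe_algebraMap_apply, coe_betaUp, map_mul]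
    congr 1
    rw [algebraMap_laurentSeries_eq_single, qExpand_single, mul_zero]
  rw [e]
  exact hQ Q'

end PushUp

section Core

variable {A : ValuationSubring (AlgebraicClosure ℚ)}
variable {q M R r : ℕ} [NeZero (M * q)] [NeZero r] [NeZero (M * R * q)] [NeZero (M * q * r)]
variable {a b : ℤ} {hab : a * q + b * M = 1} {a' b' : ℤ}
  {hab' : a' * q + b' * ((M * R : ℕ) : ℤ) = 1} {hq : q.Prime}

include hab in
/-- **COMP-EIS at `p = 3`, strong form, at the level `M q`**, from COORD at `p = 3` at a level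
`M R q`, `r ∣ R`, the descent to the level `M q r` and PUSH-NORM. -/
theorem compEisAt3S_core (hPN : Stmt_PushNorm) (hA : A.LiesOverPrime q) (hqM : ¬ q ∣ M)
    (hr : r.Prime) (hrN : ¬ r ∣ M * q) (hr3 : r % 3 = 2) (hrR : r ∣ R)
    (hC : Stmt_CE_Coord 3 q (M * R) a' b' hab' hq)
    (hdesc : ∀ (y : ↥(gaussV A (M * R * q))) (y₀ : ↥(gaussV A (M * q * r))),
      (((y : ↥(gaussV A (M * R * q))) : ↥(FNbar (M * R * q))) :
          LaurentSeries (AlgebraicClosure ℚ)) =
        (((y₀ : ↥(gaussV A (M * q * r))) : ↥(FNbar (M * q * r))) :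
          LaurentSeries (AlgebraicClosure ℚ)) →
      (∀ Q' : Place (kV A)
          ↥(redField A (FNbar (M * R * q)) (hasScale_laurentBaseChange A (M * R * q))),
        (3 : ℤ) ∣ Q'.ord (gaussRes A (M * R * q) y)) →
      ∀ Q : Place (kV A)
          ↥(redField A (FNbar (M * q * r)) (hasScale_laurentBaseChange A (M * q * r))),
        (3 : ℤ) ∣ Q.ord (gaussRes A (M * q * r) y₀))
    (S : Finset ℕ) (t : ℕ → ℤ) (x : (jzModule (M * q) 3).J)
    (hfix : ∀ σ ∈ A.inertiaSubgroupIn ℚ, (jzModule (M * q) 3).gal σ x = x)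
    (heig : ∀ ℓ : ℕ, ℓ.Prime → ℓ ∉ S → ¬ ℓ ∣ M * q → ℓ ≠ 3 →
      (jzModule (M * q) 3).T ℓ x = ((t ℓ : ℤ) : ZMod 3) • x)
    (hrS : r ∉ S) (htr : ((t r : ℤ) : ZMod 3) ≠ 0) :
    Fin1 A (M * q) 3 (jzModule.pt (M * q) 3 x) := by
  haveI : Fact (Nat.Prime 3) := ⟨Nat.prime_three⟩
  have hr3' : r ≠ 3 := by
    rintro rfl
    omega
  have hle : M * q ∣ M * R * q := ⟨R, by ring⟩
  -- the point
  have hX0 : ((3 : ℕ) : ℤ) • jzModule.pt (M * q) 3 x = 0 := jzModule.pt_torsion (M * q) 3 x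
  have hXfix : ∀ σ ∈ A.inertiaSubgroupIn ℚ,
      σ • jzModule.pt (M * q) 3 x = jzModule.pt (M * q) 3 x := by
    intro σ hσ
    rw [← jzModule.pt_gal, hfix σ hσ]
  have hXT : heckeOperatorBar (M * q) ⟨r, hr⟩ (jzModule.pt (M * q) 3 x)
      = t r • jzModule.pt (M * q) 3 x := by
    rw [← jzModule.pt_T (M * q) 3 hr hrN, heig r hr hrS hrN hr3']
    exact coe_intCast_smul 3 (M * q) (t r) x
  obtain ⟨D, f, g, c, t₀, hf, hg, hc, hxD, hDf, hffix, hgfix, ht₀, hslope⟩ :=
    H9H.stmt_CE_Hecke q M a b hab hq A hA 3 Nat.prime_three ⟨r, hr⟩ hrN (t r) _ hX0 hXfix hXT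
  -- slopes at the level `M R q`
  have hf' : lift hle f ≠ 0 := (map_ne_zero _).mpr hf
  have hg' : lift hle g ≠ 0 := (map_ne_zero _).mpr hg
  have hf'fix : ∀ σ ∈ A.inertiaSubgroupIn ℚ, galF (M * R * q) σ • lift hle f = lift hle f :=
    fun σ hσ => galF_fixed_transfer (coe_lift hle f) σ (hffix σ hσ)
  have hg'fix : ∀ σ ∈ A.inertiaSubgroupIn ℚ, galF (M * R * q) σ • lift hle g = lift hle g :=
    fun σ hσ => galF_fixed_transfer (coe_lift hle g) σ (hgfix σ hσ)
  obtain ⟨kf, hkf'⟩ := exists_hasSlope_of_coord 3 hA hC hf' hf'fix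
  obtain ⟨kg, hkg'⟩ := exists_hasSlope_of_coord 3 hA hC hg' hg'fix
  have hkf : HasSlope A q M a b hab hq f kf :=
    hasSlope_transfer H80.stmt_CE_WUp (coe_lift _ f) hkf'
  have hkg : HasSlope A q M a b hab hq g kg :=
    hasSlope_transfer H80.stmt_CE_WUp (coe_lift _ g) hkg'
  -- the eigenvector equation on slopes
  have h1 := hslope kf hkf
  have h2 : HasSlope A q M a b hab hq
      (algebraMap (AlgebraicClosure ℚ) ↥(FNbar (M * q)) c * f ^ t₀ * g ^ 3)
      (0 + t₀ * kf + 3 * kg) := ((hasSlope_const hc).mul (hkf.pow t₀)).mul (hkg.pow 3)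
  have h3 := h1.unique hA h2
  have ht₀' : ((t₀ : ℤ) : ZMod 3) ≠ 0 := by
    rw [ht₀]
    exact htr
  have hnd : ¬ (3 : ℤ) ∣ (t₀ : ℤ) := fun hd =>
    ht₀' ((ZMod.intCast_zmod_eq_zero_iff_dvd _ 3).mpr (by exact_mod_cast hd))
  have hpp : Prime (3 : ℤ) := Int.prime_three
  have hr1 : (3 : ℤ) ∣ ((r : ℤ) + 1) := by
    have : (3 : ℕ) ∣ r + 1 := by omega
    exact_mod_cast this
  have h4 : (3 : ℤ) ∣ (t₀ : ℤ) * kf := by
    have e : (t₀ : ℤ) * kf = ((r : ℤ) + 1) * kf - 3 * kg := by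
      have h3' : (((⟨r, hr⟩ : Nat.Primes) : ℕ) + 1 : ℤ) * kf = 0 + t₀ * kf + 3 * kg := h3
      have h3'' : ((r : ℤ) + 1) * kf = 0 + t₀ * kf + 3 * kg := h3'
      linear_combination -h3''
    rw [e]
    exact dvd_sub (Dvd.dvd.mul_right hr1 _) (dvd_mul_right _ _)
  have h3k : (3 : ℤ) ∣ kf := (hpp.dvd_or_dvd h4).resolve_left hnd
  -- PUSH-UP
  have hdiv : ∀ P : Place (AlgebraicClosure ℚ) ↥(FNbar (M * q)), (3 : ℤ) ∣ P.ord f :=
    fun P => ⟨_, (hDf P).symm⟩
  obtain ⟨c₁, hc₁, hu, hup⟩ := pushUp_core (hab := hab) (hab' := hab') (hq := hq) hrR hA hC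
    hffix hdiv hkf h3k
  -- the level `M q r`
  have hβu := Fermat.Agent.S43.CompEis.H9.isGaussUnit_beta r A (M * q) _ hu
  obtain ⟨y, hy⟩ : ∃ y : ↥(gaussV A (M * R * q)),
      (((y : ↥(gaussV A (M * R * q))) : ↥(FNbar (M * R * q))) :
          LaurentSeries (AlgebraicClosure ℚ))
        = qExpand (AlgebraicClosure ℚ) r
          ((algebraMap (AlgebraicClosure ℚ) ↥(FNbar (M * q)) c₁ * f : ↥(FNbar (M * q))) :
            LaurentSeries (AlgebraicClosure ℚ)) :=
    ⟨⟨_, (isGaussUnit_betaUp q M R r hrR A hu).mem⟩, coe_betaUp q M R r hrR _⟩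
  have hQ'' := hdesc y ⟨_, hβu.mem⟩ (by rw [hy]; rfl) (hup y hy)
  -- PUSH-NORM
  have hD' : ∀ P : Place (AlgebraicClosure ℚ) ↥(FNbar (M * q)),
      (3 : ℤ) * (D : Divisor (AlgebraicClosure ℚ) ↥(FNbar (M * q))) P
        = P.ord (algebraMap (AlgebraicClosure ℚ) ↥(FNbar (M * q)) c₁ * f) := by
    intro P
    rw [Fermat.Agent.RED.H17.ord_algebraMap_mul P hc₁ f]
    exact hDf P
  have hXT' : heckeOperatorBar (M * q) ⟨r, hr⟩ (Pic0.mk D)
      = t r • (Pic0.mk D : JZero (M * q)) := by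
    rw [← hxD]
    exact hXT
  have hnt : ¬ (3 : ℤ) ∣ t r := fun hd =>
    htr ((ZMod.intCast_zmod_eq_zero_iff_dvd _ 3).mpr (by exact_mod_cast hd))
  have hQ := hPN q M r hq hqM hr hrN A hA ⟨_, hu.mem⟩ D (t r) hu.gaussRes_ne_zero hD' hXT' hnt
    hβu.mem hQ''
  exact ⟨D, ⟨_, hu.mem⟩, hxD, hu.gaussRes_ne_zero, hD', hQ⟩

end Core

/-- The divisibility of the orders of a reduced function does not depend on the way the level
is written. -/
theorem dvd_ord_congr (A : ValuationSubring (AlgebraicClosure ℚ)) {N₁ N₂ : ℕ} [NeZero N₁]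
    [NeZero N₂] (h : N₁ = N₂) (f₁ : ↥(gaussV A N₁)) (f₂ : ↥(gaussV A N₂))
    (hcoe : (((f₂ : ↥(gaussV A N₂)) : ↥(FNbar N₂)) : LaurentSeries (AlgebraicClosure ℚ)) =
      (((f₁ : ↥(gaussV A N₁)) : ↥(FNbar N₁)) : LaurentSeries (AlgebraicClosure ℚ)))
    (hQ : ∀ Q₂ : Place (kV A) ↥(redField A (FNbar N₂) (hasScale_laurentBaseChange A N₂)),
      (3 : ℤ) ∣ Q₂.ord (gaussRes A N₂ f₂)) :
    ∀ Q₁ : Place (kV A) ↥(redField A (FNbar N₁) (hasScale_laurentBaseChange A N₁)),
      (3 : ℤ) ∣ Q₁.ord (gaussRes A N₁ f₁) := by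
  subst h
  have e : f₁ = f₂ := Subtype.ext (Subtype.ext hcoe.symm)
  subst e
  exact hQ

theorem exists_bezout_cast {q M : ℕ} (hq : q.Prime) (hqM : ¬ q ∣ M) :
    ∃ a b : ℤ, a * q + b * ((M : ℕ) : ℤ) = 1 :=
  Nat.isCoprime_iff_coprime.2 ((Nat.Prime.coprime_iff_not_dvd hq).2 hqM)

/-- **COMP-EIS3, strong form**, from NE, DESC3 and PUSH-NORM. -/
theorem stmt_CompEis3S_of (hNE : Stmt_NE) (hD3 : Stmt_CE_Desc3) (hPN : Stmt_PushNorm) :
    Stmt_CompEis3S := by
  intro N _ q hq hq3 hqN hq2 A hA S t x hfix heig hstrong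
  obtain ⟨r, r', hr, -, -, h5, -, hr3, -, hrS, -, hrN, -, htr, -⟩ := hstrong
  obtain ⟨M, rfl⟩ : ∃ M, N = M * q := ⟨N / q, (Nat.div_mul_cancel hqN).symm⟩
  have hqM : ¬ q ∣ M := by
    rintro ⟨k, rfl⟩
    exact hq2 ⟨k, by ring⟩
  obtain ⟨a, b, hab⟩ := exists_bezout_cast hq hqM
  have hM0 : M ≠ 0 := fun h => NeZero.ne (M * q) (by rw [h, zero_mul])
  haveI : NeZero r := ⟨hr.ne_zero⟩
  haveI : NeZero (M * q * r) := ⟨Nat.mul_ne_zero (NeZero.ne (M * q)) hr.ne_zero⟩
  have hrq : r ≠ q := by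
    rintro rfl
    exact hrN (dvd_mul_left r M)
  have hqr : ¬ q ∣ r := fun h => hrq ((Nat.prime_dvd_prime_iff_eq hq hr).mp h).symm
  have hqMr : ¬ q ∣ M * r := by
    intro h
    rcases (Nat.Prime.dvd_mul hq).mp h with h | h
    · exact hqM h
    · exact hqr h
  by_cases ht : H91.TameAt (M * r) q
  · -- the level `M r q` is tame
    obtain ⟨a', b', hab'⟩ := exists_bezout_cast hq hqMr
    haveI : NeZero (M * r * q) :=
      ⟨Nat.mul_ne_zero (Nat.mul_ne_zero hM0 hr.ne_zero) hq.ne_zero⟩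
    have hC := stmt_CE_Coord3 hNE q (M * r) a' b' hab' hq hq3 hqMr ht r hr hr3
      (dvd_mul_left r M)
    refine compEisAt3S_core (R := r) (hab := hab) (hab' := hab') (hq := hq) hPN hA hqM hr hrN
      hr3 (dvd_refl r) hC ?_ S t x hfix heig hrS htr
    intro y y₀ hcoe hQ'
    exact dvd_ord_congr A (by ring) y₀ y hcoe hQ'
  · -- `q = 2`, `3 ∤ M r`: the level `M (r 3) q` is tame
    have hq2' : q = 2 := by
      have h1 : ¬ 5 ≤ q := fun h => ht (Or.inl h)
      have h2 := hq.two_le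
      have h4 : q ≠ 4 := by
        rintro rfl
        exact absurd hq (by decide)
      omega
    have h3Mr : ¬ 3 ∣ M * r := fun h => ht (Or.inr (Or.inr ⟨hq2', h⟩))
    have hq3' : ¬ q ∣ 3 := by
      rw [hq2']
      decide
    have hqMR : ¬ q ∣ M * (r * 3) := by
      intro h
      rw [← mul_assoc] at h
      rcases (Nat.Prime.dvd_mul hq).mp h with h | h
      · exact hqMr h
      · exact hq3' h
    obtain ⟨a', b', hab'⟩ := exists_bezout_cast hq hqMR
    haveI : NeZero (M * (r * 3) * q) :=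
      ⟨Nat.mul_ne_zero (Nat.mul_ne_zero hM0 (Nat.mul_ne_zero hr.ne_zero (by norm_num)))
        hq.ne_zero⟩
    have ht' : H91.TameAt (M * (r * 3)) q :=
      Or.inr (Or.inr ⟨hq2', ⟨M * r, by ring⟩⟩)
    have hC := stmt_CE_Coord3 hNE q (M * (r * 3)) a' b' hab' hq hq3 hqMR ht' r hr hr3
      (Dvd.dvd.mul_left (dvd_mul_right r 3) M)
    refine compEisAt3S_core (R := r * 3) (hab := hab) (hab' := hab') (hq := hq) hPN hA hqM hr
      hrN hr3 (dvd_mul_right r 3) hC ?_ S t x hfix heig hrS htr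
    intro y y₀ hcoe hQ'
    have h3N : ¬ 3 ∣ M * q * r := by
      intro h
      have h' : 3 ∣ M * r * q := by
        rw [show M * r * q = M * q * r by ring]
        exact h
      rcases (Nat.Prime.dvd_mul Nat.prime_three).mp h' with h | h
      · exact h3Mr h
      · rw [hq2'] at h
        exact absurd h (by decide)
    have hqq : ¬ q ^ 2 ∣ M * q * r := by
      rintro ⟨k, hk⟩
      apply hqMr
      refine ⟨k, ?_⟩
      have hq0 : 0 < q := hq.pos
      apply Nat.eq_of_mul_eq_mul_left hq0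
      rw [show q * (M * r) = M * q * r by ring, hk]
      ring
    exact hD3 q hq hq3 (M * q * r) (M * (r * 3) * q) (by ring) h3N hqq A hA y₀ y hcoe hQ'

end Fermat.Agent.S38.P3.H60

end
end
-- ==== END Fermat.Agent.S38.P3.H60_Push

-- ==== BEGIN Fermat.Agent.S39.FinGood.H49_KumInt
section

/-!
# S39 / S40, leaf FIN-GOOD, sub-leaf KUM-INT (helper49, racing): `stmt_KumInt : Stmt_KumInt`

A bounded cocycle `f : Gal(K̄/ℚ_p) → ZMod p` for the mod `p` cyclotomic character is cut out by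
`μ_p` and the `p`-th roots of an integer `1 + p n`.
Route (plan `NOTES/plan/L_S39_FinGood.md` par. 2 (b), (c)): `H85.exists_kumRel` with `H = ⊤` over
`L ⊔ ℚ_p(ζ)` gives `α ^ p = 1 + p u`, `u ∈ ℤ_p`; `n ≡ u mod p`;
`(1 + p u) / (1 + p n) ∈ 1 + p² ℤ_p` is a `p`-th power `b ^ p` with `b` fixed by `G_p`.
-/

set_option autoImplicit false

noncomputable section

namespace Fermat.Agent.S39.FinGood.H49

open Fermat.Agent.S56.FL Fermat.Agent.Lib.LocalKummer

variable {p : ℕ} [Fact p.Prime]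

/-- An integer of `K̄` fixed by `Gal(K̄/ℚ_p)` is congruent to a rational integer. -/
theorem exists_int_near {u : PadicAlgCl p} (hfix : ∀ s : Gp p, s u = u) (hu : ‖u‖ ≤ 1) :
    ∃ n : ℤ, ‖u - (n : PadicAlgCl p)‖ ≤ (p : ℝ)⁻¹ := by
  have hmem : u ∈ (⊥ : IntermediateField ℚ_[p] (PadicAlgCl p)) :=
    H38.mem_of_fixed_by_fixingSubgroup (fun σ _ => hfix σ)
  rw [IntermediateField.mem_bot] at hmem
  obtain ⟨u₀, rfl⟩ := hmem
  rw [norm_algebraMap'] at hu
  obtain ⟨x, hx⟩ : ∃ x : ℤ_[p], (x : ℚ_[p]) = u₀ := ⟨⟨u₀, hu⟩, rfl⟩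
  refine ⟨((x.appr 1 : ℕ) : ℤ), ?_⟩
  have h1 := PadicInt.appr_spec 1 x
  have h2 : ‖x - ((x.appr 1 : ℕ) : ℤ_[p])‖ ≤ (p : ℝ) ^ (-(1 : ℕ) : ℤ) :=
    (PadicInt.norm_le_pow_iff_mem_span_pow _ 1).2 h1
  have e : algebraMap ℚ_[p] (PadicAlgCl p) u₀ - (((x.appr 1 : ℕ) : ℤ) : PadicAlgCl p) =
      algebraMap ℚ_[p] (PadicAlgCl p) (u₀ - ((x.appr 1 : ℕ) : ℚ_[p])) := by
    rw [map_sub, map_natCast]
    push_cast
    rfl
  have e3 : ‖u₀ - ((x.appr 1 : ℕ) : ℚ_[p])‖ = ‖x - ((x.appr 1 : ℕ) : ℤ_[p])‖ := by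
    rw [PadicInt.norm_def, PadicInt.coe_sub, PadicInt.coe_natCast, hx]
  rw [e, norm_algebraMap', e3]
  have e2 : (p : ℝ) ^ (-(1 : ℕ) : ℤ) = (p : ℝ)⁻¹ := by
    rw [Nat.cast_one, zpow_neg, zpow_one]
  rw [e2] at h2
  exact h2

/-- **KUM-INT.** -/
theorem stmt_KumInt : Stmt_KumInt := by
  intro p _ hp2 ζ hζ L _ hNL hbdd f hf hfL
  have hp : p.Prime := Fact.out
  have hppos : (0 : ℝ) < p := by exact_mod_cast hp.pos
  have := hNL
  have : Normal ℚ_[p] (H15.cycloField p) := H15.normal_cycloField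
  have hbdd' : IsBddField p (L ⊔ H15.cycloField p) :=
    H15.isBdd_sup hp2 hNL H15.normal_cycloField hbdd H15.isBdd_cycloField
  have hζL : ζ ∈ L ⊔ H15.cycloField p :=
    (le_sup_right : H15.cycloField p ≤ L ⊔ H15.cycloField p)
      (H15.mem_cycloField_of_pow_eq_one hζ.pow_eq_one)
  have hfL' : ∀ s ∈ (L ⊔ H15.cycloField p).fixingSubgroup, f s = 0 := by
    intro s hs
    refine hfL s ?_
    rw [IntermediateField.mem_fixingSubgroup_iff] at hs ⊢
    exact fun x hx => hs x ((le_sup_left : L ≤ L ⊔ H15.cycloField p) hx)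
  obtain ⟨u, hufix, hu1, α, hα, hαs⟩ := H85.exists_kumRel (H := ⊤) H38.stmt_NormDesc hζ
    (L ⊔ H15.cycloField p) inferInstance hbdd' hζL le_top f (fun s _ t _ => hf s t) hfL'
  have hufix' : ∀ s : Gp p, s u = u := fun s => hufix s (Subgroup.mem_top s)
  obtain ⟨n, hn⟩ := exists_int_near hufix' hu1
  -- `1 + p n` is a unit
  have hnn : ‖((n : ℤ) : PadicAlgCl p)‖ ≤ 1 := by
    have e : ((n : ℤ) : PadicAlgCl p) = u - (u - (n : PadicAlgCl p)) := by ring
    rw [e]
    refine (H15.norm_sub_le_max_algCl _ _).trans (max_le hu1 ?_)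
    exact hn.trans H85.pinv_lt_one.le
  have hB : ‖1 + (p : PadicAlgCl p) * (n : PadicAlgCl p)‖ = 1 := H85.norm_one_add_p_mul hnn
  have hB0 : 1 + (p : PadicAlgCl p) * (n : PadicAlgCl p) ≠ 0 := by
    intro h
    rw [h, norm_zero] at hB
    exact zero_ne_one hB
  -- the quotient is close to `1`
  have hy : ‖(1 + (p : PadicAlgCl p) * u) / (1 + (p : PadicAlgCl p) * (n : PadicAlgCl p)) - 1‖ <
      ‖1 - ζ‖ ^ p := by
    refine lt_of_le_of_lt ?_ (lt_norm_one_sub_zeta_pow p hp2 hζ)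
    have e : (1 + (p : PadicAlgCl p) * u) / (1 + (p : PadicAlgCl p) * (n : PadicAlgCl p)) - 1 =
        (p : PadicAlgCl p) * (u - (n : PadicAlgCl p)) /
          (1 + (p : PadicAlgCl p) * (n : PadicAlgCl p)) := by
      field_simp
      ring
    rw [e, norm_div, hB, div_one, norm_mul, H85.norm_p_Ω, sq]
    exact mul_le_mul_of_nonneg_left hn H85.pinv_pos.le
  obtain ⟨b, hbp, hb1⟩ := exists_root_near_one hp hζ hy
  have hA : ‖1 + (p : PadicAlgCl p) * u‖ = 1 := H85.norm_one_add_p_mul hu1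
  have hA0 : 1 + (p : PadicAlgCl p) * u ≠ 0 := by
    intro h
    rw [h, norm_zero] at hA
    exact zero_ne_one hA
  have hb0 : b ≠ 0 := by
    intro h0
    rw [h0, zero_pow hp.ne_zero] at hbp
    exact div_ne_zero hA0 hB0 hbp.symm
  have hα0 : α ≠ 0 := by
    intro h0
    rw [h0, zero_pow hp.ne_zero] at hα
    exact hA0 hα.symm
  have hbfix : ∀ s : Gp p, s b = b := by
    intro s
    refine root_near_one_fixed hp hζ (s : PadicAlgCl p ≃ₐ[ℚ_[p]] PadicAlgCl p).toRingEquiv.toRingHom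
      (fun x => norm_gal p s x) hbp ?_ hb1
    show s ((1 + (p : PadicAlgCl p) * u) / (1 + (p : PadicAlgCl p) * (n : PadicAlgCl p))) =
      (1 + (p : PadicAlgCl p) * u) / (1 + (p : PadicAlgCl p) * (n : PadicAlgCl p))
    rw [map_div₀, map_add, map_add, map_one, map_mul, map_mul, map_natCast, map_intCast,
      hufix' s]
  -- `α / b` is a `p`-th root of `1 + p n`
  have hroot : (α / b) ^ p = (((1 + (p : ℤ) * n : ℤ)) : PadicAlgCl p) := by
    rw [div_pow, hα, hbp]
    push_cast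
    field_simp
  refine ⟨n, fun σ _ hσ => ?_⟩
  have h1 : σ (α / b) = α / b := hσ _ hroot
  have h2 : σ α = α := by
    have e : α = (α / b) * b := by field_simp
    rw [e, map_mul, h1, hbfix σ]
  have h3 := hαs σ (Subgroup.mem_top σ)
  rw [h2] at h3
  have h4 : zpowZ ζ (f σ) = 1 := by
    have : zpowZ ζ (f σ) * α = 1 * α := by rw [one_mul]; exact h3.symm
    exact mul_right_cancel₀ hα0 this
  exact (zpowZ_eq_one_iff hζ _).mp h4

end Fermat.Agent.S39.FinGood.H49

end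

end
-- ==== END Fermat.Agent.S39.FinGood.H49_KumInt

-- ==== BEGIN Fermat.Agent.S39.FinGood.H71_FinLoc
section

set_option autoImplicit false
set_option synthInstance.maxHeartbeats 400000
set_option maxHeartbeats 1000000

noncomputable section

namespace Fermat.Agent.S39.FinGood.H71

open Fermat.Agent.S39 Fermat.Agent.S44 Fermat.Agent.S56.FL

/-- Inertia is contained in the decomposition group. -/
theorem inertia_le_dec (A : ValuationSubring (AlgebraicClosure ℚ)) {σ : GQ}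
    (h : σ ∈ A.inertiaSubgroupIn ℚ) : σ ∈ A.decompositionSubgroup ℚ :=
  ((Fermat.Agent.Lib.InertiaBridge.mem_inertiaSubgroupIn_iff_forall A σ).mp h).1

/-- A representation of finite level takes the same value at two automorphisms which agree on the
level field. -/
theorem rho_eq_of_agree {M : Type} [Monoid M] (ρ : GQ →* M)
    (F : IntermediateField ℚ (AlgebraicClosure ℚ))
    (hF : ∀ σ : GQ, (∀ x ∈ F, σ x = x) → ρ σ = 1) (g g' : GQ) (h : ∀ x ∈ F, g x = g' x) :
    ρ g = ρ g' := by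
  have h1 : ρ (g'⁻¹ * g) = 1 := hF _ (fun x hx => by
    show g'⁻¹ (g x) = x
    rw [h x hx]
    exact g'.symm_apply_apply x)
  calc ρ g = ρ (g' * (g'⁻¹ * g)) := by rw [mul_inv_cancel_left]
    _ = ρ g' * ρ (g'⁻¹ * g) := map_mul _ _ _
    _ = ρ g' := by rw [h1, mul_one]

/-- **FIN-LOC from KUM-INT.** -/
theorem finLoc_of (hK : Stmt_KumInt) : Stmt_FinLoc := by
  intro p _ hp2 V _ _ ρ h2 hfin hdet hbdd hshape
  classical
  have hp : p.Prime := Fact.out
  obtain ⟨L, hL0, hLtop, hLD, hLI, hLsq⟩ := hshape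
  obtain ⟨b, hb⟩ := exists_basis_of_line h2 L hL0 hLtop
  obtain ⟨Lb, hLbfin, hLbN, hLbB, hLbρ⟩ := hbdd
  obtain ⟨F, hFfin, hF⟩ := hfin
  have hb0 : b 0 ∈ L := by rw [hb]; exact Submodule.mem_span_singleton_self _
  have hst : ∀ g ∈ (padicPlace p).decompositionSubgroup ℚ,
      ρ g (b 0) ∈ Submodule.span (ZMod p) {b 0} := fun g hg => hb ▸ hLD g hg _ hb0
  have hloc : ∀ τ : Gp p,
      localGaloisToGlobal p τ ∈ (padicPlace p).decompositionSubgroup ℚ :=
    localGaloisToGlobal_mem_decompositionSubgroup p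
  have hZsq : ∀ g ∈ (padicPlace p).decompositionSubgroup ℚ,
      triZ b (ρ g) * triZ b (ρ g) = 1 := by
    intro g hg
    rw [← triZ_mul b _ _ (hst g hg), ← map_mul]
    exact triZ_eq_one b _ (hb ▸ hLsq g hg (b 1))
  have hZI : ∀ σ ∈ (padicPlace p).inertiaSubgroupIn ℚ, triZ b (ρ σ) = 1 :=
    fun σ hσ => triZ_eq_one b _ (hb ▸ hLI σ hσ (b 1))
  -- roots of unity
  have : NeZero p := ⟨hp.ne_zero⟩
  obtain ⟨ζ₀, hζ₀⟩ := HasEnoughRootsOfUnity.exists_primitiveRoot (AlgebraicClosure ℚ) p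
  obtain ⟨ζ, hζdef⟩ : ∃ ζ : PadicAlgCl p, ζ = padicEmbedding p ζ₀ := ⟨_, rfl⟩
  have hζ : IsPrimitiveRoot ζ p := by
    rw [hζdef]
    exact hζ₀.map_of_injective (padicEmbedding p).toRingHom.injective
  -- the determinant of the local elements
  have hdetloc : ∀ τ : Gp p, LinearMap.det (ρ (localGaloisToGlobal p τ))
      = ((H85.omg hζ τ : (ZMod p)ˣ) : ZMod p) := by
    intro τ
    rw [hdet (localGaloisToGlobal p τ) ((H85.omg hζ τ : (ZMod p)ˣ) : ZMod p).val ?_,
      ZMod.natCast_zmod_val]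
    intro μ hμ
    apply (padicEmbedding p).toRingHom.injective
    show padicEmbedding p (localGaloisToGlobal p τ μ) = padicEmbedding p (μ ^ _)
    rw [padicEmbedding_localGaloisToGlobal, map_pow]
    exact H85.omg_spec' hζ τ (by rw [← map_pow, hμ, map_one])
  -- the cocycle
  obtain ⟨f, hf⟩ : ∃ f : Gp p → ZMod p, ∀ τ, f τ
      = triC b (ρ (localGaloisToGlobal p τ)) * triZ b (ρ (localGaloisToGlobal p τ)) :=
    ⟨_, fun _ => rfl⟩
  have hcoc : ∀ s t : Gp p,
      f (s * t) = f s + ((H85.omg hζ s : (ZMod p)ˣ) : ZMod p) * f t := by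
    intro s t
    have hs := hst _ (hloc s)
    have h1 := hZsq _ (hloc t)
    rw [hf, hf, hf, map_mul, map_mul, triC_mul b _ _ hs, triZ_mul b _ _ hs, ← hdetloc s,
      tri_det b _ hs]
    linear_combination (triC b (ρ (localGaloisToGlobal p s))
      * triZ b (ρ (localGaloisToGlobal p s))) * h1
  have hf0 : ∀ s ∈ Lb.fixingSubgroup, f s = 0 := by
    intro s hs
    rw [hf, hLbρ s hs, triC_one, zero_mul]
  have := hLbfin
  obtain ⟨n, hn⟩ := hK p hp2 ζ hζ Lb hLbN hLbB f hcoc hf0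
  have hu : ¬ (p : ℤ) ∣ 1 + (p : ℤ) * n := by
    intro hdiv
    have h1 : (p : ℤ) ∣ 1 := (Int.dvd_add_left (dvd_mul_right (p : ℤ) n)).mp hdiv
    have h2 : (p : ℤ) = 1 := Int.eq_one_of_dvd_one (by positivity) h1
    exact hp.one_lt.ne' (by exact_mod_cast h2)
  have hu0 : ((1 + (p : ℤ) * n : ℤ) : PadicAlgCl p) ≠ 0 := by
    intro h0
    have h1 : (1 + (p : ℤ) * n : ℤ) = 0 := by exact_mod_cast h0
    exact hu (h1 ▸ dvd_zero _)
  refine ⟨L, hLtop, ?_, hLI, 1 + (p : ℤ) * n, hu, ?_⟩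
  · -- inertia acts on `L` through the cyclotomic character
    intro σ hσ m hm x hx
    have hσD := inertia_le_dec _ hσ
    have hX : triX b (ρ σ) = (m : ZMod p) := by
      have h1 := tri_det b (ρ σ) (hst σ hσD)
      rw [hdet σ m hm, hZI σ hσ, mul_one] at h1
      exact h1.symm
    rw [hb] at hx
    obtain ⟨t, rfl⟩ := Submodule.mem_span_singleton.mp hx
    rw [map_smul, tri_apply_zero b _ (hst σ hσD), hX, smul_comm]
  · -- inertia is trivial after adjoining `μ_p` and the `p`-th roots of `1 + p n`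
    intro σ hσ hμ hroots x
    have hσD := inertia_le_dec _ hσ
    obtain ⟨a₀, ha₀⟩ : ∃ a₀ : AlgebraicClosure ℚ,
        a₀ ^ p = ((1 + (p : ℤ) * n : ℤ) : AlgebraicClosure ℚ) :=
      IsAlgClosed.exists_pow_nat_eq _ hp.pos
    obtain ⟨F', hF'⟩ : ∃ F' : IntermediateField ℚ (AlgebraicClosure ℚ),
        F' = F ⊔ IntermediateField.adjoin ℚ {ζ₀, a₀} := ⟨_, rfl⟩
    have : FiniteDimensional ℚ F := hFfin
    have : FiniteDimensional ℚ
        (IntermediateField.adjoin ℚ ({ζ₀, a₀} : Set (AlgebraicClosure ℚ))) :=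
      IntermediateField.finiteDimensional_adjoin
        (fun x _ => ((AlgebraicClosure.isAlgebraic ℚ).isAlgebraic x).isIntegral)
    have : FiniteDimensional ℚ F' := by
      rw [hF']
      exact IntermediateField.finiteDimensional_sup _ _
    have hζF' : ζ₀ ∈ F' := by
      rw [hF']
      exact (le_sup_right : _ ≤ F ⊔ IntermediateField.adjoin ℚ {ζ₀, a₀})
        (IntermediateField.subset_adjoin ℚ _ (Set.mem_insert _ _))
    have haF' : a₀ ∈ F' := by
      rw [hF']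
      exact (le_sup_right : _ ≤ F ⊔ IntermediateField.adjoin ℚ {ζ₀, a₀})
        (IntermediateField.subset_adjoin ℚ _ (Set.mem_insert_of_mem _ (Set.mem_singleton _)))
    have hFF' : F ≤ F' := by
      rw [hF']
      exact le_sup_left
    obtain ⟨τ, hτ⟩ :=
      Fermat.Agent.Lib.LocalGlobalDense.exists_local_lift_field p σ hσD F'
    have hρ : ρ (localGaloisToGlobal p τ) = ρ σ :=
      rho_eq_of_agree ρ F hF _ _ (fun x hx => hτ x (hFF' hx))
    have hτζ : τ ζ = ζ := by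
      rw [hζdef, ← padicEmbedding_localGaloisToGlobal, hτ ζ₀ hζF', hμ ζ₀ hζ₀.pow_eq_one]
    have hτa : τ (padicEmbedding p a₀) = padicEmbedding p a₀ := by
      rw [← padicEmbedding_localGaloisToGlobal, hτ a₀ haF', hroots a₀ ha₀]
    have hea : (padicEmbedding p a₀) ^ p = ((1 + (p : ℤ) * n : ℤ) : PadicAlgCl p) := by
      rw [← map_pow, ha₀, map_intCast]
    have hτroots : ∀ z : PadicAlgCl p,
        z ^ p = ((1 + (p : ℤ) * n : ℤ) : PadicAlgCl p) → τ z = z := by
      intro z hz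
      have hea0 : padicEmbedding p a₀ ≠ 0 := by
        intro h0
        rw [h0, zero_pow hp.ne_zero] at hea
        exact hu0 hea.symm
      have h1 : (z / padicEmbedding p a₀) ^ p = 1 := by
        rw [div_pow, hz, hea, div_self hu0]
      obtain ⟨i, -, hi⟩ := hζ.eq_pow_of_pow_eq_one h1
      have h2 : z = ζ ^ i * padicEmbedding p a₀ := by
        rw [hi]
        field_simp
      rw [h2, map_mul, map_pow, hτζ, hτa]
    have hfτ : f τ = 0 := hn τ hτζ hτroots
    have hZ1 := hZI σ hσ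
    have hC : triC b (ρ σ) = 0 := by
      have h1 : triC b (ρ σ) * triZ b (ρ σ) = 0 := by
        rw [← hρ, ← hf]
        exact hfτ
      rwa [hZ1, mul_one] at h1
    have hX : triX b (ρ σ) = 1 := by
      have h1 := tri_det b (ρ σ) (hst σ hσD)
      rw [hdet σ 1 (fun μ hμ' => by rw [pow_one]; exact hμ μ hμ'), hZ1, mul_one,
        Nat.cast_one] at h1
      exact h1.symm
    rw [tri_eq_one b (ρ σ) (hst σ hσD) hX hZ1 hC]
    rfl

end Fermat.Agent.S39.FinGood.H71

end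
end
-- ==== END Fermat.Agent.S39.FinGood.H71_FinLoc

-- ==== BEGIN Fermat.Agent.S39.FinMult.H33_Core
section

set_option autoImplicit false

namespace Fermat.Agent.S39.FinMult.H33

open WeierstrassCurve WeierstrassCurve.Affine
open Fermat.Agent.S05 (InE0 InE1 valUnit)
open Fermat.Agent.S44.C (lam lam_zero lam_some Stmt_V1 Stmt_V3 Stmt_F1 Stmt_F2 Stmt_F3 Stmt_F4)
open Fermat.Agent.S44.C.H33 (InT InT_zero InT_neg InT_add InT_nsmul lam_mem_of_InT
  smul_eq_of_InT lam_smul)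

section branch

variable {L : Type*} [Field L] [IsAlgClosed L]

/-- A point of the twist subgroup on the `+`-branch above `x₀ ∈ F` with `|Δ| < |x₀|²`,
`|x₀| < 1` (`F` closed under square roots of elements `≡ 1`). -/
lemma exists_branch_point_InT_node {A : ValuationSubring L} {W : Affine L} (hyp : NodeHyp A W)
    (β : L) (hβ : β ^ 2 = W.a₂) (F : Subfield L)
    (ha : W.a₂ ∈ F) (hbF : W.a₄ ∈ F) (hcF : W.a₆ ∈ F)
    (hsqrt : ∀ d η : L, d ∈ F → A.valuation (d - 1) < 1 → η ^ 2 = d →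
      A.valuation (η - 1) < 1 → η ∈ F)
    (x₀ : L) (hx₀F : x₀ ∈ F) (hx1 : A.valuation x₀ < 1)
    (hxb : A.valuation W.Δ < A.valuation x₀ ^ 2) :
    ∃ (y₀ : L) (h : W.Nonsingular x₀ y₀), A.valuation (y₀ - β * x₀) < A.valuation x₀ ∧
      InT F β (Point.some x₀ y₀ h) := by
  have hx0 : x₀ ≠ 0 := by
    rintro rfl
    rw [map_zero, zero_pow two_ne_zero] at hxb
    exact not_lt_zero hxb
  have hvx0 : A.valuation x₀ ≠ 0 := by simpa using hx0
  have hvx0' : 0 < A.valuation x₀ := zero_lt_iff.2 hvx0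
  have hva := hyp.a_one
  have ha0 : W.a₂ ≠ 0 := by
    intro h
    rw [h, map_zero] at hva
    exact zero_ne_one hva
  have hvβ : A.valuation β = 1 := val_beta hyp hβ
  have hx2 : A.valuation x₀ ^ 2 ≤ A.valuation x₀ := by
    rw [sq]
    exact mul_le_of_le_one_right' hx1.le
  -- `d = 1 + (x₀ + b / x₀ + c / x₀²) / a`
  set d : L := 1 + (x₀ + W.a₄ / x₀ + W.a₆ / x₀ ^ 2) / W.a₂ with hd
  have hdF : d ∈ F :=
    F.add_mem F.one_mem (F.div_mem (F.add_mem (F.add_mem hx₀F (F.div_mem hbF hx₀F))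
      (F.div_mem hcF (F.pow_mem hx₀F 2))) ha)
  have hd1 : A.valuation (d - 1) < 1 := by
    have e : d - 1 = (x₀ + W.a₄ / x₀ + W.a₆ / x₀ ^ 2) / W.a₂ := by rw [hd]; ring
    rw [e, map_div₀, hva, div_one]
    refine Valuation.map_add_lt _ (Valuation.map_add_lt _ hx1 ?_) ?_
    · rw [map_div₀, div_lt_one₀ hvx0']
      exact lt_of_le_of_lt hyp.b_le (lt_of_lt_of_le hxb hx2)
    · rw [map_div₀, map_pow, div_lt_one₀ (pow_pos hvx0' 2)]
      exact lt_of_le_of_lt hyp.c_le hxb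
  obtain ⟨η', hη'⟩ := IsAlgClosed.exists_pow_nat_eq d (n := 2) (by norm_num)
  obtain ⟨η, hη, hη1⟩ : ∃ η : L, η ^ 2 = d ∧ A.valuation (η - 1) < 1 := by
    have hprod : (η' - 1) * (η' + 1) = d - 1 := by rw [← hη']; ring
    by_cases h1 : A.valuation (η' - 1) < 1
    · exact ⟨η', hη', h1⟩
    · refine ⟨-η', by rw [neg_sq, hη'], ?_⟩
      have h2 : A.valuation (η' + 1) < 1 := by
        by_contra h2
        push Not at h1 h2
        have : (1 : A.ValueGroup) ≤ A.valuation (η' - 1) * A.valuation (η' + 1) := by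
          calc (1 : A.ValueGroup) = 1 * 1 := (one_mul 1).symm
            _ ≤ A.valuation (η' - 1) * A.valuation (η' + 1) := mul_le_mul' h1 h2
        rw [← map_mul, hprod] at this
        exact absurd hd1 (not_lt.2 this)
      have : -η' - 1 = -(η' + 1) := by ring
      rw [this, Valuation.map_neg]
      exact h2
  have hηF : η ∈ F := hsqrt d η hdF hd1 hη hη1
  have hy₀ : (β * (x₀ * η)) ^ 2 = x₀ ^ 3 + W.a₂ * x₀ ^ 2 + W.a₄ * x₀ + W.a₆ := by
    rw [mul_pow, mul_pow, hβ, hη, hd]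
    field_simp
    ring
  have hns : W.Nonsingular x₀ (β * (x₀ * η)) :=
    (equation_iff_nonsingular_of_Δ_ne_zero hyp.Δ_ne).1
      ((node_equation_iff hyp.a₁ hyp.a₃ x₀ _).2 hy₀)
  refine ⟨β * (x₀ * η), hns, ?_, hx₀F, x₀ * η, F.mul_mem hx₀F hηF, rfl⟩
  have e : β * (x₀ * η) - β * x₀ = β * x₀ * (η - 1) := by ring
  rw [e, map_mul, map_mul, hvβ, one_mul]
  calc A.valuation x₀ * A.valuation (η - 1) < A.valuation x₀ * 1 :=
        mul_lt_mul_of_pos_left hη1 hvx0'
    _ = A.valuation x₀ := mul_one _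

end branch

section core

variable {L : Type} [Field L] [DecidableEq L] [IsAlgClosed L] [CharZero L] [Algebra ℚ L]

omit [IsAlgClosed L] [CharZero L] in
/-- A valuation preserving automorphism preserves `E₀`. -/
lemma inE0_smul (A : ValuationSubring L) (W' : Affine ℚ) (σ : L ≃ₐ[ℚ] L)
    (hσv : ∀ x, A.valuation (σ x) = A.valuation x) {Q : (W'⁄L).Point} (hQ : InE0 A Q) :
    InE0 A (σ • Q) := by
  rcases Q with _ | ⟨x, y, h⟩
  · exact hQ
  · show 1 ≤ A.valuation (σ x)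
    rw [hσv]
    exact hQ

omit [CharZero L] in
/-- **F2 for the node model**: an inertia-like automorphism fixing `β` moves the points of `E₀`
inside their `E₁`-cosets. -/
theorem node_F2 (A : ValuationSubring L) (W' : Affine ℚ) (hyp : NodeHyp A (W'⁄L))
    (β : L) (hβ : β ^ 2 = (W'⁄L).a₂)
    (σ : L ≃ₐ[ℚ] L) (hσv : ∀ x, A.valuation (σ x) = A.valuation x)
    (hσr : ∀ x, A.valuation x ≤ 1 → A.valuation (σ x - x) < 1) (hσβ : σ β = β)
    (Q : (W'⁄L).Point) (hQ : InE0 A Q) : InE1 A (σ • Q - Q) := by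
  obtain ⟨φ, hker, -⟩ := stmt_NodeM1 L A (W'⁄L) hyp β hβ
  have hσQ0 : InE0 A (σ • Q) := inE0_smul A W' σ hσv hQ
  obtain ⟨S, hSdef⟩ : ∃ S, S = σ • Q - Q := ⟨_, rfl⟩
  rw [← hSdef]
  have hS0 : InE0 A S := by
    rw [← hker, hSdef, map_sub, (hker _).2 hσQ0, (hker _).2 hQ, sub_zero]
  have hQS : Q + S = σ • Q := by rw [hSdef]; abel
  have h5 := val_lam_add hyp hβ Q S hQ hS0 (by rw [hQS]; exact hσQ0)
  rw [hQS, lam_smul W' σ hσβ Q] at h5
  obtain ⟨g, hgdef⟩ : ∃ g, g = lam β Q := ⟨_, rfl⟩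
  rw [← hgdef] at h5
  have hg1 : A.valuation g = 1 := by rw [hgdef]; exact val_lam_eq_one hyp hβ Q hQ
  have hres : A.valuation (σ g - g) < 1 := hσr g hg1.le
  apply inE1_of_val_lam_sub_one_lt hyp hβ S hS0
  by_contra hcon
  push Not at hcon
  have hpos : 0 < A.valuation (lam β S - 1) := lt_of_lt_of_le zero_lt_one hcon
  have e : g * (lam β S - 1) = -(σ g - g * lam β S) + (σ g - g) := by ring
  have h6 : A.valuation (σ g - g * lam β S) < A.valuation (lam β S - 1) := by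
    refine lt_of_le_of_lt h5 ?_
    calc A.valuation (W'⁄L).Δ * A.valuation (lam β S - 1) < 1 * A.valuation (lam β S - 1) :=
          mul_lt_mul_of_pos_right hyp.Δ_lt hpos
      _ = A.valuation (lam β S - 1) := one_mul _
  have h7 : A.valuation (σ g - g) < A.valuation (lam β S - 1) := lt_of_lt_of_le hres hcon
  have h8 : A.valuation (g * (lam β S - 1)) < A.valuation (lam β S - 1) := by
    rw [e]
    exact Valuation.map_add_lt _ (by rw [Valuation.map_neg]; exact h6) h7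
  rw [map_mul, hg1, one_mul] at h8
  exact lt_irrefl _ h8

omit [CharZero L] in
/-- In every component of order dividing `p` there is a point of the twist subgroup `T`. -/
theorem exists_InT_same_component_node
    (A : ValuationSubring L) (W' : Affine ℚ) (hyp : NodeHyp A (W'⁄L))
    (p : ℕ) (hodd : Odd p)
    (c : ℚ) (hc : A.valuation (algebraMap ℚ L c) ^ p = A.valuation (W'⁄L).Δ)
    (β : L) (hβ : β ^ 2 = (W'⁄L).a₂) (F : Subfield L) (hQF : ∀ r : ℚ, algebraMap ℚ L r ∈ F)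
    (hsqrt : ∀ d η : L, d ∈ F → A.valuation (d - 1) < 1 → η ^ 2 = d →
      A.valuation (η - 1) < 1 → η ∈ F)
    (φ : (W'⁄L).Point →+ Additive (NodeComp hyp))
    (hφ : ∀ (x y : L) (h : (W'⁄L).Nonsingular x y) (hx0 : x ≠ 0),
      A.valuation (W'⁄L).Δ < A.valuation x ^ 2 → A.valuation x < 1 →
      A.valuation (y - β * x) < A.valuation x →
      φ (.some x y h) = Additive.ofMul (QuotientGroup.mk (valUnit A x hx0)))
    (P : (W'⁄L).Point) (hP : p • P = 0) :
    ∃ R₀ : (W'⁄L).Point, InT F β R₀ ∧ φ R₀ = φ P := by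
  have hp0 : p ≠ 0 := by
    rintro rfl
    exact absurd hodd (by decide)
  have haF : (W'⁄L).a₂ ∈ F := hQF W'.a₂
  have hbF : (W'⁄L).a₄ ∈ F := hQF W'.a₄
  have hcF : (W'⁄L).a₆ ∈ F := hQF W'.a₆
  have hvΔ0 : A.valuation (W'⁄L).Δ ≠ 0 := by simpa using hyp.Δ_ne
  have hc0 : algebraMap ℚ L c ≠ 0 := by
    intro h
    rw [h, _root_.map_zero, zero_pow hp0] at hc
    exact hvΔ0 hc.symm
  have hvc0 : A.valuation (algebraMap ℚ L c) ≠ 0 := by simpa using hc0
  have hvc1 : A.valuation (algebraMap ℚ L c) < 1 := by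
    by_contra h
    push Not at h
    have h1 : 1 ≤ A.valuation (algebraMap ℚ L c) ^ p := one_le_pow₀ h
    rw [hc] at h1
    exact absurd h1 (not_le.2 hyp.Δ_lt)
  set cU : (A.ValueGroup)ˣ := valUnit A (algebraMap ℚ L c) hc0 with hcU
  have hcUp : cU ^ p = dUnit hyp := by
    apply Units.ext
    simp only [hcU, valUnit, dUnit, Units.val_pow_eq_pow_val, Units.val_mk0]
    exact hc
  -- small case: `0 < r`, `2 r < p`
  have small : ∀ r : ℕ, 0 < r → 2 * r < p → ∃ P₀ : (W'⁄L).Point, InT F β P₀ ∧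
      φ P₀ = Additive.ofMul (QuotientGroup.mk (cU ^ r)) := by
    intro r hr0 hr
    have hx1 : A.valuation ((algebraMap ℚ L c) ^ r) < 1 := by
      rw [map_pow]
      exact pow_lt_one₀ zero_le hvc1 hr0.ne'
    have hxb : A.valuation (W'⁄L).Δ < A.valuation ((algebraMap ℚ L c) ^ r) ^ 2 := by
      rw [map_pow, ← pow_mul, mul_comm r 2, ← hc]
      exact pow_lt_pow_right_of_lt_one₀ (zero_lt_iff.2 hvc0) hvc1 hr
    have hxF : (algebraMap ℚ L c) ^ r ∈ F := F.pow_mem (hQF c) r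
    obtain ⟨y₀, hns, hbr, hT⟩ := exists_branch_point_InT_node hyp β hβ F haF hbF hcF hsqrt
      _ hxF hx1 hxb
    refine ⟨Point.some _ _ hns, hT, ?_⟩
    rw [hφ _ _ hns (pow_ne_zero _ hc0) hxb hx1 hbr]
    congr 2
    apply Units.ext
    simp [hcU, valUnit, map_pow]
  -- all residues `r < p`
  have allr : ∀ r : ℕ, r < p → ∃ P₀ : (W'⁄L).Point, InT F β P₀ ∧
      φ P₀ = Additive.ofMul (QuotientGroup.mk (cU ^ r)) := by
    intro r hr
    rcases Nat.eq_zero_or_pos r with rfl | hr0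
    · exact ⟨0, InT_zero F β, by simp⟩
    rcases lt_or_gt_of_ne (show 2 * r ≠ p from fun h => by
        obtain ⟨k, hk⟩ := hodd; omega) with h2 | h2
    · exact small r hr0 h2
    · obtain ⟨P₀, hfix, hcomp⟩ := small (p - r) (by omega) (by omega)
      refine ⟨-P₀, InT_neg hyp.a₁ hyp.a₃ hfix, ?_⟩
      rw [map_neg, hcomp, ← ofMul_inv, ← QuotientGroup.mk_inv]
      congr 1
      rw [QuotientGroup.eq]
      rw [inv_inv, ← pow_add, Nat.sub_add_cancel hr.le, hcUp]
      exact Subgroup.mem_zpowers _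
  -- the component of `P`
  obtain ⟨g, hg⟩ := QuotientGroup.mk_surjective (Additive.toMul (φ P))
  have hgp : g ^ p ∈ Subgroup.zpowers (dUnit hyp) := by
    rw [← QuotientGroup.eq_one_iff, QuotientGroup.mk_pow, hg, ← toMul_nsmul, ← map_nsmul, hP,
      _root_.map_zero, toMul_zero]
  obtain ⟨k, hk⟩ := Subgroup.mem_zpowers_iff.1 hgp
  have hgk : g = cU ^ k := by
    have : g ^ p = (cU ^ k) ^ p := by
      rw [← hk, ← hcUp, ← zpow_natCast (cU ^ k) p, ← zpow_natCast cU p, ← zpow_mul, ← zpow_mul,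
        mul_comm]
    exact pow_left_injective hp0 this
  have hpZ : (p : ℤ) ≠ 0 := by exact_mod_cast hp0
  obtain ⟨P₀, hfix, hcomp⟩ := allr (k % (p : ℤ)).toNat (by
    have := Int.emod_lt_of_pos k (show (0 : ℤ) < p by omega)
    have := Int.emod_nonneg k hpZ
    omega)
  refine ⟨P₀, hfix, ?_⟩
  rw [hcomp]
  apply Additive.toMul.injective
  rw [toMul_ofMul, ← hg, hgk, QuotientGroup.eq]
  have hkr : cU ^ k = (dUnit hyp) ^ (k / (p : ℤ)) * cU ^ (k % (p : ℤ)).toNat := by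
    rw [← hcUp, ← zpow_natCast cU p, ← zpow_mul, ← zpow_natCast cU (k % (p : ℤ)).toNat,
      Int.toNat_of_nonneg (Int.emod_nonneg k hpZ), ← zpow_add, Int.mul_ediv_add_emod]
  rw [hkr, mul_comm, mul_inv_cancel_right]
  exact Subgroup.zpow_mem _ (Subgroup.mem_zpowers _) _

/-- The common set-up of the two core theorems: `β`, the field `F` of `p`-adic limits of
rationals, and the decomposition `P = Q + R₀` with `Q ∈ E₀`, `R₀ ∈ T`. -/
theorem node_setup (halg : Algebra.IsAlgebraic ℚ L)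
    (A : ValuationSubring L) (W' : Affine ℚ) (hyp : NodeHyp A (W'⁄L))
    (p : ℕ) (hp : p.Prime) (hp2 : p ≠ 2) (hpA : A.valuation (p : L) < 1)
    (c : ℚ) (hc : A.valuation (algebraMap ℚ L c) ^ p = A.valuation (W'⁄L).Δ)
    (σ : L ≃ₐ[ℚ] L) (hσv : ∀ x, A.valuation (σ x) = A.valuation x)
    (hσr : ∀ x, A.valuation x ≤ 1 → A.valuation (σ x - x) < 1)
    (P : (W'⁄L).Point) (hP : p • P = 0) :
    ∃ (β : L) (F : Subfield L) (R₀ : (W'⁄L).Point), β ^ 2 = (W'⁄L).a₂ ∧ σ β = β ∧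
      (∀ z ∈ F, σ z = z) ∧ (∀ z : L, z ∈ F ↔ Fermat.Agent.S44.C.IsRatLim A p z) ∧
      (W'⁄L).a₂ ∈ F ∧ (W'⁄L).a₄ ∈ F ∧ InT F β R₀ ∧ InE0 A (P - R₀) := by
  obtain ⟨β, hβ⟩ := IsAlgClosed.exists_pow_nat_eq ((W'⁄L).a₂) (n := 2) (by norm_num)
  have hvβ : A.valuation β = 1 := val_beta hyp hβ
  have hσβ : σ β = β := by
    have hsq : (σ β) ^ 2 = β ^ 2 := by
      rw [← map_pow, hβ]
      exact σ.commutes _
    rcases eq_or_eq_neg_of_sq_eq_sq _ _ hsq with h | h
    · exact h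
    · exfalso
      have := hσr β hvβ.le
      rw [h] at this
      have e : -β - β = -(2 * β) := by ring
      rw [e, Valuation.map_neg, map_mul, hyp.two, one_mul, hvβ] at this
      exact lt_irrefl _ this
  obtain ⟨F, hF⟩ := Fermat.Agent.S44.C.H19.stmt_F1 L halg A p hp hpA
  have hQF : ∀ r : ℚ, algebraMap ℚ L r ∈ F := fun r =>
    (hF _).2 (fun k => ⟨r, by rw [sub_self, map_zero]; exact zero_le⟩)
  have hσF : ∀ z ∈ F, σ z = z := fun z hz =>
    Fermat.Agent.S44.C.H19.stmt_F2 L halg A p hp hpA σ hσv z ((hF z).1 hz)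
  have hsqrt : ∀ d η : L, d ∈ F → A.valuation (d - 1) < 1 → η ^ 2 = d →
      A.valuation (η - 1) < 1 → η ∈ F := fun d η hd h1 h2 h3 =>
    (hF η).2 (Fermat.Agent.S44.C.H19.stmt_F3 L A p hp hp2 hpA d η ((hF d).1 hd) h1 h2 h3)
  obtain ⟨φ, hker, hφ⟩ := stmt_NodeM1 L A (W'⁄L) hyp β hβ
  obtain ⟨R₀, hR₀T, hR₀φ⟩ := exists_InT_same_component_node A W' hyp p (hp.odd_of_ne_two hp2)
    c hc β hβ F hQF hsqrt φ hφ P hP
  refine ⟨β, F, R₀, hβ, hσβ, hσF, hF, hQF W'.a₂, hQF W'.a₄, hR₀T, ?_⟩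
  rw [← hker, map_sub, hR₀φ, sub_self]

/-- **Core theorem 1 on the node model**: inertia acts trivially on `E[p] / (E[p] ∩ E₁)`. -/
theorem node_core_E1 (halg : Algebra.IsAlgebraic ℚ L)
    (A : ValuationSubring L) (W' : Affine ℚ) (hyp : NodeHyp A (W'⁄L))
    (p : ℕ) (hp : p.Prime) (hp2 : p ≠ 2) (hpA : A.valuation (p : L) < 1)
    (c : ℚ) (hc : A.valuation (algebraMap ℚ L c) ^ p = A.valuation (W'⁄L).Δ)
    (σ : L ≃ₐ[ℚ] L) (hσv : ∀ x, A.valuation (σ x) = A.valuation x)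
    (hσr : ∀ x, A.valuation x ≤ 1 → A.valuation (σ x - x) < 1)
    (P : (W'⁄L).Point) (hP : p • P = 0) : InE1 A (σ • P - P) := by
  obtain ⟨β, F, R₀, hβ, hσβ, hσF, -, -, -, hR₀T, hQ0⟩ :=
    node_setup halg A W' hyp p hp hp2 hpA c hc σ hσv hσr P hP
  have hσR₀ : σ • R₀ = R₀ := smul_eq_of_InT W' σ hσF hσβ hR₀T
  have h := node_F2 A W' hyp β hβ σ hσv hσr hσβ (P - R₀) hQ0
  have e1 : σ • (P - R₀) = σ • P - σ • R₀ := smul_sub σ P R₀
  have e : σ • (P - R₀) - (P - R₀) = σ • P - P := by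
    rw [e1, hσR₀]; abel
  rw [e] at h
  exact h

/-- **Core theorem 2 on the node model** (peu ramifié with `u = 1 + p`). -/
theorem node_core_peu (halg : Algebra.IsAlgebraic ℚ L)
    (A : ValuationSubring L) (W' : Affine ℚ) (hyp : NodeHyp A (W'⁄L))
    (p : ℕ) (hp : p.Prime) (hp2 : p ≠ 2) (hpA : A.valuation (p : L) < 1)
    (hΔ2 : A.valuation (W'⁄L).Δ ≤ A.valuation (p : L) ^ 2)
    (c : ℚ) (hc : A.valuation (algebraMap ℚ L c) ^ p = A.valuation (W'⁄L).Δ)
    (σ : L ≃ₐ[ℚ] L) (hσv : ∀ x, A.valuation (σ x) = A.valuation x)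
    (hσr : ∀ x, A.valuation x ≤ 1 → A.valuation (σ x - x) < 1)
    (hσζ : ∀ ζ : L, ζ ^ p = 1 → σ ζ = ζ)
    (hσω : ∀ z : L, z ^ p = 1 + (p : L) → σ z = z)
    (P : (W'⁄L).Point) (hP : p • P = 0) : σ • P = P := by
  -- basic facts on `p`
  have hp0 : (p : L) ≠ 0 := Nat.cast_ne_zero.2 hp.ne_zero
  have hvp0 : A.valuation (p : L) ≠ 0 := by simpa using hp0
  have hvp_pos : 0 < A.valuation (p : L) := zero_lt_iff.2 hvp0
  have hvp2 : A.valuation (p : L) ^ 2 < A.valuation (p : L) := by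
    rw [pow_two]
    calc A.valuation (p : L) * A.valuation (p : L) < A.valuation (p : L) * 1 :=
          mul_lt_mul_of_pos_left hpA hvp_pos
      _ = A.valuation (p : L) := mul_one _
  have hpnu : (p : L) ∈ A.nonunits := (ValuationSubring.mem_nonunits_iff A).2 hpA
  have hbp : A.valuation (W'⁄L).Δ < A.valuation (p : L) := lt_of_le_of_lt hΔ2 hvp2
  -- the set-up
  obtain ⟨β, F, R₀, hβ, hσβ, hσF, hF, haF, hbF, hR₀T, hQ0'⟩ :=
    node_setup halg A W' hyp p hp hp2 hpA c hc σ hσv hσr P hP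
  have hvβ : A.valuation β = 1 := val_beta hyp hβ
  have hβ0 : β ≠ 0 := by
    intro h
    rw [h, map_zero] at hvβ
    exact zero_ne_one hvβ
  obtain ⟨φ, hker, -⟩ := stmt_NodeM1 L A (W'⁄L) hyp β hβ
  have hσR₀ : σ • R₀ = R₀ := smul_eq_of_InT W' σ hσF hσβ hR₀T
  -- `Q = P - R₀ ∈ E₀`
  obtain ⟨Q, hQdef⟩ : ∃ Q, Q = P - R₀ := ⟨_, rfl⟩
  have hPQ : P = Q + R₀ := by rw [hQdef]; abel
  have hQ0 : InE0 A Q := by rw [hQdef]; exact hQ0'
  have hkQ0 : ∀ k : ℕ, InE0 A (k • Q) := fun k => by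
    rw [← hker, map_nsmul, (hker Q).2 hQ0, nsmul_zero]
  have hpQ : p • Q = -(p • R₀) := by rw [hQdef, smul_sub, hP, zero_sub]
  have hpQT : InT F β (p • Q) := by
    rw [hpQ]
    exact InT_neg hyp.a₁ hyp.a₃ (InT_nsmul hyp.a₁ hyp.a₃ hβ hβ0 haF hbF hR₀T p)
  have hσpQ : σ • (p • Q) = p • Q := smul_eq_of_InT W' σ hσF hσβ hpQT
  -- `g = lam Q`, `w = lam (p Q)`
  obtain ⟨g, hgdef⟩ : ∃ g, g = lam β Q := ⟨_, rfl⟩
  have hg1 : A.valuation g = 1 := by rw [hgdef]; exact val_lam_eq_one hyp hβ Q hQ0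
  have hg0 : g ≠ 0 := by
    intro h
    rw [h, map_zero] at hg1
    exact zero_ne_one hg1
  obtain ⟨w, hwdef⟩ : ∃ w, w = lam β (p • Q) := ⟨_, rfl⟩
  have hwF : w ∈ F := by rw [hwdef]; exact lam_mem_of_InT hβ0 hpQT
  have hw1 : A.valuation w = 1 := by rw [hwdef]; exact val_lam_eq_one hyp hβ _ (hkQ0 p)
  have hgsub : A.valuation (g - 1) ≤ 1 :=
    (A.valuation.map_sub _ _).trans (max_le hg1.le (by rw [map_one]))
  have hnsmul : ∀ k : ℕ, A.valuation (lam β (k • Q) - g ^ k) ≤ A.valuation (W'⁄L).Δ := by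
    intro k
    induction k with
    | zero => rw [zero_smul, lam_zero, pow_zero, sub_self, map_zero]; exact zero_le
    | succ k ih =>
      rw [succ_nsmul, pow_succ]
      have hk1 : InE0 A (k • Q + Q) := by
        have := hkQ0 (k + 1)
        rw [succ_nsmul] at this
        exact this
      have h1 := val_lam_add hyp hβ (k • Q) Q (hkQ0 k) hQ0 hk1
      rw [← hgdef] at h1
      have h3 : A.valuation (lam β (k • Q + Q) - lam β (k • Q) * g) ≤ A.valuation (W'⁄L).Δ :=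
        h1.trans (mul_le_of_le_one_right' hgsub)
      have e : lam β (k • Q + Q) - g ^ k * g =
          (lam β (k • Q + Q) - lam β (k • Q) * g) + (lam β (k • Q) - g ^ k) * g := by ring
      rw [e]
      refine (A.valuation.map_add _ _).trans (max_le h3 ?_)
      rw [map_mul, hg1, mul_one]
      exact ih
  have hgw : A.valuation (w - g ^ p) ≤ A.valuation (p : L) ^ 2 := by
    rw [hwdef]
    exact (hnsmul p).trans hΔ2
  -- `w ≡ t ^ p (1 + p) ^ n` mod `p²`
  obtain ⟨t, htp, htw⟩ := Fermat.Agent.S44.C.H19.stmt_F4 L A p hp hpA w ((hF w).1 hwF) hw1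
  obtain ⟨n, hn⟩ := Fermat.Agent.S44.C.H01.stmt_V3 p hp t htp
  have ht1 : A.valuation (t : L) = 1 :=
    Fermat.Agent.S05.H15.valuation_intCast_eq_one_of_not_dvd hp hpnu htp
  have htn : A.valuation ((t : L) - (t : L) ^ p * (1 + (p : L)) ^ n) ≤
      A.valuation (p : L) ^ 2 := by
    obtain ⟨k, hk⟩ := hn
    have e : (t : L) - (t : L) ^ p * (1 + (p : L)) ^ n = (p : L) ^ 2 * (k : L) := by
      have := congrArg (Int.cast : ℤ → L) hk
      push_cast at this
      exact this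
    rw [e, map_mul, map_pow]
    exact mul_le_of_le_one_right' (Fermat.Agent.S05.H15.valuation_intCast_le_one A k)
  obtain ⟨ω, hω⟩ := IsAlgClosed.exists_pow_nat_eq (1 + (p : L)) (n := p) hp.pos
  have hσω' : σ ω = ω := hσω ω hω
  have hv1p : A.valuation (1 + (p : L)) = 1 := by
    rw [Valuation.map_add_eq_of_lt_left _ (by rw [map_one]; exact hpA), map_one]
  have hvω : A.valuation ω = 1 := by
    have : A.valuation ω ^ p = 1 := by rw [← map_pow, hω, hv1p]
    exact (pow_eq_one_iff_left hp.ne_zero).mp this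
  obtain ⟨g₀, hg₀def⟩ : ∃ g₀, g₀ = (t : L) * ω ^ n := ⟨_, rfl⟩
  have hg₀p : g₀ ^ p = (t : L) ^ p * (1 + (p : L)) ^ n := by
    rw [hg₀def, mul_pow, ← pow_mul, mul_comm n p, pow_mul, hω]
  have hvg₀ : A.valuation g₀ = 1 := by
    rw [hg₀def, map_mul, map_pow, ht1, hvω, one_pow, one_mul]
  have hg₀0 : g₀ ≠ 0 := by
    intro h
    rw [h, map_zero] at hvg₀
    exact zero_ne_one hvg₀
  have hσg₀ : σ g₀ = g₀ := by
    rw [hg₀def, map_mul, map_pow, hσω', map_intCast]
  have h1 : A.valuation (g ^ p - g₀ ^ p) ≤ A.valuation (p : L) ^ 2 := by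
    have e : g ^ p - g₀ ^ p = -(w - g ^ p) + ((w - (t : L)) +
        ((t : L) - (t : L) ^ p * (1 + (p : L)) ^ n)) := by rw [hg₀p]; ring
    rw [e]
    refine (A.valuation.map_add _ _).trans (max_le ?_ ?_)
    · rw [Valuation.map_neg]; exact hgw
    · exact (A.valuation.map_add _ _).trans (max_le htw htn)
  obtain ⟨g₂, hg₂def⟩ : ∃ g₂, g₂ = g / g₀ := ⟨_, rfl⟩
  have hgg : g = g₂ * g₀ := by rw [hg₂def, div_mul_cancel₀ _ hg₀0]
  have hg₂ : A.valuation (g₂ ^ p - 1) ≤ A.valuation (p : L) ^ 2 := by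
    have e : g₂ ^ p - 1 = (g ^ p - g₀ ^ p) / g₀ ^ p := by
      rw [hg₂def, div_pow, sub_div, div_self (pow_ne_zero _ hg₀0)]
    rw [e, map_div₀, map_pow, hvg₀, one_pow, div_one]
    exact h1
  obtain ⟨ζ, hζ, hζg⟩ := Fermat.Agent.S44.C.H01.stmt_V1 L A.ValueGroup A.valuation p hp g₂
  have h2 : A.valuation (g₂ - ζ) ≤ A.valuation (p : L) := by
    have h := hζg.trans hg₂
    rw [pow_two] at h
    exact le_of_mul_le_mul_right h hvp_pos
  have hσζ' : σ ζ = ζ := hσζ ζ hζ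
  have h3 : A.valuation (σ g₂ - g₂) ≤ A.valuation (p : L) := by
    have e : σ g₂ - g₂ = σ (g₂ - ζ) - (g₂ - ζ) := by rw [map_sub, hσζ']; ring
    rw [e]
    exact (A.valuation.map_sub _ _).trans (max_le (by rw [hσv]; exact h2) h2)
  have h4 : A.valuation (σ g - g) ≤ A.valuation (p : L) := by
    have e : σ g - g = (σ g₂ - g₂) * g₀ := by
      rw [hgg, map_mul, hσg₀]; ring
    rw [e, map_mul, hvg₀, mul_one]
    exact h3
  -- `S = σ Q - Q ∈ E₁[p]`
  have hS1' : InE1 A (σ • Q - Q) := node_F2 A W' hyp β hβ σ hσv hσr hσβ Q hQ0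
  obtain ⟨S, hSdef⟩ : ∃ S, S = σ • Q - Q := ⟨_, rfl⟩
  have hS1 : InE1 A S := by rw [hSdef]; exact hS1'
  have hS0 : InE0 A S := node_inE0_of_inE1 hS1
  have hpS : p • S = 0 := by
    have e : p • (σ • Q) = σ • (p • Q) :=
      (map_nsmul (DistribSMul.toAddMonoidHom (W'⁄L).Point σ) p Q).symm
    rw [hSdef, smul_sub, e, hσpQ, sub_self]
  have hσQ : σ • Q = Q + S := by rw [hSdef]; abel
  have hlamσ : lam β (σ • Q) = σ g := by rw [hgdef]; exact lam_smul W' σ hσβ Q
  have h5 := val_lam_add hyp hβ Q S hQ0 hS0 (by rw [← hσQ]; exact inE0_smul A W' σ hσv hQ0)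
  rw [← hσQ, hlamσ, ← hgdef] at h5
  have hδ1 : A.valuation (lam β S - 1) < 1 := val_lam_sub_one_lt hyp hβ S hS1
  have h6 : A.valuation (σ g - g * lam β S) ≤ A.valuation (p : L) :=
    h5.trans ((mul_le_of_le_one_right' hδ1.le).trans hbp.le)
  have h7 : A.valuation (lam β S - 1) ≤ A.valuation (p : L) := by
    have e : g * (lam β S - 1) = -(σ g - g * lam β S) + (σ g - g) := by ring
    have h := (A.valuation.map_add (-(σ g - g * lam β S)) (σ g - g)).trans
      (max_le (by rw [Valuation.map_neg]; exact h6) h4)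
    rw [← e, map_mul, hg1, one_mul] at h
    exact h
  have h8 : A.valuation (lam β S - 1) ^ (p - 1) < A.valuation (p : L) := by
    have hp3 : 2 ≤ p - 1 := by
      have := hp.two_le
      have : p ≠ 2 := hp2
      omega
    calc A.valuation (lam β S - 1) ^ (p - 1) ≤ A.valuation (p : L) ^ (p - 1) :=
          pow_le_pow_left₀ zero_le h7 _
      _ ≤ A.valuation (p : L) ^ 2 := pow_le_pow_of_le_one zero_le hpA.le hp3
      _ < A.valuation (p : L) := hvp2
  have hS : S = 0 := stmt_NodeL4 L A (W'⁄L) hyp β hβ p hp hpA hbp S hS1 hpS h8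
  have hσQ' : σ • Q = Q := by rw [hσQ, hS, add_zero]
  calc σ • P = σ • (Q + R₀) := by rw [hPQ]
    _ = σ • Q + σ • R₀ := smul_add σ Q R₀
    _ = Q + R₀ := by rw [hσQ', hσR₀]
    _ = P := hPQ.symm

end core

end Fermat.Agent.S39.FinMult.H33

end
-- ==== END Fermat.Agent.S39.FinMult.H33_Core
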