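-- GENERATED (merged mirror, NOTES/tools/trim/merge3_helper67.py): 10 modules of the originals, bodies verbatim.
import Mathlib
import Fermat.Prelude.Def_AlgebraicCurve_BaseChangeGalois
import Fermat.Agent.Zm.S59_L05_003
import Fermat.Agent.Zm.S59_L03_002
import Fermat.Agent.Zm.S59_L01_002
import Fermat.Agent.Zm.S59_L05_004
import Fermat.Agent.Zm.S59_L02_003
import Fermat.Agent.Zm.S59_L01_003
import Fermat.Agent.Zm.S36_L14_000
import Fermat.Agent.Zm.S36_L11_000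
import Fermat.Agent.Zm.S35_L02_000
import Fermat.Agent.Zm.S35_L11_001
import Fermat.Agent.Zm.S33_L03_002
import Fermat.Agent.Zm.S36_L13_001
import Fermat.Agent.Zm.S36_L14_001
import Fermat.Agent.Zm.S36_L13_000
import Fermat.Agent.Zm.S36_L03_001
import Fermat.Agent.Zm.S59_L05_001
import Fermat.Agent.Zm.S44_L14_000
import Fermat.Agent.Zm.S43_L01_000
import Fermat.Agent.GTor.H2_Equivariance
import Fermat.Agent.Zm.S35_L11_000

-- ==== BEGIN Fermat.Agent.S27.RR.H52_Semilin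
section

/-!
# S27, package RR-DUAL (helper52), part 6: semilinear automorphisms and `L(D)`

For `φ : SemilinearAut K F` (e.g. a Frobenius structure):

* `smul_mem_L_smul_iff` : `φ x ∈ L(φ D) ↔ x ∈ L(D)`;
* `LsmulEquiv φ D` : the additive bijection `L(D) ≃ L(φ D)`, semilinear (`LsmulEquiv_smul`);
* `finrank_L_smul` : `l(φ D) = l(D)`;
* `canonical_sub_smul_principal` : `W - φ W` is principal (the canonical class is invariant);
* `isCanonical_smul` : `φ W` is canonical.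
-/

set_option autoImplicit false
set_option linter.style.haveILetI false
set_option linter.unusedSectionVars false

noncomputable section

open AlgebraicCurve

attribute [local instance] Classical.propDecidable

namespace Fermat.Agent.S27.RR.H52

open Fermat.Agent.RED Fermat.Agent.RED.H51 Fermat.Agent.RED.H17

local notation "L" => riemannRochSpace

variable {K F : Type*} [Field K] [Field F] [Algebra K F]

theorem ordGe_smul_iff (φ : SemilinearAut K F) (v : Place K F) (n : ℤ) (x : F) :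
    OrdGe (φ • v) n (φ • x) ↔ OrdGe v n x := by
  unfold OrdGe
  rw [SemilinearAut.ord_smul, smul_eq_zero_iff_eq]

theorem smul_mem_L_smul_iff (φ : SemilinearAut K F) (D : Divisor K F) (x : F) :
    φ • x ∈ L (φ • D) ↔ x ∈ L D := by
  rw [mem_L_iff', mem_L_iff']
  constructor
  · intro h v
    have := h (φ • v)
    rwa [SemilinearAut.divisor_smul_apply_smul, ordGe_smul_iff] at this
  · intro h w
    have := h (φ⁻¹ • w)
    rw [← ordGe_smul_iff φ, smul_inv_smul] at this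
    rwa [SemilinearAut.divisor_smul_apply]

theorem smul_smul_eq (φ : SemilinearAut K F) (c : K) (x : F) :
    φ • (c • x) = SemilinearAut.baseAut φ c • (φ • x) := by
  rw [Algebra.smul_def, Algebra.smul_def, smul_mul', SemilinearAut.smul_algebraMap]

/-- The semilinear bijection `L(D) ≃ L(φ D)`. -/
def LsmulEquiv (φ : SemilinearAut K F) (D : Divisor K F) : L D ≃+ L (φ • D) where
  toFun x := ⟨φ • (x : F), (smul_mem_L_smul_iff φ D x).mpr x.2⟩
  invFun y := ⟨φ⁻¹ • (y : F), by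
    rw [← smul_mem_L_smul_iff φ, smul_inv_smul]
    exact y.2⟩
  left_inv x := Subtype.ext (inv_smul_smul φ (x : F))
  right_inv y := Subtype.ext (smul_inv_smul φ (y : F))
  map_add' x y := Subtype.ext (smul_add φ (x : F) (y : F))

theorem LsmulEquiv_coe (φ : SemilinearAut K F) (D : Divisor K F) (x : L D) :
    ((LsmulEquiv φ D x : L (φ • D)) : F) = φ • (x : F) := rfl

theorem LsmulEquiv_smul (φ : SemilinearAut K F) (D : Divisor K F) (c : K) (x : L D) :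
    LsmulEquiv φ D (c • x) = SemilinearAut.baseAut φ c • LsmulEquiv φ D x :=
  Subtype.ext (smul_smul_eq φ c (x : F))

/-- **`l(φ D) = l(D)`**. -/
theorem finrank_L_smul (φ : SemilinearAut K F) (D : Divisor K F) :
    Module.finrank K (L (φ • D)) = Module.finrank K (L D) := by
  have h := rank_eq_of_equiv_equiv (SemilinearAut.baseAut φ) (LsmulEquiv φ D)
    (SemilinearAut.baseAut φ).bijective (LsmulEquiv_smul φ D)
  unfold Module.finrank
  rw [h]

/-- **The canonical class is invariant under semilinear automorphisms.** -/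
theorem canonical_sub_smul_principal (H : FFHyp K F) {g : ℕ} {W : Divisor K F}
    (hW : IsCanonical g W) (φ : SemilinearAut K F) :
    W - φ • W ∈ Divisor.principal (K := K) (F := F) :=
  canonical_unique H hW (by rw [SemilinearAut.degree_smul, hW.1])
    (by rw [finrank_L_smul, hW.2.1])

theorem isCanonical_smul (H : FFHyp K F) {g : ℕ} {W : Divisor K F}
    (hW : IsCanonical g W) (φ : SemilinearAut K F) : IsCanonical g (φ • W) :=
  isCanonical_of_principal_sub H hW (canonical_sub_smul_principal H hW φ)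

end Fermat.Agent.S27.RR.H52

end
end
-- ==== END Fermat.Agent.S27.RR.H52_Semilin

-- ==== BEGIN Fermat.Agent.S59.Asm.H80_Selmer
section

set_option autoImplicit false
set_option linter.unusedSectionVars false
set_option linter.style.haveILetI false

open IsLocalRing

namespace Fermat.Agent.S59.Asm.H80

open Fermat.Agent.S53 Fermat.Agent.S59 Fermat.Agent.L.Pivot

/-- A prime `q ≠ p` is a unit in a local ring of residue characteristic `p`. -/
theorem isUnit_natCast_of_ne_prime {A : Type} [CommRing A] [IsLocalRing A] (p q : ℕ)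
    (hp : p.Prime) (hq : q.Prime) (hqp : q ≠ p) (hpA : (p : A) ∈ maximalIdeal A) :
    IsUnit (q : A) := by
  by_contra hu
  have hqA : (q : A) ∈ maximalIdeal A := (mem_maximalIdeal _).2 hu
  have hcop : IsCoprime (p : ℤ) (q : ℤ) :=
    Nat.isCoprime_iff_coprime.2 ((Nat.coprime_primes hp hq).2 (Ne.symm hqp))
  obtain ⟨a, b, hab⟩ := hcop
  have h1 : ((a : A) * (p : A) + (b : A) * (q : A)) = 1 := by
    have := congrArg (Int.cast : ℤ → A) hab
    push_cast at this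
    exact this
  have h2 : (1 : A) ∈ maximalIdeal A := by
    rw [← h1]
    exact Ideal.add_mem _ (Ideal.mul_mem_left _ _ hpA) (Ideal.mul_mem_left _ _ hqA)
  exact (Ideal.ne_top_iff_one _).1 (maximalIdeal.isMaximal A).ne_top h2

/-- **SELMER-q**. -/
theorem stmt_SELMERq : Fermat.Agent.S59.Asm.Stmt_SELMERq := by
  intro 𝒪 _ _ _ _ _ p _ hp2 hp𝒪 fl ρbar Smin Sig q hq hqp hqSmin hqSig hpSmin hprime D D' τ hτ heq
    x P hP φ hφ hc hfin
  classical
  have hp : p.Prime := Fact.out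
  have h𝒟 : GaloisRep.IsDeformationCondition 𝒪 (cond 𝒪 p fl Smin Sig) := by
    rw [H99.cond_eq_condB]
    exact H99.isDeformationCondition_condB 𝒪 p hp2 fl Smin Sig
  have hτs : Function.Surjective τ :=
    Asm.H99.surjective_of_isEquiv h𝒟 D D'.ρ D'.residual_isEquiv τ hτ heq
  have hD : H99.condB 𝒪 p fl Smin Sig D.ρ := (cond_iff_condB p fl Smin Sig D.ρ).1 D.isOfType
  have hD' : H99.condB 𝒪 p fl Smin (insert q Sig) D'.ρ :=
    (cond_iff_condB p fl Smin (insert q Sig) D'.ρ).1 D'.isOfType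
  have hqS : q ∉ Smin ∪ Sig := fun h =>
    (Finset.mem_union.1 h).elim hqSmin hqSig
  have hDunr : D.ρ.IsUnramifiedAt q := hD.1.2.1 q hq hqS
  -- matrix forms
  obtain ⟨r', b', hb'⟩ := exists_isMatOf D'.ρ
  have hr' : IsMatOf D'.ρ r' := ⟨b', hb'⟩
  have hmat' : ∀ σ, Fermat.Agent.S59.TWGal.mat b' (D'.ρ.ρ σ) = r' σ := hb'
  obtain ⟨b1, hb1⟩ : IsMatOf D.ρ (fun σ => (r' σ).map (τ : D'.R →+* D.R)) :=
    Asm.H99.isMatOf_of_isEquiv (hr'.baseChangeAlong (τ : D'.R →+* D.R) hτ) heq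
  have hb1' : ∀ σ, LinearMap.toMatrix b1 b1 (D.ρ.ρ σ) = (r' σ).map (τ : D'.R →+* D.R) := hb1
  -- inertia at `q` is trivial modulo `ker τ`
  have hker1 : ∀ σ ∈ P.inertiaSubgroupIn ℚ, ∀ i j,
      (r' σ - 1) i j ∈ RingHom.ker (τ : D'.R →+* D.R) := by
    intro σ hσ i j
    have h1 : D.ρ.ρ σ = 1 := hDunr P hP σ hσ
    have h2 := hb1' σ
    rw [h1, LinearMap.toMatrix_one] at h2
    have h3 : (τ : D'.R →+* D.R) (r' σ i j) = (1 : M2 D.R) i j := (congrFun (congrFun h2 i) j).symm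
    rw [RingHom.mem_ker, Matrix.sub_apply, map_sub, h3]
    by_cases hij : i = j
    · rw [hij, Matrix.one_apply_eq, Matrix.one_apply_eq, map_one, sub_self]
    · rw [Matrix.one_apply_ne hij, Matrix.one_apply_ne hij, map_zero, sub_self]
  have hkerle : RingHom.ker (τ : D'.R →+* D.R) ≤ maximalIdeal D'.R := by
    intro y hy
    rw [mem_maximalIdeal, mem_nonunits_iff]
    intro hu
    have h1 := hu.map (τ : D'.R →+* D.R)
    rw [RingHom.mem_ker.1 hy] at h1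
    exact not_isUnit_zero h1
  have hI : ∀ σ ∈ P.inertiaSubgroupIn ℚ, ∀ v : D'.ρ.V,
      D'.ρ.ρ σ v - v ∈ maximalIdeal D'.R • (⊤ : Submodule D'.R D'.ρ.V) := by
    intro σ hσ v
    refine H59.sub_mem_smul_top_of_mat b' _ _ (fun i j => ?_) v
    rw [hmat' σ]
    exact hkerle (hker1 σ hσ i j)
  -- the tame generator
  obtain ⟨τ₀, hτ₀, htame⟩ := H59.exists_uniform_tame_generator q hq P hP φ hφ
  have hadic := H59.tame_adic D'.R p hp hD'.1.1.1 D'.ρ q hq hqp P hI φ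
    hφ.mem_decompositionSubgroup τ₀ hτ₀ htame
  have hdetT : (r' τ₀).det = 1 := by
    rw [← hb' τ₀, LinearMap.det_toMatrix]
    exact H59.det_eq_one_of_mem_inertia p hp D'.ρ hD'.1.1 q hq hqp P hP τ₀ hτ₀
  have hdetF : (r' φ).det = (q : D'.R) := by
    rw [← hb' φ, LinearMap.det_toMatrix]
    exact H59.det_frob_eq p hp D'.ρ hD'.1.1 q hq hqp P hP φ hφ
  have hFT : r' φ * r' τ₀ = r' τ₀ ^ q * r' φ := by
    have h1 := congrArg (fun f : Module.End D'.R D'.ρ.V => Fermat.Agent.S59.TWGal.mat b' f)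
      hadic.1
    simp only [map_mul, map_pow] at h1
    have e1 : LinearMap.toMatrixAlgEquiv b' (D'.ρ.ρ φ) = r' φ := hb' φ
    have e2 : LinearMap.toMatrixAlgEquiv b' (D'.ρ.ρ τ₀) = r' τ₀ := hb' τ₀
    rw [e1, e2] at h1
    exact h1
  -- the ideal generated by the entries of `T - 1`
  have hJle : Ideal.span {y | ∃ i j, (r' τ₀ - 1) i j = y} ≤ RingHom.ker (τ : D'.R →+* D.R) := by
    refine Ideal.span_le.2 ?_
    rintro y ⟨i, j, rfl⟩
    exact hker1 τ₀ hτ₀ i j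
  have hJne : Ideal.span {y | ∃ i j, (r' τ₀ - 1) i j = y} ≠ ⊤ := by
    intro h
    have h1 : (1 : D'.R) ∈ RingHom.ker (τ : D'.R →+* D.R) := hJle (h ▸ Submodule.mem_top)
    rw [RingHom.mem_ker, map_one] at h1
    exact one_ne_zero h1
  have hJτ₀ : ∀ v : D'.ρ.V, D'.ρ.ρ τ₀ v - v ∈
      Ideal.span {y | ∃ i j, (r' τ₀ - 1) i j = y} • (⊤ : Submodule D'.R D'.ρ.V) := by
    intro v
    refine H59.sub_mem_smul_top_of_mat b' _ _ (fun i j => ?_) v
    rw [hmat' τ₀]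
    exact Ideal.subset_span ⟨i, j, rfl⟩
  have hJI := hadic.2 _ hJτ₀
  have hker : RingHom.ker (τ : D'.R →+* D.R) ≤ Ideal.span {y | ∃ i j, (r' τ₀ - 1) i j = y} :=
    ker_le_of_inertia_mem p fl Smin Sig q hq D D' τ hτ heq P hP _ hJne hJI
  -- the computation
  have hqu : IsUnit (q : 𝒪) := isUnit_natCast_of_ne_prime p q hp hq hqp hp𝒪
  have hT : ∀ i j, (r' τ₀ - 1) i j ∈
      RingHom.ker ((x.comp τ : D'.R →ₐ[𝒪] 𝒪) : D'.R →+* 𝒪) := by
    intro i j
    have h1 : τ ((r' τ₀ - 1) i j) = 0 := hker1 τ₀ hτ₀ i j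
    rw [RingHom.mem_ker]
    change x (τ ((r' τ₀ - 1) i j)) = 0
    rw [h1, map_zero]
  have htr : (x.comp τ) (r' φ).trace = x (D.ρ.trace φ) := by
    change x (τ (r' φ).trace) = _
    congr 1
    unfold GaloisRepAdic.trace
    rw [LinearMap.trace_eq_matrix_trace D.R b1 (D.ρ.ρ φ), hb1' φ]
    simp only [Matrix.trace, Matrix.diag_apply, Matrix.map_apply, map_sum]
    rfl
  have hc' : ((q : 𝒪) - 1) * ((x.comp τ) (r' φ).trace ^ 2 - ((q : 𝒪) + 1) ^ 2) ≠ 0 := by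
    rw [htr]; exact hc
  obtain ⟨E, hE, hEfin, hEcard⟩ := entries_span_card_le 𝒪 (x.comp τ) q hqu (r' τ₀) (r' φ) hT
    hdetT hdetF hFT hc'
  have hS : ∀ s ∈ {y | ∃ i j, (r' τ₀ - 1) i j = y},
      s ∈ RingHom.ker ((x.comp τ : D'.R →ₐ[𝒪] 𝒪) : D'.R →+* 𝒪) := by
    rintro s ⟨i, j, rfl⟩
    exact hT i j
  obtain ⟨hfin', hcard'⟩ := card_cotangent_le τ x hτs (x.comp τ) rfl
    {y | ∃ i j, (r' τ₀ - 1) i j = y} hS (hker.trans le_sup_left) E
    (by rintro s ⟨i, j, rfl⟩; exact hE i j) hEfin hfin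
  refine ⟨hfin', hcard'.trans ?_⟩
  rw [htr] at hEcard
  exact Nat.mul_le_mul_left _ hEcard

end Fermat.Agent.S59.Asm.H80

end
-- ==== END Fermat.Agent.S59.Asm.H80_Selmer

-- ==== BEGIN Fermat.Agent.S59.CaseC.Geom.H61_CHEBkp
section

/-!
# S59, case C, PGEOM leaf CHEB-kp (helper61)

`stmt_CHEBkp : Stmt_CHEBkp` : the auxiliary primes of Ihara's lemma for `q = p`
(`Geom.H61.chebk_core` with `q := p`; its proof never uses `q ≠ p`).
-/

set_option autoImplicit false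

namespace Fermat.Agent.S59.CaseC.Geom.H61

/-- **CHEB-kp**. -/
theorem stmt_CHEBkp : Stmt_CHEBkp := by
  intro 𝒪 _ _ _ _ p _ hp2 _ ρbar Smin hres N _ S θ hθ M hM hpM S'
  exact Fermat.Agent.S59.NonMin.Geom.H61.chebk_core 𝒪 p hp2 ρbar Smin hres N S θ hθ p
    Fact.out M hM hpM S'

end Fermat.Agent.S59.CaseC.Geom.H61

end
-- ==== END Fermat.Agent.S59.CaseC.Geom.H61_CHEBkp

-- ==== BEGIN Fermat.Agent.S59.LL.SQ.H33_CompEisMain
section
attribute [local instance 10000] SubalgebraClass.toAlgebra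
attribute [local instance 10000] HahnSeries.powerSeriesAlgebra

/-!
# S59 / LL / SQ, leaf (E) COMP-EIS at `q²` (helper33): assembly

`compEisSqAt_of_nv : NV20At → NV11At → NV02At → CompEisSqAt`  and
`stmt_CompEisSq_of : Stmt_NV11 → Stmt_CompEisSq` (NV20, NV02 are proved in `H33_CompEisNV`).

Proof: Hilbert 90 (`hecke_kummer`): `x = [D]`, `p D = div f`, `f ∈ L₀`, and
`T_ℓ f = c f ^ t₀ g ^ p` with `g ∈ L₀`, `c` a constant of the inertia field, `t₀ ≡ t_ℓ mod p`.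
NORM-VAL3: the valuation vector of `T_ℓ f` is `(ℓ + 1)` times that of `f` (`nv_one`).  So
`(ℓ + 1 - t₀) ν(f) ≡ m (1, q - 1, 1) mod p`, and `ℓ + 1 - t₀` is a unit modulo `p` (not
Eisenstein): `h = f q ^ m' G ^ p` is a unit for the three valuations (`unit3_of_eigen`).
-/

set_option autoImplicit false
set_option synthInstance.maxHeartbeats 400000
set_option maxHeartbeats 1000000
set_option linter.style.haveILetI false
set_option linter.unusedSectionVars false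
set_option linter.unusedVariables false

noncomputable section

open ModularCurve AlgebraicCurve
open Fermat.Agent.S24 Fermat.Agent.BAD.H88 Fermat.Agent.S28 Fermat.Agent.S28.H73
open Fermat.Agent.RED.H73 Fermat.Agent.RED.H17 Fermat.Agent.S36.NU.H88
open Fermat.Agent.S36.NU.H23 Fermat.Agent.BAD Fermat.Agent.RED
open Fermat.Agent.S36.NU.H82 Fermat.Agent.S36.NU.H16

namespace Fermat.Agent.S59.LL.SQ.H33

/-! ## `T_ℓ` on the inertia-fixed functions -/

section TL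

variable (A : ValuationSubring Kbar) (N : ℕ) [NeZero N] (ℓ : ℕ) [NeZero ℓ]

theorem heckeNormFn_mem_L0 (x : FN N) (hx : x ∈ L0 A N) :
    Fermat.Agent.GTor.H2.heckeNormFn Kbar N ℓ x ∈ L0 A N := fun σ hσ =>
  heckeNormFn_fix N ℓ σ x (hx σ hσ)

/-- `T_ℓ` on `L₀`. -/
def TL : ↥(L0 A N) →* ↥(L0 A N) where
  toFun x := ⟨Fermat.Agent.GTor.H2.heckeNormFn Kbar N ℓ (x : FN N),
    heckeNormFn_mem_L0 A N ℓ (x : FN N) x.2⟩
  map_one' := Subtype.ext (heckeNormFn_one N ℓ)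
  map_mul' x y := Subtype.ext (heckeNormFn_mul N ℓ (x : FN N) (y : FN N))

theorem coe_TL (x : ↥(L0 A N)) :
    ((TL A N ℓ x : ↥(L0 A N)) : FN N) = Fermat.Agent.GTor.H2.heckeNormFn Kbar N ℓ (x : FN N) :=
  rfl

theorem coe_natCast_L0' (q : ℕ) : (((q : ℕ) : ↥(L0 A N)) : FN N) = ((q : ℕ) : FN N) :=
  map_natCast (L0 A N).subtype q

theorem TL_natCast (hℓ : ℓ.Prime) (hℓN : ¬ ℓ ∣ N) (q : ℕ) :
    TL A N ℓ ((q : ℕ) : ↥(L0 A N)) = ((q : ℕ) : ↥(L0 A N)) ^ (ℓ + 1) := by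
  apply Subtype.ext
  rw [coe_TL, coe_natCast_L0']
  have e : ((q : ℕ) : FN N) = algebraMap Kbar (FN N) (q : Kbar) := (map_natCast _ q).symm
  rw [e, heckeNormFn_const N ℓ hℓ hℓN, map_pow, ← e]
  show _ = (L0 A N).subtype (((q : ℕ) : ↥(L0 A N)) ^ (ℓ + 1))
  rw [map_pow, map_natCast]

/-- Units of a restricted valuation ring. -/
theorem val_res_eq_one_iff {F : Type} [Field F] (L₀ : Subfield F) (V : ValuationSubring F)
    (x : ↥L₀) : (resV0 L₀ V).valuation x = 1 ↔ IsVU V (x : F) := by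
  rw [valuation_resV0_eq_one_iff]
  constructor
  · intro h
    have h0 : (x : F) ≠ 0 := by
      intro h0
      rw [h0, map_zero] at h
      exact zero_ne_one h
    exact ⟨h0, mem_and_inv_mem_of_val_eq_one V h⟩
  · rintro ⟨h0, h1, h2⟩
    exact valuation_eq_one_of_mem_inv_mem V h0 h1 h2

/-- The preservation of units, for a restricted valuation ring. -/
theorem TL_unit (W : ValuationSubring (FN N))
    (hW : ∀ f : FN N, f ∈ L0 A N → IsVU W f →
      IsVU W (Fermat.Agent.GTor.H2.heckeNormFn Kbar N ℓ f))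
    (u : ↥(L0 A N)) (hu : (resV0 (L0 A N) W).valuation u = 1) :
    (resV0 (L0 A N) W).valuation (TL A N ℓ u) = 1 := by
  rw [val_res_eq_one_iff] at hu ⊢
  exact hW (u : FN N) u.2 hu

/-- The value of a constant of the inertia field, for a restricted valuation ring. -/
theorem val_res_const (q : ℕ) (W : ValuationSubring (FN N))
    (hW : ∀ c : Kbar, algebraMap Kbar (FN N) c ∈ W ↔ c ∈ A)
    (c : Kbar) (m : ℤ) (hm : A.valuation c = A.valuation (q : Kbar) ^ m)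
    (hc : algebraMap Kbar (FN N) c ∈ L0 A N) :
    (resV0 (L0 A N) W).valuation (⟨algebraMap Kbar (FN N) c, hc⟩ : ↥(L0 A N))
      = (resV0 (L0 A N) W).valuation ((q : ℕ) : ↥(L0 A N)) ^ m := by
  rw [← map_zpow₀, valuation_resV0_eq_iff, Fermat.Agent.S36.NU.H51.coe_natCast_zpow_L0]
  have h1 : A.valuation c = A.valuation ((q : Kbar) ^ m) := by rw [map_zpow₀]; exact hm
  have h2 := val_algebraMap_congr A W hW h1
  rw [h2, map_zpow₀, map_natCast]

theorem val_res_natCast_lt_one (q : ℕ) (hA : A.LiesOverPrime q) (W : ValuationSubring (FN N))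
    (hW : ∀ c : Kbar, algebraMap Kbar (FN N) c ∈ W ↔ c ∈ A) :
    (resV0 (L0 A N) W).valuation ((q : ℕ) : ↥(L0 A N)) < 1 := by
  rw [valuation_resV0_lt_one_iff, coe_natCast_L0']
  have e : ((q : ℕ) : FN N) = algebraMap Kbar (FN N) (q : Kbar) := (map_natCast _ q).symm
  rw [e]
  exact val_const_lt_one A W hW _ hA

end TL

/-! ## The assembly -/

section Main

variable (A : ValuationSubring Kbar) (q M : ℕ) (B k : ℤ) (hB : B * M + k * q = 1) (hq : q.Prime)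
  [NeZero M] [NeZero q] [NeZero (M * q)] [NeZero (M * q * q)]

/-- A function of valuation `1` for the three valuations is a unit for the three valuations. -/
theorem isUnit3_of_val (h : ↥(L0 A (M * q * q)))
    (h1 : (V20o A q M).valuation h = 1) (h2 : (V11o A q M B k hB hq).valuation h = 1)
    (h3 : (V02o A q M B k hB).valuation h = 1) : IsUnit3 A q M B k hB hq h := by
  have key : ∀ (V : ValuationSubring ↥(L0 A (M * q * q))) (s : ↥V →+* LaurentSeries (kV A)),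
      V.valuation h = 1 → ∃ hm : h ∈ V, s ⟨h, hm⟩ ≠ 0 := by
    intro V s hv
    have hm : h ∈ V := (ValuationSubring.valuation_le_one_iff V h).1 hv.le
    refine ⟨hm, ?_⟩
    have hu : IsUnit (⟨h, hm⟩ : ↥V) := (ValuationSubring.valuation_eq_one_iff V ⟨h, hm⟩).2 hv
    exact (hu.map s).ne_zero
  exact ⟨key _ _ h1, key _ _ h2, key _ _ h3⟩

/-- `n - t₀` is invertible modulo `p` (not Eisenstein). -/
theorem exists_bezout (p : ℕ) (hp : p.Prime) (ℓ t₀ : ℕ) (t : ℤ)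
    (ht₀ : ((t₀ : ℤ) : ZMod p) = (t : ZMod p))
    (hne : ((t : ℤ) : ZMod p) ≠ 1 + (ℓ : ZMod p)) :
    ∃ s' r : ℤ, ((((ℓ + 1 : ℕ)) : ℤ) - t₀) * s' = 1 + p * r := by
  have hnd : ¬ (p : ℤ) ∣ (((ℓ + 1 : ℕ)) : ℤ) - t₀ := by
    intro hd
    have h0 := (ZMod.intCast_zmod_eq_zero_iff_dvd _ p).2 hd
    apply hne
    rw [← ht₀]
    have h1 : (((((ℓ + 1 : ℕ)) : ℤ) - t₀ : ℤ) : ZMod p)
        = (1 + (ℓ : ZMod p)) - ((t₀ : ℤ) : ZMod p) := by
      push_cast
      ring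
    rw [h1] at h0
    exact (sub_eq_zero.1 h0).symm
  have hpp : Prime (p : ℤ) := Nat.prime_iff_prime_int.1 hp
  have hcop : IsCoprime (p : ℤ) ((((ℓ + 1 : ℕ)) : ℤ) - t₀) :=
    (Prime.coprime_iff_not_dvd hpp).2 hnd
  obtain ⟨u, v, huv⟩ := hcop
  exact ⟨v, -u, by linear_combination huv⟩

/-- **(E) from NORM-VAL3**, at one level. -/
theorem compEisSqAt_of_nv (hqM : ¬ q ∣ M) (hA : A.LiesOverPrime q) (p : ℕ) (hp : p.Prime)
    (h20 : NV20At A q M) (h11 : NV11At A q M B k hB hq) (h02 : NV02At A q M B k hB) :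
    CompEisSqAt A q M B k hB hq p := by
  intro S t x hpx hnew hI hT hNE
  obtain ⟨ℓ, hℓ, hℓS, hℓN, hℓp, hne⟩ := hNE
  haveI : NeZero ℓ := ⟨hℓ.ne_zero⟩
  obtain ⟨D, f, g, c, t₀, hf0, hg0, hc0, hxD, hDf, hffix, hgfix, hcfix, ht₀, hrel⟩ :=
    hecke_kummer (M * q * q) (A.inertiaSubgroupIn ℚ) p hp ℓ hℓ (t ℓ) x hpx hI
      (hT ⟨ℓ, hℓ⟩ hℓS hℓN hℓp)
  -- the functions of `L₀`
  have hfL : f ∈ L0 A (M * q * q) := fun σ hσ => hffix σ hσ
  have hgL : g ∈ L0 A (M * q * q) := fun σ hσ => hgfix σ hσ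
  have hcL : algebraMap Kbar (FN (M * q * q)) c ∈ L0 A (M * q * q) :=
    (const_mem_L0_iff A c).2 hcfix
  have hfL0 : (⟨f, hfL⟩ : ↥(L0 A (M * q * q))) ≠ 0 := fun h0 => hf0 (congrArg Subtype.val h0)
  have hgL0 : (⟨g, hgL⟩ : ↥(L0 A (M * q * q))) ≠ 0 := fun h0 => hg0 (congrArg Subtype.val h0)
  have hrelL : TL A (M * q * q) ℓ (⟨f, hfL⟩ : ↥(L0 A (M * q * q)))
      = (⟨algebraMap Kbar (FN (M * q * q)) c, hcL⟩ : ↥(L0 A (M * q * q)))
        * (⟨f, hfL⟩ : ↥(L0 A (M * q * q))) ^ t₀ * (⟨g, hgL⟩ : ↥(L0 A (M * q * q))) ^ p := by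
    apply Subtype.ext
    rw [coe_TL]
    exact hrel
  -- the uniformisers
  have hQ0 : ((q : ℕ) : ↥(L0 A (M * q * q))) ≠ 0 := piE_ne_zero A q (M * q * q) hq
  have hpi0 : pi11 A q M ≠ 0 := by
    intro h0
    have h1 := Fermat.Agent.S36.NU.H51.hram11' A q M B k hB hq hA
    rw [h0, map_zero, zero_pow (Nat.sub_pos_of_lt hq.one_lt).ne'] at h1
    exact hQ0 ((Valuation.zero_iff _).1 h1)
  have hQ₁ : (V20o A q M).valuation ((q : ℕ) : ↥(L0 A (M * q * q))) < 1 :=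
    val_res_natCast_lt_one A (M * q * q) q hA (V20 A (M * q * q)) (const_mem20 A (M * q * q))
  have hπ₂ : (V11o A q M B k hB hq).valuation (pi11 A q M) < 1 :=
    val_pi11_lt_one A q M B k hB hq hA
  have hQ₃ : (V02o A q M B k hB).valuation ((q : ℕ) : ↥(L0 A (M * q * q))) < 1 :=
    val_res_natCast_lt_one A (M * q * q) q hA (V02 A (M * q * q) q M B k (lvl q M) hB)
      (const_mem02 A (M * q * q) q M B k (lvl q M) hB)
  obtain ⟨t₂, ht₂⟩ := Fermat.Agent.S36.NU.H51.exists_t11 A q M B k hB hq hqM hA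
  obtain ⟨t₃, ht₃⟩ := Fermat.Agent.S36.NU.H51.exists_t02 A q M B k hB hq hqM hA
  -- the constant
  obtain ⟨m, hm⟩ := valuation_Kur A hq hA c hcfix hc0
  have hc₁ : (V20o A q M).valuation
      (⟨algebraMap Kbar (FN (M * q * q)) c, hcL⟩ : ↥(L0 A (M * q * q)))
      = (V20o A q M).valuation ((q : ℕ) : ↥(L0 A (M * q * q))) ^ m :=
    val_res_const A (M * q * q) q (V20 A (M * q * q)) (const_mem20 A (M * q * q)) c m hm hcL
  have hc₂ : (V11o A q M B k hB hq).valuation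
      (⟨algebraMap Kbar (FN (M * q * q)) c, hcL⟩ : ↥(L0 A (M * q * q)))
      = (V11o A q M B k hB hq).valuation ((q : ℕ) : ↥(L0 A (M * q * q))) ^ m :=
    val_res_const A (M * q * q) q (V11 A (M * q * q) q M B k (lvl q M) hB hq)
      (const_mem11 A (M * q * q) q M B k (lvl q M) hB hq) c m hm hcL
  have hc₃ : (V02o A q M B k hB).valuation
      (⟨algebraMap Kbar (FN (M * q * q)) c, hcL⟩ : ↥(L0 A (M * q * q)))
      = (V02o A q M B k hB).valuation ((q : ℕ) : ↥(L0 A (M * q * q))) ^ m :=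
    val_res_const A (M * q * q) q (V02 A (M * q * q) q M B k (lvl q M) hB)
      (const_mem02 A (M * q * q) q M B k (lvl q M) hB) c m hm hcL
  -- Bezout
  obtain ⟨s', r, hs⟩ := exists_bezout p hp ℓ t₀ (t ℓ) ht₀ hne
  -- the valuation-vector argument
  obtain ⟨m', G, hG0, hv₁, hv₂, hv₃⟩ := unit3_of_eigen (V20o A q M) (V11o A q M B k hB hq)
    (V02o A q M B k hB) ((q : ℕ) : ↥(L0 A (M * q * q))) (pi11 A q M) t₂ t₃ (q - 1)
    (Nat.sub_pos_of_lt hq.one_lt) hQ0 hpi0 hQ₁ hπ₂ hQ₃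
    (Fermat.Agent.S36.NU.H51.exact20 A q M B k hB hq hqM hA)
    (Fermat.Agent.S36.NU.H51.exact11 A q M B k hB hq hqM hA)
    (Fermat.Agent.S36.NU.H51.exact02 A q M B k hB hq hqM hA)
    (Fermat.Agent.S36.NU.H51.hram11' A q M B k hB hq hA) ht₂ ht₃
    (TL A (M * q * q) ℓ) (ℓ + 1) (TL_natCast A (M * q * q) ℓ hℓ hℓN q)
    (TL_unit A (M * q * q) ℓ (V20 A (M * q * q)) (h20 ℓ hℓ hℓN))
    (TL_unit A (M * q * q) ℓ (V11 A (M * q * q) q M B k (lvl q M) hB hq) (h11 ℓ hℓ hℓN))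
    (TL_unit A (M * q * q) ℓ (V02 A (M * q * q) q M B k (lvl q M) hB) (h02 ℓ hℓ hℓN))
    (⟨f, hfL⟩ : ↥(L0 A (M * q * q))) (⟨g, hgL⟩ : ↥(L0 A (M * q * q)))
    (⟨algebraMap Kbar (FN (M * q * q)) c, hcL⟩ : ↥(L0 A (M * q * q))) hfL0 hgL0 t₀ p hrelL m
    hc₁ hc₂ hc₃ s' r hs
  refine ⟨(⟨f, hfL⟩ : ↥(L0 A (M * q * q))) * ((q : ℕ) : ↥(L0 A (M * q * q))) ^ m' * G ^ p, ?_,
    isUnit3_of_val A q M B k hB hq _ hv₁ hv₂ hv₃⟩
  -- the Kummer function
  haveI : HasPrincipalDivisors Kbar (FN (M * q * q)) :=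
    Fermat.Agent.RED.H51.stmt_FFB_principal Kbar (FN (M * q * q))
      (Fermat.Agent.RED.H95.isFF_FN (M * q * q))
  have hG0' : (G : FN (M * q * q)) ≠ 0 := fun h0 => hG0 (Subtype.ext h0)
  obtain ⟨E, hE, hEdeg⟩ :=
    HasPrincipalDivisors.exists_divisor (K := Kbar) (G : FN (M * q * q)) hG0'
  have hE₀ : Pic0.mk (⟨E, hEdeg⟩ : Divisor.degZero (K := Kbar) (F := FN (M * q * q))) = 0 :=
    (Fermat.Agent.GTor.H33.mk_eq_zero_iff _).2 ⟨(G : FN (M * q * q)), hG0', hE⟩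
  refine ⟨D + (⟨E, hEdeg⟩ : Divisor.degZero (K := Kbar) (F := FN (M * q * q))), ?_, ?_⟩
  · rw [Pic0.mk_add, hE₀, add_zero]
    exact hxD
  · intro P
    set c₀ : Kbar := ((q : ℕ) : Kbar) ^ m' with hc₀
    have hq0 : ((q : ℕ) : Kbar) ≠ 0 := Nat.cast_ne_zero.mpr hq.ne_zero
    have hc₀0 : c₀ ≠ 0 := zpow_ne_zero _ hq0
    have hC0 : algebraMap Kbar (FN (M * q * q)) c₀ ≠ 0 :=
      (map_ne_zero (algebraMap Kbar (FN (M * q * q)))).2 hc₀0
    have hcoe : (((⟨f, hfL⟩ : ↥(L0 A (M * q * q))) * ((q : ℕ) : ↥(L0 A (M * q * q))) ^ m'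
        * G ^ p : ↥(L0 A (M * q * q))) : FN (M * q * q))
        = f * algebraMap Kbar (FN (M * q * q)) c₀ * (G : FN (M * q * q)) ^ p := by
      rw [hc₀, map_zpow₀, map_natCast]
      push_cast
      rfl
    rw [hcoe, Place.ord_mul P (mul_ne_zero hf0 hC0) (pow_ne_zero _ hG0'),
      Place.ord_mul P hf0 hC0, Fermat.Agent.RED.H17.ord_pow, Fermat.Agent.RED.H17.ord_algebraMap,
      add_zero, ← hDf P, ← hE P]
    show (p : ℤ) * ((D : Divisor Kbar (FN (M * q * q))) + E) P = _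
    rw [Finsupp.add_apply, mul_add]

end Main

/-- **(E) from NV11** (NV20 and NV02 are proved in `H33_CompEisNV`). -/
theorem stmt_CompEisSq_of (h11 : Stmt_NV11) : Fermat.Agent.S59.LL.SQ.Stmt_CompEisSq := by
  intro p hp hp2 q M B k hB hq _ _ _ _ hqp hqM A hA
  exact compEisSqAt_of_nv A q M B k hB hq hqM hA p hp
    (stmt_NV20 A q M hq hqM hA) (h11 A q M B k hB hq hqM hA) (stmt_NV02 A q M B k hB hq hqM hA)

end Fermat.Agent.S59.LL.SQ.H33

end
end
-- ==== END Fermat.Agent.S59.LL.SQ.H33_CompEisMain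

-- ==== BEGIN Fermat.Agent.S59.LL.SQ.H35_RDefs
section
attribute [local instance 10000] SubalgebraClass.toAlgebra
attribute [local instance 10000] HahnSeries.powerSeriesAlgebra

/-!
# S59 / LL / SQ, leaf (R) OLD-RED at `q²` (helper35): the two geometric inputs

Level `N = M q²`, `q ∤ M`, `A` over `q`, `L₀ = L0 A N`.

* `Reg11At p` : **REG** for the component `11`: if `p D = div h` on the generic fibre, `h ∈ L₀` a
  unit for the three valuations, then `p` divides the divisor of the reduction `r₁₁ h` on the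
  reduced curve of level `M` (owners: helper16 REG-TAME, helper94 REG-UP);
* `CPow2002At p` : **B2** for the components `20` and `02`: the reductions at `V₂₀` and `V₀₂` of
  a Kummer function of a `q`-new inertia-fixed `p`-torsion point, unit for the three valuations,
  are constants times `p`-th powers (owner: helper87).
-/

set_option autoImplicit false
set_option synthInstance.maxHeartbeats 400000
set_option maxHeartbeats 1000000
set_option linter.unusedSectionVars false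
set_option linter.unusedVariables false
set_option linter.style.haveILetI false

noncomputable section

open ModularCurve AlgebraicCurve
open Fermat.Agent.S24 Fermat.Agent.S28 Fermat.Agent.S28.H73 Fermat.Agent.RED.H73
open Fermat.Agent.RED Fermat.Agent.S36.NU.H23 Fermat.Agent.S44 Fermat.Agent.S35.H89
open Fermat.Agent.BAD.H88

namespace Fermat.Agent.S59.LL.SQ.H35

section Defs

variable (A : ValuationSubring Kbar) (q M : ℕ) (B k : ℤ) (hB : B * M + k * q = 1) (hq : q.Prime)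
  [NeZero M] [NeZero q] [NeZero (M * q)] [NeZero (M * q * q)]
  (hqM : ¬ q ∣ M) (hA : A.LiesOverPrime q)

/-- **REG** for the component `11`. -/
def Reg11At (p : ℕ) : Prop :=
  ∀ (h : ↥(L0 A (M * q * q))) (D : Divisor Kbar (FN (M * q * q))),
    (∀ P : Place Kbar (FN (M * q * q)), (p : ℤ) * D P = P.ord (h : FN (M * q * q))) →
    SQ.IsUnit3 A q M B k hB hq h →
    ∀ (h11 : h ∈ V11o A q M B k hB hq) (Q : Place (kV A) (FM A M)),
      (p : ℤ) ∣ Q.ord (r11 A q M B k hB hq hqM hA ⟨h, h11⟩)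

/-- **B2** for the components `20` and `02`. -/
def CPow2002At (p : ℕ) : Prop :=
  ∀ (x : JZero (M * q * q)) (h : ↥(L0 A (M * q * q))), (p : ℤ) • x = 0 →
    IsQNew (M * q) q x →
    (∀ σ ∈ A.inertiaSubgroupIn ℚ, σ • x = x) → SQ.IsKum A q M p x h →
    SQ.IsUnit3 A q M B k hB hq h →
    (∃ (h20 : h ∈ V20o A q M) (c : kV A) (g : ↥(V20o A q M)), c ≠ 0 ∧ s20 A q M g ≠ 0 ∧
        s20 A q M ⟨h, h20⟩ = algebraMap (kV A) (LaurentSeries (kV A)) c * s20 A q M g ^ p) ∧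
    (∃ (h02 : h ∈ V02o A q M B k hB) (c : kV A) (g : ↥(V02o A q M B k hB)), c ≠ 0 ∧
        s02 A q M B k hB g ≠ 0 ∧
        s02 A q M B k hB ⟨h, h02⟩
          = algebraMap (kV A) (LaurentSeries (kV A)) c * s02 A q M B k hB g ^ p)

end Defs

end Fermat.Agent.S59.LL.SQ.H35

end
end
-- ==== END Fermat.Agent.S59.LL.SQ.H35_RDefs

-- ==== BEGIN Fermat.Agent.S59.LL.SQ.H38_UpDefs
section

/-!
# S59 / LL / SQ, tame → all levels (helper38): the level-raising inclusion `F_{M q²} ⊂ F_{M₂ q²}`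

`M ∣ M₂`.  The upper level is written `M₂ * q * q` (a VARIABLE `M₂`), so that the objects of
`SQ/Defs.lean` (`InT3 A q M₂ …`, `TorSpanSqAt A q M₂ …`) apply to the pull-backs WITHOUT casts;
the consumer takes `M₂ = M * ℓ` or `ℓ * M` as he likes.

* `upF M q M₂ h : F_{M q²} →ₐ F_{M₂ q²}` the inclusion (`= inclFN`), `coe_upF`, `upF_integral`,
  `upF_FI`;
* `upL0 A M q M₂ h : L0 A (M q²) →+* L0 A (M₂ q²)` on the inertia-fixed functions;
* `upPull M q M₂ h : J₀(M q²) →+ J₀(M₂ q²)` the pull-back `ι^*` (`= FL.H2.levelPull`),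
  `upPull_mk`, `upPull_eq_pic0Pull` (`= H40.pic0Pull (upF …)`), `upPull_smul` (Galois),
  `upPull_injective_of_torsion` (`M₂ ∣ 36 M`), `upPull_kummer`.
-/

set_option autoImplicit false
set_option linter.style.haveILetI false
set_option linter.unusedSectionVars false

noncomputable section

open ModularCurve AlgebraicCurve
open Fermat.Agent.S24 Fermat.Agent.S36.NU.H23 Fermat.Agent.Lib.HeckeComm
open Fermat.Agent.NEB.H14 Fermat.Agent.RED

namespace Fermat.Agent.S59.LL.SQ.H38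

section Up

variable (A : ValuationSubring Kbar) (M q M₂ : ℕ) [NeZero (M * q * q)] [NeZero (M₂ * q * q)]

omit [NeZero (M * q * q)] [NeZero (M₂ * q * q)] in
theorem dvd_upLevel (h : M ∣ M₂) : M * q * q ∣ M₂ * q * q :=
  Nat.mul_dvd_mul_right (Nat.mul_dvd_mul_right h q) q

/-- `F_{M q²} ≤ F_{M₂ q²}`. -/
theorem le_upLevel (h : M ∣ M₂) :
    modularFunctionFieldBar (M * q * q) ≤ modularFunctionFieldBar (M₂ * q * q) :=
  modularFunctionFieldBar_mono (dvd_upLevel M q M₂ h)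

/-- The inclusion `ι : F_{M q²} → F_{M₂ q²}`. -/
def upF (h : M ∣ M₂) : FN (M * q * q) →ₐ[Kbar] FN (M₂ * q * q) :=
  inclFN (M * q * q) (M₂ * q * q) (dvd_upLevel M q M₂ h)

@[simp]
theorem coe_upF (h : M ∣ M₂) (x : FN (M * q * q)) :
    (upF M q M₂ h x : LaurentSeries Kbar) = (x : LaurentSeries Kbar) :=
  coe_inclFN _ _ _ x

theorem upF_eq_inclusion (h : M ∣ M₂) (x : FN (M * q * q)) :
    upF M q M₂ h x = IntermediateField.inclusion (le_upLevel M q M₂ h) x := rfl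

theorem upF_injective (h : M ∣ M₂) : Function.Injective (upF M q M₂ h) :=
  (upF M q M₂ h).toRingHom.injective

theorem upF_jdF (h : M ∣ M₂) (d : ℕ) [NeZero d] (hd : d ∣ M * q * q) :
    upF M q M₂ h (jdF (M * q * q) d hd)
      = jdF (M₂ * q * q) d (hd.trans (dvd_upLevel M q M₂ h)) :=
  inclFN_jdF _ _ _ d hd

theorem upF_integral (h : M ∣ M₂) : (upF M q M₂ h).toRingHom.IsIntegral :=
  (Fermat.Agent.RED.H51.stmt_FFB_finite Kbar _ _ (H95.stmt_HKA_isFF (M * q * q))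
    (H95.stmt_HKA_isFF (M₂ * q * q)) (upF M q M₂ h)).1

theorem upF_FI (h : M ∣ M₂) : haveI := H40.hasPD_FN (M₂ * q * q)
    FundamentalIdentityAlong Kbar (upF M q M₂ h) (upF_integral M q M₂ h) :=
  Fermat.Agent.RED.H51.stmt_FFB_fundamental Kbar _ _ (H95.stmt_HKA_isFF (M * q * q))
    (H95.stmt_HKA_isFF (M₂ * q * q)) (upF M q M₂ h) (upF_integral M q M₂ h)
    (H40.hasPD_FN (M₂ * q * q))

/-- The inclusion on the inertia-fixed functions. -/
def upL0 (h : M ∣ M₂) : ↥(L0 A (M * q * q)) →+* ↥(L0 A (M₂ * q * q)) :=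
  inclL0 A (le_upLevel M q M₂ h)

@[simp]
theorem coe_upL0 (h : M ∣ M₂) (x : ↥(L0 A (M * q * q))) :
    ((upL0 A M q M₂ h x : ↥(L0 A (M₂ * q * q))) : FN (M₂ * q * q))
      = upF M q M₂ h (x : FN (M * q * q)) := rfl

theorem coe_upL0_series (h : M ∣ M₂) (x : ↥(L0 A (M * q * q))) :
    (((upL0 A M q M₂ h x : ↥(L0 A (M₂ * q * q))) : FN (M₂ * q * q)) : LaurentSeries Kbar)
      = ((x : FN (M * q * q)) : LaurentSeries Kbar) := by
  rw [coe_upL0, coe_upF]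

/-- The pull-back `ι^* : J₀(M q²) → J₀(M₂ q²)`. -/
def upPull (h : M ∣ M₂) : JZero (M * q * q) →+ JZero (M₂ * q * q) :=
  Fermat.Agent.FL.H2.levelPull (M * q * q) (M₂ * q * q) (dvd_upLevel M q M₂ h)

theorem upPull_mk (h : M ∣ M₂) (D : Divisor.degZero (K := Kbar) (F := FN (M * q * q))) :
    upPull M q M₂ h (Pic0.mk D)
      = Pic0.mk (degZeroMap (pullD (upF M q M₂ h))
          (isCorr_pullD (H95.stmt_HKA_isFF (M * q * q)) (H95.stmt_HKA_isFF (M₂ * q * q))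
            _).isGood D) :=
  Fermat.Agent.FL.H2.levelPull_mk _ _ _ D

/-- `upPull` is the pull-back `H40.pic0Pull` along `upF`. -/
theorem upPull_eq_pic0Pull (h : M ∣ M₂) (x : JZero (M * q * q)) :
    haveI := H40.hasPD_FN (M₂ * q * q)
    upPull M q M₂ h x
      = H40.pic0Pull (upF M q M₂ h) (upF_integral M q M₂ h) (upF_FI M q M₂ h) x := by
  haveI := H40.hasPD_FN (M₂ * q * q)
  obtain ⟨D, rfl⟩ := Pic0.mk_surjective x
  rw [upPull_mk, H40.pic0Pull_mk]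
  refine congrArg Pic0.mk (Subtype.ext ?_)
  rw [coe_degZeroMap, H40.coe_degZeroPull,
    pullD_eq (H95.stmt_HKA_isFF (M * q * q)) (H95.stmt_HKA_isFF (M₂ * q * q))]

/-- Galois equivariance. -/
theorem upPull_smul (h : M ∣ M₂) (σ : Kbar ≃ₐ[ℚ] Kbar) (x : JZero (M * q * q)) :
    upPull M q M₂ h (σ • x) = σ • upPull M q M₂ h x :=
  Fermat.Agent.FL.H2.levelPull_smul _ _ _ σ x

/-- Injectivity on torsion, for `M₂ ∣ 36 M`. -/
theorem upPull_injective_of_torsion (h : M ∣ M₂) (h36 : M₂ ∣ 36 * M) (m : ℕ) (hm : 0 < m)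
    (x : JZero (M * q * q)) (hmx : m • x = 0) (hx : upPull M q M₂ h x = 0) : x = 0 := by
  refine Fermat.Agent.FL.H2.levelPull_injective_of_torsion _ _ (dvd_upLevel M q M₂ h) ?_ m hm x
    hmx hx
  obtain ⟨c, hc⟩ := h36
  exact ⟨c, by
    calc 36 * (M * q * q) = 36 * M * (q * q) := by ring
      _ = M₂ * c * (q * q) := by rw [hc]
      _ = M₂ * q * q * c := by ring⟩

/-- Kummer form: `n D = div f ⟹ n ι^* D = div (ι f)`. -/
theorem upPull_kummer (h : M ∣ M₂) (n : ℤ) (D : Divisor Kbar (FN (M * q * q)))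
    {f : FN (M * q * q)} (hf : f ≠ 0) (hD : ∀ v, n * D v = v.ord f)
    (w : Place Kbar (FN (M₂ * q * q))) :
    n * pullD (upF M q M₂ h) D w = w.ord (upF M q M₂ h f) :=
  pullD_kummer (H95.stmt_HKA_isFF (M * q * q)) (H95.stmt_HKA_isFF (M₂ * q * q)) _ n D hf hD w

end Up

end Fermat.Agent.S59.LL.SQ.H38

end
end
-- ==== END Fermat.Agent.S59.LL.SQ.H38_UpDefs

-- ==== BEGIN Fermat.Agent.S59.LL.SQ.H46_T3Glue
section
attribute [local instance 10000] SubalgebraClass.toAlgebra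
attribute [local instance 10000] HahnSeries.powerSeriesAlgebra

/-!
# S59, package LL / SQ, step (T′), leaf I1 = T3-GLUE bridge (helper46)

Level `N = M q²`, `q ∤ M` tame, `A` over `q`, `D` a modular instance of `NUData` (`H79.IsNuM`).

* `GenModAt D n` : the hypothesis G2 (local generators at the triple points for the units `H`
  for the three valuations with `n ∣ div H`);
* `rdN_totM_of_cpow3` : for `H` with `SQ.IsCPow3 n H`, the three reductions of `H` for `totM` are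
  `n`-th powers (the constants `c_i` are absorbed by `n`-th roots in `kV A`, which is
  algebraically closed);
* `glueData_of_cpow3` : **T3-GLUE**: `SQ.IsCPow3 n H`, `n ∣ div H` and G2 give gluing invariants
  `(a, b)` for `H`, with values in `μ_n` on the triple points (by `H46.exists_glueData`).
-/

set_option autoImplicit false
set_option synthInstance.maxHeartbeats 400000
set_option maxHeartbeats 1000000
set_option linter.style.haveILetI false
set_option linter.unusedSectionVars false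
set_option linter.unusedVariables false

noncomputable section

open ModularCurve AlgebraicCurve IntermediateField

attribute [local instance] Classical.propDecidable

namespace Fermat.Agent.S59.LL.SQ.H46

open Fermat.Agent.S24 Fermat.Agent.BAD Fermat.Agent.BAD.H88 Fermat.Agent.S28 Fermat.Agent.S28.H73
  Fermat.Agent.S36.NU.H23 Fermat.Agent.S36.NU.H88 Fermat.Agent.S36.NU.H79
  Fermat.Agent.S36.NU.H74 Fermat.Agent.RED.H73 Fermat.Agent.RED

section T3Glue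

variable (A : ValuationSubring Kbar) (q M : ℕ) (B k : ℤ) (hB : B * M + k * q = 1) (hq : q.Prime)
  [NeZero M] [NeZero q] [NeZero (M * q)] [NeZero (M * q * q)]
  (hqM : ¬ q ∣ M) (hA : A.LiesOverPrime q) (ht : H91.TameAt M q)

attribute [local instance] algkM

/-- **G2** (helper84), as a hypothesis: local generators at the triple points, for the units `H`
for the three valuations whose divisor is divisible by `n`. -/
def GenModAt (D : NUDataM A q M) (n : ℕ) : Prop :=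
  ∀ H : ↥(L0 A (M * q * q)), (∀ i, D.T.rdN i H ≠ 0) →
    (∀ P : Place Kbar (FN (M * q * q)), (n : ℤ) ∣ P.ord (H : FN (M * q * q))) →
    ∀ z ∈ D.SS, ∃ s, D.IsGen n z H s

/-- Three elements of the residue field of level `M`, as a family on the three components. -/
def fam3 (G₀ G₁ G₂ : FM A M) : ∀ i : Fin 3, kap3 (FM A M) (FM A M) i
  | 0 => G₀
  | 1 => G₁
  | 2 => G₂

/-- A constant times an `n`-th power is an `n`-th power (in the residue field of level `M`, over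
the algebraically closed field `kV A`). -/
theorem exists_root_FM {n : ℕ} (hn : n ≠ 0) (c : kV A) (x y : FM A M)
    (e : ((x : FM A M) : LaurentSeries (kV A))
      = algebraMap (kV A) (LaurentSeries (kV A)) c * ((y : FM A M) : LaurentSeries (kV A)) ^ n) :
    ∃ G : FM A M, x = G ^ n := by
  haveI : IsAlgClosed (kV A) := Fermat.Agent.RED.H73.isAlgClosed_kV A
  obtain ⟨d, hd⟩ := IsAlgClosed.exists_pow_nat_eq c (Nat.pos_of_ne_zero hn)
  refine ⟨algebraMap (kV A) (FM A M) d * y, ?_⟩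
  apply Subtype.ext
  rw [e, ← hd, map_pow]
  show _ = (((algebraMap (kV A) (FM A M) d * y) ^ n : FM A M) : LaurentSeries (kV A))
  rw [mul_pow]
  rfl

/-- For `H` with `SQ.IsCPow3 n H`: the three reductions of `H` for `totM` are `n`-th powers. -/
theorem rdN_totM_of_cpow3 {n : ℕ} (hn : n ≠ 0) (H : ↥(L0 A (M * q * q)))
    (hH : SQ.IsCPow3 A q M B k hB hq n H) :
    ∃ G : ∀ i : Fin 3, kap3 (FM A M) (FM A M) i,
      ∀ i, (totM A q M B k hB hq hqM hA ht).rdN i H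
        = algebraMap (kV A) (kap3 (FM A M) (FM A M) i) 1 * G i ^ n := by
  obtain ⟨⟨h20, c₀, g₀, hc₀, hg₀, e₀⟩, ⟨h11, c₁, g₁, hc₁, hg₁, e₁⟩,
    ⟨h02, c₂, g₂, hc₂, hg₂, e₂⟩⟩ := hH
  obtain ⟨G₀, hG₀⟩ := exists_root_FM A M hn c₀ (r20 A q M hq hqM hA ⟨H, h20⟩)
    (r20 A q M hq hqM hA g₀) e₀
  obtain ⟨G₁, hG₁⟩ := exists_root_FM A M hn c₁ (r11 A q M B k hB hq hqM hA ⟨H, h11⟩)
    (r11 A q M B k hB hq hqM hA g₁) e₁
  obtain ⟨G₂, hG₂⟩ := exists_root_FM A M hn c₂ (r02 A q M B k hB hq hqM hA ⟨H, h02⟩)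
    (r02 A q M B k hB hq hqM hA g₂) e₂
  refine ⟨fam3 A M G₀ G₁ G₂, fun i => ?_⟩
  rw [map_one, one_mul]
  fin_cases i
  · exact (rdN_totM_zero A q M B k hB hq hqM hA ht H h20).trans hG₀
  · exact (rdN_totM_one A q M B k hB hq hqM hA ht H h11).trans hG₁
  · exact (rdN_totM_two A q M B k hB hq hqM hA ht H h02).trans hG₂

/-- For `H` with `SQ.IsCPow3 n H`: `H` is a unit for `totM`. -/
theorem rdN_totM_ne_zero_of_cpow3 {n : ℕ} (H : ↥(L0 A (M * q * q)))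
    (hH : SQ.IsCPow3 A q M B k hB hq n H) :
    ∀ i, (totM A q M B k hB hq hqM hA ht).rdN i H ≠ 0 := by
  obtain ⟨⟨h20, u₀⟩, ⟨h11, u₁⟩, ⟨h02, u₂⟩⟩ := hH.isUnit3
  intro i
  fin_cases i
  · exact rdN_totM_zero_ne_zero A q M B k hB hq hqM hA ht H h20 u₀
  · exact rdN_totM_one_ne_zero A q M B k hB hq hqM hA ht H h11 u₁
  · exact rdN_totM_two_ne_zero A q M B k hB hq hqM hA ht H h02 u₂

/-- **T3-GLUE**: for a modular datum `D`, a function `H` whose three reductions are constants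
times `n`-th powers, with `n ∣ div H`, has gluing invariants `(a, b)`, with values in `μ_n` on
the triple points (given G2). -/
theorem glueData_of_cpow3 (D : NUDataM A q M) (hD : IsNuM A q M B k hB hq hqM hA ht D)
    (n : ℕ) (hn : n ≠ 0) (hgen : GenModAt A q M D n)
    (H : ↥(L0 A (M * q * q))) (hH : SQ.IsCPow3 A q M B k hB hq n H)
    (hdiv : ∀ P : Place Kbar (FN (M * q * q)), (n : ℤ) ∣ P.ord (H : FN (M * q * q))) :
    ∃ a b : _ → kV A, H40.GlueData D n H a b ∧ ∀ z ∈ D.SS, a z ^ n = 1 ∧ b z ^ n = 1 := by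
  haveI : IsAlgClosed (kV A) := Fermat.Agent.RED.H73.isAlgClosed_kV A
  have hT := hD.hT
  have hu : ∀ i, D.T.rdN i H ≠ 0 := by
    rw [hT]
    exact rdN_totM_ne_zero_of_cpow3 A q M B k hB hq hqM hA ht H hH
  obtain ⟨G, hG'⟩ := rdN_totM_of_cpow3 A q M B k hB hq hqM hA ht hn H hH
  have hG : ∀ i, D.T.rdN i H = algebraMap (kV A) (kap3 (FM A M) (FM A M) i) 1 * G i ^ n := by
    rw [hT]
    exact hG'
  exact exists_glueData D (Fermat.Agent.S36.NU.H74.hasPrincipalDivisors_FN (M * q * q)) hu hG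
    one_ne_zero hn (hgen H hu hdiv)

end T3Glue

end Fermat.Agent.S59.LL.SQ.H46

end
end
-- ==== END Fermat.Agent.S59.LL.SQ.H46_T3Glue

-- ==== BEGIN Fermat.Agent.S59.LL.SQ.H64_Hor1
section
attribute [local instance 10000] SubalgebraClass.toAlgebra
attribute [local instance 10000] HahnSeries.powerSeriesAlgebra

/-!
# S59 / LL / SQ, leaf HOR1 (helper64)

`(HOR)` with exponent `E₀ = 1`: an `I`-fixed function `h` of level `N` whose divisor over `ℚ̄` is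
divisible by `n` is an `n`-th power times a unit at every valuation ring `W ≠ ⊤` of
`L₀ = F_N^I` which contains the constants.

* `stmt_UNIF1`: every place of `F_N / ℚ̄` has a uniformiser in `L0 A N`
  (= helper41's `exists_uniformizer_mem_L0`);
* `stmt_HOR1`: helper44's proof of `stmt_HOR` with `t :=` that uniformiser.
-/

set_option autoImplicit false
set_option synthInstance.maxHeartbeats 400000
set_option maxHeartbeats 1000000
set_option linter.style.haveILetI false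
set_option linter.unusedSectionVars false

noncomputable section

open ModularCurve AlgebraicCurve IntermediateField Fermat.Agent.S24 Fermat.Agent.S36.NU.H23
  Fermat.Agent.BAD.H88 Fermat.Agent.S36.NU.H44

namespace Fermat.Agent.S59.LL.SQ.H64

/-- **UNIF1**: every place of `F_N / ℚ̄` has a uniformiser in `L0 A N`. -/
theorem stmt_UNIF1 (N : ℕ) [NeZero N] (A : ValuationSubring Kbar) (P : Place Kbar (FN N)) :
    ∃ t : FN N, t ∈ L0 A N ∧ P.ord t = 1 := by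
  obtain ⟨t, ht⟩ := Fermat.Agent.S36.NU.H41.exists_uniformizer_mem_L0 A N P
  exact ⟨t, t.2, ht⟩

/-- **HOR1**: `(HOR)` with exponent `1`. -/
theorem stmt_HOR1 (N : ℕ) [NeZero N] (A : ValuationSubring Kbar) (n : ℕ) (h : ↥(L0 A N))
    (h0 : h ≠ 0) (hdiv : ∀ P : Place Kbar (FN N), (n : ℤ) ∣ P.ord (h : FN N))
    (W : ValuationSubring ↥(L0 A N))
    (hWc : ∀ c : ↥(L0 A N), (∃ c' : Kbar, (c : FN N) = algebraMap Kbar (FN N) c') → c ∈ W)
    (hW : W ≠ ⊤) :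
    ∃ s : ↥(L0 A N), s ≠ 0 ∧ h * s ^ n ∈ W ∧ (h * s ^ n)⁻¹ ∈ W := by
  obtain ⟨W', hW'⟩ := exists_valuationSubring_extension (L0 A N) W
  -- `W'` contains the constants
  have hQ : ∀ r : ℚ, algebraMap Kbar (FN N) (r : Kbar) ∈ W' := by
    intro r
    have hmem : algebraMap Kbar (FN N) (r : Kbar) ∈ L0 A N :=
      (const_mem_L0_iff A _).mpr (fun σ _ => map_ratCast σ r)
    exact (hW' ⟨_, hmem⟩).mpr (hWc ⟨_, hmem⟩ ⟨(r : Kbar), rfl⟩)
  haveI : Algebra.IsAlgebraic ℚ Kbar := AlgebraicClosure.isAlgebraic ℚ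
  have hK : ∀ c : Kbar, algebraMap Kbar (FN N) c ∈ W' := algebraMap_mem_of_rat_mem W' hQ
  have hne : W' ≠ ⊤ := by
    intro htop
    apply hW
    rw [eq_top_iff]
    intro x _
    exact (hW' x).mp (htop ▸ ValuationSubring.mem_top _)
  obtain ⟨P, hP⟩ := Fermat.Agent.RED.H42.exists_place_eq (Fermat.Agent.RED.H95.isFF_FN N) W' hK hne
  -- the uniformiser
  obtain ⟨t, htL, ht1⟩ := stmt_UNIF1 N A P
  have ht0 : t ≠ 0 := by
    intro h
    rw [h, Place.ord_zero] at ht1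
    exact zero_ne_one ht1
  obtain ⟨m, hm⟩ := hdiv P
  -- the function `s`
  have hsL : t ^ (-m) ∈ L0 A N := zpow_mem htL _
  have hs0 : t ^ (-m) ≠ 0 := zpow_ne_zero _ ht0
  have hh0' : (h : FN N) ≠ 0 := fun h1 => h0 (Subtype.ext h1)
  refine ⟨⟨t ^ (-m), hsL⟩, fun h1 => hs0 (congrArg Subtype.val h1), ?_⟩
  set u : FN N := (h : FN N) * (t ^ (-m)) ^ n with hu
  have hu0 : u ≠ 0 := mul_ne_zero hh0' (pow_ne_zero _ hs0)
  have hord : P.ord u = 0 := by
    rw [hu, P.ord_mul hh0' (pow_ne_zero _ hs0), Fermat.Agent.RED.H17.ord_pow, P.ord_zpow, hm, ht1]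
    ring
  have hcoe : ((h * (⟨t ^ (-m), hsL⟩ : ↥(L0 A N)) ^ n : ↥(L0 A N)) : FN N) = u := rfl
  have hmemu : u ∈ W' := by
    rw [← hP, Fermat.Agent.RED.H51.mem_iff_ord_nonneg P hu0, hord]
  have hmemui : u⁻¹ ∈ W' := by
    rw [← hP, Fermat.Agent.RED.H51.mem_iff_ord_nonneg P (inv_ne_zero hu0), P.ord_inv, hord]
    simp
  constructor
  · exact (hW' _).mp (hcoe ▸ hmemu)
  · refine (hW' _).mp ?_
    show ((h * (⟨t ^ (-m), hsL⟩ : ↥(L0 A N)) ^ n : ↥(L0 A N)) : FN N)⁻¹ ∈ W'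
    rw [hcoe]
    exact hmemui

end Fermat.Agent.S59.LL.SQ.H64

end
end
-- ==== END Fermat.Agent.S59.LL.SQ.H64_Hor1

-- ==== BEGIN Fermat.Agent.S59.LL.SQ23.H40_Alg
section

/-!
# S59 / LL / SQ23 (helper40): leaves S3-ALG and S3-WIRE

* `s3_alg` : the group theory of steps (e), (f): in a `3`-divisible abelian group with an action
  of `S₃ = ⟨s₀, s₁⟩`, if `x` is killed by `3`, `s₀ x = s₁ x = -x` and `x = c k₀ - k₀`
  (`c = s₀ s₁`), then there is `w` killed by `3` with `s₀ w = w` and `c w - w = -x`.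
* `sqNewTwo3_of : Stmt_S3 → LL.H40.SqNewTwoAt 3` : step (g) and the wiring: the `s₀`-fixed
  `3`-torsion contains an eigenvector `z` with the system of `x`
  (`SQ.H40.exists_eigen_of_map_eigen`), `2 z = β^* β_* z`, and `SQ.H40.eig_of_pull_span` gives the
  eigenform of level `M`.
-/

set_option autoImplicit false
set_option linter.unusedVariables false
set_option linter.style.haveILetI false
set_option maxHeartbeats 1000000

noncomputable section

namespace Fermat.Agent.S59.LL.SQ23.H40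

open AlgebraicCurve ModularCurve Fermat.Agent.S24 Fermat.Agent.S36.H44
  Fermat.Agent.S59.LL.SQ.H40 Fermat.Agent.S59.LL.SQ23 Fermat.Agent.S44 Fermat.Agent.S35.H89

/-! ## S3-ALG -/

section Alg

variable {J : Type*} [AddCommGroup J] (s0 s1 : J →+ J)

/-- The braid relation from `(s₀ s₁)³ = 1`. -/
theorem braid_of_c3 (hs0 : ∀ x, s0 (s0 x) = x) (hs1 : ∀ x, s1 (s1 x) = x)
    (hc3 : ∀ x, s0 (s1 (s0 (s1 (s0 (s1 x))))) = x) (y : J) :
    s0 (s1 (s0 y)) = s1 (s0 (s1 y)) := by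
  have h := hc3 (s1 (s0 (s1 y)))
  rw [hs1, hs0, hs1] at h
  exact h

/-- **S3-ALG**, steps (e) and (f). -/
theorem s3_alg (hs0 : ∀ x, s0 (s0 x) = x) (hs1 : ∀ x, s1 (s1 x) = x)
    (hc3 : ∀ x, s0 (s1 (s0 (s1 (s0 (s1 x))))) = x)
    (hdiv : ∀ x : J, ∃ u : J, (3 : ℤ) • u = x)
    (x k₀ : J) (h3 : (3 : ℤ) • x = 0) (hs0x : s0 x = -x) (hs1x : s1 x = -x)
    (hk : s0 (s1 k₀) - k₀ = x) :
    ∃ w : J, (3 : ℤ) • w = 0 ∧ s0 w = w ∧ s0 (s1 w) - w = -x := by
  have hbr := braid_of_c3 s0 s1 hs0 hs1 hc3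
  -- `c = s₀ s₁`
  have hcx : s0 (s1 x) = x := by rw [hs1x, map_neg, hs0x, neg_neg]
  have hck₀ : s0 (s1 k₀) = k₀ + x := by rw [← hk]; abel
  have hcck₀ : s0 (s1 (s0 (s1 k₀))) = k₀ + x + x := by
    rw [hck₀, map_add, map_add, hcx, hck₀]
  obtain ⟨u, hu⟩ := hdiv k₀
  set Nu : J := u + s0 (s1 u) + s0 (s1 (s0 (s1 u))) with hNu
  have hcNu : s0 (s1 Nu) = Nu := by
    rw [hNu, map_add, map_add, map_add, map_add, hc3]
    abel
  have h3Nu : (3 : ℤ) • Nu = k₀ + (k₀ + x) + (k₀ + x + x) := by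
    have e1 : (3 : ℤ) • s0 (s1 u) = s0 (s1 k₀) := by
      rw [← map_zsmul, ← map_zsmul, hu]
    have e2 : (3 : ℤ) • s0 (s1 (s0 (s1 u))) = s0 (s1 (s0 (s1 k₀))) := by
      rw [← map_zsmul, ← map_zsmul, e1]
    rw [hNu, smul_add, smul_add, hu, e1, e2, hcck₀, hck₀]
  set k : J := k₀ - Nu with hkdef
  have h3k : (3 : ℤ) • k = 0 := by
    rw [hkdef, smul_sub, h3Nu]
    have : (3 : ℤ) • k₀ - (k₀ + (k₀ + x) + (k₀ + x + x)) = -((3 : ℤ) • x) := by
      rw [show (3 : ℤ) = 1 + 1 + 1 from rfl, add_smul, add_smul, one_smul, add_smul, add_smul,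
        one_smul]
      abel
    rw [this, h3, neg_zero]
  have hck : s0 (s1 k) = k + x := by
    rw [hkdef, map_sub, map_sub, hcNu, hck₀]
    abel
  have hcs0 : ∀ y, s0 (s1 (s0 y)) = s0 (s0 (s1 (s0 (s1 y)))) := by
    intro y
    rw [hs0, hbr]
  have hcck : s0 (s1 (s0 (s1 k))) = k + x + x := by
    rw [hck, map_add, map_add, hcx, hck]
  have h1 : s0 (s1 (s0 k)) = s0 k + -x + -x := by
    rw [hcs0 k, hcck, map_add, map_add, hs0x]
  refine ⟨k + s0 k, ?_, ?_, ?_⟩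
  · rw [smul_add, ← map_zsmul, h3k, map_zero, add_zero]
  · rw [map_add, hs0, add_comm]
  · rw [map_add, map_add, hck, h1]
    abel

end Alg

/-! ## S3-WIRE -/

section Wire

variable {M : ℕ} [NeZero M]

/-- `s₀` commutes with the good Hecke operators (`s₀ = β^* β_* - 1`). -/
theorem hecke_s0 (D : S3Act M) (ℓ : Nat.Primes) (hℓ : ¬ (ℓ : ℕ) ∣ M * 2) (v : JZero (M * 2)) :
    heckeOperatorBar (M * 2) ℓ (D.s0 v) = D.s0 (heckeOperatorBar (M * 2) ℓ v) := by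
  have e : ∀ w : JZero (M * 2), D.s0 w = betaPull M 2 (betaPush M 2 w) - w := fun w => by
    rw [D.beta w]; abel
  rw [e v, e (heckeOperatorBar (M * 2) ℓ v), map_sub, ← betaPull_hecke M 2 ℓ hℓ,
    ← betaPush_hecke M 2 ℓ hℓ]

/-- `s₁` commutes with the good Hecke operators (`s₁ = α^* α_* - 1`). -/
theorem hecke_s1 (D : S3Act M) (ℓ : Nat.Primes) (hℓ : ¬ (ℓ : ℕ) ∣ M * 2) (v : JZero (M * 2)) :
    heckeOperatorBar (M * 2) ℓ (D.s1 v) = D.s1 (heckeOperatorBar (M * 2) ℓ v) := by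
  have e : ∀ w : JZero (M * 2), D.s1 w = alphaPull M 2 (alphaPush M 2 w) - w := fun w => by
    rw [D.alpha w]; abel
  rw [e v, e (heckeOperatorBar (M * 2) ℓ v), map_sub, ← alphaPull_hecke M 2 ℓ hℓ,
    ← alphaPush_hecke M 2 ℓ hℓ]

/-- The restriction of an endomorphism of `J₀(N)` to the `3`-torsion. -/
def torsEnd {N : ℕ} [NeZero N] (f : JZero N →+ JZero N) :
    Module.End (ZMod 3) (JTors N 3) :=
  ({ toFun := fun v => ⟨f (v : JZero N), by
        rw [Pic0.mem_torsion, ← map_zsmul, Pic0.mem_torsion.mp v.property, map_zero]⟩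
     map_zero' := by
        apply Subtype.ext
        simp
     map_add' := fun a b => by
        apply Subtype.ext
        simp } : JTors N 3 →+ JTors N 3).toZModLinearMap 3

@[simp]
theorem coe_torsEnd {N : ℕ} [NeZero N] (f : JZero N →+ JZero N) (v : JTors N 3) :
    ((torsEnd f v : JTors N 3) : JZero N) = f (v : JZero N) := rfl

/-- **SQ23 from its geometric content.** -/
theorem sqNewTwo3_of (h : Stmt_S3) : Fermat.Agent.S59.LL.H40.SqNewTwoAt 3 := by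
  classical
  intro M _ h2 h4 A hA S t x hx0 hxp hnew hI hT hNE
  obtain ⟨D, hH⟩ := h M h2 h4
  have hp : Nat.Prime 3 := Nat.prime_three
  haveI : Fact (Nat.Prime 3) := ⟨hp⟩
  have hxp3 : (3 : ℤ) • x = 0 := hxp
  obtain ⟨hα0, hβ0⟩ := (isQNew_iff M 2 x).mp hnew
  have hs0x : D.s0 x = -x := by
    have := D.beta x
    rw [hβ0, map_zero] at this
    exact (neg_eq_of_add_eq_zero_right this.symm).symm
  have hs1x : D.s1 x = -x := by
    have := D.alpha x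
    rw [hα0, map_zero] at this
    exact (neg_eq_of_add_eq_zero_right this.symm).symm
  have hcx : D.c x = x := by rw [D.c_apply, hs1x, map_neg, hs0x, neg_neg]
  obtain ⟨k₀, hk₀⟩ := hH S t x hxp3 hcx hT hNE
  have hdiv : ∀ y : JZero (M * 2), ∃ u : JZero (M * 2), (3 : ℤ) • u = y := by
    intro y
    obtain ⟨u, hu⟩ := Fermat.Agent.S43.Old.H75.divisible_all (M * 2) 3 (by norm_num) y
    exact ⟨u, by rw [show (3 : ℤ) = ((3 : ℕ) : ℤ) from rfl, natCast_zsmul]; exact hu⟩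
  obtain ⟨w, hw3, hws0, hwc⟩ := s3_alg D.s0 D.s1 D.s0_s0 D.s1_s1 D.c3 hdiv x k₀ hxp3 hs0x hs1x hk₀
  -- the `s₀`-fixed part of the `3`-torsion
  obtain ⟨⟨hfinJ, -, hTcomm, -⟩, -, -⟩ := stmt_TateModP 3 hp (by norm_num) (M * 2)
  haveI : Finite (JTors (M * 2) 3) := hfinJ
  haveI : Module.Finite (ZMod 3) (JTors (M * 2) 3) := Module.Finite.of_finite
  let ι : Type := {ℓ : Nat.Primes // (ℓ : ℕ) ∉ S ∧ ¬ (ℓ : ℕ) ∣ M * 2 ∧ (ℓ : ℕ) ≠ 3}
  let s0L : Module.End (ZMod 3) (JTors (M * 2) 3) := torsEnd D.s0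
  let cL : Module.End (ZMod 3) (JTors (M * 2) 3) := torsEnd D.c
  let Y : Submodule (ZMod 3) (JTors (M * 2) 3) := LinearMap.ker (s0L - LinearMap.id)
  have hmemY : ∀ v : JTors (M * 2) 3, v ∈ Y ↔ D.s0 (v : JZero (M * 2)) = (v : JZero (M * 2)) := by
    intro v
    rw [LinearMap.mem_ker, LinearMap.sub_apply, LinearMap.id_apply, sub_eq_zero]
    constructor
    · intro h
      exact congrArg Subtype.val h
    · intro h
      exact Subtype.ext h
  have hstab : ∀ i : ι, ∀ v ∈ Y, heckeTors (M * 2) 3 i.1 v ∈ Y := by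
    intro i v hv
    rw [hmemY] at hv ⊢
    rw [coe_heckeTors_apply, ← hecke_s0 D i.1 i.2.2.1, hv]
  let TY : ι → Module.End (ZMod 3) Y := fun i => (heckeTors (M * 2) 3 i.1).restrict (hstab i)
  let TJ : ι → Module.End (ZMod 3) (JTors (M * 2) 3) := fun i => heckeTors (M * 2) 3 i.1
  have hcommJ : ∀ i j : ι, heckeTors (M * 2) 3 i.1 * heckeTors (M * 2) 3 j.1
      = heckeTors (M * 2) 3 j.1 * heckeTors (M * 2) 3 i.1 := by
    intro i j
    have h := hTcomm (i.1 : ℕ) (j.1 : ℕ)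
    rw [jzModule.T_eq (M * 2) 3 i.1.2 i.2.2.1, jzModule.T_eq (M * 2) 3 j.1.2 j.2.2.1] at h
    exact h
  have hcomm : ∀ i j, Commute (TY i) (TY j) := by
    intro i j
    apply LinearMap.ext
    intro a
    apply Subtype.ext
    exact LinearMap.congr_fun (hcommJ i j) (a : JTors (M * 2) 3)
  let φ : Y →ₗ[ZMod 3] JTors (M * 2) 3 := (cL - LinearMap.id).comp Y.subtype
  have hφcoe : ∀ y : Y, ((φ y : JTors (M * 2) 3) : JZero (M * 2))
      = D.c ((y : JTors (M * 2) 3) : JZero (M * 2)) - ((y : JTors (M * 2) 3) : JZero (M * 2)) :=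
    fun y => rfl
  have hφ : ∀ i y, φ (TY i y) = TJ i (φ y) := by
    intro i y
    apply Subtype.ext
    rw [hφcoe]
    show D.c (heckeOperatorBar (M * 2) i.1 ((y : JTors (M * 2) 3) : JZero (M * 2)))
        - heckeOperatorBar (M * 2) i.1 ((y : JTors (M * 2) 3) : JZero (M * 2))
      = heckeOperatorBar (M * 2) i.1 ((φ y : JTors (M * 2) 3) : JZero (M * 2))
    rw [hφcoe, map_sub, D.c_apply, D.c_apply, hecke_s0 D i.1 i.2.2.1, hecke_s1 D i.1 i.2.2.1]
  let wT : JTors (M * 2) 3 := ⟨w, Pic0.mem_torsion.mpr hw3⟩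
  let y₀ : Y := ⟨wT, (hmemY wT).mpr hws0⟩
  have hφy : ((φ y₀ : JTors (M * 2) 3) : JZero (M * 2)) = -x := by
    rw [hφcoe]
    exact hwc
  have hφ0 : φ y₀ ≠ 0 := by
    intro h0
    apply hx0
    have : ((φ y₀ : JTors (M * 2) 3) : JZero (M * 2)) = 0 := by rw [h0]; rfl
    rw [hφy] at this
    exact neg_eq_zero.mp this
  have hcoe_smul : ∀ (k : ℤ) (v : JTors (M * 2) 3),
      (((((k : ℤ) : ZMod 3) • v : JTors (M * 2) 3)) : JZero (M * 2))
        = k • (v : JZero (M * 2)) := by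
    intro k v
    rw [Int.cast_smul_eq_zsmul]
    rfl
  have hxe : ∀ i : ι, TJ i (φ y₀) = ((t (i.1 : ℕ) : ℤ) : ZMod 3) • φ y₀ := by
    intro i
    apply Subtype.ext
    rw [hcoe_smul, hφy]
    show heckeOperatorBar (M * 2) i.1 ((φ y₀ : JTors (M * 2) 3) : JZero (M * 2)) = _
    rw [hφy, map_neg, hT i.1 i.2.1 i.2.2.1 i.2.2.2, zsmul_neg]
  obtain ⟨z, hz0, hz⟩ := exists_eigen_of_map_eigen TY TJ hcomm φ hφ
    (fun i : ι => ((t (i.1 : ℕ) : ℤ) : ZMod 3)) y₀ hφ0 hxe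
  -- the point `z` of `J₀(2M)[3]`, fixed by `s₀`, with the system `t`
  set zJ : JZero (M * 2) := ((z : JTors (M * 2) 3) : JZero (M * 2)) with hzJ
  have hzJ0 : zJ ≠ 0 := fun h0 => hz0 (Subtype.ext (Subtype.ext h0))
  have hz3 : (3 : ℤ) • zJ = 0 := by
    have h3z : ((3 : ℕ) : ℤ) • ((z : JTors (M * 2) 3) : JZero (M * 2)) = 0 :=
      Pic0.mem_torsion.mp (z : JTors (M * 2) 3).property
    exact h3z
  have hzs0 : D.s0 zJ = zJ := (hmemY (z : JTors (M * 2) 3)).mp z.property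
  have hzT : ∀ ℓ : Nat.Primes, (ℓ : ℕ) ∉ S → ¬ (ℓ : ℕ) ∣ M * 2 → (ℓ : ℕ) ≠ 3 →
      heckeOperatorBar (M * 2) ℓ zJ = t ℓ • zJ := by
    intro ℓ hℓS hℓN hℓp
    have h := hz ⟨ℓ, hℓS, hℓN, hℓp⟩
    have h2 := congrArg (fun v : Y => ((v : JTors (M * 2) 3) : JZero (M * 2))) h
    simp only [Submodule.coe_smul, hcoe_smul] at h2
    exact h2
  -- `X = z + s₀ z = β^* β_* z`
  set X : JZero (M * 2) := betaPull M 2 (betaPush M 2 zJ) with hX
  have hXz : X = zJ + zJ := by rw [hX, D.beta zJ, hzs0]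
  have hX0 : X ≠ 0 := by
    intro h0
    apply hzJ0
    have e : zJ = (3 : ℤ) • zJ - (zJ + zJ) := by
      rw [show (3 : ℤ) = 1 + 1 + 1 from rfl, add_zsmul, add_zsmul, one_zsmul]
      abel
    rw [e, hz3, ← hXz, h0, sub_zero]
  have hX3 : ((3 : ℕ) : ℤ) • X = 0 := by
    rw [hXz, zsmul_add]
    have : ((3 : ℕ) : ℤ) • zJ = 0 := hz3
    rw [this, add_zero]
  have hXT : ∀ ℓ : Nat.Primes, (ℓ : ℕ) ∉ S → ¬ (ℓ : ℕ) ∣ M * 2 → (ℓ : ℕ) ≠ 3 →
      heckeOperatorBar (M * 2) ℓ X = t ℓ • X := by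
    intro ℓ hℓS hℓN hℓp
    rw [hXz, map_add, hzT ℓ hℓS hℓN hℓp, zsmul_add]
  have hy' : (3 : ℕ) • betaPush M 2 zJ = 0 := by
    rw [← map_nsmul]
    have : (3 : ℕ) • zJ = 0 := by
      have := hz3
      rwa [show (3 : ℤ) = ((3 : ℕ) : ℤ) from rfl, natCast_zsmul] at this
    rw [this, map_zero]
  exact eig_of_pull_span 3 hp M 2 S t X hX0 hX3 hXT 0 (betaPush M 2 zJ) 1 3 one_ne_zero
    (by norm_num) (by simp) hy' (by rw [map_zero, zero_add])

end Wire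

end Fermat.Agent.S59.LL.SQ23.H40

end
end
-- ==== END Fermat.Agent.S59.LL.SQ23.H40_Alg

-- ==== BEGIN Fermat.Agent.S59.LL.SQ23.H6_S3Hecke
section

/-!
# S59 / LL / SQ23, leaf S3-HECKE (helper6): the deck involutions commute with `T_ℓ`

Level `M * 2` with `2 ∣ M`, `G : S3Gal M` (deck involutions `s₀` of `β₂`, `s₁` of `α₂`),
`ℓ` a prime, `ℓ ∤ M * 2`.

* `exists_deck_betaLift`, `exists_deck_alphaLift` : the deck involutions `s₀'`, `s₁'` of
  `F_{2Mℓ}` over `β₂ F_{Mℓ}`, resp. `F_{Mℓ}`;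
* `s3_lift` : `s₀' α_ℓ = α_ℓ s₀`, `s₀' β_ℓ = β_ℓ s₀`, `s₁' α_ℓ = α_ℓ s₁`, `s₁' β_ℓ = β_ℓ s₁`
  (restriction of a deck involution to a stable quadratic subfield, `deck_restrict`; the
  non-containment comes from helper44's generation statements `adjoin_alpha_jdF`,
  `adjoin_beta_jdF`);
* `heckeNormFn_s0`, `heckeNormFn_s1`, `heckeNormFn_c`, `heckeNormFn_c'` : the Kummer function
  `T_ℓ f = Norm_α (β f)` commutes with `s₀`, `s₁`, `s₀ s₁`, `s₁ s₀` (**hNc** of `h90_eigen`);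
* `heckeDiv_s0`, `heckeDiv_s1` : the Hecke correspondence on divisors commutes with `s₀`, `s₁`;
  `heckePic0_s0`, `heckePic0_s1` : the same on `Pic⁰`.
-/

set_option autoImplicit false
set_option linter.unusedSectionVars false
set_option linter.unusedVariables false
set_option linter.style.haveILetI false
set_option synthInstance.maxHeartbeats 400000
set_option maxHeartbeats 1000000

noncomputable section

namespace Fermat.Agent.S59.LL.SQ23.H6

open AlgebraicCurve ModularCurve Fermat.Agent.S24 Fermat.Agent.S36.H44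
  Fermat.Agent.Lib.HeckeComm

local notation "Kb" => AlgebraicClosure ℚ

/-! ## The abstract lift -/

section AbsLift

variable {K F₂ F₄ G₂ G₄ : Type*} [Field K] [Field F₂] [Field F₄] [Field G₂] [Field G₄]
  [Algebra K F₂] [Algebra K F₄] [Algebra K G₂] [Algebra K G₄]

/-- The deck involution `s'` of the upper level restricts to the deck involution `s` of the lower
level, as soon as the upper field is generated by the lower field and an element of the fixed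
field of `s'`. -/
theorem deck_lift (a : F₄ →ₐ[K] G₄) (b : F₂ →ₐ[K] F₄) (b' : G₂ →ₐ[K] G₄) (a₂ : F₂ →ₐ[K] G₂)
    (hsq : ∀ z, a (b z) = b' (a₂ z))
    (s : F₄ ≃ₐ[K] F₄) (hs2 : ∀ x, s (s x) = x) (hsfix : ∀ x, s x = x → ∃ z, b z = x)
    (s' : G₄ ≃ₐ[K] G₄) (hs'b : ∀ y, s' (b' y) = b' y)
    (hs'fix : ∀ y, s' y = y → ∃ z, b' z = y) (hs'ne : ∃ y, s' y ≠ y)
    (t : G₄) (hgen : IntermediateField.adjoin K (Set.range a ∪ {t}) = ⊤)
    (ht : ∃ z, b' z = t) :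
    ∀ x, s' (a x) = a (s x) := by
  obtain ⟨x₀, hx₀⟩ : ∃ x₀, ∀ z, b' z ≠ a x₀ := by
    by_contra hcon
    push Not at hcon
    obtain ⟨y, hy⟩ := hs'ne
    apply hy
    have hle : IntermediateField.adjoin K (Set.range a ∪ {t}) ≤ b'.fieldRange := by
      rw [IntermediateField.adjoin_le_iff]
      rintro w (⟨x, rfl⟩ | rfl)
      · obtain ⟨z, hz⟩ := hcon x
        exact ⟨z, hz⟩
      · obtain ⟨z, hz⟩ := ht
        exact ⟨z, hz⟩
    have hy' : y ∈ b'.fieldRange := hle (by rw [hgen]; exact IntermediateField.mem_top)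
    obtain ⟨z, rfl⟩ := hy'
    exact hs'b z
  exact deck_restrict (a : F₄ →+* G₄) (b : F₂ →+* F₄) (b' : G₂ →+* G₄) (a₂ : F₂ →+* G₂) hsq
    (s : F₄ ≃+* F₄) hs2 hsfix (s' : G₄ ≃+* G₄) hs'b hs'fix x₀ hx₀

end AbsLift

/-! ## The modular instance -/

section Modular

variable (M ℓ : ℕ) [NeZero M] [NeZero ℓ]

theorem charZero_FN (N : ℕ) [NeZero N] : CharZero (FN N) :=
  charZero_of_injective_algebraMap (algebraMap Kb (FN N)).injective

/-- The deck involution of `F_{2Mℓ}` over `β₂ F_{Mℓ}`. -/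
theorem exists_deck_betaLift (h2 : 2 ∣ M) (hℓ : ℓ.Prime) (hℓM : ¬ ℓ ∣ M * 2) :
    ∃ s : FN (M * 2 * ℓ) ≃ₐ[Kb] FN (M * 2 * ℓ), (∀ y, s (s y) = y) ∧
      (∀ z, s (betaLift M 2 ℓ z) = betaLift M 2 ℓ z) ∧
      (∀ y, s y = y → ∃ z, betaLift M 2 ℓ z = y) ∧ (∃ y, s y ≠ y) := by
  haveI := charZero_FN (M * ℓ)
  apply exists_deck_of_finrank_two (betaLift M 2 ℓ)
  have h1 := betaLift_finrank M 2 ℓ hℓ hℓM
  have h3 := Fermat.Agent.L.Pivot.Geom.H24.finrank_beta_of_dvd M 2 Nat.prime_two h2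
  exact h1.symm.trans h3

/-- The deck involution of `F_{2Mℓ}` over `F_{Mℓ}`. -/
theorem exists_deck_alphaLift (h2 : 2 ∣ M) (hℓ : ℓ.Prime) (hℓM : ¬ ℓ ∣ M * 2) :
    ∃ s : FN (M * 2 * ℓ) ≃ₐ[Kb] FN (M * 2 * ℓ), (∀ y, s (s y) = y) ∧
      (∀ z, s (alphaLift M 2 ℓ z) = alphaLift M 2 ℓ z) ∧
      (∀ y, s y = y → ∃ z, alphaLift M 2 ℓ z = y) ∧ (∃ y, s y ≠ y) := by
  haveI := charZero_FN (M * ℓ)
  apply exists_deck_of_finrank_two (alphaLift M 2 ℓ)
  have h1 := alphaLift_finrank M 2 ℓ hℓ hℓM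
  have h3 := Fermat.Agent.NEB.OLD.H6.finrankAlong_alpha_of_dvd M 2 Nat.prime_two h2
  exact h1.symm.trans h3

/-! ### The four generation statements -/

theorem gen_alpha (hℓ : ℓ.Prime) (hℓM : ¬ ℓ ∣ M * 2) (d : ℕ) [NeZero d] (hd : d ∣ M * 2) :
    IntermediateField.adjoin Kb (Set.range (heckeAlphaBar Kb (M * 2) ℓ)
      ∪ {heckeBetaBar Kb (M * 2) ℓ (jdF (M * 2) d hd)}) = ⊤ :=
  adjoin_range_union_eq_top (heckeAlphaBar Kb (M * 2) ℓ) _
    (Fermat.Agent.S35.H44.adjoin_alpha_jdF (N := M * 2) hℓ hℓM d hd)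

theorem gen_beta (hℓ : ℓ.Prime) (hℓM : ¬ ℓ ∣ M * 2) (d : ℕ) [NeZero d] (hd : d ∣ M * 2) :
    IntermediateField.adjoin Kb (Set.range (heckeBetaBar Kb (M * 2) ℓ)
      ∪ {jdF (M * 2 * ℓ) d (dvd_mul_of_dvd_left hd ℓ)}) = ⊤ :=
  adjoin_range_union_eq_top (heckeBetaBar Kb (M * 2) ℓ) _
    (adjoin_beta_jdF (N := M * 2) hℓ hℓM d hd)

/-- `β_ℓ (j (q²)) = β₂ (j (q^ℓ))`. -/
theorem t_alpha_s0 :
    betaLift M 2 ℓ (jdF (M * ℓ) ℓ (dvd_mul_left ℓ M))
      = heckeBetaBar Kb (M * 2) ℓ (jdF (M * 2) 2 (dvd_mul_left 2 M)) := by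
  apply Subtype.ext
  rw [coe_betaLift, coe_heckeBetaBar, Fermat.Agent.BAD.H82.coe_jdF,
    Fermat.Agent.BAD.H82.coe_jdF]
  exact qExpand_comm 2 ℓ _

/-- `j (q²) = β₂ (j)`. -/
theorem t_beta_s0 :
    betaLift M 2 ℓ (jdF (M * ℓ) 1 (one_dvd _))
      = jdF (M * 2 * ℓ) 2 (dvd_mul_of_dvd_left (dvd_mul_left 2 M) ℓ) := by
  apply Subtype.ext
  rw [coe_betaLift, Fermat.Agent.BAD.H82.coe_jdF_one, Fermat.Agent.BAD.H82.coe_jdF]

/-- `β_ℓ (j) = j (q^ℓ)`. -/
theorem t_alpha_s1 :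
    alphaLift M 2 ℓ (jdF (M * ℓ) ℓ (dvd_mul_left ℓ M))
      = heckeBetaBar Kb (M * 2) ℓ (jdF (M * 2) 1 (one_dvd _)) := by
  apply Subtype.ext
  rw [coe_alphaLift, coe_heckeBetaBar, Fermat.Agent.BAD.H82.coe_jdF,
    Fermat.Agent.BAD.H82.coe_jdF_one]

/-- `j = j`. -/
theorem t_beta_s1 :
    alphaLift M 2 ℓ (jdF (M * ℓ) 1 (one_dvd _))
      = jdF (M * 2 * ℓ) 1 (dvd_mul_of_dvd_left (one_dvd (M * 2)) ℓ) := by
  apply Subtype.ext
  rw [coe_alphaLift, Fermat.Agent.BAD.H82.coe_jdF_one, Fermat.Agent.BAD.H82.coe_jdF_one]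

variable {M}

/-- **The lifts of `s₀`, `s₁` to level `2Mℓ`**, compatible with `α_ℓ` and `β_ℓ`. -/
theorem s3_lift (G : S3Gal M) (h2 : 2 ∣ M) (hℓ : ℓ.Prime) (hℓM : ¬ ℓ ∣ M * 2) :
    ∃ s0' s1' : FN (M * 2 * ℓ) ≃ₐ[Kb] FN (M * 2 * ℓ),
      (∀ f, s0' (heckeAlphaBar Kb (M * 2) ℓ f) = heckeAlphaBar Kb (M * 2) ℓ (G.s0 f)) ∧
      (∀ f, s0' (heckeBetaBar Kb (M * 2) ℓ f) = heckeBetaBar Kb (M * 2) ℓ (G.s0 f)) ∧
      (∀ f, s1' (heckeAlphaBar Kb (M * 2) ℓ f) = heckeAlphaBar Kb (M * 2) ℓ (G.s1 f)) ∧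
      (∀ f, s1' (heckeBetaBar Kb (M * 2) ℓ f) = heckeBetaBar Kb (M * 2) ℓ (G.s1 f)) := by
  obtain ⟨s0', h0a, h0b, h0c, h0d⟩ := exists_deck_betaLift M ℓ h2 hℓ hℓM
  obtain ⟨s1', h1a, h1b, h1c, h1d⟩ := exists_deck_alphaLift M ℓ h2 hℓ hℓM
  refine ⟨s0', s1', ?_, ?_, ?_, ?_⟩
  · exact deck_lift (heckeAlphaBar Kb (M * 2) ℓ) (heckeBetaBar Kb M 2) (betaLift M 2 ℓ)
      (heckeAlphaBar Kb M ℓ) (fun z => RingHom.congr_fun (beta_square M 2 ℓ) z)
      G.s0 G.s0_s0 G.s0_fixed s0' h0b h0c h0d _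
      (gen_alpha M ℓ hℓ hℓM 2 (dvd_mul_left 2 M)) ⟨_, t_alpha_s0 M ℓ⟩
  · exact deck_lift (heckeBetaBar Kb (M * 2) ℓ) (heckeBetaBar Kb M 2) (betaLift M 2 ℓ)
      (heckeBetaBar Kb M ℓ) (fun z => beta_square_beta M 2 ℓ z)
      G.s0 G.s0_s0 G.s0_fixed s0' h0b h0c h0d _
      (gen_beta M ℓ hℓ hℓM 2 (dvd_mul_left 2 M)) ⟨_, t_beta_s0 M ℓ⟩
  · exact deck_lift (heckeAlphaBar Kb (M * 2) ℓ) (heckeAlphaBar Kb M 2) (alphaLift M 2 ℓ)
      (heckeAlphaBar Kb M ℓ) (fun z => RingHom.congr_fun (alpha_square M 2 ℓ) z)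
      G.s1 G.s1_s1 G.s1_fixed s1' h1b h1c h1d _
      (gen_alpha M ℓ hℓ hℓM 1 (one_dvd _)) ⟨_, t_alpha_s1 M ℓ⟩
  · exact deck_lift (heckeBetaBar Kb (M * 2) ℓ) (heckeAlphaBar Kb M 2) (alphaLift M 2 ℓ)
      (heckeBetaBar Kb M ℓ) (fun z => alpha_square_beta M 2 ℓ z)
      G.s1 G.s1_s1 G.s1_fixed s1' h1b h1c h1d _
      (gen_beta M ℓ hℓ hℓM 1 (one_dvd _)) ⟨_, t_beta_s1 M ℓ⟩

end Modular

/-! ## Consequences: `T_ℓ` commutes with the deck involutions -/

section Comm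

variable (N ℓ : ℕ) [NeZero N] [NeZero ℓ]

/-- The Kummer function `T_ℓ f = Norm_α (β f)` commutes with an automorphism which lifts to level
`N ℓ` compatibly with `α_ℓ` and `β_ℓ`. -/
theorem heckeNormFn_comm_of_lift (σ : FN N ≃ₐ[Kb] FN N) (σ' : FN (N * ℓ) ≃ₐ[Kb] FN (N * ℓ))
    (hα : ∀ f, σ' (heckeAlphaBar Kb N ℓ f) = heckeAlphaBar Kb N ℓ (σ f))
    (hβ : ∀ f, σ' (heckeBetaBar Kb N ℓ f) = heckeBetaBar Kb N ℓ (σ f)) (f : FN N) :
    Fermat.Agent.GTor.H2.heckeNormFn Kb N ℓ (σ f)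
      = σ (Fermat.Agent.GTor.H2.heckeNormFn Kb N ℓ f) := by
  rw [Fermat.Agent.S59.LL.SQ.H33.heckeNormFn_def, Fermat.Agent.S59.LL.SQ.H33.heckeNormFn_def,
    ← hβ]
  exact norm_comm_of_intertwine (heckeAlphaBar Kb N ℓ) σ σ' hα _

/-- The Hecke correspondence on divisors commutes with an automorphism which lifts. -/
theorem heckeDiv_comm_of_lift (σ : FN N ≃ₐ[Kb] FN N) (σ' : FN (N * ℓ) ≃ₐ[Kb] FN (N * ℓ))
    (hα : ∀ f, σ' (heckeAlphaBar Kb N ℓ f) = heckeAlphaBar Kb N ℓ (σ f))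
    (hβ : ∀ f, σ' (heckeBetaBar Kb N ℓ f) = heckeBetaBar Kb N ℓ (σ f))
    (hαi : HeckeAlphaBarIntegral Kb N ℓ) (hβi : HeckeBetaBarIntegral Kb N ℓ)
    [HasPrincipalDivisors Kb (laurentBaseChange Kb (modularFunctionFieldFull (N * ℓ)))]
    (D : Divisor Kb (FN N)) :
    heckeDivBar hαi hβi (SemilinearAut.ofAlgAut σ • D)
      = SemilinearAut.ofAlgAut σ • heckeDivBar hαi hβi D :=
  Fermat.Agent.GTor.H2.divisor_correspondence_smul (SemilinearAut.ofAlgAut σ)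
    (SemilinearAut.ofAlgAut σ') (heckeBetaBar Kb N ℓ) (heckeAlphaBar Kb N ℓ) hβi hαi
    (fun x => hβ x) (fun x => hα x) D

/-- The Hecke operator on `Pic⁰` commutes with an automorphism which lifts. -/
theorem heckePic0_comm_of_lift (σ : FN N ≃ₐ[Kb] FN N) (σ' : FN (N * ℓ) ≃ₐ[Kb] FN (N * ℓ))
    (hα : ∀ f, σ' (heckeAlphaBar Kb N ℓ f) = heckeAlphaBar Kb N ℓ (σ f))
    (hβ : ∀ f, σ' (heckeBetaBar Kb N ℓ f) = heckeBetaBar Kb N ℓ (σ f)) (x : JZero N) :
    heckeOperatorAlong Kb N ℓ (SemilinearAut.ofAlgAut σ • x)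
      = SemilinearAut.ofAlgAut σ • heckeOperatorAlong Kb N ℓ x := by
  by_cases h : HeckeInputsAlong Kb N ℓ
  · obtain ⟨hαi, hβi, hP, hfin, hFI, hN⟩ := h
    haveI := hP
    rw [heckeOperatorAlong_eq hαi hβi hFI hfin hN]
    exact Fermat.Agent.GTor.H2.pic0_correspondence_smul (SemilinearAut.ofAlgAut σ)
      (SemilinearAut.ofAlgAut σ') (heckeBetaBar Kb N ℓ) (heckeAlphaBar Kb N ℓ) hβi hαi
      hFI hfin hN (fun x => hβ x) (fun x => hα x) x
  · rw [heckeOperatorAlong_of_not h, AddMonoidHom.zero_apply, AddMonoidHom.zero_apply,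
      smul_zero]

end Comm

section Final

variable {M : ℕ} [NeZero M] (ℓ : ℕ) [NeZero ℓ]

/-- **hNc for `s₀`.** -/
theorem heckeNormFn_s0 (G : S3Gal M) (h2 : 2 ∣ M) (hℓ : ℓ.Prime) (hℓM : ¬ ℓ ∣ M * 2)
    (f : FN (M * 2)) :
    Fermat.Agent.GTor.H2.heckeNormFn Kb (M * 2) ℓ (G.s0 f)
      = G.s0 (Fermat.Agent.GTor.H2.heckeNormFn Kb (M * 2) ℓ f) := by
  obtain ⟨s0', s1', h0α, h0β, h1α, h1β⟩ := s3_lift ℓ G h2 hℓ hℓM
  exact heckeNormFn_comm_of_lift (M * 2) ℓ G.s0 s0' h0α h0β f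

/-- **hNc for `s₁`.** -/
theorem heckeNormFn_s1 (G : S3Gal M) (h2 : 2 ∣ M) (hℓ : ℓ.Prime) (hℓM : ¬ ℓ ∣ M * 2)
    (f : FN (M * 2)) :
    Fermat.Agent.GTor.H2.heckeNormFn Kb (M * 2) ℓ (G.s1 f)
      = G.s1 (Fermat.Agent.GTor.H2.heckeNormFn Kb (M * 2) ℓ f) := by
  obtain ⟨s0', s1', h0α, h0β, h1α, h1β⟩ := s3_lift ℓ G h2 hℓ hℓM
  exact heckeNormFn_comm_of_lift (M * 2) ℓ G.s1 s1' h1α h1β f

/-- **hNc for `c = s₀ s₁`** (as the product in the group `Aut (F_{2M} / Q̄)`). -/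
theorem heckeNormFn_c (G : S3Gal M) (h2 : 2 ∣ M) (hℓ : ℓ.Prime) (hℓM : ¬ ℓ ∣ M * 2)
    (f : FN (M * 2)) :
    Fermat.Agent.GTor.H2.heckeNormFn Kb (M * 2) ℓ ((G.s0 * G.s1) f)
      = (G.s0 * G.s1) (Fermat.Agent.GTor.H2.heckeNormFn Kb (M * 2) ℓ f) := by
  rw [AlgEquiv.mul_apply, AlgEquiv.mul_apply, heckeNormFn_s0 ℓ G h2 hℓ hℓM,
    heckeNormFn_s1 ℓ G h2 hℓ hℓM]

/-- **hNc for `c⁻¹ = s₁ s₀`.** -/
theorem heckeNormFn_c' (G : S3Gal M) (h2 : 2 ∣ M) (hℓ : ℓ.Prime) (hℓM : ¬ ℓ ∣ M * 2)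
    (f : FN (M * 2)) :
    Fermat.Agent.GTor.H2.heckeNormFn Kb (M * 2) ℓ ((G.s1 * G.s0) f)
      = (G.s1 * G.s0) (Fermat.Agent.GTor.H2.heckeNormFn Kb (M * 2) ℓ f) := by
  rw [AlgEquiv.mul_apply, AlgEquiv.mul_apply, heckeNormFn_s1 ℓ G h2 hℓ hℓM,
    heckeNormFn_s0 ℓ G h2 hℓ hℓM]

/-- `T_ℓ` on `J₀(2M)` commutes with `s₀`. -/
theorem heckeOperatorBar_s0 (G : S3Gal M) (h2 : 2 ∣ M) (ℓ : Nat.Primes)
    (hℓM : ¬ (ℓ : ℕ) ∣ M * 2) (x : JZero (M * 2)) :
    heckeOperatorBar (M * 2) ℓ (SemilinearAut.ofAlgAut G.s0 • x)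
      = SemilinearAut.ofAlgAut G.s0 • heckeOperatorBar (M * 2) ℓ x := by
  haveI : NeZero (ℓ : ℕ) := ⟨ℓ.2.ne_zero⟩
  obtain ⟨s0', s1', h0α, h0β, h1α, h1β⟩ := s3_lift (ℓ : ℕ) G h2 ℓ.2 hℓM
  exact heckePic0_comm_of_lift (M * 2) (ℓ : ℕ) G.s0 s0' h0α h0β x

/-- `T_ℓ` on `J₀(2M)` commutes with `s₁`. -/
theorem heckeOperatorBar_s1 (G : S3Gal M) (h2 : 2 ∣ M) (ℓ : Nat.Primes)
    (hℓM : ¬ (ℓ : ℕ) ∣ M * 2) (x : JZero (M * 2)) :
    heckeOperatorBar (M * 2) ℓ (SemilinearAut.ofAlgAut G.s1 • x)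
      = SemilinearAut.ofAlgAut G.s1 • heckeOperatorBar (M * 2) ℓ x := by
  haveI : NeZero (ℓ : ℕ) := ⟨ℓ.2.ne_zero⟩
  obtain ⟨s0', s1', h0α, h0β, h1α, h1β⟩ := s3_lift (ℓ : ℕ) G h2 ℓ.2 hℓM
  exact heckePic0_comm_of_lift (M * 2) (ℓ : ℕ) G.s1 s1' h1α h1β x

/-- `T_ℓ` on `J₀(2M)` commutes with `c = s₀ s₁`. -/
theorem heckeOperatorBar_c (G : S3Gal M) (h2 : 2 ∣ M) (ℓ : Nat.Primes)
    (hℓM : ¬ (ℓ : ℕ) ∣ M * 2) (x : JZero (M * 2)) :
    heckeOperatorBar (M * 2) ℓ (SemilinearAut.ofAlgAut (G.s0 * G.s1) • x)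
      = SemilinearAut.ofAlgAut (G.s0 * G.s1) • heckeOperatorBar (M * 2) ℓ x := by
  rw [map_mul, mul_smul, mul_smul, heckeOperatorBar_s0 G h2 ℓ hℓM,
    heckeOperatorBar_s1 G h2 ℓ hℓM]

end Final

end Fermat.Agent.S59.LL.SQ23.H6

end
end
-- ==== END Fermat.Agent.S59.LL.SQ23.H6_S3Hecke
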