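-- GENERATED (merged mirror, NOTES/tools/trim/merge3_helper67.py): 11 modules of the originals, bodies verbatim.
import Mathlib
import Fermat.Agent.Zm.S59_L04_000
import Fermat.Agent.Zm.S44_L15_000
import Fermat.Agent.Zm.S44_L12_000
import Fermat.Agent.Zm.S44_L16_000
import Fermat.Agent.Zm.S59_L01_000
import Fermat.Agent.Zm.S43_L17_002
import Fermat.Agent.Zm.S59_L02_000
import Fermat.Agent.Zm.S59_L04_001
import Fermat.Agent.Zm.S59_L03_001
import Fermat.Agent.Zm.S43_L15_001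
import Fermat.Agent.Zm.S59_L03_000
import Fermat.Agent.Zm.S35_L06_001
import Fermat.Agent.Zm.S59_L01_001
import Fermat.Agent.Zm.S59_L04_002

-- ==== BEGIN Fermat.Agent.BADP3.Wiring
section

set_option autoImplicit false
set_option synthInstance.maxHeartbeats 400000
set_option maxHeartbeats 1000000

noncomputable section

open AlgebraicCurve ModularCurve

namespace Fermat.Agent.BADP3

open Fermat.Agent.BAD Fermat.Agent.S44 Fermat.Agent.S43.BadQ Fermat.Agent.S28.H73
  Fermat.Agent.RED.H73 Fermat.Agent.BADP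

/-- **(K0-T)**, unconditional. -/
theorem stmt_K0LiftT : Stmt_K0LiftT := by
  intro p M a b hab hp _ A hA S hS
  exact Fermat.Agent.BADP.H11.isK0Lift_mod hA hS _ (fun τ hτ => hτ)

section Wiring

variable (p M : ℕ) (a b : ℤ) (hab : a * p + b * M = 1) (hp : p.Prime) [NeZero (M * p)]
variable (A : ValuationSubring (AlgebraicClosure ℚ))

include hab hp in
/-- **The wiring at a tame level `M p`.** -/
theorem hasBadStructureT_of (hS : Stmt_SlopeT) (hR : Stmt_RayT)
    (hp2 : p ≠ 2) (hpM : ¬ p ∣ M) (ht : Fermat.Agent.BAD.H91.TameAt M p)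
    (hA : A.LiesOverPrime p) :
    (jzModule (M * p) p).HasBadStructure (M * p) A := by
  have hpN : p ∣ M * p := Dvd.intro_left M rfl
  have hp2N : ¬ p ^ 2 ∣ M * p := by
    rintro ⟨k, hk⟩
    apply hpM
    refine ⟨k, ?_⟩
    have h1 : M * p = (p * k) * p := by rw [hk]; ring
    exact Nat.eq_of_mul_eq_mul_right hp.pos h1
  have hW := Fermat.Agent.S43.H88.stmt_WHecke
  obtain ⟨w, hwdef⟩ : ∃ w : Module.End (ZMod p) (jzModule (M * p) p).J,
      w = wTors p M a b hab hp p := ⟨_, rfl⟩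
  have hwT : ∀ {S : Finset ℕ} {t : ℕ → ℤ} {x : (jzModule (M * p) p).J},
      (jzModule (M * p) p).IsEigen (M * p) S t x →
      (jzModule (M * p) p).IsEigen (M * p) S t (w x) := by
    intro S t x hT ℓ hℓ hℓS hℓN hℓp
    have h1 := wTors_T p M a b hab hp p hW hℓ hℓN x
    have h2 := hT ℓ hℓ hℓS hℓN hℓp
    rw [hwdef]
    exact h1.trans ((congrArg (wTors p M a b hab hp p) h2).trans
      (map_smul (wTors p M a b hab hp p) _ _))
  have hgal : ∀ (σ : GQ) (z : (jzModule (M * p) p).J),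
      (jzModule (M * p) p).gal σ (w z) = w ((jzModule (M * p) p).gal σ z) := by
    intro σ z
    rw [hwdef]
    exact wTors_gal p M a b hab hp p σ z
  have hpt : ∀ z : (jzModule (M * p) p).J,
      jzModule.pt (M * p) p (w z) = wS p M a b hab hp • jzModule.pt (M * p) p z := by
    intro z
    rw [hwdef]
    rfl
  have hmemG : ∀ z : (jzModule (M * p) p).J, z ∈ finP p M a b hab hp A ↔
      Fin1 A (M * p) p (jzModule.pt (M * p) p z) ∧
        Fin1 A (M * p) p (jzModule.pt (M * p) p (w z)) := by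
    intro z
    rw [hpt z]
    exact mem_finP_iff p M a b hab hp A z
  have hmemT : ∀ z : (jzModule (M * p) p).J, z ∈ toric p M a b hab hp p A ↔
      InK1 A (M * p) p (jzModule.pt (M * p) p z) ∧
        InK1 A (M * p) p (jzModule.pt (M * p) p (w z)) := by
    intro z
    rw [hpt z]
    exact mem_toric_iff p M a b hab hp p A z
  have hO : ∀ (S : Finset ℕ) (t : ℕ → ℤ) (x : (jzModule (M * p) p).J),
      Fin1 A (M * p) p (jzModule.pt (M * p) p x) →
      ¬ InK1 A (M * p) p (jzModule.pt (M * p) p x) →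
      (jzModule (M * p) p).IsEigen (M * p) S t x →
      ComesFromLevel p (M * p) (M * p / p) S t := fun S t x hF hK hT =>
    Fermat.Agent.S43.Old.old_done p hp (M * p) p hp hpN hp2N A hA S t x hF hK hT
  refine ⟨toric p M a b hab hp p A, finP p M a b hab hp A, ?_, ?_, ?_⟩
  · -- (c)
    intro S t x hxG hxT hT
    have hxG' := (hmemG x).1 hxG
    by_cases h1 : InK1 A (M * p) p (jzModule.pt (M * p) p x)
    · have h2 : ¬ InK1 A (M * p) p (jzModule.pt (M * p) p (w x)) := by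
        intro h2
        exact hxT ((hmemT x).2 ⟨h1, h2⟩)
      exact hO S t (w x) hxG'.2 h2 (hwT hT)
    · exact hO S t x hxG'.1 h1 hT
  · -- (d)
    intro S t x Y u hT hNE hY hsub hu hfix
    refine (hmemG x).2
      ⟨hS p hp hp2 M hpM ht A hA S t x Y u hT hNE hY hsub hu hfix, ?_⟩
    have hY' : (jzModule (M * p) p).IsCycOn A (Y.map w) := by
      intro σ hσ n hn y hy
      obtain ⟨y0, hy0, rfl⟩ := Submodule.mem_map.mp hy
      rw [hgal σ y0, hY σ hσ n hn y0 hy0, map_smul]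
    have hsub' : ∀ σ ∈ A.inertiaSubgroupIn ℚ,
        (jzModule (M * p) p).gal σ (w x) - w x ∈ Y.map w := by
      intro σ hσ
      have h1 : (jzModule (M * p) p).gal σ (w x) - w x =
          w ((jzModule (M * p) p).gal σ x - x) := by
        rw [hgal σ x, map_sub]
      rw [h1]
      exact Submodule.mem_map_of_mem (hsub σ hσ)
    have hfix' : (jzModule (M * p) p).IsPeuFixed A u (w x) := by
      intro σ hσ h1 h2
      rw [hgal σ x, hfix σ hσ h1 h2]
    exact hS p hp hp2 M hpM ht A hA S t (w x) (Y.map w) u (hwT hT) hNE hY' hsub' hu hfix'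
  · -- (e)
    intro x Y u hx hY hsub hu hfix
    have hx' := (hmemT x).1 hx
    rw [hpt x] at hx'
    exact hR p hp2 M ht a b hab hp A hA x Y u hx'.1 hx'.2 hY hsub hu hfix

end Wiring

/-- **`Stmt_BadP2T` from (d) and (e).** -/
theorem stmt_BadP2T_of (hS : Stmt_SlopeT) (hR : Stmt_RayT) : Stmt_BadP2T := by
  intro p hp hp2 M hpM ht _ A hA
  have hcop : IsCoprime (p : ℤ) (M : ℤ) :=
    Nat.isCoprime_iff_coprime.2 ((Nat.Prime.coprime_iff_not_dvd hp).2 hpM)
  obtain ⟨a, b, hab⟩ := hcop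
  exact hasBadStructureT_of p M a b hab hp A hS hR hp2 hpM ht hA

/-- (d) SLOPE at the tame levels from its leaves. -/
theorem stmt_SlopeT_of_leaves (hEisMod : Stmt_EisModT) (hAbs : Stmt_EisAbs2)
    (hTame : Stmt_EisAbsTame2) (hThick : Stmt_Thick) (hDrop : Stmt_HDropT) : Stmt_SlopeT :=
  stmt_SlopeT_of
    (hEisMod Fermat.Agent.BADP3.H33.stmt_ModPlusT stmt_K0LiftT
      Fermat.Agent.BADP.H57.stmt_KumCmp Fermat.Agent.BADP.H57.stmt_KumW hAbs hTame hThick)
    hDrop

/-- (e) RAY at the tame levels from its leaf. -/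
theorem stmt_RayT_of_leaves (hRayMod : Stmt_RayModT) : Stmt_RayT :=
  stmt_RayT_of_rayK3xT
    (hRayMod Fermat.Agent.BADP3.H33.stmt_ModT stmt_K0LiftT Fermat.Agent.BADP.H57.stmt_KumFix
      Fermat.Agent.BADP.H57.stmt_KumW)
    Fermat.Agent.S44.H66.stmt_GoodRoot

/-- **BAD_p at the tame levels from the open leaves** (state 05:30Z): EIS-MOD-T, EIS-ABS2,
EIS-ABS-TAME2, THICK, H-DROP2, RAY-MOD-T. -/
theorem stmt_BadP2T_of_leaves (hEisMod : Stmt_EisModT) (hAbs : Stmt_EisAbs2)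
    (hTame : Stmt_EisAbsTame2) (hThick : Stmt_Thick) (hDrop : Stmt_HDropT)
    (hRayMod : Stmt_RayModT) : Stmt_BadP2T :=
  stmt_BadP2T_of (stmt_SlopeT_of_leaves hEisMod hAbs hTame hThick hDrop)
    (stmt_RayT_of_leaves hRayMod)

/-- **Mazur's principle at `p`, module form, at the tame levels** (`p = 3`: even levels). -/
theorem removesPT_of (h : Stmt_BadP2T) (p : ℕ) (hp : p.Prime) (hp2 : p ≠ 2) (N : ℕ) [NeZero N]
    (hpN : p ∣ N) (hp2N : ¬ p ^ 2 ∣ N) (ht : Fermat.Agent.BAD.H91.TameAt (N / p) p)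
    (A : ValuationSubring (AlgebraicClosure ℚ)) (hA : A.LiesOverPrime p) :
    (jzModule N p).RemovesP N A := by
  obtain ⟨M, rfl⟩ : ∃ M, N = M * p := ⟨N / p, (Nat.div_mul_cancel hpN).symm⟩
  have hpM : ¬ p ∣ M := by
    rintro ⟨k, rfl⟩
    exact hp2N ⟨k, by ring⟩
  rw [Nat.mul_div_cancel M hp.pos] at ht
  exact removesP_of_badStructure (jzModule (M * p) p) (M * p) A (h p hp hp2 M hpM ht A hA)

end Fermat.Agent.BADP3

end
end
-- ==== END Fermat.Agent.BADP3.Wiring

-- ==== BEGIN Fermat.Agent.L.Pivot3.H24_CondAux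
section

set_option autoImplicit false
set_option linter.style.haveILetI false
set_option linter.unusedSectionVars false

open Polynomial IsLocalRing CuspForm

namespace Fermat.Agent.L.Pivot3.H24

open Fermat.Agent.R Fermat.Agent.S59 Fermat.Agent.S59.Datum Fermat.Agent.S59.Asm
  Fermat.Agent.S59.Asm.H7

/-- **AUTO-UNR for the datum over the full local Hecke ring** (what COND-aux uses). -/
def Stmt_AutoUnrDatum : Prop :=
  ∀ (𝒪 : Type) [CommRing 𝒪] [IsDomain 𝒪] [IsDiscreteValuationRing 𝒪]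
    [IsAdicComplete (maximalIdeal 𝒪) 𝒪] [Finite (ResidueField 𝒪)] [CharZero 𝒪]
    (p : ℕ), p.Prime → (p : 𝒪) ∈ maximalIdeal 𝒪 →
    ∀ (ρbar : ResidualGaloisRep (ResidueField 𝒪))
      (N : ℕ) [NeZero N] [Fact (CuspForm.HasIntegralStructure N 2)] (S : Finset ℕ),
    ∀ (θ : CuspForm.heckeAlgebra N 2 (↑S : Set ℕ) →+* ResidueField 𝒪)
      (H : CuspForm.HeckeGaloisRepDatum N (↑S : Set ℕ) 𝒪 θ
        (CuspForm.heckeLocal N (↑S : Set ℕ) 𝒪 θ)),
    H.ρ.residual.IsEquiv (ρbar.baseChangeAlong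
      (ResidueField.map (algebraMap 𝒪 (CuspForm.heckeLocal N (↑S : Set ℕ) 𝒪 θ)))) →
    ∀ r : ℕ, AuxAt p ρbar r → H.ρ.IsUnramifiedAt r

/-- **COND with auxiliary primes in the level.** -/
def Stmt_CONDaux : Prop :=
  ∀ (𝒪 : Type) [CommRing 𝒪] [IsDomain 𝒪] [IsDiscreteValuationRing 𝒪]
    [IsAdicComplete (maximalIdeal 𝒪) 𝒪] [Finite (ResidueField 𝒪)] [CharZero 𝒪]
    (p : ℕ) [Fact p.Prime], p ≠ 2 → (p : 𝒪) ∈ maximalIdeal 𝒪 →
    ∀ (fl : Bool) (ρbar : ResidualGaloisRep (ResidueField 𝒪)) (Smin : Finset ℕ),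
    ResHyp p ρbar Smin →
    cond 𝒪 p fl Smin ∅ (GaloisRepAdic.ofResidualGaloisRep ρbar) →
    (fl = false → ¬ (GaloisRepAdic.ofResidualGaloisRep ρbar).IsFlatAt p) →
    ∀ (Q R : Finset ℕ) (N' : ℕ) [NeZero N'] [Fact (CuspForm.HasIntegralStructure N' 2)]
      (S' : Finset ℕ),
    S' = Smin ∪ Q ∪ R →
    (∀ r ∈ R, AuxAt p ρbar r) →
    (∀ q : ℕ, q.Prime → q ∣ N' → q ∈ S') →
    (∀ q ∈ Smin, q ≠ p → q ∣ N' ∧ ¬ q ^ 2 ∣ N') →
    (fl = true → ¬ p ∣ N') → (fl = false → p ∣ N' ∧ ¬ p ^ 2 ∣ N') →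
    ∀ (θ : CuspForm.heckeAlgebra N' 2 (↑S' : Set ℕ) →+* ResidueField 𝒪),
    Fermat.Agent.S59.Datum.FrobHyp ρbar N' S' θ →
    ∀ (H : CuspForm.HeckeGaloisRepDatum N' (↑S' : Set ℕ) 𝒪 θ
        (CuspForm.heckeLocal N' (↑S' : Set ℕ) 𝒪 θ)),
    H.π = CuspForm.heckeLocal.π N' (↑S' : Set ℕ) 𝒪 θ →
    H.ρ.DetIsCyclotomic p →
    H.ρ.residual.IsEquiv (ρbar.baseChangeAlong
      (ResidueField.map (algebraMap 𝒪 (CuspForm.heckeLocal N' (↑S' : Set ℕ) 𝒪 θ)))) →
    cond 𝒪 p fl Smin Q H.ρ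

/-- **COND-aux**, core (the proof of `H7.stmt_COND_core`, with AUTO-UNR at the primes of `R`). -/
theorem stmt_CONDaux_core (hAU : Stmt_AutoUnrDatum)
    (hUnr : Stmt_UnrDatum) (hUnip : Stmt_UnipDatum) (hFlat : Stmt_FlatDatum)
    (hS30 : Stmt_S30) (hFP : Stmt_FlatPoint) (hONS : Stmt_OrdNewStrict)
    (hResIrr : Stmt_ResIrr) (hFD : Stmt_FlatDesc) : Stmt_CONDaux := by
  intro 𝒪 _ _ _ _ _ _ p _ hp2 hp𝒪 fl ρbar Smin hyp _ hnf Q R N' _ _ S' hS' hR hNS hSmin hfl hso
    θ hθ H _ hcyc hres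
  have hp : p.Prime := Fact.out
  have hpS : p ∈ S' := by
    rw [hS']
    exact Finset.mem_union_left _ (Finset.mem_union_left _ hyp.hpSmin)
  have hunr : ∀ q : ℕ, q.Prime → q ∉ Smin ∪ Q → H.ρ.IsUnramifiedAt q := by
    intro q hq hqS
    by_cases hqR : q ∈ R
    · exact hAU 𝒪 p hp hp𝒪 ρbar N' S' θ H hres q (hR q hqR)
    · refine hUnr 𝒪 p hp hp𝒪 N' S' hpS hNS θ H q hq ?_
      rw [hS']
      intro hmem
      rcases Finset.mem_union.mp hmem with h | h
      · exact hqS h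
      · exact hqR h
  have hunip : ∀ q ∈ Smin, q.Prime → q ≠ p → H.ρ.IsUnipotentOnInertiaAt q := fun q hqS hq hqp =>
    hUnip 𝒪 p hp hp𝒪 N' S' hpS hNS θ H q hq hqp (hSmin q hqS hqp).1 (hSmin q hqS hqp).2
  cases fl
  · -- strictly ordinary
    haveI : Module.Finite ℤ (CuspForm.heckeAlgebra N' 2 (↑S' : Set ℕ)) :=
      Fermat.Agent.S22.result N' 2 (↑S' : Set ℕ)
    haveI : IsReduced (CuspForm.heckeAlgebra N' 2 (↑S' : Set ℕ)) :=
      H58.stmt_HeckeReduced N' (↑S' : Set ℕ) hNS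
    haveI : IsReduced (CuspForm.heckeLocal N' (↑S' : Set ℕ) 𝒪 θ) :=
      H2.isReduced_of_flat_of_adjoin_eq_top (CuspForm.heckeAlgebra N' 2 (↑S' : Set ℕ)) 𝒪
        (CuspForm.heckeLocal N' (↑S' : Set ℕ) 𝒪 θ) H.π H.adjoin_range_π
    have hso' := strictOrd_of 𝒪 p N' S' (CuspForm.heckeLocal N' (↑S' : Set ℕ) 𝒪 θ) hS30 hFP hONS
      hResIrr hFD hp2 hp𝒪 hpS hNS (hso rfl) θ H ρbar hyp.habs hθ (hnf rfl)
    exact ⟨⟨hcyc, hso', hunr⟩, hunip⟩
  · -- flat
    have hfl' := hFlat 𝒪 p hp hp2 hp𝒪 N' S' (hfl rfl) hpS hNS θ H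
    exact ⟨⟨hcyc, hfl', hunr⟩, hunip⟩

/-- AUTO-UNR for the datum over the full local Hecke ring, from the general form. -/
theorem stmt_AutoUnrDatum_of (hAU : Stmt_AutoUnr) : Stmt_AutoUnrDatum := by
  intro 𝒪 _ _ _ _ _ _ p hp hp𝒪 ρbar N _ _ S θ H hres r hr
  have hpT : (p : CuspForm.heckeLocal N (↑S : Set ℕ) 𝒪 θ)
      ∈ maximalIdeal (CuspForm.heckeLocal N (↑S : Set ℕ) 𝒪 θ) := by
    have h1 : (p : CuspForm.heckeLocal N (↑S : Set ℕ) 𝒪 θ)
        = algebraMap 𝒪 (CuspForm.heckeLocal N (↑S : Set ℕ) 𝒪 θ) (p : 𝒪) := by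
      rw [map_natCast]
    rw [h1, mem_maximalIdeal, mem_nonunits_iff]
    intro hu
    have hu' : IsUnit (p : 𝒪) := isUnit_of_map_unit
      (algebraMap 𝒪 (CuspForm.heckeLocal N (↑S : Set ℕ) 𝒪 θ)) _ hu
    exact (mem_nonunits_iff.mp ((mem_maximalIdeal _).mp hp𝒪)) hu'
  exact hAU (CuspForm.heckeLocal N (↑S : Set ℕ) 𝒪 θ) p hp hpT (ResidueField 𝒪) ρbar
    (ResidueField.map (algebraMap 𝒪 (CuspForm.heckeLocal N (↑S : Set ℕ) 𝒪 θ))) H.ρ hres r hr

/-- **COND-aux** from AUTO-UNR (everything else is landed: frozen S31, S34, S32 at the points,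
S30, `Stmt_OrdNewStrict`, RES-IRR, FLAT-DESC). -/
theorem stmt_CONDaux_of (hAU : Stmt_AutoUnr) : Stmt_CONDaux :=
  stmt_CONDaux_core (stmt_AutoUnrDatum_of hAU) H7.stmt_UnrDatum H7.stmt_UnipDatum
    (H7.stmt_FlatDatum_of Fermat.Agent.S59.NonMin.H7.stmt_FlatPoint)
    Fermat.Agent.R.H33.stmt_S30 Fermat.Agent.S59.NonMin.H7.stmt_FlatPoint
    Fermat.Agent.S33.New.H36.stmt_OrdNewStrict Fermat.Agent.S59.Datum.H57.stmt_ResIrr
    Fermat.Agent.S59.Datum.H78.stmt_FlatDesc

/-- **COND-aux**, unconditional (AUTO-UNR: helper34's inertia form, helper80's datum form). -/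
theorem stmt_CONDaux : Stmt_CONDaux :=
  stmt_CONDaux_of Fermat.Agent.L.Pivot3.H80.stmt_AutoUnr24

/-- `Stmt_COND` is the case `R = ∅` (sanity check of the shape). -/
theorem stmt_COND_of_aux (h : Stmt_CONDaux) : Fermat.Agent.S59.Asm.Stmt_COND := by
  intro 𝒪 _ _ _ _ _ _ p _ hp2 hp𝒪 fl ρbar Smin hyp hbar hnf Q N' _ _ S' hS' hNS hSmin hfl hso θ hθ
    H hπ hcyc hres
  exact h 𝒪 p hp2 hp𝒪 fl ρbar Smin hyp hbar hnf Q ∅ N' S' (by rw [hS', Finset.union_empty])
    (fun r hr => absurd hr (Finset.notMem_empty r)) hNS hSmin hfl hso θ hθ H hπ hcyc hres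

end Fermat.Agent.L.Pivot3.H24

end
-- ==== END Fermat.Agent.L.Pivot3.H24_CondAux

-- ==== BEGIN Fermat.Agent.L.Pivot3.H75_Top
section

set_option autoImplicit false
set_option linter.style.haveILetI false
set_option linter.unusedVariables false
set_option synthInstance.maxHeartbeats 400000
set_option maxHeartbeats 1000000

open Polynomial IsLocalRing CuspForm CongruenceSubgroup ModularFormClass
open WeierstrassCurve WeierstrassCurve.Affine WeierstrassCurve.Affine.Point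
open scoped WeierstrassCurve.Affine

namespace Fermat.Agent.L.Pivot3.H75

open Fermat.Agent.S59 Fermat.Agent.S44 Fermat.Agent.S43 Fermat.Agent.L.Pivot.H76
  Fermat.Agent.L.Pivot3.H24 Fermat.Agent.S38

/-- `E[p]` is unramified at a prime `r ≠ p` of good reduction (semistable model, `E[p]`
irreducible: through the Tate module). -/
theorem unrW_of_good (p : ℕ) (hp : p.Prime) (hp2 : p ≠ 2) (W : WeierstrassCurve ℤ)
    (hΔ : W.Δ ≠ 0) (hss : W.IsSemistableModel) (hirr : W.ModRepIsIrreducible p)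
    (r : ℕ) (hr : r.Prime) (hrp : r ≠ p) (hgood : W.IsGoodPrimeFor r) : UnrW W p r := by
  haveI : Fact p.Prime := ⟨hp⟩
  obtain ⟨𝒪₀, i1, i2, i3, i4, i5, i6, ρ₀, hdet₀, hunr₀, hunip₀, hflat₀, hord₀, hfrob₀, hres₀⟩ :=
    Fermat.Agent.Tate.stmt_Tate p hp2 W hΔ hss
  obtain ⟨habs₀, hTW₀⟩ := hres₀ hirr
  have hp𝒪 : (p : 𝒪₀) ∈ maximalIdeal 𝒪₀ := hdet₀.1
  haveI hchar : CharP (ResidueField 𝒪₀) p := by
    refine (CharP.charP_iff_prime_eq_zero hp).mpr ?_
    have : residue 𝒪₀ (p : 𝒪₀) = 0 := (residue_eq_zero_iff _).mpr hp𝒪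
    rwa [map_natCast] at this
  let j : ZMod p →+* ResidueField 𝒪₀ := ZMod.castHom (dvd_refl p) (ResidueField 𝒪₀)
  have hbr : ((torsRes W hΔ p).baseChangeAlong j).IsEquiv ρ₀.residual :=
    Fermat.Agent.S59.LL.H77.bridgeRes W hΔ p _ _ j ρ₀ ∅
      (fun ℓ hℓ hℓp _ hg A hA σ hσ => hfrob₀ ℓ hℓ hℓp hg A hA σ hσ) habs₀
  have hunr_iff : ρ₀.residual.IsUnramifiedAt r ↔ UnrW W p r :=
    (Fermat.Agent.S59.LL.H77.unramified_iff_of_isEquiv j _ _ hbr r).trans
      (torsRes_isUnramifiedAt_iff W hΔ p r)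
  refine hunr_iff.mp ?_
  intro P hP σ hσ
  have h1 : ρ₀.residual.ρ σ = (ρ₀.ρ σ).baseChange (ResidueField 𝒪₀) := rfl
  rw [h1, hunr₀ r hr hrp hgood P hP σ hσ]
  exact LinearMap.baseChange_one (R := 𝒪₀) (A := ResidueField 𝒪₀) (M := ρ₀.V)

/-- A prime `r ≡ 2 mod 3` is not exceptional for `E[3]`. -/
theorem not_isExcW_of_mod (W : WeierstrassCurve ℤ) {r : ℕ} (hr3 : r % 3 = 2) :
    ¬ IsExcW W 3 r := by
  rintro ⟨hdvd, -⟩
  omega

/-- The arithmetic of the levels: `(N r / q) / r = N / q`. -/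
theorem level_div_div {N q r : ℕ} (hq : q ∣ N) (hr : 0 < r) : N * r / q / r = N / q := by
  obtain ⟨m, rfl⟩ := hq
  rcases Nat.eq_zero_or_pos q with h0 | hq0
  · subst h0
    simp
  · rw [Nat.mul_div_cancel_left m hq0, mul_assoc, Nat.mul_div_cancel_left (m * r) hq0,
      Nat.mul_div_cancel m hr]

/-- The arithmetic of the levels: `r ∣ N r / q` when `q ∣ N`. -/
theorem dvd_level_div {N q r : ℕ} (hq : q ∣ N) (hq0 : 0 < q) : r ∣ N * r / q := by
  obtain ⟨m, rfl⟩ := hq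
  rw [mul_assoc, Nat.mul_div_cancel_left (m * r) hq0]
  exact dvd_mul_left r m

/-- Residual modularity of the level `N / q` gives the conclusion of the core. -/
theorem lowerConcl_of_resMod (p N q : ℕ) (W : WeierstrassCurve ℤ) (hq : q ∣ N)
    (h : W.IsResiduallyModularOfLevel p (N / q)) : LowerConcl p N q W := by
  obtain ⟨g, 𝔪, hg, h𝔪, hp𝔪, hgc⟩ := h
  refine ⟨g, 𝔪, ∅, hg, h𝔪, hp𝔪, fun ℓ hℓ _ hℓN hℓp hgood => ?_⟩
  exact hgc ℓ hℓ hgood (fun hd => hℓN (hd.trans (Nat.div_dvd_of_dvd hq))) hℓp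

/-- **The common part of the two wirings**: from the system of `W` at the squarefree level `N`,
an auxiliary prime `r` and the pivot at the level `N r`, the level `N / q`. -/
theorem lowerConcl_of_aux_step (hNE : Fermat.Agent.S38.H37.Stmt_NonExcW)
    (W : WeierstrassCurve ℤ) (hΔ : W.Δ ≠ 0) (hW : W.IsSemistableModel)
    (hirr : GaloisRepIsIrreducible (K := AlgebraicClosure ℚ) ℚ
      (W.map (Int.castRingHom ℚ)).toAffine 3)
    (N q r : ℕ) (hsq : Squarefree N) (hq : q.Prime) (hqN : q ∣ N)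
    (hr : r.Prime) (hrN : ¬ r ∣ N) (hr3 : r % 3 = 2) (hgood : W.IsGoodPrimeFor r)
    (hLC : LowerConcl 3 (N * r) q W) : LowerConcl 3 N q W := by
  have h3 : Nat.Prime 3 := Nat.prime_three
  have hr3' : r ≠ 3 := by
    rintro rfl
    omega
  have hsqNr : Squarefree (N * r) := by
    refine (Nat.squarefree_mul ((Nat.Coprime.symm
      ((Nat.Prime.coprime_iff_not_dvd hr).2 hrN)))).2 ⟨hsq, hr.squarefree⟩
  have hqNr : q ∣ N * r := hqN.mul_right r
  -- the level `N r / q`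
  have hres2 : W.IsResiduallyModularOfLevel 3 (N * r / q) :=
    isResiduallyModular_of_lowerConcl Fermat.Agent.S38.H49.stmt_Complete 3 h3 W hΔ (N * r) q
      hsqNr hq hqNr hLC
  obtain ⟨g, 𝔫, hg, h𝔫, h3𝔫, hgc⟩ := hres2
  have hsq2 : Squarefree (N * r / q) := hsqNr.squarefree_of_dvd (Nat.div_dvd_of_dvd hqNr)
  have hr2 : r ∣ N * r / q := dvd_level_div hqN hq.pos
  -- the Mazur step at `r`
  have hunr : UnrW W 3 r := unrW_of_good 3 h3 (by decide) W hΔ hW hirr r hr hr3' hgood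
  have hLC2 : LowerConcl 3 (N * r / q) r W :=
    hNE 3 h3 (by decide) W hΔ hW hirr (N * r / q) r hsq2 hr hr3' hr2 hunr
      (not_isExcW_of_mod W hr3) g 𝔫 hg h𝔫 h3𝔫 hgc
  have hres3 : W.IsResiduallyModularOfLevel 3 (N * r / q / r) :=
    isResiduallyModular_of_lowerConcl Fermat.Agent.S38.H49.stmt_Complete 3 h3 W hΔ (N * r / q) r
      hsq2 hr hr2 hLC2
  rw [level_div_div hqN hr.pos] at hres3
  exact lowerConcl_of_resMod 3 N q W hqN hres3

/-- The auxiliary prime: `r ≡ 2 mod 3`, `r ∤ N`, `r ≠ 3`, `W` good at `r`, `a_r ≢ 0 mod 3`. -/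
theorem exists_aux_prime (W : WeierstrassCurve ℤ) (hΔ : W.Δ ≠ 0) (hW : W.IsSemistableModel)
    (hirr : GaloisRepIsIrreducible (K := AlgebraicClosure ℚ) ℚ
      (W.map (Int.castRingHom ℚ)).toAffine 3) (N : ℕ) (hN : N ≠ 0) :
    ∃ r : ℕ, r.Prime ∧ ¬ r ∣ N ∧ r % 3 = 2 ∧ W.IsGoodPrimeFor r ∧
      ((W.apOfModel r : ℤ) : ZMod 3) ≠ 0 := by
  obtain ⟨r, hr, hrS, hr3, hra⟩ := Fermat.Agent.S38.P3.H57.stmt_Strong W hΔ hW hirr
    (N.primeFactors ∪ W.Δ.natAbs.primeFactors)
  simp only [Finset.mem_union, Nat.mem_primeFactors, not_or] at hrS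
  refine ⟨r, hr, fun h => hrS.1 ⟨hr, h, hN⟩, hr3, ?_, hra⟩
  intro hdvd
  exact hrS.2 ⟨hr, Int.natCast_dvd.1 hdvd, Int.natAbs_ne_zero.2 hΔ⟩

/-- **PIVOT at `p = 3`, level prime to `3`**, from the form with an auxiliary prime and the
Mazur step. -/
theorem pivotWCore3_of_aux (hA : Stmt_PivotWCoreAux3)
    (hNE : Fermat.Agent.S38.H37.Stmt_NonExcW) : Fermat.Agent.S38.P3.Stmt_PivotWCore3 := by
  intro W hΔ hW hirr N q hsq h3N hq hqN hunrq hexc f 𝔪 S hf h𝔪 h3𝔪 hcong
  have h3 : Nat.Prime 3 := Nat.prime_three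
  have hNpos : 0 < N := Nat.pos_of_ne_zero hsq.ne_zero
  -- the system at the level `N`, at all good primes
  have hres : W.IsResiduallyModularOfLevel 3 N :=
    ⟨f, 𝔪, hf, h𝔪, h3𝔪,
      Fermat.Agent.S38.H49.stmt_Complete 3 h3 W hΔ N hNpos f 𝔪 S hf h𝔪 h3𝔪 hcong⟩
  -- the auxiliary prime
  obtain ⟨r, hr, hrN, hr3, hgood, hra⟩ := exists_aux_prime W hΔ hW hirr N hsq.ne_zero
  have hr3' : r ≠ 3 := by
    rintro rfl
    omega
  have hrq : r ≠ q := fun h => hrN (h ▸ hqN)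
  have hsqNr : Squarefree (N * r) := by
    refine (Nat.squarefree_mul ((Nat.Coprime.symm
      ((Nat.Prime.coprime_iff_not_dvd hr).2 hrN)))).2 ⟨hsq, hr.squarefree⟩
  -- the level `N r`
  obtain ⟨f', 𝔪', hf', h𝔪', h3𝔪', hcong'⟩ :=
    Fermat.Agent.S38.H75.raise_level W 3 hsqNr (dvd_mul_right N r) hres
  have h3Nr : ¬ 3 ∣ N * r := by
    intro h
    rcases (Nat.Prime.dvd_mul h3).1 h with h | h
    · exact h3N h
    · exact hr3' ((Nat.prime_dvd_prime_iff_eq h3 hr).1 h).symm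
  have hunr : UnrW W 3 r := unrW_of_good 3 h3 (by decide) W hΔ hW hirr r hr hr3' hgood
  -- the pivot at the level `N r`
  have hLC : LowerConcl 3 (N * r) q W :=
    hA W hΔ hW hirr (N * r) q r hsqNr h3Nr hq (hqN.mul_right r) hunrq hr (dvd_mul_left r N) hrq
      hr3 hgood hunr hra
      (fun q' hq' hq'Nr hq'r hu => by
        rcases (Nat.Prime.dvd_mul hq').1 hq'Nr with h | h
        · exact hexc q' hq' h hu
        · exact absurd ((Nat.prime_dvd_prime_iff_eq hq' hr).1 h) hq'r)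
      f' 𝔪' ∅ hf' h𝔪' h3𝔪' (fun ℓ hℓ _ hg hℓN hℓp => hcong' ℓ hℓ hg hℓN hℓp)
  exact lowerConcl_of_aux_step hNE W hΔ hW hirr N q r hsq hq hqN hr hrN hr3 hgood hLC

/-- **PIVOT at `p = 3`, `3 ∥ N`, `E[3]` très ramifiée at `3`**, from the form with an auxiliary
prime and the Mazur step. -/
theorem pivotWCoreSO3_of_aux (hA : Stmt_PivotWCoreSOAux3)
    (hNE : Fermat.Agent.S38.H37.Stmt_NonExcW) : Fermat.Agent.S38.P3.Stmt_PivotWCoreSO3 := by
  intro W hΔ hW hirr N q hsq h3N h3Δ hpeu hq hq3 hqN hunrq hexc f 𝔪 S hf h𝔪 h3𝔪 hcong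
  have h3 : Nat.Prime 3 := Nat.prime_three
  have hNpos : 0 < N := Nat.pos_of_ne_zero hsq.ne_zero
  have hres : W.IsResiduallyModularOfLevel 3 N :=
    ⟨f, 𝔪, hf, h𝔪, h3𝔪,
      Fermat.Agent.S38.H49.stmt_Complete 3 h3 W hΔ N hNpos f 𝔪 S hf h𝔪 h3𝔪 hcong⟩
  obtain ⟨r, hr, hrN, hr3, hgood, hra⟩ := exists_aux_prime W hΔ hW hirr N hsq.ne_zero
  have hr3' : r ≠ 3 := by
    rintro rfl
    omega
  have hrq : r ≠ q := fun h => hrN (h ▸ hqN)
  have hsqNr : Squarefree (N * r) := by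
    refine (Nat.squarefree_mul ((Nat.Coprime.symm
      ((Nat.Prime.coprime_iff_not_dvd hr).2 hrN)))).2 ⟨hsq, hr.squarefree⟩
  obtain ⟨f', 𝔪', hf', h𝔪', h3𝔪', hcong'⟩ :=
    Fermat.Agent.S38.H75.raise_level W 3 hsqNr (dvd_mul_right N r) hres
  have hunr : UnrW W 3 r := unrW_of_good 3 h3 (by decide) W hΔ hW hirr r hr hr3' hgood
  have hLC : LowerConcl 3 (N * r) q W :=
    hA W hΔ hW hirr (N * r) q r hsqNr (h3N.mul_right r) h3Δ hpeu hq hq3 (hqN.mul_right r) hunrq
      hr (dvd_mul_left r N) hrq hr3 hgood hunr hra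
      (fun q' hq' hq'3 hq'Nr hq'r hu => by
        rcases (Nat.Prime.dvd_mul hq').1 hq'Nr with h | h
        · exact hexc q' hq' hq'3 h hu
        · exact absurd ((Nat.prime_dvd_prime_iff_eq hq' hr).1 h) hq'r)
      f' 𝔪' ∅ hf' h𝔪' h3𝔪' (fun ℓ hℓ _ hg hℓN hℓp => hcong' ℓ hℓ hg hℓN hℓp)
  exact lowerConcl_of_aux_step hNE W hΔ hW hirr N q r hsq hq hqN hr hrN hr3 hgood hLC

end Fermat.Agent.L.Pivot3.H75

end
-- ==== END Fermat.Agent.L.Pivot3.H75_Top

-- ==== BEGIN Fermat.Agent.S27.Char0.Lift.H45_Concl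
section

/-!
# S27 LIFT, leaf CONCL (helper45)

`stmt_Concl : Stmt_Concl`: for a solution `h` of the norm system, `n ∣ ord_P h` at every place.

Put `D₁ := div h + n E' ≥ 0`.  By the divisor identity `r_* D₁ = n · ptsDiv A`.
* Over `Q ∉ A` the fibre of `D₁` is zero.
* Over `Q ∈ A`: `x - a_Q` has a unique zero `X` in the fibre, and it is simple.  By the norm
  formula on the fibre `T = {x = a_Q}` and the norm equation, `∑_{P ∈ T} D₁ P = n`; the places of
  `T` other than `X` lie over points outside `A`, so `D₁ X = n`, and `D₁` vanishes at the other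
  places of the fibre of `Q`.
-/

set_option autoImplicit false

noncomputable section

open AlgebraicCurve IntermediateField

namespace Fermat.Agent.S27.Char0.Lift.H45

open Fermat.Agent.RED.H17 Fermat.Agent.S27.Char0 Fermat.Agent.S24

attribute [local instance] Classical.propDecidable

local notation "L" => riemannRochSpace

universe u v u' v'

section Fibre

variable {α β : Type*} (r : α → β)

/-- If one point carries the whole mass of the fibre, the others carry none. -/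
theorem fibre_single {E : α →₀ ℤ} (hE : ∀ a, 0 ≤ E a) {b : β} {x : α} (hx : r x = b)
    (hb : Finsupp.mapDomain r E b = E x) {a : α} (ha : r a = b) (hax : a ≠ x) : E a = 0 := by
  have hnn : ∀ y, 0 ≤ (E - Finsupp.single x (E x)) y := by
    intro y
    rw [Finsupp.sub_apply, Finsupp.single_apply]
    split_ifs with hxy
    · rw [hxy, sub_self]
    · rw [sub_zero]; exact hE y
  have h0 : Finsupp.mapDomain r (E - Finsupp.single x (E x)) b = 0 := by
    rw [Finsupp.mapDomain_sub, Finsupp.sub_apply, Finsupp.mapDomain_single,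
      Finsupp.single_apply, if_pos hx, hb, sub_self]
  have := fibre_zero r hnn h0 ha
  rw [Finsupp.sub_apply, Finsupp.single_apply, if_neg (Ne.symm hax), sub_zero] at this
  exact this

end Fibre

section Main

variable {K : Type u} {F : Type v} {k : Type u'} {Ft : Type v'} [Field K] [Field F]
  [Algebra K F] [Field k] [Field Ft] [Algebra k Ft]

/-- The order of `x - a'` at a simple zero of `x - a`. -/
theorem ord_sub_const_at {x : F} (_hx : ∀ a : K, x - algebraMap K F a ≠ 0) {X : Place K F}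
    {a : K} (hX : X.ord (x - algebraMap K F a) = 1) (a' : K) :
    X.ord (x - algebraMap K F a') = if a' = a then 1 else 0 := by
  split_ifs with h
  · rw [h]; exact hX
  · have h1 : x - algebraMap K F a' = algebraMap K F (a - a') + (x - algebraMap K F a) := by
      rw [map_sub]; ring
    have h2 : a - a' ≠ 0 := sub_ne_zero.mpr (Ne.symm h)
    rw [h1, ord_add_of_lt X ((map_ne_zero (algebraMap K F)).mpr h2)
      (Or.inr (by rw [ord_algebraMap, hX]; exact one_pos)), ord_algebraMap]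

theorem stmt_Concl : Stmt_Concl.{u, v, u', v'} := by
  intro K F k Ft _ _ _ _ _ _ _ _ _ G H H' g c c' hg hg' n hn E Gd N Ld h hsol P₀
  have hP := H.principal
  have hGU : G.S.IsGU h := ⟨hsol.mem_V, by rw [hsol.rd_eq]; exact Gd.ht_ne⟩
  have hh0 : h ≠ 0 := hGU.ne_zero
  set D₁ : Divisor K F := dv hP h + (n : ℤ) • Ld.E' with hD₁
  have hD₁a : ∀ P, D₁ P = P.ord h + n * Ld.E' P := by
    intro P
    rw [hD₁, Finsupp.add_apply, dv_apply, Finsupp.smul_apply, smul_eq_mul]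
  have hD₁nn : ∀ P, 0 ≤ D₁ P := by
    intro P
    have := ord_ge_of_mem_L hsol.mem_L hh0 P
    rw [Finsupp.smul_apply, smul_eq_mul] at this
    rw [hD₁a]
    omega
  have hpush : ∀ Q, Finsupp.mapDomain G.S.r D₁ Q = n * ptsDiv Gd.A Q := by
    intro Q
    rw [hD₁, Finsupp.mapDomain_add, Finsupp.add_apply, G.S.mapDomain_dv hP hGU Q, hsol.rd_eq,
      Gd.div_ht Q, Finsupp.mapDomain_smul, Finsupp.smul_apply, Ld.push, smul_eq_mul]
    ring
  -- the fibres over points outside `A`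
  have hout : ∀ P, G.S.r P ∉ Gd.A → D₁ P = 0 := by
    intro P hPA
    exact fibre_zero G.S.r hD₁nn (by rw [hpush, ptsDiv_apply, if_neg hPA, mul_zero]) rfl
  suffices hmain : (n : ℤ) ∣ D₁ P₀ by
    have h1 := hD₁a P₀
    have h2 : P₀.ord h = D₁ P₀ - n * Ld.E' P₀ := by omega
    rw [h2]
    exact dvd_sub hmain (dvd_mul_right _ _)
  by_cases hQA : G.S.r P₀ ∈ Gd.A
  swap
  · rw [hout P₀ hQA]
    exact dvd_zero _
  -- the fibre over `Q ∈ A`
  set Q := G.S.r P₀ with hQ
  obtain ⟨c₀, a, hc₀, ha, hnorm⟩ := hsol.norm_eq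
  have haQ := ha Q hQA
  have hcoord := isCoord_sub G H H' (Gd.simple Q hQA) haQ.1 haQ.2
  obtain ⟨X, hXQ, hX1, hXother⟩ := hcoord.exists_zero hP
  have hxtr := x_transc G
  have hxne : ∀ a' : K, G.x - algebraMap K F a' ≠ 0 := by
    intro a' h0
    apply hxtr
    rw [sub_eq_zero.mp h0]
    exact isAlgebraic_algebraMap a'
  have hfin := G.fin
  obtain ⟨T, hT, hTsum⟩ := norm_at_simple hP G.x hxtr (a Q) X hX1
  have hsumh := hTsum h hh0
  have hordX := fun a' => ord_sub_const_at hxne hX1 a'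
  -- injectivity of the lifts
  have hainj : ∀ Q' ∈ Gd.A, a Q' = a Q → Q' = Q := by
    intro Q' hQ' haa
    have h1 := (ha Q' hQ').2
    rw [haa, haQ.2] at h1
    exact Gd.inj Q' hQ' Q hQA ((algebraMap k Ft).injective h1).symm
  -- the order of the right-hand side
  have hR : X.ord (algebraMap K F c₀ * ∏ Q' ∈ Gd.A, (G.x - algebraMap K F (a Q')) ^ n) = n := by
    rw [ord_algebraMap_mul X hc₀, ord_prod X _ _ fun Q' _ => pow_ne_zero _ (hxne _)]
    have h1 : ∀ Q' ∈ Gd.A, X.ord ((G.x - algebraMap K F (a Q')) ^ n)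
        = if Q' = Q then (n : ℤ) else 0 := by
      intro Q' hQ'
      rw [ord_pow, hordX]
      by_cases hQQ : Q' = Q
      · rw [if_pos hQQ, if_pos (by rw [hQQ]), mul_one]
      · rw [if_neg hQQ, if_neg (fun haa => hQQ (hainj Q' hQ' haa)), mul_zero]
    rw [Finset.sum_congr rfl h1, Finset.sum_ite_eq' Gd.A Q, if_pos hQA]
  -- the order of `dfin`
  set Sfin := Ld.E'.support.filter (fun P => 0 ≤ P.ord G.x) with hSfin
  have hDf : X.ord (dfin G n Ld.E' Ld.b)
      = ∑ P ∈ Sfin, if Ld.b P = a Q then (n : ℤ) * Ld.E' P else 0 := by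
    unfold dfin
    rw [ord_prod X _ _ fun P _ => pow_ne_zero _ (hxne _)]
    refine Finset.sum_congr rfl fun P _ => ?_
    rw [ord_pow, hordX]
    split_ifs
    · rw [mul_one]
      push_cast
      rw [Int.toNat_of_nonneg (Ld.eff P)]
    · rw [mul_zero]
  have hdfin0 : dfin G n Ld.E' Ld.b ≠ 0 := by
    unfold dfin
    exact Finset.prod_ne_zero_iff.mpr fun P _ => pow_ne_zero _ (hxne _)
  have hN0 : algebraMap ↥K⟮G.x⟯ F (Algebra.norm ↥K⟮G.x⟯ h) ≠ 0 :=
    (map_ne_zero _).mpr (Algebra.norm_ne_zero_iff.mpr hh0)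
  have hordN : X.ord (algebraMap ↥K⟮G.x⟯ F (Algebra.norm ↥K⟮G.x⟯ h))
      = n - ∑ P ∈ Sfin, if Ld.b P = a Q then (n : ℤ) * Ld.E' P else 0 := by
    have h1 := congrArg X.ord hnorm
    rw [X.ord_mul hdfin0 hN0, hR, hDf] at h1
    omega
  -- the places of `E'` in `T`
  have hreg_of_T : ∀ P ∈ T, 0 ≤ P.ord G.x := by
    intro P hPT
    have h1 : VanAt P (G.x - algebraMap K F (a Q)) := vanAt_of_ord_pos ((hT P).mp hPT)
    exact (RegAt.of_vanAt_sub h1).ord_nonneg
  have hval : ∀ P ∈ Ld.E'.support, 0 ≤ P.ord G.x →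
      0 < P.ord (G.x - algebraMap K F (Ld.b P)) := by
    intro P hPs hPx
    refine Ld.value P hPs ?_
    by_contra hneg
    have := Ld.pole P hPs (not_le.mp hneg)
    omega
  have hTE : ∑ P ∈ T, (n : ℤ) * Ld.E' P
      = ∑ P ∈ Sfin, if Ld.b P = a Q then (n : ℤ) * Ld.E' P else 0 := by
    rw [← Finset.sum_filter]
    have hset : Sfin.filter (fun P => Ld.b P = a Q) = T.filter (fun P => P ∈ Ld.E'.support) := by
      ext P
      simp only [hSfin, Finset.mem_filter]
      constructor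
      · rintro ⟨⟨hPs, hPx⟩, hb⟩
        refine ⟨(hT P).mpr ?_, hPs⟩
        rw [← hb]
        exact hval P hPs hPx
      · rintro ⟨hPT, hPs⟩
        have hPx := hreg_of_T P hPT
        refine ⟨⟨hPs, hPx⟩, ?_⟩
        exact value_unique P (vanAt_of_ord_pos (hval P hPs hPx))
          (vanAt_of_ord_pos ((hT P).mp hPT))
    rw [hset, Finset.sum_filter]
    refine Finset.sum_congr rfl fun P _ => ?_
    split_ifs with hPs
    · rfl
    · rw [Finsupp.notMem_support_iff.mp hPs, mul_zero]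
  have htot : ∑ P ∈ T, D₁ P = n := by
    have h1 : ∑ P ∈ T, D₁ P = ∑ P ∈ T, P.ord h + ∑ P ∈ T, (n : ℤ) * Ld.E' P := by
      rw [← Finset.sum_add_distrib]
      exact Finset.sum_congr rfl fun P _ => hD₁a P
    rw [h1, hsumh, hordN, hTE]
    ring
  -- the places of `T` other than `X`
  have hXT : X ∈ T := (hT X).mpr (by rw [hX1]; exact one_pos)
  have hoth : ∀ P ∈ T, P ≠ X → D₁ P = 0 := by
    intro P hPT hPX
    apply hout
    intro hPA
    have hPvan : VanAt P (G.x - algebraMap K F (a Q)) := vanAt_of_ord_pos ((hT P).mp hPT)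
    by_cases hPQ : G.S.r P = Q
    · have := hXother P hPQ hPX
      have := (hT P).mp hPT
      omega
    · -- `r P ∈ A` has another `x`-value
      have hQ'1 := Gd.simple (G.S.r P) hPA
      have hQ'reg : 0 ≤ (G.S.r P).ord (G.S.rd G.x) :=
        xt_ord_nonneg G (by rw [hQ'1]; exact one_pos)
      have hreg : ∀ P', G.S.r P' = G.S.r P → 0 ≤ P'.ord G.x := fun P' hP' =>
        ord_nonneg_of_ord_nonneg G H H' (by rw [hP']; exact hQ'reg)
      obtain ⟨-, h4⟩ := G.S.const_of_vanAt hP G.hx hreg rfl hPvan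
      rw [haQ.2] at h4
      have h5 : VanAt (G.S.r P) (G.S.rd G.x - algebraMap k Ft (Gd.α (G.S.r P))) :=
        vanAt_of_ord_pos (by rw [hQ'1]; exact one_pos)
      have h6 := value_unique (G.S.r P) h5 h4
      exact hPQ (Gd.inj (G.S.r P) hPA Q hQA h6)
  have hD₁X : D₁ X = n := by
    rw [← htot]
    exact (Finset.sum_eq_single_of_mem X hXT fun P hPT hPX => hoth P hPT hPX).symm
  by_cases hP₀X : P₀ = X
  · rw [hP₀X, hD₁X]
  · have h1 : Finsupp.mapDomain G.S.r D₁ Q = D₁ X := by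
      rw [hpush, ptsDiv_apply, if_pos hQA, mul_one, hD₁X]
    rw [fibre_single G.S.r hD₁nn hXQ h1 rfl hP₀X]
    exact dvd_zero _

end Main

end Fermat.Agent.S27.Char0.Lift.H45

end
end
-- ==== END Fermat.Agent.S27.Char0.Lift.H45_Concl

-- ==== BEGIN Fermat.Agent.S27.Char0.Lift.H45_RamFin
section

/-!
# S27 LIFT, leaf RAMFIN (helper45)

`stmt_RamFin : Stmt_RamFin`: for `Ft / k(xt)` finite separable, all but finitely many places of
`Ft` are simple `α`-points of `xt`.

Proof: `y` a primitive element with minimal polynomial `m` over `B = k(xt)`, Bezout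
`a m + b m' = 1`.  Let `Q` be a place at which `xt` and (the images of) all the coefficients of
`m, a, b` are units or zero, `α = xt(Q)`, `v₀ = Q|_B`.  The reduction `m̄` of `m` at `v₀` is
separable of degree `N = [Ft : B]`, so it has `N` distinct roots `β`.  For each of them
`N(y - β) = ± m(β)` vanishes at `v₀`, so by the norm formula some place `P_β` over `v₀` is a
zero of `y - β`.  These `N` places are distinct, and `∑_{P | v₀} e(P) = N`: all `e(P) = 1`.
-/

set_option autoImplicit false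

noncomputable section

open AlgebraicCurve IntermediateField Polynomial

namespace Fermat.Agent.S27.Char0.Lift.H45

open Fermat.Agent.RED.H17 Fermat.Agent.RED.H51 Fermat.Agent.S24 Fermat.Agent.RED.H10
  Fermat.Agent.S27.Char0

attribute [local instance] Classical.propDecidable

universe u v u' v'

/-- The norm of `y - β` for a generator `y`. -/
theorem norm_gen_sub {R : Type u} {S : Type v} [CommRing R] [Ring S] [Algebra R S]
    (pb : PowerBasis R S) (β : R) :
    Algebra.norm R (pb.gen - algebraMap R S β) = (-1) ^ pb.dim * (minpoly R pb.gen).eval β := by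
  classical
  rw [Algebra.norm_eq_matrix_det pb.basis, map_sub, AlgHom.commutes]
  have h : Algebra.leftMulMatrix pb.basis pb.gen
        - algebraMap R (Matrix (Fin pb.dim) (Fin pb.dim) R) β
      = -(Matrix.scalar (Fin pb.dim) β - Algebra.leftMulMatrix pb.basis pb.gen) := by
    rw [neg_sub]
    rfl
  rw [h, Matrix.det_neg, ← Matrix.eval_charpoly, charpoly_leftMulMatrix, Fintype.card_fin]

/-- A power basis generated by a primitive element. -/
theorem exists_powerBasis_gen {K : Type u} {L : Type v} [Field K] [Field L] [Algebra K L]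
    [FiniteDimensional K L] {y : L} (hy : K⟮y⟯ = ⊤) :
    ∃ pb : PowerBasis K L, pb.gen = y := by
  have hyint : IsIntegral K y := Algebra.IsIntegral.isIntegral y
  refine ⟨(adjoin.powerBasis hyint).map ((equivOfEq hy).trans topEquiv), ?_⟩
  rw [PowerBasis.map_gen, adjoin.powerBasis_gen]
  rfl

section Reduction

variable {R : Type u} [CommRing R] (O : Subring R) {k : Type v} [Field k] (ev : O →+* k)

/-- Reduction of a separable monic polynomial with a Bezout relation over `O`. -/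
theorem separable_reduction {m a b : R[X]} (hab : a * m + b * derivative m = 1)
    (hm : (↑m.coeffs : Set R) ⊆ O) (ha : (↑a.coeffs : Set R) ⊆ O)
    (hb : (↑b.coeffs : Set R) ⊆ O) :
    ((m.toSubring O hm).map ev).Separable := by
  have h1 : a.toSubring O ha * m.toSubring O hm
      + b.toSubring O hb * derivative (m.toSubring O hm) = 1 := by
    apply Polynomial.map_injective O.subtype Subtype.val_injective
    rw [Polynomial.map_add, Polynomial.map_mul, Polynomial.map_mul, ← derivative_map,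
      map_toSubring, map_toSubring, map_toSubring, Polynomial.map_one]
    exact hab
  rw [separable_def]
  refine ⟨(a.toSubring O ha).map ev, (b.toSubring O hb).map ev, ?_⟩
  rw [derivative_map, ← Polynomial.map_mul, ← Polynomial.map_mul, ← Polynomial.map_add, h1,
    Polynomial.map_one]

end Reduction

theorem stmt_RamFin : Stmt_RamFin.{u', v'} := by
  intro k Ft _ _ _ _ H' xt hxt hfin hsep
  classical
  have hP := H'.principal
  -- a primitive element
  obtain ⟨y, hy⟩ := Field.exists_primitive_element ↥k⟮xt⟯ Ft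
  obtain ⟨pb, hpb⟩ := exists_powerBasis_gen hy
  have hyint : IsIntegral ↥k⟮xt⟯ y := Algebra.IsIntegral.isIntegral y
  obtain ⟨m, hm⟩ : ∃ m : (↥k⟮xt⟯)[X], m = minpoly ↥k⟮xt⟯ y := ⟨_, rfl⟩
  have hmmonic : m.Monic := by rw [hm]; exact minpoly.monic hyint
  have hmsep : m.Separable := by rw [hm]; exact Algebra.IsSeparable.isSeparable ↥k⟮xt⟯ y
  have hmdeg : m.natDegree = Module.finrank ↥k⟮xt⟯ Ft := by
    rw [pb.finrank, ← pb.natDegree_minpoly, hpb, hm]
  obtain ⟨a, b, hab⟩ := (separable_def m).mp hmsep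
  -- the bad set
  obtain ⟨Cf, hCf⟩ : ∃ C : Finset ↥k⟮xt⟯, C = m.coeffs ∪ a.coeffs ∪ b.coeffs := ⟨_, rfl⟩
  refine ⟨(finite_ord_ne_zero hP xt).toFinset ∪
    Cf.biUnion (fun c => (finite_ord_ne_zero hP (algebraMap ↥k⟮xt⟯ Ft c)).toFinset),
    fun Q hQ => ?_⟩
  have hQx : Q.ord xt = 0 := by
    by_contra h
    exact hQ (Finset.mem_union_left _ ((Set.Finite.mem_toFinset _).mpr h))
  have hQc : ∀ c ∈ Cf, Q.ord (algebraMap ↥k⟮xt⟯ Ft c) = 0 := by
    intro c hc
    by_contra h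
    exact hQ (Finset.mem_union_right _
      (Finset.mem_biUnion.mpr ⟨c, hc, (Set.Finite.mem_toFinset _).mpr h⟩))
  obtain ⟨α, hα⟩ := _root_.Fermat.Agent.RED.H17.exists_value Q (H'.deg_one Q) (regAt_of_ord_nonneg hQx.ge)
  refine ⟨α, ?_⟩
  have hxne : xt - algebraMap k Ft α ≠ 0 := by
    intro h0
    apply hxt
    rw [sub_eq_zero.mp h0]
    exact isAlgebraic_algebraMap α
  have hαpos : 0 < Q.ord (xt - algebraMap k Ft α) := hα.ord_pos hxne
  -- the rational function field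
  obtain ⟨g, hg⟩ : ∃ g : ↥k⟮xt⟯, g = AdjoinSimple.gen k xt := ⟨_, rfl⟩
  have hgx : algebraMap ↥k⟮xt⟯ Ft g = xt := by rw [hg]; rfl
  have hgtr : Transcendental k g :=
    (transcendental_algebraMap_iff (algebraMap ↥k⟮xt⟯ Ft).injective).mp (by rw [hgx]; exact hxt)
  have hgtop : k⟮g⟯ = (⊤ : IntermediateField k ↥k⟮xt⟯) := by rw [hg]; exact adjoin_gen_eq_top_u xt
  have hfinE : FiniteDimensional ↥k⟮g⟯ ↥k⟮xt⟯ := (finrank_of_eq_top_u k⟮g⟯ hgtop).1
  have hzE : H59.ZerosStmt k ↥k⟮xt⟯ := zerosStmt_u hgtr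
  have hzF : H59.ZerosStmt k Ft := zerosStmt_u hxt
  obtain ⟨y', hy'⟩ : ∃ z : ↥k⟮xt⟯, z = g - algebraMap k ↥k⟮xt⟯ α := ⟨_, rfl⟩
  have hytr : Transcendental k y' := by
    intro halg
    apply hgtr
    have h1 : g = y' + algebraMap k ↥k⟮xt⟯ α := by rw [hy']; ring
    rw [h1]
    exact halg.add (isAlgebraic_algebraMap α)
  have hytop : k⟮y'⟯ = (⊤ : IntermediateField k ↥k⟮xt⟯) := by
    rw [eq_top_iff, ← hgtop, adjoin_simple_le_iff]
    have h1 : g = y' + algebraMap k ↥k⟮xt⟯ α := by rw [hy']; ring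
    rw [h1]
    exact add_mem (mem_adjoin_simple_self k y') (IntermediateField.algebraMap_mem _ α)
  obtain ⟨v₁, hv₁, huniq⟩ := exists_unique_zero_of_top_u hzE y' hytr hytop
  have hyx : algebraMap ↥k⟮xt⟯ Ft y' = xt - algebraMap k Ft α := by
    rw [hy', map_sub, hgx, ← IsScalarTower.algebraMap_apply]
  obtain ⟨v₀, hv₀⟩ : ∃ v : Place k ↥k⟮xt⟯, v = Q.restrict ↥k⟮xt⟯ := ⟨_, rfl⟩
  have hposy : 0 < v₀.ord y' := by
    have h1 := Q.ord_restrict y'
    rw [hyx, ← hv₀] at h1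
    have hepos := Q.ramificationIndex_pos (F := ↥k⟮xt⟯)
    by_contra hneg
    rw [not_lt] at hneg
    have : (Q.ramificationIndex ↥k⟮xt⟯ : ℤ) * v₀.ord y' ≤ 0 :=
      mul_nonpos_of_nonneg_of_nonpos (by omega) hneg
    omega
  have hv₀₁ : v₀ = v₁ := huniq v₀ hposy
  have hv₀ord : v₀.ord y' = 1 := by rw [hv₀₁]; exact hv₁
  have hdeg0 : v₀.deg = 1 := ff_deg_eq_one g hgtr v₀
  have hdegF : ∀ w : Place k Ft, w.deg = 1 := H'.deg_one
  -- the coefficients are regular at `v₀`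
  have hCfO : ∀ c ∈ Cf, c ∈ v₀.toValuationSubring := by
    intro c hc
    rw [hv₀, Place.mem_restrict_iff]
    exact (regAt_iff_mem Q _).mp (regAt_of_ord_nonneg (hQc c hc).ge)
  obtain ⟨O, hO⟩ : ∃ O : Subring ↥k⟮xt⟯, O = v₀.toValuationSubring.toSubring := ⟨_, rfl⟩
  have hmO : (↑m.coeffs : Set ↥k⟮xt⟯) ⊆ O := by
    intro c hc
    rw [hO]
    exact hCfO c (by rw [hCf]; exact Finset.mem_union_left _ (Finset.mem_union_left _ hc))
  have haO : (↑a.coeffs : Set ↥k⟮xt⟯) ⊆ O := by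
    intro c hc
    rw [hO]
    exact hCfO c (by rw [hCf]; exact Finset.mem_union_left _ (Finset.mem_union_right _ hc))
  have hbO : (↑b.coeffs : Set ↥k⟮xt⟯) ⊆ O := by
    intro c hc
    rw [hO]
    exact hCfO c (by rw [hCf]; exact Finset.mem_union_right _ hc)
  subst hO
  let ev : ↥(v₀.toValuationSubring.toSubring) →+* k := valHom v₀ hdeg0
  obtain ⟨mbar, hmbar⟩ : ∃ q : k[X],
      q = (m.toSubring v₀.toValuationSubring.toSubring hmO).map ev := ⟨_, rfl⟩
  have hmbar_sep : mbar.Separable := by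
    rw [hmbar]
    exact separable_reduction _ ev hab hmO haO hbO
  have hmO_monic : (m.toSubring v₀.toValuationSubring.toSubring hmO).Monic :=
    (monic_toSubring m _ hmO).mpr hmmonic
  have hmbar_deg : mbar.natDegree = m.natDegree := by
    rw [hmbar, hmO_monic.natDegree_map, natDegree_toSubring]
  have hroots : mbar.roots.toFinset.card = m.natDegree := by
    rw [Multiset.toFinset_card_of_nodup (nodup_roots hmbar_sep), ← hmbar_deg]
    exact splits_iff_card_roots.mp (IsAlgClosed.splits mbar)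
  -- the fundamental identity
  have hsum := sum_ramificationIndex_eq hzE hzF hgtr hxt v₀ (v₀.fiber Ft)
    (fun w => Place.mem_fiber)
  -- a place over every root
  have hroot : ∀ β ∈ mbar.roots.toFinset, ∃ P : Place k Ft, P ∈ v₀.fiber Ft ∧
      VanAt P (y - algebraMap k Ft β) := by
    intro β hβ
    have hβ0 : mbar.eval β = 0 := by
      rw [Multiset.mem_toFinset] at hβ
      exact (mem_roots'.mp hβ).2
    by_cases hyβ : y - algebraMap k Ft β = 0
    · exact ⟨Q, Place.mem_fiber.mpr hv₀.symm, by rw [hyβ]; exact vanAt_zero Q⟩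
    have hβ' : algebraMap ↥k⟮xt⟯ Ft (algebraMap k ↥k⟮xt⟯ β) = algebraMap k Ft β :=
      (IsScalarTower.algebraMap_apply k ↥k⟮xt⟯ Ft β).symm
    have hN := norm_gen_sub pb (algebraMap k ↥k⟮xt⟯ β)
    rw [hpb, hβ', ← hm] at hN
    have hN0 : Algebra.norm ↥k⟮xt⟯ (y - algebraMap k Ft β) ≠ 0 :=
      Algebra.norm_ne_zero_iff.mpr hyβ
    -- the value of `m(β)` at `v₀`
    obtain ⟨βO, hβO⟩ : ∃ z : ↥(v₀.toValuationSubring.toSubring),
        z = algebraMap k ↥v₀.toValuationSubring β := ⟨_, rfl⟩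
    have hβOc : (βO : ↥k⟮xt⟯) = algebraMap k ↥k⟮xt⟯ β := by rw [hβO]; rfl
    have hevβ : ev βO = β := by rw [hβO]; exact valHom_algebraMap v₀ hdeg0 β
    have h1 : (((m.toSubring v₀.toValuationSubring.toSubring hmO).eval βO :
        ↥(v₀.toValuationSubring.toSubring)) : ↥k⟮xt⟯) = m.eval (algebraMap k ↥k⟮xt⟯ β) := by
      conv_rhs => rw [← map_toSubring m v₀.toValuationSubring.toSubring hmO, ← hβOc]
      rw [eval_map]
      exact (eval₂_at_apply (Subring.subtype _) βO).symm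
    have h2 : ev ((m.toSubring v₀.toValuationSubring.toSubring hmO).eval βO) = 0 := by
      rw [← hβ0, hmbar, eval_map, ← hevβ]
      exact (eval₂_at_apply ev βO).symm
    have h3 := ordGe_sub_valHom v₀ hdeg0
      ((m.toSubring v₀.toValuationSubring.toSubring hmO).eval βO)
    have h2' : valHom v₀ hdeg0 ((m.toSubring v₀.toValuationSubring.toSubring hmO).eval βO)
        = 0 := h2
    rw [h2', map_zero, sub_zero] at h3
    have h1' : (((m.toSubring v₀.toValuationSubring.toSubring hmO).eval βO :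
        ↥v₀.toValuationSubring) : ↥k⟮xt⟯) = m.eval (algebraMap k ↥k⟮xt⟯ β) := h1
    rw [h1'] at h3
    have hme0 : m.eval (algebraMap k ↥k⟮xt⟯ β) ≠ 0 := by
      intro h0
      rw [h0, mul_zero] at hN
      exact hN0 hN
    have h4 : 1 ≤ v₀.ord (m.eval (algebraMap k ↥k⟮xt⟯ β)) := h3.resolve_left hme0
    have hsign : ((-1 : ↥k⟮xt⟯) ^ pb.dim) = algebraMap k ↥k⟮xt⟯ ((-1) ^ pb.dim) := by
      rw [map_pow, map_neg, map_one]
    have h5 : v₀.ord (Algebra.norm ↥k⟮xt⟯ (y - algebraMap k Ft β))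
        = v₀.ord (m.eval (algebraMap k ↥k⟮xt⟯ β)) := by
      rw [hN, hsign, ord_algebraMap_mul v₀ (pow_ne_zero _ (neg_ne_zero.mpr one_ne_zero))]
    have h6 := norm_ord v₀ (v₀.fiber Ft) (fun w hw => Place.mem_fiber.mp hw) hsum hdegF hyβ
    rw [h5] at h6
    by_contra hcon
    push Not at hcon
    have h7 : ∑ w ∈ v₀.fiber Ft, w.ord (y - algebraMap k Ft β) ≤ 0 := by
      refine Finset.sum_nonpos fun w hw => ?_
      by_contra hpos
      exact hcon w hw (vanAt_of_ord_pos (not_le.mp hpos))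
    omega
  have : Nonempty (Place k Ft) := ⟨Q⟩
  choose! φ hφ using hroot
  have hinj : Set.InjOn φ (mbar.roots.toFinset : Set k) := by
    intro β hβ β' hβ' hφφ
    have h1 := (hφ β hβ).2
    have h2 := (hφ β' hβ').2
    rw [← hφφ] at h2
    exact value_unique (φ β) h1 h2
  have hcard : m.natDegree ≤ (v₀.fiber Ft).card := by
    rw [← hroots]
    exact Finset.card_le_card_of_injOn φ (fun β hβ => (hφ β hβ).1) hinj
  -- all the ramification indices are `1`
  have hQf : Q ∈ v₀.fiber Ft := Place.mem_fiber.mpr hv₀.symm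
  have heQ : Q.ramificationIndex ↥k⟮xt⟯ = 1 := by
    by_contra hne
    have hpos : ∀ w ∈ v₀.fiber Ft, 1 ≤ w.ramificationIndex ↥k⟮xt⟯ := fun w _ =>
      w.ramificationIndex_pos (F := ↥k⟮xt⟯)
    have hlt : ∑ _w ∈ v₀.fiber Ft, 1 < ∑ w ∈ v₀.fiber Ft, w.ramificationIndex ↥k⟮xt⟯ :=
      Finset.sum_lt_sum hpos ⟨Q, hQf, by have := hpos Q hQf; omega⟩
    rw [Finset.sum_const, smul_eq_mul, mul_one, hsum, ← hmdeg] at hlt
    omega
  have h1 := Q.ord_restrict y'
  rw [hyx, ← hv₀, hv₀ord, heQ] at h1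
  rw [h1]
  norm_num

end Fermat.Agent.S27.Char0.Lift.H45

end
end
-- ==== END Fermat.Agent.S27.Char0.Lift.H45_RamFin

-- ==== BEGIN Fermat.Agent.S27.IW.H64_Growth
section

set_option autoImplicit false
set_option linter.unusedSectionVars false

universe u

namespace Fermat.Agent.S27.IW.H64

open H68

variable {G : Type u} [AddCommGroup G]

/-- the fixed points of `φ^m`, in the two languages -/
theorem mem_fixE_pow (φ : G →+ G) (m : ℕ) (x : G) :
    x ∈ fixE (φ.toIntLinearMap ^ m) ↔ (⇑φ)^[m] x = x := by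
  rw [mem_fixE, Module.End.pow_apply]
  rfl

/-- the fixed points of `φ^m`, as types -/
def fixEquiv (φ : G →+ G) (m : ℕ) :
    ↥(fixE (φ.toIntLinearMap ^ m)) ≃ {x : G // (⇑φ)^[m] x = x} :=
  Equiv.subtypeEquivRight (mem_fixE_pow φ m)

/-- the `ℓ`-primary part of the fixed points -/
def primEquiv (ℓ : ℕ) (Q : Module.End ℤ G) :
    ↥(fixE Q ⊓ prim G ℓ) ≃ {x : ↥(fixE Q) // ∃ k : ℕ, (ℓ ^ k) • x = 0} where
  toFun x := ⟨⟨x.1, x.2.1⟩, by
    obtain ⟨k, hk⟩ := x.2.2
    exact ⟨k, Subtype.ext hk⟩⟩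
  invFun y := ⟨y.1.1, y.1.2, by
    obtain ⟨k, hk⟩ := y.2
    exact ⟨k, congrArg Subtype.val hk⟩⟩
  left_inv _ := rfl
  right_inv _ := rfl

section main

variable {ℓ : ℕ} [Fact ℓ.Prime] {φ : G →+ G} {n : ℕ} {A : Matrix (Fin n) (Fin n) ℤ}

theorem finite_fixE (h : Hyp ℓ φ A) {m : ℕ} (hm : 0 < m) :
    Finite ↥(fixE (φ.toIntLinearMap ^ m)) :=
  have := h.fin m hm
  Finite.of_equiv _ (fixEquiv φ m).symm

theorem card_fixE (h : Hyp ℓ φ A) {m : ℕ} (hm : 0 < m) :
    Nat.card ↥(fixE (φ.toIntLinearMap ^ m)) = (1 - A ^ m).det.natAbs := by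
  rw [Nat.card_congr (fixEquiv φ m), h.card m hm]

theorem det_natAbs_ne_zero (h : Hyp ℓ φ A) {m : ℕ} (hm : 0 < m) :
    (1 - A ^ m).det.natAbs ≠ 0 := by
  rw [← card_fixE h hm]
  have := finite_fixE h hm
  exact Nat.card_pos.ne'

/-- the order of the `ℓ`-primary part of the fixed points of `φ^m` -/
theorem card_prim_fixE (h : Hyp ℓ φ A) {m : ℕ} (hm : 0 < m) :
    Nat.card ↥(fixE (φ.toIntLinearMap ^ m) ⊓ prim G ℓ) =
      ℓ ^ (1 - A ^ m).det.natAbs.factorization ℓ := by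
  have := finite_fixE h hm
  rw [Nat.card_congr (primEquiv ℓ _), stmt_IW_Syl.{u} ℓ ↥(fixE (φ.toIntLinearMap ^ m)),
    card_fixE h hm]

theorem finite_prim_fixE (h : Hyp ℓ φ A) {m : ℕ} (hm : 0 < m) :
    Finite ↥(fixE (φ.toIntLinearMap ^ m) ⊓ prim G ℓ) :=
  have := finite_fixE h hm
  Finite.of_injective (fun x : ↥(fixE (φ.toIntLinearMap ^ m) ⊓ prim G ℓ) =>
    (⟨x.1, x.2.1⟩ : ↥(fixE (φ.toIntLinearMap ^ m)))) (fun x y hxy => by
      apply Subtype.ext
      have h1 := congrArg (fun z : ↥(fixE (φ.toIntLinearMap ^ m)) => (z : G)) hxy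
      exact h1)

/-- the factorization of a product `a * ℓ^n * u`, `ℓ ∤ u` -/
theorem factorization_of_eq {a b : ℤ} {u : ℤ} {c : ℕ} (ha : a.natAbs ≠ 0) (hu : ¬ (ℓ : ℤ) ∣ u)
    (hb : b = a * (ℓ : ℤ) ^ c * u) :
    b.natAbs.factorization ℓ = a.natAbs.factorization ℓ + c := by
  have hℓ : ℓ.Prime := Fact.out
  have hu0 : u.natAbs ≠ 0 := by
    intro h0
    rw [Int.natAbs_eq_zero] at h0
    exact hu (h0 ▸ dvd_zero _)
  have hu' : ¬ ℓ ∣ u.natAbs := fun hd => hu (Int.natCast_dvd.2 hd)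
  rw [hb, Int.natAbs_mul, Int.natAbs_mul, Int.natAbs_pow, Int.natAbs_natCast,
    Nat.factorization_mul (mul_ne_zero ha (pow_ne_zero _ hℓ.ne_zero)) hu0,
    Nat.factorization_mul ha (pow_ne_zero _ hℓ.ne_zero), Finsupp.add_apply, Finsupp.add_apply,
    hℓ.factorization_pow, Finsupp.single_eq_same, Nat.factorization_eq_zero_of_not_dvd hu',
    add_zero]

end main

/-- **IW-GROWTH**. -/
theorem stmt_IW_Growth : Stmt_IW_Growth.{u} := by
  intro ℓ _ G _ φ n A h
  have hℓ : ℓ.Prime := Fact.out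
  obtain ⟨e, he, hmat1, hmat2⟩ := stmt_IW_Mat ℓ n A h.det
  have hpos : ∀ j : ℕ, 0 < e * ℓ ^ j := fun j => Nat.mul_pos he (pow_pos hℓ.pos j)
  have hpow : ∀ j : ℕ, (φ.toIntLinearMap ^ e) ^ (ℓ ^ j) = φ.toIntLinearMap ^ (e * ℓ ^ j) :=
    fun j => (pow_mul _ _ _).symm
  -- the valuations
  have hval : ∀ j : ℕ, (1 - A ^ (e * ℓ ^ j)).det.natAbs.factorization ℓ =
      (1 - A ^ (e * ℓ ^ 0)).det.natAbs.factorization ℓ + n * j := by
    intro j
    induction j with
    | zero => simp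
    | succ j ih =>
      obtain ⟨u, hu, hdet⟩ := hmat2 j
      rw [factorization_of_eq (det_natAbs_ne_zero h (hpos j)) hu hdet, ih]
      ring
  refine ⟨e, (1 - A ^ (e * ℓ ^ 0)).det.natAbs.factorization ℓ, he, ?_, ?_, ?_⟩
  · intro j
    show Finite ↥(fixE ((φ.toIntLinearMap ^ e) ^ (ℓ ^ j)) ⊓ prim G ℓ)
    rw [hpow j]
    exact finite_prim_fixE h (hpos j)
  · intro j
    show Nat.card ↥(fixE ((φ.toIntLinearMap ^ e) ^ (ℓ ^ j)) ⊓ prim G ℓ) = _
    rw [hpow j, card_prim_fixE h (hpos j), hval j]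
  · intro x hx
    obtain ⟨m, hm, hxm⟩ := h.fix x
    -- `m = ℓ^j * m'`
    obtain ⟨j, m', hm', hmeq⟩ := Nat.exists_eq_pow_mul_and_not_dvd hm.ne' ℓ hℓ.ne_one
    refine ⟨j, ?_⟩
    rw [hpow j]
    have hpos' : 0 < e * m' * ℓ ^ j := by
      refine Nat.mul_pos (Nat.mul_pos he ?_) (pow_pos hℓ.pos j)
      rcases Nat.eq_zero_or_pos m' with h0 | h0
      · exact absurd (h0 ▸ dvd_zero ℓ) hm'
      · exact h0
    -- `x` is fixed by `φ^(e m' ℓ^j)`
    have hx1 : x ∈ fixE (φ.toIntLinearMap ^ (e * m' * ℓ ^ j)) := by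
      have h1 : x ∈ fixE (φ.toIntLinearMap ^ m) := (mem_fixE_pow φ m x).2 hxm
      have h2 := fixE_pow_le φ.toIntLinearMap m e h1
      have h3 : m * e = e * m' * ℓ ^ j := by rw [hmeq]; ring
      rwa [h3] at h2
    -- the two primary parts
    have hle : fixE (φ.toIntLinearMap ^ (e * ℓ ^ j)) ⊓ prim G ℓ ≤
        fixE (φ.toIntLinearMap ^ (e * m' * ℓ ^ j)) ⊓ prim G ℓ := by
      refine inf_le_inf_right _ ?_
      have h4 := fixE_pow_le φ.toIntLinearMap (e * ℓ ^ j) m'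
      have h5 : e * ℓ ^ j * m' = e * m' * ℓ ^ j := by ring
      rwa [h5] at h4
    have hcard : Nat.card ↥(fixE (φ.toIntLinearMap ^ (e * m' * ℓ ^ j)) ⊓ prim G ℓ) =
        Nat.card ↥(fixE (φ.toIntLinearMap ^ (e * ℓ ^ j)) ⊓ prim G ℓ) := by
      rw [card_prim_fixE h hpos', card_prim_fixE h (hpos j)]
      obtain ⟨u, hu, hdet⟩ := hmat1 m' j hm'
      have := factorization_of_eq (ℓ := ℓ) (a := (1 - A ^ (e * ℓ ^ j)).det)
        (b := (1 - A ^ (e * m' * ℓ ^ j)).det) (c := 0) (det_natAbs_ne_zero h (hpos j)) hu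
        (by rw [hdet, pow_zero, mul_one])
      rw [this, add_zero]
    have hfin := finite_prim_fixE h hpos'
    have heq : fixE (φ.toIntLinearMap ^ (e * ℓ ^ j)) ⊓ prim G ℓ =
        fixE (φ.toIntLinearMap ^ (e * m' * ℓ ^ j)) ⊓ prim G ℓ := by
      exact AddSubgroup.eq_of_le_of_card_ge hle hcard.le
    have hx2 : x ∈ fixE (φ.toIntLinearMap ^ (e * m' * ℓ ^ j)) ⊓ prim G ℓ := ⟨hx1, hx⟩
    rw [← heq] at hx2
    exact hx2.1

end Fermat.Agent.S27.IW.H64

end
-- ==== END Fermat.Agent.S27.IW.H64_Growth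

-- ==== BEGIN Fermat.Agent.S27.IW.H68_Final
section

set_option autoImplicit false

namespace Fermat.Agent.S27.IW.H68

universe u

theorem stmt_IW_Fin_of (hG : Stmt_IW_Growth.{u}) : Stmt_IW_Fin.{u} := by
  intro ℓ hℓ G _ φ n A h k
  obtain ⟨e, c₀, _, hgr⟩ := hG ℓ G φ n A h
  exact hgr.tors_finite hℓ.out k

theorem stmt_IW_Bound_of (hG : Stmt_IW_Growth.{u}) : Stmt_IW_Bound.{u} := by
  intro ℓ hℓ G _ φ n A h
  obtain ⟨e, c₀, _, hgr⟩ := hG ℓ G φ n A h
  exact hgr.tors_card_le hℓ.out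

theorem stmt_IW_Card_of (hG : Stmt_IW_Growth.{u}) : Stmt_IW_Card.{u} := by
  intro ℓ hℓ G _ φ n A h hdiv k
  obtain ⟨e, c₀, _, hgr⟩ := hG ℓ G φ n A h
  exact hgr.tors_card hℓ.out hdiv k

end Fermat.Agent.S27.IW.H68

end
-- ==== END Fermat.Agent.S27.IW.H68_Final

-- ==== BEGIN Fermat.Agent.S27.REDu.H10_ConsNorm
section

/-!
# G-RED package CONS (helper10), part C1: norm and characteristic polynomial commute with reduction

Setting of helper34's `H34_Lattice`: `S : RedSetting C F k Ft`, `x ∈ V` with transcendental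
reduction `xt`, `bF` a `C(x)`-basis of `F` contained in `V` whose reduction `bt` is a
`k(xt)`-basis of `Ft`.

* `mulMat`       : the matrix of multiplication by `f ∈ V`, with entries in `Vx = V ∩ C(x)`;
* `mulMat_map_subtype`, `mulMat_map_redx` : it maps to the matrices of `f` and of `red f`;
* `norm_red`     : `N f ∈ Vx` and `red (N f) = N (red f)`;
* `charpoly_red` : the same for the characteristic polynomial.
-/

set_option autoImplicit false

universe uC uCf uK uR uF uL uE uk ukap uFp uFt uFtp uiot uEp uKp ux3b1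

noncomputable section

open Polynomial IntermediateField

namespace Fermat.Agent.S27.REDu.H10

open Fermat.Agent.S27.REDu.H34 Fermat.Agent.S27.REDu.H34.RedSetting

variable {C : Type uC} {F : Type uF} {k : Type uk} {Ft : Type uFt} [Field C] [Field F] [Algebra C F] [Field k] [Field Ft] [Algebra k Ft]
variable {S : RedSetting C F k Ft} {x : F} (hx : x ∈ S.V)
variable {ι : Type uiot} [Fintype ι] [DecidableEq ι]
variable (bF : Module.Basis ι ↥C⟮x⟯ F) (hbV : ∀ i, bF i ∈ S.V)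
variable (bt : Module.Basis ι ↥k⟮S.red ⟨x, hx⟩⟯ Ft) (hbt : ∀ i, bt i = S.red ⟨bF i, hbV i⟩)

/-- The matrix of multiplication by `f ∈ V` in the basis `bF`, with entries in `Vx`. -/
def mulMat (hxt : Transcendental k (S.red ⟨x, hx⟩)) (f : F) (hf : f ∈ S.V) :
    Matrix ι ι ↥(S.Vx x) :=
  Matrix.of fun i j => ⟨bF.repr (f * bF j) i,
    repr_mem_V hx bF hbV bt hbt hxt _ (mul_mem hf (hbV j)) i⟩

theorem mulMat_map_subtype (hxt : Transcendental k (S.red ⟨x, hx⟩)) (f : F) (hf : f ∈ S.V) :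
    (S.Vx x).subtype.mapMatrix (mulMat hx bF hbV bt hbt hxt f hf) =
      Algebra.leftMulMatrix bF f := by
  refine Matrix.ext fun i j => ?_
  rw [Algebra.leftMulMatrix_eq_repr_mul]
  rfl

theorem mulMat_map_redx (hxt : Transcendental k (S.red ⟨x, hx⟩)) (f : F) (hf : f ∈ S.V) :
    (redx hx hxt).mapMatrix (mulMat hx bF hbV bt hbt hxt f hf) =
      Algebra.leftMulMatrix bt (S.red ⟨f, hf⟩) := by
  refine Matrix.ext fun i j => ?_
  rw [Algebra.leftMulMatrix_eq_repr_mul, hbt j, ← map_mul]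
  exact (repr_red hx bF hbV bt hbt hxt (f * bF j) (mul_mem hf (hbV j)) i).symm

include hbt in
/-- The norm of an element of `V` lies in `Vx`, and reduces to the norm of the reduction. -/
theorem norm_red (hxt : Transcendental k (S.red ⟨x, hx⟩)) (f : F) (hf : f ∈ S.V) :
    ∃ t : ↥(S.Vx x), (t : ↥C⟮x⟯) = Algebra.norm ↥C⟮x⟯ f ∧
      redx hx hxt t = Algebra.norm ↥k⟮S.red ⟨x, hx⟩⟯ (S.red ⟨f, hf⟩) := by
  refine ⟨(mulMat hx bF hbV bt hbt hxt f hf).det, ?_, ?_⟩
  · rw [Algebra.norm_eq_matrix_det bF, ← mulMat_map_subtype hx bF hbV bt hbt hxt f hf,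
      ← RingHom.map_det]
    rfl
  · rw [Algebra.norm_eq_matrix_det bt, ← mulMat_map_redx hx bF hbV bt hbt hxt f hf,
      ← RingHom.map_det]

include hbt in
/-- The characteristic polynomial of an element of `V` has coefficients in `Vx`, and reduces to
the characteristic polynomial of the reduction. -/
theorem charpoly_red (hxt : Transcendental k (S.red ⟨x, hx⟩)) (f : F) (hf : f ∈ S.V) :
    ∃ χ : (↥(S.Vx x))[X], χ.Monic ∧
      χ.map (S.Vx x).subtype = (Algebra.leftMulMatrix bF f).charpoly ∧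
      χ.map (redx hx hxt) = (Algebra.leftMulMatrix bt (S.red ⟨f, hf⟩)).charpoly := by
  refine ⟨(mulMat hx bF hbV bt hbt hxt f hf).charpoly, Matrix.charpoly_monic _, ?_, ?_⟩
  · rw [← mulMat_map_subtype hx bF hbV bt hbt hxt f hf, RingHom.mapMatrix_apply,
      Matrix.charpoly_map]
  · rw [← mulMat_map_redx hx bF hbV bt hbt hxt f hf, RingHom.mapMatrix_apply,
      Matrix.charpoly_map]

end Fermat.Agent.S27.REDu.H10

end
end
-- ==== END Fermat.Agent.S27.REDu.H10_ConsNorm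

-- ==== BEGIN Fermat.Agent.S27.REDu.H12_ZeroAll
section

set_option autoImplicit false

universe uC uCf uK uR uF uL uE uk ukap uFp uFt uFtp uiot uEp uKp ux3b1

namespace Fermat.Agent.S27.REDu.H12

open IntermediateField AlgebraicCurve

theorem existsZeroAll : Fermat.Agent.S27.REDu.H42.ExistsZeroAll.{uK, uF} := by
  intro K F _ _ _ _ hFF x hx
  obtain ⟨x₀, hx₀, hfin₀⟩ := hFF
  have : FiniteDimensional K⟮x₀⟯ F := hfin₀
  exact exists_place_ord_pos
    (fun y hy => Fermat.Agent.S24.ff_finite_of_transcendental x₀ hx₀ y hy) x hx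

end Fermat.Agent.S27.REDu.H12

end
-- ==== END Fermat.Agent.S27.REDu.H12_ZeroAll

-- ==== BEGIN Fermat.Agent.S27.REDu.H34_Int
section

/-!
# G-RED package IG (helper34): the chart theorem, part 1 (integrality over `O[x]`)

* `exists_ortho_basis` : orthonormal bases exist when `[Ft : k(xt)] = [F : C(x)]`.
* `exists_monic_of_mem` (INT) : elements of `B ∩ V` are integral over `O[x]`.
-/

set_option autoImplicit false

universe uC uCf uK uR uF uL uE uk ukap uFp uFt uFtp uiot uEp uKp ux3b1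

noncomputable section

open Polynomial IntermediateField Module
open scoped IntermediateField.algebraAdjoinAdjoin nonZeroDivisors

namespace Fermat.Agent.S27.REDu.H34

variable {C : Type uC} {F : Type uF} {k : Type uk} {Ft : Type uFt} [Field C] [Field F] [Algebra C F] [Field k] [Field Ft] [Algebra k Ft]

/-- The characteristic polynomial over `R` of an element of the integral closure `B` maps to its
characteristic polynomial over `K`. -/
theorem charpoly_intClosure {R : Type uR} {K : Type uK} {L : Type uL} [CommRing R] [IsDomain R] [IsPrincipalIdealRing R]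
    [Field K] [Field L] [Algebra R K] [IsFractionRing R K] [Algebra K L] [Algebra R L]
    [IsScalarTower R K L] [FiniteDimensional K L] [Algebra.IsSeparable K L]
    (f : ↥(integralClosure R L)) :
    ∃ Φ : R[X], Φ.Monic ∧ Polynomial.aeval f Φ = 0 ∧
      Φ.map (algebraMap R K) = LinearMap.charpoly (Algebra.lmul K L (f : L)) := by
  classical
  have hinj : Function.Injective (algebraMap R L) := by
    rw [IsScalarTower.algebraMap_eq R K L]
    exact (algebraMap K L).injective.comp (IsFractionRing.injective R K)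
  have htf : Module.IsTorsionFree R L := by
    rw [Module.isTorsionFree_iff_algebraMap_injective]
    exact hinj
  have hfree : Module.Free R (integralClosure R L) :=
    IsIntegralClosure.module_free R K L (integralClosure R L)
  have hfin : Module.Finite R (integralClosure R L) :=
    IsIntegralClosure.finite R K L (integralClosure R L)
  let c := Module.Free.chooseBasis R (integralClosure R L)
  have hloc : IsLocalization (Algebra.algebraMapSubmonoid (integralClosure R L) R⁰) L :=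
    IsIntegralClosure.isLocalization R K L (integralClosure R L)
  refine ⟨(Algebra.leftMulMatrix c f).charpoly, Matrix.charpoly_monic _, ?_, ?_⟩
  · apply Algebra.leftMulMatrix_injective c
    rw [map_zero, ← Polynomial.aeval_algHom_apply]
    exact Matrix.aeval_self_charpoly _
  · have hb := Algebra.map_leftMulMatrix_localization R (Rₘ := K) (Sₘ := L) R⁰ c f
    rw [← Matrix.charpoly_map, ← RingHom.mapMatrix_apply, hb, Algebra.leftMulMatrix_apply,
      LinearMap.charpoly_toMatrix]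
    rfl

namespace RedSetting

variable {S : RedSetting C F k Ft} {x : F} (hx : x ∈ S.V)

/-- Existence of an orthonormal basis: a `C(x)`-basis of `F` in `V` reducing to a basis. -/
theorem exists_ortho_basis (hxt : Transcendental k (S.red ⟨x, hx⟩)) [FiniteDimensional ↥C⟮x⟯ F]
    (hdeg : Module.finrank ↥k⟮S.red ⟨x, hx⟩⟯ Ft = Module.finrank ↥C⟮x⟯ F) :
    ∃ (βF : Module.Basis (Fin (Module.finrank ↥C⟮x⟯ F)) ↥C⟮x⟯ F) (hβV : ∀ i, βF i ∈ S.V)
      (βt : Module.Basis (Fin (Module.finrank ↥C⟮x⟯ F)) ↥k⟮S.red ⟨x, hx⟩⟯ Ft),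
      ∀ i, βt i = S.red ⟨βF i, hβV i⟩ := by
  have hpos : 0 < Module.finrank ↥C⟮x⟯ F := Module.finrank_pos
  have hfin : FiniteDimensional ↥k⟮S.red ⟨x, hx⟩⟯ Ft :=
    Module.finite_of_finrank_pos (hdeg ▸ hpos)
  let βt : Module.Basis (Fin (Module.finrank ↥C⟮x⟯ F)) ↥k⟮S.red ⟨x, hx⟩⟯ Ft :=
    Module.finBasisOfFinrankEq _ _ hdeg
  choose β hβ using fun i => S.red_surj (βt i)
  have hlin : LinearIndependent ↥k⟮S.red ⟨x, hx⟩⟯
      (fun i => S.red ⟨((β i : ↥S.V) : F), (β i).2⟩) := by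
    have : (fun i => S.red ⟨((β i : ↥S.V) : F), (β i).2⟩) = βt := by
      funext i
      exact hβ i
    rw [this]
    exact βt.linearIndependent
  have hlinF := linearIndependent_lift hx (fun i => ((β i : ↥S.V) : F)) (fun i => (β i).2)
    hxt hlin
  have : Nonempty (Fin (Module.finrank ↥C⟮x⟯ F)) := ⟨⟨0, hpos⟩⟩
  refine ⟨basisOfLinearIndependentOfCardEqFinrank hlinF (by simp), ?_, βt, ?_⟩
  · intro i
    rw [coe_basisOfLinearIndependentOfCardEqFinrank]
    exact (β i).2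
  · intro i
    simp only [coe_basisOfLinearIndependentOfCardEqFinrank]
    exact (hβ i).symm

/-- The ring hom `O[X] → C[x]`. -/
def psiR (S : RedSetting C F k Ft) (hxC : Transcendental C x) :
    (↥S.O)[X] →+* ↥(Algebra.adjoin C {x}) :=
  (polyEquiv hxC).toRingEquiv.toRingHom.comp (Polynomial.mapRingHom S.O.subtype)

theorem coe_psiR (hxC : Transcendental C x) (p₀ : (↥S.O)[X]) :
    ((S.psiR hxC p₀ : ↥(Algebra.adjoin C {x})) : F) = ((psi hx p₀ : ↥S.V) : F) := by
  rw [coe_psi]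
  exact coe_polyEquiv hxC _

/-- Elements of `C[x] ∩ V` come from `O[X]`. -/
theorem exists_psiR_eq (hxt : Transcendental k (S.red ⟨x, hx⟩)) (hxC : Transcendental C x)
    (r : ↥(Algebra.adjoin C {x})) (hr : (r : F) ∈ S.V) :
    ∃ p₀ : (↥S.O)[X], S.psiR hxC p₀ = r := by
  obtain ⟨p, rfl⟩ := (polyEquiv hxC).surjective r
  rw [coe_polyEquiv] at hr
  obtain ⟨p₀, hp₀⟩ := exists_lift_of_aeval_mem hx hxt p hr
  exact ⟨p₀, by rw [← hp₀]; rfl⟩

/-- Coefficients of the characteristic polynomial of an element of `V` lie in `Vx`. -/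
theorem charpoly_coeff_mem (hxt : Transcendental k (S.red ⟨x, hx⟩)) [FiniteDimensional ↥C⟮x⟯ F]
    (hdeg : Module.finrank ↥k⟮S.red ⟨x, hx⟩⟯ Ft = Module.finrank ↥C⟮x⟯ F)
    (f : F) (hf : f ∈ S.V) (i : ℕ) :
    (LinearMap.charpoly (Algebra.lmul ↥C⟮x⟯ F f)).coeff i ∈ S.Vx x := by
  classical
  obtain ⟨βF, hβV, βt, hβt⟩ := exists_ortho_basis hx hxt hdeg
  have hmem : ∀ j, f * βF j ∈ S.V := fun j => mul_mem hf (hβV j)
  let MV : Matrix (Fin (Module.finrank ↥C⟮x⟯ F)) (Fin (Module.finrank ↥C⟮x⟯ F)) ↥(S.Vx x) :=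
    Matrix.of fun i j => ⟨βF.repr (f * βF j) i, repr_mem_V hx βF hβV βt hβt hxt _ (hmem j) i⟩
  have h1 : Algebra.leftMulMatrix βF f = (S.Vx x).subtype.mapMatrix MV := by
    ext i j
    rw [Algebra.leftMulMatrix_eq_repr_mul]
    rfl
  rw [← LinearMap.charpoly_toMatrix (Algebra.lmul ↥C⟮x⟯ F f) βF, ← Algebra.leftMulMatrix_apply, h1,
    RingHom.mapMatrix_apply, Matrix.charpoly_map, Polynomial.coeff_map]
  exact Subtype.mem _

/-- **(INT)** An element of `B ∩ V` is integral over `O[x]`. -/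
theorem exists_monic_of_mem [CharZero C] (hxt : Transcendental k (S.red ⟨x, hx⟩))
    [FiniteDimensional ↥C⟮x⟯ F]
    (hdeg : Module.finrank ↥k⟮S.red ⟨x, hx⟩⟯ Ft = Module.finrank ↥C⟮x⟯ F)
    (f : ↥(Bx (C := C) x)) (hf : (f : F) ∈ S.V) :
    ∃ Φ : ((↥S.O)[X])[X], Φ.Monic ∧
      Polynomial.eval₂ ((algebraMap ↥(Algebra.adjoin C {x}) ↥(Bx (C := C) x)).comp
        (S.psiR (transcendental_x hx hxt))) f Φ = 0 := by
  classical
  have hxC := transcendental_x hx hxt
  have hpid : IsPrincipalIdealRing ↥(Algebra.adjoin C {x}) := isPrincipalIdealRing_adjoin hxC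
  have hcz : CharZero ↥C⟮x⟯ := charZero_of_injective_algebraMap (algebraMap C ↥C⟮x⟯).injective
  obtain ⟨Φc, hmonic, hzero, hmap⟩ :=
    charpoly_intClosure (R := ↥(Algebra.adjoin C {x})) (K := ↥C⟮x⟯) (L := F) f
  -- coefficients lie in `V`
  have hcoeff : ∀ i, ((Φc.coeff i : ↥(Algebra.adjoin C {x})) : F) ∈ S.V := by
    intro i
    have h2 := charpoly_coeff_mem hx hxt hdeg (f : F) hf i
    rw [← hmap, Polynomial.coeff_map] at h2
    exact h2
  have hlifts : Φc ∈ Polynomial.lifts (S.psiR hxC) := by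
    rw [Polynomial.lifts_iff_coeff_lifts]
    intro i
    obtain ⟨p₀, hp₀⟩ := exists_psiR_eq hx hxt hxC (Φc.coeff i) (hcoeff i)
    exact ⟨p₀, hp₀⟩
  obtain ⟨Φ, hΦ, -, hΦm⟩ := Polynomial.lifts_and_degree_eq_and_monic hlifts hmonic
  refine ⟨Φ, hΦm, ?_⟩
  rw [← Polynomial.eval₂_map, hΦ]
  exact hzero

end RedSetting

end Fermat.Agent.S27.REDu.H34

end
end
-- ==== END Fermat.Agent.S27.REDu.H34_Int

-- ==== BEGIN Fermat.Agent.S27.REDu.H51_ZerosLe
section

/-!
# FF-B, piece P4 (helper51): the `≤` half of the zeros theorem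

For `x : F` and finitely many pairwise distinct zeros `v` of `x`, `∑ v(x) ≤ [F : K(x)]`
(Stichtenoth, Prop. 1.3.3).  Hence `x` has finitely many zeros.  This is
`Fermat.Agent.S27.REDu.H42.ZerosLeAll.{uK, uF}`.  No hypothesis on the characteristic.
-/

set_option autoImplicit false
set_option linter.style.haveILetI false

universe uC uCf uK uR uF uL uE uk ukap uFp uFt uFtp uiot uEp uKp ux3b1

noncomputable section

open AlgebraicCurve IntermediateField Polynomial

namespace Fermat.Agent.S27.REDu.H51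

variable {K F : Type*} [Field K] [Field F] [Algebra K F]

/-- Polynomials in an integral element are integral. -/
theorem ordGe_aeval (v : Place K F) {x : F} (hx : OrdGe v 0 x) (q : K[X]) :
    OrdGe v 0 (aeval x q) := by
  induction q using Polynomial.induction_on' with
  | add p q hp hq =>
    rw [map_add]
    exact hp.add hq
  | monomial n a =>
    rw [aeval_monomial]
    have h1 := (ordGe_algebraMap v a).mul (ordGe_pow hx n)
    exact h1.mono (by simp)

/-- A polynomial with nonzero constant term is a unit at every zero of `x`. -/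
theorem ord_aeval_of_coeff_zero_ne (v : Place K F) {x : F} (hx : 0 < v.ord x) {q : K[X]}
    (hq : q.coeff 0 ≠ 0) : aeval x q ≠ 0 ∧ v.ord (aeval x q) = 0 := by
  have hx1 : OrdGe v 1 x := Or.inr (by omega)
  have hx0 : OrdGe v 0 x := hx1.mono (by omega)
  have hdecomp : aeval x q = algebraMap K F (q.coeff 0) + x * aeval x q.divX := by
    conv_lhs => rw [← X_mul_divX_add q]
    rw [map_add, map_mul, aeval_X, aeval_C, add_comm]
  have hc0 : algebraMap K F (q.coeff 0) ≠ 0 := (map_ne_zero (algebraMap K F)).mpr hq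
  have h := ord_add_eq v hc0 (g := x * aeval x q.divX) (by
    rw [ord_algebraMap]
    have := hx1.mul (ordGe_aeval v hx0 q.divX)
    exact this.mono (by omega))
  rw [← hdecomp] at h
  exact ⟨h.1, h.2.trans (ord_algebraMap v _)⟩

/-- The order of a polynomial in `x` at a zero of `x`. -/
theorem ord_aeval (v : Place K F) {x : F} (hx : 0 < v.ord x) {p : K[X]} (hp : p ≠ 0) :
    aeval x p ≠ 0 ∧ v.ord (aeval x p) = (p.rootMultiplicity 0 : ℤ) * v.ord x := by
  obtain ⟨q, hpq, hq⟩ := exists_eq_pow_rootMultiplicity_mul_and_not_dvd p hp 0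
  rw [C_0, sub_zero] at hpq hq
  have hq0 : q.coeff 0 ≠ 0 := fun h => hq (X_dvd_iff.mpr h)
  obtain ⟨h1, h2⟩ := ord_aeval_of_coeff_zero_ne v hx hq0
  have hx0 : x ≠ 0 := ne_zero_of_ord_ne_zero v hx.ne'
  have heq : aeval x p = x ^ p.rootMultiplicity 0 * aeval x q := by
    conv_lhs => rw [hpq]
    rw [map_mul, map_pow, aeval_X]
  rw [heq]
  refine ⟨mul_ne_zero (pow_ne_zero _ hx0) h1, ?_⟩
  rw [v.ord_mul (pow_ne_zero _ hx0) h1, ord_pow, h2, add_zero]

/-- The order of an element of `K(x)` at a zero `v` of `x` is a multiple of `v(x)`, with a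
multiplier which does not depend on `v`. -/
theorem exists_ord_adjoin_simple (x : F) (c : K⟮x⟯) (hc : c ≠ 0) :
    ∃ m : ℤ, ∀ v : Place K F, 0 < v.ord x → v.ord (c : F) = v.ord x * m := by
  obtain ⟨r, s, hrs⟩ := (mem_adjoin_simple_iff K (c : F)).mp c.2
  have hcF : (c : F) ≠ 0 := fun h => hc (Subtype.ext h)
  have hr : r ≠ 0 := by
    rintro rfl
    rw [map_zero, zero_div] at hrs
    exact hcF hrs
  have hs : s ≠ 0 := by
    rintro rfl
    rw [map_zero, div_zero] at hrs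
    exact hcF hrs
  refine ⟨(r.rootMultiplicity 0 : ℤ) - (s.rootMultiplicity 0 : ℤ), fun v hv => ?_⟩
  obtain ⟨hr1, hr2⟩ := ord_aeval v hv hr
  obtain ⟨hs1, hs2⟩ := ord_aeval v hv hs
  rw [hrs, ord_div v hr1 hs1, hr2, hs2]
  ring

/-- **Stichtenoth 1.3.3**: for a finite set `S` of zeros of `x`, `∑ v(x) ≤ [F : K(x)]`. -/
theorem sum_ord_le_finrank (x : F) [FiniteDimensional K⟮x⟯ F] (S : Finset (Place K F))
    (hS : ∀ v ∈ S, 0 < v.ord x) : ∑ v ∈ S, v.ord x ≤ (Module.finrank K⟮x⟯ F : ℤ) := by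
  classical
  rcases S.eq_empty_or_nonempty with rfl | ⟨v₁, hv₁⟩
  · simp
  have hx0 : x ≠ 0 := ne_zero_of_ord_ne_zero v₁ (hS v₁ hv₁).ne'
  have hcompat : Compat (fun v : S => (v : Place K F))
      (fun v : S => ((v : Place K F).ord x).toNat) K⟮x⟯ := by
    refine ⟨⟨AdjoinSimple.gen K x, ?_, fun v => ?_⟩, fun c hc => ?_⟩
    · intro h
      have h1 : (AdjoinSimple.gen K x : F) = 0 := by rw [h]; rfl
      rw [AdjoinSimple.coe_gen] at h1
      exact hx0 h1
    · show (v : Place K F).ord (algebraMap K⟮x⟯ F (AdjoinSimple.gen K x)) = _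
      rw [AdjoinSimple.algebraMap_gen]
      exact (Int.toNat_of_nonneg (hS v v.2).le).symm
    · obtain ⟨m, hm⟩ := exists_ord_adjoin_simple x c hc
      refine ⟨m, fun v => ?_⟩
      show (v : Place K F).ord (c : F) = _
      rw [hm v (hS v v.2), Int.toNat_of_nonneg (hS v v.2).le]
  have h := sum_le_finrank hcompat Subtype.val_injective
  have h2 : ∑ v ∈ S, v.ord x = ((∑ v : S, ((v : Place K F).ord x).toNat : ℕ) : ℤ) := by
    rw [Nat.cast_sum, ← Finset.sum_coe_sort S]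
    refine Finset.sum_congr rfl fun v _ => ?_
    exact (Int.toNat_of_nonneg (hS v v.2).le).symm
  rw [h2]
  exact_mod_cast h

/-- The `≤` half of the zeros theorem. -/
theorem zerosLe (K F : Type*) [Field K] [Field F] [Algebra K F] :
    Fermat.Agent.S27.REDu.H42.ZerosLe K F := by
  classical
  intro x _ _
  have hcard : ∀ S : Finset (Place K F), (∀ v ∈ S, 0 < v.ord x) →
      S.card ≤ Module.finrank K⟮x⟯ F := by
    intro S hS
    have h1 := sum_ord_le_finrank x S hS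
    have h2 : (S.card : ℤ) ≤ ∑ v ∈ S, v.ord x := by
      rw [Finset.card_eq_sum_ones, Nat.cast_sum]
      refine Finset.sum_le_sum fun v hv => ?_
      have := hS v hv
      push_cast
      omega
    exact_mod_cast h2.trans h1
  have hfin : {v : Place K F | 0 < v.ord x}.Finite := by
    by_contra hinf
    obtain ⟨S, hS, hScard⟩ :=
      Set.Infinite.exists_subset_card_eq hinf (Module.finrank K⟮x⟯ F + 1)
    have := hcard S fun v hv => hS hv
    omega
  refine ⟨hfin, ?_⟩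
  rw [finsum_mem_eq_finite_toFinset_sum _ hfin]
  exact sum_ord_le_finrank x _ fun v hv => (Set.Finite.mem_toFinset hfin).mp hv

/-- P4 for all function fields. -/
theorem zerosLeAll : Fermat.Agent.S27.REDu.H42.ZerosLeAll.{uK, uF} :=
  fun K F _ _ _ _ _ => zerosLe K F

end Fermat.Agent.S27.REDu.H51

end
end
-- ==== END Fermat.Agent.S27.REDu.H51_ZerosLe
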