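-- GENERATED (merged mirror, NOTES/tools/trim/merge3_helper67.py): 13 modules of the originals, bodies verbatim.
import Mathlib
import Fermat.Prelude.Def_AlgebraicCurve_Correspondence
import Fermat.Agent.Zm.S59_L05_000
import Fermat.Agent.Zm.S59_L03_000
import Fermat.Agent.Zm.S59_L04_000
import Fermat.Agent.Zm.S59_L02_000
import Fermat.Agent.Zm.S59_L05_003
import Fermat.Agent.Zm.S59_L05_001
import Fermat.Agent.S27.REDu.H17_Place
import Fermat.Agent.Zm.S59_L04_002
import Fermat.Agent.Zm.S35_L01_004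
import Fermat.Agent.Zm.S35_L02_004
import Fermat.Agent.Zm.S59_L05_004
import Fermat.Agent.Zm.S59_L02_004

-- ==== BEGIN Fermat.Agent.BADP3.Done
section

set_option autoImplicit false
set_option synthInstance.maxHeartbeats 400000
set_option maxHeartbeats 1000000

noncomputable section

namespace Fermat.Agent.BADP3

open Fermat.Agent.S44

/-- (d) SLOPE at the tame levels, unconditional. -/
theorem stmt_SlopeT : Stmt_SlopeT :=
  stmt_SlopeT_of_leaves Fermat.Agent.BADP3.H66.stmt_EisModT Fermat.Agent.BADP3.H97.stmt_EisAbs2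
    Fermat.Agent.BADP3.H97.stmt_EisAbsTame2 Fermat.Agent.BADP3.H52.stmt_Thick
    Fermat.Agent.BADP3.H93.stmt_HDropT

/-- **BAD_p at the tame levels**, unconditional (`p = 3`: even levels). -/
theorem stmt_BadP2T : Stmt_BadP2T :=
  stmt_BadP2T_of stmt_SlopeT Fermat.Agent.BADP3.H57.stmt_RayT

/-- **Mazur's principle at `p`, module form, at the tame levels**, unconditional. -/
theorem removesPT (p : ℕ) (hp : p.Prime) (hp2 : p ≠ 2) (N : ℕ) [NeZero N]
    (hpN : p ∣ N) (hp2N : ¬ p ^ 2 ∣ N) (ht : Fermat.Agent.BAD.H91.TameAt (N / p) p)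
    (A : ValuationSubring (AlgebraicClosure ℚ)) (hA : A.LiesOverPrime p) :
    (jzModule N p).RemovesP N A :=
  removesPT_of stmt_BadP2T p hp hp2 N hpN hp2N ht A hA

end Fermat.Agent.BADP3

end
end
-- ==== END Fermat.Agent.BADP3.Done

-- ==== BEGIN Fermat.Agent.L.Pivot3.H11_ChainACond
section

set_option autoImplicit false

namespace Fermat.Agent.L.Pivot3.H11

open Fermat.Agent.L.Pivot Fermat.Agent.L.Pivot3

/-- **COND-aux**, unconditional (helper24). -/
theorem stmt_CONDauxD : Stmt_CONDauxD :=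
  Fermat.Agent.L.Pivot3.H24.stmt_CONDaux

/-- **PV-GEOM with auxiliary primes from the core statement** (in the `hU` form). -/
theorem stmt_PVGeom2A_of (h : Fermat.Agent.L.Pivot.Stmt_PVGeom2) : Stmt_PVGeom2A :=
  h

/-- **PIVOT3, Hecke–Galois form**, from PV-GAL, PV-NU-POINT and PV-GEOM with auxiliary primes. -/
theorem pivotCoreBA_of_gal (hGal : Stmt_PVGalB) (hpt : Stmt_PVNUPoint)
    (hGeom : Stmt_PVGeom2A) : Stmt_PivotCoreBA :=
  pivotCoreBA_of_open hGal hpt hGeom stmt_CONDauxD

/-- **PIVOT3, Hecke–Galois form**, from PV-GAL, PV-NU-POINT and the core PV-GEOM. -/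
theorem pivotCoreBA_of_gal2 (hGal : Stmt_PVGalB) (hpt : Stmt_PVNUPoint)
    (hGeom : Fermat.Agent.L.Pivot.Stmt_PVGeom2) : Stmt_PivotCoreBA :=
  pivotCoreBA_of_gal hGal hpt (stmt_PVGeom2A_of hGeom)

end Fermat.Agent.L.Pivot3.H11

end
-- ==== END Fermat.Agent.L.Pivot3.H11_ChainACond

-- ==== BEGIN Fermat.Agent.S27.Char0.Lift.H45_Generic
section

/-!
# S27 LIFT, leaf GENERIC from RAMFIN (helper45)

* `exists_nonspecial_avoid` (G2): helper17's non-special divisor with a step-wise avoidance;
* `stmt_Generic_of : Stmt_RamFin → Stmt_Generic` (G3): `Et' := Et - E + div f` for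
  `0 ≠ f ∈ L(Et - E)`, `ht := u / f^n` where `n E = div u`; `l(n Et') = l(n Et) = n g + 1 - g`
  by Riemann-Roch (helper52), as `l(W - Et) = 0`.
-/

set_option autoImplicit false

noncomputable section

open AlgebraicCurve IntermediateField

namespace Fermat.Agent.S27.Char0.Lift.H45

open Fermat.Agent.RED.H17 Fermat.Agent.S27.Char0 Fermat.Agent.S27.RR.H52

attribute [local instance] Classical.propDecidable

local notation "L" => riemannRochSpace

universe u v u' v'

section Nonspecial

variable {K : Type u} {F : Type v} [Field K] [Field F] [Algebra K F]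

theorem one_le_finrank_L (H : FFHyp K F) {D : Divisor K F} (hD : ∀ v, 0 ≤ D v) :
    1 ≤ Module.finrank K (L D) := by
  have := H.finite D
  rw [Nat.one_le_iff_ne_zero, Ne, Submodule.finrank_eq_zero]
  intro hbot
  have := one_mem_L_of_nonneg hD
  rw [hbot, Submodule.mem_bot] at this
  exact one_ne_zero this

/-- **A non-special divisor with avoidance**: `g` distinct places `A` with `l(∑ A) = 1`,
satisfying a property `Pr` which can be kept when adding a point outside a finite set. -/
theorem exists_nonspecial_avoid [Infinite K] (H : FFHyp K F) {g : ℕ} {c : ℤ}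
    (hR : IsGenus K F g c) (Pr : Finset (Place K F) → Prop) (h0 : Pr ∅)
    (hstep : ∀ A, Pr A → ∃ T : Finset (Place K F), ∀ v, v ∉ T → v ∉ A → Pr (insert v A)) :
    ∃ A : Finset (Place K F), A.card = g ∧ Pr A ∧ Module.finrank K (L (ptsDiv A)) = 1 := by
  have key : ∀ j : ℕ, j ≤ g → ∃ A : Finset (Place K F), A.card = j ∧ Pr A ∧
      Module.finrank K (L (ptsDiv A)) ≤ 1 := by
    intro j
    induction j with
    | zero =>
      intro _
      exact ⟨∅, rfl, h0, by rw [ptsDiv_empty]; exact H.finrank_L_zero_le⟩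
    | succ j ih =>
      intro hj
      obtain ⟨A, hA, hPA, hl⟩ := ih (by omega)
      obtain ⟨T, hT⟩ := hstep A hPA
      -- search for a good point
      have search : ∀ N : ℕ, (∃ v, v ∉ A ∧ v ∉ T ∧
            Module.finrank K (L (ptsDiv A + Finsupp.single v 1)) ≤ 1) ∨
          ∃ B : Finset (Place K F), B.card = N ∧
            ∀ v ∈ B, ¬ (L (ptsDiv A + Finsupp.single v 1) ≤ L (ptsDiv A)) := by
        intro N
        induction N with
        | zero => exact Or.inr ⟨∅, rfl, fun v hv => absurd hv (Finset.notMem_empty v)⟩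
        | succ N ihN =>
          rcases ihN with h | ⟨B, hB, hbad⟩
          · exact Or.inl h
          obtain ⟨v, hv⟩ := H.exists_notMem (A ∪ B ∪ T)
          rw [Finset.mem_union, Finset.mem_union, not_or, not_or] at hv
          by_cases hgood : L (ptsDiv A + Finsupp.single v 1) ≤ L (ptsDiv A)
          · left
            refine ⟨v, hv.1.1, hv.2, ?_⟩
            have := H.finite (ptsDiv A)
            exact (Submodule.finrank_mono hgood).trans hl
          · right
            refine ⟨insert v B, by rw [Finset.card_insert_of_notMem hv.1.2, hB], ?_⟩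
            intro w hw
            rcases Finset.mem_insert.mp hw with rfl | hw
            · exact hgood
            · exact hbad w hw
      rcases search (c - j).toNat with ⟨v, hv, hvT, hl'⟩ | ⟨B, hB, hbad⟩
      · exact ⟨insert v A, by rw [Finset.card_insert_of_notMem hv, hA], hT v hvT hv,
          by rw [ptsDiv_insert hv]; exact hl'⟩
      · exfalso
        have h1 := H.finrank_add_ptsDiv_ge (ptsDiv A) B hbad
        have hdeg : Divisor.degree (ptsDiv A + ptsDiv B) = j + (c - j).toNat := by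
          rw [map_add, degree_ptsDiv H.deg_one, degree_ptsDiv H.deg_one, hA, hB]
        have h2 := (hR (ptsDiv A + ptsDiv B)).2 (by rw [hdeg]; omega)
        rw [hdeg] at h2
        have h3 := one_le_finrank_L H (ptsDiv_nonneg A)
        rw [hB] at h1
        omega
  obtain ⟨A, hA, hPA, hl⟩ := key g le_rfl
  exact ⟨A, hA, hPA, le_antisymm hl (one_le_finrank_L H (ptsDiv_nonneg A))⟩

end Nonspecial

theorem stmt_Generic_of (hRF : Stmt_RamFin.{u', v'}) : Stmt_Generic.{u', v'} := by
  intro k Ft _ _ _ _ H' g c' hg' xt hxt hfin hsep n hn E hE hnE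
  have hP := H'.principal
  have hinf : Infinite k := IsAlgClosed.instInfinite
  obtain ⟨T, hT⟩ := hRF k Ft H' xt hxt hfin hsep
  have hxne : ∀ α : k, xt - algebraMap k Ft α ≠ 0 := by
    intro α h0
    apply hxt
    rw [sub_eq_zero.mp h0]
    exact isAlgebraic_algebraMap α
  -- the invariant
  let Pr : Finset (Place k Ft) → Prop := fun A =>
    (∀ Q ∈ A, ∃ α : k, Q.ord (xt - algebraMap k Ft α) = 1) ∧
    (∀ Q ∈ A, ∀ Q' ∈ A, ∀ α : k, 0 < Q.ord (xt - algebraMap k Ft α) →
      0 < Q'.ord (xt - algebraMap k Ft α) → Q = Q')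
  have hPr0 : Pr ∅ :=
    ⟨fun Q hQ => absurd hQ (Finset.notMem_empty Q), fun Q hQ => absurd hQ (Finset.notMem_empty Q)⟩
  have hstep : ∀ A, Pr A → ∃ T' : Finset (Place k Ft), ∀ v, v ∉ T' → v ∉ A →
      Pr (insert v A) := by
    rintro A ⟨hA1, hA2⟩
    choose! α hα using hA1
    set Z : Finset (Place k Ft) :=
      A.biUnion (fun Q => (finite_ord_ne_zero hP (xt - algebraMap k Ft (α Q))).toFinset) with hZ
    have hZmem : ∀ Q ∈ A, ∀ v : Place k Ft, 0 < v.ord (xt - algebraMap k Ft (α Q)) → v ∈ Z := by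
      intro Q hQ v hv
      rw [hZ, Finset.mem_biUnion]
      refine ⟨Q, hQ, ?_⟩
      rw [Set.Finite.mem_toFinset, Set.mem_ofPred_eq]
      omega
    -- a zero of `xt - β` in `A` forces `β`
    have hβ : ∀ Q ∈ A, ∀ β : k, 0 < Q.ord (xt - algebraMap k Ft β) → β = α Q := by
      intro Q hQ β hβ
      exact value_unique Q (vanAt_of_ord_pos hβ)
        (vanAt_of_ord_pos (by rw [hα Q hQ]; exact one_pos))
    refine ⟨T ∪ Z, fun v hv hvA => ⟨?_, ?_⟩⟩
    · intro Q hQ
      rcases Finset.mem_insert.mp hQ with rfl | hQ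
      · exact hT Q fun h => hv (Finset.mem_union_left _ h)
      · exact ⟨α Q, hα Q hQ⟩
    · intro Q hQ Q' hQ' β hQβ hQ'β
      rcases Finset.mem_insert.mp hQ with hQv | hQA
      · rcases Finset.mem_insert.mp hQ' with hQ'v | hQ'A
        · rw [hQv, hQ'v]
        · exfalso
          apply hv
          refine Finset.mem_union_right _ (hZmem Q' hQ'A v ?_)
          rw [← hβ Q' hQ'A β hQ'β, ← hQv]
          exact hQβ
      · rcases Finset.mem_insert.mp hQ' with hQ'v | hQ'A
        · exfalso
          apply hv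
          refine Finset.mem_union_right _ (hZmem Q hQA v ?_)
          rw [← hβ Q hQA β hQβ, ← hQ'v]
          exact hQ'β
        · exact hA2 Q hQA Q' hQ'A β hQβ hQ'β
  obtain ⟨A, hcard, ⟨hA1, hA2⟩, hl⟩ := exists_nonspecial_avoid H' hg' Pr hPr0 hstep
  choose! α hα using hA1
  -- the divisor `Et'`
  have hdegAE : Divisor.degree (ptsDiv A - E) = g := by
    rw [map_sub, degree_ptsDiv H'.deg_one, hcard, hE, sub_zero]
  have hfinAE := H'.finite (ptsDiv A - E)
  have h1 : 1 ≤ Module.finrank k (L (ptsDiv A - E)) := by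
    have := (hg' (ptsDiv A - E)).1
    rw [hdegAE] at this
    omega
  have hne : L (ptsDiv A - E) ≠ ⊥ := by
    intro hbot
    rw [hbot, finrank_bot] at h1
    omega
  obtain ⟨f, hf, hf0⟩ := (Submodule.ne_bot_iff _).mp hne
  obtain ⟨Et', hEt'⟩ : ∃ D : Divisor k Ft, D = dv hP f + (ptsDiv A - E) := ⟨_, rfl⟩
  have hEt'a : ∀ Q, Et' Q = Q.ord f + (ptsDiv A Q - E Q) := by
    intro Q
    rw [hEt', Finsupp.add_apply, dv_apply, Finsupp.sub_apply]
  obtain ⟨u, hu0, hu⟩ := hnE
  have hfn0 : f ^ n ≠ 0 := pow_ne_zero _ hf0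
  have hht0 : u / f ^ n ≠ 0 := div_ne_zero hu0 hfn0
  have hordht : ∀ Q : Place k Ft, Q.ord (u / f ^ n) = n * (ptsDiv A Q - Et' Q) := by
    intro Q
    rw [ord_div Q hu0 hfn0, ord_pow, ← hu Q, Finsupp.smul_apply, smul_eq_mul, hEt'a]
    ring
  -- the rank
  obtain ⟨W, hWdeg, -, hkey⟩ := riemann_roch H' hg'
  have hWA : Module.finrank k (L (W - ptsDiv A)) = 0 := by
    have := hkey (ptsDiv A)
    rw [hl, degree_ptsDiv H'.deg_one, hcard] at this
    push_cast at this
    have h2 : (Module.finrank k (L (W - ptsDiv A)) : ℤ) = 0 := by omega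
    exact_mod_cast h2
  have hn1 : (1 : ℤ) ≤ n := by exact_mod_cast hn
  have hWnA : Module.finrank k (L (W - (n : ℤ) • ptsDiv A)) = 0 := by
    have hle : L (W - (n : ℤ) • ptsDiv A) ≤ L (W - ptsDiv A) := by
      apply L_mono'
      intro Q
      rw [Finsupp.sub_apply, Finsupp.sub_apply, Finsupp.smul_apply, smul_eq_mul]
      have := ptsDiv_nonneg A Q
      nlinarith
    have := H'.finite (W - ptsDiv A)
    have := Submodule.finrank_mono hle
    omega
  have hrankA : (Module.finrank k (L ((n : ℤ) • ptsDiv A)) : ℤ) = n * g + 1 - g := by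
    rw [hkey ((n : ℤ) • ptsDiv A), hWnA, map_zsmul, degree_ptsDiv H'.deg_one, hcard, smul_eq_mul]
    push_cast
    ring
  have hEt'eq : (n : ℤ) • Et' = (n : ℤ) • ptsDiv A + (-dv hP (u / f ^ n)) := by
    ext Q
    have h1 : ((n : ℤ) • Et') Q = n * Et' Q := by rw [Finsupp.smul_apply, smul_eq_mul]
    have h2 : ((n : ℤ) • ptsDiv A + (-dv hP (u / f ^ n))) Q
        = n * ptsDiv A Q - Q.ord (u / f ^ n) := by
      rw [Finsupp.add_apply, Finsupp.neg_apply, dv_apply, Finsupp.smul_apply, smul_eq_mul]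
      ring
    rw [h1, h2, hordht Q]
    ring
  have hrank : (Module.finrank k (L ((n : ℤ) • Et')) : ℤ) = n * g + 1 - g := by
    rw [hEt'eq, finrank_L_add_principal H'
      ((Divisor.principal (K := k) (F := Ft)).neg_mem (dv_mem_principal hP hht0)), hrankA]
  refine ⟨{
    A := A
    α := α
    Et' := Et'
    ht := u / f ^ n
    card_A := hcard
    nonspecial := hl
    simple := hα
    inj := ?_
    eff := ?_
    deg := ?_
    ht_ne := hht0
    div_ht := hordht
    equiv := ?_
    rank := hrank }⟩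
  · intro Q hQ Q' hQ' hαα
    refine hA2 Q hQ Q' hQ' (α Q) (by rw [hα Q hQ]; exact one_pos) ?_
    rw [hαα, hα Q' hQ']
    exact one_pos
  · intro Q
    have := ord_ge_of_mem_L hf hf0 Q
    rw [Finsupp.sub_apply] at this
    rw [hEt'a]
    omega
  · rw [hEt', map_add, degree_dv, zero_add, hdegAE]
  · have h2 : ptsDiv A - Et' - E = -dv hP f := by
      rw [hEt']
      abel
    rw [h2]
    exact (Divisor.principal (K := k) (F := Ft)).neg_mem (dv_mem_principal hP hf0)

end Fermat.Agent.S27.Char0.Lift.H45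

end
end
-- ==== END Fermat.Agent.S27.Char0.Lift.H45_Generic

-- ==== BEGIN Fermat.Agent.S27.Char0.Lift.H45_Rat
section

/-!
# S27 LIFT (helper45): the rational function field `K(x)` inside `F`

* `const_of_ord_finite` : an element of `K(x)` without zeros and poles at the finite places is a
  nonzero constant;
* `norm_on_fibre` : a finite place `v` of `K(x)` is the place `x = a`; `ord_v (x - a') = [a' = a]`
  and `ord_v (N f) = ∑_{P : x(P) = a} ord_P f`.
-/

set_option autoImplicit false

noncomputable section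

open AlgebraicCurve IntermediateField

namespace Fermat.Agent.S27.Char0.Lift.H45

open Fermat.Agent.RED.H17 Fermat.Agent.RED.H51 Fermat.Agent.S24

attribute [local instance] Classical.propDecidable

universe u v

variable {K : Type u} {F : Type v} [Field K] [Field F] [Algebra K F]

/-- The generator of `K(x)` is transcendental. -/
theorem gen_transc {x : F} (hx : Transcendental K x) :
    Transcendental K (AdjoinSimple.gen K x) :=
  (transcendental_algebraMap_iff (algebraMap ↥K⟮x⟯ F).injective).mp hx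

theorem finite_gen (x : F) : FiniteDimensional ↥K⟮AdjoinSimple.gen K x⟯ ↥K⟮x⟯ :=
  (finrank_of_eq_top_u _ (adjoin_gen_eq_top_u x)).1

/-- An element of `K(x)` without zeros and poles at the finite places is a nonzero constant. -/
theorem const_of_ord_finite [IsAlgClosed K] {x : F} (hx : Transcendental K x) {z : ↥K⟮x⟯}
    (hz0 : z ≠ 0)
    (hz : ∀ v : Place K ↥K⟮x⟯, 0 ≤ v.ord (AdjoinSimple.gen K x) → v.ord z = 0) :
    ∃ c : K, c ≠ 0 ∧ z = algebraMap K ↥K⟮x⟯ c := by
  classical
  have hgtr := gen_transc hx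
  have hfinE := finite_gen (K := K) x
  have hzE : H59.ZerosStmt K ↥K⟮x⟯ := zerosStmt_u hgtr
  have H42 := Fermat.Agent.RED.H42.hyp_of_zeros hzE hgtr
  -- the pole of the generator
  have hitr : Transcendental K (AdjoinSimple.gen K x)⁻¹ := fun h =>
    hgtr (IsAlgebraic.inv_iff.mp h)
  have hitop : K⟮(AdjoinSimple.gen K x)⁻¹⟯ = (⊤ : IntermediateField K ↥K⟮x⟯) := by
    rw [H59.adjoin_inv_eq]
    exact adjoin_gen_eq_top_u x
  obtain ⟨vinf, -, huniq⟩ := exists_unique_zero_of_top_u hzE _ hitr hitop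
  have hfin : ∀ v : Place K ↥K⟮x⟯, v ≠ vinf → v.ord z = 0 := by
    intro v hv
    apply hz
    by_contra hneg
    apply hv
    apply huniq
    rw [Place.ord_inv]
    omega
  have hconst : z ∈ Set.range (algebraMap K ↥K⟮x⟯) := by
    by_contra hne
    obtain ⟨v, hv⟩ := H42.exists_pole z hne
    have hvinf : v = vinf := by
      by_contra h
      have := hfin v h
      omega
    obtain ⟨D, hD, hdeg⟩ := H42.principal z hz0
    rw [_root_.Fermat.Agent.RED.H17.degree_eq_sum H42.deg_one] at hdeg
    have hsupp : D.support ⊆ {vinf} := by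
      intro w hw
      rw [Finset.mem_singleton]
      by_contra h
      rw [Finsupp.mem_support_iff, hD, hfin w h] at hw
      exact hw rfl
    have h1 : D.sum (fun _ n => n) = D vinf := by
      rw [Finsupp.sum, Finset.sum_subset hsupp (fun w _ hw => Finsupp.notMem_support_iff.mp hw),
        Finset.sum_singleton]
    rw [h1, hD, ← hvinf] at hdeg
    omega
  obtain ⟨c, hc⟩ := hconst
  refine ⟨c, ?_, hc.symm⟩
  rintro rfl
  rw [map_zero] at hc
  exact hz0 hc.symm

/-- **A finite place of `K(x)`** is the place `x = a`, and the norm formula on its fibre. -/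
theorem norm_on_fibre [IsAlgClosed K] (hP : HasPrincipalDivisors K F) {x : F}
    (hx : Transcendental K x) [FiniteDimensional ↥K⟮x⟯ F] (v : Place K ↥K⟮x⟯)
    (hv : 0 ≤ v.ord (AdjoinSimple.gen K x)) :
    ∃ a : K, (∀ a' : K, v.ord (AdjoinSimple.gen K x - algebraMap K ↥K⟮x⟯ a')
        = if a' = a then 1 else 0) ∧
      ∃ T : Finset (Place K F), (∀ P, P ∈ T ↔ 0 < P.ord (x - algebraMap K F a)) ∧
        ∀ f : F, f ≠ 0 → v.ord (Algebra.norm ↥K⟮x⟯ f) = ∑ P ∈ T, P.ord f := by
  classical
  have := hP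
  have hgtr := gen_transc hx
  have hfinE := finite_gen (K := K) x
  have hzE : H59.ZerosStmt K ↥K⟮x⟯ := zerosStmt_u hgtr
  have hzF : H59.ZerosStmt K F := zerosStmt_u hx
  have hdegv : v.deg = 1 := ff_deg_eq_one _ hgtr v
  obtain ⟨a, ha⟩ := _root_.Fermat.Agent.RED.H17.exists_value v hdegv (regAt_of_ord_nonneg hv)
  have hgne : ∀ a' : K, AdjoinSimple.gen K x - algebraMap K ↥K⟮x⟯ a' ≠ 0 := by
    intro a' h0
    apply hgtr
    rw [sub_eq_zero.mp h0]
    exact isAlgebraic_algebraMap a'
  obtain ⟨y, hy⟩ : ∃ y : ↥K⟮x⟯, y = AdjoinSimple.gen K x - algebraMap K ↥K⟮x⟯ a := ⟨_, rfl⟩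
  have hytr : Transcendental K y := by
    intro halg
    apply hgtr
    have h1 : AdjoinSimple.gen K x = y + algebraMap K ↥K⟮x⟯ a := by rw [hy]; ring
    rw [h1]
    exact halg.add (isAlgebraic_algebraMap a)
  have hytop : K⟮y⟯ = (⊤ : IntermediateField K ↥K⟮x⟯) := by
    rw [eq_top_iff, ← adjoin_gen_eq_top_u x, adjoin_simple_le_iff]
    have h1 : AdjoinSimple.gen K x = y + algebraMap K ↥K⟮x⟯ a := by rw [hy]; ring
    rw [h1]
    exact add_mem (mem_adjoin_simple_self K y) (IntermediateField.algebraMap_mem _ a)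
  obtain ⟨v₁, hv₁, huniq⟩ := exists_unique_zero_of_top_u hzE y hytr hytop
  have hvv₁ : v = v₁ := huniq v (by rw [hy]; exact ha.ord_pos (hgne a))
  have hvy : v.ord y = 1 := by rw [hvv₁]; exact hv₁
  have hyx : algebraMap ↥K⟮x⟯ F y = x - algebraMap K F a := by
    rw [hy, map_sub, ← IsScalarTower.algebraMap_apply]
    rfl
  refine ⟨a, fun a' => ord_sub_const_at hgne (by rw [← hy]; exact hvy) a', v.fiber F, ?_, ?_⟩
  · intro P
    rw [Place.mem_fiber]
    constructor
    · intro hPv
      rw [← hyx, P.ord_restrict y, hPv, hvy, mul_one]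
      have := P.ramificationIndex_pos (F := ↥K⟮x⟯)
      omega
    · intro h1
      rw [hvv₁]
      apply huniq
      rw [← hyx, P.ord_restrict y] at h1
      have hepos := P.ramificationIndex_pos (F := ↥K⟮x⟯)
      by_contra hneg
      rw [not_lt] at hneg
      have : (P.ramificationIndex ↥K⟮x⟯ : ℤ) * (P.restrict ↥K⟮x⟯).ord y ≤ 0 :=
        mul_nonpos_of_nonneg_of_nonpos (by omega) hneg
      omega
  · intro f hf
    have hdegF : ∀ w : Place K F, w.deg = 1 := fun w => ff_deg_eq_one x hx w
    have hsum := sum_ramificationIndex_eq hzE hzF hgtr hx v (v.fiber F)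
      (fun w => Place.mem_fiber)
    exact norm_ord v (v.fiber F) (fun w hw => Place.mem_fiber.mp hw) hsum hdegF hf

end Fermat.Agent.S27.Char0.Lift.H45

end
end
-- ==== END Fermat.Agent.S27.Char0.Lift.H45_Rat

-- ==== BEGIN Fermat.Agent.S27.Char0.Lift.H68_Bridge
section

/-!
# S27 LIFT / SOLVE (helper68): from helper17's `RedSetup` to helper34's `RedSetting`

`settingOfSetup S : REDu.H34.RedSetting K F k Ft` with the same valuation ring and the same
reduction map; the residue map on constants is chosen with `red_const`.  This gives access to the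
(universe polymorphic) Gauss toolkit of `S27/REDu` (`exists_ortho_basis`, `mulMat`, `norm_red`,
`aeval_mem_V_iff`, ...).
-/

set_option autoImplicit false
set_option linter.style.haveILetI false

noncomputable section

open AlgebraicCurve IntermediateField

namespace Fermat.Agent.S27.Char0.Lift.H68

open Fermat.Agent.RED.H17 Fermat.Agent.S27.Char0 Fermat.Agent.S27.REDu.H34

universe u v u' v'

variable {K : Type u} {F : Type v} {k : Type u'} {Ft : Type v'} [Field K] [Field F]
  [Algebra K F] [Field k] [Field Ft] [Algebra k Ft] (S : RedSetup K F k Ft)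

/-- the residue of an integral constant -/
def resFun (a : ↥(S.V.comap (algebraMap K F))) : k :=
  Classical.choose (S.red_const (a : K) a.2)

theorem resFun_spec (a : ↥(S.V.comap (algebraMap K F))) :
    S.red ⟨algebraMap K F (a : K), a.2⟩ = algebraMap k Ft (resFun S a) :=
  Classical.choose_spec (S.red_const (a : K) a.2)

/-- the residue map on constants -/
def resHom : ↥(S.V.comap (algebraMap K F)) →+* k where
  toFun := resFun S
  map_one' := by
    apply (algebraMap k Ft).injective
    rw [← resFun_spec, map_one]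
    have : (⟨algebraMap K F ((1 : ↥(S.V.comap (algebraMap K F))) : K), (1 : ↥(S.V.comap
        (algebraMap K F))).2⟩ : ↥S.V) = 1 := by
      apply Subtype.ext
      simp
    rw [this, map_one]
  map_mul' a b := by
    apply (algebraMap k Ft).injective
    rw [map_mul, ← resFun_spec, ← resFun_spec, ← resFun_spec, ← map_mul]
    congr 1
    apply Subtype.ext
    simp
  map_zero' := by
    apply (algebraMap k Ft).injective
    rw [← resFun_spec, map_zero]
    have : (⟨algebraMap K F ((0 : ↥(S.V.comap (algebraMap K F))) : K), (0 : ↥(S.V.comap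
        (algebraMap K F))).2⟩ : ↥S.V) = 0 := by
      apply Subtype.ext
      simp
    rw [this, map_zero]
  map_add' a b := by
    apply (algebraMap k Ft).injective
    rw [map_add, ← resFun_spec, ← resFun_spec, ← resFun_spec, ← map_add]
    congr 1
    apply Subtype.ext
    simp

/-- helper34's reduction setting attached to helper17's reduction data. -/
def settingOfSetup : RedSetting K F k Ft where
  V := S.V
  red := S.red
  red_surj := S.red_surj
  resO := resHom S
  resO_surj := fun c' => by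
    obtain ⟨c, h, hc⟩ := S.const_surj c'
    refine ⟨⟨c, h⟩, ?_⟩
    apply (algebraMap k Ft).injective
    rw [← hc]
    exact (resFun_spec S ⟨c, h⟩).symm
  red_algebraMap := fun a => resFun_spec S a
  scale := fun f hf => by
    obtain ⟨c, hc, h, hr⟩ := S.exists_scale f hf
    have hu : IsUnit (⟨algebraMap K F c * f, h⟩ : ↥S.V) := by
      by_contra hnu
      exact hr ((S.red_eq_zero_iff _).mpr ((IsLocalRing.mem_maximalIdeal _).mpr hnu))
    refine ⟨c⁻¹, inv_ne_zero hc, hu.unit, ?_⟩
    rw [IsUnit.unit_spec, ← mul_assoc, ← map_mul, inv_mul_cancel₀ hc, map_one, one_mul]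

@[simp] theorem settingOfSetup_V : (settingOfSetup S).V = S.V := rfl

@[simp] theorem settingOfSetup_red : (settingOfSetup S).red = S.red := rfl

theorem settingOfSetup_resO (a : ↥(S.V.comap (algebraMap K F))) :
    algebraMap k Ft ((settingOfSetup S).resO a) = S.rd (algebraMap K F (a : K)) := by
  rw [S.rd_of_mem a.2]
  exact (resFun_spec S a).symm

end Fermat.Agent.S27.Char0.Lift.H68

end
end
-- ==== END Fermat.Agent.S27.Char0.Lift.H68_Bridge

-- ==== BEGIN Fermat.Agent.S27.IW.H68_Main
section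

set_option autoImplicit false

namespace Fermat.Agent.S27.IW.H68

universe u

/-- **IW-FIN**: the `ℓ^k`-torsion is finite. -/
theorem stmt_IW_Fin : Stmt_IW_Fin.{u} := stmt_IW_Fin_of H64.stmt_IW_Growth

/-- **IW-BOUND**: `#G[ℓ^k] ≤ C ℓ^(nk)`. -/
theorem stmt_IW_Bound : Stmt_IW_Bound.{u} := stmt_IW_Bound_of H64.stmt_IW_Growth

/-- **IW-CARD**: `#G[ℓ^k] = ℓ^(nk)` if `G` is `ℓ`-divisible. -/
theorem stmt_IW_Card : Stmt_IW_Card.{u} := stmt_IW_Card_of H64.stmt_IW_Growth

end Fermat.Agent.S27.IW.H68

end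
-- ==== END Fermat.Agent.S27.IW.H68_Main

-- ==== BEGIN Fermat.Agent.S27.REDu.H10_ConsInt
section

/-!
# G-RED package CONS (helper10), part C2: integrality on a chart

* `valHom P hdeg : O_P →+* K` : the value of a regular function at a place of degree one, as a
  ring homomorphism; `ordGe_sub_valHom`, `valHom_eq_of_ordGe`.
* `mem_of_isIntegral_adjoin` : `B ⊂ O_P` if `x ∈ O_P`.
* `chartIntegral` : `GoodChart S x hx → ChartIntegral S x hx` (C2), from helper34's (INT)
  `H34.RedSetting.exists_monic_of_mem`.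
-/

set_option autoImplicit false

universe uC uCf uK uR uF uL uE uk ukap uFp uFt uFtp uiot uEp uKp ux3b1

noncomputable section

open AlgebraicCurve Polynomial IntermediateField

namespace Fermat.Agent.S27.REDu.H10

open Fermat.Agent.S27.REDu.H34 Fermat.Agent.S27.REDu.H34.RedSetting Fermat.Agent.S27.REDu.H51
  Fermat.Agent.S27.REDu.H79

section ValHom

variable {K F : Type*} [Field K] [Field F] [Algebra K F]

theorem ordGe_one_iff_vanAt (v : Place K F) (f : F) : OrdGe v 1 f ↔ H17.VanAt v f := by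
  rw [H17.vanAt_iff_ord]
  unfold OrdGe
  constructor
  · rintro (h | h)
    · exact Or.inl h
    · exact Or.inr (by omega)
  · rintro (h | h)
    · exact Or.inl h
    · exact Or.inr (by omega)

theorem ordGe_one_iff_mem_maximalIdeal (v : Place K F) (a : ↥v.toValuationSubring) :
    OrdGe v 1 (a : F) ↔ a ∈ IsLocalRing.maximalIdeal ↥v.toValuationSubring := by
  rw [ordGe_one_iff_vanAt]
  unfold H17.VanAt
  rw [v.adicValuation_coe]
  exact IsDedekindDomain.HeightOneSpectrum.intValuation_lt_one_iff_mem _ _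

/-- The value at a place of degree one, as a ring homomorphism `O_P → K`. -/
def valHom (v : Place K F) (hdeg : v.deg = 1) : ↥v.toValuationSubring →+* K :=
  ((RingEquiv.ofBijective (algebraMap K v.ResidueField)
    (Algebra.finrank_eq_one_iff_bijective_algebraMap.mp hdeg)).symm : v.ResidueField →+* K).comp
    (IsLocalRing.residue ↥v.toValuationSubring)

theorem algebraMap_valHom (v : Place K F) (hdeg : v.deg = 1) (a : ↥v.toValuationSubring) :
    algebraMap K v.ResidueField (valHom v hdeg a) = IsLocalRing.residue _ a := by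
  unfold valHom
  exact (RingEquiv.ofBijective (algebraMap K v.ResidueField)
    (Algebra.finrank_eq_one_iff_bijective_algebraMap.mp hdeg)).apply_symm_apply _

theorem valHom_algebraMap (v : Place K F) (hdeg : v.deg = 1) (c : K) :
    valHom v hdeg (algebraMap K ↥v.toValuationSubring c) = c := by
  have hinj : Function.Injective (algebraMap K v.ResidueField) :=
    (Algebra.finrank_eq_one_iff_bijective_algebraMap.mp hdeg).1
  apply hinj
  rw [algebraMap_valHom]
  rfl

theorem ordGe_sub_valHom (v : Place K F) (hdeg : v.deg = 1) (a : ↥v.toValuationSubring) :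
    OrdGe v 1 ((a : F) - algebraMap K F (valHom v hdeg a)) := by
  have h1 : (a : F) - algebraMap K F (valHom v hdeg a) =
      ((a - algebraMap K ↥v.toValuationSubring (valHom v hdeg a) : ↥v.toValuationSubring) : F) :=
    rfl
  rw [h1, ordGe_one_iff_mem_maximalIdeal, ← IsLocalRing.residue_eq_zero_iff, map_sub,
    ← algebraMap_valHom v hdeg a, sub_eq_zero]
  rfl

theorem valHom_eq_of_ordGe (v : Place K F) (hdeg : v.deg = 1) (a : ↥v.toValuationSubring)
    {c : K} (h : OrdGe v 1 ((a : F) - algebraMap K F c)) : valHom v hdeg a = c := by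
  have h1 := ordGe_sub_valHom v hdeg a
  rw [ordGe_one_iff_vanAt] at h h1
  exact H17.value_unique v h1 h

theorem mem_of_ordGe_one_sub (v : Place K F) {f : F} {c : K}
    (h : OrdGe v 1 (f - algebraMap K F c)) : f ∈ v.toValuationSubring := by
  rw [ordGe_one_iff_vanAt] at h
  exact (H17.regAt_iff_mem v f).mp (H17.RegAt.of_vanAt_sub h)

end ValHom

section Chart

variable {C : Type uC} {F : Type uF} {k : Type uk} {Ft : Type uFt} [Field C] [Field F] [Algebra C F] [Field k] [Field Ft] [Algebra k Ft]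
variable {S : RedSetting C F k Ft} {x : F} (hx : x ∈ S.V)

/-- The ring hom `O[X] → F`, `X ↦ x`. -/
def phiF (S : RedSetting C F k Ft) (x : F) : (↥S.O)[X] →+* F :=
  ((Polynomial.aeval x : C[X] →ₐ[C] F) : C[X] →+* F).comp (Polynomial.mapRingHom S.O.subtype)

theorem phiF_C (a : ↥S.O) : phiF S x (Polynomial.C a) = algebraMap C F (a : C) := by
  simp [phiF]

theorem phiF_X : phiF S x Polynomial.X = x := by
  simp [phiF]

theorem subtype_comp_psi : S.V.subtype.comp (psi hx) = phiF S x := by
  apply Polynomial.ringHom_ext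
  · intro a
    rw [phiF_C]
    simp [psi]
  · rw [phiF_X]
    simp [psi]

/-- **(INT)** in `F`: an element of `B ∩ V` satisfies a monic equation over `O[x]`. -/
theorem exists_monic_phiF [CharZero C] (hxt : Transcendental k (S.red ⟨x, hx⟩))
    [FiniteDimensional ↥C⟮x⟯ F]
    (hdeg : Module.finrank ↥k⟮S.red ⟨x, hx⟩⟯ Ft = Module.finrank ↥C⟮x⟯ F)
    (f : F) (hfi : IsIntegral ↥(Algebra.adjoin C {x}) f) (hfV : f ∈ S.V) :
    ∃ Φ : ((↥S.O)[X])[X], Φ.Monic ∧ Polynomial.eval₂ (phiF S x) f Φ = 0 := by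
  obtain ⟨Φ, hΦ, h0⟩ := exists_monic_of_mem hx hxt hdeg (⟨f, hfi⟩ : ↥(Bx (C := C) x)) hfV
  refine ⟨Φ, hΦ, ?_⟩
  have h1 := congrArg ((Bx (C := C) x).toSubring.subtype) h0
  rw [Polynomial.hom_eval₂, map_zero] at h1
  have h2 : ((Bx (C := C) x).toSubring.subtype).comp
      ((algebraMap ↥(Algebra.adjoin C {x}) ↥(Bx (C := C) x)).comp
        (S.psiR (transcendental_x hx hxt))) = phiF S x := by
    apply Polynomial.ringHom_ext
    · intro a
      rw [phiF_C]
      show ((S.psiR (transcendental_x hx hxt) (Polynomial.C a) : ↥(Algebra.adjoin C {x})) : F) = _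
      rw [coe_psiR hx]
      simp [psi]
    · rw [phiF_X]
      show ((S.psiR (transcendental_x hx hxt) Polynomial.X : ↥(Algebra.adjoin C {x})) : F) = _
      rw [coe_psiR hx]
      simp [psi]
  rw [h2] at h1
  exact h1

/-- `B ⊂ O_P` for the places `P` finite over `x`. -/
theorem mem_of_isIntegral_adjoin (P : Place C F) (hxP : x ∈ P.toValuationSubring) (f : F)
    (hfi : IsIntegral ↥(Algebra.adjoin C {x}) f) : f ∈ P.toValuationSubring := by
  have hle : ∀ a : ↥(Algebra.adjoin C {x}), (a : F) ∈ P.toValuationSubring := by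
    intro a
    have h1 : Algebra.adjoin C {x} ≤
        { P.toValuationSubring.toSubring with
          algebraMap_mem' := fun c => P.algebraMap_mem' c } := by
      apply Algebra.adjoin_le
      intro y hy
      rw [Set.mem_singleton_iff] at hy
      rw [hy]
      exact hxP
    exact h1 a.2
  let j : ↥(Algebra.adjoin C {x}) →+* ↥P.toValuationSubring :=
    { toFun := fun a => ⟨(a : F), hle a⟩
      map_one' := rfl
      map_mul' := fun _ _ => rfl
      map_zero' := rfl
      map_add' := fun _ _ => rfl }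
  obtain ⟨p, hp, h0⟩ := hfi
  have hint : IsIntegral ↥P.toValuationSubring f := by
    refine ⟨p.map j, hp.map j, ?_⟩
    rw [Polynomial.eval₂_map]
    exact h0
  obtain ⟨y, hy⟩ := IsIntegrallyClosed.isIntegral_iff.mp hint
  rw [← hy]
  exact y.2

/-- **(C2)** integrality on the chart. -/
theorem chartIntegral [IsAlgClosed C] [CharZero C] (hFF : IsFF C F) (gc : GoodChart S x hx) :
    ChartIntegral S x hx := by
  have hxt := gc.transc
  have := gc.fin
  intro f hfi
  obtain ⟨Φ, hΦ, h0⟩ := exists_monic_phiF hx hxt gc.deg (f : F) hfi f.2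
  refine ⟨?_, ?_⟩
  · -- the reduction is integral over `k[xt]`
    have h1 : Polynomial.eval₂ (psi hx) f Φ = 0 := by
      apply Subtype.ext
      have := Polynomial.hom_eval₂ Φ (psi hx) S.V.subtype f
      rw [subtype_comp_psi] at this
      exact this.trans h0
    have h2 := congrArg S.red h1
    rw [Polynomial.hom_eval₂, map_zero] at h2
    let g : (↥S.O)[X] →+* ↥(Algebra.adjoin k {S.red ⟨x, hx⟩}) :=
      ((polyEquiv hxt).toRingEquiv.toRingHom).comp (Polynomial.mapRingHom S.resO)
    have h3 : S.red.comp (psi hx) =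
        (algebraMap ↥(Algebra.adjoin k {S.red ⟨x, hx⟩}) Ft).comp g := by
      refine RingHom.ext fun p₀ => ?_
      show S.red (psi hx p₀) = _
      rw [red_psi]
      exact (coe_polyEquiv hxt _).symm
    rw [h3] at h2
    refine ⟨Φ.map g, hΦ.map g, ?_⟩
    rw [Polynomial.eval₂_map]
    exact h2
  · -- values in `O`
    rintro P ⟨ρ, hρ, hP⟩
    have hdeg : P.deg = 1 := H51.stmt_FFB_deg C F hFF P
    have hxP : x ∈ P.toValuationSubring := mem_of_ordGe_one_sub P hP
    have hfP : (f : F) ∈ P.toValuationSubring := mem_of_isIntegral_adjoin P hxP _ hfi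
    -- the ring hom `O[X] → O_P`
    let ιO : ↥S.O →+* ↥P.toValuationSubring :=
      { toFun := fun a => ⟨algebraMap C F (a : C), P.algebraMap_mem' _⟩
        map_one' := by apply Subtype.ext; simp
        map_mul' := fun _ _ => by apply Subtype.ext; simp
        map_zero' := by apply Subtype.ext; simp
        map_add' := fun _ _ => by apply Subtype.ext; simp }
    let ψP : (↥S.O)[X] →+* ↥P.toValuationSubring := Polynomial.eval₂RingHom ιO ⟨x, hxP⟩
    have hψ : P.toValuationSubring.subtype.comp ψP = phiF S x := by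
      apply Polynomial.ringHom_ext
      · intro a
        rw [phiF_C]
        simp [ψP, ιO]
      · rw [phiF_X]
        simp [ψP]
    have h1 : Polynomial.eval₂ ψP (⟨(f : F), hfP⟩ : ↥P.toValuationSubring) Φ = 0 := by
      apply Subtype.ext
      have := Polynomial.hom_eval₂ Φ ψP P.toValuationSubring.subtype ⟨(f : F), hfP⟩
      rw [hψ] at this
      exact this.trans h0
    have h2 := congrArg (valHom P hdeg) h1
    rw [Polynomial.hom_eval₂, map_zero] at h2
    set a : C := valHom P hdeg ⟨(f : F), hfP⟩ with ha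
    have h3 : (valHom P hdeg).comp ψP =
        S.O.subtype.comp (Polynomial.evalRingHom (⟨ρ, hρ⟩ : ↥S.O)) := by
      apply Polynomial.ringHom_ext
      · intro c
        simp only [RingHom.comp_apply, Polynomial.coe_evalRingHom, Polynomial.eval_C]
        have : ψP (Polynomial.C c) = algebraMap C ↥P.toValuationSubring (c : C) := by
          apply Subtype.ext
          simp [ψP, ιO]
        rw [this, valHom_algebraMap]
        rfl
      · simp only [RingHom.comp_apply, Polynomial.coe_evalRingHom, Polynomial.eval_X]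
        have : ψP Polynomial.X = ⟨x, hxP⟩ := by simp [ψP]
        rw [this]
        exact valHom_eq_of_ordGe P hdeg ⟨x, hxP⟩ hP
    rw [h3] at h2
    have hint : IsIntegral ↥S.O a := by
      refine ⟨Φ.map (Polynomial.evalRingHom (⟨ρ, hρ⟩ : ↥S.O)), hΦ.map _, ?_⟩
      rw [Polynomial.eval₂_map]
      exact h2
    obtain ⟨y, hy⟩ := IsIntegrallyClosed.isIntegral_iff.mp hint
    refine ⟨y, ?_⟩
    have : ((y : ↥S.O) : C) = a := hy
    rw [this, ha]
    exact ordGe_sub_valHom P hdeg ⟨(f : F), hfP⟩

end Chart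

end Fermat.Agent.S27.REDu.H10

end
end
-- ==== END Fermat.Agent.S27.REDu.H10_ConsInt

-- ==== BEGIN Fermat.Agent.S27.REDu.H34_IntCons
section

/-!
# G-RED package IG (helper34): consequences of (INT)

* `red_isIntegral` : the reduction of an element of `B ∩ V` is integral over `k[xt]`.
* `evP_mem_O` : the value of an element of `B ∩ V` at a point over `ρ ∈ O` lies in `O`.
-/

set_option autoImplicit false

universe uC uCf uK uR uF uL uE uk ukap uFp uFt uFtp uiot uEp uKp ux3b1

noncomputable section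

open Polynomial IntermediateField Module
open scoped IntermediateField.algebraAdjoinAdjoin nonZeroDivisors

namespace Fermat.Agent.S27.REDu.H34

variable {C : Type uC} {F : Type uF} {k : Type uk} {Ft : Type uFt} [Field C] [Field F] [Algebra C F] [Field k] [Field Ft] [Algebra k Ft]

namespace RedSetting

variable {S : RedSetting C F k Ft} {x : F} (hx : x ∈ S.V)

/-- The ring hom `O[X] → k[xt]`. -/
def psiT (S : RedSetting C F k Ft) (hx : x ∈ S.V) :
    (↥S.O)[X] →+* ↥(Algebra.adjoin k {S.red ⟨x, hx⟩}) :=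
  ((Polynomial.aeval (genX (S.red ⟨x, hx⟩)) :
      k[X] →ₐ[k] ↥(Algebra.adjoin k {S.red ⟨x, hx⟩})) : k[X] →+* _).comp
    (Polynomial.mapRingHom S.resO)

theorem coe_psiT (p₀ : (↥S.O)[X]) :
    ((S.psiT hx p₀ : ↥(Algebra.adjoin k {S.red ⟨x, hx⟩})) : Ft) = S.red (psi hx p₀) := by
  rw [red_psi]
  show ((Polynomial.aeval (genX (S.red ⟨x, hx⟩)) (p₀.map S.resO) :
    ↥(Algebra.adjoin k {S.red ⟨x, hx⟩})) : Ft) = _
  rw [← Subalgebra.coe_val, ← Polynomial.aeval_algHom_apply]
  rfl


/-- The reduction of an element of `B ∩ V` is integral over `k[xt]`. -/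
theorem red_isIntegral [CharZero C] (hxt : Transcendental k (S.red ⟨x, hx⟩)) [FiniteDimensional ↥C⟮x⟯ F]
    (hdeg : Module.finrank ↥k⟮S.red ⟨x, hx⟩⟯ Ft = Module.finrank ↥C⟮x⟯ F)
    (f : F) (hfB : IsIntegral ↥(Algebra.adjoin C {x}) f) (hf : f ∈ S.V) :
    IsIntegral ↥(Algebra.adjoin k {S.red ⟨x, hx⟩}) (S.red ⟨f, hf⟩) := by
  obtain ⟨Φ, hΦm, hΦ⟩ := exists_monic_of_mem hx hxt hdeg ⟨f, hfB⟩ hf
  have hxC := transcendental_x hx hxt
  -- transport the equation to `V`
  have hθ : (algebraMap ↥(Bx (C := C) x) F).comp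
      ((algebraMap ↥(Algebra.adjoin C {x}) ↥(Bx (C := C) x)).comp (S.psiR hxC)) =
      S.V.subtype.comp (psi hx) := by
    apply RingHom.ext
    intro p₀
    exact coe_psiR hx hxC p₀
  have h1 : Polynomial.eval₂ (psi hx) (⟨f, hf⟩ : ↥S.V) Φ = 0 := by
    apply Subtype.val_injective
    have hl := Polynomial.hom_eval₂ Φ (psi hx) S.V.subtype ⟨f, hf⟩
    have hr := Polynomial.hom_eval₂ Φ ((algebraMap ↥(Algebra.adjoin C {x})
      ↥(Bx (C := C) x)).comp (S.psiR hxC)) (algebraMap ↥(Bx (C := C) x) F) ⟨f, hfB⟩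
    rw [hΦ, map_zero, hθ] at hr
    exact hl.trans hr.symm
  have h3 := congrArg S.red h1
  rw [Polynomial.hom_eval₂, map_zero] at h3
  refine ⟨Φ.map (S.psiT hx), hΦm.map _, ?_⟩
  rw [Polynomial.eval₂_map, ← h3]
  congr 1
  apply RingHom.ext
  intro p₀
  exact coe_psiT hx p₀


variable [CharZero C] [IsAlgClosed C]

omit [CharZero C] in
theorem evP_comp_psiR (hxC : Transcendental C x) {ρ : C} (hρ : ρ ∈ S.O)
    {P : Ideal ↥(Bx (C := C) x)} (hP : P ∈ ptsOver x ρ) :
    (evP hP).comp ((algebraMap ↥(Algebra.adjoin C {x}) ↥(Bx (C := C) x)).comp (S.psiR hxC)) =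
      S.O.subtype.comp (Polynomial.evalRingHom (⟨ρ, hρ⟩ : ↥S.O)) := by
  apply Polynomial.ringHom_ext
  · intro a
    have h1 : S.psiR hxC (Polynomial.C a) = algebraMap C _ (a : C) := by
      simp only [psiR, RingHom.comp_apply, Polynomial.coe_mapRingHom, Polynomial.map_C]
      exact polyEquiv_C hxC _
    simp only [RingHom.comp_apply, h1, Polynomial.coe_evalRingHom, Polynomial.eval_C]
    rw [← IsScalarTower.algebraMap_apply C ↥(Algebra.adjoin C {x}) ↥(Bx (C := C) x),
      evP_algebraMap]
    rfl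
  · have h1 : S.psiR hxC Polynomial.X = genX x := by
      simp only [psiR, RingHom.comp_apply, Polynomial.coe_mapRingHom, Polynomial.map_X]
      exact polyEquiv_X hxC
    simp only [RingHom.comp_apply, h1, Polynomial.coe_evalRingHom, Polynomial.eval_X]
    rw [evP_genX]
    rfl

/-- The value of an element of `B ∩ V` at a point over `ρ ∈ O` lies in `O`. -/
theorem evP_mem_O (hxt : Transcendental k (S.red ⟨x, hx⟩)) [FiniteDimensional ↥C⟮x⟯ F]
    (hdeg : Module.finrank ↥k⟮S.red ⟨x, hx⟩⟯ Ft = Module.finrank ↥C⟮x⟯ F)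
    {ρ : C} (hρ : ρ ∈ S.O) {P : Ideal ↥(Bx (C := C) x)} (hP : P ∈ ptsOver x ρ)
    (f : ↥(Bx (C := C) x)) (hf : (f : F) ∈ S.V) : evP hP f ∈ S.O := by
  obtain ⟨Φ, hΦm, hΦ⟩ := exists_monic_of_mem hx hxt hdeg f hf
  have hxC := transcendental_x hx hxt
  have h1 := congrArg (evP hP) hΦ
  rw [Polynomial.hom_eval₂, map_zero, evP_comp_psiR hxC hρ hP, ← Polynomial.eval₂_map] at h1
  have hint : IsIntegral ↥S.O (evP hP f) :=
    ⟨Φ.map (Polynomial.evalRingHom (⟨ρ, hρ⟩ : ↥S.O)), hΦm.map _, h1⟩
  obtain ⟨y, hy⟩ := IsIntegrallyClosed.isIntegral_iff.1 hint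
  rw [← hy]
  exact y.2

end RedSetting

end Fermat.Agent.S27.REDu.H34

end
end
-- ==== END Fermat.Agent.S27.REDu.H34_IntCons

-- ==== BEGIN Fermat.Agent.S27.REDu.H42_Gen1
section

/-!
# G-RED package GEN (helper42), part 1: reduction of integral elements, lifted bases

Setting: `S : RedSetting C F k Ft` (helper34), `x ∈ V` with transcendental reduction `xt`.
* `gen_red_isIntegral` : `f ∈ V` integral over `C[x]`  ⟹  `red f` integral over `k[xt]`.
* `IsLift` : a family `e : ι → F` in `B ∩ V` whose reduction is a `k[xt]`-basis of the integral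
  closure `Bt` of `k[xt]` in `Ft`.
-/

set_option autoImplicit false

universe uC uCf uK uR uF uL uE uk ukap uFp uFt uFtp uiot uEp uKp ux3b1

noncomputable section

open Polynomial IntermediateField Module
open scoped IntermediateField.algebraAdjoinAdjoin

namespace Fermat.Agent.S27.REDu.H42

open Fermat.Agent.S27.REDu.H34 Fermat.Agent.S27.REDu.H34.RedSetting

variable {C : Type uC} {F : Type uF} {k : Type uk} {Ft : Type uFt} [Field C] [Field F] [Algebra C F] [Field k] [Field Ft] [Algebra k Ft]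
variable {S : RedSetting C F k Ft} {x : F} (hx : x ∈ S.V)

/-- The generator of `k[xt]`. -/
def genT (hx : x ∈ S.V) : ↥(Algebra.adjoin k {S.red ⟨x, hx⟩}) :=
  ⟨S.red ⟨x, hx⟩, Algebra.self_mem_adjoin_singleton k _⟩

/-- The ring hom `O[X] → k[xt]`, reduction of coefficients followed by `X ↦ xt`. -/
def rhoT (hx : x ∈ S.V) : (↥S.O)[X] →+* ↥(Algebra.adjoin k {S.red ⟨x, hx⟩}) :=
  ((Polynomial.aeval (genT hx) : k[X] →ₐ[k] ↥(Algebra.adjoin k {S.red ⟨x, hx⟩})) :
    k[X] →+* ↥(Algebra.adjoin k {S.red ⟨x, hx⟩})).comp (Polynomial.mapRingHom S.resO)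

theorem coe_rhoT (p₀ : (↥S.O)[X]) :
    ((rhoT hx p₀ : ↥(Algebra.adjoin k {S.red ⟨x, hx⟩})) : Ft) = S.red (psi hx p₀) := by
  rw [red_psi]
  show ((Polynomial.aeval (genT hx) (p₀.map S.resO) : ↥(Algebra.adjoin k {S.red ⟨x, hx⟩})) : Ft)
    = _
  rw [← Subalgebra.coe_val, ← Polynomial.aeval_algHom_apply]
  rfl

theorem algebraMap_comp_rhoT :
    (algebraMap ↥(Algebra.adjoin k {S.red ⟨x, hx⟩}) Ft).comp (rhoT hx) = S.red.comp (psi hx) := by
  refine RingHom.ext fun p₀ => ?_
  exact coe_rhoT hx p₀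

/-- An element of `V` annihilated by a monic polynomial over `O[x]` has integral reduction. -/
theorem gen_red_isIntegral_of_monic (f : ↥S.V) (Φ : ((↥S.O)[X])[X]) (hΦ : Φ.Monic)
    (h0 : Polynomial.eval₂ (psi hx) f Φ = 0) :
    IsIntegral ↥(Algebra.adjoin k {S.red ⟨x, hx⟩}) (S.red f) := by
  refine ⟨Φ.map (rhoT hx), hΦ.map _, ?_⟩
  rw [Polynomial.eval₂_map, algebraMap_comp_rhoT, ← Polynomial.hom_eval₂, h0, map_zero]

/-- **Reduction of integral elements**: `f ∈ V` integral over `C[x]` has a reduction which is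
integral over `k[xt]`. -/
theorem gen_red_isIntegral [CharZero C] (hxt : Transcendental k (S.red ⟨x, hx⟩))
    [FiniteDimensional ↥C⟮x⟯ F]
    (hdeg : Module.finrank ↥k⟮S.red ⟨x, hx⟩⟯ Ft = Module.finrank ↥C⟮x⟯ F)
    (f : ↥S.V) (hf : IsIntegral ↥(Algebra.adjoin C {x}) (f : F)) :
    IsIntegral ↥(Algebra.adjoin k {S.red ⟨x, hx⟩}) (S.red f) := by
  have hxC := transcendental_x hx hxt
  obtain ⟨Φ, hΦ, h0⟩ := exists_monic_of_mem hx hxt hdeg (⟨(f : F), hf⟩ : ↥(Bx (C := C) x)) f.2
  refine gen_red_isIntegral_of_monic hx f Φ hΦ ?_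
  apply Subtype.ext
  have h1 := congrArg (fun b : ↥(Bx (C := C) x) => (b : F)) h0
  simp only [ZeroMemClass.coe_zero] at h1
  rw [ZeroMemClass.coe_zero, ← h1]
  have h2 : (S.V.subtype.comp (psi hx)) =
      ((Bx (C := C) x).val : ↥(Bx (C := C) x) →+* F).comp
        ((algebraMap ↥(Algebra.adjoin C {x}) ↥(Bx (C := C) x)).comp (S.psiR hxC)) := by
    refine RingHom.ext fun p₀ => ?_
    exact (coe_psiR hx hxC p₀).symm
  have h3 := Polynomial.hom_eval₂ Φ (psi hx) S.V.subtype f
  have h4 := Polynomial.hom_eval₂ Φ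
    ((algebraMap ↥(Algebra.adjoin C {x}) ↥(Bx (C := C) x)).comp (S.psiR hxC))
    ((Bx (C := C) x).val : ↥(Bx (C := C) x) →+* F) (⟨(f : F), hf⟩ : ↥(Bx (C := C) x))
  calc ((Polynomial.eval₂ (psi hx) f Φ : ↥S.V) : F)
      = S.V.subtype (Polynomial.eval₂ (psi hx) f Φ) := rfl
    _ = Polynomial.eval₂ (S.V.subtype.comp (psi hx)) (S.V.subtype f) Φ := h3
    _ = _ := by rw [h2]; exact h4.symm

end Fermat.Agent.S27.REDu.H42

end
end
-- ==== END Fermat.Agent.S27.REDu.H42_Gen1

-- ==== BEGIN Fermat.Agent.S27.REDu.H42_RiemannFinal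
section

/-!
# G-RED, packages FF-R and FF-B (zeros theorem): unconditional statements

Inputs: `H12.existsZeroAll` (helper12, existence of zeros), `H51.zerosLeAll` (helper51, the `≤`
half of the zeros theorem).  Output: the zeros theorem `zerosAll`, principal divisors
(`stmt_FFB_principal`) and Riemann's theorem (`stmt_FFR_finite`, `stmt_FFR_le`,
`stmt_FFR_riemann`) for all function fields of one variable over algebraically closed fields of
any characteristic.
-/

set_option autoImplicit false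

universe uC uCf uK uR uF uL uE uk ukap uFp uFt uFtp uiot uEp uKp ux3b1

namespace Fermat.Agent.S27.REDu.H42

/-- **The zeros theorem** (any characteristic): a non-constant function `x` has finitely many
zeros and their orders sum to `[F : K(x)]`. -/
theorem zerosAll : ZerosAll.{uK, uF} :=
  zerosAll_of Fermat.Agent.S27.REDu.H12.existsZeroAll Fermat.Agent.S27.REDu.H51.zerosLeAll

/-- Principal divisors exist and have degree zero. -/
theorem stmt_FFB_principal : Stmt_FFB_principal.{uK, uF} := stmt_FFB_principal_of zerosAll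

/-- `L(D)` is finite dimensional. -/
theorem stmt_FFR_finite : Stmt_FFR_finite.{uK, uF} := stmt_FFR_finite_of zerosAll

/-- `l(D) ≤ deg D + 1`, and `L(D) = 0` if `deg D < 0`. -/
theorem stmt_FFR_le : Stmt_FFR_le.{uK, uF} := stmt_FFR_le_of zerosAll

/-- **Riemann's theorem.** -/
theorem stmt_FFR_riemann : Stmt_FFR_riemann.{uK, uF} := stmt_FFR_riemann_of zerosAll

end Fermat.Agent.S27.REDu.H42

end
-- ==== END Fermat.Agent.S27.REDu.H42_RiemannFinal

-- ==== BEGIN Fermat.Agent.S27.REDu.H51_Fundamental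
section

/-!
# FF-B, piece P7 (helper51): the fundamental identity `∑_{w | v} e(w | v) = [F' : F]`

* `sum_ramificationIndex_le` : the inequality `≤`, for any finite set of places over `v`
  (core independence lemma);
* `fundamentalIdentity_of_zeros` : equality, from the zeros theorem in `F` and in `F'`;
* `stmt_FFB_fundamental_of : H42.ZerosAll.{uK, uF} → Stmt_FFB_fundamental.{uK, uF, uFp}`.
-/

set_option autoImplicit false
set_option linter.style.haveILetI false

universe uC uCf uK uR uF uL uE uk ukap uFp uFt uFtp uiot uEp uKp ux3b1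

noncomputable section

open AlgebraicCurve IntermediateField

namespace Fermat.Agent.S27.REDu.H51

section Rel

variable {K F F' : Type*} [Field K] [Field F] [Field F'] [Algebra K F] [Algebra K F']
  [Algebra F F'] [IsScalarTower K F F'] [Algebra.IsIntegral F F']

/-- The places over `v` are compatible with the base field `F`. -/
theorem compat_of_restrict (v : Place K F) {ι : Type*} [Fintype ι] (w : ι → Place K F')
    (hw : ∀ j, (w j).restrict F = v) :
    Compat w (fun j => (w j).ramificationIndex F) F := by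
  obtain ⟨t, ht0, ht⟩ := exists_uniformizer v
  refine ⟨⟨t, ht0, fun j => ?_⟩, fun c _ => ⟨v.ord c, fun j => ?_⟩⟩
  · rw [(w j).ord_restrict t, hw j, ht, mul_one]
  · rw [(w j).ord_restrict c, hw j]

/-- `∑ e(w | v) ≤ [F' : F]` for every finite set of places over `v`. -/
theorem sum_ramificationIndex_le [Module.Finite F F'] (v : Place K F)
    (S : Finset (Place K F')) (hS : ∀ w ∈ S, w.restrict F = v) :
    ∑ w ∈ S, w.ramificationIndex F ≤ Module.finrank F F' := by
  have h := sum_le_finrank
    (compat_of_restrict v (fun w : S => (w : Place K F')) (fun w => hS w w.2))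
    Subtype.val_injective
  rwa [Finset.sum_coe_sort S (fun w => w.ramificationIndex F)] at h

/-- An element of nonzero order at some place is transcendental over the algebraically closed
field of constants. -/
theorem transcendental_of_ord_ne_zero [IsAlgClosed K] (v : Place K F) {x : F}
    (hx : v.ord x ≠ 0) : Transcendental K x := by
  intro halg
  have hint : IsIntegral K x := halg.isIntegral
  have hdeg1 : (minpoly K x).degree = 1 :=
    IsAlgClosed.degree_eq_one_of_irreducible K (minpoly.irreducible hint)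
  obtain ⟨a, ha⟩ := minpoly.mem_range_of_degree_eq_one K x hdeg1
  apply hx
  rw [← ha]
  exact ord_algebraMap v a

omit [Algebra.IsIntegral F F'] in
/-- `[F' : K(x')] = [F : K(x)] [F' : F]` for the image `x'` of `x`. -/
theorem finrank_adjoin_algebraMap (x : F) :
    Module.finrank K⟮algebraMap F F' x⟯ F' = Module.finrank K⟮x⟯ F * Module.finrank F F' := by
  rw [Module.finrank_mul_finrank K⟮x⟯ F F']
  symm
  have hmap : K⟮x⟯.map (IsScalarTower.toAlgHom K F F') = K⟮algebraMap F F' x⟯ := by
    rw [adjoin_map, Set.image_singleton]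
    rfl
  let i : K⟮x⟯ ≃ₐ[K] K⟮algebraMap F F' x⟯ :=
    (equivMap K⟮x⟯ (IsScalarTower.toAlgHom K F F')).trans (equivOfEq hmap)
  refine Algebra.finrank_eq_of_equiv_equiv (i : K⟮x⟯ ≃+* K⟮algebraMap F F' x⟯)
    (RingEquiv.refl F') ?_
  ext c
  rfl

end Rel

section Main

variable {K F F' : Type*} [Field K] [Field F] [Field F'] [Algebra K F] [Algebra K F']
  [Algebra F F'] [IsScalarTower K F F'] [Algebra.IsIntegral F F']

open Fermat.Agent.S24 in
/-- The fundamental identity at `v`, in the form `∑_{w | v} e(w | v) = [F' : F]`, for every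
finite set `T` containing all the places over `v`. -/
theorem sum_ramificationIndex_eq [IsAlgClosed K] [Module.Finite F F']
    (hzF : H59.ZerosStmt K F) (hzF' : H59.ZerosStmt K F')
    {x₀ : F} (hx₀ : Transcendental K x₀) [FiniteDimensional K⟮x₀⟯ F]
    {x₀' : F'} (hx₀' : Transcendental K x₀') [FiniteDimensional K⟮x₀'⟯ F']
    (v : Place K F) (T : Finset (Place K F')) (hT : ∀ w, w ∈ T ↔ w.restrict F = v) :
    ∑ w ∈ T, w.ramificationIndex F = Module.finrank F F' := by
  classical
  obtain ⟨x, hx0, hxv⟩ := exists_uniformizer v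
  have hxtr : Transcendental K x := transcendental_of_ord_ne_zero v (by omega)
  haveI : FiniteDimensional K⟮x⟯ F := ff_finite_of_transcendental x₀ hx₀ x hxtr
  set x' : F' := algebraMap F F' x with hx'
  have hx'tr : Transcendental K x' :=
    (transcendental_algebraMap_iff (algebraMap F F').injective).mpr hxtr
  haveI : FiniteDimensional K⟮x'⟯ F' := ff_finite_of_transcendental x₀' hx₀' x' hx'tr
  obtain ⟨hZfin, hZsum⟩ := hzF x hxtr
  obtain ⟨hZ'fin, hZ'sum⟩ := hzF' x' hx'tr
  rw [finsum_mem_eq_finite_toFinset_sum _ hZfin] at hZsum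
  rw [finsum_mem_eq_finite_toFinset_sum _ hZ'fin] at hZ'sum
  set Z := hZfin.toFinset with hZdef
  set Z' := hZ'fin.toFinset with hZ'def
  have hmemZ : ∀ u, u ∈ Z ↔ 0 < u.ord x := fun u => by
    rw [hZdef, Set.Finite.mem_toFinset]; rfl
  have hmemZ' : ∀ w, w ∈ Z' ↔ 0 < w.ord x' := fun w => by
    rw [hZ'def, Set.Finite.mem_toFinset]; rfl
  have hepos : ∀ w : Place K F', 0 < w.ramificationIndex F := fun w =>
    w.ramificationIndex_pos (F := F)
  have hordw : ∀ w : Place K F', w.ord x' = w.ramificationIndex F * (w.restrict F).ord x :=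
    fun w => w.ord_restrict x
  have hmaps : ∀ w ∈ Z', w.restrict F ∈ Z := by
    intro w hw
    rw [hmemZ'] at hw
    rw [hmemZ]
    rw [hordw w] at hw
    have := hepos w
    by_contra hcon
    have h1 : (w.restrict F).ord x ≤ 0 := not_lt.mp hcon
    have h2 : (w.ramificationIndex F : ℤ) * (w.restrict F).ord x ≤ 0 :=
      mul_nonpos_of_nonneg_of_nonpos (Int.natCast_nonneg _) h1
    omega
  -- the degree
  set N : ℕ := Module.finrank F F' with hN
  have hdegree : (Module.finrank K⟮x'⟯ F' : ℤ) = (Module.finrank K⟮x⟯ F : ℤ) * (N : ℤ) := by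
    rw [hx', finrank_adjoin_algebraMap x]
    push_cast
    rfl
  -- the partial sums
  set E : Place K F → ℕ := fun u =>
    ∑ w ∈ Z' with w.restrict F = u, w.ramificationIndex F with hE
  have hEle : ∀ u, E u ≤ N := fun u =>
    sum_ramificationIndex_le u _ fun w hw => (Finset.mem_filter.mp hw).2
  have hsplit : ∑ w ∈ Z', w.ord x' = ∑ u ∈ Z, u.ord x * (E u : ℤ) := by
    rw [← Finset.sum_fiberwise_of_maps_to hmaps]
    refine Finset.sum_congr rfl fun u _ => ?_
    rw [hE]
    push_cast
    rw [Finset.mul_sum]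
    refine Finset.sum_congr rfl fun w hw => ?_
    rw [hordw w, (Finset.mem_filter.mp hw).2]
    ring
  have hvZ : v ∈ Z := (hmemZ v).mpr (by omega)
  have hEv : E v = N := by
    by_contra hne
    have hlt : E v < N := lt_of_le_of_ne (hEle v) hne
    have hstrict : ∑ u ∈ Z, u.ord x * (E u : ℤ) < ∑ u ∈ Z, u.ord x * (N : ℤ) := by
      refine Finset.sum_lt_sum (fun u hu => ?_) ⟨v, hvZ, ?_⟩
      · have h1 : (E u : ℤ) ≤ (N : ℤ) := by exact_mod_cast hEle u
        exact mul_le_mul_of_nonneg_left h1 ((hmemZ u).mp hu).le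
      · have h1 : (E v : ℤ) < (N : ℤ) := by exact_mod_cast hlt
        rw [hxv]
        omega
    rw [← hsplit, hZ'sum, hdegree, ← Finset.sum_mul, hZsum] at hstrict
    exact lt_irrefl _ hstrict
  have hTeq : T = Z'.filter fun w => w.restrict F = v := by
    ext w
    rw [hT, Finset.mem_filter, hmemZ', hordw w]
    constructor
    · intro h
      refine ⟨?_, h⟩
      rw [h, hxv, mul_one]
      exact_mod_cast hepos w
    · exact fun h => h.2
  rw [hTeq]
  exact hEv

/-- The fundamental identity from the zeros theorem. -/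
theorem fundamentalIdentity_of_zeros [IsAlgClosed K] [Module.Finite F F']
    [HasPrincipalDivisors K F']
    (hzF : Fermat.Agent.S24.H59.ZerosStmt K F) (hzF' : Fermat.Agent.S24.H59.ZerosStmt K F')
    {x₀ : F} (hx₀ : Transcendental K x₀) [FiniteDimensional K⟮x₀⟯ F]
    {x₀' : F'} (hx₀' : Transcendental K x₀') [FiniteDimensional K⟮x₀'⟯ F'] :
    FundamentalIdentity K F F' := by
  refine ⟨fun v => ?_⟩
  have h := sum_ramificationIndex_eq hzF hzF' hx₀ hx₀' v (v.fiber F') (fun w => Place.mem_fiber)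
  have hdeg : ∀ w : Place K F', w.deg = 1 := fun w => Fermat.Agent.S24.ff_deg_eq_one x₀' hx₀' w
  rw [Fermat.Agent.S24.ff_deg_eq_one x₀ hx₀ v, Nat.cast_one, mul_one, ← h, Nat.cast_sum]
  refine Finset.sum_congr rfl fun w _ => ?_
  rw [hdeg w, Nat.cast_one, mul_one]

end Main

/-- `Stmt_FFB_fundamental.{uK, uF, uFp}` from the zeros theorem. -/
theorem stmt_FFB_fundamental_of (hz : Fermat.Agent.S27.REDu.H42.ZerosAll.{uK, uF})
    (hz' : Fermat.Agent.S27.REDu.H42.ZerosAll.{uK, uFp}) :
    Fermat.Agent.S27.REDu.Stmt_FFB_fundamental.{uK, uF, uFp} := by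
  intro K F F' _ _ _ _ _ _ hFF hFF' φ hφ _
  have hzF := hz K F hFF
  have hzF' := hz' K F' hFF'
  obtain ⟨hint, hfin⟩ := stmt_FFB_finite K F F' hFF hFF' φ
  obtain ⟨x₀, hx₀, hfin₀⟩ := hFF
  obtain ⟨x₀', hx₀', hfin₀'⟩ := hFF'
  haveI : FiniteDimensional K⟮x₀⟯ F := hfin₀
  haveI : FiniteDimensional K⟮x₀'⟯ F' := hfin₀'
  unfold FundamentalIdentityAlong
  letI := algebraAlong φ
  haveI := isScalarTower_along φ
  haveI := isIntegral_along φ hφ
  haveI : Module.Finite F F' := hfin
  exact fundamentalIdentity_of_zeros hzF hzF' hx₀ hx₀'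

end Fermat.Agent.S27.REDu.H51

end
end
-- ==== END Fermat.Agent.S27.REDu.H51_Fundamental

-- ==== BEGIN Fermat.Agent.S27.REDu.H79_ConsDict
section

/-!
# G-RED package CONS, dictionary (helper79): places containing a Dedekind domain

`B` a Dedekind domain with fraction field `F`, a `K`-algebra.
* `ordGe_ofH_iff` : `OrdGe (ofHeightOneSpectrum w) n f ↔ w.valuation F f ≤ exp (-n)`.
* `ordGe_one_algebraMap_iff` : `b ∈ w ↔ ord_w b ≥ 1`.
* `mem_range_of_forall_ordGe` : (b) an element of `F` regular at all `w` lies in `B`.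
* `exists_eq_ofH` : (c) a place containing `B` is `ofHeightOneSpectrum w`.
* `exists_ord_eq_one` : (d) uniformizers in `B`.
* `exists_mem_not_mem_ofH` : separation of two primes by an element of `B`.
-/

set_option autoImplicit false

universe uC uCf uK uR uF uL uE uk ukap uFp uFt uFtp uiot uEp uKp ux3b1

noncomputable section

open AlgebraicCurve IsDedekindDomain WithZero

namespace Fermat.Agent.S27.REDu.H79

open Fermat.Agent.S27.REDu.H51

section Dict

variable {K F : Type*} [Field K] [Field F] [Algebra K F]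
variable {B : Type*} [CommRing B] [IsDedekindDomain B] [Algebra B F] [IsFractionRing B F]
  [Algebra K B] [IsScalarTower K B F]

/-- The place of a height one prime (abbreviation). -/
abbrev ofH (K : Type*) {F : Type*} [Field K] [Field F] [Algebra K F]
    {B : Type*} [CommRing B] [IsDedekindDomain B] [Algebra B F] [IsFractionRing B F]
    [Algebra K B] [IsScalarTower K B F] (w : HeightOneSpectrum B) : Place K F :=
  Place.ofHeightOneSpectrum (K := K) (F := F) w

theorem ordGe_ofH_iff (w : HeightOneSpectrum B) (n : ℤ) (f : F) :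
    OrdGe (ofH K w) n f ↔ w.valuation F f ≤ exp (-n) := by
  rcases eq_or_ne f 0 with rfl | hf
  · simp [OrdGe]
  · have hv : w.valuation F f ≠ 0 := (Valuation.ne_zero_iff _).mpr hf
    unfold OrdGe
    rw [or_iff_right hf, Fermat.Agent.S24.ord_ofHeightOneSpectrum (K := K) w hf]
    conv_rhs => rw [← exp_log hv, exp_le_exp]
    constructor <;> intro h <;> omega

theorem ordGe_zero_algebraMap (w : HeightOneSpectrum B) (b : B) :
    OrdGe (ofH K w) 0 (algebraMap B F b) := by
  rw [ordGe_ofH_iff, neg_zero, exp_zero]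
  exact w.valuation_le_one b

theorem ordGe_one_algebraMap_iff (w : HeightOneSpectrum B) (b : B) :
    OrdGe (ofH K w) 1 (algebraMap B F b) ↔ b ∈ w.asIdeal := by
  rw [ordGe_ofH_iff, HeightOneSpectrum.valuation_of_algebraMap,
    ← HeightOneSpectrum.intValuation_lt_one_iff_mem]
  rcases eq_or_ne (w.intValuation b) 0 with h0 | h0
  · rw [h0]; simp
  · conv_lhs => rw [← exp_log h0, exp_le_exp]
    conv_rhs => rw [← exp_log h0, ← exp_zero, exp_lt_exp]
    constructor <;> intro h <;> omega

/-- (b) An element of `F` which is regular at all height one primes lies in `B`. -/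
theorem mem_range_of_forall_ordGe (f : F)
    (h : ∀ w : HeightOneSpectrum B, OrdGe (ofH K w) 0 f) : f ∈ (algebraMap B F).range := by
  apply HeightOneSpectrum.mem_integers_of_valuation_le_one F f
  intro w
  have := (ordGe_ofH_iff (K := K) w 0 f).1 (h w)
  simpa using this

/-- (c) A place containing `B` is the place of a height one prime. -/
theorem exists_eq_ofH (v : Place K F) (hB : ∀ b : B, algebraMap B F b ∈ v.toValuationSubring) :
    ∃ w : HeightOneSpectrum B, v = ofH K w := by
  obtain ⟨w, hw⟩ := Fermat.Agent.S24.exists_heightOneSpectrum_of_le v hB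
  exact ⟨w, Place.ext hw⟩

theorem ofH_injective : Function.Injective (ofH K (F := F) (B := B)) := by
  intro w w' h
  by_contra hne
  -- an element of `w` not in `w'`
  have hnle : ¬ w.asIdeal ≤ w'.asIdeal := by
    intro hle
    have hmax : w.asIdeal.IsMaximal := w.isMaximal
    have := hmax.eq_of_le w'.isPrime.ne_top hle
    exact hne (HeightOneSpectrum.ext this)
  obtain ⟨b, hb, hb'⟩ := Set.not_subset.1 hnle
  have h1 := (ordGe_one_algebraMap_iff (K := K) (F := F) w b).2 hb
  rw [h] at h1
  exact hb' ((ordGe_one_algebraMap_iff (K := K) (F := F) w' b).1 h1)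

/-- (d) A uniformizer in `B`. -/
theorem exists_ord_eq_one (w : HeightOneSpectrum B) :
    ∃ b : B, b ∈ w.asIdeal ∧ (ofH K w).ord (algebraMap B F b) = 1 := by
  obtain ⟨π, hπ⟩ := w.intValuation_exists_uniformizer
  have hπ0 : π ≠ 0 := by
    rintro rfl
    rw [map_zero] at hπ
    exact exp_ne_zero hπ.symm
  have hπF : algebraMap B F π ≠ 0 := by
    rwa [ne_eq, map_eq_zero_iff _ (IsFractionRing.injective B F)]
  refine ⟨π, ?_, ?_⟩
  · rw [← HeightOneSpectrum.intValuation_lt_one_iff_mem, hπ, ← exp_zero, exp_lt_exp]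
    norm_num
  · rw [Fermat.Agent.S24.ord_ofHeightOneSpectrum (K := K) w hπF,
      HeightOneSpectrum.valuation_of_algebraMap, hπ, log_exp]
    norm_num

/-- An element of `B` outside `w` has order zero at `w`. -/
theorem ord_eq_zero_of_not_mem (w : HeightOneSpectrum B) {b : B} (hb : b ∉ w.asIdeal) :
    (ofH K w).ord (algebraMap B F b) = 0 := by
  have hb0 : b ≠ 0 := fun h => hb (h ▸ w.asIdeal.zero_mem)
  have hbF : algebraMap B F b ≠ 0 := by
    rwa [ne_eq, map_eq_zero_iff _ (IsFractionRing.injective B F)]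
  have h0 := (ordGe_zero_algebraMap (K := K) (F := F) w b).le hbF
  have h1 : ¬ OrdGe (ofH K w) 1 (algebraMap B F b) := fun h =>
    hb ((ordGe_one_algebraMap_iff (K := K) (F := F) w b).1 h)
  have h2 : ¬ (1 ≤ (ofH K w).ord (algebraMap B F b)) := fun h => h1 (Or.inr h)
  omega

/-- Separation: for `w ≠ w'` there is `b ∈ w'` with `b ∉ w`. -/
theorem exists_mem_not_mem_of_ne {w w' : HeightOneSpectrum B} (h : w ≠ w') :
    ∃ b : B, b ∈ w'.asIdeal ∧ b ∉ w.asIdeal := by
  have hnle : ¬ w'.asIdeal ≤ w.asIdeal := by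
    intro hle
    have hmax : w'.asIdeal.IsMaximal := w'.isMaximal
    have := hmax.eq_of_le w.isPrime.ne_top hle
    exact h (HeightOneSpectrum.ext this).symm
  obtain ⟨b, hb, hb'⟩ := Set.not_subset.1 hnle
  exact ⟨b, hb, hb'⟩

end Dict

end Fermat.Agent.S27.REDu.H79

end
end
-- ==== END Fermat.Agent.S27.REDu.H79_ConsDict

-- ==== BEGIN Fermat.Agent.S59.LL.SQ23.H89_Pic
section

/-!
# S59 / LL / SQ23, leaf S3-PIC (helper89): the action of `S₃` on `J₀(2M)`

From the two deck involutions `G : S3Gal M` of `F_{2M}` (leaf S3-GAL) and the degrees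
`[F_{2M} : α^* F_M] = 2 = [F_{2M} : β^* F_M]` (leaf S3-DEG) we build `s3Act_of_gal : S3Act M`:

* `s0`, `s1` act on `J₀(2M) = Pic⁰(F_{2M})` through the action of `F ≃ₐ[K] F` on `Pic⁰`
  (`actJ`; `D.s0 x = G.s0 • x` by `rfl`: `s3Act_s0_apply`, `s3Act_s1_apply`);
* `β^* β_* x = x + s0 • x`, `α^* α_* x = x + s1 • x` (norm of a quadratic Galois extension,
  `H89.pic0_pull_push_of_finrank_two`);
* `(s0 s1)³ = 1` from `G.c3`.
-/

set_option autoImplicit false
set_option linter.style.haveILetI false
set_option linter.unusedSectionVars false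

noncomputable section

namespace Fermat.Agent.S59.LL.SQ23.H89

open AlgebraicCurve ModularCurve Fermat.Agent.S24 Fermat.Agent.S36.H44
  Fermat.Agent.S59.LL.SQ.H40 Fermat.Agent.Lib.HeckeComm

local notation "Kb" => AlgebraicClosure ℚ

section Act

variable (M : ℕ) [NeZero M]

/-- The action of an automorphism of `F_{2M}` on `J₀(2M)`. -/
def actJ (s : FN (M * 2) ≃ₐ[Kb] FN (M * 2)) : JZero (M * 2) →+ JZero (M * 2) :=
  DistribSMul.toAddMonoidHom (JZero (M * 2)) s

@[simp]
theorem actJ_apply (s : FN (M * 2) ≃ₐ[Kb] FN (M * 2)) (x : JZero (M * 2)) :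
    actJ M s x = s • x := rfl

theorem actJ_mk (s : FN (M * 2) ≃ₐ[Kb] FN (M * 2))
    (D : Divisor.degZero (K := Kb) (F := FN (M * 2))) :
    actJ M s (Pic0.mk D) = Pic0.mk (Pic0.degZeroSMulHom s D) := rfl

theorem actJ_actJ (s t : FN (M * 2) ≃ₐ[Kb] FN (M * 2)) (x : JZero (M * 2)) :
    actJ M s (actJ M t x) = actJ M (s * t) x := by
  rw [actJ_apply, actJ_apply, actJ_apply, mul_smul]

theorem actJ_one (x : JZero (M * 2)) : actJ M 1 x = x := by
  rw [actJ_apply, one_smul]

/-- An automorphism which is not the identity on functions of a field of degree `> 1`... here: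
the deck involution of a quadratic extension is not the identity. -/
theorem ne_one_of_fixed {F F' : Type*} [Field F] [Field F'] [Algebra Kb F] [Algebra Kb F']
    (φ : F →ₐ[Kb] F') (h2 : finrankAlong Kb φ = 2) (s : F' ≃ₐ[Kb] F')
    (hfix : ∀ f, s f = f → ∃ g : F, φ g = f) : s ≠ 1 := by
  rintro rfl
  letI := algebraAlong φ
  have hsurj : Function.Surjective (algebraMap F F') := fun f => hfix f rfl
  have h1 : Module.finrank F F' = 1 := by
    have hbt : (⊥ : Subalgebra F F') = ⊤ := (Algebra.surjective_algebraMap_iff.mp hsurj).symm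
    exact Subalgebra.bot_eq_top_iff_finrank_eq_one.mp hbt
  have h2' : Module.finrank F F' = 2 := h2
  omega

variable (G : S3Gal M) (hα2 : finrankAlong Kb (heckeAlphaBar Kb M 2) = 2)
  (hβ2 : finrankAlong Kb (heckeBetaBar Kb M 2) = 2)

/-- **S3-PIC**: the action of `S₃` on `J₀(2M)` from the two deck involutions. -/
def s3Act_of_gal : S3Act M where
  s0 := actJ M G.s0
  s1 := actJ M G.s1
  s0_s0 := fun x => by
    rw [actJ_actJ, show G.s0 * G.s0 = 1 from AlgEquiv.ext G.s0_s0, actJ_one]
  s1_s1 := fun x => by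
    rw [actJ_actJ, show G.s1 * G.s1 = 1 from AlgEquiv.ext G.s1_s1, actJ_one]
  c3 := fun x => by
    rw [actJ_actJ, actJ_actJ, actJ_actJ, actJ_actJ, actJ_actJ,
      show G.s0 * G.s1 * G.s0 * G.s1 * G.s0 * G.s1 = 1 from AlgEquiv.ext G.c3,
      actJ_one]
  beta := fun x => by
    haveI := hasPD_FN (M * 2)
    exact pic0_pull_push_of_finrank_two (heckeBetaBar Kb M 2) (beta_integral M 2)
      (beta_FI M 2) (beta_finite M 2) (beta_norm M 2) hβ2 G.s0 G.s0_beta
      (ne_one_of_fixed (heckeBetaBar Kb M 2) hβ2 G.s0 G.s0_fixed) x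
  alpha := fun x => by
    haveI := hasPD_FN (M * 2)
    exact pic0_pull_push_of_finrank_two (heckeAlphaBar Kb M 2) (alpha_integral M 2)
      (alpha_FI M 2) (alpha_finite M 2) (alpha_norm M 2) hα2 G.s1 G.s1_alpha
      (ne_one_of_fixed (heckeAlphaBar Kb M 2) hα2 G.s1 G.s1_fixed) x

@[simp]
theorem s3Act_s0_apply (x : JZero (M * 2)) :
    (s3Act_of_gal M G hα2 hβ2).s0 x = G.s0 • x := rfl

@[simp]
theorem s3Act_s1_apply (x : JZero (M * 2)) :
    (s3Act_of_gal M G hα2 hβ2).s1 x = G.s1 • x := rfl

theorem s3Act_c_apply (x : JZero (M * 2)) :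
    (s3Act_of_gal M G hα2 hβ2).c x = (G.s0 * G.s1) • x := by
  rw [S3Act.c_apply, s3Act_s0_apply, s3Act_s1_apply, mul_smul]

theorem s3Act_c_mk (D : Divisor.degZero (K := Kb) (F := FN (M * 2))) :
    (s3Act_of_gal M G hα2 hβ2).c (Pic0.mk D)
      = Pic0.mk (Pic0.degZeroSMulHom (G.s0 * G.s1) D) := by
  rw [s3Act_c_apply]
  rfl

end Act

end Fermat.Agent.S59.LL.SQ23.H89

end
end
-- ==== END Fermat.Agent.S59.LL.SQ23.H89_Pic
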