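-- GENERATED (merged mirror, NOTES/tools/trim/merge3_helper67.py): 8 modules of the originals, bodies verbatim.
import Mathlib
import Fermat.Agent.Zm.S59_L06_000
import Fermat.Agent.Zm.S43_L13_000
import Fermat.Agent.Zm.S58_L02_000
import Fermat.Agent.Zm.S36_L18_000
import Fermat.Agent.Zm.S56_L21_000
import Fermat.Agent.Zm.S56_L19_000
import Fermat.Agent.Zm.S59_L03_001
import Fermat.Agent.Zm.S59_L05_000
import Fermat.Agent.Zm.S59_L04_001
import Fermat.Agent.Zm.S59_L01_000
import Fermat.Agent.Zm.S59_L06_001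
import Fermat.Agent.Zm.S59_L02_001
import Fermat.Agent.Zm.S59_L06_002

-- ==== BEGIN Fermat.Agent.L.Pivot3.H11_ChainAClosed
section

set_option autoImplicit false

namespace Fermat.Agent.L.Pivot3.H11

open Fermat.Agent.L.Pivot Fermat.Agent.L.Pivot3

/-- **PV-GAL for `cond 𝒪 p fl`**, unconditional. -/
theorem stmt_PVGalB_closed : Stmt_PVGalB :=
  stmt_PVGalB_of
    (Fermat.Agent.L.Pivot.H4.stmt_PVGalNB_of_open
      (Fermat.Agent.S55.H48.stmt_TopQ0_of_I4 Fermat.Agent.S55.CFT.GS.H24.stmt_I4)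
      Fermat.Agent.S55.CFT.GS.H24.stmt_I2 Fermat.Agent.S55.CFT.GS.H24.stmt_I3
      Fermat.Agent.S55.CFT.GS.H24.stmt_I4
      (Fermat.Agent.S56.EC.H47T.stmt_EC_top Fermat.Agent.S55.CFT.GS.H24.stmt_I2
        Fermat.Agent.S55.CFT.GS.H24.stmt_I3 Fermat.Agent.S55.CFT.GS.H24.stmt_I4))
    Fermat.Agent.L.Pivot.H72.stmt_PVGalAB

/-- **PV-NU-POINT**, unconditional (from S36). -/
theorem stmt_PVNUPoint_closed : Stmt_PVNUPoint :=
  Fermat.Agent.L.Pivot.H4.stmt_PVNUPoint_of
    (Fermat.Agent.S58.H81.stmt_S36_of_nuCoreTame Fermat.Agent.S36.NU.H10.nuCoreTame)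

/-- **The levels of PIVOT3 from PV-GEOM with auxiliary primes.** -/
theorem pvLevelsBA_closed (hGeom : Stmt_PVGeom2A) : Stmt_PVLevelsBA :=
  pvLevelsBA_of_open stmt_PVGalB_closed stmt_PVNUPoint_closed hGeom stmt_CONDauxD

/-- **PIVOT3, closed chain**: the Hecke–Galois form of PIVOT with auxiliary primes from PV-GEOM
with auxiliary primes. -/
theorem pivotCoreBA_closed (hGeom : Stmt_PVGeom2A) : Stmt_PivotCoreBA :=
  pivotCoreBA_of_gal stmt_PVGalB_closed stmt_PVNUPoint_closed hGeom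

/-- **PIVOT3, closed chain**, from the core PV-GEOM (`hU` form). -/
theorem pivotCoreBA_closed2 (hGeom : Fermat.Agent.L.Pivot.Stmt_PVGeom2) : Stmt_PivotCoreBA :=
  pivotCoreBA_closed (stmt_PVGeom2A_of hGeom)

end Fermat.Agent.L.Pivot3.H11

end
-- ==== END Fermat.Agent.L.Pivot3.H11_ChainAClosed

-- ==== BEGIN Fermat.Agent.S27.Char0.Lift.H45_Final
section

/-!
# S27 LIFT (helper45): package LIFT from its last leaf SOLVE

* `stmt_Generic : Stmt_Generic` (from RAMFIN);
* `stmt_LIFT_of_solve : Stmt_Solve → Char0.Stmt_LIFT`.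
-/

set_option autoImplicit false

namespace Fermat.Agent.S27.Char0.Lift.H45

open Fermat.Agent.S27.Char0

universe u v u' v'

/-- **GENERIC**, unconditional. -/
theorem stmt_Generic : Stmt_Generic.{u', v'} := stmt_Generic_of stmt_RamFin

/-- **Package LIFT** from its leaf SOLVE. -/
theorem stmt_LIFT_of_solve (hSol : Stmt_Solve.{u, v, u', v'}) : Stmt_LIFT.{u, v, u', v'} :=
  stmt_LIFT_of stmt_Generic stmt_Lattice hSol stmt_Concl

end Fermat.Agent.S27.Char0.Lift.H45

end
-- ==== END Fermat.Agent.S27.Char0.Lift.H45_Final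

-- ==== BEGIN Fermat.Agent.S27.Char0.Lift.H45_Resid
section

/-!
# S27 LIFT, SOLVE input RESID (helper45): the norm of `ht`

`resid_core` (on one function field): if `div ht = n (ptsDiv A - Et')`, the points of `A` are
simple `α_Q`-points of `x`, and `∏_i (x - β_i)^(m_i)` has the divisor of zeros `x_* (n Et')` at
finite distance, then `∏_i (x - β_i)^(m_i) · N_{F/K(x)}(ht) = c · ∏_{Q ∈ A} (x - α_Q)^n` with
`c ≠ 0`.

`resid` (good reduction): `rd (dfin) · N_{Ft/k(xt)}(ht) = c · ∏_{Q ∈ A} (xt - α_Q)^n`.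
-/

set_option autoImplicit false

noncomputable section

open AlgebraicCurve IntermediateField

namespace Fermat.Agent.S27.Char0.Lift.H45

open Fermat.Agent.RED.H17 Fermat.Agent.RED.H51 Fermat.Agent.S24 Fermat.Agent.S27.Char0

attribute [local instance] Classical.propDecidable

universe u v u' v'

section Core

variable {K : Type u} {F : Type v} [Field K] [Field F] [Algebra K F]

theorem resid_core [IsAlgClosed K] (H : FFHyp K F) {x : F} (hx : Transcendental K x)
    [FiniteDimensional ↥K⟮x⟯ F] (n : ℕ) (A : Finset (Place K F)) (α : Place K F → K)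
    (hsimple : ∀ Q ∈ A, Q.ord (x - algebraMap K F (α Q)) = 1)
    (Et' : Divisor K F) (ht : F) (ht0 : ht ≠ 0)
    (hdiv : ∀ Q : Place K F, Q.ord ht = n * (ptsDiv A Q - Et' Q))
    {ι : Type*} (S : Finset ι) (β : ι → K) (mult : ι → ℕ)
    (hS : ∀ (a : K) (T : Finset (Place K F)),
      (∀ P, P ∈ T ↔ 0 < P.ord (x - algebraMap K F a)) →
      ∑ i ∈ S, (if β i = a then (mult i : ℤ) else 0) = ∑ Q ∈ T, (n : ℤ) * Et' Q) :
    ∃ ct : K, ct ≠ 0 ∧
      (∏ i ∈ S, (x - algebraMap K F (β i)) ^ mult i)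
          * algebraMap ↥K⟮x⟯ F (Algebra.norm ↥K⟮x⟯ ht)
        = algebraMap K F ct * ∏ Q ∈ A, (x - algebraMap K F (α Q)) ^ n := by
  classical
  have hP := H.principal
  have hgtr := gen_transc hx
  have hgne : ∀ a' : K, AdjoinSimple.gen K x - algebraMap K ↥K⟮x⟯ a' ≠ 0 := by
    intro a' h0
    apply hgtr
    rw [sub_eq_zero.mp h0]
    exact isAlgebraic_algebraMap a'
  have hxne : ∀ a' : K, x - algebraMap K F a' ≠ 0 := by
    intro a' h0
    apply hx
    rw [sub_eq_zero.mp h0]
    exact isAlgebraic_algebraMap a'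
  obtain ⟨U, hU⟩ : ∃ U : ↥K⟮x⟯, U = (∏ i ∈ S,
      (AdjoinSimple.gen K x - algebraMap K ↥K⟮x⟯ (β i)) ^ mult i) * Algebra.norm ↥K⟮x⟯ ht :=
    ⟨_, rfl⟩
  obtain ⟨W, hW⟩ : ∃ W : ↥K⟮x⟯, W = ∏ Q ∈ A,
      (AdjoinSimple.gen K x - algebraMap K ↥K⟮x⟯ (α Q)) ^ n := ⟨_, rfl⟩
  have hN0 : Algebra.norm ↥K⟮x⟯ ht ≠ 0 := Algebra.norm_ne_zero_iff.mpr ht0
  have hprod0 : (∏ i ∈ S, (AdjoinSimple.gen K x - algebraMap K ↥K⟮x⟯ (β i)) ^ mult i) ≠ 0 :=
    Finset.prod_ne_zero_iff.mpr fun i _ => pow_ne_zero _ (hgne _)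
  have hU0 : U ≠ 0 := by rw [hU]; exact mul_ne_zero hprod0 hN0
  have hW0 : W ≠ 0 := by
    rw [hW]
    exact Finset.prod_ne_zero_iff.mpr fun Q _ => pow_ne_zero _ (hgne _)
  have hord : ∀ v : Place K ↥K⟮x⟯, 0 ≤ v.ord (AdjoinSimple.gen K x) → v.ord (U / W) = 0 := by
    intro v hv
    obtain ⟨a, ha, T, hT, hnorm⟩ := norm_on_fibre hP hx v hv
    have h1 : v.ord U = ∑ Q ∈ T, (n : ℤ) * ptsDiv A Q := by
      rw [hU, v.ord_mul hprod0 hN0, hnorm ht ht0,
        Fermat.Agent.RED.H17.ord_prod v _ _ fun i _ => pow_ne_zero _ (hgne _)]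
      have h2 : ∀ i ∈ S, v.ord ((AdjoinSimple.gen K x - algebraMap K ↥K⟮x⟯ (β i)) ^ mult i)
          = if β i = a then (mult i : ℤ) else 0 := by
        intro i _
        rw [Fermat.Agent.RED.H17.ord_pow, ha]
        split_ifs
        · rw [mul_one]
        · rw [mul_zero]
      rw [Finset.sum_congr rfl h2, hS a T hT, ← Finset.sum_add_distrib]
      refine Finset.sum_congr rfl fun Q _ => ?_
      rw [hdiv Q]
      ring
    have h3 : v.ord W = ∑ Q ∈ T, (n : ℤ) * ptsDiv A Q := by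
      rw [hW, Fermat.Agent.RED.H17.ord_prod v _ _ fun Q _ => pow_ne_zero _ (hgne _)]
      have h4 : ∀ Q ∈ A, v.ord ((AdjoinSimple.gen K x - algebraMap K ↥K⟮x⟯ (α Q)) ^ n)
          = if Q ∈ T then (n : ℤ) else 0 := by
        intro Q hQ
        rw [Fermat.Agent.RED.H17.ord_pow, ha]
        have hiff : α Q = a ↔ Q ∈ T := by
          rw [hT]
          constructor
          · intro h
            rw [← h, hsimple Q hQ]
            exact one_pos
          · intro h
            exact value_unique Q (vanAt_of_ord_pos (by rw [hsimple Q hQ]; exact one_pos))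
              (vanAt_of_ord_pos h)
        by_cases hQT : Q ∈ T
        · rw [if_pos (hiff.mpr hQT), if_pos hQT, mul_one]
        · rw [if_neg (fun h => hQT (hiff.mp h)), if_neg hQT, mul_zero]
      rw [Finset.sum_congr rfl h4]
      have h5 : ∀ Q ∈ T, (n : ℤ) * ptsDiv A Q = if Q ∈ A then (n : ℤ) else 0 := by
        intro Q _
        rw [ptsDiv_apply]
        split_ifs
        · rw [mul_one]
        · rw [mul_zero]
      rw [Finset.sum_congr rfl h5, ← Finset.sum_filter, ← Finset.sum_filter,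
        Finset.filter_mem_eq_inter, Finset.filter_mem_eq_inter, Finset.inter_comm]
    rw [Fermat.Agent.RED.H17.ord_div v hU0 hW0, h1, h3, sub_self]
  obtain ⟨ct, hct0, hct⟩ := const_of_ord_finite hx (div_ne_zero hU0 hW0) hord
  refine ⟨ct, hct0, ?_⟩
  have hUW : U = algebraMap K ↥K⟮x⟯ ct * W := by
    rw [← hct, div_mul_cancel₀ U hW0]
  have := congrArg (algebraMap ↥K⟮x⟯ F) hUW
  rw [hU, hW, map_mul, map_mul, map_prod, map_prod, ← IsScalarTower.algebraMap_apply] at this
  have e1 : ∀ a' : K, algebraMap ↥K⟮x⟯ F (AdjoinSimple.gen K x - algebraMap K ↥K⟮x⟯ a')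
      = x - algebraMap K F a' := by
    intro a'
    rw [map_sub, ← IsScalarTower.algebraMap_apply]
    rfl
  simp only [map_pow, e1] at this
  exact this

end Core

section GoodRed

variable {K : Type u} {F : Type v} {k : Type u'} {Ft : Type v'} [Field K] [Field F]
  [Algebra K F] [Field k] [Field Ft] [Algebra k Ft]

/-- The finite points of `E'`. -/
def sfin (G : GoodRed K F k Ft) (E' : Divisor K F) : Finset (Place K F) :=
  E'.support.filter (fun P => 0 ≤ P.ord G.x)

theorem dfin_eq (G : GoodRed K F k Ft) (n : ℕ) (E' : Divisor K F) (b : Place K F → K) :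
    dfin G n E' b = ∏ P ∈ sfin G E',
      (G.x - algebraMap K F (b P)) ^ (n * (E' P).toNat) := rfl

/-- **RESID**: the residual norm equation `rd (dfin) · N(ht) = c · ∏_{Q ∈ A} (xt - α_Q)^n`,
together with the shape of `rd (dfin)`. -/
theorem resid [IsAlgClosed K] [IsAlgClosed k] (G : GoodRed K F k Ft) (H : FFHyp K F)
    (H' : FFHyp k Ft) {g n : ℕ} {E : Divisor k Ft}
    (Gd : GenericData k Ft (G.S.rd G.x) g n E) {N : ℕ} (Ld : LatticeData G n Gd.Et' N) :
    ∃ (ct : k) (β : Place K F → k), ct ≠ 0 ∧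
      (∀ P ∈ sfin G Ld.E', algebraMap K F (Ld.b P) ∈ G.S.V ∧
        G.S.rd (algebraMap K F (Ld.b P)) = algebraMap k Ft (β P)) ∧
      dfin G n Ld.E' Ld.b ∈ G.S.V ∧
      G.S.rd (dfin G n Ld.E' Ld.b) = ∏ P ∈ sfin G Ld.E',
        (G.S.rd G.x - algebraMap k Ft (β P)) ^ (n * (Ld.E' P).toNat) ∧
      G.S.rd (dfin G n Ld.E' Ld.b)
          * algebraMap ↥k⟮G.S.rd G.x⟯ Ft (Algebra.norm ↥k⟮G.S.rd G.x⟯ Gd.ht)
        = algebraMap k Ft ct * ∏ Q ∈ Gd.A, (G.S.rd G.x - algebraMap k Ft (Gd.α Q)) ^ n := by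
  classical
  have hP := H.principal
  have hfin' := G.fin'
  have hxtne : ∀ a : k, G.S.rd G.x - algebraMap k Ft a ≠ 0 := by
    intro a h0
    apply G.transc
    rw [sub_eq_zero.mp h0]
    exact isAlgebraic_algebraMap a
  -- the points of `sfin`
  have hreg : ∀ P ∈ sfin G Ld.E', P ∈ Ld.E'.support ∧ 0 ≤ (G.S.r P).ord (G.S.rd G.x) := by
    intro P hPs
    obtain ⟨h1, h2⟩ := Finset.mem_filter.mp hPs
    refine ⟨h1, ?_⟩
    by_contra hneg
    have := Ld.pole P h1 (not_le.mp hneg)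
    omega
  have hbV : ∀ P ∈ sfin G Ld.E', algebraMap K F (Ld.b P) ∈ G.S.V := fun P hPs =>
    Ld.b_int P (hreg P hPs).1 (hreg P hPs).2
  have hβex : ∀ P : Place K F, ∃ β : k, P ∈ sfin G Ld.E' →
      G.S.rd (algebraMap K F (Ld.b P)) = algebraMap k Ft β := by
    intro P
    by_cases hPs : P ∈ sfin G Ld.E'
    · obtain ⟨β, hβ⟩ := G.S.rd_const_eq (Ld.b P) (hbV P hPs)
      exact ⟨β, fun _ => hβ⟩
    · exact ⟨0, fun h => absurd h hPs⟩
  choose β hβ using hβex
  -- the reduction of `dfin`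
  have hfV : ∀ P ∈ sfin G Ld.E',
      (G.x - algebraMap K F (Ld.b P)) ^ (n * (Ld.E' P).toNat) ∈ G.S.V := fun P hPs =>
    G.S.V.pow_mem (G.S.V.sub_mem G.hx (hbV P hPs)) _
  obtain ⟨hdV, hdrd⟩ := G.S.rd_prod (sfin G Ld.E')
    (fun P => (G.x - algebraMap K F (Ld.b P)) ^ (n * (Ld.E' P).toNat)) hfV
  have hdrd' : G.S.rd (dfin G n Ld.E' Ld.b) = ∏ P ∈ sfin G Ld.E',
      (G.S.rd G.x - algebraMap k Ft (β P)) ^ (n * (Ld.E' P).toNat) := by
    rw [dfin_eq, hdrd]
    refine Finset.prod_congr rfl fun P hPs => ?_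
    rw [G.S.rd_pow (G.S.V.sub_mem G.hx (hbV P hPs)), G.S.rd_sub G.hx (hbV P hPs), hβ P hPs]
  -- the value of `xt` at `r P`
  have hval : ∀ P ∈ sfin G Ld.E', VanAt (G.S.r P) (G.S.rd G.x - algebraMap k Ft (β P)) := by
    intro P hPs
    obtain ⟨hPE, hPr⟩ := hreg P hPs
    have h1 : VanAt P (G.x - algebraMap K F (Ld.b P)) := vanAt_of_ord_pos (Ld.value P hPE hPr)
    have hregx : ∀ P', G.S.r P' = G.S.r P → 0 ≤ P'.ord G.x := fun P' hP' =>
      ord_nonneg_of_ord_nonneg G H H' (by rw [hP']; exact hPr)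
    obtain ⟨-, h2⟩ := G.S.const_of_vanAt hP G.hx hregx rfl h1
    rw [hβ P hPs] at h2
    exact h2
  -- the counting hypothesis
  have hS : ∀ (a : k) (T : Finset (Place k Ft)),
      (∀ Q, Q ∈ T ↔ 0 < Q.ord (G.S.rd G.x - algebraMap k Ft a)) →
      ∑ P ∈ sfin G Ld.E', (if β P = a then ((n * (Ld.E' P).toNat : ℕ) : ℤ) else 0)
        = ∑ Q ∈ T, (n : ℤ) * Gd.Et' Q := by
    intro a T hT
    have h1 : ∀ Q ∈ T, (n : ℤ) * Gd.Et' Q
        = ∑ P ∈ Ld.E'.support, if G.S.r P = Q then (n : ℤ) * Ld.E' P else 0 := by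
      intro Q _
      have hpush : Gd.Et' Q = Finsupp.mapDomain G.S.r Ld.E' Q := by rw [Ld.push]
      rw [hpush, mapDomain_apply_eq_sum, Finset.mul_sum]
      refine Finset.sum_congr rfl fun P _ => ?_
      split_ifs
      · rfl
      · rw [mul_zero]
    rw [Finset.sum_congr rfl h1, Finset.sum_comm]
    unfold sfin
    rw [Finset.sum_filter]
    refine Finset.sum_congr rfl fun P hPE => ?_
    have h2 : ∑ Q ∈ T, (if G.S.r P = Q then (n : ℤ) * Ld.E' P else 0)
        = if G.S.r P ∈ T then (n : ℤ) * Ld.E' P else 0 := by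
      rw [Finset.sum_ite_eq T (G.S.r P)]
    rw [h2]
    have hcast : ((n * (Ld.E' P).toNat : ℕ) : ℤ) = (n : ℤ) * Ld.E' P := by
      push_cast
      rw [Int.toNat_of_nonneg (Ld.eff P)]
    by_cases hPx : 0 ≤ P.ord G.x
    · have hPs : P ∈ sfin G Ld.E' := Finset.mem_filter.mpr ⟨hPE, hPx⟩
      rw [if_pos hPx]
      by_cases hβa : β P = a
      · rw [if_pos hβa, hcast, if_pos]
        rw [hT, ← hβa]
        exact (hval P hPs).ord_pos (hxtne _)
      · rw [if_neg hβa, if_neg]
        intro hPT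
        exact hβa (value_unique (G.S.r P) (hval P hPs) (vanAt_of_ord_pos ((hT _).mp hPT)))
    · rw [if_neg hPx, if_neg]
      intro hPT
      apply hPx
      exact ord_nonneg_of_ord_nonneg G H H' (xt_ord_nonneg G ((hT _).mp hPT))
  obtain ⟨ct, hct0, hct⟩ := resid_core H' G.transc n Gd.A Gd.α Gd.simple Gd.Et' Gd.ht Gd.ht_ne
    Gd.div_ht (sfin G Ld.E') β (fun P => n * (Ld.E' P).toNat) hS
  refine ⟨ct, β, hct0, fun P hPs => ⟨hbV P hPs, hβ P hPs⟩, ?_, hdrd', ?_⟩
  · rw [dfin_eq]
    exact hdV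
  · rw [hdrd']
    exact hct

end GoodRed

end Fermat.Agent.S27.Char0.Lift.H45

end
end
-- ==== END Fermat.Agent.S27.Char0.Lift.H45_Resid

-- ==== BEGIN Fermat.Agent.S27.Char0.Lift.H45_TracePole
section

/-!
# S27 LIFT, leaf TRACEPOLE (helper45): the pole of a trace, via values of norms

`stmt_TracePole : Stmt_TracePole`.

`B = k(xt)`, `v₀ = Q|_B`, `π = xt - α` (a uniformizer at `v₀` and at `Q`).  Put `u := w π^m`:
`u` has the value `u₀ ≠ 0` at `Q` and the value `0` at the other places over `v₀`.  For `c ∈ k`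
the local norm formula for values (helper51's `norm_value_fiber`) gives
`N(1 + c u) ≡ 1 + c u₀ mod 𝔪_{v₀}`; as `N(1 + c u) = P(c)` for a polynomial `P` over `B` with
`coeff P 1 = Tr u`, interpolation (helper68) gives `Tr u ≡ u₀ mod 𝔪_{v₀}`.  Hence
`ord_{v₀} Tr u = 0` and `ord_{v₀} Tr w = ord_{v₀} (π^{-m} Tr u) = -m`.
-/

set_option autoImplicit false

noncomputable section

open AlgebraicCurve IntermediateField Polynomial

namespace Fermat.Agent.S27.Char0.Lift.H45

open Fermat.Agent.RED.H17 Fermat.Agent.RED.H51 Fermat.Agent.S24 Fermat.Agent.S27.Char0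

attribute [local instance] Classical.propDecidable

universe u v u' v'

theorem eval_charpolyRev_gen {R : Type u} [CommRing R] {n : Type v} [DecidableEq n] [Fintype n]
    (M : Matrix n n R) (c : R) : eval c M.charpolyRev = Matrix.det (1 - c • M) := by
  rw [Matrix.charpolyRev, ← coe_evalRingHom, RingHom.map_det]
  congr 1
  ext i j
  rcases eq_or_ne i j with hij | hij <;> simp [hij] <;> exact mul_comm _ _

/-- `N(1 + c u) = P(c)` with `coeff P 1 = Tr u` and `coeff P 0 = 1`. -/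
theorem exists_norm_poly {B : Type u} {L : Type v} [Field B] [Field L] [Algebra B L]
    [FiniteDimensional B L] (u : L) :
    ∃ P : B[X], (∀ c : B, Algebra.norm B (1 + algebraMap B L c * u) = eval c P) ∧
      P.coeff 1 = Algebra.trace B L u ∧ P.coeff 0 = 1 := by
  classical
  let b := Module.finBasis B L
  refine ⟨(-(Algebra.leftMulMatrix b u)).charpolyRev, fun c => ?_, ?_, ?_⟩
  · rw [eval_charpolyRev_gen, Algebra.norm_eq_matrix_det b, map_add, map_one, map_mul,
      AlgHom.commutes]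
    congr 1
    rw [smul_neg, sub_neg_eq_add, Algebra.algebraMap_eq_smul_one, smul_mul_assoc, one_mul]
  · rw [Matrix.coeff_charpolyRev_eq_neg_trace, Matrix.trace_neg, neg_neg,
      Algebra.trace_eq_matrix_trace b]
  · rw [coeff_zero_eq_eval_zero, Matrix.eval_charpolyRev]

/-- The functions vanishing at a place, as a submodule. -/
def vanSub {K : Type u} {F : Type v} [Field K] [Field F] [Algebra K F] (v : Place K F) :
    Submodule K F where
  carrier := {z | VanAt v z}
  zero_mem' := vanAt_zero v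
  add_mem' := fun ha hb => VanAt.add ha hb
  smul_mem' := fun c z hz => by
    show VanAt v (c • z)
    rw [Algebra.smul_def]
    exact (regAt_algebraMap v c).mul_vanAt hz

theorem ordGe_one_iff_vanAt' {K : Type u} {F : Type v} [Field K] [Field F] [Algebra K F]
    (v : Place K F) (f : F) : OrdGe v 1 f ↔ VanAt v f := by
  rw [vanAt_iff_ord]
  unfold OrdGe
  constructor
  · rintro (h | h)
    · exact Or.inl h
    · exact Or.inr (by omega)
  · rintro (h | h)
    · exact Or.inl h
    · exact Or.inr (by omega)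

theorem stmt_TracePole : Stmt_TracePole.{u', v'} := by
  intro k Ft _ _ _ _ H' xt hxt hfin hsep w α Q m hm hQ1 hQw hreg
  classical
  have hP := H'.principal
  have hinf : Infinite k := IsAlgClosed.instInfinite
  have hgtr := gen_transc hxt
  have hfinE := finite_gen (K := k) xt
  have hzE : H59.ZerosStmt k ↥k⟮xt⟯ := zerosStmt_u hgtr
  have hzF : H59.ZerosStmt k Ft := zerosStmt_u hxt
  have hxne : xt - algebraMap k Ft α ≠ 0 := by
    intro h0
    apply hxt
    rw [sub_eq_zero.mp h0]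
    exact isAlgebraic_algebraMap α
  have hw0 : w ≠ 0 := by
    rintro rfl
    rw [Place.ord_zero] at hQw
    omega
  -- the place `v₀` and the uniformizer
  obtain ⟨y, hy⟩ : ∃ y : ↥k⟮xt⟯, y = AdjoinSimple.gen k xt - algebraMap k ↥k⟮xt⟯ α := ⟨_, rfl⟩
  have hyx : algebraMap ↥k⟮xt⟯ Ft y = xt - algebraMap k Ft α := by
    rw [hy, map_sub, ← IsScalarTower.algebraMap_apply]
    rfl
  have hy0 : y ≠ 0 := by
    intro h0
    rw [h0, map_zero] at hyx
    exact hxne hyx.symm
  obtain ⟨v₀, hv₀⟩ : ∃ v : Place k ↥k⟮xt⟯, v = Q.restrict ↥k⟮xt⟯ := ⟨_, rfl⟩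
  have hposy : 0 < v₀.ord y := by
    have h1 := Q.ord_restrict y
    rw [hyx, ← hv₀, hQ1] at h1
    have hepos := Q.ramificationIndex_pos (F := ↥k⟮xt⟯)
    by_contra hneg
    rw [not_lt] at hneg
    have : (Q.ramificationIndex ↥k⟮xt⟯ : ℤ) * v₀.ord y ≤ 0 :=
      mul_nonpos_of_nonneg_of_nonpos (by omega) hneg
    omega
  have hgnn : 0 ≤ v₀.ord (AdjoinSimple.gen k xt) := by
    have h1 : RegAt v₀ y := regAt_of_ord_nonneg hposy.le
    have h2 := h1.add (regAt_algebraMap v₀ α)
    rw [hy, sub_add_cancel] at h2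
    exact h2.ord_nonneg
  obtain ⟨a, ha, T, hT, -⟩ := norm_on_fibre hP hxt v₀ hgnn
  have haα : α = a := by
    by_contra hne
    have := ha α
    rw [if_neg hne, ← hy] at this
    omega
  have hv₀y : v₀.ord y = 1 := by
    have := ha α
    rw [if_pos haα, ← hy] at this
    exact this
  have heQ : (Q.ramificationIndex ↥k⟮xt⟯ : ℤ) = 1 := by
    have h1 := Q.ord_restrict y
    rw [hyx, ← hv₀, hQ1, hv₀y, mul_one] at h1
    exact h1.symm
  have hordQ : ∀ z : ↥k⟮xt⟯, Q.ord (algebraMap ↥k⟮xt⟯ Ft z) = v₀.ord z := by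
    intro z
    rw [Q.ord_restrict z, ← hv₀, heQ, one_mul]
  -- the function `u`
  obtain ⟨u, hu⟩ : ∃ u : Ft, u = w * (xt - algebraMap k Ft α) ^ m := ⟨_, rfl⟩
  have hpow0 : (xt - algebraMap k Ft α) ^ m ≠ 0 := pow_ne_zero _ hxne
  have hu0 : u ≠ 0 := by rw [hu]; exact mul_ne_zero hw0 hpow0
  have hordu : ∀ P : Place k Ft, P.ord u = P.ord w + m * P.ord (xt - algebraMap k Ft α) := by
    intro P
    rw [hu, P.ord_mul hw0 hpow0, Fermat.Agent.RED.H17.ord_pow]
  have huQ : Q.ord u = 0 := by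
    rw [hordu, hQw, hQ1]
    ring
  obtain ⟨u₀, hu₀⟩ := _root_.Fermat.Agent.RED.H17.exists_value Q (H'.deg_one Q) (regAt_of_ord_nonneg huQ.ge)
  have hu₀0 : u₀ ≠ 0 := by
    rintro rfl
    rw [map_zero, sub_zero] at hu₀
    have := hu₀.ord_pos hu0
    omega
  have huP : ∀ P : Place k Ft, P.restrict ↥k⟮xt⟯ = v₀ → P ≠ Q → VanAt P u := by
    intro P hPv hPQ
    have h1 : 0 < P.ord (xt - algebraMap k Ft α) := by
      rw [← hyx, P.ord_restrict y, hPv, hv₀y, mul_one]
      have := P.ramificationIndex_pos (F := ↥k⟮xt⟯)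
      omega
    have h2 := hreg P hPQ h1
    apply vanAt_of_ord_pos
    rw [hordu]
    have h3 : (1 : ℤ) ≤ m := by exact_mod_cast hm
    nlinarith
  -- the norms of `1 + c u`
  have hnormval : ∀ c : k, VanAt v₀ (Algebra.norm ↥k⟮xt⟯ (1 + algebraMap k Ft c * u)
      - algebraMap k ↥k⟮xt⟯ (1 + c * u₀)) := by
    intro c
    have hc : ∀ P : Place k Ft, P.restrict ↥k⟮xt⟯ = v₀ →
        OrdGe P 1 ((1 + algebraMap k Ft c * u)
          - algebraMap k Ft (if P = Q then 1 + c * u₀ else 1)) := by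
      intro P hPv
      rw [ordGe_one_iff_vanAt']
      by_cases hPQ : P = Q
      · rw [if_pos hPQ, hPQ]
        have h1 : (1 + algebraMap k Ft c * u) - algebraMap k Ft (1 + c * u₀)
            = algebraMap k Ft c * (u - algebraMap k Ft u₀) := by
          rw [map_add, map_one, map_mul]
          ring
        rw [h1]
        exact (regAt_algebraMap Q c).mul_vanAt hu₀
      · rw [if_neg hPQ]
        have h1 : (1 + algebraMap k Ft c * u) - algebraMap k Ft 1 = algebraMap k Ft c * u := by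
          rw [map_one]
          ring
        rw [h1]
        exact (regAt_algebraMap P c).mul_vanAt (huP P hPv hPQ)
    have := hP
    have h2 := norm_value_fiber hzE hzF hgtr hxt v₀ (1 + algebraMap k Ft c * u)
      (fun P => if P = Q then 1 + c * u₀ else 1) hc
    have hQf : Q ∈ v₀.fiber Ft := Place.mem_fiber.mpr hv₀.symm
    have heQ' : Q.ramificationIndex ↥k⟮xt⟯ = 1 := by exact_mod_cast heQ
    have h3 : ∏ P ∈ v₀.fiber Ft, (if P = Q then 1 + c * u₀ else 1)
        ^ P.ramificationIndex ↥k⟮xt⟯ = 1 + c * u₀ := by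
      rw [Finset.prod_eq_single_of_mem Q hQf, if_pos rfl, heQ', pow_one]
      intro P _ hPQ
      rw [if_neg hPQ, one_pow]
    rw [h3, ordGe_one_iff_vanAt'] at h2
    exact h2
  -- interpolation
  obtain ⟨Pn, hPn, hPn1, -⟩ := exists_norm_poly (B := ↥k⟮xt⟯) u
  obtain ⟨D, hD⟩ : ∃ D : (↥k⟮xt⟯)[X],
      D = Pn - (1 + C (algebraMap k ↥k⟮xt⟯ u₀) * X) := ⟨_, rfl⟩
  have hDeval : ∀ c : k, D.eval (algebraMap k ↥k⟮xt⟯ c) ∈ vanSub v₀ := by
    intro c
    show VanAt v₀ _
    have h1 := hnormval c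
    rw [IsScalarTower.algebraMap_apply k ↥k⟮xt⟯ Ft c, hPn] at h1
    have h2 : D.eval (algebraMap k ↥k⟮xt⟯ c)
        = eval (algebraMap k ↥k⟮xt⟯ c) Pn - algebraMap k ↥k⟮xt⟯ (1 + c * u₀) := by
      rw [hD, eval_sub, eval_add, eval_one, eval_mul, eval_C, eval_X, map_add, map_one, map_mul]
      ring
    rw [h2]
    exact h1
  have hinfres : Infinite (IsLocalRing.ResidueField k) :=
    Infinite.of_injective (IsLocalRing.residue k) (IsLocalRing.residue k).injective
  have hcoeff := Fermat.Agent.S27.Lift.H68.polynomial_coeff_mem_of_eval_mem (O := k)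
    (vanSub v₀) D hDeval 1
  have hcoeff' : VanAt v₀ (Algebra.trace ↥k⟮xt⟯ Ft u - algebraMap k ↥k⟮xt⟯ u₀) := by
    have h1 : D.coeff 1 = Algebra.trace ↥k⟮xt⟯ Ft u - algebraMap k ↥k⟮xt⟯ u₀ := by
      rw [hD, coeff_sub, coeff_add, coeff_one, hPn1, coeff_C_mul, coeff_X_one]
      simp
    rw [← h1]
    exact hcoeff
  -- the order of the trace of `u`
  have htru : v₀.ord (Algebra.trace ↥k⟮xt⟯ Ft u) = 0 := by
    have h1 : Algebra.trace ↥k⟮xt⟯ Ft u = algebraMap k ↥k⟮xt⟯ u₀
        + (Algebra.trace ↥k⟮xt⟯ Ft u - algebraMap k ↥k⟮xt⟯ u₀) := by ring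
    rw [h1, ord_add_of_lt v₀ ((_root_.map_ne_zero _).mpr hu₀0),
      Fermat.Agent.RED.H17.ord_algebraMap]
    rw [Fermat.Agent.RED.H17.ord_algebraMap]
    rcases (vanAt_iff_ord v₀ _).mp hcoeff' with h | h
    · exact Or.inl h
    · exact Or.inr h
  -- the trace of `w`
  have hwu : w = (y ^ m)⁻¹ • u := by
    rw [Algebra.smul_def, map_inv₀, map_pow, hyx, hu, mul_comm w, ← mul_assoc,
      inv_mul_cancel₀ hpow0, one_mul]
  have htrw : Algebra.trace ↥k⟮xt⟯ Ft w = (y ^ m)⁻¹ * Algebra.trace ↥k⟮xt⟯ Ft u := by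
    rw [hwu, map_smul, smul_eq_mul]
  have htru0 : Algebra.trace ↥k⟮xt⟯ Ft u ≠ 0 := by
    intro h0
    rw [h0, sub_eq_neg_add, add_zero] at hcoeff'  -- VanAt v₀ (-u₀)
    have h2 := hcoeff'.neg
    rw [neg_neg] at h2
    exact not_vanAt_algebraMap v₀ hu₀0 h2
  rw [hordQ, htrw, v₀.ord_mul (inv_ne_zero (pow_ne_zero _ hy0)) htru0, htru, Place.ord_inv,
    Fermat.Agent.RED.H17.ord_pow, hv₀y]
  ring

end Fermat.Agent.S27.Char0.Lift.H45

end
end
-- ==== END Fermat.Agent.S27.Char0.Lift.H45_TracePole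

-- ==== BEGIN Fermat.Agent.S27.Char0.Lift.H68_NormSys
section

/-!
# S27 LIFT / SOLVE (helper68): the norm system with integral coefficients (NORM-SYS)

`normSys`: in a reduction setting with chart `x`, let `D ∈ K(x) ∩ V` and `f_1 .. f_N ∈ V` be such
that `D · N_{F/K(x)}(∑ t_j f_j)` is a polynomial of degree `≤ M` in `x` for all `t ∈ O^N`.  Then
there are `Φ_0 .. Φ_M ∈ O[t_1 .. t_N]` with `D · N(∑ t_j f_j) = ∑_e Φ_e(t) x^e`, whose reductions
are the coefficients of `rd D · N_{Ft/k(xt)}(∑ t_j rd f_j)` (as an identity of polynomials in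
`t` with coefficients in `Ft`).

Proof: orthonormal basis (`exists_ortho_basis`), the matrices `mulMat` of the `f_j` with entries
in `Vx`, the norm form `det (∑ t_j M_j)`, Gauss (`aeval_mem_V_iff`) and interpolation
(`mvPolynomial_coeff_mem_of_eval_mem`).
-/

set_option autoImplicit false
set_option linter.style.haveILetI false
set_option linter.unusedSectionVars false
set_option linter.unusedSimpArgs false

noncomputable section

open AlgebraicCurve IntermediateField

namespace Fermat.Agent.S27.Char0.Lift.H68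

open Fermat.Agent.S27.REDu.H34 Fermat.Agent.S27.REDu.H34.RedSetting Fermat.Agent.S27.REDu.H10
open Fermat.Agent.S27.Lift.H68 MvPolynomial

universe u v u' v'

variable {K : Type u} {F : Type v} {k : Type u'} {Ft : Type v'} [Field K] [Field F]
  [Algebra K F] [Field k] [Field Ft] [Algebra k Ft]

section general

/-- `f (eval t p) = eval (f ∘ t) (map f p)`. -/
lemma map_eval' {R S : Type*} [CommRing R] [CommRing S] {σ : Type*} (φ : R →+* S) (t : σ → R)
    (p : MvPolynomial σ R) : φ (eval t p) = eval (fun i => φ (t i)) (map φ p) := by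
  rw [MvPolynomial.eval₂_comp, eval_map]
  rfl

/-- evaluation as a sum over a set containing the support -/
lemma eval_eq_sum_of_support_subset {R : Type*} [CommRing R] {σ : Type*} [Fintype σ]
    (p : MvPolynomial σ R) (s : Finset (σ →₀ ℕ)) (hs : p.support ⊆ s) (t : σ → R) :
    eval t p = ∑ m ∈ s, coeff m p * ∏ i, t i ^ m i := by
  rw [MvPolynomial.eval_eq']
  refine Finset.sum_subset hs fun m _ hm => ?_
  rw [MvPolynomial.notMem_support_iff.mp hm, zero_mul]

end general

section resField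

variable (S : RedSetting K F k Ft)

/-- the residue field of `O` is infinite if `k` is -/
lemma infinite_residueField [Infinite k] : Infinite (IsLocalRing.ResidueField ↥S.O) := by
  haveI : IsLocalHom S.resO := by
    constructor
    intro a ha
    by_contra hnu
    have h0 := (S.resO_eq_zero_iff a).mpr hnu
    rw [h0] at ha
    exact not_isUnit_zero ha
  have hsurj : Function.Surjective (IsLocalRing.ResidueField.lift S.resO) := by
    intro c
    obtain ⟨a, rfl⟩ := S.resO_surj c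
    exact ⟨IsLocalRing.residue _ a, IsLocalRing.ResidueField.lift_residue_apply _ _⟩
  exact Infinite.of_surjective _ hsurj

end resField

section normSys

variable (S : RedSetting K F k Ft) {x : F} (hx : x ∈ S.V)

/-- The inclusion `Vx → F`. -/
def iotaF (S : RedSetting K F k Ft) (x : F) : ↥(S.Vx x) →+* F :=
  (algebraMap ↥K⟮x⟯ F).comp (S.Vx x).subtype

/-- constants of `O` in `Vx` -/
def constVx (S : RedSetting K F k Ft) (x : F) : ↥S.O →+* ↥(S.Vx x) where
  toFun a := ⟨algebraMap K ↥K⟮x⟯ (a : K), a.2⟩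
  map_one' := by apply Subtype.ext; simp
  map_mul' a b := by apply Subtype.ext; simp
  map_zero' := by apply Subtype.ext; simp
  map_add' a b := by apply Subtype.ext; simp

lemma iotaF_constVx (a : ↥S.O) : iotaF S x (constVx S x a) = algebraMap K F (a : K) := rfl

lemma redx_constVx (hxt : Transcendental k (S.red ⟨x, hx⟩)) (a : ↥S.O) :
    ((redx hx hxt (constVx S x a) : ↥k⟮S.red ⟨x, hx⟩⟯) : Ft) = algebraMap k Ft (S.resO a) :=
  S.red_algebraMap a

/-- the submodule of polynomials of degree `≤ M` in `x` with coefficients in `O` -/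
def polyW (S : RedSetting K F k Ft) (x : F) (M : ℕ) : Submodule ↥S.O F :=
  Submodule.span ↥S.O (Set.range fun e : Fin (M + 1) => x ^ (e : ℕ))

lemma mem_polyW {M : ℕ} {y : F} : y ∈ polyW S x M ↔
    ∃ c : Fin (M + 1) → ↥S.O, y = ∑ e, algebraMap K F (c e : K) * x ^ (e : ℕ) := by
  rw [polyW, Submodule.mem_span_range_iff_exists_fun]
  constructor
  · rintro ⟨c, rfl⟩
    refine ⟨c, Finset.sum_congr rfl fun e _ => ?_⟩
    rw [Algebra.smul_def]
    rfl
  · rintro ⟨c, rfl⟩
    refine ⟨c, Finset.sum_congr rfl fun e _ => ?_⟩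
    rw [Algebra.smul_def]
    rfl

/-- Gauss: a polynomial of degree `≤ M` in `x` which lies in `V` has coefficients in `O`. -/
lemma aeval_mem_polyW (hxt : Transcendental k (S.red ⟨x, hx⟩)) {M : ℕ} (p : Polynomial K)
    (hp : p.natDegree ≤ M) (hV : Polynomial.aeval x p ∈ S.V) :
    Polynomial.aeval x p ∈ polyW S x M := by
  rw [mem_polyW]
  have hc := (aeval_mem_V_iff hx hxt p).mp hV
  refine ⟨fun e => ⟨p.coeff e, hc e⟩, ?_⟩
  rw [Polynomial.aeval_eq_sum_range' (Nat.lt_succ_of_le hp), Fin.sum_univ_eq_sum_range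
    (fun e => algebraMap K F (p.coeff e) * x ^ e) (M + 1)]
  refine Finset.sum_congr rfl fun e _ => ?_
  rw [Algebra.smul_def]

/-- **NORM-SYS**: the norm system with integral coefficients. -/
theorem normSys [Infinite k] (hxt : Transcendental k (S.red ⟨x, hx⟩))
    [FiniteDimensional ↥K⟮x⟯ F]
    (hdeg : Module.finrank ↥k⟮S.red ⟨x, hx⟩⟯ Ft = Module.finrank ↥K⟮x⟯ F)
    (D : F) (hDx : D ∈ K⟮x⟯) (hDV : D ∈ S.V) {N M : ℕ} (f : Fin N → F) (hfV : ∀ j, f j ∈ S.V)
    (hpoly : ∀ t : Fin N → ↥S.O, ∃ p : Polynomial K, p.natDegree ≤ M ∧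
      D * algebraMap ↥K⟮x⟯ F (Algebra.norm ↥K⟮x⟯ (∑ j, algebraMap K F (t j : K) * f j)) =
        Polynomial.aeval x p) :
    ∃ (Φ : Fin (M + 1) → MvPolynomial (Fin N) ↥S.O)
      (βt : Module.Basis (Fin (Module.finrank ↥K⟮x⟯ F)) ↥k⟮S.red ⟨x, hx⟩⟯ Ft),
      (∀ t : Fin N → ↥S.O,
        D * algebraMap ↥K⟮x⟯ F (Algebra.norm ↥K⟮x⟯ (∑ j, algebraMap K F (t j : K) * f j)) =
          ∑ e : Fin (M + 1), algebraMap K F ((eval t (Φ e) : ↥S.O) : K) * x ^ (e : ℕ)) ∧
      ∑ e : Fin (M + 1), C (S.red ⟨x, hx⟩ ^ (e : ℕ)) *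
          map ((algebraMap k Ft).comp S.resO) (Φ e) =
        C (S.red ⟨D, hDV⟩) * map (algebraMap ↥k⟮S.red ⟨x, hx⟩⟯ Ft)
          (normFormAlg βt fun j => S.red ⟨f j, hfV j⟩) := by
  classical
  haveI := infinite_residueField S
  obtain ⟨βF, hβV, βt, hβt⟩ := exists_ortho_basis hx hxt hdeg
  set Mj : Fin N → Matrix (Fin (Module.finrank ↥K⟮x⟯ F)) (Fin (Module.finrank ↥K⟮x⟯ F))
      ↥(S.Vx x) := fun j => mulMat hx βF hβV βt hβt hxt (f j) (hfV j) with hMj
  set Dx : ↥(S.Vx x) := ⟨⟨D, hDx⟩, hDV⟩ with hDxdef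
  set Ψ : MvPolynomial (Fin N) ↥(S.Vx x) := C Dx * normForm Mj with hΨ
  -- the two images of `Ψ`
  have hΨF : map (S.Vx x).subtype Ψ = C (⟨D, hDx⟩ : ↥K⟮x⟯) * normFormAlg βF f := by
    rw [hΨ, map_mul, map_C, map_normForm, normFormAlg]
    congr 2
    funext j
    exact mulMat_map_subtype hx βF hβV βt hβt hxt (f j) (hfV j)
  have hΨt : map (redx hx hxt) Ψ = C (redx hx hxt Dx) *
      normFormAlg βt (fun j => S.red ⟨f j, hfV j⟩) := by
    rw [hΨ, map_mul, map_C, map_normForm, normFormAlg]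
    congr 2
    funext j
    exact mulMat_map_redx hx βF hβV βt hβt hxt (f j) (hfV j)
  -- values of `Ψ`
  have hval : ∀ t : Fin N → ↥S.O,
      iotaF S x (eval (fun j => constVx S x (t j)) Ψ) =
        D * algebraMap ↥K⟮x⟯ F (Algebra.norm ↥K⟮x⟯ (∑ j, algebraMap K F (t j : K) * f j)) := by
    intro t
    have h1 : iotaF S x (eval (fun j => constVx S x (t j)) Ψ) =
        algebraMap ↥K⟮x⟯ F ((S.Vx x).subtype (eval (fun j => constVx S x (t j)) Ψ)) := rfl
    rw [h1, map_eval', hΨF, map_mul, eval_C, eval_normFormAlg, map_mul]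
    congr 2
  -- coefficients
  have hcoef : ∀ m, iotaF S x (coeff m Ψ) ∈ polyW S x M := by
    intro m
    have h1 := mvPolynomial_coeff_mem_of_eval_mem (O := ↥S.O) (E := F) (polyW S x M)
      (map (iotaF S x) Ψ) (fun t => by
        have h2 : eval (fun i => algebraMap ↥S.O F (t i)) (map (iotaF S x) Ψ) =
            iotaF S x (eval (fun j => constVx S x (t j)) Ψ) := by
          rw [map_eval']
          rfl
        rw [h2]
        obtain ⟨p, hp, hpe⟩ := hpoly t
        have hV : iotaF S x (eval (fun j => constVx S x (t j)) Ψ) ∈ S.V :=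
          (eval (fun j => constVx S x (t j)) Ψ).2
        rw [hval t, hpe] at hV ⊢
        exact aeval_mem_polyW S hx hxt p hp hV) m
    rwa [coeff_map] at h1
  choose c hc using fun m => (mem_polyW S).mp (hcoef m)
  refine ⟨fun e => ∑ m ∈ Ψ.support, monomial m (c m e), βt, fun t => ?_, ?_⟩
  · rw [← hval t]
    have h2 : iotaF S x (eval (fun j => constVx S x (t j)) Ψ) =
        eval (fun i => algebraMap K F (t i : K)) (map (iotaF S x) Ψ) := by
      rw [map_eval']
      rfl
    rw [h2, eval_eq_sum_of_support_subset _ Ψ.support (support_map_subset _ _)]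
    have h3 : ∀ e : Fin (M + 1), algebraMap K F
        ((eval t (∑ m ∈ Ψ.support, monomial m (c m e)) : ↥S.O) : K) =
        ∑ m ∈ Ψ.support, algebraMap K F (c m e : K) * ∏ i, algebraMap K F (t i : K) ^ m i := by
      intro e
      have : algebraMap K F ((eval t (∑ m ∈ Ψ.support, monomial m (c m e)) : ↥S.O) : K) =
          algebraMap ↥S.O F (eval t (∑ m ∈ Ψ.support, monomial m (c m e))) := rfl
      rw [this, map_sum, map_sum]
      refine Finset.sum_congr rfl fun m _ => ?_
      rw [eval_monomial, map_mul, Finsupp.prod_fintype _ _ (fun i => pow_zero _), map_prod]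
      simp only [map_pow]
      rfl
    simp only [coeff_map, hc, h3, Finset.sum_mul]
    rw [Finset.sum_comm]
    refine Finset.sum_congr rfl fun e _ => Finset.sum_congr rfl fun m _ => ?_
    ring
  · have hR : C (S.red ⟨D, hDV⟩) * map (algebraMap ↥k⟮S.red ⟨x, hx⟩⟯ Ft)
        (normFormAlg βt fun j => S.red ⟨f j, hfV j⟩) =
        map ((algebraMap ↥k⟮S.red ⟨x, hx⟩⟯ Ft).comp (redx hx hxt)) Ψ := by
      rw [← MvPolynomial.map_map, hΨt, map_mul, map_C]
      rfl
    rw [hR]
    ext m'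
    rw [coeff_sum, coeff_map]
    have hred : (algebraMap ↥k⟮S.red ⟨x, hx⟩⟯ Ft).comp (redx hx hxt) (coeff m' Ψ) =
        ∑ e : Fin (M + 1), algebraMap k Ft (S.resO (c m' e)) * S.red ⟨x, hx⟩ ^ (e : ℕ) := by
      have h1 : (algebraMap ↥k⟮S.red ⟨x, hx⟩⟯ Ft).comp (redx hx hxt) (coeff m' Ψ) =
          S.red ⟨iotaF S x (coeff m' Ψ), (coeff m' Ψ).2⟩ := rfl
      have h2 : (⟨iotaF S x (coeff m' Ψ), (coeff m' Ψ).2⟩ : ↥S.V) =
          ∑ e : Fin (M + 1), S.inclO (c m' e) * (⟨x, hx⟩ : ↥S.V) ^ (e : ℕ) := by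
        apply Subtype.ext
        show iotaF S x (coeff m' Ψ) =
          ((∑ e : Fin (M + 1), S.inclO (c m' e) * (⟨x, hx⟩ : ↥S.V) ^ (e : ℕ) : ↥S.V) : F)
        rw [hc m']
        simp
      rw [h1, h2, map_sum]
      refine Finset.sum_congr rfl fun e _ => ?_
      rw [map_mul, map_pow, red_inclO]
    by_cases hm : m' ∈ Ψ.support
    · rw [hred]
      refine Finset.sum_congr rfl fun e _ => ?_
      rw [coeff_C_mul, coeff_map, coeff_sum]
      simp only [coeff_monomial]
      rw [Finset.sum_ite_eq' _ _ _, if_pos hm]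
      rw [RingHom.comp_apply]
      ring
    · have h0 : coeff m' Ψ = 0 := MvPolynomial.notMem_support_iff.mp hm
      rw [h0, map_zero]
      refine Finset.sum_eq_zero fun e _ => ?_
      rw [coeff_C_mul, coeff_map, coeff_sum]
      simp only [coeff_monomial]
      rw [Finset.sum_ite_eq' _ _ _, if_neg hm, map_zero, mul_zero]

end normSys

end Fermat.Agent.S27.Char0.Lift.H68

end
end
-- ==== END Fermat.Agent.S27.Char0.Lift.H68_NormSys

-- ==== BEGIN Fermat.Agent.S27.Char0.RedExDefs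
section

/-!
# S27 (row 26), characteristic-0 half, package RED-EX: interface statements (planner: helper20)

Plan: `NOTES/plan/S27_char0.md` §RED-EX.  Goal: `Char0.Stmt_REDEX`.

`Fermat/Agent/S27/REDu/*.lean` is a UNIVERSE POLYMORPHIC COPY of the chart machinery of G-RED
(`RED/H34_*` chart theorem, `RED/H10_*`, `RED/H79_*` conservation, `RED/H42_Gen*` genus), made
by script from the landed files (namespace `Fermat.Agent.S27.REDu`).

Route: an Eisenstein model of `F / K` at a totally ramified point (`EisModel`), a valuation ring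
`O` of `K` with residue field algebraic over `𝔽_p` making finitely many elements units (`VAL`),
the Gauss valuation ring `V = V₀[θ]` of `F` (`GaussExt`), the chart theorem for the charts `w`
and `w⁻¹` (branch values distinct modulo the maximal ideal), conservation and genus from `REDu`.
This file contains no unproved statement.
-/

set_option autoImplicit false

noncomputable section

open AlgebraicCurve IntermediateField

namespace Fermat.Agent.S27.Char0

open Fermat.Agent.RED.H17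

universe u v u' v'

/-- An **Eisenstein model** of `F / K`: `w` has a single zero `P`, `θ` is a uniformizer at `P`, and
`b(w) θ^d + Σ_{i<d} w a_i(w) θ^i = 0` with `b(0) ≠ 0`, `a_0(0) ≠ 0`, `d = [F : K(w)]`. -/
structure EisModel (K : Type u) (F : Type v) [Field K] [Field F] [Algebra K F] where
  w : F
  θ : F
  d : ℕ
  transc : Transcendental K w
  fin : Module.Finite K⟮w⟯ F
  deg : Module.finrank K⟮w⟯ F = d
  a : Fin d → Polynomial K
  b : Polynomial K
  hb : b.eval 0 ≠ 0
  ha : ∀ h : 0 < d, (a ⟨0, h⟩).eval 0 ≠ 0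
  rel : Polynomial.aeval w b * θ ^ d +
    ∑ i : Fin d, w * Polynomial.aeval w (a i) * θ ^ (i : ℕ) = 0

/-- **EIS-EX** (RX1 + RX2): every function field over an algebraically closed field has an
Eisenstein model.  (Riemann: a non-constant `f ∈ L((g+1) P)`, `w := 1/f`; `θ` a uniformizer at `P`;
the characteristic polynomial of `θ` over `K(w)` by the local charpoly and norm formulas of FF-B.) -/
def Stmt_EisEx : Prop :=
  ∀ (K : Type u) (F : Type v) [Field K] [Field F] [Algebra K F] [IsAlgClosed K],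
    IsFFu K F → FFHyp K F → ∀ (g : ℕ) (c : ℤ), IsGenus K F g c → Nonempty (EisModel K F)

/-- The valuation ring `O` of `K` is good for the model: integral coefficients, and `b(0)`,
`a_0(0)`, `d` are units. -/
structure EisModel.Good {K : Type u} {F : Type v} [Field K] [Field F] [Algebra K F]
    (M : EisModel K F) (O : ValuationSubring K) : Prop where
  coeff_a : ∀ (i : Fin M.d) (n : ℕ), (M.a i).coeff n ∈ O
  coeff_b : ∀ n : ℕ, M.b.coeff n ∈ O
  unit_b : (M.b.eval 0)⁻¹ ∈ O
  unit_a : ∀ h : 0 < M.d, ((M.a ⟨0, h⟩).eval 0)⁻¹ ∈ O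
  unit_d : ((M.d : K))⁻¹ ∈ O

/-- **VAL** (RX4): a valuation ring of `K` with residue field algebraic over `𝔽_p`, `p ∤ m`, in
which the nonzero elements of a given finite set are units.  (A maximal ideal of the finitely
generated ring `ℤ[I, I⁻¹, 1/m]`, Nullstellensatz over `ℤ`, then Atiyah-Macdonald 5.21.) -/
def Stmt_VAL : Prop :=
  ∀ (K : Type u) [Field K] [IsAlgClosed K] [CharZero K] (I : Finset K) (m : ℕ), 0 < m →
    ∃ (p : ℕ) (O : ValuationSubring K), p.Prime ∧ ¬ p ∣ m ∧
      (∀ a ∈ I, a ∈ O) ∧ (∀ a ∈ I, a ≠ 0 → a⁻¹ ∈ O) ∧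
      (p : K) ∈ O ∧ ((p : K))⁻¹ ∉ O ∧
      ∀ a ∈ O, ∃ n : ℕ, 0 < n ∧ (a ^ (p ^ n) - a = 0 ∨ (a ^ (p ^ n) - a)⁻¹ ∉ O)

/-- **RES-K**: the residue field of a valuation ring of an algebraically closed field is
algebraically closed. -/
def Stmt_ResK : Prop :=
  ∀ (K : Type u) (k : Type u') [Field K] [IsAlgClosed K] [Field k] (O : ValuationSubring K)
    (res : ↥O →+* k), Function.Surjective res → IsAlgClosed k

/-- **BRANCH-FIN** (RX3): a chart has finitely many branch values. -/
def Stmt_BranchFin : Prop :=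
  ∀ (K : Type u) (F : Type v) [Field K] [Field F] [Algebra K F] [IsAlgClosed K] [CharZero K]
    (x : F), Transcendental K x → Module.Finite K⟮x⟯ F →
    {ρ : K | REDu.H34.IsBranchValue x ρ}.Finite

/-- **GAUSS-EXT** (RX5 + RX6): for a good valuation ring `O` the ring `V = V₀[θ]` (`V₀` the Gauss
valuation ring of `K(w)`) is a valuation ring of `F` of Gauss type; its residue field is
`k(w~)[θ~]`, of degree `d` and separable over `k(w~)` (Eisenstein polynomial of degree prime to
the residue characteristic).  `CharZero K` is needed: then `unit_d` says that `d` is a unit of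
`O` (helper64's test). -/
def Stmt_GaussExt : Prop :=
  ∀ (K : Type u) (F : Type v) [Field K] [Field F] [Algebra K F] [IsAlgClosed K] [CharZero K]
    (M : EisModel K F) (O : ValuationSubring K), M.Good O → O ≠ ⊤ →
    ∃ (k : Type u) (Ft : Type v) (_ : Field k) (_ : Field Ft) (_ : Algebra k Ft)
      (S : REDu.H34.RedSetting K F k Ft) (hw : M.w ∈ S.V) (_ : M.w⁻¹ ∈ S.V),
      S.V.comap (algebraMap K F) = O ∧
      Transcendental k (S.red ⟨M.w, hw⟩) ∧
      Module.Finite k⟮S.red ⟨M.w, hw⟩⟯ Ft ∧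
      Module.finrank k⟮S.red ⟨M.w, hw⟩⟯ Ft = M.d ∧
      Algebra.IsSeparable k⟮S.red ⟨M.w, hw⟩⟯ Ft

/-- **BRIDGE** (RX8a): helper34's `RedSetting` with a conservation law is helper17's
`RedSetup`. -/
def Stmt_Bridge : Prop :=
  ∀ (K : Type u) (F : Type v) (k : Type u') (Ft : Type v') [Field K] [Field F] [Algebra K F]
    [Field k] [Field Ft] [Algebra k Ft]
    (S : REDu.H34.RedSetting K F k Ft) (r : Place K F → Place k Ft), REDu.H79.IsRedAbs S r →
    ∃ S' : RedSetup K F k Ft, S'.V = S.V ∧ S'.r = r ∧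
      ∀ (f : F) (hf : f ∈ S.V), S'.rd f = S.red ⟨f, hf⟩

end Fermat.Agent.S27.Char0

end
end
-- ==== END Fermat.Agent.S27.Char0.RedExDefs

-- ==== BEGIN Fermat.Agent.S27.CharP.H52_DescL
section

/-!
# S27, characteristic-`p` half (helper52): leaves L-INV and DESC-L

* `stmt_LInv : Stmt_LInv` : `l(φ D) = l(D)`;
* `stmt_DescL : Stmt_DescL` : `L(D)` has exactly `Q ^ l(D)` invariant elements (`φ D = D`).
-/

set_option autoImplicit false
set_option linter.style.haveILetI false
set_option linter.unusedSectionVars false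

noncomputable section

open AlgebraicCurve

namespace Fermat.Agent.S27.CharP.H52

open Fermat.Agent.RED.H17

universe u v

local notation "L" => riemannRochSpace

/-- **L-INV**. -/
theorem stmt_LInv : Stmt_LInv.{u, v} := fun _ _ _ _ _ φ D =>
  Fermat.Agent.S27.RR.H52.finrank_L_smul φ D

section

variable {k : Type u} {F : Type v} [Field k] [Field F] [Algebra k F]

/-- `φ` on `L(D)` for an invariant divisor `D`. -/
def frobL (φ : SemilinearAut k F) {D : Divisor k F} (hD : φ • D = D) : L D →+ L D where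
  toFun f := ⟨φ • (f : F), by
    have := (Fermat.Agent.S27.RR.H52.smul_mem_L_smul_iff φ D (f : F)).mpr f.2
    rwa [hD] at this⟩
  map_zero' := Subtype.ext (smul_zero φ)
  map_add' f g := Subtype.ext (smul_add φ (f : F) (g : F))

theorem frobL_coe (φ : SemilinearAut k F) {D : Divisor k F} (hD : φ • D = D) (f : L D) :
    ((frobL φ hD f : L D) : F) = φ • (f : F) := rfl

theorem frobL_injective (φ : SemilinearAut k F) {D : Divisor k F} (hD : φ • D = D) :
    Function.Injective (frobL φ hD) := by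
  intro f g h
  have h1 : φ • (f : F) = φ • (g : F) := congrArg Subtype.val h
  exact Subtype.ext (MulAction.injective φ h1)

theorem frobL_smul (φ : SemilinearAut k F) {D : Divisor k F} (hD : φ • D = D) (c : k)
    (f : L D) : frobL φ hD (c • f) = SemilinearAut.baseAut φ c • frobL φ hD f :=
  Subtype.ext (Fermat.Agent.S27.RR.H52.smul_smul_eq φ c (f : F))

end

/-- **DESC-L**. -/
theorem stmt_DescL : Stmt_DescL.{u, v} := by
  intro k F _ _ _ _ p _ hp H Q φ hφ D hD
  haveI : Fact p.Prime := ⟨hp⟩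
  haveI : FiniteDimensional k (L D) := H.finite D
  obtain ⟨a, ha, rfl⟩ := hφ.pow
  have hcard := card_fixed p a (frobL φ hD) ha (fun c v => by
    rw [frobL_smul, hφ.base]) (frobL_injective φ hD)
  rw [← hcard]
  refine Nat.card_congr
    { toFun := fun f => ⟨⟨f.1, f.2.1⟩, Subtype.ext f.2.2⟩
      invFun := fun f => ⟨f.1.1, f.1.2, congrArg Subtype.val f.2⟩
      left_inv := fun f => rfl
      right_inv := fun f => rfl }

end Fermat.Agent.S27.CharP.H52

end
end
-- ==== END Fermat.Agent.S27.CharP.H52_DescL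

-- ==== BEGIN Fermat.Agent.S27.REDu.H34_Bbar
section

/-!
# G-RED package IG (helper34): the reduced order `Bbar = red (B ∩ V)`

* `exists_basis_of_le_integralClosure` : a full lattice in the integral closure over a PID has a basis.
* `RedSetting.Bbar` : `red (B ∩ V)` as a `k[xt]`-submodule of `Ft`; it consists of integral elements
  and spans `Ft` over `k(xt)`.
-/

set_option autoImplicit false

universe uC uCf uK uR uF uL uE uk ukap uFp uFt uFtp uiot uEp uKp ux3b1

noncomputable section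

open Polynomial IntermediateField Module
open scoped IntermediateField.algebraAdjoinAdjoin nonZeroDivisors

namespace Fermat.Agent.S27.REDu.H34

/-- A full `R`-lattice inside the integral closure has an `R`-basis which is a `K`-basis. -/
theorem exists_basis_of_le_integralClosure {R : Type uR} {K : Type uK} {L : Type uL} [CommRing R] [IsDomain R]
    [IsPrincipalIdealRing R] [Field K] [Field L] [Algebra R K] [IsFractionRing R K] [Algebra K L]
    [Algebra R L] [IsScalarTower R K L] [FiniteDimensional K L] [Algebra.IsSeparable K L]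
    (N : Submodule R L) (hN : ∀ y ∈ N, IsIntegral R y)
    (hspan : ∀ y : L, ∃ q : R, q ≠ 0 ∧ q • y ∈ N) :
    ∃ (m : ℕ) (b : Module.Basis (Fin m) K L), (∀ i, b i ∈ N) ∧
      ∀ y ∈ N, y ∈ Submodule.span R (Set.range b) := by
  classical
  have hinj : Function.Injective (algebraMap R L) := by
    rw [IsScalarTower.algebraMap_eq R K L]
    exact (algebraMap K L).injective.comp (IsFractionRing.injective R K)
  have htf : Module.IsTorsionFree R L := by
    rw [Module.isTorsionFree_iff_algebraMap_injective]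
    exact hinj
  have hfree : Module.Free R (integralClosure R L) :=
    IsIntegralClosure.module_free R K L (integralClosure R L)
  have hfin : Module.Finite R (integralClosure R L) :=
    IsIntegralClosure.finite R K L (integralClosure R L)
  let c := Module.Free.chooseBasis R (integralClosure R L)
  have hle : N ≤ Subalgebra.toSubmodule (integralClosure R L) := fun y hy => hN y hy
  obtain ⟨m, bN⟩ := Submodule.basisOfPidOfLE hle
    (c.map (LinearEquiv.refl R _) : Module.Basis _ R ↥(Subalgebra.toSubmodule (integralClosure R L)))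
  let β : Fin m → L := fun i => (bN i : L)
  have hlinR : LinearIndependent R β :=
    bN.linearIndependent.map' N.subtype (Submodule.ker_subtype N)
  have hlinK : LinearIndependent K β := (LinearIndependent.iff_fractionRing R K).1 hlinR
  have hNspan : ∀ y ∈ N, y ∈ Submodule.span R (Set.range β) := by
    intro y hy
    have h1 := bN.sum_repr ⟨y, hy⟩
    have h2 := congrArg (fun z : ↥N => (z : L)) h1
    simp only [AddSubmonoidClass.coe_finsetSum, Submodule.coe_smul] at h2
    rw [← h2]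
    exact Submodule.sum_mem _ fun i _ => Submodule.smul_mem _ _ (Submodule.subset_span ⟨i, rfl⟩)
  have hKspan : ⊤ ≤ Submodule.span K (Set.range β) := by
    intro y _
    obtain ⟨q, hq, hqy⟩ := hspan y
    have h1 : q • y ∈ Submodule.span K (Set.range β) := by
      have := hNspan _ hqy
      exact Submodule.span_subset_span R K _ this
    have hq' : algebraMap R K q ≠ 0 := by
      intro h0
      exact hq ((IsFractionRing.injective R K) (h0.trans (map_zero _).symm))
    have h2 : y = (algebraMap R K q)⁻¹ • (q • y) := by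
      rw [← algebraMap_smul K q y, smul_smul, inv_mul_cancel₀ hq', one_smul]
    rw [h2]
    exact Submodule.smul_mem _ _ h1
  refine ⟨m, Module.Basis.mk hlinK hKspan, ?_, ?_⟩
  · intro i
    rw [Module.Basis.mk_apply]
    exact (bN i).2
  · intro y hy
    rw [Module.Basis.coe_mk]
    exact hNspan y hy

variable {C : Type uC} {F : Type uF} {k : Type uk} {Ft : Type uFt} [Field C] [Field F] [Algebra C F] [Field k] [Field Ft] [Algebra k Ft]

namespace RedSetting

variable {S : RedSetting C F k Ft} {x : F} (hx : x ∈ S.V)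

theorem psiT_surjective : Function.Surjective (S.psiT hx) := by
  intro r
  obtain ⟨r, hr⟩ := r
  rw [Algebra.adjoin_singleton_eq_range_aeval] at hr
  obtain ⟨pbar, rfl⟩ := hr
  obtain ⟨p₀, rfl⟩ := Polynomial.map_surjective S.resO S.resO_surj pbar
  refine ⟨p₀, ?_⟩
  apply Subtype.ext
  rw [coe_psiT, red_psi]
  rfl

theorem psi_isIntegral (p₀ : (↥S.O)[X]) :
    IsIntegral ↥(Algebra.adjoin C {x}) ((psi hx p₀ : ↥S.V) : F) := by
  rw [coe_psi]
  have : Polynomial.aeval x (p₀.map S.O.subtype) ∈ Algebra.adjoin C {x} := by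
    rw [Algebra.adjoin_singleton_eq_range_aeval]
    exact ⟨_, rfl⟩
  exact isIntegral_algebraMap (R := ↥(Algebra.adjoin C {x})) (A := F) (x := ⟨_, this⟩)

/-- `Bbar = red (B ∩ V)` as a `k[xt]`-submodule of `Ft`. -/
def Bbar (S : RedSetting C F k Ft) (hx : x ∈ S.V) :
    Submodule ↥(Algebra.adjoin k {S.red ⟨x, hx⟩}) Ft where
  carrier := {y | ∃ (f : F) (hf : f ∈ S.V), IsIntegral ↥(Algebra.adjoin C {x}) f ∧
    S.red ⟨f, hf⟩ = y}
  add_mem' := by
    rintro _ _ ⟨f, hf, hfi, rfl⟩ ⟨g, hg, hgi, rfl⟩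
    exact ⟨f + g, add_mem hf hg, hfi.add hgi, map_add S.red ⟨f, hf⟩ ⟨g, hg⟩⟩
  zero_mem' := ⟨0, zero_mem _, isIntegral_zero, map_zero S.red⟩
  smul_mem' := by
    rintro r _ ⟨f, hf, hfi, rfl⟩
    obtain ⟨p₀, rfl⟩ := psiT_surjective hx r
    refine ⟨((psi hx p₀ : ↥S.V) : F) * f, mul_mem (psi hx p₀).2 hf,
      (psi_isIntegral hx p₀).mul hfi, ?_⟩
    rw [Algebra.smul_def]
    show S.red (psi hx p₀ * ⟨f, hf⟩) = ((S.psiT hx p₀ : ↥(Algebra.adjoin k {S.red ⟨x, hx⟩})) : Ft) * _
    rw [map_mul, coe_psiT]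

theorem mem_Bbar (y : Ft) : y ∈ S.Bbar hx ↔ ∃ (f : F) (hf : f ∈ S.V),
    IsIntegral ↥(Algebra.adjoin C {x}) f ∧ S.red ⟨f, hf⟩ = y := Iff.rfl

theorem Bbar_isIntegral [CharZero C] (hxt : Transcendental k (S.red ⟨x, hx⟩))
    [FiniteDimensional ↥C⟮x⟯ F]
    (hdeg : Module.finrank ↥k⟮S.red ⟨x, hx⟩⟯ Ft = Module.finrank ↥C⟮x⟯ F)
    (y : Ft) (hy : y ∈ S.Bbar hx) : IsIntegral ↥(Algebra.adjoin k {S.red ⟨x, hx⟩}) y := by
  obtain ⟨f, hf, hfi, rfl⟩ := hy
  exact red_isIntegral hx hxt hdeg f hfi hf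

theorem Bbar_span (hxt : Transcendental k (S.red ⟨x, hx⟩)) [FiniteDimensional ↥C⟮x⟯ F] (y : Ft) :
    ∃ q : ↥(Algebra.adjoin k {S.red ⟨x, hx⟩}), q ≠ 0 ∧ q • y ∈ S.Bbar hx := by
  obtain ⟨f, rfl⟩ := S.red_surj y
  have hxC := transcendental_x hx hxt
  have halg : IsAlgebraic ↥(Algebra.adjoin C {x}) ((f : ↥S.V) : F) := by
    rw [IsFractionRing.isAlgebraic_iff ↥(Algebra.adjoin C {x}) ↥C⟮x⟯ F]
    exact Algebra.IsAlgebraic.isAlgebraic _
  obtain ⟨r, hr0, hri⟩ := halg.exists_integral_multiple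
  obtain ⟨p, rfl⟩ := (polyEquiv hxC).surjective r
  have hp : p ≠ 0 := by
    rintro rfl
    exact hr0 (map_zero _)
  obtain ⟨c, hc, p₀, hne, hu, hp₀, he⟩ := exists_decomp hx hxt p hp
  have h1 : ((psi hx p₀ : ↥S.V) : F) * (f : F) =
      algebraMap C F c⁻¹ * ((polyEquiv hxC p) • ((f : ↥S.V) : F)) := by
    rw [Algebra.smul_def]
    show _ = _ * (((polyEquiv hxC p : ↥(Algebra.adjoin C {x})) : F) * _)
    rw [coe_polyEquiv, he, map_inv₀]
    have hc' : algebraMap C F c ≠ 0 := fun h => hc ((map_eq_zero _).1 h)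
    field_simp
  refine ⟨S.psiT hx p₀, ?_, ((psi hx p₀ : ↥S.V) : F) * (f : F), mul_mem (psi hx p₀).2 f.2, ?_, ?_⟩
  · intro h0
    have h2 := congrArg (fun z : ↥(Algebra.adjoin k {S.red ⟨x, hx⟩}) => (z : Ft)) h0
    simp only [coe_psiT] at h2
    exact (S.red_eq_zero_iff _).1 h2 hu
  · rw [h1]
    have : IsIntegral ↥(Algebra.adjoin C {x}) (algebraMap C F c⁻¹) := by
      have hm : algebraMap C F c⁻¹ ∈ Algebra.adjoin C {x} := Subalgebra.algebraMap_mem _ _
      exact isIntegral_algebraMap (R := ↥(Algebra.adjoin C {x})) (A := F) (x := ⟨_, hm⟩)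
    exact this.mul hri
  · rw [Algebra.smul_def]
    show S.red (psi hx p₀ * f) = ((S.psiT hx p₀ : ↥(Algebra.adjoin k {S.red ⟨x, hx⟩})) : Ft) * _
    rw [map_mul, coe_psiT]

end RedSetting

end Fermat.Agent.S27.REDu.H34

end
end
-- ==== END Fermat.Agent.S27.REDu.H34_Bbar
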