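-- GENERATED (merged mirror, NOTES/tools/trim/merge3_helper67.py): 8 modules of the originals, bodies verbatim.
import Mathlib
import Fermat.Agent.Zm.S59_L03_003
import Fermat.Agent.Zm.S59_L04_001
import Fermat.Agent.Zm.S59_L04_002
import Fermat.Agent.Zm.S59_L01_001
import Fermat.Agent.Zm.S48_L02_001
import Fermat.Agent.Zm.S59_L02_002

-- ==== BEGIN Fermat.Agent.S27.Char0.Lift.H68_SolveDefs2
section

/-!
# S27 LIFT, leaf SOLVE (helper68): sub-leaves JAC-ORD and NORM-POLY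

**JAC-ORD** (`Stmt_JacOrd`, on `Ft / k` only, polynomial language of `solveAlg`): if
`c~ ∏ (xt - α_i)^n · T = dc ∏ (xt - α_i)^n - c~ n ∑_i da_i (xt - α_i)^(n-1) ∏_{i' ≠ i} (xt - α_i')^n`
and `Q_i` is a simple zero of `xt - α_i`, then `T` has at most a simple pole at `Q_i`.
(`H20.ord_aeval_center`: `ord_Q (aeval xt p) = rootMultiplicity α p` at a simple zero.)
This file contains no unproved statement.
-/

set_option autoImplicit false

noncomputable section

open AlgebraicCurve IntermediateField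

namespace Fermat.Agent.S27.Char0.Lift.Solve

open Fermat.Agent.S27.Lift.H68 Fermat.Agent.RED.H17 Fermat.Agent.S27.Char0
  Fermat.Agent.S27.Char0.Lift

local notation "L" => riemannRochSpace

universe u v u' v'

/-- **JAC-ORD**. -/
def Stmt_JacOrd : Prop :=
  ∀ (k : Type u') (Ft : Type v') [Field k] [Field Ft] [Algebra k Ft] (xt : Ft),
    Transcendental k xt →
    ∀ (g n : ℕ) (α : Fin g → k) (Qs : Fin g → Place k Ft), Function.Injective α →
      (∀ i, (Qs i).ord (xt - algebraMap k Ft (α i)) = 1) →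
      ∀ (ct dc : k) (da : Fin g → k) (T : Ft), ct ≠ 0 →
        Polynomial.aeval xt (Polynomial.C ct * rootProd n α) * T =
          Polynomial.aeval xt (Polynomial.C dc * rootProd n α -
            Polynomial.C (ct * n) * ∑ i, Polynomial.C (da i) * rootProdErase n α i) →
        ∀ i, -1 ≤ (Qs i).ord T

/-- **NORM-POLY** (assembly of NORM-ORD and POLY-CRIT in the setting of SOLVE): `Dfin(x)` lies in
`K(x)` and `Dfin(x) · N_{F/K(x)}(h)` is a polynomial of degree `≤ n g` in `x` for every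
`h ∈ L(n E')`.  To prove: `Stmt_NormOrd → Stmt_NormPoly` (with `H20.stmt_PolyCrit`;
`deg E' = deg Et' = g` by `Ld.push`, `degree_mapDomain`, `Gd.deg`; the hypothesis on `b` from
`Ld.value` and `Ld.pole`). -/
def Stmt_NormPoly : Prop :=
  ∀ (K : Type u) (F : Type v) (k : Type u') (Ft : Type v') [Field K] [Field F] [Algebra K F]
    [Field k] [Field Ft] [Algebra k Ft] [IsAlgClosed K] [IsAlgClosed k]
    (G : GoodRed K F k Ft), FFHyp K F → FFHyp k Ft →
    ∀ (g n : ℕ) (E : Divisor k Ft) (Gd : GenericData k Ft (G.S.rd G.x) g n E)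
      (N : ℕ) (Ld : LatticeData G n Gd.Et' N),
      dfin G n Ld.E' Ld.b ∈ K⟮G.x⟯ ∧
      ∀ h ∈ L ((n : ℤ) • Ld.E'), ∃ p : Polynomial K, p.natDegree ≤ n * g ∧
        dfin G n Ld.E' Ld.b * algebraMap ↥K⟮G.x⟯ F (Algebra.norm ↥K⟮G.x⟯ h) =
          Polynomial.aeval G.x p

end Fermat.Agent.S27.Char0.Lift.Solve

end
end
-- ==== END Fermat.Agent.S27.Char0.Lift.H68_SolveDefs2

-- ==== BEGIN Fermat.Agent.S41.H19_IharaStep2
section

/-!
# S41, Ihara leaf A (helper19): Steps 1 and 2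

For cuspidal `x₁, x₂ : Hom(Gamma0 N, F_p)` with `res1 x₁ + res2 x₂ = 0`, eigenvectors of `T_ℓ₀`
with eigenvalue `a₀ ≠ ℓ₀ + 1`:

* Step 1: `F_i = Pfn x_i + κ_i` is an exact eigenfunction of `TT ℓ₀` for a suitable constant `κ_i`;
* Step 2: `D(r) = F₁(r) + F₂(q r)` is invariant under `Gamma0 (N q)`, hence constant on the two
  `Gamma0 (N q)`-orbits of `X_N` (`q ∤ den r`, `q ∣ den r`), which are stable under the `ℓ₀ + 1`
  branches of `TT ℓ₀`; so `(a₀ - ℓ₀ - 1) D = 0` and `D = 0`.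
-/

set_option autoImplicit false

open scoped MatrixGroups
open CongruenceSubgroup Matrix

namespace Fermat.Agent.S41.Ihara

open Fermat.Agent.S41 Fermat.Agent.S41.H19

/-! ### Closure properties of `InX` -/

section InX

variable {N : ℕ}

lemma inX_add_int {r : ℚ} (hr : InX N r) (n : ℤ) : InX N (r + (n : ℚ)) := by
  have := inX_mob (uMat N n) hr
  rwa [mob_uMat] at this

lemma inX_int_mul {r : ℚ} (hr : InX N r) (n : ℤ) : InX N ((n : ℚ) * r) := by
  refine inX_of_eq_div (n * r.num) r.den hr.isCoprime ?_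
  push_cast
  rw [mul_div_assoc, Rat.num_div_den]

lemma inX_nat_mul {r : ℚ} (hr : InX N r) (n : ℕ) : InX N ((n : ℚ) * r) := by
  have := inX_int_mul hr (n : ℤ)
  simpa using this

lemma inX_div_nat {ℓ : ℕ} (hℓ : ℓ.Coprime N) {r : ℚ} (hr : InX N r) : InX N (r / (ℓ : ℚ)) := by
  rcases Nat.eq_zero_or_pos ℓ with h0 | hpos
  · subst h0
    simpa using inX_zero N
  · have := inX_mob_aMat hℓ (some ⟨0, hpos⟩) hr
    rw [mob_aMat_some] at this
    simpa using this

lemma inX_mul_iff (q : ℕ) (r : ℚ) : InX (N * q) r ↔ InX N r ∧ InX q r := by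
  unfold InX
  exact Nat.coprime_mul_iff_right

lemma inX_prime_iff {q : ℕ} (hq : q.Prime) (r : ℚ) : InX q r ↔ ¬ q ∣ r.den := by
  unfold InX
  rw [Nat.coprime_comm, Nat.Prime.coprime_iff_not_dvd hq]

lemma inX_inv_nat {q : ℕ} (hq : q.Coprime N) : InX N ((q : ℚ)⁻¹) := by
  have := inX_div_nat hq (inX_intCast N 1)
  simpa using this

end InX

/-! ### `TT` of sums and constants -/

section TTlin

variable {A : Type*} [AddCommGroup A]

lemma TT_add (ℓ : ℕ) (f g : ℚ → A) (r : ℚ) :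
    TT ℓ (fun s => f s + g s) r = TT ℓ f r + TT ℓ g r := by
  simp only [TT, Finset.sum_add_distrib]
  abel

lemma TT_const (ℓ : ℕ) (c : A) (r : ℚ) : TT ℓ (fun _ => c) r = (ℓ + 1) • c := by
  simp only [TT, Finset.sum_const, Finset.card_range, add_smul, one_smul]

lemma TT_add_const {p : ℕ} (ℓ : ℕ) (f : ℚ → ZMod p) (κ : ZMod p) (r : ℚ) :
    TT ℓ (fun s => f s + κ) r = TT ℓ f r + ((ℓ : ZMod p) + 1) * κ := by
  rw [TT_add ℓ f (fun _ => κ) r, TT_const, nsmul_eq_mul]
  push_cast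
  rfl

/-- Correcting an eigenfunction up to a constant into an exact eigenfunction. -/
lemma exists_const_eig {p : ℕ} [Fact p.Prime] (ℓ : ℕ) (a c : ZMod p)
    (ha : a ≠ (ℓ : ZMod p) + 1) :
    ∃ κ : ZMod p, ∀ (f : ℚ → ZMod p) (r : ℚ), TT ℓ f r = a * f r + c →
      TT ℓ (fun s => f s + κ) r = a * (f r + κ) := by
  have hne : a - ((ℓ : ZMod p) + 1) ≠ 0 := sub_ne_zero.mpr ha
  refine ⟨c / (a - ((ℓ : ZMod p) + 1)), fun f r h => ?_⟩
  rw [TT_add_const, h]
  field_simp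
  ring

end TTlin

/-! ### `ℤ`-periodic functions and `TT` of `F(q ·)` -/

section Comp

variable {N : ℕ} {A : Type*} [AddCommGroup A]

/-- A period function of a cuspidal hom is `ℤ`-periodic on `X`. -/
lemma periodFn_add_int {p : ℕ} (x : Additive (Gamma0 N) →+ ZMod p)
    (hx : IsCuspidalHom (Gamma0 N) x) (F : ℚ → ZMod p) (hF : IsPeriodFn x F) {r : ℚ}
    (hr : InX N r) (n : ℤ) : F (r + (n : ℚ)) = F r := by
  have h := hF (uMat N n) r hr
  rw [mob_uMat, hx (uMat N n) (trace_uMat N n), add_zero] at h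
  exact h

/-- `TT ℓ (F (q ·)) r = TT ℓ F (q r)` for a `ℤ`-periodic `F`. -/
lemma TT_comp_mul {ℓ q : ℕ} (hℓ : ℓ.Prime) (hℓN : ℓ.Coprime N) (hqℓ : q.Coprime ℓ) (F : ℚ → A)
    (hF : ∀ r, InX N r → ∀ n : ℤ, F (r + (n : ℚ)) = F r) {r : ℚ} (hr : InX N r) :
    TT ℓ (fun s => F ((q : ℚ) * s)) r = TT ℓ F ((q : ℚ) * r) := by
  have : NeZero ℓ := ⟨hℓ.ne_zero⟩
  have hℓ0 : (ℓ : ℚ) ≠ 0 := by exact_mod_cast hℓ.ne_zero
  have hqr : InX N ((q : ℚ) * r) := inX_nat_mul hr q
  let G : ℤ → A := fun n => F (((q : ℚ) * r + (n : ℚ)) / (ℓ : ℚ))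
  have hG : ∀ n : ℤ, G (n + ℓ) = G n := by
    intro n
    have h1 : InX N (((q : ℚ) * r + (n : ℚ)) / (ℓ : ℚ)) := inX_div_nat hℓN (inX_add_int hqr n)
    have h2 := hF _ h1 1
    have e : ((q : ℚ) * r + ((n + (ℓ : ℤ) : ℤ) : ℚ)) / (ℓ : ℚ)
        = ((q : ℚ) * r + (n : ℚ)) / (ℓ : ℚ) + ((1 : ℤ) : ℚ) := by
      push_cast
      field_simp
      ring
    show F (((q : ℚ) * r + ((n + (ℓ : ℤ) : ℤ) : ℚ)) / (ℓ : ℚ)) = _
    rw [e]
    exact h2
  have hre := sum_range_reindex ℓ G hG (q : ℤ) 0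
    (Nat.isCoprime_iff_coprime.mpr hqℓ)
  unfold TT
  have e1 : ∀ j : ℕ, F ((q : ℚ) * ((r + (j : ℚ)) / (ℓ : ℚ))) = G ((q : ℤ) * (j : ℤ) + 0) := by
    intro j
    show _ = F _
    congr 1
    push_cast
    field_simp
    ring
  have e2 : ∀ j : ℕ, F (((q : ℚ) * r + (j : ℚ)) / (ℓ : ℚ)) = G (j : ℤ) := by
    intro j
    show _ = F _
    congr 1
  rw [Finset.sum_congr rfl (fun j _ => e1 j), hre, ← Finset.sum_congr rfl (fun j _ => e2 j)]
  congr 1
  show F ((q : ℚ) * ((ℓ : ℚ) * r)) = F ((ℓ : ℚ) * ((q : ℚ) * r))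
  rw [mul_left_comm]

end Comp

/-! ### Invariance of `D = F₁ + F₂ (q ·)` under `Gamma0 (N q)` -/

section Inv

variable {p N q : ℕ}

lemma mob_Dq (q : ℕ) (r : ℚ) : mob (Dq q) r = (q : ℚ) * r := by
  simp [mob, Dq]

/-- `q · (h r) = conj(h) (q r)`. -/
lemma mul_mob_eq (hN : 2 ≤ N) (h : Gamma0 (N * q)) {r : ℚ} (hr : InX N r) :
    (q : ℚ) * mob (mat h) r = mob (mat (conjG N q h)) ((q : ℚ) * r) := by
  have e : mat (conjG N q h) = conjMat q (mat h) := rfl
  have h1 : (mat h 1 0 : ℚ) * r + (mat h 1 1 : ℚ) ≠ 0 := denom_ne_zero hN (inclG N q h) hr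
  have h2 : ((Dq q) 1 0 : ℚ) * r + ((Dq q) 1 1 : ℚ) ≠ 0 := by simp [Dq]
  rw [← mob_Dq q (mob (mat h) r), ← mob_Dq q r, e, ← mob_mul _ _ _ h1, ← mob_mul _ _ _ h2,
    conjMat_Dq (q_dvd_of_mem_gamma0_mul h.2)]

lemma D_inv (hN : 2 ≤ N) (x₁ x₂ : Additive (Gamma0 N) →+ ZMod p) (F₁ F₂ : ℚ → ZMod p)
    (hF₁ : IsPeriodFn x₁ F₁) (hF₂ : IsPeriodFn x₂ F₂)
    (hrel : res1 N q (ZMod p) x₁ + res2 N q (ZMod p) x₂ = 0)
    (h : Gamma0 (N * q)) {r : ℚ} (hr : InX N r) :
    F₁ (mob (mat h) r) + F₂ ((q : ℚ) * mob (mat h) r) = F₁ r + F₂ ((q : ℚ) * r) := by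
  have e1 : F₁ (mob (mat h) r) = F₁ r + x₁ (Additive.ofMul (inclG N q h)) :=
    hF₁ (inclG N q h) r hr
  have e2 : F₂ ((q : ℚ) * mob (mat h) r) = F₂ ((q : ℚ) * r) + x₂ (Additive.ofMul (conjG N q h)) := by
    rw [mul_mob_eq hN h hr]
    exact hF₂ (conjG N q h) _ (inX_nat_mul hr q)
  have e3 : x₁ (Additive.ofMul (inclG N q h)) + x₂ (Additive.ofMul (conjG N q h)) = 0 :=
    congrArg (fun φ => φ (Additive.ofMul h)) hrel
  rw [e1, e2]
  linear_combination e3

end Inv

/-! ### The two orbits of `Gamma0 (N q)` on `X_N` -/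

section Orbit

variable {N q : ℕ}

lemma exists_mob_inv (hq : q.Prime) (hqN : ¬ q ∣ N) {r : ℚ} (hr : InX N r) (hqr : q ∣ r.den) :
    ∃ h : Gamma0 (N * q), mob (mat h) ((q : ℚ)⁻¹) = r := by
  obtain ⟨d₁, hd₁⟩ := hqr
  have hd₁' : (r.den : ℤ) = (q : ℤ) * (d₁ : ℤ) := by exact_mod_cast hd₁
  have hbd : IsCoprime r.num (r.den : ℤ) :=
    Int.isCoprime_iff_gcd_eq_one.mpr (by exact_mod_cast r.reduced)
  obtain ⟨b', d'', hb⟩ := hbd
  have hqN' : IsCoprime (q : ℤ) (N : ℤ) :=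
    Nat.isCoprime_iff_coprime.mpr ((Nat.Prime.coprime_iff_not_dvd hq).mpr hqN)
  have hdqN : IsCoprime ((r.den : ℤ) * (q : ℤ)) (N : ℤ) := hr.isCoprime.mul_left hqN'
  obtain ⟨w, w', hw⟩ := hdqN
  have hq0 : (q : ℚ) ≠ 0 := by exact_mod_cast hq.ne_zero
  have hd0 : (r.den : ℚ) ≠ 0 := by exact_mod_cast r.den_nz
  refine ⟨mkG0 (N * q)
    (r.num - (-d'' + r.num * (w * (r.den - b' * q))) * q)
    (-d'' + r.num * (w * (r.den - b' * q)))
    (r.den - (b' + r.den * (w * (r.den - b' * q))) * q)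
    (b' + r.den * (w * (r.den - b' * q)))
    (by linear_combination hb) ⟨(d₁ - b') * w', ?_⟩, ?_⟩
  · push_cast
    linear_combination (-((r.den : ℤ) - b' * q)) * hw + (w' * N) * hd₁'
  · rw [mat_mkG0]
    simp only [mob, Matrix.of_apply, Matrix.cons_val', Matrix.cons_val_zero, Matrix.cons_val_one,
      Matrix.empty_val', Matrix.cons_val_fin_one]
    push_cast
    have e1 : ((r.num : ℚ) - (-(d'' : ℚ) + r.num * (w * (r.den - b' * q))) * q) * (q : ℚ)⁻¹
        + (-(d'' : ℚ) + r.num * (w * (r.den - b' * q))) = (r.num : ℚ) * (q : ℚ)⁻¹ := by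
      field_simp
      ring
    have e2 : ((r.den : ℚ) - ((b' : ℚ) + r.den * (w * (r.den - b' * q))) * q) * (q : ℚ)⁻¹
        + ((b' : ℚ) + r.den * (w * (r.den - b' * q))) = (r.den : ℚ) * (q : ℚ)⁻¹ := by
      field_simp
      ring
    rw [e1, e2, mul_div_mul_right _ _ (inv_ne_zero hq0)]
    exact Rat.num_div_den r

/-- A `Gamma0 (N q)`-invariant function on `X_N` is constant on `{q ∤ den}` and on `{q ∣ den}`. -/
lemma orbit_const {A : Type*} (hq : q.Prime) (hqN : ¬ q ∣ N) (E : ℚ → A)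
    (hE : ∀ (h : Gamma0 (N * q)) (r : ℚ), InX N r → E (mob (mat h) r) = E r) {r : ℚ}
    (hr : InX N r) : E r = if q ∣ r.den then E ((q : ℚ)⁻¹) else E 0 := by
  have hqN' : q.Coprime N := (Nat.Prime.coprime_iff_not_dvd hq).mpr hqN
  split_ifs with hqr
  · obtain ⟨h, hh⟩ := exists_mob_inv hq hqN hr hqr
    rw [← hh]
    exact hE h _ (inX_inv_nat hqN')
  · have hr' : InX (N * q) r := (inX_mul_iff q r).mpr ⟨hr, (inX_prime_iff hq r).mpr hqr⟩
    obtain ⟨h, hh⟩ := exists_mob_zero hr'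
    rw [← hh]
    exact hE h _ (inX_zero N)

lemma dvd_den_mob_aMat_iff (hq : q.Prime) {ℓ : ℕ} (hℓ : ℓ.Prime) (hℓq : ℓ ≠ q)
    (j : Option (Fin ℓ)) (r : ℚ) : q ∣ (mob (aMat ℓ j) r).den ↔ q ∣ r.den := by
  have hcop : ℓ.Coprime q := (Nat.coprime_primes hℓ hq).mpr hℓq
  rw [← not_iff_not, ← inX_prime_iff hq, ← inX_prime_iff hq]
  constructor
  · intro hs
    rcases j with _ | j
    · rw [mob_aMat_none] at hs
      have := inX_div_nat hcop hs
      rwa [mul_div_cancel_left₀ _ (by exact_mod_cast hℓ.ne_zero : (ℓ : ℚ) ≠ 0)] at this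
    · rw [mob_aMat_some] at hs
      have := inX_add_int (inX_nat_mul hs ℓ) (-((j : ℕ) : ℤ))
      have e : (ℓ : ℚ) * ((r + ((j : ℕ) : ℚ)) / (ℓ : ℚ)) + ((-((j : ℕ) : ℤ) : ℤ) : ℚ) = r := by
        have hℓ0 : (ℓ : ℚ) ≠ 0 := by exact_mod_cast hℓ.ne_zero
        push_cast
        field_simp
        ring
      rwa [e] at this
  · intro hr
    exact inX_mob_aMat hcop j hr

/-- On a `Gamma0 (N q)`-invariant function, `TT ℓ` acts by `ℓ + 1`. -/
lemma TT_of_inv {A : Type*} [AddCommGroup A] (hq : q.Prime) (hqN : ¬ q ∣ N) (E : ℚ → A)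
    (hE : ∀ (h : Gamma0 (N * q)) (r : ℚ), InX N r → E (mob (mat h) r) = E r)
    {ℓ : ℕ} (hℓ : ℓ.Prime) (hℓN : ¬ ℓ ∣ N) (hℓq : ℓ ≠ q) {r : ℚ} (hr : InX N r) :
    TT ℓ E r = (ℓ + 1) • E r := by
  have hcop : ℓ.Coprime N := (Nat.Prime.coprime_iff_not_dvd hℓ).mpr hℓN
  rw [TT_eq_sum_aMat]
  have hterm : ∀ j : Option (Fin ℓ), E (mob (aMat ℓ j) r) = E r := by
    intro j
    rw [orbit_const hq hqN E hE (inX_mob_aMat hcop j hr), orbit_const hq hqN E hE hr]
    simp only [dvd_den_mob_aMat_iff hq hℓ hℓq j r]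
  rw [Finset.sum_congr rfl (fun j _ => hterm j), Finset.sum_const, Finset.card_univ,
    Fintype.card_option, Fintype.card_fin]

end Orbit

/-! ### Step 2 -/

section Step2

variable {p N q : ℕ}

/-- **Step 2.**  For period functions `F₁, F₂` of cuspidal `x₁, x₂` with `res1 x₁ + res2 x₂ = 0`
which are exact eigenfunctions of one `TT ℓ₀` with eigenvalue `a₀ ≠ ℓ₀ + 1`:
`F₁(r) + F₂(q r) = 0` on `X`. -/
theorem step2 (hp : p.Prime) (hN : 2 ≤ N) (hq : q.Prime) (hqN : ¬ q ∣ N)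
    {ℓ₀ : ℕ} (hℓ₀ : ℓ₀.Prime) (hℓ₀N : ¬ ℓ₀ ∣ N) (hℓ₀q : ℓ₀ ≠ q) (a₀ : ZMod p)
    (ha₀ : a₀ ≠ (ℓ₀ : ZMod p) + 1)
    (x₁ x₂ : Additive (Gamma0 N) →+ ZMod p)
    (hx₂ : IsCuspidalHom (Gamma0 N) x₂) (F₁ F₂ : ℚ → ZMod p)
    (hF₁ : IsPeriodFn x₁ F₁) (hF₂ : IsPeriodFn x₂ F₂)
    (hE₁ : ∀ r, InX N r → TT ℓ₀ F₁ r = a₀ * F₁ r)
    (hE₂ : ∀ r, InX N r → TT ℓ₀ F₂ r = a₀ * F₂ r)
    (hrel : res1 N q (ZMod p) x₁ + res2 N q (ZMod p) x₂ = 0) {r : ℚ} (hr : InX N r) :
    F₁ r + F₂ ((q : ℚ) * r) = 0 := by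
  have : Fact p.Prime := ⟨hp⟩
  have hcopN : ℓ₀.Coprime N := (Nat.Prime.coprime_iff_not_dvd hℓ₀).mpr hℓ₀N
  have hcopq : q.Coprime ℓ₀ := (Nat.coprime_primes hq hℓ₀).mpr (Ne.symm hℓ₀q)
  have hinv : ∀ (h : Gamma0 (N * q)) (r : ℚ), InX N r →
      (fun s => F₁ s + F₂ ((q : ℚ) * s)) (mob (mat h) r) = (fun s => F₁ s + F₂ ((q : ℚ) * s)) r :=
    fun h r hr => D_inv hN x₁ x₂ F₁ F₂ hF₁ hF₂ hrel h hr
  have h1 := TT_of_inv hq hqN (fun s => F₁ s + F₂ ((q : ℚ) * s)) hinv hℓ₀ hℓ₀N hℓ₀q hr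
  have h2 : TT ℓ₀ (fun s => F₁ s + F₂ ((q : ℚ) * s)) r = a₀ * (F₁ r + F₂ ((q : ℚ) * r)) := by
    rw [TT_add ℓ₀ F₁ (fun s => F₂ ((q : ℚ) * s)) r, hE₁ r hr,
      TT_comp_mul hℓ₀ hcopN hcopq F₂ (fun r hr n => periodFn_add_int x₂ hx₂ F₂ hF₂ hr n) hr,
      hE₂ _ (inX_nat_mul hr q), mul_add]
  rw [h2, nsmul_eq_mul] at h1
  have h3 : (a₀ - ((ℓ₀ : ZMod p) + 1)) * (F₁ r + F₂ ((q : ℚ) * r)) = 0 := by
    push_cast at h1
    linear_combination h1
  exact (mul_eq_zero.mp h3).resolve_left (sub_ne_zero.mpr ha₀)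

/-- **Leaf A, single-prime form.**  Constants `κ₁, κ₂` such that `F_i = Pfn x_i + κ_i` are period
functions, exact eigenfunctions of `TT ℓ₀`, and `F₁(r) + F₂(q r) = 0` on `X`. -/
theorem exists_period_fns (hp : p.Prime) (hN : 2 ≤ N) (hq : q.Prime) (hqN : ¬ q ∣ N)
    (hqp : q ≠ p) {ℓ₀ : ℕ} (hℓ₀ : ℓ₀.Prime) (hℓ₀N : ¬ ℓ₀ ∣ N) (hℓ₀q : ℓ₀ ≠ q) (a₀ : ZMod p)
    (ha₀ : a₀ ≠ (ℓ₀ : ZMod p) + 1)
    (x₁ x₂ : Additive (Gamma0 N) →+ ZMod p)
    (hx₁ : IsCuspidalHom (Gamma0 N) x₁) (hx₂ : IsCuspidalHom (Gamma0 N) x₂)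
    (h1 : Tcoh N (ZMod p) ℓ₀ x₁ = a₀ • x₁)
    (hrel : res1 N q (ZMod p) x₁ + res2 N q (ZMod p) x₂ = 0) :
    ∃ κ₁ κ₂ : ZMod p,
      IsPeriodFn x₁ (fun s => Pfn x₁ s + κ₁) ∧ IsPeriodFn x₂ (fun s => Pfn x₂ s + κ₂) ∧
      (∀ r, InX N r → TT ℓ₀ (fun s => Pfn x₁ s + κ₁) r = a₀ * (Pfn x₁ r + κ₁)) ∧
      (∀ r, InX N r → TT ℓ₀ (fun s => Pfn x₂ s + κ₂) r = a₀ * (Pfn x₂ r + κ₂)) ∧
      ∀ r, InX N r → (Pfn x₁ r + κ₁) + (Pfn x₂ ((q : ℚ) * r) + κ₂) = 0 := by
  have : Fact p.Prime := ⟨hp⟩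
  have hN0 : 0 < N := by omega
  have h2 : Tcoh N (ZMod p) ℓ₀ x₂ = a₀ • x₂ :=
    eigen_x2 hN0 hq hp hqp hℓ₀ hℓ₀N hℓ₀q x₁ x₂ a₀ h1 hrel
  obtain ⟨κ₁, hκ₁⟩ := exists_const_eig (p := p) ℓ₀ a₀ (TT ℓ₀ (Pfn x₁) 0) ha₀
  obtain ⟨κ₂, hκ₂⟩ := exists_const_eig (p := p) ℓ₀ a₀ (TT ℓ₀ (Pfn x₂) 0) ha₀
  have hP₁ : IsPeriodFn x₁ (fun s => Pfn x₁ s + κ₁) := by
    intro g r hr
    show Pfn x₁ (mob (mat g) r) + κ₁ = Pfn x₁ r + κ₁ + x₁ (Additive.ofMul g)
    rw [Pfn_mob hN x₁ hx₁ g hr]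
    ring
  have hP₂ : IsPeriodFn x₂ (fun s => Pfn x₂ s + κ₂) := by
    intro g r hr
    show Pfn x₂ (mob (mat g) r) + κ₂ = Pfn x₂ r + κ₂ + x₂ (Additive.ofMul g)
    rw [Pfn_mob hN x₂ hx₂ g hr]
    ring
  have hE₁ : ∀ r, InX N r → TT ℓ₀ (fun s => Pfn x₁ s + κ₁) r = a₀ * (Pfn x₁ r + κ₁) := by
    intro r hr
    apply hκ₁
    have := TT_Pfn hN hℓ₀ hℓ₀N x₁ hx₁ a₀ h1 hr
    rw [this, smul_eq_mul]
  have hE₂ : ∀ r, InX N r → TT ℓ₀ (fun s => Pfn x₂ s + κ₂) r = a₀ * (Pfn x₂ r + κ₂) := by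
    intro r hr
    apply hκ₂
    have := TT_Pfn hN hℓ₀ hℓ₀N x₂ hx₂ a₀ h2 hr
    rw [this, smul_eq_mul]
  refine ⟨κ₁, κ₂, hP₁, hP₂, hE₁, hE₂, fun r hr => ?_⟩
  exact step2 hp hN hq hqN hℓ₀ hℓ₀N hℓ₀q a₀ ha₀ x₁ x₂ hx₂ _ _ hP₁ hP₂ hE₁ hE₂ hrel hr

end Step2

end Fermat.Agent.S41.Ihara

end
-- ==== END Fermat.Agent.S41.H19_IharaStep2

-- ==== BEGIN Fermat.Agent.S41.H77_CocPot
section

/-!
# S41, package P: non-abelian potentials from `PSL(2,ℤ) = C₂ * C₃` (helper77)

`exists_cocyclePot`: let `(G, S, T)` be modular-like with the universal property `PSLProp`,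
`j : H →* G` with `S² ∈ range j`, `X = G ⧸ range j`, `Λ` a group and `A_S, A_τ : X → Λ` with
`A_S (S • x) * A_S x = 1`, `A_τ (τ • τ • x) * A_τ (τ • x) * A_τ x = 1` (`τ = T S⁻¹`).
Then there is `Ψ : G → Λ` with `Ψ 1 = 1`, `Ψ (S g) = A_S [g] * Ψ g`, `Ψ (τ g) = A_τ [g] * Ψ g` and
`Ψ (x * j h) = Ψ x * Ψ (j h)`.
-/

set_option autoImplicit false

namespace Fermat.Agent.S41.H77

open Fermat.Agent.S41.H94

section Shear

variable {X : Type} {Λ : Type} [Group Λ]

/-- the shear `(x, v) ↦ (σ x, A x * v)` -/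
def shear (σ : Equiv.Perm X) (A : X → Λ) : Equiv.Perm (X × Λ) where
  toFun p := (σ p.1, A p.1 * p.2)
  invFun p := (σ.symm p.1, (A (σ.symm p.1))⁻¹ * p.2)
  left_inv p := by simp
  right_inv p := by simp

@[simp] theorem shear_apply (σ : Equiv.Perm X) (A : X → Λ) (p : X × Λ) :
    shear σ A p = (σ p.1, A p.1 * p.2) := rfl

end Shear

variable {G : Type} [Group G] {H : Type} [Group H]

/-- **Non-abelian potentials.** -/
theorem exists_cocyclePot (S T : G) (j : H →* G) (hP : PSLProp S T) (hM : ModularLike S T)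
    (hz : S ^ 2 ∈ j.range) (Λ : Type) [Group Λ] (AS Aτ : G ⧸ j.range → Λ)
    (hS : ∀ x, AS (S • x) * AS x = 1)
    (hτ : ∀ x, Aτ ((T * S⁻¹) • (T * S⁻¹) • x) * Aτ ((T * S⁻¹) • x) * Aτ x = 1) :
    ∃ Ψ : G → Λ, Ψ 1 = 1 ∧ (∀ g : G, Ψ (S * g) = AS (g : G ⧸ j.range) * Ψ g) ∧
      (∀ g : G, Ψ (T * S⁻¹ * g) = Aτ (g : G ⧸ j.range) * Ψ g) ∧
      (∀ (x : G) (h : H), Ψ (x * j h) = Ψ x * Ψ (j h)) := by
  classical
  set s' : Equiv.Perm ((G ⧸ j.range) × Λ) := shear (MulAction.toPerm S) AS with hs'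
  set t' : Equiv.Perm ((G ⧸ j.range) × Λ) := shear (MulAction.toPerm (T * S⁻¹)) Aτ with ht'
  have hs2 : s' ^ 2 = 1 := by
    ext p : 1
    rw [pow_two, Equiv.Perm.mul_apply, hs', shear_apply, shear_apply]
    simp only [MulAction.toPerm_apply, Equiv.Perm.one_apply]
    rw [smul_smul_S hM hz, ← mul_assoc, hS, one_mul]
  have ht3 : t' ^ 3 = 1 := by
    ext p : 1
    rw [pow_succ, pow_two, Equiv.Perm.mul_apply, Equiv.Perm.mul_apply, ht', shear_apply,
      shear_apply, shear_apply]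
    simp only [MulAction.toPerm_apply, Equiv.Perm.one_apply]
    rw [smul_smul_smul_tau hM, ← mul_assoc, ← mul_assoc, hτ, one_mul]
  obtain ⟨θ, hθS, hθτ⟩ := hP (Equiv.Perm ((G ⧸ j.range) × Λ)) s' t' hs2 ht3
  -- the shape of `θ g`
  have hshape : ∀ g : G, ∃ C : G ⧸ j.range → Λ, ∀ (x : G ⧸ j.range) (v : Λ),
      θ g (x, v) = (g • x, C x * v) := by
    intro g
    have hg : g ∈ Subgroup.closure ({S, T} : Set G) := by rw [hM.gen]; trivial
    have hτshape : ∃ C : G ⧸ j.range → Λ, ∀ (x : G ⧸ j.range) (v : Λ),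
        θ (T * S⁻¹) (x, v) = ((T * S⁻¹) • x, C x * v) :=
      ⟨Aτ, fun x v => by rw [hθτ, ht', shear_apply]; rfl⟩
    have hSshape : ∃ C : G ⧸ j.range → Λ, ∀ (x : G ⧸ j.range) (v : Λ),
        θ S (x, v) = (S • x, C x * v) :=
      ⟨AS, fun x v => by rw [hθS, hs', shear_apply]; rfl⟩
    have hmul : ∀ a b : G,
        (∃ C : G ⧸ j.range → Λ, ∀ (x : G ⧸ j.range) (v : Λ), θ a (x, v) = (a • x, C x * v)) →
        (∃ C : G ⧸ j.range → Λ, ∀ (x : G ⧸ j.range) (v : Λ), θ b (x, v) = (b • x, C x * v)) →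
        ∃ C : G ⧸ j.range → Λ, ∀ (x : G ⧸ j.range) (v : Λ),
          θ (a * b) (x, v) = ((a * b) • x, C x * v) := by
      rintro a b ⟨Ca, ha⟩ ⟨Cb, hb⟩
      refine ⟨fun x => Ca (b • x) * Cb x, fun x v => ?_⟩
      rw [map_mul, Equiv.Perm.mul_apply, hb, ha, mul_smul, mul_assoc]
    induction hg using Subgroup.closure_induction with
    | mem y hy =>
      rcases hy with rfl | hy
      · exact hSshape
      · rw [Set.mem_singleton_iff] at hy
        subst hy
        have := hmul (y * S⁻¹) S hτshape hSshape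
        rwa [inv_mul_cancel_right] at this
    | one => exact ⟨fun _ => 1, fun x v => by simp⟩
    | mul a b _ _ iha ihb => exact hmul a b iha ihb
    | inv a _ iha =>
      obtain ⟨Ca, ha⟩ := iha
      refine ⟨fun x => (Ca (a⁻¹ • x))⁻¹, fun x v => ?_⟩
      have h := ha (a⁻¹ • x) ((Ca (a⁻¹ • x))⁻¹ * v)
      rw [smul_inv_smul, mul_inv_cancel_left] at h
      show θ a⁻¹ (x, v) = (a⁻¹ • x, (Ca (a⁻¹ • x))⁻¹ * v)
      rw [← h, ← Equiv.Perm.mul_apply, ← map_mul, inv_mul_cancel, map_one, Equiv.Perm.one_apply]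
  choose C hC using hshape
  have ho : ∀ h : H, (j h) • ((1 : G) : G ⧸ j.range) = ((1 : G) : G ⧸ j.range) := by
    intro h
    rw [MulAction.Quotient.smul_mk, smul_eq_mul, mul_one, QuotientGroup.eq]
    simp
  have hsm : ∀ g : G, g • ((1 : G) : G ⧸ j.range) = (g : G ⧸ j.range) := by
    intro g
    rw [MulAction.Quotient.smul_mk, smul_eq_mul, mul_one]
  have key : ∀ a g : G, C (a * g) ((1 : G) : G ⧸ j.range)
      = C a (g : G ⧸ j.range) * C g ((1 : G) : G ⧸ j.range) := by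
    intro a g
    have h1 := hC (a * g) ((1 : G) : G ⧸ j.range) 1
    rw [map_mul, Equiv.Perm.mul_apply, hC g, hC a, hsm] at h1
    have h2 := congrArg Prod.snd h1
    simp only [mul_one] at h2
    exact h2.symm
  refine ⟨fun g => C g ((1 : G) : G ⧸ j.range), ?_, ?_, ?_, ?_⟩
  · have h1 := hC 1 ((1 : G) : G ⧸ j.range) 1
    rw [map_one, Equiv.Perm.one_apply] at h1
    have h2 := congrArg Prod.snd h1
    simp only [mul_one] at h2
    exact h2.symm
  · intro g
    show C (S * g) _ = _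
    rw [key]
    congr 1
    have h1 := hC S (g : G ⧸ j.range) 1
    rw [hθS, hs', shear_apply] at h1
    have h2 := congrArg Prod.snd h1
    simp only [mul_one] at h2
    exact h2.symm
  · intro g
    show C (T * S⁻¹ * g) _ = _
    rw [key]
    congr 1
    have h1 := hC (T * S⁻¹) (g : G ⧸ j.range) 1
    rw [hθτ, ht', shear_apply] at h1
    have h2 := congrArg Prod.snd h1
    simp only [mul_one] at h2
    exact h2.symm
  · intro x h
    show C (x * j h) _ = C x _ * C (j h) _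
    rw [key]
    congr 2
    have := ho h
    rw [hsm] at this
    exact this

end Fermat.Agent.S41.H77

end
-- ==== END Fermat.Agent.S41.H77_CocPot

-- ==== BEGIN Fermat.Agent.S41.H78_Adj1
section

/-!
# S41, package P (Poincare duality), leaf ADJ1 (helper78)

`pairing_{j ∘ ι}(φ ∘ ι, ψ) = pairing_j(φ, cor_ι ψ)`.

* `resTriple` : the potentials of `φ` are potentials of `φ ∘ ι`.
* `corTriple` : the fibre sums `x ↦ ∑_{r ∈ H ⧸ ι(H')} Ψ (x * j r)` of the potentials of `ψ` are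
  potentials of `cor_ι ψ`.
* `pairingOf_res_cor` : the adjunction for these triples.
* `stmt_ADJ1 : Stmt_ADJ1`.
-/

set_option autoImplicit false

namespace Fermat.Agent.S41.H78

open Fermat.Agent.S41 Fermat.Agent.S41.H94 Fermat.Agent.S41.H19

section Adj1

variable {G : Type*} [Group G] {H H' : Type*} [Group H] [Group H'] {k : Type*} [Field k]

/-- The fibre sum of a function on `G` along `H ⧸ ι(H')`. -/
noncomputable def fibSum (j : H →* G) (ι : H' →* H) [Fintype (H ⧸ ι.range)] (Ψ : G → k) :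
    G → k :=
  fun x => ∑ q : H ⧸ ι.range, Ψ (x * j q.out)

theorem fibSum_isPot (j : H →* G) (ι : H' →* H) (hι : Function.Injective ι)
    [Fintype (H ⧸ ι.range)] {ψ : Additive H' →+ k} {Ψ : G → k} (hΨ : IsPot (j.comp ι) ψ Ψ) :
    IsPot j (corAlong k ι ψ) (fibSum j ι Ψ) := by
  intro x h
  obtain ⟨σ, h', hh⟩ := (isReps_out ι).exists_sol h
  have hσ : Function.Bijective σ := (isReps_out ι).sol_bijective hh
  rw [corAlong_eq_sum ι hι _ (isReps_out ι) ψ h σ h' hh]
  unfold fibSum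
  have e1 : ∀ q : H ⧸ ι.range,
      Ψ (x * j h * j q.out) = Ψ (x * j (σ q).out) + ψ (Additive.ofMul (h' q)) := by
    intro q
    have := hΨ (x * j (σ q).out) (h' q)
    rw [← this, MonoidHom.comp_apply, mul_assoc, ← map_mul, mul_assoc, ← map_mul, hh q]
  rw [Finset.sum_congr rfl (fun q _ => e1 q), Finset.sum_add_distrib]
  congr 1
  exact Fintype.sum_bijective σ hσ _ _ (fun q => rfl)

theorem fibSum_leftInv (j : H →* G) (ι : H' →* H) [Fintype (H ⧸ ι.range)] {Ψ : G → k} {g : G}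
    (hg : ∀ x, Ψ (g * x) = Ψ x) (x : G) : fibSum j ι Ψ (g * x) = fibSum j ι Ψ x := by
  unfold fibSum
  refine Finset.sum_congr rfl fun q _ => ?_
  rw [mul_assoc, hg]

variable {S T : G}

/-- The potentials of `φ` are potentials of `φ ∘ ι`. -/
def resTriple (j : H →* G) (ι : H' →* H) {φ : Additive H →+ k} (P : PotTriple j S T φ) :
    PotTriple (j.comp ι) S T (resAlong k ι φ) where
  ΦT := P.ΦT
  ΦS := P.ΦS
  Φτ := P.Φτ
  potT x h := P.potT x (ι h)
  potS x h := P.potS x (ι h)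
  potτ x h := P.potτ x (ι h)
  invT := P.invT
  invS := P.invS
  invτ := P.invτ

/-- The fibre sums of the potentials of `ψ` are potentials of `cor_ι ψ`. -/
noncomputable def corTriple (j : H →* G) (ι : H' →* H) (hι : Function.Injective ι)
    [Fintype (H ⧸ ι.range)] {ψ : Additive H' →+ k} (Q : PotTriple (j.comp ι) S T ψ) :
    PotTriple j S T (corAlong k ι ψ) where
  ΦT := fibSum j ι Q.ΦT
  ΦS := fibSum j ι Q.ΦS
  Φτ := fibSum j ι Q.Φτ
  potT := fibSum_isPot j ι hι Q.potT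
  potS := fibSum_isPot j ι hι Q.potS
  potτ := fibSum_isPot j ι hι Q.potτ
  invT := fibSum_leftInv j ι Q.invT
  invS := fibSum_leftInv j ι Q.invS
  invτ := fibSum_leftInv j ι Q.invτ

theorem resTriple_a_mk (j : H →* G) (ι : H' →* H) {φ : Additive H →+ k} (P : PotTriple j S T φ)
    (g : G) : (resTriple j ι P).a (g : G ⧸ (j.comp ι).range) = P.a (g : G ⧸ j.range) := by
  rw [PotTriple.a_mk, PotTriple.a_mk]
  rfl

theorem corTriple_a (j : H →* G) (ι : H' →* H) (hι : Function.Injective ι)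
    [Fintype (H ⧸ ι.range)] {ψ : Additive H' →+ k} (Q : PotTriple (j.comp ι) S T ψ)
    (x : G ⧸ j.range) :
    (corTriple j ι hι Q).a x =
      ∑ q : H ⧸ ι.range, Q.a ((x.out * j q.out : G) : G ⧸ (j.comp ι).range) := by
  conv_lhs => rw [← QuotientGroup.out_eq' x]
  rw [PotTriple.a_mk]
  simp only [corTriple, fibSum]
  rw [← Finset.sum_sub_distrib]
  refine Finset.sum_congr rfl fun q _ => ?_
  rw [PotTriple.a_mk]

/-- The cosets of `(j ∘ ι)(H')` are parametrised by pairs (coset of `j(H)`, coset of `ι(H')`). -/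
theorem fib_bijective (j : H →* G) (hj : Function.Injective j) (ι : H' →* H) :
    Function.Bijective (fun p : (G ⧸ j.range) × (H ⧸ ι.range) =>
      ((p.1.out * j p.2.out : G) : G ⧸ (j.comp ι).range)) := by
  constructor
  · rintro ⟨x, q⟩ ⟨y, r⟩ h
    simp only at h
    obtain ⟨h', hh'⟩ := QuotientGroup.eq.mp h
    rw [MonoidHom.comp_apply] at hh'
    have hxy : x = y := by
      rw [← QuotientGroup.out_eq' x, ← QuotientGroup.out_eq' y]
      apply QuotientGroup.eq.mpr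
      refine ⟨q.out * ι h' * r.out⁻¹, ?_⟩
      rw [map_mul, map_mul, hh', map_inv]
      group
    subst hxy
    have hqr : q = r := by
      rw [← QuotientGroup.out_eq' q, ← QuotientGroup.out_eq' r]
      apply QuotientGroup.eq.mpr
      refine ⟨h', ?_⟩
      apply hj
      rw [hh', map_mul, map_inv]
      group
    rw [hqr]
  · intro x'
    induction x' using QuotientGroup.induction_on with
    | H g =>
      obtain ⟨n, hn⟩ := QuotientGroup.mk_out_eq_mul j.range g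
      obtain ⟨h, hh⟩ := n.2
      obtain ⟨m, hm⟩ := QuotientGroup.mk_out_eq_mul ι.range h⁻¹
      obtain ⟨h', hh'⟩ := m.2
      refine ⟨((g : G ⧸ j.range), ((h⁻¹ : H) : H ⧸ ι.range)), ?_⟩
      simp only
      rw [hn, hm, ← hh, ← hh', map_mul, map_inv]
      apply QuotientGroup.eq.mpr
      refine ⟨h'⁻¹, ?_⟩
      rw [MonoidHom.comp_apply, map_inv, map_inv]
      group

end Adj1

section Q

variable {X : Type*} [Fintype X] {k : Type*} [Field k]

theorem Qform_eq_sum (t : Equiv.Perm X) (a b : X → k) :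
    Qform t a b = ∑ x, (a (t.symm x) - a (t x)) * b x := by
  unfold Qform
  simp only [sub_mul, Finset.sum_sub_distrib]
  congr 1
  rw [← Equiv.sum_comp t (fun x => a (t.symm x) * b x)]
  refine Finset.sum_congr rfl fun x _ => ?_
  rw [Equiv.symm_apply_apply]

end Q

section Main

variable {G : Type*} [Group G] {H H' : Type*} [Group H] [Group H'] {k : Type*} [Field k]
variable {S T : G}

theorem pairingOf_res_cor (j : H →* G) (hj : Function.Injective j) (ι : H' →* H)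
    (hι : Function.Injective ι) [Fintype (H ⧸ ι.range)] [Fintype (G ⧸ j.range)]
    [Fintype (G ⧸ (j.comp ι).range)] {φ : Additive H →+ k} {ψ : Additive H' →+ k}
    (P : PotTriple j S T φ) (Q : PotTriple (j.comp ι) S T ψ) :
    pairingOf (resTriple j ι P) Q = pairingOf P (corTriple j ι hι Q) := by
  unfold pairingOf
  rw [_root_.Fermat.Agent.S41.H78.Qform_eq_sum, _root_.Fermat.Agent.S41.H78.Qform_eq_sum]
  rw [← Fintype.sum_bijective _ (fib_bijective j hj ι) (fun p =>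
      ((resTriple j ι P).a ((MulAction.toPerm (T * S⁻¹) : Equiv.Perm (G ⧸ (j.comp ι).range)).symm
          ((p.1.out * j p.2.out : G) : G ⧸ (j.comp ι).range))
        - (resTriple j ι P).a ((MulAction.toPerm (T * S⁻¹) : Equiv.Perm (G ⧸ (j.comp ι).range))
          ((p.1.out * j p.2.out : G) : G ⧸ (j.comp ι).range)))
        * Q.a ((p.1.out * j p.2.out : G) : G ⧸ (j.comp ι).range)) _ (fun p => rfl)]
  rw [Fintype.sum_prod_type]
  refine Finset.sum_congr rfl fun x _ => ?_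
  rw [corTriple_a, Finset.mul_sum]
  refine Finset.sum_congr rfl fun q _ => ?_
  congr 1
  have hmk : ∀ g : G, ((g * (x.out * j q.out) : G) : G ⧸ j.range) = g • x := by
    intro g
    conv_rhs => rw [← QuotientGroup.out_eq' x]
    rw [MulAction.Quotient.smul_mk, smul_eq_mul]
    apply QuotientGroup.eq.mpr
    refine ⟨(q.out)⁻¹, ?_⟩
    rw [map_inv]
    group
  rw [MulAction.toPerm_symm_apply, MulAction.toPerm_apply, MulAction.toPerm_symm_apply,
    MulAction.toPerm_apply, MulAction.Quotient.smul_mk, MulAction.Quotient.smul_mk,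
    resTriple_a_mk, resTriple_a_mk]
  simp only [smul_eq_mul]
  rw [hmk, hmk]

theorem stmt_ADJ1 : Stmt_ADJ1 := by
  intro G _ H H' _ _ k _ S T j ι _ _ hj hι hfin _ _ _ φ ψ P Q
  haveI := hfin
  letI : Fintype (H ⧸ ι.range) := Fintype.ofFinite _
  exact ⟨resTriple j ι P, corTriple j ι hι Q, pairingOf_res_cor j hj ι hι P Q⟩

end Main

end Fermat.Agent.S41.H78

end
-- ==== END Fermat.Agent.S41.H78_Adj1

-- ==== BEGIN Fermat.Agent.S41.H94_Inv
section

/-!
# S41, package P: invariance of the pairing under change of the embedding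

Two embeddings `j, j' : H →* SL(2,ℤ)` with the same traces and the same positive parabolic elements
(e.g. `j' = (conjugation by diag(q,1)) ∘ j`) give the same pairing.  From `Stmt_B1`, `Stmt_B2`,
`Stmt_B3`, `Stmt_PSL`, `Stmt_ML`, `Stmt_C3`, `Stmt_PAR`.
-/

set_option autoImplicit false

open scoped MatrixGroups

namespace Fermat.Agent.S41.H94

theorem pslProp_of_stmt (h : Stmt_PSL) : PSLProp ModularGroup.S ModularGroup.T :=
  fun K _ s t hs ht => h K s t hs ht

section CupPrim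

variable {H : Type*} [Group H] {k : Type*} [Field k] {φ ψ : Additive H →+ k} {b : H → k}

theorem IsCupPrim.map_one (hb : IsCupPrim φ ψ b) : b 1 = 0 := by
  have h := hb 1 1
  rw [mul_one, ofMul_one, map_zero, zero_mul, sub_zero] at h
  exact left_eq_add.mp h |>.symm ▸ rfl

/-- A primitive of the cup product is conjugation-invariant on the common kernel. -/
theorem IsCupPrim.conj_invariant (hb : IsCupPrim φ ψ b) (γ h : H)
    (hφ : φ (Additive.ofMul h) = 0) (hψ : ψ (Additive.ofMul h) = 0) :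
    b (γ * h * γ⁻¹) = b h := by
  have h1 := hb (γ * h) γ⁻¹
  have h2 := hb γ h
  have h3 := hb γ γ⁻¹
  rw [mul_inv_cancel, hb.map_one] at h3
  rw [h1, h2]
  simp only [ofMul_mul, ofMul_inv, map_add, map_neg, hφ, hψ] at h3 ⊢
  linear_combination -h3

end CupPrim

section Inv

variable {H : Type} [Group H] {k : Type} [Field k]

/-- The trace of a power of `τ = T S⁻¹` is `2` or `-1`; if it is `2` the power is `1`. -/
theorem tau_zpow_cases (n : ℤ) :
    (ModularGroup.T * ModularGroup.S⁻¹) ^ n = (1 : SL(2, ℤ)) ∨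
      (((ModularGroup.T * ModularGroup.S⁻¹) ^ n : SL(2, ℤ)) : Matrix (Fin 2) (Fin 2) ℤ).trace = -1 := by
  have h3 : (ModularGroup.T * ModularGroup.S⁻¹ : SL(2, ℤ)) ^ (3 : ℤ) = 1 := by
    rw [show ((3 : ℤ)) = ((3 : ℕ) : ℤ) by norm_num, zpow_natCast]; decide
  have hn : n = 3 * (n / 3) + n % 3 := (Int.mul_ediv_add_emod n 3).symm
  have hcases : n % 3 = 0 ∨ n % 3 = 1 ∨ n % 3 = 2 := by omega
  rw [hn, zpow_add, zpow_mul, h3, one_zpow, one_mul]
  rcases hcases with h | h | h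
  · left; rw [h, zpow_zero]
  · right; rw [h, zpow_one]; decide
  · right; rw [h, show ((2 : ℤ)) = ((2 : ℕ) : ℤ) by norm_num, zpow_natCast]; decide

theorem trace_conj' (x g : SL(2, ℤ)) :
    ((x⁻¹ * g * x : SL(2, ℤ)) : Matrix (Fin 2) (Fin 2) ℤ).trace
      = (g : Matrix (Fin 2) (Fin 2) ℤ).trace := by
  have h1 : ((x⁻¹ * g * x : SL(2, ℤ)) : Matrix (Fin 2) (Fin 2) ℤ)
      = (x⁻¹ : SL(2, ℤ)).1 * (g.1 * x.1) := by
    simp [Matrix.SpecialLinearGroup.coe_mul, Matrix.mul_assoc]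
  rw [h1, Matrix.trace_mul_comm, Matrix.mul_assoc]
  have h2 : x.1 * (x⁻¹ : SL(2, ℤ)).1 = 1 := by
    rw [← Matrix.SpecialLinearGroup.coe_mul, mul_inv_cancel]; rfl
  rw [h2, Matrix.mul_one]

/-- **Invariance of the pairing**. -/
theorem pairingOf_inv (hB1 : Stmt_B1) (hB2 : Stmt_B2) (hB3 : Stmt_B3) (hPSL : Stmt_PSL)
    (hML : Stmt_ML) (hC3 : Stmt_C3) (hPAR : Stmt_PAR) (h2 : (2 : k) ≠ 0)
    (j j' : H →* SL(2, ℤ))
    [Fintype (SL(2, ℤ) ⧸ j.range)] [Fintype (SL(2, ℤ) ⧸ j'.range)]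
    (hj : Function.Injective j) (hj' : Function.Injective j')
    (hfi : j.range.FiniteIndex) (hfi' : j'.range.FiniteIndex)
    (hneg : (-1 : SL(2, ℤ)) ∈ j.range) (hneg' : (-1 : SL(2, ℤ)) ∈ j'.range)
    (htr : ∀ h : H, ((j h : SL(2, ℤ)) : Matrix (Fin 2) (Fin 2) ℤ).trace
      = ((j' h : SL(2, ℤ)) : Matrix (Fin 2) (Fin 2) ℤ).trace)
    (hpos : ∀ h : H, IsPosPar (j h) ↔ IsPosPar (j' h))
    {φ ψ : Additive H →+ k}
    (P : PotTriple j ModularGroup.S ModularGroup.T φ) (Q : PotTriple j ModularGroup.S ModularGroup.T ψ)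
    (P' : PotTriple j' ModularGroup.S ModularGroup.T φ)
    (Q' : PotTriple j' ModularGroup.S ModularGroup.T ψ) :
    pairingOf P Q = pairingOf P' Q' := by
  classical
  have hS2 : (ModularGroup.S : SL(2, ℤ)) ^ 2 = -1 := by decide
  have hz : (ModularGroup.S : SL(2, ℤ)) ^ 2 ∈ j.range := by rw [hS2]; exact hneg
  have hz' : (ModularGroup.S : SL(2, ℤ)) ^ 2 ∈ j'.range := by rw [hS2]; exact hneg'
  obtain ⟨b, hb, hbn⟩ := hB2 SL(2, ℤ) H k ModularGroup.S ModularGroup.T j (pslProp_of_stmt hPSL)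
    hML hz φ ψ P Q
  -- normalisation along `j'`
  have hbn' : ∀ (h : H) (x : SL(2, ℤ)) (n : ℤ),
      j' h = x⁻¹ * (ModularGroup.T * ModularGroup.S⁻¹) ^ n * x → b h = 0 := by
    intro h x n hh
    rcases tau_zpow_cases n with h1 | h1
    · have : j' h = 1 := by rw [hh, h1]; group
      have : h = 1 := hj' (by rw [this, map_one])
      rw [this]; exact hb.map_one
    · have htr1 : ((j h : SL(2, ℤ)) : Matrix (Fin 2) (Fin 2) ℤ).trace = -1 := by
        rw [htr, hh, trace_conj', h1]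
      obtain ⟨y, hy | hy⟩ := hC3 (j h) htr1
      · exact hbn h y 1 (by rw [zpow_one]; exact hy)
      · exact hbn h y (-1) (by rw [zpow_neg_one]; exact hy)
  -- conjugation invariance on positive parabolic elements
  have hconj : ∀ (γ h : H), IsPosPar (j h) → b (γ * h * γ⁻¹) = b h := by
    intro γ h hh
    obtain ⟨x, n, hx⟩ := hPAR (j h) hh.1
    exact hb.conj_invariant γ h (P.killsT x n h hx) (Q.killsT x n h hx)
  have hconj' : ∀ (γ h : H), IsPosPar (j' h) → b (γ * h * γ⁻¹) = b h :=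
    fun γ h hh => hconj γ h ((hpos h).mpr hh)
  -- the orbit representatives
  haveI : Fintype (MulAction.orbitRel.Quotient (Subgroup.zpowers ModularGroup.T)
      (SL(2, ℤ) ⧸ j.range)) := Fintype.ofFinite _
  haveI : Fintype (MulAction.orbitRel.Quotient (Subgroup.zpowers ModularGroup.T)
      (SL(2, ℤ) ⧸ j'.range)) := Fintype.ofFinite _
  have hc : ∀ q : MulAction.orbitRel.Quotient (Subgroup.zpowers ModularGroup.T)
      (SL(2, ℤ) ⧸ j.range), ∃ h : H, j h = q.out.out⁻¹ *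
        ModularGroup.T ^ Function.minimalPeriod (ModularGroup.T • ·) q.out * q.out.out :=
    fun q => QuotientGroup.out_conj_pow_minimalPeriod_mem j.range ModularGroup.T q.out
  have hc' : ∀ q : MulAction.orbitRel.Quotient (Subgroup.zpowers ModularGroup.T)
      (SL(2, ℤ) ⧸ j'.range), ∃ h : H, j' h = q.out.out⁻¹ *
        ModularGroup.T ^ Function.minimalPeriod (ModularGroup.T • ·) q.out * q.out.out :=
    fun q => QuotientGroup.out_conj_pow_minimalPeriod_mem j'.range ModularGroup.T q.out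
  choose c hc using hc
  choose c' hc' using hc'
  have e1 := hB1 SL(2, ℤ) H k ModularGroup.S ModularGroup.T j hML hz h2 φ ψ P Q b hb hbn c hc
  have e1' := hB1 SL(2, ℤ) H k ModularGroup.S ModularGroup.T j' hML hz' h2 φ ψ P' Q' b hb hbn' c' hc'
  have e3 := hB3 H k j hj hfi hneg b hconj c hc
  have e3' := hB3 H k j' hj' hfi' hneg' b hconj' c' hc'
  have hP : IsPrimPosPar j = IsPrimPosPar j' := by
    funext h
    unfold IsPrimPosPar
    simp only [hpos]
  rw [hP] at e3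
  have e5 : -(1 / 2) * pairingOf P Q = -(1 / 2) * pairingOf P' Q' := by
    rw [← e1, ← e1', e3, e3']
  have h12 : (-(1 / 2) : k) ≠ 0 := by
    rw [neg_ne_zero]; exact one_div_ne_zero h2
  exact mul_left_cancel₀ h12 e5

end Inv

end Fermat.Agent.S41.H94

end
-- ==== END Fermat.Agent.S41.H94_Inv

-- ==== BEGIN Fermat.Agent.S41.H94_ND
section

/-!
# S41, package P: nondegeneracy of the pairing (abstract form), from `Stmt_SURJ`
-/

set_option autoImplicit false

namespace Fermat.Agent.S41.H94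

section ND

variable {G : Type} [Group G] {H : Type} [Group H] {k : Type} [Field k]
variable {j : H →* G} {S T : G} [Fintype (G ⧸ j.range)]

/-- **Nondegeneracy**: if `pairingOf Q P = 0` for every potential triple `Q` (of any `ψ`), then
`φ = 0`. -/
theorem eq_zero_of_pairing_eq_zero (hSURJ : Stmt_SURJ) (hPSL : PSLProp S T)
    (hM : ModularLike S T) (hz : S ^ 2 ∈ j.range) (h2 : (2 : k) ≠ 0)
    {φ : Additive H →+ k} (P : PotTriple j S T φ)
    (h : ∀ (ψ : Additive H →+ k) (Q : PotTriple j S T ψ), pairingOf Q P = 0) : φ = 0 := by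
  classical
  obtain ⟨c, hc, hcb⟩ := Qform_radical (k := k)
    (MulAction.toPerm S : Equiv.Perm (G ⧸ j.range)) (MulAction.toPerm (T * S⁻¹))
    (fun x => smul_smul_S hM hz x) (fun x => smul_smul_smul_tau hM x) h2 P.a (P.isManin hM hz)
    (by
      intro a ha
      obtain ⟨ψ, Q, hQ⟩ := hSURJ G H k S T j hPSL hM hz a ha
      have := h ψ Q
      unfold pairingOf at this
      rw [hQ] at this
      exact this)
  exact eq_zero_of_boundary hM hz P c hc hcb

end ND

end Fermat.Agent.S41.H94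

end
-- ==== END Fermat.Agent.S41.H94_ND

-- ==== BEGIN Fermat.Agent.S41.H96_B1
section

set_option autoImplicit false

namespace Fermat.Agent.S41.H96

open Fermat.Agent.S41.H94

/-! ### Sums over the orbits of a cyclic group -/

section OrbitSum

variable {X : Type*} [Fintype X] {G : Type*} [Group G] [MulAction G X]

theorem minimalPeriod_pos_of_fintype (g : G) (p : X) :
    0 < Function.minimalPeriod (fun y : X => g • y) p :=
  Function.minimalPeriod_pos_of_mem_periodicPts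
    (Function.Injective.mem_periodicPts (MulAction.injective g) _)

/-- A sum over a finite `G`-set, grouped by the orbits of the cyclic subgroup generated by `g`
(the orbit relation being given as an abstract setoid `r`). -/
theorem sum_eq_sum_orbits (g : G) (r : Setoid X) [Fintype (Quotient r)]
    (hr : ∀ p p' : X, r p p' ↔ ∃ n : ℤ, g ^ n • p' = p)
    {M : Type*} [AddCommMonoid M] (F : X → M) :
    ∑ p, F p = ∑ q : Quotient r,
      ∑ i ∈ Finset.range (Function.minimalPeriod (fun y : X => g • y) q.out), F (g ^ i • q.out) := by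
  classical
  rw [← Finset.sum_fiberwise Finset.univ (fun p : X => (Quotient.mk r p : Quotient r)) F]
  refine Finset.sum_congr rfl (fun q _ => ?_)
  symm
  refine Finset.sum_bij (fun i _ => g ^ i • q.out) ?_ ?_ ?_ ?_
  · intro i _
    rw [Finset.mem_filter]
    refine ⟨Finset.mem_univ _, ?_⟩
    rw [← Quotient.out_eq q]
    apply Quotient.sound
    rw [Quotient.out_eq]
    exact (hr _ _).mpr ⟨i, by rw [zpow_natCast]⟩
  · intro i hi i' hi' heq
    have h1 := Function.iterate_injOn_Iio_minimalPeriod (f := fun y : X => g • y) (x := q.out)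
      (Finset.mem_range.mp hi) (Finset.mem_range.mp hi')
    apply h1
    show (fun y : X => g • y)^[i] q.out = (fun y : X => g • y)^[i'] q.out
    rw [smul_iterate_apply, smul_iterate_apply]
    exact heq
  · intro p hp
    rw [Finset.mem_filter] at hp
    have hrel : r p q.out :=
      Quotient.exact (hp.2.trans (Quotient.out_eq q).symm)
    obtain ⟨n, ht'⟩ := (hr _ _).mp hrel
    have hw := minimalPeriod_pos_of_fintype g q.out
    have hw' : (0 : ℤ) < (Function.minimalPeriod (fun y : X => g • y) q.out : ℤ) := by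
      exact_mod_cast hw
    have h0 : 0 ≤ n % (Function.minimalPeriod (fun y : X => g • y) q.out : ℤ) :=
      Int.emod_nonneg _ hw'.ne'
    have h1 : n % (Function.minimalPeriod (fun y : X => g • y) q.out : ℤ)
        < (Function.minimalPeriod (fun y : X => g • y) q.out : ℤ) := Int.emod_lt_of_pos _ hw'
    refine ⟨(n % (Function.minimalPeriod (fun y : X => g • y) q.out : ℤ)).toNat, ?_, ?_⟩
    · rw [Finset.mem_range]
      omega
    · rw [← ht', ← MulAction.zpow_smul_mod_minimalPeriod g q.out n, ← zpow_natCast,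
        Int.toNat_of_nonneg h0]
  · intro i _
    rfl

end OrbitSum

/-! ### The algebra of Manin functions -/

section Algebra

variable {X : Type*} [Fintype X] {k : Type*} [Field k]

/-- A sum which changes sign under the involution `s` vanishes (`2 ≠ 0`). -/
theorem sum_eq_zero_of_anti (h2 : (2 : k) ≠ 0) (s : Equiv.Perm X) (f : X → k)
    (hf : ∀ x, f (s x) = - f x) : ∑ x, f x = 0 := by
  have h := Equiv.sum_comp s f
  have h' : ∑ x, f (s x) = - ∑ x, f x := by
    rw [← Finset.sum_neg_distrib]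
    exact Finset.sum_congr rfl (fun x _ => hf x)
  rw [h'] at h
  have h3 : (2 : k) * ∑ x, f x = 0 := by linear_combination -h
  rcases mul_eq_zero.mp h3 with h4 | h4
  · exact absurd h4 h2
  · exact h4

/-- The final computation: for Manin pairs `(A, U)`, `(A', U')`,
`2 Σ (A ∘ s - U ∘ s) (U' ∘ s - U') = - Q(A, A')`. -/
theorem two_mul_sum_eq_neg_Qform (h2 : (2 : k) ≠ 0) (s t : Equiv.Perm X)
    (hs : ∀ x, s (s x) = x)
    (A U A' U' : X → k) (hA : ∀ x, A (t x) - A x = U (s x) - U x)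
    (hA' : ∀ x, A' (t x) - A' x = U' (s x) - U' x) :
    2 * ∑ x, (A (s x) - U (s x)) * (U' (s x) - U' x) = - Qform t A A' := by
  have e1 : ∑ x, (A (s x) + A x) * (U' (s x) - U' x) = 0 :=
    sum_eq_zero_of_anti h2 s _ (fun x => by rw [hs]; ring)
  have e2 : ∑ x, (U (s x) + U x) * (U' (s x) - U' x) = 0 :=
    sum_eq_zero_of_anti h2 s _ (fun x => by rw [hs]; ring)
  have e3 : ∑ x, A (t x) * A' (t x) = ∑ x, A x * A' x :=
    Equiv.sum_comp t (fun x => A x * A' x)
  have key : ∀ x, 2 * ((A (s x) - U (s x)) * (U' (s x) - U' x))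
      + (A x * A' (t x) - A (t x) * A' x)
      = 2 * ((A (s x) + A x) * (U' (s x) - U' x)) - (U (s x) + U x) * (U' (s x) - U' x)
        + (A x * A' x - A (t x) * A' (t x)) := by
    intro x
    have h1 := hA x
    have h1' := hA' x
    have hu : U (s x) = U x + (A (t x) - A x) := by linear_combination -h1
    have hu' : U' (s x) = U' x + (A' (t x) - A' x) := by linear_combination -h1'
    rw [hu, hu']
    ring
  have hsum := Finset.sum_congr (s₁ := (Finset.univ : Finset X)) rfl (fun x _ => key x)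
  simp only [Finset.sum_add_distrib, Finset.sum_sub_distrib, ← Finset.mul_sum] at hsum
  rw [e1, e2, e3] at hsum
  unfold Qform
  rw [Finset.sum_sub_distrib]
  linear_combination hsum

end Algebra

/-! ### Second-order potentials -/

section Pot2

variable {G : Type*} [Group G] {H : Type*} [Group H] {k : Type*} [Field k]

/-- `Θ` is a second-order potential of `b` relative to the potential `Φ`:
`Θ (x * j h) = Θ x + b h - Φ x * ψ h`. -/
def IsPot2 (j : H →* G) (ψ : Additive H →+ k) (b : H → k) (Φ Θ : G → k) : Prop :=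
  ∀ (x : G) (h : H), Θ (x * j h) = Θ x + b h - Φ x * ψ (Additive.ofMul h)

/-- A hom with a potential kills the kernel of `j`. -/
theorem hom_eq_of_map_eq {j : H →* G} {ψ : Additive H →+ k} {Ψ : G → k} (hΨ : IsPot j ψ Ψ)
    {a a' : H} (h : j a = j a') : ψ (Additive.ofMul a) = ψ (Additive.ofMul a') := by
  have h1 := hΨ 1 a
  have h2 := hΨ 1 a'
  rw [h] at h1
  rw [h1] at h2
  exact add_left_cancel h2

/-- A primitive of the cup product which vanishes on the kernel of `j` factors through `j`. -/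
theorem prim_eq_of_map_eq {j : H →* G} {φ ψ : Additive H →+ k} {Ψ : G → k} (hΨ : IsPot j ψ Ψ)
    {b : H → k} (hb : IsCupPrim φ ψ b) (hker : ∀ h, j h = 1 → b h = 0)
    {a a' : H} (h : j a = j a') : b a = b a' := by
  have h1 : j (a⁻¹ * a') = 1 := by rw [map_mul, map_inv, h, inv_mul_cancel]
  have h2 : ψ (Additive.ofMul (a⁻¹ * a')) = 0 := by
    have := hom_eq_of_map_eq hΨ (a := a⁻¹ * a') (a' := 1) (by rw [h1, map_one])
    rw [this]
    exact map_zero ψ
  have h3 := hb a (a⁻¹ * a')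
  rw [mul_inv_cancel_left, hker _ h1, h2] at h3
  rw [h3]; ring

/-- Existence of second-order potentials. -/
theorem exists_pot2 (j : H →* G) {φ ψ : Additive H →+ k} {Φ Ψ : G → k} (hΦ : IsPot j φ Φ)
    (hΨ : IsPot j ψ Ψ) {b : H → k} (hb : IsCupPrim φ ψ b) (hker : ∀ h, j h = 1 → b h = 0) :
    ∃ Θ : G → k, IsPot2 j ψ b Φ Θ := by
  classical
  let r : G → G := fun x => (x : G ⧸ j.range).out
  have hr : ∀ x, ∃ η : H, x = r x * j η := by
    intro x
    obtain ⟨⟨y, ⟨η, hη⟩⟩, hy⟩ := QuotientGroup.mk_out_eq_mul j.range x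
    refine ⟨η⁻¹, ?_⟩
    have : r x = x * j η := by
      show (x : G ⧸ j.range).out = x * j η
      rw [hy, hη]
    rw [this, map_inv]; group
  have hr2 : ∀ x y, r (x * j y) = r x := by
    intro x y
    show ((x * j y : G) : G ⧸ j.range).out = (x : G ⧸ j.range).out
    have : ((x * j y : G) : G ⧸ j.range) = (x : G ⧸ j.range) := by
      rw [eq_comm, QuotientGroup.eq]
      rw [← mul_assoc, inv_mul_cancel, one_mul]
      exact ⟨y, rfl⟩
    rw [this]
  choose η hη using hr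
  refine ⟨fun x => b (η x) - Φ (r x) * ψ (Additive.ofMul (η x)), fun x h => ?_⟩
  show b (η (x * j h)) - Φ (r (x * j h)) * ψ (Additive.ofMul (η (x * j h)))
    = b (η x) - Φ (r x) * ψ (Additive.ofMul (η x)) + b h - Φ x * ψ (Additive.ofMul h)
  have e1 : j (η (x * j h)) = j (η x * h) := by
    have h1 := hη (x * j h)
    rw [hr2] at h1
    have h2 := hη x
    have h3 : r x * j (η (x * j h)) = r x * j (η x * h) := by
      rw [← h1, map_mul, ← mul_assoc, ← h2]
    exact mul_left_cancel h3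
  rw [hr2, prim_eq_of_map_eq hΨ hb hker e1, hom_eq_of_map_eq hΨ e1, hb, ofMul_mul, map_add]
  have h4 : Φ x = Φ (r x) + φ (Additive.ofMul (η x)) := by
    conv_lhs => rw [hη x]
    exact hΦ _ _
  rw [h4]
  ring

/-- Changing the reference potential by a right-invariant function. -/
theorem IsPot2.shift {j : H →* G} {ψ : Additive H →+ k} {b : H → k} {Φ Θ Ψ : G → k}
    (hΘ : IsPot2 j ψ b Φ Θ) (hΨ : IsPot j ψ Ψ) {c : G → k} (hc : ∀ x y, c (x * j y) = c x) :
    IsPot2 j ψ b (fun x => Φ x + c x) (fun x => Θ x - c x * Ψ x) := by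
  intro x h
  show Θ (x * j h) - c (x * j h) * Ψ (x * j h)
    = Θ x - c x * Ψ x + b h - (Φ x + c x) * ψ (Additive.ofMul h)
  rw [hΘ, hc, hΨ]
  ring

/-- The increment of a second-order potential along a left-invariant direction is
right-invariant. -/
theorem IsPot2.incr_rightInv {j : H →* G} {ψ : Additive H →+ k} {b : H → k} {Φ Θ : G → k}
    (hΘ : IsPot2 j ψ b Φ Θ) {g : G} (hg : ∀ x, Φ (g * x) = Φ x) (x : G) (y : H) :
    Θ (g * (x * j y)) - Θ (x * j y) = Θ (g * x) - Θ x := by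
  rw [← mul_assoc, hΘ, hΘ, hg]
  ring

/-- Telescoping along an orbit. -/
theorem sum_range_incr {j : H →* G} {ψ : Additive H →+ k} {b : H → k} {Φ Θ : G → k}
    (hΘ : IsPot2 j ψ b Φ Θ) {g : G} (hg : ∀ x, Φ (g * x) = Φ x) (x : G) (n : ℕ) :
    ∑ i ∈ Finset.range n, desc j (fun x => Θ (g * x) - Θ x) (g ^ i • (x : G ⧸ j.range))
      = Θ (g ^ n * x) - Θ x := by
  have h1 : ∀ i : ℕ, desc j (fun x => Θ (g * x) - Θ x) (g ^ i • (x : G ⧸ j.range))
      = Θ (g ^ (i + 1) * x) - Θ (g ^ i * x) := by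
    intro i
    rw [MulAction.Quotient.smul_mk, smul_eq_mul,
      desc_mk j (fun x y => hΘ.incr_rightInv hg x y), pow_succ', mul_assoc]
  rw [Finset.sum_congr rfl (fun i _ => h1 i), Finset.sum_range_sub (fun i => Θ (g ^ i * x)) n,
    pow_zero, one_mul]

/-- The sum over `X` of the increment of a second-order potential along `g`, by orbits. -/
theorem sum_incr_eq (j : H →* G) [Fintype (G ⧸ j.range)] {ψ : Additive H →+ k} {b : H → k}
    {Φ Θ : G → k} (hΘ : IsPot2 j ψ b Φ Θ) (g : G) (hg : ∀ x, Φ (g * x) = Φ x)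
    (r : Setoid (G ⧸ j.range)) [Fintype (Quotient r)]
    (hr : ∀ p p' : G ⧸ j.range, r p p' ↔ ∃ n : ℤ, g ^ n • p' = p) :
    ∑ p : G ⧸ j.range, desc j (fun x => Θ (g * x) - Θ x) p
      = ∑ q : Quotient r,
          (Θ (g ^ Function.minimalPeriod (fun y : G ⧸ j.range => g • y) q.out * q.out.out)
            - Θ q.out.out) := by
  rw [sum_eq_sum_orbits g r hr]
  refine Finset.sum_congr rfl (fun q _ => ?_)
  have hout : ((q.out.out : G) : G ⧸ j.range) = q.out := QuotientGroup.out_eq' _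
  have h := sum_range_incr hΘ hg q.out.out
    (Function.minimalPeriod (fun y : G ⧸ j.range => g • y) q.out)
  rw [hout] at h
  exact h

/-- The increment of a second-order potential along a full period. -/
theorem incr_period {j : H →* G} {ψ : Additive H →+ k} {b : H → k} {Φ Θ : G → k}
    (hΘ : IsPot2 j ψ b Φ Θ) (g x : G) (n : ℕ) (h : H) (hh : j h = x⁻¹ * g ^ n * x) :
    Θ (g ^ n * x) - Θ x = b h - Φ x * ψ (Additive.ofMul h) := by
  have : g ^ n * x = x * j h := by rw [hh]; group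
  rw [this, hΘ]
  ring

end Pot2

/-! ### The theorem -/

section Final

variable {G : Type*} [Group G] {H : Type*} [Group H] {k : Type*} [Field k]
variable {j : H →* G} {S T : G}

theorem mk_mul_range (x : G) (y : H) : ((x * j y : G) : G ⧸ j.range) = (x : G ⧸ j.range) := by
  rw [eq_comm, QuotientGroup.eq, ← mul_assoc, inv_mul_cancel, one_mul]
  exact ⟨y, rfl⟩

/-- The orbit relation of a cyclic subgroup, spelled out. -/
theorem orbitRel_zpowers_iff (g : G) (p p' : G ⧸ j.range) :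
    MulAction.orbitRel (Subgroup.zpowers g) (G ⧸ j.range) p p' ↔ ∃ n : ℤ, g ^ n • p' = p := by
  rw [MulAction.orbitRel_apply, MulAction.mem_orbit_iff]
  constructor
  · rintro ⟨⟨t, ⟨n, hn⟩⟩, ht⟩
    refine ⟨n, ?_⟩
    rw [← ht]
    have : g ^ n = t := hn
    rw [this]
    rfl
  · rintro ⟨n, hn⟩
    exact ⟨⟨g ^ n, ⟨n, rfl⟩⟩, hn⟩

/-- The existence of an element of `H` realising a full period. -/
theorem exists_period_elt [Fintype (G ⧸ j.range)] (g : G) (p : G ⧸ j.range) :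
    ∃ h : H, j h = p.out⁻¹ * g ^ Function.minimalPeriod (fun y : G ⧸ j.range => g • y) p * p.out := by
  have h1 : g ^ Function.minimalPeriod (fun y : G ⧸ j.range => g • y) p • p = p :=
    MulAction.pow_period_smul g p
  have hout : ((p.out : G) : G ⧸ j.range) = p := QuotientGroup.out_eq' _
  rw [← hout] at h1
  rw [MulAction.Quotient.smul_mk, hout] at h1
  have h2 : ((p.out : G) : G ⧸ j.range)
      = ((g ^ Function.minimalPeriod (fun y : G ⧸ j.range => g • y) p • p.out : G) : G ⧸ j.range) := by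
    rw [h1, hout]
  rw [QuotientGroup.eq] at h2
  obtain ⟨h, hh⟩ := h2
  refine ⟨h, ?_⟩
  rw [hh, smul_eq_mul, mul_assoc]

end Final

/-- **B1**. -/
theorem stmt_B1 : Stmt_B1 := by
  intro G _ H _ k _ S T j _ _ hM hz h2 φ ψ P Q b hb hnorm c hc
  classical
  have hker : ∀ h, j h = 1 → b h = 0 := fun h hh => hnorm h 1 0 (by rw [hh]; simp)
  obtain ⟨Θ, hΘ⟩ := exists_pot2 j P.potT Q.potT hb hker
  -- the three second-order potentials
  have hΘτ : IsPot2 j ψ b P.Φτ (fun x => Θ x - P.a (x : G ⧸ j.range) * Q.ΦT x) := by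
    have h1 : IsPot2 j ψ b (fun x => P.ΦT x + P.a (x : G ⧸ j.range))
        (fun x => Θ x - P.a (x : G ⧸ j.range) * Q.ΦT x) :=
      hΘ.shift Q.potT (c := fun x => P.a (x : G ⧸ j.range)) (fun x y => by rw [mk_mul_range])
    have h3 : (fun x => P.ΦT x + P.a (x : G ⧸ j.range)) = P.Φτ := by
      funext x; rw [P.a_mk]; ring
    rw [h3] at h1
    exact h1
  have hΘS : IsPot2 j ψ b P.ΦS (fun x => Θ x - P.u (x : G ⧸ j.range) * Q.ΦT x) := by
    have h1 : IsPot2 j ψ b (fun x => P.ΦT x + P.u (x : G ⧸ j.range))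
        (fun x => Θ x - P.u (x : G ⧸ j.range) * Q.ΦT x) :=
      hΘ.shift Q.potT (c := fun x => P.u (x : G ⧸ j.range)) (fun x y => by rw [mk_mul_range])
    have h3 : (fun x => P.ΦT x + P.u (x : G ⧸ j.range)) = P.ΦS := by
      funext x; rw [P.u_mk]; ring
    rw [h3] at h1
    exact h1
  set Θτ : G → k := fun x => Θ x - P.a (x : G ⧸ j.range) * Q.ΦT x with hΘτ_def
  set ΘS : G → k := fun x => Θ x - P.u (x : G ⧸ j.range) * Q.ΦT x with hΘS_def
  set tT : G ⧸ j.range → k := desc j (fun x => Θ (T * x) - Θ x) with htT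
  set tτ : G ⧸ j.range → k := desc j (fun x => Θτ (T * S⁻¹ * x) - Θτ x) with htτ
  set tS : G ⧸ j.range → k := desc j (fun x => ΘS (S * x) - ΘS x) with htS
  have htT_mk : ∀ x : G, tT (x : G ⧸ j.range) = Θ (T * x) - Θ x :=
    fun x => desc_mk j (fun x y => hΘ.incr_rightInv P.invT x y) x
  have htτ_mk : ∀ x : G, tτ (x : G ⧸ j.range) = Θτ (T * S⁻¹ * x) - Θτ x :=
    fun x => desc_mk j (fun x y => hΘτ.incr_rightInv P.invτ x y) x
  have htS_mk : ∀ x : G, tS (x : G ⧸ j.range) = ΘS (S * x) - ΘS x :=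
    fun x => desc_mk j (fun x y => hΘS.incr_rightInv P.invS x y) x
  -- Step 1: the sum of `tT` is the sum of `b` over the cusps
  have hsumT : ∑ p, tT p = ∑ q, b (c q) := by
    rw [htT, sum_incr_eq j hΘ T P.invT (MulAction.orbitRel (Subgroup.zpowers T) (G ⧸ j.range))
      (orbitRel_zpowers_iff T)]
    refine Finset.sum_congr rfl (fun q _ => ?_)
    rw [incr_period hΘ T q.out.out _ (c q) (hc q)]
    have h0 : ψ (Additive.ofMul (c q)) = 0 :=
      Q.killsT q.out.out (Function.minimalPeriod (fun y : G ⧸ j.range => T • y) q.out : ℕ) (c q)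
        (by rw [zpow_natCast]; exact hc q)
    rw [h0]; ring
  -- Step 2: the sum of `tτ` vanishes
  have hsumτ : ∑ p, tτ p = 0 := by
    have : Fintype (Quotient (MulAction.orbitRel (Subgroup.zpowers (T * S⁻¹)) (G ⧸ j.range))) :=
      Fintype.ofFinite _
    rw [htτ, sum_incr_eq j hΘτ (T * S⁻¹) P.invτ
      (MulAction.orbitRel (Subgroup.zpowers (T * S⁻¹)) (G ⧸ j.range))
      (orbitRel_zpowers_iff (T * S⁻¹))]
    refine Finset.sum_eq_zero (fun q _ => ?_)
    obtain ⟨h, hh⟩ := exists_period_elt (j := j) (T * S⁻¹) q.out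
    rw [incr_period hΘτ (T * S⁻¹) q.out.out _ h hh]
    have h0 : ψ (Additive.ofMul h) = 0 :=
      Q.killsτ q.out.out
        (Function.minimalPeriod (fun y : G ⧸ j.range => (T * S⁻¹) • y) q.out : ℕ) h
        (by rw [zpow_natCast]; exact hh)
    have h1 : b h = 0 :=
      hnorm h q.out.out
        (Function.minimalPeriod (fun y : G ⧸ j.range => (T * S⁻¹) • y) q.out : ℕ)
        (by rw [zpow_natCast]; exact hh)
    rw [h0, h1]; ring
  -- Step 3: the sum of `tS` vanishes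
  have hsumS : ∑ p, tS p = 0 := by
    obtain ⟨z, hz'⟩ := hz
    have hψz : ψ (Additive.ofMul z) = 0 := Q.killsS 1 2 z (by rw [hz']; simp)
    have hφz : φ (Additive.ofMul z) = 0 := P.killsS 1 2 z (by rw [hz']; simp)
    have hbz : b z = 0 := by
      have h1 : b (z * z) = 0 := by
        apply hker
        rw [map_mul, hz', ← pow_add]
        exact hM.S4
      have h3 := hb z z
      rw [h1, hφz] at h3
      have h4 : (2 : k) * b z = 0 := by linear_combination -h3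
      rcases mul_eq_zero.mp h4 with h5 | h5
      · exact absurd h5 h2
      · exact h5
    refine sum_eq_zero_of_anti h2 (MulAction.toPerm S) tS (fun p => ?_)
    induction p using QuotientGroup.induction_on with
    | H x =>
      rw [MulAction.toPerm_apply, MulAction.Quotient.smul_mk, htS_mk, htS_mk]
      simp only [smul_eq_mul]
      have h5 : S * (S * x) = x * j z := by
        rw [hz', ← hM.central x, pow_two, mul_assoc]
      rw [h5, hΘS x z, hbz, hψz]
      ring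
  -- Step 4: the pointwise identity
  have hpt : ∀ p : G ⧸ j.range, tT p = tτ (S • p) + tS p
      + (P.a (S • p) - P.u (S • p)) * (Q.u (S • p) - Q.u p) := by
    intro p
    induction p using QuotientGroup.induction_on with
    | H x =>
      have hman := P.manin hM hz (S • (x : G ⧸ j.range))
      rw [smul_smul_S hM hz, tau_smul_S_smul] at hman
      rw [MulAction.Quotient.smul_mk] at hman ⊢
      rw [MulAction.Quotient.smul_mk] at hman
      simp only [smul_eq_mul] at hman ⊢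
      rw [htT_mk, htτ_mk, htS_mk, Q.u_mk, Q.u_mk, Q.invS]
      have h6 : T * S⁻¹ * (S * x) = T * x := by group
      rw [h6]
      simp only [hΘτ_def, hΘS_def]
      rw [Q.invT]
      linear_combination (Q.ΦT x) * hman
  -- Step 5: conclusion
  have e1 : ∑ p, tτ (S • p) = ∑ p, tτ p :=
    Equiv.sum_comp (MulAction.toPerm S : Equiv.Perm (G ⧸ j.range)) tτ
  have hsum : ∑ p, tT p = ∑ p, (P.a (S • p) - P.u (S • p)) * (Q.u (S • p) - Q.u p) := by
    rw [Finset.sum_congr rfl (fun p _ => hpt p), Finset.sum_add_distrib, Finset.sum_add_distrib,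
      hsumS, e1, hsumτ]
    ring
  have hfin := two_mul_sum_eq_neg_Qform h2 (MulAction.toPerm S : Equiv.Perm (G ⧸ j.range))
    (MulAction.toPerm (T * S⁻¹)) (fun x => smul_smul_S hM hz x) P.a P.u Q.a Q.u
    (fun x => P.manin hM hz x) (fun x => Q.manin hM hz x)
  simp only [MulAction.toPerm_apply] at hfin
  rw [← hsumT, hsum]
  unfold pairingOf
  have h3 : ∀ r : k, r = 2⁻¹ * (2 * r) := fun r => by
    rw [← mul_assoc, inv_mul_cancel₀ h2, one_mul]
  rw [h3 (∑ p, (P.a (S • p) - P.u (S • p)) * (Q.u (S • p) - Q.u p)), hfin]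
  ring

end Fermat.Agent.S41.H96

end
-- ==== END Fermat.Agent.S41.H96_B1

-- ==== BEGIN Fermat.Agent.S41.H96_Cusp
section

set_option autoImplicit false

open scoped MatrixGroups

namespace Fermat.Agent.S41.H96

open Fermat.Agent.S41.H94 Fermat.Agent.S41.Lead

/-! ### ML -/

theorem S_sq_eq_neg_one : (ModularGroup.S : SL(2, ℤ)) ^ 2 = -1 := by decide

theorem S_pow_four : (ModularGroup.S : SL(2, ℤ)) ^ 4 = 1 := by decide

theorem tau_pow_three' : (ModularGroup.T * ModularGroup.S⁻¹ : SL(2, ℤ)) ^ 3 = 1 := by decide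

theorem neg_one_mul_comm (g : SL(2, ℤ)) : (-1 : SL(2, ℤ)) * g = g * (-1) := by
  apply Subtype.ext
  simp

/-- **ML**: `(SL(2,ℤ), S, T)` is `ModularLike`. -/
theorem stmt_ML : Stmt_ML where
  gen := SpecialLinearGroup.SL2Z_generators
  central := fun g => by rw [S_sq_eq_neg_one]; exact neg_one_mul_comm g
  tau3 := tau_pow_three'
  S4 := S_pow_four

/-! ### Traces -/

/-- The trace of an element of `SL(2,ℤ)`. -/
def tr (g : SL(2, ℤ)) : ℤ := (g : Matrix (Fin 2) (Fin 2) ℤ).trace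

theorem tr_conj (γ δ : SL(2, ℤ)) : tr (δ⁻¹ * γ * δ) = tr γ := lead_trace_conj γ δ

theorem tr_neg (g : SL(2, ℤ)) : tr (-g) = -tr g := by
  unfold tr
  rw [Matrix.SpecialLinearGroup.coe_neg, Matrix.trace_neg]

theorem tr_T_zpow (n : ℤ) : tr (ModularGroup.T ^ n) = 2 := by
  unfold tr
  rw [ModularGroup.coe_T_zpow, Matrix.trace_fin_two]
  simp

theorem tr_S_zpow_sq_le (n : ℤ) : tr (ModularGroup.S ^ n) ^ 2 ≤ 4 := by
  rw [zpow_eq_zpow_emod n (show (ModularGroup.S : SL(2, ℤ)) ^ (4 : ℤ) = 1 from by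
    rw [show ((4 : ℤ)) = ((4 : ℕ) : ℤ) from rfl, zpow_natCast]; exact S_pow_four)]
  have h0 : 0 ≤ n % 4 := Int.emod_nonneg n (by norm_num)
  have h1 : n % 4 < 4 := Int.emod_lt_of_pos n (by norm_num)
  obtain ⟨m, hm⟩ := Int.eq_ofNat_of_zero_le h0
  rw [hm, zpow_natCast]
  have hm4 : m < 4 := by omega
  interval_cases m
  · decide
  · decide
  · decide
  · decide

theorem tr_tau_zpow_sq_le (n : ℤ) :
    tr ((ModularGroup.T * ModularGroup.S⁻¹ : SL(2, ℤ)) ^ n) ^ 2 ≤ 4 := by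
  rw [zpow_eq_zpow_emod n (show (ModularGroup.T * ModularGroup.S⁻¹ : SL(2, ℤ)) ^ (3 : ℤ) = 1 from by
    rw [show ((3 : ℤ)) = ((3 : ℕ) : ℤ) from rfl, zpow_natCast]; exact tau_pow_three')]
  have h0 : 0 ≤ n % 3 := Int.emod_nonneg n (by norm_num)
  have h1 : n % 3 < 3 := Int.emod_lt_of_pos n (by norm_num)
  obtain ⟨m, hm⟩ := Int.eq_ofNat_of_zero_le h0
  rw [hm, zpow_natCast]
  have hm3 : m < 3 := by omega
  interval_cases m
  · decide
  · decide
  · decide

/-- Cayley–Hamilton in trace `0`: `g ^ 2 = -1`. -/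
theorem sq_eq_neg_one_of_tr_eq_zero (g : SL(2, ℤ)) (h : tr g = 0) : g ^ 2 = -1 := by
  have hdet : g 0 0 * g 1 1 - g 0 1 * g 1 0 = 1 := by
    have := g.det_coe
    rwa [Matrix.det_fin_two] at this
  have ht : g 0 0 + g 1 1 = 0 := by
    have := h
    unfold tr at this
    rwa [Matrix.trace_fin_two] at this
  apply Subtype.ext
  rw [Matrix.SpecialLinearGroup.coe_pow, Matrix.SpecialLinearGroup.coe_neg,
    Matrix.SpecialLinearGroup.coe_one, pow_two]
  ext i j
  fin_cases i <;> fin_cases j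
  · simp only [Matrix.mul_apply, Fin.sum_univ_two, Fin.zero_eta, Fin.isValue, Matrix.neg_apply,
      Matrix.one_apply_eq]
    linear_combination g 0 0 * ht - hdet
  · simp only [Matrix.mul_apply, Fin.sum_univ_two, Fin.zero_eta, Fin.mk_one, Fin.isValue,
      Matrix.neg_apply, ne_eq, zero_ne_one, not_false_eq_true, Matrix.one_apply_ne, neg_zero]
    linear_combination g 0 1 * ht
  · simp only [Matrix.mul_apply, Fin.sum_univ_two, Fin.zero_eta, Fin.mk_one, Fin.isValue,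
      Matrix.neg_apply, ne_eq, one_ne_zero, not_false_eq_true, Matrix.one_apply_ne, neg_zero]
    linear_combination g 1 0 * ht
  · simp only [Matrix.mul_apply, Fin.sum_univ_two, Fin.mk_one, Fin.isValue, Matrix.neg_apply,
      Matrix.one_apply_eq]
    linear_combination g 1 1 * ht - hdet

/-! ### CUSP -/

/-- **CUSP**: cuspidal ↔ kills the conjugates of the powers of `S`, `T`, `T S⁻¹`. -/
theorem stmt_CUSP : Stmt_CUSP := by
  intro H _ k _ j h2 hneg φ
  constructor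
  · intro hφ
    refine ⟨fun x n h hh => hφ h ?_, fun x n h hh => hφ h ?_, fun x n h hh => hφ h ?_⟩
    · show tr (j h) ^ 2 ≤ 4
      rw [hh, tr_conj]
      exact tr_S_zpow_sq_le n
    · show tr (j h) ^ 2 ≤ 4
      rw [hh, tr_conj, tr_T_zpow]
      norm_num
    · show tr (j h) ^ 2 ≤ 4
      rw [hh, tr_conj]
      exact tr_tau_zpow_sq_le n
  · rintro ⟨hS, hT, hτ⟩ h hh
    have hh' : tr (j h) ^ 2 ≤ 4 := hh
    obtain ⟨z, hz⟩ := hneg
    -- `φ z = 0`
    have hφz : φ (Additive.ofMul z) = 0 := by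
      refine hS 1 2 z ?_
      rw [hz, inv_one, one_mul, mul_one, show ((2 : ℤ)) = ((2 : ℕ) : ℤ) from rfl, zpow_natCast,
        S_sq_eq_neg_one]
    have hjhz : j (h * z) = -(j h) := by
      rw [map_mul, hz]
      apply Subtype.ext
      simp
    have hφhz : φ (Additive.ofMul (h * z)) = φ (Additive.ofMul h) := by
      rw [ofMul_mul, map_add, hφz, add_zero]
    -- the five possible traces
    have hlo : -2 ≤ tr (j h) := by nlinarith
    have hhi : tr (j h) ≤ 2 := by nlinarith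
    have hcases : tr (j h) = -2 ∨ tr (j h) = -1 ∨ tr (j h) = 0 ∨ tr (j h) = 1 ∨ tr (j h) = 2 := by
      omega
    rcases hcases with h' | h' | h' | h' | h'
    · -- trace `-2`: `-g` is parabolic
      have h'' : tr (j (h * z)) = 2 := by rw [hjhz, tr_neg, h']; norm_num
      obtain ⟨x, n, hx⟩ := stmt_PAR (j (h * z)) h''
      rw [← hφhz]
      exact hT x n (h * z) hx
    · -- trace `-1`
      obtain ⟨x, hx | hx⟩ := stmt_C3 (j h) h'
      · refine hτ x 1 h ?_
        rw [zpow_one]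
        exact hx
      · refine hτ x (-1) h ?_
        rw [zpow_neg, zpow_one]
        exact hx
    · -- trace `0`: `g ^ 2 = -1`
      have hsq := sq_eq_neg_one_of_tr_eq_zero (j h) h'
      have h3 : φ (Additive.ofMul (h ^ 2)) = 0 := by
        refine hS 1 2 (h ^ 2) ?_
        rw [map_pow, hsq, inv_one, one_mul, mul_one, show ((2 : ℤ)) = ((2 : ℕ) : ℤ) from rfl,
          zpow_natCast, S_sq_eq_neg_one]
      rw [ofMul_pow, map_nsmul, nsmul_eq_mul] at h3
      rcases mul_eq_zero.mp h3 with h4 | h4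
      · exact absurd (by exact_mod_cast h4) h2
      · exact h4
    · -- trace `1`: `-g` has trace `-1`
      have h'' : tr (j (h * z)) = -1 := by rw [hjhz, tr_neg, h']
      rw [← hφhz]
      obtain ⟨x, hx | hx⟩ := stmt_C3 (j (h * z)) h''
      · refine hτ x 1 (h * z) ?_
        rw [zpow_one]
        exact hx
      · refine hτ x (-1) (h * z) ?_
        rw [zpow_neg, zpow_one]
        exact hx
    · -- trace `2`
      obtain ⟨x, n, hx⟩ := stmt_PAR (j h) h'
      exact hT x n h hx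

end Fermat.Agent.S41.H96

end
-- ==== END Fermat.Agent.S41.H96_Cusp
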