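-- GENERATED (merged mirror, NOTES/tools/trim/merge3_helper67.py): 10 modules of the originals, bodies verbatim.
import Mathlib
import Fermat.Agent.Zm.S59_L02_001
import Fermat.Agent.Zm.S59_L03_000
import Fermat.Agent.Zm.S59_L05_003
import Fermat.Agent.Zm.S59_L05_001
import Fermat.Agent.Zm.S59_L04_002
import Fermat.Agent.Zm.S59_L01_001
import Fermat.Agent.Zm.S44_L01_004
import Fermat.Agent.Zm.S44_L05_000
import Fermat.Agent.Lib.EllFinite.H46_Finrank
import Fermat.Agent.Zm.S44_L02_002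
import Fermat.Agent.Zm.S59_L02_002
import Fermat.Agent.Zm.S59_L04_001
import Fermat.Agent.Zm.S59_L01_002
import Fermat.Agent.Zm.S59_L05_000
import Fermat.Agent.Zm.S59_L01_003
import Fermat.Agent.Zm.S59_L05_002
import Fermat.Agent.Zm.S44_L03_003
import Fermat.Agent.Zm.S59_L03_001

-- ==== BEGIN Fermat.Agent.S27.CharP.H41_Sys
section

/-!
# S27 char-p half, leaf SYS (helper41): the zeta system of a Frobenius structure

`sys_of : Stmt_Cnt → Stmt_LInv → Stmt_Sys`: the places of `F / k` with a Frobenius structure `φ`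
(and a fixed place) form an abstract zeta system `Zeta.ZSys`:
`φ` = the permutation of the places, `degree`, `Princ` = the prelude's, `l D = dim L(D)`,
`W` = a canonical divisor (Riemann–Roch, helper52), orbits and fixed points from PHI-ORB
(helper38), the counting axiom from CNT for the powers of `φ`.
-/

set_option autoImplicit false
set_option linter.style.haveILetI false

noncomputable section

open AlgebraicCurve

namespace Fermat.Agent.S27.CharP.H41S

open Fermat.Agent.RED.H17 Fermat.Agent.S27 Fermat.Agent.S27.CharP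

universe u v

local notation "L" => riemannRochSpace

section

variable {k : Type u} {F : Type v} [Field k] [Field F] [Algebra k F]

theorem act_toPerm (φ : SemilinearAut k F) (D : Divisor k F) :
    Zeta.act (MulAction.toPerm φ) D = φ • D := rfl

theorem toPerm_pow (φ : SemilinearAut k F) (m : ℕ) :
    (MulAction.toPerm φ : Equiv.Perm (Place k F)) ^ m = MulAction.toPerm (φ ^ m) :=
  (map_pow (MulAction.toPermHom (SemilinearAut k F) (Place k F)) φ m).symm

theorem toPerm_pow_apply (φ : SemilinearAut k F) (m : ℕ) (P : Place k F) :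
    ((MulAction.toPerm φ : Equiv.Perm (Place k F)) ^ m) P = (φ ^ m) • P := by
  rw [toPerm_pow]
  rfl

theorem act_toPerm_pow (φ : SemilinearAut k F) (m : ℕ) (D : Divisor k F) :
    Zeta.act ((MulAction.toPerm φ : Equiv.Perm (Place k F)) ^ m) D = (φ ^ m) • D := by
  rw [toPerm_pow]
  rfl

end

/-- **SYS.** -/
theorem sys_of (hCnt : Stmt_Cnt.{u, v}) (hLInv : Stmt_LInv.{u, v}) : Stmt_Sys.{u, v} := by
  intro k F _ _ _ _ p _ hp H g c hg Q φ hφ hfix
  obtain ⟨W, hW⟩ := RR.H52.riemann_roch H hg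
  obtain ⟨horb, hfin⟩ := H38.stmt_PhiOrb k F p hp H Q φ hφ
  refine ⟨{ φ := MulAction.toPerm φ
            degree := Divisor.degree
            Princ := Divisor.principal
            l := fun D => Module.finrank k (L D)
            Q := Q
            g := g
            W := W
            two_le := H38.two_le_Q hp hφ
            degree_single := ?_
            orbit := ?_
            fixfin := ?_
            fixed := hfix
            princ_deg := ?_
            princ_act := ?_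
            l_princ := ?_
            l_act := ?_
            l_neg := ?_
            l_zero := ?_
            rr := ?_
            cnt := ?_ }, rfl, rfl, rfl, rfl, rfl⟩
  · intro P n
    rw [Divisor.degree_single, H.deg_one P, Nat.cast_one, mul_one]
  · intro P
    obtain ⟨m, hm, h⟩ := horb P
    exact ⟨m, hm, by rw [toPerm_pow_apply]; exact h⟩
  · intro m hm
    have h := hfin m hm
    have e : Zeta.fixPts (MulAction.toPerm φ : Equiv.Perm (Place k F)) m
        = {P : Place k F | (φ ^ m) • P = P} := by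
      ext P
      show ((MulAction.toPerm φ : Equiv.Perm (Place k F)) ^ m) P = P ↔ _
      rw [toPerm_pow_apply]
      rfl
    rw [e]
    exact h
  · intro D hD
    exact RR.H52.degree_principal H hD
  · intro D hD
    rw [act_toPerm]
    exact SemilinearAut.smul_mem_principal φ hD
  · intro D E hE
    exact RR.H52.finrank_L_add_principal H hE
  · intro D
    rw [act_toPerm]
    exact hLInv k F φ D
  · intro D hD
    exact RR.H52.finrank_L_of_neg H hD
  · exact RR.H52.finrank_L_zero H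
  · intro D
    exact hW.2.2 D
  · intro m hm D hD
    rw [act_toPerm_pow] at hD
    have h := hCnt k F p hp H (Q ^ m) (φ ^ m) (H38.isFrob_pow hφ hm) D hD
    rw [← pow_mul] at h
    rw [← h]
    congr 1
    refine Nat.card_congr (Equiv.subtypeEquivRight fun E => ?_)
    rw [act_toPerm_pow]

end Fermat.Agent.S27.CharP.H41S

end
end
-- ==== END Fermat.Agent.S27.CharP.H41_Sys

-- ==== BEGIN Fermat.Agent.S27.REDu.H79_ConsGlueDefs
section

/-!
# G-RED package CONS (helper79 + helper10): interface of C6 (conservation on a chart) and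
C7 (glueing of the charts `x`, `x' = 1/(x - c₀)`)

* `ChartCons S x hx r` : conservation on the chart `x` for all Gauss units
  (= conclusion of helper10's `H10.chart_conservation`, C6 = C3 + C5).
* `IsRedAbs S r` : the conservation law `r_* (div f) = div (red f)` for all Gauss units
  (`IsRed O h r` of `RED/Core.lean` is `IsRedAbs (redSetting O h) r`).
This file contains no `sorry`.
-/

set_option autoImplicit false

universe uC uCf uK uR uF uL uE uk ukap uFp uFt uFtp uiot uEp uKp ux3b1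

noncomputable section

open AlgebraicCurve IntermediateField

namespace Fermat.Agent.S27.REDu.H79

open Fermat.Agent.S27.REDu.H34 Fermat.Agent.S27.REDu.H51

variable {C : Type uC} {F : Type uF} {k : Type uk} {Ft : Type uFt} [Field C] [Field F] [Algebra C F] [Field k] [Field Ft] [Algebra k Ft]

open Classical in
/-- **(C6)** conservation on the chart `x`: for a Gauss unit `f` with divisor `D` and a place `Q`
of `Ft` finite over `xt`: `Σ_{P in the chart, r P = Q} ord_P f = ord_Q (red f)`. -/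
def ChartCons (S : RedSetting C F k Ft) (x : F) (hx : x ∈ S.V)
    (r : Place C F → Place k Ft) : Prop :=
  ∀ f : ↥S.V, IsUnit f → ∀ D : Divisor C F, (∀ P, D P = P.ord (f : F)) →
    ∀ Q : Place k Ft, S.red ⟨x, hx⟩ ∈ Q.toValuationSubring →
      ∑ P ∈ D.support.filter (fun P => InChart S x P ∧ r P = Q), D P = Q.ord (S.red f)

/-- The conservation law `r_* (div f) = div (red f)` for every Gauss unit `f`. -/
def IsRedAbs (S : RedSetting C F k Ft) (r : Place C F → Place k Ft) : Prop :=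
  ∀ f : ↥S.V, IsUnit f → ∀ D : Divisor C F, (∀ P, D P = P.ord (f : F)) →
    ∀ Q : Place k Ft, Finsupp.mapDomain r D Q = Q.ord (S.red f)

end Fermat.Agent.S27.REDu.H79

end
end
-- ==== END Fermat.Agent.S27.REDu.H79_ConsGlueDefs

-- ==== BEGIN Fermat.Agent.S38.P3.H60_CompEis3
section

set_option autoImplicit false

namespace Fermat.Agent.S38.P3.H60

/-- **COMP-EIS3, strong form.** -/
theorem stmt_CompEis3S : Stmt_CompEis3S :=
  stmt_CompEis3S_of Fermat.Agent.S38.P3.H57.stmt_NE Fermat.Agent.S38.P3.H66D.stmt_CE_Desc3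
    Fermat.Agent.S38.P3.H52.stmt_PushNorm

end Fermat.Agent.S38.P3.H60

end
-- ==== END Fermat.Agent.S38.P3.H60_CompEis3

-- ==== BEGIN Fermat.Agent.S39.FinMult.H33_Final
section

set_option autoImplicit false

namespace Fermat.Agent.S39.FinMult.H33

open WeierstrassCurve WeierstrassCurve.Affine WeierstrassCurve.Affine.Point
open Fermat.Agent.S05 (InE0 InE1)
open Fermat.Agent.S44 (GQ Tors IsFiniteAt)

/-- **FinMult from the arithmetic leaves.** -/
theorem stmt_FinMult_of (hArith : Stmt_NodeArith) (hPeu : Stmt_NodePeu) :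
    Fermat.Agent.S39.Stmt_FinMult := by
  intro W hΔ p hp hp2 hpΔ hpc4 hpeu A hA
  haveI : Fact p.Prime := ⟨hp⟩
  have hpA : A.valuation ((p : ℕ) : AlgebraicClosure ℚ) < 1 :=
    Fermat.Agent.S05.H15.valuation_lt_one_of_mem_nonunits hA
  have hEΔ : (W.map (Int.castRingHom ℚ)).Δ ≠ 0 := by
    rw [WeierstrassCurve.map_Δ]
    simpa using hΔ
  have hdim : Module.finrank (ZMod p) (Tors (W.map (Int.castRingHom ℚ)) p) = 2 :=
    Fermat.Agent.Lib.EllFinite.H46.finrank_torsionBy_rat _ hEΔ p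
  obtain ⟨G, r, s, t, hvc, hyp, hGΔ⟩ := hArith W hΔ p hp hp2 hpΔ hpc4 A hA
  obtain ⟨c₀, hc, hΔ2⟩ := hPeu W hΔ p hp hp2 hpΔ hpeu A hA
  have hΔeq : (G⁄(AlgebraicClosure ℚ)).Δ = (((W.Δ : ℤ) : ℚ) : AlgebraicClosure ℚ) := by
    show (G.map (algebraMap ℚ (AlgebraicClosure ℚ))).Δ = _
    rw [WeierstrassCurve.map_Δ, hGΔ, eq_ratCast]
  have hc' : A.valuation (algebraMap ℚ (AlgebraicClosure ℚ) c₀) ^ p =
      A.valuation (G⁄(AlgebraicClosure ℚ)).Δ := by rw [hΔeq]; exact hc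
  have hΔ2' : A.valuation (G⁄(AlgebraicClosure ℚ)).Δ ≤
      A.valuation ((p : ℕ) : AlgebraicClosure ℚ) ^ 2 := by rw [hΔeq]; exact hΔ2
  have halg : Algebra.IsAlgebraic ℚ (AlgebraicClosure ℚ) := AlgebraicClosure.isAlgebraic ℚ
  -- equivariance of the variable change
  have hΦσ : ∀ (σ : GQ) (Q : ((W.map (Int.castRingHom ℚ)).toAffine⁄(AlgebraicClosure ℚ)).Point),
      hvc.addEquiv (σ • Q) = σ • hvc.addEquiv Q := by
    intro σ Q
    rcases Q with _ | ⟨X, Y, hXY⟩
    · rfl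
    · rw [WeierstrassCurve.Affine.Point.algEquiv_smul_def, Affine.Point.map_some,
        hvc.addEquiv_some, hvc.addEquiv_some,
        WeierstrassCurve.Affine.Point.algEquiv_smul_def, Affine.Point.map_some]
      apply Fermat.Agent.S05.H14.IsVarChange.some_congr
      · simp only [Fermat.Agent.S05.H14.fx, map_add, map_mul, map_pow, map_one,
          AlgEquiv.coe_toAlgHom, AlgEquiv.commutes]
      · simp only [Fermat.Agent.S05.H14.fy, map_add, map_mul, map_pow, map_one,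
          AlgEquiv.coe_toAlgHom, AlgEquiv.commutes]
  -- the kernel of reduction as a subgroup of `V`
  let T₀ : AddSubgroup (Tors (W.map (Int.castRingHom ℚ)) p) :=
    { carrier := {x | InE1 A (hvc.addEquiv x.1)}
      zero_mem' := by
        show InE1 A (hvc.addEquiv
          (0 : ((W.map (Int.castRingHom ℚ)).toAffine⁄(AlgebraicClosure ℚ)).Point))
        rw [_root_.map_zero]; trivial
      add_mem' := by
        intro x y hx hy
        show InE1 A (hvc.addEquiv (x.1 + y.1))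
        rw [map_add]
        exact stmt_NodeE1 (AlgebraicClosure ℚ) A _ hyp _ _ hx hy
      neg_mem' := by
        intro x hx
        show InE1 A (hvc.addEquiv (-x.1))
        rw [map_neg]
        exact node_inE1_neg hx }
  have hT₀ : ∀ x : Tors (W.map (Int.castRingHom ℚ)) p,
      x ∈ AddSubgroup.toZModSubmodule p T₀ ↔ InE1 A (hvc.addEquiv x.1) := by
    intro x
    rw [AddSubgroup.mem_toZModSubmodule]
    exact Iff.rfl
  -- torsion points
  have htors : ∀ x : Tors (W.map (Int.castRingHom ℚ)) p, p • hvc.addEquiv x.1 = 0 := by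
    intro x
    have hx : (p : ℤ) • (x : ((W.map (Int.castRingHom ℚ)).toAffine⁄(AlgebraicClosure ℚ)).Point)
        = 0 := by
      have := x.2
      rwa [Submodule.mem_torsionBy_iff] at this
    rw [← natCast_zsmul, ← map_zsmul, hx, _root_.map_zero]
  -- inertia acts trivially modulo `T`
  have hTσ : ∀ σ ∈ A.inertiaSubgroupIn ℚ, ∀ x : Tors (W.map (Int.castRingHom ℚ)) p,
      σ • x - x ∈ AddSubgroup.toZModSubmodule p T₀ := by
    intro σ hσ x
    rw [hT₀]
    show InE1 A (hvc.addEquiv (σ • x.1 - x.1))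
    rw [map_sub, hΦσ]
    obtain ⟨hval, hres⟩ := Fermat.Agent.S05.inertia A σ hσ
    exact node_core_E1 halg A G hyp p hp hp2 hpA c₀ hc' σ hval hres _ (htors x)
  -- `T ≠ ⊤`
  have hTne : AddSubgroup.toZModSubmodule p T₀ ≠ ⊤ := by
    intro htop
    obtain ⟨x, y, h, hpt, hx⟩ := stmt_NodeRoot (AlgebraicClosure ℚ) A p hp hp2 hpA
      (G⁄(AlgebraicClosure ℚ)) hyp
    obtain ⟨Q, hQdef⟩ : ∃ Q, Q = hvc.addEquiv.symm (Point.some x y h) := ⟨_, rfl⟩
    have hΦQ : hvc.addEquiv Q = Point.some x y h := by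
      rw [hQdef, AddEquiv.apply_symm_apply]
    have hQ : (p : ℤ) • Q = 0 := by
      apply hvc.addEquiv.injective
      rw [map_zsmul, hΦQ, natCast_zsmul, hpt, _root_.map_zero]
    have hQmem : Q ∈ Submodule.torsionBy ℤ
        ((W.map (Int.castRingHom ℚ)).toAffine⁄(AlgebraicClosure ℚ)).Point p :=
      (Submodule.mem_torsionBy_iff _ _).2 hQ
    have hmem : (⟨Q, hQmem⟩ : Tors (W.map (Int.castRingHom ℚ)) p) ∈
        AddSubgroup.toZModSubmodule p T₀ := by rw [htop]; trivial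
    rw [hT₀] at hmem
    have h2 : InE1 A (hvc.addEquiv Q) := hmem
    rw [hΦQ] at h2
    exact lt_asymm hx h2
  refine ⟨AddSubgroup.toZModSubmodule p T₀, hTne, ?_, ?_, ?_⟩
  · -- clause (1): the cyclotomic character on `T`
    intro σ hσ n hn x hx
    have hdet := Fermat.Agent.L.H52.det_eq_natCast (p := p)
      (Fermat.Agent.S39.isIntegralModelOf_map' W) hΔ σ n hn
    have h := Fermat.Agent.S44.C.H33.apply_eq_det_smul hdim (AddSubgroup.toZModSubmodule p T₀)
      hTne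
      (galoisRepModuleEnd (S := ℚ) (K := AlgebraicClosure ℚ)
        (W.map (Int.castRingHom ℚ)).toAffine p σ)
      (fun v => by rw [galoisRepModuleEnd_apply]; exact hTσ σ hσ v) hx
    rw [h, hdet]
  · -- clause (2)
    intro σ hσ x
    rw [galoisRepModuleEnd_apply]
    exact hTσ σ hσ x
  · -- clause (3): peu ramifié with `u = 1 + p`
    refine ⟨1 + (p : ℤ), ?_, ?_⟩
    · intro h
      have h1 : (p : ℤ) ∣ 1 := (dvd_add_left (dvd_refl (p : ℤ))).1 h
      have h2 : p ∣ 1 := by exact_mod_cast h1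
      exact hp.one_lt.ne' (Nat.dvd_one.1 h2)
    · intro σ hσ hζ hω x
      rw [galoisRepModuleEnd_apply]
      apply Subtype.ext
      show σ • (x : ((W.map (Int.castRingHom ℚ)).toAffine⁄(AlgebraicClosure ℚ)).Point) = x
      apply hvc.addEquiv.injective
      rw [hΦσ]
      obtain ⟨hval, hres⟩ := Fermat.Agent.S05.inertia A σ hσ
      exact node_core_peu halg A G hyp p hp hp2 hpA hΔ2' c₀ hc' σ hval hres hζ
        (fun z hz => hω z (by rw [hz]; push_cast; ring)) _ (htors x)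

end Fermat.Agent.S39.FinMult.H33

end
-- ==== END Fermat.Agent.S39.FinMult.H33_Final

-- ==== BEGIN Fermat.Agent.S39.H93_P3
section

set_option autoImplicit false
set_option synthInstance.maxHeartbeats 400000
set_option maxHeartbeats 1000000

noncomputable section

open WeierstrassCurve WeierstrassCurve.Affine WeierstrassCurve.Affine.Point
open scoped WeierstrassCurve.Affine

namespace Fermat.Agent.S39.H93

open Fermat.Agent.S44 Fermat.Agent.L Fermat.Agent.S39 Fermat.Agent.L.Pivot.H76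

/-- **The common core**, with Mazur's principle at `p` at the given level as a hypothesis. -/
theorem lower_of_removesP
    (W : WeierstrassCurve ℤ) (hΔ : W.Δ ≠ 0) {p : ℕ} (hp : p.Prime) (hp2 : p ≠ 2)
    (hirr : W.ModRepIsIrreducible p)
    {M : ℕ} [NeZero M] (hM : 0 < M) (hpM : p ∣ M)
    (hmod : W.IsResiduallyModularOfLevel p M)
    (A : ValuationSubring (AlgebraicClosure ℚ))
    (hrem : (jzModule M p).RemovesP M A)
    (hfin : IsFiniteAt p A (rhoTors W p)) :
    W.IsResiduallyModularOfLevel p (M / p) := by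
  have : Fact p.Prime := ⟨hp⟩
  obtain ⟨f, 𝔪, hf, h𝔪, hp𝔪, hcong⟩ := hmod
  have hWE := isIntegralModelOf_map' W
  have : (W.map (Int.castRingHom ℚ)).IsElliptic :=
    ⟨isUnit_iff_ne_zero.mpr (by
      rw [WeierstrassCurve.map_Δ]
      simpa using hΔ)⟩
  obtain ⟨hcont, hES, hsupp⟩ := stmt_TateModP p hp hp2 M
  set S : Finset ℕ := W.Δ.natAbs.primeFactors with hS
  have hgood : ∀ ℓ : ℕ, ℓ.Prime → ℓ ∉ S → W.IsGoodPrimeFor ℓ := fun ℓ hℓ h =>
    prime_not_mem_of_good hℓ hΔ h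
  obtain ⟨x, hx0, hx⟩ := hsupp f 𝔪 S (fun ℓ => W.apOfModel ℓ) hf h𝔪 hp𝔪
    (fun ℓ hℓ hℓS hℓN hℓp => hcong ℓ hℓ (hgood ℓ hℓ hℓS) hℓN hℓp)
  obtain ⟨ι, hinj, hequiv, hT⟩ := Fermat.Agent.L.H52.recovery p hp hp2 M hM (jzModule M p)
    hcont hES (W.map (Int.castRingHom ℚ)) W hWE hirr S hgood x hx0 hx
  have hNE : ∃ ℓ : ℕ, ℓ.Prime ∧ ℓ ∉ S ∧ ¬ ℓ ∣ M ∧ ℓ ≠ p ∧
      ((W.apOfModel ℓ : ℤ) : ZMod p) ≠ 1 + (ℓ : ZMod p) := by
    have h := Fermat.Agent.S41.H19.stmt_I3 (W.map (Int.castRingHom ℚ)) W hWE p M hp hM hirr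
    by_contra hcon
    apply h
    intro ℓ hℓ hℓW hℓN hℓp
    by_contra hne
    refine hcon ⟨ℓ, hℓ, ?_, hℓN, hℓp, hne⟩
    intro hmem
    rw [hS, Nat.mem_primeFactors] at hmem
    exact hℓW (Int.natCast_dvd.mpr hmem.2.1)
  have hdim : Module.finrank (ZMod p) (Tors (W.map (Int.castRingHom ℚ)) p) = 2 :=
    Fermat.Agent.L.H52.finrank_tors_main hΔ
  obtain ⟨g, 𝔪', hg, h𝔪', hp𝔪', hg_cong⟩ := hrem (Tors (W.map (Int.castRingHom ℚ)) p)
    (rhoTors W p) ι S (fun ℓ => W.apOfModel ℓ) hdim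
    (fun W' hW' => hirr.2 W' (fun σ x hx => hW' σ x hx))
    hfin hinj (fun σ v => hequiv σ v) hT hNE
  refine ⟨g, 𝔪', hg, h𝔪', hp𝔪', ?_⟩
  intro ℓ hℓ hℓW hℓM hℓp
  have hℓN : ¬ ℓ ∣ M := by
    intro hdvd
    have hN : M = p * (M / p) := (Nat.mul_div_cancel' hpM).symm
    rw [hN] at hdvd
    rcases (Nat.Prime.dvd_mul hℓ).mp hdvd with h | h
    · exact hℓp ((Nat.prime_dvd_prime_iff_eq hℓ hp).mp h)
    · exact hℓM h
  have hℓS : ℓ ∉ S := by
    intro hmem
    rw [hS, Nat.mem_primeFactors] at hmem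
    exact hℓW (Int.natCast_dvd.mpr hmem.2.1)
  exact hg_cong ℓ hℓ hℓS hℓN hℓp

/-- **S39 at a level at which Mazur's principle at `p` holds.** -/
theorem lower_at (hFM : Stmt_FinMult) (hON : Stmt_OldNewPD) (hFG : Stmt_FinGoodD)
    (W : WeierstrassCurve ℤ) (hΔ : W.Δ ≠ 0) {p : ℕ} (hp : p.Prime) (hp2 : p ≠ 2)
    (hsemi : (p : ℤ) ∣ W.Δ → ¬ (p : ℤ) ∣ W.c₄)
    (hirr : W.ModRepIsIrreducible p)
    (hfin : (W.map (Int.castRingHom ℚ)).IsPeuRamifieeAt p p)
    {M : ℕ} [NeZero M] (hM : 0 < M) (hpM : p ∣ M) (hp2M : ¬ p ^ 2 ∣ M)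
    (hrem : ∀ A : ValuationSubring (AlgebraicClosure ℚ), A.LiesOverPrime p →
      (jzModule M p).RemovesP M A)
    (hmod : W.IsResiduallyModularOfLevel p M) :
    W.IsResiduallyModularOfLevel p (M / p) := by
  obtain ⟨A, hAp⟩ := stmt_PlaceOver p hp
  by_cases hbad : (p : ℤ) ∣ W.Δ
  · exact lower_of_removesP W hΔ hp hp2 hirr hM hpM hmod A (hrem A hAp)
      (hFM W hΔ p hp hp2 hbad (hsemi hbad) hfin A hAp)
  · rcases hON W hΔ p hp hp2 hbad hirr M hM hpM hp2M hmod with h | h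
    · exact h
    · exact lower_of_removesP W hΔ hp hp2 hirr hM hpM hmod A (hrem A hAp)
        (hFG W hΔ p hp hp2 hbad hirr A hAp (h A hAp))

/-- **(UNR-OUT)**: a curve with `E[p]` irreducible which is residually modular of level `M` has
`E[p]` unramified at every prime `q ∤ M p`.  [The residual representation of the eigenform (S29)
is unramified outside `M p` and has the Frobenius traces of `E[p]` at almost all primes:
Frobenius density and Brauer-Nesbitt (`E[p]` is absolutely irreducible: it is odd).] -/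
def Stmt_UnrOut : Prop :=
  ∀ (p : ℕ), p.Prime → p ≠ 2 → ∀ (W : WeierstrassCurve ℤ), W.Δ ≠ 0 →
    W.ModRepIsIrreducible p → ∀ (M : ℕ), 0 < M → W.IsResiduallyModularOfLevel p M →
    ∀ (q : ℕ), q.Prime → q ≠ p → ¬ q ∣ M → UnrW W p q

/-- **S39 for a semistable curve at a squarefree level** (every odd `p`). -/
def Stmt_S39sf : Prop :=
  ∀ (p : ℕ), p.Prime → p ≠ 2 → ∀ (W : WeierstrassCurve ℤ), W.Δ ≠ 0 → W.IsSemistableModel →
    W.ModRepIsIrreducible p → (W.map (Int.castRingHom ℚ)).IsPeuRamifieeAt p p →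
    ∀ (M : ℕ), Squarefree M → p ∣ M → W.IsResiduallyModularOfLevel p M →
    W.IsResiduallyModularOfLevel p (M / p)

/-- Mazur's principle at `p` (module form) at the tame levels, from BAD_p. -/
theorem removesP_tame (hB : Fermat.Agent.BADP3.Stmt_BadP2T) {p : ℕ} (hp : p.Prime)
    (hp2 : p ≠ 2) {M : ℕ} [NeZero M] (hpM : p ∣ M) (hp2M : ¬ p ^ 2 ∣ M)
    (ht : 5 ≤ p ∨ 2 ∣ M) (A : ValuationSubring (AlgebraicClosure ℚ))
    (hA : A.LiesOverPrime p) : (jzModule M p).RemovesP M A := by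
  by_cases h5 : 5 ≤ p
  · exact removesP_ge5 p hp h5 M hpM hp2M A hA
  · have h2M : 2 ∣ M := ht.resolve_left h5
    have hp3 : p = 3 := by
      rcases Fermat.Agent.S38.H37.eq_three_or_five_le hp hp2 with h | h
      · exact h
      · exact absurd h h5
    refine Fermat.Agent.BADP3.removesPT_of hB p hp hp2 M hpM hp2M ?_ A hA
    refine Or.inr (Or.inl ⟨hp3, ?_⟩)
    subst hp3
    obtain ⟨k, hk⟩ := hpM
    have h2k : 2 ∣ k := by
      have h1 : 2 ∣ 3 * k := hk ▸ h2M
      exact (Nat.Coprime.dvd_mul_left (by norm_num : Nat.Coprime 2 3)).1 h1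
    rw [hk, Nat.mul_div_cancel_left k (by norm_num : 0 < 3)]
    exact h2k

/-- **S39 for semistable curves at squarefree levels**, from the leaves. -/
theorem s39sf_of (hB : Fermat.Agent.BADP3.Stmt_BadP2T)
    (hNE : Fermat.Agent.S38.H37.Stmt_NonExcW) (hU : Stmt_UnrOut)
    (hFM : Stmt_FinMult) (hON : Stmt_OldNewPD) (hFG : Stmt_FinGoodD) : Stmt_S39sf := by
  intro p hp hp2 W hΔ hW hirr hfin M hsq hpM hmod
  have hMpos : 0 < M := Nat.pos_of_ne_zero hsq.ne_zero
  have : NeZero M := ⟨hsq.ne_zero⟩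
  have hp2M : ¬ p ^ 2 ∣ M := fun h => hp.not_isUnit (hsq p (by rwa [pow_two] at h))
  have hsemi : (p : ℤ) ∣ W.Δ → ¬ (p : ℤ) ∣ W.c₄ := fun h => hW p hp h
  by_cases ht : 5 ≤ p ∨ 2 ∣ M
  · -- the level is tame
    exact lower_at hFM hON hFG W hΔ hp hp2 hsemi hirr hfin hMpos hpM hp2M
      (fun A hA => removesP_tame hB hp hp2 hpM hp2M ht A hA) hmod
  · -- `p = 3`, the level is odd
    push Not at ht
    obtain ⟨h5, h2M⟩ := ht
    have hp3 : p = 3 := by
      rcases Fermat.Agent.S38.H37.eq_three_or_five_le hp hp2 with h | h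
      · exact h
      · omega
    subst hp3
    obtain ⟨k, rfl⟩ := hpM
    have h2k : ¬ 2 ∣ k := fun h => h2M (h.mul_left 3)
    have hk0 : k ≠ 0 := by
      rintro rfl
      exact hsq.ne_zero rfl
    have hksq : Squarefree k := hsq.squarefree_of_dvd (Dvd.intro_left 3 rfl)
    -- the level `2 M`
    have hsq2 : Squarefree (2 * (3 * k)) := by
      rw [Nat.squarefree_mul_iff]
      refine ⟨?_, Nat.prime_two.squarefree, hsq⟩
      exact (Nat.Prime.coprime_iff_not_dvd Nat.prime_two).2 h2M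
    have hmod2 : W.IsResiduallyModularOfLevel 3 (2 * (3 * k)) :=
      Fermat.Agent.S38.H75.raise_level W 3 hsq2 (Dvd.intro_left 2 rfl) hmod
    have : NeZero (2 * (3 * k)) := ⟨hsq2.ne_zero⟩
    have h3 : W.IsResiduallyModularOfLevel 3 (2 * (3 * k) / 3) :=
      lower_at hFM hON hFG W hΔ hp hp2 hsemi hirr hfin (Nat.pos_of_ne_zero hsq2.ne_zero)
        ⟨2 * k, by ring⟩
        (fun h => hp.not_isUnit (hsq2 3 (by rwa [pow_two] at h)))
        (fun A hA => removesP_tame hB hp hp2 ⟨2 * k, by ring⟩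
          (fun h => hp.not_isUnit (hsq2 3 (by rwa [pow_two] at h)))
          (Or.inr (Dvd.intro _ rfl)) A hA) hmod2
    have e1 : 2 * (3 * k) / 3 = 2 * k := by
      rw [show 2 * (3 * k) = 3 * (2 * k) by ring, Nat.mul_div_cancel_left _ (by norm_num : 0 < 3)]
    rw [e1] at h3
    -- remove `2`
    have hsq3 : Squarefree (2 * k) := hsq2.squarefree_of_dvd ⟨3, by ring⟩
    have hunr : UnrW W 3 2 :=
      hU 3 hp hp2 W hΔ hirr (3 * k) hMpos hmod 2 Nat.prime_two (by norm_num) h2M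
    have hnexc : ¬ IsExcW W 3 2 := by
      rintro ⟨h, -⟩
      have : (3 : ℕ) ≤ 2 - 1 := Nat.le_of_dvd (by norm_num) h
      omega
    obtain ⟨f, 𝔪, hf, h𝔪, hp𝔪, hcong⟩ := h3
    have hLC := hNE 3 hp hp2 W hΔ hW hirr (2 * k) 2 hsq3 Nat.prime_two (by norm_num)
      (Dvd.intro _ rfl) hunr hnexc f 𝔪 hf h𝔪 hp𝔪 hcong
    have h4 := Fermat.Agent.S38.isResiduallyModular_of_lowerConcl
      Fermat.Agent.S38.H49.stmt_Complete 3 hp W hΔ (2 * k) 2 hsq3 Nat.prime_two
      (Dvd.intro _ rfl) hLC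
    rw [Nat.mul_div_cancel_left k (by norm_num : 0 < 2)] at h4
    rw [Nat.mul_div_cancel_left k (by norm_num : 0 < 3)]
    exact h4

/-- `Stmt_S39sf` gives the form of S39 used by S59-LL. -/
theorem s39ss_of_sf (h : Stmt_S39sf) : Fermat.Agent.S59.LL.H40.Stmt_S39ss := by
  intro p hpF hp2 W hΔ hW hcard₁ hker hirr hfin M hM hsq hpM hram hmod
  exact h p hpF.out hp2 W hΔ hW hirr hfin M hsq hpM hmod

end Fermat.Agent.S39.H93

end
end
-- ==== END Fermat.Agent.S39.H93_P3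

-- ==== BEGIN Fermat.Agent.S41.H19_IharaFinal
section

/-!
# S41, Ihara's lemma (Kummer–Hecke route of helper39): final assembly (helper19)

`stmt_IHARA : Stmt_IHARA`.

* `N = 1`: `SL(2,ℤ)` is generated by `S` (elliptic) and `T` (parabolic), so every cuspidal hom is `0`.
* `N ≥ 2`: `ℓ₀` with `a_ℓ₀ ≠ ℓ₀ + 1` from `stmt_I3` (non-Eisenstein); leaf A (`exists_period_fns`)
  gives `F_i = Pfn x_i + κ_i`; leaf B gives the invariance of `F₁` under `r ↦ q² r` and under
  translations by `ℤ[1/q]`; for `r ∈ X` with `r.den = q^e m`, `k = φ(m)`, leaf D gives an auxiliary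
  prime `ℓ ≡ 1 mod m (2k) p` with `a_ℓ ≠ 2` and `q^((ℓ-1)/p) ≠ 1 mod ℓ`; then `F₁ + κ'` is an exact
  eigenfunction of `TT ℓ` and leaf C at `r` and at `0` gives `F₁ r = F₁ 0`, i.e. `Pfn x₁ r = 0`.
-/

set_option autoImplicit false

open scoped MatrixGroups
open CongruenceSubgroup Matrix
open WeierstrassCurve WeierstrassCurve.Affine WeierstrassCurve.Affine.Point

namespace Fermat.Agent.S41.Ihara

open Fermat.Agent.S41 Fermat.Agent.S41.H19

/-! ### Level one -/

section LevelOne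

variable {A : Type*} [AddCommGroup A]

lemma mem_Gamma0_one (g : SL(2, ℤ)) : g ∈ Gamma0 1 := by
  rw [Gamma0_mem]
  exact Subsingleton.elim _ _

theorem eq_zero_of_level_one (x : Additive (Gamma0 1) →+ A)
    (hx : IsCuspidalHom (Gamma0 1) x) : x = 0 := by
  let ι : SL(2, ℤ) →* Gamma0 1 :=
    { toFun := fun g => ⟨g, mem_Gamma0_one g⟩
      map_one' := rfl
      map_mul' := fun _ _ => rfl }
  let f : SL(2, ℤ) →* Multiplicative A := (AddMonoidHom.toMultiplicativeRight x).comp ι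
  have hf : ∀ g : SL(2, ℤ), f g = Multiplicative.ofAdd (x (Additive.ofMul (ι g))) := fun _ => rfl
  have hS : ModularGroup.S ∈ f.ker := by
    rw [MonoidHom.mem_ker, hf, hx (ι ModularGroup.S) (by
      show ((ModularGroup.S : SL(2, ℤ)) : Matrix (Fin 2) (Fin 2) ℤ).trace ^ 2 ≤ 4
      rw [Matrix.trace_fin_two]
      simp [ModularGroup.S])]
    rfl
  have hT : ModularGroup.T ∈ f.ker := by
    rw [MonoidHom.mem_ker, hf, hx (ι ModularGroup.T) (by
      show ((ModularGroup.T : SL(2, ℤ)) : Matrix (Fin 2) (Fin 2) ℤ).trace ^ 2 ≤ 4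
      rw [Matrix.trace_fin_two]
      simp [ModularGroup.T])]
    rfl
  have hle : Subgroup.closure {ModularGroup.S, ModularGroup.T} ≤ f.ker := by
    rw [Subgroup.closure_le]
    intro g hg
    rcases hg with rfl | hg
    · exact hS
    · rw [Set.mem_singleton_iff] at hg
      rw [hg]
      exact hT
  rw [SpecialLinearGroup.SL2Z_generators] at hle
  apply AddMonoidHom.ext
  intro g
  have h1 : (Additive.toMul g : Gamma0 1).1 ∈ f.ker := hle (Subgroup.mem_top _)
  rw [MonoidHom.mem_ker, hf] at h1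
  exact h1

end LevelOne

/-! ### Arithmetic of the auxiliary prime -/

section Arith

/-- `p ∣ ord_ℓ(q^(2k))` when `2 k p ∣ ℓ - 1` and `q^((ℓ-1)/p) ≠ 1 mod ℓ`. -/
lemma dvd_orderOf_of_pow_ne_one {p q ℓ k : ℕ} (hp : p.Prime) (hℓ : ℓ.Prime) (hqℓ : ¬ ℓ ∣ q)
    (hdvd : 2 * k * p ∣ ℓ - 1) (hne : (q : ZMod ℓ) ^ ((ℓ - 1) / p) ≠ 1) :
    p ∣ orderOf ((q : ZMod ℓ) ^ (2 * k)) := by
  have : Fact ℓ.Prime := ⟨hℓ⟩
  obtain ⟨t, ht⟩ := hdvd
  have hq0 : (q : ZMod ℓ) ≠ 0 := by
    intro h0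
    exact hqℓ ((ZMod.natCast_eq_zero_iff q ℓ).mp h0)
  have hdiv : (ℓ - 1) / p = 2 * k * t := by
    rw [ht, show 2 * k * p * t = p * (2 * k * t) by ring, Nat.mul_div_cancel_left _ hp.pos]
  have h1 : ((q : ZMod ℓ) ^ (2 * k)) ^ t ≠ 1 := by
    rw [← pow_mul, ← hdiv]
    exact hne
  have h2 : ((q : ZMod ℓ) ^ (2 * k)) ^ (p * t) = 1 := by
    rw [← pow_mul, show 2 * k * (p * t) = ℓ - 1 by rw [ht]; ring]
    exact ZMod.pow_card_sub_one_eq_one hq0
  have h3 : orderOf ((q : ZMod ℓ) ^ (2 * k)) ∣ p * t := orderOf_dvd_of_pow_eq_one h2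
  by_contra hnd
  have hcop : (orderOf ((q : ZMod ℓ) ^ (2 * k))).Coprime p :=
    ((Nat.Prime.coprime_iff_not_dvd hp).mpr hnd).symm
  exact h1 (orderOf_dvd_iff_pow_eq_one.mp (hcop.dvd_of_dvd_mul_left h3))

/-- The prime-to-`q` part `m` of the denominator of `r`. -/
lemma exists_prime_to_q_part {q : ℕ} (hq : q.Prime) (r : ℚ) :
    ∃ m : ℕ, 0 < m ∧ InZq q ((m : ℚ) * r) ∧ m.Coprime q := by
  obtain ⟨e, m, hm, hden⟩ := Nat.exists_eq_pow_mul_and_not_dvd r.den_nz q hq.ne_one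
  have hm0 : 0 < m := by
    rcases Nat.eq_zero_or_pos m with h0 | h
    · exfalso
      rw [h0, mul_zero] at hden
      exact r.den_nz hden
    · exact h
  refine ⟨m, hm0, ⟨e, ?_⟩, ((Nat.Prime.coprime_iff_not_dvd hq).mpr hm).symm⟩
  have h1 : ((q : ℚ) ^ e * (m : ℚ)) = (r.den : ℚ) := by exact_mod_cast hden.symm
  have h2 : (q : ℚ) ^ e * ((m : ℚ) * r) = (r.num : ℚ) := by
    rw [← mul_assoc, h1, mul_comm, Rat.mul_den_eq_num]
  rw [h2]
  simp

lemma pow_two_mul_totient_mod {q m : ℕ} (h : m.Coprime q) :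
    q ^ (2 * m.totient) % m = 1 % m := by
  have h1 : q ^ m.totient ≡ 1 [MOD m] := Nat.ModEq.pow_totient h.symm
  have h2 : (q ^ m.totient) ^ 2 ≡ 1 ^ 2 [MOD m] := h1.pow 2
  rw [one_pow, ← pow_mul, mul_comm] at h2
  exact h2

end Arith

/-! ### The assembly -/

theorem stmt_IHARA_of (hB : Stmt_IhB) (hC : Stmt_IhC) (hD : Stmt_IhD) (hI3 : Stmt_I3) :
    Stmt_IHARA := by
  intro E _ W hW p N q hp hp2 hN hq hqN hqp hirr x₁ x₂ hx₁ hx₂ heig hrel
  have : Fact p.Prime := ⟨hp⟩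
  rcases Nat.lt_or_ge N 2 with hN1 | hN2
  · have h1 : N = 1 := by omega
    subst h1
    exact eq_zero_of_level_one x₁ hx₁
  -- the non-Eisenstein prime `ℓ₀`
  have h3 := hI3 E W hW p (N * q) hp (Nat.mul_pos hN hq.pos) hirr
  push Not at h3
  obtain ⟨ℓ₀, hℓ₀, hgood₀, hℓ₀M, hℓ₀p, ha₀⟩ := h3
  obtain ⟨a₀, ha₀def⟩ : ∃ a₀ : ZMod p, a₀ = ((W.apOfModel ℓ₀ : ℤ) : ZMod p) := ⟨_, rfl⟩
  rw [← ha₀def] at ha₀
  have ha₀' : a₀ ≠ (ℓ₀ : ZMod p) + 1 := by rwa [add_comm]
  have hℓ₀N : ¬ ℓ₀ ∣ N := fun h => hℓ₀M (dvd_mul_of_dvd_left h q)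
  have hℓ₀q : ℓ₀ ≠ q := fun h => hℓ₀M (h ▸ dvd_mul_left _ _)
  have h1 : Tcoh N (ZMod p) ℓ₀ x₁ = a₀ • x₁ := by
    rw [ha₀def]
    exact heig ℓ₀ hℓ₀ hgood₀ hℓ₀M hℓ₀p
  obtain ⟨κ₁, κ₂, hP₁, hP₂, hE₁, hE₂, hD0⟩ :=
    exists_period_fns hp hN2 hq hqN hqp hℓ₀ hℓ₀N hℓ₀q a₀ ha₀' x₁ x₂ hx₁ hx₂ h1 hrel
  -- leaf B
  let es : EigSys p N q :=
    { P := fun ℓ => ℓ = ℓ₀
      a := fun _ => a₀
      prime := fun ℓ h => h ▸ hℓ₀
      not_dvd := fun ℓ h => h ▸ hℓ₀M
      ne_p := fun ℓ h => h ▸ hℓ₀p }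
  have hes₁ : IsEigFn es (fun s => Pfn x₁ s + κ₁) := by
    intro ℓ hℓ r hr
    have hℓ' : ℓ = ℓ₀ := hℓ
    subst hℓ'
    exact hE₁ r hr
  have hes₂ : IsEigFn es (fun s => Pfn x₂ s + κ₂) := by
    intro ℓ hℓ r hr
    have hℓ' : ℓ = ℓ₀ := hℓ
    subst hℓ'
    exact hE₂ r hr
  obtain ⟨hinv, hper⟩ := hB p N q hp hp2 hN2 hq hqN hqp es ℓ₀ rfl ha₀' x₁ x₂
    (fun s => Pfn x₁ s + κ₁) (fun s => Pfn x₂ s + κ₂) hx₁ hx₂ hP₁ hP₂ hes₁ hes₂ hD0
  -- the key claim
  have key : ∀ r, InX N r → Pfn x₁ r = Pfn x₁ 0 := by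
    intro r hr
    obtain ⟨m, hm0, hmr, hmq⟩ := exists_prime_to_q_part hq r
    have hk0 : 0 < m.totient := Nat.totient_pos.mpr hm0
    have hM0 : 0 < m * (2 * m.totient) * p := by
      have := hp.pos
      positivity
    obtain ⟨ℓ, hℓ, hℓS, hgood, hℓM, hqℓ, haℓ⟩ := hD E W hW p q hp hp2 hq hqp hirr
      (m * (2 * m.totient) * p) hM0 (dvd_mul_left _ _) (N * q * p).primeFactors
    have hNqp0 : N * q * p ≠ 0 := by
      have := hp.pos
      have := hq.pos
      positivity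
    have hℓndvd : ¬ ℓ ∣ N * q * p := fun h => hℓS (Nat.mem_primeFactors.mpr ⟨hℓ, h, hNqp0⟩)
    have hℓNq : ¬ ℓ ∣ N * q := fun h => hℓndvd (dvd_mul_of_dvd_left h p)
    have hℓN : ¬ ℓ ∣ N := fun h => hℓNq (dvd_mul_of_dvd_left h q)
    have hℓq : ¬ ℓ ∣ q := fun h => hℓNq (dvd_mul_of_dvd_right h N)
    have hℓp : ℓ ≠ p := fun h => hℓndvd (h ▸ dvd_mul_left _ _)
    -- `M ∣ ℓ - 1`
    have hMdvd : m * (2 * m.totient) * p ∣ ℓ - 1 :=
      (Nat.modEq_iff_dvd' hℓ.one_le).mp (Nat.ModEq.symm hℓM)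
    have hℓm : ℓ % m = 1 % m :=
      Nat.ModEq.of_dvd (Dvd.intro _ (mul_assoc m (2 * m.totient) p).symm) hℓM
    have h2kp : 2 * m.totient * p ∣ ℓ - 1 :=
      dvd_trans ⟨m, by ring⟩ hMdvd
    have hpℓ : p ∣ ℓ - 1 := dvd_trans (dvd_mul_left _ _) hMdvd
    have hℓ1 : (ℓ : ZMod p) = 1 := by
      have h0 : ((ℓ - 1 : ℕ) : ZMod p) = 0 := (ZMod.natCast_eq_zero_iff _ _).mpr hpℓ
      rw [Nat.cast_sub hℓ.one_le, Nat.cast_one, sub_eq_zero] at h0
      exact h0
    have hord : p ∣ orderOf ((q : ZMod ℓ) ^ (2 * m.totient)) :=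
      dvd_orderOf_of_pow_ne_one hp hℓ hℓq h2kp hqℓ
    obtain ⟨a, hadef⟩ : ∃ a : ZMod p, a = ((W.apOfModel ℓ : ℤ) : ZMod p) := ⟨_, rfl⟩
    rw [← hadef] at haℓ
    have ha : a ≠ (ℓ : ZMod p) + 1 := by
      rw [hℓ1]
      intro h
      apply haℓ
      rw [h]
      norm_num
    have hTa : Tcoh N (ZMod p) ℓ x₁ = a • x₁ := by
      rw [hadef]
      exact heig ℓ hℓ hgood hℓNq hℓp
    -- `F₁` is an eigenfunction of `TT ℓ` up to a constant
    have hTT : ∀ s, InX N s → TT ℓ (fun s => Pfn x₁ s + κ₁) s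
        = a * (Pfn x₁ s + κ₁) + (TT ℓ (Pfn x₁) 0 + (((ℓ : ZMod p) + 1) - a) * κ₁) := by
      intro s hs
      rw [TT_add_const, TT_Pfn hN2 hℓ hℓN x₁ hx₁ a hTa hs, smul_eq_mul]
      ring
    obtain ⟨κ', hκ'⟩ := exists_const_eig (p := p) ℓ a
      (TT ℓ (Pfn x₁) 0 + (((ℓ : ZMod p) + 1) - a) * κ₁) ha
    have hE' : ∀ s, InX N s → TT ℓ (fun s => (Pfn x₁ s + κ₁) + κ') s
        = a * ((Pfn x₁ s + κ₁) + κ') :=
      fun s hs => hκ' (fun s => Pfn x₁ s + κ₁) s (hTT s hs)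
    have hinv' : ∀ s, InX N s → (fun s => (Pfn x₁ s + κ₁) + κ') ((q : ℚ) ^ 2 * s)
        = (fun s => (Pfn x₁ s + κ₁) + κ') s := by
      intro s hs
      have := hinv s hs
      simp only at this ⊢
      rw [this]
    have hper' : ∀ s t, InX N s → InZq q t → (fun s => (Pfn x₁ s + κ₁) + κ') (s + t)
        = (fun s => (Pfn x₁ s + κ₁) + κ') s := by
      intro s t hs ht
      have := hper s t hs ht
      simp only at this ⊢
      rw [this]
    have hmod := pow_two_mul_totient_mod hmq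
    have hCr := hC p N q hp hN2 hq hqN hqp (fun s => (Pfn x₁ s + κ₁) + κ') hinv' hper' ℓ a hℓ hℓNq
      hℓp hE' r m m.totient hr hm0 hmr hmq hmod hℓm hord
    have hC0 := hC p N q hp hN2 hq hqN hqp (fun s => (Pfn x₁ s + κ₁) + κ') hinv' hper' ℓ a hℓ hℓNq
      hℓp hE' 0 m m.totient (inX_zero N) hm0 ⟨0, by simp⟩ hmq hmod hℓm hord
    have ha2 : a - 2 ≠ 0 := sub_ne_zero.mpr haℓ
    have e1 := (mul_eq_zero.mp hCr).resolve_left ha2
    have e2 := (mul_eq_zero.mp hC0).resolve_left ha2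
    linear_combination e1 - e2
  -- conclusion
  apply AddMonoidHom.ext
  intro g
  have h5 := Pfn_mob_zero hN2 x₁ hx₁ (Additive.toMul g)
  rw [key _ (inX_mob (Additive.toMul g) (inX_zero N)), Pfn_zero hN2 x₁ hx₁] at h5
  exact h5.symm

/-- **Ihara's lemma** (with the non-Eisenstein condition), unconditional. -/
theorem stmt_IHARA : Stmt_IHARA :=
  stmt_IHARA_of Fermat.Agent.S41.H37.stmt_IhB Fermat.Agent.S41.H37.stmt_IhC
    Fermat.Agent.S41.H61.stmt_IhD Fermat.Agent.S41.H19.stmt_I3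

end Fermat.Agent.S41.Ihara

end
-- ==== END Fermat.Agent.S41.H19_IharaFinal

-- ==== BEGIN Fermat.Agent.S41.H77_B2
section

/-!
# S41, package P, leaf B2 (helper77): a normalised primitive of the cup product exists

Given potential triples `P`, `Q` of `φ`, `ψ`, the universal property of `PSL(2,ℤ) = C₂ * C₃` with
values in `Perm (X × Heis k)` produces a homomorphism `ρ = (φ, ψ, -b) : H → Heis k`, i.e. a
primitive `b` of `φ ∪ ψ`, together with a left-`τ`-invariant `Heis`-valued potential, so that `b`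
vanishes on the conjugates of the powers of `τ = T S⁻¹`.
-/

set_option autoImplicit false

namespace Fermat.Agent.S41.H77

open Fermat.Agent.S41.H94

/-- **B2**. -/
theorem stmt_B2 : Stmt_B2 := by
  intro G _ H _ k _ S T j hP hM hz φ ψ P Q
  -- the Heisenberg-valued functions on `X`
  set 𝒜 : G ⧸ j.range → Heis k := fun x => ⟨P.a x, Q.a x, 0⟩ with h𝒜
  set 𝒰 : G ⧸ j.range → Heis k := fun x => ⟨P.u x, Q.u x, 0⟩ with h𝒰
  obtain ⟨Ψ, hΨ1, hΨS, hΨτ, hΨj⟩ := exists_cocyclePot S T j hP hM hz (Heis k)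
    (fun x => (𝒰 (S • x))⁻¹ * 𝒰 x) (fun x => (𝒜 ((T * S⁻¹) • x))⁻¹ * 𝒜 x)
    (by
      intro x
      show (𝒰 (S • S • x))⁻¹ * 𝒰 (S • x) * ((𝒰 (S • x))⁻¹ * 𝒰 x) = 1
      rw [smul_smul_S hM hz]
      group)
    (by
      intro x
      show (𝒜 ((T * S⁻¹) • (T * S⁻¹) • (T * S⁻¹) • x))⁻¹ * 𝒜 ((T * S⁻¹) • (T * S⁻¹) • x)
        * ((𝒜 ((T * S⁻¹) • (T * S⁻¹) • x))⁻¹ * 𝒜 ((T * S⁻¹) • x))
        * ((𝒜 ((T * S⁻¹) • x))⁻¹ * 𝒜 x) = 1
      rw [smul_smul_smul_tau hM]
      group)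
  have hmk : ∀ (g x : G), ((g * x : G) : G ⧸ j.range) = g • (x : G ⧸ j.range) := fun g x => rfl
  -- increments of the potentials `Φ_T`
  have incrS : ∀ {χ : Additive H →+ k} (R : PotTriple j S T χ) (g : G),
      R.ΦT (S * g) - R.ΦT g = - R.u (S • (g : G ⧸ j.range)) + R.u (g : G ⧸ j.range) := by
    intro χ R g
    have h1 := R.a_incr hM hz g
    have h2 := R.manin hM hz (g : G ⧸ j.range)
    linear_combination h1 - h2
  -- the abelian part of `Ψ`
  have hab : ∀ g : G, (Ψ g).p - P.ΦT g = - P.ΦT 1 ∧ (Ψ g).q - Q.ΦT g = - Q.ΦT 1 := by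
    have hSinv : ∀ x : G, ((Ψ (S * x)).p - P.ΦT (S * x), (Ψ (S * x)).q - Q.ΦT (S * x))
        = ((Ψ x).p - P.ΦT x, (Ψ x).q - Q.ΦT x) := by
      intro x
      have e1 := incrS P x
      have e2 := incrS Q x
      rw [hΨS]
      simp only [Heis.mul_p, Heis.mul_q, Heis.inv_p, Heis.inv_q, h𝒰]
      refine Prod.ext ?_ ?_
      · show -P.u (S • (x : G ⧸ j.range)) + P.u (x : G ⧸ j.range) + (Ψ x).p - P.ΦT (S * x)
          = (Ψ x).p - P.ΦT x
        linear_combination -e1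
      · show -Q.u (S • (x : G ⧸ j.range)) + Q.u (x : G ⧸ j.range) + (Ψ x).q - Q.ΦT (S * x)
          = (Ψ x).q - Q.ΦT x
        linear_combination -e2
    have hTinv : ∀ x : G, ((Ψ (T * x)).p - P.ΦT (T * x), (Ψ (T * x)).q - Q.ΦT (T * x))
        = ((Ψ x).p - P.ΦT x, (Ψ x).q - Q.ΦT x) := by
      intro x
      have h1 : T * x = T * S⁻¹ * (S * x) := by group
      have e1 := P.manin hM hz (S • (x : G ⧸ j.range))
      have e2 := Q.manin hM hz (S • (x : G ⧸ j.range))
      rw [smul_smul_S hM hz] at e1 e2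
      rw [P.invT, Q.invT, h1, hΨτ, hΨS, hmk]
      simp only [Heis.mul_p, Heis.mul_q, Heis.inv_p, Heis.inv_q, h𝒰, h𝒜]
      refine Prod.ext ?_ ?_
      · show -P.a ((T * S⁻¹) • S • (x : G ⧸ j.range)) + P.a (S • (x : G ⧸ j.range))
          + (-P.u (S • (x : G ⧸ j.range)) + P.u (x : G ⧸ j.range) + (Ψ x).p) - P.ΦT x
          = (Ψ x).p - P.ΦT x
        linear_combination -e1
      · show -Q.a ((T * S⁻¹) • S • (x : G ⧸ j.range)) + Q.a (S • (x : G ⧸ j.range))
          + (-Q.u (S • (x : G ⧸ j.range)) + Q.u (x : G ⧸ j.range) + (Ψ x).q) - Q.ΦT x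
          = (Ψ x).q - Q.ΦT x
        linear_combination -e2
    intro g
    have hc := const_of_leftInv hM
      (fun x : G => ((Ψ x).p - P.ΦT x, (Ψ x).q - Q.ΦT x)) hSinv hTinv g 1
    simp only [mul_one, hΨ1, Heis.one_p, Heis.one_q, zero_sub] at hc
    exact ⟨congrArg Prod.fst hc, congrArg Prod.snd hc⟩
  have hρp : ∀ h : H, (Ψ (j h)).p = φ (Additive.ofMul h) := by
    intro h
    have h1 := (hab (j h)).1
    have h2 := P.potT 1 h
    rw [one_mul] at h2
    linear_combination h1 + h2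
  have hρq : ∀ h : H, (Ψ (j h)).q = ψ (Additive.ofMul h) := by
    intro h
    have h1 := (hab (j h)).2
    have h2 := Q.potT 1 h
    rw [one_mul] at h2
    linear_combination h1 + h2
  refine ⟨fun h => - (Ψ (j h)).r, ?_, ?_⟩
  · intro h h'
    show - (Ψ (j (h * h'))).r = - (Ψ (j h)).r + - (Ψ (j h')).r
      - φ (Additive.ofMul h) * ψ (Additive.ofMul h')
    rw [map_mul, hΨj, Heis.mul_r, hρp, hρq]
    ring
  · -- normalisation on the conjugates of powers of `τ`
    set Ψτ : G → Heis k := fun g => 𝒜 (g : G ⧸ j.range) * Ψ g with hΨτdef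
    have hinv : ∀ g : G, Ψτ (T * S⁻¹ * g) = Ψτ g := by
      intro g
      simp only [hΨτdef]
      rw [hΨτ, hmk]
      group
    have hpow : ∀ (m : ℤ) (y : G), Ψτ ((T * S⁻¹) ^ m * y) = Ψτ y := by
      intro m
      induction m using Int.induction_on with
      | zero => intro y; simp
      | succ i ih =>
        intro y
        rw [zpow_add_one, mul_assoc, ih, hinv]
      | pred i ih =>
        intro y
        rw [zpow_sub_one, mul_assoc, ih]
        have := hinv ((T * S⁻¹)⁻¹ * y)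
        rw [mul_inv_cancel_left] at this
        exact this.symm
    have hpotτ : ∀ (x : G) (h : H), Ψτ (x * j h) = Ψτ x * Ψ (j h) := by
      intro x h
      simp only [hΨτdef]
      have hq : ((x * j h : G) : G ⧸ j.range) = (x : G ⧸ j.range) := by
        rw [QuotientGroup.eq]
        simp
      rw [hq, hΨj, mul_assoc]
    intro h x n hh
    have h1 := hpotτ x h
    have h2 : x * j h = (T * S⁻¹) ^ n * x := by rw [hh]; group
    rw [h2, hpow] at h1
    have h3 : Ψ (j h) = 1 := by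
      have := mul_left_cancel (a := Ψτ x) (b := 1) (c := Ψ (j h)) (by rw [mul_one]; exact h1)
      exact this.symm
    show - (Ψ (j h)).r = 0
    rw [h3, Heis.one_r, neg_zero]

end Fermat.Agent.S41.H77

end
-- ==== END Fermat.Agent.S41.H77_B2

-- ==== BEGIN Fermat.Agent.S41.H77_Surj
section

/-!
# S41, package P, leaf SURJ (helper77): every Manin function is the Manin function of a
potential triple
-/

set_option autoImplicit false

namespace Fermat.Agent.S41.H77

open Fermat.Agent.S41.H94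

/-- **SURJ**. -/
theorem stmt_SURJ : Stmt_SURJ := by
  intro G _ H _ k _ S T j hP hM hz a hMan
  obtain ⟨u, hu⟩ := hMan
  simp only [MulAction.toPerm_apply] at hu
  set w : G ⧸ j.range → k := fun x => a ((T * S⁻¹) • x) - a x with hw
  have hwu : ∀ x, w x = u (S • x) - u x := fun x => hu x
  have hws : ∀ x, w (S • x) + w x = 0 := by
    intro x
    rw [hwu, hwu, smul_smul_S hM hz]
    ring
  have hwt : ∀ x, w ((T * S⁻¹) • (T * S⁻¹) • x) + w ((T * S⁻¹) • x) + w x = 0 := by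
    intro x
    simp only [hw]
    rw [smul_smul_smul_tau hM]
    ring
  obtain ⟨Ψ, hΨ1, hΨS, hΨτ, hΨj⟩ := exists_cocyclePot S T j hP hM hz (Multiplicative k)
    (fun x => Multiplicative.ofAdd (- w x)) (fun x => Multiplicative.ofAdd (- w x))
    (by
      intro x
      show Multiplicative.ofAdd (- w (S • x) + - w x) = Multiplicative.ofAdd 0
      congr 1
      linear_combination - hws x)
    (by
      intro x
      show Multiplicative.ofAdd (- w ((T * S⁻¹) • (T * S⁻¹) • x) + - w ((T * S⁻¹) • x) + - w x)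
        = Multiplicative.ofAdd 0
      congr 1
      linear_combination - hwt x)
  set Φ : G → k := fun g => Multiplicative.toAdd (Ψ g) with hΦ
  have hΦS : ∀ g : G, Φ (S * g) = - w (g : G ⧸ j.range) + Φ g := by
    intro g
    simp only [hΦ, hΨS]
    rfl
  have hΦτ : ∀ g : G, Φ (T * S⁻¹ * g) = - w (g : G ⧸ j.range) + Φ g := by
    intro g
    simp only [hΦ, hΨτ]
    rfl
  have hΦj : ∀ (x : G) (h : H), Φ (x * j h) = Φ x + Φ (j h) := by
    intro x h
    simp only [hΦ, hΨj]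
    rfl
  -- the homomorphism
  let ψ : Additive H →+ k :=
    { toFun := fun h => Φ (j (Additive.toMul h))
      map_zero' := by
        show Φ (j 1) = 0
        rw [map_one]
        simp only [hΦ, hΨ1]
        rfl
      map_add' := fun h h' => by
        show Φ (j (Additive.toMul h * Additive.toMul h')) = _
        rw [map_mul, hΦj] }
  have hpot : IsPot j ψ Φ := fun x h => hΦj x h
  have hcu : ∀ (x : G) (y : H),
      u ((x * j y : G) : G ⧸ j.range) = u (x : G ⧸ j.range) := by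
    intro x y
    congr 1
    rw [QuotientGroup.eq]
    simp
  have hca : ∀ (x : G) (y : H),
      a ((x * j y : G) : G ⧸ j.range) = a (x : G ⧸ j.range) := by
    intro x y
    congr 1
    rw [QuotientGroup.eq]
    simp
  have hmk : ∀ (g x : G), ((g * x : G) : G ⧸ j.range) = g • (x : G ⧸ j.range) := fun g x => rfl
  refine ⟨ψ, ⟨Φ, fun g => Φ g + u (g : G ⧸ j.range), fun g => Φ g + a (g : G ⧸ j.range),
    hpot, hpot.add_const (c := fun g => u (g : G ⧸ j.range)) hcu,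
    hpot.add_const (c := fun g => a (g : G ⧸ j.range)) hca, ?_, ?_, ?_⟩, ?_⟩
  · intro x
    have h1 : T * x = T * S⁻¹ * (S * x) := by group
    rw [h1, hΦτ, hΦS, hmk]
    linear_combination - hws (x : G ⧸ j.range)
  · intro x
    show Φ (S * x) + u ((S * x : G) : G ⧸ j.range) = Φ x + u (x : G ⧸ j.range)
    rw [hΦS, hmk, hwu]
    ring
  · intro x
    show Φ (T * S⁻¹ * x) + a ((T * S⁻¹ * x : G) : G ⧸ j.range) = Φ x + a (x : G ⧸ j.range)
    rw [hΦτ, hmk]
    simp only [hw]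
    ring
  · funext x
    induction x using QuotientGroup.induction_on with
    | H g =>
      rw [PotTriple.a_mk]
      ring

end Fermat.Agent.S41.H77

end
-- ==== END Fermat.Agent.S41.H77_Surj

-- ==== BEGIN Fermat.Agent.S41.H94_Gamma0
section

/-!
# S41, package P: the pairing on `Hom_cusp(Gamma0 M, k)`

`Bform k M φ ψ` for `φ ψ : Additive (Gamma0 M) →+ k`; skew, bilinear on cuspidal homs, nondegenerate,
`res_i`/`cor_i` adjoint.  Everything is conditional on the leaves `Stmt_*` of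
`Fermat/Agent/S41/H94_PDStmts.lean` (bundled in `Leaves`).
-/

set_option autoImplicit false

open scoped MatrixGroups
open CongruenceSubgroup

namespace Fermat.Agent.S41.H94

/-- The leaves of package P. -/
structure Leaves : Prop where
  psl : Stmt_PSL
  c3 : Stmt_C3
  par : Stmt_PAR
  surj : Stmt_SURJ
  adj1 : Stmt_ADJ1
  b1 : Stmt_B1
  b2 : Stmt_B2
  b3 : Stmt_B3
  cusp : Stmt_CUSP
  ml : Stmt_ML

section General

variable {G : Type*} [Group G] {H : Type*} [Group H] {k : Type*} [Field k] {S T : G}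

/-- The pairing does not depend on the `Fintype` instance. -/
theorem pairingOf_inst {j : H →* G} (i₁ i₂ : Fintype (G ⧸ j.range)) {φ ψ : Additive H →+ k}
    (P : PotTriple j S T φ) (Q : PotTriple j S T ψ) :
    @pairingOf _ _ _ _ _ _ j S T i₁ φ ψ P Q = @pairingOf _ _ _ _ _ _ j S T i₂ φ ψ P Q := by
  have : i₁ = i₂ := Subsingleton.elim _ _
  subst this
  rfl

/-- The pairing only depends on the homomorphism `j`. -/
theorem pairingOf_of_eq {j₁ j₂ : H →* G} (h : j₁ = j₂) [i₁ : Fintype (G ⧸ j₁.range)]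
    [i₂ : Fintype (G ⧸ j₂.range)] (hM : ModularLike S T) (hz : S ^ 2 ∈ j₁.range) (h2 : (2 : k) ≠ 0)
    {φ ψ : Additive H →+ k} (P₁ : PotTriple j₁ S T φ) (Q₁ : PotTriple j₁ S T ψ)
    (P₂ : PotTriple j₂ S T φ) (Q₂ : PotTriple j₂ S T ψ) :
    pairingOf P₁ Q₁ = pairingOf P₂ Q₂ := by
  subst h
  rw [pairingOf_inst i₁ i₂, pairingOf_indep_left hM hz h2 P₁ P₂ Q₁,
    pairingOf_indep_right hM hz h2 P₂ Q₁ Q₂]

theorem pairingOf_add_left {j : H →* G} [Fintype (G ⧸ j.range)] {φ φ' ψ : Additive H →+ k}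
    (P : PotTriple j S T φ) (P' : PotTriple j S T φ') (Q : PotTriple j S T ψ) :
    pairingOf (P.add P') Q = pairingOf P Q + pairingOf P' Q := by
  unfold pairingOf
  rw [PotTriple.add_a, Qform_add_left]

theorem pairingOf_smul_left {j : H →* G} [Fintype (G ⧸ j.range)] {φ ψ : Additive H →+ k}
    (r : k) (P : PotTriple j S T φ) (Q : PotTriple j S T ψ) :
    pairingOf (P.smul r) Q = r * pairingOf P Q := by
  unfold pairingOf
  rw [PotTriple.smul_a, Qform_smul_left]

end General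

section Concrete

variable (k : Type) [Field k]

/-- `S² = -1`. -/
theorem S_sq : (ModularGroup.S : SL(2, ℤ)) ^ 2 = -1 := by decide

theorem neg_one_mem_Gamma0 (M : ℕ) : (-1 : SL(2, ℤ)) ∈ Gamma0 M := by
  rw [Gamma0_mem]
  simp

theorem S_sq_mem (M : ℕ) : (ModularGroup.S : SL(2, ℤ)) ^ 2 ∈ (Gamma0 M).subtype.range := by
  rw [S_sq, Subgroup.range_subtype]
  exact neg_one_mem_Gamma0 M

theorem neg_one_mem_range (M : ℕ) : (-1 : SL(2, ℤ)) ∈ (Gamma0 M).subtype.range := by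
  rw [Subgroup.range_subtype]
  exact neg_one_mem_Gamma0 M

instance finite_quot_Gamma0 (M : ℕ) [NeZero M] : Finite (SL(2, ℤ) ⧸ (Gamma0 M).subtype.range) := by
  rw [Subgroup.range_subtype]
  exact Subgroup.finite_quotient_of_finiteIndex

/-- The pairing on `Hom(Gamma0 M, k)` (zero unless both arguments are cuspidal). -/
noncomputable def Bform (M : ℕ) (φ ψ : Additive (Gamma0 M) →+ k) : k :=
  open Classical in
  if h : Finite (SL(2, ℤ) ⧸ (Gamma0 M).subtype.range) ∧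
      Nonempty (PotTriple (Gamma0 M).subtype ModularGroup.S ModularGroup.T φ) ∧
      Nonempty (PotTriple (Gamma0 M).subtype ModularGroup.S ModularGroup.T ψ) then
    @pairingOf _ _ _ _ _ _ (Gamma0 M).subtype ModularGroup.S ModularGroup.T
      (@Fintype.ofFinite _ h.1) φ ψ h.2.1.some h.2.2.some
  else 0

variable {k}

theorem Bform_eq (L : Leaves) (h2 : (2 : k) ≠ 0) (M : ℕ)
    [i : Fintype (SL(2, ℤ) ⧸ (Gamma0 M).subtype.range)] {φ ψ : Additive (Gamma0 M) →+ k}
    (P : PotTriple (Gamma0 M).subtype ModularGroup.S ModularGroup.T φ)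
    (Q : PotTriple (Gamma0 M).subtype ModularGroup.S ModularGroup.T ψ) :
    Bform k M φ ψ = pairingOf P Q := by
  unfold Bform
  have hfin : Finite (SL(2, ℤ) ⧸ (Gamma0 M).subtype.range) := Finite.of_fintype _
  rw [dif_pos ⟨hfin, ⟨P⟩, ⟨Q⟩⟩]
  rw [pairingOf_inst _ i, pairingOf_indep_left L.ml (S_sq_mem M) h2 _ P,
    pairingOf_indep_right L.ml (S_sq_mem M) h2 P _ Q]

/-- cuspidal homs have potential triples -/
theorem nonempty_potTriple_of_cuspidal (L : Leaves) (h2 : (2 : k) ≠ 0) {H : Type} [Group H]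
    (j : H →* SL(2, ℤ)) (hneg : (-1 : SL(2, ℤ)) ∈ j.range) {φ : Additive H →+ k}
    (hφ : IsCuspVia j φ) : Nonempty (PotTriple j ModularGroup.S ModularGroup.T φ) := by
  obtain ⟨h1, h3, h4⟩ := (L.cusp H k j h2 hneg φ).mp hφ
  exact exists_potTriple j _ _ φ h1 h3 h4

theorem cuspidal_of_potTriple (L : Leaves) (h2 : (2 : k) ≠ 0) {H : Type} [Group H]
    (j : H →* SL(2, ℤ)) (hneg : (-1 : SL(2, ℤ)) ∈ j.range) {φ : Additive H →+ k}
    (P : PotTriple j ModularGroup.S ModularGroup.T φ) : IsCuspVia j φ :=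
  (L.cusp H k j h2 hneg φ).mpr ⟨P.killsS, P.killsT, P.killsτ⟩

theorem isCuspidalHom_iff (M : ℕ) (φ : Additive (Gamma0 M) →+ k) :
    IsCuspidalHom (Gamma0 M) φ ↔ IsCuspVia (Gamma0 M).subtype φ := Iff.rfl

theorem Bform_skew (L : Leaves) (h2 : (2 : k) ≠ 0) (M : ℕ) [NeZero M]
    {φ ψ : Additive (Gamma0 M) →+ k} (hφ : IsCuspidalHom (Gamma0 M) φ)
    (hψ : IsCuspidalHom (Gamma0 M) ψ) : Bform k M φ ψ = - Bform k M ψ φ := by
  haveI : Fintype (SL(2, ℤ) ⧸ (Gamma0 M).subtype.range) := Fintype.ofFinite _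
  obtain ⟨P⟩ := nonempty_potTriple_of_cuspidal L h2 _ (neg_one_mem_range M) hφ
  obtain ⟨Q⟩ := nonempty_potTriple_of_cuspidal L h2 _ (neg_one_mem_range M) hψ
  rw [Bform_eq L h2 M P Q, Bform_eq L h2 M Q P, pairingOf_skew]

theorem Bform_add_left (L : Leaves) (h2 : (2 : k) ≠ 0) (M : ℕ) [NeZero M]
    {φ φ' ψ : Additive (Gamma0 M) →+ k} (hφ : IsCuspidalHom (Gamma0 M) φ)
    (hφ' : IsCuspidalHom (Gamma0 M) φ') (hψ : IsCuspidalHom (Gamma0 M) ψ) :
    Bform k M (φ + φ') ψ = Bform k M φ ψ + Bform k M φ' ψ := by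
  haveI : Fintype (SL(2, ℤ) ⧸ (Gamma0 M).subtype.range) := Fintype.ofFinite _
  obtain ⟨P⟩ := nonempty_potTriple_of_cuspidal L h2 _ (neg_one_mem_range M) hφ
  obtain ⟨P'⟩ := nonempty_potTriple_of_cuspidal L h2 _ (neg_one_mem_range M) hφ'
  obtain ⟨Q⟩ := nonempty_potTriple_of_cuspidal L h2 _ (neg_one_mem_range M) hψ
  rw [Bform_eq L h2 M P Q, Bform_eq L h2 M P' Q, Bform_eq L h2 M (P.add P') Q, pairingOf_add_left]

theorem Bform_smul_left (L : Leaves) (h2 : (2 : k) ≠ 0) (M : ℕ) [NeZero M] (r : k)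
    {φ ψ : Additive (Gamma0 M) →+ k} (hφ : IsCuspidalHom (Gamma0 M) φ)
    (hψ : IsCuspidalHom (Gamma0 M) ψ) :
    Bform k M (r • φ) ψ = r * Bform k M φ ψ := by
  haveI : Fintype (SL(2, ℤ) ⧸ (Gamma0 M).subtype.range) := Fintype.ofFinite _
  obtain ⟨P⟩ := nonempty_potTriple_of_cuspidal L h2 _ (neg_one_mem_range M) hφ
  obtain ⟨Q⟩ := nonempty_potTriple_of_cuspidal L h2 _ (neg_one_mem_range M) hψ
  rw [Bform_eq L h2 M P Q, Bform_eq L h2 M (P.smul r) Q, pairingOf_smul_left]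

/-- **Nondegeneracy** of the pairing on cuspidal homs. -/
theorem Bform_nondeg (L : Leaves) (h2 : (2 : k) ≠ 0) (M : ℕ) [NeZero M]
    {φ : Additive (Gamma0 M) →+ k} (hφ : IsCuspidalHom (Gamma0 M) φ)
    (h : ∀ ψ : Additive (Gamma0 M) →+ k, IsCuspidalHom (Gamma0 M) ψ → Bform k M ψ φ = 0) :
    φ = 0 := by
  haveI : Fintype (SL(2, ℤ) ⧸ (Gamma0 M).subtype.range) := Fintype.ofFinite _
  obtain ⟨P⟩ := nonempty_potTriple_of_cuspidal L h2 _ (neg_one_mem_range M) hφ
  refine eq_zero_of_pairing_eq_zero L.surj (pslProp_of_stmt L.psl) L.ml (S_sq_mem M) h2 P ?_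
  intro ψ Q
  rw [← Bform_eq L h2 M Q P]
  exact h ψ (cuspidal_of_potTriple L h2 _ (neg_one_mem_range M) Q)

end Concrete

end Fermat.Agent.S41.H94

end
-- ==== END Fermat.Agent.S41.H94_Gamma0

-- ==== BEGIN Fermat.Agent.S41.H96_B3
section

set_option autoImplicit false

open scoped MatrixGroups

namespace Fermat.Agent.S41.H96

open Fermat.Agent.S41.H94 Fermat.Agent.S41.Lead

/-! ### Conjugates of powers of `T` -/

theorem det_eq_one' (x : SL(2, ℤ)) : x 0 0 * x 1 1 - x 0 1 * x 1 0 = 1 := by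
  have := x.det_coe
  rwa [Matrix.det_fin_two] at this

theorem T_zpow_apply (n : ℤ) :
    ((ModularGroup.T ^ n : SL(2, ℤ)) : Matrix (Fin 2) (Fin 2) ℤ) = !![1, n; 0, 1] :=
  ModularGroup.coe_T_zpow n

/-- The entries of `x⁻¹ T ^ n x`. -/
theorem conj_T_zpow_entries (x : SL(2, ℤ)) (n : ℤ) :
    (x⁻¹ * ModularGroup.T ^ n * x) 0 1 = n * (x 1 1) ^ 2 ∧
    (x⁻¹ * ModularGroup.T ^ n * x) 1 0 = -(n * (x 1 0) ^ 2) ∧
    (x⁻¹ * ModularGroup.T ^ n * x) 0 0 = 1 + n * (x 1 0 * x 1 1) ∧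
    (x⁻¹ * ModularGroup.T ^ n * x) 1 1 = 1 - n * (x 1 0 * x 1 1) := by
  have hdet := det_eq_one' x
  simp only [Matrix.SpecialLinearGroup.coe_mul, Matrix.SpecialLinearGroup.coe_inv,
    T_zpow_apply, Matrix.adjugate_fin_two, Matrix.mul_apply, Fin.sum_univ_two, Matrix.of_apply,
    Matrix.cons_val_zero, Matrix.cons_val_one, Matrix.cons_val', Matrix.cons_val_fin_one]
  refine ⟨?_, ?_, ?_, ?_⟩
  · ring
  · ring
  · linear_combination hdet
  · linear_combination hdet

theorem row_ne_zero (x : SL(2, ℤ)) : x 1 0 ≠ 0 ∨ x 1 1 ≠ 0 := by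
  by_contra hcon
  push Not at hcon
  have hdet := det_eq_one' x
  rw [hcon.1, hcon.2] at hdet
  simp at hdet

theorem conj_T_zpow_ne_one (x : SL(2, ℤ)) {n : ℤ} (hn : n ≠ 0) :
    x⁻¹ * ModularGroup.T ^ n * x ≠ 1 := by
  intro h
  have h1 : ModularGroup.T ^ n = 1 := by
    have : ModularGroup.T ^ n = x * (x⁻¹ * ModularGroup.T ^ n * x) * x⁻¹ := by group
    rw [this, h]; group
  have h2 : ((ModularGroup.T ^ n : SL(2, ℤ)) : Matrix (Fin 2) (Fin 2) ℤ) 0 1
      = ((1 : SL(2, ℤ)) : Matrix (Fin 2) (Fin 2) ℤ) 0 1 := by rw [h1]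
  have h3 : ((ModularGroup.T ^ n : SL(2, ℤ)) : Matrix (Fin 2) (Fin 2) ℤ) 0 1 = n := by
    rw [T_zpow_apply]; rfl
  have h4 : ((1 : SL(2, ℤ)) : Matrix (Fin 2) (Fin 2) ℤ) 0 1 = 0 := by simp
  rw [h3, h4] at h2
  exact hn h2

/-- A conjugate of `T ^ n`, `n ≥ 1`, is positive parabolic. -/
theorem isPosPar_conj_T_zpow (x : SL(2, ℤ)) {n : ℤ} (hn : 0 < n) :
    IsPosPar (x⁻¹ * ModularGroup.T ^ n * x) := by
  obtain ⟨h01, h10, h00, h11⟩ := conj_T_zpow_entries x n
  refine ⟨?_, conj_T_zpow_ne_one x hn.ne', ?_, ?_⟩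
  · rw [Matrix.trace_fin_two]
    rw [h00, h11]; ring
  · rw [h01]; positivity
  · rw [h10]
    have : 0 ≤ n * (x 1 0) ^ 2 := by positivity
    linarith

/-- A positive parabolic element is a conjugate of `T ^ n` with `n ≥ 1`. -/
theorem exists_of_isPosPar {g : SL(2, ℤ)} (hg : IsPosPar g) :
    ∃ (x : SL(2, ℤ)) (n : ℕ), 0 < n ∧ g = x⁻¹ * ModularGroup.T ^ (n : ℤ) * x := by
  obtain ⟨htr, hne, h01, h10⟩ := hg
  obtain ⟨x, n, hx⟩ := stmt_PAR g htr
  obtain ⟨e01, e10, -, -⟩ := conj_T_zpow_entries x n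
  have hn0 : n ≠ 0 := by
    rintro rfl
    apply hne
    rw [hx]; simp
  rcases lt_or_gt_of_ne hn0 with hneg | hpos
  · exfalso
    rw [hx, e01] at h01
    rw [hx, e10] at h10
    rcases row_ne_zero x with hc | hd
    · have : 0 < (x 1 0) ^ 2 := by positivity
      nlinarith
    · have : 0 < (x 1 1) ^ 2 := by positivity
      nlinarith
  · refine ⟨x, n.toNat, by omega, ?_⟩
    rw [Int.toNat_of_nonneg hpos.le]
    exact hx

/-- If `y T ^ a = T ^ b y` with `a ≠ 0` then `a = b` and `y = ± T ^ s`. -/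
theorem eq_of_mul_T_zpow (y : SL(2, ℤ)) (a b : ℤ) (ha : a ≠ 0)
    (h : y * ModularGroup.T ^ a = ModularGroup.T ^ b * y) :
    a = b ∧ ∃ s : ℤ, y = ModularGroup.T ^ s ∨ y = -ModularGroup.T ^ s := by
  have hdet := det_eq_one' y
  have hm := congrArg (fun g : SL(2, ℤ) => (g : Matrix (Fin 2) (Fin 2) ℤ)) h
  simp only [Matrix.SpecialLinearGroup.coe_mul, T_zpow_apply] at hm
  have e11 := congrFun (congrFun hm 1) 1
  have e01 := congrFun (congrFun hm 0) 1
  simp only [Matrix.mul_apply, Fin.sum_univ_two, Matrix.of_apply, Matrix.cons_val_zero,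
    Matrix.cons_val_one, Matrix.cons_val', Matrix.cons_val_fin_one] at e11 e01
  have hc : y 1 0 = 0 := by
    have : y 1 0 * a = 0 := by linarith
    rcases mul_eq_zero.mp this with h1 | h1
    · exact h1
    · exact absurd h1 ha
  rw [hc, mul_zero, sub_zero] at hdet
  have hunit : y 0 0 = 1 ∧ y 1 1 = 1 ∨ y 0 0 = -1 ∧ y 1 1 = -1 := by
    rcases Int.eq_one_or_neg_one_of_mul_eq_one' hdet with h1 | h1
    · exact Or.inl h1
    · exact Or.inr h1
  rcases hunit with ⟨h00, h11⟩ | ⟨h00, h11⟩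
  · refine ⟨by rw [h00, h11] at e01; linarith, y 0 1, Or.inl ?_⟩
    apply Subtype.ext
    rw [T_zpow_apply]
    ext i j
    fin_cases i <;> fin_cases j <;> simp [h00, h11, hc]
  · refine ⟨by rw [h00, h11] at e01; linarith, -(y 0 1), Or.inr ?_⟩
    apply Subtype.ext
    rw [Matrix.SpecialLinearGroup.coe_neg, T_zpow_apply]
    ext i j
    fin_cases i <;> fin_cases j <;> simp [h00, h11, hc]

theorem conj_pow_inv {G : Type*} [Group G] (y b : G) (m : ℕ) :
    (y⁻¹ * b * y) ^ m = y⁻¹ * b ^ m * y := by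
  have := conj_pow (a := y⁻¹) (b := b) (i := m)
  rwa [inv_inv] at this

/-! ### The action of `T` on `SL(2,ℤ) ⧸ Γ` -/

section Orbits

variable {H : Type} [Group H] (j : H →* SL(2, ℤ))

/-- `T ^ n` fixes the coset `x Γ` iff `x⁻¹ T ^ n x ∈ Γ`. -/
theorem zpow_smul_mk_eq_iff (x : SL(2, ℤ)) (n : ℤ) :
    (ModularGroup.T ^ n : SL(2, ℤ)) • (x : SL(2, ℤ) ⧸ j.range) = (x : SL(2, ℤ) ⧸ j.range) ↔
      x⁻¹ * ModularGroup.T ^ n * x ∈ j.range := by
  rw [MulAction.Quotient.smul_mk, QuotientGroup.eq, smul_eq_mul]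
  have : (ModularGroup.T ^ n * x)⁻¹ * x = (x⁻¹ * ModularGroup.T ^ n * x)⁻¹ := by group
  rw [this, inv_mem_iff]

theorem isPeriodicPt_iff (x : SL(2, ℤ)) (n : ℕ) :
    Function.IsPeriodicPt (fun p : SL(2, ℤ) ⧸ j.range => ModularGroup.T • p) n
        (x : SL(2, ℤ) ⧸ j.range) ↔
      x⁻¹ * ModularGroup.T ^ (n : ℤ) * x ∈ j.range := by
  unfold Function.IsPeriodicPt Function.IsFixedPt
  rw [smul_iterate_apply, ← zpow_smul_mk_eq_iff, zpow_natCast]

/-- The width of the cusp `x⁻¹ ∞` of `Γ`. -/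
noncomputable def width (x : SL(2, ℤ)) : ℕ :=
  Function.minimalPeriod (fun p : SL(2, ℤ) ⧸ j.range => ModularGroup.T • p)
    (x : SL(2, ℤ) ⧸ j.range)

theorem width_pos [j.range.FiniteIndex] (x : SL(2, ℤ)) : 0 < width j x :=
  Function.minimalPeriod_pos_of_mem_periodicPts
    (Function.Injective.mem_periodicPts (MulAction.injective ModularGroup.T) _)

theorem conj_width_mem (x : SL(2, ℤ)) :
    x⁻¹ * ModularGroup.T ^ (width j x : ℤ) * x ∈ j.range :=
  (isPeriodicPt_iff j x _).mp (Function.isPeriodicPt_minimalPeriod _ _)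

theorem width_dvd (x : SL(2, ℤ)) (n : ℕ)
    (h : x⁻¹ * ModularGroup.T ^ (n : ℤ) * x ∈ j.range) : width j x ∣ n :=
  Function.IsPeriodicPt.minimalPeriod_dvd ((isPeriodicPt_iff j x n).mpr h)

/-- The generator of the stabiliser of a cusp is primitive positive parabolic. -/
theorem isPrimPosPar_of_width [j.range.FiniteIndex] (x : SL(2, ℤ)) (h : H)
    (hh : j h = x⁻¹ * ModularGroup.T ^ (width j x : ℤ) * x) : IsPrimPosPar j h := by
  have hw := width_pos j x
  have hpos : IsPosPar (j h) := by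
    rw [hh]
    exact isPosPar_conj_T_zpow x (by exact_mod_cast hw)
  refine ⟨hpos, fun h' m hh' hm => ?_⟩
  obtain ⟨y, n, hn, hy⟩ := exists_of_isPosPar hh'
  have hm0 : m ≠ 0 := by
    rintro rfl
    rw [pow_zero] at hm
    apply hpos.2.1
    rw [← hm, map_one]
  -- `y⁻¹ T ^ (n m) y = x⁻¹ T ^ w x`
  have h1 : y⁻¹ * ModularGroup.T ^ ((n : ℤ) * m) * y
      = x⁻¹ * ModularGroup.T ^ (width j x : ℤ) * x := by
    rw [← hh, ← hm, map_pow, hy, zpow_mul, zpow_natCast (ModularGroup.T ^ (n : ℤ)) m, conj_pow_inv]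
  have h2 : (x * y⁻¹) * ModularGroup.T ^ ((n : ℤ) * m)
      = ModularGroup.T ^ (width j x : ℤ) * (x * y⁻¹) := by
    have : ModularGroup.T ^ (width j x : ℤ)
        = x * (x⁻¹ * ModularGroup.T ^ (width j x : ℤ) * x) * x⁻¹ := by group
    rw [this, ← h1]
    group
  have hnm0 : (n : ℤ) * m ≠ 0 := by
    have : 0 < (n : ℤ) * m := by positivity
    exact this.ne'
  obtain ⟨heq, s, hs⟩ := eq_of_mul_T_zpow (x * y⁻¹) _ _ hnm0 h2
  -- `n` is a period of `x Γ`
  have h3 : x⁻¹ * ModularGroup.T ^ (n : ℤ) * x = y⁻¹ * ModularGroup.T ^ (n : ℤ) * y := by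
    have hx : x = (x * y⁻¹) * y := by group
    rcases hs with hs | hs
    · rw [hx, hs]; group
    · rw [hx, hs]
      simp only [neg_mul, mul_neg, inv_neg, neg_neg, mul_inv_rev]
      group
  have h4 : width j x ∣ n := by
    apply width_dvd
    rw [h3, ← hy]
    exact ⟨h', rfl⟩
  obtain ⟨t, ht⟩ := h4
  have h5 : (n : ℤ) * m = (width j x : ℤ) := heq
  have h6 : n * m = width j x := by exact_mod_cast h5
  rw [ht, mul_assoc] at h6
  have h7 : t * m = 1 := by
    have := Nat.eq_of_mul_eq_mul_left hw (h6.trans (mul_one _).symm)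
    exact this
  exact Nat.dvd_one.mp ⟨t, by rw [mul_comm]; exact h7.symm⟩

/-- If the generators of the stabilisers of two cusps are conjugate in `Γ` then the cusps lie in
the same `T`-orbit. -/
theorem same_orbit_of_conj (hneg : (-1 : SL(2, ℤ)) ∈ j.range) (x x' : SL(2, ℤ)) (w w' : ℤ)
    (hw : w ≠ 0) (γ : SL(2, ℤ)) (hγ : γ ∈ j.range)
    (h : γ * (x⁻¹ * ModularGroup.T ^ w * x) * γ⁻¹ = x'⁻¹ * ModularGroup.T ^ w' * x') :
    ∃ s : ℤ, (x' : SL(2, ℤ) ⧸ j.range)
      = (ModularGroup.T ^ s : SL(2, ℤ)) • (x : SL(2, ℤ) ⧸ j.range) := by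
  have h2 : (x' * γ * x⁻¹) * ModularGroup.T ^ w = ModularGroup.T ^ w' * (x' * γ * x⁻¹) := by
    have : ModularGroup.T ^ w' = x' * (x'⁻¹ * ModularGroup.T ^ w' * x') * x'⁻¹ := by group
    rw [this, ← h]
    group
  obtain ⟨-, s, hs⟩ := eq_of_mul_T_zpow _ _ _ hw h2
  refine ⟨s, ?_⟩
  rw [MulAction.Quotient.smul_mk, smul_eq_mul, QuotientGroup.eq]
  rcases hs with hs | hs
  · have : x'⁻¹ * (ModularGroup.T ^ s * x) = γ := by
      rw [← hs]; group
    rw [this]
    exact hγ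
  · have : x'⁻¹ * (ModularGroup.T ^ s * x) = -γ := by
      have h3 : ModularGroup.T ^ s = -(x' * γ * x⁻¹) := by rw [hs, neg_neg]
      rw [h3]
      simp only [neg_mul, mul_neg]
      congr 1
      group
    rw [this]
    have : -γ = (-1) * γ := by simp
    rw [this]
    exact mul_mem hneg hγ

/-- Every primitive positive parabolic element of `Γ` is conjugate in `Γ` to the generator of the
stabiliser of the chosen representative of its cusp. -/
theorem exists_conj_of_isPrimPosPar (hinj : Function.Injective j) [j.range.FiniteIndex]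
    (h : H) (hh : IsPrimPosPar j h) (y : SL(2, ℤ)) (n : ℕ)
    (hy : j h = y⁻¹ * ModularGroup.T ^ (n : ℤ) * y)
    (x : SL(2, ℤ)) (s : ℤ)
    (hx : (x : SL(2, ℤ) ⧸ j.range) = (ModularGroup.T ^ s : SL(2, ℤ)) • (y : SL(2, ℤ) ⧸ j.range))
    (hc : H) (hhc : j hc = x⁻¹ * ModularGroup.T ^ (width j x : ℤ) * x) :
    ∃ γ : H, γ * hc * γ⁻¹ = h := by
  have hw := width_pos j x
  -- `x = T ^ s y j(γ₀)`
  rw [MulAction.Quotient.smul_mk, smul_eq_mul, eq_comm, QuotientGroup.eq] at hx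
  obtain ⟨γ₀, hγ₀⟩ := hx
  have hxe : x = ModularGroup.T ^ s * y * j γ₀ := by
    rw [hγ₀]; group
  have hconj : ∀ m : ℤ, x⁻¹ * ModularGroup.T ^ m * x
      = (j γ₀)⁻¹ * (y⁻¹ * ModularGroup.T ^ m * y) * j γ₀ := by
    intro m
    rw [hxe]
    have hcomm : ModularGroup.T ^ m * ModularGroup.T ^ s
        = ModularGroup.T ^ s * ModularGroup.T ^ m := by
      rw [← zpow_add, ← zpow_add, add_comm]
    calc (ModularGroup.T ^ s * y * j γ₀)⁻¹ * ModularGroup.T ^ m * (ModularGroup.T ^ s * y * j γ₀)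
        = (j γ₀)⁻¹ * y⁻¹ * (ModularGroup.T ^ s)⁻¹ * (ModularGroup.T ^ m * ModularGroup.T ^ s)
            * y * j γ₀ := by group
      _ = (j γ₀)⁻¹ * y⁻¹ * (ModularGroup.T ^ s)⁻¹ * (ModularGroup.T ^ s * ModularGroup.T ^ m)
            * y * j γ₀ := by rw [hcomm]
      _ = (j γ₀)⁻¹ * (y⁻¹ * ModularGroup.T ^ m * y) * j γ₀ := by group
  -- `n` is a period of `x Γ`
  have hdvd : width j x ∣ n := by
    apply width_dvd
    rw [hconj, ← hy]
    exact ⟨γ₀⁻¹ * h * γ₀, by rw [map_mul, map_mul, map_inv]⟩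
  obtain ⟨t, ht⟩ := hdvd
  -- `h₀ = γ₀ hc γ₀⁻¹`
  have h0 : j (γ₀ * hc * γ₀⁻¹) = y⁻¹ * ModularGroup.T ^ (width j x : ℤ) * y := by
    rw [map_mul, map_mul, map_inv, hhc, hconj]
    group
  have hpos : IsPosPar (j (γ₀ * hc * γ₀⁻¹)) := by
    rw [h0]
    exact isPosPar_conj_T_zpow y (by exact_mod_cast hw)
  have hpow : (γ₀ * hc * γ₀⁻¹) ^ t = h := by
    apply hinj
    rw [map_pow, h0, hy, conj_pow_inv, ← zpow_natCast (ModularGroup.T ^ (width j x : ℤ)) t,
      ← zpow_mul, ht]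
    push_cast
    rfl
  have ht1 : t = 1 := hh.2 _ t hpos hpow
  rw [ht1, pow_one] at hpow
  exact ⟨γ₀, hpow⟩

end Orbits

/-! ### B3 -/

/-- **B3**: the sum over the `T`-orbits on `SL(2,ℤ) ⧸ range j` equals the sum over the conjugacy
classes of primitive positive parabolic elements. -/
theorem stmt_B3 : Stmt_B3 := by
  intro H _ k _ j _ hinj hfin hneg b hb c hc
  have := hfin
  have hout : ∀ q : MulAction.orbitRel.Quotient (Subgroup.zpowers ModularGroup.T)
      (SL(2, ℤ) ⧸ j.range), ((q.out.out : SL(2, ℤ)) : SL(2, ℤ) ⧸ j.range) = q.out :=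
    fun q => QuotientGroup.out_eq' _
  have hcw : ∀ q : MulAction.orbitRel.Quotient (Subgroup.zpowers ModularGroup.T)
      (SL(2, ℤ) ⧸ j.range),
      j (c q) = q.out.out⁻¹ * ModularGroup.T ^ (width j q.out.out : ℤ) * q.out.out := by
    intro q
    rw [hc q, zpow_natCast]
    unfold width
    rw [hout q]
  have hprim : ∀ q, IsPrimPosPar j (c q) := fun q => isPrimPosPar_of_width j _ _ (hcw q)
  let e : MulAction.orbitRel.Quotient (Subgroup.zpowers ModularGroup.T) (SL(2, ℤ) ⧸ j.range) →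
      Quotient (conjSetoid (IsPrimPosPar j)) := fun q => Quotient.mk _ ⟨c q, hprim q⟩
  have he : Function.Bijective e := by
    constructor
    · intro q q' hqq
      obtain ⟨γ, hγ⟩ := Quotient.exact hqq
      have hγ' : γ * c q * γ⁻¹ = c q' := hγ
      have h1 : j γ * (q.out.out⁻¹ * ModularGroup.T ^ (width j q.out.out : ℤ) * q.out.out)
          * (j γ)⁻¹
          = q'.out.out⁻¹ * ModularGroup.T ^ (width j q'.out.out : ℤ) * q'.out.out := by
        rw [← hcw, ← hcw, ← map_inv, ← map_mul, ← map_mul, hγ']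
      have hw0 : (width j q.out.out : ℤ) ≠ 0 := by
        have := width_pos j q.out.out
        exact_mod_cast this.ne'
      obtain ⟨s, hs⟩ := same_orbit_of_conj j hneg _ _ _ _ hw0 (j γ) ⟨γ, rfl⟩ h1
      rw [hout, hout] at hs
      rw [← Quotient.out_eq q, ← Quotient.out_eq q']
      apply Quotient.sound
      show MulAction.orbitRel _ _ q.out q'.out
      rw [MulAction.orbitRel_apply, MulAction.mem_orbit_iff]
      refine ⟨⟨ModularGroup.T ^ (-s), ⟨-s, rfl⟩⟩, ?_⟩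
      rw [hs]
      show (ModularGroup.T ^ (-s) : SL(2, ℤ)) • ((ModularGroup.T ^ s : SL(2, ℤ)) • q.out) = q.out
      rw [smul_smul, ← zpow_add, neg_add_cancel, zpow_zero, one_smul]
    · intro C
      induction C using Quotient.inductionOn with
      | _ a =>
        obtain ⟨h, hh⟩ := a
        obtain ⟨y, n, hn, hy⟩ := exists_of_isPosPar hh.1
        let q : MulAction.orbitRel.Quotient (Subgroup.zpowers ModularGroup.T)
            (SL(2, ℤ) ⧸ j.range) := Quotient.mk _ (y : SL(2, ℤ) ⧸ j.range)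
        have hrel : MulAction.orbitRel (Subgroup.zpowers ModularGroup.T) (SL(2, ℤ) ⧸ j.range)
            q.out (y : SL(2, ℤ) ⧸ j.range) := Quotient.exact (Quotient.out_eq q)
        rw [MulAction.orbitRel_apply, MulAction.mem_orbit_iff] at hrel
        obtain ⟨⟨t, ⟨s, hs⟩⟩, hts⟩ := hrel
        have hts' : (ModularGroup.T ^ s : SL(2, ℤ)) • (y : SL(2, ℤ) ⧸ j.range) = q.out := by
          rw [← hts]
          show (ModularGroup.T ^ s : SL(2, ℤ)) • (y : SL(2, ℤ) ⧸ j.range)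
            = t • (y : SL(2, ℤ) ⧸ j.range)
          have : ModularGroup.T ^ s = t := hs
          rw [this]
        obtain ⟨γ, hγ⟩ := exists_conj_of_isPrimPosPar j hinj h hh y n hy q.out.out s
          (by rw [hout]; exact hts'.symm) (c q) (hcw q)
        exact ⟨q, Quotient.sound ⟨γ, hγ⟩⟩
  unfold classSum
  rw [← finsum_eq_sum_of_fintype]
  apply finsum_eq_of_bijective e he
  intro q
  obtain ⟨γ, hγ⟩ := Quotient.mk_out (s := conjSetoid (IsPrimPosPar j)) ⟨c q, hprim q⟩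
  have hγ' : γ * (e q).out.1 * γ⁻¹ = c q := hγ
  rw [← hγ']
  exact hb γ _ (e q).out.2.1

end Fermat.Agent.S41.H96

end
-- ==== END Fermat.Agent.S41.H96_B3
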