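-- GENERATED (merged mirror, NOTES/tools/trim/merge3_helper67.py): 1 modules of the originals, bodies verbatim.
import Fermat.Agent.Zm.S59_L03_005

-- ==== BEGIN Fermat.Agent.S59.TRes.H8_Tors
section

set_option autoImplicit false

namespace Fermat.Agent.S59.TRes.H8

section

variable {p : ℕ} [hp : Fact p.Prime] {X : Type} [AddCommGroup X]

/-- If `p • x = 0`, `p ∤ a` and `a • x ∈ S`, then `x ∈ S`. -/
theorem mem_of_zsmul_mem (S : AddSubgroup X) {x : X} (hx : p • x = 0) {a : ℤ}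
    (ha : ¬ (p : ℤ) ∣ a) (h : a • x ∈ S) : x ∈ S := by
  have hcop : IsCoprime a (p : ℤ) := by
    have := (Nat.prime_iff_prime_int.1 hp.out)
    exact (IsCoprime.symm ((Prime.coprime_iff_not_dvd this).2 ha))
  obtain ⟨u, v, huv⟩ := hcop
  have hx' : (p : ℤ) • x = 0 := by rw [natCast_zsmul]; exact hx
  have : x = u • (a • x) := by
    calc x = (1 : ℤ) • x := (one_zsmul x).symm
      _ = (u * a + v * (p : ℤ)) • x := by rw [huv]
      _ = u • (a • x) + v • ((p : ℤ) • x) := by rw [add_zsmul, mul_zsmul, mul_zsmul]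
      _ = u • (a • x) := by rw [hx', zsmul_zero, add_zero]
  rw [this]
  exact S.zsmul_mem h u

omit hp in
/-- If `p • x = 0` and `p ∣ a` then `a • x = 0`. -/
theorem zsmul_eq_zero_of_dvd {x : X} (hx : p • x = 0) {a : ℤ} (ha : (p : ℤ) ∣ a) :
    a • x = 0 := by
  obtain ⟨k, rfl⟩ := ha
  rw [mul_comm, mul_zsmul, natCast_zsmul, hx, zsmul_zero]

/-- Independence. -/
theorem tors_indep (S : AddSubgroup X) {P T : X} (hP : p • P = 0) (hT : p • T = 0)
    (hT0 : T ≠ 0) (hTS : T ∈ S) (hPS : P ∉ S) (a c : ℤ) (h : a • P + c • T = 0) :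
    (p : ℤ) ∣ a ∧ (p : ℤ) ∣ c := by
  have ha : (p : ℤ) ∣ a := by
    by_contra ha
    apply hPS
    refine mem_of_zsmul_mem S hP ha ?_
    have : a • P = -(c • T) := eq_neg_of_add_eq_zero_left h
    rw [this]
    exact S.neg_mem (S.zsmul_mem hTS c)
  refine ⟨ha, ?_⟩
  by_contra hc
  apply hT0
  have hcT : c • T = 0 := by
    rw [zsmul_eq_zero_of_dvd hP ha, zero_add] at h
    exact h
  have := mem_of_zsmul_mem (⊥ : AddSubgroup X) hT hc (by rw [hcT]; exact (⊥ : AddSubgroup X).zero_mem)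
  exact (AddSubgroup.mem_bot).1 this

end

/-- **TORS**. -/
theorem stmt_TORS : Stmt_TORS := by
  intro p hp X _ hcard S P T hP hT hT0 hTS hPS
  have hind := tors_indep (p := p) S hP hT hT0 hTS hPS
  have hgen : ∀ Q : X, p • Q = 0 → ∃ a c : ℤ, Q = a • P + c • T := by
    have hpos : 0 < p := hp.out.pos
    have : NeZero p := ⟨hpos.ne'⟩
    have : Finite (Submodule.torsionBy ℤ X (p : ℤ)) := by
      apply Nat.finite_of_card_ne_zero
      rw [hcard]
      exact pow_ne_zero 2 hpos.ne'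
    -- the map `(a, c) ↦ a P + c T`
    have hP' : (p : ℤ) • P = 0 := by rw [natCast_zsmul]; exact hP
    have hT' : (p : ℤ) • T = 0 := by rw [natCast_zsmul]; exact hT
    have hmem : ∀ a c : ℤ, a • P + c • T ∈ Submodule.torsionBy ℤ X (p : ℤ) := fun a c => by
      rw [Submodule.mem_torsionBy_iff, smul_add, smul_comm (p : ℤ) a P, smul_comm (p : ℤ) c T,
        hP', hT', smul_zero, smul_zero, add_zero]
    let f : ZMod p × ZMod p → Submodule.torsionBy ℤ X (p : ℤ) := fun ac =>
      ⟨((ac.1.val : ℤ)) • P + ((ac.2.val : ℤ)) • T, hmem _ _⟩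
    have hinj : Function.Injective f := by
      intro ⟨a, c⟩ ⟨a', c'⟩ h
      have h1 : ((a.val : ℤ)) • P + ((c.val : ℤ)) • T = ((a'.val : ℤ)) • P + ((c'.val : ℤ)) • T :=
        congrArg Subtype.val h
      have h2 : ((a.val : ℤ) - (a'.val : ℤ)) • P + ((c.val : ℤ) - (c'.val : ℤ)) • T = 0 := by
        rw [sub_zsmul, sub_zsmul]
        have := sub_eq_zero.2 h1
        rw [← this]
        abel
      obtain ⟨d1, d2⟩ := hind _ _ h2
      have e1 : a = a' := by
        have := (ZMod.intCast_eq_intCast_iff_dvd_sub (a'.val : ℤ) (a.val : ℤ) p).2 d1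
        simpa using this.symm
      have e2 : c = c' := by
        have := (ZMod.intCast_eq_intCast_iff_dvd_sub (c'.val : ℤ) (c.val : ℤ) p).2 d2
        simpa using this.symm
      rw [e1, e2]
    have hbij : Function.Bijective f := by
      apply hinj.bijective_of_nat_card_le
      rw [hcard, Nat.card_prod, Nat.card_eq_fintype_card, ZMod.card, pow_two]
    intro Q hQ
    have hQm : Q ∈ Submodule.torsionBy ℤ X (p : ℤ) := by
      rw [Submodule.mem_torsionBy_iff, natCast_zsmul]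
      exact hQ
    obtain ⟨⟨a, c⟩, hac⟩ := hbij.2 ⟨Q, hQm⟩
    exact ⟨(a.val : ℤ), (c.val : ℤ), (congrArg Subtype.val hac).symm⟩
  refine ⟨hind, hgen, ?_⟩
  intro Q hQ hQS
  obtain ⟨a, c, rfl⟩ := hgen Q hQ
  have ha : (p : ℤ) ∣ a := by
    by_contra ha
    apply hPS
    refine mem_of_zsmul_mem S hP ha ?_
    have : a • P = (a • P + c • T) - c • T := by abel
    rw [this]
    exact S.sub_mem hQS (S.zsmul_mem hTS c)
  exact ⟨c, by rw [zsmul_eq_zero_of_dvd hP ha, zero_add]⟩

end Fermat.Agent.S59.TRes.H8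

end
-- ==== END Fermat.Agent.S59.TRes.H8_Tors
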