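-- GENERATED (merged mirror, NOTES/tools/trim/merge3_helper67.py): 7 modules of the originals, bodies verbatim.
import Mathlib
import Fermat.Agent.Zm.S59_L05_004
import Fermat.Agent.Zm.S59_L01_003
import Fermat.Agent.Zm.S36_L03_000
import Fermat.Agent.Zm.S59_L02_004
import Fermat.Agent.Zm.S59_L05_002
import Fermat.Agent.Zm.S59_L03_004
import Fermat.Agent.Zm.S59_L02_005
import Fermat.Agent.Zm.S43_L13_002
import Fermat.Agent.Zm.S43_L14_003
import Fermat.Agent.Zm.S59_L01_005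
import Fermat.Agent.Zm.S59_L03_002
import Fermat.Agent.Zm.S59_L05_003
import Fermat.Agent.Zm.S43_L04_002
import Fermat.Agent.Zm.S59_L04_005
import Fermat.Agent.Zm.S59_L03_005
import Fermat.Agent.Zm.S59_L04_006
import Fermat.Agent.Zm.S44_L10_000
import Fermat.Agent.Lib.EllFinite.H46_Finrank

-- ==== BEGIN Fermat.Agent.S59.LL.SQ23.H72_Gal
section

/-!
# S59 / LL / SQ23, leaf S3-GAL (helper72): `stmt_S3Gal : Stmt_S3Gal`

At level `4M'` (`M'` odd) the two degeneracy maps `α, β : F_{2M'} → F_{4M'}` have degree `2`, the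
middle map `F_{M'} → F_{4M'}` has degree `6`, and `j(q) ∈ α F_{2M'}` is not in `β F_{2M'}`
(coefficient of `q⁻¹`).  The abstract Galois theory of `H72_GalAbs.lean` gives the two deck
involutions with `(s₀ s₁)³ = 1`.
-/

set_option autoImplicit false
set_option linter.style.haveILetI false
set_option linter.unusedVariables false
set_option linter.unusedSectionVars false

noncomputable section

namespace Fermat.Agent.S59.LL.SQ23.H72

open AlgebraicCurve ModularCurve Fermat.Agent.S24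

local notation "Kb" => AlgebraicClosure ℚ

/-- The coefficient of `q⁻¹` of `j` is `1`. -/
theorem coeff_jF_neg_one (M : ℕ) [NeZero M] :
    ((jF M : FN M) : LaurentSeries Kb).coeff (-1 : ℤ) = 1 := by
  show (coeffEmb Kb jq).coeff (-1 : ℤ) = 1
  rw [coeffEmb_coeff, coeff_jq_neg_one, map_one]

/-- `j(q)` is not in the range of `β` (`q ↦ q²`). -/
theorem beta_ne_alpha_jF (M : ℕ) [NeZero M] (y : FN M) :
    heckeBetaBar Kb M 2 y ≠ heckeAlphaBar Kb M 2 (jF M) := by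
  intro h
  have h1 : ((heckeBetaBar Kb M 2 y : FN (M * 2)) : LaurentSeries Kb).coeff (-1 : ℤ)
      = ((heckeAlphaBar Kb M 2 (jF M) : FN (M * 2)) : LaurentSeries Kb).coeff (-1 : ℤ) := by
    rw [h]
  have hz : (qExpand Kb 2 (y : LaurentSeries Kb)).coeff (-1 : ℤ) = 0 :=
    qExpand_coeff_of_not_dvd 2 _ (by norm_num)
  rw [coe_heckeBetaBar, coe_heckeAlphaBar, coeff_jF_neg_one, hz] at h1
  exact zero_ne_one h1

/-- **S3-GAL.** -/
theorem stmt_S3Gal : Stmt_S3Gal := by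
  intro M _ h2 h4
  obtain ⟨M', hM'⟩ : ∃ M', M = M' * 2 := ⟨M / 2, (Nat.div_mul_cancel h2).symm⟩
  subst hM'
  haveI : NeZero M' := ⟨fun h => NeZero.ne (M' * 2) (by rw [h, zero_mul])⟩
  have hodd : ¬ 2 ∣ M' := fun h => h4 (by
    obtain ⟨k, rfl⟩ := h
    exact ⟨k, by ring⟩)
  have ha : finrankAlong Kb (heckeAlphaBar Kb (M' * 2) 2) = 2 :=
    Fermat.Agent.NEB.OLD.H6.finrankAlong_alpha_of_dvd (M' * 2) 2 Nat.prime_two
      (dvd_mul_left 2 M')
  have hb : finrankAlong Kb (heckeBetaBar Kb (M' * 2) 2) = 2 :=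
    Fermat.Agent.NEB.Geom.H70.finrankAlong_beta_of_dvd (M' * 2) 2 Nat.prime_two
      (dvd_mul_left 2 M')
  have hc0 : finrankAlong Kb (heckeBetaBar Kb M' 2) = 2 + 1 :=
    Fermat.Agent.RED.H95.finrankAlong_beta Nat.prime_two hodd
  have hc : Fermat.Agent.S36.H44.finrankHom
      ((heckeAlphaBar Kb (M' * 2) 2).toRingHom.comp (heckeBetaBar Kb M' 2).toRingHom) = 6 := by
    have h := Fermat.Agent.S36.H44.finrank_comp_h44 (heckeBetaBar Kb M' 2).toRingHom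
      (heckeAlphaBar Kb (M' * 2) 2).toRingHom
    have e1 : Fermat.Agent.S36.H44.finrankHom (heckeBetaBar Kb M' 2).toRingHom = 2 + 1 := hc0
    have e2 : Fermat.Agent.S36.H44.finrankHom (heckeAlphaBar Kb (M' * 2) 2).toRingHom = 2 := ha
    rw [e1, e2] at h
    exact h
  obtain ⟨s0, s1, h00, h11, h0b, h1a, h0f, h1f, hc3⟩ :=
    s3_of_degrees (heckeAlphaBar Kb (M' * 2) 2) (heckeBetaBar Kb (M' * 2) 2)
      (heckeBetaBar Kb M' 2) (heckeAlphaBar Kb M' 2)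
      (fun z => Subtype.ext (by
        simp only [coe_heckeBetaBar, coe_heckeAlphaBar]))
      ha hb hc ⟨jF (M' * 2), fun y => beta_ne_alpha_jF (M' * 2) y⟩
  exact ⟨{ s0 := s0, s1 := s1, s0_s0 := h00, s1_s1 := h11, s0_beta := h0b, s1_alpha := h1a,
           s0_fixed := h0f, s1_fixed := h1f, c3 := hc3 }⟩

end Fermat.Agent.S59.LL.SQ23.H72

end
end
-- ==== END Fermat.Agent.S59.LL.SQ23.H72_Gal

-- ==== BEGIN Fermat.Agent.S59.NonMin.Geom.H11_Orb3
section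

/-!
# S59 / NMGEOM, leaf ORB3 (helper11): the orbits of `Γ₀(N q²)` on `X_N` and `TT ℓ`

* `exists_gamma0_of_dvd` : the orbit criterion: for `g = [a b; c d]`, `g' = [a' b'; c' d']` in
  `SL₂(ℤ)` and `t` with `n ∣ c' d - c d' - t c c'`, the matrix `g' [1 t; 0 1] g⁻¹` lies in
  `Γ₀(n)` and maps `a / c` to `a' / c'`.
* `exists_gamma0_of_class` : two points of `X_N` with `q ∣ den` and the same class
  `num · (den / q) mod q` are conjugate under `Γ₀(N q²)`.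
* `branch_class` : the class is preserved by the branches `(x r + y) / w`, `x w = ℓ`,
  `ℓ ≡ 1 mod q`.
* `stmt_ORB3 : H78.Stmt_ORB3`.
-/

set_option autoImplicit false

open scoped MatrixGroups
open CongruenceSubgroup Matrix

namespace Fermat.Agent.S59.NonMin.Geom.H11

open Fermat.Agent.S41 Fermat.Agent.S41.H19 Fermat.Agent.S41.Ihara

/-- The orbit criterion. -/
lemma exists_gamma0_of_dvd (n : ℕ) {a b c d a' b' c' d' t : ℤ} (h1 : a * d - b * c = 1)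
    (h2 : a' * d' - b' * c' = 1) (hc : c ≠ 0) (hc' : c' ≠ 0)
    (ht : (n : ℤ) ∣ c' * d - c * d' - t * c * c') :
    ∃ h : Gamma0 n, mob (mat h) ((a : ℚ) / (c : ℚ)) = (a' : ℚ) / (c' : ℚ) := by
  have hdvd : (n : ℤ) ∣ c' * d - (c' * t + d') * c := by
    have e : c' * d - (c' * t + d') * c = c' * d - c * d' - t * c * c' := by ring
    rw [e]
    exact ht
  refine ⟨mkG0 n (a' * d - (a' * t + b') * c) (-(a' * b) + (a' * t + b') * a)
    (c' * d - (c' * t + d') * c) (-(c' * b) + (c' * t + d') * a)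
    (by linear_combination (a * d - b * c) * h2 + h1) hdvd, ?_⟩
  rw [mat_mkG0]
  simp only [mob, Matrix.of_apply, Matrix.cons_val', Matrix.cons_val_zero, Matrix.cons_val_one,
    Matrix.empty_val', Matrix.cons_val_fin_one]
  push_cast
  have hcq : (c : ℚ) ≠ 0 := by exact_mod_cast hc
  have hcq' : (c' : ℚ) ≠ 0 := by exact_mod_cast hc'
  have h1q : (a : ℚ) * d - b * c = 1 := by exact_mod_cast h1
  have e1 : ((a' : ℚ) * d - (a' * t + b') * c) * ((a : ℚ) / c) + (-((a' : ℚ) * b) + (a' * t + b') * a)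
      = (a' : ℚ) / c := by
    field_simp
    linear_combination (a' : ℚ) * h1q
  have e2 : ((c' : ℚ) * d - (c' * t + d') * c) * ((a : ℚ) / c) + (-((c' : ℚ) * b) + (c' * t + d') * a)
      = (c' : ℚ) / c := by
    field_simp
    linear_combination (c' : ℚ) * h1q
  rw [e1, e2, div_div_div_cancel_right₀ hcq]

/-- Two points of `X_N` with `q ∣ den` and the same class `num · (den / q) mod q` are conjugate
under `Γ₀(N q²)`. -/
lemma exists_gamma0_of_class {N q : ℕ} {r s : ℚ} (hr : InX N r) (hs : InX N s)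
    {c₁ c₁' : ℤ} (hc : (r.den : ℤ) = q * c₁) (hc' : (s.den : ℤ) = q * c₁')
    (hcl : (q : ℤ) ∣ s.num * c₁' - r.num * c₁) :
    ∃ h : Gamma0 (N * q ^ 2), mob (mat h) r = s := by
  obtain ⟨u, v, hb⟩ : IsCoprime r.num (r.den : ℤ) :=
    Int.isCoprime_iff_gcd_eq_one.mpr (by exact_mod_cast r.reduced)
  obtain ⟨u', v', hb'⟩ : IsCoprime s.num (s.den : ℤ) :=
    Int.isCoprime_iff_gcd_eq_one.mpr (by exact_mod_cast s.reduced)
  obtain ⟨k, hk⟩ := hcl
  obtain ⟨w, w', hw⟩ : IsCoprime ((r.den : ℤ) * (s.den : ℤ)) (N : ℤ) :=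
    hr.isCoprime.mul_left hs.isCoprime
  have hX : (s.den : ℤ) * u - (r.den : ℤ) * u'
      = (q : ℤ) ^ 2 * (u * u' * k + c₁' ^ 2 * u * v' - c₁ ^ 2 * u' * v) := by
    rw [hc] at hb
    rw [hc'] at hb'
    rw [hc, hc']
    linear_combination (-((q : ℤ) * c₁' * u)) * hb' + ((q : ℤ) * c₁ * u') * hb
      + ((q : ℤ) * u * u') * hk
  have hrd : (r.den : ℤ) ≠ 0 := by exact_mod_cast r.den_nz
  have hsd : (s.den : ℤ) ≠ 0 := by exact_mod_cast s.den_nz
  have h1 : r.num * u - (-v) * (r.den : ℤ) = 1 := by linear_combination hb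
  have h2 : s.num * u' - (-v') * (s.den : ℤ) = 1 := by linear_combination hb'
  have ht : ((N * q ^ 2 : ℕ) : ℤ) ∣ (s.den : ℤ) * u - (r.den : ℤ) * u'
      - (((s.den : ℤ) * u - (r.den : ℤ) * u') * w) * (r.den : ℤ) * (s.den : ℤ) := by
    refine ⟨(u * u' * k + c₁' ^ 2 * u * v' - c₁ ^ 2 * u' * v) * w', ?_⟩
    push_cast
    linear_combination (-((s.den : ℤ) * u - (r.den : ℤ) * u')) * hw + (w' * (N : ℤ)) * hX
  obtain ⟨h, hh⟩ := exists_gamma0_of_dvd (N * q ^ 2) h1 h2 hrd hsd ht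
  refine ⟨h, ?_⟩
  have er : (r.num : ℚ) / (((r.den : ℤ)) : ℚ) = r := by
    push_cast
    exact Rat.num_div_den r
  have es : (s.num : ℚ) / (((s.den : ℤ)) : ℚ) = s := by
    push_cast
    exact Rat.num_div_den s
  rw [er, es] at hh
  exact hh

/-- The square of a divisor of a prime `ℓ ≡ 1 mod q` is `≡ 1 mod q`. -/
lemma sq_sub_one_dvd_of_dvd_prime {q ℓ : ℕ} (hℓ : ℓ.Prime) (hℓq : (q : ℤ) ∣ (ℓ : ℤ) - 1)
    {g : ℤ} (hg : g ∣ (ℓ : ℤ)) : (q : ℤ) ∣ g ^ 2 - 1 := by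
  have h1 : g.natAbs ∣ ℓ := by
    have := Int.natAbs_dvd_natAbs.mpr hg
    simpa using this
  have h2 : g ^ 2 = ((g.natAbs : ℕ) : ℤ) ^ 2 := by
    rw [Int.natCast_natAbs, sq_abs]
  rcases (Nat.dvd_prime hℓ).mp h1 with h | h
  · rw [h2, h]
    simp
  · rw [h2, h]
    obtain ⟨m, hm⟩ := hℓq
    exact ⟨m * ((ℓ : ℤ) + 1), by linear_combination ((ℓ : ℤ) + 1) * hm⟩

/-- The class `num · (den / q) mod q` is preserved by the branches of `TT ℓ`, `ℓ ≡ 1 mod q`. -/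
lemma branch_class {q ℓ : ℕ} (hq : q.Prime) (hℓ : ℓ.Prime) (hℓq : (q : ℤ) ∣ (ℓ : ℤ) - 1)
    {r s : ℚ} {x y w : ℤ} (hxw : x * w = (ℓ : ℤ)) (hw0 : w ≠ 0)
    (hs : s = ((x : ℚ) * r + (y : ℚ)) / (w : ℚ)) {c₁ c₁' : ℤ}
    (hc : (r.den : ℤ) = q * c₁) (hc' : (s.den : ℤ) = q * c₁') :
    (q : ℤ) ∣ s.num * c₁' - r.num * c₁ := by
  have hq0 : (q : ℤ) ≠ 0 := by exact_mod_cast hq.ne_zero
  have hrd : (r.den : ℤ) ≠ 0 := by exact_mod_cast r.den_nz
  have hsd : (s.den : ℤ) ≠ 0 := by exact_mod_cast s.den_nz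
  -- cross multiplication
  have hcross : s.num * (w * (r.den : ℤ)) = (x * r.num + y * (r.den : ℤ)) * (s.den : ℤ) := by
    have hrdq : (r.den : ℚ) ≠ 0 := by exact_mod_cast r.den_nz
    have hsdq : (s.den : ℚ) ≠ 0 := by exact_mod_cast s.den_nz
    have hwq : (w : ℚ) ≠ 0 := by exact_mod_cast hw0
    have e1 : (s.num : ℚ) = s * s.den := (Rat.mul_den_eq_num s).symm
    have e2 : (r.num : ℚ) = r * r.den := (Rat.mul_den_eq_num r).symm
    have : ((s.num * (w * (r.den : ℤ)) : ℤ) : ℚ)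
        = (((x * r.num + y * (r.den : ℤ)) * (s.den : ℤ) : ℤ) : ℚ) := by
      push_cast
      rw [e1, e2, hs]
      field_simp
    exact_mod_cast this
  -- `w c = c' g`
  have hcop' : IsCoprime (s.den : ℤ) s.num :=
    (Int.isCoprime_iff_gcd_eq_one.mpr (by exact_mod_cast s.reduced)).symm
  have hdvd : (s.den : ℤ) ∣ w * (r.den : ℤ) := by
    apply hcop'.dvd_of_dvd_mul_left
    exact ⟨x * r.num + y * (r.den : ℤ), by linear_combination hcross⟩
  obtain ⟨g, hg⟩ := hdvd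
  have hag : s.num * g = x * r.num + y * (r.den : ℤ) := by
    apply mul_left_cancel₀ hsd
    rw [hg] at hcross
    linear_combination hcross
  -- `g ∣ ℓ`
  obtain ⟨u, v, hb⟩ : IsCoprime r.num (r.den : ℤ) :=
    Int.isCoprime_iff_gcd_eq_one.mpr (by exact_mod_cast r.reduced)
  have hgl : g ∣ (ℓ : ℤ) := by
    refine ⟨u * (w * s.num - y * (s.den : ℤ)) + v * x * (s.den : ℤ), ?_⟩
    linear_combination (-(x * w)) * hb - hxw + (-(u * w)) * hag + (v * x - u * y) * hg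
  have hg2 := sq_sub_one_dvd_of_dvd_prime hℓ hℓq hgl
  -- `w c₁ = c₁' g`
  have hg1 : w * c₁ = c₁' * g := by
    apply mul_left_cancel₀ hq0
    rw [hc, hc'] at hg
    linear_combination hg
  -- the class
  obtain ⟨m, hm⟩ := hℓq
  obtain ⟨m2, hm2⟩ := hg2
  refine ⟨m * r.num * c₁ + y * w * c₁ ^ 2 - m2 * s.num * c₁', ?_⟩
  rw [hc] at hag
  linear_combination (c₁' * g) * hag - (x * r.num + y * ((q : ℤ) * c₁)) * hg1
    + (r.num * c₁) * hxw + (r.num * c₁) * hm - (s.num * c₁') * hm2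

/-- **ORB3**: on a `Γ₀(N q²)`-invariant function on `X_N`, `TT ℓ` acts by `ℓ + 1` if
`ℓ ≡ 1 mod N q²`. -/
theorem stmt_ORB3 : H78.Stmt_ORB3 := by
  intro N q hN hq hqN A _ E hE ℓ hℓ hℓNq hℓ1 r hr
  have hℓN : ¬ ℓ ∣ N := fun h => hℓNq (Dvd.dvd.mul_right h q)
  have hℓq : ℓ ≠ q := by
    rintro rfl
    exact hℓNq (Dvd.intro_left N rfl)
  have hcop : ℓ.Coprime N := (Nat.Prime.coprime_iff_not_dvd hℓ).mpr hℓN
  have hℓ1q : (q : ℤ) ∣ (ℓ : ℤ) - 1 := by
    have h1 : ℓ ≡ 1 [MOD N * q ^ 2] := hℓ1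
    have h2 : ℓ ≡ 1 [MOD q] := h1.of_dvd ⟨N * q, by ring⟩
    have h3 := (Nat.modEq_iff_dvd.mp h2.symm)
    simpa using h3
  rw [TT_eq_sum_aMat]
  have hterm : ∀ j : Option (Fin ℓ), E (mob (aMat ℓ j) r) = E r := by
    intro j
    have hs : InX N (mob (aMat ℓ j) r) := inX_mob_aMat hcop j hr
    have hiff := dvd_den_mob_aMat_iff hq hℓ hℓq j r
    by_cases hqr : q ∣ r.den
    · have hqs : q ∣ (mob (aMat ℓ j) r).den := hiff.mpr hqr
      obtain ⟨c₁, hc₁⟩ := hqr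
      obtain ⟨c₁', hc₁'⟩ := hqs
      have hc : (r.den : ℤ) = (q : ℤ) * (c₁ : ℤ) := by exact_mod_cast hc₁
      have hc' : ((mob (aMat ℓ j) r).den : ℤ) = (q : ℤ) * (c₁' : ℤ) := by exact_mod_cast hc₁'
      have hcl : (q : ℤ) ∣ (mob (aMat ℓ j) r).num * (c₁' : ℤ) - r.num * (c₁ : ℤ) := by
        rcases j with _ | j
        · refine branch_class hq hℓ hℓ1q (x := (ℓ : ℤ)) (y := 0) (w := 1) (by ring) one_ne_zero
            ?_ hc hc'
          rw [mob_aMat_none]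
          simp
        · refine branch_class hq hℓ hℓ1q (x := 1) (y := ((j : ℕ) : ℤ)) (w := (ℓ : ℤ)) (by ring)
            (by exact_mod_cast hℓ.ne_zero) ?_ hc hc'
          rw [mob_aMat_some]
          simp
      obtain ⟨h, hh⟩ := exists_gamma0_of_class hr hs hc hc' hcl
      rw [← hh]
      exact hE h r hr
    · have hqs : ¬ q ∣ (mob (aMat ℓ j) r).den := fun h => hqr (hiff.mp h)
      have key : ∀ t : ℚ, InX N t → ¬ q ∣ t.den → E t = E 0 := by
        intro t ht hqt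
        have h1 : t.den.Coprime (q ^ 2) :=
          Nat.Coprime.pow_right 2 ((Nat.Prime.coprime_iff_not_dvd hq).mpr hqt).symm
        have ht' : InX (N * q ^ 2) t := Nat.Coprime.mul_right ht h1
        obtain ⟨g, hg⟩ := exists_mob_zero ht'
        rw [← hg]
        exact hE g 0 (inX_zero N)
      rw [key _ hs hqs, key r hr hqr]
  rw [Finset.sum_congr rfl (fun j _ => hterm j), Finset.sum_const, Finset.card_univ,
    Fintype.card_option, Fintype.card_fin]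

end Fermat.Agent.S59.NonMin.Geom.H11

end
-- ==== END Fermat.Agent.S59.NonMin.Geom.H11_Orb3

-- ==== BEGIN Fermat.Agent.S59.NonMin.Geom.Rank.H2_Final
section

/-!
# S59 / NMGEOM / RANK and P-RANK: wiring of the landed leaves (plan helper27, file helper2)

* `stmt_CLAIM`, `stmt_MULT1`, `stmt_PSTRUCT`, `stmt_PQUAD`, `stmt_PMULT1U` : unconditional;
* `rank_of_betti : Stmt_LAT → Stmt_FIELD → Stmt_ES → Geom.Stmt_RANK`;
* `prank_of_rest : Stmt_LAT → Stmt_FIELD → Stmt_ES → Stmt_FIELDU → Stmt_PLAT →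
    CaseC.Geom.Stmt_PRANK` (all other leaves are landed and inserted).
-/

set_option autoImplicit false

namespace Fermat.Agent.S59.NonMin.Geom.Rank.H2F

open Fermat.Agent.S59.NonMin.Geom.Rank

/-- **CLAIM**, unconditional. -/
theorem stmt_CLAIM : Stmt_CLAIM :=
  H38.claim_of H25.stmt_DEPL H56.stmt_MAIN H56.stmt_MAINb

/-- **MULT1**, unconditional. -/
theorem stmt_MULT1 : Stmt_MULT1 :=
  H78.mult1_of stmt_CLAIM H38.stmt_COEF H2.stmt_NOLOW

/-- **P-STRUCT**, unconditional. -/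
theorem stmt_PSTRUCT : Stmt_PSTRUCT :=
  H38.pstruct_of stmt_CLAIM H38.stmt_COEF H2.stmt_NOLOW H25.stmt_DEPL H56.stmt_MAIN

/-- **P-QUAD**, unconditional. -/
theorem stmt_PQUAD : Stmt_PQUAD :=
  H56.pquad_of stmt_PSTRUCT stmt_MULT1 H75.stmt_NONVAN

/-- **P-MULT1U**, unconditional. -/
theorem stmt_PMULT1U : Stmt_PMULT1U :=
  H56.pmult1u_of stmt_PSTRUCT

/-- `Geom.Stmt_RANK` from the three Betti leaves. -/
theorem rank_of_betti (hLAT : Stmt_LAT) (hFIELD : Stmt_FIELD) (hES : Stmt_ES) :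
    Fermat.Agent.S59.NonMin.Geom.Stmt_RANK :=
  H27.stmt_RANKASM hLAT hFIELD H13.stmt_EMBED hES stmt_MULT1 H75.stmt_NONVAN

/-- `CaseC.Geom.Stmt_PRANK` from the leaves in progress. -/
theorem prank_of_rest (hLAT : Stmt_LAT) (hFIELD : Stmt_FIELD) (hES : Stmt_ES)
    (hFIELDU : Stmt_FIELDU) (hPLAT : Stmt_PLAT) :
    Fermat.Agent.S59.CaseC.Geom.Stmt_PRANK :=
  H27.stmt_PRANKASM hLAT hFIELD hES H75.stmt_NONVAN H13.stmt_EMBEDA
    stmt_PQUAD stmt_PMULT1U H34.stmt_ESU hFIELDU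
    H26.stmt_RELTR H11.stmt_UINJ H2.stmt_PORDALGR hPLAT

end Fermat.Agent.S59.NonMin.Geom.Rank.H2F

end
-- ==== END Fermat.Agent.S59.NonMin.Geom.Rank.H2_Final

-- ==== BEGIN Fermat.Agent.S59.NonMin.H12_Base
section

/-!
# S59 RT-NONMIN, leaf BASE (helper12)

`stmt_BASE_of : Stmt_ETANE → Stmt_BASE`: at the minimal level, if the Hecke module is free over
the deformation ring and the deformation ring is a complete intersection, then `R = T`,
`rank M[x] = d` and `(#Φ_R)^d = #Ω_x(M)` (`d` = the rank of `M` over `R`).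
Abstract core: `H12.base_core` (NC2 + `card_omega_of_free`).
-/

set_option autoImplicit false
set_option linter.style.haveILetI false
set_option linter.unusedVariables false

open Polynomial CuspForm CongruenceSubgroup ModularFormClass IsLocalRing

namespace Fermat.Agent.S59.NonMin.H12

open Fermat.Agent.S59 Fermat.Agent.S59.Asm Fermat.Agent.S59.NumCrit

/-- the eigenspace of `x` is `V[ker πx]`. -/
theorem eigen_eq_torsionBySet {𝒪 : Type} [CommRing 𝒪] [IsLocalRing 𝒪] (s : NMState 𝒪)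
    {T : Type} [CommRing T] [Algebra 𝒪 T]
    (π₀ : CuspForm.heckeAlgebra s.N 2 (↑s.S : Set ℕ) →+* T)
    (hgen : Algebra.adjoin 𝒪 (Set.range π₀) = ⊤)
    (x : CuspForm.heckeAlgebra s.N 2 (↑s.S : Set ℕ) →+* 𝒪)
    (ηhat : T →ₐ[𝒪] Module.End 𝒪 s.M.V) (hηhat : ∀ t, ηhat (π₀ t) = s.M.η t)
    (πx : T →ₐ[𝒪] 𝒪) (hπx : ∀ t, πx (π₀ t) = x t) :
    s.eigen x =
      letI : Module T s.M.V := Module.compHom s.M.V (ηhat : T →+* Module.End 𝒪 s.M.V)
      haveI : IsScalarTower 𝒪 T s.M.V := ⟨fun a τ v => by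
        show ηhat (a • τ) v = a • ηhat τ v
        rw [map_smul]; rfl⟩
      (Submodule.torsionBySet T s.M.V (RingHom.ker πx : Set T)).restrictScalars 𝒪 := by
  letI : Module T s.M.V := Module.compHom s.M.V (ηhat : T →+* Module.End 𝒪 s.M.V)
  haveI : IsScalarTower 𝒪 T s.M.V := ⟨fun a τ v => by
    show ηhat (a • τ) v = a • ηhat τ v
    rw [map_smul]; rfl⟩
  have hsmul : ∀ (τ : T) (v : s.M.V), τ • v = ηhat τ v := fun _ _ => rfl
  ext v
  rw [NMState.mem_eigen, Submodule.restrictScalars_mem, Submodule.mem_torsionBySet_iff]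
  constructor
  · intro h
    have key : ∀ τ : T, ηhat τ v = πx τ • v := by
      intro τ
      have hτ : τ ∈ Algebra.adjoin 𝒪 (Set.range π₀) := by rw [hgen]; trivial
      induction hτ using Algebra.adjoin_induction with
      | mem y hy =>
        obtain ⟨t, rfl⟩ := hy
        rw [hηhat, hπx, h]
      | algebraMap a =>
        rw [AlgHom.commutes, AlgHom.commutes]
        rfl
      | add y z _ _ hy hz =>
        rw [map_add, map_add, LinearMap.add_apply, hy, hz, add_smul]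
      | mul y z _ _ hy hz =>
        rw [map_mul, map_mul, Module.End.mul_apply, hz, map_smul, hy, smul_smul, mul_comm]
    rintro ⟨τ, hτ⟩
    show τ • v = 0
    rw [hsmul, key, RingHom.mem_ker.mp hτ, zero_smul]
  · intro h t
    have hv : v ∈ Submodule.torsionBySet T s.M.V (RingHom.ker πx : Set T) := by
      rw [Submodule.mem_torsionBySet_iff]
      exact h
    have := H12.smul_eq_of_mem_torsionBySet_ker (π := πx) (π₀ t) hv
    rw [hsmul, hηhat, hπx] at this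
    exact this

/-- **BASE**. -/
theorem stmt_BASE_of (hE : Stmt_ETANE) : Stmt_BASE := by
  intro 𝒪 _ _ _ _ _ _ p _ hp2 hp𝒪 fl ρbar Smin hres s _ hlev x hx D H hHπ φ hφloc hφsurj hequiv
    ηhat hηhat r γ g hγ hg hfree hnt
  obtain ⟨πx, hπx⟩ := H.exists_point x hx
  rw [hHπ] at hπx
  have hη : eta πx ≠ ⊥ := hE 𝒪 s.N s.S hlev.dvd_mem s.θ πx
  have hgen : Algebra.adjoin 𝒪 (Set.range (CuspForm.heckeLocal.π s.N (↑s.S : Set ℕ) 𝒪 s.θ)) = ⊤ := by
    rw [← hHπ]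
    exact H.adjoin_range_π
  have heig := eigen_eq_torsionBySet s (CuspForm.heckeLocal.π s.N (↑s.S : Set ℕ) 𝒪 s.θ) hgen x
    ηhat hηhat πx hπx
  letI modT : Module (CuspForm.heckeLocal s.N (↑s.S : Set ℕ) 𝒪 s.θ) s.M.V :=
    Module.compHom s.M.V
      (ηhat : CuspForm.heckeLocal s.N (↑s.S : Set ℕ) 𝒪 s.θ →+* Module.End 𝒪 s.M.V)
  haveI : IsScalarTower 𝒪 (CuspForm.heckeLocal s.N (↑s.S : Set ℕ) 𝒪 s.θ) s.M.V :=
    ⟨fun a τ v => by
      show ηhat (a • τ) v = a • ηhat τ v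
      rw [map_smul]; rfl⟩
  letI modR : Module D.R s.M.V := Module.compHom s.M.V
    ((ηhat.comp φ : D.R →ₐ[𝒪] Module.End 𝒪 s.M.V) : D.R →+* Module.End 𝒪 s.M.V)
  haveI : Module.Free D.R s.M.V := hfree
  have hRT : ∀ (a : D.R) (v : s.M.V), a • v = φ a • v := fun _ _ => rfl
  obtain ⟨hbij, d, hd, hrank, hfin, hcard⟩ := base_core φ hφsurj hRT πx hη r γ g hγ hg
  refine ⟨d, hd, ?_, D, H, φ, hφloc, ηhat, πx, hHπ, hbij, hequiv, hηhat, hπx, hfin, hcard⟩
  rw [heig]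
  exact hrank

end Fermat.Agent.S59.NonMin.H12

end
-- ==== END Fermat.Agent.S59.NonMin.H12_Base

-- ==== BEGIN Fermat.Agent.S59.NonMin.H80_SelmerP
section

set_option autoImplicit false
set_option linter.unusedSectionVars false
set_option linter.style.haveILetI false

open IsLocalRing

namespace Fermat.Agent.S59.NonMin.H80

open Fermat.Agent.S53 Fermat.Agent.S59 Fermat.Agent.L.Pivot Fermat.Agent.S56.H92

/-- Elements fixing the `p`-power roots of unity have determinant `1`. -/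
theorem det_eq_one_of_fixesPRoots {A : Type} [CommRing A] [IsLocalRing A] [IsNoetherianRing A]
    (p : ℕ) (ρ : GaloisRepAdic A) (hdet : ρ.DetIsCyclotomic p)
    (σ : AlgebraicClosure ℚ ≃ₐ[ℚ] AlgebraicClosure ℚ) (hσ : FixesPRoots p σ) :
    LinearMap.det (ρ.ρ σ) = 1 := by
  rw [← sub_eq_zero]
  refine H59.eq_zero_of_forall_mem_span_pow p hdet.1 _ fun n => ?_
  have h := hdet.2 n σ 1 (fun μ hμ => by rw [pow_one]; exact hσ n μ hμ)
  rwa [Nat.cast_one] at h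

/-- The peu ramifié inertia fixes the `p`-power roots of unity. -/
theorem fixesPRoots_of_mem_Ipeu (p : ℕ) (P : ValuationSubring (AlgebraicClosure ℚ))
    (σ : AlgebraicClosure ℚ ≃ₐ[ℚ] AlgebraicClosure ℚ) (hσ : σ ∈ Ipeu p P) :
    FixesPRoots p σ := by
  intro n μ hμ
  refine hσ.2 μ n ?_
  rw [hμ]
  exact ⟨P.one_mem, by rw [inv_one]; exact P.one_mem, one_ne_zero, fun s _ => map_one s⟩

/-- If `ρ(σ) ≡ 1` modulo `J ⊆ ker π` then `π_* ρ (σ) = 1`. -/
theorem baseChangeAlong_eq_one {A C : Type} [CommRing A] [IsLocalRing A] [CommRing C]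
    [IsLocalRing C] (π : A →+* C) (hπ : IsLocalHom π) (ρ : GaloisRepAdic A)
    (σ : AlgebraicClosure ℚ ≃ₐ[ℚ] AlgebraicClosure ℚ) (J : Ideal A) (hJ : J ≤ RingHom.ker π)
    (h : ∀ v : ρ.V, ρ.ρ σ v - v ∈ J • (⊤ : Submodule A ρ.V)) :
    (ρ.baseChangeAlong π hπ).ρ σ = 1 := by
  obtain ⟨r, b, hb⟩ := exists_isMatOf ρ
  obtain ⟨bC, hbC⟩ := IsMatOf.baseChangeAlong π hπ (⟨b, hb⟩ : IsMatOf ρ r)
  apply (LinearMap.toMatrix bC bC).injective
  rw [hbC σ, LinearMap.toMatrix_one]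
  ext i j
  have h1 : (Fermat.Agent.S59.TWGal.mat b (ρ.ρ σ) - 1) i j ∈ J :=
    Fermat.Agent.S59.TWGal.mat_sub_one_mem b J (ρ.ρ σ) h i j
  have h2 : Fermat.Agent.S59.TWGal.mat b (ρ.ρ σ) = r σ := hb σ
  rw [h2] at h1
  have h3 : π ((r σ - 1) i j) = 0 := hJ h1
  rw [Matrix.sub_apply, map_sub, sub_eq_zero] at h3
  change π (r σ i j) = _
  rw [h3]
  by_cases hij : i = j
  · rw [hij, Matrix.one_apply_eq, Matrix.one_apply_eq, map_one]
  · rw [Matrix.one_apply_ne hij, Matrix.one_apply_ne hij, map_zero]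

section quot

variable {𝒪 : Type} [CommRing 𝒪] [IsDomain 𝒪] [IsDiscreteValuationRing 𝒪]
  [IsAdicComplete (maximalIdeal 𝒪) 𝒪] [Finite (ResidueField 𝒪)]
variable {ρbar : ResidualGaloisRep (ResidueField 𝒪)}
variable {𝒟 𝒟' : ∀ ⦃A : Type⦄ [CommRing A] [IsLocalRing A] [Algebra 𝒪 A], GaloisRepAdic A → Prop}

/-- If `D'.ρ` modulo `J` is of type `𝒟` (and `𝒟'`), then `ker τ ≤ J`. -/
theorem ker_le_of_quot
    (D : GaloisRep.DeformationRingData 𝒪 ρbar 𝒟) (D' : GaloisRep.DeformationRingData 𝒪 ρbar 𝒟')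
    (τ : D'.R →ₐ[𝒪] D.R) (hτ : IsLocalHom (τ : D'.R →+* D.R))
    (heq : (D'.ρ.baseChangeAlong (τ : D'.R →+* D.R) hτ).IsEquiv D.ρ)
    (J : Ideal D'.R) (hJ : J ≠ ⊤)
    (h : ∀ (C : Type) [CommRing C] [IsLocalRing C] [IsNoetherianRing C] [Algebra 𝒪 C]
      (π : D'.R →ₐ[𝒪] C) (hπ : IsLocalHom (π : D'.R →+* C)),
      J ≤ RingHom.ker (π : D'.R →+* C) → Finite (ResidueField C) →
        𝒟 (D'.ρ.baseChangeAlong (π : D'.R →+* C) hπ) ∧
          𝒟' (D'.ρ.baseChangeAlong (π : D'.R →+* C) hπ)) :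
    RingHom.ker (τ : D'.R →+* D.R) ≤ J := by
  classical
  letI : IsLocalRing (D'.R ⧸ J) := Fermat.Agent.L.Pivot.H52.isLocalRing_quotient J hJ
  haveI : IsAdicComplete (maximalIdeal (D'.R ⧸ J)) (D'.R ⧸ J) :=
    Fermat.Agent.L.Pivot.H52.isAdicComplete_quotient J hJ
  haveI hmk : IsLocalHom (Ideal.Quotient.mk J) :=
    Fermat.Agent.L.Pivot.H52.isLocalHom_quotient_mk J hJ
  haveI : IsLocalHom (algebraMap 𝒪 (D'.R ⧸ J)) := by
    refine ⟨fun a ha => ?_⟩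
    have h1 : IsUnit (algebraMap 𝒪 D'.R a) := isUnit_of_map_unit (Ideal.Quotient.mk J) _ ha
    exact isUnit_of_map_unit (algebraMap 𝒪 D'.R) a h1
  have hres : Function.Surjective (residue (D'.R ⧸ J) ∘ algebraMap 𝒪 (D'.R ⧸ J)) := by
    intro y
    obtain ⟨c, rfl⟩ := residue_surjective y
    obtain ⟨a, rfl⟩ := Ideal.Quotient.mk_surjective c
    obtain ⟨c0, hc0⟩ := exists_sub_mem_maximalIdeal D'.residue_surjective a
    refine ⟨c0, ?_⟩
    simp only [Function.comp_apply]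
    rw [← sub_eq_zero, ← map_sub, residue_eq_zero_iff]
    have h2 := Fermat.Agent.L.Pivot.H52.mk_mem_maximalIdeal J hJ
      ((maximalIdeal D'.R).neg_mem hc0)
    have e : Ideal.Quotient.mk J (-(a - algebraMap 𝒪 D'.R c0)) =
        algebraMap 𝒪 (D'.R ⧸ J) c0 - Ideal.Quotient.mk J a := by
      rw [neg_sub, map_sub]; rfl
    rw [e] at h2
    exact h2
  have hπ : IsLocalHom ((Ideal.Quotient.mkₐ 𝒪 J : D'.R →ₐ[𝒪] D'.R ⧸ J) : D'.R →+* D'.R ⧸ J) :=
    hmk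
  have hresC : Finite (ResidueField (D'.R ⧸ J)) :=
    Fermat.Agent.S53.H50.finite_residueField_of_surjective 𝒪 _ hres
  have hle : J ≤ RingHom.ker ((Ideal.Quotient.mkₐ 𝒪 J : D'.R →ₐ[𝒪] D'.R ⧸ J) :
      D'.R →+* D'.R ⧸ J) := by
    intro y hy
    rw [RingHom.mem_ker]
    exact Ideal.Quotient.eq_zero_iff_mem.2 hy
  obtain ⟨h1, h2⟩ := h (D'.R ⧸ J) (Ideal.Quotient.mkₐ 𝒪 J) hπ hle hresC
  have key := Fermat.Agent.S59.Asm.H80.ker_le_ker_of_isOfType D D' τ hτ heq (D'.R ⧸ J) hres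
    (Ideal.Quotient.mkₐ 𝒪 J) hπ h1 h2
  intro y hy
  have h3 := key hy
  rw [RingHom.mem_ker] at h3
  exact Ideal.Quotient.eq_zero_iff_mem.1 h3

end quot

/-- **SELMER-p**. -/
theorem selmerp_of (hK : Stmt_KUMp) (hF : Stmt_PEUFLAT) : Stmt_SELMERp := by
  intro 𝒪 _ _ _ _ _ p _ hp2 hp𝒪 ρbar Smin Sig hpSmin hprime D D' τ hτ heq x P hP g hg hgμ c hc
    hc0 hfin
  classical
  have hp : p.Prime := Fact.out
  have h𝒟 : GaloisRep.IsDeformationCondition 𝒪 (cond 𝒪 p true Smin Sig) := by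
    rw [H99.cond_eq_condB]
    exact H99.isDeformationCondition_condB 𝒪 p hp2 true Smin Sig
  have hτs : Function.Surjective τ :=
    Asm.H99.surjective_of_isEquiv h𝒟 D D'.ρ D'.residual_isEquiv τ hτ heq
  obtain ⟨⟨hdet, hord, hunr⟩, hunip⟩ := (D'.isOfType : condOrd 𝒪 p Smin Sig D'.ρ)
  obtain ⟨τ₀, hτ₀, hKUM⟩ := hK p hp hp2 P hP
  obtain ⟨hcomm, hgen⟩ := hKUM D'.R hdet.1 D'.ρ hdet hord
  obtain ⟨L, ⟨b, hL⟩, hstab, hin⟩ := hord P hP
  subst hL
  -- the matrices in the ordinary basis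
  obtain ⟨T, hTdef⟩ : ∃ T : M2 D'.R, T = LinearMap.toMatrix b b (D'.ρ.ρ τ₀) := ⟨_, rfl⟩
  obtain ⟨G, hGdef⟩ : ∃ G : M2 D'.R, G = LinearMap.toMatrix b b (D'.ρ.ρ g) := ⟨_, rfl⟩
  have hT : T 1 0 = 0 ∧ T 1 1 = 1 := by
    rw [hTdef]; exact (unip_iff b _).1 (hin τ₀ hτ₀.1)
  have hG10 : G 1 0 = 0 := by
    rw [hGdef]; exact (stable_iff b _).1 (hstab g hg)
  have hdetT : T.det = 1 := by
    rw [hTdef, LinearMap.det_toMatrix]
    exact det_eq_one_of_fixesPRoots p D'.ρ hdet τ₀ (fixesPRoots_of_mem_Ipeu p P τ₀ hτ₀)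
  have hdetG : G.det = 1 := by
    rw [hGdef, LinearMap.det_toMatrix]
    exact det_eq_one_of_fixesPRoots p D'.ρ hdet g hgμ
  have hcommM : G * T = T * G := by
    rw [hGdef, hTdef, ← LinearMap.toMatrix_mul, ← LinearMap.toMatrix_mul]
    exact congrArg _ (hcomm g hg hgμ)
  obtain ⟨hT00, hGG, hrel⟩ := ord_rel T G hT.1 hT.2 hdetT hG10 hdetG hcommM
  -- the trace
  obtain ⟨b1, hb1⟩ : IsMatOf D.ρ
      (fun σ => (LinearMap.toMatrix b b (D'.ρ.ρ σ)).map (τ : D'.R →+* D.R)) :=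
    Asm.H99.isMatOf_of_isEquiv (IsMatOf.baseChangeAlong (τ : D'.R →+* D.R) hτ
      (⟨b, fun σ => rfl⟩ : IsMatOf D'.ρ (fun σ => LinearMap.toMatrix b b (D'.ρ.ρ σ)))) heq
  have hb1' : LinearMap.toMatrix b1 b1 (D.ρ.ρ g) = G.map (τ : D'.R →+* D.R) := by
    rw [hGdef]; exact hb1 g
  have htr : x (D.ρ.trace g) = (x.comp τ) (G 0 0) + (x.comp τ) (G 1 1) := by
    unfold GaloisRepAdic.trace
    rw [LinearMap.trace_eq_matrix_trace D.R b1 (D.ρ.ρ g), hb1', Matrix.trace_fin_two, map_add]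
    rfl
  have hGGx : (x.comp τ) (G 0 0) * (x.comp τ) (G 1 1) = 1 := by
    rw [← map_mul, hGG, map_one]
  have hc' : c ^ 2 = ((x.comp τ) (G 0 0 - G 1 1)) ^ 2 := by
    rw [hc, htr, map_sub]
    linear_combination (4 : 𝒪) * hGGx
  obtain ⟨hw, E, hE, hEfin, hEcard⟩ :=
    span_w_card_le 𝒪 (x.comp τ) (T 0 1) (G 0 0 - G 1 1) hrel c hc' hc0
  -- `ρ'(τ₀) ≡ 1` modulo `J = (w)`
  have hJτ₀ : ∀ v : D'.ρ.V, D'.ρ.ρ τ₀ v - v ∈
      Ideal.span {T 0 1} • (⊤ : Submodule D'.R D'.ρ.V) := by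
    intro v
    refine H59.sub_mem_smul_top_of_mat b _ _ (fun i j => ?_) v
    have e : Fermat.Agent.S59.TWGal.mat b (D'.ρ.ρ τ₀) = T := hTdef.symm
    rw [e, Matrix.sub_apply]
    fin_cases i <;> fin_cases j
    · change T 0 0 - (1 : M2 D'.R) 0 0 ∈ _
      rw [hT00, Matrix.one_apply_eq, sub_self]
      exact Ideal.zero_mem _
    · change T 0 1 - (1 : M2 D'.R) 0 1 ∈ _
      rw [Matrix.one_apply_ne (by decide), sub_zero]
      exact Ideal.subset_span rfl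
    · change T 1 0 - (1 : M2 D'.R) 1 0 ∈ _
      rw [hT.1, Matrix.one_apply_ne (by decide), sub_zero]
      exact Ideal.zero_mem _
    · change T 1 1 - (1 : M2 D'.R) 1 1 ∈ _
      rw [hT.2, Matrix.one_apply_eq, sub_self]
      exact Ideal.zero_mem _
  have hJI := hgen _ hJτ₀
  have hJle : Ideal.span {T 0 1} ≤ RingHom.ker ((x.comp τ : D'.R →ₐ[𝒪] 𝒪) : D'.R →+* 𝒪) := by
    rw [Ideal.span_le]
    rintro y hy
    rw [Set.mem_singleton_iff.1 hy]
    exact hw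
  have hJne : Ideal.span {T 0 1} ≠ ⊤ := by
    intro h
    have h1 : (1 : D'.R) ∈ RingHom.ker ((x.comp τ : D'.R →ₐ[𝒪] 𝒪) : D'.R →+* 𝒪) :=
      hJle (h ▸ Submodule.mem_top)
    rw [RingHom.mem_ker, map_one] at h1
    exact one_ne_zero h1
  have hker : RingHom.ker (τ : D'.R →+* D.R) ≤ Ideal.span {T 0 1} := by
    refine ker_le_of_quot D D' τ hτ heq _ hJne ?_
    intro C _ _ _ _ π hπ hJπ hresC
    have hdetC := detIsCyclotomic_baseChangeAlong (π : D'.R →+* C) hπ D'.ρ p hdet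
    have hordC := isOrdinaryAt_baseChangeAlong (π : D'.R →+* C) hπ D'.ρ p hord
    have hunrC : ∀ q : ℕ, q.Prime → q ∉ Smin ∪ Sig →
        (D'.ρ.baseChangeAlong (π : D'.R →+* C) hπ).IsUnramifiedAt q :=
      fun q hq hqS => isUnramifiedAt_baseChangeAlong (π : D'.R →+* C) hπ D'.ρ q (hunr q hq hqS)
    have hunipC : ∀ q ∈ Smin, q.Prime → q ≠ p →
        (D'.ρ.baseChangeAlong (π : D'.R →+* C) hπ).IsUnipotentOnInertiaAt q :=
      fun q hqS hq hqp => isUnipotentOnInertiaAt_baseChangeAlong (π : D'.R →+* C) hπ D'.ρ q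
        (hunip q hqS hq hqp)
    have hpeuC : IsPeuAt (D'.ρ.baseChangeAlong (π : D'.R →+* C) hπ) p :=
      isPeuAt_of_one_place _ p hp P hP fun σ hσ =>
        baseChangeAlong_eq_one (π : D'.R →+* C) hπ D'.ρ σ _ hJπ (hJI σ hσ)
    have hflatC := hF p hp hp2 C hresC hdetC.1 _ hdetC hordC hpeuC
    have hC1 : cond 𝒪 p true Smin Sig (D'.ρ.baseChangeAlong (π : D'.R →+* C) hπ) := by
      change Fermat.Agent.S56.condFl 𝒪 p Smin Sig (D'.ρ.baseChangeAlong (π : D'.R →+* C) hπ)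
      exact ⟨⟨hdetC, hflatC, hunrC⟩, hunipC⟩
    have hC2 : condOrd 𝒪 p Smin Sig (D'.ρ.baseChangeAlong (π : D'.R →+* C) hπ) :=
      ⟨⟨hdetC, hordC, hunrC⟩, hunipC⟩
    exact ⟨hC1, hC2⟩
  -- the count
  have hS : ∀ s ∈ ({T 0 1} : Set D'.R),
      s ∈ RingHom.ker ((x.comp τ : D'.R →ₐ[𝒪] 𝒪) : D'.R →+* 𝒪) := by
    intro s hs
    rw [Set.mem_singleton_iff.1 hs]
    exact hw
  obtain ⟨hfin', hcard'⟩ := Fermat.Agent.S59.Asm.H80.card_cotangent_le τ x hτs (x.comp τ) rfl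
    {T 0 1} hS (hker.trans le_sup_left) E
    (by
      intro s hs
      have e : s = T 0 1 := Set.mem_singleton_iff.1 hs
      subst e
      exact hE) hEfin hfin
  exact ⟨hfin', hcard'.trans (Nat.mul_le_mul_left _ hEcard)⟩

end Fermat.Agent.S59.NonMin.H80

end
-- ==== END Fermat.Agent.S59.NonMin.H80_SelmerP

-- ==== BEGIN Fermat.Agent.S59.NumCrit.Diamond
section

/-!
# S59 NUMCRIT: the numerical criterion in Diamond's form (congruence module of a module)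

`nc1_diamond`: `Ω(M) = M/(M[𝔭] + M[I])` for a `T`-module `M`, finite free over `𝒪`, replaces `η_T`.
`card_omega_of_free` (in `H90_OmegaFree.lean`): `#Ω(T^d) = #(𝒪/η)^d`.
-/

set_option autoImplicit false

namespace Fermat.Agent.S59.NumCrit

open MvPowerSeries

section diamond

variable {𝒪 : Type*} [CommRing 𝒪] [IsDomain 𝒪] [IsDiscreteValuationRing 𝒪]
  [Finite (IsLocalRing.ResidueField 𝒪)]
  {R T : Type*} [CommRing R] [Algebra 𝒪 R] [CommRing T] [Algebra 𝒪 T]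
  [Module.Finite 𝒪 T] [Module.Free 𝒪 T] {n : ℕ}

/-- **NC1 in Diamond's form**: the congruence module `Ω(M) = M/(M[𝔭] + M[I])` of a `T`-module `M`
(finite free over `𝒪`, `rank M[𝔭] ≤ d`) replaces `η_T`:
`(#Φ_R)^d ≤ #Ω(M)` ⟹ `R ≅ T` complete intersection, and `(#Φ_R)^d = #Ω(M)`. -/
theorem nc1_diamond [IsAdicComplete (IsLocalRing.maximalIdeal 𝒪) 𝒪]
    (γ : MvPowerSeries (Fin n) 𝒪 →ₐ[𝒪] R) (hγ : Function.Surjective γ)
    (φ : R →ₐ[𝒪] T) (hφ : Function.Surjective φ) (π : T →ₐ[𝒪] 𝒪)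
    [Finite (RingHom.ker (π.comp φ)).Cotangent]
    {M : Type*} [AddCommGroup M] [Module T M] [Module 𝒪 M] [IsScalarTower 𝒪 T M]
    [Module.Finite 𝒪 M] [Module.Free 𝒪 M]
    (hη : eta π ≠ ⊥) (d : ℕ) (hd : 0 < d)
    (hrank : Module.finrank 𝒪
      ((Submodule.torsionBySet T M (RingHom.ker π : Set T)).restrictScalars 𝒪) ≤ d)
    (hcard : Nat.card (RingHom.ker (π.comp φ)).Cotangent ^ d
      ≤ Nat.card (M ⧸ (Submodule.torsionBySet T M (RingHom.ker π : Set T)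
        ⊔ Submodule.torsionBySet T M ((RingHom.ker π).annihilator : Set T)))) :
    Function.Bijective φ ∧
      (∃ g : Fin n → MvPowerSeries (Fin n) 𝒪,
        RingHom.ker (φ.comp γ) = Ideal.span (Set.range g)) ∧
      Nat.card (RingHom.ker π).Cotangent = Nat.card (𝒪 ⧸ eta π) ∧
      Nat.card (RingHom.ker (π.comp φ)).Cotangent = Nat.card (𝒪 ⧸ eta π) ∧
      Nat.card (RingHom.ker (π.comp φ)).Cotangent ^ d
        = Nat.card (M ⧸ (Submodule.torsionBySet T M (RingHom.ker π : Set T)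
          ⊔ Submodule.torsionBySet T M ((RingHom.ker π).annihilator : Set T))) := by
  obtain ⟨hfinΩ, hΩ⟩ := H12.card_omega_le π (M := M) hη
  -- `𝒪/η` is finite
  obtain ⟨e, he⟩ := (IsPrincipalIdealRing.principal (eta π)).principal
  have he0 : e ≠ 0 := by
    rintro rfl
    apply hη
    rw [he]
    simp
  have hfinη : Finite (𝒪 ⧸ eta π) := by
    obtain ⟨k, -, hk⟩ := H8.exists_card_span_singleton he0
    apply Nat.finite_of_card_ne_zero
    have h1 : Nat.card (𝒪 ⧸ eta π) = Nat.card (𝒪 ⧸ Ideal.span {e}) := by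
      rw [he]
    rw [h1, hk]
    exact pow_ne_zero _ (Nat.card_pos (α := IsLocalRing.ResidueField 𝒪)).ne'
  have hpos : 0 < Nat.card (𝒪 ⧸ eta π) := Nat.card_pos
  have h2 : Nat.card (𝒪 ⧸ eta π) ^ Module.finrank 𝒪
      ((Submodule.torsionBySet T M (RingHom.ker π : Set T)).restrictScalars 𝒪)
      ≤ Nat.card (𝒪 ⧸ eta π) ^ d := Nat.pow_le_pow_right hpos hrank
  have h3 : Nat.card (RingHom.ker (π.comp φ)).Cotangent ^ d ≤ Nat.card (𝒪 ⧸ eta π) ^ d :=
    hcard.trans (hΩ.trans h2)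
  have h4 : Nat.card (RingHom.ker (π.comp φ)).Cotangent ≤ Nat.card (𝒪 ⧸ eta π) :=
    (Nat.pow_le_pow_iff_left hd.ne').mp h3
  obtain ⟨hb, hg, hT, hR⟩ := nc1_complete γ hγ φ hφ π h4
  refine ⟨hb, hg, hT, hR, le_antisymm hcard ?_⟩
  rw [hR]
  exact hΩ.trans h2

end diamond

end Fermat.Agent.S59.NumCrit

end
-- ==== END Fermat.Agent.S59.NumCrit.Diamond

-- ==== BEGIN Fermat.Agent.S59.TRes.H49_LocA
section

/-!
# S59, leaf TRES (helper49): assembly, part A (from the curve to the elliptic data)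

`W/ℤ` with multiplicative reduction at the odd prime `p`, `p ∤ v_p(Δ)`: on `E = EQ W` there are
independent points `P`, `T` of order `p` on which `Gal(K̄/ℚ_p)` acts by upper triangular
matrices, a `D`-fixed `x₀`, with `‖ι(x(P) - x₀)‖^(2p) = p^(-M)`, `p ∤ M`,
`‖ι(x(P+T) - x(P))‖² R = ‖ι(x(P) - x₀)‖²`, `p ≤ R^((p-1)/2)`.
-/

set_option autoImplicit false

open WeierstrassCurve WeierstrassCurve.Affine

namespace Fermat.Agent.S59.TRes.H49

open Fermat.Agent.S56.FL Fermat.Agent.S52.H5 Fermat.Agent.S05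
open Fermat.Agent.Lib.PointVariableChange

section

variable {p : ℕ} [Fact p.Prime] (W : WeierstrassCurve ℤ)

/-- The Galois elements coming from `Gal(K̄/ℚ_p)` preserve the valuation and fix the
coefficients. -/
lemma loc_props (τ : Gp p) :
    (∀ x, (padicPlace p).valuation ((localGaloisToGlobal p τ : Qb →+* Qb) x) =
      (padicPlace p).valuation x) ∧
    (localGaloisToGlobal p τ : Qb →+* Qb) (EQ W).a₁ = (EQ W).a₁ ∧
    (localGaloisToGlobal p τ : Qb →+* Qb) (EQ W).a₂ = (EQ W).a₂ ∧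
    (localGaloisToGlobal p τ : Qb →+* Qb) (EQ W).a₃ = (EQ W).a₃ ∧
    (localGaloisToGlobal p τ : Qb →+* Qb) (EQ W).a₄ = (EQ W).a₄ ∧
    (localGaloisToGlobal p τ : Qb →+* Qb) (EQ W).a₆ = (EQ W).a₆ := by
  refine ⟨(valOn_galAdd W (padicPlace p) _
    (localGaloisToGlobal_mem_decompositionSubgroup p τ)).val_eq, ?_, ?_, ?_, ?_, ?_⟩
  · rw [EQ_a₁]; exact map_intCast _ _
  · rw [EQ_a₂]; exact map_intCast _ _
  · rw [EQ_a₃]; exact map_intCast _ _
  · rw [EQ_a₄]; exact map_intCast _ _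
  · rw [EQ_a₆]; exact map_intCast _ _

/-- **Assembly, part A.** -/
theorem data_of (hp2 : p ≠ 2) (hΔ : W.Δ ≠ 0) (hbad : (p : ℤ) ∣ W.Δ) (hc₄ : ¬ (p : ℤ) ∣ W.c₄)
    (hnp : ¬ (W.map (Int.castRingHom ℚ)).IsPeuRamifieeAt p p)
    (hDISC : Stmt_DISC) (hE1 : Stmt_E1STAB) :
    ∃ (P T : (EQ W).Point) (x₀ : Qb) (M : ℕ) (R : ℝ),
      p • P = 0 ∧ p • T = 0 ∧
      (∀ a c : ℤ, a • P + c • T = 0 → (p : ℤ) ∣ a ∧ (p : ℤ) ∣ c) ∧
      (∀ τ : Gp p, ∃ a : ℤ, localGaloisToGlobal p τ • T = a • T) ∧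
      (∀ τ : Gp p, ∃ a c : ℤ, localGaloisToGlobal p τ • P = a • P + c • T) ∧
      (∀ τ : Gp p, localGaloisToGlobal p τ x₀ = x₀) ∧
      ¬ p ∣ M ∧ ‖padicEmbedding p (xc P - x₀)‖ ^ (p * 2) = ((p : ℝ)⁻¹) ^ M ∧
      1 < R ∧ (p : ℝ) ≤ R ^ ((p - 1) / 2) ∧
      ‖padicEmbedding p (xc (P + T) - xc P)‖ ^ 2 * R ≤
        ‖padicEmbedding p (xc P - x₀)‖ ^ 2 := by
  have hp : p.Prime := Fact.out
  have hA : (padicPlace p).LiesOverPrime p := padicPlace_liesOver49 p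
  obtain ⟨e, he, -, hyp, hb, hV, -⟩ :=
    exists_model_odd_Q W p hp hp2 hΔ hbad hc₄ (padicPlace p) hA
  have h2 : (padicPlace p).valuation (2 : Qb) = 1 := ModelHyp.two hyp
  have h20 : (2 : Qb) ≠ 0 := two_ne_zero
  have hΔE : (EQ W).Δ ≠ 0 := by
    rw [EQ_Δ]; exact_mod_cast hΔ
  have hΔeq : (vcOdd (EQ W) e • EQ W).toAffine.Δ = (EQ W).Δ := by
    rw [variableChange_Δ]
    simp [vcOdd]
  have hΔ' : (vcOdd (EQ W) e • EQ W).toAffine.Δ ≠ 0 := by
    rw [hΔeq]; exact hΔE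
  have hpv : (padicPlace p).valuation (p : Qb) < 1 :=
    (ValuationSubring.mem_nonunits_iff _).1 hA
  have hc₄v : (padicPlace p).valuation (EQ W).c₄ = 1 := by
    rw [EQ_c₄]; exact Fermat.Agent.S05.H15.valuation_intCast_eq_one_of_not_dvd hp hA hc₄
  have ha₄ : (vcOdd (EQ W) e • EQ W).toAffine.a₄ = trB4 (EQ W) e / 2 := vcOdd_a₄ (EQ W) e h20
  have htr : (padicPlace p).valuation (trB4 (EQ W) e) =
      (padicPlace p).valuation (vcOdd (EQ W) e • EQ W).toAffine.a₄ := by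
    rw [ha₄, map_div₀, h2, div_one]
  -- the points on the model
  obtain ⟨x₁, y₁, h₁, n, hP', hx₁b, hx₁1, hn0, hnp', hx₁p⟩ :=
    H77.stmt_SMALL Qb (padicPlace p) p hp hp2 hpv _ hyp hb hΔ'
  obtain ⟨x₂, y₂, h₂, hT', hx₂⟩ := stmt_BIGROOT Qb (padicPlace p) p hp hp2 hpv _ hyp hb hΔ'
  have hx₂gt : 1 < (padicPlace p).valuation x₂ := by
    by_contra hcon
    rw [not_lt] at hcon
    have h3 : (padicPlace p).valuation x₂ ^ ((p - 1) / 2) ≤ 1 := pow_le_one₀ zero_le hcon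
    have h4 : (padicPlace p).valuation (p : Qb) * (padicPlace p).valuation x₂ ^ ((p - 1) / 2) ≤
        (padicPlace p).valuation (p : Qb) * 1 := mul_le_mul' le_rfl h3
    rw [mul_one] at h4
    exact absurd (lt_of_le_of_lt (hx₂.trans h4) hpv) (lt_irrefl _)
  obtain ⟨x₃, y₃, h₃, hadd, hest⟩ := H8.stmt_ADDEST Qb (padicPlace p) _ hyp hb x₁ y₁ x₂ y₂ h₁ h₂
    hx₁b hx₁1 hx₂gt
  -- transport to `E`
  obtain ⟨φ, hφ⟩ : ∃ φ : (vcOdd (EQ W) e • EQ W).toAffine.Point ≃+ (EQ W).Point,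
      φ = equiv (EQ W) (vcOdd (EQ W) e) := ⟨_, rfl⟩
  have hxc : ∀ (x y : Qb) (h : (vcOdd (EQ W) e • EQ W).toAffine.Nonsingular x y),
      xc (φ (.some x y h)) = x + e := by
    intro x y h
    rw [hφ, xc_equiv]
    simp [vcX, vcOdd]
  have hconj : ∀ (σ : Qb ≃ₐ[ℚ] Qb) (Q : (vcOdd (EQ W) e • EQ W).toAffine.Point),
      φ (conjVC (EQ W) (vcOdd (EQ W) e) (galAdd W σ) Q) = σ • φ Q := by
    intro σ Q
    rw [hφ, equiv_conjVC, galAdd_apply]
  -- the subgroup `E₁`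
  obtain ⟨S, hS⟩ : ∃ S : AddSubgroup (EQ W).Point,
      ∀ Q, Q ∈ S ↔ InE1 (padicPlace p) (φ.symm Q) :=
    ⟨AddSubgroup.comap φ.symm.toAddMonoidHom (e1Sub (padicPlace p) _ hyp), fun Q => Iff.rfl⟩
  have hSstab : ∀ (τ : Gp p) (Q : (EQ W).Point), Q ∈ S → localGaloisToGlobal p τ • Q ∈ S := by
    intro τ Q hQ
    rw [hS] at hQ ⊢
    have h3 := hE1 Qb (padicPlace p) _ hyp hb _ _
      (hV (localGaloisToGlobal p τ) (localGaloisToGlobal_mem_decompositionSubgroup p τ))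
      (φ.symm Q) hQ
    have h4 : φ.symm (localGaloisToGlobal p τ • Q) =
        conjVC (EQ W) (vcOdd (EQ W) e) (galAdd W (localGaloisToGlobal p τ)) (φ.symm Q) := by
      apply φ.injective
      rw [hconj, AddEquiv.apply_symm_apply, AddEquiv.apply_symm_apply]
    rw [h4]
    exact h3
  have hPp : p • φ (.some x₁ y₁ h₁) = 0 := by rw [← map_nsmul, hP', map_zero]
  have hTp : p • φ (.some x₂ y₂ h₂) = 0 := by rw [← map_nsmul, hT', map_zero]
  have hT0 : φ (.some x₂ y₂ h₂) ≠ 0 := by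
    intro h
    have := φ.injective (h.trans (map_zero φ).symm)
    exact Point.some_ne_zero _ this
  have hTS : φ (.some x₂ y₂ h₂) ∈ S := by
    rw [hS, AddEquiv.symm_apply_apply]
    exact hx₂gt
  have hPS : φ (.some x₁ y₁ h₁) ∉ S := by
    rw [hS, AddEquiv.symm_apply_apply]
    intro h
    exact absurd (lt_trans hx₁1 h) (lt_irrefl _)
  have hcard : Nat.card (Submodule.torsionBy ℤ (EQ W).Point (p : ℤ)) = p ^ 2 :=
    Fermat.Agent.Lib.EllFinite.H46.natCard_torsionBy_rat (W.map (Int.castRingHom ℚ))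
      (by
        rw [WeierstrassCurve.map_Δ]
        exact (map_ne_zero_iff _ (Int.cast_injective (α := ℚ))).2 hΔ) hp.ne_zero
  obtain ⟨hind, hgen, hSgen⟩ := H8.stmt_TORS p (EQ W).Point hcard S _ _ hPp hTp hT0 hTS hPS
  -- `x₀`
  obtain ⟨x₀, hx₀fix, hx₀e⟩ := H26.stmt_X0 Qb (padicPlace p) (EQ W) h2 hc₄v e he
    (by rw [htr]; exact hb)
    (Set.range fun τ : Gp p => ((localGaloisToGlobal p τ : Qb ≃ₐ[ℚ] Qb) : Qb →+* Qb))
    (by
      rintro _ ⟨τ₁, rfl⟩ _ ⟨τ₂, rfl⟩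
      refine ⟨τ₁ * τ₂, ?_⟩
      ext x
      simp only [map_mul]
      rfl)
    (by
      rintro _ ⟨τ, rfl⟩
      exact loc_props W τ)
  have hx₀ : ∀ τ : Gp p, localGaloisToGlobal p τ x₀ = x₀ :=
    fun τ => hx₀fix _ ⟨τ, rfl⟩
  -- norms
  have hgval : (padicPlace p).valuation (xc (φ (.some x₁ y₁ h₁)) - x₀) =
      (padicPlace p).valuation x₁ := by
    rw [hxc]
    have e1 : x₁ + e - x₀ = x₁ + -(x₀ - e) := by ring
    rw [e1]
    refine Valuation.map_add_eq_of_lt_left _ ?_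
    rw [Valuation.map_neg]
    exact lt_of_le_of_lt (hx₀e.trans htr.le) hx₁b
  have hgnorm : ‖padicEmbedding p (xc (φ (.some x₁ y₁ h₁)) - x₀)‖ = ‖padicEmbedding p x₁‖ :=
    (val_eq_iff p _ _).1 hgval
  have hx₁norm : ‖padicEmbedding p x₁‖ ^ p =
      ‖padicEmbedding p (vcOdd (EQ W) e • EQ W).toAffine.a₄‖ ^ n := by
    have h3 : (padicPlace p).valuation (x₁ ^ p) =
        (padicPlace p).valuation ((vcOdd (EQ W) e • EQ W).toAffine.a₄ ^ n) := by
      rw [map_pow, map_pow]; exact hx₁p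
    have h4 := (val_eq_iff p _ _).1 h3
    rwa [map_pow, map_pow, norm_pow, norm_pow] at h4
  have hbnorm : ‖padicEmbedding p (vcOdd (EQ W) e • EQ W).toAffine.a₄‖ ^ 2 =
      ((p : ℝ)⁻¹) ^ (padicValInt p W.Δ) := by
    have h3 : (padicPlace p).valuation ((vcOdd (EQ W) e • EQ W).toAffine.a₄ ^ 2) =
        (padicPlace p).valuation ((W.Δ : ℤ) : Qb) := by
      rw [map_pow, ← hDISC Qb (padicPlace p) _ hyp hb, hΔeq, EQ_Δ]
    have h4 := (val_eq_iff p _ _).1 h3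
    rw [map_pow, norm_pow, norm_emb_intCast p W.Δ hΔ] at h4
    exact h4
  have hvnd : ¬ p ∣ padicValInt p W.Δ := by
    intro h
    apply hnp
    show (p : ℤ) ∣ padicValRat p (W.map (Int.castRingHom ℚ)).Δ
    rw [WeierstrassCurve.map_Δ]
    have e1 : (Int.castRingHom ℚ) W.Δ = ((W.Δ : ℤ) : ℚ) := rfl
    rw [e1, padicValRat.of_int]
    exact Int.natCast_dvd_natCast.2 h
  have hnnd : ¬ p ∣ n := fun h => absurd (Nat.le_of_dvd hn0 h) (not_le.2 hnp')
  refine ⟨φ (.some x₁ y₁ h₁), φ (.some x₂ y₂ h₂), x₀, padicValInt p W.Δ * n,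
    ‖padicEmbedding p x₂‖, hPp, hTp, hind, ?_, ?_, hx₀, ?_, ?_, ?_, ?_, ?_⟩
  · -- `T` spans a stable line
    intro τ
    refine hSgen _ ?_ (hSstab τ _ hTS)
    rw [← loc_smul_nsmul, hTp]
    exact map_zero (galAdd W (localGaloisToGlobal p τ))
  · intro τ
    refine hgen _ ?_
    rw [← loc_smul_nsmul, hPp]
    exact map_zero (galAdd W (localGaloisToGlobal p τ))
  · intro h
    rcases (Nat.Prime.dvd_mul hp).1 h with h | h
    · exact hvnd h
    · exact hnnd h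
  · rw [hgnorm, pow_mul, hx₁norm, ← pow_mul, mul_comm n 2, pow_mul, hbnorm, ← pow_mul]
  · have h3 := (val_lt_iff p 1 x₂).1 (by rw [map_one]; exact hx₂gt)
    rwa [map_one, norm_one] at h3
  · have h3 : (padicPlace p).valuation (1 : Qb) ≤
        (padicPlace p).valuation ((p : Qb) * x₂ ^ ((p - 1) / 2)) := by
      rw [map_one, map_mul, map_pow]; exact hx₂
    have h4 := (val_le_iff p _ _).1 h3
    rw [map_one, norm_one, map_mul, map_pow, norm_mul, norm_pow, norm_emb_natCast_self] at h4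
    have hppos : (0 : ℝ) < p := by exact_mod_cast hp.pos
    rwa [inv_mul_eq_div, le_div_iff₀ hppos, one_mul] at h4
  · have e1 : xc (φ (.some x₁ y₁ h₁) + φ (.some x₂ y₂ h₂)) - xc (φ (.some x₁ y₁ h₁)) =
        x₃ - x₁ := by
      rw [← map_add, hadd, hxc, hxc]
      ring
    rw [e1, hgnorm]
    have h3 : (padicPlace p).valuation ((x₃ - x₁) ^ 2 * x₂) =
        (padicPlace p).valuation (x₁ ^ 2) := by
      rw [map_mul, map_pow, map_pow]; exact hest
    have h4 := (val_eq_iff p _ _).1 h3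
    rw [map_mul, map_pow, map_pow, norm_mul, norm_pow, norm_pow] at h4
    exact h4.le

end

end Fermat.Agent.S59.TRes.H49

end
-- ==== END Fermat.Agent.S59.TRes.H49_LocA
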