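-- GENERATED (merged mirror, NOTES/tools/trim/merge3_helper67.py): 8 modules of the originals, bodies verbatim.
import Mathlib
import Fermat.Agent.Zm.S59_L06_000
import Fermat.Agent.Zm.S59_L01_001
import Fermat.Agent.Zm.S59_L06_001
import Fermat.Agent.Zm.S59_L02_001
import Fermat.Agent.Zm.S59_L06_003
import Fermat.Agent.Zm.S59_L04_005
import Fermat.Agent.Zm.S59_L05_004
import Fermat.Agent.Zm.S59_L02_005
import Fermat.Agent.Zm.S59_L01_003
import Fermat.Agent.Zm.S59_L06_002
import Fermat.Agent.Zm.S59_L05_003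
import Fermat.Agent.Zm.S36_L16_000
import Fermat.Agent.Zm.S36_L14_000

-- ==== BEGIN Fermat.Agent.S27.REDu.H42_Gen2
section

/-!
# G-RED package GEN (helper42), part 2: polynomial spans and the witness lemma

`GSpan C x e b` : `b = ∑ p i (x) * e i` with `p i ∈ C[X]`.
`exists_witness` : if `e` is a `C(x)`-basis of `F` and `b ∉ GSpan e`, there are `a ∈ C`, constants
`h i ∈ O` with `h i₀ = 1` and `b' ∉ GSpan e` with `(x - a) b' = ∑ h i * e i`.
-/

set_option autoImplicit false

universe uC uCf uK uR uF uL uE uk ukap uFp uFt uFtp uiot uEp uKp ux3b1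

noncomputable section

open Polynomial IntermediateField Module

namespace Fermat.Agent.S27.REDu.H42

open Fermat.Agent.S27.REDu.H34 Fermat.Agent.S27.REDu.H34.RedSetting

variable {C : Type uC} {F : Type uF} [Field C] [Field F] [Algebra C F]

/-- `b` is a polynomial combination of the `e i`. -/
def GSpan (C : Type uC) {F : Type uF} [Field C] [Field F] [Algebra C F] (x : F) {ι : Type uiot} [Fintype ι]
    (e : ι → F) (b : F) : Prop :=
  ∃ p : ι → C[X], b = ∑ i, Polynomial.aeval x (p i) * e i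

section GSpan

variable {x : F} {ι : Type uiot} [Fintype ι] {e : ι → F}

theorem GSpan.zero : GSpan C x e 0 := ⟨fun _ => 0, by simp⟩

theorem GSpan.add {b b' : F} (hb : GSpan C x e b) (hb' : GSpan C x e b') :
    GSpan C x e (b + b') := by
  obtain ⟨p, rfl⟩ := hb
  obtain ⟨p', rfl⟩ := hb'
  refine ⟨fun i => p i + p' i, ?_⟩
  rw [← Finset.sum_add_distrib]
  refine Finset.sum_congr rfl fun i _ => ?_
  rw [map_add, add_mul]

theorem GSpan.aeval_mul {b : F} (hb : GSpan C x e b) (q : C[X]) :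
    GSpan C x e (Polynomial.aeval x q * b) := by
  obtain ⟨p, rfl⟩ := hb
  refine ⟨fun i => q * p i, ?_⟩
  rw [Finset.mul_sum]
  refine Finset.sum_congr rfl fun i _ => ?_
  rw [map_mul, mul_assoc]

theorem GSpan.const_mul {b : F} (hb : GSpan C x e b) (c : C) :
    GSpan C x e (algebraMap C F c * b) := by
  have := hb.aeval_mul (Polynomial.C c)
  rwa [Polynomial.aeval_C] at this

theorem GSpan.neg {b : F} (hb : GSpan C x e b) : GSpan C x e (-b) := by
  have := hb.const_mul (-1)
  rwa [map_neg, map_one, neg_one_mul] at this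

theorem GSpan.sub {b b' : F} (hb : GSpan C x e b) (hb' : GSpan C x e b') :
    GSpan C x e (b - b') := by
  rw [sub_eq_add_neg]
  exact hb.add hb'.neg

theorem GSpan.self (i : ι) : GSpan C x e (e i) := by
  classical
  refine ⟨fun j => if j = i then 1 else 0, ?_⟩
  rw [Finset.sum_eq_single i]
  · simp
  · intro j _ hj
    simp [hj]
  · intro h
    exact absurd (Finset.mem_univ i) h

theorem GSpan.sum_mul (p : ι → C[X]) : GSpan C x e (∑ i, Polynomial.aeval x (p i) * e i) :=
  ⟨p, rfl⟩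

theorem GSpan.isIntegral {b : F} (hb : GSpan C x e b)
    (he : ∀ i, IsIntegral ↥(Algebra.adjoin C {x}) (e i)) :
    IsIntegral ↥(Algebra.adjoin C {x}) b := by
  obtain ⟨p, rfl⟩ := hb
  refine IsIntegral.sum _ fun i _ => IsIntegral.mul ?_ (he i)
  have : Polynomial.aeval x (p i) ∈ Algebra.adjoin C {x} := by
    rw [Algebra.adjoin_singleton_eq_range_aeval]
    exact ⟨p i, rfl⟩
  exact isIntegral_algebraMap (x := (⟨_, this⟩ : ↥(Algebra.adjoin C {x})))

theorem isIntegral_aeval_mul {b : F} (hb : IsIntegral ↥(Algebra.adjoin C {x}) b) (q : C[X]) :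
    IsIntegral ↥(Algebra.adjoin C {x}) (Polynomial.aeval x q * b) := by
  refine IsIntegral.mul ?_ hb
  have : Polynomial.aeval x q ∈ Algebra.adjoin C {x} := by
    rw [Algebra.adjoin_singleton_eq_range_aeval]
    exact ⟨q, rfl⟩
  exact isIntegral_algebraMap (x := (⟨_, this⟩ : ↥(Algebra.adjoin C {x})))

/-- Every element of the `C(x)`-span of `e` has a nonzero polynomial multiple in `GSpan e`. -/
theorem exists_mul_gspan (hxC : Transcendental C x) (b : F)
    (hb : b ∈ Submodule.span ↥C⟮x⟯ (Set.range e)) :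
    ∃ g : C[X], g ≠ 0 ∧ GSpan C x e (Polynomial.aeval x g * b) := by
  induction hb using Submodule.span_induction with
  | mem y hy =>
    obtain ⟨i, rfl⟩ := hy
    exact ⟨1, one_ne_zero, by rw [map_one, one_mul]; exact GSpan.self i⟩
  | zero => exact ⟨1, one_ne_zero, by rw [mul_zero]; exact GSpan.zero⟩
  | add y z _ _ hy hz =>
    obtain ⟨g, hg, hgy⟩ := hy
    obtain ⟨g', hg', hgz⟩ := hz
    refine ⟨g * g', mul_ne_zero hg hg', ?_⟩
    rw [map_mul, mul_add]
    refine GSpan.add ?_ ?_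
    · have := hgy.aeval_mul g'
      rwa [← mul_assoc, mul_comm (Polynomial.aeval x g') (Polynomial.aeval x g)] at this
    · have := hgz.aeval_mul g
      rwa [← mul_assoc] at this
  | smul r y _ hy =>
    obtain ⟨g, hg, hgy⟩ := hy
    obtain ⟨p, q, hpq⟩ := (IntermediateField.mem_adjoin_simple_iff C (r : F)).1 r.2
    by_cases hq : q = 0
    · refine ⟨1, one_ne_zero, ?_⟩
      have : r • y = 0 := by
        rw [IntermediateField.smul_def, smul_eq_mul, hpq, hq, map_zero, div_zero, zero_mul]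
      rw [this, mul_zero]
      exact GSpan.zero
    · have hq0 : Polynomial.aeval x q ≠ 0 := fun h => hq ((transcendental_iff.1 hxC) q h)
      refine ⟨q * g, mul_ne_zero hq hg, ?_⟩
      have : Polynomial.aeval x (q * g) * r • y =
          Polynomial.aeval x p * (Polynomial.aeval x g * y) := by
        rw [IntermediateField.smul_def, smul_eq_mul, hpq, map_mul]
        field_simp
      rw [this]
      exact hgy.aeval_mul p

end GSpan

section Witness

variable {x : F} {ι : Type uiot} [Fintype ι] {e : ι → F}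

theorem exists_prime_witness_aux [IsAlgClosed C] (n : ℕ) : ∀ (g : C[X]) (b : F),
    g.natDegree = n → g ≠ 0 →
    IsIntegral ↥(Algebra.adjoin C {x}) b → ¬ GSpan C x e b →
    GSpan C x e (Polynomial.aeval x g * b) →
    ∃ (a : C) (b' : F), IsIntegral ↥(Algebra.adjoin C {x}) b' ∧ ¬ GSpan C x e b' ∧
      GSpan C x e ((x - algebraMap C F a) * b') := by
  induction n with
  | zero =>
    intro g b hdeg hg hb hnb hgb
    exfalso
    obtain ⟨c, rfl⟩ := Polynomial.natDegree_eq_zero.1 hdeg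
    have hc : c ≠ 0 := fun h => hg (by rw [h, map_zero])
    rw [Polynomial.aeval_C] at hgb
    have := hgb.const_mul c⁻¹
    rw [← mul_assoc, ← map_mul, inv_mul_cancel₀ hc, map_one, one_mul] at this
    exact hnb this
  | succ n ih =>
    intro g b hdeg hg hb hnb hgb
    have hd : g.degree ≠ 0 := by
      intro h
      have h1 : g.natDegree = 0 := Polynomial.natDegree_eq_of_degree_eq_some h
      rw [hdeg] at h1
      exact Nat.succ_ne_zero n h1
    obtain ⟨a, ha⟩ := IsAlgClosed.exists_root g hd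
    have hfac := Polynomial.mul_divByMonic_eq_iff_isRoot.2 ha
    have hg' : g /ₘ (Polynomial.X - Polynomial.C a) ≠ 0 := by
      intro h
      rw [h, mul_zero] at hfac
      exact hg hfac.symm
    have hdeg' : (g /ₘ (Polynomial.X - Polynomial.C a)).natDegree = n := by
      rw [Polynomial.natDegree_divByMonic _ (Polynomial.monic_X_sub_C a),
        Polynomial.natDegree_X_sub_C, hdeg]
      rfl
    have hmul : (x - algebraMap C F a) *
        (Polynomial.aeval x (g /ₘ (Polynomial.X - Polynomial.C a)) * b) =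
        Polynomial.aeval x g * b := by
      conv_rhs => rw [← hfac]
      rw [map_mul, map_sub, Polynomial.aeval_X, Polynomial.aeval_C, mul_assoc]
    by_cases hsp : GSpan C x e (Polynomial.aeval x (g /ₘ (Polynomial.X - Polynomial.C a)) * b)
    · exact ih _ b hdeg' hg' hb hnb hsp
    · exact ⟨a, _, isIntegral_aeval_mul hb _, hsp, by rw [hmul]; exact hgb⟩

theorem exists_const_witness {a : C} {b : F} (he : ∀ i, IsIntegral ↥(Algebra.adjoin C {x}) (e i))
    (hb : IsIntegral ↥(Algebra.adjoin C {x}) b) (hnb : ¬ GSpan C x e b)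
    (hab : GSpan C x e ((x - algebraMap C F a) * b)) :
    ∃ (b' : F) (h : ι → C), IsIntegral ↥(Algebra.adjoin C {x}) b' ∧ ¬ GSpan C x e b' ∧
      (x - algebraMap C F a) * b' = ∑ i, algebraMap C F (h i) * e i := by
  obtain ⟨p, hp⟩ := hab
  refine ⟨b - ∑ i, Polynomial.aeval x (p i /ₘ (Polynomial.X - Polynomial.C a)) * e i,
    fun i => (p i).eval a, ?_, ?_, ?_⟩
  · exact IsIntegral.sub hb ((GSpan.sum_mul _).isIntegral he)
  · intro h
    apply hnb
    have := h.add (GSpan.sum_mul (x := x) (e := e)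
      (fun i => p i /ₘ (Polynomial.X - Polynomial.C a)))
    simpa using this
  · rw [mul_sub, hp, Finset.mul_sum, ← Finset.sum_sub_distrib]
    refine Finset.sum_congr rfl fun i _ => ?_
    have h1 := Polynomial.modByMonic_add_div (p i) (Polynomial.X - Polynomial.C a)
    rw [Polynomial.modByMonic_X_sub_C_eq_C_eval] at h1
    have h2 := congrArg (Polynomial.aeval x) h1
    simp only [map_add, map_mul, map_sub, Polynomial.aeval_X, Polynomial.aeval_C] at h2
    rw [← h2]
    ring

theorem exists_unit_witness (O : ValuationSubring C) {a : C} {b : F} {h : ι → C}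
    (hxa : x - algebraMap C F a ≠ 0)
    (hb : IsIntegral ↥(Algebra.adjoin C {x}) b) (hnb : ¬ GSpan C x e b)
    (hab : (x - algebraMap C F a) * b = ∑ i, algebraMap C F (h i) * e i) :
    ∃ (b' : F) (h' : ι → ↥O) (i₀ : ι), IsIntegral ↥(Algebra.adjoin C {x}) b' ∧
      ¬ GSpan C x e b' ∧ h' i₀ = 1 ∧
      (x - algebraMap C F a) * b' = ∑ i, algebraMap C F (h' i : C) * e i := by
  classical
  have hex : ∃ i, h i ≠ 0 := by
    by_contra hno
    push Not at hno
    have h0 : (x - algebraMap C F a) * b = 0 := by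
      rw [hab]
      exact Finset.sum_eq_zero fun i _ => by rw [hno i, map_zero, zero_mul]
    rcases mul_eq_zero.1 h0 with h1 | h1
    · exact hxa h1
    · exact hnb (h1 ▸ GSpan.zero)
  obtain ⟨i₁, hi₁⟩ := hex
  obtain ⟨i₀, -, hmax⟩ := Finset.exists_max_image (Finset.univ : Finset ι)
    (fun i => O.valuation (h i)) ⟨i₁, Finset.mem_univ i₁⟩
  have hv1 : O.valuation (h i₁) ≠ 0 := (Valuation.ne_zero_iff _).2 hi₁
  have hv0 : O.valuation (h i₀) ≠ 0 := by
    intro h0
    have := hmax i₁ (Finset.mem_univ i₁)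
    rw [h0] at this
    exact hv1 (le_antisymm this zero_le)
  have hc : h i₀ ≠ 0 := (Valuation.ne_zero_iff _).1 hv0
  have hall : ∀ i, h i / h i₀ ∈ O := by
    intro i
    rw [← O.valuation_le_one_iff, map_div₀, div_le_one₀ (zero_lt_iff.2 hv0)]
    exact hmax i (Finset.mem_univ i)
  refine ⟨algebraMap C F (h i₀)⁻¹ * b, fun i => ⟨h i / h i₀, hall i⟩, i₀, ?_, ?_, ?_, ?_⟩
  · have := isIntegral_aeval_mul hb (Polynomial.C (h i₀)⁻¹)
    rwa [Polynomial.aeval_C] at this
  · intro hsp
    apply hnb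
    have := hsp.const_mul (h i₀)
    rwa [← mul_assoc, ← map_mul, mul_inv_cancel₀ hc, map_one, one_mul] at this
  · apply Subtype.ext
    exact div_self hc
  · rw [mul_left_comm, hab, Finset.mul_sum]
    refine Finset.sum_congr rfl fun i _ => ?_
    rw [← mul_assoc, ← map_mul, inv_mul_eq_div]

/-- **Witness lemma.** -/
theorem exists_witness [IsAlgClosed C] (O : ValuationSubring C) (hxC : Transcendental C x)
    (he : ∀ i, IsIntegral ↥(Algebra.adjoin C {x}) (e i))
    (hspan : ⊤ ≤ Submodule.span ↥C⟮x⟯ (Set.range e))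
    {b : F} (hb : IsIntegral ↥(Algebra.adjoin C {x}) b) (hnb : ¬ GSpan C x e b) :
    ∃ (a : C) (b' : F) (h' : ι → ↥O) (i₀ : ι), IsIntegral ↥(Algebra.adjoin C {x}) b' ∧
      ¬ GSpan C x e b' ∧ h' i₀ = 1 ∧
      (x - algebraMap C F a) * b' = ∑ i, algebraMap C F (h' i : C) * e i := by
  obtain ⟨g, hg, hgb⟩ := exists_mul_gspan hxC b (hspan Submodule.mem_top)
  obtain ⟨a, b₁, hb₁, hnb₁, hab₁⟩ := exists_prime_witness_aux _ g b rfl hg hb hnb hgb
  obtain ⟨b₂, h, hb₂, hnb₂, hab₂⟩ := exists_const_witness he hb₁ hnb₁ hab₁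
  have hxa : x - algebraMap C F a ≠ 0 := by
    intro h0
    have : Polynomial.aeval x (Polynomial.X - Polynomial.C a) = 0 := by
      rw [map_sub, Polynomial.aeval_X, Polynomial.aeval_C, h0]
    exact Polynomial.X_sub_C_ne_zero a ((transcendental_iff.1 hxC) _ this)
  obtain ⟨b₃, h', i₀, hb₃, hnb₃, hi₀, hab₃⟩ := exists_unit_witness O hxa hb₂ hnb₂ hab₂
  exact ⟨a, b₃, h', i₀, hb₃, hnb₃, hi₀, hab₃⟩

end Witness

section Repl

variable {A : Type*} [CommRing A] {ι : Type uiot} [Fintype ι] [DecidableEq ι]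

theorem gen_repl2 (r h l : ι → A) (i₀ : ι) :
    ∑ i, l i * (Function.update r i₀ (∑ j, h j * r j)) i =
      ∑ j, ((if j = i₀ then 0 else l j) + l i₀ * h j) * r j := by
  have h1 : ∀ i, l i * (Function.update r i₀ (∑ j, h j * r j)) i =
      (if i = i₀ then 0 else l i) * r i + (if i = i₀ then l i₀ * ∑ j, h j * r j else 0) := by
    intro i
    by_cases hi : i = i₀
    · subst hi
      simp
    · simp [hi]
  rw [Finset.sum_congr rfl fun i _ => h1 i, Finset.sum_add_distrib, Finset.sum_ite_eq']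
  simp only [Finset.mem_univ, if_true]
  rw [Finset.mul_sum, ← Finset.sum_add_distrib]
  refine Finset.sum_congr rfl fun j _ => ?_
  ring

theorem gen_repl1 (r h c : ι → A) (i₀ : ι) (hi₀ : h i₀ = 1) :
    ∑ i, c i * r i =
      ∑ i, (if i = i₀ then c i₀ else c i - c i₀ * h i) *
        (Function.update r i₀ (∑ j, h j * r j)) i := by
  rw [gen_repl2]
  refine Finset.sum_congr rfl fun j _ => ?_
  by_cases hj : j = i₀
  · subst hj
    simp [hi₀]
  · simp [hj]

end Repl

end Fermat.Agent.S27.REDu.H42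

end
end
-- ==== END Fermat.Agent.S27.REDu.H42_Gen2

-- ==== BEGIN Fermat.Agent.S27.REDu.H42_Gen8
section

/-!
# G-RED package GEN (helper42), part 8: the dictionary `L(N (x)_∞)` ↔ integrality

`K` algebraically closed, `F / K` a function field, `x ∈ F` nonzero with finitely many poles,
`D = (x)_∞ = zeroDivisor x⁻¹`.  Then
`f ∈ L(N D)  ↔  f integral over K[x]  and  x⁻¹ ^ N * f integral over K[x⁻¹]`.
-/

set_option autoImplicit false

universe uC uCf uK uR uF uL uE uk ukap uFp uFt uFtp uiot uEp uKp ux3b1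

noncomputable section

open AlgebraicCurve IntermediateField WithZero Polynomial

namespace Fermat.Agent.S27.REDu.H42

open Fermat.Agent.S24

variable {K : Type uK} {F : Type uF} [Field K] [Field F] [Algebra K F]

local notation "L" => riemannRochSpace

theorem coe_mem_valuationSubring_of_adjoin (A : ValuationSubring F)
    (hK : ∀ a : K, algebraMap K F a ∈ A) {x : F} (hx : x ∈ A)
    (r : ↥(Algebra.adjoin K {x})) : (r : F) ∈ A := by
  let A' : Subalgebra K F := { A.toSubring with algebraMap_mem' := hK }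
  have h1 : Algebra.adjoin K {x} ≤ A' := Algebra.adjoin_le (by
    intro y hy
    rw [Set.mem_singleton_iff] at hy
    rw [hy]
    exact hx)
  exact h1 r.2

/-- A valuation subring containing `K[x]` contains the integral closure of `K[x]`. -/
theorem mem_valuationSubring_of_isIntegral (A : ValuationSubring F)
    (hK : ∀ a : K, algebraMap K F a ∈ A) {x : F} (hx : x ∈ A) {f : F}
    (hf : IsIntegral ↥(Algebra.adjoin K {x}) f) : f ∈ A := by
  obtain ⟨p, hp, h0⟩ := hf
  let ι : ↥(Algebra.adjoin K {x}) →+* ↥A :=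
    ((Algebra.adjoin K {x}).val : ↥(Algebra.adjoin K {x}) →+* F).codRestrict A
      (coe_mem_valuationSubring_of_adjoin A hK hx)
  have hint : IsIntegral ↥A f := by
    refine ⟨p.map ι, hp.map ι, ?_⟩
    rw [Polynomial.eval₂_map]
    exact h0
  obtain ⟨y, hy⟩ := IsIntegrallyClosedIn.isIntegral_iff.1 hint
  rw [← hy]
  exact y.2

/-- An element lying in all valuation subrings containing a set `s` is integral over the
subring generated by `s`. -/
theorem isIntegral_closure_of_forall_mem {s : Set F} {f : F}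
    (h : ∀ A : ValuationSubring F, s ⊆ (A : Set F) → f ∈ A) :
    IsIntegral ↥(Subring.closure s) f := by
  have h1 : f ∈ (⨅ V : {V : ValuationSubring F // s ⊆ V.toSubring}, V.1.toSubring) := by
    rw [Subring.mem_iInf]
    rintro ⟨V, hV⟩
    exact h V hV
  have h2 := iInf_valuationSubring_superset (K := F) (s := s)
  rw [h2] at h1
  exact h1

/-- An element lying in all valuation subrings containing `K[x]` is integral over `K[x]`. -/
theorem isIntegral_adjoin_of_forall_mem {x f : F}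
    (h : ∀ A : ValuationSubring F, (∀ a : K, algebraMap K F a ∈ A) → x ∈ A → f ∈ A) :
    IsIntegral ↥(Algebra.adjoin K {x}) f := by
  have h2 : IsIntegral ↥(Subring.closure ((Algebra.adjoin K {x} : Subalgebra K F) : Set F)) f :=
    isIntegral_closure_of_forall_mem fun A hA =>
      h A (fun a => hA (Subalgebra.algebraMap_mem _ a))
        (hA (Algebra.self_mem_adjoin_singleton K x))
  have hcl : ∀ r : F, r ∈ Subring.closure ((Algebra.adjoin K {x} : Subalgebra K F) : Set F) →
      r ∈ Algebra.adjoin K {x} := by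
    intro r hr
    have h3 : Subring.closure ((Algebra.adjoin K {x} : Subalgebra K F) : Set F) ≤
        (Algebra.adjoin K {x}).toSubring := Subring.closure_le.2 fun y hy => hy
    exact h3 hr
  obtain ⟨p, hp, h0⟩ := h2
  let ι : ↥(Subring.closure ((Algebra.adjoin K {x} : Subalgebra K F) : Set F)) →+*
      ↥(Algebra.adjoin K {x}) :=
    (Subring.subtype _).codRestrict (Algebra.adjoin K {x}) (fun r => hcl _ r.2)
  refine ⟨p.map ι, hp.map ι, ?_⟩
  rw [Polynomial.eval₂_map]
  exact h0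

/-- In a function field over an algebraically closed field, every nontrivial valuation subring
containing the constants is (the valuation ring of) a place. -/
theorem exists_place_eq [IsAlgClosed K] (hFF : IsFF K F) (A : ValuationSubring F)
    (hK : ∀ a : K, algebraMap K F a ∈ A) (hne : A ≠ ⊤) :
    ∃ v : Place K F, v.toValuationSubring = A := by
  obtain ⟨x₀, hx₀, hfin₀⟩ := hFF
  have hfin : ∀ y : F, Transcendental K y → FiniteDimensional K⟮y⟯ F :=
    fun y hy => ff_finite_of_transcendental x₀ hx₀ y hy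
  obtain ⟨z, hz⟩ : ∃ z, z ∉ A := by
    by_contra hno
    push Not at hno
    exact hne (eq_top_iff.2 fun z _ => hno z)
  have hz0 : z ≠ 0 := fun h => hz (h ▸ A.zero_mem)
  have hzi : A.valuation z⁻¹ < 1 := by
    have h1 : ¬ A.valuation z ≤ 1 := fun h => hz ((A.valuation_le_one_iff z).1 h)
    rw [map_inv₀]
    exact inv_lt_one_of_one_lt₀ (not_le.1 h1)
  have hfact := Fermat.Agent.S27.REDu.H12.hasUnitMulPowIrreducibleFactorization A hK hfin
    (inv_ne_zero hz0) hzi
  have hdvr : IsDiscreteValuationRing A :=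
    IsDiscreteValuationRing.ofHasUnitMulPowIrreducibleFactorization hfact
  exact ⟨⟨A, hK, hne, inferInstance⟩, rfl⟩

theorem nsmul_zeroDivisor_apply (x : F) (h : {v : Place K F | 0 < v.ord x}.Finite) (N : ℕ)
    (v : Place K F) : (N • zeroDivisor x h) v = N * max (v.ord x) 0 := by
  rw [Finsupp.smul_apply, zeroDivisor_apply, nsmul_eq_mul]

/-- **Dictionary, easy direction.** -/
theorem mem_L_of_isIntegral {x : F} (hx0 : x ≠ 0)
    (hfin : {v : Place K F | 0 < v.ord x⁻¹}.Finite) (N : ℕ) {f : F}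
    (hf : IsIntegral ↥(Algebra.adjoin K {x}) f)
    (hf' : IsIntegral ↥(Algebra.adjoin K {x⁻¹}) (x⁻¹ ^ N * f)) :
    f ∈ L (N • zeroDivisor x⁻¹ hfin) := by
  rw [mem_riemannRochSpace_iff]
  intro v
  by_cases hf0 : f = 0
  · exact Or.inl hf0
  right
  rw [nsmul_zeroDivisor_apply]
  by_cases hxv : x ∈ v.toValuationSubring
  · have h1 := mem_valuationSubring_of_isIntegral v.toValuationSubring v.algebraMap_mem' hxv hf
    have h2 := (Fermat.Agent.S27.REDu.H51.mem_iff_ord_nonneg v hf0).1 h1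
    have h3 : (0 : ℤ) ≤ N * max (v.ord x⁻¹) 0 :=
      mul_nonneg (Int.natCast_nonneg N) (le_max_right _ _)
    omega
  · have hxi : x⁻¹ ∈ v.toValuationSubring :=
      (v.toValuationSubring.mem_or_inv_mem x).resolve_left hxv
    have h1 := mem_valuationSubring_of_isIntegral v.toValuationSubring v.algebraMap_mem' hxi hf'
    have hne : x⁻¹ ^ N * f ≠ 0 := mul_ne_zero (pow_ne_zero N (inv_ne_zero hx0)) hf0
    have h2 := (Fermat.Agent.S27.REDu.H51.mem_iff_ord_nonneg v hne).1 h1
    rw [v.ord_mul (pow_ne_zero N (inv_ne_zero hx0)) hf0, Fermat.Agent.S27.REDu.H51.ord_pow] at h2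
    have h3 := (Fermat.Agent.S27.REDu.H51.mem_iff_ord_nonneg v (inv_ne_zero hx0)).1 hxi
    rw [max_eq_left h3]
    omega

/-- **Dictionary, hard direction** (uses that valuation subrings are places). -/
theorem isIntegral_of_mem_L [IsAlgClosed K] (hFF : IsFF K F) {x : F} (hx0 : x ≠ 0)
    (hfin : {v : Place K F | 0 < v.ord x⁻¹}.Finite) (N : ℕ) {f : F}
    (hf : f ∈ L (N • zeroDivisor x⁻¹ hfin)) :
    IsIntegral ↥(Algebra.adjoin K {x}) f ∧
      IsIntegral ↥(Algebra.adjoin K {x⁻¹}) (x⁻¹ ^ N * f) := by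
  rw [mem_riemannRochSpace_iff] at hf
  by_cases hf0 : f = 0
  · rw [hf0, mul_zero]
    exact ⟨isIntegral_zero, isIntegral_zero⟩
  constructor
  · apply isIntegral_adjoin_of_forall_mem (K := K)
    intro A hK hxA
    by_cases hA : A = ⊤
    · rw [hA]
      exact ValuationSubring.mem_top _
    obtain ⟨v, rfl⟩ := exists_place_eq hFF A hK hA
    rw [Fermat.Agent.S27.REDu.H51.mem_iff_ord_nonneg v hf0]
    have h1 := (hf v).resolve_left hf0
    rw [nsmul_zeroDivisor_apply] at h1
    have h2 := (Fermat.Agent.S27.REDu.H51.mem_iff_ord_nonneg v hx0).1 hxA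
    have h3 : v.ord x⁻¹ ≤ 0 := by
      rw [v.ord_inv]
      omega
    rw [max_eq_right h3, mul_zero] at h1
    omega
  · apply isIntegral_adjoin_of_forall_mem (K := K)
    intro A hK hxA
    by_cases hA : A = ⊤
    · rw [hA]
      exact ValuationSubring.mem_top _
    obtain ⟨v, rfl⟩ := exists_place_eq hFF A hK hA
    have hne : x⁻¹ ^ N * f ≠ 0 := mul_ne_zero (pow_ne_zero N (inv_ne_zero hx0)) hf0
    rw [Fermat.Agent.S27.REDu.H51.mem_iff_ord_nonneg v hne,
      v.ord_mul (pow_ne_zero N (inv_ne_zero hx0)) hf0, Fermat.Agent.S27.REDu.H51.ord_pow]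
    have h1 := (hf v).resolve_left hf0
    rw [nsmul_zeroDivisor_apply] at h1
    have h2 := (Fermat.Agent.S27.REDu.H51.mem_iff_ord_nonneg v (inv_ne_zero hx0)).1 hxA
    rw [max_eq_left h2] at h1
    omega

end Fermat.Agent.S27.REDu.H42

end
end
-- ==== END Fermat.Agent.S27.REDu.H42_Gen8

-- ==== BEGIN Fermat.Agent.S27.REDu.H51_Coords
section

/-!
# FF-B, piece P8a (helper51): coordinates with respect to a local basis

Relative situation: `v` a place of `F`, `w j` places of `F'` over `v`, `e j = e(w j | v)`, `y` a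
local basis.  For `z = ∑ g i • y i` with `g i ∈ F`:

* `coords_integral` : if `z` is integral at all `w j`, all `g i` are integral at `v`;
* `coords_divisible` : if moreover `w k (z) ≥ a` and `w j (z) ≥ e j` for `j ≠ k`, then the
  coordinates `g ⟨j, b⟩` with `j ≠ k` or `b < a` are divisible by the uniformizer of `v`.
-/

set_option autoImplicit false
set_option linter.style.haveILetI false

universe uC uCf uK uR uF uL uE uk ukap uFp uFt uFtp uiot uEp uKp ux3b1

noncomputable section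

open AlgebraicCurve

namespace Fermat.Agent.S27.REDu.H51

section Block

variable {K F' : Type*} [Field K] [Field F'] [Algebra K F']
variable {ι : Type*} [Fintype ι] {w : ι → Place K F'} {e : ι → ℕ}

/-- The core computation, with the block `k` prescribed: if the block `k` contains a unit
coefficient and `a` is the first index of a unit coefficient in this block, the combination has
order `a` at `w k`. -/
theorem core_block {y : (Σ k : ι, Fin (e k)) → F'} (hy : LocalBasis w e y)
    (c : (Σ k : ι, Fin (e k)) → F')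
    (hc : ∀ i, (c i ≠ 0 ∧ ∀ j, (w j).ord (c i) = 0) ∨ (∀ j, OrdGe (w j) (e j) (c i)))
    (k : ι) (hk : ∃ a : Fin (e k), c ⟨k, a⟩ ≠ 0 ∧ ∀ j, (w j).ord (c ⟨k, a⟩) = 0) :
    ∃ a : Fin (e k), (c ⟨k, a⟩ ≠ 0 ∧ ∀ j, (w j).ord (c ⟨k, a⟩) = 0) ∧
      (∀ b : Fin (e k), b < a → ¬ (c ⟨k, b⟩ ≠ 0 ∧ ∀ j, (w j).ord (c ⟨k, b⟩) = 0)) ∧
      (∑ i', c i' * y i') ≠ 0 ∧ (w k).ord (∑ i', c i' * y i') = ((a : ℕ) : ℤ) := by
  classical
  obtain ⟨a₁, ha₁⟩ := hk
  let P : ℕ → Prop := fun a => ∃ h : a < e k, (c ⟨k, ⟨a, h⟩⟩ ≠ 0 ∧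
    ∀ j, (w j).ord (c ⟨k, ⟨a, h⟩⟩) = 0)
  have hP : ∃ a, P a := ⟨a₁, a₁.2, ha₁⟩
  obtain ⟨ha₀lt, ha₀⟩ := Nat.find_spec hP
  set a₀ : ℕ := Nat.find hP with ha₀def
  have hmin : ∀ b, b < a₀ → ¬ P b := fun b hb => Nat.find_min hP hb
  set i₀ : (Σ k : ι, Fin (e k)) := ⟨k, ⟨a₀, ha₀lt⟩⟩ with hi₀
  refine ⟨⟨a₀, ha₀lt⟩, ha₀, fun b hb hunit => hmin b hb ⟨b.2, hunit⟩, ?_⟩
  have hterm0 : c i₀ * y i₀ ≠ 0 := mul_ne_zero ha₀.1 (hy.ne_zero i₀)
  have hterm : (w k).ord (c i₀ * y i₀) = (a₀ : ℤ) := by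
    rw [(w k).ord_mul ha₀.1 (hy.ne_zero i₀), ha₀.2 k, zero_add]
    exact hy.ord_self i₀
  have hc0 : ∀ i, OrdGe (w k) 0 (c i) := by
    intro i
    rcases hc i with h | h
    · exact Or.inr (h.2 k).ge
    · exact (h k).mono (Int.natCast_nonneg _)
  have hrest : OrdGe (w k) ((a₀ : ℤ) + 1) (∑ i ∈ Finset.univ.erase i₀, c i * y i) := by
    refine ordGe_sum _ _ _ _ fun i hi => ?_
    have hne : i ≠ i₀ := Finset.ne_of_mem_erase hi
    obtain ⟨j, b⟩ := i
    by_cases hjk : j = k
    · subst hjk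
      have hba : (b : ℕ) ≠ a₀ := by
        intro h
        apply hne
        rw [hi₀]
        congr 1
        exact Fin.ext h
      have hyb : OrdGe (w j) ((b : ℕ) : ℤ) (y ⟨j, b⟩) := Or.inr (hy.ord_self ⟨j, b⟩).ge
      rcases lt_or_gt_of_ne hba with hlt | hgt
      · have hdiv : OrdGe (w j) (e j) (c ⟨j, b⟩) := by
          rcases hc ⟨j, b⟩ with h | h
          · exact absurd ⟨b.2, h⟩ (hmin b hlt)
          · exact h j
        have := hdiv.mul hyb
        exact this.mono (by have := Int.natCast_nonneg (b : ℕ); omega)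
      · have := (hc0 ⟨j, b⟩).mul hyb
        exact this.mono (by omega)
    · have hyj : OrdGe (w k) (e k) (y ⟨j, b⟩) :=
        hy.ordGe_other ⟨j, b⟩ k (fun h => hjk h.symm)
      have := (hc0 ⟨j, b⟩).mul hyj
      exact this.mono (by omega)
  have hsplit : ∑ i', c i' * y i' = c i₀ * y i₀ + ∑ i ∈ Finset.univ.erase i₀, c i * y i :=
    (Finset.add_sum_erase Finset.univ (fun i => c i * y i) (Finset.mem_univ i₀)).symm
  rw [hsplit]
  have key := ord_add_eq (w k) hterm0 (g := ∑ i ∈ Finset.univ.erase i₀, c i * y i)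
    (by rw [hterm]; exact hrest)
  exact ⟨key.1, key.2.trans hterm⟩

end Block

section Rel

variable {K F F' : Type*} [Field K] [Field F] [Field F'] [Algebra K F] [Algebra K F']
  [Algebra F F'] [IsScalarTower K F F'] [Algebra.IsIntegral F F']
variable {ι : Type*} [Fintype ι] {w : ι → Place K F'} {v : Place K F}

/-- Relative form of the block computation: `m` is a lower bound for the orders at `v` of the
coefficients, attained in the block `k`; then the order of the combination at `w k` is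
`a + e k * m`, where `a` is the first index in the block `k` where `m` is attained. -/
theorem coords_block (hw : ∀ j, (w j).restrict F = v)
    {y : (Σ k : ι, Fin ((w k).ramificationIndex F)) → F'}
    (hy : LocalBasis w (fun j => (w j).ramificationIndex F) y)
    (g : (Σ k : ι, Fin ((w k).ramificationIndex F)) → F) (m : ℤ)
    (hg : ∀ i, OrdGe v m (g i))
    (k : ι) (hk : ∃ a : Fin ((w k).ramificationIndex F), g ⟨k, a⟩ ≠ 0 ∧ v.ord (g ⟨k, a⟩) = m) :
    ∃ a : Fin ((w k).ramificationIndex F), (g ⟨k, a⟩ ≠ 0 ∧ v.ord (g ⟨k, a⟩) = m) ∧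
      (∀ b : Fin ((w k).ramificationIndex F), b < a → OrdGe v (m + 1) (g ⟨k, b⟩)) ∧
      (∑ i', g i' • y i') ≠ 0 ∧
      (w k).ord (∑ i', g i' • y i') = ((a : ℕ) : ℤ) + ((w k).ramificationIndex F : ℤ) * m := by
  obtain ⟨t, ht0, ht⟩ := exists_uniformizer v
  have hepos : ∀ j, 0 < (w j).ramificationIndex F := fun j =>
    (w j).ramificationIndex_pos (F := F)
  have hordF : ∀ (j : ι) (c : F), (w j).ord (algebraMap F F' c)
      = ((w j).ramificationIndex F : ℤ) * v.ord c := fun j c => by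
    rw [(w j).ord_restrict c, hw j]
  set τ : F := t ^ (-m) with hτ
  have hτ0 : τ ≠ 0 := zpow_ne_zero _ ht0
  have hτord : v.ord τ = -m := by rw [hτ, v.ord_zpow, ht, mul_one]
  -- the normalized coefficients
  set c : (Σ k : ι, Fin ((w k).ramificationIndex F)) → F' :=
    fun i => algebraMap F F' (τ * g i) with hcdef
  have hcord : ∀ i, g i ≠ 0 → ∀ j, (w j).ord (c i)
      = ((w j).ramificationIndex F : ℤ) * (v.ord (g i) - m) := by
    intro i hi j
    simp only [hcdef]
    rw [hordF j, v.ord_mul hτ0 hi, hτord]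
    ring
  have hunit_iff : ∀ i, (c i ≠ 0 ∧ ∀ j, (w j).ord (c i) = 0) ↔ (g i ≠ 0 ∧ v.ord (g i) = m) := by
    intro i
    constructor
    · rintro ⟨h0, h⟩
      have hgi : g i ≠ 0 := by
        rintro h'
        apply h0
        simp only [hcdef, h', mul_zero, map_zero]
      refine ⟨hgi, ?_⟩
      have := h k
      rw [hcord i hgi k] at this
      have hk' := hepos k
      have h2 : v.ord (g i) - m = 0 := by
        rcases mul_eq_zero.mp this with h3 | h3
        · omega
        · exact h3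
      omega
    · rintro ⟨hgi, hm⟩
      refine ⟨(map_ne_zero (algebraMap F F')).mpr (mul_ne_zero hτ0 hgi), fun j => ?_⟩
      rw [hcord i hgi j, hm, sub_self, mul_zero]
  have hc : ∀ i, (c i ≠ 0 ∧ ∀ j, (w j).ord (c i) = 0) ∨
      (∀ j, OrdGe (w j) ((w j).ramificationIndex F) (c i)) := by
    intro i
    rcases eq_or_ne (g i) 0 with h0 | h0
    · right
      intro j
      simp only [hcdef, h0, mul_zero, map_zero]
      exact ordGe_zero _ _
    · have hm' : m ≤ v.ord (g i) := (hg i).le h0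
      rcases eq_or_lt_of_le hm' with heq | hlt
      · exact Or.inl ((hunit_iff i).mpr ⟨h0, heq.symm⟩)
      · right
        intro j
        refine Or.inr ?_
        rw [hcord i h0 j]
        have h1 : (1 : ℤ) ≤ v.ord (g i) - m := by omega
        have := mul_le_mul_of_nonneg_left h1 (Int.natCast_nonneg ((w j).ramificationIndex F))
        linarith
  obtain ⟨a, ha⟩ := hk
  obtain ⟨a₀, hunit, hmin, hne, hord⟩ := core_block hy c hc k ⟨a, (hunit_iff _).mpr ha⟩
  have hsum : ∑ i', c i' * y i' = algebraMap F F' τ * ∑ i', g i' • y i' := by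
    rw [Finset.mul_sum]
    refine Finset.sum_congr rfl fun i' _ => ?_
    simp only [hcdef]
    rw [Algebra.smul_def, map_mul, mul_assoc]
  rw [hsum] at hne hord
  have hz0 : (∑ i', g i' • y i') ≠ 0 := right_ne_zero_of_mul hne
  have hτ0' : algebraMap F F' τ ≠ 0 := (map_ne_zero (algebraMap F F')).mpr hτ0
  refine ⟨a₀, (hunit_iff _).mp hunit, fun b hb => ?_, hz0, ?_⟩
  · rcases eq_or_ne (g ⟨k, b⟩) 0 with h0 | h0
    · exact Or.inl h0
    · refine Or.inr ?_
      have h1 : m ≤ v.ord (g ⟨k, b⟩) := (hg _).le h0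
      have h2 : v.ord (g ⟨k, b⟩) ≠ m := fun h => hmin b hb ((hunit_iff _).mpr ⟨h0, h⟩)
      omega
  · rw [(w k).ord_mul hτ0' hz0, hordF k, hτord] at hord
    linarith

/-- Coordinates of an element which is integral at all `w j` are integral at `v`. -/
theorem coords_integral (hw : ∀ j, (w j).restrict F = v)
    {y : (Σ k : ι, Fin ((w k).ramificationIndex F)) → F'}
    (hy : LocalBasis w (fun j => (w j).ramificationIndex F) y)
    (g : (Σ k : ι, Fin ((w k).ramificationIndex F)) → F)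
    (hz : ∀ j, OrdGe (w j) 0 (∑ i', g i' • y i')) (i : Σ k : ι, Fin ((w k).ramificationIndex F)) :
    OrdGe v 0 (g i) := by
  classical
  by_contra hcon
  have hi0 : g i ≠ 0 := fun h => hcon (Or.inl h)
  have hineg : v.ord (g i) < 0 := by
    by_contra h
    exact hcon (Or.inr (not_lt.mp h))
  -- a coefficient of minimal order
  have hne : (Finset.univ.filter fun i => g i ≠ 0).Nonempty :=
    ⟨i, Finset.mem_filter.mpr ⟨Finset.mem_univ _, hi0⟩⟩
  obtain ⟨i₀, hi₀mem, hi₀⟩ := Finset.exists_min_image _ (fun i => v.ord (g i)) hne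
  have hi₀ne : g i₀ ≠ 0 := (Finset.mem_filter.mp hi₀mem).2
  set m := v.ord (g i₀) with hm
  have hmneg : m < 0 := lt_of_le_of_lt
    (hi₀ i (Finset.mem_filter.mpr ⟨Finset.mem_univ _, hi0⟩)) hineg
  have hg : ∀ i', OrdGe v m (g i') := by
    intro i'
    rcases eq_or_ne (g i') 0 with h0 | h0
    · exact Or.inl h0
    · exact Or.inr (hi₀ i' (Finset.mem_filter.mpr ⟨Finset.mem_univ _, h0⟩))
  obtain ⟨k, a⟩ := i₀
  obtain ⟨a₀, -, -, hz0, hord⟩ := coords_block hw hy g m hg k ⟨a, hi₀ne, rfl⟩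
  have h1 := (hz k).le hz0
  rw [hord] at h1
  have h2 : ((a₀ : ℕ) : ℤ) < ((w k).ramificationIndex F : ℤ) := by exact_mod_cast a₀.2
  have h3 : ((w k).ramificationIndex F : ℤ) * m ≤ ((w k).ramificationIndex F : ℤ) * (-1) :=
    mul_le_mul_of_nonneg_left (by omega) (Int.natCast_nonneg _)
  linarith

/-- Coordinates of an element of order `≥ a` at `w k` and `≥ e j` at the `w j`, `j ≠ k`: those
outside of the block `k`, and those of index `< a` in the block `k`, are divisible. -/
theorem coords_divisible (hw : ∀ j, (w j).restrict F = v)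
    {y : (Σ k : ι, Fin ((w k).ramificationIndex F)) → F'}
    (hy : LocalBasis w (fun j => (w j).ramificationIndex F) y)
    (g : (Σ k : ι, Fin ((w k).ramificationIndex F)) → F) (k : ι) (a : ℕ)
    (hzk : OrdGe (w k) a (∑ i', g i' • y i'))
    (hz : ∀ j, j ≠ k → OrdGe (w j) ((w j).ramificationIndex F) (∑ i', g i' • y i'))
    (i : Σ k : ι, Fin ((w k).ramificationIndex F)) (hi : i.1 ≠ k ∨ (i.2 : ℕ) < a) :
    OrdGe v 1 (g i) := by
  classical
  have hz0 : ∀ j, OrdGe (w j) 0 (∑ i', g i' • y i') := by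
    intro j
    by_cases hjk : j = k
    · subst hjk
      exact hzk.mono (Int.natCast_nonneg _)
    · exact (hz j hjk).mono (Int.natCast_nonneg _)
  have hint : ∀ i', OrdGe v 0 (g i') := coords_integral hw hy g hz0
  by_contra hcon
  have hi0 : g i ≠ 0 := fun h => hcon (Or.inl h)
  have hord0 : v.ord (g i) = 0 := by
    have h1 := (hint i).le hi0
    have h2 : ¬ (1 ≤ v.ord (g i)) := fun h => hcon (Or.inr h)
    omega
  obtain ⟨j, b⟩ := i
  obtain ⟨a₀, -, hmin, hne, hord⟩ := coords_block hw hy g 0 hint j ⟨b, hi0, hord0⟩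
  rw [mul_zero, add_zero] at hord
  have hab : a₀ ≤ b := by
    by_contra hlt
    have h1 := hmin b (not_le.mp hlt)
    rw [zero_add] at h1
    have := h1.le hi0
    omega
  rcases hi with hjk | hba
  · have h1 := (hz j hjk).le hne
    rw [hord] at h1
    have h2 : ((a₀ : ℕ) : ℤ) < ((w j).ramificationIndex F : ℤ) := by exact_mod_cast a₀.2
    omega
  · by_cases hjk : j = k
    · subst hjk
      have h1 := hzk.le hne
      rw [hord] at h1
      have h2 : ((a₀ : ℕ) : ℤ) ≤ ((b : ℕ) : ℤ) := by exact_mod_cast hab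
      have h3 : ((b : ℕ) : ℤ) < (a : ℤ) := by exact_mod_cast hba
      omega
    · have h1 := (hz j hjk).le hne
      rw [hord] at h1
      have h2 : ((a₀ : ℕ) : ℤ) < ((w j).ramificationIndex F : ℤ) := by exact_mod_cast a₀.2
      omega

end Rel

end Fermat.Agent.S27.REDu.H51

end
end
-- ==== END Fermat.Agent.S27.REDu.H51_Coords

-- ==== BEGIN Fermat.Agent.S27.REDu.H79_ConsChart
section

/-!
# G-RED package CONS (helper79): the Dedekind domain of a chart

`x ∈ F` transcendental over `K`, `F / K(x)` finite separable, `B = integralClosure K[x] F`.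
* `isDedekind_Bx`, `isFractionRing_Bx`.
* `exists_eq_ofH_of_mem` : a place `P` with `x ∈ O_P` is the place of a height one prime of `B`.
* `isIntegral_of_forall_ordGe` : `f ∈ F` regular at all places finite over `x` is integral
  over `K[x]`.
-/

set_option autoImplicit false
set_option linter.style.haveILetI false

universe uC uCf uK uR uF uL uE uk ukap uFp uFt uFtp uiot uEp uKp ux3b1

noncomputable section

open AlgebraicCurve IsDedekindDomain WithZero IntermediateField
open scoped IntermediateField.algebraAdjoinAdjoin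

namespace Fermat.Agent.S27.REDu.H79

open Fermat.Agent.S27.REDu.H51

section Chart

variable {K F : Type*} [Field K] [Field F] [Algebra K F]

theorem isDedekind_Bx (x : F) (hx : Transcendental K x) [FiniteDimensional K⟮x⟯ F]
    [Algebra.IsSeparable K⟮x⟯ F] :
    IsDedekindDomain ↥(integralClosure ↥(Algebra.adjoin K {x}) F) := by
  have hPID : IsPrincipalIdealRing (Algebra.adjoin K {x}) :=
    IsPrincipalIdealRing.of_surjective
      (Polynomial.algEquivOfTranscendental K x hx).toRingEquiv.toRingHom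
      (Polynomial.algEquivOfTranscendental K x hx).surjective
  exact integralClosure.isDedekindDomain (Algebra.adjoin K {x}) K⟮x⟯ F

theorem isFractionRing_Bx (x : F) [FiniteDimensional K⟮x⟯ F] :
    IsFractionRing ↥(integralClosure ↥(Algebra.adjoin K {x}) F) F :=
  integralClosure.isFractionRing_of_finite_extension K⟮x⟯ F

/-- An element integral over `K[x]` lies in every valuation ring of a place containing `x`. -/
theorem mem_of_isIntegral (P : Place K F) {x : F} (hxP : x ∈ P.toValuationSubring) {b : F}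
    (hb : IsIntegral ↥(Algebra.adjoin K {x}) b) : b ∈ P.toValuationSubring := by
  have hle : ∀ a : ↥(Algebra.adjoin K {x}),
      algebraMap ↥(Algebra.adjoin K {x}) F a ∈ P.toValuationSubring.toSubring := by
    rintro ⟨a, ha⟩
    show a ∈ P.toValuationSubring
    induction ha using Algebra.adjoin_induction with
    | mem y hy =>
      rw [Set.mem_singleton_iff] at hy
      subst hy
      exact hxP
    | algebraMap r => exact P.algebraMap_mem' r
    | add _ _ _ _ h1 h2 => exact add_mem h1 h2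
    | mul _ _ _ _ h1 h2 => exact mul_mem h1 h2
  let ι : ↥(Algebra.adjoin K {x}) →+* ↥P.toValuationSubring :=
    (algebraMap ↥(Algebra.adjoin K {x}) F).codRestrict P.toValuationSubring.toSubring hle
  obtain ⟨p, hp, hpb⟩ := hb
  have hint : IsIntegral ↥P.toValuationSubring b := by
    refine ⟨p.map ι, hp.map ι, ?_⟩
    rw [Polynomial.eval₂_map]
    exact hpb
  obtain ⟨y, hy⟩ := IsIntegrallyClosed.isIntegral_iff.mp hint
  rw [← hy]
  exact y.2

/-- A place `P` with `x ∈ O_P` is the place of a height one prime of `B`. -/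
theorem exists_eq_ofH_of_mem (x : F) (hx : Transcendental K x) [FiniteDimensional K⟮x⟯ F]
    [Algebra.IsSeparable K⟮x⟯ F] (P : Place K F) (hxP : x ∈ P.toValuationSubring) :
    haveI := isDedekind_Bx x hx
    haveI := isFractionRing_Bx (K := K) x
    ∃ w : HeightOneSpectrum ↥(integralClosure ↥(Algebra.adjoin K {x}) F), P = ofH K w := by
  haveI := isDedekind_Bx x hx
  haveI := isFractionRing_Bx (K := K) x
  exact exists_eq_ofH P fun b => mem_of_isIntegral P hxP b.2

/-- `x` lies in the valuation ring of the place of a height one prime of `B`. -/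
theorem mem_ofH (x : F) (hx : Transcendental K x) [FiniteDimensional K⟮x⟯ F]
    [Algebra.IsSeparable K⟮x⟯ F] :
    haveI := isDedekind_Bx x hx
    haveI := isFractionRing_Bx (K := K) x
    ∀ (w : HeightOneSpectrum ↥(integralClosure ↥(Algebra.adjoin K {x}) F)) (b : F),
      IsIntegral ↥(Algebra.adjoin K {x}) b → OrdGe (ofH K w) 0 b := by
  haveI := isDedekind_Bx x hx
  haveI := isFractionRing_Bx (K := K) x
  intro w b hb
  exact ordGe_zero_algebraMap (K := K) (F := F) w
    (⟨b, hb⟩ : ↥(integralClosure ↥(Algebra.adjoin K {x}) F))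

/-- (b) An element of `F` regular at all places finite over `x` is integral over `K[x]`. -/
theorem isIntegral_of_forall_ordGe (x : F) (hx : Transcendental K x) [FiniteDimensional K⟮x⟯ F]
    [Algebra.IsSeparable K⟮x⟯ F] (f : F)
    (h : ∀ P : Place K F, x ∈ P.toValuationSubring → OrdGe P 0 f) :
    IsIntegral ↥(Algebra.adjoin K {x}) f := by
  haveI := isDedekind_Bx x hx
  haveI := isFractionRing_Bx (K := K) x
  have hx0 : IsIntegral ↥(Algebra.adjoin K {x}) x :=
    (isIntegral_algebraMap (R := ↥(Algebra.adjoin K {x})) (A := F)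
      (x := ⟨x, Algebra.self_mem_adjoin_singleton K x⟩))
  obtain ⟨b, hb⟩ := mem_range_of_forall_ordGe (K := K)
    (B := ↥(integralClosure ↥(Algebra.adjoin K {x}) F)) f (fun w => h _
      ((ordGe_zero_iff_mem _ _).1 (mem_ofH x hx w x hx0)))
  rw [← hb]
  exact b.2

end Chart

end Fermat.Agent.S27.REDu.H79

end
end
-- ==== END Fermat.Agent.S27.REDu.H79_ConsChart

-- ==== BEGIN Fermat.Agent.S39.FinMult.H33_Main
section

/-!
# S39 leaf FinMult: final statement (helper33)

`stmt_FinMult : Fermat.Agent.S39.Stmt_FinMult`, unconditional: combines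
`H33.stmt_FinMult_of` (structure + Kummer core) with helper67's arithmetic leaves
`H67.stmt_NodeArith`, `H67.stmt_NodePeu`.
-/

namespace Fermat.Agent.S39.FinMult.H33

/-- **S39 leaf FinMult** (multiplicative reduction at `p`, peu ramifiée ⇒ finite at `p`). -/
theorem stmt_FinMult : Fermat.Agent.S39.Stmt_FinMult :=
  stmt_FinMult_of Fermat.Agent.S39.FinMult.H67.stmt_NodeArith
    Fermat.Agent.S39.FinMult.H67.stmt_NodePeu

end Fermat.Agent.S39.FinMult.H33

end
-- ==== END Fermat.Agent.S39.FinMult.H33_Main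

-- ==== BEGIN Fermat.Agent.S41.H94_Adj
section

/-!
# S41, package P: `res_i` and `cor_i` are adjoint for the pairing `Bform`
-/

set_option autoImplicit false

open scoped MatrixGroups
open CongruenceSubgroup

namespace Fermat.Agent.S41.H94

section Embeddings

/-- `Gamma0 (N q) ⊆ Gamma0 N ⊆ SL(2,ℤ)`. -/
abbrev j1 (N q : ℕ) : Gamma0 (N * q) →* SL(2, ℤ) := (Gamma0 N).subtype.comp (inclG N q)

/-- `Gamma0 (N q) → Gamma0 N ⊆ SL(2,ℤ)`, conjugation by `diag(q,1)`. -/
abbrev j2 (N q : ℕ) : Gamma0 (N * q) →* SL(2, ℤ) := (Gamma0 N).subtype.comp (conjG N q)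

theorem j1_eq (N q : ℕ) : j1 N q = (Gamma0 (N * q)).subtype := MonoidHom.ext fun _ => rfl

theorem j2_injective (N q : ℕ) (hq : q ≠ 0) : Function.Injective (j2 N q) :=
  (Gamma0 N).subtype_injective.comp (H19.conjG_injective N q hq)

theorem coe_j2 (N q : ℕ) (h : Gamma0 (N * q)) :
    ((j2 N q h : SL(2, ℤ)) : Matrix (Fin 2) (Fin 2) ℤ) = conjMat q (H19.mat h) := rfl

theorem trace_j2 (N q : ℕ) (h : Gamma0 (N * q)) :
    ((j2 N q h : SL(2, ℤ)) : Matrix (Fin 2) (Fin 2) ℤ).trace
      = (((Gamma0 (N * q)).subtype h : SL(2, ℤ)) : Matrix (Fin 2) (Fin 2) ℤ).trace := by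
  rw [coe_j2, H19.trace_conjMat]
  rfl

theorem Gamma_le_range_j2 (N q : ℕ) (hq : q ≠ 0) : Gamma (N * q) ≤ (j2 N q).range := by
  intro g hg
  rw [Gamma_mem] at hg
  obtain ⟨-, h01, h10, -⟩ := hg
  have d01 : ((N * q : ℕ) : ℤ) ∣ g 0 1 := (ZMod.intCast_zmod_eq_zero_iff_dvd _ _).mp h01
  have d10 : ((N * q : ℕ) : ℤ) ∣ g 1 0 := (ZMod.intCast_zmod_eq_zero_iff_dvd _ _).mp h10
  have hgN : g ∈ Gamma0 N := by
    rw [Gamma0_mem, ZMod.intCast_zmod_eq_zero_iff_dvd]
    exact dvd_trans (by push_cast; exact dvd_mul_right _ _) d10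
  have hq01 : (q : ℤ) ∣ H19.mat (⟨g, hgN⟩ : Gamma0 N) 0 1 :=
    dvd_trans (by push_cast; exact dvd_mul_left _ _) d01
  obtain ⟨h', hh'⟩ := H19.exists_conjG_eq hq (⟨g, hgN⟩ : Gamma0 N) hq01
  exact ⟨h', by show ((conjG N q h' : Gamma0 N) : SL(2, ℤ)) = g; rw [hh']⟩

theorem finiteIndex_range_j2 (N q : ℕ) (hN : N ≠ 0) (hq : q ≠ 0) : (j2 N q).range.FiniteIndex := by
  haveI : NeZero (N * q) := ⟨Nat.mul_ne_zero hN hq⟩
  exact Subgroup.finiteIndex_of_le (Gamma_le_range_j2 N q hq)

theorem finiteIndex_range_conjG (N q : ℕ) (hN : N ≠ 0) (hq : q ≠ 0) :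
    (conjG N q).range.FiniteIndex := by
  have h1 := finiteIndex_range_j2 N q hN hq
  have h2 : (j2 N q).range = (conjG N q).range.map (Gamma0 N).subtype := MonoidHom.range_comp _ _
  rw [h2] at h1
  constructor
  intro h0
  apply h1.index_ne_zero
  rw [Subgroup.index_map_subtype, h0, zero_mul]

theorem finiteIndex_range_inclG (N q : ℕ) (hN : N ≠ 0) (hq : q ≠ 0) :
    (inclG N q).range.FiniteIndex := by
  haveI : NeZero (N * q) := ⟨Nat.mul_ne_zero hN hq⟩
  have h1 : (j1 N q).range.FiniteIndex := by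
    rw [j1_eq, Subgroup.range_subtype]; infer_instance
  have h2 : (j1 N q).range = (inclG N q).range.map (Gamma0 N).subtype := MonoidHom.range_comp _ _
  rw [h2] at h1
  constructor
  intro h0
  apply h1.index_ne_zero
  rw [Subgroup.index_map_subtype, h0, zero_mul]

theorem neg_one_mem_range_j2 (N q : ℕ) : (-1 : SL(2, ℤ)) ∈ (j2 N q).range := by
  refine ⟨⟨-1, neg_one_mem_Gamma0 (N * q)⟩, ?_⟩
  apply Subtype.ext
  show conjMat q ((-1 : SL(2, ℤ)) : Matrix (Fin 2) (Fin 2) ℤ) = ((-1 : SL(2, ℤ)) : Matrix _ _ ℤ)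
  ext i j
  fin_cases i <;> fin_cases j <;> simp [conjMat]

theorem isPosPar_j2_iff (N q : ℕ) (hq : q ≠ 0) (h : Gamma0 (N * q)) :
    IsPosPar ((Gamma0 (N * q)).subtype h) ↔ IsPosPar (j2 N q h) := by
  have hq0 : (0 : ℤ) < q := by exact_mod_cast Nat.pos_of_ne_zero hq
  obtain ⟨c, hc⟩ := q_dvd_of_mem_gamma0_mul h.2
  have hne : ((Gamma0 (N * q)).subtype h = 1) ↔ (j2 N q h = 1) := by
    constructor
    · intro h1
      have : h = 1 := (Gamma0 (N * q)).subtype_injective (by rw [h1, map_one])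
      rw [this, map_one]
    · intro h1
      have : h = 1 := j2_injective N q hq (by rw [h1, map_one])
      rw [this, map_one]
  have e01 : (j2 N q h : SL(2, ℤ)) 0 1 = (q : ℤ) * ((Gamma0 (N * q)).subtype h : SL(2, ℤ)) 0 1 := by
    show (conjMat q (H19.mat h)) 0 1 = _
    simp [conjMat]
  have e10 : ((Gamma0 (N * q)).subtype h : SL(2, ℤ)) 1 0 = (q : ℤ) * (j2 N q h : SL(2, ℤ)) 1 0 := by
    show (H19.mat h) 1 0 = (q : ℤ) * (conjMat q (H19.mat h)) 1 0
    have : H19.mat h 1 0 = (q : ℤ) * c := hc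
    simp only [conjMat, Matrix.of_apply, Matrix.cons_val', Matrix.cons_val_zero,
      Matrix.cons_val_one, Matrix.empty_val', Matrix.cons_val_fin_one]
    rw [this, Int.mul_ediv_cancel_left _ hq0.ne']
  unfold IsPosPar
  rw [trace_j2]
  constructor
  · rintro ⟨h1, h2, h3, h4⟩
    refine ⟨h1, fun h' => h2 (hne.mpr h'), ?_, ?_⟩
    · rw [e01]; exact mul_nonneg hq0.le h3
    · rw [e10] at h4; nlinarith
  · rintro ⟨h1, h2, h3, h4⟩
    refine ⟨h1, fun h' => h2 (hne.mp h'), ?_, ?_⟩
    · rw [e01] at h3; nlinarith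
    · rw [e10]; nlinarith

end Embeddings

section Adjunction

variable {k : Type} [Field k]

theorem isCuspVia_j2_iff (N q : ℕ) (ψ : Additive (Gamma0 (N * q)) →+ k) :
    IsCuspVia (j2 N q) ψ ↔ IsCuspidalHom (Gamma0 (N * q)) ψ := by
  unfold IsCuspVia IsCuspidalHom
  refine forall_congr' fun h => ?_
  rw [trace_j2]
  rfl

theorem isCuspVia_j1_iff (N q : ℕ) (ψ : Additive (Gamma0 (N * q)) →+ k) :
    IsCuspVia (j1 N q) ψ ↔ IsCuspidalHom (Gamma0 (N * q)) ψ := Iff.rfl

/-- Adjointness of `res1` and `cor1`. -/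
theorem Bform_adj1 (L : Leaves) (h2 : (2 : k) ≠ 0) (N q : ℕ) (hN : N ≠ 0) (hq : q ≠ 0)
    {φ : Additive (Gamma0 N) →+ k} {ψ : Additive (Gamma0 (N * q)) →+ k}
    (hφ : IsCuspidalHom (Gamma0 N) φ) (hψ : IsCuspidalHom (Gamma0 (N * q)) ψ) :
    IsCuspidalHom (Gamma0 (N * q)) (res1 N q k φ) ∧ IsCuspidalHom (Gamma0 N) (cor1 N q k ψ) ∧
      Bform k (N * q) (res1 N q k φ) ψ = Bform k N φ (cor1 N q k ψ) := by
  haveI : NeZero N := ⟨hN⟩
  haveI : NeZero (N * q) := ⟨Nat.mul_ne_zero hN hq⟩
  haveI : Fintype (SL(2, ℤ) ⧸ (Gamma0 N).subtype.range) := Fintype.ofFinite _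
  haveI : Fintype (SL(2, ℤ) ⧸ (Gamma0 (N * q)).subtype.range) := Fintype.ofFinite _
  haveI : Finite (SL(2, ℤ) ⧸ ((Gamma0 N).subtype.comp (inclG N q)).range) := by
    have := j1_eq N q
    unfold j1 at this
    rw [this]; infer_instance
  haveI : Fintype (SL(2, ℤ) ⧸ ((Gamma0 N).subtype.comp (inclG N q)).range) := Fintype.ofFinite _
  have hz1 : (ModularGroup.S : SL(2, ℤ)) ^ 2 ∈ ((Gamma0 N).subtype.comp (inclG N q)).range := by
    have := j1_eq N q
    unfold j1 at this
    rw [this]; exact S_sq_mem (N * q)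
  obtain ⟨P⟩ := nonempty_potTriple_of_cuspidal L h2 _ (neg_one_mem_range N) hφ
  obtain ⟨Q⟩ := nonempty_potTriple_of_cuspidal L h2 _ (neg_one_mem_range (N * q)) hψ
  have hneg1 : (-1 : SL(2, ℤ)) ∈ (j1 N q).range := by
    rw [j1_eq]; exact neg_one_mem_range (N * q)
  obtain ⟨Q₁⟩ := nonempty_potTriple_of_cuspidal L h2 (j1 N q) hneg1
    ((isCuspVia_j1_iff N q ψ).mpr hψ)
  obtain ⟨P', Q', hPQ⟩ := L.adj1 SL(2, ℤ) (Gamma0 N) (Gamma0 (N * q)) k ModularGroup.S
    ModularGroup.T (Gamma0 N).subtype (inclG N q) (Gamma0 N).subtype_injective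
    (H19.inclG_injective N q) (finiteIndex_range_inclG N q hN hq) L.ml hz1 h2 φ ψ P Q₁
  have hres : IsCuspidalHom (Gamma0 (N * q)) (res1 N q k φ) :=
    (isCuspVia_j1_iff N q _).mp (cuspidal_of_potTriple L h2 (j1 N q) hneg1 P')
  have hcor : IsCuspidalHom (Gamma0 N) (cor1 N q k ψ) :=
    cuspidal_of_potTriple L h2 _ (neg_one_mem_range N) Q'
  refine ⟨hres, hcor, ?_⟩
  obtain ⟨P₀⟩ := nonempty_potTriple_of_cuspidal L h2 _ (neg_one_mem_range (N * q)) hres
  rw [Bform_eq L h2 (N * q) P₀ Q]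
  change _ = Bform k N φ (corAlong k (inclG N q) ψ)
  rw [Bform_eq L h2 N P Q', ← hPQ]
  exact (pairingOf_of_eq (j1_eq N q) L.ml hz1 h2 P' Q₁ P₀ Q).symm

/-- Adjointness of `res2` and `cor2`. -/
theorem Bform_adj2 (L : Leaves) (h2 : (2 : k) ≠ 0) (N q : ℕ) (hN : N ≠ 0) (hq : q ≠ 0)
    {φ : Additive (Gamma0 N) →+ k} {ψ : Additive (Gamma0 (N * q)) →+ k}
    (hφ : IsCuspidalHom (Gamma0 N) φ) (hψ : IsCuspidalHom (Gamma0 (N * q)) ψ) :
    IsCuspidalHom (Gamma0 (N * q)) (res2 N q k φ) ∧ IsCuspidalHom (Gamma0 N) (cor2 N q k ψ) ∧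
      Bform k (N * q) (res2 N q k φ) ψ = Bform k N φ (cor2 N q k ψ) := by
  haveI : NeZero N := ⟨hN⟩
  haveI : NeZero (N * q) := ⟨Nat.mul_ne_zero hN hq⟩
  haveI : Fintype (SL(2, ℤ) ⧸ (Gamma0 N).subtype.range) := Fintype.ofFinite _
  haveI : Fintype (SL(2, ℤ) ⧸ (Gamma0 (N * q)).subtype.range) := Fintype.ofFinite _
  have hfi2 := finiteIndex_range_j2 N q hN hq
  haveI : Finite (SL(2, ℤ) ⧸ ((Gamma0 N).subtype.comp (conjG N q)).range) :=
    Subgroup.finite_quotient_of_finiteIndex
  haveI : Fintype (SL(2, ℤ) ⧸ ((Gamma0 N).subtype.comp (conjG N q)).range) := Fintype.ofFinite _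
  have hneg2 : (-1 : SL(2, ℤ)) ∈ (j2 N q).range := neg_one_mem_range_j2 N q
  have hz2 : (ModularGroup.S : SL(2, ℤ)) ^ 2 ∈ ((Gamma0 N).subtype.comp (conjG N q)).range := by
    rw [S_sq]; exact hneg2
  obtain ⟨P⟩ := nonempty_potTriple_of_cuspidal L h2 _ (neg_one_mem_range N) hφ
  obtain ⟨Q⟩ := nonempty_potTriple_of_cuspidal L h2 _ (neg_one_mem_range (N * q)) hψ
  obtain ⟨Q₂⟩ := nonempty_potTriple_of_cuspidal L h2 (j2 N q) hneg2
    ((isCuspVia_j2_iff N q ψ).mpr hψ)
  obtain ⟨P', Q', hPQ⟩ := L.adj1 SL(2, ℤ) (Gamma0 N) (Gamma0 (N * q)) k ModularGroup.S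
    ModularGroup.T (Gamma0 N).subtype (conjG N q) (Gamma0 N).subtype_injective
    (H19.conjG_injective N q hq) (finiteIndex_range_conjG N q hN hq) L.ml hz2 h2 φ ψ P Q₂
  have hres : IsCuspidalHom (Gamma0 (N * q)) (res2 N q k φ) :=
    (isCuspVia_j2_iff N q _).mp (cuspidal_of_potTriple L h2 (j2 N q) hneg2 P')
  have hcor : IsCuspidalHom (Gamma0 N) (cor2 N q k ψ) :=
    cuspidal_of_potTriple L h2 _ (neg_one_mem_range N) Q'
  refine ⟨hres, hcor, ?_⟩
  obtain ⟨P₀⟩ := nonempty_potTriple_of_cuspidal L h2 _ (neg_one_mem_range (N * q)) hres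
  rw [Bform_eq L h2 (N * q) P₀ Q]
  change _ = Bform k N φ (corAlong k (conjG N q) ψ)
  rw [Bform_eq L h2 N P Q', ← hPQ]
  have hfi1 : ((Gamma0 (N * q)).subtype).range.FiniteIndex := by
    rw [Subgroup.range_subtype]; infer_instance
  exact pairingOf_inv L.b1 L.b2 L.b3 L.psl L.ml L.c3 L.par h2 (Gamma0 (N * q)).subtype (j2 N q)
    (Gamma0 (N * q)).subtype_injective (j2_injective N q hq) hfi1 hfi2
    (neg_one_mem_range (N * q)) hneg2 (fun h => (trace_j2 N q h).symm)
    (fun h => isPosPar_j2_iff N q hq h) P₀ Q P' Q₂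

end Adjunction

end Fermat.Agent.S41.H94

end
-- ==== END Fermat.Agent.S41.H94_Adj

-- ==== BEGIN Fermat.Agent.S59.CaseC.H80_SelmerPFinal
section

/-!
# S59, case C: the Selmer bound at `p`, UNCONDITIONAL (helper80)

Pure wiring of landed leaves:

* `stmt_SELMERp_nonMin : NonMin.Stmt_SELMERp`
    = `NonMin.H80.selmerp_of` (helper80) applied to KUM-p (helper48) and PEUFLAT
      (helper92 + helper56).
* `stmt_SELMERp : CaseC.Stmt_SELMERp`
    = `CaseC.H85.selmerp_bridge` (helper85) applied to the above and EXISTS-i (helper77).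
-/

set_option autoImplicit false

namespace Fermat.Agent.S59.CaseC.H80

/-- **SELMER-p**, `NonMin` form, unconditional. -/
theorem stmt_SELMERp_nonMin : Fermat.Agent.S59.NonMin.Stmt_SELMERp :=
  Fermat.Agent.S59.NonMin.H80.selmerp_of Fermat.Agent.S59.NonMin.H48.stmt_KUMp
    Fermat.Agent.S59.NonMin.H56K.stmt_PEUFLAT

/-- **SELMER-p**, `CaseC` form, unconditional. -/
theorem stmt_SELMERp : Fermat.Agent.S59.CaseC.Stmt_SELMERp :=
  Fermat.Agent.S59.CaseC.H85.selmerp_bridge stmt_SELMERp_nonMin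
    Fermat.Agent.S59.NonMin.H77.stmt_EXISTSi

end Fermat.Agent.S59.CaseC.H80

end
-- ==== END Fermat.Agent.S59.CaseC.H80_SelmerPFinal

-- ==== BEGIN Fermat.Agent.S59.LL.SQ.H16_RegTame
section

/-!
# S59 / LL / SQ, leaf R1 REG-TAME (helper16)

Level `N = M q²` (tame level), `h ∈ L₀ = L0 A N` with `div h = p D` over `ℚ̄`, a unit for the three
valuations.  Then the order of the reduction `r11 h` (on the component `11`, with residue field
`FM A M`) at EVERY place `Q` of `FM A M` is divisible by `p`.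

* `hor1_chart`       : (HOR) with exponent `1` in a chart over `Rur A` (helper64's `stmt_HOR1`);
* `reg11At_of_top`   : helper35's `H35.Reg11At` from helper10's `TopInputs` (only `hpt0`, `hptoo`
                       are used);
* `stmt_reg11At`     : `H35.Reg11At` at every tame level from `H10.Stmt_NuMAll`, `H10.Stmt_TopAll`
                       (unconditional form: `H16_RegFinal.lean`).

Proof: if the reduction of `j` is regular at `Q`, work in the chart of `j`, otherwise in the chart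
of `1 / j`; the closed point below `Q` is `H24.ptIdeal`, and `dvd_ord_rd_abs` (REG, `reg_abs`)
applies with the branch and the local equation datum of `TopInputs`.
-/

set_option autoImplicit false
set_option synthInstance.maxHeartbeats 400000
set_option maxHeartbeats 1000000
set_option linter.style.haveILetI false
set_option linter.unusedSectionVars false
set_option linter.unusedVariables false

noncomputable section

open ModularCurve AlgebraicCurve IntermediateField

attribute [local instance] Classical.propDecidable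

namespace Fermat.Agent.S59.LL.SQ.H16

open Fermat.Agent.S24 Fermat.Agent.BAD Fermat.Agent.BAD.H88 Fermat.Agent.S28 Fermat.Agent.S28.H73
  Fermat.Agent.S36.NU.H23
  Fermat.Agent.S36.NU.H41 Fermat.Agent.S36.NU.H88 Fermat.Agent.S36.NU.H16
  Fermat.Agent.S36.NU.H17 Fermat.Agent.S36.NU.H24 Fermat.Agent.S36.NU.H79
  Fermat.Agent.S36.NU.H65 Fermat.Agent.S36.NU.H74 Fermat.Agent.S36.NU.H10
  Fermat.Agent.RED.H17 Fermat.Agent.RED.H73

section Hor

variable (A : ValuationSubring Kbar) (q : ℕ) (hq : q.Prime) (hA : A.LiesOverPrime q)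
  (N : ℕ) [NeZero N]

include hq hA in
/-- **(HOR)** with exponent `1` in every chart over `Rur A`. -/
theorem hor1_chart {k ι : Type*} {κ : ι → Type*} [Field k] [∀ i, Field (κ i)]
    [∀ i, Algebra k (κ i)] (C : Chart ↥(Rur A) ↥(L0 A N) k ι κ) (n : ℕ) (h : ↥(L0 A N))
    (h0 : h ≠ 0) (hdiv : ∀ P : Place Kbar (FN N), (n : ℤ) ∣ P.ord (h : FN N)) :
    HOR C ((q : ℕ) : ↥(Rur A)) n h := by
  intro W hB hqW hW
  refine Fermat.Agent.S59.LL.SQ.H64.stmt_HOR1 N A n h h0 hdiv W (fun c hc => ?_) hW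
  refine const_mem_of_Rur A q hq hA N W (fun r => ?_) hqW c hc
  exact hB ⟨algebraMap ↥(Rur A) ↥(L0 A N) r, C.B.algebraMap_mem r⟩

end Hor

section Mod

variable (A : ValuationSubring Kbar) (q M : ℕ) (B k : ℤ) (hB : B * M + k * q = 1) (hq : q.Prime)
  [NeZero M] [NeZero q] [NeZero (M * q)] [NeZero (M * q * q)]
  (hqM : ¬ q ∣ M) (hA : A.LiesOverPrime q) (ht : H91.TameAt M q)

attribute [local instance] algkM

/-- **REG-TAME** from `TopInputs`. -/
theorem reg11At_of_top (D₀ : NUDataM A q M) (hI : TopInputs A q M B k hB hq hqM hA ht D₀)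
    (p : ℕ) (hp : 0 < p) :
    Fermat.Agent.S59.LL.SQ.H35.Reg11At A q M B k hB hq hqM hA p := by
  intro h D hD hU h11 Q
  haveI : IsAlgClosed (kV A) := Fermat.Agent.RED.H73.isAlgClosed_kV A
  haveI : IsNoetherianRing ↥(chart0 A q M B k hB hq hqM hA ht).B :=
    isNoetherianRing_chart0 A q M hq hA
  haveI : IsFractionRing ↥(chart0 A q M B k hB hq hqM hA ht).B ↥(L0 A (M * q * q)) :=
    isFractionRing_chart0 A q M
  haveI : IsNoetherianRing ↥(chartInf A q M B k hB hq hqM hA ht).B :=
    isNoetherianRing_chartInf A q M hq hA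
  haveI : IsFractionRing ↥(chartInf A q M B k hB hq hqM hA ht).B ↥(L0 A (M * q * q)) :=
    isFractionRing_chartInf A q M
  have hdiv : ∀ P : Place Kbar (FN (M * q * q)), (p : ℤ) ∣ P.ord (h : FN (M * q * q)) :=
    fun P => ⟨D P, (hD P).symm⟩
  have hu : ∀ i, (totM A q M B k hB hq hqM hA ht).rdN i h ≠ 0 := by
    obtain ⟨⟨h20, e20⟩, ⟨h11', e11⟩, ⟨h02, e02⟩⟩ := hU
    intro i
    fin_cases i
    · exact rdN_totM_zero_ne_zero A q M B k hB hq hqM hA ht h h20 e20
    · exact rdN_totM_one_ne_zero A q M B k hB hq hqM hA ht h h11' e11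
    · exact rdN_totM_two_ne_zero A q M B k hB hq hqM hA ht h h02 e02
  have h0 : h ≠ 0 := by
    rintro rfl
    apply hu 1
    rw [(totM A q M B k hB hq hqM hA ht).rdN_of_mem
      ((totM A q M B k hB hq hqM hA ht).V 1).zero_mem]
    exact map_zero _
  have hdeg : (ptM A q M hq hqM hA 1 Q).deg = 1 := deg_ptM A q M hq hqM hA ht 1 Q
  have key : (p : ℤ) ∣
      (ptM A q M hq hqM hA 1 Q).ord ((totM A q M B k hB hq hqM hA ht).rdN 1 h) := by
    by_cases hj : RegAt (ptM A q M hq hqM hA 1 Q)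
        ((totM A q M B k hB hq hqM hA ht).rdN 1 (j0 A (M * q * q)))
    · -- the chart of `j`
      have hc := compat_chart0 A q M B k hB hq hqM hA ht
      have hjB : j0 A (M * q * q) ∈ (chart0 A q M B k hB hq hqM hA ht).B :=
        self_mem_intSub ↥(Rur A) (j0 A (M * q * q))
      have hreg : ∀ β : (chart0 A q M B k hB hq hqM hA ht).B,
          RegAt (ptM A q M hq hqM hA 1 Q) ((chart0 A q M B k hB hq hqM hA ht).rdB 1 β) :=
        regAt_rdB_of_integral (chart0 A q M B k hB hq hqM hA ht) 1 (j0 A (M * q * q)) hjB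
          (fun β => β.2) (ptM A q M hq hqM hA 1 Q) (by rw [hc.rdB_eq]; exact hj)
      obtain ⟨hbr, hL, -⟩ := hI.hpt0 _ (ptIdeal_isMaximal hreg hdeg) ⟨1, Icomp_le_ptIdeal hreg⟩
      have h1 := dvd_ord_rd_abs (chart0 A q M B k hB hq hqM hA ht) ((q : ℕ) : ↥(Rur A)) p hp h
        (fun i => by
          rw [hc.hV]
          exact ⟨(totM A q M B k hB hq hqM hA ht).mem_of_rdN_ne_zero (hu i),
            (totM A q M B k hB hq hqM hA ht).inv_mem_of_rdN_ne_zero (hu i)⟩)
        h0 (hor1_chart A q hq hA (M * q * q) _ p h h0 hdiv) 1 (ptM A q M hq hqM hA 1 Q) hdeg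
        hreg hbr hL
      rwa [hc.hrd] at h1
    · -- the chart of `1 / j`
      have hc := compat_chartInf A q M B k hB hq hqM hA ht
      have hjB : (j0 A (M * q * q))⁻¹ ∈ (chartInf A q M B k hB hq hqM hA ht).B :=
        self_mem_intSub ↥(Rur A) (j0 A (M * q * q))⁻¹
      have hj0 := rdN_j0_ne_zero A q M B k hB hq hqM hA ht 1
      have hjinv : (totM A q M B k hB hq hqM hA ht).rdN 1 (j0 A (M * q * q))⁻¹
          = ((totM A q M B k hB hq hqM hA ht).rdN 1 (j0 A (M * q * q)))⁻¹ := by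
        rw [← hc.hrd, ← hc.hrd]
        exact (chartInf A q M B k hB hq hqM hA ht).rd_inv 1 (by rw [hc.hrd]; exact hj0)
      have hvan : VanAt (ptM A q M hq hqM hA 1 Q)
          ((totM A q M B k hB hq hqM hA ht).rdN 1 (j0 A (M * q * q))⁻¹) := by
        rw [hjinv]
        apply vanAt_of_ord_pos
        rw [Place.ord_inv]
        have := (not_regAt_iff_ord _ _).1 hj
        omega
      have hreg : ∀ β : (chartInf A q M B k hB hq hqM hA ht).B,
          RegAt (ptM A q M hq hqM hA 1 Q) ((chartInf A q M B k hB hq hqM hA ht).rdB 1 β) :=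
        regAt_rdB_of_integral (chartInf A q M B k hB hq hqM hA ht) 1 (j0 A (M * q * q))⁻¹ hjB
          (fun β => β.2) (ptM A q M hq hqM hA 1 Q) (by rw [hc.rdB_eq]; exact hvan.regAt)
      obtain ⟨hbr, hL, -⟩ := hI.hptoo _ (ptIdeal_isMaximal hreg hdeg)
        ⟨1, Icomp_le_ptIdeal hreg⟩ (fun β hβ => by
          rw [mem_ptIdeal, hc.rdB_eq, hβ]
          exact hvan)
      have h1 := dvd_ord_rd_abs (chartInf A q M B k hB hq hqM hA ht) ((q : ℕ) : ↥(Rur A)) p hp h
        (fun i => by
          rw [hc.hV]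
          exact ⟨(totM A q M B k hB hq hqM hA ht).mem_of_rdN_ne_zero (hu i),
            (totM A q M B k hB hq hqM hA ht).inv_mem_of_rdN_ne_zero (hu i)⟩)
        h0 (hor1_chart A q hq hA (M * q * q) _ p h h0 hdiv) 1 (ptM A q M hq hqM hA 1 Q) hdeg
        hreg hbr hL
      rwa [hc.hrd] at h1
  rw [rdN_totM_one A q M B k hB hq hqM hA ht h h11] at key
  exact key

end Mod

/-- **REG-TAME at every tame level**, from the two modular statements of S36 (helper10's
`Stmt_NuMAll`, `Stmt_TopAll`). -/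
theorem stmt_reg11At (hNu : Stmt_NuMAll) (hTop : Stmt_TopAll)
    (A : ValuationSubring Kbar) (q M : ℕ) (B k : ℤ) (hB : B * M + k * q = 1) (hq : q.Prime)
    [NeZero M] [NeZero q] [NeZero (M * q)] [NeZero (M * q * q)]
    (hqM : ¬ q ∣ M) (hA : A.LiesOverPrime q) (ht : H91.TameAt M q)
    (hc : (5 ≤ q ∧ 4 ∣ M) ∨ (q = 3 ∧ 4 ∣ M) ∨ (q = 2 ∧ 9 ∣ M)) (p : ℕ) (hp : 0 < p) :
    Fermat.Agent.S59.LL.SQ.H35.Reg11At A q M B k hB hq hqM hA p := by
  obtain ⟨D, hD⟩ := hNu A q M B k hB hq hqM hA ht hc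
  exact reg11At_of_top A q M B k hB hq hqM hA ht D (hTop A q M B k hB hq hqM hA ht hc D hD) p hp

end Fermat.Agent.S59.LL.SQ.H16

end
end
-- ==== END Fermat.Agent.S59.LL.SQ.H16_RegTame
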