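-- GENERATED (merged mirror, NOTES/tools/trim/merge3_helper67.py): 11 modules of the originals, bodies verbatim.
import Fermat.Agent.Zm.S59_L06_002
import Fermat.Agent.Zm.S59_L03_003
import Fermat.Agent.Zm.S59_L04_004
import Fermat.Agent.Zm.S59_L01_002
import Fermat.Agent.Zm.S59_L02_003
import Fermat.Agent.Zm.S59_L02_004
import Fermat.Agent.Zm.S59_L05_003
import Fermat.Agent.Zm.S36_L11_000
import Fermat.Agent.Zm.S36_L01_004
import Fermat.Agent.Zm.S36_L11_001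
import Fermat.Agent.Zm.S36_L10_001
import Fermat.Agent.Zm.S36_L13_000
import Fermat.Agent.Zm.S59_L06_000
import Fermat.Agent.Zm.S36_L15_001
import Fermat.Agent.Zm.S59_L06_001
import Fermat.Agent.Zm.S59_L06_003
import Fermat.Agent.Zm.S59_L02_005
import Fermat.Agent.Zm.S59_L03_004
import Fermat.Agent.Zm.S59_L04_005
import Fermat.Agent.Zm.S59_L01_005
import Fermat.Agent.Zm.S43_L13_002

-- ==== BEGIN Fermat.Agent.S59.LL.SQ.H33_CompEisFinal
section

/-!
# S59 / LL / SQ, leaf (E) COMP-EIS at `q²` (helper33): the final statement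

`stmt_CompEisSq : SQ.Stmt_CompEisSq`, from the assembly `stmt_CompEisSq_of` (`H33_CompEisMain`)
and helper87's `H87.stmt_NV11` (NORM-VAL for `V₁₁`).
-/

set_option autoImplicit false

namespace Fermat.Agent.S59.LL.SQ.H33

/-- **(E) COMP-EIS at `q²`**, at all levels `M q²`, `q ∤ M`, `p ≠ q` odd. -/
theorem stmt_CompEisSq : Fermat.Agent.S59.LL.SQ.Stmt_CompEisSq :=
  stmt_CompEisSq_of Fermat.Agent.S59.LL.SQ.H87.stmt_NV11

end Fermat.Agent.S59.LL.SQ.H33

end
-- ==== END Fermat.Agent.S59.LL.SQ.H33_CompEisFinal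

-- ==== BEGIN Fermat.Agent.S59.LL.SQ.H35_OldRedSq
section
attribute [local instance 10000] SubalgebraClass.toAlgebra
attribute [local instance 10000] HahnSeries.powerSeriesAlgebra

/-!
# S59 / LL / SQ, leaf (R) OLD-RED at `q²` (helper35): the assembly

Level `N = M q²`, `q ∤ M`, `A` over `q`.

* `normRed11At` : NORM-RED for `V₁₁` (helper87's `hnorm11`) in the form `NormRed11At`;
* `oldRedSqAt_of` : `Reg11At p → CPow2002At p → SQ.OldRedSqAt A q M B k hB hq p`;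
* `stmt_OldRedSq_of` : the same for all levels.

Proof of `oldRedSqAt_of`: `x = [D]`, `p D = div h`, `h ∈ L₀` a unit for the three valuations.
`g = r₁₁ h`, `p D' = div g` (REG).  If `D'` is principal then `s₁₁ h` is a constant times a
`p`-th power, and with B2 at `20`, `02` the point `x` is in the toric part.  Otherwise lift `D'`
to a divisor `D_z` of degree `0` of level `M` (LIFT-PT); `r_* T_ℓ = T~_ℓ r_*` (`hr_div`) and
HECKE-RED11 (`eigRed11`) give `red (T_ℓ z) = t_ℓ red z`.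
-/

set_option autoImplicit false
set_option linter.style.haveILetI false
set_option linter.unusedSectionVars false
set_option linter.unusedVariables false
set_option synthInstance.maxHeartbeats 400000
set_option maxHeartbeats 1600000

noncomputable section

open AlgebraicCurve ModularCurve
open Fermat.Agent.S24 Fermat.Agent.BAD Fermat.Agent.BAD.H88
open Fermat.Agent.S28 Fermat.Agent.S28.H73 Fermat.Agent.RED.H73 Fermat.Agent.RED.H17
open Fermat.Agent.S36.NU.H88 Fermat.Agent.S36.NU.H23 Fermat.Agent.S36.NU.H26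
open Fermat.Agent.S43.Old.H35 Fermat.Agent.RED Fermat.Agent.S43.BadQ
open Fermat.Agent.S44 Fermat.Agent.S35.H89

namespace Fermat.Agent.S59.LL.SQ.H35

section Asm

variable (A : ValuationSubring Kbar) (q M : ℕ) (B k : ℤ) (hB : B * M + k * q = 1) (hq : q.Prime)
  [NeZero M] [NeZero q] [NeZero (M * q)] [NeZero (M * q * q)]
  (hqM : ¬ q ∣ M) (hA : A.LiesOverPrime q)

/-- **NORM-RED for `V₁₁`** (helper87). -/
theorem normRed11At (ℓ : ℕ) [NeZero ℓ] (hℓ : ℓ.Prime) (hℓN : ¬ ℓ ∣ M * q * q) :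
    NormRed11At A q M B k hB hq hqM hA ℓ := by
  intro f h11 nf hnf
  haveI : NeZero (M * q * q * ℓ) := ⟨Nat.mul_ne_zero (NeZero.ne (M * q * q)) (NeZero.ne ℓ)⟩
  haveI : NeZero (M * ℓ) := ⟨Nat.mul_ne_zero (NeZero.ne M) (NeZero.ne ℓ)⟩
  obtain ⟨h, e⟩ := H87.hnorm11 A q M ℓ B k hB hq hℓ hqM hℓN hA ⟨f, h11⟩
  have hnf' : nf = H87.heckeL0 A (M * q * q) ℓ f :=
    Subtype.ext (hnf.trans (H87.coe_heckeL0 A (M * q * q) ℓ f).symm)
  subst hnf'
  exact ⟨h, e⟩

include hqM hA in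
/-- **(R) OLD-RED at `q²`** from REG and B2. -/
theorem oldRedSqAt_of (p : ℕ) (hp : p.Prime)
    (hreg : Reg11At A q M B k hB hq hqM hA p) (hcp : CPow2002At A q M B k hB hq p) :
    SQ.OldRedSqAt A q M B k hB hq p := by
  intro r hr hmove S t x hpx hnew hI hG3 hT3 hT
  haveI : IsAlgClosed (kV A) := isAlgClosed_kV A
  -- function field facts
  have hFFM := H95.stmt_HKA_isFF M
  have hFt := isFF_redField_bar M q hq hqM A hA
  have HM := H17.ffHyp_of_isFF _ _ hFFM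
  have Ht := H17.ffHyp_of_isFF _ _ hFt
  have hpZ : (p : ℤ) ≠ 0 := by exact_mod_cast hp.ne_zero
  -- the data of the finite part
  obtain ⟨h, hKum, hU3⟩ := hG3
  obtain ⟨D, hxD, hD⟩ := hKum
  have hU3' := hU3
  obtain ⟨⟨h20, hs20⟩, ⟨h11, hs11⟩, -⟩ := hU3'
  have hg0 : r11 A q M B k hB hq hqM hA ⟨h, h11⟩ ≠ 0 :=
    r11_ne_zero_of_s11 A q M B k hB hq hqM hA _ hs11
  have hdvdM : ∀ Q : Place (kV A) ↥(Ft A M),
      (p : ℤ) ∣ Q.ord (r11 A q M B k hB hq hqM hA ⟨h, h11⟩) :=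
    fun Q => hreg h (D : Divisor Kbar (FN (M * q * q))) hD hU3 h11 Q
  -- the divisor `D' = div (r₁₁ h) / p`
  obtain ⟨Dg, hDg, hDg0⟩ := Ht.principal.exists_divisor
    (r11 A q M B k hB hq hqM hA ⟨h, h11⟩) hg0
  obtain ⟨D', hD'⟩ := Fermat.Agent.S43.Old.exists_divisor_div p hp.ne_zero Dg
    (fun Q => by rw [hDg Q]; exact hdvdM Q)
  have hD'g : ∀ Q : Place (kV A) ↥(Ft A M),
      (p : ℤ) * D' Q = Q.ord (r11 A q M B k hB hq hqM hA ⟨h, h11⟩) := fun Q => by
    rw [hD' Q, hDg Q]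
  have hpD' : (p : ℤ) • D' = Dg := by
    ext Q
    rw [Finsupp.smul_apply, smul_eq_mul, hD' Q]
  have hD'deg : Divisor.degree D' = 0 := by
    have h2 : (p : ℤ) • Divisor.degree D' = 0 := by rw [← map_zsmul, hpD', hDg0]
    rcases smul_eq_zero.mp h2 with h | h
    · exact absurd h hpZ
    · exact h
  have hDgp : Dg ∈ Divisor.principal (K := kV A) (F := ↥(Ft A M)) :=
    ⟨r11 A q M B k hB hq hqM hA ⟨h, h11⟩, hg0, hDg⟩
  -- NONZERO
  have hD'np : D' ∉ Divisor.principal (K := kV A) (F := ↥(Ft A M)) := by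
    rintro ⟨g', hg'0, hg'⟩
    apply hT3
    obtain ⟨⟨h20', c20, g20, hc20, hg20, e20⟩, ⟨h02', c02, g02, hc02, hg02, e02⟩⟩ :=
      hcp x h hpx hnew hI ⟨D, hxD, hD⟩ hU3
    -- `r₁₁ h = c g' ^ p`
    have hgp0 : g' ^ p ≠ 0 := pow_ne_zero p hg'0
    have hu : ∀ Q : Place (kV A) ↥(Ft A M),
        Q.ord (r11 A q M B k hB hq hqM hA ⟨h, h11⟩ * (g' ^ p)⁻¹) = 0 := by
      intro Q
      rw [Q.ord_mul hg0 (inv_ne_zero hgp0), Q.ord_inv, ord_pow, ← hD'g Q, hg' Q]
      ring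
    obtain ⟨c, hc⟩ := H36.const_of_ord_eq_zero hFt _ (mul_ne_zero hg0 (inv_ne_zero hgp0)) hu
    have hc0 : c ≠ 0 := by
      rintro rfl
      rw [map_zero] at hc
      exact mul_ne_zero hg0 (inv_ne_zero hgp0) hc
    have hrel : r11 A q M B k hB hq hqM hA ⟨h, h11⟩ = algebraMap (kV A) ↥(Ft A M) c * g' ^ p := by
      rw [← hc, inv_mul_cancel_right₀ hgp0]
    obtain ⟨G', hG'⟩ := r11_surjective A q M B k hB hq hqM hA g'
    refine ⟨h, ⟨D, hxD, hD⟩, ⟨h20', c20, g20, hc20, hg20, e20⟩, ⟨h11, c, G', hc0, ?_, ?_⟩,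
      ⟨h02', c02, g02, hc02, hg02, e02⟩⟩
    · apply s11_ne_zero_of_r11 A q M B k hB hq hqM hA
      rw [hG']
      exact hg'0
    · have h1 := congrArg (fun z : ↥(Ft A M) => (z : LaurentSeries (kV A))) hrel
      rw [← hG'] at h1
      exact h1
  -- LIFT-PT
  obtain ⟨Dz, hDz⟩ := Fermat.Agent.S43.Old.H75.exists_degZero_mapDomain_eq A
    (hasScale_laurentBaseChange A M) hr HM.principal HM.deg_one Ht.deg_one D' hD'deg
  refine ⟨Pic0.mk Dz, ?_, ?_, ?_⟩
  · rw [H36.redPic_mk, hDz]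
    intro h0
    exact hD'np ((QuotientAddGroup.eq_zero_iff _).mp h0)
  · rw [H36.redPic_mk, hDz]
    have h1 : (p : ℤ) • (QuotientAddGroup.mk D' : Pic (kV A) ↥(redField A
        (modularFunctionFieldBar M) (hasScale_laurentBaseChange A M)))
        = QuotientAddGroup.mk ((p : ℤ) • D') := rfl
    rw [h1, hpD']
    exact (QuotientAddGroup.eq_zero_iff _).mpr hDgp
  · intro ℓ hℓS hℓN hℓp
    haveI : NeZero (ℓ : ℕ) := ⟨ℓ.2.ne_zero⟩
    have hℓq : (ℓ : ℕ) ≠ q := fun h => hℓN (h ▸ dvd_mul_left (ℓ : ℕ) (M * q))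
    have hqMℓ : ¬ q ∣ M * (ℓ : ℕ) := by
      intro h
      rcases (Nat.Prime.dvd_mul hq).1 h with h1 | h1
      · exact hqM h1
      · exact hℓq ((Nat.prime_dvd_prime_iff_eq hq ℓ.2).1 h1).symm
    have TI := towerInputs (A := A) (M := M) (ℓ := (ℓ : ℕ)) hq hA hqMℓ
    haveI := TI.hP
    obtain ⟨hαN, hβN, hPN, hfinN, hFIN, hNFN⟩ := H51.stmt_HKA (M * q * q) (ℓ : ℕ)
    obtain ⟨hαM, hβM, hPM, hfinM, hFIM, hNFM⟩ := H51.stmt_HKA M (ℓ : ℕ)
    -- the eigen-equation at level `N`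
    have heig : Divisor.IsPrincipal (heckeDivBar hαN hβN
        (D : Divisor (AlgebraicClosure ℚ) ↥(FNbar (M * q * q)))
        - t ℓ • (D : Divisor (AlgebraicClosure ℚ) ↥(FNbar (M * q * q)))) := by
      have h1 := hT ℓ hℓS hℓN hℓp
      rw [hxD, heckeOperatorBar_apply, heckeOperatorAlong_eq hαN hβN hFIN hfinN hNFN] at h1
      have hmk : heckePic0Bar hαN hβN hFIN hfinN hNFN (Pic0.mk D)
          = Pic0.mk (Pic0.degZeroCorrespondence
              (heckeBetaBar (AlgebraicClosure ℚ) (M * q * q) (ℓ : ℕ))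
              (heckeAlphaBar (AlgebraicClosure ℚ) (M * q * q) (ℓ : ℕ)) hβN hαN hFIN D) := rfl
      have h2 : t (ℓ : ℕ) • Pic0.mk D = Pic0.mk (t (ℓ : ℕ) • D) := rfl
      rw [hmk, h2] at h1
      have h3 := (QuotientAddGroup.eq (s := (Divisor.principal (K := AlgebraicClosure ℚ)
        (F := ↥(FNbar (M * q * q)))).addSubgroupOf
        (Divisor.degZero (K := AlgebraicClosure ℚ) (F := ↥(FNbar (M * q * q)))))).mp h1.symm
      rw [AddSubgroup.mem_addSubgroupOf] at h3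
      have h4 : (heckeDivBar hαN hβN (D : Divisor (AlgebraicClosure ℚ) ↥(FNbar (M * q * q)))
          - t ℓ • (D : Divisor (AlgebraicClosure ℚ) ↥(FNbar (M * q * q))))
          = -(t ℓ • (D : Divisor (AlgebraicClosure ℚ) ↥(FNbar (M * q * q))))
            + heckeDivBar hαN hβN (D : Divisor (AlgebraicClosure ℚ) ↥(FNbar (M * q * q))) := by
        abel
      rw [h4]
      exact h3
    have hcD' : Divisor.IsPrincipal (K := kV A) (F := ↥(Ft A M))
        (Divisor.correspondence (betaT A M (ℓ : ℕ)) (alphaT A M (ℓ : ℕ)) TI.hβ TI.hα D'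
          - t ℓ • D') :=
      eigRed11 A q M B k hB hq hqM hA p hp.ne_zero (ℓ : ℕ) ℓ.2 hℓN
        (normRed11At A q M B k hB hq hqM hA (ℓ : ℕ) ℓ.2 hℓN) hαN hβN TI.hα TI.hβ
        (D : Divisor Kbar (FN (M * q * q))) h h20 hs20 h11 hs11 hD D' hD'g (t ℓ) heig
    have hbDz := hr_div A q M (ℓ : ℕ) hq ℓ.2 hℓq hqM hA hαM hβM TI.hα TI.hβ r hr hmove
      (Dz : Divisor (AlgebraicClosure ℚ) ↥(modularFunctionFieldBar M))
    rw [hDz] at hbDz
    -- conclusion
    rw [heckeOperatorBar_apply, heckeOperatorAlong_eq hαM hβM hFIM hfinM hNFM]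
    have hmkM : heckePic0Bar hαM hβM hFIM hfinM hNFM (Pic0.mk Dz)
        = Pic0.mk (Pic0.degZeroCorrespondence (heckeBetaBar (AlgebraicClosure ℚ) M (ℓ : ℕ))
            (heckeAlphaBar (AlgebraicClosure ℚ) M (ℓ : ℕ)) hβM hαM hFIM Dz) := rfl
    rw [hmkM, H36.redPic_mk, H36.redPic_mk, hDz]
    have h5 : t (ℓ : ℕ) • (QuotientAddGroup.mk D' : Pic (kV A) ↥(redField A
        (modularFunctionFieldBar M) (hasScale_laurentBaseChange A M)))
        = QuotientAddGroup.mk (t (ℓ : ℕ) • D') := rfl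
    rw [h5]
    refine (QuotientAddGroup.eq (s := Divisor.principal (K := kV A)
      (F := ↥(redField A (modularFunctionFieldBar M) (hasScale_laurentBaseChange A M))))).mpr ?_
    have h6 := (Divisor.principal (K := kV A) (F := ↥(redField A (modularFunctionFieldBar M)
      (hasScale_laurentBaseChange A M)))).neg_mem hcD'
    convert h6 using 1
    show -(Finsupp.mapDomain r (heckeDivBar hαM hβM (Dz : Divisor (AlgebraicClosure ℚ)
      ↥(modularFunctionFieldBar M)))) + t (ℓ : ℕ) • D' = _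
    rw [hbDz]
    abel

end Asm

/-- **(R) at all levels**, from REG and B2 at all levels. -/
theorem stmt_OldRedSq_of
    (hreg : ∀ (p : ℕ), p.Prime → p ≠ 2 → ∀ (q M : ℕ) (B k : ℤ) (hB : B * M + k * q = 1)
      (hq : q.Prime) [NeZero M] [NeZero q] [NeZero (M * q)] [NeZero (M * q * q)], q ≠ p →
      ∀ (hqM : ¬ q ∣ M) (A : ValuationSubring Kbar) (hA : A.LiesOverPrime q),
        Reg11At A q M B k hB hq hqM hA p)
    (hcp : ∀ (p : ℕ), p.Prime → p ≠ 2 → ∀ (q M : ℕ) (B k : ℤ) (hB : B * M + k * q = 1)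
      (hq : q.Prime) [NeZero M] [NeZero q] [NeZero (M * q)] [NeZero (M * q * q)], q ≠ p →
      ¬ q ∣ M → ∀ (A : ValuationSubring Kbar), A.LiesOverPrime q →
        CPow2002At A q M B k hB hq p) :
    SQ.Stmt_OldRedSq := by
  intro p hp hp2 q M B k hB hq _ _ _ _ hqp hqM A hA
  exact oldRedSqAt_of A q M B k hB hq hqM hA p hp
    (hreg p hp hp2 q M B k hB hq hqp hqM A hA) (hcp p hp hp2 q M B k hB hq hqp hqM A hA)

end Fermat.Agent.S59.LL.SQ.H35

end
end
-- ==== END Fermat.Agent.S59.LL.SQ.H35_OldRedSq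

-- ==== BEGIN Fermat.Agent.S59.LL.SQ.H35_RegBridge
section

/-!
# S59 / LL / SQ, leaf (R) (helper35): REG in helper94's shape gives `Reg11At`

`H94.Reg11` (level given up to equality, divisibility of the orders, a unit predicate `U`) at
`N = M q²`, `U = IsUnit3`, is the hypothesis `Reg11At` of `oldRedSqAt_of`.
-/

set_option autoImplicit false
set_option synthInstance.maxHeartbeats 400000
set_option maxHeartbeats 1000000
set_option linter.unusedSectionVars false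
set_option linter.unusedVariables false
set_option linter.style.haveILetI false

noncomputable section

open ModularCurve AlgebraicCurve
open Fermat.Agent.S24 Fermat.Agent.S28 Fermat.Agent.S28.H73 Fermat.Agent.RED.H73
open Fermat.Agent.RED Fermat.Agent.S36.NU.H23 Fermat.Agent.S36.NU.H88 Fermat.Agent.BAD.H88

namespace Fermat.Agent.S59.LL.SQ.H35

section Bridge

variable (A : ValuationSubring Kbar) (q M : ℕ) (B k : ℤ) (hB : B * M + k * q = 1) (hq : q.Prime)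
  [NeZero M] [NeZero q] [NeZero (M * q)] [NeZero (M * q * q)]
  (hqM : ¬ q ∣ M) (hA : A.LiesOverPrime q)

/-- `r11g` at the level `M q²` is helper23's `r11`. -/
theorem r11g_eq_r11 (x : ↥(V11o A q M B k hB hq)) :
    r11g A (M * q * q) q M B k (lvl q M) hB hq hqM hA rfl x = r11 A q M B k hB hq hqM hA x :=
  rfl

/-- **REG** in helper94's shape gives `Reg11At`. -/
theorem reg11At_of_reg11 (p : ℕ)
    (H : H94.Reg11 A (M * q * q) q M B k (lvl q M) hB hq hqM hA rfl p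
      (fun h => SQ.IsUnit3 A q M B k hB hq h)) :
    Reg11At A q M B k hB hq hqM hA p := by
  intro h D hD hU h11 Q
  exact H h (fun P => ⟨D P, (hD P).symm⟩) hU h11 Q

end Bridge

end Fermat.Agent.S59.LL.SQ.H35

end
end
-- ==== END Fermat.Agent.S59.LL.SQ.H35_RegBridge

-- ==== BEGIN Fermat.Agent.S59.LL.SQ.H38_UpVal
section

/-!
# S59 / LL / SQ, leaf U1 T3-UP (helper38): the three valuations in the tower `F_{M q²} ⊂ F_{Mℓ q²}`

`ℓ` prime to `q`, `ι = upF : F_{M q²} → F_{(M ℓ) q²}` the inclusion, Bezout data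
`B M + k q = 1` (level `M`) and `B' (M ℓ) + k' q = 1` (level `M ℓ`).  On the inertia-fixed
functions `L0`:

* `up_mem_V20o_iff`, `s20_up` : `ι h ∈ V₂₀ ↔ h ∈ V₂₀`, same reduction;
* `wS_upF` : `W_{q²} ∘ ι = ι ∘ W_{q²}`; `up_mem_V02o_iff`, `s02_up`;
* `cM_upF_arith`, `up_mem_V11o_iff`, `s11_up` : the same for the middle cusp (the two roots of
  unity `ζ^B`, `ζ^{B'}` are conjugate under inertia).
-/

set_option autoImplicit false
set_option linter.style.haveILetI false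
set_option linter.unusedSectionVars false
set_option synthInstance.maxHeartbeats 400000
set_option maxHeartbeats 1000000

noncomputable section

open AlgebraicCurve ModularCurve
open Fermat.Agent.S24 Fermat.Agent.BAD Fermat.Agent.BAD.H88
open Fermat.Agent.S28 Fermat.Agent.S28.H73 Fermat.Agent.RED.H73 Fermat.Agent.RED.H17
open Fermat.Agent.S36.NU.H88 Fermat.Agent.S36.NU.H23 Fermat.Agent.S36.NU.H26
open Fermat.Agent.Lib.HeckeComm

namespace Fermat.Agent.S59.LL.SQ.H38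

section Val

variable (A : ValuationSubring Kbar) (q M ℓ : ℕ) (B k B' k' : ℤ) (hB : B * M + k * q = 1)
  (hB' : B' * ((M * ℓ : ℕ) : ℤ) + k' * q = 1) (hq : q.Prime)
  [NeZero M] [NeZero q] [NeZero ℓ] [NeZero (M * ℓ)] [NeZero (M * q * q)]
  [NeZero (M * ℓ * q * q)]

/-! ### `V₂₀` -/

theorem up_mem_V20o_iff (h : ↥(L0 A (M * q * q))) :
    upL0 A M q (M * ℓ) (dvd_mul_right M ℓ) h ∈ V20o A q (M * ℓ) ↔ h ∈ V20o A q M := by
  rw [mem_V20o_iff, mem_V20o_iff, coe_upL0_series]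

theorem s20_up (h : ↥(L0 A (M * q * q))) (h1 : h ∈ V20o A q M)
    (h2 : upL0 A M q (M * ℓ) (dvd_mul_right M ℓ) h ∈ V20o A q (M * ℓ)) :
    s20 A q (M * ℓ) ⟨_, h2⟩ = s20 A q M ⟨h, h1⟩ := by
  rw [s20_mk, s20_mk]
  rfl

/-! ### `V₀₂` -/

include hB hB' in
/-- `W_{q²} ∘ ι = ι ∘ W_{q²}`. -/
theorem wS_comp_upF :
    (wS q (M * ℓ) B' k' hB').toAlgHom.comp (upF M q (M * ℓ) (dvd_mul_right M ℓ))
      = (upF M q (M * ℓ) (dvd_mul_right M ℓ)).comp (wS q M B k hB).toAlgHom := by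
  apply algHom_ext_of_adjoin _ (adjoin_jdF (M * q * q))
  rintro x ⟨D, hD0, hD, rfl⟩
  rw [AlgHom.comp_apply, AlgHom.comp_apply, upF_jdF]
  obtain ⟨d, d', e, e', rfl, hM, hQ⟩ :=
    dvd_casesQ (M * q * q) (q * q) M _ _ (lvl q M) (bezout_sq q M B k hB) D hD
  have hQ0 := Q_pos (M * q * q) (q * q) M _ _ (lvl q M) (bezout_sq q M B k hB)
  have hd : 0 < d := Nat.pos_of_ne_zero (by rintro rfl; exact NeZero.ne (0 * e) (zero_mul e))
  have he' : 0 < e' := Nat.pos_of_ne_zero (by rintro rfl; rw [mul_zero] at hQ; omega)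
  haveI : NeZero (d * e') := ⟨(Nat.mul_pos hd he').ne'⟩
  have hdvd : d * e' ∣ M * q * q :=
    dvd_of_factors (M * q * q) (q * q) M _ _ (lvl q M) (bezout_sq q M B k hB) d d' e e' hM hQ
  have h1 : (wS q M B k hB).toAlgHom (jdF (M * q * q) (d * e) hD)
      = jdF (M * q * q) (d * e') hdvd :=
    wQ_jdF (M * q * q) (q * q) M _ _ (lvl q M) (bezout_sq q M B k hB) d d' e e' hM hQ hD hdvd
  have h2 : (wS q (M * ℓ) B' k' hB').toAlgHom
      (jdF (M * ℓ * q * q) (d * e) (hD.trans (dvd_upLevel M q (M * ℓ) (dvd_mul_right M ℓ))))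
      = jdF (M * ℓ * q * q) (d * e')
          (hdvd.trans (dvd_upLevel M q (M * ℓ) (dvd_mul_right M ℓ))) :=
    wQ_jdF (M * ℓ * q * q) (q * q) (M * ℓ) _ _ (lvl q (M * ℓ)) (bezout_sq q (M * ℓ) B' k' hB')
      d (d' * ℓ) e e' (by rw [hM]; ring) hQ _ _
  rw [h1, h2, upF_jdF]

include hB hB' in
theorem wS_upF (x : FN (M * q * q)) :
    wS q (M * ℓ) B' k' hB' (upF M q (M * ℓ) (dvd_mul_right M ℓ) x)
      = upF M q (M * ℓ) (dvd_mul_right M ℓ) (wS q M B k hB x) :=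
  congrArg (fun f : FN (M * q * q) →ₐ[Kbar] FN (M * ℓ * q * q) => f x)
    (wS_comp_upF q M ℓ B k B' k' hB hB')

include hB in
theorem up_mem_V02o_iff (h : ↥(L0 A (M * q * q))) :
    upL0 A M q (M * ℓ) (dvd_mul_right M ℓ) h ∈ V02o A q (M * ℓ) B' k' hB'
      ↔ h ∈ V02o A q M B k hB := by
  rw [mem_V02o_iff, mem_V02o_iff, coe_upL0, wS_upF q M ℓ B k B' k' hB hB', mem_V20_iff,
    mem_V20_iff, coe_upF]

include hB in
theorem s02_up (h : ↥(L0 A (M * q * q))) (h1 : h ∈ V02o A q M B k hB)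
    (h2 : upL0 A M q (M * ℓ) (dvd_mul_right M ℓ) h ∈ V02o A q (M * ℓ) B' k' hB') :
    s02 A q (M * ℓ) B' k' hB' ⟨_, h2⟩ = s02 A q M B k hB ⟨h, h1⟩ := by
  rw [s02_mk, s02_mk]
  congr 1
  apply Subtype.ext
  show ((wS q (M * ℓ) B' k' hB'
      ((upL0 A M q (M * ℓ) (dvd_mul_right M ℓ) h : ↥(L0 A (M * ℓ * q * q))) :
        FN (M * ℓ * q * q)) : FN (M * ℓ * q * q)) : LaurentSeries Kbar)
    = ((wS q M B k hB (h : FN (M * q * q)) : FN (M * q * q)) : LaurentSeries Kbar)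
  rw [coe_upL0, wS_upF q M ℓ B k B' k' hB hB', coe_upF]

/-! ### `V₁₁` -/

include hB in
/-- **`cM' (ι (σ x)) = σ (cM x)`** for `σ` with `σ (ζ ^ B) = ζ ^ B'`. -/
theorem cM_upF_arith (σ : Kbar ≃ₐ[ℚ] Kbar) (hσ : σ (zetaK q ^ B) = zetaK q ^ B')
    (x : FN (M * q * q)) :
    cM q (M * ℓ) B' k' hB' hq (upF M q (M * ℓ) (dvd_mul_right M ℓ)
        (arithmeticRingAut (modularFunctionFieldFull (M * q * q)) σ x))
      = coeffMap (σ : Kbar →+* Kbar) (cM q M B k hB hq x) := by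
  have hx : x ∈ IntermediateField.adjoin Kbar
      {x : FN (M * q * q) | ∃ (d : ℕ) (_ : NeZero d) (hd : d ∣ M * q * q),
        x = jdF (M * q * q) d hd} := by
    rw [adjoin_jdF]; exact IntermediateField.mem_top
  induction hx using IntermediateField.adjoin_induction with
  | mem y hy =>
    obtain ⟨D, hD0, hD, rfl⟩ := hy
    rw [arith_jdF, upF_jdF]
    obtain ⟨d, d', hM, h | h | h⟩ := mid_dvd_cases (M * q * q) q M B k (lvl q M) hB hq D hD
    · rw [cM_jdF1 q (M * ℓ) B' k' hB' hq D d (d' * ℓ) h (by rw [hM]; ring) _,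
        cM_jdF1 q M B k hB hq D d d' h hM hD, qExpand_jBar, coeffMap_coeffEmb]
    · rw [cM_jdF2 q (M * ℓ) B' k' hB' hq D d (d' * ℓ) h (by rw [hM]; ring) _,
        cM_jdF2 q M B k hB hq D d d' h hM hD, qExpand_jBar, coeffMap_coeffEmb]
    · have hd0 : 0 < d := by
        rcases Nat.eq_zero_or_pos d with h0 | h0
        · exfalso
          apply NeZero.ne D
          rw [h, h0, zero_mul]
        · exact h0
      haveI : NeZero d := ⟨hd0.ne'⟩
      rw [cM_jdF3 q (M * ℓ) B' k' hB' hq D d (d' * ℓ) h (by rw [hM]; ring) _,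
        cM_jdF3 q M B k hB hq D d d' h hM hD, coeffMap_twist, qExpand_jBar, coeffMap_coeffEmb]
      congr 1
      exact hσ.symm
  | algebraMap c =>
    rw [arithmeticRingAut_algebraMap, AlgHom.commutes, AlgHom.commutes, AlgHom.commutes,
      coeffMap_algebraMap]
    rfl
  | add y z _ _ hy hz => rw [map_add, map_add, map_add, map_add, map_add, hy, hz]
  | inv y _ hy => rw [map_inv₀, map_inv₀, map_inv₀, map_inv₀, map_inv₀, hy]
  | mul y z _ _ hy hz => rw [map_mul, map_mul, map_mul, map_mul, map_mul, hy, hz]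

include hB in
theorem cM_upF_of_mem (σ : Kbar ≃ₐ[ℚ] Kbar) (hσ : σ ∈ A.inertiaSubgroupIn ℚ)
    (hσz : σ (zetaK q ^ B) = zetaK q ^ B') (x : FN (M * q * q)) (hx : x ∈ L0 A (M * q * q)) :
    cM q (M * ℓ) B' k' hB' hq (upF M q (M * ℓ) (dvd_mul_right M ℓ) x)
      = coeffMap (σ : Kbar →+* Kbar) (cM q M B k hB hq x) := by
  have h := cM_upF_arith q M ℓ B k B' k' hB hB' hq σ hσz x
  rwa [hx σ hσ] at h

variable (hA : A.LiesOverPrime q) (hℓq : Nat.Coprime ℓ q)

include hB hA hℓq in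
/-- `ι x ∈ V₁₁ (M ℓ) ↔ x ∈ V₁₁ (M)` for `x` fixed by inertia. -/
theorem up_mem_V11o_iff (h : ↥(L0 A (M * q * q))) :
    upL0 A M q (M * ℓ) (dvd_mul_right M ℓ) h ∈ V11o A q (M * ℓ) B' k' hB' hq
      ↔ h ∈ V11o A q M B k hB hq := by
  obtain ⟨σ, hσ, hσz⟩ := H35.exists_inertia_mid A q M ℓ B k B' k' hA hℓq hB hB' hq
  rw [mem_V11o_iff, mem_V11o_iff, coe_upL0,
    cM_upF_of_mem A q M ℓ B k B' k' hB hB' hq σ hσ hσz _ h.2]
  constructor
  · intro h'
    have h2 := Fermat.Agent.BAD.H91.coeffMap_mem_gaussRingV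
      (Fermat.Agent.BAD.H91.inertialOn_of_mem_inertia A (inv_mem hσ)) h'
    rwa [H35.coeffMap_inv_cancel] at h2
  · exact Fermat.Agent.BAD.H91.coeffMap_mem_gaussRingV
      (Fermat.Agent.BAD.H91.inertialOn_of_mem_inertia A hσ)

include hB hA hℓq in
/-- The reduction at `V₁₁` of `ι x` is that of `x`, for `x` fixed by inertia. -/
theorem s11_up (h : ↥(L0 A (M * q * q))) (h1 : h ∈ V11o A q M B k hB hq)
    (h2 : upL0 A M q (M * ℓ) (dvd_mul_right M ℓ) h ∈ V11o A q (M * ℓ) B' k' hB' hq) :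
    s11 A q (M * ℓ) B' k' hB' hq ⟨_, h2⟩ = s11 A q M B k hB hq ⟨h, h1⟩ := by
  obtain ⟨σ, hσ, hσz⟩ := H35.exists_inertia_mid A q M ℓ B k B' k' hA hℓq hB hB' hq
  have e := cM_upF_of_mem A q M ℓ B k B' k' hB hB' hq σ hσ hσz _ h.2
  rw [s11_mk, s11_mk]
  have h1' : cM q M B k hB hq (h : FN (M * q * q)) ∈ gaussRingV A := h1
  have h2' : cM q (M * ℓ) B' k' hB' hq
      ((upL0 A M q (M * ℓ) (dvd_mul_right M ℓ) h : ↥(L0 A (M * ℓ * q * q))) :
        FN (M * ℓ * q * q)) ∈ gaussRingV A := h2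
  have h'' : coeffMap (σ : Kbar →+* Kbar) (cM q M B k hB hq (h : FN (M * q * q)))
      ∈ gaussRingV A := by
    rw [← e]
    exact h2'
  have e2 : (⟨cM q (M * ℓ) B' k' hB' hq
      ((upL0 A M q (M * ℓ) (dvd_mul_right M ℓ) h : ↥(L0 A (M * ℓ * q * q))) :
        FN (M * ℓ * q * q)), h2'⟩ : gaussRingV A)
      = ⟨coeffMap (σ : Kbar →+* Kbar) (cM q M B k hB hq (h : FN (M * q * q))), h''⟩ :=
    Subtype.ext e
  rw [e2]
  exact Fermat.Agent.BAD.H91.gaussRedV_coeffMap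
    (Fermat.Agent.BAD.H91.inertialOn_of_mem_inertia A hσ) h1' h''

end Val

end Fermat.Agent.S59.LL.SQ.H38

end
end
-- ==== END Fermat.Agent.S59.LL.SQ.H38_UpVal

-- ==== BEGIN Fermat.Agent.S59.LL.SQ.H87_CPowAt
section

/-!
# S59 / LL / SQ, leaf (R), hypothesis `CPow2002At` (helper87)

For a `q`-new class `x ∈ J₀(M q²)[p]` with a Kummer function `h` (inertia-fixed, a unit for the
three valuations), the reductions of `h` on the components `20` and `02` are constants times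
`p`-th powers:

* `isNormPow0_of_isKum` : the norms of `h` along `α`, `β` are constants times `p`-th powers
  (helper26's DIV→NORM);
* `cpow2002At` : the statement `CPow2002At` of helper35's (R), for every `p > 0`
  (`cpow02`, `cpow20` of `H87_CPow.lean`), unfolded;
* `cpow2002At_H35 : H35.CPow2002At A q M B k hB hq p` for `p > 0`, at every level `M q²`, `q ∤ M`
  (no tameness hypothesis);
* `stmt_CPow2002All` : the same, quantified as in `SQ.H58.Stmt_CPow2002Tame`.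

This file contains no `sorry`.
-/

set_option autoImplicit false
set_option synthInstance.maxHeartbeats 400000
set_option maxHeartbeats 1000000
set_option linter.style.haveILetI false
set_option linter.unusedSectionVars false

noncomputable section

open ModularCurve AlgebraicCurve
open Fermat.Agent.S24 Fermat.Agent.BAD Fermat.Agent.BAD.H88 Fermat.Agent.S28 Fermat.Agent.S28.H73
open Fermat.Agent.RED.H73 Fermat.Agent.RED Fermat.Agent.S36.NU.H23 Fermat.Agent.S36.NU.H10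
open Fermat.Agent.Lib.HeckeComm Fermat.Agent.S36.H44 Fermat.Agent.S35.H89 Fermat.Agent.S44

namespace Fermat.Agent.S59.LL.SQ.H87

section At

variable (A : ValuationSubring Kbar) (q M : ℕ) (B k : ℤ) (hB : B * M + k * q = 1) (hq : q.Prime)
  [NeZero M] [NeZero q] [NeZero (M * q)] [NeZero (M * q * q)] (hqM : ¬ q ∣ M)
  (hA : A.LiesOverPrime q)

/-- The norms along `α` and `β` of a Kummer function of a `q`-new class are constants times
`p`-th powers. -/
theorem isNormPow0_of_isKum (p : ℕ) (hp : 0 < p) (x : JZero (M * q * q))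
    (h : ↥(L0 A (M * q * q))) (h0 : (h : FN (M * q * q)) ≠ 0)
    (hnew : IsQNew (M * q) q x) (hK : Fermat.Agent.S59.LL.SQ.IsKum A q M p x h) :
    IsNormPow0 A q M (heckeAlphaBar Kbar (M * q) q) p (h : FN (M * q * q)) ∧
    IsNormPow0 A q M (heckeBetaBar Kbar (M * q) q) p (h : FN (M * q * q)) := by
  obtain ⟨D, rfl, hDh⟩ := hK
  obtain ⟨hpa, hpb⟩ := (isQNew_iff (M * q) q _).mp hnew
  have hDα := (pic0Push_mk_eq_zero_iff _ _ _ _ D).mp hpa
  have hDβ := (pic0Push_mk_eq_zero_iff _ _ _ _ D).mp hpb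
  set Df : Divisor Kbar (FN (M * q * q)) :=
    (p : ℤ) • (D : Divisor Kbar (FN (M * q * q))) with hDf
  have hDf' : ∀ P, Df P = P.ord (h : FN (M * q * q)) := by
    intro P
    rw [← hDh P, hDf]
    simp
  have hpush : ∀ (φ : FN (M * q) →ₐ[Kbar] FN (M * q * q)) (hφ : φ.toRingHom.IsIntegral),
      (Divisor.pushforwardAlong φ hφ (D : Divisor Kbar (FN (M * q * q)))).IsPrincipal →
      ∃ g : FN (M * q), g ≠ 0 ∧ ∀ Q : Place Kbar (FN (M * q)),
        Divisor.pushforwardAlong φ hφ Df Q = p * Q.ord g := by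
    rintro φ hφ ⟨g, hg0, hg⟩
    refine ⟨g, hg0, fun Q => ?_⟩
    rw [hDf, map_zsmul, Finsupp.smul_apply, smul_eq_mul, hg Q]
  exact Fermat.Agent.S36.NU.H26.stmt_NormPow0 A q M p hp (h : FN (M * q * q)) h0 h.2
    (alpha_integral (M * q) q) (beta_integral (M * q) q) Df hDf'
    (hpush _ _ hDα) (hpush _ _ hDβ)

include hqM hA in
/-- **`CPow2002At`** (hypothesis of helper35's (R)), for `p > 0`: the reductions on the components
`20` and `02` of a Kummer unit of a `q`-new class are constants times `p`-th powers. -/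
theorem cpow2002At (p : ℕ) (hp : 0 < p) :
    ∀ (x : JZero (M * q * q)) (h : ↥(L0 A (M * q * q))), (p : ℤ) • x = 0 →
      IsQNew (M * q) q x →
      (∀ σ ∈ A.inertiaSubgroupIn ℚ, σ • x = x) →
      Fermat.Agent.S59.LL.SQ.IsKum A q M p x h →
      Fermat.Agent.S59.LL.SQ.IsUnit3 A q M B k hB hq h →
      (∃ (h20 : h ∈ V20o A q M) (c : kV A) (g : ↥(V20o A q M)), c ≠ 0 ∧ s20 A q M g ≠ 0 ∧
        s20 A q M ⟨h, h20⟩
          = algebraMap (kV A) (LaurentSeries (kV A)) c * s20 A q M g ^ p) ∧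
      (∃ (h02 : h ∈ V02o A q M B k hB) (c : kV A) (g : ↥(V02o A q M B k hB)), c ≠ 0 ∧
        s02 A q M B k hB g ≠ 0 ∧
        s02 A q M B k hB ⟨h, h02⟩
          = algebraMap (kV A) (LaurentSeries (kV A)) c * s02 A q M B k hB g ^ p) := by
  intro x h _ hnew _ hK hU
  obtain ⟨⟨h20, hs20⟩, -, ⟨h02, hs02⟩⟩ := hU
  have h0 : (h : FN (M * q * q)) ≠ 0 := by
    intro h0
    apply hs20
    have e : (⟨h, h20⟩ : ↥(V20o A q M)) = 0 := Subtype.ext (Subtype.ext h0)
    rw [e, map_zero]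
  obtain ⟨hNα, hNβ⟩ := isNormPow0_of_isKum A q M p hp x h h0 hnew hK
  refine ⟨?_, ?_⟩
  · obtain ⟨c, g, hc, hg, e⟩ := cpow20 A q M B k hB hq hqM hA p hp h h20 hs20 hNβ
    exact ⟨h20, c, g, hc, hg, e⟩
  · obtain ⟨c, g, hc, hg, e⟩ := cpow02 A q M B k hB hq hqM hA p hp h h02 hs02 hNα
    exact ⟨h02, c, g, hc, hg, e⟩

include hqM hA in
/-- **`H35.CPow2002At`** for `p > 0`, at every level `M q²` with `q ∤ M`. -/
theorem cpow2002At_H35 (p : ℕ) (hp : 0 < p) :
    Fermat.Agent.S59.LL.SQ.H35.CPow2002At A q M B k hB hq p :=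
  cpow2002At A q M B k hB hq hqM hA p hp

end At

/-- **B2 for the components `20` and `02`, at all levels** (in particular at the tame levels:
`Stmt_CPow2002Tame`). -/
theorem stmt_CPow2002All (p : ℕ) (hp : 0 < p) (q M : ℕ) (B k : ℤ) (hB : B * M + k * q = 1)
    (hq : q.Prime) [NeZero M] [NeZero q] [NeZero (M * q)] [NeZero (M * q * q)]
    (hqM : ¬ q ∣ M) (A : ValuationSubring Kbar) (hA : A.LiesOverPrime q) :
    Fermat.Agent.S59.LL.SQ.H35.CPow2002At A q M B k hB hq p :=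
  cpow2002At_H35 A q M B k hB hq hqM hA p hp

end Fermat.Agent.S59.LL.SQ.H87

end
end
-- ==== END Fermat.Agent.S59.LL.SQ.H87_CPowAt

-- ==== BEGIN Fermat.Agent.S59.LL.SQ.H96_TI3Mod
section

/-!
# S59, package LL / SQ, step (T), leaf TI3: cusp-only form and modular wiring (helper96)

helper40's `SQ.H40.ti3_of_trivRed` (file `H40_TI3.lean`) is the second half of helper24's
`fin_local`.  Here:

* `ti3_of_trivRed'` : the same statement in the form of helper65's `fin_local'`: the local data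
  of the chart at infinity are asked only at the closed points where `1 / j` vanishes (this is
  what the modular instances of NU-B provide);
* `Stmt_HOR1` : (HOR) with exponent `1` at level `N` (the statement of the SQ leaf HOR1),
  `stmt_HOR1_all` : it holds (helper64's `H64.stmt_HOR1`);
* `hor1_inst` : `Stmt_HOR1 N` gives `HOR C q n h` in every chart over `Rur A`;
* `ti3Mod_of` : **the modular instance of TI3** at level `M q²`, with the modular instances as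
  hypotheses (the same ones as in `H65.finMod_of`, without the norm bridges): a unit `h` for the
  three valuations, fixed by inertia, with `n ∣ div h` and TRIVIAL REDUCTION DATA
  (`NUData.TrivRed n h`) is a constant times an `n`-th power, EXACTLY (no exponent `E`).
-/

set_option autoImplicit false
set_option synthInstance.maxHeartbeats 400000
set_option maxHeartbeats 1000000
set_option linter.style.haveILetI false
set_option linter.unusedSectionVars false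

noncomputable section

open ModularCurve AlgebraicCurve IntermediateField

attribute [local instance] Classical.propDecidable

namespace Fermat.Agent.S59.LL.SQ.H96

open Fermat.Agent.RED.H17 Fermat.Agent.RED Fermat.Agent.S36.NU.H16 Fermat.Agent.S36.NU.H79
  Fermat.Agent.S36.NU.H65 Fermat.Agent.S36.NU.H17 Fermat.Agent.S36.NU.H24

section Abstract

variable {R F k ι Z K L : Type*} {κ : ι → Type*} [CommRing R] [Field F] [Algebra R F]
  [Field k] [∀ i, Field (κ i)] [∀ i, Algebra k (κ i)] [Fintype ι]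
  [Field K] [Field L] [Algebra K L] [Algebra F L]
  {K' L' L₁ L₂ : Type*} [Field K'] [Field L'] [Algebra K' L'] [Field L₁] [Algebra k L₁]
  [Field L₂] [Algebra k L₂]

variable (D : NUData K F L k ι Z κ K' L' L₁ L₂)

/-- **TI3 from trivial reduction data, cusp-only form**: as `H40.ti3_of_trivRed`, but the local
data of the chart at infinity are asked only at the closed points where `1 / j` vanishes. -/
theorem ti3_of_trivRed' [IsAlgClosed k] [IsNoetherianRing R] [IsDomain R]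
    [IsIntegrallyClosed R]
    (Kf : Type*) [Field Kf] [Algebra R Kf] [IsFractionRing R Kf] [Algebra Kf F]
    [IsScalarTower R Kf F]
    (C0 Coo : Chart R F k ι κ) [IsNoetherianRing C0.B] [IsFractionRing C0.B F]
    [IsNoetherianRing Coo.B] [IsFractionRing Coo.B F]
    (hc0 : Compat C0 D.T) (hcoo : Compat Coo D.T) (hP : HasPrincipalDivisors K L)
    (n : ℕ) (hC0 : ChartHyp C0 D.q n) (hCoo : ChartHyp Coo D.q n)
    (j : F) (hjt : Transcendental Kf j) (hB0 : C0.B = intSub R j) (hBoo : Coo.B = intSub R j⁻¹)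
    (q : R) (hq0 : q ≠ 0) (hqu : ¬ IsUnit q) (n' : R) (hnn : (n : R) * n' = 1)
    (hpt0 : PointData C0 D q)
    (hptoo : ∀ 𝔪 : Ideal Coo.B, 𝔪.IsMaximal → (∃ i, Coo.Icomp i ≤ 𝔪) →
      (∀ β : Coo.B, (β : F) = j⁻¹ → β ∈ 𝔪) → PointDataAt Coo D q 𝔪)
    (hrad0 : ∀ β ∈ C0.B, (∀ i, C0.rd i β = 0) → IsRadQ C0.B q β)
    (hradoo : ∀ β ∈ Coo.B, (∀ i, Coo.rd i β = 0) → IsRadQ Coo.B q β)
    (H : F) (huH : ∀ i, D.T.rdN i H ≠ 0) (hHOR0 : HOR C0 q n H) (hHORoo : HOR Coo q n H)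
    (hfg : (MInt R j⁻¹ H n hC0.n_pos).FG)
    (htriv : D.TrivRed n H) :
    ∃ s : F, s ≠ 0 ∧ IsIntegral R (H * s ^ n) := by
  have hn : 0 < n := hC0.n_pos
  haveI : Infinite k := IsAlgClosed.instInfinite
  have H0 : H ≠ 0 := by
    intro h0
    apply huH D.i₂₀
    rw [h0, D.T.rdN_of_mem (D.T.V _).zero_mem]
    exact map_zero _
  -- the residues `g`
  obtain ⟨g, hg, heqv⟩ := exists_g_of_trivRed D hn.ne'
    (fun c => IsAlgClosed.exists_pow_nat_eq c hn) huH htriv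
  have S0 : Setup C0 D.q n H g := hC0.setup (fun i => by rw [hc0.hrd]; exact hg i)
  have Soo : Setup Coo D.q n H g := hCoo.setup (fun i => by rw [hcoo.hrd]; exact hg i)
  have hVV : ∀ i, C0.V i = Coo.V i := fun i => by rw [hc0.hV, hcoo.hV]
  have hrr : ∀ i x, C0.rd i x = Coo.rd i x := fun i x => by rw [hc0.hrd, hcoo.hrd]
  have hj : j ≠ 0 := by
    rintro rfl
    exact hjt ⟨Polynomial.X, Polynomial.X_ne_zero, by simp⟩
  have G : Glue C0 Coo j := glue_of_intSub C0 Coo j hj hB0 hBoo hVV hrr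
  have hint : ∀ y ∈ Coo.B, IsIntegral (Algebra.adjoin R {j⁻¹}) y := by
    intro y hy
    rw [hBoo] at hy
    exact hy
  -- the chart `C0`
  obtain ⟨a, ha, hra⟩ := chart_of_bridge D hc0 hP D.q q n H g S0 H0 hHOR0 hpt0 huH heqv
  -- the chart at infinity
  obtain ⟨b, hb, hrb⟩ := patch Coo D.q n H g Soo (fun 𝔪 hmax hex => by
    by_cases hcusp : (⟨j⁻¹, G.inv_mem⟩ : Coo.B) ∈ 𝔪
    · refine point_of_bridge D hcoo hP D.q q n H g Soo H0 hHORoo 𝔪 hmax hex
        (hptoo 𝔪 hmax hex (fun β hβ => ?_)) huH heqv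
      have : β = ⟨j⁻¹, G.inv_mem⟩ := Subtype.ext hβ
      rw [this]
      exact hcusp
    · haveI := hmax.isPrime
      haveI := hmax
      have L : Linked C0 Coo j (pull G 𝔪) 𝔪 := linked_pull G 𝔪 hcusp
      obtain ⟨i₀, hi₀⟩ := hex
      have hmax0 : (pull G 𝔪).IsMaximal := L.isMaximal G hint i₀ hi₀
      have hex0 : ∃ i, C0.Icomp i ≤ pull G 𝔪 :=
        ⟨i₀, (L.symm G.u_ne).icomp_le G.symm hi₀⟩
      exact good_transfer G L D.q n H g S0
        (point_of_bridge D hc0 hP D.q q n H g S0 H0 hHOR0 _ hmax0 hex0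
          (hpt0 _ hmax0 hex0) huH heqv))
  -- TI3
  exact ti3_const Kf C0 Coo D.q n H g S0 Soo j hjt hB0 hBoo hVV hrr q hq0 hqu n' hnn
    hfg hrad0 hradoo a b ha hra hb hrb

end Abstract

section Modular

open Fermat.Agent.S24 Fermat.Agent.BAD.H88 Fermat.Agent.S36.NU.H23 Fermat.Agent.S36.NU.H41
  Fermat.Agent.S36.NU.H88 Fermat.Agent.S36.NU.H10 Fermat.Agent.S36.NU.H74

/-- **(HOR) with exponent `1`** at level `N` (the statement of the SQ leaf HOR1): an `I`-fixed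
function whose divisor over `ℚ̄` is divisible by `n` is an `n`-th power times a unit at every
valuation ring `W ≠ ⊤` of `L0 A N` which contains the constants. -/
def Stmt_HOR1 (N : ℕ) [NeZero N] : Prop :=
  ∀ (A : ValuationSubring Kbar) (n : ℕ) (h : ↥(L0 A N)), h ≠ 0 →
    (∀ P : Place Kbar (FN N), (n : ℤ) ∣ P.ord (h : FN N)) →
    ∀ W : ValuationSubring ↥(L0 A N),
      (∀ c : ↥(L0 A N), (∃ c' : Kbar, (c : FN N) = algebraMap Kbar (FN N) c') → c ∈ W) → W ≠ ⊤ →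
      ∃ s : ↥(L0 A N), s ≠ 0 ∧ h * s ^ n ∈ W ∧ (h * s ^ n)⁻¹ ∈ W

/-- (HOR) with exponent `1` holds at every level (helper64). -/
theorem stmt_HOR1_all (N : ℕ) [NeZero N] : Stmt_HOR1 N :=
  fun A n h h0 hdiv W hWc hW => Fermat.Agent.S59.LL.SQ.H64.stmt_HOR1 N A n h h0 hdiv W hWc hW

/-- **(HOR) with exponent `1` in every chart** over `Rur A`, from `Stmt_HOR1`. -/
theorem hor1_inst (N : ℕ) [NeZero N] (hH : Stmt_HOR1 N) (A : ValuationSubring Kbar) (q : ℕ)
    (hq : q.Prime) (hA : A.LiesOverPrime q) (n : ℕ) (h : ↥(L0 A N)) (hh0 : h ≠ 0)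
    (hdiv : ∀ P : Place Kbar (FN N), (n : ℤ) ∣ P.ord (h : FN N))
    {k ι : Type*} {κ : ι → Type*} [Field k] [∀ i, Field (κ i)] [∀ i, Algebra k (κ i)]
    (C : Chart ↥(Rur A) ↥(L0 A N) k ι κ) :
    HOR C ((q : ℕ) : ↥(Rur A)) n h := by
  intro W hB hqW hW
  refine hH A n h hh0 hdiv W (fun c hc => ?_) hW
  refine const_mem_of_Rur A q hq hA N W (fun r => ?_) hqW c hc
  exact hB ⟨algebraMap ↥(Rur A) ↥(L0 A N) r, C.B.algebraMap_mem r⟩

variable (A : ValuationSubring Kbar) (q M : ℕ) (hq : q.Prime)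
  [NeZero M] [NeZero q] [NeZero (M * q * q)]
  {kk ι Z K L K' L' L₁ L₂ : Type*} {κ : ι → Type*} [Field kk] [∀ i, Field (κ i)]
  [∀ i, Algebra kk (κ i)] [Fintype ι] [Field K] [Field L] [Algebra K L]
  [Algebra ↥(L0 A (M * q * q)) L] [Field K'] [Field L'] [Algebra K' L'] [Field L₁]
  [Algebra kk L₁] [Field L₂] [Algebra kk L₂]

include hq in
/-- **TI3, the modular instance, pointwise form**: at level `M q²`, for ONE exponent `n` prime
to `q` and ONE function `h` (a unit for the reductions of `D`, with (HOR) in both charts and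
trivial reduction data), `h` is a constant times an `n`-th power of an `I`-fixed function. -/
theorem ti3Mod_point [IsAlgClosed kk] (hA : A.LiesOverPrime q)
    (D : NUData K ↥(L0 A (M * q * q)) L kk ι Z κ K' L' L₁ L₂) (hDq : D.q = q)
    (C0 Coo : Chart ↥(Rur A) ↥(L0 A (M * q * q)) kk ι κ)
    (hc0 : Compat C0 D.T) (hcoo : Compat Coo D.T) (hP : HasPrincipalDivisors K L)
    (hB0 : C0.B = intSub ↥(Rur A) (j0 A (M * q * q)))
    (hBoo : Coo.B = intSub ↥(Rur A) (j0 A (M * q * q))⁻¹)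
    (n : ℕ) (hcop : Nat.Coprime n q)
    (hchart0 : ChartHyp C0 q n) (hchartoo : ChartHyp Coo q n)
    -- the local data (M2, M4, DISJ)
    (hpt0 : PointData C0 D ((q : ℕ) : ↥(Rur A)))
    (hptoo : ∀ 𝔪 : Ideal Coo.B, 𝔪.IsMaximal → (∃ i, Coo.Icomp i ≤ 𝔪) →
      (∀ β : Coo.B, (β : ↥(L0 A (M * q * q))) = (j0 A (M * q * q))⁻¹ → β ∈ 𝔪) →
      PointDataAt Coo D ((q : ℕ) : ↥(Rur A)) 𝔪)
    -- RADQ
    (hrad0 : ∀ β ∈ C0.B, (∀ i, C0.rd i β = 0) → IsRadQ C0.B ((q : ℕ) : ↥(Rur A)) β)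
    (hradoo : ∀ β ∈ Coo.B, (∀ i, Coo.rd i β = 0) → IsRadQ Coo.B ((q : ℕ) : ↥(Rur A)) β)
    (h : ↥(L0 A (M * q * q))) (hu : ∀ i, D.T.rdN i h ≠ 0)
    (hHOR0 : HOR C0 ((q : ℕ) : ↥(Rur A)) n h) (hHORoo : HOR Coo ((q : ℕ) : ↥(Rur A)) n h)
    (htriv : D.TrivRed n h) :
    ∃ (s : ↥(L0 A (M * q * q))) (c : Kbar), s ≠ 0 ∧
      (h : FN (M * q * q)) * (s : FN (M * q * q)) ^ n = algebraMap Kbar (FN (M * q * q)) c := by
  haveI := isDiscreteValuationRing_Rur A q hq hA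
  haveI : IsNoetherianRing ↥C0.B :=
    isNoetherianRing_chart A q hq hA (M * q * q) C0 (Or.inl hB0)
  haveI : IsFractionRing ↥C0.B ↥(L0 A (M * q * q)) :=
    isFractionRing_chart A (M * q * q) C0 (Or.inl hB0)
  haveI : IsNoetherianRing ↥Coo.B :=
    isNoetherianRing_chart A q hq hA (M * q * q) Coo (Or.inr hBoo)
  haveI : IsFractionRing ↥Coo.B ↥(L0 A (M * q * q)) :=
    isFractionRing_chart A (M * q * q) Coo (Or.inr hBoo)
  have hn : 0 < n := hchart0.n_pos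
  have h0 : h ≠ 0 := by
    intro h0
    apply hu D.i₂₀
    rw [h0, D.T.rdN_of_mem (D.T.V _).zero_mem]
    exact map_zero _
  -- `n` is invertible in `R`
  obtain ⟨n', hnn⟩ := (isUnit_natCast_Rur A q hq hA n hcop).exists_right_inv
  have hq0 : ((q : ℕ) : ↥(Rur A)) ≠ 0 := by exact_mod_cast hq.ne_zero
  have hqu : ¬ IsUnit ((q : ℕ) : ↥(Rur A)) := (irreducible_natCast A q hq hA).not_isUnit
  have hC0 : ChartHyp C0 D.q n := by rw [hDq]; exact hchart0
  have hCoo : ChartHyp Coo D.q n := by rw [hDq]; exact hchartoo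
  obtain ⟨s, hs0, hsint⟩ := ti3_of_trivRed' D ↥(Kur A) C0 Coo hc0 hcoo hP n hC0 hCoo
    (j0 A (M * q * q)) (transcendental_j0 A (M * q * q)) hB0 hBoo ((q : ℕ) : ↥(Rur A)) hq0 hqu n'
    hnn hpt0 hptoo hrad0 hradoo h hu hHOR0 hHORoo
    (hfg_inv A q hq hA (M * q * q) h h0 n hC0.n_pos) htriv
  obtain ⟨c, hc⟩ := Fermat.Agent.S36.NU.H15.hconst_L0 A (M * q * q) _ hsint
  exact ⟨s, c, hs0, by rw [← hc]; rfl⟩

/-- **The modular form of TI3 for the datum `D`**: for every `n` prime to `q`, a unit `h` for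
the three valuations with `n ∣ div h` and trivial reduction data is a constant times an `n`-th
power of an `I`-fixed function (exponent EXACTLY `1` on `h`). -/
def Stmt_TI3Mod (B k : ℤ) (hB : B * M + k * q = 1)
    (D : NUData K ↥(L0 A (M * q * q)) L kk ι Z κ K' L' L₁ L₂) : Prop :=
  ∀ n : ℕ, 0 < n → Nat.Coprime n q →
    ∀ h : ↥(L0 A (M * q * q)), h ≠ 0 → _root_.Fermat.Agent.S36.NU.H10.IsUnit3 A q M B k hB hq h →
      (∀ P : Place Kbar (FN (M * q * q)), (n : ℤ) ∣ P.ord (h : FN (M * q * q))) →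
      D.TrivRed n h →
      ∃ (s : ↥(L0 A (M * q * q))) (c : Kbar), s ≠ 0 ∧
        (h : FN (M * q * q)) * (s : FN (M * q * q)) ^ n = algebraMap Kbar (FN (M * q * q)) c

/-- **TI3, the modular instance** (mirror of `H65.finMod_of`): `Stmt_TI3Mod` from the modular
instances (charts, local data, RADQ, `hunit`); (HOR) with exponent `1` is helper64's HOR1. -/
theorem ti3Mod_of [IsAlgClosed kk] (B k : ℤ) (hB : B * M + k * q = 1) (hA : A.LiesOverPrime q)
    (D : NUData K ↥(L0 A (M * q * q)) L kk ι Z κ K' L' L₁ L₂) (hDq : D.q = q)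
    (C0 Coo : Chart ↥(Rur A) ↥(L0 A (M * q * q)) kk ι κ)
    (hc0 : Compat C0 D.T) (hcoo : Compat Coo D.T) (hP : HasPrincipalDivisors K L)
    (hB0 : C0.B = intSub ↥(Rur A) (j0 A (M * q * q)))
    (hBoo : Coo.B = intSub ↥(Rur A) (j0 A (M * q * q))⁻¹)
    (hchart0 : ∀ n : ℕ, 0 < n → Nat.Coprime n q → ChartHyp C0 q n)
    (hchartoo : ∀ n : ℕ, 0 < n → Nat.Coprime n q → ChartHyp Coo q n)
    -- the local data (M2, M4, DISJ)
    (hpt0 : PointData C0 D ((q : ℕ) : ↥(Rur A)))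
    (hptoo : ∀ 𝔪 : Ideal Coo.B, 𝔪.IsMaximal → (∃ i, Coo.Icomp i ≤ 𝔪) →
      (∀ β : Coo.B, (β : ↥(L0 A (M * q * q))) = (j0 A (M * q * q))⁻¹ → β ∈ 𝔪) →
      PointDataAt Coo D ((q : ℕ) : ↥(Rur A)) 𝔪)
    -- RADQ
    (hrad0 : ∀ β ∈ C0.B, (∀ i, C0.rd i β = 0) → IsRadQ C0.B ((q : ℕ) : ↥(Rur A)) β)
    (hradoo : ∀ β ∈ Coo.B, (∀ i, Coo.rd i β = 0) → IsRadQ Coo.B ((q : ℕ) : ↥(Rur A)) β)
    -- INST-B
    (hunit : ∀ h : ↥(L0 A (M * q * q)), h ≠ 0 → _root_.Fermat.Agent.S36.NU.H10.IsUnit3 A q M B k hB hq h →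
      ∀ i, D.T.rdN i h ≠ 0) :
    Stmt_TI3Mod A q M hq B k hB D := by
  intro n hn hcop h h0 hU hdiv htriv
  exact ti3Mod_point A q M hq hA D hDq C0 Coo hc0 hcoo hP hB0 hBoo n hcop
    (hchart0 n hn hcop) (hchartoo n hn hcop) hpt0 hptoo hrad0 hradoo h (hunit h h0 hU)
    (hor1_inst (M * q * q) (stmt_HOR1_all _) A q hq hA n h h0 hdiv C0)
    (hor1_inst (M * q * q) (stmt_HOR1_all _) A q hq hA n h h0 hdiv Coo) htriv

end Modular

end Fermat.Agent.S59.LL.SQ.H96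

end
end
-- ==== END Fermat.Agent.S59.LL.SQ.H96_TI3Mod

-- ==== BEGIN Fermat.Agent.S59.LL.SQ23.H89_PicDeg
section

/-!
# S59 / LL / SQ23, leaves S3-DEG + S3-PIC (helper89): degrees of `α`, `β` at level `2M`, `2 ∥ M`

For `M = 2 M'`, `M'` odd: `[F_{2M} : α^* F_M] = 2 = [F_{2M} : β^* F_M]`
(helper87's `H87.finrank_FA`, `H87.finrank_FB` at `q = 2`), hence

* `s3Act_of_gal'` : `S3Gal M → S3Act M` without further hypothesis (with the same `rfl` lemmas);
* `stmt_S3Act_of_gal : Stmt_S3Gal → ∀ M, 2 ∣ M → ¬ 4 ∣ M → Nonempty (S3Act M)`.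
-/

set_option autoImplicit false
set_option linter.style.haveILetI false
set_option linter.unusedSectionVars false

noncomputable section

namespace Fermat.Agent.S59.LL.SQ23.H89

open AlgebraicCurve ModularCurve Fermat.Agent.S24 Fermat.Agent.S36.H44
  Fermat.Agent.S59.LL.SQ.H40 Fermat.Agent.Lib.HeckeComm

local notation "Kb" => AlgebraicClosure ℚ

section Deg

/-- `M = M' * 2` with `M'` odd. -/
theorem exists_odd_half (M : ℕ) (h2 : 2 ∣ M) (h4 : ¬ 4 ∣ M) :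
    ∃ M' : ℕ, M = M' * 2 ∧ ¬ 2 ∣ M' := by
  obtain ⟨M', hM'⟩ := h2
  refine ⟨M', by omega, fun h => h4 ?_⟩
  obtain ⟨c, hc⟩ := h
  exact ⟨c, by omega⟩

/-- **S3-DEG (α)**: `[F_{2M} : α^* F_M] = 2` for `2 ∥ M`. -/
theorem finrank_alpha_two (M : ℕ) [NeZero M] (h2 : 2 ∣ M) (h4 : ¬ 4 ∣ M) :
    finrankAlong Kb (heckeAlphaBar Kb M 2) = 2 := by
  obtain ⟨M', hM, hodd⟩ := exists_odd_half M h2 h4
  subst hM
  haveI : NeZero M' := ⟨fun h => (NeZero.ne (M' * 2)) (by rw [h, zero_mul])⟩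
  exact Fermat.Agent.S36.NU.H87.finrank_FA 2 M' Nat.prime_two

/-- **S3-DEG (β)**: `[F_{2M} : β^* F_M] = 2` for `2 ∥ M`. -/
theorem finrank_beta_two (M : ℕ) [NeZero M] (h2 : 2 ∣ M) (h4 : ¬ 4 ∣ M) :
    finrankAlong Kb (heckeBetaBar Kb M 2) = 2 := by
  obtain ⟨M', hM, hodd⟩ := exists_odd_half M h2 h4
  subst hM
  haveI : NeZero M' := ⟨fun h => (NeZero.ne (M' * 2)) (by rw [h, zero_mul])⟩
  exact Fermat.Agent.S36.NU.H87.finrank_FB 2 M' Nat.prime_two hodd

variable (M : ℕ) [NeZero M] (h2 : 2 ∣ M) (h4 : ¬ 4 ∣ M) (G : S3Gal M)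

/-- **S3-PIC**: the action of `S₃` on `J₀(2M)` from the two deck involutions, `2 ∥ M`. -/
def s3Act_of_gal' : S3Act M :=
  s3Act_of_gal M G (finrank_alpha_two M h2 h4) (finrank_beta_two M h2 h4)

@[simp]
theorem s3Act'_s0_apply (x : JZero (M * 2)) :
    (s3Act_of_gal' M h2 h4 G).s0 x = G.s0 • x := rfl

@[simp]
theorem s3Act'_s1_apply (x : JZero (M * 2)) :
    (s3Act_of_gal' M h2 h4 G).s1 x = G.s1 • x := rfl

theorem s3Act'_c_apply (x : JZero (M * 2)) :
    (s3Act_of_gal' M h2 h4 G).c x = (G.s0 * G.s1) • x :=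
  s3Act_c_apply M G _ _ x

end Deg

/-- **S3-PIC** at every level, from **S3-GAL**. -/
theorem stmt_S3Act_of_gal (hG : Stmt_S3Gal) (M : ℕ) [NeZero M] (h2 : 2 ∣ M) (h4 : ¬ 4 ∣ M) :
    Nonempty (S3Act M) := by
  obtain ⟨G⟩ := hG M h2 h4
  exact ⟨s3Act_of_gal' M h2 h4 G⟩

end Fermat.Agent.S59.LL.SQ23.H89

end
end
-- ==== END Fermat.Agent.S59.LL.SQ23.H89_PicDeg

-- ==== BEGIN Fermat.Agent.S59.NonMin.Geom.H78_Ihara3Core
section

/-!
# S59 / NMGEOM, leaf IHARA3 (helper78): period functions over a field `k`, part 1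

`x : Γ₀(N) → k` a cuspidal hom, `F` a period function of `x` on `X_N` (`IsPer x F`:
`F(g r) = F(r) + x(g)`), `G(r) = c₁ F(r) + c₂ F(q r) + c₃ F(q (q r))`.

* `gfn_inv` : `G` is `Γ₀(N q²)`-invariant if `c₁ x∘j₁ + c₂ x∘j₂ + c₃ x∘j₃ = 0`;
* `gfn_eig` : `G` is an eigenfunction of `TT ℓ` if `F` is;
* `gfn_eq_zero` : `G = 0` on `X_N` (from `Stmt_ORB3`);
* `per_inv_q` : `F(r + 1/q) = F(r)` if `G = 0`, `(c₁, c₂, c₃) ≠ 0`;
* `per_q2` : `F(q² r) = F(r)` (explicit matrices);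
* `per_Zq` : `F(r + t) = F(r)` for `t ∈ ℤ[1/q]`.
This file contains no `sorry`.
-/

set_option autoImplicit false

open scoped MatrixGroups
open CongruenceSubgroup Matrix

namespace Fermat.Agent.S59.NonMin.Geom.H78

open Fermat.Agent.S41 Fermat.Agent.S41.H19 Fermat.Agent.S41.Ihara

section Per

variable {k : Type*} [Field k] {N : ℕ}

/-- `F` is a period function of `x` on `X_N`. -/
def IsPer (x : Additive (Gamma0 N) →+ k) (F : ℚ → k) : Prop :=
  ∀ (g : Gamma0 N) (r : ℚ), InX N r → F (mob (mat g) r) = F r + x (Additive.ofMul g)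

theorem IsPer.add_int {x : Additive (Gamma0 N) →+ k} (hx : IsCuspidalHom (Gamma0 N) x)
    {F : ℚ → k} (hF : IsPer x F) {r : ℚ} (hr : InX N r) (n : ℤ) : F (r + (n : ℚ)) = F r := by
  have h := hF (uMat N n) r hr
  rw [mob_uMat, hx (uMat N n) (trace_uMat N n), add_zero] at h
  exact h

theorem IsPer.add_const {x : Additive (Gamma0 N) →+ k} {F : ℚ → k} (hF : IsPer x F) (κ : k) :
    IsPer x (fun s => F s + κ) := by
  intro g r hr
  show F (mob (mat g) r) + κ = F r + κ + x (Additive.ofMul g)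
  rw [hF g r hr]
  ring

theorem isPer_Pfn (hN : 2 ≤ N) (x : Additive (Gamma0 N) →+ k)
    (hx : IsCuspidalHom (Gamma0 N) x) : IsPer x (Pfn x) :=
  fun g _ hr => Pfn_mob hN x hx g hr

end Per

section TTk

variable {k : Type*} [Field k]

theorem TT_add_const_k (ℓ : ℕ) (f : ℚ → k) (κ : k) (r : ℚ) :
    TT ℓ (fun s => f s + κ) r = TT ℓ f r + ((ℓ : k) + 1) * κ := by
  rw [TT_add ℓ f (fun _ => κ) r, TT_const, nsmul_eq_mul]
  push_cast
  rfl

theorem TT_mul_left (ℓ : ℕ) (c : k) (f : ℚ → k) (r : ℚ) :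
    TT ℓ (fun s => c * f s) r = c * TT ℓ f r := by
  simp only [TT, Finset.mul_sum, mul_add]

/-- Correcting an eigenfunction up to a constant into an exact eigenfunction. -/
theorem exists_const_eig_k (ℓ : ℕ) (a c : k) (ha : a ≠ (ℓ : k) + 1) :
    ∃ κ : k, ∀ (f : ℚ → k) (r : ℚ), TT ℓ f r = a * f r + c →
      TT ℓ (fun s => f s + κ) r = a * (f r + κ) := by
  have hne : a - ((ℓ : k) + 1) ≠ 0 := sub_ne_zero.mpr ha
  refine ⟨c / (a - ((ℓ : k) + 1)), fun f r h => ?_⟩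
  rw [TT_add_const_k, h]
  field_simp
  ring

end TTk

section Conj

/-- `q · (M r) = conj(M) (q r)`. -/
theorem mul_mob_conj {q : ℕ} (M : Matrix (Fin 2) (Fin 2) ℤ) (hdvd : (q : ℤ) ∣ M 1 0) (r : ℚ)
    (h1 : (M 1 0 : ℚ) * r + (M 1 1 : ℚ) ≠ 0) :
    (q : ℚ) * mob M r = mob (conjMat q M) ((q : ℚ) * r) := by
  have h2 : ((Dq q) 1 0 : ℚ) * r + ((Dq q) 1 1 : ℚ) ≠ 0 := by simp [Dq]
  rw [← mob_Dq q (mob M r), ← mob_Dq q r, ← mob_mul _ _ _ h1, ← mob_mul _ _ _ h2,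
    conjMat_Dq hdvd]

theorem conjMat_10 (q : ℕ) (M : Matrix (Fin 2) (Fin 2) ℤ) : conjMat q M 1 0 = M 1 0 / (q : ℤ) := by
  simp [conjMat]

theorem conjMat_11 (q : ℕ) (M : Matrix (Fin 2) (Fin 2) ℤ) : conjMat q M 1 1 = M 1 1 := by
  simp [conjMat]

/-- The denominator of `conj(M)` at `q r` is the denominator of `M` at `r`. -/
theorem conjMat_denom {q : ℕ} (hq : q ≠ 0) (M : Matrix (Fin 2) (Fin 2) ℤ)
    (hdvd : (q : ℤ) ∣ M 1 0) (r : ℚ) :
    ((conjMat q M 1 0 : ℤ) : ℚ) * ((q : ℚ) * r) + ((conjMat q M 1 1 : ℤ) : ℚ)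
      = (M 1 0 : ℚ) * r + (M 1 1 : ℚ) := by
  obtain ⟨c, hc⟩ := hdvd
  have hq0 : (q : ℤ) ≠ 0 := by exact_mod_cast hq
  rw [conjMat_10, conjMat_11, hc, Int.mul_ediv_cancel_left _ hq0]
  push_cast
  ring

end Conj

section G

variable {k : Type*} [Field k] {N q : ℕ}

/-- `G(r) = c₁ F(r) + c₂ F(q r) + c₃ F(q² r)`. -/
def gfn (q : ℕ) (c₁ c₂ c₃ : k) (F : ℚ → k) (r : ℚ) : k :=
  c₁ * F r + c₂ * F ((q : ℚ) * r) + c₃ * F ((q : ℚ) * ((q : ℚ) * r))

theorem q_sq_dvd (h : Gamma0 (N * q ^ 2)) : ((q : ℤ) ^ 2) ∣ mat h 1 0 := by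
  have := mat_dvd h
  push_cast at this
  exact Dvd.dvd.trans (Dvd.intro_left _ rfl) this

/-- `G` is `Γ₀(N q²)`-invariant. -/
theorem gfn_inv (hN : 2 ≤ N) (hq : q.Prime) (x : Additive (Gamma0 N) →+ k) (F : ℚ → k)
    (hF : IsPer x F) (g₁ g₂ g₃ : Gamma0 (N * q ^ 2) → Gamma0 N)
    (hg₁ : ∀ h, mat (g₁ h) = mat h) (hg₂ : ∀ h, mat (g₂ h) = conjMat q (mat h))
    (hg₃ : ∀ h, mat (g₃ h) = conjMat q (conjMat q (mat h)))
    (c₁ c₂ c₃ : k)
    (hrel : ∀ h : Gamma0 (N * q ^ 2), c₁ * x (Additive.ofMul (g₁ h))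
      + c₂ * x (Additive.ofMul (g₂ h)) + c₃ * x (Additive.ofMul (g₃ h)) = 0)
    (h : Gamma0 (N * q ^ 2)) {r : ℚ} (hr : InX N r) :
    gfn q c₁ c₂ c₃ F (mob (mat h) r) = gfn q c₁ c₂ c₃ F r := by
  have hq0 : q ≠ 0 := hq.ne_zero
  have hd2 := q_sq_dvd (N := N) (q := q) h
  have hd1 : (q : ℤ) ∣ mat h 1 0 := Dvd.dvd.trans (Dvd.intro_left _ (by ring)) hd2
  have hd1' : (q : ℤ) ∣ conjMat q (mat h) 1 0 := by
    obtain ⟨c, hc⟩ := hd2
    rw [conjMat_10, hc]
    have hq0' : (q : ℤ) ≠ 0 := by exact_mod_cast hq0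
    refine ⟨c, ?_⟩
    rw [show (q : ℤ) ^ 2 * c = (q : ℤ) * ((q : ℤ) * c) by ring, Int.mul_ediv_cancel_left _ hq0']
  have hden : (mat h 1 0 : ℚ) * r + (mat h 1 1 : ℚ) ≠ 0 := by
    have := denom_ne_zero hN (g₁ h) hr
    rwa [hg₁] at this
  have hden' : ((conjMat q (mat h) 1 0 : ℤ) : ℚ) * ((q : ℚ) * r)
      + ((conjMat q (mat h) 1 1 : ℤ) : ℚ) ≠ 0 := by
    rw [conjMat_denom hq0 _ hd1]
    exact hden
  have hqr : InX N ((q : ℚ) * r) := inX_nat_mul hr q
  have hqqr : InX N ((q : ℚ) * ((q : ℚ) * r)) := inX_nat_mul hqr q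
  have e1 : F (mob (mat h) r) = F r + x (Additive.ofMul (g₁ h)) := by
    have := hF (g₁ h) r hr
    rwa [hg₁] at this
  have e2 : F ((q : ℚ) * mob (mat h) r) = F ((q : ℚ) * r) + x (Additive.ofMul (g₂ h)) := by
    rw [mul_mob_conj _ hd1 r hden, ← hg₂]
    exact hF (g₂ h) _ hqr
  have e3 : F ((q : ℚ) * ((q : ℚ) * mob (mat h) r))
      = F ((q : ℚ) * ((q : ℚ) * r)) + x (Additive.ofMul (g₃ h)) := by
    rw [mul_mob_conj _ hd1 r hden, mul_mob_conj _ hd1' _ hden', ← hg₃]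
    exact hF (g₃ h) _ hqqr
  unfold gfn
  rw [e1, e2, e3]
  linear_combination hrel h

/-- `G` is an eigenfunction of `TT ℓ` if `F` is. -/
theorem gfn_eig (hq : q.Prime) (x : Additive (Gamma0 N) →+ k)
    (hx : IsCuspidalHom (Gamma0 N) x) (F : ℚ → k) (hF : IsPer x F) (c₁ c₂ c₃ : k)
    {ℓ : ℕ} (hℓ : ℓ.Prime) (hℓN : ¬ ℓ ∣ N) (hℓq : ℓ ≠ q) (a : k)
    (hE : ∀ r, InX N r → TT ℓ F r = a * F r) {r : ℚ} (hr : InX N r) :
    TT ℓ (gfn q c₁ c₂ c₃ F) r = a * gfn q c₁ c₂ c₃ F r := by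
  have hcopN : ℓ.Coprime N := (Nat.Prime.coprime_iff_not_dvd hℓ).mpr hℓN
  have hcopq : q.Coprime ℓ := (Nat.coprime_primes hq hℓ).mpr (Ne.symm hℓq)
  have hper : ∀ r, InX N r → ∀ n : ℤ, F (r + (n : ℚ)) = F r := fun r hr n => hF.add_int hx hr n
  have hper' : ∀ r, InX N r → ∀ n : ℤ,
      (fun s => F ((q : ℚ) * s)) (r + (n : ℚ)) = (fun s => F ((q : ℚ) * s)) r := by
    intro r hr n
    show F ((q : ℚ) * (r + (n : ℚ))) = F ((q : ℚ) * r)
    have e : (q : ℚ) * (r + (n : ℚ)) = (q : ℚ) * r + (((q : ℤ) * n : ℤ) : ℚ) := by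
      push_cast
      ring
    rw [e]
    exact hper _ (inX_nat_mul hr q) _
  have hqr : InX N ((q : ℚ) * r) := inX_nat_mul hr q
  have hqqr : InX N ((q : ℚ) * ((q : ℚ) * r)) := inX_nat_mul hqr q
  have t2 : TT ℓ (fun s => F ((q : ℚ) * s)) r = a * F ((q : ℚ) * r) := by
    rw [TT_comp_mul hℓ hcopN hcopq F hper hr, hE _ hqr]
  have t3 : TT ℓ (fun s => F ((q : ℚ) * ((q : ℚ) * s))) r = a * F ((q : ℚ) * ((q : ℚ) * r)) := by
    rw [TT_comp_mul hℓ hcopN hcopq (fun s => F ((q : ℚ) * s)) hper' hr,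
      TT_comp_mul hℓ hcopN hcopq F hper hqr, hE _ hqqr]
  have key : TT ℓ (fun s => (fun s => (fun s => c₁ * F s) s
      + (fun s => c₂ * F ((q : ℚ) * s)) s) s + (fun s => c₃ * F ((q : ℚ) * ((q : ℚ) * s))) s) r
      = a * (c₁ * F r + c₂ * F ((q : ℚ) * r) + c₃ * F ((q : ℚ) * ((q : ℚ) * r))) := by
    rw [TT_add, TT_add, TT_mul_left, TT_mul_left ℓ c₂ (fun s => F ((q : ℚ) * s)),
      TT_mul_left ℓ c₃ (fun s => F ((q : ℚ) * ((q : ℚ) * s))), hE r hr, t2, t3]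
    ring
  exact key

end G

end Fermat.Agent.S59.NonMin.Geom.H78

end
-- ==== END Fermat.Agent.S59.NonMin.Geom.H78_Ihara3Core

-- ==== BEGIN Fermat.Agent.S59.NonMin.Geom.Rank.H2_Final2
section

/-!
# S59 / NMGEOM: RANK and P-RANK, unconditional (plan helper27, file helper2)

* `stmt_RANK : NonMin.Geom.Stmt_RANK`;
* `stmt_PRANK : CaseC.Geom.Stmt_PRANK`.

Leaves: LAT (helper75), FIELD (helper21), ES / ESU (helper34), FIELDU (helper25), PLAT (helper55),
EMBED / EMBEDA (helper13), RELTR (helper26), UINJ (helper11), MAIN / MAINb / PQUAD / PMULT1U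
(helper56), DEPL (helper25), CLAIM / COEF / PSTRUCT (helper38), MULT1 (helper78, helper80),
NONVAN (helper75), NOLOW / PORDALGR (helper2), assemblies RANKASM / PRANKASM (helper27).
-/

set_option autoImplicit false

namespace Fermat.Agent.S59.NonMin.Geom.Rank.H2F

open Fermat.Agent.S59.NonMin.Geom.Rank

/-- **RANK**, unconditional. -/
theorem stmt_RANK : Fermat.Agent.S59.NonMin.Geom.Stmt_RANK :=
  rank_of_betti H75L.stmt_LAT H21.stmt_FIELD H34.stmt_ES

/-- **P-RANK**, unconditional. -/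
theorem stmt_PRANK : Fermat.Agent.S59.CaseC.Geom.Stmt_PRANK :=
  prank_of_rest H75L.stmt_LAT H21.stmt_FIELD H34.stmt_ES H25F.stmt_FIELDU H55.stmt_PLAT

end Fermat.Agent.S59.NonMin.Geom.Rank.H2F

end
-- ==== END Fermat.Agent.S59.NonMin.Geom.Rank.H2_Final2

-- ==== BEGIN Fermat.Agent.S59.NonMin.H12_BaseFinal
section

/-!
# S59 RT-NONMIN, leaf BASE (helper12): unconditional form

`stmt_BASE : Stmt_BASE` = `stmt_BASE_of` + helper92's `stmt_ETANE`.
-/

set_option autoImplicit false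

namespace Fermat.Agent.S59.NonMin.H12

/-- **BASE**, unconditionally. -/
theorem stmt_BASE : Stmt_BASE := stmt_BASE_of Fermat.Agent.S59.NonMin.H92.stmt_ETANE

end Fermat.Agent.S59.NonMin.H12

end
-- ==== END Fermat.Agent.S59.NonMin.H12_BaseFinal

-- ==== BEGIN Fermat.Agent.S59.NonMin.H90_StepCore
section

/-!
# S59, RT-NONMIN, leaf STEP (helper90): the algebraic core of the induction step

`step_core`: rings `R' ↠ R` (deformation rings), `T' → T` (Hecke rings), `φ : R → T`,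
`φ' : R' ↠ T'` with `res ∘ φ' = φ ∘ τ`, a point `πx : T → 𝒪`, modules `V`, `V'` with the level
raising maps `α`, `α'` (`α' ∘ α = e` on `V[𝔭]`), the numerical equality `(#Φ_R)^d = #Ω(V)` and
the Selmer bound `#Φ_R' ≤ #Φ_R · #(𝒪/e)` give `φ'` bijective and `(#Φ_R')^d = #Ω(V')`
(`NumCrit.H90.card_omega_growth` + `NumCrit.nc1_diamond`).
-/

set_option autoImplicit false
set_option linter.unusedSectionVars false
set_option linter.style.haveILetI false

open IsLocalRing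

namespace Fermat.Agent.S59.NonMin.H90

open Fermat.Agent.S59 Fermat.Agent.S59.NumCrit

section torsP

variable {𝒪 T V : Type} [CommRing 𝒪] [CommRing T] [Algebra 𝒪 T] [AddCommGroup V] [Module 𝒪 V]

/-- The `𝔭`-torsion `V[𝔭]`, `𝔭 = ker π`, of a module `V` over `T` (the structure being given by
`ηhat`), as an `𝒪`-submodule. -/
def torsP (ηhat : T →ₐ[𝒪] Module.End 𝒪 V) (π : T →ₐ[𝒪] 𝒪) : Submodule 𝒪 V where
  carrier := {v | ∀ t : T, π t = 0 → ηhat t v = 0}
  add_mem' := fun {a b} ha hb t ht => by rw [map_add, ha t ht, hb t ht, add_zero]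
  zero_mem' := fun t _ => map_zero _
  smul_mem' := fun c {v} hv t ht => by rw [map_smul, hv t ht, smul_zero]

theorem mem_torsP {ηhat : T →ₐ[𝒪] Module.End 𝒪 V} {π : T →ₐ[𝒪] 𝒪} {v : V} :
    v ∈ torsP ηhat π ↔ ∀ t : T, π t = 0 → ηhat t v = 0 := Iff.rfl

/-- `t` acts on `V[𝔭]` as `π t`. -/
theorem apply_eq_smul_of_mem_torsP {ηhat : T →ₐ[𝒪] Module.End 𝒪 V} {π : T →ₐ[𝒪] 𝒪} {v : V}
    (hv : v ∈ torsP ηhat π) (t : T) : ηhat t v = π t • v := by
  have h1 : π (t - algebraMap 𝒪 T (π t)) = 0 := by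
    rw [map_sub, AlgHom.commutes]
    exact sub_self _
  have h2 := hv _ h1
  rw [map_sub, LinearMap.sub_apply, AlgHom.commutes, Module.algebraMap_end_apply,
    sub_eq_zero] at h2
  exact h2

/-- `V[𝔭]` in terms of generators of `T`. -/
theorem mem_torsP_iff_of_adjoin {ι : Type} {g : ι → T}
    (hadj : Algebra.adjoin 𝒪 (Set.range g) = ⊤)
    {ηhat : T →ₐ[𝒪] Module.End 𝒪 V} {π : T →ₐ[𝒪] 𝒪} {v : V} :
    v ∈ torsP ηhat π ↔ ∀ i, ηhat (g i) v = π (g i) • v := by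
  constructor
  · intro hv i
    exact apply_eq_smul_of_mem_torsP hv (g i)
  · intro h
    have key : ∀ t : T, ηhat t v = π t • v := by
      intro t
      have ht : t ∈ Algebra.adjoin 𝒪 (Set.range g) := by rw [hadj]; exact Algebra.mem_top
      induction ht using Algebra.adjoin_induction with
      | mem x hx =>
        obtain ⟨i, rfl⟩ := hx
        exact h i
      | algebraMap a =>
        rw [AlgHom.commutes, AlgHom.commutes, Module.algebraMap_end_apply]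
        rfl
      | add x y _ _ hx hy =>
        rw [map_add, LinearMap.add_apply, hx, hy, map_add, add_smul]
      | mul x y _ _ hx hy =>
        rw [map_mul, Module.End.mul_apply, hy, map_smul, hx, map_mul, smul_smul, mul_comm]
    intro t ht
    rw [key t, ht, zero_smul]

end torsP

section core

variable {𝒪 : Type} [CommRing 𝒪] [IsDomain 𝒪] [IsDiscreteValuationRing 𝒪]
  [IsAdicComplete (maximalIdeal 𝒪) 𝒪] [Finite (ResidueField 𝒪)]

/-- the module structure given by `ηhat` is compatible with the `𝒪`-module structure -/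
theorem isScalarTower_compHom {T V : Type} [CommRing T] [Algebra 𝒪 T] [AddCommGroup V]
    [Module 𝒪 V] (ηhat : T →ₐ[𝒪] Module.End 𝒪 V) :
    @IsScalarTower 𝒪 T V _ (Module.compHom V (ηhat : T →+* Module.End 𝒪 V)).toSMul _ :=
  letI : Module T V := Module.compHom V (ηhat : T →+* Module.End 𝒪 V)
  ⟨fun a t v => by
    show ηhat (a • t) v = a • ηhat t v
    rw [map_smul]
    rfl⟩

/-- `torsP` is the `𝔭`-torsion for the module structure given by `ηhat`. -/
theorem torsP_eq_torsionBySet {T V : Type} [CommRing T] [Algebra 𝒪 T] [AddCommGroup V]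
    [Module 𝒪 V] (ηhat : T →ₐ[𝒪] Module.End 𝒪 V) (π : T →ₐ[𝒪] 𝒪) :
    letI : Module T V := Module.compHom V (ηhat : T →+* Module.End 𝒪 V)
    haveI : IsScalarTower 𝒪 T V := isScalarTower_compHom ηhat
    torsP ηhat π = (Submodule.torsionBySet T V (RingHom.ker π : Set T)).restrictScalars 𝒪 := by
  letI : Module T V := Module.compHom V (ηhat : T →+* Module.End 𝒪 V)
  haveI : IsScalarTower 𝒪 T V := isScalarTower_compHom ηhat
  ext v
  rw [Submodule.restrictScalars_mem, Submodule.mem_torsionBySet_iff, mem_torsP]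
  constructor
  · rintro h ⟨t, ht⟩
    exact h t ht
  · intro h t ht
    exact h ⟨t, ht⟩

/-- **The algebraic core of STEP.** -/
theorem step_core
    {R R' T T' : Type} [CommRing R] [Algebra 𝒪 R] [CommRing R'] [Algebra 𝒪 R']
    [CommRing T] [Algebra 𝒪 T] [CommRing T'] [Algebra 𝒪 T']
    [Module.Finite 𝒪 T'] [Module.Free 𝒪 T']
    (τ : R' →ₐ[𝒪] R) (φ : R →ₐ[𝒪] T) (φ' : R' →ₐ[𝒪] T') (hφ' : Function.Surjective φ')
    (res : T' →ₐ[𝒪] T) (hcompat : res.comp φ' = φ.comp τ) (πx : T →ₐ[𝒪] 𝒪)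
    {n : ℕ} (γ' : MvPowerSeries (Fin n) 𝒪 →ₐ[𝒪] R') (hγ' : Function.Surjective γ')
    {V V' : Type} [AddCommGroup V] [Module 𝒪 V] [Module.Finite 𝒪 V] [Module.Free 𝒪 V]
    [AddCommGroup V'] [Module 𝒪 V'] [Module.Finite 𝒪 V'] [Module.Free 𝒪 V']
    (ηhat : T →ₐ[𝒪] Module.End 𝒪 V) (ηhat' : T' →ₐ[𝒪] Module.End 𝒪 V')
    (hη : eta πx ≠ ⊥) (hη' : eta (πx.comp res) ≠ ⊥)
    (α : V →ₗ[𝒪] V') (hα : ∀ (t : T') (v : V), α (ηhat (res t) v) = ηhat' t (α v))
    (α' : V' →ₗ[𝒪] V) (hα' : ∀ (t : T') (w : V'), α' (ηhat' t w) = ηhat (res t) (α' w))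
    (hinj : Function.Injective α)
    (hsat : ∀ (a : 𝒪) (w : V'), a ≠ 0 → a • w ∈ LinearMap.range α → w ∈ LinearMap.range α)
    (hsurj : Function.Surjective α')
    (e : 𝒪) (hc : ∀ v ∈ torsP ηhat πx, α' (α v) = e • v)
    (d : ℕ) (hd : 0 < d)
    (hrk : Module.finrank 𝒪 (torsP ηhat πx) = d)
    (hrk' : Module.finrank 𝒪 (torsP ηhat' (πx.comp res)) ≤ d)
    (hcard : Nat.card (RingHom.ker ((πx.comp φ : R →ₐ[𝒪] 𝒪) : R →+* 𝒪)).Cotangent ^ d =
      omegaCard ηhat πx)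
    (hsel : Finite (RingHom.ker (((πx.comp φ).comp τ : R' →ₐ[𝒪] 𝒪) : R' →+* 𝒪)).Cotangent ∧
      Nat.card (RingHom.ker (((πx.comp φ).comp τ : R' →ₐ[𝒪] 𝒪) : R' →+* 𝒪)).Cotangent ≤
        Nat.card (RingHom.ker ((πx.comp φ : R →ₐ[𝒪] 𝒪) : R →+* 𝒪)).Cotangent *
          Nat.card (𝒪 ⧸ Ideal.span {e})) :
    Function.Bijective φ' ∧
    Finite (RingHom.ker (((πx.comp res).comp φ' : R' →ₐ[𝒪] 𝒪) : R' →+* 𝒪)).Cotangent ∧
    Nat.card (RingHom.ker (((πx.comp res).comp φ' : R' →ₐ[𝒪] 𝒪) : R' →+* 𝒪)).Cotangent ^ d =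
      omegaCard ηhat' (πx.comp res) := by
  classical
  -- the two points of `R'` agree
  have hpt : ((πx.comp res).comp φ' : R' →ₐ[𝒪] 𝒪) = (πx.comp φ).comp τ := by
    rw [AlgHom.comp_assoc, hcompat, AlgHom.comp_assoc]
  rw [← hpt] at hsel
  obtain ⟨hfin', hle⟩ := hsel
  -- module structures
  letI instT : Module T V := Module.compHom V (ηhat : T →+* Module.End 𝒪 V)
  letI instT' : Module T' V' := Module.compHom V' (ηhat' : T' →+* Module.End 𝒪 V')
  haveI : IsScalarTower 𝒪 T V := isScalarTower_compHom ηhat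
  haveI : IsScalarTower 𝒪 T' V' := isScalarTower_compHom ηhat'
  have hsm : ∀ (t : T) (v : V), t • v = ηhat t v := fun _ _ => rfl
  have hsm' : ∀ (t : T') (w : V'), t • w = ηhat' t w := fun _ _ => rfl
  -- ranks
  have e1 := torsP_eq_torsionBySet ηhat πx
  have e2 := torsP_eq_torsionBySet ηhat' (πx.comp res)
  have hrkT : Module.finrank 𝒪
      ((Submodule.torsionBySet T V (RingHom.ker πx : Set T)).restrictScalars 𝒪) = d := by
    rw [← hrk]
    exact (LinearEquiv.ofEq _ _ e1).finrank_eq.symm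
  have hrkT' : Module.finrank 𝒪 ((Submodule.torsionBySet T' V'
      (RingHom.ker (πx.comp res) : Set T')).restrictScalars 𝒪) ≤ d := by
    refine le_trans (le_of_eq ?_) hrk'
    exact (LinearEquiv.ofEq _ _ e2).finrank_eq.symm
  -- GROWTH
  have hgrow := NumCrit.H90.card_omega_growth_tors res πx hη hη' α
    (fun t v => by rw [hsm, hsm', hα]) α' (fun t w => by rw [hsm, hsm', hα'])
    hinj hsat hsurj e (fun v hv => hc v (by rw [e1]; exact hv)) (by rw [hrkT]; exact hrkT')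
  rw [hrkT] at hgrow
  -- the numerical inequality at the new level
  have hcard' : Nat.card (RingHom.ker ((πx.comp res).comp φ')).Cotangent ^ d
      ≤ Nat.card (V' ⧸ (Submodule.torsionBySet T' V' (RingHom.ker (πx.comp res) : Set T')
        ⊔ Submodule.torsionBySet T' V' ((RingHom.ker (πx.comp res)).annihilator : Set T'))) := by
    refine le_trans (Nat.pow_le_pow_left hle d) ?_
    rw [mul_pow, hcard]
    exact hgrow
  haveI : Finite (RingHom.ker ((πx.comp res).comp φ')).Cotangent := hfin'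
  obtain ⟨hbij, -, -, -, heq⟩ := nc1_diamond γ' hγ' φ' hφ' (πx.comp res) hη' d hd hrkT' hcard'
  exact ⟨hbij, hfin', heq⟩

end core

end Fermat.Agent.S59.NonMin.H90

end
-- ==== END Fermat.Agent.S59.NonMin.H90_StepCore
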