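-- GENERATED (merged mirror, NOTES/tools/trim/merge3_helper67.py): 9 modules of the originals, bodies verbatim.
import Mathlib
import Fermat.Agent.Zm.S59_L07_000
import Fermat.Agent.Zm.S59_L02_000
import Fermat.Agent.Zm.S59_L03_002
import Fermat.Agent.Zm.S59_L01_000
import Fermat.Agent.Zm.S59_L04_000
import Fermat.Agent.Zm.S59_L05_002
import Fermat.Agent.Zm.S59_L07_001
import Fermat.Agent.Zm.S59_L02_001

-- ==== BEGIN Fermat.Agent.S27.Char0.H20_Bridge
section

/-!
# S27 char-0 half, leaf BRIDGE (helper20): helper34's `RedSetting` with a conservation law is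
helper17's `RedSetup`.
-/

set_option autoImplicit false

noncomputable section

open AlgebraicCurve IntermediateField

namespace Fermat.Agent.S27.Char0.H20

open Fermat.Agent.RED.H17 Fermat.Agent.S27.REDu.H34 Fermat.Agent.S27.REDu.H79

universe u v u' v'

variable {K : Type u} {F : Type v} {k : Type u'} {Ft : Type v'} [Field K] [Field F]
  [Algebra K F] [Field k] [Field Ft] [Algebra k Ft]

/-- The reduction data of helper17 attached to a `RedSetting` with a conservation law. -/
def redSetupOfSetting (S : RedSetting K F k Ft) (r : Place K F → Place k Ft)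
    (hr : IsRedAbs S r) : RedSetup K F k Ft where
  V := S.V
  red := S.red
  red_eq_zero_iff := fun u => by
    rw [S.red_eq_zero_iff, IsLocalRing.mem_maximalIdeal, mem_nonunits_iff]
  red_surj := S.red_surj
  exists_scale := fun f hf => by
    obtain ⟨c, hc, w, hw⟩ := S.scale f hf
    refine ⟨c⁻¹, inv_ne_zero hc, ?_⟩
    have h1 : algebraMap K F c⁻¹ * f = ((w : ↥S.V) : F) := by
      rw [hw, ← mul_assoc, ← map_mul, inv_mul_cancel₀ hc, map_one, one_mul]
    have h2 : algebraMap K F c⁻¹ * f ∈ S.V := by rw [h1]; exact Subtype.mem _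
    refine ⟨h2, ?_⟩
    have h3 : (⟨algebraMap K F c⁻¹ * f, h2⟩ : ↥S.V) = (w : ↥S.V) := Subtype.ext h1
    rw [h3]
    intro h0
    exact ((S.red_eq_zero_iff _).mp h0) w.isUnit
  red_const := fun c h => ⟨S.resO ⟨c, h⟩, S.red_algebraMap ⟨c, h⟩⟩
  const_surj := fun c' => by
    obtain ⟨a, ha⟩ := S.resO_surj c'
    exact ⟨(a : K), a.2, by rw [← ha]; exact S.red_algebraMap a⟩
  r := r
  DI := fun w hw D hD Q => by
    apply hr w _ D hD Q
    by_contra hu
    exact hw ((S.red_eq_zero_iff _).mpr hu)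

/-- **BRIDGE**. -/
theorem stmt_Bridge : Stmt_Bridge.{u, v, u', v'} := by
  intro K F k Ft _ _ _ _ _ _ S r hr
  refine ⟨redSetupOfSetting S r hr, rfl, rfl, fun f hf => ?_⟩
  exact (redSetupOfSetting S r hr).rd_of_mem hf

end Fermat.Agent.S27.Char0.H20

end
end
-- ==== END Fermat.Agent.S27.Char0.H20_Bridge

-- ==== BEGIN Fermat.Agent.S27.Char0.H20_EisExA
section

/-!
# S27 char-0 half, leaf EIS-EX (helper20), part A: orders of rational functions of `w` at a place
where `w` vanishes.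
-/

set_option autoImplicit false

noncomputable section

open AlgebraicCurve IntermediateField Polynomial

namespace Fermat.Agent.S27.Char0.H20

open Fermat.Agent.RED.H51 Fermat.Agent.S24

universe u v

variable {K : Type u} {F : Type v} [Field K] [Field F] [Algebra K F]

/-- A polynomial in `w` is regular at `P` when `w` is. -/
theorem ordGe_aeval (P : Place K F) {w : F} (hw : OrdGe P 0 w) (q : K[X]) :
    OrdGe P 0 (aeval w q) := by
  rw [ordGe_zero_iff_mem] at hw ⊢
  rw [aeval_eq_sum_range]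
  refine sum_mem fun i _ => ?_
  rw [Algebra.smul_def]
  refine mul_mem ?_ (pow_mem hw i)
  exact (ordGe_zero_iff_mem P _).mp (ordGe_algebraMap P _)

/-- A polynomial with nonzero constant term is a unit at a zero of `w`. -/
theorem ord_aeval_of_eval_ne (P : Place K F) {w : F} (hw : 0 < P.ord w) {q : K[X]}
    (hq : q.eval 0 ≠ 0) : aeval w q ≠ 0 ∧ P.ord (aeval w q) = 0 := by
  have hw0 : w ≠ 0 := ne_zero_of_ord_ne_zero P hw.ne'
  have h1 : aeval w q = algebraMap K F (q.coeff 0) + w * aeval w q.divX := by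
    conv_lhs => rw [← divX_mul_X_add q]
    simp only [map_add, map_mul, aeval_X, aeval_C]
    ring
  have hc : q.coeff 0 ≠ 0 := by rwa [coeff_zero_eq_eval_zero]
  have hc' : algebraMap K F (q.coeff 0) ≠ 0 := by
    simpa using hc
  have hord : P.ord (algebraMap K F (q.coeff 0)) = 0 := ord_algebraMap P _
  have h2 : OrdGe P (P.ord (algebraMap K F (q.coeff 0)) + 1) (w * aeval w q.divX) := by
    rw [hord]
    have := (ordGe_of_le P (le_refl (P.ord w))).mul (_root_.Fermat.Agent.S27.Char0.H20.ordGe_aeval P (ordGe_of_le P hw.le) q.divX)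
    exact this.mono (by omega)
  have h3 := ord_add_eq P hc' h2
  rw [h1]
  exact ⟨h3.1, h3.2.trans hord⟩

/-- **(A)** the order of a polynomial in `w` at a zero of `w`. -/
theorem ord_aeval_eq (P : Place K F) {w : F} (hw : 0 < P.ord w) {q : K[X]} (hq : q ≠ 0) :
    aeval w q ≠ 0 ∧ P.ord (aeval w q) = P.ord w * q.rootMultiplicity 0 := by
  have hw0 : w ≠ 0 := ne_zero_of_ord_ne_zero P hw.ne'
  obtain ⟨q₁, hq₁, hnd⟩ := exists_eq_pow_rootMultiplicity_mul_and_not_dvd q hq 0
  have he : q₁.eval 0 ≠ 0 := by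
    intro h
    exact hnd (dvd_iff_isRoot.mpr h)
  obtain ⟨h1, h2⟩ := ord_aeval_of_eval_ne P hw he
  have h3 : aeval w q = w ^ q.rootMultiplicity 0 * aeval w q₁ := by
    conv_lhs => rw [hq₁]
    simp
  rw [h3]
  refine ⟨mul_ne_zero (pow_ne_zero _ hw0) h1, ?_⟩
  rw [P.ord_mul (pow_ne_zero _ hw0) h1, h2, ord_pow]
  ring

/-- **(B')** the shape of a nonzero element of `K(w)` at a zero of `w`. -/
theorem exists_shape (P : Place K F) {w : F} (hw : 0 < P.ord w) {c : F} (hc : c ∈ K⟮w⟯)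
    (hc0 : c ≠ 0) :
    ∃ (e : ℤ) (n m : K[X]), n.eval 0 ≠ 0 ∧ m.eval 0 ≠ 0 ∧
      c * aeval w m = w ^ e * aeval w n ∧ P.ord c = P.ord w * e := by
  have hw0 : w ≠ 0 := ne_zero_of_ord_ne_zero P hw.ne'
  obtain ⟨r, s, hrs⟩ := (mem_adjoin_simple_iff K c).mp hc
  have hs0 : aeval w s ≠ 0 := by
    intro h
    rw [h, div_zero] at hrs
    exact hc0 hrs
  have hr0 : aeval w r ≠ 0 := by
    intro h
    rw [h, zero_div] at hrs
    exact hc0 hrs
  have hs : s ≠ 0 := by
    rintro rfl
    simp at hs0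
  have hr : r ≠ 0 := by
    rintro rfl
    simp at hr0
  obtain ⟨r₁, hr₁, hndr⟩ := exists_eq_pow_rootMultiplicity_mul_and_not_dvd r hr 0
  obtain ⟨s₁, hs₁, hnds⟩ := exists_eq_pow_rootMultiplicity_mul_and_not_dvd s hs 0
  have her : r₁.eval 0 ≠ 0 := fun h => hndr (dvd_iff_isRoot.mpr h)
  have hes : s₁.eval 0 ≠ 0 := fun h => hnds (dvd_iff_isRoot.mpr h)
  have h3 : aeval w r = w ^ r.rootMultiplicity 0 * aeval w r₁ := by
    conv_lhs => rw [hr₁]
    simp
  have h4 : aeval w s = w ^ s.rootMultiplicity 0 * aeval w s₁ := by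
    conv_lhs => rw [hs₁]
    simp
  obtain ⟨hr1, hr2⟩ := ord_aeval_of_eval_ne P hw her
  obtain ⟨hs1, hs2⟩ := ord_aeval_of_eval_ne P hw hes
  refine ⟨(r.rootMultiplicity 0 : ℤ) - s.rootMultiplicity 0, r₁, s₁, her, hes, ?_, ?_⟩
  · rw [hrs, h3, h4, zpow_sub₀ hw0, zpow_natCast, zpow_natCast]
    field_simp
  · rw [hrs, ord_div P hr0 hs0, (ord_aeval_eq P hw hr).2, (ord_aeval_eq P hw hs).2]
    ring

/-- **(C)** an element of `K(w)` vanishing at the zero of `w` is `w n(w) / m(w)`. -/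
theorem exists_num_den (P : Place K F) {w : F} (hw : 0 < P.ord w) {c : F} (hc : c ∈ K⟮w⟯)
    (hord : c = 0 ∨ P.ord w ≤ P.ord c) :
    ∃ (n m : K[X]), m.eval 0 ≠ 0 ∧ c * aeval w m = w * aeval w n ∧
      (c ≠ 0 → P.ord c = P.ord w → n.eval 0 ≠ 0) := by
  rcases eq_or_ne c 0 with rfl | hc0
  · exact ⟨0, 1, by simp, by simp, fun h => absurd rfl h⟩
  have hle := hord.resolve_left hc0
  have hw0 : w ≠ 0 := ne_zero_of_ord_ne_zero P hw.ne'
  obtain ⟨e, n, m, hn, hm, hrel, he⟩ := exists_shape P hw hc hc0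
  have he1 : 1 ≤ e := by
    by_contra h
    have h0 : e ≤ 0 := by omega
    have : P.ord w * e ≤ 0 := mul_nonpos_of_nonneg_of_nonpos hw.le h0
    omega
  obtain ⟨j, rfl⟩ : ∃ j : ℕ, e = (j : ℤ) + 1 := ⟨(e - 1).toNat, by omega⟩
  refine ⟨X ^ j * n, m, hm, ?_, fun _ h1 => ?_⟩
  · rw [hrel, zpow_add₀ hw0, zpow_natCast, zpow_one]
    simp only [map_mul, map_pow, aeval_X]
    ring
  · have hj : j = 0 := by
      rw [he] at h1
      have h2 : P.ord w * ((j : ℤ) + 1) = P.ord w * 1 := by rw [mul_one]; exact h1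
      have h3 := mul_left_cancel₀ hw.ne' h2
      omega
    subst hj
    simpa using hn

end Fermat.Agent.S27.Char0.H20

end
end
-- ==== END Fermat.Agent.S27.Char0.H20_EisExA

-- ==== BEGIN Fermat.Agent.S27.Char0.H57_VAL
section

/-!
# S27, char-0 half, leaf VAL (helper57): `Stmt_VAL`

See `H57_VALCore.lean` (Mathlib only) for the proof.
-/

set_option autoImplicit false

namespace Fermat.Agent.S27.Char0.H57

universe u

/-- **VAL**. -/
theorem stmt_VAL : Stmt_VAL.{u} := fun K _ _ _ I m hm => val_core K I m hm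

end Fermat.Agent.S27.Char0.H57

end
-- ==== END Fermat.Agent.S27.Char0.H57_VAL

-- ==== BEGIN Fermat.Agent.S27.Char0.H64_GaussExt
section

/-!
# S27 / RED-EX, leaf GaussExt (helper64), part 3: `Stmt_GaussExt`

From an Eisenstein model `M` and a good valuation ring `O`: `θ' := b(w) θ` is a root of the monic
Eisenstein polynomial `T^d + Σ w a_i(w) b(w)^(d-1-i) T^i` over `O[w]`; the Gauss ring of
`H64_GaussRing.lean` gives the reduction setting.
-/

set_option autoImplicit false
set_option linter.unusedSectionVars false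
set_option linter.style.haveILetI false

noncomputable section

namespace Fermat.Agent.S27.Char0.H64

open Polynomial IntermediateField IsLocalRing AlgebraicCurve

universe u v

namespace GData

variable {K : Type u} {F : Type v} [Field K] [Field F] [Algebra K F] (G : GData K F)

/-- `V ∩ K → O`. -/
def toO : ↥(G.V.comap (algebraMap K F)) →+* ↥G.O :=
  (G.V.comap (algebraMap K F)).subtype.codRestrict G.O
    (fun a => (G.algebraMap_mem_V_iff _).mp a.2)

theorem coe_toO (a : ↥(G.V.comap (algebraMap K F))) : ((G.toO a : ↥G.O) : K) = (a : K) := rfl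

/-- The reduction setting of the Gauss ring. -/
def redSetting : REDu.H34.RedSetting K F G.k G.Ft where
  V := G.V
  red := residue ↥G.V
  red_surj := residue_surjective
  resO := G.res.comp G.toO
  resO_surj := by
    intro z
    obtain ⟨c, rfl⟩ := G.res_surjective z
    exact ⟨⟨(c : K), (G.algebraMap_mem_V_iff _).mpr c.2⟩, rfl⟩
  red_algebraMap := by
    intro a
    rw [RingHom.comp_apply, G.algebraMap_res]
    unfold redA
    rw [RingHom.comp_apply]
    congr 1
    apply Subtype.ext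
    rw [G.coe_evV, G.evF_CC, G.coe_toO]
  scale := G.scale_V

theorem redSetting_V : G.redSetting.V = G.V := rfl

theorem aux_of_eq (x : G.Ft) (hx : x = G.wt) (hdk : (G.d : G.k) ≠ 0) :
    Transcendental G.k x ∧ Module.Finite G.k⟮x⟯ G.Ft ∧ Module.finrank G.k⟮x⟯ G.Ft = G.d ∧
      Algebra.IsSeparable G.k⟮x⟯ G.Ft := by
  subst hx
  exact ⟨G.wt_transcendental, G.finite_Ft, G.finrank_Ft, G.separable_Ft hdk⟩

/-- The conclusion of `Stmt_GaussExt` for a `GData`. -/
theorem gaussExt (hdk : (G.d : G.k) ≠ 0) :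
    ∃ (k : Type u) (Ft : Type v) (_ : Field k) (_ : Field Ft) (_ : Algebra k Ft)
      (S : REDu.H34.RedSetting K F k Ft) (hw : G.w ∈ S.V) (_ : G.w⁻¹ ∈ S.V),
      S.V.comap (algebraMap K F) = G.O ∧
      Transcendental k (S.red ⟨G.w, hw⟩) ∧
      Module.Finite k⟮S.red ⟨G.w, hw⟩⟯ Ft ∧
      Module.finrank k⟮S.red ⟨G.w, hw⟩⟯ Ft = G.d ∧
      Algebra.IsSeparable k⟮S.red ⟨G.w, hw⟩⟯ Ft := by
  obtain ⟨h1, h2, h3, h4⟩ := G.aux_of_eq (residue ↥G.V ⟨G.w, G.w_mem_V⟩) G.residue_w hdk
  exact ⟨G.k, G.Ft, inferInstance, inferInstance, inferInstance, G.redSetting, G.w_mem_V,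
    G.w_inv_mem_V, G.comap_V, h1, h2, h3, h4⟩

end GData

section Model

variable {K : Type u} {F : Type v} [Field K] [Field F] [Algebra K F]

theorem exists_lift_polyO (O : ValuationSubring K) (q : K[X]) (h : ∀ j, q.coeff j ∈ O) :
    ∃ q₀ : (↥O)[X], q₀.map O.subtype = q := by
  have : q ∈ Polynomial.lifts O.subtype := by
    rw [lifts_iff_coeff_lifts]
    intro n
    exact ⟨⟨q.coeff n, h n⟩, rfl⟩
  exact (mem_lifts q).mp this

theorem isUnit_of_inv_mem (O : ValuationSubring K) (a : ↥O) (h0 : (a : K) ≠ 0)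
    (h : (a : K)⁻¹ ∈ O) : IsUnit a := by
  refine ⟨⟨a, ⟨(a : K)⁻¹, h⟩, ?_, ?_⟩, rfl⟩
  · apply Subtype.ext
    change (a : K) * (a : K)⁻¹ = 1
    exact mul_inv_cancel₀ h0
  · apply Subtype.ext
    change (a : K)⁻¹ * (a : K) = 1
    exact inv_mul_cancel₀ h0

theorem eval₂_comp_subtype (O : ValuationSubring K) (w : F) (p : (↥O)[X]) :
    p.eval₂ ((algebraMap K F).comp O.subtype) w = aeval w (p.map O.subtype) := by
  rw [aeval_def, eval₂_map]

variable (M : EisModel K F) (O : ValuationSubring K)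

theorem eisModel_d_pos : 0 < M.d := by
  haveI := M.fin
  rw [← M.deg]
  exact Module.finrank_pos

/-- The `GData` of an Eisenstein model and a good valuation ring. -/
theorem exists_gdata (hG : M.Good O) :
    ∃ G : GData K F, G.O = O ∧ G.w = M.w ∧ G.d = M.d := by
  classical
  have hd := eisModel_d_pos M
  choose a' ha' using fun i : Fin M.d => exists_lift_polyO O (M.a i) (hG.coeff_a i)
  obtain ⟨b', hb'⟩ := exists_lift_polyO O M.b hG.coeff_b
  set B : F := aeval M.w M.b with hB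
  have hc : ∀ i : Fin M.d,
      (X * a' i * b' ^ (M.d - 1 - (i : ℕ))).eval₂ ((algebraMap K F).comp O.subtype) M.w =
        M.w * aeval M.w (M.a i) * B ^ (M.d - 1 - (i : ℕ)) := by
    intro i
    rw [eval₂_comp_subtype, Polynomial.map_mul, Polynomial.map_mul, Polynomial.map_pow, map_X,
      ha', hb', map_mul, map_mul, map_pow, aeval_X]
  refine ⟨{ O := O
            w := M.w
            θ := B * M.θ
            d := M.d
            hd := hd
            c := fun i => X * a' i * b' ^ (M.d - 1 - (i : ℕ))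
            c0 := ?_
            c1 := ?_
            rel := ?_
            transc := M.transc
            fin := M.fin
            deg := M.deg }, rfl, rfl, rfl⟩
  · intro i
    rw [mul_assoc, coeff_X_mul_zero]
  · have h1 : (X * a' ⟨0, hd⟩ * b' ^ (M.d - 1 - ((⟨0, hd⟩ : Fin M.d) : ℕ))).coeff 1 =
        (a' ⟨0, hd⟩).coeff 0 * (b'.coeff 0) ^ (M.d - 1) := by
      rw [mul_assoc, coeff_X_mul, mul_coeff_zero, coeff_zero_eq_eval_zero (b' ^ _), eval_pow,
        ← coeff_zero_eq_eval_zero]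
      simp
    rw [h1]
    refine IsUnit.mul ?_ (IsUnit.pow _ ?_)
    · have e : (((a' ⟨0, hd⟩).coeff 0 : ↥O) : K) = (M.a ⟨0, hd⟩).eval 0 := by
        rw [← coeff_zero_eq_eval_zero, ← ha' ⟨0, hd⟩, coeff_map]
        rfl
      refine isUnit_of_inv_mem O _ ?_ ?_
      · rw [e]; exact M.ha hd
      · rw [e]; exact hG.unit_a hd
    · have e : ((b'.coeff 0 : ↥O) : K) = M.b.eval 0 := by
        rw [← coeff_zero_eq_eval_zero, ← hb', coeff_map]
        rfl
      refine isUnit_of_inv_mem O _ ?_ ?_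
      · rw [e]; exact M.hb
      · rw [e]; exact hG.unit_b
  · simp only [hc]
    have hrel := M.rel
    rw [← hB] at hrel
    have h2 : ∀ i : Fin M.d, M.w * aeval M.w (M.a i) * B ^ (M.d - 1 - (i : ℕ)) *
        (B * M.θ) ^ (i : ℕ) = B ^ (M.d - 1) * (M.w * aeval M.w (M.a i) * M.θ ^ (i : ℕ)) := by
      intro i
      have hi : M.d - 1 - (i : ℕ) + (i : ℕ) = M.d - 1 := by
        have := i.2
        omega
      have hB' : B ^ (M.d - 1) = B ^ (M.d - 1 - (i : ℕ)) * B ^ (i : ℕ) := by
        rw [← pow_add, hi]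
      rw [mul_pow, hB']
      ring
    have h3 : (B * M.θ) ^ M.d = B ^ (M.d - 1) * (B * M.θ ^ M.d) := by
      have hB'' : B ^ M.d = B ^ (M.d - 1) * B := by
        rw [← pow_succ, Nat.sub_add_cancel hd]
      rw [mul_pow, hB'']
      ring
    rw [h3, Finset.sum_congr rfl (fun i _ => h2 i), ← Finset.mul_sum, ← mul_add, hrel, mul_zero]

theorem natCast_res_ne_zero (G : GData K F) (n : ℕ) (h0 : (n : K) ≠ 0) (h : ((n : K))⁻¹ ∈ G.O) :
    (n : G.k) ≠ 0 := by
  have h1 : (n : G.k) = G.res (n : ↥G.O) := (map_natCast G.res n).symm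
  rw [h1, Ne, G.res_eq_zero_iff, not_not]
  have e : (((n : ↥G.O) : ↥G.O) : K) = (n : K) := by
    simp
  refine isUnit_of_inv_mem G.O _ ?_ ?_
  · rw [e]; exact h0
  · rw [e]; exact h

/-- **GAUSS-EXT**. -/
theorem stmt_GaussExt : Stmt_GaussExt.{u, v} := by
  intro K F _ _ _ _ _ M O hG _
  obtain ⟨G, hO, hw, hd⟩ := exists_gdata M O hG
  have hd0 : (M.d : K) ≠ 0 := by
    have := eisModel_d_pos M
    exact_mod_cast this.ne'
  have hdk : (G.d : G.k) ≠ 0 := by
    refine natCast_res_ne_zero G G.d ?_ ?_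
    · rw [hd]; exact hd0
    · rw [hd, hO]; exact hG.unit_d
  have := G.gaussExt hdk
  rw [hO, hw, hd] at this
  exact this

end Model

end Fermat.Agent.S27.Char0.H64

end
end
-- ==== END Fermat.Agent.S27.Char0.H64_GaussExt

-- ==== BEGIN Fermat.Agent.S27.Char0.Lift.H45_JacFinal
section

/-!
# S27 LIFT / SOLVE (helper45): JAC-CONST, unconditional
-/

set_option autoImplicit false

namespace Fermat.Agent.S27.Char0.Lift.H45

universe u' v'

/-- **JAC-CONST**, unconditional. -/
theorem stmt_JacConst : Solve.Stmt_JacConst.{u', v'} := stmt_JacConst_of stmt_TracePole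

end Fermat.Agent.S27.Char0.Lift.H45

end
-- ==== END Fermat.Agent.S27.Char0.Lift.H45_JacFinal

-- ==== BEGIN Fermat.Agent.S27.Char0.Lift.H68_Solve
section

/-!
# S27 LIFT, leaf SOLVE (helper68): assembly

`stmt_Solve_of : Stmt_NormPoly → Stmt_JacOrd → Stmt_JacConst → Stmt_EvalID → Stmt_Solve`.

Route: `normSys` (the norm system `D · N(∑ t_j f_j) = ∑_e Φ_e(t) x^e` with `Φ_e ∈ O[t]` and its
reduction), the residual solution `τ` (`ht = ∑ τ_j rd f_j`), helper45's `resid`
(`rd D · N(ht) = c~ ∏ (xt - α_Q)^n`), the Jacobian criterion (JAC-ORD, JAC-CONST and the linear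
independence of the `rd f_j`), and the abstract Hensel lifting `solveAlg`.
-/

set_option autoImplicit false
set_option linter.style.haveILetI false
set_option linter.unusedSectionVars false
set_option linter.unusedSimpArgs false

noncomputable section

open AlgebraicCurve IntermediateField

namespace Fermat.Agent.S27.Char0.Lift.H68

open Fermat.Agent.RED.H17 Fermat.Agent.S27.Char0 Fermat.Agent.S27.Char0.Lift
open Fermat.Agent.S27.REDu.H34 Fermat.Agent.S27.REDu.H34.RedSetting
open Fermat.Agent.S27.Lift.H68 MvPolynomial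

attribute [local instance] Classical.propDecidable

local notation "L" => riemannRochSpace

universe u v u' v'

section alg

variable {R A : Type*} [CommRing R] [CommRing A] [Algebra R A]

lemma aeval_polyOfCoeffs (M : ℕ) (c : Fin (M + 1) → R) (y : A) :
    Polynomial.aeval y (polyOfCoeffs M c) = ∑ e, algebraMap R A (c e) * y ^ (e : ℕ) := by
  simp [polyOfCoeffs, map_sum]

lemma aeval_rootProd {g : ℕ} (n : ℕ) (a : Fin g → R) (y : A) :
    Polynomial.aeval y (rootProd n a) = ∏ i, (y - algebraMap R A (a i)) ^ n := by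
  simp [rootProd, map_prod]

end alg

variable {K : Type u} {F : Type v} {k : Type u'} {Ft : Type v'} [Field K] [Field F]
  [Algebra K F] [Field k] [Field Ft] [Algebra k Ft]

theorem solve_core [IsAlgClosed K] [IsAlgClosed k] (G : GoodRed K F k Ft)
    (H : FFHyp K F) (H' : FFHyp k Ft)
    (xt : Ft) (hxt : xt = G.S.red ⟨G.x, G.hx⟩) (htr : Transcendental k xt)
    (hfin : Module.Finite ↥K⟮G.x⟯ F)
    (hdeg : Module.finrank ↥k⟮xt⟯ Ft = Module.finrank ↥K⟮G.x⟯ F)
    {g n : ℕ} (hn : (n : k) ≠ 0) {E : Divisor k Ft} (Gd : GenericData k Ft xt g n E)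
    {N : ℕ} (hN : (N : ℤ) = n * g + 1 - g) (Ld : LatticeData G n Gd.Et' N)
    (hD : dfin G n Ld.E' Ld.b ∈ K⟮G.x⟯)
    (hpoly : ∀ h ∈ L ((n : ℤ) • Ld.E'), ∃ p : Polynomial K, p.natDegree ≤ n * g ∧
      dfin G n Ld.E' Ld.b * algebraMap ↥K⟮G.x⟯ F (Algebra.norm ↥K⟮G.x⟯ h) =
        Polynomial.aeval G.x p)
    (hDV : dfin G n Ld.E' Ld.b ∈ G.S.V)
    (ct : k) (hct : ct ≠ 0)
    (hres : G.S.rd (dfin G n Ld.E' Ld.b) *
        algebraMap ↥k⟮xt⟯ Ft (Algebra.norm ↥k⟮xt⟯ Gd.ht) =
      algebraMap k Ft ct * ∏ Q ∈ Gd.A, (xt - algebraMap k Ft (Gd.α Q)) ^ n)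
    (hJC : ∀ dh ∈ L ((n : ℤ) • Gd.Et'),
      (∀ Q ∈ Gd.A, -1 ≤ Q.ord (algebraMap ↥k⟮xt⟯ Ft
        (Algebra.trace ↥k⟮xt⟯ Ft (dh * Gd.ht⁻¹)))) →
      ∃ γ : k, dh = algebraMap k Ft γ * Gd.ht)
    (hJO : Solve.Stmt_JacOrd.{u', v'}) (hEV : Solve.Stmt_EvalID.{u, u', v'}) :
    ∃ h : F, IsSolution G n Gd.A Gd.α Gd.ht Ld.E' Ld.b h := by
  classical
  subst hxt
  have hresmap : IsResidueMap (resHom G.S) :=
    ⟨(settingOfSetup G.S).resO_surj, fun c => by
      rw [IsLocalRing.mem_maximalIdeal, mem_nonunits_iff]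
      exact (settingOfSetup G.S).resO_eq_zero_iff c⟩
  have hn0 : n ≠ 0 := by
    rintro rfl
    exact hn Nat.cast_zero
  -- Step 1: the norm system
  have hLsub : ∀ t : Fin N → K, (∑ j, algebraMap K F (t j) * Ld.f j) ∈ L ((n : ℤ) • Ld.E') := by
    intro t
    refine Submodule.sum_mem _ fun j _ => ?_
    rw [← Algebra.smul_def]
    exact Submodule.smul_mem _ _ (Ld.f_mem_L j)
  obtain ⟨Φ, βt, hstar, hID⟩ : ∃ (Φ : Fin (n * g + 1) →
        MvPolynomial (Fin N) ↥(G.S.V.comap (algebraMap K F)))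
      (βt : Module.Basis (Fin (Module.finrank ↥K⟮G.x⟯ F)) ↥k⟮G.S.red ⟨G.x, G.hx⟩⟯ Ft),
      (∀ t : Fin N → ↥(G.S.V.comap (algebraMap K F)),
        dfin G n Ld.E' Ld.b * algebraMap ↥K⟮G.x⟯ F
            (Algebra.norm ↥K⟮G.x⟯ (∑ j, algebraMap K F (t j : K) * Ld.f j)) =
          ∑ e : Fin (n * g + 1), algebraMap K F
            ((eval t (Φ e) : ↥(G.S.V.comap (algebraMap K F))) : K) * G.x ^ (e : ℕ)) ∧
      ∑ e : Fin (n * g + 1), C (G.S.red ⟨G.x, G.hx⟩ ^ (e : ℕ)) *
          map ((algebraMap k Ft).comp (resHom G.S)) (Φ e) =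
        C (G.S.red ⟨dfin G n Ld.E' Ld.b, hDV⟩) * map (algebraMap ↥k⟮G.S.red ⟨G.x, G.hx⟩⟯ Ft)
          (normFormAlg βt fun j => G.S.red ⟨Ld.f j, Ld.f_mem_V j⟩) :=
    normSys (settingOfSetup G.S) G.hx htr hdeg (dfin G n Ld.E' Ld.b) hD hDV Ld.f
      Ld.f_mem_V (M := n * g) (fun t => hpoly _ (hLsub fun j => (t j : K)))
  -- Step 2: the residual solution
  have hrf : ∀ j, G.S.rd (Ld.f j) = G.S.red ⟨Ld.f j, Ld.f_mem_V j⟩ := fun j =>
    G.S.rd_of_mem (Ld.f_mem_V j)
  have hrD : G.S.rd (dfin G n Ld.E' Ld.b) = G.S.red ⟨dfin G n Ld.E' Ld.b, hDV⟩ :=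
    G.S.rd_of_mem hDV
  have hhtL : Gd.ht ∈ L ((n : ℤ) • Gd.Et') := by
    rw [mem_L_iff_ord]
    intro v
    right
    rw [Gd.div_ht v, Finsupp.smul_apply, smul_eq_mul]
    have h1 := ptsDiv_nonneg Gd.A v
    have h2 : (0 : ℤ) ≤ (n : ℤ) * ptsDiv Gd.A v := mul_nonneg (by positivity) h1
    linarith
  obtain ⟨τ, hτ⟩ := (Submodule.mem_span_range_iff_exists_fun k).mp (Ld.f_span Gd.ht hhtL)
  have hτ' : ∑ j, algebraMap k Ft (τ j) * G.S.red ⟨Ld.f j, Ld.f_mem_V j⟩ = Gd.ht := by
    rw [← hτ]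
    refine Finset.sum_congr rfl fun j _ => ?_
    rw [Algebra.smul_def, hrf]
  obtain ⟨j0, hj0⟩ : ∃ j0, τ j0 ≠ 0 := by
    by_contra hall
    push Not at hall
    apply Gd.ht_ne
    rw [← hτ]
    exact Finset.sum_eq_zero fun j _ => by rw [hall j, zero_smul]
  -- the evaluation of the reduced identity
  have hEVτ := hEV k Ft k⟮G.S.red ⟨G.x, G.hx⟩⟯ ↥(G.S.V.comap (algebraMap K F)) (resHom G.S) N (n * g)
    (Module.finrank ↥K⟮G.x⟯ F) Φ (G.S.red ⟨G.x, G.hx⟩) (G.S.red ⟨dfin G n Ld.E' Ld.b, hDV⟩) βt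
    (fun j => G.S.red ⟨Ld.f j, Ld.f_mem_V j⟩) hID
  -- Step 3: indexing the points of `A`
  set eA : Fin g ≃ ↥Gd.A := (Gd.A.equivFinOfCardEq Gd.card_A).symm with heA
  set α : Fin g → k := fun i => Gd.α (eA i) with hα
  have hprod : ∀ φ : Place k Ft → Ft, ∏ Q ∈ Gd.A, φ Q = ∏ i : Fin g, φ (eA i) := by
    intro φ
    rw [← Finset.prod_coe_sort Gd.A φ]
    exact (Equiv.prod_comp eA (fun q : ↥Gd.A => φ q)).symm
  have hprodF : ∀ φ : Place k Ft → F, ∏ Q ∈ Gd.A, φ Q = ∏ i : Fin g, φ (eA i) := by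
    intro φ
    rw [← Finset.prod_coe_sort Gd.A φ]
    exact (Equiv.prod_comp eA (fun q : ↥Gd.A => φ q)).symm
  have hαinj : Function.Injective α := by
    intro i i' h
    have := Gd.inj (eA i) (eA i).2 (eA i') (eA i').2 h
    exact eA.injective (Subtype.ext this)
  have hinjA : Function.Injective (Polynomial.aeval (R := k) (G.S.red ⟨G.x, G.hx⟩)) :=
    transcendental_iff_injective.mp htr
  -- Step 4: the residual equation
  have hresid : polyOfCoeffs (n * g) (fun e => eval τ (map (resHom G.S) (Φ e))) =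
      Polynomial.C ct * rootProd n α := by
    apply hinjA
    rw [aeval_polyOfCoeffs, (hEVτ τ).1, hτ', ← hrD, hres, map_mul, Polynomial.aeval_C,
      aeval_rootProd, hprod]
  -- Step 5: the Jacobian criterion
  have hrfL : ∀ j, G.S.red ⟨Ld.f j, Ld.f_mem_V j⟩ ∈ L ((n : ℤ) • Gd.Et') := by
    intro j
    rw [← hrf j]
    have := G.S.Rsub_le H.principal ((n : ℤ) • Ld.E') ⟨Ld.f j, Ld.f_mem_V j, Ld.f_mem_L j, rfl⟩
    rwa [Finsupp.mapDomain_smul, Ld.push] at this
  have hhtinv : (∑ j, algebraMap k Ft (τ j) * G.S.red ⟨Ld.f j, Ld.f_mem_V j⟩) * Gd.ht⁻¹ = 1 := by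
    rw [hτ']
    exact mul_inv_cancel₀ Gd.ht_ne
  have hR2 := (hEVτ τ).2 Gd.ht⁻¹ hhtinv
  have hLct : Polynomial.aeval (G.S.red ⟨G.x, G.hx⟩) (Polynomial.C ct * rootProd n α) =
      G.S.red ⟨dfin G n Ld.E' Ld.b, hDV⟩ *
        algebraMap ↥k⟮G.S.red ⟨G.x, G.hx⟩⟯ Ft (Algebra.norm ↥k⟮G.S.red ⟨G.x, G.hx⟩⟯ Gd.ht) := by
    rw [map_mul, Polynomial.aeval_C, aeval_rootProd, ← hrD, hres, hprod]
  have hjac : ∀ (dt : Fin N → k) (da : Fin g → k) (dc : k), dt j0 = 0 →
      polyOfCoeffs (n * g) (fun e => ∑ j, dt j * eval τ (pderiv j (map (resHom G.S) (Φ e)))) =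
        Polynomial.C dc * rootProd n α -
          Polynomial.C (ct * n) * ∑ i, Polynomial.C (da i) * rootProdErase n α i → dt = 0 := by
    intro dt da dc hdt0 hΛ
    set dh : Ft := ∑ j, algebraMap k Ft (dt j) * G.S.red ⟨Ld.f j, Ld.f_mem_V j⟩ with hdh
    have hdhL : dh ∈ L ((n : ℤ) • Gd.Et') := by
      refine Submodule.sum_mem _ fun j _ => ?_
      rw [← Algebra.smul_def]
      exact Submodule.smul_mem _ _ (hrfL j)
    set T : Ft := algebraMap ↥k⟮G.S.red ⟨G.x, G.hx⟩⟯ Ft
      (Algebra.trace ↥k⟮G.S.red ⟨G.x, G.hx⟩⟯ Ft (dh * Gd.ht⁻¹)) with hT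
    have hTsum : T = ∑ j, algebraMap k Ft (dt j) *
        algebraMap ↥k⟮G.S.red ⟨G.x, G.hx⟩⟯ Ft (Algebra.trace ↥k⟮G.S.red ⟨G.x, G.hx⟩⟯ Ft
          (Gd.ht⁻¹ * G.S.red ⟨Ld.f j, Ld.f_mem_V j⟩)) := by
      have h1 : dh * Gd.ht⁻¹ = ∑ j, algebraMap k ↥k⟮G.S.red ⟨G.x, G.hx⟩⟯ (dt j) •
          (Gd.ht⁻¹ * G.S.red ⟨Ld.f j, Ld.f_mem_V j⟩) := by
        rw [hdh, Finset.sum_mul]
        refine Finset.sum_congr rfl fun j _ => ?_
        rw [Algebra.smul_def, ← IsScalarTower.algebraMap_apply]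
        ring
      rw [hT, h1, map_sum, map_sum]
      refine Finset.sum_congr rfl fun j _ => ?_
      rw [map_smul, smul_eq_mul, map_mul, ← IsScalarTower.algebraMap_apply]
    have hTeq : Polynomial.aeval (G.S.red ⟨G.x, G.hx⟩) (Polynomial.C ct * rootProd n α) * T =
        Polynomial.aeval (G.S.red ⟨G.x, G.hx⟩) (Polynomial.C dc * rootProd n α -
          Polynomial.C (ct * n) * ∑ i, Polynomial.C (da i) * rootProdErase n α i) := by
      rw [← hΛ, aeval_polyOfCoeffs, hLct, hTsum, Finset.mul_sum]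
      simp only [map_sum, map_mul, Finset.sum_mul]
      rw [Finset.sum_comm]
      refine Finset.sum_congr rfl fun j _ => ?_
      have := hR2 j
      rw [hτ'] at this
      calc _ = algebraMap k Ft (dt j) * (G.S.red ⟨dfin G n Ld.E' Ld.b, hDV⟩ *
            algebraMap ↥k⟮G.S.red ⟨G.x, G.hx⟩⟯ Ft
              (Algebra.norm ↥k⟮G.S.red ⟨G.x, G.hx⟩⟯ Gd.ht) *
            algebraMap ↥k⟮G.S.red ⟨G.x, G.hx⟩⟯ Ft (Algebra.trace ↥k⟮G.S.red ⟨G.x, G.hx⟩⟯ Ft
              (Gd.ht⁻¹ * G.S.red ⟨Ld.f j, Ld.f_mem_V j⟩))) := by ring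
        _ = _ := by
          rw [← this, Finset.mul_sum]
          refine Finset.sum_congr rfl fun e _ => ?_
          ring
    have hord := hJO k Ft (G.S.red ⟨G.x, G.hx⟩) htr g n α (fun i => (eA i : Place k Ft)) hαinj
      (fun i => Gd.simple _ (eA i).2) ct dc da T hct hTeq
    obtain ⟨γ, hγ⟩ := hJC dh hdhL (fun Q hQ => by
      have := hord (eA.symm ⟨Q, hQ⟩)
      have h2 : ((eA (eA.symm ⟨Q, hQ⟩) : ↥Gd.A) : Place k Ft) = Q := by
        rw [Equiv.apply_symm_apply]
      rw [h2] at this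
      exact this)
    have hli := Ld.f_li
    have hzero : ∑ j, (dt j - γ * τ j) • G.S.rd (Ld.f j) = 0 := by
      have h1 : ∑ j, (dt j - γ * τ j) • G.S.rd (Ld.f j) = dh - algebraMap k Ft γ * Gd.ht := by
        rw [hdh, ← hτ', Finset.mul_sum, ← Finset.sum_sub_distrib]
        refine Finset.sum_congr rfl fun j _ => ?_
        rw [Algebra.smul_def, hrf, map_sub, map_mul]
        ring
      rw [h1, hγ, sub_self]
    have hall := Fintype.linearIndependent_iff.mp hli _ hzero
    have hγ0 : γ = 0 := by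
      have := hall j0
      rw [hdt0, zero_sub, neg_eq_zero] at this
      exact (mul_eq_zero.mp this).resolve_right hj0
    funext j
    have := hall j
    rw [hγ0, zero_mul, sub_zero] at this
    exact this
  -- Step 6: the exact solution
  have hNg : N + g = n * g + 1 := by
    have : (N : ℤ) + g = ((n * g : ℕ) : ℤ) + 1 := by
      push_cast
      linarith
    exact_mod_cast this
  obtain ⟨t, a, c, ht, ha, hc, hsol⟩ := solveAlg (O := ↥(G.S.V.comap (algebraMap K F))) K
    hresmap hn rfl hNg Φ j0 τ α hαinj ct hct hresid hjac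
  -- Step 7: the solution
  have hresrd : ∀ b : ↥(G.S.V.comap (algebraMap K F)),
      G.S.rd (algebraMap K F (b : K)) = algebraMap k Ft (resHom G.S b) :=
    fun b => (settingOfSetup_resO G.S b).symm
  have htV : ∀ j, algebraMap K F (t j : K) ∈ G.S.V := fun j => (t j).2
  refine ⟨∑ j, algebraMap K F (t j : K) * Ld.f j, ?_, ?_, hLsub _, ?_⟩
  · exact (G.S.rd_sum _ _ fun j _ => G.S.V.mul_mem _ _ (htV j) (Ld.f_mem_V j)).1
  · rw [(G.S.rd_sum _ _ fun j _ => G.S.V.mul_mem _ _ (htV j) (Ld.f_mem_V j)).2, ← hτ']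
    refine Finset.sum_congr rfl fun j _ => ?_
    rw [G.S.rd_mul (htV j) (Ld.f_mem_V j), hresrd, ht, hrf]
  · refine ⟨(c : K), fun Q => if hQ : Q ∈ Gd.A then (a (eA.symm ⟨Q, hQ⟩) : K) else 0, ?_,
      fun Q hQ => ?_, ?_⟩
    · intro h0
      have : c = 0 := Subtype.ext h0
      rw [this, map_zero] at hc
      exact hct hc.symm
    · dsimp only
      rw [dif_pos hQ]
      refine ⟨(a (eA.symm ⟨Q, hQ⟩)).2, ?_⟩
      rw [hresrd, ha]
      show algebraMap k Ft (Gd.α (eA (eA.symm ⟨Q, hQ⟩))) = _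
      rw [Equiv.apply_symm_apply]
    · rw [hstar t]
      have h1 : ∑ e : Fin (n * g + 1), algebraMap K F
          ((eval t (Φ e) : ↥(G.S.V.comap (algebraMap K F))) : K) * G.x ^ (e : ℕ) =
          Polynomial.aeval G.x ((polyOfCoeffs (n * g) fun e => eval t (Φ e)).map
            (G.S.V.comap (algebraMap K F)).subtype) := by
        rw [map_polyOfCoeffs, aeval_polyOfCoeffs]
        rfl
      rw [h1, hsol, Polynomial.map_mul, Polynomial.map_C, map_rootProd, map_mul,
        Polynomial.aeval_C, aeval_rootProd, hprodF]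
      congr 1
      refine Finset.prod_congr rfl fun i _ => ?_
      dsimp only
      rw [dif_pos (eA i).2]
      simp

/-- **SOLVE** from its sub-leaves. -/
theorem stmt_Solve_of (hNP : Solve.Stmt_NormPoly.{u, v, u', v'})
    (hJO : Solve.Stmt_JacOrd.{u', v'}) (hJC : Solve.Stmt_JacConst.{u', v'})
    (hEV : Solve.Stmt_EvalID.{u, u', v'}) : Stmt_Solve.{u, v, u', v'} := by
  intro K F k Ft _ _ _ _ _ _ _ _ _ G H H' g c c' hg hg' n hn E Gd N hN Ld
  obtain ⟨hD, hpoly⟩ := hNP K F k Ft G H H' g n E Gd N Ld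
  obtain ⟨ct, β, hct, -, hDV, -, hres⟩ := H45.resid G H H' Gd Ld
  have hJC' := hJC k Ft H' (G.S.rd G.x) G.transc G.fin' G.sep' g n E Gd
  exact solve_core G H H' (G.S.rd G.x) (G.S.rd_of_mem G.hx) G.transc G.fin G.deg hn Gd hN Ld
    hD hpoly hDV ct hct hres hJC' hJO hEV

end Fermat.Agent.S27.Char0.Lift.H68

end
end
-- ==== END Fermat.Agent.S27.Char0.Lift.H68_Solve

-- ==== BEGIN Fermat.Agent.S27.REDu.H34_ChartData
section

/-!
# G-RED package IG (helper34): data for the chart theorem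

* `exists_transition` : transition matrix from an integral `K`-basis to an `R`-basis of the
  integral closure, with the discriminant relation `disc b = det P ^ 2 * disc c`.
* `RedSetting.exists_good_basis` : a `k[xt]`-basis `bt` of the reduced order `Bbar = red (B ∩ V)`
  with a lift `bF` to a `C(x)`-basis of `F` inside `B ∩ V`.
* `RedSetting.exists_discr_lift` (S6) : the discriminant of `bF` lies in `O[x]` and reduces to the
  discriminant of `bt`.
-/

set_option autoImplicit false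

universe uC uCf uK uR uF uL uE uk ukap uFp uFt uFtp uiot uEp uKp ux3b1

noncomputable section

open Polynomial IntermediateField Module Matrix
open scoped IntermediateField.algebraAdjoinAdjoin nonZeroDivisors

namespace Fermat.Agent.S27.REDu.H34

/-- Transition from an integral `K`-basis to an `R`-basis of the integral closure. -/
theorem exists_transition {R : Type uR} {K : Type uK} {L : Type uL} [CommRing R] [IsDomain R]
    [IsPrincipalIdealRing R] [Field K] [Field L] [Algebra R K] [IsFractionRing R K] [Algebra K L]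
    [Algebra R L] [IsScalarTower R K L] [FiniteDimensional K L] [Algebra.IsSeparable K L]
    {ι : Type uiot} [Fintype ι] [DecidableEq ι] (b : Module.Basis ι K L)
    (hb : ∀ i, IsIntegral R (b i)) :
    ∃ (c : Module.Basis ι R ↥(integralClosure R L)) (P : Matrix ι ι R),
      (∀ i, (⟨b i, hb i⟩ : ↥(integralClosure R L)) = ∑ j, P i j • c j) ∧
      algebraMap R K (P.det ^ 2 * Algebra.discr R c) = Algebra.discr K b := by
  classical
  have hinj : Function.Injective (algebraMap R L) := by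
    rw [IsScalarTower.algebraMap_eq R K L]
    exact (algebraMap K L).injective.comp (IsFractionRing.injective R K)
  have htf : Module.IsTorsionFree R L := by
    rw [Module.isTorsionFree_iff_algebraMap_injective]
    exact hinj
  have hfree : Module.Free R (integralClosure R L) :=
    IsIntegralClosure.module_free R K L (integralClosure R L)
  have hfin : Module.Finite R (integralClosure R L) :=
    IsIntegralClosure.finite R K L (integralClosure R L)
  have hrank : Module.finrank R (integralClosure R L) = Fintype.card ι := by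
    rw [IsIntegralClosure.rank R K L (integralClosure R L), Module.finrank_eq_card_basis b]
  let c : Module.Basis ι R (integralClosure R L) :=
    (Module.finBasisOfFinrankEq R (integralClosure R L) hrank).reindex (Fintype.equivFin ι).symm
  have hloc : IsLocalization (Algebra.algebraMapSubmonoid (integralClosure R L) R⁰) L :=
    IsIntegralClosure.isLocalization R K L (integralClosure R L)
  let cK : Module.Basis ι K L := c.localizationLocalization K R⁰ L
  have hcK : ∀ i, cK i = (c i : L) := fun i => by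
    simp [cK, Module.Basis.localizationLocalization_apply]
  let bB : ι → integralClosure R L := fun i => ⟨b i, hb i⟩
  let P : Matrix ι ι R := Matrix.of fun i j => c.repr (bB i) j
  have hbB : ∀ i, bB i = ∑ j, P i j • c j := fun i => (c.sum_repr (bB i)).symm
  have hbP : ∀ i, b i = ∑ j, P i j • (c j : L) := by
    intro i
    have h2 := congrArg (fun z : integralClosure R L => (z : L)) (hbB i)
    simp only [AddSubmonoidClass.coe_finsetSum, Subalgebra.coe_smul] at h2
    exact h2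
  have hbP' : (b : ι → L) =
      ((P.map (algebraMap R K)).map (algebraMap K L)) *ᵥ (cK : ι → L) := by
    ext i
    rw [hbP i]
    simp only [Matrix.mulVec, dotProduct, Matrix.map_apply, hcK]
    refine Finset.sum_congr rfl fun j _ => ?_
    rw [← IsScalarTower.algebraMap_apply, Algebra.smul_def]
  refine ⟨c, P, hbB, ?_⟩
  rw [hbP', Algebra.discr_of_matrix_mulVec, Algebra.discr_localizationLocalization R R⁰ L c,
    map_mul, map_pow, RingHom.map_det, RingHom.mapMatrix_apply]

variable {C : Type uC} {F : Type uF} {k : Type uk} {Ft : Type uFt} [Field C] [Field F] [Algebra C F] [Field k] [Field Ft] [Algebra k Ft]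

namespace RedSetting

variable {S : RedSetting C F k Ft} {x : F} (hx : x ∈ S.V)

theorem finiteDimensional_red [FiniteDimensional ↥C⟮x⟯ F]
    (hdeg : Module.finrank ↥k⟮S.red ⟨x, hx⟩⟯ Ft = Module.finrank ↥C⟮x⟯ F) :
    FiniteDimensional ↥k⟮S.red ⟨x, hx⟩⟯ Ft := by
  apply Module.finite_of_finrank_pos
  rw [hdeg]
  exact Module.finrank_pos

/-- A basis of `Ft` over `k(xt)` generating the reduced order `Bbar` over `k[xt]`, together with a
lift to a `C(x)`-basis of `F` contained in `B ∩ V`. -/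
theorem exists_good_basis [CharZero C] (hxt : Transcendental k (S.red ⟨x, hx⟩))
    [FiniteDimensional ↥C⟮x⟯ F]
    (hdeg : Module.finrank ↥k⟮S.red ⟨x, hx⟩⟯ Ft = Module.finrank ↥C⟮x⟯ F)
    [Algebra.IsSeparable ↥k⟮S.red ⟨x, hx⟩⟯ Ft] :
    ∃ (m : ℕ) (bF : Module.Basis (Fin m) ↥C⟮x⟯ F) (hbV : ∀ i, bF i ∈ S.V)
      (bt : Module.Basis (Fin m) ↥k⟮S.red ⟨x, hx⟩⟯ Ft),
      (∀ i, IsIntegral ↥(Algebra.adjoin C {x}) (bF i)) ∧
      (∀ i, bt i = S.red ⟨bF i, hbV i⟩) ∧
      ∀ y ∈ S.Bbar hx, y ∈ Submodule.span ↥(Algebra.adjoin k {S.red ⟨x, hx⟩}) (Set.range bt) := by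
  classical
  have := finiteDimensional_red hx hdeg
  have : IsPrincipalIdealRing ↥(Algebra.adjoin k {S.red ⟨x, hx⟩}) :=
    isPrincipalIdealRing_adjoin hxt
  obtain ⟨m, bt, hbt, hspan⟩ := exists_basis_of_le_integralClosure
    (R := ↥(Algebra.adjoin k {S.red ⟨x, hx⟩})) (K := ↥k⟮S.red ⟨x, hx⟩⟯) (L := Ft)
    (S.Bbar hx) (Bbar_isIntegral hx hxt hdeg) (Bbar_span hx hxt)
  choose f hfV hfi hfr using fun i => (mem_Bbar hx (bt i)).1 (hbt i)
  have hlin : LinearIndependent ↥k⟮S.red ⟨x, hx⟩⟯ (fun i => S.red ⟨f i, hfV i⟩) := by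
    have h1 : (fun i => S.red ⟨f i, hfV i⟩) = bt := funext hfr
    rw [h1]
    exact bt.linearIndependent
  have hlinF : LinearIndependent ↥C⟮x⟯ f := linearIndependent_lift hx f hfV hxt hlin
  have hcard : Fintype.card (Fin m) = Module.finrank ↥C⟮x⟯ F := by
    rw [← hdeg, Module.finrank_eq_card_basis bt]
  have hm : 0 < m := by
    have h1 : 0 < Module.finrank ↥C⟮x⟯ F := Module.finrank_pos
    rw [← hcard, Fintype.card_fin] at h1
    exact h1
  have : Nonempty (Fin m) := ⟨⟨0, hm⟩⟩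
  let bF : Module.Basis (Fin m) ↥C⟮x⟯ F := basisOfLinearIndependentOfCardEqFinrank hlinF hcard
  have hbF : ∀ i, bF i = f i := fun i => by
    simp [bF]
  refine ⟨m, bF, fun i => by rw [hbF i]; exact hfV i, bt, fun i => by rw [hbF i]; exact hfi i,
    fun i => ?_, hspan⟩
  rw [← hfr i]
  congr 1
  exact Subtype.ext (hbF i).symm

theorem psiT_eq (hxt : Transcendental k (S.red ⟨x, hx⟩)) (p₀ : (↥S.O)[X]) :
    S.psiT hx p₀ = polyEquiv hxt (p₀.map S.resO) := by
  apply Subtype.ext
  rw [coe_psiT, red_psi, coe_polyEquiv]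

theorem psiR_eq (hxC : Transcendental C x) (p₀ : (↥S.O)[X]) :
    S.psiR hxC p₀ = polyEquiv hxC (p₀.map S.O.subtype) := rfl

theorem psiT_eq_zero_iff (hxt : Transcendental k (S.red ⟨x, hx⟩)) (p₀ : (↥S.O)[X]) :
    S.psiT hx p₀ = 0 ↔ p₀.map S.resO = 0 := by
  rw [psiT_eq hx hxt]
  exact EmbeddingLike.map_eq_zero_iff

/-- (S6) the discriminant of the lifted basis comes from `O[X]` and reduces to the discriminant
of the reduced basis. -/
theorem exists_discr_lift (hxt : Transcendental k (S.red ⟨x, hx⟩))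
    [FiniteDimensional ↥k⟮S.red ⟨x, hx⟩⟯ Ft] [Algebra.IsSeparable ↥k⟮S.red ⟨x, hx⟩⟯ Ft]
    {ι : Type uiot} [Fintype ι] [DecidableEq ι]
    (bF : Module.Basis ι ↥C⟮x⟯ F) (hbV : ∀ i, bF i ∈ S.V)
    (bt : Module.Basis ι ↥k⟮S.red ⟨x, hx⟩⟯ Ft) (hbt : ∀ i, bt i = S.red ⟨bF i, hbV i⟩)
    (D : ↥(Algebra.adjoin C {x}))
    (hD : algebraMap ↥(Algebra.adjoin C {x}) ↥C⟮x⟯ D = Algebra.discr ↥C⟮x⟯ bF) :
    ∃ D₀ : (↥S.O)[X], S.psiR (transcendental_x hx hxt) D₀ = D ∧
      algebraMap ↥(Algebra.adjoin k {S.red ⟨x, hx⟩}) ↥k⟮S.red ⟨x, hx⟩⟯ (S.psiT hx D₀) =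
        Algebra.discr ↥k⟮S.red ⟨x, hx⟩⟯ bt ∧ D₀.map S.resO ≠ 0 := by
  classical
  have hxC := transcendental_x hx hxt
  obtain ⟨δ, hδ, hδr⟩ := discr_red hx bF hbV bt hbt hxt
  have hDF : ((D : ↥(Algebra.adjoin C {x})) : F) = (((δ : ↥(S.Vx x)) : ↥C⟮x⟯) : F) := by
    rw [hδ, ← hD]
    rfl
  have hDV : ((D : ↥(Algebra.adjoin C {x})) : F) ∈ S.V := by
    rw [hDF]
    exact δ.2
  obtain ⟨D₀, hD₀⟩ := exists_psiR_eq hx hxt hxC D hDV
  have hpsi : psi hx D₀ = ⟨(((δ : ↥(S.Vx x)) : ↥C⟮x⟯) : F), δ.2⟩ := by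
    apply Subtype.ext
    rw [← coe_psiR hx hxC, hD₀, hDF]
  have h1 : algebraMap ↥(Algebra.adjoin k {S.red ⟨x, hx⟩}) ↥k⟮S.red ⟨x, hx⟩⟯ (S.psiT hx D₀) =
      Algebra.discr ↥k⟮S.red ⟨x, hx⟩⟯ bt := by
    rw [← hδr]
    apply Subtype.ext
    rw [coe_redx]
    show ((S.psiT hx D₀ : ↥(Algebra.adjoin k {S.red ⟨x, hx⟩})) : Ft) = _
    rw [coe_psiT, hpsi]
  refine ⟨D₀, hD₀, h1, ?_⟩
  intro h0
  have h2 : S.psiT hx D₀ = 0 := (psiT_eq_zero_iff hx hxt D₀).2 h0
  rw [h2, map_zero] at h1
  exact Algebra.discr_not_zero_of_basis ↥k⟮S.red ⟨x, hx⟩⟯ bt h1.symm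

end RedSetting

end Fermat.Agent.S27.REDu.H34

end
end
-- ==== END Fermat.Agent.S27.REDu.H34_ChartData

-- ==== BEGIN Fermat.Agent.S27.REDu.H42_Gen3
section

/-!
# G-RED package GEN (helper42), part 3: lifted bases, the two cases of the exchange step

`IsLift hx e` : `e : ι → F` lies in `B ∩ V` and its reduction is a `k[xt]`-basis of `Bt`.
* `case_small` : the witness `(x - a) b = ∑ h i e i` with `a ∈ O` is impossible.
* `case_large` : for `a ∉ O` the witness yields a lifted basis with a strictly bigger span.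
-/

set_option autoImplicit false

universe uC uCf uK uR uF uL uE uk ukap uFp uFt uFtp uiot uEp uKp ux3b1

noncomputable section

open Polynomial IntermediateField Module

namespace Fermat.Agent.S27.REDu.H42

open Fermat.Agent.S27.REDu.H34 Fermat.Agent.S27.REDu.H34.RedSetting

variable {C : Type uC} {F : Type uF} {k : Type uk} {Ft : Type uFt} [Field C] [Field F] [Algebra C F] [Field k] [Field Ft] [Algebra k Ft]
variable {S : RedSetting C F k Ft} {x : F} (hx : x ∈ S.V)

/-- A lifted basis: a family in `B ∩ V` whose reduction is a `k[xt]`-basis of `Bt`. -/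
structure IsLift (hx : x ∈ S.V) {ι : Type uiot} [Fintype ι] (e : ι → F) : Prop where
  memV : ∀ i, e i ∈ S.V
  int : ∀ i, IsIntegral ↥(Algebra.adjoin C {x}) (e i)
  lin : LinearIndependent ↥k⟮S.red ⟨x, hx⟩⟯ (fun i => S.red ⟨e i, memV i⟩)
  span : ∀ y : Ft, IsIntegral ↥(Algebra.adjoin k {S.red ⟨x, hx⟩}) y →
      ∃ c : ι → k[X], y = ∑ i, Polynomial.aeval (S.red ⟨x, hx⟩) (c i) * S.red ⟨e i, memV i⟩

variable {ι : Type uiot} [Fintype ι] {e : ι → F}

theorem aeval_mem_simple {K : Type uK} {E : Type uE} [Field K] [Field E] [Algebra K E] (t : E) (p : K[X]) :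
    Polynomial.aeval t p ∈ K⟮t⟯ :=
  IntermediateField.algebra_adjoin_le_adjoin K {t} (Polynomial.aeval_mem_adjoin_singleton K t)

theorem IsLift.linearIndependent (he : IsLift hx e) (hxt : Transcendental k (S.red ⟨x, hx⟩)) :
    LinearIndependent ↥C⟮x⟯ e :=
  linearIndependent_lift hx e he.memV hxt he.lin

theorem IsLift.span_top (he : IsLift hx e) (hxt : Transcendental k (S.red ⟨x, hx⟩))
    [FiniteDimensional ↥C⟮x⟯ F] (hcard : Fintype.card ι = Module.finrank ↥C⟮x⟯ F) :
    ⊤ ≤ Submodule.span ↥C⟮x⟯ (Set.range e) :=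
  ((he.linearIndependent hx hxt).span_eq_top_of_card_eq_finrank' hcard).ge

/-- Uniqueness of polynomial coordinates of the reduction. -/
theorem IsLift.coeff_unique (he : IsLift hx e) (hxt : Transcendental k (S.red ⟨x, hx⟩))
    (c : ι → k[X]) (h0 : ∑ i, Polynomial.aeval (S.red ⟨x, hx⟩) (c i) * S.red ⟨e i, he.memV i⟩ = 0)
    (i : ι) : c i = 0 := by
  have h1 : ∑ j, (⟨Polynomial.aeval (S.red ⟨x, hx⟩) (c j), aeval_mem_simple _ _⟩ :
      ↥k⟮S.red ⟨x, hx⟩⟯) • S.red ⟨e j, he.memV j⟩ = 0 := by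
    rw [← h0]
    refine Finset.sum_congr rfl fun j _ => ?_
    rw [IntermediateField.smul_def, smul_eq_mul]
  have h2 := (Fintype.linearIndependent_iff.1 he.lin) _ h1 i
  have h3 : Polynomial.aeval (S.red ⟨x, hx⟩) (c i) = 0 := congrArg Subtype.val h2
  exact (transcendental_iff.1 hxt) _ h3

/-- The combination `∑ h i * e i` as an element of `V`. -/
def combV (he : IsLift hx e) (h : ι → ↥S.O) : ↥S.V :=
  ∑ i, S.inclO (h i) * ⟨e i, he.memV i⟩

theorem coe_combV (he : IsLift hx e) (h : ι → ↥S.O) :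
    ((combV hx he h : ↥S.V) : F) = ∑ i, algebraMap C F (h i : C) * e i := by
  rw [combV, AddSubmonoidClass.coe_finsetSum]
  rfl

theorem red_combV (he : IsLift hx e) (h : ι → ↥S.O) :
    S.red (combV hx he h) =
      ∑ i, Polynomial.aeval (S.red ⟨x, hx⟩) (Polynomial.C (S.resO (h i))) *
        S.red ⟨e i, he.memV i⟩ := by
  rw [combV, map_sum]
  refine Finset.sum_congr rfl fun i _ => ?_
  rw [map_mul, red_inclO, Polynomial.aeval_C]

/-- **Case `|a| ≤ 1`** of the exchange step: impossible. -/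
theorem case_small [CharZero C] (hxt : Transcendental k (S.red ⟨x, hx⟩))
    [FiniteDimensional ↥C⟮x⟯ F]
    (hdeg : Module.finrank ↥k⟮S.red ⟨x, hx⟩⟯ Ft = Module.finrank ↥C⟮x⟯ F)
    (he : IsLift hx e) {a : C} (ha : a ∈ S.O) {b : F}
    (hb : IsIntegral ↥(Algebra.adjoin C {x}) b) (h : ι → ↥S.O) (i₀ : ι) (hi₀ : h i₀ = 1)
    (hab : (x - algebraMap C F a) * b = ∑ i, algebraMap C F (h i : C) * e i) : False := by
  -- the unit `w = x - a`
  let q : (↥S.O)[X] := Polynomial.X - Polynomial.C ⟨a, ha⟩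
  have hqmap : q.map S.resO = Polynomial.X - Polynomial.C (S.resO ⟨a, ha⟩) := by
    simp [q]
  have hqne : q.map S.resO ≠ 0 := by
    rw [hqmap]
    exact Polynomial.X_sub_C_ne_zero _
  obtain ⟨w, hw⟩ := isUnit_psi hx hxt q hqne
  have hwF : (((w : (↥S.V)ˣ) : ↥S.V) : F) = x - algebraMap C F a := by
    rw [hw, coe_psi]
    simp [q]
  -- `b ∈ V`
  have hbV : b = ((((w⁻¹ : (↥S.V)ˣ) : ↥S.V) * combV hx he h : ↥S.V) : F) := by
    have h1 : ((((w : (↥S.V)ˣ) : ↥S.V) * (((w⁻¹ : (↥S.V)ˣ) : ↥S.V) * combV hx he h) : ↥S.V) : F)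
        = (x - algebraMap C F a) * b := by
      rw [← mul_assoc, ← Units.val_mul, mul_inv_cancel, Units.val_one, one_mul, coe_combV, hab]
    rw [Subring.coe_mul, hwF] at h1
    have hne : x - algebraMap C F a ≠ 0 := by
      rw [← hwF]
      intro h0
      have : ((w : (↥S.V)ˣ) : ↥S.V) = 0 := Subtype.ext h0
      exact w.ne_zero this
    exact (mul_left_cancel₀ hne h1).symm
  set bV : ↥S.V := ((w⁻¹ : (↥S.V)ˣ) : ↥S.V) * combV hx he h with hbVdef
  have hbint : IsIntegral ↥(Algebra.adjoin C {x}) (bV : F) := by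
    rw [← hbV]
    exact hb
  have hred := gen_red_isIntegral hx hxt hdeg bV hbint
  obtain ⟨c, hc⟩ := he.span _ hred
  have hmul : S.red ((w : (↥S.V)ˣ) : ↥S.V) * S.red bV = S.red (combV hx he h) := by
    rw [← map_mul, hbVdef, ← mul_assoc, ← Units.val_mul, mul_inv_cancel, Units.val_one, one_mul]
  rw [hw, red_psi, hqmap, red_combV, hc, Finset.mul_sum] at hmul
  have h0 : ∑ i, Polynomial.aeval (S.red ⟨x, hx⟩)
      ((Polynomial.X - Polynomial.C (S.resO ⟨a, ha⟩)) * c i - Polynomial.C (S.resO (h i))) *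
        S.red ⟨e i, he.memV i⟩ = 0 := by
    rw [← sub_eq_zero, ← Finset.sum_sub_distrib] at hmul
    rw [← hmul]
    refine Finset.sum_congr rfl fun i _ => ?_
    rw [map_sub, map_mul, sub_mul, mul_assoc]
  have h1 := he.coeff_unique hx hxt _ h0 i₀
  have h2 := congrArg (Polynomial.eval (S.resO ⟨a, ha⟩)) h1
  rw [hi₀, map_one] at h2
  simp at h2

theorem GSpan.of_forall {e' : ι → F} (h : ∀ i, GSpan C x e' (e i)) {b : F}
    (hb : GSpan C x e b) : GSpan C x e' b := by
  obtain ⟨p, rfl⟩ := hb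
  exact Finset.sum_induction _ (GSpan C x e') (fun _ _ ha hb => ha.add hb) GSpan.zero
    fun i _ => (h i).aeval_mul (p i)

/-- **Case `|a| > 1`** of the exchange step: a lifted basis with a strictly bigger span. -/
theorem case_large [DecidableEq ι] (hxt : Transcendental k (S.red ⟨x, hx⟩))
    (he : IsLift hx e) {a : C} (ha : a ∉ S.O) {b : F}
    (hb : IsIntegral ↥(Algebra.adjoin C {x}) b) (hnb : ¬ GSpan C x e b)
    (h : ι → ↥S.O) (i₀ : ι) (hi₀ : h i₀ = 1)
    (hab : (x - algebraMap C F a) * b = ∑ i, algebraMap C F (h i : C) * e i) :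
    ∃ e' : ι → F, IsLift hx e' ∧ (∀ b', GSpan C x e b' → GSpan C x e' b') ∧
      ∃ b₁, GSpan C x e' b₁ ∧ ¬ GSpan C x e b₁ := by
  have ha0 : a ≠ 0 := fun h0 => ha (h0 ▸ S.O.zero_mem)
  have hinv : a⁻¹ ∈ S.O := (S.O.mem_or_inv_mem a).resolve_left ha
  have hnu : ¬ IsUnit (⟨a⁻¹, hinv⟩ : ↥S.O) := by
    rintro ⟨v, hv⟩
    apply ha
    have h1 : (((v⁻¹ : (↥S.O)ˣ) : ↥S.O) : C) * a⁻¹ = 1 := by
      have : ((v⁻¹ : (↥S.O)ˣ) : ↥S.O) * (⟨a⁻¹, hinv⟩ : ↥S.O) = 1 := by
        rw [← hv, ← Units.val_mul, inv_mul_cancel, Units.val_one]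
      exact congrArg Subtype.val this
    have h2 : (((v⁻¹ : (↥S.O)ˣ) : ↥S.O) : C) = a := by
      field_simp at h1
      exact h1
    rw [← h2]
    exact Subtype.mem _
  have hres : S.resO ⟨a⁻¹, hinv⟩ = 0 := (S.resO_eq_zero_iff _).2 hnu
  -- the unit `u = 1 - x / a`
  let q : (↥S.O)[X] := 1 - Polynomial.C ⟨a⁻¹, hinv⟩ * Polynomial.X
  have hqmap : q.map S.resO = 1 := by
    simp [q, hres]
  have hqne : q.map S.resO ≠ 0 := by
    rw [hqmap]
    exact one_ne_zero
  obtain ⟨u, hu⟩ := isUnit_psi hx hxt q hqne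
  have huF : (((u : (↥S.V)ˣ) : ↥S.V) : F) =
      Polynomial.aeval x (1 - Polynomial.C a⁻¹ * Polynomial.X : C[X]) := by
    rw [hu, coe_psi]
    simp [q]
  have huF' : (((u : (↥S.V)ˣ) : ↥S.V) : F) = 1 - algebraMap C F a⁻¹ * x := by
    rw [huF]
    simp
  have hured : S.red ((u : (↥S.V)ˣ) : ↥S.V) = 1 := by
    rw [hu, red_psi, hqmap, map_one]
  have huinv : S.red ((u⁻¹ : (↥S.V)ˣ) : ↥S.V) = 1 := by
    have : S.red ((u : (↥S.V)ˣ) : ↥S.V) * S.red ((u⁻¹ : (↥S.V)ˣ) : ↥S.V) = 1 := by
      rw [← map_mul, ← Units.val_mul, mul_inv_cancel, Units.val_one, map_one]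
    rwa [hured, one_mul] at this
  have hune : (((u : (↥S.V)ˣ) : ↥S.V) : F) ≠ 0 := by
    intro h0
    have : ((u : (↥S.V)ˣ) : ↥S.V) = 0 := Subtype.ext h0
    exact u.ne_zero this
  set bV : ↥S.V := ((u⁻¹ : (↥S.V)ˣ) : ↥S.V) * combV hx he h with hbVdef
  have hubV : ((u : (↥S.V)ˣ) : ↥S.V) * bV = combV hx he h := by
    rw [hbVdef, ← mul_assoc, ← Units.val_mul, mul_inv_cancel, Units.val_one, one_mul]
  have hubF : (((u : (↥S.V)ˣ) : ↥S.V) : F) * (bV : F) = ∑ i, algebraMap C F (h i : C) * e i := by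
    rw [← Subring.coe_mul, hubV, coe_combV]
  have hbVF : (bV : F) = algebraMap C F (-a) * b := by
    have h1 : (((u : (↥S.V)ˣ) : ↥S.V) : F) * (algebraMap C F (-a) * b) =
        (((u : (↥S.V)ˣ) : ↥S.V) : F) * (bV : F) := by
      rw [hubF, ← hab, huF', map_neg, map_inv₀]
      have : algebraMap C F a ≠ 0 := fun h0 => ha0 ((map_eq_zero _).1 h0)
      field_simp
      ring
    exact (mul_left_cancel₀ hune h1).symm
  have hbVred : S.red bV = ∑ i, Polynomial.aeval (S.red ⟨x, hx⟩)
      (Polynomial.C (S.resO (h i))) * S.red ⟨e i, he.memV i⟩ := by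
    rw [hbVdef, map_mul, huinv, one_mul, red_combV]
  have hbVint : IsIntegral ↥(Algebra.adjoin C {x}) (bV : F) := by
    rw [hbVF]
    have := isIntegral_aeval_mul hb (Polynomial.C (-a))
    rwa [Polynomial.aeval_C] at this
  -- the new family
  have hmemV : ∀ i, Function.update e i₀ (bV : F) i ∈ S.V := by
    intro i
    by_cases hi : i = i₀
    · subst hi
      rw [Function.update_self]
      exact bV.2
    · rw [Function.update_of_ne hi]
      exact he.memV i
  have hredupd : ∀ i, S.red ⟨Function.update e i₀ (bV : F) i, hmemV i⟩ =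
      Function.update (fun j => S.red ⟨e j, he.memV j⟩) i₀
        (∑ j, algebraMap k Ft (S.resO (h j)) * S.red ⟨e j, he.memV j⟩) i := by
    intro i
    by_cases hi : i = i₀
    · subst hi
      have hR : Function.update (fun j => S.red ⟨e j, he.memV j⟩) i
          (∑ j, algebraMap k Ft (S.resO (h j)) * S.red ⟨e j, he.memV j⟩) i =
          ∑ j, algebraMap k Ft (S.resO (h j)) * S.red ⟨e j, he.memV j⟩ :=
        Function.update_self _ _ _
      have : (⟨Function.update e i (bV : F) i, hmemV i⟩ : ↥S.V) = bV := by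
        apply Subtype.ext
        simp
      rw [hR, this, hbVred]
      refine Finset.sum_congr rfl fun j _ => ?_
      rw [Polynomial.aeval_C]
    · have hR : Function.update (fun j => S.red ⟨e j, he.memV j⟩) i₀
          (∑ j, algebraMap k Ft (S.resO (h j)) * S.red ⟨e j, he.memV j⟩) i =
          S.red ⟨e i, he.memV i⟩ :=
        Function.update_of_ne hi _ _
      rw [hR]
      congr 1
      apply Subtype.ext
      simp [Function.update_of_ne hi]
  have hH : (fun j => algebraMap k Ft (S.resO (h j))) i₀ = 1 := by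
    simp [hi₀]
  refine ⟨Function.update e i₀ (bV : F), ⟨hmemV, ?_, ?_, ?_⟩, ?_, (bV : F), ?_, ?_⟩
  · intro i
    by_cases hi : i = i₀
    · subst hi
      rw [Function.update_self]
      exact hbVint
    · rw [Function.update_of_ne hi]
      exact he.int i
  · rw [Fintype.linearIndependent_iff]
    intro l hl
    have h1 : ∑ i, ((l i : ↥k⟮S.red ⟨x, hx⟩⟯) : Ft) *
        (Function.update (fun j => S.red ⟨e j, he.memV j⟩) i₀
          (∑ j, algebraMap k Ft (S.resO (h j)) * S.red ⟨e j, he.memV j⟩)) i = 0 := by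
      rw [← hl]
      refine Finset.sum_congr rfl fun i _ => ?_
      rw [IntermediateField.smul_def, smul_eq_mul, hredupd]
    rw [gen_repl2] at h1
    have h2 : ∑ j, ((if j = i₀ then 0 else l j) +
        l i₀ * algebraMap k ↥k⟮S.red ⟨x, hx⟩⟯ (S.resO (h j))) • S.red ⟨e j, he.memV j⟩ = 0 := by
      rw [← h1]
      refine Finset.sum_congr rfl fun j _ => ?_
      rw [IntermediateField.smul_def, smul_eq_mul]
      congr 1
      by_cases hj : j = i₀
      · simp [hj]
      · simp [hj]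
    have h3 := Fintype.linearIndependent_iff.1 he.lin _ h2
    have h4 : l i₀ = 0 := by
      have := h3 i₀
      simpa [hi₀] using this
    intro i
    by_cases hi : i = i₀
    · rw [hi]
      exact h4
    · have := h3 i
      simpa [hi, h4] using this
  · intro y hy
    obtain ⟨c, hc⟩ := he.span y hy
    refine ⟨fun i => if i = i₀ then c i₀ else c i - c i₀ * Polynomial.C (S.resO (h i)), ?_⟩
    rw [hc, gen_repl1 _ (fun j => algebraMap k Ft (S.resO (h j))) _ i₀ hH]
    refine Finset.sum_congr rfl fun i _ => ?_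
    rw [hredupd]
    congr 1
    by_cases hi : i = i₀
    · simp [hi]
    · simp [hi]
  · intro b' hb'
    refine GSpan.of_forall (fun i => ?_) hb'
    by_cases hi : i = i₀
    · subst hi
      have h1 : e i = Polynomial.aeval x (1 - Polynomial.C a⁻¹ * Polynomial.X : C[X]) *
          Function.update e i (bV : F) i -
          ∑ j ∈ Finset.univ.erase i, algebraMap C F (h j : C) * e j := by
        rw [Function.update_self, ← huF, hubF, ← Finset.add_sum_erase _ _ (Finset.mem_univ i),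
          hi₀]
        simp
      rw [h1]
      refine GSpan.sub ((GSpan.self i).aeval_mul _) ?_
      refine Finset.sum_induction _ (GSpan C x _) (fun _ _ ha hb => ha.add hb) GSpan.zero ?_
      intro j hj
      have hji : j ≠ i := Finset.ne_of_mem_erase hj
      have : e j = Function.update e i (bV : F) j := by
        rw [Function.update_of_ne hji]
      rw [this]
      exact (GSpan.self j).const_mul _
    · have : e i = Function.update e i₀ (bV : F) i := by
        rw [Function.update_of_ne hi]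
      rw [this]
      exact GSpan.self i
  · have := GSpan.self (C := C) (x := x) (e := Function.update e i₀ (bV : F)) i₀
    rwa [Function.update_self] at this
  · intro hsp
    apply hnb
    have h1 := hsp.const_mul (-a⁻¹)
    rw [hbVF, ← mul_assoc, ← map_mul] at h1
    have h2 : -a⁻¹ * -a = 1 := by
      field_simp
    rwa [h2, map_one, one_mul] at h1

end Fermat.Agent.S27.REDu.H42

end
end
-- ==== END Fermat.Agent.S27.REDu.H42_Gen3

-- ==== BEGIN Fermat.Agent.S27.REDu.H51_Norm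
section

/-!
# FF-B, piece P8 (helper51): the local norm formula

Relative situation: `F'` finite over `F`, `v` a place of `F`, `T` the (finite) set of places of
`F'` over `v`, with `∑_{w ∈ T} e(w | v) = [F' : F]` (the fundamental identity).

* `norm_value` : if `h` has the value `c w` at `w ∈ T`, then `N(h)` has the value
  `∏ (c w) ^ e(w | v)` at `v` (local norm formula for values);
* `norm_ord` : `v (N f) = ∑_{w ∈ T} w (f)`.
-/

set_option autoImplicit false
set_option linter.style.haveILetI false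

universe uC uCf uK uR uF uL uE uk ukap uFp uFt uFtp uiot uEp uKp ux3b1

noncomputable section

open AlgebraicCurve

namespace Fermat.Agent.S27.REDu.H51

section Rel

variable {K F F' : Type*} [Field K] [Field F] [Field F'] [Algebra K F] [Algebra K F']
  [Algebra F F'] [IsScalarTower K F F'] [Module.Finite F F']

/-- **Local norm formula for values.** -/
theorem norm_value (v : Place K F) (T : Finset (Place K F'))
    (hT : ∀ w ∈ T, w.restrict F = v)
    (hsum : ∑ w ∈ T, w.ramificationIndex F = Module.finrank F F')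
    (h : F') (c : Place K F' → K) (hc : ∀ w ∈ T, OrdGe w 1 (h - algebraMap K F' (c w))) :
    OrdGe v 1 (Algebra.norm F h - algebraMap K F (∏ w ∈ T, c w ^ w.ramificationIndex F)) := by
  classical
  set w : T → Place K F' := fun j => (j : Place K F') with hwdef
  have hw : ∀ j : T, (w j).restrict F = v := fun j => hT j j.2
  obtain ⟨y, hy⟩ := exists_localBasis w (fun j => (w j).ramificationIndex F)
    Subtype.val_injective
  have hli : LinearIndependent F y :=
    linearIndependent_localBasis (compat_of_restrict v w hw) hy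
  have hcard : Fintype.card (Σ j : T, Fin ((w j).ramificationIndex F))
      = Module.finrank F F' := by
    rw [Fintype.card_sigma, ← hsum, ← Finset.sum_coe_sort T]
    exact Finset.sum_congr rfl fun j _ => Fintype.card_fin _
  set b : Module.Basis (Σ j : T, Fin ((w j).ramificationIndex F)) F F' :=
    basisOfLinearIndependentOfCardEqFinrank' y hli hcard with hbdef
  have hb : ∀ i, b i = y i := fun i => by
    rw [hbdef, coe_basisOfLinearIndependentOfCardEqFinrank']
  -- integrality of `h - c` at all places of `T`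
  have hint : ∀ (j k : T), OrdGe (w j) 0 (h - algebraMap K F' (c (w k))) := by
    intro j k
    have h1 : h - algebraMap K F' (c (w k)) = (h - algebraMap K F' (c (w j)))
        + (algebraMap K F' (c (w j)) - algebraMap K F' (c (w k))) := by ring
    rw [h1]
    exact ((hc (w j) j.2).mono (by omega)).add
      ((ordGe_algebraMap _ _).sub (ordGe_algebraMap _ _))
  -- analysis of the columns of the matrix of `h`
  have hcol : ∀ (j₀ i : Σ j : T, Fin ((w j).ramificationIndex F)),
      ∃ gi : F, Algebra.leftMulMatrix b h i j₀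
          = gi + (if i = j₀ then algebraMap K F (c (w j₀.1)) else 0) ∧
        OrdGe v 0 gi ∧ ((i.1 ≠ j₀.1 ∨ (i.2 : ℕ) ≤ (j₀.2 : ℕ)) → OrdGe v 1 gi) := by
    intro j₀ i
    set z' : F' := (h - algebraMap K F' (c (w j₀.1))) * y j₀ with hz'
    set g : (Σ j : T, Fin ((w j).ramificationIndex F)) → F := fun i' => b.repr z' i' with hg
    have hsumg : ∑ i', g i' • y i' = z' := by
      have := b.sum_repr z'
      simp only [hb] at this
      exact this
    have hzk : OrdGe (w j₀.1) (((j₀.2 : ℕ) + 1 : ℕ) : ℤ) (∑ i', g i' • y i') := by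
      rw [hsumg, hz']
      have h1 : OrdGe (w j₀.1) ((j₀.2 : ℕ) : ℤ) (y j₀) := Or.inr (hy.ord_self j₀).ge
      have := (hc (w j₀.1) j₀.1.2).mul h1
      exact this.mono (by push_cast; omega)
    have hz : ∀ j, j ≠ j₀.1 →
        OrdGe (w j) ((w j).ramificationIndex F) (∑ i', g i' • y i') := by
      intro j hj
      rw [hsumg, hz']
      have := (hint j j₀.1).mul (hy.ordGe_other j₀ j hj)
      simpa using this
    have hz0 : ∀ j, OrdGe (w j) 0 (∑ i', g i' • y i') := by
      intro j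
      by_cases hjk : j = j₀.1
      · rw [hjk]
        exact hzk.mono (Int.natCast_nonneg _)
      · exact (hz j hjk).mono (Int.natCast_nonneg _)
    refine ⟨g i, ?_, coords_integral hw hy g hz0 i, fun hcase => ?_⟩
    · rw [Algebra.leftMulMatrix_eq_repr_mul, hb]
      have h1 : h * y j₀ = z' + algebraMap K F (c (w j₀.1)) • b j₀ := by
        rw [hz', hb, Algebra.smul_def, ← IsScalarTower.algebraMap_apply K F F']
        ring
      rw [h1, map_add, map_smul, Module.Basis.repr_self, Finsupp.add_apply,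
        Finsupp.smul_apply, Finsupp.single_apply, smul_eq_mul]
      by_cases hij : i = j₀
      · rw [if_pos hij, if_pos hij.symm, mul_one]
      · rw [if_neg hij, if_neg (fun h' => hij h'.symm), mul_zero]
    · refine coords_divisible hw hy g j₀.1 ((j₀.2 : ℕ) + 1) hzk hz i ?_
      rcases hcase with h1 | h1
      · exact Or.inl h1
      · exact Or.inr (by omega)
  choose G hG1 hG2 hG3 using hcol
  have key := det_cong v (fun i : (Σ j : T, Fin ((w j).ramificationIndex F)) => i.1)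
    (fun i => (i.2 : ℕ)) (Algebra.leftMulMatrix b h) (fun i => algebraMap K F (c (w i.1)))
    (fun i j => by
      rw [hG1 j i]
      refine (hG2 j i).add ?_
      by_cases hij : i = j
      · rw [if_pos hij]; exact ordGe_algebraMap v _
      · rw [if_neg hij]; exact ordGe_zero v _)
    (fun i j hij hcase => by
      rw [hG1 j i, if_neg hij, add_zero]
      exact hG3 j i hcase)
    (fun i => by
      rw [hG1 i i, if_pos rfl, add_sub_cancel_right]
      exact hG3 i i (Or.inr le_rfl))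
    (fun i => ordGe_algebraMap v _)
  rw [Algebra.norm_eq_matrix_det b h]
  have hprod : ∏ i : (Σ j : T, Fin ((w j).ramificationIndex F)), algebraMap K F (c (w i.1))
      = algebraMap K F (∏ w' ∈ T, c w' ^ w'.ramificationIndex F) := by
    rw [← map_prod]
    congr 1
    rw [Fintype.prod_sigma, ← Finset.prod_coe_sort T]
    refine Finset.prod_congr rfl fun j _ => ?_
    show ∏ _y : Fin ((w j).ramificationIndex F), c (w j) = _
    rw [Finset.prod_const, Finset.card_univ, Fintype.card_fin]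
  rw [← hprod]
  exact key

omit [IsScalarTower K F F'] [Algebra K F] [Algebra K F'] [Module.Finite F F'] in
/-- The norm commutes with integer powers. -/
theorem norm_zpow {x : F'} (hx : x ≠ 0) (n : ℤ) :
    Algebra.norm F (x ^ n) = (Algebra.norm F x) ^ n := by
  have h := map_zpow (Units.map (Algebra.norm F : F' →* F)) (Units.mk0 x hx) n
  have h' : ((Units.map (Algebra.norm F : F' →* F) (Units.mk0 x hx ^ n) : Fˣ) : F)
      = (((Units.map (Algebra.norm F : F' →* F) (Units.mk0 x hx)) ^ n : Fˣ) : F) :=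
    congrArg (fun u : Fˣ => (u : F)) h
  rw [Units.coe_map, Units.val_zpow_eq_zpow_val, Units.val_zpow_eq_zpow_val, Units.coe_map,
    Units.val_mk0] at h'
  exact h'

/-- The norm of an element which is a unit at all places over `v` is a unit at `v`. -/
theorem norm_ord_of_unit (v : Place K F) (T : Finset (Place K F'))
    (hT : ∀ w ∈ T, w.restrict F = v)
    (hsum : ∑ w ∈ T, w.ramificationIndex F = Module.finrank F F')
    (hdeg : ∀ w : Place K F', w.deg = 1)
    {h : F'} (hh0 : h ≠ 0) (hh : ∀ w ∈ T, w.ord h = 0) :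
    v.ord (Algebra.norm F h) = 0 := by
  classical
  have hex : ∀ w : Place K F', ∃ c : K, w ∈ T → (c ≠ 0 ∧ OrdGe w 1 (h - algebraMap K F' c)) := by
    intro w
    by_cases hw : w ∈ T
    · obtain ⟨c, hc⟩ := exists_value w (hdeg w) (h := h) (Or.inr (hh w hw).ge)
      refine ⟨c, fun _ => ⟨?_, hc⟩⟩
      rintro rfl
      rw [map_zero, sub_zero] at hc
      have := hc.le hh0
      rw [hh w hw] at this
      omega
    · exact ⟨0, fun h' => absurd h' hw⟩
  choose c hc using hex
  have hval := norm_value v T hT hsum h c fun w hw => (hc w hw).2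
  set C : K := ∏ w ∈ T, c w ^ w.ramificationIndex F with hC
  have hC0 : C ≠ 0 := Finset.prod_ne_zero_iff.mpr fun w hw => pow_ne_zero _ (hc w hw).1
  have hCF : algebraMap K F C ≠ 0 := (map_ne_zero (algebraMap K F)).mpr hC0
  have h1 := ord_add_eq v hCF (g := Algebra.norm F h - algebraMap K F C)
    (by rw [ord_algebraMap, zero_add]; exact hval)
  rw [add_sub_cancel] at h1
  rw [h1.2, ord_algebraMap]

/-- The norm of an integral element with a zero over `v` has a zero at `v`. -/
theorem norm_ordGe_one (v : Place K F) (T : Finset (Place K F'))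
    (hT : ∀ w ∈ T, w.restrict F = v)
    (hsum : ∑ w ∈ T, w.ramificationIndex F = Module.finrank F F')
    (hdeg : ∀ w : Place K F', w.deg = 1)
    {h : F'} (hh : ∀ w ∈ T, OrdGe w 0 h) {w₀ : Place K F'} (hw₀ : w₀ ∈ T)
    (hh₀ : OrdGe w₀ 1 h) : OrdGe v 1 (Algebra.norm F h) := by
  classical
  have hex : ∀ w : Place K F', ∃ c : K, w ∈ T →
      ((w = w₀ → c = 0) ∧ OrdGe w 1 (h - algebraMap K F' c)) := by
    intro w
    by_cases hw : w ∈ T
    · by_cases hww : w = w₀
      · refine ⟨0, fun _ => ⟨fun _ => rfl, ?_⟩⟩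
        rw [map_zero, sub_zero, hww]
        exact hh₀
      · obtain ⟨c, hc⟩ := exists_value w (hdeg w) (hh w hw)
        exact ⟨c, fun _ => ⟨fun h' => absurd h' hww, hc⟩⟩
    · exact ⟨0, fun h' => absurd h' hw⟩
  choose c hc using hex
  have hval := norm_value v T hT hsum h c fun w hw => (hc w hw).2
  have hC : ∏ w ∈ T, c w ^ w.ramificationIndex F = 0 := by
    refine Finset.prod_eq_zero hw₀ ?_
    rw [(hc w₀ hw₀).1 rfl]
    exact zero_pow (w₀.ramificationIndex_pos (F := F)).ne'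
  rwa [hC, map_zero, sub_zero] at hval

/-- **The local norm formula**: `v (N f) = ∑_{w | v} w (f)`. -/
theorem norm_ord (v : Place K F) (T : Finset (Place K F'))
    (hT : ∀ w ∈ T, w.restrict F = v)
    (hsum : ∑ w ∈ T, w.ramificationIndex F = Module.finrank F F')
    (hdeg : ∀ w : Place K F', w.deg = 1)
    {f : F'} (hf : f ≠ 0) :
    v.ord (Algebra.norm F f) = ∑ w ∈ T, w.ord f := by
  classical
  -- functions with a simple zero at exactly one place of `T`
  have hex : ∀ j : Place K F', ∃ g : F', g ≠ 0 ∧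
      ∀ w ∈ T, w.ord g = if w = j then 1 else 0 :=
    fun j => exists_ord_eq_family T fun w => if w = j then 1 else 0
  choose g hg0 hg using hex
  have hN0 : ∀ x : F', x ≠ 0 → Algebra.norm F x ≠ 0 := fun x hx =>
    Algebra.norm_ne_zero_iff.mpr hx
  set ν : Place K F' → ℤ := fun j => v.ord (Algebra.norm F (g j)) with hν
  have hν1 : ∀ j ∈ T, 1 ≤ ν j := by
    intro j hj
    have h1 : OrdGe v 1 (Algebra.norm F (g j)) := by
      refine norm_ordGe_one v T hT hsum hdeg (w₀ := j) (fun w hw => Or.inr ?_) hj (Or.inr ?_)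
      · rw [hg j w hw]
        split_ifs <;> omega
      · rw [hg j j hj, if_pos rfl]
    exact h1.le (hN0 _ (hg0 j))
  -- the general formula with multiplicities `ν`
  have hgen : ∀ x : F', x ≠ 0 → v.ord (Algebra.norm F x) = ∑ j ∈ T, j.ord x * ν j := by
    intro x hx
    set u : F' := x * ∏ j ∈ T, (g j) ^ (-(j.ord x)) with hu
    have hpow0 : ∀ j ∈ T, (g j) ^ (-(j.ord x)) ≠ 0 := fun j _ => zpow_ne_zero _ (hg0 j)
    have hprod0 : ∏ j ∈ T, (g j) ^ (-(j.ord x)) ≠ 0 := Finset.prod_ne_zero_iff.mpr hpow0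
    have hu0 : u ≠ 0 := mul_ne_zero hx hprod0
    have huord : ∀ w ∈ T, w.ord u = 0 := by
      intro w hw
      rw [hu, w.ord_mul hx hprod0, ord_prod w T _ hpow0]
      have h1 : ∑ j ∈ T, w.ord ((g j) ^ (-(j.ord x))) = -(w.ord x) := by
        rw [Finset.sum_eq_single_of_mem w hw]
        · rw [w.ord_zpow, hg w w hw, if_pos rfl, mul_one]
        · intro j _ hjw
          rw [w.ord_zpow, hg j w hw, if_neg (fun h' => hjw h'.symm), mul_zero]
      rw [h1]
      ring
    have h0 := norm_ord_of_unit v T hT hsum hdeg hu0 huord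
    have hNu : Algebra.norm F u
        = Algebra.norm F x * ∏ j ∈ T, (Algebra.norm F (g j)) ^ (-(j.ord x)) := by
      rw [hu, map_mul, map_prod]
      congr 1
      refine Finset.prod_congr rfl fun j _ => ?_
      exact norm_zpow (hg0 j) _
    have hNpow0 : ∀ j ∈ T, (Algebra.norm F (g j)) ^ (-(j.ord x)) ≠ 0 :=
      fun j _ => zpow_ne_zero _ (hN0 _ (hg0 j))
    rw [hNu, v.ord_mul (hN0 x hx) (Finset.prod_ne_zero_iff.mpr hNpow0),
      ord_prod v T _ hNpow0] at h0
    have h2 : ∑ j ∈ T, v.ord ((Algebra.norm F (g j)) ^ (-(j.ord x)))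
        = -∑ j ∈ T, j.ord x * ν j := by
      rw [← Finset.sum_neg_distrib]
      refine Finset.sum_congr rfl fun j _ => ?_
      rw [v.ord_zpow]
      ring
    rw [h2] at h0
    linarith
  -- apply it to a uniformizer of `v`
  obtain ⟨t, ht0, ht⟩ := exists_uniformizer v
  have ht' : algebraMap F F' t ≠ 0 := (map_ne_zero (algebraMap F F')).mpr ht0
  have h1 := hgen (algebraMap F F' t) ht'
  rw [Algebra.norm_algebraMap, ord_pow, ht, mul_one] at h1
  have he : ∀ j ∈ T, j.ord (algebraMap F F' t) = (j.ramificationIndex F : ℤ) := by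
    intro j hj
    rw [j.ord_restrict t, hT j hj, ht, mul_one]
  have h2 : ∑ j ∈ T, (j.ramificationIndex F : ℤ) * (ν j - 1) = 0 := by
    have h3 : ∑ j ∈ T, j.ord (algebraMap F F' t) * ν j
        = ∑ j ∈ T, (j.ramificationIndex F : ℤ) * ν j :=
      Finset.sum_congr rfl fun j hj => by rw [he j hj]
    rw [h3] at h1
    have h4 : ((Module.finrank F F' : ℕ) : ℤ) = ∑ j ∈ T, (j.ramificationIndex F : ℤ) := by
      rw [← hsum]
      push_cast
      rfl
    simp only [mul_sub, mul_one, Finset.sum_sub_distrib]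
    linarith
  have h5 : ∀ j ∈ T, (j.ramificationIndex F : ℤ) * (ν j - 1) = 0 :=
    (Finset.sum_eq_zero_iff_of_nonneg fun j hj =>
      mul_nonneg (Int.natCast_nonneg _) (by have := hν1 j hj; omega)).mp h2
  have hν_eq : ∀ j ∈ T, ν j = 1 := by
    intro j hj
    have hpos : 0 < j.ramificationIndex F := j.ramificationIndex_pos (F := F)
    rcases mul_eq_zero.mp (h5 j hj) with h6 | h6
    · omega
    · omega
  rw [hgen f hf]
  refine Finset.sum_congr rfl fun j hj => ?_
  rw [hν_eq j hj, mul_one]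

end Rel

end Fermat.Agent.S27.REDu.H51

end
end
-- ==== END Fermat.Agent.S27.REDu.H51_Norm
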