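-- GENERATED (merged mirror, NOTES/tools/trim/merge3_helper67.py): 1 modules of the originals, bodies verbatim.
import Fermat.Agent.Zm.S59_L06_003
import Fermat.Agent.Zm.S59_L05_004

-- ==== BEGIN Fermat.Agent.S59.TRes.H49_Loc
section

/-!
# S59, leaf TRES (helper49): `Stmt_TRESloc` from the three small leaves `CYC`, `DISC`, `E1STAB`

All other inputs are landed theorems: `H77.stmt_SMALL`, `H8.stmt_ADDEST`, `H8.stmt_TORS`,
`H26.stmt_X0`, `H77.stmt_GRP`, `H49.stmt_BIGROOT`, `H49.stmt_CORE`.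
-/

set_option autoImplicit false

namespace Fermat.Agent.S59.TRes.H49

/-- **TRES, local form**, from `CYC`, `DISC`, `E1STAB`. -/
theorem tresloc_of (hCYC : Stmt_CYC) (hDISC : Stmt_DISC) (hE1 : Stmt_E1STAB) : Stmt_TRESloc := by
  intro p _ hp2 W hΔ hbad hc₄ hnp L _ hNL hbdd htriv
  obtain ⟨P, T, x₀, M, R, hP, hT, hind, h1, h2, hx₀, hM, hg, hR, hRp, hstep⟩ :=
    data_of W hp2 hΔ hbad hc₄ hnp hDISC hE1
  exact false_of_data W hp2 L hNL hbdd htriv hCYC P T hP hT hind h1 h2 x₀ hx₀ M 2 two_pos hM hg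
    R hR hRp hstep

end Fermat.Agent.S59.TRes.H49

end
-- ==== END Fermat.Agent.S59.TRes.H49_Loc
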