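-- GENERATED (merged mirror, NOTES/tools/trim/merge3_helper67.py): 9 modules of the originals, bodies verbatim.
import Mathlib
import Fermat.Agent.Zm.S59_L05_003
import Fermat.Agent.Zm.S59_L03_003
import Fermat.Agent.Zm.S59_L02_003
import Fermat.Agent.Zm.S59_L07_002
import Fermat.Agent.Zm.S36_L14_001
import Fermat.Agent.Zm.S36_L15_000
import Fermat.Agent.Zm.S59_L01_003
import Fermat.Agent.Zm.S59_L06_002
import Fermat.Agent.Zm.S48_L06_000
import Fermat.Agent.Zm.S35_L14_001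
import Fermat.Agent.Zm.S59_L03_004
import Fermat.Agent.Zm.S59_L07_001
import Fermat.Agent.Zm.S59_L02_004
import Fermat.Agent.Zm.S43_L12_001
import Fermat.Agent.Zm.S35_L08_004
import Fermat.Agent.Zm.S59_L07_003
import Fermat.Agent.Zm.S59_L05_004
import Fermat.Agent.Zm.S59_L02_005

-- ==== BEGIN Fermat.Agent.S59.LL.SQ.H58_TorAsm
section
attribute [local instance 10000] SubalgebraClass.toAlgebra
attribute [local instance 10000] HahnSeries.powerSeriesAlgebra

/-!
# S59, package LL / SQ, step (T′): the assembly at one level (helper58)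

Level `M q²`, `D` a modular datum (`H79.IsNuM`), `pα, pβ : L0 A (M q) → L0 A (M q²)` the two
degeneracy maps on the inertia-fixed functions.

Interface (one `Prop` per leaf, for the datum `D`):

* `GlueOfT3At D n`  (**I1**, helper46 + helper84): a function of `L₀` whose three reductions are
  constants times `n`-th powers and whose divisor is divisible by `n` has gluing invariants
  `(a, b)` with values in `μ_n` at the triple points;
* `StRankGlueAt D p n` (**I2**, ST-RANK of helper20 + G5 of helper89/helper92): every vector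
  `θ` with values in `μ_p` at the triple points is the gluing vector, along `zα` and along `zβ`,
  of a function of level `M q` fixed by inertia whose divisor is divisible by `n`;
* `H86.PullTable D pα pβ` (**I3**, helper86), `H96.Stmt_TI3Mod … D` (**I4**, helper96).

`torSpanSqAt_of` : these give `SQ.TorSpanSqAt` (**(T′)** at the level `M q²`), by
`H58.trivRed_of_pull` (the gluing invariants of `H ^ (p^(e-1)) / (α^* f · β^* f')` are trivial),
TI3 and `H35.kum_span`.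
-/

set_option autoImplicit false
set_option synthInstance.maxHeartbeats 400000
set_option maxHeartbeats 1000000
set_option linter.unusedSectionVars false
set_option linter.unusedVariables false
set_option linter.style.haveILetI false

noncomputable section

open ModularCurve AlgebraicCurve

attribute [local instance] Classical.propDecidable

namespace Fermat.Agent.S59.LL.SQ.H58

open Fermat.Agent.S24 Fermat.Agent.BAD Fermat.Agent.BAD.H88 Fermat.Agent.S28 Fermat.Agent.S28.H73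
  Fermat.Agent.RED.H73 Fermat.Agent.RED.H17 Fermat.Agent.RED
  Fermat.Agent.S36.NU.H23 Fermat.Agent.S36.NU.H79 Fermat.Agent.S36.H44
  Fermat.Agent.Lib.HeckeComm

section Asm

variable (A : ValuationSubring Kbar) (q M : ℕ) (B k : ℤ) (hB : B * M + k * q = 1) (hq : q.Prime)
  [NeZero M] [NeZero q] [NeZero (M * q)] [NeZero (M * q * q)]
  (hqM : ¬ q ∣ M) (hA : A.LiesOverPrime q) (ht : H91.TameAt M q)

attribute [local instance] algkM

/-- **I1**: the gluing invariants of the Kummer functions of the toric part. -/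
def GlueOfT3At (D : NUDataM A q M) (n : ℕ) : Prop :=
  ∀ H : ↥(L0 A (M * q * q)), IsCPow3 A q M B k hB hq n H →
    (∀ P : Place Kbar (FN (M * q * q)), (n : ℤ) ∣ P.ord (H : FN (M * q * q))) →
    ∃ a b : Place (kV A) (FM A M) → kV A, H40.GlueData D n H a b ∧
      ∀ z ∈ D.SS, a z ^ n = 1 ∧ b z ^ n = 1

/-- **I2**: every vector with values in `μ_p` at the triple points is a gluing vector of the
lower level, along `zα` and along `zβ` (exponent `n`). -/
def StRankGlueAt (D : NUDataM A q M) (p n : ℕ) : Prop :=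
  ∀ θ : Place (kV A) (FM A M) → kV A, (∀ z ∈ D.SS, θ z ^ p = 1) →
    (∃ f : ↥(L0 A (M * q)),
      (∀ Q : Place Kbar (FN (M * q)), (n : ℤ) ∣ Q.ord (f : FN (M * q))) ∧
      H86.GlueLow D D.zα n f θ) ∧
    (∃ f : ↥(L0 A (M * q)),
      (∀ Q : Place Kbar (FN (M * q)), (n : ℤ) ∣ Q.ord (f : FN (M * q))) ∧
      H86.GlueLow D D.zβ n f θ)

/-- The order of a pull-back is divisible by `n` if the orders of the function are. -/
theorem dvd_ord_pull {N N' : ℕ} (φ : FN N →ₐ[Kbar] FN N') (hφ : φ.toRingHom.IsIntegral)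
    (n : ℕ) (g : FN N) (hg : ∀ Q : Place Kbar (FN N), (n : ℤ) ∣ Q.ord g)
    (P : Place Kbar (FN N')) : (n : ℤ) ∣ P.ord (φ g) := by
  rw [Place.ord_restrictAlong φ hφ]
  exact Dvd.dvd.mul_left (hg _) _

/-- **(T′) at one level**, from the leaves I1 – I4. -/
theorem torSpanSqAt_of (D : NUDataM A q M) (hD : IsNuM A q M B k hB hq hqM hA ht D)
    (p : ℕ) (hp : p.Prime) (hqp : q ≠ p)
    (pα pβ : ↥(L0 A (M * q)) →+* ↥(L0 A (M * q * q)))
    (hpα : ∀ f : ↥(L0 A (M * q)),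
      ((pα f : ↥(L0 A (M * q * q))) : FN (M * q * q))
        = heckeAlphaBar Kbar (M * q) q (f : FN (M * q)))
    (hpβ : ∀ f : ↥(L0 A (M * q)),
      ((pβ f : ↥(L0 A (M * q * q))) : FN (M * q * q))
        = heckeBetaBar Kbar (M * q) q (f : FN (M * q)))
    (PT : H86.PullTable D pα pβ)
    (hTI : H96.Stmt_TI3Mod A q M hq B k hB D)
    (hI1 : GlueOfT3At A q M B k hB hq D p)
    (e : ℕ) (he : 0 < e) (hI2 : StRankGlueAt A q M D p (p ^ e)) :
    TorSpanSqAt A q M B k hB hq p := by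
  haveI : IsAlgClosed (kV A) := isAlgClosed_kV A
  haveI : Infinite (kV A) := IsAlgClosed.instInfinite
  have hP : HasPrincipalDivisors Kbar (FN (M * q * q)) := H40.hasPD_FN (M * q * q)
  intro x hx0 hxp hnew hI hT3
  obtain ⟨H, ⟨Dv, hxD, hHD⟩, hcp⟩ := hT3
  have hdivH : ∀ P : Place Kbar (FN (M * q * q)), (p : ℤ) ∣ P.ord (H : FN (M * q * q)) :=
    fun P => ⟨_, (hHD P).symm⟩
  obtain ⟨a, b, hG, hab⟩ := hI1 H hcp hdivH
  -- the exponent `n = p ^ e`
  have hp0 : p ≠ 0 := hp.ne_zero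
  have hm0 : p ^ (e - 1) ≠ 0 := pow_ne_zero _ hp0
  have hn0 : p ^ e ≠ 0 := pow_ne_zero _ hp0
  have hnm : p * p ^ (e - 1) = p ^ e := by
    rw [← pow_succ', Nat.sub_add_cancel he]
  have hG' : H40.GlueData D (p ^ e) (H ^ p ^ (e - 1)) a b := by
    have h1 := H46.glueData_pow_exp hP hm0 hG
    rwa [hnm] at h1
  -- the two functions of the lower level
  obtain ⟨⟨f, hfdiv, hf⟩, -⟩ := hI2 (fun z => b z / a z) (fun z hz => by
    rw [div_pow, (hab z hz).1, (hab z hz).2, div_one])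
  obtain ⟨-, ⟨f', hf'div, hf'⟩⟩ := hI2 a (fun z hz => (hab z hz).1)
  have htriv := trivRed_of_pull D hP PT hn0 hG' hf hf' (fun z hz => rfl)
    (fun z hz => div_mul_cancel₀ _ (hG.ne z hz).1)
  have hunit := unit_of_pull D hP PT hn0 hG' hf hf'
  -- non-vanishing
  have hH0 : H ≠ 0 := hG.H_ne_zero
  have hf0 : f ≠ 0 := by
    intro h0
    apply hf.unit₁
    rw [h0, map_zero]
    exact D.T'.p₁.rd_zero
  have hf'0 : f' ≠ 0 := by
    intro h0
    apply hf'.unit₁
    rw [h0, map_zero]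
    exact D.T'.p₁.rd_zero
  have hf0' : (f : FN (M * q)) ≠ 0 := fun h0 => hf0 (Subtype.ext h0)
  have hf'0' : (f' : FN (M * q)) ≠ 0 := fun h0 => hf'0 (Subtype.ext h0)
  have hHc0 : (H : FN (M * q * q)) ≠ 0 := fun h0 => hH0 (Subtype.ext h0)
  have hαf0 : heckeAlphaBar Kbar (M * q) q (f : FN (M * q)) ≠ 0 :=
    (map_ne_zero (heckeAlphaBar Kbar (M * q) q)).2 hf0'
  have hβf0 : heckeBetaBar Kbar (M * q) q (f' : FN (M * q)) ≠ 0 :=
    (map_ne_zero (heckeBetaBar Kbar (M * q) q)).2 hf'0'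
  have hpαf0 : pα f ≠ 0 := (map_ne_zero pα).2 hf0
  have hpβf0 : pβ f' ≠ 0 := (map_ne_zero pβ).2 hf'0
  -- the quotient
  have hh0 : H ^ p ^ (e - 1) * (pα f * pβ f')⁻¹ ≠ 0 :=
    mul_ne_zero (pow_ne_zero _ hH0) (inv_ne_zero (mul_ne_zero hpαf0 hpβf0))
  have e1 : ((H ^ p ^ (e - 1) * (pα f * pβ f')⁻¹ : ↥(L0 A (M * q * q))) : FN (M * q * q))
      = (H : FN (M * q * q)) ^ p ^ (e - 1)
        * (heckeAlphaBar Kbar (M * q) q (f : FN (M * q))
          * heckeBetaBar Kbar (M * q) q (f' : FN (M * q)))⁻¹ := by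
    push_cast
    rw [hpα, hpβ]
  have hU : Fermat.Agent.S36.NU.H10.IsUnit3 A q M B k hB hq
      (H ^ p ^ (e - 1) * (pα f * pβ f')⁻¹) := by
    refine Fermat.Agent.S36.NU.H15.isUnit3_of_rdN A q M B k hB hq hqM hA ht _ ?_
    have hT := hD.hT
    rw [← hT]
    exact hunit
  have hdivh : ∀ P : Place Kbar (FN (M * q * q)),
      ((p ^ e : ℕ) : ℤ) ∣ P.ord
        ((H ^ p ^ (e - 1) * (pα f * pβ f')⁻¹ : ↥(L0 A (M * q * q))) : FN (M * q * q)) := by
    intro P
    rw [e1, P.ord_mul (pow_ne_zero _ hHc0) (inv_ne_zero (mul_ne_zero hαf0 hβf0)), ord_pow,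
      Place.ord_inv, P.ord_mul hαf0 hβf0]
    have h1 : ((p ^ e : ℕ) : ℤ) ∣ ((p ^ (e - 1) : ℕ) : ℤ) * P.ord (H : FN (M * q * q)) := by
      rw [← hHD P, ← mul_assoc]
      refine Dvd.dvd.mul_right ?_ _
      rw [← hnm]
      push_cast
      rw [mul_comm]
    refine dvd_add h1 (dvd_neg.2 (dvd_add ?_ ?_))
    · exact dvd_ord_pull _ (alpha_integral (M * q) q) _ _ hfdiv P
    · exact dvd_ord_pull _ (beta_integral (M * q) q) _ _ hf'div P
  have hcop : Nat.Coprime (p ^ e) q :=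
    Nat.Coprime.pow_left e ((Nat.coprime_primes hp hq).2 (Ne.symm hqp))
  obtain ⟨s, c, hs0, hsc⟩ := hTI (p ^ e) (Nat.pos_of_ne_zero hn0) hcop _ hh0 hU hdivh htriv
  have hs0' : (s : FN (M * q * q)) ≠ 0 := fun h0 => hs0 (Subtype.ext h0)
  rw [e1] at hsc
  have hc0 : c ≠ 0 := by
    rintro rfl
    rw [map_zero] at hsc
    exact (mul_ne_zero (mul_ne_zero (pow_ne_zero _ hHc0)
      (inv_ne_zero (mul_ne_zero hαf0 hβf0))) (pow_ne_zero _ hs0')) hsc
  -- the Kummer relation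
  have heq : (H : FN (M * q * q)) ^ p ^ (e - 1) * (s : FN (M * q * q)) ^ p ^ e
      = algebraMap Kbar (FN (M * q * q)) c
        * (heckeAlphaBar Kbar (M * q) q (f : FN (M * q))
          * heckeBetaBar Kbar (M * q) q (f' : FN (M * q))) := by
    have hX : heckeAlphaBar Kbar (M * q) q (f : FN (M * q))
        * heckeBetaBar Kbar (M * q) q (f' : FN (M * q)) ≠ 0 := mul_ne_zero hαf0 hβf0
    rw [← hsc]
    generalize heckeAlphaBar Kbar (M * q) q (f : FN (M * q))
        * heckeBetaBar Kbar (M * q) q (f' : FN (M * q)) = X at hX ⊢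
    field_simp
  obtain ⟨y, y', hy, hy', hxy⟩ := H35.kum_span M q p e hp0 he x Dv hxD (H : FN (M * q * q)) hHD
    (f : FN (M * q)) (f' : FN (M * q)) hf0' hf'0' hfdiv hf'div (s : FN (M * q * q)) hs0' c hc0 heq
  exact ⟨y, y', p ^ e, p ^ e, hn0, hn0, hy, hy', hxy⟩

end Asm

end Fermat.Agent.S59.LL.SQ.H58

end
end
-- ==== END Fermat.Agent.S59.LL.SQ.H58_TorAsm

-- ==== BEGIN Fermat.Agent.S59.LL.SQ.H84_GenMod
section
attribute [local instance 10000] SubalgebraClass.toAlgebra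
attribute [local instance 10000] HahnSeries.powerSeriesAlgebra

/-!
# S59, package LL / SQ, step (T′) tame assembly, leaf G2 GEN-MOD (helper84)

Level `N = M q²`, `q ∤ M` tame, `A` a valuation ring of `ℚ̄` over `q`, `D` a modular datum
(`H79.IsNuM`, e.g. `H79.nuM`).

**GEN-MOD**: for every `n > 0` and every `I`-fixed function `H` of level `M q²` which is a unit
for the three valuations (`∀ i, D.T.rdN i H ≠ 0`) and whose divisor over `ℚ̄` is divisible by
`n`, there is a local generator of `H` at every triple point `z ∈ D.SS = ssM`: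
`∃ s, D.IsGen n z H s`.

This is helper24's `H24.exists_isGen` in the chart of `j` (`H88.chart0`), with (HOR) of exponent
`1` (helper64's HOR1, in the form `H96.hor1_inst`) and the point data of the chart of `j`
(`H10.TopInputs.hpt0`).

* `genMod_of_pt0` : from `PointData chart0 D q`;
* `genMod_of_top` : from `H10.TopInputs`;
* `genMod_unit3`  : the same with `H10.IsUnit3` in place of `∀ i, D.T.rdN i H ≠ 0`;
* `Stmt_GenMod`, `stmt_GenMod_of` : the statement for all modular data at one level.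
-/

set_option autoImplicit false
set_option synthInstance.maxHeartbeats 400000
set_option maxHeartbeats 1000000
set_option linter.style.haveILetI false
set_option linter.unusedSectionVars false

noncomputable section

open ModularCurve AlgebraicCurve IntermediateField

attribute [local instance] Classical.propDecidable

namespace Fermat.Agent.S59.LL.SQ.H84

open Fermat.Agent.S24 Fermat.Agent.BAD Fermat.Agent.BAD.H88 Fermat.Agent.S28 Fermat.Agent.S28.H73
  Fermat.Agent.S36.NU.H23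
  Fermat.Agent.S36.NU.H41 Fermat.Agent.S36.NU.H88 Fermat.Agent.S36.NU.H16
  Fermat.Agent.S36.NU.H17 Fermat.Agent.S36.NU.H24 Fermat.Agent.S36.NU.H79
  Fermat.Agent.S36.NU.H65 Fermat.Agent.S36.NU.H74 Fermat.Agent.S36.NU.H10
  Fermat.Agent.Lib.HeckeComm

section GenMod

variable (A : ValuationSubring Kbar) (q M : ℕ) (B k : ℤ) (hB : B * M + k * q = 1) (hq : q.Prime)
  [NeZero M] [NeZero q] [NeZero (M * q)] [NeZero (M * q * q)]
  (hqM : ¬ q ∣ M) (hA : A.LiesOverPrime q) (ht : H91.TameAt M q)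

attribute [local instance] algkM

/-- **GEN-MOD from the point data of the chart of `j`**: local generators at the triple
points. -/
theorem genMod_of_pt0 (D : NUDataM A q M) (hD : IsNuM A q M B k hB hq hqM hA ht D)
    (hpt0 : PointData (chart0 A q M B k hB hq hqM hA ht) D ((q : ℕ) : ↥(Rur A)))
    (n : ℕ) (hn : 0 < n) (H : ↥(L0 A (M * q * q))) (hu : ∀ i, D.T.rdN i H ≠ 0)
    (hdiv : ∀ P : Place Kbar (FN (M * q * q)), (n : ℤ) ∣ P.ord (H : FN (M * q * q)))
    (z : Place (kV A) (FM A M)) (hz : z ∈ D.SS) : ∃ s, D.IsGen n z H s := by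
  haveI : IsAlgClosed (kV A) := Fermat.Agent.RED.H73.isAlgClosed_kV A
  haveI : Infinite (kV A) := IsAlgClosed.instInfinite
  haveI : IsNoetherianRing ↥(chart0 A q M B k hB hq hqM hA ht).B :=
    isNoetherianRing_chart0 A q M hq hA
  haveI : IsFractionRing ↥(chart0 A q M B k hB hq hqM hA ht).B ↥(L0 A (M * q * q)) :=
    isFractionRing_chart0 A q M
  have hT := hD.hT
  have hSSeq := hD.hSS
  have H0 : H ≠ 0 := by
    intro h0
    apply hu D.i₂₀
    rw [h0, D.T.rdN_of_mem (D.T.V _).zero_mem]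
    exact map_zero _
  have hc0 : Compat (chart0 A q M B k hB hq hqM hA ht) D.T := by
    rw [hT]; exact compat_chart0 A q M B k hB hq hqM hA ht
  have hSS0 : ∀ z ∈ D.SS, InChart (chart0 A q M B k hB hq hqM hA ht) D.T z := by
    rw [hT, hSSeq]
    exact inChart_ssM A q M B k hB hq hqM hA ht _ rfl
  have hHOR0 : HOR (chart0 A q M B k hB hq hqM hA ht) ((q : ℕ) : ↥(Rur A)) n H :=
    Fermat.Agent.S59.LL.SQ.H96.hor1_inst (M * q * q)
      (Fermat.Agent.S59.LL.SQ.H96.stmt_HOR1_all _) A q hq hA n H H0 hdiv _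
  exact exists_isGen D hc0 (Fermat.Agent.S36.NU.H74.hasPrincipalDivisors_FN (M * q * q))
    ((q : ℕ) : ↥(Rur A)) hn hHOR0 hpt0 hu hz (hSS0 z hz)

/-- **GEN-MOD from `TopInputs`.** -/
theorem genMod_of_top (D : NUDataM A q M) (hD : IsNuM A q M B k hB hq hqM hA ht D)
    (hI : TopInputs A q M B k hB hq hqM hA ht D)
    (n : ℕ) (hn : 0 < n) (H : ↥(L0 A (M * q * q))) (hu : ∀ i, D.T.rdN i H ≠ 0)
    (hdiv : ∀ P : Place Kbar (FN (M * q * q)), (n : ℤ) ∣ P.ord (H : FN (M * q * q)))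
    (z : Place (kV A) (FM A M)) (hz : z ∈ D.SS) : ∃ s, D.IsGen n z H s :=
  genMod_of_pt0 A q M B k hB hq hqM hA ht D hD hI.hpt0 n hn H hu hdiv z hz

/-- **GEN-MOD for units of the three valuations** (`H10.IsUnit3`). -/
theorem genMod_unit3 (D : NUDataM A q M) (hD : IsNuM A q M B k hB hq hqM hA ht D)
    (hpt0 : PointData (chart0 A q M B k hB hq hqM hA ht) D ((q : ℕ) : ↥(Rur A)))
    (n : ℕ) (hn : 0 < n) (H : ↥(L0 A (M * q * q))) (H0 : H ≠ 0)
    (hU : _root_.Fermat.Agent.S36.NU.H10.IsUnit3 A q M B k hB hq H)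
    (hdiv : ∀ P : Place Kbar (FN (M * q * q)), (n : ℤ) ∣ P.ord (H : FN (M * q * q)))
    (z : Place (kV A) (FM A M)) (hz : z ∈ D.SS) : ∃ s, D.IsGen n z H s := by
  refine genMod_of_pt0 A q M B k hB hq hqM hA ht D hD hpt0 n hn H (fun i => ?_) hdiv z hz
  have hT := hD.hT
  rw [hT]
  exact Fermat.Agent.S36.NU.H15.hunit_totM A q M B k hB hq hqM hA ht H H0 hU i

/-- **The statement GEN-MOD** at the level `M q²`, for a modular datum `D`. -/
def Stmt_GenMod (D : NUDataM A q M) : Prop :=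
  ∀ n : ℕ, 0 < n → ∀ H : ↥(L0 A (M * q * q)), (∀ i, D.T.rdN i H ≠ 0) →
    (∀ P : Place Kbar (FN (M * q * q)), (n : ℤ) ∣ P.ord (H : FN (M * q * q))) →
    ∀ z ∈ D.SS, ∃ s, D.IsGen n z H s

/-- **GEN-MOD** from `TopInputs`. -/
theorem stmt_GenMod_of (D : NUDataM A q M) (hD : IsNuM A q M B k hB hq hqM hA ht D)
    (hI : TopInputs A q M B k hB hq hqM hA ht D) : Stmt_GenMod A q M D :=
  fun n hn H hu hdiv z hz => genMod_of_top A q M B k hB hq hqM hA ht D hD hI n hn H hu hdiv z hz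

end GenMod

end Fermat.Agent.S59.LL.SQ.H84

end
end
-- ==== END Fermat.Agent.S59.LL.SQ.H84_GenMod

-- ==== BEGIN Fermat.Agent.S59.LL.SQ.H96_TI3Top
section
attribute [local instance 10000] SubalgebraClass.toAlgebra
attribute [local instance 10000] HahnSeries.powerSeriesAlgebra

/-!
# S59, package LL / SQ, step (T), leaf TI3: the modular instance from `H10.TopInputs` (helper96)

`ti3Mod_top` : mirror of helper10's `H10.finMod_top`.  For a modular datum `D` (`H79.IsNuM`) and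
the remaining modular inputs of NU-B (`H10.TopInputs`: `hjdd`, `hpt0`, `hptoo`, RADQ), the
modular form of TI3 holds for `D`: a unit `h` for the three valuations, fixed by inertia, with
`n ∣ div h` (`n` prime to `q`) and trivial reduction data is a constant times an `n`-th power.
So SQ's TI3 arrives together with `Stmt_FinMod` of S36 (same inputs, no new geometry).
-/

set_option autoImplicit false
set_option synthInstance.maxHeartbeats 400000
set_option maxHeartbeats 1000000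
set_option linter.style.haveILetI false
set_option linter.unusedSectionVars false

noncomputable section

open ModularCurve AlgebraicCurve IntermediateField

attribute [local instance] Classical.propDecidable

namespace Fermat.Agent.S59.LL.SQ.H96

open Fermat.Agent.S24 Fermat.Agent.BAD Fermat.Agent.BAD.H88 Fermat.Agent.S28 Fermat.Agent.S28.H73
  Fermat.Agent.S36.NU.H23
  Fermat.Agent.S36.NU.H41 Fermat.Agent.S36.NU.H88 Fermat.Agent.S36.NU.H16
  Fermat.Agent.S36.NU.H17 Fermat.Agent.S36.NU.H24 Fermat.Agent.S36.NU.H79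
  Fermat.Agent.S36.NU.H65 Fermat.Agent.S36.NU.H74 Fermat.Agent.S36.NU.H10
  Fermat.Agent.Lib.HeckeComm

section Top

variable (A : ValuationSubring Kbar) (q M : ℕ) (B k : ℤ) (hB : B * M + k * q = 1) (hq : q.Prime)
  [NeZero M] [NeZero q] [NeZero (M * q)] [NeZero (M * q * q)]
  (hqM : ¬ q ∣ M) (hA : A.LiesOverPrime q) (ht : H91.TameAt M q)

attribute [local instance] algkM

/-- **TI3, the modular instance from the inputs of NU-B**: `Stmt_TI3Mod` for a modular datum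
`D` from `H10.TopInputs`. -/
theorem ti3Mod_top (D : NUDataM A q M) (hD : IsNuM A q M B k hB hq hqM hA ht D)
    (hI : TopInputs A q M B k hB hq hqM hA ht D) : Stmt_TI3Mod A q M hq B k hB D := by
  haveI : IsAlgClosed (kV A) := Fermat.Agent.RED.H73.isAlgClosed_kV A
  have hT := hD.hT
  refine ti3Mod_of A q M hq B k hB hA D hD.hq
    (chart0 A q M B k hB hq hqM hA ht) (chartInf A q M B k hB hq hqM hA ht)
    (by rw [hT]; exact compat_chart0 A q M B k hB hq hqM hA ht)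
    (by rw [hT]; exact compat_chartInf A q M B k hB hq hqM hA ht)
    (Fermat.Agent.S36.NU.H74.hasPrincipalDivisors_FN (M * q * q)) rfl rfl
    (fun n hn hcop => chartHyp_chart0 A q M B k hB hq hqM hA ht n hn hcop hI.hjdd)
    (fun n hn hcop => chartHyp_chartInf A q M B k hB hq hqM hA ht n hn hcop hI.hjdd)
    hI.hpt0 hI.hptoo hI.hrad0 hI.hradoo
    (fun h h0 hU => by
      rw [hT]
      exact Fermat.Agent.S36.NU.H15.hunit_totM A q M B k hB hq hqM hA ht h h0 hU)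

/-- **TI3 at the level `M q²`, existential form**: if the remaining inputs of NU-B hold for
every modular datum, there is a modular datum `D` with TI3. -/
theorem exists_ti3Mod_top (hND : Stmt_NuM A q M B k hB hq hqM hA ht)
    (hI : ∀ D : NUDataM A q M, IsNuM A q M B k hB hq hqM hA ht D →
      TopInputs A q M B k hB hq hqM hA ht D) :
    ∃ D : NUDataM A q M, IsNuM A q M B k hB hq hqM hA ht D ∧
      Stmt_TI3Mod A q M hq B k hB D := by
  obtain ⟨D, hD⟩ := hND
  exact ⟨D, hD, ti3Mod_top A q M B k hB hq hqM hA ht D hD (hI D hD)⟩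

end Top

end Fermat.Agent.S59.LL.SQ.H96

end
end
-- ==== END Fermat.Agent.S59.LL.SQ.H96_TI3Top

-- ==== BEGIN Fermat.Agent.S59.LL.SQ23.H63_Inst
section

/-!
# S59 / LL / SQ23, leaf S3-H90, INSTANCE (helper63)

`D.HasH90` for the `S3Act` of S3-PIC (`H89.s3Act_of_gal'`), from the abstract `H36.h90_eigen`
and the function-level commutation of `c = s₀ s₁` with `T_ℓ` (leaf S3-HECKE, `Stmt_S3Hecke`).

* `exists_fixed_transcendental` : an automorphism of order dividing `3` of a field `L / K`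
  with a transcendental element fixes a transcendental element (a symmetric function);
* `isFF_adjoinSimple` : `K(e)` is a function field for `e` transcendental;
* `h90_eigen_noMu` : `H36.h90_eigen` without the auxiliary fixed function field;
* `c_ne_one` : `s₀ s₁ ≠ 1` for every `S3Gal` (`j(q)` is not a series in `q²`);
* `Stmt_S3Hecke` : the interface of S3-HECKE;
* `hasH90_of`, `stmt_S3_of : Stmt_S3Gal → Stmt_S3Hecke → Stmt_S3`;
* `stmt_S3Hecke` (from helper6's `H6.heckeNormFn_c`), `hasH90`, `stmt_S3_of_gal : Stmt_S3Gal → Stmt_S3`.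
-/

set_option autoImplicit false
set_option linter.unusedVariables false
set_option linter.style.haveILetI false
set_option linter.unusedSectionVars false

noncomputable section

namespace Fermat.Agent.S59.LL.SQ23.H63

open AlgebraicCurve Fermat.Agent.RED Fermat.Agent.NEB.H14 Fermat.Agent.NEB.H29 IntermediateField
  Polynomial

section Abstract

variable {K L : Type} [Field K] [Field L] [Algebra K L]

/-- An automorphism `c` with `c³ = 1` of a field with a transcendental element fixes a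
transcendental element. -/
theorem exists_fixed_transcendental (c : L ≃ₐ[K] L) (hc3 : c ^ 3 = 1) (y : L)
    (hy : Transcendental K y) : ∃ e : L, Transcendental K e ∧ c e = e := by
  by_contra hcon
  push Not at hcon
  have hcc : ∀ z, c (c (c z)) = z := fun z => by
    have h := DFunLike.congr_fun hc3 z
    simpa [pow_succ, AlgEquiv.mul_apply] using h
  have hint : ∀ e : L, c e = e → IsIntegral K e := by
    intro e he
    by_contra h
    exact hcon e (fun halg => h halg.isIntegral) he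
  have a1 : IsIntegral K (y + c y + c (c y)) := hint _ (by
    rw [map_add, map_add, hcc]; ring)
  have a2 : IsIntegral K (y * c y + c y * c (c y) + c (c y) * y) := hint _ (by
    rw [map_add, map_add, map_mul, map_mul, map_mul, hcc]; ring)
  have a3 : IsIntegral K (y * c y * c (c y)) := hint _ (by
    rw [map_mul, map_mul, hcc]; ring)
  let A := integralClosure K L
  let e1 : A := ⟨_, a1⟩
  let e2 : A := ⟨_, a2⟩
  let e3 : A := ⟨_, a3⟩
  have hyA : IsIntegral A y := by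
    have hdeg : (C e1 * X ^ 2 - C e2 * X + C e3 : Polynomial A).degree ≤ 2 := by
      compute_degree
    refine ⟨X ^ 3 - (C e1 * X ^ 2 - C e2 * X + C e3), Polynomial.monic_X_pow_sub ?_, ?_⟩
    · exact lt_of_le_of_lt hdeg (by exact_mod_cast (by norm_num : (2 : ℕ) < 3))
    · simp only [eval₂_sub, eval₂_add, eval₂_mul, eval₂_pow, eval₂_X, eval₂_C]
      show y ^ 3 - ((y + c y + c (c y)) * y ^ 2
        - (y * c y + c y * c (c y) + c (c y) * y) * y + y * c y * c (c y)) = 0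
      ring
  have hyK : IsIntegral K y := isIntegral_trans (R := K) (A := A) y hyA
  exact hy hyK.isAlgebraic

/-- `K(e)` is a function field for transcendental `e`. -/
theorem isFF_adjoinSimple (e : L) (he : Transcendental K e) : IsFF K ↥K⟮e⟯ := by
  set g : ↥K⟮e⟯ := AdjoinSimple.gen K e with hg
  have hge : algebraMap ↥K⟮e⟯ L g = e := rfl
  have hgtr : Transcendental K g :=
    (transcendental_algebraMap_iff (algebraMap ↥K⟮e⟯ L).injective).mp (by rw [hge]; exact he)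
  have hgtop : K⟮g⟯ = (⊤ : IntermediateField K ↥K⟮e⟯) := by
    have h1 : (K⟮AdjoinSimple.gen K e⟯ : IntermediateField K ↥K⟮e⟯).map (K⟮e⟯.val) =
        (⊤ : IntermediateField K ↥K⟮e⟯).map (K⟮e⟯.val) := by
      rw [IntermediateField.adjoin_map, Set.image_singleton]
      rw [← AlgHom.fieldRange_eq_map, IntermediateField.fieldRange_val]
      rfl
    exact IntermediateField.map_injective _ h1
  refine ⟨g, hgtr, ?_⟩
  rw [hgtop]
  exact Module.finite_of_finrank_pos (by rw [IntermediateField.finrank_top]; exact one_pos)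

variable [IsAlgClosed K]

/-- **S3-H90, abstract form, without the auxiliary field.** -/
theorem h90_eigen_noMu (hL : IsFF K L) (c : L ≃ₐ[K] L) (hc3 : c ^ 3 = 1) (hc1 : c ≠ 1)
    {Φ : Divisor K L →+ Divisor K L} {N : L → L} {d : ℤ} (hΦ : IsCorr Φ N d)
    (hNmul : ∀ f g, N (f * g) = N f * N g) (hNc : ∀ f, N (c f) = c (N f))
    (n : ℕ) (hNK : ∀ ζ : K, ζ ^ 3 = 1 → N (algebraMap K L ζ) = algebraMap K L (ζ ^ n))
    (hd : d = n)
    (x : Pic0 K L) (h3 : (3 : ℤ) • x = 0) (hcx : c • x = x) (t : ℤ)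
    (ht : picMap Φ x = t • x) (hEis : ¬ (3 : ℤ) ∣ t - d) :
    ∃ u : Pic0 K L, c • u - u = x := by
  obtain ⟨y, hy, hfin⟩ := hL
  obtain ⟨e, he, hce⟩ := exists_fixed_transcendental c hc3 y hy
  have hF₀ : IsFF K ↥K⟮e⟯ := isFF_adjoinSimple e he
  have hμ : ∀ a : ↥K⟮e⟯, c (K⟮e⟯.val a) = K⟮e⟯.val a := by
    intro a
    have hle : K⟮e⟯ ≤ Fermat.Agent.S59.LL.SQ23.H36.fixE c := by
      rw [adjoin_simple_le_iff]
      exact (Fermat.Agent.S59.LL.SQ23.H36.mem_fixE_iff c e).2 hce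
    exact (Fermat.Agent.S59.LL.SQ23.H36.mem_fixE_iff c _).1 (hle a.2)
  exact Fermat.Agent.S59.LL.SQ23.H36.h90_eigen ⟨y, hy, hfin⟩ hF₀ K⟮e⟯.val c hμ hc3 hc1
    hΦ hNmul hNc n hNK hd x h3 hcx t ht hEis

end Abstract

section Modular

open ModularCurve Fermat.Agent.S24 Fermat.Agent.S36.H44 Fermat.Agent.S59.LL.SQ.H40
  Fermat.Agent.NEB.JH

local notation "Kb" => AlgebraicClosure ℚ

/-- `j` has a pole of order one: the coefficient of `q⁻¹` is `1`. -/
theorem jBar_coeff_neg_one' : (jBar : LaurentSeries Kb).coeff (-1 : ℤ) = 1 := by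
  rw [jBar, coeffEmb_coeff, coeff_jq_neg_one, map_one]

/-- The two deck involutions are different: `j(q)` is not a series in `q²`. -/
theorem s0_ne_s1 (M : ℕ) [NeZero M] (G : S3Gal M) : G.s0 ≠ G.s1 := by
  intro h
  obtain ⟨g, hg⟩ := G.s0_fixed (heckeAlphaBar Kb M 2 (jF M)) (by rw [h]; exact G.s1_alpha _)
  have h1 := congrArg (fun z : FN (M * 2) => (z : LaurentSeries Kb).coeff (-1 : ℤ)) hg
  simp only [coe_heckeAlphaBar, coe_heckeBetaBar] at h1
  have h0 : (ModularCurve.qExpand Kb 2 (g : LaurentSeries Kb)).coeff (-1 : ℤ) = 0 :=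
    ModularCurve.qExpand_coeff_of_not_dvd (R := Kb) (N := 2) (g : LaurentSeries Kb)
      (k := -1) (by norm_num)
  have h2 : ((jF M : FN M) : LaurentSeries Kb).coeff (-1 : ℤ) = 1 := jBar_coeff_neg_one'
  rw [h2, h0] at h1
  exact zero_ne_one h1

/-- `c = s₀ s₁` has order exactly `3`: `c ≠ 1`. -/
theorem c_ne_one (M : ℕ) [NeZero M] (G : S3Gal M) : G.s0 * G.s1 ≠ 1 := by
  intro h
  apply s0_ne_s1 M G
  refine AlgEquiv.ext fun f => ?_
  have h1 := DFunLike.congr_fun h (G.s1 f)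
  rw [AlgEquiv.mul_apply, G.s1_s1, AlgEquiv.one_apply] at h1
  exact h1

theorem c_pow_three (M : ℕ) [NeZero M] (G : S3Gal M) : (G.s0 * G.s1) ^ 3 = 1 := by
  refine AlgEquiv.ext fun f => ?_
  have h : ((G.s0 * G.s1) ^ 3) f = G.s0 (G.s1 (G.s0 (G.s1 (G.s0 (G.s1 f))))) := by
    rw [pow_succ, pow_succ, pow_one]
    rfl
  rw [h, G.c3 f, AlgEquiv.one_apply]

/-- The function-level Hecke map `f ↦ Norm_α (β f)` of `T_ℓ = α_* β^*` at level `N`. -/
def heckeFn (N ℓ : ℕ) [NeZero N] [NeZero ℓ] (f : FN N) : FN N :=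
  normFn (heckeAlphaBar Kb N ℓ) (heckeBetaBar Kb N ℓ f)

/-- **S3-HECKE**: `c = s₀ s₁` commutes with the function-level Hecke map `Norm_α ∘ β^*`
of `T_ℓ`, `ℓ ∤ 2M`. -/
def Stmt_S3Hecke : Prop :=
  ∀ (M : ℕ) [NeZero M], 2 ∣ M → ¬ 4 ∣ M → ∀ (G : S3Gal M) (ℓ : ℕ) [NeZero ℓ], ℓ.Prime →
    ¬ ℓ ∣ M * 2 → ∀ f : FN (M * 2),
      heckeFn (M * 2) ℓ ((G.s0 * G.s1) f) = (G.s0 * G.s1) (heckeFn (M * 2) ℓ f)

/-- `T_ℓ` on divisors. -/
def heckeDiv (N ℓ : ℕ) [NeZero N] [NeZero ℓ] : Divisor Kb (FN N) →+ Divisor Kb (FN N) :=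
  (pushD (heckeAlphaBar Kb N ℓ)).comp (pullD (heckeBetaBar Kb N ℓ))

theorem isCorr_heckeDiv (N ℓ : ℕ) [NeZero N] [NeZero ℓ] :
    IsCorr (heckeDiv N ℓ) (heckeFn N ℓ) (1 * finrankAlong Kb (heckeBetaBar Kb N ℓ)) :=
  haveI := neZero_mul N ℓ
  (isCorr_pushD (isFF0 N) (isFF0 (N * ℓ)) (heckeAlphaBar Kb N ℓ)).comp
    (isCorr_pullD (isFF0 N) (isFF0 (N * ℓ)) (heckeBetaBar Kb N ℓ))

theorem heckeOperatorBar_eq_picMap (N : ℕ) [NeZero N] (ℓ : Nat.Primes) (x : JZero N) :
    heckeOperatorBar N ℓ x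
      = (haveI : NeZero (ℓ : ℕ) := ⟨ℓ.2.ne_zero⟩; picMap (heckeDiv N ℓ) x) := by
  haveI : NeZero (ℓ : ℕ) := ⟨ℓ.2.ne_zero⟩
  haveI := neZero_mul N ℓ
  rw [heckeOperatorBar_apply, T0_eq]
  exact (DFunLike.congr_fun (picMap_comp
    (isCorr_pushD (isFF0 N) (isFF0 (N * ℓ)) (heckeAlphaBar Kb N ℓ)).isGood
    (isCorr_pullD (isFF0 N) (isFF0 (N * ℓ)) (heckeBetaBar Kb N ℓ)).isGood) x).symm

theorem heckeFn_mul (N ℓ : ℕ) [NeZero N] [NeZero ℓ] (f g : FN N) :
    heckeFn N ℓ (f * g) = heckeFn N ℓ f * heckeFn N ℓ g := by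
  letI := algebraAlong (heckeAlphaBar Kb N ℓ)
  show Algebra.norm (FN N) (heckeBetaBar Kb N ℓ (f * g))
    = Algebra.norm (FN N) (heckeBetaBar Kb N ℓ f) * Algebra.norm (FN N) (heckeBetaBar Kb N ℓ g)
  rw [map_mul, map_mul]

theorem heckeFn_const (N ℓ : ℕ) [NeZero N] [NeZero ℓ] (hℓ : ℓ.Prime) (hN : ¬ ℓ ∣ N) (a : Kb) :
    heckeFn N ℓ (algebraMap Kb (FN N) a) = algebraMap Kb (FN N) (a ^ (ℓ + 1)) := by
  rw [heckeFn, AlgHom.commutes, ← AlgHom.commutes (heckeAlphaBar Kb N ℓ), normFn_apply_self,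
    Fermat.Agent.RED.H95.finrankAlong_alpha hℓ hN, map_pow]

/-- **S3-H90, instance**: Hilbert 90 on `J₀(2M)` for `c = s₀ s₁`, from S3-HECKE. -/
theorem hasH90_of (hH : Stmt_S3Hecke) (M : ℕ) [NeZero M] (h2 : 2 ∣ M) (h4 : ¬ 4 ∣ M)
    (G : S3Gal M) : (Fermat.Agent.S59.LL.SQ23.H89.s3Act_of_gal' M h2 h4 G).HasH90 := by
  rintro S t x h3 hcx heig ⟨ℓ, hℓ, hℓS, hℓM, hℓ3, hne⟩
  haveI : NeZero ℓ := ⟨hℓ.ne_zero⟩
  rw [Fermat.Agent.S59.LL.SQ23.H89.s3Act'_c_apply] at hcx
  have ht : picMap (heckeDiv (M * 2) ℓ) x = t ℓ • x := by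
    have h := heig ⟨ℓ, hℓ⟩ hℓS hℓM hℓ3
    rw [heckeOperatorBar_eq_picMap] at h
    exact h
  have hd : (1 * finrankAlong Kb (heckeBetaBar Kb (M * 2) ℓ) : ℤ) = ((ℓ + 1 : ℕ) : ℤ) := by
    rw [Fermat.Agent.RED.H95.finrankAlong_beta hℓ hℓM, one_mul]
  have hEis : ¬ (3 : ℤ) ∣ t ℓ - (1 * finrankAlong Kb (heckeBetaBar Kb (M * 2) ℓ) : ℤ) := by
    rw [hd]
    intro hdvd
    apply hne
    have h0 := (ZMod.intCast_zmod_eq_zero_iff_dvd (t ℓ - ((ℓ + 1 : ℕ) : ℤ)) 3).2 hdvd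
    push_cast at h0
    rw [sub_eq_zero] at h0
    rw [h0]; ring
  obtain ⟨u, hu⟩ := h90_eigen_noMu (isFF0 (M * 2)) (G.s0 * G.s1) (c_pow_three M G)
    (c_ne_one M G) (isCorr_heckeDiv (M * 2) ℓ) (heckeFn_mul (M * 2) ℓ)
    (hH M h2 h4 G ℓ hℓ hℓM) (ℓ + 1) (fun ζ _ => heckeFn_const (M * 2) ℓ hℓ hℓM ζ) hd
    x h3 hcx (t ℓ) ht hEis
  exact ⟨u, by rw [Fermat.Agent.S59.LL.SQ23.H89.s3Act'_c_apply]; exact hu⟩

/-- **SQ23, geometric content**, from S3-GAL and S3-HECKE. -/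
theorem stmt_S3_of (hG : Stmt_S3Gal) (hH : Stmt_S3Hecke) : Stmt_S3 := by
  intro M _ h2 h4
  obtain ⟨G⟩ := hG M h2 h4
  exact ⟨Fermat.Agent.S59.LL.SQ23.H89.s3Act_of_gal' M h2 h4 G, hasH90_of hH M h2 h4 G⟩

/-- **S3-HECKE** holds (helper6, `H6.heckeNormFn_c`). -/
theorem stmt_S3Hecke : Stmt_S3Hecke := by
  intro M _ h2 h4 G ℓ _ hℓ hℓM f
  exact Fermat.Agent.S59.LL.SQ23.H6.heckeNormFn_c ℓ G h2 hℓ hℓM f

/-- **S3-H90 + S3-HECKE**: Hilbert 90 on `J₀(2M)` for `c = s₀ s₁`, for the `S3Act` of S3-PIC. -/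
theorem hasH90 (M : ℕ) [NeZero M] (h2 : 2 ∣ M) (h4 : ¬ 4 ∣ M) (G : S3Gal M) :
    (Fermat.Agent.S59.LL.SQ23.H89.s3Act_of_gal' M h2 h4 G).HasH90 :=
  hasH90_of stmt_S3Hecke M h2 h4 G

/-- **SQ23, geometric content**, from S3-GAL alone. -/
theorem stmt_S3_of_gal (hG : Stmt_S3Gal) : Stmt_S3 :=
  stmt_S3_of hG stmt_S3Hecke

end Modular

end Fermat.Agent.S59.LL.SQ23.H63

end
end
-- ==== END Fermat.Agent.S59.LL.SQ23.H63_Inst

-- ==== BEGIN Fermat.Agent.S59.NonMin.Geom.H78_Ihara3Per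
section

/-!
# S59 / NMGEOM, leaf IHARA3 (helper78): period functions over a field `k`, part 2

* `gfn_eq_zero` : `G = 0` on `X_N` (from `Stmt_ORB3` and a non-Eisenstein prime `ℓ₀ ≡ 1 mod N q²`);
* `per_inv_q` : `F(r + 1/q) = F(r)` if `G = 0`, `(c₁, c₂, c₃) ≠ 0`;
* `per_q2` : `F(q² r) = F(r)` (explicit matrices);
* `per_Zq` : `F(r + t) = F(r)` for `t ∈ ℤ[1/q]`.
This file contains no `sorry`.
-/

set_option autoImplicit false

open scoped MatrixGroups
open CongruenceSubgroup Matrix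

namespace Fermat.Agent.S59.NonMin.Geom.H78

open Fermat.Agent.S41 Fermat.Agent.S41.H19 Fermat.Agent.S41.Ihara

section G0

variable {k : Type} [Field k] {N q : ℕ}

/-- `G = 0` on `X_N`. -/
theorem gfn_eq_zero (hO : Stmt_ORB3) (hN : 2 ≤ N) (hq : q.Prime) (hqN : ¬ q ∣ N)
    (E : ℚ → k)
    (hinv : ∀ (h : Gamma0 (N * q ^ 2)) (r : ℚ), InX N r → E (mob (mat h) r) = E r)
    {ℓ : ℕ} (hℓ : ℓ.Prime) (hℓNq : ¬ ℓ ∣ N * q) (hℓ1 : ℓ % (N * q ^ 2) = 1 % (N * q ^ 2))
    (a : k) (ha : a ≠ (ℓ : k) + 1)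
    (hE : ∀ r, InX N r → TT ℓ E r = a * E r) {r : ℚ} (hr : InX N r) : E r = 0 := by
  have h1 := hO N q hN hq hqN k E hinv ℓ hℓ hℓNq hℓ1 r hr
  rw [hE r hr, nsmul_eq_mul] at h1
  have h3 : (a - ((ℓ : k) + 1)) * E r = 0 := by
    push_cast at h1
    linear_combination h1
  exact (mul_eq_zero.mp h3).resolve_left (sub_ne_zero.mpr ha)

end G0

section Periodic

variable {k : Type*} [Field k] {N q : ℕ}

theorem inX_add_inv_q (hq : q.Prime) (hqN : ¬ q ∣ N) {r : ℚ} (hr : InX N r) :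
    InX N (r + (q : ℚ)⁻¹) :=
  H37.inX_add hr (inX_inv_nat ((Nat.Prime.coprime_iff_not_dvd hq).mpr hqN))

theorem inX_div_q (hq : q.Prime) (hqN : ¬ q ∣ N) {r : ℚ} (hr : InX N r) :
    InX N (r / (q : ℚ)) :=
  inX_div_nat ((Nat.Prime.coprime_iff_not_dvd hq).mpr hqN) hr

/-- **`1/q`-periodicity** from `G = 0`. -/
theorem per_inv_q (hq : q.Prime) (hqN : ¬ q ∣ N) (x : Additive (Gamma0 N) →+ k)
    (hx : IsCuspidalHom (Gamma0 N) x) (F : ℚ → k) (hF : IsPer x F) (c₁ c₂ c₃ : k)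
    (hc : c₁ ≠ 0 ∨ c₂ ≠ 0 ∨ c₃ ≠ 0)
    (hG : ∀ r, InX N r → gfn q c₁ c₂ c₃ F r = 0) {r : ℚ} (hr : InX N r) :
    F (r + (q : ℚ)⁻¹) = F r := by
  have hq0 : (q : ℚ) ≠ 0 := by exact_mod_cast hq.ne_zero
  have hper : ∀ r, InX N r → ∀ n : ℤ, F (r + (n : ℚ)) = F r := fun r hr n => hF.add_int hx hr n
  -- `F (q (r + 1/q)) = F (q r)` and `F (q² (r + 1/q)) = F (q² r)`
  have s1 : ∀ r, InX N r → F ((q : ℚ) * (r + (q : ℚ)⁻¹)) = F ((q : ℚ) * r) := by
    intro r hr
    have e : (q : ℚ) * (r + (q : ℚ)⁻¹) = (q : ℚ) * r + ((1 : ℤ) : ℚ) := by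
      push_cast
      field_simp
    rw [e]
    exact hper _ (inX_nat_mul hr q) 1
  have s2 : ∀ r, InX N r →
      F ((q : ℚ) * ((q : ℚ) * (r + (q : ℚ)⁻¹))) = F ((q : ℚ) * ((q : ℚ) * r)) := by
    intro r hr
    have e : (q : ℚ) * ((q : ℚ) * (r + (q : ℚ)⁻¹))
        = (q : ℚ) * ((q : ℚ) * r) + (((q : ℤ) : ℤ) : ℚ) := by
      push_cast
      field_simp
    rw [e]
    exact hper _ (inX_nat_mul (inX_nat_mul hr q) q) _
  by_cases h1 : c₁ = 0
  · by_cases h2 : c₂ = 0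
    · -- `c₃ ≠ 0`: `F = 0` on `X_N`
      have h3 : c₃ ≠ 0 := by
        rcases hc with h | h | h
        · exact absurd h1 h
        · exact absurd h2 h
        · exact h
      have hz : ∀ s, InX N s → F s = 0 := by
        intro s hs
        have hs' : InX N (s / (q : ℚ) / (q : ℚ)) := inX_div_q hq hqN (inX_div_q hq hqN hs)
        have := hG _ hs'
        unfold gfn at this
        rw [h1, h2, zero_mul, zero_mul, zero_add, zero_add] at this
        have e : (q : ℚ) * ((q : ℚ) * (s / (q : ℚ) / (q : ℚ))) = s := by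
          field_simp
        rw [e] at this
        exact (mul_eq_zero.mp this).resolve_left h3
      rw [hz _ hr, hz _ (inX_add_inv_q hq hqN hr)]
    · -- `c₁ = 0`, `c₂ ≠ 0`: `c₂ F(s) + c₃ F(q s) = 0`
      have hrel : ∀ s, InX N s → c₂ * F s + c₃ * F ((q : ℚ) * s) = 0 := by
        intro s hs
        have hs' : InX N (s / (q : ℚ)) := inX_div_q hq hqN hs
        have := hG _ hs'
        unfold gfn at this
        rw [h1, zero_mul, zero_add] at this
        have e : (q : ℚ) * (s / (q : ℚ)) = s := by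
          field_simp
        rw [e] at this
        exact this
      have e1 := hrel r hr
      have e2 := hrel _ (inX_add_inv_q hq hqN hr)
      rw [s1 r hr] at e2
      have : c₂ * (F (r + (q : ℚ)⁻¹) - F r) = 0 := by linear_combination e2 - e1
      exact sub_eq_zero.mp ((mul_eq_zero.mp this).resolve_left h2)
  · have e1 := hG r hr
    have e2 := hG _ (inX_add_inv_q hq hqN hr)
    unfold gfn at e1 e2
    rw [s1 r hr, s2 r hr] at e2
    have : c₁ * (F (r + (q : ℚ)⁻¹) - F r) = 0 := by linear_combination e2 - e1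
    exact sub_eq_zero.mp ((mul_eq_zero.mp this).resolve_left h1)

/-- Translation by `n / q`, `n : ℕ`. -/
theorem per_nat_div_q (hq : q.Prime) (hqN : ¬ q ∣ N) (F : ℚ → k)
    (h1 : ∀ r, InX N r → F (r + (q : ℚ)⁻¹) = F r) (n : ℕ) :
    ∀ r, InX N r → F (r + (n : ℚ) * (q : ℚ)⁻¹) = F r := by
  induction n with
  | zero => intro r _; simp
  | succ n ih =>
    intro r hr
    have e : r + ((n + 1 : ℕ) : ℚ) * (q : ℚ)⁻¹ = (r + (q : ℚ)⁻¹) + (n : ℚ) * (q : ℚ)⁻¹ := by
      push_cast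
      ring
    rw [e, ih _ (inX_add_inv_q hq hqN hr), h1 r hr]

/-- Translation by `z / q`, `z : ℤ`. -/
theorem per_int_div_q (hq : q.Prime) (hqN : ¬ q ∣ N) (F : ℚ → k)
    (h1 : ∀ r, InX N r → F (r + (q : ℚ)⁻¹) = F r) (z : ℤ) {r : ℚ} (hr : InX N r) :
    F (r + (z : ℚ) * (q : ℚ)⁻¹) = F r := by
  have hqc : q.Coprime N := (Nat.Prime.coprime_iff_not_dvd hq).mpr hqN
  have hX : ∀ (w : ℤ) (s : ℚ), InX N s → InX N (s + (w : ℚ) * (q : ℚ)⁻¹) := fun w s hs =>
    H37.inX_add hs (H37.inX_mul (H37.inX_intCast N w) (inX_inv_nat hqc))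
  rcases Int.eq_nat_or_neg z with ⟨n, rfl | rfl⟩
  · have := per_nat_div_q hq hqN F h1 n r hr
    simpa using this
  · have h2 := per_nat_div_q hq hqN F h1 n _ (hX (-(n : ℤ)) r hr)
    have e : r + ((-(n : ℤ) : ℤ) : ℚ) * (q : ℚ)⁻¹ + (n : ℚ) * (q : ℚ)⁻¹ = r := by
      push_cast
      ring
    rw [e] at h2
    exact h2.symm

end Periodic

end Fermat.Agent.S59.NonMin.Geom.H78

end
-- ==== END Fermat.Agent.S59.NonMin.Geom.H78_Ihara3Per

-- ==== BEGIN Fermat.Agent.S59.NonMin.Geom.H98_Rel4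
section

/-!
# S59 / NMGEOM (helper98): the relation `U³ - U = A₁ T C₃ - A₁ C₂ - A₂ C₃`

`U = U_q` of level `N q²`, `q ∤ N`.  Through the level `N q`, with `R₁ = resAlong kap1`
(restriction along the inclusion `Γ₀(N q²) → Γ₀(N q)`) and `K₂ = corAlong kap2` (transfer along
the conjugation by `diag(q, 1)`):

* `UB_eq_res_cor` : `U_q(N q²) = R₁ K₂`;
* `UB_eq_cor_res` : `U_q(N q) = K₂ R₁`;
* `UB_res1`, `UB_res2` : `U_q(N q) r₁ = r₁ T_q - r₂`, `U_q(N q) r₂ = q r₁`;
* `UB_UB` : `U_q(N q)² = 1 + r₁ T_q c₂ - r₂ c₂ - r₁ c₁` (Atkin–Lehner, `S41.H39.cor1_incl`);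
* `corC2_eq`, `corC3_eq` : `C₂ = c₁ K₂`, `C₃ = c₂ K₂`;
* `rel4` : the relation.
-/

set_option autoImplicit false
set_option linter.style.haveILetI false
set_option linter.unusedSectionVars false

open scoped MatrixGroups
open CongruenceSubgroup Matrix ModularForm

namespace Fermat.Agent.S59.NonMin.Geom.H98

open Fermat.Agent.S41 Fermat.Agent.S41.H19 Fermat.Agent.S41.H77 Fermat.Agent.S41.H39
open Fermat.Agent.S41.H20 Fermat.Agent.Betti Fermat.Agent.S59.NonMin.Geom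
open Fermat.Agent.S59.NonMin.Geom.H72R

/-! ### Restriction is additive -/

section Res

variable {H G : Type*} [Group H] [Group G] {A : Type*} [AddCommGroup A]

theorem resAlong_add' (ι : H →* G) (φ ψ : Additive G →+ A) :
    resAlong A ι (φ + ψ) = resAlong A ι φ + resAlong A ι ψ := rfl

theorem resAlong_sub' (ι : H →* G) (φ ψ : Additive G →+ A) :
    resAlong A ι (φ - ψ) = resAlong A ι φ - resAlong A ι ψ := rfl

theorem resAlong_neg' (ι : H →* G) (φ : Additive G →+ A) :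
    resAlong A ι (-φ) = -resAlong A ι φ := rfl

theorem resAlong_nsmul' (ι : H →* G) (n : ℕ) (φ : Additive G →+ A) :
    resAlong A ι (n • φ) = n • resAlong A ι φ := rfl

theorem resAlong_smul' {R : Type*} [Semiring R] [Module R A] (ι : H →* G) (c : R)
    (φ : Additive G →+ A) : resAlong A ι (c • φ) = c • resAlong A ι φ := rfl

theorem resAlong_zero' (ι : H →* G) : resAlong A ι (0 : Additive G →+ A) = 0 := rfl

end Res

/-! ### The level `N q`, `q ∤ N` -/

section Stage1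

variable {N q : ℕ} [NeZero (N * q)] {A : Type*} [AddCommGroup A] {u v : ℤ}
  (huv : (q : ℤ) * u + (N : ℤ) * v = 1)

/-- `w r₂ = r₁`. -/
theorem res_alG_res2 (hq : q ≠ 0) (φ : Additive (Gamma0 N) →+ A) :
    resAlong A (alG huv hq) (res2 N q A φ) = res1 N q A φ := by
  refine AddMonoidHom.ext fun x => ?_
  change φ (Additive.ofMul (conjG N q (alG huv hq (Additive.toMul x))))
    = φ (Additive.ofMul (inclG N q (Additive.toMul x)))
  rw [conjG_alG, hom_conj]

/-- `w r₁ = r₂`. -/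
theorem res_alG_res1 (hq : q ≠ 0) (φ : Additive (Gamma0 N) →+ A) :
    resAlong A (alG huv hq) (res1 N q A φ) = res2 N q A φ := by
  rw [← res_alG_res2 huv hq φ, res_alG_alG]

/-- `r₁ c₁ = 1 + U w`. -/
theorem res1_cor1 (hN : 0 < N) (hq : q.Prime) (hqN : ¬ q ∣ N)
    (ψ : Additive (Gamma0 (N * q)) →+ A) :
    res1 N q A (cor1 N q A ψ)
      = ψ + UB (N * q) A (dvd_mul_left q N) (resAlong A (alG huv hq.ne_zero) ψ) := by
  refine AddMonoidHom.ext fun x => ?_
  exact cor1_incl huv hN hq hqN ψ (Additive.toMul x)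

omit huv in
/-- `U r₁ = r₁ T_q - r₂`. -/
theorem UB_res1 (hN : 0 < N) (hq : q.Prime) (hqN : ¬ q ∣ N) (φ : Additive (Gamma0 N) →+ A) :
    UB (N * q) A (dvd_mul_left q N) (res1 N q A φ)
      = res1 N q A (TB N A hq hqN φ) - res2 N q A φ := by
  obtain ⟨u, v, huv⟩ := exists_bezout hq hqN
  have h := res1_cor1 huv hN hq hqN (res2 N q A φ)
  rw [res_alG_res2] at h
  have e : cor1 N q A (res2 N q A φ) = TB N A hq hqN φ := Tcoh_eq_TB hN hq hqN φ
  rw [e] at h
  rw [h]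
  abel

omit huv in
/-- `U r₂ = q r₁`. -/
theorem UB_res2 (hN : 0 < N) (hq : q.Prime) (hqN : ¬ q ∣ N) (φ : Additive (Gamma0 N) →+ A) :
    UB (N * q) A (dvd_mul_left q N) (res2 N q A φ) = q • res1 N q A φ := by
  obtain ⟨u, v, huv⟩ := exists_bezout hq hqN
  have h := res1_cor1 huv hN hq hqN (res1 N q A φ)
  rw [res_alG_res1, cor1_res1 hN hq hqN] at h
  have e : res1 N q A ((q + 1) • φ) = (q + 1) • res1 N q A φ := rfl
  rw [e, add_smul, one_smul] at h
  have h2 : q • res1 N q A φ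
      = UB (N * q) A (dvd_mul_left q N) (res2 N q A φ) := by
    have := congrArg (fun t => t - res1 N q A φ) h
    simpa using this
  exact h2.symm

/-- `U = r₁ c₂ - w`. -/
theorem UB_eq_sub (hN : 0 < N) (hq : q.Prime) (hqN : ¬ q ∣ N)
    (ψ : Additive (Gamma0 (N * q)) →+ A) :
    UB (N * q) A (dvd_mul_left q N) ψ
      = res1 N q A (cor2 N q A ψ) - resAlong A (alG huv hq.ne_zero) ψ := by
  have h := res1_cor1 huv hN hq hqN (resAlong A (alG huv hq.ne_zero) ψ)
  rw [res_alG_alG, ← cor2_eq_cor1_alG huv hN hq hqN ψ] at h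
  rw [h]
  abel

/-- `U w = r₁ c₁ - 1`. -/
theorem UB_w (hN : 0 < N) (hq : q.Prime) (hqN : ¬ q ∣ N)
    (ψ : Additive (Gamma0 (N * q)) →+ A) :
    UB (N * q) A (dvd_mul_left q N) (resAlong A (alG huv hq.ne_zero) ψ)
      = res1 N q A (cor1 N q A ψ) - ψ := by
  rw [res1_cor1 huv hN hq hqN ψ]
  abel

omit huv in
/-- **`U² = 1 + r₁ T_q c₂ - r₂ c₂ - r₁ c₁`** at the level `N q`. -/
theorem UB_UB (hN : 0 < N) (hq : q.Prime) (hqN : ¬ q ∣ N)
    (ψ : Additive (Gamma0 (N * q)) →+ A) :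
    UB (N * q) A (dvd_mul_left q N) (UB (N * q) A (dvd_mul_left q N) ψ)
      = ψ + res1 N q A (TB N A hq hqN (cor2 N q A ψ)) - res2 N q A (cor2 N q A ψ)
        - res1 N q A (cor1 N q A ψ) := by
  obtain ⟨u, v, huv⟩ := exists_bezout hq hqN
  rw [UB_eq_sub huv hN hq hqN ψ, map_sub, UB_res1 hN hq hqN, UB_w huv hN hq hqN]
  abel

end Stage1

/-! ### The level `N q²` -/

section Stage2

variable {N q : ℕ} {A : Type*} [AddCommGroup A]

theorem mat_kap1 (κ : Gamma0 (N * q ^ 2)) : mat (kap1 N q κ) = mat κ := rfl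

theorem mat_kap2 (κ : Gamma0 (N * q ^ 2)) : mat (kap2 N q κ) = conjMat q (mat κ) := rfl

theorem incl_kap1 (κ : Gamma0 (N * q ^ 2)) : incl (N * q) (kap1 N q κ) = incl (N * q ^ 2) κ := rfl

theorem q_dvd_mat' (κ : Gamma0 (N * q ^ 2)) : (q : ℤ) ∣ mat κ 1 0 := by
  refine Dvd.dvd.trans ?_ (mat_dvd κ)
  exact ⟨(N : ℤ) * q, by push_cast; ring⟩

theorem Dq_Bmat' (q : ℕ) (j : ℤ) : Dq q * Bmat q j = (q : ℤ) • !![1, j; 0, 1] := by
  ext i k
  fin_cases i <;> fin_cases k <;>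
    simp [Dq, Bmat, Matrix.mul_apply, Fin.sum_univ_two]

/-- `kap2(κ) t_{x'} = t_x γ` when `B_x γ = κ B_{x'}`. -/
theorem kap2_rel (hq : q ≠ 0) {γ : Gamma0 (N * q)} {κ : Gamma0 (N * q ^ 2)} {x x' : ZMod q}
    (h : repU q x * incl (N * q) γ = incl (N * q ^ 2) κ * repU q x') :
    kap2 N q κ * tUp (N * q) (x'.val : ℤ) = tUp (N * q) (x.val : ℤ) * γ := by
  have hB : Bmat q (x.val : ℤ) * mat γ = mat κ * Bmat q (x'.val : ℤ) := by
    have h' : repU q x * incl (N * q) γ = incl (N * q) (kap1 N q κ) * repU q x' := h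
    exact Bmat_rel hq h'
  apply mat_injective
  rw [mat_mul, mat_mul, mat_kap2, mat_tUp, mat_tUp]
  apply smul_mat_cancel hq
  calc (q : ℤ) • (conjMat q (mat κ) * !![1, (x'.val : ℤ); 0, 1])
      = conjMat q (mat κ) * (Dq q * Bmat q (x'.val : ℤ)) := by
        rw [Dq_Bmat', Matrix.mul_smul]
    _ = (conjMat q (mat κ) * Dq q) * Bmat q (x'.val : ℤ) := by rw [Matrix.mul_assoc]
    _ = Dq q * (mat κ * Bmat q (x'.val : ℤ)) := by
        rw [conjMat_Dq (q_dvd_mat' κ), Matrix.mul_assoc]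
    _ = Dq q * (Bmat q (x.val : ℤ) * mat γ) := by rw [hB]
    _ = (Dq q * Bmat q (x.val : ℤ)) * mat γ := by rw [Matrix.mul_assoc]
    _ = (q : ℤ) • (!![1, (x.val : ℤ); 0, 1] * mat γ) := by rw [Dq_Bmat', Matrix.smul_mul]

theorem mat01_tUp_mul (M : ℕ) (m : ℤ) (g : Gamma0 M) :
    mat (tUp M m * g) 0 1 = mat g 0 1 + m * mat g 1 1 := by
  rw [mat_mul, mat_tUp]
  simp [Matrix.mul_apply, Fin.sum_univ_two]

theorem mat_tUp_inv (M : ℕ) (m : ℤ) : mat (tUp M m)⁻¹ = !![1, -m; 0, 1] := by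
  rw [H39.mat_inv, mat_tUp]
  simp

/-- The representatives `[[1, -x], [0, 1]]`, `x mod q`, of `Γ₀(N q) / kap2 (Γ₀(N q²))`. -/
theorem isReps_kap2 (hq : q.Prime) :
    IsReps (kap2 N q) (fun x : ZMod q => (tUp (N * q) (x.val : ℤ))⁻¹) := by
  haveI : NeZero q := ⟨hq.ne_zero⟩
  constructor
  · rintro i j ⟨h, hh⟩
    have h1 := congrArg (fun g : Gamma0 (N * q) => mat g 0 1) hh
    simp only [inv_inv] at h1
    rw [mat_kap2, mat01_tUp_mul, mat_tUp_inv] at h1
    simp only [conjMat, Matrix.of_apply, Matrix.cons_val', Matrix.cons_val_zero,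
      Matrix.cons_val_one, Matrix.empty_val', Matrix.cons_val_fin_one, mul_one] at h1
    have h4 : (q : ℤ) ∣ (j.val : ℤ) - (i.val : ℤ) := ⟨-(mat h 0 1), by linarith⟩
    have h5 := (ZMod.intCast_zmod_eq_zero_iff_dvd _ q).mpr h4
    push_cast at h5
    rw [ZMod.natCast_zmod_val, ZMod.natCast_zmod_val] at h5
    exact (sub_eq_zero.mp h5).symm
  · intro g
    have hdet := mat_det' g
    obtain ⟨c, hc⟩ : (q : ℤ) ∣ mat g 1 0 := q_dvd_of_mem_gamma0_mul g.2
    set i : ZMod q := -((mat g 0 1 : ℤ) : ZMod q) * ((mat g 0 0 : ℤ) : ZMod q) with hi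
    refine ⟨i, ?_⟩
    simp only [inv_inv]
    have hdvd : (q : ℤ) ∣ mat (tUp (N * q) (i.val : ℤ) * g) 0 1 := by
      rw [mat01_tUp_mul, ← ZMod.intCast_zmod_eq_zero_iff_dvd]
      push_cast
      rw [ZMod.natCast_zmod_val, hi]
      have hunit : ((mat g 0 0 : ℤ) : ZMod q) * ((mat g 1 1 : ℤ) : ZMod q) = 1 := by
        have : ((mat g 0 0 * mat g 1 1 - mat g 0 1 * mat g 1 0 : ℤ) : ZMod q) = 1 := by
          rw [hdet]; simp
        rw [hc] at this
        push_cast at this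
        simpa using this
      linear_combination (-((mat g 0 1 : ℤ) : ZMod q)) * hunit
    obtain ⟨h', hh'⟩ := exists_conjG_eq hq.ne_zero (tUp (N * q) (i.val : ℤ) * g) hdvd
    obtain ⟨h'', rfl⟩ := castG_surjective N q h'
    exact ⟨h'', hh'⟩

theorem finiteIndex_kap2 (hq : q.Prime) : (kap2 N q).range.FiniteIndex := by
  haveI : NeZero q := ⟨hq.ne_zero⟩
  exact (isReps_kap2 (N := N) hq).finiteIndex

/-- The explicit formula for the transfer along `kap2`. -/
theorem cor_kap2_apply (hq : q.Prime) (ψ : Additive (Gamma0 (N * q ^ 2)) →+ A)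
    (γ : Gamma0 (N * q)) (σ : Equiv.Perm (ZMod q)) (κ : ZMod q → Gamma0 (N * q ^ 2))
    (h : ∀ x, repU q x * incl (N * q) γ = incl (N * q ^ 2) (κ x) * repU q (σ x)) :
    haveI : NeZero q := ⟨hq.ne_zero⟩
    corAlong A (kap2 N q) ψ (Additive.ofMul γ) = ∑ x, ψ (Additive.ofMul (κ x)) := by
  haveI : NeZero q := ⟨hq.ne_zero⟩
  rw [corAlong_eq_sum (kap2 N q) (kap2_injective N q hq.ne_zero) _ (isReps_kap2 hq) ψ γ
    (fun i => σ.symm i) (fun i => κ (σ.symm i)) ?_]
  · exact Equiv.sum_comp σ.symm (fun x => ψ (Additive.ofMul (κ x)))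
  · intro i
    have h1 := kap2_rel hq.ne_zero (h (σ.symm i))
    rw [Equiv.apply_symm_apply] at h1
    show γ * (tUp (N * q) (i.val : ℤ))⁻¹
      = (tUp (N * q) ((σ.symm i).val : ℤ))⁻¹ * kap2 N q (κ (σ.symm i))
    rw [eq_inv_mul_iff_mul_eq, ← mul_assoc, ← h1, mul_inv_cancel_right]

/-- **`U_q(N q²) = R₁ K₂`.** -/
theorem UB_eq_res_cor [NeZero (N * q ^ 2)] (hq : q.Prime) (hd : q ∣ N * q ^ 2)
    (ψ : Additive (Gamma0 (N * q ^ 2)) →+ A) :
    UB (N * q ^ 2) A hd ψ = resAlong A (kap1 N q) (corAlong A (kap2 N q) ψ) := by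
  haveI : NeZero q := ⟨hq.ne_zero⟩
  refine AddMonoidHom.ext fun γ' => ?_
  obtain ⟨γ, rfl⟩ : ∃ g : Gamma0 (N * q ^ 2), Additive.ofMul g = γ' := ⟨Additive.toMul γ', rfl⟩
  set HU := isHeckeFamily_U (N * q ^ 2) hd with hHU
  rw [resAlong_apply, cor_kap2_apply hq ψ (kap1 N q γ) (HU.permEquiv (incl_injective _) γ)
    (fun x => HU.kap γ x) (fun x => HU.rep_mul γ x), UB_apply_apply]

/-- an element of `Γ₀(N q)` with lower left entry divisible by `N q²`, in `Γ₀(N q²)` -/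
def liftK (g : Gamma0 (N * q)) (h : ((N * q ^ 2 : ℕ) : ℤ) ∣ mat g 1 0) : Gamma0 (N * q ^ 2) :=
  ⟨(g : SL(2, ℤ)), mem_Gamma0_of_dvd h⟩

theorem kap1_liftK (g : Gamma0 (N * q)) (h : ((N * q ^ 2 : ℕ) : ℤ) ∣ mat g 1 0) :
    kap1 N q (liftK g h) = g := rfl

theorem kap_dvd [NeZero (N * q)] (hq : q.Prime) (hd : q ∣ N * q) (γ : Gamma0 (N * q))
    (x : ZMod q) :
    haveI : NeZero q := ⟨hq.ne_zero⟩
    ((N * q ^ 2 : ℕ) : ℤ) ∣ mat ((isHeckeFamily_U (N * q) hd).kap γ x) 1 0 := by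
  haveI : NeZero q := ⟨hq.ne_zero⟩
  have hB := Bmat_rel hq.ne_zero ((isHeckeFamily_U (N * q) hd).rep_mul γ x)
  have h10 := congrFun (congrFun hB 1) 0
  simp only [Bmat, Matrix.mul_apply, Fin.sum_univ_two, Matrix.of_apply, Matrix.cons_val',
    Matrix.cons_val_zero, Matrix.cons_val_one, Matrix.empty_val', Matrix.cons_val_fin_one,
    zero_mul, zero_add, mul_one, mul_zero, add_zero] at h10
  obtain ⟨c, hc⟩ := mat_dvd γ
  rw [← h10, hc]
  exact ⟨c, by push_cast; ring⟩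

/-- **`U_q(N q) = K₂ R₁`.** -/
theorem UB_eq_cor_res [NeZero (N * q)] (hq : q.Prime) (hd : q ∣ N * q)
    (φ : Additive (Gamma0 (N * q)) →+ A) :
    UB (N * q) A hd φ = corAlong A (kap2 N q) (resAlong A (kap1 N q) φ) := by
  haveI : NeZero q := ⟨hq.ne_zero⟩
  refine AddMonoidHom.ext fun γ' => ?_
  obtain ⟨γ, rfl⟩ : ∃ g : Gamma0 (N * q), Additive.ofMul g = γ' := ⟨Additive.toMul γ', rfl⟩
  set HU := isHeckeFamily_U (N * q) hd with hHU
  rw [cor_kap2_apply hq _ γ (HU.permEquiv (incl_injective _) γ)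
    (fun x => liftK (HU.kap γ x) (kap_dvd hq hd γ x)) (fun x => HU.rep_mul γ x), UB_apply_apply]
  rfl

theorem j2_eq' : j2 N q = (inclG N q).comp (kap2 N q) := rfl

/-- `C₂ = c₁ K₂`. -/
theorem corC2_eq (hN : 0 < N) (hq : q.Prime) (hqN : ¬ q ∣ N)
    (ψ : Additive (Gamma0 (N * q ^ 2)) →+ A) :
    corC2 N q A ψ = cor1 N q A (corAlong A (kap2 N q) ψ) := by
  have := finiteIndex_kap2 (N := N) hq
  have := finiteIndex_inclG hN hq hqN
  unfold corC2 cor1
  rw [j2_eq', corAlong_comp (kap2 N q) (inclG N q) (kap2_injective N q hq.ne_zero)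
    (inclG_injective N q)]

/-- `C₃ = c₂ K₂`. -/
theorem corC3_eq (hN : 0 < N) (hq : q.Prime)
    (ψ : Additive (Gamma0 (N * q ^ 2)) →+ A) :
    corC3 N q A ψ = cor2 N q A (corAlong A (kap2 N q) ψ) := by
  have := finiteIndex_kap2 (N := N) hq
  have := Fermat.Agent.S41.H94.finiteIndex_range_conjG N q hN.ne' hq.ne_zero
  unfold corC3 cor2
  rw [j3_eq, corAlong_comp (kap2 N q) (conjG N q) (kap2_injective N q hq.ne_zero)
    (conjG_injective N q hq.ne_zero)]

/-- **REL4**: `U³ - U = A₁ T_q C₃ - A₁ C₂ - A₂ C₃`. -/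
theorem rel4 [NeZero (N * q ^ 2)] (hN : 0 < N) (hq : q.Prime) (hqN : ¬ q ∣ N)
    (hd : q ∣ N * q ^ 2) (ψ : Additive (Gamma0 (N * q ^ 2)) →+ A) :
    UB (N * q ^ 2) A hd (UB (N * q ^ 2) A hd (UB (N * q ^ 2) A hd ψ)) - UB (N * q ^ 2) A hd ψ
      = resA1 N q A (TB N A hq hqN (corC3 N q A ψ)) - resA1 N q A (corC2 N q A ψ)
        - resA2 N q A (corC3 N q A ψ) := by
  haveI : NeZero (N * q) := ⟨Nat.mul_ne_zero hN.ne' hq.ne_zero⟩
  have hd' : q ∣ N * q := dvd_mul_left q N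
  set χ := corAlong A (kap2 N q) ψ with hχ
  have e1 : UB (N * q ^ 2) A hd ψ = resAlong A (kap1 N q) χ := UB_eq_res_cor hq hd ψ
  have e2 : ∀ φ : Additive (Gamma0 (N * q)) →+ A,
      UB (N * q ^ 2) A hd (resAlong A (kap1 N q) φ)
        = resAlong A (kap1 N q) (UB (N * q) A hd' φ) := by
    intro φ
    rw [UB_eq_res_cor hq hd, ← UB_eq_cor_res hq hd']
  rw [e1, e2, e2, UB_UB hN hq hqN χ, corC2_eq hN hq hqN, corC3_eq hN hq, ← hχ, resA1_eq,
    resA1_eq, resA2_eq]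
  simp only [resAlong_add', resAlong_sub']
  abel

end Stage2

end Fermat.Agent.S59.NonMin.Geom.H98

end
-- ==== END Fermat.Agent.S59.NonMin.Geom.H98_Rel4

-- ==== BEGIN Fermat.Agent.S59.NonMin.H90_StepAux
section

/-!
# S59, RT-NONMIN, leaf STEP (helper90): auxiliary lemmas

* `intertwine_of_gen_left` : extension from generators of `α (ηhat (res t) v) = ηhat' t (α v)`.
* `map_trace_of_isEquiv`  : the image of the trace under a classifying map, from the
                            characteristic polynomial of the target.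
* `compat_of_bijective`   : `res ∘ φ' = φ ∘ τ` when `φ` is bijective (uniqueness in the universal
                            property of `D'` with target `D.R`).
-/

set_option autoImplicit false
set_option linter.unusedSectionVars false
set_option linter.unusedVariables false
set_option linter.style.haveILetI false

open Polynomial IsLocalRing

namespace Fermat.Agent.S59.NonMin.H90

open Fermat.Agent.S59 Fermat.Agent.S59.Asm

section Ext

variable {𝒪 T T' : Type} [CommRing 𝒪] [CommRing T] [Algebra 𝒪 T] [CommRing T'] [Algebra 𝒪 T']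
  {V V' : Type} [AddCommGroup V] [Module 𝒪 V] [AddCommGroup V'] [Module 𝒪 V']
  {ι : Type} {g : ι → T'} (hadj : Algebra.adjoin 𝒪 (Set.range g) = ⊤)
  (ηhat : T →ₐ[𝒪] Module.End 𝒪 V) (ηhat' : T' →ₐ[𝒪] Module.End 𝒪 V') (res : T' →ₐ[𝒪] T)

include hadj

theorem intertwine_of_gen_left (α : V →ₗ[𝒪] V')
    (h : ∀ i v, α (ηhat (res (g i)) v) = ηhat' (g i) (α v)) (t : T') :
    ∀ v, α (ηhat (res t) v) = ηhat' t (α v) := by
  refine adjoin_top_induction (𝒪 := 𝒪)
    (P := fun t => ∀ v, α (ηhat (res t) v) = ηhat' t (α v)) hadj ?_ ?_ ?_ ?_ t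
  · rintro _ ⟨i, rfl⟩
    exact h i
  · intro a v
    rw [AlgHom.commutes, AlgHom.commutes, AlgHom.commutes, Module.algebraMap_end_apply,
      Module.algebraMap_end_apply, map_smul]
  · intro x y hx hy v
    rw [map_add, map_add, LinearMap.add_apply, map_add, hx, hy, map_add, LinearMap.add_apply]
  · intro x y hx hy v
    rw [map_mul, map_mul, Module.End.mul_apply, hx, hy, map_mul, Module.End.mul_apply]

theorem intertwine_of_gen_right (α' : V' →ₗ[𝒪] V)
    (h : ∀ i w, α' (ηhat' (g i) w) = ηhat (res (g i)) (α' w)) (t : T') :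
    ∀ w, α' (ηhat' t w) = ηhat (res t) (α' w) := by
  refine adjoin_top_induction (𝒪 := 𝒪)
    (P := fun t => ∀ w, α' (ηhat' t w) = ηhat (res t) (α' w)) hadj ?_ ?_ ?_ ?_ t
  · rintro _ ⟨i, rfl⟩
    exact h i
  · intro a v
    rw [AlgHom.commutes, AlgHom.commutes, AlgHom.commutes, Module.algebraMap_end_apply,
      Module.algebraMap_end_apply, map_smul]
  · intro x y hx hy v
    rw [map_add, LinearMap.add_apply, map_add, hx, hy, map_add, map_add, LinearMap.add_apply]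
  · intro x y hx hy v
    rw [map_mul, Module.End.mul_apply, hx, hy, map_mul, map_mul, Module.End.mul_apply]

end Ext

/-- The image of the trace of `ρ(σ)` under `f`, when the base change along `f` is equivalent to
`ρ'` and `ρ'(σ)` has characteristic polynomial `X² - t X + d`. -/
theorem map_trace_of_isEquiv {A B : Type} [CommRing A] [IsLocalRing A] [CommRing B]
    [IsLocalRing B] (f : A →+* B) (hf : IsLocalHom f) (ρ : GaloisRepAdic A)
    (ρ' : GaloisRepAdic B) (he : (ρ.baseChangeAlong f hf).IsEquiv ρ') (σ : GalQ) {t d : B}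
    (h : LinearMap.charpoly (ρ'.ρ σ) = X ^ 2 - C t * X + C d) :
    f (ρ.trace σ) = t := by
  have h1 : (LinearMap.charpoly (ρ.ρ σ)).map f = X ^ 2 - C t * X + C d := by
    rw [← charpoly_bcAlong f hf ρ σ, charpoly_of_isEquiv he σ, h]
  rw [Fermat.Agent.R.H91.charpoly_eq_of_finrank_two ρ.finrank_eq] at h1
  have h2 := congrArg (fun q : B[X] => q.coeff 1) h1
  simp only [Polynomial.map_add, Polynomial.map_sub, Polynomial.map_mul, Polynomial.map_pow,
    Polynomial.map_X, Polynomial.map_C, coeff_add, coeff_sub, coeff_X_pow, coeff_C_mul,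
    coeff_X_one, coeff_C, mul_one] at h2
  norm_num at h2
  exact h2

/-- **COMPAT for a bijective `φ`**: `res ∘ φ' = φ ∘ τ`, by the uniqueness in the universal
property of `D'` with target `D.R` (no condition on the representation over `T` is needed). -/
theorem compat_of_bijective {𝒪 : Type} [CommRing 𝒪] [IsDomain 𝒪] [IsDiscreteValuationRing 𝒪]
    [IsAdicComplete (maximalIdeal 𝒪) 𝒪]
    (ρbar : ResidualGaloisRep (ResidueField 𝒪))
    (𝒟 𝒟' : ∀ ⦃A : Type⦄ [CommRing A] [IsLocalRing A] [Algebra 𝒪 A], GaloisRepAdic A → Prop)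
    (D : GaloisRep.DeformationRingData 𝒪 ρbar 𝒟)
    (D' : GaloisRep.DeformationRingData 𝒪 ρbar 𝒟')
    (hmono : 𝒟' D.ρ)
    {T : Type} [CommRing T] [IsLocalRing T] [Algebra 𝒪 T] [IsLocalHom (algebraMap 𝒪 T)]
    {T' : Type} [CommRing T'] [IsLocalRing T'] [Algebra 𝒪 T'] [Module.Finite 𝒪 T']
    [IsLocalHom (algebraMap 𝒪 T')]
    (ρT : GaloisRepAdic T) (ρT' : GaloisRepAdic T')
    (τ : D'.R →ₐ[𝒪] D.R) (hτl : IsLocalHom (τ : D'.R →+* D.R))
    (hτe : (D'.ρ.baseChangeAlong (τ : D'.R →+* D.R) hτl).IsEquiv D.ρ)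
    (φ : D.R →ₐ[𝒪] T) (hφb : Function.Bijective φ) (hφ : IsLocalHom (φ : D.R →+* T))
    (hφe : (D.ρ.baseChangeAlong (φ : D.R →+* T) hφ).IsEquiv ρT)
    (φ' : D'.R →ₐ[𝒪] T') (hφ' : IsLocalHom (φ' : D'.R →+* T'))
    (hφ'e : (D'.ρ.baseChangeAlong (φ' : D'.R →+* T') hφ').IsEquiv ρT')
    (res : T' →ₐ[𝒪] T) (S' : Finset ℕ)
    (hfrob : ∀ ℓ : ℕ, ℓ.Prime → ℓ ∉ S' → ∀ B : ValuationSubring (AlgebraicClosure ℚ),
      B.LiesOverPrime ℓ → ∀ σ : GalQ, B.IsFrobeniusAt σ ℓ →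
        (LinearMap.charpoly (ρT'.ρ σ)).map (res : T' →+* T) = LinearMap.charpoly (ρT.ρ σ)) :
    res.comp φ' = φ.comp τ := by
  let e : D.R ≃ₐ[𝒪] T := AlgEquiv.ofBijective φ hφb
  let ψ : T →ₐ[𝒪] D.R := (e.symm : T →ₐ[𝒪] D.R)
  have hφψ : ∀ y : T, φ (ψ y) = y := fun y => e.apply_symm_apply y
  have hψφ : ∀ y : D.R, ψ (φ y) = y := fun y => e.symm_apply_apply y
  have hψl : IsLocalHom (ψ : T →+* D.R) := by
    constructor
    intro y hy
    have h1 : IsUnit ((φ : D.R →+* T) ((ψ : T →+* D.R) y)) := hy.map (φ : D.R →+* T)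
    have h2 : (φ : D.R →+* T) ((ψ : T →+* D.R) y) = y := hφψ y
    rw [h2] at h1
    exact h1
  have hresl : IsLocalHom (res : T' →+* T) := isLocalHom_of_finite (𝒪 := 𝒪) res
  have h₀ : IsLocalHom ((res.comp φ' : D'.R →ₐ[𝒪] T) : D'.R →+* T) :=
    H77.isLocalHom_comp_algHom res φ' hresl hφ'
  have h₁ : IsLocalHom ((ψ.comp (res.comp φ') : D'.R →ₐ[𝒪] D.R) : D'.R →+* D.R) :=
    H77.isLocalHom_comp_algHom ψ (res.comp φ') hψl h₀
  have key : ψ.comp (res.comp φ') = τ := by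
    refine H57.stmt_COMPAT 𝒪 ρbar 𝒟' D' D.R D.residue_surjective D.ρ hmono D.residual_isEquiv
      (ψ.comp (res.comp φ')) τ h₁ hτl S' ?_ hτe
    intro ℓ hℓ hℓS B hB σ hσ
    have h1 : (LinearMap.charpoly (D'.ρ.ρ σ)).map (φ' : D'.R →+* T')
        = LinearMap.charpoly (ρT'.ρ σ) := by
      rw [← charpoly_bcAlong (φ' : D'.R →+* T') hφ' D'.ρ σ, charpoly_of_isEquiv hφ'e σ]
    have h2 : (LinearMap.charpoly (D.ρ.ρ σ)).map (φ : D.R →+* T)
        = LinearMap.charpoly (ρT.ρ σ) := by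
      rw [← charpoly_bcAlong (φ : D.R →+* T) hφ D.ρ σ, charpoly_of_isEquiv hφe σ]
    have h3 : ((ψ.comp (res.comp φ') : D'.R →ₐ[𝒪] D.R) : D'.R →+* D.R)
        = ((ψ : T →+* D.R).comp (res : T' →+* T)).comp (φ' : D'.R →+* T') := rfl
    have h4 : (ψ : T →+* D.R).comp (φ : D.R →+* T) = RingHom.id D.R :=
      RingHom.ext fun y => hψφ y
    rw [charpoly_bcAlong, h3, ← Polynomial.map_map, h1, ← Polynomial.map_map,
      hfrob ℓ hℓ hℓS B hB σ hσ, ← h2, Polynomial.map_map, h4, Polynomial.map_id]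
  refine AlgHom.ext fun y => ?_
  have h5 : ψ (res (φ' y)) = τ y := congrArg (fun f : D'.R →ₐ[𝒪] D.R => f y) key
  show res (φ' y) = φ (τ y)
  rw [← h5, hφψ]

end Fermat.Agent.S59.NonMin.H90

end
-- ==== END Fermat.Agent.S59.NonMin.H90_StepAux

-- ==== BEGIN Fermat.Agent.S59.NonMin.H90_StepEigen
section

/-!
# S59, RT-NONMIN, leaf STEP (helper90): eigenspaces

* `level_facts`                   : arithmetic of the level `N q²`.
* `torsP_eq_eigen`                : `V[𝔭] = M[x]` (the eigenspace of a state).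
* `finrank_eigen_le_of_injective` : an injective equivariant map does not decrease the rank of
                                    the eigenspaces.
* `comp_eq_smul_of_mem_torsP`     : `α' (α v) = (u · x (c_q)) • v` on `V[𝔭]`.
-/

set_option autoImplicit false
set_option linter.unusedSectionVars false
set_option linter.unusedVariables false
set_option linter.style.haveILetI false

open Polynomial CuspForm IsLocalRing

namespace Fermat.Agent.S59.NonMin.H90

open Fermat.Agent.S59 Fermat.Agent.S59.Asm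

/-- arithmetic of the level `N q²` -/
theorem level_facts {N q : ℕ} (hq : q.Prime) :
    (∀ q' : ℕ, q'.Prime → q' ∣ N * q ^ 2 → q' ∣ N ∨ q' = q) ∧
    (∀ q' : ℕ, q'.Prime → q' ≠ q → q' ^ 2 ∣ N * q ^ 2 → q' ^ 2 ∣ N) := by
  refine ⟨fun q' hq' h => ?_, fun q' hq' hne h => ?_⟩
  · rcases (Nat.Prime.dvd_mul hq').mp h with h1 | h1
    · exact Or.inl h1
    · exact Or.inr ((Nat.prime_dvd_prime_iff_eq hq' hq).mp (hq'.dvd_of_dvd_pow h1))
  · have hc : Nat.Coprime (q' ^ 2) (q ^ 2) :=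
      Nat.Coprime.pow 2 2 ((Nat.coprime_primes hq' hq).mpr hne)
    exact hc.dvd_of_dvd_mul_right h

section eigen

variable {𝒪 : Type} [CommRing 𝒪] [IsDomain 𝒪] [IsDiscreteValuationRing 𝒪]
  [IsAdicComplete (maximalIdeal 𝒪) 𝒪]

/-- `V[𝔭]` is the eigenspace of the character. -/
theorem torsP_eq_eigen (s : NMState 𝒪)
    (x : CuspForm.heckeAlgebra s.N 2 (↑s.S : Set ℕ) →+* 𝒪)
    (ηhat : CuspForm.heckeLocal s.N (↑s.S : Set ℕ) 𝒪 s.θ →ₐ[𝒪] Module.End 𝒪 s.M.V)
    (πx : CuspForm.heckeLocal s.N (↑s.S : Set ℕ) 𝒪 s.θ →ₐ[𝒪] 𝒪)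
    (hadj : Algebra.adjoin 𝒪 (Set.range (CuspForm.heckeLocal.π s.N (↑s.S : Set ℕ) 𝒪 s.θ)) = ⊤)
    (hηhat : ∀ t, ηhat (CuspForm.heckeLocal.π s.N (↑s.S : Set ℕ) 𝒪 s.θ t) = s.M.η t)
    (hπx : ∀ t, πx (CuspForm.heckeLocal.π s.N (↑s.S : Set ℕ) 𝒪 s.θ t) = x t) :
    torsP ηhat πx = s.eigen x := by
  ext v
  rw [mem_torsP_iff_of_adjoin hadj, NMState.mem_eigen]
  constructor
  · intro h t
    rw [← hηhat, ← hπx]
    exact h t
  · intro h t
    rw [hηhat, hπx]
    exact h t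

/-- an injective Hecke-equivariant map does not decrease the rank of the eigenspaces -/
theorem finrank_eigen_le_of_injective (s s' : NMState 𝒪)
    (rest : CuspForm.heckeAlgebra s'.N 2 (↑s'.S : Set ℕ) →+*
      CuspForm.heckeAlgebra s.N 2 (↑s.S : Set ℕ))
    (x : CuspForm.heckeAlgebra s.N 2 (↑s.S : Set ℕ) →+* 𝒪)
    (α : s.M.V →ₗ[𝒪] s'.M.V) (hα : ∀ t v, α (s.M.η (rest t) v) = s'.M.η t (α v))
    (hinj : Function.Injective α) :
    Module.finrank 𝒪 (s.eigen x) ≤ Module.finrank 𝒪 (s'.eigen (x.comp rest)) := by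
  have hmaps : ∀ v ∈ s.eigen x, α v ∈ s'.eigen (x.comp rest) := by
    intro v hv
    rw [NMState.mem_eigen] at hv ⊢
    intro t
    show s'.M.η t (α v) = x (rest t) • α v
    rw [← hα t v, hv (rest t), map_smul]
  refine LinearMap.finrank_le_finrank_of_injective (f := α.restrict hmaps) ?_
  intro a b hab
  apply Subtype.ext
  apply hinj
  exact congrArg Subtype.val hab

/-- the value of a character on `c_q` -/
theorem map_cq (N : ℕ) [NeZero N] (S : Set ℕ) {q : ℕ} (hq : q.Prime) (hqN : ¬ q ∣ N)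
    (hqS : q ∉ S) (x : CuspForm.heckeAlgebra N 2 S →+* 𝒪) :
    x (cq N S hq hqN hqS)
      = ((q : 𝒪) - 1) * (x (CuspForm.heckeAlgebra.T hq hqN hqS) ^ 2 - ((q : 𝒪) + 1) ^ 2) := by
  unfold cq
  rw [map_mul, map_sub, map_sub, map_pow, map_pow, map_add, map_natCast, map_one]

/-- `α' ∘ α` is the scalar `u · x (c_q)` on the eigenspace of `x`. -/
theorem comp_eq_smul_of_mem_eigen (s : NMState 𝒪) {q : ℕ} (hq : q.Prime) (hqN : ¬ q ∣ s.N)
    (hqS : q ∉ (↑s.S : Set ℕ)) [NeZero (s.N * q ^ 2)] (st : NMStep s hq hqN hqS)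
    (x : CuspForm.heckeAlgebra s.N 2 (↑s.S : Set ℕ) →+* 𝒪) (v : s.M.V) (hv : v ∈ s.eigen x) :
    st.α' (st.α v) = ((st.u : 𝒪) * (((q : 𝒪) - 1) *
      (x (CuspForm.heckeAlgebra.T hq hqN hqS) ^ 2 - ((q : 𝒪) + 1) ^ 2))) • v := by
  rw [NMState.mem_eigen] at hv
  rw [st.comp v, hv, map_cq, smul_smul]

end eigen

end Fermat.Agent.S59.NonMin.H90

end
-- ==== END Fermat.Agent.S59.NonMin.H90_StepEigen

-- ==== BEGIN Fermat.Agent.S59.TRes.H49_TRES
section

/-!
# S59, leaf TRES (helper49): `Stmt_TRESloc` and `Asm.Stmt_TRES`, unconditional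

* `stmt_TRESloc : Stmt_TRESloc` (contraction route, `NOTES/plan/S59_TRES.md` par. 2).
* `stmt_TRES : Asm.Stmt_TRES` through helper8's wire `H8.stmt_TRESwire`.
-/

set_option autoImplicit false

namespace Fermat.Agent.S59.TRes.H49

/-- **TRES, local form.** -/
theorem stmt_TRESloc : Stmt_TRESloc := tresloc_of stmt_CYC stmt_DISC stmt_E1STAB

/-- **TRES.** -/
theorem stmt_TRES : Fermat.Agent.S59.Asm.Stmt_TRES :=
  Fermat.Agent.S59.TRes.H8.stmt_TRESwire stmt_TRESloc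

end Fermat.Agent.S59.TRes.H49

end
-- ==== END Fermat.Agent.S59.TRes.H49_TRES
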