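-- GENERATED (merged mirror, NOTES/tools/trim/merge3_helper67.py): 8 modules of the originals, bodies verbatim.
import Mathlib
import Fermat.Agent.Zm.S59_L07_000
import Fermat.Agent.RED.H17_Red
import Fermat.Agent.Zm.S59_L07_001
import Fermat.Agent.Zm.S59_L06_001
import Fermat.Agent.Zm.S59_L06_000
import Fermat.Agent.Zm.S59_L03_000
import Fermat.Agent.Zm.S59_L05_001
import Fermat.Agent.Zm.S59_L04_002
import Fermat.Agent.Zm.S43_L09_001
import Fermat.Agent.Zm.S59_L01_002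
import Fermat.Agent.Zm.S44_L01_004
import Fermat.Agent.Zm.S36_L18_000
import Fermat.Agent.Zm.S59_L07_002
import Fermat.Agent.Zm.S36_L02_002
import Fermat.Agent.Zm.S59_L05_003
import Fermat.Agent.Zm.S59_L03_002
import Fermat.Agent.Zm.S15_L02_000
import Fermat.Agent.Zm.S36_L02_001

-- ==== BEGIN Fermat.Agent.S27.CharP.H52_Cnt
section

/-!
# S27, characteristic-`p` half (helper52): leaf CNT, the counting axiom

`cnt_of : Stmt_H90A → Stmt_H90B → Stmt_Cnt`: an invariant class `[D]` contains exactly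
`(Q ^ l(D) - 1) / (Q - 1)` invariant effective divisors.
-/

set_option autoImplicit false
set_option linter.style.haveILetI false
set_option linter.unusedSectionVars false

noncomputable section

open AlgebraicCurve

namespace Fermat.Agent.S27.CharP.H52

open Fermat.Agent.RED.H17 Fermat.Agent.RED

universe u v

local notation "L" => riemannRochSpace

/-- Removing one element from a type of cardinality `n > 0`. -/
theorem card_subtype_and_ne {α : Type*} (P : α → Prop) (a : α) (ha : P a) {n : ℕ}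
    (hn : Nat.card {x : α // P x} = n) (hn0 : n ≠ 0) :
    Nat.card {x : α // P x ∧ x ≠ a} = n - 1 := by
  have h1 : ({x : α | P x} : Set α).ncard = n := by
    rw [← Nat.card_coe_set_eq]
    exact hn
  have hfin : ({x : α | P x} : Set α).Finite := Set.finite_of_ncard_ne_zero (by rw [h1]; exact hn0)
  have h2 := Set.ncard_sdiff_singleton_of_mem (s := {x : α | P x}) (a := a) ha
  rw [h1] at h2
  rw [← h2, ← Nat.card_coe_set_eq]
  refine Nat.card_congr (Equiv.subtypeEquivRight fun x => ?_)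
  rw [Set.mem_sdiff, Set.mem_singleton_iff]
  rfl

section

variable {k : Type u} {F : Type v} [Field k] [Field F] [Algebra k F]

/-- `φ (div f) = div (φ f)`. -/
theorem smul_dv (hP : HasPrincipalDivisors k F) (φ : SemilinearAut k F) (f : F) :
    φ • dv hP f = dv hP (φ • f) := by
  ext w
  rw [SemilinearAut.divisor_smul_apply, dv_apply, dv_apply]
  have h := SemilinearAut.ord_smul φ (φ⁻¹ • w) f
  rw [smul_inv_smul] at h
  exact h.symm

theorem dv_smul_const (hP : HasPrincipalDivisors k F) {a : k} (ha : a ≠ 0) (f : F) :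
    dv hP (a • f) = dv hP f := by
  ext w
  rw [dv_apply, dv_apply, Algebra.smul_def, ord_algebraMap_mul w ha]

theorem add_dv_nonneg (hP : HasPrincipalDivisors k F) {D : Divisor k F} {f : F}
    (hf : f ∈ L D) (hf0 : f ≠ 0) : 0 ≤ D + dv hP f := by
  rw [Finsupp.le_def]
  intro v
  have := ord_ge_of_mem_L hf hf0 v
  rw [Finsupp.add_apply, dv_apply]
  simp only [Finsupp.coe_zero, Pi.zero_apply]
  omega

theorem mem_L_of_add_dv_nonneg (hP : HasPrincipalDivisors k F) {D : Divisor k F} {f : F}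
    (h : 0 ≤ D + dv hP f) : f ∈ L D := by
  rw [mem_L_iff_ord]
  intro v
  right
  have := Finsupp.le_def.mp h v
  rw [Finsupp.add_apply, dv_apply] at this
  simp only [Finsupp.coe_zero, Pi.zero_apply] at this
  omega

/-- Two functions with the same divisor differ by a constant. -/
theorem exists_const_of_dv_eq (H : FFHyp k F) {f f₀ : F} (hf : f ≠ 0) (hf₀ : f₀ ≠ 0)
    (h : dv H.principal f = dv H.principal f₀) : ∃ a : k, a ≠ 0 ∧ f = a • f₀ := by
  have hreg : ∀ v : Place k F, 0 ≤ v.ord (f / f₀) := by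
    intro v
    have := DFunLike.congr_fun h v
    rw [dv_apply, dv_apply] at this
    rw [H17.ord_div v hf hf₀, this, sub_self]
  obtain ⟨a, ha⟩ := H.const_of_regular hreg
  have ha0 : a ≠ 0 := by
    rintro rfl
    rw [map_zero] at ha
    exact div_ne_zero hf hf₀ ha
  refine ⟨a, ha0, ?_⟩
  rw [Algebra.smul_def, ← ha, div_mul_cancel₀ _ hf₀]

end

/-- The number of nonzero solutions of `a ^ Q = a`. -/
theorem card_units_fix {k : Type u} [Field k] [IsAlgClosed k] (p : ℕ) [Fact p.Prime]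
    [CharP k p] (m : ℕ) (hm : 0 < m) :
    Nat.card {a : k // a ^ (p ^ m) = a ∧ a ≠ 0} = p ^ m - 1 := by
  have hp : 0 < p ^ m := Nat.pos_of_ne_zero (pow_ne_zero _ (Fact.out : p.Prime).ne_zero)
  exact card_subtype_and_ne (fun a : k => a ^ (p ^ m) = a) 0 (zero_pow hp.ne')
    (card_pow_eq_self p m hm) hp.ne'

/-- **CNT for an invariant divisor.** -/
theorem cnt_inv (h90b : Stmt_H90B.{u, v}) (k : Type u) (F : Type v) [Field k] [Field F]
    [Algebra k F] [IsAlgClosed k] (p : ℕ) [CharP k p] (hp : p.Prime) (H : FFHyp k F) (Q : ℕ)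
    (φ : SemilinearAut k F) (hφ : IsFrob p Q φ) (D : Divisor k F) (hD : φ • D = D) :
    Nat.card {E : Divisor k F // 0 ≤ E ∧ φ • E = E ∧
        E - D ∈ Divisor.principal (K := k) (F := F)} * (Q - 1)
      = Q ^ Module.finrank k (L D) - 1 := by
  classical
  haveI : Fact p.Prime := ⟨hp⟩
  have hP := H.principal
  obtain ⟨m, hm, hQ⟩ := hφ.pow
  -- the three sets
  set X := {E : Divisor k F // 0 ≤ E ∧ φ • E = E ∧
    E - D ∈ Divisor.principal (K := k) (F := F)} with hX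
  set U := {a : k // a ^ Q = a ∧ a ≠ 0} with hU
  set Y := {f : F // (f ∈ L D ∧ φ • f = f) ∧ f ≠ 0} with hY
  have hcardU : Nat.card U = Q - 1 := by
    rw [hU, hQ]
    exact card_units_fix p m hm
  have hcardY : Nat.card Y = Q ^ Module.finrank k (L D) - 1 := by
    have h1 := stmt_DescL k F p hp H Q φ hφ D hD
    have hQ0 : Q ≠ 0 := by
      rw [hQ]
      exact pow_ne_zero _ hp.ne_zero
    exact card_subtype_and_ne (fun f : F => f ∈ L D ∧ φ • f = f) 0
      ⟨Submodule.zero_mem _, smul_zero φ⟩ h1 (pow_ne_zero _ hQ0)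
  -- every invariant effective divisor of the class comes from an invariant function
  have hsurj : ∀ E : X, ∃ f : Y, D + dv hP (f : F) = (E : Divisor k F) := by
    rintro ⟨E, hE0, hEφ, f, hf0, hf⟩
    have hdv : dv hP f = E - D := by
      ext w
      rw [dv_apply, hf w]
    have hinv : ∀ v : Place k F, v.ord (φ • f) = v.ord f := by
      intro v
      have h1 : dv hP (φ • f) = dv hP f := by
        rw [← smul_dv, hdv, smul_sub, hEφ, hD]
      have := DFunLike.congr_fun h1 v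
      rwa [dv_apply, dv_apply] at this
    obtain ⟨c, hc0, hc⟩ := h90b k F p hp H Q φ hφ f hf0 hinv
    have hcf0 : algebraMap k F c * f ≠ 0 :=
      mul_ne_zero ((map_ne_zero_iff _ (algebraMap k F).injective).mpr hc0) hf0
    have hdv' : dv hP (algebraMap k F c * f) = E - D := by
      rw [← Algebra.smul_def, dv_smul_const hP hc0, hdv]
    have hE : D + dv hP (algebraMap k F c * f) = E := by rw [hdv']; abel
    refine ⟨⟨algebraMap k F c * f, ⟨mem_L_of_add_dv_nonneg hP ?_, hc⟩, hcf0⟩, hE⟩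
    rw [hE]
    exact hE0
  choose pick hpick using hsurj
  -- the bijection
  have hbase : ∀ a : k, φ • (algebraMap k F a) = algebraMap k F (a ^ Q) := by
    intro a
    rw [SemilinearAut.smul_algebraMap, hφ.base]
  let Ψ : X × U → Y := fun x =>
    ⟨(x.2 : k) • ((pick x.1 : Y) : F),
      ⟨⟨Submodule.smul_mem _ _ (pick x.1).2.1.1, by
        rw [Algebra.smul_def, smul_mul', hbase, x.2.2.1, (pick x.1).2.1.2]⟩,
      smul_ne_zero x.2.2.2 (pick x.1).2.2⟩⟩
  have hΨ : Function.Bijective Ψ := by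
    constructor
    · rintro ⟨E, a⟩ ⟨E', a'⟩ h
      have h1 : (a : k) • ((pick E : Y) : F) = (a' : k) • ((pick E' : Y) : F) :=
        congrArg Subtype.val h
      have h2 : (E : Divisor k F) = E' := by
        rw [← hpick E, ← hpick E', ← dv_smul_const hP a.2.2 (pick E : F),
          ← dv_smul_const hP a'.2.2 (pick E' : F), h1]
      have hE : E = E' := Subtype.ext h2
      subst hE
      have h3 : (a : k) = a' := by
        have h4 : ((a : k) - a') • ((pick E : Y) : F) = 0 := by rw [sub_smul, h1, sub_self]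
        rcases smul_eq_zero.mp h4 with h5 | h5
        · exact sub_eq_zero.mp h5
        · exact absurd h5 (pick E).2.2
      rw [Subtype.ext h3]
    · rintro ⟨f, ⟨hfL, hfφ⟩, hf0⟩
      have hE0 : 0 ≤ D + dv hP f := add_dv_nonneg hP hfL hf0
      have hEφ : φ • (D + dv hP f) = D + dv hP f := by
        rw [smul_add, hD, smul_dv, hfφ]
      have hEp : D + dv hP f - D ∈ Divisor.principal (K := k) (F := F) := by
        rw [add_sub_cancel_left]
        exact dv_mem_principal hP hf0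
      set E : X := ⟨D + dv hP f, hE0, hEφ, hEp⟩ with hE
      have h1 : dv hP f = dv hP ((pick E : Y) : F) := by
        have := hpick E
        rw [hE] at this
        exact (add_left_cancel this).symm
      obtain ⟨a, ha0, ha⟩ := exists_const_of_dv_eq H hf0 (pick E).2.2 h1
      have haQ : a ^ Q = a := by
        have h2 : φ • f = f := hfφ
        rw [ha, Algebra.smul_def, smul_mul', hbase, (pick E).2.1.2] at h2
        have h3 := mul_right_cancel₀ (pick E).2.2 h2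
        exact (algebraMap k F).injective h3
      exact ⟨⟨E, ⟨a, haQ, ha0⟩⟩, Subtype.ext ha.symm⟩
  have hcard : Nat.card (X × U) = Nat.card Y := Nat.card_congr (Equiv.ofBijective Ψ hΨ)
  rw [Nat.card_prod, hcardU, hcardY] at hcard
  exact hcard

/-- **CNT** from H90A and H90B. -/
theorem cnt_of (h90a : Stmt_H90A.{u, v}) (h90b : Stmt_H90B.{u, v}) : Stmt_Cnt.{u, v} := by
  intro k F _ _ _ _ p _ hp H Q φ hφ D hD
  obtain ⟨D₁, hD₁, hDD⟩ := h90a k F p hp H Q φ hφ D hD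
  have hl : Module.finrank k (L D₁) = Module.finrank k (L D) := by
    have := Fermat.Agent.S27.RR.H52.finrank_L_add_principal H (D := D) hDD
    rwa [add_sub_cancel] at this
  rw [← hl, ← cnt_inv h90b k F p hp H Q φ hφ D₁ hD₁]
  congr 1
  refine Nat.card_congr (Equiv.subtypeEquivRight fun E => ?_)
  refine and_congr_right fun _ => and_congr_right fun _ => ?_
  constructor
  · intro h
    have := (Divisor.principal (K := k) (F := F)).sub_mem h hDD
    rwa [sub_sub_sub_cancel_right] at this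
  · intro h
    have := (Divisor.principal (K := k) (F := F)).add_mem h hDD
    rwa [sub_add_sub_cancel] at this

end Fermat.Agent.S27.CharP.H52

end
end
-- ==== END Fermat.Agent.S27.CharP.H52_Cnt

-- ==== BEGIN Fermat.Agent.S27.REDu.H79_ConsC4
section

/-!
# G-RED package CONS, C4 (helper79): every place of a chart has a reduction

`stmt_C4 : Stmt_C4.{uC, uF, uk, uFt}`.  For `P` in the chart, `n := red (R ∩ m_P)` is a proper ideal of `Bt`; any
maximal ideal `n' ⊇ n` gives a place `Q` of `Ft` with `RedTo S x hx P Q`.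
-/

set_option autoImplicit false
set_option linter.style.haveILetI false

universe uC uCf uK uR uF uL uE uk ukap uFp uFt uFtp uiot uEp uKp ux3b1

noncomputable section

open AlgebraicCurve IsDedekindDomain WithZero IntermediateField
open scoped IntermediateField.algebraAdjoinAdjoin

namespace Fermat.Agent.S27.REDu.H79

open Fermat.Agent.S27.REDu.H34 Fermat.Agent.S27.REDu.H51

section General

variable {K F : Type*} [Field K] [Field F] [Algebra K F]

/-- A constant of positive order is zero. -/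
theorem const_eq_zero_of_ordGe_one (P : Place K F) (c : K)
    (h : OrdGe P 1 (algebraMap K F c)) : c = 0 := by
  rcases h with h | h
  · exact (map_eq_zero_iff _ (algebraMap K F).injective).1 h
  · rw [ord_algebraMap] at h
    omega

/-- Constants are integral over `K[x]`. -/
theorem isIntegral_const (x : F) (c : K) :
    IsIntegral ↥(Algebra.adjoin K {x}) (algebraMap K F c) := by
  have : algebraMap K F c = algebraMap ↥(Algebra.adjoin K {x}) F
      (algebraMap K ↥(Algebra.adjoin K {x}) c) := rfl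
  rw [this]
  exact isIntegral_algebraMap

/-- `x` is integral over `K[x]`. -/
theorem isIntegral_gen (x : F) : IsIntegral ↥(Algebra.adjoin K {x}) x :=
  isIntegral_algebraMap (R := ↥(Algebra.adjoin K {x})) (A := F)
    (x := ⟨x, Algebra.self_mem_adjoin_singleton K x⟩)

end General

section Red

variable {C : Type uC} {F : Type uF} {k : Type uk} {Ft : Type uFt} [Field C] [Field F] [Algebra C F] [Field k] [Field Ft] [Algebra k Ft]
variable (S : RedSetting C F k Ft) {x : F}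

theorem InChart.mem {P : Place C F} (h : InChart S x P) : x ∈ P.toValuationSubring := by
  obtain ⟨a, -, ha⟩ := h
  have h1 : OrdGe P 0 (x - algebraMap C F a) := ha.mono (by norm_num)
  have h2 : OrdGe P 0 (algebraMap C F a) := ordGe_algebraMap P a
  have h3 := h1.add h2
  rw [sub_add_cancel] at h3
  exact (ordGe_zero_iff_mem P x).1 h3

/-- The kernel of `red` on `R = B ∩ V` is `m_O R`. -/
theorem exists_scale_of_red_eq_zero (f : ↥S.V)
    (hf : IsIntegral ↥(Algebra.adjoin C {x}) (f : F)) (h0 : S.red f = 0) :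
    ∃ (c : ↥S.O) (u : ↥S.V), S.resO c = 0 ∧ IsIntegral ↥(Algebra.adjoin C {x}) (u : F) ∧
      (f : F) = algebraMap C F (c : C) * (u : F) := by
  rcases eq_or_ne (f : F) 0 with hf0 | hf0
  · exact ⟨0, 0, map_zero _, by simpa using isIntegral_zero, by simp [hf0]⟩
  obtain ⟨c, hc, u, hu⟩ := S.scale (f : F) hf0
  have hcV : algebraMap C F c ∈ S.V := by
    have : algebraMap C F c = (f : F) * (((u⁻¹ : (↥S.V)ˣ) : ↥S.V) : F) := by
      rw [hu, mul_assoc]
      have h1 : ((u : ↥S.V) : F) * (((u⁻¹ : (↥S.V)ˣ) : ↥S.V) : F) = 1 := by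
        have := congrArg Subtype.val u.mul_inv
        exact this
      rw [h1, mul_one]
    rw [this]
    exact mul_mem f.2 (Subtype.mem _)
  refine ⟨⟨c, hcV⟩, (u : ↥S.V), ?_, ?_, hu⟩
  · have h1 : f = S.inclO ⟨c, hcV⟩ * (u : ↥S.V) := Subtype.ext hu
    rw [h1, map_mul, S.red_inclO] at h0
    have hu0 : S.red (u : ↥S.V) ≠ 0 := (u.isUnit.map S.red).ne_zero
    have := (mul_eq_zero.1 h0).resolve_right hu0
    exact (map_eq_zero_iff _ (algebraMap k Ft).injective).1 this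
  · have h1 : ((u : ↥S.V) : F) = algebraMap C F c⁻¹ * (f : F) := by
      rw [hu, ← mul_assoc, ← map_mul, inv_mul_cancel₀ hc, map_one, one_mul]
    rw [h1]
    exact (isIntegral_const x c⁻¹).mul hf

end Red

section C4

variable {C : Type uC} {F : Type uF} {k : Type uk} {Ft : Type uFt} [Field C] [Field F] [Algebra C F] [Field k] [Field Ft] [Algebra k Ft]
variable (S : RedSetting C F k Ft) {x : F} (hx : x ∈ S.V)

theorem GoodChart.finite_red {S : RedSetting C F k Ft} {x : F} {hx : x ∈ S.V}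
    (G : GoodChart S x hx) : FiniteDimensional k⟮S.red ⟨x, hx⟩⟯ Ft := by
  haveI := G.fin
  have h : 0 < Module.finrank k⟮S.red ⟨x, hx⟩⟯ Ft := by
    rw [G.deg]
    exact Module.finrank_pos
  exact Module.finite_of_finrank_pos h

/-- The ideal `red (R ∩ m_P)` of `Bt`. -/
def redIdeal (hN : ChartNormal S x hx) (P : Place C F) (hxP : x ∈ P.toValuationSubring) :
    Ideal ↥(integralClosure ↥(Algebra.adjoin k {S.red ⟨x, hx⟩}) Ft) where
  carrier := {y | ∃ f : ↥S.V, IsIntegral ↥(Algebra.adjoin C {x}) (f : F) ∧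
    OrdGe P 1 (f : F) ∧ S.red f = (y : Ft)}
  zero_mem' := ⟨0, by simpa using isIntegral_zero, ordGe_zero _ _, by simp⟩
  add_mem' := by
    rintro y y' ⟨f, hf, hfP, hfy⟩ ⟨f', hf', hfP', hfy'⟩
    refine ⟨f + f', ?_, ?_, ?_⟩
    · simpa using hf.add hf'
    · simpa using hfP.add hfP'
    · rw [map_add, hfy, hfy']
      rfl
  smul_mem' := by
    rintro c y ⟨f, hf, hfP, hfy⟩
    obtain ⟨g, hg, hgc⟩ := hN (c : Ft) c.2
    refine ⟨g * f, ?_, ?_, ?_⟩
    · simpa using hg.mul hf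
    · have h0 : OrdGe P 0 (g : F) := (ordGe_zero_iff_mem P _).2 (mem_of_isIntegral P hxP hg)
      have := h0.mul hfP
      simpa using this
    · rw [map_mul, hfy, hgc]
      rfl

theorem mem_redIdeal_iff (hN : ChartNormal S x hx) (P : Place C F)
    (hxP : x ∈ P.toValuationSubring)
    (y : ↥(integralClosure ↥(Algebra.adjoin k {S.red ⟨x, hx⟩}) Ft)) :
    y ∈ redIdeal S hx hN P hxP ↔ ∃ f : ↥S.V, IsIntegral ↥(Algebra.adjoin C {x}) (f : F) ∧
      OrdGe P 1 (f : F) ∧ S.red f = (y : Ft) := Iff.rfl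

theorem redIdeal_ne_top (hN : ChartNormal S x hx) (hI : ChartIntegral S x hx) (P : Place C F)
    (hP : InChart S x P) : redIdeal S hx hN P (InChart.mem S hP) ≠ ⊤ := by
  rw [Ideal.ne_top_iff_one]
  rintro ⟨f, hf, hfP, hf1⟩
  have hred : S.red (f - 1) = 0 := by
    rw [map_sub, hf1, map_one]
    exact sub_self _
  have hint : IsIntegral ↥(Algebra.adjoin C {x}) ((f - 1 : ↥S.V) : F) := by
    simpa using hf.sub isIntegral_one
  obtain ⟨c, u, hc, hu, hfu⟩ := exists_scale_of_red_eq_zero S (f - 1) hint hred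
  obtain ⟨a, ha⟩ := (hI u hu).2 P hP
  -- `1 + c a` has positive order at `P`
  have h1 : OrdGe P 1 (algebraMap C F ((1 + c * a : ↥S.O) : C)) := by
    have e : algebraMap C F ((1 + c * a : ↥S.O) : C)
        = (f : F) - algebraMap C F (c : C) * ((u : F) - algebraMap C F (a : C)) := by
      have : ((f - 1 : ↥S.V) : F) = (f : F) - 1 := rfl
      rw [this] at hfu
      show algebraMap C F (1 + (c : C) * (a : C)) = _
      rw [map_add, map_one, map_mul]
      linear_combination (-1 : F) * hfu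
    rw [e]
    have h2 : OrdGe P 1 (algebraMap C F (c : C) * ((u : F) - algebraMap C F (a : C))) := by
      have := (ordGe_algebraMap P (c : C)).mul ha
      simpa using this
    exact hfP.sub h2
  have h2 := const_eq_zero_of_ordGe_one P _ h1
  have h3 : (1 + c * a : ↥S.O) = 0 := Subtype.ext h2
  have h4 := congrArg S.resO h3
  rw [map_add, map_mul, hc, zero_mul, add_zero, map_one, map_zero] at h4
  exact one_ne_zero h4

/-- **C4**: every place of the chart has a reduction. -/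
theorem stmt_C4 : Stmt_C4.{uC, uF, uk, uFt} := by
  intro C F k Ft _ _ _ _ _ _ _ _ S x hx G hI P hP
  haveI := G.finite_red
  haveI := G.sept
  haveI := isDedekind_Bx (K := k) (S.red ⟨x, hx⟩) G.transc
  haveI := isFractionRing_Bx (K := k) (F := Ft) (S.red ⟨x, hx⟩)
  have hxP := InChart.mem S hP
  obtain ⟨n', hmax, hle⟩ := Ideal.exists_le_maximal _ (redIdeal_ne_top S hx G.normal hI P hP)
  -- membership in `n` for `f - a`
  have key : ∀ f : ↥S.V, IsIntegral ↥(Algebra.adjoin C {x}) (f : F) → ∀ a : ↥S.O,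
      OrdGe P 1 ((f : F) - algebraMap C F (a : C)) →
      ∃ y : ↥(integralClosure ↥(Algebra.adjoin k {S.red ⟨x, hx⟩}) Ft),
        y ∈ n' ∧ (y : Ft) = S.red f - algebraMap k Ft (S.resO a) := by
    intro f hf a ha
    have hint : IsIntegral ↥(Algebra.adjoin C {x}) ((f - S.inclO a : ↥S.V) : F) := by
      have : ((f - S.inclO a : ↥S.V) : F) = (f : F) - algebraMap C F (a : C) := rfl
      rw [this]
      exact hf.sub (isIntegral_const x _)
    have hred : S.red (f - S.inclO a) = S.red f - algebraMap k Ft (S.resO a) := by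
      rw [map_sub, S.red_inclO]
    have hy : IsIntegral ↥(Algebra.adjoin k {S.red ⟨x, hx⟩})
        (S.red f - algebraMap k Ft (S.resO a)) := by
      rw [← hred]
      exact (hI _ hint).1
    refine ⟨⟨_, hy⟩, hle ?_, rfl⟩
    exact ⟨f - S.inclO a, hint, ha, hred⟩
  have hne : n' ≠ ⊥ := by
    obtain ⟨a, haV, haP⟩ := hP
    obtain ⟨y, hy, hyx⟩ := key ⟨x, hx⟩ (isIntegral_gen x) ⟨a, haV⟩ haP
    intro hbot
    rw [hbot, Ideal.mem_bot] at hy
    rw [hy] at hyx
    have h0 : S.red ⟨x, hx⟩ = algebraMap k Ft (S.resO ⟨a, haV⟩) := by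
      have : (0 : Ft) = S.red ⟨x, hx⟩ - algebraMap k Ft (S.resO ⟨a, haV⟩) := hyx
      exact sub_eq_zero.1 this.symm
    apply G.transc
    rw [h0]
    exact isAlgebraic_algebraMap _
  let w : HeightOneSpectrum ↥(integralClosure ↥(Algebra.adjoin k {S.red ⟨x, hx⟩}) Ft) :=
    ⟨n', hmax.isPrime, hne⟩
  refine ⟨ofH k w, ?_, ?_⟩
  · exact (ordGe_zero_iff_mem _ _).1 (ordGe_zero_algebraMap (K := k) (F := Ft) w
      ⟨S.red ⟨x, hx⟩, isIntegral_gen _⟩)
  · intro f hf a ha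
    obtain ⟨y, hy, hyx⟩ := key f hf a ha
    rw [← hyx]
    exact (ordGe_one_algebraMap_iff (K := k) (F := Ft) w y).2 hy

end C4

end Fermat.Agent.S27.REDu.H79

end
end
-- ==== END Fermat.Agent.S27.REDu.H79_ConsC4

-- ==== BEGIN Fermat.Agent.S27.REDu.H82_NotDvdDet
section

/-!
# G-RED package IG, lemma (S5) of the chart theorem (helper82 for helper34): `not_dvd_det`

`bF` a `C(x)`-basis of `F` of integral elements of `V` reducing to a basis `bt` that spans
`Bbar = red (B ∩ V)` over `k[xt]`, `c` a `C[x]`-basis of `B`, `bF = P c`.  Then `det P` has no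
root `ρ ∈ O`: a root gives `y = Σ μ_i b_i = (x - ρ) y'` with `μ_i ∈ O`, `μ_{i₀} = 1`, `y' ∈ B ∩ V`,
and comparing the `bt`-coordinates of `red y` at `i₀` makes `xt - γ` a unit of `k[xt]`.
-/

set_option autoImplicit false
set_option linter.unusedVariables false

universe uC uCf uK uR uF uL uE uk ukap uFp uFt uFtp uiot uEp uKp ux3b1

noncomputable section

open Polynomial IntermediateField Module Matrix
open scoped IntermediateField.algebraAdjoinAdjoin nonZeroDivisors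
open Fermat.Agent.S27.REDu.H34 Fermat.Agent.S27.REDu.H34.RedSetting

namespace Fermat.Agent.S27.REDu.H82

variable {C : Type uC} {F : Type uF} {k : Type uk} {Ft : Type uFt} [Field C] [Field F] [Algebra C F] [Field k] [Field Ft] [Algebra k Ft]
variable {S : RedSetting C F k Ft} {x : F} (hx : x ∈ S.V)

theorem evAt_algebraMap (hxC : Transcendental C x) (ρ a : C) :
    evAt hxC ρ (algebraMap C ↥(Algebra.adjoin C {x}) a) = a := by
  rw [← polyEquiv_C hxC, evAt_polyEquiv, Polynomial.eval_C]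

/-- `x - ρ` as an element of `V`, for `ρ ∈ O`. -/
theorem coe_psi_X_sub_C (ρ : C) (hρ : ρ ∈ S.O) :
    ((psi hx (Polynomial.X - Polynomial.C (⟨ρ, hρ⟩ : ↥S.O)) : ↥S.V) : F)
      = x - algebraMap C F ρ := by
  rw [coe_psi]
  simp

theorem isUnit_psi_X_sub_C (hxt : Transcendental k (S.red ⟨x, hx⟩)) (ρ : C) (hρ : ρ ∈ S.O) :
    IsUnit (psi hx (Polynomial.X - Polynomial.C (⟨ρ, hρ⟩ : ↥S.O))) := by
  apply isUnit_psi hx hxt
  rw [Polynomial.map_sub, Polynomial.map_X, Polynomial.map_C]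
  exact Polynomial.X_sub_C_ne_zero _

theorem not_dvd_det [CharZero C] (hxt : Transcendental k (S.red ⟨x, hx⟩))
    [FiniteDimensional ↥C⟮x⟯ F]
    (hdeg : Module.finrank ↥k⟮S.red ⟨x, hx⟩⟯ Ft = Module.finrank ↥C⟮x⟯ F)
    {m : ℕ} (bF : Module.Basis (Fin m) ↥C⟮x⟯ F) (hbV : ∀ i, bF i ∈ S.V)
    (hbB : ∀ i, IsIntegral ↥(Algebra.adjoin C {x}) (bF i))
    (bt : Module.Basis (Fin m) ↥k⟮S.red ⟨x, hx⟩⟯ Ft) (hbt : ∀ i, bt i = S.red ⟨bF i, hbV i⟩)
    (hspan : ∀ y ∈ S.Bbar hx,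
      y ∈ Submodule.span ↥(Algebra.adjoin k {S.red ⟨x, hx⟩}) (Set.range bt))
    (c : Module.Basis (Fin m) ↥(Algebra.adjoin C {x}) ↥(Bx (C := C) x))
    (P : Matrix (Fin m) (Fin m) ↥(Algebra.adjoin C {x}))
    (hP : ∀ i, (⟨bF i, hbB i⟩ : ↥(Bx (C := C) x)) = ∑ j, P i j • c j)
    (ρ : C) (hρ : ρ ∈ S.O) : ¬ piRho x ρ ∣ P.det := by
  classical
  intro hdvd
  have hxC := transcendental_x hx hxt
  -- Step 1: a nonzero vector in the left kernel of `P(ρ)`
  have hev : evAt hxC ρ P.det = 0 := (evAt_eq_zero_iff hxC ρ _).2 hdvd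
  have hdet0 : (P.map (evAt hxC ρ)).det = 0 := by
    rw [← RingHom.mapMatrix_apply, ← RingHom.map_det, hev]
  obtain ⟨lam, hlam0, hlam⟩ := Matrix.exists_vecMul_eq_zero_iff.2 hdet0
  -- Step 2: scaling
  have hne : ∃ i, lam i ≠ 0 := by
    by_contra h
    push Not at h
    exact hlam0 (funext h)
  obtain ⟨i₁, hi₁⟩ := hne
  obtain ⟨i₀, -, hi₀⟩ := Finset.exists_max_image Finset.univ
    (fun i => S.O.valuation (lam i)) ⟨i₁, Finset.mem_univ _⟩
  have hlam_i₀ : lam i₀ ≠ 0 := by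
    intro h0
    have h1 := hi₀ i₁ (Finset.mem_univ _)
    simp only [h0, map_zero] at h1
    exact hi₁ ((map_eq_zero _).1 (le_antisymm h1 zero_le))
  set μ : Fin m → C := fun i => lam i / lam i₀ with hμ
  have hμi₀ : μ i₀ = 1 := div_self hlam_i₀
  have hμO : ∀ i, μ i ∈ S.O := by
    intro i
    rw [← ValuationSubring.valuation_le_one_iff, hμ]
    simp only [map_div₀]
    have hpos : 0 < S.O.valuation (lam i₀) := by
      rw [pos_iff_ne_zero]
      exact fun h => hlam_i₀ ((map_eq_zero _).1 h)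
    exact (div_le_one₀ hpos).2 (hi₀ i (Finset.mem_univ _))
  have hμker : ∀ j, ∑ i, μ i * evAt hxC ρ (P i j) = 0 := by
    intro j
    have h1 := congrFun hlam j
    simp only [Matrix.vecMul, dotProduct, Matrix.map_apply, Pi.zero_apply] at h1
    simp only [hμ, div_mul_eq_mul_div]
    rw [← Finset.sum_div, h1, zero_div]
  -- Step 3: divide by `x - ρ` inside `B`
  have hr : ∀ j, piRho x ρ ∣ ∑ i, algebraMap C ↥(Algebra.adjoin C {x}) (μ i) * P i j := by
    intro j
    rw [← evAt_eq_zero_iff hxC ρ, map_sum]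
    simp only [map_mul, _root_.Fermat.Agent.S27.REDu.H82.evAt_algebraMap]
    exact hμker j
  choose q hq using hr
  set y' : ↥(Bx (C := C) x) := ∑ j, q j • c j with hy'
  have hyB : ∑ i, algebraMap C ↥(Algebra.adjoin C {x}) (μ i) • (⟨bF i, hbB i⟩ : ↥(Bx (C := C) x))
      = piRho x ρ • y' := by
    simp only [hP, Finset.smul_sum, smul_smul]
    rw [Finset.sum_comm]
    rw [hy', Finset.smul_sum]
    refine Finset.sum_congr rfl fun j _ => ?_
    rw [← Finset.sum_smul, hq j, smul_smul]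
  have hyF : ∑ i, algebraMap C F (μ i) * bF i = (x - algebraMap C F ρ) * (y' : F) := by
    have hsm : ∀ (a : ↥(Algebra.adjoin C {x})) (b : ↥(Bx (C := C) x)),
        ((a • b : ↥(Bx (C := C) x)) : F) = (a : F) * (b : F) := fun a b => rfl
    have h1 := congrArg (fun z : ↥(Bx (C := C) x) => (z : F)) hyB
    simp only [AddSubmonoidClass.coe_finsetSum, hsm] at h1
    exact h1
  -- Step 4: `y'` lies in `V`
  set u : ↥S.V := psi hx (Polynomial.X - Polynomial.C (⟨ρ, hρ⟩ : ↥S.O)) with hu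
  have huu : IsUnit u := _root_.Fermat.Agent.S27.REDu.H82.isUnit_psi_X_sub_C hx hxt ρ hρ
  have hucoe : (u : F) = x - algebraMap C F ρ := _root_.Fermat.Agent.S27.REDu.H82.coe_psi_X_sub_C hx ρ hρ
  have hu0 : (x - algebraMap C F ρ) ≠ 0 := by
    rw [← hucoe]
    intro h0
    have : u = 0 := Subtype.ext h0
    rw [this] at huu
    exact not_isUnit_zero huu
  set yV : ↥S.V := ∑ i, S.inclO ⟨μ i, hμO i⟩ * ⟨bF i, hbV i⟩ with hyV
  have hyVcoe : (yV : F) = ∑ i, algebraMap C F (μ i) * bF i := by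
    rw [hyV, AddSubmonoidClass.coe_finsetSum]
    rfl
  obtain ⟨w, hw⟩ := huu.exists_right_inv
  have hy'V : (y' : F) = ((w * yV : ↥S.V) : F) := by
    apply mul_left_cancel₀ hu0
    rw [← hyF, ← hyVcoe, ← hucoe]
    have : u * (w * yV) = yV := by rw [← mul_assoc, hw, one_mul]
    exact (congrArg (fun z : ↥S.V => (z : F)) this).symm
  have hy'mem : (y' : F) ∈ S.V := by rw [hy'V]; exact (w * yV).2
  have hredy' : S.red ⟨(y' : F), hy'mem⟩ ∈ S.Bbar hx :=
    (mem_Bbar hx _).2 ⟨(y' : F), hy'mem, y'.2, rfl⟩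
  obtain ⟨β, hβ⟩ := (Submodule.mem_span_range_iff_exists_fun _).1 (hspan _ hredy')
  -- Step 5: compare coordinates at `i₀`
  set γ : k := S.resO ⟨ρ, hρ⟩ with hγ
  have hredu : S.red u = S.red ⟨x, hx⟩ - algebraMap k Ft γ := by
    rw [hu, red_psi]
    simp [hγ]
  have hyVfac : yV = u * ⟨(y' : F), hy'mem⟩ := by
    apply Subtype.ext
    show (yV : F) = (u : F) * (y' : F)
    rw [hyVcoe, hyF, hucoe]
  have hred1 : S.red yV = ∑ i, algebraMap k Ft (S.resO ⟨μ i, hμO i⟩) * bt i := by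
    rw [hyV, map_sum]
    refine Finset.sum_congr rfl fun i _ => ?_
    rw [map_mul, red_inclO, hbt i]
  have hred2 : S.red yV = (S.red ⟨x, hx⟩ - algebraMap k Ft γ) * ∑ i, β i • bt i := by
    rw [hyVfac, map_mul, hredu, hβ]
  -- coefficients in `k(xt)`
  set a : Fin m → ↥k⟮S.red ⟨x, hx⟩⟯ :=
    fun i => algebraMap k ↥k⟮S.red ⟨x, hx⟩⟯ (S.resO ⟨μ i, hμO i⟩) with ha
  set b : Fin m → ↥k⟮S.red ⟨x, hx⟩⟯ :=
    fun i => algebraMap ↥(Algebra.adjoin k {S.red ⟨x, hx⟩}) ↥k⟮S.red ⟨x, hx⟩⟯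
      (piRho (S.red ⟨x, hx⟩) γ * β i) with hb
  have hsum : ∑ i, a i • bt i = ∑ i, b i • bt i := by
    have h1 : ∑ i, a i • bt i = S.red yV := by
      rw [hred1]
      refine Finset.sum_congr rfl fun i _ => ?_
      rw [IntermediateField.smul_def, smul_eq_mul]
      rfl
    have h2 : ∑ i, b i • bt i = S.red yV := by
      rw [hred2, Finset.mul_sum]
      refine Finset.sum_congr rfl fun i _ => ?_
      rw [IntermediateField.smul_def, smul_eq_mul]
      show ((piRho (S.red ⟨x, hx⟩) γ * β i : ↥(Algebra.adjoin k {S.red ⟨x, hx⟩})) : Ft) * bt i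
        = (S.red ⟨x, hx⟩ - algebraMap k Ft γ) * (((β i : ↥(Algebra.adjoin k {S.red ⟨x, hx⟩})) : Ft) * bt i)
      rw [Subalgebra.coe_mul, mul_assoc]
      rfl
    rw [h1, h2]
  have hab : a = b := by
    have h1 := congrArg (fun z => (bt.repr z : Fin m → ↥k⟮S.red ⟨x, hx⟩⟯)) hsum
    simp only [Module.Basis.repr_sum_self] at h1
    exact h1
  have hai₀ : a i₀ = 1 := by
    rw [ha]
    have : (⟨μ i₀, hμO i₀⟩ : ↥S.O) = 1 := Subtype.ext hμi₀
    simp only [this, map_one]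
  have h1 : piRho (S.red ⟨x, hx⟩) γ * β i₀ = 1 := by
    have h2 : b i₀ = 1 := by rw [← hab]; exact hai₀
    apply Subtype.ext
    have h3 := congrArg (fun z : ↥k⟮S.red ⟨x, hx⟩⟯ => (z : Ft)) h2
    exact h3
  exact (prime_piRho hxt γ).not_isUnit (IsUnit.of_mul_eq_one _ h1)

end Fermat.Agent.S27.REDu.H82

end
end
-- ==== END Fermat.Agent.S27.REDu.H82_NotDvdDet

-- ==== BEGIN Fermat.Agent.S39.H93_Done
section

set_option autoImplicit false

noncomputable section

namespace Fermat.Agent.S39.H93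

/-- **Mazur's principle at the primes which are not exceptional**, every odd `p`: DONE. -/
theorem stmt_NonExcW : Fermat.Agent.S38.H37.Stmt_NonExcW :=
  Fermat.Agent.S38.H37.nonExcW_of Fermat.Agent.S38.H37.stmt_FrobToricGen_done
    Fermat.Agent.S43.CompEis.H60.stmt_CompEis
    Fermat.Agent.S38.P3.H60.stmt_CompEis3S
    Fermat.Agent.S38.H37.stmt_OldGen_done
    Fermat.Agent.S38.P3.H57.stmt_Strong

/-- **FIN-GOOD**: DONE. -/
theorem stmt_FinGoodD : Fermat.Agent.S39.Stmt_FinGoodD :=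
  Fermat.Agent.S39.FinGood.finGoodD_of Fermat.Agent.S39.FinGood.H97.stmt_FlatBdd
    Fermat.Agent.S39.FinGood.H71.stmt_ConjShape Fermat.Agent.S39.FinGood.H71.stmt_ConjFin
    (Fermat.Agent.S39.FinGood.H71.finLoc_of Fermat.Agent.S39.FinGood.H49.stmt_KumInt)

/-- **OLD-NEW**: DONE. -/
theorem stmt_OldNewPD : Fermat.Agent.S39.Stmt_OldNewPD :=
  Fermat.Agent.S39.H71.oldNewPD_of Fermat.Agent.S33.New.H36.stmt_OrdNewStrict

/-- **S39 for a semistable curve at a squarefree level, every odd `p`**: UNCONDITIONAL. -/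
theorem stmt_S39sf : Stmt_S39sf :=
  s39sf_of Fermat.Agent.BADP3.stmt_BadP2T stmt_NonExcW
    (fun p hp hp2 W hΔ hirr M hM hmod q hq hqp hqM =>
      Fermat.Agent.BADP3.H45.stmt_UnrOut p hp hp2 W hΔ hirr M hM hmod q hq hqp hqM)
    Fermat.Agent.S39.FinMult.H33.stmt_FinMult stmt_OldNewPD stmt_FinGoodD

/-- **S39 in the form used by S59-LL** (`S59.LL.H40.llec_of_ss`): UNCONDITIONAL. -/
theorem stmt_S39ss : Fermat.Agent.S59.LL.H40.Stmt_S39ss :=
  s39ss_of_sf stmt_S39sf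

end Fermat.Agent.S39.H93

end
end
-- ==== END Fermat.Agent.S39.H93_Done

-- ==== BEGIN Fermat.Agent.S41.H94_Dual
section

/-!
# S41, package P: dual Ihara

Conditional on the leaves of package P (`Leaves`) and on `Stmt_IHARA`:

`dual_ihara` : every pair `(v₁, v₂)` of cuspidal homs `Gamma0 N → ZMod p` lies in the span of
* the pairs `(cor1 y, cor2 y)`, `y` cuspidal of level `N q'`,
* the pairs `((T_ℓ - a_ℓ) u, 0)` and `(0, (T_ℓ - a_ℓ) u)`, `u` cuspidal of level `N`, `ℓ` a good prime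
  not dividing `N q'`, `ℓ ≠ p`.

In words: the eigensystem of `W` does not occur in the cokernel of `(cor1, cor2)`.
-/

set_option autoImplicit false

open scoped MatrixGroups
open CongruenceSubgroup

namespace Fermat.Agent.S41.H94

/-! ### Finiteness -/

section Fin

theorem fg_SL2Z : Group.FG SL(2, ℤ) := by
  rw [Group.fg_iff]
  exact ⟨{ModularGroup.S, ModularGroup.T}, SpecialLinearGroup.SL2Z_generators, Set.toFinite _⟩

theorem fg_Gamma0 (M : ℕ) [NeZero M] : Group.FG (Gamma0 M) := by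
  have := fg_SL2Z
  infer_instance

/-- homs from a finitely generated group to a finite group: finitely many -/
theorem finite_addHom_of_fg (G : Type*) [Group G] [Group.FG G] (A : Type*) [AddCommGroup A]
    [Finite A] : Finite (Additive G →+ A) := by
  obtain ⟨S, hS, hfin⟩ := Group.fg_iff.mp (inferInstance : Group.FG G)
  have : Finite S := hfin
  let F : (Additive G →+ A) → (S → A) := fun φ s => φ (Additive.ofMul (s : G))
  refine Finite.of_injective F ?_
  intro φ ψ h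
  have hmon : AddMonoidHom.toMultiplicativeRight φ = AddMonoidHom.toMultiplicativeRight ψ := by
    apply MonoidHom.eq_of_eqOn_top
    rw [← hS]
    apply MonoidHom.eqOn_closure
    intro s hs
    have := congrFun h ⟨s, hs⟩
    exact congrArg Multiplicative.ofAdd this
  exact AddMonoidHom.toMultiplicativeRight.injective hmon

end Fin

/-! ### The cuspidal subspace and the linear maps -/

section Lin

variable (k : Type) [Field k]

/-- The cuspidal homs `Gamma0 M → k` as a subspace. -/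
def cuspSub (M : ℕ) : Submodule k (Additive (Gamma0 M) →+ k) where
  carrier := {φ | IsCuspidalHom (Gamma0 M) φ}
  add_mem' := fun {a b} ha hb γ hγ => by
    rw [AddMonoidHom.add_apply, ha γ hγ, hb γ hγ, add_zero]
  zero_mem' := fun _ _ => rfl
  smul_mem' := fun c φ hφ γ hγ => by
    rw [AddMonoidHom.smul_apply, hφ γ hγ, smul_zero]

variable {k}

theorem mem_cuspSub {M : ℕ} {φ : Additive (Gamma0 M) →+ k} :
    φ ∈ cuspSub k M ↔ IsCuspidalHom (Gamma0 M) φ := Iff.rfl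

variable (L : Leaves) (h2 : (2 : k) ≠ 0)

include L h2 in
theorem res1_cusp (N q : ℕ) (hN : N ≠ 0) (hq : q ≠ 0) {φ : Additive (Gamma0 N) →+ k}
    (hφ : IsCuspidalHom (Gamma0 N) φ) : IsCuspidalHom (Gamma0 (N * q)) (res1 N q k φ) :=
  (Bform_adj1 L h2 N q hN hq hφ (cuspSub k (N * q)).zero_mem).1

include L h2 in
theorem res2_cusp (N q : ℕ) (hN : N ≠ 0) (hq : q ≠ 0) {φ : Additive (Gamma0 N) →+ k}
    (hφ : IsCuspidalHom (Gamma0 N) φ) : IsCuspidalHom (Gamma0 (N * q)) (res2 N q k φ) :=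
  (Bform_adj2 L h2 N q hN hq hφ (cuspSub k (N * q)).zero_mem).1

include L h2 in
theorem cor1_cusp (N q : ℕ) (hN : N ≠ 0) (hq : q ≠ 0) {ψ : Additive (Gamma0 (N * q)) →+ k}
    (hψ : IsCuspidalHom (Gamma0 (N * q)) ψ) : IsCuspidalHom (Gamma0 N) (cor1 N q k ψ) :=
  (Bform_adj1 L h2 N q hN hq (cuspSub k N).zero_mem hψ).2.1

include L h2 in
theorem cor2_cusp (N q : ℕ) (hN : N ≠ 0) (hq : q ≠ 0) {ψ : Additive (Gamma0 (N * q)) →+ k}
    (hψ : IsCuspidalHom (Gamma0 (N * q)) ψ) : IsCuspidalHom (Gamma0 N) (cor2 N q k ψ) :=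
  (Bform_adj2 L h2 N q hN hq (cuspSub k N).zero_mem hψ).2.1

include L h2 in
theorem Tcoh_cusp (N q : ℕ) (hN : N ≠ 0) (hq : q ≠ 0) {φ : Additive (Gamma0 N) →+ k}
    (hφ : IsCuspidalHom (Gamma0 N) φ) : IsCuspidalHom (Gamma0 N) (Tcoh N k q φ) :=
  cor1_cusp L h2 N q hN hq (res2_cusp L h2 N q hN hq hφ)

/-- `res1` on cuspidal homs -/
def resL1 (N q : ℕ) (hN : N ≠ 0) (hq : q ≠ 0) : cuspSub k N →ₗ[k] cuspSub k (N * q) where
  toFun x := ⟨res1 N q k x.1, res1_cusp L h2 N q hN hq x.2⟩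
  map_add' _ _ := Subtype.ext rfl
  map_smul' _ _ := Subtype.ext rfl

/-- `res2` on cuspidal homs -/
def resL2 (N q : ℕ) (hN : N ≠ 0) (hq : q ≠ 0) : cuspSub k N →ₗ[k] cuspSub k (N * q) where
  toFun x := ⟨res2 N q k x.1, res2_cusp L h2 N q hN hq x.2⟩
  map_add' _ _ := Subtype.ext rfl
  map_smul' _ _ := Subtype.ext rfl

/-- `cor1` on cuspidal homs -/
noncomputable def corL1 (N q : ℕ) (hN : N ≠ 0) (hq : q ≠ 0) :
    cuspSub k (N * q) →ₗ[k] cuspSub k N where
  toFun y := ⟨cor1 N q k y.1, cor1_cusp L h2 N q hN hq y.2⟩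
  map_add' x y := Subtype.ext (H19.corAlong_add _ x.1 y.1)
  map_smul' c x := Subtype.ext (H19.corAlong_smul _ c x.1)

/-- `cor2` on cuspidal homs -/
noncomputable def corL2 (N q : ℕ) (hN : N ≠ 0) (hq : q ≠ 0) :
    cuspSub k (N * q) →ₗ[k] cuspSub k N where
  toFun y := ⟨cor2 N q k y.1, cor2_cusp L h2 N q hN hq y.2⟩
  map_add' x y := Subtype.ext (H19.corAlong_add _ x.1 y.1)
  map_smul' c x := Subtype.ext (H19.corAlong_smul _ c x.1)

/-- The pairing as a bilinear map on cuspidal homs. -/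
noncomputable def BL (M : ℕ) [NeZero M] : cuspSub k M →ₗ[k] cuspSub k M →ₗ[k] k :=
  LinearMap.mk₂ k (fun x y => Bform k M x.1 y.1)
    (fun x x' y => Bform_add_left L h2 M x.2 x'.2 y.2)
    (fun c x y => Bform_smul_left L h2 M c x.2 y.2)
    (fun x y y' => by
      show Bform k M x.1 (y.1 + y'.1) = _
      rw [Bform_skew L h2 M x.2 ((cuspSub k M).add_mem y.2 y'.2),
        Bform_add_left L h2 M y.2 y'.2 x.2, Bform_skew L h2 M x.2 y.2,
        Bform_skew L h2 M x.2 y'.2]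
      ring)
    (fun c x y => by
      show Bform k M x.1 (c • y.1) = _
      rw [Bform_skew L h2 M x.2 ((cuspSub k M).smul_mem c y.2),
        Bform_smul_left L h2 M c y.2 x.2, Bform_skew L h2 M x.2 y.2]
      simp)

theorem BL_apply (M : ℕ) [NeZero M] (x y : cuspSub k M) :
    BL L h2 M x y = Bform k M x.1 y.1 := rfl

theorem BL_nondeg (M : ℕ) [NeZero M] (x : cuspSub k M) (h : ∀ y, BL L h2 M x y = 0) : x = 0 := by
  apply Subtype.ext
  apply Bform_nondeg L h2 M x.2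
  intro ψ hψ
  rw [Bform_skew L h2 M hψ x.2]
  have := h ⟨ψ, hψ⟩
  rw [BL_apply] at this
  rw [this, neg_zero]

theorem BL_adj1 (N q : ℕ) (hN : N ≠ 0) (hq : q ≠ 0) [NeZero N] [NeZero (N * q)]
    (x : cuspSub k N) (y : cuspSub k (N * q)) :
    BL L h2 (N * q) (resL1 L h2 N q hN hq x) y = BL L h2 N x (corL1 L h2 N q hN hq y) :=
  (Bform_adj1 L h2 N q hN hq x.2 y.2).2.2

theorem BL_adj2 (N q : ℕ) (hN : N ≠ 0) (hq : q ≠ 0) [NeZero N] [NeZero (N * q)]
    (x : cuspSub k N) (y : cuspSub k (N * q)) :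
    BL L h2 (N * q) (resL2 L h2 N q hN hq x) y = BL L h2 N x (corL2 L h2 N q hN hq y) :=
  (Bform_adj2 L h2 N q hN hq x.2 y.2).2.2

theorem BL_skew (M : ℕ) [NeZero M] (x y : cuspSub k M) : BL L h2 M x y = - BL L h2 M y x :=
  Bform_skew L h2 M x.2 y.2

/-- The Hecke operator `T_ℓ` on cuspidal homs. -/
noncomputable def TL (N ℓ : ℕ) (hN : N ≠ 0) (hℓ : ℓ ≠ 0) : cuspSub k N →ₗ[k] cuspSub k N :=
  (corL1 L h2 N ℓ hN hℓ).comp (resL2 L h2 N ℓ hN hℓ)

theorem TL_coe (N ℓ : ℕ) (hN : N ≠ 0) (hℓ : ℓ ≠ 0) (x : cuspSub k N) :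
    (TL L h2 N ℓ hN hℓ x : Additive (Gamma0 N) →+ k) = Tcoh N k ℓ x.1 := rfl

/-- `T_ℓ` is self-adjoint (`ℓ` prime, `ℓ ∤ N`). -/
theorem BL_TL (N ℓ : ℕ) (hN : 0 < N) (hℓ : ℓ.Prime) (hℓN : ¬ ℓ ∣ N) [NeZero N]
    (x y : cuspSub k N) :
    BL L h2 N x (TL L h2 N ℓ hN.ne' hℓ.ne_zero y) = BL L h2 N (TL L h2 N ℓ hN.ne' hℓ.ne_zero x) y := by
  have : NeZero (N * ℓ) := ⟨Nat.mul_ne_zero hN.ne' hℓ.ne_zero⟩
  have e : corL2 L h2 N ℓ hN.ne' hℓ.ne_zero (resL1 L h2 N ℓ hN.ne' hℓ.ne_zero x)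
      = TL L h2 N ℓ hN.ne' hℓ.ne_zero x :=
    Subtype.ext (H19.cor2_res1 hN hℓ hℓN x.1)
  show BL L h2 N x (corL1 L h2 N ℓ hN.ne' hℓ.ne_zero (resL2 L h2 N ℓ hN.ne' hℓ.ne_zero y)) = _
  rw [← BL_adj1, BL_skew, BL_adj2, e, ← BL_skew]

end Lin

/-! ### The Atkin-Lehner swap -/

section Swap

variable {A : Type*} [AddCommGroup A]

theorem res_swap {N q : ℕ} (hq : q.Prime) (hqN : ¬ q ∣ N) (x₁ x₂ : Additive (Gamma0 N) →+ A)
    (h : res1 N q A x₁ + res2 N q A x₂ = 0) : res1 N q A x₂ + res2 N q A x₁ = 0 := by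
  obtain ⟨u, v, huv⟩ := H19.exists_bezout hq hqN
  refine DFunLike.ext _ _ (fun g => ?_)
  obtain ⟨g, rfl⟩ : ∃ g' : Gamma0 (N * q), g = Additive.ofMul g' := ⟨Additive.toMul g, rfl⟩
  obtain ⟨g', hg'⟩ := H19.AL_surj huv hq.ne_zero g
  have h1 := H19.AL_swap huv hq.ne_zero g g' hg'
  have h0 := DFunLike.congr_fun h (Additive.ofMul g')
  rw [AddMonoidHom.add_apply, AddMonoidHom.zero_apply] at h0 ⊢
  change x₁ (Additive.ofMul (inclG N q g')) + x₂ (Additive.ofMul (conjG N q g')) = 0 at h0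
  change x₂ (Additive.ofMul (inclG N q g)) + x₁ (Additive.ofMul (conjG N q g)) = 0
  rw [hg', h1, H19.hom_conj, H19.hom_conj] at h0
  rw [add_comm]
  exact h0

end Swap

/-! ### Dual Ihara -/

section Main

open WeierstrassCurve WeierstrassCurve.Affine WeierstrassCurve.Affine.Point

/-- The generators of the subspace of `V_N × V_N` spanned by the image of `(cor1, cor2)` and the images of
the `T_ℓ - a_ℓ(W)` (`ℓ` good, `ℓ ∤ N q'`, `ℓ ≠ p`) in both factors. -/
def dualSet (W : WeierstrassCurve ℤ) (p N q' : ℕ) :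
    Set ((Additive (Gamma0 N) →+ ZMod p) × (Additive (Gamma0 N) →+ ZMod p)) :=
  {z | ∃ y : Additive (Gamma0 (N * q')) →+ ZMod p, IsCuspidalHom (Gamma0 (N * q')) y ∧
      z = (cor1 N q' (ZMod p) y, cor2 N q' (ZMod p) y)} ∪
  {z | ∃ (ℓ : ℕ) (u : Additive (Gamma0 N) →+ ZMod p), ℓ.Prime ∧ W.IsGoodPrimeFor ℓ ∧
      ¬ ℓ ∣ N * q' ∧ ℓ ≠ p ∧ IsCuspidalHom (Gamma0 N) u ∧
      z = (Tcoh N (ZMod p) ℓ u - ((W.apOfModel ℓ : ℤ) : ZMod p) • u, 0)} ∪
  {z | ∃ (ℓ : ℕ) (u : Additive (Gamma0 N) →+ ZMod p), ℓ.Prime ∧ W.IsGoodPrimeFor ℓ ∧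
      ¬ ℓ ∣ N * q' ∧ ℓ ≠ p ∧ IsCuspidalHom (Gamma0 N) u ∧
      z = (0, Tcoh N (ZMod p) ℓ u - ((W.apOfModel ℓ : ℤ) : ZMod p) • u)}

theorem two_ne_zero_zmod {p : ℕ} (hp : p.Prime) (hp2 : p ≠ 2) : (2 : ZMod p) ≠ 0 := by
  intro h
  have h' : ((2 : ℕ) : ZMod p) = 0 := by exact_mod_cast h
  rw [ZMod.natCast_eq_zero_iff] at h'
  exact hp2 ((Nat.prime_dvd_prime_iff_eq hp Nat.prime_two).mp h')

/-- **Dual Ihara**: the eigensystem of `W` does not occur in the cokernel of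
`(cor1, cor2) : V_{N q'} → V_N × V_N`. -/
theorem dual_ihara (L : Leaves) (hI : Stmt_IHARA) (E : WeierstrassCurve ℚ) [E.IsElliptic]
    (W : WeierstrassCurve ℤ) (hW : W.IsIntegralModelOf E) (p N q' : ℕ) (hp : p.Prime)
    (hp2 : p ≠ 2) (hN : 0 < N) (hq' : q'.Prime) (hq'N : ¬ q' ∣ N) (hq'p : q' ≠ p)
    (hirr : GaloisRepIsIrreducible (K := AlgebraicClosure ℚ) ℚ E p)
    (v₁ v₂ : Additive (Gamma0 N) →+ ZMod p) (h₁ : IsCuspidalHom (Gamma0 N) v₁)
    (h₂ : IsCuspidalHom (Gamma0 N) v₂) :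
    (v₁, v₂) ∈ Submodule.span (ZMod p) (dualSet W p N q') := by
  have : Fact p.Prime := ⟨hp⟩
  have h2 : (2 : ZMod p) ≠ 0 := two_ne_zero_zmod hp hp2
  have : NeZero N := ⟨hN.ne'⟩
  have : NeZero (N * q') := ⟨Nat.mul_ne_zero hN.ne' hq'.ne_zero⟩
  have : Group.FG (Gamma0 N) := fg_Gamma0 N
  have : Finite (Additive (Gamma0 N) →+ ZMod p) := finite_addHom_of_fg _ _
  have : Finite (cuspSub (ZMod p) N) := Subtype.finite
  have : Module.Finite (ZMod p) (cuspSub (ZMod p) N) := Module.Finite.of_finite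
  have hdvd : ∀ ℓ : ℕ, ¬ ℓ ∣ N * q' → ¬ ℓ ∣ N := fun ℓ h h' => h (dvd_mul_of_dvd_left h' _)
  have ih : ∀ x₁ x₂ : cuspSub (ZMod p) N,
      (∀ i : {ℓ : ℕ // ℓ.Prime ∧ W.IsGoodPrimeFor ℓ ∧ ¬ ℓ ∣ N * q' ∧ ℓ ≠ p},
        TL L h2 N i.1 hN.ne' i.2.1.ne_zero x₁ = ((W.apOfModel i.1 : ℤ) : ZMod p) • x₁) →
      resL1 L h2 N q' hN.ne' hq'.ne_zero x₁ + resL2 L h2 N q' hN.ne' hq'.ne_zero x₂ = 0 →
      x₁ = 0 := by
    intro x₁ x₂ he hrel
    apply Subtype.ext
    refine hI E W hW p N q' hp hp2 hN hq' hq'N hq'p hirr x₁.1 x₂.1 x₁.2 x₂.2 ?_ ?_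
    · intro ℓ hℓ hg hd hne
      exact congrArg Subtype.val (he ⟨ℓ, hℓ, hg, hd, hne⟩)
    · exact congrArg Subtype.val hrel
  have sw : ∀ x₁ x₂ : cuspSub (ZMod p) N,
      resL1 L h2 N q' hN.ne' hq'.ne_zero x₁ + resL2 L h2 N q' hN.ne' hq'.ne_zero x₂ = 0 →
      resL1 L h2 N q' hN.ne' hq'.ne_zero x₂ + resL2 L h2 N q' hN.ne' hq'.ne_zero x₁ = 0 := by
    intro x₁ x₂ hrel
    apply Subtype.ext
    exact res_swap hq' hq'N x₁.1 x₂.1 (congrArg Subtype.val hrel)
  have key := span_dualGens_eq_top (k := ZMod p) (V := cuspSub (ZMod p) N)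
    (V' := cuspSub (ZMod p) (N * q'))
    (I := {ℓ : ℕ // ℓ.Prime ∧ W.IsGoodPrimeFor ℓ ∧ ¬ ℓ ∣ N * q' ∧ ℓ ≠ p})
    (B := BL L h2 N) (B' := BL L h2 (N * q')) (hB := BL_nondeg L h2 N)
    (hB' := BL_nondeg L h2 (N * q'))
    (r₁ := resL1 L h2 N q' hN.ne' hq'.ne_zero) (r₂ := resL2 L h2 N q' hN.ne' hq'.ne_zero)
    (c₁ := corL1 L h2 N q' hN.ne' hq'.ne_zero) (c₂ := corL2 L h2 N q' hN.ne' hq'.ne_zero)
    (adj₁ := BL_adj1 L h2 N q' hN.ne' hq'.ne_zero) (adj₂ := BL_adj2 L h2 N q' hN.ne' hq'.ne_zero)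
    (T := fun i => TL L h2 N i.1 hN.ne' i.2.1.ne_zero)
    (a := fun i => ((W.apOfModel i.1 : ℤ) : ZMod p))
    (hT := fun i x y => BL_TL L h2 N i.1 hN i.2.1 (hdvd _ i.2.2.2.1) x y)
    (ih := ih) (sw := sw)
  have hmem := Submodule.eq_top_iff'.mp key
    ((⟨v₁, h₁⟩, ⟨v₂, h₂⟩) : cuspSub (ZMod p) N × cuspSub (ZMod p) N)
  have h3 := Submodule.mem_map_of_mem
    (f := ((cuspSub (ZMod p) N).subtype.prodMap (cuspSub (ZMod p) N).subtype)) hmem
  rw [Submodule.map_span] at h3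
  refine Submodule.span_mono ?_ h3
  rintro _ ⟨z, hz, rfl⟩
  rcases hz with (⟨y, rfl⟩ | ⟨⟨i, u⟩, rfl⟩) | ⟨⟨i, u⟩, rfl⟩
  · exact Or.inl (Or.inl ⟨y.1, y.2, rfl⟩)
  · exact Or.inl (Or.inr ⟨i.1, u.1, i.2.1, i.2.2.1, i.2.2.2.1, i.2.2.2.2, u.2, rfl⟩)
  · exact Or.inr ⟨i.1, u.1, i.2.1, i.2.2.1, i.2.2.2.1, i.2.2.2.2, u.2, rfl⟩

end Main

end Fermat.Agent.S41.H94

end
-- ==== END Fermat.Agent.S41.H94_Dual

-- ==== BEGIN Fermat.Agent.S59.LL.SQ.H16_RegFinal
section

/-!
# S59 / LL / SQ, leaf R1 REG-TAME (helper16), unconditional form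

* `reg11At_cases`, `reg11At_tame` : **helper35's `H35.Reg11At` at every tame level,
  unconditionally** (`TameNU (M q) q`: `4 ∣ M` if `q` is odd, `9 ∣ M` if `q = 2`), for `0 < p`.

Inputs: `H16.stmt_reg11At` and the closed modular statements of S36 (helper10's `H10_Close`,
`H10_Inputs`, `H10_Core`).
-/

set_option autoImplicit false
set_option synthInstance.maxHeartbeats 400000
set_option maxHeartbeats 1000000
set_option linter.style.haveILetI false
set_option linter.unusedSectionVars false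
set_option linter.unusedVariables false

noncomputable section

open ModularCurve AlgebraicCurve IntermediateField

namespace Fermat.Agent.S59.LL.SQ.H16

open Fermat.Agent.S24 Fermat.Agent.BAD Fermat.Agent.S36.NU.H10

/-- **REG-TAME, unconditionally** (the tame level given by the three cases). -/
theorem reg11At_cases
    (A : ValuationSubring Kbar) (q M : ℕ) (B k : ℤ) (hB : B * M + k * q = 1) (hq : q.Prime)
    [NeZero M] [NeZero q] [NeZero (M * q)] [NeZero (M * q * q)]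
    (hqM : ¬ q ∣ M) (hA : A.LiesOverPrime q) (ht : H91.TameAt M q)
    (hc : (5 ≤ q ∧ 4 ∣ M) ∨ (q = 3 ∧ 4 ∣ M) ∨ (q = 2 ∧ 9 ∣ M)) (p : ℕ) (hp : 0 < p) :
    Fermat.Agent.S59.LL.SQ.H35.Reg11At A q M B k hB hq hqM hA p :=
  stmt_reg11At stmt_NuMAll
    (stmt_TopAll_of (stmt_Pt0All_of stmt_MidSmall stmt_PtHypsAll) (stmt_PtooAll_of stmt_BrooAll))
    A q M B k hB hq hqM hA ht hc p hp

/-- **REG-TAME, unconditionally**, at every level `M q²` with `TameNU (M q) q`
(`4 ∣ M` if `q` is odd, `9 ∣ M` if `q = 2`). -/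
theorem reg11At_tame
    (A : ValuationSubring Kbar) (q M : ℕ) (B k : ℤ) (hB : B * M + k * q = 1) (hq : q.Prime)
    [NeZero M] [NeZero q] [NeZero (M * q)] [NeZero (M * q * q)]
    (hqM : ¬ q ∣ M) (hA : A.LiesOverPrime q)
    (htame : Fermat.Agent.S36.NU.H81.TameNU (M * q) q) (p : ℕ) (hp : 0 < p) :
    Fermat.Agent.S59.LL.SQ.H35.Reg11At A q M B k hB hq hqM hA p :=
  reg11At_cases A q M B k hB hq hqM hA (tameAt_of_tameNU hq htame) (cases_of_tameNU hq htame)
    p hp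

end Fermat.Agent.S59.LL.SQ.H16

end
end
-- ==== END Fermat.Agent.S59.LL.SQ.H16_RegFinal

-- ==== BEGIN Fermat.Agent.S59.LL.SQ.H38_T3Up
section

/-!
# S59 / LL / SQ, leaf U1 T3-UP (helper38): the hypotheses of (T′) pass to the level `M ℓ`

Level `M q²`, `q ∤ M`; `ℓ` prime to `q`; `ι^* = upPull : J₀(M q²) → J₀((M ℓ) q²)`.

* `isKum_up`, `isUnit3_up`, `isCPow3_up`, `inG3_up`, `inT3_up` : Kummer functions and the finite
  and toric parts;
* `upPull_fixed` : points fixed by inertia;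
* `push_pull_alpha`, `push_pull_beta`, `isQNew_up` : `q`-new points (base change of the norms,
  `S36.NU.H44.norm_alpha_up_dvd`);
* `upPull_ne_zero` (`ℓ ∣ 36`, torsion points), `upPull_zsmul_eq_zero`;
* `t3_up` : the package.
-/

set_option autoImplicit false
set_option linter.style.haveILetI false
set_option linter.unusedSectionVars false
set_option synthInstance.maxHeartbeats 400000
set_option maxHeartbeats 1000000

noncomputable section

open AlgebraicCurve ModularCurve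
open Fermat.Agent.S24 Fermat.Agent.BAD Fermat.Agent.BAD.H88
open Fermat.Agent.S28 Fermat.Agent.S28.H73 Fermat.Agent.RED.H73 Fermat.Agent.RED.H17
open Fermat.Agent.S36.NU.H88 Fermat.Agent.S36.NU.H23
open Fermat.Agent.Lib.HeckeComm Fermat.Agent.NEB.H14 Fermat.Agent.RED
open Fermat.Agent.S35.H89 Fermat.Agent.S36.H44

namespace Fermat.Agent.S59.LL.SQ.H38

section Kum

variable (A : ValuationSubring Kbar) (q M ℓ : ℕ) (B k B' k' : ℤ) (hB : B * M + k * q = 1)
  (hB' : B' * ((M * ℓ : ℕ) : ℤ) + k' * q = 1) (hq : q.Prime)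
  [NeZero M] [NeZero q] [NeZero ℓ] [NeZero (M * ℓ)] [NeZero (M * q)] [NeZero (M * ℓ * q)]
  [NeZero (M * q * q)] [NeZero (M * ℓ * q * q)]

/-- Kummer functions pass to the upper level. -/
theorem isKum_up (n : ℕ) (x : JZero (M * q * q)) (h : ↥(L0 A (M * q * q)))
    (H : IsKum A q M n x h) :
    IsKum A q (M * ℓ) n (upPull M q (M * ℓ) (dvd_mul_right M ℓ) x)
      (upL0 A M q (M * ℓ) (dvd_mul_right M ℓ) h) := by
  obtain ⟨D, rfl, hD⟩ := H
  have hF := H95.stmt_HKA_isFF (M * q * q)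
  have hF' := H95.stmt_HKA_isFF (M * ℓ * q * q)
  haveI : HasPrincipalDivisors Kbar ↥(modularFunctionFieldBar (M * ℓ * q * q)) := hasPD hF'
  refine ⟨_, upPull_mk M q (M * ℓ) (dvd_mul_right M ℓ) D, fun P => ?_⟩
  rw [coe_degZeroMap, pullD_eq hF hF', Divisor.pullbackAlong_apply, coe_upL0,
    Place.ord_restrictAlong (upF M q (M * ℓ) (dvd_mul_right M ℓ))
      (upF_integral M q (M * ℓ) (dvd_mul_right M ℓ)), ← hD]
  ring

variable (hA : A.LiesOverPrime q) (hℓq : Nat.Coprime ℓ q)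

include hA hℓq in
/-- Units for the three valuations pass to the upper level. -/
theorem isUnit3_up (h : ↥(L0 A (M * q * q))) (H : IsUnit3 A q M B k hB hq h) :
    IsUnit3 A q (M * ℓ) B' k' hB' hq (upL0 A M q (M * ℓ) (dvd_mul_right M ℓ) h) := by
  obtain ⟨⟨h20, e20⟩, ⟨h11, e11⟩, ⟨h02, e02⟩⟩ := H
  have h20' := (up_mem_V20o_iff A q M ℓ h).2 h20
  have h11' := (up_mem_V11o_iff A q M ℓ B k B' k' hB hB' hq hA hℓq h).2 h11
  have h02' := (up_mem_V02o_iff A q M ℓ B k B' k' hB hB' h).2 h02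
  refine ⟨⟨h20', ?_⟩, ⟨h11', ?_⟩, ⟨h02', ?_⟩⟩
  · rw [s20_up A q M ℓ h h20 h20']
    exact e20
  · rw [s11_up A q M ℓ B k B' k' hB hB' hq hA hℓq h h11 h11']
    exact e11
  · rw [s02_up A q M ℓ B k B' k' hB hB' h h02 h02']
    exact e02

include hA hℓq in
/-- "Constant times `n`-th power" passes to the upper level. -/
theorem isCPow3_up (n : ℕ) (h : ↥(L0 A (M * q * q))) (H : IsCPow3 A q M B k hB hq n h) :
    IsCPow3 A q (M * ℓ) B' k' hB' hq n (upL0 A M q (M * ℓ) (dvd_mul_right M ℓ) h) := by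
  obtain ⟨⟨h20, c, ⟨g, hg⟩, hc, hg0, e⟩, ⟨h11, c', ⟨g', hg'⟩, hc', hg'0, e'⟩,
    ⟨h02, c'', ⟨g'', hg''⟩, hc'', hg''0, e''⟩⟩ := H
  have h20' := (up_mem_V20o_iff A q M ℓ h).2 h20
  have h11' := (up_mem_V11o_iff A q M ℓ B k B' k' hB hB' hq hA hℓq h).2 h11
  have h02' := (up_mem_V02o_iff A q M ℓ B k B' k' hB hB' h).2 h02
  have hg20' := (up_mem_V20o_iff A q M ℓ g).2 hg
  have hg11' := (up_mem_V11o_iff A q M ℓ B k B' k' hB hB' hq hA hℓq g').2 hg'
  have hg02' := (up_mem_V02o_iff A q M ℓ B k B' k' hB hB' g'').2 hg''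
  refine ⟨⟨h20', c, ⟨_, hg20'⟩, hc, ?_, ?_⟩, ⟨h11', c', ⟨_, hg11'⟩, hc', ?_, ?_⟩,
    ⟨h02', c'', ⟨_, hg02'⟩, hc'', ?_, ?_⟩⟩
  · rw [s20_up A q M ℓ g hg hg20']
    exact hg0
  · rw [s20_up A q M ℓ g hg hg20', s20_up A q M ℓ h h20 h20']
    exact e
  · rw [s11_up A q M ℓ B k B' k' hB hB' hq hA hℓq g' hg' hg11']
    exact hg'0
  · rw [s11_up A q M ℓ B k B' k' hB hB' hq hA hℓq g' hg' hg11',
      s11_up A q M ℓ B k B' k' hB hB' hq hA hℓq h h11 h11']
    exact e'
  · rw [s02_up A q M ℓ B k B' k' hB hB' g'' hg'' hg02']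
    exact hg''0
  · rw [s02_up A q M ℓ B k B' k' hB hB' g'' hg'' hg02',
      s02_up A q M ℓ B k B' k' hB hB' h h02 h02']
    exact e''

include hA hℓq in
/-- **The finite part passes to the upper level.** -/
theorem inG3_up (n : ℕ) (x : JZero (M * q * q)) (H : InG3 A q M B k hB hq n x) :
    InG3 A q (M * ℓ) B' k' hB' hq n (upPull M q (M * ℓ) (dvd_mul_right M ℓ) x) := by
  obtain ⟨h, h1, h2⟩ := H
  exact ⟨upL0 A M q (M * ℓ) (dvd_mul_right M ℓ) h, isKum_up A q M ℓ n x h h1,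
    isUnit3_up A q M ℓ B k B' k' hB hB' hq hA hℓq h h2⟩

include hA hℓq in
/-- **The toric part passes to the upper level.** -/
theorem inT3_up (n : ℕ) (x : JZero (M * q * q)) (H : InT3 A q M B k hB hq n x) :
    InT3 A q (M * ℓ) B' k' hB' hq n (upPull M q (M * ℓ) (dvd_mul_right M ℓ) x) := by
  obtain ⟨h, h1, h2⟩ := H
  exact ⟨upL0 A M q (M * ℓ) (dvd_mul_right M ℓ) h, isKum_up A q M ℓ n x h h1,
    isCPow3_up A q M ℓ B k B' k' hB hB' hq hA hℓq n h h2⟩

end Kum

/-! ## Galois, torsion -/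

section Gal

variable (A : ValuationSubring Kbar) (q M ℓ : ℕ)
  [NeZero (M * q * q)] [NeZero (M * ℓ * q * q)]

/-- Points fixed by inertia pass to the upper level. -/
theorem upPull_fixed (x : JZero (M * q * q))
    (hI : ∀ σ ∈ A.inertiaSubgroupIn ℚ, σ • x = x) :
    ∀ σ ∈ A.inertiaSubgroupIn ℚ,
      σ • upPull M q (M * ℓ) (dvd_mul_right M ℓ) x
        = upPull M q (M * ℓ) (dvd_mul_right M ℓ) x := by
  intro σ hσ
  rw [← upPull_smul, hI σ hσ]

theorem upPull_zsmul_eq_zero (n : ℤ) (x : JZero (M * q * q)) (hx : n • x = 0) :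
    n • upPull M q (M * ℓ) (dvd_mul_right M ℓ) x = 0 := by
  rw [← map_zsmul, hx, map_zero]

/-- Non-zero torsion points stay non-zero (`ℓ ∣ 36`). -/
theorem upPull_ne_zero (hℓ : ℓ ∣ 36) (m : ℕ) (hm : 0 < m) (x : JZero (M * q * q))
    (hmx : m • x = 0) (hx : x ≠ 0) :
    upPull M q (M * ℓ) (dvd_mul_right M ℓ) x ≠ 0 := by
  intro h0
  refine hx (upPull_injective_of_torsion M q (M * ℓ) (dvd_mul_right M ℓ) ?_ m hm x hmx h0)
  obtain ⟨c, hc⟩ := hℓ
  exact ⟨c, by rw [hc]; ring⟩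

end Gal

/-! ## `q`-new points -/

section New

variable (q M ℓ : ℕ) [NeZero M] [NeZero q] [NeZero ℓ] [NeZero (M * q)] [NeZero (M * ℓ * q)]
  [NeZero (M * q * q)] [NeZero (M * ℓ * q * q)]

omit [NeZero M] [NeZero q] [NeZero ℓ] [NeZero (M * q)] [NeZero (M * ℓ * q)]
  [NeZero (M * q * q)] [NeZero (M * ℓ * q * q)] in
theorem dvd_lowLevel : M * q ∣ M * ℓ * q := ⟨ℓ, by ring⟩

/-- The inclusion at the lower level, `ι' : F_{M q} → F_{(M ℓ) q}`. -/
def lowF : FN (M * q) →ₐ[Kbar] FN (M * ℓ * q) := inclFN (M * q) (M * ℓ * q) (dvd_lowLevel q M ℓ)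

@[simp]
theorem coe_lowF (x : FN (M * q)) :
    (lowF q M ℓ x : LaurentSeries Kbar) = (x : LaurentSeries Kbar) :=
  coe_inclFN _ _ _ x

/-- Base change of the norm along `α`, generic upper level. -/
theorem norm_alpha_bc_gen (hq : q.Prime) (hqℓ : ¬ q ∣ ℓ) (X : ℕ) [NeZero X] [NeZero (X * q)]
    (hX : X = ℓ * (M * q)) (h1 : M * q ∣ X) (h2 : M * q * q ∣ X * q) (x : FN (M * q * q)) :
    inclFN (M * q) X h1 (normAlongHom (heckeAlphaBar Kbar (M * q) q).toRingHom x)
      = normAlongHom (heckeAlphaBar Kbar X q).toRingHom (inclFN (M * q * q) (X * q) h2 x) := by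
  subst hX
  exact Fermat.Agent.S36.NU.H44.norm_alpha_up_dvd (M * q) q ℓ hq (dvd_mul_left q M) hqℓ x

/-- Base change of the norm along `β`, generic upper level. -/
theorem norm_beta_bc_gen (hq : q.Prime) (hqℓ : ¬ q ∣ ℓ) (X : ℕ) [NeZero X] [NeZero (X * q)]
    (hX : X = ℓ * (M * q)) (h1 : M * q ∣ X) (h2 : M * q * q ∣ X * q) (x : FN (M * q * q)) :
    inclFN (M * q) X h1 (normAlongHom (heckeBetaBar Kbar (M * q) q).toRingHom x)
      = normAlongHom (heckeBetaBar Kbar X q).toRingHom (inclFN (M * q * q) (X * q) h2 x) := by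
  subst hX
  exact Fermat.Agent.S36.NU.H44.norm_beta_up_dvd (M * q) q ℓ hq (dvd_mul_left q M) hqℓ x

theorem norm_alpha_bc (hq : q.Prime) (hqℓ : ¬ q ∣ ℓ) (x : FN (M * q * q)) :
    lowF q M ℓ (normAlongHom (heckeAlphaBar Kbar (M * q) q).toRingHom x)
      = normAlongHom (heckeAlphaBar Kbar (M * ℓ * q) q).toRingHom
          (upF M q (M * ℓ) (dvd_mul_right M ℓ) x) :=
  norm_alpha_bc_gen q M ℓ hq hqℓ (M * ℓ * q) (by ring) _ _ x

theorem norm_beta_bc (hq : q.Prime) (hqℓ : ¬ q ∣ ℓ) (x : FN (M * q * q)) :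
    lowF q M ℓ (normAlongHom (heckeBetaBar Kbar (M * q) q).toRingHom x)
      = normAlongHom (heckeBetaBar Kbar (M * ℓ * q) q).toRingHom
          (upF M q (M * ℓ) (dvd_mul_right M ℓ) x) :=
  norm_beta_bc_gen q M ℓ hq hqℓ (M * ℓ * q) (by ring) _ _ x

/-- **Base change**: `α'_* ι^* = ι'^* α_*` on divisors. -/
theorem push_pull_alpha (hq : q.Prime) (hqℓ : ¬ q ∣ ℓ) :
    (pushD (heckeAlphaBar Kbar (M * ℓ * q) q)).comp
        (pullD (upF M q (M * ℓ) (dvd_mul_right M ℓ)))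
      = (pullD (lowF q M ℓ)).comp (pushD (heckeAlphaBar Kbar (M * q) q)) := by
  have hF1 := H95.stmt_HKA_isFF (M * q)
  have hF2 := H95.stmt_HKA_isFF (M * q * q)
  have hF1' := H95.stmt_HKA_isFF (M * ℓ * q)
  have hF2' := H95.stmt_HKA_isFF (M * ℓ * q * q)
  haveI := hasPD hF2
  refine ((isCorr_pushD hF1' hF2' _).comp (isCorr_pullD hF2 hF2' _)).eq
    ((isCorr_pullD hF1 hF1' _).comp (isCorr_pushD hF1 hF2 _)) (fun f _ => ?_)
  exact (norm_alpha_bc q M ℓ hq hqℓ f).symm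

/-- **Base change**: `β'_* ι^* = ι'^* β_*` on divisors. -/
theorem push_pull_beta (hq : q.Prime) (hqℓ : ¬ q ∣ ℓ) :
    (pushD (heckeBetaBar Kbar (M * ℓ * q) q)).comp
        (pullD (upF M q (M * ℓ) (dvd_mul_right M ℓ)))
      = (pullD (lowF q M ℓ)).comp (pushD (heckeBetaBar Kbar (M * q) q)) := by
  have hF1 := H95.stmt_HKA_isFF (M * q)
  have hF2 := H95.stmt_HKA_isFF (M * q * q)
  have hF1' := H95.stmt_HKA_isFF (M * ℓ * q)
  have hF2' := H95.stmt_HKA_isFF (M * ℓ * q * q)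
  haveI := hasPD hF2
  refine ((isCorr_pushD hF1' hF2' _).comp (isCorr_pullD hF2 hF2' _)).eq
    ((isCorr_pullD hF1 hF1' _).comp (isCorr_pushD hF1 hF2 _)) (fun f _ => ?_)
  exact (norm_beta_bc q M ℓ hq hqℓ f).symm

/-- **`q`-new points pass to the upper level.** -/
theorem isQNew_up (hq : q.Prime) (hqℓ : ¬ q ∣ ℓ) (x : JZero (M * q * q))
    (H : IsQNew (M * q) q x) :
    IsQNew (M * ℓ * q) q (upPull M q (M * ℓ) (dvd_mul_right M ℓ) x) := by
  obtain ⟨hα, hβ, D, rfl, hDα, hDβ⟩ := H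
  have hF1 := H95.stmt_HKA_isFF (M * q)
  have hF2 := H95.stmt_HKA_isFF (M * q * q)
  have hF1' := H95.stmt_HKA_isFF (M * ℓ * q)
  have hF2' := H95.stmt_HKA_isFF (M * ℓ * q * q)
  refine ⟨alpha_integral (M * ℓ * q) q, beta_integral (M * ℓ * q) q, _,
    upPull_mk M q (M * ℓ) (dvd_mul_right M ℓ) D, ?_, ?_⟩
  · rw [coe_degZeroMap]
    have h1 := DFunLike.congr_fun (push_pull_alpha q M ℓ hq hqℓ)
      (D : Divisor Kbar (FN (M * q * q)))
    rw [AddMonoidHom.comp_apply, AddMonoidHom.comp_apply, pushD_eq hF1' hF2',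
      pushD_eq hF1 hF2] at h1
    have h2 : pullD (lowF q M ℓ)
        (Divisor.pushforwardAlong (heckeAlphaBar Kbar (M * q) q) hα
          (D : Divisor Kbar (FN (M * q * q))))
        ∈ Divisor.principal (K := Kbar) (F := FN (M * ℓ * q)) :=
      (isCorr_pullD hF1 hF1' (lowF q M ℓ)).hasFn.map_principal hDα
    rw [← h1] at h2
    exact h2
  · rw [coe_degZeroMap]
    have h1 := DFunLike.congr_fun (push_pull_beta q M ℓ hq hqℓ)
      (D : Divisor Kbar (FN (M * q * q)))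
    rw [AddMonoidHom.comp_apply, AddMonoidHom.comp_apply, pushD_eq hF1' hF2',
      pushD_eq hF1 hF2] at h1
    have h2 : pullD (lowF q M ℓ)
        (Divisor.pushforwardAlong (heckeBetaBar Kbar (M * q) q) hβ
          (D : Divisor Kbar (FN (M * q * q))))
        ∈ Divisor.principal (K := Kbar) (F := FN (M * ℓ * q)) :=
      (isCorr_pullD hF1 hF1' (lowF q M ℓ)).hasFn.map_principal hDβ
    rw [← h1] at h2
    exact h2

end New

/-! ## The package -/

section Package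

variable (A : ValuationSubring Kbar) (q M ℓ : ℕ) (B k B' k' : ℤ) (hB : B * M + k * q = 1)
  (hB' : B' * ((M * ℓ : ℕ) : ℤ) + k' * q = 1) (hq : q.Prime)
  [NeZero M] [NeZero q] [NeZero ℓ] [NeZero (M * ℓ)] [NeZero (M * q)] [NeZero (M * ℓ * q)]
  [NeZero (M * q * q)] [NeZero (M * ℓ * q * q)]

/-- **U1 T3-UP**: the hypotheses of `TorSpanSqAt` pass from the level `M` to the level `M ℓ`
(`ℓ ∣ 36` prime to `q`), along `ι^* = upPull`. -/
theorem t3_up (hA : A.LiesOverPrime q) (hℓ : ℓ ∣ 36) (hqℓ : ¬ q ∣ ℓ) (p : ℕ) (hp : 0 < p)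
    (x : JZero (M * q * q)) (hx0 : x ≠ 0) (hxp : (p : ℤ) • x = 0)
    (hnew : IsQNew (M * q) q x)
    (hI : ∀ σ ∈ A.inertiaSubgroupIn ℚ, σ • x = x)
    (hT3 : InT3 A q M B k hB hq p x) :
    upPull M q (M * ℓ) (dvd_mul_right M ℓ) x ≠ 0 ∧
    (p : ℤ) • upPull M q (M * ℓ) (dvd_mul_right M ℓ) x = 0 ∧
    IsQNew (M * ℓ * q) q (upPull M q (M * ℓ) (dvd_mul_right M ℓ) x) ∧
    (∀ σ ∈ A.inertiaSubgroupIn ℚ,
      σ • upPull M q (M * ℓ) (dvd_mul_right M ℓ) x
        = upPull M q (M * ℓ) (dvd_mul_right M ℓ) x) ∧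
    InT3 A q (M * ℓ) B' k' hB' hq p (upPull M q (M * ℓ) (dvd_mul_right M ℓ) x) := by
  have hℓq : Nat.Coprime ℓ q :=
    (Nat.coprime_comm.mp ((Nat.Prime.coprime_iff_not_dvd hq).2 hqℓ))
  have hxp' : p • x = 0 := by
    rw [← natCast_zsmul]
    exact hxp
  exact ⟨upPull_ne_zero q M ℓ hℓ p hp x hxp' hx0, upPull_zsmul_eq_zero q M ℓ _ x hxp,
    isQNew_up q M ℓ hq hqℓ x hnew, upPull_fixed A q M ℓ x hI,
    inT3_up A q M ℓ B k B' k' hB hB' hq hA hℓq p x hT3⟩

end Package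

end Fermat.Agent.S59.LL.SQ.H38

end
end
-- ==== END Fermat.Agent.S59.LL.SQ.H38_T3Up

-- ==== BEGIN Fermat.Agent.S59.LL.SQ.H58_Tame
section

/-!
# S59, package LL / SQ (helper58): the package SQ at the TAME levels

The chart geometry of NU-B at the level `M q²` exists at the tame levels only
(`S36.NU.H81.TameNU (M * q) q`: `q` odd and `4 ∣ M`, or `q = 2` and `9 ∣ M`); the wiring
`LL.H40.llec0_at` of helper40 needs the package SQ at the levels `M q²`, `q` odd, `4 ∣ M`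
(`LL.H40.SqNewTameAt`), and at `q = 2` (`LL.H40.SqNewTwoAt`, from the levels `q = 2`, `9 ∣ M` by
the leaves UP for `p ≥ 5`, from SQ23 for `p = 3`).  The trichotomy at one level is
`SQ.hasSqNewPartAt_of`.

* `Stmt_Reg11Tame`      : REG for the component `11` at the tame levels (helper16);
* `Stmt_CPow2002Tame`   : B2 for the components `20`, `02` at the tame levels (helper87);
* `Stmt_TorSpanSqTame`  : **(T′)** at the tame levels;
* `hasSqNewPartAt_tame` : the package SQ at one tame level `M q²`;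
* `sqNewTameAt_of : Stmt_Reg11Tame → Stmt_CPow2002Tame → Stmt_TorSpanSqTame →
    ∀ p, p.Prime → p ≠ 2 → LL.H40.SqNewTameAt p`
  (with (E) of helper33, (R) of helper35 and `HRcore` of helper78 plugged);
* `sqNewTwoTame_of`     : the same at `q = 2`, `9 ∣ M` (the input of the leaves UP).
-/

set_option autoImplicit false
set_option synthInstance.maxHeartbeats 400000
set_option maxHeartbeats 1000000
set_option linter.unusedSectionVars false
set_option linter.unusedVariables false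
set_option linter.style.haveILetI false

noncomputable section

open ModularCurve AlgebraicCurve
open Fermat.Agent.S24 Fermat.Agent.S28 Fermat.Agent.S28.H73 Fermat.Agent.RED.H73
open Fermat.Agent.RED Fermat.Agent.S36.NU.H23 Fermat.Agent.S44 Fermat.Agent.S35.H89
open Fermat.Agent.S36.NU.H81

namespace Fermat.Agent.S59.LL.SQ.H58

/-- **REG for the component `11` at the tame levels** `M q²`. -/
def Stmt_Reg11Tame : Prop :=
  ∀ (p : ℕ), p.Prime → p ≠ 2 → ∀ (q M : ℕ) (B k : ℤ) (hB : B * M + k * q = 1) (hq : q.Prime)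
    [NeZero M] [NeZero q] [NeZero (M * q)] [NeZero (M * q * q)], q ≠ p → TameNU (M * q) q →
    ∀ (hqM : ¬ q ∣ M) (A : ValuationSubring Kbar) (hA : A.LiesOverPrime q),
      H35.Reg11At A q M B k hB hq hqM hA p

/-- **B2 for the components `20` and `02` at the tame levels.** -/
def Stmt_CPow2002Tame : Prop :=
  ∀ (p : ℕ), p.Prime → p ≠ 2 → ∀ (q M : ℕ) (B k : ℤ) (hB : B * M + k * q = 1) (hq : q.Prime)
    [NeZero M] [NeZero q] [NeZero (M * q)] [NeZero (M * q * q)], q ≠ p → TameNU (M * q) q →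
    ¬ q ∣ M → ∀ (A : ValuationSubring Kbar), A.LiesOverPrime q →
      H35.CPow2002At A q M B k hB hq p

/-- **(T′) at the tame levels.** -/
def Stmt_TorSpanSqTame : Prop :=
  ∀ (p : ℕ), p.Prime → p ≠ 2 → ∀ (q M : ℕ) (B k : ℤ) (hB : B * M + k * q = 1) (hq : q.Prime)
    [NeZero M] [NeZero q] [NeZero (M * q)] [NeZero (M * q * q)], q ≠ p → TameNU (M * q) q →
    ¬ q ∣ M → ∀ A : ValuationSubring Kbar, A.LiesOverPrime q → TorSpanSqAt A q M B k hB hq p

/-- **The package SQ at one tame level** `M q²`, from REG, B2 and (T′) at the tame levels. -/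
theorem hasSqNewPartAt_tame (hreg : Stmt_Reg11Tame) (hcp : Stmt_CPow2002Tame)
    (hT : Stmt_TorSpanSqTame) (p : ℕ) (hp : p.Prime) (hp2 : p ≠ 2) (q M : ℕ)
    [NeZero M] [NeZero q] [NeZero (M * q)] (hq : q.Prime) (hqp : q ≠ p) (hqM : ¬ q ∣ M)
    (ht : TameNU (M * q) q) (A : ValuationSubring Kbar) (hA : A.LiesOverPrime q) :
    H40.HasSqNewPartAt p (M * q) q A := by
  haveI : NeZero (M * q * q) :=
    ⟨mul_ne_zero (mul_ne_zero (NeZero.ne M) hq.ne_zero) hq.ne_zero⟩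
  have hcop : IsCoprime (M : ℤ) (q : ℤ) :=
    Nat.isCoprime_iff_coprime.2 ((Nat.Prime.coprime_iff_not_dvd hq).2 hqM).symm
  obtain ⟨B, k, hB⟩ := hcop
  exact hasSqNewPartAt_of Fermat.Agent.RED.H78.stmt_HRcore p hp q M B k hB hq hqM A hA
    (H33.stmt_CompEisSq p hp hp2 q M B k hB hq hqp hqM A hA)
    (H35.oldRedSqAt_of A q M B k hB hq hqM hA p hp
      (hreg p hp hp2 q M B k hB hq hqp ht hqM A hA)
      (hcp p hp hp2 q M B k hB hq hqp ht hqM A hA))
    (torSqAt_of_span A q M B k hB hq hp (hT p hp hp2 q M B k hB hq hqp ht hqM A hA))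

/-- **The package SQ at the tame levels with `q` odd** (`LL.H40.SqNewTameAt`). -/
theorem sqNewTameAt_of (hreg : Stmt_Reg11Tame) (hcp : Stmt_CPow2002Tame)
    (hT : Stmt_TorSpanSqTame) (p : ℕ) (hp : p.Prime) (hp2 : p ≠ 2) :
    Fermat.Agent.S59.LL.H40.SqNewTameAt p := by
  intro M q _ _ hq hqp hq2 hqM hq2M h4 A hA
  obtain ⟨M', rfl⟩ : ∃ M', M = M' * q := ⟨M / q, (Nat.div_mul_cancel hqM).symm⟩
  have hqM' : ¬ q ∣ M' := by
    rintro ⟨c, rfl⟩
    exact hq2M ⟨c, by ring⟩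
  have hM'0 : M' ≠ 0 := by
    rintro rfl
    exact hqM' (dvd_zero q)
  haveI : NeZero M' := ⟨hM'0⟩
  exact hasSqNewPartAt_tame hreg hcp hT p hp hp2 q M' hq hqp hqM' (Or.inl ⟨hq2, h4⟩) A hA

/-- **The package SQ at the tame levels with `q = 2`**: the levels `4 M`, `M` odd, `9 ∣ M`. -/
theorem sqNewTwoTame_of (hreg : Stmt_Reg11Tame) (hcp : Stmt_CPow2002Tame)
    (hT : Stmt_TorSpanSqTame) (p : ℕ) (hp : p.Prime) (hp2 : p ≠ 2) (M : ℕ) [NeZero M]
    (hM2 : ¬ 2 ∣ M) (h9 : 9 ∣ M) (A : ValuationSubring Kbar) (hA : A.LiesOverPrime 2) :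
    H40.HasSqNewPartAt p (M * 2) 2 A :=
  hasSqNewPartAt_tame hreg hcp hT p hp hp2 2 M Nat.prime_two (fun h => hp2 h.symm) hM2
    (Or.inr ⟨rfl, Dvd.dvd.mul_right h9 2⟩) A hA

end Fermat.Agent.S59.LL.SQ.H58

end
end
-- ==== END Fermat.Agent.S59.LL.SQ.H58_Tame
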