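-- GENERATED (merged mirror, NOTES/tools/trim/merge3_helper67.py): 11 modules of the originals, bodies verbatim.
import Mathlib
import Fermat.Agent.Zm.S59_L08_000
import Fermat.Agent.Zm.S59_L03_003
import Fermat.Agent.Zm.S59_L06_001
import Fermat.Agent.Zm.S59_L04_000
import Fermat.Agent.Zm.S59_L08_001
import Fermat.Agent.Zm.S59_L07_000
import Fermat.Agent.Zm.S59_L02_001
import Fermat.Agent.Zm.S59_L05_001
import Fermat.Agent.Zm.S59_L02_002
import Fermat.Agent.Zm.S59_L05_002
import Fermat.Agent.Zm.S59_L08_002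
import Fermat.Agent.Zm.S59_L03_005
import Fermat.Agent.Zm.S43_L03_003
import Fermat.Agent.Zm.S43_L02_003

-- ==== BEGIN Fermat.Agent.S27.Char0.H20_EisExB
section

/-!
# S27 char-0 half, leaf EIS-EX (helper20), part B: a function with a single zero, and the
minimal polynomial of a uniformizer.
-/

set_option autoImplicit false
set_option linter.style.haveILetI false

noncomputable section

open AlgebraicCurve IntermediateField Polynomial

namespace Fermat.Agent.S27.Char0.H20

open Fermat.Agent.RED.H51 Fermat.Agent.S24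

universe u v

variable {K : Type u} {F : Type v} [Field K] [Field F] [Algebra K F]

local notation "L" => riemannRochSpace

/-- An algebraic element is a constant. -/
theorem mem_range_of_isAlgebraic [IsAlgClosed K] {f : F} (hf : IsAlgebraic K f) :
    ∃ a : K, algebraMap K F a = f := by
  have hint : IsIntegral K f := hf.isIntegral
  have h1 := IsAlgClosed.degree_eq_one_of_irreducible K (minpoly.irreducible hint)
  exact minpoly.mem_range_of_degree_eq_one K f h1

/-- A space `L(D)` of dimension at least `2` contains a transcendental function. -/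
theorem exists_transcendental_mem_L [IsAlgClosed K] (D : Divisor K F)
    (h2 : 2 ≤ Module.finrank K (L D)) : ∃ f ∈ L D, Transcendental K f := by
  by_contra hcon
  push Not at hcon
  have hle : L D ≤ Submodule.span K {(1 : F)} := fun f hf => by
    have hfa : IsAlgebraic K f := by
      by_contra h
      exact hcon f hf h
    obtain ⟨a, rfl⟩ := mem_range_of_isAlgebraic hfa
    exact Submodule.mem_span_singleton.mpr ⟨a, by rw [Algebra.smul_def, mul_one]⟩
  have h1 := Submodule.finrank_mono hle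
  rw [finrank_span_singleton (one_ne_zero)] at h1
  omega

/-- **Step 1**: a function with a single zero `P`, of order `[F : K(w)]`. -/
theorem exists_single_zero [IsAlgClosed K] (hFF : IsFFu K F)
    (H : Fermat.Agent.RED.H17.FFHyp K F) {g : ℕ} {c : ℤ}
    (hg : Fermat.Agent.RED.H17.IsGenus K F g c) :
    ∃ (P : Place K F) (w : F), Transcendental K w ∧ Module.Finite K⟮w⟯ F ∧
      0 < Module.finrank K⟮w⟯ F ∧ P.ord w = Module.finrank K⟮w⟯ F := by
  classical
  obtain ⟨x₀, hx₀, hfin₀⟩ := hFF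
  haveI := hfin₀
  have hfinall : ∀ y : F, Transcendental K y → FiniteDimensional K⟮y⟯ F :=
    fun y hy => ff_finite_of_transcendental x₀ hx₀ y hy
  obtain ⟨P, -⟩ := Fermat.Agent.RED.H12.exists_place_ord_pos hfinall x₀ hx₀
  set D : Divisor K F := Finsupp.single P ((g : ℤ) + 1) with hD
  have hdeg : Divisor.degree D = (g : ℤ) + 1 := by
    rw [hD, Divisor.degree_single, H.deg_one P]
    simp
  have hl := (hg D).1
  rw [hdeg] at hl
  have h2 : 2 ≤ Module.finrank K (L D) := by omega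
  obtain ⟨f, hfL, hftr⟩ := exists_transcendental_mem_L D h2
  have hf0 : f ≠ 0 := fun h => hftr (h ▸ isAlgebraic_zero)
  have hwtr : Transcendental K f⁻¹ := fun h => hftr (IsAlgebraic.inv_iff.mp h)
  haveI hwfin : FiniteDimensional K⟮f⁻¹⟯ F := hfinall _ hwtr
  have hz : H59.ZerosStmt K F := Lift.H45.zerosStmt_u hx₀
  obtain ⟨hSfin, hsum⟩ := hz f⁻¹ hwtr
  have hpos : 0 < Module.finrank K⟮f⁻¹⟯ F := Module.finrank_pos
  have hsub : ∀ v : Place K F, 0 < v.ord f⁻¹ → v = P := by
    intro v hv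
    by_contra hne
    have h1 := ((mem_riemannRochSpace_iff.mp hfL) v).resolve_left hf0
    rw [hD, Finsupp.single_apply, if_neg (Ne.symm hne)] at h1
    rw [Place.ord_inv] at hv
    omega
  have hS : {v : Place K F | 0 < v.ord f⁻¹} = {P} := by
    ext v
    simp only [Set.mem_ofPred_eq, Set.mem_singleton_iff]
    refine ⟨hsub v, ?_⟩
    rintro rfl
    by_contra hv
    have hemp : {v : Place K F | 0 < v.ord f⁻¹} = ∅ := by
      ext v'
      simp only [Set.mem_ofPred_eq, Set.mem_empty_iff_false, iff_false]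
      intro hv'
      exact hv (hsub v' hv' ▸ hv')
    rw [hemp, finsum_mem_empty] at hsum
    have : (0 : ℤ) < Module.finrank K⟮f⁻¹⟯ F := by exact_mod_cast hpos
    omega
  rw [hS, finsum_mem_singleton] at hsum
  exact ⟨P, f⁻¹, hwtr, hwfin, hpos, hsum⟩

/-- **Step 4**: the minimal polynomial of a uniformizer over `K(w)` is an Eisenstein
polynomial. -/
theorem minpoly_eisenstein (P : Place K F) {w θ : F} [Module.Finite K⟮w⟯ F]
    (hd : 0 < Module.finrank K⟮w⟯ F) (hord : P.ord w = Module.finrank K⟮w⟯ F)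
    (hθ : P.ord θ = 1) :
    (minpoly K⟮w⟯ θ).natDegree = Module.finrank K⟮w⟯ F ∧
    (∀ i < Module.finrank K⟮w⟯ F, (((minpoly K⟮w⟯ θ).coeff i : K⟮w⟯) : F) = 0 ∨
      P.ord w ≤ P.ord (((minpoly K⟮w⟯ θ).coeff i : K⟮w⟯) : F)) ∧
    (((minpoly K⟮w⟯ θ).coeff 0 : K⟮w⟯) : F) ≠ 0 ∧
    P.ord (((minpoly K⟮w⟯ θ).coeff 0 : K⟮w⟯) : F) = P.ord w := by
  classical
  set d := Module.finrank K⟮w⟯ F with hd_def
  have hwpos : 0 < P.ord w := by rw [hord]; exact_mod_cast hd
  have hθ0 : θ ≠ 0 := ne_zero_of_ord_ne_zero P (by rw [hθ]; norm_num)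
  have hint : IsIntegral K⟮w⟯ θ := IsIntegral.of_finite K⟮w⟯ θ
  set μ := minpoly K⟮w⟯ θ with hμ
  have hmonic : μ.Monic := minpoly.monic hint
  set r := μ.natDegree with hr_def
  have hr : r ≤ d := minpoly.natDegree_le θ
  let t : ℕ → F := fun i => ((μ.coeff i : K⟮w⟯) : F) * θ ^ i
  have hsum : ∑ i ∈ Finset.range (r + 1), t i = 0 := by
    have h1 := minpoly.aeval K⟮w⟯ θ
    rw [aeval_eq_sum_range] at h1
    rw [← h1]
    refine Finset.sum_congr rfl fun i _ => ?_
    rw [Algebra.smul_def]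
    rfl
  have htr : t r = θ ^ r := by
    show ((μ.coeff r : K⟮w⟯) : F) * θ ^ r = θ ^ r
    rw [hr_def, coeff_natDegree, hmonic.leadingCoeff]
    simp
  have hordpow : ∀ i : ℕ, P.ord (θ ^ i) = i := fun i => by rw [ord_pow, hθ, mul_one]
  -- orders of the terms
  have key : ∀ i, ((μ.coeff i : K⟮w⟯) : F) ≠ 0 →
      ∃ e : ℤ, P.ord (((μ.coeff i : K⟮w⟯) : F)) = d * e ∧ P.ord (t i) = d * e + i := by
    intro i hi
    obtain ⟨e, n, m, -, -, -, he⟩ := exists_shape P hwpos (μ.coeff i).2 hi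
    rw [hord] at he
    refine ⟨e, he, ?_⟩
    show P.ord (((μ.coeff i : K⟮w⟯) : F) * θ ^ i) = _
    rw [P.ord_mul hi (pow_ne_zero _ hθ0), he, hordpow]
  have ht0 : ∀ i, t i ≠ 0 → ((μ.coeff i : K⟮w⟯) : F) ≠ 0 := fun i hi h => hi (by
    show ((μ.coeff i : K⟮w⟯) : F) * θ ^ i = 0
    rw [h, zero_mul])
  have ht0' : ∀ i, ((μ.coeff i : K⟮w⟯) : F) ≠ 0 → t i ≠ 0 := fun i hi =>
    mul_ne_zero hi (pow_ne_zero _ hθ0)
  set I := (Finset.range (r + 1)).filter (fun i => t i ≠ 0) with hI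
  have hrI : r ∈ I := by
    rw [hI, Finset.mem_filter]
    exact ⟨Finset.mem_range.mpr (Nat.lt_succ_self r), by rw [htr]; exact pow_ne_zero _ hθ0⟩
  obtain ⟨i₀, hi₀I, hmin⟩ := Finset.exists_min_image I (fun i => P.ord (t i)) ⟨r, hrI⟩
  have hi₀ := Finset.mem_filter.mp hi₀I
  have h2 : ∃ i₁ ∈ I, i₁ ≠ i₀ ∧ P.ord (t i₁) = P.ord (t i₀) := by
    by_contra hcon
    push Not at hcon
    have hrest : OrdGe P (P.ord (t i₀) + 1) (∑ i ∈ (Finset.range (r + 1)).erase i₀, t i) := by
      refine ordGe_sum P _ _ _ fun i hi => ?_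
      rcases eq_or_ne (t i) 0 with h0 | h0
      · exact Or.inl h0
      · have hiI : i ∈ I := Finset.mem_filter.mpr ⟨(Finset.mem_erase.mp hi).2, h0⟩
        have h1 := hmin i hiI
        have h2 := hcon i hiI (Finset.mem_erase.mp hi).1
        exact Or.inr (by omega)
    have h3 := ord_add_eq P hi₀.2 hrest
    rw [Finset.add_sum_erase _ _ hi₀.1] at h3
    exact h3.1 hsum
  obtain ⟨i₁, hi₁I, hne, heq⟩ := h2
  have hi₁ := Finset.mem_filter.mp hi₁I
  obtain ⟨e₀, -, he₀⟩ := key i₀ (ht0 i₀ hi₀.2)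
  obtain ⟨e₁, -, he₁⟩ := key i₁ (ht0 i₁ hi₁.2)
  have hi₀r : i₀ ≤ r := Nat.lt_succ_iff.mp (Finset.mem_range.mp hi₀.1)
  have hi₁r : i₁ ≤ r := Nat.lt_succ_iff.mp (Finset.mem_range.mp hi₁.1)
  have hdz : (0 : ℤ) < d := by exact_mod_cast hd
  -- the two minimal indices are `0` and `d`
  have hcase : r = d ∧ ((i₀ = 0 ∧ i₁ = d) ∨ (i₀ = d ∧ i₁ = 0)) := by
    have hk : (d : ℤ) * (e₁ - e₀) = (i₀ : ℤ) - i₁ := by
      rw [he₀, he₁] at heq
      linarith
    rcases lt_trichotomy (e₁ - e₀) 0 with hneg | hzero | hpos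
    · have h1 : (d : ℤ) * (e₁ - e₀) ≤ d * (-1) :=
        mul_le_mul_of_nonneg_left (by omega) hdz.le
      have h2 : (i₁ : ℤ) - i₀ ≥ d := by linarith
      have h3 : (i₁ : ℤ) ≤ r := by exact_mod_cast hi₁r
      have h4 : (r : ℤ) ≤ d := by exact_mod_cast hr
      have h5 : (0 : ℤ) ≤ i₀ := by positivity
      refine ⟨by omega, Or.inl ⟨by omega, by omega⟩⟩
    · rw [hzero, mul_zero] at hk
      exact absurd (by omega : i₁ = i₀) hne
    · have h1 : (d : ℤ) * 1 ≤ d * (e₁ - e₀) :=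
        mul_le_mul_of_nonneg_left (by omega) hdz.le
      have h2 : (i₀ : ℤ) - i₁ ≥ d := by linarith
      have h3 : (i₀ : ℤ) ≤ r := by exact_mod_cast hi₀r
      have h4 : (r : ℤ) ≤ d := by exact_mod_cast hr
      have h5 : (0 : ℤ) ≤ i₁ := by positivity
      refine ⟨by omega, Or.inr ⟨by omega, by omega⟩⟩
  obtain ⟨hrd, hcase'⟩ := hcase
  have htd : P.ord (t d) = d := by
    rw [← hrd, htr, hordpow]
  -- the minimum is `d`, attained at `0`
  have hN : P.ord (t i₀) = d ∧ t 0 ≠ 0 ∧ P.ord (t 0) = d := by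
    rcases hcase' with ⟨h0, h1⟩ | ⟨h0, h1⟩
    · subst h0
      refine ⟨?_, hi₀.2, ?_⟩
      · rw [← heq, h1, htd]
      · rw [← heq, h1, htd]
    · subst h1
      refine ⟨by rw [h0, htd], hi₁.2, ?_⟩
      rw [heq, h0, htd]
  obtain ⟨hN0, ht00, hord0⟩ := hN
  have ht0eq : t 0 = ((μ.coeff 0 : K⟮w⟯) : F) := by
    show ((μ.coeff 0 : K⟮w⟯) : F) * θ ^ 0 = _
    rw [pow_zero, mul_one]
  refine ⟨hrd, fun i hi => ?_, ?_, ?_⟩
  · rcases eq_or_ne (((μ.coeff i : K⟮w⟯) : F)) 0 with h0 | h0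
    · exact Or.inl h0
    · right
      obtain ⟨e, he, he'⟩ := key i h0
      have hiI : i ∈ I := Finset.mem_filter.mpr
        ⟨Finset.mem_range.mpr (by omega), ht0' i h0⟩
      have h1 := hmin i hiI
      rw [hN0, he'] at h1
      have he1 : 1 ≤ e := by
        by_contra hcon
        have h0' : e ≤ 0 := by omega
        have : (d : ℤ) * e ≤ 0 := mul_nonpos_of_nonneg_of_nonpos hdz.le h0'
        have hi' : (i : ℤ) < d := by exact_mod_cast hi
        omega
      rw [he, hord]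
      have : (d : ℤ) * 1 ≤ d * e := mul_le_mul_of_nonneg_left he1 hdz.le
      linarith
  · rw [← ht0eq]
    exact ht00
  · rw [← ht0eq, hord0, hord]

end Fermat.Agent.S27.Char0.H20

end
end
-- ==== END Fermat.Agent.S27.Char0.H20_EisExB

-- ==== BEGIN Fermat.Agent.S27.Char0.Lift.H20_OrdRoot
section

/-!
# S27 LIFT / SOLVE, leaf ORD-ROOT (helper20)
-/

set_option autoImplicit false

noncomputable section

open AlgebraicCurve IntermediateField Polynomial

namespace Fermat.Agent.S27.Char0.Lift.H20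

open Fermat.Agent.RED.H51 Fermat.Agent.S27.Char0.H20

universe u v

variable {K : Type u} {F : Type v} [Field K] [Field F] [Algebra K F]

/-- `p(x) = (p ∘ (X + α))(x - α)`. -/
theorem aeval_comp_shift (x : F) (α : K) (p : K[X]) :
    aeval (x - algebraMap K F α) (p.comp (X + C α)) = aeval x p := by
  rw [aeval_comp]
  simp

/-- The order of a polynomial in `x` at a zero of `x - α`. -/
theorem ord_aeval_center (P : Place K F) {x : F} {α : K}
    (hw : 0 < P.ord (x - algebraMap K F α)) {p : K[X]} (hp : p ≠ 0) :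
    aeval x p ≠ 0 ∧
      P.ord (aeval x p) = P.ord (x - algebraMap K F α) * p.rootMultiplicity α := by
  have hq : p.comp (X + C α) ≠ 0 := by
    intro h
    have h1 : (p.comp (X + C α)).comp (X - C α) = 0 := by rw [h, zero_comp]
    rw [comp_assoc] at h1
    simp at h1
    exact hp h1
  have h1 := ord_aeval_eq P hw hq
  rw [aeval_comp_shift] at h1
  refine ⟨h1.1, ?_⟩
  rw [h1.2, ← rootMultiplicity_eq_rootMultiplicity]

/-- **ORD-ROOT**. -/
theorem stmt_OrdRoot : Solve.Stmt_OrdRoot.{u, v} := by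
  intro k Ft _ _ _ xt _ Q α hQ p m hp hm
  have hw : 0 < Q.ord (xt - algebraMap k Ft α) := by rw [hQ]; norm_num
  have h1 := (ord_aeval_center Q hw hp).2
  rw [hQ, one_mul] at h1
  rw [h1] at hm
  exact (le_rootMultiplicity_iff hp).mp (by exact_mod_cast hm)

end Fermat.Agent.S27.Char0.Lift.H20

end
end
-- ==== END Fermat.Agent.S27.Char0.Lift.H20_OrdRoot

-- ==== BEGIN Fermat.Agent.S27.CharP.H41_SysFinal
section

/-!
# S27 char-p half, leaf SYS, unconditional (helper41)

`stmt_Sys : Stmt_Sys` from `sys_of`, CNT (helper52), H90A + H90B (helper38), L-INV (helper52).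
-/

set_option autoImplicit false

namespace Fermat.Agent.S27.CharP.H41S

universe u v

/-- **SYS**, unconditional. -/
theorem stmt_Sys : Stmt_Sys.{u, v} :=
  sys_of (H52.cnt_of H38.stmt_H90A H38.stmt_H90B) H52.stmt_LInv

end Fermat.Agent.S27.CharP.H41S

end
-- ==== END Fermat.Agent.S27.CharP.H41_SysFinal

-- ==== BEGIN Fermat.Agent.S27.REDu.H34_ChartNil
section

/-!
# G-RED package IG (helper34): the nilpotency lemma (NIL) of the chart theorem

`ρ ∈ O`, `γ` its residue.  If `v_i ∈ k[xt]` are such that the values of `f = ∑ v_i b_i` at all points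
of `B` over `x = ρ` reduce to zero, then `(∑ v_i • red b_i) ^ n = (xt - γ) • z` with `z` integral
over `k[xt]`.
-/

set_option autoImplicit false

universe uC uCf uK uR uF uL uE uk ukap uFp uFt uFtp uiot uEp uKp ux3b1

noncomputable section

open Polynomial IntermediateField Module Matrix
open scoped IntermediateField.algebraAdjoinAdjoin nonZeroDivisors

namespace Fermat.Agent.S27.REDu.H34

variable {C : Type uC} {F : Type uF} {k : Type uk} {Ft : Type uFt} [Field C] [Field F] [Algebra C F] [Field k] [Field Ft] [Algebra k Ft]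

theorem evAt_algebraMap {x : F} (hx : Transcendental C x) (ρ a : C) :
    evAt hx ρ (algebraMap C ↥(Algebra.adjoin C {x}) a) = a := by
  rw [← polyEquiv_C hx, evAt_polyEquiv, Polynomial.eval_C]

namespace RedSetting

variable {S : RedSetting C F k Ft} {x : F} (hx : x ∈ S.V)

/-- `x - ρ` as a unit of `V`, for `ρ ∈ O`. -/
theorem isUnit_psi_X_sub_C (hxt : Transcendental k (S.red ⟨x, hx⟩)) (ρ₀ : ↥S.O) :
    IsUnit (psi hx (Polynomial.X - Polynomial.C ρ₀)) := by
  apply isUnit_psi hx hxt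
  rw [Polynomial.map_sub, Polynomial.map_X, Polynomial.map_C]
  exact Polynomial.X_sub_C_ne_zero _

theorem coe_psi_X_sub_C (ρ₀ : ↥S.O) :
    ((psi hx (Polynomial.X - Polynomial.C ρ₀) : ↥S.V) : F) = x - algebraMap C F (ρ₀ : C) := by
  rw [coe_psi, Polynomial.map_sub, Polynomial.map_X, Polynomial.map_C, map_sub, Polynomial.aeval_X,
    Polynomial.aeval_C]
  rfl

theorem red_psi_X_sub_C (ρ₀ : ↥S.O) :
    S.red (psi hx (Polynomial.X - Polynomial.C ρ₀)) =
      S.red ⟨x, hx⟩ - algebraMap k Ft (S.resO ρ₀) := by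
  rw [red_psi, Polynomial.map_sub, Polynomial.map_X, Polynomial.map_C, map_sub, Polynomial.aeval_X,
    Polynomial.aeval_C]

variable [CharZero C] [IsAlgClosed C]

/-- **(NIL)** If the values of `f = ∑ v_i b_i` at all points over `x = ρ` reduce to `0`, then the
reduction of `f` is nilpotent modulo `xt - γ` in the integral closure. -/
theorem exists_pow_eq_smul (hxt : Transcendental k (S.red ⟨x, hx⟩)) [FiniteDimensional ↥C⟮x⟯ F]
    (hdeg : Module.finrank ↥k⟮S.red ⟨x, hx⟩⟯ Ft = Module.finrank ↥C⟮x⟯ F)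
    {m : ℕ} (bF : Fin m → F) (hbV : ∀ i, bF i ∈ S.V)
    (hbB : ∀ i, IsIntegral ↥(Algebra.adjoin C {x}) (bF i))
    (ρ : C) (hρ : ρ ∈ S.O) {r : ℕ} (pt : Fin r → Ideal ↥(Bx (C := C) x))
    (hpt : ∀ t, pt t ∈ ptsOver x ρ) (hall : ∀ P ∈ ptsOver x ρ, ∃ t, pt t = P)
    (v : Fin m → ↥(Algebra.adjoin k {S.red ⟨x, hx⟩}))
    (hv : ∀ t, piRho (S.red ⟨x, hx⟩) (S.resO ⟨ρ, hρ⟩) ∣
      ∑ i, algebraMap k ↥(Algebra.adjoin k {S.red ⟨x, hx⟩})
        (S.resO ⟨evP (hpt t) ⟨bF i, hbB i⟩,
          evP_mem_O hx hxt hdeg hρ (hpt t) ⟨bF i, hbB i⟩ (hbV i)⟩) * v i) :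
    ∃ (n : ℕ) (z : Ft), IsIntegral ↥(Algebra.adjoin k {S.red ⟨x, hx⟩}) z ∧
      (∑ i, v i • S.red ⟨bF i, hbV i⟩) ^ n = piRho (S.red ⟨x, hx⟩) (S.resO ⟨ρ, hρ⟩) • z := by
  classical
  have hxC := transcendental_x hx hxt
  set ρ₀ : ↥S.O := ⟨ρ, hρ⟩ with hρ₀
  set γ : k := S.resO ρ₀ with hγ
  -- lifts of the coefficients
  choose p hp using fun i => psiT_surjective hx (v i)
  -- the element `f`
  set fB : ↥(Bx (C := C) x) :=
    ∑ i, algebraMap ↥(Algebra.adjoin C {x}) ↥(Bx (C := C) x) (S.psiR hxC (p i)) * ⟨bF i, hbB i⟩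
    with hfB
  set fV : ↥S.V := ∑ i, psi hx (p i) * ⟨bF i, hbV i⟩ with hfV
  have hfBV : ((fB : ↥(Bx (C := C) x)) : F) = ((fV : ↥S.V) : F) := by
    rw [hfB, hfV, AddSubmonoidClass.coe_finsetSum, AddSubmonoidClass.coe_finsetSum]
    refine Finset.sum_congr rfl fun i _ => ?_
    show ((S.psiR hxC (p i) : ↥(Algebra.adjoin C {x})) : F) * bF i = ((psi hx (p i) : ↥S.V) : F) * bF i
    rw [coe_psiR hx hxC]
  have hredf : S.red fV = ∑ i, v i • S.red ⟨bF i, hbV i⟩ := by
    rw [hfV, map_sum]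
    refine Finset.sum_congr rfl fun i _ => ?_
    rw [map_mul, ← coe_psiT, hp i, Algebra.smul_def]
    rfl
  -- the values at the points
  set eO : Fin r → Fin m → ↥S.O := fun t i =>
    ⟨evP (hpt t) ⟨bF i, hbB i⟩, evP_mem_O hx hxt hdeg hρ (hpt t) ⟨bF i, hbB i⟩ (hbV i)⟩ with heO
  set cO : Fin r → ↥S.O := fun t => ∑ i, (p i).eval ρ₀ * eO t i with hcO
  have hc : ∀ t, evP (hpt t) fB = ((cO t : ↥S.O) : C) := by
    intro t
    rw [hfB, map_sum, hcO]
    simp only [AddSubmonoidClass.coe_finsetSum]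
    refine Finset.sum_congr rfl fun i _ => ?_
    rw [map_mul]
    have h1 := congrArg (fun φ : (↥S.O)[X] →+* C => φ (p i)) (evP_comp_psiR hxC hρ (hpt t))
    simp only [RingHom.comp_apply, Polynomial.coe_evalRingHom] at h1
    rw [h1]
    rfl
  have hcres : ∀ t, S.resO (cO t) = 0 := by
    intro t
    have h1 := (evAt_eq_zero_iff hxt γ _).2 (hv t)
    rw [map_sum] at h1
    rw [hcO, map_sum, ← h1]
    refine Finset.sum_congr rfl fun i _ => ?_
    rw [map_mul, map_mul, evAt_algebraMap, ← hp i, psiT_eq hx hxt, evAt_polyEquiv,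
      Polynomial.eval_map, mul_comm]
    congr 1
    rw [Polynomial.eval₂_hom]
  -- the product
  set w : ↥(Bx (C := C) x) := ∏ t, (fB - algebraMap C ↥(Bx (C := C) x) ((cO t : ↥S.O) : C)) with hw
  have hwP : ∀ P ∈ ptsOver x ρ, w ∈ P := by
    intro P hP
    obtain ⟨t, rfl⟩ := hall P hP
    refine Ideal.prod_mem _ (Finset.mem_univ t) ?_
    rw [← hc t]
    exact sub_evP_mem (hpt t) fB
  obtain ⟨e, he⟩ := pow_mem_of_forall_mem w hwP
  obtain ⟨z₀, hz₀⟩ := Ideal.mem_span_singleton'.1 he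
  set wV : ↥S.V := ∏ t, (fV - S.inclO (cO t)) with hwV
  have hwF : ((w : ↥(Bx (C := C) x)) : F) = ((wV : ↥S.V) : F) := by
    rw [hw, hwV, SubmonoidClass.coe_finsetProd, SubmonoidClass.coe_finsetProd]
    refine Finset.prod_congr rfl fun t _ => ?_
    show ((fB : ↥(Bx (C := C) x)) : F) - algebraMap C F ((cO t : ↥S.O) : C) = _
    rw [hfBV]
    rfl
  have hredw : S.red wV = (S.red fV) ^ r := by
    rw [hwV, map_prod]
    have : ∀ t ∈ (Finset.univ : Finset (Fin r)), S.red (fV - S.inclO (cO t)) = S.red fV := by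
      intro t _
      rw [map_sub, S.red_inclO, hcres t, map_zero, sub_zero]
    rw [Finset.prod_congr rfl this, Finset.prod_const, Finset.card_univ, Fintype.card_fin]
  -- the unit `x - ρ`
  have hu := isUnit_psi_X_sub_C hx hxt ρ₀
  set u : ↥S.V := psi hx (Polynomial.X - Polynomial.C ρ₀) with hudef
  have huF : ((u : ↥S.V) : F) = x - algebraMap C F ρ := coe_psi_X_sub_C hx ρ₀
  have hkey : ((z₀ : ↥(Bx (C := C) x)) : F) * ((u : ↥S.V) : F) = ((wV : ↥S.V) : F) ^ e := by
    rw [← hwF, huF]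
    have h1 : ((z₀ : ↥(Bx (C := C) x)) : F) * ((piRho x ρ : ↥(Algebra.adjoin C {x})) : F) =
        ((w : ↥(Bx (C := C) x)) : F) ^ e := by
      simpa using congrArg (fun b : ↥(Bx (C := C) x) => (b : F)) hz₀
    exact h1
  have hz₀V : ((z₀ : ↥(Bx (C := C) x)) : F) ∈ S.V := by
    have h2 : ((z₀ : ↥(Bx (C := C) x)) : F) = ((wV ^ e * ((hu.unit⁻¹ : (↥S.V)ˣ) : ↥S.V) : ↥S.V) : F) := by
      have h3 : ((u * ((hu.unit⁻¹ : (↥S.V)ˣ) : ↥S.V) : ↥S.V) : F) = 1 := by
        rw [show u * ((hu.unit⁻¹ : (↥S.V)ˣ) : ↥S.V) = 1 from hu.mul_val_inv]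
        rfl
      push_cast at h3 ⊢
      rw [← hkey, mul_assoc, h3, mul_one]
    rw [h2]
    exact Subtype.mem _
  refine ⟨r * e, S.red ⟨(z₀ : F), hz₀V⟩, red_isIntegral hx hxt hdeg _ z₀.2 hz₀V, ?_⟩
  rw [← hredf, pow_mul, ← hredw, ← map_pow]
  have h4 : wV ^ e = u * ⟨(z₀ : F), hz₀V⟩ := by
    apply Subtype.ext
    push_cast
    rw [← hkey, mul_comm]
  rw [h4, map_mul, hudef, red_psi_X_sub_C, Algebra.smul_def]
  rfl

end RedSetting

end Fermat.Agent.S27.REDu.H34

end
end
-- ==== END Fermat.Agent.S27.REDu.H34_ChartNil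

-- ==== BEGIN Fermat.Agent.S27.REDu.H42_Gen4
section

/-!
# G-RED package GEN (helper42), part 4: the chart is a free `O[x]`-module on a lifted basis

* `exists_lift_gspan` (FG) : there is a lifted basis `e` with `B = ∑ C[x] e i`.
* `exists_repr_psi` : elements of `B ∩ V` are `O[x]`-combinations of the `e i`.
-/

set_option autoImplicit false

universe uC uCf uK uR uF uL uE uk ukap uFp uFt uFtp uiot uEp uKp ux3b1

noncomputable section

open Polynomial IntermediateField Module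
open scoped IntermediateField.algebraAdjoinAdjoin

namespace Fermat.Agent.S27.REDu.H42

open Fermat.Agent.S27.REDu.H34 Fermat.Agent.S27.REDu.H34.RedSetting

variable {C : Type uC} {F : Type uF} {k : Type uk} {Ft : Type uFt} [Field C] [Field F] [Algebra C F] [Field k] [Field Ft] [Algebra k Ft]
variable {S : RedSetting C F k Ft} {x : F} (hx : x ∈ S.V)
variable {ι : Type uiot} [Fintype ι]

/-- The polynomial span of `e` inside `B`, as a `C[x]`-submodule. -/
def gspanB (C : Type uC) {F : Type uF} [Field C] [Field F] [Algebra C F] (x : F) {ι : Type uiot} [Fintype ι]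
    (e : ι → F) : Submodule ↥(Algebra.adjoin C {x}) ↥(Bx (C := C) x) where
  carrier := {b | GSpan C x e (b : F)}
  zero_mem' := GSpan.zero
  add_mem' := fun ha hb => ha.add hb
  smul_mem' := by
    intro r b hb
    obtain ⟨q, hq⟩ : ∃ q : C[X], Polynomial.aeval x q = (r : F) := by
      have h1 : (r : F) ∈ (Polynomial.aeval x : C[X] →ₐ[C] F).range := by
        rw [← Algebra.adjoin_singleton_eq_range_aeval]
        exact r.2
      exact h1
    show GSpan C x e ((r • b : ↥(Bx (C := C) x)) : F)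
    have : ((r • b : ↥(Bx (C := C) x)) : F) = Polynomial.aeval x q * (b : F) := by
      rw [hq]
      rfl
    rw [this]
    exact GSpan.aeval_mul hb q

theorem mem_gspanB {e : ι → F} (b : ↥(Bx (C := C) x)) :
    b ∈ gspanB C x e ↔ GSpan C x e (b : F) := Iff.rfl

/-- **(FG)** There is a lifted basis spanning the integral closure `B` of `C[x]` over `C[x]`. -/
theorem exists_lift_gspan [IsAlgClosed C] [CharZero C] (hxt : Transcendental k (S.red ⟨x, hx⟩))
    [FiniteDimensional ↥C⟮x⟯ F]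
    (hdeg : Module.finrank ↥k⟮S.red ⟨x, hx⟩⟯ Ft = Module.finrank ↥C⟮x⟯ F)
    (hcard : Fintype.card ι = Module.finrank ↥C⟮x⟯ F)
    (hex : ∃ e : ι → F, IsLift hx e) :
    ∃ e : ι → F, IsLift hx e ∧ ∀ b, IsIntegral ↥(Algebra.adjoin C {x}) b → GSpan C x e b := by
  classical
  have hxC := transcendental_x hx hxt
  have hpid : IsPrincipalIdealRing ↥(Algebra.adjoin C {x}) := isPrincipalIdealRing_adjoin hxC
  have hcz : CharZero ↥C⟮x⟯ := charZero_of_injective_algebraMap (algebraMap C ↥C⟮x⟯).injective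
  have hnoeth : IsNoetherian ↥(Algebra.adjoin C {x}) ↥(Bx (C := C) x) :=
    IsIntegralClosure.isNoetherian ↥(Algebra.adjoin C {x}) ↥C⟮x⟯ F ↥(Bx (C := C) x)
  obtain ⟨e₀, he₀⟩ := hex
  obtain ⟨M, ⟨e, he, rfl⟩, hmax⟩ := (set_has_maximal_iff_noetherian.2 hnoeth)
    {M | ∃ e : ι → F, IsLift hx e ∧ M = gspanB C x e} ⟨_, e₀, he₀, rfl⟩
  refine ⟨e, he, fun b hb => ?_⟩
  by_contra hnb
  obtain ⟨a, b', h', i₀, hb', hnb', hi₀, hab⟩ :=
    exists_witness S.O hxC he.int (he.span_top hx hxt hcard) hb hnb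
  by_cases ha : a ∈ S.O
  · exact case_small hx hxt hdeg he ha hb' h' i₀ hi₀ hab
  · obtain ⟨e', he', hle, b₁, hb₁, hnb₁⟩ := case_large hx hxt he ha hb' hnb' h' i₀ hi₀ hab
    apply hmax (gspanB C x e') ⟨e', he', rfl⟩
    rw [SetLike.lt_iff_le_and_exists]
    exact ⟨fun c hc => hle _ hc, ⟨(b₁ : F), hb₁.isIntegral he'.int⟩, hb₁, hnb₁⟩

/-- Elements of `V` in the polynomial span of a lifted basis are `O[x]`-combinations. -/
theorem exists_repr_psi (hxt : Transcendental k (S.red ⟨x, hx⟩)) {e : ι → F} (he : IsLift hx e)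
    (f : F) (hfV : f ∈ S.V) (hf : GSpan C x e f) :
    ∃ p : ι → (↥S.O)[X], f = ∑ i, ((psi hx (p i) : ↥S.V) : F) * e i := by
  obtain ⟨P, hP⟩ := hf
  have hmem : ∀ i, Polynomial.aeval x (P i) ∈ S.V := by
    intro i
    have h1 : ∑ j, (⟨Polynomial.aeval x (P j), aeval_mem_simple x (P j)⟩ : ↥C⟮x⟯) • e j ∈ S.V := by
      have : ∑ j, (⟨Polynomial.aeval x (P j), aeval_mem_simple x (P j)⟩ : ↥C⟮x⟯) • e j = f := by
        rw [hP]
        refine Finset.sum_congr rfl fun j _ => ?_
        rw [IntermediateField.smul_def, smul_eq_mul]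
      rw [this]
      exact hfV
    exact coeff_mem_V hx e he.memV hxt he.lin _ h1 i
  choose p hp using fun i => exists_lift_of_aeval_mem hx hxt (P i) (hmem i)
  refine ⟨p, ?_⟩
  rw [hP]
  refine Finset.sum_congr rfl fun i _ => ?_
  rw [coe_psi, hp]

end Fermat.Agent.S27.REDu.H42

end
end
-- ==== END Fermat.Agent.S27.REDu.H42_Gen4

-- ==== BEGIN Fermat.Agent.S27.REDu.H51_NormStmt
section

/-!
# FF-B (helper51): the norm formula `φ_* (div f) = div (N f)`

* `stmt_FFB_norm_of : H42.ZerosAll.{uK, uF} → Stmt_FFB_norm.{uK, uF, uFp}`;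
* `norm_value_fiber` : the local norm formula for values, over function fields.
-/

set_option autoImplicit false
set_option linter.style.haveILetI false

universe uC uCf uK uR uF uL uE uk ukap uFp uFt uFtp uiot uEp uKp ux3b1

noncomputable section

open AlgebraicCurve IntermediateField

namespace Fermat.Agent.S27.REDu.H51

section Main

variable {K F F' : Type*} [Field K] [Field F] [Field F'] [Algebra K F] [Algebra K F']
  [Algebra F F'] [IsScalarTower K F F'] [Module.Finite F F']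

open Fermat.Agent.S24 in
/-- The norm formula from the zeros theorem. -/
theorem pushforwardNormFormula_of_zeros [IsAlgClosed K] [HasPrincipalDivisors K F']
    (hzF : H59.ZerosStmt K F) (hzF' : H59.ZerosStmt K F')
    {x₀ : F} (hx₀ : Transcendental K x₀) [FiniteDimensional K⟮x₀⟯ F]
    {x₀' : F'} (hx₀' : Transcendental K x₀') [FiniteDimensional K⟮x₀'⟯ F'] :
    Divisor.PushforwardNormFormula K F F' := by
  classical
  intro f hf D hD v
  have hdegF : ∀ u : Place K F, u.deg = 1 := fun u => ff_deg_eq_one x₀ hx₀ u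
  have hdegF' : ∀ w : Place K F', w.deg = 1 := fun w => ff_deg_eq_one x₀' hx₀' w
  have hsum := sum_ramificationIndex_eq hzF hzF' hx₀ hx₀' v (v.fiber F')
    (fun w => Place.mem_fiber)
  rw [norm_ord v (v.fiber F') (fun w hw => Place.mem_fiber.mp hw) hsum hdegF' hf,
    Divisor.pushforward_apply]
  have hin : ∀ w : Place K F', w.inertiaDeg F = 1 := by
    intro w
    have h := w.deg_restrict_mul_inertiaDeg (F := F)
    rw [hdegF, hdegF', one_mul] at h
    exact h
  have h1 : ∑ w ∈ D.support, (if w.restrict F = v then D w * (w.inertiaDeg F : ℤ) else 0)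
      = ∑ w ∈ D.support.filter (fun w => w.restrict F = v), w.ord f := by
    rw [Finset.sum_filter]
    refine Finset.sum_congr rfl fun w _ => ?_
    rw [hin w, Nat.cast_one, mul_one, hD w]
  rw [h1]
  refine Finset.sum_subset ?_ ?_
  · intro w hw
    exact Place.mem_fiber.mpr (Finset.mem_filter.mp hw).2
  · intro w hw hnot
    have hw' : w.restrict F = v := Place.mem_fiber.mp hw
    have : w ∉ D.support := fun h' => hnot (Finset.mem_filter.mpr ⟨h', hw'⟩)
    rw [Finsupp.notMem_support_iff, hD w] at this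
    exact this

open Fermat.Agent.S24 in
/-- **Local norm formula for values** over function fields: if `h` has the value `c w` at every
place `w` over `v`, then `N(h)` has the value `∏_{w | v} (c w) ^ e(w | v)` at `v`. -/
theorem norm_value_fiber [IsAlgClosed K] [HasPrincipalDivisors K F']
    (hzF : H59.ZerosStmt K F) (hzF' : H59.ZerosStmt K F')
    {x₀ : F} (hx₀ : Transcendental K x₀) [FiniteDimensional K⟮x₀⟯ F]
    {x₀' : F'} (hx₀' : Transcendental K x₀') [FiniteDimensional K⟮x₀'⟯ F']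
    (v : Place K F) (h : F') (c : Place K F' → K)
    (hc : ∀ w : Place K F', w.restrict F = v → OrdGe w 1 (h - algebraMap K F' (c w))) :
    OrdGe v 1 (Algebra.norm F h
      - algebraMap K F (∏ w ∈ v.fiber F', c w ^ w.ramificationIndex F)) :=
  norm_value v (v.fiber F') (fun _ hw => Place.mem_fiber.mp hw)
    (sum_ramificationIndex_eq hzF hzF' hx₀ hx₀' v (v.fiber F') (fun _ => Place.mem_fiber))
    h c fun w hw => hc w (Place.mem_fiber.mp hw)

end Main

/-- `Stmt_FFB_norm.{uK, uF, uFp}` from the zeros theorem. -/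
theorem stmt_FFB_norm_of (hz : Fermat.Agent.S27.REDu.H42.ZerosAll.{uK, uF})
    (hz' : Fermat.Agent.S27.REDu.H42.ZerosAll.{uK, uFp}) :
    Fermat.Agent.S27.REDu.Stmt_FFB_norm.{uK, uF, uFp} := by
  intro K F F' _ _ _ _ _ _ hFF hFF' φ hfin
  have hzF := hz K F hFF
  have hzF' := hz' K F' hFF'
  haveI : HasPrincipalDivisors K F' := Fermat.Agent.S27.REDu.H42.stmt_FFB_principal_of hz' K F' hFF'
  obtain ⟨x₀, hx₀, hfin₀⟩ := hFF
  obtain ⟨x₀', hx₀', hfin₀'⟩ := hFF'
  haveI : FiniteDimensional K⟮x₀⟯ F := hfin₀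
  haveI : FiniteDimensional K⟮x₀'⟯ F' := hfin₀'
  unfold NormFormulaAlong
  letI := algebraAlong φ
  haveI := isScalarTower_along φ
  haveI : Module.Finite F F' := hfin
  exact pushforwardNormFormula_of_zeros hzF hzF' hx₀ hx₀'

end Fermat.Agent.S27.REDu.H51

end
end
-- ==== END Fermat.Agent.S27.REDu.H51_NormStmt

-- ==== BEGIN Fermat.Agent.S27.REDu.H79_ConsC5
section

/-!
# G-RED package CONS, C5 (helper79): the pointwise inequality

`stmt_C5 : Stmt_C5.{uC, uF, uk, uFt}`: for a Gauss unit `f ∈ R = B ∩ V` with divisor `D` and a place `Q` of `Ft`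
finite over `xt`:  `ord_Q (red f) ≤ Σ_{P in the chart, r P = Q} ord_P f`.

Proof (helper10's C5): for every zero `P` of `f` finite over `x` choose `g_P ∈ R` vanishing at `P`
with `ord_Q (red g_P) = 1` if `P` is in the chart and `r P = Q`, and `= 0` otherwise.  Then
`g = Π g_P ^ ord_P f` is divisible by `f` in `R`.
-/

set_option autoImplicit false
set_option linter.style.haveILetI false

universe uC uCf uK uR uF uL uE uk ukap uFp uFt uFtp uiot uEp uKp ux3b1

noncomputable section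

open AlgebraicCurve IsDedekindDomain WithZero IntermediateField
open scoped IntermediateField.algebraAdjoinAdjoin

namespace Fermat.Agent.S27.REDu.H79

open Fermat.Agent.S27.REDu.H34 Fermat.Agent.S27.REDu.H51

section C5

variable {C : Type uC} {F : Type uF} {k : Type uk} {Ft : Type uFt} [Field C] [Field F] [Algebra C F] [Field k] [Field Ft] [Algebra k Ft]
variable (S : RedSetting C F k Ft) {x : F} (hx : x ∈ S.V)

/-- A constant outside `O` has its inverse in the maximal ideal of `O`. -/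
theorem exists_inv_of_not_mem {a : C} (ha : algebraMap C F a ∉ S.V) :
    ∃ b : ↥S.O, (b : C) = a⁻¹ ∧ S.resO b = 0 := by
  have hinv : algebraMap C F a⁻¹ ∈ S.V := by
    rw [map_inv₀]
    exact (S.V.mem_or_inv_mem _).resolve_left ha
  refine ⟨⟨a⁻¹, hinv⟩, rfl, ?_⟩
  rw [S.resO_eq_zero_iff]
  rintro ⟨u, hu⟩
  apply ha
  have ha0 : a ≠ 0 := by
    rintro rfl
    apply ha
    rw [map_zero]
    exact zero_mem _
  have h1 : ((u⁻¹ : (↥S.O)ˣ) : ↥S.O) * ⟨a⁻¹, hinv⟩ = 1 := by
    rw [← hu]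
    exact u.inv_mul
  have h2 : (((u⁻¹ : (↥S.O)ˣ) : ↥S.O) : C) * a⁻¹ = 1 := congrArg Subtype.val h1
  have h3 : (((u⁻¹ : (↥S.O)ˣ) : ↥S.O) : C) = a := (mul_inv_eq_one₀ ha0).1 h2
  have h4 := ((u⁻¹ : (↥S.O)ˣ) : ↥S.O).2
  rw [h3] at h4
  exact h4

/-- Case (i): a place finite over `x` outside the chart: `g = 1 - x / x(P)`. -/
theorem exists_g_out [IsAlgClosed C] (hx : x ∈ S.V) (hxC : Transcendental C x)
    [FiniteDimensional C⟮x⟯ F] (P : Place C F) (hxP : x ∈ P.toValuationSubring) (hP : ¬ InChart S x P) :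
    ∃ g : ↥S.V, IsIntegral ↥(Algebra.adjoin C {x}) (g : F) ∧ OrdGe P 1 (g : F) ∧
      S.red g = 1 := by
  have hdeg : P.deg = 1 := Fermat.Agent.S24.ff_deg_eq_one x hxC P
  obtain ⟨a, ha⟩ := exists_value P hdeg ((ordGe_zero_iff_mem P x).2 hxP)
  have haV : algebraMap C F a ∉ S.V := fun h => hP ⟨a, h, ha⟩
  obtain ⟨b, hb, hb0⟩ := exists_inv_of_not_mem S haV
  have ha0 : a ≠ 0 := by
    rintro rfl
    apply haV
    rw [map_zero]
    exact zero_mem _
  refine ⟨1 - S.inclO b * ⟨x, hx⟩, ?_, ?_, ?_⟩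
  · have : ((1 - S.inclO b * ⟨x, hx⟩ : ↥S.V) : F) = 1 - algebraMap C F (b : C) * x := rfl
    rw [this]
    exact isIntegral_one.sub ((isIntegral_const x _).mul (isIntegral_gen x))
  · have : ((1 - S.inclO b * ⟨x, hx⟩ : ↥S.V) : F)
        = algebraMap C F (-a⁻¹) * (x - algebraMap C F a) := by
      show 1 - algebraMap C F (b : C) * x = _
      rw [hb, map_neg, map_inv₀]
      have : algebraMap C F a ≠ 0 := by
        rwa [ne_eq, map_eq_zero_iff _ (algebraMap C F).injective]
      field_simp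
      ring
    rw [this]
    have := (ordGe_algebraMap P (-a⁻¹)).mul ha
    simpa using this
  · rw [map_sub, map_mul, S.red_inclO, hb0, map_one, map_zero, zero_mul, sub_zero]

/-- Cases (ii), (iii): lift of an element of `Bt` vanishing at the reduction of `P`. -/
theorem exists_g_lift (hN : ChartNormal S x hx) (hI : ChartIntegral S x hx)
    (P : Place C F) (hP : InChart S x P) (Q' : Place k Ft) (hPQ : RedTo S x hx P Q')
    (b : Ft) (hb : IsIntegral ↥(Algebra.adjoin k {S.red ⟨x, hx⟩}) b) (hbQ : OrdGe Q' 1 b) :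
    ∃ g : ↥S.V, IsIntegral ↥(Algebra.adjoin C {x}) (g : F) ∧ OrdGe P 1 (g : F) ∧
      S.red g = b := by
  obtain ⟨t, ht, htb⟩ := hN b hb
  obtain ⟨a, ha⟩ := (hI t ht).2 P hP
  have h1 := hPQ.2 t ht a ha
  rw [htb] at h1
  have h2 : OrdGe Q' 1 (algebraMap k Ft (S.resO a)) := by
    have := hbQ.sub h1
    rwa [sub_sub_cancel] at this
  have h3 : S.resO a = 0 := const_eq_zero_of_ordGe_one Q' _ h2
  refine ⟨t - S.inclO a, ?_, ha, ?_⟩
  · have : ((t - S.inclO a : ↥S.V) : F) = (t : F) - algebraMap C F (a : C) := rfl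
    rw [this]
    exact ht.sub (isIntegral_const x _)
  · rw [map_sub, S.red_inclO, h3, map_zero, sub_zero, htb]

open Classical in
/-- The functions `g_P`. -/
theorem exists_gP [IsAlgClosed C] (G : GoodChart S x hx) (hI : ChartIntegral S x hx)
    (r : Place C F → Place k Ft) (hr : ∀ P, InChart S x P → RedTo S x hx P (r P))
    (Q : Place k Ft) (hQ : S.red ⟨x, hx⟩ ∈ Q.toValuationSubring)
    (P : Place C F) (hxP : x ∈ P.toValuationSubring) :
    ∃ g : ↥S.V, IsIntegral ↥(Algebra.adjoin C {x}) (g : F) ∧ OrdGe P 1 (g : F) ∧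
      S.red g ≠ 0 ∧ Q.ord (S.red g) = if InChart S x P ∧ r P = Q then 1 else 0 := by
  haveI := G.fin
  haveI := G.sep
  haveI := G.finite_red
  haveI := G.sept
  have hxC : Transcendental C x := RedSetting.transcendental_x hx G.transc
  haveI := isDedekind_Bx (K := k) (S.red ⟨x, hx⟩) G.transc
  haveI := isFractionRing_Bx (K := k) (F := Ft) (S.red ⟨x, hx⟩)
  obtain ⟨wQ, hwQ⟩ := exists_eq_ofH_of_mem (S.red ⟨x, hx⟩) G.transc Q hQ
  by_cases hP : InChart S x P
  · by_cases hrQ : r P = Q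
    · obtain ⟨b, -, hb1⟩ := exists_ord_eq_one (K := k) (F := Ft) wQ
      rw [← hwQ] at hb1
      have hrP : RedTo S x hx P Q := hrQ ▸ hr P hP
      obtain ⟨g, hg1, hg2, hg3⟩ := exists_g_lift S hx G.normal hI P hP Q hrP
        (algebraMap _ Ft b) b.2 (Or.inr hb1.ge)
      refine ⟨g, hg1, hg2, ?_, ?_⟩
      · rw [hg3]
        exact ne_zero_of_ord_ne_zero Q (by rw [hb1]; norm_num)
      · rw [hg3, if_pos ⟨hP, hrQ⟩]
        exact hb1
    · have hrP := hr P hP
      obtain ⟨w', hw'⟩ := exists_eq_ofH_of_mem (S.red ⟨x, hx⟩) G.transc (r P) hrP.1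
      have hne : wQ ≠ w' := by
        rintro rfl
        exact hrQ (hw'.trans hwQ.symm)
      obtain ⟨b, hb', hbQ⟩ := exists_mem_not_mem_of_ne hne
      have h1 : OrdGe (r P) 1 (algebraMap _ Ft b) := by
        rw [hw']
        exact (ordGe_one_algebraMap_iff (K := k) (F := Ft) w' b).2 hb'
      obtain ⟨g, hg1, hg2, hg3⟩ := exists_g_lift S hx G.normal hI P hP (r P) hrP
        (algebraMap _ Ft b) b.2 h1
      have h0 : Q.ord (algebraMap _ Ft b) = 0 := by
        rw [hwQ]
        exact ord_eq_zero_of_not_mem (K := k) (F := Ft) wQ hbQ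
      refine ⟨g, hg1, hg2, ?_, ?_⟩
      · rw [hg3]
        intro h
        apply hbQ
        have : b = 0 := Subtype.ext h
        rw [this]
        exact zero_mem _
      · rw [hg3, if_neg (fun h => hrQ h.2)]
        exact h0
  · obtain ⟨g, hg1, hg2, hg3⟩ := exists_g_out S hx hxC P hxP hP
    refine ⟨g, hg1, hg2, by rw [hg3]; exact one_ne_zero, ?_⟩
    rw [hg3, if_neg (fun h => hP h.1)]
    exact Q.ord_one

open Classical in
/-- **C5**: the pointwise inequality. -/
theorem stmt_C5 : Stmt_C5.{uC, uF, uk, uFt} := by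
  intro C F k Ft _ _ _ _ _ _ _ _ S x hx G hI r hr f hfu hfint D hD Q hQ
  haveI := G.fin
  haveI := G.sep
  have hxC : Transcendental C x := RedSetting.transcendental_x hx G.transc
  have hf0 : (f : F) ≠ 0 := by
    intro h
    have : f = 0 := Subtype.ext h
    rw [this] at hfu
    exact not_isUnit_zero hfu
  choose! g hg1 hg2 hg3 hg4 using exists_gP S hx G hI r hr Q hQ
  -- the finite zeros of `f`
  set Zf : Finset (Place C F) := D.support.filter (fun P => x ∈ P.toValuationSubring) with hZf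
  have hZfin : ∀ P ∈ Zf, x ∈ P.toValuationSubring := fun P hP => (Finset.mem_filter.1 hP).2
  -- orders of `f` at finite places are nonnegative
  have hDnn : ∀ P : Place C F, x ∈ P.toValuationSubring → 0 ≤ D P := by
    intro P hxP
    rw [hD P]
    exact (mem_iff_ord_nonneg P hf0).1 (mem_of_isIntegral P hxP hfint)
  set Gp : ↥S.V := ∏ P ∈ Zf, g P ^ (D P).toNat with hGp
  have hGpF : ∀ T : Finset (Place C F),
      ((∏ P ∈ T, g P ^ (D P).toNat : ↥S.V) : F) = ∏ P ∈ T, (g P : F) ^ (D P).toNat := by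
    intro T
    simp
  have hintT : ∀ T : Finset (Place C F), (∀ P ∈ T, x ∈ P.toValuationSubring) →
      IsIntegral ↥(Algebra.adjoin C {x}) (∏ P ∈ T, (g P : F) ^ (D P).toNat) := by
    intro T hT
    exact IsIntegral.prod _ fun P hP => (hg1 P (hT P hP)).pow _
  have hGint : IsIntegral ↥(Algebra.adjoin C {x}) (Gp : F) := by
    rw [hGp, hGpF]
    exact hintT Zf hZfin
  have hredG : S.red Gp = ∏ P ∈ Zf, S.red (g P) ^ (D P).toNat := by
    rw [hGp, map_prod]
    exact Finset.prod_congr rfl fun P _ => map_pow _ _ _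
  have hredG0 : S.red Gp ≠ 0 := by
    rw [hredG, Finset.prod_ne_zero_iff]
    exact fun P hP => pow_ne_zero _ (hg3 P (hZfin P hP))
  have hGp0 : (Gp : F) ≠ 0 := by
    intro h
    have : Gp = 0 := Subtype.ext h
    rw [this, map_zero] at hredG0
    exact hredG0 rfl
  -- (d) `ord_P G ≥ ord_P f` at finite places
  have hord : ∀ P : Place C F, x ∈ P.toValuationSubring → OrdGe P (D P) (Gp : F) := by
    intro P hxP
    by_cases hPD : P ∈ D.support
    · have hPZ : P ∈ Zf := Finset.mem_filter.2 ⟨hPD, hxP⟩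
      rw [hGp, hGpF, ← Finset.mul_prod_erase Zf _ hPZ]
      have h1 : OrdGe P (((D P).toNat : ℤ) * 1) ((g P : F) ^ (D P).toNat) :=
        ordGe_pow (hg2 P hxP) _
      have h2 : OrdGe P 0 (∏ P' ∈ Zf.erase P, (g P' : F) ^ (D P').toNat) :=
        (ordGe_zero_iff_mem P _).2 (mem_of_isIntegral P hxP
          (hintT _ fun P' hP' => hZfin P' (Finset.mem_of_mem_erase hP')))
      have h3 := h1.mul h2
      refine h3.mono ?_
      have := Int.self_le_toNat (D P)
      omega
    · have : D P = 0 := Finsupp.notMem_support_iff.1 hPD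
      rw [this]
      exact (ordGe_zero_iff_mem P _).2 (mem_of_isIntegral P hxP hGint)
  -- (e) `h = G / f ∈ R`
  set h : ↥S.V := Gp * ((hfu.unit⁻¹ : (↥S.V)ˣ) : ↥S.V) with hh
  have hGhf : Gp = h * f := by
    rw [hh, mul_assoc]
    have : ((hfu.unit⁻¹ : (↥S.V)ˣ) : ↥S.V) * f = 1 := by
      have := hfu.unit.inv_mul
      rwa [IsUnit.unit_spec] at this
    rw [this, mul_one]
  have hhF : (h : F) = (Gp : F) * (f : F)⁻¹ := by
    have : (Gp : F) = (h : F) * (f : F) := congrArg Subtype.val hGhf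
    rw [this, mul_assoc, mul_inv_cancel₀ hf0, mul_one]
  have hhint : IsIntegral ↥(Algebra.adjoin C {x}) (h : F) := by
    apply isIntegral_of_forall_ordGe x hxC
    intro P hxP
    rw [hhF]
    refine Or.inr ?_
    rw [P.ord_mul hGp0 (inv_ne_zero hf0), P.ord_inv, ← hD P]
    have := (hord P hxP).le hGp0
    omega
  -- (f) orders at `Q`
  have hredh0 : S.red h ≠ 0 := by
    intro h0
    rw [hGhf, map_mul, h0, zero_mul] at hredG0
    exact hredG0 rfl
  have hredf0 : S.red f ≠ 0 := (hfu.map S.red).ne_zero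
  have hQh : 0 ≤ Q.ord (S.red h) :=
    (mem_iff_ord_nonneg Q hredh0).1 (mem_of_isIntegral Q hQ (hI h hhint).1)
  have hQG : Q.ord (S.red Gp) = Q.ord (S.red h) + Q.ord (S.red f) := by
    rw [hGhf, map_mul, Q.ord_mul hredh0 hredf0]
  have hQG' : Q.ord (S.red Gp)
      = ∑ P ∈ Zf, ((D P).toNat : ℤ) * (if InChart S x P ∧ r P = Q then 1 else 0) := by
    rw [hredG, ord_prod Q Zf _ fun P hP => pow_ne_zero _ (hg3 P (hZfin P hP))]
    refine Finset.sum_congr rfl fun P hP => ?_
    rw [ord_pow, hg4 P (hZfin P hP)]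
  -- (g) the sum
  have hsum : ∑ P ∈ Zf, ((D P).toNat : ℤ) * (if InChart S x P ∧ r P = Q then 1 else 0)
      = ∑ P ∈ D.support.filter (fun P => InChart S x P ∧ r P = Q), D P := by
    have hfilt : D.support.filter (fun P => InChart S x P ∧ r P = Q)
        = Zf.filter (fun P => InChart S x P ∧ r P = Q) := by
      ext P
      simp only [Finset.mem_filter, hZf]
      constructor
      · rintro ⟨h1, h2⟩
        exact ⟨⟨h1, InChart.mem S h2.1⟩, h2⟩
      · rintro ⟨⟨h1, -⟩, h2⟩
        exact ⟨h1, h2⟩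
    rw [hfilt, Finset.sum_filter (s := Zf) (p := fun P => InChart S x P ∧ r P = Q)]
    refine Finset.sum_congr rfl fun P hP => ?_
    have := Int.toNat_of_nonneg (hDnn P (hZfin P hP))
    split_ifs <;> simp [this]
  rw [← hsum, ← hQG', hQG]
  omega

end C5

end Fermat.Agent.S27.REDu.H79

end
end
-- ==== END Fermat.Agent.S27.REDu.H79_ConsC5

-- ==== BEGIN Fermat.Agent.S38.H93_Wire4
section

set_option autoImplicit false
set_option linter.style.haveILetI false
set_option linter.unusedSectionVars false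
set_option synthInstance.maxHeartbeats 400000
set_option maxHeartbeats 1000000

noncomputable section

open AlgebraicCurve ModularCurve
open WeierstrassCurve WeierstrassCurve.Affine WeierstrassCurve.Affine.Point
open scoped WeierstrassCurve.Affine

namespace Fermat.Agent.S38.H93

open Fermat.Agent.BAD Fermat.Agent.S44 Fermat.Agent.L Fermat.Agent.S43 Fermat.Agent.S43.BadQ
open Fermat.Agent.S38 Fermat.Agent.L.Pivot.H76 Fermat.Agent.S38.H75 Fermat.Agent.S38.H37

/-- **Lowering to a level prime to `q`** (induction on the level; the proof of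
`H37.lower_to_prime_to_q'`, with S39 for semistable curves at squarefree levels). -/
theorem lower_to_prime_to_q4 (h39 : Fermat.Agent.S39.H93.Stmt_S39sf) (hB : Stmt_NonExcW)
    (hPV : Fermat.Agent.S38.P3.Stmt_PivotWCoreAll)
    (hSO : Fermat.Agent.S38.P3.Stmt_PivotWCoreSOAll)
    (p : ℕ) (hp : p.Prime) (hp2 : p ≠ 2) (W : WeierstrassCurve ℤ) (hΔ : W.Δ ≠ 0)
    (hW : W.IsSemistableModel) (hirr : W.ModRepIsIrreducible p)
    (q : ℕ) (hq : q.Prime) (hqp : q ≠ p) (hunr : UnrW W p q) :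
    ∀ n : ℕ, ∀ N : ℕ, N ≤ n → Squarefree N → W.IsResiduallyModularOfLevel p N →
      ∃ N' : ℕ, N' ∣ N ∧ ¬ q ∣ N' ∧ W.IsResiduallyModularOfLevel p N' := by
  intro n
  induction n with
  | zero =>
    intro N hN hsq _
    exact absurd (Nat.le_zero.mp hN) hsq.ne_zero
  | succ n ih =>
    intro N hNle hsq hres
    have hNpos : 0 < N := Nat.pos_of_ne_zero hsq.ne_zero
    by_cases hqN : q ∣ N
    swap
    · exact ⟨N, dvd_rfl, hqN, hres⟩
    -- a smaller level suffices
    have step : ∀ r : ℕ, r.Prime → r ∣ N → W.IsResiduallyModularOfLevel p (N / r) →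
        ∃ N' : ℕ, N' ∣ N ∧ ¬ q ∣ N' ∧ W.IsResiduallyModularOfLevel p N' := by
      intro r hr hrN hM
      have hdvd : N / r ∣ N := Nat.div_dvd_of_dvd hrN
      have hlt : N / r < N := Nat.div_lt_self hNpos hr.one_lt
      obtain ⟨N', hN'M, hqN', hN'⟩ := ih (N / r) (by omega) (hsq.squarefree_of_dvd hdvd) hM
      exact ⟨N', hN'M.trans hdvd, hqN', hN'⟩
    -- the conclusion of the core at a prime `r` gives the level `N / r`
    have ofLC : ∀ r : ℕ, r.Prime → r ∣ N → LowerConcl p N r W →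
        W.IsResiduallyModularOfLevel p (N / r) := fun r hr hrN h =>
      isResiduallyModular_of_lowerConcl Fermat.Agent.S38.H49.stmt_Complete p hp W hΔ N r hsq hr
        hrN h
    obtain ⟨f, 𝔪, hf, h𝔪, hp𝔪, hcong⟩ := hres
    have hres' : W.IsResiduallyModularOfLevel p N := ⟨f, 𝔪, hf, h𝔪, hp𝔪, hcong⟩
    by_cases hpeu : p ∣ N ∧ (W.map (Int.castRingHom ℚ)).IsPeuRamifieeAt p p
    · -- remove `p`
      obtain ⟨hpN, hfin⟩ := hpeu
      exact step p hp hpN (h39 p hp hp2 W hΔ hW hirr hfin N hsq hpN hres')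
    · by_cases hall : ∀ q' : ℕ, q'.Prime → q' ≠ p → q' ∣ N → UnrW W p q' → IsExcW W p q'
      · -- PIVOT
        have hLC : LowerConcl p N q W := by
          by_cases hpN : p ∣ N
          · have hnpeu : ¬ (W.map (Int.castRingHom ℚ)).IsPeuRamifieeAt p p :=
              fun h => hpeu ⟨hpN, h⟩
            have hpΔ : (p : ℤ) ∣ W.Δ := by
              by_contra h
              exact hnpeu (isPeuRamifieeAt_of_not_dvd W p h)
            exact hSO p hp hp2 W hΔ hW hirr N q hsq hpN hpΔ hnpeu hq hqp hqN hunr hall f 𝔪 ∅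
              hf h𝔪 hp𝔪 (fun ℓ hℓ _ hg hℓN hℓp => hcong ℓ hℓ hg hℓN hℓp)
          · exact hPV p hp hp2 W hΔ hW hirr N q hsq hpN hq hqN hunr
              (fun q' hq' hq'N hu => hall q' hq' (fun h => hpN (h ▸ hq'N)) hq'N hu) f 𝔪 ∅
              hf h𝔪 hp𝔪 (fun ℓ hℓ _ hg hℓN hℓp => hcong ℓ hℓ hg hℓN hℓp)
        refine ⟨N / q, Nat.div_dvd_of_dvd hqN, ?_, ofLC q hq hqN hLC⟩
        intro hqq
        obtain ⟨k, hk⟩ := hqq
        have h2 : q * q ∣ N := by
          have h3 : N = q * (N / q) := (Nat.mul_div_cancel' hqN).symm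
          rw [h3, hk]
          exact ⟨k, by ring⟩
        exact hq.not_isUnit (hsq q h2)
      · -- Mazur's principle at a prime which is not exceptional
        push Not at hall
        obtain ⟨q', hq', hq'p, hq'N, hu', hne⟩ := hall
        exact step q' hq' hq'N (ofLC q' hq' hq'N
          (hB p hp hp2 W hΔ hW hirr N q' hsq hq' hq'p hq'N hu' hne f 𝔪 hf h𝔪 hp𝔪 hcong))

/-- **S38 from S39 for semistable curves at squarefree levels, the Mazur step and the two PIVOT
cores.** -/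
theorem s38_of_s39sf (h39 : Fermat.Agent.S39.H93.Stmt_S39sf) (hB : Stmt_NonExcW)
    (hPV : Fermat.Agent.S38.P3.Stmt_PivotWCoreAll)
    (hSO : Fermat.Agent.S38.P3.Stmt_PivotWCoreSOAll) : Fermat.Agent.S59.LL.Stmt_S38 := by
  intro p hpF hp2 W hΔ hW hcard₁ hker hirr M q hq hqp hqM hq2 hM hunr hres
  have hp : p.Prime := hpF.out
  have hunr' : UnrW W p q := by
    intro A hA σ hσ v
    have h1 := hunr A hA σ hσ
    have h2 : galoisRepModuleEnd (S := ℚ) (K := AlgebraicClosure ℚ)
        (W.map (Int.castRingHom ℚ)).toAffine p σ = 1 := h1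
    rw [h2]
    rfl
  obtain ⟨N', hN'M, hqN', hN'⟩ := lower_to_prime_to_q4 h39 hB hPV hSO p hp hp2 W hΔ hW hirr q hq
    hqp hunr' M M le_rfl hM hres
  have hMq : M / q ∣ M := Nat.div_dvd_of_dvd hqM
  have hdvd : N' ∣ M / q := by
    have h3 : M = q * (M / q) := (Nat.mul_div_cancel' hqM).symm
    rw [h3] at hN'M
    exact (Nat.Coprime.dvd_mul_left
      ((Nat.Prime.coprime_iff_not_dvd hq).2 hqN').symm).1 hN'M
  exact raise_level W p (hM.squarefree_of_dvd hMq) hdvd hN'

/-- **S38 from the two PIVOT cores** (every odd `p`); everything else is proved. -/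
theorem s38_of_pivot (hPV : Fermat.Agent.S38.P3.Stmt_PivotWCoreAll)
    (hSO : Fermat.Agent.S38.P3.Stmt_PivotWCoreSOAll) : Fermat.Agent.S59.LL.Stmt_S38 :=
  s38_of_s39sf Fermat.Agent.S39.H93.stmt_S39sf Fermat.Agent.S39.H93.stmt_NonExcW hPV hSO

/-- **The frozen statement S38 from the two PIVOT cores.** -/
theorem result_of_pivot (hPV : Fermat.Agent.S38.P3.Stmt_PivotWCoreAll)
    (hSO : Fermat.Agent.S38.P3.Stmt_PivotWCoreSOAll)
    (p : ℕ) [Fact p.Prime] (_hp2 : p ≠ 2) (W : WeierstrassCurve ℤ) (_hΔ : W.Δ ≠ 0)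
    (_hW : W.IsSemistableModel)
    (hcard₁ : Nat.card (Submodule.torsionBy ℤ
      ((W.map (Int.castRingHom ℚ))⁄(AlgebraicClosure ℚ)).Point p) = p ^ 2)
    (hker : GaloisFactorsThroughFiniteLevel
      (WeierstrassCurve.Affine.Point.galoisRepModuleEnd (K := AlgebraicClosure ℚ) ℚ
        (W.map (Int.castRingHom ℚ)) p))
    (_hirr : W.ModRepIsIrreducible p) (M q : ℕ) (hq : q.Prime) (hqp : q ≠ p)
    (hqM : q ∣ M) (hq2 : ¬ q ^ 2 ∣ M) (hM : Squarefree M)
    (hunr : ((W.map (Int.castRingHom ℚ)).residualGaloisRepOf p hcard₁ hker).IsUnramifiedAt q)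
    (hres : W.IsResiduallyModularOfLevel p M) :
    W.IsResiduallyModularOfLevel p (M / q) :=
  s38_of_pivot hPV hSO p _hp2 W _hΔ _hW hcard₁ hker _hirr M q hq hqp hqM hq2 hM hunr hres

/-- **The frozen statement S38 from the four PIVOT cores** (`p ≥ 5` and `p = 3`). -/
theorem result_of_pivot_split
    (hPV5 : Fermat.Agent.S38.P3.Stmt_PivotWCore5)
    (hSO5 : Fermat.Agent.S38.P3.Stmt_PivotWCoreSO5)
    (hPV3 : Fermat.Agent.S38.P3.Stmt_PivotWCore3)
    (hSO3 : Fermat.Agent.S38.P3.Stmt_PivotWCoreSO3)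
    (p : ℕ) [Fact p.Prime] (_hp2 : p ≠ 2) (W : WeierstrassCurve ℤ) (_hΔ : W.Δ ≠ 0)
    (_hW : W.IsSemistableModel)
    (hcard₁ : Nat.card (Submodule.torsionBy ℤ
      ((W.map (Int.castRingHom ℚ))⁄(AlgebraicClosure ℚ)).Point p) = p ^ 2)
    (hker : GaloisFactorsThroughFiniteLevel
      (WeierstrassCurve.Affine.Point.galoisRepModuleEnd (K := AlgebraicClosure ℚ) ℚ
        (W.map (Int.castRingHom ℚ)) p))
    (_hirr : W.ModRepIsIrreducible p) (M q : ℕ) (hq : q.Prime) (hqp : q ≠ p)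
    (hqM : q ∣ M) (hq2 : ¬ q ^ 2 ∣ M) (hM : Squarefree M)
    (hunr : ((W.map (Int.castRingHom ℚ)).residualGaloisRepOf p hcard₁ hker).IsUnramifiedAt q)
    (hres : W.IsResiduallyModularOfLevel p M) :
    W.IsResiduallyModularOfLevel p (M / q) :=
  result_of_pivot (Fermat.Agent.S38.P3.pivotWCoreAll_of hPV5 hPV3)
    (Fermat.Agent.S38.P3.pivotWCoreSOAll_of hSO5 hSO3) p _hp2 W _hΔ _hW hcard₁ hker _hirr M q hq
    hqp hqM hq2 hM hunr hres

/-- **LL for semistable curves from SQUARE removal and the two PIVOT cores.** -/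
theorem llec_of_pivot (hSQ : Fermat.Agent.S59.LL.Stmt_SQ)
    (hPV : Fermat.Agent.S38.P3.Stmt_PivotWCoreAll)
    (hSO : Fermat.Agent.S38.P3.Stmt_PivotWCoreSOAll) : Fermat.Agent.S59.LL.Stmt_LLec :=
  Fermat.Agent.S59.LL.H40.llec_of_ss hSQ (s38_of_pivot hPV hSO) Fermat.Agent.S39.H93.stmt_S39ss

end Fermat.Agent.S38.H93

end
end
-- ==== END Fermat.Agent.S38.H93_Wire4

-- ==== BEGIN Fermat.Agent.S41.H94_Leaves
section

/-!
# S41, package P: all leaves are proved; unconditional statements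

* `leaves : Leaves`
* `dual_ihara_of_ihara : Stmt_IHARA → Stmt_DUAL` (dual Ihara, the output of package P)
* unconditional forms of the pairing API on `Hom_cusp(Gamma0 M, k)`.
-/

set_option autoImplicit false

open scoped MatrixGroups
open CongruenceSubgroup

namespace Fermat.Agent.S41.H94

/-- All leaves of package P. -/
theorem leaves : Leaves where
  psl := H41.stmt_PSL
  c3 := Lead.stmt_C3
  par := Lead.stmt_PAR
  surj := H77.stmt_SURJ
  adj1 := H78.stmt_ADJ1
  b1 := H96.stmt_B1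
  b2 := H77.stmt_B2
  b3 := H96.stmt_B3
  cusp := H96.stmt_CUSP
  ml := H96.stmt_ML

section Main

open WeierstrassCurve WeierstrassCurve.Affine WeierstrassCurve.Affine.Point

/-- **Dual Ihara** as a `Prop`: the eigensystem of `W` does not occur in the cokernel of
`(cor1, cor2) : V_{N q'} → V_N × V_N` (`V_M` = cuspidal homs `Gamma0 M → ZMod p`). -/
def Stmt_DUAL : Prop :=
  ∀ (E : WeierstrassCurve ℚ) [E.IsElliptic] (W : WeierstrassCurve ℤ), W.IsIntegralModelOf E →
    ∀ (p N q' : ℕ), p.Prime → p ≠ 2 → 0 < N → q'.Prime → ¬ q' ∣ N → q' ≠ p →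
    GaloisRepIsIrreducible (K := AlgebraicClosure ℚ) ℚ E p →
    ∀ v₁ v₂ : Additive (Gamma0 N) →+ ZMod p,
    IsCuspidalHom (Gamma0 N) v₁ → IsCuspidalHom (Gamma0 N) v₂ →
    (v₁, v₂) ∈ Submodule.span (ZMod p) (dualSet W p N q')

/-- Dual Ihara from Ihara's lemma (package P, unconditional in the leaves). -/
theorem dual_ihara_of_ihara (hI : Stmt_IHARA) : Stmt_DUAL :=
  fun E _ W hW p N q' hp hp2 hN hq' hq'N hq'p hirr v₁ v₂ h₁ h₂ =>
    dual_ihara leaves hI E W hW p N q' hp hp2 hN hq' hq'N hq'p hirr v₁ v₂ h₁ h₂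

end Main

end Fermat.Agent.S41.H94

end
-- ==== END Fermat.Agent.S41.H94_Leaves

-- ==== BEGIN Fermat.Agent.S59.CaseC.H47_StepPAux
section

/-!
# S59, case C, the step at `p` (helper47), part 2: auxiliary lemmas

* `residual_isEquiv_of_datum` : the residual representation of a Hecke–Galois datum is `ρbar`
                                (from `FrobHyp`, `Datum.H57.stmt_ResEq`).
* `isOrdinaryAt_of_bijective` : descent of ordinarity along a bijective classifying map.
* `ofResidual_isOrdinaryAt_of_residual_isEquiv` : a representation with residual representation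
                                `ρbar` (ordinary) is residually ordinary.
* `eigen_eq_torsP`            : the eigenspace of a state is the `𝔭`-torsion of the module over
                                the local Hecke ring.
* `card_quot_span_unit_mul`   : `#(𝒪/(u a)) = #(𝒪/(a))` for a unit `u`.
-/

set_option autoImplicit false
set_option linter.unusedSectionVars false
set_option linter.style.haveILetI false
set_option linter.unusedVariables false

open Polynomial CuspForm IsLocalRing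

namespace Fermat.Agent.S59.CaseC.H47

open Fermat.Agent.S59 Fermat.Agent.S59.Asm Fermat.Agent.S59.NonMin
  Fermat.Agent.S59.NonMin.H47

/-- The residual representation of a Hecke–Galois datum is `ρbar` as soon as the Frobenius
characteristic polynomials of `ρbar` are given by `θ`. -/
theorem residual_isEquiv_of_datum {𝒪 : Type} [CommRing 𝒪] [IsDomain 𝒪]
    [IsDiscreteValuationRing 𝒪] [IsAdicComplete (maximalIdeal 𝒪) 𝒪] [Finite (ResidueField 𝒪)]
    [CharZero 𝒪]
    {N : ℕ} [NeZero N] {S : Finset ℕ}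
    {θ : CuspForm.heckeAlgebra N 2 (↑S : Set ℕ) →+* ResidueField 𝒪}
    {T : Type} [CommRing T] [IsLocalRing T] [IsNoetherianRing T]
    [IsAdicComplete (maximalIdeal T) T] [Algebra 𝒪 T] [IsLocalHom (algebraMap 𝒪 T)]
    [Module.Finite 𝒪 T] [Module.Free 𝒪 T]
    (H : CuspForm.HeckeGaloisRepDatum N (↑S : Set ℕ) 𝒪 θ T)
    (hNS : ∀ q : ℕ, q.Prime → q ∣ N → q ∈ S)
    (ρbar : ResidualGaloisRep (ResidueField 𝒪)) (habs : ρbar.IsAbsolutelyIrreducible)
    (hθ : Fermat.Agent.S59.Datum.FrobHyp ρbar N S θ) :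
    H.ρ.residual.IsEquiv (ρbar.baseChangeAlong (ResidueField.map (algebraMap 𝒪 T))) := by
  refine Fermat.Agent.S59.Datum.H57.stmt_ResEq _ _ _ S
    (Fermat.Agent.S59.Datum.H57.absIrr_baseChangeAlong _ ρbar habs) ?_
  intro ℓ hℓ hℓS B hB σ hσ
  rw [charpoly_bcAlong_resid]
  exact Fermat.Agent.S59.Datum.H7.residual_charpoly 𝒪 N S H.π θ H.residue_π H.ρ
    H.charpoly_frob ρbar hθ hNS ℓ hℓ hℓS B hB σ hσ

/-- **Descent of ordinarity along a bijective classifying map.** -/
theorem isOrdinaryAt_of_bijective {A B : Type} [CommRing A] [IsLocalRing A]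
    [IsNoetherianRing A] [CommRing B] [IsLocalRing B]
    (φ : A →+* B) (hφb : Function.Bijective φ) (hφ : IsLocalHom φ)
    (ρ : GaloisRepAdic A) (ρ' : GaloisRepAdic B)
    (he : (ρ.baseChangeAlong φ hφ).IsEquiv ρ')
    (hirr : ρ'.residual.IsAbsolutelyIrreducible) (p : ℕ)
    (h : ρ'.IsOrdinaryAt p) : ρ.IsOrdinaryAt p := by
  let e : A ≃+* B := RingEquiv.ofBijective φ hφb
  let ψ : B →+* A := (e.symm : B →+* A)
  have hφψ : ∀ y : B, φ (ψ y) = y := fun y => e.apply_symm_apply y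
  have hψφ : ∀ y : A, ψ (φ y) = y := fun y => e.symm_apply_apply y
  have hψl : IsLocalHom ψ := by
    constructor
    intro y hy
    have h1 : IsUnit (φ (ψ y)) := hy.map φ
    rw [hφψ] at h1
    exact h1
  have hirr' : (ρ'.baseChangeAlong ψ hψl).residual.IsAbsolutelyIrreducible :=
    Fermat.Agent.R.H86.residual_absIrr_baseChangeAlong ψ hψl ρ' hirr
  have he' : (ρ'.baseChangeAlong ψ hψl).IsEquiv ρ := by
    refine Fermat.Agent.S59.Asm.H57.isEquiv_of_frobenius _ ρ hirr' ∅ fun ℓ _ _ C _ σ _ => ?_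
    have h4 : ψ.comp φ = RingHom.id A := RingHom.ext fun y => hψφ y
    rw [charpoly_bcAlong, ← charpoly_of_isEquiv he σ, charpoly_bcAlong, Polynomial.map_map, h4,
      Polynomial.map_id]
  exact isOrdinaryAt_of_isEquiv he' p (isOrdinaryAt_baseChangeAlong ψ hψl ρ' p h)

/-- A representation whose residual representation is (a base change of) an ordinary `ρbar` is
residually ordinary. -/
theorem ofResidual_isOrdinaryAt_of_residual_isEquiv {k k' : Type} [Field k] [Field k']
    (f : k →+* k') (ρbar : ResidualGaloisRep k) (ρ' : ResidualGaloisRep k')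
    (he : ρ'.IsEquiv (ρbar.baseChangeAlong f)) (p : ℕ)
    (h : (GaloisRepAdic.ofResidualGaloisRep ρbar).IsOrdinaryAt p) :
    (GaloisRepAdic.ofResidualGaloisRep ρ').IsOrdinaryAt p := by
  have h1 : (GaloisRepAdic.ofResidualGaloisRep (ρbar.baseChangeAlong f)).IsOrdinaryAt p :=
    fun P hP => ordinary_core f (GaloisRepAdic.ofResidualGaloisRep ρbar) P (h P hP)
  obtain ⟨e⟩ := he
  exact Fermat.Agent.S59.NonMin.H2.ofResidual_isOrdinaryAt_of_isEquiv ⟨e.symm⟩ p h1

/-- The eigenspace of a state is the `𝔭`-torsion of the module over the local Hecke ring. -/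
theorem eigen_eq_torsP {𝒪 : Type} [CommRing 𝒪] [IsLocalRing 𝒪] (s : NMState 𝒪)
    {T : Type} [CommRing T] [Algebra 𝒪 T]
    (π : CuspForm.heckeAlgebra s.N 2 (↑s.S : Set ℕ) →+* T)
    (hadj : Algebra.adjoin 𝒪 (Set.range π) = ⊤)
    (ηhat : T →ₐ[𝒪] Module.End 𝒪 s.M.V) (hη : ∀ t, ηhat (π t) = s.M.η t)
    (πx : T →ₐ[𝒪] 𝒪) (x : CuspForm.heckeAlgebra s.N 2 (↑s.S : Set ℕ) →+* 𝒪)
    (hπx : ∀ t, πx (π t) = x t) :
    s.eigen x = Fermat.Agent.S59.NonMin.H90.torsP ηhat πx := by
  ext v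
  rw [NMState.mem_eigen, Fermat.Agent.S59.NonMin.H90.mem_torsP_iff_of_adjoin hadj]
  constructor
  · intro h t
    rw [hη, hπx]
    exact h t
  · intro h t
    have := h t
    rw [hη, hπx] at this
    exact this

/-- `#(𝒪/(u a)) = #(𝒪/(a))` for a unit `u`. -/
theorem card_quot_span_unit_mul {𝒪 : Type} [CommRing 𝒪] (u a : 𝒪) (hu : IsUnit u) :
    Nat.card (𝒪 ⧸ Ideal.span {u * a}) = Nat.card (𝒪 ⧸ Ideal.span {a}) := by
  rw [Ideal.span_singleton_mul_left_unit hu]

end Fermat.Agent.S59.CaseC.H47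

end
-- ==== END Fermat.Agent.S59.CaseC.H47_StepPAux

-- ==== BEGIN Fermat.Agent.S59.LL.SQ.H16_RegStmt
section

/-!
# S59 / LL / SQ, leaf R1 REG-TAME (helper16): helper58's `Stmt_Reg11Tame`

`stmt_Reg11Tame : H58.Stmt_Reg11Tame`, unconditionally (from `H16.reg11At_tame`).
-/

set_option autoImplicit false
set_option synthInstance.maxHeartbeats 400000
set_option maxHeartbeats 1000000
set_option linter.unusedVariables false

noncomputable section

namespace Fermat.Agent.S59.LL.SQ.H16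

/-- **REG for the component `11` at the tame levels** (helper58's statement), unconditionally. -/
theorem stmt_Reg11Tame : Fermat.Agent.S59.LL.SQ.H58.Stmt_Reg11Tame :=
  fun p hp _ q M B k hB hq _ _ _ _ _ htame hqM A hA =>
    reg11At_tame A q M B k hB hq hqM hA htame p hp.pos

end Fermat.Agent.S59.LL.SQ.H16

end
end
-- ==== END Fermat.Agent.S59.LL.SQ.H16_RegStmt
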